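-- GENERATED (merged mirror, NOTES/tools/trim/merge3_helper67.py): 4 modules of the originals, bodies verbatim.
import Mathlib.Data.Nat.Nth
import Fermat.Agent.Zm.S33_L02_002
import Fermat.Agent.Zm.S35_L21_000
import Fermat.Agent.Zm.S35_L11_001
import Fermat.Agent.Zm.S35_L08_000
import Fermat.Agent.Zm.S33_L02_003
import Fermat.Agent.Zm.S35_L17_000
import Fermat.Agent.Zm.S33_L01_004
import Fermat.Agent.Zm.S33_L02_004
import Fermat.Agent.Zm.S35_L04_002
import Fermat.Agent.Zm.S48_L01_002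

-- ==== BEGIN Fermat.Agent.S17.Height.H35_H90
section

/-!
# S17 part H (helper35): H90, descent of `L(D)` for stable `D`, rational adapted bases

Abstract setting as in `H35_MoveD`: `F / K` a function field (`Hyp K F`), a group `G` acting
semilinearly through `ρ`, a leading coefficient `lcd : LeadCoeff ρ`.

* `exists_fixed_generator` (H90): a `G`-stable principal divisor has a `G`-fixed generator with
  leading coefficient `1`.
* `OpenSys ρ`: every function is fixed by a closed subgroup of finite index.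
* `mem_span_fixed_L`: for a `G`-stable divisor `D`, the space `L(D)` is spanned by its `G`-fixed
  elements.
* `repr_smul_of_fixed`: coordinates with respect to a basis of `G`-fixed functions commute with `G`.
* `ratSeq`, `ratDim`: for a `G`-fixed place `P` (of degree one), a sequence `e₀, e₁, …` of `G`-fixed
  functions, with poles only at `P`, of strictly increasing pole orders and leading coefficient `1`
  such that for every `m` the first `ratDim m` of them form a basis of `L(m P)`.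
-/

set_option autoImplicit false

noncomputable section

open AlgebraicCurve

namespace Fermat.Agent.S17.H35

open Fermat.Agent.RED.H42 Fermat.Agent.S17

variable {K F : Type*} [Field K] [Field F] [Algebra K F]
variable {G : Type*} [Group G] {ρ : G →* SemilinearAut K F}

local notation "L" => riemannRochSpace

/-- The `G`-fixed functions. -/
def fixedFun (ρ : G →* SemilinearAut K F) : Set F := {f : F | ∀ σ : G, ρ σ • f = f}

theorem mem_fixedFun {f : F} : f ∈ fixedFun ρ ↔ ∀ σ : G, ρ σ • f = f := Iff.rfl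

theorem zero_mem_fixedFun : (0 : F) ∈ fixedFun ρ := fun _ => smul_zero _

theorem one_mem_fixedFun : (1 : F) ∈ fixedFun ρ := fun _ => smul_one _

theorem add_mem_fixedFun {f g : F} (hf : f ∈ fixedFun ρ) (hg : g ∈ fixedFun ρ) :
    f + g ∈ fixedFun ρ := fun σ => by rw [smul_add, hf σ, hg σ]

theorem mul_mem_fixedFun {f g : F} (hf : f ∈ fixedFun ρ) (hg : g ∈ fixedFun ρ) :
    f * g ∈ fixedFun ρ := fun σ => by rw [smul_mul', hf σ, hg σ]

theorem inv_mem_fixedFun {f : F} (hf : f ∈ fixedFun ρ) : f⁻¹ ∈ fixedFun ρ := fun σ => by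
  rw [smul_inv'', hf σ]

theorem algebraMap_mem_fixedFun {c : K} (hc : ∀ σ : G, SemilinearAut.baseAut (ρ σ) c = c) :
    algebraMap K F c ∈ fixedFun ρ := fun σ => by
  rw [SemilinearAut.smul_algebraMap, hc σ]

/-- The leading coefficient of a fixed function is fixed. -/
theorem lc_fixed (lcd : LeadCoeff ρ) {f : F} (hf : f ∈ fixedFun ρ) (σ : G) :
    SemilinearAut.baseAut (ρ σ) (lcd.lc f) = lcd.lc f := by
  rw [← lcd.lc_smul, hf σ]

/-- Normalisation of a fixed function. -/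
theorem normalise_mem_fixedFun (lcd : LeadCoeff ρ) {f : F} (hf : f ∈ fixedFun ρ) :
    f * algebraMap K F (lcd.lc f)⁻¹ ∈ fixedFun ρ := by
  refine mul_mem_fixedFun hf (algebraMap_mem_fixedFun fun σ => ?_)
  rw [map_inv₀, lc_fixed lcd hf]

theorem lc_normalise (lcd : LeadCoeff ρ) {f : F} (hf : f ≠ 0) :
    lcd.lc (f * algebraMap K F (lcd.lc f)⁻¹) = 1 := by
  rw [lcd.lc_mul, lcd.lc_algebraMap]
  exact mul_inv_cancel₀ (lcd.lc_ne_zero _ hf)

theorem normalise_ne_zero (lcd : LeadCoeff ρ) {f : F} (hf : f ≠ 0) :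
    f * algebraMap K F (lcd.lc f)⁻¹ ≠ 0 := by
  refine mul_ne_zero hf ?_
  rw [Ne, map_eq_zero_iff _ (algebraMap K F).injective]
  exact inv_ne_zero (lcd.lc_ne_zero _ hf)

theorem ord_normalise (lcd : LeadCoeff ρ) {f : F} (hf : f ≠ 0) (v : Place K F) :
    v.ord (f * algebraMap K F (lcd.lc f)⁻¹) = v.ord f := by
  have hne : algebraMap K F (lcd.lc f)⁻¹ ≠ 0 := by
    rw [Ne, map_eq_zero_iff _ (algebraMap K F).injective]
    exact inv_ne_zero (lcd.lc_ne_zero _ hf)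
  rw [v.ord_mul hf hne, ord_algebraMap_of_ne v (inv_ne_zero (lcd.lc_ne_zero _ hf)), add_zero]

/-- **H90**: a nonzero function with a `G`-stable divisor is, after normalisation of the leading
coefficient, `G`-fixed. -/
theorem exists_fixed_generator (H : Hyp K F) (lcd : LeadCoeff ρ) {D : Divisor K F}
    (hD : ∀ σ : G, ρ σ • D = D) {w : F} (hw : w ≠ 0) (hord : ∀ v : Place K F, v.ord w = D v) :
    ∃ w' : F, w' ≠ 0 ∧ (∀ v : Place K F, v.ord w' = D v) ∧ lcd.lc w' = 1 ∧ w' ∈ fixedFun ρ := by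
  refine ⟨w * algebraMap K F (lcd.lc w)⁻¹, normalise_ne_zero lcd hw,
    fun v => by rw [ord_normalise lcd hw, hord], lc_normalise lcd hw, fun σ => ?_⟩
  have h0 := normalise_ne_zero lcd hw
  have hσ : ρ σ • (w * algebraMap K F (lcd.lc w)⁻¹) ≠ 0 := by
    rw [Ne, smul_eq_zero_iff_eq]
    exact h0
  apply eq_of_ord_eq_of_lc_eq H lcd hσ h0
  · intro v
    rw [ord_smul', ord_normalise lcd hw, ord_normalise lcd hw, hord, hord]
    conv_rhs => rw [← hD σ]
    exact (SemilinearAut.divisor_smul_apply _ _ _).symm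
  · rw [lcd.lc_smul, lc_normalise lcd hw, map_one]

/-- The divisor of a fixed function is stable. -/
theorem ord_smul_place_of_fixed {f : F} (hf : f ∈ fixedFun ρ) (σ : G) (v : Place K F) :
    (ρ σ • v).ord f = v.ord f := by
  have h := SemilinearAut.ord_smul (ρ σ) v f
  rwa [hf σ] at h

/-! ## Descent of `L(D)` -/

/-- Every function is fixed by a closed subgroup of finite index. -/
structure OpenSys (ρ : G →* SemilinearAut K F) : Prop where
  exists_fix : ∀ f : F, ∃ U : Subgroup G, U.FiniteIndex ∧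
    (∀ σ τ : G, (∀ c : K, (∀ u ∈ U, SemilinearAut.baseAut (ρ u) c = c) →
      SemilinearAut.baseAut (ρ σ) c = SemilinearAut.baseAut (ρ τ) c) → σ⁻¹ * τ ∈ U) ∧
    ∀ σ ∈ U, ρ σ • f = f

theorem smul_mem_L_of_stable {D : Divisor K F} (hD : ∀ σ : G, ρ σ • D = D) (σ : G) {f : F}
    (hf : f ∈ L D) : ρ σ • f ∈ L D := by
  by_cases hf0 : f = 0
  · rw [hf0, smul_zero]
    exact Submodule.zero_mem _
  apply mem_L_of_neg_le_ord
  intro v
  rw [ord_smul']
  have h1 := neg_le_ord_of_mem hf hf0 ((ρ σ)⁻¹ • v)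
  have h3 : D v = D ((ρ σ)⁻¹ • v) := by
    conv_lhs => rw [← hD σ]
    exact SemilinearAut.divisor_smul_apply _ _ _
  omega

theorem smul_smul_semilinear (σ : G) (c : K) (f : F) :
    ρ σ • (c • f) = baseHom ρ σ c • (ρ σ • f) := by
  rw [Algebra.smul_def, Algebra.smul_def, smul_mul', SemilinearAut.smul_algebraMap, baseHom_apply]

/-- **Descent**: for a `G`-stable divisor `D`, the space `L(D)` is spanned by its `G`-fixed
elements. -/
theorem mem_span_fixed_L (O : OpenSys ρ) {D : Divisor K F} (hD : ∀ σ : G, ρ σ • D = D) {f : F}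
    (hf : f ∈ L D) : f ∈ Submodule.span K (fixedFun ρ ∩ (L D : Set F)) := by
  obtain ⟨U, hU, hsep, hfix⟩ := O.exists_fix f
  let r' : G → L D → L D := fun σ x => ⟨ρ σ • x.1, smul_mem_L_of_stable hD σ x.2⟩
  have h1 : (⟨f, hf⟩ : L D) ∈ Submodule.span K (invVectors r') := by
    refine mem_span_invariants (a := baseHom ρ) (r := r') ?_ ?_ ?_ U hsep ?_
    · intro σ x y
      exact Subtype.ext (smul_add _ _ _)
    · intro σ τ x
      apply Subtype.ext
      show ρ (σ * τ) • x.1 = ρ σ • (ρ τ • x.1)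
      rw [map_mul, mul_smul]
    · intro σ c x
      exact Subtype.ext (smul_smul_semilinear σ c x.1)
    · intro u hu
      exact Subtype.ext (hfix u hu)
  have h2 := Submodule.mem_map_of_mem (f := (L D).subtype) h1
  rw [Submodule.map_span] at h2
  refine Submodule.span_mono ?_ h2
  rintro _ ⟨x, hx, rfl⟩
  exact ⟨fun σ => congrArg Subtype.val (hx σ), x.2⟩

/-- If a `G`-stable `L(D)` contains a function of exact order `-D(v)` at `v`, it contains a
`G`-fixed one. -/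
theorem exists_fixed_exact (O : OpenSys ρ) {D : Divisor K F} (hD : ∀ σ : G, ρ σ • D = D)
    (v : Place K F) {f : F} (hf : f ∈ L D) (hf0 : f ≠ 0) (hord : v.ord f = -D v) :
    ∃ e : F, e ∈ fixedFun ρ ∧ e ∈ L D ∧ e ≠ 0 ∧ v.ord e = -D v := by
  by_contra hcon
  push Not at hcon
  have hle : Submodule.span K (fixedFun ρ ∩ (L D : Set F)) ≤ L (D - Finsupp.single v 1) := by
    rw [Submodule.span_le]
    rintro g ⟨hg1, hg2⟩
    by_cases hg0 : g = 0
    · rw [hg0]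
      exact Submodule.zero_mem _
    exact (mem_L_sub_single_iff hg2 hg0 v).2 (hcon g hg1 hg2 hg0)
  have h1 := hle (mem_span_fixed_L O hD hf)
  exact (mem_L_sub_single_iff hf hf0 v).1 h1 hord

/-! ## Coordinates with respect to a fixed basis -/

/-- Coordinates with respect to a basis of fixed functions commute with `G`. -/
theorem repr_smul_of_fixed {ι : Type*} {V : Submodule K F} (e : Module.Basis ι K V)
    (he : ∀ i, (e i : F) ∈ fixedFun ρ) (σ : G) (f : V) (hσf : ρ σ • (f : F) ∈ V) (i : ι) :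
    e.repr ⟨ρ σ • (f : F), hσf⟩ i = SemilinearAut.baseAut (ρ σ) (e.repr f i) := by
  classical
  have h1 : (f : F) = ∑ j ∈ (e.repr f).support, e.repr f j • (e j : F) := by
    have h2 := e.linearCombination_repr f
    rw [Finsupp.linearCombination_apply, Finsupp.sum] at h2
    have h3 := congrArg (V.subtype) h2
    rw [map_sum] at h3
    simpa using h3.symm
  have h4 : ρ σ • (f : F)
      = ∑ j ∈ (e.repr f).support, SemilinearAut.baseAut (ρ σ) (e.repr f j) • (e j : F) := by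
    conv_lhs => rw [h1]
    rw [Finset.smul_sum]
    refine Finset.sum_congr rfl fun j _ => ?_
    rw [smul_smul_semilinear, baseHom_apply, he j σ]
  have h5 : (⟨ρ σ • (f : F), hσf⟩ : V)
      = ∑ j ∈ (e.repr f).support, SemilinearAut.baseAut (ρ σ) (e.repr f j) • e j := by
    apply Subtype.ext
    show ρ σ • (f : F) = _
    rw [h4]
    simp
  rw [h5, map_sum]
  simp only [map_smul, Module.Basis.repr_self, Finsupp.smul_single, smul_eq_mul, mul_one,
    Finsupp.coe_finsetSum, Finset.sum_apply]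
  rw [Finset.sum_eq_single i]
  · simp
  · intro j _ hji
    simp [hji]
  · intro hi
    rw [Finsupp.notMem_support_iff] at hi
    simp [hi]

end Fermat.Agent.S17.H35

end
end
-- ==== END Fermat.Agent.S17.Height.H35_H90

-- ==== BEGIN Fermat.Agent.S33.New.H54_Level
section

/-!
# S33, the `p`-new case: from the torsion-level statement (T3) to the Tate limit  (helper54)

Level `M p`, `C : TateCoords (M p) p S`, `L : TateLimit C 𝒪 hp`, `A` a valuation ring of `ℚ̄` over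
`p`, `τ, σ₀, σ₁` in its inertia group, `τ ζ = ζ ^ a` on the `p`-th roots of unity, `w` an
old-killer (`wordSH M S w = 0`), `W` its matrix, `B_i = (ρ(σ_i) - 1) W`.

* `K1Test A M p g` : `(g - 1)` maps the `p`-new classes of `J₀(M p)[p^k]` into `K1(p^k)`, for
  all `k`; it holds for `g` in the inertia group of `A` by (B0) (`k1Test_of_mem_inertia`).
  (`σ₁` is only assumed to satisfy the `K1`-test: this is used for strict ordinarity.)
* `tors_OrdNew` : (B0) + (T2) + (T3): a class `z = (σ₀ - 1) w x₀ + (σ₁ - 1) w x₁` of `p`-power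
  torsion with `p z = 0` satisfies `τ z = a z`.
* `rho_OrdNew`  : the same in the coordinates of level `p^k`.
* `limit_OrdNew` : for every `k` there is a matrix `D'` over `𝒪` with
  `(ρL(τ) - a) B_i ≡ p D' B_i` modulo `𝔪^k` (`i = 0, 1`).
* `vec_OrdNew` : if `x g = B₀ g₀ + B₁ g₁` with `x ≠ 0`, then `(ρL(τ) - a) g ∈ 𝔪 𝒪^r`.
-/

set_option autoImplicit false
set_option linter.unusedSectionVars false

noncomputable section

namespace Fermat.Agent.S33.New.H54

open AlgebraicCurve ModularCurve Fermat.Agent.GTor Fermat.Agent.GTor.H81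
  Fermat.Agent.GTor.H58T1 Fermat.Agent.Betti.H76 Fermat.Agent.S35.H89 Fermat.Agent.BAD

section K1

variable {A : ValuationSubring (AlgebraicClosure ℚ)} {N n : ℕ}

/-- a function of the Gauss valuation ring with reduction `1` is not zero. -/
theorem ne_zero_of_gaussRes_one {f : ↥(gaussV A N)} (h : gaussRes A N f = 1) :
    (f : ↥(FNbar N)) ≠ 0 := by
  intro h0
  have : f = 0 := Subtype.ext h0
  rw [this, map_zero] at h
  exact zero_ne_one h

/-- `K1(n)` is closed under addition (as `Fermat.Agent.S43.BadQ.InK1.add`, restated here to keep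
the import closure small). -/
theorem inK1_add {x y : JZero N} (hx : InK1 A N n x) (hy : InK1 A N n y) :
    InK1 A N n (x + y) := by
  obtain ⟨D, f, rfl, hf, hD⟩ := hx
  obtain ⟨E, g, rfl, hg, hE⟩ := hy
  refine ⟨D + E, f * g, (Pic0.mk_add D E).symm, by rw [map_mul, hf, hg, mul_one], fun P => ?_⟩
  have h1 : (((f * g : ↥(gaussV A N)) : ↥(FNbar N))) = (f : ↥(FNbar N)) * (g : ↥(FNbar N)) := rfl
  rw [h1, Place.ord_mul _ (ne_zero_of_gaussRes_one hf) (ne_zero_of_gaussRes_one hg),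
    ← hD P, ← hE P]
  show (n : ℤ) * ((D : Divisor (AlgebraicClosure ℚ) ↥(FNbar N)) +
    (E : Divisor (AlgebraicClosure ℚ) ↥(FNbar N))) P = _
  rw [Finsupp.add_apply, mul_add]

end K1

/-- **The `K1`-test** for `g ∈ G_ℚ`: `(g - 1)` maps the `p`-new classes of `J₀(M p)[p^k]` into
`K1(p^k)`, for every `k`. -/
def K1Test (A : ValuationSubring (AlgebraicClosure ℚ)) (M p : ℕ) [NeZero M] [NeZero p]
    (g : GQ) : Prop :=
  ∀ (k : ℕ) (x : JZero (M * p)), p ^ k • x = 0 → IsQNew M p x →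
    InK1 A (M * p) (p ^ k) (g • x - x)

/-- The elements of the inertia group satisfy the `K1`-test (B0). -/
theorem k1Test_of_mem_inertia (A : ValuationSubring (AlgebraicClosure ℚ)) (M p : ℕ) [NeZero M]
    [NeZero p] {g : GQ} (hg : g ∈ A.inertiaSubgroupIn ℚ) : K1Test A M p g :=
  fun k x hx _ => Fermat.Agent.BAD.H91.stmt_B0 (M * p) A g hg (p ^ k) x hx

section Tors

variable {M p : ℕ} [NeZero M] [NeZero p] {S : Set ℕ}

/-- **(B0) + (T2) + (T3)** for the classes `(σ₀ - 1) w x₀ + (σ₁ - 1) w x₁`. -/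
theorem tors_OrdNew (hT3 : Stmt_TorsOrdNew M p) (hp : p.Prime) (hp2 : p ≠ 2) (hpM : ¬ p ∣ M)
    (hS : ∀ l : ℕ, l.Prime → l ∣ M * p → l ∈ S)
    {A : ValuationSubring (AlgebraicClosure ℚ)} (hA : A.LiesOverPrime p)
    {τ σ₀ σ₁ : GQ} (hτ : τ ∈ A.inertiaSubgroupIn ℚ) (hσ₀ : σ₀ ∈ A.inertiaSubgroupIn ℚ)
    (hσ₁ : K1Test A M p σ₁) (a : ℕ)
    (ha : ∀ ζ : AlgebraicClosure ℚ, ζ ^ p = 1 → τ ζ = ζ ^ a)
    {w : FreeAlgebra ℤ (Gen S)} (hw : wordSH M S w = 0) (k : ℕ)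
    (x₀ x₁ : JZero (M * p)) (hx₀ : p ^ (1 + k) • x₀ = 0) (hx₁ : p ^ (1 + k) • x₁ = 0)
    (hz : p • ((σ₀ • wordJ (M * p) S w x₀ - wordJ (M * p) S w x₀) +
      (σ₁ • wordJ (M * p) S w x₁ - wordJ (M * p) S w x₁)) = 0) :
    τ • ((σ₀ • wordJ (M * p) S w x₀ - wordJ (M * p) S w x₀) +
        (σ₁ • wordJ (M * p) S w x₁ - wordJ (M * p) S w x₁)) =
      a • ((σ₀ • wordJ (M * p) S w x₀ - wordJ (M * p) S w x₀) +
        (σ₁ • wordJ (M * p) S w x₁ - wordJ (M * p) S w x₁)) := by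
  have hw₀ : p ^ (1 + k) • wordJ (M * p) S w x₀ = 0 := by rw [← map_nsmul, hx₀, map_zero]
  have hw₁ : p ^ (1 + k) • wordJ (M * p) S w x₁ = 0 := by rw [← map_nsmul, hx₁, map_zero]
  have hnew₁ : IsQNew M p (wordJ (M * p) S w x₁) :=
    isQNew_word hp (Fermat.Agent.S36.H44.stmt_Y1 M p) hS hw _ ⟨1 + k, hx₁⟩
  -- `z` lies in `K1(p^(1+k))`
  have hK : InK1 A (M * p) (p ^ (1 + k))
      ((σ₀ • wordJ (M * p) S w x₀ - wordJ (M * p) S w x₀) +
        (σ₁ • wordJ (M * p) S w x₁ - wordJ (M * p) S w x₁)) :=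
    inK1_add
      (Fermat.Agent.BAD.H91.stmt_B0 (M * p) A σ₀ hσ₀ (p ^ (1 + k)) _ hw₀)
      (hσ₁ (1 + k) _ hw₁ hnew₁)
  have hK1 : InK1 A (M * p) p
      ((σ₀ • wordJ (M * p) S w x₀ - wordJ (M * p) S w x₀) +
        (σ₁ • wordJ (M * p) S w x₁ - wordJ (M * p) S w x₁)) := by
    have h1 : p ^ 1 • ((σ₀ • wordJ (M * p) S w x₀ - wordJ (M * p) S w x₀) +
        (σ₁ • wordJ (M * p) S w x₁ - wordJ (M * p) S w x₁)) = 0 := by rw [pow_one]; exact hz
    have h2 := Fermat.Agent.S33.H46.inK1_of_pow (M * p) A hp hA 1 k _ hK h1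
    rwa [pow_one] at h2
  -- `z` is `p`-new
  have hznew : (σ₀ • wordJ (M * p) S w x₀ - wordJ (M * p) S w x₀) +
      (σ₁ • wordJ (M * p) S w x₁ - wordJ (M * p) S w x₁) =
      wordJ (M * p) S w ((σ₀ • x₀ - x₀) + (σ₁ • x₁ - x₁)) := by
    rw [map_add, map_sub, map_sub, ← wordJ_gal w σ₀ x₀, ← wordJ_gal w σ₁ x₁]
  have e : ∀ (σ : GQ) (x : JZero (M * p)), p ^ (1 + k) • x = 0 →
      p ^ (1 + k) • (σ • x - x) = 0 := by
    intro σ x hx
    have h1 := map_nsmul (galHom (M * p) σ) (p ^ (1 + k)) x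
    rw [hx, map_zero, galHom_apply] at h1
    rw [nsmul_sub, hx, sub_zero, ← h1]
  have htor : ∃ n : ℕ, p ^ n • ((σ₀ • x₀ - x₀) + (σ₁ • x₁ - x₁)) = 0 :=
    ⟨1 + k, by rw [nsmul_add, e σ₀ x₀ hx₀, e σ₁ x₁ hx₁, add_zero]⟩
  have hnew : IsQNew M p ((σ₀ • wordJ (M * p) S w x₀ - wordJ (M * p) S w x₀) +
      (σ₁ • wordJ (M * p) S w x₁ - wordJ (M * p) S w x₁)) := by
    rw [hznew]
    exact isQNew_word hp (Fermat.Agent.S36.H44.stmt_Y1 M p) hS hw _ htor
  exact hT3 hp hp2 hpM A hA τ hτ a ha _ hz hnew hK1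

end Tors

section Level

variable {M p : ℕ} [NeZero M] [NeZero p] [Fact p.Prime] {S : Set ℕ}
  {C : TateCoords (M * p) p S}

/-- **(T3) at level `p^(1+k)`**, in coordinates. -/
theorem rho_OrdNew (hT3 : Stmt_TorsOrdNew M p) (hp2 : p ≠ 2) (hpM : ¬ p ∣ M)
    (hS : ∀ l : ℕ, l.Prime → l ∣ M * p → l ∈ S)
    {A : ValuationSubring (AlgebraicClosure ℚ)} (hA : A.LiesOverPrime p)
    {τ σ₀ σ₁ : GQ} (hτ : τ ∈ A.inertiaSubgroupIn ℚ) (hσ₀ : σ₀ ∈ A.inertiaSubgroupIn ℚ)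
    (hσ₁ : K1Test A M p σ₁) (a : ℕ)
    (ha : ∀ ζ : AlgebraicClosure ℚ, ζ ^ p = 1 → τ ζ = ζ ^ a)
    {w : FreeAlgebra ℤ (Gen S)} (hw : wordSH M S w = 0) (k : ℕ)
    (x₀ x₁ : Fin C.r → ZMod (p ^ (1 + k)))
    (hz : p • (((C.ρ (1 + k) σ₀ - 1) *
          Mc (ZMod (p ^ (1 + k))) C.M (wordSH (M * p) S w)).mulVec x₀ +
        ((C.ρ (1 + k) σ₁ - 1) *
          Mc (ZMod (p ^ (1 + k))) C.M (wordSH (M * p) S w)).mulVec x₁) = 0) :
    (C.ρ (1 + k) τ - ((a : ℕ) : Matrix (Fin C.r) (Fin C.r) (ZMod (p ^ (1 + k))))).mulVec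
      (((C.ρ (1 + k) σ₀ - 1) *
          Mc (ZMod (p ^ (1 + k))) C.M (wordSH (M * p) S w)).mulVec x₀ +
        ((C.ρ (1 + k) σ₁ - 1) *
          Mc (ZMod (p ^ (1 + k))) C.M (wordSH (M * p) S w)).mulVec x₁) = 0 := by
  have hpp : p.Prime := Fact.out
  obtain ⟨X₀, rfl⟩ := (C.θ (1 + k)).surjective x₀
  obtain ⟨X₁, rfl⟩ := (C.θ (1 + k)).surjective x₁
  -- the endomorphisms `(σ_i - 1) w`
  set f₀ : AddMonoid.End (Jtor (M * p) (p ^ (1 + k))) :=
    (TateCoords.galEnd (1 + k) σ₀ - 1) * resTor (M * p) (p ^ (1 + k)) (wordJ (M * p) S w)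
    with hf₀
  set f₁ : AddMonoid.End (Jtor (M * p) (p ^ (1 + k))) :=
    (TateCoords.galEnd (1 + k) σ₁ - 1) * resTor (M * p) (p ^ (1 + k)) (wordJ (M * p) S w)
    with hf₁
  have hm₀ : C.mat (1 + k) f₀ = (C.ρ (1 + k) σ₀ - 1) *
      Mc (ZMod (p ^ (1 + k))) C.M (wordSH (M * p) S w) := by
    rw [hf₀, map_mul, map_sub, map_one, C.mat_gal, C.mat_word hS]
  have hm₁ : C.mat (1 + k) f₁ = (C.ρ (1 + k) σ₁ - 1) *
      Mc (ZMod (p ^ (1 + k))) C.M (wordSH (M * p) S w) := by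
    rw [hf₁, map_mul, map_sub, map_one, C.mat_gal, C.mat_word hS]
  rw [← hm₀, ← hm₁, C.mat_mulVec, C.mat_mulVec, ← map_add] at hz ⊢
  set Z : Jtor (M * p) (p ^ (1 + k)) := f₀ X₀ + f₁ X₁ with hZ
  -- `p Z = 0`
  have hpZ : p • Z = 0 := by
    apply (C.θ (1 + k)).injective
    rw [map_nsmul, map_zero]
    exact hz
  have hZcoe : (Z : JZero (M * p)) =
      (σ₀ • wordJ (M * p) S w (X₀ : JZero (M * p)) - wordJ (M * p) S w (X₀ : JZero (M * p))) +
      (σ₁ • wordJ (M * p) S w (X₁ : JZero (M * p)) - wordJ (M * p) S w (X₁ : JZero (M * p))) :=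
    rfl
  have hpZ' : p • (Z : JZero (M * p)) = 0 := by
    have := congrArg (fun y : Jtor (M * p) (p ^ (1 + k)) => (y : JZero (M * p))) hpZ
    exact this
  rw [hZcoe] at hpZ'
  have key := tors_OrdNew hT3 hpp hp2 hpM hS hA hτ hσ₀ hσ₁ a ha hw k
    (X₀ : JZero (M * p)) (X₁ : JZero (M * p)) (pow_nsmul_coe X₀) (pow_nsmul_coe X₁) hpZ'
  rw [← hZcoe] at key
  -- back to coordinates
  set fτ : AddMonoid.End (Jtor (M * p) (p ^ (1 + k))) :=
    TateCoords.galEnd (1 + k) τ - ((a : ℕ) : AddMonoid.End (Jtor (M * p) (p ^ (1 + k))))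
    with hfτ
  have hn : C.mat (1 + k) ((a : ℕ) : AddMonoid.End (Jtor (M * p) (p ^ (1 + k)))) =
      ((a : ℕ) : Matrix (Fin C.r) (Fin C.r) (ZMod (p ^ (1 + k)))) :=
    map_natCast (C.mat (1 + k)) a
  have hT : C.mat (1 + k) fτ =
      C.ρ (1 + k) τ - ((a : ℕ) : Matrix (Fin C.r) (Fin C.r) (ZMod (p ^ (1 + k)))) := by
    rw [hfτ, map_sub, C.mat_gal, hn]
  rw [← hT, C.mat_mulVec]
  have h0 : fτ Z = 0 := by
    apply Subtype.ext
    have h1 : ((fτ Z : Jtor (M * p) (p ^ (1 + k))) : JZero (M * p)) =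
        τ • (Z : JZero (M * p)) - a • (Z : JZero (M * p)) := by
      show ((TateCoords.galEnd (1 + k) τ Z - ((a : ℕ) : AddMonoid.End
        (Jtor (M * p) (p ^ (1 + k)))) Z : Jtor (M * p) (p ^ (1 + k))) : JZero (M * p)) = _
      rw [AddMonoid.End.natCast_apply]
      rfl
    rw [h1, key, sub_self]
    rfl
  rw [h0, map_zero]

end Level

section Limit

variable {M p : ℕ} [NeZero M] [NeZero p] [Fact p.Prime] {S : Set ℕ}
  {C : TateCoords (M * p) p S}
variable {𝒪 : Type} [CommRing 𝒪] [IsLocalRing 𝒪]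
  [IsAdicComplete (IsLocalRing.maximalIdeal 𝒪) 𝒪]
  {hp : (p : 𝒪) ∈ IsLocalRing.maximalIdeal 𝒪} (L : TateLimit C 𝒪 hp)

/-- **(T3) in the limit**, modulo `𝔪^(1+k)`. -/
theorem limit_OrdNew (hT3 : Stmt_TorsOrdNew M p) (hp2 : p ≠ 2) (hpM : ¬ p ∣ M)
    (hS : ∀ l : ℕ, l.Prime → l ∣ M * p → l ∈ S)
    {A : ValuationSubring (AlgebraicClosure ℚ)} (hA : A.LiesOverPrime p)
    {τ σ₀ σ₁ : GQ} (hτ : τ ∈ A.inertiaSubgroupIn ℚ) (hσ₀ : σ₀ ∈ A.inertiaSubgroupIn ℚ)
    (hσ₁ : K1Test A M p σ₁) (a : ℕ)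
    (ha : ∀ ζ : AlgebraicClosure ℚ, ζ ^ p = 1 → τ ζ = ζ ^ a)
    {w : FreeAlgebra ℤ (Gen S)} (hw : wordSH M S w = 0) (k : ℕ) :
    ∃ D' : Matrix (Fin C.r) (Fin C.r) 𝒪,
      (piK (IsLocalRing.maximalIdeal 𝒪) (1 + k)).mapMatrix
        ((L.ρL τ - ((a : ℕ) : Matrix (Fin C.r) (Fin C.r) 𝒪)) *
            ((L.ρL σ₀ - 1) * Mc 𝒪 C.M (wordSH (M * p) S w)) -
          p • (D' * ((L.ρL σ₀ - 1) * Mc 𝒪 C.M (wordSH (M * p) S w)))) = 0 ∧
      (piK (IsLocalRing.maximalIdeal 𝒪) (1 + k)).mapMatrix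
        ((L.ρL τ - ((a : ℕ) : Matrix (Fin C.r) (Fin C.r) 𝒪)) *
            ((L.ρL σ₁ - 1) * Mc 𝒪 C.M (wordSH (M * p) S w)) -
          p • (D' * ((L.ρL σ₁ - 1) * Mc 𝒪 C.M (wordSH (M * p) S w)))) = 0 := by
  have hpp : p.Prime := Fact.out
  have : NeZero (p ^ (1 + k)) := ⟨pow_ne_zero _ hpp.ne_zero⟩
  obtain ⟨D, hD₀, hD₁⟩ := exists_factor_two (p ^ (1 + k))
    (C.ρ (1 + k) τ - ((a : ℕ) : Matrix (Fin C.r) (Fin C.r) (ZMod (p ^ (1 + k)))))
    ((C.ρ (1 + k) σ₀ - 1) * Mc (ZMod (p ^ (1 + k))) C.M (wordSH (M * p) S w))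
    ((C.ρ (1 + k) σ₁ - 1) * Mc (ZMod (p ^ (1 + k))) C.M (wordSH (M * p) S w)) p
    (fun x₀ x₁ hz => rho_OrdNew hT3 hp2 hpM hS hA hτ hσ₀ hσ₁ a ha hw k x₀ x₁ hz)
  exact exists_lift_two (piK (IsLocalRing.maximalIdeal 𝒪) (1 + k))
    Ideal.Quotient.mk_surjective (cK (IsLocalRing.maximalIdeal 𝒪) p hp (1 + k)) _ _ _ _ _ _ D p
    (((L.spec τ).sub (compat_natCast a)) (1 + k))
    ((((L.spec σ₀).sub compat_one).mul (compat_Mc C.M _)) (1 + k))
    ((((L.spec σ₁).sub compat_one).mul (compat_Mc C.M _)) (1 + k)) hD₀ hD₁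

end Limit

section Vec

variable {M p : ℕ} [NeZero M] [NeZero p] [Fact p.Prime] {S : Set ℕ}
  {C : TateCoords (M * p) p S}
variable {𝒪 : Type} [CommRing 𝒪] [IsDomain 𝒪] [IsDiscreteValuationRing 𝒪]
  [IsAdicComplete (IsLocalRing.maximalIdeal 𝒪) 𝒪]
  {hp : (p : 𝒪) ∈ IsLocalRing.maximalIdeal 𝒪} (L : TateLimit C 𝒪 hp)

/-- entries of a matrix with vanishing reduction -/
theorem mem_of_piK_mapMatrix_eq_zero {r : ℕ} {k : ℕ} {X : Matrix (Fin r) (Fin r) 𝒪}
    (h : (piK (IsLocalRing.maximalIdeal 𝒪) k).mapMatrix X = 0) (i j : Fin r) :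
    X i j ∈ IsLocalRing.maximalIdeal 𝒪 ^ k := by
  have h1 := congrFun (congrFun h i) j
  simp only [RingHom.mapMatrix_apply, Matrix.map_apply, Matrix.zero_apply] at h1
  exact Ideal.Quotient.eq_zero_iff_mem.mp h1

/-- a matrix with entries in an ideal maps vectors to vectors with entries in the ideal -/
theorem mulVec_mem_of_entries {r : ℕ} {I : Ideal 𝒪} {X : Matrix (Fin r) (Fin r) 𝒪}
    (h : ∀ i j, X i j ∈ I) (g : Fin r → 𝒪) (i : Fin r) : X.mulVec g i ∈ I := by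
  simp only [Matrix.mulVec, dotProduct]
  exact Ideal.sum_mem _ fun j _ => Ideal.mul_mem_right _ _ (h i j)

/-- **(T3) on vectors**: if `x g = B₀ g₀ + B₁ g₁` with `x ≠ 0`, then `(ρL(τ) - a) g` has
entries in the maximal ideal. -/
theorem vec_OrdNew (hT3 : Stmt_TorsOrdNew M p) (hp2 : p ≠ 2) (hpM : ¬ p ∣ M)
    (hS : ∀ l : ℕ, l.Prime → l ∣ M * p → l ∈ S)
    {A : ValuationSubring (AlgebraicClosure ℚ)} (hA : A.LiesOverPrime p)
    {τ σ₀ σ₁ : GQ} (hτ : τ ∈ A.inertiaSubgroupIn ℚ) (hσ₀ : σ₀ ∈ A.inertiaSubgroupIn ℚ)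
    (hσ₁ : K1Test A M p σ₁) (a : ℕ)
    (ha : ∀ ζ : AlgebraicClosure ℚ, ζ ^ p = 1 → τ ζ = ζ ^ a)
    {w : FreeAlgebra ℤ (Gen S)} (hw : wordSH M S w = 0)
    {x : 𝒪} (hx : x ≠ 0) (g g₀ g₁ : Fin C.r → 𝒪)
    (hg : x • g = ((L.ρL σ₀ - 1) * Mc 𝒪 C.M (wordSH (M * p) S w)).mulVec g₀ +
      ((L.ρL σ₁ - 1) * Mc 𝒪 C.M (wordSH (M * p) S w)).mulVec g₁) (i : Fin C.r) :
    (L.ρL τ - ((a : ℕ) : Matrix (Fin C.r) (Fin C.r) 𝒪)).mulVec g i ∈
      IsLocalRing.maximalIdeal 𝒪 := by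
  obtain ⟨k, hk1, hk⟩ := exists_pow_cancel hx
  obtain ⟨k', rfl⟩ : ∃ k', k = 1 + k' := ⟨k - 1, by omega⟩
  obtain ⟨D', hD₀, hD₁⟩ := limit_OrdNew L hT3 hp2 hpM hS hA hτ hσ₀ hσ₁ a ha hw k'
  set T : Matrix (Fin C.r) (Fin C.r) 𝒪 := L.ρL τ - ((a : ℕ) : Matrix (Fin C.r) (Fin C.r) 𝒪)
    with hT
  set B₀ : Matrix (Fin C.r) (Fin C.r) 𝒪 := (L.ρL σ₀ - 1) * Mc 𝒪 C.M (wordSH (M * p) S w)
    with hB₀
  set B₁ : Matrix (Fin C.r) (Fin C.r) 𝒪 := (L.ρL σ₁ - 1) * Mc 𝒪 C.M (wordSH (M * p) S w)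
    with hB₁
  -- the error terms
  have hE₀ := mulVec_mem_of_entries (mem_of_piK_mapMatrix_eq_zero hD₀) g₀ i
  have hE₁ := mulVec_mem_of_entries (mem_of_piK_mapMatrix_eq_zero hD₁) g₁ i
  have hsum : x * (T.mulVec g i - (p : 𝒪) * D'.mulVec g i) =
      (T * B₀ - p • (D' * B₀)).mulVec g₀ i + (T * B₁ - p • (D' * B₁)).mulVec g₁ i := by
    have e1 : T.mulVec (x • g) = x • T.mulVec g := Matrix.mulVec_smul _ _ _
    have e2 : D'.mulVec (x • g) = x • D'.mulVec g := Matrix.mulVec_smul _ _ _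
    have e3 : T.mulVec (x • g) - p • D'.mulVec (x • g) =
        (T * B₀ - p • (D' * B₀)).mulVec g₀ + (T * B₁ - p • (D' * B₁)).mulVec g₁ := by
      rw [hg]
      simp only [Matrix.sub_mulVec, Matrix.mulVec_add, Matrix.smul_mulVec, Matrix.mulVec_mulVec,
        smul_add]
      abel
    have e4 := congrFun e3 i
    rw [e1, e2] at e4
    have e5 : x * T.mulVec g i - p • (x * D'.mulVec g i) =
        (T * B₀ - p • (D' * B₀)).mulVec g₀ i + (T * B₁ - p • (D' * B₁)).mulVec g₁ i := e4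
    rw [← e5, nsmul_eq_mul]
    ring
  have h1 : x * (T.mulVec g i - (p : 𝒪) * D'.mulVec g i) ∈
      IsLocalRing.maximalIdeal 𝒪 ^ (1 + k') := by
    rw [hsum]
    exact Ideal.add_mem _ hE₀ hE₁
  have h2 := hk _ h1
  have h3 : T.mulVec g i = (T.mulVec g i - (p : 𝒪) * D'.mulVec g i) +
      (p : 𝒪) * D'.mulVec g i := by ring
  rw [h3]
  exact Ideal.add_mem _ h2 (Ideal.mul_mem_right _ _ hp)

end Vec

end Fermat.Agent.S33.New.H54

end
end
-- ==== END Fermat.Agent.S33.New.H54_Level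

-- ==== BEGIN Fermat.Agent.S33.New.H86_Leaves
section

/-!
# S33, the `p`-new case: the modular leaves of (T3)  (helper86)

Level `N = M p`, `p ∤ M`, `A` a valuation ring of `ℚ̄` over `p`; `V₁`, `V₂ = V₁ ∘ w_p` the two
Gauss valuations of `F_N` (helper88), `α, β : F_M → F_N` the two degeneracy maps.

* `Stmt_NormWq` (**L1**) : `N_α (w_p x) = N_β x`.
* `Stmt_Red2` (**L2**, NORM-RED at the second component) : at the tame `(M, p)`: if `f ≡ 1` for
  `V₁` and `N_α f` is a constant times a `p`-th power, then `f = a' f' h₀ ^ p` with `f' ≡ 1` for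
  `V₂`.
* `Stmt_Desc3` (**L5**) : the Kummer form of (T3) descends from level `2 M · 3` to level `M · 3`.
* `Stmt_PW1` (**L3**, TRACE-RED + PTH-ROOT) : at the tame `(M, p)`: if `N_α f` is a constant times
  a `p`-th power and `e f u ^ p = 1 + c₀ φ` with `φ` integral for both valuations and `c₀` a
  constant of depth `0 < v(c₀) < p / (p - 1) · v(p)`, then the first reduction of `φ` is a `p`-th
  power.

Definitions only.
-/

set_option autoImplicit false

noncomputable section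

open AlgebraicCurve ModularCurve Fermat.Agent.S28.H73 Fermat.Agent.RED.H73

namespace Fermat.Agent.S33.New.H86

open Fermat.Agent.BAD Fermat.Agent.BAD.H88 Fermat.Agent.S24

/-- **L1**: `N_α (w_p x) = N_β x`. -/
def Stmt_NormWq : Prop :=
  ∀ (p M : ℕ) [NeZero M] [NeZero p] [NeZero (M * p)] (a b : ℤ) (hab : a * p + b * M = 1)
    (hp : p.Prime) (x : FN (M * p)),
    normAlong (heckeAlphaBar Kbar M p) (wq p M a b hab hp x)
      = normAlong (heckeBetaBar Kbar M p) x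

/-- **L2**: NORM-RED at the second component. -/
def Stmt_Red2 : Prop :=
  ∀ (A : ValuationSubring Kbar) (p M : ℕ) (a b : ℤ) (hab : a * p + b * M = 1) (hp : p.Prime)
    [NeZero M] [NeZero p] [NeZero (M * p)], A.LiesOverPrime p → ¬ p ∣ M → H91.TameAt M p →
    ∀ (f : FN (M * p)) (hf : f ∈ V1 A p M), red1 A p M ⟨f, hf⟩ = 1 →
      IsNormPow (heckeAlphaBar Kbar M p) p f →
      ∃ (f' h₀ : FN (M * p)) (a' : Kbar) (hf' : f' ∈ V2 A p M a b hab hp),
        red2 A p M a b hab hp ⟨f', hf'⟩ = 1 ∧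
          f = algebraMap Kbar (FN (M * p)) a' * f' * h₀ ^ p

/-- **L5**: descent of the Kummer form of (T3) from level `2 M · 3` to level `M · 3`. -/
def Stmt_Desc3 : Prop :=
  ∀ (M : ℕ) [NeZero M] [NeZero (2 * M)], ¬ 2 ∣ M → ¬ 3 ∣ M →
    Stmt_TorsOrdNewCore (2 * M) 3 → Stmt_TorsOrdNewCore M 3

/-- **L3**: the leading term of a Kummer function of a `p`-new class is a `p`-th power. -/
def Stmt_PW1 : Prop :=
  ∀ (A : ValuationSubring Kbar) (p M : ℕ) (a b : ℤ) (hab : a * p + b * M = 1) (hp : p.Prime)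
    [NeZero M] [NeZero p] [NeZero (M * p)], A.LiesOverPrime p → ¬ p ∣ M → H91.TameAt M p →
    ∀ (f : FN (M * p)), IsNormPow (heckeAlphaBar Kbar M p) p f →
    ∀ (u φ : FN (M * p)) (e c₀ : Kbar), u ≠ 0 → e ≠ 0 → c₀ ≠ 0 → A.valuation c₀ < 1 →
      A.valuation (p : Kbar) ^ p < A.valuation c₀ ^ (p - 1) →
      algebraMap Kbar (FN (M * p)) e * f * u ^ p = 1 + algebraMap Kbar (FN (M * p)) c₀ * φ →
      ∀ (h₁ : φ ∈ V1 A p M), φ ∈ V2 A p M a b hab hp →
        ∃ ψ : F1 A p M, red1 A p M ⟨φ, h₁⟩ = ψ ^ p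

end Fermat.Agent.S33.New.H86

end
end
-- ==== END Fermat.Agent.S33.New.H86_Leaves

-- ==== BEGIN Fermat.Agent.Tate.H4_Det
section

set_option autoImplicit false

namespace Fermat.Agent.Tate.H4

open Polynomial

section LinearAlgebra

variable {R : Type*} [CommRing R] {M : Type*} [AddCommGroup M] [Module R M]

/-- Coordinates of an element of `I • ⊤` lie in `I`. -/
lemma repr_mem_of_mem_smul_top {ι : Type*} (b : Module.Basis ι R M) (I : Ideal R) {x : M}
    (hx : x ∈ I • (⊤ : Submodule R M)) (i : ι) : b.repr x i ∈ I := by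
  refine Submodule.smul_induction_on (p := fun x => b.repr x i ∈ I) hx ?_ ?_
  · intro a ha w _
    rw [map_smul, Finsupp.smul_apply, smul_eq_mul]
    exact I.mul_mem_right _ ha
  · intro x y hx hy
    rw [map_add, Finsupp.add_apply]
    exact I.add_mem hx hy

variable [Module.Free R M] [Module.Finite R M]

/-- An endomorphism of a finite free module which is congruent to `1` modulo `I` has determinant
congruent to `1` modulo `I`. -/
theorem det_sub_one_mem (I : Ideal R) (f : Module.End R M)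
    (h : ∀ v, f v - v ∈ I • (⊤ : Submodule R M)) : LinearMap.det f - 1 ∈ I := by
  classical
  set b := Module.Free.chooseBasis R M with hb
  rw [← LinearMap.det_toMatrix b f, ← Ideal.Quotient.eq, RingHom.map_det, map_one]
  have hmat : (Ideal.Quotient.mk I).mapMatrix (LinearMap.toMatrix b b f) = 1 := by
    ext i j
    rw [RingHom.mapMatrix_apply, Matrix.map_apply, LinearMap.toMatrix_apply, Matrix.one_apply]
    have h1 : b.repr (f (b j)) i - b.repr (b j) i ∈ I := by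
      rw [← Finsupp.sub_apply, ← map_sub]
      exact repr_mem_of_mem_smul_top b I (h (b j)) i
    rw [Module.Basis.repr_self, Finsupp.single_apply] at h1
    by_cases hij : i = j
    · subst hij
      rw [if_pos rfl] at h1 ⊢
      rw [← map_one (Ideal.Quotient.mk I)]
      exact Ideal.Quotient.eq.2 h1
    · rw [if_neg (Ne.symm hij)] at h1
      rw [if_neg hij, ← map_zero (Ideal.Quotient.mk I)]
      exact Ideal.Quotient.eq.2 h1
  rw [hmat, Matrix.det_one]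

end LinearAlgebra

section Cyc

/-- Iterates of a Frobenius element act on the roots of unity of order prime to `ℓ` by
`ζ ↦ ζ ^ (ℓ ^ j)`. -/
theorem frob_pow_apply_root (hFC : Fermat.Agent.R.Stmt_FrobCyc) {ℓ : ℕ} (hℓ : ℓ.Prime)
    {A : ValuationSubring (AlgebraicClosure ℚ)} (hA : A.LiesOverPrime ℓ) {σ : GQ}
    (hσ : A.IsFrobeniusAt σ ℓ) {m : ℕ} (hm : m.Coprime ℓ) {ζ : AlgebraicClosure ℚ}
    (hζ : ζ ^ m = 1) (j : ℕ) : (σ ^ j) ζ = ζ ^ (ℓ ^ j) := by
  induction j with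
  | zero => simp
  | succ j ih =>
    rw [pow_succ', AlgEquiv.mul_apply, ih]
    have h1 : (ζ ^ (ℓ ^ j)) ^ m = 1 := by
      rw [← pow_mul, mul_comm, pow_mul, hζ, one_pow]
    rw [hFC ℓ hℓ A hA σ hσ m hm _ h1, ← pow_mul, ← pow_succ]

end Cyc

/-- **T2** from Frobenius density, the action of Frobenius on roots of unity, and T3c. -/
theorem stmt_T2_of (hFD : Fermat.Agent.R.Stmt_FD) (hFC : Fermat.Agent.R.Stmt_FrobCyc)
    (h3c : Stmt_T3c) : Stmt_T2 := by
  classical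
  intro W hΔ p _ D
  have hp : p.Prime := Fact.out
  refine ⟨?_, ?_⟩
  · rw [PadicInt.maximalIdeal_eq_span_p]
    exact Ideal.mem_span_singleton_self _
  intro n σ a ha
  -- the set of excluded primes
  set S : Finset ℕ := insert p W.Δ.natAbs.primeFactors with hS
  -- continuity
  obtain ⟨L₀, hL₀, hcont⟩ := D.ρ.isAdicContinuous n
  -- a primitive `p^n`-th root of unity
  have hpn : p ^ n ≠ 0 := pow_ne_zero _ hp.ne_zero
  have : NeZero (p ^ n) := ⟨hpn⟩
  have : NeZero ((p ^ n : ℕ) : AlgebraicClosure ℚ) := ⟨by exact_mod_cast hpn⟩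
  obtain ⟨ζ, hζ⟩ := HasEnoughRootsOfUnity.exists_primitiveRoot (AlgebraicClosure ℚ) (p ^ n)
  -- the field `L`
  have hζint : IsIntegral ℚ ζ := (hζ.isIntegral (Nat.pos_of_ne_zero hpn)).tower_top
  have : FiniteDimensional ℚ (IntermediateField.adjoin ℚ {ζ}) :=
    IntermediateField.adjoin.finiteDimensional hζint
  have : FiniteDimensional ℚ L₀ := hL₀
  set L : IntermediateField ℚ (AlgebraicClosure ℚ) := L₀ ⊔ IntermediateField.adjoin ℚ {ζ} with hL
  have hLfd : FiniteDimensional ℚ L := IntermediateField.finiteDimensional_sup _ _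
  obtain ⟨ℓ, A, φ, j, hℓ, hℓS, hA, hφ, hagree⟩ := hFD S L hLfd σ
  have hℓp : ℓ ≠ p := fun h => hℓS (by rw [hS, h]; exact Finset.mem_insert_self _ _)
  have hgood : W.IsGoodPrimeFor ℓ := by
    intro hdvd
    apply hℓS
    rw [hS]
    refine Finset.mem_insert_of_mem ?_
    rw [Nat.mem_primeFactors]
    refine ⟨hℓ, ?_, Int.natAbs_ne_zero.2 hΔ⟩
    exact Int.natCast_dvd.1 hdvd
  -- `τ = (φ^j)⁻¹ σ` fixes `L`
  set τ : GQ := (φ ^ j)⁻¹ * σ with hτ
  have hτfix : ∀ x ∈ L₀, τ x = x := by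
    intro x hx
    have hxL : x ∈ L := (le_sup_left : L₀ ≤ L) hx
    rw [hτ, AlgEquiv.mul_apply, ← hagree x hxL]
    exact (φ ^ j).symm_apply_apply x
  have hσeq : σ = φ ^ j * τ := by rw [hτ, mul_inv_cancel_left]
  -- determinants
  have hdetφ : LinearMap.det (D.ρ.ρ φ) = (ℓ : ℤ_[p]) := by
    rw [LinearMap.det_eq_sign_charpoly_coeff, D.ρ.finrank_eq,
      h3c W hΔ p D ℓ hℓ hℓp hgood A hA φ hφ]
    simp [coeff_X]
  have hdetτ : LinearMap.det (D.ρ.ρ τ) - 1 ∈ Ideal.span {((p ^ n : ℕ) : ℤ_[p])} := by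
    have h1 := det_sub_one_mem (IsLocalRing.maximalIdeal ℤ_[p] ^ n) (D.ρ.ρ τ) (hcont τ hτfix)
    rw [PadicInt.maximalIdeal_eq_span_p, Ideal.span_singleton_pow] at h1
    rwa [Nat.cast_pow]
  have hdetσ : LinearMap.det (D.ρ.ρ σ) = (ℓ : ℤ_[p]) ^ j * LinearMap.det (D.ρ.ρ τ) := by
    rw [hσeq, map_mul, map_pow, map_mul, map_pow, hdetφ]
  -- the congruence `a ≡ ℓ^j mod p^n`
  have hζL : ζ ∈ L :=
    (le_sup_right : IntermediateField.adjoin ℚ {ζ} ≤ L)
      (IntermediateField.subset_adjoin ℚ {ζ} (Set.mem_singleton ζ))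
  have hcop : (p ^ n).Coprime ℓ :=
    Nat.Coprime.pow_left n ((Nat.coprime_primes hp hℓ).2 (Ne.symm hℓp))
  have h1 : ζ ^ a = ζ ^ (ℓ ^ j) := by
    rw [← ha ζ hζ.pow_eq_one, ← hagree ζ hζL]
    exact frob_pow_apply_root hFC hℓ hA hφ hcop hζ.pow_eq_one j
  have hζ0 : ζ ≠ 0 := hζ.ne_zero hpn
  have h2 : a ≡ ℓ ^ j [MOD p ^ n] := by
    have h3 : (Units.mk0 ζ hζ0) ^ a = (Units.mk0 ζ hζ0) ^ (ℓ ^ j) := by
      ext
      simpa using h1
    have h4 : orderOf (Units.mk0 ζ hζ0) = p ^ n := by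
      rw [← orderOf_units, Units.val_mk0]
      exact hζ.eq_orderOf.symm
    rw [pow_eq_pow_iff_modEq, h4] at h3
    exact h3
  have h5 : ((ℓ : ℤ_[p]) ^ j - (a : ℤ_[p])) ∈ Ideal.span {((p ^ n : ℕ) : ℤ_[p])} := by
    rw [Ideal.mem_span_singleton]
    have h6 : ((p ^ n : ℕ) : ℤ) ∣ ((ℓ ^ j : ℕ) : ℤ) - (a : ℤ) := (Nat.modEq_iff_dvd.1 h2)
    obtain ⟨c, hc⟩ := h6
    refine ⟨(c : ℤ_[p]), ?_⟩
    have := congrArg (fun z : ℤ => (z : ℤ_[p])) hc
    push_cast at this ⊢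
    exact this
  -- conclusion
  have h7 : LinearMap.det (D.ρ.ρ σ) - (a : ℤ_[p]) =
      (ℓ : ℤ_[p]) ^ j * (LinearMap.det (D.ρ.ρ τ) - 1) + ((ℓ : ℤ_[p]) ^ j - (a : ℤ_[p])) := by
    rw [hdetσ]; ring
  rw [h7]
  exact Ideal.add_mem _ (Ideal.mul_mem_left _ _ hdetτ) h5

/-- **T2** from T3c (Frobenius density and the cyclotomic action are landed). -/
theorem stmt_T2_of_T3c (h3c : Stmt_T3c) : Stmt_T2 :=
  stmt_T2_of Fermat.Agent.Lib.FrobDensity.stmt_FD Fermat.Agent.R.H89.stmt_FrobCyc h3c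

end Fermat.Agent.Tate.H4

end
-- ==== END Fermat.Agent.Tate.H4_Det
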