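-- GENERATED (merged mirror, NOTES/tools/trim/merge3_helper67.py): 7 modules of the originals, bodies verbatim.
import Fermat.Agent.Zm.S33_L03_000
import Fermat.Agent.Zm.S33_L03_002
import Fermat.Agent.Zm.S33_L02_001
import Fermat.Agent.Zm.S33_L03_001
import Fermat.Agent.Zm.S33_L02_002
import Fermat.Agent.Zm.S33_L01_004
import Fermat.Agent.Zm.S35_L11_001
import Fermat.Agent.Zm.S35_L20_000
import Fermat.Agent.Zm.S35_L21_000
import Fermat.Agent.Zm.S35_L04_002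
import Fermat.Agent.Zm.S33_L03_003
import Fermat.Agent.S33.New.H51_NormBC
import Fermat.Agent.Zm.S35_L14_001
import Fermat.Agent.Zm.S35_L15_000

-- ==== BEGIN Fermat.Agent.BADP.H28_KeyPLin
section

/-!
# Row 38 (S44, BADP), helper28: RAY-K3 abstract core ("Key-p"), part 3: the linear regime

`keyNodal_lin` : the nodal key lemma for the exponent `p` (a prime, possibly `p = 0` in `k`),
when the parameters `a_Q` satisfy `a_Q ^ p = p a_Q ε_Q` with `ε_Q` in the maximal ideal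
("`v(a_Q) > v(p) / (p - 1)`": the linear term `p a_Q / s_Q` dominates `(1 - a_Q / s_Q) ^ p - 1`).
-/

set_option autoImplicit false
set_option linter.style.haveILetI false
set_option maxHeartbeats 1000000

noncomputable section

open AlgebraicCurve

attribute [local instance] Classical.propDecidable

namespace Fermat.Agent.BAD

open Fermat.Agent.RED.H17 Fermat.Agent.RED

local notation "L" => riemannRochSpace

namespace PRed

variable {K F k F' : Type*} [Field K] [Field F] [Algebra K F] [Field k] [Field F']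
  [Algebra k F'] (S : PRed K F k F')

/-- `x = - a / s` lies in the maximal ideal, and `(s - a) / s = 1 + x`. -/
theorem inM_neg_div {s : F} (hs : S.IsGU s) {a : F} (ha : S.InM a) : S.InM (-a / s) := by
  rw [div_eq_mul_inv]
  exact ha.neg.mul_right hs.inv_mem

/-- The factor `((s - a) / s) ^ p` in the linear regime. -/
theorem congM_pow_lin {p : ℕ} (hp : p.Prime) {s : F} (hs : S.IsGU s) {a ε c : K}
    (ha : S.InM (algebraMap K F a)) (hε : S.InM (algebraMap K F ε))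
    (hpow : a ^ p = p * a * ε) (hc : c ≠ 0)
    (hβ : algebraMap K F (c * (p * a)) ∈ S.V) :
    S.CongM (algebraMap K F c⁻¹) (-(algebraMap K F (c * (p * a)) / s))
      (((s - algebraMap K F a) / s) ^ p) := by
  have hsne : s ≠ 0 := hs.ne_zero
  have hcF : algebraMap K F c ≠ 0 := (map_ne_zero_iff _ (algebraMap K F).injective).mpr hc
  have hx : S.InM (-algebraMap K F a / s) := S.inM_neg_div hs ha
  obtain ⟨r, hr, hexp⟩ := S.one_add_pow_prime_mem hp hx.1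
  have h1 : (s - algebraMap K F a) / s = 1 + -algebraMap K F a / s := by
    field_simp
    ring
  have hpowF : algebraMap K F a ^ p = (p : F) * algebraMap K F a * algebraMap K F ε := by
    rw [← map_pow, hpow, map_mul, map_mul, map_natCast]
  have hxp : (-algebraMap K F a / s) ^ p =
      (-1) ^ p * ((p : F) * algebraMap K F a * algebraMap K F ε) / s ^ p := by
    rw [div_pow, neg_pow, hpowF]
  set μ : F := algebraMap K F (c * (p * a)) *
    (algebraMap K F a / s ^ 2 * r + (-1) ^ p * algebraMap K F ε / s ^ p) with hμ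
  have hμM : S.InM μ := by
    refine InM.mul_left hβ (InM.add ?_ ?_)
    · refine InM.mul_right ?_ hr
      rw [div_eq_mul_inv]
      exact ha.mul_right (hs.pow 2).inv_mem
    · rw [div_eq_mul_inv]
      refine InM.mul_right (InM.mul_left ?_ hε) (hs.pow p).inv_mem
      exact S.V.pow_mem (S.V.neg_mem _ S.V.one_mem) p
  refine ⟨μ, hμM, ?_⟩
  rw [h1, hexp, hxp, hμ]
  simp only [map_mul, map_inv₀, map_natCast]
  field_simp
  ring

/-- **First order congruence in the linear regime.** -/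
theorem cong_formula_lin {ι : Type*} (A : Finset ι) (s : ι → F) (a ε : ι → K)
    (hs : ∀ i ∈ A, S.IsGU (s i))
    (ha : ∀ i ∈ A, S.InM (algebraMap K F (a i)))
    (hε : ∀ i ∈ A, S.InM (algebraMap K F (ε i)))
    {p : ℕ} (hp : p.Prime) (hpow : ∀ i ∈ A, a i ^ p = p * a i * ε i) (f : F)
    (c : K) (hc : c ≠ 0) (hd : S.InM (algebraMap K F c⁻¹))
    (hαV : algebraMap K F c *
      (f / (∏ i ∈ A, (s i - algebraMap K F (a i)) / s i) ^ p - 1) ∈ S.V)
    (hβV : ∀ i ∈ A, algebraMap K F (c * (p * a i)) ∈ S.V)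
    (b : ι → k) (hb : ∀ i ∈ A, S.rd (algebraMap K F (c * (p * a i))) = algebraMap k F' (b i)) :
    algebraMap K F c * (f - 1) ∈ S.V ∧
      S.rd (algebraMap K F c * (f - 1)) =
        S.rd (algebraMap K F c *
          (f / (∏ i ∈ A, (s i - algebraMap K F (a i)) / s i) ^ p - 1)) -
          ((1 : ℕ) : F') * ∑ i ∈ A, algebraMap k F' (b i) / S.rd (s i) := by
  have hcF : algebraMap K F c ≠ 0 := (map_ne_zero_iff _ (algebraMap K F).injective).mpr hc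
  have hdne : algebraMap K F c⁻¹ ≠ 0 :=
    (map_ne_zero_iff _ (algebraMap K F).injective).mpr (inv_ne_zero hc)
  obtain ⟨hHGU, -⟩ := S.isGU_prod_h A s a hs ha
  set Hp : F := ∏ i ∈ A, (s i - algebraMap K F (a i)) / s i with hHp
  set f₂ : F := f / Hp ^ p with hf₂
  have hff₂ : f₂ * ∏ i ∈ A, ((s i - algebraMap K F (a i)) / s i) ^ p = f := by
    rw [Finset.prod_pow, ← hHp, hf₂, div_mul_cancel₀ _ (pow_ne_zero _ hHGU.ne_zero)]
  have hαmem : ∀ i ∈ A, -(algebraMap K F (c * (p * a i)) / s i) ∈ S.V := fun i hi => by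
    rw [div_eq_mul_inv]
    exact S.V.neg_mem _ (S.V.mul_mem _ _ (hβV i hi) (hs i hi).inv_mem)
  have h₀ : S.CongM (algebraMap K F c⁻¹) (algebraMap K F c * (f₂ - 1)) f₂ := by
    refine ⟨0, inM_zero, ?_⟩
    rw [map_inv₀]
    field_simp
    ring
  obtain ⟨h1, h2⟩ := congM_formula hd hdne A
    (fun i => -(algebraMap K F (c * (p * a i)) / s i))
    (fun i => ((s i - algebraMap K F (a i)) / s i) ^ p) hαmem
    (fun i hi => S.congM_pow_lin hp (hs i hi) (ha i hi) (hε i hi) (hpow i hi) hc (hβV i hi))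
    hαV h₀
  rw [hff₂] at h1 h2
  have e : (f - 1) / algebraMap K F c⁻¹ = algebraMap K F c * (f - 1) := by
    rw [map_inv₀]
    field_simp
  rw [e] at h1 h2
  refine ⟨h1, ?_⟩
  have hsum : ∑ i ∈ A, S.rd (-(algebraMap K F (c * (p * a i)) / s i)) =
      -∑ i ∈ A, algebraMap k F' (b i) / S.rd (s i) := by
    rw [← Finset.sum_neg_distrib]
    apply Finset.sum_congr rfl
    intro i hi
    rw [S.rd_neg (by rw [div_eq_mul_inv]; exact S.V.mul_mem _ _ (hβV i hi) (hs i hi).inv_mem),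
      div_eq_mul_inv, S.rd_mul (hβV i hi) (hs i hi).inv_mem, (hs i hi).rd_inv, hb i hi,
      div_eq_mul_inv]
  rw [h2, hsum, Nat.cast_one, one_mul]
  ring

end PRed

namespace SSD

variable {K F k F₁ F₂ : Type*} [Field K] [Field F] [Algebra K F] [Field k] [Field F₁]
  [Algebra k F₁] [Field F₂] [Algebra k F₂] {S : SSD K F k F₁ F₂}

namespace KeyHyp

variable {A₁ : Finset (Place k F₁)} {A₂ : Finset (Place k F₂)}
  {s₁ : Place k F₁ → F} {s₂ : Place k F₂ → F}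

/-- The basic facts on `Hp = ∏ (s_Q - a_Q) / s_Q` and `f₂ = f / Hp ^ n`. -/
theorem key_f₂ (hK : S.KeyHyp A₁ A₂ s₁ s₂) (hP : HasPrincipalDivisors K F)
    {a₁ : Place k F₁ → K} {a₂ : Place k F₂ → K}
    (ha₁ : ∀ Q ∈ A₁, algebraMap K F (a₁ Q) ∈ S.c₁.V ∧ S.c₁.rd (algebraMap K F (a₁ Q)) = 0)
    (ha₂ : ∀ Q ∈ A₂, algebraMap K F (a₂ Q) ∈ S.c₂.V ∧ S.c₂.rd (algebraMap K F (a₂ Q)) = 0)
    (n : ℕ) {f : F} (hf₁ : f ∈ S.c₁.V) (hf₂ : f ∈ S.c₂.V) (hrd₁ : S.c₁.rd f = 1)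
    (hrd₂ : S.c₂.rd f = 1)
    (hord₁ : ∀ Q ∈ A₁, ∀ P, S.c₁.r P = some Q →
      P.ord f = n * (P.ord (s₁ Q - algebraMap K F (a₁ Q)) - P.ord (s₁ Q)))
    (hord₂ : ∀ Q ∈ A₂, ∀ P, S.c₂.r P = some Q →
      P.ord f = n * (P.ord (s₂ Q - algebraMap K F (a₂ Q)) - P.ord (s₂ Q))) :
    (S.c₁.IsGU (∏ i ∈ keyA A₁ A₂,
        (Sum.elim s₁ s₂ i - algebraMap K F (Sum.elim a₁ a₂ i)) / Sum.elim s₁ s₂ i) ∧
      S.c₁.rd (∏ i ∈ keyA A₁ A₂,
        (Sum.elim s₁ s₂ i - algebraMap K F (Sum.elim a₁ a₂ i)) / Sum.elim s₁ s₂ i) = 1) ∧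
    (S.c₂.IsGU (∏ i ∈ keyA A₁ A₂,
        (Sum.elim s₁ s₂ i - algebraMap K F (Sum.elim a₁ a₂ i)) / Sum.elim s₁ s₂ i) ∧
      S.c₂.rd (∏ i ∈ keyA A₁ A₂,
        (Sum.elim s₁ s₂ i - algebraMap K F (Sum.elim a₁ a₂ i)) / Sum.elim s₁ s₂ i) = 1) ∧
    (S.c₁.IsGU (f / (∏ i ∈ keyA A₁ A₂,
        (Sum.elim s₁ s₂ i - algebraMap K F (Sum.elim a₁ a₂ i)) / Sum.elim s₁ s₂ i) ^ n) ∧
      S.c₁.rd (f / (∏ i ∈ keyA A₁ A₂,
        (Sum.elim s₁ s₂ i - algebraMap K F (Sum.elim a₁ a₂ i)) / Sum.elim s₁ s₂ i) ^ n) = 1) ∧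
    (S.c₂.IsGU (f / (∏ i ∈ keyA A₁ A₂,
        (Sum.elim s₁ s₂ i - algebraMap K F (Sum.elim a₁ a₂ i)) / Sum.elim s₁ s₂ i) ^ n) ∧
      S.c₂.rd (f / (∏ i ∈ keyA A₁ A₂,
        (Sum.elim s₁ s₂ i - algebraMap K F (Sum.elim a₁ a₂ i)) / Sum.elim s₁ s₂ i) ^ n) = 1) ∧
    (∀ Q ∈ A₁, ∀ P, S.c₁.r P = some Q → P.ord (f / (∏ i ∈ keyA A₁ A₂,
        (Sum.elim s₁ s₂ i - algebraMap K F (Sum.elim a₁ a₂ i)) / Sum.elim s₁ s₂ i) ^ n) = 0) ∧
    (∀ Q ∈ A₂, ∀ P, S.c₂.r P = some Q → P.ord (f / (∏ i ∈ keyA A₁ A₂,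
        (Sum.elim s₁ s₂ i - algebraMap K F (Sum.elim a₁ a₂ i)) / Sum.elim s₁ s₂ i) ^ n) = 0) := by
  have hfGU₁ : S.c₁.IsGU f := ⟨hf₁, by rw [hrd₁]; exact one_ne_zero⟩
  have hfGU₂ : S.c₂.IsGU f := ⟨hf₂, by rw [hrd₂]; exact one_ne_zero⟩
  have haM₁ : ∀ i ∈ keyA A₁ A₂, algebraMap K F (Sum.elim a₁ a₂ i) ∈ S.c₁.V ∧
      S.c₁.rd (algebraMap K F (Sum.elim a₁ a₂ i)) = 0 := fun i hi => S.inM_keyA ha₁ ha₂ hi
  have haM₂ : ∀ i ∈ keyA A₁ A₂, algebraMap K F (Sum.elim a₁ a₂ i) ∈ S.c₂.V ∧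
      S.c₂.rd (algebraMap K F (Sum.elim a₁ a₂ i)) = 0 := fun i hi =>
    ⟨(S.inM_keyA ha₁ ha₂ hi).mem₂, (S.inM_keyA ha₁ ha₂ hi).rd₂⟩
  obtain ⟨hHGU₁, hHrd₁⟩ := S.c₁.isGU_prod_h (keyA A₁ A₂) (Sum.elim s₁ s₂) (Sum.elim a₁ a₂)
    (fun i hi => hK.isGU₁ hi) haM₁
  obtain ⟨hHGU₂, hHrd₂⟩ := S.c₂.isGU_prod_h (keyA A₁ A₂) (Sum.elim s₁ s₂) (Sum.elim a₁ a₂)
    (fun i hi => hK.isGU₂ hi) haM₂
  refine ⟨⟨hHGU₁, hHrd₁⟩, ⟨hHGU₂, hHrd₂⟩, ⟨hfGU₁.div (hHGU₁.pow n), ?_⟩,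
    ⟨hfGU₂.div (hHGU₂.pow n), ?_⟩, ?_, ?_⟩
  · rw [hfGU₁.rd_div (hHGU₁.pow n), hrd₁, S.c₁.rd_pow hHGU₁.1, hHrd₁, one_pow, div_one]
  · rw [hfGU₂.rd_div (hHGU₂.pow n), hrd₂, S.c₂.rd_pow hHGU₂.1, hHrd₂, one_pow, div_one]
  · intro Q hQ P hPQ
    exact S.c₁.key_ord_gen hP (keyA A₁ A₂) (Sum.elim s₁ s₂) (Sum.elim a₁ a₂)
      (fun i hi => hK.isGU₁ hi) haM₁ (hK.good₁ hQ) (inl_mem_keyA hQ)
      (fun i hi _ P' hP' => hK.reg₁ hi hQ hP')
      (fun i hi hne => hK.ord0₁ hi hQ hne) n f hfGU₁.ne_zero (hord₁ Q hQ) hPQ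
  · intro Q hQ P hPQ
    exact S.c₂.key_ord_gen hP (keyA A₁ A₂) (Sum.elim s₁ s₂) (Sum.elim a₁ a₂)
      (fun i hi => hK.isGU₂ hi) haM₂ (hK.good₂ hQ) (inr_mem_keyA hQ)
      (fun i hi _ P' hP' => hK.reg₂ hi hQ hP')
      (fun i hi hne => hK.ord0₂ hi hQ hne) n f hfGU₁.ne_zero (hord₂ Q hQ) hPQ

end KeyHyp

end SSD

namespace H28

section Main

variable {K F k F₁ F₂ : Type} [Field K] [Field F] [Algebra K F] [Field k] [Field F₁]
  [Algebra k F₁] [Field F₂] [Algebra k F₂]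

/-- **The nodal key lemma in the linear regime** (exponent `p` prime, `a_Q ^ p = p a_Q ε_Q`
with `ε_Q` in the maximal ideal). -/
theorem keyNodal_lin (S : SSD K F k F₁ F₂) (H : FFHyp K F)
    (A₁ : Finset (Place k F₁)) (A₂ : Finset (Place k F₂))
    (hA₁ : Disjoint A₁ S.br₁) (hA₂ : Disjoint A₂ S.br₂) (hNS : S.IsNS A₁ A₂)
    (s₁ : Place k F₁ → F) (s₂ : Place k F₂ → F)
    (hs₁ : ∀ Q ∈ A₁, S.IsCoordA₁ A₁ A₂ (s₁ Q) Q) (hs₂ : ∀ Q ∈ A₂, S.IsCoordA₂ A₁ A₂ (s₂ Q) Q)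
    (p : ℕ) (hp : p.Prime)
    (f : F) (hf₁ : f ∈ S.c₁.V) (hf₂ : f ∈ S.c₂.V) (hrd₁ : S.c₁.rd f = 1) (hrd₂ : S.c₂.rd f = 1)
    (Pinf : Place K F) (Qinf : Place k F₁) (hQinfg : Qinf ∈ S.c₁.good) (hQinfA : Qinf ∉ A₁)
    (hPinf : S.c₁.r Pinf = some Qinf) (hfinf : VanAt Pinf (f - 1))
    (a₁ : Place k F₁ → K) (a₂ : Place k F₂ → K)
    (ha₁ : ∀ Q ∈ A₁, algebraMap K F (a₁ Q) ∈ S.c₁.V ∧ S.c₁.rd (algebraMap K F (a₁ Q)) = 0)
    (ha₂ : ∀ Q ∈ A₂, algebraMap K F (a₂ Q) ∈ S.c₂.V ∧ S.c₂.rd (algebraMap K F (a₂ Q)) = 0)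
    (hlin₁ : ∀ Q ∈ A₁, ∃ ε : K, S.IsCM ε ∧ a₁ Q ^ p = p * a₁ Q * ε)
    (hlin₂ : ∀ Q ∈ A₂, ∃ ε : K, S.IsCM ε ∧ a₂ Q ^ p = p * a₂ Q * ε)
    (hord0 : ∀ P, (∀ Q ∈ A₁, S.c₁.r P ≠ some Q) → (∀ Q ∈ A₂, S.c₂.r P ≠ some Q) →
      0 ≤ P.ord f)
    (hord₁ : ∀ Q ∈ A₁, ∀ P, S.c₁.r P = some Q →
      P.ord f = p * (P.ord (s₁ Q - algebraMap K F (a₁ Q)) - P.ord (s₁ Q)))
    (hord₂ : ∀ Q ∈ A₂, ∀ P, S.c₂.r P = some Q →
      P.ord f = p * (P.ord (s₂ Q - algebraMap K F (a₂ Q)) - P.ord (s₂ Q))) :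
    f = 1 := by
  have hP := H.principal
  have hK : S.KeyHyp A₁ A₂ s₁ s₂ := ⟨hA₁, hA₂, hs₁, hs₂⟩
  obtain ⟨⟨hHGU₁, hHrd₁⟩, ⟨hHGU₂, hHrd₂⟩, ⟨hf₂GU₁, hf₂rd₁⟩, ⟨hf₂GU₂, hf₂rd₂⟩, hf₂ord₁,
    hf₂ord₂⟩ := hK.key_f₂ hP ha₁ ha₂ p hf₁ hf₂ hrd₁ hrd₂ hord₁ hord₂
  set A : Finset (Place k F₁ ⊕ Place k F₂) := SSD.keyA A₁ A₂ with hAdef
  set s : Place k F₁ ⊕ Place k F₂ → F := Sum.elim s₁ s₂ with hsdef
  set a : Place k F₁ ⊕ Place k F₂ → K := Sum.elim a₁ a₂ with hadef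
  set Hp : F := ∏ i ∈ A, (s i - algebraMap K F (a i)) / s i with hHp
  set f₂ : F := f / Hp ^ p with hf₂def
  have haCM : ∀ i ∈ A, S.IsCM (a i) := fun i hi => S.inM_keyA ha₁ ha₂ hi
  have hff₂ : f = f₂ * Hp ^ p := by
    rw [hf₂def, div_mul_cancel₀ _ (pow_ne_zero _ hHGU₁.ne_zero)]
  -- the `ε`
  have hεex : ∀ i, ∃ ε : K, i ∈ A → S.IsCM ε ∧ a i ^ p = p * a i * ε := by
    intro i
    by_cases hi : i ∈ A
    · rcases SSD.mem_keyA.mp hi with ⟨Q, hQ, rfl⟩ | ⟨Q, hQ, rfl⟩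
      · obtain ⟨ε, h1, h2⟩ := hlin₁ Q hQ
        exact ⟨ε, fun _ => ⟨h1, h2⟩⟩
      · obtain ⟨ε, h1, h2⟩ := hlin₂ Q hQ
        exact ⟨ε, fun _ => ⟨h1, h2⟩⟩
    · exact ⟨0, fun h => absurd h hi⟩
  choose ε hε using hεex
  -- the scale
  set I : Finset F := insert (f₂ - 1) (A.image fun i => algebraMap K F (p * a i)) with hI
  have hImem : ∀ z ∈ I, (z ∈ S.c₁.V ∧ S.c₁.rd z = 0) ∧ (z ∈ S.c₂.V ∧ S.c₂.rd z = 0) := by
    intro z hz
    rcases Finset.mem_insert.mp hz with rfl | hz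
    · exact ⟨⟨S.c₁.V.sub_mem hf₂GU₁.1 S.c₁.V.one_mem, by
        rw [S.c₁.rd_sub hf₂GU₁.1 S.c₁.V.one_mem, hf₂rd₁, S.c₁.rd_one, sub_self]⟩,
        ⟨S.c₂.V.sub_mem hf₂GU₂.1 S.c₂.V.one_mem, by
        rw [S.c₂.rd_sub hf₂GU₂.1 S.c₂.V.one_mem, hf₂rd₂, S.c₂.rd_one, sub_self]⟩⟩
    · obtain ⟨i, hi, rfl⟩ := Finset.mem_image.mp hz
      have h1 : S.c₁.InM (algebraMap K F (p * a i)) := by
        rw [map_mul, map_natCast]
        exact PRed.InM.mul_left (S.c₁.natCast_mem_V p) ⟨(haCM i hi).mem₁, (haCM i hi).rd₁⟩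
      have h2 : S.c₂.InM (algebraMap K F (p * a i)) := by
        rw [map_mul, map_natCast]
        exact PRed.InM.mul_left (S.c₂.natCast_mem_V p) ⟨(haCM i hi).mem₂, (haCM i hi).rd₂⟩
      exact ⟨h1, h2⟩
  by_cases hall : ∀ z ∈ I, z = 0
  · have e1 : f₂ = 1 := sub_eq_zero.mp (hall _ (Finset.mem_insert_self _ _))
    -- `p a_i = 0`: either `p = 0` in `K` (then `Hp ^ p = 1` by the hypothesis) or `a_i = 0`
    have e2 : ∀ i ∈ A, ((s i - algebraMap K F (a i)) / s i) ^ p = 1 := by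
      intro i hi
      have h0 : algebraMap K F (p * a i) = 0 :=
        hall _ (Finset.mem_insert_of_mem (Finset.mem_image_of_mem _ hi))
      have h0' : (p : K) * a i = 0 := (map_eq_zero_iff _ (algebraMap K F).injective).mp h0
      have hap : a i ^ p = 0 := by
        rw [(hε i hi).2, h0', zero_mul]
      have ha0 : a i = 0 := by
        by_contra hne
        exact pow_ne_zero p hne hap
      rw [ha0, map_zero, sub_zero, div_self (hK.isGU₁ hi).ne_zero, one_pow]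
    rw [hff₂, e1, hHp, ← Finset.prod_pow, Finset.prod_eq_one e2, mul_one]
  exfalso
  push Not at hall
  obtain ⟨c, hc, ⟨hdV₁, hdrd₁⟩, ⟨hdV₂, hdrd₂⟩, hcI, z₀, hz₀, hz₀GU⟩ :=
    S.exists_scale_max₂ I hImem hall
  set α : F := algebraMap K F c * (f₂ - 1) with hα
  have hαV₁ : α ∈ S.c₁.V := (hcI _ (Finset.mem_insert_self _ _)).1
  have hαV₂ : α ∈ S.c₂.V := (hcI _ (Finset.mem_insert_self _ _)).2
  have hβV₁ : ∀ i ∈ A, algebraMap K F (c * (p * a i)) ∈ S.c₁.V := fun i hi => by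
    rw [map_mul]
    exact (hcI _ (Finset.mem_insert_of_mem (Finset.mem_image_of_mem _ hi))).1
  have hβV₂ : ∀ i ∈ A, algebraMap K F (c * (p * a i)) ∈ S.c₂.V := fun i hi => by
    rw [map_mul]
    exact (hcI _ (Finset.mem_insert_of_mem (Finset.mem_image_of_mem _ hi))).2
  -- the constants `b`
  have hbex : ∀ i, ∃ b : k, i ∈ A →
      S.c₁.rd (algebraMap K F (c * (p * a i))) = algebraMap k F₁ b := by
    intro i
    by_cases hi : i ∈ A
    · obtain ⟨b, hb⟩ := S.c₁.rd_const_eq (c * (p * a i)) (hβV₁ i hi)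
      exact ⟨b, fun _ => hb⟩
    · exact ⟨0, fun h => absurd h hi⟩
  choose b hb₁ using hbex
  have hb₂ : ∀ i ∈ A, S.c₂.rd (algebraMap K F (c * (p * a i))) = algebraMap k F₂ (b i) :=
    fun i hi => (S.rd₂_const (hβV₁ i hi) (hb₁ i hi)).2
  -- the congruences
  obtain ⟨hφV₁, hφrd₁⟩ := S.c₁.cong_formula_lin A s a ε (fun i hi => hK.isGU₁ hi)
    (fun i hi => ⟨(haCM i hi).mem₁, (haCM i hi).rd₁⟩)
    (fun i hi => ⟨(hε i hi).1.mem₁, (hε i hi).1.rd₁⟩) hp (fun i hi => (hε i hi).2) f c hc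
    ⟨hdV₁, hdrd₁⟩ hαV₁ hβV₁ b hb₁
  obtain ⟨hφV₂, hφrd₂⟩ := S.c₂.cong_formula_lin A s a ε (fun i hi => hK.isGU₂ hi)
    (fun i hi => ⟨(haCM i hi).mem₂, (haCM i hi).rd₂⟩)
    (fun i hi => ⟨(hε i hi).1.mem₂, (hε i hi).1.rd₂⟩) hp (fun i hi => (hε i hi).2) f c hc
    ⟨hdV₂, hdrd₂⟩ hαV₂ hβV₂ b hb₂
  set φ : F := algebraMap K F c * (f - 1) with hφ
  -- regularity of `φ` away from the discs
  have hφreg : ∀ P, (∀ Q ∈ A₁, S.c₁.r P ≠ some Q) → (∀ Q ∈ A₂, S.c₂.r P ≠ some Q) →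
      0 ≤ P.ord φ := by
    intro P h1 h2
    have hf : RegAt P f := regAt_of_ord_nonneg (hord0 P h1 h2)
    exact ((regAt_algebraMap P c).mul (hf.sub (regAt_one P))).ord_nonneg
  have hαreg₁ : ∀ Q ∈ A₁, RegAt Q (S.c₁.rd α) := by
    intro Q hQ
    apply S.c₁.regAt_rd hP hαV₁ (hK.good₁ hQ)
    intro P hPQ
    have h1 : RegAt P f₂ := regAt_of_ord_nonneg (le_of_eq (hf₂ord₁ Q hQ P hPQ).symm)
    exact ((regAt_algebraMap P c).mul (h1.sub (regAt_one P))).ord_nonneg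
  have hαreg₂ : ∀ Q ∈ A₂, RegAt Q (S.c₂.rd α) := by
    intro Q hQ
    apply S.c₂.regAt_rd hP hαV₂ (hK.good₂ hQ)
    intro P hPQ
    have h1 : RegAt P f₂ := regAt_of_ord_nonneg (le_of_eq (hf₂ord₂ Q hQ P hPQ).symm)
    exact ((regAt_algebraMap P c).mul (h1.sub (regAt_one P))).ord_nonneg
  obtain ⟨e, he₁, he₂, hb0, hαe₁, hαe₂⟩ := hK.residue_core hP hNS hφV₁ hφV₂ hφreg b 1
    (by rw [Nat.cast_one]; exact one_ne_zero) hαreg₁ hαreg₂ hφrd₁ hφrd₂
  have he0 : e = 0 := hK.const_eq_zero hP hφV₁ hφreg hQinfg hQinfA hPinf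
    ((regAt_algebraMap Pinf c).mul_vanAt hfinf) he₁
  have hα0₁ : S.c₁.rd α = 0 := by rw [hαe₁, he0, map_zero]
  have hα0₂ : S.c₂.rd α = 0 := by rw [hαe₂, he0, map_zero]
  -- contradiction
  rcases Finset.mem_insert.mp hz₀ with rfl | hz
  · rcases hz₀GU with h | h
    · exact h.2 hα0₁
    · exact h.2 hα0₂
  · obtain ⟨i, hi, rfl⟩ := Finset.mem_image.mp hz
    rcases hz₀GU with h | h
    · apply h.2
      rw [← map_mul, hb₁ i hi, hb0 i hi, map_zero]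
    · apply h.2
      rw [← map_mul, hb₂ i hi, hb0 i hi, map_zero]

end Main

end H28

end Fermat.Agent.BAD

end
end
-- ==== END Fermat.Agent.BADP.H28_KeyPLin

-- ==== BEGIN Fermat.Agent.Lib.HopfOrderLoc.Val
section

/-!
# Valuation subrings of `ℚ̄` over `ℓ` have rank one (item 71 / S19, helper32)

* `exists_pow_prime_le` : for `d ≠ 0` some power of `ℓ` has valuation `≤` that of `d`;
* `exists_pow_le_prime` : for `x` in the maximal ideal some power of `x` is divisible by `ℓ`;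
* `exists_pow_le` : for `z` in the maximal ideal and `t ≠ 0` some power of `z` has valuation
  `≤` that of `t`.
-/

set_option autoImplicit false

open Polynomial

namespace Fermat.Agent.Lib.HopfOrderLoc

open Fermat.Agent.Lib.FrobExists

local notation "K" => AlgebraicClosure ℚ

/-- The value of an integer polynomial at an element of `A` lies in `A`. -/
lemma valuation_aeval_le_one (A : ValuationSubring K) (d : K) (hd : A.valuation d ≤ 1)
    (r : ℤ[X]) : A.valuation (aeval d r) ≤ 1 := by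
  rw [aeval_eq_sum_range]
  apply Valuation.map_sum_le
  intro i _
  rw [zsmul_eq_mul, map_mul, map_pow]
  calc A.valuation ((r.coeff i : ℤ) : K) * A.valuation d ^ i
      ≤ 1 * 1 := mul_le_mul' (valuation_intCast_le_one A _) (pow_le_one' hd i)
    _ = 1 := one_mul 1

/-- The valuation of a nonzero integer is a power of the valuation of `ℓ`. -/
lemma valuation_intCast_eq_pow (ℓ : ℕ) (hℓ : ℓ.Prime) (A : ValuationSubring K)
    (hA : A.LiesOverPrime ℓ) (c : ℤ) (hc : c ≠ 0) :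
    ∃ N : ℕ, A.valuation ((c : ℤ) : K) = A.valuation ((ℓ : K) ^ N) := by
  have hA' : (ℓ : K) ∈ A.nonunits := hA
  have hn : c.natAbs ≠ 0 := Int.natAbs_ne_zero.mpr hc
  obtain ⟨e, m, hm, hcm⟩ := Nat.exists_eq_pow_mul_and_not_dvd hn ℓ hℓ.ne_one
  refine ⟨e, ?_⟩
  have h1 : A.valuation ((c : ℤ) : K) = A.valuation ((c.natAbs : ℕ) : K) := by
    rcases Int.natAbs_eq c with h | h
    · conv_lhs => rw [h]
      simp
    · conv_lhs => rw [h]
      simp
  rw [h1, hcm]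
  push_cast
  rw [map_mul]
  have h2 : A.valuation ((m : ℕ) : K) = 1 := by
    have := valuation_intCast_eq_one A ℓ hℓ hA' (m : ℤ) (by exact_mod_cast hm)
    simpa using this
  rw [h2, mul_one]

/-- **Rank one, I**: for `d ≠ 0` some power of `ℓ` has valuation `≤` that of `d`. -/
theorem exists_pow_prime_le (ℓ : ℕ) (hℓ : ℓ.Prime) (A : ValuationSubring K)
    (hA : A.LiesOverPrime ℓ) (d : K) (hd : d ≠ 0) :
    ∃ N : ℕ, A.valuation ((ℓ : K) ^ N) ≤ A.valuation d := by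
  by_cases hv : A.valuation d ≤ 1
  swap
  · exact ⟨0, by rw [pow_zero, map_one]; exact le_of_lt (not_le.mp hv)⟩
  obtain ⟨p, hp0, hpd⟩ := isAlgebraic_int_qbar d
  obtain ⟨q, hpq, hq⟩ := exists_eq_pow_rootMultiplicity_mul_and_not_dvd p hp0 (0 : ℤ)
  have hq0 : q.coeff 0 ≠ 0 := by
    intro h
    apply hq
    rw [C_0, sub_zero]
    exact X_dvd_iff.mpr h
  have hqd : aeval d q = 0 := by
    rw [hpq, map_mul, map_pow, map_sub, aeval_X, aeval_C, map_zero, sub_zero] at hpd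
    rcases mul_eq_zero.mp hpd with h | h
    · exact absurd (eq_zero_of_pow_eq_zero h) hd
    · exact h
  have hsplit : q = q.divX * X + C (q.coeff 0) := (divX_mul_X_add q).symm
  have h1 : ((q.coeff 0 : ℤ) : K) = - (aeval d q.divX * d) := by
    have h2 : aeval d q = aeval d q.divX * d + ((q.coeff 0 : ℤ) : K) := by
      conv_lhs => rw [hsplit]
      rw [map_add, map_mul, aeval_X, aeval_C]
      simp
    rw [hqd] at h2
    linear_combination -h2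
  obtain ⟨N, hN⟩ := valuation_intCast_eq_pow ℓ hℓ A hA (q.coeff 0) hq0
  refine ⟨N, ?_⟩
  rw [← hN, h1, Valuation.map_neg, map_mul]
  calc A.valuation (aeval d q.divX) * A.valuation d
      ≤ 1 * A.valuation d := mul_le_mul_left (valuation_aeval_le_one A d hv _) _
    _ = A.valuation d := one_mul _

/-- **Rank one, II**: some power of an element of the maximal ideal is divisible by `ℓ`. -/
theorem exists_pow_le_prime (ℓ : ℕ) (hℓ : ℓ.Prime) (A : ValuationSubring K)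
    (hA : A.LiesOverPrime ℓ) (x : K) (hx : A.valuation x < 1) :
    ∃ n : ℕ, A.valuation x ^ n ≤ A.valuation (ℓ : K) := by
  by_contra hcon
  simp only [not_exists, not_le] at hcon
  have hx0 : x ≠ 0 := by
    intro h
    have := hcon 1
    rw [h, map_zero, pow_one] at this
    exact not_lt_zero this
  have hvx0 : 0 < A.valuation x := by
    rw [Valuation.pos_iff]
    exact hx0
  obtain ⟨f, hfx, i₁, hi₁⟩ := exists_prim_poly ℓ hℓ x (isAlgebraic_int_qbar x)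
  classical
  have hex : ∃ i, ¬ (ℓ : ℤ) ∣ f.coeff i := ⟨i₁, hi₁⟩
  set i₀ := Nat.find hex with hi₀
  have hi₀P : ¬ (ℓ : ℤ) ∣ f.coeff i₀ := Nat.find_spec hex
  have hlt : ∀ i, i < i₀ → (ℓ : ℤ) ∣ f.coeff i := fun i hi => by
    by_contra h
    exact Nat.find_min hex hi h
  have hA' : (ℓ : K) ∈ A.nonunits := hA
  have hi₀n : i₀ ∈ Finset.range (f.natDegree + 1) := by
    rw [Finset.mem_range, Nat.lt_succ_iff]
    exact le_natDegree_of_ne_zero (fun h => hi₀P (h ▸ dvd_zero _))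
  rw [aeval_eq_sum_range, ← Finset.add_sum_erase _ _ hi₀n] at hfx
  have hterm : A.valuation (f.coeff i₀ • x ^ i₀) = A.valuation x ^ i₀ := by
    rw [zsmul_eq_mul, map_mul, map_pow, valuation_intCast_eq_one A ℓ hℓ hA' _ hi₀P, one_mul]
  have hne : A.valuation x ^ i₀ ≠ 0 := pow_ne_zero _ (ne_of_gt hvx0)
  have hsum : A.valuation (∑ i ∈ (Finset.range (f.natDegree + 1)).erase i₀, f.coeff i • x ^ i) <
      A.valuation x ^ i₀ := by
    apply Valuation.map_sum_lt _ hne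
    intro i hi
    rw [Finset.mem_erase] at hi
    rw [zsmul_eq_mul, map_mul, map_pow]
    rcases lt_or_gt_of_ne hi.1 with h | h
    · obtain ⟨c, hc⟩ := hlt i h
      have h1 : A.valuation ((f.coeff i : ℤ) : K) ≤ A.valuation (ℓ : K) := by
        rw [hc]
        push_cast
        rw [map_mul]
        calc A.valuation (ℓ : K) * A.valuation ((c : ℤ) : K)
            ≤ A.valuation (ℓ : K) * 1 := mul_le_mul_right (valuation_intCast_le_one A c) _
          _ = A.valuation (ℓ : K) := mul_one _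
      calc A.valuation ((f.coeff i : ℤ) : K) * A.valuation x ^ i
          ≤ A.valuation (ℓ : K) * 1 := mul_le_mul' h1 (pow_le_one' (le_of_lt hx) i)
        _ = A.valuation (ℓ : K) := mul_one _
        _ < A.valuation x ^ i₀ := hcon i₀
    · calc A.valuation ((f.coeff i : ℤ) : K) * A.valuation x ^ i
          ≤ 1 * A.valuation x ^ i := mul_le_mul_left (valuation_intCast_le_one A _) _
        _ = A.valuation x ^ i := one_mul _
        _ < A.valuation x ^ i₀ := pow_lt_pow_right_of_lt_one₀ hvx0 hx h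
  have h3 : f.coeff i₀ • x ^ i₀ =
      - ∑ i ∈ (Finset.range (f.natDegree + 1)).erase i₀, f.coeff i • x ^ i := by
    linear_combination hfx
  rw [h3, Valuation.map_neg] at hterm
  rw [hterm] at hsum
  exact lt_irrefl _ hsum

/-- **Rank one, III**: for `z` in the maximal ideal and `t ≠ 0`, some power of `z` has
valuation `≤` that of `t`. -/
theorem exists_pow_le (ℓ : ℕ) (hℓ : ℓ.Prime) (A : ValuationSubring K)
    (hA : A.LiesOverPrime ℓ) (z t : K) (hz : A.valuation z < 1) (ht : t ≠ 0) :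
    ∃ n : ℕ, A.valuation z ^ n ≤ A.valuation t := by
  obtain ⟨n₁, hn₁⟩ := exists_pow_le_prime ℓ hℓ A hA z hz
  obtain ⟨N, hN⟩ := exists_pow_prime_le ℓ hℓ A hA t ht
  refine ⟨n₁ * N, ?_⟩
  rw [pow_mul]
  calc (A.valuation z ^ n₁) ^ N ≤ A.valuation (ℓ : K) ^ N := pow_le_pow_left' hn₁ N
    _ = A.valuation ((ℓ : K) ^ N) := (map_pow _ _ _).symm
    _ ≤ A.valuation t := hN

/-- Monotonicity: larger powers of an element of `A` have smaller valuation. -/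
lemma valuation_pow_le_of_le (A : ValuationSubring K) (z : K) (hz : A.valuation z ≤ 1)
    {m n : ℕ} (hmn : m ≤ n) : A.valuation z ^ n ≤ A.valuation z ^ m := by
  obtain ⟨k, rfl⟩ := Nat.exists_eq_add_of_le hmn
  rw [pow_add]
  calc A.valuation z ^ m * A.valuation z ^ k ≤ A.valuation z ^ m * 1 :=
        mul_le_mul_right (pow_le_one' hz k) _
    _ = A.valuation z ^ m := mul_one _

end Fermat.Agent.Lib.HopfOrderLoc

end
-- ==== END Fermat.Agent.Lib.HopfOrderLoc.Val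

-- ==== BEGIN Fermat.Agent.S15.Desc.H69_Base
section

/-!
# S15 / DESC: the base cases of the dévissage over `ℚ` (package BASE; helper69)

`G = Gal(ℚ̄/ℚ)`, `K = 𝔽_r` (`r` an odd prime), `p ≠ r` a prime.  `I ℓ` is the inertia group of a
chosen place `A ℓ` over `ℓ`, `𝔅` a family of subgroups of `G` ("bounded at `r`") satisfying
`IsBddFamily`:

* every member of `𝔅` is open;
* (CC0) an additive character vanishing on a member of `𝔅` is unramified at `r`;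
* (KUM) a `μ_r`-valued crossed homomorphism vanishing on a member of `𝔅` has unit class at `r`.

Results (from helper97's package GLOB):

* `base_one` : good cocycles of a line with trivial character, unramified outside `{p, r}`:
  dimension `≤ dim L^(p)`.
* `base_chi` : good cocycles of a line with the cyclotomic character: dimension `≤ dim L^(p) + 1`.
-/

set_option autoImplicit false

namespace Fermat.Agent.S15.Desc

open Module

local notation "Qbar" => AlgebraicClosure ℚ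
local notation "GQ" => (AlgebraicClosure ℚ ≃ₐ[ℚ] AlgebraicClosure ℚ)

/-- Requirements on the family `𝔅` of subgroups of `Gal(ℚ̄/ℚ)` "bounded at `r`"
(`Ar` = the chosen place over `r`). -/
structure IsBddFamily (r : ℕ) (Ar : ValuationSubring Qbar) (𝔅 : Set (Subgroup GQ)) : Prop where
  isOpen : ∀ H ∈ 𝔅, ∃ S : Finset Qbar, ∀ σ : GQ, (∀ x ∈ S, σ x = x) → σ ∈ H
  cc0 : ∀ u : GQ → ZMod r, (∀ σ τ, u (σ * τ) = u σ + u τ) → (∃ H ∈ 𝔅, ∀ σ ∈ H, u σ = 0) →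
    ∀ σ ∈ Ar.inertiaSubgroupIn ℚ, u σ = 0
  kum : ∀ z : GQ → Qbar, (∀ σ τ, z (σ * τ) = z σ * σ (z τ)) → (∀ σ, z σ ^ r = 1) →
    (∃ H ∈ 𝔅, ∀ σ ∈ H, z σ = 1) → H97.UnitClassAt r z

section Roots

variable {r : ℕ} [Fact r.Prime] {ζ₀ : Qbar}

theorem zpow_val_add (hζ : ζ₀ ^ r = 1) (a b : ZMod r) :
    ζ₀ ^ (a + b).val = ζ₀ ^ a.val * ζ₀ ^ b.val := by
  rw [ZMod.val_add, ← pow_eq_pow_mod _ hζ, pow_add]

theorem zpow_val_mul (hζ : ζ₀ ^ r = 1) (a b : ZMod r) :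
    ζ₀ ^ (a * b).val = (ζ₀ ^ b.val) ^ a.val := by
  rw [ZMod.val_mul, ← pow_eq_pow_mod _ hζ, ← pow_mul, mul_comm]

theorem zpow_val_natCast (hζ : ζ₀ ^ r = 1) (n : ℕ) :
    ζ₀ ^ ((n : ZMod r)).val = ζ₀ ^ n := by
  rw [ZMod.val_natCast, ← pow_eq_pow_mod _ hζ]

theorem zpow_val_injective (hζ : IsPrimitiveRoot ζ₀ r) {a b : ZMod r}
    (h : ζ₀ ^ a.val = ζ₀ ^ b.val) : a = b :=
  ZMod.val_injective r (hζ.pow_inj (ZMod.val_lt a) (ZMod.val_lt b) h)

theorem zpow_val_eq_one_iff (hζ : IsPrimitiveRoot ζ₀ r) {a : ZMod r} :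
    ζ₀ ^ a.val = 1 ↔ a = 0 := by
  constructor
  · intro h
    refine zpow_val_injective hζ ?_
    rw [h, ZMod.val_zero, pow_zero]
  · rintro rfl
    rw [ZMod.val_zero, pow_zero]

end Roots

section Base

variable {r : ℕ} [hr : Fact r.Prime] {p : ℕ}
variable {A : ℕ → ValuationSubring Qbar}
variable {𝔅 : Set (Subgroup GQ)}

/-- **BASE, trivial character.** -/
theorem base_one (hp : p.Prime) (hpr : p ≠ r)
    (hA : ∀ ℓ : ℕ, ℓ.Prime → (A ℓ).LiesOverPrime ℓ) (h𝔅 : IsBddFamily r (A r) 𝔅)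
    (Lloc : ℕ → Submodule (ZMod r) (ZMod r))
    (hL : ∀ ℓ : ℕ, ℓ.Prime → ℓ ≠ p → ℓ ≠ r → Lloc ℓ = ⊥) :
    DimLE (ZMod r) (ZgoodLine (fun ℓ => (A ℓ).inertiaSubgroupIn ℚ) 𝔅 (fun _ => (1 : ZMod r)) Lloc)
      (finrank (ZMod r) (Lloc p)) := by
  intro T hT hfin
  -- properties of the elements of `T`
  have hadd : ∀ u ∈ T, ∀ σ τ : GQ, u (σ * τ) = u σ + u τ := by
    intro u hu σ τ
    have := (hT hu).1 σ τ
    rwa [one_mul] at this
  have hopen : ∀ u ∈ T, ∃ S : Finset Qbar, ∀ σ : GQ, (∀ x ∈ S, σ x = x) → u σ = 0 := by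
    intro u hu
    obtain ⟨H, hH, hvan⟩ := (hT hu).2.2
    obtain ⟨S, hS⟩ := h𝔅.isOpen H hH
    exact ⟨S, fun σ hσ => hvan σ (hS σ hσ)⟩
  have hunr : ∀ u ∈ T, ∀ ℓ : ℕ, ℓ.Prime → ℓ ≠ p → ∃ B : ValuationSubring Qbar,
      B.LiesOverPrime ℓ ∧ ∀ σ ∈ B.inertiaSubgroupIn ℚ, u σ = 0 := by
    intro u hu ℓ hℓ hℓp
    refine ⟨A ℓ, hA ℓ hℓ, fun σ hσ => ?_⟩
    by_cases hℓr : ℓ = r
    · subst hℓr
      exact h𝔅.cc0 u (hadd u hu) (hT hu).2.2 σ hσ
    · have h1 := (hT hu).2.1 ℓ σ hσ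
      rw [hL ℓ hℓ hℓp hℓr, Submodule.mem_bot] at h1
      exact h1
  by_cases hLp : Lloc p = ⊥
  · -- unramified everywhere
    have hzero : ∀ u ∈ T, u = 0 := by
      intro u hu
      funext σ
      refine H97.glob_etale_trunc u (hadd u hu) (hopen u hu) (fun ℓ hℓ => ?_) σ
      by_cases hℓp : ℓ = p
      · subst hℓp
        refine ⟨A ℓ, hA ℓ hℓ, fun σ hσ => ?_⟩
        have h1 := (hT hu).2.1 ℓ σ hσ
        rw [hLp, Submodule.mem_bot] at h1
        exact h1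
      · exact hunr u hu ℓ hℓ hℓp
    have : T = ⊥ := by
      rw [eq_bot_iff]
      intro x hx
      rw [Submodule.mem_bot]
      exact hzero x hx
    subst this
    simp
  · have h1 : 1 ≤ finrank (ZMod r) (Lloc p) := by
      rw [Nat.one_le_iff_ne_zero]
      intro h0
      exact hLp (Submodule.finrank_eq_zero.mp h0)
    refine le_trans (finrank_le_one_of_pairwise_dep T ?_) h1
    intro u₁ hu₁ u₂ hu₂
    obtain ⟨c₁, c₂, hc, hcomb⟩ := H97.glob_etale hp hr.out hpr u₁ u₂ (hadd u₁ hu₁) (hadd u₂ hu₂)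
      (hopen u₁ hu₁) (hopen u₂ hu₂) (hunr u₁ hu₁) (hunr u₂ hu₂)
    refine ⟨c₁, c₂, hc, ?_⟩
    funext σ
    exact hcomb σ

/-- The `μ_r`-valued crossed homomorphism attached to a `χ`-cocycle with values in `𝔽_r`. -/
noncomputable def zOf (ζ₀ : Qbar) (u : GQ → ZMod r) : GQ → Qbar := fun σ => ζ₀ ^ (u σ).val

theorem zOf_crossed {ζ₀ : Qbar} (hζ : ζ₀ ^ r = 1) {χ : GQ → ZMod r}
    (hχ : ∀ σ : GQ, σ ζ₀ = ζ₀ ^ (χ σ).val) {u : GQ → ZMod r}
    (hu : ∀ σ τ, u (σ * τ) = u σ + χ σ * u τ) (σ τ : GQ) :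
    zOf ζ₀ u (σ * τ) = zOf ζ₀ u σ * σ (zOf ζ₀ u τ) := by
  unfold zOf
  rw [hu, zpow_val_add hζ, zpow_val_mul hζ, map_pow, hχ σ, ← pow_mul, ← pow_mul,
    mul_comm (u τ).val]

omit hr in
theorem zOf_pow {ζ₀ : Qbar} (hζ : ζ₀ ^ r = 1) (u : GQ → ZMod r) (σ : GQ) :
    zOf ζ₀ u σ ^ r = 1 := by
  unfold zOf
  rw [← pow_mul, mul_comm, pow_mul, hζ, one_pow]

/-- If `z_u` is the coboundary of a root of unity, `u` is a multiple of `χ - 1`. -/
theorem eq_smul_of_coboundary {ζ₀ : Qbar} (hζ : IsPrimitiveRoot ζ₀ r) {χ : GQ → ZMod r}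
    (hχ : ∀ σ : GQ, σ ζ₀ = ζ₀ ^ (χ σ).val) (w : GQ → ZMod r) (ζ : Qbar) (hζr : ζ ^ r = 1)
    (h : ∀ σ : GQ, σ ζ = ζ₀ ^ (w σ).val * ζ) :
    ∃ j : ZMod r, ∀ σ, w σ = j * (χ σ - 1) := by
  have hr0 : r ≠ 0 := hr.out.ne_zero
  have : NeZero r := ⟨hr0⟩
  obtain ⟨i, -, hi⟩ := hζ.eq_pow_of_pow_eq_one hζr
  refine ⟨(i : ZMod r), fun σ => ?_⟩
  have h1 := h σ
  rw [← hi, map_pow, hχ σ] at h1
  -- ζ₀ ^ ((χ σ).val * i) = ζ₀ ^ (w σ).val * ζ₀ ^ i
  have h2 : ζ₀ ^ ((χ σ * (i : ZMod r))).val = ζ₀ ^ (w σ + (i : ZMod r)).val := by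
    rw [zpow_val_add hζ.pow_eq_one, zpow_val_mul hζ.pow_eq_one, zpow_val_natCast hζ.pow_eq_one,
      ← pow_mul, mul_comm]
    rw [← pow_mul] at h1
    exact h1
  have h3 := zpow_val_injective hζ h2
  have h4 : w σ = χ σ * (i : ZMod r) - (i : ZMod r) := by
    rw [h3]; ring
  rw [h4]; ring

/-- **BASE, cyclotomic character.** -/
theorem base_chi (hp : p.Prime) (hr2 : r ≠ 2)
    (hA : ∀ ℓ : ℕ, ℓ.Prime → (A ℓ).LiesOverPrime ℓ)
    (h𝔅 : IsBddFamily r (A r) 𝔅)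
    {ζ₀ : Qbar} (hζ : IsPrimitiveRoot ζ₀ r) {χ : GQ → ZMod r}
    (hχ : ∀ σ : GQ, σ ζ₀ = ζ₀ ^ (χ σ).val)
    (Lloc : ℕ → Submodule (ZMod r) (ZMod r))
    (hL : ∀ ℓ : ℕ, ℓ.Prime → ℓ ≠ p → ℓ ≠ r → Lloc ℓ = ⊥) :
    DimLE (ZMod r) (ZgoodLine (fun ℓ => (A ℓ).inertiaSubgroupIn ℚ) 𝔅 χ Lloc)
      (finrank (ZMod r) (Lloc p) + 1) := by
  intro T hT hfin
  have hζ1 : ζ₀ ^ r = 1 := hζ.pow_eq_one
  have hcr : ∀ u ∈ T, ∀ σ τ : GQ, zOf ζ₀ u (σ * τ) = zOf ζ₀ u σ * σ (zOf ζ₀ u τ) :=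
    fun u hu => zOf_crossed hζ1 hχ (hT hu).1
  have hopen : ∀ u ∈ T, ∃ S : Finset Qbar, ∀ σ : GQ, (∀ x ∈ S, σ x = x) → zOf ζ₀ u σ = 1 := by
    intro u hu
    obtain ⟨H, hH, hvan⟩ := (hT hu).2.2
    obtain ⟨S, hS⟩ := h𝔅.isOpen H hH
    refine ⟨S, fun σ hσ => ?_⟩
    show ζ₀ ^ (u σ).val = 1
    rw [hvan σ (hS σ hσ), ZMod.val_zero, pow_zero]
  have hunit : ∀ u ∈ T, H97.UnitClassAt r (zOf ζ₀ u) := by
    intro u hu
    refine h𝔅.kum _ (hcr u hu) (zOf_pow hζ1 u) ?_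
    obtain ⟨H, hH, hvan⟩ := (hT hu).2.2
    refine ⟨H, hH, fun σ hσ => ?_⟩
    show ζ₀ ^ (u σ).val = 1
    rw [hvan σ hσ, ZMod.val_zero, pow_zero]
  have hunr : ∀ u ∈ T, ∀ ℓ : ℕ, ℓ.Prime → ℓ ≠ r → ℓ ≠ p → H97.UnramAt ℓ (zOf ζ₀ u) := by
    intro u hu ℓ hℓ hℓr hℓp
    refine ⟨A ℓ, hA ℓ hℓ, fun σ hσ => ?_⟩
    have h1 := (hT hu).2.1 ℓ σ hσ
    rw [hL ℓ hℓ hℓp hℓr, Submodule.mem_bot] at h1
    show ζ₀ ^ (u σ).val = 1
    rw [h1, ZMod.val_zero, pow_zero]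
  -- the coboundary
  set u₀ : GQ → ZMod r := fun σ => χ σ - 1 with hu₀
  by_cases hLp : Lloc p = ⊥
  · -- unramified outside `r`: every element is a multiple of `u₀`
    have hmul : ∀ u ∈ T, ∃ j : ZMod r, u = j • u₀ := by
      intro u hu
      obtain ⟨ζ, hζr, hcob⟩ := H97.glob_mu_trunc hr.out hr2 (zOf ζ₀ u) (hcr u hu)
        (zOf_pow hζ1 u) (hopen u hu) (fun ℓ hℓ hℓr => by
          by_cases hℓp : ℓ = p
          · subst hℓp
            refine ⟨A ℓ, hA ℓ hℓ, fun σ hσ => ?_⟩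
            have h1 := (hT hu).2.1 ℓ σ hσ
            rw [hLp, Submodule.mem_bot] at h1
            show ζ₀ ^ (u σ).val = 1
            rw [h1, ZMod.val_zero, pow_zero]
          · exact hunr u hu ℓ hℓ hℓr hℓp) (hunit u hu)
      obtain ⟨j, hj⟩ := eq_smul_of_coboundary hζ hχ u ζ hζr hcob
      exact ⟨j, funext fun σ => hj σ⟩
    have h1 : finrank (ZMod r) T ≤ 1 := by
      refine finrank_le_one_of_pairwise_dep T ?_
      intro u₁ hu₁ u₂ hu₂
      obtain ⟨j₁, rfl⟩ := hmul u₁ hu₁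
      obtain ⟨j₂, rfl⟩ := hmul u₂ hu₂
      by_cases hj : j₁ = 0 ∧ j₂ = 0
      · refine ⟨1, 0, Or.inl one_ne_zero, ?_⟩
        rw [hj.1, zero_smul, smul_zero, zero_smul, add_zero]
      · refine ⟨j₂, -j₁, ?_, ?_⟩
        · by_contra hcon
          simp only [not_or, not_not, neg_eq_zero] at hcon
          exact hj ⟨hcon.2, hcon.1⟩
        · rw [smul_smul, smul_smul, mul_comm j₂ j₁, neg_mul, neg_smul, add_neg_cancel]
    omega
  · have h1 : 1 ≤ finrank (ZMod r) (Lloc p) := by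
      rw [Nat.one_le_iff_ne_zero]
      intro h0
      exact hLp (Submodule.finrank_eq_zero.mp h0)
    have h2 : finrank (ZMod r) T ≤ 2 := by
      refine finrank_le_two_of_pairwise_dep_mod T u₀ ?_
      intro u₁ hu₁ u₂ hu₂
      obtain ⟨c₁, c₂, ζ, hc, hζr, hcob⟩ := H97.glob_mu_full hp hr.out hr2 (zOf ζ₀ u₁) (zOf ζ₀ u₂)
        (hcr u₁ hu₁) (zOf_pow hζ1 u₁) (hcr u₂ hu₂) (zOf_pow hζ1 u₂) (hopen u₁ hu₁) (hopen u₂ hu₂)
        (hunr u₁ hu₁) (hunr u₂ hu₂) (hunit u₁ hu₁) (hunit u₂ hu₂)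
      -- the combination `w = c₁ u₁ + c₂ u₂`
      set w : GQ → ZMod r := fun σ => (c₁ : ZMod r) * u₁ σ + (c₂ : ZMod r) * u₂ σ with hw
      have hwz : ∀ σ : GQ, σ ζ = ζ₀ ^ (w σ).val * ζ := by
        intro σ
        rw [hcob σ]
        congr 1
        show (ζ₀ ^ (u₁ σ).val) ^ c₁ * (ζ₀ ^ (u₂ σ).val) ^ c₂ = _
        rw [hw]
        simp only
        rw [zpow_val_add hζ1, zpow_val_mul hζ1, zpow_val_mul hζ1, ZMod.val_natCast,
          ZMod.val_natCast, ← pow_mul, ← pow_mul, ← pow_mul, ← pow_mul]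
        have e1 : ζ₀ ^ ((u₁ σ).val * (c₁ % r)) = ζ₀ ^ ((u₁ σ).val * c₁) := by
          rw [pow_mul, pow_mul, ← pow_eq_pow_mod c₁ (by rw [← pow_mul, mul_comm, pow_mul, hζ1,
            one_pow])]
        have e2 : ζ₀ ^ ((u₂ σ).val * (c₂ % r)) = ζ₀ ^ ((u₂ σ).val * c₂) := by
          rw [pow_mul, pow_mul, ← pow_eq_pow_mod c₂ (by rw [← pow_mul, mul_comm, pow_mul, hζ1,
            one_pow])]
        rw [e1, e2]
      obtain ⟨j, hj⟩ := eq_smul_of_coboundary hζ hχ w ζ hζr hwz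
      refine ⟨(c₁ : ZMod r), (c₂ : ZMod r), j, ?_, ?_⟩
      · rcases hc with hc | hc
        · left
          intro h0
          exact hc ((ZMod.natCast_eq_zero_iff c₁ r).mp h0)
        · right
          intro h0
          exact hc ((ZMod.natCast_eq_zero_iff c₂ r).mp h0)
      · funext σ
        exact hj σ
    omega

end Base

end Fermat.Agent.S15.Desc

end
-- ==== END Fermat.Agent.S15.Desc.H69_Base

-- ==== BEGIN Fermat.Agent.S32.H86_Bridge
section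

/-!
# S32 bridge (helper86): frozen S19 ⟹ `Stmt_FlatPoint` ⟹ frozen S32

`Stmt_S19` is the type of the frozen statement S19 (`J₀(N)[ℓ^k]` is the group of `ℚ̄`-points of a
finite flat group scheme over `ℤ_(ℓ)`, `ℓ ∤ N`).

* `jtor_flat`, `tate_flat` : the levels `(ℤ/p^k)^r` of helper81's coordinatised Tate system are
  flat Galois modules.
* `stmt_FlatPoint_of_S19 : Stmt_S19 → Stmt_FlatPoint`.
* `of_S19` : frozen S32 from `Stmt_S19`.
-/

set_option autoImplicit false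
set_option linter.unusedSectionVars false
set_option linter.unusedVariables false
set_option linter.style.haveILetI false

open Polynomial IsLocalRing

noncomputable section

namespace Fermat.Agent.S32.H86

open Fermat.Agent.R Fermat.Agent.GTor Fermat.Agent.GTor.H81 Fermat.Agent.GTor.H58T1
open AlgebraicCurve ModularCurve

/-- The type of the frozen statement S19. -/
def Stmt_S19 : Prop :=
  ∀ (p : ℕ) [NeZero p] (ℓ : ℕ) [Fact ℓ.Prime] (_hℓp : ¬ ℓ ∣ p) (k : ℕ),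
    ∃ (H : Type) (_ : CommRing H) (_ : HopfAlgebra (GaloisRep.ratLocalizedAt ℓ) H),
      Module.Finite (GaloisRep.ratLocalizedAt ℓ) H ∧ Module.Flat (GaloisRep.ratLocalizedAt ℓ) H ∧
      Coalgebra.IsCocomm (GaloisRep.ratLocalizedAt ℓ) H ∧
      ∃ e : WithConv (H →ₐ[GaloisRep.ratLocalizedAt ℓ] AlgebraicClosure ℚ) ≃
          ↥(Submodule.torsionBy ℤ (JZero p) ((ℓ : ℤ) ^ k)),
        (∀ f g, e (f * g) = e f + e g) ∧
        ∀ (σ : AlgebraicClosure ℚ ≃ₐ[ℚ] AlgebraicClosure ℚ)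
          (f g : WithConv (H →ₐ[GaloisRep.ratLocalizedAt ℓ] AlgebraicClosure ℚ)),
          (∀ h : H, g h = σ (f h)) → ((e g : JZero p)) = σ • (e f : JZero p)

/-- `J₀(N)[p^k]`, in helper81's form, is a flat Galois module. -/
theorem jtor_flat (hS19 : Stmt_S19) (N : ℕ) [NeZero N] (p : ℕ) [Fact p.Prime] (hpN : ¬ p ∣ N)
    (k : ℕ) :
    IsFlatGaloisModule p (Jtor N (p ^ k)) (fun σ x => JZero.torsionGaloisRep N (p ^ k) σ x) := by
  obtain ⟨H, i1, i2, h1, h2, h3, e, hmul, hact⟩ := hS19 N p hpN k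
  have hcast : (((p ^ k : ℕ) : ℕ) : ℤ) = (p : ℤ) ^ k := by push_cast; rfl
  let φ : ↥(Submodule.torsionBy ℤ (JZero N) ((p : ℤ) ^ k)) ≃ Jtor N (p ^ k) :=
    { toFun := fun x => ⟨x.1, by
        show x.1 ∈ Pic0.torsion (AlgebraicClosure ℚ) (modularFunctionFieldBar N) (p ^ k)
        rw [Pic0.mem_torsion, hcast]
        exact (Submodule.mem_torsionBy_iff _ _).mp x.2⟩
      invFun := fun x => ⟨x.1, by
        rw [Submodule.mem_torsionBy_iff, ← hcast]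
        exact Pic0.mem_torsion.mp x.2⟩
      left_inv := fun x => rfl
      right_inv := fun x => rfl }
  refine ⟨H, i1, i2, h1, h2, h3, e.trans φ, ?_, ?_⟩
  · intro f g
    apply Subtype.ext
    show ((e (f * g) : ↥(Submodule.torsionBy ℤ (JZero N) ((p : ℤ) ^ k))) : JZero N) =
      ((e f : ↥(Submodule.torsionBy ℤ (JZero N) ((p : ℤ) ^ k))) : JZero N) +
        ((e g : ↥(Submodule.torsionBy ℤ (JZero N) ((p : ℤ) ^ k))) : JZero N)
    rw [hmul]
    rfl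
  · intro σ f g hfg
    apply Subtype.ext
    rw [JZero.coe_torsionGaloisRep_apply]
    exact hact σ f g hfg

/-- The levels of the coordinatised Tate system are flat Galois modules. -/
theorem tate_flat (hS19 : Stmt_S19) {N : ℕ} [NeZero N] {p : ℕ} [Fact p.Prime] (hpN : ¬ p ∣ N)
    {S : Set ℕ} (C : TateCoords N p S) (k : ℕ) :
    IsFlatGaloisModule p (Fin C.r → ZMod (p ^ k)) (fun σ v => (C.ρ k σ).mulVec v) := by
  have hp : p.Prime := Fact.out
  refine H54.stmt_FlatQuot p hp (Jtor N (p ^ k)) (Fin C.r → ZMod (p ^ k))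
    (fun σ x => JZero.torsionGaloisRep N (p ^ k) σ x) _ (C.θ k).toAddMonoidHom
    (C.θ k).surjective (fun σ x => C.gal k σ x) (jtor_flat hS19 N p hpN k)

/-- In rank 2 the characteristic polynomial gives trace and determinant. -/
theorem trace_det_of_charpoly {A : Type} [CommRing A] {V : Type} [AddCommGroup V] [Module A V]
    [Module.Free A V] [Module.Finite A V] (hV : Module.finrank A V = 2) (f : Module.End A V)
    {t d : A} (h : f.charpoly = X ^ 2 - C t * X + C d) :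
    LinearMap.trace A V f = t ∧ LinearMap.det f = d := by
  rw [H91.charpoly_eq_of_finrank_two hV f] at h
  have h0 := congrArg (fun q : A[X] => q.coeff 0) h
  have h1 := congrArg (fun q : A[X] => q.coeff 1) h
  simp only [coeff_add, coeff_sub, coeff_X_pow, coeff_C_mul, coeff_X_zero, coeff_X_one,
    coeff_C_zero, coeff_C_succ, mul_zero, mul_one, sub_zero, add_zero] at h0 h1
  norm_num at h0 h1
  exact ⟨h1, h0⟩

/-- **The bridge**: frozen S19 implies S32 over discrete valuation rings. -/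
theorem stmt_FlatPoint_of_S19 (hS19 : Stmt_S19) : Stmt_FlatPoint := by
  intro p N _ S 𝒪 _ _ _ _ _ _ hp hp2 hp𝒪 hpN hpS hNS χ ρ hρ habs
  haveI : Fact p.Prime := ⟨hp⟩
  have hNS' : ∀ q : ℕ, q.Prime → q ∣ N → q ∈ (↑S : Set ℕ) := fun q hq hqN => by
    exact_mod_cast hNS q hq hqN
  obtain ⟨C⟩ := tateCoords N p (↑S : Set ℕ) hp hNS'
  obtain ⟨L⟩ := exists_tateLimit C 𝒪 hp𝒪
  obtain ⟨Pc, hPc⟩ := exists_piece_eig L χ
  have hES : Stmt_TorsES N p := torsES_of_red hp (Fermat.Agent.R.H33.allRed N p)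
  -- the Frobenius relation on the piece
  have hFrob : ∀ ℓ : ℕ, ℓ.Prime → ℓ ∉ S →
      ∀ A : ValuationSubring (AlgebraicClosure ℚ), A.LiesOverPrime ℓ →
        ∀ σ : Fermat.Agent.S30.GQ, A.IsFrobeniusAt σ ℓ →
          Pc.rep σ * Pc.rep σ - (LinearMap.trace 𝒪 ρ.V (ρ.ρ σ)) • Pc.rep σ
            + (LinearMap.det (ρ.ρ σ)) • (1 : Matrix (Fin Pc.d) (Fin Pc.d) 𝒪) = 0 := by
    intro ℓ hℓ hℓS A hA σ hσ
    have hℓN : ¬ ℓ ∣ N := fun h => hℓS (hNS ℓ hℓ h)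
    have hℓp : ℓ ≠ p := by
      rintro rfl
      exact hℓS hpS
    have hℓS' : ℓ ∉ (↑S : Set ℕ) := by exact_mod_cast hℓS
    have h1 := piece_ES L Pc hES hℓ hℓN hℓp hℓS' (χ (CuspForm.heckeAlgebra.T hℓ hℓN hℓS'))
      (hPc _) A hA σ hσ
    obtain ⟨htr, hdet⟩ := trace_det_of_charpoly ρ.finrank_eq (ρ.ρ σ) (hρ ℓ hℓ hℓN hℓS' A hA σ hσ)
    rw [htr, hdet]
    exact h1
  have hCH := ch_all Fermat.Agent.Lib.FrobDensity.stmt_FD ρ Pc.rep (L.cont_piece Pc) S hFrob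
  -- flatness of the levels
  have hlev : ∀ I : Ideal 𝒪, Finite (𝒪 ⧸ I) →
      IsFlatGaloisModule p (Fin C.r → 𝒪 ⧸ I)
        (fun σ y => ((Ideal.Quotient.mk I).mapMatrix (L.ρL σ)).mulVec y) := by
    intro I hI
    have hI0 : I ≠ ⊥ := by
      rintro rfl
      haveI : Infinite 𝒪 := Infinite.of_injective (fun n : ℕ => (n : 𝒪)) Nat.cast_injective
      exact not_finite (𝒪 ⧸ (⊥ : Ideal 𝒪)) |>.elim
    obtain ⟨ϖ, hϖ⟩ := IsDiscreteValuationRing.exists_irreducible 𝒪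
    obtain ⟨n, hn⟩ := IsDiscreteValuationRing.ideal_eq_span_pow_irreducible hI0 hϖ
    have hIn : I = maximalIdeal 𝒪 ^ n := by
      rw [hn, hϖ.maximalIdeal_eq, Ideal.span_singleton_pow]
    subst hIn
    have h1 := level_flat hp (C.ρ n) (tate_flat hS19 hpN C n) (𝒪 ⧸ maximalIdeal 𝒪 ^ n)
      (cK (maximalIdeal 𝒪) p hp𝒪 n)
    have h2 : (fun (σ : AlgebraicClosure ℚ ≃ₐ[ℚ] AlgebraicClosure ℚ)
        (y : Fin C.r → 𝒪 ⧸ maximalIdeal 𝒪 ^ n) =>
          ((Ideal.Quotient.mk (maximalIdeal 𝒪 ^ n)).mapMatrix (L.ρL σ)).mulVec y) =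
        (fun σ y => ((cK (maximalIdeal 𝒪) p hp𝒪 n).mapMatrix (C.ρ n σ)).mulVec y) := by
      funext σ y
      have h3 := L.spec σ n
      rw [← h3]
    rw [h2]
    exact h1
  exact flat_of_piece hp ρ habs Pc.pos L.ρL Pc.P Pc.Q Pc.QP Pc.rep (fun σ => Pc.rel_rep σ) hCH
    hlev

section Frozen

variable {p : ℕ} {N : ℕ} [NeZero N] {S : Finset ℕ}
  {𝒪 : Type} [CommRing 𝒪] [IsDomain 𝒪] [IsDiscreteValuationRing 𝒪]
  [IsAdicComplete (IsLocalRing.maximalIdeal 𝒪) 𝒪]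
  {θ : CuspForm.heckeAlgebra N 2 (↑S : Set ℕ) →+* IsLocalRing.ResidueField 𝒪}
  {T : Type} [CommRing T] [IsLocalRing T] [IsNoetherianRing T]
  [IsAdicComplete (IsLocalRing.maximalIdeal T) T] [Algebra 𝒪 T] [IsLocalHom (algebraMap 𝒪 T)]
  [Module.Finite 𝒪 T] [Module.Free 𝒪 T]

/-- **Frozen S32 from frozen S19.** -/
theorem of_S19 (hS19 : Stmt_S19)
    [Finite (IsLocalRing.ResidueField 𝒪)] [CharZero 𝒪]
    (hp : p.Prime) (hp2 : p ≠ 2) (hp𝒪 : (p : 𝒪) ∈ IsLocalRing.maximalIdeal 𝒪) (hpN : ¬ p ∣ N)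
    (hpS : p ∈ S) (hNS : ∀ q : ℕ, q.Prime → q ∣ N → q ∈ S)
    (H : CuspForm.HeckeGaloisRepDatum N (↑S : Set ℕ) 𝒪 θ T) :
    H.ρ.IsFlatAt p :=
  Fermat.Agent.S32.of_flatPoint (stmt_FlatPoint_of_S19 hS19) hp hp2 hp𝒪 hpN hpS hNS H

end Frozen

end Fermat.Agent.S32.H86

end

end
-- ==== END Fermat.Agent.S32.H86_Bridge

-- ==== BEGIN Fermat.Agent.S33.H86_Split
section

/-!
# S33: the split into the old and the new case (helper86, cluster R)

* `ordPoint_of_split` : `Stmt_FlatPoint → Stmt_FlatOrd → Stmt_OrdNew → Stmt_OrdPoint`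
  (with the proved leaves `Stmt_FD`, `Stmt_CycInertia`, `Stmt_FrobCyc` plugged in).
* `of_split` : frozen S33 from `Stmt_FlatPoint`, `Stmt_FlatInf`, `Stmt_OrdNew`.
-/

set_option autoImplicit false
set_option linter.style.haveILetI false

open Polynomial IsLocalRing

namespace Fermat.Agent.S33.H86

open Fermat.Agent.R Fermat.Agent.R.H86

/-- `Stmt_OrdPoint` from the old case (flatness at level `N / p`) and the new case. -/
theorem ordPoint_of_split (hFP : Stmt_FlatPoint) (hFO : Stmt_FlatOrd) (hNew : Stmt_OrdNew) :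
    Stmt_OrdPoint := by
  intro p N _ S 𝒪 _ _ _ _ _ _ hp hp2 hp𝒪 hN hNS χ ρ hρ habs hres
  obtain ⟨⟨M, hM⟩, hp2N⟩ := hN
  have hNM : N = M * p := by rw [hM, mul_comm]
  have hpM : ¬ p ∣ M := by
    rintro ⟨c, rfl⟩
    exact hp2N ⟨c, by rw [hM]; ring⟩
  haveI : NeZero M := ⟨by
    rintro rfl
    exact NeZero.ne N (by rw [hNM, zero_mul])⟩
  have hpS : p ∈ S := hNS p hp ⟨M, hM⟩
  by_cases h : OccursAtLevel χ M
  · obtain ⟨χ', hχ'⟩ := h
    have hρ' : HasFrobCharpoly χ' ρ := by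
      intro ℓ hℓ hℓM hℓS B hB σ hσ
      have hℓN : ¬ ℓ ∣ N := by
        rw [hNM]
        intro hd
        rcases (Nat.Prime.dvd_mul hℓ).1 hd with h1 | h1
        · exact hℓM h1
        · have : ℓ = p := (Nat.prime_dvd_prime_iff_eq hℓ hp).1 h1
          exact hℓS (by rw [this]; exact_mod_cast hpS)
      rw [hχ' ℓ hℓ hℓN hℓM hℓS]
      exact hρ ℓ hℓ hℓN hℓS B hB σ hσ
    have hMS : ∀ q : ℕ, q.Prime → q ∣ M → q ∈ S := fun q hq hqM =>
      hNS q hq (by rw [hNM]; exact Dvd.dvd.mul_right hqM p)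
    have hflat : ρ.IsFlatAt p := hFP p M S 𝒪 hp hp2 hp𝒪 hpM hpS hMS χ' ρ hρ' habs
    refine hFO p hp hp2 𝒪 hp𝒪 ρ hflat ?_ hres
    intro P hP
    exact exists_inertia_notMem Fermat.Agent.Lib.FrobDensity.stmt_FD H2.stmt_CycInertia
      H2.stmt_FrobCyc hp hp2 hpS hNS hp𝒪 χ ρ hρ P hP
  · exact hNew p N M S 𝒪 hp hp2 hp𝒪 hNM hpM hNS χ ρ hρ habs h

variable {p : ℕ} {N : ℕ} [NeZero N] {S : Finset ℕ}
  {𝒪 : Type} [CommRing 𝒪] [IsDomain 𝒪] [IsDiscreteValuationRing 𝒪]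
  [IsAdicComplete (IsLocalRing.maximalIdeal 𝒪) 𝒪]
  {θ : CuspForm.heckeAlgebra N 2 (↑S : Set ℕ) →+* IsLocalRing.ResidueField 𝒪}
  {T : Type} [CommRing T] [IsLocalRing T] [IsNoetherianRing T]
  [IsAdicComplete (IsLocalRing.maximalIdeal T) T] [Algebra 𝒪 T] [IsLocalHom (algebraMap 𝒪 T)]
  [Module.Finite 𝒪 T] [Module.Free 𝒪 T]

/-- Frozen S33 from: S32 over discrete valuation rings (`Stmt_FlatPoint`), the infinitesimal
points of flat Galois modules (`Stmt_FlatInf`) and the `p`-new case (`Stmt_OrdNew`). -/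
theorem of_split (hFP : Stmt_FlatPoint) (hFI : Stmt_FlatInf) (hNew : Stmt_OrdNew)
    [Finite (IsLocalRing.ResidueField 𝒪)] [CharZero 𝒪]
    (hp : p.Prime) (hp2 : p ≠ 2) (hp𝒪 : (p : 𝒪) ∈ IsLocalRing.maximalIdeal 𝒪)
    (hN : p ∣ N ∧ ¬ p ^ 2 ∣ N)
    (hNS : ∀ q : ℕ, q.Prime → q ∣ N → q ∈ S)
    (H : CuspForm.HeckeGaloisRepDatum N (↑S : Set ℕ) 𝒪 θ T)
    (hres : (GaloisRepAdic.ofResidualGaloisRep H.ρ.residual).IsOrdinaryAt p) :
    H.ρ.IsOrdinaryAt p :=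
  Fermat.Agent.S33.of_ordPoint (ordPoint_of_split hFP (flatOrd_of_flatInf hFI) hNew)
    hp hp2 hp𝒪 hN hNS H hres

end Fermat.Agent.S33.H86

end
-- ==== END Fermat.Agent.S33.H86_Split

-- ==== BEGIN Fermat.Agent.S33.New.H28_Red2
section
attribute [local instance 10000] HahnSeries.powerSeriesAlgebra

/-!
# S33, the `p`-new case, leaf L2 (helper28): NORM-RED at the second component

`stmt_Red2 : H86.Stmt_Red2` : level `M p`, tame, `A` over `p`.  If `f ≡ 1` for `V₁` and the norm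
of `f` along `α` is a constant times a `p`-th power, then `f = a' f' h₀ ^ p` with `f' ≡ 1` for
`V₂`.

Proof (helper86's note "S33 NEW: modular leaves"): `u₂ = c f` a unit for `V₂`; by NORM-RED for two
valuations (`H42.normRed_two`) `N f = c ^ (-p) δ` with `red δ = N₂ (red₂ u₂)`, and
`δ = κ (c t) ^ p = ε s ^ p` with `s` a unit and `ε` a unit constant, so `N₂ (red₂ u₂)` is a
constant times a `p`-th power; `N₂ g = e⁻¹ (φ g)` (`H73.norm_F1_Fr`), `φ` the coefficientwise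
Frobenius, so `red₂ u₂` is a `p`-th power `w ^ p`; lift `w` to `h₀` and put `f' = u₂ / h₀ ^ p`.
-/

set_option autoImplicit false
set_option synthInstance.maxHeartbeats 400000
set_option maxHeartbeats 1000000
set_option linter.style.haveILetI false
set_option linter.unusedSectionVars false

noncomputable section

open AlgebraicCurve ModularCurve
open Fermat.Agent.S28.H73 Fermat.Agent.RED.H73 Fermat.Agent.RED Fermat.Agent.S24
open Fermat.Agent.BAD.H88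

namespace Fermat.Agent.S33.New.H28

open Fermat.Agent.BAD Fermat.Agent.RED.H17

section Abs

variable {K E L k E' L₁ L₂ : Type} [Field K] [Field E] [Field L] [Field k] [Field E']
  [Field L₁] [Field L₂] [Algebra K E] [Algebra K L] [Algebra E L] [IsScalarTower K E L]
  [Module.Finite E L] [Algebra k E'] [Algebra k L₁] [Algebra k L₂] [Algebra E' L₁]
  [Algebra E' L₂] [Module.Finite E' L₁] [Module.Finite E' L₂]

/-- **NORM-RED at the second component, abstract form.** -/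
theorem red2_abs (SE : RedSetup K E k E')
    (V₁ V₂ : ValuationSubring L) (red₁ : ↥V₁ →+* L₁) (red₂ : ↥V₂ →+* L₂)
    (hV₁ : ∀ a : E, a ∈ SE.V → algebraMap E L a ∈ V₁)
    (hV₂ : ∀ a : E, a ∈ SE.V → algebraMap E L a ∈ V₂)
    (hsurj₁ : Function.Surjective red₁) (hsurj₂ : Function.Surjective red₂)
    (hker₁ : ∀ a : ↥V₁, ¬ IsUnit a → red₁ a = 0) (hker₂ : ∀ a : ↥V₂, ¬ IsUnit a → red₂ a = 0)
    (hcompat₁ : ∀ (a : ↥SE.V) (ha : algebraMap E L (a : E) ∈ V₁),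
      red₁ ⟨algebraMap E L (a : E), ha⟩ = algebraMap E' L₁ (SE.red a))
    (hcompat₂ : ∀ (a : ↥SE.V) (ha : algebraMap E L (a : E) ∈ V₂),
      red₂ ⟨algebraMap E L (a : E), ha⟩ = algebraMap E' L₂ (SE.red a))
    (h₁₂ : ¬ V₁ ≤ V₂) (h₂₁ : ¬ V₂ ≤ V₁) (hA₁ : H42.IsArch V₁) (hA₂ : H42.IsArch V₂)
    (hdeg : Module.finrank E L = Module.finrank E' L₁ + Module.finrank E' L₂)
    (p : ℕ) (hfin₂ : Module.finrank E' L₂ = p)
    (hpow : ∀ (g : L₂) (x : E') (ε : k), Algebra.norm E' g = algebraMap k E' ε * x ^ p →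
      ∃ w : L₂, g = w ^ p)
    (u₁ : ↥V₁) (hred₁ : red₁ u₁ = 1) (u₂ : ↥V₂) (hred₂ : red₂ u₂ ≠ 0) (c : K)
    (hu : (u₂ : L) = algebraMap K L c * (u₁ : L))
    (t : E) (κ : K) (hN : Algebra.norm E (u₁ : L) = algebraMap K E κ * t ^ p) :
    ∃ w : L₂, red₂ u₂ = w ^ p := by
  have hu₂0 : (u₂ : L) ≠ 0 := fun h => hred₂ (by
    have : u₂ = 0 := Subtype.ext h
    rw [this, map_zero])
  have hu₁0 : (u₁ : L) ≠ 0 := fun h => by
    have : u₁ = 0 := Subtype.ext h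
    rw [this, map_zero] at hred₁
    exact zero_ne_one hred₁
  have hc0 : c ≠ 0 := by
    rintro rfl
    apply hu₂0
    rw [hu, map_zero, zero_mul]
  have hcE : algebraMap K E c ≠ 0 := (map_ne_zero_iff _ (algebraMap K E).injective).mpr hc0
  have hkerE : ∀ a : ↥SE.V, ¬ IsUnit a → SE.red a = 0 := fun a ha =>
    (SE.red_eq_zero_iff a).2 ((IsLocalRing.mem_maximalIdeal a).2 ha)
  -- norm reduction
  obtain ⟨δ, hδ, hδr⟩ := H42.normRed_two SE.V V₁ V₂ SE.red red₁ red₂ hV₁ hV₂ hkerE hsurj₁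
    hsurj₂ hker₁ hker₂ hcompat₁ hcompat₂ h₁₂ h₂₁ hA₁ hA₂ hdeg (u₁ : L) 1 (algebraMap K E c)⁻¹
    one_ne_zero (inv_ne_zero hcE) u₁ u₂ (by rw [map_one, one_mul]) (by
      rw [hu, map_inv₀, ← IsScalarTower.algebraMap_apply, ← mul_assoc, inv_mul_cancel₀
        ((map_ne_zero_iff _ (algebraMap K L).injective).mpr hc0), one_mul])
  rw [hred₁, map_one, one_mul] at hδr
  rw [one_pow, one_mul, hfin₂, hN] at hδ
  have hδ0 : SE.red δ ≠ 0 := by
    rw [hδr]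
    exact Algebra.norm_ne_zero_iff.2 hred₂
  have hδGU : SE.IsGU (δ : E) := ⟨δ.2, by rw [SE.rd_of_mem δ.2]; exact hδ0⟩
  -- `δ = κ (c t) ^ p`
  have hδeq : (δ : E) = algebraMap K E κ * (algebraMap K E c * t) ^ p := by
    rw [mul_pow, ← mul_assoc, mul_comm (algebraMap K E κ), mul_assoc, hδ, inv_pow,
      ← mul_assoc, mul_inv_cancel₀ (pow_ne_zero _ hcE), one_mul]
  have ht' : algebraMap K E c * t ≠ 0 := by
    intro h0
    apply hδGU.ne_zero
    rw [hδeq, h0]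
    by_cases hp : p = 0
    · exfalso
      -- `p = 0` : `finrank = 0` is impossible
      have := Module.finrank_pos (R := E') (M := L₂)
      omega
    · rw [zero_pow hp, mul_zero]
  obtain ⟨d, hd0, hs, hsred⟩ := SE.exists_scale _ ht'
  have hdE : algebraMap K E d ≠ 0 := (map_ne_zero_iff _ (algebraMap K E).injective).mpr hd0
  have hsGU : SE.IsGU (algebraMap K E d * (algebraMap K E c * t)) :=
    ⟨hs, by rw [SE.rd_of_mem hs]; exact hsred⟩
  have hδs : algebraMap K E (κ * (d⁻¹) ^ p) =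
      (δ : E) / (algebraMap K E d * (algebraMap K E c * t)) ^ p := by
    rw [eq_div_iff (pow_ne_zero _ hsGU.ne_zero), hδeq, map_mul, map_pow, map_inv₀,
      mul_pow (algebraMap K E d), inv_pow]
    field_simp
  have hεGU : SE.IsGU (algebraMap K E (κ * (d⁻¹) ^ p)) := by
    rw [hδs]
    exact hδGU.div (hsGU.pow p)
  obtain ⟨ε', hε'⟩ := SE.red_const (κ * (d⁻¹) ^ p) hεGU.1
  have hδred : SE.red δ = algebraMap k E' ε' * SE.red ⟨_, hs⟩ ^ p := by
    have e1 : (δ : E) = algebraMap K E (κ * (d⁻¹) ^ p) *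
        (algebraMap K E d * (algebraMap K E c * t)) ^ p := by
      rw [hδs, div_mul_cancel₀ _ (pow_ne_zero _ hsGU.ne_zero)]
    have e2 : δ = ⟨algebraMap K E (κ * (d⁻¹) ^ p), hεGU.1⟩ *
        (⟨algebraMap K E d * (algebraMap K E c * t), hs⟩ : ↥SE.V) ^ p := Subtype.ext e1
    rw [e2, map_mul, map_pow, hε']
  exact hpow (red₂ u₂) (SE.red ⟨_, hs⟩) ε' (by rw [← hδr, hδred])

end Abs

section Concrete

variable (A : ValuationSubring Kbar) (q M : ℕ) (a b : ℤ) (hab : a * q + b * M = 1)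
  (hq : q.Prime) [NeZero M] [NeZero (M * q)] (hA : A.LiesOverPrime q)
  (hqM : ¬ q ∣ M) (ht : H91.TameAt M q)
  (hD : redField A (modularFunctionFieldBar (M * q)) (hSc A q M)
    = modularFunctionFieldFullC (kV A) M)

include hqM in
/-- If the norm of `g` for the second structure is a constant times a `q`-th power, then `g` is
a `q`-th power. -/
theorem pow_of_norm_alg2 (g : F1 A q M) (x : ↥(H91.redM A M)) (ε : kV A)
    (h : @Algebra.norm ↥(H91.redM A M) (F1 A q M) _ _ (H23.alg2 A q M a b hab hq hA hD) g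
      = algebraMap (kV A) ↥(H91.redM A M) ε * x ^ q) :
    ∃ w : F1 A q M, g = w ^ q := by
  letI := H23.alg2 A q M a b hab hq hA hD
  haveI : IsAlgClosed (kV A) := isAlgClosed_kV A
  have hq0 : q ≠ 0 := hq.ne_zero
  have hnorm := H73.norm_F1_Fr A q M hq hA M hD (H23.eRed A q M a b hab hq hA).toRingEquiv
    (H23.algebraMap_alg2 A q M a b hab hq hA hD) hqM g
  rw [h] at hnorm
  -- `φ g = ε (e x) ^ q`
  have h1 : H73.phiF1 A q M hq hA M hD g =
      algebraMap (kV A) (F1 A q M) ε * (H23.eRed A q M a b hab hq hA x) ^ q := by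
    have := congrArg (H23.eRed A q M a b hab hq hA).toRingEquiv hnorm
    rw [RingEquiv.apply_symm_apply] at this
    rw [← this]
    show (H23.eRed A q M a b hab hq hA) (algebraMap (kV A) ↥(H91.redM A M) ε * x ^ q) = _
    rw [map_mul, map_pow, AlgEquiv.commutes]
  obtain ⟨ε₁, hε₁⟩ := IsAlgClosed.exists_pow_nat_eq ε (Nat.pos_of_ne_zero hq0)
  obtain ⟨ε₂, hε₂⟩ := IsAlgClosed.exists_pow_nat_eq ε₁ (Nat.pos_of_ne_zero hq0)
  refine ⟨algebraMap (kV A) (F1 A q M) ε₂ *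
    (H73.phiF1 A q M hq hA M hD).symm (H23.eRed A q M a b hab hq hA x), ?_⟩
  apply (H73.phiF1 A q M hq hA M hD).injective
  rw [h1, map_pow, map_mul, RingEquiv.apply_symm_apply, H73.phiF1_algebraMap, hε₂, mul_pow,
    ← map_pow (algebraMap (kV A) (F1 A q M)), hε₁]

include hA hqM ht hD in
/-- **NORM-RED at the second component**, at the modular datum. -/
theorem red2_mod (f : FN (M * q)) (hf : f ∈ V1 A q M) (hred : red1 A q M ⟨f, hf⟩ = 1)
    (t : FN M) (κ : Kbar)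
    (hN : @Algebra.norm (FN M) (FN (M * q)) _ _ (H23.algEL q M) f
      = algebraMap Kbar (FN M) κ * t ^ q) :
    ∃ (f' h₀ : FN (M * q)) (a' : Kbar) (hf' : f' ∈ V2 A q M a b hab hq),
      red2 A q M a b hab hq ⟨f', hf'⟩ = 1 ∧
        f = algebraMap Kbar (FN (M * q)) a' * f' * h₀ ^ q := by
  have hf0 : f ≠ 0 := by
    rintro rfl
    have e : (⟨0, hf⟩ : ↥(V1 A q M)) = 0 := rfl
    rw [e, map_zero] at hred
    exact zero_ne_one hred
  obtain ⟨c, hc0, hu₂, hu₂red⟩ := exists_scale2 A q M a b hab hq f hf0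
  have hcF : algebraMap Kbar (FN (M * q)) c ≠ 0 :=
    (map_ne_zero_iff _ (algebraMap Kbar (FN (M * q))).injective).mpr hc0
  have h0 : @Module.finrank (FN M) (FN (M * q)) _ _ (H23.algEL q M).toModule = q + 1 :=
    H23.finrank_EL q M hq hqM
  have h1 : @Module.finrank ↥(H91.redM A M) (F1 A q M) _ _
      (H23.alg1 A q M a b hab hq hA).toModule = 1 := H23.finrank_alg1 A q M a b hab hq hA
  have h2 : @Module.finrank ↥(H91.redM A M) (F1 A q M) _ _
      (H23.alg2 A q M a b hab hq hA hD).toModule = q :=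
    H23.finrank_alg2 A q M a b hab hq hA hD hqM
  obtain ⟨w, hw⟩ := @red2_abs Kbar (FN M) (FN (M * q)) (kV A) ↥(H91.redM A M) (F1 A q M)
    (F1 A q M) _ _ _ _ _ _ _ _ _ (H23.algEL q M) (H23.isScalarTower_EL q M)
    (H23.finite_EL q M) _ _ _
    (H23.alg1 A q M a b hab hq hA) (H23.alg2 A q M a b hab hq hA hD)
    (H23.finite_alg1 A q M a b hab hq hA) (H23.finite_alg2 A q M a b hab hq hA hD hqM)
    (H91.seM hq hqM ht hA)
    (V1 A q M) (V2 A q M a b hab hq) (red1 A q M) (red2 A q M a b hab hq)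
    (H23.hV1_mod A q M hq hA hqM ht) (H23.hV2_mod A q M a b hab hq hA hqM ht)
    (red1_surjective A q M) (red2_surjective A q M a b hab hq)
    (H23.hker1_mod A q M) (H23.hker2_mod A q M a b hab hq)
    (H23.hcompat1_mod A q M a b hab hq hA hqM ht)
    (H23.hcompat2_mod A q M a b hab hq hA hqM ht hD)
    (H73.not_V1_le_V2 A q M a b hab hq hA) (H73.not_V2_le_V1 A q M a b hab hq hA)
    (H73.isArch_V1 A q M hq hA) (H73.isArch_V2 A q M a b hab hq hA)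
    (by rw [h0, h1, h2, add_comm]) q h2 (pow_of_norm_alg2 A q M a b hab hq hA hqM hD)
    ⟨f, hf⟩ hred ⟨_, hu₂⟩ hu₂red c rfl t κ hN
  -- lift `w`
  obtain ⟨h₀, hh₀⟩ := red2_surjective A q M a b hab hq w
  have hw0 : w ≠ 0 := by
    rintro rfl
    rw [zero_pow hq.ne_zero] at hw
    exact hu₂red hw
  have hunit : IsUnit h₀ := by
    by_contra hnu
    apply hw0
    rw [← hh₀]
    exact H23.hker2_mod A q M a b hab hq h₀ hnu
  obtain ⟨v, hv⟩ := hunit
  have hvinv : red2 A q M a b hab hq ((v⁻¹ : (↥(V2 A q M a b hab hq))ˣ) : ↥(V2 A q M a b hab hq))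
      = w⁻¹ := by
    have e : ((v⁻¹ : (↥(V2 A q M a b hab hq))ˣ) : ↥(V2 A q M a b hab hq)) * h₀ = 1 := by
      rw [← hv]
      exact v.inv_mul
    have e2 := congrArg (red2 A q M a b hab hq) e
    rw [map_mul, map_one, hh₀] at e2
    exact eq_inv_of_mul_eq_one_left e2
  have hh₀0 : (h₀ : FN (M * q)) ≠ 0 := by
    intro h
    apply hw0
    have : h₀ = 0 := Subtype.ext h
    rw [← hh₀, this, map_zero]
  set f'' : ↥(V2 A q M a b hab hq) :=
    ⟨_, hu₂⟩ * ((v⁻¹ : (↥(V2 A q M a b hab hq))ˣ) : ↥(V2 A q M a b hab hq)) ^ q with hf''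
  refine ⟨(f'' : FN (M * q)), (h₀ : FN (M * q)), c⁻¹, f''.2, ?_, ?_⟩
  · show red2 A q M a b hab hq f'' = 1
    rw [hf'', map_mul, map_pow, hvinv, hw, inv_pow, mul_inv_cancel₀ (pow_ne_zero _ hw0)]
  · have e1 : (((v⁻¹ : (↥(V2 A q M a b hab hq))ˣ) : ↥(V2 A q M a b hab hq)) : FN (M * q))
        * (h₀ : FN (M * q)) = 1 := by
      have e : ((v⁻¹ : (↥(V2 A q M a b hab hq))ˣ) : ↥(V2 A q M a b hab hq)) * h₀ = 1 := by
        rw [← hv]
        exact v.inv_mul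
      exact congrArg Subtype.val e
    have e2 : (f'' : FN (M * q)) = algebraMap Kbar (FN (M * q)) c * f *
        (((v⁻¹ : (↥(V2 A q M a b hab hq))ˣ) : ↥(V2 A q M a b hab hq)) : FN (M * q)) ^ q := rfl
    rw [e2, map_inv₀]
    have e3 : (algebraMap Kbar (FN (M * q)) c)⁻¹ * (algebraMap Kbar (FN (M * q)) c * f *
        (((v⁻¹ : (↥(V2 A q M a b hab hq))ˣ) : ↥(V2 A q M a b hab hq)) : FN (M * q)) ^ q) *
          (h₀ : FN (M * q)) ^ q =
        ((algebraMap Kbar (FN (M * q)) c)⁻¹ * algebraMap Kbar (FN (M * q)) c) * f *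
          ((((v⁻¹ : (↥(V2 A q M a b hab hq))ˣ) : ↥(V2 A q M a b hab hq)) : FN (M * q)) *
            (h₀ : FN (M * q))) ^ q := by ring
    rw [e3, e1, one_pow, mul_one, inv_mul_cancel₀ hcF, one_mul]

end Concrete

/-- **L2**: NORM-RED at the second component. -/
theorem stmt_Red2 : H86.Stmt_Red2 := by
  intro A p M a b hab hp _ _ _ hA hpM ht f hf hred hN
  obtain ⟨t, κ, hN⟩ := hN
  exact red2_mod A p M a b hab hp hA hpM ht (H82.redField_eq_fullC p M a b hab hp A hA) f hf hred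
    t κ hN

end Fermat.Agent.S33.New.H28

end
end
-- ==== END Fermat.Agent.S33.New.H28_Red2

-- ==== BEGIN Fermat.Agent.S33.New.H51_Desc3Norm
section

/-!
# S33 leaf L5: descent of the Kummer form of (T3) from level `2 M · 3` to level `M · 3`  (helper51)

`stmt_Desc3 : H86.Stmt_Desc3`.

The function `f ∈ F_{3M}` is seen in `F_{6M}`; the hypotheses transfer:
* Gauss valuation / reduction / divisibility of the divisor: as in `H91.b1core_descend`;
* the norm conditions: `N_{F_{6M} / α F_{2M}} f = N_{F_{3M} / α F_M} f` (and the same for `β`),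
  by base change of the norm (`norm_bc_along`: the degrees `4 = [F_{3M} : F_M]` and
  `3 = [F_{2M} : F_M]` are coprime).
The conclusion descends by Kummer descent (`Stmt_KD`, helper22).
-/

set_option autoImplicit false
set_option linter.style.haveILetI false
set_option linter.unusedSectionVars false

noncomputable section

open HahnSeries IntermediateField AlgebraicCurve ModularCurve
open Fermat.Agent.S28.H73 Fermat.Agent.RED.H73 Fermat.Agent.RED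

namespace Fermat.Agent.S33.New.H51

open Fermat.Agent.BAD Fermat.Agent.S36.H44 Fermat.Agent.S33.New.H86 Fermat.Agent.BAD.H91

local notation "Kb" => AlgebraicClosure ℚ

/-- `[F_{2M} : F_M] = 3` for odd `M`, along the inclusion. -/
theorem finrankAlong_incl_two (M : ℕ) [NeZero M] [NeZero (2 * M)] (h2M : ¬ 2 ∣ M)
    (hle : modularFunctionFieldBar M ≤ modularFunctionFieldBar (2 * M)) :
    finrankAlong Kb (IntermediateField.inclusion hle) = 3 := by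
  have hd : M ∣ 2 * M := Dvd.intro_left 2 rfl
  have h1 := Fermat.Agent.Lib.HeckeComm.relfinrank_FN M (2 * M) hd
  have h2 : (modularFunctionFieldBar M).relfinrank (modularFunctionFieldBar (2 * M)) = 3 := by
    haveI : NeZero (M * 2) := ⟨by have := NeZero.ne M; omega⟩
    have h3 := Fermat.Agent.BAD.H82.relfinrank_FM_FN 2 M Nat.prime_two h2M
    rw [mul_comm M 2] at h3
    exact h3
  rw [h2] at h1
  exact h1.symm

/-- Transfer of `IsNormPow` along a commutative square with coprime degrees. -/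
theorem isNormPow_bc {K F₁ F₁' F₂ F₂' : Type*} [Field K] [Field F₁] [Field F₁'] [Field F₂]
    [Field F₂'] [Algebra K F₁] [Algebra K F₁'] [Algebra K F₂] [Algebra K F₂']
    (φ₁ : F₁ →ₐ[K] F₁') (φ₂ : F₂ →ₐ[K] F₂') (ι : F₁ →ₐ[K] F₂)
    (ι' : F₁' →ₐ[K] F₂') (hcomm : ∀ x, ι' (φ₁ x) = φ₂ (ι x))
    (d e : ℕ) (hd0 : d ≠ 0) (he0 : e ≠ 0) (hcop : Nat.Coprime d e)
    (h1 : finrankAlong K φ₁ = d) (h2 : finrankAlong K ι = e) (h3 : finrankAlong K φ₂ = d)
    (p : ℕ) (x : F₁') (hx : IsNormPow φ₁ p x) : IsNormPow φ₂ p (ι' x) := by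
  obtain ⟨t, c, ht⟩ := hx
  refine ⟨ι t, c, ?_⟩
  have key := norm_bc_along φ₁ φ₂ ι ι' hcomm d e hd0 he0 hcop h1 h2 h3 x
  show (letI := algebraAlong φ₂; Algebra.norm F₂ (ι' x)) = _
  rw [key]
  have ht' : (letI := algebraAlong φ₁; Algebra.norm F₁ x) = algebraMap K F₁ c * t ^ p := ht
  rw [ht', map_mul, map_pow, AlgHom.commutes]


section Up

variable (M : ℕ) [NeZero M] [NeZero (2 * M)]

theorem incl_comm_alpha (hle : modularFunctionFieldBar (M * 3) ≤ modularFunctionFieldBar (2 * M * 3))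
    (hle0 : modularFunctionFieldBar M ≤ modularFunctionFieldBar (2 * M)) (x : ↥(FNbar M)) :
    IntermediateField.inclusion hle (heckeAlphaBar Kb M 3 x)
      = heckeAlphaBar Kb (2 * M) 3 (IntermediateField.inclusion hle0 x) := by
  have h1 : ((IntermediateField.inclusion hle (heckeAlphaBar Kb M 3 x) : ↥(FNbar (2 * M * 3))) :
      LaurentSeries Kb) = ((heckeAlphaBar Kb M 3 x : ↥(FNbar (M * 3))) : LaurentSeries Kb) :=
    IntermediateField.coe_inclusion hle _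
  have h2 : ((heckeAlphaBar Kb M 3 x : ↥(FNbar (M * 3))) : LaurentSeries Kb)
      = (x : LaurentSeries Kb) := coe_heckeAlphaBar M 3 x
  have h3 : ((heckeAlphaBar Kb (2 * M) 3 (IntermediateField.inclusion hle0 x) :
      ↥(FNbar (2 * M * 3))) : LaurentSeries Kb)
      = ((IntermediateField.inclusion hle0 x : ↥(FNbar (2 * M))) : LaurentSeries Kb) :=
    coe_heckeAlphaBar (2 * M) 3 _
  have h4 : ((IntermediateField.inclusion hle0 x : ↥(FNbar (2 * M))) : LaurentSeries Kb)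
      = (x : LaurentSeries Kb) := IntermediateField.coe_inclusion hle0 x
  exact Subtype.ext ((h1.trans h2).trans (h3.trans h4).symm)

theorem incl_comm_beta (hle : modularFunctionFieldBar (M * 3) ≤ modularFunctionFieldBar (2 * M * 3))
    (hle0 : modularFunctionFieldBar M ≤ modularFunctionFieldBar (2 * M)) (x : ↥(FNbar M)) :
    IntermediateField.inclusion hle (heckeBetaBar Kb M 3 x)
      = heckeBetaBar Kb (2 * M) 3 (IntermediateField.inclusion hle0 x) := by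
  have h1 : ((IntermediateField.inclusion hle (heckeBetaBar Kb M 3 x) : ↥(FNbar (2 * M * 3))) :
      LaurentSeries Kb) = ((heckeBetaBar Kb M 3 x : ↥(FNbar (M * 3))) : LaurentSeries Kb) :=
    IntermediateField.coe_inclusion hle _
  have h2 : ((heckeBetaBar Kb M 3 x : ↥(FNbar (M * 3))) : LaurentSeries Kb)
      = qExpand Kb 3 (x : LaurentSeries Kb) := coe_heckeBetaBar M 3 x
  have h3 : ((heckeBetaBar Kb (2 * M) 3 (IntermediateField.inclusion hle0 x) :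
      ↥(FNbar (2 * M * 3))) : LaurentSeries Kb)
      = qExpand Kb 3 ((IntermediateField.inclusion hle0 x : ↥(FNbar (2 * M))) :
          LaurentSeries Kb) :=
    coe_heckeBetaBar (2 * M) 3 _
  have h4 : ((IntermediateField.inclusion hle0 x : ↥(FNbar (2 * M))) : LaurentSeries Kb)
      = (x : LaurentSeries Kb) := IntermediateField.coe_inclusion hle0 x
  rw [h4] at h3
  exact Subtype.ext ((h1.trans h2).trans h3.symm)

end Up

end Fermat.Agent.S33.New.H51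

end
end
-- ==== END Fermat.Agent.S33.New.H51_Desc3Norm
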