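-- GENERATED (merged mirror, NOTES/tools/trim/merge3_helper67.py): 4 modules of the originals, bodies verbatim.
import Fermat.Agent.Zm.S33_L03_001
import Fermat.Agent.Zm.S33_L03_003
import Fermat.Agent.Zm.S33_L01_000
import Fermat.Agent.BADP.H86_PthRoot
import Fermat.Agent.Zm.S35_L14_000
import Fermat.Agent.Zm.S33_L02_003

-- ==== BEGIN Fermat.Agent.BADP.H51_CanonUniq
section

/-!
# S44, package CANON (helper51), part 2: uniqueness of the canonical form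

Setting as in `H51_Canon.lean`: `S : SSD K F k F₁ F₂`, `(A₁, A₂)` a non-special pair of sets of
regular points, adapted coordinates `s₁`, `s₂`.

* `ptsX A₁ A₂ X₁ X₂` : the set of the points `X_Q`, `Q ∈ A₁ ⊔ A₂` (one point in each disc); its
  push-forwards are `A₁`, `A₂`, it is in good position.
* `const_of_mem_L_ns` : if `E ≥ 0` is in good position with push-forwards `A₁`, `A₂`, then
  `L(E) = K` (Pivot + Contain0 + non-speciality).
* `canon_unique` : two canonical forms `f₁`, `f₁'` in the same Kummer class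
  (`f₁' = c f₁ T ^ n`) are EQUAL, with the same points `X_Q` and the same values `a_Q`.
* `canon_fixed` : if `σ` is inertial, fixes the coordinates and `P∞`, and the class of the
  canonical form `f₁` is `σ`-invariant (`σ f₁ = c f₁ T ^ n`), then `σ f₁ = f₁`, `σ X_Q = X_Q`,
  `σ a_Q = a_Q`.
-/

set_option autoImplicit false
set_option linter.style.haveILetI false
set_option linter.unusedSectionVars false
set_option maxHeartbeats 1000000

noncomputable section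

open AlgebraicCurve

attribute [local instance] Classical.propDecidable

namespace Fermat.Agent.BADP.H51

open Fermat.Agent.RED.H17 Fermat.Agent.RED Fermat.Agent.BAD Fermat.Agent.BAD.H01

local notation "L" => riemannRochSpace

section Pts

variable {K F k F₁ F₂ : Type} [Field K] [Field F] [Algebra K F] [Field k] [Field F₁]
  [Algebra k F₁] [Field F₂] [Algebra k F₂] (S : SSD K F k F₁ F₂)

/-- The set of the points `X_Q`, `Q ∈ A₁ ⊔ A₂`. -/
def ptsX (A₁ : Finset (Place k F₁)) (A₂ : Finset (Place k F₂)) (X₁ : Place k F₁ → Place K F)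
    (X₂ : Place k F₂ → Place K F) : Finset (Place K F) := A₁.image X₁ ∪ A₂.image X₂

variable {S} {A₁ : Finset (Place k F₁)} {A₂ : Finset (Place k F₂)}
  {X₁ : Place k F₁ → Place K F} {X₂ : Place k F₂ → Place K F}

theorem mem_ptsX {P : Place K F} :
    P ∈ ptsX A₁ A₂ X₁ X₂ ↔ (∃ Q ∈ A₁, X₁ Q = P) ∨ ∃ Q ∈ A₂, X₂ Q = P := by
  rw [ptsX, Finset.mem_union, Finset.mem_image, Finset.mem_image]

variable (hA₁g : ∀ Q ∈ A₁, Q ∈ S.c₁.good) (hA₂g : ∀ Q ∈ A₂, Q ∈ S.c₂.good)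
  (hX₁ : ∀ Q ∈ A₁, S.c₁.r (X₁ Q) = some Q) (hX₂ : ∀ Q ∈ A₂, S.c₂.r (X₂ Q) = some Q)

include hA₂g hX₁ hX₂ in
theorem mem_ptsX_iff₁ {P : Place K F} {Q : Place k F₁} (hPQ : S.c₁.r P = some Q) :
    P ∈ ptsX A₁ A₂ X₁ X₂ ↔ Q ∈ A₁ ∧ P = X₁ Q := by
  rw [mem_ptsX]
  constructor
  · rintro (⟨Q', hQ', rfl⟩ | ⟨Q', hQ', rfl⟩)
    · have := hX₁ Q' hQ'
      rw [hPQ] at this
      have e : Q = Q' := Option.some.inj this
      subst e
      exact ⟨hQ', rfl⟩
    · have := S.r₁_none_of_good₂ (hA₂g Q' hQ') (hX₂ Q' hQ')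
      rw [hPQ] at this
      exact absurd this (by simp)
  · rintro ⟨hQ, rfl⟩
    exact Or.inl ⟨Q, hQ, rfl⟩

include hA₁g hX₁ hX₂ in
theorem mem_ptsX_iff₂ {P : Place K F} {Q : Place k F₂} (hPQ : S.c₂.r P = some Q) :
    P ∈ ptsX A₁ A₂ X₁ X₂ ↔ Q ∈ A₂ ∧ P = X₂ Q := by
  rw [mem_ptsX]
  constructor
  · rintro (⟨Q', hQ', rfl⟩ | ⟨Q', hQ', rfl⟩)
    · have := S.r₂_none_of_good₁ (hA₁g Q' hQ') (hX₁ Q' hQ')
      rw [hPQ] at this
      exact absurd this (by simp)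
    · have := hX₂ Q' hQ'
      rw [hPQ] at this
      have e : Q = Q' := Option.some.inj this
      subst e
      exact ⟨hQ', rfl⟩
  · rintro ⟨hQ, rfl⟩
    exact Or.inr ⟨Q, hQ, rfl⟩

include hA₁g hA₂g hX₁ hX₂ in
theorem notMem_ptsX_of_node {P : Place K F} (hPn : S.IsNodeP P) : P ∉ ptsX A₁ A₂ X₁ X₂ := by
  intro hPB
  rcases mem_ptsX.mp hPB with ⟨Q', hQ', rfl⟩ | ⟨Q', hQ', rfl⟩
  · exact S.not_isNodeP_of_good₁ (hA₁g Q' hQ') (hX₁ Q' hQ') hPn
  · exact S.not_isNodeP_of_good₂ (hA₂g Q' hQ') (hX₂ Q' hQ') hPn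

include hX₁ hX₂ in
theorem notMem_ptsX_off {P : Place K F} (h₁ : ∀ Q ∈ A₁, S.c₁.r P ≠ some Q)
    (h₂ : ∀ Q ∈ A₂, S.c₂.r P ≠ some Q) : P ∉ ptsX A₁ A₂ X₁ X₂ := by
  intro hPB
  rcases mem_ptsX.mp hPB with ⟨Q', hQ', rfl⟩ | ⟨Q', hQ', rfl⟩
  · exact h₁ Q' hQ' (hX₁ Q' hQ')
  · exact h₂ Q' hQ' (hX₂ Q' hQ')

include hA₁g hA₂g hX₁ hX₂ in
theorem push₁_ptsX : S.push₁ (ptsDiv (ptsX A₁ A₂ X₁ X₂)) = ptsDiv A₁ := by
  ext Q
  rw [S.push₁_apply, ptsDiv_apply]
  by_cases hQ : Q ∈ A₁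
  · rw [if_pos hQ]
    refine mapDomain_ptsDiv_eq_one _ _ _ (X₁ Q) fun P => ?_
    constructor
    · rintro ⟨hPB, hPQ⟩
      exact ((mem_ptsX_iff₁ hA₂g hX₁ hX₂ hPQ).mp hPB).2
    · rintro rfl
      exact ⟨(mem_ptsX_iff₁ hA₂g hX₁ hX₂ (hX₁ Q hQ)).mpr ⟨hQ, rfl⟩, hX₁ Q hQ⟩
  · rw [if_neg hQ]
    refine mapDomain_ptsDiv_eq_zero _ _ _ fun P hPB hPQ => ?_
    exact absurd ((mem_ptsX_iff₁ hA₂g hX₁ hX₂ hPQ).mp hPB).1 hQ

include hA₁g hA₂g hX₁ hX₂ in
theorem push₂_ptsX : S.push₂ (ptsDiv (ptsX A₁ A₂ X₁ X₂)) = ptsDiv A₂ := by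
  ext Q
  rw [S.push₂_apply, ptsDiv_apply]
  by_cases hQ : Q ∈ A₂
  · rw [if_pos hQ]
    refine mapDomain_ptsDiv_eq_one _ _ _ (X₂ Q) fun P => ?_
    constructor
    · rintro ⟨hPB, hPQ⟩
      exact ((mem_ptsX_iff₂ hA₁g hX₁ hX₂ hPQ).mp hPB).2
    · rintro rfl
      exact ⟨(mem_ptsX_iff₂ hA₁g hX₁ hX₂ (hX₂ Q hQ)).mpr ⟨hQ, rfl⟩, hX₂ Q hQ⟩
  · rw [if_neg hQ]
    refine mapDomain_ptsDiv_eq_zero _ _ _ fun P hPB hPQ => ?_
    exact absurd ((mem_ptsX_iff₂ hA₁g hX₁ hX₂ hPQ).mp hPB).1 hQ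

include hA₁g hA₂g hX₁ hX₂ in
theorem goodPos_ptsX : S.GoodPos (ptsDiv (ptsX A₁ A₂ X₁ X₂)) := by
  intro P hne hPn
  apply hne
  rw [ptsDiv_apply, if_neg (notMem_ptsX_of_node hA₁g hA₂g hX₁ hX₂ hPn)]

end Pts

section Const

variable {K F k F₁ F₂ : Type} [Field K] [Field F] [Algebra K F] [Field k] [Field F₁]
  [Algebra k F₁] [Field F₂] [Algebra k F₂]

/-- `Λ¹(A₁, A₂)` has dimension at most one, for a non-special pair. -/
theorem finrank_Lam_ns_le (S : SSD K F k F₁ F₂) {A₁ : Finset (Place k F₁)}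
    {A₂ : Finset (Place k F₂)} (hNSA : S.IsNS A₁ A₂) :
    Module.finrank k (S.Lam (fun _ => 1) (ptsDiv A₁) (ptsDiv A₂)) ≤ 1 := by
  have hle : S.Lam (fun _ => 1) (ptsDiv A₁) (ptsDiv A₂) ≤
      Submodule.span k {((1 : F₁), (1 : F₂))} := by
    intro ψ hψ
    obtain ⟨h1, h2, h3⟩ := S.mem_Lam.mp hψ
    obtain ⟨a, ha₁, ha₂⟩ := hNSA ψ.1 h1 ψ.2 h2 (fun s hs => by
      obtain ⟨a, ha1, ha2⟩ := h3 s hs
      refine ⟨a, ha1, ?_⟩
      simpa using ha2)
    rw [Submodule.mem_span_singleton]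
    refine ⟨a, ?_⟩
    ext
    · rw [Prod.smul_fst, ha₁, Algebra.algebraMap_eq_smul_one]
    · rw [Prod.smul_snd, ha₂, Algebra.algebraMap_eq_smul_one]
  have h1 : Module.finrank k (Submodule.span k {((1 : F₁), (1 : F₂))}) = 1 :=
    finrank_span_singleton (by
      intro h
      have := congrArg Prod.fst h
      exact one_ne_zero this)
  calc Module.finrank k (S.Lam (fun _ => 1) (ptsDiv A₁) (ptsDiv A₂))
      ≤ Module.finrank k (Submodule.span k {((1 : F₁), (1 : F₂))}) :=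
        Submodule.finrank_mono hle
    _ = 1 := h1

/-- **`L(E) = K`** for an effective divisor `E` in good position whose push-forwards are a
non-special pair. -/
theorem const_of_mem_L_ns [Infinite k] (S : SSD K F k F₁ F₂) (H : FFHyp K F) (H₁ : FFHyp k F₁)
    (H₂ : FFHyp k F₂) {A₁ : Finset (Place k F₁)} {A₂ : Finset (Place k F₂)}
    (hNSA : S.IsNS A₁ A₂) {E : Divisor K F} (hE : ∀ P, 0 ≤ E P) (hgp : S.GoodPos E)
    (hp₁ : S.push₁ E = ptsDiv A₁) (hp₂ : S.push₂ E = ptsDiv A₂) {h : F} (hh : h ∈ L E) :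
    ∃ c : K, h = algebraMap K F c := by
  have hle : S.Rsub 1 E ≤ S.Lam (fun _ => 1) (ptsDiv A₁) (ptsDiv A₂) := by
    have := BAD.H17.stmt_Contain0 K F k F₁ F₂ S H H₁ H₂ E hgp
    rwa [hp₁, hp₂] at this
  haveI hfinLam : Module.Finite k (S.Lam (fun _ => 1) (ptsDiv A₁) (ptsDiv A₂)) :=
    H41.finite_Lam S H₁ H₂ _ _ _
  haveI hfinR : Module.Finite k (S.Rsub 1 E) := Submodule.finiteDimensional_of_le hle
  have h1 : Module.finrank K (L E) ≤ Module.finrank k (S.Rsub 1 E) :=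
    BAD.H17.stmt_Pivot K F k F₁ F₂ S H H₁ H₂ 1 one_ne_zero E hfinR
  have h2 : Module.finrank k (S.Rsub 1 E) ≤
      Module.finrank k (S.Lam (fun _ => 1) (ptsDiv A₁) (ptsDiv A₂)) :=
    Submodule.finrank_mono hle
  have h3 := finrank_Lam_ns_le S hNSA
  exact H.const_of_mem_L hE (by omega) hh

end Const

section Uniq

variable {K F k F₁ F₂ : Type} [Field K] [Field F] [Algebra K F] [Field k] [Field F₁]
  [Algebra k F₁] [Field F₂] [Algebra k F₂]

/-- **CANON, uniqueness**: two canonical forms in the same Kummer class are equal. -/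
theorem canon_unique [Infinite k] (S : SSD K F k F₁ F₂) (H : FFHyp K F) (H₁ : FFHyp k F₁)
    (H₂ : FFHyp k F₂) {A₁ : Finset (Place k F₁)} {A₂ : Finset (Place k F₂)}
    (hdis₁ : Disjoint A₁ S.br₁) (hdis₂ : Disjoint A₂ S.br₂) (hNSA : S.IsNS A₁ A₂)
    {s₁ : Place k F₁ → F} {s₂ : Place k F₂ → F} {n : ℕ} (hn0 : n ≠ 0) {Pinf : Place K F}
    {f₁ f₁' : F} {a₁ a₁' : Place k F₁ → K} {a₂ a₂' : Place k F₂ → K}
    {X₁ X₁' : Place k F₁ → Place K F} {X₂ X₂' : Place k F₂ → Place K F}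
    (hc : IsCanon S A₁ A₂ s₁ s₂ n Pinf f₁ a₁ a₂ X₁ X₂)
    (hc' : IsCanon S A₁ A₂ s₁ s₂ n Pinf f₁' a₁' a₂' X₁' X₂')
    (c : K) (T : F) (hT : f₁' = algebraMap K F c * f₁ * T ^ n) :
    f₁' = f₁ ∧ (∀ Q ∈ A₁, X₁' Q = X₁ Q ∧ a₁' Q = a₁ Q) ∧
      ∀ Q ∈ A₂, X₂' Q = X₂ Q ∧ a₂' Q = a₂ Q := by
  have hnZ : (n : ℤ) ≠ 0 := by exact_mod_cast hn0
  have hA₁g : ∀ Q ∈ A₁, Q ∈ S.c₁.good := fun Q hQ =>
    S.good₁_of_notMem (Finset.disjoint_left.mp hdis₁ hQ)
  have hA₂g : ∀ Q ∈ A₂, Q ∈ S.c₂.good := fun Q hQ =>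
    S.good₂_of_notMem (Finset.disjoint_left.mp hdis₂ hQ)
  have hf₁0 : f₁ ≠ 0 := by
    intro h0
    have := hc.rd₁
    rw [h0, S.c₁.rd_zero] at this
    exact zero_ne_one this
  have hf₁'0 : f₁' ≠ 0 := by
    intro h0
    have := hc'.rd₁
    rw [h0, S.c₁.rd_zero] at this
    exact zero_ne_one this
  have hc0 : c ≠ 0 := by
    rintro rfl
    rw [map_zero, zero_mul, zero_mul] at hT
    exact hf₁'0 hT
  have hcF : algebraMap K F c ≠ 0 := (map_ne_zero_iff _ (algebraMap K F).injective).mpr hc0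
  have hT0 : T ≠ 0 := by
    rintro rfl
    rw [zero_pow hn0, mul_zero] at hT
    exact hf₁'0 hT
  have hX₁r : ∀ Q ∈ A₁, S.c₁.r (X₁ Q) = some Q := fun Q hQ => (hc.hX₁ Q hQ).1
  have hX₂r : ∀ Q ∈ A₂, S.c₂.r (X₂ Q) = some Q := fun Q hQ => (hc.hX₂ Q hQ).1
  have hX₁'r : ∀ Q ∈ A₁, S.c₁.r (X₁' Q) = some Q := fun Q hQ => (hc'.hX₁ Q hQ).1
  have hX₂'r : ∀ Q ∈ A₂, S.c₂.r (X₂' Q) = some Q := fun Q hQ => (hc'.hX₂ Q hQ).1
  -- the orders of `T`
  have hordT : ∀ P : Place K F, P.ord f₁' = P.ord f₁ + n * P.ord T := by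
    intro P
    rw [hT, P.ord_mul (mul_ne_zero hcF hf₁0) (pow_ne_zero _ hT0), P.ord_mul hcF hf₁0,
      ord_algebraMap, zero_add, ord_pow]
  have hT_ord : ∀ P : Place K F, P.ord T = ptsDiv (ptsX A₁ A₂ X₁' X₂') P - ptsDiv (ptsX A₁ A₂ X₁ X₂) P := by
    intro P
    have h1 := hordT P
    rw [ptsDiv_apply, ptsDiv_apply]
    by_cases hd₁ : ∃ Q ∈ A₁, S.c₁.r P = some Q
    · obtain ⟨Q, hQ, hPQ⟩ := hd₁
      rw [hc.on₁ Q hQ P hPQ, hc'.on₁ Q hQ P hPQ, hc.onX₁ Q hQ P hPQ,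
        hc'.onX₁ Q hQ P hPQ] at h1
      have e : (if P ∈ ptsX A₁ A₂ X₁ X₂ then (1 : ℤ) else 0) = if P = X₁ Q then 1 else 0 := by
        by_cases hPX : P = X₁ Q
        · rw [if_pos hPX, if_pos ((mem_ptsX_iff₁ hA₂g hX₁r hX₂r hPQ).mpr ⟨hQ, hPX⟩)]
        · rw [if_neg hPX, if_neg fun hm => hPX ((mem_ptsX_iff₁ hA₂g hX₁r hX₂r hPQ).mp hm).2]
      have e' : (if P ∈ ptsX A₁ A₂ X₁' X₂' then (1 : ℤ) else 0) =
          if P = X₁' Q then 1 else 0 := by
        by_cases hPX : P = X₁' Q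
        · rw [if_pos hPX, if_pos ((mem_ptsX_iff₁ hA₂g hX₁'r hX₂'r hPQ).mpr ⟨hQ, hPX⟩)]
        · rw [if_neg hPX,
            if_neg fun hm => hPX ((mem_ptsX_iff₁ hA₂g hX₁'r hX₂'r hPQ).mp hm).2]
      rw [e, e']
      have h2 : (n : ℤ) * (P.ord T - ((if P = X₁' Q then (1 : ℤ) else 0) -
          if P = X₁ Q then 1 else 0)) = 0 := by linarith
      have h3 := (mul_eq_zero.mp h2).resolve_left hnZ
      linarith
    by_cases hd₂ : ∃ Q ∈ A₂, S.c₂.r P = some Q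
    · obtain ⟨Q, hQ, hPQ⟩ := hd₂
      rw [hc.on₂ Q hQ P hPQ, hc'.on₂ Q hQ P hPQ, hc.onX₂ Q hQ P hPQ,
        hc'.onX₂ Q hQ P hPQ] at h1
      have e : (if P ∈ ptsX A₁ A₂ X₁ X₂ then (1 : ℤ) else 0) = if P = X₂ Q then 1 else 0 := by
        by_cases hPX : P = X₂ Q
        · rw [if_pos hPX, if_pos ((mem_ptsX_iff₂ hA₁g hX₁r hX₂r hPQ).mpr ⟨hQ, hPX⟩)]
        · rw [if_neg hPX, if_neg fun hm => hPX ((mem_ptsX_iff₂ hA₁g hX₁r hX₂r hPQ).mp hm).2]
      have e' : (if P ∈ ptsX A₁ A₂ X₁' X₂' then (1 : ℤ) else 0) =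
          if P = X₂' Q then 1 else 0 := by
        by_cases hPX : P = X₂' Q
        · rw [if_pos hPX, if_pos ((mem_ptsX_iff₂ hA₁g hX₁'r hX₂'r hPQ).mpr ⟨hQ, hPX⟩)]
        · rw [if_neg hPX,
            if_neg fun hm => hPX ((mem_ptsX_iff₂ hA₁g hX₁'r hX₂'r hPQ).mp hm).2]
      rw [e, e']
      have h2 : (n : ℤ) * (P.ord T - ((if P = X₂' Q then (1 : ℤ) else 0) -
          if P = X₂ Q then 1 else 0)) = 0 := by linarith
      have h3 := (mul_eq_zero.mp h2).resolve_left hnZ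
      linarith
    · push Not at hd₁ hd₂
      rw [hc.off P hd₁ hd₂, hc'.off P hd₁ hd₂] at h1
      rw [if_neg (notMem_ptsX_off hX₁r hX₂r hd₁ hd₂),
        if_neg (notMem_ptsX_off hX₁'r hX₂'r hd₁ hd₂)]
      have h3 := (mul_eq_zero.mp (by linarith : (n : ℤ) * P.ord T = 0)).resolve_left hnZ
      linarith
  -- `T` is a constant
  have hTL : T ∈ L (ptsDiv (ptsX A₁ A₂ X₁ X₂)) := by
    rw [mem_L_iff_ord]
    intro P
    right
    rw [hT_ord]
    have := ptsDiv_nonneg (ptsX A₁ A₂ X₁' X₂') P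
    omega
  obtain ⟨t, ht⟩ := const_of_mem_L_ns S H H₁ H₂ hNSA (ptsDiv_nonneg _)
    (goodPos_ptsX hA₁g hA₂g hX₁r hX₂r) (push₁_ptsX hA₁g hA₂g hX₁r hX₂r)
    (push₂_ptsX hA₁g hA₂g hX₁r hX₂r) hTL
  have hpts : ∀ P : Place K F, ptsDiv (ptsX A₁ A₂ X₁' X₂') P = ptsDiv (ptsX A₁ A₂ X₁ X₂) P := by
    intro P
    have h1 := hT_ord P
    rw [ht, ord_algebraMap] at h1
    omega
  have hmem : ∀ P : Place K F, P ∈ ptsX A₁ A₂ X₁' X₂' ↔ P ∈ ptsX A₁ A₂ X₁ X₂ := by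
    intro P
    have h1 := hpts P
    rw [ptsDiv_apply, ptsDiv_apply] at h1
    by_cases hP : P ∈ ptsX A₁ A₂ X₁ X₂
    · rw [if_pos hP] at h1
      constructor
      · exact fun _ => hP
      · intro _
        by_contra hP'
        rw [if_neg hP'] at h1
        exact zero_ne_one h1
    · rw [if_neg hP] at h1
      constructor
      · intro hP'
        rw [if_pos hP'] at h1
        exact absurd h1 one_ne_zero
      · exact fun h => absurd h hP
  have hXeq₁ : ∀ Q ∈ A₁, X₁' Q = X₁ Q := by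
    intro Q hQ
    have h1 : X₁' Q ∈ ptsX A₁ A₂ X₁' X₂' := mem_ptsX.mpr (Or.inl ⟨Q, hQ, rfl⟩)
    exact ((mem_ptsX_iff₁ hA₂g hX₁r hX₂r (hX₁'r Q hQ)).mp ((hmem _).mp h1)).2
  have hXeq₂ : ∀ Q ∈ A₂, X₂' Q = X₂ Q := by
    intro Q hQ
    have h1 : X₂' Q ∈ ptsX A₁ A₂ X₁' X₂' := mem_ptsX.mpr (Or.inr ⟨Q, hQ, rfl⟩)
    exact ((mem_ptsX_iff₂ hA₁g hX₁r hX₂r (hX₂'r Q hQ)).mp ((hmem _).mp h1)).2
  refine ⟨?_, fun Q hQ => ⟨hXeq₁ Q hQ, ?_⟩, fun Q hQ => ⟨hXeq₂ Q hQ, ?_⟩⟩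
  · -- `f₁' = e f₁` with `e` a constant, and both have the value `1` at `P∞`
    have hfe : f₁' = algebraMap K F (c * t ^ n) * f₁ := by
      rw [hT, ht, map_mul, map_pow]
      ring
    have hreg : RegAt Pinf f₁ := by
      have := hc.inf.regAt.add (regAt_algebraMap Pinf 1)
      rwa [map_one, sub_add_cancel] at this
    have h1 : VanAt Pinf (algebraMap K F (c * t ^ n) * (f₁ - 1)) :=
      (regAt_algebraMap Pinf _).mul_vanAt hc.inf
    have h2 : VanAt Pinf (algebraMap K F (c * t ^ n - 1)) := by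
      have h3 := hc'.inf.sub h1
      have e : f₁' - 1 - algebraMap K F (c * t ^ n) * (f₁ - 1) =
          algebraMap K F (c * t ^ n - 1) := by
        rw [hfe, map_sub, map_one]
        ring
      rwa [e] at h3
    have h4 := const_eq_zero_of_vanAt h2
    have h5 : c * t ^ n = 1 := by linear_combination h4
    rw [hfe, h5, map_one, one_mul]
  · have h1 := (hc'.hX₁ Q hQ).2
    rw [hXeq₁ Q hQ] at h1
    have h2 := ((hc.hX₁ Q hQ).2).sub h1
    have e : s₁ Q - algebraMap K F (a₁ Q) - (s₁ Q - algebraMap K F (a₁' Q)) =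
        algebraMap K F (a₁' Q - a₁ Q) := by
      rw [map_sub]
      ring
    rw [e] at h2
    have h3 := const_eq_zero_of_vanAt h2
    linear_combination h3
  · have h1 := (hc'.hX₂ Q hQ).2
    rw [hXeq₂ Q hQ] at h1
    have h2 := ((hc.hX₂ Q hQ).2).sub h1
    have e : s₂ Q - algebraMap K F (a₂ Q) - (s₂ Q - algebraMap K F (a₂' Q)) =
        algebraMap K F (a₂' Q - a₂ Q) := by
      rw [map_sub]
      ring
    rw [e] at h2
    have h3 := const_eq_zero_of_vanAt h2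
    linear_combination h3

end Uniq

section Inv

variable {K F k F₁ F₂ : Type} [Field K] [Field F] [Algebra K F] [Field k] [Field F₁]
  [Algebra k F₁] [Field F₂] [Algebra k F₂]

/-- The order of `σ f` at `P` is the order of `f` at `σ⁻¹ P`. -/
theorem ord_smul_eq (σ : SemilinearAut K F) (P : Place K F) (y : F) :
    P.ord (σ • y) = (σ⁻¹ • P).ord y := by
  have := SemilinearAut.ord_smul σ (σ⁻¹ • P) y
  rwa [smul_inv_smul] at this

theorem smul_eq_zero_iff' (σ : SemilinearAut K F) (y : F) : σ • y = 0 ↔ y = 0 := by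
  constructor
  · intro h
    have := congrArg (fun z => σ⁻¹ • z) h
    simpa using this
  · rintro rfl
    exact smul_zero σ

/-- `σ f` vanishes at `σ P` iff `f` vanishes at `P`. -/
theorem vanAt_smul (σ : SemilinearAut K F) (P : Place K F) (y : F) :
    VanAt (σ • P) (σ • y) ↔ VanAt P y := by
  rw [vanAt_iff_ord, vanAt_iff_ord, SemilinearAut.ord_smul, smul_eq_zero_iff']

/-- `σ f` vanishes at `P` if `f` vanishes at `P` and `σ P = P`. -/
theorem vanAt_smul_of_fixed {σ : SemilinearAut K F} {P : Place K F} (hP : σ • P = P) {y : F}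
    (h : VanAt P y) : VanAt P (σ • y) := by
  have := (vanAt_smul σ P y).mpr h
  rwa [hP] at this

variable {S : SSD K F k F₁ F₂}

theorem rd₁_smul {σ : SemilinearAut K F} (hσ : S.IsInertial σ) {y : F} (hy : y ∈ S.c₁.V) :
    S.c₁.rd (σ • y) = S.c₁.rd y := by
  rw [S.c₁.rd_of_mem (hσ.mem₁ y hy), S.c₁.rd_of_mem hy]
  exact hσ.red₁ y hy _

theorem rd₂_smul {σ : SemilinearAut K F} (hσ : S.IsInertial σ) {y : F} (hy : y ∈ S.c₂.V) :
    S.c₂.rd (σ • y) = S.c₂.rd y := by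
  rw [S.c₂.rd_of_mem (hσ.mem₂ y hy), S.c₂.rd_of_mem hy]
  exact hσ.red₂ y hy _

theorem r₁_inv_smul {σ : SemilinearAut K F} (hσ : S.IsInertial σ) (P : Place K F) :
    S.c₁.r (σ⁻¹ • P) = S.c₁.r P := by
  have := hσ.r₁ (σ⁻¹ • P)
  rw [smul_inv_smul] at this
  exact this.symm

theorem r₂_inv_smul {σ : SemilinearAut K F} (hσ : S.IsInertial σ) (P : Place K F) :
    S.c₂.r (σ⁻¹ • P) = S.c₂.r P := by
  have := hσ.r₂ (σ⁻¹ • P)
  rw [smul_inv_smul] at this
  exact this.symm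

/-- The transform of a canonical form by an inertial automorphism which fixes the coordinates
and the place `P∞` is a canonical form. -/
theorem IsCanon.smul {A₁ : Finset (Place k F₁)} {A₂ : Finset (Place k F₂)}
    {s₁ : Place k F₁ → F} {s₂ : Place k F₂ → F} {n : ℕ} {Pinf : Place K F} {f₁ : F}
    {a₁ : Place k F₁ → K} {a₂ : Place k F₂ → K} {X₁ : Place k F₁ → Place K F}
    {X₂ : Place k F₂ → Place K F} (hc : IsCanon S A₁ A₂ s₁ s₂ n Pinf f₁ a₁ a₂ X₁ X₂)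
    {σ : SemilinearAut K F} (hσ : S.IsInertial σ) (hs₁σ : ∀ Q ∈ A₁, σ • s₁ Q = s₁ Q)
    (hs₂σ : ∀ Q ∈ A₂, σ • s₂ Q = s₂ Q) (hPinfσ : σ • Pinf = Pinf) :
    IsCanon S A₁ A₂ s₁ s₂ n Pinf (σ • f₁) (fun Q => SemilinearAut.baseAut σ (a₁ Q))
      (fun Q => SemilinearAut.baseAut σ (a₂ Q)) (fun Q => σ • X₁ Q) (fun Q => σ • X₂ Q) := by
  have e₁ : ∀ Q ∈ A₁, s₁ Q - algebraMap K F (SemilinearAut.baseAut σ (a₁ Q)) =
      σ • (s₁ Q - algebraMap K F (a₁ Q)) := by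
    intro Q hQ
    rw [smul_sub, hs₁σ Q hQ, SemilinearAut.smul_algebraMap]
  have e₂ : ∀ Q ∈ A₂, s₂ Q - algebraMap K F (SemilinearAut.baseAut σ (a₂ Q)) =
      σ • (s₂ Q - algebraMap K F (a₂ Q)) := by
    intro Q hQ
    rw [smul_sub, hs₂σ Q hQ, SemilinearAut.smul_algebraMap]
  refine ⟨hσ.mem₁ _ hc.mem₁, hσ.mem₂ _ hc.mem₂, ?_, ?_, ?_, ?_, ?_, ?_, ?_, ?_, ?_, ?_, ?_, ?_⟩
  · rw [rd₁_smul hσ hc.mem₁, hc.rd₁]
  · rw [rd₂_smul hσ hc.mem₂, hc.rd₂]
  · have := vanAt_smul_of_fixed hPinfσ hc.inf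
    rwa [smul_sub, smul_one] at this
  · intro Q hQ
    show algebraMap K F (SemilinearAut.baseAut σ (a₁ Q)) ∈ S.c₁.V ∧
      S.c₁.rd (algebraMap K F (SemilinearAut.baseAut σ (a₁ Q))) = 0
    rw [← SemilinearAut.smul_algebraMap]
    exact ⟨hσ.mem₁ _ (hc.ha₁ Q hQ).1, by rw [rd₁_smul hσ (hc.ha₁ Q hQ).1, (hc.ha₁ Q hQ).2]⟩
  · intro Q hQ
    show algebraMap K F (SemilinearAut.baseAut σ (a₂ Q)) ∈ S.c₂.V ∧
      S.c₂.rd (algebraMap K F (SemilinearAut.baseAut σ (a₂ Q))) = 0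
    rw [← SemilinearAut.smul_algebraMap]
    exact ⟨hσ.mem₂ _ (hc.ha₂ Q hQ).1, by rw [rd₂_smul hσ (hc.ha₂ Q hQ).1, (hc.ha₂ Q hQ).2]⟩
  · intro Q hQ
    show S.c₁.r (σ • X₁ Q) = some Q ∧
      VanAt (σ • X₁ Q) (s₁ Q - algebraMap K F (SemilinearAut.baseAut σ (a₁ Q)))
    rw [hσ.r₁, e₁ Q hQ, vanAt_smul]
    exact hc.hX₁ Q hQ
  · intro Q hQ
    show S.c₂.r (σ • X₂ Q) = some Q ∧
      VanAt (σ • X₂ Q) (s₂ Q - algebraMap K F (SemilinearAut.baseAut σ (a₂ Q)))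
    rw [hσ.r₂, e₂ Q hQ, vanAt_smul]
    exact hc.hX₂ Q hQ
  · intro P h₁ h₂
    rw [ord_smul_eq]
    exact hc.off _ (fun Q hQ => by rw [r₁_inv_smul hσ]; exact h₁ Q hQ)
      (fun Q hQ => by rw [r₂_inv_smul hσ]; exact h₂ Q hQ)
  · intro Q hQ P hPQ
    show P.ord (σ • f₁) = n * (P.ord (s₁ Q - algebraMap K F (SemilinearAut.baseAut σ (a₁ Q)))
      - P.ord (s₁ Q))
    rw [e₁ Q hQ, ord_smul_eq, ord_smul_eq]
    have h1 : P.ord (s₁ Q) = (σ⁻¹ • P).ord (s₁ Q) := by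
      conv_lhs => rw [← hs₁σ Q hQ]
      exact ord_smul_eq σ P _
    rw [h1]
    exact hc.on₁ Q hQ _ (by rw [r₁_inv_smul hσ]; exact hPQ)
  · intro Q hQ P hPQ
    show P.ord (σ • f₁) = n * (P.ord (s₂ Q - algebraMap K F (SemilinearAut.baseAut σ (a₂ Q)))
      - P.ord (s₂ Q))
    rw [e₂ Q hQ, ord_smul_eq, ord_smul_eq]
    have h1 : P.ord (s₂ Q) = (σ⁻¹ • P).ord (s₂ Q) := by
      conv_lhs => rw [← hs₂σ Q hQ]
      exact ord_smul_eq σ P _
    rw [h1]
    exact hc.on₂ Q hQ _ (by rw [r₂_inv_smul hσ]; exact hPQ)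
  · intro Q hQ P hPQ
    show P.ord (s₁ Q - algebraMap K F (SemilinearAut.baseAut σ (a₁ Q))) =
      if P = σ • X₁ Q then 1 else 0
    rw [e₁ Q hQ, ord_smul_eq, hc.onX₁ Q hQ _ (by rw [r₁_inv_smul hσ]; exact hPQ)]
    have hiff : σ⁻¹ • P = X₁ Q ↔ P = σ • X₁ Q := inv_smul_eq_iff
    by_cases hPX : P = σ • X₁ Q
    · rw [if_pos hPX, if_pos (hiff.mpr hPX)]
    · rw [if_neg hPX, if_neg (fun h => hPX (hiff.mp h))]
  · intro Q hQ P hPQ
    show P.ord (s₂ Q - algebraMap K F (SemilinearAut.baseAut σ (a₂ Q))) =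
      if P = σ • X₂ Q then 1 else 0
    rw [e₂ Q hQ, ord_smul_eq, hc.onX₂ Q hQ _ (by rw [r₂_inv_smul hσ]; exact hPQ)]
    have hiff : σ⁻¹ • P = X₂ Q ↔ P = σ • X₂ Q := inv_smul_eq_iff
    by_cases hPX : P = σ • X₂ Q
    · rw [if_pos hPX, if_pos (hiff.mpr hPX)]
    · rw [if_neg hPX, if_neg (fun h => hPX (hiff.mp h))]

/-- **CANON, invariance**: if `σ` is inertial, fixes the coordinates and `P∞`, and the Kummer
class of the canonical form `f₁` is `σ`-invariant, then `σ` fixes `f₁`, the points `X_Q` and the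
values `a_Q`. -/
theorem canon_fixed [Infinite k] (S : SSD K F k F₁ F₂) (H : FFHyp K F) (H₁ : FFHyp k F₁)
    (H₂ : FFHyp k F₂) {A₁ : Finset (Place k F₁)} {A₂ : Finset (Place k F₂)}
    (hdis₁ : Disjoint A₁ S.br₁) (hdis₂ : Disjoint A₂ S.br₂) (hNSA : S.IsNS A₁ A₂)
    {s₁ : Place k F₁ → F} {s₂ : Place k F₂ → F} {n : ℕ} (hn0 : n ≠ 0) {Pinf : Place K F}
    {f₁ : F} {a₁ : Place k F₁ → K} {a₂ : Place k F₂ → K}
    {X₁ : Place k F₁ → Place K F} {X₂ : Place k F₂ → Place K F}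
    (hc : IsCanon S A₁ A₂ s₁ s₂ n Pinf f₁ a₁ a₂ X₁ X₂)
    {σ : SemilinearAut K F} (hσ : S.IsInertial σ) (hs₁σ : ∀ Q ∈ A₁, σ • s₁ Q = s₁ Q)
    (hs₂σ : ∀ Q ∈ A₂, σ • s₂ Q = s₂ Q) (hPinfσ : σ • Pinf = Pinf)
    (c : K) (T : F) (hT : σ • f₁ = algebraMap K F c * f₁ * T ^ n) :
    σ • f₁ = f₁ ∧ (∀ Q ∈ A₁, σ • X₁ Q = X₁ Q ∧ SemilinearAut.baseAut σ (a₁ Q) = a₁ Q) ∧
      ∀ Q ∈ A₂, σ • X₂ Q = X₂ Q ∧ SemilinearAut.baseAut σ (a₂ Q) = a₂ Q :=
  canon_unique S H H₁ H₂ hdis₁ hdis₂ hNSA hn0 hc (hc.smul hσ hs₁σ hs₂σ hPinfσ) c T hT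

end Inv

end Fermat.Agent.BADP.H51

end
end
-- ==== END Fermat.Agent.BADP.H51_CanonUniq

-- ==== BEGIN Fermat.Agent.S33.New.H86_PW1
section
attribute [local instance 10000] SubalgebraClass.toAlgebra
attribute [local instance 10000] HahnSeries.powerSeriesAlgebra

/-!
# S33, the `p`-new case, leaf L3: the leading terms of the Kummer functions  (helper86)

`stmt_PW1 : Stmt_PW1` : TRACE-RED (`BADP.H18.traceRed_insep`) at the modular datum of level
`M p` and PTH-ROOT (`BADP.H86.pthRoot`) at level `M`.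
-/

set_option autoImplicit false
set_option linter.style.haveILetI false
set_option linter.unusedSectionVars false
set_option synthInstance.maxHeartbeats 400000
set_option maxHeartbeats 1000000

noncomputable section

open AlgebraicCurve ModularCurve
open Fermat.Agent.S28.H73 Fermat.Agent.RED.H73 Fermat.Agent.RED Fermat.Agent.S24
open Fermat.Agent.BAD.H88

namespace Fermat.Agent.S33.New.H86

open Fermat.Agent.BAD

section Generic

variable {K F : Type*} [Field K] [Field F] [Algebra K F]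

/-- The valuation of a valuation ring `V` of `F` on the constants is equivalent to the valuation
of the valuation ring `A = V ∩ K`. -/
theorem val_const_le_iff' (V : ValuationSubring F) (A : ValuationSubring K)
    (hT : ∀ c : K, algebraMap K F c ∈ V ↔ c ∈ A) (c d : K) :
    V.valuation (algebraMap K F c) ≤ V.valuation (algebraMap K F d) ↔
      A.valuation c ≤ A.valuation d := by
  by_cases hd : d = 0
  · rw [hd, map_zero, map_zero, map_zero, le_zero_iff, le_zero_iff, map_eq_zero, map_eq_zero,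
      map_eq_zero]
  have hdF : algebraMap K F d ≠ 0 := (map_ne_zero_iff _ (algebraMap K F).injective).mpr hd
  have h1 : V.valuation (algebraMap K F c) ≤ V.valuation (algebraMap K F d) ↔
      V.valuation (algebraMap K F (c / d)) ≤ 1 := by
    rw [map_div₀, map_div₀, div_le_one₀ (zero_lt_iff.2 ((Valuation.ne_zero_iff _).2 hdF))]
  have h2 : A.valuation c ≤ A.valuation d ↔ A.valuation (c / d) ≤ 1 := by
    rw [map_div₀, div_le_one₀ (zero_lt_iff.2 ((Valuation.ne_zero_iff _).2 hd))]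
  rw [h1, h2, ValuationSubring.valuation_le_one_iff, ValuationSubring.valuation_le_one_iff]
  exact hT _

theorem val_const_lt_iff' (V : ValuationSubring F) (A : ValuationSubring K)
    (hT : ∀ c : K, algebraMap K F c ∈ V ↔ c ∈ A) (c d : K) :
    V.valuation (algebraMap K F c) < V.valuation (algebraMap K F d) ↔
      A.valuation c < A.valuation d := by
  rw [← not_le, ← not_le, val_const_le_iff' V A hT]

end Generic

/-- The norm along `α` is the norm of the tower `F_M ⊂ F_{M p}` of helper23. -/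
theorem normAlong_alpha_eq (p M : ℕ) [NeZero M] [NeZero p] [NeZero (M * p)] (x : FN (M * p)) :
    normAlong (heckeAlphaBar Kbar M p) x
      = @Algebra.norm (FN M) (FN (M * p)) _ _ (H23.algEL p M) x := rfl

/-- The trace of the second structure (`Fr ∘ e`) of `F₁` over the residue field of level `M`
vanishes. -/
theorem trace_alg2_eq_zero (A : ValuationSubring Kbar) (p M : ℕ) (a b : ℤ)
    (hab : a * p + b * M = 1) (hp : p.Prime) [NeZero M] [NeZero (M * p)]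
    (hA : A.LiesOverPrime p) (hpM : ¬ p ∣ M)
    (hD : redField A (modularFunctionFieldBar (M * p)) (hSc A p M)
      = modularFunctionFieldFullC (kV A) M) (x : F1 A p M) :
    @Algebra.trace ↥(H91.redM A M) (F1 A p M) _ _ (H23.alg2 A p M a b hab hp hA hD) x = 0 := by
  letI := H23.alg2 A p M a b hab hp hA hD
  haveI : Module.Finite ↥(H91.redM A M) (F1 A p M) := H23.finite_alg2 A p M a b hab hp hA hD hpM
  haveI : Fact p.Prime := ⟨hp⟩
  haveI : CharP (kV A) p := H82.charP_kV A hp hA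
  haveI : CharP ↥(H91.redM A M) p :=
    charP_of_injective_algebraMap (algebraMap (kV A) ↥(H91.redM A M)).injective p
  refine Fermat.Agent.BADP.H18.trace_eq_zero_of_pow_mem ↥(H91.redM A M) (F1 A p M) p ?_ ?_ x
  · intro y
    refine ⟨(H23.eRed A p M a b hab hp hA).symm (H73.phiF1 A p M hp hA M hD y), ?_⟩
    rw [H23.algebraMap_alg2]
    show H73.FrF1 A p M hp hA M hD ((H23.eRed A p M a b hab hp hA)
      ((H23.eRed A p M a b hab hp hA).symm (H73.phiF1 A p M hp hA M hD y))) = y ^ p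
    rw [AlgEquiv.apply_symm_apply, H73.FrF1_phiF1]
  · rw [H23.finrank_alg2 A p M a b hab hp hA hD hpM]
    exact hp.one_lt.ne'

/-- **L3**: the leading term of a Kummer function of a `p`-new class is a `p`-th power. -/
theorem stmt_PW1 : Stmt_PW1 := by
  intro A p M a b hab hp _ _ _ hA hpM ht f hN u φ e c₀ hu he hc₀ hvc hdep heq h₁ h₂
  haveI : IsAlgClosed (kV A) := isAlgClosed_kV A
  have hD := H82.redField_eq_fullC p M a b hab hp A hA
  have h0 : @Module.finrank (FN M) (FN (M * p)) _ _ (H23.algEL p M).toModule = p + 1 :=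
    H23.finrank_EL p M hp hpM
  have hf1 : @Module.finrank ↥(H91.redM A M) (F1 A p M) _ _
      (H23.alg1 A p M a b hab hp hA).toModule = 1 := H23.finrank_alg1 A p M a b hab hp hA
  have hf2 : @Module.finrank ↥(H91.redM A M) (F1 A p M) _ _
      (H23.alg2 A p M a b hab hp hA hD).toModule = p :=
    H23.finrank_alg2 A p M a b hab hp hA hD hpM
  -- constants of level `M`
  have hT : ∀ c : Kbar, algebraMap Kbar (FN M) c ∈ (H91.seM hp hpM ht hA).V ↔ c ∈ A :=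
    fun c => const_memM A M c
  have hc₀A : c₀ ∈ A := (A.valuation_le_one_iff c₀).1 hvc.le
  have hcV : algebraMap Kbar (FN M) c₀ ∈ (H91.seM hp hpM ht hA).V := (hT c₀).2 hc₀A
  have hvcE : (H91.seM hp hpM ht hA).V.valuation (algebraMap Kbar (FN M) c₀) < 1 := by
    have := (val_const_lt_iff' (H91.seM hp hpM ht hA).V A hT c₀ 1).2 (by rwa [map_one])
    rwa [map_one, map_one] at this
  have hkerE : ∀ x : ↥(H91.seM hp hpM ht hA).V, ¬ IsUnit x →
      (H91.seM hp hpM ht hA).red x = 0 := fun x hx =>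
    ((H91.seM hp hpM ht hA).red_eq_zero_iff x).2 ((IsLocalRing.mem_maximalIdeal x).2 hx)
  have hcred : (H91.seM hp hpM ht hA).red ⟨_, hcV⟩ = 0 := by
    rw [(H91.seM hp hpM ht hA).red_eq_zero_iff]
    exact ((H91.seM hp hpM ht hA).V.valuation_lt_one_iff ⟨_, hcV⟩).2 hvcE
  -- TRACE-RED
  obtain ⟨θ, hθ, hθ'⟩ := @Fermat.Agent.BADP.H18.traceRed_insep (FN M) (FN (M * p))
    ↥(H91.redM A M) (F1 A p M) (F1 A p M) _ _ _ _ _ (H23.algEL p M)
    (H23.alg1 A p M a b hab hp hA) (H23.alg2 A p M a b hab hp hA hD)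
    (H23.finite_EL p M) (H23.finite_alg1 A p M a b hab hp hA)
    (H23.finite_alg2 A p M a b hab hp hA hD hpM)
    (H91.seM hp hpM ht hA).V (V1 A p M) (V2 A p M a b hab hp) (H91.seM hp hpM ht hA).red
    (red1 A p M) (red2 A p M a b hab hp)
    (H23.hV1_mod A p M hp hA hpM ht) (H23.hV2_mod A p M a b hab hp hA hpM ht)
    hkerE (red1_surjective A p M) (red2_surjective A p M a b hab hp)
    (H23.hker1_mod A p M) (H23.hker2_mod A p M a b hab hp)
    (H23.hcompat1_mod A p M a b hab hp hA hpM ht)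
    (H23.hcompat2_mod A p M a b hab hp hA hpM ht hD)
    (H73.not_V1_le_V2 A p M a b hab hp hA) (H73.not_V2_le_V1 A p M a b hab hp hA)
    (by rw [h0, hf1, hf2, add_comm]) hf1
    (trace_alg2_eq_zero A p M a b hab hp hA hpM hD) φ h₁ h₂ ⟨_, hcV⟩ hcred
  -- the norm of the Kummer function is a `p`-th power
  obtain ⟨t, κ, hκ⟩ := hN
  rw [normAlong_alpha_eq] at hκ
  letI := H23.algEL p M
  haveI := H23.isScalarTower_EL p M
  haveI := H23.finite_EL p M
  have hnorm : Algebra.norm (FN M) (algebraMap Kbar (FN (M * p)) e * f * u ^ p)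
      = algebraMap Kbar (FN M) (e ^ (p + 1) * κ) * (t * Algebra.norm (FN M) u) ^ p := by
    rw [map_mul, map_mul, map_pow, hκ, IsScalarTower.algebraMap_apply Kbar (FN M) (FN (M * p)) e,
      Algebra.norm_algebraMap, h0, map_mul, map_pow]
    ring
  obtain ⟨κ₁, hκ₁⟩ := IsAlgClosed.exists_pow_nat_eq (e ^ (p + 1) * κ) hp.pos
  obtain ⟨c₁, hc₁⟩ := IsAlgClosed.exists_pow_nat_eq c₀ hp.pos
  have hT' : (algebraMap Kbar (FN M) κ₁ * (t * Algebra.norm (FN M) u)) ^ p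
      = 1 + algebraMap Kbar (FN M) c₀ * (θ : FN M) := by
    rw [mul_pow, ← map_pow, hκ₁, ← hnorm, heq, ← hθ,
      IsScalarTower.algebraMap_apply Kbar (FN M) (FN (M * p)) c₀]
  -- PTH-ROOT
  have hdepE : (H91.seM hp hpM ht hA).V.valuation ((p : ℕ) : FN M) ^ p
      < (H91.seM hp hpM ht hA).V.valuation (algebraMap Kbar (FN M) c₀) ^ (p - 1) := by
    have h1 : A.valuation ((p : Kbar) ^ p) < A.valuation (c₀ ^ (p - 1)) := by
      rw [map_pow, map_pow]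
      exact hdep
    have h2 := (val_const_lt_iff' (H91.seM hp hpM ht hA).V A hT _ _).2 h1
    rw [map_pow, map_pow, map_pow, map_pow, map_natCast] at h2
    exact h2
  obtain ⟨ψ, hψV, hψ⟩ := Fermat.Agent.BADP.H86.pthRoot (H91.seM hp hpM ht hA).V hp
    (t := algebraMap Kbar (FN M) κ₁ * (t * Algebra.norm (FN M) u))
    (c₀ := algebraMap Kbar (FN M) c₀) (c₁ := algebraMap Kbar (FN M) c₁) (θ := (θ : FN M))
    θ.2 (by rw [← map_pow, hc₁])
    ((map_ne_zero_iff _ (algebraMap Kbar (FN M)).injective).2 hc₀) hvcE hdepE hT'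
  -- conclusion
  have hred : (H91.seM hp hpM ht hA).red θ = (H91.seM hp hpM ht hA).red ⟨ψ, hψV⟩ ^ p := by
    have hmem : (θ : FN M) - ψ ^ p ∈ (H91.seM hp hpM ht hA).V :=
      (H91.seM hp hpM ht hA).V.sub_mem θ.2 (pow_mem hψV p)
    have h1 : (H91.seM hp hpM ht hA).red ⟨_, hmem⟩ = 0 := by
      rw [(H91.seM hp hpM ht hA).red_eq_zero_iff]
      exact ((H91.seM hp hpM ht hA).V.valuation_lt_one_iff ⟨_, hmem⟩).2 hψ
    have h2 : (⟨_, hmem⟩ : ↥(H91.seM hp hpM ht hA).V) = θ - ⟨ψ, hψV⟩ ^ p := Subtype.ext rfl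
    rw [h2, map_sub, map_pow, sub_eq_zero] at h1
    exact h1
  refine ⟨H23.eRed A p M a b hab hp hA ((H91.seM hp hpM ht hA).red ⟨ψ, hψV⟩), ?_⟩
  rw [← hθ', hred, map_pow]
  rfl

end Fermat.Agent.S33.New.H86

end
end
-- ==== END Fermat.Agent.S33.New.H86_PW1

-- ==== BEGIN Fermat.Agent.S33.New.H9_NormWq
section

/-!
# S33, the `p`-new case, leaf L1 (helper9): `Stmt_NormWq`

`N_α (w_p x) = N_β x` for `x ∈ F_{M p}`: the Atkin–Lehner involution `w_p` is an isomorphism of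
`F_M`-algebras from `F_{M p}` with the `β`-structure to `F_{M p}` with the `α`-structure
(`w_p ∘ β = α`, helper88), and the norm is invariant under isomorphisms
(`Algebra.norm_eq_of_equiv_equiv`).

This file contains no `sorry`.
-/

set_option autoImplicit false
set_option synthInstance.maxHeartbeats 400000
set_option maxHeartbeats 1000000
set_option linter.unusedSectionVars false
set_option linter.style.haveILetI false

noncomputable section

open AlgebraicCurve ModularCurve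

namespace Fermat.Agent.S33.New.H9

open Fermat.Agent.BAD Fermat.Agent.BAD.H88 Fermat.Agent.S24 Fermat.Agent.S33.New.H86

/-- The norm is invariant under an automorphism exchanging two algebra structures (abstract
form). -/
theorem normAlong_equiv {K F F' : Type*} [Field K] [Field F] [Field F'] [Algebra K F]
    [Algebra K F'] (φ ψ : F →ₐ[K] F') (w : F' ≃+* F') (h : ∀ y : F, w (ψ y) = φ y) (x : F') :
    normAlong φ (w x) = normAlong ψ x := by
  have key := @Algebra.norm_eq_of_equiv_equiv F F' F F' _ _ _ _ (algebraAlong ψ)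
    (algebraAlong φ) (RingEquiv.refl F) w (RingHom.ext fun y => (h y).symm) x
  exact key.symm

/-- **L1**: `N_α (w_p x) = N_β x`. -/
theorem stmt_NormWq : Stmt_NormWq := by
  intro p M _ _ _ a b hab hp x
  exact normAlong_equiv (heckeAlphaBar Kbar M p) (heckeBetaBar Kbar M p)
    ((wq p M a b hab hp).toRingEquiv) (fun y => wq_beta p M a b hab hp y) x

end Fermat.Agent.S33.New.H9

end
end
-- ==== END Fermat.Agent.S33.New.H9_NormWq

-- ==== BEGIN Fermat.Agent.S59.Datum.H41_DetCyc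
section

/-!
# S59 package DATUM, leaf DETCYC (helper41)

`stmt_DetCyc : Stmt_DetCyc`: a representation over a local ring `A` whose topology is the `p`-adic
one, with `det ρ(Frob_ℓ) = ℓ` for all primes `ℓ` outside a finite set, has cyclotomic
determinant.  (Frobenius density + action of Frobenius on roots of unity + continuity, as in
`Tate.H4.stmt_T2_of`.)
-/

set_option autoImplicit false

namespace Fermat.Agent.S59.Datum.H41

open Polynomial IsLocalRing Fermat.Agent.S59.Datum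

/-- **DETCYC** from Frobenius density and the action of Frobenius on roots of unity. -/
theorem stmt_DetCyc_of (hFD : Fermat.Agent.R.Stmt_FD) (hFC : Fermat.Agent.R.Stmt_FrobCyc) :
    Stmt_DetCyc := by
  classical
  intro A _ _ p _ hpA hadic ρ S hdet
  have hp : p.Prime := Fact.out
  refine ⟨hpA, ?_⟩
  intro n σ a ha
  -- the set of excluded primes
  set S' : Finset ℕ := insert p S with hS'
  -- continuity
  obtain ⟨m, hm⟩ := hadic n
  obtain ⟨L₀, hL₀, hcont⟩ := ρ.isAdicContinuous m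
  -- a primitive `p^n`-th root of unity
  have hpn : p ^ n ≠ 0 := pow_ne_zero _ hp.ne_zero
  have : NeZero (p ^ n) := ⟨hpn⟩
  have : NeZero ((p ^ n : ℕ) : AlgebraicClosure ℚ) := ⟨by exact_mod_cast hpn⟩
  obtain ⟨ζ, hζ⟩ := HasEnoughRootsOfUnity.exists_primitiveRoot (AlgebraicClosure ℚ) (p ^ n)
  -- the field `L`
  have hζint : IsIntegral ℚ ζ := (hζ.isIntegral (Nat.pos_of_ne_zero hpn)).tower_top
  have : FiniteDimensional ℚ (IntermediateField.adjoin ℚ {ζ}) :=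
    IntermediateField.adjoin.finiteDimensional hζint
  have : FiniteDimensional ℚ L₀ := hL₀
  set L : IntermediateField ℚ (AlgebraicClosure ℚ) := L₀ ⊔ IntermediateField.adjoin ℚ {ζ} with hL
  have hLfd : FiniteDimensional ℚ L := IntermediateField.finiteDimensional_sup _ _
  obtain ⟨ℓ, B, φ, j, hℓ, hℓS, hB, hφ, hagree⟩ := hFD S' L hLfd σ
  have hℓp : ℓ ≠ p := fun h => hℓS (by rw [hS', h]; exact Finset.mem_insert_self _ _)
  have hℓS0 : ℓ ∉ S := fun h => hℓS (by rw [hS']; exact Finset.mem_insert_of_mem h)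
  -- `τ = (φ^j)⁻¹ σ` fixes `L`
  set τ : GalQ := (φ ^ j)⁻¹ * σ with hτ
  have hτfix : ∀ x ∈ L₀, τ x = x := by
    intro x hx
    have hxL : x ∈ L := (le_sup_left : L₀ ≤ L) hx
    rw [hτ, AlgEquiv.mul_apply, ← hagree x hxL]
    exact (φ ^ j).symm_apply_apply x
  have hσeq : σ = φ ^ j * τ := by rw [hτ, mul_inv_cancel_left]
  -- determinants
  have hdetφ : LinearMap.det (ρ.ρ φ) = (ℓ : A) := hdet ℓ hℓ hℓS0 B hB φ hφ
  have hdetτ : LinearMap.det (ρ.ρ τ) - 1 ∈ Ideal.span {((p ^ n : ℕ) : A)} :=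
    hm (Fermat.Agent.Tate.H4.det_sub_one_mem (maximalIdeal A ^ m) (ρ.ρ τ) (hcont τ hτfix))
  have hdetσ : LinearMap.det (ρ.ρ σ) = (ℓ : A) ^ j * LinearMap.det (ρ.ρ τ) := by
    rw [hσeq, map_mul, map_pow, map_mul, map_pow, hdetφ]
  -- the congruence `a ≡ ℓ^j mod p^n`
  have hζL : ζ ∈ L :=
    (le_sup_right : IntermediateField.adjoin ℚ {ζ} ≤ L)
      (IntermediateField.subset_adjoin ℚ {ζ} (Set.mem_singleton ζ))
  have hcop : (p ^ n).Coprime ℓ :=
    Nat.Coprime.pow_left n ((Nat.coprime_primes hp hℓ).2 (Ne.symm hℓp))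
  have h1 : ζ ^ a = ζ ^ (ℓ ^ j) := by
    rw [← ha ζ hζ.pow_eq_one, ← hagree ζ hζL]
    exact Fermat.Agent.Tate.H4.frob_pow_apply_root hFC hℓ hB hφ hcop hζ.pow_eq_one j
  have hζ0 : ζ ≠ 0 := hζ.ne_zero hpn
  have h2 : a ≡ ℓ ^ j [MOD p ^ n] := by
    have h3 : (Units.mk0 ζ hζ0) ^ a = (Units.mk0 ζ hζ0) ^ (ℓ ^ j) := by
      ext
      simpa using h1
    have h4 : orderOf (Units.mk0 ζ hζ0) = p ^ n := by
      rw [← orderOf_units, Units.val_mk0]
      exact hζ.eq_orderOf.symm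
    rw [pow_eq_pow_iff_modEq, h4] at h3
    exact h3
  have h5 : ((ℓ : A) ^ j - (a : A)) ∈ Ideal.span {((p ^ n : ℕ) : A)} := by
    rw [Ideal.mem_span_singleton]
    have h6 : ((p ^ n : ℕ) : ℤ) ∣ ((ℓ ^ j : ℕ) : ℤ) - (a : ℤ) := (Nat.modEq_iff_dvd.1 h2)
    obtain ⟨c, hc⟩ := h6
    refine ⟨(c : A), ?_⟩
    have := congrArg (fun z : ℤ => (z : A)) hc
    push_cast at this ⊢
    exact this
  -- conclusion
  have h7 : LinearMap.det (ρ.ρ σ) - (a : A) =
      (ℓ : A) ^ j * (LinearMap.det (ρ.ρ τ) - 1) + ((ℓ : A) ^ j - (a : A)) := by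
    rw [hdetσ]; ring
  rw [h7]
  exact Ideal.add_mem _ (Ideal.mul_mem_left _ _ hdetτ) h5

/-- **DETCYC.** -/
theorem stmt_DetCyc : Stmt_DetCyc :=
  stmt_DetCyc_of Fermat.Agent.Lib.FrobDensity.stmt_FD Fermat.Agent.R.H89.stmt_FrobCyc

end Fermat.Agent.S59.Datum.H41

end
-- ==== END Fermat.Agent.S59.Datum.H41_DetCyc
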