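-- GENERATED (merged mirror, NOTES/tools/trim/merge3_helper67.py): 5 modules of the originals, bodies verbatim.
import Fermat.Agent.Zm.S33_L04_002
import Fermat.Agent.Zm.S33_L04_001
import Fermat.Agent.Zm.S56_L04_000
import Fermat.Agent.S05.H37_Inertia
import Fermat.Agent.Zm.S33_L02_003
import Fermat.Agent.Zm.S35_L16_000

-- ==== BEGIN Fermat.Agent.BADP.H51_CanonP
section

/-!
# S33 / S44, package CANON-p (helper51): existence of the canonical form, packaged

`stmt_CanonP : Stmt_CanonP`: abstract SSD, `char k = p`.  For `f` in TIss-position (`f ≡ 1` for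
both valuations, `p ∣ div f`, no zero or pole on the fibres of the nodes) and `P∞` over a good
point `Q∞` of the first component there are a balanced non-special pair `(A₁, A₂)`
(`Q∞ ∉ A₁`), adapted coordinates `s_Q`, constants `a_Q` in the maximal ideal, points `X_Q` and
`h ≡ 1` (for both valuations) such that `f h ^ p` satisfies all the hypotheses of the nodal key
lemma (`BAD.Stmt_KeyNodal`, `BAD.H28.keyNodal_lin`) except the one on the exponent / on the
linear regime.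

`stmt_CanonAny : Stmt_CanonAny` : the same for every exponent `n ≠ 0`, with `h` a unit for both
valuations whose reductions are the same constant `ζ`, `ζ ^ n = 1`.

The pair `(A₁, A₂)` is the one of `BAD.H60.stmt_NodalNS`, the coordinates are those of
`BAD.H28.stmt_Coords`.
-/

set_option autoImplicit false
set_option linter.style.haveILetI false
set_option maxHeartbeats 1000000

noncomputable section

open AlgebraicCurve

attribute [local instance] Classical.propDecidable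

namespace Fermat.Agent.BADP.H51

open Fermat.Agent.RED.H17 Fermat.Agent.RED Fermat.Agent.BAD

local notation "L" => riemannRochSpace

/-- **CANON, packaged, every exponent.** -/
def Stmt_CanonAny : Prop :=
  ∀ (K F k F₁ F₂ : Type) [Field K] [Field F] [Algebra K F] [Field k] [Field F₁]
    [Algebra k F₁] [Field F₂] [Algebra k F₂] [IsAlgClosed K] [Infinite k]
    (S : SSD K F k F₁ F₂), FFHyp K F → FFHyp k F₁ → FFHyp k F₂ →
    ∀ (g g₁ g₂ : ℕ) (c c₁ c₂ : ℤ), IsGenus K F g c → IsGenus k F₁ g₁ c₁ → IsGenus k F₂ g₂ c₂ →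
    g + 1 ≤ g₁ + g₂ + S.nodes.card →
    ∀ (n : ℕ), n ≠ 0 →
    ∀ (f : F), f ∈ S.c₁.V → f ∈ S.c₂.V → S.c₁.rd f = 1 → S.c₂.rd f = 1 →
      (∀ P : Place K F, (n : ℤ) ∣ P.ord f) → (∀ P : Place K F, S.IsNodeP P → P.ord f = 0) →
    ∀ (Pinf : Place K F) (Qinf : Place k F₁), Qinf ∈ S.c₁.good → S.c₁.r Pinf = some Qinf →
    ∃ (A₁ : Finset (Place k F₁)) (A₂ : Finset (Place k F₂)) (s₁ : Place k F₁ → F)
      (s₂ : Place k F₂ → F) (h : F) (ζ : k) (a₁ : Place k F₁ → K) (a₂ : Place k F₂ → K)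
      (X₁ : Place k F₁ → Place K F) (X₂ : Place k F₂ → Place K F),
      Disjoint A₁ S.br₁ ∧ Disjoint A₂ S.br₂ ∧ S.IsNS A₁ A₂ ∧ Qinf ∉ A₁ ∧
      A₁.card + A₂.card + 1 = g₁ + g₂ + S.nodes.card ∧
      (∀ Q ∈ A₁, S.IsCoordA₁ A₁ A₂ (s₁ Q) Q) ∧ (∀ Q ∈ A₂, S.IsCoordA₂ A₁ A₂ (s₂ Q) Q) ∧
      S.c₁.IsGU h ∧ S.c₂.IsGU h ∧ S.c₁.rd h = algebraMap k F₁ ζ ∧
      S.c₂.rd h = algebraMap k F₂ ζ ∧ ζ ^ n = 1 ∧
      IsCanon S A₁ A₂ s₁ s₂ n Pinf (f * h ^ n) a₁ a₂ X₁ X₂

/-- **CANON-p, packaged** (`n = p = char k`). -/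
def Stmt_CanonP : Prop :=
  ∀ (K F k F₁ F₂ : Type) [Field K] [Field F] [Algebra K F] [Field k] [Field F₁]
    [Algebra k F₁] [Field F₂] [Algebra k F₂] [IsAlgClosed K] [Infinite k]
    (S : SSD K F k F₁ F₂), FFHyp K F → FFHyp k F₁ → FFHyp k F₂ →
    ∀ (g g₁ g₂ : ℕ) (c c₁ c₂ : ℤ), IsGenus K F g c → IsGenus k F₁ g₁ c₁ → IsGenus k F₂ g₂ c₂ →
    g + 1 ≤ g₁ + g₂ + S.nodes.card →
    ∀ (p : ℕ), p.Prime → CharP k p →
    ∀ (f : F), f ∈ S.c₁.V → f ∈ S.c₂.V → S.c₁.rd f = 1 → S.c₂.rd f = 1 →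
      (∀ P : Place K F, (p : ℤ) ∣ P.ord f) → (∀ P : Place K F, S.IsNodeP P → P.ord f = 0) →
    ∀ (Pinf : Place K F) (Qinf : Place k F₁), Qinf ∈ S.c₁.good → S.c₁.r Pinf = some Qinf →
    ∃ (A₁ : Finset (Place k F₁)) (A₂ : Finset (Place k F₂)) (s₁ : Place k F₁ → F)
      (s₂ : Place k F₂ → F) (h : F) (a₁ : Place k F₁ → K) (a₂ : Place k F₂ → K)
      (X₁ : Place k F₁ → Place K F) (X₂ : Place k F₂ → Place K F),
      Disjoint A₁ S.br₁ ∧ Disjoint A₂ S.br₂ ∧ S.IsNS A₁ A₂ ∧ Qinf ∉ A₁ ∧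
      A₁.card + A₂.card + 1 = g₁ + g₂ + S.nodes.card ∧
      (∀ Q ∈ A₁, S.IsCoordA₁ A₁ A₂ (s₁ Q) Q) ∧ (∀ Q ∈ A₂, S.IsCoordA₂ A₁ A₂ (s₂ Q) Q) ∧
      h ∈ S.c₁.V ∧ h ∈ S.c₂.V ∧ S.c₁.rd h = 1 ∧ S.c₂.rd h = 1 ∧
      IsCanon S A₁ A₂ s₁ s₂ p Pinf (f * h ^ p) a₁ a₂ X₁ X₂

section Main

variable {K F k F₁ F₂ : Type} [Field K] [Field F] [Algebra K F] [Field k] [Field F₁]
  [Algebra k F₁] [Field F₂] [Algebra k F₂]

/-- The non-special pair and the adapted coordinates (from `NodalNS` and `Coords`). -/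
theorem exists_ns_coords [Infinite k] (S : SSD K F k F₁ F₂) (H : FFHyp K F) (H₁ : FFHyp k F₁)
    (H₂ : FFHyp k F₂) {g g₁ g₂ : ℕ} {c c₁ c₂ : ℤ} (hR : IsGenus K F g c)
    (hR₁ : IsGenus k F₁ g₁ c₁) (hR₂ : IsGenus k F₂ g₂ c₂)
    (hnum : g + 1 ≤ g₁ + g₂ + S.nodes.card) (T₁ : Finset (Place k F₁))
    (T₂ : Finset (Place k F₂)) :
    ∃ (A₁ : Finset (Place k F₁)) (A₂ : Finset (Place k F₂)) (s₁ : Place k F₁ → F)
      (s₂ : Place k F₂ → F),
      Disjoint A₁ S.br₁ ∧ Disjoint A₂ S.br₂ ∧ Disjoint A₁ T₁ ∧ Disjoint A₂ T₂ ∧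
      S.IsNS A₁ A₂ ∧ A₁.card + A₂.card + 1 = g₁ + g₂ + S.nodes.card ∧
      (∀ Q ∈ A₁, S.IsCoordA₁ A₁ A₂ (s₁ Q) Q) ∧ (∀ Q ∈ A₂, S.IsCoordA₂ A₁ A₂ (s₂ Q) Q) := by
  obtain ⟨A₁, A₂, hcard, hdis₁, hdis₂, hNSA⟩ :=
    BAD.H60.stmt_NodalNS K F k F₁ F₂ S H₁ H₂ g₁ g₂ c₁ c₂ hR₁ hR₂ T₁ T₂
  have hd₁ : Disjoint A₁ S.br₁ := Finset.disjoint_of_subset_right Finset.subset_union_left hdis₁
  have hd₂ : Disjoint A₂ S.br₂ := Finset.disjoint_of_subset_right Finset.subset_union_left hdis₂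
  have hT₁ : Disjoint A₁ T₁ := Finset.disjoint_of_subset_right Finset.subset_union_right hdis₁
  have hT₂ : Disjoint A₂ T₂ := Finset.disjoint_of_subset_right Finset.subset_union_right hdis₂
  obtain ⟨hco₁, hco₂⟩ :=
    BAD.H28.stmt_Coords K F k F₁ F₂ S H H₁ H₂ g g₁ g₂ c c₁ c₂ hR hR₁ hR₂ hnum A₁ A₂ hd₁ hd₂
  have hs₁ex : ∀ Q, ∃ s : F, Q ∈ A₁ → S.IsCoordA₁ A₁ A₂ s Q := by
    intro Q
    by_cases hQ : Q ∈ A₁
    · obtain ⟨s, hs⟩ := hco₁ Q hQ
      exact ⟨s, fun _ => hs⟩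
    · exact ⟨0, fun h => absurd h hQ⟩
  choose s₁ hs₁ using hs₁ex
  have hs₂ex : ∀ Q, ∃ s : F, Q ∈ A₂ → S.IsCoordA₂ A₁ A₂ s Q := by
    intro Q
    by_cases hQ : Q ∈ A₂
    · obtain ⟨s, hs⟩ := hco₂ Q hQ
      exact ⟨s, fun _ => hs⟩
    · exact ⟨0, fun h => absurd h hQ⟩
  choose s₂ hs₂ using hs₂ex
  exact ⟨A₁, A₂, s₁, s₂, hd₁, hd₂, hT₁, hT₂, hNSA, hcard, hs₁, hs₂⟩

end Main

/-- **CANON, packaged, every exponent.** -/
theorem stmt_CanonAny : Stmt_CanonAny := by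
  intro K F k F₁ F₂ _ _ _ _ _ _ _ _ _ _ S H H₁ H₂ g g₁ g₂ c c₁ c₂ hR hR₁ hR₂ hnum n hn0 f hf₁
    hf₂ hrd₁ hrd₂ hdiv hnode Pinf Qinf hQinfg hPinf
  obtain ⟨A₁, A₂, s₁, s₂, hd₁, hd₂, hT₁, -, hNSA, hcard, hs₁, hs₂⟩ :=
    exists_ns_coords S H H₁ H₂ hR hR₁ hR₂ hnum {Qinf} ∅
  have hQinfA : Qinf ∉ A₁ := fun h =>
    Finset.disjoint_left.mp hT₁ h (Finset.mem_singleton_self Qinf)
  obtain ⟨h, ζ, a₁, a₂, X₁, X₂, hh₁, hh₂, hr₁, hr₂, hζ, hcan⟩ :=
    canon S H H₁ H₂ hR hd₁ hd₂ hNSA (by omega) hs₁ hs₂ hn0 hf₁ hf₂ hrd₁ hrd₂ hdiv hnode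
      hQinfg hQinfA hPinf
  exact ⟨A₁, A₂, s₁, s₂, h, ζ, a₁, a₂, X₁, X₂, hd₁, hd₂, hNSA, hQinfA, hcard, hs₁, hs₂, hh₁,
    hh₂, hr₁, hr₂, hζ, hcan⟩

/-- **CANON-p, packaged.** -/
theorem stmt_CanonP : Stmt_CanonP := by
  intro K F k F₁ F₂ _ _ _ _ _ _ _ _ _ _ S H H₁ H₂ g g₁ g₂ c c₁ c₂ hR hR₁ hR₂ hnum p hp hchar f
    hf₁ hf₂ hrd₁ hrd₂ hdiv hnode Pinf Qinf hQinfg hPinf
  haveI : Fact p.Prime := ⟨hp⟩
  haveI : CharP k p := hchar
  obtain ⟨A₁, A₂, s₁, s₂, hd₁, hd₂, hT₁, -, hNSA, hcard, hs₁, hs₂⟩ :=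
    exists_ns_coords S H H₁ H₂ hR hR₁ hR₂ hnum {Qinf} ∅
  have hQinfA : Qinf ∉ A₁ := fun h =>
    Finset.disjoint_left.mp hT₁ h (Finset.mem_singleton_self Qinf)
  obtain ⟨h, a₁, a₂, X₁, X₂, hh₁, hh₂, hr₁, hr₂, hcan⟩ :=
    canon_p S H H₁ H₂ hR hd₁ hd₂ hNSA (by omega) hs₁ hs₂ p hf₁ hf₂ hrd₁ hrd₂ hdiv hnode
      hQinfg hQinfA hPinf
  exact ⟨A₁, A₂, s₁, s₂, h, a₁, a₂, X₁, X₂, hd₁, hd₂, hNSA, hQinfA, hcard, hs₁, hs₂, hh₁,
    hh₂, hr₁, hr₂, hcan⟩

end Fermat.Agent.BADP.H51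

end
end
-- ==== END Fermat.Agent.BADP.H51_CanonP

-- ==== BEGIN Fermat.Agent.Lib.HopfOrderLoc.CL
section

/-!
# Conductor and closure under `ℓ`-adic approximation (item 71 / S19, helper32)

`A` a valuation subring of `ℚ̄` over `ℓ`, `S` a finite set, `T` a ring of `A`-valued functions
on `S` containing the constants of `A` and separating the points of `S`.

* `exists_conductor` : there is `N` with `ℓ ^ N • φ ∈ T` for every `A`-valued function `φ`.
* `stmt_CL : Stmt_CL` : a function which is approximated modulo `ℓ ^ n` by elements of `T` for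
  every `n` lies in `T`.
* `genRing_closed`, `pairRing_closed` : the same for `genRing A h` and `pairRing A f`.
-/

set_option autoImplicit false
set_option linter.style.haveILetI false

namespace Fermat.Agent.Lib.HopfOrderLoc

open Fermat.Agent.Lib.HopfOrder

local notation "K" => AlgebraicClosure ℚ

section Conductor

variable (ℓ : ℕ) (hℓ : ℓ.Prime) (A : ValuationSubring K) (hA : A.LiesOverPrime ℓ)
variable {S : Type} [Finite S] (T : Subring (S → K))

include hℓ hA in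
/-- **Conductor**: `ℓ ^ N • (all A-valued functions) ⊆ T`. -/
theorem exists_conductor (hconst : ∀ a ∈ A, (fun _ : S => a) ∈ T)
    (hval : ∀ g ∈ T, ∀ s, g s ∈ A) (hsep : ∀ s s' : S, s ≠ s' → ∃ g ∈ T, g s ≠ g s') :
    ∃ N : ℕ, ∀ φ : S → K, (∀ s, φ s ∈ A) → (fun s => (ℓ : K) ^ N * φ s) ∈ T := by
  classical
  letI : Fintype S := Fintype.ofFinite S
  choose g hgT hg using hsep
  -- the Lagrange numerators
  let fac : S → S → (S → K) := fun s₀ s =>
    if h : s₀ ≠ s then g s₀ s h - (fun _ => g s₀ s h s) else 0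
  have hfacT : ∀ s₀ s, fac s₀ s ∈ T := by
    intro s₀ s
    by_cases h : s₀ ≠ s
    · simp only [fac, dif_pos h]
      exact T.sub_mem (hgT s₀ s h) (hconst _ (hval _ (hgT s₀ s h) s))
    · simp only [fac, dif_neg h]
      exact T.zero_mem
  let e : S → (S → K) := fun s₀ => ∏ s ∈ Finset.univ.erase s₀, fac s₀ s
  have heT : ∀ s₀, e s₀ ∈ T := fun s₀ => T.prod_mem (fun s _ => hfacT s₀ s)
  have he_off : ∀ s₀ s, s ≠ s₀ → e s₀ s = 0 := by
    intro s₀ s hs
    show (∏ s' ∈ Finset.univ.erase s₀, fac s₀ s') s = 0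
    rw [Finset.prod_apply]
    apply Finset.prod_eq_zero (Finset.mem_erase.mpr ⟨hs, Finset.mem_univ s⟩)
    have h : s₀ ≠ s := fun h => hs h.symm
    simp only [fac, dif_pos h]
    simp
  have he_diag : ∀ s₀, e s₀ s₀ ≠ 0 := by
    intro s₀
    show (∏ s' ∈ Finset.univ.erase s₀, fac s₀ s') s₀ ≠ 0
    rw [Finset.prod_apply]
    apply Finset.prod_ne_zero_iff.mpr
    intro s hs
    have h : s₀ ≠ s := fun h => (Finset.mem_erase.mp hs).1 h.symm
    simp only [fac, dif_pos h]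
    show g s₀ s h s₀ - g s₀ s h s ≠ 0
    exact sub_ne_zero.mpr (hg s₀ s h)
  choose Ns hNs using fun s₀ => exists_pow_prime_le ℓ hℓ A hA (e s₀ s₀) (he_diag s₀)
  refine ⟨Finset.univ.sup Ns, fun φ hφ => ?_⟩
  set N := Finset.univ.sup Ns with hN
  have hℓle : A.valuation (ℓ : K) ≤ 1 := by
    have h : (ℓ : K) ∈ A.nonunits := hA
    exact le_of_lt (A.mem_nonunits_iff.mp h)
  -- the coefficients
  have hc : ∀ s₀, (ℓ : K) ^ N / e s₀ s₀ ∈ A := by
    intro s₀
    rw [← A.valuation_le_one_iff, map_div₀, div_le_one₀ ((Valuation.pos_iff _).mpr (he_diag s₀))]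
    calc A.valuation ((ℓ : K) ^ N) = A.valuation (ℓ : K) ^ N := map_pow _ _ _
      _ ≤ A.valuation (ℓ : K) ^ Ns s₀ :=
          valuation_pow_le_of_le A _ hℓle (Finset.le_sup (Finset.mem_univ s₀))
      _ = A.valuation ((ℓ : K) ^ Ns s₀) := (map_pow _ _ _).symm
      _ ≤ _ := hNs s₀
  have hsum : (fun s => (ℓ : K) ^ N * φ s) =
      ∑ s₀, (fun _ : S => φ s₀ * ((ℓ : K) ^ N / e s₀ s₀)) * e s₀ := by
    funext s
    rw [Finset.sum_apply, Finset.sum_eq_single s]
    · show (ℓ : K) ^ N * φ s = φ s * ((ℓ : K) ^ N / e s s) * e s s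
      field_simp [he_diag s]
    · intro s₀ _ hs₀
      show φ s₀ * ((ℓ : K) ^ N / e s₀ s₀) * e s₀ s = 0
      rw [he_off s₀ s (fun h => hs₀ h.symm), mul_zero]
    · intro h
      exact absurd (Finset.mem_univ s) h
  rw [hsum]
  exact T.sum_mem (fun s₀ _ => T.mul_mem (hconst _ (A.mul_mem _ _ (hφ s₀) (hc s₀))) (heT s₀))

include hℓ hA in
/-- **(CL)**: closure under `ℓ`-adic approximation. -/
theorem mem_of_approx (hconst : ∀ a ∈ A, (fun _ : S => a) ∈ T)
    (hval : ∀ g ∈ T, ∀ s, g s ∈ A) (hsep : ∀ s s' : S, s ≠ s' → ∃ g ∈ T, g s ≠ g s')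
    (φ : S → K)
    (happ : ∀ n : ℕ, ∃ ψ ∈ T, ∀ s, ∃ a ∈ A, φ s - ψ s = (ℓ : K) ^ n * a) : φ ∈ T := by
  obtain ⟨N, hN⟩ := exists_conductor ℓ hℓ A hA T hconst hval hsep
  obtain ⟨ψ, hψ, hφψ⟩ := happ N
  choose a ha hφa using hφψ
  have h1 : φ = ψ + fun s => (ℓ : K) ^ N * a s := by
    funext s
    show φ s = ψ s + (ℓ : K) ^ N * a s
    rw [← hφa s]
    ring
  rw [h1]
  exact T.add_mem hψ (hN a ha)

end Conductor

/-- The statement `Stmt_CL` of `Defs.lean`. -/
theorem stmt_CL : Stmt_CL := by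
  intro ℓ hℓ A hA S _ T hconst hval hsep φ happ
  exact mem_of_approx ℓ hℓ A hA T hconst hval hsep φ happ

section Gen

variable {M ι : Type}

lemma const_mem_genRing (A : Subring K) (h : ι → M → K) {a : K} (ha : a ∈ A) :
    (fun _ : M => a) ∈ genRing A h :=
  Subring.subset_closure (Or.inl ⟨a, ha, rfl⟩)

lemma gen_mem_genRing (A : Subring K) (h : ι → M → K) (j : ι) : h j ∈ genRing A h :=
  Subring.subset_closure (Or.inr ⟨j, rfl⟩)

/-- The values of the elements of `genRing` lie in `A`. -/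
lemma genRing_val_mem (A : Subring K) (h : ι → M → K) (hA : ∀ j x, h j x ∈ A)
    {g : M → K} (hg : g ∈ genRing A h) (x : M) : g x ∈ A := by
  induction hg using Subring.closure_induction with
  | mem g hg =>
    rcases hg with ⟨a, ha, rfl⟩ | ⟨j, rfl⟩
    · exact ha
    · exact hA j _
  | zero => exact A.zero_mem
  | one => exact A.one_mem
  | add g g' _ _ hg hg' => exact A.add_mem hg hg'
  | neg g _ hg => exact A.neg_mem hg
  | mul g g' _ _ hg hg' => exact A.mul_mem hg hg'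

/-- **(CL) for `genRing`**. -/
theorem genRing_closed [Finite M] (ℓ : ℕ) (hℓ : ℓ.Prime) (A : ValuationSubring K)
    (hA : A.LiesOverPrime ℓ) (h : ι → M → K) (integral : ∀ j x, h j x ∈ A)
    (separates : ∀ x y, x ≠ y → ∃ j, h j x ≠ h j y) (φ : M → K)
    (happ : ∀ n : ℕ, ∃ ψ ∈ genRing A.toSubring h,
      ∀ x, ∃ a ∈ A, φ x - ψ x = (ℓ : K) ^ n * a) :
    φ ∈ genRing A.toSubring h :=
  mem_of_approx ℓ hℓ A hA (genRing A.toSubring h)
    (fun _ ha => const_mem_genRing A.toSubring h ha)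
    (fun _ hg x => genRing_val_mem A.toSubring h integral hg x)
    (fun x y hxy => by
      obtain ⟨j, hj⟩ := separates x y hxy
      exact ⟨h j, gen_mem_genRing A.toSubring h j, hj⟩) φ happ

/-- The conductor of `genRing`. -/
theorem genRing_conductor [Finite M] (ℓ : ℕ) (hℓ : ℓ.Prime) (A : ValuationSubring K)
    (hA : A.LiesOverPrime ℓ) (h : ι → M → K) (integral : ∀ j x, h j x ∈ A)
    (separates : ∀ x y, x ≠ y → ∃ j, h j x ≠ h j y) :
    ∃ N : ℕ, ∀ φ : M → K, (∀ x, φ x ∈ A) →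
      (fun x => (ℓ : K) ^ N * φ x) ∈ genRing A.toSubring h :=
  exists_conductor ℓ hℓ A hA (genRing A.toSubring h)
    (fun _ ha => const_mem_genRing A.toSubring h ha)
    (fun _ hg x => genRing_val_mem A.toSubring h integral hg x)
    (fun x y hxy => by
      obtain ⟨j, hj⟩ := separates x y hxy
      exact ⟨h j, gen_mem_genRing A.toSubring h j, hj⟩)

/-- **(CL) for `pairRing`**. -/
theorem pairRing_closed [AddCommGroup M] [Finite M] (ℓ : ℕ) (hℓ : ℓ.Prime) (A : ValuationSubring K)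
    (hA : A.LiesOverPrime ℓ) (f : ι → M → K) (integral : ∀ j x, f j x ∈ A)
    (separates : ∀ x y, x ≠ y → ∃ j, f j x ≠ f j y) (φ : M × M → K)
    (happ : ∀ n : ℕ, ∃ ψ ∈ pairRing A.toSubring f,
      ∀ q, ∃ a ∈ A, φ q - ψ q = (ℓ : K) ^ n * a) :
    φ ∈ pairRing A.toSubring f :=
  mem_of_approx ℓ hℓ A hA (pairRing A.toSubring f)
    (fun _ ha => const_mem_pairRing A.toSubring f ha)
    (fun _ hg q => pairRing_val_mem A.toSubring f integral hg q)
    (fun q q' hqq' => by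
      by_cases h1 : q.1 = q'.1
      · have h2 : q.2 ≠ q'.2 := fun h2 => hqq' (Prod.ext h1 h2)
        obtain ⟨j, hj⟩ := separates _ _ h2
        exact ⟨_, snd_mem_pairRing A.toSubring f j, hj⟩
      · obtain ⟨j, hj⟩ := separates _ _ h1
        exact ⟨_, fst_mem_pairRing A.toSubring f j, hj⟩) φ happ

end Gen

end Fermat.Agent.Lib.HopfOrderLoc

end
-- ==== END Fermat.Agent.Lib.HopfOrderLoc.CL

-- ==== BEGIN Fermat.Agent.S15.Desc.H63_BddElem
section

set_option autoImplicit false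

noncomputable section

namespace Fermat.Agent.S15.Desc.H63

local notation "Qbar" => AlgebraicClosure ℚ
local notation "GQ" => (AlgebraicClosure ℚ ≃ₐ[ℚ] AlgebraicClosure ℚ)

open Fermat.Agent.S05.H37

/-! ### Definitions -/

/-- The units of `A` fixed by the inertia group. -/
def unrUnits (A : ValuationSubring Qbar) : Set Qbar :=
  {x | A.valuation x = 1 ∧ ∀ σ ∈ A.inertiaSubgroupIn ℚ, σ x = x}

/-- The `r`-th roots of the unramified units. -/
def unrRoots (r : ℕ) (A : ValuationSubring Qbar) : Set Qbar := {β | β ^ r ∈ unrUnits A}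

/-- The bounded family, finite form: open subgroups containing `I ∩ Fix(T)` for a finite set `T`
of `r`-th roots of unramified units. -/
def bddFin (r : ℕ) (A : ValuationSubring Qbar) : Set (Subgroup GQ) :=
  {H | (∃ S : Finset Qbar, ∀ σ : GQ, (∀ x ∈ S, σ x = x) → σ ∈ H) ∧
    ∃ T : Finset Qbar, (∀ β ∈ T, β ∈ unrRoots r A) ∧
      ∀ σ ∈ A.inertiaSubgroupIn ℚ, (∀ β ∈ T, σ β = β) → σ ∈ H}

/-- The bounded family of `S15_LOCr.md` §1: open subgroups containing
`I' = I ∩ Fix(unrRoots r A)`. -/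
def bddElem (r : ℕ) (A : ValuationSubring Qbar) : Set (Subgroup GQ) :=
  {H | (∃ S : Finset Qbar, ∀ σ : GQ, (∀ x ∈ S, σ x = x) → σ ∈ H) ∧
    ∀ σ ∈ A.inertiaSubgroupIn ℚ, (∀ β ∈ unrRoots r A, σ β = β) → σ ∈ H}

theorem bddFin_subset_bddElem (r : ℕ) (A : ValuationSubring Qbar) :
    bddFin r A ⊆ bddElem r A := by
  rintro H ⟨hS, T, hT, hH⟩
  exact ⟨hS, fun σ hσ hfix => hH σ hσ fun β hβ => hfix β (hT β hβ)⟩

/-! ### Unramified units and their roots -/

section units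

variable {A : ValuationSubring Qbar} {r : ℕ}

theorem unrUnits_ne_zero {x : Qbar} (hx : x ∈ unrUnits A) : x ≠ 0 := by
  rintro rfl
  have := hx.1
  rw [map_zero] at this
  exact zero_ne_one this

theorem one_mem_unrUnits : (1 : Qbar) ∈ unrUnits A :=
  ⟨map_one _, fun σ _ => map_one σ⟩

theorem mul_mem_unrUnits {x y : Qbar} (hx : x ∈ unrUnits A) (hy : y ∈ unrUnits A) :
    x * y ∈ unrUnits A :=
  ⟨by rw [map_mul, hx.1, hy.1, one_mul], fun σ hσ => by rw [map_mul, hx.2 σ hσ, hy.2 σ hσ]⟩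

theorem pow_mem_unrUnits {x : Qbar} (hx : x ∈ unrUnits A) (n : ℕ) : x ^ n ∈ unrUnits A :=
  ⟨by rw [map_pow, hx.1, one_pow], fun σ hσ => by rw [map_pow, hx.2 σ hσ]⟩

theorem prod_mem_unrUnits {ι : Type*} (s : Finset ι) (f : ι → Qbar)
    (h : ∀ i ∈ s, f i ∈ unrUnits A) : ∏ i ∈ s, f i ∈ unrUnits A := by
  classical
  induction s using Finset.induction_on with
  | empty => rw [Finset.prod_empty]; exact one_mem_unrUnits
  | insert i s hi ih =>
    rw [Finset.prod_insert hi]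
    exact mul_mem_unrUnits (h i (Finset.mem_insert_self i s))
      (ih fun j hj => h j (Finset.mem_insert_of_mem hj))

theorem unrRoots_ne_zero (hr : r ≠ 0) {β : Qbar} (hβ : β ∈ unrRoots r A) : β ≠ 0 := by
  rintro rfl
  have h : (0 : Qbar) ^ r ∈ unrUnits A := hβ
  rw [zero_pow hr] at h
  exact unrUnits_ne_zero h rfl

/-- The inertia group maps `unrRoots` to itself. -/
theorem apply_mem_unrRoots {β : Qbar} (hβ : β ∈ unrRoots r A) {σ : GQ}
    (hσ : σ ∈ A.inertiaSubgroupIn ℚ) : σ β ∈ unrRoots r A := by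
  have h : β ^ r ∈ unrUnits A := hβ
  show (σ β) ^ r ∈ unrUnits A
  rw [← map_pow, h.2 σ hσ]
  exact h

/-- `σ β / β` is an `r`-th root of unity. -/
theorem apply_div_pow (hr : r ≠ 0) {β : Qbar} (hβ : β ∈ unrRoots r A) {σ : GQ}
    (hσ : σ ∈ A.inertiaSubgroupIn ℚ) : (σ β / β) ^ r = 1 := by
  have h : β ^ r ∈ unrUnits A := hβ
  rw [div_pow, ← map_pow, h.2 σ hσ]
  exact div_self (pow_ne_zero _ (unrRoots_ne_zero hr hβ))

end units

/-! ### Roots of unity -/

section roots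

variable {r : ℕ} [NeZero r] {ζ : Qbar} (hζ : IsPrimitiveRoot ζ r)

/-- The cyclotomic character modulo `r`. -/
def chi : GQ →* (ZMod r)ˣ := hζ.autToPow ℚ

theorem chi_spec (σ : GQ) : σ ζ = ζ ^ ((chi hζ σ : (ZMod r)ˣ) : ZMod r).val :=
  (hζ.autToPow_spec ℚ σ).symm

/-- The action on all `r`-th roots of unity. -/
theorem apply_root (σ : GQ) {w : Qbar} (hw : w ^ r = 1) :
    σ w = w ^ ((chi hζ σ : (ZMod r)ˣ) : ZMod r).val := by
  obtain ⟨i, -, rfl⟩ := hζ.eq_pow_of_pow_eq_one hw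
  rw [map_pow, chi_spec hζ σ, ← pow_mul, ← pow_mul, mul_comm]

include hζ in
/-- An automorphism fixing `ζ` fixes all `r`-th roots of unity. -/
theorem apply_root_of_fix {σ : GQ} (hσ : σ ζ = ζ) {w : Qbar} (hw : w ^ r = 1) : σ w = w := by
  obtain ⟨i, -, rfl⟩ := hζ.eq_pow_of_pow_eq_one hw
  rw [map_pow, hσ]

theorem chi_eq_one_iff (σ : GQ) : chi hζ σ = 1 ↔ σ ζ = ζ := by
  constructor
  · intro h
    rw [chi_spec hζ σ, h, Units.val_one]
    rcases Nat.lt_or_ge 1 r with h1 | h1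
    · have : Fact (1 < r) := ⟨h1⟩
      rw [ZMod.val_one, pow_one]
    · have hr1 : r = 1 := le_antisymm h1 (Nat.pos_of_ne_zero (NeZero.ne r))
      subst hr1
      have := hζ.pow_eq_one
      rw [pow_one] at this
      rw [this, one_pow]
  · intro h
    have h1 := chi_spec hζ σ
    rw [h] at h1
    have h2 : ζ ^ ((chi hζ σ : (ZMod r)ˣ) : ZMod r).val = ζ ^ 1 := by rw [pow_one]; exact h1.symm
    rcases Nat.lt_or_ge 1 r with hr1 | hr1
    · have h3 := hζ.pow_inj (ZMod.val_lt _) hr1 h2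
      apply Units.ext
      rw [Units.val_one]
      have : ((((chi hζ σ : (ZMod r)ˣ) : ZMod r).val : ℕ) : ZMod r) = ((1 : ℕ) : ZMod r) := by
        rw [h3]
      rwa [ZMod.natCast_zmod_val, Nat.cast_one] at this
    · have hr1' : r = 1 := le_antisymm hr1 (Nat.pos_of_ne_zero (NeZero.ne r))
      subst hr1'
      exact Subsingleton.elim _ _

end roots

/-! ### The cyclotomic character is ramified at `r` -/

section ram

variable (A : ValuationSubring Qbar)

theorem val_root_eq_one {w : Qbar} {n : ℕ} (hn : n ≠ 0) (hw : w ^ n = 1) :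
    A.valuation w = 1 := by
  have h : A.valuation w ^ n = 1 := by rw [← map_pow, hw, map_one]
  rcases lt_trichotomy (A.valuation w) 1 with h1 | h1 | h1
  · exact absurd h (pow_lt_one₀ zero_le h1 hn).ne
  · exact h1
  · exact absurd h (one_lt_pow₀ h1 hn).ne'

theorem val_one_sub_pow_le {w : Qbar} (hw : A.valuation w ≤ 1) (k : ℕ) :
    A.valuation (1 - w ^ k) ≤ A.valuation (1 - w) := by
  rw [← mul_neg_geom_sum w k, map_mul]
  have h1 : A.valuation (∑ i ∈ Finset.range k, w ^ i) ≤ 1 := by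
    apply Valuation.map_sum_le
    intro i _
    rw [map_pow]
    exact pow_le_one₀ zero_le hw
  calc A.valuation (1 - w) * A.valuation (∑ i ∈ Finset.range k, w ^ i)
      ≤ A.valuation (1 - w) * 1 := mul_le_mul_right h1 _
    _ = A.valuation (1 - w) := mul_one _

variable {r : ℕ} (hr : r.Prime) {ζ : Qbar} (hζ : IsPrimitiveRoot ζ r)

include hr hζ in
/-- `|1 - ζ|^(r-1) = |r|`. -/
theorem val_one_sub_zeta_pow : A.valuation (1 - ζ) ^ (r - 1) = A.valuation (r : Qbar) := by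
  obtain ⟨n, rfl⟩ : ∃ n, r = n + 1 := ⟨r - 1, (Nat.succ_pred_eq_of_pos hr.pos).symm⟩
  have hprod := hζ.prod_one_sub_pow_eq_order
  have hζ1 : A.valuation ζ = 1 := val_root_eq_one A hr.ne_zero hζ.pow_eq_one
  have hfac : ∀ k ∈ Finset.range n, A.valuation (1 - ζ ^ (k + 1)) = A.valuation (1 - ζ) := by
    intro k hk
    rw [Finset.mem_range] at hk
    apply le_antisymm (val_one_sub_pow_le A hζ1.le (k + 1))
    have hcop : (k + 1).Coprime (n + 1) := by
      rw [Nat.coprime_comm]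
      exact (Nat.Prime.coprime_iff_not_dvd hr).mpr
        (fun h => absurd (Nat.le_of_dvd (Nat.succ_pos k) h) (by omega))
    obtain ⟨m, -, hm⟩ := Nat.exists_mul_mod_eq_one_of_coprime hcop hr.one_lt
    have hpow : (ζ ^ (k + 1)) ^ m = ζ := by
      rw [← pow_mul, ← Nat.mod_add_div ((k + 1) * m) (n + 1), hm, pow_add, pow_one, pow_mul,
        hζ.pow_eq_one, one_pow, mul_one]
    have h1 : A.valuation (ζ ^ (k + 1)) ≤ 1 := by rw [map_pow, hζ1, one_pow]
    have h2 := val_one_sub_pow_le A h1 m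
    rwa [hpow] at h2
  have h3 : A.valuation (∏ k ∈ Finset.range n, (1 - ζ ^ (k + 1))) = A.valuation (1 - ζ) ^ n := by
    rw [map_prod, Finset.prod_congr rfl hfac, Finset.prod_const, Finset.card_range]
  rw [Nat.add_sub_cancel, ← h3, hprod]
  push_cast
  rfl

include hr hζ in
/-- The inertia group at `r` acts non-trivially on the `r`-th roots of unity, `r` odd. -/
theorem exists_inertia_apply_ne (hr2 : r ≠ 2) (hA : A.LiesOverPrime r) :
    ∃ τ ∈ A.inertiaSubgroupIn ℚ, τ ζ ≠ ζ := by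
  by_contra hcon
  simp only [not_exists, not_and, not_not] at hcon
  have hζ1 : ζ ≠ 1 := hζ.ne_one hr.one_lt
  have hx0 : (1 : Qbar) - ζ ≠ 0 := sub_ne_zero.mpr (Ne.symm hζ1)
  have hfix : ∀ σ ∈ A.inertiaSubgroupIn ℚ, σ (1 - ζ) = 1 - ζ := by
    intro σ hσ
    rw [map_sub, map_one, hcon σ hσ]
  obtain ⟨k, hk⟩ := Fermat.Agent.R.H6.stmt_UnrFix r hr A hA (1 - ζ) hx0 hfix
  have h1 := val_one_sub_zeta_pow A hr hζ
  rw [hk, ← zpow_natCast, ← zpow_mul] at h1
  have h2 : A.valuation (r : Qbar) ^ (k * ((r - 1 : ℕ) : ℤ)) = A.valuation (r : Qbar) ^ (1 : ℤ) := by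
    rw [h1, zpow_one]
  have h3 := H97.zpow_valuation_injective A hr hA h2
  have hr3 : 3 ≤ r := by
    have := hr.two_le
    omega
  have h4 : ((r - 1 : ℕ) : ℤ) ∣ 1 := ⟨k, by rw [mul_comm]; exact h3.symm⟩
  have h5 := Int.le_of_dvd one_pos h4
  have h6 : (2 : ℤ) ≤ ((r - 1 : ℕ) : ℤ) := by
    have : 2 ≤ r - 1 := by omega
    exact_mod_cast this
  omega

end ram

/-! ### (CC0) -/

section cc0

variable (A : ValuationSubring Qbar) {r : ℕ}

/-- Additive functions on `G_ℚ`. -/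
theorem add_fun_one {u : GQ → ZMod r} (hu : ∀ σ τ, u (σ * τ) = u σ + u τ) : u 1 = 0 := by
  have h := hu 1 1
  rw [one_mul] at h
  exact left_eq_add.mp h

theorem add_fun_inv {u : GQ → ZMod r} (hu : ∀ σ τ, u (σ * τ) = u σ + u τ) (σ : GQ) :
    u σ⁻¹ = -u σ := by
  have h := hu σ σ⁻¹
  rw [mul_inv_cancel, add_fun_one hu] at h
  exact eq_neg_of_add_eq_zero_right h.symm

theorem add_fun_pow {u : GQ → ZMod r} (hu : ∀ σ τ, u (σ * τ) = u σ + u τ) (σ : GQ) (n : ℕ) :
    u (σ ^ n) = n * u σ := by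
  induction n with
  | zero => rw [pow_zero, add_fun_one hu, Nat.cast_zero, zero_mul]
  | succ n ih => rw [pow_succ, hu, ih]; push_cast; ring

/-- Powers of an automorphism fixing the roots of unity, on a root of an unramified unit. -/
theorem pow_apply_of_fix {σ : GQ} {β w : Qbar} (hβ : σ β = w * β) (hw : σ w = w) (n : ℕ) :
    (σ ^ n) β = w ^ n * β := by
  induction n with
  | zero => rw [pow_zero, pow_zero, one_mul]; rfl
  | succ n ih =>
    rw [pow_succ', AlgEquiv.mul_apply, ih, map_mul, map_pow, hw, hβ, pow_succ]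
    ring

variable [Fact r.Prime] {ζ : Qbar} (hζ : IsPrimitiveRoot ζ r)

include hζ in
/-- The commutator identity `τ σ τ⁻¹ = σ^m` on roots of unramified units, for `σ` fixing `ζ` and
`τ ζ = ζ^m`. -/
theorem conj_apply {σ τ : GQ} (hσ : σ ∈ A.inertiaSubgroupIn ℚ) (hτ : τ ∈ A.inertiaSubgroupIn ℚ)
    (hσζ : σ ζ = ζ) {β : Qbar} (hβ : β ∈ unrRoots r A) :
    (τ * σ * τ⁻¹) β = (σ ^ ((chi hζ τ : (ZMod r)ˣ) : ZMod r).val) β := by
  have hr0 : r ≠ 0 := (Fact.out : r.Prime).ne_zero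
  have hβ0 : β ≠ 0 := unrRoots_ne_zero hr0 hβ
  set w := σ β / β with hw
  have hwr : w ^ r = 1 := apply_div_pow hr0 hβ hσ
  have hσβ : σ β = w * β := by rw [hw]; field_simp
  have hσw : σ w = w := apply_root_of_fix hζ hσζ hwr
  -- `β' = τ⁻¹ β = w₀ β`
  have hτi : τ⁻¹ ∈ A.inertiaSubgroupIn ℚ := inv_mem hτ
  set w₀ := τ⁻¹ β / β with hw₀
  have hw₀r : w₀ ^ r = 1 := apply_div_pow hr0 hβ hτi
  have hτβ : τ⁻¹ β = w₀ * β := by rw [hw₀]; field_simp
  have hσw₀ : σ w₀ = w₀ := apply_root_of_fix hζ hσζ hw₀r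
  have h1 : σ (τ⁻¹ β) = w * τ⁻¹ β := by
    rw [hτβ, map_mul, hσw₀, hσβ]
    ring
  have h2 : τ (τ⁻¹ β) = β := by
    change (τ * τ⁻¹) β = β
    rw [mul_inv_cancel]
    rfl
  rw [AlgEquiv.mul_apply, AlgEquiv.mul_apply, h1, map_mul, h2, apply_root hζ τ hwr,
    pow_apply_of_fix hσβ hσw]

/-- **(CC0)** for the elementary family: an additive character of `G_ℚ` vanishing on
`I' = I ∩ Fix(unrRoots)` vanishes on the inertia group `I` (`r` odd). -/
theorem cc0_of_vanish (hr2 : r ≠ 2) (hA : A.LiesOverPrime r)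
    (u : GQ → ZMod r) (hu : ∀ σ τ, u (σ * τ) = u σ + u τ)
    (hvan : ∀ σ ∈ A.inertiaSubgroupIn ℚ, (∀ β ∈ unrRoots r A, σ β = β) → u σ = 0) :
    ∀ σ ∈ A.inertiaSubgroupIn ℚ, u σ = 0 := by
  have hr : r.Prime := Fact.out
  have : NeZero r := ⟨hr.ne_zero⟩
  obtain ⟨ζ, hζ⟩ := HasEnoughRootsOfUnity.exists_primitiveRoot Qbar r
  obtain ⟨τ, hτ, hτζ⟩ := exists_inertia_apply_ne A hr hζ hr2 hA
  set m := ((chi hζ τ : (ZMod r)ˣ) : ZMod r).val with hm
  have hm1 : (1 : ZMod r) - (m : ZMod r) ≠ 0 := by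
    rw [hm, ZMod.natCast_zmod_val, sub_ne_zero]
    intro h
    apply hτζ
    rw [← chi_eq_one_iff hζ]
    exact Units.ext h.symm
  -- Step A: automorphisms fixing `ζ`
  have hA' : ∀ σ ∈ A.inertiaSubgroupIn ℚ, σ ζ = ζ → u σ = 0 := by
    intro σ hσ hσζ
    have hc : τ * σ * τ⁻¹ * (σ ^ m)⁻¹ ∈ A.inertiaSubgroupIn ℚ :=
      mul_mem (mul_mem (mul_mem hτ hσ) (inv_mem hτ)) (inv_mem (pow_mem hσ m))
    have hfix : ∀ β ∈ unrRoots r A, (τ * σ * τ⁻¹ * (σ ^ m)⁻¹) β = β := by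
      intro β hβ
      have hβ₁ : (σ ^ m)⁻¹ β ∈ unrRoots r A := apply_mem_unrRoots hβ (inv_mem (pow_mem hσ m))
      have h1 := conj_apply A hζ hσ hτ hσζ hβ₁
      rw [AlgEquiv.mul_apply, h1]
      change ((σ ^ m) * (σ ^ m)⁻¹) β = β
      rw [mul_inv_cancel]
      rfl
    have h0 := hvan _ hc hfix
    rw [hu, hu, hu, add_fun_inv hu, add_fun_inv hu, add_fun_pow hu] at h0
    have h2 : (1 - (m : ZMod r)) * u σ = 0 := by linear_combination h0
    rcases mul_eq_zero.mp h2 with h3 | h3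
    · exact absurd h3 hm1
    · exact h3
  -- Step B: the general case
  intro σ hσ
  have h1 : (σ ^ (r - 1)) ζ = ζ := by
    rw [← chi_eq_one_iff hζ, map_pow]
    exact ZMod.units_pow_card_sub_one_eq_one r _
  have h2 := hA' _ (pow_mem hσ (r - 1)) h1
  rw [add_fun_pow hu] at h2
  have h3 : ((r - 1 : ℕ) : ZMod r) = -1 := by
    rw [Nat.cast_sub hr.one_le, ZMod.natCast_self, Nat.cast_one, zero_sub]
  rw [h3, neg_one_mul, neg_eq_zero] at h2
  exact h2

end cc0

/-! ### Linear algebra: characters vanishing on a common kernel -/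

section comb

variable {G : Type*} [Group G] {r : ℕ}

theorem addChar_one {u : G → ZMod r} (hu : ∀ σ τ, u (σ * τ) = u σ + u τ) : u 1 = 0 := by
  have h := hu 1 1
  rw [one_mul] at h
  exact left_eq_add.mp h

theorem addChar_inv {u : G → ZMod r} (hu : ∀ σ τ, u (σ * τ) = u σ + u τ) (σ : G) :
    u σ⁻¹ = -u σ := by
  have h := hu σ σ⁻¹
  rw [mul_inv_cancel, addChar_one hu] at h
  exact eq_neg_of_add_eq_zero_right h.symm

theorem addChar_pow {u : G → ZMod r} (hu : ∀ σ τ, u (σ * τ) = u σ + u τ) (σ : G) (n : ℕ) :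
    u (σ ^ n) = n * u σ := by
  induction n with
  | zero => rw [pow_zero, addChar_one hu, Nat.cast_zero, zero_mul]
  | succ n ih => rw [pow_succ, hu, ih]; push_cast; ring

/-- If an additive character `k` vanishes on the common kernel (inside a subgroup `P`) of finitely
many additive characters `κ i`, it is a linear combination of them on `P`. -/
theorem exists_comb [Fact r.Prime] {ι : Type*} [DecidableEq ι] (κ : ι → G → ZMod r)
    (hκ : ∀ i σ τ, κ i (σ * τ) = κ i σ + κ i τ) (T : Finset ι) :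
    ∀ (P : Subgroup G) (k : G → ZMod r), (∀ σ τ, k (σ * τ) = k σ + k τ) →
      (∀ σ ∈ P, (∀ i ∈ T, κ i σ = 0) → k σ = 0) →
      ∃ c : ι → ZMod r, ∀ σ ∈ P, k σ = ∑ i ∈ T, c i * κ i σ := by
  induction T using Finset.induction_on with
  | empty =>
    intro P k _ h
    refine ⟨fun _ => 0, fun σ hσ => ?_⟩
    rw [Finset.sum_empty]
    exact h σ hσ (fun i hi => absurd hi (Finset.notMem_empty i))
  | insert i₀ T hi₀ ih =>
    intro P k hk h
    -- the kernel of `κ i₀` inside `P`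
    let P₀ : Subgroup G :=
      { carrier := {σ | σ ∈ P ∧ κ i₀ σ = 0}
        mul_mem' := fun {a b} ha hb => ⟨P.mul_mem ha.1 hb.1, by rw [hκ, ha.2, hb.2, add_zero]⟩
        one_mem' := ⟨P.one_mem, addChar_one (hκ i₀)⟩
        inv_mem' := fun {a} ha => ⟨P.inv_mem ha.1, by rw [addChar_inv (hκ i₀), ha.2, neg_zero]⟩ }
    obtain ⟨c', hc'⟩ := ih P₀ k hk (fun σ hσ hT => h σ hσ.1 (fun i hi => by
      rcases Finset.mem_insert.mp hi with rfl | hi'
      · exact hσ.2
      · exact hT i hi'))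
    -- the difference
    set k' : G → ZMod r := fun σ => k σ - ∑ i ∈ T, c' i * κ i σ with hk'
    have hk'add : ∀ σ τ, k' (σ * τ) = k' σ + k' τ := by
      intro σ τ
      simp only [hk', hk, hκ, mul_add, Finset.sum_add_distrib]
      ring
    have hk'0 : ∀ σ ∈ P₀, k' σ = 0 := by
      intro σ hσ
      simp only [hk']
      rw [hc' σ hσ, sub_self]
    have hupd : ∀ (c₀ : ZMod r) (σ : G),
        ∑ i ∈ insert i₀ T, Function.update c' i₀ c₀ i * κ i σ =
          c₀ * κ i₀ σ + ∑ i ∈ T, c' i * κ i σ := by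
      intro c₀ σ
      rw [Finset.sum_insert hi₀, Function.update_self]
      congr 1
      refine Finset.sum_congr rfl fun i hi => ?_
      have hne : i ≠ i₀ := by
        rintro rfl
        exact hi₀ hi
      rw [Function.update_of_ne hne]
    by_cases hall : ∀ σ ∈ P, κ i₀ σ = 0
    · refine ⟨Function.update c' i₀ 0, fun σ hσ => ?_⟩
      rw [hupd, zero_mul, zero_add]
      have := hk'0 σ ⟨hσ, hall σ hσ⟩
      simp only [hk'] at this
      exact sub_eq_zero.mp this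
    · simp only [not_forall] at hall
      obtain ⟨σ₀, hσ₀, ht⟩ := hall
      set t := κ i₀ σ₀ with htdef
      refine ⟨Function.update c' i₀ (k' σ₀ / t), fun σ hσ => ?_⟩
      rw [hupd]
      set j := (κ i₀ σ / t).val with hj
      have hjc : (j : ZMod r) = κ i₀ σ / t := by
        rw [hj]
        have : NeZero r := ⟨(Fact.out : r.Prime).ne_zero⟩
        exact ZMod.natCast_zmod_val _
      have hmem : σ * (σ₀ ^ j)⁻¹ ∈ P₀ := by
        refine ⟨P.mul_mem hσ (P.inv_mem (P.pow_mem hσ₀ j)), ?_⟩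
        rw [hκ, addChar_inv (hκ i₀), addChar_pow (hκ i₀), hjc, ← htdef, div_mul_cancel₀ _ ht,
          add_neg_cancel]
      have h1 := hk'0 _ hmem
      rw [hk'add, addChar_inv hk'add, addChar_pow hk'add, hjc] at h1
      have h2 : k' σ = k' σ₀ / t * κ i₀ σ := by
        have h3 : k' σ = κ i₀ σ / t * k' σ₀ := by linear_combination h1
        rw [h3]
        field_simp
      simp only [hk'] at h2
      rw [← h2]
      ring

end comb

/-! ### Exponents of roots of unity -/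

section rootExp

variable {r : ℕ} [Fact r.Prime] {ζ : Qbar} (hζ : IsPrimitiveRoot ζ r)

/-- The exponent `e` with `w = ζ^e` of an `r`-th root of unity (junk value `0` otherwise). -/
def rootExp (w : Qbar) : ZMod r :=
  haveI : NeZero r := ⟨(Fact.out : r.Prime).ne_zero⟩
  if h : w ^ r = 1 then ((hζ.eq_pow_of_pow_eq_one h).choose : ZMod r) else 0

theorem rootExp_spec {w : Qbar} (hw : w ^ r = 1) : ζ ^ (rootExp hζ w).val = w := by
  have : NeZero r := ⟨(Fact.out : r.Prime).ne_zero⟩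
  unfold rootExp
  rw [dif_pos hw]
  have h := (hζ.eq_pow_of_pow_eq_one hw).choose_spec
  rw [zpow_val_natCast hζ.pow_eq_one]
  exact h.2

theorem rootExp_mul {w w' : Qbar} (hw : w ^ r = 1) (hw' : w' ^ r = 1) :
    rootExp hζ (w * w') = rootExp hζ w + rootExp hζ w' := by
  apply zpow_val_injective hζ
  rw [rootExp_spec hζ (by rw [mul_pow, hw, hw', one_mul]), zpow_val_add hζ.pow_eq_one,
    rootExp_spec hζ hw, rootExp_spec hζ hw']

theorem rootExp_one : rootExp hζ (1 : Qbar) = 0 := by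
  have h := rootExp_spec hζ (one_pow r : (1 : Qbar) ^ r = 1)
  exact (zpow_val_eq_one_iff hζ).mp h

theorem eq_one_of_rootExp_eq_zero {w : Qbar} (hw : w ^ r = 1) (h : rootExp hζ w = 0) : w = 1 := by
  have h1 := rootExp_spec hζ hw
  rw [h, ZMod.val_zero, pow_zero] at h1
  exact h1.symm

include hζ in
/-- `ζ ^ (Σ a_i b_i) = ∏ (ζ ^ b_i) ^ a_i`. -/
theorem zpow_val_sum {ι : Type*} (T : Finset ι) (a b : ι → ZMod r) :
    ζ ^ (∑ i ∈ T, a i * b i).val = ∏ i ∈ T, (ζ ^ (b i).val) ^ (a i).val := by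
  classical
  induction T using Finset.induction_on with
  | empty => rw [Finset.sum_empty, Finset.prod_empty, ZMod.val_zero, pow_zero]
  | insert i T hi ih =>
    rw [Finset.sum_insert hi, Finset.prod_insert hi, zpow_val_add hζ.pow_eq_one,
      zpow_val_mul hζ.pow_eq_one, ih]

end rootExp

/-! ### (KUM) -/

section kum

variable (A : ValuationSubring Qbar) {r : ℕ}

theorem val_eq_one_of_pow {x : Qbar} {n : ℕ} (hn : n ≠ 0) (h : A.valuation (x ^ n) = 1) :
    A.valuation x = 1 := by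
  rw [map_pow] at h
  rcases lt_trichotomy (A.valuation x) 1 with h1 | h1 | h1
  · exact absurd h (pow_lt_one₀ zero_le h1 hn).ne
  · exact h1
  · exact absurd h (one_lt_pow₀ h1 hn).ne'

theorem val_unrRoots (hr : r ≠ 0) {β : Qbar} (hβ : β ∈ unrRoots r A) : A.valuation β = 1 :=
  val_eq_one_of_pow A hr (show A.valuation (β ^ r) = 1 from hβ.1)

variable [Fact r.Prime]

/-- **Kummer core**: if every element of the inertia group at `r` fixing finitely many `r`-th
roots of unramified units fixes the `r`-th root `γ` of `a ∈ ℚˣ`, then `r ∣ v_r(a)`. -/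
theorem kummer_unit_class (hA : A.LiesOverPrime r) (T : Finset Qbar)
    (hT : ∀ β ∈ T, β ∈ unrRoots r A) (a : ℚ) (ha : a ≠ 0) (γ : Qbar)
    (hγ : γ ^ r = algebraMap ℚ Qbar a)
    (hfix : ∀ σ ∈ A.inertiaSubgroupIn ℚ, (∀ β ∈ T, σ β = β) → σ γ = γ) :
    (r : ℤ) ∣ padicValRat r a := by
  classical
  have hr : r.Prime := Fact.out
  have hr0 : r ≠ 0 := hr.ne_zero
  have : NeZero r := ⟨hr0⟩
  have := H97.qbar_isAlgebraic
  obtain ⟨ζ, hζ⟩ := HasEnoughRootsOfUnity.exists_primitiveRoot Qbar r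
  set I := A.inertiaSubgroupIn ℚ with hI
  set I₁ : Subgroup GQ := I ⊓ (chi hζ).ker with hI₁
  have ha' : algebraMap ℚ Qbar a ≠ 0 := (map_ne_zero (algebraMap ℚ Qbar)).2 ha
  have hγ0 : γ ≠ 0 := by
    rintro rfl
    rw [zero_pow hr0] at hγ
    exact ha' hγ.symm
  have hγr : ∀ σ : GQ, (σ γ / γ) ^ r = 1 := by
    intro σ
    rw [div_pow, ← map_pow, hγ, AlgEquiv.commutes]
    exact div_self ha'
  -- elements of `I₁` fix the roots of unity
  have hfixζ : ∀ σ ∈ I₁, ∀ w : Qbar, w ^ r = 1 → σ w = w := fun σ hσ w hw =>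
    apply_root_of_fix hζ ((chi_eq_one_iff hζ σ).mp (MonoidHom.mem_ker.mp hσ.2)) hw
  -- additivity of the Kummer exponents on `I₁`
  have hadd : ∀ x : Qbar, x ≠ 0 → (∀ σ ∈ I, (σ x / x) ^ r = 1) → ∀ σ τ : ↥I₁,
      rootExp hζ (((σ * τ : ↥I₁) : GQ) x / x) =
        rootExp hζ ((σ : GQ) x / x) + rootExp hζ ((τ : GQ) x / x) := by
    intro x hx0 hx σ τ
    have h1 := hx τ τ.2.1
    have h2 := hx σ σ.2.1
    rw [← rootExp_mul hζ h2 h1]
    congr 1
    have h3 : (σ : GQ) ((τ : GQ) x / x) = (τ : GQ) x / x := hfixζ σ σ.2 _ h1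
    calc ((σ * τ : ↥I₁) : GQ) x / x = (σ : GQ) ((τ : GQ) x) / x := rfl
      _ = (σ : GQ) (((τ : GQ) x / x) * x) / x := by rw [div_mul_cancel₀ _ hx0]
      _ = ((τ : GQ) x / x) * (σ : GQ) x / x := by rw [map_mul, h3]
      _ = (σ : GQ) x / x * ((τ : GQ) x / x) := by ring
  -- the characters
  set κ : Qbar → ↥I₁ → ZMod r := fun β σ =>
    if β ∈ T then rootExp hζ ((σ : GQ) β / β) else 0 with hκdef
  set k : ↥I₁ → ZMod r := fun σ => rootExp hζ ((σ : GQ) γ / γ) with hkdef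
  have hκ : ∀ (β : Qbar) (σ τ : ↥I₁), κ β (σ * τ) = κ β σ + κ β τ := by
    intro β σ τ
    simp only [hκdef]
    split_ifs with hβ
    · exact hadd β (unrRoots_ne_zero hr0 (hT β hβ))
        (fun ρ hρ => apply_div_pow hr0 (hT β hβ) hρ) σ τ
    · rw [add_zero]
  have hk : ∀ σ τ : ↥I₁, k (σ * τ) = k σ + k τ :=
    hadd γ hγ0 (fun ρ _ => hγr ρ)
  obtain ⟨c, hc⟩ := exists_comb κ hκ T ⊤ k hk (by
    intro σ _ hσ
    have h1 : ∀ β ∈ T, (σ : GQ) β = β := by
      intro β hβ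
      have h2 := hσ β hβ
      simp only [hκdef, if_pos hβ] at h2
      have h3 := eq_one_of_rootExp_eq_zero hζ (apply_div_pow hr0 (hT β hβ) σ.2.1) h2
      rw [div_eq_one_iff_eq (unrRoots_ne_zero hr0 (hT β hβ))] at h3
      exact h3
    have h4 := hfix σ σ.2.1 h1
    simp only [hkdef]
    rw [h4, div_self hγ0]
    exact rootExp_one hζ)
  -- the corrected root
  set βstar : Qbar := ∏ β ∈ T, β ^ (c β).val with hβstar
  have hβstar0 : βstar ≠ 0 :=
    Finset.prod_ne_zero_iff.mpr fun β hβ => pow_ne_zero _ (unrRoots_ne_zero hr0 (hT β hβ))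
  have hβstarv : A.valuation βstar = 1 := by
    rw [hβstar, map_prod]
    apply Finset.prod_eq_one
    intro β hβ
    rw [map_pow, val_unrRoots A hr0 (hT β hβ), one_pow]
  set δ : Qbar := γ / βstar with hδ
  have hδ0 : δ ≠ 0 := div_ne_zero hγ0 hβstar0
  have hδv : A.valuation δ = A.valuation γ := by
    rw [hδ, map_div₀, hβstarv, div_one]
  have hδfix : ∀ σ ∈ I₁, σ δ = δ := by
    intro σ hσ
    have h1 := hc ⟨σ, hσ⟩ (Subgroup.mem_top _)
    have h2 : ∑ β ∈ T, c β * κ β ⟨σ, hσ⟩ = ∑ β ∈ T, c β * rootExp hζ (σ β / β) := by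
      refine Finset.sum_congr rfl fun β hβ => ?_
      simp only [hκdef, if_pos hβ]
    rw [h2] at h1
    simp only [hkdef] at h1
    set W : Qbar := ∏ β ∈ T, (σ β / β) ^ (c β).val with hW
    have hW0 : W ≠ 0 := by
      refine Finset.prod_ne_zero_iff.mpr fun β hβ => pow_ne_zero _ ?_
      have hβ0 := unrRoots_ne_zero hr0 (hT β hβ)
      exact div_ne_zero ((map_ne_zero σ).mpr hβ0) hβ0
    have h3 : σ γ / γ = W := by
      rw [← rootExp_spec hζ (hγr σ), h1, zpow_val_sum hζ T]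
      refine Finset.prod_congr rfl fun β hβ => ?_
      rw [rootExp_spec hζ (apply_div_pow hr0 (hT β hβ) hσ.1)]
    have h4 : σ βstar = W * βstar := by
      rw [hβstar, hW, map_prod, ← Finset.prod_mul_distrib]
      refine Finset.prod_congr rfl fun β hβ => ?_
      rw [map_pow, ← mul_pow, div_mul_cancel₀ _ (unrRoots_ne_zero hr0 (hT β hβ))]
    have h5 : σ γ = W * γ := by
      rw [← h3, div_mul_cancel₀ _ hγ0]
    rw [hδ, map_div₀, h4, h5, mul_div_mul_left _ _ hW0]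
  -- representatives of the image of the cyclotomic character on inertia
  set C : Subgroup (ZMod r)ˣ := Subgroup.map (chi hζ) I with hC
  have hrep : ∀ e : ↥C, ∃ τ ∈ I, chi hζ τ = e := fun e => Subgroup.mem_map.mp e.2
  choose rep hrepI hrepχ using hrep
  letI : Fintype ↥C := Fintype.ofFinite _
  set η : Qbar := ∏ e : ↥C, rep e δ with hη
  have hη0 : η ≠ 0 := Finset.prod_ne_zero_iff.mpr fun e _ => (map_ne_zero (rep e)).mpr hδ0
  have hηv : A.valuation η = A.valuation γ ^ Fintype.card ↥C := by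
    rw [hη, map_prod]
    have h1 : ∀ e ∈ (Finset.univ : Finset ↥C), A.valuation (rep e δ) = A.valuation γ := by
      intro e _
      rw [(inertia_facts A (hrepI e)).1 δ, hδv]
    rw [Finset.prod_congr rfl h1, Finset.prod_const, Finset.card_univ]
  have hηfix : ∀ τ ∈ I, τ η = η := by
    intro τ hτ
    have hτC : chi hζ τ ∈ C := Subgroup.mem_map.mpr ⟨τ, hτ, rfl⟩
    have h1 : ∀ e : ↥C, τ (rep e δ) = rep (⟨chi hζ τ, hτC⟩ * e) δ := by
      intro e
      set e' : ↥C := ⟨chi hζ τ, hτC⟩ * e with he'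
      have hg : (rep e')⁻¹ * τ * rep e ∈ I₁ := by
        rw [hI₁]
        refine Subgroup.mem_inf.mpr
          ⟨I.mul_mem (I.mul_mem (I.inv_mem (hrepI e')) hτ) (hrepI e), ?_⟩
        rw [MonoidHom.mem_ker, map_mul, map_mul, map_inv, hrepχ e', hrepχ e, he']
        simp only [Subgroup.coe_mul]
        rw [mul_assoc, inv_mul_cancel]
      have h2 := hδfix _ hg
      have h3 : (rep e') (((rep e')⁻¹ * τ * rep e) δ) = τ (rep e δ) := by
        change ((rep e') * ((rep e')⁻¹ * τ * rep e)) δ = (τ * rep e) δ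
        rw [← mul_assoc, ← mul_assoc, mul_inv_cancel, one_mul]
      rw [← h3, h2]
    rw [hη, map_prod, Finset.prod_congr rfl (fun e _ => h1 e)]
    exact Equiv.prod_comp (Equiv.mulLeft (⟨chi hζ τ, hτC⟩ : ↥C)) (fun e => rep e δ)
  -- the valuation of `η`
  obtain ⟨m, hm⟩ := Fermat.Agent.R.H6.stmt_UnrFix r hr A hA η hη0 hηfix
  set N := Fintype.card ↥C with hN
  have hN1 : 0 < N := Fintype.card_pos
  have hN2 : N < r := by
    have h1 : N ≤ Fintype.card (ZMod r)ˣ := Fintype.card_subtype_le _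
    rw [ZMod.card_units] at h1
    have := hr.one_le
    omega
  have hav := H97.valuation_ratCast_eq_zpow A hr hA a ha
  have h1 : A.valuation γ ^ r = A.valuation (r : Qbar) ^ (padicValRat r a) := by
    rw [← map_pow, hγ, hav]
  have h2 : A.valuation γ ^ N = A.valuation (r : Qbar) ^ m := by
    rw [← hηv, hm]
  have h3 : A.valuation (r : Qbar) ^ (padicValRat r a * (N : ℤ)) =
      A.valuation (r : Qbar) ^ (m * (r : ℤ)) := by
    rw [zpow_mul, zpow_mul, ← h1, ← h2, zpow_natCast, zpow_natCast, ← pow_mul, ← pow_mul,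
      mul_comm]
  have h4 := H97.zpow_valuation_injective A hr hA h3
  have hprime : Prime (r : ℤ) := Nat.prime_iff_prime_int.mp hr
  have h5 : (r : ℤ) ∣ padicValRat r a * (N : ℤ) := ⟨m, by rw [h4]; ring⟩
  rcases hprime.dvd_or_dvd h5 with h6 | h6
  · exact h6
  · exfalso
    have h7 : (r : ℤ) ≤ N := Int.le_of_dvd (by exact_mod_cast hN1) h6
    have h8 : (N : ℤ) < r := by exact_mod_cast hN2
    omega

end kum

/-! ### BASE for the finite form of the elementary family -/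

section base

variable (A : ValuationSubring Qbar) {r : ℕ} [Fact r.Prime]

/-- **BASE for `bddFin`.**  The finite form of the elementary bounded family satisfies the
requirements `IsBddFamily` of `H69_Base.lean` (`r` an odd prime, `A` a place over `r`). -/
theorem isBddFamily_bddFin (hr2 : r ≠ 2) (hA : A.LiesOverPrime r) :
    IsBddFamily r A (bddFin r A) where
  isOpen := fun _ hH => hH.1
  cc0 := by
    rintro u hu ⟨H, ⟨-, T, hT, hH⟩, hvan⟩
    exact cc0_of_vanish A hr2 hA u hu fun σ hσ hfix =>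
      hvan σ (hH σ hσ fun β hβ => hfix β (hT β hβ))
  kum := by
    rintro z - - ⟨H, ⟨-, T, hT, hH⟩, hvan⟩ a γ ha hγ hzγ
    refine kummer_unit_class A hA T hT a ha γ hγ fun σ hσ hfix => ?_
    rw [hzγ σ, hvan σ (hH σ hσ hfix), one_mul]

end base

end Fermat.Agent.S15.Desc.H63

end
end
-- ==== END Fermat.Agent.S15.Desc.H63_BddElem

-- ==== BEGIN Fermat.Agent.S33.H86_Final2
section

/-!
# S33 from `Stmt_FlatPoint` (S32 over discrete valuation rings) and `Stmt_OrdNew` (helper86)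

`Stmt_FlatInf` and hence `Stmt_FlatOrd` (a flat, residually ordinary representation with
ramified residual representation is ordinary) are theorems; the remaining inputs of S33 are
`Stmt_FlatPoint` at level `N / p` (old case) and `Stmt_OrdNew` (new case).
-/

set_option autoImplicit false
set_option linter.style.haveILetI false

open Polynomial IsLocalRing

namespace Fermat.Agent.S33.H86

open Fermat.Agent.R Fermat.Agent.R.H86

/-- **Flat and residually ordinary implies ordinary**, unconditionally. -/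
theorem stmt_FlatOrd : Stmt_FlatOrd := flatOrd_of_flatInf stmt_FlatInf

/-- `Stmt_OrdPoint` from the old case (flatness at level `N / p`) and the new case. -/
theorem ordPoint_of_flatPoint_ordNew (hFP : Stmt_FlatPoint) (hNew : Stmt_OrdNew) :
    Stmt_OrdPoint :=
  ordPoint_of_split hFP stmt_FlatOrd hNew

variable {p : ℕ} {N : ℕ} [NeZero N] {S : Finset ℕ}
  {𝒪 : Type} [CommRing 𝒪] [IsDomain 𝒪] [IsDiscreteValuationRing 𝒪]
  [IsAdicComplete (IsLocalRing.maximalIdeal 𝒪) 𝒪]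
  {θ : CuspForm.heckeAlgebra N 2 (↑S : Set ℕ) →+* IsLocalRing.ResidueField 𝒪}
  {T : Type} [CommRing T] [IsLocalRing T] [IsNoetherianRing T]
  [IsAdicComplete (IsLocalRing.maximalIdeal T) T] [Algebra 𝒪 T] [IsLocalHom (algebraMap 𝒪 T)]
  [Module.Finite 𝒪 T] [Module.Free 𝒪 T]

/-- Frozen S33 from `Stmt_FlatPoint` and `Stmt_OrdNew`. -/
theorem of_flatPoint_ordNew (hFP : Stmt_FlatPoint) (hNew : Stmt_OrdNew)
    [Finite (IsLocalRing.ResidueField 𝒪)] [CharZero 𝒪]
    (hp : p.Prime) (hp2 : p ≠ 2) (hp𝒪 : (p : 𝒪) ∈ IsLocalRing.maximalIdeal 𝒪)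
    (hN : p ∣ N ∧ ¬ p ^ 2 ∣ N)
    (hNS : ∀ q : ℕ, q.Prime → q ∣ N → q ∈ S)
    (H : CuspForm.HeckeGaloisRepDatum N (↑S : Set ℕ) 𝒪 θ T)
    (hres : (GaloisRepAdic.ofResidualGaloisRep H.ρ.residual).IsOrdinaryAt p) :
    H.ρ.IsOrdinaryAt p :=
  of_split hFP stmt_FlatInf hNew hp hp2 hp𝒪 hN hNS H hres

end Fermat.Agent.S33.H86

end
-- ==== END Fermat.Agent.S33.H86_Final2

-- ==== BEGIN Fermat.Agent.S33.New.H51_Desc3
section
attribute [local instance 10000] SubalgebraClass.toAlgebra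
attribute [local instance 10000] HahnSeries.powerSeriesAlgebra

/-!
# S33 leaf L5: descent of the Kummer form of (T3) from level `2 M · 3` to level `M · 3`  (helper51)

`stmt_Desc3 : H86.Stmt_Desc3`.

The function `f ∈ F_{3M}` is seen in `F_{6M}`; the hypotheses transfer:
* Gauss valuation / reduction / divisibility of the divisor: as in `H91.b1core_descend`;
* the norm conditions: `N_{F_{6M} / α F_{2M}} f = N_{F_{3M} / α F_M} f` (and the same for `β`),
  by base change of the norm (`norm_bc_along`: the degrees `4 = [F_{3M} : F_M]` and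
  `3 = [F_{2M} : F_M]` are coprime).
The conclusion descends by Kummer descent (`Stmt_KD`, helper22).
-/

set_option autoImplicit false
set_option linter.style.haveILetI false
set_option linter.unusedSectionVars false
set_option synthInstance.maxHeartbeats 400000
set_option maxHeartbeats 400000

noncomputable section

open HahnSeries IntermediateField AlgebraicCurve ModularCurve
open Fermat.Agent.S28.H73 Fermat.Agent.RED.H73 Fermat.Agent.RED

namespace Fermat.Agent.S33.New.H51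

open Fermat.Agent.BAD Fermat.Agent.S36.H44 Fermat.Agent.S33.New.H86 Fermat.Agent.BAD.H91

local notation "Kb" => AlgebraicClosure ℚ

/-- **L5**: descent of the Kummer form of (T3) from level `2 M · 3` to level `M · 3`. -/
theorem stmt_Desc3 : Stmt_Desc3 := by
  intro M _ _ h2M h3M hbig hp hp2 hpM A hA τ hτ a hζ f hres hdiv hNα hNβ
  have h3M2 : ¬ 3 ∣ 2 * M := by
    intro h
    rcases (Nat.Prime.dvd_mul Nat.prime_three).1 h with h' | h'
    · omega
    · exact h3M h'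
  have hNM : M * 3 ∣ 2 * M * 3 := ⟨2, by ring⟩
  have hM36 : 2 * M * 3 ∣ 36 * (M * 3) := ⟨18, by ring⟩
  have hle : modularFunctionFieldBar (M * 3) ≤ modularFunctionFieldBar (2 * M * 3) :=
    S18.modularFunctionFieldBar_mono hNM
  have hle0 : modularFunctionFieldBar M ≤ modularFunctionFieldBar (2 * M) :=
    S18.modularFunctionFieldBar_mono (Dvd.intro_left 2 rfl)
  have hint : (IntermediateField.inclusion hle).toRingHom.IsIntegral :=
    (H51.stmt_FFB_finite _ _ _ (H95.stmt_HKA_isFF (M * 3)) (H95.stmt_HKA_isFF (2 * M * 3)) _).1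
  set φ : ↥(FNbar (M * 3)) →ₐ[AlgebraicClosure ℚ] ↥(FNbar (2 * M * 3)) :=
    IntermediateField.inclusion hle with hφdef
  set ι : ↥(FNbar M) →ₐ[AlgebraicClosure ℚ] ↥(FNbar (2 * M)) :=
    IntermediateField.inclusion hle0 with hιdef
  set f' : ↥(FNbar (2 * M * 3)) := φ (f : ↥(FNbar (M * 3))) with hf'
  have hcoe : ((f' : ↥(FNbar (2 * M * 3))) : LaurentSeries (AlgebraicClosure ℚ))
      = ((f : ↥(FNbar (M * 3))) : LaurentSeries (AlgebraicClosure ℚ)) :=
    IntermediateField.coe_inclusion hle (f : ↥(FNbar (M * 3)))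
  have hfV : ((f : ↥(FNbar (M * 3))) : LaurentSeries (AlgebraicClosure ℚ)) ∈ gaussRingV A :=
    (mem_gaussValSub_iff A (hasScale_laurentBaseChange A (M * 3)) _).mp f.2
  have hf'V : f' ∈ gaussV A (2 * M * 3) := by
    show ((f' : ↥(FNbar (2 * M * 3))) : LaurentSeries (AlgebraicClosure ℚ)) ∈ gaussRingV A
    rw [hcoe]
    exact hfV
  have hres' : gaussRes A (2 * M * 3) ⟨f', hf'V⟩ = 1 := by
    apply Subtype.ext
    have e1 : gaussResF A (hasScale_laurentBaseChange A (M * 3)) f = 1 :=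
      congrArg Subtype.val hres
    rw [gaussResF_apply] at e1
    show gaussResF A (hasScale_laurentBaseChange A (2 * M * 3)) ⟨f', hf'V⟩ = 1
    rw [gaussResF_apply, ← e1]
    congr 1
  have hdiv' : ∀ P' : Place (AlgebraicClosure ℚ) ↥(FNbar (2 * M * 3)),
      ((3 : ℕ) : ℤ) ∣ P'.ord f' := by
    intro P'
    letI := algebraAlong φ
    haveI := isScalarTower_along φ
    haveI := isIntegral_along φ hint
    have h1 := P'.ord_restrict (F := ↥(FNbar (M * 3))) (f : ↥(FNbar (M * 3)))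
    have h2 : f' = algebraMap ↥(FNbar (M * 3)) ↥(FNbar (2 * M * 3)) (f : ↥(FNbar (M * 3))) := rfl
    rw [h2, h1]
    exact Dvd.dvd.mul_left (hdiv _) _
  -- the norm conditions
  have hNα' : IsNormPow (heckeAlphaBar Kb (2 * M) 3) 3 f' := by
    refine isNormPow_bc (heckeAlphaBar Kb M 3) (heckeAlphaBar Kb (2 * M) 3) ι φ ?_ 4 3
      (by norm_num) (by norm_num) (by norm_num) ?_ ?_ ?_ 3 _ hNα
    · exact incl_comm_alpha M hle hle0
    · exact Fermat.Agent.RED.H95.finrankAlong_alpha Nat.prime_three h3M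
    · exact finrankAlong_incl_two M h2M hle0
    · exact Fermat.Agent.RED.H95.finrankAlong_alpha Nat.prime_three h3M2
  have hNβ' : IsNormPow (heckeBetaBar Kb (2 * M) 3) 3 f' := by
    refine isNormPow_bc (heckeBetaBar Kb M 3) (heckeBetaBar Kb (2 * M) 3) ι φ ?_ 4 3
      (by norm_num) (by norm_num) (by norm_num) ?_ ?_ ?_ 3 _ hNβ
    · exact incl_comm_beta M hle hle0
    · exact Fermat.Agent.RED.H95.finrankAlong_beta Nat.prime_three h3M
    · exact finrankAlong_incl_two M h2M hle0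
    · exact Fermat.Agent.RED.H95.finrankAlong_beta Nat.prime_three h3M2
  obtain ⟨t, ht⟩ := hbig hp hp2 h3M2 A hA τ hτ a hζ ⟨f', hf'V⟩ hres' hdiv' hNα' hNβ'
  -- the quotient `τ f / f ^ a` at level `M * 3`
  have hf0 : ((f : ↥(gaussV A (M * 3))) : ↥(FNbar (M * 3))) ≠ 0 := by
    intro h0
    have e : f = 0 := Subtype.ext h0
    rw [e, map_zero] at hres
    exact zero_ne_one hres
  have hσf0 : galF (M * 3) τ • ((f : ↥(gaussV A (M * 3))) : ↥(FNbar (M * 3))) ≠ 0 := by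
    intro h0
    apply hf0
    have h1 := congrArg (fun z => (galF (M * 3) τ)⁻¹ • z) h0
    simp only [inv_smul_smul, smul_zero] at h1
    exact h1
  have hfa0 : ((f : ↥(gaussV A (M * 3))) : ↥(FNbar (M * 3))) ^ a ≠ 0 := pow_ne_zero _ hf0
  have hdivg : ∀ P : Place (AlgebraicClosure ℚ) ↥(FNbar (M * 3)),
      ((3 : ℕ) : ℤ) ∣ P.ord ((galF (M * 3) τ • ((f : ↥(gaussV A (M * 3))) : ↥(FNbar (M * 3))))
        / ((f : ↥(gaussV A (M * 3))) : ↥(FNbar (M * 3))) ^ a) := by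
    intro P
    have h2 : P.ord (((f : ↥(gaussV A (M * 3))) : ↥(FNbar (M * 3))) ^ a)
        = (a : ℤ) * P.ord ((f : ↥(gaussV A (M * 3))) : ↥(FNbar (M * 3))) := by
      have := Place.ord_zpow P ((f : ↥(gaussV A (M * 3))) : ↥(FNbar (M * 3))) (a : ℤ)
      rw [zpow_natCast] at this
      exact this
    rw [div_eq_mul_inv, Place.ord_mul _ hσf0 (inv_ne_zero hfa0), Place.ord_inv, ord_galF_smul, h2]
    exact dvd_add (hdiv _) ((dvd_neg).2 (Dvd.dvd.mul_left (hdiv _) _))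
  refine Fermat.Agent.RED.KD.H22.stmt_KD (M * 3) (2 * M * 3) 3 hNM hM36 (by norm_num) _ hdivg
    ⟨(t : LaurentSeries (AlgebraicClosure ℚ)), t.2, ?_⟩
  have h3 := congrArg (Subtype.val : ↥(FNbar (2 * M * 3)) → LaurentSeries (AlgebraicClosure ℚ)) ht
  have h4 : ((t : ↥(FNbar (2 * M * 3))) : LaurentSeries (AlgebraicClosure ℚ)) ^ 3
      = ((galF (2 * M * 3) τ • f' : ↥(FNbar (2 * M * 3))) : LaurentSeries (AlgebraicClosure ℚ))
        / ((f' : ↥(FNbar (2 * M * 3))) : LaurentSeries (AlgebraicClosure ℚ)) ^ a := h3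
  rw [h4]
  show ((galF (2 * M * 3) τ • f' : ↥(FNbar (2 * M * 3))) : LaurentSeries (AlgebraicClosure ℚ))
      / ((f' : ↥(FNbar (2 * M * 3))) : LaurentSeries (AlgebraicClosure ℚ)) ^ a
    = ((galF (M * 3) τ • ((f : ↥(gaussV A (M * 3))) : ↥(FNbar (M * 3))) : ↥(FNbar (M * 3))) :
        LaurentSeries (AlgebraicClosure ℚ))
      / (((f : ↥(gaussV A (M * 3))) : ↥(FNbar (M * 3))) : LaurentSeries (AlgebraicClosure ℚ)) ^ a
  rw [coe_arithmeticGalois_smul, coe_arithmeticGalois_smul, hcoe]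

end Fermat.Agent.S33.New.H51

end
end
-- ==== END Fermat.Agent.S33.New.H51_Desc3
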