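-- GENERATED (merged mirror, NOTES/tools/trim/merge3_helper67.py): 6 modules of the originals, bodies verbatim.
import Fermat.Prelude.Def_ModularCurve_ArithmeticGalois
import Fermat.Prelude.Def_FLTPrelim_Ramification
import Fermat.Agent.Zm.S33_L03_000
import Fermat.Agent.FL.Defs3
import Fermat.Agent.Zm.S35_L04_002
import Fermat.Agent.Zm.S33_L03_002
import Fermat.Agent.Zm.S33_L02_001
import Fermat.Agent.FL.Defs
import Fermat.Agent.Zm.S35_L03_001

-- ==== BEGIN Fermat.Agent.BAD.H28_NodeRad4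
section

/-!
# Item 65 (helper28): NODE-RAD, part 4 — corollaries for functions without zero on the annulus

* `SSD.nodeRad_zeroFree` (**F1**) : `t` a coordinate of thickness `ϖ` at the node `s`, `g` without
  zero or pole on the fibre of `s`, `c₁ g` a Gauss unit of `V₁`, `c₂ g` a Gauss unit of `V₂`:
  `c₁ / (c₂ ϖ ^ m)` is a unit constant, `m = ord_{s.1} (rd₁ (c₁ g))`.
* `SSD.nodeRad_div_pow` : the form used for Kummer functions: `f / G ^ n` without zero or pole on
  the fibre of `s`; then `(c₁ / c₂) / ((d₁ / d₂) ^ n ϖ ^ m')` is a unit, where `c_i f`, `d_i G` are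
  Gauss units and `m' = ord_{s.1} (rd₁ (c₁ f)) - n · ord_{s.1} (rd₁ (d₁ G))`.
* `SSD.isCU_of_zeroFree_unit` : the same without coordinate, with a function `U` without zero on
  the fibre, of slope `a`: `(c₁ / c₂) ^ a / ϖ_U ^ m` is a unit.
-/

set_option autoImplicit false
set_option linter.style.haveILetI false

noncomputable section

open AlgebraicCurve

attribute [local instance] Classical.propDecidable

namespace Fermat.Agent.BAD

open Fermat.Agent.RED.H17 Fermat.Agent.RED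

namespace SSD

variable {K F k F₁ F₂ : Type*} [Field K] [Field F] [Algebra K F] [Field k] [Field F₁]
  [Algebra k F₁] [Field F₂] [Algebra k F₂] (S : SSD K F k F₁ F₂)

/-- **F1**: NODE-RAD for a function without zero or pole on the fibre of `s`. -/
theorem nodeRad_zeroFree (hP : HasPrincipalDivisors K F) (hdeg : ∀ v : Place K F, v.deg = 1)
    {s : Place k F₁ × Place k F₂} (hs : s ∈ S.nodes) {t : F} {ϖ : K}
    (ht : S.IsAnnCoord s t ϖ) {g : F} {c₁ c₂ : K}
    (h₁ : S.c₁.IsGU (algebraMap K F c₁ * g)) (h₂ : S.c₂.IsGU (algebraMap K F c₂ * g))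
    (h0 : ∀ P, S.c₁.r P = some s.1 → P.ord g = 0) :
    S.IsCU (c₁ / (c₂ * ϖ ^ s.1.ord (S.c₁.rd (algebraMap K F c₁ * g)))) := by
  obtain ⟨τ, hτ⟩ := ht.exists_values hdeg
  have h := S.nodeRad hP hs ht τ hτ h₁ h₂ ∅ (fun P => by
    constructor
    · intro hP'
      exact absurd hP' (Finset.notMem_empty P)
    · rintro ⟨hPs, hne⟩
      exact absurd (h0 P hPs) hne)
  rwa [Finset.prod_empty, mul_one] at h

/-- NODE-RAD for `f / G ^ n` without zero or pole on the fibre of `s`. -/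
theorem nodeRad_div_pow (hP : HasPrincipalDivisors K F) (hdeg : ∀ v : Place K F, v.deg = 1)
    {s : Place k F₁ × Place k F₂} (hs : s ∈ S.nodes) {t : F} {ϖ : K}
    (ht : S.IsAnnCoord s t ϖ) {f G : F} {c₁ c₂ d₁ d₂ : K} (n : ℕ)
    (h₁ : S.c₁.IsGU (algebraMap K F c₁ * f)) (h₂ : S.c₂.IsGU (algebraMap K F c₂ * f))
    (g₁ : S.c₁.IsGU (algebraMap K F d₁ * G)) (g₂ : S.c₂.IsGU (algebraMap K F d₂ * G))
    (h0 : ∀ P, S.c₁.r P = some s.1 → P.ord f = n * P.ord G) :
    S.IsCU (c₁ / c₂ / ((d₁ / d₂) ^ n *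
      ϖ ^ (s.1.ord (S.c₁.rd (algebraMap K F c₁ * f)) -
        n * s.1.ord (S.c₁.rd (algebraMap K F d₁ * G))))) := by
  have hf : f ≠ 0 := by
    rintro rfl
    exact h₁.ne_zero (mul_zero _)
  have hG : G ≠ 0 := by
    rintro rfl
    exact g₁.ne_zero (mul_zero _)
  have hc₂ : c₂ ≠ 0 := by
    rintro rfl
    exact h₂.ne_zero (by rw [map_zero, zero_mul])
  have hd₁ : d₁ ≠ 0 := by
    rintro rfl
    exact g₁.ne_zero (by rw [map_zero, zero_mul])
  have hd₂ : d₂ ≠ 0 := by
    rintro rfl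
    exact g₂.ne_zero (by rw [map_zero, zero_mul])
  have hd₁F : algebraMap K F d₁ ≠ 0 := (map_ne_zero_iff _ (algebraMap K F).injective).mpr hd₁
  have hd₂F : algebraMap K F d₂ ≠ 0 := (map_ne_zero_iff _ (algebraMap K F).injective).mpr hd₂
  have e₁ : algebraMap K F (c₁ / d₁ ^ n) * (f / G ^ n) =
      algebraMap K F c₁ * f / (algebraMap K F d₁ * G) ^ n := by
    rw [map_div₀, map_pow, mul_pow]
    field_simp
  have e₂ : algebraMap K F (c₂ / d₂ ^ n) * (f / G ^ n) =
      algebraMap K F c₂ * f / (algebraMap K F d₂ * G) ^ n := by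
    rw [map_div₀, map_pow, mul_pow]
    field_simp
  have k₁ : S.c₁.IsGU (algebraMap K F (c₁ / d₁ ^ n) * (f / G ^ n)) := by
    rw [e₁]
    exact h₁.div (g₁.pow n)
  have k₂ : S.c₂.IsGU (algebraMap K F (c₂ / d₂ ^ n) * (f / G ^ n)) := by
    rw [e₂]
    exact h₂.div (g₂.pow n)
  have hz : ∀ P, S.c₁.r P = some s.1 → P.ord (f / G ^ n) = 0 := by
    intro P hPs
    rw [ord_div P hf (pow_ne_zero _ hG), ord_pow, h0 P hPs, sub_self]
  have h := S.nodeRad_zeroFree hP hdeg hs ht k₁ k₂ hz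
  have hord : s.1.ord (S.c₁.rd (algebraMap K F (c₁ / d₁ ^ n) * (f / G ^ n))) =
      s.1.ord (S.c₁.rd (algebraMap K F c₁ * f)) -
        n * s.1.ord (S.c₁.rd (algebraMap K F d₁ * G)) := by
    rw [e₁, h₁.rd_div (g₁.pow n), ord_div s.1 h₁.2 (g₁.pow n).2, S.c₁.rd_pow g₁.1, ord_pow]
  rw [hord] at h
  have heq : c₁ / d₁ ^ n / (c₂ / d₂ ^ n * ϖ ^ (s.1.ord (S.c₁.rd (algebraMap K F c₁ * f)) -
      n * s.1.ord (S.c₁.rd (algebraMap K F d₁ * G)))) =
      c₁ / c₂ / ((d₁ / d₂) ^ n * ϖ ^ (s.1.ord (S.c₁.rd (algebraMap K F c₁ * f)) -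
        n * s.1.ord (S.c₁.rd (algebraMap K F d₁ * G)))) := by
    have hw : ϖ ^ (s.1.ord (S.c₁.rd (algebraMap K F c₁ * f)) -
        n * s.1.ord (S.c₁.rd (algebraMap K F d₁ * G))) ≠ 0 := zpow_ne_zero _ ht.ϖ_ne_zero
    rw [div_pow]
    field_simp
  rw [← heq]
  exact h

/-- The coordinate-free form: `U` without zero or pole on the fibre of `s`, `|U|₁ = 1`,
`|U|₂ = |ϖ_U|`, of slope `a = ord_{s.1} (rd₁ U)`; `g` without zero or pole on the fibre, of
slope `m`.  Then `(c₁ / c₂) ^ a / ϖ_U ^ m` is a unit (for `a`, `m ≥ 0`; in general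
`(c₁ / c₂) ^ a * ϖ_U ^ m'` with `m = -m'`). -/
theorem isCU_of_zeroFree_unit (hP : HasPrincipalDivisors K F) {s : Place k F₁ × Place k F₂}
    (hs : s ∈ S.nodes) {U : F} {ϖU : K} (hU₁ : S.c₁.IsGU U)
    (hU₂ : S.c₂.IsGU (U / algebraMap K F ϖU))
    (hUfib : ∀ P, S.c₁.r P = some s.1 → P.ord U = 0) {g : F} {c₁ c₂ : K}
    (h₁ : S.c₁.IsGU (algebraMap K F c₁ * g)) (h₂ : S.c₂.IsGU (algebraMap K F c₂ * g))
    (h0 : ∀ P, S.c₁.r P = some s.1 → P.ord g = 0) :
    S.IsCU ((c₁ / c₂) ^ s.1.ord (S.c₁.rd U) /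
      ϖU ^ s.1.ord (S.c₁.rd (algebraMap K F c₁ * g))) := by
  have hg : g ≠ 0 := by
    rintro rfl
    exact h₁.ne_zero (mul_zero _)
  have hc₁ : c₁ ≠ 0 := by
    rintro rfl
    exact h₁.ne_zero (by rw [map_zero, zero_mul])
  have hc₂ : c₂ ≠ 0 := by
    rintro rfl
    exact h₂.ne_zero (by rw [map_zero, zero_mul])
  have hc₁F : algebraMap K F c₁ ≠ 0 := (map_ne_zero_iff _ (algebraMap K F).injective).mpr hc₁
  have hc₂F : algebraMap K F c₂ ≠ 0 := (map_ne_zero_iff _ (algebraMap K F).injective).mpr hc₂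
  have hϖU0 : algebraMap K F ϖU ≠ 0 := by
    intro h0'
    have := hU₂.ne_zero
    rw [h0', div_zero] at this
    exact this rfl
  have hϖU : ϖU ≠ 0 := fun h => hϖU0 (by rw [h, map_zero])
  have hU0 := hU₁.ne_zero
  obtain ⟨a, ha⟩ : ∃ a : ℤ, a = s.1.ord (S.c₁.rd U) := ⟨_, rfl⟩
  obtain ⟨m, hm⟩ : ∃ m : ℤ, m = s.1.ord (S.c₁.rd (algebraMap K F c₁ * g)) := ⟨_, rfl⟩
  rw [← ha, ← hm]
  -- `φ = (c₁ g) ^ a / U ^ m`
  have hφ : S.c₁.IsGU ((algebraMap K F c₁ * g) ^ a / U ^ m) := (h₁.zpow a).div (hU₁.zpow m)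
  have hψ : S.c₂.IsGU ((algebraMap K F c₂ * g) ^ a / (U / algebraMap K F ϖU) ^ m) :=
    (h₂.zpow a).div (hU₂.zpow m)
  have hψeq : (algebraMap K F c₂ * g) ^ a / (U / algebraMap K F ϖU) ^ m =
      algebraMap K F ((c₂ / c₁) ^ a * ϖU ^ m) * ((algebraMap K F c₁ * g) ^ a / U ^ m) := by
    rw [map_mul, map_zpow₀, map_zpow₀, map_div₀, div_zpow, div_zpow, mul_zpow, mul_zpow]
    have h1 : algebraMap K F c₁ ^ a ≠ 0 := zpow_ne_zero _ hc₁F
    have h2 : algebraMap K F ϖU ^ m ≠ 0 := zpow_ne_zero _ hϖU0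
    have h3 : U ^ m ≠ 0 := zpow_ne_zero _ hU0
    have h4 : g ^ a ≠ 0 := zpow_ne_zero _ hg
    field_simp
  rw [hψeq] at hψ
  have hφord : s.1.ord (S.c₁.rd ((algebraMap K F c₁ * g) ^ a / U ^ m)) = 0 := by
    rw [(h₁.zpow a).rd_div (hU₁.zpow m), ord_div s.1 (h₁.zpow a).2 (hU₁.zpow m).2,
      h₁.rd_zpow, hU₁.rd_zpow, Place.ord_zpow, Place.ord_zpow, ← ha, ← hm]
    ring
  have hφfib : ∀ P, S.c₁.r P = some s.1 →
      P.ord ((algebraMap K F c₁ * g) ^ a / U ^ m) = 0 := by
    intro P hPs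
    rw [ord_div P (zpow_ne_zero _ h₁.ne_zero) (zpow_ne_zero _ hU0), Place.ord_zpow,
      Place.ord_zpow, ord_algebraMap_mul P hc₁, h0 P hPs, hUfib P hPs]
    ring
  have hCU := S.isCU_of_node hP hs hφ hψ hφfib hφord
  have heq : (c₁ / c₂) ^ a / ϖU ^ m = ((c₂ / c₁) ^ a * ϖU ^ m)⁻¹ := by
    rw [mul_inv, ← inv_zpow, inv_div, div_eq_mul_inv]
  rw [heq]
  exact hCU.inv

end SSD

end Fermat.Agent.BAD

end
end
-- ==== END Fermat.Agent.BAD.H28_NodeRad4

-- ==== BEGIN Fermat.Agent.BADP.H18_NSStep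
section

/-!
# S33 NEW, package G4' (NS-STEP, one step) (helper18)

Plan: `NOTES/plan/R_S33_NEW.md` (G4) in helper86's one-step form (leaf (C) of helper86's note).

Setting: `S : SSD K F k F₁ F₂`, `char k = p`, `k` perfect, `(A₁, A₂)` non-special (`S.IsNS`),
coordinates `s Q` on the discs (`S.KeyHyp`).

* `leading_pth` : **the leading-term lemma.**  If `φ ∈ V₁ ∩ V₂` is regular outside the discs of
  `A₁ ∪ A₂`, has poles of order at most `p` on the discs (`s ^ p φ` regular), vanishes at a place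
  `P∞` over a good point `Q∞ ∉ A₁` and its two reductions are `p`-th powers, then both reductions
  vanish.
* `nsStep_gen` : `f ≡ 1` for both valuations in the position of the nodal key lemma with
  exponent `p`.  If for every scaling `(f - 1) / c₀` of depth smaller than the depth of `ϖ` the
  two reductions are `p`-th powers, then `(f - 1) / ϖ ∈ V₁ ∩ V₂`.
* `nsStep` : **NS-STEP** in the form of helper86's (C): with `ϖ = p π`, `π ^ (p - 1) / p` a unit,
  and the hypotheses (PW₁), (PW₂) stated with the depth condition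
  `v(p) ^ p < v(c₀) ^ (p - 1)`, i.e. `S.IsCM (p ^ p / c₀ ^ (p - 1))`.
-/

set_option autoImplicit false
set_option linter.style.haveILetI false
set_option maxHeartbeats 1000000

noncomputable section

open AlgebraicCurve

attribute [local instance] Classical.propDecidable

namespace Fermat.Agent.BADP.H18

open Fermat.Agent.BAD Fermat.Agent.RED.H17 Fermat.Agent.RED

local notation "L" => riemannRochSpace

section PthRoot

variable {k F' : Type*} [Field k] [Field F'] [Algebra k F']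

theorem regAt_of_pow {v : Place k F'} {x : F'} {n : ℕ} (hn : n ≠ 0) (h : RegAt v (x ^ n)) :
    RegAt v x := by
  unfold RegAt at h ⊢
  rw [map_pow] at h
  exact (pow_le_one_iff_of_nonneg zero_le hn).1 h

theorem vanAt_of_pow {v : Place k F'} {x : F'} {n : ℕ} (h : VanAt v (x ^ n)) :
    VanAt v x := by
  unfold VanAt at h ⊢
  rw [map_pow] at h
  by_contra hx
  push Not at hx
  exact absurd h (not_lt.2 (one_le_pow₀ hx))

/-- `-n ≤ ord (x ^ n)` implies `-1 ≤ ord x`. -/
theorem ord_ge_neg_one_of_pow {v : Place k F'} {x : F'} {n : ℕ} (hn : 0 < n)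
    (h : -(n : ℤ) ≤ v.ord (x ^ n)) : -1 ≤ v.ord x := by
  rw [Fermat.Agent.RED.H17.ord_pow] at h
  by_contra hlt
  push Not at hlt
  have h1 : v.ord x ≤ -2 := by omega
  have h3 : (0 : ℤ) < n := by exact_mod_cast hn
  nlinarith

end PthRoot

section Main

variable {K F k F₁ F₂ : Type} [Field K] [Field F] [Algebra K F] [Field k] [Field F₁]
  [Algebra k F₁] [Field F₂] [Algebra k F₂]

/-- **The leading-term lemma.** -/
theorem leading_pth (S : SSD K F k F₁ F₂) (H : FFHyp K F)
    (p : ℕ) (hp : p.Prime) [CharP k p] (hk : ∀ e : k, ∃ e' : k, e' ^ p = e)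
    (A₁ : Finset (Place k F₁)) (A₂ : Finset (Place k F₂)) (hNS : S.IsNS A₁ A₂)
    (s₁ : Place k F₁ → F) (s₂ : Place k F₂ → F) (hK : S.KeyHyp A₁ A₂ s₁ s₂)
    (φ : F) (hφ₁ : φ ∈ S.c₁.V) (hφ₂ : φ ∈ S.c₂.V)
    (ψ₁ : F₁) (ψ₂ : F₂) (hψ₁ : S.c₁.rd φ = ψ₁ ^ p) (hψ₂ : S.c₂.rd φ = ψ₂ ^ p)
    (Pinf : Place K F) (Qinf : Place k F₁) (hQinfg : Qinf ∈ S.c₁.good) (hQinfA : Qinf ∉ A₁)
    (hPinf : S.c₁.r Pinf = some Qinf) (hφinf : VanAt Pinf φ)
    (hreg : ∀ P, (∀ Q ∈ A₁, S.c₁.r P ≠ some Q) → (∀ Q ∈ A₂, S.c₂.r P ≠ some Q) →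
      0 ≤ P.ord φ)
    (hpole₁ : ∀ Q ∈ A₁, ∀ P, S.c₁.r P = some Q → 0 ≤ P.ord (s₁ Q ^ p * φ))
    (hpole₂ : ∀ Q ∈ A₂, ∀ P, S.c₂.r P = some Q → 0 ≤ P.ord (s₂ Q ^ p * φ)) :
    S.c₁.rd φ = 0 ∧ S.c₂.rd φ = 0 := by
  have hP := H.principal
  have hp0 : p ≠ 0 := hp.ne_zero
  haveI : Fact p.Prime := ⟨hp⟩
  haveI : CharP F₁ p := charP_of_injective_algebraMap (algebraMap k F₁).injective p
  haveI : CharP F₂ p := charP_of_injective_algebraMap (algebraMap k F₂).injective p
  -- gluing of `φ` at the nodes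
  have hglue : ∀ t ∈ S.nodes, ∃ e : k, VanAt t.1 (S.c₁.rd φ - algebraMap k F₁ e) ∧
      VanAt t.2 (S.c₂.rd φ - algebraMap k F₂ e) := by
    intro t ht
    have hreg' : ∀ P, S.c₁.r P = some t.1 → 0 ≤ P.ord φ := fun P hPt =>
      hreg P (hK.off_of_node ht hPt).1 (hK.off_of_node ht hPt).2
    obtain ⟨e, he1, he2⟩ := S.glue t ht φ hφ₁ hφ₂ hreg'
    rw [← S.c₁.rd_of_mem hφ₁] at he1
    rw [← S.c₂.rd_of_mem hφ₂] at he2
    exact ⟨e, he1, he2⟩
  -- gluing of `ψ` at the nodes
  have hglueψ : ∀ t ∈ S.nodes, ∃ e : k, VanAt t.1 (ψ₁ - algebraMap k F₁ e) ∧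
      VanAt t.2 (ψ₂ - algebraMap k F₂ e) := by
    intro t ht
    obtain ⟨e', he1, he2⟩ := hglue t ht
    obtain ⟨e, rfl⟩ := hk e'
    refine ⟨e, ?_, ?_⟩
    · apply vanAt_of_pow (n := p)
      rw [sub_pow_char, ← map_pow, ← hψ₁]
      exact he1
    · apply vanAt_of_pow (n := p)
      rw [sub_pow_char, ← map_pow, ← hψ₂]
      exact he2
  -- `ψ_i ∈ L(A_i)`
  have hψL₁ : ψ₁ ∈ L (ptsDiv A₁) := by
    rw [mem_L_iff_ord]
    intro v
    by_cases hψ0 : ψ₁ = 0
    · exact Or.inl hψ0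
    right
    by_cases hv : v ∈ A₁
    · rw [ptsDiv_apply, if_pos hv]
      have hsGU := (hK.hs₁ v hv).1.isGU
      have hmem : s₁ v ^ p * φ ∈ S.c₁.V := S.c₁.V.mul_mem _ _ (S.c₁.V.pow_mem hsGU.1 p) hφ₁
      have h1 : RegAt v (S.c₁.rd (s₁ v ^ p * φ)) :=
        S.c₁.regAt_rd hP hmem (hK.good₁ hv) (hpole₁ v hv)
      rw [S.c₁.rd_mul (S.c₁.V.pow_mem hsGU.1 p) hφ₁, S.c₁.rd_pow hsGU.1, hψ₁, ← mul_pow] at h1
      have h2 : RegAt v (S.c₁.rd (s₁ v) * ψ₁) := regAt_of_pow hp0 h1
      have h3 := h2.ord_nonneg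
      rw [Place.ord_mul v hsGU.2 hψ0, (hK.hs₁ v hv).1.ord_one] at h3
      omega
    · rw [ptsDiv_apply, if_neg hv, neg_zero]
      have hreg' : RegAt v (S.c₁.rd φ) := by
        by_cases hvg : v ∈ S.c₁.good
        · apply S.c₁.regAt_rd hP hφ₁ hvg
          intro P hPv
          exact hreg P (hK.off_of_good₁ hvg hv hPv).1 (hK.off_of_good₁ hvg hv hPv).2
        · have : v ∈ S.br₁ := by
            by_contra hvb
            exact hvg (S.good₁_of_notMem hvb)
          obtain ⟨t, ht, rfl⟩ := Finset.mem_image.mp this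
          obtain ⟨e, he, -⟩ := hglue t ht
          exact RegAt.of_vanAt_sub he
      rw [hψ₁] at hreg'
      exact (regAt_of_pow hp0 hreg').ord_nonneg
  have hψL₂ : ψ₂ ∈ L (ptsDiv A₂) := by
    rw [mem_L_iff_ord]
    intro v
    by_cases hψ0 : ψ₂ = 0
    · exact Or.inl hψ0
    right
    by_cases hv : v ∈ A₂
    · rw [ptsDiv_apply, if_pos hv]
      have hsGU := (hK.hs₂ v hv).1.isGU
      have hmem : s₂ v ^ p * φ ∈ S.c₂.V := S.c₂.V.mul_mem _ _ (S.c₂.V.pow_mem hsGU.1 p) hφ₂
      have h1 : RegAt v (S.c₂.rd (s₂ v ^ p * φ)) :=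
        S.c₂.regAt_rd hP hmem (hK.good₂ hv) (hpole₂ v hv)
      rw [S.c₂.rd_mul (S.c₂.V.pow_mem hsGU.1 p) hφ₂, S.c₂.rd_pow hsGU.1, hψ₂, ← mul_pow] at h1
      have h2 : RegAt v (S.c₂.rd (s₂ v) * ψ₂) := regAt_of_pow hp0 h1
      have h3 := h2.ord_nonneg
      rw [Place.ord_mul v hsGU.2 hψ0, (hK.hs₂ v hv).1.ord_one] at h3
      omega
    · rw [ptsDiv_apply, if_neg hv, neg_zero]
      have hreg' : RegAt v (S.c₂.rd φ) := by
        by_cases hvg : v ∈ S.c₂.good
        · apply S.c₂.regAt_rd hP hφ₂ hvg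
          intro P hPv
          exact hreg P (hK.off_of_good₂ hvg hv hPv).1 (hK.off_of_good₂ hvg hv hPv).2
        · have : v ∈ S.br₂ := by
            by_contra hvb
            exact hvg (S.good₂_of_notMem hvb)
          obtain ⟨t, ht, rfl⟩ := Finset.mem_image.mp this
          obtain ⟨e, -, he⟩ := hglue t ht
          exact RegAt.of_vanAt_sub he
      rw [hψ₂] at hreg'
      exact (regAt_of_pow hp0 hreg').ord_nonneg
  -- `ψ` is a constant
  obtain ⟨a, ha₁, ha₂⟩ := hNS _ hψL₁ _ hψL₂ hglueψ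
  have he₁ : S.c₁.rd φ = algebraMap k F₁ (a ^ p) := by rw [hψ₁, ha₁, map_pow]
  have he₂ : S.c₂.rd φ = algebraMap k F₂ (a ^ p) := by rw [hψ₂, ha₂, map_pow]
  have h0 : a ^ p = 0 := hK.const_eq_zero hP hφ₁ hreg hQinfg hQinfA hPinf hφinf he₁
  rw [he₁, he₂, h0, map_zero, map_zero]
  exact ⟨rfl, rfl⟩

/-- **NS-STEP, general threshold.**  `f` in the position of the nodal key lemma with exponent
`p`.  If for every scaling `f = 1 + c₀ φ` of depth smaller than the depth of `ϖ` the two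
reductions of `φ` are `p`-th powers, then `(f - 1) / ϖ ∈ V₁ ∩ V₂`. -/
theorem nsStep_gen (S : SSD K F k F₁ F₂) (H : FFHyp K F)
    (p : ℕ) (hp : p.Prime) [CharP k p] (hk : ∀ e : k, ∃ e' : k, e' ^ p = e)
    (A₁ : Finset (Place k F₁)) (A₂ : Finset (Place k F₂)) (hNS : S.IsNS A₁ A₂)
    (s₁ : Place k F₁ → F) (s₂ : Place k F₂ → F) (hK : S.KeyHyp A₁ A₂ s₁ s₂)
    (f : F) (hf₁ : f ∈ S.c₁.V) (hf₂ : f ∈ S.c₂.V) (hrd₁ : S.c₁.rd f = 1) (hrd₂ : S.c₂.rd f = 1)
    (Pinf : Place K F) (Qinf : Place k F₁) (hQinfg : Qinf ∈ S.c₁.good) (hQinfA : Qinf ∉ A₁)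
    (hPinf : S.c₁.r Pinf = some Qinf) (hfinf : VanAt Pinf (f - 1))
    (a₁ : Place k F₁ → K) (a₂ : Place k F₂ → K)
    (hord0 : ∀ P, (∀ Q ∈ A₁, S.c₁.r P ≠ some Q) → (∀ Q ∈ A₂, S.c₂.r P ≠ some Q) →
      0 ≤ P.ord f)
    (hord₁ : ∀ Q ∈ A₁, ∀ P, S.c₁.r P = some Q →
      P.ord f = p * (P.ord (s₁ Q - algebraMap K F (a₁ Q)) - P.ord (s₁ Q)))
    (hord₂ : ∀ Q ∈ A₂, ∀ P, S.c₂.r P = some Q →
      P.ord f = p * (P.ord (s₂ Q - algebraMap K F (a₂ Q)) - P.ord (s₂ Q)))
    (ϖ : K)
    (hPW₁ : ∀ (c₀ : K) (φ : F), c₀ ≠ 0 → S.IsCM c₀ → S.IsCM (ϖ / c₀) → φ ∈ S.c₁.V →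
      φ ∈ S.c₂.V → f = 1 + algebraMap K F c₀ * φ → ∃ ψ : F₁, S.c₁.rd φ = ψ ^ p)
    (hPW₂ : ∀ (c₀ : K) (φ : F), c₀ ≠ 0 → S.IsCM c₀ → S.IsCM (ϖ / c₀) → φ ∈ S.c₁.V →
      φ ∈ S.c₂.V → f = 1 + algebraMap K F c₀ * φ → ∃ ψ : F₂, S.c₂.rd φ = ψ ^ p) :
    (f - 1) / algebraMap K F ϖ ∈ S.c₁.V ∧ (f - 1) / algebraMap K F ϖ ∈ S.c₂.V := by
  have hP := H.principal
  by_cases hf1 : f = 1
  · rw [hf1, sub_self, zero_div]
    exact ⟨S.c₁.V.zero_mem, S.c₂.V.zero_mem⟩
  have hfne : f ≠ 0 := by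
    rintro rfl
    rw [S.c₁.rd_zero] at hrd₁
    exact zero_ne_one hrd₁
  -- the scale
  have hImem : ∀ z ∈ ({f - 1} : Finset F),
      (z ∈ S.c₁.V ∧ S.c₁.rd z = 0) ∧ (z ∈ S.c₂.V ∧ S.c₂.rd z = 0) := by
    intro z hz
    rw [Finset.mem_singleton] at hz
    subst hz
    exact ⟨⟨S.c₁.V.sub_mem hf₁ S.c₁.V.one_mem, by
      rw [S.c₁.rd_sub hf₁ S.c₁.V.one_mem, hrd₁, S.c₁.rd_one, sub_self]⟩,
      ⟨S.c₂.V.sub_mem hf₂ S.c₂.V.one_mem, by
      rw [S.c₂.rd_sub hf₂ S.c₂.V.one_mem, hrd₂, S.c₂.rd_one, sub_self]⟩⟩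
  obtain ⟨c, hc, ⟨hdV₁, hdrd₁⟩, ⟨hdV₂, hdrd₂⟩, hcI, z₀, hz₀, hz₀GU⟩ :=
    S.exists_scale_max₂ {f - 1} hImem ⟨f - 1, Finset.mem_singleton_self _, sub_ne_zero.2 hf1⟩
  rw [Finset.mem_singleton] at hz₀
  subst hz₀
  set φ : F := algebraMap K F c * (f - 1) with hφ
  have hφ₁ : φ ∈ S.c₁.V := (hcI _ (Finset.mem_singleton_self _)).1
  have hφ₂ : φ ∈ S.c₂.V := (hcI _ (Finset.mem_singleton_self _)).2
  have hcF : algebraMap K F c ≠ 0 := (map_ne_zero_iff _ (algebraMap K F).injective).mpr hc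
  have hfφ : f = 1 + algebraMap K F c⁻¹ * φ := by
    rw [hφ, map_inv₀, ← mul_assoc, inv_mul_cancel₀ hcF, one_mul]
    ring
  by_cases hdep : S.IsCM (ϖ / c⁻¹)
  · exfalso
    obtain ⟨ψ₁, hψ₁⟩ := hPW₁ c⁻¹ φ (inv_ne_zero hc) ⟨hdV₁, hdrd₁⟩ hdep hφ₁ hφ₂ hfφ
    obtain ⟨ψ₂, hψ₂⟩ := hPW₂ c⁻¹ φ (inv_ne_zero hc) ⟨hdV₁, hdrd₁⟩ hdep hφ₁ hφ₂ hfφ
    have hreg : ∀ P, (∀ Q ∈ A₁, S.c₁.r P ≠ some Q) → (∀ Q ∈ A₂, S.c₂.r P ≠ some Q) →
        0 ≤ P.ord φ := by
      intro P h1 h2
      have hf : RegAt P f := regAt_of_ord_nonneg (hord0 P h1 h2)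
      exact ((regAt_algebraMap P c).mul (hf.sub (regAt_one P))).ord_nonneg
    have hpole₁ : ∀ Q ∈ A₁, ∀ P, S.c₁.r P = some Q → 0 ≤ P.ord (s₁ Q ^ p * φ) := by
      intro Q hQ P hPQ
      have hsGU := (hK.hs₁ Q hQ).1.isGU
      have hsreg : RegAt P (s₁ Q) := regAt_of_ord_nonneg ((hK.hs₁ Q hQ).1.reg P hPQ)
      have hsa : RegAt P (s₁ Q - algebraMap K F (a₁ Q)) := hsreg.sub (regAt_algebraMap P _)
      have h1 : 0 ≤ P.ord (s₁ Q ^ p * f) := by
        rw [Place.ord_mul P (pow_ne_zero p hsGU.ne_zero) hfne, Fermat.Agent.RED.H17.ord_pow,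
          hord₁ Q hQ P hPQ]
        have := hsa.ord_nonneg
        have h2 : (0 : ℤ) ≤ p := by positivity
        nlinarith
      have h3 : s₁ Q ^ p * φ = algebraMap K F c * (s₁ Q ^ p * f - s₁ Q ^ p) := by
        rw [hφ]; ring
      rw [h3]
      exact ((regAt_algebraMap P c).mul
        ((regAt_of_ord_nonneg h1).sub (hsreg.pow p))).ord_nonneg
    have hpole₂ : ∀ Q ∈ A₂, ∀ P, S.c₂.r P = some Q → 0 ≤ P.ord (s₂ Q ^ p * φ) := by
      intro Q hQ P hPQ
      have hsGU := (hK.hs₂ Q hQ).1.isGU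
      have hsreg : RegAt P (s₂ Q) := regAt_of_ord_nonneg ((hK.hs₂ Q hQ).1.reg P hPQ)
      have hsa : RegAt P (s₂ Q - algebraMap K F (a₂ Q)) := hsreg.sub (regAt_algebraMap P _)
      have h1 : 0 ≤ P.ord (s₂ Q ^ p * f) := by
        rw [Place.ord_mul P (pow_ne_zero p hsGU.ne_zero) hfne, Fermat.Agent.RED.H17.ord_pow,
          hord₂ Q hQ P hPQ]
        have := hsa.ord_nonneg
        have h2 : (0 : ℤ) ≤ p := by positivity
        nlinarith
      have h3 : s₂ Q ^ p * φ = algebraMap K F c * (s₂ Q ^ p * f - s₂ Q ^ p) := by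
        rw [hφ]; ring
      rw [h3]
      exact ((regAt_algebraMap P c).mul
        ((regAt_of_ord_nonneg h1).sub (hsreg.pow p))).ord_nonneg
    have hφinf : VanAt Pinf φ := (regAt_algebraMap Pinf c).mul_vanAt hfinf
    obtain ⟨h1, h2⟩ := leading_pth S H p hp hk A₁ A₂ hNS s₁ s₂ hK φ hφ₁ hφ₂ ψ₁ ψ₂ hψ₁ hψ₂
      Pinf Qinf hQinfg hQinfA hPinf hφinf hreg hpole₁ hpole₂
    rcases hz₀GU with h | h
    · exact h.2 h1
    · exact h.2 h2
  · -- the depth of `f - 1` is at least the depth of `ϖ`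
    have hinv : algebraMap K F (ϖ / c⁻¹)⁻¹ ∈ S.c₁.V := by
      rcases S.c₁.const_mem_or_inv_mem (ϖ / c⁻¹) with h | h
      · have hGU : S.c₁.IsGU (algebraMap K F (ϖ / c⁻¹)) := ⟨h, fun h0 => hdep ⟨h, h0⟩⟩
        have := hGU.inv_mem
        rwa [← map_inv₀] at this
      · exact h
    have hinv₂ : algebraMap K F (ϖ / c⁻¹)⁻¹ ∈ S.c₂.V := (S.const_mem _).1 hinv
    by_cases hϖ : ϖ = 0
    · rw [hϖ, map_zero, div_zero]
      exact ⟨S.c₁.V.zero_mem, S.c₂.V.zero_mem⟩
    have hϖF : algebraMap K F ϖ ≠ 0 := (map_ne_zero_iff _ (algebraMap K F).injective).mpr hϖ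
    have h3 : (f - 1) / algebraMap K F ϖ = algebraMap K F (ϖ / c⁻¹)⁻¹ * φ := by
      rw [hφ, map_inv₀, map_div₀, map_inv₀]
      field_simp
    rw [h3]
    exact ⟨S.c₁.V.mul_mem _ _ hinv hφ₁, S.c₂.V.mul_mem _ _ hinv₂ hφ₂⟩

/-- **NS-STEP** (leaf (C) of the `p`-new case of S33).  `f` in the position of the nodal key
lemma with exponent `p = char k`: `f ≡ 1` for both valuations, `f (P∞) = 1`, `f` regular outside
the discs, `div f = p (X_Q - Y_Q)` on the disc of `Q`.  `π ∈ K` with `π ^ (p - 1) / p` a unit.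
If for every scaling `f = 1 + c₀ φ` of depth `< p / (p - 1)` (i.e. `p ^ p / c₀ ^ (p - 1)` in the
maximal ideal) the reductions of `φ` are `p`-th powers, then `(f - 1) / (p π) ∈ V₁ ∩ V₂`. -/
theorem nsStep (S : SSD K F k F₁ F₂) (H : FFHyp K F)
    (p : ℕ) (hp : p.Prime) [CharP k p] (hk : ∀ e : k, ∃ e' : k, e' ^ p = e)
    (A₁ : Finset (Place k F₁)) (A₂ : Finset (Place k F₂)) (hNS : S.IsNS A₁ A₂)
    (s₁ : Place k F₁ → F) (s₂ : Place k F₂ → F) (hK : S.KeyHyp A₁ A₂ s₁ s₂)
    (f : F) (hf₁ : f ∈ S.c₁.V) (hf₂ : f ∈ S.c₂.V) (hrd₁ : S.c₁.rd f = 1) (hrd₂ : S.c₂.rd f = 1)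
    (Pinf : Place K F) (Qinf : Place k F₁) (hQinfg : Qinf ∈ S.c₁.good) (hQinfA : Qinf ∉ A₁)
    (hPinf : S.c₁.r Pinf = some Qinf) (hfinf : VanAt Pinf (f - 1))
    (a₁ : Place k F₁ → K) (a₂ : Place k F₂ → K)
    (hord0 : ∀ P, (∀ Q ∈ A₁, S.c₁.r P ≠ some Q) → (∀ Q ∈ A₂, S.c₂.r P ≠ some Q) →
      0 ≤ P.ord f)
    (hord₁ : ∀ Q ∈ A₁, ∀ P, S.c₁.r P = some Q →
      P.ord f = p * (P.ord (s₁ Q - algebraMap K F (a₁ Q)) - P.ord (s₁ Q)))
    (hord₂ : ∀ Q ∈ A₂, ∀ P, S.c₂.r P = some Q →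
      P.ord f = p * (P.ord (s₂ Q - algebraMap K F (a₂ Q)) - P.ord (s₂ Q)))
    (π : K) (hπ : S.c₁.IsGU (algebraMap K F (π ^ (p - 1) / (p : K))))
    (hPW₁ : ∀ (c₀ : K) (φ : F), c₀ ≠ 0 → S.IsCM c₀ → S.IsCM ((p : K) ^ p / c₀ ^ (p - 1)) →
      φ ∈ S.c₁.V → φ ∈ S.c₂.V → f = 1 + algebraMap K F c₀ * φ → ∃ ψ : F₁, S.c₁.rd φ = ψ ^ p)
    (hPW₂ : ∀ (c₀ : K) (φ : F), c₀ ≠ 0 → S.IsCM c₀ → S.IsCM ((p : K) ^ p / c₀ ^ (p - 1)) →
      φ ∈ S.c₁.V → φ ∈ S.c₂.V → f = 1 + algebraMap K F c₀ * φ → ∃ ψ : F₂, S.c₂.rd φ = ψ ^ p) :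
    (f - 1) / algebraMap K F ((p : K) * π) ∈ S.c₁.V ∧
      (f - 1) / algebraMap K F ((p : K) * π) ∈ S.c₂.V := by
  have hp1 : p - 1 ≠ 0 := by have := hp.two_le; omega
  have hu0 : π ^ (p - 1) / (p : K) ≠ 0 := by
    intro h0
    have := hπ.ne_zero
    rw [h0, map_zero] at this
    exact this rfl
  have hpK : (p : K) ≠ 0 := fun h => hu0 (by rw [h, div_zero])
  have hπ0 : π ≠ 0 := fun h => hu0 (by rw [h, zero_pow hp1, zero_div])
  have hconv : ∀ c₀ : K, c₀ ≠ 0 → S.IsCM ((p : K) * π / c₀) →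
      S.IsCM ((p : K) ^ p / c₀ ^ (p - 1)) := by
    intro c₀ hc₀ hx
    have h1 : S.c₁.InM (algebraMap K F ((p : K) * π / c₀) ^ (p - 1)) :=
      PRed.InM.pow (S := S.c₁) hx hp1
    have h2 : (algebraMap K F (π ^ (p - 1) / (p : K)))⁻¹ ∈ S.c₁.V := hπ.inv_mem
    have h3 := PRed.InM.mul_right (S := S.c₁) h1 h2
    have h4 : algebraMap K F ((p : K) * π / c₀) ^ (p - 1) *
        (algebraMap K F (π ^ (p - 1) / (p : K)))⁻¹ =
        algebraMap K F ((p : K) ^ p / c₀ ^ (p - 1)) := by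
      rw [← map_pow, ← map_inv₀, ← map_mul]
      congr 1
      have hpp : (p : K) ^ p = (p : K) ^ (p - 1) * p := by
        rw [← pow_succ, Nat.sub_add_cancel hp.one_le]
      have hπp : π ^ (p - 1) ≠ 0 := pow_ne_zero _ hπ0
      have hcp : c₀ ^ (p - 1) ≠ 0 := pow_ne_zero _ hc₀
      rw [hpp, div_pow, mul_pow]
      field_simp
    rw [h4] at h3
    exact h3
  exact nsStep_gen S H p hp hk A₁ A₂ hNS s₁ s₂ hK f hf₁ hf₂ hrd₁ hrd₂ Pinf Qinf hQinfg hQinfA
    hPinf hfinf a₁ a₂ hord0 hord₁ hord₂ ((p : K) * π)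
    (fun c₀ φ h1 h2 h3 => hPW₁ c₀ φ h1 h2 (hconv c₀ h1 h3))
    (fun c₀ φ h1 h2 h3 => hPW₂ c₀ φ h1 h2 (hconv c₀ h1 h3))

end Main

end Fermat.Agent.BADP.H18

end
end
-- ==== END Fermat.Agent.BADP.H18_NSStep

-- ==== BEGIN Fermat.Agent.FL.Defs4
section

/-!
# G-FL (S19), interface statements, layer 3: the abstract main theorem

Head of G-FL: helper36.  Plan: `NOTES/plan/G_FL.md` (v2).

Setting (abstract form of G-RED, helper17's `RedSetup`): `F / K` a function field with a
reduction `S : RedSetup K F k F'` (Gauss valuation ring `S.V`, reduction `S.rd`, reduction of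
places `S.r` with the divisor identity), such that the genus does not drop (`S.GenusLE'`).
A group `Γ` (the decomposition group) acts semilinearly on `F` and on `F'`, compatibly with the
reduction; the subgroup `I` (inertia) acts trivially on `F'`  (`GalRed`).

* `constVal S`  : the valuation ring `A = K ∩ V` of the constants.
* `GalRed S Γ`  : the Galois action on a reduction datum.
* `Stmt_FLAbs`  : **the abstract main theorem**: every finite `Γ`-stable set `𝒮` of points of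
  `Pic⁰(F)` has finitely many coordinate functions `h j : 𝒮 → A`, `I`-equivariant, separating,
  such that the ring generated by them is `Γ`-stable and the (partial) addition
  `(x, y) ↦ h j (x + y)` lies in `pairRing A h`.

The hypotheses (UNR) and (FR) of `Stmt_FLAbs` are what the modular curve has to supply
(packages MOD-UNR, MOD-FRAME); everything else is function field theory + linear algebra.
This file contains no `sorry`.
-/

set_option autoImplicit false

noncomputable section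

open AlgebraicCurve

namespace Fermat.Agent.FL

open Fermat.Agent.RED Fermat.Agent.RED.H17 Fermat.Agent.Lib.HopfOrder
  Fermat.Agent.Lib.HopfOrderLoc

section Ctx

variable {K F k F' : Type} [Field K] [Field F] [Algebra K F] [Field k] [Field F']
  [Algebra k F']

/-- The valuation ring of the constants: `A = K ∩ V`. -/
def constVal (S : RedSetup K F k F') : ValuationSubring K :=
  S.V.comap (algebraMap K F)

theorem mem_constVal (S : RedSetup K F k F') (c : K) :
    c ∈ constVal S ↔ algebraMap K F c ∈ S.V := Iff.rfl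

/-- A group `Γ` acting semilinearly on `F / K` and on `F' / k`, compatibly with the reduction
datum `S`; the subgroup `I` acts trivially on `F'`.
(`Γ` = decomposition group of the place, `I` = inertia group.) -/
structure GalRed (S : RedSetup K F k F') (Γ : Type) [Group Γ] where
  /-- the action on the function field -/
  act : Γ →* SemilinearAut K F
  /-- the action on the reduced function field -/
  act' : Γ →* SemilinearAut k F'
  /-- the inertia subgroup -/
  I : Subgroup Γ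
  mem_V : ∀ (σ : Γ) (u : F), u ∈ S.V → act σ • u ∈ S.V
  rd_smul : ∀ (σ : Γ) (u : F), u ∈ S.V → S.rd (act σ • u) = act' σ • S.rd u
  r_smul : ∀ (σ : Γ) (P : Place K F), S.r (act σ • P) = act' σ • S.r P
  inertia : ∀ σ ∈ I, act' σ = 1

end Ctx

/-- **(UNR)**: every constant of the residue field is the reduction of an inertia-fixed integral
constant. -/
def HasUnrConst {K F k F' : Type} [Field K] [Field F] [Algebra K F] [Field k] [Field F']
    [Algebra k F'] (S : RedSetup K F k F') {Γ : Type} [Group Γ] (G : GalRed S Γ) : Prop :=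
  ∀ c' : k, ∃ c : K, c ∈ constVal S ∧ (∀ σ ∈ G.I, SemilinearAut.baseAut (G.act σ) c = c) ∧
    S.rd (algebraMap K F c) = algebraMap k F' c'

/-- **(FR)**: there is a `Γ`-fixed place `Pinf` such that for all large `b` the space `L(b Pinf)`
has a basis of `Γ`-fixed Gauss-integral functions whose reductions are a basis of
`L~(b r(Pinf))`. -/
def HasRatFrames {K F k F' : Type} [Field K] [Field F] [Algebra K F] [Field k] [Field F']
    [Algebra k F'] (S : RedSetup K F k F') {Γ : Type} [Group Γ] (G : GalRed S Γ) : Prop :=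
  ∃ Pinf : Place K F, (∀ σ : Γ, G.act σ • Pinf = Pinf) ∧ ∃ b₀ : ℕ, ∀ b : ℕ, b₀ ≤ b →
    ∃ (n : ℕ) (e : Fin n → F), IsFrameOf e (Finsupp.single Pinf (b : ℤ)) ∧ (∀ i, e i ∈ S.V) ∧
      (∀ (σ : Γ) i, G.act σ • e i = e i) ∧
      IsFrameOf (fun i => S.rd (e i)) (Finsupp.single (S.r Pinf) (b : ℤ))

/-- The conclusion of the abstract main theorem for a set `𝒮` of points of `Pic⁰(F)`:
finitely many coordinate functions `h j : 𝒮 → K` such that
* the values are integral;
* `h j (σ x) = σ (h j x)` for `σ` in the inertia group;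
* for every `σ ∈ Γ` the function `σ x ↦ σ (h j x)` (the twist of `h j` by `σ`) lies in the ring
  generated by the `h i` and the integral constants;
* the `h j` separate the points of `𝒮`;
* `(x, y) ↦ h j (x + y)` (where `x + y ∈ 𝒮`) is the restriction of an element of
  `pairRing A h`. -/
def HasIntCoords {K F k F' : Type} [Field K] [Field F] [Algebra K F] [Field k] [Field F']
    [Algebra k F'] (S : RedSetup K F k F') {Γ : Type} [Group Γ] (G : GalRed S Γ)
    (𝒮 : Set (Pic0 K F)) : Prop :=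
  ∃ (ι : Type) (_ : Finite ι) (h : ι → 𝒮 → K),
    (∀ j x, h j x ∈ constVal S) ∧
    (∀ j, ∀ σ ∈ G.I, ∀ (x : 𝒮) (hx : G.act σ • (x : Pic0 K F) ∈ 𝒮),
      h j ⟨_, hx⟩ = SemilinearAut.baseAut (G.act σ) (h j x)) ∧
    (∀ j (σ : Γ), ∃ φ ∈ genRing (constVal S).toSubring h,
      ∀ (x : 𝒮) (hx : G.act σ • (x : Pic0 K F) ∈ 𝒮),
        φ ⟨_, hx⟩ = SemilinearAut.baseAut (G.act σ) (h j x)) ∧
    (∀ x y : 𝒮, x ≠ y → ∃ j, h j x ≠ h j y) ∧
    (∀ j, ∃ φ ∈ pairRing (constVal S).toSubring h,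
      ∀ (x y : 𝒮) (hxy : (x : Pic0 K F) + (y : Pic0 K F) ∈ 𝒮), φ (x, y) = h j ⟨_, hxy⟩)

/-- **The abstract main theorem of G-FL** (head: helper36; packages: `FL/Defs5.lean`). -/
def Stmt_FLAbs : Prop :=
  ∀ (K F k F' : Type) [Field K] [Field F] [Algebra K F] [Field k] [Field F'] [Algebra k F']
    [IsAlgClosed K] [IsAlgClosed k] (S : RedSetup K F k F'), IsFF K F → IsFF k F' →
    S.GenusLE' →
  ∀ (Γ : Type) [Group Γ] (G : GalRed S Γ), HasUnrConst S G → HasRatFrames S G →
  ∀ 𝒮 : Set (Pic0 K F), 𝒮.Finite → (∀ (σ : Γ), ∀ x ∈ 𝒮, G.act σ • x ∈ 𝒮) →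
    HasIntCoords S G 𝒮

end Fermat.Agent.FL

end
end
-- ==== END Fermat.Agent.FL.Defs4

-- ==== BEGIN Fermat.Agent.FL.Defs6
section

/-!
# G-FL (S19), interface statements, layer 5: the concrete main theorem at a tame level

Head of G-FL: helper36.  `Stmt_FLTameC` is `FL.Stmt_FLAbs` (FL/Defs4.lean) for the modular
function field of a tame level `M` (`5 ≤ ℓ`, or `ℓ = 3 ∧ 2 ∣ M`, or `ℓ = 2 ∧ 3 ∣ M`), stated
without `RedSetup` / `GalRed`:

for every valuation subring `A` of `ℚ̄` over `ℓ` and every finite set `𝒮` of points of `J₀(M)`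
stable under the decomposition group of `A` there are finitely many functions `h j : 𝒮 → A`,
equivariant for the inertia group, separating the points, such that the twists by the
decomposition group lie in `genRing A h` and the (partial) addition lies in `pairRing A h`.

* ASM-C1 (helper33): `Stmt_FLAbs → (HasRatFrames at tame level) → Stmt_FLTameC`.
* ASM-C2 (helper32): `Stmt_FLTameC → FL.H2.stmt_Level → S19.H32.Stmt_FLGenCore`
  (`𝒮 = levelPull (J₀(p)[ℓ^k]) ⊆ J₀(M)`, `M ∈ {p, 2p, 3p}`).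
* S15 ROUTE-F (helper66) uses `Stmt_FLTameC` for sets of points of infinite order.

This file contains no `sorry`.
-/

set_option autoImplicit false

noncomputable section

open ModularCurve

namespace Fermat.Agent.FL

open Fermat.Agent.Lib.HopfOrder Fermat.Agent.Lib.HopfOrderLoc

/-- The tame levels: those where the Deuring reduction datum `HasDR` is available
(`RED.H76.stmt_DR2`). -/
def IsTame (M ℓ : ℕ) : Prop := 5 ≤ ℓ ∨ (ℓ = 3 ∧ 2 ∣ M) ∨ (ℓ = 2 ∧ 3 ∣ M)

/-- **The concrete main theorem of G-FL at a tame level.** -/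
def Stmt_FLTameC : Prop :=
  ∀ (M ℓ : ℕ) [NeZero M], ℓ.Prime → ¬ ℓ ∣ M → IsTame M ℓ →
  ∀ A : ValuationSubring (AlgebraicClosure ℚ), A.LiesOverPrime ℓ →
  ∀ 𝒮 : Set (JZero M), 𝒮.Finite →
    (∀ σ ∈ A.decompositionSubgroup ℚ, ∀ x ∈ 𝒮, σ • x ∈ 𝒮) →
    ∃ (ι : Type) (_ : Finite ι) (h : ι → 𝒮 → AlgebraicClosure ℚ),
      (∀ j x, h j x ∈ A) ∧
      (∀ j, ∀ σ ∈ A.inertiaSubgroupIn ℚ, ∀ (x : 𝒮) (hx : σ • (x : JZero M) ∈ 𝒮),
        h j ⟨_, hx⟩ = σ (h j x)) ∧
      (∀ j, ∀ σ ∈ A.decompositionSubgroup ℚ, ∃ φ ∈ genRing A.toSubring h,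
        ∀ (x : 𝒮) (hx : σ • (x : JZero M) ∈ 𝒮), φ ⟨_, hx⟩ = σ (h j x)) ∧
      (∀ x y : 𝒮, x ≠ y → ∃ j, h j x ≠ h j y) ∧
      (∀ j, ∃ φ ∈ pairRing A.toSubring h,
        ∀ (x y : 𝒮) (hxy : (x : JZero M) + (y : JZero M) ∈ 𝒮), φ (x, y) = h j ⟨_, hxy⟩)

end Fermat.Agent.FL

end
end
-- ==== END Fermat.Agent.FL.Defs6

-- ==== BEGIN Fermat.Agent.FL.H18_Loc
section

/-!
# G-FL, package ABS-LOC (helper18): the local ring of a residue class

`K` a field, `A` a valuation subring, `S` a finite set, `T` a ring of `A`-valued functions on `S`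
containing the constants of `A`.  A *class* is a nonempty subset `C ⊆ S` whose indicator lies in
`T` and on which every element of `T` has constant reduction modulo the maximal ideal of `A`.

* `locRing A T C : Subring (C → K)`: the functions `φ` on `C` with `D φ = N` on `C` for some
  `N, D ∈ T`, `D` unit-valued on `C`.
* `locRed : locRing A T C →+* ResidueField A`: the reduction; it detects units
  (`isUnit_iff_locRed_ne_zero`), so `locRing` is a local ring.
* `locEv s : locRing A T C →+* K`: the evaluations, jointly injective (`eq_zero_of_locEv`).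
  These are the hypotheses of `Fermat.Agent.FL.Stmt_SNF`.
* `restr : T →+* locRing A T C`: restriction to the class.
* `extend_mem`: the extension by zero of an element of `locRing A T C` lies in `T`;
  `mem_of_cover`: a function whose restriction to every class of a cover lies in the local ring
  lies in `T`.
* instances for `pairRing` and `genRing`: `isFunRing_pairRing`, `isClass_prod`.
-/

set_option autoImplicit false
set_option linter.unusedSectionVars false

noncomputable section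

namespace Fermat.Agent.FL.H18

open Fermat.Agent.Lib.HopfOrder Fermat.Agent.Lib.HopfOrderLoc

variable {K : Type} [Field K] (A : ValuationSubring K) {S : Type}

/-- `T` is a ring of `A`-valued functions containing the constants of `A`. -/
structure IsFunRingA (T : Subring (S → K)) : Prop where
  const_mem : ∀ a ∈ A, (fun _ : S => a) ∈ T
  val_mem : ∀ g ∈ T, ∀ s, g s ∈ A

/-- `C` is a class for `T`: nonempty, its indicator lies in `T`, and the elements of `T` have
constant reduction on `C`. -/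
structure IsClass (T : Subring (S → K)) (C : Set S) : Prop where
  nonempty : C.Nonempty
  ind_mem : (fun s => (C.indicator (fun _ => (1 : K)) s)) ∈ T
  cong : ∀ g ∈ T, ∀ s ∈ C, ∀ s' ∈ C, A.valuation (g s - g s') < 1

variable {A}

section Val

theorem val_le_one_of_mem {a : K} (ha : a ∈ A) : A.valuation a ≤ 1 :=
  (A.valuation_le_one_iff a).mpr ha

theorem mem_of_val_le_one {a : K} (ha : A.valuation a ≤ 1) : a ∈ A :=
  (A.valuation_le_one_iff a).mp ha

theorem val_inv_eq_one {a : K} (ha : A.valuation a = 1) : A.valuation a⁻¹ = 1 := by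
  rw [map_inv₀, ha, inv_one]

theorem ne_zero_of_val_eq_one {a : K} (ha : A.valuation a = 1) : a ≠ 0 := by
  intro h
  rw [h, map_zero] at ha
  exact zero_ne_one ha

theorem val_eq_one_of_sub_lt {a b : K} (hb : A.valuation b = 1) (h : A.valuation (a - b) < 1) :
    A.valuation a = 1 := by
  have h1 : a = b + (a - b) := by ring
  rw [h1, Valuation.map_add_eq_of_lt_left _ (by rw [hb]; exact h), hb]

theorem val_sub_lt_of_lt {a b : K} (ha : A.valuation a < 1) (hb : A.valuation b < 1) :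
    A.valuation (a - b) < 1 :=
  lt_of_le_of_lt (Valuation.map_sub _ a b) (max_lt ha hb)

theorem val_add_lt_of_lt {a b : K} (ha : A.valuation a < 1) (hb : A.valuation b < 1) :
    A.valuation (a + b) < 1 :=
  lt_of_le_of_lt (Valuation.map_add _ a b) (max_lt ha hb)

theorem val_mul_lt_of_lt_of_le {a b : K} (ha : A.valuation a < 1) (hb : A.valuation b ≤ 1) :
    A.valuation (a * b) < 1 := by
  rw [map_mul]
  exact mul_lt_one_of_lt_of_le ha hb

end Val

variable (A)

/-- The local ring of the class `C`. -/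
def locRing (T : Subring (S → K)) (C : Set S) : Subring (C → K) where
  carrier := {φ | ∃ N ∈ T, ∃ D ∈ T, (∀ s : C, A.valuation (D s) = 1) ∧
    ∀ s : C, D s * φ s = N s}
  zero_mem' := ⟨0, T.zero_mem, 1, T.one_mem, fun _ => by simp, fun _ => by simp⟩
  one_mem' := ⟨1, T.one_mem, 1, T.one_mem, fun _ => by simp, fun _ => by simp⟩
  add_mem' := by
    rintro φ ψ ⟨N, hN, D, hD, hDu, h⟩ ⟨N', hN', D', hD', hDu', h'⟩
    refine ⟨N * D' + N' * D, T.add_mem (T.mul_mem hN hD') (T.mul_mem hN' hD), D * D',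
      T.mul_mem hD hD', fun s => ?_, fun s => ?_⟩
    · show A.valuation (D s * D' s) = 1
      rw [map_mul, hDu s, hDu' s, one_mul]
    · show D s * D' s * (φ s + ψ s) = N s * D' s + N' s * D s
      rw [← h s, ← h' s]
      ring
  mul_mem' := by
    rintro φ ψ ⟨N, hN, D, hD, hDu, h⟩ ⟨N', hN', D', hD', hDu', h'⟩
    refine ⟨N * N', T.mul_mem hN hN', D * D', T.mul_mem hD hD', fun s => ?_, fun s => ?_⟩
    · show A.valuation (D s * D' s) = 1
      rw [map_mul, hDu s, hDu' s, one_mul]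
    · show D s * D' s * (φ s * ψ s) = N s * N' s
      rw [← h s, ← h' s]
      ring
  neg_mem' := by
    rintro φ ⟨N, hN, D, hD, hDu, h⟩
    refine ⟨-N, T.neg_mem hN, D, hD, hDu, fun s => ?_⟩
    show D s * -φ s = -N s
    rw [← h s]
    ring

variable {A}

theorem mem_locRing {T : Subring (S → K)} {C : Set S} {φ : C → K} :
    φ ∈ locRing A T C ↔ ∃ N ∈ T, ∃ D ∈ T, (∀ s : C, A.valuation (D s) = 1) ∧
      ∀ s : C, D s * φ s = N s := Iff.rfl

variable {T : Subring (S → K)} {C : Set S}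

/-- Restriction of the elements of `T` to the class. -/
def restr (A : ValuationSubring K) (T : Subring (S → K)) (C : Set S) : T →+* locRing A T C where
  toFun g := ⟨fun s => (g : S → K) s, (g : S → K), g.2, 1, T.one_mem, fun _ => by simp,
    fun _ => by simp⟩
  map_one' := rfl
  map_mul' _ _ := rfl
  map_zero' := rfl
  map_add' _ _ := rfl

@[simp] theorem restr_apply (g : T) (s : C) :
    ((restr A T C g : locRing A T C) : C → K) s = (g : S → K) s := rfl

/-- Evaluation at a point of the class. -/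
def locEv (A : ValuationSubring K) (T : Subring (S → K)) (C : Set S) (s : C) :
    locRing A T C →+* K where
  toFun φ := (φ : C → K) s
  map_one' := rfl
  map_mul' _ _ := rfl
  map_zero' := rfl
  map_add' _ _ := rfl

@[simp] theorem locEv_apply (s : C) (φ : locRing A T C) : locEv A T C s φ = (φ : C → K) s := rfl

/-- The evaluations are jointly injective. -/
theorem eq_zero_of_locEv (φ : locRing A T C) (h : ∀ s, locEv A T C s φ = 0) : φ = 0 :=
  Subtype.ext (funext h)

/-- The values of the elements of the local ring lie in `A`. -/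
theorem locRing_val_mem (hT : IsFunRingA A T) (φ : locRing A T C) (s : C) :
    (φ : C → K) s ∈ A := by
  obtain ⟨N, hN, D, hD, hDu, h⟩ := φ.2
  have hD0 := ne_zero_of_val_eq_one (hDu s)
  have : (φ : C → K) s = N s * (D s)⁻¹ := by
    rw [← h s]
    field_simp
  rw [this]
  exact A.mul_mem _ _ (hT.val_mem N hN s) (mem_of_val_le_one (val_inv_eq_one (hDu s)).le)

/-- The elements of the local ring have constant reduction on the class. -/
theorem locRing_cong (hT : IsFunRingA A T) (hC : IsClass A T C) (φ : locRing A T C)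
    (s s' : C) : A.valuation ((φ : C → K) s - (φ : C → K) s') < 1 := by
  obtain ⟨N, hN, D, hD, hDu, h⟩ := φ.2
  have hD0 := ne_zero_of_val_eq_one (hDu s)
  have hD0' := ne_zero_of_val_eq_one (hDu s')
  have key : (φ : C → K) s - (φ : C → K) s'
      = ((N s - N s') * D s' + N s' * (D s' - D s)) * ((D s)⁻¹ * (D s')⁻¹) := by
    have e1 : (φ : C → K) s = N s * (D s)⁻¹ := by
      rw [← h s]; field_simp
    have e2 : (φ : C → K) s' = N s' * (D s')⁻¹ := by
      rw [← h s']; field_simp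
    rw [e1, e2]
    field_simp
    ring
  rw [key]
  refine val_mul_lt_of_lt_of_le (val_add_lt_of_lt ?_ ?_) ?_
  · exact val_mul_lt_of_lt_of_le (hC.cong N hN s s.2 s' s'.2) (hDu s').le
  · rw [mul_comm]
    exact val_mul_lt_of_lt_of_le (hC.cong D hD s' s'.2 s s.2)
      (val_le_one_of_mem (hT.val_mem N hN s'))
  · rw [map_mul, val_inv_eq_one (hDu s), val_inv_eq_one (hDu s'), one_mul]

/-- The base point of a class. -/
def IsClass.pt (hC : IsClass A T C) : C := ⟨hC.nonempty.some, hC.nonempty.some_mem⟩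

/-- The reduction of the local ring of a class. -/
def locRed (hT : IsFunRingA A T) (hC : IsClass A T C) :
    locRing A T C →+* IsLocalRing.ResidueField A where
  toFun φ := IsLocalRing.residue A ⟨(φ : C → K) hC.pt, locRing_val_mem hT φ hC.pt⟩
  map_one' := by
    have : (⟨((1 : locRing A T C) : C → K) hC.pt, locRing_val_mem hT 1 hC.pt⟩ : A) = 1 := rfl
    rw [this, map_one]
  map_mul' φ ψ := by
    rw [← map_mul]
    rfl
  map_zero' := by
    have : (⟨((0 : locRing A T C) : C → K) hC.pt, locRing_val_mem hT 0 hC.pt⟩ : A) = 0 := rfl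
    rw [this, map_zero]
  map_add' φ ψ := by
    rw [← map_add]
    rfl

theorem residue_eq_zero_iff_val {a : K} (ha : a ∈ A) :
    IsLocalRing.residue A ⟨a, ha⟩ = 0 ↔ A.valuation a < 1 := by
  rw [IsLocalRing.residue_eq_zero_iff]
  exact A.valuation_lt_one_iff ⟨a, ha⟩

/-- The reduction can be computed at any point of the class. -/
theorem locRed_eq (hT : IsFunRingA A T) (hC : IsClass A T C) (φ : locRing A T C) (s : C) :
    locRed hT hC φ = IsLocalRing.residue A ⟨(φ : C → K) s, locRing_val_mem hT φ s⟩ := by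
  show IsLocalRing.residue A _ = IsLocalRing.residue A _
  rw [← sub_eq_zero, ← map_sub]
  exact (residue_eq_zero_iff_val _).mpr (locRing_cong hT hC φ hC.pt s)

theorem locRed_eq_zero_iff (hT : IsFunRingA A T) (hC : IsClass A T C) (φ : locRing A T C)
    (s : C) : locRed hT hC φ = 0 ↔ A.valuation ((φ : C → K) s) < 1 := by
  rw [locRed_eq hT hC φ s]
  exact residue_eq_zero_iff_val _

theorem locRed_ne_zero_iff (hT : IsFunRingA A T) (hC : IsClass A T C) (φ : locRing A T C)
    (s : C) : locRed hT hC φ ≠ 0 ↔ A.valuation ((φ : C → K) s) = 1 := by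
  rw [Ne, locRed_eq_zero_iff hT hC φ s, not_lt]
  constructor
  · intro h
    exact le_antisymm (val_le_one_of_mem (locRing_val_mem hT φ s)) h
  · intro h
    exact h.ge

/-- **The reduction detects the units**: the ring of a class is a local ring. -/
theorem isUnit_iff_locRed_ne_zero (hT : IsFunRingA A T) (hC : IsClass A T C)
    (φ : locRing A T C) : IsUnit φ ↔ locRed hT hC φ ≠ 0 := by
  constructor
  · intro h
    exact (h.map (locRed hT hC)).ne_zero
  · intro h
    have hu : ∀ s : C, A.valuation ((φ : C → K) s) = 1 := fun s =>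
      (locRed_ne_zero_iff hT hC φ s).mp h
    obtain ⟨N, hN, D, hD, hDu, hND⟩ := φ.2
    have hNu : ∀ s : C, A.valuation (N s) = 1 := fun s => by
      rw [← hND s, map_mul, hDu s, hu s, one_mul]
    let ψ : locRing A T C := ⟨fun s => ((φ : C → K) s)⁻¹, D, hD, N, hN, hNu, fun s => by
      have h0 := ne_zero_of_val_eq_one (hu s)
      rw [← hND s]
      field_simp⟩
    refine IsUnit.of_mul_eq_one ψ (Subtype.ext (funext fun s => ?_))
    show (φ : C → K) s * ((φ : C → K) s)⁻¹ = 1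
    exact mul_inv_cancel₀ (ne_zero_of_val_eq_one (hu s))

theorem locRed_restr (hT : IsFunRingA A T) (hC : IsClass A T C) (g : T) (s : C) :
    locRed hT hC (restr A T C g)
      = IsLocalRing.residue A ⟨(g : S → K) s, hT.val_mem g g.2 s⟩ :=
  locRed_eq hT hC _ s

/-- The local ring of a class satisfies the hypotheses of `Stmt_SNF`: constant rank matrices
over it are equivalent to `[[1, 0], [0, 0]]`. -/
theorem snf_locRing (hSNF : Fermat.Agent.FL.Stmt_SNF) (hT : IsFunRingA A T)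
    (hC : IsClass A T C) (m n : ℕ) (Tm : Matrix (Fin m) (Fin n) (locRing A T C))
    (hrank : ∀ s : C, (Tm.map (locEv A T C s)).rank ≤ (Tm.map (locRed hT hC)).rank) :
    ∃ (P : Matrix (Fin m) (Fin m) (locRing A T C)) (Q : Matrix (Fin n) (Fin n) (locRing A T C)),
      IsUnit P ∧ IsUnit Q ∧ ∀ i j, (P * Tm * Q) i j =
        if (i : ℕ) = (j : ℕ) ∧ (i : ℕ) < (Tm.map (locRed hT hC)).rank then 1 else 0 :=
  hSNF (locRing A T C) (IsLocalRing.ResidueField A) K (locRed hT hC)
    (isUnit_iff_locRed_ne_zero hT hC) C (locEv A T C) eq_zero_of_locEv m n Tm hrank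

/-! ### Back to `T` -/

section Back

variable [Finite S]

open Classical in
/-- Extension by zero of a function on a class. -/
def extend (C : Set S) (φ : C → K) : S → K :=
  fun s => if h : s ∈ C then φ ⟨s, h⟩ else 0

theorem extend_of_mem {φ : C → K} {s : S} (h : s ∈ C) : extend C φ s = φ ⟨s, h⟩ := by
  unfold extend
  rw [dif_pos h]

theorem extend_of_notMem {φ : C → K} {s : S} (h : s ∉ C) : extend C φ s = 0 := by
  unfold extend
  rw [dif_neg h]

/-- A function which on every class of a cover is a quotient `N / D` with `N, D ∈ T` and `D`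
unit-valued on the class lies in `T`. -/
theorem mem_of_cover (hT : IsFunRingA A T) (φ : S → K)
    (h : ∀ s₀ : S, ∃ C : Set S, s₀ ∈ C ∧ IsClass A T C ∧
      (fun s : C => φ s) ∈ locRing A T C) : φ ∈ T := by
  classical
  refine mem_of_local_units A T hT.const_mem hT.val_mem φ fun s₀ => ?_
  obtain ⟨C, hs₀, hC, N, hN, D, hD, hDu, hND⟩ := h s₀
  refine ⟨(fun s => C.indicator (fun _ => (1 : K)) s) * D,
    (fun s => C.indicator (fun _ => (1 : K)) s) * N, T.mul_mem hC.ind_mem hD,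
    T.mul_mem hC.ind_mem hN, fun s => ?_, ?_⟩
  · show C.indicator (fun _ => (1 : K)) s * D s * φ s = C.indicator (fun _ => (1 : K)) s * N s
    by_cases hs : s ∈ C
    · rw [Set.indicator_of_mem hs, one_mul, one_mul]
      exact hND ⟨s, hs⟩
    · rw [Set.indicator_of_notMem hs, zero_mul, zero_mul, zero_mul]
  · have h1 : ((fun s => C.indicator (fun _ => (1 : K)) s) * D) s₀ = D s₀ := by
      show C.indicator (fun _ => (1 : K)) s₀ * D s₀ = D s₀
      rw [Set.indicator_of_mem hs₀, one_mul]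
    rw [h1]
    have h2 := hDu ⟨s₀, hs₀⟩
    exact ⟨ne_zero_of_val_eq_one h2, mem_of_val_le_one (val_inv_eq_one h2).le⟩

/-- The extension by zero of an element of the local ring of a class lies in `T`. -/
theorem extend_mem (hT : IsFunRingA A T) (hC : IsClass A T C) (φ : locRing A T C) :
    extend C (φ : C → K) ∈ T := by
  classical
  obtain ⟨N, hN, D, hD, hDu, hND⟩ := φ.2
  set e : S → K := fun s => C.indicator (fun _ => (1 : K)) s with he
  have heT : e ∈ T := hC.ind_mem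
  refine div_mem_of_units A.toSubring T hT.const_mem (e * D + (1 - e)) (e * N)
    (extend C (φ : C → K)) (T.add_mem (T.mul_mem heT hD) (T.sub_mem T.one_mem heT))
    (T.mul_mem heT hN) (fun s => ?_) (fun s => ?_) (fun s => ?_)
  · exact hT.val_mem _ (T.add_mem (T.mul_mem heT hD) (T.sub_mem T.one_mem heT)) s
  · show e s * D s + (1 - e s) ≠ 0 ∧ (e s * D s + (1 - e s))⁻¹ ∈ A.toSubring
    by_cases hs : s ∈ C
    · have h1 : e s = 1 := Set.indicator_of_mem hs _
      rw [h1, one_mul, sub_self, add_zero]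
      have h2 := hDu ⟨s, hs⟩
      exact ⟨ne_zero_of_val_eq_one h2, mem_of_val_le_one (val_inv_eq_one h2).le⟩
    · have h1 : e s = 0 := Set.indicator_of_notMem hs _
      rw [h1, zero_mul, sub_zero, zero_add, inv_one]
      exact ⟨one_ne_zero, A.one_mem⟩
  · show (e s * D s + (1 - e s)) * extend C (φ : C → K) s = e s * N s
    by_cases hs : s ∈ C
    · have h1 : e s = 1 := Set.indicator_of_mem hs _
      rw [h1, one_mul, sub_self, add_zero, one_mul, extend_of_mem hs]
      exact hND ⟨s, hs⟩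
    · have h1 : e s = 0 := Set.indicator_of_notMem hs _
      rw [h1, extend_of_notMem hs, mul_zero, zero_mul]

end Back

/-! ### The rings `genRing` and `pairRing` -/

section Gen

variable {M ι : Type} (h : ι → M → K)

theorem const_mem_pairRing' {a : K} (ha : a ∈ A) :
    (fun _ : M × M => a) ∈ pairRing A.toSubring h :=
  Subring.subset_closure (Or.inl ⟨a, ha, rfl⟩)

theorem fst_mem_pairRing' (j : ι) : (fun p : M × M => h j p.1) ∈ pairRing A.toSubring h :=
  Subring.subset_closure (Or.inr (Or.inl ⟨j, rfl⟩))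

theorem snd_mem_pairRing' (j : ι) : (fun p : M × M => h j p.2) ∈ pairRing A.toSubring h :=
  Subring.subset_closure (Or.inr (Or.inr ⟨j, rfl⟩))

theorem pairRing_val_mem' (hA : ∀ j x, h j x ∈ A) {g : M × M → K}
    (hg : g ∈ pairRing A.toSubring h) (p : M × M) : g p ∈ A := by
  induction hg using Subring.closure_induction with
  | mem g hg =>
    rcases hg with ⟨a, ha, rfl⟩ | ⟨j, rfl⟩ | ⟨j, rfl⟩
    · exact ha
    · exact hA j _
    · exact hA j _
  | zero => exact A.zero_mem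
  | one => exact A.one_mem
  | add g g' _ _ hg hg' => exact A.add_mem _ _ hg hg'
  | neg g _ hg => exact A.neg_mem _ hg
  | mul g g' _ _ hg hg' => exact A.mul_mem _ _ hg hg'

theorem isFunRingA_genRing (hA : ∀ j x, h j x ∈ A) : IsFunRingA A (genRing A.toSubring h) where
  const_mem := fun a ha => Subring.subset_closure (Or.inl ⟨a, ha, rfl⟩)
  val_mem := by
    intro g hg s
    induction hg using Subring.closure_induction with
    | mem g hg =>
      rcases hg with ⟨a, ha, rfl⟩ | ⟨j, rfl⟩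
      · exact ha
      · exact hA j s
    | zero => exact A.zero_mem
    | one => exact A.one_mem
    | add g g' _ _ hg hg' => exact A.add_mem _ _ hg hg'
    | neg g _ hg => exact A.neg_mem _ hg
    | mul g g' _ _ hg hg' => exact A.mul_mem _ _ hg hg'

theorem isFunRingA_pairRing (hA : ∀ j x, h j x ∈ A) :
    IsFunRingA A (pairRing A.toSubring h) where
  const_mem := fun _ ha => const_mem_pairRing' h ha
  val_mem := fun _ hg p => pairRing_val_mem' h hA hg p

/-- Constant reduction on a set passes from generators to the generated ring. -/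
theorem cong_closure {S' : Type} (G : Set (S' → K)) (C : Set S')
    (hG : ∀ g ∈ G, (∀ s, g s ∈ A) ∧ ∀ s ∈ C, ∀ s' ∈ C, A.valuation (g s - g s') < 1)
    (g : S' → K) (hg : g ∈ Subring.closure G) :
    (∀ s, g s ∈ A) ∧ ∀ s ∈ C, ∀ s' ∈ C, A.valuation (g s - g s') < 1 := by
  induction hg using Subring.closure_induction with
  | mem g hg => exact hG g hg
  | zero => exact ⟨fun _ => A.zero_mem, fun s _ s' _ => by simp⟩
  | one => exact ⟨fun _ => A.one_mem, fun s _ s' _ => by simp⟩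
  | add g g' _ _ hg hg' =>
    refine ⟨fun s => A.add_mem _ _ (hg.1 s) (hg'.1 s), fun s hs s' hs' => ?_⟩
    show A.valuation (g s + g' s - (g s' + g' s')) < 1
    rw [show g s + g' s - (g s' + g' s') = (g s - g s') + (g' s - g' s') by ring]
    exact val_add_lt_of_lt (hg.2 s hs s' hs') (hg'.2 s hs s' hs')
  | neg g _ hg =>
    refine ⟨fun s => A.neg_mem _ (hg.1 s), fun s hs s' hs' => ?_⟩
    show A.valuation (-g s - -g s') < 1
    rw [show -g s - -g s' = -(g s - g s') by ring, Valuation.map_neg]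
    exact hg.2 s hs s' hs'
  | mul g g' _ _ hg hg' =>
    refine ⟨fun s => A.mul_mem _ _ (hg.1 s) (hg'.1 s), fun s hs s' hs' => ?_⟩
    show A.valuation (g s * g' s - g s' * g' s') < 1
    rw [show g s * g' s - g s' * g' s' = (g s - g s') * g' s + (g' s - g' s') * g s' by ring]
    exact val_add_lt_of_lt
      (val_mul_lt_of_lt_of_le (hg.2 s hs s' hs') (val_le_one_of_mem (hg'.1 s)))
      (val_mul_lt_of_lt_of_le (hg'.2 s hs s' hs') (val_le_one_of_mem (hg.1 s')))

/-- A class for `genRing`: the generators have constant reduction on `C` and the indicator of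
`C` lies in `genRing`. -/
theorem isClass_genRing (hA : ∀ j x, h j x ∈ A) (C : Set M) (hne : C.Nonempty)
    (hind : (fun s => C.indicator (fun _ => (1 : K)) s) ∈ genRing A.toSubring h)
    (hcong : ∀ j, ∀ s ∈ C, ∀ s' ∈ C, A.valuation (h j s - h j s') < 1) :
    IsClass A (genRing A.toSubring h) C where
  nonempty := hne
  ind_mem := hind
  cong := fun g hg => (cong_closure _ C (fun g hg => by
    rcases hg with ⟨a, ha, rfl⟩ | ⟨j, rfl⟩
    · exact ⟨fun _ => ha, fun s _ s' _ => by simp⟩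
    · exact ⟨fun s => hA j s, hcong j⟩) g hg).2

theorem comp_fst_mem_pairRing {g : M → K} (hg : g ∈ genRing A.toSubring h) :
    (fun p : M × M => g p.1) ∈ pairRing A.toSubring h := by
  induction hg using Subring.closure_induction with
  | mem g hg =>
    rcases hg with ⟨a, ha, rfl⟩ | ⟨j, rfl⟩
    · exact const_mem_pairRing' h ha
    · exact fst_mem_pairRing' h j
  | zero => exact Subring.zero_mem _
  | one => exact Subring.one_mem _
  | add g g' _ _ hg hg' => exact Subring.add_mem _ hg hg'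
  | neg g _ hg => exact Subring.neg_mem _ hg
  | mul g g' _ _ hg hg' => exact Subring.mul_mem _ hg hg'

theorem comp_snd_mem_pairRing {g : M → K} (hg : g ∈ genRing A.toSubring h) :
    (fun p : M × M => g p.2) ∈ pairRing A.toSubring h := by
  induction hg using Subring.closure_induction with
  | mem g hg =>
    rcases hg with ⟨a, ha, rfl⟩ | ⟨j, rfl⟩
    · exact const_mem_pairRing' h ha
    · exact snd_mem_pairRing' h j
  | zero => exact Subring.zero_mem _
  | one => exact Subring.one_mem _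
  | add g g' _ _ hg hg' => exact Subring.add_mem _ hg hg'
  | neg g _ hg => exact Subring.neg_mem _ hg
  | mul g g' _ _ hg hg' => exact Subring.mul_mem _ hg hg'

/-- The product of two classes for `genRing` is a class for `pairRing`. -/
theorem isClass_prod (hA : ∀ j x, h j x ∈ A) {C C' : Set M}
    (hC : IsClass A (genRing A.toSubring h) C) (hC' : IsClass A (genRing A.toSubring h) C') :
    IsClass A (pairRing A.toSubring h) (C ×ˢ C') where
  nonempty := hC.nonempty.prod hC'.nonempty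
  ind_mem := by
    classical
    have h1 := comp_fst_mem_pairRing h hC.ind_mem
    have h2 := comp_snd_mem_pairRing h hC'.ind_mem
    have h3 := Subring.mul_mem _ h1 h2
    have h4 : (fun p : M × M => (C ×ˢ C').indicator (fun _ => (1 : K)) p)
        = (fun p : M × M => C.indicator (fun _ => (1 : K)) p.1)
          * (fun p : M × M => C'.indicator (fun _ => (1 : K)) p.2) := by
      funext p
      show _ = C.indicator (fun _ => (1 : K)) p.1 * C'.indicator (fun _ => (1 : K)) p.2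
      by_cases hp1 : p.1 ∈ C
      · by_cases hp2 : p.2 ∈ C'
        · rw [Set.indicator_of_mem hp1, Set.indicator_of_mem hp2,
            Set.indicator_of_mem (Set.mk_mem_prod hp1 hp2), one_mul]
        · rw [Set.indicator_of_notMem hp2, mul_zero,
            Set.indicator_of_notMem (fun hp => hp2 hp.2)]
      · rw [Set.indicator_of_notMem hp1, zero_mul,
          Set.indicator_of_notMem (fun hp => hp1 hp.1)]
    rw [h4]
    exact h3
  cong := fun g hg => (cong_closure _ (C ×ˢ C') (fun g hg => by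
    rcases hg with ⟨a, ha, rfl⟩ | ⟨j, rfl⟩ | ⟨j, rfl⟩
    · exact ⟨fun _ => ha, fun s _ s' _ => by simp⟩
    · exact ⟨fun s => hA j _, fun s hs s' hs' =>
        hC.cong _ (Subring.subset_closure (Or.inr ⟨j, rfl⟩)) _ hs.1 _ hs'.1⟩
    · exact ⟨fun s => hA j _, fun s hs s' hs' =>
        hC'.cong _ (Subring.subset_closure (Or.inr ⟨j, rfl⟩)) _ hs.2 _ hs'.2⟩) g hg).2

/-- **Final step for (COMUL)**: a function on `M × M` which on every product of classes
`C × C'` (covering `M × M`) lies in the local ring of `pairRing` lies in `pairRing`. -/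
theorem mem_pairRing_of_classes [Finite M] (hA : ∀ j x, h j x ∈ A) (φ : M × M → K)
    (hφ : ∀ x y : M, ∃ C C' : Set M, x ∈ C ∧ y ∈ C' ∧ IsClass A (genRing A.toSubring h) C ∧
      IsClass A (genRing A.toSubring h) C' ∧
      (fun s : ↥(C ×ˢ C') => φ s) ∈ locRing A (pairRing A.toSubring h) (C ×ˢ C')) :
    φ ∈ pairRing A.toSubring h := by
  refine mem_of_cover (isFunRingA_pairRing h hA) φ fun s₀ => ?_
  obtain ⟨C, C', hx, hy, hC, hC', hmem⟩ := hφ s₀.1 s₀.2
  exact ⟨C ×ˢ C', ⟨hx, hy⟩, isClass_prod h hA hC hC', hmem⟩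

/-- **Final step for D-stability**: a function on `M` which on every class of a cover lies in
the local ring of `genRing` lies in `genRing`. -/
theorem mem_genRing_of_classes [Finite M] (hA : ∀ j x, h j x ∈ A) (φ : M → K)
    (hφ : ∀ x : M, ∃ C : Set M, x ∈ C ∧ IsClass A (genRing A.toSubring h) C ∧
      (fun s : C => φ s) ∈ locRing A (genRing A.toSubring h) C) :
    φ ∈ genRing A.toSubring h :=
  mem_of_cover (isFunRingA_genRing h hA) φ hφ

end Gen

end Fermat.Agent.FL.H18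

end
end
-- ==== END Fermat.Agent.FL.H18_Loc

-- ==== BEGIN Fermat.Agent.Lib.HopfOrderLoc.H99_F1
section

/-!
# LocalGen leaves (F1) and (F2): ramification theory for `H = I ⊔ Gal(ℚ̄/L)` (item 71 / S19)

Let `A` be a valuation subring of `ℚ̄` over `ℓ`, `I` its inertia group, `D` its decomposition
group, `L` a number field and `H = I ⊔ Gal(ℚ̄/L)`, an open (hence closed) subgroup of `G_ℚ`
with fixed field `F`.  With `Q = primeUnder A`:

* `stmt_F1` : if the coset `γ H` does not meet `D`, the primes `Q` and `γ⁻¹ Q` differ on the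
  integers of `F` (transitivity of `Gal(ℚ̄/F)` on the primes above a prime of `F`);
* `stmt_F2` : an element of `D` which is congruent to the identity on the integers of `F` lies
  in `H` (surjectivity of `Gal(ℚ̄/F) ∩ D` onto the automorphisms of the residue field over the
  residue field of `F`).  Normality of `L` is not used.
-/

set_option autoImplicit false

open scoped Pointwise

noncomputable section

namespace Fermat.Agent.Lib.HopfOrderLoc.H99

open Fermat.Agent.Lib.FrobExists Fermat.Agent.Lib.InertiaLift Fermat.Agent.Lib.InertiaBridge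

local notation "Qb" => AlgebraicClosure ℚ
local notation "B" => integralClosure ℤ (AlgebraicClosure ℚ)

attribute [local instance] qbar_isAlgebraic' qbar_isAlgClosure' qbar_isGalois'
  intF_smulCommClass intF_isInvariant intF_continuousSMul
  Fermat.Agent.Lib.FrobIntegers.zbarTopologicalSpace
  Fermat.Agent.Lib.FrobIntegers.zbar_discreteTopology

/-- A subgroup containing the fixing subgroup of a number field is closed. -/
theorem isClosed_of_fixingSubgroup_le (L : IntermediateField ℚ Qb) [FiniteDimensional ℚ L]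
    (H : Subgroup (Qb ≃ₐ[ℚ] Qb)) (hLH : L.fixingSubgroup ≤ H) :
    IsClosed (H : Set (Qb ≃ₐ[ℚ] Qb)) := by
  have hopen : IsOpen (H : Set (Qb ≃ₐ[ℚ] Qb)) :=
    Subgroup.isOpen_mono hLH (IntermediateField.fixingSubgroup_isOpen L)
  exact OpenSubgroup.isClosed ⟨H, hopen⟩

/-- Galois correspondence for a subgroup containing the fixing subgroup of a number field. -/
theorem fixingSubgroup_fixedField_of_le (L : IntermediateField ℚ Qb) [FiniteDimensional ℚ L]
    (H : Subgroup (Qb ≃ₐ[ℚ] Qb)) (hLH : L.fixingSubgroup ≤ H) :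
    (IntermediateField.fixedField H).fixingSubgroup = H :=
  InfiniteGalois.fixingSubgroup_fixedField
    (⟨H, isClosed_of_fixingSubgroup_le L H hLH⟩ : ClosedSubgroup (Qb ≃ₐ[ℚ] Qb))

/-- Elements of `Gal(ℚ̄/F)`, `F` the fixed field of `H`, lie in `H`. -/
theorem toGal_mem (L : IntermediateField ℚ Qb) [FiniteDimensional ℚ L]
    (H : Subgroup (Qb ≃ₐ[ℚ] Qb)) (hLH : L.fixingSubgroup ≤ H)
    (k : Qb ≃ₐ[IntermediateField.fixedField H] Qb) :
    toGal (IntermediateField.fixedField H) k ∈ H := by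
  have h1 : toGal (IntermediateField.fixedField H) k ∈
      (IntermediateField.fixedField H).fixingSubgroup := by
    rw [IntermediateField.mem_fixingSubgroup_iff]
    intro x hx
    exact k.commutes ⟨x, hx⟩
  exact (fixingSubgroup_fixedField_of_le L H hLH).le h1

/-- The prime under `A` contains `ℓ`. -/
theorem natCast_mem_primeUnder (ℓ : ℕ) (A : ValuationSubring Qb) (hA : A.LiesOverPrime ℓ) :
    ((ℓ : ℕ) : B) ∈ primeUnder A := by
  rw [mem_primeUnder]
  have hA' : (ℓ : Qb) ∈ A.nonunits := hA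
  have h := A.mem_nonunits_iff.mp hA'
  simpa using h

/-- **(F1).** -/
theorem stmt_F1 : Stmt_F1 := by
  intro ℓ hℓ A hA L hL γ hγ
  have : FiniteDimensional ℚ L := hL
  set H : Subgroup (Qb ≃ₐ[ℚ] Qb) := A.inertiaSubgroupIn ℚ ⊔ L.fixingSubgroup with hH
  have hLH : L.fixingSubgroup ≤ H := le_sup_right
  set F : IntermediateField ℚ Qb := IntermediateField.fixedField H with hF
  by_contra hcon
  push Not at hcon
  have hQprime : (primeUnder A).IsPrime := primeUnder_isPrime A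
  have hQmax : (primeUnder A).IsMaximal :=
    Fermat.Agent.Lib.FrobIntegers.zbar_isMaximal ℓ hℓ (primeUnder A)
      (natCast_mem_primeUnder ℓ A hA)
  have hprime' : (γ⁻¹ • primeUnder A).IsPrime := by
    rw [Ideal.pointwise_smul_eq_comap]
    exact Ideal.comap_isPrime _ _
  have hint : Algebra.IsIntegral (intF F) B :=
    Algebra.IsInvariant.isIntegral_of_profinite (G := Qb ≃ₐ[F] Qb)
  -- the contraction of `γ⁻¹ Q` is contained in the contraction of `Q`
  have hle : (γ⁻¹ • primeUnder A).under (intF F) ≤ (primeUnder A).under (intF F) := by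
    intro a ha
    rw [Ideal.under_def, Ideal.mem_comap] at ha ⊢
    rw [Ideal.mem_pointwise_smul_iff_inv_smul_mem, inv_inv, mem_primeUnder] at ha
    rw [mem_primeUnder]
    have hcoe : ((γ • (algebraMap (intF F) B a) : B) : Qb) = γ ((a : B) : Qb) := rfl
    have hcoe2 : ((algebraMap (intF F) B a : B) : Qb) = ((a : B) : Qb) := rfl
    rw [hcoe] at ha
    rw [hcoe2]
    have hfix : ∀ h ∈ H, h ((a : B) : Qb) = ((a : B) : Qb) := by
      intro h hh
      have hmem : ((a : B) : Qb) ∈ IntermediateField.fixedField H := a.2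
      rw [IntermediateField.mem_fixedField_iff] at hmem
      exact hmem h hh
    have hne := hcon ((a : B) : Qb) (a : B).2 hfix
    have hle1 : A.valuation ((a : B) : Qb) ≤ 1 := valuation_le_one_of_isIntegral A _ (a : B).2
    rcases lt_or_eq_of_le hle1 with hlt | heq
    · exact hlt
    · exact absurd ha (not_lt.mpr (hne heq))
  have hmax1 : ((γ⁻¹ • primeUnder A).under (intF F)).IsMaximal := by
    have hmax' : (γ⁻¹ • primeUnder A).IsMaximal := by
      rw [Ideal.pointwise_smul_eq_comap]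
      exact Ideal.comap_isMaximal_of_equiv _
    exact Ideal.isMaximal_comap_of_isIntegral_of_isMaximal (R := intF F) (γ⁻¹ • primeUnder A)
  have hne2 : (primeUnder A).under (intF F) ≠ ⊤ := (Ideal.IsPrime.under (intF F) _).ne_top
  have hunder : (γ⁻¹ • primeUnder A).under (intF F) = (primeUnder A).under (intF F) :=
    hmax1.eq_of_le hne2 hle
  obtain ⟨g, hg⟩ := Algebra.IsInvariant.exists_smul_of_under_eq_of_profinite
    (A := intF F) (G := Qb ≃ₐ[F] Qb) (γ⁻¹ • primeUnder A) (primeUnder A) hunder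
  -- `toGal g * γ⁻¹` stabilises `Q`
  have hstab : (toGal F g * γ⁻¹) • primeUnder A = primeUnder A := by
    rw [mul_smul, toGal_smul_ideal, ← hg]
  have hdec : toGal F g * γ⁻¹ ∈ A.decompositionSubgroup ℚ :=
    (mem_decompositionSubgroup_iff ℓ hℓ A hA _).mpr hstab
  have hdec' : γ * (toGal F g)⁻¹ ∈ A.decompositionSubgroup ℚ := by
    have := inv_mem hdec
    rwa [mul_inv_rev, inv_inv] at this
  exact hγ _ (inv_mem (toGal_mem L H hLH g)) hdec'

/-- **(F2).** -/
theorem stmt_F2 : Stmt_F2 := by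
  intro ℓ hℓ A hA L hL _ σ hσ hcong
  have : FiniteDimensional ℚ L := hL
  set H : Subgroup (Qb ≃ₐ[ℚ] Qb) := A.inertiaSubgroupIn ℚ ⊔ L.fixingSubgroup with hH
  have hLH : L.fixingSubgroup ≤ H := le_sup_right
  have hIH : A.inertiaSubgroupIn ℚ ≤ H := le_sup_left
  set F : IntermediateField ℚ Qb := IntermediateField.fixedField H with hF
  have hQprime : (primeUnder A).IsPrime := primeUnder_isPrime A
  have hσQ : σ • primeUnder A = primeUnder A :=
    (mem_decompositionSubgroup_iff ℓ hℓ A hA σ).mp hσ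
  have hcomm : ∀ a : intF F, σ • (a : B) - (a : B) ∈ primeUnder A := by
    intro a
    rw [mem_primeUnder]
    have hcoe : ((σ • (a : B) - (a : B) : B) : Qb) = σ ((a : B) : Qb) - ((a : B) : Qb) := rfl
    rw [hcoe]
    apply hcong _ (a : B).2
    intro h hh
    have hmem : ((a : B) : Qb) ∈ IntermediateField.fixedField H := a.2
    rw [IntermediateField.mem_fixedField_iff] at hmem
    exact hmem h hh
  obtain ⟨⟨k, hk⟩, hkψ⟩ := Ideal.Quotient.stabilizerHom_surjective_of_profinite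
    (G := Qb ≃ₐ[F] Qb) ((primeUnder A).under (intF F)) (primeUnder A)
    (resAut F (primeUnder A) σ hσQ hcomm)
  have hkb : ∀ b : B, A.valuation (k (b : Qb) - σ (b : Qb)) < 1 := by
    intro b
    have h2 := DFunLike.congr_fun hkψ (Ideal.Quotient.mk (primeUnder A) b)
    rw [Ideal.Quotient.stabilizerHom_apply, resAut_mk, Ideal.Quotient.eq, mem_primeUnder] at h2
    exact h2
  have hkQ : k • primeUnder A = primeUnder A := MulAction.mem_stabilizer_iff.mp hk
  have hin : (toGal F k)⁻¹ * σ ∈ A.inertiaSubgroupIn ℚ := by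
    apply mem_inertiaSubgroupIn_of_integers ℓ hℓ A hA
    intro b hb
    rw [ValuationSubring.mem_nonunits_iff]
    have hmem : (k • (⟨b, hb⟩ : B) - σ • (⟨b, hb⟩ : B)) ∈ primeUnder A := by
      rw [mem_primeUnder]
      exact hkb ⟨b, hb⟩
    rw [← hkQ, Ideal.mem_pointwise_smul_iff_inv_smul_mem, mem_primeUnder] at hmem
    have hcoe : ((k⁻¹ • (k • (⟨b, hb⟩ : B) - σ • (⟨b, hb⟩ : B)) : B) : Qb) =
        k⁻¹ (k b - σ b) := rfl
    rw [hcoe, map_sub] at hmem
    have h1 : k⁻¹ (k b) = b := AlgEquiv.symm_apply_apply k b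
    rw [h1, Valuation.map_sub_swap] at hmem
    exact hmem
  have hkH : toGal F k ∈ H := toGal_mem L H hLH k
  have : σ = toGal F k * ((toGal F k)⁻¹ * σ) := by
    rw [mul_inv_cancel_left]
  rw [this]
  exact mul_mem hkH (hIH hin)

end Fermat.Agent.Lib.HopfOrderLoc.H99

end
end
-- ==== END Fermat.Agent.Lib.HopfOrderLoc.H99_F1
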