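-- GENERATED (merged mirror, NOTES/tools/trim/merge3_helper67.py): 5 modules of the originals, bodies verbatim.
import Fermat.Agent.Zm.S33_L04_001
import Fermat.Agent.Zm.S33_L04_000
import Fermat.Agent.Zm.S33_L03_000
import Fermat.Agent.FL.Defs2
import Fermat.Agent.Zm.S35_L09_001
import Fermat.Agent.Zm.S35_L13_002
import Fermat.Agent.Zm.S35_L11_001
import Fermat.Agent.Zm.S35_L18_000

-- ==== BEGIN Fermat.Agent.BADP.H28_TIpCore
section

/-!
# S33 (T3), leaf (E) "TI-p" (helper28), part 1: generic tools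

* `PRed.CongM.inv`, `PRed.CongM.of_inM` : more rules for `y ≡ 1 + d α` modulo `d m`.
* `PRed.congM_pow_gen` : `(1 + δ x) ^ p ≡ 1 + d (κ x + τ x ^ p)` if `p δ = d κ`, `δ ^ p = d τ`.
* `PRed.round_formula` : the first order formula for `g h ^ p` and `g h ^ p / Hp ^ p`.
* `H28.regAt_of_frob_lin` : `κ ψ + τ ψ ^ p` regular at `v`, `τ ≠ 0`  ⇒  `ψ` regular at `v`.
* `SSD.KeyHyp.residue_core_gen` : the residue argument, with the regularity hypotheses on `φ`
  split into "regular over the nodes" and "reduction regular at the good points outside `A`".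

Plan: `NOTES/plan/L_S44.md` §6 (helper93), two-round shortcut of helper19.
-/

set_option autoImplicit false
set_option linter.style.haveILetI false
set_option maxHeartbeats 1000000

noncomputable section

open AlgebraicCurve

attribute [local instance] Classical.propDecidable

namespace Fermat.Agent.BAD

open Fermat.Agent.RED.H17 Fermat.Agent.RED

local notation "L" => riemannRochSpace

namespace PRed

variable {K F k F' : Type*} [Field K] [Field F] [Algebra K F] [Field k] [Field F']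
  [Algebra k F'] {S : PRed K F k F'}

/-- An element of `1 + d m`. -/
theorem CongM.of_inM {d y : F} (hd0 : d ≠ 0) (h : S.InM ((y - 1) / d)) : S.CongM d 0 y := by
  refine ⟨(y - 1) / d, h, ?_⟩
  field_simp
  ring

/-- An element `y ≡ 1 + d α` modulo `d m`, `d ∈ m`, `α ∈ V`, is a unit with reduction `1`. -/
theorem CongM.isGU {d α y : F} (hd : S.InM d) (hα : α ∈ S.V) (hy : S.CongM d α y) :
    S.IsGU y ∧ S.rd y = 1 := by
  obtain ⟨μ, hμ, rfl⟩ := hy
  have h1 : S.InM (d * (α + μ)) := hd.mul_right (S.V.add_mem _ _ hα hμ.1)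
  have h2 : 1 + d * (α + μ) ∈ S.V := S.V.add_mem _ _ S.V.one_mem h1.1
  have h3 : S.rd (1 + d * (α + μ)) = 1 := by
    rw [S.rd_add S.V.one_mem h1.1, S.rd_one, h1.2, add_zero]
  exact ⟨⟨h2, by rw [h3]; exact one_ne_zero⟩, h3⟩

/-- The inverse of `y ≡ 1 + d α` is `≡ 1 - d α`. -/
theorem CongM.inv {d α y : F} (hd : S.InM d) (hα : α ∈ S.V) (hy : S.CongM d α y) :
    S.CongM d (-α) y⁻¹ := by
  obtain ⟨hGU, -⟩ := hy.isGU hd hα
  obtain ⟨μ, hμ, hyeq⟩ := hy
  have hy0 : y ≠ 0 := hGU.ne_zero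
  refine ⟨(α * (d * (α + μ)) - μ) * y⁻¹, ?_, ?_⟩
  · refine InM.mul_right (InM.sub ?_ hμ) hGU.inv_mem
    exact InM.mul_left hα (hd.mul_right (S.V.add_mem _ _ hα hμ.1))
  · have e1 : y⁻¹ * y = 1 := inv_mul_cancel₀ hy0
    have e2 : (1 + d * (-α + (α * (d * (α + μ)) - μ) * y⁻¹)) * y = 1 := by
      have : (1 + d * (-α + (α * (d * (α + μ)) - μ) * y⁻¹)) * y =
          y - d * α * y + d * (α * (d * (α + μ)) - μ) * (y⁻¹ * y) := by ring
      rw [this, e1, hyeq]
      ring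
    exact (eq_inv_of_mul_eq_one_left e2).symm

/-- The quotient rule. -/
theorem CongM.div {d α β y z : F} (hd : S.InM d) (hα : α ∈ S.V) (hβ : β ∈ S.V)
    (hy : S.CongM d α y) (hz : S.CongM d β z) : S.CongM d (α - β) (y / z) := by
  rw [div_eq_mul_inv, sub_eq_add_neg]
  exact hy.mul hd hα (S.V.neg_mem _ hβ) (hz.inv hd hβ)

/-- The power rule. -/
theorem CongM.pow {d α y : F} (hd : S.InM d) (hα : α ∈ S.V) (hy : S.CongM d α y) (n : ℕ) :
    S.CongM d (n • α) (y ^ n) := by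
  induction n with
  | zero => simpa using congM_one d
  | succ n ih =>
    rw [pow_succ, succ_nsmul]
    exact ih.mul hd (S.V.toSubring.nsmul_mem hα n) hα hy

variable (S) in
/-- `(1 + δ x) ^ p ≡ 1 + d (κ x + τ x ^ p)` modulo `d m`, if `p δ = d κ` and `δ ^ p = d τ`. -/
theorem congM_pow_gen {p : ℕ} (hp : p.Prime) {δ d κ τ x : F} (hδ : S.InM δ)
    (hκ : κ ∈ S.V) (hx : x ∈ S.V) (h1 : (p : F) * δ = d * κ) (h2 : δ ^ p = d * τ) :
    S.CongM d (κ * x + τ * x ^ p) ((1 + δ * x) ^ p) := by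
  obtain ⟨r, hr, hexp⟩ := S.one_add_pow_prime_mem hp (S.V.mul_mem _ _ hδ.1 hx)
  refine ⟨κ * δ * x ^ 2 * r, ?_, ?_⟩
  · refine InM.mul_right (InM.mul_right (InM.mul_left hκ hδ) (S.V.pow_mem hx 2)) hr
  · rw [hexp, mul_pow δ x p, h2]
    have : (1 : F) + (p : F) * (δ * x) + (p : F) * (δ * x) ^ 2 * r + d * τ * x ^ p =
        1 + (p : F) * δ * (x + δ * x ^ 2 * r) + d * τ * x ^ p := by ring
    rw [this, h1]
    ring

variable (S) in
/-- **The first order formula of a round.**  `h = 1 + δ φ`, `a_i = δ u_i`,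
`Hp = ∏ (s_i - a_i) / s_i`, `g ∈ 1 + d m`, `p δ = d κ`, `δ ^ p = d τ`.  Then
`(g h ^ p - 1) / d` and `(g h ^ p / Hp ^ p - 1) / d` are integral, with reductions
`T (rd φ)` and `T (rd φ) - ∑ T (- rd u_i / rd s_i)`, `T x = rd κ x + rd τ x ^ p`. -/
theorem round_formula {p : ℕ} (hp : p.Prime) {δ d κ τ : F} (hδ : S.InM δ) (hd : S.InM d)
    (hd0 : d ≠ 0) (hκ : κ ∈ S.V) (hτ : τ ∈ S.V) (h1 : (p : F) * δ = d * κ)
    (h2 : δ ^ p = d * τ) {ι : Type*} (A : Finset ι) (s u : ι → F)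
    (hs : ∀ i ∈ A, S.IsGU (s i)) (hu : ∀ i ∈ A, u i ∈ S.V)
    {g φ : F} (hg : S.InM ((g - 1) / d)) (hφ : φ ∈ S.V) :
    ((g * (1 + δ * φ) ^ p - 1) / d ∈ S.V ∧
      S.rd ((g * (1 + δ * φ) ^ p - 1) / d) = S.rd κ * S.rd φ + S.rd τ * S.rd φ ^ p) ∧
    ((g * (1 + δ * φ) ^ p / (∏ i ∈ A, (s i - δ * u i) / s i) ^ p - 1) / d ∈ S.V ∧
      S.rd ((g * (1 + δ * φ) ^ p / (∏ i ∈ A, (s i - δ * u i) / s i) ^ p - 1) / d) =
        S.rd κ * S.rd φ + S.rd τ * S.rd φ ^ p -
          ∑ i ∈ A, (S.rd κ * (-(S.rd (u i) / S.rd (s i))) +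
            S.rd τ * (-(S.rd (u i) / S.rd (s i))) ^ p)) := by
  -- the leading terms
  have hT : ∀ x ∈ S.V, κ * x + τ * x ^ p ∈ S.V ∧
      S.rd (κ * x + τ * x ^ p) = S.rd κ * S.rd x + S.rd τ * S.rd x ^ p := by
    intro x hx
    have e1 : κ * x ∈ S.V := S.V.mul_mem _ _ hκ hx
    have e2 : τ * x ^ p ∈ S.V := S.V.mul_mem _ _ hτ (S.V.pow_mem hx p)
    refine ⟨S.V.add_mem _ _ e1 e2, ?_⟩
    rw [S.rd_add e1 e2, S.rd_mul hκ hx, S.rd_mul hτ (S.V.pow_mem hx p), S.rd_pow hx]
  have hg' : S.CongM d 0 g := CongM.of_inM hd0 hg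
  have hh : S.CongM d (κ * φ + τ * φ ^ p) ((1 + δ * φ) ^ p) :=
    S.congM_pow_gen hp hδ hκ hφ h1 h2
  have hgh : S.CongM d (κ * φ + τ * φ ^ p) (g * (1 + δ * φ) ^ p) := by
    have := hg'.mul hd S.V.zero_mem (hT φ hφ).1 hh
    rwa [zero_add] at this
  -- the factors of `Hp ^ p`
  have hxV : ∀ i ∈ A, -(u i / s i) ∈ S.V := fun i hi => by
    rw [div_eq_mul_inv]
    exact S.V.neg_mem _ (S.V.mul_mem _ _ (hu i hi) (hs i hi).inv_mem)
  have hxrd : ∀ i ∈ A, S.rd (-(u i / s i)) = -(S.rd (u i) / S.rd (s i)) := fun i hi => by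
    have hm : u i * (s i)⁻¹ ∈ S.V := S.V.mul_mem _ _ (hu i hi) (hs i hi).inv_mem
    rw [div_eq_mul_inv, S.rd_neg hm, S.rd_mul (hu i hi) (hs i hi).inv_mem, (hs i hi).rd_inv,
      div_eq_mul_inv]
  have hfac : ∀ i ∈ A, S.CongM d (κ * (-(u i / s i)) + τ * (-(u i / s i)) ^ p)
      (((s i - δ * u i) / s i) ^ p) := by
    intro i hi
    have e : (s i - δ * u i) / s i = 1 + δ * (-(u i / s i)) := by
      have := (hs i hi).ne_zero
      field_simp
      ring
    rw [e]
    exact S.congM_pow_gen hp hδ hκ (hxV i hi) h1 h2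
  have hαV : ∀ i ∈ A, κ * (-(u i / s i)) + τ * (-(u i / s i)) ^ p ∈ S.V := fun i hi =>
    (hT _ (hxV i hi)).1
  have hHp : S.CongM d (∑ i ∈ A, (κ * (-(u i / s i)) + τ * (-(u i / s i)) ^ p))
      ((∏ i ∈ A, (s i - δ * u i) / s i) ^ p) := by
    rw [← Finset.prod_pow]
    exact CongM.prod hd A _ _ hαV hfac
  have hsumV : ∑ i ∈ A, (κ * (-(u i / s i)) + τ * (-(u i / s i)) ^ p) ∈ S.V :=
    Subring.sum_mem S.V.toSubring hαV
  have hf₂ := hgh.div hd (hT φ hφ).1 hsumV hHp
  obtain ⟨a1, a2⟩ := hgh.quot hd0 (hT φ hφ).1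
  obtain ⟨b1, b2⟩ := hf₂.quot hd0 (S.V.sub_mem (hT φ hφ).1 hsumV)
  refine ⟨⟨a1, by rw [a2, (hT φ hφ).2]⟩, b1, ?_⟩
  rw [b2, S.rd_sub (hT φ hφ).1 hsumV, (hT φ hφ).2, (S.rd_sum A _ hαV).2]
  congr 1
  apply Finset.sum_congr rfl
  intro i hi
  rw [(hT _ (hxV i hi)).2, hxrd i hi]

end PRed

namespace H28

/-- If `κ ψ + τ ψ ^ p` is regular at `v`, `τ ≠ 0` a constant and `2 ≤ p`, then `ψ` is regular
at `v`. -/
theorem regAt_of_frob_lin {k F' : Type*} [Field k] [Field F'] [Algebra k F'] (v : Place k F')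
    {p : ℕ} (hp : 2 ≤ p) (κ τ : k) (hτ : τ ≠ 0) {ψ : F'}
    (h : RegAt v (algebraMap k F' κ * ψ + algebraMap k F' τ * ψ ^ p)) : RegAt v ψ := by
  by_contra hψ
  unfold RegAt at h hψ
  push Not at hψ
  have h0 : (0 : WithZero (Multiplicative ℤ)) < v.adicValuation ψ := lt_trans zero_lt_one hψ
  have h1 : v.adicValuation (algebraMap k F' τ * ψ ^ p) = v.adicValuation ψ ^ p := by
    rw [map_mul, map_pow, adicValuation_algebraMap v hτ, one_mul]
  have h2 : v.adicValuation (algebraMap k F' κ * ψ) ≤ v.adicValuation ψ := by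
    rw [map_mul]
    calc v.adicValuation (algebraMap k F' κ) * v.adicValuation ψ
        ≤ 1 * v.adicValuation ψ := by
          gcongr
          exact v.adicValuation_algebraMap_le_one κ
      _ = v.adicValuation ψ := one_mul _
  have h3 : v.adicValuation ψ < v.adicValuation ψ ^ p := by
    have := lt_self_pow₀ hψ (show 1 < p by omega)
    exact this
  have h4 : v.adicValuation (algebraMap k F' κ * ψ + algebraMap k F' τ * ψ ^ p) =
      v.adicValuation ψ ^ p := by
    rw [Valuation.map_add_eq_of_lt_right _ (by rw [h1]; exact lt_of_le_of_lt h2 h3), h1]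
  rw [h4] at h
  exact absurd (lt_trans hψ h3) (not_lt.mpr h)

end H28

namespace SSD

variable {K F k F₁ F₂ : Type*} [Field K] [Field F] [Algebra K F] [Field k] [Field F₁]
  [Algebra k F₁] [Field F₂] [Algebra k F₂] {S : SSD K F k F₁ F₂}

namespace KeyHyp

variable {A₁ : Finset (Place k F₁)} {A₂ : Finset (Place k F₂)}
  {s₁ : Place k F₁ → F} {s₂ : Place k F₂ → F}

/-- **The residue argument, general form**: `φ` is regular over the nodes and its reductions
are regular at the good points outside `A₁`, `A₂`. -/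
theorem residue_core_gen (hK : S.KeyHyp A₁ A₂ s₁ s₂) (hNS : S.IsNS A₁ A₂) {φ : F}
    (hφV₁ : φ ∈ S.c₁.V) (hφV₂ : φ ∈ S.c₂.V)
    (hφnode : ∀ t ∈ S.nodes, ∀ P, S.c₁.r P = some t.1 → 0 ≤ P.ord φ)
    (hφgood₁ : ∀ v ∈ S.c₁.good, v ∉ A₁ → RegAt v (S.c₁.rd φ))
    (hφgood₂ : ∀ v ∈ S.c₂.good, v ∉ A₂ → RegAt v (S.c₂.rd φ))
    (b : Place k F₁ ⊕ Place k F₂ → k) (m : ℕ) (hm : (m : k) ≠ 0)
    {αb₁ : F₁} {αb₂ : F₂} (hα₁ : ∀ Q ∈ A₁, RegAt Q αb₁) (hα₂ : ∀ Q ∈ A₂, RegAt Q αb₂)
    (hφrd₁ : S.c₁.rd φ = αb₁ - (m : F₁) *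
      ∑ i ∈ keyA A₁ A₂, algebraMap k F₁ (b i) / S.c₁.rd (Sum.elim s₁ s₂ i))
    (hφrd₂ : S.c₂.rd φ = αb₂ - (m : F₂) *
      ∑ i ∈ keyA A₁ A₂, algebraMap k F₂ (b i) / S.c₂.rd (Sum.elim s₁ s₂ i)) :
    ∃ e : k, S.c₁.rd φ = algebraMap k F₁ e ∧ S.c₂.rd φ = algebraMap k F₂ e ∧
      (∀ i ∈ keyA A₁ A₂, b i = 0) ∧ αb₁ = algebraMap k F₁ e ∧ αb₂ = algebraMap k F₂ e := by
  -- gluing of `φ` at the nodes
  have hglue : ∀ t ∈ S.nodes, ∃ e : k, VanAt t.1 (S.c₁.rd φ - algebraMap k F₁ e) ∧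
      VanAt t.2 (S.c₂.rd φ - algebraMap k F₂ e) := by
    intro t ht
    obtain ⟨e, he1, he2⟩ := S.glue t ht φ hφV₁ hφV₂ (hφnode t ht)
    rw [← S.c₁.rd_of_mem hφV₁] at he1
    rw [← S.c₂.rd_of_mem hφV₂] at he2
    exact ⟨e, he1, he2⟩
  -- the reductions of `φ` lie in `L(A₁)`, `L(A₂)`
  have hφL₁ : S.c₁.rd φ ∈ L (ptsDiv A₁) := by
    rw [mem_L_iff_ord]
    intro v
    by_cases hv : v ∈ A₁
    · rw [ptsDiv_apply, if_pos hv]
      have := H28.poleLe_formula v (keyA A₁ A₂) (fun i => S.c₁.rd (Sum.elim s₁ s₂ i))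
        (fun i hi => (hK.isGU₁ hi).2)
        (fun i hi => by
          by_cases hiv : i = Sum.inl v
          · rw [hiv]; exact le_of_eq (hK.ord1₁ hv)
          · rw [hK.ord0₁ hi hv hiv]; exact zero_le_one) b m (hα₁ v hv)
      rw [← hφrd₁] at this
      exact this
    · rw [ptsDiv_apply, if_neg hv, neg_zero]
      have hreg : RegAt v (S.c₁.rd φ) := by
        by_cases hvg : v ∈ S.c₁.good
        · exact hφgood₁ v hvg hv
        · have : v ∈ S.br₁ := by
            by_contra hvb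
            exact hvg (S.good₁_of_notMem hvb)
          obtain ⟨t, ht, rfl⟩ := Finset.mem_image.mp this
          obtain ⟨e, he, -⟩ := hglue t ht
          exact RegAt.of_vanAt_sub he
      exact (regAt_iff_ord v _).mp hreg
  have hφL₂ : S.c₂.rd φ ∈ L (ptsDiv A₂) := by
    rw [mem_L_iff_ord]
    intro v
    by_cases hv : v ∈ A₂
    · rw [ptsDiv_apply, if_pos hv]
      have := H28.poleLe_formula v (keyA A₁ A₂) (fun i => S.c₂.rd (Sum.elim s₁ s₂ i))
        (fun i hi => (hK.isGU₂ hi).2)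
        (fun i hi => by
          by_cases hiv : i = Sum.inr v
          · rw [hiv]; exact le_of_eq (hK.ord1₂ hv)
          · rw [hK.ord0₂ hi hv hiv]; exact zero_le_one) b m (hα₂ v hv)
      rw [← hφrd₂] at this
      exact this
    · rw [ptsDiv_apply, if_neg hv, neg_zero]
      have hreg : RegAt v (S.c₂.rd φ) := by
        by_cases hvg : v ∈ S.c₂.good
        · exact hφgood₂ v hvg hv
        · have : v ∈ S.br₂ := by
            by_contra hvb
            exact hvg (S.good₂_of_notMem hvb)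
          obtain ⟨t, ht, rfl⟩ := Finset.mem_image.mp this
          obtain ⟨e, -, he⟩ := hglue t ht
          exact RegAt.of_vanAt_sub he
      exact (regAt_iff_ord v _).mp hreg
  -- the reductions of `φ` are a constant
  obtain ⟨e, he₁, he₂⟩ := hNS _ hφL₁ _ hφL₂ hglue
  -- the residues vanish
  have hb0 : ∀ i ∈ keyA A₁ A₂, b i = 0 := by
    intro i hi
    rcases mem_keyA.mp hi with ⟨Q, hQ, rfl⟩ | ⟨Q, hQ, rfl⟩
    · refine H28.residue_zero Q (keyA A₁ A₂) (fun i => S.c₁.rd (Sum.elim s₁ s₂ i)) hi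
        (hK.ord1₁ hQ) (fun j hj hne => hK.ord0₁ hj hQ hne) (hK.isGU₁ hi).2 b m hm
        (αb := αb₁ - algebraMap k F₁ e) ((hα₁ Q hQ).sub (regAt_algebraMap Q e)) ?_
      rw [sub_right_comm, ← hφrd₁, he₁, sub_self]
    · refine H28.residue_zero Q (keyA A₁ A₂) (fun i => S.c₂.rd (Sum.elim s₁ s₂ i)) hi
        (hK.ord1₂ hQ) (fun j hj hne => hK.ord0₂ hj hQ hne) (hK.isGU₂ hi).2 b m hm
        (αb := αb₂ - algebraMap k F₂ e) ((hα₂ Q hQ).sub (regAt_algebraMap Q e)) ?_
      rw [sub_right_comm, ← hφrd₂, he₂, sub_self]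
  have hsum₁ : ∑ i ∈ keyA A₁ A₂, algebraMap k F₁ (b i) / S.c₁.rd (Sum.elim s₁ s₂ i) = 0 :=
    Finset.sum_eq_zero fun i hi => by rw [hb0 i hi, map_zero, zero_div]
  have hsum₂ : ∑ i ∈ keyA A₁ A₂, algebraMap k F₂ (b i) / S.c₂.rd (Sum.elim s₁ s₂ i) = 0 :=
    Finset.sum_eq_zero fun i hi => by rw [hb0 i hi, map_zero, zero_div]
  refine ⟨e, he₁, he₂, hb0, ?_, ?_⟩
  · rw [← he₁, hφrd₁, hsum₁, mul_zero, sub_zero]
  · rw [← he₂, hφrd₂, hsum₂, mul_zero, sub_zero]

end KeyHyp

end SSD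

end Fermat.Agent.BAD

end
end
-- ==== END Fermat.Agent.BADP.H28_TIpCore

-- ==== BEGIN Fermat.Agent.BADP.H97_Local
section

/-!
# BAD_p (S44, row 38), leaf (d3) LOCAL (helper97): local equations of invariant divisors

`S : SSD K F k F₁ F₂`, `𝓘` a set of semilinear automorphisms (the group `I₂`), `D` an
`𝓘`-invariant divisor.

* `local_node` : at a node `s` with an `𝓘`-invariant annulus coordinate `t`, the function
  `G = ∏_{P → s} (t - t(P)) ^ D(P)` and the constant `C = ∏_{P → s} t(P) ^ D(P)` are fixed by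
  `𝓘`, `ord_P G = D P` on the fibre of `s`, `G` is a `V₁`-unit and `G / C` is a `V₂`-unit.
* `local_good` : at a good place `Q` of a component with an `𝓘`-invariant coordinate `t`,
  `G = ∏_{P → Q} (t - t(P)) ^ D(P)` is fixed by `𝓘`, `ord_P G = D P` on the fibre, and `G` is a
  unit of the component.
* `isFC_of_sq_sub`, `isFC_mul_const` : the first-order behaviour of `G / σ G` from the
  arithmetic statements (A2), (A3) (as hypotheses): input of helper28's `SSD.dcore_gen`.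

Plan: `NOTES/plan/L_S44.md` §12.2 (d3), (d4).
-/

set_option autoImplicit false
set_option linter.style.haveILetI false

noncomputable section

open AlgebraicCurve

attribute [local instance] Classical.propDecidable

namespace Fermat.Agent.BADP.H97

open Fermat.Agent.RED.H17 Fermat.Agent.RED Fermat.Agent.BAD

section Smul

variable {K F : Type*} [Field K] [Field F] [Algebra K F]

theorem smul_prod_zpow {ι : Type*} (σ : SemilinearAut K F) (s : Finset ι) (f : ι → F)
    (n : ι → ℤ) : σ • ∏ i ∈ s, f i ^ n i = ∏ i ∈ s, (σ • f i) ^ n i := by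
  simp only [SemilinearAut.smul_def, map_prod, map_zpow₀]

theorem baseAut_prod_zpow {ι : Type*} (σ : SemilinearAut K F) (s : Finset ι) (f : ι → K)
    (n : ι → ℤ) :
    SemilinearAut.baseAut σ (∏ i ∈ s, f i ^ n i) =
      ∏ i ∈ s, (SemilinearAut.baseAut σ (f i)) ^ n i := by
  simp only [map_prod, map_zpow₀]

theorem ord_prod_zpow {ι : Type*} (v : Place K F) (s : Finset ι) (f : ι → F) (n : ι → ℤ)
    (hf : ∀ i ∈ s, f i ≠ 0) : v.ord (∏ i ∈ s, f i ^ n i) = ∑ i ∈ s, n i * v.ord (f i) := by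
  rw [ord_prod v s _ fun i hi => zpow_ne_zero _ (hf i hi)]
  exact Finset.sum_congr rfl fun i _ => v.ord_zpow _ _

theorem prod_smul_eq {M : Type*} [CommMonoid M] (Z : Finset (Place K F))
    (σ : SemilinearAut K F) (h1 : ∀ P ∈ Z, σ • P ∈ Z) (h2 : ∀ P ∈ Z, σ⁻¹ • P ∈ Z)
    (φ : Place K F → M) : ∏ P ∈ Z, φ (σ • P) = ∏ P ∈ Z, φ P := by
  refine Finset.prod_bij (fun P _ => σ • P) h1 ?_ ?_ ?_
  · intro P _ P' _ hPP
    exact smul_left_cancel σ hPP
  · intro P' hP'Z
    exact ⟨σ⁻¹ • P', h2 P' hP'Z, smul_inv_smul σ P'⟩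
  · intro P _
    rfl

end Smul

variable {K F k F₁ F₂ : Type*} [Field K] [Field F] [Algebra K F] [Field k] [Field F₁]
  [Algebra k F₁] [Field F₂] [Algebra k F₂] (S : SSD K F k F₁ F₂)

/-- **LOCAL at a node.** -/
theorem local_node (hP : HasPrincipalDivisors K F) (hdeg : ∀ v : Place K F, v.deg = 1)
    {s : Place k F₁ × Place k F₂} (hs : s ∈ S.nodes) {t : F} {ϖ : K}
    (ht : S.IsAnnCoord s t ϖ) (𝓘 : Set (SemilinearAut K F))
    (h𝓘 : ∀ τ ∈ 𝓘, (∀ P : Place K F, S.c₁.r (τ • P) = S.c₁.r P) ∧ τ • t = t)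
    (D : Place K F →₀ ℤ)
    (hD : ∀ τ ∈ 𝓘, ∀ P, S.c₁.r P = some s.1 → D (τ • P) = D P) :
    ∃ (G : F) (C : K), C ≠ 0 ∧ (∀ τ ∈ 𝓘, τ • G = G) ∧
      (∀ τ ∈ 𝓘, SemilinearAut.baseAut τ C = C) ∧
      (∀ P, S.c₁.r P = some s.1 → P.ord G = D P) ∧
      S.c₁.IsGU G ∧ S.c₂.IsGU (algebraMap K F C⁻¹ * G) ∧
      ∀ (f : F) (c₁ c₂ : K) (n : ℕ), S.c₁.IsGU (algebraMap K F c₁ * f) →
        S.c₂.IsGU (algebraMap K F c₂ * f) →
        (∀ P, S.c₁.r P = some s.1 → P.ord f = n * D P) →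
        S.IsCU (c₁ / (c₂ * ϖ ^ s.1.ord (S.c₁.rd (algebraMap K F c₁ * f)) *
          (C / ϖ ^ (∑ P ∈ D.support.filter (fun P => S.c₁.r P = some s.1), D P)) ^ n)) := by
  obtain ⟨τ, hτ⟩ := ht.exists_values hdeg
  set Z : Finset (Place K F) := D.support.filter fun P => S.c₁.r P = some s.1 with hZdef
  have hZ : ∀ P, P ∈ Z ↔ S.c₁.r P = some s.1 ∧ D P ≠ 0 := by
    intro P
    rw [hZdef, Finset.mem_filter, Finsupp.mem_support_iff]
    exact and_comm
  have hZs : ∀ P ∈ Z, S.c₁.r P = some s.1 := fun P hPZ => ((hZ P).mp hPZ).1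
  have hτ0 : ∀ P ∈ Z, τ P ≠ 0 := fun P hPZ => ht.value_ne_zero (hZs P hPZ) (hτ P (hZs P hPZ))
  have hfac₁ : ∀ P ∈ Z, S.c₁.IsGU (t - algebraMap K F (τ P)) := fun P hPZ =>
    (ht.isGU₁_sub hP hs (hZs P hPZ) (hτ P (hZs P hPZ))).1
  have hfac₂ : ∀ P ∈ Z, S.c₂.IsGU (algebraMap K F (τ P)⁻¹ * (t - algebraMap K F (τ P))) :=
    fun P hPZ => (ht.isGU₂_sub hP hs (hZs P hPZ) (hτ P (hZs P hPZ))).1
  have hval : ∀ σ ∈ 𝓘, ∀ P, S.c₁.r P = some s.1 →
      τ (σ • P) = SemilinearAut.baseAut σ (τ P) := by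
    intro σ hσ P hPs
    obtain ⟨hr, hσt⟩ := h𝓘 σ hσ
    have h1 := H28.vanAt_smul_of σ (hτ P hPs)
    rw [smul_sub, hσt, SemilinearAut.smul_algebraMap] at h1
    exact value_unique (σ • P) (hτ (σ • P) ((hr P).trans hPs)) h1
  have hmap : ∀ σ ∈ 𝓘, (∀ P ∈ Z, σ • P ∈ Z) ∧ ∀ P ∈ Z, σ⁻¹ • P ∈ Z := by
    intro σ hσ
    obtain ⟨hr, -⟩ := h𝓘 σ hσ
    constructor
    · intro P hPZ
      rw [hZ]
      exact ⟨(hr P).trans (hZs P hPZ), by rw [hD σ hσ P (hZs P hPZ)]; exact ((hZ P).mp hPZ).2⟩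
    · intro P' hP'Z
      rw [hZ]
      have h1 := hr (σ⁻¹ • P')
      rw [smul_inv_smul] at h1
      have h2 : S.c₁.r (σ⁻¹ • P') = some s.1 := h1.symm.trans (hZs P' hP'Z)
      have h3 := hD σ hσ (σ⁻¹ • P') h2
      rw [smul_inv_smul] at h3
      exact ⟨h2, by rw [← h3]; exact ((hZ P').mp hP'Z).2⟩
  refine ⟨∏ P ∈ Z, (t - algebraMap K F (τ P)) ^ D P, ∏ P ∈ Z, (τ P) ^ D P, ?_, ?_, ?_, ?_, ?_, ?_,
    ?_⟩
  · exact Finset.prod_ne_zero_iff.mpr fun P hPZ => zpow_ne_zero _ (hτ0 P hPZ)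
  · intro σ hσ
    obtain ⟨hr, hσt⟩ := h𝓘 σ hσ
    rw [smul_prod_zpow]
    have h1 : ∀ P ∈ Z, (σ • (t - algebraMap K F (τ P))) ^ D P =
        (t - algebraMap K F (τ (σ • P))) ^ D (σ • P) := by
      intro P hPZ
      rw [smul_sub, hσt, SemilinearAut.smul_algebraMap, hval σ hσ P (hZs P hPZ),
        hD σ hσ P (hZs P hPZ)]
    rw [Finset.prod_congr rfl h1]
    exact prod_smul_eq Z σ (hmap σ hσ).1 (hmap σ hσ).2 (fun P => (t - algebraMap K F (τ P)) ^ D P)
  · intro σ hσ
    rw [baseAut_prod_zpow]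
    have h1 : ∀ P ∈ Z, (SemilinearAut.baseAut σ (τ P)) ^ D P = (τ (σ • P)) ^ D (σ • P) := by
      intro P hPZ
      rw [hval σ hσ P (hZs P hPZ), hD σ hσ P (hZs P hPZ)]
    rw [Finset.prod_congr rfl h1]
    exact prod_smul_eq Z σ (hmap σ hσ).1 (hmap σ hσ).2 (fun P => (τ P) ^ D P)
  · intro P hPs
    rw [ord_prod_zpow P Z _ _ fun P' hP' => (hfac₁ P' hP').ne_zero]
    have h1 : ∀ P' ∈ Z, D P' * P.ord (t - algebraMap K F (τ P')) = if P' = P then D P else 0 := by
      intro P' hP'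
      rw [ht.ord_sub_value hP hs (hZs P' hP') (hτ P' (hZs P' hP')) hPs]
      by_cases hPP : P = P'
      · subst hPP
        simp
      · rw [if_neg hPP, if_neg (Ne.symm hPP), mul_zero]
    rw [Finset.sum_congr rfl h1, Finset.sum_ite_eq' Z P]
    split_ifs with hPZ
    · rfl
    · by_contra hne
      exact hPZ ((hZ P).mpr ⟨hPs, fun h0 => hne (by rw [h0])⟩)
  · exact (PRed.IsGU.prod_zpow Z _ _ hfac₁).1
  · have e : algebraMap K F (∏ P ∈ Z, (τ P) ^ D P)⁻¹ *
        ∏ P ∈ Z, (t - algebraMap K F (τ P)) ^ D P =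
        ∏ P ∈ Z, (algebraMap K F (τ P)⁻¹ * (t - algebraMap K F (τ P))) ^ D P := by
      rw [map_inv₀, map_prod]
      simp only [map_zpow₀, mul_zpow, Finset.prod_mul_distrib, map_inv₀, inv_zpow]
      rw [Finset.prod_inv_distrib]
    rw [e]
    exact (PRed.IsGU.prod_zpow Z _ _ hfac₂).1
  · intro f c₁ c₂ n h₁ h₂ hf
    have hϖ := ht.ϖ_ne_zero
    -- the constant of `nodeRad` in terms of `C`
    have hC : ((∏ P ∈ Z, (τ P) ^ D P) / ϖ ^ ∑ P ∈ Z, D P) ^ n =
        ∏ P ∈ Z, (τ P / ϖ) ^ ((n : ℤ) * D P) := by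
      rw [← H28.prod_zpow_sum Z ϖ hϖ D, ← Finset.prod_div_distrib, ← Finset.prod_pow]
      refine Finset.prod_congr rfl fun P _ => ?_
      rw [← div_zpow, mul_comm, zpow_mul, zpow_natCast]
    rw [hC]
    rcases Nat.eq_zero_or_pos n with hn | hn
    · -- `n = 0`: no zero or pole on the fibre
      have h := S.nodeRad hP hs ht τ hτ h₁ h₂ ∅ (fun P => by
        constructor
        · intro h
          exact absurd h (Finset.notMem_empty P)
        · rintro ⟨hPs, hne⟩
          rw [hf P hPs, hn] at hne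
          simp at hne)
      rw [Finset.prod_empty] at h
      have e : ∏ P ∈ Z, (τ P / ϖ) ^ ((n : ℤ) * D P) = 1 := by
        refine Finset.prod_eq_one fun P _ => ?_
        rw [hn]
        simp
      rw [e]
      exact h
    · have hn0 : (n : ℤ) ≠ 0 := by exact_mod_cast hn.ne'
      have h := S.nodeRad hP hs ht τ hτ h₁ h₂ Z (fun P => by
        rw [hZ]
        constructor
        · rintro ⟨hPs, hne⟩
          exact ⟨hPs, by rw [hf P hPs]; exact mul_ne_zero hn0 hne⟩
        · rintro ⟨hPs, hne⟩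
          refine ⟨hPs, fun h0 => hne ?_⟩
          rw [hf P hPs, h0, mul_zero])
      have e : ∏ P ∈ Z, (τ P / ϖ) ^ ((n : ℤ) * D P) = ∏ P ∈ Z, (τ P / ϖ) ^ P.ord f :=
        Finset.prod_congr rfl fun P hPZ => by rw [hf P (hZs P hPZ)]
      rw [e]
      exact h

/-- **LOCAL at a good place** of a component. -/
theorem local_good {F' : Type*} [Field F'] [Algebra k F'] (T : PRed K F k F')
    (hP : HasPrincipalDivisors K F) (hdeg : ∀ v : Place K F, v.deg = 1)
    {Q : Place k F'} {t : F} (ht : T.IsCoord t Q) (𝓘 : Set (SemilinearAut K F))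
    (h𝓘 : ∀ τ ∈ 𝓘, (∀ P : Place K F, T.r (τ • P) = T.r P) ∧ τ • t = t)
    (D : Place K F →₀ ℤ)
    (hD : ∀ τ ∈ 𝓘, ∀ P, T.r P = some Q → D (τ • P) = D P) :
    ∃ G : F, (∀ τ ∈ 𝓘, τ • G = G) ∧ (∀ P, T.r P = some Q → P.ord G = D P) ∧ T.IsGU G := by
  have hex : ∀ P : Place K F, ∃ a : K, T.r P = some Q →
      (algebraMap K F a ∈ T.V ∧ T.rd (algebraMap K F a) = 0 ∧
        VanAt P (t - algebraMap K F a)) := by
    intro P
    by_cases hPQ : T.r P = some Q
    · obtain ⟨a, ha⟩ := ht.exists_value hP hdeg hPQ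
      exact ⟨a, fun _ => ha⟩
    · exact ⟨0, fun h => absurd h hPQ⟩
  choose τ hτ using hex
  set Z : Finset (Place K F) := D.support.filter fun P => T.r P = some Q with hZdef
  have hZ : ∀ P, P ∈ Z ↔ T.r P = some Q ∧ D P ≠ 0 := by
    intro P
    rw [hZdef, Finset.mem_filter, Finsupp.mem_support_iff]
    exact and_comm
  have hZs : ∀ P ∈ Z, T.r P = some Q := fun P hPZ => ((hZ P).mp hPZ).1
  have hfac : ∀ P ∈ Z, T.IsGU (t - algebraMap K F (τ P)) := fun P hPZ =>
    (ht.sub_const (hτ P (hZs P hPZ)).1 (hτ P (hZs P hPZ)).2.1).isGU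
  have hval : ∀ σ ∈ 𝓘, ∀ P, T.r P = some Q →
      τ (σ • P) = SemilinearAut.baseAut σ (τ P) := by
    intro σ hσ P hPs
    obtain ⟨hr, hσt⟩ := h𝓘 σ hσ
    have h1 := H28.vanAt_smul_of σ (hτ P hPs).2.2
    rw [smul_sub, hσt, SemilinearAut.smul_algebraMap] at h1
    exact value_unique (σ • P) (hτ (σ • P) ((hr P).trans hPs)).2.2 h1
  have hmap : ∀ σ ∈ 𝓘, (∀ P ∈ Z, σ • P ∈ Z) ∧ ∀ P ∈ Z, σ⁻¹ • P ∈ Z := by
    intro σ hσ
    obtain ⟨hr, -⟩ := h𝓘 σ hσ
    constructor
    · intro P hPZ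
      rw [hZ]
      exact ⟨(hr P).trans (hZs P hPZ), by rw [hD σ hσ P (hZs P hPZ)]; exact ((hZ P).mp hPZ).2⟩
    · intro P' hP'Z
      rw [hZ]
      have h1 := hr (σ⁻¹ • P')
      rw [smul_inv_smul] at h1
      have h2 : T.r (σ⁻¹ • P') = some Q := h1.symm.trans (hZs P' hP'Z)
      have h3 := hD σ hσ (σ⁻¹ • P') h2
      rw [smul_inv_smul] at h3
      exact ⟨h2, by rw [← h3]; exact ((hZ P').mp hP'Z).2⟩
  refine ⟨∏ P ∈ Z, (t - algebraMap K F (τ P)) ^ D P, ?_, ?_, ?_⟩
  · intro σ hσ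
    obtain ⟨hr, hσt⟩ := h𝓘 σ hσ
    rw [smul_prod_zpow]
    have h1 : ∀ P ∈ Z, (σ • (t - algebraMap K F (τ P))) ^ D P =
        (t - algebraMap K F (τ (σ • P))) ^ D (σ • P) := by
      intro P hPZ
      rw [smul_sub, hσt, SemilinearAut.smul_algebraMap, hval σ hσ P (hZs P hPZ),
        hD σ hσ P (hZs P hPZ)]
    rw [Finset.prod_congr rfl h1]
    exact prod_smul_eq Z σ (hmap σ hσ).1 (hmap σ hσ).2
      (fun P => (t - algebraMap K F (τ P)) ^ D P)
  · intro P hPs
    rw [ord_prod_zpow P Z _ _ fun P' hP' => (hfac P' hP').ne_zero]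
    have h1 : ∀ P' ∈ Z, D P' * P.ord (t - algebraMap K F (τ P')) = if P' = P then D P else 0 := by
      intro P' hP'
      have h2 := hτ P' (hZs P' hP')
      rw [ht.ord_sub_eq hP h2.1 h2.2.1 (hZs P' hP') h2.2.2 hPs]
      by_cases hPP : P = P'
      · subst hPP
        simp
      · rw [if_neg hPP, if_neg (Ne.symm hPP), mul_zero]
    rw [Finset.sum_congr rfl h1, Finset.sum_ite_eq' Z P]
    split_ifs with hPZ
    · rfl
    · by_contra hne
      exact hPZ ((hZ P).mpr ⟨hPs, fun h0 => hne (by rw [h0])⟩)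
  · exact (PRed.IsGU.prod_zpow Z _ _ hfac).1

/-! ### First-order behaviour -/

section FC

variable {F' : Type*} [Field F'] [Algebra k F'] {T : PRed K F k F'} {θ : K}
  {σ : SemilinearAut K F}

theorem rd_intCast (T : PRed K F k F') (m : ℤ) :
    algebraMap K F (m : K) ∈ T.V ∧ T.rd (algebraMap K F (m : K)) = (m : F') := by
  have h1 : algebraMap K F (m : K) = ((m : T.V) : F) := by
    rw [map_intCast]
    push_cast
    rfl
  have hm : algebraMap K F (m : K) ∈ T.V := by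
    rw [h1]
    exact Subtype.mem _
  refine ⟨hm, ?_⟩
  rw [T.rd_of_mem hm]
  have h2 : (⟨algebraMap K F (m : K), hm⟩ : T.V) = (m : T.V) := Subtype.ext h1
  rw [h2, map_intCast]

/-- (A2) `⇒` first order: if `G` is a unit and `(σ G - G) / θ² ∈ V` then
`G / σ G ≡ 1 + 0 θ`. -/
theorem isFC_div_smul_of_sq (hθ : algebraMap K F θ ∈ T.V) (hθ0 : T.rd (algebraMap K F θ) = 0)
    (hθne : θ ≠ 0) {G : F} (hG : T.IsGU G)
    (h : (σ • G - G) / algebraMap K F θ ^ 2 ∈ T.V) : T.IsFC θ (G / (σ • G)) 0 := by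
  have hθF : algebraMap K F θ ≠ 0 := (map_ne_zero_iff _ (algebraMap K F).injective).mpr hθne
  set x : F := (σ • G - G) / algebraMap K F θ ^ 2 with hx
  have e1 : σ • G = G + algebraMap K F θ ^ 2 * x := by
    rw [hx]
    field_simp
    ring
  have hθ2 : algebraMap K F θ ^ 2 * x ∈ T.V := T.V.mul_mem _ _ (T.V.pow_mem hθ 2) h
  have hθ2r : T.rd (algebraMap K F θ ^ 2 * x) = 0 := by
    rw [T.rd_mul (T.V.pow_mem hθ 2) h, T.rd_pow hθ, hθ0]
    simp
  have hσG : T.IsGU (σ • G) := by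
    rw [e1]
    refine ⟨T.V.add_mem _ _ hG.1 hθ2, ?_⟩
    rw [T.rd_add hG.1 hθ2, hθ2r, add_zero]
    exact hG.2
  refine PRed.isFC_of_sq hθ hθ0 hθne ?_
  have e2 : (G / (σ • G) - 1) / algebraMap K F θ ^ 2 = -(x * (σ • G)⁻¹) := by
    have h0 := hσG.ne_zero
    rw [hx]
    field_simp
    ring
  rw [e2]
  exact T.V.neg_mem _ (T.V.mul_mem _ _ h hσG.inv_mem)

/-- (A3) `⇒` first order for constants: if `(σ C / C - (1 - m θ)) / θ²` is integral then
`C / σ C ≡ 1 + m θ`. -/
theorem isFC_const (hθ : algebraMap K F θ ∈ T.V) (hθ0 : T.rd (algebraMap K F θ) = 0)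
    (hθne : θ ≠ 0) {C : K} (m : ℤ)
    (h : algebraMap K F ((SemilinearAut.baseAut σ C / C - (1 - (m : K) * θ)) / θ ^ 2) ∈ T.V) :
    T.IsFC θ (algebraMap K F C / (σ • algebraMap K F C)) (m : F') := by
  have hθF : algebraMap K F θ ≠ 0 := (map_ne_zero_iff _ (algebraMap K F).injective).mpr hθne
  set y : F := algebraMap K F ((SemilinearAut.baseAut σ C / C - (1 - (m : K) * θ)) / θ ^ 2)
    with hy
  obtain ⟨hm, hmr⟩ := rd_intCast T m
  -- `σ C / C = 1 + θ (-m + θ y)`
  have e1 : (σ • algebraMap K F C) / algebraMap K F C =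
      1 + algebraMap K F θ * (-algebraMap K F (m : K) + algebraMap K F θ * y) := by
    rw [SemilinearAut.smul_algebraMap, hy, ← map_div₀, ← map_mul, ← map_neg, ← map_add,
      ← map_mul, ← map_one (algebraMap K F), ← map_add]
    congr 1
    field_simp
    ring
  have hΛ : -algebraMap K F (m : K) + algebraMap K F θ * y ∈ T.V :=
    T.V.add_mem _ _ (T.V.neg_mem _ hm) (T.V.mul_mem _ _ hθ h)
  have hΛr : T.rd (-algebraMap K F (m : K) + algebraMap K F θ * y) = -(m : F') := by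
    rw [T.rd_add (T.V.neg_mem _ hm) (T.V.mul_mem _ _ hθ h), T.rd_neg hm, hmr,
      T.rd_mul hθ h, hθ0, zero_mul, add_zero]
  have h1 : T.IsFC θ ((σ • algebraMap K F C) / algebraMap K F C) (-(m : F')) :=
    ⟨_, hΛ, hΛr, e1⟩
  have h2 := h1.inv hθ hθ0
  rwa [inv_div, neg_neg] at h2

/-- First order for `G = C U`: `C` a constant as in (A3), `U` a unit as in (A2). -/
theorem isFC_const_mul (hθ : algebraMap K F θ ∈ T.V) (hθ0 : T.rd (algebraMap K F θ) = 0)
    (hθne : θ ≠ 0) {C : K} (hC : C ≠ 0) (m : ℤ)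
    (h : algebraMap K F ((SemilinearAut.baseAut σ C / C - (1 - (m : K) * θ)) / θ ^ 2) ∈ T.V)
    {G : F} (hU : T.IsGU (algebraMap K F C⁻¹ * G))
    (hU2 : (σ • (algebraMap K F C⁻¹ * G) - algebraMap K F C⁻¹ * G) / algebraMap K F θ ^ 2 ∈ T.V) :
    T.IsFC θ (G / (σ • G)) (m : F') := by
  have h1 := isFC_const (T := T) (σ := σ) hθ hθ0 hθne m h
  have h2 := isFC_div_smul_of_sq (σ := σ) hθ hθ0 hθne hU hU2
  have h3 := h1.mul hθ hθ0 h2
  rw [add_zero] at h3
  have hCF : algebraMap K F C ≠ 0 := (map_ne_zero_iff _ (algebraMap K F).injective).mpr hC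
  have hσC : σ • algebraMap K F C ≠ 0 := by
    rw [SemilinearAut.smul_algebraMap]
    exact (map_ne_zero_iff _ (algebraMap K F).injective).mpr
      ((map_ne_zero_iff _ (SemilinearAut.baseAut σ).injective).mpr hC)
  have e : algebraMap K F C / (σ • algebraMap K F C) *
      (algebraMap K F C⁻¹ * G / (σ • (algebraMap K F C⁻¹ * G))) = G / (σ • G) := by
    rw [smul_mul', map_inv₀, smul_inv'']
    by_cases hG0 : G = 0
    · rw [hG0]
      simp
    have hσG : σ • G ≠ 0 := by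
      rw [SemilinearAut.smul_def]
      exact (map_ne_zero_iff _ (SemilinearAut.toRingAut σ).injective).mpr hG0
    field_simp
  rwa [e] at h3

end FC

end Fermat.Agent.BADP.H97

end
end
-- ==== END Fermat.Agent.BADP.H97_Local

-- ==== BEGIN Fermat.Agent.FL.Defs5
section

/-!
# G-FL (S19), interface statements, layer 4: the packages of the abstract main theorem

Head of G-FL: helper36.  Plan: `NOTES/plan/G_FL.md` (v2).  Setting: `FL/Defs4.lean`
(`S : RedSetup K F k F'`, `G : GalRed S Γ`).  `L = riemannRochSpace`, `r_* = Finsupp.mapDomain S.r`.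

## Reduction of frames (package RED-FRAME)
* `rc S`            : reduction of constants `K → k` (junk value `0` outside `A = constVal S`).
* `IsIntFrame S e D`: `e` is a basis of `L(D)` of Gauss-integral functions whose reductions are a
                      basis of `L~(r_* D)`.
* `IsEch S e D J M` : `M` is the echelon basis, in the chart `J`, of the coordinates of `L(D)`
                      with respect to `e`; its entries are integral and its reduction spans the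
                      coordinates of `L~(r_* D)`.
* `Stmt_Genus`, `Stmt_FrameInt`, `Stmt_FrameLift`, `Stmt_SubRed`, `Stmt_EchInt`, `Stmt_EchUnique`.

## Representatives (package RED-REP)
* `Stmt_RedLinEq`, `Stmt_Rep`, `Stmt_Sep`, `Stmt_ILift`.

## The family version of the addition (package FAM-ADD)
* `famRing`, `Stmt_FamAdd`.

## The coordinate system and the assembly
* `CoordSys S G 𝒯`, `CoordSys.gen`, `Stmt_Setup`, `Stmt_Basic`, `Stmt_Comul`, `Stmt_DStab`.

This file contains no `sorry`.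
-/

set_option autoImplicit false

noncomputable section

open AlgebraicCurve Matrix

namespace Fermat.Agent.FL

open Fermat.Agent.RED Fermat.Agent.RED.H17 Fermat.Agent.Lib.HopfOrder
  Fermat.Agent.Lib.HopfOrderLoc

section Defs

variable {K F k F' : Type} [Field K] [Field F] [Algebra K F] [Field k] [Field F']
  [Algebra k F']

open Classical in
/-- Reduction of constants (junk value `0` outside `A`). -/
def rc (S : RedSetup K F k F') (c : K) : k :=
  if h : algebraMap K F c ∈ S.V then Classical.choose (S.red_const c h) else 0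

theorem rc_spec (S : RedSetup K F k F') {c : K} (h : algebraMap K F c ∈ S.V) :
    S.red ⟨_, h⟩ = algebraMap k F' (rc S c) := by
  unfold rc
  rw [dif_pos h]
  exact Classical.choose_spec (S.red_const c h)

/-- `e` is a basis of `L(D)` consisting of Gauss-integral functions whose reductions are a basis
of `L~(r_* D)`. -/
def IsIntFrame (S : RedSetup K F k F') {ι : Type} (e : ι → F) (D : Divisor K F) : Prop :=
  IsFrameOf e D ∧ (∀ i, e i ∈ S.V) ∧
    IsFrameOf (fun i => S.rd (e i)) (Finsupp.mapDomain S.r D)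

/-- `M` is the integral echelon basis in the chart `J` of the coordinates of `L(D)` with respect
to `e`, and its reduction spans the coordinates of `L~(r_* D)`. -/
def IsEch (S : RedSetup K F k F') {ι : Type} [Fintype ι] {d : ℕ} (e : ι → F)
    (D : Divisor K F) (J : Fin d → ι) (M : Matrix ι (Fin d) K) : Prop :=
  (∀ a b, M (J a) b = if a = b then 1 else 0) ∧
  colSpace M = coordSpace e (riemannRochSpace D) ∧
  (∀ i b, M i b ∈ constVal S) ∧
  colSpace (M.map (rc S)) =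
    coordSpace (fun i => S.rd (e i)) (riemannRochSpace (Finsupp.mapDomain S.r D))

/-- The ring of functions on `P` generated by the integral constants and the entries of two
families of matrices. -/
def famRing (A : Subring K) {P ι : Type} {d : ℕ} (Mx My : P → Matrix ι (Fin d) K) :
    Subring (P → K) :=
  Subring.closure ({φ | ∃ a ∈ A, φ = fun _ => a} ∪
    ({φ | ∃ i b, φ = fun p => Mx p i b} ∪ {φ | ∃ i b, φ = fun p => My p i b}))

end Defs

/-! ## Package RED-FRAME -/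

/-- **GENUS**: if the genus does not drop, `F` and `F'` satisfy Riemann's theorem with the same
constants, `l(D) ≤ l~(r_* D)` for all `D`, with equality if `deg D ≥ c`.
(`H42.stmt_FFR_riemann` on both sides, `H17.RedSetup.le_finrank_Rsub`, `Rsub_le`.) -/
def Stmt_Genus : Prop :=
  ∀ (K F k F' : Type) [Field K] [Field F] [Algebra K F] [Field k] [Field F'] [Algebra k F']
    [IsAlgClosed K] [IsAlgClosed k] (S : RedSetup K F k F'), IsFF K F → IsFF k F' →
    S.GenusLE' →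
    ∃ (g : ℕ) (c : ℤ), 0 ≤ c ∧ IsRiemann K F g c ∧ IsRiemann k F' g c ∧
      (∀ D : Divisor K F, Module.finrank K (riemannRochSpace D) ≤
        Module.finrank k (riemannRochSpace (Finsupp.mapDomain S.r D))) ∧
      (∀ D : Divisor K F, c ≤ Divisor.degree D →
        Module.finrank k (riemannRochSpace (Finsupp.mapDomain S.r D)) =
          Module.finrank K (riemannRochSpace D))

/-- **FRAME-INT**: if the reductions of the Gauss-integral functions `e i` are linearly
independent, a linear combination of the `e i` is Gauss-integral only if its coefficients are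
integral; then its reduction is the linear combination of the reductions. -/
def Stmt_FrameInt : Prop :=
  ∀ (K F k F' : Type) [Field K] [Field F] [Algebra K F] [Field k] [Field F'] [Algebra k F']
    (S : RedSetup K F k F') (ι : Type) [Fintype ι] (e : ι → F), (∀ i, e i ∈ S.V) →
    LinearIndependent k (fun i => S.rd (e i)) →
    ∀ u : ι → K, (∑ i, u i • e i) ∈ S.V →
      (∀ i, u i ∈ constVal S) ∧ S.rd (∑ i, u i • e i) = ∑ i, rc S (u i) • S.rd (e i)

/-- **FRAME-LIFT**: if `l~(r_* D) ≤ l(D)` then `L(D)` has an integral frame. -/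
def Stmt_FrameLift : Prop :=
  ∀ (K F k F' : Type) [Field K] [Field F] [Algebra K F] [Field k] [Field F'] [Algebra k F']
    [IsAlgClosed K] [IsAlgClosed k] (S : RedSetup K F k F'), IsFF K F → IsFF k F' →
    ∀ D : Divisor K F,
      Module.finrank k (riemannRochSpace (Finsupp.mapDomain S.r D)) ≤
        Module.finrank K (riemannRochSpace D) →
      ∃ (n : ℕ) (e : Fin n → F), IsIntFrame S e D

/-- **SUB-RED**: let `e` be an integral frame of `L(B)` and `E ≥ 0` with
`l~(r_* (B - E)) ≤ l(B - E)`.  The coordinates of `L(B - E)` have an integral basis matrix whose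
reduction is a basis matrix of the coordinates of `L~(r_* (B - E))`. -/
def Stmt_SubRed : Prop :=
  ∀ (K F k F' : Type) [Field K] [Field F] [Algebra K F] [Field k] [Field F'] [Algebra k F']
    [IsAlgClosed K] [IsAlgClosed k] (S : RedSetup K F k F'), IsFF K F → IsFF k F' →
    ∀ (B E : Divisor K F) (ι : Type) [Fintype ι] (e : ι → F), IsIntFrame S e B → 0 ≤ E →
      Module.finrank k (riemannRochSpace (Finsupp.mapDomain S.r (B - E))) ≤
        Module.finrank K (riemannRochSpace (B - E)) →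
      ∃ (d : ℕ) (N : Matrix ι (Fin d) K), (∀ i b, N i b ∈ constVal S) ∧
        LinearIndependent k (fun b : Fin d => fun i : ι => rc S (N i b)) ∧
        colSpace N = coordSpace e (riemannRochSpace (B - E)) ∧
        colSpace (N.map (rc S)) = coordSpace (fun i => S.rd (e i))
          (riemannRochSpace (Finsupp.mapDomain S.r (B - E)))

/-- **ECH-INT**: in the situation of SUB-RED, if the chart `J` is good for the reduction (the
coordinates of `L~(r_* (B - E))` have an echelon basis `M'` in the chart `J`), the coordinates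
of `L(B - E)` have an integral echelon basis in the chart `J`, with reduction `M'`. -/
def Stmt_EchInt : Prop :=
  ∀ (K F k F' : Type) [Field K] [Field F] [Algebra K F] [Field k] [Field F'] [Algebra k F']
    [IsAlgClosed K] [IsAlgClosed k] (S : RedSetup K F k F'), IsFF K F → IsFF k F' →
    ∀ (B E : Divisor K F) (ι : Type) [Fintype ι] (e : ι → F), IsIntFrame S e B → 0 ≤ E →
      Module.finrank k (riemannRochSpace (Finsupp.mapDomain S.r (B - E))) ≤
        Module.finrank K (riemannRochSpace (B - E)) →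
      ∀ (d : ℕ) (J : Fin d → ι) (M' : Matrix ι (Fin d) k),
        (∀ a b, M' (J a) b = if a = b then 1 else 0) →
        colSpace M' = coordSpace (fun i => S.rd (e i))
          (riemannRochSpace (Finsupp.mapDomain S.r (B - E))) →
        ∃ M : Matrix ι (Fin d) K, IsEch S e (B - E) J M ∧ M.map (rc S) = M'

/-- **ECH-UNIQUE** (linear algebra): an echelon basis of a subspace in a chart is unique, and
every subspace of dimension `d` has an echelon basis in some chart. -/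
def Stmt_EchUnique : Prop :=
  ∀ (L ι : Type) [Field L] [Fintype ι] (d : ℕ),
    (∀ (J : Fin d → ι) (M M' : Matrix ι (Fin d) L),
      (∀ a b, M (J a) b = if a = b then 1 else 0) →
      (∀ a b, M' (J a) b = if a = b then 1 else 0) → colSpace M = colSpace M' → M = M') ∧
    (∀ W : Submodule L (ι → L), Module.finrank L W = d →
      ∃ (J : Fin d → ι) (M : Matrix ι (Fin d) L),
        (∀ a b, M (J a) b = if a = b then 1 else 0) ∧ colSpace M = W)

/-! ## Package RED-REP -/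

/-- **RED-LINEQ**: the reduction of a principal divisor is principal. -/
def Stmt_RedLinEq : Prop :=
  ∀ (K F k F' : Type) [Field K] [Field F] [Algebra K F] [Field k] [Field F'] [Algebra k F']
    [IsAlgClosed K] [IsAlgClosed k] (S : RedSetup K F k F'), IsFF K F → IsFF k F' →
    ∀ (D : Divisor K F) (f : F), f ≠ 0 → (∀ v : Place K F, D v = v.ord f) →
      ∃ f' : F', f' ≠ 0 ∧ ∀ Q : Place k F', Finsupp.mapDomain S.r D Q = Q.ord f'

/-- **REP**: a divisor `D` of degree `g` with `l~(r_* D) = 1` is linearly equivalent to exactly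
one effective divisor `E`; `l(E) = l~(r_* E) = 1`. -/
def Stmt_Rep : Prop :=
  ∀ (K F k F' : Type) [Field K] [Field F] [Algebra K F] [Field k] [Field F'] [Algebra k F']
    [IsAlgClosed K] [IsAlgClosed k] (S : RedSetup K F k F'), IsFF K F → IsFF k F' →
    ∀ (g : ℕ) (c : ℤ), IsRiemann K F g c → IsRiemann k F' g c →
    ∀ D : Divisor K F, Divisor.degree D = g →
      Module.finrank k (riemannRochSpace (Finsupp.mapDomain S.r D)) = 1 →
      ∃ E : Divisor K F, 0 ≤ E ∧ (∃ f : F, f ≠ 0 ∧ ∀ v : Place K F, (E - D) v = v.ord f) ∧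
        (∀ E' : Divisor K F, 0 ≤ E' →
          (∃ f : F, f ≠ 0 ∧ ∀ v : Place K F, (E' - D) v = v.ord f) → E' = E) ∧
        Module.finrank K (riemannRochSpace E) = 1 ∧
        Module.finrank k (riemannRochSpace (Finsupp.mapDomain S.r E)) = 1

/-- **SEP**: `L(B - E)` determines the effective divisor `E` (if `deg (B - E) ≥ c + 1`). -/
def Stmt_Sep : Prop :=
  ∀ (k E : Type) [Field k] [Field E] [Algebra k E] [IsAlgClosed k], IsFF k E →
    ∀ (g : ℕ) (c : ℤ), IsRiemann k E g c →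
    ∀ B E₁ E₂ : Divisor k E, 0 ≤ E₁ → 0 ≤ E₂ →
      c + 1 ≤ Divisor.degree (B - E₁) → c + 1 ≤ Divisor.degree (B - E₂) →
      riemannRochSpace (B - E₁) = riemannRochSpace (B - E₂) → E₁ = E₂

/-- **I-LIFT**: every effective divisor of the reduced field is the reduction of an effective
divisor fixed by the inertia group.
(`Q ≠ r(Pinf)`: choose `t ∈ L~(n r(Pinf) - Q)` with a simple zero at `Q`, lift its coordinates in
the rational frame to inertia-fixed integral constants, take the unique zero of the lift in the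
fibre of `Q`: `H17.RedSetup.exists_unique_zero_of_ord_rd_eq_one`.  `Q = r(Pinf)`: take `Pinf`.) -/
def Stmt_ILift : Prop :=
  ∀ (K F k F' : Type) [Field K] [Field F] [Algebra K F] [Field k] [Field F'] [Algebra k F']
    [IsAlgClosed K] [IsAlgClosed k] (S : RedSetup K F k F'), IsFF K F → IsFF k F' →
    S.GenusLE' →
  ∀ (Γ : Type) [Group Γ] (G : GalRed S Γ), HasUnrConst S G → HasRatFrames S G →
  ∀ E' : Divisor k F', 0 ≤ E' →
    ∃ E : Divisor K F, 0 ≤ E ∧ Finsupp.mapDomain S.r E = E' ∧ ∀ σ ∈ G.I, G.act σ • E = E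

/-! ## Package FAM-ADD -/

/-- **FAM-ADD**: the addition in families.  `P` a finite index set; `Ex p, Ey p, Ez p` effective
divisors of degree `g` with constant reductions `Ex', Ey', Ez'` and
`Ez p + E₀ ~ Ex p + Ey p`, `l~(Ex' + Ey' - r_* E₀) = 1`; `Mx p, My p, Mz p` the integral echelon
bases of the coordinates of `L(B₁ - Ex p), L(B₁ - Ey p), L(B₁ - Ez p)` in charts `Jx, Jy, Jz`.
Then every entry of `Mz` is a quotient `N / D` of two elements of the ring generated by the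
integral constants and the entries of `Mx`, `My`, with `D` unit-valued.
(Proof: `H18.locRing` for the ring `famRing` and the class `P` is an `EvRing`; `Stmt_AbsAdd` with
the ranks from `Stmt_ChainCoord` on `F` (at every `p`) and on `F'` (for the reduction);
`Stmt_ECH` in the chart `Jz`; `Stmt_EchUnique`.) -/
def Stmt_FamAdd : Prop :=
  ∀ (K F k F' : Type) [Field K] [Field F] [Algebra K F] [Field k] [Field F'] [Algebra k F']
    [IsAlgClosed K] [IsAlgClosed k] (S : RedSetup K F k F'), IsFF K F → IsFF k F' →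
  ∀ (g : ℕ) (c : ℤ), 0 ≤ c → IsRiemann K F g c → IsRiemann k F' g c →
    (∀ D : Divisor K F, Module.finrank K (riemannRochSpace D) ≤
      Module.finrank k (riemannRochSpace (Finsupp.mapDomain S.r D))) →
  ∀ (B₁ B₂ E₀ : Divisor K F), (g : ℤ) + c + 1 ≤ Divisor.degree B₁ →
    2 * Divisor.degree B₁ + c ≤ Divisor.degree B₂ → 0 ≤ E₀ → Divisor.degree E₀ = g →
  ∀ (n₁ n₂₁ n₂ n₃ n₄ : ℕ) (e₁ : Fin n₁ → F) (e₂₁ : Fin n₂₁ → F) (e₂ : Fin n₂ → F)
    (e₃ : Fin n₃ → F) (e₄ : Fin n₄ → F),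
    IsIntFrame S e₁ B₁ → IsIntFrame S e₂₁ (B₂ - B₁) → IsIntFrame S e₂ B₂ →
    IsIntFrame S e₃ (B₁ + B₂) → IsIntFrame S e₄ (2 • B₁ + 2 • B₂) →
  ∀ (P : Type) [Finite P] (Ex Ey Ez : P → Divisor K F) (Ex' Ey' Ez' : Divisor k F'),
    (∀ p, 0 ≤ Ex p ∧ Divisor.degree (Ex p) = g ∧ Finsupp.mapDomain S.r (Ex p) = Ex') →
    (∀ p, 0 ≤ Ey p ∧ Divisor.degree (Ey p) = g ∧ Finsupp.mapDomain S.r (Ey p) = Ey') →
    (∀ p, 0 ≤ Ez p ∧ Divisor.degree (Ez p) = g ∧ Finsupp.mapDomain S.r (Ez p) = Ez') →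
    (∀ p, ∃ f : F, f ≠ 0 ∧ ∀ v : Place K F, v.ord f = (Ez p + E₀ - Ex p - Ey p) v) →
    Module.finrank k (riemannRochSpace (Ex' + Ey' - Finsupp.mapDomain S.r E₀)) = 1 →
  ∀ (d : ℕ) (Jx Jy Jz : Fin d → Fin n₁) (Mx My Mz : P → Matrix (Fin n₁) (Fin d) K),
    (∀ p, IsEch S e₁ (B₁ - Ex p) Jx (Mx p)) → (∀ p, IsEch S e₁ (B₁ - Ey p) Jy (My p)) →
    (∀ p, IsEch S e₁ (B₁ - Ez p) Jz (Mz p)) →
  ∀ (i : Fin n₁) (b : Fin d), ∃ D N : P → K,
    D ∈ famRing (constVal S).toSubring Mx My ∧ N ∈ famRing (constVal S).toSubring Mx My ∧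
    (∀ p, D p ≠ 0 ∧ (D p)⁻¹ ∈ constVal S) ∧ ∀ p, D p * Mz p i b = N p

/-! ## The coordinate system -/

/-- A coordinate system for the finite set `𝒯` of points of `Pic⁰(F)`: rational integral frames
of `L(B₁), …`, an inertia-fixed base divisor `E₀`, the representatives `E x` (`[E x - E₀] = x`,
`l~(r_* (E x)) = 1`), a chart for every reduced divisor and the integral echelon bases `M x` of
the coordinates of `L(B₁ - E x)`. -/
structure CoordSys {K F k F' : Type} [Field K] [Field F] [Algebra K F] [Field k] [Field F']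
    [Algebra k F'] (S : RedSetup K F k F') {Γ : Type} [Group Γ] (G : GalRed S Γ)
    (𝒯 : Set (Pic0 K F)) where
  /-- the genus -/
  g : ℕ
  /-- the bound in Riemann's theorem -/
  c : ℤ
  hc : 0 ≤ c
  hR : IsRiemann K F g c
  hR' : IsRiemann k F' g c
  semi : ∀ D : Divisor K F, Module.finrank K (riemannRochSpace D) ≤
    Module.finrank k (riemannRochSpace (Finsupp.mapDomain S.r D))
  /-- the first rational divisor -/
  B₁ : Divisor K F
  /-- the second rational divisor -/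
  B₂ : Divisor K F
  hB₁ : (g : ℤ) + c + 1 ≤ Divisor.degree B₁
  hB₂ : 2 * Divisor.degree B₁ + c ≤ Divisor.degree B₂
  fixB₁ : ∀ σ : Γ, G.act σ • B₁ = B₁
  fixB₂ : ∀ σ : Γ, G.act σ • B₂ = B₂
  /-- the number of elements of the frame of `L(B₁)` -/
  n₁ : ℕ
  /-- the number of elements of the frame of `L(B₂ - B₁)` -/
  n₂₁ : ℕ
  /-- the number of elements of the frame of `L(B₂)` -/
  n₂ : ℕ
  /-- the number of elements of the frame of `L(B₁ + B₂)` -/
  n₃ : ℕ
  /-- the number of elements of the frame of `L(2 B₁ + 2 B₂)` -/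
  n₄ : ℕ
  /-- the frame of `L(B₁)` -/
  e₁ : Fin n₁ → F
  /-- the frame of `L(B₂ - B₁)` -/
  e₂₁ : Fin n₂₁ → F
  /-- the frame of `L(B₂)` -/
  e₂ : Fin n₂ → F
  /-- the frame of `L(B₁ + B₂)` -/
  e₃ : Fin n₃ → F
  /-- the frame of `L(2 B₁ + 2 B₂)` -/
  e₄ : Fin n₄ → F
  he₁ : IsIntFrame S e₁ B₁
  he₂₁ : IsIntFrame S e₂₁ (B₂ - B₁)
  he₂ : IsIntFrame S e₂ B₂
  he₃ : IsIntFrame S e₃ (B₁ + B₂)
  he₄ : IsIntFrame S e₄ (2 • B₁ + 2 • B₂)
  fix₁ : ∀ (σ : Γ) i, G.act σ • e₁ i = e₁ i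
  fix₂₁ : ∀ (σ : Γ) i, G.act σ • e₂₁ i = e₂₁ i
  fix₂ : ∀ (σ : Γ) i, G.act σ • e₂ i = e₂ i
  fix₃ : ∀ (σ : Γ) i, G.act σ • e₃ i = e₃ i
  fix₄ : ∀ (σ : Γ) i, G.act σ • e₄ i = e₄ i
  /-- the base divisor -/
  E₀ : Divisor K F
  hE₀ : 0 ≤ E₀
  degE₀ : Divisor.degree E₀ = g
  fixE₀ : ∀ σ ∈ G.I, G.act σ • E₀ = E₀
  /-- the representatives -/
  E : 𝒯 → Divisor K F
  hE : ∀ x : 𝒯, 0 ≤ E x ∧ Divisor.degree (E x) = g
  mkE : ∀ x : 𝒯, ∃ D : Divisor.degZero (K := K) (F := F),
    Pic0.mk D = (x : Pic0 K F) ∧ (D : Divisor K F) = E x - E₀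
  ns : ∀ x : 𝒯, Module.finrank k (riemannRochSpace (Finsupp.mapDomain S.r (E x))) = 1
  /-- the codimension-`g` dimension `l(B₁) - g` -/
  d : ℕ
  /-- the charts -/
  J : Divisor k F' → Fin d → Fin n₁
  /-- the echelon bases -/
  M : 𝒯 → Matrix (Fin n₁) (Fin d) K
  hM : ∀ x : 𝒯, IsEch S e₁ (B₁ - E x) (J (Finsupp.mapDomain S.r (E x))) (M x)

namespace CoordSys

variable {K F k F' : Type} [Field K] [Field F] [Algebra K F] [Field k] [Field F']
  [Algebra k F'] {S : RedSetup K F k F'} {Γ : Type} [Group Γ] {G : GalRed S Γ}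
  {𝒯 : Set (Pic0 K F)} (CS : CoordSys S G 𝒯)

/-- The class of a point: the reduction of its representative. -/
def cls (x : 𝒯) : Divisor k F' := Finsupp.mapDomain S.r (CS.E x)

open Classical in
/-- The generators on a subset `𝒮 ⊆ 𝒯`: the indicators of the classes and the entries of the
echelon bases, cut off by the indicators. -/
def gen (𝒮 : Set (Pic0 K F)) (h𝒮 : 𝒮 ⊆ 𝒯) :
    (𝒯 ⊕ (𝒯 × Fin CS.n₁ × Fin CS.d)) → 𝒮 → K
  | Sum.inl x₀, x => if CS.cls ⟨x, h𝒮 x.2⟩ = CS.cls x₀ then 1 else 0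
  | Sum.inr (x₀, i, b), x => if CS.cls ⟨x, h𝒮 x.2⟩ = CS.cls x₀ then CS.M ⟨x, h𝒮 x.2⟩ i b else 0

end CoordSys

/-- **SETUP**: under the hypotheses of the abstract main theorem every finite `Γ`-stable set
has a coordinate system.
(`Stmt_Genus`; frames from `HasRatFrames`; `E₀~` from `Stmt_NSEX` on `F'` for the reductions of
representatives of the points; `E₀` from `Stmt_ILift`; `E x` from `Stmt_Rep`; charts from
`Stmt_EchUnique`; `M x` from `Stmt_EchInt`.) -/
def Stmt_Setup : Prop :=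
  ∀ (K F k F' : Type) [Field K] [Field F] [Algebra K F] [Field k] [Field F'] [Algebra k F']
    [IsAlgClosed K] [IsAlgClosed k] (S : RedSetup K F k F'), IsFF K F → IsFF k F' →
    S.GenusLE' →
  ∀ (Γ : Type) [Group Γ] (G : GalRed S Γ), HasUnrConst S G → HasRatFrames S G →
  ∀ 𝒯 : Set (Pic0 K F), 𝒯.Finite → (∀ (σ : Γ), ∀ x ∈ 𝒯, G.act σ • x ∈ 𝒯) →
    Nonempty (CoordSys S G 𝒯)

/-- **BASIC**: the generators are integral, inertia-equivariant and separate the points. -/
def Stmt_Basic : Prop :=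
  ∀ (K F k F' : Type) [Field K] [Field F] [Algebra K F] [Field k] [Field F'] [Algebra k F']
    [IsAlgClosed K] [IsAlgClosed k] (S : RedSetup K F k F'), IsFF K F → IsFF k F' →
  ∀ (Γ : Type) [Group Γ] (G : GalRed S Γ) (𝒯 : Set (Pic0 K F)) (CS : CoordSys S G 𝒯)
    (𝒮 : Set (Pic0 K F)) (h𝒮 : 𝒮 ⊆ 𝒯),
    (∀ j x, CS.gen 𝒮 h𝒮 j x ∈ constVal S) ∧
    (∀ j, ∀ σ ∈ G.I, ∀ (x : 𝒮) (hx : G.act σ • (x : Pic0 K F) ∈ 𝒮),
      CS.gen 𝒮 h𝒮 j ⟨_, hx⟩ = SemilinearAut.baseAut (G.act σ) (CS.gen 𝒮 h𝒮 j x)) ∧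
    (∀ x y : 𝒮, x ≠ y → ∃ j, CS.gen 𝒮 h𝒮 j x ≠ CS.gen 𝒮 h𝒮 j y)

/-- **COMUL**: the addition is given by elements of `pairRing`. -/
def Stmt_Comul : Prop :=
  ∀ (K F k F' : Type) [Field K] [Field F] [Algebra K F] [Field k] [Field F'] [Algebra k F']
    [IsAlgClosed K] [IsAlgClosed k] (S : RedSetup K F k F'), IsFF K F → IsFF k F' →
  ∀ (Γ : Type) [Group Γ] (G : GalRed S Γ) (𝒯 : Set (Pic0 K F)), 𝒯.Finite →
  ∀ (CS : CoordSys S G 𝒯) (𝒮 : Set (Pic0 K F)) (h𝒮 : 𝒮 ⊆ 𝒯),
    (∀ x ∈ 𝒮, ∀ y ∈ 𝒮, x + y ∈ 𝒯) →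
    ∀ j, ∃ φ ∈ pairRing (constVal S).toSubring (CS.gen 𝒮 h𝒮),
      ∀ (x y : 𝒮) (hxy : (x : Pic0 K F) + (y : Pic0 K F) ∈ 𝒮),
        φ (x, y) = CS.gen 𝒮 h𝒮 j ⟨_, hxy⟩

/-- **DSTAB**: the ring generated by the generators is stable under the twist by `Γ`. -/
def Stmt_DStab : Prop :=
  ∀ (K F k F' : Type) [Field K] [Field F] [Algebra K F] [Field k] [Field F'] [Algebra k F']
    [IsAlgClosed K] [IsAlgClosed k] (S : RedSetup K F k F'), IsFF K F → IsFF k F' →
  ∀ (Γ : Type) [Group Γ] (G : GalRed S Γ) (𝒯 : Set (Pic0 K F)), 𝒯.Finite →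
    (∀ (σ : Γ), ∀ x ∈ 𝒯, G.act σ • x ∈ 𝒯) →
  ∀ (CS : CoordSys S G 𝒯) (𝒮 : Set (Pic0 K F)) (h𝒮 : 𝒮 ⊆ 𝒯),
    (∀ (σ : Γ), ∀ x ∈ 𝒮, G.act σ • x ∈ 𝒮) →
    ∀ j (σ : Γ), ∃ φ ∈ genRing (constVal S).toSubring (CS.gen 𝒮 h𝒮),
      ∀ (x : 𝒮) (hx : G.act σ • (x : Pic0 K F) ∈ 𝒮),
        φ ⟨_, hx⟩ = SemilinearAut.baseAut (G.act σ) (CS.gen 𝒮 h𝒮 j x)

end Fermat.Agent.FL

end
end
-- ==== END Fermat.Agent.FL.Defs5

-- ==== BEGIN Fermat.Agent.FL.H18_LocEv
section

/-!
# G-FL, package ABS-LOC (helper18): the local ring of a residue class is an `EvRing`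
-/

set_option autoImplicit false

noncomputable section

namespace Fermat.Agent.FL.H18

variable {K : Type} [Field K] {A : ValuationSubring K} {S : Type} {T : Subring (S → K)}
  {C : Set S}

/-- The local ring of a class, with its reduction and its evaluations, is an `EvRing`. -/
def locEvRing (hT : IsFunRingA A T) (hC : IsClass A T C) :
    EvRing (locRing A T C) (IsLocalRing.ResidueField A) K C where
  ρ := locRed hT hC
  ev := locEv A T C
  unit_iff := isUnit_iff_locRed_ne_zero hT hC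
  ev_inj := eq_zero_of_locEv

@[simp] theorem locEvRing_ρ (hT : IsFunRingA A T) (hC : IsClass A T C) :
    (locEvRing hT hC).ρ = locRed hT hC := rfl

@[simp] theorem locEvRing_ev (hT : IsFunRingA A T) (hC : IsClass A T C) (s : C) :
    (locEvRing hT hC).ev s = locEv A T C s := rfl

end Fermat.Agent.FL.H18

end
end
-- ==== END Fermat.Agent.FL.H18_LocEv

-- ==== BEGIN Fermat.Agent.FL.H33_ModCtx
section
attribute [local instance 10000] SubalgebraClass.toAlgebra
attribute [local instance 10000] HahnSeries.powerSeriesAlgebra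

/-!
# G-FL (S19), package MOD-CTX (helper33): the concrete Galois context of the modular curve

Setting of G-RED: `A` a valuation subring of `L` (`= ℚ̄`), `F = laurentBaseChange L F₀`
(`= F_M · ℚ̄`), `h : HasScale A F`, `r` a map of places with the conservation law
(`hr : IsRed A h r`), `S = H17.redSetupOf A h r hr`.

* `redGaloisHom`  : `σ ↦ redGalois σ` as a monoid homomorphism from the decomposition group.
* `modCtx`        : **the concrete `GalRed S Γ`**, `Γ = ↥(A.decompositionSubgroup ℚ)`,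
  `act = arithmeticGalois F₀`, `act' = redGaloisHom`, `I = A.inertiaSubgroup ℚ`.
* `constVal_redSetupOf` : `constVal S = A`.
* `genusLE'_redSetupOf` : `S.GenusLE'` from `GenusLE A h r`.
* `tameR`, `tameSetup`, `tameCtx` : the objects at a tame level `M` (`ℓ ∤ M`, `ℓ ≥ 5` or
  `ℓ = 3, 2 ∣ M` or `ℓ = 2, 3 ∣ M`), from `H76.stmt_DR2`; `tameSetup_genusLE'`,
  `constVal_tameSetup`, `isFF_bar`, `isFF_tame`.

This file contains no `sorry`.
-/

set_option autoImplicit false
set_option linter.style.haveILetI false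
set_option linter.unusedSectionVars false
set_option linter.unusedVariables false
set_option synthInstance.maxHeartbeats 400000
set_option maxHeartbeats 1000000

noncomputable section

open AlgebraicCurve ModularCurve Fermat.Agent.S28 Fermat.Agent.S28.H73 Fermat.Agent.RED.H73
  Fermat.Agent.RED Fermat.Agent.RED.H17 Fermat.Agent.RED.H33

namespace Fermat.Agent.FL.H33

section Abstract

variable {L : Type} [Field L] [Algebra ℚ L] (A : ValuationSubring L)
variable (F₀ : IntermediateField ℚ (LaurentSeries ℚ)) (h : HasScale A (laurentBaseChange L F₀))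

/-- The residual action of the decomposition group is multiplicative. -/
theorem autkHom_mul_apply (σ τ : ↥(A.decompositionSubgroup ℚ)) (a : kV A) :
    autkHom A ((σ * τ : ↥(A.decompositionSubgroup ℚ)) : L ≃ₐ[ℚ] L).toRingEquiv
        (mem_iff_of_mem_decompositionSubgroup A (σ * τ).2) a =
      autkHom A (σ : L ≃ₐ[ℚ] L).toRingEquiv (mem_iff_of_mem_decompositionSubgroup A σ.2)
        (autkHom A (τ : L ≃ₐ[ℚ] L).toRingEquiv (mem_iff_of_mem_decompositionSubgroup A τ.2) a) := by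
  rw [autkHom_eq_smul A _ (σ * τ).2, autkHom_eq_smul A _ σ.2, autkHom_eq_smul A _ τ.2]
  exact mul_smul σ τ a

theorem autkHom_one_apply (a : kV A) :
    autkHom A ((1 : ↥(A.decompositionSubgroup ℚ)) : L ≃ₐ[ℚ] L).toRingEquiv
        (mem_iff_of_mem_decompositionSubgroup A (1 : ↥(A.decompositionSubgroup ℚ)).2) a = a := by
  rw [autkHom_eq_smul A _ (1 : ↥(A.decompositionSubgroup ℚ)).2]
  exact one_smul _ a

/-- `σ ↦ redGalois σ` as a monoid homomorphism from the decomposition group. -/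
def redGaloisHom : ↥(A.decompositionSubgroup ℚ) →*
    SemilinearAut (kV A) ↥(redField A (laurentBaseChange L F₀) h) where
  toFun σ := redGalois A F₀ h σ.1 σ.2
  map_one' := redSemi_eq_one A h _ _ _ _ (autkHom_one_apply A)
  map_mul' σ τ := by
    apply Subtype.ext
    refine Prod.ext (RingEquiv.ext fun y => Subtype.ext ?_) (RingEquiv.ext fun a => ?_)
    · show coeffMap (autkHom A ((σ * τ : ↥(A.decompositionSubgroup ℚ)) : L ≃ₐ[ℚ] L).toRingEquiv
          (mem_iff_of_mem_decompositionSubgroup A (σ * τ).2)) (y : LaurentSeries (kV A)) =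
        coeffMap (autkHom A (σ : L ≃ₐ[ℚ] L).toRingEquiv
            (mem_iff_of_mem_decompositionSubgroup A σ.2))
          (coeffMap (autkHom A (τ : L ≃ₐ[ℚ] L).toRingEquiv
            (mem_iff_of_mem_decompositionSubgroup A τ.2)) (y : LaurentSeries (kV A)))
      ext n
      simp only [coeffMap_coeff]
      exact autkHom_mul_apply A σ τ _
    · exact autkHom_mul_apply A σ τ a

@[simp]
theorem redGaloisHom_apply (σ : ↥(A.decompositionSubgroup ℚ)) :
    redGaloisHom A F₀ h σ = redGalois A F₀ h σ.1 σ.2 := rfl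

variable {A F₀ h} in
/-- The reduction datum attached to a map of places with the conservation law. -/
abbrev setupOf {r : Place L ↥(laurentBaseChange L F₀) →
      Place (kV A) ↥(redField A (laurentBaseChange L F₀) h)} (hr : IsRed A h r) :
    RedSetup L ↥(laurentBaseChange L F₀) (kV A) ↥(redField A (laurentBaseChange L F₀) h) :=
  redSetupOf A h r hr

/-- The valuation ring of the constants of the Gauss valuation is `A`. -/
theorem constVal_redSetupOf {r : Place L ↥(laurentBaseChange L F₀) →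
      Place (kV A) ↥(redField A (laurentBaseChange L F₀) h)} (hr : IsRed A h r) :
    constVal (redSetupOf A h r hr) = A := by
  ext c
  rw [mem_constVal]
  exact algebraMap_mem_gaussValSub_iff A h c

/-- "The genus does not drop", in the form of `RedSetup`. -/
theorem genusLE'_redSetupOf {r : Place L ↥(laurentBaseChange L F₀) →
      Place (kV A) ↥(redField A (laurentBaseChange L F₀) h)} (hr : IsRed A h r)
    (hG : GenusLE A h r) : (redSetupOf A h r hr).GenusLE' := hG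

theorem arithmeticGalois_smul_mem (σ : ↥(A.decompositionSubgroup ℚ))
    (u : ↥(laurentBaseChange L F₀)) (hu : u ∈ gaussValSub A (laurentBaseChange L F₀) h) :
    arithmeticGalois F₀ (σ : L ≃ₐ[ℚ] L) • u ∈ gaussValSub A (laurentBaseChange L F₀) h :=
  (gaussAct A h (σ : L ≃ₐ[ℚ] L).toRingEquiv (mem_iff_of_mem_decompositionSubgroup A σ.2)
    (coeffMap_toRingEquiv_mem F₀ σ.1) ⟨u, hu⟩).2

theorem gaussResF'_arithmeticGalois_smul (σ : ↥(A.decompositionSubgroup ℚ))
    (u : ↥(laurentBaseChange L F₀)) (hu : u ∈ gaussValSub A (laurentBaseChange L F₀) h) :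
    gaussResF' A h ⟨arithmeticGalois F₀ (σ : L ≃ₐ[ℚ] L) • u,
        arithmeticGalois_smul_mem A F₀ h σ u hu⟩ =
      redGalois A F₀ h σ.1 σ.2 • gaussResF' A h ⟨u, hu⟩ := by
  apply Subtype.ext
  exact gaussResF_gaussAct A h (σ : L ≃ₐ[ℚ] L).toRingEquiv
    (mem_iff_of_mem_decompositionSubgroup A σ.2) (coeffMap_toRingEquiv_mem F₀ σ.1) ⟨u, hu⟩

variable [IsAlgClosed L] [IsAlgClosed (kV A)]

/-- **MOD-CTX**: the concrete Galois context: the decomposition group of `A` acts on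
`F = laurentBaseChange L F₀` through the coefficients of `q`-expansions, on the reduced field
through the residual action on the coefficients; the inertia group acts trivially on the
reduced field. -/
def modCtx (hFF : IsFF L ↥(laurentBaseChange L F₀))
    (hFt : IsFF (kV A) ↥(redField A (laurentBaseChange L F₀) h))
    (hscal : H42.FracScalable A (laurentBaseChange L F₀))
    {r : Place L ↥(laurentBaseChange L F₀) →
      Place (kV A) ↥(redField A (laurentBaseChange L F₀) h)} (hr : IsRed A h r) :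
    GalRed (redSetupOf A h r hr) ↥(A.decompositionSubgroup ℚ) where
  act := (arithmeticGalois F₀).comp (A.decompositionSubgroup ℚ).subtype
  act' := redGaloisHom A F₀ h
  I := A.inertiaSubgroup ℚ
  mem_V σ u hu := arithmeticGalois_smul_mem A F₀ h σ u hu
  rd_smul σ u hu := by
    show (redSetupOf A h r hr).rd (arithmeticGalois F₀ (σ : L ≃ₐ[ℚ] L) • u) =
      redGalois A F₀ h σ.1 σ.2 • (redSetupOf A h r hr).rd u
    rw [(redSetupOf A h r hr).rd_of_mem hu,
      (redSetupOf A h r hr).rd_of_mem (arithmeticGalois_smul_mem A F₀ h σ u hu)]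
    exact gaussResF'_arithmeticGalois_smul A F₀ h σ u hu
  r_smul σ P := isRed_decomposition A F₀ h hFF hFt hscal σ.2 hr P
  inertia σ hσ := by
    have hτ : (σ : L ≃ₐ[ℚ] L) ∈ A.inertiaSubgroupIn ℚ := ⟨σ, hσ, rfl⟩
    exact redSemi_eq_one A h _ _ _ _ (autkHom_inertia A hτ σ.2)

section API

variable (hFF : IsFF L ↥(laurentBaseChange L F₀))
  (hFt : IsFF (kV A) ↥(redField A (laurentBaseChange L F₀) h))
  (hscal : H42.FracScalable A (laurentBaseChange L F₀))
  {r : Place L ↥(laurentBaseChange L F₀) →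
    Place (kV A) ↥(redField A (laurentBaseChange L F₀) h)} (hr : IsRed A h r)

@[simp]
theorem modCtx_act (σ : ↥(A.decompositionSubgroup ℚ)) :
    (modCtx A F₀ h hFF hFt hscal hr).act σ = arithmeticGalois F₀ (σ : L ≃ₐ[ℚ] L) := rfl

@[simp]
theorem modCtx_act' (σ : ↥(A.decompositionSubgroup ℚ)) :
    (modCtx A F₀ h hFF hFt hscal hr).act' σ = redGalois A F₀ h σ.1 σ.2 := rfl

@[simp]
theorem modCtx_I : (modCtx A F₀ h hFF hFt hscal hr).I = A.inertiaSubgroup ℚ := rfl

theorem mem_modCtx_I_iff (σ : ↥(A.decompositionSubgroup ℚ)) :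
    σ ∈ (modCtx A F₀ h hFF hFt hscal hr).I ↔ (σ : L ≃ₐ[ℚ] L) ∈ A.inertiaSubgroupIn ℚ := by
  constructor
  · intro hσ
    exact ⟨σ, hσ, rfl⟩
  · rintro ⟨g, hg, hgσ⟩
    have : g = σ := Subtype.ext hgσ
    exact this ▸ hg

/-- The action of `Γ` on the constants is the Galois action. -/
theorem baseAut_modCtx_act (σ : ↥(A.decompositionSubgroup ℚ)) (c : L) :
    SemilinearAut.baseAut ((modCtx A F₀ h hFF hFt hscal hr).act σ) c = (σ : L ≃ₐ[ℚ] L) c := rfl

/-- The action of `Γ` on `Pic⁰` is the Galois action. -/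
theorem modCtx_act_smul_pic0 (σ : ↥(A.decompositionSubgroup ℚ))
    (x : Pic0 L ↥(laurentBaseChange L F₀)) :
    (modCtx A F₀ h hFF hFt hscal hr).act σ • x = (σ : L ≃ₐ[ℚ] L) • x := rfl

/-- The action of `Γ` on functions is the action on the coefficients of `q`-expansions. -/
theorem coe_modCtx_act_smul (σ : ↥(A.decompositionSubgroup ℚ)) (u : ↥(laurentBaseChange L F₀)) :
    (((modCtx A F₀ h hFF hFt hscal hr).act σ • u : ↥(laurentBaseChange L F₀)) :
        LaurentSeries L) =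
      coeffMap ((σ : L ≃ₐ[ℚ] L) : L →+* L) (u : LaurentSeries L) := rfl

/-- The residual action on the reduced field is the action of the decomposition group on the
coefficients of `q`-expansions. -/
theorem coeff_modCtx_act'_smul (σ : ↥(A.decompositionSubgroup ℚ))
    (y : ↥(redField A (laurentBaseChange L F₀) h)) (n : ℤ) :
    (((modCtx A F₀ h hFF hFt hscal hr).act' σ • y : ↥(redField A (laurentBaseChange L F₀) h)) :
        LaurentSeries (kV A)).coeff n = σ • (y : LaurentSeries (kV A)).coeff n := by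
  rw [modCtx_act', coe_redGalois_smul, coeffMap_coeff, autkHom_eq_smul A σ.1 σ.2]

/-- The residual action on the constants of the reduced field. -/
theorem baseAut_modCtx_act' (σ : ↥(A.decompositionSubgroup ℚ)) (a : kV A) :
    SemilinearAut.baseAut ((modCtx A F₀ h hFF hFt hscal hr).act' σ) a = σ • a :=
  autkHom_eq_smul A σ.1 σ.2 a

/-- **(UNR) from its Galois form**: if every element of the residue field is the residue of an
inertia-fixed element of `A`, then the context has unramified constants. -/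
theorem hasUnrConst_modCtx
    (H : ∀ c' : kV A, ∃ c : L, ∃ hc : c ∈ A,
      (∀ σ ∈ A.inertiaSubgroupIn ℚ, σ c = c) ∧ resV A ⟨c, hc⟩ = c') :
    HasUnrConst (redSetupOf A h r hr) (modCtx A F₀ h hFF hFt hscal hr) := by
  intro c'
  obtain ⟨c, hc, hfix, hres⟩ := H c'
  have hmem : algebraMap L ↥(laurentBaseChange L F₀) c ∈ gaussValSub A (laurentBaseChange L F₀) h :=
    (algebraMap_mem_gaussValSub_iff A h c).mpr hc
  refine ⟨c, hmem, fun σ hσ => ?_, ?_⟩
  · exact hfix _ ((mem_modCtx_I_iff A F₀ h hFF hFt hscal hr σ).mp hσ)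
  · rw [(redSetupOf A h r hr).rd_of_mem hmem]
    show gaussResF' A h ⟨algebraMap L ↥(laurentBaseChange L F₀) ((⟨c, hc⟩ : ↥A) : L), hmem⟩ = _
    rw [gaussResF'_algebraMap A h ⟨c, hc⟩ hmem, hres]

end API

end Abstract

/-! ### The tame levels -/

section Tame

variable (M ℓ : ℕ) [NeZero M] (hℓ : ℓ.Prime) (hM : ¬ ℓ ∣ M)
  (htame : 5 ≤ ℓ ∨ (ℓ = 3 ∧ 2 ∣ M) ∨ (ℓ = 2 ∧ 3 ∣ M))
  (A : ValuationSubring (AlgebraicClosure ℚ)) (hA : A.LiesOverPrime ℓ)

/-- `F_M · ℚ̄` is a function field. -/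
theorem isFF_bar : IsFF (AlgebraicClosure ℚ) ↥(modularFunctionFieldBar M) :=
  H95.stmt_HKA_isFF M

/-- The reduced field is a function field. -/
theorem isFF_tame (M ℓ : ℕ) [NeZero M] (hℓ : ℓ.Prime) (hM : ¬ ℓ ∣ M)
    (A : ValuationSubring (AlgebraicClosure ℚ)) (hA : A.LiesOverPrime ℓ) : IsFF (kV A)
    ↥(redField A (modularFunctionFieldBar M) (hasScale_laurentBaseChange A M)) :=
  isFF_redField_bar M ℓ hℓ hM A hA

/-- The Deuring reduction of places at a tame level. -/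
def tameR : Place (AlgebraicClosure ℚ) ↥(modularFunctionFieldBar M) →
    Place (kV A) ↥(redField A (modularFunctionFieldBar M) (hasScale_laurentBaseChange A M)) :=
  Classical.choose (H76.stmt_DR2 M ℓ hℓ hM htame A hA).2

theorem tameR_isRed :
    IsRed A (hasScale_laurentBaseChange A M) (tameR M ℓ hℓ hM htame A hA) :=
  (Classical.choose_spec (H76.stmt_DR2 M ℓ hℓ hM htame A hA).2).1

theorem tameR_genusLE :
    GenusLE A (hasScale_laurentBaseChange A M) (tameR M ℓ hℓ hM htame A hA) :=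
  (Classical.choose_spec (H76.stmt_DR2 M ℓ hℓ hM htame A hA).2).2

/-- The reduction datum at a tame level. -/
def tameSetup : RedSetup (AlgebraicClosure ℚ) ↥(modularFunctionFieldBar M) (kV A)
    ↥(redField A (modularFunctionFieldBar M) (hasScale_laurentBaseChange A M)) :=
  redSetupOf A (hasScale_laurentBaseChange A M) (tameR M ℓ hℓ hM htame A hA)
    (tameR_isRed M ℓ hℓ hM htame A hA)

theorem tameSetup_genusLE' : (tameSetup M ℓ hℓ hM htame A hA).GenusLE' :=
  tameR_genusLE M ℓ hℓ hM htame A hA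

theorem constVal_tameSetup : constVal (tameSetup M ℓ hℓ hM htame A hA) = A :=
  constVal_redSetupOf A (modularFunctionFieldFull M) (hasScale_laurentBaseChange A M)
    (tameR_isRed M ℓ hℓ hM htame A hA)

/-- **MOD-CTX at a tame level**: the Galois context of `F_M · ℚ̄` with its Deuring reduction. -/
def tameCtx : GalRed (tameSetup M ℓ hℓ hM htame A hA) ↥(A.decompositionSubgroup ℚ) :=
  haveI : IsAlgClosed (kV A) := isAlgClosed_kV A
  modCtx A (modularFunctionFieldFull M) (hasScale_laurentBaseChange A M) (isFF_bar M)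
    (isFF_tame M ℓ hℓ hM A hA) (H42.fracScalable_laurentBaseChange A M)
    (tameR_isRed M ℓ hℓ hM htame A hA)

@[simp]
theorem tameCtx_act (σ : ↥(A.decompositionSubgroup ℚ)) :
    (tameCtx M ℓ hℓ hM htame A hA).act σ =
      arithmeticGalois (modularFunctionFieldFull M)
        (σ : AlgebraicClosure ℚ ≃ₐ[ℚ] AlgebraicClosure ℚ) := rfl

@[simp]
theorem tameCtx_I : (tameCtx M ℓ hℓ hM htame A hA).I = A.inertiaSubgroup ℚ := rfl

theorem mem_tameCtx_I_iff (σ : ↥(A.decompositionSubgroup ℚ)) :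
    σ ∈ (tameCtx M ℓ hℓ hM htame A hA).I ↔
      (σ : AlgebraicClosure ℚ ≃ₐ[ℚ] AlgebraicClosure ℚ) ∈ A.inertiaSubgroupIn ℚ := by
  haveI : IsAlgClosed (kV A) := isAlgClosed_kV A
  exact mem_modCtx_I_iff A (modularFunctionFieldFull M) (hasScale_laurentBaseChange A M)
    (isFF_bar M) (isFF_tame M ℓ hℓ hM A hA) (H42.fracScalable_laurentBaseChange A M)
    (tameR_isRed M ℓ hℓ hM htame A hA) σ

/-- The action of `Γ` on `J₀(M)` is the Galois action. -/
theorem tameCtx_act_smul_pic0 (σ : ↥(A.decompositionSubgroup ℚ)) (x : JZero M) :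
    (tameCtx M ℓ hℓ hM htame A hA).act σ • x =
      (σ : AlgebraicClosure ℚ ≃ₐ[ℚ] AlgebraicClosure ℚ) • x := rfl

/-- The action of `Γ` on the constants is the Galois action. -/
theorem baseAut_tameCtx_act (σ : ↥(A.decompositionSubgroup ℚ)) (c : AlgebraicClosure ℚ) :
    SemilinearAut.baseAut ((tameCtx M ℓ hℓ hM htame A hA).act σ) c =
      (σ : AlgebraicClosure ℚ ≃ₐ[ℚ] AlgebraicClosure ℚ) c := rfl

/-- **(UNR) at a tame level from its Galois form** (the Galois form is package MOD-UNR). -/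
theorem hasUnrConst_tameCtx
    (H : ∀ c' : kV A, ∃ c : AlgebraicClosure ℚ, ∃ hc : c ∈ A,
      (∀ σ ∈ A.inertiaSubgroupIn ℚ, σ c = c) ∧ resV A ⟨c, hc⟩ = c') :
    HasUnrConst (tameSetup M ℓ hℓ hM htame A hA) (tameCtx M ℓ hℓ hM htame A hA) := by
  haveI : IsAlgClosed (kV A) := isAlgClosed_kV A
  exact hasUnrConst_modCtx A (modularFunctionFieldFull M) (hasScale_laurentBaseChange A M)
    (isFF_bar M) (isFF_tame M ℓ hℓ hM A hA) (H42.fracScalable_laurentBaseChange A M)
    (tameR_isRed M ℓ hℓ hM htame A hA) H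

end Tame

end Fermat.Agent.FL.H33

end
end
-- ==== END Fermat.Agent.FL.H33_ModCtx
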