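-- GENERATED (merged mirror, NOTES/tools/trim/merge3_helper67.py): 1 modules of the originals, bodies verbatim.
import Fermat.Agent.Zm.S33_L02_002
import Fermat.Agent.Zm.S33_L03_002
import Fermat.Agent.S17.OpenStab
import Fermat.Agent.Zm.S35_L13_002

-- ==== BEGIN Fermat.Agent.S17.Height.H35_MoveDMod
section
attribute [local instance 10000] SubalgebraClass.toAlgebra
attribute [local instance 10000] HahnSeries.powerSeriesAlgebra

/-!
# S17 part H, package MOVE-D (helper35): the modular function field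

`exists_ratModel`: for a `G_ℚ`-invariant class `x : JZero N` and `a₀ : ℕ` there are a divisor `D`
of degree `a₀` with `[D - a₀ ∞] = x` and a set `V ⊆ L(D)` of functions, stable under addition and
multiplication by rational numbers, spanning `L(D)` over `ℚ̄`, such that for every nonzero
`f ∈ V` the effective divisor `div f + D` (of class `x + a₀ ∞`) is `G_ℚ`-stable.
-/

set_option autoImplicit false

noncomputable section

open ModularCurve AlgebraicCurve HahnSeries IntermediateField

namespace Fermat.Agent.S17.H35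

open Fermat.Agent.RED.H42 Fermat.Agent.S17 Fermat.Agent.RED.KD.H22 Fermat.Agent.S24

attribute [local instance] qbar_isAlgebraic qbar_isAlgClosure qbar_isGalois

local notation "L" => riemannRochSpace

/-! ## Orders and leading coefficients under `coeffMap` -/

section CoeffMap

variable {R S : Type*} [CommRing R] [CommRing S]

theorem coeffMap_eq_zero_iff (f : R →+* S) (hf : Function.Injective f) (x : LaurentSeries R) :
    coeffMap f x = 0 ↔ x = 0 := by
  constructor
  · intro h
    ext k
    have := congrArg (fun y : LaurentSeries S => y.coeff k) h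
    simp only [coeffMap_coeff, HahnSeries.coeff_zero] at this
    rw [HahnSeries.coeff_zero]
    exact hf (by rw [this, map_zero])
  · rintro rfl
    exact map_zero _

theorem orderTop_coeffMap (f : R →+* S) (hf : Function.Injective f) (x : LaurentSeries R) :
    (coeffMap f x).orderTop = x.orderTop := by
  by_cases hx : x = 0
  · rw [hx, map_zero, orderTop_zero, orderTop_zero]
  have hx' : coeffMap f x ≠ 0 := fun h => hx ((coeffMap_eq_zero_iff f hf x).mp h)
  rw [← order_eq_orderTop_of_ne_zero hx]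
  apply orderTop_eq_of_le
  · rw [HahnSeries.mem_support, coeffMap_coeff]
    intro h
    have h1 : x.coeff x.order = 0 := hf (by rw [h, map_zero])
    exact hx (HahnSeries.coeff_order_eq_zero.mp h1)
  · intro g hg
    rw [HahnSeries.mem_support, coeffMap_coeff] at hg
    have h1 : x.coeff g ≠ 0 := fun h => hg (by rw [h, map_zero])
    exact HahnSeries.order_le_of_coeff_ne_zero h1

theorem order_coeffMap (f : R →+* S) (hf : Function.Injective f) (x : LaurentSeries R) :
    (coeffMap f x).order = x.order := by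
  by_cases hx : x = 0
  · rw [hx, map_zero, order_zero, order_zero]
  have hx' : coeffMap f x ≠ 0 := fun h => hx ((coeffMap_eq_zero_iff f hf x).mp h)
  have h := orderTop_coeffMap f hf x
  rw [← order_eq_orderTop_of_ne_zero hx, ← order_eq_orderTop_of_ne_zero hx'] at h
  exact_mod_cast h

theorem leadingCoeff_coeffMap (f : R →+* S) (hf : Function.Injective f) (x : LaurentSeries R) :
    (coeffMap f x).leadingCoeff = f x.leadingCoeff := by
  rw [HahnSeries.leadingCoeff_eq, HahnSeries.leadingCoeff_eq, order_coeffMap f hf,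
    coeffMap_coeff]

end CoeffMap

/-! ## The leading coefficient on the modular function field -/

variable (N : ℕ) [NeZero N]

/-- The Galois action on the modular function field. -/
abbrev galN : GQ →* SemilinearAut Kbar (FN N) := arithmeticGalois (modularFunctionFieldFull N)

/-- The leading coefficient of the `q`-expansion. -/
def leadCoeffMod : LeadCoeff (galN N) where
  lc f := (f : LaurentSeries Kbar).leadingCoeff
  lc_mul f g := HahnSeries.leadingCoeff_mul _ _
  lc_algebraMap c := by
    show (algebraMap Kbar (LaurentSeries Kbar) c).leadingCoeff = c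
    rw [algebraMap_laurentSeries_eq_single]
    exact HahnSeries.leadingCoeff_of_single
  lc_smul σ f := by
    show (coeffMap ((σ : GQ) : Kbar →+* Kbar) (f : LaurentSeries Kbar)).leadingCoeff = _
    rw [leadingCoeff_coeffMap _ (RingHom.injective _)]
    rfl
  lc_ne_zero f hf := by
    rw [HahnSeries.leadingCoeff_ne_zero]
    exact fun h => hf (Subtype.ext h)

theorem smul_cuspInf (σ : GQ) : galN N σ • cuspInf N = cuspInf N := by
  apply Place.ext
  rw [SemilinearAut.smul_toValuationSubring]
  ext x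
  rw [ValuationSubring.mem_pointwise_smul_iff_inv_smul_mem]
  unfold cuspInf
  rw [mem_laurentPlace_iff, mem_laurentPlace_iff]
  have h1 : (((galN N σ)⁻¹ • x : FN N) : LaurentSeries Kbar)
      = coeffMap ((σ⁻¹ : GQ) : Kbar →+* Kbar) (x : LaurentSeries Kbar) := by
    rw [← map_inv]
    rfl
  have h2 : ((galN N σ)⁻¹ • x : FN N) = 0 ↔ x = 0 := smul_eq_zero_iff_eq _
  rw [h2, h1, order_coeffMap _ (RingHom.injective _)]

theorem smul_nsmul_cuspInf (a₀ : ℕ) (σ : GQ) :
    galN N σ • (Finsupp.single (cuspInf N) (a₀ : ℤ) : Divisor Kbar (FN N))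
      = Finsupp.single (cuspInf N) (a₀ : ℤ) := by
  rw [SemilinearAut.smul_single, smul_cuspInf]

/-! ## The open subgroups -/

theorem openFamily_finiteIndex : ∀ U ∈ openFamily, U.FiniteIndex := by
  rintro U ⟨E, hE, rfl⟩
  rw [Subgroup.finiteIndex_iff, ← IntermediateField.finrank_eq_fixingSubgroup_index]
  exact Module.finrank_pos.ne'

omit [NeZero N] in
theorem openFamily_sep : ∀ U ∈ openFamily, ∀ σ τ : GQ,
    (∀ c : Kbar, (∀ u ∈ U, SemilinearAut.baseAut (galN N u) c = c) →
      SemilinearAut.baseAut (galN N σ) c = SemilinearAut.baseAut (galN N τ) c) →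
    σ⁻¹ * τ ∈ U := by
  rintro U ⟨E, hE, rfl⟩ σ τ h
  rw [IntermediateField.mem_fixingSubgroup_iff]
  intro c hc
  have h1 := h c (fun u hu => (IntermediateField.mem_fixingSubgroup_iff _ _).1 hu c hc)
  have h2 : σ c = τ c := h1
  show σ⁻¹ (τ c) = c
  rw [← h2]
  exact σ.symm_apply_apply c

/-! ## Invariant classes -/

omit [NeZero N] in
theorem classInvariant_of_fixed (D₁ : Divisor.degZero (K := Kbar) (F := FN N))
    (hx : ∀ σ : GQ, σ • (Pic0.mk D₁ : JZero N) = Pic0.mk D₁) :
    ClassInvariant (galN N) (D₁ : Divisor Kbar (FN N)) := by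
  intro σ
  have h1 := hx σ
  rw [galois_smul_pic0_def, SemilinearAut.pic0_smul_mk] at h1
  have h2 : -(SemilinearAut.degZeroSMulHom (galN N σ) D₁) + D₁
      ∈ (Divisor.principal (K := Kbar) (F := FN N)).addSubgroupOf
        (Divisor.degZero (K := Kbar) (F := FN N)) := QuotientAddGroup.eq.mp h1
  rw [AddSubgroup.mem_addSubgroupOf] at h2
  obtain ⟨f, hf, hD⟩ := h2
  refine ⟨f⁻¹, inv_ne_zero hf, fun v => ?_⟩
  rw [Place.ord_inv, ← hD v]
  simp only [AddSubgroup.coe_add, AddSubgroup.coe_neg, SemilinearAut.coe_degZeroSMulHom,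
    Finsupp.add_apply, Finsupp.neg_apply]
  ring

/-- **MOVE-D** for the modular function field. -/
theorem exists_ratModel (x : JZero N) (hx : ∀ σ : GQ, σ • x = x) (a₀ : ℕ) :
    ∃ (D₁ : Divisor.degZero (K := Kbar) (F := FN N)) (V : Set (FN N)),
      Pic0.mk D₁ = x ∧
      (0 : FN N) ∈ V ∧ (∀ f ∈ V, ∀ g ∈ V, f + g ∈ V) ∧
      (∀ c : ℚ, ∀ f ∈ V, algebraMap ℚ Kbar c • f ∈ V) ∧
      (∀ f ∈ V, f ∈ L ((D₁ : Divisor Kbar (FN N)) + Finsupp.single (cuspInf N) (a₀ : ℤ))) ∧
      (∀ f ∈ L ((D₁ : Divisor Kbar (FN N)) + Finsupp.single (cuspInf N) (a₀ : ℤ)),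
        f ∈ Submodule.span Kbar V) ∧
      ∀ f ∈ V, f ≠ 0 → ∀ A : Divisor Kbar (FN N),
        (∀ v : Place Kbar (FN N), A v = v.ord f + (D₁ : Divisor Kbar (FN N)) v
          + (Finsupp.single (cuspInf N) (a₀ : ℤ) : Divisor Kbar (FN N)) v) →
        ∀ σ : GQ, galN N σ • A = A := by
  obtain ⟨D₁, rfl⟩ := Pic0.mk_surjective x
  have hD := classInvariant_of_fixed N D₁ hx
  have H : Hyp Kbar (FN N) := hyp_of_isFF _ _ (Fermat.Agent.RED.H95.stmt_HKA_isFF N)
  set lcd := leadCoeffMod N
  set E : Divisor Kbar (FN N) := Finsupp.single (cuspInf N) (a₀ : ℤ) with hEdef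
  have hE : ∀ σ : GQ, galN N σ • E = E := smul_nsmul_cuspInf N a₀
  have helem : ∀ y : FN N, ∃ U ∈ openFamily, ∀ σ ∈ U, galN N σ • y = y := by
    intro y
    obtain ⟨E', hE', h⟩ := exists_field_fixing_elem (modularFunctionFieldFull N) y
    exact ⟨_, ⟨E', hE', rfl⟩, h⟩
  refine ⟨D₁, twistFixed lcd hD ∩ (L ((D₁ : Divisor Kbar (FN N)) + E) : Set (FN N)), rfl,
    ⟨zero_mem_twistFixed lcd hD, Submodule.zero_mem _⟩, ?_, ?_, ?_, ?_, ?_⟩
  · rintro f ⟨hf1, hf2⟩ g ⟨hg1, hg2⟩
    exact ⟨add_mem_twistFixed lcd hD hf1 hg1, Submodule.add_mem _ hf2 hg2⟩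
  · rintro c f ⟨hf1, hf2⟩
    refine ⟨smul_mem_twistFixed lcd hD (fun σ => ?_) hf1, Submodule.smul_mem _ _ hf2⟩
    show σ (algebraMap ℚ Kbar c) = algebraMap ℚ Kbar c
    exact σ.commutes c
  · rintro f ⟨-, hf2⟩
    exact hf2
  · intro f hf
    exact mem_span_twistFixed_L lcd hD H openFamily openFamily_nonempty openFamily_inf helem
      openFamily_finiteIndex (openFamily_sep N) hE hf
  · rintro f ⟨hf1, -⟩ hf0 A hA σ
    exact smul_divisor_eq_of_twist_fixed lcd hD hE hf0 hf1 hA σ

end Fermat.Agent.S17.H35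

end
end
-- ==== END Fermat.Agent.S17.Height.H35_MoveDMod
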