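-- GENERATED (merged mirror, NOTES/tools/trim/merge3_helper67.py): 1 modules of the originals, bodies verbatim.
import Fermat.Agent.Zm.S33_L03_003

-- ==== BEGIN Fermat.Agent.S17.Height.H35_RatSeq
section

/-!
# S17 part H (helper35): RAT-BASIS, adapted to the pole order

In the abstract setting of `H35_H90` with a `G`-fixed place `P` (`RatCtx ρ`):

* `RatCtx.ratSeq C : ℕ → F`: a sequence of `G`-fixed functions with poles only at `P`, of strictly
  increasing pole orders (the non-gaps of `P`), with leading coefficient `1`;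
* `RatCtx.ratDim C m`: the number of non-gaps `≤ m`;
* `RatCtx.ratBasis C m : Basis (Fin (ratDim m)) K (L(m P))` with `ratBasis m i = ratSeq i`.
-/

set_option autoImplicit false

noncomputable section

open AlgebraicCurve

namespace Fermat.Agent.S17.H35

open Fermat.Agent.RED.H42 Fermat.Agent.S17

variable {K F : Type*} [Field K] [Field F] [Algebra K F]
variable {G : Type*} [Group G] {ρ : G →* SemilinearAut K F}

local notation "L" => riemannRochSpace

/-- The data for the construction of rational bases: a function field with a semilinear action,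
a leading coefficient and a fixed place. -/
structure RatCtx (ρ : G →* SemilinearAut K F) where
  /-- the leading coefficient -/
  lcd : LeadCoeff ρ
  /-- open subgroups -/
  opn : OpenSys ρ
  /-- the function field hypotheses -/
  hyp : Hyp K F
  /-- the fixed place -/
  P : Place K F
  /-- the place is fixed -/
  hP : ∀ σ : G, ρ σ • P = P

namespace RatCtx

variable (C : RatCtx ρ)

/-- The divisor `k P`. -/
def kP (k : ℤ) : Divisor K F := Finsupp.single C.P k

theorem kP_apply_self (k : ℤ) : C.kP k C.P = k := by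
  unfold kP
  rw [Finsupp.single_eq_same]

theorem kP_apply_of_ne (k : ℤ) {v : Place K F} (hv : v ≠ C.P) : C.kP k v = 0 := by
  unfold kP
  rw [Finsupp.single_eq_of_ne hv]

theorem smul_kP (k : ℤ) (σ : G) : ρ σ • C.kP k = C.kP k := by
  unfold kP
  rw [SemilinearAut.smul_single, C.hP]

theorem kP_add_single (k : ℤ) : C.kP k + Finsupp.single C.P 1 = C.kP (k + 1) := by
  unfold kP
  rw [← Finsupp.single_add]

theorem kP_sub_single (k : ℤ) : C.kP k - Finsupp.single C.P 1 = C.kP (k - 1) := by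
  unfold kP
  rw [← Finsupp.single_sub]

theorem kP_mono {k l : ℤ} (h : k ≤ l) : C.kP k ≤ C.kP l := by
  unfold kP
  rw [Finsupp.le_def]
  intro v
  by_cases hv : v = C.P
  · rw [hv, Finsupp.single_eq_same, Finsupp.single_eq_same]
    exact h
  · rw [Finsupp.single_eq_of_ne hv, Finsupp.single_eq_of_ne hv]

/-- `k` is a pole order at `P` of a function regular outside `P`. -/
def IsPoleOrd (k : ℕ) : Prop :=
  ∃ f : F, f ∈ L (C.kP k) ∧ f ≠ 0 ∧ C.P.ord f = -(k : ℤ)

theorem isPoleOrd_zero : C.IsPoleOrd 0 := by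
  refine ⟨1, ?_, one_ne_zero, by simp⟩
  apply mem_L_of_neg_le_ord
  intro v
  rw [Place.ord_one]
  unfold kP
  simp

theorem exists_fixed_pole {k : ℕ} (hk : C.IsPoleOrd k) :
    ∃ e : F, e ∈ fixedFun ρ ∧ e ∈ L (C.kP k) ∧ e ≠ 0 ∧ C.P.ord e = -(k : ℤ) ∧
      C.lcd.lc e = 1 := by
  obtain ⟨f, hf, hf0, hord⟩ := hk
  obtain ⟨e, he1, he2, he0, heord⟩ := exists_fixed_exact C.opn (C.smul_kP k) C.P hf hf0
    (by rw [hord, kP_apply_self])
  refine ⟨e * algebraMap K F (C.lcd.lc e)⁻¹, normalise_mem_fixedFun C.lcd he1, ?_,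
    normalise_ne_zero C.lcd he0, ?_, lc_normalise C.lcd he0⟩
  · rw [mul_comm, ← Algebra.smul_def]
    exact Submodule.smul_mem _ _ he2
  · rw [ord_normalise C.lcd he0, heord, kP_apply_self]

open Classical in
/-- The chosen fixed function of pole order `k` (or `0` if there is none). -/
def poleFun (k : ℕ) : F :=
  if h : C.IsPoleOrd k then (C.exists_fixed_pole h).choose else 0

theorem poleFun_spec {k : ℕ} (h : C.IsPoleOrd k) :
    C.poleFun k ∈ fixedFun ρ ∧ C.poleFun k ∈ L (C.kP k) ∧ C.poleFun k ≠ 0 ∧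
      C.P.ord (C.poleFun k) = -(k : ℤ) ∧ C.lcd.lc (C.poleFun k) = 1 := by
  unfold poleFun
  rw [dif_pos h]
  exact (C.exists_fixed_pole h).choose_spec

theorem poleFun_of_not {k : ℕ} (h : ¬ C.IsPoleOrd k) : C.poleFun k = 0 := by
  unfold poleFun
  rw [dif_neg h]

theorem poleFun_fixed (k : ℕ) : C.poleFun k ∈ fixedFun ρ := by
  by_cases h : C.IsPoleOrd k
  · exact (C.poleFun_spec h).1
  · rw [C.poleFun_of_not h]
    exact zero_mem_fixedFun

theorem poleFun_mem (k : ℕ) : C.poleFun k ∈ L (C.kP k) := by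
  by_cases h : C.IsPoleOrd k
  · exact (C.poleFun_spec h).2.1
  · rw [C.poleFun_of_not h]
    exact Submodule.zero_mem _

theorem poleFun_notMem {k : ℕ} (h : C.IsPoleOrd k) : C.poleFun k ∉ L (C.kP ((k : ℤ) - 1)) := by
  intro hmem
  rw [← kP_sub_single] at hmem
  have h1 := (mem_L_sub_single_iff (C.poleFun_mem k) (C.poleFun_spec h).2.2.1 C.P).1 hmem
  apply h1
  rw [(C.poleFun_spec h).2.2.2.1, kP_apply_self]

/-- At a gap the space does not grow. -/
theorem L_eq_of_not {k : ℕ} (h : ¬ C.IsPoleOrd k) : L (C.kP k) = L (C.kP ((k : ℤ) - 1)) := by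
  apply le_antisymm
  · intro g hg
    by_cases hg0 : g = 0
    · rw [hg0]
      exact Submodule.zero_mem _
    rw [← kP_sub_single]
    refine (mem_L_sub_single_iff hg hg0 C.P).2 fun hord => h ⟨g, hg, hg0, ?_⟩
    rw [hord, kP_apply_self]
  · exact L_mono (C.kP_mono (by omega))

/-- At a non-gap the space grows by the chosen function. -/
theorem L_eq_of {k : ℕ} (h : C.IsPoleOrd k) :
    L (C.kP k) = L (C.kP ((k : ℤ) - 1)) ⊔ Submodule.span K {C.poleFun k} := by
  apply le_antisymm
  · intro g hg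
    have h1 : C.kP ((k : ℤ) - 1) + Finsupp.single C.P 1 = C.kP k := by
      rw [kP_add_single, sub_add_cancel]
    obtain ⟨c, hc⟩ := one_step C.P (C.hyp.deg_one C.P) (C.kP ((k : ℤ) - 1))
      (f := C.poleFun k) (g := g) (by rw [h1]; exact C.poleFun_mem k) (C.poleFun_notMem h)
      (by rw [h1]; exact hg)
    have h2 : g = (g - c • C.poleFun k) + c • C.poleFun k := by ring
    rw [h2]
    exact Submodule.add_mem_sup hc (Submodule.smul_mem _ _ (Submodule.mem_span_singleton_self _))
  · refine sup_le (L_mono (C.kP_mono (by omega))) ?_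
    rw [Submodule.span_singleton_le_iff_mem]
    exact C.poleFun_mem k

open Classical in
/-- The number of pole orders `< k`. -/
def cnt (k : ℕ) : ℕ := Nat.count C.IsPoleOrd k

/-- The number of pole orders `≤ m`: the dimension of `L(m P)`. -/
def ratDim (m : ℕ) : ℕ := C.cnt (m + 1)

open Classical in
/-- The `i`-th pole order. -/
def poleOrd (i : ℕ) : ℕ := Nat.nth C.IsPoleOrd i

/-- The sequence of fixed functions, ordered by pole order. -/
def ratSeq (i : ℕ) : F := C.poleFun (C.poleOrd i)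

theorem ratSeq_fixed (i : ℕ) : C.ratSeq i ∈ fixedFun ρ := C.poleFun_fixed _

theorem cnt_succ_of {k : ℕ} (h : C.IsPoleOrd k) : C.cnt (k + 1) = C.cnt k + 1 := by
  classical
  unfold cnt
  rw [Nat.count_succ, if_pos h]

theorem cnt_succ_of_not {k : ℕ} (h : ¬ C.IsPoleOrd k) : C.cnt (k + 1) = C.cnt k := by
  classical
  unfold cnt
  rw [Nat.count_succ, if_neg h, add_zero]

theorem cnt_mono {k l : ℕ} (h : k ≤ l) : C.cnt k ≤ C.cnt l := by
  classical
  exact Nat.count_monotone _ h

theorem cnt_le (k : ℕ) : C.cnt k ≤ k := by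
  classical
  exact Nat.count_le _

theorem ratDim_mono {m m' : ℕ} (h : m ≤ m') : C.ratDim m ≤ C.ratDim m' :=
  C.cnt_mono (by omega)

theorem ratDim_pos (m : ℕ) : 0 < C.ratDim m := by
  have h1 : C.cnt 1 = 1 := by
    have := C.cnt_succ_of C.isPoleOrd_zero
    simpa [cnt] using this
  have h2 := C.cnt_mono (k := 1) (l := m + 1) (by omega)
  unfold ratDim
  omega

theorem poleOrd_cnt {k : ℕ} (h : C.IsPoleOrd k) : C.poleOrd (C.cnt k) = k := by
  classical
  exact Nat.nth_count h

theorem ratSeq_cnt {k : ℕ} (h : C.IsPoleOrd k) : C.ratSeq (C.cnt k) = C.poleFun k := by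
  unfold ratSeq
  rw [C.poleOrd_cnt h]

theorem poleOrd_lt_of_lt_cnt {i k : ℕ} (h : i < C.cnt k) : C.poleOrd i < k := by
  classical
  exact Nat.nth_lt_of_lt_count h

theorem isPoleOrd_poleOrd_of_lt_cnt {i k : ℕ} (h : i < C.cnt k) : C.IsPoleOrd (C.poleOrd i) := by
  classical
  exact Nat.nth_mem _ (fun hf => h.trans_le (Nat.count_le_card hf k))

end RatCtx

section FinFamily

variable {V : Type*} [AddCommGroup V] [Module K V]

omit [AddCommGroup V] [Module K V] in
theorem fin_succ_eq_snoc (e : ℕ → V) (n : ℕ) :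
    (fun i : Fin (n + 1) => e i) = Fin.snoc (fun i : Fin n => e i) (e n) := by
  funext i
  refine Fin.lastCases ?_ (fun j => ?_) i
  · rw [Fin.snoc_last]
    rfl
  · rw [Fin.snoc_castSucc]
    rfl

theorem span_range_fin_succ (e : ℕ → V) (n : ℕ) :
    Submodule.span K (Set.range fun i : Fin (n + 1) => e i)
      = Submodule.span K (Set.range fun i : Fin n => e i) ⊔ Submodule.span K {e n} := by
  apply le_antisymm
  · rw [Submodule.span_le]
    rintro _ ⟨i, rfl⟩
    refine Fin.lastCases ?_ (fun j => ?_) i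
    · exact Submodule.mem_sup_right (Submodule.mem_span_singleton_self _)
    · exact Submodule.mem_sup_left (Submodule.subset_span ⟨j, rfl⟩)
  · refine sup_le (Submodule.span_mono ?_) ?_
    · rintro _ ⟨j, rfl⟩
      exact ⟨j.castSucc, rfl⟩
    · rw [Submodule.span_singleton_le_iff_mem]
      exact Submodule.subset_span ⟨Fin.last n, rfl⟩

end FinFamily

namespace RatCtx

variable (C : RatCtx ρ)

/-- The first `cnt k` functions form a basis of `L((k - 1) P)`. -/
theorem ratSeq_basis_aux (k : ℕ) :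
    LinearIndependent K (fun i : Fin (C.cnt k) => C.ratSeq i) ∧
      Submodule.span K (Set.range fun i : Fin (C.cnt k) => C.ratSeq i)
        = L (C.kP ((k : ℤ) - 1)) := by
  induction k with
  | zero =>
    have h0 : C.cnt 0 = 0 := by
      classical
      exact Nat.count_zero _
    rw [h0]
    refine ⟨linearIndependent_empty_type, ?_⟩
    have h1 : L (C.kP (((0 : ℕ) : ℤ) - 1)) = ⊥ := by
      apply L_eq_bot_of_degree_neg C.hyp
      unfold kP
      rw [Divisor.degree_single, C.hyp.deg_one]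
      simp
    rw [h1, Submodule.span_eq_bot]
    rintro _ ⟨i, -⟩
    exact i.elim0
  | succ k ih =>
    have hk1 : (((k + 1 : ℕ) : ℤ) - 1) = (k : ℤ) := by push_cast; ring
    rw [hk1]
    by_cases h : C.IsPoleOrd k
    · rw [C.cnt_succ_of h, fin_succ_eq_snoc, linearIndependent_finSnoc, ← fin_succ_eq_snoc,
        span_range_fin_succ, ih.2, C.ratSeq_cnt h]
      exact ⟨⟨ih.1, C.poleFun_notMem h⟩, (C.L_eq_of h).symm⟩
    · rw [C.cnt_succ_of_not h, C.L_eq_of_not h]
      exact ih

theorem ratSeq_li (m : ℕ) : LinearIndependent K (fun i : Fin (C.ratDim m) => C.ratSeq i) :=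
  (C.ratSeq_basis_aux (m + 1)).1

theorem ratSeq_span (m : ℕ) :
    Submodule.span K (Set.range fun i : Fin (C.ratDim m) => C.ratSeq i) = L (C.kP m) := by
  have h := (C.ratSeq_basis_aux (m + 1)).2
  have hk1 : (((m + 1 : ℕ) : ℤ) - 1) = (m : ℤ) := by push_cast; ring
  rw [hk1] at h
  exact h

theorem ratSeq_mem {m i : ℕ} (hi : i < C.ratDim m) : C.ratSeq i ∈ L (C.kP m) := by
  rw [← C.ratSeq_span m]
  exact Submodule.subset_span ⟨⟨i, hi⟩, rfl⟩

/-- **RAT-BASIS**: the basis of `L(m P)` consisting of the first `ratDim m` functions. -/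
def ratBasis (m : ℕ) : Module.Basis (Fin (C.ratDim m)) K (L (C.kP m)) :=
  (Module.Basis.span (C.ratSeq_li m)).map (LinearEquiv.ofEq _ _ (C.ratSeq_span m))

@[simp] theorem ratBasis_apply (m : ℕ) (i : Fin (C.ratDim m)) :
    (C.ratBasis m i : F) = C.ratSeq i := by
  unfold ratBasis
  rw [Module.Basis.map_apply, LinearEquiv.coe_ofEq_apply, Module.Basis.span_apply]

theorem ratBasis_fixed (m : ℕ) (i : Fin (C.ratDim m)) : (C.ratBasis m i : F) ∈ fixedFun ρ := by
  rw [ratBasis_apply]
  exact C.ratSeq_fixed i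

theorem finrank_L_kP (m : ℕ) : Module.finrank K (L (C.kP m)) = C.ratDim m := by
  rw [Module.finrank_eq_card_basis (C.ratBasis m), Fintype.card_fin]

/-- The pole order of the `i`-th function. -/
theorem ord_ratSeq {m i : ℕ} (hi : i < C.ratDim m) :
    C.P.ord (C.ratSeq i) = -(C.poleOrd i : ℤ) :=
  (C.poleFun_spec (C.isPoleOrd_poleOrd_of_lt_cnt hi)).2.2.2.1

theorem lc_ratSeq {m i : ℕ} (hi : i < C.ratDim m) : C.lcd.lc (C.ratSeq i) = 1 :=
  (C.poleFun_spec (C.isPoleOrd_poleOrd_of_lt_cnt hi)).2.2.2.2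

theorem ratSeq_ne_zero {m i : ℕ} (hi : i < C.ratDim m) : C.ratSeq i ≠ 0 :=
  (C.poleFun_spec (C.isPoleOrd_poleOrd_of_lt_cnt hi)).2.2.1

theorem poleOrd_le {m i : ℕ} (hi : i < C.ratDim m) : C.poleOrd i ≤ m := by
  have := C.poleOrd_lt_of_lt_cnt hi
  omega

/-- Coordinates with respect to the rational basis commute with `G`. -/
theorem ratBasis_repr_smul (m : ℕ) (σ : G) (f : L (C.kP m)) (i : Fin (C.ratDim m)) :
    (C.ratBasis m).repr ⟨ρ σ • (f : F), smul_mem_L_of_stable (C.smul_kP m) σ f.2⟩ i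
      = SemilinearAut.baseAut (ρ σ) ((C.ratBasis m).repr f i) :=
  repr_smul_of_fixed (C.ratBasis m) (C.ratBasis_fixed m) σ f _ i

end RatCtx

end Fermat.Agent.S17.H35

end
end
-- ==== END Fermat.Agent.S17.Height.H35_RatSeq
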