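-- GENERATED (merged mirror, NOTES/tools/trim/merge3_helper67.py): 5 modules of the originals, bodies verbatim.
import Fermat.Agent.Zm.S33_L01_001
import Fermat.Agent.Zm.S35_L07_002
import Fermat.Agent.Zm.S33_L05_003
import Fermat.Agent.Zm.S33_L05_000
import Fermat.Agent.FL.H46_Bundle
import Fermat.Agent.Zm.S33_L05_001
import Fermat.Agent.Zm.S35_L03_001
import Fermat.Agent.Zm.S33_L04_001

-- ==== BEGIN Fermat.Agent.FL.H22_FrameRat
section

/-!
# G-FL, package MOD-FRAME (helper22), part 2: the rational structure of `L(b ∞)`

* `hasScale_full`, `fracScalable_full`: the scaling properties of the rational modular function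
  field `F_N ⊆ ℚ((q))` for every valuation subring of `ℚ`;
* `exists_rat_of_fixed`: a `G_ℚ`-fixed function of `F_N · ℚ̄` is the extension of coefficients of
  an element of `F_N`;
* `exists_ratFrame`: `L(b ∞)` has a basis consisting of extensions of coefficients of elements
  `y i ∈ F_N`.
-/

set_option autoImplicit false
set_option linter.style.haveILetI false
set_option synthInstance.maxHeartbeats 400000
set_option maxHeartbeats 1000000

open ModularCurve AlgebraicCurve Fermat.Agent.S28 Fermat.Agent.S28.H73 Fermat.Agent.RED.H73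

noncomputable section

namespace Fermat.Agent.FL.H22

open Fermat.Agent.RED Fermat.Agent.S17 Fermat.Agent.S17.H35 Fermat.Agent.RED.KD.H22
  Fermat.Agent.S24

local notation "L" => riemannRochSpace

/-! ## The rational function field -/

theorem coeffEmb_rat (x : LaurentSeries ℚ) : coeffEmb ℚ x = x := by
  ext n
  rw [coeffEmb_coeff]
  rfl

theorem laurentBaseChange_rat (F₀ : IntermediateField ℚ (LaurentSeries ℚ)) :
    laurentBaseChange ℚ F₀ = F₀ := by
  have h : (⇑(coeffEmb ℚ) '' (F₀ : Set (LaurentSeries ℚ))) = (F₀ : Set (LaurentSeries ℚ)) := by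
    ext x
    constructor
    · rintro ⟨y, hy, rfl⟩
      rw [coeffEmb_rat]
      exact hy
    · intro hx
      exact ⟨x, hx, coeffEmb_rat x⟩
  rw [laurentBaseChange, h]
  exact IntermediateField.adjoin_self ℚ F₀

theorem hasScale_full (Z : ValuationSubring ℚ) (N : ℕ) :
    HasScale Z (modularFunctionFieldFull N) := by
  have := hasScale_laurentBaseChange Z N
  rwa [laurentBaseChange_rat] at this

theorem fracScalable_full (Z : ValuationSubring ℚ) (N : ℕ) :
    H42.FracScalable Z (modularFunctionFieldFull N) := by
  have := H42.fracScalable_laurentBaseChange Z N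
  rwa [laurentBaseChange_rat] at this

/-! ## Fixed functions are rational -/

/-- A series over `ℚ̄` whose coefficients are fixed by `G_ℚ` has rational coefficients. -/
theorem exists_coeffEmb_eq {x : LaurentSeries Kbar}
    (hx : ∀ σ : GQ, coeffMap ((σ : Kbar ≃ₐ[ℚ] Kbar) : Kbar →+* Kbar) x = x) :
    ∃ y : LaurentSeries ℚ, coeffEmb Kbar y = x := by
  have h1 : ∀ n : ℤ, ∃ q : ℚ, algebraMap ℚ Kbar q = x.coeff n := by
    intro n
    apply qbar_rational_of_fixed
    intro σ
    have := congrArg (fun z : LaurentSeries Kbar => z.coeff n) (hx σ)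
    simpa using this
  choose q hq using h1
  have hsupp : Function.support q ⊆ x.support := by
    intro n hn
    show x.coeff n ≠ 0
    rw [← hq n]
    intro h0
    exact hn ((algebraMap ℚ Kbar).injective (by rw [h0, map_zero]))
  refine ⟨⟨q, x.isPWO_support.mono hsupp⟩, ?_⟩
  ext n
  rw [coeffEmb_coeff]
  exact hq n

variable (N : ℕ) [NeZero N]

/-- A `G_ℚ`-fixed function of `F_N · ℚ̄` comes from `F_N`. -/
theorem exists_rat_of_fixed {f : FN N} (hf : f ∈ fixedFun (galN N)) :
    ∃ y : ↥(modularFunctionFieldFull N),
      coeffEmb Kbar (y : LaurentSeries ℚ) = (f : LaurentSeries Kbar) := by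
  obtain ⟨y, hy⟩ := exists_coeffEmb_eq (x := (f : LaurentSeries Kbar)) (fun σ => by
    have := congrArg (fun z : FN N => (z : LaurentSeries Kbar)) (hf σ)
    exact this)
  refine ⟨⟨y, ?_⟩, hy⟩
  apply mem_of_bc_mem_adjoin (k := Kbar) (modularFunctionFieldFull N)
  have hmem : (f : LaurentSeries Kbar) ∈ modularFunctionFieldBar N := f.2
  rw [← hy] at hmem
  exact hmem

end Fermat.Agent.FL.H22

end
end
-- ==== END Fermat.Agent.FL.H22_FrameRat

-- ==== BEGIN Fermat.Agent.FL.H46_EchUnique
section

/-!
# G-FL, package FAM-ADD (helper46), part 1: `Stmt_EchUnique`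

Echelon bases in a chart: uniqueness and existence (linear algebra over a field).
-/

set_option autoImplicit false

noncomputable section

open Matrix

namespace Fermat.Agent.FL.H46

open Fermat.Agent.FL

/-- An echelon matrix in a chart has linearly independent columns. -/
theorem linearIndependent_col_of_ech {L ι : Type} [Field L] [Fintype ι] {d : ℕ}
    (J : Fin d → ι) (M : Matrix ι (Fin d) L)
    (hM : ∀ a b, M (J a) b = if a = b then 1 else 0) : LinearIndependent L M.col := by
  classical
  rw [Fintype.linearIndependent_iff]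
  intro v hv a
  have h1 := congrFun hv (J a)
  simp only [Finset.sum_apply, Pi.smul_apply, Matrix.col_apply, smul_eq_mul, Pi.zero_apply,
    hM] at h1
  rw [Finset.sum_eq_single a] at h1
  · simpa using h1
  · intro b _ hb
    rw [if_neg (Ne.symm hb), mul_zero]
  · intro h
    exact absurd (Finset.mem_univ a) h

/-- The coefficients of a vector of the column space of an echelon matrix are its coordinates
in the chart. -/
theorem mulVec_ech_apply {L ι : Type} [Field L] [Fintype ι] {d : ℕ}
    (J : Fin d → ι) (M : Matrix ι (Fin d) L)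
    (hM : ∀ a b, M (J a) b = if a = b then 1 else 0) (v : Fin d → L) (a : Fin d) :
    (M *ᵥ v) (J a) = v a := by
  classical
  rw [Matrix.mulVec, dotProduct]
  simp only [hM]
  rw [Finset.sum_eq_single a]
  · simp
  · intro b _ hb
    rw [if_neg (Ne.symm hb), zero_mul]
  · intro h
    exact absurd (Finset.mem_univ a) h

/-- Uniqueness of the echelon basis in a chart. -/
theorem ech_unique {L ι : Type} [Field L] [Fintype ι] {d : ℕ}
    (J : Fin d → ι) (M M' : Matrix ι (Fin d) L)
    (hM : ∀ a b, M (J a) b = if a = b then 1 else 0)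
    (hM' : ∀ a b, M' (J a) b = if a = b then 1 else 0) (h : colSpace M = colSpace M') :
    M = M' := by
  classical
  ext i b
  -- the column `b` of `M'` lies in the column space of `M`
  have h1 : M' *ᵥ (Pi.single b 1) ∈ colSpace M := by
    rw [h, mem_colSpace_iff]
    exact ⟨_, rfl⟩
  rw [mem_colSpace_iff] at h1
  obtain ⟨v, hv⟩ := h1
  have h2 : v = Pi.single b 1 := by
    funext a
    have h3 := congrFun hv (J a)
    rw [mulVec_ech_apply J M hM, mulVec_ech_apply J M' hM'] at h3
    exact h3
  rw [h2] at hv
  have h4 := congrFun hv i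
  simpa [Matrix.mulVec_single] using h4

/-- Existence of an echelon basis in some chart. -/
theorem exists_ech {L ι : Type} [Field L] [Fintype ι] {d : ℕ} (W : Submodule L (ι → L))
    (hW : Module.finrank L W = d) :
    ∃ (J : Fin d → ι) (M : Matrix ι (Fin d) L),
      (∀ a b, M (J a) b = if a = b then 1 else 0) ∧ colSpace M = W := by
  classical
  let bs : Module.Basis (Fin d) L W := Module.finBasisOfFinrankEq L W hW
  let N : Matrix ι (Fin d) L := fun i b => (bs b : ι → L) i
  have hcol : N.col = fun b => (bs b : ι → L) := by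
    funext b i
    rfl
  have hli : LinearIndependent L N.col := by
    rw [hcol]
    exact bs.linearIndependent.map' W.subtype (Submodule.ker_subtype W)
  have hsp : colSpace N = W := by
    rw [colSpace, Matrix.range_mulVecLin, hcol]
    have h1 : Set.range (fun b => (bs b : ι → L)) = W.subtype '' Set.range bs := by
      rw [← Set.range_comp]
      rfl
    rw [h1, Submodule.span_image, bs.span_eq, Submodule.map_top, Submodule.range_subtype]
  obtain ⟨J, hJ⟩ := exists_chart d N hli
  have hu : IsUnit (N.submatrix J id).det := isUnit_iff_ne_zero.mpr hJ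
  refine ⟨J, N * (N.submatrix J id)⁻¹, fun a b => ?_, ?_⟩
  · have h1 : (N * (N.submatrix J id)⁻¹) (J a) b =
        ((N.submatrix J id) * (N.submatrix J id)⁻¹) a b := by
      rw [Matrix.mul_apply, Matrix.mul_apply]
      rfl
    rw [h1, Matrix.mul_nonsing_inv _ hu, Matrix.one_apply]
  · rw [← hsp]
    exact colSpace_mul_rightInv _ _ (N.submatrix J id) (Matrix.nonsing_inv_mul _ hu)

/-- **ECH-UNIQUE.** -/
theorem stmt_EchUnique : Stmt_EchUnique := by
  intro L ι _ _ d
  exact ⟨fun J M M' hM hM' h => ech_unique J M M' hM hM' h, fun W hW => exists_ech W hW⟩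

end Fermat.Agent.FL.H46

end
end
-- ==== END Fermat.Agent.FL.H46_EchUnique

-- ==== BEGIN Fermat.Agent.FL.H46_FamRc
section

/-!
# G-FL, package FAM-ADD (helper46), part 2: reduction of constants and the `EvRing` of a class

`S : RedSetup K F k F'`, `A = constVal S`.

* `rc S` is a ring homomorphism on `A` (`rc_add`, `rc_mul`, …, `rcHom`), with kernel the maximal
  ideal (`rc_eq_zero_iff`).
* `famEv S hT hC : EvRing (locRing A T C) k K C`: the local ring of a class `C` of a ring `T` of
  `A`-valued functions, with the reduction to `k` and the evaluations.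
* `liftF`: the elements of `T` as elements of the local ring.
-/

set_option autoImplicit false

noncomputable section

open AlgebraicCurve

namespace Fermat.Agent.FL.H46

open Fermat.Agent.RED Fermat.Agent.RED.H17 Fermat.Agent.FL

variable {K F k F' : Type} [Field K] [Field F] [Algebra K F] [Field k] [Field F']
  [Algebra k F'] (S : RedSetup K F k F')

theorem rd_algebraMap {c : K} (h : c ∈ constVal S) :
    S.rd (algebraMap K F c) = algebraMap k F' (rc S c) := by
  have h' : algebraMap K F c ∈ S.V := h
  rw [S.rd_of_mem h']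
  exact rc_spec S h'

theorem rc_zero : rc S 0 = 0 := by
  apply (algebraMap k F').injective
  rw [← rd_algebraMap S (constVal S).zero_mem, map_zero, map_zero]
  exact S.rd_zero

theorem rc_one : rc S 1 = 1 := by
  apply (algebraMap k F').injective
  rw [← rd_algebraMap S (constVal S).one_mem, map_one, map_one]
  exact S.rd_one

theorem rc_add {a b : K} (ha : a ∈ constVal S) (hb : b ∈ constVal S) :
    rc S (a + b) = rc S a + rc S b := by
  apply (algebraMap k F').injective
  rw [← rd_algebraMap S ((constVal S).add_mem _ _ ha hb), map_add, map_add,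
    ← rd_algebraMap S ha, ← rd_algebraMap S hb]
  exact S.rd_add ha hb

theorem rc_mul {a b : K} (ha : a ∈ constVal S) (hb : b ∈ constVal S) :
    rc S (a * b) = rc S a * rc S b := by
  apply (algebraMap k F').injective
  rw [← rd_algebraMap S ((constVal S).mul_mem _ _ ha hb), map_mul, map_mul,
    ← rd_algebraMap S ha, ← rd_algebraMap S hb]
  exact S.rd_mul ha hb

/-- The reduction of constants, as a ring homomorphism. -/
def rcHom : (constVal S) →+* k where
  toFun a := rc S (a : K)
  map_one' := rc_one S
  map_mul' a b := rc_mul S a.2 b.2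
  map_zero' := rc_zero S
  map_add' a b := rc_add S a.2 b.2

@[simp] theorem rcHom_apply (a : constVal S) : rcHom S a = rc S (a : K) := rfl

theorem rc_neg {a : K} (ha : a ∈ constVal S) : rc S (-a) = -rc S a := by
  have := map_neg (rcHom S) ⟨a, ha⟩
  exact this

theorem rc_sub {a b : K} (ha : a ∈ constVal S) (hb : b ∈ constVal S) :
    rc S (a - b) = rc S a - rc S b := by
  have := map_sub (rcHom S) ⟨a, ha⟩ ⟨b, hb⟩
  exact this

/-- The kernel of the reduction of constants is the maximal ideal of `A`. -/
theorem rc_eq_zero_iff {a : K} (ha : a ∈ constVal S) :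
    rc S a = 0 ↔ (constVal S).valuation a < 1 := by
  constructor
  · intro h0
    by_contra hlt
    have hle : (constVal S).valuation a ≤ 1 := ((constVal S).valuation_le_one_iff a).mpr ha
    have h1 : (constVal S).valuation a = 1 := le_antisymm hle (not_lt.mp hlt)
    have ha0 : a ≠ 0 := H18.ne_zero_of_val_eq_one h1
    have hinv : a⁻¹ ∈ constVal S := H18.mem_of_val_le_one (H18.val_inv_eq_one h1).le
    have h2 := rc_mul S ha hinv
    rw [mul_inv_cancel₀ ha0, rc_one, h0, zero_mul] at h2
    exact one_ne_zero h2
  · intro hlt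
    by_contra h0
    have ha' : algebraMap K F a ∈ S.V := ha
    have h1 : S.red ⟨_, ha'⟩ ≠ 0 := by
      rw [rc_spec S ha']
      intro h
      exact h0 ((algebraMap k F').injective (by rw [h, map_zero]))
    have h2 : (⟨_, ha'⟩ : S.V) ∉ IsLocalRing.maximalIdeal S.V := fun h =>
      h1 ((S.red_eq_zero_iff _).mpr h)
    have h3 : IsUnit (⟨_, ha'⟩ : S.V) := IsLocalRing.notMem_maximalIdeal.mp h2
    obtain ⟨w, hw⟩ := h3.exists_right_inv
    have hw' : algebraMap K F a * (w : F) = 1 := congrArg Subtype.val hw
    have ha0 : a ≠ 0 := by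
      rintro rfl
      rw [map_zero, zero_mul] at hw'
      exact zero_ne_one hw'
    have h4 : algebraMap K F a⁻¹ = (w : F) := by
      rw [map_inv₀]
      exact inv_eq_of_mul_eq_one_right hw'
    have hinv : a⁻¹ ∈ constVal S := by
      show algebraMap K F a⁻¹ ∈ S.V
      rw [h4]
      exact w.2
    have h5 : (constVal S).valuation a⁻¹ ≤ 1 := ((constVal S).valuation_le_one_iff _).mpr hinv
    have h6 : (constVal S).valuation a * (constVal S).valuation a⁻¹ = 1 := by
      rw [← map_mul, mul_inv_cancel₀ ha0, map_one]
    have h7 : (constVal S).valuation a * (constVal S).valuation a⁻¹ < 1 :=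
      mul_lt_one_of_lt_of_le hlt h5
    rw [h6] at h7
    exact lt_irrefl _ h7

theorem rc_ne_zero_iff {a : K} (ha : a ∈ constVal S) :
    rc S a ≠ 0 ↔ (constVal S).valuation a = 1 := by
  rw [Ne, rc_eq_zero_iff S ha, not_lt]
  constructor
  · intro h
    exact le_antisymm (((constVal S).valuation_le_one_iff a).mpr ha) h
  · intro h
    exact h.ge

theorem rc_eq_of_val_sub_lt {a b : K} (ha : a ∈ constVal S) (hb : b ∈ constVal S)
    (h : (constVal S).valuation (a - b) < 1) : rc S a = rc S b := by
  have h1 := (rc_eq_zero_iff S ((constVal S).sub_mem ha hb)).mpr h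
  rw [rc_sub S ha hb, sub_eq_zero] at h1
  exact h1

theorem val_sub_lt_of_rc_eq {a b : K} (ha : a ∈ constVal S) (hb : b ∈ constVal S)
    (h : rc S a = rc S b) : (constVal S).valuation (a - b) < 1 := by
  rw [← rc_eq_zero_iff S ((constVal S).sub_mem ha hb), rc_sub S ha hb, h, sub_self]

/-! ### The `EvRing` of a class -/

section Ev

variable {P : Type} {T : Subring (P → K)} {C : Set P}

/-- Evaluation at a point of the class, with values in `A`. -/
def evA (hT : H18.IsFunRingA (constVal S) T) (s : C) :
    H18.locRing (constVal S) T C →+* (constVal S) :=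
  (H18.locEv (constVal S) T C s).codRestrict (constVal S)
    (fun φ => H18.locRing_val_mem hT φ s)

@[simp] theorem coe_evA (hT : H18.IsFunRingA (constVal S) T) (s : C)
    (φ : H18.locRing (constVal S) T C) : ((evA S hT s φ : constVal S) : K) = (φ : C → K) s :=
  rfl

/-- The local ring of a class, with the reduction to `k` and the evaluations. -/
def famEv (hT : H18.IsFunRingA (constVal S) T) (hC : H18.IsClass (constVal S) T C) :
    EvRing (H18.locRing (constVal S) T C) k K C where
  ρ := (rcHom S).comp (evA S hT hC.pt)
  ev := H18.locEv (constVal S) T C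
  unit_iff := fun φ => by
    rw [H18.isUnit_iff_locRed_ne_zero hT hC, H18.locRed_ne_zero_iff hT hC φ hC.pt]
    exact (rc_ne_zero_iff S (H18.locRing_val_mem hT φ hC.pt)).symm
  ev_inj := H18.eq_zero_of_locEv

theorem famEv_ev (hT : H18.IsFunRingA (constVal S) T) (hC : H18.IsClass (constVal S) T C)
    (s : C) (φ : H18.locRing (constVal S) T C) : (famEv S hT hC).ev s φ = (φ : C → K) s := rfl

/-- The reduction can be computed at any point of the class. -/
theorem famEv_ρ (hT : H18.IsFunRingA (constVal S) T) (hC : H18.IsClass (constVal S) T C)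
    (s : C) (φ : H18.locRing (constVal S) T C) :
    (famEv S hT hC).ρ φ = rc S ((φ : C → K) s) := by
  show rc S ((φ : C → K) hC.pt) = rc S ((φ : C → K) s)
  exact rc_eq_of_val_sub_lt S (H18.locRing_val_mem hT φ _) (H18.locRing_val_mem hT φ _)
    (H18.locRing_cong hT hC φ _ _)

open Classical in
/-- The elements of `T` as elements of the local ring (junk value `0` outside `T`). -/
def liftF (T : Subring (P → K)) (C : Set P) (φ : P → K) : H18.locRing (constVal S) T C :=
  if h : φ ∈ T then H18.restr (constVal S) T C ⟨φ, h⟩ else 0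

theorem liftF_coe {φ : P → K} (h : φ ∈ T) (s : C) :
    ((liftF S T C φ : H18.locRing (constVal S) T C) : C → K) s = φ s := by
  unfold liftF
  rw [dif_pos h]
  rfl

theorem ev_liftF (hT : H18.IsFunRingA (constVal S) T) (hC : H18.IsClass (constVal S) T C)
    {φ : P → K} (h : φ ∈ T) (s : C) : (famEv S hT hC).ev s (liftF S T C φ) = φ s := by
  rw [famEv_ev, liftF_coe S h]

theorem ρ_liftF (hT : H18.IsFunRingA (constVal S) T) (hC : H18.IsClass (constVal S) T C)
    {φ : P → K} (h : φ ∈ T) (s : C) : (famEv S hT hC).ρ (liftF S T C φ) = rc S (φ s) := by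
  rw [famEv_ρ S hT hC s, liftF_coe S h]

end Ev

end Fermat.Agent.FL.H46

end
end
-- ==== END Fermat.Agent.FL.H46_FamRc

-- ==== BEGIN Fermat.Agent.Lib.HopfOrderLoc.Twist
section

/-!
# The semilinear Galois action on functions and the trace over cosets (item 71, helper32)

`twist act σ f = fun x => σ (f (act σ⁻¹ x))`.

* `twistHom` : `twist act σ` as a ring homomorphism; `twist_one`, `twist_mul`.
* `twist_mem_genRing` : `genRing A h` is stable under the decomposition group if the twists of
  the generators lie in it.
* `twist_monomial_eq` : monomials in `I`-equivariant generators with values in `L` are fixed by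
  `I ⊔ Gal(ℚ̄/L)`.
* `cosetTrace`, `twist_cosetTrace` : the sum of the twists over the cosets of a subgroup of
  finite index fixing `F` is fixed by the whole Galois group.
-/

set_option autoImplicit false
set_option linter.style.haveILetI false
set_option linter.unusedSectionVars false

namespace Fermat.Agent.Lib.HopfOrderLoc

open Fermat.Agent.Lib.HopfOrder Fermat.Agent.Lib.InertiaBridge

local notation "K" => AlgebraicClosure ℚ
local notation "GQ" => (AlgebraicClosure ℚ ≃ₐ[ℚ] AlgebraicClosure ℚ)

section Twist

variable {M ι : Type} (act : GQ → M → M)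

lemma twist_apply (σ : GQ) (f : M → K) (x : M) : twist act σ f x = σ (f (act σ⁻¹ x)) := rfl

/-- `twist act σ` as a ring homomorphism. -/
noncomputable def twistHom (σ : GQ) : (M → K) →+* (M → K) where
  toFun f := twist act σ f
  map_one' := by funext x; simp [twist]
  map_mul' f g := by funext x; simp [twist]
  map_zero' := by funext x; simp [twist]
  map_add' f g := by funext x; simp [twist]

lemma twistHom_apply (σ : GQ) (f : M → K) : twistHom act σ f = twist act σ f := rfl

lemma twist_const (σ : GQ) (a : K) : twist act σ (fun _ : M => a) = fun _ => σ a := rfl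

lemma twist_smul_const (σ : GQ) (a : K) (f : M → K) :
    twist act σ (fun x => a * f x) = fun x => σ a * twist act σ f x := by
  funext x
  simp [twist]

lemma twist_sum {κ : Type} (s : Finset κ) (σ : GQ) (F : κ → M → K) :
    twist act σ (∑ k ∈ s, F k) = ∑ k ∈ s, twist act σ (F k) := by
  exact map_sum (twistHom act σ) F s

variable (act_one : ∀ x, act 1 x = x) (act_mul : ∀ σ τ x, act (σ * τ) x = act σ (act τ x))

include act_one in
lemma twist_one (f : M → K) : twist act 1 f = f := by
  funext x
  simp [twist, act_one]

include act_mul in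
lemma twist_mul (σ τ : GQ) (f : M → K) :
    twist act (σ * τ) f = twist act σ (twist act τ f) := by
  funext x
  simp only [twist, mul_inv_rev, act_mul]
  rfl

include act_one act_mul in
lemma act_inv_act (σ : GQ) (x : M) : act σ⁻¹ (act σ x) = x := by
  rw [← act_mul, inv_mul_cancel, act_one]

include act_one act_mul in
lemma act_act_inv (σ : GQ) (x : M) : act σ (act σ⁻¹ x) = x := by
  rw [← act_mul, mul_inv_cancel, act_one]

/-- The subgroup of the Galois group fixing a family of functions under `twist`. -/
def fixer (act_one : ∀ x, act 1 x = x) (act_mul : ∀ σ τ x, act (σ * τ) x = act σ (act τ x))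
    (h : ι → M → K) : Subgroup GQ where
  carrier := {σ | ∀ j, twist act σ (h j) = h j}
  one_mem' := fun j => twist_one act act_one (h j)
  mul_mem' := fun {σ τ} hσ hτ j => by
    rw [twist_mul act act_mul, hτ j, hσ j]
  inv_mem' := fun {σ} hσ j => by
    have h1 : twist act σ⁻¹ (twist act σ (h j)) = h j := by
      rw [← twist_mul act act_mul, inv_mul_cancel, twist_one act act_one]
    rw [hσ j] at h1
    exact h1

lemma mem_fixer (h : ι → M → K) (σ : GQ) :
    σ ∈ fixer act act_one act_mul h ↔ ∀ j, twist act σ (h j) = h j := Iff.rfl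

/-- A function is `twist`-fixed by `σ` iff it is `σ`-equivariant. -/
lemma twist_eq_iff (act_one : ∀ x, act 1 x = x)
    (act_mul : ∀ σ τ x, act (σ * τ) x = act σ (act τ x)) (σ : GQ) (f : M → K) :
    twist act σ f = f ↔ ∀ x, f (act σ x) = σ (f x) := by
  constructor
  · intro h x
    have := congrFun h (act σ x)
    rw [twist_apply, act_inv_act act act_one act_mul] at this
    exact this.symm
  · intro h
    funext x
    rw [twist_apply, ← h, act_act_inv act act_one act_mul]

/-- Monomials in functions fixed by `σ` are fixed by `σ`. -/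
lemma twist_monomial_eq (h : ι → M → K) (σ : GQ) (hσ : ∀ j, twist act σ (h j) = h j)
    {f : M → K} (hf : f ∈ Submonoid.closure (Set.range h)) : twist act σ f = f := by
  induction hf using Submonoid.closure_induction with
  | mem g hg =>
    obtain ⟨j, rfl⟩ := hg
    exact hσ j
  | one => exact map_one (twistHom act σ)
  | mul f g _ _ hf hg =>
    have := map_mul (twistHom act σ) f g
    rw [twistHom_apply, twistHom_apply, twistHom_apply, hf, hg] at this
    exact this

/-- The values of monomials lie in any subfield containing the values of the generators. -/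
lemma monomial_val_mem (h : ι → M → K) (L : IntermediateField ℚ K) (hL : ∀ j x, h j x ∈ L)
    {f : M → K} (hf : f ∈ Submonoid.closure (Set.range h)) (x : M) : f x ∈ L := by
  induction hf using Submonoid.closure_induction with
  | mem g hg =>
    obtain ⟨j, rfl⟩ := hg
    exact hL j x
  | one => exact L.one_mem
  | mul f g _ _ hf hg => exact L.mul_mem hf hg

/-- Monomials lie in `genRing`. -/
lemma monomial_mem_genRing (A : Subring K) (h : ι → M → K)
    {f : M → K} (hf : f ∈ Submonoid.closure (Set.range h)) : f ∈ genRing A h := by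
  induction hf using Submonoid.closure_induction with
  | mem g hg =>
    obtain ⟨j, rfl⟩ := hg
    exact gen_mem_genRing A h j
  | one => exact (genRing A h).one_mem
  | mul f g _ _ hf hg => exact (genRing A h).mul_mem hf hg

/-- `genRing A h` is stable under the decomposition group. -/
lemma twist_mem_genRing (A : ValuationSubring K) (h : ι → M → K) (σ : GQ)
    (hσ : σ ∈ A.decompositionSubgroup ℚ)
    (stable : ∀ j, twist act σ (h j) ∈ genRing A.toSubring h)
    {f : M → K} (hf : f ∈ genRing A.toSubring h) : twist act σ f ∈ genRing A.toSubring h := by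
  induction hf using Subring.closure_induction with
  | mem g hg =>
    rcases hg with ⟨a, ha, rfl⟩ | ⟨j, rfl⟩
    · rw [twist_const]
      exact const_mem_genRing A.toSubring h
        (((mem_decompositionSubgroup_iff_forall A σ).mp hσ a).mpr ha)
    · exact stable j
  | zero =>
    have := map_zero (twistHom act σ)
    rw [twistHom_apply] at this
    rw [this]
    exact Subring.zero_mem _
  | one =>
    have := map_one (twistHom act σ)
    rw [twistHom_apply] at this
    rw [this]
    exact Subring.one_mem _
  | add f g _ _ hf hg =>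
    have := map_add (twistHom act σ) f g
    rw [twistHom_apply, twistHom_apply, twistHom_apply] at this
    rw [this]
    exact Subring.add_mem _ hf hg
  | neg f _ hf =>
    have := map_neg (twistHom act σ) f
    rw [twistHom_apply, twistHom_apply] at this
    rw [this]
    exact Subring.neg_mem _ hf
  | mul f g _ _ hf hg =>
    have := map_mul (twistHom act σ) f g
    rw [twistHom_apply, twistHom_apply, twistHom_apply] at this
    rw [this]
    exact Subring.mul_mem _ hf hg

end Twist

section Trace

variable {M : Type} (act : GQ → M → M)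
variable (act_one : ∀ x, act 1 x = x) (act_mul : ∀ σ τ x, act (σ * τ) x = act σ (act τ x))
variable (H : Subgroup GQ)

include act_one act_mul in
/-- Elements of the same left coset of a subgroup fixing `F` twist `F` in the same way. -/
lemma twist_eq_of_coset (F : M → K) (hF : ∀ η ∈ H, twist act η F = F) (g₁ g₂ : GQ)
    (hg : (g₁ : GQ ⧸ H) = (g₂ : GQ ⧸ H)) : twist act g₁ F = twist act g₂ F := by
  have h1 : g₁⁻¹ * g₂ ∈ H := QuotientGroup.eq.mp hg
  have h2 : g₂ = g₁ * (g₁⁻¹ * g₂) := by group
  rw [h2, twist_mul act act_mul, hF _ h1]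

variable [Fintype (GQ ⧸ H)]

/-- The sum of the twists of `F` over the left cosets of `H`. -/
noncomputable def cosetTrace (rep : GQ ⧸ H → GQ) (F : M → K) : M → K :=
  ∑ q : GQ ⧸ H, twist act (rep q) F

include act_one act_mul in
/-- The coset trace of an `H`-fixed function is fixed by the whole group. -/
lemma twist_cosetTrace (rep : GQ ⧸ H → GQ) (hrep : ∀ q, (rep q : GQ ⧸ H) = q)
    (F : M → K) (hF : ∀ η ∈ H, twist act η F = F) (σ : GQ) :
    twist act σ (cosetTrace act H rep F) = cosetTrace act H rep F := by
  unfold cosetTrace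
  rw [twist_sum]
  have h1 : ∀ q : GQ ⧸ H, twist act σ (twist act (rep q) F) = twist act (rep (σ • q)) F := by
    intro q
    rw [← twist_mul act act_mul]
    apply twist_eq_of_coset act act_one act_mul H F hF
    rw [hrep (σ • q)]
    conv_rhs => rw [← hrep q]
    rfl
  rw [Finset.sum_congr rfl (fun q _ => h1 q)]
  exact Fintype.sum_equiv (MulAction.toPerm σ) _ _ (fun q => rfl)

end Trace

end Fermat.Agent.Lib.HopfOrderLoc

end
-- ==== END Fermat.Agent.Lib.HopfOrderLoc.Twist

-- ==== BEGIN Fermat.Agent.S33.H86_Final3
section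

/-!
# S33 from frozen S19 and `Stmt_OrdNew` (helper86)

The old case of S33 (the eigensystem occurs at level `N / p`) follows from frozen S19 through the
S32 bridge (`Fermat.Agent.S32.H86.stmt_FlatPoint_of_S19`) and `stmt_FlatOrd`; the only other
input of S33 is the `p`-new case `Stmt_OrdNew`.
-/

set_option autoImplicit false
set_option linter.style.haveILetI false

open Polynomial IsLocalRing

namespace Fermat.Agent.S33.H86

open Fermat.Agent.R Fermat.Agent.R.H86

variable {p : ℕ} {N : ℕ} [NeZero N] {S : Finset ℕ}
  {𝒪 : Type} [CommRing 𝒪] [IsDomain 𝒪] [IsDiscreteValuationRing 𝒪]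
  [IsAdicComplete (IsLocalRing.maximalIdeal 𝒪) 𝒪]
  {θ : CuspForm.heckeAlgebra N 2 (↑S : Set ℕ) →+* IsLocalRing.ResidueField 𝒪}
  {T : Type} [CommRing T] [IsLocalRing T] [IsNoetherianRing T]
  [IsAdicComplete (IsLocalRing.maximalIdeal T) T] [Algebra 𝒪 T] [IsLocalHom (algebraMap 𝒪 T)]
  [Module.Finite 𝒪 T] [Module.Free 𝒪 T]

/-- Frozen S33 from frozen S19 and `Stmt_OrdNew`. -/
theorem of_S19_ordNew (hS19 : Fermat.Agent.S32.H86.Stmt_S19) (hNew : Stmt_OrdNew)
    [Finite (IsLocalRing.ResidueField 𝒪)] [CharZero 𝒪]
    (hp : p.Prime) (hp2 : p ≠ 2) (hp𝒪 : (p : 𝒪) ∈ IsLocalRing.maximalIdeal 𝒪)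
    (hN : p ∣ N ∧ ¬ p ^ 2 ∣ N)
    (hNS : ∀ q : ℕ, q.Prime → q ∣ N → q ∈ S)
    (H : CuspForm.HeckeGaloisRepDatum N (↑S : Set ℕ) 𝒪 θ T)
    (hres : (GaloisRepAdic.ofResidualGaloisRep H.ρ.residual).IsOrdinaryAt p) :
    H.ρ.IsOrdinaryAt p :=
  of_flatPoint_ordNew (Fermat.Agent.S32.H86.stmt_FlatPoint_of_S19 hS19) hNew
    hp hp2 hp𝒪 hN hNS H hres

end Fermat.Agent.S33.H86

end
-- ==== END Fermat.Agent.S33.H86_Final3
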