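-- GENERATED (merged mirror, NOTES/tools/trim/merge3_helper67.py): 1 modules of the originals, bodies verbatim.
import Fermat.Agent.Zm.S33_L05_000
import Fermat.Agent.Zm.S33_L03_002
import Fermat.Agent.FL.H2_Coord

-- ==== BEGIN Fermat.Agent.FL.H2_Basic1
section

/-!
# G-FL (S19), tools for package BASIC (helper2)

* `sep`, `stmt_Sep` : `L(B - E)` determines `E` (package SEP).
* `eq_of_principal_of_finrank_le_one` : an effective divisor `E` with `l(E) ≤ 1` is the only
  effective divisor in its class.
* `ech_unique` : an echelon basis in a chart is unique (first half of ECH-UNIQUE).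
* `mem_colSpace_map_iff` : the column space of the conjugate matrix.
* `smul_mem_L_iff`, `smul_lin` : semilinear automorphisms and Riemann–Roch spaces / coordinates.
-/

set_option autoImplicit false
set_option linter.style.haveILetI false
set_option linter.unusedSectionVars false
set_option linter.unusedVariables false

noncomputable section

open AlgebraicCurve Matrix

namespace Fermat.Agent.FL.H2

open Fermat.Agent.FL Fermat.Agent.RED Fermat.Agent.RED.H42 Fermat.Agent.S17.H35

local notation "L" => riemannRochSpace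

section FF

variable {k E : Type} [Field k] [Field E] [Algebra k E]

/-- **SEP**, generic form. -/
theorem sep (H : Hyp k E) {g : ℕ} {c : ℤ} (hR : IsRiemann k E g c) {B E₁ E₂ : Divisor k E}
    (h1 : c + 1 ≤ Divisor.degree (B - E₁)) (h2 : c + 1 ≤ Divisor.degree (B - E₂))
    (hL : L (B - E₁) = L (B - E₂)) : E₁ = E₂ := by
  apply Finsupp.ext
  intro v
  obtain ⟨f₁, hf₁, hf₁0, hv₁⟩ := L_bpf_single H hR h1 v
  obtain ⟨f₂, hf₂, hf₂0, hv₂⟩ := L_bpf_single H hR h2 v
  have e1 := neg_le_ord_of_mem (hL ▸ hf₁) hf₁0 v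
  have e2 := neg_le_ord_of_mem (hL.symm ▸ hf₂) hf₂0 v
  rw [hv₁] at e1
  rw [hv₂] at e2
  simp only [Finsupp.sub_apply] at e1 e2
  omega

/-- **SEP**. -/
theorem stmt_Sep : Stmt_Sep := by
  intro k E _ _ _ _ hFF g c hR B E₁ E₂ _ _ h1 h2 hL
  exact sep (hyp_of_isFF k E hFF) hR h1 h2 hL

/-- An effective divisor `E` with `l(E) ≤ 1` is the only effective divisor in its class. -/
theorem eq_of_principal_of_finrank_le_one (H : Hyp k E) {D D' : Divisor k E} (hD : 0 ≤ D)
    (hD' : 0 ≤ D') {f : E} (hf : f ≠ 0) (hdiv : ∀ v : Place k E, (D' - D) v = v.ord f)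
    (hl : Module.finrank k (L D) ≤ 1) : D' = D := by
  haveI := finite_L H D
  have hfL : f ∈ L D := by
    apply mem_L_of_neg_le_ord
    intro v
    rw [← hdiv v, Finsupp.sub_apply]
    have : 0 ≤ D' v := by
      have h0 := hD'
      rw [Finsupp.le_def] at h0
      simpa using h0 v
    omega
  have h1L : (1 : E) ∈ L D := one_mem_L hD
  obtain ⟨w, hw⟩ := finrank_le_one_iff.mp hl
  obtain ⟨a, ha⟩ := hw ⟨f, hfL⟩
  obtain ⟨b, hb⟩ := hw ⟨1, h1L⟩
  have ha' : a • (w : E) = f := congrArg Subtype.val ha
  have hb' : b • (w : E) = 1 := congrArg Subtype.val hb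
  have hb0 : b ≠ 0 := by
    rintro rfl
    rw [zero_smul] at hb'
    exact zero_ne_one hb'
  have hfc : f = algebraMap k E (a * b⁻¹) := by
    have hw' : (w : E) = b⁻¹ • (1 : E) := by
      rw [← hb', smul_smul, inv_mul_cancel₀ hb0, one_smul]
    rw [← ha', hw', smul_smul, Algebra.smul_def, mul_one]
  apply Finsupp.ext
  intro v
  have h2 := hdiv v
  rw [hfc, Fermat.Agent.RED.H17.ord_algebraMap, Finsupp.sub_apply] at h2
  omega

end FF

section LinAlg

variable {R ι : Type} [Field R] [Fintype ι] {d : ℕ}

/-- An echelon basis of a subspace in a chart is unique. -/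
theorem ech_unique (J : Fin d → ι) (M M' : Matrix ι (Fin d) R)
    (hM : ∀ a b, M (J a) b = if a = b then 1 else 0)
    (hM' : ∀ a b, M' (J a) b = if a = b then 1 else 0)
    (h : colSpace M = colSpace M') : M = M' := by
  classical
  ext i b
  have h1 : M *ᵥ (Pi.single b 1) ∈ colSpace M' := by
    rw [← h]
    exact ⟨Pi.single b 1, rfl⟩
  obtain ⟨y, hy⟩ := h1
  have hy' : M' *ᵥ y = M *ᵥ (Pi.single b 1) := hy
  have hya : ∀ a, y a = if a = b then 1 else 0 := by
    intro a
    have h2 := congrFun hy' (J a)
    rw [Matrix.mulVec_single_one] at h2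
    have h3 : (M' *ᵥ y) (J a) = y a := by
      simp only [Matrix.mulVec, dotProduct, hM']
      simp
    rw [h3] at h2
    rw [h2]
    exact hM a b
  have hyb : y = Pi.single b 1 := by
    funext a
    rw [hya a, Pi.single_apply]
  rw [hyb] at hy'
  have h4 := congrFun hy' i
  rw [Matrix.mulVec_single_one, Matrix.mulVec_single_one] at h4
  exact h4.symm

/-- The column space of the matrix conjugated by a ring automorphism. -/
theorem mem_colSpace_map_iff (τ : R ≃+* R) (M : Matrix ι (Fin d) R) (u : ι → R) :
    u ∈ colSpace (M.map τ) ↔ (fun i => τ.symm (u i)) ∈ colSpace M := by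
  constructor
  · rintro ⟨w, rfl⟩
    refine ⟨fun b => τ.symm (w b), ?_⟩
    funext i
    have h1 := RingHom.map_mulVec (τ.symm : R →+* R) (M.map τ) w i
    have h2 : (M.map τ).map (τ.symm : R →+* R) = M := by
      ext i b
      simp
    rw [h2] at h1
    exact h1.symm
  · rintro ⟨w, hw⟩
    refine ⟨fun b => τ (w b), ?_⟩
    funext i
    have h1 := RingHom.map_mulVec (τ : R →+* R) M w i
    have h2 : (M *ᵥ w) i = τ.symm (u i) := congrFun hw i
    have h3 : τ ((M *ᵥ w) i) = u i := by rw [h2, RingEquiv.apply_symm_apply]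
    rw [← h3]
    exact h1.symm

end LinAlg

section Semi

variable {K F : Type} [Field K] [Field F] [Algebra K F]

/-- Semilinear automorphisms transport Riemann–Roch spaces. -/
theorem smul_mem_L_iff (σ : SemilinearAut K F) (D : Divisor K F) (f : F) :
    σ • f ∈ L (σ • D) ↔ f ∈ L D := by
  rw [mem_riemannRochSpace_iff, mem_riemannRochSpace_iff]
  constructor
  · intro h v
    rcases h (σ • v) with h0 | h1
    · left
      exact (smul_eq_zero_iff_eq σ).mp h0
    · right
      rwa [SemilinearAut.divisor_smul_apply_smul, SemilinearAut.ord_smul] at h1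
  · intro h w
    rcases h (σ⁻¹ • w) with h0 | h1
    · left
      rw [h0, smul_zero]
    · right
      have h2 : w.ord (σ • f) = (σ⁻¹ • w).ord f := by
        have := SemilinearAut.ord_smul σ (σ⁻¹ • w) f
        rwa [smul_inv_smul] at this
      rw [SemilinearAut.divisor_smul_apply, h2]
      exact h1

/-- Semilinear automorphisms and linear combinations. -/
theorem smul_lin {ι : Type} [Fintype ι] (σ : SemilinearAut K F) (e : ι → F) (u : ι → K) :
    σ • lin e u = lin (fun i => σ • e i) (fun i => SemilinearAut.baseAut σ (u i)) := by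
  rw [lin_apply, lin_apply, Finset.smul_sum]
  refine Finset.sum_congr rfl fun i _ => ?_
  rw [Algebra.smul_def, Algebra.smul_def, smul_mul', SemilinearAut.smul_algebraMap]

end Semi

end Fermat.Agent.FL.H2

end
end
-- ==== END Fermat.Agent.FL.H2_Basic1
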