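-- GENERATED (merged mirror, NOTES/tools/trim/merge3_helper67.py): 2 modules of the originals, bodies verbatim.
import Fermat.Agent.Zm.S33_L06_002
import Fermat.Agent.Zm.S33_L03_003
import Fermat.Agent.Zm.S33_L06_001
import Fermat.Agent.Zm.S33_L04_002
import Fermat.Agent.Zm.S33_L02_003

-- ==== BEGIN Fermat.Agent.FL.H2_Basic
section

/-!
# G-FL (S19), package BASIC (helper2): `Stmt_Basic`

The generators `CS.gen` of a coordinate system are integral, inertia-equivariant and separate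
the points.

* `CoordSys.finrank_L_E_le_one` : `l(E x) ≤ 1`.
* `CoordSys.E_smul` : `E (σ x) = σ (E x)` for `σ` in the inertia group.
* `CoordSys.cls_smul` : `cls (σ x) = cls x` for `σ` in the inertia group.
* `CoordSys.M_smul` : `M (σ x) = σ (M x)` for `σ` in the inertia group.
* `CoordSys.E_injective`, `CoordSys.M_injective_of_cls_eq`.
* `stmt_Basic : Stmt_Basic`.
-/

set_option autoImplicit false
set_option linter.style.haveILetI false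
set_option linter.unusedSectionVars false
set_option linter.unusedVariables false
set_option maxHeartbeats 1000000

noncomputable section

open AlgebraicCurve Matrix

namespace Fermat.Agent.FL.H2

open Fermat.Agent.FL Fermat.Agent.RED Fermat.Agent.RED.H17 Fermat.Agent.RED.H42
  Fermat.Agent.S17.H35

local notation "L" => riemannRochSpace

variable {K F k F' : Type} [Field K] [Field F] [Algebra K F] [Field k] [Field F']
  [Algebra k F'] {S : RedSetup K F k F'} {Γ : Type} [Group Γ] {G : GalRed S Γ}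
  {𝒯 : Set (Pic0 K F)} (CS : CoordSys S G 𝒯)

/-- The reduction of divisors commutes with the inertia group. -/
theorem mapDomain_r_smul (G : GalRed S Γ) {σ : Γ} (hσ : σ ∈ G.I) (D : Divisor K F) :
    Finsupp.mapDomain S.r (G.act σ • D) = Finsupp.mapDomain S.r D := by
  rw [SemilinearAut.divisor_smul_def, ← Finsupp.mapDomain_comp]
  congr 1
  funext P
  show S.r (G.act σ • P) = S.r P
  rw [G.r_smul, G.inertia σ hσ, one_smul]

theorem smul_nonneg_divisor (σ : SemilinearAut K F) {D : Divisor K F} (hD : 0 ≤ D) :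
    0 ≤ σ • D := by
  rw [Finsupp.le_def]
  intro w
  rw [SemilinearAut.divisor_smul_apply]
  have := hD
  rw [Finsupp.le_def] at this
  simpa using this (σ⁻¹ • w)

namespace CoordSysAux

/-- `l(E x) ≤ 1`. -/
theorem finrank_L_E_le_one (x : 𝒯) : Module.finrank K (L (CS.E x)) ≤ 1 := by
  have := CS.semi (CS.E x)
  rw [CS.ns x] at this
  exact this

/-- Two representatives of the same class agree. -/
theorem E_eq_of_class (H : Hyp K F) (y : 𝒯) {D : Divisor K F} (hD : 0 ≤ D)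
    (D₀ : Divisor.degZero (K := K) (F := F)) (hD₀ : Pic0.mk D₀ = (y : Pic0 K F))
    (hD₀' : (D₀ : Divisor K F) = D - CS.E₀) : D = CS.E y := by
  obtain ⟨Dy, hDy, hDy'⟩ := CS.mkE y
  have h1 : Pic0.mk D₀ = Pic0.mk Dy := by rw [hD₀, hDy]
  have h2 : D₀ - Dy ∈ (Divisor.principal (K := K) (F := F)).addSubgroupOf
      (Divisor.degZero (K := K) (F := F)) := QuotientAddGroup.eq_iff_sub_mem.mp h1
  rw [AddSubgroup.mem_addSubgroupOf] at h2
  obtain ⟨f, hf, hdiv⟩ := h2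
  refine eq_of_principal_of_finrank_le_one H (CS.hE y).1 hD hf (fun v => ?_)
    (finrank_L_E_le_one CS y)
  rw [← hdiv v]
  show (D - CS.E y) v = ((D₀ : Divisor K F) - (Dy : Divisor K F)) v
  rw [hD₀', hDy']
  simp only [Finsupp.sub_apply]
  ring

/-- `E (σ x) = σ (E x)` for `σ` in the inertia group. -/
theorem E_smul (H : Hyp K F) {σ : Γ} (hσ : σ ∈ G.I) (x y : 𝒯)
    (hxy : (y : Pic0 K F) = G.act σ • (x : Pic0 K F)) :
    CS.E y = G.act σ • CS.E x := by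
  obtain ⟨Dx, hDx, hDx'⟩ := CS.mkE x
  symm
  refine E_eq_of_class CS H y (smul_nonneg_divisor _ (CS.hE x).1)
    (SemilinearAut.degZeroSMulHom (G.act σ) Dx) ?_ ?_
  · rw [hxy, ← hDx, SemilinearAut.pic0_smul_mk]
  · rw [SemilinearAut.coe_degZeroSMulHom, hDx', smul_sub, CS.fixE₀ σ hσ]

/-- `cls (σ x) = cls x` for `σ` in the inertia group. -/
theorem cls_smul (H : Hyp K F) {σ : Γ} (hσ : σ ∈ G.I) (x y : 𝒯)
    (hxy : (y : Pic0 K F) = G.act σ • (x : Pic0 K F)) :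
    CS.cls y = CS.cls x := by
  show Finsupp.mapDomain S.r (CS.E y) = Finsupp.mapDomain S.r (CS.E x)
  rw [E_smul CS H hσ x y hxy, mapDomain_r_smul G hσ]

/-- `M (σ x) = σ (M x)` for `σ` in the inertia group. -/
theorem M_smul (H : Hyp K F) {σ : Γ} (hσ : σ ∈ G.I) (x y : 𝒯)
    (hxy : (y : Pic0 K F) = G.act σ • (x : Pic0 K F)) (i : Fin CS.n₁) (b : Fin CS.d) :
    CS.M y i b = SemilinearAut.baseAut (G.act σ) (CS.M x i b) := by
  have hcls := cls_smul CS H hσ x y hxy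
  have hE := E_smul CS H hσ x y hxy
  obtain ⟨hx1, hx2, -, -⟩ := CS.hM x
  obtain ⟨hy1, hy2, -, -⟩ := CS.hM y
  have hJ : CS.J (Finsupp.mapDomain S.r (CS.E y)) = CS.J (Finsupp.mapDomain S.r (CS.E x)) :=
    congrArg CS.J hcls
  set τ := SemilinearAut.baseAut (G.act σ) with hτ
  have key : CS.M y = (CS.M x).map τ := by
    refine ech_unique (CS.J (Finsupp.mapDomain S.r (CS.E y))) _ _ hy1 ?_ ?_
    · intro a b
      rw [hJ, Matrix.map_apply, hx1 a b]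
      split_ifs <;> simp
    · rw [hy2]
      ext u
      rw [mem_colSpace_map_iff, hx2, mem_coordSpace, mem_coordSpace]
      have he : (fun i => G.act σ • CS.e₁ i) = CS.e₁ := funext (CS.fix₁ σ)
      have hu : (fun i => SemilinearAut.baseAut (G.act σ) (τ.symm (u i))) = u :=
        funext fun i => τ.apply_symm_apply (u i)
      have h2 := smul_mem_L_iff (G.act σ) (CS.B₁ - CS.E x)
        (lin CS.e₁ (fun i => τ.symm (u i)))
      rw [smul_lin, he, hu, smul_sub, CS.fixB₁ σ, ← hE] at h2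
      exact h2
  rw [key, Matrix.map_apply]

/-- The representative determines the point. -/
theorem eq_of_E_eq (x y : 𝒯) (h : CS.E x = CS.E y) : x = y := by
  obtain ⟨Dx, hDx, hDx'⟩ := CS.mkE x
  obtain ⟨Dy, hDy, hDy'⟩ := CS.mkE y
  apply Subtype.ext
  rw [← hDx, ← hDy]
  congr 1
  apply Subtype.ext
  rw [hDx', hDy', h]

/-- The echelon basis determines the point. -/
theorem eq_of_M_eq (H : Hyp K F) (x y : 𝒯) (h : CS.M x = CS.M y) : x = y := by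
  obtain ⟨-, hx2, -, -⟩ := CS.hM x
  obtain ⟨-, hy2, -, -⟩ := CS.hM y
  apply eq_of_E_eq CS
  have hsp := CS.he₁.1.2
  have hle : ∀ z : 𝒯, L (CS.B₁ - CS.E z) ≤ Submodule.span K (Set.range CS.e₁) := by
    intro z
    rw [hsp]
    exact L_mono (sub_le_self _ (CS.hE z).1)
  have hL : L (CS.B₁ - CS.E x) = L (CS.B₁ - CS.E y) := by
    rw [← map_coordSpace (hle x), ← map_coordSpace (hle y), ← hx2, ← hy2, h]
  have hc := CS.hc
  have hB := CS.hB₁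
  refine sep H CS.hR (B := CS.B₁) ?_ ?_ hL
  · rw [map_sub, (CS.hE x).2]; omega
  · rw [map_sub, (CS.hE y).2]; omega

end CoordSysAux

open CoordSysAux

/-- **BASIC**. -/
theorem stmt_Basic : Stmt_Basic := by
  classical
  intro K F k F' _ _ _ _ _ _ _ _ S hFF hFF' Γ _ G 𝒯 CS 𝒮 h𝒮
  have H := hyp_of_isFF K F hFF
  refine ⟨?_, ?_, ?_⟩
  · -- integrality
    intro j x
    rcases j with x₀ | ⟨x₀, i, b⟩
    · simp only [CoordSys.gen]
      split_ifs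
      · exact (constVal S).one_mem
      · exact (constVal S).zero_mem
    · simp only [CoordSys.gen]
      split_ifs
      · exact (CS.hM ⟨x, h𝒮 x.2⟩).2.2.1 i b
      · exact (constVal S).zero_mem
  · -- inertia
    intro j σ hσ x hx
    have hcls : CS.cls ⟨_, h𝒮 hx⟩ = CS.cls ⟨x, h𝒮 x.2⟩ :=
      cls_smul CS H hσ ⟨x, h𝒮 x.2⟩ ⟨_, h𝒮 hx⟩ rfl
    rcases j with x₀ | ⟨x₀, i, b⟩
    · simp only [CoordSys.gen]
      rw [hcls]
      split_ifs
      · rw [map_one]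
      · rw [map_zero]
    · simp only [CoordSys.gen]
      rw [hcls]
      split_ifs
      · exact M_smul CS H hσ ⟨x, h𝒮 x.2⟩ ⟨_, h𝒮 hx⟩ rfl i b
      · rw [map_zero]
  · -- separation
    intro x y hxy
    by_cases hcls : CS.cls ⟨x, h𝒮 x.2⟩ = CS.cls ⟨y, h𝒮 y.2⟩
    · have hM : CS.M ⟨x, h𝒮 x.2⟩ ≠ CS.M ⟨y, h𝒮 y.2⟩ := by
        intro h
        have h1 := eq_of_M_eq CS H _ _ h
        apply hxy
        apply Subtype.ext
        exact congrArg (fun z : 𝒯 => (z : Pic0 K F)) h1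
      have : ∃ i b, CS.M ⟨x, h𝒮 x.2⟩ i b ≠ CS.M ⟨y, h𝒮 y.2⟩ i b := by
        by_contra hcon
        push Not at hcon
        exact hM (Matrix.ext hcon)
      obtain ⟨i, b, hib⟩ := this
      refine ⟨Sum.inr (⟨x, h𝒮 x.2⟩, i, b), ?_⟩
      simp only [CoordSys.gen]
      rw [if_pos trivial, if_pos hcls.symm]
      exact hib
    · refine ⟨Sum.inl ⟨x, h𝒮 x.2⟩, ?_⟩
      simp only [CoordSys.gen]
      rw [if_pos trivial, if_neg (fun h => hcls h.symm)]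
      exact one_ne_zero

end Fermat.Agent.FL.H2

end
end
-- ==== END Fermat.Agent.FL.H2_Basic

-- ==== BEGIN Fermat.Agent.S33.New.H54_Wire
section

/-!
# S33, the `p`-new case: `R.Stmt_OrdNew` from the torsion-level statement (T3)  (helper54)

* `ordNew_of_tors : (∀ M p, Stmt_TorsOrdNew M p) → R.Stmt_OrdNew`.
* `ordNew_line` : the same with the line `L` exposed and one more clause: `(g - 1) V ⊆ L` for
  every `g ∈ G_ℚ` satisfying the `K1`-test `K1Test P M p g` (for strict ordinarity, S59).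
* `ordNew_coord` : the coordinate form.

Route: `NOTES/plan/R_S33_NEW.md` §1.  `V` the given representation, `G : V → 𝒪^r` the split
equivariant embedding into the Tate limit of `J₀(M p)` (helper86's bridge), `w` an old-killer
(exists because the eigensystem does not occur at level `M`), `σ₀` in the inertia group with
`w₀ = (σ₀ - 1) v₀ ∉ 𝔪 V`, `b` a basis with `b 0 = w₀`.  If the second coordinate `c` of some
`(σ₁ - 1) v₁` did not vanish, then `c V ⊆ (σ₀ - 1) V + (σ₁ - 1) V`, and (T3) (through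
`vec_OrdNew`) shows that every `τ` in the inertia group acts on `V / 𝔪 V` as the scalar `a`,
`τ ζ = ζ ^ a`; so `det ρ(σ₀) ≡ a₀²`; but `det ρ(σ₀) ≡ a₀` (cyclotomic determinant), hence
`a₀ ≡ 0` or `1`, both of which contradict `w₀ ∉ 𝔪 V`.  So `𝒪 w₀` is the ordinary line.
-/

set_option autoImplicit false
set_option linter.unusedSectionVars false
set_option linter.unusedVariables false
set_option linter.style.haveILetI false

open Polynomial IsLocalRing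

noncomputable section

namespace Fermat.Agent.S33.New.H54

open AlgebraicCurve ModularCurve Fermat.Agent.GTor Fermat.Agent.GTor.H81
  Fermat.Agent.GTor.H58T1 Fermat.Agent.Betti.H76 Fermat.Agent.R Fermat.Agent.R.H86
  Fermat.Agent.S32.H86

/-- **Old-killers** for an eigensystem which does not occur at level `M`. -/
theorem exists_oldKiller_of_not_occurs {M p : ℕ} [NeZero M] [NeZero (M * p)] {S : Finset ℕ}
    {𝒪 : Type} [CommRing 𝒪]
    (χ : CuspForm.heckeAlgebra (M * p) 2 (↑S : Set ℕ) →+* 𝒪) (h : ¬ OccursAtLevel χ M) :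
    ∃ w : FreeAlgebra ℤ (Gen (↑S : Set ℕ)),
      wordSH M (↑S : Set ℕ) w = 0 ∧ χ (wordSH (M * p) (↑S : Set ℕ) w) ≠ 0 := by
  by_contra hcon
  push Not at hcon
  apply h
  have hker : RingHom.ker (wordSH M (↑S : Set ℕ)).toRingHom ≤
      RingHom.ker (χ.comp (wordSH (M * p) (↑S : Set ℕ)).toRingHom) := by
    intro w hw
    rw [RingHom.mem_ker] at hw ⊢
    exact hcon w hw
  let ψ : CuspForm.heckeAlgebra M 2 (↑S : Set ℕ) →+* 𝒪 :=
    (wordSH M (↑S : Set ℕ)).toRingHom.liftOfSurjective (wordSH_surjective M (↑S : Set ℕ))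
      ⟨χ.comp (wordSH (M * p) (↑S : Set ℕ)).toRingHom, hker⟩
  have hψ : ∀ w, ψ (wordSH M (↑S : Set ℕ) w) = χ (wordSH (M * p) (↑S : Set ℕ) w) := fun w =>
    RingHom.liftOfRightInverse_comp_apply _ _ _ _ w
  refine ⟨ψ, fun ℓ hℓ hℓN hℓM hℓS => ?_⟩
  have e1 : wordSH M (↑S : Set ℕ) (FreeAlgebra.ι ℤ (mkGen ℓ hℓ hℓS)) =
      CuspForm.heckeAlgebra.T hℓ hℓM hℓS := wordSH_ι M (↑S : Set ℕ) (mkGen ℓ hℓ hℓS) hℓM
  have e2 : wordSH (M * p) (↑S : Set ℕ) (FreeAlgebra.ι ℤ (mkGen ℓ hℓ hℓS)) =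
      CuspForm.heckeAlgebra.T hℓ hℓN hℓS :=
    wordSH_ι (M * p) (↑S : Set ℕ) (mkGen ℓ hℓ hℓS) hℓN
  rw [← e1, ← e2, hψ]

/-- **The split equivariant embedding** of `ρ` into a piece of a matrix representation on which
every Galois element satisfies the characteristic polynomial of `ρ` (first half of helper86's
`flat_of_piece`). -/
theorem exists_embedding_of_piece
    {𝒪 : Type} [CommRing 𝒪] [IsLocalRing 𝒪] [Finite (ResidueField 𝒪)]
    (ρ : GaloisRepAdic 𝒪) (habs : ρ.residual.IsAbsolutelyIrreducible)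
    {r d : ℕ} (hd : 0 < d)
    (ρL : (AlgebraicClosure ℚ ≃ₐ[ℚ] AlgebraicClosure ℚ) →* Matrix (Fin r) (Fin r) 𝒪)
    (P : Matrix (Fin r) (Fin d) 𝒪) (Q : Matrix (Fin d) (Fin r) 𝒪) (hQP : Q * P = 1)
    (ρ' : (AlgebraicClosure ℚ ≃ₐ[ℚ] AlgebraicClosure ℚ) →* Matrix (Fin d) (Fin d) 𝒪)
    (hrel : ∀ σ, ρL σ * P = P * ρ' σ)
    (hCH : ∀ g, ρ' g * ρ' g - (LinearMap.trace 𝒪 ρ.V (ρ.ρ g)) • ρ' g
      + (LinearMap.det (ρ.ρ g)) • (1 : Matrix (Fin d) (Fin d) 𝒪) = 0) :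
    ∃ (G : ρ.V →ₗ[𝒪] (Fin r → 𝒪)) (R : (Fin r → 𝒪) →ₗ[𝒪] ρ.V),
      (∀ v, R (G v) = v) ∧ (∀ σ v, G (ρ.ρ σ v) = (ρL σ).mulVec (G v)) ∧
      ∀ v, ∃ u : Fin d → 𝒪, G v = P.mulVec u := by
  classical
  let b : Module.Basis (Fin 2) 𝒪 ρ.V := Module.finBasisOfFinrankEq 𝒪 ρ.V ρ.finrank_eq
  let T : Module.End 𝒪 ρ.V ≃ₐ[𝒪] Matrix (Fin 2) (Fin 2) 𝒪 := LinearMap.toMatrixAlgEquiv b
  let M : (AlgebraicClosure ℚ ≃ₐ[ℚ] AlgebraicClosure ℚ) →* Matrix (Fin 2) (Fin 2) 𝒪 :=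
    (T : Module.End 𝒪 ρ.V →* Matrix (Fin 2) (Fin 2) 𝒪).comp ρ.ρ
  have hM : ∀ g, M g = LinearMap.toMatrix b b (ρ.ρ g) := fun g => rfl
  have hspan : Submodule.span 𝒪 (Set.range M) = ⊤ := by
    obtain ⟨g, hg⟩ := exists_eq_sum_matrix ρ habs b
    rw [eq_top_iff]
    intro Y _
    obtain ⟨c, rfl⟩ := hg Y
    exact Submodule.sum_mem _ fun q _ =>
      Submodule.smul_mem _ _ (Submodule.subset_span ⟨g q, rfl⟩)
  have hCHM : ∀ g, ρ' g * ρ' g - (M g).trace • ρ' g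
      + (M g).det • (1 : Matrix (Fin d) (Fin d) 𝒪) = 0 := by
    intro g
    rw [hM, ← LinearMap.trace_eq_matrix_trace 𝒪 b, LinearMap.det_toMatrix b]
    exact hCH g
  obtain ⟨Φ, hΦ⟩ := Fermat.Agent.S32.H86BLR.exists_algHom (B := Matrix (Fin d) (Fin d) 𝒪) (π := ρ') hspan hCHM
  haveI : Nonempty (Fin d) := ⟨⟨0, hd⟩⟩
  let Φ' : Matrix (Fin 2) (Fin 2) 𝒪 →ₐ[𝒪] Module.End 𝒪 (Fin d → 𝒪) :=
    (Matrix.toLinAlgEquiv' : Matrix (Fin d) (Fin d) 𝒪 ≃ₐ[𝒪] _).toAlgHom.comp Φ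
  have hΦ' : ∀ (A : Matrix (Fin 2) (Fin 2) 𝒪) (u : Fin d → 𝒪), Φ' A u = (Φ A).mulVec u :=
    fun A u => rfl
  obtain ⟨f, ret, hret, hf⟩ := Fermat.Agent.S32.H86BLR.exists_split_embedding Φ'
  let G : ρ.V →ₗ[𝒪] (Fin r → 𝒪) := (Matrix.toLin' P) ∘ₗ f ∘ₗ b.equivFun.toLinearMap
  let R : (Fin r → 𝒪) →ₗ[𝒪] ρ.V := b.equivFun.symm.toLinearMap ∘ₗ ret ∘ₗ (Matrix.toLin' Q)
  have hG : ∀ v, G v = P.mulVec (f (b.equivFun v)) := fun v => rfl
  have hR : ∀ y, R y = b.equivFun.symm (ret (Q.mulVec y)) := fun y => rfl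
  refine ⟨G, R, ?_, ?_, fun v => ⟨f (b.equivFun v), hG v⟩⟩
  · intro v
    rw [hR, hG, Matrix.mulVec_mulVec, hQP, Matrix.one_mulVec, hret, LinearEquiv.symm_apply_apply]
  · intro σ v
    have h1 : b.equivFun (ρ.ρ σ v) = (M σ).mulVec (b.equivFun v) := by
      rw [hM]
      exact (LinearMap.toMatrix_mulVec_repr b b (ρ.ρ σ) v).symm
    rw [hG, hG, h1, hf, hΦ', hΦ, Matrix.mulVec_mulVec, Matrix.mulVec_mulVec, hrel]

/-- a linear map sends vectors with entries in an ideal into `I • ⊤`. -/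
theorem map_mem_smul_top_of_entries {𝒪 V : Type} [CommRing 𝒪] [AddCommGroup V] [Module 𝒪 V]
    {r : ℕ} (R : (Fin r → 𝒪) →ₗ[𝒪] V) (I : Ideal 𝒪) (y : Fin r → 𝒪) (hy : ∀ i, y i ∈ I) :
    R y ∈ I • (⊤ : Submodule 𝒪 V) := by
  classical
  have h1 : y = ∑ i, y i • (Pi.single i (1 : 𝒪) : Fin r → 𝒪) := by
    funext k
    simp [Finset.sum_apply, Pi.single_apply]
  rw [h1, map_sum]
  refine Submodule.sum_mem _ fun i _ => ?_
  rw [map_smul]
  exact Submodule.smul_mem_smul (hy i) Submodule.mem_top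

/-- a vector outside `𝔪 V` is the first vector of a basis (rank `2`). -/
theorem exists_basis_of_notMem {𝒪 V : Type} [CommRing 𝒪] [IsLocalRing 𝒪] [AddCommGroup V]
    [Module 𝒪 V] (b₁ : Module.Basis (Fin 2) 𝒪 V) (w : V)
    (hw : w ∉ maximalIdeal 𝒪 • (⊤ : Submodule 𝒪 V)) :
    ∃ b : Module.Basis (Fin 2) 𝒪 V, b 0 = w := by
  by_cases h0 : IsUnit (b₁.repr w 0)
  · obtain ⟨b, hb, -⟩ := Fermat.Agent.S33.exists_basis_replace b₁ w h0
    exact ⟨b, hb⟩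
  · have h1 : IsUnit (b₁.repr w 1) := by
      by_contra h1
      apply hw
      rw [← b₁.sum_repr w, Fin.sum_univ_two]
      exact add_mem (Submodule.smul_mem_smul ((mem_maximalIdeal _).2 h0) trivial)
        (Submodule.smul_mem_smul ((mem_maximalIdeal _).2 h1) trivial)
    let b₂ : Module.Basis (Fin 2) 𝒪 V := b₁.reindex (Equiv.swap (0 : Fin 2) 1)
    have h2 : b₂.repr w 0 = b₁.repr w 1 := by
      simp [b₂]
    obtain ⟨b, hb, -⟩ := Fermat.Agent.S33.exists_basis_replace b₂ w (by rw [h2]; exact h1)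
    exact ⟨b, hb⟩

/-- the `p`-adic topology of a discrete valuation ring of mixed characteristic. -/
theorem exists_pow_le_span_natCast {𝒪 : Type} [CommRing 𝒪] [IsDomain 𝒪]
    [IsDiscreteValuationRing 𝒪] [CharZero 𝒪] {p : ℕ} (hp : p.Prime) (n : ℕ) :
    ∃ m : ℕ, maximalIdeal 𝒪 ^ m ≤ Ideal.span {((p ^ n : ℕ) : 𝒪)} := by
  obtain ⟨ϖ, hϖ⟩ := IsDiscreteValuationRing.exists_irreducible 𝒪
  have h0 : ((p ^ n : ℕ) : 𝒪) ≠ 0 := by
    exact_mod_cast pow_ne_zero n hp.ne_zero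
  have hI : Ideal.span {((p ^ n : ℕ) : 𝒪)} ≠ ⊥ := by
    rw [Ne, Ideal.span_singleton_eq_bot]
    exact h0
  obtain ⟨m, hm⟩ := IsDiscreteValuationRing.ideal_eq_span_pow_irreducible hI hϖ
  refine ⟨m, ?_⟩
  rw [hm, hϖ.maximalIdeal_eq, Ideal.span_singleton_pow]

/-- **The `p`-new case, coordinate form**: for every basis `b` of `V` whose first vector is
`(σ₀ - 1) v₀` (`σ₀` in the inertia group of `P`; such `σ₀, v₀, b` exist), the second coordinate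
of `(g - 1) v` vanishes for all `g` which satisfy the `K1`-test at `P` (in particular for all `g`
in the inertia group of `P`, `k1Test_of_mem_inertia`). -/
theorem ordNew_coord
    (hT3 : ∀ (M p : ℕ) [NeZero M] [NeZero p], Stmt_TorsOrdNew M p)
    (p M : ℕ) [NeZero (M * p)] [NeZero M] [NeZero p] (S : Finset ℕ)
    (𝒪 : Type) [CommRing 𝒪] [IsDomain 𝒪] [IsDiscreteValuationRing 𝒪]
    [IsAdicComplete (maximalIdeal 𝒪) 𝒪] [Finite (ResidueField 𝒪)] [CharZero 𝒪]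
    (hp : p.Prime) (hp2 : p ≠ 2) (hp𝒪 : (p : 𝒪) ∈ maximalIdeal 𝒪) (hpM : ¬ p ∣ M)
    (hNS : ∀ q : ℕ, q.Prime → q ∣ M * p → q ∈ S)
    (χ : CuspForm.heckeAlgebra (M * p) 2 (↑S : Set ℕ) →+* 𝒪) (ρ : GaloisRepAdic 𝒪)
    (hρ : HasFrobCharpoly χ ρ) (habs : ρ.residual.IsAbsolutelyIrreducible)
    (hnocc : ¬ OccursAtLevel χ M)
    (P : ValuationSubring (AlgebraicClosure ℚ)) (hP : P.LiesOverPrime p)
    {σ₀ : AlgebraicClosure ℚ ≃ₐ[ℚ] AlgebraicClosure ℚ} (hσ₀ : σ₀ ∈ P.inertiaSubgroupIn ℚ)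
    (v₀ : ρ.V) (hv₀ : ρ.ρ σ₀ v₀ - v₀ ∉ maximalIdeal 𝒪 • (⊤ : Submodule 𝒪 ρ.V))
    (b : Module.Basis (Fin 2) 𝒪 ρ.V) (hb0 : b 0 = ρ.ρ σ₀ v₀ - v₀) :
    ∀ g : AlgebraicClosure ℚ ≃ₐ[ℚ] AlgebraicClosure ℚ, K1Test P M p g →
      ∀ v : ρ.V, b.repr (ρ.ρ g v - v) 1 = 0 := by
  classical
  haveI : Fact p.Prime := ⟨hp⟩
  have hpS : p ∈ S := hNS p hp (Dvd.intro_left M rfl)
  have hNS' : ∀ q : ℕ, q.Prime → q ∣ M * p → q ∈ (↑S : Set ℕ) := fun q hq hqN => by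
    exact_mod_cast hNS q hq hqN
  obtain ⟨C⟩ := tateCoords (M * p) p (↑S : Set ℕ) hp hNS'
  obtain ⟨L⟩ := exists_tateLimit C 𝒪 hp𝒪
  obtain ⟨Pc, hPc⟩ := exists_piece_eig L χ
  have hES : Stmt_TorsES (M * p) p := torsES_of_red hp (Fermat.Agent.R.H33.allRed (M * p) p)
  -- the Frobenius relation on the piece
  have hFrob : ∀ ℓ : ℕ, ℓ.Prime → ℓ ∉ S →
      ∀ A : ValuationSubring (AlgebraicClosure ℚ), A.LiesOverPrime ℓ →
        ∀ σ : Fermat.Agent.S30.GQ, A.IsFrobeniusAt σ ℓ →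
          Pc.rep σ * Pc.rep σ - (LinearMap.trace 𝒪 ρ.V (ρ.ρ σ)) • Pc.rep σ
            + (LinearMap.det (ρ.ρ σ)) • (1 : Matrix (Fin Pc.d) (Fin Pc.d) 𝒪) = 0 := by
    intro ℓ hℓ hℓS A hA σ hσ
    have hℓN : ¬ ℓ ∣ M * p := fun h => hℓS (hNS ℓ hℓ h)
    have hℓp : ℓ ≠ p := by
      rintro rfl
      exact hℓS hpS
    have hℓS' : ℓ ∉ (↑S : Set ℕ) := by exact_mod_cast hℓS
    have h1 := piece_ES L Pc hES hℓ hℓN hℓp hℓS' (χ (CuspForm.heckeAlgebra.T hℓ hℓN hℓS'))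
      (hPc _) A hA σ hσ
    obtain ⟨htr, hdet⟩ := trace_det_of_charpoly ρ.finrank_eq (ρ.ρ σ) (hρ ℓ hℓ hℓN hℓS' A hA σ hσ)
    rw [htr, hdet]
    exact h1
  have hCH := ch_all Fermat.Agent.Lib.FrobDensity.stmt_FD ρ Pc.rep (L.cont_piece Pc) S hFrob
  obtain ⟨G, R, hRG, hGeq, hGP⟩ := exists_embedding_of_piece ρ habs Pc.pos L.ρL Pc.P Pc.Q Pc.QP
    Pc.rep (fun σ => Pc.rel_rep σ) hCH
  obtain ⟨w, hw, hχw⟩ := exists_oldKiller_of_not_occurs χ hnocc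
  -- the old-killer acts as a scalar on the image of `G`
  have hWG : ∀ v, (Mc 𝒪 C.M (wordSH (M * p) (↑S : Set ℕ) w)).mulVec (G v) =
      χ (wordSH (M * p) (↑S : Set ℕ) w) • G v := by
    intro v
    obtain ⟨u, hu⟩ := hGP v
    rw [hu, Matrix.mulVec_mulVec, hPc, Matrix.smul_mulVec]
  -- the determinant is cyclotomic
  have hdetcyc : ρ.DetIsCyclotomic p :=
    Fermat.Agent.S59.Datum.H41.stmt_DetCyc 𝒪 p hp𝒪 (fun n => exists_pow_le_span_natCast hp n) ρ S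
      (fun ℓ hℓ hℓS B hB σ hσ => by
        have hℓN : ¬ ℓ ∣ M * p := fun h => hℓS (hNS ℓ hℓ h)
        have hℓS' : ℓ ∉ (↑S : Set ℕ) := by exact_mod_cast hℓS
        exact (trace_det_of_charpoly ρ.finrank_eq (ρ.ρ σ) (hρ ℓ hℓ hℓN hℓS' B hB σ hσ)).2)
  intro σ₁ hσ₁ v₁
  by_contra hc
  -- every element of the inertia group acts as a scalar modulo `𝔪`
  have hscal : ∀ τ ∈ P.inertiaSubgroupIn ℚ, ∀ a : ℕ,
      (∀ ζ : AlgebraicClosure ℚ, ζ ^ p = 1 → τ ζ = ζ ^ a) →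
      ∀ v : ρ.V, ρ.ρ τ v - (a : 𝒪) • v ∈ maximalIdeal 𝒪 • (⊤ : Submodule 𝒪 ρ.V) := by
    intro τ hτ a ha v
    obtain ⟨u₀, u₁, hu⟩ := exists_decomp b (ρ.ρ σ₀) (ρ.ρ σ₁) v₀ v₁ hb0 v
    have hx : χ (wordSH (M * p) (↑S : Set ℕ) w) * b.repr (ρ.ρ σ₁ v₁ - v₁) 1 ≠ 0 :=
      mul_ne_zero hχw hc
    have h1 : b.repr (ρ.ρ σ₁ v₁ - v₁) 1 • G v =
        (L.ρL σ₀ - 1).mulVec (G u₀) + (L.ρL σ₁ - 1).mulVec (G u₁) := by
      rw [← map_smul, hu, map_add, map_sub, map_sub, hGeq, hGeq, Matrix.sub_mulVec,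
        Matrix.one_mulVec, Matrix.sub_mulVec, Matrix.one_mulVec]
    have hg : (χ (wordSH (M * p) (↑S : Set ℕ) w) * b.repr (ρ.ρ σ₁ v₁ - v₁) 1) • G v =
        ((L.ρL σ₀ - 1) * Mc 𝒪 C.M (wordSH (M * p) (↑S : Set ℕ) w)).mulVec (G u₀) +
        ((L.ρL σ₁ - 1) * Mc 𝒪 C.M (wordSH (M * p) (↑S : Set ℕ) w)).mulVec (G u₁) := by
      rw [mul_smul, h1, smul_add, ← Matrix.mulVec_mulVec, ← Matrix.mulVec_mulVec, hWG, hWG,
        Matrix.mulVec_smul, Matrix.mulVec_smul]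
    have hmem := fun i => vec_OrdNew L (hT3 M p) hp2 hpM hNS' hP hτ hσ₀ hσ₁ a ha hw hx
      (G v) (G u₀) (G u₁) hg i
    have e : (L.ρL τ - ((a : ℕ) : Matrix (Fin C.r) (Fin C.r) 𝒪)).mulVec (G v) =
        G (ρ.ρ τ v - (a : 𝒪) • v) := by
      rw [map_sub, map_smul, hGeq, Matrix.sub_mulVec, Matrix.natCast_mulVec]
    have e2 : ρ.ρ τ v - (a : 𝒪) • v = R (G (ρ.ρ τ v - (a : 𝒪) • v)) := (hRG _).symm
    rw [e2, ← e]
    exact map_mem_smul_top_of_entries R _ _ hmem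
  -- contradiction
  obtain ⟨a₀, ha₀⟩ := Fermat.Agent.S44.exists_pow_on_roots p hp.pos σ₀
  have h1 := hscal σ₀ hσ₀ a₀ ha₀
  have hdet1 := (trace_det_congr (maximalIdeal 𝒪) (ρ.ρ σ₀)
    ((a₀ : 𝒪) • (1 : Module.End 𝒪 ρ.V)) (fun v => by
      rw [LinearMap.smul_apply, Module.End.one_apply]
      exact h1 v)).2
  have hdet3 : LinearMap.det ((a₀ : 𝒪) • (1 : Module.End 𝒪 ρ.V)) = (a₀ : 𝒪) ^ 2 := by
    rw [LinearMap.det_smul, ρ.finrank_eq, map_one, mul_one]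
  rw [hdet3] at hdet1
  have hdet2 : LinearMap.det (ρ.ρ σ₀) - (a₀ : 𝒪) ∈ maximalIdeal 𝒪 := by
    have h2 := hdetcyc.2 1 σ₀ a₀ (fun μ hμ => ha₀ μ (by rwa [pow_one] at hμ))
    rw [Ideal.mem_span_singleton] at h2
    obtain ⟨t, ht⟩ := h2
    rw [ht, pow_one]
    exact Ideal.mul_mem_right _ _ hp𝒪
  have h4 : (a₀ : 𝒪) * ((a₀ : 𝒪) - 1) ∈ maximalIdeal 𝒪 := by
    have h5 := Ideal.sub_mem _ hdet2 hdet1
    have h6 : LinearMap.det (ρ.ρ σ₀) - (a₀ : 𝒪) - (LinearMap.det (ρ.ρ σ₀) - (a₀ : 𝒪) ^ 2) =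
        (a₀ : 𝒪) * ((a₀ : 𝒪) - 1) := by ring
    rwa [h6] at h5
  rcases (maximalIdeal.isMaximal 𝒪).isPrime.mem_or_mem h4 with h5 | h5
  · -- `a₀ ∈ 𝔪`: then `ρ(σ₀) V ⊆ 𝔪 V`, so `V ⊆ 𝔪 V`
    have h6 : ∀ v : ρ.V, ρ.ρ σ₀ v ∈ maximalIdeal 𝒪 • (⊤ : Submodule 𝒪 ρ.V) := by
      intro v
      have h7 : ρ.ρ σ₀ v = (ρ.ρ σ₀ v - (a₀ : 𝒪) • v) + (a₀ : 𝒪) • v := by abel
      rw [h7]
      exact add_mem (h1 v) (Submodule.smul_mem_smul h5 Submodule.mem_top)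
    have h8 : ∀ v : ρ.V, v ∈ maximalIdeal 𝒪 • (⊤ : Submodule 𝒪 ρ.V) := by
      intro v
      have h9 : v = ρ.ρ σ₀⁻¹ (ρ.ρ σ₀ v) := by
        rw [← Module.End.mul_apply, ← map_mul, inv_mul_cancel, map_one, Module.End.one_apply]
      rw [h9]
      exact map_mem_smul_top (maximalIdeal 𝒪) _ (h6 v)
    exact hv₀ (h8 _)
  · -- `a₀ - 1 ∈ 𝔪`
    apply hv₀
    have h7 : ρ.ρ σ₀ v₀ - v₀ = (ρ.ρ σ₀ v₀ - (a₀ : 𝒪) • v₀) + ((a₀ : 𝒪) - 1) • v₀ := by
      rw [sub_smul, one_smul]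
      abel
    rw [h7]
    exact add_mem (h1 v₀) (Submodule.smul_mem_smul h5 Submodule.mem_top)

/-- **The ordinary line of the `p`-new case**, with the `K1`-test clause: there is a line `L`
(a direct summand of rank one) which is stable under the decomposition group of `P`, contains
`(σ - 1) V` for all `σ` in the inertia group of `P`, and contains `(g - 1) V` for every
`g ∈ G_ℚ` which maps the `p`-new classes of `J₀(M p)[p^k]` into `K1(p^k)` for all `k`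
(`K1Test P M p g`; used for strict ordinarity with `g = σ²`, `σ` in the decomposition group). -/
theorem ordNew_line
    (hT3 : ∀ (M p : ℕ) [NeZero M] [NeZero p], Stmt_TorsOrdNew M p)
    (p M : ℕ) [NeZero (M * p)] [NeZero M] [NeZero p] (S : Finset ℕ)
    (𝒪 : Type) [CommRing 𝒪] [IsDomain 𝒪] [IsDiscreteValuationRing 𝒪]
    [IsAdicComplete (maximalIdeal 𝒪) 𝒪] [Finite (ResidueField 𝒪)] [CharZero 𝒪]
    (hp : p.Prime) (hp2 : p ≠ 2) (hp𝒪 : (p : 𝒪) ∈ maximalIdeal 𝒪) (hpM : ¬ p ∣ M)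
    (hNS : ∀ q : ℕ, q.Prime → q ∣ M * p → q ∈ S)
    (χ : CuspForm.heckeAlgebra (M * p) 2 (↑S : Set ℕ) →+* 𝒪) (ρ : GaloisRepAdic 𝒪)
    (hρ : HasFrobCharpoly χ ρ) (habs : ρ.residual.IsAbsolutelyIrreducible)
    (hnocc : ¬ OccursAtLevel χ M)
    (P : ValuationSubring (AlgebraicClosure ℚ)) (hP : P.LiesOverPrime p) :
    ∃ L : Submodule 𝒪 ρ.V,
      (∃ b : Module.Basis (Fin 2) 𝒪 ρ.V, L = Submodule.span 𝒪 {b 0}) ∧
      (∀ σ ∈ P.decompositionSubgroup ℚ, ∀ v ∈ L, ρ.ρ σ v ∈ L) ∧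
      (∀ σ ∈ P.inertiaSubgroupIn ℚ, ∀ v : ρ.V, ρ.ρ σ v - v ∈ L) ∧
      (∀ g : AlgebraicClosure ℚ ≃ₐ[ℚ] AlgebraicClosure ℚ, K1Test P M p g →
        ∀ v : ρ.V, ρ.ρ g v - v ∈ L) := by
  classical
  have hpS : p ∈ S := hNS p hp (Dvd.intro_left M rfl)
  -- an inertia element which acts non-trivially modulo `𝔪`
  obtain ⟨σ₀, hσ₀, v₀, hv₀⟩ := exists_inertia_notMem Fermat.Agent.Lib.FrobDensity.stmt_FD
    H2.stmt_CycInertia H2.stmt_FrobCyc hp hp2 hpS hNS hp𝒪 χ ρ hρ P hP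
  obtain ⟨b, hb0⟩ := exists_basis_of_notMem
    (Module.finBasisOfFinrankEq 𝒪 ρ.V ρ.finrank_eq) (ρ.ρ σ₀ v₀ - v₀) hv₀
  have hK := ordNew_coord hT3 p M S 𝒪 hp hp2 hp𝒪 hpM hNS χ ρ hρ habs hnocc P hP hσ₀ v₀ hv₀
    b hb0
  have hzero : ∀ σ ∈ P.inertiaSubgroupIn ℚ, ∀ v : ρ.V, b.repr (ρ.ρ σ v - v) 1 = 0 :=
    fun σ hσ v => hK σ (k1Test_of_mem_inertia P M p hσ) v
  -- the ordinary line
  refine ⟨Submodule.span 𝒪 {b 0}, ⟨b, rfl⟩, ?_, ?_, ?_⟩
  · intro τ hτ v hv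
    obtain ⟨c, rfl⟩ := Submodule.mem_span_singleton.1 hv
    rw [map_smul]
    refine Submodule.smul_mem _ c ?_
    rw [mem_span_basis_zero_iff, hb0]
    have h1 : ρ.ρ τ (ρ.ρ σ₀ v₀ - v₀) = ρ.ρ (τ * σ₀ * τ⁻¹) (ρ.ρ τ v₀) - ρ.ρ τ v₀ := by
      rw [map_sub]
      congr 1
      rw [← Module.End.mul_apply, ← Module.End.mul_apply, ← map_mul, ← map_mul]
      congr 2
      group
    rw [h1]
    exact hzero _ (Fermat.Agent.S33.conj_mem_inertiaSubgroupIn P hτ hσ₀) _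
  · intro σ hσ v
    rw [mem_span_basis_zero_iff]
    exact hzero σ hσ v
  · intro g hg v
    rw [mem_span_basis_zero_iff]
    exact hK g hg v

/-- **`Stmt_OrdNew` from the torsion-level statement (T3).** -/
theorem ordNew_of_tors
    (hT3 : ∀ (M p : ℕ) [NeZero M] [NeZero p], Stmt_TorsOrdNew M p) :
    Fermat.Agent.R.Stmt_OrdNew := by
  intro p N M _ _ S 𝒪 _ _ _ _ _ _ hp hp2 hp𝒪 hNM hpM hNS χ ρ hρ habs hnocc
  subst hNM
  haveI : NeZero p := ⟨hp.ne_zero⟩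
  intro P hP
  obtain ⟨L, hL, hD, hI, -⟩ := ordNew_line hT3 p M S 𝒪 hp hp2 hp𝒪 hpM hNS χ ρ hρ habs hnocc P hP
  exact ⟨L, hL, hD, hI⟩

end Fermat.Agent.S33.New.H54

end
end
-- ==== END Fermat.Agent.S33.New.H54_Wire
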