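-- GENERATED (merged mirror, NOTES/tools/trim/merge3_helper67.py): 6 modules of the originals, bodies verbatim.
import Fermat.Agent.Zm.S33_L02_000
import Fermat.Agent.Zm.S33_L05_001
import Fermat.Agent.Zm.S33_L04_000
import Fermat.Agent.Zm.S33_L03_001
import Fermat.Agent.Zm.S33_L05_000
import Fermat.Agent.Zm.S33_L01_001

-- ==== BEGIN Fermat.Agent.BADP.H19_AbsPWire
section

/-!
# S33, `p`-new case: ABSP-WIRE (helper19)

`absP_of` : the abstract form of (T3), `BADP.H86.Stmt_ABSP`, from the leaves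

* MOVE-p (`BADP.H51.stmt_MoveP`), CANON-p (`BADP.H51.stmt_CanonP`), NS-STEP
  (`BADP.H18.nsStep`), TORIC-CHI (`BADP.H97.toricChi`), all landed;
* **(E)** TI-p in the form `Stmt_TIssPW` (the only hypothesis of `absP_of`).

Also: the arithmetic of `π = ζ - 1` over the constants of a datum with `char k = p`
(`zeta_mem`, `rd_zeta`, `isCM_zeta_sub_one`, `rd_pi_pow_div`).
-/

set_option autoImplicit false
set_option linter.style.haveILetI false
set_option maxHeartbeats 1000000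

noncomputable section

open AlgebraicCurve

attribute [local instance] Classical.propDecidable

namespace Fermat.Agent.BADP.H19

open Fermat.Agent.RED.H17 Fermat.Agent.RED Fermat.Agent.BAD

section Zeta

variable {K F k F₁ F₂ : Type} [Field K] [Field F] [Algebra K F] [Field k] [Field F₁]
  [Algebra k F₁] [Field F₂] [Algebra k F₂] (S : SSD K F k F₁ F₂)

/-- A root of unity is integral. -/
theorem zeta_mem {p : ℕ} (hp : p.Prime) {ζ : K} (hζ : ζ ^ p = 1) :
    algebraMap K F ζ ∈ S.c₁.V := by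
  rcases S.c₁.const_mem_or_inv_mem ζ with h | h
  · exact h
  · have e : ζ = ζ⁻¹ ^ (p - 1) := by
      have hζ0 : ζ ≠ 0 := by
        rintro rfl
        rw [zero_pow hp.ne_zero] at hζ
        exact zero_ne_one hζ
      have h1 : ζ ^ (p - 1) * ζ = 1 := by
        rw [← pow_succ, Nat.sub_add_cancel hp.one_le, hζ]
      rw [inv_pow]
      exact eq_inv_of_mul_eq_one_right h1
    rw [e, map_pow]
    exact S.c₁.V.pow_mem h _

/-- A `p`-th root of unity reduces to `1` in characteristic `p`. -/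
theorem rd_zeta {p : ℕ} (hp : p.Prime) [CharP k p] {ζ : K} (hζ : ζ ^ p = 1) :
    S.c₁.rd (algebraMap K F ζ) = 1 := by
  haveI : Fact p.Prime := ⟨hp⟩
  haveI : CharP F₁ p := charP_of_injective_algebraMap (algebraMap k F₁).injective p
  have hm := zeta_mem S hp hζ
  have h1 : S.c₁.rd (algebraMap K F ζ) ^ p = 1 := by
    rw [← S.c₁.rd_pow hm, ← map_pow, hζ, map_one, S.c₁.rd_one]
  have h2 : (S.c₁.rd (algebraMap K F ζ) - 1) ^ p = 0 := by
    rw [sub_pow_char, h1, one_pow, sub_self]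
  exact sub_eq_zero.mp (pow_eq_zero_iff hp.ne_zero |>.mp h2)

/-- `π = ζ - 1` lies in the maximal ideal of the constants. -/
theorem isCM_zeta_sub_one {p : ℕ} (hp : p.Prime) [CharP k p] {ζ : K} (hζ : ζ ^ p = 1) :
    S.IsCM (ζ - 1) := by
  have hm := zeta_mem S hp hζ
  refine ⟨?_, ?_⟩
  · rw [map_sub, map_one]
    exact S.c₁.V.sub_mem hm S.c₁.V.one_mem
  · rw [map_sub, map_one, S.c₁.rd_sub hm S.c₁.V.one_mem, rd_zeta S hp hζ, S.c₁.rd_one,
      sub_self]

/-- `π ^ (p - 1) / p` is integral with reduction `-1`, `π = ζ - 1`. -/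
theorem rd_pi_pow_div {p : ℕ} (hp : p.Prime) [CharP k p] (hpK : (p : K) ≠ 0) {ζ : K}
    (hζ : ζ ^ p = 1) (hζ1 : ζ ≠ 1) :
    algebraMap K F ((ζ - 1) ^ (p - 1) / (p : K)) ∈ S.c₁.V ∧
      S.c₁.rd (algebraMap K F ((ζ - 1) ^ (p - 1) / (p : K))) = -1 := by
  have hCM := isCM_zeta_sub_one S hp hζ
  set x : F := algebraMap K F (ζ - 1) with hx
  have hxV : x ∈ S.c₁.V := hCM.1
  have hx0 : x ≠ 0 :=
    (map_ne_zero_iff _ (algebraMap K F).injective).mpr (sub_ne_zero.mpr hζ1)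
  have hpF : (p : F) ≠ 0 := by
    have : (p : F) = algebraMap K F (p : K) := by simp
    rw [this]
    exact (map_ne_zero_iff _ (algebraMap K F).injective).mpr hpK
  obtain ⟨r, hr, hexp⟩ := S.c₁.one_add_pow_prime_mem hp hxV
  have h1 : (1 + x) ^ p = 1 := by
    rw [hx, ← map_one (algebraMap K F), ← map_add, ← map_pow]
    rw [show (1 : K) + (ζ - 1) = ζ by ring, hζ]
  have hxp : x ^ p = x ^ (p - 1) * x := by
    rw [← pow_succ, Nat.sub_add_cancel hp.one_le]
  have h2 : x * ((p : F) + (p : F) * x * r + x ^ (p - 1)) = 0 := by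
    have := hexp
    rw [h1, hxp] at this
    linear_combination -this
  have h3 : (p : F) + (p : F) * x * r + x ^ (p - 1) = 0 := by
    rcases mul_eq_zero.mp h2 with h | h
    · exact absurd h hx0
    · exact h
  have h4 : algebraMap K F ((ζ - 1) ^ (p - 1) / (p : K)) = -(1 + x * r) := by
    rw [map_div₀, map_pow, map_natCast, ← hx]
    field_simp
    linear_combination h3
  have hxr : x * r ∈ S.c₁.V := S.c₁.V.mul_mem _ _ hxV hr
  have h5 : 1 + x * r ∈ S.c₁.V := S.c₁.V.add_mem _ _ S.c₁.V.one_mem hxr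
  refine ⟨by rw [h4]; exact S.c₁.V.neg_mem _ h5, ?_⟩
  rw [h4, S.c₁.rd_neg h5, S.c₁.rd_add S.c₁.V.one_mem hxr, S.c₁.rd_mul hxV hr, hCM.2, zero_mul,
    add_zero, S.c₁.rd_one]

end Zeta

/-- **(E) TI-p**, in the shape used by the wiring. -/
def Stmt_TIssPW : Prop :=
  ∀ (K F k F₁ F₂ : Type) [Field K] [Field F] [Algebra K F] [Field k] [Field F₁]
    [Algebra k F₁] [Field F₂] [Algebra k F₂] [IsAlgClosed K] [IsAlgClosed k]
    (S : SSD K F k F₁ F₂), FFHyp K F → FFHyp k F₁ → FFHyp k F₂ →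
    ∀ (g g₁ g₂ : ℕ) (c c₁ c₂ : ℤ), IsGenus K F g c → IsGenus k F₁ g₁ c₁ → IsGenus k F₂ g₂ c₂ →
    g + 1 ≤ g₁ + g₂ + S.nodes.card →
    ∀ (p : ℕ), p.Prime → p ≠ 2 → CharP k p → (p : K) ≠ 0 →
    ∀ (π : K), S.IsCM π → π ≠ 0 → S.c₁.rd (algebraMap K F (π ^ (p - 1) / (p : K))) = -1 →
    ∀ (f : F), S.c₁.InM ((f - 1) / algebraMap K F ((p : K) * π)) →
      S.c₂.InM ((f - 1) / algebraMap K F ((p : K) * π)) →
      (∀ P : Place K F, (p : ℤ) ∣ P.ord f) → (∀ P : Place K F, S.IsNodeP P → P.ord f = 0) →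
      ∃ t : F, t ^ p = f

/-- **ABSP-WIRE**: the abstract form of (T3) from TI-p. -/
theorem absP_of (hE : Stmt_TIssPW) : H86.Stmt_ABSP := by
  intro K F k F₁ F₂ _ _ _ _ _ _ _ _ _ _ S H H₁ H₂ g g₁ g₂ c c₁ c₂ hR hR₁ hR₂ hnum p hp hp2
    hchar hpK ζ hζ hζ1 σ hσ a hσζ f hf₁ hrd₁ hdiv hR2 hPW
  haveI : CharP k p := hchar
  haveI : Infinite k := IsAlgClosed.instInfinite
  have hP := H.principal
  obtain ⟨f', h₀, a', hf', hrd', hfeq⟩ := hR2
  -- MOVE-p
  obtain ⟨h, hh0, hF₁, hF₂, hFrd₁, hFrd₂, hFnode⟩ :=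
    H51.stmt_MoveP K F k F₁ F₂ S H H₁ H₂ g g₁ g₂ c c₁ c₂ hR hR₁ hR₂ hnum p hp hchar f hf₁ hrd₁
      hdiv f' h₀ a' hf' hrd' hfeq
  have hf0 : f ≠ 0 := by
    rintro rfl
    rw [S.c₁.rd_zero] at hrd₁
    exact zero_ne_one hrd₁
  have hFdiv : ∀ P : Place K F, (p : ℤ) ∣ P.ord (f * h ^ p) := by
    intro P
    rw [P.ord_mul hf0 (pow_ne_zero _ hh0), ord_pow]
    exact dvd_add (hdiv P) (dvd_mul_right _ _)
  -- the place at infinity
  obtain ⟨Qinf, hQinf⟩ := H₁.exists_notMem S.br₁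
  have hQinfg : Qinf ∈ S.c₁.good := S.good₁_of_notMem hQinf
  obtain ⟨Pinf, hPinf⟩ := S.c₁.r_surjective hP Qinf hQinfg
  -- CANON-p
  obtain ⟨A₁, A₂, s₁, s₂, h', a₁, a₂, X₁, X₂, hd₁, hd₂, hNS, hQinfA, -, hs₁, hs₂, hh'₁, hh'₂,
    hh'rd₁, hh'rd₂, hcan⟩ :=
    H51.stmt_CanonP K F k F₁ F₂ S H H₁ H₂ g g₁ g₂ c c₁ c₂ hR hR₁ hR₂ hnum p hp hchar (f * h ^ p)
      hF₁ hF₂ hFrd₁ hFrd₂ hFdiv hFnode Pinf Qinf hQinfg hPinf
  have hK : S.KeyHyp A₁ A₂ s₁ s₂ := ⟨hd₁, hd₂, hs₁, hs₂⟩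
  have hh'0 : h' ≠ 0 := by
    rintro rfl
    rw [S.c₁.rd_zero] at hh'rd₁
    exact zero_ne_one hh'rd₁
  set w : F := h * h' with hw
  have hw0 : w ≠ 0 := mul_ne_zero hh0 hh'0
  set G : F := f * h ^ p * h' ^ p with hG
  have hGw : G = f * w ^ p := by rw [hG, hw, mul_pow]; ring
  have hG0 : G ≠ 0 := by rw [hGw]; exact mul_ne_zero hf0 (pow_ne_zero _ hw0)
  -- NS-STEP
  set π : K := ζ - 1 with hπ
  obtain ⟨hπV, hπrd⟩ := rd_pi_pow_div S hp hpK hζ hζ1
  have hπCM : S.IsCM π := isCM_zeta_sub_one S hp hζ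
  have hπ0 : π ≠ 0 := sub_ne_zero.mpr hζ1
  have hπGU : S.c₁.IsGU (algebraMap K F (π ^ (p - 1) / (p : K))) :=
    ⟨hπV, by rw [hπrd]; exact neg_ne_zero.mpr one_ne_zero⟩
  have hk : ∀ e : k, ∃ e' : k, e' ^ p = e := fun e =>
    IsAlgClosed.exists_pow_nat_eq e hp.pos
  have hPWG : ∀ (c₀ : K) (φ : F), c₀ ≠ 0 → S.IsCM c₀ → S.IsCM ((p : K) ^ p / c₀ ^ (p - 1)) →
      φ ∈ S.c₁.V → φ ∈ S.c₂.V → G = 1 + algebraMap K F c₀ * φ →
      (∃ ψ : F₁, S.c₁.rd φ = ψ ^ p) ∧ ∃ ψ : F₂, S.c₂.rd φ = ψ ^ p := by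
    intro c₀ φ hc₀ hc₀M hdep hφ₁ hφ₂ hGφ
    refine hPW w φ 1 c₀ hw0 one_ne_zero hc₀ hc₀M hdep ?_ hφ₁ hφ₂
    rw [map_one, one_mul, ← hGw, hGφ]
  obtain ⟨hdep₁, hdep₂⟩ := H18.nsStep S H p hp hk A₁ A₂ hNS s₁ s₂ hK G hcan.mem₁ hcan.mem₂
    hcan.rd₁ hcan.rd₂ Pinf Qinf hQinfg hQinfA hPinf hcan.inf a₁ a₂
    (fun P h1 h2 => le_of_eq (hcan.off P h1 h2).symm) hcan.on₁ hcan.on₂ π hπGU
    (fun c₀ φ h1 h2 h3 h4 h5 h6 => (hPWG c₀ φ h1 h2 h3 h4 h5 h6).1)
    (fun c₀ φ h1 h2 h3 h4 h5 h6 => (hPWG c₀ φ h1 h2 h3 h4 h5 h6).2)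
  -- TORIC-CHI
  have hGdiv : ∀ P : Place K F, (p : ℤ) ∣ P.ord G := by
    intro P
    rw [hGw, P.ord_mul hf0 (pow_ne_zero _ hw0), ord_pow]
    exact dvd_add (hdiv P) (dvd_mul_right _ _)
  have hGnode : ∀ P : Place K F, S.IsNodeP P → P.ord G = 0 := by
    rintro P ⟨t, ht, hPt⟩
    exact hcan.off P (hK.off_of_node ht hPt).1 (hK.off_of_node ht hPt).2
  obtain ⟨hg₁, hg₂⟩ := H97.toricChi S σ hσ hσζ hπCM (mul_ne_zero hpK hπ0) hdep₁ hdep₂
  have hgdiv : ∀ P : Place K F, (p : ℤ) ∣ P.ord ((σ • G) / G ^ a) :=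
    H97.toricChi_dvd σ hG0 a (p : ℤ) hGdiv
  have hgnode : ∀ P : Place K F, S.IsNodeP P → P.ord ((σ • G) / G ^ a) = 0 := by
    rintro P ⟨s, hs, hPs⟩
    exact H97.toricChi_ord S σ hσ hG0 a s (fun P' hP' => hGnode P' ⟨s, hs, hP'⟩) P hPs
  -- TI-p
  obtain ⟨t, ht⟩ := hE K F k F₁ F₂ S H H₁ H₂ g g₁ g₂ c c₁ c₂ hR hR₁ hR₂ hnum p hp hp2 hchar
    hpK π hπCM hπ0 hπrd ((σ • G) / G ^ a) hg₁ hg₂ hgdiv hgnode
  -- conclusion
  have hσw0 : σ • w ≠ 0 := by
    intro h0
    apply hw0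
    have := congrArg (fun y => σ⁻¹ • y) h0
    simpa using this
  have hσG : σ • G = (σ • f) * (σ • w) ^ p := by
    rw [hGw, smul_mul', smul_pow']
  refine ⟨t * w ^ a / (σ • w), ?_⟩
  rw [div_pow, mul_pow, ht, hσG, hGw]
  have hfa : f ^ a ≠ 0 := pow_ne_zero _ hf0
  field_simp
  ring

/-- **(E) TI-p**, in the shape announced by helper28 (`BADP.H28.Stmt_TIp`, same text). -/
def Stmt_TIpX : Prop :=
  ∀ (K F k F₁ F₂ : Type) [Field K] [Field F] [Algebra K F] [Field k] [Field F₁]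
    [Algebra k F₁] [Field F₂] [Algebra k F₂] [IsAlgClosed K] [Infinite k]
    (S : SSD K F k F₁ F₂), FFHyp K F → FFHyp k F₁ → FFHyp k F₂ →
    ∀ (g g₁ g₂ : ℕ) (c c₁ c₂ : ℤ), IsGenus K F g c → IsGenus k F₁ g₁ c₁ → IsGenus k F₂ g₂ c₂ →
    g + 1 ≤ g₁ + g₂ + S.nodes.card →
    ∀ (p : ℕ), p.Prime → CharP k p →
    ∀ (π : K), S.c₁.rd (algebraMap K F (π ^ (p - 1) / (p : K))) = -1 →
    ∀ (f : F), S.c₁.InM ((f - 1) / algebraMap K F ((p : K) * π)) →
      S.c₂.InM ((f - 1) / algebraMap K F ((p : K) * π)) →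
      (∀ P : Place K F, (p : ℤ) ∣ P.ord f) → (∀ P : Place K F, S.IsNodeP P → P.ord f = 0) →
      ∃ h : F, f = h ^ p

/-- Adaptor between the two shapes of TI-p. -/
theorem tIssPW_of_tIpX (h : Stmt_TIpX) : Stmt_TIssPW := by
  intro K F k F₁ F₂ _ _ _ _ _ _ _ _ _ _ S H H₁ H₂ g g₁ g₂ c c₁ c₂ hR hR₁ hR₂ hnum p hp _ hchar _
    π _ _ hπrd f hf₁ hf₂ hdiv hnode
  haveI : Infinite k := IsAlgClosed.instInfinite
  obtain ⟨t, ht⟩ := h K F k F₁ F₂ S H H₁ H₂ g g₁ g₂ c c₁ c₂ hR hR₁ hR₂ hnum p hp hchar π hπrd f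
    hf₁ hf₂ hdiv hnode
  exact ⟨t, ht.symm⟩

/-- **ABSP-WIRE**, from TI-p in helper28's shape. -/
theorem absP_of_tIpX (h : Stmt_TIpX) : H86.Stmt_ABSP := absP_of (tIssPW_of_tIpX h)

end Fermat.Agent.BADP.H19

end
end
-- ==== END Fermat.Agent.BADP.H19_AbsPWire

-- ==== BEGIN Fermat.Agent.BADP.H28_TIpRound
section

/-!
# S33 (T3), leaf (E) "TI-p" (helper28), part 2: one round

`SSD.KeyHyp.round` : `f = g h ^ p` in canonical position, `g ∈ 1 + d m`, `h = 1 + δ φ`,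
`a_Q = δ u_Q` with `φ`, `u_Q` integral, `p δ = d κ`, `δ ^ p = d τ`, `τ` a unit.  Then the
reductions of `φ` are a constant `e`, the reductions of the `u_Q` vanish, and
`rd ((f - 1) / d) = rd κ e + rd τ e ^ p`.
-/

set_option autoImplicit false
set_option linter.style.haveILetI false
set_option maxHeartbeats 1000000

noncomputable section

open AlgebraicCurve

attribute [local instance] Classical.propDecidable

namespace Fermat.Agent.BAD

open Fermat.Agent.RED.H17 Fermat.Agent.RED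

local notation "L" => riemannRochSpace

namespace H28

/-- Additivity of `x ↦ κ x + τ x ^ p` in characteristic `p`. -/
theorem frob_lin_sum {R : Type*} [Field R] (p : ℕ) [Fact p.Prime] [CharP R p] (κ τ x : R)
    {ι : Type*} (A : Finset ι) (y : ι → R) :
    κ * x + τ * x ^ p - ∑ i ∈ A, (κ * (-y i) + τ * (-y i) ^ p) =
      κ * (x + ∑ i ∈ A, y i) + τ * (x + ∑ i ∈ A, y i) ^ p := by
  have hneg : ∀ z : R, (-z) ^ p = -z ^ p := by
    intro z
    have := sub_pow_char (0 : R) z (p := p)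
    rw [zero_sub, zero_pow (Fact.out : p.Prime).ne_zero, zero_sub] at this
    exact this
  haveI : ExpChar R p := ExpChar.prime (Fact.out : p.Prime)
  have e : ∑ i ∈ A, (κ * (-y i) + τ * (-y i) ^ p) =
      -(κ * ∑ i ∈ A, y i) - τ * ∑ i ∈ A, y i ^ p := by
    rw [Finset.mul_sum, Finset.mul_sum, ← Finset.sum_neg_distrib, ← Finset.sum_sub_distrib]
    exact Finset.sum_congr rfl fun i _ => by rw [hneg (y i)]; ring
  rw [add_pow_char, sum_pow_char, e]
  ring

end H28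

namespace SSD

variable {K F k F₁ F₂ : Type*} [Field K] [Field F] [Algebra K F] [Field k] [Field F₁]
  [Algebra k F₁] [Field F₂] [Algebra k F₂] {S : SSD K F k F₁ F₂}

namespace KeyHyp

variable {A₁ : Finset (Place k F₁)} {A₂ : Finset (Place k F₂)}
  {s₁ : Place k F₁ → F} {s₂ : Place k F₂ → F}

/-- **One round.** -/
theorem round (hK : S.KeyHyp A₁ A₂ s₁ s₂) (hP : HasPrincipalDivisors K F)
    (hNS : S.IsNS A₁ A₂) {p : ℕ} (hp : p.Prime) (hchar : CharP k p)
    {δ d κ τ : K} (hδ : S.IsCM δ) (hδ0 : δ ≠ 0) (hd : S.IsCM d) (hd0 : d ≠ 0)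
    (hκ : algebraMap K F κ ∈ S.c₁.V) (hτ : S.IsCU τ)
    (h1 : (p : K) * δ = d * κ) (h2 : δ ^ p = d * τ)
    (a₁ : Place k F₁ → K) (a₂ : Place k F₂ → K)
    (hu : ∀ i ∈ keyA A₁ A₂, algebraMap K F (Sum.elim a₁ a₂ i / δ) ∈ S.c₁.V)
    {g h f : F} (hfgh : f = g * h ^ p)
    (hg₁ : S.c₁.InM ((g - 1) / algebraMap K F d))
    (hg₂ : S.c₂.InM ((g - 1) / algebraMap K F d))
    (hφ₁ : (h - 1) / algebraMap K F δ ∈ S.c₁.V) (hφ₂ : (h - 1) / algebraMap K F δ ∈ S.c₂.V)
    (hhnode : ∀ t ∈ S.nodes, ∀ P, S.c₁.r P = some t.1 → 0 ≤ P.ord h)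
    (hord0 : ∀ P, (∀ Q ∈ A₁, S.c₁.r P ≠ some Q) → (∀ Q ∈ A₂, S.c₂.r P ≠ some Q) →
      0 ≤ P.ord f)
    (hf₂ord₁ : ∀ Q ∈ A₁, ∀ P, S.c₁.r P = some Q → 0 ≤ P.ord (f / (∏ i ∈ keyA A₁ A₂,
        (Sum.elim s₁ s₂ i - algebraMap K F (Sum.elim a₁ a₂ i)) / Sum.elim s₁ s₂ i) ^ p))
    (hf₂ord₂ : ∀ Q ∈ A₂, ∀ P, S.c₂.r P = some Q → 0 ≤ P.ord (f / (∏ i ∈ keyA A₁ A₂,
        (Sum.elim s₁ s₂ i - algebraMap K F (Sum.elim a₁ a₂ i)) / Sum.elim s₁ s₂ i) ^ p)) :
    ∃ e : k, S.c₁.rd ((h - 1) / algebraMap K F δ) = algebraMap k F₁ e ∧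
      S.c₂.rd ((h - 1) / algebraMap K F δ) = algebraMap k F₂ e ∧
      (∀ i ∈ keyA A₁ A₂, S.c₁.rd (algebraMap K F (Sum.elim a₁ a₂ i / δ)) = 0) ∧
      (f - 1) / algebraMap K F d ∈ S.c₁.V ∧
      S.c₁.rd ((f - 1) / algebraMap K F d) =
        S.c₁.rd (algebraMap K F κ) * algebraMap k F₁ e +
          S.c₁.rd (algebraMap K F τ) * algebraMap k F₁ e ^ p := by
  haveI : Fact p.Prime := ⟨hp⟩
  haveI : CharP k p := hchar
  haveI : CharP F₁ p := charP_of_injective_algebraMap (algebraMap k F₁).injective p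
  haveI : CharP F₂ p := charP_of_injective_algebraMap (algebraMap k F₂).injective p
  set A : Finset (Place k F₁ ⊕ Place k F₂) := keyA A₁ A₂ with hAdef
  set s : Place k F₁ ⊕ Place k F₂ → F := Sum.elim s₁ s₂ with hsdef
  set a : Place k F₁ ⊕ Place k F₂ → K := Sum.elim a₁ a₂ with hadef
  set Hp : F := ∏ i ∈ A, (s i - algebraMap K F (a i)) / s i with hHp
  set φ : F := (h - 1) / algebraMap K F δ with hφdef
  set u : Place k F₁ ⊕ Place k F₂ → F := fun i => algebraMap K F (a i / δ) with hudef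
  have hδF : algebraMap K F δ ≠ 0 := (map_ne_zero_iff _ (algebraMap K F).injective).mpr hδ0
  have hdF : algebraMap K F d ≠ 0 := (map_ne_zero_iff _ (algebraMap K F).injective).mpr hd0
  have hh : 1 + algebraMap K F δ * φ = h := by
    rw [hφdef]
    field_simp
    ring
  have hau : ∀ i, algebraMap K F δ * u i = algebraMap K F (a i) := by
    intro i
    rw [hudef]
    simp only
    rw [← map_mul, mul_div_cancel₀ _ hδ0]
  have hHp' : ∏ i ∈ A, (s i - algebraMap K F δ * u i) / s i = Hp := by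
    rw [hHp]
    exact Finset.prod_congr rfl fun i _ => by rw [hau i]
  have h1F : (p : F) * algebraMap K F δ = algebraMap K F d * algebraMap K F κ := by
    rw [← map_mul, ← h1, map_mul, map_natCast]
  have h2F : algebraMap K F δ ^ p = algebraMap K F d * algebraMap K F τ := by
    rw [← map_pow, h2, map_mul]
  have hu₂ : ∀ i ∈ A, u i ∈ S.c₂.V := fun i hi => (S.const_mem _).mp (hu i hi)
  -- the formulas
  obtain ⟨⟨hΦV₁, hΦrd₁⟩, hΨV₁, hΨrd₁⟩ := S.c₁.round_formula hp ⟨hδ.mem₁, hδ.rd₁⟩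
    ⟨hd.mem₁, hd.rd₁⟩ hdF hκ hτ.isGU₁.1 h1F h2F A s u (fun i hi => hK.isGU₁ hi) hu hg₁ hφ₁
  obtain ⟨⟨hΦV₂, hΦrd₂⟩, hΨV₂, hΨrd₂⟩ := S.c₂.round_formula hp ⟨hδ.mem₂, hδ.rd₂⟩
    ⟨hd.mem₂, hd.rd₂⟩ hdF ((S.const_mem _).mp hκ) hτ.isGU₂.1 h1F h2F A s u
    (fun i hi => hK.isGU₂ hi) hu₂ hg₂ hφ₂
  rw [hh, ← hfgh] at hΦV₁ hΦrd₁ hΦV₂ hΦrd₂
  rw [hh, ← hfgh, hHp'] at hΨV₁ hΨrd₁ hΨV₂ hΨrd₂
  -- the constants
  obtain ⟨kb, hkb₁⟩ := S.c₁.rd_const_eq κ hκ
  have hkb₂ := (S.rd₂_const hκ hkb₁).2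
  obtain ⟨tb, htb₁⟩ := S.c₁.rd_const_eq τ hτ.isGU₁.1
  have htb₂ := (S.rd₂_const hτ.isGU₁.1 htb₁).2
  have htb0 : tb ≠ 0 := by
    rintro rfl
    exact hτ.isGU₁.2 (by rw [htb₁, map_zero])
  have hbex : ∀ i, ∃ b : k, i ∈ A → S.c₁.rd (u i) = algebraMap k F₁ b := by
    intro i
    by_cases hi : i ∈ A
    · obtain ⟨b, hb⟩ := S.c₁.rd_const_eq (a i / δ) (hu i hi)
      exact ⟨b, fun _ => hb⟩
    · exact ⟨0, fun h => absurd h hi⟩
  choose b hb₁ using hbex
  have hb₂ : ∀ i ∈ A, S.c₂.rd (u i) = algebraMap k F₂ (b i) :=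
    fun i hi => (S.rd₂_const (hu i hi) (hb₁ i hi)).2
  -- the functions `ψ`
  set ψ₁ : F₁ := S.c₁.rd φ + ∑ i ∈ A, algebraMap k F₁ (b i) / S.c₁.rd (s i) with hψ₁
  set ψ₂ : F₂ := S.c₂.rd φ + ∑ i ∈ A, algebraMap k F₂ (b i) / S.c₂.rd (s i) with hψ₂
  have hΨ₁ : S.c₁.rd ((f / Hp ^ p - 1) / algebraMap K F d) =
      algebraMap k F₁ kb * ψ₁ + algebraMap k F₁ tb * ψ₁ ^ p := by
    rw [hΨrd₁, hkb₁, htb₁, hψ₁, ← H28.frob_lin_sum]
    congr 1
    exact Finset.sum_congr rfl fun i hi => by rw [hb₁ i hi]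
  have hΨ₂ : S.c₂.rd ((f / Hp ^ p - 1) / algebraMap K F d) =
      algebraMap k F₂ kb * ψ₂ + algebraMap k F₂ tb * ψ₂ ^ p := by
    rw [hΨrd₂, hkb₂, htb₂, hψ₂, ← H28.frob_lin_sum]
    congr 1
    exact Finset.sum_congr rfl fun i hi => by rw [hb₂ i hi]
  have hp2 : 2 ≤ p := hp.two_le
  have hdiv : ∀ (P : Place K F) (w : F), RegAt P w → 0 ≤ P.ord ((w - 1) / algebraMap K F d) := by
    intro P w hw
    rw [div_eq_mul_inv, ← map_inv₀]
    exact ((hw.sub (regAt_one P)).mul (regAt_algebraMap P d⁻¹)).ord_nonneg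
  have hψreg₁ : ∀ Q ∈ A₁, RegAt Q ψ₁ := by
    intro Q hQ
    refine H28.regAt_of_frob_lin Q hp2 kb tb htb0 ?_
    rw [← hΨ₁]
    apply S.c₁.regAt_rd hP hΨV₁ (hK.good₁ hQ)
    intro P hPQ
    exact hdiv P _ (regAt_of_ord_nonneg (hf₂ord₁ Q hQ P hPQ))
  have hψreg₂ : ∀ Q ∈ A₂, RegAt Q ψ₂ := by
    intro Q hQ
    refine H28.regAt_of_frob_lin Q hp2 kb tb htb0 ?_
    rw [← hΨ₂]
    apply S.c₂.regAt_rd hP hΨV₂ (hK.good₂ hQ)
    intro P hPQ
    exact hdiv P _ (regAt_of_ord_nonneg (hf₂ord₂ Q hQ P hPQ))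
  have hφgood₁ : ∀ v ∈ S.c₁.good, v ∉ A₁ → RegAt v (S.c₁.rd φ) := by
    intro v hvg hv
    refine H28.regAt_of_frob_lin v hp2 kb tb htb0 ?_
    rw [← hkb₁, ← htb₁, ← hΦrd₁]
    apply S.c₁.regAt_rd hP hΦV₁ hvg
    intro P hPv
    exact hdiv P _ (regAt_of_ord_nonneg
      (hord0 P (hK.off_of_good₁ hvg hv hPv).1 (hK.off_of_good₁ hvg hv hPv).2))
  have hφgood₂ : ∀ v ∈ S.c₂.good, v ∉ A₂ → RegAt v (S.c₂.rd φ) := by
    intro v hvg hv
    refine H28.regAt_of_frob_lin v hp2 kb tb htb0 ?_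
    rw [← hkb₂, ← htb₂, ← hΦrd₂]
    apply S.c₂.regAt_rd hP hΦV₂ hvg
    intro P hPv
    exact hdiv P _ (regAt_of_ord_nonneg
      (hord0 P (hK.off_of_good₂ hvg hv hPv).1 (hK.off_of_good₂ hvg hv hPv).2))
  have hφnode : ∀ t ∈ S.nodes, ∀ P, S.c₁.r P = some t.1 → 0 ≤ P.ord φ := by
    intro t ht P hPt
    rw [hφdef, div_eq_mul_inv, ← map_inv₀]
    exact (((regAt_of_ord_nonneg (hhnode t ht P hPt)).sub (regAt_one P)).mul
      (regAt_algebraMap P δ⁻¹)).ord_nonneg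
  obtain ⟨e, he₁, he₂, hb0, -, -⟩ := hK.residue_core_gen hNS hφ₁ hφ₂ hφnode hφgood₁ hφgood₂
    b 1 (by rw [Nat.cast_one]; exact one_ne_zero) hψreg₁ hψreg₂
    (by rw [hψ₁, Nat.cast_one, one_mul, add_sub_cancel_right])
    (by rw [hψ₂, Nat.cast_one, one_mul, add_sub_cancel_right])
  refine ⟨e, he₁, he₂, fun i hi => ?_, hΦV₁, ?_⟩
  · have := hb₁ i hi
    rw [hb0 i hi, map_zero] at this
    exact this
  · rw [hΦrd₁, he₁]

end KeyHyp

end SSD

end Fermat.Agent.BAD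

end
end
-- ==== END Fermat.Agent.BADP.H28_TIpRound

-- ==== BEGIN Fermat.Agent.FL.H21_EchTransport
section

/-!
# G-FL (helper21): transport of echelon bases under the Galois action

`S : RedSetup K F k F'`, `G : GalRed S Γ`, `σ ∈ Γ`, `τ = baseAut (G.act σ)` the action on the
constants.

* `H21_smul_mem_L_iff`     : `g • f ∈ L(g • D) ↔ f ∈ L(D)` for a semilinear automorphism `g`;
* `H21_mem_coordSpace_smul_iff` : coordinates of `L(g • D)` in a `g`-fixed family;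
* `H21_mem_colSpace_map_iff`    : the column space of a matrix twisted by a ring automorphism;
* `H21_constVal_baseAut`   : `τ` preserves the valuation ring of the constants;
* `H21_rc_baseAut`         : `rc (τ c) = τ' (rc c)` for integral `c` (`τ'` = action on `k`);
* `H21_mapDomain_r_smul`   : `r_* (σ • D) = σ' • r_* D`;
* `H21_isEch_smul`         : **transport of `IsEch`**: if `e` is integral and `σ`-fixed, then
  `IsEch S e D J M → IsEch S e (σ • D) J (τ M)`.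
-/

set_option autoImplicit false
set_option linter.unusedSectionVars false

noncomputable section

open AlgebraicCurve Matrix

namespace Fermat.Agent.FL.H21

open Fermat.Agent.RED Fermat.Agent.RED.H17 Fermat.Agent.FL

section Semilinear

variable {K F : Type} [Field K] [Field F] [Algebra K F]

/-- `g • f ∈ L(g • D) ↔ f ∈ L(D)`. -/
theorem H21_smul_mem_L_iff (g : SemilinearAut K F) (D : Divisor K F) (f : F) :
    g • f ∈ riemannRochSpace (g • D) ↔ f ∈ riemannRochSpace D := by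
  rw [mem_riemannRochSpace_iff, mem_riemannRochSpace_iff]
  constructor
  · intro h v
    rcases h (g • v) with h0 | h1
    · left
      exact (smul_eq_zero_iff_eq g).mp h0
    · right
      rwa [SemilinearAut.divisor_smul_apply_smul, SemilinearAut.ord_smul] at h1
  · intro h w
    rcases h (g⁻¹ • w) with h0 | h1
    · left
      rw [h0, smul_zero]
    · right
      have e1 : (g • D) w = D (g⁻¹ • w) := SemilinearAut.divisor_smul_apply g D w
      have e2 : w.ord (g • f) = (g⁻¹ • w).ord f := by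
        have := SemilinearAut.ord_smul g (g⁻¹ • w) f
        rwa [smul_inv_smul] at this
      rw [e1, e2]
      exact h1

/-- Semilinearity. -/
theorem H21_smul_smul_eq (g : SemilinearAut K F) (a : K) (x : F) :
    g • (a • x) = (SemilinearAut.baseAut g a) • (g • x) := by
  rw [Algebra.smul_def, Algebra.smul_def, smul_mul', SemilinearAut.smul_algebraMap]

theorem H21_smul_sum_smul (g : SemilinearAut K F) {ι : Type} [Fintype ι] (u : ι → K)
    (e : ι → F) :
    g • (∑ i, u i • e i) = ∑ i, (SemilinearAut.baseAut g (u i)) • (g • e i) := by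
  rw [Finset.smul_sum]
  exact Finset.sum_congr rfl fun i _ => H21_smul_smul_eq g (u i) (e i)

/-- The coordinates of `L(g • D)` with respect to a `g`-fixed family. -/
theorem H21_mem_coordSpace_smul_iff (g : SemilinearAut K F) {ι : Type} [Fintype ι] (e : ι → F)
    (he : ∀ i, g • e i = e i) (D : Divisor K F) (u : ι → K) :
    u ∈ coordSpace e (riemannRochSpace (g • D)) ↔
      (fun i => (SemilinearAut.baseAut g).symm (u i)) ∈ coordSpace e (riemannRochSpace D) := by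
  have key : ∑ i, u i • e i = g • ∑ i, (SemilinearAut.baseAut g).symm (u i) • e i := by
    rw [H21_smul_sum_smul]
    refine Finset.sum_congr rfl fun i _ => ?_
    rw [RingEquiv.apply_symm_apply, he i]
  show ∑ i, u i • e i ∈ riemannRochSpace (g • D) ↔
    ∑ i, (SemilinearAut.baseAut g).symm (u i) • e i ∈ riemannRochSpace D
  rw [key, H21_smul_mem_L_iff]

/-- `r_*`-type transport: `mapDomain r (g • D) = g' • mapDomain r D` if `r (g • P) = g' • r P`. -/
theorem H21_mapDomain_smul {k F' : Type} [Field k] [Field F'] [Algebra k F']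
    (r : Place K F → Place k F') (g : SemilinearAut K F) (g' : SemilinearAut k F')
    (h : ∀ P, r (g • P) = g' • r P) (D : Divisor K F) :
    Finsupp.mapDomain r (g • D) = g' • Finsupp.mapDomain r D := by
  rw [SemilinearAut.divisor_smul_def, SemilinearAut.divisor_smul_def, ← Finsupp.mapDomain_comp,
    ← Finsupp.mapDomain_comp]
  congr 1
  funext P
  exact h P

end Semilinear

section Col

variable {L : Type} [Field L]

/-- The column space of a matrix twisted by a ring automorphism. -/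
theorem H21_mem_colSpace_map_iff {ι κ : Type} [Fintype κ] (τ : L ≃+* L) (N : Matrix ι κ L)
    (u : ι → L) :
    u ∈ colSpace (N.map τ) ↔ (fun i => τ.symm (u i)) ∈ colSpace N := by
  unfold colSpace
  rw [LinearMap.mem_range, LinearMap.mem_range]
  constructor
  · rintro ⟨w, rfl⟩
    refine ⟨fun j => τ.symm (w j), ?_⟩
    funext i
    simp only [Matrix.mulVecLin_apply, Matrix.mulVec, dotProduct, Matrix.map_apply, map_sum,
      map_mul, RingEquiv.symm_apply_apply]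
  · rintro ⟨w, hw⟩
    refine ⟨fun j => τ (w j), ?_⟩
    funext i
    have h1 := congrFun hw i
    simp only [Matrix.mulVecLin_apply, Matrix.mulVec, dotProduct] at h1 ⊢
    have h2 := congrArg τ h1
    rw [RingEquiv.apply_symm_apply, map_sum] at h2
    rw [← h2]
    refine Finset.sum_congr rfl fun j _ => ?_
    rw [Matrix.map_apply, map_mul]

end Col

section Gal

variable {K F k F' : Type} [Field K] [Field F] [Algebra K F] [Field k] [Field F']
  [Algebra k F'] {S : RedSetup K F k F'} {Γ : Type} [Group Γ] (G : GalRed S Γ)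

/-- The Galois action preserves the valuation ring of the constants. -/
theorem H21_constVal_baseAut (σ : Γ) {c : K} (hc : c ∈ constVal S) :
    SemilinearAut.baseAut (G.act σ) c ∈ constVal S := by
  have h := G.mem_V σ (algebraMap K F c) hc
  rwa [SemilinearAut.smul_algebraMap] at h

/-- The reduction of constants is Galois equivariant. -/
theorem H21_rc_baseAut (σ : Γ) {c : K} (hc : c ∈ constVal S) :
    rc S (SemilinearAut.baseAut (G.act σ) c) = SemilinearAut.baseAut (G.act' σ) (rc S c) := by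
  have hc' : algebraMap K F (SemilinearAut.baseAut (G.act σ) c) ∈ S.V :=
    H21_constVal_baseAut G σ hc
  have h1 := G.rd_smul σ (algebraMap K F c) hc
  rw [SemilinearAut.smul_algebraMap, S.rd_of_mem hc', rc_spec S hc', S.rd_of_mem hc,
    rc_spec S hc, SemilinearAut.smul_algebraMap] at h1
  exact (algebraMap k F').injective h1

/-- `r_* (σ • D) = σ' • r_* D`. -/
theorem H21_mapDomain_r_smul (σ : Γ) (D : Divisor K F) :
    Finsupp.mapDomain S.r (G.act σ • D) = G.act' σ • Finsupp.mapDomain S.r D :=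
  H21_mapDomain_smul S.r (G.act σ) (G.act' σ) (G.r_smul σ) D

/-- The reductions of a `σ`-fixed integral family are `σ'`-fixed. -/
theorem H21_rd_fixed (σ : Γ) {ι : Type} (e : ι → F) (heV : ∀ i, e i ∈ S.V)
    (he : ∀ i, G.act σ • e i = e i) (i : ι) : G.act' σ • S.rd (e i) = S.rd (e i) := by
  rw [← G.rd_smul σ (e i) (heV i), he i]

/-- **Transport of `IsEch`** under the Galois action. -/
theorem H21_isEch_smul (σ : Γ) {ι : Type} [Fintype ι] {d : ℕ} (e : ι → F)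
    (heV : ∀ i, e i ∈ S.V) (he : ∀ i, G.act σ • e i = e i) (D : Divisor K F)
    (J : Fin d → ι) (M : Matrix ι (Fin d) K) (h : IsEch S e D J M) :
    IsEch S e (G.act σ • D) J (M.map (SemilinearAut.baseAut (G.act σ))) := by
  obtain ⟨h1, h2, h3, h4⟩ := h
  refine ⟨?_, ?_, ?_, ?_⟩
  · intro a b
    rw [Matrix.map_apply, h1 a b]
    split_ifs
    · exact map_one _
    · exact map_zero _
  · ext u
    rw [H21_mem_colSpace_map_iff, h2, H21_mem_coordSpace_smul_iff (G.act σ) e he D u]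
  · intro i b
    rw [Matrix.map_apply]
    exact H21_constVal_baseAut G σ (h3 i b)
  · have hM : (M.map (SemilinearAut.baseAut (G.act σ))).map (rc S)
        = (M.map (rc S)).map (SemilinearAut.baseAut (G.act' σ)) := by
      ext i b
      simp only [Matrix.map_apply]
      exact H21_rc_baseAut G σ (h3 i b)
    ext u
    rw [hM, H21_mem_colSpace_map_iff, h4, H21_mapDomain_r_smul,
      H21_mem_coordSpace_smul_iff (G.act' σ) (fun i => S.rd (e i))
        (H21_rd_fixed G σ e heV he) _ u]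

end Gal

end Fermat.Agent.FL.H21

end
end
-- ==== END Fermat.Agent.FL.H21_EchTransport

-- ==== BEGIN Fermat.Agent.FL.H33_Tame
section
attribute [local instance 10000] SubalgebraClass.toAlgebra
attribute [local instance 10000] HahnSeries.powerSeriesAlgebra

/-!
# G-FL (S19), package ASM-C1 (helper33): the main theorem at the tame levels, in concrete terms

* `Stmt_TameFrames` : **(FR)** for the Galois context `tameCtx` of `F_M · ℚ̄` (package MOD-FRAME).
* `HasIntCoordsAt A M 𝒮` : the conclusion of the abstract main theorem for a set `𝒮 ⊆ J₀(M)`,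
  in concrete terms: finitely many functions `h j : 𝒮 → ℚ̄` with values in `A`, equivariant for
  the inertia group of `A`, separating the points, such that the twist of `h j` by an element
  of the decomposition group lies in `genRing A h` and `(x, y) ↦ h j (x + y)` in `pairRing A h`.
* `hasUnrConst_tame` : **(UNR)** for `tameCtx` (from helper38's Teichmüller lifts).
* `hasIntCoordsAt_of` : translation `HasIntCoords (tameSetup ..) (tameCtx ..) 𝒮 → HasIntCoordsAt`.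
* `stmt_FLTame` : `Stmt_FLAbs → Stmt_TameFrames →` for every tame `(M, ℓ, A)` and every finite
  set `𝒮 ⊆ J₀(M)` stable under the decomposition group of `A`: `HasIntCoordsAt A M 𝒮`.
* `stmt_FLTameC_of` : `Stmt_FLAbs → Stmt_TameFrames → Stmt_FLTameC` (`FL/Defs6.lean`).

This file contains no `sorry`.
-/

set_option autoImplicit false
set_option linter.style.haveILetI false
set_option linter.unusedSectionVars false
set_option linter.unusedVariables false
set_option synthInstance.maxHeartbeats 400000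
set_option maxHeartbeats 1000000

noncomputable section

open AlgebraicCurve ModularCurve Fermat.Agent.S28 Fermat.Agent.S28.H73 Fermat.Agent.RED.H73
  Fermat.Agent.RED Fermat.Agent.RED.H17 Fermat.Agent.RED.H33
  Fermat.Agent.Lib.HopfOrder Fermat.Agent.Lib.HopfOrderLoc

namespace Fermat.Agent.FL.H33

/-- **(FR) at the tame levels** (package MOD-FRAME): rational integral frames of `L(b ∞)`. -/
def Stmt_TameFrames : Prop :=
  ∀ (M ℓ : ℕ) [NeZero M] (hℓ : ℓ.Prime) (hM : ¬ ℓ ∣ M)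
    (htame : 5 ≤ ℓ ∨ (ℓ = 3 ∧ 2 ∣ M) ∨ (ℓ = 2 ∧ 3 ∣ M))
    (A : ValuationSubring (AlgebraicClosure ℚ)) (hA : A.LiesOverPrime ℓ),
    HasRatFrames (tameSetup M ℓ hℓ hM htame A hA) (tameCtx M ℓ hℓ hM htame A hA)

/-- **Integral coordinates on a set of points of `J₀(M)`** at the place `A`:
finitely many functions `h j : 𝒮 → ℚ̄` such that
* the values lie in `A`;
* `h j (σ x) = σ (h j x)` for `σ` in the inertia group of `A`;
* for `σ` in the decomposition group of `A` the function `σ x ↦ σ (h j x)` is the restriction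
  of an element of `genRing A h`;
* the `h j` separate the points of `𝒮`;
* `(x, y) ↦ h j (x + y)` (where `x + y ∈ 𝒮`) is the restriction of an element of
  `pairRing A h`. -/
def HasIntCoordsAt (A : ValuationSubring (AlgebraicClosure ℚ)) (M : ℕ) (𝒮 : Set (JZero M)) :
    Prop :=
  ∃ (ι : Type) (_ : Finite ι) (h : ι → 𝒮 → AlgebraicClosure ℚ),
    (∀ j x, h j x ∈ A) ∧
    (∀ j, ∀ σ ∈ A.inertiaSubgroupIn ℚ, ∀ (x : 𝒮) (hx : σ • (x : JZero M) ∈ 𝒮),
      h j ⟨_, hx⟩ = σ (h j x)) ∧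
    (∀ j, ∀ σ ∈ A.decompositionSubgroup ℚ, ∃ φ ∈ genRing A.toSubring h,
      ∀ (x : 𝒮) (hx : σ • (x : JZero M) ∈ 𝒮), φ ⟨_, hx⟩ = σ (h j x)) ∧
    (∀ x y : 𝒮, x ≠ y → ∃ j, h j x ≠ h j y) ∧
    (∀ j, ∃ φ ∈ pairRing A.toSubring h,
      ∀ (x y : 𝒮) (hxy : (x : JZero M) + (y : JZero M) ∈ 𝒮), φ (x, y) = h j ⟨_, hxy⟩)

section Tame

variable (M ℓ : ℕ) [NeZero M] (hℓ : ℓ.Prime) (hM : ¬ ℓ ∣ M)
  (htame : 5 ≤ ℓ ∨ (ℓ = 3 ∧ 2 ∣ M) ∨ (ℓ = 2 ∧ 3 ∣ M))
  (A : ValuationSubring (AlgebraicClosure ℚ)) (hA : A.LiesOverPrime ℓ)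

/-- **(UNR)** for the Galois context of `F_M · ℚ̄`. -/
theorem hasUnrConst_tame :
    HasUnrConst (tameSetup M ℓ hℓ hM htame A hA) (tameCtx M ℓ hℓ hM htame A hA) :=
  hasUnrConst_tameCtx M ℓ hℓ hM htame A hA
    (fun c' => Fermat.Agent.FL.H38.exists_inertia_fixed_lift A hℓ hA c')

/-- Translation of the abstract conclusion into concrete terms. -/
theorem hasIntCoordsAt_of (𝒮 : Set (JZero M))
    (H : HasIntCoords (tameSetup M ℓ hℓ hM htame A hA) (tameCtx M ℓ hℓ hM htame A hA) 𝒮) :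
    HasIntCoordsAt A M 𝒮 := by
  obtain ⟨ι, hι, h, h1, h2, h3, h4, h5⟩ := H
  have hcv : constVal (tameSetup M ℓ hℓ hM htame A hA) = A :=
    constVal_tameSetup M ℓ hℓ hM htame A hA
  refine ⟨ι, hι, h, ?_, ?_, ?_, h4, ?_⟩
  · intro j x
    have := h1 j x
    rwa [hcv] at this
  · intro j σ hσ x hx
    have hdec : σ ∈ A.decompositionSubgroup ℚ := by
      obtain ⟨g, -, rfl⟩ := hσ
      exact g.2
    have hI : (⟨σ, hdec⟩ : ↥(A.decompositionSubgroup ℚ)) ∈
        (tameCtx M ℓ hℓ hM htame A hA).I :=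
      (mem_tameCtx_I_iff M ℓ hℓ hM htame A hA ⟨σ, hdec⟩).mpr hσ
    exact h2 j ⟨σ, hdec⟩ hI x hx
  · intro j σ hσ
    obtain ⟨φ, hφ, hφx⟩ := h3 j ⟨σ, hσ⟩
    refine ⟨φ, ?_, fun x hx => hφx x hx⟩
    rwa [hcv] at hφ
  · intro j
    obtain ⟨φ, hφ, hφx⟩ := h5 j
    refine ⟨φ, ?_, hφx⟩
    rwa [hcv] at hφ

/-- **ASM-C1**: the main theorem of G-FL at the tame levels, in concrete terms. -/
theorem stmt_FLTame (hAbs : Stmt_FLAbs) (hFr : Stmt_TameFrames)
    (M ℓ : ℕ) [NeZero M] (hℓ : ℓ.Prime) (hM : ¬ ℓ ∣ M)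
    (htame : 5 ≤ ℓ ∨ (ℓ = 3 ∧ 2 ∣ M) ∨ (ℓ = 2 ∧ 3 ∣ M))
    (A : ValuationSubring (AlgebraicClosure ℚ)) (hA : A.LiesOverPrime ℓ)
    (𝒮 : Set (JZero M)) (hfin : 𝒮.Finite)
    (hst : ∀ σ ∈ A.decompositionSubgroup ℚ, ∀ x ∈ 𝒮, σ • x ∈ 𝒮) :
    HasIntCoordsAt A M 𝒮 := by
  haveI : IsAlgClosed (kV A) := isAlgClosed_kV A
  refine hasIntCoordsAt_of M ℓ hℓ hM htame A hA 𝒮 ?_
  exact hAbs (AlgebraicClosure ℚ) ↥(modularFunctionFieldBar M) (kV A)
    ↥(redField A (modularFunctionFieldBar M) (hasScale_laurentBaseChange A M))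
    (tameSetup M ℓ hℓ hM htame A hA) (isFF_bar M) (isFF_tame M ℓ hℓ hM A hA)
    (tameSetup_genusLE' M ℓ hℓ hM htame A hA)
    ↥(A.decompositionSubgroup ℚ) (tameCtx M ℓ hℓ hM htame A hA)
    (hasUnrConst_tame M ℓ hℓ hM htame A hA) (hFr M ℓ hℓ hM htame A hA)
    𝒮 hfin (fun σ x hx => hst σ.1 σ.2 x hx)

end Tame

/-- **ASM-C1** in the form of `FL/Defs6.lean`:
`Stmt_FLAbs → (HasRatFrames at the tame levels) → Stmt_FLTameC`. -/
theorem stmt_FLTameC_of (hAbs : Stmt_FLAbs) (hFr : Stmt_TameFrames) : Stmt_FLTameC := by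
  intro M ℓ _ hℓ hM htame A hA 𝒮 hfin hst
  exact stmt_FLTame hAbs hFr M ℓ hℓ hM htame A hA 𝒮 hfin hst

end Fermat.Agent.FL.H33

end
end
-- ==== END Fermat.Agent.FL.H33_Tame

-- ==== BEGIN Fermat.Agent.FL.H36_Asm
section

/-!
# G-FL: the abstract main theorem from its packages (helper36)

`stmt_FLAbs_of : Stmt_Setup → Stmt_Basic → Stmt_Comul → Stmt_DStab → Stmt_FLAbs`.
The coordinate system is taken for `𝒯 = 𝒮 ∪ (𝒮 + 𝒮)`.
-/

set_option autoImplicit false

noncomputable section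

open AlgebraicCurve

namespace Fermat.Agent.FL.H36

open Fermat.Agent.FL Fermat.Agent.RED Fermat.Agent.RED.H17 Fermat.Agent.Lib.HopfOrder
  Fermat.Agent.Lib.HopfOrderLoc

/-- The set `𝒮 ∪ (𝒮 + 𝒮)`. -/
def sumSet {M : Type} [Add M] (𝒮 : Set M) : Set M :=
  𝒮 ∪ Set.image2 (· + ·) 𝒮 𝒮

theorem subset_sumSet {M : Type} [Add M] (𝒮 : Set M) : 𝒮 ⊆ sumSet 𝒮 :=
  Set.subset_union_left

theorem add_mem_sumSet {M : Type} [Add M] (𝒮 : Set M) {x y : M} (hx : x ∈ 𝒮) (hy : y ∈ 𝒮) :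
    x + y ∈ sumSet 𝒮 :=
  Or.inr ⟨x, hx, y, hy, rfl⟩

theorem finite_sumSet {M : Type} [Add M] {𝒮 : Set M} (h : 𝒮.Finite) : (sumSet 𝒮).Finite :=
  h.union (Set.Finite.image2 _ h h)

/-- **The abstract main theorem from its packages.** -/
theorem stmt_FLAbs_of (h1 : Stmt_Setup) (h2 : Stmt_Basic) (h3 : Stmt_Comul) (h4 : Stmt_DStab) :
    Stmt_FLAbs := by
  intro K F k F' _ _ _ _ _ _ _ _ S hFF hFF' hG Γ _ G hU hFr 𝒮 hfin hstab
  have hTfin : (sumSet 𝒮).Finite := finite_sumSet hfin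
  have hTstab : ∀ (σ : Γ), ∀ x ∈ sumSet 𝒮, G.act σ • x ∈ sumSet 𝒮 := by
    rintro σ x (hx | ⟨a, ha, b, hb, rfl⟩)
    · exact Or.inl (hstab σ x hx)
    · rw [smul_add]
      exact add_mem_sumSet 𝒮 (hstab σ a ha) (hstab σ b hb)
  obtain ⟨CS⟩ := h1 K F k F' S hFF hFF' hG Γ G hU hFr (sumSet 𝒮) hTfin hTstab
  have hsub := subset_sumSet 𝒮
  obtain ⟨hint, heq, hsep⟩ := h2 K F k F' S hFF hFF' Γ G (sumSet 𝒮) CS 𝒮 hsub
  have : Finite ↥(sumSet 𝒮) := hTfin.to_subtype
  refine ⟨_, inferInstance, CS.gen 𝒮 hsub, hint, heq, ?_, hsep, ?_⟩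
  · exact h4 K F k F' S hFF hFF' Γ G (sumSet 𝒮) hTfin hTstab CS 𝒮 hsub hstab
  · exact h3 K F k F' S hFF hFF' Γ G (sumSet 𝒮) hTfin CS 𝒮 hsub
      (fun x hx y hy => add_mem_sumSet 𝒮 hx hy)

end Fermat.Agent.FL.H36

end
end
-- ==== END Fermat.Agent.FL.H36_Asm

-- ==== BEGIN Fermat.Agent.FL.H38_FrameInt
section

/-!
# G-FL (S19), package RED-FRAME, part 1 (helper38): reduction of constants, FRAME-INT

`S : RedSetup K F k F'`, `A = constVal S`, `rc S : K → k` the reduction of constants.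

* `rc_zero`, `rc_one`, `rc_add`, `rc_mul`, `rc_neg`, `rc_sub`: `rc S` is a ring homomorphism on `A`;
  `rcHom S : A →+* k`;
* `inv_mem_of_rc_ne_zero`: an integral constant with non-zero reduction is a unit of `A`;
* `rd_sum_smul`: the reduction of an integral linear combination;
* `exists_normalize`: a non-zero vector of constants has an entry of maximal absolute value;
* `frameInt`, `stmt_FrameInt : Stmt_FrameInt`;
* `linearIndependent_of_rd`: Gauss-integral functions with linearly independent reductions are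
  linearly independent.
-/

set_option autoImplicit false

noncomputable section

open AlgebraicCurve

namespace Fermat.Agent.FL.H38

open Fermat.Agent.FL Fermat.Agent.RED Fermat.Agent.RED.H17

variable {K F k F' : Type} [Field K] [Field F] [Algebra K F] [Field k] [Field F']
  [Algebra k F'] (S : RedSetup K F k F')

/-! ### The reduction of constants -/

theorem rd_algebraMap {c : K} (h : c ∈ constVal S) :
    S.rd (algebraMap K F c) = algebraMap k F' (rc S c) := by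
  rw [S.rd_of_mem h]
  exact rc_spec S h

theorem rc_zero : rc S 0 = 0 := by
  apply (algebraMap k F').injective
  rw [← rd_algebraMap S (constVal S).zero_mem, map_zero, map_zero, S.rd_zero]

theorem rc_one : rc S 1 = 1 := by
  apply (algebraMap k F').injective
  rw [← rd_algebraMap S (constVal S).one_mem, map_one, map_one, S.rd_one]

theorem rc_add {a b : K} (ha : a ∈ constVal S) (hb : b ∈ constVal S) :
    rc S (a + b) = rc S a + rc S b := by
  apply (algebraMap k F').injective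
  rw [← rd_algebraMap S ((constVal S).add_mem _ _ ha hb), map_add, map_add, S.rd_add ha hb,
    rd_algebraMap S ha, rd_algebraMap S hb]

theorem rc_mul {a b : K} (ha : a ∈ constVal S) (hb : b ∈ constVal S) :
    rc S (a * b) = rc S a * rc S b := by
  apply (algebraMap k F').injective
  rw [← rd_algebraMap S ((constVal S).mul_mem _ _ ha hb), map_mul, map_mul, S.rd_mul ha hb,
    rd_algebraMap S ha, rd_algebraMap S hb]

theorem rc_neg {a : K} (ha : a ∈ constVal S) : rc S (-a) = -rc S a := by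
  apply (algebraMap k F').injective
  rw [← rd_algebraMap S ((constVal S).neg_mem _ ha), map_neg, map_neg, S.rd_neg ha,
    rd_algebraMap S ha]

theorem rc_sub {a b : K} (ha : a ∈ constVal S) (hb : b ∈ constVal S) :
    rc S (a - b) = rc S a - rc S b := by
  rw [sub_eq_add_neg, rc_add S ha ((constVal S).neg_mem _ hb), rc_neg S hb, sub_eq_add_neg]

/-- The reduction of constants as a ring homomorphism on `A`. -/
def rcHom : (constVal S) →+* k where
  toFun a := rc S (a : K)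
  map_one' := rc_one S
  map_mul' a b := rc_mul S a.2 b.2
  map_zero' := rc_zero S
  map_add' a b := rc_add S a.2 b.2

theorem rcHom_apply (a : constVal S) : rcHom S a = rc S (a : K) := rfl

/-- An integral constant with non-zero reduction is a unit of `A`. -/
theorem inv_mem_of_rc_ne_zero {c : K} (hc : c ∈ constVal S) (h : rc S c ≠ 0) :
    c⁻¹ ∈ constVal S := by
  have hGU : S.IsGU (algebraMap K F c) := by
    refine ⟨hc, ?_⟩
    rw [rd_algebraMap S hc]
    intro h0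
    apply h
    apply (algebraMap k F').injective
    rw [h0, map_zero]
  have := hGU.inv_mem
  rw [← map_inv₀] at this
  exact this

/-- The inverse of a non-integral constant is integral, with reduction `0`. -/
theorem inv_mem_of_not_mem {c : K} (hc : c ∉ constVal S) :
    c⁻¹ ∈ constVal S ∧ rc S c⁻¹ = 0 := by
  have h1 : c⁻¹ ∈ constVal S := ((constVal S).mem_or_inv_mem c).resolve_left hc
  refine ⟨h1, ?_⟩
  by_contra h
  have := inv_mem_of_rc_ne_zero S h1 h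
  rw [inv_inv] at this
  exact hc this

theorem isUnit_of_rcHom_ne_zero {a : constVal S} (h : rcHom S a ≠ 0) : IsUnit a := by
  have h1 : (a : K)⁻¹ ∈ constVal S := inv_mem_of_rc_ne_zero S a.2 h
  have h0 : (a : K) ≠ 0 := by
    intro h0
    apply h
    rw [rcHom_apply, h0, rc_zero]
  refine IsUnit.of_mul_eq_one (⟨(a : K)⁻¹, h1⟩ : constVal S) ?_
  apply Subtype.ext
  show (a : K) * (a : K)⁻¹ = 1
  exact mul_inv_cancel₀ h0

/-! ### Integral linear combinations -/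

theorem rd_smul_of_mem {c : K} (hc : c ∈ constVal S) {f : F} (hf : f ∈ S.V) :
    c • f ∈ S.V ∧ S.rd (c • f) = rc S c • S.rd f := by
  rw [Algebra.smul_def]
  refine ⟨S.V.mul_mem _ _ hc hf, ?_⟩
  rw [S.rd_mul hc hf, rd_algebraMap S hc, Algebra.smul_def]

theorem rd_sum_smul {ι : Type} (s : Finset ι) (e : ι → F) (he : ∀ i, e i ∈ S.V) (v : ι → K)
    (hv : ∀ i, v i ∈ constVal S) :
    (∑ i ∈ s, v i • e i) ∈ S.V ∧
      S.rd (∑ i ∈ s, v i • e i) = ∑ i ∈ s, rc S (v i) • S.rd (e i) := by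
  classical
  induction s using Finset.induction_on with
  | empty =>
    rw [Finset.sum_empty, Finset.sum_empty]
    exact ⟨S.V.zero_mem, S.rd_zero⟩
  | insert a s ha ih =>
    rw [Finset.sum_insert ha, Finset.sum_insert ha]
    obtain ⟨h1, h2⟩ := rd_smul_of_mem S (hv a) (he a)
    refine ⟨S.V.add_mem _ _ h1 ih.1, ?_⟩
    rw [S.rd_add h1 ih.1, h2, ih.2]

/-- A non-zero vector of constants has an entry of maximal absolute value. -/
theorem exists_normalize {ι : Type} [Fintype ι] (u : ι → K) {j : ι} (hj : u j ≠ 0) :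
    ∃ i₀, u i₀ ≠ 0 ∧ ∀ i, u i / u i₀ ∈ constVal S := by
  obtain ⟨i₀, -, hmax⟩ := Finset.exists_max_image Finset.univ
    (fun i => (constVal S).valuation (u i)) ⟨j, Finset.mem_univ j⟩
  have h0 : u i₀ ≠ 0 := by
    intro h
    have h1 := hmax j (Finset.mem_univ j)
    rw [h, map_zero] at h1
    exact hj ((map_eq_zero _).mp (le_antisymm h1 zero_le))
  refine ⟨i₀, h0, fun i => ?_⟩
  rw [← ValuationSubring.valuation_le_one_iff, map_div₀]
  have hpos : 0 < (constVal S).valuation (u i₀) :=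
    lt_of_le_of_ne zero_le (Ne.symm ((map_ne_zero _).mpr h0))
  exact (div_le_one₀ hpos).mpr (hmax i (Finset.mem_univ i))

/-- **FRAME-INT.** -/
theorem frameInt {ι : Type} [Fintype ι] (e : ι → F) (he : ∀ i, e i ∈ S.V)
    (hli : LinearIndependent k (fun i => S.rd (e i))) (u : ι → K)
    (hu : (∑ i, u i • e i) ∈ S.V) :
    (∀ i, u i ∈ constVal S) ∧ S.rd (∑ i, u i • e i) = ∑ i, rc S (u i) • S.rd (e i) := by
  have key : ∀ i, u i ∈ constVal S := by
    by_contra hcon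
    rw [not_forall] at hcon
    obtain ⟨j, hj⟩ := hcon
    have hj0 : u j ≠ 0 := by
      intro h
      exact hj (h ▸ (constVal S).zero_mem)
    obtain ⟨i₀, h0, hv⟩ := exists_normalize S u hj0
    have hi₀ : u i₀ ∉ constVal S := by
      intro h
      apply hj
      have := (constVal S).mul_mem _ _ (hv j) h
      rwa [div_mul_cancel₀ _ h0] at this
    obtain ⟨h1, h2⟩ := inv_mem_of_not_mem S hi₀
    have hsum : ∑ i, (u i / u i₀) • e i = (u i₀)⁻¹ • ∑ i, u i • e i := by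
      rw [Finset.smul_sum]
      refine Finset.sum_congr rfl fun i _ => ?_
      rw [smul_smul, div_eq_inv_mul]
    have h3 := (rd_sum_smul S Finset.univ e he (fun i => u i / u i₀) hv).2
    rw [hsum, (rd_smul_of_mem S h1 hu).2, h2, zero_smul] at h3
    have h4 := Fintype.linearIndependent_iff.mp hli (fun i => rc S (u i / u i₀)) h3.symm i₀
    rw [div_self h0, rc_one] at h4
    exact one_ne_zero h4
  exact ⟨key, (rd_sum_smul S Finset.univ e he u key).2⟩

theorem stmt_FrameInt : Stmt_FrameInt := by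
  intro K F k F' _ _ _ _ _ _ S ι _ e he hli u hu
  exact frameInt S e he hli u hu

/-- Gauss-integral functions with linearly independent reductions are linearly independent. -/
theorem linearIndependent_of_rd {ι : Type} [Fintype ι] (e : ι → F) (he : ∀ i, e i ∈ S.V)
    (hli : LinearIndependent k (fun i => S.rd (e i))) : LinearIndependent K e := by
  rw [Fintype.linearIndependent_iff]
  intro u hu
  by_contra hcon
  rw [not_forall] at hcon
  obtain ⟨j, hj0⟩ := hcon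
  obtain ⟨i₀, h0, hv⟩ := exists_normalize S u hj0
  have hsum : ∑ i, (u i / u i₀) • e i = (u i₀)⁻¹ • ∑ i, u i • e i := by
    rw [Finset.smul_sum]
    refine Finset.sum_congr rfl fun i _ => ?_
    rw [smul_smul, div_eq_inv_mul]
  have h3 := (rd_sum_smul S Finset.univ e he (fun i => u i / u i₀) hv).2
  rw [hsum, hu, smul_zero, S.rd_zero] at h3
  have h4 := Fintype.linearIndependent_iff.mp hli (fun i => rc S (u i / u i₀)) h3.symm i₀
  rw [div_self h0, rc_one] at h4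
  exact one_ne_zero h4

end Fermat.Agent.FL.H38

end
end
-- ==== END Fermat.Agent.FL.H38_FrameInt
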