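-- GENERATED (merged mirror, NOTES/tools/trim/merge3_helper67.py): 2 modules of the originals, bodies verbatim.
import Mathlib.FieldTheory.Galois.Profinite
import Fermat.Agent.Zm.S33_L05_000
import Fermat.Agent.Zm.S33_L04_003
import Fermat.Agent.Zm.S35_L01_002
import Fermat.Agent.Zm.S33_L05_001
import Fermat.Agent.Zm.S56_L01_000

-- ==== BEGIN Fermat.Agent.FL.H51_DStabFF
section

/-!
# G-FL, package DSTAB (helper51): function field lemmas

* `finrank_L_smul` : `l(g • D) = l(D)` for a semilinear automorphism `g`.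
* `finrank_L_eq_of_principal` : `l(D₁) = l(D₂)` if `D₂ - D₁` is principal.
* `eq_of_principal_of_finrank_one` : an effective divisor `E₂` with `l(E₂) = 1` is the only
  effective divisor in its class.
* `principal_of_mk_eq` : two divisors of degree zero with the same class differ by a principal
  divisor.
This file contains no `sorry`.
-/

set_option autoImplicit false
set_option linter.style.haveILetI false
set_option linter.unusedSectionVars false

noncomputable section

open AlgebraicCurve

namespace Fermat.Agent.FL.H51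

open Fermat.Agent.RED Fermat.Agent.S17.H35

variable {k E : Type} [Field k] [Field E] [Algebra k E]

local notation "L" => riemannRochSpace

/-- `g • f ∈ L(g • D)` iff `f ∈ L(D)`. -/
theorem smul_mem_L_iff (g : SemilinearAut k E) (D : Divisor k E) (f : E) :
    g • f ∈ L (g • D) ↔ f ∈ L D := by
  rw [mem_riemannRochSpace_iff, mem_riemannRochSpace_iff]
  constructor
  · intro h v
    rcases h (g • v) with h0 | h1
    · left
      have : g⁻¹ • (g • f) = g⁻¹ • (0 : E) := congrArg (g⁻¹ • ·) h0
      rwa [inv_smul_smul, smul_zero] at this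
    · right
      rwa [SemilinearAut.divisor_smul_apply_smul, SemilinearAut.ord_smul] at h1
  · intro h w
    rcases h (g⁻¹ • w) with h0 | h1
    · left
      rw [h0, smul_zero]
    · right
      have h2 := SemilinearAut.ord_smul g (g⁻¹ • w) f
      rw [smul_inv_smul] at h2
      rw [SemilinearAut.divisor_smul_apply, h2]
      exact h1

/-- The additive equivalence `L(D) ≃ L(g • D)`. -/
def smulLEquiv (g : SemilinearAut k E) (D : Divisor k E) : ↥(L D) ≃+ ↥(L (g • D)) where
  toFun f := ⟨g • (f : E), (smul_mem_L_iff g D f).2 f.2⟩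
  invFun f := ⟨g⁻¹ • (f : E), by
    have h := f.2
    rw [← smul_inv_smul g (f : E)] at h
    exact (smul_mem_L_iff g D _).1 h⟩
  left_inv f := Subtype.ext (inv_smul_smul g (f : E))
  right_inv f := Subtype.ext (smul_inv_smul g (f : E))
  map_add' f f' := Subtype.ext (smul_add g (f : E) (f' : E))

/-- `l(g • D) = l(D)`. -/
theorem finrank_L_smul (g : SemilinearAut k E) (D : Divisor k E) :
    Module.finrank k (L (g • D)) = Module.finrank k (L D) := by
  have h := rank_eq_of_equiv_equiv (R := k) (R' := k) (SemilinearAut.baseAut g)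
    (smulLEquiv g D) (SemilinearAut.baseAut g).bijective (fun c f => by
      apply Subtype.ext
      show g • ((c • f : ↥(L D)) : E) = SemilinearAut.baseAut g c • (g • (f : E))
      rw [Submodule.coe_smul, Algebra.smul_def, Algebra.smul_def, smul_mul',
        SemilinearAut.smul_algebraMap])
  unfold Module.finrank
  rw [h]

/-- `l(D₁) = l(D₂)` if `D₂ - D₁` is the divisor of `h`. -/
theorem finrank_L_eq_of_principal {h : E} (hh : h ≠ 0) {D₁ D₂ P : Divisor k E}
    (hdiv : ∀ v : Place k E, v.ord h = P v) (hD : D₁ + P = D₂) :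
    Module.finrank k (L D₁) = Module.finrank k (L D₂) := by
  have hinj : Function.Injective (LinearMap.mulLeft k h) := fun a b hab =>
    mul_left_cancel₀ hh hab
  have h1 := (Submodule.equivMapOfInjective (LinearMap.mulLeft k h) hinj (L D₂)).finrank_eq
  have h2 : (L D₂).map (LinearMap.mulLeft k h) = L D₁ := by
    ext f
    rw [Submodule.mem_map, Fermat.Agent.FL.H2.mem_L_iff_exists_mul hh hdiv hD f]
    constructor
    · rintro ⟨z, hz, rfl⟩
      exact ⟨z, hz, rfl⟩
    · rintro ⟨z, hz, rfl⟩
      exact ⟨z, hz, rfl⟩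
  rw [← h2, ← h1]

/-- An effective divisor `E₂` with `l(E₂) = 1` is the only effective divisor in its class. -/
theorem eq_of_principal_of_finrank_one {E₁ E₂ : Divisor k E} (h1 : 0 ≤ E₁) (h2 : 0 ≤ E₂)
    {h : E} (hdiv : ∀ v : Place k E, v.ord h = (E₁ - E₂) v)
    (hl : Module.finrank k (L E₂) = 1) : E₁ = E₂ := by
  have hone : (1 : E) ∈ L E₂ := by
    apply mem_L_of_neg_le_ord
    intro v
    have := Finsupp.le_def.mp h2 v
    simp only [Finsupp.coe_zero, Pi.zero_apply] at this
    rw [Place.ord_one]
    omega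
  have hmem : h ∈ L E₂ := by
    apply mem_L_of_neg_le_ord
    intro v
    have := Finsupp.le_def.mp h1 v
    simp only [Finsupp.coe_zero, Pi.zero_apply] at this
    rw [hdiv v, Finsupp.sub_apply]
    omega
  have hne : (⟨1, hone⟩ : ↥(L E₂)) ≠ 0 := fun h0 => one_ne_zero (congrArg Subtype.val h0)
  obtain ⟨c, hc⟩ := (finrank_eq_one_iff_of_nonzero' (⟨1, hone⟩ : ↥(L E₂)) hne).1 hl ⟨h, hmem⟩
  have hc' : h = algebraMap k E c := by
    have := congrArg Subtype.val hc
    simp only [Submodule.coe_smul] at this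
    rw [← this, Algebra.smul_def, mul_one]
  ext v
  have h3 := hdiv v
  rw [hc', Fermat.Agent.RED.H51.ord_algebraMap, Finsupp.sub_apply] at h3
  omega

/-- `mapDomain` commutes with subtraction. -/
theorem mapDomain_sub' {α β : Type*} (r : α → β) (D D' : α →₀ ℤ) :
    Finsupp.mapDomain r (D - D') = Finsupp.mapDomain r D - Finsupp.mapDomain r D' :=
  map_sub (Finsupp.mapDomain.addMonoidHom r) D D'

/-- The push-forward of an effective divisor is effective. -/
theorem mapDomain_nonneg_of_nonneg {α β : Type*} (r : α → β) {D : α →₀ ℤ} (hD : 0 ≤ D) :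
    0 ≤ Finsupp.mapDomain r D := by
  rw [Finsupp.le_def]
  intro b
  exact Fermat.Agent.RED.H17.mapDomain_nonneg' r (fun a => by
    have := Finsupp.le_def.mp hD a
    simpa using this) b

/-- The action of a semilinear automorphism preserves effectivity. -/
theorem smul_nonneg_of_nonneg (g : SemilinearAut k E) {D : Divisor k E} (hD : 0 ≤ D) :
    0 ≤ g • D := by
  rw [SemilinearAut.divisor_smul_def]
  exact mapDomain_nonneg_of_nonneg _ hD

/-- Two divisors of degree zero with the same class differ by a principal divisor. -/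
theorem principal_of_mk_eq {K F : Type} [Field K] [Field F] [Algebra K F]
    {D₁ D₂ : Divisor.degZero (K := K) (F := F)} (h : Pic0.mk D₁ = Pic0.mk D₂) :
    ∃ f : F, f ≠ 0 ∧ ∀ v : Place K F, v.ord f = ((D₂ : Divisor K F) - (D₁ : Divisor K F)) v := by
  have h1 : -D₁ + D₂ ∈ (Divisor.principal (K := K) (F := F)).addSubgroupOf
      (Divisor.degZero (K := K) (F := F)) := QuotientAddGroup.eq.mp h
  rw [AddSubgroup.mem_addSubgroupOf] at h1
  obtain ⟨f, hf, hD⟩ := h1
  refine ⟨f, hf, fun v => ?_⟩
  rw [← hD v]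
  simp only [AddSubgroup.coe_add, NegMemClass.coe_neg, Finsupp.add_apply, Finsupp.neg_apply,
    Finsupp.sub_apply]
  ring

end Fermat.Agent.FL.H51

end
end
-- ==== END Fermat.Agent.FL.H51_DStabFF

-- ==== BEGIN Fermat.Agent.S15.Desc.H63_BddCompact
section

set_option autoImplicit false

noncomputable section

namespace Fermat.Agent.S15.Desc.H63

local notation "Qbar" => AlgebraicClosure ℚ
local notation "GQ" => (AlgebraicClosure ℚ ≃ₐ[ℚ] AlgebraicClosure ℚ)

open scoped Pointwise

section krull

/-- The level sets of the evaluation at `x` are open in the Krull topology. -/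
theorem isOpen_setOf_apply_eq (x y : Qbar) : IsOpen {σ : GQ | σ x = y} := by
  have := H97.qbar_isAlgebraic
  by_cases h : ∃ σ₀ : GQ, σ₀ x = y
  · obtain ⟨σ₀, rfl⟩ := h
    have h1 : {σ : GQ | σ x = σ₀ x} = σ₀ • (MulAction.stabilizer GQ x : Set GQ) := by
      ext σ
      rw [Set.mem_smul_set_iff_inv_smul_mem, Set.mem_ofPred_eq, SetLike.mem_coe,
        MulAction.mem_stabilizer_iff, smul_eq_mul]
      constructor
      · intro hσ
        change (σ₀⁻¹ * σ) x = x
        rw [AlgEquiv.mul_apply, hσ]
        change (σ₀⁻¹ * σ₀) x = x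
        rw [inv_mul_cancel]
        rfl
      · intro hσ
        have h2 : (σ₀⁻¹ * σ) x = x := hσ
        have h3 : σ₀ ((σ₀⁻¹ * σ) x) = σ x := by
          change (σ₀ * (σ₀⁻¹ * σ)) x = σ x
          rw [mul_inv_cancel_left]
        rw [← h3, h2]
    rw [h1]
    exact (stabilizer_isOpen_of_isIntegral x).smul σ₀
  · have h1 : {σ : GQ | σ x = y} = ∅ := by
      ext σ
      simp only [Set.mem_ofPred_eq, Set.mem_empty_iff_false, iff_false]
      exact fun hσ => h ⟨σ, hσ⟩
    rw [h1]
    exact isOpen_empty

/-- Conditions on a single value are open (and closed) in the Krull topology. -/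
theorem isOpen_setOf_apply_mem (x : Qbar) (P : Set Qbar) : IsOpen {σ : GQ | σ x ∈ P} := by
  have h1 : {σ : GQ | σ x ∈ P} = ⋃ y ∈ P, {σ : GQ | σ x = y} := by
    ext σ
    simp only [Set.mem_ofPred_eq, Set.mem_iUnion, exists_prop, exists_eq_right']
  rw [h1]
  exact isOpen_biUnion fun y _ => isOpen_setOf_apply_eq x y

theorem isClosed_setOf_apply_mem (x : Qbar) (P : Set Qbar) : IsClosed {σ : GQ | σ x ∈ P} := by
  refine ⟨?_⟩
  have h1 : {σ : GQ | σ x ∈ P}ᶜ = {σ : GQ | σ x ∈ Pᶜ} := by
    ext σ
    simp only [Set.mem_compl_iff, Set.mem_ofPred_eq]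
  rw [h1]
  exact isOpen_setOf_apply_mem x _

/-- A subgroup containing the pointwise stabiliser of a finite set is open. -/
theorem isOpen_of_finset (H : Subgroup GQ) (S : Finset Qbar)
    (hS : ∀ σ : GQ, (∀ x ∈ S, σ x = x) → σ ∈ H) : IsOpen (H : Set GQ) := by
  have h1 : IsOpen (⋂ x ∈ S, {σ : GQ | σ x ∈ ({x} : Set Qbar)}) :=
    isOpen_biInter_finset fun x _ => isOpen_setOf_apply_mem x _
  refine Subgroup.isOpen_of_mem_nhds H (g := 1) ?_
  refine Filter.mem_of_superset (h1.mem_nhds ?_) ?_
  · simp only [Set.mem_iInter, Set.mem_ofPred_eq, Set.mem_singleton_iff]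
    intro x _
    rfl
  · intro σ hσ
    simp only [Set.mem_iInter, Set.mem_ofPred_eq, Set.mem_singleton_iff] at hσ
    exact hS σ hσ

end krull

section inertia

variable (A : ValuationSubring Qbar) {r : ℕ}

/-- Algebraic integers lie in every valuation subring. -/
theorem val_le_one_of_integral' {x : Qbar} (hx : IsIntegral ℤ x) : A.valuation x ≤ 1 := by
  have h1 : IsIntegral A x := hx.tower_top
  rw [ValuationSubring.valuation_le_one_iff]
  have h2 := (Valuation.Integers.isIntegral_iff_v_le_one
    (Valuation.valuationSubring.integers A.valuation) (x := x)).mp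
    (by rw [A.valuationSubring_valuation]; exact h1)
  exact (ValuationSubring.valuation_le_one_iff A x).mp h2

/-- The inertia group of a place over a prime is closed in the Krull topology. -/
theorem isClosed_inertia (hr : r.Prime) (hA : A.LiesOverPrime r) :
    IsClosed (A.inertiaSubgroupIn ℚ : Set GQ) := by
  have := H97.qbar_isAlgebraic
  have h1 : (A.inertiaSubgroupIn ℚ : Set GQ) =
      ⋂ (b : Qbar) (_ : IsIntegral ℤ b), {σ : GQ | σ b ∈ {y : Qbar | y - b ∈ A.nonunits}} := by
    ext σ
    simp only [SetLike.mem_coe, Set.mem_iInter, Set.mem_ofPred_eq]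
    constructor
    · intro hσ b hb
      have hbA : b ∈ A := by
        rw [← A.valuation_le_one_iff]
        exact val_le_one_of_integral' A hb
      exact Fermat.Agent.S05.H95.sub_mem_nonunits_of_mem_inertia A hσ hbA
    · intro h
      exact Fermat.Agent.Lib.InertiaLift.mem_inertiaSubgroupIn_of_integers r hr A hA σ h
  rw [h1]
  exact isClosed_iInter fun b => isClosed_iInter fun _ => isClosed_setOf_apply_mem b _

end inertia

section compact

variable (A : ValuationSubring Qbar) {r : ℕ}

/-- **Compactness upgrade**: an open subgroup containing `I ∩ Fix(unrRoots)` contains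
`I ∩ Fix(T)` for a finite set `T` of `r`-th roots of unramified units. -/
theorem bddElem_subset_bddFin (hr : r.Prime) (hA : A.LiesOverPrime r) :
    bddElem r A ⊆ bddFin r A := by
  classical
  have := Fermat.Agent.Lib.InertiaLift.qbar_isGalois'
  rintro H ⟨⟨S, hS⟩, hH⟩
  refine ⟨⟨S, hS⟩, ?_⟩
  have hHopen : IsOpen (H : Set GQ) := isOpen_of_finset H S hS
  have hX : IsCompact ((A.inertiaSubgroupIn ℚ : Set GQ) ∩ (H : Set GQ)ᶜ) :=
    ((isClosed_inertia A hr hA).inter hHopen.isClosed_compl).isCompact
  have hcover : (A.inertiaSubgroupIn ℚ : Set GQ) ∩ (H : Set GQ)ᶜ ⊆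
      ⋃ β : ↥(unrRoots r A), {σ : GQ | σ (β : Qbar) ∈ ({(β : Qbar)} : Set Qbar)ᶜ} := by
    rintro σ ⟨hσI, hσH⟩
    by_contra hcon
    apply hσH
    refine hH σ hσI fun β hβ => ?_
    by_contra hne
    apply hcon
    exact Set.mem_iUnion.mpr ⟨⟨β, hβ⟩, hne⟩
  obtain ⟨t, ht⟩ := hX.elim_finite_subcover
    (fun β : ↥(unrRoots r A) => {σ : GQ | σ (β : Qbar) ∈ ({(β : Qbar)} : Set Qbar)ᶜ})
    (fun β => isOpen_setOf_apply_mem _ _) hcover
  refine ⟨t.image Subtype.val, ?_, ?_⟩
  · intro β hβ
    obtain ⟨β', -, rfl⟩ := Finset.mem_image.mp hβ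
    exact β'.2
  · intro σ hσ hfix
    by_contra hσH
    have h1 := ht ⟨hσ, hσH⟩
    simp only [Set.mem_iUnion, exists_prop] at h1
    obtain ⟨β, hβt, hβ⟩ := h1
    exact hβ (hfix β (Finset.mem_image_of_mem _ hβt))

variable [Fact r.Prime]

/-- **BASE for the elementary bounded family** `bddElem r A` of `S15_LOCr.md` §1. -/
theorem isBddFamily_bddElem (hr2 : r ≠ 2) (hA : A.LiesOverPrime r) :
    IsBddFamily r A (bddElem r A) := by
  have h : bddElem r A = bddFin r A :=
    Set.Subset.antisymm (bddElem_subset_bddFin A Fact.out hA) (bddFin_subset_bddElem r A)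
  rw [h]
  exact isBddFamily_bddFin A hr2 hA

end compact

end Fermat.Agent.S15.Desc.H63

end
end
-- ==== END Fermat.Agent.S15.Desc.H63_BddCompact
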