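-- GENERATED (merged mirror, NOTES/tools/trim/merge3_helper67.py): 5 modules of the originals, bodies verbatim.
import Fermat.Agent.Zm.S33_L06_000
import Fermat.Agent.Zm.S33_L05_001
import Fermat.Agent.Zm.S33_L03_001
import Fermat.Agent.Zm.S33_L06_005
import Fermat.Agent.Zm.S33_L06_003
import Fermat.Agent.Zm.S33_L06_001
import Fermat.Agent.Zm.S33_L04_000
import Fermat.Agent.Zm.S35_L10_005

-- ==== BEGIN Fermat.Agent.BADP.H28_TIp
section

/-!
# S33 (T3), leaf (E) "TI-p" (helper28): torsion injectivity in depth `> p / (p - 1)`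

`stmt_TIp : Stmt_TIp` : abstract semistable datum `S : SSD K F k F₁ F₂` with `char k = p`,
`π ∈ K` with `π ^ (p - 1) / p ≡ -1`.  If `(f - 1) / (p π)` lies in the maximal ideals of both
valuations, `p ∣ div f` and `f` has neither zero nor pole over the nodes, then `f` is a `p`-th
power.

Proof (plan `NOTES/plan/L_S44.md` §6, two-round form of helper19): CANON-p (helper51) gives
`h ≡ 1` with `F₀ = f h ^ p` in canonical position with parameters `a_Q`.
Round 1 (`KeyHyp.round` with `δ = c⁻¹`, `d = c ^ (-p)`): `(h - 1) / π` and `a_Q / π` are integral.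
Round 2 (`δ = π`, `d = p π`): `a_Q / π` lies in the maximal ideal.
Then `a_Q ^ p = p a_Q ε_Q` with `ε_Q` in the maximal ideal and `H28.keyNodal_lin` gives `F₀ = 1`.
-/

set_option autoImplicit false
set_option linter.style.haveILetI false
set_option maxHeartbeats 1000000

noncomputable section

open AlgebraicCurve

attribute [local instance] Classical.propDecidable

namespace Fermat.Agent.BADP.H28

open Fermat.Agent.RED.H17 Fermat.Agent.RED Fermat.Agent.BAD

/-- **(E) TI-p.** -/
def Stmt_TIp : Prop :=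
  ∀ (K F k F₁ F₂ : Type) [Field K] [Field F] [Algebra K F] [Field k] [Field F₁]
    [Algebra k F₁] [Field F₂] [Algebra k F₂] [IsAlgClosed K] [Infinite k]
    (S : SSD K F k F₁ F₂), FFHyp K F → FFHyp k F₁ → FFHyp k F₂ →
    ∀ (g g₁ g₂ : ℕ) (c c₁ c₂ : ℤ), IsGenus K F g c → IsGenus k F₁ g₁ c₁ → IsGenus k F₂ g₂ c₂ →
    g + 1 ≤ g₁ + g₂ + S.nodes.card →
    ∀ (p : ℕ), p.Prime → CharP k p →
    ∀ (π : K), S.c₁.rd (algebraMap K F (π ^ (p - 1) / (p : K))) = -1 →
    ∀ (f : F), S.c₁.InM ((f - 1) / algebraMap K F ((p : K) * π)) →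
      S.c₂.InM ((f - 1) / algebraMap K F ((p : K) * π)) →
      (∀ P : Place K F, (p : ℤ) ∣ P.ord f) → (∀ P : Place K F, S.IsNodeP P → P.ord f = 0) →
      ∃ h : F, f = h ^ p

section Main

variable {K F k F₁ F₂ : Type} [Field K] [Field F] [Algebra K F] [Field k] [Field F₁]
  [Algebra k F₁] [Field F₂] [Algebra k F₂]

/-- The constants of TI-p. -/
theorem tip_consts (S : SSD K F k F₁ F₂) {p : ℕ} (hp : p.Prime) (hpk : (p : k) = 0) {π : K}
    (hπp : S.c₁.rd (algebraMap K F (π ^ (p - 1) / (p : K))) = -1) :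
    (p : K) ≠ 0 ∧ π ≠ 0 ∧ S.IsCU (π ^ (p - 1) / (p : K)) ∧ S.IsCM (p : K) ∧ S.IsCM π := by
  have hν : S.IsCU (π ^ (p - 1) / (p : K)) := by
    have h0 : S.c₁.rd (algebraMap K F (π ^ (p - 1) / (p : K))) ≠ 0 := by
      rw [hπp]
      exact neg_ne_zero.mpr one_ne_zero
    refine ⟨?_, h0⟩
    by_contra hmem
    exact h0 (S.c₁.rd_of_not_mem hmem)
  have hpK : (p : K) ≠ 0 := by
    intro h
    apply hν.ne_zero
    rw [h, div_zero]
  have hπ0 : π ≠ 0 := by
    intro h
    apply hν.ne_zero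
    have : p - 1 ≠ 0 := by have := hp.two_le; omega
    rw [h, zero_pow this, zero_div]
  have hpM : S.IsCM (p : K) := by
    have := S.c₁.inM_natCast (F := F) hpk
    unfold SSD.IsCM
    rw [map_natCast]
    exact this
  refine ⟨hpK, hπ0, hν, hpM, ?_⟩
  -- `π` is in the maximal ideal
  rcases S.isCU_or_isCM π with h | h | h
  · exfalso
    have h1 : S.IsCU (π ^ (p - 1)) := h.pow _
    have h2 : π ^ (p - 1) = (p : K) * (π ^ (p - 1) / (p : K)) := by field_simp
    have h3 : S.IsCM (π ^ (p - 1)) := by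
      rw [h2]
      unfold SSD.IsCM
      rw [map_mul]
      exact PRed.InM.mul_right ⟨hpM.mem₁, hpM.rd₁⟩ hν.isGU₁.1
    exact h3.not_isCU h1
  · exact h
  · exfalso
    have h1 : S.c₁.InM (algebraMap K F (π⁻¹ ^ (p - 1))) := by
      rw [map_pow]
      exact PRed.InM.pow ⟨h.mem₁, h.rd₁⟩ (by have := hp.two_le; omega)
    have h2 : (1 : F) = algebraMap K F (p : K) *
        (algebraMap K F (π ^ (p - 1) / (p : K)) * algebraMap K F (π⁻¹ ^ (p - 1))) := by
      rw [← map_mul, ← map_mul, ← map_one (algebraMap K F)]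
      congr 1
      rw [inv_pow, ← mul_assoc, mul_div_cancel₀ _ hpK, mul_inv_cancel₀ (pow_ne_zero _ hπ0)]
    have h3 : S.c₁.InM (1 : F) := by
      rw [h2]
      exact PRed.InM.mul_right ⟨hpM.mem₁, hpM.rd₁⟩ (S.c₁.V.mul_mem _ _ hν.isGU₁.1 h1.1)
    have := h3.2
    rw [S.c₁.rd_one] at this
    exact one_ne_zero this

/-- **(E) TI-p, core**: a function `f ∈ 1 + p π m` without zero or pole over the nodes, with
`f h ^ p` in canonical position, `h ≡ 1`: then `f h ^ p = 1`. -/
theorem tip_of_canon (S : SSD K F k F₁ F₂) (H : FFHyp K F)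
    {A₁ : Finset (Place k F₁)} {A₂ : Finset (Place k F₂)}
    (hA₁ : Disjoint A₁ S.br₁) (hA₂ : Disjoint A₂ S.br₂) (hNS : S.IsNS A₁ A₂)
    {s₁ : Place k F₁ → F} {s₂ : Place k F₂ → F}
    (hs₁ : ∀ Q ∈ A₁, S.IsCoordA₁ A₁ A₂ (s₁ Q) Q) (hs₂ : ∀ Q ∈ A₂, S.IsCoordA₂ A₁ A₂ (s₂ Q) Q)
    {p : ℕ} (hp : p.Prime) (hchar : CharP k p) {π : K}
    (hπp : S.c₁.rd (algebraMap K F (π ^ (p - 1) / (p : K))) = -1)
    {f h : F} (hf₁ : S.c₁.InM ((f - 1) / algebraMap K F ((p : K) * π)))
    (hf₂ : S.c₂.InM ((f - 1) / algebraMap K F ((p : K) * π)))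
    (hnode : ∀ P : Place K F, S.IsNodeP P → P.ord f = 0)
    (hh₁ : h ∈ S.c₁.V) (hhrd₁ : S.c₁.rd h = 1) (hh₂ : h ∈ S.c₂.V) (hhrd₂ : S.c₂.rd h = 1)
    {Pinf : Place K F} {Qinf : Place k F₁} (hQinfg : Qinf ∈ S.c₁.good) (hQinfA : Qinf ∉ A₁)
    (hPinf : S.c₁.r Pinf = some Qinf)
    {a₁ : Place k F₁ → K} {a₂ : Place k F₂ → K} {X₁ : Place k F₁ → Place K F}
    {X₂ : Place k F₂ → Place K F}
    (hcan : H51.IsCanon S A₁ A₂ s₁ s₂ p Pinf (f * h ^ p) a₁ a₂ X₁ X₂) :
    f * h ^ p = 1 := by
  have hP := H.principal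
  have hK : S.KeyHyp A₁ A₂ s₁ s₂ := ⟨hA₁, hA₂, hs₁, hs₂⟩
  haveI : CharP k p := hchar
  have hpk : (p : k) = 0 := CharP.cast_eq_zero k p
  obtain ⟨hpK, hπ0, hν, hpM, hπM⟩ := tip_consts S hp hpk hπp
  have hp1 : p - 1 ≠ 0 := by have := hp.two_le; omega
  have hpsucc : p - 1 + 1 = p := Nat.sub_add_cancel hp.one_le
  obtain ⟨-, -, -, -, hf₂ord₁, hf₂ord₂⟩ := hK.key_f₂ hP hcan.ha₁ hcan.ha₂ p hcan.mem₁ hcan.mem₂
    hcan.rd₁ hcan.rd₂ hcan.on₁ hcan.on₂
  set A : Finset (Place k F₁ ⊕ Place k F₂) := SSD.keyA A₁ A₂ with hAdef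
  set s : Place k F₁ ⊕ Place k F₂ → F := Sum.elim s₁ s₂ with hsdef
  set a : Place k F₁ ⊕ Place k F₂ → K := Sum.elim a₁ a₂ with hadef
  set Hp : F := ∏ i ∈ A, (s i - algebraMap K F (a i)) / s i with hHp
  have haCM : ∀ i ∈ A, S.IsCM (a i) := fun i hi => S.inM_keyA hcan.ha₁ hcan.ha₂ hi
  have hdπ0 : (p : K) * π ≠ 0 := mul_ne_zero hpK hπ0
  have hdπF : algebraMap K F ((p : K) * π) ≠ 0 :=
    (map_ne_zero_iff _ (algebraMap K F).injective).mpr hdπ0
  have hdπ : S.IsCM ((p : K) * π) := by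
    unfold SSD.IsCM
    rw [map_mul]
    exact PRed.InM.mul_left hpM.mem₁ ⟨hπM.mem₁, hπM.rd₁⟩
  -- `f` and `h` are units
  have hfGU : S.c₁.IsGU f := by
    have := (PRed.CongM.of_inM hdπF hf₁).isGU ⟨hdπ.mem₁, hdπ.rd₁⟩ S.c₁.V.zero_mem
    exact this.1
  have hf0 : f ≠ 0 := hfGU.ne_zero
  have hh0 : h ≠ 0 := by
    rintro rfl
    rw [S.c₁.rd_zero] at hhrd₁
    exact zero_ne_one hhrd₁
  -- `h` has neither zero nor pole over the nodes
  have hhnode : ∀ t ∈ S.nodes, ∀ P, S.c₁.r P = some t.1 → 0 ≤ P.ord h := by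
    intro t ht P hPt
    have e1 : P.ord (f * h ^ p) = 0 :=
      hcan.off P (hK.off_of_node ht hPt).1 (hK.off_of_node ht hPt).2
    have e2 : P.ord f = 0 := hnode P ⟨t, ht, hPt⟩
    rw [P.ord_mul hf0 (pow_ne_zero _ hh0), ord_pow, e2, zero_add] at e1
    rcases mul_eq_zero.mp e1 with h0 | h0
    · exact absurd (by exact_mod_cast h0) hp.ne_zero
    · rw [h0]
  have hord0 : ∀ P, (∀ Q ∈ A₁, S.c₁.r P ≠ some Q) → (∀ Q ∈ A₂, S.c₂.r P ≠ some Q) →
      0 ≤ P.ord (f * h ^ p) := fun P h1 h2 => le_of_eq (hcan.off P h1 h2).symm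
  have hf₂o₁ : ∀ Q ∈ A₁, ∀ P, S.c₁.r P = some Q → 0 ≤ P.ord (f * h ^ p / Hp ^ p) :=
    fun Q hQ P hPQ => le_of_eq (hf₂ord₁ Q hQ P hPQ).symm
  have hf₂o₂ : ∀ Q ∈ A₂, ∀ P, S.c₂.r P = some Q → 0 ≤ P.ord (f * h ^ p / Hp ^ p) :=
    fun Q hQ P hPQ => le_of_eq (hf₂ord₂ Q hQ P hPQ).symm
  -- ROUND 1 : `(h - 1) / π` and `a_Q / π` are integral
  set I : Finset F := insert (h - 1) (A.image fun i => algebraMap K F (a i)) with hI
  have hImem : ∀ z ∈ I, (z ∈ S.c₁.V ∧ S.c₁.rd z = 0) ∧ (z ∈ S.c₂.V ∧ S.c₂.rd z = 0) := by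
    intro z hz
    rcases Finset.mem_insert.mp hz with rfl | hz
    · exact ⟨⟨S.c₁.V.sub_mem hh₁ S.c₁.V.one_mem, by
        rw [S.c₁.rd_sub hh₁ S.c₁.V.one_mem, hhrd₁, S.c₁.rd_one, sub_self]⟩,
        ⟨S.c₂.V.sub_mem hh₂ S.c₂.V.one_mem, by
        rw [S.c₂.rd_sub hh₂ S.c₂.V.one_mem, hhrd₂, S.c₂.rd_one, sub_self]⟩⟩
    · obtain ⟨i, hi, rfl⟩ := Finset.mem_image.mp hz
      exact ⟨⟨(haCM i hi).mem₁, (haCM i hi).rd₁⟩, ⟨(haCM i hi).mem₂, (haCM i hi).rd₂⟩⟩
  have hR1 : ∀ z ∈ I, z / algebraMap K F π ∈ S.c₁.V ∧ z / algebraMap K F π ∈ S.c₂.V := by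
    by_cases hall : ∀ z ∈ I, z = 0
    · intro z hz
      rw [hall z hz, zero_div]
      exact ⟨S.c₁.V.zero_mem, S.c₂.V.zero_mem⟩
    push Not at hall
    obtain ⟨c, hc, ⟨hdV₁, hdrd₁⟩, ⟨hdV₂, hdrd₂⟩, hcI, z₀, hz₀, hz₀GU⟩ :=
      S.exists_scale_max₂ I hImem hall
    have hcF : algebraMap K F c ≠ 0 := (map_ne_zero_iff _ (algebraMap K F).injective).mpr hc
    have hπF : algebraMap K F π ≠ 0 := (map_ne_zero_iff _ (algebraMap K F).injective).mpr hπ0
    have hcinv : ∀ z : F, z / algebraMap K F c⁻¹ = algebraMap K F c * z := by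
      intro z
      rw [map_inv₀, div_inv_eq_mul, mul_comm]
    have hcπ : algebraMap K F (c * π)⁻¹ ∈ S.c₁.V := by
      rcases S.isCU_or_isCM (c * π) with hu | hm | hm
      · exact hu.inv.isGU₁.1
      · exfalso
        -- the constants of round 1
        have hδ : S.IsCM c⁻¹ := ⟨hdV₁, hdrd₁⟩
        have hδ0 : c⁻¹ ≠ 0 := inv_ne_zero hc
        have hd : S.IsCM (c⁻¹ ^ p) := by
          unfold SSD.IsCM
          rw [map_pow]
          exact PRed.InM.pow ⟨hdV₁, hdrd₁⟩ hp.ne_zero
        have hd0 : c⁻¹ ^ p ≠ 0 := pow_ne_zero _ hδ0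
        have hκeq : (p : K) * c ^ (p - 1) = (c * π) ^ (p - 1) * (π ^ (p - 1) / (p : K))⁻¹ := by
          rw [mul_pow, inv_div]
          have := pow_ne_zero (p - 1) hπ0
          field_simp
        have hκM : S.IsCM ((p : K) * c ^ (p - 1)) := by
          rw [hκeq]
          unfold SSD.IsCM
          rw [map_mul, map_pow]
          exact PRed.InM.mul_right (PRed.InM.pow ⟨hm.mem₁, hm.rd₁⟩ hp1) hν.inv.isGU₁.1
        have hcp : c ^ p = c ^ (p - 1) * c := by rw [← pow_succ, hpsucc]
        have h1 : (p : K) * c⁻¹ = c⁻¹ ^ p * ((p : K) * c ^ (p - 1)) := by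
          rw [inv_pow, hcp]
          field_simp
        have h2 : c⁻¹ ^ p = c⁻¹ ^ p * 1 := (mul_one _).symm
        have hu : ∀ i ∈ SSD.keyA A₁ A₂, algebraMap K F (Sum.elim a₁ a₂ i / c⁻¹) ∈ S.c₁.V := by
          intro i hi
          rw [map_div₀, hcinv]
          exact (hcI _ (Finset.mem_insert_of_mem (Finset.mem_image_of_mem _ hi))).1
        have hgeq : (f - 1) / algebraMap K F (c⁻¹ ^ p) =
            algebraMap K F ((p : K) * c ^ (p - 1) * (c * π)) *
              ((f - 1) / algebraMap K F ((p : K) * π)) := by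
          have e : algebraMap K F ((p : K) * c ^ (p - 1) * (c * π)) =
              algebraMap K F (c ^ p) * algebraMap K F ((p : K) * π) := by
            rw [← map_mul]
            congr 1
            rw [hcp]
            ring
          rw [e, map_pow, map_inv₀, inv_pow, div_inv_eq_mul, ← map_pow]
          field_simp
        have hκc : algebraMap K F ((p : K) * c ^ (p - 1) * (c * π)) ∈ S.c₁.V := by
          rw [map_mul]
          exact S.c₁.V.mul_mem _ _ hκM.mem₁ hm.mem₁
        have hg₁ : S.c₁.InM ((f - 1) / algebraMap K F (c⁻¹ ^ p)) := by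
          rw [hgeq]
          exact PRed.InM.mul_left hκc hf₁
        have hg₂ : S.c₂.InM ((f - 1) / algebraMap K F (c⁻¹ ^ p)) := by
          rw [hgeq]
          exact PRed.InM.mul_left ((S.const_mem _).mp hκc) hf₂
        have hφ₁ : (h - 1) / algebraMap K F c⁻¹ ∈ S.c₁.V := by
          rw [hcinv]
          exact (hcI _ (Finset.mem_insert_self _ _)).1
        have hφ₂ : (h - 1) / algebraMap K F c⁻¹ ∈ S.c₂.V := by
          rw [hcinv]
          exact (hcI _ (Finset.mem_insert_self _ _)).2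
        obtain ⟨e, he₁, he₂, hb0, hΦV, hΦrd⟩ := hK.round hP hNS hp hchar hδ hδ0 hd hd0
          hκM.mem₁ (S.isCU_one) h1 h2 a₁ a₂ hu rfl hg₁ hg₂ hφ₁ hφ₂ hhnode hord0 hf₂o₁ hf₂o₂
        rw [hκM.rd₁, zero_mul, zero_add, map_one, S.c₁.rd_one, one_mul, ← map_pow] at hΦrd
        -- `e = 0`
        have hvan : VanAt Qinf (S.c₁.rd ((f * h ^ p - 1) / algebraMap K F (c⁻¹ ^ p))) := by
          refine S.c₁.vanAt_rd hP hΦV hQinfg ?_ hPinf ?_
          · intro P hPQ
            rw [div_eq_mul_inv, ← map_inv₀]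
            exact (((regAt_of_ord_nonneg (hord0 P (hK.off_of_good₁ hQinfg hQinfA hPQ).1
              (hK.off_of_good₁ hQinfg hQinfA hPQ).2)).sub (regAt_one P)).mul
              (regAt_algebraMap P _)).ord_nonneg
          · rw [div_eq_mul_inv, ← map_inv₀]
            exact hcan.inf.mul_regAt (regAt_algebraMap Pinf _)
        rw [hΦrd] at hvan
        have hep : e ^ p = 0 := const_eq_zero_of_vanAt hvan
        have he0 : e = 0 := by
          by_contra hne
          exact pow_ne_zero p hne hep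
        rw [he0, map_zero] at he₁ he₂
        rw [hcinv] at he₁ he₂
        -- contradiction with the unit `z₀`
        rcases Finset.mem_insert.mp hz₀ with rfl | hz
        · rcases hz₀GU with hGU | hGU
          · exact hGU.2 he₁
          · exact hGU.2 he₂
        · obtain ⟨i, hi, rfl⟩ := Finset.mem_image.mp hz
          have hbi := hb0 i hi
          rw [map_div₀, hcinv] at hbi
          have hmem := (hcI _ (Finset.mem_insert_of_mem (Finset.mem_image_of_mem _ hi))).1
          rw [← map_mul] at hbi hmem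
          rcases hz₀GU with hGU | hGU
          · apply hGU.2
            rw [← map_mul]
            exact hbi
          · apply hGU.2
            rw [← map_mul]
            exact (S.rd₂_const_zero hmem hbi).2
      · exact hm.mem₁
    intro z hz
    have e : z / algebraMap K F π = algebraMap K F (c * π)⁻¹ * (algebraMap K F c * z) := by
      rw [map_inv₀, map_mul]
      field_simp
    rw [e]
    exact ⟨S.c₁.V.mul_mem _ _ hcπ (hcI z hz).1,
      S.c₂.V.mul_mem _ _ ((S.const_mem _).mp hcπ) (hcI z hz).2⟩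
  -- ROUND 2 : `a_Q / π` lies in the maximal ideal
  have hu : ∀ i ∈ SSD.keyA A₁ A₂, algebraMap K F (Sum.elim a₁ a₂ i / π) ∈ S.c₁.V := by
    intro i hi
    rw [map_div₀]
    exact (hR1 _ (Finset.mem_insert_of_mem (Finset.mem_image_of_mem _ hi))).1
  have h2 : π ^ p = (p : K) * π * (π ^ (p - 1) / (p : K)) := by
    have : π ^ p = π ^ (p - 1) * π := by rw [← pow_succ, hpsucc]
    rw [this]
    field_simp
  obtain ⟨e, -, -, hb0, -, -⟩ := hK.round hP hNS hp hchar hπM hπ0 hdπ hdπ0
    (κ := 1) (by rw [map_one]; exact S.c₁.V.one_mem) hν (mul_one _).symm h2 a₁ a₂ hu rfl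
    hf₁ hf₂ (hR1 _ (Finset.mem_insert_self _ _)).1 (hR1 _ (Finset.mem_insert_self _ _)).2
    hhnode hord0 hf₂o₁ hf₂o₂
  -- the linear regime
  have hlin : ∀ i ∈ A, ∃ ε : K, S.IsCM ε ∧ a i ^ p = p * a i * ε := by
    intro i hi
    refine ⟨(a i / π) ^ (p - 1) * (π ^ (p - 1) / (p : K)), ?_, ?_⟩
    · unfold SSD.IsCM
      rw [map_mul, map_pow]
      exact PRed.InM.mul_right (PRed.InM.pow ⟨hu i hi, hb0 i hi⟩ hp1) hν.isGU₁.1
    · have : a i ^ p = a i ^ (p - 1) * a i := by rw [← pow_succ, hpsucc]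
      rw [this, div_pow]
      have := pow_ne_zero (p - 1) hπ0
      field_simp
  exact BAD.H28.keyNodal_lin S H A₁ A₂ hA₁ hA₂ hNS s₁ s₂ hs₁ hs₂ p hp (f * h ^ p) hcan.mem₁
    hcan.mem₂ hcan.rd₁ hcan.rd₂ Pinf Qinf hQinfg hQinfA hPinf hcan.inf a₁ a₂ hcan.ha₁ hcan.ha₂
    (fun Q hQ => hlin _ (SSD.inl_mem_keyA hQ)) (fun Q hQ => hlin _ (SSD.inr_mem_keyA hQ))
    hord0 hcan.on₁ hcan.on₂

end Main

/-- **(E) TI-p.** -/
theorem stmt_TIp : Stmt_TIp := by
  intro K F k F₁ F₂ _ _ _ _ _ _ _ _ _ _ S H H₁ H₂ g g₁ g₂ c c₁ c₂ hR hR₁ hR₂ hnum p hp hchar π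
    hπp f hf₁ hf₂ hdiv hnode
  haveI : CharP k p := hchar
  have hpk : (p : k) = 0 := CharP.cast_eq_zero k p
  obtain ⟨hpK, hπ0, hν, hpM, hπM⟩ := tip_consts S hp hpk hπp
  have hdπF : algebraMap K F ((p : K) * π) ≠ 0 :=
    (map_ne_zero_iff _ (algebraMap K F).injective).mpr (mul_ne_zero hpK hπ0)
  have hdπ : S.IsCM ((p : K) * π) := by
    unfold SSD.IsCM
    rw [map_mul]
    exact PRed.InM.mul_left hpM.mem₁ ⟨hπM.mem₁, hπM.rd₁⟩
  obtain ⟨hfGU₁, hfrd₁⟩ :=
    (PRed.CongM.of_inM hdπF hf₁).isGU ⟨hdπ.mem₁, hdπ.rd₁⟩ S.c₁.V.zero_mem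
  obtain ⟨hfGU₂, hfrd₂⟩ :=
    (PRed.CongM.of_inM hdπF hf₂).isGU ⟨hdπ.mem₂, hdπ.rd₂⟩ S.c₂.V.zero_mem
  obtain ⟨Qinf, hQinf⟩ := H₁.exists_notMem S.br₁
  have hQinfg : Qinf ∈ S.c₁.good := S.good₁_of_notMem hQinf
  obtain ⟨Pinf, hPinf⟩ := S.c₁.r_surjective H.principal Qinf hQinfg
  obtain ⟨A₁, A₂, s₁, s₂, h, a₁, a₂, X₁, X₂, hd₁, hd₂, hNSA, hQinfA, -, hs₁, hs₂, hh₁, hh₂,
    hr₁, hr₂, hcan⟩ := H51.stmt_CanonP K F k F₁ F₂ S H H₁ H₂ g g₁ g₂ c c₁ c₂ hR hR₁ hR₂ hnum p
      hp hchar f hfGU₁.1 hfGU₂.1 hfrd₁ hfrd₂ hdiv hnode Pinf Qinf hQinfg hPinf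
  have hone := tip_of_canon S H hd₁ hd₂ hNSA hs₁ hs₂ hp hchar hπp hf₁ hf₂ hnode hh₁ hr₁ hh₂ hr₂
    hQinfg hQinfA hPinf hcan
  have hh0 : h ≠ 0 := by
    rintro rfl
    rw [S.c₁.rd_zero] at hr₁
    exact zero_ne_one hr₁
  refine ⟨h⁻¹, ?_⟩
  rw [inv_pow]
  exact eq_inv_of_mul_eq_one_left hone

end Fermat.Agent.BADP.H28

end
end
-- ==== END Fermat.Agent.BADP.H28_TIp

-- ==== BEGIN Fermat.Agent.BADP.H97_KGal
section

/-!
# BAD_p (S44, row 38), package ARITH (A3) (helper97): the fixed field of `I₂`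

`A` a place of `ℚ̄` over `p`, `I = A.inertiaSubgroupIn ℚ`, `K₀ = ℚ̄^I`.

* `mem_adjoin_of_fixed` : for any set `T ⊂ ℚ̄`, an element fixed by all `σ ∈ I` fixing `T`
  pointwise lies in `K₀(T)` (the inertia group is closed: `S15.Desc.H63.isClosed_inertia`,
  then the Galois correspondence of Mathlib);
* `KData`-consequences for the elements `c` of `ℚ̄` fixed by
  `I₂ = {σ ∈ I | σ ζ = ζ, σ ω = ω}` (**A3**):
  `val_of_fixed` (`v c = v θ ^ m`), `val_sigma_sub_of_fixed` (`v (σ c - c) ≤ v θ ^ 2` for `c`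
  integral), `val_sigma_div_of_fixed` (`v (σ c / c - (1 - m θ)) ≤ v θ ^ 2`), and the forms
  `stmt_A3`, `stmt_A3_int` with membership in `A`.
-/

set_option autoImplicit false
set_option linter.style.haveILetI false

namespace Fermat.Agent.BADP.H97

attribute [local instance] qbIsAlg

theorem qbIsAlgClosure : IsAlgClosure ℚ (AlgebraicClosure ℚ) :=
  ⟨inferInstance, inferInstance⟩

attribute [local instance] qbIsAlgClosure

theorem qbIsGalois : IsGalois ℚ (AlgebraicClosure ℚ) := inferInstance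

attribute [local instance] qbIsGalois

variable {A : ValuationSubring (AlgebraicClosure ℚ)} {p : ℕ}

/-- The inertia group is the group of all automorphisms fixing the inertia field. -/
theorem mem_inertia_of_fixes_K0 (hp : p.Prime) (hA : A.LiesOverPrime p)
    {σ : AlgebraicClosure ℚ ≃ₐ[ℚ] AlgebraicClosure ℚ} (hσ : ∀ x ∈ K0 A, σ x = x) :
    σ ∈ A.inertiaSubgroupIn ℚ := by
  have hcl : IsClosed ((A.inertiaSubgroupIn ℚ : Subgroup _) : Set (AlgebraicClosure ℚ ≃ₐ[ℚ]
      AlgebraicClosure ℚ)) := Fermat.Agent.S15.Desc.H63.isClosed_inertia A hp hA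
  have h1 := InfiniteGalois.fixingSubgroup_fixedField
    (⟨A.inertiaSubgroupIn ℚ, hcl⟩ : ClosedSubgroup (AlgebraicClosure ℚ ≃ₐ[ℚ] AlgebraicClosure ℚ))
  have h2 : σ ∈ (IntermediateField.fixedField (A.inertiaSubgroupIn ℚ)).fixingSubgroup := by
    rw [IntermediateField.mem_fixingSubgroup_iff]
    intro x hx
    exact hσ x hx
  rw [h1] at h2
  exact h2

/-- **Galois correspondence for the inertia group.**  An element of `ℚ̄` fixed by all elements of
the inertia group which fix the set `T` pointwise lies in `K₀(T)`. -/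
theorem mem_adjoin_of_fixed (hp : p.Prime) (hA : A.LiesOverPrime p)
    (T : Set (AlgebraicClosure ℚ)) {x : AlgebraicClosure ℚ}
    (hx : ∀ σ ∈ A.inertiaSubgroupIn ℚ, (∀ t ∈ T, σ t = t) → σ x = x) :
    x ∈ IntermediateField.adjoin (K0 A) T := by
  -- the target as an intermediate field over `ℚ`
  let T' : IntermediateField ℚ (AlgebraicClosure ℚ) :=
    (IntermediateField.adjoin (K0 A) T).toSubfield.toIntermediateField (fun r => by
      have h1 : algebraMap ℚ (AlgebraicClosure ℚ) r ∈ K0 A := by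
        rw [eq_ratCast]
        exact SubfieldClass.ratCast_mem _ r
      exact (IntermediateField.adjoin (K0 A) T).algebraMap_mem ⟨_, h1⟩)
  have hmemT' : ∀ y : AlgebraicClosure ℚ, y ∈ T' ↔ y ∈ IntermediateField.adjoin (K0 A) T :=
    fun y => Iff.rfl
  rw [← hmemT']
  have hK0 : ∀ y ∈ K0 A, y ∈ T' := fun y hy =>
    (IntermediateField.adjoin (K0 A) T).algebraMap_mem ⟨y, hy⟩
  have hT : ∀ t ∈ T, t ∈ T' := fun t ht => IntermediateField.subset_adjoin (K0 A) T ht
  rw [← InfiniteGalois.fixedField_fixingSubgroup T', IntermediateField.mem_fixedField_iff]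
  intro σ hσ
  rw [IntermediateField.mem_fixingSubgroup_iff] at hσ
  exact hx σ (mem_inertia_of_fixes_K0 hp hA fun y hy => hσ y (hK0 y hy))
    fun t ht => hσ t (hT t ht)

/-! ### A3: the arithmetic of the elements fixed by `I₂` -/

section A3

variable {ζ ω : AlgebraicClosure ℚ} {σ : AlgebraicClosure ℚ ≃ₐ[ℚ] AlgebraicClosure ℚ}

/-- The elements fixed by `I₂` lie in `K₀(ζ, ω)`. -/
theorem mem_adjoin_pair_of_fixed (hp : p.Prime) (hA : A.LiesOverPrime p)
    {c : AlgebraicClosure ℚ}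
    (hc : ∀ τ ∈ A.inertiaSubgroupIn ℚ, τ ζ = ζ → τ ω = ω → τ c = c) :
    c ∈ IntermediateField.adjoin (K0 A) {ζ, ω} := by
  refine mem_adjoin_of_fixed hp hA {ζ, ω} fun τ hτ hT => hc τ hτ (hT ζ ?_) (hT ω ?_)
  · simp
  · simp

theorem val_of_fixed (hA : A.LiesOverPrime p)
    (h : KData A.valuation (K0 A) p ζ ω (σ : AlgebraicClosure ℚ →+* AlgebraicClosure ℚ))
    {c : AlgebraicClosure ℚ} (hc0 : c ≠ 0)
    (hc : ∀ τ ∈ A.inertiaSubgroupIn ℚ, τ ζ = ζ → τ ω = ω → τ c = c) :
    ∃ m : ℤ, A.valuation c = A.valuation (theta ζ ω) ^ m :=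
  h.val_adjoin (mem_adjoin_pair_of_fixed h.prime hA hc) hc0

theorem val_sigma_sub_of_fixed (hA : A.LiesOverPrime p)
    (h : KData A.valuation (K0 A) p ζ ω (σ : AlgebraicClosure ℚ →+* AlgebraicClosure ℚ))
    {c : AlgebraicClosure ℚ} (hcA : c ∈ A)
    (hc : ∀ τ ∈ A.inertiaSubgroupIn ℚ, τ ζ = ζ → τ ω = ω → τ c = c) :
    A.valuation (σ c - c) ≤ A.valuation (theta ζ ω) ^ 2 :=
  h.val_sigma_sub_adjoin (mem_adjoin_pair_of_fixed h.prime hA hc)
    ((A.valuation_le_one_iff c).2 hcA)

theorem val_sigma_div_of_fixed (hA : A.LiesOverPrime p)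
    (h : KData A.valuation (K0 A) p ζ ω (σ : AlgebraicClosure ℚ →+* AlgebraicClosure ℚ))
    {c : AlgebraicClosure ℚ} (hc0 : c ≠ 0)
    (hc : ∀ τ ∈ A.inertiaSubgroupIn ℚ, τ ζ = ζ → τ ω = ω → τ c = c) :
    ∃ m : ℤ, A.valuation c = A.valuation (theta ζ ω) ^ m ∧
      A.valuation (σ c / c - (1 - (m : AlgebraicClosure ℚ) * theta ζ ω)) ≤
        A.valuation (theta ζ ω) ^ 2 :=
  h.val_sigma_div_adjoin (mem_adjoin_pair_of_fixed h.prime hA hc) hc0

/-- **A3**, in the form of `NOTES/plan/L_S44.md` §12.1: for `c ≠ 0` fixed by `I₂` there is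
`m : ℤ` with `c / θ ^ m` a unit of `A` and `(σ c / c - (1 - m θ)) / θ ^ 2 ∈ A`. -/
theorem stmt_A3 (hA : A.LiesOverPrime p)
    (h : KData A.valuation (K0 A) p ζ ω (σ : AlgebraicClosure ℚ →+* AlgebraicClosure ℚ))
    {c : AlgebraicClosure ℚ} (hc0 : c ≠ 0)
    (hc : ∀ τ ∈ A.inertiaSubgroupIn ℚ, τ ζ = ζ → τ ω = ω → τ c = c) :
    ∃ m : ℤ, A.valuation (c / theta ζ ω ^ m) = 1 ∧
      (σ c / c - (1 - (m : AlgebraicClosure ℚ) * theta ζ ω)) / theta ζ ω ^ 2 ∈ A := by
  obtain ⟨m, hm1, hm2⟩ := val_sigma_div_of_fixed hA h hc0 hc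
  have hθ0 : A.valuation (theta ζ ω) ≠ 0 := by
    intro h0
    have h1 := h.val_theta_pow
    rw [h0, zero_pow (Nat.mul_ne_zero h.prime.ne_zero
      (Nat.sub_ne_zero_of_lt h.prime.one_lt))] at h1
    exact h.vp_ne h1.symm
  refine ⟨m, ?_, ?_⟩
  · rw [map_div₀, map_zpow₀, hm1]
    exact div_self (zpow_ne_zero _ hθ0)
  · rw [← A.valuation_le_one_iff, map_div₀, map_pow]
    exact div_le_one_of_le₀ hm2 zero_le

/-- **A2 for constants**: for `c ∈ A` fixed by `I₂`, `(σ c - c) / θ ^ 2 ∈ A`. -/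
theorem stmt_A3_int (hA : A.LiesOverPrime p)
    (h : KData A.valuation (K0 A) p ζ ω (σ : AlgebraicClosure ℚ →+* AlgebraicClosure ℚ))
    {c : AlgebraicClosure ℚ} (hcA : c ∈ A)
    (hc : ∀ τ ∈ A.inertiaSubgroupIn ℚ, τ ζ = ζ → τ ω = ω → τ c = c) :
    (σ c - c) / theta ζ ω ^ 2 ∈ A := by
  rw [← A.valuation_le_one_iff, map_div₀, map_pow]
  exact div_le_one_of_le₀ (val_sigma_sub_of_fixed hA h hcA hc) zero_le

end A3

end Fermat.Agent.BADP.H97

end
-- ==== END Fermat.Agent.BADP.H97_KGal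

-- ==== BEGIN Fermat.Agent.FL.H21_EchExists
section

/-!
# G-FL (helper21): existence of integral echelon bases for divisors of degree `g`

For helper51's package DSTAB.

* `isEch_smul`           : transport of `IsEch` under the Galois action (the form asked for by
                           helper51; the proof is `H21_isEch_smul`);
* `finrank_L_smul`       : `l(g • D) = l(D)` for a semilinear automorphism `g`;
* `finrank_colSpace_of_ech` : the column space of an echelon matrix with `d` columns has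
                           dimension `d`;
* `finrank_L_sub_of_deg` : in a coordinate system, `l(B₁ - E) = d` for every effective `E` of
                           degree `g`, and the same for the reduction;
* `exists_isEch_of_deg`  : **every effective divisor `E` of degree `g` has an integral echelon
                           basis of the coordinates of `L(B₁ - E)` in some chart.**
-/

set_option autoImplicit false
set_option linter.unusedSectionVars false

noncomputable section

open AlgebraicCurve Matrix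

namespace Fermat.Agent.FL.H21

open Fermat.Agent.RED Fermat.Agent.RED.H17 Fermat.Agent.FL

section Semi

variable {K F : Type} [Field K] [Field F] [Algebra K F]

/-- The additive isomorphism `f ↦ g • f` from `L(D)` to `L(g • D)`. -/
def smulLEquiv (g : SemilinearAut K F) (D : Divisor K F) :
    riemannRochSpace D ≃+ riemannRochSpace (g • D) where
  toFun f := ⟨g • (f : F), (H21_smul_mem_L_iff g D f).mpr f.2⟩
  invFun f := ⟨g⁻¹ • (f : F), by
    have h := (H21_smul_mem_L_iff g D (g⁻¹ • (f : F))).mp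
    rw [smul_inv_smul] at h
    exact h f.2⟩
  left_inv f := by
    apply Subtype.ext
    show g⁻¹ • (g • (f : F)) = f
    rw [inv_smul_smul]
  right_inv f := by
    apply Subtype.ext
    show g • (g⁻¹ • (f : F)) = f
    rw [smul_inv_smul]
  map_add' f f' := by
    apply Subtype.ext
    show g • ((f : F) + (f' : F)) = g • (f : F) + g • (f' : F)
    rw [smul_add]

theorem smulLEquiv_apply (g : SemilinearAut K F) (D : Divisor K F) (f : riemannRochSpace D) :
    ((smulLEquiv g D f : riemannRochSpace (g • D)) : F) = g • (f : F) := rfl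

/-- `l(g • D) = l(D)` for a semilinear automorphism `g`. -/
theorem finrank_L_smul (g : SemilinearAut K F) (D : Divisor K F) :
    Module.finrank K (riemannRochSpace (g • D)) = Module.finrank K (riemannRochSpace D) := by
  have h := rank_eq_of_equiv_equiv (R := K) (R' := K) (SemilinearAut.baseAut g)
    (smulLEquiv g D) (SemilinearAut.baseAut g).bijective (by
      intro r m
      apply Subtype.ext
      show g • (r • (m : F)) = (SemilinearAut.baseAut g r) • (g • (m : F))
      exact H21_smul_smul_eq g r m)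
  unfold Module.finrank
  rw [h]

end Semi

section Col

variable {L : Type} [Field L]

/-- The column space of an echelon matrix with `d` columns has dimension `d`. -/
theorem finrank_colSpace_of_ech {ι : Type} [Fintype ι] {d : ℕ} (J : Fin d → ι)
    (M : Matrix ι (Fin d) L) (hM : ∀ a b, M (J a) b = if a = b then 1 else 0) :
    Module.finrank L (colSpace M) = d := by
  rw [colSpace, Matrix.range_mulVecLin,
    finrank_span_eq_card (H46.linearIndependent_col_of_ech J M hM), Fintype.card_fin]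

end Col

section Gal

variable {K F k F' : Type} [Field K] [Field F] [Algebra K F] [Field k] [Field F']
  [Algebra k F']

/-- **Transport of `IsEch`** under the Galois action (the form used in DSTAB). -/
theorem isEch_smul (S : RedSetup K F k F') {Γ : Type} [Group Γ] (G : GalRed S Γ) (σ : Γ)
    {ι : Type} [Fintype ι] {d : ℕ} (e : ι → F) (he : ∀ i, G.act σ • e i = e i)
    (hV : ∀ i, e i ∈ S.V) (D : Divisor K F) (J : Fin d → ι) (M : Matrix ι (Fin d) K)
    (h : IsEch S e D J M) :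
    IsEch S e (G.act σ • D) J (M.map (SemilinearAut.baseAut (G.act σ))) :=
  H21_isEch_smul G σ e hV he D J M h

/-- `L(B - E) ≤ span e` for a frame `e` of `L(B)` and `E ≥ 0`. -/
theorem L_sub_le_span {k₀ E₀ : Type} [Field k₀] [Field E₀] [Algebra k₀ E₀] {ι : Type}
    {e : ι → E₀} {B E : Divisor k₀ E₀} (he : IsFrameOf e B) (hE : ∀ v, 0 ≤ E v) :
    riemannRochSpace (B - E) ≤ Submodule.span k₀ (Set.range e) := by
  rw [he.2]
  intro f hf
  rw [mem_L_iff_ord] at hf ⊢
  intro v
  rcases hf v with h0 | h0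
  · exact Or.inl h0
  · right
    have hpos := hE v
    rw [Finsupp.sub_apply] at h0
    omega

/-- In a coordinate system: `d = l(B₁) - g = deg B₁ + 1 - 2 g`. -/
theorem coordSys_d_eq (S : RedSetup K F k F')
    {Γ : Type} [Group Γ] (G : GalRed S Γ) {𝒯 : Set (Pic0 K F)} (CS : CoordSys S G 𝒯) (x : 𝒯) :
    (CS.d : ℤ) = Divisor.degree CS.B₁ + 1 - 2 * CS.g := by
  obtain ⟨h1, h2, -, -⟩ := CS.hM x
  have hd : Module.finrank K (colSpace (CS.M x)) = CS.d := finrank_colSpace_of_ech _ _ h1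
  have hle : riemannRochSpace (CS.B₁ - CS.E x) ≤ Submodule.span K (Set.range CS.e₁) :=
    L_sub_le_span CS.he₁.1 (fun v => (CS.hE x).1 v)
  rw [h2, H2.finrank_coordSpace CS.he₁.1.1 hle] at hd
  have hdeg : Divisor.degree (CS.B₁ - CS.E x) = Divisor.degree CS.B₁ - CS.g := by
    rw [map_sub, (CS.hE x).2]
  have hB := CS.hB₁
  have hc := CS.hc
  have h3 := (CS.hR (CS.B₁ - CS.E x)).2 (by rw [hdeg]; omega)
  rw [hdeg, hd] at h3
  omega

/-- In a coordinate system, `l(B₁ - E) = d` for every divisor `E` of degree `g`. -/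
theorem finrank_L_sub_of_deg (S : RedSetup K F k F')
    {Γ : Type} [Group Γ] (G : GalRed S Γ) {𝒯 : Set (Pic0 K F)} (CS : CoordSys S G 𝒯) (x : 𝒯)
    (E : Divisor K F) (hdeg : Divisor.degree E = CS.g) :
    Module.finrank K (riemannRochSpace (CS.B₁ - E)) = CS.d := by
  have hd := coordSys_d_eq S G CS x
  have hdeg' : Divisor.degree (CS.B₁ - E) = Divisor.degree CS.B₁ - CS.g := by
    rw [map_sub, hdeg]
  have hB := CS.hB₁
  have hc := CS.hc
  have h3 := (CS.hR (CS.B₁ - E)).2 (by rw [hdeg']; omega)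
  rw [hdeg'] at h3
  omega

/-- In a coordinate system, `l~(r_* (B₁ - E)) = d` for every divisor `E` of degree `g`. -/
theorem finrank_L_red_sub_of_deg [IsAlgClosed K] [IsAlgClosed k] (S : RedSetup K F k F')
    (hFF : IsFF K F) (hFF' : IsFF k F')
    {Γ : Type} [Group Γ] (G : GalRed S Γ) {𝒯 : Set (Pic0 K F)} (CS : CoordSys S G 𝒯) (x : 𝒯)
    (E : Divisor K F) (hdeg : Divisor.degree E = CS.g) :
    Module.finrank k (riemannRochSpace (Finsupp.mapDomain S.r (CS.B₁ - E))) = CS.d := by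
  have H : FFHyp K F := H36.ffHyp_of_isFF K F hFF
  have H' : FFHyp k F' := H36.ffHyp_of_isFF k F' hFF'
  have hd := coordSys_d_eq S G CS x
  have hdeg' : Divisor.degree (Finsupp.mapDomain S.r (CS.B₁ - E)) =
      Divisor.degree CS.B₁ - CS.g := by
    rw [degree_mapDomain H.deg_one H'.deg_one, map_sub, hdeg]
  have hB := CS.hB₁
  have hc := CS.hc
  have h3 := (CS.hR' (Finsupp.mapDomain S.r (CS.B₁ - E))).2 (by rw [hdeg']; omega)
  rw [hdeg'] at h3
  omega

/-- **Constant echelon basis**: in a coordinate system, the coordinates of `L(B₁ - E)` have an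
integral echelon basis in some chart, for every effective divisor `E` of degree `g`. -/
theorem exists_isEch_of_deg (hEI : Stmt_EchInt) (hEU : Stmt_EchUnique)
    [IsAlgClosed K] [IsAlgClosed k] (S : RedSetup K F k F')
    (hFF : IsFF K F) (hFF' : IsFF k F') {Γ : Type} [Group Γ] (G : GalRed S Γ)
    {𝒯 : Set (Pic0 K F)} (CS : CoordSys S G 𝒯) (x : 𝒯) (E : Divisor K F) (hE : 0 ≤ E)
    (hdeg : Divisor.degree E = CS.g) :
    ∃ (J : Fin CS.d → Fin CS.n₁) (M : Matrix (Fin CS.n₁) (Fin CS.d) K),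
      IsEch S CS.e₁ (CS.B₁ - E) J M := by
  have h1 := finrank_L_sub_of_deg S G CS x E hdeg
  have h2 := finrank_L_red_sub_of_deg S hFF hFF' G CS x E hdeg
  have hle' : riemannRochSpace (Finsupp.mapDomain S.r (CS.B₁ - E)) ≤
      Submodule.span k (Set.range fun i => S.rd (CS.e₁ i)) := by
    rw [H36.mapDomain_sub']
    exact L_sub_le_span CS.he₁.2.2 (fun v => mapDomain_nonneg' S.r (fun a => hE a) v)
  have hW : Module.finrank k (coordSpace (fun i => S.rd (CS.e₁ i))
      (riemannRochSpace (Finsupp.mapDomain S.r (CS.B₁ - E)))) = CS.d := by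
    rw [H2.finrank_coordSpace CS.he₁.2.2.1 hle', h2]
  obtain ⟨J, M', hJ, hM'⟩ := (hEU k (Fin CS.n₁) CS.d).2 _ hW
  obtain ⟨M, hM, -⟩ := hEI K F k F' S hFF hFF' CS.B₁ E (Fin CS.n₁) CS.e₁ CS.he₁ hE
    (by rw [h1, h2]) CS.d J M' hJ hM'
  exact ⟨J, M, hM⟩

/-- The version with the reduction: the chart `J` and the reduced echelon basis can be
prescribed. -/
theorem exists_isEch_of_chart (hEI : Stmt_EchInt)
    [IsAlgClosed K] [IsAlgClosed k] (S : RedSetup K F k F')
    (hFF : IsFF K F) (hFF' : IsFF k F') {Γ : Type} [Group Γ] (G : GalRed S Γ)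
    {𝒯 : Set (Pic0 K F)} (CS : CoordSys S G 𝒯) (x : 𝒯) (E : Divisor K F) (hE : 0 ≤ E)
    (hdeg : Divisor.degree E = CS.g) (J : Fin CS.d → Fin CS.n₁)
    (M' : Matrix (Fin CS.n₁) (Fin CS.d) k) (hJ : ∀ a b, M' (J a) b = if a = b then 1 else 0)
    (hM' : colSpace M' = coordSpace (fun i => S.rd (CS.e₁ i))
      (riemannRochSpace (Finsupp.mapDomain S.r (CS.B₁ - E)))) :
    ∃ M : Matrix (Fin CS.n₁) (Fin CS.d) K, IsEch S CS.e₁ (CS.B₁ - E) J M ∧ M.map (rc S) = M' := by
  have h1 := finrank_L_sub_of_deg S G CS x E hdeg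
  have h2 := finrank_L_red_sub_of_deg S hFF hFF' G CS x E hdeg
  exact hEI K F k F' S hFF hFF' CS.B₁ E (Fin CS.n₁) CS.e₁ CS.he₁ hE
    (by rw [h1, h2]) CS.d J M' hJ hM'

end Gal

end Fermat.Agent.FL.H21

end
end
-- ==== END Fermat.Agent.FL.H21_EchExists

-- ==== BEGIN Fermat.Agent.FL.H22_Frame
section
attribute [local instance 10000] SubalgebraClass.toAlgebra
attribute [local instance 10000] HahnSeries.powerSeriesAlgebra

/-!
# G-FL, package MOD-FRAME (helper22), part 3: rational frames of `L(b ∞)`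

Setting: `F = F_N · ℚ̄ ⊆ ℚ̄((q))`, `A` a valuation subring of `ℚ̄`, `V` the Gauss valuation ring of
`F`, `r` a map of places with the conservation law, `S = H17.redSetupOf A h r hr`.

* `linearIndependent_of_rd`: functions of `V` with linearly independent reductions are linearly
  independent;
* `exists_frame`: if `l~(b · r ∞) ≤ l(b ∞)` then `L(b ∞)` has a basis `e` of Gauss-integral
  functions with rational `q`-expansions whose reductions are a basis of `L~(b · r ∞)`
  (the saturated lattice of the rational integral functions: LAT over `(ℚ, A ∩ ℚ)`);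
* `hasRatFrames_of`: `HasRatFrames S G` for every Galois context `G` acting through the
  arithmetic Galois action.
-/

set_option autoImplicit false
set_option linter.style.haveILetI false
set_option linter.unusedSectionVars false
set_option synthInstance.maxHeartbeats 400000
set_option maxHeartbeats 1000000

open ModularCurve AlgebraicCurve Fermat.Agent.S28 Fermat.Agent.S28.H73 Fermat.Agent.RED.H73

noncomputable section

namespace Fermat.Agent.FL.H22

open Fermat.Agent.RED Fermat.Agent.RED.H17 Fermat.Agent.S17 Fermat.Agent.S17.H35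
  Fermat.Agent.RED.KD.H22 Fermat.Agent.S24

local notation "L" => riemannRochSpace

/-! ## Independence of the reductions implies independence -/

section Abs

variable {K F k F' : Type} [Field K] [Field F] [Algebra K F] [Field k] [Field F']
  [Algebra k F'] (S : RedSetup K F k F')

theorem red_sum_mul {ι : Type} (s : Finset ι) (a u : ι → F) (ha : ∀ i, a i ∈ S.V)
    (hu : ∀ i, u i ∈ S.V) :
    ∃ hmem : ∑ i ∈ s, a i * u i ∈ S.V,
      S.red ⟨_, hmem⟩ = ∑ i ∈ s, S.red ⟨a i, ha i⟩ * S.red ⟨u i, hu i⟩ := by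
  have h1 : ((∑ i ∈ s, (⟨a i, ha i⟩ : S.V) * ⟨u i, hu i⟩ : S.V) : F) = ∑ i ∈ s, a i * u i :=
    map_sum S.V.subtype _ _
  refine ⟨h1 ▸ (∑ i ∈ s, (⟨a i, ha i⟩ : S.V) * ⟨u i, hu i⟩ : S.V).2, ?_⟩
  have h2 : (⟨∑ i ∈ s, a i * u i, h1 ▸ (∑ i ∈ s, (⟨a i, ha i⟩ : S.V) * ⟨u i, hu i⟩ : S.V).2⟩
      : S.V) = ∑ i ∈ s, (⟨a i, ha i⟩ : S.V) * ⟨u i, hu i⟩ := Subtype.ext h1.symm
  rw [h2, map_sum]
  exact Finset.sum_congr rfl fun i _ => map_mul _ _ _

/-- Functions of the Gauss ring with linearly independent reductions are linearly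
independent. -/
theorem linearIndependent_of_rd {ι : Type} [Fintype ι] (u : ι → F) (hu : ∀ i, u i ∈ S.V)
    (h : LinearIndependent k (fun i => S.rd (u i))) : LinearIndependent K u := by
  rw [Fintype.linearIndependent_iff]
  intro c hc
  by_contra hne
  have hc0 : c ≠ 0 := by
    intro h0
    apply hne
    intro i
    rw [h0]
    rfl
  obtain ⟨m, hm0, hm⟩ := H42.exists_max_coeff (constVal S) c hc0
  have ha : ∀ i, algebraMap K F (c i * (c m)⁻¹) ∈ S.V := fun i => (mem_constVal S _).mp (hm i)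
  have hsum : ∑ i, algebraMap K F (c i * (c m)⁻¹) * u i = 0 := by
    have h1 : ∀ i, algebraMap K F (c i * (c m)⁻¹) * u i
        = algebraMap K F (c m)⁻¹ * (c i • u i) := by
      intro i
      rw [map_mul, Algebra.smul_def]
      ring
    rw [Finset.sum_congr rfl fun i _ => h1 i, ← Finset.mul_sum, hc, mul_zero]
  obtain ⟨hmem, hred⟩ := red_sum_mul S Finset.univ (fun i => algebraMap K F (c i * (c m)⁻¹)) u ha hu
  have h0 : S.red ⟨_, hmem⟩ = 0 := by
    have : (⟨_, hmem⟩ : S.V) = 0 := Subtype.ext hsum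
    rw [this, map_zero]
  rw [h0] at hred
  choose γ hγ using fun i => S.red_const (c i * (c m)⁻¹) (ha i)
  have h2 : ∑ i, γ i • S.rd (u i) = 0 := by
    rw [hred]
    refine Finset.sum_congr rfl fun i _ => ?_
    rw [Algebra.smul_def, ← hγ i, S.rd_of_mem (hu i)]
  have h3 := Fintype.linearIndependent_iff.mp h γ h2 m
  have h4 := hγ m
  have h5 : (⟨algebraMap K F (c m * (c m)⁻¹), ha m⟩ : S.V) = 1 := by
    apply Subtype.ext
    show algebraMap K F (c m * (c m)⁻¹) = 1
    rw [mul_inv_cancel₀ hm0, map_one]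
  rw [h5, map_one, h3, map_zero] at h4
  exact one_ne_zero h4

end Abs

/-! ## Orthonormal bases of a span, in terms of series -/

section Ortho

variable {C : Type} [Field C] (O : ValuationSubring C)
  {F₀ : IntermediateField C (LaurentSeries C)}

theorem coe_sum_smul_C {d : ℕ} (q : Fin d → C) (y : Fin d → ↥F₀) :
    ((∑ j, q j • y j : ↥F₀) : LaurentSeries C)
      = ∑ j, HahnSeries.C (q j) * ((y j : ↥F₀) : LaurentSeries C) := by
  rw [H42.coe_sum_smul]
  exact Finset.sum_congr rfl fun j _ => (HahnSeries.C_mul_eq_smul).symm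

/-- **LAT** for the span of a linearly independent family, in terms of series. -/
theorem exists_orthonormal_span (hFS : H42.FracScalable O F₀) (h₀ : HasScale O F₀) {d : ℕ}
    (y : Fin d → ↥F₀)
    (hy : ∀ q : Fin d → C,
      ∑ j, HahnSeries.C (q j) * ((y j : ↥F₀) : LaurentSeries C) = 0 → ∀ j, q j = 0) :
    ∃ e₀ : Fin d → ↥(gaussValSub O F₀ h₀),
      LinearIndependent (kV O) (fun i => gaussResF' O h₀ (e₀ i)) ∧
      ∀ i, ∃ q : Fin d → C, (((e₀ i : ↥(gaussValSub O F₀ h₀)) : ↥F₀) : LaurentSeries C)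
        = ∑ j, HahnSeries.C (q j) * ((y j : ↥F₀) : LaurentSeries C) := by
  have hy_li : LinearIndependent C y := by
    rw [Fintype.linearIndependent_iff]
    intro q hq
    apply hy q
    rw [← coe_sum_smul_C, hq]
    rfl
  haveI : FiniteDimensional C (Submodule.span C (Set.range y)) :=
    FiniteDimensional.span_of_finite C (Set.finite_range y)
  have hWdim : Module.finrank C (Submodule.span C (Set.range y)) = d := by
    rw [finrank_span_eq_card hy_li, Fintype.card_fin]
  obtain ⟨e', he'⟩ := H42.exists_isOrthonormalF O hFS h₀ (Submodule.span C (Set.range y))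
  refine ⟨fun i => e' (Fin.cast hWdim.symm i), ?_, fun i => ?_⟩
  · exact he'.indep.comp _ (Fin.cast_injective _)
  · have h1 := he'.mem (Fin.cast hWdim.symm i)
    obtain ⟨q, hq⟩ := (Submodule.mem_span_range_iff_exists_fun C).mp h1
    refine ⟨q, ?_⟩
    rw [← coe_sum_smul_C, hq]

end Ortho

/-! ## Extension of coefficients from `F_N` to `F_N · ℚ̄` -/

section BCF

variable (N : ℕ) [NeZero N]

/-- The extension of coefficients `F_N → F_N · ℚ̄`. -/
def bcF (y : ↥(modularFunctionFieldFull N)) : FN N :=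
  ⟨coeffEmb Kbar (y : LaurentSeries ℚ), coeffEmb_mem_laurentBaseChange Kbar y.2⟩

@[simp] theorem coe_bcF (y : ↥(modularFunctionFieldFull N)) :
    ((bcF N y : FN N) : LaurentSeries Kbar) = coeffEmb Kbar (y : LaurentSeries ℚ) := rfl

theorem coeffEmb_C (q : ℚ) :
    coeffEmb Kbar (HahnSeries.C q : LaurentSeries ℚ) = HahnSeries.C (algebraMap ℚ Kbar q) := by
  rw [coeffEmb]
  exact coeffMap_single _ 0 q

/-- `coeffEmb` of a rational linear combination. -/
theorem coeffEmb_sum_C_mul {d : ℕ} (q : Fin d → ℚ) (x : Fin d → LaurentSeries ℚ) :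
    coeffEmb Kbar (∑ j, HahnSeries.C (q j) * x j)
      = ∑ j, HahnSeries.C (algebraMap ℚ Kbar (q j)) * coeffEmb Kbar (x j) := by
  rw [map_sum]
  refine Finset.sum_congr rfl fun j _ => ?_
  rw [map_mul, coeffEmb_C]

theorem coe_sum_smul_FN {d : ℕ} (a : Fin d → Kbar) (f : Fin d → FN N) :
    ((∑ j, a j • f j : FN N) : LaurentSeries Kbar)
      = ∑ j, HahnSeries.C (a j) * ((f j : FN N) : LaurentSeries Kbar) := by
  rw [H42.coe_sum_smul]
  exact Finset.sum_congr rfl fun j _ => (HahnSeries.C_mul_eq_smul).symm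

end BCF

/-! ## The frames -/

section Main

variable (N : ℕ) [NeZero N] (A : ValuationSubring Kbar)

theorem bcF_mem_gaussValSub
    (y : ↥(gaussValSub (subV ℚ A) (modularFunctionFieldFull N) (hasScale_full _ N))) :
    bcF N (y : ↥(modularFunctionFieldFull N)) ∈
      gaussValSub A (modularFunctionFieldBar N) (hasScale_laurentBaseChange A N) := by
  rw [mem_gaussValSub_iff]
  have h1 : (((y : ↥(modularFunctionFieldFull N)) : LaurentSeries ℚ)) ∈ gaussRingV (subV ℚ A) :=
    (mem_gaussValSub_iff _ _ _).mp y.2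
  exact bc_mem_gaussRingV A h1

theorem gaussResF'_bcF
    (y : ↥(gaussValSub (subV ℚ A) (modularFunctionFieldFull N) (hasScale_full _ N))) :
    ((gaussResF' A (hasScale_laurentBaseChange A N) ⟨bcF N y, bcF_mem_gaussValSub N A y⟩ :
        ↥(redField A (modularFunctionFieldBar N) (hasScale_laurentBaseChange A N))) :
        LaurentSeries (kV A))
      = coeffMap (resMap A)
        ((gaussResF' (subV ℚ A) (hasScale_full _ N) y :
          ↥(redField (subV ℚ A) (modularFunctionFieldFull N) (hasScale_full _ N))) :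
          LaurentSeries (kV (subV ℚ A))) := by
  have h1 : (((y : ↥(modularFunctionFieldFull N)) : LaurentSeries ℚ)) ∈ gaussRingV (subV ℚ A) :=
    (mem_gaussValSub_iff _ _ _).mp y.2
  exact gaussRedV_bc A h1

/-- The reductions of the extensions of coefficients of an orthonormal family are linearly
independent over the big residue field. -/
theorem linearIndependent_red_bcF {n : ℕ}
    (e : Fin n → ↥(gaussValSub (subV ℚ A) (modularFunctionFieldFull N) (hasScale_full _ N)))
    (he : LinearIndependent (kV (subV ℚ A))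
      (fun i => gaussResF' (subV ℚ A) (hasScale_full _ N) (e i))) :
    LinearIndependent (kV A) (fun i => gaussResF' A (hasScale_laurentBaseChange A N)
      ⟨bcF N (e i), bcF_mem_gaussValSub N A (e i)⟩) := by
  have h1 : LinearIndependent (kV (subV ℚ A))
      (fun i => ((gaussResF' (subV ℚ A) (hasScale_full _ N) (e i) :
        ↥(redField (subV ℚ A) (modularFunctionFieldFull N) (hasScale_full _ N))) :
        LaurentSeries (kV (subV ℚ A)))) :=
    he.map' (H42.valL _) (LinearMap.ker_eq_bot.mpr (H42.valL_injective _))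
  letI : Algebra (kV (subV ℚ A)) (kV A) := (resMap A).toAlgebra
  have h2 := linearIndependent_bc (k := kV A) h1
  refine LinearIndependent.of_comp (H42.valL _) ?_
  have h3 : (H42.valL (redField A (modularFunctionFieldBar N) (hasScale_laurentBaseChange A N)))
      ∘ (fun i => gaussResF' A (hasScale_laurentBaseChange A N)
        ⟨bcF N (e i), bcF_mem_gaussValSub N A (e i)⟩)
      = fun i => bc (kV (subV ℚ A)) (kV A)
        ((gaussResF' (subV ℚ A) (hasScale_full _ N) (e i) :
          ↥(redField (subV ℚ A) (modularFunctionFieldFull N) (hasScale_full _ N))) :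
          LaurentSeries (kV (subV ℚ A))) := by
    funext i
    exact gaussResF'_bcF N A (e i)
  rw [h3]
  exact h2

/-- **MOD-FRAME, core**: if `l~(b · r ∞) ≤ l(b ∞)`, then `L(b ∞)` has a basis of Gauss-integral
functions with rational `q`-expansions whose reductions are a basis of `L~(b · r ∞)`. -/
theorem exists_frame [IsAlgClosed (kV A)]
    (hFF' : IsFF (kV A)
      ↥(redField A (modularFunctionFieldBar N) (hasScale_laurentBaseChange A N)))
    {r : Place Kbar (FN N) →
      Place (kV A) ↥(redField A (modularFunctionFieldBar N) (hasScale_laurentBaseChange A N))}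
    (hr : IsRed A (hasScale_laurentBaseChange A N) r) (b : ℕ)
    (hb : Module.finrank (kV A) (L (Finsupp.single (r (cuspInf N)) (b : ℤ))) ≤
      Module.finrank Kbar (L (Finsupp.single (cuspInf N) (b : ℤ)))) :
    ∃ (n : ℕ) (e : Fin n → FN N), IsFrameOf e (Finsupp.single (cuspInf N) (b : ℤ)) ∧
      (∀ i, e i ∈ (redSetupOf A (hasScale_laurentBaseChange A N) r hr).V) ∧
      (∀ i, ∃ y : LaurentSeries ℚ, coeffEmb Kbar y = (e i : LaurentSeries Kbar)) ∧
      IsFrameOf (fun i => (redSetupOf A (hasScale_laurentBaseChange A N) r hr).rd (e i))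
        (Finsupp.single (r (cuspInf N)) (b : ℤ)) := by
  classical
  set S := redSetupOf A (hasScale_laurentBaseChange A N) r hr with hS
  have hFF : IsFF Kbar (FN N) := Fermat.Agent.RED.H95.stmt_HKA_isFF N
  have H : FFHyp Kbar (FN N) := ffHyp_of_isFF Kbar (FN N) hFF
  have H' : FFHyp (kV A)
      ↥(redField A (modularFunctionFieldBar N) (hasScale_laurentBaseChange A N)) :=
    ffHyp_of_isFF _ _ hFF'
  -- the rational basis of helper35
  set C := ratCtxMod N with hC
  set d := C.ratDim b with hd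
  have hkP : C.kP (b : ℤ) = Finsupp.single (cuspInf N) (b : ℤ) := rfl
  have hf_li : LinearIndependent Kbar (fun i : Fin d => C.ratSeq i) := C.ratSeq_li b
  have hf_span : Submodule.span Kbar (Set.range fun i : Fin d => C.ratSeq i)
      = L (Finsupp.single (cuspInf N) (b : ℤ)) := C.ratSeq_span b
  have hdim : Module.finrank Kbar (L (Finsupp.single (cuspInf N) (b : ℤ))) = d :=
    C.finrank_L_kP b
  choose y hy using fun i : Fin d => exists_rat_of_fixed N (C.ratSeq_fixed (i : ℕ))
  -- the rational functions `y` are linearly independent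
  have hy_li : ∀ q : Fin d → ℚ,
      ∑ j, HahnSeries.C (q j) * ((y j : ↥(modularFunctionFieldFull N)) : LaurentSeries ℚ) = 0 →
        ∀ j, q j = 0 := by
    intro q hq j
    have h1 := coeffEmb_sum_C_mul q (fun j => ((y j : ↥(modularFunctionFieldFull N))
      : LaurentSeries ℚ))
    rw [hq, map_zero] at h1
    have h3 : ∑ j : Fin d, algebraMap ℚ Kbar (q j) • C.ratSeq (j : ℕ) = 0 := by
      apply Subtype.ext
      rw [coe_sum_smul_FN]
      have h5 : ∑ j : Fin d, HahnSeries.C (algebraMap ℚ Kbar (q j))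
          * ((C.ratSeq (j : ℕ) : FN N) : LaurentSeries Kbar)
          = ∑ j : Fin d, HahnSeries.C (algebraMap ℚ Kbar (q j))
            * coeffEmb Kbar ((y j : ↥(modularFunctionFieldFull N)) : LaurentSeries ℚ) :=
        Finset.sum_congr rfl fun j _ => by rw [hy j]
      rw [h5, ← h1]
      rfl
    have h4 := Fintype.linearIndependent_iff.mp hf_li _ h3 j
    exact (algebraMap ℚ Kbar).injective (by rw [h4, map_zero])
  -- the orthonormal basis
  obtain ⟨e₀, he_li, he_mem⟩ := exists_orthonormal_span (subV ℚ A) (fracScalable_full _ N)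
    (hasScale_full _ N) y hy_li
  have hEV : ∀ i, bcF N (e₀ i) ∈ S.V := fun i => bcF_mem_gaussValSub N A (e₀ i)
  have hEL : ∀ i, bcF N (e₀ i) ∈ L (Finsupp.single (cuspInf N) (b : ℤ)) := by
    intro i
    obtain ⟨q, hq⟩ := he_mem i
    have h1 : bcF N (e₀ i) = ∑ j : Fin d, algebraMap ℚ Kbar (q j) • C.ratSeq (j : ℕ) := by
      apply Subtype.ext
      rw [coe_sum_smul_FN, coe_bcF, hq, coeffEmb_sum_C_mul]
      exact Finset.sum_congr rfl fun j _ => by rw [hy j]
    rw [h1, ← hf_span]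
    exact Submodule.sum_mem _ fun j _ =>
      Submodule.smul_mem _ _ (Submodule.subset_span ⟨j, rfl⟩)
  have hrd : ∀ i, S.rd (bcF N (e₀ i)) = gaussResF' A (hasScale_laurentBaseChange A N)
      ⟨bcF N (e₀ i), bcF_mem_gaussValSub N A (e₀ i)⟩ := fun i => S.rd_of_mem (hEV i)
  have hrd_li : LinearIndependent (kV A) (fun i => S.rd (bcF N (e₀ i))) := by
    have := linearIndependent_red_bcF N A e₀ he_li
    rw [show (fun i => S.rd (bcF N (e₀ i))) = fun i => gaussResF' A
      (hasScale_laurentBaseChange A N) ⟨bcF N (e₀ i), bcF_mem_gaussValSub N A (e₀ i)⟩ from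
      funext hrd]
    exact this
  have hE_li : LinearIndependent Kbar (fun i => bcF N (e₀ i)) :=
    linearIndependent_of_rd S _ hEV hrd_li
  haveI : Module.Finite Kbar (L (Finsupp.single (cuspInf N) (b : ℤ))) := H.finite _
  haveI : Module.Finite (kV A) (L (Finsupp.single (r (cuspInf N)) (b : ℤ))) := H'.finite _
  have hrdL : ∀ i, S.rd (bcF N (e₀ i)) ∈ L (Finsupp.single (r (cuspInf N)) (b : ℤ)) := by
    intro i
    have h1 := S.Rsub_le H.principal (Finsupp.single (cuspInf N) (b : ℤ))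
      ⟨bcF N (e₀ i), hEV i, hEL i, rfl⟩
    rw [Finsupp.mapDomain_single] at h1
    exact h1
  refine ⟨d, fun i => bcF N (e₀ i), ⟨hE_li, ?_⟩, hEV, fun i => ⟨_, rfl⟩, ⟨hrd_li, ?_⟩⟩
  · refine Submodule.eq_of_le_of_finrank_eq ?_ ?_
    · rw [Submodule.span_le]
      rintro _ ⟨i, rfl⟩
      exact hEL i
    · rw [finrank_span_eq_card hE_li, Fintype.card_fin, hdim]
  · refine Submodule.eq_of_le_of_finrank_le ?_ ?_
    · rw [Submodule.span_le]
      rintro _ ⟨i, rfl⟩
      exact hrdL i
    · rw [finrank_span_eq_card hrd_li, Fintype.card_fin]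
      exact hb.trans hdim.le

/-- **MOD-FRAME**: `HasRatFrames` for every Galois context acting through the arithmetic
Galois action, if the genus does not drop. -/
theorem hasRatFrames_of [IsAlgClosed (kV A)]
    (hFF' : IsFF (kV A)
      ↥(redField A (modularFunctionFieldBar N) (hasScale_laurentBaseChange A N)))
    {r : Place Kbar (FN N) →
      Place (kV A) ↥(redField A (modularFunctionFieldBar N) (hasScale_laurentBaseChange A N))}
    (hr : IsRed A (hasScale_laurentBaseChange A N) r)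
    (hG : GenusLE A (hasScale_laurentBaseChange A N) r) {Γ : Type} [Group Γ]
    (G : GalRed (redSetupOf A (hasScale_laurentBaseChange A N) r hr) Γ)
    (hGal : ∀ σ : Γ, ∃ τ : Kbar ≃ₐ[ℚ] Kbar,
      G.act σ = arithmeticGalois (modularFunctionFieldFull N) τ) :
    HasRatFrames (redSetupOf A (hasScale_laurentBaseChange A N) r hr) G := by
  obtain ⟨c, hc⟩ := hG
  have hFF : IsFF Kbar (FN N) := Fermat.Agent.RED.H95.stmt_HKA_isFF N
  have H : FFHyp Kbar (FN N) := ffHyp_of_isFF Kbar (FN N) hFF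
  refine ⟨cuspInf N, fun σ => ?_, c.toNat, fun b hb => ?_⟩
  · obtain ⟨τ, hτ⟩ := hGal σ
    rw [hτ]
    exact smul_cuspInf N τ
  · have hdeg : c ≤ Divisor.degree (Finsupp.single (cuspInf N) (b : ℤ)) := by
      rw [Divisor.degree_single, H.deg_one]
      have : c.toNat ≤ b := hb
      omega
    have hb' := hc _ hdeg
    rw [Finsupp.mapDomain_single] at hb'
    obtain ⟨n, e, h1, h2, h3, h4⟩ := exists_frame N A hFF' hr b hb'
    refine ⟨n, e, h1, h2, fun σ i => ?_, h4⟩
    obtain ⟨τ, hτ⟩ := hGal σ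
    obtain ⟨y, hy⟩ := h3 i
    rw [hτ]
    apply Subtype.ext
    rw [coe_arithmeticGalois_smul, ← hy, coeffMap_coeffEmb]

end Main

end Fermat.Agent.FL.H22

end
end
-- ==== END Fermat.Agent.FL.H22_Frame

-- ==== BEGIN Fermat.Agent.Lib.HopfOrderLoc.Chars
section

/-!
# Residue characters on the fixed integers (item 71, helper32)

`fixInt H` is the ring of algebraic integers fixed by the subgroup `H` of the Galois group.
For `γ` in the Galois group, `resChar A H γ : fixInt H →+* A/m_A` is `x ↦ γ x mod m_A`.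

* `resChar_eq_iff` : two characters agree at `x` iff `γ x - γ' x` lies in the maximal ideal.
* `exists_finsupp_resChar` : if the characters `resChar A H (r a)`, `a` in a finite set, are
  pairwise distinct, then every vector `t` is a linear combination of the vectors
  `(resChar A H (r a) x)_a`  (Dedekind's independence of characters).
-/

set_option autoImplicit false
set_option linter.style.haveILetI false
set_option linter.unusedSectionVars false

namespace Fermat.Agent.Lib.HopfOrderLoc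

open Fermat.Agent.Lib.FrobExists

local notation "K" => AlgebraicClosure ℚ
local notation "GQ" => (AlgebraicClosure ℚ ≃ₐ[ℚ] AlgebraicClosure ℚ)

/-- The ring of algebraic integers fixed by `H`. -/
def fixInt (H : Subgroup GQ) : Subring K where
  carrier := {x | IsIntegral ℤ x ∧ ∀ η ∈ H, η x = x}
  mul_mem' := fun {a b} ha hb => ⟨ha.1.mul hb.1, fun η hη => by
    rw [map_mul, ha.2 η hη, hb.2 η hη]⟩
  one_mem' := ⟨isIntegral_one, fun η _ => map_one η⟩
  add_mem' := fun {a b} ha hb => ⟨ha.1.add hb.1, fun η hη => by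
    rw [map_add, ha.2 η hη, hb.2 η hη]⟩
  zero_mem' := ⟨isIntegral_zero, fun η _ => map_zero η⟩
  neg_mem' := fun {a} ha => ⟨ha.1.neg, fun η hη => by rw [map_neg, ha.2 η hη]⟩

lemma mem_fixInt (H : Subgroup GQ) (x : K) :
    x ∈ fixInt H ↔ IsIntegral ℤ x ∧ ∀ η ∈ H, η x = x := Iff.rfl

/-- Conjugates of algebraic integers lie in every valuation subring. -/
lemma map_mem_of_isIntegral (A : ValuationSubring K) (γ : GQ) (x : K) (hx : IsIntegral ℤ x) :
    γ x ∈ A :=
  (A.valuation_le_one_iff _).mp (valuation_le_one_of_isIntegral A _ (map_isIntegral_int γ hx))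

/-- The ring homomorphism `x ↦ γ x` from the fixed integers to `A`. -/
noncomputable def conjHom (A : ValuationSubring K) (H : Subgroup GQ) (γ : GQ) :
    ↥(fixInt H) →+* ↥A :=
  RingHom.codRestrict ((γ : K →+* K).comp (fixInt H).subtype) A
    (fun x => map_mem_of_isIntegral A γ x x.2.1)

lemma conjHom_coe (A : ValuationSubring K) (H : Subgroup GQ) (γ : GQ) (x : ↥(fixInt H)) :
    ((conjHom A H γ x : ↥A) : K) = γ (x : K) := rfl

/-- The residue character `x ↦ γ x mod m_A`. -/
noncomputable def resChar (A : ValuationSubring K) (H : Subgroup GQ) (γ : GQ) :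
    ↥(fixInt H) →+* IsLocalRing.ResidueField ↥A :=
  (IsLocalRing.residue ↥A).comp (conjHom A H γ)

lemma resChar_apply (A : ValuationSubring K) (H : Subgroup GQ) (γ : GQ) (x : ↥(fixInt H)) :
    resChar A H γ x = IsLocalRing.residue ↥A (conjHom A H γ x) := rfl

/-- Equality of residues in terms of the valuation. -/
lemma residue_eq_iff (A : ValuationSubring K) (a b : ↥A) :
    IsLocalRing.residue ↥A a = IsLocalRing.residue ↥A b ↔
      A.valuation ((a : K) - (b : K)) < 1 := by
  rw [← sub_eq_zero, ← map_sub, IsLocalRing.residue_eq_zero_iff,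
    ValuationSubring.valuation_lt_one_iff]
  rfl

lemma resChar_eq_iff (A : ValuationSubring K) (H : Subgroup GQ) (γ γ' : GQ)
    (x : ↥(fixInt H)) :
    resChar A H γ x = resChar A H γ' x ↔ A.valuation (γ (x : K) - γ' (x : K)) < 1 := by
  rw [resChar_apply, resChar_apply, residue_eq_iff]
  rfl

/-- **Independence of characters**: if the residue characters `resChar A H (r a)` are pairwise
distinct, every vector is a linear combination of their value vectors. -/
theorem exists_finsupp_resChar (A : ValuationSubring K) (H : Subgroup GQ)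
    {I₀ : Type} [Fintype I₀] (r : I₀ → GQ)
    (hinj : Function.Injective (fun a => resChar A H (r a)))
    (t : I₀ → IsLocalRing.ResidueField ↥A) :
    ∃ c : ↥(fixInt H) →₀ IsLocalRing.ResidueField ↥A,
      ∀ a, (c.sum fun x b => b * resChar A H (r a) x) = t a := by
  classical
  -- linear independence of the characters
  have hli : LinearIndependent (IsLocalRing.ResidueField ↥A)
      (fun a : I₀ => (resChar A H (r a) : ↥(fixInt H) → IsLocalRing.ResidueField ↥A)) := by
    have h1 := linearIndependent_monoidHom ↥(fixInt H) (IsLocalRing.ResidueField ↥A)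
    have hinj' : Function.Injective
        (fun a : I₀ => ((resChar A H (r a)) : ↥(fixInt H) →* IsLocalRing.ResidueField ↥A)) := by
      intro a b hab
      apply hinj
      ext x
      exact DFunLike.congr_fun hab x
    exact h1.comp _ hinj'
  -- the value vectors
  let ev : ↥(fixInt H) → (I₀ → IsLocalRing.ResidueField ↥A) := fun x a => resChar A H (r a) x
  have htop : Submodule.span (IsLocalRing.ResidueField ↥A) (Set.range ev) = ⊤ := by
    by_contra hne
    obtain ⟨f, hf0, hf⟩ := Submodule.exists_le_ker_of_lt_top _ (lt_top_iff_ne_top.mpr hne)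
    apply hf0
    let g : I₀ → IsLocalRing.ResidueField ↥A := fun a => f (fun j => if a = j then 1 else 0)
    have hzero : ∀ a, g a = 0 := by
      rw [Fintype.linearIndependent_iff] at hli
      apply hli
      funext x
      have h2 : f (ev x) = 0 := hf (Submodule.subset_span ⟨x, rfl⟩)
      rw [LinearMap.pi_apply_eq_sum_univ f (ev x)] at h2
      simp only [Finset.sum_apply, Pi.smul_apply, smul_eq_mul, Pi.zero_apply]
      calc ∑ a, g a * resChar A H (r a) x
          = ∑ a, ev x a • f (fun j => if a = j then 1 else 0) := by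
            apply Finset.sum_congr rfl
            intro a _
            rw [smul_eq_mul, mul_comm]
        _ = 0 := h2
    refine LinearMap.ext fun v => ?_
    rw [LinearMap.pi_apply_eq_sum_univ f v]
    have hz' : ∀ a, f (fun j => if a = j then 1 else 0) = 0 := hzero
    simp [hz']
  have ht : t ∈ Submodule.span (IsLocalRing.ResidueField ↥A) (Set.range ev) := by
    rw [htop]; exact Submodule.mem_top
  obtain ⟨c, hc⟩ := Finsupp.mem_span_range_iff_exists_finsupp.mp ht
  refine ⟨c, fun a => ?_⟩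
  have := congrFun hc a
  rw [Finsupp.sum, Finset.sum_apply] at this
  rw [Finsupp.sum]
  exact this

end Fermat.Agent.Lib.HopfOrderLoc

end
-- ==== END Fermat.Agent.Lib.HopfOrderLoc.Chars
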