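-- GENERATED (merged mirror, NOTES/tools/trim/merge3_helper67.py): 6 modules of the originals, bodies verbatim.
import Fermat.Agent.Zm.S33_L06_000
import Fermat.Agent.Zm.S33_L07_000
import Fermat.Agent.Zm.S33_L03_000
import Fermat.Agent.Zm.S33_L07_002
import Fermat.Agent.FL.H2_Coord
import Fermat.Agent.FL.H46_Bundle
import Fermat.Agent.Zm.S33_L07_004

-- ==== BEGIN Fermat.Agent.BADP.H19_AbsP
section

/-!
# S33, `p`-new case: the abstract form of (T3) is PROVED (helper19)

`stmt_ABSP : BADP.H86.Stmt_ABSP`, from MOVE-p + CANON-p (helper51), NS-STEP (helper18),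
TORIC-CHI (helper97), TI-p (helper28) and the wiring `absP_of_tIpX`.
-/

set_option autoImplicit false

namespace Fermat.Agent.BADP.H19

/-- **(T3), abstract form.** -/
theorem stmt_ABSP : H86.Stmt_ABSP := absP_of_tIpX H28.stmt_TIp

end Fermat.Agent.BADP.H19

end
-- ==== END Fermat.Agent.BADP.H19_AbsP

-- ==== BEGIN Fermat.Agent.BADP.H97_K3Q
section

/-!
# BAD_p (S44, row 38), package K-ARITH, part 4 (helper97): `K₃ = K₀(ω)` and `K₁ = K₀(ζ)` in `ℚ̄`

* `val_pi_pow_div` : `v (π ^ (p - 1) / p + 1) < 1` for `p` odd (any valued field; Wilson);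
* `exists_k3sum_of_fixed` : an element `c` of `ℚ̄` fixed by `I₃ = {σ ∈ I | σ ω = ω}` is
  `∑_{l < p} g l ϖ ^ l` with `g l ∈ K₀`, and `g l ∈ A` if `c ∈ A`
  (`ℚ̄^{I₃} ∩ A = ⊕ (K₀ ∩ A) ϖ ^ l`);
* the hypotheses (A0), (A2), (A3) of Key-p for the constants fixed by `I₃`:
  `val_sigma_sub_of_fixed3`, `val_small_of_fixed3`, `val_sigma_sub_div_of_fixed3`,
  `val_small_sq_of_fixed3`;
* `exists_k1sum_of_mem_field`, `val_k1` (abstract) and `val_of_fixed1` : the value group of
  `K₁ = ℚ̄^{I₁}`, `I₁ = {σ ∈ I | σ ζ = ζ}`, is generated by `v π` (tame case).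
-/

set_option autoImplicit false
set_option linter.style.haveILetI false

open Finset

namespace Fermat.Agent.BADP.H97

variable {L : Type*} [Field L]

/-! ### `π ^ (p - 1) / p ≡ -1` -/

section Wilson

variable {Γ₀ : Type*} [LinearOrderedCommGroupWithZero Γ₀] (v : Valuation L Γ₀)

/-- Products of congruent integral elements are congruent. -/
theorem val_prod_sub_prod_lt {ι : Type*} (s : Finset ι) (a b : ι → L)
    (ha : ∀ i ∈ s, v (a i) ≤ 1) (hb : ∀ i ∈ s, v (b i) ≤ 1)
    (hab : ∀ i ∈ s, v (a i - b i) < 1) : v (∏ i ∈ s, a i - ∏ i ∈ s, b i) < 1 := by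
  classical
  induction s using Finset.induction_on with
  | empty => simp
  | insert i s hi ih =>
    rw [prod_insert hi, prod_insert hi]
    have e : a i * ∏ j ∈ s, a j - b i * ∏ j ∈ s, b j =
        a i * (∏ j ∈ s, a j - ∏ j ∈ s, b j) + (a i - b i) * ∏ j ∈ s, b j := by ring
    rw [e]
    have h1 := ih (fun j hj => ha j (mem_insert_of_mem hj)) (fun j hj => hb j (mem_insert_of_mem hj))
      (fun j hj => hab j (mem_insert_of_mem hj))
    have h2 : v (∏ j ∈ s, b j) ≤ 1 := by
      rw [map_prod]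
      exact Finset.prod_le_one' fun j hj => hb j (mem_insert_of_mem hj)
    refine lt_of_le_of_lt (v.map_add _ _) (max_lt ?_ ?_)
    · rw [map_mul]
      calc v (a i) * v (∏ j ∈ s, a j - ∏ j ∈ s, b j)
          ≤ 1 * v (∏ j ∈ s, a j - ∏ j ∈ s, b j) := mul_le_mul_left (ha i (mem_insert_self i s)) _
        _ = v (∏ j ∈ s, a j - ∏ j ∈ s, b j) := one_mul _
        _ < 1 := h1
    · rw [map_mul]
      calc v (a i - b i) * v (∏ j ∈ s, b j) ≤ v (a i - b i) * 1 := mul_le_mul_right h2 _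
        _ = v (a i - b i) := mul_one _
        _ < 1 := hab i (mem_insert_self i s)

/-- **(A0) of Key-p, part 1**: `π ^ (p - 1) / p ≡ -1` modulo the maximal ideal (`p` odd). -/
theorem val_pi_pow_div {p : ℕ} {ζ : L} (hp : p.Prime) (hp2 : p ≠ 2) (hζ : IsPrimitiveRoot ζ p)
    (hv : v (p : L) < 1) (hv0 : v (p : L) ≠ 0) :
    v ((ζ - 1) ^ (p - 1) / (p : L) + 1) < 1 := by
  obtain ⟨n, hn⟩ : ∃ n, p = n + 1 := ⟨p - 1, (Nat.succ_pred_eq_of_pos hp.pos).symm⟩
  have hroot : IsPrimitiveRoot ζ (n + 1) := hn ▸ hζ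
  have hvζ : v ζ = 1 := by
    have h1 : v ζ ^ p = 1 := by rw [← map_pow, hζ.pow_eq_one, map_one]
    exact (pow_eq_one_iff.1 h1).resolve_right hp.ne_zero
  have hneven : Even n := by
    rcases hp.eq_two_or_odd' with h | h
    · exact absurd h hp2
    · rw [hn] at h
      rcases Nat.even_or_odd n with he | ho
      · exact he
      · exact absurd (ho.add_one) (Nat.not_even_iff_odd.2 h)
  -- `p = π ^ n * ∏ G`
  set G : ℕ → L := fun k => ∑ i ∈ range (k + 1), ζ ^ i with hG
  have h1 := hroot.prod_one_sub_pow_eq_order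
  have h2 : ∏ k ∈ range n, (1 - ζ ^ (k + 1)) = (ζ - 1) ^ n * ∏ k ∈ range n, G k := by
    have : ∀ k ∈ range n, (1 - ζ ^ (k + 1)) = (-(ζ - 1)) * G k := by
      intro k _
      have := mul_geom_sum ζ (k + 1)
      simp only [hG]
      linear_combination this
    rw [prod_congr rfl this, prod_mul_distrib, prod_const, card_range, hneven.neg_pow]
  have hpL : (p : L) = (ζ - 1) ^ n * ∏ k ∈ range n, G k := by
    rw [← h2, h1, hn]
    push_cast
    ring
  -- `∏ G ≡ n!`
  have hπlt : v (ζ - 1) < 1 := (val_p_lt_val_pi v hp hp2 hζ hv hv0).1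
  have hG1 : ∀ k ∈ range n, v (G k) ≤ 1 := fun k _ =>
    v.map_sum_le fun i _ => by rw [map_pow, hvζ, one_pow]
  have hGc : ∀ k ∈ range n, v (G k - ((k + 1 : ℕ) : L)) < 1 := by
    intro k _
    have e : G k - ((k + 1 : ℕ) : L) = ∑ i ∈ range (k + 1), (ζ ^ i - 1) := by
      simp only [hG]
      rw [sum_sub_distrib, sum_const, card_range, nsmul_eq_mul, mul_one]
    rw [e]
    refine v.map_sum_lt one_ne_zero fun i _ => ?_
    exact lt_of_le_of_lt (val_pow_sub_one_le v hvζ.le i) hπlt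
  have h3 : v (∏ k ∈ range n, G k - ∏ k ∈ range n, ((k + 1 : ℕ) : L)) < 1 :=
    val_prod_sub_prod_lt v _ _ _ hG1 (fun k _ => val_natCast_le_one v _) hGc
  have hfac : ∏ k ∈ range n, ((k + 1 : ℕ) : L) = ((n.factorial : ℕ) : L) := by
    rw [← Nat.cast_prod, Finset.prod_range_add_one_eq_factorial]
  -- Wilson
  have hW : v (((n.factorial : ℕ) : L) + 1) < 1 := by
    haveI : Fact p.Prime := ⟨hp⟩
    have hn' : n = p - 1 := by omega
    have h4 : ((n.factorial + 1 : ℕ) : ZMod p) = 0 := by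
      rw [hn']
      push_cast
      rw [ZMod.wilsons_lemma]
      ring
    obtain ⟨c, hc⟩ := (ZMod.natCast_eq_zero_iff _ _).1 h4
    have h5 : ((n.factorial : ℕ) : L) + 1 = (p : L) * (c : L) := by
      have := congrArg (Nat.cast : ℕ → L) hc
      push_cast at this
      exact this
    rw [h5, map_mul]
    calc v (p : L) * v (c : L) ≤ v (p : L) * 1 := mul_le_mul_right (val_natCast_le_one v c) _
      _ = v (p : L) := mul_one _
      _ < 1 := hv
  have hQ : v (∏ k ∈ range n, G k + 1) < 1 := by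
    have e : ∏ k ∈ range n, G k + 1 =
        (∏ k ∈ range n, G k - ∏ k ∈ range n, ((k + 1 : ℕ) : L)) +
          (((n.factorial : ℕ) : L) + 1) := by
      rw [hfac]
      ring
    rw [e]
    exact lt_of_le_of_lt (v.map_add _ _) (max_lt h3 hW)
  have hQ1 : v (∏ k ∈ range n, G k) = 1 := by
    have e : ∏ k ∈ range n, G k = (∏ k ∈ range n, G k + 1) - 1 := by ring
    rw [e, v.map_sub_eq_of_lt_right (by rwa [map_one]), map_one]
  have hQ0 : ∏ k ∈ range n, G k ≠ 0 := fun h0 => by
    rw [h0, map_zero] at hQ1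
    exact zero_ne_one hQ1
  have hπ0 : ζ - 1 ≠ 0 := sub_ne_zero.2 (hζ.ne_one hp.one_lt)
  have e : (ζ - 1) ^ (p - 1) / (p : L) + 1 =
      (∏ k ∈ range n, G k + 1) / ∏ k ∈ range n, G k := by
    rw [hpL, hn, Nat.add_sub_cancel]
    field_simp
    ring
  rw [e, map_div₀, hQ1, div_one]
  exact hQ

end Wilson

/-! ### The field `K₁ = L₀(ζ)` (abstract) -/

section K1

variable {Γ₀ : Type*} [LinearOrderedCommGroupWithZero Γ₀] (v : Valuation L Γ₀)
  {L0 : Subfield L} {p : ℕ} {ζ : L}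

/-- Every element of `L₀(ζ)` is a sum `∑_{j < p - 1} g j π ^ j` with coefficients in `L₀`. -/
theorem exists_k1sum_of_mem_field (hp : 1 < p) (hζ : ζ ^ p = 1) (hζ1 : ζ ≠ 1) {c : L}
    (hc : c ∈ IntermediateField.adjoin L0 ({ζ} : Set L)) :
    ∃ g : ℕ → L, (∀ j, g j ∈ L0) ∧ c = ∑ j ∈ range (p - 1), g j * (ζ - 1) ^ j := by
  have h1 : c ∈ IntermediateField.adjoin L0 ({ζ, 1} : Set L) :=
    IntermediateField.adjoin.mono L0 _ _ (by
      intro x hx
      rw [Set.mem_singleton_iff] at hx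
      rw [hx]
      exact Set.mem_insert _ _) hc
  have hω : (1 : L) ^ p ∈ L0 := by
    rw [one_pow]
    exact one_mem L0
  obtain ⟨G, hG, rfl⟩ := exists_ksum_of_mem_field hp hζ hζ1 hω h1
  refine ⟨fun j => G (0, j), fun j => hG _, ?_⟩
  rw [ksum, idx, sum_product, sum_eq_single 0]
  · refine sum_congr rfl fun j _ => ?_
    simp [mono]
  · intro l _ hl
    refine sum_eq_zero fun j _ => ?_
    simp [mono, hl]
  · intro h
    exact absurd (mem_range.2 (by omega)) h

/-- The value group of `L₀(ζ)` is generated by `v π`. -/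
theorem val_k1 (hp : p.Prime) (hζ : IsPrimitiveRoot ζ p) (hv : v (p : L) < 1)
    (hv0 : v (p : L) ≠ 0)
    (hval : ∀ x ∈ L0, x ≠ 0 → ∃ n : ℤ, v x = v (p : L) ^ n) {c : L}
    (hc : c ∈ IntermediateField.adjoin L0 ({ζ} : Set L)) (hc0 : c ≠ 0) :
    ∃ m : ℤ, v c = v (ζ - 1) ^ m := by
  classical
  obtain ⟨g, hg, rfl⟩ := exists_k1sum_of_mem_field hp.one_lt hζ.pow_eq_one (hζ.ne_one hp.one_lt) hc
  have hπpow := val_root_sub_one_pow v hp hζ
  have hp1 : p - 1 ≠ 0 := Nat.sub_ne_zero_of_lt hp.one_lt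
  have hπ0 : v (ζ - 1) ≠ 0 := by
    intro h0
    rw [h0, zero_pow hp1] at hπpow
    exact hv0 hπpow.symm
  have hπpos : 0 < v (ζ - 1) := zero_lt_iff.2 hπ0
  have hπ1 : v (ζ - 1) < 1 := by
    by_contra hge
    rw [not_lt] at hge
    have : (1 : Γ₀) ≤ v (ζ - 1) ^ (p - 1) := one_le_pow₀ hge
    rw [hπpow] at this
    exact absurd hv (not_lt.2 this)
  -- the value of a term
  have hterm : ∀ j, g j ≠ 0 → ∃ n : ℤ, v (g j * (ζ - 1) ^ j) =
      v (ζ - 1) ^ (((p : ℤ) - 1) * n + j) := by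
    intro j hj
    obtain ⟨n, hn⟩ := hval (g j) (hg j) hj
    refine ⟨n, ?_⟩
    rw [map_mul, map_pow, hn, ← hπpow, ← zpow_natCast, ← zpow_mul, zpow_add₀ hπ0, zpow_natCast]
    congr 2
    push_cast [Nat.cast_sub hp.one_le]
    ring
  obtain ⟨j₁, hj₁, hj₁0⟩ := exists_ne_zero_of_sum_ne_zero hc0
  obtain ⟨j₀, hj₀, hmax⟩ := exists_max_image (range (p - 1)) (fun j => v (g j * (ζ - 1) ^ j))
    ⟨j₁, hj₁⟩
  have hpos : v (g j₀ * (ζ - 1) ^ j₀) ≠ 0 := by
    have h1 : v (g j₁ * (ζ - 1) ^ j₁) ≠ 0 := (Valuation.ne_zero_iff v).2 hj₁0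
    intro h0
    have := hmax j₁ hj₁
    rw [h0] at this
    exact h1 (le_antisymm this zero_le)
  have hg0 : g j₀ ≠ 0 := fun h0 => hpos (by rw [h0, zero_mul, map_zero])
  have hlt : ∀ j ∈ range (p - 1), j ≠ j₀ → v (g j * (ζ - 1) ^ j) < v (g j₀ * (ζ - 1) ^ j₀) := by
    intro j hj hne
    refine lt_of_le_of_ne (hmax j hj) fun heq => hne ?_
    have hgj : g j ≠ 0 := fun h0 => hpos (by rw [← heq, h0, zero_mul, map_zero])
    obtain ⟨n, hn⟩ := hterm j hgj
    obtain ⟨n', hn'⟩ := hterm j₀ hg0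
    rw [hn, hn'] at heq
    have h1 := zpow_right_injective₀ hπpos hπ1.ne heq
    have hj' := mem_range.1 hj
    have hj₀' := mem_range.1 hj₀
    have h2 : ((p : ℤ) - 1) ∣ ((j : ℤ) - j₀) := ⟨n' - n, by linear_combination h1⟩
    have h3 : |(j : ℤ) - j₀| < (p : ℤ) - 1 := by
      rw [abs_lt]
      constructor <;> omega
    have := Int.eq_zero_of_abs_lt_dvd h2 h3
    omega
  obtain ⟨n, hn⟩ := hterm j₀ hg0
  refine ⟨((p : ℤ) - 1) * n + j₀, ?_⟩
  rw [← hn]
  refine Valuation.map_sum_eq_of_lt v hj₀ fun j hj => ?_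
  rw [mem_sdiff, mem_singleton] at hj
  exact hlt j hj.1 hj.2

end K1

/-! ### The constants fixed by `I₃` and by `I₁` -/

section Fixed

variable {A : ValuationSubring (AlgebraicClosure ℚ)} {p : ℕ} {ζ ω : AlgebraicClosure ℚ}
  {σ : AlgebraicClosure ℚ ≃ₐ[ℚ] AlgebraicClosure ℚ}

theorem mem_adjoin_omega_of_fixed (hp : p.Prime) (hA : A.LiesOverPrime p)
    {c : AlgebraicClosure ℚ} (hc : ∀ τ ∈ A.inertiaSubgroupIn ℚ, τ ω = ω → τ c = c) :
    c ∈ IntermediateField.adjoin (K0 A) ({ω} : Set (AlgebraicClosure ℚ)) := by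
  refine mem_adjoin_of_fixed hp hA {ω} fun τ hτ hT => hc τ hτ (hT ω ?_)
  simp

theorem mem_adjoin_zeta_of_fixed (hp : p.Prime) (hA : A.LiesOverPrime p)
    {c : AlgebraicClosure ℚ} (hc : ∀ τ ∈ A.inertiaSubgroupIn ℚ, τ ζ = ζ → τ c = c) :
    c ∈ IntermediateField.adjoin (K0 A) ({ζ} : Set (AlgebraicClosure ℚ)) := by
  refine mem_adjoin_of_fixed hp hA {ζ} fun τ hτ hT => hc τ hτ (hT ζ ?_)
  simp

/-- `ℚ̄^{I₃} = ⊕_{l < p} K₀ ϖ ^ l` and `ℚ̄^{I₃} ∩ A = ⊕_{l < p} (K₀ ∩ A) ϖ ^ l`. -/
theorem exists_k3sum_of_fixed (hA : A.LiesOverPrime p)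
    (h : KData A.valuation (K0 A) p ζ ω (σ : AlgebraicClosure ℚ →+* AlgebraicClosure ℚ))
    {c : AlgebraicClosure ℚ} (hc : ∀ τ ∈ A.inertiaSubgroupIn ℚ, τ ω = ω → τ c = c) :
    ∃ g : ℕ → AlgebraicClosure ℚ, (∀ l, g l ∈ K0 A) ∧ c = k3sum p ω g ∧
      (c ∈ A → ∀ l, l < p → g l ∈ A) := by
  obtain ⟨g, hg, rfl⟩ := h.exists_k3sum (mem_adjoin_omega_of_fixed h.prime hA hc)
  refine ⟨g, hg, rfl, fun hcA l hl => ?_⟩
  rw [← A.valuation_le_one_iff] at hcA ⊢
  exact h.val_k3coeff_le hg hcA hl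

/-- **(A2) of Key-p, constants**: `c ∈ A` fixed by `I₃` `⇒ (σ c - c) / π ∈ A`. -/
theorem val_sigma_sub_of_fixed3 (hA : A.LiesOverPrime p)
    (h : KData A.valuation (K0 A) p ζ ω (σ : AlgebraicClosure ℚ →+* AlgebraicClosure ℚ))
    {c : AlgebraicClosure ℚ} (hcA : c ∈ A)
    (hc : ∀ τ ∈ A.inertiaSubgroupIn ℚ, τ ω = ω → τ c = c) :
    (σ c - c) / (ζ - 1) ∈ A := by
  rw [← A.valuation_le_one_iff, map_div₀]
  exact div_le_one_of_le₀ (h.val_sigma_sub_k3 (mem_adjoin_omega_of_fixed h.prime hA hc)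
    ((A.valuation_le_one_iff c).2 hcA)) zero_le

/-- **(A3) of Key-p, part 1, constants**: a non-unit `a` fixed by `I₃` is divisible by `ϖ`. -/
theorem val_small_of_fixed3 (hA : A.LiesOverPrime p)
    (h : KData A.valuation (K0 A) p ζ ω (σ : AlgebraicClosure ℚ →+* AlgebraicClosure ℚ))
    {a : AlgebraicClosure ℚ} (haA : a ∈ A.nonunits)
    (ha : ∀ τ ∈ A.inertiaSubgroupIn ℚ, τ ω = ω → τ a = a) :
    a / (ω - 1) ∈ A := by
  rw [← A.valuation_le_one_iff, map_div₀]
  exact div_le_one_of_le₀ (h.val_k3_small (mem_adjoin_omega_of_fixed h.prime hA ha)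
    (A.mem_nonunits_iff.1 haA)) zero_le

/-- **(A3) of Key-p, part 2, constants**: `(σ a - a) / π ≡ a / ϖ` modulo the maximal ideal. -/
theorem val_sigma_sub_div_of_fixed3 (hA : A.LiesOverPrime p)
    (h : KData A.valuation (K0 A) p ζ ω (σ : AlgebraicClosure ℚ →+* AlgebraicClosure ℚ))
    {a : AlgebraicClosure ℚ} (haA : a ∈ A.nonunits)
    (ha : ∀ τ ∈ A.inertiaSubgroupIn ℚ, τ ω = ω → τ a = a) :
    (σ a - a) / (ζ - 1) - a / (ω - 1) ∈ A.nonunits := by
  rw [A.mem_nonunits_iff]
  exact h.val_sigma_sub_div_k3 (mem_adjoin_omega_of_fixed h.prime hA ha)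
    (A.mem_nonunits_iff.1 haA)

/-- **(A3) of Key-p, part 3, constants**: if `a / ϖ` is a non-unit then `a / ϖ ^ 2 ∈ A`. -/
theorem val_small_sq_of_fixed3 (hA : A.LiesOverPrime p)
    (h : KData A.valuation (K0 A) p ζ ω (σ : AlgebraicClosure ℚ →+* AlgebraicClosure ℚ))
    {a : AlgebraicClosure ℚ} (haA : a / (ω - 1) ∈ A.nonunits)
    (ha : ∀ τ ∈ A.inertiaSubgroupIn ℚ, τ ω = ω → τ a = a) :
    a / (ω - 1) ^ 2 ∈ A := by
  rw [← A.valuation_le_one_iff, map_div₀, map_pow]
  exact div_le_one_of_le₀ (h.val_k3_small_sq (mem_adjoin_omega_of_fixed h.prime hA ha)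
    (A.mem_nonunits_iff.1 haA)) zero_le

/-- **Tame case**: the value group of `K₁ = ℚ̄^{I₁}` is generated by `v π`. -/
theorem val_of_fixed1 (hp : p.Prime) (hA : A.LiesOverPrime p) (hζ : IsPrimitiveRoot ζ p)
    {c : AlgebraicClosure ℚ} (hc0 : c ≠ 0)
    (hc : ∀ τ ∈ A.inertiaSubgroupIn ℚ, τ ζ = ζ → τ c = c) :
    ∃ m : ℤ, A.valuation c = A.valuation (ζ - 1) ^ m :=
  val_k1 A.valuation hp hζ (val_p_lt hA) (val_p_ne hp) (val_K0 hp hA)
    (mem_adjoin_zeta_of_fixed hp hA hc) hc0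

end Fixed

end Fermat.Agent.BADP.H97

end
-- ==== END Fermat.Agent.BADP.H97_K3Q

-- ==== BEGIN Fermat.Agent.FL.H22_TameFrames
section

/-!
# G-FL, package MOD-FRAME (helper22): `Stmt_TameFrames`

`stmt_TameFrames : H33.Stmt_TameFrames`: at a tame level `M` the spaces `L(b ∞)`, `b` large, have
bases of Gauss-integral functions with rational `q`-expansions (hence fixed by the decomposition
group) whose reductions are bases of `L~(b · r ∞)`.
-/

set_option autoImplicit false
set_option linter.style.haveILetI false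
set_option synthInstance.maxHeartbeats 400000
set_option maxHeartbeats 1000000

open ModularCurve AlgebraicCurve Fermat.Agent.S28 Fermat.Agent.S28.H73 Fermat.Agent.RED.H73

noncomputable section

namespace Fermat.Agent.FL.H22

open Fermat.Agent.RED Fermat.Agent.RED.H17 Fermat.Agent.RED.H33

/-- **MOD-FRAME.** -/
theorem stmt_TameFrames : H33.Stmt_TameFrames := by
  intro M ℓ _ hℓ hM htame A hA
  haveI : IsAlgClosed (kV A) := isAlgClosed_kV A
  exact hasRatFrames_of M A (H33.isFF_tame M ℓ hℓ hM A hA)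
    (H33.tameR_isRed M ℓ hℓ hM htame A hA) (H33.tameR_genusLE M ℓ hℓ hM htame A hA)
    (H33.tameCtx M ℓ hℓ hM htame A hA) (fun σ => ⟨σ, rfl⟩)

end Fermat.Agent.FL.H22

end
end
-- ==== END Fermat.Agent.FL.H22_TameFrames

-- ==== BEGIN Fermat.Agent.FL.H38_SubRed
section

/-!
# G-FL (S19), package RED-FRAME, part 3 (helper38): SUB-RED and ECH-INT

* `colSpace_eq_coordSpace`: the matrix of the coordinates of a family `f` with respect to an
  independent family `e` has column space `coordSpace e (span f)`;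
* `stmt_SubRed : Stmt_SubRed`;
* `stmt_EchInt : Stmt_EchInt`.
-/

set_option autoImplicit false

noncomputable section

open AlgebraicCurve Matrix

namespace Fermat.Agent.FL.H38

open Fermat.Agent.FL Fermat.Agent.RED Fermat.Agent.RED.H17

local notation "L" => riemannRochSpace

/-! ### Linear algebra -/

section LinAlg

variable {k E : Type} [Field k] [Field E] [Algebra k E]
variable {ι κ : Type} [Fintype ι] [Fintype κ]

theorem lin_mulVec (e : ι → E) (f : κ → E) (N : Matrix ι κ k)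
    (hN : ∀ b, f b = ∑ i, N i b • e i) (c : κ → k) :
    H2.lin e (N *ᵥ c) = H2.lin f c := by
  rw [H2.lin_apply, H2.lin_apply]
  have h1 : ∀ i, (N *ᵥ c) i • e i = ∑ b, c b • (N i b • e i) := by
    intro i
    rw [Matrix.mulVec, dotProduct, Finset.sum_smul]
    refine Finset.sum_congr rfl fun b _ => ?_
    rw [smul_smul, mul_comm]
  rw [Finset.sum_congr rfl fun i _ => h1 i, Finset.sum_comm]
  refine Finset.sum_congr rfl fun b _ => ?_
  rw [hN b, Finset.smul_sum]

/-- The matrix of the coordinates of `f` with respect to the independent family `e` has column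
space `coordSpace e (span f)`. -/
theorem colSpace_eq_coordSpace {e : ι → E} (he : LinearIndependent k e) (f : κ → E)
    (N : Matrix ι κ k) (hN : ∀ b, f b = ∑ i, N i b • e i) :
    colSpace N = coordSpace e (Submodule.span k (Set.range f)) := by
  ext u
  rw [H46.mem_colSpace_iff, H2.mem_coordSpace, ← H2.range_lin, LinearMap.mem_range]
  constructor
  · rintro ⟨c, rfl⟩
    exact ⟨c, (lin_mulVec e f N hN c).symm⟩
  · rintro ⟨c, hc⟩
    refine ⟨c, H2.lin_injective he ?_⟩
    rw [lin_mulVec e f N hN c, hc]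

omit [Fintype ι] in
/-- The columns of a matrix with an identity minor are linearly independent. -/
theorem linearIndependent_col_of_chart {d : ℕ} (J : Fin d → ι) (M : Matrix ι (Fin d) k)
    (hM : ∀ a b, M (J a) b = if a = b then 1 else 0) :
    LinearIndependent k (fun b : Fin d => fun i : ι => M i b) := by
  rw [Fintype.linearIndependent_iff]
  intro c hc a
  have h1 := congrFun hc (J a)
  rw [Finset.sum_apply] at h1
  simp only [Pi.smul_apply, smul_eq_mul, hM, Pi.zero_apply] at h1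
  rw [Finset.sum_eq_single a] at h1
  · simpa using h1
  · intro b _ hb
    rw [if_neg (Ne.symm hb), mul_zero]
  · intro h
    exact absurd (Finset.mem_univ a) h

end LinAlg

/-! ### Function fields -/

section FF

variable {K F k F' : Type} [Field K] [Field F] [Algebra K F] [Field k] [Field F']
  [Algebra k F'] (S : RedSetup K F k F')

theorem nonneg_apply' {k E : Type} [Field k] [Field E] [Algebra k E] {A : Divisor k E}
    (hA : 0 ≤ A) (v : Place k E) : 0 ≤ A v := by
  have := hA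
  rw [Finsupp.le_def] at this
  simpa using this v

theorem L_sub_le' {k E : Type} [Field k] [Field E] [Algebra k E] {D A : Divisor k E}
    (hA : 0 ≤ A) : L (D - A) ≤ L D := by
  refine L_mono' fun v => ?_
  rw [Finsupp.sub_apply]
  have := nonneg_apply' hA v
  omega

theorem L_red_sub_le (B E : Divisor K F) (hE : 0 ≤ E) :
    L (Finsupp.mapDomain S.r (B - E)) ≤ L (Finsupp.mapDomain S.r B) := by
  refine L_mono' fun Q => ?_
  have h1 : Finsupp.mapDomain S.r B
      = Finsupp.mapDomain S.r (B - E) + Finsupp.mapDomain S.r E := by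
    rw [← Finsupp.mapDomain_add, sub_add_cancel]
  rw [h1, Finsupp.add_apply]
  have := mapDomain_nonneg' S.r (D := E) (nonneg_apply' hE) Q
  omega

/-- The coordinates of a frame of `L(B - E)` of Gauss-integral functions with respect to an
integral frame of `L(B)`. -/
theorem exists_coord_matrix {B E : Divisor K F} {ι : Type} [Fintype ι] {e : ι → F}
    (he : IsIntFrame S e B) (hE : 0 ≤ E) {κ : Type} [Fintype κ] (f : κ → F)
    (hfV : ∀ b, f b ∈ S.V) (hfD : ∀ b, f b ∈ L (B - E)) :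
    ∃ N : Matrix ι κ K, (∀ b, f b = ∑ i, N i b • e i) ∧ (∀ i b, N i b ∈ constVal S) ∧
      ∀ b, S.rd (f b) = ∑ i, rc S (N i b) • S.rd (e i) := by
  have hfB : ∀ b, ∃ u : ι → K, H2.lin e u = f b := by
    intro b
    have h1 : f b ∈ Submodule.span K (Set.range e) := by
      rw [he.1.2]
      exact L_sub_le' hE (hfD b)
    rw [← H2.range_lin] at h1
    exact h1
  choose N hN using hfB
  have hN' : ∀ b, f b = ∑ i, N b i • e i := fun b => by rw [← hN b, H2.lin_apply]
  have key := fun b => frameInt S e he.2.1 he.2.2.1 (N b) (by rw [← hN' b]; exact hfV b)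
  refine ⟨Matrix.of fun i b => N b i, hN', fun i b => (key b).1 i, fun b => ?_⟩
  rw [hN' b]
  exact (key b).2

/-- **SUB-RED.** -/
theorem stmt_SubRed : Stmt_SubRed := by
  intro K F k F' _ _ _ _ _ _ _ _ S hFF hFF' B E ι _ e he hE hle
  obtain ⟨d, f, hf, hfV, hf'⟩ := stmt_FrameLift K F k F' S hFF hFF' (B - E) hle
  have hfD : ∀ b, f b ∈ L (B - E) := fun b => by
    rw [← hf.2]
    exact Submodule.subset_span (Set.mem_range_self b)
  obtain ⟨N, hN1, hN2, hN3⟩ := exists_coord_matrix S he hE f hfV hfD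
  refine ⟨d, N, hN2, ?_, ?_, ?_⟩
  · refine LinearIndependent.of_comp (H2.lin (fun i => S.rd (e i))) ?_
    have h1 : (H2.lin (fun i => S.rd (e i))) ∘ (fun b : Fin d => fun i : ι => rc S (N i b))
        = fun b => S.rd (f b) := by
      funext b
      rw [Function.comp_apply, H2.lin_apply, hN3 b]
    rw [h1]
    exact hf'.1
  · rw [colSpace_eq_coordSpace he.1.1 f N hN1, hf.2]
  · rw [colSpace_eq_coordSpace he.2.2.1 (fun b => S.rd (f b)) (N.map (rc S)) hN3, hf'.2]

/-- **ECH-INT.** -/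
theorem stmt_EchInt : Stmt_EchInt := by
  intro K F k F' _ _ _ _ _ _ _ _ S hFF hFF' B E ι _ e he hE hle d J M' hM'J hM'
  have H := _root_.Fermat.Agent.FL.H38.ffHyp_of_isFF hFF
  have H' := _root_.Fermat.Agent.FL.H38.ffHyp_of_isFF hFF'
  have : Infinite k := IsAlgClosed.instInfinite
  -- the frame of the reduction given by `M'`
  have hW : L (Finsupp.mapDomain S.r (B - E)) ≤
      Submodule.span k (Set.range fun i => S.rd (e i)) := by
    rw [he.2.2.2]
    exact L_red_sub_le S B E hE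
  have hcol : LinearIndependent k (fun b : Fin d => fun i : ι => M' i b) :=
    linearIndependent_col_of_chart J M' hM'J
  have hy : IsFrameOf (fun b : Fin d => H2.lin (fun i => S.rd (e i)) (fun i : ι => M' i b))
      (Finsupp.mapDomain S.r (B - E)) := by
    refine ⟨hcol.map' _ (LinearMap.ker_eq_bot.mpr (H2.lin_injective he.2.2.1)), ?_⟩
    have h1 : (Set.range fun b : Fin d =>
        H2.lin (fun i => S.rd (e i)) (fun i : ι => M' i b))
        = (H2.lin (fun i => S.rd (e i))) '' Set.range (fun b : Fin d => fun i : ι => M' i b) := by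
      rw [← Set.range_comp]
      rfl
    have h2 : Submodule.span k (Set.range (fun b : Fin d => fun i : ι => M' i b))
        = colSpace M' := (Matrix.range_mulVecLin M').symm
    rw [h1, ← Submodule.map_span, h2, hM', H2.map_coordSpace hW]
  obtain ⟨f, hfV, hfy, hf⟩ := exists_lift_frame S H H' hle _ hy
  have hfD : ∀ b, f b ∈ L (B - E) := fun b => by
    rw [← hf.2]
    exact Submodule.subset_span (Set.mem_range_self b)
  obtain ⟨N, hN1, hN2, hN3⟩ := exists_coord_matrix S he hE f hfV hfD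
  -- the reduction of `N` is `M'`
  have hNM : ∀ i b, rc S (N i b) = M' i b := by
    intro i b
    have h1 : H2.lin (fun i => S.rd (e i)) (fun i => rc S (N i b))
        = H2.lin (fun i => S.rd (e i)) (fun i => M' i b) := by
      rw [← hfy b, hN3 b, H2.lin_apply]
    exact congrFun (H2.lin_injective he.2.2.1 h1) i
  -- matrices over `A`
  let NA : Matrix ι (Fin d) (constVal S) := Matrix.of fun i b => ⟨N i b, hN2 i b⟩
  let P : Matrix (Fin d) (Fin d) (constVal S) := NA.submatrix J id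
  have hNAmap : NA.map (rcHom S) = M' := by
    ext i b
    exact hNM i b
  have hPmap : P.map (rcHom S) = 1 := by
    ext a b
    rw [Matrix.one_apply]
    show rc S (N (J a) b) = _
    rw [hNM, hM'J]
  have hdet : IsUnit P.det := by
    apply isUnit_of_rcHom_ne_zero
    rw [RingHom.map_det, RingHom.mapMatrix_apply, hPmap, Matrix.det_one]
    exact one_ne_zero
  have hPinv : P * P⁻¹ = 1 := Matrix.mul_nonsing_inv P hdet
  have hinvP : P⁻¹ * P = 1 := Matrix.nonsing_inv_mul P hdet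
  have hQmap : (P⁻¹).map (rcHom S) = 1 := by
    have h1 : (P * P⁻¹).map (rcHom S) = 1 := by
      rw [hPinv]
      exact H46.map_one' (rcHom S)
    rw [H46.map_mul' (rcHom S), hPmap, Matrix.one_mul] at h1
    exact h1
  let MA : Matrix ι (Fin d) (constVal S) := NA * P⁻¹
  have hNK : NA.map ((constVal S).subtype) = N := by
    ext i b
    rfl
  have hrc : ∀ X : Matrix ι (Fin d) (constVal S),
      (X.map ((constVal S).subtype)).map (rc S) = X.map (rcHom S) := by
    intro X
    ext i b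
    rfl
  have hMmap : (MA.map ((constVal S).subtype)).map (rc S) = M' := by
    rw [hrc, H46.map_mul' (rcHom S), hNAmap, hQmap, Matrix.mul_one]
  refine ⟨MA.map ((constVal S).subtype), ⟨?_, ?_, ?_, ?_⟩, hMmap⟩
  · intro a b
    have h1 : MA (J a) b = (P * P⁻¹) a b := by
      show (NA * P⁻¹) (J a) b = (P * P⁻¹) a b
      rw [Matrix.mul_apply, Matrix.mul_apply]
      rfl
    rw [Matrix.map_apply, h1, hPinv, Matrix.one_apply]
    split_ifs
    · rfl
    · rfl
  · rw [H46.map_mul' ((constVal S).subtype), hNK]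
    rw [H46.colSpace_mul_rightInv N _ (P.map ((constVal S).subtype))
      (by rw [← H46.map_mul' ((constVal S).subtype), hinvP]
          exact H46.map_one' ((constVal S).subtype))]
    rw [colSpace_eq_coordSpace he.1.1 f N hN1, hf.2]
  · intro i b
    exact (MA i b).2
  · rw [hMmap, hM']

end FF

end Fermat.Agent.FL.H38

end
end
-- ==== END Fermat.Agent.FL.H38_SubRed

-- ==== BEGIN Fermat.Agent.FL.H51_DStabFinal
section

/-!
# G-FL, package DSTAB (helper51): `Stmt_EchSmul` discharged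

`stmt_EchSmul : Stmt_EchSmul` (helper21's `H21_isEch_smul`), hence
`stmt_DStab_of' : Stmt_FamAdd → Stmt_RedLinEq → Stmt_EchConst → Stmt_DStab`.
This file contains no `sorry`.
-/

set_option autoImplicit false

noncomputable section

open AlgebraicCurve

namespace Fermat.Agent.FL.H51

/-- **(B) transport of `IsEch`** (helper21). -/
theorem stmt_EchSmul : Stmt_EchSmul := by
  intro K F k F' _ _ _ _ _ _ S Γ _ G σ ι _ d e he heV D J M h
  exact Fermat.Agent.FL.H21.H21_isEch_smul (G := G) σ e heV he D J M h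

/-- **DSTAB**, with the transport discharged. -/
theorem stmt_DStab_of' (hFA : Stmt_FamAdd) (hRL : Stmt_RedLinEq) (hEC : Stmt_EchConst) :
    Stmt_DStab :=
  stmt_DStab_of hFA hRL stmt_EchSmul hEC

end Fermat.Agent.FL.H51

end
end
-- ==== END Fermat.Agent.FL.H51_DStabFinal

-- ==== BEGIN Fermat.Agent.Lib.HopfOrderLoc.Approx
section

/-!
# The approximating element (item 71, helper32)

`exists_approx`: given finitely many automorphisms `γ j` none of whose `H`-cosets meets the
decomposition group (`H = I ⊔ Gal(ℚ̄/L)`), and numbers `c j`, there is an `H`-fixed algebraic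
integer `e`, a unit at `A`, such that `γ j e * c j` is divisible by `ℓ ^ N` for all `j`.
Uses `Stmt_F1` and the rank-one lemma `exists_pow_le`.
-/

set_option autoImplicit false
set_option linter.style.haveILetI false
set_option linter.unusedSectionVars false

namespace Fermat.Agent.Lib.HopfOrderLoc

open Fermat.Agent.Lib.FrobExists

local notation "K" => AlgebraicClosure ℚ
local notation "GQ" => (AlgebraicClosure ℚ ≃ₐ[ℚ] AlgebraicClosure ℚ)

theorem exists_approx (hF1 : Stmt_F1) (ℓ : ℕ) (hℓ : ℓ.Prime) (A : ValuationSubring K)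
    (hA : A.LiesOverPrime ℓ) (L : IntermediateField ℚ K) (hL : FiniteDimensional ℚ L)
    {J : Type} [Finite J] (γ : J → GQ) (c : J → K) (N : ℕ)
    (hγ : ∀ j, ∀ η ∈ A.inertiaSubgroupIn ℚ ⊔ L.fixingSubgroup,
      γ j * η ∉ A.decompositionSubgroup ℚ) :
    ∃ e : K, e ∈ fixInt (A.inertiaSubgroupIn ℚ ⊔ L.fixingSubgroup) ∧ A.valuation e = 1 ∧
      ∀ j, A.valuation (γ j e * c j) ≤ A.valuation ((ℓ : K) ^ N) := by
  classical
  letI : Fintype J := Fintype.ofFinite J
  choose y hyint hyfix hy1 hyγ using fun j => hF1 ℓ hℓ A hA L hL (γ j) (hγ j)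
  set H := A.inertiaSubgroupIn ℚ ⊔ L.fixingSubgroup with hH
  set Y : K := ∏ j, y j with hY
  have hYmem : Y ∈ fixInt H := Subring.prod_mem _ (fun j _ => ⟨hyint j, hyfix j⟩)
  have hY1 : A.valuation Y = 1 := by
    rw [hY, map_prod]
    exact Finset.prod_eq_one (fun j _ => hy1 j)
  have hle : ∀ i j, A.valuation (γ j (y i)) ≤ 1 := fun i j =>
    valuation_le_one_of_isIntegral A _ (map_isIntegral_int (γ j) (hyint i))
  have hYγ : ∀ j, A.valuation (γ j Y) < 1 := by
    intro j
    rw [hY, map_prod, map_prod, ← Finset.mul_prod_erase _ _ (Finset.mem_univ j)]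
    calc A.valuation (γ j (y j)) * ∏ i ∈ Finset.univ.erase j, A.valuation (γ j (y i))
        ≤ A.valuation (γ j (y j)) * 1 :=
          mul_le_mul_right (Finset.prod_le_one' (fun i _ => hle i j)) _
      _ = A.valuation (γ j (y j)) := mul_one _
      _ < 1 := hyγ j
  -- the exponents
  have hex : ∀ j, ∃ n : ℕ, A.valuation (γ j Y) ^ n * A.valuation (c j) ≤
      A.valuation ((ℓ : K) ^ N) := by
    intro j
    by_cases hc : c j = 0
    · exact ⟨0, by rw [hc, map_zero, mul_zero]; exact zero_le⟩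
    · have hℓ0 : (ℓ : K) ≠ 0 := by
        exact_mod_cast hℓ.ne_zero
      have ht : (ℓ : K) ^ N / c j ≠ 0 := div_ne_zero (pow_ne_zero _ hℓ0) hc
      obtain ⟨n, hn⟩ := exists_pow_le ℓ hℓ A hA (γ j Y) _ (hYγ j) ht
      refine ⟨n, ?_⟩
      rw [map_div₀] at hn
      have hvc : 0 < A.valuation (c j) := (Valuation.pos_iff _).mpr hc
      exact (le_div_iff₀ hvc).mp hn
  choose n hn using hex
  set n₀ := Finset.univ.sup n with hn₀
  refine ⟨Y ^ n₀, Subring.pow_mem _ hYmem _, by rw [map_pow, hY1, one_pow], fun j => ?_⟩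
  rw [map_pow, map_mul, map_pow]
  calc A.valuation (γ j Y) ^ n₀ * A.valuation (c j)
      ≤ A.valuation (γ j Y) ^ n j * A.valuation (c j) :=
        mul_le_mul_left (valuation_pow_le_of_le A _ (le_of_lt (hYγ j))
          (Finset.le_sup (Finset.mem_univ j))) _
    _ ≤ _ := hn j

end Fermat.Agent.Lib.HopfOrderLoc

end
-- ==== END Fermat.Agent.Lib.HopfOrderLoc.Approx
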