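-- GENERATED (merged mirror, NOTES/tools/trim/merge3_helper67.py): 5 modules of the originals, bodies verbatim.
import Fermat.Agent.Zm.S33_L08_000
import Fermat.Agent.Zm.S33_L05_000
import Fermat.Agent.Zm.S33_L07_000
import Fermat.Agent.Zm.S33_L06_006
import Fermat.Agent.Zm.S33_L06_000
import Fermat.Agent.Zm.S33_L06_003
import Fermat.Agent.Zm.S33_L06_001
import Fermat.Agent.Zm.S33_L07_005
import Fermat.Agent.Zm.S33_L06_004
import Fermat.Agent.Zm.S33_L07_001
import Fermat.Agent.Zm.S33_L08_001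
import Fermat.Agent.FL.H46_Final

-- ==== BEGIN Fermat.Agent.BADP.H97_Bridge
section

/-!
# BAD_p (S44, row 38), ARITH bridge (helper97): from `ℚ̄` to the Gauss valuations

`T : PRed ℚ̄ F k F'` a component (e.g. `V₁` or `V₂` of the modular datum) with
`T.V ∩ ℚ̄ = A` (hypothesis `hT : ∀ c, algebraMap c ∈ T.V ↔ c ∈ A`, e.g. `BAD.H88.const_mem1`).

* `val_const_le_iff` : the valuation of `T.V` on the constants is equivalent to `A.valuation`;
  `rd_const_eq_zero`, `rd_const_eq_of_sub`, `isGU_const`;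
* `kdata_fn` : **transfer of `KData`** to the function field: from
  `KData A.valuation (K0 A) p ζ ω σ`, a semilinear automorphism `σF` of `F` over `σ` which
  preserves `T.V`, a subfield `F0 ⊂ F` fixed by `σF` containing the constants of `K0 A`, such that
  every nonzero `g ∈ F0` has a scale in `K0 A` (**A1** for `H = I`), we get
  `KData T.V.valuation F0 p ζ ω σF`;
* `stmt_A2` (**A2**) : `g ∈ F0(ζ, ω)`, `g ∈ T.V` `⇒ (σF g - g) / θ² ∈ T.V`;
  `stmt_A2_k3` : `g ∈ F0(ω)`, `g ∈ T.V` `⇒ (σF g - g) / π ∈ T.V` (= `hR₁`, `hR₂` of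
  `BAD.H28.keyP`, `θ = 1`);
* `keyP_pi`, `keyP_varpi`, `keyP_A3` : the hypotheses `hπp`, `hϖp`, `hA3₁/₂` of `BAD.H28.keyP`
  (peu ramifié case `θ = 1`).
-/

set_option autoImplicit false
set_option linter.style.haveILetI false

noncomputable section

open AlgebraicCurve

namespace Fermat.Agent.BADP.H97

open Fermat.Agent.BAD

variable {F k F' : Type*} [Field F] [Algebra (AlgebraicClosure ℚ) F] [Field k] [Field F']
  [Algebra k F'] (T : PRed (AlgebraicClosure ℚ) F k F')
  {A : ValuationSubring (AlgebraicClosure ℚ)}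

section Const

variable {T}
variable (hT : ∀ c : AlgebraicClosure ℚ, algebraMap (AlgebraicClosure ℚ) F c ∈ T.V ↔ c ∈ A)

include hT

theorem val_const_le_iff (c d : AlgebraicClosure ℚ) :
    T.V.valuation (algebraMap (AlgebraicClosure ℚ) F c) ≤
      T.V.valuation (algebraMap (AlgebraicClosure ℚ) F d) ↔
    A.valuation c ≤ A.valuation d := by
  by_cases hd : d = 0
  · rw [hd, map_zero, map_zero, map_zero, le_zero_iff, le_zero_iff, map_eq_zero, map_eq_zero,
      map_eq_zero]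
  have hdF : algebraMap (AlgebraicClosure ℚ) F d ≠ 0 :=
    (map_ne_zero_iff _ (algebraMap (AlgebraicClosure ℚ) F).injective).mpr hd
  have h1 : T.V.valuation (algebraMap (AlgebraicClosure ℚ) F c) ≤
      T.V.valuation (algebraMap (AlgebraicClosure ℚ) F d) ↔
      T.V.valuation (algebraMap (AlgebraicClosure ℚ) F (c / d)) ≤ 1 := by
    rw [map_div₀, map_div₀, div_le_one₀ (zero_lt_iff.2 ((Valuation.ne_zero_iff _).2 hdF))]
  have h2 : A.valuation c ≤ A.valuation d ↔ A.valuation (c / d) ≤ 1 := by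
    rw [map_div₀, div_le_one₀ (zero_lt_iff.2 ((Valuation.ne_zero_iff _).2 hd))]
  rw [h1, h2, ValuationSubring.valuation_le_one_iff, ValuationSubring.valuation_le_one_iff]
  exact hT _

theorem val_const_lt_iff (c d : AlgebraicClosure ℚ) :
    T.V.valuation (algebraMap (AlgebraicClosure ℚ) F c) <
      T.V.valuation (algebraMap (AlgebraicClosure ℚ) F d) ↔
    A.valuation c < A.valuation d := by
  rw [← not_le, ← not_le, val_const_le_iff hT]

theorem val_const_eq_iff (c d : AlgebraicClosure ℚ) :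
    T.V.valuation (algebraMap (AlgebraicClosure ℚ) F c) =
      T.V.valuation (algebraMap (AlgebraicClosure ℚ) F d) ↔
    A.valuation c = A.valuation d := by
  rw [le_antisymm_iff, le_antisymm_iff, val_const_le_iff hT, val_const_le_iff hT]

theorem val_const_eq_one_iff (c : AlgebraicClosure ℚ) :
    T.V.valuation (algebraMap (AlgebraicClosure ℚ) F c) = 1 ↔ A.valuation c = 1 := by
  have := val_const_eq_iff hT c 1
  rwa [map_one, map_one, map_one] at this

theorem val_const_lt_one_iff (c : AlgebraicClosure ℚ) :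
    T.V.valuation (algebraMap (AlgebraicClosure ℚ) F c) < 1 ↔ A.valuation c < 1 := by
  have := val_const_lt_iff hT c 1
  rwa [map_one, map_one, map_one] at this

theorem val_const_zpow {c d : AlgebraicClosure ℚ} {n : ℤ}
    (h : A.valuation c = A.valuation d ^ n) :
    T.V.valuation (algebraMap (AlgebraicClosure ℚ) F c) =
      T.V.valuation (algebraMap (AlgebraicClosure ℚ) F d) ^ n := by
  have h1 : A.valuation c = A.valuation (d ^ n) := by rw [map_zpow₀]; exact h
  have h2 := (val_const_eq_iff hT c (d ^ n)).2 h1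
  rw [h2, map_zpow₀, map_zpow₀]

end Const

/-! ### Valuation and reduction -/

section Rd

variable {T}

theorem val_le_one_iff_mem (g : F) : T.V.valuation g ≤ 1 ↔ g ∈ T.V :=
  T.V.valuation_le_one_iff g

theorem rd_eq_zero_of_val_lt {g : F} (h : T.V.valuation g < 1) : T.rd g = 0 := by
  have hg : g ∈ T.V := (T.V.valuation_le_one_iff g).1 h.le
  rw [T.rd_of_mem hg, T.red_eq_zero_iff]
  exact (T.V.valuation_lt_one_iff ⟨g, hg⟩).2 h

theorem val_lt_of_rd_eq_zero {g : F} (hg : g ∈ T.V) (h : T.rd g = 0) : T.V.valuation g < 1 := by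
  rw [T.rd_of_mem hg, T.red_eq_zero_iff] at h
  exact (T.V.valuation_lt_one_iff ⟨g, hg⟩).1 h

theorem isGU_iff_val_eq_one {g : F} : T.IsGU g ↔ T.V.valuation g = 1 := by
  constructor
  · rintro ⟨hg, hr⟩
    refine le_antisymm ((T.V.valuation_le_one_iff g).2 hg) ?_
    by_contra hlt
    rw [not_le] at hlt
    exact hr (rd_eq_zero_of_val_lt hlt)
  · intro h
    have hg : g ∈ T.V := (T.V.valuation_le_one_iff g).1 h.le
    refine ⟨hg, fun h0 => ?_⟩
    have := val_lt_of_rd_eq_zero hg h0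
    rw [h] at this
    exact lt_irrefl _ this

theorem rd_eq_of_val_sub_lt {g g' : F} (hg : g ∈ T.V) (hg' : g' ∈ T.V)
    (h : T.V.valuation (g - g') < 1) : T.rd g = T.rd g' := by
  have := rd_eq_zero_of_val_lt h
  rw [T.rd_sub hg hg', sub_eq_zero] at this
  exact this

end Rd

/-! ### Transfer of `KData` -/

section Transfer

variable {T}
variable (hT : ∀ c : AlgebraicClosure ℚ, algebraMap (AlgebraicClosure ℚ) F c ∈ T.V ↔ c ∈ A)
  {p : ℕ} {ζ ω : AlgebraicClosure ℚ}
  {σ : AlgebraicClosure ℚ ≃ₐ[ℚ] AlgebraicClosure ℚ}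

include hT in
/-- A semilinear automorphism over an element of the inertia group which preserves `T.V`
preserves the valuation of `T.V`. -/
theorem val_smul_eq (hσ : σ ∈ A.inertiaSubgroupIn ℚ) (σF : SemilinearAut (AlgebraicClosure ℚ) F)
    (hbase : ∀ c : AlgebraicClosure ℚ, SemilinearAut.baseAut σF c = σ c)
    (hmem : ∀ f : F, f ∈ T.V → σF • f ∈ T.V) (g : F) :
    T.V.valuation (σF • g) = T.V.valuation g := by
  by_cases hg0 : g = 0
  · rw [hg0, smul_zero]
  obtain ⟨c, hc0, hcg, hcr⟩ := T.exists_scale g hg0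
  have hcF : algebraMap (AlgebraicClosure ℚ) F c ≠ 0 :=
    (map_ne_zero_iff _ (algebraMap (AlgebraicClosure ℚ) F).injective).mpr hc0
  have hu : T.IsGU (algebraMap (AlgebraicClosure ℚ) F c * g) := by
    refine ⟨hcg, ?_⟩
    rw [T.rd_of_mem hcg]
    exact hcr
  have hu1 := isGU_iff_val_eq_one.1 hu
  -- `σF • u` is a unit
  have hσu : T.V.valuation (σF • (algebraMap (AlgebraicClosure ℚ) F c * g)) = 1 := by
    refine le_antisymm ((T.V.valuation_le_one_iff _).2 (hmem _ hu.1)) ?_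
    have h1 := hmem _ hu.inv_mem
    rw [smul_inv''] at h1
    have h2 := (T.V.valuation_le_one_iff _).2 h1
    rw [map_inv₀] at h2
    have h3 : σF • (algebraMap (AlgebraicClosure ℚ) F c * g) ≠ 0 := by
      rw [SemilinearAut.smul_def]
      exact (map_ne_zero_iff _ (SemilinearAut.toRingAut σF).injective).mpr hu.ne_zero
    exact (inv_le_one₀ (zero_lt_iff.2 ((Valuation.ne_zero_iff _).2 h3))).1 h2
  rw [smul_mul', SemilinearAut.smul_algebraMap, hbase, map_mul] at hσu
  rw [map_mul] at hu1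
  have h4 : T.V.valuation (algebraMap (AlgebraicClosure ℚ) F (σ c)) =
      T.V.valuation (algebraMap (AlgebraicClosure ℚ) F c) :=
    (val_const_eq_iff hT _ _).2 (val_sigma hσ c)
  rw [h4] at hσu
  have h5 : T.V.valuation (algebraMap (AlgebraicClosure ℚ) F c) ≠ 0 :=
    (Valuation.ne_zero_iff _).2 hcF
  exact mul_left_cancel₀ h5 (hσu.trans hu1.symm)

include hT in
/-- **Transfer of `KData`** from `(ℚ̄, A)` to `(F, T.V)`. -/
theorem kdata_fn (hA : A.LiesOverPrime p)
    (h : KData A.valuation (K0 A) p ζ ω (σ : AlgebraicClosure ℚ →+* AlgebraicClosure ℚ))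
    (hσ : σ ∈ A.inertiaSubgroupIn ℚ) (σF : SemilinearAut (AlgebraicClosure ℚ) F)
    (hbase : ∀ c : AlgebraicClosure ℚ, SemilinearAut.baseAut σF c = σ c)
    (hmem : ∀ f : F, f ∈ T.V → σF • f ∈ T.V)
    (F0 : Subfield F) (hF0 : ∀ c ∈ K0 A, algebraMap (AlgebraicClosure ℚ) F c ∈ F0)
    (hfix : ∀ g ∈ F0, σF • g = g)
    (hA1 : ∀ g ∈ F0, g ≠ 0 → ∃ c ∈ K0 A, c ≠ 0 ∧
      T.IsGU (algebraMap (AlgebraicClosure ℚ) F c * g)) :
    KData T.V.valuation F0 p (algebraMap (AlgebraicClosure ℚ) F ζ)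
      (algebraMap (AlgebraicClosure ℚ) F ω)
      ((SemilinearAut.toRingAut σF : F ≃+* F) : F →+* F) where
  prime := h.prime
  vp_lt := by
    have := (val_const_lt_one_iff hT (p : AlgebraicClosure ℚ)).2 h.vp_lt
    rwa [map_natCast] at this
  vp_ne := by
    rw [Ne, map_eq_zero]
    have hp0 : (p : AlgebraicClosure ℚ) ≠ 0 := h.p_ne_zero
    intro h0
    apply hp0
    apply (algebraMap (AlgebraicClosure ℚ) F).injective
    rw [map_natCast, map_zero]
    exact h0
  val0 := by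
    intro g hg hg0
    obtain ⟨c, hcK, hc0, hu⟩ := hA1 g hg hg0
    obtain ⟨n, hn⟩ := val_K0 h.prime hA c hcK hc0
    have h1 := val_const_zpow hT hn
    rw [map_natCast] at h1
    have h2 := isGU_iff_val_eq_one.1 hu
    rw [map_mul, h1] at h2
    refine ⟨-n, ?_⟩
    rw [zpow_neg]
    exact eq_inv_of_mul_eq_one_right h2
  root := h.root.map_of_injective (algebraMap (AlgebraicClosure ℚ) F).injective
  pow := by
    obtain ⟨u1, hu1, hv, hω⟩ := h.pow
    refine ⟨algebraMap (AlgebraicClosure ℚ) F u1, hF0 u1 hu1,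
      (val_const_eq_one_iff hT u1).2 hv, ?_⟩
    rw [← map_pow, hω, map_add, map_one, map_mul, map_natCast]
  σv := fun g => val_smul_eq hT hσ σF hbase hmem g
  σ0 := fun g hg => hfix g hg
  σζ := by
    show σF • algebraMap (AlgebraicClosure ℚ) F ζ = _
    rw [SemilinearAut.smul_algebraMap, hbase]
    congr 1
    exact h.σζ
  σω := by
    show σF • algebraMap (AlgebraicClosure ℚ) F ω = _
    rw [SemilinearAut.smul_algebraMap, hbase, ← map_mul]
    congr 1
    exact h.σω

theorem theta_map (ζ ω : AlgebraicClosure ℚ) :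
    theta (algebraMap (AlgebraicClosure ℚ) F ζ) (algebraMap (AlgebraicClosure ℚ) F ω) =
      algebraMap (AlgebraicClosure ℚ) F (theta ζ ω) := by
  simp only [theta, map_div₀, map_mul, map_sub, map_one]

/-- **(A2)**: for `g ∈ F0(ζ, ω)` integral, `(σF g - g) / θ² ∈ T.V`. -/
theorem stmt_A2 {F0 : Subfield F} {σF : SemilinearAut (AlgebraicClosure ℚ) F}
    (hK : KData T.V.valuation F0 p (algebraMap (AlgebraicClosure ℚ) F ζ)
      (algebraMap (AlgebraicClosure ℚ) F ω)
      ((SemilinearAut.toRingAut σF : F ≃+* F) : F →+* F))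
    {g : F} (hg : g ∈ IntermediateField.adjoin F0
      ({algebraMap (AlgebraicClosure ℚ) F ζ, algebraMap (AlgebraicClosure ℚ) F ω} : Set F))
    (hgV : g ∈ T.V) :
    (σF • g - g) / algebraMap (AlgebraicClosure ℚ) F (theta ζ ω) ^ 2 ∈ T.V := by
  rw [← T.V.valuation_le_one_iff, map_div₀, map_pow, ← theta_map]
  exact div_le_one_of_le₀ (hK.val_sigma_sub_adjoin hg ((T.V.valuation_le_one_iff g).2 hgV))
    zero_le

/-- **(A2), `K₃`-version** (`hR₁`, `hR₂` of Key-p with `θ = 1`): for `g ∈ F0(ω)` integral,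
`(σF g - g) / π ∈ T.V`. -/
theorem stmt_A2_k3 {F0 : Subfield F} {σF : SemilinearAut (AlgebraicClosure ℚ) F}
    (hK : KData T.V.valuation F0 p (algebraMap (AlgebraicClosure ℚ) F ζ)
      (algebraMap (AlgebraicClosure ℚ) F ω)
      ((SemilinearAut.toRingAut σF : F ≃+* F) : F →+* F))
    {g : F} (hg : g ∈ IntermediateField.adjoin F0
      ({algebraMap (AlgebraicClosure ℚ) F ω} : Set F))
    (hgV : g ∈ T.V) :
    (σF • g - g) / algebraMap (AlgebraicClosure ℚ) F (ζ - 1) ∈ T.V := by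
  rw [← T.V.valuation_le_one_iff, map_div₀, (algebraMap (AlgebraicClosure ℚ) F).map_sub,
    (algebraMap (AlgebraicClosure ℚ) F).map_one]
  exact div_le_one_of_le₀ (hK.val_sigma_sub_k3 hg ((T.V.valuation_le_one_iff g).2 hgV)) zero_le

end Transfer

/-! ### The constants of Key-p (peu ramifié case, `θ = 1`) -/

section KeyP

variable {T}
variable (hT : ∀ c : AlgebraicClosure ℚ, algebraMap (AlgebraicClosure ℚ) F c ∈ T.V ↔ c ∈ A)
  {p : ℕ} {ζ ω : AlgebraicClosure ℚ}
  {σ : AlgebraicClosure ℚ ≃ₐ[ℚ] AlgebraicClosure ℚ}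

include hT

theorem rd_const_eq_zero {c : AlgebraicClosure ℚ} (hc : A.valuation c < 1) :
    algebraMap (AlgebraicClosure ℚ) F c ∈ T.V ∧ T.rd (algebraMap (AlgebraicClosure ℚ) F c) = 0 :=
  ⟨(hT c).2 ((A.valuation_le_one_iff c).1 hc.le),
    rd_eq_zero_of_val_lt ((val_const_lt_one_iff hT c).2 hc)⟩

theorem isGU_const {c : AlgebraicClosure ℚ} (hc : A.valuation c = 1) :
    T.IsGU (algebraMap (AlgebraicClosure ℚ) F c) :=
  isGU_iff_val_eq_one.2 ((val_const_eq_one_iff hT c).2 hc)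

theorem rd_const_eq_of_sub {c d : AlgebraicClosure ℚ} (hc : c ∈ A) (hd : d ∈ A)
    (h : A.valuation (c - d) < 1) :
    T.rd (algebraMap (AlgebraicClosure ℚ) F c) = T.rd (algebraMap (AlgebraicClosure ℚ) F d) := by
  refine rd_eq_of_val_sub_lt ((hT c).2 hc) ((hT d).2 hd) ?_
  rw [← map_sub]
  exact (val_const_lt_one_iff hT _).2 h

/-- `hπ` of Key-p. -/
theorem keyP_pi_isCM
    (h : KData A.valuation (K0 A) p ζ ω (σ : AlgebraicClosure ℚ →+* AlgebraicClosure ℚ))
    (hp2 : p ≠ 2) :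
    algebraMap (AlgebraicClosure ℚ) F (ζ - 1) ∈ T.V ∧
      T.rd (algebraMap (AlgebraicClosure ℚ) F (ζ - 1)) = 0 :=
  rd_const_eq_zero hT (val_p_lt_val_pi A.valuation h.prime hp2 h.root h.vp_lt h.vp_ne).1

/-- `hϖ` of Key-p. -/
theorem keyP_varpi_isCM
    (h : KData A.valuation (K0 A) p ζ ω (σ : AlgebraicClosure ℚ →+* AlgebraicClosure ℚ)) :
    algebraMap (AlgebraicClosure ℚ) F (ω - 1) ∈ T.V ∧
      T.rd (algebraMap (AlgebraicClosure ℚ) F (ω - 1)) = 0 :=
  rd_const_eq_zero hT h.val_varpi_lt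

/-- `hπp` of Key-p: `rd (π ^ (p - 1) / p) = -1`. -/
theorem keyP_pi
    (h : KData A.valuation (K0 A) p ζ ω (σ : AlgebraicClosure ℚ →+* AlgebraicClosure ℚ))
    (hp2 : p ≠ 2) :
    T.rd (algebraMap (AlgebraicClosure ℚ) F ((ζ - 1) ^ (p - 1) / (p : AlgebraicClosure ℚ))) =
      -1 := by
  have h1 := val_pi_pow_div A.valuation h.prime hp2 h.root h.vp_lt h.vp_ne
  have h2 : A.valuation ((ζ - 1) ^ (p - 1) / (p : AlgebraicClosure ℚ)) ≤ 1 := by
    rw [map_div₀, map_pow, h.val_pi, div_self h.vp_ne]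
  have h3 : T.rd (algebraMap (AlgebraicClosure ℚ) F
      ((ζ - 1) ^ (p - 1) / (p : AlgebraicClosure ℚ))) =
      T.rd (algebraMap (AlgebraicClosure ℚ) F (-1)) := by
    refine rd_const_eq_of_sub hT ((A.valuation_le_one_iff _).1 h2) (A.neg_mem _ A.one_mem) ?_
    rwa [sub_neg_eq_add]
  rw [h3, map_neg, map_one, T.rd_neg T.V.one_mem, T.rd_one]

/-- `hϖp` of Key-p: `ϖ ^ p / p` is a unit. -/
theorem keyP_varpi
    (h : KData A.valuation (K0 A) p ζ ω (σ : AlgebraicClosure ℚ →+* AlgebraicClosure ℚ)) :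
    T.IsGU (algebraMap (AlgebraicClosure ℚ) F ((ω - 1) ^ p / (p : AlgebraicClosure ℚ))) := by
  refine isGU_const hT ?_
  rw [map_div₀, map_pow, h.val_varpi, div_self h.vp_ne]

/-- `hA3₁`, `hA3₂` of Key-p (with `θ = 1`), for a constant `a` of the maximal ideal fixed by
`I₃ = {τ ∈ I | τ ω = ω}`. -/
theorem keyP_A3 (hA : A.LiesOverPrime p)
    (h : KData A.valuation (K0 A) p ζ ω (σ : AlgebraicClosure ℚ →+* AlgebraicClosure ℚ))
    {a : AlgebraicClosure ℚ} (haA : a ∈ A.nonunits)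
    (ha : ∀ τ ∈ A.inertiaSubgroupIn ℚ, τ ω = ω → τ a = a) :
    algebraMap (AlgebraicClosure ℚ) F (a / (ω - 1)) ∈ T.V ∧
      T.rd (algebraMap (AlgebraicClosure ℚ) F ((σ a - a) / ((ζ - 1) * 1))) =
        T.rd (algebraMap (AlgebraicClosure ℚ) F (a / (ω - 1))) ∧
      (T.rd (algebraMap (AlgebraicClosure ℚ) F (a / (ω - 1))) = 0 →
        algebraMap (AlgebraicClosure ℚ) F (a / (ω - 1) ^ 2) ∈ T.V) := by
  have h1 := val_small_of_fixed3 hA h haA ha
  have h2 := val_sigma_sub_div_of_fixed3 hA h haA ha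
  have h3 : (σ a - a) / (ζ - 1) ∈ A :=
    val_sigma_sub_of_fixed3 hA h (A.nonunits_subset haA) ha
  refine ⟨(hT _).2 h1, ?_, fun h0 => ?_⟩
  · rw [mul_one]
    exact rd_const_eq_of_sub hT h3 h1 (A.mem_nonunits_iff.1 h2)
  · refine (hT _).2 (val_small_sq_of_fixed3 hA h ?_ ha)
    rw [A.mem_nonunits_iff]
    exact (val_const_lt_one_iff hT _).1 (val_lt_of_rd_eq_zero ((hT _).2 h1) h0)

end KeyP

end Fermat.Agent.BADP.H97

end
end
-- ==== END Fermat.Agent.BADP.H97_Bridge

-- ==== BEGIN Fermat.Agent.FL.H21_EchConst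
section

/-!
# G-FL (helper21): `Stmt_EchConst`, and DSTAB from FAM-ADD alone

* `stmt_EchConst_of : Stmt_EchInt → Stmt_EchUnique → H51.Stmt_EchConst`;
* `stmt_EchConst    : H51.Stmt_EchConst`;
* `stmt_DStab_of_famAdd : Stmt_FamAdd → Stmt_DStab`.
-/

set_option autoImplicit false

noncomputable section

open AlgebraicCurve

namespace Fermat.Agent.FL.H21

open Fermat.Agent.FL

/-- **(D) constant echelon bases**, from ECH-INT and ECH-UNIQUE. -/
theorem stmt_EchConst_of (hEI : Stmt_EchInt) (hEU : Stmt_EchUnique) : H51.Stmt_EchConst := by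
  intro K F k F' _ _ _ _ _ _ _ _ S hFF hFF' Γ _ G 𝒯 CS h𝒯 E hE hdeg
  obtain ⟨x, hx⟩ := h𝒯
  exact exists_isEch_of_deg hEI hEU S hFF hFF' G CS ⟨x, hx⟩ E hE hdeg

/-- **(D) constant echelon bases.** -/
theorem stmt_EchConst : H51.Stmt_EchConst :=
  stmt_EchConst_of H38.stmt_EchInt H46.stmt_EchUnique

/-- **DSTAB** from the addition in families. -/
theorem stmt_DStab_of_famAdd (hFA : Stmt_FamAdd) : Stmt_DStab :=
  H51.stmt_DStab_of' hFA H60.stmt_RedLinEq stmt_EchConst

end Fermat.Agent.FL.H21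

end
end
-- ==== END Fermat.Agent.FL.H21_EchConst

-- ==== BEGIN Fermat.Agent.FL.H36_Main
section

/-!
# G-FL: the abstract main theorem, status (helper36)

`stmt_FLAbs_of_famAdd_dStab : Stmt_FamAdd → Stmt_DStab → Stmt_FLAbs`: everything except
FAM-ADD and DSTAB is proved.
-/

set_option autoImplicit false

noncomputable section

namespace Fermat.Agent.FL.H36

open Fermat.Agent.FL

/-- **SETUP**, unconditional. -/
theorem stmt_Setup : Stmt_Setup :=
  stmt_Setup_of H38.stmt_Genus H60.stmt_ILift H60.stmt_Rep H46.stmt_EchUnique H38.stmt_EchInt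

/-- The abstract main theorem from FAM-ADD and DSTAB. -/
theorem stmt_FLAbs_of_famAdd_dStab (hFam : Stmt_FamAdd) (hD : Stmt_DStab) : Stmt_FLAbs :=
  stmt_FLAbs_of stmt_Setup H2.stmt_Basic
    (H40.stmt_Comul_of hFam H60.stmt_RedLinEq H46.stmt_EchUnique) hD

end Fermat.Agent.FL.H36

end
end
-- ==== END Fermat.Agent.FL.H36_Main

-- ==== BEGIN Fermat.Agent.FL.H46_FamAdd
section

/-!
# G-FL, package FAM-ADD (helper46), part 5: `Stmt_FamAdd`

`stmt_FamAdd_of : Stmt_FrameInt → Stmt_SubRed → Stmt_FamAdd`.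

The local ring of the class `univ` of `famRing A Mx My` is an `EvRing`; the chain over it has the
ranks of `Stmt_ChainCoord` at every point (on `F`) and modulo the maximal ideal (on `F'`);
`stmt_AbsAdd` gives a subbundle, `stmt_ECH` its echelon basis in the chart `Jz`, which is `Mz`
at every point by the uniqueness of echelon bases.
-/

set_option autoImplicit false
set_option linter.style.haveILetI false
set_option linter.unusedSectionVars false
set_option linter.unusedVariables false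
set_option maxHeartbeats 1600000

noncomputable section

open AlgebraicCurve Matrix

namespace Fermat.Agent.FL.H46

open Fermat.Agent.FL Fermat.Agent.RED Fermat.Agent.RED.H17

local notation "L" => riemannRochSpace

/-- A good chart of the reduction: if the column space of a matrix with independent columns is
the column space of an echelon matrix in the chart `J`, the minor of the chart is not zero. -/
theorem det_chart_ne_zero {Lf ι : Type} [Field Lf] [Fintype ι] [DecidableEq ι] {d : ℕ}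
    (N M : Matrix ι (Fin d) Lf) (J : Fin d → ι)
    (hM : ∀ a b, M (J a) b = if a = b then 1 else 0) (hN : LinearIndependent Lf N.col)
    (h : colSpace N = colSpace M) : (N.submatrix J id).det ≠ 0 := by
  have hinj : Function.Injective (N.submatrix J id).mulVec := by
    intro v w hvw
    have h0 : (N.submatrix J id) *ᵥ (v - w) = 0 := by
      rw [Matrix.mulVec_sub]
      exact sub_eq_zero.mpr hvw
    have h1 : N *ᵥ (v - w) ∈ colSpace M := by
      rw [← h, mem_colSpace_iff]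
      exact ⟨_, rfl⟩
    rw [mem_colSpace_iff] at h1
    obtain ⟨y, hy⟩ := h1
    have h2 : y = 0 := by
      funext a
      have h3 := congrFun hy (J a)
      rw [mulVec_ech_apply J M hM] at h3
      have h4 : (N *ᵥ (v - w)) (J a) = ((N.submatrix J id) *ᵥ (v - w)) a := rfl
      rw [h3, h4, h0]
    rw [h2, Matrix.mulVec_zero] at hy
    have h5 : Function.Injective N.mulVec := Matrix.mulVec_injective_iff.mpr hN
    have h6 : v - w = 0 := h5 (by rw [← hy, Matrix.mulVec_zero])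
    exact sub_eq_zero.mp h6
  have h7 := Matrix.mulVec_injective_iff_isUnit.mp hinj
  exact ((Matrix.isUnit_iff_isUnit_det _).mp h7).ne_zero

/-- **FAM-ADD**, given the frame packages. -/
theorem stmt_FamAdd_of (hFI : Stmt_FrameInt) (hSR : Stmt_SubRed) : Stmt_FamAdd := by
  intro K F k F' _ _ _ _ _ _ _ _ S hFF hFF' g c hc hR hR' hsemi B₁ B₂ E₀ hB₁ hB₂ hE₀ dE₀
    n₁ n₂₁ n₂ n₃ n₄ e₁ e₂₁ e₂ e₃ e₄ he₁ he₂₁ he₂ he₃ he₄ P _ Ex Ey Ez Ex' Ey' Ez' hEx hEy hEz
    hlin hl' d Jx Jy Jz Mx My Mz hMx hMy hMz i b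
  classical
  rcases isEmpty_or_nonempty P with hP | hP
  · exact ⟨1, 1, Subring.one_mem _, Subring.one_mem _, fun p => (hP.false p).elim,
      fun p => (hP.false p).elim⟩
  obtain ⟨p₀⟩ := hP
  have H := _root_.Fermat.Agent.FL.H46.ffHyp_of hFF
  have H' := _root_.Fermat.Agent.FL.H46.ffHyp_of hFF'
  have hdeg : ∀ D : Divisor K F,
      Divisor.degree (Finsupp.mapDomain S.r D) = Divisor.degree D :=
    fun D => degree_mapDomain H.deg_one H'.deg_one S.r D
  -- the ring and the class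
  have hMxA : ∀ p i b, Mx p i b ∈ constVal S := fun p => (hMx p).2.2.1
  have hMyA : ∀ p i b, My p i b ∈ constVal S := fun p => (hMy p).2.2.1
  have hcx : ∀ p p', (Mx p).map (rc S) = (Mx p').map (rc S) := fun p p' =>
    ech_rc_const S (hMx p) (hMx p')
      (by rw [mapDomain_sub', mapDomain_sub', (hEx p).2.2, (hEx p').2.2])
  have hcy : ∀ p p', (My p).map (rc S) = (My p').map (rc S) := fun p p' =>
    ech_rc_const S (hMy p) (hMy p')
      (by rw [mapDomain_sub', mapDomain_sub', (hEy p).2.2, (hEy p').2.2])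
  have hT := isFunRingA_famRing S Mx My hMxA hMyA
  have hC := isClass_famRing S Mx My p₀ hMxA hMyA
    (fun p p' i b => congrFun (congrFun (hcx p p') i) b)
    (fun p p' i b => congrFun (congrFun (hcy p p') i) b)
  obtain ⟨T, hTdef⟩ : ∃ T : Subring (P → K), T = famRing (constVal S).toSubring Mx My :=
    ⟨_, rfl⟩
  rw [← hTdef] at hT hC ⊢
  obtain ⟨Ev, hEv⟩ : ∃ Ev : EvRing (H18.locRing (constVal S) T Set.univ) k K
      (Set.univ : Set P), Ev = famEv S hT hC := ⟨_, rfl⟩
  have hev : ∀ {φ : P → K} (_ : φ ∈ T) (s : (Set.univ : Set P)),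
      Ev.ev s (liftF S T Set.univ φ) = φ s := by
    intro φ h s
    rw [hEv]
    exact ev_liftF S hT hC h s
  have hρ : ∀ {φ : P → K} (_ : φ ∈ T) (s : (Set.univ : Set P)),
      Ev.ρ (liftF S T Set.univ φ) = rc S (φ s) := by
    intro φ h s
    rw [hEv]
    exact ρ_liftF S hT hC h s
  have hconstT : ∀ {a : K}, a ∈ constVal S → (fun _ : P => a) ∈ T := by
    intro a ha
    rw [hTdef]
    exact const_mem_famRing S Mx My ha
  have hxT : ∀ i b, (fun p => Mx p i b) ∈ T := by
    intro i b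
    rw [hTdef]
    exact entry_mem_famRing_left S Mx My i b
  have hyT : ∀ i b, (fun p => My p i b) ∈ T := by
    intro i b
    rw [hTdef]
    exact entry_mem_famRing_right S Mx My i b
  let s₀ : (Set.univ : Set P) := ⟨p₀, Set.mem_univ p₀⟩
  -- structure constants
  obtain ⟨a, haA, ha, ha'⟩ := exists_structConst S hFI he₁ he₂₁ he₂
    (by abel : B₁ + (B₂ - B₁) = B₂)
  obtain ⟨bb, hbA, hb, hb'⟩ := exists_structConst S hFI he₁ he₂ he₃ rfl
  obtain ⟨cc, hcA, hcc, hcc'⟩ := exists_structConst S hFI he₃ he₃ he₄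
    (by rw [two_nsmul, two_nsmul]; abel : B₁ + B₂ + (B₁ + B₂) = 2 • B₁ + 2 • B₂)
  -- degrees
  have dY : c ≤ Divisor.degree (B₁ + B₂ - E₀) := by
    rw [map_sub, map_add, dE₀]
    omega
  have dU : c ≤ Divisor.degree (B₂ - E₀) := by
    rw [map_sub, dE₀]
    omega
  -- basis matrices of `L(B₁ + B₂ - E₀)` and `L(B₂ - E₀)`
  obtain ⟨dY, NY₀, hNYA, hNYli, hNY, hNY'⟩ := hSR K F k F' S hFF hFF' (B₁ + B₂) E₀ (Fin n₃) e₃
    he₃ hE₀ (riemann_le S hR hR' hdeg _ dY)
  obtain ⟨dU, NU₀, hNUA, hNUli, hNU, hNU'⟩ := hSR K F k F' S hFF hFF' B₂ E₀ (Fin n₂) e₂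
    he₂ hE₀ (riemann_le S hR hR' hdeg _ dU)
  -- the frame of `L(B₂ - B₁)` is not empty
  have hn₂₁ : 0 < n₂₁ := by
    have h1 := (hR (B₂ - B₁)).1
    have h2 : Module.finrank K (L (B₂ - B₁)) = n₂₁ := by
      rw [← he₂₁.1.2, finrank_span_eq_card he₂₁.1.1, Fintype.card_fin]
    rw [h2, map_sub] at h1
    omega
  have hd : 0 < d := b.pos
  let j₀ : Fin n₂₁ := ⟨0, hn₂₁⟩
  let q : Fin d := ⟨0, hd⟩
  -- the data over the local ring
  obtain ⟨aR, haR⟩ : ∃ aR : Fin n₁ → Fin n₂₁ → Fin n₂ → H18.locRing (constVal S) T Set.univ,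
      aR = fun i j l => liftF S T Set.univ (fun _ => a i j l) := ⟨_, rfl⟩
  obtain ⟨bR, hbR⟩ : ∃ bR : Fin n₁ → Fin n₂ → Fin n₃ → H18.locRing (constVal S) T Set.univ,
      bR = fun i j l => liftF S T Set.univ (fun _ => bb i j l) := ⟨_, rfl⟩
  obtain ⟨cR, hcR⟩ : ∃ cR : Fin n₃ → Fin n₃ → Fin n₄ → H18.locRing (constVal S) T Set.univ,
      cR = fun i j l => liftF S T Set.univ (fun _ => cc i j l) := ⟨_, rfl⟩
  obtain ⟨Nx, hNx⟩ : ∃ Nx : Matrix (Fin n₁) (Fin d) (H18.locRing (constVal S) T Set.univ),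
      Nx = fun i b => liftF S T Set.univ (fun p => Mx p i b) := ⟨_, rfl⟩
  obtain ⟨Ny, hNy⟩ : ∃ Ny : Matrix (Fin n₁) (Fin d) (H18.locRing (constVal S) T Set.univ),
      Ny = fun i b => liftF S T Set.univ (fun p => My p i b) := ⟨_, rfl⟩
  obtain ⟨NY, hNYdef⟩ : ∃ NY : Matrix (Fin n₃) (Fin dY) (H18.locRing (constVal S) T Set.univ),
      NY = fun i b => liftF S T Set.univ (fun _ => NY₀ i b) := ⟨_, rfl⟩
  obtain ⟨NU, hNUdef⟩ : ∃ NU : Matrix (Fin n₂) (Fin dU) (H18.locRing (constVal S) T Set.univ),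
      NU = fun i b => liftF S T Set.univ (fun _ => NU₀ i b) := ⟨_, rfl⟩
  obtain ⟨zv, hzv⟩ : ∃ zv : Fin n₃ → H18.locRing (constVal S) T Set.univ,
      zv = zR aR bR Nx Ny j₀ q := ⟨_, rfl⟩
  -- evaluations
  have eva : ∀ s, (fun i j l => Ev.ev s (aR i j l)) = a := by
    intro s
    funext i j l
    rw [haR]
    exact hev (hconstT (haA i j l)) s
  have evb : ∀ s, (fun i j l => Ev.ev s (bR i j l)) = bb := by
    intro s
    funext i j l
    rw [hbR]
    exact hev (hconstT (hbA i j l)) s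
  have evc : ∀ s, (fun i j l => Ev.ev s (cR i j l)) = cc := by
    intro s
    funext i j l
    rw [hcR]
    exact hev (hconstT (hcA i j l)) s
  have evx : ∀ s : (Set.univ : Set P), Nx.map (Ev.ev s) = Mx s := by
    intro s
    ext i b
    rw [Matrix.map_apply, hNx]
    exact hev (hxT i b) s
  have evy : ∀ s : (Set.univ : Set P), Ny.map (Ev.ev s) = My s := by
    intro s
    ext i b
    rw [Matrix.map_apply, hNy]
    exact hev (hyT i b) s
  have evY : ∀ s : (Set.univ : Set P), NY.map (Ev.ev s) = NY₀ := by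
    intro s
    ext i b
    rw [Matrix.map_apply, hNYdef]
    exact hev (hconstT (hNYA i b)) s
  have evU : ∀ s : (Set.univ : Set P), NU.map (Ev.ev s) = NU₀ := by
    intro s
    ext i b
    rw [Matrix.map_apply, hNUdef]
    exact hev (hconstT (hNUA i b)) s
  -- reductions
  have rda : (fun i j l => Ev.ρ (aR i j l)) = fun i j l => rc S (a i j l) := by
    funext i j l
    rw [haR]
    exact hρ (hconstT (haA i j l)) s₀
  have rdb : (fun i j l => Ev.ρ (bR i j l)) = fun i j l => rc S (bb i j l) := by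
    funext i j l
    rw [hbR]
    exact hρ (hconstT (hbA i j l)) s₀
  have rdc : (fun i j l => Ev.ρ (cR i j l)) = fun i j l => rc S (cc i j l) := by
    funext i j l
    rw [hcR]
    exact hρ (hconstT (hcA i j l)) s₀
  have rdx : Nx.map Ev.ρ = (Mx p₀).map (rc S) := by
    ext i b
    rw [Matrix.map_apply, Matrix.map_apply, hNx]
    exact hρ (hxT i b) s₀
  have rdy : Ny.map Ev.ρ = (My p₀).map (rc S) := by
    ext i b
    rw [Matrix.map_apply, Matrix.map_apply, hNy]
    exact hρ (hyT i b) s₀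
  have rdY : NY.map Ev.ρ = NY₀.map (rc S) := by
    ext i b
    rw [Matrix.map_apply, Matrix.map_apply, hNYdef]
    exact hρ (hconstT (hNYA i b)) s₀
  have rdU : NU.map Ev.ρ = NU₀.map (rc S) := by
    ext i b
    rw [Matrix.map_apply, Matrix.map_apply, hNUdef]
    exact hρ (hconstT (hNUA i b)) s₀
  -- subbundles
  have subx : IsSubB Ev Nx := by
    have h1 := linearIndependent_col_of_ech Jx _ (ech_map_rc S Jx (Mx p₀) (hMx p₀).1)
    rw [← rdx] at h1
    exact h1
  have suby : IsSubB Ev Ny := by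
    have h1 := linearIndependent_col_of_ech Jy _ (ech_map_rc S Jy (My p₀) (hMy p₀).1)
    rw [← rdy] at h1
    exact h1
  have subY : IsSubB Ev NY := by
    have h1 : LinearIndependent k (NY₀.map (rc S)).col := hNYli
    rw [← rdY] at h1
    exact h1
  have subU : IsSubB Ev NU := by
    have h1 : LinearIndependent k (NU₀.map (rc S)).col := hNUli
    rw [← rdU] at h1
    exact h1
  -- nonzero columns
  have colne : ∀ {Lf : Type} [Field Lf] (J : Fin d → Fin n₁) (M : Matrix (Fin n₁) (Fin d) Lf),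
      (∀ a b, M (J a) b = if a = b then 1 else 0) → M.col q ≠ 0 := by
    intro Lf _ J M hM h0
    have h1 := congrFun h0 (J q)
    rw [Matrix.col_apply, hM, if_pos rfl] at h1
    exact one_ne_zero h1
  -- the chain on `F`
  have hK : ∀ s : (Set.univ : Set P),
      (chainAt aR bR cR Nx Ny NY NU zv (Ev.ev s)).Z = coordSpace e₁ (L (B₁ - Ez s)) ∧
      (Module.finrank K (chainAt aR bR cR Nx Ny NY NU zv (Ev.ev s)).W2 : ℤ) =
        Divisor.degree B₂ - 2 * g + 1 ∧
      (Module.finrank K (chainAt aR bR cR Nx Ny NY NU zv (Ev.ev s)).P : ℤ) =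
        Divisor.degree B₁ + Divisor.degree B₂ - 3 * g + 1 ∧
      (Module.finrank K (chainAt aR bR cR Nx Ny NY NU zv (Ev.ev s)).Yz : ℤ) =
        Divisor.degree B₁ + Divisor.degree B₂ - 2 * g + 1 ∧
      Module.finrank K (chainAt aR bR cR Nx Ny NY NU zv (Ev.ev s)).Ys = 1 ∧
      (Module.finrank K (chainAt aR bR cR Nx Ny NY NU zv (Ev.ev s)).yP : ℤ) =
        Divisor.degree B₁ + Divisor.degree B₂ - 3 * g + 1 ∧
      (Module.finrank K (chainAt aR bR cR Nx Ny NY NU zv (Ev.ev s)).Rr : ℤ) =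
        Divisor.degree B₁ + Divisor.degree B₂ - 3 * g + 1 ∧
      (Module.finrank K (chainAt aR bR cR Nx Ny NY NU zv (Ev.ev s)).Z : ℤ) =
        Divisor.degree B₁ - 2 * g + 1 := by
    intro s
    obtain ⟨f, hf0, hfdiv⟩ := hlin s
    have hfL : f ∈ L (Ex s + Ey s - E₀) := by
      rw [mem_L_iff_ord]
      intro v
      right
      rw [hfdiv v]
      have h1 := H2.nonneg_apply (hEz s).1 v
      simp only [Finsupp.sub_apply, Finsupp.add_apply]
      omega
    have hl1 : Module.finrank K (L (Ex s + Ey s - E₀)) = 1 := by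
      haveI := H.finite (Ex s + Ey s - E₀)
      have h1 := hsemi (Ex s + Ey s - E₀)
      rw [mapDomain_sub', Finsupp.mapDomain_add, (hEx s).2.2, (hEy s).2.2, hl'] at h1
      have h2 : 0 < Module.finrank K (L (Ex s + Ey s - E₀)) := by
        rw [Module.finrank_pos_iff_exists_ne_zero]
        exact ⟨⟨f, hfL⟩, fun h => hf0 (congrArg Subtype.val h)⟩
      omega
    refine chain_model hFF hR hc hE₀ (hEx s).1 (hEy s).1 (hEz s).1 dE₀ (hEx s).2.1
      (hEy s).2.1 (hEz s).2.1 hB₁ hB₂ hf0 hfdiv hl1 he₁.1 he₂₁.1 he₂.1 he₃.1 he₄.1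
      (chainAt aR bR cR Nx Ny NY NU zv (Ev.ev s)) ?_ ?_ ?_ (Nx.map (Ev.ev s))
      (Ny.map (Ev.ev s)) q j₀ rfl rfl ?_ ?_ ?_ ?_ ?_ ?_ ?_
    · intro i j
      rw [show (chainAt aR bR cR Nx Ny NY NU zv (Ev.ev s)).a = a from eva s]
      exact ha i j
    · intro i j
      rw [show (chainAt aR bR cR Nx Ny NY NU zv (Ev.ev s)).b = bb from evb s]
      exact hb i j
    · intro i j
      rw [show (chainAt aR bR cR Nx Ny NY NU zv (Ev.ev s)).c = cc from evc s]
      exact hcc i j
    · rw [evx s]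
      exact (hMx s).2.1
    · rw [evy s]
      exact (hMy s).2.1
    · rw [evx s]
      exact colne Jx _ (hMx s).1
    · rw [evy s]
      exact colne Jy _ (hMy s).1
    · show colSpace (NY.map (Ev.ev s)) = _
      rw [evY s]
      exact hNY
    · show colSpace (NU.map (Ev.ev s)) = _
      rw [evU s]
      exact hNU
    · show (fun l => Ev.ev s (zv l)) = _
      rw [hzv]
      exact map_zR (Ev.ev s) aR bR Nx Ny j₀ q
  -- the chain on `F'`
  have hEx0 := hEx p₀
  have hEy0 := hEy p₀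
  have hEz0 := hEz p₀
  have hk : (chainAt aR bR cR Nx Ny NY NU zv Ev.ρ).Z =
        coordSpace (fun i => S.rd (e₁ i)) (L (Finsupp.mapDomain S.r B₁ - Ez')) ∧
      (Module.finrank k (chainAt aR bR cR Nx Ny NY NU zv Ev.ρ).W2 : ℤ) =
        Divisor.degree B₂ - 2 * g + 1 ∧
      (Module.finrank k (chainAt aR bR cR Nx Ny NY NU zv Ev.ρ).P : ℤ) =
        Divisor.degree B₁ + Divisor.degree B₂ - 3 * g + 1 ∧
      (Module.finrank k (chainAt aR bR cR Nx Ny NY NU zv Ev.ρ).Yz : ℤ) =
        Divisor.degree B₁ + Divisor.degree B₂ - 2 * g + 1 ∧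
      Module.finrank k (chainAt aR bR cR Nx Ny NY NU zv Ev.ρ).Ys = 1 ∧
      (Module.finrank k (chainAt aR bR cR Nx Ny NY NU zv Ev.ρ).yP : ℤ) =
        Divisor.degree B₁ + Divisor.degree B₂ - 3 * g + 1 ∧
      (Module.finrank k (chainAt aR bR cR Nx Ny NY NU zv Ev.ρ).Rr : ℤ) =
        Divisor.degree B₁ + Divisor.degree B₂ - 3 * g + 1 ∧
      (Module.finrank k (chainAt aR bR cR Nx Ny NY NU zv Ev.ρ).Z : ℤ) =
        Divisor.degree B₁ - 2 * g + 1 := by
    obtain ⟨f, hf0, hfdiv⟩ := hlin p₀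
    obtain ⟨f', hf'0, hf'div⟩ := exists_red_principal S hf0 _ hfdiv
    have e1 : Finsupp.mapDomain S.r (Ez p₀ + E₀ - Ex p₀ - Ey p₀) =
        Ez' + Finsupp.mapDomain S.r E₀ - Ex' - Ey' := by
      rw [mapDomain_sub', mapDomain_sub', Finsupp.mapDomain_add, hEx0.2.2, hEy0.2.2,
        hEz0.2.2]
    rw [e1] at hf'div
    have h1 := chain_model hFF' hR' hc (B₁ := Finsupp.mapDomain S.r B₁)
      (B₂ := Finsupp.mapDomain S.r B₂) (E₀ := Finsupp.mapDomain S.r E₀) (Ex := Ex')
      (Ey := Ey') (Ez := Ez') (mapDomain_nonneg S.r hE₀)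
      (by rw [← hEx0.2.2]; exact mapDomain_nonneg S.r hEx0.1)
      (by rw [← hEy0.2.2]; exact mapDomain_nonneg S.r hEy0.1)
      (by rw [← hEz0.2.2]; exact mapDomain_nonneg S.r hEz0.1)
      (by rw [hdeg, dE₀]) (by rw [← hEx0.2.2, hdeg, hEx0.2.1])
      (by rw [← hEy0.2.2, hdeg, hEy0.2.1]) (by rw [← hEz0.2.2, hdeg, hEz0.2.1])
      (by rw [hdeg]; exact hB₁) (by rw [hdeg, hdeg]; exact hB₂) hf'0 hf'div hl'
      (e₁ := fun i => S.rd (e₁ i)) (e₂₁ := fun i => S.rd (e₂₁ i)) (e₂ := fun i => S.rd (e₂ i))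
      (e₃ := fun i => S.rd (e₃ i)) (e₄ := fun i => S.rd (e₄ i))
      he₁.2.2 (by rw [← mapDomain_sub']; exact he₂₁.2.2) he₂.2.2
      (by rw [← Finsupp.mapDomain_add]; exact he₃.2.2)
      (by
        have h2 := he₄.2.2
        rw [two_nsmul, two_nsmul, Finsupp.mapDomain_add, Finsupp.mapDomain_add,
          Finsupp.mapDomain_add, ← two_nsmul, ← two_nsmul] at h2
        exact h2)
      (chainAt aR bR cR Nx Ny NY NU zv Ev.ρ) ?_ ?_ ?_ (Nx.map Ev.ρ) (Ny.map Ev.ρ) q j₀
      rfl rfl ?_ ?_ ?_ ?_ ?_ ?_ ?_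
    · rw [hdeg, hdeg] at h1
      exact h1
    · intro i j
      rw [show (chainAt aR bR cR Nx Ny NY NU zv Ev.ρ).a = fun i j l => rc S (a i j l) from rda]
      exact ha' i j
    · intro i j
      rw [show (chainAt aR bR cR Nx Ny NY NU zv Ev.ρ).b = fun i j l => rc S (bb i j l)
        from rdb]
      exact hb' i j
    · intro i j
      rw [show (chainAt aR bR cR Nx Ny NY NU zv Ev.ρ).c = fun i j l => rc S (cc i j l)
        from rdc]
      exact hcc' i j
    · rw [rdx, (hMx p₀).2.2.2, mapDomain_sub', hEx0.2.2]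
    · rw [rdy, (hMy p₀).2.2.2, mapDomain_sub', hEy0.2.2]
    · rw [rdx]
      exact colne Jx _ (ech_map_rc S Jx (Mx p₀) (hMx p₀).1)
    · rw [rdy]
      exact colne Jy _ (ech_map_rc S Jy (My p₀) (hMy p₀).1)
    · show colSpace (NY.map Ev.ρ) = _
      rw [rdY, hNY', mapDomain_sub', Finsupp.mapDomain_add]
    · show colSpace (NU.map Ev.ρ) = _
      rw [rdU, hNU', mapDomain_sub']
    · show (fun l => Ev.ρ (zv l)) = _
      rw [hzv]
      exact map_zR Ev.ρ aR bR Nx Ny j₀ q
  -- the abstract addition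
  obtain ⟨d', N, hNsub, hNρ, hNev⟩ := stmt_AbsAdd (H18.locRing (constVal S) T Set.univ) k K
    (Set.univ : Set P) Ev (Fin n₁) (Fin n₂₁) (Fin n₂) (Fin n₃) (Fin n₄) d d dY dU aR bR cR
    Nx Ny NY NU zv subx suby subY subU
    (fun s => by
      have h1 := (hK s).2.1
      have h2 := hk.2.1
      have h3 : (Module.finrank K (chainAt aR bR cR Nx Ny NY NU zv (Ev.ev s)).W2 : ℤ) =
          (Module.finrank k (chainAt aR bR cR Nx Ny NY NU zv Ev.ρ).W2 : ℤ) := by rw [h1, h2]
      exact le_of_eq (by exact_mod_cast h3))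
    (fun s => by
      have h1 := (hK s).2.2.1
      have h2 := hk.2.2.1
      have h3 : (Module.finrank K (chainAt aR bR cR Nx Ny NY NU zv (Ev.ev s)).P : ℤ) =
          (Module.finrank k (chainAt aR bR cR Nx Ny NY NU zv Ev.ρ).P : ℤ) := by rw [h1, h2]
      exact le_of_eq (by exact_mod_cast h3))
    (fun s => by
      have h1 := (hK s).2.2.2.1
      have h2 := hk.2.2.2.1
      have h3 : (Module.finrank K (chainAt aR bR cR Nx Ny NY NU zv (Ev.ev s)).Yz : ℤ) =
          (Module.finrank k (chainAt aR bR cR Nx Ny NY NU zv Ev.ρ).Yz : ℤ) := by rw [h1, h2]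
      exact le_of_eq (by exact_mod_cast h3))
    (fun s => by
      have h1 := (hK s).2.2.2.2.1
      have h2 := hk.2.2.2.2.1
      rw [h1, h2])
    (fun s => by
      have h1 := (hK s).2.2.2.2.2.1
      have h2 := hk.2.2.2.2.2.1
      have h3 : (Module.finrank K (chainAt aR bR cR Nx Ny NY NU zv (Ev.ev s)).yP : ℤ) =
          (Module.finrank k (chainAt aR bR cR Nx Ny NY NU zv Ev.ρ).yP : ℤ) := by rw [h1, h2]
      exact le_of_eq (by exact_mod_cast h3))
    (fun s => by
      have h1 := (hK s).2.2.2.2.2.2.1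
      have h2 := hk.2.2.2.2.2.2.1
      have h3 : (Module.finrank k (chainAt aR bR cR Nx Ny NY NU zv Ev.ρ).Rr : ℤ) =
          (Module.finrank K (chainAt aR bR cR Nx Ny NY NU zv (Ev.ev s)).Rr : ℤ) := by
        rw [h1, h2]
      exact le_of_eq (by exact_mod_cast h3))
    (fun s => by
      have h1 := (hK s).2.2.2.2.2.2.2
      have h2 := hk.2.2.2.2.2.2.2
      have h3 : (Module.finrank k (chainAt aR bR cR Nx Ny NY NU zv Ev.ρ).Z : ℤ) =
          (Module.finrank K (chainAt aR bR cR Nx Ny NY NU zv (Ev.ev s)).Z : ℤ) := by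
        rw [h1, h2]
      exact le_of_eq (by exact_mod_cast h3))
  -- the reduction of the result
  have hMz'ech := ech_map_rc S Jz (Mz p₀) (hMz p₀).1
  have hNρ' : colSpace (N.map Ev.ρ) = colSpace ((Mz p₀).map (rc S)) := by
    rw [hNρ, hk.1, (hMz p₀).2.2.2, mapDomain_sub', hEz0.2.2]
  have hNli : LinearIndependent k (N.map Ev.ρ).col := hNsub
  have hdd : d' = d := by
    have h1 := finrank_colSpace_of_li _ hNli
    have h2 := finrank_colSpace_of_li _ (linearIndependent_col_of_ech Jz _ hMz'ech)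
    rw [hNρ'] at h1
    omega
  subst hdd
  have hdet : ((N.map Ev.ρ).submatrix Jz id).det ≠ 0 :=
    det_chart_ne_zero _ _ Jz hMz'ech hNli hNρ'
  obtain ⟨MR, hMRech, -, hMRev⟩ := stmt_ECH (H18.locRing (constVal S) T Set.univ) k K
    (Set.univ : Set P) Ev (Fin n₁) d' N Jz hdet
  have hfinal : ∀ s : (Set.univ : Set P), MR.map (Ev.ev s) = Mz s := by
    intro s
    refine ech_unique Jz _ _ (fun a b => ?_) (hMz s).1 ?_
    · rw [Matrix.map_apply, hMRech]
      split_ifs
      · exact map_one _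
      · exact map_zero _
    · rw [hMRev s, hNev s, (hK s).1]
      exact (hMz s).2.1.symm
  -- the entry
  obtain ⟨Nn, hNn, D, hD, hDu, hND⟩ := (MR i b).2
  refine ⟨D, Nn, hD, hNn, fun p => ?_, fun p => ?_⟩
  · have h1 := hDu ⟨p, Set.mem_univ p⟩
    exact ⟨H18.ne_zero_of_val_eq_one h1, H18.mem_of_val_le_one (H18.val_inv_eq_one h1).le⟩
  · have h1 := hND ⟨p, Set.mem_univ p⟩
    have h2 := congrFun (congrFun (hfinal ⟨p, Set.mem_univ p⟩) i) b
    rw [Matrix.map_apply] at h2
    have h3 : Ev.ev ⟨p, Set.mem_univ p⟩ (MR i b) = (MR i b).1 ⟨p, Set.mem_univ p⟩ := by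
      rw [hEv]
      rfl
    rw [h3] at h2
    rw [← h2]
    exact h1

end Fermat.Agent.FL.H46

end
end
-- ==== END Fermat.Agent.FL.H46_FamAdd

-- ==== BEGIN Fermat.Agent.Lib.HopfOrderLoc.GenMod
section

/-!
# `genRing` as a finitely generated `A`-module; the subgroup `I ⊔ Gal(ℚ̄/L)` (item 71, helper32)

* `genMod A h` : the `A`-submodule of `M → ℚ̄` underlying `genRing A h`; `genMod_fg`,
  `genMod_eq_span` (spanned by the monomials in the `h j`).
* `finiteIndex_sup` : `I ⊔ Gal(ℚ̄/L)` has finite index for a number field `L`.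
* `fixer_of_sup` : monomials are fixed by `I ⊔ Gal(ℚ̄/L)`.
-/

set_option autoImplicit false
set_option linter.style.haveILetI false
set_option linter.unusedSectionVars false

namespace Fermat.Agent.Lib.HopfOrderLoc

open Fermat.Agent.Lib.FrobExists Fermat.Agent.Lib.InertiaBridge

local notation "K" => AlgebraicClosure ℚ
local notation "GQ" => (AlgebraicClosure ℚ ≃ₐ[ℚ] AlgebraicClosure ℚ)

section GenMod

variable (A : ValuationSubring K) {M ι : Type} (h : ι → M → K)

/-- The `A`-module underlying `genRing A h`. -/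
noncomputable def genMod : Submodule ↥A (M → K) :=
  Subalgebra.toSubmodule (Algebra.adjoin ↥A (Set.range h))

lemma adjoin_toSubring_eq :
    (Algebra.adjoin ↥A (Set.range h)).toSubring = genRing A.toSubring h := by
  rw [Algebra.adjoin_eq_ring_closure]
  unfold genRing
  congr 1
  congr 1
  ext g
  constructor
  · rintro ⟨a, rfl⟩
    exact ⟨a, a.2, rfl⟩
  · rintro ⟨a, ha, rfl⟩
    exact ⟨⟨a, ha⟩, rfl⟩

lemma mem_genMod_iff (f : M → K) : f ∈ genMod A h ↔ f ∈ genRing A.toSubring h := by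
  rw [← adjoin_toSubring_eq]
  rfl

lemma genMod_eq_span :
    genMod A h = Submodule.span ↥A (Submonoid.closure (Set.range h) : Set (M → K)) :=
  Algebra.adjoin_eq_span ↥A (Set.range h)

lemma smul_fun_apply (a : ↥A) (g : M → K) (m : M) : (a • g) m = (a : K) * g m := rfl

variable [Finite M] [Finite ι]

lemma isIntegral_gen (integral : ∀ j x, h j x ∈ A) (j : ι) : IsIntegral ↥A (h j) := by
  let h' : M → ↥A := fun x => ⟨h j x, integral j x⟩
  have h1 : IsIntegral ↥A h' := Algebra.IsIntegral.isIntegral h'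
  have h2 := h1.map ((Algebra.ofId ↥A K).compLeft M)
  have h3 : ((Algebra.ofId ↥A K).compLeft M) h' = h j := by
    funext x
    rfl
  rw [h3] at h2
  exact h2

lemma genMod_fg (integral : ∀ j x, h j x ∈ A) : (genMod A h).FG :=
  fg_adjoin_of_finite (Set.finite_range h) (by
    rintro _ ⟨j, rfl⟩
    exact isIntegral_gen A h integral j)

end GenMod

section Sup

variable (A : ValuationSubring K) (L : IntermediateField ℚ K)

lemma finiteIndex_fixingSubgroup [FiniteDimensional ℚ L] [hn : Normal ℚ L] :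
    L.fixingSubgroup.FiniteIndex := by
  have h1 := @IntermediateField.restrictNormalHom_ker ℚ K _ _ _ L hn
  rw [← h1]
  exact Subgroup.finiteIndex_ker _

lemma finiteIndex_sup [FiniteDimensional ℚ L] [hn : Normal ℚ L] :
    (A.inertiaSubgroupIn ℚ ⊔ L.fixingSubgroup).FiniteIndex := by
  haveI := @finiteIndex_fixingSubgroup L _ hn
  exact Subgroup.finiteIndex_of_le (le_sup_right : L.fixingSubgroup ≤ _)

variable {M ι : Type} (act : GQ → M → M) (h : ι → M → K)
variable (act_one : ∀ x, act 1 x = x) (act_mul : ∀ σ τ x, act (σ * τ) x = act σ (act τ x))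

include act_one act_mul in
/-- The generators are fixed by `I ⊔ Gal(ℚ̄/L)`. -/
lemma sup_le_fixer
    (equivariant : ∀ j, ∀ σ ∈ A.inertiaSubgroupIn ℚ, ∀ x, h j (act σ x) = σ (h j x))
    (hLact : ∀ σ ∈ L.fixingSubgroup, ∀ x, act σ x = x) (hLval : ∀ j x, h j x ∈ L) :
    A.inertiaSubgroupIn ℚ ⊔ L.fixingSubgroup ≤ fixer act act_one act_mul h := by
  apply sup_le
  · intro σ hσ j
    exact (twist_eq_iff act act_one act_mul σ (h j)).mpr (equivariant j σ hσ)
  · intro σ hσ j
    apply (twist_eq_iff act act_one act_mul σ (h j)).mpr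
    intro x
    rw [hLact σ hσ x]
    exact ((IntermediateField.mem_fixingSubgroup_iff L σ).mp hσ (h j x) (hLval j x)).symm

include act_one act_mul in
/-- Monomials are fixed by `I ⊔ Gal(ℚ̄/L)`. -/
lemma twist_monomial_of_sup
    (equivariant : ∀ j, ∀ σ ∈ A.inertiaSubgroupIn ℚ, ∀ x, h j (act σ x) = σ (h j x))
    (hLact : ∀ σ ∈ L.fixingSubgroup, ∀ x, act σ x = x) (hLval : ∀ j x, h j x ∈ L)
    {f : M → K} (hf : f ∈ Submonoid.closure (Set.range h))
    (η : GQ) (hη : η ∈ A.inertiaSubgroupIn ℚ ⊔ L.fixingSubgroup) : twist act η f = f :=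
  twist_monomial_eq act h η
    (sup_le_fixer A L act h act_one act_mul equivariant hLact hLval hη) hf

end Sup

end Fermat.Agent.Lib.HopfOrderLoc

end
-- ==== END Fermat.Agent.Lib.HopfOrderLoc.GenMod
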