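-- GENERATED (merged mirror, NOTES/tools/trim/merge3_helper67.py): 3 modules of the originals, bodies verbatim.
import Fermat.Agent.Zm.S33_L09_000
import Fermat.Agent.Zm.S33_L06_000
import Fermat.Agent.Zm.S33_L08_000
import Fermat.Agent.Zm.S33_L03_003
import Fermat.Agent.Zm.S33_L02_000
import Fermat.Agent.Zm.S35_L21_000

-- ==== BEGIN Fermat.Agent.FL.H46_FamAddFinal
section

/-!
# G-FL, package FAM-ADD (helper46): `Stmt_FamAdd`, unconditional

`stmt_FamAdd : Stmt_FamAdd`, from `stmt_FamAdd_of` and helper38's `stmt_FrameInt`,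
`stmt_SubRed`.
-/

set_option autoImplicit false

namespace Fermat.Agent.FL.H46

open Fermat.Agent.FL

/-- **FAM-ADD.** -/
theorem stmt_FamAdd : Stmt_FamAdd :=
  stmt_FamAdd_of H38.stmt_FrameInt H38.stmt_SubRed

end Fermat.Agent.FL.H46

end
-- ==== END Fermat.Agent.FL.H46_FamAddFinal

-- ==== BEGIN Fermat.Agent.Lib.HopfOrderLoc.Key
section

/-!
# The descent step of the local generator criterion (item 71, helper32)

`key_monomial`: every monomial `f` in the generators lies in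
`A • (G_ℚ-fixed elements of genRing) + m_A • genRing`.
`genMod_le_span_fixed`: hence (Nakayama) `genRing` is spanned over `A` by its `G_ℚ`-fixed
elements.
-/

set_option autoImplicit false
set_option linter.style.haveILetI false
set_option linter.unusedSectionVars false
set_option linter.unusedVariables false

namespace Fermat.Agent.Lib.HopfOrderLoc

open Fermat.Agent.Lib.FrobExists Fermat.Agent.Lib.InertiaBridge

local notation "K" => AlgebraicClosure ℚ
local notation "GQ" => (AlgebraicClosure ℚ ≃ₐ[ℚ] AlgebraicClosure ℚ)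

section Rep

variable (H D : Subgroup GQ)

open Classical in
/-- Representatives of the left cosets of `H`, chosen in `D` whenever possible. -/
noncomputable def cosetRep (q : GQ ⧸ H) : GQ :=
  if hq : ∃ δ ∈ D, (δ : GQ ⧸ H) = q then Classical.choose hq else Quotient.out q

lemma cosetRep_mk (q : GQ ⧸ H) : (cosetRep H D q : GQ ⧸ H) = q := by
  unfold cosetRep
  split_ifs with hq
  · exact (Classical.choose_spec hq).2
  · exact Quotient.out_eq q

lemma cosetRep_mem (q : GQ ⧸ H) (hq : ∃ δ ∈ D, (δ : GQ ⧸ H) = q) : cosetRep H D q ∈ D := by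
  unfold cosetRep
  rw [dif_pos hq]
  exact (Classical.choose_spec hq).1

lemma cosetRep_notMem (q : GQ ⧸ H) (hq : ¬ ∃ δ ∈ D, (δ : GQ ⧸ H) = q) (η : GQ) (hη : η ∈ H) :
    cosetRep H D q * η ∉ D := by
  intro hmem
  apply hq
  refine ⟨cosetRep H D q * η, hmem, ?_⟩
  rw [← cosetRep_mk H D q]
  apply QuotientGroup.eq.mpr
  have : (cosetRep H D q * η)⁻¹ * cosetRep H D (↑(cosetRep H D q)) ∈ H := by
    rw [cosetRep_mk]
    have h1 : (cosetRep H D q * η)⁻¹ * cosetRep H D q = η⁻¹ := by group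
    rw [h1]
    exact H.inv_mem hη
  rw [cosetRep_mk] at this ⊢
  exact this

lemma cosetRep_one_mem : cosetRep H D ((1 : GQ) : GQ ⧸ H) ∈ H := by
  have h1 := cosetRep_mk H D ((1 : GQ) : GQ ⧸ H)
  have h2 := QuotientGroup.eq.mp h1
  have h3 : (cosetRep H D ((1 : GQ) : GQ ⧸ H))⁻¹ ∈ H := by simpa using h2
  simpa using H.inv_mem h3

end Rep

section Key

variable {M ι : Type} [Finite M] [Finite ι]

/-- The `G_ℚ`-fixed elements of `genRing A h`. -/
def fixedGen (A : ValuationSubring K) (act : GQ → M → M) (h : ι → M → K) : Set (M → K) :=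
  {f | f ∈ genRing A.toSubring h ∧ ∀ σ, twist act σ f = f}

/-- Functions divisible by `ℓ ^ (N + 1)`, `N` a conductor exponent, lie in `m_A • genMod`. -/
lemma mem_smul_of_val_le (ℓ : ℕ) (hℓ : ℓ.Prime) (A : ValuationSubring K)
    (hA : A.LiesOverPrime ℓ) (h : ι → M → K) (N : ℕ)
    (hN : ∀ φ : M → K, (∀ x, φ x ∈ A) → (fun x => (ℓ : K) ^ N * φ x) ∈ genRing A.toSubring h)
    (g : M → K) (hg : ∀ m, A.valuation (g m) ≤ A.valuation ((ℓ : K) ^ (N + 1))) :
    g ∈ IsLocalRing.maximalIdeal ↥A • genMod A h := by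
  have hℓ0 : (ℓ : K) ≠ 0 := by exact_mod_cast hℓ.ne_zero
  have hℓA : (ℓ : K) ∈ A.nonunits := hA
  have hℓmem : (ℓ : K) ∈ A := (A.valuation_le_one_iff _).mp (le_of_lt (A.mem_nonunits_iff.mp hℓA))
  have hb : ∀ m, g m / (ℓ : K) ^ (N + 1) ∈ A := by
    intro m
    rw [← A.valuation_le_one_iff, map_div₀,
      div_le_one₀ ((Valuation.pos_iff _).mpr (pow_ne_zero _ hℓ0))]
    exact hg m
  have h1 : (fun x => (ℓ : K) ^ N * (g x / (ℓ : K) ^ (N + 1))) ∈ genMod A h :=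
    (mem_genMod_iff A h _).mpr (hN _ hb)
  have h2 : (⟨(ℓ : K), hℓmem⟩ : ↥A) ∈ IsLocalRing.maximalIdeal ↥A := by
    rw [ValuationSubring.valuation_lt_one_iff]
    exact A.mem_nonunits_iff.mp hℓA
  have h3 : g = (⟨(ℓ : K), hℓmem⟩ : ↥A) • (fun x => (ℓ : K) ^ N * (g x / (ℓ : K) ^ (N + 1))) := by
    funext m
    rw [smul_fun_apply]
    show g m = (ℓ : K) * ((ℓ : K) ^ N * (g m / (ℓ : K) ^ (N + 1)))
    field_simp
    ring
  rw [h3]
  exact Submodule.smul_mem_smul h2 h1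

end Key

end Fermat.Agent.Lib.HopfOrderLoc

end
-- ==== END Fermat.Agent.Lib.HopfOrderLoc.Key

-- ==== BEGIN Fermat.Agent.S33.New.H86_Asm
section
attribute [local instance 10000] SubalgebraClass.toAlgebra
attribute [local instance 10000] HahnSeries.powerSeriesAlgebra

/-!
# S33, the `p`-new case: assembly of the Kummer form of (T3) at the tame levels  (helper86)

* `exists_modSSD` : the modular semistable Deuring datum of level `M p` at `A` over `p` (tame),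
  with its two valuation rings `V₁`, `V₂` and reductions `red₁`, `red₂` explicit.
* `core_tame : Stmt_ABSP → Stmt_NormWq → Stmt_Red2 → Stmt_PW1 → TameAt M p →
  Stmt_TorsOrdNewCore M p`.
* `core_all` : with `Stmt_Desc3`, at all `(M, p)`.
* `torsOrdNew_all` : `H54.Stmt_TorsOrdNew M p` at all `(M, p)`.
-/

set_option autoImplicit false
set_option linter.style.haveILetI false
set_option linter.unusedSectionVars false
set_option synthInstance.maxHeartbeats 400000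
set_option maxHeartbeats 1000000

noncomputable section

open HahnSeries IntermediateField AlgebraicCurve ModularCurve
open Fermat.Agent.S28.H73 Fermat.Agent.RED.H73 Fermat.Agent.RED Fermat.Agent.S24
open Fermat.Agent.BAD.H88

namespace Fermat.Agent.S33.New.H86

open Fermat.Agent.BAD

/-- **The modular semistable Deuring datum**, explicit form. -/
theorem exists_modSSD (A : ValuationSubring Kbar) (q M : ℕ) (a b : ℤ)
    (hab : a * q + b * M = 1) (hq : q.Prime) [NeZero M] [NeZero (M * q)] [NeZero q]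
    (hA : A.LiesOverPrime q) (hqM : ¬ q ∣ M) (ht : H91.TameAt M q) :
    ∃ (S : SSD Kbar (FN (M * q)) (kV A) (F1 A q M) (F1 A q M))
      (_ : RED.H17.FFHyp Kbar (FN (M * q))) (_ : RED.H17.FFHyp (kV A) (F1 A q M))
      (g g₁ : ℕ) (c c₁ : ℤ),
      RED.H17.IsGenus Kbar (FN (M * q)) g c ∧
      RED.H17.IsGenus (kV A) (F1 A q M) g₁ c₁ ∧
      g + 1 ≤ g₁ + g₁ + S.nodes.card ∧
      S.c₁.V = V1 A q M ∧ S.c₂.V = V2 A q M a b hab hq ∧
      (∀ (f : FN (M * q)) (h : f ∈ S.c₁.V) (h' : f ∈ V1 A q M),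
        S.c₁.red ⟨f, h⟩ = red1 A q M ⟨f, h'⟩) ∧
      (∀ (f : FN (M * q)) (h : f ∈ S.c₂.V) (h' : f ∈ V2 A q M a b hab hq),
        S.c₂.red ⟨f, h⟩ = red2 A q M a b hab hq ⟨f, h'⟩) ∧
      ∀ σ ∈ A.inertiaSubgroupIn ℚ, S.IsInertial (galF (M * q) σ) := by
  haveI : IsAlgClosed (kV A) := isAlgClosed_kV A
  have hFFL : IsFF Kbar ↥(FNbar (M * q)) := H95.stmt_HKA_isFF (M * q)
  have hFF1 : IsFF (kV A) (F1 A q M) := H91.isFF_F1 a b hab hq hA hqM ht
  have H := RED.H17.ffHyp_of_isFF _ _ hFFL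
  have H₁ := RED.H17.ffHyp_of_isFF _ _ hFF1
  obtain ⟨g, c, hg⟩ := RED.H17.exists_isGenus _ _ hFFL
  obtain ⟨g₁, c₁, hg₁⟩ := RED.H17.exists_isGenus _ _ hFF1
  have hg₁' : RED.H17.IsGenus (kV A) ↥(H91.redM A M) g₁ c₁ :=
    H91.isGenus_congr (H82.redField_eq_redField q M a b hab hq A hA) hg₁
  obtain ⟨Z, hZne, hZc, hZo, hnum⟩ :=
    Fermat.Agent.BAD.H30.num_final_tame M q hq ht hqM A hA (Dvd.intro_left M rfl)
  have htot := Fermat.Agent.BAD.H23.tot_mod A q M a b hab hq hA hqM ht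
    (Fermat.Agent.BAD.H82.redField_eq_fullC q M a b hab hq A hA)
  have hZ' : ∀ z ∈ Z.map (H91.kappa A q M a b hab hq hA).symm.toEmbedding,
      (H91.modT a b hab hq hA hqM ht
        (H73.betaF1 A q M hq hA M (H82.redField_eq_fullC q M a b hab hq A hA)) htot).IsNode z := by
    intro z hz
    obtain ⟨z₀, hz₀, rfl⟩ := Finset.mem_map.mp hz
    exact H91.isNode_modT a b hab hq hA hqM ht _ htot _ z₀ (hZc z₀ hz₀) (hZo z₀ hz₀)
  have hnum' : g + 1 ≤ g₁ + g₁
      + (Z.map (H91.kappa A q M a b hab hq hA).symm.toEmbedding).card := by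
    rw [Finset.card_map]
    exact Fermat.Agent.BAD.H17.genus_ineq hq hqM ht hA hg hg₁' Z.card hnum
  have hne : ∃ z, (H91.modT a b hab hq hA hqM ht
      (H73.betaF1 A q M hq hA M (H82.redField_eq_fullC q M a b hab hq A hA)) htot).IsNode z := by
    obtain ⟨z, hz⟩ := (hZne.map (f := (H91.kappa A q M a b hab hq hA).symm.toEmbedding))
    exact ⟨z, hZ' z hz⟩
  refine ⟨(H91.modT a b hab hq hA hqM ht
      (H73.betaF1 A q M hq hA M (H82.redField_eq_fullC q M a b hab hq A hA)) htot).toSSD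
      H.principal H.deg_one H₁.principal H₁.deg_one H₁.deg_one hne, H, H₁,
    g, g₁, c, c₁, hg, hg₁, ?_, rfl, rfl, fun _ _ _ => rfl, fun _ _ _ => rfl, ?_⟩
  · have h1 := (H91.modT a b hab hq hA hqM ht
      (H73.betaF1 A q M hq hA M (H82.redField_eq_fullC q M a b hab hq A hA)) htot).card_le_toSSD_nodes
      H.principal H.deg_one H₁.principal H₁.deg_one H₁.deg_one hne _ hZ'
    omega
  · intro s hs
    exact (H91.inert_totDataOf A q M a b hab hq hA _ _ htot (H91.hunif_mod a b hab hq hA hqM ht)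
      hs (fun P => H91.rhoF1_inertia a b hab hq hA hqM ht hs P)).isInertial
      H.principal H.deg_one H₁.principal H₁.deg_one H₁.deg_one hne

/-- `w_p` is compatible with `IsNormPow`: the `β`-norm of `f` is the `α`-norm of `w_p f`. -/
theorem isNormPow_wq (hL1 : Stmt_NormWq) (p M : ℕ) [NeZero M] [NeZero p] [NeZero (M * p)]
    (a b : ℤ) (hab : a * p + b * M = 1) (hp : p.Prime) (f : FN (M * p))
    (h : IsNormPow (heckeBetaBar Kbar M p) p f) :
    IsNormPow (heckeAlphaBar Kbar M p) p (wq p M a b hab hp f) := by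
  obtain ⟨t, c, htc⟩ := h
  exact ⟨t, c, (hL1 p M a b hab hp f).trans htc⟩

/-- **The Kummer form of (T3) at the tame levels.** -/
theorem core_tame (hABSP : Fermat.Agent.BADP.H86.Stmt_ABSP) (hL1 : Stmt_NormWq)
    (hL2 : Stmt_Red2) (hL3 : Stmt_PW1) (M p : ℕ) [NeZero M] [NeZero p]
    (ht : H91.TameAt M p) : Stmt_TorsOrdNewCore M p := by
  intro hp hp2 hpM A hA τ hτ a hζ f hres hdiv hNα hNβ
  haveI : NeZero (M * p) := ⟨Nat.mul_ne_zero (NeZero.ne M) hp.ne_zero⟩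
  haveI : IsAlgClosed (kV A) := isAlgClosed_kV A
  obtain ⟨a₀, b₀, hab⟩ : ∃ a b : ℤ, a * p + b * M = 1 := by
    have hcop : Nat.Coprime p M := (Nat.Prime.coprime_iff_not_dvd hp).2 hpM
    obtain ⟨a, b, h⟩ := Nat.isCoprime_iff_coprime.2 hcop
    exact ⟨a, b, h⟩
  obtain ⟨S, H, H₁, g, g₁, c, c₁, hg, hg₁, hnum, hV₁, hV₂, hr₁, hr₂, hin⟩ :=
    exists_modSSD A p M a₀ b₀ hab hp hA hpM ht
  -- constants
  have hT : ∀ c : AlgebraicClosure ℚ,
      algebraMap (AlgebraicClosure ℚ) (FN (M * p)) c ∈ S.c₁.V ↔ c ∈ A := by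
    intro c
    rw [hV₁]
    exact const_mem1 A p M c
  -- a primitive root of unity
  have hp0 : (p : Kbar) ≠ 0 := by exact_mod_cast hp.ne_zero
  obtain ⟨ζ, hζprim⟩ : ∃ ζ : Kbar, IsPrimitiveRoot ζ p := by
    haveI : NeZero (p : Kbar) := ⟨hp0⟩
    exact HasEnoughRootsOfUnity.exists_primitiveRoot Kbar p
  have hζp : ζ ^ p = 1 := hζprim.pow_eq_one
  have hζ1 : ζ ≠ 1 := hζprim.ne_one hp.one_lt
  -- the function
  have hfV : ((f : ↥(gaussV A (M * p))) : FN (M * p)) ∈ S.c₁.V := by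
    rw [hV₁]
    exact f.2
  have hrd : S.c₁.rd ((f : ↥(gaussV A (M * p))) : FN (M * p)) = 1 := by
    rw [S.c₁.rd_of_mem hfV, hr₁ _ hfV f.2]
    exact hres
  refine hABSP Kbar (FN (M * p)) (kV A) (F1 A p M) (F1 A p M) S H H₁ H₁ g g₁ g₁ c c₁ c₁ hg hg₁
    hg₁ hnum p hp hp2 (H82.charP_kV A hp hA) hp0 ζ hζp hζ1 (galF (M * p) τ) (hin τ hτ) a
    (hζ ζ hζp) _ hfV hrd hdiv ?_ ?_
  · -- (R2)
    obtain ⟨f', h₀, a', hf', hred', hff'⟩ := hL2 A p M a₀ b₀ hab hp hA hpM ht _ f.2 hres hNα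
    have hf'V : f' ∈ S.c₂.V := by
      rw [hV₂]
      exact hf'
    refine ⟨f', h₀, a', hf'V, ?_, hff'⟩
    rw [S.c₂.rd_of_mem hf'V, hr₂ _ hf'V hf']
    exact hred'
  · -- (PW)
    intro u φ e c₀ hu he hc₀ hcm hdepth heq hφ₁ hφ₂
    have hφ₁' : φ ∈ V1 A p M := hV₁ ▸ hφ₁
    have hφ₂' : φ ∈ V2 A p M a₀ b₀ hab hp := hV₂ ▸ hφ₂
    have hvc : A.valuation c₀ < 1 :=
      (Fermat.Agent.BADP.H97.val_const_lt_one_iff hT c₀).1
        (Fermat.Agent.BADP.H97.val_lt_of_rd_eq_zero hcm.1 hcm.2)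
    have hvd : A.valuation ((p : Kbar) ^ p / c₀ ^ (p - 1)) < 1 :=
      (Fermat.Agent.BADP.H97.val_const_lt_one_iff hT _).1
        (Fermat.Agent.BADP.H97.val_lt_of_rd_eq_zero hdepth.1 hdepth.2)
    have hdep : A.valuation (p : Kbar) ^ p < A.valuation c₀ ^ (p - 1) := by
      rw [map_div₀, map_pow, map_pow] at hvd
      have hpos : 0 < A.valuation c₀ ^ (p - 1) :=
        pow_pos (zero_lt_iff.2 ((Valuation.ne_zero_iff _).2 hc₀)) _
      exact (div_lt_one₀ hpos).1 hvd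
    constructor
    · obtain ⟨ψ, hψ⟩ := hL3 A p M a₀ b₀ hab hp hA hpM ht _ hNα u φ e c₀ hu he hc₀ hvc hdep heq
        hφ₁' hφ₂'
      refine ⟨ψ, ?_⟩
      rw [S.c₁.rd_of_mem hφ₁, hr₁ _ hφ₁ hφ₁']
      exact hψ
    · have hwu : wq p M a₀ b₀ hab hp u ≠ 0 :=
        (map_ne_zero_iff _ (wq p M a₀ b₀ hab hp).injective).2 hu
      have heq' : algebraMap Kbar (FN (M * p)) e * wq p M a₀ b₀ hab hp (f : FN (M * p))
          * wq p M a₀ b₀ hab hp u ^ p
          = 1 + algebraMap Kbar (FN (M * p)) c₀ * wq p M a₀ b₀ hab hp φ := by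
        have h1 := congrArg (wq p M a₀ b₀ hab hp) heq
        rw [map_mul, map_mul, map_pow, AlgEquiv.commutes, map_add, map_one, map_mul,
          AlgEquiv.commutes] at h1
        exact h1
      have hw₁ : wq p M a₀ b₀ hab hp φ ∈ V1 A p M :=
        (wq_mem_V1_iff A p M a₀ b₀ hab hp φ).2 hφ₂'
      have hw₂ : wq p M a₀ b₀ hab hp φ ∈ V2 A p M a₀ b₀ hab hp :=
        (wq_mem_V2_iff A p M a₀ b₀ hab hp φ).2 hφ₁'
      obtain ⟨ψ, hψ⟩ := hL3 A p M a₀ b₀ hab hp hA hpM ht _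
        (isNormPow_wq hL1 p M a₀ b₀ hab hp _ hNβ) _ _ e c₀ hwu he hc₀ hvc hdep heq' hw₁ hw₂
      refine ⟨ψ, ?_⟩
      rw [S.c₂.rd_of_mem hφ₂, hr₂ _ hφ₂ hφ₂', red2_mk]
      exact hψ

/-- **The Kummer form of (T3) at all levels.** -/
theorem core_all (hABSP : Fermat.Agent.BADP.H86.Stmt_ABSP) (hL1 : Stmt_NormWq)
    (hL2 : Stmt_Red2) (hL3 : Stmt_PW1) (hL5 : Stmt_Desc3) (M p : ℕ) [NeZero M] [NeZero p] :
    Stmt_TorsOrdNewCore M p := by
  intro hp hp2 hpM
  by_cases h5 : 5 ≤ p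
  · exact core_tame hABSP hL1 hL2 hL3 M p (Or.inl h5) hp hp2 hpM
  have hp3 : p = 3 := by
    have h2 := hp.two_le
    have h4 : p ≠ 4 := by
      rintro rfl
      exact absurd hp (by decide)
    omega
  subst hp3
  by_cases h2 : 2 ∣ M
  · exact core_tame hABSP hL1 hL2 hL3 M 3 (Or.inr (Or.inl ⟨rfl, h2⟩)) hp hp2 hpM
  · haveI : NeZero (2 * M) := ⟨Nat.mul_ne_zero (by norm_num) (NeZero.ne M)⟩
    exact hL5 M h2 hpM
      (core_tame hABSP hL1 hL2 hL3 (2 * M) 3 (Or.inr (Or.inl ⟨rfl, Dvd.intro M rfl⟩)))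
      hp hp2 hpM

/-- **(T3) at all levels.** -/
theorem torsOrdNew_all (hABSP : Fermat.Agent.BADP.H86.Stmt_ABSP) (hL1 : Stmt_NormWq)
    (hL2 : Stmt_Red2) (hL3 : Stmt_PW1) (hL5 : Stmt_Desc3) (M p : ℕ) [NeZero M] [NeZero p] :
    H54.Stmt_TorsOrdNew M p :=
  torsOrdNew_of_core M p (core_all hABSP hL1 hL2 hL3 hL5 M p)

end Fermat.Agent.S33.New.H86

end
end
-- ==== END Fermat.Agent.S33.New.H86_Asm
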