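-- GENERATED (merged mirror, NOTES/tools/trim/merge3_helper67.py): 6 modules of the originals, bodies verbatim.
import Fermat.Statements.S19
import Fermat.Agent.Zm.S33_L11_000
import Fermat.Agent.Zm.S33_L04_000
import Fermat.Agent.Zm.S33_L02_002
import Fermat.Agent.Zm.S33_L01_003
import Fermat.Agent.Zm.S33_L03_002
import Fermat.Agent.Zm.S35_L02_001
import Fermat.Agent.Zm.S33_L06_000
import Fermat.Agent.Zm.S33_L08_000
import Fermat.Agent.Zm.S33_L09_000
import Fermat.Agent.Zm.S33_L10_000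

-- ==== BEGIN Fermat.Agent.Lib.HopfOrderLoc.Main
section

/-!
# The local generator criterion (item 71 / S19, helper32)

`localGen_of : Stmt_F1 → Stmt_F2 → Stmt_LocalGen`.

Steps: `genMod_le_span_fixed` (Nakayama on `key_monomial`): `genRing A h` is spanned over `A`
by its `G_ℚ`-fixed elements; finitely many of them, `F_1, …, F_r`, span; they are equivariant,
`A`-valued, separate points, and `pairRing A F = pairRing A h`; apply
`Fermat.Agent.Lib.HopfOrder.flat_of_generators` to `F`.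
-/

set_option autoImplicit false
set_option linter.style.haveILetI false
set_option linter.unusedSectionVars false
set_option linter.unusedVariables false

namespace Fermat.Agent.Lib.HopfOrderLoc

open Fermat.Agent.Lib.FrobExists Fermat.Agent.Lib.InertiaBridge Fermat.Agent.Lib.HopfOrder
open Fermat.Agent.Lib.InertiaLift

attribute [local instance] qbar_isAlgebraic' qbar_isAlgClosure' qbar_isGalois'

local notation "K" => AlgebraicClosure ℚ
local notation "GQ" => (AlgebraicClosure ℚ ≃ₐ[ℚ] AlgebraicClosure ℚ)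

section Nakayama

variable {M ι : Type} [Finite M] [Finite ι]

/-- `genRing A h` is spanned over `A` by its `G_ℚ`-fixed elements. -/
theorem genMod_le_span_fixed (hF1 : Stmt_F1) (hF2 : Stmt_F2) (ℓ : ℕ) (hℓ : ℓ.Prime)
    (A : ValuationSubring K) (hA : A.LiesOverPrime ℓ)
    (act : GQ → M → M) (h : ι → M → K)
    (act_one : ∀ x, act 1 x = x) (act_mul : ∀ σ τ x, act (σ * τ) x = act σ (act τ x))
    (integral : ∀ j x, h j x ∈ A)
    (equivariant : ∀ j, ∀ σ ∈ A.inertiaSubgroupIn ℚ, ∀ x, h j (act σ x) = σ (h j x))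
    (stable : ∀ j, ∀ σ ∈ A.decompositionSubgroup ℚ, twist act σ (h j) ∈ genRing A.toSubring h)
    (separates : ∀ x y, x ≠ y → ∃ j, h j x ≠ h j y)
    (L : IntermediateField ℚ K) (hLfin : FiniteDimensional ℚ L) (hLnorm : Normal ℚ L)
    (hLact : ∀ σ ∈ L.fixingSubgroup, ∀ x, act σ x = x) (hLval : ∀ j x, h j x ∈ L) :
    genMod A h ≤ Submodule.span ↥A (fixedGen A act h) := by
  apply Submodule.le_of_le_smul_of_le_jacobson_bot (I := IsLocalRing.maximalIdeal ↥A)
    (genMod_fg A h integral)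
  · rw [IsLocalRing.jacobson_eq_maximalIdeal ⊥ bot_ne_top]
  · conv_lhs => rw [genMod_eq_span]
    rw [Submodule.span_le]
    intro f hf
    exact key_monomial hF1 hF2 ℓ hℓ A hA act h act_one act_mul integral equivariant stable
      separates L hLfin hLnorm hLact hLval hf

end Nakayama

section Pair

variable {M ι κ : Type} [AddCommGroup M] [Finite M]

/-- Composition with the addition maps `genRing` into `pairRing`. -/
lemma comp_add_mem_pairRing (A : Subring K) (h : ι → M → K)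
    (comul : ∀ j, (fun q : M × M => h j (q.1 + q.2)) ∈ pairRing A h)
    {g : M → K} (hg : g ∈ genRing A h) : (fun q : M × M => g (q.1 + q.2)) ∈ pairRing A h := by
  induction hg using Subring.closure_induction with
  | mem g hg =>
    rcases hg with ⟨a, ha, rfl⟩ | ⟨j, rfl⟩
    · exact const_mem_pairRing A h ha
    · exact comul j
  | zero => exact Subring.zero_mem _
  | one => exact Subring.one_mem _
  | add g g' _ _ hg hg' => exact Subring.add_mem _ hg hg'
  | neg g _ hg => exact Subring.neg_mem _ hg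
  | mul g g' _ _ hg hg' => exact Subring.mul_mem _ hg hg'

/-- If the `h j` lie in the `A`-span of the `F i`, then `pairRing A h ≤ pairRing A F`. -/
lemma pairRing_le_of_span (A : ValuationSubring K) (h : ι → M → K) (F : κ → M → K)
    (hspan : ∀ j, h j ∈ Submodule.span ↥A (Set.range F)) :
    pairRing A.toSubring h ≤ pairRing A.toSubring F := by
  -- the submodules of functions whose pull-backs lie in `pairRing A F`
  let N₁ : Submodule ↥A (M → K) :=
    { carrier := {g | (fun p : M × M => g p.1) ∈ pairRing A.toSubring F}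
      add_mem' := fun {a b} ha hb =>
        (pairRing A.toSubring F).add_mem (x := fun p : M × M => a p.1)
          (y := fun p : M × M => b p.1) ha hb
      zero_mem' := (pairRing A.toSubring F).zero_mem
      smul_mem' := fun c g hg =>
        (pairRing A.toSubring F).mul_mem (x := fun _ : M × M => (c : K))
          (y := fun p : M × M => g p.1) (const_mem_pairRing A.toSubring F c.2) hg }
  let N₂ : Submodule ↥A (M → K) :=
    { carrier := {g | (fun p : M × M => g p.2) ∈ pairRing A.toSubring F}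
      add_mem' := fun {a b} ha hb =>
        (pairRing A.toSubring F).add_mem (x := fun p : M × M => a p.2)
          (y := fun p : M × M => b p.2) ha hb
      zero_mem' := (pairRing A.toSubring F).zero_mem
      smul_mem' := fun c g hg =>
        (pairRing A.toSubring F).mul_mem (x := fun _ : M × M => (c : K))
          (y := fun p : M × M => g p.2) (const_mem_pairRing A.toSubring F c.2) hg }
  have h1 : Submodule.span ↥A (Set.range F) ≤ N₁ := by
    rw [Submodule.span_le]
    rintro _ ⟨i, rfl⟩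
    exact fst_mem_pairRing A.toSubring F i
  have h2 : Submodule.span ↥A (Set.range F) ≤ N₂ := by
    rw [Submodule.span_le]
    rintro _ ⟨i, rfl⟩
    exact snd_mem_pairRing A.toSubring F i
  unfold pairRing
  rw [Subring.closure_le]
  rintro g (⟨a, ha, rfl⟩ | ⟨j, rfl⟩ | ⟨j, rfl⟩)
  · exact const_mem_pairRing A.toSubring F ha
  · exact h1 (hspan j)
  · exact h2 (hspan j)

end Pair

/-- **The local generator criterion**, from the two facts of ramification theory. -/
theorem localGen_of (hF1 : Stmt_F1) (hF2 : Stmt_F2) : Stmt_LocalGen := by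
  intro ι _ ℓ hℓ M _ _ A hA act h act_one act_mul act_add hcont integral equivariant stable
    separates comul
  classical
  obtain ⟨L₀, hL₀fin, hL₀⟩ := hcont
  -- the number field `L`
  let S : Set K := Set.range (fun p : ι × M => h p.1 p.2)
  haveI : Finite ↑S := Set.finite_range _
  haveI : FiniteDimensional ℚ ↥(IntermediateField.adjoin ℚ S) :=
    IntermediateField.finiteDimensional_adjoin (fun x _ => Algebra.IsIntegral.isIntegral x)
  let L₁ : IntermediateField ℚ K := L₀ ⊔ IntermediateField.adjoin ℚ S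
  haveI : FiniteDimensional ℚ ↥L₁ := IntermediateField.finiteDimensional_sup _ _
  let L : IntermediateField ℚ K := IntermediateField.normalClosure ℚ ↥L₁ K
  have hLfin : FiniteDimensional ℚ ↥L := normalClosure.is_finiteDimensional ℚ ↥L₁ K
  have hLnorm : Normal ℚ ↥L := by
    haveI : Normal ℚ K := IsGalois.to_normal
    exact normalClosure.normal ℚ ↥L₁ K
  have hL₁L : L₁ ≤ L := IntermediateField.le_normalClosure L₁
  have hLact : ∀ σ ∈ L.fixingSubgroup, ∀ x, act σ x = x := fun σ hσ x =>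
    hL₀ σ (IntermediateField.fixingSubgroup_le (le_trans le_sup_left hL₁L) hσ) x
  have hLval : ∀ j x, h j x ∈ L := fun j x =>
    hL₁L ((le_sup_right : IntermediateField.adjoin ℚ S ≤ L₁)
      (IntermediateField.subset_adjoin ℚ S ⟨(j, x), rfl⟩))
  -- `genRing` is spanned by its fixed elements
  have hle := genMod_le_span_fixed hF1 hF2 ℓ hℓ A hA act h act_one act_mul integral equivariant
    stable separates L hLfin hLnorm hLact hLval
  have hge : Submodule.span ↥A (fixedGen A act h) ≤ genMod A h := by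
    rw [Submodule.span_le]
    intro f hf
    exact (mem_genMod_iff A h f).mpr hf.1
  have hspan : Submodule.span ↥A (fixedGen A act h) = genMod A h := le_antisymm hge hle
  have hfg : (Submodule.span ↥A (fixedGen A act h)).FG := by
    rw [hspan]
    exact genMod_fg A h integral
  obtain ⟨s, hs, hss⟩ := (Submodule.fg_span_iff_fg_span_finset_subset _).mp hfg
  -- the new generators
  let F : ↥s → M → K := fun i => (i : M → K)
  have hFrange : Set.range F = (↑s : Set (M → K)) := by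
    ext g
    constructor
    · rintro ⟨i, rfl⟩
      exact i.2
    · intro hg
      exact ⟨⟨g, hg⟩, rfl⟩
  have hFfix : ∀ i : ↥s, F i ∈ fixedGen A act h := fun i => hs i.2
  have hhspan : ∀ j, h j ∈ Submodule.span ↥A (Set.range F) := by
    intro j
    rw [hFrange, ← hss, hspan, mem_genMod_iff]
    exact gen_mem_genRing A.toSubring h j
  refine flat_of_generators ℓ hℓ A hA act F act_add ?_ ?_ ?_ ?_ ?_
  · -- injectivity of the action
    intro σ x y hxy
    have := congrArg (act σ⁻¹) hxy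
    rwa [act_inv_act act act_one act_mul, act_inv_act act act_one act_mul] at this
  · -- equivariance
    intro i σ x
    exact (twist_eq_iff act act_one act_mul σ (F i)).mp ((hFfix i).2 σ) x
  · -- integrality
    intro i x
    exact genRing_val_mem A.toSubring h integral (hFfix i).1 x
  · -- separation
    intro x y hxy
    by_contra hcon
    simp only [not_exists, not_not] at hcon
    obtain ⟨j, hj⟩ := separates x y hxy
    apply hj
    let N₀ : Submodule ↥A (M → K) :=
      { carrier := {g | g x = g y}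
        add_mem' := fun {a b} ha hb => by
          show a x + b x = a y + b y
          rw [ha, hb]
        zero_mem' := rfl
        smul_mem' := fun c g hg => by
          show (c : K) * g x = (c : K) * g y
          rw [hg] }
    have h1 : Submodule.span ↥A (Set.range F) ≤ N₀ := by
      rw [Submodule.span_le]
      rintro _ ⟨i, rfl⟩
      exact hcon i
    exact h1 (hhspan j)
  · -- comultiplication
    intro i
    exact pairRing_le_of_span A h F hhspan
      (comp_add_mem_pairRing A.toSubring h comul (hFfix i).1)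

end Fermat.Agent.Lib.HopfOrderLoc

end
-- ==== END Fermat.Agent.Lib.HopfOrderLoc.Main

-- ==== BEGIN Fermat.Agent.Lib.HopfOrderLoc.LocalGen
section

/-!
# The local generator criterion, unconditional (item 71 / S19)

`stmt_LocalGen : Stmt_LocalGen`, and the ready-to-use form `flat_of_local_generators`.

Input: a finite abelian group `M` with an action of `G_ℚ` through a finite quotient, one
valuation subring `A` of `ℚ̄` over `ℓ` (inertia group `I`, decomposition group `D`), finitely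
many functions `h j : M → ℚ̄` with values in `A`, `I`-equivariant, separating the points of
`M`, such that `twist act σ (h j) ∈ genRing A h` for `σ ∈ D` and
`(x, y) ↦ h j (x + y) ∈ pairRing A h`.
Output: the condition of the prelude (`GaloisRepAdic.IsFlatAt`, frozen S19) for `M`.

To check the last two hypotheses one may use division by functions with unit values
(`Fermat.Agent.Lib.HopfOrder.div_mem_pairRing`, `mem_pairRing_of_local`) and `ℓ`-adic
approximation (`genRing_closed`, `pairRing_closed` in `CL.lean`).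
-/

set_option autoImplicit false

namespace Fermat.Agent.Lib.HopfOrderLoc

open Fermat.Agent.Lib.HopfOrder

/-- **The local generator criterion.** -/
theorem stmt_LocalGen : Stmt_LocalGen := localGen_of H99.stmt_F1 H99.stmt_F2

/-- The local generator criterion, ready to use. -/
theorem flat_of_local_generators {ι : Type} [Finite ι] (ℓ : ℕ) (hℓ : ℓ.Prime)
    {M : Type} [AddCommGroup M] [Finite M]
    (A : ValuationSubring (AlgebraicClosure ℚ)) (hA : A.LiesOverPrime ℓ)
    (act : (AlgebraicClosure ℚ ≃ₐ[ℚ] AlgebraicClosure ℚ) → M → M)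
    (h : ι → M → AlgebraicClosure ℚ)
    (act_one : ∀ x, act 1 x = x) (act_mul : ∀ σ τ x, act (σ * τ) x = act σ (act τ x))
    (act_add : ∀ σ x y, act σ (x + y) = act σ x + act σ y)
    (act_cont : ∃ L : IntermediateField ℚ (AlgebraicClosure ℚ), FiniteDimensional ℚ L ∧
      ∀ σ ∈ L.fixingSubgroup, ∀ x, act σ x = x)
    (integral : ∀ j x, h j x ∈ A)
    (equivariant : ∀ j, ∀ σ ∈ A.inertiaSubgroupIn ℚ, ∀ x, h j (act σ x) = σ (h j x))
    (stable : ∀ j, ∀ σ ∈ A.decompositionSubgroup ℚ,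
      twist act σ (h j) ∈ genRing A.toSubring h)
    (separates : ∀ x y, x ≠ y → ∃ j, h j x ≠ h j y)
    (comul : ∀ j, (fun q : M × M => h j (q.1 + q.2)) ∈ pairRing A.toSubring h) :
    ∃ (H' : Type) (_ : CommRing H') (_ : HopfAlgebra (GaloisRep.ratLocalizedAt ℓ) H'),
      Module.Finite (GaloisRep.ratLocalizedAt ℓ) H' ∧
      Module.Flat (GaloisRep.ratLocalizedAt ℓ) H' ∧
      Coalgebra.IsCocomm (GaloisRep.ratLocalizedAt ℓ) H' ∧
      ∃ e : WithConv (H' →ₐ[GaloisRep.ratLocalizedAt ℓ] AlgebraicClosure ℚ) ≃ M,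
        (∀ f g : WithConv (H' →ₐ[GaloisRep.ratLocalizedAt ℓ] AlgebraicClosure ℚ),
          e (f * g) = e f + e g) ∧
        ∀ (σ : AlgebraicClosure ℚ ≃ₐ[ℚ] AlgebraicClosure ℚ)
          (f g : WithConv (H' →ₐ[GaloisRep.ratLocalizedAt ℓ] AlgebraicClosure ℚ)),
          (∀ h : H', g h = σ (f h)) → e g = act σ (e f) :=
  stmt_LocalGen ι ℓ hℓ M A hA act h act_one act_mul act_add act_cont integral equivariant
    stable separates comul

end Fermat.Agent.Lib.HopfOrderLoc

end
-- ==== END Fermat.Agent.Lib.HopfOrderLoc.LocalGen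

-- ==== BEGIN Fermat.Agent.S19.H32_Wiring
section

/-!
# S19 from LOCAL generators (G-FL package ASM-W, helper32)

`result_of_FLGen : Stmt_FLGen → (frozen statement S19)`.

`Stmt_FLGen` is the geometric input of S19 in the form produced by the route of
`NOTES/plan/G_FL.md`: for every level `p`, prime `ℓ ∤ p` and `k`,

* `J₀(p)[ℓ^k]` is finite and `G_ℚ` acts on it through a finite quotient;
* for ONE valuation subring `A` of `ℚ̄` over `ℓ` there are finitely many functions
  `h j : J₀(p)[ℓ^k] → ℚ̄` with values in `A`, equivariant for the inertia group of `A`,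
  separating points, such that the ring `genRing A h` is stable under the decomposition group
  of `A` and `(x, y) ↦ h j (x + y)` lies in `pairRing A h`.

The descent to `ℤ_(ℓ)` and all Hopf algebra axioms are supplied by
`Fermat.Agent.Lib.HopfOrderLoc.flat_of_local_generators`.
-/

set_option autoImplicit false
set_option linter.style.haveILetI false

open ModularCurve

namespace Fermat.Agent.S19.H32

open Fermat.Agent.Lib.HopfOrder Fermat.Agent.Lib.HopfOrderLoc Fermat.Agent.S19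

/-- **Geometric input of S19** (local generators at one place over `ℓ`). -/
def Stmt_FLGen : Prop :=
  ∀ (p : ℕ) [NeZero p] (ℓ : ℕ) [Fact ℓ.Prime], ¬ ℓ ∣ p → ∀ k : ℕ,
    Finite (Tors p ((ℓ : ℤ) ^ k)) ∧
    (∃ L : IntermediateField ℚ (AlgebraicClosure ℚ), FiniteDimensional ℚ L ∧
      ∀ σ ∈ L.fixingSubgroup, ∀ x : Tors p ((ℓ : ℤ) ^ k), torsAct p ((ℓ : ℤ) ^ k) σ x = x) ∧
    ∃ A : ValuationSubring (AlgebraicClosure ℚ), A.LiesOverPrime ℓ ∧
    ∃ (ι : Type) (_ : Finite ι) (h : ι → Tors p ((ℓ : ℤ) ^ k) → AlgebraicClosure ℚ),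
      (∀ j x, h j x ∈ A) ∧
      (∀ j, ∀ σ ∈ A.inertiaSubgroupIn ℚ, ∀ x,
        h j (torsAct p ((ℓ : ℤ) ^ k) σ x) = σ (h j x)) ∧
      (∀ j, ∀ σ ∈ A.decompositionSubgroup ℚ,
        twist (torsAct p ((ℓ : ℤ) ^ k)) σ (h j) ∈ genRing A.toSubring h) ∧
      (∀ x y, x ≠ y → ∃ j, h j x ≠ h j y) ∧
      (∀ j, (fun q : Tors p ((ℓ : ℤ) ^ k) × Tors p ((ℓ : ℤ) ^ k) => h j (q.1 + q.2)) ∈
        pairRing A.toSubring h)

lemma torsAct_one (p : ℕ) (n : ℤ) (x : Tors p n) : torsAct p n 1 x = x :=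
  Subtype.ext (one_smul _ (x : JZero p))

lemma torsAct_mul (p : ℕ) (n : ℤ) (σ τ : GQ) (x : Tors p n) :
    torsAct p n (σ * τ) x = torsAct p n σ (torsAct p n τ x) :=
  Subtype.ext (mul_smul σ τ (x : JZero p))

lemma torsAct_add (p : ℕ) (n : ℤ) (σ : GQ) (x y : Tors p n) :
    torsAct p n σ (x + y) = torsAct p n σ x + torsAct p n σ y :=
  Subtype.ext (smul_add σ (x : JZero p) (y : JZero p))

/-- The frozen statement S19 from the local generator input. -/
theorem result_of_FLGen (hG : Stmt_FLGen)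
    (p : ℕ) [NeZero p] (ℓ : ℕ) [Fact ℓ.Prime] (hℓp : ¬ ℓ ∣ p) (k : ℕ) :
    ∃ (H : Type) (_ : CommRing H) (_ : HopfAlgebra (GaloisRep.ratLocalizedAt ℓ) H),
      Module.Finite (GaloisRep.ratLocalizedAt ℓ) H ∧ Module.Flat (GaloisRep.ratLocalizedAt ℓ) H ∧
      Coalgebra.IsCocomm (GaloisRep.ratLocalizedAt ℓ) H ∧
      ∃ e : WithConv (H →ₐ[GaloisRep.ratLocalizedAt ℓ] AlgebraicClosure ℚ) ≃
          ↥(Submodule.torsionBy ℤ (JZero p) ((ℓ : ℤ) ^ k)),
        (∀ f g, e (f * g) = e f + e g) ∧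
        ∀ (σ : AlgebraicClosure ℚ ≃ₐ[ℚ] AlgebraicClosure ℚ)
          (f g : WithConv (H →ₐ[GaloisRep.ratLocalizedAt ℓ] AlgebraicClosure ℚ)),
          (∀ h : H, g h = σ (f h)) → ((e g : JZero p)) = σ • (e f : JZero p) := by
  obtain ⟨hfin, hcont, A, hA, ι, hι, h, hint, heq, hst, hsep, hcom⟩ := hG p ℓ hℓp k
  haveI := hfin
  haveI := hι
  obtain ⟨H', j1, j2, h1, h2, h3, e, he, hσ⟩ :=
    flat_of_local_generators ℓ (Fact.out : ℓ.Prime) A hA (torsAct p ((ℓ : ℤ) ^ k)) h
      (torsAct_one p _) (torsAct_mul p _) (torsAct_add p _) hcont hint heq hst hsep hcom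
  exact ⟨H', j1, j2, h1, h2, h3, e, he, fun σ f g hfg => congrArg Subtype.val (hσ σ f g hfg)⟩

end Fermat.Agent.S19.H32

end
-- ==== END Fermat.Agent.S19.H32_Wiring

-- ==== BEGIN Fermat.Agent.S19.H32_FinCont
section

/-!
# S19: finiteness and continuity of `J₀(p)[ℓ^k]` (G-FL package ASM-W, helper32)

The first two conjuncts of `H32.Stmt_FLGen` hold unconditionally:

* `tors_finite p n hn : Finite (Tors p n)` for `n ≠ 0` (from helper8's W1);
* `tors_act_cont p n hn` : the Galois group of a number field acts trivially on `Tors p n`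
  (from helper8's W4 and finiteness).

`Stmt_FLGenCore` is `Stmt_FLGen` without these two conjuncts, and
`result_of_FLGenCore : Stmt_FLGenCore → (frozen statement S19)`.
-/

set_option autoImplicit false
set_option linter.style.haveILetI false

open ModularCurve

namespace Fermat.Agent.S19.H32

open Fermat.Agent.Lib.HopfOrder Fermat.Agent.Lib.HopfOrderLoc Fermat.Agent.S19

/-- `J₀(p)[n]` is finite for `n ≠ 0`. -/
theorem tors_finite (p : ℕ) [NeZero p] (n : ℤ) (hn : n ≠ 0) : Finite (Tors p n) := by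
  have h := Fermat.Agent.S17.H8.stmt_torsion_finite p n.natAbs (Int.natAbs_ne_zero.mpr hn)
  have h' : (Submodule.torsionBy ℤ (JZero p) n : Set (JZero p)) ⊆
      {t : JZero p | n.natAbs • t = 0} := by
    intro x hx
    have hx' : n • x = 0 := (Submodule.mem_torsionBy_iff _ _).mp hx
    change n.natAbs • x = 0
    rcases Int.natAbs_eq n with h1 | h1
    · rw [← natCast_zsmul, ← h1]; exact hx'
    · have : (n.natAbs : ℤ) = -n := by omega
      rw [← natCast_zsmul, this, neg_smul, hx', neg_zero]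
  exact (h.subset h').to_subtype

/-- The Galois group of some number field acts trivially on `J₀(p)[n]`, `n ≠ 0`. -/
theorem tors_act_cont (p : ℕ) [NeZero p] (n : ℤ) (hn : n ≠ 0) :
    ∃ L : IntermediateField ℚ (AlgebraicClosure ℚ), FiniteDimensional ℚ L ∧
      ∀ σ ∈ L.fixingSubgroup, ∀ x : Tors p n, torsAct p n σ x = x := by
  haveI := tors_finite p n hn
  have hos := Fermat.Agent.S17.H8.stmt_open_stab p
  choose F hF1 hF2 using hos
  letI := Fintype.ofFinite (Tors p n)
  refine ⟨⨆ x : Tors p n, F (x : JZero p), ?_, ?_⟩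
  · haveI : ∀ x : Tors p n, FiniteDimensional ℚ (F (x : JZero p)) := fun x => hF1 _
    exact IntermediateField.finiteDimensional_iSup_of_finite
  · intro σ hσ x
    refine Subtype.ext (hF2 (x : JZero p) σ ?_)
    exact IntermediateField.fixingSubgroup_antitone (le_iSup (fun x : Tors p n => F (x : JZero p)) x) hσ

/-- **Geometric input of S19, core form** (local generators at one place over `ℓ`):
`Stmt_FLGen` without the finiteness and continuity conjuncts. -/
def Stmt_FLGenCore : Prop :=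
  ∀ (p : ℕ) [NeZero p] (ℓ : ℕ) [Fact ℓ.Prime], ¬ ℓ ∣ p → ∀ k : ℕ,
    ∃ A : ValuationSubring (AlgebraicClosure ℚ), A.LiesOverPrime ℓ ∧
    ∃ (ι : Type) (_ : Finite ι) (h : ι → Tors p ((ℓ : ℤ) ^ k) → AlgebraicClosure ℚ),
      (∀ j x, h j x ∈ A) ∧
      (∀ j, ∀ σ ∈ A.inertiaSubgroupIn ℚ, ∀ x,
        h j (torsAct p ((ℓ : ℤ) ^ k) σ x) = σ (h j x)) ∧
      (∀ j, ∀ σ ∈ A.decompositionSubgroup ℚ,
        twist (torsAct p ((ℓ : ℤ) ^ k)) σ (h j) ∈ genRing A.toSubring h) ∧
      (∀ x y, x ≠ y → ∃ j, h j x ≠ h j y) ∧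
      (∀ j, (fun q : Tors p ((ℓ : ℤ) ^ k) × Tors p ((ℓ : ℤ) ^ k) => h j (q.1 + q.2)) ∈
        pairRing A.toSubring h)

theorem flGen_of_core (hG : Stmt_FLGenCore) : Stmt_FLGen := by
  intro p _ ℓ _ hℓp k
  have hn : ((ℓ : ℤ) ^ k) ≠ 0 := pow_ne_zero _ (by exact_mod_cast (Fact.out : ℓ.Prime).ne_zero)
  exact ⟨tors_finite p _ hn, tors_act_cont p _ hn, hG p ℓ hℓp k⟩

/-- The frozen statement S19 from the core local generator input. -/
theorem result_of_FLGenCore (hG : Stmt_FLGenCore)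
    (p : ℕ) [NeZero p] (ℓ : ℕ) [Fact ℓ.Prime] (hℓp : ¬ ℓ ∣ p) (k : ℕ) :
    ∃ (H : Type) (_ : CommRing H) (_ : HopfAlgebra (GaloisRep.ratLocalizedAt ℓ) H),
      Module.Finite (GaloisRep.ratLocalizedAt ℓ) H ∧ Module.Flat (GaloisRep.ratLocalizedAt ℓ) H ∧
      Coalgebra.IsCocomm (GaloisRep.ratLocalizedAt ℓ) H ∧
      ∃ e : WithConv (H →ₐ[GaloisRep.ratLocalizedAt ℓ] AlgebraicClosure ℚ) ≃
          ↥(Submodule.torsionBy ℤ (JZero p) ((ℓ : ℤ) ^ k)),
        (∀ f g, e (f * g) = e f + e g) ∧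
        ∀ (σ : AlgebraicClosure ℚ ≃ₐ[ℚ] AlgebraicClosure ℚ)
          (f g : WithConv (H →ₐ[GaloisRep.ratLocalizedAt ℓ] AlgebraicClosure ℚ)),
          (∀ h : H, g h = σ (f h)) → ((e g : JZero p)) = σ • (e f : JZero p) :=
  result_of_FLGen (flGen_of_core hG) p ℓ hℓp k

end Fermat.Agent.S19.H32

end
-- ==== END Fermat.Agent.S19.H32_FinCont

-- ==== BEGIN Fermat.Agent.S19.H32_AsmC
section

/-!
# S19 from the main theorem of G-FL at the tame levels (package ASM-C2, helper32)

`flGenCore_of_tame : FL.Stmt_FLTameC → Stmt_FLGenCore`, hence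
`result_of_FLTameC : FL.Stmt_FLTameC → (frozen statement S19)`.

For a level `p` and a prime `ℓ ∤ p` choose a tame level `M ∈ {p, 2p, 3p}` (`ℓ ∤ M`), a valuation
subring `A` of `ℚ̄` over `ℓ`, and let `𝒮 = π (J₀(p)[ℓ^k]) ⊆ J₀(M)` where `π` is helper2's
pull-back (`FL.H2.stmt_Level`: Galois equivariant, injective on torsion).  The coordinates of
`Stmt_FLTameC` on `𝒮` are transported to `J₀(p)[ℓ^k]` along `π`.
-/

set_option autoImplicit false
set_option linter.style.haveILetI false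

open ModularCurve

namespace Fermat.Agent.S19.H32

open Fermat.Agent.Lib.HopfOrder Fermat.Agent.Lib.HopfOrderLoc Fermat.Agent.S19

/-- Composition with a map `e : Y → X`, as a ring homomorphism of function rings. -/
def compRingHom {K X Y : Type} [Field K] (e : Y → X) : (X → K) →+* (Y → K) :=
  RingHom.pi fun y => Pi.evalRingHom (fun _ : X => K) (e y)

@[simp]
lemma compRingHom_apply {K X Y : Type} [Field K] (e : Y → X) (φ : X → K) (y : Y) :
    compRingHom e φ y = φ (e y) := rfl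

/-- `genRing` is functorial for maps of the underlying sets. -/
lemma comp_mem_genRing {K X Y ι : Type} [Field K] (A : Subring K) (h : ι → X → K) (e : Y → X)
    {φ : X → K} (hφ : φ ∈ genRing A h) :
    (fun y => φ (e y)) ∈ genRing A (fun j y => h j (e y)) := by
  have hle : genRing A h ≤ (genRing A (fun j y => h j (e y))).comap (compRingHom e) := by
    refine Subring.closure_le.mpr ?_
    rintro g (⟨a, ha, rfl⟩ | ⟨j, rfl⟩)
    · exact Subring.subset_closure (Or.inl ⟨a, ha, rfl⟩)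
    · exact Subring.subset_closure (Or.inr ⟨j, rfl⟩)
  exact hle hφ

/-- `pairRing` is functorial for maps of the underlying sets. -/
lemma comp_mem_pairRing {K X Y ι : Type} [Field K] (A : Subring K) (h : ι → X → K) (e : Y → X)
    {φ : X × X → K} (hφ : φ ∈ pairRing A h) :
    (fun q : Y × Y => φ (e q.1, e q.2)) ∈ pairRing A (fun j y => h j (e y)) := by
  have hle : pairRing A h ≤
      (pairRing A (fun j y => h j (e y))).comap
        (compRingHom (K := K) (fun q : Y × Y => (e q.1, e q.2))) := by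
    refine Subring.closure_le.mpr ?_
    rintro g (⟨a, ha, rfl⟩ | ⟨j, rfl⟩ | ⟨j, rfl⟩)
    · exact Subring.subset_closure (Or.inl ⟨a, ha, rfl⟩)
    · exact Subring.subset_closure (Or.inr (Or.inl ⟨j, rfl⟩))
    · exact Subring.subset_closure (Or.inr (Or.inr ⟨j, rfl⟩))
  exact hle hφ

/-- For `ℓ ∤ p` there is a tame level `M` with `p ∣ M ∣ 36 p` and `ℓ ∤ M`. -/
lemma exists_tame_level (p ℓ : ℕ) (hp : p ≠ 0) (hℓ : ℓ.Prime) (hℓp : ¬ ℓ ∣ p) :
    ∃ M : ℕ, M ≠ 0 ∧ p ∣ M ∧ M ∣ 36 * p ∧ ¬ ℓ ∣ M ∧ Fermat.Agent.FL.IsTame M ℓ := by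
  by_cases h5 : 5 ≤ ℓ
  · exact ⟨p, hp, dvd_rfl, Dvd.intro_left 36 rfl, hℓp, Or.inl h5⟩
  have hℓ2 := hℓ.two_le
  have h23 : ℓ = 2 ∨ ℓ = 3 := by
    have h4 : ℓ ≠ 4 := by
      rintro rfl
      exact absurd hℓ (by decide)
    omega
  rcases h23 with rfl | rfl
  · by_cases h3 : 3 ∣ p
    · exact ⟨p, hp, dvd_rfl, Dvd.intro_left 36 rfl, hℓp, Or.inr (Or.inr ⟨rfl, h3⟩)⟩
    · refine ⟨3 * p, by omega, Dvd.intro_left 3 rfl, ?_, ?_, Or.inr (Or.inr ⟨rfl, Dvd.intro p rfl⟩)⟩
      · exact ⟨12, by ring⟩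
      · intro h
        rcases (Nat.Prime.dvd_mul Nat.prime_two).mp h with h | h
        · exact absurd h (by decide)
        · exact hℓp h
  · by_cases h2 : 2 ∣ p
    · exact ⟨p, hp, dvd_rfl, Dvd.intro_left 36 rfl, hℓp, Or.inr (Or.inl ⟨rfl, h2⟩)⟩
    · refine ⟨2 * p, by omega, Dvd.intro_left 2 rfl, ?_, ?_, Or.inr (Or.inl ⟨rfl, Dvd.intro p rfl⟩)⟩
      · exact ⟨18, by ring⟩
      · intro h
        rcases (Nat.Prime.dvd_mul Nat.prime_three).mp h with h | h
        · exact absurd h (by decide)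
        · exact hℓp h

/-- **ASM-C2**: the geometric input of S19 from the main theorem of G-FL at the tame levels. -/
theorem flGenCore_of_tame (hT : Fermat.Agent.FL.Stmt_FLTameC) : Stmt_FLGenCore := by
  intro p _ ℓ _ hℓp k
  have hℓ : ℓ.Prime := Fact.out
  obtain ⟨M, hM0, hpM, hM36, hℓM, htame⟩ := exists_tame_level p ℓ (NeZero.ne p) hℓ hℓp
  haveI : NeZero M := ⟨hM0⟩
  obtain ⟨π, hπσ, hπinj⟩ := Fermat.Agent.FL.H2.stmt_Level p M hpM hM36
  obtain ⟨A, hA⟩ := Fermat.Agent.Lib.FrobExists.exists_liesOverPrime ℓ hℓ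
  refine ⟨A, hA, ?_⟩
  have hn : ((ℓ : ℤ) ^ k) ≠ 0 := pow_ne_zero _ (by exact_mod_cast hℓ.ne_zero)
  haveI := tors_finite p ((ℓ : ℤ) ^ k) hn
  set 𝒮 : Set (JZero M) := Set.range fun x : Tors p ((ℓ : ℤ) ^ k) => π (x : JZero p) with h𝒮
  have hfin : 𝒮.Finite := Set.finite_range _
  have hact : ∀ (σ : GQ) (x : Tors p ((ℓ : ℤ) ^ k)),
      π ((torsAct p ((ℓ : ℤ) ^ k) σ x : Tors p ((ℓ : ℤ) ^ k)) : JZero p) =
        σ • π (x : JZero p) := fun σ x => hπσ σ (x : JZero p)
  have hst : ∀ σ ∈ A.decompositionSubgroup ℚ, ∀ x ∈ 𝒮, σ • x ∈ 𝒮 := by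
    rintro σ - _ ⟨x, rfl⟩
    exact ⟨torsAct p ((ℓ : ℤ) ^ k) σ x, hact σ x⟩
  obtain ⟨ι, hι, h, hint, heq, hD, hsep, hcom⟩ := hT M ℓ hℓ hℓM htame A hA 𝒮 hfin hst
  set E : Tors p ((ℓ : ℤ) ^ k) → 𝒮 := fun x => ⟨π (x : JZero p), x, rfl⟩ with hE
  have hEinj : Function.Injective E := by
    intro x y hxy
    have h1 : π (x : JZero p) = π (y : JZero p) := congrArg Subtype.val hxy
    have h2 : π ((x - y : Tors p ((ℓ : ℤ) ^ k)) : JZero p) = 0 := by
      rw [Submodule.coe_sub, map_sub, h1, sub_self]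
    have h3 : (ℓ ^ k) • ((x - y : Tors p ((ℓ : ℤ) ^ k)) : JZero p) = 0 := by
      have := (Submodule.mem_torsionBy_iff _ _).mp (x - y).2
      rw [← natCast_zsmul]
      push_cast
      exact this
    have h4 := hπinj (ℓ ^ k) (pow_pos hℓ.pos k) _ h3 h2
    exact sub_eq_zero.mp (Subtype.ext h4)
  have hEact : ∀ (σ : GQ) (x : Tors p ((ℓ : ℤ) ^ k))
      (hx : σ • ((E x : 𝒮) : JZero M) ∈ 𝒮),
      E (torsAct p ((ℓ : ℤ) ^ k) σ x) = ⟨σ • ((E x : 𝒮) : JZero M), hx⟩ :=
    fun σ x hx => Subtype.ext (hact σ x)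
  have hEadd : ∀ (x y : Tors p ((ℓ : ℤ) ^ k))
      (hxy : ((E x : 𝒮) : JZero M) + ((E y : 𝒮) : JZero M) ∈ 𝒮),
      E (x + y) = ⟨((E x : 𝒮) : JZero M) + ((E y : 𝒮) : JZero M), hxy⟩ :=
    fun x y hxy => Subtype.ext (by
      show π ((x + y : Tors p ((ℓ : ℤ) ^ k)) : JZero p) = π (x : JZero p) + π (y : JZero p)
      rw [Submodule.coe_add, map_add])
  have hmemE : ∀ (σ : GQ) (x : Tors p ((ℓ : ℤ) ^ k)), σ • ((E x : 𝒮) : JZero M) ∈ 𝒮 :=
    fun σ x => ⟨torsAct p ((ℓ : ℤ) ^ k) σ x, hact σ x⟩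
  have haddE : ∀ (x y : Tors p ((ℓ : ℤ) ^ k)),
      ((E x : 𝒮) : JZero M) + ((E y : 𝒮) : JZero M) ∈ 𝒮 :=
    fun x y => ⟨x + y, by
      show π ((x + y : Tors p ((ℓ : ℤ) ^ k)) : JZero p) = π (x : JZero p) + π (y : JZero p)
      rw [Submodule.coe_add, map_add]⟩
  refine ⟨ι, hι, fun j x => h j (E x), fun j x => hint j _, ?_, ?_, ?_, ?_⟩
  · intro j σ hσ x
    show h j (E (torsAct p ((ℓ : ℤ) ^ k) σ x)) = σ (h j (E x))
    rw [hEact σ x (hmemE σ x)]
    exact heq j σ hσ (E x) (hmemE σ x)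
  · intro j σ hσ
    obtain ⟨φ, hφ, hφe⟩ := hD j σ hσ
    have key : twist (torsAct p ((ℓ : ℤ) ^ k)) σ (fun x => h j (E x)) = fun x => φ (E x) := by
      funext x
      show σ (h j (E (torsAct p ((ℓ : ℤ) ^ k) σ⁻¹ x))) = φ (E x)
      have hx : x = torsAct p ((ℓ : ℤ) ^ k) σ (torsAct p ((ℓ : ℤ) ^ k) σ⁻¹ x) := by
        rw [← torsAct_mul, mul_inv_cancel, torsAct_one]
      have h1 := hφe (E (torsAct p ((ℓ : ℤ) ^ k) σ⁻¹ x)) (hmemE σ _)
      rw [← hEact σ _ (hmemE σ _), ← hx] at h1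
      exact h1.symm
    rw [key]
    exact comp_mem_genRing A.toSubring h E hφ
  · intro x y hxy
    exact hsep (E x) (E y) (hEinj.ne hxy)
  · intro j
    obtain ⟨φ, hφ, hφe⟩ := hcom j
    have key : (fun q : Tors p ((ℓ : ℤ) ^ k) × Tors p ((ℓ : ℤ) ^ k) => h j (E (q.1 + q.2))) =
        fun q => φ (E q.1, E q.2) := by
      funext q
      rw [hφe (E q.1) (E q.2) (haddE q.1 q.2), hEadd q.1 q.2 (haddE q.1 q.2)]
    rw [key]
    exact comp_mem_pairRing A.toSubring h E hφ

/-- The frozen statement S19 from the main theorem of G-FL at the tame levels. -/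
theorem result_of_FLTameC (hT : Fermat.Agent.FL.Stmt_FLTameC)
    (p : ℕ) [NeZero p] (ℓ : ℕ) [Fact ℓ.Prime] (hℓp : ¬ ℓ ∣ p) (k : ℕ) :
    ∃ (H : Type) (_ : CommRing H) (_ : HopfAlgebra (GaloisRep.ratLocalizedAt ℓ) H),
      Module.Finite (GaloisRep.ratLocalizedAt ℓ) H ∧ Module.Flat (GaloisRep.ratLocalizedAt ℓ) H ∧
      Coalgebra.IsCocomm (GaloisRep.ratLocalizedAt ℓ) H ∧
      ∃ e : WithConv (H →ₐ[GaloisRep.ratLocalizedAt ℓ] AlgebraicClosure ℚ) ≃
          ↥(Submodule.torsionBy ℤ (JZero p) ((ℓ : ℤ) ^ k)),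
        (∀ f g, e (f * g) = e f + e g) ∧
        ∀ (σ : AlgebraicClosure ℚ ≃ₐ[ℚ] AlgebraicClosure ℚ)
          (f g : WithConv (H →ₐ[GaloisRep.ratLocalizedAt ℓ] AlgebraicClosure ℚ)),
          (∀ h : H, g h = σ (f h)) → ((e g : JZero p)) = σ • (e f : JZero p) :=
  result_of_FLGenCore (flGenCore_of_tame hT) p ℓ hℓp k

end Fermat.Agent.S19.H32

end
-- ==== END Fermat.Agent.S19.H32_AsmC

-- ==== BEGIN Fermat.Agent.S19
section

set_option autoImplicit false
open ModularCurve
open ModularCurve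

namespace Fermat.Agent.S19

theorem result
    (p : ℕ) [NeZero p] (ℓ : ℕ) [Fact ℓ.Prime] (hℓp : ¬ ℓ ∣ p) (k : ℕ) :
    ∃ (H : Type) (_ : CommRing H) (_ : HopfAlgebra (GaloisRep.ratLocalizedAt ℓ) H),
      Module.Finite (GaloisRep.ratLocalizedAt ℓ) H ∧ Module.Flat (GaloisRep.ratLocalizedAt ℓ) H ∧
      Coalgebra.IsCocomm (GaloisRep.ratLocalizedAt ℓ) H ∧
      ∃ e : WithConv (H →ₐ[GaloisRep.ratLocalizedAt ℓ] AlgebraicClosure ℚ) ≃
          ↥(Submodule.torsionBy ℤ (JZero p) ((ℓ : ℤ) ^ k)),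
        (∀ f g, e (f * g) = e f + e g) ∧
        ∀ (σ : AlgebraicClosure ℚ ≃ₐ[ℚ] AlgebraicClosure ℚ)
          (f g : WithConv (H →ₐ[GaloisRep.ratLocalizedAt ℓ] AlgebraicClosure ℚ)),
          (∀ h : H, g h = σ (f h)) → ((e g : JZero p)) = σ • (e f : JZero p) :=
  H32.result_of_FLTameC
    (Fermat.Agent.FL.H33.stmt_FLTameC_of
      (Fermat.Agent.FL.H36.stmt_FLAbs_of_famAdd_dStab Fermat.Agent.FL.H46.stmt_FamAdd
        (Fermat.Agent.FL.H21.stmt_DStab_of_famAdd Fermat.Agent.FL.H46.stmt_FamAdd))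
      Fermat.Agent.FL.H22.stmt_TameFrames)
    p ℓ hℓp k

end Fermat.Agent.S19

end
-- ==== END Fermat.Agent.S19
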