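-- GENERATED (merged mirror, NOTES/tools/trim/merge3_helper67.py): 7 modules of the originals, bodies verbatim.
import Mathlib
import Fermat.Prelude.Def_EllipticCurve_FrobeniusTrace
import Fermat.Prelude.Def_FLTPrelim_GaloisRep
import Fermat.Prelude.Def_GaloisRep_ComplexConjugation
import Fermat.Prelude.Def_ModularCurve_HeckeModule
import Fermat.Agent.L.Defs
import Fermat.Agent.Lib.PointVariableChange
import Fermat.Agent.L.H52_CHpow
import Fermat.Agent.Zm.S35_L01_001
import Fermat.Agent.Zm.S35_L03_002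
import Fermat.Agent.Lib.EllFinite.Defs
import Fermat.Agent.Zm.S35_L02_000
import Fermat.Agent.Zm.S35_L08_001
import Fermat.Agent.Zm.S35_L09_001
import Fermat.Agent.Zm.S35_L14_002
import Fermat.Agent.Zm.S35_L11_001

-- ==== BEGIN Fermat.Agent.L.H19_BLR
section

/-!
# Cluster L, package L-BLR (helper19): the Boston–Lenstra–Ribet theorem

`G` a group, `k` a field, `M : G →* M₂(k)` with `span (M G) = M₂(k)` (Burnside: `M` absolutely
irreducible), `B` a `k`-algebra and `π : G →* B` such that every `π g` satisfies the characteristic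
polynomial of `M g`.  Then `π` factors through `M`: there is a `k`-algebra homomorphism
`Φ : M₂(k) → B` with `Φ (M g) = π g` (`exists_algHom`).  Valid in every characteristic.

Proof (after Boston–Lenstra–Ribet, C. R. Acad. Sci. 312 (1991)): on the span `S` of the pairs
`(M g, π g)` one has the polarised Cayley–Hamilton identity (`dagger`), hence the quadratic
identity (`quad`); an element `(0, b) ∈ S` then satisfies `b = 2 e b` for an idempotent `e`,
whence `b = 0`.
-/

set_option autoImplicit false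

namespace Fermat.Agent.L.H19

open Matrix

variable {G k B : Type*} [Group G] [Field k] [Ring B] [Algebra k B]

/-! ### Identities for `2 × 2` matrices -/

lemma det_add_fin_two (m m' : Matrix (Fin 2) (Fin 2) k) :
    (m + m').det = m.det + m'.det + (m.trace * m'.trace - (m * m').trace) := by
  simp only [Matrix.det_fin_two, Matrix.trace_fin_two, Matrix.mul_apply, Fin.sum_univ_two,
    Matrix.add_apply]
  ring

lemma det_smul_fin_two (c : k) (m : Matrix (Fin 2) (Fin 2) k) :
    (c • m).det = c ^ 2 * m.det := by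
  simp only [Matrix.det_fin_two, Matrix.smul_apply, smul_eq_mul]
  ring

/-! ### The graph span -/

/-- The span of the pairs `(M g, π g)`. -/
def graphSpan (M : G →* Matrix (Fin 2) (Fin 2) k) (π : G →* B) :
    Submodule k (Matrix (Fin 2) (Fin 2) k × B) :=
  Submodule.span k (Set.range fun g => (M g, π g))

variable {M : G →* Matrix (Fin 2) (Fin 2) k} {π : G →* B}

lemma gen_mem (g : G) : (M g, π g) ∈ graphSpan M π :=
  Submodule.subset_span ⟨g, rfl⟩

lemma one_mem_graphSpan : ((1 : Matrix (Fin 2) (Fin 2) k), (1 : B)) ∈ graphSpan M π := by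
  have := gen_mem (M := M) (π := π) 1
  simpa using this

lemma mul_mem_graphSpan {r s : Matrix (Fin 2) (Fin 2) k × B} (hr : r ∈ graphSpan M π)
    (hs : s ∈ graphSpan M π) : (r.1 * s.1, r.2 * s.2) ∈ graphSpan M π := by
  induction hr using Submodule.span_induction with
  | mem r hr =>
    obtain ⟨g, rfl⟩ := hr
    induction hs using Submodule.span_induction with
    | mem s hs =>
      obtain ⟨h, rfl⟩ := hs
      have := gen_mem (M := M) (π := π) (g * h)
      simpa using this
    | zero =>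
      simp only [Prod.fst_zero, Prod.snd_zero, mul_zero]
      exact Submodule.zero_mem _
    | add s s' _ _ ih ih' =>
      have := Submodule.add_mem _ ih ih'
      simpa [mul_add] using this
    | smul c s _ ih =>
      have := Submodule.smul_mem _ c ih
      simpa using this
  | zero =>
    simp only [Prod.fst_zero, Prod.snd_zero, zero_mul]
    exact Submodule.zero_mem _
  | add r r' _ _ ih ih' =>
    have := Submodule.add_mem _ ih ih'
    simpa [add_mul] using this
  | smul c r _ ih =>
    have := Submodule.smul_mem _ c ih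
    simpa using this


/-! ### The polarised Cayley–Hamilton identity -/

section CH

variable (hCH : ∀ g, π g * π g - (M g).trace • π g + (M g).det • (1 : B) = 0)
include hCH

/-- `det(g) π(g⁻¹) = tr(g) - π(g)`. -/
lemma adj_rel (g : G) : (M g).det • π g⁻¹ = (M g).trace • (1 : B) - π g := by
  have h := hCH g
  have h1 : (π g * π g - (M g).trace • π g + (M g).det • (1 : B)) * π g⁻¹ = 0 := by
    rw [h, zero_mul]
  have h2 : π g * π g⁻¹ = 1 := by rw [← map_mul, mul_inv_cancel, map_one]
  rw [add_mul, sub_mul, mul_assoc, h2, mul_one, smul_mul_assoc, h2, smul_mul_assoc, one_mul] at h1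
  calc (M g).det • π g⁻¹
      = (π g - (M g).trace • (1 : B) + (M g).det • π g⁻¹) - (π g - (M g).trace • (1 : B)) := by
        abel
    _ = (M g).trace • (1 : B) - π g := by rw [h1]; abel

/-- The polarised identity on generators. -/
lemma dagger_gen (g h : G) :
    π g * π h + π h * π g - (M g).trace • π h - (M h).trace • π g
      + ((M g).trace * (M h).trace - (M g * M h).trace) • (1 : B) = 0 := by
  have hg := adj_rel hCH g
  have hh := adj_rel hCH h
  have hgh := adj_rel hCH (g * h)
  have e1 : (M (g * h)).det • π (g * h)⁻¹ = ((M h).det • π h⁻¹) * ((M g).det • π g⁻¹) := by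
    rw [_root_.mul_inv_rev, map_mul, map_mul, Matrix.det_mul, smul_mul_smul_comm, mul_comm (M h).det]
  rw [e1, hg, hh, map_mul, map_mul] at hgh
  have e2 : ((M h).trace • (1 : B) - π h) * ((M g).trace • (1 : B) - π g)
      = ((M g).trace * (M h).trace) • (1 : B) - (M h).trace • π g - (M g).trace • π h
        + π h * π g := by
    rw [sub_mul, mul_sub, mul_sub, smul_mul_smul_comm, mul_one, smul_mul_assoc, one_mul,
      mul_smul_comm, mul_one, mul_comm (M h).trace]
    abel
  rw [e2] at hgh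
  have := sub_eq_zero.mpr hgh
  rw [← this]
  module

/-- The defect of the polarised Cayley–Hamilton identity. -/
def Dg (r s : Matrix (Fin 2) (Fin 2) k × B) : B :=
  r.2 * s.2 + s.2 * r.2 - r.1.trace • s.2 - s.1.trace • r.2
    + (r.1.trace * s.1.trace - (r.1 * s.1).trace) • (1 : B)

omit hCH in
lemma Dg_add_left (r r' s : Matrix (Fin 2) (Fin 2) k × B) :
    Dg (r + r') s = Dg r s + Dg r' s := by
  simp only [Dg, Prod.fst_add, Prod.snd_add, add_mul, mul_add, Matrix.trace_add]
  module

omit hCH in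
lemma Dg_add_right (r s s' : Matrix (Fin 2) (Fin 2) k × B) :
    Dg r (s + s') = Dg r s + Dg r s' := by
  simp only [Dg, Prod.fst_add, Prod.snd_add, add_mul, mul_add, Matrix.trace_add]
  module

omit hCH in
lemma Dg_smul_left (c : k) (r s : Matrix (Fin 2) (Fin 2) k × B) :
    Dg (c • r) s = c • Dg r s := by
  simp only [Dg, Prod.smul_fst, Prod.smul_snd, Matrix.trace_smul, smul_mul_assoc,
    mul_smul_comm, smul_eq_mul]
  module

omit hCH in
lemma Dg_smul_right (c : k) (r s : Matrix (Fin 2) (Fin 2) k × B) :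
    Dg r (c • s) = c • Dg r s := by
  simp only [Dg, Prod.smul_fst, Prod.smul_snd, Matrix.trace_smul, smul_mul_assoc,
    mul_smul_comm, smul_eq_mul]
  module

omit hCH in
lemma Dg_zero_left (s : Matrix (Fin 2) (Fin 2) k × B) : Dg 0 s = 0 := by
  simp [Dg]

omit hCH in
lemma Dg_zero_right (r : Matrix (Fin 2) (Fin 2) k × B) : Dg r 0 = 0 := by
  simp [Dg]

/-- The polarised Cayley–Hamilton identity on the graph span. -/
lemma dagger {r s : Matrix (Fin 2) (Fin 2) k × B} (hr : r ∈ graphSpan M π)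
    (hs : s ∈ graphSpan M π) : Dg r s = 0 := by
  induction hr using Submodule.span_induction with
  | mem r hr =>
    obtain ⟨g, rfl⟩ := hr
    induction hs using Submodule.span_induction with
    | mem s hs =>
      obtain ⟨h, rfl⟩ := hs
      exact dagger_gen hCH g h
    | zero => exact Dg_zero_right _
    | add s s' _ _ ih ih' => rw [Dg_add_right, ih, ih', add_zero]
    | smul c s _ ih => rw [Dg_smul_right, ih, smul_zero]
  | zero => exact Dg_zero_left _
  | add r r' _ _ ih ih' => rw [Dg_add_left, ih, ih', add_zero]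
  | smul c r _ ih => rw [Dg_smul_left, ih, smul_zero]

/-- The quadratic identity on the graph span. -/
lemma quad {r : Matrix (Fin 2) (Fin 2) k × B} (hr : r ∈ graphSpan M π) :
    r.2 * r.2 - r.1.trace • r.2 + r.1.det • (1 : B) = 0 := by
  induction hr using Submodule.span_induction with
  | mem r hr =>
    obtain ⟨g, rfl⟩ := hr
    exact hCH g
  | zero => simp
  | add r s hr hs ih ih' =>
    have hd := dagger hCH hr hs
    simp only [Dg] at hd
    simp only [Prod.fst_add, Prod.snd_add, add_mul, mul_add, Matrix.trace_add, det_add_fin_two]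
    have e : r.2 * r.2 + s.2 * r.2 + (r.2 * s.2 + s.2 * s.2) - (r.1.trace + s.1.trace) • (r.2 + s.2)
        + (r.1.det + s.1.det + (r.1.trace * s.1.trace - (r.1 * s.1).trace)) • (1 : B)
        = (r.2 * r.2 - r.1.trace • r.2 + r.1.det • (1 : B))
          + (s.2 * s.2 - s.1.trace • s.2 + s.1.det • (1 : B))
          + (r.2 * s.2 + s.2 * r.2 - r.1.trace • s.2 - s.1.trace • r.2
            + (r.1.trace * s.1.trace - (r.1 * s.1).trace) • (1 : B)) := by
      module
    rw [e, ih, ih', hd]
    simp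
  | smul c r _ ih =>
    simp only [Prod.smul_fst, Prod.smul_snd, Matrix.trace_smul, smul_mul_assoc,
      mul_smul_comm, smul_eq_mul, det_smul_fin_two]
    have e : c • c • (r.2 * r.2) - (c * r.1.trace) • c • r.2 + (c ^ 2 * r.1.det) • (1 : B)
        = (c ^ 2) • (r.2 * r.2 - r.1.trace • r.2 + r.1.det • (1 : B)) := by
      module
    rw [e, ih, smul_zero]

/-- Key step: an element of the graph span with vanishing matrix component vanishes, as soon
as the graph span contains lifts of `E₁₂` and `E₂₁`. -/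
lemma snd_eq_zero_of_fst_eq_zero {x y z : Matrix (Fin 2) (Fin 2) k × B}
    (hx : x ∈ graphSpan M π) (hy : y ∈ graphSpan M π) (hz : z ∈ graphSpan M π)
    (hx1 : x.1 = 0) (hty : y.1.trace = 0) (htz : z.1.trace = 0)
    (htyz : (y.1 * z.1).trace = 1) (hdyz : (y.1 * z.1).det = 0) : x.2 = 0 := by
  have hyz := mul_mem_graphSpan hy hz
  -- `x y = - y x`, `x z = - z x`, `x (y z) + (y z) x = x`
  have h1 := dagger hCH hx hy
  have h2 := dagger hCH hx hz
  have h3 := dagger hCH hx hyz
  simp only [Dg, hx1, hty, htz, htyz, Matrix.trace_zero, zero_mul, zero_smul, sub_zero,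
    mul_zero, add_zero, one_smul] at h1 h2 h3
  have hq := quad hCH hyz
  simp only [htyz, hdyz, one_smul, zero_smul, add_zero] at hq
  -- `e = y z` is an idempotent
  set e : B := y.2 * z.2 with he
  have he2 : e * e = e := sub_eq_zero.mp hq
  have hxy : x.2 * y.2 = - (y.2 * x.2) := eq_neg_of_add_eq_zero_left h1
  have hxz : x.2 * z.2 = - (z.2 * x.2) := eq_neg_of_add_eq_zero_left h2
  have hxe : x.2 * e = e * x.2 := by
    rw [he, ← mul_assoc, hxy, neg_mul, mul_assoc, hxz, mul_neg, neg_neg, mul_assoc]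
  have h4 : e * x.2 + e * x.2 = x.2 := by
    rw [hxe] at h3
    exact sub_eq_zero.mp h3
  have h5 : e * x.2 = 0 := by
    have := congrArg (fun t => e * t) h4
    simp only [mul_add, ← mul_assoc, he2] at this
    exact add_eq_right.mp this |>.symm ▸ rfl
  rw [← h4, h5, add_zero]

end CH

/-! ### The algebra homomorphism -/

section AlgHom

variable (hspan : Submodule.span k (Set.range M) = ⊤)
  (hCH : ∀ g, π g * π g - (M g).trace • π g + (M g).det • (1 : B) = 0)

include hspan in
lemma exists_lift (π : G →* B) (m : Matrix (Fin 2) (Fin 2) k) :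
    ∃ b : B, (m, b) ∈ graphSpan M π := by
  have h : m ∈ Submodule.map (LinearMap.fst k (Matrix (Fin 2) (Fin 2) k) B) (graphSpan M π) := by
    rw [graphSpan, Submodule.map_span, ← Set.range_comp]
    have e : (⇑(LinearMap.fst k (Matrix (Fin 2) (Fin 2) k) B) ∘ fun g => (M g, π g)) = ⇑M := rfl
    rw [e, hspan]
    trivial
  obtain ⟨⟨m', b⟩, h, rfl⟩ := h
  exact ⟨b, h⟩

include hspan hCH in
/-- The graph span is the graph of a function. -/
lemma graph_unique {m : Matrix (Fin 2) (Fin 2) k} {b b' : B}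
    (h : (m, b) ∈ graphSpan M π) (h' : (m, b') ∈ graphSpan M π) : b = b' := by
  obtain ⟨by', hy⟩ := exists_lift hspan π (Matrix.single (0 : Fin 2) (1 : Fin 2) (1 : k))
  obtain ⟨bz, hz⟩ := exists_lift hspan π (Matrix.single (1 : Fin 2) (0 : Fin 2) (1 : k))
  have hx : ((0 : Matrix (Fin 2) (Fin 2) k), b - b') ∈ graphSpan M π := by
    have := Submodule.sub_mem _ h h'
    simpa using this
  have := snd_eq_zero_of_fst_eq_zero hCH hx hy hz rfl
    (by simp) (by simp) (by simp) (by simp [Matrix.det_fin_two])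
  exact sub_eq_zero.mp this

include hspan hCH in
/-- **Boston–Lenstra–Ribet**: `π` factors through `M`. -/
theorem exists_algHom :
    ∃ Φ : Matrix (Fin 2) (Fin 2) k →ₐ[k] B, ∀ g, Φ (M g) = π g := by
  choose φ hφ using exists_lift hspan π
  have huniq : ∀ {m : Matrix (Fin 2) (Fin 2) k} {b : B}, (m, b) ∈ graphSpan M π → φ m = b :=
    fun h => graph_unique hspan hCH (hφ _) h
  let L : Matrix (Fin 2) (Fin 2) k →ₗ[k] B :=
    { toFun := φ
      map_add' := fun m m' => huniq (by
        have := Submodule.add_mem _ (hφ m) (hφ m')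
        simpa using this)
      map_smul' := fun c m => huniq (by
        have := Submodule.smul_mem _ c (hφ m)
        simpa using this) }
  refine ⟨AlgHom.ofLinearMap L (huniq one_mem_graphSpan) (fun m m' => huniq ?_),
    fun g => huniq (gen_mem g)⟩
  exact mul_mem_graphSpan (hφ m) (hφ m')

end AlgHom

/-! ### Modules over `M₂(k)` -/

/-- A nonzero module over `M₂(k)` contains the standard module `k²`. -/
theorem exists_embedding {X : Type*} [AddCommGroup X] [Module k X] [Nontrivial X]
    (Φ : Matrix (Fin 2) (Fin 2) k →ₐ[k] Module.End k X) :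
    ∃ f : (Fin 2 → k) →ₗ[k] X, Function.Injective f ∧
      ∀ (A : Matrix (Fin 2) (Fin 2) k) (v : Fin 2 → k), f (A.mulVec v) = Φ A (f v) := by
  classical
  let e : Fin 2 → Fin 2 → k := fun i => Pi.single i 1
  let E : Fin 2 → Matrix (Fin 2) (Fin 2) k := fun i => Matrix.vecMulVec (e i) (e i)
  have hsum : E 0 + E 1 = 1 := by
    ext a c
    fin_cases a <;> fin_cases c <;> simp [E, e, Matrix.vecMulVec_apply]
  have hidem : ∀ i, E i * E i = E i := by
    intro i
    simp only [E, Matrix.vecMulVec_mul_vecMulVec]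
    congr 1
    simp [e]
  -- some `E i` acts nontrivially
  have hex : ∃ (i : Fin 2) (x : X), Φ (E i) x ≠ 0 := by
    by_contra hcon
    push Not at hcon
    obtain ⟨x, hx⟩ := exists_ne (0 : X)
    apply hx
    have h1 : Φ (E 0 + E 1) x = x := by rw [hsum, map_one]; rfl
    rw [map_add, LinearMap.add_apply, hcon 0 x, hcon 1 x, add_zero] at h1
    exact h1.symm
  obtain ⟨i, x, hx⟩ := hex
  set w : X := Φ (E i) x with hw
  have hEw : Φ (E i) w = w := by
    rw [hw, ← Module.End.mul_apply, ← map_mul, hidem]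
  let f : (Fin 2 → k) →ₗ[k] X :=
    { toFun := fun v => Φ (Matrix.vecMulVec v (e i)) w
      map_add' := fun v v' => by
        rw [Matrix.add_vecMulVec, map_add, LinearMap.add_apply]
      map_smul' := fun c v => by
        rw [Matrix.smul_vecMulVec, map_smul, LinearMap.smul_apply, RingHom.id_apply] }
  have hf : ∀ v, f v = Φ (Matrix.vecMulVec v (e i)) w := fun v => rfl
  refine ⟨f, ?_, fun A v => ?_⟩
  · rw [injective_iff_map_eq_zero]
    intro v hv
    by_contra hv0
    obtain ⟨a, ha⟩ : ∃ a, v a ≠ 0 := by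
      by_contra hcon
      push Not at hcon
      exact hv0 (funext hcon)
    have hA : Matrix.vecMulVec (e i) ((v a)⁻¹ • e a) * Matrix.vecMulVec v (e i) = E i := by
      simp only [E, Matrix.vecMulVec_mul_vecMulVec]
      congr 1
      have : ((v a)⁻¹ • e a) ⬝ᵥ v = 1 := by
        simp [e, dotProduct, Pi.single_apply, ha]
      rw [this, one_smul]
    apply hx
    have h2 : Φ (Matrix.vecMulVec (e i) ((v a)⁻¹ • e a)) (f v) = w := by
      rw [hf, ← Module.End.mul_apply, ← map_mul, hA, hEw]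
    rw [hv, map_zero] at h2
    exact h2.symm
  · rw [hf, hf, ← Matrix.mul_vecMulVec, map_mul, Module.End.mul_apply]

/-! ### The package statement -/

/-- **L-BLR** in the exact shape of `Fermat.Agent.L.Stmt_BLR` (the hypothesis `2 ≠ 0` is not
used). -/
theorem stmt_BLR : Fermat.Agent.L.Stmt_BLR := by
  intro k _ _ G _ V _ _ ρ hV hspan X _ _ _ π hCH
  have hfin : Module.Finite k V := Module.finite_of_finrank_eq_succ hV
  let b : Module.Basis (Fin 2) k V := Module.finBasisOfFinrankEq k V hV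
  let T : (V →ₗ[k] V) ≃ₐ[k] Matrix (Fin 2) (Fin 2) k := LinearMap.toMatrixAlgEquiv b
  let M : G →* Matrix (Fin 2) (Fin 2) k := (T : (V →ₗ[k] V) →* Matrix (Fin 2) (Fin 2) k).comp ρ
  have hM : ∀ g, M g = LinearMap.toMatrix b b (ρ g) := fun g => rfl
  have hspanM : Submodule.span k (Set.range M) = ⊤ := by
    have h := congrArg (Submodule.map T.toLinearEquiv.toLinearMap) hspan
    rw [Submodule.map_span, Submodule.map_top, ← Set.range_comp] at h
    have h' : LinearMap.range (T.toLinearEquiv.toLinearMap) = ⊤ :=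
      LinearMap.range_eq_top.2 T.surjective
    rw [h'] at h
    exact h
  have hCHM : ∀ g, π g * π g - (M g).trace • π g + (M g).det • (1 : Module.End k X) = 0 := by
    intro g
    have h := hCH g
    unfold Fermat.Agent.L.CHRel at h
    rw [hM, ← LinearMap.trace_eq_matrix_trace k b, LinearMap.det_toMatrix b]
    exact h
  obtain ⟨Φ, hΦ⟩ := exists_algHom (B := Module.End k X) (π := π) hspanM hCHM
  obtain ⟨f, hfinj, hf⟩ := exists_embedding Φ
  refine ⟨f ∘ₗ b.equivFun.toLinearMap, hfinj.comp b.equivFun.injective, fun g v => ?_⟩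
  have h1 : b.equivFun (ρ g v) = (M g).mulVec (b.equivFun v) := by
    rw [hM]
    exact (LinearMap.toMatrix_mulVec_repr b b (ρ g) v).symm
  simp only [LinearMap.comp_apply, LinearEquiv.coe_coe]
  rw [h1, hf, hΦ]

end Fermat.Agent.L.H19

end
-- ==== END Fermat.Agent.L.H19_BLR

-- ==== BEGIN Fermat.Agent.L.H19_Odd
section

/-!
# Cluster L, package L-ODD (helper19): odd + irreducible ⇒ absolutely irreducible

An irreducible `2`-dimensional representation `ρ` over a field of characteristic `≠ 2` with an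
involution `c` such that `det ρ(c) = -1` satisfies Burnside's conclusion
`span (ρ G) = End V`.  Elementary proof: in an eigenbasis of `ρ(c) = diag(1, -1)` the span
contains `E₁₁, E₂₂ = (1 ± ρ c)/2`, and `E₂₁`, `E₁₂` as `E₂₂ ρ(g) E₁₁`, `E₁₁ ρ(h) E₂₂` suitably
normalised (irreducibility: neither eigenline is stable).
-/

set_option autoImplicit false

namespace Fermat.Agent.L.H19

open Matrix Module

/-- The span of the range of a monoid homomorphism into an algebra is a subalgebra. -/
lemma span_range_eq_adjoin {F A G : Type*} [Field F] [Ring A] [Algebra F A] [Monoid G]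
    (φ : G →* A) :
    Submodule.span F (Set.range φ) = Subalgebra.toSubmodule (Algebra.adjoin F (Set.range φ)) := by
  rw [Algebra.adjoin_eq_span]
  congr 1
  rw [← MonoidHom.coe_mrange, Submonoid.closure_eq]

/-- Matrix core of L-ODD. -/
lemma span_eq_top_of_diag {G F : Type*} [Group G] [Field F] (h2 : (2 : F) ≠ 0)
    (M : G →* Matrix (Fin 2) (Fin 2) F) (c : G) (hc : M c = !![1, 0; 0, -1])
    (g h : G) (hg : M g 1 0 ≠ 0) (hh : M h 0 1 ≠ 0) :
    Submodule.span F (Set.range M) = ⊤ := by
  rw [span_range_eq_adjoin, eq_top_iff]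
  set 𝒜 := Algebra.adjoin F (Set.range M) with h𝒜
  have hmem : ∀ x, M x ∈ 𝒜 := fun x => Algebra.subset_adjoin ⟨x, rfl⟩
  have hE11 : Matrix.single (0 : Fin 2) (0 : Fin 2) (1 : F) ∈ 𝒜 := by
    have h1 : (2 : F)⁻¹ • ((1 : Matrix (Fin 2) (Fin 2) F) + M c) ∈ 𝒜 :=
      𝒜.smul_mem (𝒜.add_mem 𝒜.one_mem (hmem c)) _
    convert h1 using 1
    rw [hc]
    ext i j
    fin_cases i <;> fin_cases j <;> simp
    · field_simp; norm_num
  have hE22 : Matrix.single (1 : Fin 2) (1 : Fin 2) (1 : F) ∈ 𝒜 := by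
    have h1 : (2 : F)⁻¹ • ((1 : Matrix (Fin 2) (Fin 2) F) - M c) ∈ 𝒜 :=
      𝒜.smul_mem (𝒜.sub_mem 𝒜.one_mem (hmem c)) _
    convert h1 using 1
    rw [hc]
    ext i j
    fin_cases i <;> fin_cases j <;> simp
    · field_simp; norm_num
  have hE21 : Matrix.single (1 : Fin 2) (0 : Fin 2) (1 : F) ∈ 𝒜 := by
    have h1 : (M g 1 0)⁻¹ • (Matrix.single (1 : Fin 2) (1 : Fin 2) (1 : F) * M g *
        Matrix.single (0 : Fin 2) (0 : Fin 2) (1 : F)) ∈ 𝒜 :=
      𝒜.smul_mem (𝒜.mul_mem (𝒜.mul_mem hE22 (hmem g)) hE11) _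
    convert h1 using 1
    ext i j
    fin_cases i <;> fin_cases j <;> simp [Matrix.mul_apply, Matrix.single, hg]
  have hE12 : Matrix.single (0 : Fin 2) (1 : Fin 2) (1 : F) ∈ 𝒜 := by
    have h1 : (M h 0 1)⁻¹ • (Matrix.single (0 : Fin 2) (0 : Fin 2) (1 : F) * M h *
        Matrix.single (1 : Fin 2) (1 : Fin 2) (1 : F)) ∈ 𝒜 :=
      𝒜.smul_mem (𝒜.mul_mem (𝒜.mul_mem hE11 (hmem h)) hE22) _
    convert h1 using 1
    ext i j
    fin_cases i <;> fin_cases j <;> simp [Matrix.mul_apply, Matrix.single, hh]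
  intro m _
  have hm : m = m 0 0 • Matrix.single (0 : Fin 2) (0 : Fin 2) (1 : F)
      + m 0 1 • Matrix.single (0 : Fin 2) (1 : Fin 2) (1 : F)
      + m 1 0 • Matrix.single (1 : Fin 2) (0 : Fin 2) (1 : F)
      + m 1 1 • Matrix.single (1 : Fin 2) (1 : Fin 2) (1 : F) := by
    ext i j
    fin_cases i <;> fin_cases j <;> simp [Matrix.single]
  rw [hm]
  exact 𝒜.add_mem (𝒜.add_mem (𝒜.add_mem (𝒜.smul_mem hE11 _) (𝒜.smul_mem hE12 _))
    (𝒜.smul_mem hE21 _)) (𝒜.smul_mem hE22 _)

/-- **L-ODD** in the exact shape of `Fermat.Agent.L.Stmt_ODD`. -/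
theorem stmt_ODD : Fermat.Agent.L.Stmt_ODD := by
  intro F _ h2 G _ V _ _ ρ hV c hc2 hcdet hirr
  have hfin : Module.Finite F V := Module.finite_of_finrank_eq_succ hV
  have hCC : ∀ v, ρ c (ρ c v) = v := by
    intro v
    rw [← Module.End.mul_apply, ← map_mul, hc2, map_one]
    rfl
  have h1ne : (1 : F) ≠ -1 := by
    intro h
    apply h2
    have e : (2 : F) = 1 + 1 := by norm_num
    rw [e]
    nth_rewrite 1 [h]
    ring
  have hC1 : ρ c ≠ 1 := by
    intro h
    rw [h, map_one] at hcdet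
    exact h1ne hcdet
  have hCm1 : ρ c ≠ -1 := by
    intro h
    have hd : LinearMap.det (-1 : V →ₗ[F] V) = 1 := by
      have := LinearMap.det_smul (-1 : F) (1 : V →ₗ[F] V)
      rw [hV] at this
      simpa using this
    rw [h, hd] at hcdet
    exact h1ne hcdet
  -- eigenvectors
  obtain ⟨ep, hep0, hep⟩ : ∃ v : V, v ≠ 0 ∧ ρ c v = v := by
    have : ∃ w, ρ c w ≠ -w := by
      by_contra hcon
      push Not at hcon
      exact hCm1 (LinearMap.ext fun w => by simpa using hcon w)
    obtain ⟨w, hw⟩ := this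
    refine ⟨ρ c w + w, fun h => hw (eq_neg_of_add_eq_zero_left h), ?_⟩
    rw [map_add, hCC, add_comm]
  obtain ⟨em, hem0, hem⟩ : ∃ v : V, v ≠ 0 ∧ ρ c v = -v := by
    have : ∃ w, ρ c w ≠ w := by
      by_contra hcon
      push Not at hcon
      exact hC1 (LinearMap.ext fun w => by simpa using hcon w)
    obtain ⟨w, hw⟩ := this
    refine ⟨ρ c w - w, fun h => hw (sub_eq_zero.mp h), ?_⟩
    rw [map_sub, hCC, neg_sub]
  -- the eigenbasis
  have hli : LinearIndependent F ![ep, em] := by
    rw [LinearIndependent.pair_iff]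
    intro s t hst
    have h' := congrArg (ρ c) hst
    rw [map_add, map_smul, map_smul, hep, hem, map_zero, smul_neg] at h'
    have hs : (2 * s) • ep = 0 := by
      have := congrArg₂ (· + ·) hst h'
      simp only [add_zero] at this
      rw [← this]
      module
    have ht : (2 * t) • em = 0 := by
      have := congrArg₂ (· - ·) hst h'
      simp only [sub_zero] at this
      rw [← this]
      module
    rw [smul_eq_zero] at hs ht
    refine ⟨?_, ?_⟩
    · rcases hs with hs | hs
      · exact (mul_eq_zero.mp hs).resolve_left h2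
      · exact absurd hs hep0
    · rcases ht with ht | ht
      · exact (mul_eq_zero.mp ht).resolve_left h2
      · exact absurd ht hem0
  let b : Module.Basis (Fin 2) F V :=
    basisOfLinearIndependentOfCardEqFinrank hli (by simp [hV])
  have hb : ∀ i, b i = ![ep, em] i := fun i => by
    simp only [b, coe_basisOfLinearIndependentOfCardEqFinrank]
  have hb0 : b 0 = ep := by rw [hb]; rfl
  have hb1 : b 1 = em := by rw [hb]; rfl
  let T : (V →ₗ[F] V) ≃ₐ[F] Matrix (Fin 2) (Fin 2) F := LinearMap.toMatrixAlgEquiv b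
  let M : G →* Matrix (Fin 2) (Fin 2) F := (T : (V →ₗ[F] V) →* Matrix (Fin 2) (Fin 2) F).comp ρ
  have hM : ∀ g i j, M g i j = b.repr (ρ g (b j)) i := fun g i j =>
    LinearMap.toMatrix_apply b b (ρ g) i j
  have hexp : ∀ g j, ρ g (b j) = M g 0 j • ep + M g 1 j • em := by
    intro g j
    have := b.sum_repr (ρ g (b j))
    rw [Fin.sum_univ_two, hb0, hb1] at this
    rw [hM, hM]
    exact this.symm
  have hMc : M c = !![1, 0; 0, -1] := by
    have h0 : b.repr (ρ c (b 0)) = b.repr (b 0) := by rw [hb0, hep]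
    have h1 : b.repr (ρ c (b 1)) = - b.repr (b 1) := by rw [hb1, hem, map_neg]
    ext i j
    rw [hM]
    fin_cases i <;> fin_cases j <;> simp [h0, h1]
  -- neither eigenline is stable
  have hem_not : em ∉ Submodule.span F {ep} := by
    intro h
    obtain ⟨a, ha⟩ := Submodule.mem_span_singleton.mp h
    have h3 := LinearIndependent.pair_iff.mp hli a (-1) (by rw [ha]; simp)
    exact one_ne_zero (neg_eq_zero.mp h3.2)
  have hep_not : ep ∉ Submodule.span F {em} := by
    intro h
    obtain ⟨a, ha⟩ := Submodule.mem_span_singleton.mp h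
    have h3 := LinearIndependent.pair_iff.mp hli (-1) a (by rw [ha]; simp)
    exact one_ne_zero (neg_eq_zero.mp h3.1)
  obtain ⟨g, hg⟩ : ∃ g, M g 1 0 ≠ 0 := by
    by_contra hcon
    push Not at hcon
    have hst : ∀ g, ∀ w ∈ Submodule.span F {ep}, ρ g w ∈ Submodule.span F {ep} := by
      intro g w hw
      obtain ⟨a, rfl⟩ := Submodule.mem_span_singleton.mp hw
      rw [map_smul]
      refine Submodule.smul_mem _ _ ?_
      have := hexp g 0
      rw [hb0, hcon g, zero_smul, add_zero] at this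
      rw [this]
      exact Submodule.smul_mem _ _ (Submodule.mem_span_singleton_self ep)
    rcases hirr _ hst with h | h
    · exact hep0 ((Submodule.span_singleton_eq_bot).mp h)
    · exact hem_not (h ▸ Submodule.mem_top)
  obtain ⟨h, hh⟩ : ∃ h, M h 0 1 ≠ 0 := by
    by_contra hcon
    push Not at hcon
    have hst : ∀ g, ∀ w ∈ Submodule.span F {em}, ρ g w ∈ Submodule.span F {em} := by
      intro g w hw
      obtain ⟨a, rfl⟩ := Submodule.mem_span_singleton.mp hw
      rw [map_smul]
      refine Submodule.smul_mem _ _ ?_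
      have := hexp g 1
      rw [hb1, hcon g, zero_smul, zero_add] at this
      rw [this]
      exact Submodule.smul_mem _ _ (Submodule.mem_span_singleton_self em)
    rcases hirr _ hst with h | h
    · exact hem0 ((Submodule.span_singleton_eq_bot).mp h)
    · exact hep_not (h ▸ Submodule.mem_top)
  have hspanM := span_eq_top_of_diag h2 M c hMc g h hg hh
  -- transfer back to `End V`
  have h3 := congrArg (Submodule.map T.symm.toLinearEquiv.toLinearMap) hspanM
  rw [Submodule.map_span, Submodule.map_top, ← Set.range_comp] at h3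
  have h4 : LinearMap.range (T.symm.toLinearEquiv.toLinearMap) = ⊤ :=
    LinearMap.range_eq_top.2 T.symm.surjective
  rw [h4] at h3
  have h5 : (⇑(T.symm.toLinearEquiv.toLinearMap) ∘ ⇑M) = ⇑ρ := by
    funext x
    exact T.symm_apply_apply (ρ x)
  rw [h5] at h3
  exact h3

end Fermat.Agent.L.H19

end
-- ==== END Fermat.Agent.L.H19_Odd

-- ==== BEGIN Fermat.Agent.L.H19_TorsLevel
section

/-!
# Torsion of an elliptic curve as a Galois module: transport and finite level (helper19)

Shared by S41 package I3 and the congruence-recovery packages of cluster L.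

* `torsEquiv hC n` : for `C • E = E'` (curves over `F`, points over an extension `K`) the
  `ZMod n`-linear equivalence `E'[n](K) ≃ E[n](K)`; it is `Gal(K/F)`-equivariant
  (`torsEquiv_smul`).  Consequences: `irreducible_of_variableChange`, `finrank_tors_eq`,
  `galoisTrace_eq`, `det_galois_eq`.
* `exists_finite_level` : if `E[n](K)` is finite and `K/F` is algebraic, there is a
  finite-dimensional intermediate field `L` such that `g, g'` agreeing on `L` act equally on
  `E[n](K)`.
-/

set_option autoImplicit false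

namespace Fermat.Agent.L.H19

open WeierstrassCurve WeierstrassCurve.Affine WeierstrassCurve.Affine.Point
open Fermat.Agent.Lib.PointVariableChange

section Transport

variable {F K : Type*} [Field F] [Field K] [Algebra F K] [DecidableEq K]
  {E E' : WeierstrassCurve F} {C : VariableChange F}

/-- The `n`-torsion of `E(K)`. -/
abbrev TorsK (K : Type*) [Field K] [Algebra F K] [DecidableEq K] (E : WeierstrassCurve F) (n : ℕ) :
    Type _ :=
  Submodule.torsionBy ℤ (E.toAffine⁄K).Point n

omit [DecidableEq K] in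
lemma baseChange_eq (hC : C • E = E') :
    (E'.toAffine⁄K) = ((C.map (algebraMap F K)) • (E.toAffine⁄K)).toAffine := by
  show E'.map (algebraMap F K) = (C.map (algebraMap F K)) • (E.map (algebraMap F K))
  rw [map_variableChange, hC]

/-- The isomorphism on `K`-points induced by a change of variables over `F`. -/
noncomputable def ptEquiv (hC : C • E = E') : (E'.toAffine⁄K).Point ≃+ (E.toAffine⁄K).Point :=
  equivOfEq (baseChange_eq (K := K) hC)

lemma ptEquiv_smul (hC : C • E = E') (σ : K ≃ₐ[F] K) (P : (E'.toAffine⁄K).Point) :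
    ptEquiv hC (σ • P) = σ • ptEquiv hC P := by
  rcases P with _ | ⟨x, y, h⟩
  · change ptEquiv hC (σ • 0) = σ • ptEquiv hC 0
    rw [smul_zero, _root_.map_zero, smul_zero]
  · rw [algEquiv_smul_def, Point.map_some, algEquiv_smul_def]
    unfold ptEquiv
    rw [equivOfEq_some, equivOfEq_some, Point.map_some]
    congr 1
    · simp [vcX]
    · simp [vcY]

/-- The isomorphism on `n`-torsion points induced by a change of variables, additive version. -/
noncomputable def torsAddEquiv (hC : C • E = E') (n : ℕ) : TorsK K E' n ≃+ TorsK K E n where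
  toFun x := ⟨ptEquiv hC x.1, by
    have hx := x.2
    rw [Submodule.mem_torsionBy_iff] at hx ⊢
    rw [← map_zsmul, hx, _root_.map_zero]⟩
  invFun y := ⟨(ptEquiv hC).symm y.1, by
    have hy := y.2
    rw [Submodule.mem_torsionBy_iff] at hy ⊢
    rw [← map_zsmul, hy, _root_.map_zero]⟩
  left_inv x := Subtype.ext (by simp)
  right_inv y := Subtype.ext (by simp)
  map_add' x y := Subtype.ext (by simp)

/-- The `ZMod n`-linear isomorphism `E'[n](K) ≃ E[n](K)` induced by a change of variables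
`C • E = E'` over `F`. -/
noncomputable def torsEquiv (hC : C • E = E') (n : ℕ) : TorsK K E' n ≃ₗ[ZMod n] TorsK K E n :=
  { torsAddEquiv hC n with
    map_smul' := fun c x =>
      (AddMonoidHom.toZModLinearMap n (torsAddEquiv (K := K) hC n).toAddMonoidHom).map_smul c x }

@[simp] lemma torsEquiv_coe (hC : C • E = E') (n : ℕ) (x : TorsK K E' n) :
    ((torsEquiv hC n x : TorsK K E n) : (E.toAffine⁄K).Point) = ptEquiv hC x.1 := rfl

/-- The torsion isomorphism is Galois-equivariant. -/
lemma torsEquiv_smul (hC : C • E = E') (n : ℕ) (σ : K ≃ₐ[F] K) (x : TorsK K E' n) :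
    torsEquiv hC n (σ • x) = σ • torsEquiv hC n x :=
  Subtype.ext (ptEquiv_smul hC σ x.1)

lemma torsEquiv_symm_smul (hC : C • E = E') (n : ℕ) (σ : K ≃ₐ[F] K) (y : TorsK K E n) :
    (torsEquiv hC n).symm (σ • y) = σ • (torsEquiv hC n).symm y := by
  apply (torsEquiv hC n).injective
  rw [LinearEquiv.apply_symm_apply, torsEquiv_smul, LinearEquiv.apply_symm_apply]

/-- (d), in the shape used by the congruence-recovery packages. -/
theorem exists_torsEquiv (hC : C • E = E') (n : ℕ) :
    ∃ e : TorsK K E n ≃ₗ[ZMod n] TorsK K E' n, ∀ (σ : K ≃ₐ[F] K) (v : TorsK K E n),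
      e (σ • v) = σ • e v :=
  ⟨(torsEquiv hC n).symm, torsEquiv_symm_smul hC n⟩

/-! ### Transport of irreducibility, dimension, trace and determinant along an equivariant
linear equivalence -/

section Equivariant

variable {n : ℕ} (e : TorsK K E' n ≃ₗ[ZMod n] TorsK K E n)
  (he : ∀ (σ : K ≃ₐ[F] K) (x : TorsK K E' n), e (σ • x) = σ • e x)

include he in
lemma galoisRepModuleEnd_conj (σ : K ≃ₐ[F] K) :
    galoisRepModuleEnd F E.toAffine n σ = e.conj (galoisRepModuleEnd F E'.toAffine n σ) := by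
  apply LinearMap.ext
  intro y
  rw [LinearEquiv.conj_apply_apply, galoisRepModuleEnd_apply, galoisRepModuleEnd_apply, he,
    LinearEquiv.apply_symm_apply]

include he in
lemma galoisTrace_transport (σ : K ≃ₐ[F] K) :
    galoisTrace F E.toAffine n σ = galoisTrace F E'.toAffine n σ := by
  rw [galoisTrace_def, galoisTrace_def, galoisRepModuleEnd_conj e he, LinearMap.trace_conj']

include he in
lemma det_transport (σ : K ≃ₐ[F] K) :
    LinearMap.det (galoisRepModuleEnd F E.toAffine n σ)
      = LinearMap.det (galoisRepModuleEnd F E'.toAffine n σ) := by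
  rw [galoisRepModuleEnd_conj e he]
  have : e.conj (galoisRepModuleEnd F E'.toAffine n σ)
      = (e : TorsK K E' n →ₗ[ZMod n] TorsK K E n) ∘ₗ (galoisRepModuleEnd F E'.toAffine n σ) ∘ₗ
        (e.symm : TorsK K E n →ₗ[ZMod n] TorsK K E' n) := rfl
  rw [this, LinearMap.det_conj]

include he in
lemma irreducible_transport (h : GaloisRepIsIrreducible (K := K) F E.toAffine n) :
    GaloisRepIsIrreducible (K := K) F E'.toAffine n := by
  obtain ⟨hnt, hirr⟩ := h
  refine ⟨e.toEquiv.nontrivial, fun N hN => ?_⟩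
  have hst : IsGaloisStable F (N.map e.toLinearMap) := by
    intro σ y hy
    obtain ⟨x, hx, rfl⟩ := hy
    exact ⟨σ • x, hN σ x hx, he σ x⟩
  rcases hirr _ hst with h0 | h1
  · left
    exact (Submodule.map_eq_bot_iff (e := e)).mp h0
  · right
    rw [eq_top_iff]
    intro x _
    have hx : e x ∈ N.map e.toLinearMap := by rw [h1]; trivial
    obtain ⟨x', hx', hxx⟩ := hx
    rwa [← e.injective hxx]

end Equivariant

/-- Irreducibility of the mod `n` representation is invariant under change of variables. -/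
theorem irreducible_of_variableChange (hC : C • E = E') (n : ℕ)
    (h : GaloisRepIsIrreducible (K := K) F E.toAffine n) :
    GaloisRepIsIrreducible (K := K) F E'.toAffine n :=
  irreducible_transport (torsEquiv hC n) (torsEquiv_smul hC n) h

theorem irreducible_of_variableChange' (hC : C • E = E') (n : ℕ)
    (h : GaloisRepIsIrreducible (K := K) F E'.toAffine n) :
    GaloisRepIsIrreducible (K := K) F E.toAffine n :=
  irreducible_transport (torsEquiv hC n).symm (torsEquiv_symm_smul hC n) h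

theorem finrank_tors_eq (hC : C • E = E') (n : ℕ) :
    Module.finrank (ZMod n) (TorsK K E' n) = Module.finrank (ZMod n) (TorsK K E n) :=
  (torsEquiv hC n).finrank_eq

theorem galoisTrace_eq (hC : C • E = E') (n : ℕ) (σ : K ≃ₐ[F] K) :
    galoisTrace F E.toAffine n σ = galoisTrace F E'.toAffine n σ :=
  galoisTrace_transport (torsEquiv hC n) (torsEquiv_smul hC n) σ

theorem det_galois_eq (hC : C • E = E') (n : ℕ) (σ : K ≃ₐ[F] K) :
    LinearMap.det (galoisRepModuleEnd F E.toAffine n σ)
      = LinearMap.det (galoisRepModuleEnd F E'.toAffine n σ) :=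
  det_transport (torsEquiv hC n) (torsEquiv_smul hC n) σ

end Transport

/-! ### Finite level -/

section FiniteLevel

variable {F K : Type*} [Field F] [Field K] [Algebra F K] [DecidableEq K]

/-- The set of coordinates of a point. -/
def coords {W : Affine K} : W.Point → Set K
  | .zero => ∅
  | .some x y _ => {x, y}

omit [DecidableEq K] in
lemma coords_finite {W : Affine K} (P : W.Point) : (coords P).Finite := by
  cases P <;> simp [coords]

/-- (c) If `E[n](K)` is finite (`K/F` algebraic) then the Galois action on it factors through a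
finite-dimensional intermediate field: automorphisms agreeing there act equally on `E[n](K)`. -/
theorem exists_finite_level [Algebra.IsAlgebraic F K] (E : WeierstrassCurve F) (n : ℕ)
    [Finite (TorsK K E n)] :
    ∃ L : IntermediateField F K, FiniteDimensional F L ∧
      ∀ g g' : K ≃ₐ[F] K, (∀ x ∈ L, g x = g' x) → ∀ v : TorsK K E n, g • v = g' • v := by
  let T : Set K := ⋃ v : TorsK K E n, coords v.1
  have hT : T.Finite := Set.finite_iUnion (fun v => coords_finite v.1)
  refine ⟨IntermediateField.adjoin F T, ?_, ?_⟩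
  · have : Finite T := hT.to_subtype
    exact IntermediateField.finiteDimensional_adjoin
      (fun x _ => (Algebra.IsAlgebraic.isAlgebraic x).isIntegral)
  · intro g g' hgg' v
    apply Subtype.ext
    change g • v.1 = g' • v.1
    rcases hv : v.1 with _ | ⟨x, y, h⟩
    · rfl
    · have hx : x ∈ IntermediateField.adjoin F T :=
        IntermediateField.subset_adjoin F T (Set.mem_iUnion.mpr ⟨v, by rw [hv]; simp [coords]⟩)
      have hy : y ∈ IntermediateField.adjoin F T :=
        IntermediateField.subset_adjoin F T (Set.mem_iUnion.mpr ⟨v, by rw [hv]; simp [coords]⟩)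
      rw [algEquiv_smul_def, algEquiv_smul_def, Point.map_some, Point.map_some]
      congr 1
      · exact hgg' x hx
      · exact hgg' y hy

/-- (c), in the shape used by the congruence-recovery packages. -/
theorem exists_finite_level_fix [Algebra.IsAlgebraic F K] (E : WeierstrassCurve F) (n : ℕ)
    [Finite (TorsK K E n)] :
    ∃ L : IntermediateField F K, FiniteDimensional F L ∧
      ∀ σ : K ≃ₐ[F] K, (∀ x ∈ L, σ x = x) → ∀ v : TorsK K E n, σ • v = v := by
  obtain ⟨L, hL, h⟩ := exists_finite_level (K := K) E n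
  exact ⟨L, hL, fun σ hσ v => by simpa using h σ 1 (fun x hx => by simpa using hσ x hx) v⟩

end FiniteLevel

end Fermat.Agent.L.H19

end
-- ==== END Fermat.Agent.L.H19_TorsLevel

-- ==== BEGIN Fermat.Agent.L.H28_FixedVec
section

/-!
# FROB-FIN (helper28), part 1: the fixed vector lemma (Lang's theorem, linear form)

`exists_fixed_of_semilinear`: `k` algebraically closed, `σ : k →+* k`, `σ a = a ^ Q`, `Q > 1`,
`V ≠ 0` finite-dimensional, `Ψ : V →+ V` injective with `Ψ (a • v) = σ a • Ψ v`.  Then `Ψ` has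
a non-zero fixed vector.

Proof: `w i = Ψ^i v₀`; `m` minimal with `w m = ∑_{i<m} b i • w i`; `w 0, …, w (m-1)` are
linearly independent; look for `∑_{i<m} c i • w i` with `c j = ∑_{i≤j} σ^{j-i}(b i) σ^{j-i+1}(c)`;
it is fixed iff `c (m-1) = c`, a polynomial equation `c · G₁(c) = 0` with `G₁(0) = -1` and `G₁`
not constant.
-/

set_option autoImplicit false

noncomputable section

namespace Fermat.Agent.L.H28

open Polynomial

section Comb

variable {k V : Type*} [Field k] [AddCommGroup V] [Module k V]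

/-- From a non-trivial relation among `w 0, …, w (N-1)`: some `w j` is a combination of the
earlier ones. -/
theorem exists_comb_of_relation (w : ℕ → V) :
    ∀ (N : ℕ) (g : ℕ → k), ∑ i ∈ Finset.range N, g i • w i = 0 → (∃ i < N, g i ≠ 0) →
      ∃ j < N, ∃ b : ℕ → k, w j = ∑ i ∈ Finset.range j, b i • w i := by
  intro N
  induction N with
  | zero =>
    rintro g - ⟨i, hi, -⟩
    exact absurd hi (Nat.not_lt_zero i)
  | succ N ih =>
    intro g hg hex
    rw [Finset.sum_range_succ] at hg
    by_cases hN : g N = 0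
    · rw [hN, zero_smul, add_zero] at hg
      obtain ⟨i, hi, hgi⟩ := hex
      have hiN : i < N := by
        rcases Nat.lt_succ_iff_lt_or_eq.mp hi with h | h
        · exact h
        · exact absurd (h ▸ hN) hgi
      obtain ⟨j, hj, b, hb⟩ := ih g hg ⟨i, hiN, hgi⟩
      exact ⟨j, Nat.lt_succ_of_lt hj, b, hb⟩
    · refine ⟨N, Nat.lt_succ_self N, fun i => -(g N)⁻¹ * g i, ?_⟩
      have h1 : g N • w N = -∑ i ∈ Finset.range N, g i • w i := eq_neg_of_add_eq_zero_right hg
      have h2 : w N = (g N)⁻¹ • (g N • w N) := by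
        rw [smul_smul, inv_mul_cancel₀ hN, one_smul]
      rw [h2, h1, smul_neg, Finset.smul_sum, ← Finset.sum_neg_distrib]
      refine Finset.sum_congr rfl fun i _ => ?_
      show -((g N)⁻¹ • g i • w i) = (-(g N)⁻¹ * g i) • w i
      rw [smul_smul, neg_mul, neg_smul]

end Comb

variable {k V : Type*} [Field k] [IsAlgClosed k] [AddCommGroup V] [Module k V]
  [FiniteDimensional k V] [Nontrivial V]

/-- **Fixed vector lemma**: an injective `σ`-semilinear additive self-map of a non-zero
finite-dimensional space over an algebraically closed field, `σ a = a ^ Q`, `Q > 1`, has a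
non-zero fixed vector. -/
theorem exists_fixed_of_semilinear (σ : k →+* k) (Q : ℕ) (hQ : 1 < Q) (hσ : ∀ a, σ a = a ^ Q)
    (Ψ : V →+ V) (hΨ : ∀ (a : k) (v : V), Ψ (a • v) = σ a • Ψ v)
    (hinj : Function.Injective Ψ) : ∃ v : V, v ≠ 0 ∧ Ψ v = v := by
  classical
  obtain ⟨v₀, hv₀⟩ := exists_ne (0 : V)
  set w : ℕ → V := fun i => Ψ^[i] v₀ with hw
  have hw0 : w 0 = v₀ := rfl
  have hwS : ∀ i, w (i + 1) = Ψ (w i) := fun i => Function.iterate_succ_apply' Ψ i v₀
  have hwne : ∀ i, w i ≠ 0 := by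
    intro i
    induction i with
    | zero => exact hv₀
    | succ i ih =>
      rw [hwS]
      intro h0
      exact ih (hinj (by rw [h0, map_zero]))
  -- iterates of `σ`
  have hσit : ∀ (j : ℕ) (a : k), σ^[j] a = a ^ (Q ^ j) := by
    intro j
    induction j with
    | zero => intro a; simp
    | succ j ih =>
      intro a
      rw [Function.iterate_succ_apply', ih, hσ, ← pow_mul, pow_succ]
  have hσinj : Function.Injective σ := σ.injective
  -- existence of a combination
  set n := Module.finrank k V with hn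
  have hdep : ¬ LinearIndependent k (fun i : Fin (n + 1) => w i) := by
    intro hli
    have := hli.fintype_card_le_finrank
    rw [Fintype.card_fin] at this
    omega
  obtain ⟨g, hg, i₀, hi₀⟩ := Fintype.not_linearIndependent_iff.mp hdep
  have hP : ∃ j, ∃ b : ℕ → k, w j = ∑ i ∈ Finset.range j, b i • w i := by
    let g' : ℕ → k := fun i => if h : i < n + 1 then g ⟨i, h⟩ else 0
    have hg' : ∑ i ∈ Finset.range (n + 1), g' i • w i = 0 := by
      rw [← hg, ← Fin.sum_univ_eq_sum_range (fun i => g' i • w i) (n + 1)]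
      refine Finset.sum_congr rfl fun i _ => ?_
      simp only [g', i.2, dif_pos, Fin.eta]
    obtain ⟨j, -, b, hb⟩ := exists_comb_of_relation w (n + 1) g' hg'
      ⟨i₀, i₀.2, by simp only [g', i₀.2, dif_pos, Fin.eta]; exact hi₀⟩
    exact ⟨j, b, hb⟩
  set m := Nat.find hP with hm
  obtain ⟨b, hb⟩ := Nat.find_spec hP
  change w m = ∑ i ∈ Finset.range m, b i • w i at hb
  have hmin : ∀ j < m, ¬ ∃ b : ℕ → k, w j = ∑ i ∈ Finset.range j, b i • w i :=
    fun j hj => Nat.find_min hP hj
  have hindep : ∀ g : ℕ → k, ∑ i ∈ Finset.range m, g i • w i = 0 → ∀ i < m, g i = 0 := by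
    intro g hg i hi
    by_contra hgi
    obtain ⟨j, hj, b', hb'⟩ := exists_comb_of_relation w m g hg ⟨i, hi, hgi⟩
    exact hmin j hj ⟨b', hb'⟩
  have hm0 : m ≠ 0 := by
    intro h0
    rw [h0, Finset.range_zero, Finset.sum_empty] at hb
    exact hwne 0 hb
  obtain ⟨m', hm'⟩ := Nat.exists_eq_add_one_of_ne_zero hm0
  -- some `b i` is non-zero
  have hbne : ∃ i < m, b i ≠ 0 := by
    by_contra hcon
    push Not at hcon
    apply hwne m
    rw [hb]
    refine Finset.sum_eq_zero fun i hi => ?_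
    rw [hcon i (Finset.mem_range.mp hi), zero_smul]
  obtain ⟨i₁, hi₁, hbi₁⟩ := hbne
  -- the polynomial
  set β : ℕ → k := fun i => σ^[m' - i] (b i) with hβ
  set e : ℕ → ℕ := fun i => Q ^ (m - i) - 1 with he
  have hQpos : 0 < Q := by omega
  have hepos : ∀ i < m, 1 ≤ e i := by
    intro i hi
    have h1 : Q ^ 1 ≤ Q ^ (m - i) := Nat.pow_le_pow_right hQpos (by omega)
    rw [pow_one] at h1
    simp only [he]
    omega
  have heinj : ∀ i < m, ∀ j < m, e i = e j → i = j := by
    intro i hi j hj hij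
    simp only [he] at hij
    have h1 : 1 ≤ Q ^ (m - i) := Nat.one_le_pow _ _ hQpos
    have h2 : 1 ≤ Q ^ (m - j) := Nat.one_le_pow _ _ hQpos
    have h3 : Q ^ (m - i) = Q ^ (m - j) := by omega
    have h4 := Nat.pow_right_injective (show 2 ≤ Q by omega) h3
    omega
  set G₁ : k[X] := ∑ i ∈ Finset.range m, C (β i) * X ^ e i - 1 with hG₁
  have hcoeff : G₁.coeff (e i₁) = β i₁ := by
    rw [hG₁, coeff_sub, finsetSum_coeff, coeff_one,
      if_neg (by have := hepos i₁ hi₁; omega), sub_zero,
      Finset.sum_eq_single i₁]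
    · rw [coeff_C_mul_X_pow, if_pos rfl]
    · intro j hj hji
      rw [coeff_C_mul_X_pow, if_neg]
      intro h
      exact hji (heinj j (Finset.mem_range.mp hj) i₁ hi₁ h.symm)
    · intro h
      exact absurd (Finset.mem_range.mpr hi₁) h
  have hβne : β i₁ ≠ 0 := by
    simp only [hβ]
    intro h0
    apply hbi₁
    have hinjit : Function.Injective (σ^[m' - i₁]) := hσinj.iterate _
    apply hinjit
    rw [h0, iterate_map_zero]
  have hdeg : G₁.degree ≠ 0 := by
    intro h0
    have h1 : G₁.natDegree = 0 := natDegree_eq_of_degree_eq_some (by simpa using h0)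
    have h2 : e i₁ ≤ G₁.natDegree := le_natDegree_of_ne_zero (by rw [hcoeff]; exact hβne)
    have := hepos i₁ hi₁
    omega
  obtain ⟨c, hc⟩ := IsAlgClosed.exists_root G₁ hdeg
  have hGc : ∑ i ∈ Finset.range m, β i * c ^ e i = 1 := by
    have h := hc
    rw [IsRoot.def, hG₁, eval_sub, eval_finsetSum, eval_one, sub_eq_zero] at h
    rw [← h]
    refine Finset.sum_congr rfl fun i _ => ?_
    rw [eval_mul, eval_C, eval_pow, eval_X]
  have hc0 : c ≠ 0 := by
    rintro rfl
    have : ∑ i ∈ Finset.range m, β i * (0 : k) ^ e i = 0 := by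
      refine Finset.sum_eq_zero fun i hi => ?_
      rw [zero_pow (by have := hepos i (Finset.mem_range.mp hi); omega), mul_zero]
    rw [this] at hGc
    exact zero_ne_one hGc
  -- the coefficients
  set cc : ℕ → k := fun j => ∑ i ∈ Finset.range (j + 1), σ^[j - i] (b i) * σ^[j - i + 1] c
    with hcc
  have hcc0 : cc 0 = b 0 * σ c := by
    simp only [hcc]
    rw [Finset.sum_range_one]
    simp
  have hccS : ∀ j, cc (j + 1) = σ (cc j) + σ c * b (j + 1) := by
    intro j
    simp only [hcc]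
    rw [Finset.sum_range_succ _ (j + 1), map_sum]
    congr 1
    · refine Finset.sum_congr rfl fun i hi => ?_
      have hij : i ≤ j := Nat.lt_succ_iff.mp (Finset.mem_range.mp hi)
      rw [map_mul, ← Function.iterate_succ_apply' σ, ← Function.iterate_succ_apply' σ,
        show j + 1 - i = (j - i) + 1 by omega]
    · simp [mul_comm]
  have hcclast : cc m' = c := by
    simp only [hcc]
    have h1 : ∀ i ∈ Finset.range (m' + 1),
        σ^[m' - i] (b i) * σ^[m' - i + 1] c = c * (β i * c ^ e i) := by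
      intro i hi
      have hi' : i < m := by rw [hm']; exact Finset.mem_range.mp hi
      have h2 : Q ^ (m' - i + 1) = e i + 1 := by
        simp only [he]
        have h3 : 1 ≤ Q ^ (m - i) := Nat.one_le_pow _ _ hQpos
        rw [show m - i = m' - i + 1 by omega] at h3 ⊢
        omega
      rw [hσit (m' - i + 1) c, h2, pow_succ]
      simp only [hβ]
      ring
    rw [Finset.sum_congr rfl h1, ← Finset.mul_sum, ← hm', hGc, mul_one]
  -- the fixed vector
  refine ⟨∑ i ∈ Finset.range m, cc i • w i, ?_, ?_⟩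
  · intro h0
    have := hindep cc h0 m' (by omega)
    rw [hcclast] at this
    exact hc0 this
  · rw [map_sum]
    have h1 : ∀ i ∈ Finset.range m, Ψ (cc i • w i) = σ (cc i) • w (i + 1) := by
      intro i _
      rw [hΨ, hwS]
    rw [Finset.sum_congr rfl h1, hm', Finset.sum_range_succ, ← hm', hb, hcclast, hm',
      Finset.sum_range_succ' (fun i => cc i • w i), Finset.sum_range_succ' (fun i => b i • w i),
      hcc0, smul_add, Finset.smul_sum, ← add_assoc, ← Finset.sum_add_distrib]
    congr 1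
    · refine Finset.sum_congr rfl fun i _ => ?_
      rw [hccS, add_smul, smul_smul]
    · rw [smul_smul, mul_comm]

end Fermat.Agent.L.H28

end
end
-- ==== END Fermat.Agent.L.H28_FixedVec

-- ==== BEGIN Fermat.Agent.L.H52_Rec
section

set_option autoImplicit false

open WeierstrassCurve WeierstrassCurve.Affine WeierstrassCurve.Affine.Point
open scoped WeierstrassCurve.Affine

namespace Fermat.Agent.L.H52

/-- `ℚ̄`. -/
abbrev Qb : Type := AlgebraicClosure ℚ

/-- The absolute Galois group of `ℚ`. -/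
abbrev GQ : Type := AlgebraicClosure ℚ ≃ₐ[ℚ] AlgebraicClosure ℚ

/-- The `p`-torsion of an elliptic curve over `ℚ`, as a Galois module. -/
abbrev TorsQ (E : WeierstrassCurve ℚ) (p : ℕ) : Type :=
  Submodule.torsionBy ℤ (E.toAffine⁄(AlgebraicClosure ℚ)).Point p

/-! ### Roots of unity: Frobenius elements and complex conjugation -/

section Roots

/-- A Frobenius element at `ℓ ≠ p` raises `p`-th roots of unity to the `ℓ`-th power. -/
theorem frob_root (A : ValuationSubring Qb) {ℓ p : ℕ} (hℓ : ℓ.Prime) (hp : p.Prime)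
    (hne : ℓ ≠ p) (hA : A.LiesOverPrime ℓ) {σ : GQ} (hσ : A.IsFrobeniusAt σ ℓ) {ζ : Qb}
    (hζ : ζ ^ p = 1) : σ ζ = ζ ^ ℓ := by
  have hζA : ζ ∈ A := by
    rw [← A.valuation_le_one_iff,
      Fermat.Agent.R.H89.h89_valuation_eq_one_of_pow_eq_one A hp.ne_zero hζ]
  have h1 := Fermat.Agent.R.H89.h89_frob_sub_mem A hσ hζA
  have hpA : (p : Qb) ∉ A.nonunits :=
    Fermat.Agent.R.H89.h89_prime_not_mem_nonunits A hp hℓ hne hA
  refine Fermat.Agent.R.H89.h89_eq_of_sub_mem A p hp.ne_zero hpA (n := 1) ?_ ?_ h1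
  · rw [pow_one, ← map_pow, hζ, map_one]
  · rw [pow_one, ← pow_mul, mul_comm, pow_mul, hζ, one_pow]

/-- Powers of a Frobenius element on roots of unity. -/
theorem frob_pow_root (A : ValuationSubring Qb) {ℓ p : ℕ} (hℓ : ℓ.Prime) (hp : p.Prime)
    (hne : ℓ ≠ p) (hA : A.LiesOverPrime ℓ) {σ : GQ} (hσ : A.IsFrobeniusAt σ ℓ) (j : ℕ) {ζ : Qb}
    (hζ : ζ ^ p = 1) : (σ ^ j) ζ = ζ ^ (ℓ ^ j) := by
  induction j generalizing ζ with
  | zero => simp
  | succ j ih =>
    rw [pow_succ, AlgEquiv.mul_apply, frob_root A hℓ hp hne hA hσ hζ, map_pow, ih hζ, ← pow_mul,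
      pow_succ]

/-- Complex conjugation inverts roots of unity. -/
theorem complexConjugation_root {p : ℕ} (hp : p ≠ 0) {ζ : Qb} (hζ : ζ ^ p = 1) :
    complexConjugation ζ = ζ⁻¹ := by
  apply complexEmbedding.toRingHom.injective
  change complexEmbedding (complexConjugation ζ) = complexEmbedding ζ⁻¹
  rw [complexEmbedding_complexConjugation, map_inv₀]
  have hz : (complexEmbedding ζ) ^ p = 1 := by rw [← map_pow, hζ, map_one]
  have hn : ‖complexEmbedding ζ‖ = 1 := Complex.norm_eq_one_of_pow_eq_one hz hp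
  exact (Complex.inv_eq_conj hn).symm

end Roots

/-! ### `E[p]` factors through a finite extension -/

section Level

/-- The finite set of coordinates of a point. -/
noncomputable def coords {L : Type*} [Field L] [DecidableEq L] {W : Affine L} :
    W.Point → Finset L
  | .zero => ∅
  | .some x y _ => {x, y}

theorem smul_eq_of_fix (E : WeierstrassCurve ℚ) (p : ℕ) (σ : GQ) (v : TorsQ E p)
    (h : ∀ x ∈ coords (v : (E.toAffine⁄Qb).Point), σ x = x) : σ • v = v := by
  apply Subtype.ext
  change σ • (v : (E.toAffine⁄Qb).Point) = v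
  rcases hv : (v : (E.toAffine⁄Qb).Point) with _ | ⟨x, y, hxy⟩
  · rfl
  · rw [hv] at h
    have hx : σ x = x := h x (by simp [coords])
    have hy : σ y = y := h y (by simp [coords])
    rw [algEquiv_smul_def]
    simp only [Point.map_some]
    congr 1

/-- The Galois action on a finite `E[p]` factors through a finite extension of `ℚ`. -/
theorem exists_level (E : WeierstrassCurve ℚ) (p : ℕ) [Finite (TorsQ E p)] :
    ∃ L : IntermediateField ℚ Qb, FiniteDimensional ℚ L ∧
      ∀ σ : GQ, (∀ x ∈ L, σ x = x) → ∀ v : TorsQ E p, σ • v = v := by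
  classical
  letI : Fintype (TorsQ E p) := Fintype.ofFinite _
  let S : Finset Qb := Finset.univ.biUnion fun v : TorsQ E p =>
    coords (v : (E.toAffine⁄Qb).Point)
  haveI halg : Algebra.IsAlgebraic ℚ Qb := AlgebraicClosure.isAlgebraic ℚ
  refine ⟨IntermediateField.adjoin ℚ (S : Set Qb),
    IntermediateField.finiteDimensional_adjoin
      (fun x _ => (Algebra.IsAlgebraic.isAlgebraic x).isIntegral), fun σ hσ v => ?_⟩
  refine smul_eq_of_fix E p σ v fun x hx => hσ x (IntermediateField.subset_adjoin ℚ _ ?_)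
  exact Finset.mem_coe.2 (Finset.mem_biUnion.mpr ⟨v, Finset.mem_univ _, hx⟩)

/-- A homomorphism which is trivial on the elements fixing `L` takes the same value on elements
which agree on `L`. -/
theorem map_eq_of_agree {M : Type*} [Monoid M] (φ : GQ →* M) (L : IntermediateField ℚ Qb)
    (hφ : ∀ σ : GQ, (∀ x ∈ L, σ x = x) → φ σ = 1) {g h : GQ} (hgh : ∀ x ∈ L, g x = h x) :
    φ g = φ h := by
  have h1 : φ (h⁻¹ * g) = 1 := hφ _ (fun x hx => by
    rw [AlgEquiv.mul_apply, hgh x hx]
    exact h.symm_apply_apply x)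
  have h2 : φ g = φ h * φ (h⁻¹ * g) := by rw [← map_mul, mul_inv_cancel_left]
  rw [h2, h1, mul_one]

end Level

/-! ### Frobenius density for a model -/

section Density

variable (W : WeierstrassCurve ℤ) (p : ℕ)

/-- The curve over `ℚ` of an integral model. -/
abbrev WQ (W : WeierstrassCurve ℤ) : WeierstrassCurve ℚ := W.map (Int.castRingHom ℚ)

/-- The mod `p` representation of the model. -/
noncomputable abbrev rhoW (W : WeierstrassCurve ℤ) (p : ℕ) :
    GQ →* Module.End (ZMod p) (TorsQ (WQ W) p) :=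
  galoisRepModuleEnd (S := ℚ) (K := AlgebraicClosure ℚ) (WQ W).toAffine p

/-- The exceptional set: `S`, the bad primes of the model, and `p`. -/
def badSet (S : Finset ℕ) : Finset ℕ := S ∪ W.Δ.natAbs.primeFactors ∪ {p}

variable {W p}

theorem good_of_notMem_badSet (hΔ : W.Δ ≠ 0) {S : Finset ℕ} {ℓ : ℕ} (hℓ : ℓ.Prime)
    (h : ℓ ∉ badSet W p S) : ℓ ∉ S ∧ ℓ ≠ p ∧ W.IsGoodPrimeFor ℓ := by
  simp only [badSet, Finset.mem_union, Finset.mem_singleton, not_or] at h
  refine ⟨h.1.1, h.2, fun hdvd => h.1.2 ?_⟩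
  rw [Nat.mem_primeFactors]
  exact ⟨hℓ, Int.natCast_dvd.mp hdvd, Int.natAbs_ne_zero.mpr hΔ⟩

/-- Frobenius density, with good primes. -/
theorem exists_frob (hFD : Fermat.Agent.R.Stmt_FD) (hΔ : W.Δ ≠ 0) (S : Finset ℕ)
    (L : IntermediateField ℚ Qb) (hL : FiniteDimensional ℚ L) (g : GQ) :
    ∃ (ℓ : ℕ) (A : ValuationSubring Qb) (σ : GQ) (j : ℕ),
      ℓ.Prime ∧ ℓ ∉ S ∧ ℓ ≠ p ∧ W.IsGoodPrimeFor ℓ ∧ A.LiesOverPrime ℓ ∧ A.IsFrobeniusAt σ ℓ ∧
        ∀ x ∈ L, (σ ^ j) x = g x := by
  obtain ⟨ℓ, A, σ, j, hℓ, hℓS, hA, hσ, hj⟩ := hFD (badSet W p S) L hL g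
  obtain ⟨h1, h2, h3⟩ := good_of_notMem_badSet hΔ hℓ hℓS
  exact ⟨ℓ, A, σ, j, hℓ, h1, h2, h3, hA, hσ, hj⟩

variable [Fact p.Prime]

/-- `E[p]` has dimension `2`. -/
theorem finrank_tors (hFD : Fermat.Agent.R.Stmt_FD)
    (hmain : Fermat.Agent.Lib.EllFinite.Stmt_main) (hΔ : W.Δ ≠ 0) :
    Module.finrank (ZMod p) (TorsQ (WQ W) p) = 2 := by
  obtain ⟨ℓ, A, σ, j, hℓ, -, hℓp, hgood, hA, hσ, -⟩ :=
    exists_frob (p := p) hFD hΔ ∅ ⊥ inferInstance 1
  exact (hmain W p ℓ hℓ (Ne.symm hℓp) hgood A hA σ hσ).1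

theorem finite_tors (hFD : Fermat.Agent.R.Stmt_FD)
    (hmain : Fermat.Agent.Lib.EllFinite.Stmt_main) (hΔ : W.Δ ≠ 0) :
    Finite (TorsQ (WQ W) p) := by
  have h := finrank_tors (p := p) hFD hmain hΔ
  haveI : Module.Finite (ZMod p) (TorsQ (WQ W) p) := Module.finite_of_finrank_pos (by omega)
  exact Module.finite_of_finite (ZMod p)

theorem two_ne_zero_zmod (hp2 : p ≠ 2) : (2 : ZMod p) ≠ 0 := by
  intro h
  have h' : ((2 : ℕ) : ZMod p) = 0 := by exact_mod_cast h
  rw [ZMod.natCast_eq_zero_iff] at h'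
  exact hp2 ((Nat.prime_dvd_prime_iff_eq (Fact.out : p.Prime) Nat.prime_two).mp h')

/-- **`det ρ(c) = -1`** for the complex conjugation `c`. -/
theorem det_complexConjugation (hFD : Fermat.Agent.R.Stmt_FD)
    (hmain : Fermat.Agent.Lib.EllFinite.Stmt_main) (hΔ : W.Δ ≠ 0) :
    LinearMap.det (rhoW W p complexConjugation) = -1 := by
  have hpp : p.Prime := Fact.out
  haveI := finite_tors (p := p) hFD hmain hΔ
  obtain ⟨L₀, hL₀, hfix⟩ := exists_level (WQ W) p
  haveI : NeZero p := ⟨hpp.ne_zero⟩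
  obtain ⟨ζ, hζ⟩ := HasEnoughRootsOfUnity.exists_primitiveRoot Qb p
  let L₁ : IntermediateField ℚ Qb := IntermediateField.adjoin ℚ {ζ}
  have hL₁ : FiniteDimensional ℚ L₁ :=
    IntermediateField.adjoin.finiteDimensional (hζ.isIntegral hpp.pos).tower_top
  haveI := hL₀
  haveI := hL₁
  obtain ⟨ℓ, A, σ, j, hℓ, -, hℓp, hgood, hA, hσ, hj⟩ :=
    exists_frob (p := p) hFD hΔ ∅ (L₀ ⊔ L₁) inferInstance complexConjugation
  have hρ1 : ∀ τ : GQ, (∀ x ∈ L₀, τ x = x) → rhoW W p τ = 1 := by
    intro τ hτ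
    refine LinearMap.ext fun v => ?_
    rw [galoisRepModuleEnd_apply, Module.End.one_apply]
    exact hfix τ hτ v
  have hρ : rhoW W p complexConjugation = rhoW W p σ ^ j := by
    rw [← map_pow]
    exact (map_eq_of_agree (rhoW W p) L₀ hρ1
      (fun x hx => hj x ((le_sup_left : L₀ ≤ L₀ ⊔ L₁) hx))).symm
  have hdet := (hmain W p ℓ hℓ (Ne.symm hℓp) hgood A hA σ hσ).2.2
  have hζ1 : ζ ^ p = 1 := hζ.pow_eq_one
  have hζL : ζ ∈ L₀ ⊔ L₁ :=
    (le_sup_right : L₁ ≤ L₀ ⊔ L₁) (IntermediateField.mem_adjoin_simple_self ℚ ζ)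
  have h1 : ζ ^ (ℓ ^ j) = ζ⁻¹ := by
    rw [← frob_pow_root A hℓ hpp hℓp hA hσ j hζ1, hj ζ hζL,
      complexConjugation_root hpp.ne_zero hζ1]
  have hζ0 : ζ ≠ 0 := hζ.ne_zero hpp.ne_zero
  have h2 : ζ ^ (ℓ ^ j + 1) = 1 := by
    rw [pow_succ, h1, inv_mul_cancel₀ hζ0]
  have h3 : p ∣ ℓ ^ j + 1 := hζ.dvd_of_pow_eq_one _ h2
  have h4 : ((ℓ ^ j + 1 : ℕ) : ZMod p) = 0 := (ZMod.natCast_eq_zero_iff _ _).2 h3
  rw [hρ, map_pow, hdet]
  push_cast at h4
  exact eq_neg_of_add_eq_zero_left h4

/-- **Burnside for `E[p]`**: an irreducible `E[p]` (`p` odd) spans `End E[p]`. -/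
theorem span_rhoW_eq_top (hFD : Fermat.Agent.R.Stmt_FD)
    (hmain : Fermat.Agent.Lib.EllFinite.Stmt_main) (hODD : Stmt_ODD) (hp2 : p ≠ 2)
    (hΔ : W.Δ ≠ 0)
    (hirr : GaloisRepIsIrreducible (K := AlgebraicClosure ℚ) ℚ (WQ W).toAffine p) :
    Submodule.span (ZMod p) (Set.range (rhoW W p)) = ⊤ := by
  refine hODD (ZMod p) (two_ne_zero_zmod hp2) GQ (TorsQ (WQ W) p) (rhoW W p)
    (finrank_tors hFD hmain hΔ) complexConjugation complexConjugation_mul_self
    (det_complexConjugation hFD hmain hΔ) ?_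
  intro N hN
  exact hirr.2 N (fun σ x hx => hN σ x hx)

end Density

/-! ### Congruence recovery -/

/-- **L-REC** (congruence recovery over `𝔽_p`).  `X` is a nonzero `𝔽_p`-module with an action
`π` of `G_ℚ` which is trivial on the elements fixing a finite extension `L`; for the primes `ℓ`
outside a finite set `S`, every Frobenius element at `ℓ` satisfies
`π(σ)² - a_ℓ(W) π(σ) + ℓ = 0`.  If `E[p]` is irreducible and `p` is odd, then `E[p]` embeds
Galois-equivariantly into `X`. -/
def Stmt_Rec : Prop :=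
  ∀ (W : WeierstrassCurve ℤ) (p : ℕ) [Fact p.Prime], p ≠ 2 → W.Δ ≠ 0 →
    GaloisRepIsIrreducible (K := AlgebraicClosure ℚ) ℚ (WQ W).toAffine p →
    ∀ (X : Type) [AddCommGroup X] [Module (ZMod p) X] [Nontrivial X]
      (π : GQ →* Module.End (ZMod p) X) (L : IntermediateField ℚ Qb), FiniteDimensional ℚ L →
      (∀ σ : GQ, (∀ x ∈ L, σ x = x) → π σ = 1) →
      ∀ S : Finset ℕ,
        (∀ ℓ : ℕ, ℓ.Prime → ℓ ∉ S → ℓ ≠ p → W.IsGoodPrimeFor ℓ →
          ∀ A : ValuationSubring Qb, A.LiesOverPrime ℓ → ∀ σ : GQ, A.IsFrobeniusAt σ ℓ →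
            π σ * π σ - ((W.apOfModel ℓ : ℤ) : ZMod p) • π σ
              + (ℓ : ZMod p) • (1 : Module.End (ZMod p) X) = 0) →
        ∃ f : TorsQ (WQ W) p →ₗ[ZMod p] X, Function.Injective f ∧
          ∀ (σ : GQ) (v : TorsQ (WQ W) p), f (σ • v) = π σ (f v)

/-- **L-REC from its inputs.** -/
theorem stmt_Rec_of (hFD : Fermat.Agent.R.Stmt_FD)
    (hmain : Fermat.Agent.Lib.EllFinite.Stmt_main) (hBLR : Stmt_BLR) (hODD : Stmt_ODD) :
    Stmt_Rec := by
  intro W p _ hp2 hΔ hirr X _ _ _ π L hL hπ S hCH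
  have hpp : p.Prime := Fact.out
  have hV := finrank_tors (p := p) hFD hmain hΔ
  haveI := finite_tors (p := p) hFD hmain hΔ
  obtain ⟨L₀, hL₀, hfix⟩ := exists_level (WQ W) p
  haveI := hL₀
  haveI := hL
  have hρ1 : ∀ τ : GQ, (∀ x ∈ L₀, τ x = x) → rhoW W p τ = 1 := by
    intro τ hτ
    refine LinearMap.ext fun v => ?_
    rw [galoisRepModuleEnd_apply, Module.End.one_apply]
    exact hfix τ hτ v
  -- the Frobenius set
  let F : Set GQ := {σ | ∃ (ℓ : ℕ) (A : ValuationSubring Qb), ℓ.Prime ∧ ℓ ∉ S ∧ ℓ ≠ p ∧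
    W.IsGoodPrimeFor ℓ ∧ A.LiesOverPrime ℓ ∧ A.IsFrobeniusAt σ ℓ}
  have hspan := span_rhoW_eq_top hFD hmain hODD hp2 hΔ hirr
  have hS : ∀ g : GQ, ∃ s ∈ F, ∃ j : ℕ, rhoW W p g = rhoW W p s ^ j ∧ π g = π s ^ j := by
    intro g
    obtain ⟨ℓ, A, σ, j, hℓ, hℓS, hℓp, hgood, hA, hσ, hj⟩ :=
      exists_frob (p := p) hFD hΔ S (L₀ ⊔ L) inferInstance g
    refine ⟨σ, ⟨ℓ, A, hℓ, hℓS, hℓp, hgood, hA, hσ⟩, j, ?_, ?_⟩
    · rw [← map_pow]
      exact (map_eq_of_agree (rhoW W p) L₀ hρ1
        (fun x hx => hj x ((le_sup_left : L₀ ≤ L₀ ⊔ L) hx))).symm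
    · rw [← map_pow]
      exact (map_eq_of_agree π L hπ
        (fun x hx => hj x ((le_sup_right : L ≤ L₀ ⊔ L) hx))).symm
  have hF : ∀ s ∈ F, CHRel (rhoW W p) π s := by
    rintro σ ⟨ℓ, A, hℓ, hℓS, hℓp, hgood, hA, hσ⟩
    obtain ⟨-, htr, hdet⟩ := hmain W p ℓ hℓ (Ne.symm hℓp) hgood A hA σ hσ
    have h := hCH ℓ hℓ hℓS hℓp hgood A hA σ hσ
    unfold CHRel
    rw [galoisTrace_def] at htr
    rw [htr, hdet]
    exact h
  obtain ⟨f, hf, hequiv⟩ := stmt_BLR_Frob_of hBLR stmt_CHpow (ZMod p) (two_ne_zero_zmod hp2) GQ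
    (TorsQ (WQ W) p) (rhoW W p) hV hspan X π F hS hF
  exact ⟨f, hf, fun σ v => hequiv σ v⟩

end Fermat.Agent.L.H52

end
-- ==== END Fermat.Agent.L.H52_Rec

-- ==== BEGIN Fermat.Agent.L.LiftEig.Defs
section

set_option autoImplicit false

noncomputable section

namespace Fermat.Agent.L.LiftEig

open AlgebraicCurve ModularCurve CongruenceSubgroup Fermat.Agent.Betti
open scoped MatrixGroups

/-- The good primes for the level `M` away from the set `S`. -/
abbrev GoodPrime (M : ℕ) (S : Set ℕ) : Type := {ℓ : ℕ // ℓ.Prime ∧ ¬ ℓ ∣ M ∧ ℓ ∉ S}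

/-- Noncommutative polynomials in variables `X_ℓ`, `ℓ` a good prime. -/
abbrev HPoly (M : ℕ) (S : Set ℕ) : Type := FreeAlgebra ℤ (GoodPrime M S)

/-- The variable `X_ℓ`. -/
def HPoly.X {M : ℕ} {S : Set ℕ} (ℓ : GoodPrime M S) : HPoly M S := FreeAlgebra.ι ℤ ℓ

/-- Evaluation at the Betti operators `T_ℓ^B` on `Hom(Γ₀(M), A)`. -/
def evalB (M : ℕ) (S : Set ℕ) (A : Type*) [AddCommGroup A] :
    HPoly M S →ₐ[ℤ] Module.End ℤ (Additive (Gamma0 M) →+ A) :=
  FreeAlgebra.lift ℤ (fun ℓ : GoodPrime M S => (TB M A ℓ.2.1 ℓ.2.2.1).toIntLinearMap)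

/-- Evaluation at the Hecke operators `T_ℓ` of `J₀(M)`. -/
def evalJ (M : ℕ) [NeZero M] (S : Set ℕ) : HPoly M S →ₐ[ℤ] Module.End ℤ (JZero M) :=
  FreeAlgebra.lift ℤ (fun ℓ : GoodPrime M S => heckeOperatorBar M ⟨ℓ.1, ℓ.2.1⟩)

/-- Evaluation at a system of integers. -/
def evalt (M : ℕ) (S : Set ℕ) (t : ℕ → ℤ) : HPoly M S →ₐ[ℤ] ℤ :=
  FreeAlgebra.lift ℤ (fun ℓ : GoodPrime M S => t ℓ.1)

@[simp]
theorem evalB_X (M : ℕ) (S : Set ℕ) (A : Type*) [AddCommGroup A] (ℓ : GoodPrime M S)
    (φ : Additive (Gamma0 M) →+ A) :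
    evalB M S A (HPoly.X ℓ) φ = TB M A ℓ.2.1 ℓ.2.2.1 φ := by
  simp [evalB, HPoly.X]

@[simp]
theorem evalJ_X (M : ℕ) [NeZero M] (S : Set ℕ) (ℓ : GoodPrime M S) (x : JZero M) :
    evalJ M S (HPoly.X ℓ) x = heckeOperatorBar M ⟨ℓ.1, ℓ.2.1⟩ x := by
  simp [evalJ, HPoly.X]

@[simp]
theorem evalt_X (M : ℕ) (S : Set ℕ) (t : ℕ → ℤ) (ℓ : GoodPrime M S) :
    evalt M S t (HPoly.X ℓ) = t ℓ.1 := by
  simp [evalt, HPoly.X]

/-- `P` is a relation of the good Hecke operators on the Betti lattice
`ParZ = Hom_par(Γ₀(M), ℤ)`. -/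
def IsBettiRel (M : ℕ) (S : Set ℕ) (P : HPoly M S) : Prop :=
  ∀ ψ : Additive (Gamma0 M) →+ ℤ, Period.IsParabolicHom (Gamma0 M) ψ → evalB M S ℤ P ψ = 0

/-- **TORS-REL.**  A relation of the good Hecke operators on the Betti lattice kills all torsion
points of `J₀(M)`. -/
def Stmt_TorsRel : Prop :=
  ∀ (M : ℕ) [NeZero M] (S : Set ℕ) (P : HPoly M S), IsBettiRel M S P →
    ∀ h : ℕ, h ≠ 0 → ∀ x : JZero M, h • x = 0 → evalJ M S P x = 0

/-- **CHAR-M.**  A system of integers `t_ℓ` which satisfies, modulo `p`, all the relations of the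
good Hecke operators on the Betti lattice of level `M` is the reduction of the system of
eigenvalues of a normalised eigenform of level `M`. -/
def Stmt_CharM : Prop :=
  ∀ (p : ℕ), p.Prime → ∀ (M : ℕ) [NeZero M] (S : Finset ℕ) (t : ℕ → ℤ),
    (∀ P : HPoly M (↑S : Set ℕ), IsBettiRel M ↑S P → (p : ℤ) ∣ evalt M ↑S t P) →
    ∃ (g : CuspForm (Gamma0 M) 2) (𝔪 : Ideal (integralClosure ℤ ℂ)),
      g.IsNormalizedEigenform ∧ 𝔪.IsMaximal ∧ (p : integralClosure ℤ ℂ) ∈ 𝔪 ∧
      ∀ ℓ : ℕ, ℓ.Prime → ℓ ∉ S → ¬ ℓ ∣ M →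
        ∃ a : integralClosure ℤ ℂ, (a : ℂ) = ModularFormClass.qCoeff g ℓ ∧
          a - ((t ℓ : ℤ) : integralClosure ℤ ℂ) ∈ 𝔪

end Fermat.Agent.L.LiftEig

end
end
-- ==== END Fermat.Agent.L.LiftEig.Defs

-- ==== BEGIN Fermat.Agent.RED.H36_EQ
section

/-!
# G-RED, package EQ (helper36, from helper33's `isRed_decomposition`)

`stmt_EQ : Stmt_EQ` : the reduction map at level `N` is equivariant under the decomposition
group of `A`, the semilinear automorphism of the reduced field being the coefficientwise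
residual action (`H33.redGalois`).
-/

set_option autoImplicit false
set_option linter.style.haveILetI false
set_option synthInstance.maxHeartbeats 400000
set_option maxHeartbeats 1000000

noncomputable section

open AlgebraicCurve ModularCurve Fermat.Agent.S28.H73 Fermat.Agent.RED.H73

namespace Fermat.Agent.RED.H36

/-- **Package EQ**. -/
theorem stmt_EQ : Stmt_EQ := by
  intro N ℓ _ hℓ hℓN A hA r hr σ hσ
  haveI : IsAlgClosed (kV A) := isAlgClosed_kV A
  refine ⟨H33.redGalois A (modularFunctionFieldFull N) (hasScale_laurentBaseChange A N) σ hσ,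
    ?_, ?_⟩
  · intro x n
    rw [H33.coe_redGalois_smul]
    rw [← H33.autkHom_eq_smul A σ hσ]
    rfl
  · intro P
    exact H33.isRed_decomposition A (modularFunctionFieldFull N)
      (hasScale_laurentBaseChange A N) (H95.stmt_HKA_isFF N)
      (isFF_redField_bar N ℓ hℓ hℓN A hA) (H42.fracScalable_laurentBaseChange A N) hσ hr P

end Fermat.Agent.RED.H36

end
end
-- ==== END Fermat.Agent.RED.H36_EQ
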