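-- GENERATED (merged mirror, NOTES/tools/trim/merge3_helper67.py): 8 modules of the originals, bodies verbatim.
import Mathlib
import Fermat.Prelude.Def_FLTPrelim_Ramification
import Fermat.Agent.Zm.S35_L08_001
import Fermat.Agent.Zm.S35_L11_001
import Fermat.Agent.Zm.S35_L01_003
import Fermat.Agent.S12.H11_Key
import Fermat.Agent.Zm.S35_L02_004
import Fermat.Agent.Zm.S33_L02_000
import Fermat.Agent.Zm.S35_L21_000
import Fermat.Agent.BAD.H21_SSPoly

-- ==== BEGIN Fermat.Agent.RED.H51_HRDefs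
section
attribute [local instance 10000] SubalgebraClass.toAlgebra
attribute [local instance 10000] HahnSeries.powerSeriesAlgebra

/-!
# G-RED package HR-RED (helper51 wiring, helper95 core): interface

`Stmt_HRcore` : for a reduction map `r` of level `N` (prime to `ℓ`) with the conservation law and
the moving lemma, and for every prime `s` (`s = ℓ`, `s ≠ ℓ`, `s ∣ N` allowed): if `r_* D` is
principal then `r_* (T_s D)` is principal, `T_s = α_* β^*` the Hecke correspondence of the prelude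
(`heckeDivBar`).

The wiring `Stmt_HRcore → Stmt_RM → S15.Stmt_HR p` is in `RED/H51_HR.lean`.
This file contains no `sorry`.
-/

set_option autoImplicit false
set_option synthInstance.maxHeartbeats 400000
set_option maxHeartbeats 1000000

noncomputable section

open AlgebraicCurve ModularCurve Fermat.Agent.S28.H73 Fermat.Agent.RED.H73

namespace Fermat.Agent.RED.H51

/-- **HR, core**: the kernel of the reduction map on divisors is stable under the Hecke
correspondences `T_s`, `s` any prime. -/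
def Stmt_HRcore : Prop :=
  ∀ (N ℓ s : ℕ) [NeZero N] [NeZero s], ℓ.Prime → s.Prime → ¬ ℓ ∣ N →
    ∀ A : ValuationSubring (AlgebraicClosure ℚ), A.LiesOverPrime ℓ →
    ∀ (hα : HeckeAlphaBarIntegral (AlgebraicClosure ℚ) N s)
      (hβ : HeckeBetaBarIntegral (AlgebraicClosure ℚ) N s)
      [HasPrincipalDivisors (AlgebraicClosure ℚ) ↥(modularFunctionFieldBar (N * s))],
    ∀ r : Place (AlgebraicClosure ℚ) ↥(modularFunctionFieldBar N) →
        Place (kV A) ↥(redField A (modularFunctionFieldBar N) (hasScale_laurentBaseChange A N)),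
      IsRed A (hasScale_laurentBaseChange A N) r →
      HasMove A (hasScale_laurentBaseChange A N) r →
    ∀ D : Divisor (AlgebraicClosure ℚ) ↥(modularFunctionFieldBar N),
      Divisor.IsPrincipal (Finsupp.mapDomain r D) →
        Divisor.IsPrincipal (Finsupp.mapDomain r (heckeDivBar hα hβ D))

end Fermat.Agent.RED.H51

end
end
-- ==== END Fermat.Agent.RED.H51_HRDefs

-- ==== BEGIN Fermat.Agent.RED.HR.H51_DegAbs
section

/-!
# G-RED package HR-RED, leaf DEG (helper51), abstract part: swapping the generators of a plane model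

`K` algebraically closed, `F / K` a function field of one variable generated by `x, y`, with a
place `P` where `x` has a simple pole and `y` a pole of order `s`; if `[F : K(x)] = s + 1` and
`x` satisfies a monic equation of degree `s + 1` with coefficients in `K[y]`, then
`[F : K(y)] = s + 1`.

* `sum_poles_eq` : the zeros theorem for `y⁻¹`: `Σ_{poles} (-ord y) = [F : K(y)]`;
* `le_finrank_of_two_poles`, `exists_other_pole`, `ord_neg_of_rel` (poles of `x` are poles of `y`);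
* `finrank_le_of_rel` : `[F : K(y)] ≤ n` from a monic relation of degree `n`;
* `swapDeg_abs` : the statement above.

This file contains no `sorry`.
-/

set_option autoImplicit false
set_option linter.style.haveILetI false
set_option linter.unusedSectionVars false

noncomputable section

open AlgebraicCurve IntermediateField Polynomial

namespace Fermat.Agent.RED.H51

section Rel

variable {R S : Type*} [CommRing R] [Nontrivial R] [CommRing S] [Algebra R S]

/-- The polynomial `X ^ n + Σ_{i < n} a i X ^ i`. -/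
def relPoly (n : ℕ) (a : ℕ → R) : R[X] :=
  X ^ n + ∑ i ∈ Finset.range n, C (a i) * X ^ i

theorem relPoly_degree_lt (n : ℕ) (a : ℕ → R) :
    (∑ i ∈ Finset.range n, C (a i) * X ^ i : R[X]).degree < n := by
  refine lt_of_le_of_lt (degree_sum_le _ _) ?_
  refine (Finset.sup_lt_iff (WithBot.bot_lt_coe n)).mpr fun i hi => ?_
  refine lt_of_le_of_lt (degree_C_mul_X_pow_le i (a i)) ?_
  exact WithBot.coe_lt_coe.mpr (Finset.mem_range.mp hi)

theorem relPoly_monic (n : ℕ) (a : ℕ → R) : (relPoly n a).Monic :=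
  monic_X_pow_add (relPoly_degree_lt n a)

theorem relPoly_natDegree (n : ℕ) (a : ℕ → R) : (relPoly n a).natDegree = n := by
  have h1 : (relPoly n a).degree = ((X : R[X]) ^ n).degree := by
    rw [relPoly, add_comm]
    exact degree_add_eq_right_of_degree_lt (by rw [degree_X_pow]; exact relPoly_degree_lt n a)
  rw [degree_X_pow] at h1
  exact natDegree_eq_of_degree_eq_some h1

theorem relPoly_aeval (n : ℕ) (a : ℕ → R) (x : S) :
    aeval x (relPoly n a) = x ^ n + ∑ i ∈ Finset.range n, algebraMap R S (a i) * x ^ i := by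
  simp [relPoly, aeval_def, eval₂_finsetSum]

end Rel

section Abs

variable {K F : Type} [Field K] [Field F] [Algebra K F]

theorem transcendental_inv' {y : F} (hy : Transcendental K y) : Transcendental K y⁻¹ := by
  intro h
  apply hy
  have := h.inv
  rwa [inv_inv] at this

/-- The zeros theorem for `y⁻¹`: the sum of the pole orders of `y` is `[F : K(y)]`. -/
theorem sum_poles_eq [IsAlgClosed K] (hFF : IsFF K F) (y : F) (hy : Transcendental K y)
    [FiniteDimensional K⟮y⟯ F] :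
    {v : Place K F | v.ord y < 0}.Finite ∧
      ∑ᶠ v ∈ {v : Place K F | v.ord y < 0}, (-(v.ord y)) = (Module.finrank K⟮y⟯ F : ℤ) := by
  have e : K⟮y⁻¹⟯ = K⟮y⟯ := Fermat.Agent.S24.H59.adjoin_inv_eq y
  haveI : FiniteDimensional K⟮y⁻¹⟯ F := by
    rw [e]
    infer_instance
  obtain ⟨hfin, hsum⟩ := zerosAll K F hFF y⁻¹ (transcendental_inv' hy)
  have hset : {v : Place K F | 0 < v.ord y⁻¹} = {v : Place K F | v.ord y < 0} := by
    ext v
    simp only [Set.mem_ofPred_eq, Place.ord_inv]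
    omega
  rw [hset] at hfin hsum
  refine ⟨hfin, ?_⟩
  rw [← Fermat.Agent.S24.H59.finrank_adjoin_inv y, ← hsum]
  refine finsum_mem_congr rfl fun v _ => ?_
  rw [Place.ord_inv]

/-- Two distinct poles of `y` bound `[F : K(y)]` from below. -/
theorem le_finrank_of_two_poles [IsAlgClosed K] (hFF : IsFF K F) (y : F)
    (hy : Transcendental K y) [FiniteDimensional K⟮y⟯ F] {P P' : Place K F} (hne : P ≠ P')
    (hP : P.ord y < 0) (hP' : P'.ord y < 0) :
    -(P.ord y) + -(P'.ord y) ≤ (Module.finrank K⟮y⟯ F : ℤ) := by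
  classical
  obtain ⟨hfin, hsum⟩ := sum_poles_eq hFF y hy
  rw [← hsum, finsum_mem_eq_finite_toFinset_sum _ hfin]
  have hsub : ({P, P'} : Finset (Place K F)) ⊆ hfin.toFinset := by
    intro v hv
    rw [Set.Finite.mem_toFinset, Set.mem_ofPred_eq]
    rcases Finset.mem_insert.mp hv with rfl | hv
    · exact hP
    · rw [Finset.mem_singleton] at hv
      rw [hv]
      exact hP'
  calc -(P.ord y) + -(P'.ord y) = ∑ v ∈ ({P, P'} : Finset (Place K F)), (-(v.ord y)) := by
        rw [Finset.sum_pair hne]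
    _ ≤ ∑ v ∈ hfin.toFinset, (-(v.ord y)) := by
        refine Finset.sum_le_sum_of_subset_of_nonneg hsub fun v hv _ => ?_
        rw [Set.Finite.mem_toFinset, Set.mem_ofPred_eq] at hv
        omega

/-- If `x` has a simple pole at `P` and `[F : K(x)] ≥ 2`, then `x` has another pole. -/
theorem exists_other_pole [IsAlgClosed K] (hFF : IsFF K F) (x : F) (hx : Transcendental K x)
    [FiniteDimensional K⟮x⟯ F] (P : Place K F) (hP : P.ord x = -1)
    (h2 : 2 ≤ Module.finrank K⟮x⟯ F) : ∃ P' : Place K F, P' ≠ P ∧ P'.ord x < 0 := by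
  classical
  by_contra hno
  push Not at hno
  obtain ⟨hfin, hsum⟩ := sum_poles_eq hFF x hx
  have hset : {v : Place K F | v.ord x < 0} = {P} := by
    ext v
    simp only [Set.mem_ofPred_eq, Set.mem_singleton_iff]
    constructor
    · intro hv
      by_contra hvP
      have := hno v hvP
      omega
    · rintro rfl
      omega
  rw [hset, finsum_mem_singleton, hP] at hsum
  have : (2 : ℤ) ≤ (Module.finrank K⟮x⟯ F : ℤ) := by exact_mod_cast h2
  omega

/-- If `x` satisfies a monic equation with coefficients in `K[y]`, every pole of `x` is a pole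
of `y`. -/
theorem ord_neg_of_rel (P : Place K F) {x y : F} (n : ℕ) (a : ℕ → F)
    (ha : ∀ i, a i ∈ Algebra.adjoin K ({y} : Set F))
    (hrel : x ^ n + ∑ i ∈ Finset.range n, a i * x ^ i = 0) (hx : P.ord x < 0) :
    P.ord y < 0 := by
  by_contra hy
  have hyO : y ∈ P.toValuationSubring :=
    (ordGe_zero_iff_mem P y).1 (Or.inr (not_lt.mp hy))
  -- the valuation ring as a `K`-subalgebra
  let O' : Subalgebra K F :=
    { P.toValuationSubring.toSubring with
      algebraMap_mem' := P.algebraMap_mem' }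
  have hle : Algebra.adjoin K ({y} : Set F) ≤ O' :=
    Algebra.adjoin_le (by
      intro z hz
      rw [Set.mem_singleton_iff] at hz
      rw [hz]
      exact hyO)
  have haO : ∀ i, a i ∈ P.toValuationSubring := fun i => hle (ha i)
  -- `x` is integral over the valuation ring
  have hint : IsIntegral ↥P.toValuationSubring x := by
    refine ⟨relPoly n fun i => ⟨a i, haO i⟩, relPoly_monic n _, ?_⟩
    rw [← aeval_def, relPoly_aeval]
    exact hrel
  obtain ⟨z, hz⟩ := IsIntegrallyClosed.isIntegral_iff.mp hint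
  have hxO : x ∈ P.toValuationSubring := by
    rw [← hz]
    exact z.2
  exact (not_mem_iff_ord_neg P).2 hx hxO

/-- `[F : K(y)] ≤ n` if `F = K(x, y)` and `x` satisfies a monic equation of degree `n` over
`K(y)`. -/
theorem finrank_le_of_rel (x y : F)
    (hgen : IntermediateField.adjoin K ({x, y} : Set F) = ⊤) (n : ℕ) (a : ℕ → F)
    (ha : ∀ i, a i ∈ K⟮y⟯)
    (hrel : x ^ n + ∑ i ∈ Finset.range n, a i * x ^ i = 0) :
    Module.finrank ↥K⟮y⟯ F ≤ n := by
  set p : (↥K⟮y⟯)[X] := relPoly n fun i => ⟨a i, ha i⟩ with hp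
  have hroot : aeval x p = 0 := by
    rw [hp, relPoly_aeval]
    exact hrel
  have hmonic : p.Monic := relPoly_monic n _
  have hint : IsIntegral ↥K⟮y⟯ x := ⟨p, hmonic, by rw [← aeval_def]; exact hroot⟩
  have htop : (↥K⟮y⟯)⟮x⟯ = ⊤ := by
    apply IntermediateField.restrictScalars_injective K
    rw [IntermediateField.restrictScalars_top, adjoin_simple_adjoin_simple, ← hgen]
    congr 1
    exact Set.pair_comm y x
  have h1 : Module.finrank ↥K⟮y⟯ ↥((↥K⟮y⟯)⟮x⟯) = (minpoly ↥K⟮y⟯ x).natDegree :=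
    IntermediateField.adjoin.finrank hint
  have h2 : Module.finrank ↥K⟮y⟯ ↥((↥K⟮y⟯)⟮x⟯) = Module.finrank ↥K⟮y⟯ F := by
    rw [htop]
    exact IntermediateField.finrank_top'
  have h3 : (minpoly ↥K⟮y⟯ x).natDegree ≤ p.natDegree :=
    natDegree_le_of_dvd (minpoly.dvd _ x hroot) hmonic.ne_zero
  rw [← h2, h1]
  exact h3.trans (le_of_eq (relPoly_natDegree n _))

/-- **Swapping the generators**: `[F : K(y)] = s + 1`. -/
theorem swapDeg_abs [IsAlgClosed K] (hFF : IsFF K F) (x y : F)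
    (hgen : IntermediateField.adjoin K ({x, y} : Set F) = ⊤) (s : ℕ) (hs : 1 ≤ s)
    (hx : Transcendental K x) (hy : Transcendental K y)
    (hdegx : Module.finrank ↥K⟮x⟯ F = s + 1)
    (P : Place K F) (hPx : P.ord x = -1) (hPy : P.ord y = -(s : ℤ))
    (a : ℕ → F) (ha : ∀ i, a i ∈ Algebra.adjoin K ({y} : Set F))
    (hrel : x ^ (s + 1) + ∑ i ∈ Finset.range (s + 1), a i * x ^ i = 0) :
    Module.finrank ↥K⟮y⟯ F = s + 1 := by
  haveI : FiniteDimensional ↥K⟮x⟯ F :=
    Module.finite_of_finrank_pos (by rw [hdegx]; omega)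
  haveI : FiniteDimensional ↥K⟮y⟯ F :=
    Fermat.Agent.S24.ff_finite_of_transcendental x hx y hy
  have ha' : ∀ i, a i ∈ K⟮y⟯ := fun i =>
    IntermediateField.algebra_adjoin_le_adjoin K _ (ha i)
  have hle := finrank_le_of_rel x y hgen (s + 1) a ha' hrel
  obtain ⟨P', hP'ne, hP'x⟩ := exists_other_pole hFF x hx P hPx (by rw [hdegx]; omega)
  have hP'y := ord_neg_of_rel P' (s + 1) a ha hrel hP'x
  have hPy' : P.ord y < 0 := by
    rw [hPy]
    have : (1 : ℤ) ≤ s := by exact_mod_cast hs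
    omega
  have hge := le_finrank_of_two_poles hFF y hy hP'ne.symm hPy' hP'y
  rw [hPy] at hge
  have : ((s : ℤ) + 1) ≤ (Module.finrank ↥K⟮y⟯ F : ℤ) := by omega
  have h4 : s + 1 ≤ Module.finrank ↥K⟮y⟯ F := by exact_mod_cast this
  omega

end Abs

end Fermat.Agent.RED.H51

end
end
-- ==== END Fermat.Agent.RED.HR.H51_DegAbs

-- ==== BEGIN Fermat.Agent.S05.Defs
section

set_option autoImplicit false

namespace Fermat.Agent.S05

open WeierstrassCurve WeierstrassCurve.Affine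

section model

variable {L : Type*} [Field L]

/-- Hypotheses on the model curve `y² = x³ + a x² + b x` relative to a valuation subring `A`:
integral coefficients, `2` and `a² - 4b` units, `b ≠ 0`.  (Good reduction iff `|b| = 1`; otherwise
multiplicative reduction with node at `(0,0)`.) -/
structure ModelHyp (A : ValuationSubring L) (W : Affine L) : Prop where
  a₁ : W.a₁ = 0
  a₃ : W.a₃ = 0
  a₆ : W.a₆ = 0
  a_le : A.valuation W.a₂ ≤ 1
  b_le : A.valuation W.a₄ ≤ 1
  b_ne : W.a₄ ≠ 0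
  two : A.valuation (2 : L) = 1
  disc : A.valuation (W.a₂ ^ 2 - 4 * W.a₄) = 1

/-- Kernel of reduction: `P = 0` or `|x(P)| > 1`. -/
def InE1 (A : ValuationSubring L) {W : Affine L} : W.Point → Prop
  | .zero => True
  | .some x _ _ => 1 < A.valuation x

/-- `P = 0` or `|x(P)| ≥ 1`. -/
def InE0 (A : ValuationSubring L) {W : Affine L} : W.Point → Prop
  | .zero => True
  | .some x _ _ => 1 ≤ A.valuation x

/-- A field endomorphism `σ` preserving the valuation and acting trivially on the residue field,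
together with the additive map `s` it induces on points. -/
structure InertiaLike (A : ValuationSubring L) (W : Affine L) (σ : L →+* L)
    (s : W.Point → W.Point) : Prop where
  val_eq : ∀ x, A.valuation (σ x) = A.valuation x
  res : ∀ x, A.valuation x ≤ 1 → A.valuation (σ x - x) < 1
  map_zero : s 0 = 0
  map_some : ∀ (x y : L) (h : W.Nonsingular x y),
    ∃ h' : W.Nonsingular (σ x) (σ y), s (.some x y h) = .some (σ x) (σ y) h'

/-- `|b|` as a unit of the value group. -/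
noncomputable def bUnit {A : ValuationSubring L} {W : Affine L} (hyp : ModelHyp A W) :
    (A.ValueGroup)ˣ :=
  Units.mk0 (A.valuation W.a₄) (by simpa using hyp.b_ne)

/-- `|x|` as a unit of the value group, for `x ≠ 0`. -/
noncomputable def valUnit (A : ValuationSubring L) (x : L) (hx : x ≠ 0) : (A.ValueGroup)ˣ :=
  Units.mk0 (A.valuation x) (by simpa using hx)

/-- The component group `Γˣ / ⟨|b|²⟩`. -/
abbrev CompGroup {A : ValuationSubring L} {W : Affine L} (hyp : ModelHyp A W) : Type _ :=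
  (A.ValueGroup)ˣ ⧸ Subgroup.zpowers (bUnit hyp ^ 2)

variable [DecidableEq L]

/-- Piece A (line data / Vieta). -/
def Stmt_line : Prop :=
  ∀ (W : Affine L), W.a₁ = 0 → W.a₃ = 0 → W.a₆ = 0 →
  ∀ (x₁ y₁ x₂ y₂ x₃ y₃ : L) (h₁ : W.Nonsingular x₁ y₁) (h₂ : W.Nonsingular x₂ y₂)
    (h₃ : W.Nonsingular x₃ y₃),
    Point.some x₁ y₁ h₁ + Point.some x₂ y₂ h₂ = Point.some x₃ y₃ h₃ →
    ∃ ℓ μ : L, y₁ = ℓ * x₁ + μ ∧ y₂ = ℓ * x₂ + μ ∧ -y₃ = ℓ * x₃ + μ ∧
      x₁ + x₂ + x₃ = ℓ ^ 2 - W.a₂ ∧ x₁ * x₂ + x₁ * x₃ + x₂ * x₃ = W.a₄ - 2 * ℓ * μ ∧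
      x₁ * x₂ * x₃ = μ ^ 2

/-- Piece B1: `E₁` is closed under addition. -/
def Stmt_E1_add : Prop :=
  ∀ (A : ValuationSubring L) (W : Affine L), ModelHyp A W →
  ∀ P Q : W.Point, InE1 A P → InE1 A Q → InE1 A (P + Q)

/-- Piece B2 (F1): `E₁` has no `n`-torsion for `n` a unit of `A`. -/
def Stmt_F1 : Prop :=
  ∀ (A : ValuationSubring L) (W : Affine L), ModelHyp A W →
  ∀ (P : W.Point), InE1 A P → P ≠ 0 → ∀ n : ℕ, A.valuation (n : L) = 1 → n • P ≠ 0

/-- Piece C (F2): inertia moves points of `E₀` inside `E₁`-cosets. -/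
def Stmt_F2 : Prop :=
  ∀ (A : ValuationSubring L) (W : Affine L), ModelHyp A W →
  ∀ (σ : L →+* L) (s : W.Point → W.Point), InertiaLike A W σ s →
  ∀ Q : W.Point, InE0 A Q → InE1 A (s Q - Q)

/-- Piece D (M1): the component homomorphism in the multiplicative case. -/
def Stmt_M1 : Prop :=
  ∀ (A : ValuationSubring L) (W : Affine L) (hyp : ModelHyp A W), A.valuation W.a₄ < 1 →
  ∀ β : L, β ^ 2 = W.a₂ →
  ∃ φ : W.Point →+ Additive (CompGroup hyp),
    (∀ P, φ P = 0 ↔ InE0 A P) ∧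
    (∀ (x y : L) (h : W.Nonsingular x y) (hx0 : x ≠ 0),
      A.valuation W.a₄ < A.valuation x → A.valuation x < 1 →
      A.valuation (y - β * x) < A.valuation x →
      φ (.some x y h) = Additive.ofMul (QuotientGroup.mk (valUnit A x hx0)))

end model

section core

/-- Piece H (core theorem): on the model curve, an inertia-like automorphism fixes `E[p]`. -/
def Stmt_core : Prop :=
  ∀ (K₀ L : Type) [Field K₀] [Field L] [DecidableEq L] [Algebra K₀ L] [IsAlgClosed L]
    (A : ValuationSubring L) (W' : Affine K₀), ModelHyp A (W'⁄L) →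
  ∀ (p : ℕ), Odd p → A.valuation (p : L) = 1 →
  ∀ (c : K₀), A.valuation (algebraMap K₀ L c) ^ p = A.valuation (algebraMap K₀ L W'.a₄) ^ 2 →
  ∀ (σ : L ≃ₐ[K₀] L), (∀ x, A.valuation (σ x) = A.valuation x) →
    (∀ x, A.valuation x ≤ 1 → A.valuation (σ x - x) < 1) →
  ∀ P : (W'⁄L).Point, (p : ℤ) • P = 0 → σ • P = P

end core

section frey

/-- The model `y² = x(x² + a x + b)` obtained from `Y² + XY = X³ + a₂X² + a₄X` by
`x = 4X - e`, `y = 8Y + 4X`, where `e` is a root of `x³ + (4a₂+1)x² + 16a₄x`. -/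
def modelOf (W : Affine ℚ) (e : ℚ) : Affine ℚ :=
  ⟨0, 4 * W.a₂ + 1 + 3 * e, 0, 3 * e ^ 2 + 2 * (4 * W.a₂ + 1) * e + 16 * W.a₄, 0⟩

/-- Piece E (transfer): the variable change is an additive, Galois-equivariant bijection. -/
def Stmt_transfer : Prop :=
  ∀ (W : Affine ℚ), W.a₁ = 1 → W.a₃ = 0 → W.a₆ = 0 →
  ∀ (e : ℚ), e ^ 3 + (4 * W.a₂ + 1) * e ^ 2 + 16 * W.a₄ * e = 0 →
  ∃ Φ : (W⁄(AlgebraicClosure ℚ)).Point ≃+ ((modelOf W e)⁄(AlgebraicClosure ℚ)).Point,
    ∀ (σ : AlgebraicClosure ℚ ≃ₐ[ℚ] AlgebraicClosure ℚ) (P : (W⁄(AlgebraicClosure ℚ)).Point),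
      Φ (σ • P) = σ • Φ P

/-- Piece F (inertia unpacking). -/
def Stmt_inertia : Prop :=
  ∀ (A : ValuationSubring (AlgebraicClosure ℚ))
    (σ : AlgebraicClosure ℚ ≃ₐ[ℚ] AlgebraicClosure ℚ), σ ∈ A.inertiaSubgroupIn ℚ →
    (∀ x, A.valuation (σ x) = A.valuation x) ∧
    (∀ x, A.valuation x ≤ 1 → A.valuation (σ x - x) < 1)

/-- Piece G (arithmetic of the Frey package at an odd prime `q ≠ p`). -/
def Stmt_arith : Prop :=
  ∀ (P : FreyPackage) (q : ℕ), q.Prime → q ≠ 2 → q ≠ P.p →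
  ∀ (A : ValuationSubring (AlgebraicClosure ℚ)), A.LiesOverPrime q →
  ∃ e c : ℚ, e ^ 3 + (4 * P.freyCurve.a₂ + 1) * e ^ 2 + 16 * P.freyCurve.a₄ * e = 0 ∧
    ModelHyp A ((modelOf P.freyCurve e)⁄(AlgebraicClosure ℚ)) ∧
    A.valuation ((P.p : ℕ) : AlgebraicClosure ℚ) = 1 ∧
    A.valuation (algebraMap ℚ (AlgebraicClosure ℚ) c) ^ P.p =
      A.valuation (algebraMap ℚ (AlgebraicClosure ℚ) (modelOf P.freyCurve e).a₄) ^ 2

end frey

end Fermat.Agent.S05

end
-- ==== END Fermat.Agent.S05.Defs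

-- ==== BEGIN Fermat.Agent.S13.WP3.Defs
section

set_option autoImplicit false

namespace Fermat.Agent.S13.WP3

open WeierstrassCurve WeierstrassCurve.Affine

section model

variable {L : Type*} [Field L]

/-- Hypotheses on the model `y² + x y = x³ + a x² + b x` relative to a valuation subring `A`
of residue characteristic `2`. -/
structure ModelHyp2 (A : ValuationSubring L) (W : Affine L) : Prop where
  a₁ : W.a₁ = 1
  a₃ : W.a₃ = 0
  a₆ : W.a₆ = 0
  a_le : A.valuation W.a₂ ≤ 1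
  b_lt : A.valuation W.a₄ < 1
  b_ne : W.a₄ ≠ 0
  two : A.valuation (2 : L) < 1

/-- Kernel of reduction: `P = 0` or `|x(P)| > 1`. -/
def InE1 (A : ValuationSubring L) {W : Affine L} : W.Point → Prop
  | .zero => True
  | .some x _ _ => 1 < A.valuation x

/-- Points with nonsingular reduction: `P = 0` or `|x(P)| ≥ 1`. -/
def InE0 (A : ValuationSubring L) {W : Affine L} : W.Point → Prop
  | .zero => True
  | .some x _ _ => 1 ≤ A.valuation x

/-- `T + E₀`: affine point with `|x| ≤ |b|` (this includes `T = (0,0)`). -/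
def InET (A : ValuationSubring L) {W : Affine L} : W.Point → Prop
  | .zero => False
  | .some x _ _ => A.valuation x ≤ A.valuation W.a₄

/-- The region `C(λ)`: `|b| < |x| < 1` and `|y - λ x| < |x|`. -/
def InC (A : ValuationSubring L) {W : Affine L} (lam : L) : W.Point → Prop
  | .zero => False
  | .some x y _ => A.valuation W.a₄ < A.valuation x ∧ A.valuation x < 1 ∧
      A.valuation (y - lam * x) < A.valuation x

/-- `|x(P)|`, with junk value `0` at the origin. -/
noncomputable def xVal (A : ValuationSubring L) {W : Affine L} : W.Point → A.ValueGroup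
  | .zero => 0
  | .some x _ _ => A.valuation x

/-- `|b|` as a unit of the value group. -/
noncomputable def bUnit {A : ValuationSubring L} {W : Affine L} (hyp : ModelHyp2 A W) :
    (A.ValueGroup)ˣ :=
  Units.mk0 (A.valuation W.a₄) (by simpa using hyp.b_ne)

/-- `|x|` as a unit of the value group, for `x ≠ 0`. -/
noncomputable def valUnit (A : ValuationSubring L) (x : L) (hx : x ≠ 0) : (A.ValueGroup)ˣ :=
  Units.mk0 (A.valuation x) (by simpa using hx)

/-- The component group `Γˣ / ⟨|b|²⟩`. -/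
abbrev CompGroup {A : ValuationSubring L} {W : Affine L} (hyp : ModelHyp2 A W) : Type _ :=
  (A.ValueGroup)ˣ ⧸ Subgroup.zpowers (bUnit hyp ^ 2)

variable [DecidableEq L]

/-- (2A) Line data (Vieta) for `P₁ + P₂ = P₃` on `y² + x y = x³ + a x² + b x`:
`P₁, P₂, -P₃ = (x₃, -y₃ - x₃)` lie on `y = ℓ x + μ`. -/
def Stmt2_line : Prop :=
  ∀ (W : Affine L), W.a₁ = 1 → W.a₃ = 0 → W.a₆ = 0 →
  ∀ (x₁ y₁ x₂ y₂ x₃ y₃ : L) (h₁ : W.Nonsingular x₁ y₁) (h₂ : W.Nonsingular x₂ y₂)
    (h₃ : W.Nonsingular x₃ y₃),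
    Point.some x₁ y₁ h₁ + Point.some x₂ y₂ h₂ = Point.some x₃ y₃ h₃ →
    ∃ ℓ μ : L, y₁ = ℓ * x₁ + μ ∧ y₂ = ℓ * x₂ + μ ∧ -y₃ - x₃ = ℓ * x₃ + μ ∧
      x₁ + x₂ + x₃ = ℓ ^ 2 + ℓ - W.a₂ ∧
      x₁ * x₂ + x₁ * x₃ + x₂ * x₃ = W.a₄ - (2 * ℓ + 1) * μ ∧
      x₁ * x₂ * x₃ = μ ^ 2

/-- (2B1) `E₁` is closed under addition. -/
def Stmt2_E1_add : Prop :=
  ∀ (A : ValuationSubring L) (W : Affine L), ModelHyp2 A W →
  ∀ P Q : W.Point, _root_.Fermat.Agent.S13.WP3.InE1 A P → _root_.Fermat.Agent.S13.WP3.InE1 A Q → _root_.Fermat.Agent.S13.WP3.InE1 A (P + Q)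

/-- (2B2) `E₁` is closed under negation. -/
def Stmt2_E1_neg : Prop :=
  ∀ (A : ValuationSubring L) (W : Affine L), ModelHyp2 A W →
  ∀ P : W.Point, _root_.Fermat.Agent.S13.WP3.InE1 A P → _root_.Fermat.Agent.S13.WP3.InE1 A (-P)

/-- (2B3) (F1) `E₁` has no `n`-torsion for `n` a unit of `A` (e.g. `n` odd). -/
def Stmt2_F1 : Prop :=
  ∀ (A : ValuationSubring L) (W : Affine L), ModelHyp2 A W →
  ∀ (P : W.Point), _root_.Fermat.Agent.S13.WP3.InE1 A P → P ≠ 0 → ∀ n : ℕ, A.valuation (n : L) = 1 → n • P ≠ 0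

/-- (2C) Two affine points with unit `x`-coordinate and the same reduction differ by an element
of `E₁`.  (In residue characteristic 2 the reduction of such a point is never a 2-torsion point:
`2y + x ≡ x` is a unit.) -/
def Stmt2_sameRed : Prop :=
  ∀ (A : ValuationSubring L) (W : Affine L), ModelHyp2 A W →
  ∀ (x y x' y' : L) (h : W.Nonsingular x y) (h' : W.Nonsingular x' y'),
    A.valuation x = 1 → A.valuation (x - x') < 1 → A.valuation (y - y') < 1 →
    _root_.Fermat.Agent.S13.WP3.InE1 A (Point.some x y h - Point.some x' y' h')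

/-- (2D0) `E₀` is closed under addition. -/
def Stmt2_E0_add : Prop :=
  ∀ (A : ValuationSubring L) (W : Affine L), ModelHyp2 A W →
  ∀ P Q : W.Point, InE0 A P → InE0 A Q → InE0 A (P + Q)

/-- (2D) (M1) the component homomorphism `φ : E(L) → Γˣ/⟨|b|²⟩`, `λ² + λ = a`:
kernel `E₀`, value `[|x|]` on `C(λ)`, value `[|b|]` on `T + E₀`.
(On `C(-1-λ) = -C(λ)` the value is then `[|x|]⁻¹`.) -/
def Stmt2_M1 : Prop :=
  ∀ (A : ValuationSubring L) (W : Affine L) (hyp : ModelHyp2 A W),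
  ∀ lam : L, lam ^ 2 + lam = W.a₂ →
  ∃ φ : W.Point →+ Additive (CompGroup hyp),
    (∀ P, φ P = 0 ↔ InE0 A P) ∧
    (∀ (x y : L) (h : W.Nonsingular x y) (hx0 : x ≠ 0),
      A.valuation W.a₄ < A.valuation x → A.valuation x < 1 →
      A.valuation (y - lam * x) < A.valuation x →
      φ (.some x y h) = Additive.ofMul (QuotientGroup.mk (valUnit A x hx0))) ∧
    (∀ (x y : L) (h : W.Nonsingular x y), A.valuation x ≤ A.valuation W.a₄ →
      φ (.some x y h) = Additive.ofMul (QuotientGroup.mk (bUnit hyp)))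

/-- (2D') every affine point with `|b| < |x| < 1` lies in `C(λ)` or in `C(-1-λ)`. -/
def Stmt2_annulus : Prop :=
  ∀ (A : ValuationSubring L) (W : Affine L), ModelHyp2 A W →
  ∀ lam : L, lam ^ 2 + lam = W.a₂ →
  ∀ (x y : L), W.Nonsingular x y → A.valuation W.a₄ < A.valuation x → A.valuation x < 1 →
    A.valuation (y - lam * x) < A.valuation x ∨ A.valuation (y - (-1 - lam) * x) < A.valuation x

end model

section core

/-- (2F) core of (I4): on the model over an algebraically closed field, an automorphism `σ`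
preserving the valuation and acting trivially on the residue field fixes `E[n] ∩ E₀` pointwise
(`n` a unit of `A`) and moves every point of `E[n]` inside its `E₀`-coset. -/
def Stmt2_coreI4 : Prop :=
  ∀ (K₀ L : Type) [Field K₀] [Field L] [DecidableEq L] [Algebra K₀ L] [IsAlgClosed L]
    (A : ValuationSubring L) (W' : Affine K₀), ModelHyp2 A (W'⁄L) →
  ∀ (n : ℕ), A.valuation (n : L) = 1 →
  ∀ (σ : L ≃ₐ[K₀] L), (∀ x, A.valuation (σ x) = A.valuation x) →
    (∀ x, A.valuation x ≤ 1 → A.valuation (σ x - x) < 1) →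
  ∀ P : (W'⁄L).Point, (n : ℤ) • P = 0 →
    InE0 A (σ • P - P) ∧ (InE0 A P → σ • P = P)

end core

section frey

/-- (2E) arithmetic of the Frey model at `2`: `ModelHyp2`, and `|a₄| = |2|^m` with
`m = p·v₂(b) - 4 > 0`, so that `2m` is prime to `p`. -/
def Stmt2_arith : Prop :=
  ∀ (P : FreyPackage) (A : ValuationSubring Qbar), A.LiesOverPrime 2 →
    ModelHyp2 A (P.freyCurve⁄Qbar) ∧ A.valuation ((P.p : ℕ) : Qbar) = 1 ∧
    ∃ m : ℕ, 0 < m ∧ Nat.Coprime (2 * m) P.p ∧
      A.valuation (algebraMap ℚ Qbar P.freyCurve.a₄) = A.valuation (2 : Qbar) ^ m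

/-- (2G0) valuations of rational numbers at a place over `2` are integral powers of `|2|`. -/
def Stmt2_ratVal : Prop :=
  ∀ (A : ValuationSubring Qbar), A.LiesOverPrime 2 → ∀ r : ℚ, r ≠ 0 →
    ∃ k : ℤ, A.valuation (algebraMap ℚ Qbar r) = A.valuation (2 : Qbar) ^ k

/-- (2G1) a rational number which is integral at a place over `2` is `≡ 0` or `≡ 1`. -/
def Stmt2_ratRes : Prop :=
  ∀ (A : ValuationSubring Qbar), A.LiesOverPrime 2 → ∀ r : ℚ,
    A.valuation (algebraMap ℚ Qbar r) ≤ 1 →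
    A.valuation (algebraMap ℚ Qbar r) < 1 ∨ A.valuation (algebraMap ℚ Qbar r - 1) < 1

/-- (WP5) an element of `Q̄` fixed by the whole Galois group is rational. -/
def Stmt_fixed_rat : Prop :=
  ∀ x : Qbar, (∀ σ : Gal, σ x = x) → ∃ r : ℚ, algebraMap ℚ Qbar r = x

end frey

end Fermat.Agent.S13.WP3

end
-- ==== END Fermat.Agent.S13.WP3.Defs

-- ==== BEGIN Fermat.Agent.S15.BridgeDefs
section

set_option autoImplicit false
set_option synthInstance.maxHeartbeats 400000

noncomputable section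

open AlgebraicCurve ModularCurve
open WeierstrassCurve WeierstrassCurve.Affine

namespace Fermat.Agent.S15

/-- `Q̄`. -/
abbrev Qb : Type := AlgebraicClosure ℚ

/-- The curve `W` over `Q̄`. -/
abbrev EBar (W : WeierstrassCurve ℤ) : Affine Qb := (W.map (Int.castRingHom ℚ))⁄Qb

/-- `α = j(W) = c₄³ / Δ`, as a rational number. -/
def jRat (W : WeierstrassCurve ℤ) : ℚ := (W.c₄ : ℚ) ^ 3 / (W.Δ : ℚ)

/-- The `j`-invariant of a curve `y² = 4 (x - e₁) (x - e₂) (x - e₃)` in terms of the root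
differences `d₁₂ = e₂ - e₁`, `d₁₃ = e₃ - e₁`, `d₂₃ = e₃ - e₂`. -/
def jOfDiff {K : Type*} [Field K] (d12 d13 d23 : K) : K :=
  32 * (d12 ^ 2 + d13 ^ 2 + d23 ^ 2) ^ 3 / (d12 * d13 * d23) ^ 2

section quot

variable {K : Type*} [Field K] [DecidableEq K] (W : Affine K) (N : AddSubgroup W.Point)
  [Fintype N]

/-- The root difference `e'_j - e'_i = (e_j - e_i)^n Ξ_k / (Ξ_i Ξ_j)` of the quotient curve
(`quotDiff W N e_i e_j e_k`). -/
def quotDiff (e e' e'' : K) : K :=
  (e' - e) ^ Fintype.card N * Fermat.Agent.S12.H11.Xi W N e'' /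
    (Fermat.Agent.S12.H11.Xi W N e * Fermat.Agent.S12.H11.Xi W N e')

/-- The `j`-invariant of the quotient curve. -/
def quotJ (e1 e2 e3 : K) : K :=
  jOfDiff (quotDiff W N e1 e2 e3) (quotDiff W N e1 e3 e2) (quotDiff W N e2 e3 e1)

end quot

/-- `β` is the `j`-invariant of `E / ⟨Q⟩`. -/
def IsQuotJ (W : WeierstrassCurve ℤ) (Q : (EBar W).Point) (β : ℚ) : Prop :=
  ∀ (e1 e2 e3 : Qb) (_inst : Fintype ↥(AddSubgroup.zmultiples Q)),
    Fermat.Agent.S12.H11.TwoTors (EBar W) e1 e2 e3 →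
      ((β : ℚ) : Qb) = quotJ (EBar W) (AddSubgroup.zmultiples Q) e1 e2 e3

/-- The place `x` has the values `j(x) = b`, `j_p(x) = a`. -/
def HasValues (p : ℕ) [NeZero p] (x : PlaceBar p) (b a : Qb) : Prop :=
  0 < x.ord (jBar p - algebraMap Qb (modularFunctionFieldBar p) b) ∧
    0 < x.ord (jBarN p - algebraMap Qb (modularFunctionFieldBar p) a)

/-! ### Packages -/

/-- (BR-DEF) `β = j(E/⟨Q⟩)` exists as a rational number (Galois invariance of the explicit
formula; independence of the numbering of the roots). -/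
def Stmt_BRdef : Prop :=
  ∀ (p : ℕ), p.Prime → p ≠ 2 → ∀ (W : WeierstrassCurve ℤ), W.Δ ≠ 0 →
  ∀ Q : (EBar W).Point, (∀ σ : GalQ, σ • Q = Q) → addOrderOf Q = p →
    ∃ β : ℚ, IsQuotJ W Q β

/-- (BR-VAL) coarse local valuations of `β` at a prime `ℓ ≠ p` of multiplicative reduction. -/
def Stmt_BRval : Prop :=
  ∀ (p : ℕ), p.Prime → p ≠ 2 → ∀ (W : WeierstrassCurve ℤ), W.Δ ≠ 0 →
  ∀ Q : (EBar W).Point, (∀ σ : GalQ, σ • Q = Q) → addOrderOf Q = p →
  ∀ β : ℚ, IsQuotJ W Q β →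
  ∀ ℓ : ℕ, ℓ.Prime → ℓ ≠ p → (ℓ : ℤ) ∣ W.Δ → ¬ (ℓ : ℤ) ∣ W.c₄ →
  ∀ A : ValuationSubring Qb, A.LiesOverPrime ℓ →
    (W.InZeroComponentAt A Q → A.valuation ((jRat W : ℚ) : Qb) ≤ A.valuation ((β : ℚ) : Qb)) ∧
    (¬ W.InZeroComponentAt A Q →
      A.valuation ((β : ℚ) : Qb) < A.valuation ((jRat W : ℚ) : Qb) ^ p)

/-- (BR-AN) the modular equation on the isogenous pair, in analytic form: there is `τ₁ ∈ ℍ`
with `j(τ₁) = β` and `j(p τ₁) = α`.  [complex uniformisation]
(`j(E)` is not integral at `2`, so `j(E) ≠ 0, 1728`.) -/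
def Stmt_BRan : Prop :=
  ∀ (p : ℕ), p.Prime → p ≠ 2 → ∀ (W : WeierstrassCurve ℤ), W.Δ ≠ 0 →
  (2 : ℤ) ∣ W.Δ → ¬ (2 : ℤ) ∣ W.c₄ →
  ∀ Q : (EBar W).Point, addOrderOf Q = p →
  ∀ β : ℚ, IsQuotJ W Q β →
    ∃ τ₁ τ₂ : UpperHalfPlane, (τ₂ : ℂ) = (p : ℂ) * (τ₁ : ℂ) ∧
      Fermat.Agent.S24.jAn τ₁ = Fermat.Agent.S24.iotaC ((β : ℚ) : Qb) ∧
      Fermat.Agent.S24.jAn τ₂ = Fermat.Agent.S24.iotaC ((jRat W : ℚ) : Qb)

/-- (BR-PLACE) a point `τ₁ ∈ ℍ` with algebraic values `j(τ₁) = b`, `j(p τ₁) = a` gives a place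
of `X₀(p)` with these values. -/
def Stmt_BRplace : Prop :=
  ∀ (p : ℕ) [NeZero p], p.Prime → ∀ (b a : Qb),
    (∃ τ₁ τ₂ : UpperHalfPlane, (τ₂ : ℂ) = (p : ℂ) * (τ₁ : ℂ) ∧
      Fermat.Agent.S24.jAn τ₁ = Fermat.Agent.S24.iotaC b ∧
      Fermat.Agent.S24.jAn τ₂ = Fermat.Agent.S24.iotaC a) →
    ∃ x : PlaceBar p, x.deg = 1 ∧ HasValues p x b a

/-- (BR-NEWTON a) dichotomy: if `(b, a)` are the values of a place and `|a| > 1` then
`|b|^p = |a|` or `|b| = |a|^p`.
[modular polynomial `X^(p+1) + Y^(p+1) - X^p Y^p + Σ_{i,k ≤ p} c_ik X^i Y^k`, `c_ik` integral] -/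
def Stmt_BRnewton_dich : Prop :=
  ∀ (p : ℕ) [NeZero p], p.Prime → ∀ (x : PlaceBar p) (b a : Qb), HasValues p x b a →
  ∀ A : ValuationSubring Qb, 1 < A.valuation a →
    A.valuation b ^ p = A.valuation a ∨ A.valuation b = A.valuation a ^ p

/-- (BR-NEWTON b) uniqueness: if `|a| = |b|^p > 1` at some `A`, the place with the values
`(b, a)` is unique.  [`a` is the unique root of `Φ_p(b, Y)` of absolute value `|b|^p`, and a
simple root] -/
def Stmt_BRnewton_uniq : Prop :=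
  ∀ (p : ℕ) [NeZero p], p.Prime → ∀ (x y : PlaceBar p) (b a : Qb),
    HasValues p x b a → HasValues p y b a →
  ∀ A : ValuationSubring Qb, 1 < A.valuation a → A.valuation b ^ p = A.valuation a → x = y

/-- (BR-GAL) the Galois action on places is compatible with values. -/
def Stmt_BRgal : Prop :=
  ∀ (p : ℕ) [NeZero p], p.Prime → ∀ (x : PlaceBar p) (b a : Qb) (σ : GalQ),
    HasValues p x b a → HasValues p (galPlace p σ x) (σ b) (σ a)

/-- (B3) reduction of a place from the absolute values of its `j`-values.  [helper83] -/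
def Stmt_B3 : Prop :=
  ∀ (p : ℕ) [NeZero p], p.Prime → ∀ (Pinf P0 : PlaceBar p), IsCuspPair p Pinf P0 →
  ∀ (x : PlaceBar p) (b a : Qb), HasValues p x b a →
  ∀ ℓ : ℕ, ℓ.Prime → ℓ ≠ p → ∀ A : ValuationSubring Qb, A.LiesOverPrime ℓ →
  ∀ h : ReductionInputsModL A p, 1 < A.valuation a →
    (A.valuation b ^ p = A.valuation a →
      placeReductionModL h x = placeReductionModL h Pinf) ∧
    (A.valuation b = A.valuation a ^ p →
      placeReductionModL h x = placeReductionModL h P0)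

/-- (BRIDGE, Fricke-dual form) a rational point `Q` of order `p` on `W` which is off the
identity component at `2` gives a rational place `x'` of `X₀(p)`; at a prime `ℓ ≠ p` of
multiplicative reduction `x'` reduces to the cusp `P∞` if `Q` is off the identity component, and
to the cusp `P0` otherwise. -/
def Stmt_bridge' (p : ℕ) [NeZero p] : Prop :=
  ∀ (W : WeierstrassCurve ℤ), W.Δ ≠ 0 →
  ∀ Q : (EBar W).Point,
    (∀ σ : GalQ, σ • Q = Q) → addOrderOf Q = p →
    (2 : ℤ) ∣ W.Δ → ¬ (2 : ℤ) ∣ W.c₄ →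
    (∀ A : ValuationSubring Qb, A.LiesOverPrime 2 → ¬ W.InZeroComponentAt A Q) →
    ∀ Pinf P0 : PlaceBar p, IsCuspPair p Pinf P0 →
    ∃ x : PlaceBar p, x.deg = 1 ∧ (∀ σ : GalQ, galPlace p σ x = x) ∧
      ∀ ℓ : ℕ, ℓ.Prime → ℓ ≠ p → (ℓ : ℤ) ∣ W.Δ → ¬ (ℓ : ℤ) ∣ W.c₄ →
        ∀ (A : ValuationSubring Qb), A.LiesOverPrime ℓ →
        ∀ h : ReductionInputsModL A p,
          (¬ W.InZeroComponentAt A Q →
            placeReductionModL h x = placeReductionModL h Pinf) ∧
          (W.InZeroComponentAt A Q → placeReductionModL h x = placeReductionModL h P0)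

end Fermat.Agent.S15

end
end
-- ==== END Fermat.Agent.S15.BridgeDefs

-- ==== BEGIN Fermat.Agent.S15.Desc.H67_Coord
section

/-!
# S15 / DESC, leaf COORD (helper67): coordinates at the nodes of a semistable Deuring datum

`S` an `SSD` (two components, nodes), `s` a node, `ϖ` a constant of the maximal ideal (a
uniformizer of the field of definition), `F0` a subfield of `F` (the functions fixed by the
inertia group).

A **coordinate** at `s` of thickness `n` is a function `x` such that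
* `x` is a unit for `V₁`, and `red₁ x` has a simple zero at `s₁`;
* `x` has no zero and no pole reducing to `s`;
* `x / ϖ ^ n` is a unit for `V₂`, and `red₂ (x / ϖ ^ n)` has a simple pole at `s₂`.

`exists_coord`: if
* (START) `x₀ ∈ F0 ∩ V₁ ∩ V₂`, `red₁ x₀` has a simple zero at `s₁`, `red₂ x₀ = 0`, no pole of `x₀`
  reduces to `s`;
* (LIFT) every `ψ ∈ F₂` regular at `s₂` is `red₂ g` with `g ∈ F0 ∩ V₁ ∩ V₂` without pole reducing
  to `s`;
* (DISC) `f ∈ F0 ∩ V₂`, `red₂ f = 0` implies `f / ϖ ∈ V₂` (`ϖ` is a uniformizer of `V₂ ∩ F0`);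
* (UNIT) `U` is a unit for `V₁` without zero or pole reducing to `s`, `a = ord_{s₁} (red₁ U) > 0`,
  and `U / ϖ ^ w` is a unit for `V₂`;
then there is a coordinate `x ∈ F0` at `s`, of thickness `n ≥ 1` with `n * a = w`.

Proof: `x ↦ x - ϖ ^ n g` (`g` a lift of `red₂ (x / ϖ ^ n)`) raises `n`; `n a ≤ w` by `glue`
applied to `x ^ a / U`; conservation at the node (`DIn`) shows that `x` is zero-free as soon as
`red₂ (x / ϖ ^ n)` has a pole at `s₂`.
-/

set_option autoImplicit false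
set_option linter.style.haveILetI false

noncomputable section

open AlgebraicCurve

attribute [local instance] Classical.propDecidable

namespace Fermat.Agent.S15.Desc.H67

open Fermat.Agent.RED.H17 Fermat.Agent.RED Fermat.Agent.BAD

variable {K F k F₁ F₂ : Type*} [Field K] [Field F] [Algebra K F] [Field k] [Field F₁]
  [Algebra k F₁] [Field F₂] [Algebra k F₂] (S : SSD K F k F₁ F₂)

/-- No pole of `f` reduces to the node `s`. -/
def PoleFree (s : Place k F₁ × Place k F₂) (f : F) : Prop :=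
  ∀ P : Place K F, S.c₁.r P = some s.1 → 0 ≤ P.ord f

/-- No zero and no pole of `f` reduces to the node `s`. -/
def ZeroFree (s : Place k F₁ × Place k F₂) (f : F) : Prop :=
  ∀ P : Place K F, S.c₁.r P = some s.1 → P.ord f = 0

variable {S}

theorem ZeroFree.poleFree {s : Place k F₁ × Place k F₂} {f : F} (h : ZeroFree S s f) :
    PoleFree S s f := fun P hP => (h P hP).ge

theorem PoleFree.mul {s : Place k F₁ × Place k F₂} {f g : F} (hf : PoleFree S s f)
    (hg : PoleFree S s g) : PoleFree S s (f * g) := by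
  intro P hP
  rcases eq_or_ne f 0 with rfl | hf0
  · simp
  rcases eq_or_ne g 0 with rfl | hg0
  · simp
  rw [P.ord_mul hf0 hg0]
  have := hf P hP
  have := hg P hP
  omega

theorem PoleFree.pow {s : Place k F₁ × Place k F₂} {f : F} (hf : PoleFree S s f) (n : ℕ) :
    PoleFree S s (f ^ n) := by
  intro P hP
  rw [ord_pow]
  have := hf P hP
  positivity

theorem PoleFree.sub {s : Place k F₁ × Place k F₂} {f g : F} (hf : PoleFree S s f)
    (hg : PoleFree S s g) : PoleFree S s (f - g) := by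
  intro P hP
  exact ((regAt_of_ord_nonneg (hf P hP)).sub (regAt_of_ord_nonneg (hg P hP))).ord_nonneg

theorem poleFree_const (s : Place k F₁ × Place k F₂) (c : K) :
    PoleFree S s (algebraMap K F c) :=
  fun P _ => (regAt_algebraMap P c).ord_nonneg

theorem ZeroFree.inv {s : Place k F₁ × Place k F₂} {f : F} (h : ZeroFree S s f) :
    ZeroFree S s f⁻¹ := by
  intro P hP
  rw [P.ord_inv, h P hP, neg_zero]

/-- **Gluing with a vanishing second reduction**: if `h ∈ V₁ ∩ 𝔪_{V₂}` has no pole reducing to the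
node `s`, then `red₁ h` vanishes at `s₁`. -/
theorem vanAt₁_of_rd₂_eq_zero {s : Place k F₁ × Place k F₂} (hs : s ∈ S.nodes) {h : F}
    (h₁ : h ∈ S.c₁.V) (h₂ : h ∈ S.c₂.V) (h0 : S.c₂.rd h = 0) (hpf : PoleFree S s h) :
    VanAt s.1 (S.c₁.rd h) := by
  obtain ⟨a, ha1, ha2⟩ := S.glue s hs h h₁ h₂ hpf
  rw [← S.c₁.rd_of_mem h₁] at ha1
  rw [← S.c₂.rd_of_mem h₂, h0, zero_sub, ← map_neg] at ha2
  have ha : a = 0 := by
    by_contra hne
    exact not_vanAt_algebraMap s.2 (neg_ne_zero.mpr hne) ha2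
  rw [ha, map_zero, sub_zero] at ha1
  exact ha1

/-- The constant `ϖ ^ d`, `d ≥ 1`, lies in the maximal ideal of `V₂`. -/
theorem rd₂_pow_unif {c₀ : K} (h₁ : algebraMap K F c₀ ∈ S.c₁.V)
    (h0 : S.c₁.rd (algebraMap K F c₀) = 0) {d : ℕ} (hd : 0 < d) :
    algebraMap K F c₀ ^ d ∈ S.c₂.V ∧ S.c₂.rd (algebraMap K F c₀ ^ d) = 0 := by
  obtain ⟨h₂, h20⟩ := S.rd₂_const_zero h₁ h0
  refine ⟨S.c₂.V.pow_mem h₂ d, ?_⟩
  rw [S.c₂.rd_pow h₂, h20, zero_pow hd.ne']

theorem rd₁_pow_unif {c₀ : K} (h₁ : algebraMap K F c₀ ∈ S.c₁.V)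
    (h0 : S.c₁.rd (algebraMap K F c₀) = 0) {d : ℕ} (hd : 0 < d) :
    algebraMap K F c₀ ^ d ∈ S.c₁.V ∧ S.c₁.rd (algebraMap K F c₀ ^ d) = 0 := by
  refine ⟨S.c₁.V.pow_mem h₁ d, ?_⟩
  rw [S.c₁.rd_pow h₁, h0, zero_pow hd.ne']

/-- The invariant of the construction: `x` is a unit for `V₁` with a simple zero of `red₁ x` at
`s₁`, no pole of `x` reduces to `s`, and `x ∈ ϖ ^ n V₂`, `n ≥ 1`. -/
structure PreCoord (S : SSD K F k F₁ F₂) (s : Place k F₁ × Place k F₂) (c₀ : K) (x : F)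
    (n : ℕ) : Prop where
  gu : S.c₁.IsGU x
  ord₁ : s.1.ord (S.c₁.rd x) = 1
  pf : PoleFree S s x
  pos : 0 < n
  mem₂ : x / algebraMap K F c₀ ^ n ∈ S.c₂.V

/-- `x` is a **coordinate** at the node `s`, of thickness `n` (with respect to the uniformizer
`ϖ = c₀`). -/
structure IsCoordAt (S : SSD K F k F₁ F₂) (s : Place k F₁ × Place k F₂) (c₀ : K) (x : F)
    (n : ℕ) : Prop where
  gu : S.c₁.IsGU x
  ord₁ : s.1.ord (S.c₁.rd x) = 1
  zf : ZeroFree S s x
  pos : 0 < n
  gu₂ : S.c₂.IsGU (x / algebraMap K F c₀ ^ n)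
  ord₂ : s.2.ord (S.c₂.rd (x / algebraMap K F c₀ ^ n)) = -1

theorem IsCoordAt.preCoord {s : Place k F₁ × Place k F₂} {c₀ : K} {x : F} {n : ℕ}
    (h : IsCoordAt S s c₀ x n) : PreCoord S s c₀ x n :=
  ⟨h.gu, h.ord₁, h.zf.poleFree, h.pos, h.gu₂.1⟩

section Main

variable {s : Place k F₁ × Place k F₂} {c₀ : K}

/-- **BOUND**: `n a ≤ w`. -/
theorem PreCoord.bound (hs : s ∈ S.nodes) (hc₀ : c₀ ≠ 0)
    (hϖ₁ : algebraMap K F c₀ ∈ S.c₁.V) (hϖ0 : S.c₁.rd (algebraMap K F c₀) = 0)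
    {U : F} (hU : S.c₁.IsGU U) (hUzf : ZeroFree S s U) {w : ℕ}
    (hU₂ : S.c₂.IsGU (U / algebraMap K F c₀ ^ w)) {a : ℕ}
    (ha : s.1.ord (S.c₁.rd U) = a)
    {x : F} {n : ℕ} (hx : PreCoord S s c₀ x n) : n * a ≤ w := by
  by_contra hlt
  rw [not_le] at hlt
  set ϖ : F := algebraMap K F c₀ with hϖ
  have hϖne : ϖ ≠ 0 := (map_ne_zero_iff _ (algebraMap K F).injective).mpr hc₀
  set h : F := x ^ a / U with hh
  have hgu : S.c₁.IsGU h := (hx.gu.pow a).div hU
  have hrd : S.c₁.rd h = S.c₁.rd x ^ a / S.c₁.rd U := by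
    rw [hh, (hx.gu.pow a).rd_div hU, S.c₁.rd_pow hx.gu.1]
  have hord : s.1.ord (S.c₁.rd h) = 0 := by
    rw [hrd, ord_div _ (pow_ne_zero _ hx.gu.2) hU.2, ord_pow, hx.ord₁, ha]
    ring
  obtain ⟨d, hd⟩ : ∃ d : ℕ, n * a = w + (d + 1) := ⟨n * a - w - 1, by omega⟩
  have hfac : h = ϖ ^ (d + 1) * ((x / ϖ ^ n) ^ a * (U / ϖ ^ w)⁻¹) := by
    have hUne : U ≠ 0 := hU.ne_zero
    rw [hh, div_pow, ← pow_mul, hd, pow_add]
    field_simp
    ring
  obtain ⟨hp₂, hp0⟩ := rd₂_pow_unif (S := S) hϖ₁ hϖ0 (Nat.succ_pos d)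
  have hAB : (x / ϖ ^ n) ^ a * (U / ϖ ^ w)⁻¹ ∈ S.c₂.V :=
    S.c₂.V.mul_mem _ _ (S.c₂.V.pow_mem hx.mem₂ a) hU₂.inv_mem
  have h₂ : h ∈ S.c₂.V := by
    rw [hfac]
    exact S.c₂.V.mul_mem _ _ hp₂ hAB
  have h20 : S.c₂.rd h = 0 := by
    rw [hfac, S.c₂.rd_mul hp₂ hAB, hp0, zero_mul]
  have hpf : PoleFree S s h := by
    rw [hh, div_eq_mul_inv]
    exact (hx.pf.pow a).mul hUzf.inv.poleFree
  have hvan := vanAt₁_of_rd₂_eq_zero hs hgu.1 h₂ h20 hpf
  have := hvan.ord_pos hgu.2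
  omega

/-- **Thickness**: for a coordinate, `n a = w`. -/
theorem IsCoordAt.thickness (hs : s ∈ S.nodes) (hc₀ : c₀ ≠ 0)
    (hϖ₁ : algebraMap K F c₀ ∈ S.c₁.V) (hϖ0 : S.c₁.rd (algebraMap K F c₀) = 0)
    {U : F} (hU : S.c₁.IsGU U) (hUzf : ZeroFree S s U) {w : ℕ}
    (hU₂ : S.c₂.IsGU (U / algebraMap K F c₀ ^ w)) {a : ℕ}
    (ha : s.1.ord (S.c₁.rd U) = a)
    {x : F} {n : ℕ} (hx : IsCoordAt S s c₀ x n) : n * a = w := by
  refine le_antisymm (hx.preCoord.bound hs hc₀ hϖ₁ hϖ0 hU hUzf hU₂ ha) ?_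
  by_contra hlt
  rw [not_le] at hlt
  set ϖ : F := algebraMap K F c₀ with hϖ
  have hϖne : ϖ ≠ 0 := (map_ne_zero_iff _ (algebraMap K F).injective).mpr hc₀
  set h : F := U / x ^ a with hh
  have hgu : S.c₁.IsGU h := hU.div (hx.gu.pow a)
  have hrd : S.c₁.rd h = S.c₁.rd U / S.c₁.rd x ^ a := by
    rw [hh, hU.rd_div (hx.gu.pow a), S.c₁.rd_pow hx.gu.1]
  have hord : s.1.ord (S.c₁.rd h) = 0 := by
    rw [hrd, ord_div _ hU.2 (pow_ne_zero _ hx.gu.2), ord_pow, hx.ord₁, ha]
    ring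
  obtain ⟨d, hd⟩ : ∃ d : ℕ, w = n * a + (d + 1) := ⟨w - n * a - 1, by omega⟩
  have hxne : x ≠ 0 := hx.gu.ne_zero
  have hfac : h = ϖ ^ (d + 1) * ((U / ϖ ^ w) * ((x / ϖ ^ n) ^ a)⁻¹) := by
    rw [hh, div_pow, ← pow_mul, hd, pow_add]
    field_simp
    ring
  obtain ⟨hp₂, hp0⟩ := rd₂_pow_unif (S := S) hϖ₁ hϖ0 (Nat.succ_pos d)
  have hAB : (U / ϖ ^ w) * ((x / ϖ ^ n) ^ a)⁻¹ ∈ S.c₂.V :=
    S.c₂.V.mul_mem _ _ hU₂.1 (hx.gu₂.pow a).inv_mem
  have h₂ : h ∈ S.c₂.V := by
    rw [hfac]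
    exact S.c₂.V.mul_mem _ _ hp₂ hAB
  have h20 : S.c₂.rd h = 0 := by
    rw [hfac, S.c₂.rd_mul hp₂ hAB, hp0, zero_mul]
  have hpf : PoleFree S s h := by
    intro P hPs
    rw [hh, ord_div _ hU.ne_zero (pow_ne_zero _ hxne), ord_pow, hUzf P hPs, hx.zf P hPs]
    simp
  have hvan := vanAt₁_of_rd₂_eq_zero hs hgu.1 h₂ h20 hpf
  have := hvan.ord_pos hgu.2
  omega

/-- **STEP**: either `x` is a coordinate of thickness `n`, or there is `x'` in `ϖ ^ (n+1) V₂`. -/
theorem PreCoord.step (hs : s ∈ S.nodes) (hP : HasPrincipalDivisors K F)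
    (hϖ₁ : algebraMap K F c₀ ∈ S.c₁.V) (hϖ0 : S.c₁.rd (algebraMap K F c₀) = 0)
    (F0 : Subfield F) (hϖF : algebraMap K F c₀ ∈ F0)
    (hlift : ∀ ψ : F₂, 0 ≤ s.2.ord ψ →
      ∃ g ∈ F0, g ∈ S.c₁.V ∧ g ∈ S.c₂.V ∧ S.c₂.rd g = ψ ∧ PoleFree S s g)
    (hdisc : ∀ f ∈ F0, f ∈ S.c₂.V → S.c₂.rd f = 0 → f / algebraMap K F c₀ ∈ S.c₂.V)
    {x : F} {n : ℕ} (hxF : x ∈ F0) (hx : PreCoord S s c₀ x n) :
    IsCoordAt S s c₀ x n ∨ ∃ x' ∈ F0, PreCoord S s c₀ x' (n + 1) := by
  set ϖ : F := algebraMap K F c₀ with hϖ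
  set u₂ : F := x / ϖ ^ n with hu₂
  have hu₂F : u₂ ∈ F0 := F0.div_mem hxF (F0.pow_mem hϖF n)
  by_cases h0 : S.c₂.rd u₂ = 0
  · right
    refine ⟨x, hxF, hx.gu, hx.ord₁, hx.pf, Nat.succ_pos n, ?_⟩
    have := hdisc u₂ hu₂F hx.mem₂ h0
    rwa [hu₂, div_div, ← pow_succ] at this
  · have hgu₂ : S.c₂.IsGU u₂ := ⟨hx.mem₂, h0⟩
    have hsum := S.sum_node hP hs hx.gu hgu₂ ⟨(c₀ ^ n)⁻¹, by
      rw [hu₂, hϖ, map_inv₀, map_pow, div_eq_inv_mul]⟩
    have hnn : ∀ P ∈ (dv hP x).support,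
        0 ≤ (if S.c₁.r P = some s.1 then P.ord x else 0) := by
      intro P _
      split_ifs with hPs
      · exact hx.pf P hPs
      · exact le_rfl
    have hge := Finset.sum_nonneg hnn
    rw [← hsum, hx.ord₁] at hge
    rcases (show s.2.ord (S.c₂.rd u₂) = -1 ∨ 0 ≤ s.2.ord (S.c₂.rd u₂) by omega) with h1 | h1
    · left
      refine ⟨hx.gu, hx.ord₁, ?_, hx.pos, hgu₂, h1⟩
      intro P hPs
      rw [hx.ord₁, h1] at hsum
      by_cases hmem : P ∈ (dv hP x).support
      · have := eq_zero_of_sum_eq_zero _ _ hnn (by rw [← hsum]; norm_num) hmem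
        rwa [if_pos hPs] at this
      · rw [Finsupp.notMem_support_iff, dv_apply] at hmem
        exact hmem
    · right
      obtain ⟨g, hgF, hg₁, hg₂, hgrd, hgpf⟩ := hlift _ h1
      obtain ⟨hp₁, hp0⟩ := rd₁_pow_unif (S := S) hϖ₁ hϖ0 hx.pos
      have hpg₁ : ϖ ^ n * g ∈ S.c₁.V := S.c₁.V.mul_mem _ _ hp₁ hg₁
      have hpg0 : S.c₁.rd (ϖ ^ n * g) = 0 := by
        rw [S.c₁.rd_mul hp₁ hg₁, hp0, zero_mul]
      have hx'₁ : x - ϖ ^ n * g ∈ S.c₁.V := S.c₁.V.sub_mem hx.gu.1 hpg₁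
      have hrd' : S.c₁.rd (x - ϖ ^ n * g) = S.c₁.rd x := by
        rw [S.c₁.rd_sub hx.gu.1 hpg₁, hpg0, sub_zero]
      have hϖne : ϖ ^ n ≠ 0 := by
        intro h
        rw [h, zero_mul] at hpg0
        have hxn := hx.mem₂
        have h2 := hgu₂.ne_zero
        rw [hu₂, h, div_zero] at h2
        exact h2 rfl
      refine ⟨x - ϖ ^ n * g, F0.sub_mem hxF (F0.mul_mem (F0.pow_mem hϖF n) hgF),
        ⟨hx'₁, by rw [hrd']; exact hx.gu.2⟩, by rw [hrd']; exact hx.ord₁, ?_, Nat.succ_pos n, ?_⟩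
      · refine hx.pf.sub (PoleFree.mul ?_ hgpf)
        rw [hϖ, ← map_pow]
        exact poleFree_const s _
      · have he : (x - ϖ ^ n * g) / ϖ ^ n = u₂ - g := by
          rw [hu₂]
          field_simp
        have hm : u₂ - g ∈ S.c₂.V := S.c₂.V.sub_mem hx.mem₂ hg₂
        have hr : S.c₂.rd (u₂ - g) = 0 := by
          rw [S.c₂.rd_sub hx.mem₂ hg₂, hgrd, sub_self]
        have := hdisc (u₂ - g) (F0.sub_mem hu₂F hgF) hm hr
        rwa [← he, div_div, ← pow_succ] at this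

/-- **COORD**: existence of a coordinate in `F0` at the node `s`, with `n a = w`. -/
theorem exists_coord (hs : s ∈ S.nodes) (hP : HasPrincipalDivisors K F) (hc₀ : c₀ ≠ 0)
    (hϖ₁ : algebraMap K F c₀ ∈ S.c₁.V) (hϖ0 : S.c₁.rd (algebraMap K F c₀) = 0)
    (F0 : Subfield F) (hϖF : algebraMap K F c₀ ∈ F0)
    (hlift : ∀ ψ : F₂, 0 ≤ s.2.ord ψ →
      ∃ g ∈ F0, g ∈ S.c₁.V ∧ g ∈ S.c₂.V ∧ S.c₂.rd g = ψ ∧ PoleFree S s g)
    (hdisc : ∀ f ∈ F0, f ∈ S.c₂.V → S.c₂.rd f = 0 → f / algebraMap K F c₀ ∈ S.c₂.V)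
    {U : F} (hU : S.c₁.IsGU U) (hUzf : ZeroFree S s U) {w : ℕ}
    (hU₂ : S.c₂.IsGU (U / algebraMap K F c₀ ^ w)) {a : ℕ} (ha0 : 0 < a)
    (ha : s.1.ord (S.c₁.rd U) = a)
    {x₀ : F} (hx₀F : x₀ ∈ F0) (hx₀₁ : x₀ ∈ S.c₁.V) (hx₀o : s.1.ord (S.c₁.rd x₀) = 1)
    (hx₀₂ : x₀ ∈ S.c₂.V) (hx₀r : S.c₂.rd x₀ = 0) (hx₀pf : PoleFree S s x₀) :
    ∃ x ∈ F0, ∃ n : ℕ, IsCoordAt S s c₀ x n ∧ n * a = w := by
  have key : ∀ m : ℕ, ∀ (x : F) (n : ℕ), x ∈ F0 → PreCoord S s c₀ x n → w < n + m →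
      ∃ x ∈ F0, ∃ n : ℕ, IsCoordAt S s c₀ x n := by
    intro m
    induction m with
    | zero =>
      intro x n _ hx hlt
      have hb := hx.bound hs hc₀ hϖ₁ hϖ0 hU hUzf hU₂ ha
      have : n ≤ n * a := Nat.le_mul_of_pos_right n ha0
      omega
    | succ m ih =>
      intro x n hxF hx hlt
      rcases hx.step hs hP hϖ₁ hϖ0 F0 hϖF hlift hdisc hxF with h | ⟨x', hx'F, hx'⟩
      · exact ⟨x, hxF, n, h⟩
      · exact ih x' (n + 1) hx'F hx' (by omega)
  have hgu₀ : S.c₁.IsGU x₀ := by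
    refine ⟨hx₀₁, fun h => ?_⟩
    rw [h, Place.ord_zero] at hx₀o
    exact zero_ne_one hx₀o
  have h1 : PreCoord S s c₀ x₀ 1 := by
    refine ⟨hgu₀, hx₀o, hx₀pf, Nat.one_pos, ?_⟩
    rw [pow_one]
    exact hdisc x₀ hx₀F hx₀₂ hx₀r
  obtain ⟨x, hxF, n, hx⟩ := key w x₀ 1 hx₀F h1 (by omega)
  exact ⟨x, hxF, n, hx, hx.thickness hs hc₀ hϖ₁ hϖ0 hU hUzf hU₂ ha⟩

/-- A coordinate in the sense of this file is an annulus coordinate in the sense of helper28's
`SSD.IsAnnCoord`, of thickness `c₀ ^ n`. -/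
theorem IsCoordAt.isAnnCoord {x : F} {n : ℕ} (h : IsCoordAt S s c₀ x n) :
    S.IsAnnCoord s x (c₀ ^ n) := by
  have hinv : algebraMap K F (c₀ ^ n) / x = (x / algebraMap K F c₀ ^ n)⁻¹ := by
    rw [inv_div, map_pow]
  refine ⟨h.gu, h.ord₁, ?_, ?_, h.zf⟩
  · rw [hinv]
    exact h.gu₂.inv
  · rw [hinv, h.gu₂.rd_inv, Place.ord_inv, h.ord₂]
    rfl

/-- **COORD**, in helper28's form. -/
theorem exists_isAnnCoord (hs : s ∈ S.nodes) (hP : HasPrincipalDivisors K F) (hc₀ : c₀ ≠ 0)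
    (hϖ₁ : algebraMap K F c₀ ∈ S.c₁.V) (hϖ0 : S.c₁.rd (algebraMap K F c₀) = 0)
    (F0 : Subfield F) (hϖF : algebraMap K F c₀ ∈ F0)
    (hlift : ∀ ψ : F₂, 0 ≤ s.2.ord ψ →
      ∃ g ∈ F0, g ∈ S.c₁.V ∧ g ∈ S.c₂.V ∧ S.c₂.rd g = ψ ∧ PoleFree S s g)
    (hdisc : ∀ f ∈ F0, f ∈ S.c₂.V → S.c₂.rd f = 0 → f / algebraMap K F c₀ ∈ S.c₂.V)
    {U : F} (hU : S.c₁.IsGU U) (hUzf : ZeroFree S s U) {w : ℕ}
    (hU₂ : S.c₂.IsGU (U / algebraMap K F c₀ ^ w)) {a : ℕ} (ha0 : 0 < a)
    (ha : s.1.ord (S.c₁.rd U) = a)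
    {x₀ : F} (hx₀F : x₀ ∈ F0) (hx₀₁ : x₀ ∈ S.c₁.V) (hx₀o : s.1.ord (S.c₁.rd x₀) = 1)
    (hx₀₂ : x₀ ∈ S.c₂.V) (hx₀r : S.c₂.rd x₀ = 0) (hx₀pf : PoleFree S s x₀) :
    ∃ t ∈ F0, ∃ n : ℕ, 0 < n ∧ S.IsAnnCoord s t (c₀ ^ n) ∧ n * a = w := by
  obtain ⟨x, hxF, n, hx, hn⟩ := exists_coord hs hP hc₀ hϖ₁ hϖ0 F0 hϖF hlift hdisc hU hUzf hU₂
    ha0 ha hx₀F hx₀₁ hx₀o hx₀₂ hx₀r hx₀pf
  exact ⟨x, hxF, n, hx.pos, hx.isAnnCoord, hn⟩

end Main

end Fermat.Agent.S15.Desc.H67

end
end
-- ==== END Fermat.Agent.S15.Desc.H67_Coord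

-- ==== BEGIN Fermat.Agent.S15.Desc.H67_CoordLeaves
section
attribute [local instance 10000] SubalgebraClass.toAlgebra
attribute [local instance 10000] HahnSeries.powerSeriesAlgebra

/-!
# S15 DESC, leaf COORD (helper67): the sub-leaves of the modular instantiation at level `p`

Level `N = 1 * p` (`M = 1`, `q = p ≥ 5`), `A` over `p`, `T = H91.modT` the modular total
conservation datum (helper91), `S = T.toSSD`.

* `inertiaRing A` : the ring `A₀ = A ∩ ℚ̄^I` of inertia-fixed integers;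
* `IsFrac0 A N f` : `f ∈ F_N · ℚ̄` is a quotient `G / H` of two functions whose `q`-expansions have
  coefficients in `A₀`;
* `Stmt_CoordCusp p` **(CUSP)** : a pole of `j~` is not a node of `T`;
* `Stmt_CoordDisc` **(DISC)** : a non-zero `f` with `IsFrac0 A N f`, `A` over `p`, is
  `p ^ m · u` with `u` a unit of the Gauss valuation ring;
* `Stmt_CoordMult` **(MULT)** : the multiplicities of the roots of the supersingular polynomial
  `H = X^{4a} (X - 1728)^{6b} g^{12}` are `12`, `4` (only at `0`), `6` (only at `1728`).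

This file contains definitions only.
-/

set_option autoImplicit false
set_option linter.style.haveILetI false
set_option synthInstance.maxHeartbeats 400000
set_option maxHeartbeats 400000

noncomputable section

open HahnSeries IntermediateField AlgebraicCurve ModularCurve
open Fermat.Agent.S28.H73 Fermat.Agent.RED.H73 Fermat.Agent.RED Fermat.Agent.S24
open Fermat.Agent.BAD.H88

namespace Fermat.Agent.S15.Desc.H67

open Fermat.Agent.BAD Fermat.Agent.BAD.H91

/-- The ring `A₀ = A ∩ ℚ̄^I` of integers fixed by the inertia group of `A`. -/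
def inertiaRing (A : ValuationSubring Kbar) : Subring Kbar where
  carrier := {c | c ∈ A ∧ ∀ σ ∈ A.inertiaSubgroupIn ℚ, σ c = c}
  mul_mem' := fun ha hb => ⟨A.mul_mem _ _ ha.1 hb.1, fun σ hσ => by
    rw [map_mul, ha.2 σ hσ, hb.2 σ hσ]⟩
  one_mem' := ⟨A.one_mem, fun σ _ => map_one σ⟩
  add_mem' := fun ha hb => ⟨A.add_mem _ _ ha.1 hb.1, fun σ hσ => by
    rw [map_add, ha.2 σ hσ, hb.2 σ hσ]⟩
  zero_mem' := ⟨A.zero_mem, fun σ _ => map_zero σ⟩
  neg_mem' := fun ha => ⟨A.neg_mem _ ha.1, fun σ hσ => by rw [map_neg, ha.2 σ hσ]⟩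

theorem mem_inertiaRing_iff (A : ValuationSubring Kbar) (c : Kbar) :
    c ∈ inertiaRing A ↔ c ∈ A ∧ ∀ σ ∈ A.inertiaSubgroupIn ℚ, σ c = c := Iff.rfl

/-- `f` is a quotient of two functions with `q`-expansion coefficients in `A₀`. -/
def IsFrac0 (A : ValuationSubring Kbar) (N : ℕ) (f : FN N) : Prop :=
  ∃ G H : FN N, H ≠ 0 ∧ f * H = G ∧
    (∀ n : ℤ, (G : LaurentSeries Kbar).coeff n ∈ inertiaRing A) ∧
    (∀ n : ℤ, (H : LaurentSeries Kbar).coeff n ∈ inertiaRing A)

/-- **(CUSP)** at level `p`: a place of the reduced field of level `1` at which `j~` has a pole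
is not a node of the modular total conservation datum. -/
def Stmt_CoordCusp (p : ℕ) : Prop :=
  ∀ (A : ValuationSubring Kbar) (a b : ℤ) (hab : a * p + b * (1 : ℕ) = 1) (hp : p.Prime)
    [NeZero (1 * p)] [NeZero p] (hA : A.LiesOverPrime p) (hqM : ¬ p ∣ 1) (ht : TameAt 1 p)
    (htot : ∀ (u₁ : ↥(V1 A p 1)) (u₂ : ↥(V2 A p 1 a b hab hp)), red1 A p 1 u₁ ≠ 0 →
      red2 A p 1 a b hab hp u₂ ≠ 0 →
      (∃ c : Kbar, (u₂ : FN (1 * p)) = algebraMap Kbar (FN (1 * p)) c * (u₁ : FN (1 * p))) →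
      ∀ D : Divisor Kbar (FN (1 * p)), (∀ P, D P = P.ord (u₁ : FN (1 * p))) →
        ∀ z : Place (kV A) (F1 A p 1),
          Finsupp.mapDomain (rhoF1 a b hab hp hA hqM ht) D z
            = z.ord (red1 A p 1 u₁)
              + (H73.betaF1 A p 1 hp hA 1 (H82.redField_eq_fullC p 1 a b hab hp A hA) z).ord
                  (red2 A p 1 a b hab hp u₂))
    (z₀ : Place (kV A) ↥(H91.redM A 1)), z₀.ord (jRed A 1) < 0 →
      ¬ (modT a b hab hp hA hqM ht
          (H73.betaF1 A p 1 hp hA 1 (H82.redField_eq_fullC p 1 a b hab hp A hA)) htot).IsNode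
        ((kappa A p 1 a b hab hp hA).symm z₀)

/-- **(DISC)**: the Gauss valuation is discrete on the functions with inertia-fixed
`q`-expansion: a non-zero quotient of two series with coefficients in `A₀` is `p ^ m · u`, `u` a
unit of the Gauss valuation ring. -/
def Stmt_CoordDisc : Prop :=
  ∀ (p : ℕ), p.Prime → ∀ (A : ValuationSubring Kbar), A.LiesOverPrime p →
    ∀ (N : ℕ) [NeZero N] (f : FN N), IsFrac0 A N f → f ≠ 0 →
      ∃ (m : ℤ) (u : ↥(gaussV A N)), gaussRes A N u ≠ 0 ∧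
        f = algebraMap Kbar (FN N) ((p : Kbar) ^ m) * (u : FN N)

/-- **(MULT)**: the multiplicities of the roots of the supersingular polynomial. -/
def Stmt_CoordMult : Prop :=
  ∀ (F : Type) [Field F] (m a b : ℕ) (d : Fermat.Agent.BAD.H21.H21_SSData F m a b) (β : F),
    d.H.rootMultiplicity β = 0 ∨ d.H.rootMultiplicity β = 12 ∨
      (β = 0 ∧ d.H.rootMultiplicity β = 4) ∨ (β = 1728 ∧ d.H.rootMultiplicity β = 6)

end Fermat.Agent.S15.Desc.H67

end
end
-- ==== END Fermat.Agent.S15.Desc.H67_CoordLeaves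

-- ==== BEGIN Fermat.Agent.S15.H23_ModEqSeries
section

/-!
# S15 / BRIDGE / MODEQ (helper23), part 1: pure algebra of Laurent series

* `OrdGE x n` : all coefficients of `x` below `n` vanish.
* bounds for the coefficients of `(Y - R∞) ∏ (Y - r i)` when `r i` has a pole of order `≤ 1` and
  `R∞` a pole of order `≤ n`.
* `intSer` : the subring of Laurent series with coefficients integral over `ℤ`.
* "integral Lemma J": a polynomial `P` with `P(J)` integral has integral coefficients, and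
  its degree and leading coefficient are read off from the pole order.

Skeleton by helper23, proofs by helper63.
-/

set_option autoImplicit false

noncomputable section

namespace Fermat.Agent.S15.H23

open Polynomial

section OrdGE

variable {R : Type*} [CommRing R]

/-- All coefficients of `x` below `n` vanish. -/
def OrdGE (x : LaurentSeries R) (n : ℤ) : Prop := ∀ k : ℤ, k < n → x.coeff k = 0

theorem OrdGE.mono {x : LaurentSeries R} {n m : ℤ} (h : OrdGE x n) (hmn : m ≤ n) : OrdGE x m :=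
  fun k hk => h k (lt_of_lt_of_le hk hmn)

theorem ordGE_zero (n : ℤ) : OrdGE (0 : LaurentSeries R) n := fun _ _ => rfl

theorem ordGE_one : OrdGE (1 : LaurentSeries R) 0 := fun k hk => by
  rw [HahnSeries.coeff_one, if_neg (ne_of_lt hk)]

theorem OrdGE.add {x y : LaurentSeries R} {n : ℤ} (hx : OrdGE x n) (hy : OrdGE y n) :
    OrdGE (x + y) n := fun k hk => by
  rw [HahnSeries.coeff_add, hx k hk, hy k hk, add_zero]

theorem OrdGE.neg {x : LaurentSeries R} {n : ℤ} (hx : OrdGE x n) : OrdGE (-x) n := fun k hk => by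
  rw [HahnSeries.coeff_neg, hx k hk, neg_zero]

theorem OrdGE.sub {x y : LaurentSeries R} {n : ℤ} (hx : OrdGE x n) (hy : OrdGE y n) :
    OrdGE (x - y) n := by
  rw [sub_eq_add_neg]
  exact hx.add hy.neg

theorem OrdGE.mul {x y : LaurentSeries R} {a b : ℤ} (hx : OrdGE x a) (hy : OrdGE y b) :
    OrdGE (x * y) (a + b) := fun k hk => by
  rw [HahnSeries.coeff_mul]
  apply Finset.sum_eq_zero
  intro ij hij
  rw [Finset.mem_antidiagonal] at hij
  obtain ⟨-, -, h3⟩ := hij
  rcases lt_or_ge ij.1 a with h | h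
  · rw [hx _ h, zero_mul]
  · rw [hy _ (by omega), mul_zero]

/-- The lowest coefficient of a product. -/
theorem coeff_mul_of_ordGE {x y : LaurentSeries R} {a b : ℤ} (hx : OrdGE x a) (hy : OrdGE y b) :
    (x * y).coeff (a + b) = x.coeff a * y.coeff b := by
  rw [HahnSeries.coeff_mul]
  refine (Finset.sum_eq_single (a, b) ?_ ?_)
  · intro ij hij hne
    rw [Finset.mem_antidiagonal] at hij
    obtain ⟨-, -, h3⟩ := hij
    rcases lt_trichotomy ij.1 a with h | h | h
    · rw [hx _ h, zero_mul]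
    · exfalso
      apply hne
      ext
      · exact h
      · show ij.2 = b
        omega
    · rw [hy _ (by omega), mul_zero]
  · intro hnot
    rw [Finset.mem_antidiagonal] at hnot
    by_cases h1 : x.coeff a = 0
    · rw [h1, zero_mul]
    · by_cases h2 : y.coeff b = 0
      · rw [h2, mul_zero]
      · exact absurd ⟨h1, h2, rfl⟩ hnot

theorem OrdGE.pow {x : LaurentSeries R} {a : ℤ} (hx : OrdGE x a) (n : ℕ) :
    OrdGE (x ^ n) (n * a) := by
  induction n with
  | zero =>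
    rw [pow_zero, Nat.cast_zero, zero_mul]
    exact ordGE_one
  | succ n ih =>
    rw [pow_succ]
    have h := ih.mul hx
    have e : ((n + 1 : ℕ) : ℤ) * a = (n : ℤ) * a + a := by push_cast; ring
    rw [e]
    exact h

theorem coeff_pow_of_ordGE {x : LaurentSeries R} {a : ℤ} (hx : OrdGE x a) (n : ℕ) :
    (x ^ n).coeff (n * a) = x.coeff a ^ n := by
  induction n with
  | zero =>
    rw [pow_zero, pow_zero, Nat.cast_zero, zero_mul, HahnSeries.coeff_one, if_pos rfl]
  | succ n ih =>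
    have e : ((n + 1 : ℕ) : ℤ) * a = (n : ℤ) * a + a := by push_cast; ring
    rw [pow_succ, pow_succ, e, coeff_mul_of_ordGE (hx.pow n) hx, ih]

theorem ordGE_sum {ι : Type*} (s : Finset ι) (f : ι → LaurentSeries R) (n : ℤ)
    (h : ∀ i ∈ s, OrdGE (f i) n) : OrdGE (∑ i ∈ s, f i) n :=
  Finset.sum_induction f (fun x => OrdGE x n) (fun _ _ hx hy => hx.add hy) (ordGE_zero n) h

/-- One linear factor more: coefficient bounds. -/
theorem lin_mul_coeff_ordGE (P : (LaurentSeries R)[X]) (c : ℤ)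
    (hP : ∀ k : ℕ, OrdGE (P.coeff k) ((k : ℤ) - c)) (r : LaurentSeries R) (n : ℕ) (hn : 1 ≤ n)
    (hr : OrdGE r (-(n : ℤ))) (k : ℕ) :
    OrdGE (((X - C r) * P).coeff k) ((k : ℤ) - c - n) := by
  rcases k with _ | k
  · rw [Polynomial.mul_coeff_zero, Polynomial.coeff_sub, Polynomial.coeff_X_zero,
      Polynomial.coeff_C_zero, zero_sub]
    have h := hr.neg.mul (hP 0)
    exact h.mono (by omega)
  · rw [Polynomial.coeff_X_sub_C_mul]
    refine OrdGE.sub ((hP k).mono (by push_cast; omega)) ?_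
    have h := hr.mul (hP (k + 1))
    exact h.mono (by push_cast; omega)

/-- Coefficient bounds for `∏ (Y - r i)`, all `r i` with a pole of order at most one. -/
theorem prod_coeff_ordGE {ι : Type*} (s : Finset ι) (r : ι → LaurentSeries R)
    (hr : ∀ i ∈ s, OrdGE (r i) (-1)) (k : ℕ) :
    OrdGE ((∏ i ∈ s, (X - C (r i))).coeff k) ((k : ℤ) - s.card) := by
  classical
  induction s using Finset.induction_on generalizing k with
  | empty =>
    rw [Finset.prod_empty, Finset.card_empty, Nat.cast_zero, sub_zero, Polynomial.coeff_one]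
    split_ifs with h
    · subst h
      exact ordGE_one
    · exact ordGE_zero _
  | insert a s ha ih =>
    rw [Finset.prod_insert ha, Finset.card_insert_of_notMem ha]
    have h1 := lin_mul_coeff_ordGE (∏ i ∈ s, (X - C (r i))) (s.card : ℤ)
      (fun k => ih (fun i hi => hr i (Finset.mem_insert_of_mem hi)) k) (r a) 1 le_rfl
      (by simpa using hr a (Finset.mem_insert_self a s)) k
    exact h1.mono (by push_cast; omega)

/-- The lowest coefficient of the constant term of `∏ (Y - r i)`. -/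
theorem prod_coeff_zero_lead {ι : Type*} (s : Finset ι) (r : ι → LaurentSeries R)
    (hr : ∀ i ∈ s, OrdGE (r i) (-1)) :
    ((∏ i ∈ s, (X - C (r i))).coeff 0).coeff (-(s.card : ℤ)) = ∏ i ∈ s, (-(r i).coeff (-1)) := by
  classical
  induction s using Finset.induction_on with
  | empty =>
    rw [Finset.prod_empty, Finset.prod_empty, Finset.card_empty, Nat.cast_zero, neg_zero,
      Polynomial.coeff_one_zero, HahnSeries.coeff_one, if_pos rfl]
  | insert a s ha ih =>
    rw [Finset.prod_insert ha, Finset.prod_insert ha, Finset.card_insert_of_notMem ha,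
      Polynomial.mul_coeff_zero, Polynomial.coeff_sub, Polynomial.coeff_X_zero,
      Polynomial.coeff_C_zero, zero_sub]
    have hs : ∀ i ∈ s, OrdGE (r i) (-1) := fun i hi => hr i (Finset.mem_insert_of_mem hi)
    have h0 : OrdGE ((∏ i ∈ s, (X - C (r i))).coeff 0) (-(s.card : ℤ)) := by
      have := prod_coeff_ordGE s r hs 0
      simpa using this
    have h1 := coeff_mul_of_ordGE (hr a (Finset.mem_insert_self a s)).neg h0
    have e : -((s.card + 1 : ℕ) : ℤ) = -1 + -(s.card : ℤ) := by push_cast; ring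
    rw [e, h1, ih hs, HahnSeries.coeff_neg]

/-- Coefficient bounds for `(Y - R∞) ∏ (Y - r i)`. -/
theorem modEq_coeff_ordGE {ι : Type*} (s : Finset ι) (r : ι → LaurentSeries R)
    (hr : ∀ i ∈ s, OrdGE (r i) (-1)) (Rinf : LaurentSeries R) (n : ℕ) (hn : 1 ≤ n)
    (hR : OrdGE Rinf (-(n : ℤ))) (k : ℕ) :
    OrdGE (((X - C Rinf) * ∏ i ∈ s, (X - C (r i))).coeff k) ((k : ℤ) - s.card - n) :=
  lin_mul_coeff_ordGE _ _ (fun k => prod_coeff_ordGE s r hr k) Rinf n hn hR k

/-- The lowest coefficient of the constant term of `(Y - R∞) ∏ (Y - r i)`. -/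
theorem modEq_coeff_zero_lead {ι : Type*} (s : Finset ι) (r : ι → LaurentSeries R)
    (hr : ∀ i ∈ s, OrdGE (r i) (-1)) (Rinf : LaurentSeries R) (n : ℕ)
    (hR : OrdGE Rinf (-(n : ℤ))) :
    ((((X - C Rinf) * ∏ i ∈ s, (X - C (r i))).coeff 0).coeff (-((s.card : ℤ) + n)))
      = -Rinf.coeff (-(n : ℤ)) * ∏ i ∈ s, (-(r i).coeff (-1)) := by
  rw [Polynomial.mul_coeff_zero, Polynomial.coeff_sub, Polynomial.coeff_X_zero,
    Polynomial.coeff_C_zero, zero_sub]
  have h0 : OrdGE ((∏ i ∈ s, (X - C (r i))).coeff 0) (-(s.card : ℤ)) := by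
    have := prod_coeff_ordGE s r hr 0
    simpa using this
  have h1 := coeff_mul_of_ordGE hR.neg h0
  have e : -((s.card : ℤ) + n) = -(n : ℤ) + -(s.card : ℤ) := by ring
  rw [e, h1, prod_coeff_zero_lead s r hr, HahnSeries.coeff_neg]

/-- The coefficient of `Y ^ card` in `(Y - R∞) ∏ (Y - r i)` is `-R∞ + (pole order ≤ 1)`. -/
theorem modEq_coeff_card_lead {ι : Type*} (s : Finset ι) (r : ι → LaurentSeries R)
    (hr : ∀ i ∈ s, OrdGE (r i) (-1)) (Rinf : LaurentSeries R) (n : ℕ) (hn : 1 < n) :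
    ((((X - C Rinf) * ∏ i ∈ s, (X - C (r i))).coeff s.card).coeff (-(n : ℤ)))
      = -Rinf.coeff (-(n : ℤ)) := by
  have hmonic : (∏ i ∈ s, (X - C (r i))).Monic :=
    Polynomial.monic_prod_of_monic _ _ fun i _ => Polynomial.monic_X_sub_C (r i)
  have hlead : (∏ i ∈ s, (X - C (r i))).coeff s.card = 1 := by
    nontriviality (LaurentSeries R)
    have hdeg : (∏ i ∈ s, (X - C (r i))).natDegree = s.card := by
      rw [Polynomial.natDegree_prod_of_monic _ _ fun i _ => Polynomial.monic_X_sub_C (r i)]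
      simp
    rw [← hdeg]
    exact hmonic.coeff_natDegree
  rcases Nat.eq_zero_or_pos s.card with h0 | h0
  · rw [h0] at hlead ⊢
    rw [Polynomial.mul_coeff_zero, Polynomial.coeff_sub, Polynomial.coeff_X_zero,
      Polynomial.coeff_C_zero, zero_sub, hlead, mul_one, HahnSeries.coeff_neg]
  · obtain ⟨m, hm⟩ : ∃ m, s.card = m + 1 := ⟨s.card - 1, by omega⟩
    rw [hm] at hlead ⊢
    rw [Polynomial.coeff_X_sub_C_mul, hlead, mul_one, HahnSeries.coeff_sub]
    have h1 := prod_coeff_ordGE s r hr m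
    rw [h1 (-(n : ℤ)) (by rw [hm]; push_cast; omega), zero_sub]

end OrdGE

section IntSer

variable (K : Type*) [Field K]

/-- The Laurent series with coefficients integral over `ℤ`. -/
def intSer : Subring (LaurentSeries K) where
  carrier := {x | ∀ n : ℤ, IsIntegral ℤ (x.coeff n)}
  zero_mem' := fun _ => isIntegral_zero
  one_mem' := fun n => by
    rw [HahnSeries.coeff_one]
    split_ifs
    · exact isIntegral_one
    · exact isIntegral_zero
  add_mem' := fun {x y} hx hy n => by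
    rw [HahnSeries.coeff_add]
    exact (hx n).add (hy n)
  neg_mem' := fun {x} hx n => by
    rw [HahnSeries.coeff_neg]
    exact (hx n).neg
  mul_mem' := fun {x y} hx hy n => by
    rw [HahnSeries.coeff_mul]
    exact IsIntegral.sum _ fun ij _ => (hx ij.1).mul (hy ij.2)

variable {K}

theorem mem_intSer {x : LaurentSeries K} : x ∈ intSer K ↔ ∀ n : ℤ, IsIntegral ℤ (x.coeff n) :=
  Iff.rfl

theorem C_mem_intSer {a : K} (ha : IsIntegral ℤ a) : HahnSeries.C a ∈ intSer K := by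
  intro n
  rw [HahnSeries.C_apply]
  rcases eq_or_ne n 0 with rfl | hn
  · rw [HahnSeries.coeff_single_same]
    exact ha
  · rw [HahnSeries.coeff_single_of_ne hn]
    exact isIntegral_zero

theorem algebraMap_eq_C (c : K) : algebraMap K (LaurentSeries K) c = HahnSeries.C c := by
  have h1 : algebraMap K (PowerSeries K) c = PowerSeries.C c := by simp
  rw [HahnSeries.algebraMap_apply', h1, HahnSeries.ofPowerSeries_C]

theorem ordGE_C (c : K) : OrdGE (HahnSeries.C c : LaurentSeries K) 0 := fun k hk => by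
  rw [HahnSeries.C_apply, HahnSeries.coeff_single_of_ne (ne_of_lt hk)]

theorem coeff_C_zero_eq (c : K) : (HahnSeries.C c : LaurentSeries K).coeff 0 = c := by
  rw [HahnSeries.C_apply, HahnSeries.coeff_single_same]

theorem OrdGE.C_mul {x : LaurentSeries K} {n : ℤ} (hx : OrdGE x n) (c : K) :
    OrdGE (HahnSeries.C c * x) n := by
  have h := (ordGE_C c).mul hx
  rwa [zero_add] at h

theorem coeff_C_mul_of_ordGE {x : LaurentSeries K} {n : ℤ} (hx : OrdGE x n) (c : K) :
    (HahnSeries.C c * x).coeff n = c * x.coeff n := by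
  have h := coeff_mul_of_ordGE (ordGE_C c) hx
  rwa [zero_add, coeff_C_zero_eq] at h

variable (J : LaurentSeries K) (N : ℕ) (hN : 0 < N) (hJ : OrdGE J (-(N : ℤ)))
  (hJ1 : J.coeff (-(N : ℤ)) = 1)

include hJ in
/-- Pole order of `P(J)`. -/
theorem aeval_ordGE (P : K[X]) (d : ℕ) (hd : P.natDegree ≤ d) :
    OrdGE (aeval J P) (-((N : ℤ) * d)) := by
  rw [Polynomial.aeval_eq_sum_range' (Nat.lt_succ_of_le hd)]
  simp only [Algebra.smul_def, algebraMap_eq_C]
  apply ordGE_sum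
  intro i hi
  rw [Finset.mem_range] at hi
  refine ((hJ.pow i).C_mul (P.coeff i)).mono ?_
  have h1 : (i : ℤ) ≤ d := by exact_mod_cast Nat.lt_succ_iff.mp hi
  nlinarith [h1, (Nat.cast_nonneg N : (0 : ℤ) ≤ N)]

include hN hJ hJ1 in
/-- The lowest coefficient of `P(J)`. -/
theorem aeval_coeff_lead (P : K[X]) (d : ℕ) (hd : P.natDegree ≤ d) :
    (aeval J P).coeff (-((N : ℤ) * d)) = P.coeff d := by
  rw [Polynomial.aeval_eq_sum_range' (Nat.lt_succ_of_le hd), Finset.sum_range_succ]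
  simp only [Algebra.smul_def, algebraMap_eq_C]
  rw [HahnSeries.coeff_add]
  have hN' : (1 : ℤ) ≤ N := by exact_mod_cast hN
  have h1 : OrdGE (∑ i ∈ Finset.range d, HahnSeries.C (P.coeff i) * J ^ i)
      (-((N : ℤ) * d) + 1) := by
    apply ordGE_sum
    intro i hi
    rw [Finset.mem_range] at hi
    refine ((hJ.pow i).C_mul (P.coeff i)).mono ?_
    have h2 : (i : ℤ) + 1 ≤ d := by exact_mod_cast hi
    nlinarith [h2, hN']
  rw [h1 _ (by omega), zero_add]
  have e : -((N : ℤ) * d) = (d : ℤ) * (-(N : ℤ)) := by ring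
  rw [e, coeff_C_mul_of_ordGE (hJ.pow d), coeff_pow_of_ordGE hJ d, hJ1, one_pow, mul_one]

include hN hJ hJ1 in
/-- The degree of `P` is bounded by the pole order of `P(J)`. -/
theorem natDegree_le_of_ordGE (P : K[X]) (D : ℕ) (m : ℤ) (hm : -((N : ℤ) * (D + 1)) < m)
    (h : OrdGE (aeval J P) m) : P.natDegree ≤ D := by
  by_contra hcon
  rw [not_le] at hcon
  have hP0 : P ≠ 0 := by
    rintro rfl
    simp at hcon
  have h1 := aeval_coeff_lead J N hN hJ hJ1 P P.natDegree le_rfl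
  have hN' : (1 : ℤ) ≤ N := by exact_mod_cast hN
  have h2 : (D : ℤ) + 1 ≤ P.natDegree := by exact_mod_cast hcon
  have h3 : -((N : ℤ) * P.natDegree) < m := by nlinarith [h2, hN']
  rw [h _ h3, Polynomial.coeff_natDegree] at h1
  exact (Polynomial.leadingCoeff_ne_zero.mpr hP0) h1.symm

include hN hJ hJ1 in
/-- **Integral Lemma J**: if `J` and `P(J)` have integral coefficients, so has `P`. -/
theorem isIntegral_coeff_of_aeval_mem (hJint : J ∈ intSer K) (P : K[X])
    (h : aeval J P ∈ intSer K) (i : ℕ) : IsIntegral ℤ (P.coeff i) := by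
  suffices H : ∀ (d : ℕ) (P : K[X]), P.natDegree ≤ d → aeval J P ∈ intSer K →
      ∀ i, IsIntegral ℤ (P.coeff i) from H P.natDegree P le_rfl h i
  intro d
  induction d with
  | zero =>
    intro P hd hP i
    have h0 := aeval_coeff_lead J N hN hJ hJ1 P 0 hd
    have h1 : IsIntegral ℤ (P.coeff 0) := by
      rw [← h0]
      exact hP _
    rcases Nat.eq_zero_or_pos i with rfl | hi
    · exact h1
    · rw [Polynomial.coeff_eq_zero_of_natDegree_lt (lt_of_le_of_lt hd hi)]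
      exact isIntegral_zero
  | succ d ih =>
    intro P hd hP i
    have h0 := aeval_coeff_lead J N hN hJ hJ1 P (d + 1) hd
    have hc : IsIntegral ℤ (P.coeff (d + 1)) := by
      rw [← h0]
      exact hP _
    -- remove the top term
    set Q : K[X] := P - Polynomial.C (P.coeff (d + 1)) * X ^ (d + 1) with hQ
    have hQc : ∀ k, Q.coeff k = if k = d + 1 then 0 else P.coeff k := by
      intro k
      rw [hQ, Polynomial.coeff_sub, Polynomial.coeff_C_mul, Polynomial.coeff_X_pow]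
      split_ifs with hk
      · rw [hk, mul_one, sub_self]
      · rw [mul_zero, sub_zero]
    have hQd : Q.natDegree ≤ d := by
      rw [Polynomial.natDegree_le_iff_coeff_eq_zero]
      intro k hk
      rw [hQc]
      split_ifs with hk'
      · rfl
      · exact Polynomial.coeff_eq_zero_of_natDegree_lt (by omega)
    have hQint : aeval J Q ∈ intSer K := by
      rw [hQ, map_sub, map_mul, map_pow, Polynomial.aeval_C, Polynomial.aeval_X,
        algebraMap_eq_C]
      exact (intSer K).sub_mem hP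
        ((intSer K).mul_mem (C_mem_intSer hc) ((intSer K).pow_mem hJint _))
    have := ih Q hQd hQint i
    rw [hQc] at this
    split_ifs at this with hk
    · rw [hk]
      exact hc
    · exact this

end IntSer

end Fermat.Agent.S15.H23

end
end
-- ==== END Fermat.Agent.S15.H23_ModEqSeries
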