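-- GENERATED (merged mirror, NOTES/tools/trim/merge3_helper67.py): 11 modules of the originals, bodies verbatim.
import Mathlib
import Fermat.Agent.Zm.S44_L01_002
import Fermat.Agent.S05.H37_Inertia
import Fermat.Agent.S05.H14_VarChange
import Fermat.Agent.S05.H15_Val

-- ==== BEGIN Fermat.Agent.S05.H28_F1
section

set_option autoImplicit false

namespace Fermat.Agent.S05.H28

open WeierstrassCurve WeierstrassCurve.Affine

variable {L : Type*} [Field L]

/-- The curve equation of the model, `y² = x³ + a x² + b x`. -/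
lemma eqn_of_nonsingular {A : ValuationSubring L} {W : Affine L} (hyp : ModelHyp A W) {x y : L}
    (h : W.Nonsingular x y) : y ^ 2 = x ^ 3 + W.a₂ * x ^ 2 + W.a₄ * x := by
  have h1 := (W.equation_iff x y).1 h.1
  rw [hyp.a₁, hyp.a₃, hyp.a₆] at h1
  linear_combination h1

/-- On `E₁`: `|y|² = |x|³`. -/
lemma val_y_sq {A : ValuationSubring L} {W : Affine L} (hyp : ModelHyp A W) {x y : L}
    (h : W.Nonsingular x y) (hx : 1 < A.valuation x) :
    A.valuation y ^ 2 = A.valuation x ^ 3 := by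
  have h1 := eqn_of_nonsingular hyp h
  have hx0 : 0 < A.valuation x := lt_trans zero_lt_one hx
  have e1 : A.valuation (W.a₂ * x ^ 2) < A.valuation (x ^ 3) := by
    rw [map_mul, map_pow, map_pow]
    calc A.valuation W.a₂ * A.valuation x ^ 2 ≤ 1 * A.valuation x ^ 2 := by
          gcongr; exact hyp.a_le
      _ = A.valuation x ^ 2 := one_mul _
      _ < A.valuation x ^ 3 := by
          exact pow_lt_pow_right₀ hx (by norm_num)
  have e2 : A.valuation (W.a₄ * x) < A.valuation (x ^ 3) := by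
    rw [map_mul, map_pow]
    calc A.valuation W.a₄ * A.valuation x ≤ 1 * A.valuation x := by
          gcongr; exact hyp.b_le
      _ = A.valuation x ^ 1 := by rw [one_mul, pow_one]
      _ < A.valuation x ^ 3 := by
          exact pow_lt_pow_right₀ hx (by norm_num)
  have e3 : A.valuation (W.a₂ * x ^ 2 + W.a₄ * x) < A.valuation (x ^ 3) :=
    Valuation.map_add_lt _ e1 e2
  have : A.valuation (y ^ 2) = A.valuation (x ^ 3) := by
    rw [h1, add_assoc]
    exact Valuation.map_add_eq_of_lt_left _ e3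
  rwa [map_pow, map_pow] at this

/-- On `E₁`: `1 < |y|`. -/
lemma one_lt_val_y {A : ValuationSubring L} {W : Affine L} (hyp : ModelHyp A W) {x y : L}
    (h : W.Nonsingular x y) (hx : 1 < A.valuation x) : 1 < A.valuation y := by
  have h2 := val_y_sq hyp h hx
  by_contra hcon
  have hcon := not_lt.mp hcon
  have h3 : A.valuation y ^ 2 ≤ 1 := pow_le_one₀ zero_le hcon
  have h4 : 1 < A.valuation x ^ 3 := one_lt_pow₀ hx (by norm_num)
  rw [h2] at h3
  exact absurd h4 (not_lt.mpr h3)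

/-- On `E₁`: `|x / y| < 1`. -/
lemma val_z_lt_one {A : ValuationSubring L} {W : Affine L} (hyp : ModelHyp A W) {x y : L}
    (h : W.Nonsingular x y) (hx : 1 < A.valuation x) : A.valuation (x / y) < 1 := by
  have h2 := val_y_sq hyp h hx
  have hx0 : 0 < A.valuation x := lt_trans zero_lt_one hx
  have hy1 := one_lt_val_y hyp h hx
  have hy0 : 0 < A.valuation y := lt_trans zero_lt_one hy1
  rw [map_div₀, div_lt_one₀ hy0]
  by_contra hcon
  have hcon := not_lt.mp hcon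
  -- |y| ≤ |x| gives |y|^2 ≤ |x|^2 < |x|^3
  have h3 : A.valuation y ^ 2 ≤ A.valuation x ^ 2 := pow_le_pow_left₀ zero_le hcon 2
  have h4 : A.valuation x ^ 2 < A.valuation x ^ 3 := pow_lt_pow_right₀ hx (by norm_num)
  rw [h2] at h3
  exact absurd h4 (not_lt.mpr h3)

/-- The local parameter `z = x / y` (with `z(0) = 0`). -/
noncomputable def zc {W : Affine L} : W.Point → L
  | .zero => 0
  | .some x y _ => x / y

@[simp] lemma zc_zero {W : Affine L} : zc (0 : W.Point) = 0 := rfl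

@[simp] lemma zc_some {W : Affine L} {x y : L} (h : W.Nonsingular x y) :
    zc (Point.some x y h) = x / y := rfl

lemma zc_neg {A : ValuationSubring L} {W : Affine L} (hyp : ModelHyp A W) (P : W.Point) :
    zc (-P) = - zc P := by
  rcases P with _ | ⟨x, y, h⟩
  · show zc (-(0 : W.Point)) = - zc (0 : W.Point)
    simp
  · rw [Point.neg_some, zc_some, zc_some, Affine.negY, hyp.a₁, hyp.a₃]
    ring

lemma val_zc_lt_one {A : ValuationSubring L} {W : Affine L} (hyp : ModelHyp A W) (P : W.Point)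
    (hP : InE1 A P) : A.valuation (zc P) < 1 := by
  rcases P with _ | ⟨x, y, h⟩
  · show A.valuation (0 : L) < 1
    simp
  · exact val_z_lt_one hyp h hP

lemma zc_ne_zero {A : ValuationSubring L} {W : Affine L} (hyp : ModelHyp A W) (P : W.Point)
    (hP : InE1 A P) (hP0 : P ≠ 0) : zc P ≠ 0 := by
  rcases P with _ | ⟨x, y, h⟩
  · exact absurd rfl hP0
  · have hx : 1 < A.valuation x := hP
    have hx0 : x ≠ 0 := by
      rintro rfl
      simp at hx
    have hy0 : y ≠ 0 := by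
      rintro rfl
      have := one_lt_val_y hyp h hx
      simp at this
    rw [zc_some]
    exact div_ne_zero hx0 hy0

/-- The algebraic identity behind the key estimate. -/
lemma key_identity (a b x₁ y₁ x₂ y₂ x₃ y₃ ℓ μ : L)
    (e1 : y₁ = ℓ * x₁ + μ) (e2 : y₂ = ℓ * x₂ + μ) (e3 : -y₃ = ℓ * x₃ + μ)
    (V1 : x₁ + x₂ + x₃ = ℓ ^ 2 - a) (V2 : x₁ * x₂ + x₁ * x₃ + x₂ * x₃ = b - 2 * ℓ * μ)
    (V3 : x₁ * x₂ * x₃ = μ ^ 2) (hy₁ : y₁ ≠ 0) (hy₂ : y₂ ≠ 0) (hy₃ : y₃ ≠ 0) (hμ : μ ≠ 0) :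
    x₃ / y₃ = x₁ / y₁ + x₂ / y₂ - (x₁ / y₁) * (x₂ / y₂) * (x₃ / y₃) * (a - 2 * b * ℓ / μ) := by
  have hy₃' : y₃ = -(ℓ * x₃ + μ) := by linear_combination -e3
  have S : x₃ * y₁ * y₂ - x₁ * y₂ * y₃ - x₂ * y₁ * y₃ = 2 * b * ℓ * μ - a * μ ^ 2 := by
    rw [e1, e2, hy₃']
    linear_combination (3 * ℓ ^ 2) * V3 + (2 * ℓ * μ) * V2 + μ ^ 2 * V1
  field_simp
  linear_combination (μ) * S + (a * μ - 2 * b * ℓ) * V3

/-- Key estimate: for `P₁, P₂, P₁ + P₂` affine points of `E₁`,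
`z₃ = z₁ + z₂ - z₁ z₂ z₃ R` with `|R| ≤ 1`. -/
lemma key_estimate [DecidableEq L] (hline : Stmt_line (L := L))
    {A : ValuationSubring L} {W : Affine L} (hyp : ModelHyp A W)
    {x₁ y₁ x₂ y₂ x₃ y₃ : L} (h₁ : W.Nonsingular x₁ y₁) (h₂ : W.Nonsingular x₂ y₂)
    (h₃ : W.Nonsingular x₃ y₃) (hx₁ : 1 < A.valuation x₁) (hx₂ : 1 < A.valuation x₂)
    (hx₃ : 1 < A.valuation x₃)
    (hadd : Point.some x₁ y₁ h₁ + Point.some x₂ y₂ h₂ = Point.some x₃ y₃ h₃) :
    ∃ R : L, A.valuation R ≤ 1 ∧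
      x₃ / y₃ = x₁ / y₁ + x₂ / y₂ - (x₁ / y₁) * (x₂ / y₂) * (x₃ / y₃) * R := by
  obtain ⟨ℓ, μ, e1, e2, e3, V1, V2, V3⟩ :=
    hline W hyp.a₁ hyp.a₃ hyp.a₆ x₁ y₁ x₂ y₂ x₃ y₃ h₁ h₂ h₃ hadd
  have hv0 : ∀ {x : L}, 1 < A.valuation x → x ≠ 0 := by
    intro x hx
    rintro rfl
    simp at hx
  have hy₁ : y₁ ≠ 0 := hv0 (one_lt_val_y hyp h₁ hx₁)
  have hy₂ : y₂ ≠ 0 := hv0 (one_lt_val_y hyp h₂ hx₂)
  have hy₃ : y₃ ≠ 0 := hv0 (one_lt_val_y hyp h₃ hx₃)
  have hμ : μ ≠ 0 := by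
    intro h0
    rw [h0] at V3
    have : x₁ * x₂ * x₃ ≠ 0 := mul_ne_zero (mul_ne_zero (hv0 hx₁) (hv0 hx₂)) (hv0 hx₃)
    exact this (by rw [V3]; ring)
  refine ⟨W.a₂ - 2 * W.a₄ * ℓ / μ, ?_, key_identity _ _ _ _ _ _ _ _ _ _ e1 e2 e3 V1 V2 V3 hy₁ hy₂ hy₃ hμ⟩
  -- valuation bound
  have hμv : 0 < A.valuation μ := by
    rw [Valuation.pos_iff]; exact hμ
  have hM : A.valuation μ ^ 2 = A.valuation x₁ * A.valuation x₂ * A.valuation x₃ := by
    rw [← map_pow, ← V3, map_mul, map_mul]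
  have p1 : (0 : A.ValueGroup) ≤ A.valuation x₁ := zero_le
  have p2 : (0 : A.ValueGroup) ≤ A.valuation x₂ := zero_le
  have p3 : (0 : A.ValueGroup) ≤ A.valuation x₃ := zero_le
  have b1 : A.valuation x₁ ≤ A.valuation μ ^ 2 := by
    rw [hM]
    calc A.valuation x₁ = A.valuation x₁ * 1 * 1 := by rw [mul_one, mul_one]
      _ ≤ A.valuation x₁ * A.valuation x₂ * A.valuation x₃ := by
          gcongr
  have b2 : A.valuation x₂ ≤ A.valuation μ ^ 2 := by
    rw [hM]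
    calc A.valuation x₂ = 1 * A.valuation x₂ * 1 := by rw [mul_one, one_mul]
      _ ≤ A.valuation x₁ * A.valuation x₂ * A.valuation x₃ := by
          gcongr
  have b3 : A.valuation x₃ ≤ A.valuation μ ^ 2 := by
    rw [hM]
    calc A.valuation x₃ = 1 * 1 * A.valuation x₃ := by rw [one_mul, one_mul]
      _ ≤ A.valuation x₁ * A.valuation x₂ * A.valuation x₃ := by
          gcongr
  have b0 : A.valuation W.a₂ ≤ A.valuation μ ^ 2 := hyp.a_le.trans (hx₁.le.trans b1)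
  have hℓ2 : A.valuation ℓ ^ 2 ≤ A.valuation μ ^ 2 := by
    have : ℓ ^ 2 = x₁ + x₂ + x₃ + W.a₂ := by linear_combination -V1
    rw [← map_pow, this]
    exact Valuation.map_add_le _ (Valuation.map_add_le _ (Valuation.map_add_le _ b1 b2) b3) b0
  have hℓ : A.valuation ℓ ≤ A.valuation μ :=
    (pow_le_pow_iff_left₀ zero_le zero_le (by norm_num : (2 : ℕ) ≠ 0)).1 hℓ2
  refine Valuation.map_sub_le _ hyp.a_le ?_
  rw [map_div₀, map_mul, map_mul, hyp.two, one_mul, div_le_one₀ hμv]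
  calc A.valuation W.a₄ * A.valuation ℓ ≤ 1 * A.valuation μ := by
        gcongr
        exact hyp.b_le
    _ = A.valuation μ := one_mul _

/-- A small inequality in the value group. -/
lemma mul4_lt {Γ : Type*} [LinearOrderedCommGroupWithZero Γ] {a b c d : Γ}
    (ha : a < 1) (hb : 0 < b) (hc : c < 1) (hd : d ≤ 1) : a * b * c * d < b := by
  have h1 : a * c * d ≤ a * 1 * 1 := by gcongr
  have h2 : a * c * d < 1 := lt_of_le_of_lt (by simpa using h1) ha
  calc a * b * c * d = b * (a * c * d) := by ac_rfl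
    _ < b * 1 := by gcongr
    _ = b := mul_one b

/-- The induction behind F1: for `P ∈ E₁`, `P ≠ 0` and all `k`,
`k • P ∈ E₁` and `|z(k • P) - k z(P)| < |z(P)|`. -/
lemma nsmul_estimate [DecidableEq L] (hline : Stmt_line (L := L)) (hE1 : Stmt_E1_add (L := L))
    {A : ValuationSubring L} {W : Affine L} (hyp : ModelHyp A W) (P : W.Point)
    (hP : InE1 A P) (hP0 : P ≠ 0) (k : ℕ) :
    InE1 A (k • P) ∧ A.valuation (zc (k • P) - (k : L) * zc P) < A.valuation (zc P) := by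
  have hzP : zc P ≠ 0 := zc_ne_zero hyp P hP hP0
  have hzPv : 0 < A.valuation (zc P) := by rw [Valuation.pos_iff]; exact hzP
  induction k with
  | zero =>
    refine ⟨by rw [zero_smul]; trivial, ?_⟩
    rw [zero_smul, zc_zero, Nat.cast_zero, zero_mul, sub_zero, map_zero]
    exact hzPv
  | succ k ih =>
    obtain ⟨ihE, ihz⟩ := ih
    have hE' : InE1 A ((k + 1) • P) := by
      rw [succ_nsmul]
      exact hE1 A W hyp _ _ ihE hP
    refine ⟨hE', ?_⟩
    rw [succ_nsmul] at hE' ⊢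
    push_cast
    rcases hQ : k • P with _ | ⟨x₁, y₁, h₁⟩
    · -- `k • P = 0`
      rw [hQ] at ihz
      have e0 : (Point.zero : W.Point) + P = P := zero_add P
      rw [e0]
      have e1 : zc P - ((k : L) + 1) * zc P = zc (Point.zero : W.Point) - (k : L) * zc P := by
        show zc P - ((k : L) + 1) * zc P = 0 - (k : L) * zc P
        ring
      rw [e1]
      exact ihz
    · rw [hQ] at ihz ihE hE'
      rcases hQ' : Point.some x₁ y₁ h₁ + P with _ | ⟨x₃, y₃, h₃⟩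
      · -- `k • P + P = 0`
        have e0 : Point.some x₁ y₁ h₁ = -P := eq_neg_of_add_eq_zero_left hQ'
        rw [e0, zc_neg hyp] at ihz
        have e1 : zc (Point.zero : W.Point) - ((k : L) + 1) * zc P = -zc P - (k : L) * zc P := by
          show 0 - ((k : L) + 1) * zc P = -zc P - (k : L) * zc P
          ring
        rw [e1]
        exact ihz
      · rw [hQ'] at hE'
        rcases P with _ | ⟨x₂, y₂, h₂⟩
        · exact absurd rfl hP0
        · obtain ⟨R, hR, hz⟩ := key_estimate hline hyp h₁ h₂ h₃ ihE hP hE' hQ'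
          simp only [zc_some] at ihz hzPv ⊢
          have e1 : x₃ / y₃ - ((k : L) + 1) * (x₂ / y₂) =
              (x₁ / y₁ - (k : L) * (x₂ / y₂)) - (x₁ / y₁) * (x₂ / y₂) * (x₃ / y₃) * R := by
            linear_combination hz
          rw [e1]
          refine Valuation.map_sub_lt _ ihz ?_
          rw [map_mul, map_mul, map_mul]
          exact mul4_lt (val_z_lt_one hyp h₁ ihE) hzPv (val_z_lt_one hyp h₃ hE') hR

/-- Piece B2 (F1), from the line data and closure of `E₁` under addition. -/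
theorem stmt_F1_of [DecidableEq L] (hline : Stmt_line (L := L)) (hE1 : Stmt_E1_add (L := L)) :
    Stmt_F1 (L := L) := by
  intro A W hyp P hP hP0 n hn hnP
  obtain ⟨-, hz⟩ := nsmul_estimate hline hE1 hyp P hP hP0 n
  rw [hnP, zc_zero, zero_sub, Valuation.map_neg, map_mul, hn, one_mul] at hz
  exact lt_irrefl _ hz

end Fermat.Agent.S05.H28

end
-- ==== END Fermat.Agent.S05.H28_F1

-- ==== BEGIN Fermat.Agent.S05.H4_CplusCplus
section

set_option autoImplicit false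

namespace Fermat.Agent.S05.H4

open WeierstrassCurve WeierstrassCurve.Affine

section valuation

variable {L : Type*} [Field L] {Γ₀ : Type*} [LinearOrderedCommGroupWithZero Γ₀]
  (v : Valuation L Γ₀)

lemma val_eq_one_of_sq {x : L} (h : v (x ^ 2) = 1) : v x = 1 := by
  rw [map_pow] at h
  exact (pow_eq_one_iff_of_nonneg zero_le two_ne_zero).1 h

/-- `|a| = 1` from `|a² - 4b| = 1`, `|2| = 1`, `|b| < 1`. -/
lemma val_a_eq_one {a b : L} (h2 : v (2 : L) = 1) (hb : v b < 1) (hd : v (a ^ 2 - 4 * b) = 1) :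
    v a = 1 := by
  apply val_eq_one_of_sq
  have h4 : v (4 * b) < 1 := by
    have : (4 : L) = 2 * 2 := by norm_num
    rw [map_mul, this, map_mul, h2, one_mul, one_mul]; exact hb
  have : a ^ 2 = (a ^ 2 - 4 * b) + 4 * b := by ring
  rw [this, v.map_add_eq_of_lt_left (by rw [hd]; exact h4), hd]

/-- The data shared by all cases: line through two points of `C+`. -/
structure CData (a b β x₁ y₁ x₂ y₂ x₃ y₃ ℓ μ : L) : Prop where
  hβ : β ^ 2 = a
  h2 : v (2 : L) = 1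
  hb : v b < 1
  hd : v (a ^ 2 - 4 * b) = 1
  e₁ : y₁ = ℓ * x₁ + μ
  e₂ : y₂ = ℓ * x₂ + μ
  e₃ : -y₃ = ℓ * x₃ + μ
  s₁ : x₁ + x₂ + x₃ = ℓ ^ 2 - a
  s₂ : x₁ * x₂ + x₁ * x₃ + x₂ * x₃ = b - 2 * ℓ * μ
  s₃ : x₁ * x₂ * x₃ = μ ^ 2
  hx₁b : v b < v x₁
  hx₁ : v x₁ < 1
  ht₁ : v (y₁ - β * x₁) < v x₁
  hx₂b : v b < v x₂
  hx₂ : v x₂ < 1
  ht₂ : v (y₂ - β * x₂) < v x₂

namespace CData

variable {v} {a b β x₁ y₁ x₂ y₂ x₃ y₃ ℓ μ : L}
  (D : CData v a b β x₁ y₁ x₂ y₂ x₃ y₃ ℓ μ)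
include D

lemma va : v a = 1 := val_a_eq_one v D.h2 D.hb D.hd

lemma vβ : v β = 1 := by
  apply val_eq_one_of_sq; rw [D.hβ]; exact D.va

lemma x₁_pos : 0 < v x₁ := lt_of_le_of_lt zero_le D.hx₁b
lemma x₂_pos : 0 < v x₂ := lt_of_le_of_lt zero_le D.hx₂b
lemma x₁_ne : x₁ ≠ 0 := fun h => by have := D.x₁_pos; rw [h, map_zero] at this; exact lt_irrefl _ this
lemma x₂_ne : x₂ ≠ 0 := fun h => by have := D.x₂_pos; rw [h, map_zero] at this; exact lt_irrefl _ this
lemma X_pos : 0 < v (x₁ * x₂) := by rw [map_mul]; exact mul_pos D.x₁_pos D.x₂_pos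

/-- `ε = x₂ δ₁ + x₁ δ₂` is small compared to `x₁ x₂`. -/
lemma vε : v (x₂ * (y₁ - β * x₁) + x₁ * (y₂ - β * x₂)) < v (x₁ * x₂) := by
  apply v.map_add_lt
  · rw [map_mul, map_mul, mul_comm (v x₁)]
    exact mul_lt_mul_of_pos_left D.ht₁ D.x₂_pos
  · rw [map_mul, map_mul]
    exact mul_lt_mul_of_pos_left D.ht₂ D.x₁_pos

/-- `|x₂ y₁ + x₁ y₂| = |x₁ x₂|`. -/
lemma vS : v (x₂ * y₁ + x₁ * y₂) = v (x₁ * x₂) := by
  have e : x₂ * y₁ + x₁ * y₂ = 2 * β * (x₁ * x₂) + (x₂ * (y₁ - β * x₁) + x₁ * (y₂ - β * x₂)) := by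
    ring
  have h1 : v (2 * β * (x₁ * x₂)) = v (x₁ * x₂) := by
    rw [map_mul, map_mul, D.h2, D.vβ, one_mul, one_mul]
  rw [e, v.map_add_eq_of_lt_left (by rw [h1]; exact D.vε), h1]

/-- `μ (x₂ y₁ + x₁ y₂) = x₁ x₂ (b - x₁ x₂)`. -/
lemma μS : μ * (x₂ * y₁ + x₁ * y₂) = x₁ * x₂ * (b - x₁ * x₂) := by
  have e₁ := D.e₁; have e₂ := D.e₂; have s₂ := D.s₂; have s₃ := D.s₃
  subst e₁ e₂
  linear_combination (x₁ * x₂) * s₂ - (x₁ + x₂) * s₃

/-- `|μ| = |b - x₁ x₂|`. -/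
lemma vμ : v μ = v (b - x₁ * x₂) := by
  have h : v (x₁ * x₂) * v μ = v (x₁ * x₂) * v (b - x₁ * x₂) := by
    rw [mul_comm, ← D.vS, ← map_mul, D.μS, map_mul, D.vS]
  exact mul_left_cancel₀ D.X_pos.ne' h

lemma vx₃_mul : v x₃ * v (x₁ * x₂) = v μ ^ 2 := by
  have h := congrArg v D.s₃
  rw [map_mul, map_pow, mul_comm] at h
  exact h

/-- Case (i): `|b| < |x₁ x₂|`. -/
lemma case_i (h : v b < v (x₁ * x₂)) :
    v x₃ = v (x₁ * x₂) ∧ v (y₃ - β * x₃) < v x₃ := by
  have hμ : v μ = v (x₁ * x₂) := by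
    rw [D.vμ, v.map_sub_eq_of_lt_right h]
  have hx₃ : v x₃ = v (x₁ * x₂) := by
    have := D.vx₃_mul
    rw [hμ, sq] at this
    exact mul_right_cancel₀ D.X_pos.ne' this
  refine ⟨hx₃, ?_⟩
  have hx₃pos : 0 < v x₃ := by rw [hx₃]; exact D.X_pos
  -- `X (2βμ + X) = X b - μ ε`
  have key : x₁ * x₂ * (2 * β * μ + x₁ * x₂) =
      x₁ * x₂ * b - μ * (x₂ * (y₁ - β * x₁) + x₁ * (y₂ - β * x₂)) := by
    linear_combination D.μS
  have h1 : v (2 * β * μ + x₁ * x₂) < v (x₁ * x₂) := by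
    have : v (x₁ * x₂) * v (2 * β * μ + x₁ * x₂) < v (x₁ * x₂) * v (x₁ * x₂) := by
      rw [← map_mul, key]
      apply v.map_sub_lt
      · rw [map_mul]; exact mul_lt_mul_of_pos_left h D.X_pos
      · rw [map_mul, hμ]; exact mul_lt_mul_of_pos_left D.vε D.X_pos
    exact lt_of_mul_lt_mul_left this zero_le
  -- `X (2βx₃ + μ) = μ (2βμ + X)`
  have key2 : x₁ * x₂ * (2 * β * x₃ + μ) = μ * (2 * β * μ + x₁ * x₂) := by
    linear_combination (2 * β) * D.s₃
  have h2 : v (2 * β * x₃ + μ) < v x₃ := by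
    have : v (x₁ * x₂) * v (2 * β * x₃ + μ) < v (x₁ * x₂) * v x₃ := by
      rw [← map_mul, key2, map_mul, hμ, hx₃]
      exact mul_lt_mul_of_pos_left h1 D.X_pos
    exact lt_of_mul_lt_mul_left this zero_le
  -- `x₁ (y₃ - βx₃) = -x₁(2βx₃ + μ) + μ x₃ - δ₁ x₃`
  have key3 : x₁ * (y₃ - β * x₃) =
      -(x₁ * (2 * β * x₃ + μ)) + μ * x₃ - (y₁ - β * x₁) * x₃ := by
    have e₁ := D.e₁; have e₃ := D.e₃
    linear_combination (x₃) * e₁ - x₁ * e₃
  have : v x₁ * v (y₃ - β * x₃) < v x₁ * v x₃ := by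
    rw [← map_mul, key3]
    apply v.map_sub_lt
    · apply v.map_add_lt
      · rw [Valuation.map_neg, map_mul]; exact mul_lt_mul_of_pos_left h2 D.x₁_pos
      · rw [map_mul, hμ, map_mul]
        calc v x₁ * v x₂ * v x₃ < v x₁ * 1 * v x₃ := by
              apply mul_lt_mul_of_pos_right _ hx₃pos
              exact mul_lt_mul_of_pos_left D.hx₂ D.x₁_pos
          _ = v x₁ * v x₃ := by rw [mul_one]
    · rw [map_mul]; exact mul_lt_mul_of_pos_right D.ht₁ hx₃pos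
  exact lt_of_mul_lt_mul_left this zero_le

/-- Case (ii): `|x₁ x₂| < |b|`. -/
lemma case_ii (h : v (x₁ * x₂) < v b) :
    v x₃ * v (x₁ * x₂) = v b ^ 2 ∧ v (y₃ + β * x₃) < v x₃ := by
  have hμ : v μ = v b := by
    rw [D.vμ, v.map_sub_eq_of_lt_left h]
  have hx₃ : v x₃ * v (x₁ * x₂) = v b ^ 2 := by
    rw [D.vx₃_mul, hμ]
  refine ⟨hx₃, ?_⟩
  have hbpos : 0 < v b := lt_of_le_of_lt zero_le h
  have hbx₃ : v b < v x₃ := by
    have : v b * v (x₁ * x₂) < v x₃ * v (x₁ * x₂) := by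
      rw [hx₃, sq]; exact mul_lt_mul_of_pos_left h hbpos
    exact lt_of_mul_lt_mul_right this zero_le
  have hx₃pos : 0 < v x₃ := lt_trans hbpos hbx₃
  have key3 : x₁ * (y₃ + β * x₃) = μ * x₃ - (y₁ - β * x₁) * x₃ - μ * x₁ := by
    have e₁ := D.e₁; have e₃ := D.e₃
    linear_combination (x₃) * e₁ - x₁ * e₃
  have : v x₁ * v (y₃ + β * x₃) < v x₁ * v x₃ := by
    rw [← map_mul, key3]
    apply v.map_sub_lt
    · apply v.map_sub_lt
      · rw [map_mul, hμ]; exact mul_lt_mul_of_pos_right D.hx₁b hx₃pos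
      · rw [map_mul]; exact mul_lt_mul_of_pos_right D.ht₁ hx₃pos
    · rw [map_mul, hμ, mul_comm]; exact mul_lt_mul_of_pos_left hbx₃ D.x₁_pos
  exact lt_of_mul_lt_mul_left this zero_le

/-- Case (iii): `|x₁ x₂| = |b|`. -/
lemma case_iii (h : v (x₁ * x₂) = v b) : v x₃ ≤ v b := by
  have hμ : v μ ≤ v b := by
    rw [D.vμ]; exact v.map_sub_le le_rfl h.le
  have hbpos : 0 < v b := by rw [← h]; exact D.X_pos
  have : v x₃ * v b ≤ v b * v b := by
    rw [← h, D.vx₃_mul, h, sq]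
    exact mul_le_mul' hμ hμ
  exact le_of_mul_le_mul_right this hbpos

/-- The two points are not opposite. -/
lemma ne_neg_aux (hx : x₁ = x₂) (hy : y₁ = -y₂) : False := by
  have h1 := D.ht₁
  have h2 := D.ht₂
  rw [hy, hx] at h1
  have e : (2 * β) * x₂ = -((-y₂ - β * x₂) + (y₂ - β * x₂)) := by ring
  have : v ((2 * β) * x₂) < v x₂ := by
    rw [e, Valuation.map_neg]; exact v.map_add_lt h1 h2
  rw [map_mul, map_mul, D.h2, D.vβ, one_mul, one_mul] at this
  exact lt_irrefl _ this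

end CData

end valuation

section points

variable {L : Type*} [Field L] [DecidableEq L]

/-- Piece D, case `(C+, C+)`: the sum of two points `P₁, P₂` of the region
`C+ = {|b| < |x| < 1, |y - βx| < |x|}` is nonzero, and lies in `C+` with `|x₃| = |x₁x₂|` if
`|b| < |x₁x₂|`, in `C-` with `|x₃| |x₁x₂| = |b|²` if `|x₁x₂| < |b|`, and in `{|x| ≤ |b|}` if
`|x₁x₂| = |b|`. -/
theorem cplus_add_cplus (hline : Stmt_line (L := L))
    (A : ValuationSubring L) (W : Affine L) (hyp : ModelHyp A W) (hb : A.valuation W.a₄ < 1)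
    (β : L) (hβ : β ^ 2 = W.a₂)
    {x₁ y₁ x₂ y₂ : L} (h₁ : W.Nonsingular x₁ y₁) (h₂ : W.Nonsingular x₂ y₂)
    (hx₁b : A.valuation W.a₄ < A.valuation x₁) (hx₁ : A.valuation x₁ < 1)
    (ht₁ : A.valuation (y₁ - β * x₁) < A.valuation x₁)
    (hx₂b : A.valuation W.a₄ < A.valuation x₂) (hx₂ : A.valuation x₂ < 1)
    (ht₂ : A.valuation (y₂ - β * x₂) < A.valuation x₂) :
    Point.some x₁ y₁ h₁ + Point.some x₂ y₂ h₂ ≠ 0 ∧
    ∀ (x₃ y₃ : L) (h₃ : W.Nonsingular x₃ y₃),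
      Point.some x₁ y₁ h₁ + Point.some x₂ y₂ h₂ = Point.some x₃ y₃ h₃ →
      (A.valuation W.a₄ < A.valuation (x₁ * x₂) →
        A.valuation x₃ = A.valuation (x₁ * x₂) ∧
          A.valuation (y₃ - β * x₃) < A.valuation x₃) ∧
      (A.valuation (x₁ * x₂) < A.valuation W.a₄ →
        A.valuation x₃ * A.valuation (x₁ * x₂) = A.valuation W.a₄ ^ 2 ∧
          A.valuation (y₃ + β * x₃) < A.valuation x₃) ∧
      (A.valuation (x₁ * x₂) = A.valuation W.a₄ → A.valuation x₃ ≤ A.valuation W.a₄) := by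
  constructor
  · intro h0
    have hneg : Point.some x₁ y₁ h₁ = -Point.some x₂ y₂ h₂ := eq_neg_of_add_eq_zero_left h0
    rw [Point.neg_some] at hneg
    have hx : x₁ = x₂ := by injection hneg
    have hy : y₁ = W.negY x₂ y₂ := by injection hneg
    have hy' : y₁ = -y₂ := by
      rw [hy, Affine.negY, hyp.a₁, hyp.a₃]; ring
    -- contradiction with `|2β| = 1`
    have hvβ : A.valuation β = 1 := by
      apply val_eq_one_of_sq; rw [hβ]; exact val_a_eq_one _ hyp.two hb hyp.disc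
    rw [hy', hx] at ht₁
    have e : (2 * β) * x₂ = -((-y₂ - β * x₂) + (y₂ - β * x₂)) := by ring
    have : A.valuation ((2 * β) * x₂) < A.valuation x₂ := by
      rw [e, Valuation.map_neg]; exact (A.valuation).map_add_lt ht₁ ht₂
    rw [map_mul, map_mul, hyp.two, hvβ, one_mul, one_mul] at this
    exact lt_irrefl _ this
  · intro x₃ y₃ h₃ hadd
    obtain ⟨ℓ, μ, e₁, e₂, e₃, s₁, s₂, s₃⟩ :=
      hline W hyp.a₁ hyp.a₃ hyp.a₆ x₁ y₁ x₂ y₂ x₃ y₃ h₁ h₂ h₃ hadd
    have D : CData (A.valuation) W.a₂ W.a₄ β x₁ y₁ x₂ y₂ x₃ y₃ ℓ μ :=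
      ⟨hβ, hyp.two, hb, hyp.disc, e₁, e₂, e₃, s₁, s₂, s₃, hx₁b, hx₁, ht₁, hx₂b, hx₂, ht₂⟩
    exact ⟨D.case_i, D.case_ii, D.case_iii⟩

end points

end Fermat.Agent.S05.H4

end
-- ==== END Fermat.Agent.S05.H4_CplusCplus

-- ==== BEGIN Fermat.Agent.S05.Inertia
section

/-!
# S05, piece F: inertia unpacking (helper37)
-/

set_option autoImplicit false

namespace Fermat.Agent.S05

/-- `AlgebraicClosure ℚ` is algebraic over `ℚ` for the `ℚ`-algebra structure that instance search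
finds first (`DivisionRing.toRatAlgebra`). -/
theorem isAlgebraic_algebraicClosure_rat : Algebra.IsAlgebraic ℚ (AlgebraicClosure ℚ) := by
  refine ⟨fun x => ?_⟩
  obtain ⟨p, hp0, hp⟩ := (AlgebraicClosure.isAlgebraic ℚ).isAlgebraic x
  refine ⟨p, hp0, ?_⟩
  rw [Polynomial.aeval_def] at hp ⊢
  have h : algebraMap ℚ (AlgebraicClosure ℚ) =
      @algebraMap ℚ (AlgebraicClosure ℚ) _ _ (AlgebraicClosure.instAlgebra ℚ) :=
    Subsingleton.elim _ _
  rw [h]
  exact hp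

/-- Piece F: an element of the inertia group at `A` preserves the valuation of `A` and moves
every element of `A` by an element of the maximal ideal. -/
theorem inertia : Stmt_inertia := by
  intro A σ hσ
  haveI := isAlgebraic_algebraicClosure_rat
  exact H37.inertia_facts A hσ

end Fermat.Agent.S05

end
-- ==== END Fermat.Agent.S05.Inertia

-- ==== BEGIN Fermat.Agent.S05.Line
section

set_option autoImplicit false

namespace Fermat.Agent.S05

open WeierstrassCurve WeierstrassCurve.Affine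

variable {L : Type*} [Field L]

lemma legendre_equation_iff {W : Affine L} (h₁ : W.a₁ = 0) (h₃ : W.a₃ = 0) (h₆ : W.a₆ = 0)
    (x y : L) : W.Equation x y ↔ y ^ 2 = x ^ 3 + W.a₂ * x ^ 2 + W.a₄ * x := by
  rw [Affine.equation_iff, h₁, h₃, h₆]
  constructor <;> intro h <;> linear_combination h

lemma legendre_negY {W : Affine L} (h₁ : W.a₁ = 0) (h₃ : W.a₃ = 0) (x y : L) :
    W.negY x y = -y := by
  simp [Affine.negY, h₁, h₃]

variable [DecidableEq L]

theorem line : Stmt_line (L := L) := by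
  intro W h₁ h₃ h₆ x₁ y₁ x₂ y₂ x₃ y₃ hP₁ hP₂ hP₃ hadd
  have e₁ := (legendre_equation_iff h₁ h₃ h₆ x₁ y₁).1 hP₁.1
  have e₂ := (legendre_equation_iff h₁ h₃ h₆ x₂ y₂).1 hP₂.1
  by_cases hxy : x₁ = x₂ ∧ y₁ = W.negY x₂ y₂
  · rw [Point.add_of_Y_eq hxy.1 hxy.2] at hadd
    exact absurd hadd.symm (Point.some_ne_zero hP₃)
  rw [Point.add_some hxy] at hadd
  have hx₃ : W.addX x₁ x₂ (W.slope x₁ x₂ y₁ y₂) = x₃ := by
    injection hadd
  have hy₃ : W.addY x₁ x₂ y₁ (W.slope x₁ x₂ y₁ y₂) = y₃ := by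
    injection hadd
  obtain ⟨ℓ, hℓ⟩ : ∃ ℓ, ℓ = W.slope x₁ x₂ y₁ y₂ := ⟨_, rfl⟩
  rw [← hℓ] at hx₃ hy₃
  simp only [addX, h₁] at hx₃
  simp only [addY, negAddY, addX, legendre_negY h₁ h₃, h₁] at hy₃
  -- the key relation (*) : divided difference of the cubic along the line
  have key : x₁ ^ 2 + x₁ * x₂ + x₂ ^ 2 + W.a₂ * (x₁ + x₂) + W.a₄ - ℓ ^ 2 * (x₁ + x₂)
      - 2 * ℓ * (y₁ - ℓ * x₁) = 0 ∧ y₂ = ℓ * x₂ + (y₁ - ℓ * x₁) := by
    by_cases hx : x₁ = x₂
    · have hy : y₁ ≠ W.negY x₂ y₂ := fun h => hxy ⟨hx, h⟩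
      have hyy := Y_eq_of_Y_ne hP₁.1 hP₂.1 hx hy
      subst hx; subst hyy
      have hd : y₁ - W.negY x₁ y₁ ≠ 0 := sub_ne_zero.2 hy
      have hℓ' : ℓ * (y₁ - W.negY x₁ y₁) = 3 * x₁ ^ 2 + 2 * W.a₂ * x₁ + W.a₄ - W.a₁ * y₁ := by
        rw [hℓ, slope_of_Y_ne rfl hy, div_mul_cancel₀ _ hd]
      rw [legendre_negY h₁ h₃, h₁] at hℓ'
      refine ⟨?_, by ring⟩
      linear_combination (-1 : L) * hℓ'
    · have hd : x₁ - x₂ ≠ 0 := sub_ne_zero.2 hx
      have hℓ' : ℓ * (x₁ - x₂) = y₁ - y₂ := by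
        rw [hℓ, slope_of_X_ne hx, div_mul_cancel₀ _ hd]
      refine ⟨?_, by linear_combination hℓ'⟩
      apply mul_left_cancel₀ hd
      linear_combination (-1 : L) * e₁ + e₂ + (ℓ * (x₁ - x₂) - y₁ - y₂) * hℓ'
  obtain ⟨key, hy₂⟩ := key
  refine ⟨ℓ, y₁ - ℓ * x₁, by ring, hy₂, ?_, ?_, ?_, ?_⟩
  · rw [← hy₃, ← hx₃]; ring
  · rw [← hx₃]; ring
  · -- Vieta 2
    rw [← hx₃]
    linear_combination (-1 : L) * key
  · -- Vieta 3
    rw [← hx₃]
    linear_combination (-1 : L) * e₁ - x₁ * key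

end Fermat.Agent.S05
end
-- ==== END Fermat.Agent.S05.Line

-- ==== BEGIN Fermat.Agent.S05.M1Defs
section

set_option autoImplicit false

namespace Fermat.Agent.S05

open WeierstrassCurve WeierstrassCurve.Affine

section regions

variable {L : Type*} [Field L]

/-- `T + E₀`: affine point with `|x| ≤ |b|` (this includes `T = (0,0)`). -/
def InET (A : ValuationSubring L) {W : Affine L} : W.Point → Prop
  | .zero => False
  | .some x _ _ => A.valuation x ≤ A.valuation W.a₄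

/-- The region `C₊`: `|b| < |x| < 1` and `|y - βx| < |x|`. -/
def InCp (A : ValuationSubring L) {W : Affine L} (β : L) : W.Point → Prop
  | .zero => False
  | .some x y _ => A.valuation W.a₄ < A.valuation x ∧ A.valuation x < 1 ∧
      A.valuation (y - β * x) < A.valuation x

/-- The region `C₋`: `|b| < |x| < 1` and `|y + βx| < |x|`. -/
def InCm (A : ValuationSubring L) {W : Affine L} (β : L) : W.Point → Prop
  | .zero => False
  | .some x y _ => A.valuation W.a₄ < A.valuation x ∧ A.valuation x < 1 ∧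
      A.valuation (y + β * x) < A.valuation x

/-- `|x(P)|`, with junk value `0` at the origin. -/
noncomputable def xVal (A : ValuationSubring L) {W : Affine L} : W.Point → A.ValueGroup
  | .zero => 0
  | .some x _ _ => A.valuation x

variable [DecidableEq L]

/-- D1: `E₀` is closed under addition (multiplicative case). -/
def Stmt_M1_E0E0 : Prop :=
  ∀ (A : ValuationSubring L) (W : Affine L), ModelHyp A W → A.valuation W.a₄ < 1 →
  ∀ P Q : W.Point, InE0 A P → InE0 A Q → InE0 A (P + Q)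

/-- D2: `E₀ + C₊ ⊆ C₊`, preserving `|x|`. -/
def Stmt_M1_E0Cp : Prop :=
  ∀ (A : ValuationSubring L) (W : Affine L), ModelHyp A W → A.valuation W.a₄ < 1 →
  ∀ β : L, β ^ 2 = W.a₂ →
  ∀ P Q : W.Point, InE0 A P → InCp A β Q →
    InCp A β (P + Q) ∧ xVal A (P + Q) = xVal A Q

/-- D3: `C₊ + C₊`, three cases according to `|x₁x₂|` versus `|b|`. -/
def Stmt_M1_CpCp : Prop :=
  ∀ (A : ValuationSubring L) (W : Affine L), ModelHyp A W → A.valuation W.a₄ < 1 →
  ∀ β : L, β ^ 2 = W.a₂ →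
  ∀ P Q : W.Point, InCp A β P → InCp A β Q →
    (A.valuation W.a₄ < xVal A P * xVal A Q →
      InCp A β (P + Q) ∧ xVal A (P + Q) = xVal A P * xVal A Q) ∧
    (xVal A P * xVal A Q < A.valuation W.a₄ →
      InCm A β (P + Q) ∧ xVal A (P + Q) * (xVal A P * xVal A Q) = A.valuation W.a₄ ^ 2) ∧
    (xVal A P * xVal A Q = A.valuation W.a₄ → InET A (P + Q))

/-- D4: translation by `T = (0,0)`: `(x,y) + T = (b/x, -b y/x²)` for `x ≠ 0`. -/
def Stmt_M1_addT : Prop :=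
  ∀ (W : Affine L), W.a₁ = 0 → W.a₃ = 0 → W.a₆ = 0 →
  ∀ (hT : W.Nonsingular 0 0) (x y : L) (h : W.Nonsingular x y), x ≠ 0 →
    ∃ h' : W.Nonsingular (W.a₄ / x) (-(W.a₄ * y / x ^ 2)),
      Point.some x y h + Point.some 0 0 hT = Point.some _ _ h'

end regions

end Fermat.Agent.S05

end
-- ==== END Fermat.Agent.S05.M1Defs

-- ==== BEGIN Fermat.Agent.S05.Transfer
section

set_option autoImplicit false

namespace Fermat.Agent.S05

open WeierstrassCurve WeierstrassCurve.Affine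

namespace H14

/-- The variable change `x = 4X - e`, `y = 8Y + 4X` over any field extension `L` of `ℚ`. -/
lemma isVarChange_modelOf {L : Type*} [Field L] [Algebra ℚ L] (W : Affine ℚ) (h₁ : W.a₁ = 1)
    (h₃ : W.a₃ = 0) (h₆ : W.a₆ = 0) (e : ℚ)
    (he : e ^ 3 + (4 * W.a₂ + 1) * e ^ 2 + 16 * W.a₄ * e = 0) :
    IsVarChange (W⁄L) ((modelOf W e)⁄L) (2 : L) (algebraMap ℚ L (-e)) (1 : L) (0 : L) := by
  have : CharZero L := algebraRat.charZero L
  have h2 : (2 : L) ≠ 0 := two_ne_zero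
  have he' : (algebraMap ℚ L e) ^ 3 + (4 * algebraMap ℚ L W.a₂ + 1) * (algebraMap ℚ L e) ^ 2
      + 16 * algebraMap ℚ L W.a₄ * algebraMap ℚ L e = 0 := by
    have := congrArg (algebraMap ℚ L) he
    simpa only [map_add, map_mul, map_pow, map_ofNat, map_one, map_zero] using this
  refine ⟨h2, ?_, ?_, ?_, ?_, ?_⟩
  all_goals
    simp only [modelOf, Affine.baseChange, WeierstrassCurve.baseChange, WeierstrassCurve.map,
      h₁, h₃, h₆, map_one, map_zero, map_neg, map_add, map_mul, map_pow, map_ofNat]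
  · ring
  · ring
  · ring
  · ring
  · linear_combination he'

end H14

theorem transfer : Stmt_transfer := by
  intro W h₁ h₃ h₆ e he
  have hvc := H14.isVarChange_modelOf (L := AlgebraicClosure ℚ) W h₁ h₃ h₆ e he
  refine ⟨hvc.addEquiv, ?_⟩
  intro σ P
  rcases P with _ | ⟨X, Y, hXY⟩
  · rfl
  · rw [WeierstrassCurve.Affine.Point.algEquiv_smul_def, Affine.Point.map_some,
      hvc.addEquiv_some, hvc.addEquiv_some,
      WeierstrassCurve.Affine.Point.algEquiv_smul_def, Affine.Point.map_some]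
    apply H14.IsVarChange.some_congr
    · simp only [H14.fx, map_add, map_mul, map_pow, map_ofNat, AlgEquiv.coe_toAlgHom,
        AlgEquiv.commutes]
    · simp only [H14.fy, map_add, map_mul, map_pow, map_ofNat, map_zero, map_one,
        AlgEquiv.coe_toAlgHom]

end Fermat.Agent.S05

end
-- ==== END Fermat.Agent.S05.Transfer

-- ==== BEGIN Fermat.Agent.S13.WP3.H15_Arith2
section

/-!
# S13 / WP3 piece 2E: arithmetic of the Frey model at the prime `2` (helper15)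

* `Fermat.Agent.S13.WP3.H15.arith2 : Stmt2_arith`
* `Fermat.Agent.S13.WP3.H15.ratVal : Stmt2_ratVal`
* `Fermat.Agent.S13.WP3.H15.ratRes : Stmt2_ratRes`
-/

set_option autoImplicit false

namespace Fermat.Agent.S13.WP3.H15

open WeierstrassCurve WeierstrassCurve.Affine
open Fermat.Agent.S05.H15

local notation "K" => AlgebraicClosure ℚ

/-- `|2| < 1` at a place over `2`. -/
theorem val_two_lt {A : ValuationSubring K} (hA : A.LiesOverPrime 2) :
    A.valuation (2 : K) < 1 := by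
  have h : ((2 : ℕ) : K) ∈ A.nonunits := hA
  have := valuation_lt_one_of_mem_nonunits h
  simpa using this

theorem val_two_ne_zero (A : ValuationSubring K) : A.valuation (2 : K) ≠ 0 := by
  rw [Ne, map_eq_zero]
  exact two_ne_zero

/-- odd integers are units at a place over `2` -/
theorem val_odd {A : ValuationSubring K} (hA : A.LiesOverPrime 2) {n : ℤ}
    (hn : ¬ (2 : ℤ) ∣ n) : A.valuation (n : K) = 1 := by
  have h : ((2 : ℕ) : K) ∈ A.nonunits := hA
  exact valuation_intCast_eq_one_of_not_dvd Nat.prime_two h (by exact_mod_cast hn)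

/-- even integers are nonunits at a place over `2` -/
theorem val_even {A : ValuationSubring K} (hA : A.LiesOverPrime 2) {n : ℤ}
    (hn : (2 : ℤ) ∣ n) : A.valuation (n : K) < 1 := by
  have h : ((2 : ℕ) : K) ∈ A.nonunits := hA
  exact valuation_intCast_lt_one_of_dvd h (by exact_mod_cast hn)

/-- a nonzero integer is `2 ^ k * m` with `m` odd -/
theorem int_two_pow_mul_odd {n : ℤ} (hn : n ≠ 0) :
    ∃ (k : ℕ) (m : ℤ), ¬ (2 : ℤ) ∣ m ∧ n = 2 ^ k * m := by
  have hfin : FiniteMultiplicity (2 : ℤ) n :=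
    Int.finiteMultiplicity_iff.2 ⟨by decide, hn⟩
  obtain ⟨m, hm, hdvd⟩ := hfin.exists_eq_pow_mul_and_not_dvd
  exact ⟨_, m, hdvd, hm⟩

/-- valuation of a nonzero integer is a power of `|2|` -/
theorem val_int {A : ValuationSubring K} (hA : A.LiesOverPrime 2) {n : ℤ} (hn : n ≠ 0) :
    ∃ k : ℕ, A.valuation (n : K) = A.valuation (2 : K) ^ k := by
  obtain ⟨k, m, hm, rfl⟩ := int_two_pow_mul_odd hn
  refine ⟨k, ?_⟩
  push_cast
  rw [map_mul, map_pow, val_odd hA hm, mul_one]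

theorem ratVal : Stmt2_ratVal := by
  intro A hA r hr
  have hnum : r.num ≠ 0 := Rat.num_ne_zero.2 hr
  have hden : (r.den : ℤ) ≠ 0 := by exact_mod_cast r.den_ne_zero
  obtain ⟨k₁, h₁⟩ := val_int hA hnum
  obtain ⟨k₂, h₂⟩ := val_int hA hden
  refine ⟨(k₁ : ℤ) - k₂, ?_⟩
  have hr' : algebraMap ℚ K r = (r.num : K) / ((r.den : ℤ) : K) := by
    conv_lhs => rw [← Rat.num_div_den r]
    simp
  rw [hr', map_div₀, h₁, h₂, zpow_sub₀ (val_two_ne_zero A), zpow_natCast, zpow_natCast]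

theorem ratRes : Stmt2_ratRes := by
  intro A hA r hle
  have hr' : algebraMap ℚ K r = (r.num : K) / ((r.den : ℤ) : K) := by
    conv_lhs => rw [← Rat.num_div_den r]
    simp
  have hdenK : ((r.den : ℤ) : K) ≠ 0 := by
    have : (r.den : ℤ) ≠ 0 := by exact_mod_cast r.den_ne_zero
    exact_mod_cast this
  -- the denominator is odd
  have hdodd : ¬ (2 : ℤ) ∣ (r.den : ℤ) := by
    intro hd
    have hnodd : ¬ (2 : ℤ) ∣ r.num := by
      intro hn
      have hcop : Nat.Coprime r.num.natAbs r.den := r.reduced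
      have h1 : (2 : ℕ) ∣ r.num.natAbs := by
        have := Int.natAbs_dvd_natAbs.2 hn
        simpa using this
      have h2 : (2 : ℕ) ∣ r.den := by exact_mod_cast hd
      have := Nat.dvd_gcd h1 h2
      rw [hcop] at this
      omega
    have h1 : A.valuation ((r.den : ℤ) : K) < 1 := val_even hA hd
    have h2 : A.valuation (r.num : K) = 1 := val_odd hA hnodd
    rw [hr', map_div₀, h2] at hle
    have h3 : A.valuation ((r.den : ℤ) : K) ≠ 0 := by
      rw [Ne, map_eq_zero]; exact hdenK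
    rw [div_le_iff₀ (zero_lt_iff.2 h3), one_mul] at hle
    exact absurd h1 (not_lt.2 hle)
  have hden1 : A.valuation ((r.den : ℤ) : K) = 1 := val_odd hA hdodd
  by_cases hn : (2 : ℤ) ∣ r.num
  · left
    rw [hr', map_div₀, hden1, div_one]
    exact val_even hA hn
  · right
    have h2 : (2 : ℤ) ∣ r.num - r.den := by omega
    have : algebraMap ℚ K r - 1 = ((r.num - r.den : ℤ) : K) / ((r.den : ℤ) : K) := by
      rw [hr']
      field_simp
      push_cast
      ring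
    rw [this, map_div₀, hden1, div_one]
    exact val_even hA h2

/-! ### The Frey package at `2` -/

theorem frey_two_dvd_b (P : FreyPackage) : (2 : ℤ) ∣ P.b :=
  (ZMod.intCast_zmod_eq_zero_iff_dvd P.b 2).1 P.hb2

theorem frey_a_modEq (P : FreyPackage) : P.a ≡ -1 [ZMOD 4] := by
  have h : (P.a : ZMod 4) = ((-1 : ℤ) : ZMod 4) := by
    rw [P.ha4]; decide
  exact (ZMod.intCast_eq_intCast_iff P.a (-1) 4).1 h

theorem frey_a_pow_modEq (P : FreyPackage) : P.a ^ P.p ≡ -1 [ZMOD 4] := by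
  have h := (frey_a_modEq P).pow P.p
  rwa [P.hp_odd.neg_one_pow] at h

theorem frey_a_odd (P : FreyPackage) : ¬ (2 : ℤ) ∣ P.a := by
  intro h
  have h1 := frey_a_modEq P
  have h2 : P.a % 4 = 3 := by
    have := h1
    unfold Int.ModEq at this
    omega
  omega

theorem frey_four_dvd (P : FreyPackage) : (4 : ℤ) ∣ P.b ^ P.p - 1 - P.a ^ P.p := by
  obtain ⟨b₁, hb₁⟩ := frey_two_dvd_b P
  have hp2 : 2 ≤ P.p := le_trans (by norm_num) P.hp5
  have h4 : (4 : ℤ) ∣ P.b ^ P.p := by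
    obtain ⟨k, hk⟩ := Nat.exists_eq_add_of_le hp2
    rw [hb₁, hk, pow_add, mul_pow]
    exact Dvd.dvd.mul_right ⟨b₁ ^ 2, by ring⟩ _
  have h5 := frey_a_pow_modEq P
  have h6 : (4 : ℤ) ∣ P.a ^ P.p + 1 := by
    have := h5.dvd
    have h7 : P.a ^ P.p + 1 = -(-1 - P.a ^ P.p) := by ring
    rw [h7]
    exact (dvd_neg).2 this
  have h8 : P.b ^ P.p - 1 - P.a ^ P.p = P.b ^ P.p - (P.a ^ P.p + 1) := by ring
  rw [h8]
  exact dvd_sub h4 h6

theorem arith2 : Stmt2_arith := by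
  intro P A hA
  have hcast : ∀ n : ℤ, algebraMap ℚ K ((n : ℤ) : ℚ) = ((n : ℤ) : K) := fun n => by simp
  have h2lt : A.valuation (2 : K) < 1 := val_two_lt hA
  -- `a₂` is an integer
  obtain ⟨a₂', ha₂'⟩ := frey_four_dvd P
  have ha₂ : P.freyCurve.a₂ = ((a₂' : ℤ) : ℚ) := by
    simp only [FreyPackage.freyCurve]
    have : ((P.b : ℚ) ^ P.p - 1 - (P.a : ℚ) ^ P.p) = (((P.b ^ P.p - 1 - P.a ^ P.p : ℤ)) : ℚ) := by
      push_cast; ring
    rw [this, ha₂']
    push_cast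
    field_simp
  -- decomposition of `b`
  obtain ⟨v, b', hb', hb⟩ := int_two_pow_mul_odd P.hb0
  have hv : 1 ≤ v := by
    rcases Nat.eq_zero_or_pos v with h0 | h0
    · exfalso
      rw [h0, pow_zero, one_mul] at hb
      exact hb' (hb ▸ frey_two_dvd_b P)
    · exact h0
  have hp5 := P.hp5
  have hpv : 5 ≤ P.p * v := by nlinarith
  obtain ⟨m, hm⟩ : ∃ m : ℕ, P.p * v = m + 4 := ⟨P.p * v - 4, by omega⟩
  have ha₄ : P.freyCurve.a₄ = (((-(P.a ^ P.p) * (2 ^ m * b' ^ P.p) : ℤ)) : ℚ) := by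
    simp only [FreyPackage.freyCurve]
    have hbq : (P.b : ℚ) = 2 ^ v * (b' : ℚ) := by
      have := congrArg (fun z : ℤ => (z : ℚ)) hb
      simpa using this
    rw [hbq, mul_pow, ← pow_mul, mul_comm v P.p, hm, pow_add]
    push_cast
    field_simp
    ring
  have hvalb' : A.valuation ((b' ^ P.p : ℤ) : K) = 1 := by
    push_cast
    rw [map_pow, val_odd hA hb', one_pow]
  have hvala : A.valuation ((P.a ^ P.p : ℤ) : K) = 1 := by
    push_cast
    rw [map_pow, val_odd hA (frey_a_odd P), one_pow]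
  have hvala₄ : A.valuation (algebraMap ℚ K P.freyCurve.a₄) = A.valuation (2 : K) ^ m := by
    rw [ha₄, hcast]
    push_cast
    rw [neg_mul, Valuation.map_neg, map_mul, map_mul, map_pow, map_pow, map_pow,
      val_odd hA (frey_a_odd P), val_odd hA hb']
    simp
  have hm0 : 0 < m := by omega
  refine ⟨⟨?_, ?_, ?_, ?_, ?_, ?_, h2lt⟩, ?_, m, hm0, ?_, hvala₄⟩
  · simp [FreyPackage.freyCurve]
  · simp [FreyPackage.freyCurve]
  · simp [FreyPackage.freyCurve]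
  · show A.valuation (algebraMap ℚ K P.freyCurve.a₂) ≤ 1
    rw [ha₂, hcast]
    exact valuation_intCast_le_one A _
  · show A.valuation (algebraMap ℚ K P.freyCurve.a₄) < 1
    rw [hvala₄]
    exact pow_lt_one₀ zero_le h2lt hm0.ne'
  · show algebraMap ℚ K P.freyCurve.a₄ ≠ 0
    intro h0
    have := hvala₄
    rw [h0, map_zero] at this
    exact pow_ne_zero m (val_two_ne_zero A) this.symm
  · have h : ((2 : ℕ) : K) ∈ A.nonunits := hA
    exact valuation_natCast_eq_one_of_ne Nat.prime_two h P.pp (by omega)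
  · rw [Nat.coprime_comm, P.pp.coprime_iff_not_dvd]
    intro hd
    rcases (P.pp.dvd_mul).1 hd with h | h
    · have := Nat.le_of_dvd (by norm_num) h
      omega
    · have h1 : P.p ∣ m + 4 := ⟨v, hm.symm⟩
      have h2 : P.p ∣ 4 := (Nat.dvd_add_right h).1 h1
      have := Nat.le_of_dvd (by norm_num) h2
      omega

end Fermat.Agent.S13.WP3.H15

end
-- ==== END Fermat.Agent.S13.WP3.H15_Arith2

-- ==== BEGIN Fermat.Agent.S13.WP3.H38_SameRed
section

set_option autoImplicit false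

namespace Fermat.Agent.S13.WP3.H38

open WeierstrassCurve WeierstrassCurve.Affine

variable {L : Type*} [Field L]

lemma sr_equation_iff {W : Affine L} (h₁ : W.a₁ = 1) (h₃ : W.a₃ = 0) (h₆ : W.a₆ = 0)
    (x y : L) : W.Equation x y ↔ y ^ 2 + x * y = x ^ 3 + W.a₂ * x ^ 2 + W.a₄ * x := by
  rw [Affine.equation_iff, h₁, h₃, h₆]
  constructor <;> intro h <;> linear_combination h

lemma sr_negY {W : Affine L} (h₁ : W.a₁ = 1) (h₃ : W.a₃ = 0) (x y : L) :
    W.negY x y = -y - x := by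
  simp [Affine.negY, h₁, h₃]

/-- On the model, a point with `|x| = 1` has `|y| ≤ 1`. -/
lemma sr_y_le {A : ValuationSubring L} {W : Affine L} (hyp : ModelHyp2 A W) {x y : L}
    (he : W.Equation x y) (hx : A.valuation x = 1) : A.valuation y ≤ 1 := by
  by_contra hcon
  have hy : 1 < A.valuation y := not_le.1 hcon
  have e := (sr_equation_iff hyp.a₁ hyp.a₃ hyp.a₆ x y).1 he
  -- left side has valuation `|y|²`
  have hxy : A.valuation (x * y) = A.valuation y := by rw [map_mul, hx, one_mul]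
  have hy2 : A.valuation y < A.valuation (y ^ 2) := by
    rw [map_pow, pow_two]
    calc A.valuation y = 1 * A.valuation y := (one_mul _).symm
      _ < A.valuation y * A.valuation y := by
        have h0 : (0 : A.ValueGroup) < A.valuation y := lt_trans zero_lt_one hy
        exact mul_lt_mul_of_pos_right hy h0
  have hL : A.valuation (y ^ 2 + x * y) = A.valuation (y ^ 2) :=
    Valuation.map_add_eq_of_lt_left _ (by rw [hxy]; exact hy2)
  have hL1 : 1 < A.valuation (y ^ 2 + x * y) := by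
    rw [hL]; exact lt_trans hy hy2
  -- right side has valuation `≤ 1`
  have h3 : A.valuation (x ^ 3) ≤ 1 := by rw [map_pow, hx, one_pow]
  have h2 : A.valuation (W.a₂ * x ^ 2) ≤ 1 := by
    rw [map_mul, map_pow, hx, one_pow, mul_one]; exact hyp.a_le
  have h1 : A.valuation (W.a₄ * x) ≤ 1 := by
    rw [map_mul, hx, mul_one]; exact hyp.b_lt.le
  have hR : A.valuation (x ^ 3 + W.a₂ * x ^ 2 + W.a₄ * x) ≤ 1 :=
    (Valuation.map_add_le _ ((Valuation.map_add_le _ h3 h2)) h1)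
  rw [e] at hL1
  exact absurd hL1 (not_lt.2 hR)

variable [DecidableEq L]

/-- Piece (2C). -/
theorem sameRed : Stmt2_sameRed (L := L) := by
  intro A W hyp x y x' y' h h' hx hxx hyy
  -- `|x'| = 1`
  have hx' : A.valuation x' = 1 := by
    have : x' = x - (x - x') := by ring
    rw [this, Valuation.map_sub_eq_of_lt_left _ (by rw [hx]; exact hxx), hx]
  have hy' : A.valuation y' ≤ 1 := sr_y_le hyp h'.1 hx'
  have h2y' : A.valuation (2 * y') < 1 := by
    rw [map_mul]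
    calc A.valuation 2 * A.valuation y' ≤ A.valuation 2 * 1 := by
          exact mul_le_mul' le_rfl hy'
      _ = A.valuation 2 := mul_one _
      _ < 1 := hyp.two
  -- the numerator `y + y' + x'` has valuation `1`
  have hnum : A.valuation (y - W.negY x' y') = 1 := by
    rw [sr_negY hyp.a₁ hyp.a₃]
    have : y - (-y' - x') = x' + (2 * y' + (y - y')) := by ring
    rw [this, Valuation.map_add_eq_of_lt_left _ (by
      rw [hx']; exact Valuation.map_add_lt _ h2y' hyy), hx']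
  rw [sub_eq_add_neg, Point.neg_some]
  by_cases hxy : x = x' ∧ y = W.negY x' (W.negY x' y')
  · rw [Point.add_of_Y_eq hxy.1 hxy.2]
    trivial
  rw [Point.add_some hxy]
  show 1 < A.valuation (W.addX x x' (W.slope x x' y (W.negY x' y')))
  by_cases hxe : x = x'
  · -- then `y = negY x' y'`, impossible
    exfalso
    have hne : y ≠ W.negY x' (W.negY x' y') := fun hc => hxy ⟨hxe, hc⟩
    have hyeq := Y_eq_of_Y_ne h.1 ((equation_neg _ _).2 h'.1) hxe hne
    rw [hyeq, sr_negY hyp.a₁ hyp.a₃] at hyy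
    have : -y' - x' - y' = -(x' + 2 * y') := by ring
    rw [this, Valuation.map_neg, Valuation.map_add_eq_of_lt_left _ (by rw [hx']; exact h2y'),
      hx'] at hyy
    exact lt_irrefl _ hyy
  · have hd : x - x' ≠ 0 := sub_ne_zero.2 hxe
    have hd0 : A.valuation (x - x') ≠ 0 := (Valuation.ne_zero_iff _).2 hd
    have hdpos : (0 : A.ValueGroup) < A.valuation (x - x') := zero_lt_iff.2 hd0
    obtain ⟨ℓ, hℓ⟩ : ∃ ℓ, ℓ = W.slope x x' y (W.negY x' y') := ⟨_, rfl⟩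
    rw [← hℓ]
    have hℓv : 1 < A.valuation ℓ := by
      rw [hℓ, slope_of_X_ne hxe, map_div₀, hnum, one_div]
      exact (one_lt_inv₀ hdpos).2 hxx
    have hℓ0 : (0 : A.ValueGroup) < A.valuation ℓ := lt_trans zero_lt_one hℓv
    have hℓ2 : A.valuation ℓ < A.valuation (ℓ ^ 2) := by
      rw [map_pow, pow_two]
      calc A.valuation ℓ = 1 * A.valuation ℓ := (one_mul _).symm
        _ < A.valuation ℓ * A.valuation ℓ := mul_lt_mul_of_pos_right hℓv hℓ0
    have hrest : A.valuation (ℓ - W.a₂ - x - x') < A.valuation (ℓ ^ 2) := by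
      have h1 : A.valuation (ℓ - W.a₂) = A.valuation ℓ :=
        Valuation.map_sub_eq_of_lt_left _ (lt_of_le_of_lt hyp.a_le hℓv)
      have h2 : A.valuation (ℓ - W.a₂ - x) = A.valuation ℓ := by
        rw [Valuation.map_sub_eq_of_lt_left _ (by rw [h1, hx]; exact hℓv), h1]
      have h3 : A.valuation (ℓ - W.a₂ - x - x') = A.valuation ℓ := by
        rw [Valuation.map_sub_eq_of_lt_left _ (by rw [h2, hx']; exact hℓv), h2]
      rw [h3]; exact hℓ2
    have hX : W.addX x x' ℓ = ℓ ^ 2 + (ℓ - W.a₂ - x - x') := by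
      simp only [addX, hyp.a₁]; ring
    rw [hX, Valuation.map_add_eq_of_lt_left _ hrest]
    exact lt_trans hℓv hℓ2

end Fermat.Agent.S13.WP3.H38

end
-- ==== END Fermat.Agent.S13.WP3.H38_SameRed

-- ==== BEGIN Fermat.Agent.S13.WP3.H4_CC
section

set_option autoImplicit false

namespace Fermat.Agent.S13.WP3.H4

open WeierstrassCurve WeierstrassCurve.Affine

section valuation

variable {L : Type*} [Field L] {Γ₀ : Type*} [LinearOrderedCommGroupWithZero Γ₀]
  (v : Valuation L Γ₀)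

lemma val_eq_one_of_sq' {x : L} (h : v (x ^ 2) = 1) : v x = 1 := by
  rw [map_pow] at h
  exact (pow_eq_one_iff_of_nonneg zero_le two_ne_zero).1 h

/-- `|λ| ≤ 1` for a root of `λ² + λ = a`, `|a| ≤ 1`. -/
lemma val_lam_le_one {a lam : L} (ha : v a ≤ 1) (hlam : lam ^ 2 + lam = a) : v lam ≤ 1 := by
  by_contra hcon
  have hcon : 1 < v lam := not_le.1 hcon
  have h1 : v lam < v (lam ^ 2) := by
    rw [map_pow, sq]
    calc v lam = v lam * 1 := (mul_one _).symm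
      _ < v lam * v lam := mul_lt_mul_of_pos_left hcon (lt_trans zero_lt_one hcon)
  have h2 : v a = v (lam ^ 2) := by
    rw [← hlam]; exact v.map_add_eq_of_lt_left h1
  have h3 : 1 < v (lam ^ 2) := lt_trans hcon h1
  rw [← h2] at h3
  exact absurd ha (not_le.2 h3)

/-- `|2λ + 1| = 1` if `|2| < 1` and `|λ| ≤ 1`. -/
lemma val_two_lam_add_one {lam : L} (h2 : v (2 : L) < 1) (hl : v lam ≤ 1) :
    v (2 * lam + 1) = 1 := by
  have h : v (2 * lam) < 1 := by
    rw [map_mul]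
    calc v 2 * v lam ≤ v 2 * 1 := mul_le_mul_right hl _
      _ = v 2 := mul_one _
      _ < 1 := h2
  rw [add_comm]
  exact v.map_one_add_of_lt h

/-- The data shared by all cases: line through two points of `C(λ)`. -/
structure CData (a b lam x₁ y₁ x₂ y₂ x₃ y₃ ℓ μ : L) : Prop where
  hlam : lam ^ 2 + lam = a
  h2 : v (2 : L) < 1
  ha : v a ≤ 1
  hb : v b < 1
  e₁ : y₁ = ℓ * x₁ + μ
  e₂ : y₂ = ℓ * x₂ + μ
  e₃ : -y₃ - x₃ = ℓ * x₃ + μ
  s₂ : x₁ * x₂ + x₁ * x₃ + x₂ * x₃ = b - (2 * ℓ + 1) * μ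
  s₃ : x₁ * x₂ * x₃ = μ ^ 2
  hx₁b : v b < v x₁
  hx₁ : v x₁ < 1
  ht₁ : v (y₁ - lam * x₁) < v x₁
  hx₂b : v b < v x₂
  hx₂ : v x₂ < 1
  ht₂ : v (y₂ - lam * x₂) < v x₂

namespace CData

variable {v} {a b lam x₁ y₁ x₂ y₂ x₃ y₃ ℓ μ : L}
  (D : CData v a b lam x₁ y₁ x₂ y₂ x₃ y₃ ℓ μ)
include D

lemma vδ : v (2 * lam + 1) = 1 :=
  val_two_lam_add_one v D.h2 (val_lam_le_one v D.ha D.hlam)

lemma x₁_pos : 0 < v x₁ := lt_of_le_of_lt zero_le D.hx₁b
lemma x₂_pos : 0 < v x₂ := lt_of_le_of_lt zero_le D.hx₂b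
lemma X_pos : 0 < v (x₁ * x₂) := by rw [map_mul]; exact mul_pos D.x₁_pos D.x₂_pos

/-- `ε = x₂ δ₁ + x₁ δ₂` is small compared to `x₁ x₂`. -/
lemma vε : v (x₂ * (y₁ - lam * x₁) + x₁ * (y₂ - lam * x₂)) < v (x₁ * x₂) := by
  apply v.map_add_lt
  · rw [map_mul, map_mul, mul_comm (v x₁)]
    exact mul_lt_mul_of_pos_left D.ht₁ D.x₂_pos
  · rw [map_mul, map_mul]
    exact mul_lt_mul_of_pos_left D.ht₂ D.x₁_pos

/-- `|x₂ y₁ + x₁ y₂ + x₁ x₂| = |x₁ x₂|`. -/
lemma vS : v (x₂ * y₁ + x₁ * y₂ + x₁ * x₂) = v (x₁ * x₂) := by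
  have e : x₂ * y₁ + x₁ * y₂ + x₁ * x₂ =
      (2 * lam + 1) * (x₁ * x₂) + (x₂ * (y₁ - lam * x₁) + x₁ * (y₂ - lam * x₂)) := by
    ring
  have h1 : v ((2 * lam + 1) * (x₁ * x₂)) = v (x₁ * x₂) := by
    rw [map_mul, D.vδ, one_mul]
  rw [e, v.map_add_eq_of_lt_left (by rw [h1]; exact D.vε), h1]

/-- `μ (x₂ y₁ + x₁ y₂ + x₁ x₂) = x₁ x₂ (b - x₁ x₂)`. -/
lemma μS : μ * (x₂ * y₁ + x₁ * y₂ + x₁ * x₂) = x₁ * x₂ * (b - x₁ * x₂) := by
  have e₁ := D.e₁; have e₂ := D.e₂; have s₂ := D.s₂; have s₃ := D.s₃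
  subst e₁ e₂
  linear_combination (x₁ * x₂) * s₂ - (x₁ + x₂) * s₃

/-- `|μ| = |b - x₁ x₂|`. -/
lemma vμ : v μ = v (b - x₁ * x₂) := by
  have h : v (x₁ * x₂) * v μ = v (x₁ * x₂) * v (b - x₁ * x₂) := by
    rw [mul_comm, ← D.vS, ← map_mul, D.μS, map_mul, D.vS]
  exact mul_left_cancel₀ D.X_pos.ne' h

lemma vx₃_mul : v x₃ * v (x₁ * x₂) = v μ ^ 2 := by
  have h := congrArg v D.s₃
  rw [map_mul, map_pow, mul_comm] at h
  exact h

/-- Case (i): `|b| < |x₁ x₂|`. -/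
lemma case_i (h : v b < v (x₁ * x₂)) :
    v x₃ = v (x₁ * x₂) ∧ v (y₃ - lam * x₃) < v x₃ := by
  have hμ : v μ = v (x₁ * x₂) := by
    rw [D.vμ, v.map_sub_eq_of_lt_right h]
  have hx₃ : v x₃ = v (x₁ * x₂) := by
    have := D.vx₃_mul
    rw [hμ, sq] at this
    exact mul_right_cancel₀ D.X_pos.ne' this
  refine ⟨hx₃, ?_⟩
  have hx₃pos : 0 < v x₃ := by rw [hx₃]; exact D.X_pos
  -- `X (δ μ + X) = X b - μ ε`
  have key : x₁ * x₂ * ((2 * lam + 1) * μ + x₁ * x₂) =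
      x₁ * x₂ * b - μ * (x₂ * (y₁ - lam * x₁) + x₁ * (y₂ - lam * x₂)) := by
    linear_combination D.μS
  have h1 : v ((2 * lam + 1) * μ + x₁ * x₂) < v (x₁ * x₂) := by
    have : v (x₁ * x₂) * v ((2 * lam + 1) * μ + x₁ * x₂) < v (x₁ * x₂) * v (x₁ * x₂) := by
      rw [← map_mul, key]
      apply v.map_sub_lt
      · rw [map_mul]; exact mul_lt_mul_of_pos_left h D.X_pos
      · rw [map_mul, hμ]; exact mul_lt_mul_of_pos_left D.vε D.X_pos
    exact lt_of_mul_lt_mul_left this zero_le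
  -- `X (δ x₃ + μ) = μ (δ μ + X)`
  have key2 : x₁ * x₂ * ((2 * lam + 1) * x₃ + μ) = μ * ((2 * lam + 1) * μ + x₁ * x₂) := by
    linear_combination (2 * lam + 1) * D.s₃
  have h2 : v ((2 * lam + 1) * x₃ + μ) < v x₃ := by
    have : v (x₁ * x₂) * v ((2 * lam + 1) * x₃ + μ) < v (x₁ * x₂) * v x₃ := by
      rw [← map_mul, key2, map_mul, hμ, hx₃]
      exact mul_lt_mul_of_pos_left h1 D.X_pos
    exact lt_of_mul_lt_mul_left this zero_le
  -- `x₁ (y₃ - λ x₃) = -x₁(δ x₃ + μ) + μ x₃ - δ₁ x₃`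
  have key3 : x₁ * (y₃ - lam * x₃) =
      -(x₁ * ((2 * lam + 1) * x₃ + μ)) + μ * x₃ - (y₁ - lam * x₁) * x₃ := by
    have e₁ := D.e₁; have e₃ := D.e₃
    linear_combination (x₃) * e₁ - x₁ * e₃
  have : v x₁ * v (y₃ - lam * x₃) < v x₁ * v x₃ := by
    rw [← map_mul, key3]
    apply v.map_sub_lt
    · apply v.map_add_lt
      · rw [Valuation.map_neg, map_mul]; exact mul_lt_mul_of_pos_left h2 D.x₁_pos
      · rw [map_mul, hμ, map_mul]
        calc v x₁ * v x₂ * v x₃ < v x₁ * 1 * v x₃ := by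
              apply mul_lt_mul_of_pos_right _ hx₃pos
              exact mul_lt_mul_of_pos_left D.hx₂ D.x₁_pos
          _ = v x₁ * v x₃ := by rw [mul_one]
    · rw [map_mul]; exact mul_lt_mul_of_pos_right D.ht₁ hx₃pos
  exact lt_of_mul_lt_mul_left this zero_le

/-- Case (ii): `|x₁ x₂| < |b|`. -/
lemma case_ii (h : v (x₁ * x₂) < v b) :
    v x₃ * v (x₁ * x₂) = v b ^ 2 ∧ v (y₃ - (-1 - lam) * x₃) < v x₃ := by
  have hμ : v μ = v b := by
    rw [D.vμ, v.map_sub_eq_of_lt_left h]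
  have hx₃ : v x₃ * v (x₁ * x₂) = v b ^ 2 := by
    rw [D.vx₃_mul, hμ]
  refine ⟨hx₃, ?_⟩
  have hbpos : 0 < v b := lt_of_le_of_lt zero_le h
  have hbx₃ : v b < v x₃ := by
    have : v b * v (x₁ * x₂) < v x₃ * v (x₁ * x₂) := by
      rw [hx₃, sq]; exact mul_lt_mul_of_pos_left h hbpos
    exact lt_of_mul_lt_mul_right this zero_le
  have hx₃pos : 0 < v x₃ := lt_trans hbpos hbx₃
  have key3 : x₁ * (y₃ - (-1 - lam) * x₃) = μ * x₃ - (y₁ - lam * x₁) * x₃ - μ * x₁ := by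
    have e₁ := D.e₁; have e₃ := D.e₃
    linear_combination (x₃) * e₁ - x₁ * e₃
  have : v x₁ * v (y₃ - (-1 - lam) * x₃) < v x₁ * v x₃ := by
    rw [← map_mul, key3]
    apply v.map_sub_lt
    · apply v.map_sub_lt
      · rw [map_mul, hμ]; exact mul_lt_mul_of_pos_right D.hx₁b hx₃pos
      · rw [map_mul]; exact mul_lt_mul_of_pos_right D.ht₁ hx₃pos
    · rw [map_mul, hμ, mul_comm]; exact mul_lt_mul_of_pos_left hbx₃ D.x₁_pos
  exact lt_of_mul_lt_mul_left this zero_le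

/-- Case (iii): `|x₁ x₂| = |b|`. -/
lemma case_iii (h : v (x₁ * x₂) = v b) : v x₃ ≤ v b := by
  have hμ : v μ ≤ v b := by
    rw [D.vμ]; exact v.map_sub_le le_rfl h.le
  have hbpos : 0 < v b := by rw [← h]; exact D.X_pos
  have : v x₃ * v b ≤ v b * v b := by
    rw [← h, D.vx₃_mul, h, sq]
    exact mul_le_mul' hμ hμ
  exact le_of_mul_le_mul_right this hbpos

end CData

end valuation

section points

variable {L : Type*} [Field L] [DecidableEq L]

/-- Piece 2D3: the sum of two points `P₁, P₂` of `C(λ)` is nonzero, and lies in `C(λ)` with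
`|x₃| = |x₁x₂|` if `|b| < |x₁x₂|`, in `C(-1-λ)` with `|x₃| |x₁x₂| = |b|²` if `|x₁x₂| < |b|`,
and in `{|x| ≤ |b|}` if `|x₁x₂| = |b|`. -/
theorem c_add_c (hline : Stmt2_line (L := L))
    (A : ValuationSubring L) (W : Affine L) (hyp : ModelHyp2 A W)
    (lam : L) (hlam : lam ^ 2 + lam = W.a₂)
    {x₁ y₁ x₂ y₂ : L} (h₁ : W.Nonsingular x₁ y₁) (h₂ : W.Nonsingular x₂ y₂)
    (hx₁b : A.valuation W.a₄ < A.valuation x₁) (hx₁ : A.valuation x₁ < 1)
    (ht₁ : A.valuation (y₁ - lam * x₁) < A.valuation x₁)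
    (hx₂b : A.valuation W.a₄ < A.valuation x₂) (hx₂ : A.valuation x₂ < 1)
    (ht₂ : A.valuation (y₂ - lam * x₂) < A.valuation x₂) :
    Point.some x₁ y₁ h₁ + Point.some x₂ y₂ h₂ ≠ 0 ∧
    ∀ (x₃ y₃ : L) (h₃ : W.Nonsingular x₃ y₃),
      Point.some x₁ y₁ h₁ + Point.some x₂ y₂ h₂ = Point.some x₃ y₃ h₃ →
      (A.valuation W.a₄ < A.valuation (x₁ * x₂) →
        A.valuation x₃ = A.valuation (x₁ * x₂) ∧
          A.valuation (y₃ - lam * x₃) < A.valuation x₃) ∧
      (A.valuation (x₁ * x₂) < A.valuation W.a₄ →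
        A.valuation x₃ * A.valuation (x₁ * x₂) = A.valuation W.a₄ ^ 2 ∧
          A.valuation (y₃ - (-1 - lam) * x₃) < A.valuation x₃) ∧
      (A.valuation (x₁ * x₂) = A.valuation W.a₄ → A.valuation x₃ ≤ A.valuation W.a₄) := by
  constructor
  · intro h0
    have hneg : Point.some x₁ y₁ h₁ = -Point.some x₂ y₂ h₂ := eq_neg_of_add_eq_zero_left h0
    rw [Point.neg_some] at hneg
    have hx : x₁ = x₂ := by injection hneg
    have hy : y₁ = W.negY x₂ y₂ := by injection hneg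
    have hy' : y₁ = -y₂ - x₂ := by
      rw [hy, Affine.negY, hyp.a₁, hyp.a₃]; ring
    have hvδ : A.valuation (2 * lam + 1) = 1 :=
      val_two_lam_add_one _ hyp.two (val_lam_le_one _ hyp.a_le hlam)
    rw [hy', hx] at ht₁
    have e : (2 * lam + 1) * x₂ = -((-y₂ - x₂ - lam * x₂) + (y₂ - lam * x₂)) := by ring
    have : A.valuation ((2 * lam + 1) * x₂) < A.valuation x₂ := by
      rw [e, Valuation.map_neg]; exact (A.valuation).map_add_lt ht₁ ht₂
    rw [map_mul, hvδ, one_mul] at this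
    exact lt_irrefl _ this
  · intro x₃ y₃ h₃ hadd
    obtain ⟨ℓ, μ, e₁, e₂, e₃, -, s₂, s₃⟩ :=
      hline W hyp.a₁ hyp.a₃ hyp.a₆ x₁ y₁ x₂ y₂ x₃ y₃ h₁ h₂ h₃ hadd
    have D : CData (A.valuation) W.a₂ W.a₄ lam x₁ y₁ x₂ y₂ x₃ y₃ ℓ μ :=
      ⟨hlam, hyp.two, hyp.a_le, hyp.b_lt, e₁, e₂, e₃, s₂, s₃, hx₁b, hx₁, ht₁, hx₂b, hx₂, ht₂⟩
    exact ⟨D.case_i, D.case_ii, D.case_iii⟩

omit [DecidableEq L] in
/-- Piece 2D5: every affine point with `|b| < |x| < 1` lies in `C(λ)` or in `C(-1-λ)`. -/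
theorem annulus : Stmt2_annulus (L := L) := by
  intro A W hyp lam hlam x y h hbx hx1
  have hxpos : 0 < A.valuation x := lt_of_le_of_lt zero_le hbx
  have hx0 : x ≠ 0 := fun h0 => by rw [h0, map_zero] at hxpos; exact lt_irrefl _ hxpos
  have heq := (W.equation_iff x y).1 h.1
  rw [hyp.a₁, hyp.a₃, hyp.a₆] at heq
  -- `(y - λ x)(y - λ' x) = x³ + b x`
  have key : (y - lam * x) * (y - (-1 - lam) * x) = x ^ 3 + W.a₄ * x := by
    linear_combination heq - x ^ 2 * hlam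
  have hsmall : A.valuation (x ^ 3 + W.a₄ * x) < A.valuation x * A.valuation x := by
    apply (A.valuation).map_add_lt
    · rw [map_pow, pow_succ, sq]
      calc A.valuation x * A.valuation x * A.valuation x
          < A.valuation x * A.valuation x * 1 :=
            mul_lt_mul_of_pos_left hx1 (mul_pos hxpos hxpos)
        _ = A.valuation x * A.valuation x := mul_one _
    · rw [map_mul]
      exact mul_lt_mul_of_pos_right hbx hxpos
  rw [← key, map_mul] at hsmall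
  by_contra hcon
  rw [not_or, not_lt, not_lt] at hcon
  exact absurd hsmall (not_lt.2 (mul_le_mul' hcon.1 hcon.2))

/-- Piece 2D4: translation by `T = (0,0)`: `(x,y) + T = (b/x, -(y + x) b / x²)` for `x ≠ 0`. -/
theorem add_T (W : Affine L) (ha₁ : W.a₁ = 1) (ha₃ : W.a₃ = 0) (ha₆ : W.a₆ = 0)
    (hT : W.Nonsingular 0 0) (x y : L) (h : W.Nonsingular x y) (hx : x ≠ 0) :
    ∃ h' : W.Nonsingular (W.a₄ / x) (-((y + x) * W.a₄ / x ^ 2)),
      Point.some x y h + Point.some 0 0 hT = Point.some _ _ h' := by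
  have heq := (W.equation_iff x y).1 h.1
  rw [ha₁, ha₃, ha₆] at heq
  have hadd := Point.add_of_X_ne (W := W) (h₁ := h) (h₂ := hT) hx
  have hℓ : W.slope x 0 y 0 = y / x := by
    rw [slope_of_X_ne hx]; simp
  have hx₃ : W.addX x 0 (W.slope x 0 y 0) = W.a₄ / x := by
    rw [hℓ]
    simp only [addX, ha₁]
    field_simp
    linear_combination heq
  have hy₃ : W.addY x 0 y (W.slope x 0 y 0) = -((y + x) * W.a₄ / x ^ 2) := by
    simp only [addY, negAddY, negY, ha₁, ha₃]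
    rw [hx₃, hℓ]
    field_simp
    ring
  have hns := nonsingular_add h hT fun hxy => hx hxy.left
  rw [hx₃, hy₃] at hns
  refine ⟨hns, ?_⟩
  rw [hadd]
  congr 1

/-- `T = (0,0)` is a nonsingular point of the model (`b ≠ 0`). -/
lemma nonsingular_T (W : Affine L) (ha₃ : W.a₃ = 0) (ha₆ : W.a₆ = 0) (hb : W.a₄ ≠ 0) :
    W.Nonsingular 0 0 := by
  rw [W.nonsingular_iff, W.equation_iff]
  refine ⟨by simp [ha₆], Or.inl ?_⟩
  simpa [ha₃] using Ne.symm hb

end points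

end Fermat.Agent.S13.WP3.H4

end
-- ==== END Fermat.Agent.S13.WP3.H4_CC

-- ==== BEGIN Fermat.Agent.S13.WP3.H5_Line
section

set_option autoImplicit false

namespace Fermat.Agent.S13.WP3.H5

open WeierstrassCurve WeierstrassCurve.Affine

variable {L : Type*} [Field L]

lemma frey_equation_iff {W : Affine L} (h₁ : W.a₁ = 1) (h₃ : W.a₃ = 0) (h₆ : W.a₆ = 0)
    (x y : L) : W.Equation x y ↔ y ^ 2 + x * y = x ^ 3 + W.a₂ * x ^ 2 + W.a₄ * x := by
  rw [Affine.equation_iff, h₁, h₃, h₆]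
  constructor <;> intro h <;> linear_combination h

lemma frey_negY {W : Affine L} (h₁ : W.a₁ = 1) (h₃ : W.a₃ = 0) (x y : L) :
    W.negY x y = -y - x := by
  simp [Affine.negY, h₁, h₃]

variable [DecidableEq L]

/-- Piece (2A). -/
theorem line2 : Stmt2_line (L := L) := by
  intro W h₁ h₃ h₆ x₁ y₁ x₂ y₂ x₃ y₃ hP₁ hP₂ hP₃ hadd
  have e₁ := (frey_equation_iff h₁ h₃ h₆ x₁ y₁).1 hP₁.1
  have e₂ := (frey_equation_iff h₁ h₃ h₆ x₂ y₂).1 hP₂.1
  by_cases hxy : x₁ = x₂ ∧ y₁ = W.negY x₂ y₂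
  · rw [Point.add_of_Y_eq hxy.1 hxy.2] at hadd
    exact absurd hadd.symm (Point.some_ne_zero hP₃)
  rw [Point.add_some hxy] at hadd
  have hx₃ : W.addX x₁ x₂ (W.slope x₁ x₂ y₁ y₂) = x₃ := by
    injection hadd
  have hy₃ : W.addY x₁ x₂ y₁ (W.slope x₁ x₂ y₁ y₂) = y₃ := by
    injection hadd
  obtain ⟨ℓ, hℓ⟩ : ∃ ℓ, ℓ = W.slope x₁ x₂ y₁ y₂ := ⟨_, rfl⟩
  rw [← hℓ] at hx₃ hy₃
  simp only [addX, h₁] at hx₃
  simp only [addY, negAddY, addX, frey_negY h₁ h₃, h₁] at hy₃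
  -- the key relation: divided difference of the cubic along the line
  have key : x₁ ^ 2 + x₁ * x₂ + x₂ ^ 2 + W.a₂ * (x₁ + x₂) + W.a₄ - (ℓ ^ 2 + ℓ) * (x₁ + x₂)
      - (2 * ℓ + 1) * (y₁ - ℓ * x₁) = 0 ∧ y₂ = ℓ * x₂ + (y₁ - ℓ * x₁) := by
    by_cases hx : x₁ = x₂
    · have hy : y₁ ≠ W.negY x₂ y₂ := fun h => hxy ⟨hx, h⟩
      have hyy := Y_eq_of_Y_ne hP₁.1 hP₂.1 hx hy
      subst hx; subst hyy
      have hd : y₁ - W.negY x₁ y₁ ≠ 0 := sub_ne_zero.2 hy
      have hℓ' : ℓ * (y₁ - W.negY x₁ y₁) = 3 * x₁ ^ 2 + 2 * W.a₂ * x₁ + W.a₄ - W.a₁ * y₁ := by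
        rw [hℓ, slope_of_Y_ne rfl hy, div_mul_cancel₀ _ hd]
      rw [frey_negY h₁ h₃, h₁] at hℓ'
      refine ⟨?_, by ring⟩
      linear_combination (-1 : L) * hℓ'
    · have hd : x₁ - x₂ ≠ 0 := sub_ne_zero.2 hx
      have hℓ' : ℓ * (x₁ - x₂) = y₁ - y₂ := by
        rw [hℓ, slope_of_X_ne hx, div_mul_cancel₀ _ hd]
      refine ⟨?_, by linear_combination hℓ'⟩
      apply mul_left_cancel₀ hd
      linear_combination (-1 : L) * e₁ + e₂ + (ℓ * (x₁ - x₂) - y₁ - y₂ - x₂) * hℓ'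
  obtain ⟨key, hy₂⟩ := key
  refine ⟨ℓ, y₁ - ℓ * x₁, by ring, hy₂, ?_, ?_, ?_, ?_⟩
  · rw [← hy₃, ← hx₃]; ring
  · rw [← hx₃]; ring
  · -- Vieta 2
    rw [← hx₃]
    linear_combination (-1 : L) * key
  · -- Vieta 3
    rw [← hx₃]
    linear_combination (-1 : L) * e₁ - x₁ * key
end Fermat.Agent.S13.WP3.H5

end
-- ==== END Fermat.Agent.S13.WP3.H5_Line

-- ==== BEGIN Fermat.Agent.S13.WP3.M1Defs
section

set_option autoImplicit false

namespace Fermat.Agent.S13.WP3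

open WeierstrassCurve WeierstrassCurve.Affine

variable {L : Type*} [Field L] [DecidableEq L]

/-- (2D2) `E₀ + C(λ) ⊆ C(λ)`, preserving `|x|`. -/
def Stmt2_E0C : Prop :=
  ∀ (A : ValuationSubring L) (W : Affine L), ModelHyp2 A W →
  ∀ lam : L, lam ^ 2 + lam = W.a₂ →
  ∀ P Q : W.Point, InE0 A P → InC A lam Q →
    InC A lam (P + Q) ∧ xVal A (P + Q) = xVal A Q

/-- (2D3) `C(λ) + C(λ)`, three cases according to `|x₁x₂|` versus `|b|`. -/
def Stmt2_CC : Prop :=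
  ∀ (A : ValuationSubring L) (W : Affine L), ModelHyp2 A W →
  ∀ lam : L, lam ^ 2 + lam = W.a₂ →
  ∀ P Q : W.Point, InC A lam P → InC A lam Q →
    (A.valuation W.a₄ < xVal A P * xVal A Q →
      InC A lam (P + Q) ∧ xVal A (P + Q) = xVal A P * xVal A Q) ∧
    (xVal A P * xVal A Q < A.valuation W.a₄ →
      InC A (-1 - lam) (P + Q) ∧
        xVal A (P + Q) * (xVal A P * xVal A Q) = A.valuation W.a₄ ^ 2) ∧
    (xVal A P * xVal A Q = A.valuation W.a₄ → InET A (P + Q))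

/-- (2D4) translation by `T = (0,0)`: `(x,y) + T = (b/x, -b (y + x)/x²)` for `x ≠ 0`. -/
def Stmt2_addT : Prop :=
  ∀ (W : Affine L), W.a₁ = 1 → W.a₃ = 0 → W.a₆ = 0 →
  ∀ (hT : W.Nonsingular 0 0) (x y : L) (h : W.Nonsingular x y), x ≠ 0 →
    ∃ h' : W.Nonsingular (W.a₄ / x) (-(W.a₄ * (y + x) / x ^ 2)),
      Point.some x y h + Point.some 0 0 hT = Point.some _ _ h'

end Fermat.Agent.S13.WP3

end
-- ==== END Fermat.Agent.S13.WP3.M1Defs
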