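-- GENERATED (merged mirror, NOTES/tools/trim/merge3_helper67.py): 16 modules of the originals, bodies verbatim.
import Fermat.Prelude.Def_EllipticCurve_ZeroComponentAt
import Mathlib
import Mathlib.Analysis.SpecialFunctions.Elliptic.Weierstrass
import Fermat.Agent.Zm.S35_L15_000
import Fermat.Agent.Zm.S35_L14_000
import Fermat.Agent.Zm.S35_L09_003
import Fermat.Agent.Zm.S35_L11_000
import Fermat.Agent.Zm.S33_L09_000
import Fermat.Agent.Zm.S33_L10_000
import Fermat.Agent.Zm.S33_L08_000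
import Fermat.Agent.Zm.S33_L06_000
import Fermat.Agent.Zm.S35_L14_001
import Fermat.Agent.Zm.S35_L10_001
import Fermat.Agent.Zm.S35_L08_001
import Fermat.Agent.Zm.S35_L10_005
import Fermat.Agent.Zm.S35_L11_001
import Fermat.Agent.Zm.S35_L13_002
import Fermat.Agent.Zm.S44_L01_002
import Fermat.Agent.Zm.S35_L15_001
import Fermat.Agent.Zm.S35_L08_002
import Fermat.Agent.Zm.S35_L08_003
import Fermat.Agent.Zm.S35_L01_003
import Fermat.Agent.Zm.S44_L01_001
import Fermat.Agent.Zm.S35_L16_000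
import Fermat.Agent.Zm.S35_L02_001
import Fermat.Agent.Zm.S35_L07_002
import Fermat.Agent.Zm.S44_L02_002
import Fermat.Agent.S20.H29_Lattice
import Fermat.Agent.Zm.S56_L02_003
import Fermat.Agent.Zm.S56_L01_000

-- ==== BEGIN Fermat.Agent.BAD.Glue
section

/-!
# BAD_q: the glue theorem (toric part), unconditional  (helper28 + helper60)

`Fermat.Agent.BAD.stmt_GlueFrob : Stmt_GlueFrob` -- for a semistable Deuring datum `S` and a
Frobenius-like automorphism `τ` (scaling parameter `Q`), every Kummer function `f` of the toric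
part (`f ∈ S.c₁.V`, `S.c₁.red f = 1`, `S.c₂.red (c₂ f) = 1`, `n ∣ ord_v f`) satisfies
`τ f ≡ f ^ Q` modulo `n`-th powers and constants.  (Input (ST-c) of S35.)
-/

set_option autoImplicit false

namespace Fermat.Agent.BAD

/-- **GLUE (toric part), unconditional.** -/
theorem stmt_GlueFrob : Stmt_GlueFrob :=
  H60.glueFrob_of stmt_Moving H28.stmt_GoodLift H28.stmt_TIss

end Fermat.Agent.BAD

end
-- ==== END Fermat.Agent.BAD.Glue

-- ==== BEGIN Fermat.Agent.BAD.H28_SlopeK1
section

/-!
# Item 65 (helper28): vanishing slopes and genus `0` give a representative with reduction `1`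

`SSD.exists_rd₁_eq_one_of_slopes` : `S : SSD K F k F₁ F₂`, `F₁` of genus `0`.  If `n ∣ div f`,
`c₁ f` is a Gauss unit of `V₁` and the slopes `ord_{s.1} (rd₁ (c₁ f))` are divisible by `n` at all
nodes, then `rd₁ (c f hⁿ) = 1` for some `h ≠ 0`, `c ≠ 0`.  (Request of helper63, S15 FIX.)

Only `DI` (first component) and `good₁` are used.
-/

set_option autoImplicit false
set_option linter.style.haveILetI false

noncomputable section

open AlgebraicCurve

attribute [local instance] Classical.propDecidable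

namespace Fermat.Agent.BAD

open Fermat.Agent.RED.H17 Fermat.Agent.RED

local notation "L" => riemannRochSpace

namespace SSD

variable {K F k F₁ F₂ : Type*} [Field K] [Field F] [Algebra K F] [Field k] [Field F₁]
  [Algebra k F₁] [Field F₂] [Algebra k F₂] (S : SSD K F k F₁ F₂)

/-- All orders of `rd₁ u` are divisible by `n` if `n ∣ div u` and the slopes are divisible by
`n`. -/
theorem dvd_ord_rd₁ (hP : HasPrincipalDivisors K F) {n : ℕ} {u : F} (hu : S.c₁.IsGU u)
    (hdiv : ∀ P : Place K F, (n : ℤ) ∣ P.ord u)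
    (hslope : ∀ s ∈ S.nodes, (n : ℤ) ∣ s.1.ord (S.c₁.rd u)) (Q : Place k F₁) :
    (n : ℤ) ∣ Q.ord (S.c₁.rd u) := by
  by_cases hQ : Q ∈ S.c₁.good
  · rw [S.c₁.ord_rd_eq_sum hP hu Q hQ]
    refine Finset.dvd_sum fun P _ => ?_
    split_ifs
    · exact hdiv P
    · exact dvd_zero _
  · rw [S.good₁] at hQ
    push Not at hQ
    obtain ⟨s, hs, rfl⟩ := hQ
    exact hslope s hs

/-- On a function field of genus `0`, a function all of whose orders are divisible by `n` is a
constant times an `n`-th power. -/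
theorem exists_pow_mul_eq_const {k' F' : Type*} [Field k'] [Field F'] [Algebra k' F']
    (H : FFHyp k' F') {c' : ℤ} (hg : IsGenus k' F' 0 c') {n : ℕ} (hn : n ≠ 0) {φ : F'}
    (hφ : φ ≠ 0) (hdiv : ∀ Q : Place k' F', (n : ℤ) ∣ Q.ord φ) :
    ∃ (g : F') (a : k'), g ≠ 0 ∧ a ≠ 0 ∧ φ * g ^ n = algebraMap k' F' a := by
  obtain ⟨E, hE⟩ : ∃ E : Divisor k' F', E =
      (dv H.principal φ).mapRange (fun m : ℤ => m / (n : ℤ)) (by simp) := ⟨_, rfl⟩
  have hEv : ∀ v, (n : ℤ) * E v = v.ord φ := by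
    intro v
    rw [hE, H60.mapRange_div_apply, dv_apply]
    exact Int.mul_ediv_cancel' (hdiv v)
  have hdeg : Divisor.degree E = 0 := by
    rw [hE]
    exact H60.degree_mapRange_div _ n hn (fun v => by rw [dv_apply]; exact hdiv v)
      (degree_dv H.principal φ)
  have hfr : 1 ≤ Module.finrank k' (L E) := by
    have := (hg E).1
    rw [hdeg] at this
    have h1 : (1 : ℤ) ≤ (Module.finrank k' (L E) : ℤ) := by
      simpa using this
    exact_mod_cast h1
  haveI : Nontrivial (L E) := Module.nontrivial_of_finrank_pos (R := k') (by omega)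
  obtain ⟨⟨g, hgL⟩, hg0⟩ := exists_ne (0 : L E)
  have hg0' : g ≠ 0 := fun h => hg0 (Subtype.ext h)
  have hord : ∀ v : Place k' F', 0 ≤ v.ord (φ * g ^ n) := by
    intro v
    have h1 := ord_ge_of_mem_L hgL hg0' v
    rw [v.ord_mul hφ (pow_ne_zero _ hg0'), ord_pow, ← hEv v]
    have : (n : ℤ) * (E v + v.ord g) = (n : ℤ) * E v + n * v.ord g := by ring
    rw [← this]
    exact mul_nonneg (Int.natCast_nonneg n) (by omega)
  obtain ⟨a, ha⟩ := H.const_of_regular hord
  refine ⟨g, a, hg0', ?_, ha⟩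
  rintro rfl
  rw [map_zero] at ha
  exact mul_ne_zero hφ (pow_ne_zero _ hg0') ha

/-- **Vanishing slopes, genus `0`.**  If `n ∣ div f`, the slopes of `f` at all nodes are
divisible by `n` and `F₁` has genus `0`, then `c f hⁿ ≡ 1` for the first valuation, for some
`h`, `c`. -/
theorem exists_rd₁_eq_one_of_slopes (hP : HasPrincipalDivisors K F) (H₁ : FFHyp k F₁) {c₁' : ℤ}
    (hg₁ : IsGenus k F₁ 0 c₁') {n : ℕ} (hn : n ≠ 0) {f : F} {c₁ : K}
    (h₁ : S.c₁.IsGU (algebraMap K F c₁ * f)) (hdiv : ∀ P : Place K F, (n : ℤ) ∣ P.ord f)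
    (hslope : ∀ s ∈ S.nodes, (n : ℤ) ∣ s.1.ord (S.c₁.rd (algebraMap K F c₁ * f))) :
    ∃ (h : F) (c : K), h ≠ 0 ∧ c ≠ 0 ∧ algebraMap K F c * f * h ^ n ∈ S.c₁.V ∧
      S.c₁.rd (algebraMap K F c * f * h ^ n) = 1 := by
  have hc₁ : c₁ ≠ 0 := by
    rintro rfl
    exact h₁.ne_zero (by rw [map_zero, zero_mul])
  have hdiv' : ∀ P : Place K F, (n : ℤ) ∣ P.ord (algebraMap K F c₁ * f) := by
    intro P
    rw [ord_algebraMap_mul P hc₁]
    exact hdiv P
  obtain ⟨g, a, hg0, ha0, hga⟩ := exists_pow_mul_eq_const H₁ hg₁ hn h₁.2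
    (S.dvd_ord_rd₁ hP h₁ hdiv' hslope)
  obtain ⟨h, hhV, hh⟩ := S.c₁.exists_rd_eq g
  obtain ⟨b, hbV, hb⟩ := S.c₁.exists_const_lift a⁻¹
  have hh0 : h ≠ 0 := by
    rintro rfl
    rw [S.c₁.rd_zero] at hh
    exact hg0 hh.symm
  have hb0 : b ≠ 0 := by
    rintro rfl
    rw [map_zero, S.c₁.rd_zero] at hb
    have : (algebraMap k F₁) a⁻¹ ≠ 0 :=
      (map_ne_zero_iff _ (algebraMap k F₁).injective).mpr (inv_ne_zero ha0)
    exact this hb.symm
  have heq : algebraMap K F (b * c₁) * f * h ^ n =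
      algebraMap K F b * ((algebraMap K F c₁ * f) * h ^ n) := by
    rw [map_mul]
    ring
  have hm : (algebraMap K F c₁ * f) * h ^ n ∈ S.c₁.V :=
    S.c₁.V.mul_mem _ _ h₁.1 (S.c₁.V.pow_mem hhV n)
  refine ⟨h, b * c₁, hh0, mul_ne_zero hb0 hc₁, ?_, ?_⟩
  · rw [heq]
    exact S.c₁.V.mul_mem _ _ hbV hm
  · rw [heq, S.c₁.rd_mul hbV hm, S.c₁.rd_mul h₁.1 (S.c₁.V.pow_mem hhV n), S.c₁.rd_pow hhV, hh,
      hb, hga, ← map_mul, inv_mul_cancel₀ ha0, map_one]

end SSD

end Fermat.Agent.BAD

end
end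
-- ==== END Fermat.Agent.BAD.H28_SlopeK1

-- ==== BEGIN Fermat.Agent.FL.H36_Final
section

/-!
# G-FL: the main theorems, unconditional (helper36, assembly of the work of ~15 seats)

* `stmt_FLAbs : Stmt_FLAbs` : the abstract main theorem (FL/Defs4.lean).
* `stmt_FLTameC : Stmt_FLTameC` : integral coordinates on every finite set of points of `J₀(M)`
  stable under the decomposition group, at every tame level (FL/Defs6.lean).
-/

set_option autoImplicit false

noncomputable section

namespace Fermat.Agent.FL.H36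

open Fermat.Agent.FL

/-- **The abstract main theorem of G-FL.** -/
theorem stmt_FLAbs : Stmt_FLAbs :=
  stmt_FLAbs_of_famAdd_dStab H46.stmt_FamAdd (H21.stmt_DStab_of_famAdd H46.stmt_FamAdd)

/-- **The concrete main theorem of G-FL at the tame levels.** -/
theorem stmt_FLTameC : Stmt_FLTameC :=
  H33.stmt_FLTameC_of stmt_FLAbs H22.stmt_TameFrames

end Fermat.Agent.FL.H36

end
end
-- ==== END Fermat.Agent.FL.H36_Final

-- ==== BEGIN Fermat.Agent.Lib.HeckeComm.H2_Comm
section

/-!
# COMM (helper2): the Hecke operators of `J₀(N)` commute — final, unconditional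

* `heckeOperatorsCommuteBar N : HeckeOperatorsCommuteBar N` (all pairs of primes, any level `N`).
* `heckeNormFn_comm` : the norm functions commute.
* `heckeBeta_norm_eq` : base change of the norm in the Hecke square
  (`β_ℓ ∘ Norm_{F_{Nℓ'} / F_N} = Norm_{F_{Nℓ'ℓ} / F_{Nℓ}} ∘ β_ℓ`).
-/

set_option autoImplicit false
set_option linter.style.haveILetI false
set_option linter.unusedSectionVars false

noncomputable section

namespace Fermat.Agent.Lib.HeckeComm

open AlgebraicCurve ModularCurve Fermat.Agent.S24 Fermat.Agent.GTor Fermat.Agent.GTor.H2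

local notation "Kb" => AlgebraicClosure ℚ

/-- Base change of the norm in the Hecke square, unconditional. -/
theorem heckeBeta_norm_eq (N ℓ ℓ' : ℕ) [NeZero N] [NeZero ℓ] [NeZero ℓ']
    (hℓ : ℓ.Prime) (hℓ' : ℓ'.Prime) (hne : ℓ ≠ ℓ') (x : FN (N * ℓ')) :
    heckeBetaBar Kb N ℓ (normAlongHom (heckeAlphaBar Kb N ℓ').toRingHom x)
      = normAlongHom (inclFN (N * ℓ) (N * ℓ' * ℓ) (by
          rw [mul_right_comm]; exact dvd_mul_right _ _)).toRingHom
          (heckeBetaBar Kb (N * ℓ') ℓ x) :=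
  beta_norm_eq (fun X M _ _ h => stmt_GenJ X M h) N ℓ ℓ' hℓ hℓ' hne x

/-- The norm functions of two distinct primes commute. -/
theorem heckeNormFn_comm (N ℓ ℓ' : ℕ) [NeZero N] [NeZero ℓ] [NeZero ℓ']
    (hℓ : ℓ.Prime) (hℓ' : ℓ'.Prime) (hne : ℓ ≠ ℓ') (f : FN N) :
    heckeNormFn Kb N ℓ (heckeNormFn Kb N ℓ' f) = heckeNormFn Kb N ℓ' (heckeNormFn Kb N ℓ f) :=
  heckeNormFn_comm_of_genJ (fun X M _ _ h => stmt_GenJ X M h) N ℓ ℓ' hℓ hℓ' hne f

/-- **COMM**: all Hecke operators of `J₀(N)` commute. -/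
theorem heckeOperatorsCommuteBar (N : ℕ) [NeZero N] : HeckeOperatorsCommuteBar N :=
  heckeOperatorsCommuteBar_of_genJ (fun X M _ _ h => stmt_GenJ X M h) N

end Fermat.Agent.Lib.HeckeComm

end
end
-- ==== END Fermat.Agent.Lib.HeckeComm.H2_Comm

-- ==== BEGIN Fermat.Agent.RED.H17_RI
section
attribute [local instance 10000] SubalgebraClass.toAlgebra
attribute [local instance 10000] HahnSeries.powerSeriesAlgebra

/-!
# G-RED, package RI (helper17): the prelude's `ReductionInputsModL` from `Stmt_RM`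

`reductionInputsModL_of_RM : Stmt_RM → ∀ N ℓ, ℓ ∤ N → ∀ A over ℓ, ReductionInputsModL A N`.

* the place reduction `r` is the one of `Stmt_RM` (conservation law for all Gauss units),
  transported along helper73's `stmt_GA : redField = k(j(q^d) : d ∣ N)`;
* all places have degree one (FF-B);
* `PrincipalGeneratedByIntegral`: `F = C(S)` with `S` a set of integral series, so every non-zero
  function is a quotient `a / b` of two elements of `C[S]`, and each of them is a constant times
  a primitive integral series.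
-/

set_option autoImplicit false
set_option linter.style.haveILetI false
set_option synthInstance.maxHeartbeats 400000
set_option maxHeartbeats 1000000

noncomputable section

open HahnSeries IntermediateField AlgebraicCurve ModularCurve
open Fermat.Agent.S28 Fermat.Agent.S28.H73 Fermat.Agent.RED.H73 Fermat.Agent.RED

namespace Fermat.Agent.RED.H17

section Abs

variable {C : Type} [Field C] (O : ValuationSubring C)
variable {F : IntermediateField C (LaurentSeries C)} (h : HasScale O F)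

/-- The Gauss unit attached to an integral series of `F` with non-zero reduction. -/
theorem ri_unit (y : LaurentSeries ↥O) (hy : coeffMap O.subtype y ∈ F)
    (hne : coeffMap (IsLocalRing.residue ↥O) y ≠ 0) :
    ∃ f : ↥(gaussValSub O F h), IsUnit f ∧
      (f : ↥F) = ⟨coeffMap O.subtype y, hy⟩ ∧
      gaussResF O h f = coeffMap (IsLocalRing.residue ↥O) y := by
  have hmem : (⟨coeffMap O.subtype y, hy⟩ : ↥F) ∈ gaussValSub O F h :=
    (mem_gaussValSub_iff O h _).mpr (iotaV_mem_gaussRingV O y)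
  have hres : gaussResF O h ⟨⟨coeffMap O.subtype y, hy⟩, hmem⟩
      = coeffMap (IsLocalRing.residue ↥O) y := by
    rw [gaussResF_apply]
    exact gaussRedV_iotaV O y
  refine ⟨⟨⟨coeffMap O.subtype y, hy⟩, hmem⟩, ?_, rfl, hres⟩
  rw [isUnit_iff_gaussResF_ne_zero, hres]
  exact hne

/-- The conservation law for integral series, for a reduced field given as `E`. -/
theorem ri_cons {E : IntermediateField (kV O) (LaurentSeries (kV O))}
    (hE : redField O F h = E) (r₀ : Place C ↥F → Place (kV O) ↥(redField O F h))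
    (hr₀ : IsRed O h r₀) :
    ∃ r : Place C ↥F → Place (kV O) ↥E,
      ∀ (y : LaurentSeries ↥O) (hy : coeffMap O.subtype y ∈ F)
        (hyk : coeffMap (IsLocalRing.residue ↥O) y ∈ E),
        coeffMap (IsLocalRing.residue ↥O) y ≠ 0 →
        ∀ D : Divisor C ↥F, (∀ P, D P = P.ord (⟨coeffMap O.subtype y, hy⟩ : ↥F)) →
          ∀ Q, Finsupp.mapDomain r D Q
            = Q.ord (⟨coeffMap (IsLocalRing.residue ↥O) y, hyk⟩ : ↥E) := by
  subst hE
  refine ⟨r₀, fun y hy hyk hne D hD Q => ?_⟩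
  obtain ⟨f, hu, hf, hres⟩ := ri_unit O h y hy hne
  have h1 := hr₀ f hu D (fun P => by rw [hD P, hf]) Q
  rw [h1]
  congr 1
  exact Subtype.ext hres

/-- The divisor of an element of `C[S]`, `S` a set of integral series, is the divisor of a
primitive integral series. -/
theorem ri_scale {S : Set (LaurentSeries C)} (hS : S ⊆ (IntSpan C : Set (LaurentSeries C)))
    (hF : F = IntermediateField.adjoin C S) {a : LaurentSeries C} (ha : a ∈ Algebra.adjoin C S)
    (ha0 : a ≠ 0) :
    ∃ (haF : a ∈ F) (y : LaurentSeries ↥O) (hy : coeffMap O.subtype y ∈ F),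
      coeffMap (IsLocalRing.residue ↥O) y ≠ 0 ∧
      ∀ P : Place C ↥F, P.ord (⟨coeffMap O.subtype y, hy⟩ : ↥F) = P.ord (⟨a, haF⟩ : ↥F) := by
  have hle : Algebra.adjoin C S ≤ IntSpan C := Algebra.adjoin_le hS
  have haF : a ∈ F := by
    rw [hF]
    exact IntermediateField.algebra_adjoin_le_adjoin C S ha
  obtain ⟨c, hc, hprim⟩ := exists_primSeries_scale O (hle ha) ha0
  obtain ⟨g, hg, hgeq⟩ := (primSeries_iff O _).mp hprim
  have hgF : coeffMap O.subtype g ∈ F := by
    have : coeffMap O.subtype g = HahnSeries.C c * a := hgeq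
    rw [this, H42.C_eq_algebraMap]
    exact F.mul_mem (F.algebraMap_mem c) haF
  refine ⟨haF, g, hgF, hg, fun P => ?_⟩
  have e : (⟨coeffMap O.subtype g, hgF⟩ : ↥F) = algebraMap C ↥F c * ⟨a, haF⟩ := by
    apply Subtype.ext
    have h1 : coeffMap O.subtype g = HahnSeries.C c * a := hgeq
    show coeffMap O.subtype g = algebraMap C (LaurentSeries C) c * a
    rw [h1, H42.C_eq_algebraMap]
  rw [e, ord_algebraMap_mul P hc]

/-- **Principal divisors are generated by the divisors of integral series.** -/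
theorem ri_gen [IsAlgClosed C] (hFF : IsFF C ↥F)
    {E : IntermediateField (kV O) (LaurentSeries (kV O))}
    (hE : redField O F h = E) {S : Set (LaurentSeries C)}
    (hS : S ⊆ (IntSpan C : Set (LaurentSeries C))) (hF : F = IntermediateField.adjoin C S) :
    Divisor.principal (K := C) (F := ↥F) ≤
      AddSubgroup.closure {D : Divisor C ↥F | ∃ (y : LaurentSeries ↥O)
        (hy : coeffMap O.subtype y ∈ F),
        coeffMap (IsLocalRing.residue ↥O) y ∈ E ∧ coeffMap (IsLocalRing.residue ↥O) y ≠ 0 ∧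
          ∀ P, D P = P.ord (⟨coeffMap O.subtype y, hy⟩ : ↥F)} := by
  subst hE
  have hP : HasPrincipalDivisors C ↥F := (ffHyp_of_isFF C ↥F hFF).principal
  rintro D ⟨f, hf0, hD⟩
  have hfmem : (f : LaurentSeries C) ∈ IntermediateField.adjoin C S := hF ▸ f.2
  obtain ⟨a, ha, b, hb, hfab⟩ := IntermediateField.mem_adjoin_iff_div.1 hfmem
  have hfne : (f : LaurentSeries C) ≠ 0 := fun h0 => hf0 (Subtype.ext h0)
  have ha0 : a ≠ 0 := by
    rintro rfl
    rw [zero_div] at hfab
    exact hfne hfab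
  have hb0 : b ≠ 0 := by
    rintro rfl
    rw [div_zero] at hfab
    exact hfne hfab
  obtain ⟨haF, ya, hya, hyane, hyaord⟩ := ri_scale O hS hF ha ha0
  obtain ⟨hbF, yb, hyb, hybne, hybord⟩ := ri_scale O hS hF hb hb0
  have hmem : ∀ (y : LaurentSeries ↥O) (hy : coeffMap O.subtype y ∈ F),
      coeffMap (IsLocalRing.residue ↥O) y ≠ 0 →
      dv hP (⟨coeffMap O.subtype y, hy⟩ : ↥F) ∈
        AddSubgroup.closure {D : Divisor C ↥F | ∃ (y : LaurentSeries ↥O)
          (hy : coeffMap O.subtype y ∈ F),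
          coeffMap (IsLocalRing.residue ↥O) y ∈ redField O F h ∧
            coeffMap (IsLocalRing.residue ↥O) y ≠ 0 ∧
            ∀ P, D P = P.ord (⟨coeffMap O.subtype y, hy⟩ : ↥F)} := by
    intro y hy hne
    apply AddSubgroup.subset_closure
    obtain ⟨u, -, -, hres⟩ := ri_unit O h y hy hne
    refine ⟨y, hy, ?_, hne, fun P => dv_apply hP _ P⟩
    rw [← hres]
    exact gaussResF_mem_redField O h u
  have hDeq : D = dv hP (⟨coeffMap O.subtype ya, hya⟩ : ↥F)
      - dv hP (⟨coeffMap O.subtype yb, hyb⟩ : ↥F) := by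
    ext P
    have e : f = (⟨a, haF⟩ : ↥F) / ⟨b, hbF⟩ := Subtype.ext hfab
    have ha0' : (⟨a, haF⟩ : ↥F) ≠ 0 := fun h0 => ha0 (congrArg Subtype.val h0)
    have hb0' : (⟨b, hbF⟩ : ↥F) ≠ 0 := fun h0 => hb0 (congrArg Subtype.val h0)
    rw [Finsupp.sub_apply, dv_apply, dv_apply, hD P, hyaord P, hybord P, e,
      ord_div P ha0' hb0']
  rw [hDeq]
  exact AddSubgroup.sub_mem _ (hmem ya hya hyane) (hmem yb hyb hybne)

end Abs

section Modular

/-- **RI from a reduction map with the conservation law.** -/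
theorem reductionInputsModL_of_hasRM (N ℓ : ℕ) [NeZero N] (hℓ : ℓ.Prime) (hℓN : ¬ ℓ ∣ N)
    (A : ValuationSubring (AlgebraicClosure ℚ)) (hA : A.LiesOverPrime ℓ)
    (hRM : HasRM A (hasScale_laurentBaseChange A N)) : ReductionInputsModL A N := by
  haveI : IsAlgClosed (kV A) := isAlgClosed_kV A
  obtain ⟨r₀, hr₀, -⟩ := hRM
  have hGA := stmt_GA N ℓ hℓ hℓN A hA
  have hFF := H95.stmt_HKA_isFF N
  have hFt : IsFF (kV A) ↥(modularFunctionFieldFullC (kV A) N) := by
    have h1 := isFF_redField_bar N ℓ hℓ hℓN A hA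
    rw [hGA] at h1
    exact h1
  obtain ⟨r, hr⟩ := ri_cons A (hasScale_laurentBaseChange A N) hGA r₀ hr₀
  have hdeg : ∀ P, (r P).deg = P.deg := fun P => by
    rw [(ffHyp_of_isFF _ _ hFF).deg_one P, (ffHyp_of_isFF _ _ hFt).deg_one (r P)]
  have hgen := ri_gen A (hasScale_laurentBaseChange A N) hFF hGA
    (S := divisorExpansionsC (AlgebraicClosure ℚ) N) (divisorExpansionsC_subset_intSpan N)
    (laurentBaseChange_full_eq N)
  exact ⟨r, ⟨hdeg, hr⟩, hgen⟩

/-- **Package RI**: `ReductionInputsModL` at every level prime to `ℓ`, from `Stmt_RM`. -/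
theorem reductionInputsModL_of_RM (hRM : Stmt_RM) (N ℓ : ℕ) [NeZero N] (hℓ : ℓ.Prime)
    (hℓN : ¬ ℓ ∣ N) (A : ValuationSubring (AlgebraicClosure ℚ)) (hA : A.LiesOverPrime ℓ) :
    ReductionInputsModL A N :=
  reductionInputsModL_of_hasRM N ℓ hℓ hℓN A hA (hRM N ℓ hℓ hℓN A hA)

end Modular

end Fermat.Agent.RED.H17

end
end
-- ==== END Fermat.Agent.RED.H17_RI

-- ==== BEGIN Fermat.Agent.RED.H51_HR
section
attribute [local instance 10000] SubalgebraClass.toAlgebra
attribute [local instance 10000] HahnSeries.powerSeriesAlgebra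

/-!
# G-RED package HR-RED, wiring (helper51)

`stmt_HR_of : Stmt_HRcore → Stmt_RM → S15.Stmt_HR p` (`p` prime): the kernel of the reduction
`J₀(p) → J₀(p)~` modulo `ℓ ≠ p` is stable under the Hecke ring `ℤ[X_s]` acting by the prelude's
`heckeModuleBar`.

* `isRed_of_good` : the conservation law `IsRed` from its existential form (every principal
  divisor is the divisor of SOME Gauss unit `x` with `r_* (div x) = div (res x)`).
* `hr_transport` : the place reduction `r₀` hidden in `reductionModL` takes values in the places of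
  `k(j(q^d) : d ∣ N)`; this field is the reduced field (`stmt_GA`), `r₀` has the conservation
  law, hence it is THE reduction map (`H33.isRed_unique`) and `Stmt_HRcore` applies.
* `reductionModL_heckeOperatorBar` : the kernel of `reductionModL` is stable under `T_s`.
* `reductionModL_hsmul` : ... and under the Hecke ring.

This file contains no `sorry`.
-/

set_option autoImplicit false
set_option linter.style.haveILetI false
set_option linter.unusedSectionVars false
set_option synthInstance.maxHeartbeats 400000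
set_option maxHeartbeats 1000000

noncomputable section

open AlgebraicCurve ModularCurve Fermat.Agent.S28.H73 Fermat.Agent.RED.H73 Fermat.Agent.RED

namespace Fermat.Agent.RED.H51

section Abs

variable {C : Type} [Field C] (O : ValuationSubring C)
variable {F : IntermediateField C (LaurentSeries C)} (h : HasScale O F)

/-- The conservation law from its existential form: if every principal divisor `D` is the
divisor of some Gauss unit `x` with `r_* D = div (res x)`, then `r` has the conservation law. -/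
theorem isRed_of_good [IsAlgClosed C] (hFF : IsFF C ↥F)
    (r : Place C ↥F → Place (kV O) ↥(redField O F h))
    (hgood : ∀ D : Divisor C ↥F, D.IsPrincipal →
      ∃ x : ↥(gaussValSub O F h), IsUnit x ∧ (∀ P, D P = P.ord (x : ↥F)) ∧
        ∀ Q, Finsupp.mapDomain r D Q = Q.ord (gaussResF' O h x)) :
    IsRed O h r := by
  intro f hf D hD Q
  have hf0 : (f : ↥F) ≠ 0 := by
    intro h0
    have : f = 0 := Subtype.ext h0
    rw [this] at hf
    exact not_isUnit_zero hf
  obtain ⟨x, hx, hDx, hQx⟩ := hgood D ⟨(f : ↥F), hf0, hD⟩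
  rw [hQx Q]
  have hx0 : (x : ↥F) ≠ 0 := by
    intro h0
    have : x = 0 := Subtype.ext h0
    rw [this] at hx
    exact not_isUnit_zero hx
  have hord : ∀ P : Place C ↥F, P.ord ((f : ↥F) / (x : ↥F)) = 0 := by
    intro P
    rw [div_eq_mul_inv, P.ord_mul hf0 (inv_ne_zero hx0), P.ord_inv, ← hD P, ← hDx P,
      add_neg_cancel]
  obtain ⟨c, hc⟩ := H36.const_of_ord_eq_zero hFF _ (div_ne_zero hf0 hx0) hord
  have hfx : (f : ↥F) = algebraMap C ↥F c * (x : ↥F) := by
    rw [← hc, div_mul_cancel₀ _ hx0]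
  -- `c ∈ O`
  have hxinv : x * ((hx.unit⁻¹ : (↥(gaussValSub O F h))ˣ) : ↥(gaussValSub O F h)) = 1 := by
    have := hx.unit.mul_inv
    rwa [IsUnit.unit_spec] at this
  have hcoe : (((hx.unit⁻¹ : (↥(gaussValSub O F h))ˣ) : ↥(gaussValSub O F h)) : ↥F)
      = (x : ↥F)⁻¹ := by
    have h2 : (x : ↥F)
        * (((hx.unit⁻¹ : (↥(gaussValSub O F h))ˣ) : ↥(gaussValSub O F h)) : ↥F) = 1 :=
      congrArg Subtype.val hxinv
    exact eq_inv_of_mul_eq_one_right h2
  have hcmem : algebraMap C ↥F c ∈ gaussValSub O F h := by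
    have h1 : algebraMap C ↥F c
        = ((f * ((hx.unit⁻¹ : (↥(gaussValSub O F h))ˣ) : ↥(gaussValSub O F h))
            : ↥(gaussValSub O F h)) : ↥F) := by
      rw [← hc, div_eq_mul_inv, ← hcoe]
      rfl
    rw [h1]
    exact Subtype.mem _
  have hcO : c ∈ O := (algebraMap_mem_gaussValSub_iff O h c).1 hcmem
  have hf' : f = ⟨algebraMap C ↥F c, hcmem⟩ * x := Subtype.ext hfx
  have hresc : gaussResF' O h ⟨algebraMap C ↥F c, hcmem⟩
      = algebraMap (kV O) ↥(redField O F h) (resV O ⟨c, hcO⟩) := by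
    apply Subtype.ext
    show gaussResF O h ⟨algebraMap C ↥F c, hcmem⟩
      = algebraMap (kV O) (LaurentSeries (kV O)) (resV O ⟨c, hcO⟩)
    rw [gaussResF_algebraMap O h ⟨c, hcO⟩ hcmem, algebraMap_kV]
  have hfne : gaussResF' O h f ≠ 0 := (H17.gaussResF'_ne_zero_iff_isUnit O h f).mpr hf
  have hres : gaussResF' O h f
      = algebraMap (kV O) ↥(redField O F h) (resV O ⟨c, hcO⟩) * gaussResF' O h x := by
    rw [hf', map_mul, hresc]
  have hne1 : algebraMap (kV O) ↥(redField O F h) (resV O ⟨c, hcO⟩) ≠ 0 := by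
    intro h0
    rw [h0, zero_mul] at hres
    exact hfne hres
  have hne2 : gaussResF' O h x ≠ 0 := (H17.gaussResF'_ne_zero_iff_isUnit O h x).mpr hx
  rw [hres, Q.ord_mul hne1 hne2, ord_algebraMap, zero_add]

end Abs

section Transport

variable (N ℓ s : ℕ) [NeZero N] [NeZero s]

/-- **Transport**: a map `r₀` of places with values in the places of a field `E` which IS the
reduced field, and with the existential form of the conservation law, satisfies the conclusion
of `Stmt_HRcore`. -/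
theorem hr_transport (hcore : Stmt_HRcore) (hRM : Stmt_RM) (hℓ : ℓ.Prime) (hs : s.Prime)
    (hℓN : ¬ ℓ ∣ N) (A : ValuationSubring (AlgebraicClosure ℚ)) (hA : A.LiesOverPrime ℓ)
    (hα : HeckeAlphaBarIntegral (AlgebraicClosure ℚ) N s)
    (hβ : HeckeBetaBarIntegral (AlgebraicClosure ℚ) N s)
    [HasPrincipalDivisors (AlgebraicClosure ℚ) ↥(modularFunctionFieldBar (N * s))]
    (E : IntermediateField (kV A) (LaurentSeries (kV A)))
    (e : redField A (modularFunctionFieldBar N) (hasScale_laurentBaseChange A N) = E)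
    (r₀ : Place (AlgebraicClosure ℚ) ↥(modularFunctionFieldBar N) → Place (kV A) ↥E)
    (hgood : ∀ D : Divisor (AlgebraicClosure ℚ) ↥(modularFunctionFieldBar N), D.IsPrincipal →
      ∃ (x : ↥(gaussValSub A (modularFunctionFieldBar N) (hasScale_laurentBaseChange A N)))
        (xb : ↥E), IsUnit x ∧
        gaussResF A (hasScale_laurentBaseChange A N) x = (xb : LaurentSeries (kV A)) ∧
        (∀ P, D P = P.ord (x : ↥(modularFunctionFieldBar N))) ∧
        (∀ Q, Finsupp.mapDomain r₀ D Q = Q.ord xb))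
    (D : Divisor (AlgebraicClosure ℚ) ↥(modularFunctionFieldBar N))
    (hD : Divisor.IsPrincipal (Finsupp.mapDomain r₀ D)) :
    Divisor.IsPrincipal (Finsupp.mapDomain r₀ (heckeDivBar hα hβ D)) := by
  subst e
  haveI : IsAlgClosed (kV A) := isAlgClosed_kV A
  have hFF := H95.stmt_HKA_isFF N
  have hFt := isFF_redField_bar N ℓ hℓ hℓN A hA
  have hr₀ : IsRed A (hasScale_laurentBaseChange A N) r₀ := by
    refine isRed_of_good A (hasScale_laurentBaseChange A N) hFF r₀ fun D' hD' => ?_
    obtain ⟨x, xb, hu, hx, hE, hQ⟩ := hgood D' hD'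
    refine ⟨x, hu, hE, fun Q => ?_⟩
    rw [hQ Q]
    congr 1
    exact Subtype.ext hx.symm
  obtain ⟨r, hr, hmove⟩ := hRM N ℓ hℓ hℓN A hA
  have huniq : r = r₀ := H33.isRed_unique A (hasScale_laurentBaseChange A N) hFF hFt
    (H42.fracScalable_laurentBaseChange A N) hr hr₀
  subst huniq
  exact hcore N ℓ s hℓ hs hℓN A hA hα hβ r hr hmove D hD

end Transport

section Pic

variable (N : ℕ) [NeZero N]

/-- The kernel of the reduction modulo `ℓ ∤ N` on `J₀(N)` is stable under the Hecke operators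
`T_s`, `s` any prime. -/
theorem reductionModL_heckeOperatorBar (hcore : Stmt_HRcore) (hRM : Stmt_RM) {ℓ : ℕ}
    (hℓ : ℓ.Prime) (hℓN : ¬ ℓ ∣ N) (A : ValuationSubring (AlgebraicClosure ℚ))
    (hA : A.LiesOverPrime ℓ) (s : Nat.Primes) (z : JZero N)
    (hz : reductionModL A N z = 0) : reductionModL A N (heckeOperatorBar N s z) = 0 := by
  by_cases hin : ReductionInputsModL A N
  swap
  · rw [reductionModL_of_not hin]
    rfl
  haveI : NeZero (s : ℕ) := ⟨s.2.ne_zero⟩
  obtain ⟨hα, hβ, hP, hfin, hFI, hNF⟩ := stmt_HKA N (s : ℕ)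
  obtain ⟨D, rfl⟩ := Pic0.mk_surjective z
  rw [heckeOperatorBar_apply, heckeOperatorAlong_eq hα hβ hFI hfin hNF]
  have hmk : heckePic0Bar hα hβ hFI hfin hNF (Pic0.mk D)
      = Pic0.mk (Pic0.degZeroCorrespondence (heckeBetaBar (AlgebraicClosure ℚ) N (s : ℕ))
          (heckeAlphaBar (AlgebraicClosure ℚ) N (s : ℕ)) hβ hα hFI D) := rfl
  rw [hmk, reductionModL_mk hin]
  rw [reductionModL_mk hin] at hz
  have h1 := (QuotientAddGroup.eq_zero_iff _).mp hz
  rw [AddSubgroup.mem_addSubgroupOf] at h1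
  refine (QuotientAddGroup.eq_zero_iff _).mpr (AddSubgroup.mem_addSubgroupOf.mpr ?_)
  exact hr_transport N ℓ (s : ℕ) hcore hRM hℓ s.2 hℓN A hA hα hβ _ (stmt_GA N ℓ hℓ hℓN A hA)
    (placeReductionModL hin)
    (fun D' hD' => Fermat.Agent.S18.goodDiv_of_mem_principal
      (isPlaceReductionModL_placeReductionModL hin) hin.choose_spec.2 hD')
    (D : Divisor (AlgebraicClosure ℚ) ↥(modularFunctionFieldBar N)) h1

/-- The kernel of the reduction modulo `ℓ ∤ N` on `J₀(N)` is stable under the Hecke ring. -/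
theorem reductionModL_hsmul (hcore : Stmt_HRcore) (hRM : Stmt_RM) {ℓ : ℕ}
    (hℓ : ℓ.Prime) (hℓN : ¬ ℓ ∣ N) (A : ValuationSubring (AlgebraicClosure ℚ))
    (hA : A.LiesOverPrime ℓ) (t : HeckeAlg) (z : JZero N)
    (hz : reductionModL A N z = 0) :
    reductionModL A N (Fermat.Agent.S15.hsmul N t z) = 0 := by
  unfold Fermat.Agent.S15.hsmul
  by_cases hc : HeckeOperatorsCommuteBar N
  · rw [heckeModuleBar_smul_def hc, heckeEvalBar_apply]
    have key : ∀ T ∈ Algebra.adjoin ℤ (Set.range (heckeOperatorBar N)),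
        ∀ w : JZero N, reductionModL A N w = 0 → reductionModL A N (T w) = 0 := by
      intro T hT
      induction hT using Algebra.adjoin_induction with
      | mem x hx =>
        obtain ⟨s, rfl⟩ := hx
        exact fun w hw => reductionModL_heckeOperatorBar N hcore hRM hℓ hℓN A hA s w hw
      | algebraMap a =>
        intro w hw
        rw [Module.algebraMap_end_apply, map_zsmul, hw, smul_zero]
      | add x y _ _ hx hy =>
        intro w hw
        rw [LinearMap.add_apply, map_add, hx w hw, hy w hw, add_zero]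
      | mul x y _ _ hx hy =>
        intro w hw
        rw [Module.End.mul_apply]
        exact hx _ (hy w hw)
    exact key _ (heckeEvalBarAux hc t).2 z hz
  · rw [heckeModuleBar_smul_of_not hc, map_zsmul, hz, smul_zero]

end Pic

/-- **HR** (S15 leaf) from the core `Stmt_HRcore` and the reduction map `Stmt_RM`. -/
theorem stmt_HR_of (hcore : Stmt_HRcore) (hRM : Stmt_RM) (p : ℕ) [NeZero p] (hp : p.Prime) :
    Fermat.Agent.S15.Stmt_HR p := by
  intro ℓ hℓ hℓp A hA t z _ hz
  exact reductionModL_hsmul p hcore hRM hℓ ((Nat.prime_dvd_prime_iff_eq hℓ hp).not.mpr hℓp)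
    A hA t z hz

end Fermat.Agent.RED.H51

end
end
-- ==== END Fermat.Agent.RED.H51_HR

-- ==== BEGIN Fermat.Agent.RED.HR.H11_HRell
section
attribute [local instance 10000] SubalgebraClass.toAlgebra
attribute [local instance 10000] HahnSeries.powerSeriesAlgebra

/-!
# G-RED package HR-RED, case `s = ℓ` of `Stmt_HRcore` (helper11)

`hrcore_ell` : for a reduction map `r` of level `N` (prime to `ℓ`) with the conservation law and
the moving lemma: if `r_* D` is principal then `r_* (T_ℓ D)` is principal.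

Route: Eichler–Shimura on divisors (helper95, `stmt_ES3`):
`r_* (T_ℓ D) = φ (r_* D) + ℓ φ⁻¹ (r_* D)` with `φ` the coefficientwise Frobenius of the reduced
field (from a Frobenius element at `A`, `stmt_EQ`), and semilinear automorphisms preserve
principal divisors.
-/

set_option autoImplicit false
set_option linter.style.haveILetI false
set_option synthInstance.maxHeartbeats 400000
set_option maxHeartbeats 1000000

noncomputable section

open AlgebraicCurve ModularCurve Fermat.Agent.S28.H73 Fermat.Agent.RED Fermat.Agent.RED.H73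

namespace Fermat.Agent.RED.H11

/-- **HR core, case `s = ℓ`.** -/
theorem hrcore_ell : ∀ (N ℓ : ℕ) [NeZero N] [NeZero ℓ], ℓ.Prime → ¬ ℓ ∣ N →
    ∀ A : ValuationSubring (AlgebraicClosure ℚ), A.LiesOverPrime ℓ →
    ∀ (hα : HeckeAlphaBarIntegral (AlgebraicClosure ℚ) N ℓ)
      (hβ : HeckeBetaBarIntegral (AlgebraicClosure ℚ) N ℓ)
      [HasPrincipalDivisors (AlgebraicClosure ℚ) ↥(modularFunctionFieldBar (N * ℓ))],
    ∀ r : Place (AlgebraicClosure ℚ) ↥(modularFunctionFieldBar N) →
        Place (kV A) ↥(redField A (modularFunctionFieldBar N) (hasScale_laurentBaseChange A N)),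
      IsRed A (hasScale_laurentBaseChange A N) r →
      HasMove A (hasScale_laurentBaseChange A N) r →
    ∀ D : Divisor (AlgebraicClosure ℚ) ↥(modularFunctionFieldBar N),
      Divisor.IsPrincipal (Finsupp.mapDomain r D) →
        Divisor.IsPrincipal (Finsupp.mapDomain r (heckeDivBar hα hβ D)) := by
  intro N ℓ _ _ hℓ hℓN A hA hα hβ _ r hr hmove D hD
  obtain ⟨σ₀, hσ₀⟩ := Fermat.Agent.Lib.FrobExists.exists_isFrobeniusAt ℓ hℓ A hA
  obtain ⟨gt, hgt_coeff, -⟩ :=
    H36.stmt_EQ N ℓ hℓ hℓN A hA r hr σ₀ hσ₀.mem_decompositionSubgroup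
  have hφ : ∀ (x : ↥(redField A (modularFunctionFieldBar N) (hasScale_laurentBaseChange A N)))
      (n : ℤ),
      ((gt • x : ↥(redField A (modularFunctionFieldBar N)
          (hasScale_laurentBaseChange A N))) : LaurentSeries (kV A)).coeff n
        = ((x : LaurentSeries (kV A)).coeff n) ^ ℓ := by
    intro x n
    rw [hgt_coeff x n, hσ₀.smul_residue_eq]
  have hES := H95.stmt_ES3 N ℓ hℓ hℓN A hA hα hβ r hr hmove gt hφ D
  rw [hES]
  have hD' : Finsupp.mapDomain r D ∈ Divisor.principal (K := kV A)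
      (F := ↥(redField A (modularFunctionFieldBar N) (hasScale_laurentBaseChange A N))) := hD
  exact AddSubgroup.add_mem _ (SemilinearAut.smul_mem_principal gt hD')
    (AddSubgroup.nsmul_mem _ (SemilinearAut.smul_mem_principal gt⁻¹ hD') ℓ)

end Fermat.Agent.RED.H11

end
end
-- ==== END Fermat.Agent.RED.HR.H11_HRell

-- ==== BEGIN Fermat.Agent.RED.KD.H22_IsCusp
section
attribute [local instance 10000] SubalgebraClass.toAlgebra
attribute [local instance 10000] HahnSeries.powerSeriesAlgebra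

/-!
# `IsCuspPlace` for the `q`-order place (helper22)
-/

set_option autoImplicit false

noncomputable section

namespace Fermat.Agent.RED.KD.H22

open AlgebraicCurve

/-- The `q`-order place of a subfield of `k((q))` containing an element of order `-1` is a cusp
place in the sense of `RED/Core.lean`. -/
theorem isCuspPlace_laurentPlace {k : Type} [Field k] (E : IntermediateField k (LaurentSeries k))
    (y : E) (hy : (y : LaurentSeries k).order = -1) :
    Fermat.Agent.RED.IsCuspPlace (laurentPlace E y hy) :=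
  fun f hf => ord_laurentPlace E y hy f hf

/-- Existence of the cusp place. -/
theorem exists_isCuspPlace {k : Type} [Field k] (E : IntermediateField k (LaurentSeries k))
    (y : E) (hy : (y : LaurentSeries k).order = -1) :
    ∃ P : Place k E, Fermat.Agent.RED.IsCuspPlace P :=
  ⟨_, isCuspPlace_laurentPlace E y hy⟩

/-- A cusp place is unique. -/
theorem isCuspPlace_unique {k : Type} [Field k] {E : IntermediateField k (LaurentSeries k)}
    {P Q : Place k E} (hP : Fermat.Agent.RED.IsCuspPlace P) (hQ : Fermat.Agent.RED.IsCuspPlace Q) :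
    P = Q := by
  apply Place.ext
  have key : ∀ (P : Place k E), Fermat.Agent.RED.IsCuspPlace P → ∀ x : E,
      x ∈ P.toValuationSubring ↔ x = 0 ∨ 0 ≤ (x : LaurentSeries k).order := by
    intro P hP x
    rcases eq_or_ne x 0 with rfl | hx
    · simp
    · rw [← hP x hx]
      constructor
      · intro h
        right
        have h1 : P.adicValuation x ≤ 1 := by
          have := P.adicValuation_coe ⟨x, h⟩
          rw [this]
          exact IsDedekindDomain.HeightOneSpectrum.intValuation_le_one _ _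
        have h2 : WithZero.log (P.adicValuation x) ≤ 0 := by
          rw [← WithZero.log_one]
          exact (WithZero.log_le_log (P.adicValuation_ne_zero hx) one_ne_zero).mpr h1
        show 0 ≤ -(WithZero.log (P.adicValuation x))
        omega
      · rintro (h | h)
        · exact absurd h hx
        · by_contra hmem
          have hinv : x⁻¹ ∈ P.toValuationSubring :=
            (P.toValuationSubring.mem_or_inv_mem x).resolve_left hmem
          have h1 : P.adicValuation x⁻¹ ≤ 1 := by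
            have := P.adicValuation_coe ⟨x⁻¹, hinv⟩
            rw [this]
            exact IsDedekindDomain.HeightOneSpectrum.intValuation_le_one _ _
          have h2 : 0 ≤ P.ord x⁻¹ := by
            have h3 : WithZero.log (P.adicValuation x⁻¹) ≤ 0 := by
              rw [← WithZero.log_one]
              exact (WithZero.log_le_log (P.adicValuation_ne_zero (inv_ne_zero hx))
                one_ne_zero).mpr h1
            show 0 ≤ -(WithZero.log (P.adicValuation x⁻¹))
            omega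
          rw [P.ord_inv] at h2
          have h0 : P.ord x = 0 := by omega
          -- order zero means unit
          have hu : P.adicValuation x⁻¹ = 1 := by
            have h4 : WithZero.log (P.adicValuation x⁻¹) = 0 := by
              have : P.ord x⁻¹ = 0 := by rw [P.ord_inv, h0, neg_zero]
              have h5 : -(WithZero.log (P.adicValuation x⁻¹)) = 0 := this
              omega
            have h6 := WithZero.exp_log (P.adicValuation_ne_zero (inv_ne_zero hx))
            rw [h4, WithZero.exp_zero] at h6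
            exact h6.symm
          have hunit := (P.adicValuation_coe_eq_one_iff ⟨x⁻¹, hinv⟩).mp hu
          obtain ⟨⟨a, b, hab, hba⟩, ha⟩ := hunit
          apply hmem
          have hb : (b : E) = x := by
            have h7 : a = ⟨x⁻¹, hinv⟩ := ha
            have h8 : ((a * b : P.toValuationSubring) : E) = 1 := by rw [hab]; rfl
            rw [h7] at h8
            have h9 : x⁻¹ * (b : E) = 1 := h8
            field_simp at h9
            exact h9
          rw [← hb]
          exact b.2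
  ext x
  rw [key P hP x, key Q hQ x]

end Fermat.Agent.RED.KD.H22

end
end
-- ==== END Fermat.Agent.RED.KD.H22_IsCusp

-- ==== BEGIN Fermat.Agent.S12.H66_ZCBridge
section

set_option autoImplicit false

namespace Fermat.Agent.S12.H66

open WeierstrassCurve WeierstrassCurve.Affine WeierstrassCurve.Affine.Point
open Fermat.Agent.S13

/-- The residue of an element of `V` vanishes iff its valuation is `< 1`. -/
lemma residue_eq_zero_iff_val (V : ValuationSubring Qbar) (z : V) :
    IsLocalRing.residue V z = 0 ↔ V.valuation (z : Qbar) < 1 := by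
  rw [IsLocalRing.residue_eq_zero_iff, ← ValuationSubring.coe_mem_nonunits_iff,
    V.mem_nonunits_iff]

/-- A nonsingular reduction: one of the partial derivatives is a unit. -/
theorem val_of_nonsingular_residue (W : WeierstrassCurve ℤ) (V : ValuationSubring Qbar)
    (x y : Qbar) (hx : x ∈ V) (hy : y ∈ V)
    (h : (W.map (Int.castRingHom (IsLocalRing.ResidueField V))).toAffine.Nonsingular
      (IsLocalRing.residue V ⟨x, hx⟩) (IsLocalRing.residue V ⟨y, hy⟩)) :
    ¬ V.valuation (((W.a₁ : ℤ) : Qbar) * y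
        - (3 * x ^ 2 + 2 * ((W.a₂ : ℤ) : Qbar) * x + ((W.a₄ : ℤ) : Qbar))) < 1 ∨
      ¬ V.valuation (2 * y + ((W.a₁ : ℤ) : Qbar) * x + ((W.a₃ : ℤ) : Qbar)) < 1 := by
  rw [Affine.nonsingular_iff'] at h
  obtain ⟨-, h⟩ := h
  set x' : V := ⟨x, hx⟩ with hx'
  set y' : V := ⟨y, hy⟩ with hy'
  rcases h with h | h
  · left
    intro hlt
    apply h
    have : (W.map (Int.castRingHom (IsLocalRing.ResidueField V))).toAffine.a₁
          * IsLocalRing.residue V y'
        - (3 * IsLocalRing.residue V x' ^ 2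
          + 2 * (W.map (Int.castRingHom (IsLocalRing.ResidueField V))).toAffine.a₂
            * IsLocalRing.residue V x'
          + (W.map (Int.castRingHom (IsLocalRing.ResidueField V))).toAffine.a₄)
        = IsLocalRing.residue V (((W.a₁ : ℤ) : V) * y'
          - (3 * x' ^ 2 + 2 * ((W.a₂ : ℤ) : V) * x' + ((W.a₄ : ℤ) : V))) := by
      simp only [map_sub, map_add, map_mul, map_pow, map_ofNat, map_intCast]
      rfl
    rw [this, residue_eq_zero_iff_val]
    exact hlt
  · right
    intro hlt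
    apply h
    have : 2 * IsLocalRing.residue V y'
        + (W.map (Int.castRingHom (IsLocalRing.ResidueField V))).toAffine.a₁
          * IsLocalRing.residue V x'
        + (W.map (Int.castRingHom (IsLocalRing.ResidueField V))).toAffine.a₃
        = IsLocalRing.residue V (2 * y' + ((W.a₁ : ℤ) : V) * x' + ((W.a₃ : ℤ) : V)) := by
      simp only [map_add, map_mul, map_ofNat, map_intCast]
      rfl
    rw [this, residue_eq_zero_iff_val]
    exact hlt

/-- Unpacking `InZeroComponentAt` for an affine point. -/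
theorem zc_unpack (W : WeierstrassCurve ℤ) (V : ValuationSubring Qbar) (x y : Qbar)
    (h : ((W.map (Int.castRingHom ℚ))⁄Qbar).Nonsingular x y)
    (hZ : W.InZeroComponentAt V (.some x y h)) :
    x ∉ V ∨ (x ∈ V ∧ y ∈ V ∧
      (¬ V.valuation (((W.a₁ : ℤ) : Qbar) * y
          - (3 * x ^ 2 + 2 * ((W.a₂ : ℤ) : Qbar) * x + ((W.a₄ : ℤ) : Qbar))) < 1 ∨
        ¬ V.valuation (2 * y + ((W.a₁ : ℤ) : Qbar) * x + ((W.a₃ : ℤ) : Qbar)) < 1)) := by
  rcases hZ with h0 | ⟨x', y', h', heq, hcase⟩
  · exact absurd h0 (Point.some_ne_zero h)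
  · have hxy := (Point.some.injEq _ _ _ _ _ _).mp heq
    obtain ⟨rfl, rfl⟩ := hxy
    rcases hcase with hx | ⟨hx, hy, hns⟩
    · exact Or.inl hx
    · exact Or.inr ⟨hx, hy, val_of_nonsingular_residue W V x y hx hy hns⟩

end Fermat.Agent.S12.H66

end
-- ==== END Fermat.Agent.S12.H66_ZCBridge

-- ==== BEGIN Fermat.Agent.S12.H67_RatUnit
section

set_option autoImplicit false

namespace Fermat.Agent.S12.H67

open Fermat.Agent.S13

variable {L : Type*} [Field L] {A : ValuationSubring L}

theorem val_intCast_lt_one_of_dvd {q : ℕ} (hq : (q : L) ∈ A.nonunits) {n : ℤ}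
    (h : (q : ℤ) ∣ n) : A.valuation (n : L) < 1 := by
  obtain ⟨k, rfl⟩ := h
  push_cast
  rw [map_mul]
  calc A.valuation (q : L) * A.valuation (k : L) ≤ A.valuation (q : L) * 1 := by
        gcongr; exact H63.val_intCast_le_one A k
    _ = A.valuation (q : L) := mul_one _
    _ < 1 := H63.val_lt_one_of_mem_nonunits hq

/-- A nonzero rational number which is a unit at some valuation subring over every prime
is `±1`. -/
theorem rat_eq_one_or_neg_one [CharZero L] (z : ℚ) (hz : z ≠ 0)
    (h : ∀ ℓ : ℕ, ℓ.Prime → ∃ A : ValuationSubring L, (ℓ : L) ∈ A.nonunits ∧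
      A.valuation ((z : ℚ) : L) = 1) : z = 1 ∨ z = -1 := by
  have hz' : ((z : ℚ) : L) = (z.num : L) / (z.den : L) := by
    conv_lhs => rw [← Rat.num_div_den z]
    push_cast
    rfl
  have hden0 : ((z.den : ℕ) : L) ≠ 0 := by exact_mod_cast z.den_ne_zero
  have hcop : Nat.Coprime z.num.natAbs z.den := z.reduced
  -- the numerator has no prime factor
  have hnum : z.num.natAbs = 1 := by
    by_contra hne
    obtain ⟨ℓ, hℓ, hdvd⟩ := Nat.exists_prime_and_dvd hne
    obtain ⟨A, hA, hval⟩ := h ℓ hℓ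
    have h1 : A.valuation ((z.num : ℤ) : L) < 1 :=
      val_intCast_lt_one_of_dvd hA (Int.natCast_dvd.mpr hdvd)
    have h2 : A.valuation (((z.den : ℕ) : ℤ) : L) = 1 := by
      apply H63.val_intCast_eq_one_of_not_dvd hℓ hA
      intro hd
      have hd' : ℓ ∣ z.den := by exact_mod_cast hd
      have := Nat.dvd_gcd hdvd hd'
      rw [hcop] at this
      exact hℓ.one_lt.ne' (Nat.dvd_one.mp this)
    rw [hz', map_div₀] at hval
    have h2' : A.valuation ((z.den : ℕ) : L) = 1 := by simpa using h2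
    rw [h2', div_one] at hval
    exact absurd hval (ne_of_lt h1)
  have hden : z.den = 1 := by
    by_contra hne
    obtain ⟨ℓ, hℓ, hdvd⟩ := Nat.exists_prime_and_dvd hne
    obtain ⟨A, hA, hval⟩ := h ℓ hℓ
    have h1 : A.valuation (((z.den : ℕ) : ℤ) : L) < 1 :=
      val_intCast_lt_one_of_dvd hA (by exact_mod_cast hdvd)
    have h2 : A.valuation ((z.num : ℤ) : L) = 1 := by
      apply H63.val_intCast_eq_one_of_not_dvd hℓ hA
      intro hd
      have hd' : ℓ ∣ z.num.natAbs := Int.natCast_dvd.mp hd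
      have := Nat.dvd_gcd hd' hdvd
      rw [hcop] at this
      exact hℓ.one_lt.ne' (Nat.dvd_one.mp this)
    rw [hz', map_div₀, h2] at hval
    have h1' : A.valuation ((z.den : ℕ) : L) < 1 := by simpa using h1
    have h3 : A.valuation ((z.den : ℕ) : L) = 1 := by
      have hne0 : A.valuation ((z.den : ℕ) : L) ≠ 0 := by
        rw [Ne, map_eq_zero]; exact hden0
      field_simp at hval
      exact hval.symm
    exact absurd h3 (ne_of_lt h1')
  rcases Int.natAbs_eq z.num with hn | hn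
  · left
    rw [← Rat.num_div_den z, hn, hnum, hden]; simp
  · right
    rw [← Rat.num_div_den z, hn, hnum, hden]; simp

end Fermat.Agent.S12.H67

end
-- ==== END Fermat.Agent.S12.H67_RatUnit

-- ==== BEGIN Fermat.Agent.S13.H12_FixedRat
section

set_option autoImplicit false

namespace Fermat.Agent.S13.H12

/-- `Q̄/ℚ` is Galois. -/
theorem isGalois_qbar : IsGalois ℚ (AlgebraicClosure ℚ) :=
  haveI : Algebra.IsAlgebraic ℚ (AlgebraicClosure ℚ) := AlgebraicClosure.isAlgebraic ℚ
  haveI : IsAlgClosure ℚ (AlgebraicClosure ℚ) := ⟨inferInstance, inferInstance⟩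
  inferInstance

/-- (WP5) An element of `Q̄` fixed by every automorphism is in the image of `ℚ`. -/
theorem fixed_rat (x : AlgebraicClosure ℚ)
    (h : ∀ σ : AlgebraicClosure ℚ ≃ₐ[ℚ] AlgebraicClosure ℚ, σ x = x) :
    x ∈ Set.range (algebraMap ℚ (AlgebraicClosure ℚ)) :=
  haveI := isGalois_qbar
  (InfiniteGalois.mem_range_algebraMap_iff_fixed x).mpr h

/-- (WP5, existential form.) -/
theorem exists_rat_of_fixed (x : AlgebraicClosure ℚ)
    (h : ∀ σ : AlgebraicClosure ℚ ≃ₐ[ℚ] AlgebraicClosure ℚ, σ x = x) :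
    ∃ r : ℚ, algebraMap ℚ (AlgebraicClosure ℚ) r = x :=
  fixed_rat x h

end Fermat.Agent.S13.H12

end
-- ==== END Fermat.Agent.S13.H12_FixedRat

-- ==== BEGIN Fermat.Agent.S13.WP3.I5Defs
section

set_option autoImplicit false

namespace Fermat.Agent.S13.WP3

open WeierstrassCurve WeierstrassCurve.Affine

variable {L : Type*} [Field L] [DecidableEq L]

/-- (2G-b) A `p`-torsion point (`p` prime to `2m`, `|b| = |2|^m`) whose `x`-coordinate, when
nonzero, has valuation an integral power of `|2|`, lies in `E₀`.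
Proof: `φ` from `Stmt2_M1`; `p • φ(Q) = 0`.  If `|x| ≤ |b|`: `φ(Q) = [|b|]`, so `|b|^p ∈ ⟨|b|²⟩`,
impossible for odd `p`.  If `|b| < |x| < 1`: `φ(Q) = ±[|x|]` (annulus), `|x|^p = |b|^(2j)`,
`|2|^(kp) = |2|^(2mj)`, so `kp = 2mj`, `p ∣ j`, `|x| = |b|^(2j')`, contradiction with
`|b| < |x| < 1`. -/
def Stmt2_torsion_in_E0 : Prop :=
  ∀ (A : ValuationSubring L) (W : Affine L), ModelHyp2 A W →
  ∀ lam : L, lam ^ 2 + lam = W.a₂ →
  ∀ (p m : ℕ), 0 < m → Nat.Coprime (2 * m) p →
    A.valuation W.a₄ = A.valuation (2 : L) ^ m →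
  ∀ (Q : W.Point), (p : ℤ) • Q = 0 →
    (∀ (x y : L) (h : W.Nonsingular x y), Q = .some x y h → x ≠ 0 →
      ∃ k : ℤ, A.valuation x = A.valuation (2 : L) ^ k) →
    InE0 A Q

/-- (2G-c) Pigeonhole on the reduction: `R` a set of "rational" elements, each integral one
`≡ 0` or `≡ 1`.  A `p`-torsion point `Q ∈ E₀` (`p ≥ 5` prime, `|p| = 1`) all of whose multiples
have coordinates in `R` is zero.
Proof: if `Q ≠ 0` then `Q, 2Q, 3Q` are nonzero, in `E₀` (`Stmt2_E0_add`), not in `E₁`
(`Stmt2_F1`), so `|x_k| = 1`, `|y_k| ≤ 1`, `x_k ≡ 1`, `y_k ≡ 0` or `1`; two of them have the same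
reduction, so `(i-j)Q ∈ E₁` (`Stmt2_sameRed`), nonzero and `p`-torsion: contradiction with F1. -/
def Stmt2_pigeonhole : Prop :=
  ∀ (A : ValuationSubring L) (W : Affine L), ModelHyp2 A W →
  ∀ (R : Set L), (∀ r ∈ R, A.valuation r ≤ 1 → A.valuation r < 1 ∨ A.valuation (r - 1) < 1) →
  ∀ (p : ℕ), p.Prime → 5 ≤ p → A.valuation (p : L) = 1 →
  ∀ (Q : W.Point), (p : ℤ) • Q = 0 → InE0 A Q →
    (∀ (k : ℕ) (x y : L) (h : W.Nonsingular x y), k • Q = .some x y h → x ∈ R ∧ y ∈ R) →
    Q = 0

end Fermat.Agent.S13.WP3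

end
-- ==== END Fermat.Agent.S13.WP3.I5Defs

-- ==== BEGIN Fermat.Agent.S15.Algebra
section

/-!
# S15 (Mazur's key step): the algebraic core  (helper83)

`key_algebra` is the Nakayama argument behind Mazur's specialisation lemma, in a form that needs
NO finite generation of the Mordell–Weil group (remark of helper97):

* `J` a module over a commutative ring `T` (the Hecke polynomial ring acting on `J₀(p)(ℚ̄)`),
  `M ⊆ J` a `T`-submodule (the rational points),
* `red₁ : J →+ Y₁`, `red₂ : J →+ Y₂` two additive maps (reduction modulo two primes) whose kernels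
  on `M` are `T`-stable and whose images of `M` are finitely generated groups,
* `c ∈ M` an eigenvector, `t • c = ε t • c` for a ring hom `ε : T →+* ℤ` (the cuspidal class),
* `𝔓` an ideal with `r ∣ ε t` for `t ∈ 𝔓` (`r` not a unit of `ℤ`),
* descent: every `z ∈ M` is `m • c` modulo `𝔓 M`,
* the multiples `k • c` killed by `red₁` or by `red₂` have `r ∣ k`.

Then no `y ∈ M` has `red₁ y = 0` and `red₂ (y - c) = 0`.
-/

set_option autoImplicit false

namespace Fermat.Agent.S15

open Submodule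

section FG

variable {T J Y₁ Y₂ : Type*} [CommRing T] [AddCommGroup J] [Module T J]
  [AddCommGroup Y₁] [AddCommGroup Y₂]

/-- If the images of an additive subgroup `M` under two additive maps are finitely generated,
then `M` is generated by finitely many elements modulo the common kernel. -/
theorem exists_finset_mod_ker (M : AddSubgroup J) (red₁ : J →+ Y₁) (red₂ : J →+ Y₂)
    (hfg₁ : (AddSubgroup.map red₁ M).FG) (hfg₂ : (AddSubgroup.map red₂ M).FG) :
    ∃ F : Finset J, (↑F : Set J) ⊆ M ∧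
      ∀ z ∈ M, ∃ w ∈ AddSubgroup.closure (↑F : Set J), red₁ (z - w) = 0 ∧ red₂ (z - w) = 0 := by
  classical
  -- the two images as `ℤ`-submodules
  set B₁ : Submodule ℤ Y₁ := AddSubgroup.toIntSubmodule (AddSubgroup.map red₁ M) with hB₁
  set B₂ : Submodule ℤ Y₂ := AddSubgroup.toIntSubmodule (AddSubgroup.map red₂ M) with hB₂
  have hB₁fg : B₁.FG := by
    rw [Submodule.fg_iff_addSubgroup_fg]
    exact hfg₁
  have hB₂fg : B₂.FG := by
    rw [Submodule.fg_iff_addSubgroup_fg]
    exact hfg₂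
  have : Module.Finite ℤ B₁ := Module.Finite.of_fg hB₁fg
  have : Module.Finite ℤ B₂ := Module.Finite.of_fg hB₂fg
  -- the joint map on `M`
  let Mz : Submodule ℤ J := AddSubgroup.toIntSubmodule M
  let ψ : Mz →ₗ[ℤ] B₁ × B₂ :=
    { toFun := fun z => (⟨red₁ z.1, ⟨z.1, z.2, rfl⟩⟩, ⟨red₂ z.1, ⟨z.1, z.2, rfl⟩⟩)
      map_add' := fun a b => by
        ext <;> simp
      map_smul' := fun n a => by
        ext <;> simp }
  have hrange : (LinearMap.range ψ).FG := IsNoetherian.noetherian _
  obtain ⟨s, hs⟩ := hrange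
  -- lift the generators
  have hlift : ∀ x ∈ s, ∃ z : Mz, ψ z = x := by
    intro x hx
    have : x ∈ LinearMap.range ψ := hs ▸ Submodule.subset_span hx
    exact this
  choose! g hg using hlift
  refine ⟨s.image fun x => (g x : J), ?_, ?_⟩
  · intro a ha
    rw [Finset.coe_image] at ha
    obtain ⟨x, -, rfl⟩ := ha
    exact (g x).2
  · intro z hz
    have hzr : ψ ⟨z, hz⟩ ∈ Submodule.span ℤ (s : Set (B₁ × B₂)) := by
      rw [hs]
      exact ⟨_, rfl⟩
    -- every element of the span of `s` is the image of an element of the closure of the lifts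
    have key : ∀ x ∈ Submodule.span ℤ (s : Set (B₁ × B₂)),
        ∃ w : Mz, (w : J) ∈ AddSubgroup.closure (↑(s.image fun x => (g x : J)) : Set J) ∧
          ψ w = x := by
      intro x hx
      induction hx using Submodule.span_induction with
      | mem x hx =>
        refine ⟨g x, AddSubgroup.subset_closure ?_, hg x hx⟩
        rw [Finset.coe_image]
        exact ⟨x, hx, rfl⟩
      | zero => exact ⟨0, AddSubgroup.zero_mem _, map_zero _⟩
      | add a b _ _ ha hb =>
        obtain ⟨wa, hwa, rfl⟩ := ha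
        obtain ⟨wb, hwb, rfl⟩ := hb
        exact ⟨wa + wb, AddSubgroup.add_mem _ hwa hwb, map_add _ _ _⟩
      | smul n a _ ha =>
        obtain ⟨wa, hwa, rfl⟩ := ha
        refine ⟨n • wa, ?_, map_smul _ _ _⟩
        have : ((n • wa : Mz) : J) = n • (wa : J) := rfl
        rw [this]
        exact AddSubgroup.zsmul_mem _ hwa n
    obtain ⟨w, hw, hψ⟩ := key _ hzr
    refine ⟨w, hw, ?_, ?_⟩
    · have h1 := congrArg (fun x : B₁ × B₂ => (x.1 : Y₁)) hψ
      simp only [ψ, LinearMap.coe_mk, AddHom.coe_mk] at h1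
      rw [map_sub, h1, sub_self]
    · have h2 := congrArg (fun x : B₁ × B₂ => (x.2 : Y₂)) hψ
      simp only [ψ, LinearMap.coe_mk, AddHom.coe_mk] at h2
      rw [map_sub, h2, sub_self]

end FG

section Key

open scoped Pointwise

variable {T J Y₁ Y₂ : Type*} [CommRing T] [AddCommGroup J] [Module T J]
  [AddCommGroup Y₁] [AddCommGroup Y₂]

/-- **The Nakayama core of Mazur's specialisation argument.**  See the module docstring. -/
theorem key_algebra
    (M : Submodule T J) (red₁ : J →+ Y₁) (red₂ : J →+ Y₂)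
    (hHR₁ : ∀ t : T, ∀ z ∈ M, red₁ z = 0 → red₁ (t • z) = 0)
    (hHR₂ : ∀ t : T, ∀ z ∈ M, red₂ z = 0 → red₂ (t • z) = 0)
    (hfg₁ : (AddSubgroup.map red₁ M.toAddSubgroup).FG)
    (hfg₂ : (AddSubgroup.map red₂ M.toAddSubgroup).FG)
    (ε : T →+* ℤ) (c : J) (hcM : c ∈ M) (hc : ∀ t : T, t • c = ε t • c)
    (r : ℤ) (hr : ¬ r ∣ 1) (𝔓 : Ideal T) (h𝔓 : ∀ t ∈ 𝔓, r ∣ ε t)
    (hD : ∀ z ∈ M, ∃ m : ℤ, z - m • c ∈ 𝔓 • M)
    (hinj₁ : ∀ k : ℤ, red₁ (k • c) = 0 → r ∣ k)
    (hinj₂ : ∀ k : ℤ, red₂ (k • c) = 0 → r ∣ k)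
    (y : J) (hyM : y ∈ M) (hy₁ : red₁ y = 0) (hy₂ : red₂ (y - c) = 0) : False := by
  classical
  -- the common kernel on `M`
  let K : Submodule T J :=
    { carrier := {z | z ∈ M ∧ red₁ z = 0 ∧ red₂ z = 0}
      zero_mem' := ⟨M.zero_mem, map_zero _, map_zero _⟩
      add_mem' := fun {a b} ha hb =>
        ⟨M.add_mem ha.1 hb.1, by rw [map_add, ha.2.1, hb.2.1, add_zero],
          by rw [map_add, ha.2.2, hb.2.2, add_zero]⟩
      smul_mem' := fun t z hz =>
        ⟨M.smul_mem t hz.1, hHR₁ t z hz.1 hz.2.1, hHR₂ t z hz.1 hz.2.2⟩ }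
  have hK : ∀ z, z ∈ K ↔ z ∈ M ∧ red₁ z = 0 ∧ red₂ z = 0 := fun z => Iff.rfl
  have hKM : K ≤ M := fun z hz => hz.1
  obtain ⟨F, hFM, hF⟩ := exists_finset_mod_ker M.toAddSubgroup red₁ red₂ hfg₁ hfg₂
  set N' : Submodule T J := Submodule.span T (↑F : Set J) with hN'
  have hN'fg : N'.FG := ⟨F, rfl⟩
  have hN'M : N' ≤ M := Submodule.span_le.mpr hFM
  have hclosure : ∀ w ∈ AddSubgroup.closure (↑F : Set J), w ∈ N' := by
    intro w hw
    have h1 : AddSubgroup.closure (↑F : Set J) ≤ N'.toAddSubgroup :=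
      (AddSubgroup.closure_le _).mpr Submodule.subset_span
    exact h1 hw
  have hMKN : M ≤ K ⊔ N' := by
    intro z hz
    obtain ⟨w, hw, h1, h2⟩ := hF z hz
    have hwN : w ∈ N' := hclosure w hw
    have hzw : z - w ∈ K := ⟨M.sub_mem hz (hN'M hwN), h1, h2⟩
    have : z = (z - w) + w := by abel
    rw [this]
    exact Submodule.add_mem_sup hzw hwN
  set N : Submodule T J := K ⊔ Submodule.span T {c} with hN
  have hPN : M ≤ N ⊔ 𝔓 • N' := by
    intro z hz
    obtain ⟨m, hm⟩ := hD z hz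
    have h1 : 𝔓 • M ≤ K ⊔ 𝔓 • N' := by
      calc 𝔓 • M ≤ 𝔓 • (K ⊔ N') := Submodule.smul_mono le_rfl hMKN
        _ = 𝔓 • K ⊔ 𝔓 • N' := Submodule.smul_sup _ _ _
        _ ≤ K ⊔ 𝔓 • N' := sup_le_sup_right Submodule.smul_le_right _
    have h2 : z - m • c ∈ K ⊔ 𝔓 • N' := h1 hm
    have h3 : m • c ∈ Submodule.span T {c} := by
      rw [← Int.cast_smul_eq_zsmul T m c]
      exact Submodule.smul_mem _ _ (Submodule.mem_span_singleton_self c)
    have h4 : z = (z - m • c) + m • c := by abel
    rw [h4]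
    have h5 : K ⊔ 𝔓 • N' ≤ N ⊔ 𝔓 • N' := sup_le_sup_right le_sup_left _
    have h6 : Submodule.span T {c} ≤ N ⊔ 𝔓 • N' := le_sup_of_le_left le_sup_right
    exact Submodule.add_mem _ (h5 h2) (h6 h3)
  obtain ⟨t, ht𝔓, htM⟩ :=
    Submodule.exists_sub_one_mem_and_smul_le_of_fg_of_le_sup hN'fg hN'M hPN
  -- `t • y = w + a • c`
  have hty : t • y ∈ N := htM (Submodule.smul_mem_pointwise_smul y t M hyM)
  obtain ⟨w, hw, v, hv, hwv⟩ := Submodule.mem_sup.mp hty
  obtain ⟨a, rfl⟩ := Submodule.mem_span_singleton.mp hv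
  rw [hc a] at hwv
  -- first reduction
  have h1 : red₁ (ε a • c) = 0 := by
    have e1 : ε a • c = t • y - w := by rw [← hwv]; abel
    rw [e1, map_sub, hHR₁ t y hyM hy₁, hw.2.1, sub_zero]
  have hra : r ∣ ε a := hinj₁ _ h1
  -- second reduction
  have h2 : red₂ ((ε a - ε t) • c) = 0 := by
    have e2 : (ε a - ε t) • c = t • (y - c) - w := by
      rw [smul_sub, hc t, sub_smul, ← hwv]; abel
    rw [e2, map_sub, hHR₂ t (y - c) (M.sub_mem hyM hcM) hy₂, hw.2.2, sub_zero]
  have hrat : r ∣ ε a - ε t := hinj₂ _ h2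
  have hrt : r ∣ ε t := by
    have := dvd_sub hra hrat
    rwa [sub_sub_cancel] at this
  have hrt1 : r ∣ ε (t - 1) := h𝔓 _ ht𝔓
  apply hr
  have := dvd_sub hrt hrt1
  rwa [map_sub, map_one, sub_sub_cancel] at this

end Key

end Fermat.Agent.S15

end
-- ==== END Fermat.Agent.S15.Algebra

-- ==== BEGIN Fermat.Agent.S15.An.Defs
section

set_option autoImplicit false

noncomputable section

open UpperHalfPlane
open scoped PeriodPair

namespace Fermat.Agent.S15.An

/-! ### The Weierstrass function -/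

/-- (AN-ADD) the addition theorem, projective form. -/
def Stmt_add : Prop :=
  ∀ (L : PeriodPair) (z w : ℂ), z ∉ L.lattice → w ∉ L.lattice → z + w ∉ L.lattice →
    (℘[L] (z + w) + ℘[L] z + ℘[L] w) * (℘[L] z - ℘[L] w) ^ 2 =
      (1 / 4) * (℘'[L] z - ℘'[L] w) ^ 2

/-- (AN-DUP) the duplication formula, projective form (`℘'' = 6 ℘² - g₂/2`). -/
def Stmt_dup : Prop :=
  ∀ (L : PeriodPair) (z : ℂ), z ∉ L.lattice → 2 * z ∉ L.lattice →
    (℘[L] (2 * z) + 2 * ℘[L] z) * ℘'[L] z ^ 2 = (1 / 4) * (6 * ℘[L] z ^ 2 - L.g₂ / 2) ^ 2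

/-- (AN-INJ) `℘(a) = ℘(b)` implies `a ≡ ± b`. -/
def Stmt_inj : Prop :=
  ∀ (L : PeriodPair) (a b : ℂ), a ∉ L.lattice → b ∉ L.lattice → ℘[L] a = ℘[L] b →
    a - b ∈ L.lattice ∨ a + b ∈ L.lattice

/-- (AN-SURJ) `℘` takes every value. -/
def Stmt_surj : Prop :=
  ∀ (L : PeriodPair) (c : ℂ), ∃ z : ℂ, z ∉ L.lattice ∧ ℘[L] z = c

/-- (AN-UNIF) every pair `(g₂, g₃)` with `g₂ g₃ ≠ 0` and nonzero discriminant comes from a
lattice. -/
def Stmt_unif : Prop :=
  ∀ g2 g3 : ℂ, g2 ≠ 0 → g3 ≠ 0 → g2 ^ 3 - 27 * g3 ^ 2 ≠ 0 →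
    ∃ L : PeriodPair, L.g₂ = g2 ∧ L.g₃ = g3

/-- The `j`-invariant of a lattice. -/
def jL (L : PeriodPair) : ℂ := 1728 * L.g₂ ^ 3 / (L.g₂ ^ 3 - 27 * L.g₃ ^ 2)

/-- (AN-J) the `j`-invariant of the lattice `c (ℤ τ + ℤ)` is `j(τ)`. -/
def Stmt_jL : Prop :=
  ∀ (c : ℂ) (hc : c ≠ 0) (τ : ℍ),
    jL (Fermat.Agent.S20.H29.periodPair c hc τ) = Fermat.Agent.S24.jAn τ

/-! ### The quotient lattice -/

/-- `Ξ(e) = ∏_{k=1}^{p-1} (℘(k z₀) - e)`. -/
def XiAn (L : PeriodPair) (p : ℕ) (z₀ e : ℂ) : ℂ :=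
  ∏ k ∈ Finset.Ico 1 p, (℘[L] ((k : ℂ) * z₀) - e)

/-- The root difference `e'_j - e'_i` of the quotient lattice. -/
def cdiff (L : PeriodPair) (p : ℕ) (z₀ e e' e'' : ℂ) : ℂ :=
  (e' - e) ^ p * XiAn L p z₀ e'' / (XiAn L p z₀ e * XiAn L p z₀ e')

/-- (AN-LIOUV) the `j`-invariant of the lattice `Λ' = Λ + ℤ z₀` (`p z₀ ∈ Λ`, `p` odd) is given
by the product formula.  [`℘_{Λ'}(z) - e'_i = ∏_{k mod p} (℘_Λ(z + k z₀) - e_i) / Ξ(e_i)` by
Liouville; evaluate at the half periods, using
`(℘(z + ω_j) - e_j) (℘(z) - e_j) = (e_j - e_i) (e_j - e_l)`] -/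
def Stmt_liouv : Prop :=
  ∀ (L L' : PeriodPair) (p : ℕ) (z₀ : ℂ), p.Prime → p ≠ 2 →
    z₀ ∉ L.lattice → (p : ℂ) * z₀ ∈ L.lattice →
    (∀ z : ℂ, z ∈ L'.lattice ↔ ∃ k : ℤ, z - (k : ℂ) * z₀ ∈ L.lattice) →
    ∀ e₁ e₂ e₃ : ℂ,
      (∀ x : ℂ, 4 * x ^ 3 - L.g₂ * x - L.g₃ = 4 * ((x - e₁) * (x - e₂) * (x - e₃))) →
      jL L' = jOfDiff (cdiff L p z₀ e₁ e₂ e₃) (cdiff L p z₀ e₁ e₃ e₂) (cdiff L p z₀ e₂ e₃ e₁)

/-- (AN-BASIS) the lattices `Λ ⊂ Λ' = Λ + ℤ z₀` are homothetic to `ℤ p τ₁ + ℤ ⊂ ℤ τ₁ + ℤ`. -/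
def Stmt_basis : Prop :=
  ∀ (L : PeriodPair) (p : ℕ) (z₀ : ℂ), p.Prime →
    z₀ ∉ L.lattice → (p : ℂ) * z₀ ∈ L.lattice →
    ∃ (L' : PeriodPair) (τ₁ τ₂ : ℍ),
      (∀ z : ℂ, z ∈ L'.lattice ↔ ∃ k : ℤ, z - (k : ℂ) * z₀ ∈ L.lattice) ∧
      (τ₂ : ℂ) = (p : ℂ) * (τ₁ : ℂ) ∧
      jL L' = Fermat.Agent.S24.jAn τ₁ ∧ jL L = Fermat.Agent.S24.jAn τ₂

/-! ### The ladder -/

/-- (AN-LADDER) a point `Q` of exact order `p` of `E(ℚ̄)` is `(℘(z₀), ·)` for some `z₀` with
`p z₀ ∈ Λ`, and `x(k Q) + b₂/12 = ℘(k z₀)` for `0 < k < p`.  Here `Λ` is any lattice with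
`g₂(Λ) = c₄/12`, `g₃(Λ) = c₆/216`  (`x_short = x + b₂/12`, `y_short = 2 y + a₁ x + a₃`).
[AN-SURJ, AN-ADD/AN-DUP in x-only form, AN-INJ + the algebraic x-only ladder] -/
def Stmt_ladder : Prop :=
  ∀ (p : ℕ), p.Prime → p ≠ 2 → ∀ (W : WeierstrassCurve ℤ), W.Δ ≠ 0 →
  ∀ Q : (EBar W).Point, addOrderOf Q = p →
  ∀ L : PeriodPair, L.g₂ = (W.c₄ : ℂ) / 12 → L.g₃ = (W.c₆ : ℂ) / 216 →
    ∃ z₀ : ℂ, z₀ ∉ L.lattice ∧ (p : ℂ) * z₀ ∈ L.lattice ∧
      ∀ k : ℕ, 0 < k → k < p → (k : ℂ) * z₀ ∉ L.lattice ∧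
        ℘[L] ((k : ℂ) * z₀) =
          Fermat.Agent.S24.iotaC
            (Fermat.Agent.Lib.Torsion.H11.xc (EBar W) (k • Q)) + (W.b₂ : ℂ) / 12

end Fermat.Agent.S15.An

end
end
-- ==== END Fermat.Agent.S15.An.Defs

-- ==== BEGIN Fermat.Agent.S15.B3.H83_Fiber
section

/-!
# S15, package B3 (helper83), part 3a: sums over the fibres of a map of places

Pure bookkeeping for `Finsupp.mapDomain r D Q = ∑_{r P = Q} D P`.
-/

set_option autoImplicit false

namespace Fermat.Agent.S15.B3

section Fiber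

variable {α β : Type*} (r : α → β) (D : α →₀ ℤ) (Q : β)

open Classical in
theorem mapDomain_apply_eq_sum :
    Finsupp.mapDomain r D Q = ∑ P ∈ D.support, if r P = Q then D P else 0 := by
  rw [Finsupp.mapDomain, Finsupp.sum_apply]
  simp only [Finsupp.sum, Finsupp.single_apply]

open Classical in
theorem mapDomain_apply_eq_sum_of_subset (E : Finset α) (hE : D.support ⊆ E) :
    Finsupp.mapDomain r D Q = ∑ P ∈ E, if r P = Q then D P else 0 := by
  rw [mapDomain_apply_eq_sum]
  refine Finset.sum_subset hE fun P _ hP => ?_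
  rw [Finsupp.notMem_support_iff.mp hP]
  simp

/-- If the fibre sum over `Q` is `≤ 0` and some point of the fibre has positive multiplicity,
then some point of the fibre has negative multiplicity. -/
theorem exists_neg_of_mapDomain_le (h : Finsupp.mapDomain r D Q ≤ 0) (x : α) (hx : r x = Q)
    (hpos : 0 < D x) : ∃ P, r P = Q ∧ D P < 0 := by
  classical
  by_contra hcon
  simp only [not_exists, not_and, not_lt] at hcon
  rw [mapDomain_apply_eq_sum] at h
  have hxs : x ∈ D.support := by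
    rw [Finsupp.mem_support_iff]
    omega
  have h1 : (if r x = Q then D x else 0) ≤ ∑ P ∈ D.support, if r P = Q then D P else 0 := by
    refine Finset.single_le_sum (f := fun P => if r P = Q then D P else 0) (fun P _ => ?_) hxs
    show 0 ≤ if r P = Q then D P else 0
    split_ifs with hP
    · exact hcon P hP
    · exact le_rfl
  rw [if_pos hx] at h1
  omega

open Classical in
/-- Splitting off a finite set `E` outside of which `D ≥ 0`. -/
theorem fiber_split (E : Finset α) (hE : ∀ P, P ∉ E → 0 ≤ D P) :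
    (∑ P ∈ E, if r P = Q then D P else 0) ≤ Finsupp.mapDomain r D Q ∧
      (Finsupp.mapDomain r D Q ≤ (∑ P ∈ E, if r P = Q then D P else 0) →
        ∀ P, P ∉ E → r P = Q → D P = 0) := by
  have hsub : D.support ⊆ E ∪ (D.support \ E) := by
    intro P hP
    by_cases h : P ∈ E
    · exact Finset.mem_union_left _ h
    · exact Finset.mem_union_right _ (Finset.mem_sdiff.mpr ⟨hP, h⟩)
  have hdisj : Disjoint E (D.support \ E) := Finset.disjoint_sdiff
  have hsum : Finsupp.mapDomain r D Q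
      = (∑ P ∈ E, if r P = Q then D P else 0)
        + ∑ P ∈ D.support \ E, if r P = Q then D P else 0 := by
    rw [mapDomain_apply_eq_sum_of_subset r D Q _ hsub, Finset.sum_union hdisj]
  have hnn : ∀ P ∈ D.support \ E, 0 ≤ (if r P = Q then D P else 0) := by
    intro P hP
    split_ifs
    · exact hE P (Finset.mem_sdiff.mp hP).2
    · exact le_rfl
  have hnn' : 0 ≤ ∑ P ∈ D.support \ E, if r P = Q then D P else 0 := Finset.sum_nonneg hnn
  refine ⟨by omega, fun hle P hPE hPQ => ?_⟩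
  have h0 : ∑ P ∈ D.support \ E, (if r P = Q then D P else 0) = 0 := by omega
  by_cases hPs : P ∈ D.support
  · have := (Finset.sum_eq_zero_iff_of_nonneg hnn).mp h0 P (Finset.mem_sdiff.mpr ⟨hPs, hPE⟩)
    rwa [if_pos hPQ] at this
  · exact Finsupp.notMem_support_iff.mp hPs

open Classical in
/-- Uniqueness: if the part of the fibre sum outside `E` is `≤ 1`, at most one point of the
fibre outside `E` has positive multiplicity. -/
theorem fiber_unique (E : Finset α) (hE : ∀ P, P ∉ E → 0 ≤ D P)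
    (h : Finsupp.mapDomain r D Q ≤ (∑ P ∈ E, if r P = Q then D P else 0) + 1)
    (x x' : α) (hx : x ∉ E) (hx' : x' ∉ E) (rx : r x = Q) (rx' : r x' = Q)
    (dx : 0 < D x) (dx' : 0 < D x') : x = x' := by
  by_contra hne
  have hsub : D.support ⊆ E ∪ (D.support \ E) := by
    intro P hP
    by_cases h : P ∈ E
    · exact Finset.mem_union_left _ h
    · exact Finset.mem_union_right _ (Finset.mem_sdiff.mpr ⟨hP, h⟩)
  have hdisj : Disjoint E (D.support \ E) := Finset.disjoint_sdiff
  have hsum : Finsupp.mapDomain r D Q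
      = (∑ P ∈ E, if r P = Q then D P else 0)
        + ∑ P ∈ D.support \ E, if r P = Q then D P else 0 := by
    rw [mapDomain_apply_eq_sum_of_subset r D Q _ hsub, Finset.sum_union hdisj]
  have hnn : ∀ P ∈ D.support \ E, 0 ≤ (if r P = Q then D P else 0) := by
    intro P hP
    split_ifs
    · exact hE P (Finset.mem_sdiff.mp hP).2
    · exact le_rfl
  have hxs : x ∈ D.support \ E :=
    Finset.mem_sdiff.mpr ⟨Finsupp.mem_support_iff.mpr (by omega), hx⟩
  have hxs' : x' ∈ D.support \ E :=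
    Finset.mem_sdiff.mpr ⟨Finsupp.mem_support_iff.mpr (by omega), hx'⟩
  have hpair : ({x, x'} : Finset α) ⊆ D.support \ E := by
    intro P hP
    simp only [Finset.mem_insert, Finset.mem_singleton] at hP
    rcases hP with rfl | rfl
    · exact hxs
    · exact hxs'
  have hle : ∑ P ∈ ({x, x'} : Finset α), (if r P = Q then D P else 0)
      ≤ ∑ P ∈ D.support \ E, if r P = Q then D P else 0 :=
    Finset.sum_le_sum_of_subset_of_nonneg hpair fun P hP _ => hnn P hP
  rw [Finset.sum_pair hne, if_pos rx, if_pos rx'] at hle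
  omega

end Fiber

end Fermat.Agent.S15.B3

end
-- ==== END Fermat.Agent.S15.B3.H83_Fiber

-- ==== BEGIN Fermat.Agent.S15.Desc.H66_BddFonDefs
section

/-!
# S15 / DESC, ROUTE-F: the Fontaine family of subgroups of `G_ℚ` (helper66)

`bddFon r` is the family of subgroups `H` of `G_ℚ = Gal(ℚ̄/ℚ)` which are open and contain the
image of `Gal(ℚ̄_r / L)` for some finite Galois extension `L / ℚ_r` whose ramification is bounded
in the sense of Fontaine (`Fermat.Agent.S56.FL.IsBddField`, cluster T).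

The place of `ℚ̄` over `r` used with this family is `padicPlace r` (prelude), the place cut out by
the embedding `ℚ̄ → ℚ̄_r` which defines `localGaloisToGlobal r`.

* `bddFon r`, `mem_bddFon_iff`, `bddFon_mono` (the family is upward closed);
* `padicPlace_liesOver : (padicPlace r).LiesOverPrime r`.

`IsBddFamily r (padicPlace r) (bddFon r)` is proved in `H66_BddFon.lean`.
-/

set_option autoImplicit false

noncomputable section

namespace Fermat.Agent.S15.Desc.H66

open Fermat.Agent.S56.FL Fermat.Agent.Lib.LocalGlobalDense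

local notation "Qbar" => AlgebraicClosure ℚ
local notation "GQ" => (AlgebraicClosure ℚ ≃ₐ[ℚ] AlgebraicClosure ℚ)

/-- **The Fontaine family at `r`**: open subgroups of `G_ℚ` containing the image of
`Gal(ℚ̄_r / L)`, `L / ℚ_r` finite Galois with bounded ramification. -/
def bddFon (r : ℕ) [Fact r.Prime] : Set (Subgroup GQ) :=
  {H | (∃ S : Finset Qbar, ∀ σ : GQ, (∀ x ∈ S, σ x = x) → σ ∈ H) ∧
    ∃ (L : IntermediateField ℚ_[r] (PadicAlgCl r)) (_ : FiniteDimensional ℚ_[r] L),
      Normal ℚ_[r] L ∧ IsBddField r L ∧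
        ∀ τ : Gp r, τ ∈ L.fixingSubgroup → localGaloisToGlobal r τ ∈ H}

theorem mem_bddFon_iff (r : ℕ) [Fact r.Prime] (H : Subgroup GQ) :
    H ∈ bddFon r ↔ (∃ S : Finset Qbar, ∀ σ : GQ, (∀ x ∈ S, σ x = x) → σ ∈ H) ∧
      ∃ (L : IntermediateField ℚ_[r] (PadicAlgCl r)) (_ : FiniteDimensional ℚ_[r] L),
        Normal ℚ_[r] L ∧ IsBddField r L ∧
          ∀ τ : Gp r, τ ∈ L.fixingSubgroup → localGaloisToGlobal r τ ∈ H :=
  Iff.rfl

/-- The Fontaine family is upward closed. -/
theorem bddFon_mono (r : ℕ) [Fact r.Prime] {H H' : Subgroup GQ} (h : H ≤ H')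
    (hH : H ∈ bddFon r) : H' ∈ bddFon r := by
  obtain ⟨⟨S, hS⟩, L, hfin, hN, hb, hL⟩ := hH
  exact ⟨⟨S, fun σ hσ => h (hS σ hσ)⟩, L, hfin, hN, hb, fun τ hτ => h (hL τ hτ)⟩

/-- The distinguished place over `r` lies over `r`. -/
theorem padicPlace_liesOver (r : ℕ) [Fact r.Prime] : (padicPlace r).LiesOverPrime r := by
  show ((r : ℕ) : Qbar) ∈ (padicPlace r).nonunits
  rw [ValuationSubring.mem_nonunits_iff_or]
  right
  rw [← absQ_le_one_iff, map_inv₀, absQ_natCast_self, inv_inv, not_le]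
  exact_mod_cast (Fact.out : r.Prime).one_lt

end Fermat.Agent.S15.Desc.H66

end
end
-- ==== END Fermat.Agent.S15.Desc.H66_BddFonDefs
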