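-- GENERATED (merged mirror, NOTES/tools/trim/merge3_helper67.py): 7 modules of the originals, bodies verbatim.
import Fermat.Prelude.Def_AlgebraicCurve_BaseChangeGalois
import Mathlib.FieldTheory.Galois.Basic
import Mathlib.RingTheory.AlgebraicIndependent.TranscendenceBasis
import Mathlib
import Fermat.Agent.Zm.S35_L15_002
import Fermat.Agent.RED.Defs
import Fermat.Agent.Zm.S35_L01_000
import Fermat.Agent.Zm.S35_L02_000
import Fermat.Agent.Zm.S35_L06_002
import Fermat.Agent.Zm.S35_L03_002
import Fermat.Agent.S36.H61_B0Defs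
import Fermat.Agent.Zm.S33_L02_002
import Fermat.Agent.Zm.S33_L02_003
import Fermat.Agent.Zm.S35_L11_001
import Fermat.Agent.S17.OpenStab
import Fermat.Agent.Zm.S35_L11_000

-- ==== BEGIN Fermat.Agent.S15.H2_CuspEisP
section
attribute [local instance 10000] SubalgebraClass.toAlgebra
attribute [local instance 10000] HahnSeries.powerSeriesAlgebra

/-!
# S15, package CUSP-eis at `ℓ = p` (helper2): `U_p [P∞ - P0] = [P∞ - P0]`

`T = α_* β^*` on `Div(F_p)`, `α, β : F_p → F_{p²}`.  Pole count of `j` at level `p²`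
(`ψ(p²) = p² + p`, the cusps `∞`, `0` of `X₀(p²)` contribute `1 + p²`):
* the only place of `X₀(p²)` over `P0` along `α` is `cuspZero (p²)` (`restrict_alpha_zero`),
  it lies over `P0` along `β` with `e_β = 1`;
* so `T P∞ = d P∞`, `T P0 = P0 + (d - 1) P∞` (`d = deg β`), and `T (P∞ - P0) = P∞ - P0`.
-/

set_option autoImplicit false
set_option synthInstance.maxHeartbeats 400000
set_option linter.style.haveILetI false
set_option linter.unusedSectionVars false
set_option linter.unusedVariables false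

noncomputable section

open HahnSeries IntermediateField AlgebraicCurve ModularCurve

namespace Fermat.Agent.S15.H2

open Fermat.Agent.S24 (Kbar FN jF jdF modClosure asm_finrank asm_finiteDimensional
  asm_transcendental_jF h72_zerosStmt)
open Fermat.Agent.RED.KD.H22 (cuspInf cuspZero ord_cuspInf ord_cuspZero ord_cuspInf_jF
  ord_cuspZero_jF)
open Fermat.Agent.S15.H26

/-! ## The pole count at level `p²` -/

theorem dedekindPsi_sq {p : ℕ} (hp : p.Prime) : dedekindPsi (p * p) = p * p + p := by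
  have h := Fermat.Agent.S20.H19.dedekindPsi_prime_pow hp (n := 2) (by norm_num)
  have e : p * p = p ^ 2 := (pow_two p).symm
  rw [e, h]
  simp

theorem ord_cuspZero_jdF_self (N : ℕ) [NeZero N] :
    (cuspZero N).ord (jdF N N dvd_rfl) = -1 := by
  rw [ord_cuspZero N _ (Fermat.Agent.RED.KD.H22.jdF_self_ne_zero N),
    Fermat.Agent.RED.KD.H22.iota0_jdF_self, Fermat.Agent.RED.KD.H22.jBar_order]

variable (p : ℕ) [NeZero p]

/-- A pole of `j` on `X₀(p²)` other than the cusps `∞`, `0` has order at most `p - 1`. -/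
theorem pole_bound (hp : p.Prime) (W : Place Kbar (FN (p * p)))
    (hW : W.ord (jF (p * p)) < 0) (h1 : W ≠ cuspInf (p * p)) (h2 : W ≠ cuspZero (p * p)) :
    -(W.ord (jF (p * p))) ≤ (p : ℤ) - 1 := by
  classical
  have := asm_finiteDimensional (modClosure (p * p))
  obtain ⟨S, hS, hsum, -⟩ := Fermat.Agent.S24.H85.poles (K := Kbar) (F := FN (p * p))
    (jF (p * p)) (asm_transcendental_jF (modClosure (p * p))) (fun y hy _ => h72_zerosStmt y hy)
  rw [asm_finrank (modClosure (p * p)), dedekindPsi_sq hp] at hsum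
  have hp2 : (2 : ℤ) ≤ (p : ℤ) := by exact_mod_cast hp.two_le
  have hinf := ord_cuspInf_jF (p * p)
  have hzero := ord_cuspZero_jF (p * p)
  have hpp : (4 : ℤ) ≤ ((p * p : ℕ) : ℤ) := by
    push_cast
    nlinarith
  have hne : cuspInf (p * p) ≠ cuspZero (p * p) := by
    intro e
    rw [e, hzero] at hinf
    omega
  have hWS : W ∈ S := (hS W).2 hW
  have hIS : cuspInf (p * p) ∈ S := (hS _).2 (by rw [hinf]; omega)
  have hZS : cuspZero (p * p) ∈ S := (hS _).2 (by rw [hzero]; omega)
  have hsub : ({W, cuspInf (p * p), cuspZero (p * p)} : Finset (Place Kbar (FN (p * p)))) ⊆ S := by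
    intro x hx
    simp only [Finset.mem_insert, Finset.mem_singleton] at hx
    rcases hx with rfl | rfl | rfl
    · exact hWS
    · exact hIS
    · exact hZS
  have hle' : ∑ v ∈ ({W, cuspInf (p * p), cuspZero (p * p)} :
      Finset (Place Kbar (FN (p * p)))), (-(v.ord (jF (p * p))))
      ≤ ∑ v ∈ S, (-(v.ord (jF (p * p)))) :=
    Finset.sum_le_sum_of_subset_of_nonneg hsub fun v hv _ => by
      have := (hS v).1 hv
      omega
  rw [Finset.sum_neg_distrib, Finset.sum_neg_distrib, neg_le_neg_iff] at hle'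
  rw [Finset.sum_insert (by simp [h1, h2]), Finset.sum_insert (by simp [hne]),
    Finset.sum_singleton, hsum, hinf, hzero] at hle'
  push_cast at hle'
  linarith

/-! ## Restrictions of the places of `X₀(p²)` -/

section Restr

attribute [local instance] Fermat.Agent.Lib.HeckeComm.hasPrincipalDivisors_FN

variable (hα : HeckeAlphaBarIntegral Kbar p p) (hβ : HeckeBetaBarIntegral Kbar p p)

theorem alpha_jdF_self :
    heckeAlphaBar Kbar p p (jdF p p dvd_rfl) = jdF (p * p) p (dvd_mul_left p p) :=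
  Fermat.Agent.RED.H95.alpha_jdF p p dvd_rfl

theorem beta_jdF_self :
    heckeBetaBar Kbar p p (jdF p p dvd_rfl) = jdF (p * p) (p * p) dvd_rfl :=
  Fermat.Agent.RED.H95.beta_jdF p p dvd_rfl

theorem ord_cusp (hp : p.Prime) :
    (cuspInf p).ord (jF p) = -1 ∧ (cuspInf p).ord (jdF p p dvd_rfl) = -(p : ℤ) ∧
    (cuspZero p).ord (jF p) = -(p : ℤ) ∧ (cuspZero p).ord (jdF p p dvd_rfl) = -1 := by
  have h := Fermat.Agent.S15.H22.isCuspPair p
  exact ⟨h.ord_j_inf, h.ord_jN_inf, h.ord_j_zero, h.ord_jN_zero⟩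

/-- A place of `X₀(p)` which is a pole of `j(q^p)` is a cusp. -/
theorem eq_cusp_of_pole_jp (hp : p.Prime) (u : Place Kbar (FN p))
    (hu : u.ord (jdF p p dvd_rfl) < 0) : u = cuspInf p ∨ u = cuspZero p := by
  apply Fermat.Agent.S15.H30.pole_eq_of_isCuspPair hp (Fermat.Agent.S15.H22.isCuspPair p) u
  by_contra hcon
  rw [not_lt] at hcon
  have := ord_jdF_nonneg p p dvd_rfl u hcon
  omega

/-- The only place of `X₀(p²)` over `P0` along `α` is the cusp `0`. -/
theorem restrict_alpha_zero (hp : p.Prime) (W : Place Kbar (FN (p * p)))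
    (hW : W.restrictAlong (heckeAlphaBar Kbar p p) hα = cuspZero p) : W = cuspZero (p * p) := by
  by_contra hne
  obtain ⟨-, -, hz, -⟩ := ord_cusp p hp
  have h1 := Place.ord_restrictAlong (heckeAlphaBar Kbar p p) hα W (jF p)
  rw [alpha_jF, hW, hz] at h1
  have he : (0 : ℤ) < (Place.ramificationIndexAlong (heckeAlphaBar Kbar p p) W : ℤ) := by
    exact_mod_cast ramificationIndexAlong_pos (heckeAlphaBar Kbar p p) hα W
  have hp2 : (2 : ℤ) ≤ (p : ℤ) := by exact_mod_cast hp.two_le
  have hneg : W.ord (jF (p * p)) < 0 := by rw [h1]; nlinarith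
  have hinf : W ≠ cuspInf (p * p) := by
    intro e
    have h2 := ord_cuspInf_jF (p * p)
    rw [← e, h1] at h2
    nlinarith
  have hb := pole_bound p hp W hneg hinf hne
  rw [h1] at hb
  nlinarith

/-- The cusp `0` of `X₀(p²)` lies over `P0` along `β`, with ramification index `1`. -/
theorem restrict_beta_cuspZero (hp : p.Prime) :
    (cuspZero (p * p)).restrictAlong (heckeBetaBar Kbar p p) hβ = cuspZero p ∧
    Place.ramificationIndexAlong (heckeBetaBar Kbar p p) (cuspZero (p * p)) = 1 := by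
  obtain ⟨hi, hip, hz, hzp⟩ := ord_cusp p hp
  have h1 := Place.ord_restrictAlong (heckeBetaBar Kbar p p) hβ (cuspZero (p * p))
    (jdF p p dvd_rfl)
  rw [beta_jdF_self, ord_cuspZero_jdF_self] at h1
  have he : (0 : ℤ) < (Place.ramificationIndexAlong (heckeBetaBar Kbar p p)
      (cuspZero (p * p)) : ℤ) := by
    exact_mod_cast ramificationIndexAlong_pos (heckeBetaBar Kbar p p) hβ (cuspZero (p * p))
  have hp2 : (2 : ℤ) ≤ (p : ℤ) := by exact_mod_cast hp.two_le
  -- `-1 = e * ord`, `e > 0`: so `e = 1`, `ord = -1`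
  have hord : ((cuspZero (p * p)).restrictAlong (heckeBetaBar Kbar p p) hβ).ord
      (jdF p p dvd_rfl) < 0 := by
    by_contra hcon
    rw [not_lt] at hcon
    nlinarith
  have he1 : (Place.ramificationIndexAlong (heckeBetaBar Kbar p p) (cuspZero (p * p)) : ℤ) = 1 := by
    nlinarith
  have hord1 : ((cuspZero (p * p)).restrictAlong (heckeBetaBar Kbar p p) hβ).ord
      (jdF p p dvd_rfl) = -1 := by
    rw [he1] at h1
    linarith
  refine ⟨?_, by exact_mod_cast he1⟩
  rcases eq_cusp_of_pole_jp p hp _ hord with e | e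
  · exfalso
    rw [e, hip] at hord1
    omega
  · exact e

include hβ in
/-- The cusp `0` of `X₀(p²)` lies over `P0` along `α`. -/
theorem restrict_alpha_cuspZero (hp : p.Prime) :
    (cuspZero (p * p)).restrictAlong (heckeAlphaBar Kbar p p) hα = cuspZero p := by
  obtain ⟨hi, hip, hz, hzp⟩ := ord_cusp p hp
  obtain ⟨hβz, hβe⟩ := restrict_beta_cuspZero p hβ hp
  have hp2 : (2 : ℤ) ≤ (p : ℤ) := by exact_mod_cast hp.two_le
  -- `ord j_p = -p` at the cusp `0` of `X₀(p²)`
  have hB := Place.ord_restrictAlong (heckeBetaBar Kbar p p) hβ (cuspZero (p * p)) (jF p)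
  rw [beta_jF, hβz, hβe, hz] at hB
  have hA := Place.ord_restrictAlong (heckeAlphaBar Kbar p p) hα (cuspZero (p * p)) (jF p)
  rw [alpha_jF, ord_cuspZero_jF] at hA
  have hB' := Place.ord_restrictAlong (heckeAlphaBar Kbar p p) hα (cuspZero (p * p))
    (jdF p p dvd_rfl)
  rw [alpha_jdF_self, hB] at hB'
  have he : (0 : ℤ) < (Place.ramificationIndexAlong (heckeAlphaBar Kbar p p)
      (cuspZero (p * p)) : ℤ) := by
    exact_mod_cast ramificationIndexAlong_pos (heckeAlphaBar Kbar p p) hα (cuspZero (p * p))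
  have hord : ((cuspZero (p * p)).restrictAlong (heckeAlphaBar Kbar p p) hα).ord
      (jdF p p dvd_rfl) < 0 := by
    by_contra hcon
    rw [not_lt] at hcon
    push_cast at hB'
    nlinarith
  rcases eq_cusp_of_pole_jp p hp _ hord with e | e
  · exfalso
    rw [e, hi] at hA
    rw [e, hip] at hB'
    push_cast at hA hB'
    -- `e_α = p²` and `p = e_α p`
    nlinarith
  · exact e

/-- A place of `X₀(p²)` over `P∞` along `β` lies over `P∞` along `α`. -/
theorem restrict_alpha_of_beta_inf (hp : p.Prime) (W : Place Kbar (FN (p * p)))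
    (hW : W.restrictAlong (heckeBetaBar Kbar p p) hβ = cuspInf p) :
    W.restrictAlong (heckeAlphaBar Kbar p p) hα = cuspInf p := by
  obtain ⟨hi, hip, hz, hzp⟩ := ord_cusp p hp
  have hpole : (W.restrictAlong (heckeAlphaBar Kbar p p) hα).ord (jF p) < 0 := by
    apply pole_alpha_of_pole_beta p p hα hβ W
    rw [hW, hi]
    omega
  rcases Fermat.Agent.S15.H30.pole_eq_of_isCuspPair hp (Fermat.Agent.S15.H22.isCuspPair p) _
    hpole with e | e
  · exact e
  · exfalso
    have hWz := restrict_alpha_zero p hα hp W e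
    have := (restrict_beta_cuspZero p hβ hp).1
    rw [← hWz, hW] at this
    exact Fermat.Agent.S15.H30.isCuspPair_ne hp.two_le (Fermat.Agent.S15.H22.isCuspPair p) this

end Restr

/-! ## The correspondence on the cusps -/

section Gen

variable {K F F' : Type*} [Field K] [Field F] [Field F'] [Algebra K F] [Algebra K F']

theorem inertiaDegAlong_eq_one (φ : F →ₐ[K] F') (hφ : φ.toRingHom.IsIntegral) (w : Place K F')
    (h1 : w.deg = 1) : w.inertiaDegAlong φ hφ = 1 := by
  letI := algebraAlong φ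
  haveI := isScalarTower_along φ
  haveI := isIntegral_along φ hφ
  have h := w.deg_restrict_mul_inertiaDeg (F := F)
  rw [h1] at h
  exact Nat.eq_one_of_mul_eq_one_left h

end Gen

section Main

attribute [local instance] Fermat.Agent.Lib.HeckeComm.hasPrincipalDivisors_FN

variable (hα : HeckeAlphaBarIntegral Kbar p p) (hβ : HeckeBetaBarIntegral Kbar p p)

/-- `T P∞ = d P∞`, `d = deg β`. -/
theorem heckeDivBar_self_cuspInf (hp : p.Prime)
    (hFI : FundamentalIdentityAlong Kbar (heckeBetaBar Kbar p p) hβ) :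
    heckeDivBar (L := Kbar) hα hβ (Finsupp.single (cuspInf p) 1)
      = Finsupp.single (cuspInf p) (finrankAlong Kbar (heckeBetaBar Kbar p p) : ℤ) := by
  have hne : cuspInf p ≠ cuspZero p :=
    Fermat.Agent.S15.H30.isCuspPair_ne hp.two_le (Fermat.Agent.S15.H22.isCuspPair p)
  have hsupp : ∀ u, heckeDivBar (L := Kbar) hα hβ (Finsupp.single (cuspInf p) 1) u ≠ 0 →
      u = cuspInf p := by
    intro u hu
    obtain ⟨W, hWβ, hWα⟩ := heckeDivBar_single_support p p hα hβ _ u hu
    rw [← hWα]
    exact restrict_alpha_of_beta_inf p hα hβ hp W hWβ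
  have hd := Divisor.degree_correspondence (heckeBetaBar Kbar p p) (heckeAlphaBar Kbar p p)
    hβ hα hFI (Finsupp.single (cuspInf p) 1)
  rw [Divisor.degree_single, Fermat.Agent.S15.H22.place_deg_eq_one, Nat.cast_one, mul_one,
    mul_one] at hd
  have := eq_single_of_support (Fermat.Agent.S15.H22.place_deg_eq_one p)
    (heckeDivBar (L := Kbar) hα hβ (Finsupp.single (cuspInf p) 1)) (cuspZero p) (cuspInf p)
    (fun u hu => Or.inr (hsupp u hu))
    (by
      by_contra h0
      exact hne (hsupp _ h0).symm)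
  rw [this]
  congr 1

/-- The coefficient of `T P0` at `P0` is `1`. -/
theorem heckeDivBar_self_cuspZero_apply (hp : p.Prime) :
    heckeDivBar (L := Kbar) hα hβ (Finsupp.single (cuspZero p) 1) (cuspZero p) = 1 := by
  classical
  obtain ⟨hβz, hβe⟩ := restrict_beta_cuspZero p hβ hp
  have hαz := restrict_alpha_cuspZero p hα hβ hp
  show Divisor.correspondence (heckeBetaBar Kbar p p) (heckeAlphaBar Kbar p p) hβ hα
    (Finsupp.single (cuspZero p) 1) (cuspZero p) = 1
  rw [Divisor.correspondence_apply, Divisor.pullbackAlong_single, map_sum,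
    Finsupp.finsetSum_apply]
  rw [Finset.sum_eq_single (cuspZero (p * p))]
  · rw [Divisor.pushforwardAlong_single, hαz, Finsupp.single_eq_same, hβe,
      inertiaDegAlong_eq_one _ _ _ (Fermat.Agent.S15.H22.place_deg_eq_one (p * p) _)]
    norm_num
  · intro W _ hW
    rw [Divisor.pushforwardAlong_single, Finsupp.single_apply, if_neg]
    intro hWα
    exact hW (restrict_alpha_zero p hα hp W hWα)
  · intro hnot
    exact absurd (Place.mem_fiberAlong.mpr hβz) hnot

/-- `T P0 = P0 + (d - 1) P∞`. -/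
theorem heckeDivBar_self_cuspZero (hp : p.Prime)
    (hFI : FundamentalIdentityAlong Kbar (heckeBetaBar Kbar p p) hβ) :
    heckeDivBar (L := Kbar) hα hβ (Finsupp.single (cuspZero p) 1)
      = Finsupp.single (cuspZero p) 1
        + Finsupp.single (cuspInf p) ((finrankAlong Kbar (heckeBetaBar Kbar p p) : ℤ) - 1) := by
  have hcp := Fermat.Agent.S15.H22.isCuspPair p
  have hne : cuspInf p ≠ cuspZero p := Fermat.Agent.S15.H30.isCuspPair_ne hp.two_le hcp
  have h1 := heckeDivBar_self_cuspZero_apply p hα hβ hp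
  have hsupp : ∀ u, heckeDivBar (L := Kbar) hα hβ (Finsupp.single (cuspZero p) 1) u ≠ 0 →
      u = cuspInf p ∨ u = cuspZero p := by
    intro u hu
    obtain ⟨W, hWβ, hWα⟩ := heckeDivBar_single_support p p hα hβ _ u hu
    apply Fermat.Agent.S15.H30.pole_eq_of_isCuspPair hp hcp u
    rw [← hWα]
    apply pole_alpha_of_pole_beta p p hα hβ W
    rw [hWβ]
    have h0 : (cuspZero p).ord (jF p) = -(p : ℤ) := hcp.ord_j_zero
    have hp0 : (0 : ℤ) < p := by exact_mod_cast hp.pos
    rw [h0]
    omega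
  have hd := Divisor.degree_correspondence (heckeBetaBar Kbar p p) (heckeAlphaBar Kbar p p)
    hβ hα hFI (Finsupp.single (cuspZero p) 1)
  rw [Divisor.degree_single, Fermat.Agent.S15.H22.place_deg_eq_one, Nat.cast_one, mul_one,
    mul_one] at hd
  set E := heckeDivBar (L := Kbar) hα hβ (Finsupp.single (cuspZero p) 1) with hE
  have hE' := eq_single_of_support (Fermat.Agent.S15.H22.place_deg_eq_one p)
    (E - Finsupp.single (cuspZero p) 1) (cuspZero p) (cuspInf p)
    (fun u hu => by
      by_cases hu0 : u = cuspZero p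
      · exact Or.inl hu0
      · right
        have : E u ≠ 0 := by
          intro h0
          apply hu
          rw [Finsupp.sub_apply, h0, Finsupp.single_eq_of_ne hu0, sub_zero]
        rcases hsupp u this with e | e
        · exact e
        · exact absurd e hu0)
    (by rw [Finsupp.sub_apply, h1, Finsupp.single_eq_same, sub_self])
  have hdeg : Divisor.degree (E - Finsupp.single (cuspZero p) 1)
      = (finrankAlong Kbar (heckeBetaBar Kbar p p) : ℤ) - 1 := by
    rw [map_sub, Divisor.degree_single, Fermat.Agent.S15.H22.place_deg_eq_one, Nat.cast_one,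
      mul_one]
    rw [← hd]
    rfl
  rw [hdeg] at hE'
  rw [← hE', add_sub_cancel]

/-- `T (P∞ - P0) = P∞ - P0` on divisors. -/
theorem heckeDivBar_self_cusp (hp : p.Prime)
    (hFI : FundamentalIdentityAlong Kbar (heckeBetaBar Kbar p p) hβ) :
    heckeDivBar (L := Kbar) hα hβ
        (Finsupp.single (cuspInf p) 1 - Finsupp.single (cuspZero p) 1)
      = Finsupp.single (cuspInf p) 1 - Finsupp.single (cuspZero p) 1 := by
  rw [map_sub, heckeDivBar_self_cuspInf p hα hβ hp hFI, heckeDivBar_self_cuspZero p hα hβ hp hFI]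
  rw [add_comm, ← sub_sub, ← Finsupp.single_sub]
  congr 2
  ring

end Main

/-- **CUSP-eis at `ℓ = p`**: `U_p [P∞ - P0] = [P∞ - P0]` on `J₀(p)`. -/
theorem heckeOperatorBar_ptClass_self (p : ℕ) [NeZero p] (hp : p.Prime)
    (Pinf P0 : PlaceBar p) (h : IsCuspPair p Pinf P0) :
    heckeOperatorBar p ⟨p, hp⟩ (ptClass Pinf P0 h.deg_inf h.deg_zero)
      = ptClass Pinf P0 h.deg_inf h.deg_zero := by
  obtain ⟨rfl, rfl⟩ := Fermat.Agent.S15.H30.isCuspPair_unique hp
    (Fermat.Agent.S15.H22.isCuspPair p) h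
  obtain ⟨hα, hβ, hP, hfin, hFI, hNF⟩ := Fermat.Agent.RED.H51.stmt_HKA p p
  set D : Divisor.degZero (K := Kbar) (F := FN p) :=
    ⟨Finsupp.single (cuspInf p) 1 - Finsupp.single (cuspZero p) 1, by
      rw [Divisor.mem_degZero, map_sub, Divisor.degree_single, Divisor.degree_single,
        h.deg_inf, h.deg_zero, sub_self]⟩ with hD
  have key : Pic0.degZeroCorrespondence (heckeBetaBar Kbar p p) (heckeAlphaBar Kbar p p)
      hβ hα hFI D = D := by
    apply Subtype.ext
    exact heckeDivBar_self_cusp p hα hβ hp hFI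
  have h1 := Fermat.Agent.Lib.HeckeComm.heckeOperatorBar_mk p ⟨p, hp⟩ hα hβ hP hfin hFI hNF D
  have h2 : heckeOperatorBar p ⟨p, hp⟩ (Pic0.mk D) = Pic0.mk D := by
    rw [h1, key]
  exact h2

end Fermat.Agent.S15.H2

end
end
-- ==== END Fermat.Agent.S15.H2_CuspEisP

-- ==== BEGIN Fermat.Agent.S17.W2.Defs
section

/-!
# S17, package W2 (`n`-divisibility of `Pic⁰` over an algebraically closed field): interfaces

Route "orbits + canonical divisors" (helper8).  `k ⊆ Ω` fields, `Ω` algebraically closed, `F / Ω` a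
function field of one variable on which `G = Aut(Ω / k)` acts by semilinear automorphisms.

* `Setting k Ω F`: the action, a `G`-fixed function `j` and a `G`-fixed place `oo`.
* `Big k Ω`: `Ω` is not algebraic over any finitely generated extension of `k`.
* `GenStab`, `GenTrans`: the two geometric inputs (generic places are fixed by a small subgroup,
  generic places are conjugate).
* `Stmt_Core`: the abstract divisibility theorem.
-/

set_option autoImplicit false

noncomputable section

namespace Fermat.Agent.S17.W2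

open AlgebraicCurve IntermediateField

variable (k Ω F : Type) [Field k] [Field Ω] [Field F] [Algebra k Ω] [Algebra Ω F]

/-- The action of `Aut(Ω / k)` on `F`, with a fixed function and a fixed place. -/
structure Setting where
  /-- the semilinear action -/
  ρ : (Ω ≃ₐ[k] Ω) →* SemilinearAut Ω F
  baseAut_ρ : ∀ (σ : Ω ≃ₐ[k] Ω) (a : Ω), SemilinearAut.baseAut (ρ σ) a = σ a
  /-- the coordinate function -/
  j : F
  ρ_j : ∀ σ : Ω ≃ₐ[k] Ω, ρ σ • j = j
  /-- the base place -/
  oo : Place Ω F
  ρ_oo : ∀ σ : Ω ≃ₐ[k] Ω, ρ σ • oo = oo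

variable {k Ω F}

/-- `P` is a zero of `j - t`, i.e. `j(P) = t`. -/
def Setting.IsZeroAt (S : Setting k Ω F) (P : Place Ω F) (t : Ω) : Prop :=
  0 < P.ord (S.j - algebraMap Ω F t)

variable (k Ω)

/-- The automorphisms of `Ω` fixing `k` and the set `s`. -/
abbrev Gs (s : Set Ω) : Subgroup (Ω ≃ₐ[k] Ω) := (IntermediateField.adjoin k s).fixingSubgroup

/-- `Ω` has infinite transcendence degree over `k`. -/
def Big : Prop :=
  ∀ s : Set Ω, s.Finite → ∃ x : Ω, Transcendental (IntermediateField.adjoin k s) x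

variable {k Ω}

/-- **GenStab**: a place whose `j`-value `t` is transcendental over `k(s)` is fixed by the
automorphisms fixing `k(s, t, T)` for a finite set `T` of elements algebraic over `k(s, t)`. -/
def GenStab (S : Setting k Ω F) : Prop :=
  ∀ (s : Set Ω), s.Finite → ∀ (P : Place Ω F) (t : Ω), S.IsZeroAt P t →
    Transcendental (IntermediateField.adjoin k s) t →
    ∃ T : Set Ω, T.Finite ∧ (∀ c ∈ T, IsAlgebraic (IntermediateField.adjoin k (insert t s)) c) ∧
      ∀ σ ∈ Gs k Ω (insert t s ∪ T), S.ρ σ • P = P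

/-- **GenTrans**: two places with `j`-values transcendental over `k(s)` are conjugate under
`Aut(Ω / k(s))`. -/
def GenTrans (S : Setting k Ω F) : Prop :=
  ∀ (s : Set Ω), s.Finite → ∀ (P Q : Place Ω F) (t t' : Ω), S.IsZeroAt P t → S.IsZeroAt Q t' →
    Transcendental (IntermediateField.adjoin k s) t →
    Transcendental (IntermediateField.adjoin k s) t' →
    ∃ σ ∈ Gs k Ω s, S.ρ σ • P = Q

/-- **CORE**: `Pic⁰(F)` is `n`-divisible. -/
def Stmt_Core (S : Setting k Ω F) (n : ℕ) : Prop :=
  Fermat.Agent.RED.IsFF Ω F → (∀ c : Ω, S.j ≠ algebraMap Ω F c) → Big k Ω → GenStab S →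
    GenTrans S →
    {x : Pic0 Ω F | n • x = 0}.Finite → ∀ x : Pic0 Ω F, ∃ y : Pic0 Ω F, n • y = x

/-! ## Field theory (package FT) -/

/-- **FT1**: an element with finite orbit under `Aut(Ω / k(s))` is algebraic over `k(s)`. -/
def Stmt_FT1 (k Ω : Type) [Field k] [Field Ω] [Algebra k Ω] : Prop :=
  Big k Ω → ∀ (s : Set Ω), s.Finite → ∀ c : Ω,
    {d : Ω | ∃ σ ∈ Gs k Ω s, σ c = d}.Finite → IsAlgebraic (IntermediateField.adjoin k s) c

/-- **FT3**: two `K`-embeddings into `Ω` of a field `E` algebraic over `K(x)`, `x` transcendental,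
are conjugate under `Aut(Ω / K)`, `K = k(s)`. -/
def Stmt_FT3 (k Ω : Type) [Field k] [Field Ω] [Algebra k Ω] : Prop :=
  Big k Ω → ∀ (s : Set Ω), s.Finite →
    ∀ (E : Type) [Field E] [Algebra (IntermediateField.adjoin k s) E] (x : E),
      Algebra.IsAlgebraic (IntermediateField.adjoin (IntermediateField.adjoin k s) {x}) E →
      ∀ φ φ' : E →ₐ[IntermediateField.adjoin k s] Ω,
        ∃ σ ∈ Gs k Ω s, ∀ e : E, σ (φ e) = φ' e

/-- **FT4**: transcendence degree count. -/
def Stmt_FT4 (k Ω : Type) [Field k] [Field Ω] [Algebra k Ω] : Prop :=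
  ∀ (s : Set Ω) (g r : ℕ) (t : Fin g → Ω) (q : Fin r → Ω), r ≤ g →
    AlgebraicIndependent (IntermediateField.adjoin k s) t →
    (∀ i, IsAlgebraic (IntermediateField.adjoin k (s ∪ Set.range q)) (t i)) →
    r = g ∧ AlgebraicIndependent (IntermediateField.adjoin k s) q

/-- **FT5**: independence is kept when part of the family and algebraic elements over it are
adjoined to the base. -/
def Stmt_FT5 (k Ω : Type) [Field k] [Field Ω] [Algebra k Ω] : Prop :=
  ∀ (s : Set Ω) (ι ι' : Type) (a : ι → Ω) (b : ι' → Ω),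
    AlgebraicIndependent (IntermediateField.adjoin k s) (Sum.elim a b) →
    ∀ T : Set Ω, (∀ c ∈ T, IsAlgebraic (IntermediateField.adjoin k (s ∪ Set.range a)) c) →
      AlgebraicIndependent (IntermediateField.adjoin k (s ∪ Set.range a ∪ T)) b

/-- **FT6**: over a big field there are algebraically independent tuples of every length. -/
def Stmt_FT6 (k Ω : Type) [Field k] [Field Ω] [Algebra k Ω] : Prop :=
  Big k Ω → ∀ (s : Set Ω), s.Finite → ∀ g : ℕ,
    ∃ t : Fin g → Ω, AlgebraicIndependent (IntermediateField.adjoin k s) t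

/-! ## The modular instance (packages GEO and A) -/

open Fermat.Agent.GTor ModularCurve in
/-- **GEO**: over an algebraically closed `Ω ⊇ ℚ̄` there is a `Setting` on `F = Ω(X₀(N))` (the
coefficientwise action of `Aut(Ω / ℚ̄)` on `q`-expansions, `j`, the place `q = 0`) with `j`
non-constant and the two genericity properties. -/
def Stmt_GEO (Ω : Type) [Field Ω] [Algebra ℚ Ω] [Algebra (AlgebraicClosure ℚ) Ω] (N : ℕ) : Prop :=
  ∃ S : Setting (AlgebraicClosure ℚ) Ω (FNL Ω N),
    (∀ c : Ω, S.j ≠ algebraMap Ω (FNL Ω N) c) ∧ GenStab S ∧ GenTrans S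

open Fermat.Agent.GTor ModularCurve in
/-- **A** (descent `ℂ → ℚ̄`): if `Pic⁰(ℂ(X₀(N)))` is `n`-divisible, so is `J₀(N)(ℚ̄)`. -/
def Stmt_A (N n : ℕ) : Prop :=
  (∀ z : Pic0 ℂ (FNL ℂ N), ∃ y : Pic0 ℂ (FNL ℂ N), n • y = z) →
    ∀ x : JZero N, ∃ y : JZero N, n • y = x

end Fermat.Agent.S17.W2

end
end
-- ==== END Fermat.Agent.S17.W2.Defs

-- ==== BEGIN Fermat.Agent.S17.W2.H75_AUniq
section

/-!
# S17-W2, leaf A (helper75): uniqueness of the Gauss extension of a place of degree one

`v` a place of degree one of `F / k`, `M = Frac (F ⊗[k] K)`.  Every place `w` of `M / K` with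
`ord_w (ψ g) = ord_v g` for all `g ∈ F` is given by the Gauss formula on `F ⊗[k] K`; hence there is
at most one such place.
-/

set_option autoImplicit false
set_option linter.style.haveILetI false
set_option linter.unusedSectionVars false

noncomputable section

namespace Fermat.Agent.S17.W2.H75

open AlgebraicCurve WithZero IsLocalRing TensorProduct Fermat.Agent.GTor.H33

section Basic

variable {K F : Type*} [Field K] [Field F] [Algebra K F]

theorem adicValuation_eq_exp_neg_ord (w : Place K F) {f : F} (hf : f ≠ 0) :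
    w.adicValuation f = exp (-(w.ord f)) := by
  rw [Place.ord, neg_neg, exp_log (w.adicValuation_ne_zero hf)]

theorem adicValuation_algebraMap (w : Place K F) {c : K} (hc : c ≠ 0) :
    w.adicValuation (algebraMap K F c) = 1 := by
  apply le_antisymm (adicValuation_le_one_of_mem w (w.algebraMap_mem' c))
  have h1 := adicValuation_le_one_of_mem w (w.algebraMap_mem' c⁻¹)
  rw [map_inv₀, map_inv₀] at h1
  have h0 : w.adicValuation (algebraMap K F c) ≠ 0 :=
    w.adicValuation_ne_zero ((map_ne_zero _).mpr hc)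
  by_contra hlt
  rw [not_le] at hlt
  have : 1 < (w.adicValuation (algebraMap K F c))⁻¹ :=
    (one_lt_inv₀ (zero_lt_iff.mpr h0)).mpr hlt
  exact absurd h1 (not_le.mpr this)

/-- a place is determined by its order function -/
theorem place_ext_of_ord {w w' : Place K F} (h : ∀ f : F, w.ord f = w'.ord f) : w = w' := by
  apply Place.ext
  ext f
  rcases eq_or_ne f 0 with rfl | hf
  · simp
  constructor
  · intro hm
    have h1 : w.adicValuation f ≤ 1 := adicValuation_le_one_of_mem w hm
    apply mem_of_adicValuation_le_one w'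
    rw [adicValuation_eq_exp_neg_ord w' hf, ← h f, ← adicValuation_eq_exp_neg_ord w hf]
    exact h1
  · intro hm
    have h1 : w'.adicValuation f ≤ 1 := adicValuation_le_one_of_mem w' hm
    apply mem_of_adicValuation_le_one w
    rw [adicValuation_eq_exp_neg_ord w hf, h f, ← adicValuation_eq_exp_neg_ord w' hf]
    exact h1

end Basic

section Uniq

variable {k K F M : Type*} [Field k] [Field K] [Field F] [Field M] [Algebra k K] [Algebra k F]
  [Algebra K M] [Algebra k M] [IsScalarTower k K M]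
variable (ψ : F →ₐ[k] M) (v : Place k F) {I : Type*} (b : Module.Basis I k K)
variable (w : Place K M) (hw : ∀ g : F, w.ord (ψ g) = v.ord g)
include hw

theorem adicValuation_map (g : F) : w.adicValuation (ψ g) = v.adicValuation g := by
  rcases eq_or_ne g 0 with rfl | hg
  · simp
  rw [adicValuation_eq_exp_neg_ord w ((map_ne_zero ψ).mpr hg), hw,
    ← adicValuation_eq_exp_neg_ord v hg]

theorem adicValuation_tensorToField_le (x : F ⊗[k] K) :
    w.adicValuation (tensorToField (K := K) ψ x) ≤ gaussFun v b x := by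
  classical
  have hx : x = ((Algebra.TensorProduct.basis F b).repr x).sum
      (fun i a => a • (Algebra.TensorProduct.basis F b) i) :=
    ((Algebra.TensorProduct.basis F b).linearCombination_repr x).symm
  conv_lhs => rw [hx]
  rw [Finsupp.sum, map_sum]
  apply Valuation.map_sum_le
  intro i _
  rw [Algebra.TensorProduct.basis_apply, TensorProduct.smul_tmul', smul_eq_mul, mul_one,
    tensorToField_tmul, map_mul, adicValuation_map ψ v w hw]
  calc v.adicValuation ((Algebra.TensorProduct.basis F b).repr x i) *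
        w.adicValuation (algebraMap K M (b i))
      ≤ v.adicValuation ((Algebra.TensorProduct.basis F b).repr x i) * 1 :=
        mul_le_mul' le_rfl (adicValuation_le_one_of_mem w (w.algebraMap_mem' _))
    _ = v.adicValuation ((Algebra.TensorProduct.basis F b).repr x i) := mul_one _
    _ ≤ gaussFun v b x := (gaussFun_le_iff v b).mp le_rfl i

theorem adicValuation_tensorToField (hdeg : v.deg = 1) (x : F ⊗[k] K) :
    w.adicValuation (tensorToField (K := K) ψ x) = gaussFun v b x := by
  classical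
  obtain ⟨ε, hε⟩ := exists_residue v hdeg
  rcases eq_or_ne x 0 with rfl | hx
  · simp [gaussFun_zero]
  obtain ⟨i, hi, hWx⟩ := exists_gaussFun_eq v b hx
  set f := (Algebra.TensorProduct.basis F b).repr x i with hf
  have hVf : v.adicValuation f ≠ 0 := v.adicValuation_ne_zero hi
  -- normalise
  have hx1 : gaussFun v b (f⁻¹ • x) = 1 := by
    rw [gaussFun_smul, map_inv₀, hWx, inv_mul_cancel₀ hVf]
  have hT : tensorToField (K := K) ψ (f⁻¹ • x) = ψ f⁻¹ * tensorToField (K := K) ψ x := by
    have : f⁻¹ • x = (f⁻¹ ⊗ₜ[k] (1 : K)) * x := by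
      rw [Algebra.smul_def]
      rfl
    rw [this, map_mul, tensorToField_tmul, map_one, mul_one]
  suffices h1 : w.adicValuation (tensorToField (K := K) ψ (f⁻¹ • x)) = 1 by
    rw [hT, map_mul, adicValuation_map ψ v w hw, map_inv₀] at h1
    rw [hWx]
    calc w.adicValuation (tensorToField (K := K) ψ x)
        = v.adicValuation f * ((v.adicValuation f)⁻¹ *
            w.adicValuation (tensorToField (K := K) ψ x)) := by
          rw [← mul_assoc, mul_inv_cancel₀ hVf, one_mul]
      _ = v.adicValuation f := by rw [h1, mul_one]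
  obtain ⟨x', hx'⟩ := exists_gaussIncl_eq v b hx1.le
  rw [← hx'] at hx1 ⊢
  have hc : gaussRed v ε x' ≠ 0 := by
    rw [Ne, ← gaussFun_gaussIncl_lt_iff v b ε hε, hx1]
    exact lt_irrefl _
  set c : K := gaussRed v ε x' with hcdef
  -- the difference has small valuation
  have hred : gaussRed v ε (x' - (1 : v.toValuationSubring) ⊗ₜ[k] c) = 0 := by
    rw [map_sub]
    have : gaussRed v ε ((1 : v.toValuationSubring) ⊗ₜ[k] c) = c := by
      simp [gaussRed]
    rw [this, sub_self]
  have hlt : gaussFun v b (gaussIncl v (x' - (1 : v.toValuationSubring) ⊗ₜ[k] c)) < 1 :=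
    (gaussFun_gaussIncl_lt_iff v b ε hε _).mpr hred
  have hlt' : w.adicValuation (tensorToField (K := K) ψ
      (gaussIncl v (x' - (1 : v.toValuationSubring) ⊗ₜ[k] c))) < 1 :=
    lt_of_le_of_lt (adicValuation_tensorToField_le ψ v b w hw _) hlt
  have hsplit : tensorToField (K := K) ψ (gaussIncl v x') =
      algebraMap K M c + tensorToField (K := K) ψ
        (gaussIncl v (x' - (1 : v.toValuationSubring) ⊗ₜ[k] c)) := by
    rw [map_sub, map_sub]
    have : tensorToField (K := K) ψ (gaussIncl v ((1 : v.toValuationSubring) ⊗ₜ[k] c))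
        = algebraMap K M c := by
      simp [gaussIncl]
    rw [this]
    ring
  rw [hsplit]
  have hWc : w.adicValuation (algebraMap K M c) = 1 := adicValuation_algebraMap w hc
  rw [← hWc]
  exact Valuation.map_add_eq_of_lt_left _ (by rw [hWc]; exact hlt')

/-- **Uniqueness of the Gauss extension.** -/
theorem place_unique (hdeg : v.deg = 1)
    (hgen : ∀ m : M, ∃ x y : F ⊗[k] K, m = tensorToField ψ x / tensorToField ψ y)
    (w' : Place K M) (hw' : ∀ g : F, w'.ord (ψ g) = v.ord g) : w = w' := by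
  let b := Module.Basis.ofVectorSpace k K
  apply place_ext_of_ord
  intro m
  obtain ⟨x, y, rfl⟩ := hgen m
  have h1 : ∀ z : F ⊗[k] K, w.adicValuation (tensorToField (K := K) ψ z)
      = w'.adicValuation (tensorToField (K := K) ψ z) := fun z => by
    rw [adicValuation_tensorToField ψ v b w hw hdeg, adicValuation_tensorToField ψ v b w' hw' hdeg]
  simp only [Place.ord, map_div₀, h1]

end Uniq

end Fermat.Agent.S17.W2.H75

end
end
-- ==== END Fermat.Agent.S17.W2.H75_AUniq

-- ==== BEGIN Fermat.Agent.S17.W2.H75_GE4Abs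
section

/-!
# S17-W2, GEO sub-leaf G-d (helper75): abstract counting lemmas

* `rank_le_of_adjoin_range_eq_top`: `[B(E) : B] ≤ [E : A]` for a square of fields `A → E`, `A → B`,
  `E, B → F` with `E / A` algebraic and `F = B(E)`.
* `card_algHom_eq_finrank`: the number of `A`-embeddings of a finite extension `E / A` of
  characteristic `0` into an algebraically closed field is `[E : A]`.
* `card_zeros_le_finrank`: at most `[F : K(x)]` zeros of `x`.
-/

set_option autoImplicit false
set_option linter.style.haveILetI false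
set_option linter.unusedSectionVars false

noncomputable section

namespace Fermat.Agent.S17.W2.H75

open AlgebraicCurve IntermediateField

section Rank

variable {A E B F : Type} [Field A] [Field E] [Field B] [Field F]
  [Algebra A E] [Algebra B F] [Algebra A B] [Algebra A F] [Algebra E F]
  [IsScalarTower A B F] [IsScalarTower A E F]

/-- `[B(E) : B] ≤ [E : A]`. -/
theorem rank_le_of_adjoin_range_eq_top [Algebra.IsAlgebraic A E]
    (h : IntermediateField.adjoin B (Set.range (algebraMap E F)) = ⊤) :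
    Module.rank B F ≤ Module.rank A E := by
  let f : E →ₐ[A] F := IsScalarTower.toAlgHom A E F
  let L : IntermediateField A F := f.fieldRange
  let e : E ≃ₐ[A] L := AlgEquiv.ofInjectiveField f
  haveI : Algebra.IsAlgebraic A L := e.isAlgebraic
  have h1 := IntermediateField.adjoin_rank_le_of_isAlgebraic_right B L
  have h2 : (L : Set F) = Set.range (algebraMap E F) := by
    ext y
    simp [L, f]
  rw [h2, h, IntermediateField.rank_top'] at h1
  rwa [← e.toLinearEquiv.rank_eq] at h1

/-- `[B(E) : B] ≤ [E : A]`, finite form. -/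
theorem finrank_le_of_adjoin_range_eq_top [FiniteDimensional A E]
    (h : IntermediateField.adjoin B (Set.range (algebraMap E F)) = ⊤) :
    FiniteDimensional B F ∧ Module.finrank B F ≤ Module.finrank A E := by
  haveI : Algebra.IsAlgebraic A E := Algebra.IsAlgebraic.of_finite A E
  have h1 := rank_le_of_adjoin_range_eq_top (A := A) (E := E) (B := B) (F := F) h
  have h2 : Module.rank A E < Cardinal.aleph0 := Module.rank_lt_aleph0 A E
  refine ⟨Module.rank_lt_aleph0_iff.mp (h1.trans_lt h2), ?_⟩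
  exact Cardinal.toNat_le_toNat h1 h2

end Rank

section Emb

/-- The number of embeddings of a finite extension in characteristic zero. -/
theorem card_algHom_eq_finrank (A E Ω : Type) [Field A] [Field E] [Field Ω] [Algebra A E]
    [Algebra A Ω] [FiniteDimensional A E] [CharZero A] [IsAlgClosed Ω] :
    Nat.card (E →ₐ[A] Ω) = Module.finrank A E := by
  haveI : Algebra.IsAlgebraic A E := Algebra.IsAlgebraic.of_finite A E
  rw [← Field.finSepDegree_eq_of_isAlgClosed A E Ω,
    Field.finSepDegree_eq_finrank_of_isSeparable]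

end Emb

section Zeros

variable {K F : Type} [Field K] [Field F] [Algebra K F]

/-- A function `x` has at most `[F : K(x)]` zeros. -/
theorem card_zeros_le_finrank (x : F) [FiniteDimensional K⟮x⟯ F] (S : Finset (Place K F))
    (hS : ∀ v ∈ S, 0 < v.ord x) : S.card ≤ Module.finrank K⟮x⟯ F := by
  have h1 := Fermat.Agent.RED.H51.sum_ord_le_finrank x S hS
  have h2 : (S.card : ℤ) ≤ ∑ v ∈ S, v.ord x := by
    rw [Finset.card_eq_sum_ones, Nat.cast_sum]
    refine Finset.sum_le_sum fun v hv => ?_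
    have := hS v hv
    push_cast
    omega
  exact_mod_cast h2.trans h1

end Zeros

end Fermat.Agent.S17.W2.H75

end
end
-- ==== END Fermat.Agent.S17.W2.H75_GE4Abs

-- ==== BEGIN Fermat.Agent.S35.H89_FrobFinStmt
section

/-!
# S35, package FROB-FIN (helper89): finiteness of the Frobenius-fixed divisor classes

`E / k` a function field over an algebraically closed field, `Φ` a semilinear automorphism of
`E` acting on `k` by `a ↦ a ^ Q` (`Q > 1`; e.g. `k = 𝔽̄_q`, `E` the function field of
`X₀(M)` over `k` inside `k((t))`, `Φ` = the square of the coefficientwise Frobenius, `Q = q²`),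
fixing a non-constant function.  Then only finitely many classes of `Pic⁰(E)` are fixed by `Φ`
("`Pic⁰(X)(𝔽_Q)` is finite").

Proof (elementary, no Jacobian):
1. (fixed vector) a `Φ`-semilinear injective additive self-map `Ψ` of a non-zero
   finite-dimensional `k`-space has a non-zero fixed vector: on the cyclic subspace of `v₀` with
   `Ψ^m v₀ = ∑_{i<m} b_i Ψ^i v₀` look for `w = ∑ c_i Ψ^i v₀`; `Ψ w = w` becomes one polynomial
   equation `R(c) = 0`, `R = ∑ b_i^{Q^{m-1-i}} X^{Q^{m-i} - 1} - 1`, `R(0) = -1`, `R` not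
   constant (`Ψ` injective), so `R` has a root, which is not `0`.
2. `A` := a large multiple of the pole divisor of the fixed function `x` (`Φ • A = A`).  If
   `Φ • [D] = [D]`, `Φ • D = D + div u`, then `Ψ f = u · Φ f` is such a map on `L(D + A) ≠ 0`
   (Riemann), a fixed vector `f` gives `E' = D + A + div f ≥ 0` with `Φ • E' = E'`.
3. The support of `E'` consists of places fixed by `Φ^{d!}`, `d = deg A`; a place `v` fixed by
   `Θ = Φ^N` which is not a pole of `x` has `x(v)^{Q^N} = x(v)`: finitely many values, finitely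
   many places over each.  So there are finitely many such `E'`.

This file contains the statement only.
-/

set_option autoImplicit false

noncomputable section

open AlgebraicCurve

namespace Fermat.Agent.S35.H89

open Fermat.Agent.RED.H17

/-- **FROB-FIN**: finitely many classes of `Pic⁰` are fixed by a Frobenius-semilinear
automorphism which fixes a non-constant function. -/
def Stmt_FrobFin : Prop :=
  ∀ (k E : Type) [Field k] [Field E] [Algebra k E] [IsAlgClosed k],
    FFHyp k E → ∀ (g : ℕ) (c : ℤ), IsGenus k E g c →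
    ∀ (Φ : SemilinearAut k E) (Q : ℕ), 1 < Q → (∀ a : k, SemilinearAut.baseAut Φ a = a ^ Q) →
    (∃ x : E, x ∉ Set.range (algebraMap k E) ∧ Φ • x = x) →
    Set.Finite {y : Pic0 k E | Φ • y = y}

/-- The form used for S35: the `Φ`-fixed `p`-power torsion classes have bounded exponent. -/
def Stmt_FrobFinExp : Prop :=
  ∀ (k E : Type) [Field k] [Field E] [Algebra k E] [IsAlgClosed k],
    FFHyp k E → ∀ (g : ℕ) (c : ℤ), IsGenus k E g c →
    ∀ (Φ : SemilinearAut k E) (Q : ℕ), 1 < Q → (∀ a : k, SemilinearAut.baseAut Φ a = a ^ Q) →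
    (∃ x : E, x ∉ Set.range (algebraMap k E) ∧ Φ • x = x) →
    ∀ p : ℕ, ∃ e : ℕ, ∀ y : Pic0 k E, Φ • y = y → (∃ m : ℕ, p ^ m • y = 0) → p ^ e • y = 0

/-- `Stmt_FrobFin` implies `Stmt_FrobFinExp`. -/
theorem frobFinExp_of (h : Stmt_FrobFin) : Stmt_FrobFinExp := by
  intro k E _ _ _ _ H g c hg Φ Q hQ hΦ hx p
  have hfin := h k E H g c hg Φ Q hQ hΦ hx
  classical
  -- the finite set of fixed classes; for each a minimal exponent
  let S : Finset (Pic0 k E) := hfin.toFinset
  let ex : Pic0 k E → ℕ := fun y => if hy : ∃ m : ℕ, p ^ m • y = 0 then Nat.find hy else 0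
  refine ⟨S.sup ex, fun y hy hm => ?_⟩
  have hyS : y ∈ S := hfin.mem_toFinset.2 hy
  have hle : ex y ≤ S.sup ex := Finset.le_sup hyS
  have hex : p ^ ex y • y = 0 := by
    simp only [ex, dif_pos hm]
    exact Nat.find_spec hm
  obtain ⟨d, hd⟩ := Nat.exists_eq_add_of_le hle
  rw [hd, pow_add, mul_comm, mul_smul, hex, smul_zero]

end Fermat.Agent.S35.H89

end
end
-- ==== END Fermat.Agent.S35.H89_FrobFinStmt

-- ==== BEGIN Fermat.Agent.S36.H61_B0
section
attribute [local instance 10000] SubalgebraClass.toAlgebra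
attribute [local instance 10000] HahnSeries.powerSeriesAlgebra

/-!
# S36 / NU-B0: Hilbert 90 descent for invariant torsion classes (proof)

`stmt_NUB0 N : Stmt_NUB0 N` for every `N ≠ 0`.

Proof: the abstract descent of helper35 (`S17/Height/H35_MoveD.lean`: normalised cocycle, twisted
action, descent by traces) applied to the group `H` itself, acting through
`arithmeticGalois`, with the leading `q`-expansion coefficient as the rational point `∞`.
The open subgroups are the `Gal(ℚ̄/E) ∩ H`, `E` a number field.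
-/

set_option autoImplicit false
set_option linter.style.haveILetI false

noncomputable section

open AlgebraicCurve ModularCurve IntermediateField

namespace Fermat.Agent.S36.H61

open Fermat.Agent.S17 Fermat.Agent.S17.H35 Fermat.Agent.RED.H42

attribute [local instance] qbar_isAlgebraic qbar_isAlgClosure qbar_isGalois

section Lead

variable {K L : Type*} [Field K] [Field L] (ι : K →+* L)

/-- a coefficientwise field embedding preserves the order of a Laurent series. -/
theorem b0_order_coeffMap (f : LaurentSeries K) : (coeffMap ι f).order = f.order := by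
  by_cases hf : f = 0
  · subst hf; simp
  · have hne : coeffMap ι f ≠ 0 := by
      intro h
      apply hf
      ext k
      have := congrArg (fun x => HahnSeries.coeff x k) h
      simp only [coeffMap_coeff, HahnSeries.coeff_zero] at this
      rw [HahnSeries.coeff_zero]
      exact ι.injective (by rw [this, map_zero])
    refine le_antisymm ?_ ?_
    · refine HahnSeries.order_le_of_coeff_ne_zero ?_
      rw [coeffMap_coeff]
      intro h0
      exact HahnSeries.coeff_order_eq_zero.not.mpr hf (ι.injective (by rw [h0, map_zero]))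
    · refine HahnSeries.order_le_of_coeff_ne_zero ?_
      intro h0
      have := HahnSeries.coeff_order_eq_zero.not.mpr hne
      apply this
      rw [coeffMap_coeff, h0, map_zero]

/-- a coefficientwise field embedding commutes with the leading coefficient. -/
theorem b0_leadingCoeff_coeffMap (f : LaurentSeries K) :
    (coeffMap ι f).leadingCoeff = ι f.leadingCoeff := by
  rw [HahnSeries.leadingCoeff_eq, HahnSeries.leadingCoeff_eq, b0_order_coeffMap, coeffMap_coeff]

end Lead

/-- The absolute Galois group of `ℚ`. -/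
abbrev GalQb : Type := AlgebraicClosure ℚ ≃ₐ[ℚ] AlgebraicClosure ℚ

variable (N : ℕ) (H : Subgroup GalQb)

/-- The arithmetic Galois action restricted to a subgroup. -/
def rhoH : ↥H →* SemilinearAut (AlgebraicClosure ℚ) ↥(modularFunctionFieldBar N) :=
  (arithmeticGalois (modularFunctionFieldFull N)).comp H.subtype

theorem rhoH_apply (σ : ↥H) :
    rhoH N H σ = arithmeticGalois (modularFunctionFieldFull N) (σ : GalQb) := rfl

/-- The leading `q`-expansion coefficient. -/
def lcQ (f : ↥(modularFunctionFieldBar N)) : AlgebraicClosure ℚ :=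
  (f : LaurentSeries (AlgebraicClosure ℚ)).leadingCoeff

theorem lcQ_galois (σ : GalQb) (f : ↥(modularFunctionFieldBar N)) :
    lcQ N (arithmeticGalois (modularFunctionFieldFull N) σ • f) = σ (lcQ N f) := by
  unfold lcQ
  rw [coe_arithmeticGalois_smul, b0_leadingCoeff_coeffMap]
  rfl

/-- The leading coefficient datum of `F_N · ℚ̄` for the action of `H`. -/
def leadCoeffH : LeadCoeff (rhoH N H) where
  lc := lcQ N
  lc_mul f g := by
    unfold lcQ
    rw [← HahnSeries.leadingCoeff_mul]
    rfl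
  lc_algebraMap c := by
    unfold lcQ
    have h : ((algebraMap (AlgebraicClosure ℚ) ↥(modularFunctionFieldBar N) c :
        ↥(modularFunctionFieldBar N)) : LaurentSeries (AlgebraicClosure ℚ))
        = HahnSeries.single 0 c := by
      rw [← algebraMap_laurentSeries_eq_single]
      rfl
    rw [h, HahnSeries.leadingCoeff_of_single]
  lc_smul σ f := by
    rw [rhoH_apply, lcQ_galois]
    rfl
  lc_ne_zero f hf := by
    unfold lcQ
    rw [HahnSeries.leadingCoeff_ne_zero]
    intro h
    exact hf (Subtype.ext h)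

/-! ### The open subgroups of `H` -/

/-- The subgroups `Gal(ℚ̄/E) ∩ H`, `E` a number field. -/
def openFamH : Set (Subgroup ↥H) :=
  {U | ∃ E : IntermediateField ℚ (AlgebraicClosure ℚ), FiniteDimensional ℚ E ∧
    U = E.fixingSubgroup.subgroupOf H}

theorem openFamH_top : ∃ U, U ∈ openFamH H :=
  ⟨_, ⊥, inferInstance, rfl⟩

theorem openFamH_inf :
    ∀ U ∈ openFamH H, ∀ V ∈ openFamH H, ∃ W ∈ openFamH H, W ≤ U ⊓ V := by
  rintro U ⟨E₁, h₁, rfl⟩ V ⟨E₂, h₂, rfl⟩
  refine ⟨_, ⟨E₁ ⊔ E₂, IntermediateField.finiteDimensional_sup E₁ E₂, rfl⟩, ?_⟩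
  intro σ hσ
  rw [Subgroup.mem_subgroupOf, IntermediateField.fixingSubgroup_sup] at hσ
  exact ⟨Subgroup.mem_subgroupOf.2 hσ.1, Subgroup.mem_subgroupOf.2 hσ.2⟩

theorem openFamH_elem (x : ↥(modularFunctionFieldBar N)) :
    ∃ U ∈ openFamH H, ∀ σ ∈ U, rhoH N H σ • x = x := by
  obtain ⟨E, hE, h⟩ := exists_field_fixing_elem (modularFunctionFieldFull N) x
  exact ⟨_, ⟨E, hE, rfl⟩, fun σ hσ => h σ (Subgroup.mem_subgroupOf.1 hσ)⟩

theorem openFamH_fin : ∀ U ∈ openFamH H, U.FiniteIndex := by
  rintro U ⟨E, hE, rfl⟩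
  haveI : E.fixingSubgroup.FiniteIndex := by
    rw [Subgroup.finiteIndex_iff, ← IntermediateField.finrank_eq_fixingSubgroup_index]
    exact Module.finrank_pos.ne'
  infer_instance

theorem openFamH_sep : ∀ U ∈ openFamH H, ∀ σ τ : ↥H,
    (∀ c : AlgebraicClosure ℚ,
      (∀ u ∈ U, SemilinearAut.baseAut (rhoH N H u) c = c) →
        SemilinearAut.baseAut (rhoH N H σ) c = SemilinearAut.baseAut (rhoH N H τ) c) →
      σ⁻¹ * τ ∈ U := by
  rintro U ⟨E, hE, rfl⟩ σ τ h
  rw [Subgroup.mem_subgroupOf, IntermediateField.mem_fixingSubgroup_iff]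
  intro c hc
  have h1 : (σ : GalQb) c = (τ : GalQb) c :=
    h c (fun u hu =>
      (IntermediateField.mem_fixingSubgroup_iff _ _).1 (Subgroup.mem_subgroupOf.1 hu) c hc)
  show ((σ : GalQb)⁻¹ * (τ : GalQb)) c = c
  rw [AlgEquiv.mul_apply, ← h1]
  exact (σ : GalQb).symm_apply_apply c

/-! ### The descent -/

section Main

variable [NeZero N]

/-- `F_N · ℚ̄` satisfies the hypotheses of Riemann's theorem. -/
theorem hypFN : Hyp (AlgebraicClosure ℚ) ↥(modularFunctionFieldBar N) :=
  hyp_of_isFF _ _ (Fermat.Agent.RED.H95.isFF_FN N)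

omit [NeZero N] in
/-- A class fixed by `H` has an `H`-invariant divisor class in the sense of `ClassInvariant`. -/
theorem classInvariant_of_fixed
    (D₀ : Divisor.degZero (K := AlgebraicClosure ℚ) (F := ↥(modularFunctionFieldBar N)))
    (hfix : ∀ σ ∈ H, σ • (Pic0.mk D₀ : JZero N) = Pic0.mk D₀) :
    ClassInvariant (rhoH N H)
      (D₀ : Divisor (AlgebraicClosure ℚ) ↥(modularFunctionFieldBar N)) := by
  intro σ
  have h1 := hfix σ σ.2
  rw [galois_smul_pic0_def, SemilinearAut.pic0_smul_mk] at h1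
  have h2 := (QuotientAddGroup.eq).1 h1
  rw [AddSubgroup.mem_addSubgroupOf] at h2
  obtain ⟨f, hf, hord⟩ := h2
  refine ⟨f⁻¹, inv_ne_zero hf, fun v => ?_⟩
  rw [Place.ord_inv, ← hord v]
  simp only [AddSubgroup.coe_add, NegMemClass.coe_neg, SemilinearAut.coe_degZeroSMulHom,
    Finsupp.coe_add, Finsupp.coe_neg, Pi.add_apply, Pi.neg_apply, rhoH_apply]
  ring

/-- Step 1: an `H`-invariant class has an `H`-invariant representative. -/
theorem exists_invariant_rep
    (D₀ : Divisor.degZero (K := AlgebraicClosure ℚ) (F := ↥(modularFunctionFieldBar N)))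
    (hfix : ∀ σ ∈ H, σ • (Pic0.mk D₀ : JZero N) = Pic0.mk D₀) :
    ∃ A : Divisor.degZero (K := AlgebraicClosure ℚ) (F := ↥(modularFunctionFieldBar N)),
      (Pic0.mk D₀ : JZero N) = Pic0.mk A ∧
      ∀ σ : ↥H, rhoH N H σ •
        (A : Divisor (AlgebraicClosure ℚ) ↥(modularFunctionFieldBar N)) = A := by
  have Hy := hypFN N
  have hD := _root_.Fermat.Agent.S36.H61.classInvariant_of_fixed N H D₀ hfix
  -- a nonzero vector fixed by the twisted action
  have h1 : (1 : ↥(modularFunctionFieldBar N)) ∈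
      Submodule.span (AlgebraicClosure ℚ) (twistFixed (leadCoeffH N H) hD) :=
    mem_span_twistFixed (leadCoeffH N H) hD Hy (openFamH H) (openFamH_top H) (openFamH_inf H)
      (openFamH_elem N H) (openFamH_fin H) (openFamH_sep N H) 1
  obtain ⟨h₀, hh₀fix, hh₀ne⟩ : ∃ h₀ ∈ twistFixed (leadCoeffH N H) hD, h₀ ≠ 0 := by
    by_contra hcon
    simp only [not_exists, not_and, not_not] at hcon
    have hle : Submodule.span (AlgebraicClosure ℚ) (twistFixed (leadCoeffH N H) hD) ≤ ⊥ := by
      rw [Submodule.span_le]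
      intro f hf
      exact hcon f hf
    exact one_ne_zero ((Submodule.mem_bot _).1 (hle h1))
  -- the divisor of `h₀`
  obtain ⟨Dh, hDh, hdeg⟩ := Hy.principal h₀ hh₀ne
  have hAdeg : Dh + (D₀ : Divisor (AlgebraicClosure ℚ) ↥(modularFunctionFieldBar N)) ∈
      Divisor.degZero (K := AlgebraicClosure ℚ) (F := ↥(modularFunctionFieldBar N)) := by
    rw [Divisor.mem_degZero, map_add, hdeg, zero_add]
    exact D₀.2
  refine ⟨⟨_, hAdeg⟩, ?_, fun σ => ?_⟩
  · symm
    refine (QuotientAddGroup.eq).2 ?_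
    rw [AddSubgroup.mem_addSubgroupOf]
    refine ⟨h₀⁻¹, inv_ne_zero hh₀ne, fun v => ?_⟩
    rw [Place.ord_inv, ← hDh v]
    show (-(Dh + (D₀ : Divisor (AlgebraicClosure ℚ) ↥(modularFunctionFieldBar N)))
      + (D₀ : Divisor (AlgebraicClosure ℚ) ↥(modularFunctionFieldBar N))) v = -Dh v
    rw [Finsupp.add_apply, Finsupp.neg_apply, Finsupp.add_apply]
    ring
  · refine smul_divisor_eq_of_twist_fixed (leadCoeffH N H) hD (E := 0)
      (fun τ => smul_zero _) hh₀ne hh₀fix (fun v => ?_) σ
    show (Dh + (D₀ : Divisor (AlgebraicClosure ℚ) ↥(modularFunctionFieldBar N))) v = _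
    rw [Finsupp.add_apply, hDh v, Finsupp.zero_apply, add_zero]

/-- Step 2: the normalised function with divisor `n A`, `A` an `H`-invariant divisor, is fixed
by `H`. -/
theorem exists_fixed_function (n : ℕ)
    (A : Divisor.degZero (K := AlgebraicClosure ℚ) (F := ↥(modularFunctionFieldBar N)))
    (hAfix : ∀ σ : ↥H, rhoH N H σ •
        (A : Divisor (AlgebraicClosure ℚ) ↥(modularFunctionFieldBar N)) = A)
    (hnA : n • (Pic0.mk A : JZero N) = 0) :
    ∃ h : ↥(modularFunctionFieldBar N), h ≠ 0 ∧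
      (∀ P : Place (AlgebraicClosure ℚ) ↥(modularFunctionFieldBar N),
        (n : ℤ) * (A : Divisor (AlgebraicClosure ℚ) ↥(modularFunctionFieldBar N)) P
          = P.ord h) ∧
      (∀ σ : ↥H, rhoH N H σ • h = h) ∧ lcQ N h = 1 := by
  have Hy := hypFN N
  have h2 : (Pic0.mk (n • A) : JZero N) = 0 := by
    rw [← hnA]; rfl
  have h3 := (QuotientAddGroup.eq_zero_iff _).1 h2
  rw [AddSubgroup.mem_addSubgroupOf] at h3
  obtain ⟨f, hf, hford⟩ := h3
  have hlcf : lcQ N f ≠ 0 := (leadCoeffH N H).lc_ne_zero f hf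
  have hc0 : algebraMap (AlgebraicClosure ℚ) ↥(modularFunctionFieldBar N) (lcQ N f)⁻¹ ≠ 0 :=
    (map_ne_zero _).2 (inv_ne_zero hlcf)
  have hh0 : f * algebraMap (AlgebraicClosure ℚ) ↥(modularFunctionFieldBar N) (lcQ N f)⁻¹ ≠ 0 :=
    mul_ne_zero hf hc0
  have hhord : ∀ P : Place (AlgebraicClosure ℚ) ↥(modularFunctionFieldBar N),
      (n : ℤ) * (A : Divisor (AlgebraicClosure ℚ) ↥(modularFunctionFieldBar N)) P
        = P.ord (f * algebraMap (AlgebraicClosure ℚ) ↥(modularFunctionFieldBar N)
            (lcQ N f)⁻¹) := by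
    intro P
    rw [P.ord_mul hf hc0, ord_algebraMap_of_ne P (inv_ne_zero hlcf), add_zero, ← hford P]
    show _ = (n • (A : Divisor (AlgebraicClosure ℚ) ↥(modularFunctionFieldBar N))) P
    rw [Finsupp.smul_apply, nsmul_eq_mul]
  have hhlc : lcQ N (f * algebraMap (AlgebraicClosure ℚ) ↥(modularFunctionFieldBar N)
      (lcQ N f)⁻¹) = 1 := by
    have e1 := (leadCoeffH N H).lc_mul f
      (algebraMap (AlgebraicClosure ℚ) ↥(modularFunctionFieldBar N) (lcQ N f)⁻¹)
    have e2 := (leadCoeffH N H).lc_algebraMap (lcQ N f)⁻¹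
    change lcQ N _ = lcQ N f * lcQ N _ at e1
    change lcQ N _ = _ at e2
    rw [e1, e2]
    exact mul_inv_cancel₀ hlcf
  refine ⟨_, hh0, hhord, fun σ => ?_, hhlc⟩
  have hσh : rhoH N H σ • (f * algebraMap (AlgebraicClosure ℚ) ↥(modularFunctionFieldBar N)
      (lcQ N f)⁻¹) ≠ 0 := by
    rw [Ne, smul_eq_zero_iff_eq]
    exact hh0
  refine eq_of_ord_eq_of_lc_eq Hy (leadCoeffH N H) hσh hh0 (fun v => ?_) ?_
  · rw [ord_smul', ← hhord, ← hhord]
    congr 1
    have := DFunLike.congr_fun (hAfix σ) v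
    rw [SemilinearAut.divisor_smul_apply] at this
    exact this
  · have e3 := (leadCoeffH N H).lc_smul σ
      (f * algebraMap (AlgebraicClosure ℚ) ↥(modularFunctionFieldBar N) (lcQ N f)⁻¹)
    change lcQ N _ = SemilinearAut.baseAut (rhoH N H σ) (lcQ N _) at e3
    change lcQ N _ = lcQ N _
    rw [e3, hhlc, map_one]

/-- **NU-B0**: Hilbert 90 descent. -/
theorem stmt_NUB0 : Stmt_NUB0 N := by
  intro H n x hn hfix
  obtain ⟨D₀, rfl⟩ := Pic0.mk_surjective x
  obtain ⟨A, hclass, hAfix⟩ := exists_invariant_rep N H D₀ hfix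
  have hnA : n • (Pic0.mk A : JZero N) = 0 := by rw [← hclass]; exact hn
  obtain ⟨h, hh0, hhord, hhfix, hhlc⟩ := exists_fixed_function N H n A hAfix hnA
  refine ⟨A, h, hh0, hclass, hhord, fun σ hσ => hAfix ⟨σ, hσ⟩, fun σ hσ => hhfix ⟨σ, hσ⟩,
    hhlc, fun σ hσ k => ?_⟩
  have := congrArg (fun x : ↥(modularFunctionFieldBar N) =>
    (x : LaurentSeries (AlgebraicClosure ℚ)).coeff k) (hhfix ⟨σ, hσ⟩)
  simp only [rhoH_apply, coe_arithmeticGalois_smul, coeffMap_coeff] at this
  exact this

end Main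

end Fermat.Agent.S36.H61

end
end
-- ==== END Fermat.Agent.S36.H61_B0

-- ==== BEGIN Fermat.Agent.S36.NU.H88_WQ
section
attribute [local instance 10000] SubalgebraClass.toAlgebra
attribute [local instance 10000] HahnSeries.powerSeriesAlgebra

/-!
# S36, NU-B1 (helper88): the Atkin–Lehner involution `W_Q` on `F_N · Q̄`, `N = M Q`, `(M, Q) = 1`

`a Q + b M = 1`, `W = !![Q a, -b; M Q, Q]`, `det W = Q`.
* `wQ : F_N ≃ₐ[Q̄] F_N` with `wQ (j (q^(d e))) = j (q^(d e'))` for `d ∣ M`, `e e' = Q`;
* `wQ` is an involution and commutes with the coefficientwise action of `Gal(Q̄/ℚ)`.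
For `Q = q` prime this is `BAD.H88.wq`; for `Q = q ^ 2` it exchanges the cusps `∞` and `0`-type of
the three-component special fibre.
-/

set_option autoImplicit false
set_option synthInstance.maxHeartbeats 400000
set_option maxHeartbeats 1000000
set_option linter.unusedSectionVars false
set_option linter.style.haveILetI false

noncomputable section

namespace Fermat.Agent.S36.NU.H88

open Fermat.Agent.S24 Fermat.Agent.BAD.H88 ModularCurve UpperHalfPlane
open scoped MatrixGroups Manifold

/-! ## The matrix `W` -/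

/-- The Atkin–Lehner matrix `!![Q a, -b; M Q, Q]`. -/
def WmatQ (Q M : ℕ) (a b : ℤ) : Matrix (Fin 2) (Fin 2) ℤ := !![(Q : ℤ) * a, -b; (M : ℤ) * Q, Q]

theorem WmatQ_det (Q M : ℕ) (a b : ℤ) (hab : a * Q + b * M = 1) : (WmatQ Q M a b).det = Q := by
  rw [WmatQ, Matrix.det_fin_two_of]
  linear_combination (Q : ℤ) * hab

theorem WmatQ_det_pos (Q M : ℕ) (a b : ℤ) (hab : a * Q + b * M = 1) (hQ : 0 < Q) :
    0 < (WmatQ Q M a b).det := by
  rw [WmatQ_det Q M a b hab]; exact_mod_cast hQ

/-- `diag(d e, 1) W = e • (γ diag(d e', 1))` with `γ ∈ SL₂(ℤ)`, for `M = d d'`, `Q = e e'`. -/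
theorem diag_mul_WmatQ (Q M : ℕ) (a b : ℤ) (hab : a * Q + b * M = 1) (d d' e e' : ℕ)
    (hM : M = d * d') (hQ : Q = e * e') :
    ∃ γ : SL(2, ℤ), (!![((d * e : ℕ) : ℤ), 0; 0, 1] : Matrix (Fin 2) (Fin 2) ℤ) * WmatQ Q M a b
      = (e : ℤ) • (γ.1 * !![((d * e' : ℕ) : ℤ), 0; 0, 1]) := by
  refine ⟨⟨!![(e : ℤ) * a, -(d : ℤ) * b; (d' : ℤ), e'], ?_⟩, ?_⟩
  · rw [Matrix.det_fin_two_of]
    subst hM hQ
    push_cast at hab
    linear_combination hab
  · subst hM hQ
    rw [WmatQ]
    ext i j
    fin_cases i <;> fin_cases j <;>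
      simp [Matrix.mul_apply, Fin.sum_univ_two, Matrix.smul_apply] <;> ring

/-- `j (d e W τ) = j (d e' τ)`. -/
theorem compHol_JA_diagQ (Q M : ℕ) (a b : ℤ) (hab : a * Q + b * M = 1) (hQ0 : 0 < Q)
    (d d' e e' : ℕ) (hd : 0 < d) (he : 0 < e) (he' : 0 < e') (hM : M = d * d') (hQ : Q = e * e') :
    compHol (WmatQ Q M a b) (WmatQ_det_pos Q M a b hab hQ0) (JA !![((d * e : ℕ) : ℤ), 0; 0, 1])
      = JA !![((d * e' : ℕ) : ℤ), 0; 0, 1] := by
  obtain ⟨γ, hγ⟩ := diag_mul_WmatQ Q M a b hab d d' e e' hM hQ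
  have h1 : 0 < (γ.1 * !![((d * e' : ℕ) : ℤ), 0; 0, 1]).det := by
    rw [Matrix.det_mul, γ.2, one_mul]; exact diag_det_pos (d * e') (Nat.mul_pos hd he')
  rw [compHol_JA _ _ _ (diag_det_pos (d * e) (Nat.mul_pos hd he)), hγ,
    JA_smul (e : ℤ) (by exact_mod_cast he) _ h1,
    JA_mul_left γ _ (diag_det_pos (d * e') (Nat.mul_pos hd he'))]

/-! ## The automorphism `wQ` of `F_N` -/

section WQ

variable (N Q M : ℕ) (a b : ℤ) (hN : N = M * Q) (hab : a * Q + b * M = 1) [NeZero N]

include hN hab

theorem coprime_MQ : Nat.Coprime M Q := by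
  have h : IsCoprime (M : ℤ) (Q : ℤ) := ⟨b, a, by linear_combination hab⟩
  exact Nat.isCoprime_iff_coprime.mp h

theorem Q_pos : 0 < Q := by
  rcases Nat.eq_zero_or_pos Q with h | h
  · exfalso; apply NeZero.ne N; rw [hN, h, mul_zero]
  · exact h

theorem MQ_M_pos : 0 < M := by
  rcases Nat.eq_zero_or_pos M with h | h
  · exfalso; apply NeZero.ne N; rw [hN, h, zero_mul]
  · exact h

/-- The divisors of `M Q` are the `d e`, `d ∣ M`, `e ∣ Q`. -/
theorem dvd_casesQ (D : ℕ) (hD : D ∣ N) :
    ∃ d d' e e', D = d * e ∧ M = d * d' ∧ Q = e * e' := by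
  have hcop := coprime_MQ N Q M a b hN hab
  rw [hN] at hD
  have h1 : D = Nat.gcd D M * Nat.gcd D Q := by
    have h2 : Nat.gcd D (M * Q) = D := Nat.gcd_eq_left hD
    rw [← Nat.Coprime.gcd_mul D hcop, h2]
  obtain ⟨d', hd'⟩ := Nat.gcd_dvd_right D M
  obtain ⟨e', he'⟩ := Nat.gcd_dvd_right D Q
  exact ⟨Nat.gcd D M, d', Nat.gcd D Q, e', h1, hd', he'⟩

theorem dvd_of_factors (d d' e e' : ℕ) (hM : M = d * d') (hQ : Q = e * e') : d * e' ∣ N := by
  rw [hN, hM, hQ]
  exact Nat.mul_dvd_mul (Dvd.intro _ rfl) (Dvd.intro_left _ rfl)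

/-- `W` maps the analytic image of `F_N` into itself. -/
theorem compMer_emb_mem_rangeQ (x : FN N) :
    compMer (WmatQ Q M a b) (WmatQ_det_pos Q M a b hab (Q_pos N Q M a b hN hab)) (emb N x)
      ∈ (emb N).range := by
  have hx : x ∈ IntermediateField.adjoin Kbar
      {x : FN N | ∃ (d : ℕ) (_ : NeZero d) (hd : d ∣ N), x = jdF N d hd} := by
    rw [adjoin_jdF]; exact IntermediateField.mem_top
  induction hx using IntermediateField.adjoin_induction with
  | mem y hy =>
    obtain ⟨D, hD0, hD, rfl⟩ := hy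
    rw [emb_jdF, compMer_holToMer]
    obtain ⟨d, d', e, e', rfl, hM, hQ⟩ := dvd_casesQ N Q M a b hN hab D hD
    have hQ0 := Q_pos N Q M a b hN hab
    have hM0 := MQ_M_pos N Q M a b hN hab
    have hd : 0 < d := Nat.pos_of_ne_zero (by rintro rfl; rw [zero_mul] at hM; omega)
    have he : 0 < e := Nat.pos_of_ne_zero (by rintro rfl; rw [zero_mul] at hQ; omega)
    have he' : 0 < e' := Nat.pos_of_ne_zero (by rintro rfl; rw [mul_zero] at hQ; omega)
    rw [compHol_JA_diagQ Q M a b hab hQ0 d d' e e' hd he he' hM hQ]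
    haveI : NeZero (d * e') := ⟨(Nat.mul_pos hd he').ne'⟩
    have hdvd : d * e' ∣ N := dvd_of_factors N Q M a b hN hab d d' e e' hM hQ
    exact ⟨jdF N (d * e') hdvd, emb_jdF N (d * e') hdvd⟩
  | algebraMap c =>
    rw [AlgHom.commutes, AlgHom.commutes]
    exact Subalgebra.algebraMap_mem _ c
  | add y z _ _ hy hz =>
    rw [map_add, map_add]; exact add_mem hy hz
  | inv y _ hy =>
    rw [map_inv₀, map_inv₀]
    obtain ⟨t, ht⟩ := hy
    exact ⟨t⁻¹, by rw [map_inv₀]; exact congrArg _ ht⟩
  | mul y z _ _ hy hz =>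
    rw [map_mul, map_mul]; exact mul_mem hy hz

/-- The Atkin–Lehner involution `W_Q`, as an algebra homomorphism. -/
def wQHom : FN N →ₐ[Kbar] FN N :=
  ((AlgEquiv.ofInjective (emb N) (emb_injective N)).symm.toAlgHom).comp
    (((compMer (WmatQ Q M a b) (WmatQ_det_pos Q M a b hab (Q_pos N Q M a b hN hab))).comp
      (emb N)).codRestrict (emb N).range (compMer_emb_mem_rangeQ N Q M a b hN hab))

theorem emb_wQHom (x : FN N) :
    emb N (wQHom N Q M a b hN hab x)
      = compMer (WmatQ Q M a b) (WmatQ_det_pos Q M a b hab (Q_pos N Q M a b hN hab))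
          (emb N x) := by
  have h := (AlgEquiv.ofInjective (emb N) (emb_injective N)).apply_symm_apply
    ((((compMer (WmatQ Q M a b) (WmatQ_det_pos Q M a b hab (Q_pos N Q M a b hN hab))).comp
      (emb N)).codRestrict (emb N).range (compMer_emb_mem_rangeQ N Q M a b hN hab)) x)
  exact congrArg Subtype.val h

/-- `wQ (j (q^(d e))) = j (q^(d e'))` for `M = d d'`, `Q = e e'`. -/
theorem wQHom_jdF (d d' e e' : ℕ) (hM : M = d * d') (hQ : Q = e * e') [NeZero (d * e)]
    [NeZero (d * e')] (h1 : d * e ∣ N) (h2 : d * e' ∣ N) :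
    wQHom N Q M a b hN hab (jdF N (d * e) h1) = jdF N (d * e') h2 := by
  apply emb_injective N
  have hd : 0 < d := Nat.pos_of_ne_zero (by rintro rfl; exact NeZero.ne (0 * e) (zero_mul e))
  have he : 0 < e := Nat.pos_of_ne_zero (by rintro rfl; exact NeZero.ne (d * 0) (mul_zero d))
  have he' : 0 < e' := Nat.pos_of_ne_zero (by rintro rfl; exact NeZero.ne (d * 0) (mul_zero d))
  rw [emb_wQHom, emb_jdF, emb_jdF, compMer_holToMer,
    compHol_JA_diagQ Q M a b hab (Q_pos N Q M a b hN hab) d d' e e' hd he he' hM hQ]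

/-- `wQ` is an involution. -/
theorem wQHom_comp_self :
    (wQHom N Q M a b hN hab).comp (wQHom N Q M a b hN hab) = AlgHom.id Kbar (FN N) := by
  apply algHom_ext_of_adjoin _ (adjoin_jdF N)
  rintro x ⟨D, hD0, hD, rfl⟩
  rw [AlgHom.comp_apply, AlgHom.id_apply]
  obtain ⟨d, d', e, e', rfl, hM, hQ⟩ := dvd_casesQ N Q M a b hN hab D hD
  have hQ0 := Q_pos N Q M a b hN hab
  have hd : 0 < d := Nat.pos_of_ne_zero (by rintro rfl; exact NeZero.ne (0 * e) (zero_mul e))
  have he' : 0 < e' := Nat.pos_of_ne_zero (by rintro rfl; rw [mul_zero] at hQ; omega)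
  haveI : NeZero (d * e') := ⟨(Nat.mul_pos hd he').ne'⟩
  have hdvd : d * e' ∣ N := dvd_of_factors N Q M a b hN hab d d' e e' hM hQ
  rw [wQHom_jdF N Q M a b hN hab d d' e e' hM hQ hD hdvd,
    wQHom_jdF N Q M a b hN hab d d' e' e hM (by rw [hQ, mul_comm]) hdvd hD]

theorem wQHom_wQHom (x : FN N) :
    wQHom N Q M a b hN hab (wQHom N Q M a b hN hab x) = x :=
  congrArg (fun f : FN N →ₐ[Kbar] FN N => f x) (wQHom_comp_self N Q M a b hN hab)

/-- **The Atkin–Lehner involution `W_Q`** of `F_N = Q̄(j(q^d) : d ∣ N)`, `N = M Q`, `(M, Q) = 1`. -/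
def wQ : FN N ≃ₐ[Kbar] FN N :=
  AlgEquiv.ofAlgHom (wQHom N Q M a b hN hab) (wQHom N Q M a b hN hab)
    (wQHom_comp_self N Q M a b hN hab) (wQHom_comp_self N Q M a b hN hab)

theorem wQ_apply (x : FN N) : wQ N Q M a b hN hab x = wQHom N Q M a b hN hab x := rfl

theorem wQ_symm : (wQ N Q M a b hN hab).symm = wQ N Q M a b hN hab := by
  ext x
  rfl

theorem wQ_wQ (x : FN N) : wQ N Q M a b hN hab (wQ N Q M a b hN hab x) = x :=
  wQHom_wQHom N Q M a b hN hab x

/-- `wQ (j (q^(d e))) = j (q^(d e'))` for `M = d d'`, `Q = e e'`. -/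
theorem wQ_jdF (d d' e e' : ℕ) (hM : M = d * d') (hQ : Q = e * e') [NeZero (d * e)]
    [NeZero (d * e')] (h1 : d * e ∣ N) (h2 : d * e' ∣ N) :
    wQ N Q M a b hN hab (jdF N (d * e) h1) = jdF N (d * e') h2 :=
  wQHom_jdF N Q M a b hN hab d d' e e' hM hQ h1 h2

/-- Flexible form of `wQ_jdF`. -/
theorem wQ_jdF' (D D' d d' e e' : ℕ) (hD : D = d * e) (hD' : D' = d * e') (hM : M = d * d')
    (hQ : Q = e * e') [NeZero D] [NeZero D'] (h1 : D ∣ N) (h2 : D' ∣ N) :
    wQ N Q M a b hN hab (jdF N D h1) = jdF N D' h2 := by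
  subst hD hD'
  exact wQ_jdF N Q M a b hN hab d d' e e' hM hQ h1 h2

/-- `W_Q` permutes the generators. -/
theorem wQ_gen (x : FN N)
    (hx : x ∈ {x : FN N | ∃ (d : ℕ) (_ : NeZero d) (hd : d ∣ N), x = jdF N d hd}) :
    wQ N Q M a b hN hab x ∈ {x : FN N | ∃ (d : ℕ) (_ : NeZero d) (hd : d ∣ N),
      x = jdF N d hd} := by
  obtain ⟨D, hD0, hD, rfl⟩ := hx
  obtain ⟨d, d', e, e', rfl, hM, hQ⟩ := dvd_casesQ N Q M a b hN hab D hD
  have hQ0 := Q_pos N Q M a b hN hab
  have hd : 0 < d := Nat.pos_of_ne_zero (by rintro rfl; exact NeZero.ne (0 * e) (zero_mul e))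
  have he' : 0 < e' := Nat.pos_of_ne_zero (by rintro rfl; rw [mul_zero] at hQ; omega)
  haveI : NeZero (d * e') := ⟨(Nat.mul_pos hd he').ne'⟩
  have hdvd : d * e' ∣ N := dvd_of_factors N Q M a b hN hab d d' e e' hM hQ
  exact ⟨d * e', inferInstance, hdvd, wQ_jdF N Q M a b hN hab d d' e e' hM hQ hD hdvd⟩

/-- **`W_Q` commutes with the Galois action on coefficients.** -/
theorem wQ_arith (σ : Kbar ≃ₐ[ℚ] Kbar) (x : FN N) :
    wQ N Q M a b hN hab (arithmeticRingAut (modularFunctionFieldFull N) σ x)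
      = arithmeticRingAut (modularFunctionFieldFull N) σ (wQ N Q M a b hN hab x) := by
  have hx : x ∈ IntermediateField.adjoin Kbar
      {x : FN N | ∃ (d : ℕ) (_ : NeZero d) (hd : d ∣ N), x = jdF N d hd} := by
    rw [adjoin_jdF]; exact IntermediateField.mem_top
  induction hx using IntermediateField.adjoin_induction with
  | mem y hy =>
    obtain ⟨D', hD0', hD', hw⟩ := wQ_gen N Q M a b hN hab y hy
    obtain ⟨D, hD0, hD, rfl⟩ := hy
    rw [arith_jdF, hw, arith_jdF]
  | algebraMap c =>
    rw [arithmeticRingAut_algebraMap, AlgEquiv.commutes, AlgEquiv.commutes,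
      arithmeticRingAut_algebraMap]
  | add y z _ _ hy hz => rw [map_add, map_add, map_add, map_add, hy, hz]
  | inv y _ hy => rw [map_inv₀, map_inv₀, map_inv₀, map_inv₀, hy]
  | mul y z _ _ hy hz => rw [map_mul, map_mul, map_mul, map_mul, hy, hz]

/-- `W_Q` does not depend on the choice of `a`, `b`. -/
theorem wQ_eq_of (a' b' : ℤ) (hab' : a' * Q + b' * M = 1) :
    wQ N Q M a b hN hab = wQ N Q M a' b' hN hab' := by
  have h : (wQ N Q M a b hN hab).toAlgHom = (wQ N Q M a' b' hN hab').toAlgHom := by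
    apply algHom_ext_of_adjoin _ (adjoin_jdF N)
    rintro x ⟨D, hD0, hD, rfl⟩
    obtain ⟨d, d', e, e', rfl, hM, hQ⟩ := dvd_casesQ N Q M a b hN hab D hD
    have hd : 0 < d := Nat.pos_of_ne_zero (by rintro rfl; exact NeZero.ne (0 * e) (zero_mul e))
    have hQ0 := Q_pos N Q M a b hN hab
    have he' : 0 < e' := Nat.pos_of_ne_zero (by rintro rfl; rw [mul_zero] at hQ; omega)
    haveI : NeZero (d * e') := ⟨(Nat.mul_pos hd he').ne'⟩
    have hdvd : d * e' ∣ N := dvd_of_factors N Q M a b hN hab d d' e e' hM hQ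
    exact (wQ_jdF N Q M a b hN hab d d' e e' hM hQ hD hdvd).trans
      (wQ_jdF N Q M a' b' hN hab' d d' e e' hM hQ hD hdvd).symm
  apply AlgEquiv.ext
  intro x
  exact congrArg (fun f : FN N →ₐ[Kbar] FN N => f x) h

end WQ

end Fermat.Agent.S36.NU.H88

end
end
-- ==== END Fermat.Agent.S36.NU.H88_WQ
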