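-- GENERATED (merged mirror, NOTES/tools/trim/merge3_helper67.py): 14 modules of the originals, bodies verbatim.
import Mathlib
import Fermat.Prelude.Def_ModularCurve_HeckeModule
import Fermat.Prelude.Def_FLTPrelim_FreyPackage
import Fermat.Prelude.Def_FLTPrelim_GaloisRep
import Fermat.Prelude.Def_FLTPrelim_Modularity
import Fermat.Prelude.Def_FLTPrelim_ModularRep
import Fermat.Prelude.Def_FLTPrelim_Ramification
import Fermat.Prelude.Def_FreyPackage_IsConductorLevel
import Fermat.Agent.Zm.S48_L02_001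
import Fermat.Agent.Zm.S35_L03_004
import Fermat.Agent.Zm.S48_L01_002
import Fermat.Agent.Zm.S35_L10_002
import Fermat.Agent.Zm.S35_L15_001
import Fermat.Agent.Zm.S35_L11_001
import Fermat.Agent.S43.Old.H35_Abs
import Fermat.Agent.Zm.S35_L04_002
import Fermat.Agent.Zm.S35_L09_001
import Fermat.Agent.Lib.PointVariableChange
import Fermat.Agent.Zm.S35_L01_003
import Fermat.Agent.Zm.S33_L01_004
import Fermat.Agent.Zm.S33_L02_003
import Fermat.Agent.Zm.S35_L02_001

-- ==== BEGIN Fermat.Agent.S41.H19_I3Core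
section

/-!
# S41 package I3 (helper19), linear algebra core

`stable_line`: a two-dimensional representation `ρ` of a group over ANY field all of whose
elements satisfy `tr ρ(g) = 1 + det ρ(g)` has a stable line.  (Elementary: if some `u ≠ 1` has
determinant `1` then `ker (u - 1)` is stable, by a trace computation with `u · g u g⁻¹`;
otherwise the image is abelian and `ker (g - 1)` is stable for any `g ≠ 1`.)

`trace_pow_of_trace_eq`: `tr M = 1 + det M ⟹ tr (M ^ j) = 1 + det (M ^ j)`.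
-/

set_option autoImplicit false

namespace Fermat.Agent.S41.H19

open Module

variable {k : Type*} [Field k] {V : Type*} [AddCommGroup V] [Module k V]

/-! ### Cayley–Hamilton in dimension two -/

lemma matrix_CH_two (M : Matrix (Fin 2) (Fin 2) k) :
    M * M = M.trace • M - M.det • (1 : Matrix (Fin 2) (Fin 2) k) := by
  ext i j
  fin_cases i <;> fin_cases j <;>
    simp [Matrix.mul_apply, Fin.sum_univ_two, Matrix.trace_fin_two, Matrix.det_fin_two] <;> ring

lemma end_CH_two (hV : finrank k V = 2) (f : V →ₗ[k] V) :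
    f * f = LinearMap.trace k V f • f - LinearMap.det f • (1 : V →ₗ[k] V) := by
  have hfin : Module.Finite k V := Module.finite_of_finrank_eq_succ hV
  let b : Module.Basis (Fin 2) k V := Module.finBasisOfFinrankEq k V hV
  let T : (V →ₗ[k] V) ≃ₐ[k] Matrix (Fin 2) (Fin 2) k := LinearMap.toMatrixAlgEquiv b
  apply T.injective
  have h1 : T f = LinearMap.toMatrix b b f := rfl
  rw [map_mul, map_sub, map_smul, map_smul, map_one, h1, LinearMap.trace_eq_matrix_trace k b,
    ← LinearMap.det_toMatrix b]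
  exact matrix_CH_two _

/-- A nonzero endomorphism of a plane killing `v ≠ 0` has kernel the line through `v`. -/
lemma mem_span_of_ker (hV : finrank k V = 2) {f : V →ₗ[k] V} (hf : f ≠ 0) {v : V} (hv : v ≠ 0)
    (hfv : f v = 0) {x : V} (hfx : f x = 0) : ∃ c : k, x = c • v := by
  by_contra hcon
  push Not at hcon
  have hli : LinearIndependent k ![v, x] := by
    rw [LinearIndependent.pair_iff]
    intro s t hst
    have ht : t = 0 := by
      by_contra ht
      apply hcon (-(t⁻¹ * s))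
      have : t • x = -(s • v) := eq_neg_of_add_eq_zero_right hst
      calc x = t⁻¹ • (t • x) := by rw [smul_smul, inv_mul_cancel₀ ht, one_smul]
        _ = -(t⁻¹ * s) • v := by rw [this, smul_neg, smul_smul, neg_smul]
    rw [ht, zero_smul, add_zero, smul_eq_zero] at hst
    exact ⟨hst.resolve_right hv, ht⟩
  let b : Module.Basis (Fin 2) k V :=
    basisOfLinearIndependentOfCardEqFinrank hli (by simp [hV])
  have hb : ∀ i, b i = ![v, x] i := fun i => by
    simp only [b, coe_basisOfLinearIndependentOfCardEqFinrank]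
  apply hf
  apply b.ext
  intro i
  rw [hb]
  fin_cases i
  · simpa using hfv
  · simpa using hfx

/-! ### Powers -/

/-- If `tr f = 1 + det f` on a plane then `tr (f ^ j) = 1 + det (f ^ j)` for all `j`. -/
lemma trace_pow_of_trace_eq (hV : finrank k V = 2) (f : V →ₗ[k] V)
    (hf : LinearMap.trace k V f = 1 + LinearMap.det f) (j : ℕ) :
    LinearMap.trace k V (f ^ j) = 1 + LinearMap.det (f ^ j) := by
  have hfin : Module.Finite k V := Module.finite_of_finrank_eq_succ hV
  set d : k := LinearMap.det f with hd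
  have hrec : ∀ j, f ^ (j + 2) = (1 + d) • f ^ (j + 1) - d • f ^ j := by
    intro j
    have hch := end_CH_two hV f
    rw [hf] at hch
    calc f ^ (j + 2) = f ^ j * (f * f) := by rw [pow_add, pow_two]
      _ = (1 + d) • (f ^ j * f) - d • (f ^ j * 1) := by
          rw [hch, mul_sub, mul_smul_comm, mul_smul_comm]
      _ = (1 + d) • f ^ (j + 1) - d • f ^ j := by rw [mul_one, pow_succ]
  have h1 : LinearMap.trace k V (1 : V →ₗ[k] V) = 2 := by
    rw [LinearMap.trace_one, hV]; norm_num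
  have key : ∀ j, LinearMap.trace k V (f ^ j) = 1 + d ^ j ∧
      LinearMap.trace k V (f ^ (j + 1)) = 1 + d ^ (j + 1) := by
    intro j
    induction j with
    | zero =>
      refine ⟨?_, ?_⟩
      · rw [pow_zero, pow_zero, h1]; norm_num
      · rw [zero_add, pow_one, pow_one, hf]
    | succ j ih =>
      refine ⟨ih.2, ?_⟩
      rw [hrec, map_sub, map_smul, map_smul, ih.1, ih.2, smul_eq_mul, smul_eq_mul]
      ring
  rw [(key j).1, map_pow]

/-! ### The stable line -/

section StableLine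

variable {G : Type*} [Group G] (hV : finrank k V = 2) (ρ : G →* (V →ₗ[k] V))
  (h : ∀ g, LinearMap.trace k V (ρ g) = 1 + LinearMap.det (ρ g))

include hV in
lemma trace_one_two : LinearMap.trace k V (1 : V →ₗ[k] V) = 2 := by
  have hfin : Module.Finite k V := Module.finite_of_finrank_eq_succ hV
  rw [LinearMap.trace_one, hV]
  norm_num

lemma rho_inv_mul (g : G) : ρ g⁻¹ * ρ g = 1 := by
  rw [← map_mul, inv_mul_cancel, map_one]

lemma rho_mul_inv (g : G) : ρ g * ρ g⁻¹ = 1 := by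
  rw [← map_mul, mul_inv_cancel, map_one]

include hV h in
/-- Case A: a nontrivial element of determinant one. -/
lemma stable_line_caseA (u : G) (hdet : LinearMap.det (ρ u) = 1) (hne : ρ u ≠ 1) :
    ∃ v : V, v ≠ 0 ∧ ∀ g, ∃ c : k, ρ g v = c • v := by
  have hfin : Module.Finite k V := Module.finite_of_finrank_eq_succ hV
  have htrU : LinearMap.trace k V (ρ u) = 2 := by rw [h u, hdet]; norm_num
  set N : V →ₗ[k] V := ρ u - 1 with hN
  have hU : ρ u = 1 + N := by rw [hN]; abel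
  have hNN : N * N = 0 := by
    have hch := end_CH_two hV (ρ u)
    rw [htrU, hdet, one_smul] at hch
    have : N * N = ρ u * ρ u - (2 : k) • ρ u + 1 := by
      rw [hN, sub_mul, mul_sub, mul_one, one_mul, two_smul]
      abel
    rw [this, hch]
    abel
  have hN0 : N ≠ 0 := sub_ne_zero.mpr hne
  have htrN : LinearMap.trace k V N = 0 := by
    rw [hN, map_sub, htrU, trace_one_two hV, sub_self]
  obtain ⟨w, hw⟩ : ∃ w, N w ≠ 0 := by
    by_contra hcon
    push Not at hcon
    exact hN0 (LinearMap.ext fun w => by simpa using hcon w)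
  set v : V := N w with hvdef
  have hNv : N v = 0 := by
    rw [hvdef, ← Module.End.mul_apply, hNN]
    rfl
  have hker : ∀ x, N x = 0 → ∃ c : k, x = c • v := fun x hx => mem_span_of_ker hV hN0 hw hNv hx
  refine ⟨v, hw, fun g => ?_⟩
  by_contra hcon
  push Not at hcon
  set v' : V := ρ g v with hv'def
  have hv'0 : v' ≠ 0 := fun h0 => hcon 0 (by rw [h0, zero_smul])
  set N' : V →ₗ[k] V := ρ g * N * ρ g⁻¹ with hN'
  have hN'N' : N' * N' = 0 := by
    have : N' * N' = ρ g * (N * (ρ g⁻¹ * ρ g) * N) * ρ g⁻¹ := by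
      rw [hN']; simp only [mul_assoc]
    rw [this, rho_inv_mul, mul_one, hNN, mul_zero, zero_mul]
  have hN'v' : N' v' = 0 := by
    rw [hN', hv'def, Module.End.mul_apply, Module.End.mul_apply, ← Module.End.mul_apply (ρ g⁻¹),
      rho_inv_mul, Module.End.one_apply, hNv, map_zero]
  have hN'0 : N' ≠ 0 := by
    intro h0
    apply hN0
    have : N = ρ g⁻¹ * N' * ρ g := by
      rw [hN']
      calc N = (ρ g⁻¹ * ρ g) * N * (ρ g⁻¹ * ρ g) := by rw [rho_inv_mul, one_mul, mul_one]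
        _ = ρ g⁻¹ * (ρ g * N * ρ g⁻¹) * ρ g := by simp only [mul_assoc]
    rw [this, h0, mul_zero, zero_mul]
  have hker' : ∀ x, N' x = 0 → ∃ c : k, x = c • v' :=
    fun x hx => mem_span_of_ker hV hN'0 hv'0 hN'v' hx
  have hU' : ρ (g * u * g⁻¹) = 1 + N' := by
    rw [map_mul, map_mul, hU, hN', mul_add, add_mul, mul_one, rho_mul_inv]
  have htrN' : LinearMap.trace k V N' = 0 := by
    have h1 := h (g * u * g⁻¹)
    have hd : LinearMap.det (ρ (g * u * g⁻¹)) = 1 := by
      rw [map_mul, map_mul, map_mul, map_mul, hdet, mul_one, ← map_mul, rho_mul_inv, map_one]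
    rw [hd, hU', map_add, trace_one_two hV] at h1
    have : (2 : k) + LinearMap.trace k V N' = 2 := by rw [h1]; norm_num
    exact add_eq_left.mp this
  have htrNN' : LinearMap.trace k V (N * N') = 0 := by
    have h1 := h (u * (g * u * g⁻¹))
    have hd : LinearMap.det (ρ (u * (g * u * g⁻¹))) = 1 := by
      rw [map_mul ρ, map_mul, hdet, one_mul, map_mul ρ, map_mul ρ, map_mul, map_mul, hdet,
        mul_one, ← map_mul, rho_mul_inv, map_one]
    rw [hd, map_mul ρ, hU', hU] at h1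
    have e : (1 + N) * (1 + N') = 1 + N + N' + N * N' := by
      rw [add_mul, mul_add, mul_add, one_mul, mul_one, one_mul]
      abel
    rw [e, map_add, map_add, map_add, trace_one_two hV, htrN, htrN'] at h1
    have : (2 : k) + LinearMap.trace k V (N * N') = 2 := by
      linear_combination h1
    exact add_eq_left.mp this
  -- the basis `(v, v')`
  have hli : LinearIndependent k ![v, v'] := by
    rw [LinearIndependent.pair_iff]
    intro s t hst
    have ht : t = 0 := by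
      by_contra ht
      apply hcon (-(t⁻¹ * s))
      have : t • v' = -(s • v) := eq_neg_of_add_eq_zero_right hst
      calc v' = t⁻¹ • (t • v') := by rw [smul_smul, inv_mul_cancel₀ ht, one_smul]
        _ = -(t⁻¹ * s) • v := by rw [this, smul_neg, smul_smul, neg_smul]
    rw [ht, zero_smul, add_zero, smul_eq_zero] at hst
    exact ⟨hst.resolve_right hw, ht⟩
  let b : Module.Basis (Fin 2) k V :=
    basisOfLinearIndependentOfCardEqFinrank hli (by simp [hV])
  have hb : ∀ i, b i = ![v, v'] i := fun i => by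
    simp only [b, coe_basisOfLinearIndependentOfCardEqFinrank]
  have hb0 : b 0 = v := by rw [hb]; rfl
  have hb1 : b 1 = v' := by rw [hb]; rfl
  obtain ⟨c, hc⟩ : ∃ c : k, (N * N') v = c • v := by
    apply hker
    rw [← Module.End.mul_apply, ← mul_assoc, hNN, zero_mul]
    rfl
  have hNN'v' : (N * N') v' = 0 := by
    rw [Module.End.mul_apply, hN'v', map_zero]
  have htrc : LinearMap.trace k V (N * N') = c := by
    have e0 : (N * N') (b 0) = c • b 0 := by rw [hb0]; exact hc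
    have e1 : (N * N') (b 1) = 0 := by rw [hb1]; exact hNN'v'
    rw [LinearMap.trace_eq_matrix_trace k b, Matrix.trace_fin_two, LinearMap.toMatrix_apply,
      LinearMap.toMatrix_apply, e0, e1]
    simp
  have hc0 : c = 0 := by rw [← htrc, htrNN']
  rw [hc0, zero_smul, Module.End.mul_apply] at hc
  obtain ⟨e, he⟩ := hker (N' v) hc
  obtain ⟨e', he'⟩ : ∃ e' : k, N' v = e' • v' := by
    apply hker'
    rw [← Module.End.mul_apply, hN'N']
    rfl
  have hee : e • v + (-e') • v' = 0 := by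
    rw [← he, he', neg_smul, add_neg_cancel]
  have he0 := (LinearIndependent.pair_iff.mp hli e (-e') hee).1
  rw [he0, zero_smul] at he
  obtain ⟨c', hc'⟩ := hker' v he
  have hc'0 : c' ≠ 0 := by
    intro h0
    rw [h0, zero_smul] at hc'
    exact hw hc'
  apply hcon c'⁻¹
  rw [hc', smul_smul, inv_mul_cancel₀ hc'0, one_smul]

include hV h in
/-- A two-dimensional representation with `tr ρ(g) = 1 + det ρ(g)` for all `g` has a stable
line. -/
theorem stable_line : ∃ v : V, v ≠ 0 ∧ ∀ g, ∃ c : k, ρ g v = c • v := by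
  have hfin : Module.Finite k V := Module.finite_of_finrank_eq_succ hV
  have hnt : Nontrivial V := Module.nontrivial_of_finrank_eq_succ hV
  by_cases hA : ∃ u, LinearMap.det (ρ u) = 1 ∧ ρ u ≠ 1
  · obtain ⟨u, hdet, hne⟩ := hA
    exact stable_line_caseA hV ρ h u hdet hne
  · push Not at hA
    have hcomm : ∀ g g', ρ g * ρ g' = ρ g' * ρ g := by
      intro g g'
      have h1 := hA (g * g' * g⁻¹ * g'⁻¹) (by
        rw [map_mul ρ, map_mul ρ, map_mul ρ, map_mul, map_mul, map_mul, mul_right_comm _ _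
          (LinearMap.det (ρ g⁻¹)), ← map_mul, rho_mul_inv, map_one, one_mul, ← map_mul,
          rho_mul_inv, map_one])
      have h2 : ρ (g * g') = ρ (g * g' * g⁻¹ * g'⁻¹) * ρ (g' * g) := by
        rw [← map_mul]
        congr 1
        group
      rw [← map_mul, h2, h1, one_mul, map_mul]
    by_cases hall : ∀ g, ρ g = 1
    · obtain ⟨v, hv⟩ := exists_ne (0 : V)
      exact ⟨v, hv, fun g => ⟨1, by rw [hall g, one_smul]; rfl⟩⟩
    · push Not at hall
      obtain ⟨g₀, hg₀⟩ := hall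
      set X : V →ₗ[k] V := ρ g₀ with hX
      set d : k := LinearMap.det X with hd
      have htr : LinearMap.trace k V X = 1 + d := h g₀
      have hprod : (X - 1) * (X - d • 1) = 0 := by
        have hch := end_CH_two hV X
        rw [htr] at hch
        rw [sub_mul, mul_sub, mul_sub, hch, mul_smul_comm, mul_one, one_mul, one_mul, add_smul,
          one_smul]
        abel
      have hXd : X - d • 1 ≠ 0 := by
        intro h0
        have hXe : X = d • 1 := sub_eq_zero.mp h0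
        have h1 : LinearMap.trace k V X = d * 2 := by
          rw [hXe, map_smul, trace_one_two hV, smul_eq_mul]
        rw [htr] at h1
        have hd1 : d = 1 := by linear_combination -h1
        apply hg₀
        rw [hXe, hd1, one_smul]
      have hX1 : X - 1 ≠ 0 := sub_ne_zero.mpr hg₀
      obtain ⟨w, hw⟩ : ∃ w, (X - d • 1) w ≠ 0 := by
        by_contra hcon
        push Not at hcon
        exact hXd (LinearMap.ext fun w => by simpa using hcon w)
      set v : V := (X - d • 1) w with hvdef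
      have hXv : (X - 1) v = 0 := by
        rw [hvdef, ← Module.End.mul_apply, hprod]
        rfl
      refine ⟨v, hw, fun g => ?_⟩
      apply mem_span_of_ker hV hX1 hw hXv
      have hc : (X - 1) * ρ g = ρ g * (X - 1) := by
        rw [sub_mul, mul_sub, hX, hcomm, one_mul, mul_one]
      rw [← Module.End.mul_apply, hc, Module.End.mul_apply, hXv, map_zero]

end StableLine

end Fermat.Agent.S41.H19

end
-- ==== END Fermat.Agent.S41.H19_I3Core

-- ==== BEGIN Fermat.Agent.S41.H19_RelIndex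
section

/-!
# S41 package H (helper19): index of `Gamma0 (N q)` in `Gamma0 N`, injectivity of `inclG`, `conjG`
-/

set_option autoImplicit false

open scoped MatrixGroups
open CongruenceSubgroup

namespace Fermat.Agent.S41.H19

open Fermat.Agent.S41

theorem inclG_injective (N q : ℕ) : Function.Injective (inclG N q) :=
  Subgroup.inclusion_injective _

/-- `[Gamma0 N : Gamma0 (N q)] = q + 1` for a prime `q ∤ N`. -/
theorem index_inclG {N q : ℕ} (hN : 0 < N) (hq : q.Prime) (hqN : ¬ q ∣ N) :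
    (inclG N q).range.index = q + 1 := by
  have : NeZero N := ⟨hN.ne'⟩
  have : NeZero (N * q) := ⟨mul_ne_zero hN.ne' hq.ne_zero⟩
  have hcop : N.Coprime q := ((Nat.Prime.coprime_iff_not_dvd hq).mpr hqN).symm
  have h1 : (inclG N q).range = (Gamma0 (N * q)).subgroupOf (Gamma0 N) :=
    Subgroup.inclusion_range (gamma0_mul_le N q)
  have h2 := Subgroup.relIndex_mul_index (gamma0_mul_le N q)
  rw [Fermat.Agent.S20.H19.G1, Fermat.Agent.S20.H19.G1, Fermat.Agent.S20.H19.dedekindPsi_mul hcop]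
    at h2
  have h3 : ModularCurve.dedekindPsi q = q + 1 := by
    have := Fermat.Agent.S20.H19.dedekindPsi_prime_pow hq (n := 1) one_pos
    simpa using this
  have h4 : ModularCurve.dedekindPsi N ≠ 0 := by
    rw [← Fermat.Agent.S20.H19.G1]
    exact Subgroup.FiniteIndex.index_ne_zero
  rw [h1]
  change (Gamma0 (N * q)).relIndex (Gamma0 N) = q + 1
  rw [h3, mul_comm] at h2
  exact Nat.eq_of_mul_eq_mul_left (Nat.pos_of_ne_zero h4) h2

theorem finiteIndex_inclG {N q : ℕ} (hN : 0 < N) (hq : q.Prime) (hqN : ¬ q ∣ N) :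
    (inclG N q).range.FiniteIndex :=
  ⟨by rw [index_inclG hN hq hqN]; omega⟩

end Fermat.Agent.S41.H19

end
-- ==== END Fermat.Agent.S41.H19_RelIndex

-- ==== BEGIN Fermat.Agent.S41.Interfaces
section

/-!
# S41 (level raising): the top-level interfaces

`Stmt_SUPP`    : the eigensystem of `f` mod `𝔪` occurs in `Hom_cusp(Gamma0 N, F_p)`.
`Stmt_REL`     : formal relations between `res1, res2, cor1, cor2, Tcoh`.
`Stmt_IHARA`   : Ihara's lemma + non-Eisenstein: the kernel of `(x₁,x₂) ↦ res1 x₁ + res2 x₂` has no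
                 class with the eigenvalues of `W` when `W[p]` is irreducible.
`Stmt_NEWLIFT` : a nonzero class of level `N q'` killed by both trace maps, with the eigenvalues of `W`,
                 lifts to a `q'`-new normalised eigenform (Poincare duality + Ihara + Deligne-Serre +
                 Eichler-Shimura + Atkin-Lehner).
-/

set_option autoImplicit false

open scoped MatrixGroups
open WeierstrassCurve WeierstrassCurve.Affine WeierstrassCurve.Affine.Point
open CongruenceSubgroup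

namespace Fermat.Agent.S41

/-- The congruence hypothesis of S41 (`f ≡ W` mod `𝔪` at good primes `ℓ ∤ N`, `ℓ ≠ p`). -/
def CongTo (W : WeierstrassCurve ℤ) (p N : ℕ) (f : CuspForm (Gamma0 N) 2)
    (𝔪 : Ideal (integralClosure ℤ ℂ)) : Prop :=
  ∀ ℓ : ℕ, ℓ.Prime → W.IsGoodPrimeFor ℓ → ¬ ℓ ∣ N → ℓ ≠ p →
    ∃ a : integralClosure ℤ ℂ, (a : ℂ) = ModularFormClass.qCoeff f ℓ ∧
      a - ((W.apOfModel ℓ : ℤ) : integralClosure ℤ ℂ) ∈ 𝔪

/-- The conclusion of S41. -/
def Concl (W : WeierstrassCurve ℤ) (p N q' : ℕ) : Prop :=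
  ∃ (g : CuspForm (Gamma0 (N * q')) 2) (𝔪' : Ideal (integralClosure ℤ ℂ)),
    g.IsNormalizedEigenform ∧ 𝔪'.IsMaximal ∧ (p : integralClosure ℤ ℂ) ∈ 𝔪' ∧
    CongTo W p (N * q') g 𝔪' ∧ g.IsNewAt q'

/-- SUPP: the eigensystem of `f` mod `𝔪` occurs in `Hom_cusp(Gamma0 N, F_p)`, with
`T_{q'} = ε (q'+1)`, `ε = ±1`. -/
def Stmt_SUPP : Prop :=
  ∀ (W : WeierstrassCurve ℤ) (p N q' : ℕ), p.Prime → p ≠ 2 → 0 < N → q'.Prime → ¬ q' ∣ N → q' ≠ p →
    ∀ (f : CuspForm (Gamma0 N) 2) (𝔪 : Ideal (integralClosure ℤ ℂ)),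
    f.IsNormalizedEigenform → 𝔪.IsMaximal → (p : integralClosure ℤ ℂ) ∈ 𝔪 →
    CongTo W p N f 𝔪 →
    (∃ a : integralClosure ℤ ℂ, (a : ℂ) = ModularFormClass.qCoeff f q' ∧
      a ^ 2 - ((q' : integralClosure ℤ ℂ) + 1) ^ 2 ∈ 𝔪) →
    ∃ (ε : ℤ) (x : Additive (Gamma0 N) →+ ZMod p), (ε = 1 ∨ ε = -1) ∧ x ≠ 0 ∧
      IsCuspidalHom (Gamma0 N) x ∧ IsEigenOf W p N N x ∧
      Tcoh N (ZMod p) q' x = ((ε * ((q' : ℤ) + 1) : ℤ) : ZMod p) • x

/-- REL: for `x` of level `N` with `T_{q'} x = ε (q'+1) x`, the class `y = res1 x - ε res2 x` of level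
`N q'` is cuspidal, has the same eigenvalues, and is killed by both trace maps. -/
def Stmt_REL : Prop :=
  ∀ (W : WeierstrassCurve ℤ) (p N q' : ℕ), p.Prime → 0 < N → q'.Prime → ¬ q' ∣ N → q' ≠ p →
    ∀ (ε : ℤ), (ε = 1 ∨ ε = -1) → ∀ x : Additive (Gamma0 N) →+ ZMod p,
    IsCuspidalHom (Gamma0 N) x → IsEigenOf W p N N x →
    Tcoh N (ZMod p) q' x = ((ε * ((q' : ℤ) + 1) : ℤ) : ZMod p) • x →
    IsCuspidalHom (Gamma0 (N * q')) (res1 N q' (ZMod p) x - (ε : ZMod p) • res2 N q' (ZMod p) x) ∧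
    IsEigenOf W p (N * q') (N * q') (res1 N q' (ZMod p) x - (ε : ZMod p) • res2 N q' (ZMod p) x) ∧
    cor1 N q' (ZMod p) (res1 N q' (ZMod p) x - (ε : ZMod p) • res2 N q' (ZMod p) x) = 0 ∧
    cor2 N q' (ZMod p) (res1 N q' (ZMod p) x - (ε : ZMod p) • res2 N q' (ZMod p) x) = 0

/-- IHARA (+ non-Eisenstein): if `W[p]` is irreducible, a cuspidal class `x₁` with the eigenvalues of `W`
cannot satisfy `res1 x₁ + res2 x₂ = 0` unless `x₁ = 0`. -/
def Stmt_IHARA : Prop :=
  ∀ (E : WeierstrassCurve ℚ) [E.IsElliptic] (W : WeierstrassCurve ℤ), W.IsIntegralModelOf E →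
    ∀ (p N q' : ℕ), p.Prime → p ≠ 2 → 0 < N → q'.Prime → ¬ q' ∣ N → q' ≠ p →
    GaloisRepIsIrreducible (K := AlgebraicClosure ℚ) ℚ E p →
    ∀ x₁ x₂ : Additive (Gamma0 N) →+ ZMod p,
    IsCuspidalHom (Gamma0 N) x₁ → IsCuspidalHom (Gamma0 N) x₂ →
    IsEigenOf W p (N * q') N x₁ →
    res1 N q' (ZMod p) x₁ + res2 N q' (ZMod p) x₂ = 0 → x₁ = 0

/-- NEWLIFT: a nonzero cuspidal class of level `N q'` with the eigenvalues of `W` (where `W[p]` is
irreducible), killed by both trace maps, produces the `q'`-new eigenform of S41.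
(Ihara's lemma is available to the proof as the hypothesis `Stmt_IHARA`.) -/
def Stmt_NEWLIFT : Prop :=
  Stmt_IHARA →
  ∀ (E : WeierstrassCurve ℚ) [E.IsElliptic] (W : WeierstrassCurve ℤ), W.IsIntegralModelOf E →
    ∀ (p N q' : ℕ), p.Prime → p ≠ 2 → 0 < N → q'.Prime → ¬ q' ∣ N → q' ≠ p →
    GaloisRepIsIrreducible (K := AlgebraicClosure ℚ) ℚ E p →
    ∀ y : Additive (Gamma0 (N * q')) →+ ZMod p, y ≠ 0 →
    IsCuspidalHom (Gamma0 (N * q')) y → IsEigenOf W p (N * q') (N * q') y →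
    cor1 N q' (ZMod p) y = 0 → cor2 N q' (ZMod p) y = 0 →
    Concl W p N q'

end Fermat.Agent.S41

end
-- ==== END Fermat.Agent.S41.Interfaces

-- ==== BEGIN Fermat.Agent.S43.Old.Defs
section
attribute [local instance 10000] SubalgebraClass.toAlgebra
attribute [local instance 10000] HahnSeries.powerSeriesAlgebra

/-!
# S43, leaf OLD (= LIFT-EIG): interface statements, light part  (helper75)

Target: `Fermat.Agent.S43.BadQ.Stmt_Old` (`S43/BadQ.lean`).  Route: `NOTES/plan/lead_LIFT_test.md`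
§3, architecture note "OLD (S43) architecture v1".

Setting: `N = M q`, `q ∤ M`, `A` a valuation ring of `ℚ̄` over `q`, `r` the reduction map of places
of `F_M · ℚ̄` (`IsRed`), `redM = H36.redPic A _ hr : J₀(M) → Pic (F~_M)`.

* `Stmt_Star`      **(STAR)** : an endomorphism of `J₀(M)` which commutes with `G_ℚ` and kills the
                     torsion is zero after reduction modulo `q ∤ M`;
* `Stmt_KerStable` **(KER)** : the kernel of `redM` is stable under the good `T_ℓ`.

The algebraic leaves `Stmt_TorsRel`, `Stmt_CharM` are in `L/LiftEig/Defs.lean` (helper37), the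
geometric leaf `Stmt_OldRed` and the wiring in `S43/Old/DefsRed.lean`, `S43/Old/Wire.lean`.
This file contains definitions only.
-/

set_option autoImplicit false
set_option synthInstance.maxHeartbeats 400000
set_option maxHeartbeats 1000000

noncomputable section

open AlgebraicCurve ModularCurve Fermat.Agent.S28.H73 Fermat.Agent.RED.H73
open Fermat.Agent.RED

namespace Fermat.Agent.S43.Old

/-- **STAR.**  Let `q ∤ M`, `A` over `q`, `r` a reduction map of places with the conservation law.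
An additive endomorphism `T` of `J₀(M)(ℚ̄)` which commutes with `G_ℚ` and kills every torsion
point satisfies `redM ∘ T = 0`. -/
def Stmt_Star : Prop :=
  ∀ (M q : ℕ) [NeZero M], q.Prime → ¬ q ∣ M →
    ∀ A : ValuationSubring (AlgebraicClosure ℚ), A.LiesOverPrime q →
    ∀ (r : Place (AlgebraicClosure ℚ) ↥(modularFunctionFieldBar M) →
        Place (kV A) ↥(redField A (modularFunctionFieldBar M) (hasScale_laurentBaseChange A M)))
      (hr : IsRed A (hasScale_laurentBaseChange A M) r),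
    ∀ T : JZero M →+ JZero M,
      (∀ (σ : AlgebraicClosure ℚ ≃ₐ[ℚ] AlgebraicClosure ℚ) (x : JZero M), T (σ • x) = σ • T x) →
      (∀ h : ℕ, h ≠ 0 → ∀ x : JZero M, h • x = 0 → T x = 0) →
      ∀ x : JZero M, H36.redPic A (hasScale_laurentBaseChange A M) hr (T x) = 0

/-- **KER.**  The kernel of the reduction map `redM` modulo `q ∤ M` is stable under the Hecke
operators `T_ℓ`, `ℓ ∤ M q`.  (Consequence of `RED.H51.Stmt_HRcore`.) -/
def Stmt_KerStable : Prop :=
  ∀ (M q : ℕ) [NeZero M], q.Prime → ¬ q ∣ M →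
    ∀ A : ValuationSubring (AlgebraicClosure ℚ), A.LiesOverPrime q →
    ∀ (r : Place (AlgebraicClosure ℚ) ↥(modularFunctionFieldBar M) →
        Place (kV A) ↥(redField A (modularFunctionFieldBar M) (hasScale_laurentBaseChange A M)))
      (hr : IsRed A (hasScale_laurentBaseChange A M) r),
      HasMove A (hasScale_laurentBaseChange A M) r →
    ∀ ℓ : Nat.Primes, ¬ (ℓ : ℕ) ∣ M → (ℓ : ℕ) ≠ q → ∀ z : JZero M,
      H36.redPic A (hasScale_laurentBaseChange A M) hr z = 0 →
      H36.redPic A (hasScale_laurentBaseChange A M) hr (heckeOperatorBar M ℓ z) = 0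

end Fermat.Agent.S43.Old

end
end
-- ==== END Fermat.Agent.S43.Old.Defs

-- ==== BEGIN Fermat.Agent.S43.Old.H35_Tower
section
attribute [local instance 10000] SubalgebraClass.toAlgebra
attribute [local instance 10000] HahnSeries.powerSeriesAlgebra

/-!
# S43, leaf OLD-RED (helper35): the Hecke tower of the reduced fields

`A` a valuation subring of `ℚ̄` over `q`, `k = kV A`, `M` prime to `q`, `ℓ` a prime.
`Ft A M = redField A (F_M · ℚ̄) ⊆ k((t))`.

* `inclHom`, `qexpHom` : inclusion and substitution `t ↦ t ^ ℓ` between intermediate fields of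
  `k((t))`;
* `ft_le`, `ft_qexp` : `Ft A M ⊆ Ft A (M ℓ)` and `t ↦ t ^ ℓ` maps `Ft A M` into `Ft A (M ℓ)`;
* `alphaT`, `betaT` : the degeneracy maps of the reduced fields;
* `towerInputs` : integrality, principal divisors, finiteness, fundamental identity and norm
  formula for the reduced tower (FF-B over `k`).
-/

set_option autoImplicit false
set_option linter.style.haveILetI false
set_option synthInstance.maxHeartbeats 400000
set_option maxHeartbeats 1000000

noncomputable section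

open AlgebraicCurve ModularCurve Fermat.Agent.S28.H73 Fermat.Agent.RED.H73 Fermat.Agent.RED

namespace Fermat.Agent.S43.Old.H35

section Generic

variable {k : Type} [Field k] {E E' : IntermediateField k (LaurentSeries k)}

/-- The inclusion of intermediate fields as an algebra hom. -/
def inclHom (h : E ≤ E') : ↥E →ₐ[k] ↥E' := IntermediateField.inclusion h

@[simp] theorem coe_inclHom (h : E ≤ E') (x : ↥E) :
    ((inclHom h x : ↥E') : LaurentSeries k) = (x : LaurentSeries k) := rfl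

/-- The substitution `t ↦ t ^ ℓ`. -/
def qexpHom (ℓ : ℕ) [NeZero ℓ] (h : ∀ x ∈ E, qExpand k ℓ x ∈ E') : ↥E →ₐ[k] ↥E' where
  toFun x := ⟨qExpand k ℓ (x : LaurentSeries k), h _ x.2⟩
  map_one' := Subtype.ext (map_one (qExpand k ℓ))
  map_mul' _ _ := Subtype.ext (map_mul (qExpand k ℓ) _ _)
  map_zero' := Subtype.ext (map_zero (qExpand k ℓ))
  map_add' _ _ := Subtype.ext (map_add (qExpand k ℓ) _ _)
  commutes' a := Subtype.ext <| by
    show qExpand k ℓ (algebraMap k (LaurentSeries k) a) = algebraMap k (LaurentSeries k) a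
    rw [algebraMap_laurentSeries_eq_single, qExpand_single, mul_zero]

@[simp] theorem coe_qexpHom (ℓ : ℕ) [NeZero ℓ] (h : ∀ x ∈ E, qExpand k ℓ x ∈ E') (x : ↥E) :
    ((qexpHom ℓ h x : ↥E') : LaurentSeries k) = qExpand k ℓ (x : LaurentSeries k) := rfl

end Generic

section Modular

variable (A : ValuationSubring (AlgebraicClosure ℚ))

/-- The reduced field of level `M`. -/
abbrev Ft (M : ℕ) : IntermediateField (kV A) (LaurentSeries (kV A)) :=
  redField A (modularFunctionFieldBar M) (hasScale_laurentBaseChange A M)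

/-- The Gauss reduction of an element of `F_M · ℚ̄` lies in every reduced field of a level
divisible by `M`. -/
theorem gaussRedV_mem_Ft {M M' : ℕ} (hMM' : M ∣ M') {x : LaurentSeries (AlgebraicClosure ℚ)}
    (hx : x ∈ modularFunctionFieldBar M) (hg : x ∈ gaussRingV A) :
    gaussRedV A ⟨x, hg⟩ ∈ Ft A M' :=
  ⟨⟨⟨x, Fermat.Agent.S18.modularFunctionFieldBar_mono hMM' hx⟩, hg⟩, rfl⟩

theorem ft_le {M M' : ℕ} (hMM' : M ∣ M') : Ft A M ≤ Ft A M' := by
  rintro y ⟨x, rfl⟩
  exact gaussRedV_mem_Ft A hMM' x.1.2 x.2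

theorem ft_qexp (M ℓ : ℕ) [NeZero M] [NeZero ℓ] :
    ∀ y ∈ Ft A M, qExpand (kV A) ℓ y ∈ Ft A (M * ℓ) := by
  rintro y ⟨x, rfl⟩
  have hm : qExpand (AlgebraicClosure ℚ) ℓ ((x : ↥(modularFunctionFieldBar M)) :
      LaurentSeries (AlgebraicClosure ℚ)) ∈ gaussRingV A := qExpand_mem_gaussRingV A ℓ x.2
  refine ⟨⟨heckeBetaBar (AlgebraicClosure ℚ) M ℓ (x : ↥(modularFunctionFieldBar M)), hm⟩, ?_⟩
  rw [gaussResF_apply, gaussResF_apply]
  exact gaussRedV_qExpand A ℓ ⟨_, x.2⟩ hm

variable (M ℓ : ℕ) [NeZero M] [NeZero ℓ]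

/-- The degeneracy map `α~` (inclusion) of the reduced fields. -/
def alphaT : ↥(Ft A M) →ₐ[kV A] ↥(Ft A (M * ℓ)) := inclHom (ft_le A (dvd_mul_right M ℓ))

/-- The degeneracy map `β~` (substitution `t ↦ t ^ ℓ`) of the reduced fields. -/
def betaT : ↥(Ft A M) →ₐ[kV A] ↥(Ft A (M * ℓ)) := qexpHom ℓ (ft_qexp A M ℓ)

theorem coe_alphaT (x : ↥(Ft A M)) :
    ((alphaT A M ℓ x : ↥(Ft A (M * ℓ))) : LaurentSeries (kV A)) = (x : LaurentSeries (kV A)) :=
  coe_inclHom (ft_le A (dvd_mul_right M ℓ)) x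

theorem coe_betaT (x : ↥(Ft A M)) :
    ((betaT A M ℓ x : ↥(Ft A (M * ℓ))) : LaurentSeries (kV A))
      = qExpand (kV A) ℓ (x : LaurentSeries (kV A)) :=
  coe_qexpHom ℓ (ft_qexp A M ℓ) x

/-- The function field inputs of the reduced tower. -/
structure TowerInputs : Prop where
  hα : (alphaT A M ℓ).toRingHom.IsIntegral
  hβ : (betaT A M ℓ).toRingHom.IsIntegral
  hP : HasPrincipalDivisors (kV A) ↥(Ft A (M * ℓ))
  hP₀ : HasPrincipalDivisors (kV A) ↥(Ft A M)
  hfin : FiniteAlong (kV A) (alphaT A M ℓ)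
  hFI : letI := hP; FundamentalIdentityAlong (kV A) (betaT A M ℓ) hβ
  hNF : NormFormulaAlong (kV A) (alphaT A M ℓ) hfin
  hdeg : ∀ Q : Place (kV A) ↥(Ft A M), Q.deg = 1

variable {A M ℓ}

theorem towerInputs {q : ℕ} (hq : q.Prime) (hA : A.LiesOverPrime q) (hqM : ¬ q ∣ M * ℓ) :
    TowerInputs A M ℓ := by
  haveI : IsAlgClosed (kV A) := isAlgClosed_kV A
  haveI : NeZero (M * ℓ) := ⟨Nat.mul_ne_zero (NeZero.ne M) (NeZero.ne ℓ)⟩
  have hqM' : ¬ q ∣ M := fun h => hqM (h.mul_right ℓ)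
  have hF := isFF_redField_bar M q hq hqM' A hA
  have hF' := isFF_redField_bar (M * ℓ) q hq hqM A hA
  have hP := H51.stmt_FFB_principal _ _ hF'
  obtain ⟨hα, hfin⟩ := H51.stmt_FFB_finite _ _ _ hF hF' (alphaT A M ℓ)
  obtain ⟨hβ, -⟩ := H51.stmt_FFB_finite _ _ _ hF hF' (betaT A M ℓ)
  exact ⟨hα, hβ, hP, H51.stmt_FFB_principal _ _ hF, hfin,
    H51.stmt_FFB_fundamental _ _ _ hF hF' _ hβ hP, H51.stmt_FFB_norm _ _ _ hF hF' _ hfin,
    H51.stmt_FFB_deg _ _ hF⟩

end Modular

end Fermat.Agent.S43.Old.H35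

end
end
-- ==== END Fermat.Agent.S43.Old.H35_Tower

-- ==== BEGIN Fermat.Agent.S43.Old.H75_Aux
section
attribute [local instance 10000] SubalgebraClass.toAlgebra
attribute [local instance 10000] HahnSeries.powerSeriesAlgebra

/-!
# S43, leaf OLD-RED: two auxiliary lemmas (helper75)

Setting of `RED/Core.lean`: `O` a valuation subring of `C`, `F ⊆ C((q))` with `HasScale O F`,
`V = gaussValSub O F h`, `res = gaussResF' O h`, `F~ = redField O F h`, `k = kV O`.

* `exists_degZero_mapDomain_eq` **(LIFT-PT)** : every divisor of degree `0` of `F~` is `r_* D` for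
  a divisor `D` of degree `0` of `F` (`r` is surjective on places);
* `exists_redPic_eq` : every class of degree `0` is in the image of `redPic`;
* `exists_kummer_one_of_principal` **(NONZERO)** : if `p D = div f`, `f` a Gauss unit, and
  `div (res f) = p · div g'`, then the class of `D` has a Kummer function `f₁` with `res f₁ = 1`.
-/

set_option autoImplicit false
set_option linter.style.haveILetI false
set_option synthInstance.maxHeartbeats 400000
set_option maxHeartbeats 1000000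

noncomputable section

open AlgebraicCurve ModularCurve Fermat.Agent.S28.H73 Fermat.Agent.RED.H73
open Fermat.Agent.RED

namespace Fermat.Agent.S43.Old.H75

variable {C : Type} [Field C] (O : ValuationSubring C)
variable {F : IntermediateField C (LaurentSeries C)} (h : HasScale O F)
variable {r : Place C ↥F → Place (kV O) ↥(redField O F h)}

/-- The reduction map of places is surjective. -/
theorem isRed_surjective (hr : IsRed O h r) (hP : HasPrincipalDivisors C ↥F) :
    Function.Surjective r := fun Q =>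
  (H17.redSetupOf O h r hr).r_surjective hP Q

/-- **LIFT-PT**: every divisor of degree `0` of the reduced field is the push-forward of a
divisor of degree `0`. -/
theorem exists_degZero_mapDomain_eq (hr : IsRed O h r) (hP : HasPrincipalDivisors C ↥F)
    (hdeg : ∀ v : Place C ↥F, v.deg = 1)
    (hdeg' : ∀ v : Place (kV O) ↥(redField O F h), v.deg = 1)
    (D' : Divisor (kV O) ↥(redField O F h)) (hD' : Divisor.degree D' = 0) :
    ∃ D : Divisor.degZero (K := C) (F := ↥F),
      Finsupp.mapDomain r (D : Divisor C ↥F) = D' := by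
  have hs := isRed_surjective O h hr hP
  choose s hs using hs
  have h1 : Finsupp.mapDomain r (Finsupp.mapDomain s D') = D' := by
    rw [← Finsupp.mapDomain_comp]
    have : r ∘ s = id := funext hs
    rw [this, Finsupp.mapDomain_id]
  refine ⟨⟨Finsupp.mapDomain s D', ?_⟩, h1⟩
  rw [Divisor.mem_degZero, H17.degree_mapDomain hdeg' hdeg, hD']

/-- Every class of degree `0` of the reduced field is in the image of `redPic`. -/
theorem exists_redPic_eq (hr : IsRed O h r) (hP : HasPrincipalDivisors C ↥F)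
    (hdeg : ∀ v : Place C ↥F, v.deg = 1)
    (hdeg' : ∀ v : Place (kV O) ↥(redField O F h), v.deg = 1)
    (D' : Divisor (kV O) ↥(redField O F h)) (hD' : Divisor.degree D' = 0) :
    ∃ z : Pic0 C ↥F, H36.redPic O h hr z = QuotientAddGroup.mk D' := by
  obtain ⟨D, hD⟩ := exists_degZero_mapDomain_eq O h hr hP hdeg hdeg' D' hD'
  exact ⟨Pic0.mk D, by rw [H36.redPic_mk, hD]⟩

/-- **NONZERO**: if `p D = div f` with `f` a Gauss unit and `div (res f) = p · div g'`, then the
class of `D` has a Kummer function which is `≡ 1`. -/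
theorem exists_kummer_one_of_principal [IsAlgClosed (kV O)]
    (hP : HasPrincipalDivisors C ↥F)
    (hconst : ∀ g : ↥(redField O F h), g ≠ 0 →
      (∀ Q : Place (kV O) ↥(redField O F h), Q.ord g = 0) →
      ∃ c : kV O, g = algebraMap (kV O) ↥(redField O F h) c)
    (p : ℕ) (hp : p ≠ 0)
    (D : Divisor.degZero (K := C) (F := ↥F)) (f : ↥(gaussValSub O F h))
    (hf : gaussResF' O h f ≠ 0)
    (hD : ∀ P : Place C ↥F, (p : ℤ) * (D : Divisor C ↥F) P = P.ord (f : ↥F))
    (g' : ↥(redField O F h)) (hg'0 : g' ≠ 0)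
    (hg' : ∀ Q : Place (kV O) ↥(redField O F h),
      Q.ord (gaussResF' O h f) = (p : ℤ) * Q.ord g') :
    ∃ (D₁ : Divisor.degZero (K := C) (F := ↥F)) (f₁ : ↥(gaussValSub O F h)),
      Pic0.mk D = Pic0.mk D₁ ∧ gaussResF' O h f₁ = 1 ∧
      ∀ P : Place C ↥F, (p : ℤ) * (D₁ : Divisor C ↥F) P = P.ord (f₁ : ↥F) := by
  have hppos : 0 < p := Nat.pos_of_ne_zero hp
  have hfU : IsUnit f := (H17.gaussResF'_ne_zero_iff_isUnit O h f).mp hf
  obtain ⟨u, rfl⟩ := hfU
  have hu0 := H36.unit_coe_ne_zero O h u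
  -- `res u / g' ^ p` is a constant
  have hg0 : gaussResF' O h u / g' ^ p ≠ 0 := div_ne_zero hf (pow_ne_zero p hg'0)
  obtain ⟨c, hc⟩ := hconst _ hg0 (fun Q => by
    rw [H17.ord_div Q hf (pow_ne_zero p hg'0), H17.ord_pow, hg' Q, sub_self])
  have hc0 : c ≠ 0 := by
    rintro rfl
    rw [map_zero] at hc
    exact hg0 hc
  obtain ⟨d, hd⟩ := IsAlgClosed.exists_pow_nat_eq c hppos
  have hd0 : d ≠ 0 := by
    rintro rfl
    rw [zero_pow hp] at hd
    exact hc0 hd.symm
  set y' : ↥(redField O F h) := algebraMap (kV O) ↥(redField O F h) d * g' with hy'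
  have hy'0 : y' ≠ 0 := mul_ne_zero ((map_ne_zero _).mpr hd0) hg'0
  have hres : gaussResF' O h u = y' ^ p := by
    rw [hy', mul_pow, ← map_pow, hd, ← hc, div_mul_cancel₀ _ (pow_ne_zero p hg'0)]
  -- lift `y'`
  obtain ⟨w, hw⟩ := gaussResF'_surjective O h y'
  have hwu : IsUnit w := (H17.gaussResF'_ne_zero_iff_isUnit O h w).mp (by rw [hw]; exact hy'0)
  obtain ⟨w, rfl⟩ := hwu
  have hw0 := H36.unit_coe_ne_zero O h w
  -- `u' = u / w ^ p` reduces to `1`
  have hres' : gaussResF' O h ((u * (w⁻¹) ^ p : (↥(gaussValSub O F h))ˣ) :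
      ↥(gaussValSub O F h)) = 1 := by
    rw [Units.val_mul, Units.val_pow_eq_pow_val, map_mul, map_pow, hres]
    have h1 : gaussResF' O h ((w⁻¹ : (↥(gaussValSub O F h))ˣ) : ↥(gaussValSub O F h))
        = y'⁻¹ := by
      rw [← hw]
      exact (eq_inv_of_mul_eq_one_left (by rw [← map_mul, Units.inv_mul, map_one]))
    rw [h1, ← mul_pow, mul_inv_cancel₀ hy'0, one_pow]
  have hcoe : (((u * (w⁻¹) ^ p : (↥(gaussValSub O F h))ˣ) : ↥(gaussValSub O F h)) : ↥F)
      = ((u : ↥(gaussValSub O F h)) : ↥F) / ((w : ↥(gaussValSub O F h)) : ↥F) ^ p := by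
    rw [Units.val_mul, Units.val_pow_eq_pow_val]
    have h1 : (((w⁻¹ : (↥(gaussValSub O F h))ˣ) : ↥(gaussValSub O F h)) : ↥F)
        = (((w : ↥(gaussValSub O F h)) : ↥F))⁻¹ := by
      refine eq_inv_of_mul_eq_one_left ?_
      have e1 : ((w⁻¹ : (↥(gaussValSub O F h))ˣ) : ↥(gaussValSub O F h))
          * (w : ↥(gaussValSub O F h)) = 1 := Units.inv_mul w
      exact congrArg (fun z : ↥(gaussValSub O F h) => (z : ↥F)) e1
    show ((u : ↥(gaussValSub O F h)) : ↥F)
        * (((w⁻¹ : (↥(gaussValSub O F h))ˣ) : ↥(gaussValSub O F h)) : ↥F) ^ p = _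
    rw [h1, inv_pow, div_eq_mul_inv]
  -- the divisor of `w`
  obtain ⟨E, hE, hE0⟩ := hP.exists_divisor ((w : ↥(gaussValSub O F h)) : ↥F) hw0
  have hEp : E ∈ Divisor.principal (K := C) (F := ↥F) := ⟨_, hw0, hE⟩
  refine ⟨D - ⟨E, Divisor.mem_degZero.mpr hE0⟩,
    ((u * (w⁻¹) ^ p : (↥(gaussValSub O F h))ˣ) : ↥(gaussValSub O F h)), ?_, hres', fun P => ?_⟩
  · refine (QuotientAddGroup.eq (s := (Divisor.principal (K := C) (F := ↥F)).addSubgroupOf
      (Divisor.degZero (K := C) (F := ↥F)))).mpr ?_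
    rw [AddSubgroup.mem_addSubgroupOf]
    have e : ((-D + (D - ⟨E, Divisor.mem_degZero.mpr hE0⟩ :
        Divisor.degZero (K := C) (F := ↥F)) : Divisor.degZero (K := C) (F := ↥F)) :
        Divisor C ↥F) = -E := by
      have e1 : (-D + (D - ⟨E, Divisor.mem_degZero.mpr hE0⟩ :
          Divisor.degZero (K := C) (F := ↥F)) : Divisor.degZero (K := C) (F := ↥F))
          = -⟨E, Divisor.mem_degZero.mpr hE0⟩ := by abel
      rw [e1]
      rfl
    rw [e]
    exact (Divisor.principal (K := C) (F := ↥F)).neg_mem hEp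
  · rw [hcoe, H17.ord_div P hu0 (pow_ne_zero p hw0), H17.ord_pow, ← hD P, ← hE P]
    show (p : ℤ) * ((D : Divisor C ↥F) - E) P = _
    rw [Finsupp.sub_apply, mul_sub]

end Fermat.Agent.S43.Old.H75

end
end
-- ==== END Fermat.Agent.S43.Old.H75_Aux

-- ==== BEGIN Fermat.Agent.S43.Wiring
section

set_option autoImplicit false
open WeierstrassCurve WeierstrassCurve.Affine WeierstrassCurve.Affine.Point
open CuspForm ModularFormClass UpperHalfPlane

namespace Fermat.Agent.S43

/-- The integral model rescaled by `m`: `a_i ↦ m^i a_i`. -/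
def scaleModel (W : WeierstrassCurve ℤ) (m : ℤ) : WeierstrassCurve ℤ :=
  ⟨m * W.a₁, m ^ 2 * W.a₂, m ^ 3 * W.a₃, m ^ 4 * W.a₄, m ^ 6 * W.a₆⟩

theorem scaleModel_Δ (W : WeierstrassCurve ℤ) (m : ℤ) :
    (scaleModel W m).Δ = m ^ 12 * W.Δ := by
  simp only [scaleModel, WeierstrassCurve.Δ, WeierstrassCurve.b₂, WeierstrassCurve.b₄,
    WeierstrassCurve.b₆, WeierstrassCurve.b₈]
  ring

/-- Over a field, the rescaled curve is the variable change by `u = m⁻¹`. -/
theorem scale_eq_variableChange {F : Type*} [Field F] (W : WeierstrassCurve F) (m : F)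
    (hm : m ≠ 0) :
    (⟨m * W.a₁, m ^ 2 * W.a₂, m ^ 3 * W.a₃, m ^ 4 * W.a₄, m ^ 6 * W.a₆⟩ : WeierstrassCurve F)
      = (⟨(Units.mk0 m hm)⁻¹, 0, 0, 0⟩ : VariableChange F) • W := by
  ext <;>
    simp [variableChange_a₁, variableChange_a₂, variableChange_a₃, variableChange_a₄,
      variableChange_a₆]

theorem scaleModel_map {F : Type*} [Field F] (φ : ℤ →+* F) (W : WeierstrassCurve ℤ) (m : ℤ)
    (hm : φ m ≠ 0) :
    (scaleModel W m).map φ
      = (⟨(Units.mk0 (φ m) hm)⁻¹, 0, 0, 0⟩ : VariableChange F) • (W.map φ) := by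
  rw [← scale_eq_variableChange]
  ext <;> simp [scaleModel, WeierstrassCurve.map]

theorem scaleModel_isIntegralModelOf {W : WeierstrassCurve ℤ} {E : WeierstrassCurve ℚ}
    (h : W.IsIntegralModelOf E) {m : ℤ} (hm : m ≠ 0) :
    (scaleModel W m).IsIntegralModelOf E := by
  obtain ⟨C, hC⟩ := h
  have hm' : (Int.castRingHom ℚ) m ≠ 0 := by simpa using hm
  refine ⟨(⟨(Units.mk0 ((Int.castRingHom ℚ) m) hm')⁻¹, 0, 0, 0⟩ : VariableChange ℚ) * C, ?_⟩
  rw [mul_smul, hC, scaleModel_map]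

theorem scaleModel_isGoodPrimeFor {W : WeierstrassCurve ℤ} {m : ℤ} {ℓ : ℕ} (hℓ : ℓ.Prime)
    (h : (scaleModel W m).IsGoodPrimeFor ℓ) : ¬ (ℓ : ℤ) ∣ m ∧ W.IsGoodPrimeFor ℓ := by
  unfold WeierstrassCurve.IsGoodPrimeFor at h ⊢
  rw [scaleModel_Δ] at h
  have hp : Prime (ℓ : ℤ) := Nat.prime_iff_prime_int.1 hℓ
  constructor
  · intro hd
    exact h (Dvd.dvd.mul_right (dvd_pow hd (by norm_num)) _)
  · intro hd
    exact h (Dvd.dvd.mul_left hd _)

theorem card_variableChange {F : Type*} [Field F] (W : WeierstrassCurve F)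
    (C : VariableChange F) : (C • W).card = W.card := by
  classical
  unfold WeierstrassCurve.card
  exact Nat.card_congr (Fermat.Agent.Lib.PointVariableChange.equiv W.toAffine C).toEquiv

theorem scaleModel_apOfModel (W : WeierstrassCurve ℤ) {m : ℤ} {ℓ : ℕ} (hℓ : ℓ.Prime)
    (hm : ¬ (ℓ : ℤ) ∣ m) : (scaleModel W m).apOfModel ℓ = W.apOfModel ℓ := by
  have : Fact ℓ.Prime := ⟨hℓ⟩
  have hm' : (Int.castRingHom (ZMod ℓ)) m ≠ 0 := by
    intro h0
    apply hm
    have : ((m : ℤ) : ZMod ℓ) = 0 := by simpa using h0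
    exact (ZMod.intCast_zmod_eq_zero_iff_dvd m ℓ).1 this
  unfold WeierstrassCurve.apOfModel WeierstrassCurve.reductionMod
    WeierstrassCurve.traceOfFrobenius
  rw [scaleModel_map (Int.castRingHom (ZMod ℓ)) W m hm', card_variableChange]

/-- CORE of S43 (= Ribet's theorem for the Frey curve, congruence for almost all primes). -/
def Stmt_LowerCore : Prop :=
  ∀ (P : FreyPackage) (N q : ℕ), P.IsConductorLevel N → q.Prime → q ≠ 2 → q ≠ P.p → q ∣ N →
    GaloisRepIsIrreducible (K := AlgebraicClosure ℚ) ℚ P.freyCurve P.p →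
    P.ModularRepOfLevel N → P.GaloisRepUnramifiedAt q →
    ∃ (g : CuspForm (CongruenceSubgroup.Gamma0 (N / q)) 2) (𝔪 : Ideal (integralClosure ℤ ℂ))
      (S : Finset ℕ),
      g.IsNormalizedEigenform ∧ 𝔪.IsMaximal ∧ (P.p : integralClosure ℤ ℂ) ∈ 𝔪 ∧
      ∀ ℓ : ℕ, ℓ.Prime → ℓ ∉ S → ¬ ℓ ∣ N → ℓ ≠ P.p →
        ¬ (ℓ : ℤ) ∣ P.freyCurveInt.Δ →
        ∃ a : integralClosure ℤ ℂ, (a : ℂ) = ModularFormClass.qCoeff g ℓ ∧
          a - ((P.freyCurveInt.apOfModel ℓ : ℤ) : integralClosure ℤ ℂ) ∈ 𝔪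

/-- The frozen type of S43 from the core. -/
theorem result_of_core (hcore : Stmt_LowerCore) (P : FreyPackage) {N q : ℕ}
    (hcond : P.IsConductorLevel N) (hq : q.Prime) (hq2 : q ≠ 2) (hqp : q ≠ P.p) (hqN : q ∣ N)
    (hirr : GaloisRepIsIrreducible (K := AlgebraicClosure ℚ) ℚ P.freyCurve P.p)
    (hmod : P.ModularRepOfLevel N) (hunr : P.GaloisRepUnramifiedAt q) :
    ∃ M : ℕ, M ∣ N ∧ ¬ q ∣ M ∧ P.ModularRepOfLevel M := by
  obtain ⟨g, 𝔪, S, hg, hmax, hp, hcong⟩ := hcore P N q hcond hq hq2 hqp hqN hirr hmod hunr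
  have hNq : N / q * q = N := Nat.div_mul_cancel hqN
  have hqM : ¬ q ∣ N / q := by
    intro hd
    have : q * q ∣ N := by
      obtain ⟨k, hk⟩ := hd
      exact ⟨k, by rw [← hNq, hk]; ring⟩
    exact hcond.sq_not_dvd hq (by rwa [pow_two])
  refine ⟨N / q, Nat.div_dvd_of_dvd hqN, hqM, ?_⟩
  -- the multiplier making `q` and the exceptional primes bad
  set m : ℤ := (q : ℤ) * ∏ s ∈ S, ((if s = 0 then 1 else s : ℕ) : ℤ) with hm
  have hm0 : m ≠ 0 := by
    rw [hm]
    refine mul_ne_zero (by exact_mod_cast hq.ne_zero) ?_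
    refine Finset.prod_ne_zero_iff.2 (fun s _ => ?_)
    split_ifs with h
    · norm_num
    · exact_mod_cast h
  have hqm : (q : ℤ) ∣ m := Dvd.intro _ rfl
  have hSm : ∀ s ∈ S, s ≠ 0 → ((s : ℕ) : ℤ) ∣ m := by
    intro s hs hs0
    rw [hm]
    refine Dvd.dvd.mul_left ?_ _
    have := Finset.dvd_prod_of_mem (fun s => ((if s = 0 then 1 else s : ℕ) : ℤ)) hs
    simpa [hs0] using this
  refine ⟨g, scaleModel P.freyCurveInt m, 𝔪, hg,
    scaleModel_isIntegralModelOf (Fermat.Agent.S04.H59.freyCurveInt_isIntegralModelOf P) hm0,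
    hmax, hp, ?_⟩
  intro ℓ hℓ hgood hℓM hℓp
  obtain ⟨hℓm, hgood'⟩ := scaleModel_isGoodPrimeFor hℓ hgood
  have hℓq : ℓ ≠ q := by
    rintro rfl
    exact hℓm hqm
  have hℓS : ℓ ∉ S := by
    intro hs
    exact hℓm (hSm ℓ hs hℓ.ne_zero)
  have hℓN : ¬ ℓ ∣ N := by
    intro hd
    rw [← hNq] at hd
    rcases (Nat.Prime.dvd_mul hℓ).1 hd with h | h
    · exact hℓM h
    · exact hℓq ((Nat.prime_dvd_prime_iff_eq hℓ hq).1 h)
  obtain ⟨a, ha, hac⟩ := hcong ℓ hℓ hℓS hℓN hℓp hgood'
  refine ⟨a, ha, ?_⟩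
  rw [scaleModel_apOfModel P.freyCurveInt hℓ hℓm]
  exact hac

end Fermat.Agent.S43

end
-- ==== END Fermat.Agent.S43.Wiring

-- ==== BEGIN Fermat.Agent.S44.BadP2
section

set_option autoImplicit false

namespace Fermat.Agent.S44

/-- "`x` is an eigenvector for the operators `T ℓ` (`ℓ ∉ S`, `ℓ ∤ N`, `ℓ ≠ p`) with eigenvalues
`t ℓ`." -/
def HeckeGaloisModule.IsEigen {p : ℕ} (H : HeckeGaloisModule p) (N : ℕ) (S : Finset ℕ)
    (t : ℕ → ℤ) (x : H.J) : Prop :=
  ∀ ℓ : ℕ, ℓ.Prime → ℓ ∉ S → ¬ ℓ ∣ N → ℓ ≠ p → H.T ℓ x = ((t ℓ : ℤ) : ZMod p) • x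

/-- "The system `t` is not Eisenstein": `t ℓ ≠ 1 + ℓ` in `ZMod p` for some admissible `ℓ`. -/
def NonEisSystem (p N : ℕ) (S : Finset ℕ) (t : ℕ → ℤ) : Prop :=
  ∃ ℓ : ℕ, ℓ.Prime ∧ ℓ ∉ S ∧ ¬ ℓ ∣ N ∧ ℓ ≠ p ∧ ((t ℓ : ℤ) : ZMod p) ≠ 1 + (ℓ : ZMod p)

/-- "The system `t` comes from an eigenform of level `M`, modulo a maximal ideal over `p`." -/
def ComesFromLevel (p N M : ℕ) (S : Finset ℕ) (t : ℕ → ℤ) : Prop :=
  ∃ (g : CuspForm (CongruenceSubgroup.Gamma0 M) 2) (𝔪 : Ideal ZBar),
    g.IsNormalizedEigenform ∧ 𝔪.IsMaximal ∧ (p : ZBar) ∈ 𝔪 ∧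
    ∀ ℓ : ℕ, ℓ.Prime → ℓ ∉ S → ¬ ℓ ∣ N → ℓ ≠ p →
      ∃ a : ZBar, (a : ℂ) = ModularFormClass.qCoeff g ℓ ∧ a - ((t ℓ : ℤ) : ZBar) ∈ 𝔪

/-- "Inertia at `A` acts on the subspace `Y` through the mod `p` cyclotomic character." -/
def HeckeGaloisModule.IsCycOn {p : ℕ} (H : HeckeGaloisModule p)
    (A : ValuationSubring (AlgebraicClosure ℚ)) (Y : Submodule (ZMod p) H.J) : Prop :=
  ∀ σ ∈ A.inertiaSubgroupIn ℚ, ∀ n : ℕ,
    (∀ ζ : AlgebraicClosure ℚ, ζ ^ p = 1 → σ ζ = ζ ^ n) →
      ∀ y ∈ Y, H.gal σ y = (n : ZMod p) • y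

/-- "`x` is fixed by the inertia of `ℚ_p^nr(μ_p, u^(1/p))`." -/
def HeckeGaloisModule.IsPeuFixed {p : ℕ} (H : HeckeGaloisModule p)
    (A : ValuationSubring (AlgebraicClosure ℚ)) (u : ℤ) (x : H.J) : Prop :=
  ∀ σ ∈ A.inertiaSubgroupIn ℚ,
    (∀ ζ : AlgebraicClosure ℚ, ζ ^ p = 1 → σ ζ = ζ) →
    (∀ z : AlgebraicClosure ℚ, z ^ p = (u : AlgebraicClosure ℚ) → σ z = z) →
      H.gal σ x = x

/-- **BAD_p, new abstract form.**  See the header. -/
def HeckeGaloisModule.HasBadStructure {p : ℕ} (H : HeckeGaloisModule p) (N : ℕ)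
    (A : ValuationSubring (AlgebraicClosure ℚ)) : Prop :=
  ∃ G0 G : Submodule (ZMod p) H.J,
    (∀ (S : Finset ℕ) (t : ℕ → ℤ) (x : H.J), x ∈ G → x ∉ G0 →
      H.IsEigen N S t x → ComesFromLevel p N (N / p) S t) ∧
    (∀ (S : Finset ℕ) (t : ℕ → ℤ) (x : H.J) (Y : Submodule (ZMod p) H.J) (u : ℤ),
      H.IsEigen N S t x → NonEisSystem p N S t →
      H.IsCycOn A Y → (∀ σ ∈ A.inertiaSubgroupIn ℚ, H.gal σ x - x ∈ Y) →
      ¬ (p : ℤ) ∣ u → H.IsPeuFixed A u x →
      x ∈ G) ∧
    (∀ (x : H.J) (Y : Submodule (ZMod p) H.J) (u : ℤ), x ∈ G0 →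
      H.IsCycOn A Y → (∀ σ ∈ A.inertiaSubgroupIn ℚ, H.gal σ x - x ∈ Y) →
      ¬ (p : ℤ) ∣ u → H.IsPeuFixed A u x →
      x ∈ Y)

/-- **Mazur's principle at `p`** from the new abstract structure. -/
theorem removesP_of_badStructure {p : ℕ} (H : HeckeGaloisModule p) (N : ℕ)
    (A : ValuationSubring (AlgebraicClosure ℚ))
    (hbad : H.HasBadStructure N A) : H.RemovesP N A := by
  intro V _ _ ρ ι S t _hdim _hirr hfin hinj hequiv hT hNE
  obtain ⟨G0, G, hc, hd, he⟩ := hbad
  obtain ⟨L, hLtop, hLχ, hLtriv, u, hu, hpeu⟩ := hfin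
  -- the image of `L`
  set Y : Submodule (ZMod p) H.J := L.map ι with hY
  have hYcyc : H.IsCycOn A Y := by
    intro σ hσ n hn y hy
    obtain ⟨l, hl, rfl⟩ := Submodule.mem_map.mp hy
    rw [← hequiv, hLχ σ hσ n hn l hl, map_smul]
  have hYsub : ∀ v : V, ∀ σ ∈ A.inertiaSubgroupIn ℚ, H.gal σ (ι v) - ι v ∈ Y := by
    intro v σ hσ
    have h1 : H.gal σ (ι v) - ι v = ι (ρ σ v - v) := by
      rw [map_sub, hequiv]
    rw [h1]
    exact Submodule.mem_map_of_mem (hLtriv σ hσ v)
  have hfix : ∀ v : V, H.IsPeuFixed A u (ι v) := by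
    intro v σ hσ h1 h2
    rw [← hequiv, hpeu σ hσ h1 h2 v]
  have heig : ∀ v : V, H.IsEigen N S t (ι v) := fun v ℓ hℓ hℓS hℓN hℓp => hT ℓ hℓ hℓS hℓN hℓp v
  -- every vector of `V` lies in `G`
  have hVG : ∀ v : V, ι v ∈ G := fun v =>
    hd S t (ι v) Y u (heig v) hNE hYcyc (hYsub v) hu (hfix v)
  by_cases hcase : ∃ v : V, ι v ∉ G0
  · obtain ⟨v, hv⟩ := hcase
    exact hc S t (ι v) (hVG v) hv (heig v)
  · exfalso
    push Not at hcase
    apply hLtop
    refine eq_top_iff.mpr fun v _ => ?_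
    have hvY : ι v ∈ Y := he (ι v) Y u (hcase v) hYcyc (hYsub v) hu (hfix v)
    obtain ⟨l, hl, hlv⟩ := Submodule.mem_map.mp hvY
    rw [← hinj hlv]
    exact hl

end Fermat.Agent.S44

end
-- ==== END Fermat.Agent.S44.BadP2

-- ==== BEGIN Fermat.Agent.S44.C.Defs
section

set_option autoImplicit false

namespace Fermat.Agent.S44.C

section Val

/-- **V1** (root near): every `h` is as close to some `p`-th root of unity as `h ^ p` is to `1`,
up to the factor `|p|`: `|h - ζ| · |p| ≤ |h ^ p - 1|`. -/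
def Stmt_V1 : Prop :=
  ∀ (L : Type) [Field L] [IsAlgClosed L] [CharZero L] (Γ₀ : Type)
    [LinearOrderedCommGroupWithZero Γ₀] (v : Valuation L Γ₀) (p : ℕ), p.Prime →
    ∀ h : L, ∃ ζ : L, ζ ^ p = 1 ∧ v (h - ζ) * v (p : L) ≤ v (h ^ p - 1)

/-- **V2** (binomial): if `|δ| < 1` and `|δ| ^ (p - 1) < |p|` then `|(1 + δ) ^ p - 1| = |p| |δ|`. -/
def Stmt_V2 : Prop :=
  ∀ (L : Type) [Field L] (Γ₀ : Type) [LinearOrderedCommGroupWithZero Γ₀] (v : Valuation L Γ₀)
    (p : ℕ), p.Prime → ∀ δ : L, v δ < 1 → v δ ^ (p - 1) < v (p : L) →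
      v ((1 + δ) ^ p - 1) = v (p : L) * v δ

/-- **V3** (units mod `p²`): an integer prime to `p` is `≡ t ^ p (1 + p) ^ n` mod `p²`. -/
def Stmt_V3 : Prop :=
  ∀ (p : ℕ), p.Prime → ∀ t : ℤ, ¬ (p : ℤ) ∣ t →
    ∃ n : ℕ, (p : ℤ) ^ 2 ∣ t - t ^ p * (1 + (p : ℤ)) ^ n

end Val

section RatLim

variable {L : Type*} [Field L] [Algebra ℚ L]

/-- `z` is a `p`-adic limit of rational numbers (w.r.t. the valuation subring `A`, `|p| < 1`). -/
def IsRatLim (A : ValuationSubring L) (p : ℕ) (z : L) : Prop :=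
  ∀ k : ℕ, ∃ r : ℚ, A.valuation (z - algebraMap ℚ L r) ≤ A.valuation (p : L) ^ k

end RatLim

/-- **F1** (the `p`-adic closure of `ℚ` is a subfield): sums, products, negatives and inverses of
limits of rationals are limits of rationals.  (`L` algebraic over `ℚ`, so that the valuation has
rank one: `BAD/H82_Arch.lean`.) -/
def Stmt_F1 : Prop :=
  ∀ (L : Type) [Field L] [Algebra ℚ L] [CharZero L], Algebra.IsAlgebraic ℚ L →
  ∀ (A : ValuationSubring L) (p : ℕ), p.Prime → A.valuation (p : L) < 1 →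
    ∃ F : Subfield L, ∀ z : L, z ∈ F ↔ IsRatLim A p z

/-- **F2** (limits of rationals are fixed by valuation preserving automorphisms). -/
def Stmt_F2 : Prop :=
  ∀ (L : Type) [Field L] [Algebra ℚ L] [CharZero L], Algebra.IsAlgebraic ℚ L →
  ∀ (A : ValuationSubring L) (p : ℕ), p.Prime → A.valuation (p : L) < 1 →
  ∀ σ : L ≃ₐ[ℚ] L, (∀ x, A.valuation (σ x) = A.valuation x) →
    ∀ z : L, IsRatLim A p z → σ z = z

/-- **F3** (square roots, `p` odd): if `d` is a limit of rationals, `|d - 1| < 1`, `η² = d` and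
`|η - 1| < 1`, then `η` is a limit of rationals. -/
def Stmt_F3 : Prop :=
  ∀ (L : Type) [Field L] [Algebra ℚ L] [CharZero L]
    (A : ValuationSubring L) (p : ℕ), p.Prime → p ≠ 2 → A.valuation (p : L) < 1 →
  ∀ d η : L, IsRatLim A p d → A.valuation (d - 1) < 1 → η ^ 2 = d → A.valuation (η - 1) < 1 →
    IsRatLim A p η

/-- **F4** (residues): a limit of rationals which is a unit of `A` is congruent mod `p²` to an
integer prime to `p`. -/
def Stmt_F4 : Prop :=
  ∀ (L : Type) [Field L] [Algebra ℚ L] [CharZero L]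
    (A : ValuationSubring L) (p : ℕ), p.Prime → A.valuation (p : L) < 1 →
  ∀ w : L, IsRatLim A p w → A.valuation w = 1 →
    ∃ t : ℤ, ¬ (p : ℤ) ∣ t ∧ A.valuation (w - (t : L)) ≤ A.valuation (p : L) ^ 2

end Fermat.Agent.S44.C

end
-- ==== END Fermat.Agent.S44.C.Defs

-- ==== BEGIN Fermat.Agent.S44.C.H33_Det
section

set_option autoImplicit false

namespace Fermat.Agent.S44.C.H33

open Module

/-- An endomorphism of a plane which is trivial modulo a proper subspace `T` acts on `T` by its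
determinant. -/
theorem apply_eq_det_smul {K V : Type*} [Field K] [AddCommGroup V] [Module K V]
    (hdim : Module.finrank K V = 2) (T : Submodule K V) (hT : T ≠ ⊤) (f : V →ₗ[K] V)
    (hf : ∀ x, f x - x ∈ T) {x : V} (hx : x ∈ T) : f x = LinearMap.det f • x := by
  by_cases hx0 : x = 0
  · rw [hx0, map_zero, smul_zero]
  -- a vector outside `T`
  obtain ⟨y, hy⟩ : ∃ y : V, y ∉ T := by
    by_contra h
    push Not at h
    exact hT (eq_top_iff.2 fun z _ => h z)
  have hli : LinearIndependent K ![x, y] := by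
    rw [LinearIndependent.pair_iff]
    intro s t hst
    have ht : t = 0 := by
      by_contra ht
      apply hy
      have e : y = t⁻¹ • (-(s • x)) := by
        have : t • y = -(s • x) := by
          rw [eq_neg_iff_add_eq_zero, add_comm]; exact hst
        rw [← this, smul_smul, inv_mul_cancel₀ ht, one_smul]
      rw [e]
      exact T.smul_mem _ (T.neg_mem (T.smul_mem _ hx))
    refine ⟨?_, ht⟩
    rw [ht, zero_smul, add_zero] at hst
    exact (smul_eq_zero.1 hst).resolve_right hx0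
  have hcard : Fintype.card (Fin 2) = Module.finrank K V := by rw [hdim]; rfl
  have : FiniteDimensional K V := FiniteDimensional.of_finrank_pos (by rw [hdim]; norm_num)
  set b : Basis (Fin 2) K V := basisOfLinearIndependentOfCardEqFinrank hli hcard with hb
  have hb0 : b 0 = x := by
    rw [hb, coe_basisOfLinearIndependentOfCardEqFinrank]; rfl
  have hb1 : b 1 = y := by
    rw [hb, coe_basisOfLinearIndependentOfCardEqFinrank]; rfl
  -- elements of `T` have second coordinate `0`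
  have hT1 : ∀ z ∈ T, b.repr z 1 = 0 := by
    intro z hz
    by_contra h
    apply hy
    have hsum : z = b.repr z 0 • x + b.repr z 1 • y := by
      conv_lhs => rw [← b.sum_repr z]
      rw [Fin.sum_univ_two, hb0, hb1]
    have e : y = (b.repr z 1)⁻¹ • (z - b.repr z 0 • x) := by
      have : z - b.repr z 0 • x = b.repr z 1 • y := by
        rw [sub_eq_iff_eq_add, add_comm]; exact hsum
      rw [this, smul_smul, inv_mul_cancel₀ h, one_smul]
    rw [e]
    exact T.smul_mem _ (T.sub_mem hz (T.smul_mem _ hx))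
  have hfx : f x ∈ T := by
    have := T.add_mem (hf x) hx
    rwa [sub_add_cancel] at this
  -- the matrix of `f`
  have h10 : b.repr (f x) 1 = 0 := hT1 _ hfx
  have h11 : b.repr (f y) 1 = 1 := by
    have h1 := hT1 _ (hf y)
    rw [map_sub, Finsupp.sub_apply, sub_eq_zero] at h1
    rw [h1, ← hb1, b.repr_self, Finsupp.single_eq_same]
  have hdet : LinearMap.det f = b.repr (f x) 0 := by
    rw [← LinearMap.det_toMatrix b, Matrix.det_fin_two]
    simp only [LinearMap.toMatrix_apply, hb0, hb1, h10, h11, mul_one, mul_zero, sub_zero]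
  have hsum : f x = b.repr (f x) 0 • x + b.repr (f x) 1 • y := by
    conv_lhs => rw [← b.sum_repr (f x)]
    rw [Fin.sum_univ_two, hb0, hb1]
  rw [hdet]
  rw [h10, zero_smul, add_zero] at hsum
  exact hsum

end Fermat.Agent.S44.C.H33

end
-- ==== END Fermat.Agent.S44.C.H33_Det

-- ==== BEGIN Fermat.Agent.S44.Concrete
section

set_option autoImplicit false

open AlgebraicCurve ModularCurve

namespace Fermat.Agent.S44

/-- The `p`-torsion of `J₀(N)(ℚ̄)`. -/
abbrev JTors (N p : ℕ) : Type :=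
  Pic0.torsion (AlgebraicClosure ℚ) (modularFunctionFieldBar N) p

/-- The Hecke operator `T_ℓ` on the `p`-torsion of `J₀(N)`, as an additive map. -/
noncomputable def heckeTorsAdd (N p : ℕ) [NeZero N] (ℓ : Nat.Primes) :
    JTors N p →+ JTors N p where
  toFun x := ⟨heckeOperatorBar N ℓ (x : JZero N), by
    rw [Pic0.mem_torsion, ← map_zsmul, Pic0.mem_torsion.mp x.property, _root_.map_zero]⟩
  map_zero' := by
    apply Subtype.ext
    simp
  map_add' x y := by
    apply Subtype.ext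
    simp

/-- The Hecke operator `T_ℓ` on the `p`-torsion of `J₀(N)`. -/
noncomputable def heckeTors (N p : ℕ) [NeZero N] (ℓ : Nat.Primes) :
    Module.End (ZMod p) (JTors N p) :=
  (heckeTorsAdd N p ℓ).toZModLinearMap p

@[simp]
theorem coe_heckeTors_apply (N p : ℕ) [NeZero N] (ℓ : Nat.Primes) (x : JTors N p) :
    ((heckeTors N p ℓ x : JTors N p) : JZero N) = heckeOperatorBar N ℓ (x : JZero N) := rfl

open Classical in
/-- **The Hecke-Galois module `J₀(N)(ℚ̄)[p]`.**  The operator `T ℓ` is the Hecke operator of the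
prelude for the primes `ℓ ∤ N` and is `0` for every other `ℓ` (these are never used). -/
noncomputable def jzModule (N p : ℕ) [NeZero N] : HeckeGaloisModule p where
  J := JTors N p
  gal := JZero.torsionGaloisRep N p
  T := fun ℓ => if h : ℓ.Prime ∧ ¬ ℓ ∣ N then heckeTors N p ⟨ℓ, h.1⟩ else 0

/-- The point of `J₀(N)` underlying an element of the module. -/
def jzModule.pt (N p : ℕ) [NeZero N] (x : (jzModule N p).J) : JZero N :=
  ((show JTors N p from x) : JZero N)

theorem jzModule.pt_injective (N p : ℕ) [NeZero N] :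
    Function.Injective (jzModule.pt N p) := fun _ _ h => Subtype.ext h

theorem jzModule.pt_gal (N p : ℕ) [NeZero N] (σ : GQ) (x : (jzModule N p).J) :
    jzModule.pt N p ((jzModule N p).gal σ x) = σ • jzModule.pt N p x :=
  rfl

theorem jzModule.T_eq (N p : ℕ) [NeZero N] {ℓ : ℕ} (hℓ : ℓ.Prime) (hℓN : ¬ ℓ ∣ N) :
    (jzModule N p).T ℓ = heckeTors N p ⟨ℓ, hℓ⟩ :=
  dif_pos ⟨hℓ, hℓN⟩

theorem jzModule.T_eq_zero (N p : ℕ) [NeZero N] {ℓ : ℕ} (h : ¬ (ℓ.Prime ∧ ¬ ℓ ∣ N)) :
    (jzModule N p).T ℓ = 0 :=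
  dif_neg h

theorem jzModule.pt_T (N p : ℕ) [NeZero N] {ℓ : ℕ} (hℓ : ℓ.Prime) (hℓN : ¬ ℓ ∣ N)
    (x : (jzModule N p).J) :
    jzModule.pt N p ((jzModule N p).T ℓ x) = heckeOperatorBar N ⟨ℓ, hℓ⟩ (jzModule.pt N p x) := by
  rw [jzModule.T_eq N p hℓ hℓN]
  rfl

theorem jzModule.pt_torsion (N p : ℕ) [NeZero N] (x : (jzModule N p).J) :
    (p : ℤ) • jzModule.pt N p x = 0 :=
  Pic0.mem_torsion.mp (show JTors N p from x).property

/-- **Package A1 (Tate package mod `p`).**  `J₀(N)[p]` is finite, the Galois action factors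
through a finite extension and commutes with the Hecke operators, which commute with each other;
it is unramified outside `N p` with the Eichler-Shimura relation; every eigenform of level `N`
has an eigenvector in it. -/
def Stmt_TateModP : Prop :=
  ∀ (p : ℕ), p.Prime → p ≠ 2 → ∀ (N : ℕ) [NeZero N],
    (jzModule N p).IsContinuous ∧ (jzModule N p).EichlerShimura N ∧ (jzModule N p).HasSupport N

/-- **Package A2 (BAD_p).**  The structure of `J₀(N)[p]` at a place over `p ∥ N`. -/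
def Stmt_BadP : Prop :=
  ∀ (p : ℕ), p.Prime → p ≠ 2 → ∀ (N : ℕ) [NeZero N], p ∣ N → ¬ p ^ 2 ∣ N →
    ∀ A : ValuationSubring (AlgebraicClosure ℚ), A.LiesOverPrime p →
      (jzModule N p).HasBadFiltration N A

/-- **Package A from A1, A2 and the ramification of the cyclotomic character.** -/
theorem stmt_Module_of (h1 : Stmt_TateModP) (h2 : Stmt_BadP) (h3 : Stmt_CycRam) : Stmt_Module := by
  intro p hp hp2 N hN hpN hp2N A hA
  haveI : NeZero N := ⟨hN.ne'⟩
  obtain ⟨hc, hES, hsupp⟩ := h1 p hp hp2 N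
  exact ⟨jzModule N p, hc, hES, hsupp,
    removesP_of_bad hp (jzModule N p) N A (h3 p hp hp2 A hA) (h2 p hp hp2 N hpN hp2N A hA)⟩

end Fermat.Agent.S44

end
-- ==== END Fermat.Agent.S44.Concrete

-- ==== BEGIN Fermat.Agent.S44.PlaceOver
section

set_option autoImplicit false

namespace Fermat.Agent.S44

theorem stmt_PlaceOver : Stmt_PlaceOver := fun p hp =>
  Fermat.Agent.Lib.FrobExists.exists_liesOverPrime p hp

end Fermat.Agent.S44

end
-- ==== END Fermat.Agent.S44.PlaceOver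

-- ==== BEGIN Fermat.Agent.S44.Wiring
section

set_option autoImplicit false

open WeierstrassCurve WeierstrassCurve.Affine WeierstrassCurve.Affine.Point
open scoped WeierstrassCurve.Affine

namespace Fermat.Agent.S44

/-- The finite set of primes dividing `n`, for `n ≠ 0`. -/
theorem mem_primeFactors_of_dvd_natAbs {ℓ : ℕ} {z : ℤ} (hℓ : ℓ.Prime) (hz : z ≠ 0)
    (h : (ℓ : ℤ) ∣ z) : ℓ ∈ z.natAbs.primeFactors := by
  rw [Nat.mem_primeFactors]
  refine ⟨hℓ, ?_, Int.natAbs_ne_zero.mpr hz⟩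
  exact Int.natCast_dvd.mp h

/-- An integral model of an elliptic curve over `ℚ` has non-zero discriminant as soon as the
curve has.  (Not needed below, recorded for the packages.) -/
theorem prime_not_mem_of_good {ℓ : ℕ} {W : WeierstrassCurve ℤ} (hℓ : ℓ.Prime) (hΔ : W.Δ ≠ 0)
    (h : ℓ ∉ W.Δ.natAbs.primeFactors) : W.IsGoodPrimeFor ℓ := fun hdvd =>
  h (mem_primeFactors_of_dvd_natAbs hℓ hΔ hdvd)

/-- **S44 from the packages, for a model with non-zero discriminant.** -/
theorem result_of_inputs_aux (hA : Stmt_Module) (hB : Stmt_Recovery) (hC : Stmt_FreyFiniteAtP)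
    (hD : Stmt_PlaceOver) (hE : Stmt_NonEis)
    (P : FreyPackage) {N : ℕ} (hcond : P.IsConductorLevel N) (hpN : P.p ∣ N)
    (hirr : GaloisRepIsIrreducible (K := AlgebraicClosure ℚ) ℚ P.freyCurve P.p)
    (f : CuspForm (CongruenceSubgroup.Gamma0 N) 2) (W : WeierstrassCurve ℤ)
    (𝔪 : Ideal (integralClosure ℤ ℂ)) (hf : f.IsNormalizedEigenform)
    (hW : W.IsIntegralModelOf P.freyCurve) (hΔ : W.Δ ≠ 0)
    (h𝔪 : 𝔪.IsMaximal) (hp𝔪 : (P.p : integralClosure ℤ ℂ) ∈ 𝔪)
    (hcong : ∀ ℓ : ℕ, ℓ.Prime → W.IsGoodPrimeFor ℓ → ¬ ℓ ∣ N → ℓ ≠ P.p →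
      ∃ a : integralClosure ℤ ℂ, (a : ℂ) = ModularFormClass.qCoeff f ℓ ∧
        a - ((W.apOfModel ℓ : ℤ) : integralClosure ℤ ℂ) ∈ 𝔪) :
    ∃ M : ℕ, M ∣ N ∧ ¬ P.p ∣ M ∧ P.ModularRepOfLevel M := by
  have hp : P.p.Prime := P.pp
  have hp2 : P.p ≠ 2 := by have := P.hp5; omega
  have hp2N : ¬ P.p ^ 2 ∣ N := hcond.sq_not_dvd hp
  obtain ⟨A, hAp⟩ := hD P.p hp
  obtain ⟨H, hcont, hES, hsupp, hrem⟩ := hA P.p hp hp2 N hcond.pos hpN hp2N A hAp
  -- the exceptional set: the bad primes of the model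
  set S : Finset ℕ := W.Δ.natAbs.primeFactors with hS
  have hgood : ∀ ℓ : ℕ, ℓ.Prime → ℓ ∉ S → W.IsGoodPrimeFor ℓ := fun ℓ hℓ h =>
    prime_not_mem_of_good hℓ hΔ h
  -- the eigenvector of level `N`
  obtain ⟨x, hx0, hx⟩ := hsupp f 𝔪 S (fun ℓ => W.apOfModel ℓ) hf h𝔪 hp𝔪
    (fun ℓ hℓ hℓS hℓN hℓp => hcong ℓ hℓ (hgood ℓ hℓ hℓS) hℓN hℓp)
  -- congruence recovery
  obtain ⟨ι, hinj, hequiv, hT⟩ := hB P.p hp hp2 N hcond.pos H hcont hES P.freyCurve W hW hirr S hgood x hx0 hx
  -- the local structure at `p`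
  obtain ⟨hdim, hfin⟩ := hC P (hcond.p_dvd_abc hpN) A hAp
  -- the system is not Eisenstein
  have hNE : ∃ ℓ : ℕ, ℓ.Prime ∧ ℓ ∉ S ∧ ¬ ℓ ∣ N ∧ ℓ ≠ P.p ∧
      ((W.apOfModel ℓ : ℤ) : ZMod P.p) ≠ 1 + (ℓ : ZMod P.p) := by
    obtain ⟨ℓ, hℓ, hℓW, hℓN, hℓp, hne⟩ := hE P W hW N hcond.pos hirr
    refine ⟨ℓ, hℓ, ?_, hℓN, hℓp, hne⟩
    intro hmem
    rw [hS, Nat.mem_primeFactors] at hmem
    exact hℓW (Int.natCast_dvd.mpr hmem.2.1)
  -- Mazur's principle
  obtain ⟨g, 𝔪', hg, h𝔪', hp𝔪', hg_cong⟩ := hrem (Tors P.freyCurve P.p)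
    (galoisRepModuleEnd (S := ℚ) (K := AlgebraicClosure ℚ) P.freyCurve.toAffine P.p)
    ι S (fun ℓ => W.apOfModel ℓ) hdim
    (fun W' hW' => hirr.2 W' (fun σ x hx => hW' σ x hx))
    hfin hinj (fun σ v => hequiv σ v) hT hNE
  refine ⟨N / P.p, Nat.div_dvd_of_dvd hpN, ?_, g, W, 𝔪', hg, hW, h𝔪', hp𝔪', ?_⟩
  · intro hdvd
    apply hp2N
    obtain ⟨c, hc⟩ := hdvd
    refine ⟨c, ?_⟩
    have hN : N = P.p * (N / P.p) := (Nat.mul_div_cancel' hpN).symm
    rw [hN, hc, pow_two, mul_assoc]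
  · intro ℓ hℓ hℓW hℓM hℓp
    have hℓN : ¬ ℓ ∣ N := by
      intro hdvd
      have hN : N = P.p * (N / P.p) := (Nat.mul_div_cancel' hpN).symm
      rw [hN] at hdvd
      rcases (Nat.Prime.dvd_mul hℓ).mp hdvd with h | h
      · exact hℓp ((Nat.prime_dvd_prime_iff_eq hℓ hp).mp h)
      · exact hℓM h
    have hℓS : ℓ ∉ S := by
      intro hmem
      rw [hS, Nat.mem_primeFactors] at hmem
      exact hℓW (Int.natCast_dvd.mpr hmem.2.1)
    exact hg_cong ℓ hℓ hℓS hℓN hℓp

/-- An integral model of the Frey curve has non-zero discriminant. -/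
theorem integralModel_Δ_ne_zero (P : FreyPackage) {W : WeierstrassCurve ℤ}
    (hW : W.IsIntegralModelOf P.freyCurve) : W.Δ ≠ 0 := by
  obtain ⟨C, hC⟩ := hW
  have h1 : P.freyCurve.Δ ≠ 0 := by
    rw [← Fermat.Agent.S04.H59.freyCurveInt_map P, WeierstrassCurve.map_Δ]
    simpa using Fermat.Agent.S04.H59.freyCurveInt_Δ_ne_zero P
  have h2 : (C • P.freyCurve).Δ ≠ 0 := by
    rw [WeierstrassCurve.variableChange_Δ]
    exact mul_ne_zero (pow_ne_zero _ (Units.ne_zero _)) h1
  rw [hC, WeierstrassCurve.map_Δ] at h2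
  intro h0
  exact h2 (by rw [h0, _root_.map_zero])

/-- **S44 from the packages.**  The conclusion is the frozen statement S44, verbatim. -/
theorem result_of_inputs (hA : Stmt_Module) (hB : Stmt_Recovery) (hC : Stmt_FreyFiniteAtP)
    (hD : Stmt_PlaceOver) (hE : Stmt_NonEis)
    (P : FreyPackage) {N : ℕ} (hcond : P.IsConductorLevel N) (hpN : P.p ∣ N)
    (hirr : GaloisRepIsIrreducible (K := AlgebraicClosure ℚ) ℚ P.freyCurve P.p)
    (hmod : P.ModularRepOfLevel N) :
    ∃ M : ℕ, M ∣ N ∧ ¬ P.p ∣ M ∧ P.ModularRepOfLevel M := by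
  obtain ⟨f, W, 𝔪, hf, hW, h𝔪, hp𝔪, hcong⟩ := hmod
  exact result_of_inputs_aux hA hB hC hD hE P hcond hpN hirr f W 𝔪 hf hW
    (integralModel_Δ_ne_zero P hW) h𝔪 hp𝔪 hcong

end Fermat.Agent.S44

end
-- ==== END Fermat.Agent.S44.Wiring

-- ==== BEGIN Fermat.Agent.S49.Lifting
section

/-!
# The Deligne–Serre lifting lemma, abstract form

* `exists_eigenvector_character`: a commutative ring `R` acting faithfully on a finite-dimensional
  complex vector space `V`, and a prime ideal `I` of `R`: there is a simultaneous eigenvector whose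
  eigencharacter `χ : R →+* ℂ` has kernel contained in `I`.
* `exists_maximal_over`: if moreover `R` is integral over `ℤ`, then `χ` lands in the algebraic
  integers and there is a maximal ideal of the ring of algebraic integers containing `χ(I)`.
-/

set_option autoImplicit false
set_option linter.style.haveILetI false

namespace Fermat.Agent.S49

open Module

section Eigen

variable {V : Type*} [AddCommGroup V] [Module ℂ V] [FiniteDimensional ℂ V]
variable {R : Type*} [CommRing R]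

theorem exists_eigenvector_character (φ : R →+* Module.End ℂ V)
    (hφ : Function.Injective φ) (I : Ideal R) [hI : I.IsPrime] :
    ∃ (χ : R →+* ℂ) (v : V), v ≠ 0 ∧ (∀ r, φ r v = χ r • v) ∧ RingHom.ker χ ≤ I := by
  classical
  -- the commutative ℂ-algebra generated by the image of `R`
  have hcomm : ∀ a ∈ Set.range φ, ∀ b ∈ Set.range φ, a * b = b * a := by
    rintro _ ⟨r, rfl⟩ _ ⟨s, rfl⟩
    rw [← map_mul, ← map_mul, mul_comm]
  letI instA : CommRing (Algebra.adjoin ℂ (Set.range φ)) :=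
    { (inferInstance : Ring (Algebra.adjoin ℂ (Set.range φ))) with
      mul_comm := by
        haveI := Algebra.isMulCommutative_adjoin ℂ hcomm
        exact fun a b => mul_comm' a b }
  let A := Algebra.adjoin ℂ (Set.range φ)
  let ι : R →+* A :=
    { toFun := fun r => ⟨φ r, Algebra.subset_adjoin ⟨r, rfl⟩⟩
      map_one' := Subtype.ext (map_one φ)
      map_mul' := fun r s => Subtype.ext (map_mul φ r s)
      map_zero' := Subtype.ext (map_zero φ)
      map_add' := fun r s => Subtype.ext (map_add φ r s) }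
  have hι : Function.Injective ι := fun r s h => hφ (congrArg Subtype.val h)
  have hιv : ∀ (r : R) (v : V), (ι r : A) • v = φ r v := fun r v => rfl
  haveI : IsArtinianRing A := IsArtinianRing.of_finite ℂ A
  haveI : Module.Finite A V := Module.Finite.of_restrictScalars_finite ℂ A V
  -- a prime of `A` disjoint from the image of the complement of `I`
  let S : Submonoid A := Submonoid.map (ι : R →* A) I.primeCompl
  have hdisj : Disjoint ((⊥ : Ideal A) : Set A) (S : Set A) := by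
    rw [Set.disjoint_left]
    rintro x hx ⟨r, hr, rfl⟩
    have hx0 : (ι r : A) = 0 := by simpa using hx
    have : r = 0 := hι (by rw [hx0, map_zero])
    exact hr (this ▸ I.zero_mem)
  obtain ⟨𝔫, h𝔫prime, -, h𝔫S⟩ := Ideal.exists_le_prime_disjoint (⊥ : Ideal A) S hdisj
  haveI := h𝔫prime
  haveI h𝔫max : 𝔫.IsMaximal := IsArtinianRing.isMaximal_of_isPrime 𝔫
  -- `𝔫` is a minimal prime over the annihilator of `V`, which is zero
  have hann : Module.annihilator A V = ⊥ := by
    rw [eq_bot_iff]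
    intro a ha
    rw [Module.mem_annihilator] at ha
    rw [Ideal.mem_bot]
    apply Subtype.ext
    apply LinearMap.ext
    intro v
    exact ha v
  have hmin : 𝔫 ∈ (Module.annihilator A V).minimalPrimes := by
    rw [hann]
    refine ⟨⟨h𝔫prime, bot_le⟩, ?_⟩
    rintro 𝔮 ⟨h𝔮prime, -⟩ h𝔮le
    haveI := h𝔮prime
    have h𝔮max : 𝔮.IsMaximal := IsArtinianRing.isMaximal_of_isPrime 𝔮
    exact (h𝔮max.eq_of_le h𝔫prime.ne_top h𝔮le).ge
  have hass : 𝔫 ∈ associatedPrimes A V :=
    Module.associatedPrimes.minimalPrimes_annihilator_subset_associatedPrimes A V hmin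
  obtain ⟨-, v, hv⟩ := (isAssociatedPrime_iff).mp hass
  have hv' : ∀ a : A, a ∈ 𝔫 ↔ a • v = 0 := by
    intro a
    rw [hv, Submodule.mem_colon_singleton, Submodule.mem_bot]
  have hvne : v ≠ 0 := by
    intro h0
    apply h𝔫prime.ne_top
    rw [Ideal.eq_top_iff_one, hv', h0, smul_zero]
  -- the residue field of `𝔫` is `ℂ`
  letI : Field (A ⧸ 𝔫) := Ideal.Quotient.field 𝔫
  haveI : Algebra.IsIntegral ℂ (A ⧸ 𝔫) := Algebra.IsIntegral.of_finite ℂ (A ⧸ 𝔫)
  have hbij : Function.Bijective (algebraMap ℂ (A ⧸ 𝔫)) :=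
    IsAlgClosed.algebraMap_bijective_of_isIntegral
  let e : ℂ ≃+* (A ⧸ 𝔫) := RingEquiv.ofBijective (algebraMap ℂ (A ⧸ 𝔫)) hbij
  let ψ : A →+* ℂ := (e.symm : (A ⧸ 𝔫) →+* ℂ).comp (Ideal.Quotient.mk 𝔫)
  have hψ : ∀ a : A, a - algebraMap ℂ A (ψ a) ∈ 𝔫 := by
    intro a
    rw [← Ideal.Quotient.eq]
    have h1 : e (ψ a) = Ideal.Quotient.mk 𝔫 a := by
      simp only [ψ, RingHom.comp_apply, RingHom.coe_coe, RingEquiv.apply_symm_apply]
    have h2 : e (ψ a) = Ideal.Quotient.mk 𝔫 (algebraMap ℂ A (ψ a)) := rfl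
    rw [← h1, h2]
  have hψker : ∀ a : A, ψ a = 0 → a ∈ 𝔫 := by
    intro a ha
    have := hψ a
    rwa [ha, map_zero, sub_zero] at this
  refine ⟨ψ.comp ι, v, hvne, ?_, ?_⟩
  · intro r
    have h1 := (hv' _).mp (hψ (ι r))
    rw [sub_smul, sub_eq_zero] at h1
    show φ r v = ψ (ι r) • v
    rw [← hιv, h1, algebraMap_smul]
  · intro r hr
    rw [RingHom.mem_ker] at hr
    have h1 : ι r ∈ 𝔫 := hψker _ hr
    by_contra hrI
    have h2 : ι r ∈ S := ⟨r, hrI, rfl⟩
    exact (Set.disjoint_left.mp h𝔫S) h1 h2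

end Eigen

section LyingOver

variable {R : Type*} [CommRing R]

theorem exists_maximal_over (hint : ∀ r : R, IsIntegral ℤ r)
    (χ : R →+* ℂ) (I : Ideal R) [hI : I.IsPrime] (hker : RingHom.ker χ ≤ I) :
    ∃ (χ' : R →+* integralClosure ℤ ℂ) (𝔪 : Ideal (integralClosure ℤ ℂ)),
      (∀ r, ((χ' r : integralClosure ℤ ℂ) : ℂ) = χ r) ∧ 𝔪.IsMaximal ∧ ∀ r ∈ I, χ' r ∈ 𝔪 := by
  classical
  have hmem : ∀ r : R, χ r ∈ (integralClosure ℤ ℂ).toSubring := by
    intro r
    have : IsIntegral ℤ (χ.toIntAlgHom r) := (hint r).map χ.toIntAlgHom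
    exact this
  let χ' : R →+* integralClosure ℤ ℂ := χ.codRestrict (integralClosure ℤ ℂ).toSubring hmem
  have hχ' : ∀ r, ((χ' r : integralClosure ℤ ℂ) : ℂ) = χ r := fun r => rfl
  letI : Algebra R (integralClosure ℤ ℂ) := χ'.toAlgebra
  have halg : algebraMap R (integralClosure ℤ ℂ) = χ' := rfl
  haveI : Algebra.IsIntegral R (integralClosure ℤ ℂ) := by
    refine ⟨fun x => ?_⟩
    have hx : IsIntegral ℤ x := by
      have := x.2
      exact (isIntegral_algHom_iff (integralClosure ℤ ℂ).val Subtype.val_injective).mp this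
    exact hx.tower_top
  have hcomap : Ideal.comap (algebraMap R (integralClosure ℤ ℂ)) ⊥ ≤ I := by
    intro r hr
    apply hker
    rw [Ideal.mem_comap, Ideal.mem_bot, halg] at hr
    rw [RingHom.mem_ker, ← hχ', hr]
    rfl
  obtain ⟨Q, -, hQprime, hQ⟩ := Ideal.exists_ideal_over_prime_of_isIntegral I
    (⊥ : Ideal (integralClosure ℤ ℂ)) hcomap
  obtain ⟨𝔪, h𝔪max, hQ𝔪⟩ := Ideal.exists_le_maximal Q hQprime.ne_top
  refine ⟨χ', 𝔪, hχ', h𝔪max, ?_⟩
  intro r hr
  apply hQ𝔪
  rw [← hQ] at hr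
  exact hr

end LyingOver

end Fermat.Agent.S49

end
-- ==== END Fermat.Agent.S49.Lifting
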