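-- GENERATED (merged mirror, NOTES/tools/trim/merge3_helper67.py): 9 modules of the originals, bodies verbatim.
import Mathlib
import Fermat.Agent.Zm.S44_L01_003
import Fermat.Agent.RED.H17_Red
import Fermat.Agent.Zm.S44_L01_001
import Fermat.Agent.Zm.S33_L01_004
import Fermat.Agent.Zm.S35_L20_000
import Fermat.Agent.Zm.S35_L16_000
import Fermat.Agent.Zm.S35_L08_001
import Fermat.Agent.Zm.S44_L01_004
import Fermat.Agent.Zm.S35_L15_001
import Fermat.Agent.Zm.S35_L16_001
import Fermat.Agent.Zm.S35_L12_001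
import Fermat.Agent.Zm.S35_L18_000
import Fermat.Agent.Zm.S44_L01_002
import Fermat.Agent.S05.H15_Val

-- ==== BEGIN Fermat.Agent.L.H28_FrobFin
section

/-!
# FROB-FIN (helper28): finitely many Frobenius-fixed divisor classes

`stmt_FrobFin : Fermat.Agent.S35.H89.Stmt_FrobFin` (statement of helper89): `E / k` a function
field over an algebraically closed field (`FFHyp`, Riemann's theorem `IsGenus`), `Φ` a semilinear
automorphism with `Φ a = a ^ Q` on `k` (`Q > 1`) fixing a non-constant function `x`.  Then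
`{y ∈ Pic⁰(E) | Φ y = y}` is finite.  (Input (c) of the LIFT-EIG route of
`NOTES/plan/L_S43_BADQ.md`, lead's note 00:30Z.)

Proof: `A = g · (poles of x)` is `Φ`-invariant of degree `≥ g`.  For a fixed class `[D]`,
`Φ D = D + div u`, the map `f ↦ u · Φ f` is an injective semilinear self-map of `L(D + A) ≠ 0`;
a fixed vector `f` (`H28_FixedVec`) gives `E' = D + A + div f ≥ 0`, `Φ`-invariant, of degree
`d = deg A`, `[E' - A] = [D]`.  The places in the support of `E'` are fixed by `Φ ^ N` for some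
`1 ≤ N ≤ d`; a place fixed by `Φ ^ N` is a pole of `x` or a zero of `x - a` with
`a ^ (Q ^ N) = a`: finitely many.
-/

set_option autoImplicit false
set_option linter.style.haveILetI false
set_option maxHeartbeats 1000000

noncomputable section

open AlgebraicCurve

attribute [local instance] Classical.propDecidable

namespace Fermat.Agent.L.H28

open Fermat.Agent.RED.H17 Fermat.Agent.RED

local notation "L" => riemannRochSpace

variable {k E : Type*} [Field k] [Field E] [Algebra k E]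

/-! ### Generalities -/

/-- Orders of `Φ f`. -/
theorem ord_smul_eq (Φ : SemilinearAut k E) (v : Place k E) (f : E) :
    v.ord (Φ • f) = (Φ⁻¹ • v).ord f := by
  have := SemilinearAut.ord_smul Φ (Φ⁻¹ • v) f
  rwa [smul_inv_smul] at this

theorem ord_smul_smul (Φ : SemilinearAut k E) (v : Place k E) (f : E) :
    (Φ • v).ord (Φ • f) = v.ord f :=
  SemilinearAut.ord_smul Φ v f

theorem smul_eq_zero_iff' (Φ : SemilinearAut k E) (f : E) : Φ • f = 0 ↔ f = 0 := by
  constructor
  · intro h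
    have := congrArg (fun z => Φ⁻¹ • z) h
    simpa using this
  · rintro rfl
    exact smul_zero Φ

/-- Equality of two classes. -/
theorem pic0_mk_eq_mk_iff (D₁ D₂ : Divisor.degZero (K := k) (F := E)) :
    Pic0.mk D₁ = Pic0.mk D₂ ↔
      ((D₁ : Divisor k E) - (D₂ : Divisor k E)) ∈ Divisor.principal (K := k) (F := E) := by
  unfold Pic0.mk
  rw [QuotientAddGroup.eq, AddSubgroup.mem_addSubgroupOf]
  have e : ((-D₁ + D₂ : Divisor.degZero (K := k) (F := E)) : Divisor k E) =
      -((D₁ : Divisor k E) - (D₂ : Divisor k E)) := by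
    push_cast
    abel
  rw [e, neg_mem_iff]

/-- The base automorphism of a power. -/
theorem baseAut_pow (Φ : SemilinearAut k E) (Q : ℕ)
    (hΦ : ∀ a : k, SemilinearAut.baseAut Φ a = a ^ Q) (N : ℕ) (a : k) :
    SemilinearAut.baseAut (Φ ^ N) a = a ^ (Q ^ N) := by
  induction N generalizing a with
  | zero => simp
  | succ N ih =>
    rw [pow_succ, SemilinearAut.baseAut_mul, RingAut.mul_apply, hΦ, ih, ← pow_mul, pow_succ,
      mul_comm]

theorem pow_smul_fixed (Φ : SemilinearAut k E) {x : E} (hx : Φ • x = x) (N : ℕ) :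
    (Φ ^ N) • x = x := by
  induction N with
  | zero => simp
  | succ N ih => rw [pow_succ, mul_smul, hx, ih]

/-! ### Places fixed by a power of `Φ` -/

/-- A place fixed by `Θ`, which is not a pole of the `Θ`-fixed function `x`: the value of `x`
is fixed by the base automorphism. -/
theorem value_fixed (H : FFHyp k E) (Θ : SemilinearAut k E) {x : E} (hx : Θ • x = x)
    {v : Place k E} (hv : Θ • v = v) (hreg : 0 ≤ v.ord x) :
    ∃ a : k, SemilinearAut.baseAut Θ a = a ∧ VanAt v (x - algebraMap k E a) := by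
  obtain ⟨a, ha⟩ := exists_value v (H.deg_one v) (regAt_of_ord_nonneg hreg)
  refine ⟨a, ?_, ha⟩
  have h1 : Θ • (x - algebraMap k E a) = x - algebraMap k E (SemilinearAut.baseAut Θ a) := by
    rw [smul_sub, hx, SemilinearAut.smul_algebraMap]
  have h2 : VanAt v (x - algebraMap k E (SemilinearAut.baseAut Θ a)) := by
    rw [vanAt_iff_ord] at ha ⊢
    rcases ha with h0 | hpos
    · left
      rw [← h1, h0, smul_zero]
    · right
      rw [← h1]
      have := ord_smul_smul Θ v (x - algebraMap k E a)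
      rw [hv] at this
      rw [this]
      exact hpos
  exact value_unique v h2 ha

/-- The set of places fixed by `Φ ^ N`, `N ≥ 1`, is finite. -/
theorem finite_fixed_places [IsAlgClosed k] (H : FFHyp k E) (Φ : SemilinearAut k E) (Q : ℕ)
    (hQ : 1 < Q) (hΦ : ∀ a : k, SemilinearAut.baseAut Φ a = a ^ Q) {x : E}
    (hxc : x ∉ Set.range (algebraMap k E)) (hx : Φ • x = x) (N : ℕ) (hN : 1 ≤ N) :
    {v : Place k E | (Φ ^ N) • v = v}.Finite := by
  -- the values
  set R : Set k := {a : k | a ^ (Q ^ N) = a} with hR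
  have hRfin : R.Finite := by
    have hQN : 1 < Q ^ N := Nat.one_lt_pow (by omega) hQ
    set p : Polynomial k := Polynomial.X ^ (Q ^ N) - Polynomial.X with hp
    have hp0 : p ≠ 0 := FiniteField.X_pow_card_sub_X_ne_zero k hQN
    refine (p.roots.toFinset.finite_toSet).subset ?_
    intro a ha
    rw [Finset.mem_coe, Multiset.mem_toFinset, Polynomial.mem_roots hp0, Polynomial.IsRoot.def,
      hp, Polynomial.eval_sub, Polynomial.eval_pow, Polynomial.eval_X, sub_eq_zero]
    exact ha
  have hzfin : ∀ a : k, {v : Place k E | v.ord (x - algebraMap k E a) ≠ 0}.Finite :=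
    fun a => finite_ord_ne_zero H.principal _
  have hpfin : {v : Place k E | v.ord x ≠ 0}.Finite := finite_ord_ne_zero H.principal x
  have hUfin : ({v : Place k E | v.ord x ≠ 0} ∪
      ⋃ a ∈ R, {v : Place k E | v.ord (x - algebraMap k E a) ≠ 0}).Finite :=
    hpfin.union (hRfin.biUnion fun a _ => hzfin a)
  refine hUfin.subset ?_
  intro v hv
  rw [Set.mem_ofPred_eq] at hv
  by_cases hpole : v.ord x < 0
  · left
    rw [Set.mem_ofPred_eq]
    omega
  · right
    obtain ⟨a, ha, hva⟩ := value_fixed H (Φ ^ N) (pow_smul_fixed Φ hx N) hv (not_lt.mp hpole)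
    rw [baseAut_pow Φ Q hΦ] at ha
    rw [Set.mem_iUnion₂]
    refine ⟨a, ha, ?_⟩
    rw [Set.mem_ofPred_eq]
    have hne : x - algebraMap k E a ≠ 0 := by
      intro h0
      apply hxc
      exact ⟨a, (sub_eq_zero.mp h0).symm⟩
    have := hva.ord_pos hne
    omega

/-! ### Effective invariant divisors -/

/-- The coefficients of an effective divisor are bounded by the degree, and so is the size of
the support. -/
theorem eff_bounds (hdeg : ∀ v : Place k E, v.deg = 1) (D : Divisor k E) (hD : ∀ v, 0 ≤ D v) :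
    (∀ v, D v ≤ Divisor.degree D) ∧ (D.support.card : ℤ) ≤ Divisor.degree D := by
  have hs : Divisor.degree D = ∑ w ∈ D.support, D w := by
    rw [degree_eq_sum hdeg D]
    rfl
  rw [hs]
  constructor
  · intro v
    by_cases hv : v ∈ D.support
    · exact Finset.single_le_sum (f := fun w => D w) (fun w _ => hD w) hv
    · rw [Finsupp.notMem_support_iff.mp hv]
      exact Finset.sum_nonneg fun w _ => hD w
  · have h1 : (D.support.card : ℤ) = ∑ _w ∈ D.support, (1 : ℤ) := by
      rw [Finset.sum_const, nsmul_eq_mul, mul_one]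
    rw [h1]
    refine Finset.sum_le_sum fun w hw => ?_
    have h2 := hD w
    have h3 := Finsupp.mem_support_iff.mp hw
    omega

/-- A place in the support of an effective `Φ`-invariant divisor of degree `d` is fixed by
`Φ ^ N` for some `1 ≤ N ≤ d`. -/
theorem fixed_of_mem_support (hdeg : ∀ v : Place k E, v.deg = 1) (Φ : SemilinearAut k E)
    (D : Divisor k E) (hD : ∀ v, 0 ≤ D v) (hinv : ∀ v, D (Φ • v) = D v) (d : ℕ)
    (hd : Divisor.degree D = d) {v : Place k E} (hv : v ∈ D.support) :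
    ∃ N : ℕ, 1 ≤ N ∧ N ≤ d ∧ (Φ ^ N) • v = v := by
  have hcard : D.support.card ≤ d := by
    have := (eff_bounds hdeg D hD).2
    rw [hd] at this
    exact_mod_cast this
  have hmem : ∀ i : ℕ, (Φ ^ i) • v ∈ D.support := by
    intro i
    induction i with
    | zero => simpa using hv
    | succ i ih =>
      rw [pow_succ', mul_smul, Finsupp.mem_support_iff, hinv]
      exact Finsupp.mem_support_iff.mp ih
  let f : Fin (d + 1) → D.support := fun i => ⟨(Φ ^ (i : ℕ)) • v, hmem i⟩
  have hlt : Fintype.card D.support < Fintype.card (Fin (d + 1)) := by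
    rw [Fintype.card_coe, Fintype.card_fin]
    omega
  obtain ⟨i, j, hij, hfij⟩ := Fintype.exists_ne_map_eq_of_card_lt f hlt
  have hfij' : (Φ ^ (i : ℕ)) • v = (Φ ^ (j : ℕ)) • v := congrArg Subtype.val hfij
  have key : ∀ a b : ℕ, a < b → b ≤ d → (Φ ^ a) • v = (Φ ^ b) • v →
      ∃ N : ℕ, 1 ≤ N ∧ N ≤ d ∧ (Φ ^ N) • v = v := by
    intro a b hab hb h
    refine ⟨b - a, by omega, by omega, ?_⟩
    have h1 : Φ ^ b = Φ ^ a * Φ ^ (b - a) := by
      rw [← pow_add]
      congr 1
      omega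
    rw [h1, mul_smul] at h
    exact (MulAction.injective (Φ ^ a) h).symm
  have hi := i.2
  have hj := j.2
  rcases Nat.lt_or_gt_of_ne (fun h => hij (Fin.ext h)) with h | h
  · exact key i j h (by omega) hfij'
  · exact key j i h (by omega) hfij'.symm

/-! ### The main theorem -/

/-- **FROB-FIN.** -/
theorem stmt_FrobFin : Fermat.Agent.S35.H89.Stmt_FrobFin := by
  intro k E _ _ _ _ H g c hg Φ Q hQ hΦ hx
  obtain ⟨x, hxc, hx⟩ := hx
  have hP := H.principal
  -- the poles of `x`
  have hxinv : x⁻¹ ∉ Set.range (algebraMap k E) := by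
    rintro ⟨a, ha⟩
    apply hxc
    refine ⟨a⁻¹, ?_⟩
    rw [map_inv₀, ha, inv_inv]
  obtain ⟨v₀, hv₀⟩ := H.exists_zero hxinv
  rw [Place.ord_inv] at hv₀
  set P : Finset (Place k E) := (finite_ord_ne_zero hP x).toFinset.filter (fun v => v.ord x < 0)
    with hPdef
  have hmemP : ∀ v, v ∈ P ↔ v.ord x < 0 := by
    intro v
    rw [hPdef, Finset.mem_filter, Set.Finite.mem_toFinset, Set.mem_ofPred_eq]
    constructor
    · exact fun h => h.2
    · exact fun h => ⟨by omega, h⟩
  have hPcard : 1 ≤ P.card := Finset.card_pos.mpr ⟨v₀, (hmemP v₀).mpr (by omega)⟩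
  have hPinv : ∀ v, Φ • v ∈ P ↔ v ∈ P := by
    intro v
    rw [hmemP, hmemP]
    have := ord_smul_smul Φ v x
    rw [hx] at this
    rw [this]
  -- the divisor `A`
  set A : Divisor k E := (g : ℤ) • ptsDiv P with hA
  have hAapp : ∀ v, A v = (g : ℤ) * (if v ∈ P then 1 else 0) := by
    intro v
    rw [hA, Finsupp.smul_apply, ptsDiv_apply, smul_eq_mul]
  have hAinv : ∀ v, A (Φ • v) = A v := by
    intro v
    rw [hAapp, hAapp]
    simp only [hPinv]
  have hAnn : ∀ v, 0 ≤ A v := by
    intro v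
    rw [hAapp]
    split_ifs <;> simp
  set d : ℕ := g * P.card with hd
  have hAdeg : Divisor.degree A = d := by
    rw [hA, map_zsmul, degree_ptsDiv H.deg_one, hd, smul_eq_mul]
    push_cast
    ring
  have hgd : g ≤ d := by
    rw [hd]
    exact Nat.le_mul_of_pos_right g hPcard
  -- the finite set of places
  have hfix : ∀ N : ℕ, 1 ≤ N → {v : Place k E | (Φ ^ N) • v = v}.Finite :=
    fun N hN => finite_fixed_places H Φ Q hQ hΦ hxc hx N hN
  have hTfin : (⋃ N ∈ Finset.Icc 1 d, {v : Place k E | (Φ ^ N) • v = v}).Finite :=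
    Set.Finite.biUnion (Finset.finite_toSet _) fun N hN =>
      hfix N (Finset.mem_Icc.mp (Finset.mem_coe.mp hN)).1
  set T : Finset (Place k E) := hTfin.toFinset with hT
  -- the finite set of divisors
  set 𝒟 : Finset (Divisor k E) := T.finsupp (fun _ => Finset.Icc (0 : ℤ) d) with h𝒟
  let cls : Divisor k E → Pic0 k E := fun D' =>
    if h : D' - A ∈ Divisor.degZero (K := k) (F := E) then Pic0.mk ⟨D' - A, h⟩ else 0
  refine ((𝒟.image cls).finite_toSet).subset ?_
  intro y hy
  rw [Set.mem_ofPred_eq] at hy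
  obtain ⟨D, rfl⟩ := Pic0.mk_surjective y
  rw [SemilinearAut.pic0_smul_mk, pic0_mk_eq_mk_iff, SemilinearAut.coe_degZeroSMulHom] at hy
  obtain ⟨u, hu0, hu⟩ := hy
  have hDdeg : Divisor.degree (D : Divisor k E) = 0 := Divisor.mem_degZero.mp D.2
  -- `D (Φ⁻¹ v) = D v + ord_v u`
  have hDu : ∀ v, (D : Divisor k E) (Φ⁻¹ • v) = (D : Divisor k E) v + v.ord u := by
    intro v
    have := hu v
    rw [Finsupp.sub_apply, SemilinearAut.divisor_smul_apply] at this
    omega
  have hAinv' : ∀ v, A (Φ⁻¹ • v) = A v := by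
    intro v
    have := hAinv (Φ⁻¹ • v)
    rw [smul_inv_smul] at this
    exact this.symm
  -- the space `L(D + A)`
  set B : Divisor k E := (D : Divisor k E) + A with hB
  have hBdeg : Divisor.degree B = d := by
    rw [hB, map_add, hDdeg, hAdeg, zero_add]
  have hBapp : ∀ v, B v = (D : Divisor k E) v + A v := by
    intro v
    rw [hB, Finsupp.add_apply]
  haveI hfinB : Module.Finite k (L B) := H.finite B
  have hrk : 1 ≤ Module.finrank k (L B) := by
    have := (hg B).1
    rw [hBdeg] at this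
    have h2 : (g : ℤ) ≤ d := by exact_mod_cast hgd
    have h3 : (1 : ℤ) ≤ (Module.finrank k (L B) : ℤ) := by omega
    exact_mod_cast h3
  haveI : Nontrivial (L B) := Module.nontrivial_of_finrank_pos (R := k) (by omega)
  -- the semilinear map
  have hmem : ∀ f : E, f ∈ L B → u * Φ • f ∈ L B := by
    intro f hf
    rw [mem_L_iff_ord] at hf ⊢
    intro v
    by_cases hf0 : f = 0
    · left
      rw [hf0, smul_zero, mul_zero]
    · right
      have hΦf0 : Φ • f ≠ 0 := fun h => hf0 ((smul_eq_zero_iff' Φ f).mp h)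
      rw [v.ord_mul hu0 hΦf0, ord_smul_eq]
      have h1 := (hf (Φ⁻¹ • v)).resolve_left hf0
      rw [hBapp, hDu, hAinv'] at h1
      rw [hBapp]
      omega
  let Ψ : L B →+ L B :=
    { toFun := fun f => ⟨u * Φ • (f : E), hmem f f.2⟩
      map_zero' := by
        apply Subtype.ext
        simp
      map_add' := fun f₁ f₂ => by
        apply Subtype.ext
        simp only [Submodule.coe_add, smul_add, mul_add] }
  have hΨapp : ∀ f : L B, ((Ψ f : L B) : E) = u * Φ • (f : E) := fun _ => rfl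
  set σ : k →+* k := (SemilinearAut.baseAut Φ : k ≃+* k).toRingHom with hσ
  have hσapp : ∀ a, σ a = a ^ Q := fun a => hΦ a
  have hΨsl : ∀ (a : k) (f : L B), Ψ (a • f) = σ a • Ψ f := by
    intro a f
    apply Subtype.ext
    rw [hΨapp, Submodule.coe_smul, Submodule.coe_smul, hΨapp, Algebra.smul_def, Algebra.smul_def,
      smul_mul', SemilinearAut.smul_algebraMap]
    show u * (algebraMap k E (SemilinearAut.baseAut Φ a) * Φ • (f : E)) =
      algebraMap k E (SemilinearAut.baseAut Φ a) * (u * Φ • (f : E))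
    ring
  have hΨinj : Function.Injective Ψ := by
    intro f₁ f₂ h
    have h1 := congrArg Subtype.val h
    rw [hΨapp, hΨapp] at h1
    have h2 := mul_left_cancel₀ hu0 h1
    apply Subtype.ext
    exact MulAction.injective Φ h2
  obtain ⟨f, hf0, hfix'⟩ := exists_fixed_of_semilinear σ Q hQ hσapp Ψ hΨsl hΨinj
  have hfE0 : (f : E) ≠ 0 := fun h => hf0 (Subtype.ext h)
  have hfE : u * Φ • (f : E) = (f : E) := by
    have := congrArg Subtype.val hfix'
    rwa [hΨapp] at this
  -- the invariant effective divisor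
  set E' : Divisor k E := B + dv hP (f : E) with hE'
  have hE'app : ∀ v, E' v = (D : Divisor k E) v + A v + v.ord (f : E) := by
    intro v
    rw [hE', Finsupp.add_apply, hBapp, dv_apply]
  have hE'nn : ∀ v, 0 ≤ E' v := by
    intro v
    have := ord_ge_of_mem_L f.2 hfE0 v
    rw [hBapp] at this
    rw [hE'app]
    omega
  have hE'inv' : ∀ v, E' (Φ⁻¹ • v) = E' v := by
    intro v
    rw [hE'app, hE'app, hDu, hAinv']
    have h1 : v.ord (f : E) = v.ord u + (Φ⁻¹ • v).ord (f : E) := by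
      conv_lhs => rw [← hfE]
      rw [v.ord_mul hu0 (fun h => hfE0 ((smul_eq_zero_iff' Φ _).mp h)), ord_smul_eq]
    omega
  have hE'inv : ∀ v, E' (Φ • v) = E' v := by
    intro v
    have := hE'inv' (Φ • v)
    rw [inv_smul_smul] at this
    exact this.symm
  have hE'deg : Divisor.degree E' = d := by
    rw [hE', map_add, hBdeg, degree_dv, add_zero]
  -- `E' ∈ 𝒟`
  have hE'mem : E' ∈ 𝒟 := by
    rw [h𝒟, Finset.mem_finsupp_iff]
    constructor
    · intro v hv
      obtain ⟨N, hN1, hNd, hNv⟩ := fixed_of_mem_support H.deg_one Φ E' hE'nn hE'inv d hE'deg hv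
      rw [hT, Set.Finite.mem_toFinset, Set.mem_iUnion₂]
      exact ⟨N, Finset.mem_Icc.mpr ⟨hN1, hNd⟩, hNv⟩
    · intro v _
      rw [Finset.mem_Icc]
      refine ⟨hE'nn v, ?_⟩
      have := (eff_bounds H.deg_one E' hE'nn).1 v
      rwa [hE'deg] at this
  -- the class
  rw [Finset.mem_coe, Finset.mem_image]
  refine ⟨E', hE'mem, ?_⟩
  have hdz : E' - A ∈ Divisor.degZero (K := k) (F := E) := by
    rw [Divisor.mem_degZero, map_sub, hE'deg, hAdeg, sub_self]
  show (if h : E' - A ∈ Divisor.degZero (K := k) (F := E) then Pic0.mk ⟨E' - A, h⟩ else 0) =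
    Pic0.mk D
  rw [dif_pos hdz, pic0_mk_eq_mk_iff]
  have e : (E' - A) - (D : Divisor k E) = dv hP (f : E) := by
    ext v
    rw [Finsupp.sub_apply, Finsupp.sub_apply, hE'app, dv_apply]
    ring
  show (E' - A) - (D : Divisor k E) ∈ Divisor.principal (K := k) (F := E)
  rw [e]
  exact dv_mem_principal hP hfE0

/-- The exponent form. -/
theorem stmt_FrobFinExp : Fermat.Agent.S35.H89.Stmt_FrobFinExp :=
  Fermat.Agent.S35.H89.frobFinExp_of stmt_FrobFin

end Fermat.Agent.L.H28

end
end
-- ==== END Fermat.Agent.L.H28_FrobFin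

-- ==== BEGIN Fermat.Agent.L.H52_Recovery
section

set_option autoImplicit false

open WeierstrassCurve WeierstrassCurve.Affine WeierstrassCurve.Affine.Point
open scoped WeierstrassCurve.Affine

namespace Fermat.Agent.L.H52

/-- **Transport along a change of variables**: `E[p]` and the `p`-torsion of an integral model
are isomorphic Galois modules. -/
def Stmt_Transport : Prop :=
  ∀ (E : WeierstrassCurve ℚ) (W : WeierstrassCurve ℤ) (p : ℕ), W.IsIntegralModelOf E →
    ∃ e : TorsQ E p ≃ₗ[ZMod p] TorsQ (WQ W) p,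
      ∀ (σ : GQ) (v : TorsQ E p), e (σ • v) = σ • e v

/-- Irreducibility is transported. -/
theorem irreducible_of_transport {E : WeierstrassCurve ℚ} {W : WeierstrassCurve ℤ} {p : ℕ}
    (e : TorsQ E p ≃ₗ[ZMod p] TorsQ (WQ W) p)
    (he : ∀ (σ : GQ) (v : TorsQ E p), e (σ • v) = σ • e v)
    (hirr : GaloisRepIsIrreducible (K := AlgebraicClosure ℚ) ℚ E.toAffine p) :
    GaloisRepIsIrreducible (K := AlgebraicClosure ℚ) ℚ (WQ W).toAffine p := by
  obtain ⟨hnt, hsub⟩ := hirr
  refine ⟨?_, fun N hN => ?_⟩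
  · haveI := hnt
    exact e.toEquiv.symm.nontrivial
  · have hstab : IsGaloisStable ℚ (N.comap e.toLinearMap) := by
      intro σ x hx
      rw [Submodule.mem_comap] at hx ⊢
      change e (σ • x) ∈ N
      rw [he]
      exact hN σ _ hx
    rcases hsub _ hstab with h | h
    · left
      rw [eq_bot_iff]
      intro y hy
      have : e.symm y ∈ N.comap e.toLinearMap := by
        rw [Submodule.mem_comap]
        change e (e.symm y) ∈ N
        rw [e.apply_symm_apply]
        exact hy
      rw [h, Submodule.mem_bot] at this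
      rw [Submodule.mem_bot, ← e.apply_symm_apply y, this, _root_.map_zero]
    · right
      rw [eq_top_iff]
      intro y _
      have : e.symm y ∈ N.comap e.toLinearMap := by rw [h]; exact Submodule.mem_top
      rw [Submodule.mem_comap] at this
      change e (e.symm y) ∈ N at this
      rwa [e.apply_symm_apply] at this

section Eigen

variable {p : ℕ} (H : Fermat.Agent.S44.HeckeGaloisModule p) (N : ℕ) (S : Finset ℕ) (t : ℕ → ZMod p)

/-- The common eigenspace of the operators `T ℓ` (`ℓ ∉ S`, `ℓ ∤ N`, `ℓ ≠ p`) with eigenvalues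
`t ℓ`. -/
def eigSub : Submodule (ZMod p) H.J where
  carrier := {y | ∀ ℓ : ℕ, ℓ.Prime → ℓ ∉ S → ¬ ℓ ∣ N → ℓ ≠ p → H.T ℓ y = t ℓ • y}
  add_mem' := fun {a b} ha hb ℓ h1 h2 h3 h4 => by
    rw [map_add, ha ℓ h1 h2 h3 h4, hb ℓ h1 h2 h3 h4, smul_add]
  zero_mem' := fun ℓ _ _ _ _ => by rw [_root_.map_zero, smul_zero]
  smul_mem' := fun c a ha ℓ h1 h2 h3 h4 => by
    rw [map_smul, ha ℓ h1 h2 h3 h4, smul_comm]

theorem mem_eigSub {y : H.J} :
    y ∈ eigSub H N S t ↔
      ∀ ℓ : ℕ, ℓ.Prime → ℓ ∉ S → ¬ ℓ ∣ N → ℓ ≠ p → H.T ℓ y = t ℓ • y := Iff.rfl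

variable {H N S t}

theorem gal_mem_eigSub (hcomm : ∀ (σ : Fermat.Agent.S44.GQ) (ℓ : ℕ), H.gal σ * H.T ℓ = H.T ℓ * H.gal σ)
    (σ : GQ) {y : H.J} (hy : y ∈ eigSub H N S t) : H.gal σ y ∈ eigSub H N S t := by
  intro ℓ h1 h2 h3 h4
  have h := congrArg (fun f : Module.End (ZMod p) H.J => f y) (hcomm σ ℓ)
  simp only [Module.End.mul_apply] at h
  rw [← h, hy ℓ h1 h2 h3 h4, map_smul]

/-- The Galois action on the eigenspace. -/
noncomputable def eigGal (hcomm : ∀ (σ : Fermat.Agent.S44.GQ) (ℓ : ℕ), H.gal σ * H.T ℓ = H.T ℓ * H.gal σ) :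
    GQ →* Module.End (ZMod p) (eigSub H N S t) where
  toFun σ := (H.gal σ).restrict (fun _ hy => gal_mem_eigSub hcomm σ hy)
  map_one' := by
    ext y
    simp
  map_mul' σ τ := by
    ext y
    simp

@[simp] theorem eigGal_apply_coe
    (hcomm : ∀ (σ : Fermat.Agent.S44.GQ) (ℓ : ℕ), H.gal σ * H.T ℓ = H.T ℓ * H.gal σ) (σ : GQ)
    (y : eigSub H N S t) : ((eigGal hcomm σ y : eigSub H N S t) : H.J) = H.gal σ y := rfl

end Eigen

/-- A model all of whose primes outside a finite set are good has non-zero discriminant. -/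
theorem Δ_ne_zero_of_good {W : WeierstrassCurve ℤ} {S : Finset ℕ}
    (h : ∀ ℓ : ℕ, ℓ.Prime → ℓ ∉ S → W.IsGoodPrimeFor ℓ) : W.Δ ≠ 0 := by
  intro h0
  obtain ⟨ℓ, hℓ1, hℓ2⟩ := Nat.exists_infinite_primes (S.sup id + 1)
  have hℓS : ℓ ∉ S := fun hmem => by
    have : ℓ ≤ S.sup id := Finset.le_sup (f := id) hmem
    omega
  exact h ℓ hℓ2 hℓS (by rw [h0]; exact dvd_zero _)

/-- **Congruence recovery in the shape of the S44 wiring.** -/
theorem stmt_Recovery_of (hRec : Stmt_Rec) (hTr : Stmt_Transport) :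
    Fermat.Agent.S44.Stmt_Recovery := by
  intro p hp hp2 N hN H hcont hES E W hW hirr S hgood x hx0 hx
  haveI : Fact p.Prime := ⟨hp⟩
  obtain ⟨hfin, ⟨F, hF, hFgal⟩, -, hcomm⟩ := hcont
  obtain ⟨e, he⟩ := hTr E W p hW
  have hirrW := irreducible_of_transport e he hirr
  have hΔ : W.Δ ≠ 0 := Δ_ne_zero_of_good hgood
  set t : ℕ → ZMod p := fun ℓ => ((W.apOfModel ℓ : ℤ) : ZMod p) with ht
  set X : Submodule (ZMod p) H.J := eigSub H N S t with hX
  have hxX : x ∈ X := fun ℓ h1 h2 h3 h4 => hx ℓ h1 h2 h3 h4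
  haveI : Nontrivial X := ⟨⟨⟨x, hxX⟩, 0, fun h => hx0 (congrArg Subtype.val h)⟩⟩
  have hπ : ∀ σ : GQ, (∀ z ∈ F, σ z = z) → eigGal (N := N) (S := S) (t := t) hcomm σ = 1 := by
    intro σ hσ
    ext y
    rw [eigGal_apply_coe, hFgal σ hσ]
    rfl
  obtain ⟨f, hf, hfeq⟩ := hRec W p hp2 hΔ hirrW X (eigGal hcomm) F hF hπ (S ∪ N.primeFactors) (by
    intro ℓ hℓ hℓS hℓp _ A hA σ hσ
    rw [Finset.mem_union, not_or] at hℓS
    have hℓN : ¬ ℓ ∣ N := fun hdvd => hℓS.2 (Nat.mem_primeFactors.2 ⟨hℓ, hdvd, hN.ne'⟩)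
    have hℓNp : ¬ ℓ ∣ N * p := fun hdvd => by
      rcases (Nat.Prime.dvd_mul hℓ).1 hdvd with h | h
      · exact hℓN h
      · exact hℓp ((Nat.prime_dvd_prime_iff_eq hℓ hp).1 h)
    have h := (hES ℓ hℓ hℓNp A hA).2 σ hσ
    ext y
    have hy := congrArg (fun g : Module.End (ZMod p) H.J => g (y : H.J)) h
    simp only [LinearMap.add_apply, LinearMap.sub_apply, Module.End.mul_apply,
      LinearMap.smul_apply, Module.End.one_apply, LinearMap.zero_apply] at hy
    have hT : H.T ℓ (H.gal σ (y : H.J)) = t ℓ • H.gal σ (y : H.J) :=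
      gal_mem_eigSub hcomm σ y.2 ℓ hℓ hℓS.1 hℓN hℓp
    rw [hT] at hy
    simp only [LinearMap.add_apply, LinearMap.sub_apply, Module.End.mul_apply,
      LinearMap.smul_apply, Module.End.one_apply, LinearMap.zero_apply, Submodule.coe_add,
      Submodule.coe_sub, Submodule.coe_smul, Submodule.coe_zero]
    exact hy)
  refine ⟨X.subtype ∘ₗ f ∘ₗ e.toLinearMap, ?_, ?_, ?_⟩
  · exact X.injective_subtype.comp (hf.comp e.injective)
  · intro σ v
    simp only [LinearMap.coe_comp, Function.comp_apply, LinearEquiv.coe_coe, Submodule.subtype_apply]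
    rw [he, hfeq, eigGal_apply_coe]
  · intro ℓ h1 h2 h3 h4 v
    exact (f (e v)).2 ℓ h1 h2 h3 h4

end Fermat.Agent.L.H52

end
-- ==== END Fermat.Agent.L.H52_Recovery

-- ==== BEGIN Fermat.Agent.L.LiftEig.H37_TorsRel
section

set_option autoImplicit false

noncomputable section

namespace Fermat.Agent.L.LiftEig.H37

open AlgebraicCurve ModularCurve CongruenceSubgroup Fermat.Agent.Betti Fermat.Agent.GTor
  Fermat.Agent.GTor.H81 Fermat.Agent.L.LiftEig
open scoped MatrixGroups

/-! ## Naturality of the Betti operators in the coefficient group -/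

section Naturality

variable {M : ℕ} {S : Set ℕ} {A B : Type*} [AddCommGroup A] [AddCommGroup B]

theorem TB_comp (f : A →+ B) {p : ℕ} (hp : p.Prime) (hpN : ¬ p ∣ M)
    (φ : Additive (Gamma0 M) →+ A) :
    TB M B hp hpN (f.comp φ) = f.comp (TB M A hp hpN φ) := by
  refine AddMonoidHom.ext fun γ => ?_
  obtain ⟨γ, rfl⟩ := Additive.ofMul.surjective γ
  rw [TB_apply_apply, AddMonoidHom.comp_apply, TB_apply_apply, map_sum]
  rfl

theorem evalB_add_apply (a b : HPoly M S) (φ : Additive (Gamma0 M) →+ A) :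
    evalB M S A (a + b) φ = evalB M S A a φ + evalB M S A b φ := by
  rw [map_add, LinearMap.add_apply]

theorem evalB_mul_apply (a b : HPoly M S) (φ : Additive (Gamma0 M) →+ A) :
    evalB M S A (a * b) φ = evalB M S A a (evalB M S A b φ) := by
  rw [map_mul, Module.End.mul_apply]

theorem evalB_algebraMap_apply (r : ℤ) (φ : Additive (Gamma0 M) →+ A) :
    evalB M S A (algebraMap ℤ (HPoly M S) r) φ = r • φ := by
  rw [AlgHom.commutes, Module.algebraMap_end_apply]

theorem evalB_ι_apply (ℓ : GoodPrime M S) (φ : Additive (Gamma0 M) →+ A) :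
    evalB M S A (FreeAlgebra.ι ℤ ℓ) φ = TB M A ℓ.2.1 ℓ.2.2.1 φ :=
  evalB_X M S A ℓ φ

theorem evalB_comp (f : A →+ B) (P : HPoly M S) (φ : Additive (Gamma0 M) →+ A) :
    evalB M S B P (f.comp φ) = f.comp (evalB M S A P φ) := by
  induction P using FreeAlgebra.induction generalizing φ with
  | grade0 r =>
    rw [AlgHom.commutes, AlgHom.commutes, Module.algebraMap_end_apply,
      Module.algebraMap_end_apply]
    refine AddMonoidHom.ext fun γ => ?_
    simp
  | grade1 ℓ =>
    have h1 := evalB_X M S B ℓ (f.comp φ)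
    have h2 := evalB_X M S A ℓ φ
    rw [HPoly.X] at h1 h2
    rw [h1, h2, TB_comp]
  | mul a b ha hb =>
    rw [map_mul, map_mul, Module.End.mul_apply, Module.End.mul_apply, hb, ha]
  | add a b ha hb =>
    rw [map_add, map_add, LinearMap.add_apply, LinearMap.add_apply, ha, hb]
    refine AddMonoidHom.ext fun γ => ?_
    simp

end Naturality

/-! ## The torsion dictionary intertwines `P(T)` and `P(T^B)` -/

section Dictionary

variable {M : ℕ} [NeZero M] {S : Set ℕ} {h : ℕ} {ι : AlgebraicClosure ℚ →+* ℂ}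

/-- The restriction of an endomorphism of `J₀(M)` to the `h`-torsion. -/
def restrictTor (T : Module.End ℤ (JZero M)) (x : Jtor M h) : Jtor M h :=
  ⟨T (x : JZero M), by
    rw [Pic0.mem_torsion, ← map_zsmul, Pic0.mem_torsion.1 x.2, map_zero]⟩

@[simp]
theorem coe_restrictTor (T : Module.End ℤ (JZero M)) (x : Jtor M h) :
    ((restrictTor T x : Jtor M h) : JZero M) = T (x : JZero M) := rfl

theorem restrictTor_add (T₁ T₂ : Module.End ℤ (JZero M)) (x : Jtor M h) :
    restrictTor (T₁ + T₂) x = restrictTor T₁ x + restrictTor T₂ x :=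
  Subtype.ext rfl

theorem restrictTor_mul (T₁ T₂ : Module.End ℤ (JZero M)) (x : Jtor M h) :
    restrictTor (T₁ * T₂) x = restrictTor T₁ (restrictTor T₂ x) :=
  Subtype.ext rfl

theorem restrictTor_algebraMap (r : ℤ) (x : Jtor M h) :
    restrictTor (algebraMap ℤ (Module.End ℤ (JZero M)) r) x = r • x :=
  Subtype.ext (by rw [coe_restrictTor, Module.algebraMap_end_apply]; rfl)

/-- The torsion dictionary, with values in all homomorphisms `Γ₀(M) → ℤ/h`. -/
def dict (E : TorIso M h ι) : Jtor M h →+ (Additive (Gamma0 M) →+ ZMod h) :=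
  (homPE (Gamma0 M) (ZMod h)).subtype.comp E.e.toAddMonoidHom

theorem dict_apply (E : TorIso M h ι) (x : Jtor M h) :
    dict E x = ((E.e x : homPE (Gamma0 M) (ZMod h)) : Additive (Gamma0 M) →+ ZMod h) := rfl

theorem dict_eq_zero (E : TorIso M h ι) (x : Jtor M h) (hx : dict E x = 0) : x = 0 := by
  have h1 : E.e x = 0 := Subtype.ext hx
  exact (AddEquiv.map_eq_zero_iff E.e).1 h1

theorem dict_hecke (hHK : Stmt_HK M h) (E : TorIso M h ι) (ℓ : GoodPrime M S) (x : Jtor M h) :
    dict E (restrictTor (heckeOperatorBar M ⟨ℓ.1, ℓ.2.1⟩) x) =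
      TB M (ZMod h) ℓ.2.1 ℓ.2.2.1 (dict E x) :=
  (E.uniq (restrictTor (heckeOperatorBar M ⟨ℓ.1, ℓ.2.1⟩) x) _
    (hHK ι ℓ.1 ℓ.2.1 ℓ.2.2.1 (x : JZero M) _ (E.spec x))).symm

theorem dict_eval (hHK : Stmt_HK M h) (E : TorIso M h ι) (P : HPoly M S) (x : Jtor M h) :
    dict E (restrictTor (evalJ M S P) x) = evalB M S (ZMod h) P (dict E x) := by
  induction P using FreeAlgebra.induction generalizing x with
  | grade0 r =>
    have e1 : evalJ M S (algebraMap ℤ (HPoly M S) r) =
        algebraMap ℤ (Module.End ℤ (JZero M)) r := AlgHom.commutes _ r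
    have e2 : evalB M S (ZMod h) (algebraMap ℤ (HPoly M S) r) (dict E x) = r • dict E x :=
      evalB_algebraMap_apply r (dict E x)
    calc dict E (restrictTor (evalJ M S (algebraMap ℤ (HPoly M S) r)) x)
        = dict E (r • x) :=
          congrArg (dict E)
            ((congrArg (fun T => restrictTor T x) e1).trans (restrictTor_algebraMap r x))
      _ = r • dict E x := AddMonoidHom.map_zsmul (dict E) r x
      _ = evalB M S (ZMod h) (algebraMap ℤ (HPoly M S) r) (dict E x) := e2.symm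
  | grade1 ℓ =>
    have e1 : evalJ M S (FreeAlgebra.ι ℤ ℓ) = heckeOperatorBar M ⟨ℓ.1, ℓ.2.1⟩ :=
      FreeAlgebra.lift_ι_apply _ _
    have e2 : evalB M S (ZMod h) (FreeAlgebra.ι ℤ ℓ) (dict E x) =
        TB M (ZMod h) ℓ.2.1 ℓ.2.2.1 (dict E x) := evalB_ι_apply ℓ (dict E x)
    calc dict E (restrictTor (evalJ M S (FreeAlgebra.ι ℤ ℓ)) x)
        = dict E (restrictTor (heckeOperatorBar M ⟨ℓ.1, ℓ.2.1⟩) x) :=
          congrArg (dict E) (congrArg (fun T => restrictTor T x) e1)
      _ = TB M (ZMod h) ℓ.2.1 ℓ.2.2.1 (dict E x) := dict_hecke hHK E ℓ x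
      _ = evalB M S (ZMod h) (FreeAlgebra.ι ℤ ℓ) (dict E x) := e2.symm
  | mul a b ha hb =>
    have e1 : evalJ M S (a * b) = evalJ M S a * evalJ M S b := map_mul _ a b
    have e2 : evalB M S (ZMod h) (a * b) (dict E x) =
        evalB M S (ZMod h) a (evalB M S (ZMod h) b (dict E x)) :=
      evalB_mul_apply a b (dict E x)
    calc dict E (restrictTor (evalJ M S (a * b)) x)
        = dict E (restrictTor (evalJ M S a) (restrictTor (evalJ M S b) x)) :=
          congrArg (dict E)
            ((congrArg (fun T => restrictTor T x) e1).trans (restrictTor_mul _ _ x))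
      _ = evalB M S (ZMod h) a (dict E (restrictTor (evalJ M S b) x)) := ha _
      _ = evalB M S (ZMod h) a (evalB M S (ZMod h) b (dict E x)) :=
          congrArg (evalB M S (ZMod h) a) (hb x)
      _ = evalB M S (ZMod h) (a * b) (dict E x) := e2.symm
  | add a b ha hb =>
    have e1 : evalJ M S (a + b) = evalJ M S a + evalJ M S b := map_add _ a b
    have e2 : evalB M S (ZMod h) (a + b) (dict E x) =
        evalB M S (ZMod h) a (dict E x) + evalB M S (ZMod h) b (dict E x) :=
      evalB_add_apply a b (dict E x)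
    calc dict E (restrictTor (evalJ M S (a + b)) x)
        = dict E (restrictTor (evalJ M S a) x + restrictTor (evalJ M S b) x) :=
          congrArg (dict E)
            ((congrArg (fun T => restrictTor T x) e1).trans (restrictTor_add _ _ x))
      _ = dict E (restrictTor (evalJ M S a) x) + dict E (restrictTor (evalJ M S b) x) :=
          AddMonoidHom.map_add (dict E) _ _
      _ = evalB M S (ZMod h) a (dict E x) + evalB M S (ZMod h) b (dict E x) :=
          congrArg₂ (· + ·) (ha x) (hb x)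
      _ = evalB M S (ZMod h) (a + b) (dict E x) := e2.symm

end Dictionary

/-! ## TORS-REL -/

/-- **TORS-REL**, from the torsion dictionary. -/
theorem torsRel_of (M : ℕ) [NeZero M] (S : Set ℕ) (h : ℕ) (hh : h ≠ 0)
    (hTOR : Stmt_TORc M h) (hHK : Stmt_HK M h) (hL : Stmt_torsLift M)
    (P : HPoly M S) (hP : IsBettiRel M S P) (x : JZero M) (hx : h • x = 0) :
    evalJ M S P x = 0 := by
  have halg : Algebra.IsAlgebraic ℚ (AlgebraicClosure ℚ) := AlgebraicClosure.isAlgebraic ℚ
  obtain ⟨E⟩ := nonempty_torIso hTOR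
    ((IsAlgClosed.lift : AlgebraicClosure ℚ →ₐ[ℚ] ℂ) : AlgebraicClosure ℚ →+* ℂ)
  have hx' : x ∈ Jtor M h := by
    rw [Pic0.mem_torsion, natCast_zsmul]
    exact hx
  set x' : Jtor M h := ⟨x, hx'⟩ with hx'def
  obtain ⟨ψ, hψ, hψφ⟩ := hL h hh _ (E.e x').2
  have hφ : dict E x' = (Int.castAddHom (ZMod h)).comp ψ := by
    refine AddMonoidHom.ext fun γ => ?_
    rw [dict_apply, hψφ γ]
    rfl
  have h1 : dict E (restrictTor (evalJ M S P) x') = 0 := by
    rw [dict_eval (S := S) hHK E P x', hφ, evalB_comp, hP ψ hψ]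
    exact AddMonoidHom.comp_zero _
  have h3 : restrictTor (evalJ M S P) x' = 0 := dict_eq_zero E _ h1
  exact congrArg (fun y : Jtor M h => (y : JZero M)) h3

/-- **TORS-REL**, unconditionally. -/
theorem stmt_TorsRel : Stmt_TorsRel := fun M _ S P hP h hh x hx =>
  torsRel_of M S h hh (stmt_TORc_uncond M h hh) (Fermat.Agent.GTor.H44.stmt_HK M h)
    (Fermat.Agent.GTor.H77.stmt_torsLift M) P hP x hx

end Fermat.Agent.L.LiftEig.H37

end
end
-- ==== END Fermat.Agent.L.LiftEig.H37_TorsRel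

-- ==== BEGIN Fermat.Agent.L.LiftEig.H46_CharAbs
section

/-!
# S43 OLD, leaf CHAR-M (helper46), abstract part

Pure commutative algebra.  `R` a commutative ring, integral over `ℤ`, acting faithfully on a
finite dimensional complex vector space `V`; `T i ∈ R` a family and `t i ∈ ℤ`.  If every integral
polynomial relation `P(T) = 0` gives `p ∣ P(t)`, there is a simultaneous eigenvector `v ∈ V` of
`R` whose eigencharacter `χ` satisfies `χ(T i) ≡ t i` modulo a maximal ideal over `p` of the ring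
of algebraic integers.

(The kernel of `P ↦ P(t) mod p` is a maximal ideal of `ℤ[X]` containing the kernel of
`P ↦ P(T)`; lying over for the integral map `ℤ[X] → R`; then `S49.exists_eigenvector_character`
and `S49.exists_maximal_over`.)
-/

set_option autoImplicit false

namespace Fermat.Agent.L.LiftEig.H46

open Module

/-- **CHAR, abstract form.** -/
theorem char_of_relations {R : Type*} [CommRing R] {V : Type*} [AddCommGroup V] [Module ℂ V]
    [FiniteDimensional ℂ V] (hint : ∀ r : R, IsIntegral ℤ r)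
    (φ : R →+* Module.End ℂ V) (hφ : Function.Injective φ)
    {p : ℕ} (hp : p.Prime) {ι : Type*} (T : ι → R) (t : ι → ℤ)
    (H : ∀ P : MvPolynomial ι ℤ, MvPolynomial.aeval T P = 0 →
      (p : ℤ) ∣ MvPolynomial.eval t P) :
    ∃ (χ : R →+* ℂ) (v : V) (𝔪 : Ideal (integralClosure ℤ ℂ)),
      v ≠ 0 ∧ (∀ r, φ r v = χ r • v) ∧ 𝔪.IsMaximal ∧
      ((p : ℕ) : integralClosure ℤ ℂ) ∈ 𝔪 ∧
      ∀ i, ∃ α : integralClosure ℤ ℂ, (α : ℂ) = χ (T i) ∧
        α - ((t i : ℤ) : integralClosure ℤ ℂ) ∈ 𝔪 := by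
  classical
  haveI : Fact p.Prime := ⟨hp⟩
  -- the two evaluations
  let evT : MvPolynomial ι ℤ →+* R := (MvPolynomial.aeval T : MvPolynomial ι ℤ →ₐ[ℤ] R)
  let evt : MvPolynomial ι ℤ →+* ZMod p :=
    (Int.castRingHom (ZMod p)).comp (MvPolynomial.eval t)
  have hevt_surj : Function.Surjective evt := by
    intro x
    obtain ⟨n, rfl⟩ := ZMod.intCast_surjective x
    refine ⟨MvPolynomial.C n, ?_⟩
    show (Int.castRingHom (ZMod p)) (MvPolynomial.eval t (MvPolynomial.C n)) = _
    rw [MvPolynomial.eval_C]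
    rfl
  haveI hmax₀ : (RingHom.ker evt).IsMaximal := RingHom.ker_isMaximal_of_surjective evt hevt_surj
  have hker : RingHom.ker evT ≤ RingHom.ker evt := by
    intro P hP
    rw [RingHom.mem_ker] at hP ⊢
    have h1 := H P hP
    show (Int.castRingHom (ZMod p)) (MvPolynomial.eval t P) = 0
    rw [eq_intCast]
    exact (ZMod.intCast_zmod_eq_zero_iff_dvd _ p).mpr h1
  -- lying over
  letI : Algebra (MvPolynomial ι ℤ) R := evT.toAlgebra
  have halg : algebraMap (MvPolynomial ι ℤ) R = evT := rfl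
  haveI : IsScalarTower ℤ (MvPolynomial ι ℤ) R :=
    IsScalarTower.of_algebraMap_eq fun n => by
      rw [halg]
      simp
  haveI : Algebra.IsIntegral (MvPolynomial ι ℤ) R := ⟨fun r => (hint r).tower_top⟩
  obtain ⟨𝔫, h𝔫max, h𝔫⟩ := Ideal.exists_ideal_over_maximal_of_isIntegral (S := R)
    (RingHom.ker evt) (by rw [halg]; exact hker)
  have hmem : ∀ P : MvPolynomial ι ℤ, evt P = 0 → evT P ∈ 𝔫 := by
    intro P hP
    have h1 : P ∈ Ideal.comap (algebraMap (MvPolynomial ι ℤ) R) 𝔫 := by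
      rw [h𝔫]
      exact hP
    exact h1
  haveI h𝔫prime : 𝔫.IsPrime := h𝔫max.isPrime
  obtain ⟨χ, v, hv0, hv, hkerχ⟩ := Fermat.Agent.S49.exists_eigenvector_character φ hφ 𝔫
  obtain ⟨χ', 𝔪, hχ', h𝔪max, h𝔪⟩ := Fermat.Agent.S49.exists_maximal_over hint χ 𝔫 hkerχ
  refine ⟨χ, v, 𝔪, hv0, hv, h𝔪max, ?_, fun i => ?_⟩
  · have h1 : evT (MvPolynomial.C (p : ℤ)) ∈ 𝔫 := by
      apply hmem
      show (Int.castRingHom (ZMod p)) (MvPolynomial.eval t (MvPolynomial.C (p : ℤ))) = 0
      rw [MvPolynomial.eval_C, eq_intCast, Int.cast_natCast, ZMod.natCast_self]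
    have h2 : evT (MvPolynomial.C (p : ℤ)) = ((p : ℕ) : R) := by
      show MvPolynomial.aeval T (MvPolynomial.C (p : ℤ)) = _
      rw [MvPolynomial.aeval_C]
      simp
    rw [h2] at h1
    have h3 := h𝔪 _ h1
    rwa [map_natCast] at h3
  · refine ⟨χ' (T i), hχ' _, ?_⟩
    have h1 : evT (MvPolynomial.X i - MvPolynomial.C (t i)) ∈ 𝔫 := by
      apply hmem
      show (Int.castRingHom (ZMod p))
        (MvPolynomial.eval t (MvPolynomial.X i - MvPolynomial.C (t i))) = 0
      rw [map_sub, MvPolynomial.eval_X, MvPolynomial.eval_C, sub_self, map_zero]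
    have h2 : evT (MvPolynomial.X i - MvPolynomial.C (t i)) = T i - ((t i : ℤ) : R) := by
      show MvPolynomial.aeval T (MvPolynomial.X i - MvPolynomial.C (t i)) = _
      rw [map_sub, MvPolynomial.aeval_X, MvPolynomial.aeval_C]
      simp
    rw [h2] at h1
    have h3 := h𝔪 _ h1
    rwa [map_sub, map_intCast] at h3

end Fermat.Agent.L.LiftEig.H46

end
-- ==== END Fermat.Agent.L.LiftEig.H46_CharAbs

-- ==== BEGIN Fermat.Agent.RED.H36_AllRed
section

/-!
# G-RED, unconditional outputs (helper36)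

* `stmt_RM : Stmt_RM` : reduction map with conservation law and moving lemma at every level.
* `stmt_TIcore : Stmt_TIcore`.
* `allRed` : `RedPackage N p ℓ A` for every level `N`, every `p` and every place `A` over a prime
  `ℓ ∤ N p` (the input `AllRed` of G-TOR, S30, S17, S44).
-/

set_option autoImplicit false

noncomputable section

namespace Fermat.Agent.RED.H36

/-- **Package RM**, unconditional. -/
theorem stmt_RM : Stmt_RM := stmt_RM_of H76.stmt_DR2 H51.stmt_NDESC

/-- **Package TIcore**, unconditional. -/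
theorem stmt_TIcore : Stmt_TIcore :=
  Fermat.Agent.S18.stmt_TIcore_of H76.stmt_DR2 Fermat.Agent.RED.KD.H22.stmt_KD

/-- **All reduction packages**, unconditional. -/
theorem allRed (N p ℓ : ℕ) [NeZero N] [NeZero ℓ] (hℓ : ℓ.Prime) (hNp : ¬ ℓ ∣ N * p)
    (A : ValuationSubring (AlgebraicClosure ℚ)) (hA : A.LiesOverPrime ℓ) :
    Fermat.Agent.S37.RedPackage N p ℓ A :=
  allRed_of H76.stmt_DR2 H51.stmt_NDESC Fermat.Agent.RED.KD.H22.stmt_KD stmt_EQ H95.stmt_ES3
    N p ℓ hℓ hNp A hA

end Fermat.Agent.RED.H36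

end
end
-- ==== END Fermat.Agent.RED.H36_AllRed

-- ==== BEGIN Fermat.Agent.RED.HR.H95_HRDefs
section

/-!
# G-RED package HR-RED, core (helper95): interface of the degree input

`K = ℚ̄`, `A` a valuation subring over `ℓ`, `k = kV A`, `s ≠ ℓ` a prime, `ℓ ∤ N`.
`β = qExpandAlgHomC _ s : f(q) ↦ f(q^s)`, `F_{N,κ} = modularFunctionFieldFullC κ N`.

* `Stmt_SwapDeg` : `[F_{s,κ} : κ(j(q^s))] = [F_{s,κ} : κ(j(q))]` for `κ = k` and `κ = ℚ̄`
  (the modular equation is symmetric);
* `Stmt_DegBeta` : `[F_{Ns,k} : β F_{N,k}] = [F_{Ns,ℚ̄} : β F_{N,ℚ̄}]`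
  (the degeneracy map `β` has no defect).

`Stmt_DegBeta` follows from `Stmt_SwapDeg`, `GA_deg` (helper73) and the tower law;
`Stmt_HRcore` follows from `Stmt_DegBeta` (`RED/HR/H95_HRMain.lean`).
This file contains no `sorry`.
-/

set_option autoImplicit false
set_option synthInstance.maxHeartbeats 400000
set_option maxHeartbeats 1000000

noncomputable section

open AlgebraicCurve ModularCurve Fermat.Agent.S28.H73 Fermat.Agent.RED.H73

namespace Fermat.Agent.RED.H95

/-- **Symmetry of the modular equation, degrees**: over `κ = k` (char `ℓ ≠ s`) and `κ = ℚ̄`,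
`[κ(j(q), j(q^s)) : κ(j(q^s))] = [κ(j(q), j(q^s)) : κ(j(q))]`. -/
def Stmt_SwapDeg : Prop :=
  ∀ (ℓ s : ℕ) [NeZero s], ℓ.Prime → s.Prime → s ≠ ℓ →
    ∀ A : ValuationSubring (AlgebraicClosure ℚ), A.LiesOverPrime ℓ →
      ((IntermediateField.adjoin (kV A)
          ({qExpand (kV A) s (jqModC (kV A))} : Set (LaurentSeries (kV A)))).relfinrank
          (modularFunctionFieldFullC (kV A) s)
        = (IntermediateField.adjoin (kV A)
          ({jqModC (kV A)} : Set (LaurentSeries (kV A)))).relfinrank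
          (modularFunctionFieldFullC (kV A) s)) ∧
      ((IntermediateField.adjoin (AlgebraicClosure ℚ)
          ({qExpand (AlgebraicClosure ℚ) s (jqModC (AlgebraicClosure ℚ))} :
            Set (LaurentSeries (AlgebraicClosure ℚ)))).relfinrank
          (modularFunctionFieldFullC (AlgebraicClosure ℚ) s)
        = (IntermediateField.adjoin (AlgebraicClosure ℚ)
          ({jqModC (AlgebraicClosure ℚ)} : Set (LaurentSeries (AlgebraicClosure ℚ)))).relfinrank
          (modularFunctionFieldFullC (AlgebraicClosure ℚ) s))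

/-- **The degeneracy map `β` has no defect**: `[F~_{Ns} : β F~_N] = [F_{Ns} : β F_N]`
(`s ∣ N` allowed). -/
def Stmt_DegBeta : Prop :=
  ∀ (N ℓ s : ℕ) [NeZero N] [NeZero s], ℓ.Prime → s.Prime → s ≠ ℓ → ¬ ℓ ∣ N →
    ∀ A : ValuationSubring (AlgebraicClosure ℚ), A.LiesOverPrime ℓ →
      ((modularFunctionFieldFullC (kV A) N).map (qExpandAlgHomC (kV A) s)).relfinrank
          (modularFunctionFieldFullC (kV A) (N * s))
        = ((modularFunctionFieldFullC (AlgebraicClosure ℚ) N).map
            (qExpandAlgHomC (AlgebraicClosure ℚ) s)).relfinrank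
          (modularFunctionFieldFullC (AlgebraicClosure ℚ) (N * s))

end Fermat.Agent.RED.H95

end
end
-- ==== END Fermat.Agent.RED.HR.H95_HRDefs

-- ==== BEGIN Fermat.Agent.S05.Arith
section

/-!
# S05 piece G: arithmetic of the Frey package at an odd prime `q ≠ p` (helper15)

`Fermat.Agent.S05.arith : Stmt_arith`.
-/

set_option autoImplicit false

namespace Fermat.Agent.S05

open WeierstrassCurve WeierstrassCurve.Affine

local notation "K" => AlgebraicClosure ℚ

namespace H15

/-- `q ∣ n ^ k → q ∣ n` for a prime `q`. -/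
theorem not_dvd_pow {q : ℕ} (hq : q.Prime) {n : ℤ} (h : ¬ (q : ℤ) ∣ n) (k : ℕ) :
    ¬ (q : ℤ) ∣ n ^ k :=
  fun hd => h ((Nat.prime_iff_prime_int.mp hq).dvd_of_dvd_pow hd)

theorem not_dvd_of_gcd_eq_one {q : ℕ} (hq : q.Prime) {m n : ℤ} (hgcd : gcd m n = 1)
    (hm : (q : ℤ) ∣ m) : ¬ (q : ℤ) ∣ n := by
  intro hn
  have h1 : (q : ℤ) ∣ gcd m n := dvd_gcd hm hn
  rw [hgcd] at h1
  have := Int.natCast_dvd_natCast.1 (by simpa using h1 : ((q : ℕ) : ℤ) ∣ ((1 : ℕ) : ℤ))
  exact hq.one_lt.ne' (Nat.dvd_one.1 this)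

end H15

open H15 in
theorem arith : Stmt_arith := by
  intro P q hq hq2 hqp A hA
  have hqK : ((q : ℕ) : AlgebraicClosure ℚ) ∈ A.nonunits := hA
  -- abbreviations
  have h4 : 4 * P.freyCurve.a₂ + 1 = ((P.b ^ P.p - P.a ^ P.p : ℤ) : ℚ) := by
    simp only [FreyPackage.freyCurve]
    push_cast
    ring
  have h16 : 16 * P.freyCurve.a₄ = ((-(P.a ^ P.p * P.b ^ P.p) : ℤ) : ℚ) := by
    simp only [FreyPackage.freyCurve]
    push_cast
    ring
  have hval2 : A.valuation (2 : K) = 1 := by
    have := valuation_natCast_eq_one_of_ne (A := A) hq hqK Nat.prime_two (Ne.symm hq2)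
    simpa using this
  have hvalp : A.valuation ((P.p : ℕ) : K) = 1 :=
    valuation_natCast_eq_one_of_ne (A := A) hq hqK P.pp (Ne.symm hqp)
  have hcast : ∀ n : ℤ, algebraMap ℚ K ((n : ℤ) : ℚ) = ((n : ℤ) : K) := fun n => by simp
  by_cases hc : (q : ℤ) ∣ P.c
  · -- case `q ∣ c`: `e = a^p`, `c₀ = (a c)^2`
    have hqa : ¬ (q : ℤ) ∣ P.a := fun h =>
      not_dvd_of_gcd_eq_one hq P.hgcdac h hc
    have hqb : ¬ (q : ℤ) ∣ P.b := fun h =>
      not_dvd_of_gcd_eq_one hq P.hgcdbc h hc
    refine ⟨((P.a ^ P.p : ℤ) : ℚ), (((P.a * P.c) ^ 2 : ℤ) : ℚ), ?_, ?_, hvalp, ?_⟩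
    · rw [h4, h16]; push_cast; ring
    · have ha2 : (modelOf P.freyCurve ((P.a ^ P.p : ℤ) : ℚ)).a₂ =
          ((P.b ^ P.p + 2 * P.a ^ P.p : ℤ) : ℚ) := by
        simp only [modelOf]; rw [h4]; push_cast; ring
      have ha4 : (modelOf P.freyCurve ((P.a ^ P.p : ℤ) : ℚ)).a₄ =
          ((P.a ^ P.p * P.c ^ P.p : ℤ) : ℚ) := by
        simp only [modelOf]; rw [h4, h16, ← P.hFLT]; push_cast; ring
      refine ⟨by simp [modelOf], by simp [modelOf], by simp [modelOf], ?_, ?_, ?_, hval2, ?_⟩
      · show A.valuation (algebraMap ℚ K _) ≤ 1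
        rw [ha2, hcast]; exact valuation_intCast_le_one A _
      · show A.valuation (algebraMap ℚ K _) ≤ 1
        rw [ha4, hcast]; exact valuation_intCast_le_one A _
      · show algebraMap ℚ K _ ≠ 0
        rw [ha4, hcast]
        have : (P.a ^ P.p * P.c ^ P.p : ℤ) ≠ 0 :=
          mul_ne_zero (pow_ne_zero _ P.ha0) (pow_ne_zero _ P.hc0)
        exact_mod_cast this
      · show A.valuation ((algebraMap ℚ K _) ^ 2 - 4 * (algebraMap ℚ K _)) = 1
        rw [ha2, ha4, hcast, hcast]
        have : (((P.b ^ P.p + 2 * P.a ^ P.p : ℤ) : K)) ^ 2 - 4 * ((P.a ^ P.p * P.c ^ P.p : ℤ) : K)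
            = (((P.b ^ P.p) ^ 2 : ℤ) : K) := by
          rw [← P.hFLT]; push_cast; ring
        rw [this]
        exact valuation_intCast_eq_one_of_not_dvd hq hqK
          (not_dvd_pow hq (not_dvd_pow hq hqb _) _)
    · have ha4 : (modelOf P.freyCurve ((P.a ^ P.p : ℤ) : ℚ)).a₄ =
          ((P.a ^ P.p * P.c ^ P.p : ℤ) : ℚ) := by
        simp only [modelOf]; rw [h4, h16, ← P.hFLT]; push_cast; ring
      rw [ha4, hcast, hcast, ← map_pow, ← map_pow]
      congr 1
      push_cast
      ring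
  · -- case `q ∤ c`: `e = 0`, `c₀ = (a b)^2`
    refine ⟨0, (((P.a * P.b) ^ 2 : ℤ) : ℚ), ?_, ?_, hvalp, ?_⟩
    · have hp0 : P.p ≠ 0 := P.hp0
      simp
    · have ha2 : (modelOf P.freyCurve 0).a₂ = ((P.b ^ P.p - P.a ^ P.p : ℤ) : ℚ) := by
        simp only [modelOf]; rw [h4]; push_cast; ring
      have ha4 : (modelOf P.freyCurve 0).a₄ = ((-(P.a ^ P.p * P.b ^ P.p) : ℤ) : ℚ) := by
        simp only [modelOf]; rw [h16]; push_cast; ring
      refine ⟨by simp [modelOf], by simp [modelOf], by simp [modelOf], ?_, ?_, ?_, hval2, ?_⟩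
      · show A.valuation (algebraMap ℚ K _) ≤ 1
        rw [ha2, hcast]; exact valuation_intCast_le_one A _
      · show A.valuation (algebraMap ℚ K _) ≤ 1
        rw [ha4, hcast]; exact valuation_intCast_le_one A _
      · show algebraMap ℚ K _ ≠ 0
        rw [ha4, hcast]
        have : (-(P.a ^ P.p * P.b ^ P.p) : ℤ) ≠ 0 :=
          neg_ne_zero.2 (mul_ne_zero (pow_ne_zero _ P.ha0) (pow_ne_zero _ P.hb0))
        exact_mod_cast this
      · show A.valuation ((algebraMap ℚ K _) ^ 2 - 4 * (algebraMap ℚ K _)) = 1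
        rw [ha2, ha4, hcast, hcast]
        have : (((P.b ^ P.p - P.a ^ P.p : ℤ) : K)) ^ 2 - 4 * ((-(P.a ^ P.p * P.b ^ P.p) : ℤ) : K)
            = (((P.c ^ P.p) ^ 2 : ℤ) : K) := by
          rw [← P.hFLT]; push_cast; ring
        rw [this]
        exact valuation_intCast_eq_one_of_not_dvd hq hqK
          (not_dvd_pow hq (not_dvd_pow hq hc _) _)
    · have ha4 : (modelOf P.freyCurve 0).a₄ = ((-(P.a ^ P.p * P.b ^ P.p) : ℤ) : ℚ) := by
        simp only [modelOf]; rw [h16]; push_cast; ring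
      rw [ha4, hcast, hcast, ← map_pow, ← map_pow]
      congr 1
      push_cast
      ring

end Fermat.Agent.S05

end
-- ==== END Fermat.Agent.S05.Arith

-- ==== BEGIN Fermat.Agent.S05.CoreGood
section

set_option autoImplicit false

namespace Fermat.Agent.S05

open WeierstrassCurve WeierstrassCurve.Affine WeierstrassCurve.Affine.Point

namespace H55

section general

variable {L : Type*} [Field L]

/-- `E₁ ⊆ E₀`. -/
theorem inE0_of_inE1 (A : ValuationSubring L) {W : Affine L} (P : W.Point) (h : InE1 A P) :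
    InE0 A P := by
  cases P with
  | zero => trivial
  | some x y hxy => exact le_of_lt h

/-- The point `T = (0,0)` is nonsingular on `y² = x³ + a x² + b x` when `b ≠ 0`. -/
theorem nonsingular_zero_zero {W : Affine L} (h₁ : W.a₁ = 0) (_h₃ : W.a₃ = 0) (h₆ : W.a₆ = 0)
    (hb : W.a₄ ≠ 0) : W.Nonsingular 0 0 := by
  rw [nonsingular_iff, equation_iff]
  refine ⟨by simp [h₆], Or.inl ?_⟩
  simpa [h₁] using hb.symm

/-- On `y² = x³ + a x² + b x`, a point with `x = 0` has `y = 0`. -/
theorem y_eq_zero_of_x_eq_zero {W : Affine L} (h₁ : W.a₁ = 0) (h₃ : W.a₃ = 0) (h₆ : W.a₆ = 0)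
    {y : L} (h : W.Nonsingular 0 y) : y = 0 := by
  have he := h.1
  rw [equation_iff] at he
  simpa [h₁, h₃, h₆] using he

variable [DecidableEq L]

/-- The `x`-coordinate of `P + T` is `b / x`. -/
theorem addX_zero_zero {W : Affine L} (h₁ : W.a₁ = 0) (h₃ : W.a₃ = 0) (h₆ : W.a₆ = 0)
    {x y : L} (hx : x ≠ 0) (h : W.Nonsingular x y) :
    W.addX x 0 (W.slope x 0 y 0) = W.a₄ / x := by
  have he := h.1
  rw [equation_iff] at he
  rw [slope_of_X_ne hx, addX]
  simp only [h₁, h₃, h₆, zero_mul, add_zero, sub_zero] at he ⊢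
  field_simp
  linear_combination he

/-- In the good reduction case, a point with `|x| < 1`, `x ≠ 0`, is translated into `E₁` by `T`. -/
theorem inE1_add_T (A : ValuationSubring L) {W : Affine L} (hyp : ModelHyp A W)
    (hb : A.valuation W.a₄ = 1) {x y : L} (h : W.Nonsingular x y) (hx0 : x ≠ 0)
    (hx : A.valuation x < 1) :
    InE1 A (Point.some x y h +
      Point.some 0 0 (nonsingular_zero_zero hyp.a₁ hyp.a₃ hyp.a₆ hyp.b_ne)) := by
  rw [add_of_X_ne hx0]
  show 1 < A.valuation (W.addX x 0 (W.slope x 0 y 0))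
  rw [addX_zero_zero hyp.a₁ hyp.a₃ hyp.a₆ hx0 h, map_div₀, hb, one_div]
  have hv0 : A.valuation x ≠ 0 := (Valuation.ne_zero_iff _).mpr hx0
  exact (one_lt_inv₀ (zero_lt_iff.mpr hv0)).mpr hx

end general

/-- Piece H1: `Stmt_core` restricted to the good reduction case `|b| = 1`. -/
def Stmt_coreGood : Prop :=
  ∀ (K₀ L : Type) [Field K₀] [Field L] [DecidableEq L] [Algebra K₀ L] [IsAlgClosed L]
    (A : ValuationSubring L) (W' : Affine K₀), ModelHyp A (W'⁄L) →
    A.valuation (algebraMap K₀ L W'.a₄) = 1 →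
  ∀ (p : ℕ), Odd p → A.valuation (p : L) = 1 →
  ∀ (σ : L ≃ₐ[K₀] L), (∀ x, A.valuation (σ x) = A.valuation x) →
    (∀ x, A.valuation x ≤ 1 → A.valuation (σ x - x) < 1) →
  ∀ P : (W'⁄L).Point, (p : ℤ) • P = 0 → σ • P = P

section core

variable {K₀ L : Type} [Field K₀] [Field L] [DecidableEq L] [Algebra K₀ L]

/-- The Galois action on points is inertia-like as soon as `σ` is. -/
theorem inertiaLike_smul (A : ValuationSubring L) (W' : Affine K₀) (σ : L ≃ₐ[K₀] L)
    (hval : ∀ x, A.valuation (σ x) = A.valuation x)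
    (hres : ∀ x, A.valuation x ≤ 1 → A.valuation (σ x - x) < 1) :
    InertiaLike A (W'⁄L) (σ : L →+* L) (fun P : (W'⁄L).Point => σ • P) where
  val_eq := hval
  res := hres
  map_zero := smul_zero σ
  map_some _ _ h := ⟨_, Point.map_some σ.toAlgHom h⟩

/-- In the good reduction case, `σ P - P ∈ E₁` for EVERY point `P`. -/
theorem smul_sub_inE1 (hF2 : Stmt_F2 (L := L)) (A : ValuationSubring L) (W' : Affine K₀)
    (hyp : ModelHyp A (W'⁄L)) (hb : A.valuation (W'⁄L).a₄ = 1) (σ : L ≃ₐ[K₀] L)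
    (hval : ∀ x, A.valuation (σ x) = A.valuation x)
    (hres : ∀ x, A.valuation x ≤ 1 → A.valuation (σ x - x) < 1) (P : (W'⁄L).Point) :
    InE1 A (σ • P - P) := by
  have hI := _root_.Fermat.Agent.S05.H55.inertiaLike_smul A W' σ hval hres
  have key : ∀ Q : (W'⁄L).Point, InE0 A Q → InE1 A (σ • Q - Q) := fun Q hQ =>
    hF2 A (W'⁄L) hyp (σ : L →+* L) _ hI Q hQ
  cases P with
  | zero => exact key _ trivial
  | some x y h =>
    by_cases hx : 1 ≤ A.valuation x
    · exact key _ hx
    · have hx' : A.valuation x < 1 := not_le.mp hx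
      set T : (W'⁄L).Point :=
        Point.some 0 0 (nonsingular_zero_zero hyp.a₁ hyp.a₃ hyp.a₆ hyp.b_ne) with hT
      have hσT : σ • T = T := by
        rw [hT, algEquiv_smul_def, Point.map_some]
        congr 1 <;> exact map_zero _
      by_cases hx0 : x = 0
      · subst hx0
        have hy : y = 0 := y_eq_zero_of_x_eq_zero hyp.a₁ hyp.a₃ hyp.a₆ h
        subst hy
        have : σ • (Point.some (0 : L) 0 h : (W'⁄L).Point) - Point.some 0 0 h = 0 := by
          rw [sub_eq_zero]; exact hσT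
        rw [this]
        trivial
      · have hR : InE1 A (Point.some x y h + T) := inE1_add_T A hyp hb h hx0 hx'
        have h1 := key _ (inE0_of_inE1 A _ hR)
        have h2 : σ • (Point.some x y h + T) - (Point.some x y h + T) =
            σ • (Point.some x y h : (W'⁄L).Point) - Point.some x y h := by
          rw [smul_add, hσT]; abel
        rwa [h2] at h1

end core

/-- Piece H1 (good reduction core), from pieces F1 and F2. -/
theorem coreGood (hF1 : ∀ (L : Type) [Field L] [DecidableEq L], Stmt_F1 (L := L))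
    (hF2 : ∀ (L : Type) [Field L] [DecidableEq L], Stmt_F2 (L := L)) : Stmt_coreGood := by
  intro K₀ L _ _ _ _ _ A W' hyp hb p _ hp σ hval hres P hP
  have hb' : A.valuation (W'⁄L).a₄ = 1 := hb
  have hD : InE1 A (σ • P - P) := smul_sub_inE1 (hF2 L) A W' hyp hb' σ hval hres P
  have hpD : p • (σ • P - P) = 0 := by
    have h : (p : ℤ) • (σ • P - P) = 0 := by
      rw [smul_sub, ← algEquiv_smul_zsmul, hP, smul_zero, sub_zero]
    rwa [natCast_zsmul] at h
  by_contra hne
  exact hF1 L A (W'⁄L) hyp (σ • P - P) hD (fun h0 => hne (sub_eq_zero.mp h0)) p hp hpD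

end H55

end Fermat.Agent.S05

end
-- ==== END Fermat.Agent.S05.CoreGood

-- ==== BEGIN Fermat.Agent.S05.F2
section

set_option autoImplicit false

namespace Fermat.Agent.S05

open WeierstrassCurve WeierstrassCurve.Affine

namespace H87

section val

variable {L : Type*} [Field L] {Γ : Type*} [LinearOrderedCommGroupWithZero Γ]
  (v : Valuation L Γ)

lemma val_le_one_of_sq_le_one {g : Γ} (h : g ^ 2 ≤ 1) : g ≤ 1 := by
  by_contra hg
  push Not at hg
  have : 1 < g ^ 2 := one_lt_pow₀ hg (by norm_num)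
  exact absurd h (not_le.mpr this)

lemma val_eq_one_of_sq_eq_one {g : Γ} (h : g ^ 2 = 1) : g = 1 := by
  rcases lt_trichotomy g 1 with hg | hg | hg
  · have : g ^ 2 < 1 := pow_lt_one₀ zero_le hg (by norm_num)
    exact absurd h this.ne
  · exact hg
  · have : 1 < g ^ 2 := one_lt_pow₀ hg (by norm_num)
    exact absurd h this.ne'

variable {v}

/-- On the curve `y² = x³ + a x² + b x` with integral `a, b`, a point with `|x| = 1` has
`|y| ≤ 1`. -/
lemma val_y_le_one {a b x y : L} (ha : v a ≤ 1) (hb : v b ≤ 1) (hx : v x = 1)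
    (heq : y ^ 2 = x ^ 3 + a * x ^ 2 + b * x) : v y ≤ 1 := by
  apply val_le_one_of_sq_le_one
  rw [← map_pow, heq]
  refine v.map_add_le (v.map_add_le ?_ ?_) ?_
  · rw [map_pow, hx, one_pow]
  · rw [map_mul, map_pow, hx, one_pow, mul_one]; exact ha
  · rw [map_mul, hx, mul_one]; exact hb

/-- `|x² + a x + b| < 1` at a point with `|x| = 1`, `|y| < 1`. -/
lemma val_quad_lt_one {a b x y : L} (hx : v x = 1) (hy : v y < 1)
    (heq : y ^ 2 = x ^ 3 + a * x ^ 2 + b * x) : v (x ^ 2 + a * x + b) < 1 := by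
  have h1 : y ^ 2 = x * (x ^ 2 + a * x + b) := by rw [heq]; ring
  have h2 : v y ^ 2 = v (x ^ 2 + a * x + b) := by
    rw [← map_pow, h1, map_mul, hx, one_mul]
  rw [← h2]
  exact pow_lt_one₀ zero_le hy (by norm_num)

/-- The derivative `3x² + 2ax + b` is a unit at a point with `|x| = 1`, `|y| < 1`. -/
lemma val_deriv_eq_one {a b x y : L} (h2 : v (2 : L) = 1)
    (hd : v (a ^ 2 - 4 * b) = 1) (hx : v x = 1) (hy : v y < 1)
    (heq : y ^ 2 = x ^ 3 + a * x ^ 2 + b * x) :
    v (3 * x ^ 2 + 2 * a * x + b) = 1 := by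
  have hu : v (x ^ 2 + a * x + b) < 1 := val_quad_lt_one hx hy heq
  have h4 : v (4 : L) = 1 := by
    have : (4 : L) = 2 * 2 := by norm_num
    rw [this, map_mul, h2, one_mul]
  have h4u : v (4 * (x ^ 2 + a * x + b)) < 1 := by rw [map_mul, h4, one_mul]; exact hu
  have hsq : v ((2 * x + a) ^ 2) = 1 := by
    have : (2 * x + a) ^ 2 = 4 * (x ^ 2 + a * x + b) + (a ^ 2 - 4 * b) := by ring
    rw [this, v.map_add_eq_of_lt_right (by rw [hd]; exact h4u), hd]
  have h2xa : v (2 * x + a) = 1 := by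
    rw [map_pow] at hsq
    exact val_eq_one_of_sq_eq_one hsq
  have : 3 * x ^ 2 + 2 * a * x + b = (x ^ 2 + a * x + b) + x * (2 * x + a) := by ring
  rw [this, v.map_add_eq_of_lt_right (by rw [map_mul, hx, h2xa, one_mul]; exact hu), map_mul, hx,
    h2xa, one_mul]

/-- If `1 < |ℓ|` and `|c| ≤ 1`, `|x₁| ≤ 1`, `|x₂| ≤ 1` then `1 < |ℓ² - c - x₁ - x₂|`. -/
lemma one_lt_val_addX {ℓ c x₁ x₂ : L} (hℓ : 1 < v ℓ) (hc : v c ≤ 1) (h₁ : v x₁ ≤ 1)
    (h₂ : v x₂ ≤ 1) : 1 < v (ℓ ^ 2 - c - x₁ - x₂) := by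
  have hℓ2 : 1 < v (ℓ ^ 2) := by rw [map_pow]; exact one_lt_pow₀ hℓ (by norm_num)
  have hrest : v (c + x₁ + x₂) ≤ 1 := v.map_add_le (v.map_add_le hc h₁) h₂
  have : ℓ ^ 2 - c - x₁ - x₂ = ℓ ^ 2 - (c + x₁ + x₂) := by ring
  rw [this, v.map_sub_eq_of_lt_left (lt_of_le_of_lt hrest hℓ2)]
  exact hℓ2

/-- Secant case. -/
lemma secant_case {a b x y x' y' : L} (ha : v a ≤ 1) (hb : v b ≤ 1) (h2 : v (2 : L) = 1)
    (hd : v (a ^ 2 - 4 * b) = 1) (hx : v x = 1) (hx' : v x' = 1)
    (hxx : v (x' - x) < 1) (hyy : v (y' - y) < 1)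
    (heq : y ^ 2 = x ^ 3 + a * x ^ 2 + b * x)
    (heq' : y' ^ 2 = x' ^ 3 + a * x' ^ 2 + b * x') (hne : x' ≠ x) :
    1 < v (((y' - (-y)) / (x' - x)) ^ 2 - a - x' - x) := by
  have hxx0 : v (x' - x) ≠ 0 := by
    rw [Ne, map_eq_zero, sub_eq_zero]; exact hne
  have hy1 : v y ≤ 1 := val_y_le_one ha hb hx heq
  apply one_lt_val_addX _ ha hx'.le hx.le
  rw [map_div₀, sub_neg_eq_add]
  rcases hy1.lt_or_eq with hy | hy
  · -- |y| < 1
    have hg0 : v (3 * x ^ 2 + 2 * a * x + b) = 1 := val_deriv_eq_one h2 hd hx hy heq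
    have hg : v (x' ^ 2 + x' * x + x ^ 2 + a * (x' + x) + b) = 1 := by
      have : x' ^ 2 + x' * x + x ^ 2 + a * (x' + x) + b
          = (x' - x) * (x' + 2 * x + a) + (3 * x ^ 2 + 2 * a * x + b) := by ring
      rw [this, v.map_add_eq_of_lt_right, hg0]
      rw [hg0, map_mul]
      have h3 : v (x' + 2 * x + a) ≤ 1 := by
        refine v.map_add_le (v.map_add_le hx'.le ?_) ha
        rw [map_mul, h2, hx, one_mul]
      calc v (x' - x) * v (x' + 2 * x + a) ≤ v (x' - x) * 1 := by gcongr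
        _ = v (x' - x) := mul_one _
        _ < 1 := hxx
    have hid : (y' - y) * (y' + y) = (x' - x) * (x' ^ 2 + x' * x + x ^ 2 + a * (x' + x) + b) := by
      have : (y' - y) * (y' + y) = y' ^ 2 - y ^ 2 := by ring
      rw [this, heq, heq']; ring
    have hval : v (y' - y) * v (y' + y) = v (x' - x) := by
      rw [← map_mul, hid, map_mul, hg, mul_one]
    have hyy0 : v (y' - y) ≠ 0 := by
      intro h0
      rw [h0, zero_mul] at hval
      exact hxx0 hval.symm
    have hsum0 : v (y' + y) ≠ 0 := by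
      intro h0
      rw [h0, mul_zero] at hval
      exact hxx0 hval.symm
    rw [one_lt_div₀ (zero_lt_iff.mpr hxx0), ← hval]
    calc v (y' - y) * v (y' + y) < 1 * v (y' + y) := by
          exact mul_lt_mul_of_pos_right hyy (zero_lt_iff.mpr hsum0)
      _ = v (y' + y) := one_mul _
  · -- |y| = 1
    have hsum : v (y' + y) = 1 := by
      have : y' + y = 2 * y + (y' - y) := by ring
      rw [this, v.map_add_eq_of_lt_left, map_mul, h2, hy, one_mul]
      rw [map_mul, h2, hy, one_mul]; exact hyy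
    rw [hsum, one_lt_div₀ (zero_lt_iff.mpr hxx0)]
    exact hxx

/-- Tangent case. -/
lemma tangent_case {a b x y : L} (ha : v a ≤ 1) (h2 : v (2 : L) = 1)
    (hd : v (a ^ 2 - 4 * b) = 1) (hx : v x = 1) (hy : v y < 1) (hy0 : y ≠ 0)
    (heq : y ^ 2 = x ^ 3 + a * x ^ 2 + b * x) :
    1 < v (((3 * x ^ 2 + 2 * a * x + b) / (-y - y)) ^ 2 - a - x - x) := by
  apply one_lt_val_addX _ ha hx.le hx.le
  have hg0 : v (3 * x ^ 2 + 2 * a * x + b) = 1 := val_deriv_eq_one h2 hd hx hy heq
  have hden : v (-y - y) = v y := by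
    have : -y - y = -(2 * y) := by ring
    rw [this, v.map_neg, map_mul, h2, one_mul]
  have hvy0 : v y ≠ 0 := by rw [Ne, map_eq_zero]; exact hy0
  rw [map_div₀, hg0, hden, one_lt_div₀ (zero_lt_iff.mpr hvy0)]
  exact hy

end val

end H87

section main

variable {L : Type*} [Field L]

/-- The curve equation of the model, in the form `y² = x³ + a x² + b x`. -/
lemma H87.model_equation {A : ValuationSubring L} {W : Affine L} (hyp : ModelHyp A W) {x y : L}
    (h : W.Nonsingular x y) : y ^ 2 = x ^ 3 + W.a₂ * x ^ 2 + W.a₄ * x := by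
  have := (W.equation_iff x y).mp h.1
  rw [hyp.a₁, hyp.a₃, hyp.a₆] at this
  linear_combination this

lemma H87.model_negY {A : ValuationSubring L} {W : Affine L} (hyp : ModelHyp A W) (x y : L) :
    W.negY x y = -y := by
  rw [Affine.negY, hyp.a₁, hyp.a₃]; ring

variable [DecidableEq L]

/-- Piece C (F2), assuming that `E₁` is closed under addition (piece B1). -/
theorem F2_of_E1_add (hE1 : Stmt_E1_add (L := L)) : Stmt_F2 (L := L) := by
  intro A W hyp σ s hs Q hQ
  rcases Q with _ | ⟨x, y, h⟩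
  · show InE1 A (s 0 - 0)
    rw [hs.map_zero, sub_zero]
    trivial
  · obtain ⟨h', hsQ⟩ := hs.map_some x y h
    rw [hsQ, sub_eq_add_neg, Point.neg_some]
    have hx1 : 1 ≤ A.valuation x := hQ
    rcases hx1.lt_or_eq with hgt | heq1
    · -- `Q ∈ E₁`
      apply hE1 A W hyp
      · show 1 < A.valuation (σ x)
        rw [hs.val_eq]; exact hgt
      · exact hgt
    · -- `|x| = 1`
      have hx : A.valuation x = 1 := heq1.symm
      have hx' : A.valuation (σ x) = 1 := by rw [hs.val_eq, hx]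
      have heq := H87.model_equation hyp h
      have heq' := H87.model_equation hyp h'
      have hy1 : A.valuation y ≤ 1 := H87.val_y_le_one hyp.a_le hyp.b_le hx heq
      have hxx : A.valuation (σ x - x) < 1 := hs.res x hx.le
      have hyy : A.valuation (σ y - y) < 1 := hs.res y hy1
      by_cases hX : σ x = x
      · by_cases hY : σ y = W.negY x (W.negY x y)
        · rw [Point.add_of_Y_eq hX hY]
          trivial
        · rw [Point.add_of_Y_ne hY]
          show 1 < A.valuation (W.addX (σ x) x (W.slope (σ x) x (σ y) (W.negY x y)))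
          rw [Affine.slope_of_Y_ne hX hY, Affine.addX, hyp.a₁, H87.model_negY hyp]
          rw [H87.model_negY hyp, H87.model_negY hyp, neg_neg] at hY
          -- `σ y = -y`
          have hsq : (σ y) ^ 2 = y ^ 2 := by rw [heq, heq', hX]
          have hσy : σ y = -y := by
            have : (σ y - y) * (σ y + y) = 0 := by linear_combination hsq
            rcases mul_eq_zero.mp this with h0 | h0
            · exact absurd (sub_eq_zero.mp h0) hY
            · exact eq_neg_of_add_eq_zero_left h0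
          have hy0 : y ≠ 0 := by
            rintro rfl
            apply hY
            rw [hσy, neg_zero]
          have hylt : A.valuation y < 1 := by
            have : σ y - y = -(2 * y) := by rw [hσy]; ring
            rw [this, Valuation.map_neg, map_mul, hyp.two, one_mul] at hyy
            exact hyy
          have key := H87.tangent_case (v := A.valuation) hyp.a_le hyp.two hyp.disc hx hylt hy0 heq
          rw [hX, hσy]
          convert key using 2
          ring
      · rw [Point.add_of_X_ne hX]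
        show 1 < A.valuation (W.addX (σ x) x (W.slope (σ x) x (σ y) (W.negY x y)))
        rw [Affine.slope_of_X_ne hX, Affine.addX, hyp.a₁, H87.model_negY hyp]
        have key := H87.secant_case (v := A.valuation) hyp.a_le hyp.b_le hyp.two hyp.disc hx hx'
          hxx hyy heq heq' hX
        convert key using 2
        ring

end main

end Fermat.Agent.S05

end
-- ==== END Fermat.Agent.S05.F2
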