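-- GENERATED (merged mirror, NOTES/tools/trim/merge3_helper67.py): 7 modules of the originals, bodies verbatim.
import Mathlib
import Fermat.Agent.Zm.S35_L14_000
import Fermat.Agent.Zm.S35_L13_002
import Fermat.Agent.Zm.S35_L14_002
import Fermat.Agent.Zm.S48_L01_003
import Fermat.Agent.Zm.S48_L01_004
import Fermat.Agent.Zm.S48_L01_001
import Fermat.Agent.Lib.SecondIneq.Defs
import Fermat.Agent.Lib.FrobDensity.Defs
import Fermat.Agent.Zm.S48_L01_000
import Fermat.Agent.Zm.S48_L01_005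

-- ==== BEGIN Fermat.Agent.S48.B2.R.H96_Irr3
section

/-!
# S48 B2, slice R, leaf IRR-3 (helper96)

`K = ℚ̄`, `A` a valuation subring of `K` over the prime `p`, `k` its residue field,
`F₀(M) = modularFunctionFieldBar M ⊂ K((q))`, `κ₀(M) ⊂ k((q))` the residue field of its Gauss
valuation.  For a prime `r ∤ p M` (and `p ∤ M`):

  **`w ∈ κ₀(M)` and `w (q ^ r) ∈ κ₀(M)`  ⟹  `w` is constant.**

Proof: on `F₀(M r)` the Atkin–Lehner involution `w_r` (helper88, `BAD.H88.wq`) exchanges the two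
degeneracy maps `α` (inclusion) and `β` (`q ↦ q ^ r`).  The valuation ring `V₂ = V₁ ∘ w_r` has the
same trace on `K(j)` as the Gauss valuation ring `V₁`; the residue degree of `V₁` over `K(j)` is
the full degree `ψ(M r)` (GA, helper73), so `V₂ = V₁` by VAL-U (helper66).  If `w = red x`,
`w (q ^ r) = red y`, then `f = β x - α y` is in the maximal ideal of `V₁ = V₂`, so
`w_r f = α x - β y` is in the maximal ideal of `V₁`: `w = w (q ^ (r * r))`, hence `w` is constant.

Main statements: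
* `V2_eq_V1`    : the Atkin–Lehner involution preserves the Gauss valuation ring (`p ∤ M r`);
* `irr3_elts`   : the statement for elements `x, y` of the Gauss valuation ring of `F₀(M)`;
* `stmt_Irr3 : Stmt_Irr3`.
-/

set_option autoImplicit false
set_option synthInstance.maxHeartbeats 400000
set_option maxHeartbeats 1000000
set_option linter.unusedSectionVars false
set_option linter.style.haveILetI false

noncomputable section

namespace Fermat.Agent.S48.B2.R.H96

open Fermat.Agent.S24 ModularCurve Fermat.Agent.S28 Fermat.Agent.S28.H73 Fermat.Agent.RED.H73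
open Fermat.Agent.BAD.H88 IntermediateField

/-- **IRR-3**: a function `w` in the residue field `κ₀(M)` of the Gauss valuation of `F₀(M)`
(at `A ∣ p`, `p ∤ M`) such that `w (q ^ r)` is again in `κ₀(M)`, `r` a prime not dividing `p M`,
is constant. -/
def Stmt_Irr3 : Prop :=
  ∀ (M p r : ℕ) [NeZero M] [NeZero r], p.Prime → r.Prime → ¬ p ∣ M → ¬ r ∣ p * M →
    ∀ A : ValuationSubring (AlgebraicClosure ℚ), A.LiesOverPrime p →
      ∀ w : LaurentSeries (kV A),
        w ∈ redField A (modularFunctionFieldBar M) (hasScale_laurentBaseChange A M) →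
        qExpand (kV A) r w ∈
          redField A (modularFunctionFieldBar M) (hasScale_laurentBaseChange A M) →
        ∃ c : kV A, w = HahnSeries.C c

/-! ## The function `j` in `F₀(N)` and in the residue field -/

section J

variable (A : ValuationSubring Kbar) (N : ℕ) [NeZero N]

theorem bar_eq_fullC : modularFunctionFieldBar N = modularFunctionFieldFullC Kbar N :=
  laurentBaseChange_full_eq N

theorem jq_mem_bar : jqModC Kbar ∈ modularFunctionFieldBar N := by
  rw [bar_eq_fullC]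
  exact jqModC_mem_full Kbar N

/-- `j` as an element of `F₀(N)`. -/
def jN : FN N := ⟨jqModC Kbar, jq_mem_bar N⟩

theorem fullC_one' (K : Type) [Field K] :
    modularFunctionFieldFullC K 1 = IntermediateField.adjoin K ({jqModC K} : Set _) := by
  rw [modularFunctionFieldFullC]
  congr 1
  ext x
  constructor
  · rintro ⟨d, hd0, hd, rfl⟩
    have : d = 1 := Nat.dvd_one.mp hd
    subst this
    rw [qExpand_one_apply]
    rfl
  · intro hx
    rw [Set.mem_singleton_iff] at hx
    subst hx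
    exact ⟨1, inferInstance, dvd_rfl, (qExpand_one_apply _).symm⟩

theorem adjoin_jq_le_bar :
    IntermediateField.adjoin Kbar ({jqModC Kbar} : Set (LaurentSeries Kbar))
      ≤ modularFunctionFieldBar N := by
  rw [IntermediateField.adjoin_le_iff]
  rintro x hx
  rw [Set.mem_singleton_iff] at hx
  subst hx
  exact jq_mem_bar N

end J

theorem dedekindPsi_pos96 (N : ℕ) [NeZero N] : 0 < dedekindPsi N := by
  rw [dedekindPsi]
  have h1 : (1 : ℕ) ∈ (N.divisors).filter (fun d => Squarefree d) := by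
    rw [Finset.mem_filter]
    exact ⟨Nat.one_mem_divisors.mpr (NeZero.ne N), squarefree_one⟩
  have h2 : N / 1 ≤ ∑ d ∈ (N.divisors).filter (fun d => Squarefree d), N / d :=
    Finset.single_le_sum (f := fun d => N / d) (fun _ _ => Nat.zero_le _) h1
  rw [Nat.div_one] at h2
  exact lt_of_lt_of_le (Nat.pos_of_ne_zero (NeZero.ne N)) h2

/-! ## The Atkin–Lehner involution preserves the Gauss valuation -/

section Key

variable (A : ValuationSubring Kbar) (p r M : ℕ) [NeZero M] [NeZero r]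
variable (a b : ℤ) (hab : a * r + b * M = 1) (hr : r.Prime)
variable (hp : p.Prime) (hA : A.LiesOverPrime p)

include hp hA in
/-- The reduction of a Gauss-integral element of `K(j)` lies in `k(j~)`. -/
theorem gaussRedV_mem_adjoin {x : LaurentSeries Kbar}
    (hx : x ∈ IntermediateField.adjoin Kbar ({jqModC Kbar} : Set (LaurentSeries Kbar)))
    (hG : x ∈ gaussRingV A) :
    gaussRedV A ⟨x, hG⟩ ∈
      IntermediateField.adjoin (kV A) ({jqModC (kV A)} : Set (LaurentSeries (kV A))) := by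
  have hp1 : ¬ p ∣ 1 := fun h => hp.one_lt.ne' (Nat.dvd_one.mp h)
  have h1 : x ∈ modularFunctionFieldBar 1 := by
    rw [bar_eq_fullC, fullC_one']
    exact hx
  have hV : (⟨x, h1⟩ : FN 1) ∈ VM A 1 := hG
  have h2 := gaussResF_mem_redField A (hScM A 1) ⟨⟨x, h1⟩, hV⟩
  have h3 : redField A (modularFunctionFieldBar 1) (hScM A 1)
      = modularFunctionFieldFullC (kV A) 1 := stmt_GA 1 p hp hp1 A hA
  rw [h3, fullC_one'] at h2
  exact h2

include hab hr hp hA in
/-- **The Atkin–Lehner involution `w_r` preserves the Gauss valuation ring** of `F₀(M r)` at a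
place of residue characteristic `p ∤ M r`. -/
theorem V2_eq_V1 (hpN : ¬ p ∣ M * r) : V2 A r M a b hab hr = V1 A r M := by
  classical
  have hN : (((M * r : ℕ) : Kbar))⁻¹ ∈ A :=
    inv_natCast_mem_of_liesOver (N := M * r) A hp hpN hA
  -- the residue field
  have hκ : redField A (modularFunctionFieldBar (M * r)) (hSc A r M)
      = modularFunctionFieldFullC (kV A) (M * r) := stmt_GA (M * r) p hp hpN A hA
  have hjκ : jqModC (kV A) ∈ redField A (modularFunctionFieldBar (M * r)) (hSc A r M) := by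
    rw [hκ]
    exact jqModC_mem_full (kV A) (M * r)
  let jκ : F1 A r M := ⟨jqModC (kV A), hjκ⟩
  have hdegκ : Module.finrank ↥((kV A)⟮jκ⟯) (F1 A r M) = dedekindPsi (M * r) := by
    rw [finrank_adjoin_eq_relfinrank]
    show (IntermediateField.adjoin (kV A)
      ({jqModC (kV A)} : Set (LaurentSeries (kV A)))).relfinrank
        (redField A (modularFunctionFieldBar (M * r)) (hSc A r M)) = _
    rw [hκ]
    exact relfinrank_fullC_red_bar A hN
  have hdegF : Module.finrank ↥(Kbar⟮jN (M * r)⟯) (FN (M * r)) = dedekindPsi (M * r) := by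
    rw [finrank_adjoin_eq_relfinrank]
    show (IntermediateField.adjoin Kbar
      ({jqModC Kbar} : Set (LaurentSeries Kbar))).relfinrank
        (modularFunctionFieldBar (M * r)) = _
    rw [bar_eq_fullC]
    exact relfinrank_fullC_bar (M * r)
  have hpos : 0 < dedekindPsi (M * r) := dedekindPsi_pos96 (M * r)
  haveI : FiniteDimensional ↥(Kbar⟮jN (M * r)⟯) (FN (M * r)) :=
    Module.finite_of_finrank_pos (by rw [hdegF]; exact hpos)
  haveI : FiniteDimensional ↥((kV A)⟮jκ⟯) (F1 A r M) :=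
    Module.finite_of_finrank_pos (by rw [hdegκ]; exact hpos)
  let B := Module.finBasis ↥((kV A)⟮jκ⟯) (F1 A r M)
  -- lifts of the basis
  have hlift : ∀ i, ∃ u : ↥(V1 A r M), red1 A r M u = B i :=
    fun i => red1_surjective A r M (B i)
  choose u hu using hlift
  refine H66.valU_comap (E := ↥(Kbar⟮jN (M * r)⟯)) (V1 A r M) (V2 A r M a b hab hr) ?_
    (ι := Fin (Module.finrank ↥((kV A)⟮jκ⟯) (F1 A r M))) ?_
    (fun i => ((u i : ↥(V1 A r M)) : FN (M * r))) (fun i => (u i).2) ?_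
  · -- the two rings have the same trace on `K(j)`
    ext e
    rw [ValuationSubring.mem_comap, ValuationSubring.mem_comap]
    have hmem : (((e : FN (M * r)) : LaurentSeries Kbar)) ∈ modularFunctionFieldBar M :=
      adjoin_jq_le_bar M
        ((mem_adjoin_iff_coe_mem _ (jN (M * r)) (e : FN (M * r))).1 e.2)
    have hx : heckeAlphaBar Kbar M r ⟨_, hmem⟩ = (e : FN (M * r)) :=
      Subtype.ext (coe_heckeAlphaBar M r _)
    show (e : FN (M * r)) ∈ V1 A r M ↔ (e : FN (M * r)) ∈ V2 A r M a b hab hr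
    rw [← hx, alpha_mem_V1_iff, alpha_mem_V2_iff]
  · rw [Fintype.card_fin, hdegκ, hdegF]
  · intro c hc hlt i
    let c' : Fin (Module.finrank ↥((kV A)⟮jκ⟯) (F1 A r M)) → ↥(V1 A r M) :=
      fun i => ⟨((c i : ↥(Kbar⟮jN (M * r)⟯)) : FN (M * r)), hc i⟩
    have hs : (((∑ i, c' i * u i : ↥(V1 A r M))) : FN (M * r))
        = ∑ i, c i • ((u i : ↥(V1 A r M)) : FN (M * r)) := by
      rw [← ValuationSubring.subtype_apply, map_sum]
      refine Finset.sum_congr rfl fun i _ => ?_
      rw [Algebra.smul_def]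
      rfl
    have hs0 : red1 A r M (∑ i, c' i * u i) = 0 := by
      rw [red1_eq_zero_iff, ValuationSubring.valuation_lt_one_iff, hs]
      exact hlt
    have hcκ : ∀ i, red1 A r M (c' i) ∈ (kV A)⟮jκ⟯ := by
      intro i
      rw [mem_adjoin_iff_coe_mem, coe_gaussResF'_eq]
      refine gaussRedV_mem_adjoin A p hp hA ?_ _
      exact (mem_adjoin_iff_coe_mem _ (jN (M * r)) (c i : FN (M * r))).1 (c i).2
    have hsum : ∑ i, (⟨red1 A r M (c' i), hcκ i⟩ : ↥((kV A)⟮jκ⟯)) • B i = 0 := by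
      rw [← hs0, map_sum]
      refine Finset.sum_congr rfl fun i _ => ?_
      rw [map_mul, hu, Algebra.smul_def]
      rfl
    have h0 := (Fintype.linearIndependent_iff.1 B.linearIndependent) _ hsum i
    have h1 : red1 A r M (c' i) = 0 := congrArg Subtype.val h0
    rw [red1_eq_zero_iff, ValuationSubring.valuation_lt_one_iff] at h1
    exact h1

end Key

/-! ## IRR-3 -/

section Core

variable (A : ValuationSubring Kbar) (p r M : ℕ) [NeZero M] [NeZero r]
variable (hr : r.Prime) (hp : p.Prime) (hA : A.LiesOverPrime p)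

include hr hp hA in
/-- **IRR-3, element form**: if `x, y ∈ F₀(M)` are Gauss-integral and `red y = (red x)(q ^ r)`,
then `red x` is constant. -/
theorem irr3_elts (hpM : ¬ p ∣ M) (hrM : ¬ r ∣ p * M) (x y : FN M) (hx : x ∈ VM A M)
    (hy : y ∈ VM A M)
    (hrel : ((redM A M ⟨y, hy⟩ : FM A M) : LaurentSeries (kV A))
      = qExpand (kV A) r ((redM A M ⟨x, hx⟩ : FM A M) : LaurentSeries (kV A))) :
    ∃ c : kV A, ((redM A M ⟨x, hx⟩ : FM A M) : LaurentSeries (kV A)) = HahnSeries.C c := by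
  have hrM' : ¬ r ∣ M := fun h => hrM (h.mul_left p)
  have hrp : r ≠ p := fun h => hrM (h ▸ dvd_mul_right r M)
  have hpN : ¬ p ∣ M * r := by
    intro h
    rcases (Nat.Prime.dvd_mul hp).1 h with h1 | h1
    · exact hpM h1
    · exact hrp ((Nat.prime_dvd_prime_iff_eq hp hr).1 h1).symm
  obtain ⟨a, b, hab⟩ : ∃ a b : ℤ, a * r + b * M = 1 := by
    have hcop : Nat.Coprime r M := (Nat.Prime.coprime_iff_not_dvd hr).2 hrM'
    have h1 : Int.gcd (r : ℤ) (M : ℤ) = 1 := by
      rw [Int.gcd_natCast_natCast]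
      exact hcop
    have h2 := Int.gcd_eq_gcd_ab (r : ℤ) (M : ℤ)
    rw [h1] at h2
    refine ⟨Int.gcdA r M, Int.gcdB r M, ?_⟩
    push_cast at h2
    linarith
  have hV := V2_eq_V1 A p r M a b hab hr hp hA hpN
  set w : LaurentSeries (kV A) := ((redM A M ⟨x, hx⟩ : FM A M) : LaurentSeries (kV A)) with hw
  have hβx : heckeBetaBar Kbar M r x ∈ V1 A r M := (beta_mem_V1_iff A r M x).2 hx
  have hαy : heckeAlphaBar Kbar M r y ∈ V1 A r M := (alpha_mem_V1_iff A r M y).2 hy
  have hαx : heckeAlphaBar Kbar M r x ∈ V1 A r M := (alpha_mem_V1_iff A r M x).2 hx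
  have hβy : heckeBetaBar Kbar M r y ∈ V1 A r M := (beta_mem_V1_iff A r M y).2 hy
  -- `f = β x - α y` reduces to `0`
  have hf0 : red1 A r M (⟨_, hβx⟩ - ⟨_, hαy⟩) = 0 := by
    apply Subtype.ext
    rw [map_sub]
    show ((red1 A r M ⟨_, hβx⟩ : F1 A r M) : LaurentSeries (kV A))
      - ((red1 A r M ⟨_, hαy⟩ : F1 A r M) : LaurentSeries (kV A)) = 0
    rw [red1_beta A r M x hx hβx, red1_alpha A r M y hy hαy, hrel, sub_self]
  have hfm := (red1_eq_zero_iff A r M _).1 hf0
  -- `w_r f = α x - β y`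
  have hwf : wq r M a b hab hr (heckeBetaBar Kbar M r x - heckeAlphaBar Kbar M r y)
      = heckeAlphaBar Kbar M r x - heckeBetaBar Kbar M r y := by
    rw [map_sub, wq_beta, wq_alpha]
  have hgm : (⟨_, hαx⟩ - ⟨_, hβy⟩ : ↥(V1 A r M)) ∈ IsLocalRing.maximalIdeal ↥(V1 A r M) := by
    rw [mem_maximalIdeal_iff'] at hfm ⊢
    rcases hfm with h | h
    · left
      have h' : heckeBetaBar Kbar M r x - heckeAlphaBar Kbar M r y = 0 := h
      show heckeAlphaBar Kbar M r x - heckeBetaBar Kbar M r y = 0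
      rw [← hwf, h', map_zero]
    · right
      intro hginv
      apply h
      show (heckeBetaBar Kbar M r x - heckeAlphaBar Kbar M r y)⁻¹ ∈ V1 A r M
      rw [← hV, mem_V2_iff, map_inv₀, hwf]
      exact hginv
  have hg0 := (red1_eq_zero_iff A r M _).2 hgm
  have hfix : qExpand (kV A) (r * r) w = w := by
    have h1 : ((red1 A r M (⟨_, hαx⟩ - ⟨_, hβy⟩) : F1 A r M) : LaurentSeries (kV A)) = 0 := by
      rw [hg0]
      rfl
    rw [map_sub] at h1
    have h2 : ((red1 A r M ⟨_, hαx⟩ : F1 A r M) : LaurentSeries (kV A))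
      - ((red1 A r M ⟨_, hβy⟩ : F1 A r M) : LaurentSeries (kV A)) = 0 := h1
    rw [red1_alpha A r M x hx hαx, red1_beta A r M y hy hβy, hrel, qExpand_qExpand,
      sub_eq_zero] at h2
    exact h2.symm
  have hr2 : 2 ≤ r * r := by
    have := hr.two_le
    nlinarith
  exact ⟨w.coeff 0, eq_C_of_qExpand_eq (r * r) hr2 w hfix⟩

end Core

/-- **IRR-3.** -/
theorem stmt_Irr3 : Stmt_Irr3 := by
  intro M p r _ _ hp hr hpM hrM A hA w hw hw'
  obtain ⟨x, rfl⟩ := hw
  obtain ⟨y, hy⟩ := hw'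
  obtain ⟨c, hc⟩ := irr3_elts A p r M hr hp hA hpM hrM (x : FN M) (y : FN M) x.2 y.2 hy
  exact ⟨c, hc⟩

end Fermat.Agent.S48.B2.R.H96

end
end
-- ==== END Fermat.Agent.S48.B2.R.H96_Irr3

-- ==== BEGIN Fermat.Agent.S48.B2.T.H98_OrdPlace
section

/-!
# S48 / B2, slice T, leaf E-ORD (helper98), part 1: the place of a nontrivial order function

`exists_place_of_isOrdFun` : a nontrivial integer valued order function `ν` on a field `F ⊇ K`
(trivial on `K`) is `e · ord_v` for a place `v` of `F / K` and an integer `e ≥ 1`.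
(Same construction as in `NEB.EIG.H98.exists_mul_of_dvd_ord`.)
-/

set_option autoImplicit false

noncomputable section

namespace Fermat.Agent.S48.B2.T.H98

open AlgebraicCurve Fermat.Agent.NEB.EIG.H98

variable {K F : Type*} [Field K] [Field F] [Algebra K F]

/-- **The place of a nontrivial order function.** -/
theorem exists_place_of_isOrdFun {ν : F → ℤ} (hν : IsOrdFun K ν) {g₀ : F} (hg₀ : g₀ ≠ 0)
    (hne : ν g₀ ≠ 0) :
    ∃ (v : Place K F) (e : ℕ), 0 < e ∧ ∀ g : F, g ≠ 0 → ν g = (e : ℤ) * v.ord g := by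
  classical
  set V : ValuationSubring F := hν.valSubring with hV
  have hν_mul : ∀ {g h : F}, g ≠ 0 → h ≠ 0 → ν (g * h) = ν g + ν h := fun hg hh =>
    hν.mul _ _ hg hh
  have hν_inv : ∀ g : F, g ≠ 0 → ν g⁻¹ = - ν g := fun g hg => hν.inv g hg
  have hν_zpow : ∀ (g : F), g ≠ 0 → ∀ z : ℤ, ν (g ^ z) = z * ν g := fun g hg z => hν.zpow g hg z
  have hV_iff : ∀ {g : F}, g ≠ 0 → (g ∈ V ↔ 0 ≤ ν g) := fun hg => hν.mem_valSubring_iff hg
  have htop : V ≠ ⊤ := by
    intro htop
    have h1 : 0 ≤ ν g₀ := (hV_iff hg₀).mp (htop ▸ ValuationSubring.mem_top g₀)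
    have h2 : 0 ≤ ν g₀⁻¹ := (hV_iff (inv_ne_zero hg₀)).mp (htop ▸ ValuationSubring.mem_top _)
    rw [hν_inv g₀ hg₀] at h2
    omega
  -- a positive value exists
  have hex : ∃ m : ℕ, 0 < m ∧ ∃ g : F, g ≠ 0 ∧ ν g = (m : ℤ) := by
    obtain ⟨g, hg⟩ : ∃ g : F, g ∉ V := by
      by_contra hcon
      apply htop
      refine SetLike.ext fun x => ⟨fun _ => ValuationSubring.mem_top x, fun _ => ?_⟩
      by_contra hx
      exact hcon ⟨x, hx⟩
    have hg0 : g ≠ 0 := fun h0 => hg (h0 ▸ V.zero_mem)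
    have hlt : ν g < 0 := by
      by_contra hcon
      exact hg ((hV_iff hg0).mpr (not_lt.mp hcon))
    refine ⟨(- ν g).toNat, by omega, g⁻¹, inv_ne_zero hg0, ?_⟩
    rw [hν_inv g hg0]
    omega
  obtain ⟨e, ⟨he0, π₀, hπ₀, hπν⟩, hmin⟩ : ∃ e : ℕ, (0 < e ∧ ∃ g : F, g ≠ 0 ∧ ν g = (e : ℤ)) ∧
      ∀ m : ℕ, m < e → ¬ (0 < m ∧ ∃ g : F, g ≠ 0 ∧ ν g = (m : ℤ)) :=
    ⟨Nat.find hex, Nat.find_spec hex, fun m hm => Nat.find_min hex hm⟩
  -- Claim A
  have hA : ∀ {g : F}, g ≠ 0 → (e : ℤ) ∣ ν g := by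
    intro g hg
    have hr0 : 0 ≤ ν g % (e : ℤ) := Int.emod_nonneg _ (by omega)
    have hr1 : ν g % (e : ℤ) < e := Int.emod_lt_of_pos _ (by omega)
    have hg' : g * π₀ ^ (- (ν g / (e : ℤ))) ≠ 0 := mul_ne_zero hg (zpow_ne_zero _ hπ₀)
    have hval : ν (g * π₀ ^ (- (ν g / (e : ℤ)))) = ν g % (e : ℤ) := by
      rw [hν_mul hg (zpow_ne_zero _ hπ₀), hν_zpow _ hπ₀, hπν, Int.emod_def]
      ring
    by_contra hnd
    have hrpos : 0 < ν g % (e : ℤ) := by
      rcases hr0.lt_or_eq with h | h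
      · exact h
      · exact absurd (Int.dvd_of_emod_eq_zero h.symm) hnd
    refine hmin (ν g % (e : ℤ)).toNat (by omega) ⟨by omega, _, hg', ?_⟩
    rw [hval]
    omega
  have hπV : π₀ ∈ V := (hV_iff hπ₀).mpr (by rw [hπν]; omega)
  -- units of V
  have hunit : ∀ x : V, (x : F) ≠ 0 → ν (x : F) = 0 → IsUnit x := by
    intro x hx0 hx
    have hxinv : (x : F)⁻¹ ∈ V :=
      (hV_iff (inv_ne_zero hx0)).mpr (by rw [hν_inv _ hx0, hx, neg_zero])
    refine isUnit_iff_exists_inv.mpr ⟨⟨_, hxinv⟩, Subtype.ext ?_⟩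
    simp [mul_inv_cancel₀ hx0]
  have hunit' : ∀ x : V, IsUnit x → ν (x : F) = 0 := by
    intro x hx
    obtain ⟨y, hy⟩ := isUnit_iff_exists_inv.mp hx
    have hy' : (x : F) * (y : F) = 1 := by
      have := congrArg Subtype.val hy
      simpa using this
    have hx0 : (x : F) ≠ 0 := left_ne_zero_of_mul_eq_one hy'
    have hy0 : (y : F) ≠ 0 := right_ne_zero_of_mul_eq_one hy'
    have h1 := (hV_iff hx0).mp x.2
    have h2 := (hV_iff hy0).mp y.2
    have h3 : ν ((x : F) * (y : F)) = 0 := by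
      rw [hy']
      exact hν.one
    rw [hν_mul hx0 hy0] at h3
    omega
  set p : V := ⟨π₀, hπV⟩ with hp
  have hp0 : p ≠ 0 := fun h0 => hπ₀ (congrArg Subtype.val h0)
  have hpirr : Irreducible p := by
    refine ⟨fun hu => ?_, fun a b hab => ?_⟩
    · have := hunit' p hu
      rw [show ((p : V) : F) = π₀ from rfl, hπν] at this
      omega
    · have hab' : π₀ = (a : F) * (b : F) := congrArg Subtype.val hab
      have ha0 : (a : F) ≠ 0 := fun h0 => hπ₀ (by rw [hab', h0, zero_mul])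
      have hb0 : (b : F) ≠ 0 := fun h0 => hπ₀ (by rw [hab', h0, mul_zero])
      have hsum : ν (a : F) + ν (b : F) = e := by
        rw [← hν_mul ha0 hb0, ← hab', hπν]
      have ha1 := (hV_iff ha0).mp a.2
      have hb1 := (hV_iff hb0).mp b.2
      obtain ⟨qa, hqa⟩ := hA ha0
      obtain ⟨qb, hqb⟩ := hA hb0
      have he' : (0 : ℤ) < e := by omega
      have hqa0 : 0 ≤ qa := by
        by_contra hcon
        have : (e : ℤ) * qa < 0 := mul_neg_of_pos_of_neg he' (not_le.mp hcon)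
        omega
      have hqb0 : 0 ≤ qb := by
        by_contra hcon
        have : (e : ℤ) * qb < 0 := mul_neg_of_pos_of_neg he' (not_le.mp hcon)
        omega
      have hq : qa + qb = 1 := by
        have : (e : ℤ) * (qa + qb) = e * 1 := by rw [mul_add, ← hqa, ← hqb, hsum, mul_one]
        exact mul_left_cancel₀ (by omega) this
      have hcase : qa = 0 ∨ qb = 0 := by omega
      rcases hcase with h0 | h0
      · left
        exact hunit a ha0 (by rw [hqa, h0, mul_zero])
      · right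
        exact hunit b hb0 (by rw [hqb, h0, mul_zero])
  have hfact : IsDiscreteValuationRing.HasUnitMulPowIrreducibleFactorization V := by
    refine ⟨p, hpirr, fun {x} hx => ?_⟩
    have hx0 : (x : F) ≠ 0 := fun h0 => hx (Subtype.ext h0)
    obtain ⟨q, hq⟩ := hA hx0
    have hx1 := (hV_iff hx0).mp x.2
    have he' : (0 : ℤ) < e := by omega
    have hq0 : 0 ≤ q := by
      by_contra hcon
      have : (e : ℤ) * q < 0 := mul_neg_of_pos_of_neg he' (not_le.mp hcon)
      omega
    obtain ⟨m, rfl⟩ := Int.eq_ofNat_of_zero_le hq0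
    refine ⟨m, ?_⟩
    have hu0 : (x : F) * (π₀ ^ m)⁻¹ ≠ 0 := mul_ne_zero hx0 (inv_ne_zero (pow_ne_zero _ hπ₀))
    have huν : ν ((x : F) * (π₀ ^ m)⁻¹) = 0 := by
      rw [hν_mul hx0 (inv_ne_zero (pow_ne_zero _ hπ₀)), hν_inv _ (pow_ne_zero _ hπ₀),
        ← zpow_natCast, hν_zpow _ hπ₀, hπν, hq]
      ring
    have huV : (x : F) * (π₀ ^ m)⁻¹ ∈ V := (hV_iff hu0).mpr (by rw [huν])
    have hU : IsUnit (⟨_, huV⟩ : V) := hunit ⟨_, huV⟩ hu0 huν
    refine ⟨hU.unit, Subtype.ext ?_⟩
    simp only [IsUnit.unit_spec, MulMemClass.coe_mul, SubmonoidClass.coe_pow, hp]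
    field_simp
  have hDVR : IsDiscreteValuationRing V :=
    IsDiscreteValuationRing.ofHasUnitMulPowIrreducibleFactorization hfact
  let v : Place K F :=
    { toValuationSubring := V
      algebraMap_mem' := fun a => by
        by_cases ha : a = 0
        · rw [ha, map_zero]; exact V.zero_mem
        · have h0 : algebraMap K F a ≠ 0 := (map_ne_zero _).mpr ha
          exact (hV_iff h0).mpr (by rw [hν.const a ha])
      ne_top' := htop
      isPrincipalIdealRing' := inferInstance }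
  have hp' : Irreducible (p : v.toValuationSubring) := hpirr
  refine ⟨v, e, he0, fun f hf => ?_⟩
  obtain ⟨u, hu⟩ := v.exists_unit_mul_zpow hf hp'
  have huν : ν ((u : v.toValuationSubring) : F) = 0 := hunit' _ u.isUnit
  have hu0 : ((u : v.toValuationSubring) : F) ≠ 0 := by
    intro h0
    rw [h0, zero_mul] at hu
    exact hf hu
  conv_lhs => rw [hu]
  rw [hν_mul hu0 (zpow_ne_zero _ hπ₀), huν, zero_add, hν_zpow _ hπ₀, hπν]
  ring

end Fermat.Agent.S48.B2.T.H98

end
end
-- ==== END Fermat.Agent.S48.B2.T.H98_OrdPlace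

-- ==== BEGIN Fermat.Agent.S48.Cheb.Defs
section

/-!
# S48 leaf D (Chebotarev, lower bound with loss): interfaces

Owner: helper43.  Plan: `NOTES/plan/W_S48.md` §4 (D).  Chebotarev's field crossing proof, no class
field theory.  Formalism of item 61 (`Lib/FrobDensity`): `L/ℚ` Galois, primes
`w : HeightOneSpectrum (𝓞 L)`, `Unram L w`, weight `wt L s w = |D_w| · p_w ^ (-s)`.

* `Stmt_RayDensity` (D1, analytic): equality case of the second inequality `⟹` every fibre of the
  ray map has Dirichlet density `≥ 1/|A|`, with `O(1)` error (degree one primes only);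
* `Stmt_ChebCyc`    (D2): the cyclotomic case inside a Galois `N/ℚ ∋ ζ_m`: if `⟨a⟩` acts
  faithfully on `ζ_m` and no power of `a` inverts `ζ_m`, the primes with Frobenius `a` have
  weighted density `≥ 1`;
* `Stmt_ChebNF`     (D3): Chebotarev for `L/ℚ` with loss `1 - η`, by crossing with `ℚ(ζ_m)`;
* D4: `Stmt_ChebNF → S48.Stmt_Cheb` (bridge to `Γℚ`).
-/

set_option autoImplicit false

namespace Fermat.Agent.S48.Cheb

open NumberField IsDedekindDomain Ideal
open Fermat.Agent.Lib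

/-- The unramified primes of `L` with Frobenius element equal to `g`. -/
def frobEq (L : Type) [Field L] [NumberField L] (g : L ≃ₐ[ℚ] L) :
    Set (HeightOneSpectrum (𝓞 L)) :=
  {w | FrobDensity.Unram L w ∧ IsArithFrobAt ℤ g w.asIdeal}

/-- **D1 (RayDensity)**.  `F ⊆ L` number fields, `ψ` a ray map mod `𝔪` onto `A` which is trivial
on the primes of `F` under the degree one primes of `L`, and `[L : F] ≤ |A|` (so `=`, by the
second inequality).  Then for every `x ∈ A` the primes `v ∤ 𝔪` of `F` of degree one with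
`ψ v = x` satisfy `∑ N v ^ (-s) ≥ (1/|A|) log (1/(s-1)) - C` on `(1, 2]`.

(Proof: for `χ ≠ 1`, `Re ∑ χ(ψ v) N v^{-s}` is bounded above (`Stmt_MultSum`, `Stmt_RayCount`),
and their sum is bounded below by the hypothesis; so `|L(s, χ)| ≥ c > 0`; `L(s, χ)` has a limit at
`1⁺` (Abel summation), so a continuous logarithm is bounded; orthogonality of characters.) -/
def Stmt_RayDensity : Prop :=
  ∀ (F L : Type) [Field F] [NumberField F] [Field L] [NumberField L] [Algebra F L]
    (𝔪 : Ideal (𝓞 F)) (A : Type) [CommGroup A] [Finite A] (ψ : Ideal (𝓞 F) → A) (T : Finset ℕ),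
    𝔪 ≠ ⊥ → SecondIneq.IsRayMap 𝔪 ψ →
    (∀ Q : Ideal (𝓞 L), Q.IsPrime → (Ideal.absNorm Q).Prime → Ideal.absNorm Q ∉ T →
      IsCoprime (Q.under (𝓞 F)) 𝔪 → ψ (Q.under (𝓞 F)) = 1) →
    Module.finrank F L ≤ Nat.card A →
    ∀ x : A, ∃ C : ℝ, ∀ s : ℝ, 1 < s → s ≤ 2 →
      Real.log (1 / (s - 1)) / (Nat.card A : ℝ) - C ≤
        ∑' v : {v : HeightOneSpectrum (𝓞 F) //
            IsCoprime v.asIdeal 𝔪 ∧ ψ v.asIdeal = x ∧ (Ideal.absNorm v.asIdeal).Prime},
          ZetaPrimes.primeTerm F s v.1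

/-- **D2 (cyclotomic case)**.  `N/ℚ` Galois, `ζ ∈ N` a primitive `m`-th root of unity,
`a ∈ Gal(N/ℚ)` such that `⟨a⟩` acts faithfully on `ζ` and no power of `a` inverts `ζ`.  Then
`∑_{Frob_w = a} |D_w| p_w^{-s} ≥ log (1/(s-1)) - C` on `(1, 2]`.

(`E` = fixed field of `a`: `N = E(ζ)`, `E` is totally complex, `ψ(I) = N(I) mod m` is a ray map
mod `m 𝓞_E` onto `⟨t⟩ ≤ (ℤ/m)ˣ`, `a ζ = ζ ^ t`; apply D1 with `x = t`.) -/
def Stmt_ChebCyc : Prop :=
  ∀ (N : Type) [Field N] [NumberField N] [IsGalois ℚ N] (m : ℕ) (ζ : N) (a : N ≃ₐ[ℚ] N),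
    m ≠ 0 → IsPrimitiveRoot ζ m →
    (∀ k : ℕ, (a ^ k) ζ = ζ → a ^ k = 1) →
    (∀ k : ℕ, (a ^ k) ζ ≠ ζ⁻¹) →
    ∃ C : ℝ, ∀ s : ℝ, 1 < s → s ≤ 2 →
      Real.log (1 / (s - 1)) - C ≤ ∑' w : frobEq N a, FrobDensity.wt N s w.1

/-- **D3 (Chebotarev for number fields, with loss)**: for `L/ℚ` Galois, `g ∈ Gal(L/ℚ)`, `η > 0`:
`∑_{Frob_w = g} |D_w| p_w^{-s} ≥ (1 - η) log (1/(s-1)) - C` on `(1, 2]`.

(Crossing: `m = q₁ ⋯ q_r`, `q_i ≡ 1 mod ord g` distinct primes with `L ∩ ℚ(ζ_m) = ℚ` (all but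
finitely many blocks of primes, since `L` has finitely many subfields and the `ℚ(ζ_m)` for
pairwise coprime `m` meet in `ℚ`); `N = L(ζ_m)`, `a_τ = (g, τ)` for the `τ ∈ (ℤ/m)ˣ` with
`ord g ∣ ord τ` and `-1 ∉ ⟨τ⟩` (proportion `≥ 1 - (ω(ord g) + 2) 2^{-r}`); D2 for each `a_τ`;
`∑_{w' ∣ w} |D_{w'}| = [N : L] |D_w|`.) -/
def Stmt_ChebNF : Prop :=
  ∀ (L : Type) [Field L] [NumberField L] [IsGalois ℚ L] (g : L ≃ₐ[ℚ] L) (η : ℝ), 0 < η →
    ∃ C : ℝ, ∀ s : ℝ, 1 < s → s ≤ 2 →
      (1 - η) * Real.log (1 / (s - 1)) - C ≤ ∑' w : frobEq L g, FrobDensity.wt L s w.1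

end Fermat.Agent.S48.Cheb

end
-- ==== END Fermat.Agent.S48.Cheb.Defs

-- ==== BEGIN Fermat.Agent.S48.Cheb.H55_Modulus
section

/-!
# S48, leaf D3 (helper55): the modulus `m = 4 q` and its bad units

`exists_modulus`: for `n ≥ 1` and `η > 0` there are `m ≠ 0` and a set `Bad` of units mod `m` with
`#Bad ≤ η φ(m)` such that every unit `t ∉ Bad` has order divisible by `n` and no power of `t` is
`-1`.
-/

set_option autoImplicit false
set_option linter.style.haveILetI false

namespace Fermat.Agent.S48.Cheb.H55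

/-- Chinese remainder theorem for units modulo `4 q`, `q` odd. -/
theorem units_ext_four_mul (q : ℕ) (hq : Nat.Coprime 4 q) (t t' : (ZMod (4 * q))ˣ)
    (h4 : ZMod.unitsMap (dvd_mul_right 4 q) t = ZMod.unitsMap (dvd_mul_right 4 q) t')
    (hq' : ZMod.unitsMap (dvd_mul_left q 4) t = ZMod.unitsMap (dvd_mul_left q 4) t') :
    t = t' := by
  apply Units.ext
  apply (ZMod.chineseRemainder hq).injective
  have e1 : ∀ x : ZMod (4 * q), (ZMod.chineseRemainder hq x).1 =
      ZMod.castHom (dvd_mul_right 4 q) (ZMod 4) x := by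
    intro x
    have : (RingHom.fst (ZMod 4) (ZMod q)).comp (ZMod.chineseRemainder hq).toRingHom =
        ZMod.castHom (dvd_mul_right 4 q) (ZMod 4) := RingHom.ext_zmod _ _
    exact RingHom.congr_fun this x
  have e2 : ∀ x : ZMod (4 * q), (ZMod.chineseRemainder hq x).2 =
      ZMod.castHom (dvd_mul_left q 4) (ZMod q) x := by
    intro x
    have : (RingHom.snd (ZMod 4) (ZMod q)).comp (ZMod.chineseRemainder hq).toRingHom =
        ZMod.castHom (dvd_mul_left q 4) (ZMod q) := RingHom.ext_zmod _ _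
    exact RingHom.congr_fun this x
  apply Prod.ext
  · rw [e1, e1]
    exact congrArg Units.val h4
  · rw [e2, e2]
    exact congrArg Units.val hq'

/-- The units modulo `4` have exponent `2`. -/
theorem units_four_sq (u : (ZMod 4)ˣ) : u ^ 2 = 1 := by
  revert u
  decide

theorem units_four_neg_one_ne : (-1 : (ZMod 4)ˣ) ≠ 1 := by decide

/-- The choice of the modulus. -/
theorem exists_modulus (n : ℕ) (hn : 0 < n) (η : ℝ) (hη : 0 < η) :
    ∃ m : ℕ, m ≠ 0 ∧ ∃ Bad : Finset (ZMod m)ˣ,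
      (Bad.card : ℝ) ≤ η * (Nat.totient m) ∧
      ∀ t : (ZMod m)ˣ, t ∉ Bad → n ∣ orderOf t ∧ ∀ k : ℕ, t ^ k ≠ -1 := by
  classical
  set D : ℕ := 4 * n with hD
  have hD0 : D ≠ 0 := by omega
  obtain ⟨K₀, hK₀⟩ := pow_unbounded_of_one_lt ((D : ℝ) / η) (one_lt_two)
  set K : ℕ := K₀ + 1 with hK
  have hK1 : 1 ≤ K := by omega
  have hDK : (D : ℝ) ≤ η * 2 ^ K := by
    have h1 : (D : ℝ) / η < 2 ^ K := by
      refine hK₀.trans_le ?_
      exact pow_le_pow_right₀ (by norm_num) (by omega)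
    rw [div_lt_iff₀ hη] at h1
    linarith
  obtain ⟨q, hqp, hq2, hqmod⟩ := Nat.exists_prime_gt_modEq_one (k := D ^ K) 2 (pow_ne_zero K hD0)
  haveI : Fact q.Prime := ⟨hqp⟩
  have hqdvd : D ^ K ∣ q - 1 := (Nat.modEq_iff_dvd' hqp.one_le).mp hqmod.symm
  have hcop : Nat.Coprime 4 q := by
    have h2 : Nat.Coprime 2 q := by
      rw [Nat.coprime_primes Nat.prime_two hqp]
      omega
    exact Nat.Coprime.pow_left 2 h2
  have hm0 : 4 * q ≠ 0 := by
    have := hqp.pos
    omega
  haveI : NeZero (4 * q) := ⟨hm0⟩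
  set red : (ZMod (4 * q))ˣ →* (ZMod q)ˣ := ZMod.unitsMap (dvd_mul_left q 4) with hred
  set red4 : (ZMod (4 * q))ˣ →* (ZMod 4)ˣ := ZMod.unitsMap (dvd_mul_right 4 q) with hred4
  set Bad : Finset (ZMod (4 * q))ˣ := Finset.univ.filter (fun t => ¬ D ∣ orderOf (red t))
    with hBad
  refine ⟨4 * q, hm0, Bad, ?_, ?_⟩
  · -- the count
    set bad : Finset (ZMod q)ˣ := Finset.univ.filter (fun x : (ZMod q)ˣ => ¬ D ∣ orderOf x)
      with hbad
    have h1 : Bad.card ≤ 2 * bad.card := by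
      have h2 : Bad.card ≤ 2 * (Bad.image red).card := by
        apply Finset.card_le_mul_card_image
        intro x _
        have h3 : (Finset.filter (fun t => red t = x) Bad).card ≤
            (Finset.univ : Finset (ZMod 4)ˣ).card := by
          apply Finset.card_le_card_of_injOn red4 (fun _ _ => Finset.mem_coe.mpr (Finset.mem_univ _))
          intro t ht t' ht' htt'
          have ht1 := (Finset.mem_filter.mp (Finset.mem_coe.mp ht)).2
          have ht2 := (Finset.mem_filter.mp (Finset.mem_coe.mp ht')).2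
          exact units_ext_four_mul q hcop t t' htt' (ht1.trans ht2.symm)
        have h4 : (Finset.univ : Finset (ZMod 4)ˣ).card = 2 := by decide
        rw [h4] at h3
        exact h3
      have h5 : (Bad.image red).card ≤ bad.card := by
        apply Finset.card_le_card
        intro x hx
        obtain ⟨t, ht, rfl⟩ := Finset.mem_image.mp hx
        exact Finset.mem_filter.mpr ⟨Finset.mem_univ _, (Finset.mem_filter.mp ht).2⟩
      exact h2.trans (Nat.mul_le_mul_left 2 h5)
    have h6 := card_bad_mul_le q D K hD0 hK1 hqdvd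
    have htot : Nat.totient (4 * q) = 2 * (q - 1) := by
      rw [Nat.totient_mul hcop, Nat.totient_prime hqp]
      have : Nat.totient 4 = 2 := by decide
      rw [this]
    rw [htot]
    have h7 : (bad.card : ℝ) * 2 ^ K ≤ (D : ℝ) * ((q - 1 : ℕ) : ℝ) := by
      exact_mod_cast h6
    have h8 : (Bad.card : ℝ) ≤ 2 * (bad.card : ℝ) := by exact_mod_cast h1
    have hpow : (0 : ℝ) < 2 ^ K := by positivity
    have hQ0 : (0 : ℝ) ≤ ((q - 1 : ℕ) : ℝ) := Nat.cast_nonneg _
    have h9 : (bad.card : ℝ) * 2 ^ K ≤ η * 2 ^ K * ((q - 1 : ℕ) : ℝ) :=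
      h7.trans (mul_le_mul_of_nonneg_right hDK hQ0)
    have h10 : (bad.card : ℝ) ≤ η * ((q - 1 : ℕ) : ℝ) := by
      by_contra hcon
      rw [not_le] at hcon
      have := mul_lt_mul_of_pos_right hcon hpow
      nlinarith
    push_cast
    nlinarith
  · -- good units
    intro t ht
    have hgood : D ∣ orderOf (red t) := by
      by_contra hcon
      exact ht (Finset.mem_filter.mpr ⟨Finset.mem_univ _, hcon⟩)
    refine ⟨?_, ?_⟩
    · exact (Dvd.intro_left 4 rfl).trans (hgood.trans (orderOf_map_dvd red t))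
    · intro k hk
      have h4 : red4 t ^ k = -1 := by
        rw [← map_pow, hk]
        apply Units.ext
        simp [hred4, ZMod.unitsMap]
      have hq' : red t ^ k = -1 := by
        rw [← map_pow, hk]
        apply Units.ext
        simp [hred, ZMod.unitsMap]
      -- `k` is odd
      have hodd : ¬ 2 ∣ k := by
        rintro ⟨j, rfl⟩
        rw [pow_mul, units_four_sq, one_pow] at h4
        exact units_four_neg_one_ne h4.symm
      -- `k` is even
      have h2k : red t ^ (2 * k) = 1 := by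
        rw [pow_mul', hq']
        simp
      have h5 : orderOf (red t) ∣ 2 * k := orderOf_dvd_of_pow_eq_one h2k
      have h6 : 4 ∣ 2 * k := (Dvd.intro n rfl : 4 ∣ D).trans (hgood.trans h5)
      apply hodd
      omega

end Fermat.Agent.S48.Cheb.H55

end
-- ==== END Fermat.Agent.S48.Cheb.H55_Modulus

-- ==== BEGIN Fermat.Agent.S48.H55_GroupBoundStr
section

/-!
# S48, leaf E (helper55): structure of a semisimple subgroup of `GL₂(k)` not spanning `M₂(k)`

* `abelian_of_not_span` : if no four elements of the semisimple group `G` are linearly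
  independent, then `G` is commutative;
* `eq_or_eq_of_charpoly_eq` : two elements of a commutative semisimple group with the same trace
  and determinant are equal or conjugate to each other (`h = tr g - g`).
-/

set_option autoImplicit false
set_option linter.style.haveILetI false

namespace Fermat.Agent.S48.H55

open Matrix

variable {k : Type} [Field k]

/-- If `1, g, h` are linearly dependent then `g` and `h` commute. -/
theorem comm_of_dep3 (g h : Matrix (Fin 2) (Fin 2) k) (c0 c1 c2 : k)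
    (hc : ¬ (c0 = 0 ∧ c1 = 0 ∧ c2 = 0))
    (hrel : c0 • (1 : Matrix (Fin 2) (Fin 2) k) + c1 • g + c2 • h = 0) : g * h = h * g := by
  by_cases h2 : c2 = 0
  · by_cases h1 : c1 = 0
    · exfalso
      rw [h1, h2, zero_smul, zero_smul, add_zero, add_zero] at hrel
      have h0 : c0 = 0 := by
        have := congrFun (congrFun hrel 0) 0
        simpa using this
      exact hc ⟨h0, h1, h2⟩
    · have hg : g = (-(c0 / c1)) • (1 : Matrix (Fin 2) (Fin 2) k) := by
        rw [h2, zero_smul, add_zero] at hrel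
        have h3 : c1 • g = -(c0 • (1 : Matrix (Fin 2) (Fin 2) k)) := by
          rw [eq_neg_iff_add_eq_zero, add_comm]
          exact hrel
        have h4 : g = c1⁻¹ • (c1 • g) := by rw [smul_smul, inv_mul_cancel₀ h1, one_smul]
        rw [h4, h3, smul_neg, smul_smul, neg_smul, div_eq_inv_mul]
      rw [hg]
      simp
  · have hh : h = (-(c0 / c2)) • (1 : Matrix (Fin 2) (Fin 2) k) + (-(c1 / c2)) • g := by
      have h3 : c2 • h = -(c0 • (1 : Matrix (Fin 2) (Fin 2) k) + c1 • g) := by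
        rw [eq_neg_iff_add_eq_zero, add_comm]
        exact hrel
      have h4 : h = c2⁻¹ • (c2 • h) := by rw [smul_smul, inv_mul_cancel₀ h2, one_smul]
      rw [h4, h3, smul_neg, smul_add, smul_smul, smul_smul, neg_add, neg_smul, neg_smul,
        div_eq_inv_mul, div_eq_inv_mul]
    rw [hh]
    simp [mul_add, add_mul]

/-- If `1, g, h, x` are linearly dependent and `g`, `h` do not commute, then `x` is a combination
of `1, g, h`. -/
theorem mem_span3_of_dep4 (g h x : Matrix (Fin 2) (Fin 2) k) (hgh : g * h ≠ h * g)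
    (hdep : ¬ LinearIndependent k ![(1 : Matrix (Fin 2) (Fin 2) k), g, h, x]) :
    ∃ p q r : k, x = p • (1 : Matrix (Fin 2) (Fin 2) k) + q • g + r • h := by
  rw [Fintype.not_linearIndependent_iff] at hdep
  obtain ⟨c, hsum, hne⟩ := hdep
  rw [Fin.sum_univ_four] at hsum
  simp only [Matrix.cons_val_zero, Matrix.cons_val_one, Matrix.cons_val_two,
    Matrix.cons_val_three, Matrix.head_cons, Matrix.tail_cons] at hsum
  have hsum' : c 0 • (1 : Matrix (Fin 2) (Fin 2) k) + c 1 • g + c 2 • h + c 3 • x = 0 := hsum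
  by_cases h3 : c 3 = 0
  · exfalso
    rw [h3, zero_smul, add_zero] at hsum'
    apply hgh
    refine comm_of_dep3 g h (c 0) (c 1) (c 2) ?_ hsum'
    rintro ⟨h0, h1, h2⟩
    obtain ⟨i, hi⟩ := hne
    fin_cases i
    · exact hi h0
    · exact hi h1
    · exact hi h2
    · exact hi h3
  · refine ⟨-(c 0 / c 3), -(c 1 / c 3), -(c 2 / c 3), ?_⟩
    have h4 : c 3 • x = -(c 0 • (1 : Matrix (Fin 2) (Fin 2) k) + c 1 • g + c 2 • h) := by
      rw [eq_neg_iff_add_eq_zero, add_comm]
      exact hsum'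
    have h5 : x = (c 3)⁻¹ • (c 3 • x) := by rw [smul_smul, inv_mul_cancel₀ h3, one_smul]
    rw [h5, h4, smul_neg, smul_add, smul_add, smul_smul, smul_smul, smul_smul, neg_add, neg_add,
      neg_smul, neg_smul, neg_smul, div_eq_inv_mul, div_eq_inv_mul, div_eq_inv_mul]

/-- A group all of whose elements have a common eigenbasis is commutative. -/
theorem comm_of_stable_line (G : Subgroup (GL (Fin 2) k)) (hss : IsSemisimple2 G)
    (v : Fin 2 → k) (hv0 : v ≠ 0)
    (hv : ∀ g ∈ G, ∃ c : k, (g : Matrix (Fin 2) (Fin 2) k).mulVec v = c • v)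
    (g h : GL (Fin 2) k) (hg : g ∈ G) (hh : h ∈ G) :
    (g : Matrix (Fin 2) (Fin 2) k) * h = h * g := by
  obtain ⟨w, hvw, hw⟩ := hss v hv0 hv
  obtain ⟨a, ha⟩ := hv g hg
  obtain ⟨b, hb⟩ := hw g hg
  obtain ⟨a', ha'⟩ := hv h hh
  obtain ⟨b', hb'⟩ := hw h hh
  exact comm_of_common_eigenbasis _ _ v w hvw a b a' b' ha hb ha' hb'

/-- If no four elements of the semisimple group `G` are linearly independent, then `G` is
commutative. -/
theorem abelian_of_not_span (G : Subgroup (GL (Fin 2) k)) (hss : IsSemisimple2 G)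
    (hns : ∀ b : Fin 4 → GL (Fin 2) k, (∀ i, b i ∈ G) →
      ¬ LinearIndependent k (fun i => ((b i : GL (Fin 2) k) : Matrix (Fin 2) (Fin 2) k)))
    (g h : GL (Fin 2) k) (hg : g ∈ G) (hh : h ∈ G) :
    (g : Matrix (Fin 2) (Fin 2) k) * h = h * g := by
  by_contra hgh
  -- any `x ∈ G` is a combination of `1, g, h`
  have hspan : ∀ x : GL (Fin 2) k, x ∈ G → ∃ p q r : k, (x : Matrix (Fin 2) (Fin 2) k) =
      p • (1 : Matrix (Fin 2) (Fin 2) k) + q • (g : Matrix (Fin 2) (Fin 2) k) +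
        r • (h : Matrix (Fin 2) (Fin 2) k) := by
    intro x hx
    apply mem_span3_of_dep4 _ _ _ hgh
    have h1 := hns ![1, g, h, x] (by
      intro i
      fin_cases i
      · exact G.one_mem
      · exact hg
      · exact hh
      · exact hx)
    have h2 : (fun i => ((![1, g, h, x] i : GL (Fin 2) k) : Matrix (Fin 2) (Fin 2) k)) =
        ![(1 : Matrix (Fin 2) (Fin 2) k), (g : Matrix (Fin 2) (Fin 2) k),
          (h : Matrix (Fin 2) (Fin 2) k), (x : Matrix (Fin 2) (Fin 2) k)] := by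
      funext i
      fin_cases i <;> rfl
    rw [h2] at h1
    exact h1
  obtain ⟨α, β, γ, hprod⟩ := hspan (g * h) (G.mul_mem hg hh)
  rw [Units.val_mul] at hprod
  set gm : Matrix (Fin 2) (Fin 2) k := (g : Matrix (Fin 2) (Fin 2) k) with hgm
  set hm : Matrix (Fin 2) (Fin 2) k := (h : Matrix (Fin 2) (Fin 2) k) with hhm
  set u : Matrix (Fin 2) (Fin 2) k := gm - γ • (1 : Matrix (Fin 2) (Fin 2) k) with hu
  set u' : Matrix (Fin 2) (Fin 2) k := hm - β • (1 : Matrix (Fin 2) (Fin 2) k) with hu'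
  have huu' : u * u' = (α + β * γ) • (1 : Matrix (Fin 2) (Fin 2) k) := by
    rw [hu, hu', sub_mul, mul_sub, mul_sub, hprod]
    simp only [Matrix.smul_mul, Matrix.mul_smul, Matrix.one_mul, Matrix.mul_one, smul_smul]
    rw [add_smul]
    abel
  have hcomm_of : u * u' = u' * u → False := by
    intro hc
    apply hgh
    have h1 : gm * hm - hm * gm = u * u' - u' * u := by
      rw [hu, hu']
      simp only [sub_mul, mul_sub, Matrix.smul_mul, Matrix.mul_smul, Matrix.one_mul,
        Matrix.mul_one, smul_smul]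
      rw [mul_comm γ β]
      abel
    rw [hc, sub_self, sub_eq_zero] at h1
    exact h1
  by_cases hc : α + β * γ = 0
  · -- a common eigenvector
    rw [hc, zero_smul] at huu'
    have hu'0 : u' ≠ 0 := by
      intro h0
      apply hcomm_of
      rw [h0, mul_zero, zero_mul]
    have hu0 : u ≠ 0 := by
      intro h0
      apply hcomm_of
      rw [h0, mul_zero, zero_mul]
    obtain ⟨j, hj⟩ := exists_mulVec_single_ne_zero u' hu'0
    set v : Fin 2 → k := u'.mulVec (Pi.single j 1) with hv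
    have huv : u.mulVec v = 0 := by
      rw [hv, Matrix.mulVec_mulVec, huu', Matrix.zero_mulVec]
    have hgv : gm.mulVec v = γ • v := by
      have h1 : u.mulVec v = gm.mulVec v - γ • v := by
        rw [hu, Matrix.sub_mulVec, Matrix.smul_mulVec, Matrix.one_mulVec]
      rw [h1, sub_eq_zero] at huv
      exact huv
    have hhu' : hm * u' = u' * hm := by
      rw [hu']
      simp only [sub_mul, mul_sub, Matrix.smul_mul, Matrix.mul_smul, Matrix.one_mul,
        Matrix.mul_one]
    have huhv : u.mulVec (hm.mulVec v) = 0 := by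
      rw [hv, Matrix.mulVec_mulVec, Matrix.mulVec_mulVec, mul_assoc, hhu',
        ← mul_assoc, huu', Matrix.zero_mul, Matrix.zero_mulVec]
    obtain ⟨c', hc'⟩ := exists_smul_of_ker u hu0 v (hm.mulVec v) hj huv huhv
    have hstable : ∀ x ∈ G, ∃ c : k, (x : Matrix (Fin 2) (Fin 2) k).mulVec v = c • v := by
      intro x hx
      obtain ⟨p, q, r, hx'⟩ := hspan x hx
      refine ⟨p + q * γ + r * c', ?_⟩
      rw [hx', Matrix.add_mulVec, Matrix.add_mulVec, Matrix.smul_mulVec, Matrix.smul_mulVec,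
        Matrix.smul_mulVec, Matrix.one_mulVec, hgv, hc', smul_smul, smul_smul, add_smul,
        add_smul]
    exact hgh (comm_of_stable_line G hss v hj hstable g h hg hh)
  · -- `u` is invertible with inverse a multiple of `u'`
    apply hcomm_of
    have h1 : u * ((α + β * γ)⁻¹ • u') = 1 := by
      rw [Matrix.mul_smul, huu', smul_smul, inv_mul_cancel₀ hc, one_smul]
    have h2 := mul_eq_one_comm.mp h1
    rw [Matrix.smul_mul] at h2
    have h3 : u' * u = (α + β * γ) • ((α + β * γ)⁻¹ • (u' * u)) := by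
      rw [smul_smul, mul_inv_cancel₀ hc, one_smul]
    rw [h3, h2, huu']

/-- In a commutative semisimple group, two elements with the same trace and determinant are
equal or conjugate to each other. -/
theorem eq_or_eq_of_charpoly_eq (G : Subgroup (GL (Fin 2) k)) (hss : IsSemisimple2 G)
    (hab : ∀ g ∈ G, ∀ h ∈ G,
      (g : Matrix (Fin 2) (Fin 2) k) * (h : Matrix (Fin 2) (Fin 2) k) = h * g)
    (g h : GL (Fin 2) k) (hg : g ∈ G) (hh : h ∈ G)
    (htr : (h : Matrix (Fin 2) (Fin 2) k).trace = (g : Matrix (Fin 2) (Fin 2) k).trace)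
    (hdet : (h : Matrix (Fin 2) (Fin 2) k).det = (g : Matrix (Fin 2) (Fin 2) k).det) :
    (h : Matrix (Fin 2) (Fin 2) k) = g ∨
      (h : Matrix (Fin 2) (Fin 2) k) =
        (g : Matrix (Fin 2) (Fin 2) k).trace • (1 : Matrix (Fin 2) (Fin 2) k) - g := by
  set gm : Matrix (Fin 2) (Fin 2) k := (g : Matrix (Fin 2) (Fin 2) k) with hgm
  set hm : Matrix (Fin 2) (Fin 2) k := (h : Matrix (Fin 2) (Fin 2) k) with hhm
  by_contra hcon
  rw [not_or] at hcon
  obtain ⟨hne1, hne2⟩ := hcon
  set u : Matrix (Fin 2) (Fin 2) k := hm - gm with hu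
  set u' : Matrix (Fin 2) (Fin 2) k := hm + gm - gm.trace • (1 : Matrix (Fin 2) (Fin 2) k)
    with hu'
  have hu0 : u ≠ 0 := fun h0 => hne1 (sub_eq_zero.mp h0)
  have hu'0 : u' ≠ 0 := by
    intro h0
    apply hne2
    rw [hu', sub_eq_zero] at h0
    rw [← h0]
    abel
  have hgh : gm * hm = hm * gm := hab g hg h hh
  have huu' : u * u' = 0 := by
    have h1 := cayley_hamilton_two gm
    have h2 := cayley_hamilton_two hm
    rw [htr, hdet] at h2
    rw [hu, hu']
    simp only [sub_mul, mul_sub, mul_add, add_mul, Matrix.smul_mul, Matrix.mul_smul,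
      Matrix.one_mul, Matrix.mul_one]
    rw [h1, h2, hgh]
    abel
  obtain ⟨j, hj⟩ := exists_mulVec_single_ne_zero u' hu'0
  set v : Fin 2 → k := u'.mulVec (Pi.single j 1) with hv
  have huv : u.mulVec v = 0 := by
    rw [hv, Matrix.mulVec_mulVec, huu', Matrix.zero_mulVec]
  have hstable : ∀ x ∈ G, ∃ c : k, (x : Matrix (Fin 2) (Fin 2) k).mulVec v = c • v := by
    intro x hx
    have hxu : u * (x : Matrix (Fin 2) (Fin 2) k) = (x : Matrix (Fin 2) (Fin 2) k) * u := by
      rw [hu, sub_mul, mul_sub, hab h hh x hx, hab g hg x hx]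
    have h1 : u.mulVec ((x : Matrix (Fin 2) (Fin 2) k).mulVec v) = 0 := by
      rw [Matrix.mulVec_mulVec, hxu, ← Matrix.mulVec_mulVec, huv, Matrix.mulVec_zero]
    obtain ⟨c, hc⟩ := exists_smul_of_ker u hu0 v _ hj huv h1
    exact ⟨c, hc⟩
  obtain ⟨w, hvw, hw⟩ := hss v hj hstable
  obtain ⟨b, hb⟩ := hw g hg
  obtain ⟨b', hb'⟩ := hw h hh
  have huw : u.mulVec w = (b' - b) • w := by
    rw [hu, Matrix.sub_mulVec, hb, hb', sub_smul]
  have htru : u.trace = 0 := by
    rw [hu, Matrix.trace_sub, htr, sub_self]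
  have h1 := trace_of_eigenbasis u v w hvw 0 (b' - b) (by rw [huv, zero_smul]) huw
  rw [htru, zero_add] at h1
  rw [← h1, zero_smul] at huw
  exact hu0 (mat_eq_zero_of_pair u v w hvw huv huw)

end Fermat.Agent.S48.H55

end
-- ==== END Fermat.Agent.S48.H55_GroupBoundStr

-- ==== BEGIN Fermat.Agent.S48.H55_IrrFrob
section

/-!
# S48, leaf Irr (helper55): Frobenius elements over the same prime

`frob_conj_mod_inertia` : two Frobenius elements at places of `ℚ̄` over the same prime are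
conjugate modulo inertia (the argument of helper64 in `S56/TWS/H64_Prime.lean`, repeated here on
top of `Lib/InertiaConj` only, to keep the import closure of S48 small).

`frob_value_unique` : a homomorphism to a commutative group which is trivial on the inertia
groups over `p` takes the same value on all Frobenius elements over `p`.
-/

set_option autoImplicit false
set_option linter.style.haveILetI false
set_option linter.unusedSectionVars false

open scoped Pointwise

namespace Fermat.Agent.S48.H55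

open Fermat.Agent.Lib.FrobIntegers Fermat.Agent.Lib.FrobExists
  Fermat.Agent.Lib.InertiaBridge Fermat.Agent.Lib.InertiaConj

local notation "Γℚ" => (AlgebraicClosure ℚ ≃ₐ[ℚ] AlgebraicClosure ℚ)

attribute [local instance] qbar_isAlgebraic qbar_isAlgClosure qbar_isGalois zbar_isInvariant
  zbarTopologicalSpace zbar_discreteTopology zbar_continuousSMul

/-- The Frobenius congruence on elements, from `IsFrobeniusAt`. -/
theorem val_frob_sub_pow_lt_one (A : ValuationSubring (AlgebraicClosure ℚ))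
    (σ : Γℚ) (ℓ : ℕ) (h : A.IsFrobeniusAt σ ℓ)
    (a : AlgebraicClosure ℚ) (ha : a ∈ A) : A.valuation (σ a - a ^ ℓ) < 1 := by
  obtain ⟨hσ, hx⟩ := h
  have h1 := hx (IsLocalRing.residue A ⟨a, ha⟩)
  rw [← IsLocalRing.ResidueField.residue_smul, ← map_pow, ← sub_eq_zero, ← map_sub,
    IsLocalRing.residue_eq_zero_iff, ← ValuationSubring.coe_mem_nonunits_iff,
    A.mem_nonunits_iff] at h1
  exact h1

/-- The Frobenius congruence on algebraic integers. -/
theorem frob_sub_pow_mem_primeUnder (ℓ : ℕ) (A : ValuationSubring (AlgebraicClosure ℚ)) (φ : Γℚ)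
    (hφ : A.IsFrobeniusAt φ ℓ) (b : ZBar) : φ • b - b ^ ℓ ∈ primeUnder A := by
  rw [mem_primeUnder]
  have hb : (b : AlgebraicClosure ℚ) ∈ A :=
    (A.valuation_le_one_iff _).1 (valuation_le_one_of_isIntegral A _ b.2)
  exact val_frob_sub_pow_lt_one A φ ℓ hφ _ hb

/-- Two Frobenius elements at places over the same prime are conjugate modulo inertia. -/
theorem frob_conj_mod_inertia (ℓ : ℕ) (hℓ : ℓ.Prime)
    (A P : ValuationSubring (AlgebraicClosure ℚ)) (hA : A.LiesOverPrime ℓ)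
    (hP : P.LiesOverPrime ℓ) (φ φ' : Γℚ) (hφ : A.IsFrobeniusAt φ ℓ)
    (hφ' : P.IsFrobeniusAt φ' ℓ) :
    ∃ g : Γℚ, (g * φ * g⁻¹)⁻¹ * φ' ∈ P.inertiaSubgroupIn ℚ := by
  obtain ⟨g, hg⟩ := exists_smul_primeUnder ℓ hℓ A P hA hP
  refine ⟨g, ?_⟩
  have hφstab : φ • primeUnder A = primeUnder A :=
    (mem_decompositionSubgroup_iff ℓ hℓ A hA φ).1 hφ.mem_decompositionSubgroup
  set ψ : Γℚ := g * φ * g⁻¹ with hψ
  have hψstab : ψ • primeUnder P = primeUnder P := by
    rw [hg, hψ, mul_smul, mul_smul, inv_smul_smul, hφstab]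
  have hψinv : ψ⁻¹ • primeUnder P = primeUnder P := by
    conv_lhs => rw [← hψstab]
    rw [inv_smul_smul]
  rw [mem_inertiaSubgroupIn_iff ℓ hℓ P hP]
  intro b
  have h1 : φ' • b - b ^ ℓ ∈ primeUnder P := frob_sub_pow_mem_primeUnder ℓ P φ' hφ' b
  have h2 : ψ • b - b ^ ℓ ∈ primeUnder P := by
    have h3 : φ • (g⁻¹ • b) - (g⁻¹ • b) ^ ℓ ∈ primeUnder A :=
      frob_sub_pow_mem_primeUnder ℓ A φ hφ _
    have h4 : g • (φ • (g⁻¹ • b) - (g⁻¹ • b) ^ ℓ) ∈ g • primeUnder A :=
      Ideal.smul_mem_pointwise_smul_iff.2 h3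
    rw [← hg] at h4
    have h5 : g • (φ • (g⁻¹ • b) - (g⁻¹ • b) ^ ℓ) = ψ • b - b ^ ℓ := by
      rw [smul_sub, smul_pow', smul_inv_smul, hψ, mul_smul, mul_smul]
    rw [h5] at h4
    exact h4
  have h6 : φ' • b - ψ • b ∈ primeUnder P := by
    have := (primeUnder P).sub_mem h1 h2
    rwa [sub_sub_sub_cancel_right] at this
  have h7 : ψ⁻¹ • (φ' • b - ψ • b) ∈ ψ⁻¹ • primeUnder P :=
    Ideal.smul_mem_pointwise_smul_iff.2 h6
  rw [hψinv, smul_sub, inv_smul_smul, ← mul_smul] at h7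
  exact h7

/-- A homomorphism to a commutative group which is trivial on inertia over `p` takes the same
value on all Frobenius elements over `p`. -/
theorem frob_value_unique {M : Type} [CommGroup M] (ψ : Γℚ →* M) (p : ℕ) (hp : p.Prime)
    (hunr : ∀ A : ValuationSubring (AlgebraicClosure ℚ), A.LiesOverPrime p →
      ∀ σ ∈ A.inertiaSubgroupIn ℚ, ψ σ = 1)
    (A P : ValuationSubring (AlgebraicClosure ℚ)) (hA : A.LiesOverPrime p)
    (hP : P.LiesOverPrime p) (φ φ' : Γℚ) (hφ : A.IsFrobeniusAt φ p)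
    (hφ' : P.IsFrobeniusAt φ' p) : ψ φ' = ψ φ := by
  obtain ⟨g, hg⟩ := frob_conj_mod_inertia p hp A P hA hP φ φ' hφ hφ'
  have h1 := hunr P hP _ hg
  rw [map_mul, map_inv, inv_mul_eq_one, map_mul, map_mul, map_inv] at h1
  rw [← h1]
  exact mul_inv_cancel_comm _ _

end Fermat.Agent.S48.H55

end
-- ==== END Fermat.Agent.S48.H55_IrrFrob

-- ==== BEGIN Fermat.Agent.S48.H55_Rankin
section

/-!
# S48 leaf C: `Stmt_Rankin`

`∑_{p ∈ T} ‖a_p‖² p^(-s) ≤ log (1/(s-1)) + C` for `1 < s ≤ 2`, `T` any finite set of primes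
not dividing `N`.  Assembly of the local inequality (`local_ineq`), the mean square bound
(`mean_square`), Abel summation (`dirichlet_bound`) and the Euler product (`euler_prod_eq`).
-/

set_option autoImplicit false

open CongruenceSubgroup Filter Topology
open scoped MatrixGroups

namespace Fermat.Agent.S48.H55

open Finset

section Hecke

variable {N : ℕ} [NeZero N] {ε : DirichletCharacter ℂ N} {f : CuspForm (Gamma1 N) 1}

omit [NeZero N] in
lemma norm_eps_eq_one (ε : DirichletCharacter ℂ N) {p : ℕ} (hp : p.Prime) (hpN : ¬ p ∣ N) :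
    ‖ε (p : ZMod N)‖ = 1 := by
  have hu : IsUnit (p : ZMod N) := (ZMod.isUnit_prime_iff_not_dvd hp).mpr hpN
  have := ε.unit_norm_eq_one hu.unit
  simpa using this

lemma qCoeff_pow_rec (hf : IsDSForm N ε f) {p : ℕ} (hp : p.Prime) (hpN : ¬ p ∣ N) (k : ℕ) :
    ModularFormClass.qCoeff f (p ^ (k + 2)) =
      ModularFormClass.qCoeff f p * ModularFormClass.qCoeff f (p ^ (k + 1))
        - ε (p : ZMod N) * ModularFormClass.qCoeff f (p ^ k) := by
  have h := hf.hecke p hp hpN (p ^ (k + 1))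
  have hdvd : p ∣ p ^ (k + 1) := dvd_pow_self p (Nat.succ_ne_zero k)
  have hdiv : p ^ (k + 1) / p = p ^ k := by
    rw [pow_succ, Nat.mul_div_cancel _ hp.pos]
  rw [if_pos hdvd, hdiv] at h
  have e : p * p ^ (k + 1) = p ^ (k + 2) := by ring
  rw [e] at h
  linear_combination h

lemma qCoeff_pow_mul (hf : IsDSForm N ε f) {p : ℕ} (hp : p.Prime) (hpN : ¬ p ∣ N) :
    ∀ (k m : ℕ), ¬ p ∣ m →
      ModularFormClass.qCoeff f (p ^ k * m) =
        ModularFormClass.qCoeff f (p ^ k) * ModularFormClass.qCoeff f m := by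
  intro k m hm
  induction k using Nat.twoStepInduction with
  | zero => simp [hf.one]
  | one =>
      have h := hf.hecke p hp hpN m
      rw [if_neg hm] at h
      simpa using h
  | more k ih0 ih1 =>
      have h := hf.hecke p hp hpN (p ^ (k + 1) * m)
      have hdvd : p ∣ p ^ (k + 1) * m := Dvd.dvd.mul_right (dvd_pow_self p (Nat.succ_ne_zero k)) m
      have hdiv : p ^ (k + 1) * m / p = p ^ k * m := by
        rw [pow_succ, mul_assoc, mul_comm p m, ← mul_assoc, Nat.mul_div_cancel _ hp.pos]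
      rw [if_pos hdvd, hdiv] at h
      have e : p * (p ^ (k + 1) * m) = p ^ (k + 2) * m := by ring
      rw [e, ih0, ih1] at h
      rw [qCoeff_pow_rec hf hp hpN k]
      linear_combination h

end Hecke

lemma one_sub_ge_exp {y : ℝ} (hy0 : 0 ≤ y) (hy1 : y ≤ 1 / 2) : Real.exp (-(2 * y)) ≤ 1 - y := by
  have h1 : 1 + 2 * y ≤ Real.exp (2 * y) := by
    have := Real.add_one_le_exp (2 * y); linarith
  have h2 : 0 < Real.exp (2 * y) := Real.exp_pos _
  rw [Real.exp_neg, inv_le_comm₀ h2 (by linarith)]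
  have h3 : (1 - y)⁻¹ ≤ 1 + 2 * y := by
    rw [inv_le_iff_one_le_mul₀ (by linarith)]
    nlinarith
  linarith

lemma tendsto_expPartial (t : ℝ) :
    Tendsto (fun K : ℕ => ∑ k ∈ Finset.range (K + 1), t ^ k / (k.factorial : ℝ)) atTop
      (𝓝 (Real.exp t)) := by
  have h := (NormedSpace.expSeries_div_hasSum_exp (𝔸 := ℝ) t)
  rw [← Real.exp_eq_exp_ℝ] at h
  exact (tendsto_add_atTop_iff_nat 1).mpr h.tendsto_sum_nat

/-- **Leaf C of S48**: Rankin's bound. -/
theorem stmt_Rankin : Stmt_Rankin := by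
  intro N _ ε f hf
  obtain ⟨C₀, hC₀, hmean₀⟩ := mean_square f
  set C₁ : ℝ := max C₀ 1 with hC₁
  have hC₁1 : 1 ≤ C₁ := le_max_right _ _
  have hmean : ∀ M : ℕ,
      ∑ n ∈ Finset.range (M + 1), ‖ModularFormClass.qCoeff f n‖ ^ 2 ≤ C₁ * (M + 1) := by
    intro M
    refine le_trans (hmean₀ M) ?_
    exact mul_le_mul_of_nonneg_right (le_max_left _ _) (by positivity)
  refine ⟨Real.log (4 * C₁) + 8, fun s hs hs2 T hT => ?_⟩
  have hs1 : 0 < s - 1 := by linarith
  -- notation
  set a : ℕ → ℂ := fun n => ModularFormClass.qCoeff f n with ha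
  set X : ℕ → ℝ := fun p => (p : ℝ) ^ (-s) with hX
  have hXpos : ∀ p ∈ T, 0 < X p := fun p hp =>
    Real.rpow_pos_of_pos (by exact_mod_cast (hT p hp).1.pos) _
  have hXhalf : ∀ p ∈ T, X p ≤ 1 / 2 := by
    intro p hp
    have hp2 : (2 : ℝ) ≤ p := by exact_mod_cast (hT p hp).1.two_le
    have h1 : (p : ℝ) ^ (-s) ≤ (p : ℝ) ^ (-(1:ℝ)) :=
      Real.rpow_le_rpow_of_exponent_le (by linarith) (by linarith)
    have h2 : (p : ℝ) ^ (-(1:ℝ)) = (p : ℝ)⁻¹ := Real.rpow_neg_one _
    have h3 : (p : ℝ)⁻¹ ≤ 1 / 2 := by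
      rw [one_div]; exact inv_anti₀ (by norm_num) hp2
    simp only [hX]; linarith
  -- Dirichlet bound
  have hD : ∀ S : Finset ℕ, (∀ n ∈ S, 0 < n) →
      ∑ n ∈ S, ‖a n‖ ^ 2 * (n : ℝ) ^ (-s) ≤ 4 * C₁ / (s - 1) := fun S hS =>
    dirichlet_bound (fun n => ‖a n‖ ^ 2) (fun n => sq_nonneg _) C₁ (by linarith) hmean hs hs2 S hS
  -- truncated products
  have hK : ∀ K : ℕ,
      ∏ p ∈ T, ((1 - X p ^ 2) * ∑ k ∈ Finset.range (K + 1),
        (‖a p‖ ^ 2 * X p) ^ k / (k.factorial : ℝ)) ≤ 4 * C₁ / (s - 1) := by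
    intro K
    obtain ⟨S, hS, hprod⟩ := euler_prod_eq a hf.one s K T (fun p hp => (hT p hp).1)
      (fun p hp => qCoeff_pow_mul hf (hT p hp).1 (hT p hp).2)
    refine le_trans ?_ (le_trans (le_of_eq hprod) (hD S fun n hn => (hS n hn).1))
    refine Finset.prod_le_prod (fun p hp => ?_) (fun p hp => ?_)
    · have hx := hXhalf p hp
      have hx0 := (hXpos p hp).le
      refine mul_nonneg (by nlinarith) (Finset.sum_nonneg fun k _ => ?_)
      exact div_nonneg (pow_nonneg (mul_nonneg (sq_nonneg _) hx0) k) (Nat.cast_nonneg _)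
    · have hp' := (hT p hp).1
      have hpN := (hT p hp).2
      have := local_ineq (a := a p) (e := ε (p : ZMod N)) (h := fun k => a (p ^ k))
        (norm_eps_eq_one ε hp' hpN) (by simp [ha, hf.one]) (by simp [ha])
        (fun k => qCoeff_pow_rec hf hp' hpN k) (hXpos p hp).le
        (le_trans (hXhalf p hp) (by norm_num)) K
      exact this
  -- limit K → ∞
  have hlim : ∏ p ∈ T, ((1 - X p ^ 2) * Real.exp (‖a p‖ ^ 2 * X p)) ≤ 4 * C₁ / (s - 1) := by
    have ht : Tendsto (fun K : ℕ => ∏ p ∈ T, ((1 - X p ^ 2) *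
        ∑ k ∈ Finset.range (K + 1), (‖a p‖ ^ 2 * X p) ^ k / (k.factorial : ℝ))) atTop
        (𝓝 (∏ p ∈ T, ((1 - X p ^ 2) * Real.exp (‖a p‖ ^ 2 * X p)))) :=
      tendsto_finsetProd T fun p _ => tendsto_const_nhds.mul (tendsto_expPartial _)
    exact le_of_tendsto' ht hK
  rw [Finset.prod_mul_distrib, ← Real.exp_sum] at hlim
  -- lower bound for the product of the `1 - X^2`
  have hsumX : ∑ p ∈ T, X p ^ 2 ≤ 4 := by
    have h1 : ∀ p ∈ T, X p ^ 2 ≤ (1:ℝ) * (p : ℝ) ^ (-(2:ℝ)) := by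
      intro p hp
      have hp1 : (1 : ℝ) ≤ p := by exact_mod_cast (hT p hp).1.one_le
      have hp0 : (0 : ℝ) ≤ p := by linarith
      simp only [hX]
      rw [← Real.rpow_natCast, ← Real.rpow_mul hp0, one_mul]
      exact Real.rpow_le_rpow_of_exponent_le hp1 (by push_cast; linarith)
    have h2 := dirichlet_bound (fun _ => (1:ℝ)) (fun _ => zero_le_one) 1 zero_le_one
      (fun M => by simp) (s := 2) (by norm_num) le_rfl T (fun p hp => (hT p hp).1.pos)
    refine le_trans (Finset.sum_le_sum h1) (le_trans h2 (by norm_num))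
  have hprodX : Real.exp (-8) ≤ ∏ p ∈ T, (1 - X p ^ 2) := by
    have h1 : ∀ p ∈ T, Real.exp (-(2 * X p ^ 2)) ≤ 1 - X p ^ 2 := by
      intro p hp
      have hx := hXhalf p hp
      have hx0 := (hXpos p hp).le
      exact one_sub_ge_exp (sq_nonneg _) (by nlinarith)
    have h2 : ∏ p ∈ T, Real.exp (-(2 * X p ^ 2)) ≤ ∏ p ∈ T, (1 - X p ^ 2) :=
      Finset.prod_le_prod (fun p _ => (Real.exp_pos _).le) h1
    rw [← Real.exp_sum] at h2
    refine le_trans ?_ h2
    rw [Real.exp_le_exp, Finset.sum_neg_distrib, ← Finset.mul_sum]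
    linarith
  -- conclusion
  have hE : 0 < Real.exp (∑ p ∈ T, ‖a p‖ ^ 2 * X p) := Real.exp_pos _
  have h8 : 0 < Real.exp (-8) := Real.exp_pos _
  have hmain : Real.exp (∑ p ∈ T, ‖a p‖ ^ 2 * X p) ≤ 4 * C₁ * Real.exp 8 * (1 / (s - 1)) := by
    have h1 : Real.exp (-8) * Real.exp (∑ p ∈ T, ‖a p‖ ^ 2 * X p) ≤ 4 * C₁ / (s - 1) :=
      le_trans (mul_le_mul_of_nonneg_right hprodX hE.le) hlim
    have h2 : Real.exp 8 * Real.exp (-8) = 1 := by rw [← Real.exp_add]; simp
    calc Real.exp (∑ p ∈ T, ‖a p‖ ^ 2 * X p)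
        = Real.exp 8 * (Real.exp (-8) * Real.exp (∑ p ∈ T, ‖a p‖ ^ 2 * X p)) := by
          rw [← mul_assoc, h2, one_mul]
      _ ≤ Real.exp 8 * (4 * C₁ / (s - 1)) :=
          mul_le_mul_of_nonneg_left h1 (Real.exp_pos _).le
      _ = 4 * C₁ * Real.exp 8 * (1 / (s - 1)) := by ring
  have hlog := Real.log_le_log hE hmain
  rw [Real.log_exp] at hlog
  have h4C : (0 : ℝ) < 4 * C₁ := by linarith
  have hinv : (0 : ℝ) < 1 / (s - 1) := by positivity
  rw [Real.log_mul (by positivity) hinv.ne', Real.log_mul h4C.ne' (Real.exp_pos _).ne',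
    Real.log_exp] at hlog
  have hgoal : ∑ p ∈ T, ‖ModularFormClass.qCoeff f p‖ ^ 2 * (p : ℝ) ^ (-s)
      = ∑ p ∈ T, ‖a p‖ ^ 2 * X p := rfl
  rw [hgoal]
  linarith

end Fermat.Agent.S48.H55

end
-- ==== END Fermat.Agent.S48.H55_Rankin
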