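-- GENERATED (merged mirror, NOTES/tools/trim/merge3_helper67.py): 8 modules of the originals, bodies verbatim.
import Mathlib
import Fermat.Prelude.Def_FLTPrelim_Modularity

-- ==== BEGIN Fermat.Agent.S48.H55_RankinEuler
section

/-!
# S48 leaf C (Rankin), part 4: finite Euler products as finite Dirichlet sums
-/

set_option autoImplicit false

namespace Fermat.Agent.S48.H55

open Finset

lemma pow_mul_injOn {q : ℕ} (hq : q.Prime) {k k' n n' : ℕ} (hn : ¬ q ∣ n) (hn' : ¬ q ∣ n')
    (h : q ^ k * n = q ^ k' * n') : k = k' ∧ n = n' := by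
  have hq0 : 0 < q := hq.pos
  have key : ∀ {k k' n n' : ℕ}, ¬ q ∣ n → ¬ q ∣ n' → k ≤ k' → q ^ k * n = q ^ k' * n' →
      k = k' ∧ n = n' := by
    intro k k' n n' hn _ hkk h
    obtain ⟨d, rfl⟩ := Nat.exists_eq_add_of_le hkk
    rw [pow_add, mul_assoc] at h
    have h2 : n = q ^ d * n' := Nat.eq_of_mul_eq_mul_left (pow_pos hq0 k) h
    rcases d with _ | d
    · simp at h2; exact ⟨rfl, h2⟩
    · exfalso
      apply hn
      rw [h2, pow_succ, mul_assoc, mul_comm (q ^ d), mul_assoc]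
      exact Dvd.intro _ rfl
  rcases le_total k k' with hkk | hkk
  · exact key hn hn' hkk h
  · obtain ⟨h1, h2⟩ := key hn' hn hkk h.symm
    exact ⟨h1.symm, h2.symm⟩

/-- A finite Euler product of truncated local factors is a finite Dirichlet sum. -/
theorem euler_prod_eq (a : ℕ → ℂ) (ha1 : a 1 = 1) (s : ℝ) (K : ℕ) (T : Finset ℕ) :
    (∀ p ∈ T, p.Prime) →
    (∀ p ∈ T, ∀ k m : ℕ, ¬ p ∣ m → a (p ^ k * m) = a (p ^ k) * a m) →
    ∃ S : Finset ℕ, (∀ n ∈ S, 0 < n ∧ ∀ q : ℕ, q.Prime → q ∣ n → q ∈ T) ∧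
      ∏ p ∈ T, ∑ k ∈ range (K + 1), ‖a (p ^ k)‖ ^ 2 * ((p : ℝ) ^ (-s)) ^ k
        = ∑ n ∈ S, ‖a n‖ ^ 2 * (n : ℝ) ^ (-s) := by
  classical
  induction T using Finset.induction_on with
  | empty =>
      intro _ _
      refine ⟨{1}, ?_, ?_⟩
      · intro n hn
        rw [Finset.mem_singleton] at hn
        subst hn
        refine ⟨one_pos, fun q hq hq1 => ?_⟩
        exact absurd (Nat.dvd_one.mp hq1) hq.one_lt.ne'
      · simp [ha1]
  | insert q T hqT ih =>
      intro hprime hmul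
      have hq : q.Prime := hprime q (Finset.mem_insert_self q T)
      obtain ⟨S, hS, hprod⟩ := ih (fun p hp => hprime p (Finset.mem_insert_of_mem hp))
        (fun p hp => hmul p (Finset.mem_insert_of_mem hp))
      have hqS : ∀ n ∈ S, ¬ q ∣ n := by
        intro n hn hdvd
        exact hqT ((hS n hn).2 q hq hdvd)
      refine ⟨(range (K + 1) ×ˢ S).image (fun x => q ^ x.1 * x.2), ?_, ?_⟩
      · intro n hn
        rw [Finset.mem_image] at hn
        obtain ⟨⟨k, m⟩, hkm, rfl⟩ := hn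
        rw [Finset.mem_product] at hkm
        refine ⟨Nat.mul_pos (pow_pos hq.pos k) (hS m hkm.2).1, fun r hr hdvd => ?_⟩
        rcases (Nat.Prime.dvd_mul hr).mp hdvd with h1 | h1
        · have : r = q := (Nat.prime_dvd_prime_iff_eq hr hq).mp (hr.dvd_of_dvd_pow h1)
          rw [this]; exact Finset.mem_insert_self q T
        · exact Finset.mem_insert_of_mem ((hS m hkm.2).2 r hr h1)
      · rw [Finset.prod_insert hqT, hprod, Finset.sum_image]
        · rw [Finset.sum_product, Finset.sum_mul]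
          refine Finset.sum_congr rfl fun k _ => ?_
          rw [Finset.mul_sum]
          refine Finset.sum_congr rfl fun m hm => ?_
          have hmq := hqS m hm
          rw [hmul q (Finset.mem_insert_self q T) k m hmq, norm_mul, mul_pow]
          have hq0 : (0 : ℝ) ≤ q := Nat.cast_nonneg q
          have : ((q ^ k * m : ℕ) : ℝ) ^ (-s) = ((q : ℝ) ^ (-s)) ^ k * (m : ℝ) ^ (-s) := by
            push_cast
            rw [Real.mul_rpow (pow_nonneg hq0 k) (Nat.cast_nonneg m), ← Real.rpow_natCast,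
              ← Real.rpow_natCast, ← Real.rpow_mul hq0, ← Real.rpow_mul hq0, mul_comm (k : ℝ)]
          rw [this]
          ring
        · rintro ⟨k, m⟩ hkm ⟨k', m'⟩ hkm' h
          simp only [Finset.coe_product, Set.mem_prod, Finset.mem_coe] at hkm hkm'
          have h' : q ^ k * m = q ^ k' * m' := h
          obtain ⟨h1, h2⟩ := pow_mul_injOn hq (hqS m hkm.2) (hqS m' hkm'.2) h'
          rw [h1, h2]

end Fermat.Agent.S48.H55

end
-- ==== END Fermat.Agent.S48.H55_RankinEuler

-- ==== BEGIN Fermat.Agent.S48.H55_RankinLocal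
section

/-!
# S48 leaf C (Rankin), part 1: the local inequality

For complex numbers `a, e` with `‖e‖ = 1` and a sequence `h` with
`h 0 = 1`, `h 1 = a`, `h (k+2) = a * h (k+1) - e * h k`, and `0 ≤ X ≤ 1`:

  `(1 - X^2) * ∑_{k ≤ K} (‖a‖^2 X)^k / k!  ≤  ∑_{j ≤ K} ‖h j‖^2 X^j`.

Proof: ballot numbers `c k j` (Clebsch–Gordan multiplicities), `‖a‖^k ≤ ∑_j c k j ‖h j‖`
(triangle inequality), Cauchy–Schwarz, and `∑_j (c k j)^2 ≤ k!`.
-/

set_option autoImplicit false

namespace Fermat.Agent.S48.H55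

open Finset

/-- Ballot numbers: number of nonnegative `±1`-paths of length `k` from `0` to `j`. -/
def ballot : ℕ → ℕ → ℕ
  | 0, j => if j = 0 then 1 else 0
  | (k + 1), j => (if j = 0 then 0 else ballot k (j - 1)) + ballot k (j + 1)

lemma ballot_zero (j : ℕ) : ballot 0 j = if j = 0 then 1 else 0 := rfl

lemma ballot_succ (k j : ℕ) :
    ballot (k + 1) j = (if j = 0 then 0 else ballot k (j - 1)) + ballot k (j + 1) := rfl

lemma ballot_succ_zero (k : ℕ) : ballot (k + 1) 0 = ballot k 1 := by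
  simp [ballot_succ]

lemma ballot_succ_succ (k j : ℕ) : ballot (k + 1) (j + 1) = ballot k j + ballot k (j + 2) := by
  simp [ballot_succ]

lemma ballot_eq_zero_of_lt : ∀ (k j : ℕ), k < j → ballot k j = 0
  | 0, j, h => by
      have : j ≠ 0 := by omega
      simp [ballot_zero, this]
  | (k + 1), j, h => by
      have hj : j ≠ 0 := by omega
      rw [ballot_succ, if_neg hj, ballot_eq_zero_of_lt k (j - 1) (by omega),
        ballot_eq_zero_of_lt k (j + 1) (by omega)]

lemma ballot_eq_zero_of_odd : ∀ (k j : ℕ), (k + j) % 2 = 1 → ballot k j = 0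
  | 0, j, h => by
      have : j ≠ 0 := by rintro rfl; simp at h
      simp [ballot_zero, this]
  | (k + 1), j, h => by
      rw [ballot_succ, ballot_eq_zero_of_odd k (j + 1) (by omega)]
      by_cases hj : j = 0
      · simp [hj]
      · rw [if_neg hj, ballot_eq_zero_of_odd k (j - 1) (by omega)]

/-- `B k = ∑_j (ballot k j)^2` (a Catalan number; we only need `B k ≤ k!`). -/
def ballotSq (k : ℕ) : ℕ := ∑ j ∈ range (k + 1), ballot k j ^ 2

lemma ballotSq_eq_sum_of_le (k m : ℕ) (hm : k + 1 ≤ m) :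
    ballotSq k = ∑ j ∈ range m, ballot k j ^ 2 := by
  unfold ballotSq
  refine Finset.sum_subset (fun x hx => ?_) (fun x _ hx => ?_)
  · simp only [mem_range] at hx ⊢; omega
  · simp only [mem_range, not_lt] at hx
    rw [ballot_eq_zero_of_lt k x (by omega)]; simp

lemma ballotSq_succ_le (k : ℕ) : ballotSq (k + 1) ≤ 4 * ballotSq k := by
  have h1 : ballotSq (k + 1) = ∑ j ∈ range (k + 2), ballot (k + 1) j ^ 2 := rfl
  have hxy : ∀ x y : ℕ, (x + y) ^ 2 ≤ 2 * x ^ 2 + 2 * y ^ 2 := by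
    intro x y
    zify
    nlinarith [sq_nonneg ((x : ℤ) - y)]
  have h2 : ∀ j ∈ range (k + 2), ballot (k + 1) j ^ 2 ≤
      2 * (if j = 0 then 0 else ballot k (j - 1)) ^ 2 + 2 * ballot k (j + 1) ^ 2 := by
    intro j _
    rw [ballot_succ]
    exact hxy _ _
  have h3 : ∑ j ∈ range (k + 2), (if j = 0 then 0 else ballot k (j - 1)) ^ 2 = ballotSq k := by
    rw [Finset.sum_range_succ']
    simp [ballotSq]
  have h4 : ∑ j ∈ range (k + 2), ballot k (j + 1) ^ 2 ≤ ballotSq k := by
    rw [ballotSq_eq_sum_of_le k (k + 3) (by omega), Finset.sum_range_succ' _ (k + 2)]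
    exact Nat.le_add_right _ _
  calc ballotSq (k + 1) = ∑ j ∈ range (k + 2), ballot (k + 1) j ^ 2 := h1
    _ ≤ ∑ j ∈ range (k + 2), (2 * (if j = 0 then 0 else ballot k (j - 1)) ^ 2
          + 2 * ballot k (j + 1) ^ 2) := Finset.sum_le_sum h2
    _ = 2 * ∑ j ∈ range (k + 2), (if j = 0 then 0 else ballot k (j - 1)) ^ 2
          + 2 * ∑ j ∈ range (k + 2), ballot k (j + 1) ^ 2 := by
        rw [Finset.sum_add_distrib, Finset.mul_sum, Finset.mul_sum]
    _ ≤ 2 * ballotSq k + 2 * ballotSq k := by rw [h3]; omega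
    _ = 4 * ballotSq k := by ring

lemma ballotSq_le_factorial : ∀ k : ℕ, ballotSq k ≤ k.factorial
  | 0 => by decide
  | 1 => by decide
  | 2 => by decide
  | 3 => by decide
  | (k + 4) => by
      have h := ballotSq_succ_le (k + 3)
      have ih := ballotSq_le_factorial (k + 3)
      have : (k + 4).factorial = (k + 4) * (k + 3).factorial := Nat.factorial_succ _
      nlinarith

end Fermat.Agent.S48.H55

namespace Fermat.Agent.S48.H55

open Finset

section Local

variable {a e : ℂ} {h : ℕ → ℂ}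

/-- `S k = ∑_j ballot k j * ‖h j‖`. -/
noncomputable def ballotSum (h : ℕ → ℂ) (k : ℕ) : ℝ :=
  ∑ j ∈ range (k + 1), (ballot k j : ℝ) * ‖h j‖

lemma norm_mul_le_shift (he : ‖e‖ = 1) (h1 : h 1 = a * h 0)
    (hrec : ∀ k, h (k + 2) = a * h (k + 1) - e * h k) (j : ℕ) :
    ‖a‖ * ‖h j‖ ≤ ‖h (j + 1)‖ + (if j = 0 then 0 else ‖h (j - 1)‖) := by
  rcases j with _ | j
  · simp [h1]
  · have : a * h (j + 1) = h (j + 2) + e * h j := by rw [hrec j]; ring
    simp only [Nat.succ_ne_zero, if_false, Nat.add_sub_cancel]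
    calc ‖a‖ * ‖h (j + 1)‖ = ‖a * h (j + 1)‖ := (norm_mul _ _).symm
      _ = ‖h (j + 2) + e * h j‖ := by rw [this]
      _ ≤ ‖h (j + 2)‖ + ‖e * h j‖ := norm_add_le _ _
      _ = ‖h (j + 2)‖ + ‖h j‖ := by rw [norm_mul, he, one_mul]

lemma ballotSum_succ_ge (he : ‖e‖ = 1) (h1 : h 1 = a * h 0)
    (hrec : ∀ k, h (k + 2) = a * h (k + 1) - e * h k) (k : ℕ) :
    ‖a‖ * ballotSum h k ≤ ballotSum h (k + 1) := by
  have e1 : ∑ j ∈ range (k + 2), ((if j = 0 then 0 else ballot k (j - 1) : ℕ) : ℝ) * ‖h j‖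
      = ∑ j ∈ range (k + 1), (ballot k j : ℝ) * ‖h (j + 1)‖ := by
    rw [Finset.sum_range_succ' _ (k + 1)]
    simp
  have e2 : ∑ j ∈ range (k + 2), (ballot k (j + 1) : ℝ) * ‖h j‖
      = ∑ j ∈ range (k + 1), (ballot k j : ℝ) * (if j = 0 then 0 else ‖h (j - 1)‖) := by
    rw [Finset.sum_range_succ' _ k, Finset.sum_range_succ _ (k + 1), Finset.sum_range_succ _ k]
    rw [ballot_eq_zero_of_lt k (k + 1) (by omega), ballot_eq_zero_of_lt k (k + 1 + 1) (by omega)]
    simp
  have e3 : ballotSum h (k + 1) = ∑ j ∈ range (k + 1), (ballot k j : ℝ) * ‖h (j + 1)‖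
      + ∑ j ∈ range (k + 1), (ballot k j : ℝ) * (if j = 0 then 0 else ‖h (j - 1)‖) := by
    rw [← e1, ← e2, ← Finset.sum_add_distrib]
    unfold ballotSum
    refine Finset.sum_congr rfl fun j _ => ?_
    rw [ballot_succ]; push_cast; ring
  rw [e3, ← Finset.sum_add_distrib]
  unfold ballotSum
  rw [Finset.mul_sum]
  refine Finset.sum_le_sum fun j _ => ?_
  have := norm_mul_le_shift he h1 hrec j
  have hc : (0 : ℝ) ≤ ballot k j := Nat.cast_nonneg _
  calc ‖a‖ * ((ballot k j : ℝ) * ‖h j‖) = (ballot k j : ℝ) * (‖a‖ * ‖h j‖) := by ring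
    _ ≤ (ballot k j : ℝ) * (‖h (j + 1)‖ + (if j = 0 then 0 else ‖h (j - 1)‖)) :=
        mul_le_mul_of_nonneg_left this hc
    _ = _ := by ring

lemma norm_pow_le_ballotSum (he : ‖e‖ = 1) (h0 : h 0 = 1) (h1 : h 1 = a)
    (hrec : ∀ k, h (k + 2) = a * h (k + 1) - e * h k) (k : ℕ) :
    ‖a‖ ^ k ≤ ballotSum h k := by
  induction k with
  | zero => simp [ballotSum, ballot_zero, h0]
  | succ k ih =>
      have h1' : h 1 = a * h 0 := by rw [h1, h0, mul_one]
      calc ‖a‖ ^ (k + 1) = ‖a‖ * ‖a‖ ^ k := by ring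
        _ ≤ ‖a‖ * ballotSum h k := mul_le_mul_of_nonneg_left ih (norm_nonneg _)
        _ ≤ ballotSum h (k + 1) := ballotSum_succ_ge he h1' hrec k

/-- `U k = ∑_{j ≤ k, j ≡ k (2)} ‖h j‖^2`. -/
noncomputable def paritySum (h : ℕ → ℂ) (k : ℕ) : ℝ :=
  ∑ j ∈ range (k + 1), (if (k + j) % 2 = 0 then ‖h j‖ ^ 2 else 0)

lemma paritySum_nonneg (h : ℕ → ℂ) (k : ℕ) : 0 ≤ paritySum h k := by
  unfold paritySum
  refine Finset.sum_nonneg fun j _ => ?_
  split_ifs <;> positivity

lemma paritySum_zero (h : ℕ → ℂ) : paritySum h 0 = ‖h 0‖ ^ 2 := by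
  simp [paritySum]

lemma paritySum_one (h : ℕ → ℂ) : paritySum h 1 = ‖h 1‖ ^ 2 := by
  simp [paritySum, Finset.sum_range_succ]

lemma paritySum_add_two (h : ℕ → ℂ) (k : ℕ) :
    paritySum h (k + 2) = paritySum h k + ‖h (k + 2)‖ ^ 2 := by
  unfold paritySum
  rw [Finset.sum_range_succ _ (k + 2), Finset.sum_range_succ _ (k + 1)]
  have h1 : (k + 2 + (k + 1)) % 2 = 1 := by omega
  have h2 : (k + 2 + (k + 2)) % 2 = 0 := by omega
  simp only [h1, h2, one_ne_zero, if_false, if_true, add_zero]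
  congr 1
  refine Finset.sum_congr rfl fun j _ => ?_
  have : (k + 2 + j) % 2 = (k + j) % 2 := by omega
  rw [this]

lemma ballotSum_sq_le (h : ℕ → ℂ) (k : ℕ) :
    ballotSum h k ^ 2 ≤ (ballotSq k : ℝ) * paritySum h k := by
  have e1 : ballotSum h k = ∑ j ∈ range (k + 1),
      (ballot k j : ℝ) * (if (k + j) % 2 = 0 then ‖h j‖ else 0) := by
    unfold ballotSum
    refine Finset.sum_congr rfl fun j _ => ?_
    split_ifs with hp
    · rfl
    · rw [ballot_eq_zero_of_odd k j (by omega)]; simp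
  have e2 : paritySum h k = ∑ j ∈ range (k + 1),
      (if (k + j) % 2 = 0 then ‖h j‖ else 0) ^ 2 := by
    unfold paritySum
    refine Finset.sum_congr rfl fun j _ => ?_
    split_ifs <;> simp
  have e3 : (ballotSq k : ℝ) = ∑ j ∈ range (k + 1), (ballot k j : ℝ) ^ 2 := by
    unfold ballotSq; push_cast; rfl
  rw [e1, e2, e3]
  exact Finset.sum_mul_sq_le_sq_mul_sq _ _ _

lemma norm_sq_pow_div_factorial_le (he : ‖e‖ = 1) (h0 : h 0 = 1) (h1 : h 1 = a)
    (hrec : ∀ k, h (k + 2) = a * h (k + 1) - e * h k) (k : ℕ) :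
    (‖a‖ ^ 2) ^ k / (k.factorial : ℝ) ≤ paritySum h k := by
  have hf : (0 : ℝ) < k.factorial := by exact_mod_cast Nat.factorial_pos k
  rw [div_le_iff₀ hf]
  have h1' := norm_pow_le_ballotSum he h0 h1 hrec k
  have h2 := ballotSum_sq_le h k
  have h3 : (ballotSq k : ℝ) ≤ k.factorial := by exact_mod_cast ballotSq_le_factorial k
  have h4 : (‖a‖ ^ k) ^ 2 ≤ ballotSum h k ^ 2 :=
    pow_le_pow_left₀ (by positivity) h1' 2
  calc (‖a‖ ^ 2) ^ k = (‖a‖ ^ k) ^ 2 := by ring
    _ ≤ ballotSum h k ^ 2 := h4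
    _ ≤ (ballotSq k : ℝ) * paritySum h k := h2
    _ ≤ (k.factorial : ℝ) * paritySum h k :=
        mul_le_mul_of_nonneg_right h3 (paritySum_nonneg h k)
    _ = paritySum h k * (k.factorial : ℝ) := by ring

/-- shifted parity sum: `Um 0 = 0`, `Um (K+1) = U K`. -/
noncomputable def paritySumPrev (h : ℕ → ℂ) : ℕ → ℝ
  | 0 => 0
  | (K + 1) => paritySum h K

lemma paritySum_succ_eq (h : ℕ → ℂ) (K : ℕ) :
    paritySum h (K + 1) = paritySumPrev h K + ‖h (K + 1)‖ ^ 2 := by
  rcases K with _ | K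
  · simp [paritySumPrev, paritySum_one]
  · simp [paritySumPrev, paritySum_add_two]

lemma parity_telescope (h : ℕ → ℂ) (X : ℝ) (K : ℕ) :
    ∑ k ∈ range (K + 1), ‖h k‖ ^ 2 * X ^ k
      - (1 - X ^ 2) * ∑ k ∈ range (K + 1), X ^ k * paritySum h k
      = X ^ (K + 2) * paritySum h K + X ^ (K + 1) * paritySumPrev h K := by
  induction K with
  | zero => simp [paritySum_zero, paritySumPrev]; ring
  | succ K ih =>
      rw [Finset.sum_range_succ _ (K + 1), Finset.sum_range_succ (fun k => X ^ k * paritySum h k)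
        (K + 1)]
      have hU := paritySum_succ_eq h K
      have : paritySumPrev h (K + 1) = paritySum h K := rfl
      rw [this]
      have e : ‖h (K + 1)‖ ^ 2 = paritySum h (K + 1) - paritySumPrev h K := by linarith
      rw [e]
      linear_combination ih

lemma paritySumPrev_nonneg (h : ℕ → ℂ) (K : ℕ) : 0 ≤ paritySumPrev h K := by
  rcases K with _ | K
  · simp [paritySumPrev]
  · exact paritySum_nonneg h K

/-- **Local inequality.** -/
theorem local_ineq (he : ‖e‖ = 1) (h0 : h 0 = 1) (h1 : h 1 = a)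
    (hrec : ∀ k, h (k + 2) = a * h (k + 1) - e * h k) {X : ℝ} (hX0 : 0 ≤ X) (hX1 : X ≤ 1)
    (K : ℕ) :
    (1 - X ^ 2) * ∑ k ∈ range (K + 1), (‖a‖ ^ 2 * X) ^ k / (k.factorial : ℝ)
      ≤ ∑ k ∈ range (K + 1), ‖h k‖ ^ 2 * X ^ k := by
  have hX2 : 0 ≤ 1 - X ^ 2 := by nlinarith
  have s1 : ∑ k ∈ range (K + 1), (‖a‖ ^ 2 * X) ^ k / (k.factorial : ℝ)
      ≤ ∑ k ∈ range (K + 1), X ^ k * paritySum h k := by
    refine Finset.sum_le_sum fun k _ => ?_
    have := norm_sq_pow_div_factorial_le he h0 h1 hrec k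
    calc (‖a‖ ^ 2 * X) ^ k / (k.factorial : ℝ)
        = X ^ k * ((‖a‖ ^ 2) ^ k / (k.factorial : ℝ)) := by rw [mul_pow]; ring
      _ ≤ X ^ k * paritySum h k := mul_le_mul_of_nonneg_left this (pow_nonneg hX0 k)
  have s2 := parity_telescope h X K
  have s3 : 0 ≤ X ^ (K + 2) * paritySum h K + X ^ (K + 1) * paritySumPrev h K :=
    add_nonneg (mul_nonneg (pow_nonneg hX0 _) (paritySum_nonneg h K))
      (mul_nonneg (pow_nonneg hX0 _) (paritySumPrev_nonneg h K))
  calc (1 - X ^ 2) * ∑ k ∈ range (K + 1), (‖a‖ ^ 2 * X) ^ k / (k.factorial : ℝ)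
      ≤ (1 - X ^ 2) * ∑ k ∈ range (K + 1), X ^ k * paritySum h k :=
        mul_le_mul_of_nonneg_left s1 hX2
    _ ≤ ∑ k ∈ range (K + 1), ‖h k‖ ^ 2 * X ^ k := by linarith

end Local

end Fermat.Agent.S48.H55

end
-- ==== END Fermat.Agent.S48.H55_RankinLocal

-- ==== BEGIN Fermat.Agent.S48.H55_RankinMean
section

/-!
# S48 leaf C (Rankin), part 2: mean square of the coefficients of a weight one cusp form

`∑_{n ≤ M} ‖a_n‖² ≤ C (M + 1)` by Parseval on horizontal lines and the bound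
`‖f τ‖ ≤ C₀ (im τ)^(-1/2)`.
-/

set_option autoImplicit false

open CongruenceSubgroup UpperHalfPlane ModularFormClass MeasureTheory
open scoped MatrixGroups Real

namespace Fermat.Agent.S48.H55

/-- The restriction of `f` to the horizontal line of height `t`. -/
noncomputable def lineFun {N : ℕ} (f : CuspForm (Gamma1 N) 1) (t : ℝ) (ht : 0 < t) : ℝ → ℂ :=
  fun u => f ⟨(u : ℂ) + t * Complex.I, by simpa using ht⟩

lemma continuous_lineFun {N : ℕ} (f : CuspForm (Gamma1 N) 1) (t : ℝ) (ht : 0 < t) :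
    Continuous (lineFun f t ht) := by
  unfold lineFun
  fun_prop

lemma qCoeff_eq_integral {N : ℕ} [NeZero N] (f : CuspForm (Gamma1 N) 1) (t : ℝ) (ht : 0 < t)
    (n : ℕ) :
    ModularFormClass.qCoeff f n = ∫ (u : ℝ) in (0:ℝ)..1,
        1 / Function.Periodic.qParam 1 (↑u + ↑t * Complex.I) ^ n * lineFun f t ht u := by
  have := ModularFormClass.qExpansion_coeff_eq_intervalIntegral
    (Γ := ((Gamma1 N : Subgroup SL(2,ℤ)) : Subgroup (GL (Fin 2) ℝ))) (k := 1) f one_pos
    (by simp) n ht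
  unfold ModularFormClass.qCoeff
  rw [this]
  simp [lineFun]

lemma one_div_qParam_pow (t u : ℝ) (n : ℕ) :
    1 / Function.Periodic.qParam 1 (↑u + ↑t * Complex.I) ^ n
      = (Real.exp (2 * π * n * t) : ℂ) * Complex.exp (2 * π * Complex.I * (-(n : ℤ) : ℤ) * u / ((1 - 0 : ℝ) : ℂ)) := by
  unfold Function.Periodic.qParam
  rw [one_div, ← Complex.exp_nat_mul, ← Complex.exp_neg, Complex.ofReal_exp, ← Complex.exp_add]
  congr 1
  push_cast
  have : Complex.I * Complex.I = -1 := Complex.I_mul_I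
  linear_combination (-(2 * (π : ℂ) * n * t)) * this

lemma fourierCoeffOn_lineFun {N : ℕ} [NeZero N] (f : CuspForm (Gamma1 N) 1) (t : ℝ) (ht : 0 < t)
    (n : ℕ) :
    (Real.exp (2 * π * n * t) : ℂ) * fourierCoeffOn (zero_lt_one' ℝ) (lineFun f t ht) (n : ℤ)
      = ModularFormClass.qCoeff f n := by
  rw [qCoeff_eq_integral f t ht n, fourierCoeffOn_eq_integral]
  simp only [sub_zero, div_one, one_smul]
  rw [← intervalIntegral.integral_const_mul]
  refine intervalIntegral.integral_congr fun u _ => ?_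
  simp only [smul_eq_mul]
  rw [one_div_qParam_pow, fourier_coe_apply]
  simp only [sub_zero]
  ring

lemma norm_lineFun_le {N : ℕ} [NeZero N] (f : CuspForm (Gamma1 N) 1) :
    ∃ C : ℝ, 0 ≤ C ∧ ∀ (t : ℝ) (ht : 0 < t) (u : ℝ), ‖lineFun f t ht u‖ ^ 2 ≤ C / t := by
  obtain ⟨C, hC⟩ := CuspFormClass.exists_bound (k := 1)
    (Γ := ((Gamma1 N : Subgroup SL(2,ℤ)) : Subgroup (GL (Fin 2) ℝ))) f
  refine ⟨C ^ 2, sq_nonneg _, fun t ht u => ?_⟩
  have h1 := hC ⟨(u : ℂ) + t * Complex.I, by simpa using ht⟩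
  have him : (⟨(u : ℂ) + t * Complex.I, by simpa using ht⟩ : ℍ).im = t := by
    simp [UpperHalfPlane.im]
  rw [him] at h1
  have h2 : ‖lineFun f t ht u‖ ≤ C / t ^ (((1:ℤ):ℝ) / 2) := h1
  have h3 : (t ^ (((1:ℤ):ℝ) / 2)) ^ 2 = t := by
    rw [← Real.rpow_natCast, ← Real.rpow_mul ht.le]
    norm_num
  calc ‖lineFun f t ht u‖ ^ 2 ≤ (C / t ^ (((1:ℤ):ℝ) / 2)) ^ 2 :=
        pow_le_pow_left₀ (norm_nonneg _) h2 2
    _ = C ^ 2 / t := by rw [div_pow, h3]

lemma parseval_le {N : ℕ} [NeZero N] (f : CuspForm (Gamma1 N) 1) :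
    ∃ C : ℝ, 0 ≤ C ∧ ∀ (t : ℝ) (_ht : 0 < t) (M : ℕ),
      ∑ n ∈ Finset.range (M + 1), Real.exp (-(4 * π * n * t)) * ‖ModularFormClass.qCoeff f n‖ ^ 2
        ≤ C / t := by
  obtain ⟨C, hC0, hC⟩ := norm_lineFun_le f
  refine ⟨C, hC0, fun t ht M => ?_⟩
  have hcont := continuous_lineFun f t ht
  have hL2 : MemLp (lineFun f t ht) 2 (volume.restrict (Set.Ioc (0:ℝ) 1)) := by
    refine MemLp.of_bound hcont.aestronglyMeasurable (Real.sqrt (C / t)) ?_
    refine Filter.Eventually.of_forall fun u => ?_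
    have := hC t ht u
    calc ‖lineFun f t ht u‖ = Real.sqrt (‖lineFun f t ht u‖ ^ 2) :=
          (Real.sqrt_sq (norm_nonneg _)).symm
      _ ≤ Real.sqrt (C / t) := Real.sqrt_le_sqrt this
  have hsum := hasSum_sq_fourierCoeffOn (zero_lt_one' ℝ) hL2
  have hint : (1 - 0 : ℝ)⁻¹ • ∫ x in (0:ℝ)..1, ‖lineFun f t ht x‖ ^ 2 ≤ C / t := by
    simp only [sub_zero, inv_one, one_smul]
    have h1 : ∫ x in (0:ℝ)..1, ‖lineFun f t ht x‖ ^ 2 ≤ ∫ _x in (0:ℝ)..1, C / t := by
      refine intervalIntegral.integral_mono_on zero_le_one ?_ ?_ fun x _ => hC t ht x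
      · exact (hcont.norm.pow 2).intervalIntegrable _ _
      · exact continuous_const.intervalIntegrable _ _
    simpa using h1
  have hle := sum_le_hasSum ((Finset.range (M + 1)).map Nat.castEmbedding)
    (fun i _ => sq_nonneg _) hsum
  rw [Finset.sum_map] at hle
  refine le_trans (le_of_eq ?_) (le_trans hle hint)
  refine Finset.sum_congr rfl fun n _ => ?_
  have h1 := fourierCoeffOn_lineFun f t ht n
  simp only [Nat.castEmbedding_apply]
  rw [← h1, norm_mul, mul_pow, Complex.norm_real, Real.norm_eq_abs, abs_of_pos (Real.exp_pos _),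
    ← mul_assoc, ← Real.exp_nat_mul, ← Real.exp_add]
  have : -(4 * π * ↑n * t) + ((2:ℕ) : ℝ) * (2 * π * ↑n * t) = 0 := by push_cast; ring
  rw [this, Real.exp_zero, one_mul]

/-- **Mean square bound.** -/
theorem mean_square {N : ℕ} [NeZero N] (f : CuspForm (Gamma1 N) 1) :
    ∃ C : ℝ, 0 ≤ C ∧ ∀ M : ℕ,
      ∑ n ∈ Finset.range (M + 1), ‖ModularFormClass.qCoeff f n‖ ^ 2 ≤ C * (M + 1) := by
  obtain ⟨C, hC0, hC⟩ := parseval_le f
  refine ⟨Real.exp (4 * π) * C, mul_nonneg (Real.exp_pos _).le hC0, fun M => ?_⟩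
  have hM : (0 : ℝ) < (M : ℝ) + 1 := by positivity
  have h1 := hC (1 / ((M : ℝ) + 1)) (by positivity) M
  have h2 : ∀ n ∈ Finset.range (M + 1),
      Real.exp (-(4 * π)) * ‖ModularFormClass.qCoeff f n‖ ^ 2
        ≤ Real.exp (-(4 * π * n * (1 / ((M : ℝ) + 1)))) * ‖ModularFormClass.qCoeff f n‖ ^ 2 := by
    intro n hn
    refine mul_le_mul_of_nonneg_right ?_ (sq_nonneg _)
    rw [Real.exp_le_exp]
    have hn' : (n : ℝ) ≤ M := by
      have := Finset.mem_range.mp hn
      exact_mod_cast Nat.lt_succ_iff.mp this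
    have : (n : ℝ) * (1 / ((M : ℝ) + 1)) ≤ 1 := by
      rw [mul_one_div, div_le_one hM]; linarith
    have hpi : 0 < 4 * π := by positivity
    nlinarith
  have h3 : Real.exp (-(4 * π)) * ∑ n ∈ Finset.range (M + 1), ‖ModularFormClass.qCoeff f n‖ ^ 2
      ≤ C / (1 / ((M : ℝ) + 1)) := by
    rw [Finset.mul_sum]
    exact le_trans (Finset.sum_le_sum h2) h1
  have h4 : C / (1 / ((M : ℝ) + 1)) = C * (M + 1) := by field_simp
  rw [h4] at h3
  have h5 : Real.exp (4 * π) * Real.exp (-(4 * π)) = 1 := by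
    rw [← Real.exp_add]; simp
  calc ∑ n ∈ Finset.range (M + 1), ‖ModularFormClass.qCoeff f n‖ ^ 2
      = Real.exp (4 * π) * (Real.exp (-(4 * π)) *
          ∑ n ∈ Finset.range (M + 1), ‖ModularFormClass.qCoeff f n‖ ^ 2) := by
        rw [← mul_assoc, h5, one_mul]
    _ ≤ Real.exp (4 * π) * (C * (M + 1)) :=
        mul_le_mul_of_nonneg_left h3 (Real.exp_pos _).le
    _ = Real.exp (4 * π) * C * (M + 1) := by ring

end Fermat.Agent.S48.H55

end
-- ==== END Fermat.Agent.S48.H55_RankinMean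

-- ==== BEGIN Fermat.Agent.S48.H78_LiftRank
section

/-!
# S48 leaf F (`Stmt_Lift`), part 2: the rank of a scaled idempotent matrix is preserved by
reduction

`rank_map_eq_of_sq` : if `M * M = c • M` over a commutative ring `S`, `ι : S →+* K` is injective
and `φ : S →+* k` with `ι c ≠ 0`, `φ c ≠ 0` (`K`, `k` fields), then
`(M.map ι).rank = (M.map φ).rank`.  (Proof: the multiplicity of `0` as a root of the
characteristic polynomial, for `M` and for `c - M`.)
-/

set_option autoImplicit false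

open Matrix Polynomial

namespace Fermat.Agent.S48.H78

section field

variable {K : Type*} [Field K] {N : Type*} [Fintype N] [DecidableEq N]

lemma maxGenEigenspace_zero_of_sq {V : Type*} [AddCommGroup V] [Module K V]
    (f : Module.End K V) (c : K) (hc : c ≠ 0) (hf : f * f = c • f) :
    f.maxGenEigenspace 0 = LinearMap.ker f := by
  have hpow : ∀ j : ℕ, f ^ (j + 1) = c ^ j • f := by
    intro j
    induction j with
    | zero => simp
    | succ j ih => rw [pow_succ, ih, smul_mul_assoc, hf, smul_smul, pow_succ]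
  ext x
  rw [Module.End.mem_maxGenEigenspace, LinearMap.mem_ker]
  constructor
  · rintro ⟨j, hj⟩
    simp only [zero_smul, sub_zero] at hj
    rcases j with _ | j
    · simp only [pow_zero, Module.End.one_apply] at hj
      rw [hj, map_zero]
    · rw [hpow, LinearMap.smul_apply] at hj
      exact (smul_eq_zero.mp hj).resolve_left (pow_ne_zero _ hc)
  · intro hx
    exact ⟨1, by simpa using hx⟩

/-- For a scaled idempotent matrix over a field, the multiplicity of `0` in the characteristic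
polynomial is the dimension of the kernel. -/
lemma natTrailingDegree_charpoly_of_sq (A : Matrix N N K) (c : K) (hc : c ≠ 0)
    (hA : A * A = c • A) :
    A.charpoly.natTrailingDegree + A.rank = Fintype.card N := by
  have h1 : Module.End.maxGenEigenspace (A.mulVecLin : Module.End K (N → K)) 0 =
      LinearMap.ker A.mulVecLin := by
    apply maxGenEigenspace_zero_of_sq _ c hc
    rw [Module.End.mul_eq_comp, ← Matrix.mulVecLin_mul, hA]
    ext v
    simp [Matrix.smul_mulVec]
  have h2 := LinearMap.finrank_maxGenEigenspace_zero_eq (A.mulVecLin : Module.End K (N → K))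
  rw [h1, Matrix.charpoly_mulVecLin] at h2
  have h3 := LinearMap.finrank_range_add_finrank_ker A.mulVecLin
  rw [Module.finrank_fintype_fun_eq_card] at h3
  rw [← h2, Matrix.rank, ← h3, add_comm]

lemma rank_compl_of_sq (A : Matrix N N K) (c : K) (hc : c ≠ 0) (hA : A * A = c • A) :
    (c • (1 : Matrix N N K) - A).rank + A.rank = Fintype.card N := by
  have h3 := LinearMap.finrank_range_add_finrank_ker (c • (1 : Matrix N N K) - A).mulVecLin
  rw [Module.finrank_fintype_fun_eq_card] at h3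
  have hker : LinearMap.ker (c • (1 : Matrix N N K) - A).mulVecLin =
      LinearMap.range A.mulVecLin := by
    ext v
    simp only [LinearMap.mem_ker, Matrix.mulVecLin_apply, LinearMap.mem_range]
    constructor
    · intro hv
      refine ⟨c⁻¹ • v, ?_⟩
      rw [Matrix.sub_mulVec, Matrix.smul_mulVec, Matrix.one_mulVec, sub_eq_zero] at hv
      rw [Matrix.mulVec_smul, ← hv, smul_smul, inv_mul_cancel₀ hc, one_smul]
    · rintro ⟨w, rfl⟩
      rw [Matrix.mulVec_mulVec, Matrix.sub_mul, Matrix.smul_mul, Matrix.one_mul, hA, sub_self,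
        Matrix.zero_mulVec]
  rw [hker] at h3
  rw [Matrix.rank, Matrix.rank, h3]

lemma sq_compl_of_sq (A : Matrix N N K) (c : K) (hA : A * A = c • A) :
    (c • (1 : Matrix N N K) - A) * (c • (1 : Matrix N N K) - A) =
      c • (c • (1 : Matrix N N K) - A) := by
  rw [Matrix.sub_mul, Matrix.mul_sub, Matrix.mul_sub, hA]
  simp only [Matrix.smul_mul, Matrix.mul_smul, Matrix.one_mul, Matrix.mul_one, smul_sub]
  abel

end field

section ring

variable {S : Type*} [CommRing S] {K k : Type*} [Field K] [Field k]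
  {N : Type*} [Fintype N] [DecidableEq N]

lemma natTrailingDegree_charpoly_map_le (M : Matrix N N S) (ι : S →+* K)
    (hι : Function.Injective ι) (φ : S →+* k) :
    (M.map ι).charpoly.natTrailingDegree ≤ (M.map φ).charpoly.natTrailingDegree := by
  rw [Matrix.charpoly_map, Matrix.charpoly_map]
  have hne : (M.charpoly.map φ) ≠ 0 := ((Matrix.charpoly_monic M).map φ).ne_zero
  apply Polynomial.le_natTrailingDegree hne
  intro m hm
  rw [Polynomial.coeff_map]
  have : M.charpoly.coeff m = 0 := by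
    have h0 : (M.charpoly.map ι).coeff m = 0 :=
      Polynomial.coeff_eq_zero_of_lt_natTrailingDegree hm
    rw [Polynomial.coeff_map] at h0
    exact hι (by rw [h0, map_zero])
  rw [this, map_zero]

lemma rank_map_le_of_sq (M : Matrix N N S) (c : S) (hM : M * M = c • M) (ι : S →+* K)
    (hι : Function.Injective ι) (φ : S →+* k) (hcK : ι c ≠ 0) (hck : φ c ≠ 0) :
    (M.map φ).rank ≤ (M.map ι).rank := by
  have hK : (M.map ι) * (M.map ι) = ι c • (M.map ι) := by
    rw [← Matrix.map_mul, hM]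
    ext i j; simp [Matrix.map_apply]
  have hk : (M.map φ) * (M.map φ) = φ c • (M.map φ) := by
    rw [← Matrix.map_mul, hM]
    ext i j; simp [Matrix.map_apply]
  have h1 := natTrailingDegree_charpoly_of_sq (M.map ι) (ι c) hcK hK
  have h2 := natTrailingDegree_charpoly_of_sq (M.map φ) (φ c) hck hk
  have h3 := natTrailingDegree_charpoly_map_le M ι hι φ
  omega

/-- The rank of a scaled idempotent matrix is preserved by reduction. -/
theorem rank_map_eq_of_sq (M : Matrix N N S) (c : S) (hM : M * M = c • M) (ι : S →+* K)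
    (hι : Function.Injective ι) (φ : S →+* k) (hcK : ι c ≠ 0) (hck : φ c ≠ 0) :
    (M.map ι).rank = (M.map φ).rank := by
  apply le_antisymm
  · -- use the complementary matrix
    set M' : Matrix N N S := c • (1 : Matrix N N S) - M with hM'
    have hM'sq : M' * M' = c • M' := by
      rw [hM', Matrix.sub_mul, Matrix.mul_sub, Matrix.mul_sub, hM]
      simp only [Matrix.smul_mul, Matrix.mul_smul, Matrix.one_mul, Matrix.mul_one, smul_sub]
      abel
    have hle := rank_map_le_of_sq M' c hM'sq ι hι φ hcK hck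
    have hK : (M.map ι) * (M.map ι) = ι c • (M.map ι) := by
      rw [← Matrix.map_mul, hM]
      ext i j; simp [Matrix.map_apply]
    have hk : (M.map φ) * (M.map φ) = φ c • (M.map φ) := by
      rw [← Matrix.map_mul, hM]
      ext i j; simp [Matrix.map_apply]
    have e1 : M'.map ι = ι c • (1 : Matrix N N K) - M.map ι := by
      ext i j
      simp [hM', Matrix.map_apply, Matrix.sub_apply, Matrix.smul_apply, Matrix.one_apply,
        apply_ite]
    have e2 : M'.map φ = φ c • (1 : Matrix N N k) - M.map φ := by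
      ext i j
      simp [hM', Matrix.map_apply, Matrix.sub_apply, Matrix.smul_apply, Matrix.one_apply,
        apply_ite]
    have h1 := rank_compl_of_sq (M.map ι) (ι c) hcK hK
    have h2 := rank_compl_of_sq (M.map φ) (φ c) hck hk
    rw [e1, e2] at hle
    omega
  · exact rank_map_le_of_sq M c hM ι hι φ hcK hck

end ring

end Fermat.Agent.S48.H78

end
-- ==== END Fermat.Agent.S48.H78_LiftRank

-- ==== BEGIN Fermat.Agent.S48.H78_LiftSchur
section

/-!
# S48 leaf F (`Stmt_Lift`), part 1: Schur orthogonality by finite sums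

For a finite group `G`, a field `F` and a matrix representation `ρ : G →* Matrix ι ι F` with the
*Schur property* (every matrix commuting with all `ρ g` is a scalar), we prove by plain finite
sums:

* `schur_orth`     : `|ι| * ∑ g, ρ g a b * ρ g⁻¹ c e = if a = e ∧ b = c then |G| else 0`;
* `schur_fe`       : `|ι| * ∑ h, tr ρ (h g h⁻¹ x) = |G| * tr ρ g * tr ρ x`;
* `rank_charMat`   : the matrix `(tr ρ (g⁻¹ h))_{g,h}` has rank `|ι|²` (if `|ι| |G| ≠ 0` in `F`).
-/

set_option autoImplicit false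

open Matrix

namespace Fermat.Agent.S48.H78

variable {F : Type*} [Field F] {G : Type*} [Group G] [Fintype G]
  {ι : Type*} [Fintype ι] [DecidableEq ι]

/-- Schur property: the commutant of `ρ` consists of scalar matrices. -/
def SchurProp (ρ : G →* Matrix ι ι F) : Prop :=
  ∀ A : Matrix ι ι F, (∀ g, A * ρ g = ρ g * A) → ∃ c : F, A = c • (1 : Matrix ι ι F)

lemma rho_mul_inv (ρ : G →* Matrix ι ι F) (g : G) : ρ g * ρ g⁻¹ = 1 := by
  rw [← map_mul, mul_inv_cancel, map_one]

lemma rho_inv_mul (ρ : G →* Matrix ι ι F) (g : G) : ρ g⁻¹ * ρ g = 1 := by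
  rw [← map_mul, inv_mul_cancel, map_one]

lemma mul_single_mul_apply {κ : Type*} [Fintype κ] [DecidableEq κ]
    (A : Matrix ι ι F) (B : Matrix κ κ F) (a b : ι) (c e : κ) :
    (A * Matrix.single b c (1 : F) * B) a e = A a b * B c e := by
  rw [Matrix.mul_apply]
  simp only [Matrix.mul_apply, Matrix.single_apply]
  rw [Finset.sum_eq_single c]
  · rw [Finset.sum_eq_single b]
    · simp
    · intro x _ hx; simp [Ne.symm hx]
    · simp
  · intro x _ hx
    have : ∀ x_1, ¬ (b = x_1 ∧ c = x) := fun x_1 h => hx h.2.symm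
    simp [this]
  · simp

/-- The average `∑ g, ρ g * B * ρ' g⁻¹` intertwines. -/
lemma avg_intertwine {κ : Type*} [Fintype κ] [DecidableEq κ]
    (ρ : G →* Matrix ι ι F) (ρ' : G →* Matrix κ κ F) (B : Matrix ι κ F) (h : G) :
    ρ h * (∑ g, ρ g * B * ρ' g⁻¹) = (∑ g, ρ g * B * ρ' g⁻¹) * ρ' h := by
  rw [Matrix.mul_sum, Matrix.sum_mul]
  refine Fintype.sum_equiv (Equiv.mulLeft h) _ _ (fun g => ?_)
  simp only [Equiv.coe_mulLeft]
  have : ρ' (h * g)⁻¹ * ρ' h = ρ' g⁻¹ := by
    rw [← map_mul]; congr 1; group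
  rw [Matrix.mul_assoc (ρ (h * g) * B), this, map_mul]
  simp only [Matrix.mul_assoc]

/-- Schur orthogonality of matrix coefficients. -/
theorem schur_orth (ρ : G →* Matrix ι ι F) (hS : SchurProp ρ) (a b c e : ι) :
    (Fintype.card ι : F) * ∑ g, ρ g a b * ρ g⁻¹ c e =
      if a = e ∧ b = c then (Fintype.card G : F) else 0 := by
  set T : Matrix ι ι F := ∑ g, ρ g * Matrix.single b c (1 : F) * ρ g⁻¹ with hT
  obtain ⟨t, ht⟩ := hS T (fun g => (avg_intertwine ρ ρ (Matrix.single b c (1 : F)) g).symm)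
  have hentry : T a e = ∑ g, ρ g a b * ρ g⁻¹ c e := by
    rw [hT, Matrix.sum_apply]
    exact Finset.sum_congr rfl (fun g _ => mul_single_mul_apply _ _ _ _ _ _)
  have htr : T.trace = if b = c then (Fintype.card G : F) else 0 := by
    rw [hT, Matrix.trace_sum]
    have : ∀ g : G, (ρ g * Matrix.single b c (1 : F) * ρ g⁻¹).trace =
        (Matrix.single b c (1 : F)).trace := by
      intro g
      rw [Matrix.trace_mul_cycle, rho_inv_mul, Matrix.one_mul]
    simp only [this, Finset.sum_const, Finset.card_univ, nsmul_eq_mul]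
    by_cases hbc : b = c
    · subst hbc; simp
    · simp [hbc, Matrix.trace_single_eq_of_ne _ _ _ hbc]
  have htr2 : T.trace = t * (Fintype.card ι : F) := by
    rw [ht]; simp [Matrix.trace_smul, Matrix.trace_one]
  rw [← hentry, ht]
  simp only [Matrix.smul_apply, Matrix.one_apply, smul_eq_mul]
  by_cases hae : a = e
  · subst hae
    simp only [if_true, mul_one, true_and]
    rw [mul_comm, ← htr2, htr]
  · simp [hae]

/-- Orthogonality between two representations separated by an element of the group algebra. -/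
theorem schur_orth_two {κ : Type*} [Fintype κ] [DecidableEq κ]
    (ρ : G →* Matrix ι ι F) (ρ' : G →* Matrix κ κ F) (y : G → F)
    (hy : ∑ g, y g • ρ g = 1) (hy' : ∑ g, y g • ρ' g = 0) (a b : ι) (c e : κ) :
    ∑ g, ρ g a b * ρ' g⁻¹ c e = 0 := by
  set T : Matrix ι κ F := ∑ g, ρ g * Matrix.single b c (1 : F) * ρ' g⁻¹ with hT
  have hentry : T a e = ∑ g, ρ g a b * ρ' g⁻¹ c e := by
    rw [hT, Matrix.sum_apply]
    exact Finset.sum_congr rfl (fun g _ => mul_single_mul_apply _ _ _ _ _ _)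
  have h1 : (∑ g, y g • ρ g) * T = T * (∑ g, y g • ρ' g) := by
    rw [Matrix.sum_mul, Matrix.mul_sum]
    refine Finset.sum_congr rfl (fun g _ => ?_)
    rw [Matrix.smul_mul, Matrix.mul_smul, hT, avg_intertwine]
  rw [hy, hy', Matrix.one_mul, Matrix.mul_zero] at h1
  rw [← hentry, h1]; rfl

/-- The character of a matrix representation. -/
def chr (ρ : G →* Matrix ι ι F) (g : G) : F := (ρ g).trace

lemma chr_conj (ρ : G →* Matrix ι ι F) (h x : G) : chr ρ (h * x * h⁻¹) = chr ρ x := by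
  unfold chr
  rw [map_mul, map_mul, Matrix.trace_mul_cycle, rho_inv_mul, Matrix.one_mul]

lemma chr_comm (ρ : G →* Matrix ι ι F) (x y : G) : chr ρ (x * y) = chr ρ (y * x) := by
  unfold chr
  rw [map_mul, map_mul, Matrix.trace_mul_comm]

lemma chr_one (ρ : G →* Matrix ι ι F) : chr ρ 1 = (Fintype.card ι : F) := by
  unfold chr
  rw [map_one, Matrix.trace_one]

/-- The functional equation of an irreducible character. -/
theorem schur_fe (ρ : G →* Matrix ι ι F) (hS : SchurProp ρ) (g x : G) :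
    (Fintype.card ι : F) * ∑ h, chr ρ (h * g * h⁻¹ * x) =
      (Fintype.card G : F) * chr ρ g * chr ρ x := by
  set T : Matrix ι ι F := ∑ h, ρ (h * g * h⁻¹) with hT
  have hcomm : ∀ u, T * ρ u = ρ u * T := by
    intro u
    rw [hT, Matrix.sum_mul, Matrix.mul_sum]
    refine (Fintype.sum_equiv (Equiv.mulLeft u) _ _ (fun h => ?_)).symm
    simp only [Equiv.coe_mulLeft]
    rw [← map_mul, ← map_mul]; congr 1; group
  obtain ⟨t, ht⟩ := hS T hcomm
  have htr : T.trace = (Fintype.card G : F) * chr ρ g := by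
    rw [hT, Matrix.trace_sum]
    have : ∀ h : G, (ρ (h * g * h⁻¹)).trace = chr ρ g := fun h => chr_conj ρ h g
    simp only [this, Finset.sum_const, Finset.card_univ, nsmul_eq_mul]
  have htr2 : T.trace = t * (Fintype.card ι : F) := by
    rw [ht]; simp [Matrix.trace_smul, Matrix.trace_one]
  have hsum : ∑ h, chr ρ (h * g * h⁻¹ * x) = (T * ρ x).trace := by
    rw [hT, Matrix.sum_mul, Matrix.trace_sum]
    refine Finset.sum_congr rfl (fun h _ => ?_)
    unfold chr; rw [map_mul]
  rw [hsum, ht, Matrix.smul_mul, Matrix.one_mul, Matrix.trace_smul, smul_eq_mul]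
  have : chr ρ x = (ρ x).trace := rfl
  rw [this, ← mul_assoc, mul_comm _ t, ← htr2, htr]

/-- The character matrix `(χ (g⁻¹ h))_{g,h}`. -/
def charMat (ρ : G →* Matrix ι ι F) : Matrix G G F := fun g h => chr ρ (g⁻¹ * h)

/-- First factor of the character matrix. -/
def matU (ρ : G →* Matrix ι ι F) : Matrix G (ι × ι) F := fun g p => ρ g⁻¹ p.2 p.1

/-- Second factor of the character matrix. -/
def matV (ρ : G →* Matrix ι ι F) : Matrix (ι × ι) G F := fun p h => ρ h p.1 p.2

lemma matU_mul_matV (ρ : G →* Matrix ι ι F) : matU ρ * matV ρ = charMat ρ := by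
  ext g h
  rw [Matrix.mul_apply, Fintype.sum_prod_type, Finset.sum_comm]
  simp only [matU, matV, charMat, chr, map_mul, Matrix.trace, Matrix.diag_apply, Matrix.mul_apply]

lemma matV_mul_matU [DecidableEq G] (ρ : G →* Matrix ι ι F) (hS : SchurProp ρ) :
    (Fintype.card ι : F) • (matV ρ * matU ρ) = (Fintype.card G : F) • (1 : Matrix (ι × ι) (ι × ι) F) := by
  ext ⟨a, b⟩ ⟨c, e⟩
  simp only [Matrix.smul_apply, Matrix.mul_apply, matU, matV, smul_eq_mul, Matrix.one_apply,
    Prod.mk.injEq]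
  rw [schur_orth ρ hS a b e c]
  simp [eq_comm]

/-- The character matrix of a Schur representation has rank `|ι|²`. -/
theorem rank_charMat [DecidableEq G] (ρ : G →* Matrix ι ι F) (hS : SchurProp ρ)
    (hd : (Fintype.card ι : F) ≠ 0) (hn : (Fintype.card G : F) ≠ 0) :
    (charMat ρ).rank = Fintype.card ι * Fintype.card ι := by
  apply le_antisymm
  · rw [← matU_mul_matV]
    refine (Matrix.rank_mul_le_left _ _).trans ?_
    refine (Matrix.rank_le_card_width _).trans ?_
    rw [Fintype.card_prod]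
  · have hVU : matV ρ * matU ρ =
        ((Fintype.card ι : F)⁻¹ * (Fintype.card G : F)) • (1 : Matrix (ι × ι) (ι × ι) F) := by
      have := matV_mul_matU ρ hS
      rw [mul_smul, ← this, smul_smul, inv_mul_cancel₀ hd, one_smul]
    set c : F := (Fintype.card ι : F)⁻¹ * (Fintype.card G : F) with hc
    have hc0 : c ≠ 0 := mul_ne_zero (inv_ne_zero hd) hn
    have h1 : matV ρ * (charMat ρ * matU ρ) = (c * c) • (1 : Matrix (ι × ι) (ι × ι) F) := by
      rw [← matU_mul_matV, Matrix.mul_assoc, ← Matrix.mul_assoc, hVU]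
      simp [Matrix.smul_mul, smul_smul]
    have h2 : ((c * c) • (1 : Matrix (ι × ι) (ι × ι) F)).rank = Fintype.card (ι × ι) := by
      apply Matrix.rank_of_isUnit
      rw [Matrix.isUnit_iff_isUnit_det, Matrix.det_smul, Matrix.det_one, mul_one]
      exact (IsUnit.mk0 _ (mul_ne_zero hc0 hc0)).pow _
    rw [← Fintype.card_prod, ← h2, ← h1]
    exact (Matrix.rank_mul_le_right _ _).trans (Matrix.rank_mul_le_left _ _)

end Fermat.Agent.S48.H78

end
-- ==== END Fermat.Agent.S48.H78_LiftSchur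

-- ==== BEGIN Fermat.Agent.S48.Int.H55_IntAlg
section

/-!
# S48, leaf A: the algebraic core of (i), (ii) (helper55)

If all `a n` lie in a finitely generated subgroup `Λ` of `ℂ` which is stable under multiplication by
the `e p`, `a 1 = 1`, and `a (p n) + e p · [p ∣ n] a (n / p) = a p · a n` for all `p ∈ P`, then every
`a p` (`p ∈ P`) is an algebraic integer and the field generated by the `a p` is a number field.
-/

set_option autoImplicit false

namespace Fermat.Agent.S48.Int.H55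

/-- All monomials in the `a p` lie in `Λ`. -/
theorem closure_le_of_rel (Λ : Submodule ℤ ℂ) (a e : ℕ → ℂ) (P : Set ℕ)
    (h1 : a 1 = 1) (ha : ∀ n, a n ∈ Λ) (he : ∀ p ∈ P, ∀ x ∈ Λ, e p * x ∈ Λ)
    (hrel : ∀ p ∈ P, ∀ n : ℕ,
      a (p * n) + e p * (if p ∣ n then a (n / p) else 0) = a p * a n) :
    ∀ x ∈ Submonoid.closure {x : ℂ | ∃ p ∈ P, x = a p}, x ∈ Λ := by
  have key : ∀ x ∈ Submonoid.closure {x : ℂ | ∃ p ∈ P, x = a p},
      ∀ y : ℂ, (∀ n, y * a n ∈ Λ) → ∀ n, x * y * a n ∈ Λ := by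
    intro x hx
    induction hx using Submonoid.closure_induction with
    | mem x hx =>
      obtain ⟨p, hp, rfl⟩ := hx
      intro y hy n
      have h : a p * y * a n = y * a (p * n) +
          e p * (y * (if p ∣ n then a (n / p) else 0)) := by
        rw [mul_comm (a p) y, mul_assoc, ← hrel p hp n]
        ring
      rw [h]
      refine Λ.add_mem (hy _) (he p hp _ ?_)
      split_ifs
      · exact hy _
      · rw [mul_zero]; exact Λ.zero_mem
    | one => intro y hy n; simpa using hy n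
    | mul x y _ _ hx hy =>
      intro z hz n
      have h2 := hx (y * z) (fun m => hy z hz m) n
      rwa [← mul_assoc] at h2
  intro x hx
  have := key x hx 1 (fun n => by simpa using ha n) 1
  rwa [h1, mul_one, mul_one] at this

/-- **Algebraic core**, integrality. -/
theorem isIntegral_of_rel (Λ : Submodule ℤ ℂ) (hΛ : Λ.FG) (a e : ℕ → ℂ) (P : Set ℕ)
    (h1 : a 1 = 1) (ha : ∀ n, a n ∈ Λ) (he : ∀ p ∈ P, ∀ x ∈ Λ, e p * x ∈ Λ)
    (hrel : ∀ p ∈ P, ∀ n : ℕ,
      a (p * n) + e p * (if p ∣ n then a (n / p) else 0) = a p * a n)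
    (p : ℕ) (hp : p ∈ P) : IsIntegral ℤ (a p) := by
  set T : Set ℂ := {x : ℂ | ∃ p ∈ P, x = a p} with hT
  have hle : (Algebra.adjoin ℤ T).toSubmodule ≤ Λ := by
    rw [Algebra.adjoin_eq_span, Submodule.span_le]
    exact fun x hx => closure_le_of_rel Λ a e P h1 ha he hrel x hx
  have hfg : (Algebra.adjoin ℤ T).toSubmodule.FG := hΛ.of_le hle
  exact IsIntegral.of_mem_of_fg (Algebra.adjoin ℤ T) hfg (a p)
    (Algebra.subset_adjoin ⟨p, hp, rfl⟩)

/-- **Algebraic core**, finiteness. -/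
theorem finiteDimensional_of_rel (Λ : Submodule ℤ ℂ) (hΛ : Λ.FG) (a e : ℕ → ℂ) (P : Set ℕ)
    (h1 : a 1 = 1) (ha : ∀ n, a n ∈ Λ) (he : ∀ p ∈ P, ∀ x ∈ Λ, e p * x ∈ Λ)
    (hrel : ∀ p ∈ P, ∀ n : ℕ,
      a (p * n) + e p * (if p ∣ n then a (n / p) else 0) = a p * a n) :
    FiniteDimensional ℚ (IntermediateField.adjoin ℚ {x : ℂ | ∃ p ∈ P, x = a p}) := by
  set T : Set ℂ := {x : ℂ | ∃ p ∈ P, x = a p} with hT
  have halg : ∀ x ∈ T, IsAlgebraic ℚ x := by
    rintro x ⟨p, hp, rfl⟩
    have hint := isIntegral_of_rel Λ hΛ a e P h1 ha he hrel p hp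
    exact (IsFractionRing.isAlgebraic_iff ℤ ℚ ℂ).1 hint.isAlgebraic
  have heq : (IntermediateField.adjoin ℚ T).toSubalgebra = Algebra.adjoin ℚ T :=
    IntermediateField.adjoin_toSubalgebra_of_isAlgebraic halg
  -- the `ℚ`-span of `Λ`
  obtain ⟨s, hs⟩ := hΛ
  have hle : (Algebra.adjoin ℚ T).toSubmodule ≤ Submodule.span ℚ (s : Set ℂ) := by
    rw [Algebra.adjoin_eq_span, Submodule.span_le]
    intro x hx
    have hxΛ : x ∈ Λ := closure_le_of_rel Λ a e P h1 ha he hrel x hx
    rw [← hs] at hxΛ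
    have : Submodule.span ℤ (s : Set ℂ) ≤ (Submodule.span ℚ (s : Set ℂ)).restrictScalars ℤ :=
      Submodule.span_le_restrictScalars ℤ ℚ _
    exact this hxΛ
  have hfin : FiniteDimensional ℚ (Submodule.span ℚ (s : Set ℂ)) :=
    FiniteDimensional.span_finset ℚ s
  have hfin2 : FiniteDimensional ℚ (Algebra.adjoin ℚ T).toSubmodule :=
    Submodule.finiteDimensional_of_le hle
  have hfin3 : FiniteDimensional ℚ ((IntermediateField.adjoin ℚ T).toSubalgebra) := by
    rw [heq]; exact hfin2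
  exact hfin3

end Fermat.Agent.S48.Int.H55

end
-- ==== END Fermat.Agent.S48.Int.H55_IntAlg

-- ==== BEGIN Fermat.Agent.S49.H44_SimEigen
section

set_option autoImplicit false

namespace Fermat.Agent.S49.H44

open Module Module.End

/-- A nonzero simultaneous generalized eigenspace of a commuting family contains a simultaneous
eigenvector. -/
theorem exists_simultaneous_eigenvector_aux {K V ι : Type*} [Field K] [AddCommGroup V]
    [Module K V] [FiniteDimensional K V]
    (f : ι → Module.End K V) (hcomm : ∀ i j, Commute (f i) (f j)) (χ : ι → K) :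
    ∀ (n : ℕ) (U : Submodule K V), finrank K U = n → U ≠ ⊥ →
      (∀ i, ∀ x ∈ U, f i x ∈ U) → U ≤ ⨅ i, (f i).maxGenEigenspace (χ i) →
      ∃ v ∈ U, v ≠ 0 ∧ ∀ i, f i v = χ i • v := by
  intro n
  induction n using Nat.strong_induction_on with
  | _ n ih =>
    intro U hn hU hinv hle
    by_cases hall : ∀ i, U ≤ (f i).eigenspace (χ i)
    · obtain ⟨v, hvU, hv0⟩ := Submodule.exists_mem_ne_zero_of_ne_bot hU
      exact ⟨v, hvU, hv0, fun i => mem_eigenspace_iff.mp (hall i hvU)⟩
    · simp only [not_forall] at hall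
      obtain ⟨i, hi⟩ := hall
      set U' : Submodule K V := U ⊓ (f i).eigenspace (χ i) with hU'
      have hlt : U' < U := by
        refine lt_of_le_of_ne inf_le_left ?_
        intro h
        apply hi
        rw [← h]
        exact inf_le_right
      have hfin : finrank K U' < n := hn ▸ Submodule.finrank_lt_finrank_of_lt hlt
      have hU'ne : U' ≠ ⊥ := by
        obtain ⟨u, huU, hu0⟩ := Submodule.exists_mem_ne_zero_of_ne_bot hU
        have hu : u ∈ (f i).maxGenEigenspace (χ i) := by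
          have := hle huU
          simp only [Submodule.mem_iInf] at this
          exact this i
        rw [mem_maxGenEigenspace] at hu
        classical
        have hex : ∃ k : ℕ, ((f i - χ i • (1 : Module.End K V)) ^ k) u = 0 := hu
        set k := Nat.find hex with hk
        have hk0 : k ≠ 0 := by
          intro h0
          have := Nat.find_spec hex
          rw [← hk, h0] at this
          simp at this
          exact hu0 this
        obtain ⟨m, hm⟩ := Nat.exists_eq_succ_of_ne_zero hk0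
        have hmlt : m < k := by omega
        have hw0 : ((f i - χ i • (1 : Module.End K V)) ^ m) u ≠ 0 := Nat.find_min hex hmlt
        have hwU : ∀ j : ℕ, ((f i - χ i • (1 : Module.End K V)) ^ j) u ∈ U := by
          intro j
          induction j with
          | zero => simpa using huU
          | succ j ihj =>
            rw [pow_succ', Module.End.mul_apply]
            simp only [LinearMap.sub_apply, LinearMap.smul_apply, Module.End.one_apply]
            exact U.sub_mem (hinv i _ ihj) (U.smul_mem _ ihj)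
        have hw1 : (f i - χ i • (1 : Module.End K V))
            (((f i - χ i • (1 : Module.End K V)) ^ m) u) = 0 := by
          have := Nat.find_spec hex
          rw [← hk, hm, pow_succ', Module.End.mul_apply] at this
          exact this
        intro hbot
        apply hw0
        have hmem : ((f i - χ i • (1 : Module.End K V)) ^ m) u ∈ U' := by
          refine ⟨hwU m, ?_⟩
          rw [SetLike.mem_coe, mem_eigenspace_iff]
          simp only [LinearMap.sub_apply, LinearMap.smul_apply, Module.End.one_apply] at hw1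
          exact sub_eq_zero.mp hw1
        rw [hbot] at hmem
        exact (Submodule.mem_bot K).mp hmem
      have hinv' : ∀ j, ∀ x ∈ U', f j x ∈ U' := by
        intro j x hx
        refine ⟨hinv j x hx.1, ?_⟩
        have hx2 : f i x = χ i • x := mem_eigenspace_iff.mp hx.2
        rw [SetLike.mem_coe, mem_eigenspace_iff]
        have hc : f i (f j x) = f j (f i x) := by
          have := (hcomm i j).eq
          exact congrArg (fun g => g x) this
        rw [hc, hx2, map_smul]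
      obtain ⟨v, hvU', hv0, hv⟩ := ih _ hfin U' rfl hU'ne hinv' (le_trans inf_le_left hle)
      exact ⟨v, hvU'.1, hv0, hv⟩

theorem exists_simultaneous_eigenvector {K V ι : Type*} [Field K] [AddCommGroup V]
    [Module K V] [FiniteDimensional K V]
    (f : ι → Module.End K V) (hcomm : ∀ i j, Commute (f i) (f j)) (χ : ι → K)
    (h : (⨅ i, (f i).maxGenEigenspace (χ i)) ≠ ⊥) :
    ∃ v : V, v ≠ 0 ∧ ∀ i, f i v = χ i • v := by
  obtain ⟨v, -, hv0, hv⟩ := exists_simultaneous_eigenvector_aux f hcomm χ _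
    (⨅ i, (f i).maxGenEigenspace (χ i)) rfl h
    (fun i x hx => by
      simp only [Submodule.mem_iInf] at hx ⊢
      intro j
      exact mapsTo_maxGenEigenspace_of_comm (hcomm j i) (χ j) (hx j)) le_rfl
  exact ⟨v, hv0, hv⟩

end Fermat.Agent.S49.H44

end
-- ==== END Fermat.Agent.S49.H44_SimEigen

-- ==== BEGIN Fermat.Agent.S59.Lim.H2_Tate
section

/-!
# S59, package LIM, leaf LIM-TATE (helper2): the `ϖ`-adic Tate module of a divisible torsion module

`𝒪` a commutative ring, `ϖ : 𝒪`, `W` an `𝒪`-module.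

* `tate ϖ W : Submodule 𝒪 (ℕ → W)` : sequences `x` with `x 0 = 0`, `ϖ • x (k+1) = x k`.
* `ev ϖ W k : tate ϖ W →ₗ[𝒪] W`, `x ↦ x k`; `pow_smul_ev`, `ev_eq_zero_iff` (`ker (ev k) = ϖ^k T`),
  `exists_ev_eq` (`range (ev k) = W[ϖ^k]` if `W` is `ϖ`-divisible).
* `tate_separated`, `tate_smul_eq_zero` (no `ϖ`-torsion), `isTorsionFree_tate` (over a DVR).
* `span_eq_top_of_complete` : `ϖ`-adic Nakayama for separated modules over a complete ring.
* `finite_tate`, `free_tate` : `T_ϖ W` is finite free if `𝒪` is a complete DVR, `W` is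
  `ϖ`-divisible and `W[ϖ]` is finitely generated.
* `map`, `mapEnd : End 𝒪 W →+* End 𝒪 (tate ϖ W)`, `ev_map`, `mapEnd_injective`,
  `map_surjective`.

This file contains no `sorry`.
-/

set_option autoImplicit false
set_option linter.style.haveILetI false
set_option linter.unusedSectionVars false
set_option linter.unusedVariables false

noncomputable section

open IsLocalRing

namespace Fermat.Agent.S59.Lim.H2

/-! ### `ϖ`-adic Nakayama with completeness -/

section Gen

variable {R : Type*} [CommRing R] {M : Type*} [AddCommGroup M] [Module R M]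

/-- If `R` is `ϖ`-adically precomplete, `M` is `ϖ`-adically separated and `t` generates `M`
modulo `ϖ`, then `t` generates `M`. -/
theorem span_eq_top_of_complete (ϖ : R) [IsPrecomplete (Ideal.span {ϖ}) R]
    (hsep : ∀ x : M, (∀ n : ℕ, ∃ y : M, x = ϖ ^ n • y) → x = 0)
    {h : ℕ} (t : Fin h → M)
    (hgen : ∀ x : M, ∃ (a : Fin h → R) (y : M), x = ∑ i, a i • t i + ϖ • y) :
    Submodule.span R (Set.range t) = ⊤ := by
  classical
  rw [eq_top_iff]
  rintro x -
  choose A Y hAY using hgen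
  -- the sequences
  let yy : ℕ → M := fun n => Nat.rec x (fun _ y => Y y) n
  have yy0 : yy 0 = x := rfl
  have yyS : ∀ n, yy (n + 1) = Y (yy n) := fun n => rfl
  let cc : ℕ → Fin h → R := fun n => Nat.rec (motive := fun _ => Fin h → R) 0
    (fun m c => c + ϖ ^ m • A (Nat.rec x (fun _ y => Y y) m)) n
  have cc0 : cc 0 = 0 := rfl
  have ccS : ∀ n, cc (n + 1) = cc n + ϖ ^ n • A (yy n) := fun n => rfl
  have key : ∀ n, x = ∑ i, cc n i • t i + ϖ ^ n • yy n := by
    intro n
    induction n with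
    | zero => simp [cc0, yy0]
    | succ n ih =>
      rw [ccS, yyS]
      conv_lhs => rw [ih, hAY (yy n)]
      simp only [Pi.add_apply, Pi.smul_apply, smul_eq_mul, add_smul, Finset.sum_add_distrib,
        smul_add, Finset.smul_sum, pow_succ, mul_smul]
      abel
  have hc : ∀ i {m n : ℕ}, m ≤ n → ∃ b : R, cc n i - cc m i = ϖ ^ m * b := by
    intro i m n hmn
    induction n, hmn using Nat.le_induction with
    | base => exact ⟨0, by simp⟩
    | succ n hmn ih =>
      obtain ⟨b, hb⟩ := ih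
      obtain ⟨d, rfl⟩ := Nat.exists_eq_add_of_le hmn
      refine ⟨b + ϖ ^ d * A (yy (m + d)) i, ?_⟩
      rw [ccS]
      simp only [Pi.add_apply, Pi.smul_apply, smul_eq_mul]
      rw [mul_add, ← hb, pow_add]
      ring
  have hL : ∀ i, ∃ L : R, ∀ n, ∃ b : R, L - cc n i = ϖ ^ n * b := by
    intro i
    obtain ⟨L, hL⟩ := IsPrecomplete.prec' (I := Ideal.span {ϖ}) (M := R) (fun n => cc n i) (by
      intro m n hmn
      obtain ⟨b, hb⟩ := hc i hmn
      rw [SModEq.sub_mem, smul_eq_mul, Ideal.mul_top, Ideal.span_singleton_pow,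
        Ideal.mem_span_singleton']
      refine ⟨-b, ?_⟩
      have : cc m i - cc n i = -(cc n i - cc m i) := by ring
      rw [this, hb]
      ring)
    refine ⟨L, fun n => ?_⟩
    have := hL n
    rw [SModEq.sub_mem, smul_eq_mul, Ideal.mul_top, Ideal.span_singleton_pow,
      Ideal.mem_span_singleton'] at this
    obtain ⟨b, hb⟩ := this
    refine ⟨-b, ?_⟩
    have h2 : L - cc n i = -(cc n i - L) := by ring
    rw [h2, ← hb]
    ring
  choose L hL using hL
  have hx : x - ∑ i, L i • t i = 0 := by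
    apply hsep
    intro n
    choose b hb using fun i => hL i n
    refine ⟨yy n - ∑ i, b i • t i, ?_⟩
    conv_lhs => rw [key n]
    have h1 : ∀ i, L i • t i = cc n i • t i + ϖ ^ n • (b i • t i) := by
      intro i
      rw [← mul_smul, ← hb i, sub_smul]
      abel
    simp only [h1, Finset.sum_add_distrib, smul_sub, Finset.smul_sum]
    abel
  rw [sub_eq_zero] at hx
  rw [hx]
  exact Submodule.sum_mem _ fun i _ =>
    Submodule.smul_mem _ _ (Submodule.subset_span ⟨i, rfl⟩)

end Gen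

/-! ### The Tate module -/

section Tate

variable {𝒪 : Type*} [CommRing 𝒪] (ϖ : 𝒪) (W : Type*) [AddCommGroup W] [Module 𝒪 W]

/-- The `ϖ`-adic Tate module of `W`: sequences `x` with `x 0 = 0` and `ϖ • x (k+1) = x k`. -/
def tate : Submodule 𝒪 (ℕ → W) where
  carrier := {x | x 0 = 0 ∧ ∀ k, ϖ • x (k + 1) = x k}
  add_mem' := by
    rintro x y ⟨hx0, hx⟩ ⟨hy0, hy⟩
    refine ⟨by simp [hx0, hy0], fun k => ?_⟩
    simp [smul_add, hx k, hy k]
  zero_mem' := ⟨rfl, fun k => by simp⟩
  smul_mem' := by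
    rintro c x ⟨hx0, hx⟩
    refine ⟨by simp [hx0], fun k => ?_⟩
    simp only [Pi.smul_apply]
    rw [smul_comm, hx k]

variable {ϖ W}

theorem mem_tate {x : ℕ → W} : x ∈ tate ϖ W ↔ x 0 = 0 ∧ ∀ k, ϖ • x (k + 1) = x k := Iff.rfl

variable (ϖ W)

/-- The `k`-th component. -/
def ev (k : ℕ) : tate ϖ W →ₗ[𝒪] W := (LinearMap.proj k).comp (tate ϖ W).subtype

variable {ϖ W}

@[simp] theorem ev_apply (k : ℕ) (x : tate ϖ W) : ev ϖ W k x = x.1 k := rfl

@[simp] theorem ev_zero (x : tate ϖ W) : ev ϖ W 0 x = 0 := x.2.1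

theorem smul_ev_succ (k : ℕ) (x : tate ϖ W) : ϖ • ev ϖ W (k + 1) x = ev ϖ W k x := x.2.2 k

theorem pow_smul_ev_add (k j : ℕ) (x : tate ϖ W) : ϖ ^ j • ev ϖ W (k + j) x = ev ϖ W k x := by
  induction j with
  | zero => simp
  | succ j ih =>
    rw [pow_succ, mul_smul, ← add_assoc, smul_ev_succ, ih]

theorem pow_smul_ev (k : ℕ) (x : tate ϖ W) : ϖ ^ k • ev ϖ W k x = 0 := by
  have := pow_smul_ev_add 0 k x
  rwa [zero_add, ev_zero] at this

theorem ev_mem_torsionBy (k : ℕ) (x : tate ϖ W) :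
    ev ϖ W k x ∈ Submodule.torsionBy 𝒪 W (ϖ ^ k) := by
  rw [Submodule.mem_torsionBy_iff]
  exact pow_smul_ev k x

theorem tate_ext {x y : tate ϖ W} (h : ∀ k, ev ϖ W k x = ev ϖ W k y) : x = y :=
  Subtype.ext (funext h)

/-- `ker (ev k) = ϖ ^ k • T`. -/
theorem ev_eq_zero_iff (k : ℕ) (x : tate ϖ W) : ev ϖ W k x = 0 ↔ ∃ y : tate ϖ W, x = ϖ ^ k • y := by
  constructor
  · intro hx
    refine ⟨⟨fun j => x.1 (j + k), ?_, fun j => ?_⟩, ?_⟩
    · show x.1 (0 + k) = 0
      rw [zero_add]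
      exact hx
    · show ϖ • x.1 (j + 1 + k) = x.1 (j + k)
      have := x.2.2 (j + k)
      rwa [add_right_comm] at this
    · apply tate_ext
      intro j
      show x.1 j = ϖ ^ k • x.1 (j + k)
      exact (pow_smul_ev_add j k x).symm
  · rintro ⟨y, rfl⟩
    rw [map_smul]
    exact pow_smul_ev k y

theorem ker_ev (k : ℕ) :
    LinearMap.ker (ev ϖ W k) = (Ideal.span {ϖ ^ k} • ⊤ : Submodule 𝒪 (tate ϖ W)) := by
  ext x
  rw [LinearMap.mem_ker, ev_eq_zero_iff, Submodule.ideal_span_singleton_smul]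
  constructor
  · rintro ⟨y, rfl⟩
    exact Submodule.smul_mem_pointwise_smul _ _ _ Submodule.mem_top
  · intro hx
    obtain ⟨y, -, hy⟩ := (Submodule.mem_smul_pointwise_iff_exists _ _ _).mp hx
    exact ⟨y, hy.symm⟩

/-- The Tate module is `ϖ`-adically separated. -/
theorem tate_separated (x : tate ϖ W) (h : ∀ n : ℕ, ∃ y : tate ϖ W, x = ϖ ^ n • y) : x = 0 := by
  apply tate_ext
  intro k
  rw [map_zero]
  exact (ev_eq_zero_iff k x).mpr (h k)

/-- The Tate module has no `ϖ`-torsion. -/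
theorem tate_smul_eq_zero (x : tate ϖ W) (h : ϖ • x = 0) : x = 0 := by
  apply tate_ext
  intro k
  rw [map_zero, ← smul_ev_succ, ← map_smul, h, map_zero]

theorem tate_pow_smul_eq_zero (n : ℕ) (x : tate ϖ W) (h : ϖ ^ n • x = 0) : x = 0 := by
  induction n generalizing x with
  | zero => simpa using h
  | succ n ih =>
    rw [pow_succ, mul_smul] at h
    exact tate_smul_eq_zero x (ih (ϖ • x) h)

/-- If `W` is `ϖ`-divisible then `ev k` is onto the `ϖ ^ k`-torsion. -/
theorem exists_ev_eq (hdiv : ∀ w : W, ∃ v : W, ϖ • v = w) (k : ℕ) (w : W)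
    (hw : ϖ ^ k • w = 0) : ∃ x : tate ϖ W, ev ϖ W k x = w := by
  classical
  choose d hd using hdiv
  refine ⟨⟨fun j => if j ≤ k then ϖ ^ (k - j) • w else d^[j - k] w, ?_, fun j => ?_⟩, ?_⟩
  · show (if 0 ≤ k then ϖ ^ (k - 0) • w else d^[0 - k] w) = 0
    rw [if_pos (Nat.zero_le k), Nat.sub_zero, hw]
  · show ϖ • (if j + 1 ≤ k then ϖ ^ (k - (j + 1)) • w else d^[j + 1 - k] w)
      = if j ≤ k then ϖ ^ (k - j) • w else d^[j - k] w
    by_cases h1 : j + 1 ≤ k
    · rw [if_pos h1, if_pos (by omega), ← mul_smul, ← pow_succ']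
      congr 2
      omega
    · rw [if_neg h1]
      by_cases h2 : j ≤ k
      · have hjk : j = k := by omega
        subst hjk
        rw [if_pos le_rfl, Nat.sub_self, pow_zero, one_smul]
        have : j + 1 - j = 1 := by omega
        rw [this, Function.iterate_one, hd]
      · rw [if_neg h2]
        have : j + 1 - k = (j - k) + 1 := by omega
        rw [this, Function.iterate_succ_apply', hd]
  · show (if k ≤ k then ϖ ^ (k - k) • w else d^[k - k] w) = w
    rw [if_pos le_rfl, Nat.sub_self, pow_zero, one_smul]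

theorem range_ev (hdiv : ∀ w : W, ∃ v : W, ϖ • v = w) (k : ℕ) :
    LinearMap.range (ev ϖ W k) = Submodule.torsionBy 𝒪 W (ϖ ^ k) := by
  ext w
  constructor
  · rintro ⟨x, rfl⟩
    exact ev_mem_torsionBy k x
  · intro hw
    exact exists_ev_eq hdiv k w ((Submodule.mem_torsionBy_iff _ _).mp hw)

/-- If `W` is `ϖ`-power torsion and `ϖ`-divisible, every element of `W` is a component of an
element of the Tate module. -/
theorem exists_ev_eq_of_torsion (hdiv : ∀ w : W, ∃ v : W, ϖ • v = w)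
    (htors : ∀ w : W, ∃ k : ℕ, ϖ ^ k • w = 0) (w : W) :
    ∃ (k : ℕ) (x : tate ϖ W), ev ϖ W k x = w := by
  obtain ⟨k, hk⟩ := htors w
  exact ⟨k, exists_ev_eq hdiv k w hk⟩

/-! ### Finiteness and freeness -/

/-- `T_ϖ W` is finitely generated if `𝒪` is `ϖ`-adically complete, `W` is `ϖ`-divisible and
`W[ϖ]` is finitely generated. -/
theorem finite_tate [IsPrecomplete (Ideal.span {ϖ}) 𝒪]
    (hdiv : ∀ w : W, ∃ v : W, ϖ • v = w)
    (hfin : (Submodule.torsionBy 𝒪 W ϖ).FG) : Module.Finite 𝒪 (tate ϖ W) := by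
  classical
  obtain ⟨s, hs⟩ := hfin
  -- enumerate the generators
  obtain ⟨h, g, hg⟩ : ∃ (h : ℕ) (g : Fin h → W), Set.range g = (s : Set W) := by
    refine ⟨s.card, fun i => (s.equivFin.symm i : W), ?_⟩
    ext w
    constructor
    · rintro ⟨i, rfl⟩
      exact (s.equivFin.symm i).2
    · intro hw
      exact ⟨s.equivFin ⟨w, hw⟩, by simp⟩
  have hg1 : ∀ i, ϖ ^ 1 • g i = 0 := by
    intro i
    have : g i ∈ Submodule.torsionBy 𝒪 W ϖ := by
      rw [← hs]
      exact Submodule.subset_span (hg ▸ ⟨i, rfl⟩)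
    rw [pow_one]
    exact (Submodule.mem_torsionBy_iff _ _).mp this
  choose t ht using fun i => exists_ev_eq hdiv 1 (g i) (hg1 i)
  refine ⟨⟨Finset.univ.image t, ?_⟩⟩
  rw [Finset.coe_image, Finset.coe_univ, Set.image_univ]
  apply span_eq_top_of_complete ϖ tate_separated t
  intro x
  have hx : ev ϖ W 1 x ∈ Submodule.span 𝒪 (Set.range g) := by
    rw [hg, hs]
    have := ev_mem_torsionBy 1 x
    rwa [pow_one] at this
  obtain ⟨a, ha⟩ := (Submodule.mem_span_range_iff_exists_fun 𝒪).mp hx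
  have h0 : ev ϖ W 1 (x - ∑ i, a i • t i) = 0 := by
    rw [map_sub, map_sum, ← ha]
    simp only [map_smul, ht, sub_self]
  obtain ⟨y, hy⟩ := (ev_eq_zero_iff 1 _).mp h0
  refine ⟨a, y, ?_⟩
  rw [pow_one] at hy
  rw [← hy]
  abel

end Tate

section DVR

variable {𝒪 : Type*} [CommRing 𝒪] [IsDomain 𝒪] [IsDiscreteValuationRing 𝒪]
  {ϖ : 𝒪} {W : Type*} [AddCommGroup W] [Module 𝒪 W]

/-- Over a discrete valuation ring with uniformiser `ϖ` the Tate module is torsion-free. -/
theorem isTorsionFree_tate (hϖ : Irreducible ϖ) : Module.IsTorsionFree 𝒪 (tate ϖ W) := by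
  refine ⟨fun r hr => ?_⟩
  have hr0 : r ≠ 0 := hr.ne_zero
  obtain ⟨n, u, rfl⟩ := IsDiscreteValuationRing.eq_unit_mul_pow_irreducible hr0 hϖ
  intro x y hxy
  have h1 : (u : 𝒪) • (ϖ ^ n • (x - y)) = 0 := by
    rw [← mul_smul, smul_sub]
    exact sub_eq_zero.mpr hxy
  have h2 : ϖ ^ n • (x - y) = 0 := by
    have := congrArg (fun z => ((u⁻¹ : 𝒪ˣ) : 𝒪) • z) h1
    simpa [← mul_smul] using this
  exact sub_eq_zero.mp (tate_pow_smul_eq_zero n _ h2)

theorem precomplete_span_of_maximalIdeal [IsAdicComplete (maximalIdeal 𝒪) 𝒪]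
    (hϖ : Irreducible ϖ) : IsPrecomplete (Ideal.span {ϖ}) 𝒪 := by
  rw [← hϖ.maximalIdeal_eq]
  infer_instance

/-- `T_ϖ W` is finite over a complete DVR. -/
theorem finite_tate_dvr [IsAdicComplete (maximalIdeal 𝒪) 𝒪] (hϖ : Irreducible ϖ)
    (hdiv : ∀ w : W, ∃ v : W, ϖ • v = w)
    (hfin : (Submodule.torsionBy 𝒪 W ϖ).FG) : Module.Finite 𝒪 (tate ϖ W) := by
  haveI := precomplete_span_of_maximalIdeal (𝒪 := 𝒪) hϖ
  exact finite_tate hdiv hfin

/-- `T_ϖ W` is free over a complete DVR. -/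
theorem free_tate [IsAdicComplete (maximalIdeal 𝒪) 𝒪] (hϖ : Irreducible ϖ)
    (hdiv : ∀ w : W, ∃ v : W, ϖ • v = w)
    (hfin : (Submodule.torsionBy 𝒪 W ϖ).FG) : Module.Free 𝒪 (tate ϖ W) := by
  haveI := finite_tate_dvr hϖ hdiv hfin
  haveI := isTorsionFree_tate (W := W) hϖ
  exact Module.free_of_finite_type_torsion_free'

/-- `ker (ev k) = 𝔪 ^ k • T`. -/
theorem ker_ev_eq_maximalIdeal_pow (hϖ : Irreducible ϖ) (k : ℕ) :
    LinearMap.ker (ev ϖ W k) = ((maximalIdeal 𝒪) ^ k • ⊤ : Submodule 𝒪 (tate ϖ W)) := by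
  rw [ker_ev, hϖ.maximalIdeal_eq, Ideal.span_singleton_pow]

/-- `ev 1 x = 0` implies `x ∈ 𝔪 • T`. -/
theorem mem_maximalIdeal_smul_of_ev_one (hϖ : Irreducible ϖ) (x : tate ϖ W)
    (hx : ev ϖ W 1 x = 0) : x ∈ (maximalIdeal 𝒪 • ⊤ : Submodule 𝒪 (tate ϖ W)) := by
  have := ker_ev_eq_maximalIdeal_pow (W := W) hϖ 1
  rw [pow_one] at this
  rw [← this]
  exact hx

end DVR

end Fermat.Agent.S59.Lim.H2

end
end
-- ==== END Fermat.Agent.S59.Lim.H2_Tate
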