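-- GENERATED (merged mirror, NOTES/tools/trim/merge3_helper67.py): 6 modules of the originals, bodies verbatim.
import Mathlib
import Fermat.Agent.Zm.S48_L01_004
import Fermat.Agent.Lib.FrobDensity.H31_DegOne
import Fermat.Agent.Zm.S35_L01_005
import Fermat.Agent.Zm.S48_L01_005
import Fermat.Agent.NEB.H34_TwSum

-- ==== BEGIN Fermat.Agent.S48.H78_DegOne
section

/-!
# S48 (Deligne–Serre), leaf DegOne (helper78)

`stmt_DegOne : Stmt_DegOne`: for a number field `K ⊆ ℂ` there are arbitrarily large primes `ℓ`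
such that every algebraically closed field of characteristic `ℓ` receives a residue map of
`ℤ̄ = integralClosure ℤ ℂ` sending the integers of `K` into the prime field.

Route: a prime `v` of `𝓞 K` of absolute degree one and norm `ℓ ≥ B` (the sum over the degree one
primes diverges: `Lib/FrobDensity/H31_DegOne`), a maximal ideal `Q` of `ℤ̄` over `v` (lying over),
`ℤ̄ ⧸ Q` is algebraic over `𝔽_ℓ`, hence embeds into `k`.
-/

set_option autoImplicit false
set_option linter.style.haveILetI false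

namespace Fermat.Agent.S48.H78

open NumberField IsDedekindDomain Filter Topology

section DegOnePrime

variable (K : Type*) [Field K] [NumberField K]

/-- There are primes of absolute degree one of arbitrarily large norm. -/
theorem exists_degOne_prime (B : ℕ) :
    ∃ v : HeightOneSpectrum (𝓞 K),
      (Ideal.absNorm v.asIdeal).Prime ∧ B ≤ Ideal.absNorm v.asIdeal := by
  classical
  set Bad : Set (HeightOneSpectrum (𝓞 K)) := {v | Ideal.absNorm v.asIdeal ≤ B} with hBaddef
  have hBad : Bad.Finite := by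
    have h1 := Ideal.finite_setOfPred_absNorm_le (S := 𝓞 K) B
    refine Set.Finite.of_finite_image (f := fun v : HeightOneSpectrum (𝓞 K) => v.asIdeal)
      (h1.subset ?_) ?_
    · rintro I ⟨v, hv, rfl⟩
      exact hv
    · intro v _ w _ h
      exact HeightOneSpectrum.ext h
  obtain ⟨C, hC⟩ := Fermat.Agent.Lib.FrobDensity.H31.exists_bound_goodDegOne K hBad
  by_contra hcon
  push Not at hcon
  have hempty : IsEmpty (Fermat.Agent.Lib.FrobDensity.H31.goodDegOne K Bad) := by
    constructor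
    rintro ⟨v, hv1, hv2⟩
    exact hv2 (le_of_lt (hcon v hv1))
  have hzero : ∀ s : ℝ, ∑' v : Fermat.Agent.Lib.FrobDensity.H31.goodDegOne K Bad,
      Fermat.Agent.Lib.ZetaPrimes.primeTerm K s v = 0 := fun s => tsum_empty
  have hlarge : ∀ᶠ s in 𝓝[>] (1 : ℝ), C < Real.log (1 / (s - 1)) := by
    have hδ : (0 : ℝ) < Real.exp (-(C + 1)) := Real.exp_pos _
    have hmem : Set.Ioo (1 : ℝ) (1 + Real.exp (-(C + 1))) ∈ 𝓝[>] (1 : ℝ) :=
      Ioo_mem_nhdsGT (by linarith)
    filter_upwards [hmem] with s hs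
    obtain ⟨h1, h2⟩ := hs
    have hpos : 0 < s - 1 := by linarith
    have hlt : s - 1 < Real.exp (-(C + 1)) := by linarith
    have := Real.log_lt_log hpos hlt
    rw [Real.log_exp] at this
    rw [one_div, Real.log_inv]
    linarith
  obtain ⟨s, hs1, hs2⟩ := (hC.and hlarge).exists
  rw [hzero, zero_sub, abs_neg] at hs1
  have := le_abs_self (Real.log (1 / (s - 1)))
  linarith

end DegOnePrime

/-- The characteristic of a field in which the prime `ℓ` vanishes. -/
theorem charP_of_prime_cast_eq_zero {F : Type*} [Field F] {ℓ : ℕ} (hℓ : ℓ.Prime)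
    (h : (ℓ : F) = 0) : CharP F ℓ := by
  obtain ⟨p, hp⟩ := CharP.exists F
  have hdvd : p ∣ ℓ := (CharP.cast_eq_zero_iff F p ℓ).mp h
  rcases (Nat.dvd_prime hℓ).mp hdvd with h1 | h1
  · exfalso
    subst h1
    exact CharP.char_ne_one F 1 rfl
  · subst h1
    exact hp

theorem stmt_DegOne : Stmt_DegOne := by
  intro K hK B
  haveI : NumberField K := { to_charZero := inferInstance, to_finiteDimensional := hK }
  obtain ⟨v, hvp, hvB⟩ := exists_degOne_prime K B
  set ℓ : ℕ := Ideal.absNorm v.asIdeal with hℓ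
  refine ⟨ℓ, hvp, hvB, ?_⟩
  intro k _ _ _
  haveI : Fact ℓ.Prime := ⟨hvp⟩
  -- the inclusion `𝓞 K → ℤ̄`
  let f : 𝓞 K →ₐ[ℤ] ℂ := ((IntermediateField.val K).restrictScalars ℤ).comp
    (IsScalarTower.toAlgHom ℤ (𝓞 K) K)
  have hfint : ∀ x : 𝓞 K, f x ∈ integralClosure ℤ ℂ := by
    intro x
    have hx : IsIntegral ℤ (algebraMap (𝓞 K) K x) := RingOfIntegers.isIntegral_coe x
    exact hx.map ((IntermediateField.val K).restrictScalars ℤ)
  let ι : 𝓞 K →ₐ[ℤ] integralClosure ℤ ℂ := f.codRestrict (integralClosure ℤ ℂ) hfint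
  have hι : ∀ x : 𝓞 K, ((ι x : integralClosure ℤ ℂ) : ℂ) = ((algebraMap (𝓞 K) K x : K) : ℂ) :=
    fun x => rfl
  have hιinj : Function.Injective ι := by
    intro x y hxy
    have h1 : ((algebraMap (𝓞 K) K x : K) : ℂ) = ((algebraMap (𝓞 K) K y : K) : ℂ) := by
      rw [← hι, ← hι, hxy]
    have h2 : algebraMap (𝓞 K) K x = algebraMap (𝓞 K) K y := Subtype.ext h1
    exact RingOfIntegers.coe_injective h2
  letI : Algebra (𝓞 K) (integralClosure ℤ ℂ) := ι.toRingHom.toAlgebra
  haveI : IsScalarTower ℤ (𝓞 K) (integralClosure ℤ ℂ) :=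
    IsScalarTower.of_algebraMap_eq fun z => by
      rw [RingHom.algebraMap_toAlgebra]
      exact (ι.commutes z).symm
  haveI : Algebra.IsIntegral (𝓞 K) (integralClosure ℤ ℂ) :=
    ⟨fun x => (Algebra.IsIntegral.isIntegral (R := ℤ) x).tower_top⟩
  haveI hvmax : v.asIdeal.IsMaximal := v.isMaximal
  have hker : RingHom.ker (algebraMap (𝓞 K) (integralClosure ℤ ℂ)) ≤ v.asIdeal := by
    intro x hx
    rw [RingHom.mem_ker] at hx
    have : x = 0 := hιinj (by rw [map_zero]; exact hx)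
    rw [this]
    exact zero_mem _
  obtain ⟨Q, hQmax, hQ⟩ := Ideal.exists_ideal_over_maximal_of_isIntegral v.asIdeal hker
  haveI := hQmax
  letI : Field ((integralClosure ℤ ℂ) ⧸ Q) := Ideal.Quotient.field Q
  -- `ℓ ∈ Q`
  have hℓv : (ℓ : 𝓞 K) ∈ v.asIdeal := Ideal.absNorm_mem v.asIdeal
  have hℓQ : ((ℓ : ℕ) : integralClosure ℤ ℂ) ∈ Q := by
    have h1 : (ℓ : 𝓞 K) ∈ Q.comap (algebraMap (𝓞 K) (integralClosure ℤ ℂ)) := by rw [hQ]; exact hℓv
    rw [Ideal.mem_comap, map_natCast] at h1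
    exact h1
  haveI hchar : CharP ((integralClosure ℤ ℂ) ⧸ Q) ℓ := by
    apply charP_of_prime_cast_eq_zero hvp
    have : ((ℓ : ℕ) : (integralClosure ℤ ℂ) ⧸ Q) = Ideal.Quotient.mk Q ((ℓ : ℕ) : integralClosure ℤ ℂ) :=
      (map_natCast _ _).symm
    rw [this, Ideal.Quotient.eq_zero_iff_mem]
    exact hℓQ
  letI : Algebra (ZMod ℓ) ((integralClosure ℤ ℂ) ⧸ Q) := ZMod.algebra _ ℓ
  letI : Algebra (ZMod ℓ) k := ZMod.algebra _ ℓ
  haveI : Algebra.IsAlgebraic (ZMod ℓ) ((integralClosure ℤ ℂ) ⧸ Q) := by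
    haveI : Algebra.IsIntegral ℤ ((integralClosure ℤ ℂ) ⧸ Q) := by
      constructor
      intro x
      obtain ⟨y, rfl⟩ := Ideal.Quotient.mk_surjective x
      exact (Algebra.IsIntegral.isIntegral (R := ℤ) y).map (Ideal.Quotient.mkₐ ℤ Q)
    constructor
    intro x
    exact ((Algebra.IsIntegral.isIntegral (R := ℤ) x).tower_top (A := ZMod ℓ)).isAlgebraic
  let j : ((integralClosure ℤ ℂ) ⧸ Q) →ₐ[ZMod ℓ] k := IsAlgClosed.lift
  refine ⟨j.toRingHom.comp (Ideal.Quotient.mk Q), ?_⟩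
  intro x hx
  -- the element of `𝓞 K` under `x`
  have hxint : IsIntegral ℤ (⟨(x : ℂ), hx⟩ : K) := by
    have h1 : IsIntegral ℤ ((IntermediateField.val K).restrictScalars ℤ ⟨(x : ℂ), hx⟩) := x.2
    exact (isIntegral_algHom_iff ((IntermediateField.val K).restrictScalars ℤ)
      (by exact Subtype.val_injective)).mp h1
  let y : 𝓞 K := ⟨⟨(x : ℂ), hx⟩, hxint⟩
  have hy : ι y = x := Subtype.ext rfl
  -- Fermat in the residue field of `v`
  have hfer : y ^ ℓ - y ∈ v.asIdeal := by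
    letI : Field (𝓞 K ⧸ v.asIdeal) := Ideal.Quotient.field v.asIdeal
    have hcard : Nat.card (𝓞 K ⧸ v.asIdeal) = ℓ := by
      rw [hℓ, Ideal.absNorm_apply, Submodule.cardQuot_apply]
    haveI : Finite (𝓞 K ⧸ v.asIdeal) := Nat.finite_of_card_ne_zero (by rw [hcard]; exact hvp.ne_zero)
    letI : Fintype (𝓞 K ⧸ v.asIdeal) := Fintype.ofFinite _
    have h1 := FiniteField.pow_card (Ideal.Quotient.mk v.asIdeal y)
    rw [← Nat.card_eq_fintype_card, hcard] at h1
    rw [← Ideal.Quotient.eq_zero_iff_mem, map_sub, map_pow, h1, sub_self]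
  have hQx : x ^ ℓ - x ∈ Q := by
    have h1 : y ^ ℓ - y ∈ Q.comap (algebraMap (𝓞 K) (integralClosure ℤ ℂ)) := by rw [hQ]; exact hfer
    rw [Ideal.mem_comap] at h1
    have h2 : algebraMap (𝓞 K) (integralClosure ℤ ℂ) (y ^ ℓ - y) = x ^ ℓ - x := by
      rw [map_sub, map_pow]
      show ι y ^ ℓ - ι y = _
      rw [hy]
    rwa [h2] at h1
  have h3 : Ideal.Quotient.mk Q x ^ ℓ = Ideal.Quotient.mk Q x := by
    have := Ideal.Quotient.eq_zero_iff_mem.mpr hQx
    rw [map_sub, map_pow, sub_eq_zero] at this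
    exact this
  show j (Ideal.Quotient.mk Q x) ^ ℓ = j (Ideal.Quotient.mk Q x)
  rw [← map_pow, h3]

end Fermat.Agent.S48.H78

end
-- ==== END Fermat.Agent.S48.H78_DegOne

-- ==== BEGIN Fermat.Agent.S48.H78_LiftWedd
section

/-!
# S48 leaf F (`Stmt_Lift`), part 3: the Wedderburn package of the complex group algebra

From Mathlib's Wedderburn–Artin theorem (and Maschke) we extract, for a finite group `G`,
matrix representations `R i : G →* Matrix (Fin (d i)) (Fin (d i)) ℂ` which are jointly injective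
on functions `G → ℂ` and "independently surjective".  Then, by finite sums: Schur property,
regular character formula, integrality of the character values.
-/

set_option autoImplicit false

open Matrix

namespace Fermat.Agent.S48.H78

lemma tot_coeff (G : Type) [Group G] [Fintype G] [DecidableEq G] (x : G → ℂ) (h : G) :
    (∑ g, x g • MonoidAlgebra.of ℂ G g).coeff h = x h := by
  rw [MonoidAlgebra.coeff_sum, Finsupp.finsetSum_apply]
  simp [MonoidAlgebra.of_apply, MonoidAlgebra.coeff_single, Finsupp.single_apply]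

lemma tot_surj (G : Type) [Group G] [Fintype G] [DecidableEq G] (X : MonoidAlgebra ℂ G) :
    X = ∑ g, X.coeff g • MonoidAlgebra.of ℂ G g := by
  apply MonoidAlgebra.coeff_injective
  ext h
  rw [tot_coeff]

/-- Wedderburn data for the complex group algebra of `G`, in finite-sum form. -/
structure WeddData (G : Type) [Group G] [Fintype G] where
  /-- number of blocks -/
  s : ℕ
  /-- the degrees -/
  d : Fin s → ℕ
  /-- the irreducible matrix representations -/
  R : ∀ i, G →* Matrix (Fin (d i)) (Fin (d i)) ℂ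
  d_pos : ∀ i, 0 < d i
  inj : ∀ x : G → ℂ, (∀ j, ∑ g, x g • R j g = 0) → x = 0
  surj : ∀ j (Y : Matrix (Fin (d j)) (Fin (d j)) ℂ), ∃ y : G → ℂ,
    ∑ g, y g • R j g = Y ∧ ∀ i, i ≠ j → ∑ g, y g • R i g = 0

theorem exists_weddData (G : Type) [Group G] [Fintype G] : Nonempty (WeddData G) := by
  classical
  haveI : NeZero (Nat.card G : ℂ) := ⟨by
    have : 0 < Nat.card G := Nat.card_pos
    exact_mod_cast this.ne'⟩
  obtain ⟨s, d, hd, ⟨W⟩⟩ :=
    IsSemisimpleRing.exists_algEquiv_pi_matrix_of_isAlgClosed ℂ (MonoidAlgebra ℂ G)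
  let R : ∀ i, G →* Matrix (Fin (d i)) (Fin (d i)) ℂ := fun i =>
    ((Pi.evalMonoidHom (fun i => Matrix (Fin (d i)) (Fin (d i)) ℂ) i).comp
      (W : MonoidAlgebra ℂ G →* Π i, Matrix (Fin (d i)) (Fin (d i)) ℂ)).comp
      (MonoidAlgebra.of ℂ G)
  have hR : ∀ i g, R i g = W (MonoidAlgebra.of ℂ G g) i := fun i g => rfl
  have hW : ∀ (x : G → ℂ) (j : Fin s),
      W (∑ g, x g • MonoidAlgebra.of ℂ G g) j = ∑ g, x g • R j g := by
    intro x j
    rw [map_sum, Finset.sum_apply]
    refine Finset.sum_congr rfl (fun g _ => ?_)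
    rw [map_smul, Pi.smul_apply, hR]
  refine ⟨⟨s, d, R, fun i => Nat.pos_of_ne_zero (hd i).out, ?_, ?_⟩⟩
  · intro x hx
    have h0 : W (∑ g, x g • MonoidAlgebra.of ℂ G g) = 0 := by
      ext1 j
      rw [hW, hx j]; rfl
    have h1 : (∑ g, x g • MonoidAlgebra.of ℂ G g) = 0 := by
      have := W.injective (h0.trans (map_zero W).symm)
      exact this
    funext h
    have := tot_coeff G x h
    rw [h1] at this
    simpa using this.symm
  · intro j Y
    refine ⟨fun g => (W.symm (Pi.single j Y)).coeff g, ?_, ?_⟩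
    · rw [← hW, ← tot_surj, AlgEquiv.apply_symm_apply, Pi.single_eq_same]
    · intro i hij
      rw [← hW, ← tot_surj, AlgEquiv.apply_symm_apply, Pi.single_eq_of_ne hij]

variable {G : Type} [Group G] [Fintype G]

/-- Each Wedderburn component has the Schur property. -/
theorem WeddData.schur (D : WeddData G) (i : Fin D.s) : SchurProp (D.R i) := by
  intro A hA
  have hcomm : ∀ Y : Matrix (Fin (D.d i)) (Fin (D.d i)) ℂ, A * Y = Y * A := by
    intro Y
    obtain ⟨y, hy, -⟩ := D.surj i Y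
    rw [← hy, Matrix.mul_sum, Matrix.sum_mul]
    refine Finset.sum_congr rfl (fun g _ => ?_)
    rw [Matrix.mul_smul, Matrix.smul_mul, hA]
  have : A ∈ Set.range (Matrix.scalar (Fin (D.d i))) := by
    rw [Matrix.mem_range_scalar_iff_commute_single']
    intro a b
    exact (hcomm _).symm
  obtain ⟨c, hc⟩ := this
  refine ⟨c, ?_⟩
  rw [← hc]
  ext a b
  simp [Matrix.scalar_apply, Matrix.diagonal_apply, Matrix.one_apply]

lemma WeddData.card_ne_zero (D : WeddData G) (i : Fin D.s) :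
    (Fintype.card (Fin (D.d i)) : ℂ) ≠ 0 := by
  rw [Fintype.card_fin]
  exact_mod_cast (D.d_pos i).ne'

/-- `∑ g, χ_i(g⁻¹) R_j(g)` is `(|G| / d_j) δ_{ij}`. -/
lemma WeddData.sum_chr_smul (D : WeddData G) (i j : Fin D.s) :
    (D.d i : ℂ) • ∑ g, chr (D.R i) g⁻¹ • D.R j g =
      if i = j then (Fintype.card G : ℂ) • (1 : Matrix (Fin (D.d j)) (Fin (D.d j)) ℂ) else 0 := by
  ext b c
  rw [Matrix.smul_apply, Matrix.sum_apply]
  simp only [Matrix.smul_apply, smul_eq_mul, chr, Matrix.trace, Matrix.diag_apply]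
  by_cases hij : i = j
  · subst hij
    rw [if_pos rfl]
    have h1 : ∀ g : G, (∑ a, D.R i g⁻¹ a a) * D.R i g b c = ∑ a, D.R i g b c * D.R i g⁻¹ a a := by
      intro g; rw [Finset.sum_mul]; exact Finset.sum_congr rfl (fun a _ => mul_comm _ _)
    simp only [h1]
    rw [Finset.sum_comm, Finset.mul_sum]
    have h2 : ∀ a, (D.d i : ℂ) * ∑ g, D.R i g b c * D.R i g⁻¹ a a =
        if b = a ∧ c = a then (Fintype.card G : ℂ) else 0 := by
      intro a
      have := schur_orth (D.R i) (D.schur i) b c a a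
      rwa [Fintype.card_fin] at this
    simp only [h2, Matrix.smul_apply, Matrix.one_apply, smul_eq_mul]
    by_cases hbc : b = c
    · subst hbc
      simp
    · have : ∀ a, ¬ (b = a ∧ c = a) := fun a h => hbc (h.1.trans h.2.symm)
      simp [this, hbc]
  · rw [if_neg hij]
    obtain ⟨y, hy, hy'⟩ := D.surj j 1
    have h1 : ∀ g : G, (∑ a, D.R i g⁻¹ a a) * D.R j g b c = ∑ a, D.R j g b c * D.R i g⁻¹ a a := by
      intro g; rw [Finset.sum_mul]; exact Finset.sum_congr rfl (fun a _ => mul_comm _ _)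
    simp only [h1]
    rw [Finset.sum_comm]
    have h2 : ∀ a, ∑ g, D.R j g b c * D.R i g⁻¹ a a = 0 := fun a =>
      schur_orth_two (D.R j) (D.R i) y hy (hy' i hij) b c a a
    simp [h2]

/-- The regular character formula. -/
theorem WeddData.regular (D : WeddData G) [DecidableEq G] (g : G) :
    ∑ i, (D.d i : ℂ) * chr (D.R i) g = if g = 1 then (Fintype.card G : ℂ) else 0 := by
  set x : G → ℂ := fun g => ∑ i, (D.d i : ℂ) * chr (D.R i) g⁻¹ -
    (if g = 1 then (Fintype.card G : ℂ) else 0) with hx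
  have hx0 : x = 0 := by
    apply D.inj
    intro j
    have h1 : ∀ g : G, x g • D.R j g = ∑ i, (D.d i : ℂ) • (chr (D.R i) g⁻¹ • D.R j g) -
        (if g = 1 then (Fintype.card G : ℂ) else 0) • D.R j g := by
      intro g
      rw [hx]
      simp only [sub_smul, Finset.sum_smul, mul_smul]
    simp only [h1]
    rw [Finset.sum_sub_distrib, Finset.sum_comm]
    simp only [← Finset.smul_sum]
    simp only [D.sum_chr_smul]
    rw [Finset.sum_ite_eq' Finset.univ j]
    simp only [Finset.mem_univ, if_true, ite_smul, zero_smul]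
    rw [Finset.sum_ite_eq' Finset.univ (1 : G)]
    simp
  have := congrFun hx0 g⁻¹
  simp only [hx, Pi.zero_apply, inv_inv, inv_eq_one, sub_eq_zero] at this
  exact this

/-- A complex matrix of finite order has integral trace. -/
lemma isIntegral_trace_of_pow_eq_one {ι : Type*} [Fintype ι] [DecidableEq ι]
    (A : Matrix ι ι ℂ) (n : ℕ) (hn : 0 < n) (hA : A ^ n = 1) : IsIntegral ℤ A.trace := by
  rw [Matrix.trace_eq_sum_roots_charpoly]
  apply IsIntegral.multiset_sum
  intro μ hμ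
  have hroot : A.charpoly.IsRoot μ := (Polynomial.mem_roots'.mp hμ).2
  have hspec : μ ∈ spectrum ℂ A := Matrix.mem_spectrum_iff_isRoot_charpoly.mpr hroot
  have hpow : μ ^ n ∈ spectrum ℂ (A ^ n) := spectrum.pow_mem_pow A n hspec
  rw [hA] at hpow
  have h1 : μ ^ n = 1 := by
    rcases isEmpty_or_nonempty ι with h | h
    · exfalso
      have : A.charpoly = 1 := by simp [Matrix.charpoly, Matrix.det_isEmpty]
      rw [this] at hμ
      simp at hμ
    · rw [spectrum.one_eq] at hpow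
      exact hpow
  refine IsIntegral.of_pow hn ?_
  rw [h1]
  exact isIntegral_one

/-- A complex matrix of finite order has integral determinant. -/
lemma isIntegral_det_of_pow_eq_one {ι : Type*} [Fintype ι] [DecidableEq ι]
    (A : Matrix ι ι ℂ) (n : ℕ) (hn : 0 < n) (hA : A ^ n = 1) : IsIntegral ℤ A.det := by
  refine IsIntegral.of_pow hn ?_
  rw [← Matrix.det_pow, hA, Matrix.det_one]
  exact isIntegral_one

lemma rho_pow_card {F : Type*} [Field F] {ι : Type*} [Fintype ι] [DecidableEq ι]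
    (ρ : G →* Matrix ι ι F) (g : G) : ρ g ^ Fintype.card G = 1 := by
  rw [← map_pow, pow_card_eq_one, map_one]

lemma isIntegral_chr {ι : Type*} [Fintype ι] [DecidableEq ι]
    (ρ : G →* Matrix ι ι ℂ) (g : G) : IsIntegral ℤ (chr ρ g) :=
  isIntegral_trace_of_pow_eq_one (ρ g) (Fintype.card G) Fintype.card_pos (rho_pow_card ρ g)

end Fermat.Agent.S48.H78

end
-- ==== END Fermat.Agent.S48.H78_LiftWedd

-- ==== BEGIN Fermat.Agent.S48.Int.Defs
section

/-!
# S48, leaf A (`Stmt_Int`): interfaces of the sub-leaves (helper55)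

Route (no Hecke operators on `Γ₁(N)`, no Galois descent for (i), (ii)):

* `Stmt_Decomp` : every `f ∈ S₁(Γ₁(N))` is a sum of forms with nebentypus.
* `Stmt_Eis`    : for odd `ψ` mod `N` the weight 3 Eisenstein series `E_ψ` with `q`-expansion
                  `∑ (∑_{c e = n} ψ(c) e²) qⁿ` (leading coefficient `1`, coefficients in `ℤ[ψ]`).
* `Stmt_Prod`   : `f_χ · E_{χ⁻¹} ∈ S₄(Γ₀(N))`, `f_χ ^ m ∈ S_m(Γ₀(N))` with the expected `q`-expansions.
* `Stmt_CoeffFG`: the coefficients of any `F ∈ S₄(Γ₀(N))` lie in a finitely generated subgroup of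
                  `ℂ` (`a_n(F) = a_1(T_n F)` and the Hecke algebra is finite over `ℤ`: S22).
* `Stmt_NebGS`  : conjugates of forms with nebentypus (S23 Galois stability for `Γ₀(N)`, all
                  weights, applied to `f E` and `f ^ m`, then division).

(i), (ii): the coefficients of `f` lie in a finitely generated subgroup `Λ` of `ℂ` stable under the
values of the characters; the relations `a_p a_n = a_{pn} + ε(p) a_{n/p}` give by induction that
all monomials in the `a_p` lie in `Λ`, so `ℤ[a_p : p ∤ N]` is a finitely generated `ℤ`-module.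
(iii): `f^σ = ∑_χ (f_χ)^σ`.
-/

set_option autoImplicit false

open CongruenceSubgroup UpperHalfPlane ModularForm
open scoped MatrixGroups ModularForm Manifold

namespace Fermat.Agent.S48.Int

/-- `f` transforms under `Γ₀(N)` with weight `k` and character `χ`:
`f ∣[k] γ = χ(d_γ) f`. -/
def HasNeb (N : ℕ) (χ : DirichletCharacter ℂ N) (k : ℤ) (f : ℍ → ℂ) : Prop :=
  ∀ γ : SL(2, ℤ), γ ∈ Gamma0 N → f ∣[k] γ = χ (((γ 1 1 : ℤ) : ZMod N)) • f

/-- The coefficient series `∑ (∑_{c e = n} ψ(c) e²) qⁿ` of the weight 3 Eisenstein series. -/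
noncomputable def eisSeries (N : ℕ) (ψ : DirichletCharacter ℂ N) : PowerSeries ℂ :=
  PowerSeries.mk fun n => Fermat.Agent.NEB.H34.sigmaChi (fun c : ℤ => ψ ((c : ZMod N))) 2 n

/-- **A-Eis**: the weight 3 Eisenstein series of an odd character. -/
def Stmt_Eis : Prop :=
  ∀ (N : ℕ) [NeZero N], 3 ≤ N → ∀ ψ : DirichletCharacter ℂ N, ψ (-1) = -1 →
    ∃ E : ℍ → ℂ, MDifferentiable 𝓘(ℂ) 𝓘(ℂ) E ∧
      (∀ A : SL(2, ℤ), IsBoundedAtImInfty (E ∣[(3 : ℤ)] A)) ∧
      HasNeb N ψ 3 E ∧ qExpansion 1 E = eisSeries N ψ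

/-- **A-Decomp**: decomposition of `S₁(Γ₁(N))` into nebentypus components. -/
def Stmt_Decomp : Prop :=
  ∀ (N : ℕ) [NeZero N] (f : CuspForm (Gamma1 N) 1),
    ∃ F : DirichletCharacter ℂ N → CuspForm (Gamma1 N) 1,
      (∀ χ, HasNeb N χ 1 (F χ)) ∧ ∀ z : ℍ, f z = ∑ χ, F χ z

/-- **A-Prod**: the product of a cusp form on `Γ₁(N)` of weight `k₁` with character `χ` and a
holomorphic function, bounded at all cusps, of weight `k₂` with character `χ⁻¹`, is a cusp form on
`Γ₀(N)`; the `q`-expansions multiply. -/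
def Stmt_Prod : Prop :=
  ∀ (N : ℕ) [NeZero N] (χ : DirichletCharacter ℂ N) (k₁ k₂ : ℤ) (f : CuspForm (Gamma1 N) k₁)
    (E : ℍ → ℂ), HasNeb N χ k₁ f → MDifferentiable 𝓘(ℂ) 𝓘(ℂ) E →
      (∀ A : SL(2, ℤ), IsBoundedAtImInfty (E ∣[k₂] A)) → HasNeb N χ⁻¹ k₂ E →
      ∃ G : CuspForm (Gamma0 N) (k₁ + k₂), (∀ z, G z = f z * E z) ∧
        qExpansion 1 G = qExpansion 1 f * qExpansion 1 E

/-- **A-Pow**: the `m`-th power of a cusp form with character `χ`, `χ ^ m = 1`, `0 < m`, is a cusp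
form on `Γ₀(N)`. -/
def Stmt_Pow : Prop :=
  ∀ (N : ℕ) [NeZero N] (χ : DirichletCharacter ℂ N) (k : ℤ) (f : CuspForm (Gamma1 N) k)
    (m : ℕ), 0 < m → χ ^ m = 1 → HasNeb N χ k f →
      ∃ G : CuspForm (Gamma0 N) (k * m), (∀ z, G z = f z ^ m) ∧
        qExpansion 1 G = qExpansion 1 f ^ m

/-- **A-CoeffFG**: the `q`-coefficients of a cusp form of weight 4 on `Γ₀(N)` lie in a finitely
generated subgroup of `ℂ`. -/
def Stmt_CoeffFG : Prop :=
  ∀ (N : ℕ) [NeZero N] (F : CuspForm (Gamma0 N) 4),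
    ∃ Λ : Submodule ℤ ℂ, Λ.FG ∧ ∀ n : ℕ, (qExpansion 1 F).coeff n ∈ Λ

/-- **A-NebGS**: Galois stability for cusp forms of weight one with nebentypus. -/
def Stmt_NebGS : Prop :=
  ∀ (N : ℕ) [NeZero N], 3 ≤ N → ∀ (χ : DirichletCharacter ℂ N) (f : CuspForm (Gamma1 N) 1),
    HasNeb N χ 1 f → ∀ σ : ℂ →+* ℂ, ∃ f' : CuspForm (Gamma1 N) 1,
      qExpansion 1 f' = (qExpansion 1 f).map σ

/-- **A-I12**: claims (i) and (ii) of `Stmt_Int`. -/
def Stmt_Int12 : Prop :=
  ∀ (N : ℕ) [NeZero N] (ε : DirichletCharacter ℂ N) (f : CuspForm (Gamma1 N) 1),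
    IsDSForm N ε f →
      (∀ p : ℕ, p.Prime → ¬ p ∣ N → IsIntegral ℤ (ModularFormClass.qCoeff f p)) ∧
      FiniteDimensional ℚ
        (IntermediateField.adjoin ℚ
          {x : ℂ | ∃ p : ℕ, p.Prime ∧ ¬ p ∣ N ∧ x = ModularFormClass.qCoeff f p})

/-- **A-I3**: claim (iii) of `Stmt_Int`, for every cusp form. -/
def Stmt_Int3 : Prop :=
  ∀ (N : ℕ) [NeZero N] (f : CuspForm (Gamma1 N) 1) (σ : ℂ →+* ℂ),
    ∃ f' : CuspForm (Gamma1 N) 1,
      ∀ n : ℕ, ModularFormClass.qCoeff f' n = σ (ModularFormClass.qCoeff f n)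

/-- Assembly of leaf A. -/
theorem stmt_Int_of (h12 : Stmt_Int12) (h3 : Stmt_Int3) : Stmt_Int := by
  intro N _ ε f hf
  obtain ⟨h1, h2⟩ := h12 N ε f hf
  exact ⟨h1, h2, fun σ => h3 N f σ⟩

end Fermat.Agent.S48.Int

end
-- ==== END Fermat.Agent.S48.Int.Defs

-- ==== BEGIN Fermat.Agent.S48.Wiring
section

/-!
# S48: top level wiring (helper43)

`Stmt_Core` and `Stmt_Irr` give the frozen statement of S48.
-/

set_option autoImplicit false

open CongruenceSubgroup
open scoped MatrixGroups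

namespace Fermat.Agent.S48

local notation "Γℚ" => (AlgebraicClosure ℚ ≃ₐ[ℚ] AlgebraicClosure ℚ)

/-- The frozen statement of S48 from `Stmt_Core` and `Stmt_Irr`. -/
theorem S48_of_core_irr (hC : Stmt_Core) (hI : Stmt_Irr)
    (N : ℕ) [NeZero N] (ε : DirichletCharacter ℂ N) (f : CuspForm (Gamma1 N) 1)
    (hf₁ : ModularFormClass.qCoeff f 1 = 1)
    (hT : ∀ p : ℕ, p.Prime → ¬ p ∣ N → ∀ n : ℕ,
        ModularFormClass.qCoeff f (p * n) +
            ε (p : ZMod N) * (if p ∣ n then ModularFormClass.qCoeff f (n / p) else 0) =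
          ModularFormClass.qCoeff f p * ModularFormClass.qCoeff f n) :
    ∃ ρ : Γℚ →* GL (Fin 2) ℂ, GaloisFactorsThroughFiniteLevel ρ ∧
      (Deformation.matrixRepresentation ρ).IsIrreducible ∧
      ∀ p : ℕ, p.Prime → ¬ p ∣ N →
        ∀ A : ValuationSubring (AlgebraicClosure ℚ), A.LiesOverPrime p →
          (∀ σ ∈ A.inertiaSubgroupIn ℚ, ρ σ = 1) ∧
          ∀ σ : Γℚ, A.IsFrobeniusAt σ p →
            ((ρ σ : GL (Fin 2) ℂ) : Matrix (Fin 2) (Fin 2) ℂ).trace = ModularFormClass.qCoeff f p ∧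
            ((ρ σ : GL (Fin 2) ℂ) : Matrix (Fin 2) (Fin 2) ℂ).det = ε (p : ZMod N) := by
  have hf : IsDSForm N ε f := ⟨hf₁, hT⟩
  obtain ⟨ρ, hρ⟩ := hC N ε f hf
  exact ⟨ρ, hρ.1, hI N ε f hf ρ hρ, fun p hp hpN A hA => hρ.2 p hp hpN A hA⟩

end Fermat.Agent.S48

end
-- ==== END Fermat.Agent.S48.Wiring

-- ==== BEGIN Fermat.Agent.S49.H44_AbstractLift
section

set_option autoImplicit false

namespace Fermat.Agent.S49.H44

open Module Module.End

/-- Abstract Deligne–Serre lifting lemma, formulated without tensor products.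
`VA` plays the role of the `A`-lattice and `VI` of `I • VA`. -/
theorem abstract_lifting {K V ι : Type*} [Field K] [IsAlgClosed K] [AddCommGroup V] [Module K V]
    [FiniteDimensional K V]
    (f : ι → Module.End K V) (hcomm : ∀ i j, Commute (f i) (f j))
    {A : Type*} [CommRing A] [Algebra A K] (I : Ideal A) (hI : I.IsPrime)
    (VA VI : AddSubgroup V)
    (hAVA : ∀ a : A, ∀ v ∈ VA, (algebraMap A K a) • v ∈ VA)
    (hAVI : ∀ a : A, ∀ v ∈ VI, (algebraMap A K a) • v ∈ VI)
    (hfVA : ∀ i, ∀ v ∈ VA, f i v ∈ VA)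
    (hfVI : ∀ i, ∀ v ∈ VI, f i v ∈ VI)
    (heig : ∀ i μ, (f i).HasEigenvalue μ → ∃ x : A, algebraMap A K x = μ)
    (a : ι → A) (v0 : V) (hv0 : v0 ∈ VA)
    (hv0eig : ∀ i, f i v0 - (algebraMap A K (a i)) • v0 ∈ VI)
    (hprim : ∀ c : A, (algebraMap A K c) • v0 ∈ VI → c ∈ I) :
    ∃ (χ : ι → A) (v : V), v ≠ 0 ∧ (∀ i, f i v = (algebraMap A K (χ i)) • v) ∧
      ∀ i, χ i - a i ∈ I := by
  classical
  by_contra hcon
  -- the generating set of operators
  set S : Set (Module.End K V) :=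
    {T | ∃ (i : ι) (l : A), a i - l ∉ I ∧ T = f i - (algebraMap A K l) • (1 : Module.End K V)} with hS
  set P : Submonoid (Module.End K V) := Submonoid.closure S with hP
  -- (α)
  have hα : ∀ T ∈ P, ∀ g : V, g ∈ VA → (∀ i, f i g - (algebraMap A K (a i)) • g ∈ VI) →
      (T g ∈ VA ∧ (∀ i, f i (T g) - (algebraMap A K (a i)) • T g ∈ VI) ∧
        ∃ c : A, c ∉ I ∧ T g - (algebraMap A K c) • g ∈ VI) := by
    intro T hT
    induction hT using Submonoid.closure_induction with
    | mem T hTS =>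
      obtain ⟨j, l, hl, rfl⟩ := hTS
      intro g hg hge
      have h1 : (f j - (algebraMap A K l) • (1 : Module.End K V)) g = f j g - (algebraMap A K l) • g := by
        simp
      rw [h1]
      refine ⟨VA.sub_mem (hfVA j g hg) (hAVA l g hg), ?_, a j - l, hl, ?_⟩
      · intro i
        have hc : f i (f j g) = f j (f i g) := congrArg (fun T => T g) (hcomm i j).eq
        have : f i (f j g - (algebraMap A K l) • g) - (algebraMap A K (a i)) • (f j g - (algebraMap A K l) • g)
            = f j (f i g - (algebraMap A K (a i)) • g) - (algebraMap A K l) • (f i g - (algebraMap A K (a i)) • g) := by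
          simp only [map_sub, map_smul, smul_sub, hc]
          rw [smul_comm (algebraMap A K (a i)) (algebraMap A K l) g]
          abel
        rw [this]
        exact VI.sub_mem (hfVI j _ (hge i)) (hAVI l _ (hge i))
      · have : f j g - (algebraMap A K l) • g - (algebraMap A K (a j - l)) • g = f j g - (algebraMap A K (a j)) • g := by
          rw [map_sub, sub_smul]
          abel
        rw [this]
        exact hge j
    | one =>
      intro g hg hge
      refine ⟨by simpa using hg, by simpa using hge, 1, ?_, by simp⟩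
      exact fun h => hI.ne_top ((Ideal.eq_top_iff_one _).mpr h)
    | mul T T' _ _ ihT ihT' =>
      intro g hg hge
      obtain ⟨h1, h2, c', hc', h3⟩ := ihT' g hg hge
      obtain ⟨h4, h5, c, hc, h6⟩ := ihT (T' g) h1 h2
      refine ⟨h4, h5, c * c', ?_, ?_⟩
      · intro h
        rcases hI.mem_or_mem h with h | h
        · exact hc h
        · exact hc' h
      · have : (T * T') g - (algebraMap A K (c * c')) • g
            = (T (T' g) - (algebraMap A K c) • T' g) + (algebraMap A K c) • (T' g - (algebraMap A K c') • g) := by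
          rw [map_mul, Module.End.mul_apply, smul_sub, mul_smul]
          abel
        rw [this]
        exact VI.add_mem h6 (hAVI c _ h3)
  have hα' : ∀ T ∈ P, T v0 ≠ 0 := by
    intro T hT h0
    obtain ⟨-, -, c, hc, h⟩ := hα T hT v0 hv0 hv0eig
    rw [h0, zero_sub] at h
    exact hc (hprim c (by simpa using VI.neg_mem h))
  -- commutativity
  have hcommP : ∀ T ∈ P, ∀ j, Commute T (f j) := by
    intro T hT j
    induction hT using Submonoid.closure_induction with
    | mem T hTS =>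
      obtain ⟨i, l, -, rfl⟩ := hTS
      exact ((hcomm i j).sub_left
        ((Commute.one_left (f j)).smul_left (algebraMap A K l)))
    | one => exact Commute.one_left _
    | mul T T' _ _ ihT ihT' => exact ihT.mul_left ihT'
  have hcommPP : ∀ T ∈ P, ∀ T' ∈ P, Commute T T' := by
    intro T hT T' hT'
    induction hT' using Submonoid.closure_induction with
    | mem T' hTS =>
      obtain ⟨i, l, -, rfl⟩ := hTS
      exact ((hcommP T hT i).sub_right
        ((Commute.one_right T).smul_right (algebraMap A K l)))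
    | one => exact Commute.one_right _
    | mul T' T'' _ _ ihT ihT' => exact ihT.mul_right ihT'
  -- the subspace killed by some element of P
  let 𝒦 : Submodule K V :=
    { carrier := {v | ∃ T ∈ P, T v = 0}
      zero_mem' := ⟨1, P.one_mem, by simp⟩
      add_mem' := by
        rintro v w ⟨T, hT, hTv⟩ ⟨T', hT', hT'w⟩
        refine ⟨T * T', P.mul_mem hT hT', ?_⟩
        have hc : (T * T') v = (T' * T) v := congrArg (fun X => X v) (hcommPP T hT T' hT').eq
        rw [map_add, hc, Module.End.mul_apply, Module.End.mul_apply, hTv, hT'w]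
        simp
      smul_mem' := by
        rintro c v ⟨T, hT, hTv⟩
        exact ⟨T, hT, by rw [map_smul, hTv, smul_zero]⟩ }
  have hW : ∀ χ : ι → K, (⨅ i, (f i).maxGenEigenspace (χ i)) ≤ 𝒦 := by
    intro χ
    by_cases hbot : (⨅ i, (f i).maxGenEigenspace (χ i)) = ⊥
    · rw [hbot]; exact bot_le
    · have hχA : ∀ i, ∃ x : A, algebraMap A K x = χ i := by
        intro i
        apply heig i
        have hne : (f i).maxGenEigenspace (χ i) ≠ ⊥ := by
          intro h
          apply hbot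
          exact le_bot_iff.mp (h ▸ iInf_le _ i)
        have : (f i).HasUnifEigenvalue (χ i) ⊤ := hne
        exact (hasUnifEigenvalue_iff_hasUnifEigenvalue_one (by simp)).mp this
      choose x hx using hχA
      obtain ⟨v, hv0, hv⟩ := exists_simultaneous_eigenvector f hcomm χ hbot
      have : ¬ ∀ i, x i - a i ∈ I := by
        intro h
        exact hcon ⟨x, v, hv0, fun i => by rw [hx i]; exact hv i, h⟩
      simp only [not_forall] at this
      obtain ⟨j, hj⟩ := this
      have hj' : a j - x j ∉ I := by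
        intro h
        apply hj
        have := I.neg_mem h
        simpa using this
      have hTS : f j - χ j • (1 : Module.End K V) ∈ S := ⟨j, x j, hj', by rw [hx j]⟩
      have hTP : (f j - χ j • (1 : Module.End K V)) ^ (finrank K V) ∈ P :=
        P.pow_mem (Submonoid.subset_closure hTS) _
      intro w hw
      refine ⟨_, hTP, ?_⟩
      have hw' : w ∈ (f j).maxGenEigenspace (χ j) := by
        simp only [Submodule.mem_iInf] at hw
        exact hw j
      rw [maxGenEigenspace_eq_genEigenspace_finrank] at hw'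
      exact mem_genEigenspace_nat.mp hw'
  have htop : (⨆ χ : ι → K, ⨅ i, (f i).maxGenEigenspace (χ i)) = ⊤ :=
    iSup_iInf_maxGenEigenspace_eq_top_of_iSup_maxGenEigenspace_eq_top_of_commute f
      (fun i j _ => hcomm i j) (fun i => iSup_maxGenEigenspace_eq_top (f i))
  have h𝒦 : 𝒦 = ⊤ := by
    rw [eq_top_iff, ← htop]
    exact iSup_le hW
  have : v0 ∈ 𝒦 := by rw [h𝒦]; trivial
  obtain ⟨T, hT, hTv⟩ := this
  exact hα' T hT hTv

end Fermat.Agent.S49.H44

end
-- ==== END Fermat.Agent.S49.H44_AbstractLift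

-- ==== BEGIN Fermat.Agent.S59.Lim.H2_TateMap
section

/-!
# S59, package LIM, leaf LIM-TATE (helper2), part 2: functoriality of the Tate module

* `map ϖ f : tate ϖ W →ₗ[𝒪] tate ϖ W'` for `f : W →ₗ[𝒪] W'`; `ev_map`, `map_id`, `map_comp`.
* `mapEnd ϖ W : Module.End 𝒪 W →ₐ[𝒪] Module.End 𝒪 (tate ϖ W)`; `mapEnd_injective`
  (`W` torsion and divisible).
* `map_injective` (`f` injective on the torsion), `map_surjective` (`f` onto on the `ϖ`-torsion,
  `T_ϖ W'` finite, `𝒪` local with `ϖ ∈ 𝔪`).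
* `mapEnd_mem_smul` : an endomorphism killing `W[ϖ]` maps `T` into `ϖ T`.
* `range_map_sub_one_le_ker` etc.: bookkeeping for kernels.

This file contains no `sorry`.
-/

set_option autoImplicit false
set_option linter.style.haveILetI false
set_option linter.unusedSectionVars false
set_option linter.unusedVariables false

noncomputable section

open IsLocalRing

namespace Fermat.Agent.S59.Lim.H2

section Map

variable {𝒪 : Type*} [CommRing 𝒪] (ϖ : 𝒪) {W : Type*} [AddCommGroup W] [Module 𝒪 W]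
  {W' : Type*} [AddCommGroup W'] [Module 𝒪 W'] {W'' : Type*} [AddCommGroup W''] [Module 𝒪 W'']

/-- Functoriality of the Tate module. -/
def map (f : W →ₗ[𝒪] W') : tate ϖ W →ₗ[𝒪] tate ϖ W' where
  toFun x := ⟨fun k => f (x.1 k), by
    refine ⟨?_, fun k => ?_⟩
    · show f (x.1 0) = 0
      rw [x.2.1, map_zero]
    · show ϖ • f (x.1 (k + 1)) = f (x.1 k)
      rw [← map_smul, x.2.2 k]⟩
  map_add' x y := by
    apply Subtype.ext
    funext k
    show f ((x + y).1 k) = f (x.1 k) + f (y.1 k)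
    rw [← map_add]
    rfl
  map_smul' c x := by
    apply Subtype.ext
    funext k
    show f ((c • x).1 k) = c • f (x.1 k)
    rw [← map_smul]
    rfl

variable {ϖ}

@[simp] theorem ev_map (f : W →ₗ[𝒪] W') (k : ℕ) (x : tate ϖ W) :
    ev ϖ W' k (map ϖ f x) = f (ev ϖ W k x) := rfl

@[simp] theorem map_id : map ϖ (LinearMap.id : W →ₗ[𝒪] W) = LinearMap.id := by
  ext x
  rfl

theorem map_comp (g : W' →ₗ[𝒪] W'') (f : W →ₗ[𝒪] W') :
    map ϖ (g ∘ₗ f) = map ϖ g ∘ₗ map ϖ f := by
  ext x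
  rfl

theorem map_comp_apply (g : W' →ₗ[𝒪] W'') (f : W →ₗ[𝒪] W') (x : tate ϖ W) :
    map ϖ (g ∘ₗ f) x = map ϖ g (map ϖ f x) := rfl

theorem map_add' (f g : W →ₗ[𝒪] W') : map ϖ (f + g) = map ϖ f + map ϖ g := by
  ext x
  rfl

theorem map_sub' (f g : W →ₗ[𝒪] W') : map ϖ (f - g) = map ϖ f - map ϖ g := by
  ext x
  rfl

theorem map_smul' (c : 𝒪) (f : W →ₗ[𝒪] W') : map ϖ (c • f) = c • map ϖ f := by
  ext x
  rfl

theorem map_zero' : map ϖ (0 : W →ₗ[𝒪] W') = 0 := by
  ext x
  rfl

variable (ϖ W)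

/-- The induced map on endomorphism algebras. -/
def mapEnd : Module.End 𝒪 W →ₐ[𝒪] Module.End 𝒪 (tate ϖ W) where
  toFun f := map ϖ f
  map_one' := map_id
  map_mul' f g := map_comp f g
  map_zero' := map_zero'
  map_add' f g := map_add' f g
  commutes' c := by
    ext x
    rfl

variable {ϖ W}

@[simp] theorem mapEnd_apply (f : Module.End 𝒪 W) : mapEnd ϖ W f = map ϖ f := rfl

@[simp] theorem ev_mapEnd (f : Module.End 𝒪 W) (k : ℕ) (x : tate ϖ W) :
    ev ϖ W k (mapEnd ϖ W f x) = f (ev ϖ W k x) := rfl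

/-- `T_ϖ` is faithful on divisible torsion modules. -/
theorem map_eq_zero_iff (hdiv : ∀ w : W, ∃ v : W, ϖ • v = w)
    (htors : ∀ w : W, ∃ k : ℕ, ϖ ^ k • w = 0) (f : W →ₗ[𝒪] W') :
    map ϖ f = 0 ↔ f = 0 := by
  constructor
  · intro h
    ext w
    obtain ⟨k, x, rfl⟩ := exists_ev_eq_of_torsion hdiv htors w
    rw [← ev_map, h]
    rfl
  · rintro rfl
    exact map_zero'

theorem map_injective_of (hdiv : ∀ w : W, ∃ v : W, ϖ • v = w)
    (htors : ∀ w : W, ∃ k : ℕ, ϖ ^ k • w = 0) :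
    Function.Injective (map ϖ : (W →ₗ[𝒪] W') → _) := by
  intro f g hfg
  have : map ϖ (f - g) = 0 := by
    rw [map_sub']
    exact sub_eq_zero.mpr hfg
  exact sub_eq_zero.mp ((map_eq_zero_iff hdiv htors _).mp this)

theorem mapEnd_injective (hdiv : ∀ w : W, ∃ v : W, ϖ • v = w)
    (htors : ∀ w : W, ∃ k : ℕ, ϖ ^ k • w = 0) : Function.Injective (mapEnd ϖ W) :=
  map_injective_of hdiv htors

/-- `T_ϖ f` is injective if `f` is. -/
theorem map_injective (f : W →ₗ[𝒪] W') (hf : Function.Injective f) :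
    Function.Injective (map ϖ f) := by
  intro x y hxy
  apply tate_ext
  intro k
  apply hf
  rw [← ev_map, ← ev_map, hxy]

/-- The kernel of `T_ϖ f` is the Tate module of the kernel. -/
theorem map_apply_eq_zero_iff (f : W →ₗ[𝒪] W') (x : tate ϖ W) :
    map ϖ f x = 0 ↔ ∀ k, f (ev ϖ W k x) = 0 := by
  constructor
  · intro h k
    rw [← ev_map, h]
    rfl
  · intro h
    apply tate_ext
    intro k
    rw [ev_map, h k]
    rfl

/-- An endomorphism killing the `ϖ`-torsion maps `T` into `ϖ T`. -/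
theorem exists_smul_eq_map (f : W →ₗ[𝒪] W') (hf : ∀ w : W, ϖ • w = 0 → f w = 0)
    (x : tate ϖ W) : ∃ y : tate ϖ W', map ϖ f x = ϖ • y := by
  have h : ev ϖ W' 1 (map ϖ f x) = 0 := by
    rw [ev_map]
    apply hf
    have := pow_smul_ev 1 x
    rwa [pow_one] at this
  obtain ⟨y, hy⟩ := (ev_eq_zero_iff 1 _).mp h
  exact ⟨y, by rw [hy, pow_one]⟩

end Map

section Local

variable {𝒪 : Type*} [CommRing 𝒪] [IsLocalRing 𝒪] {ϖ : 𝒪}
  {W : Type*} [AddCommGroup W] [Module 𝒪 W] {W' : Type*} [AddCommGroup W'] [Module 𝒪 W']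

theorem map_mem_maximalIdeal_smul (hϖ : ϖ ∈ maximalIdeal 𝒪) (f : W →ₗ[𝒪] W')
    (hf : ∀ w : W, ϖ • w = 0 → f w = 0) (x : tate ϖ W) :
    map ϖ f x ∈ (maximalIdeal 𝒪 • ⊤ : Submodule 𝒪 (tate ϖ W')) := by
  obtain ⟨y, hy⟩ := exists_smul_eq_map f hf x
  rw [hy]
  exact Submodule.smul_mem_smul hϖ Submodule.mem_top

/-- `T_ϖ f` is onto if `f` maps `W[ϖ]` onto `W'[ϖ]`, `W` is divisible and `T_ϖ W'` is finite
(Nakayama). -/
theorem map_surjective (hϖ : ϖ ∈ maximalIdeal 𝒪) [Module.Finite 𝒪 (tate ϖ W')]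
    (hdiv : ∀ w : W, ∃ v : W, ϖ • v = w) (f : W →ₗ[𝒪] W')
    (hf : ∀ w' : W', ϖ • w' = 0 → ∃ w : W, ϖ • w = 0 ∧ f w = w') :
    Function.Surjective (map ϖ f) := by
  rw [← LinearMap.range_eq_top, eq_top_iff]
  refine Submodule.le_of_le_smul_of_le_jacobson_bot (I := maximalIdeal 𝒪) Module.Finite.fg_top
    (IsLocalRing.jacobson_eq_maximalIdeal ⊥ bot_ne_top).ge ?_
  rintro y -
  have hy1 : ϖ • ev ϖ W' 1 y = 0 := by
    have := pow_smul_ev 1 y
    rwa [pow_one] at this
  obtain ⟨w, hw, hfw⟩ := hf _ hy1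
  obtain ⟨x, hx⟩ := exists_ev_eq hdiv 1 w (by rwa [pow_one])
  have h0 : ev ϖ W' 1 (y - map ϖ f x) = 0 := by
    rw [_root_.map_sub, ev_map, hx, hfw, sub_self]
  obtain ⟨z, hz⟩ := (ev_eq_zero_iff 1 _).mp h0
  rw [pow_one] at hz
  have : y = map ϖ f x + ϖ • z := by
    rw [← hz]
    abel
  rw [this]
  exact Submodule.add_mem_sup (LinearMap.mem_range_self _ x)
    (Submodule.smul_mem_smul hϖ Submodule.mem_top)

/-- Pointwise form: if `f` kills the first component of `x` then `T_ϖ f x ∈ 𝔪 T`. -/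
theorem map_mem_maximalIdeal_smul_of_ev_one (hϖ : ϖ ∈ maximalIdeal 𝒪) (f : W →ₗ[𝒪] W')
    (x : tate ϖ W) (h : f (ev ϖ W 1 x) = 0) :
    map ϖ f x ∈ (maximalIdeal 𝒪 • ⊤ : Submodule 𝒪 (tate ϖ W')) := by
  have h1 : ev ϖ W' 1 (map ϖ f x) = 0 := h
  obtain ⟨y, hy⟩ := (ev_eq_zero_iff 1 _).mp h1
  rw [hy, pow_one]
  exact Submodule.smul_mem_smul hϖ Submodule.mem_top

end Local

/-! ### Submodules -/

section Sub

variable {𝒪 : Type*} [CommRing 𝒪] (ϖ : 𝒪) {W : Type*} [AddCommGroup W] [Module 𝒪 W]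

/-- The Tate module of a submodule `U ≤ W`, inside `T_ϖ W`. -/
def tateSub (U : Submodule 𝒪 W) : Submodule 𝒪 (tate ϖ W) := ⨅ k, U.comap (ev ϖ W k)

variable {ϖ}

theorem mem_tateSub {U : Submodule 𝒪 W} {x : tate ϖ W} :
    x ∈ tateSub ϖ U ↔ ∀ k, ev ϖ W k x ∈ U := by
  simp only [tateSub, Submodule.mem_iInf, Submodule.mem_comap]

theorem tateSub_mono {U U' : Submodule 𝒪 W} (h : U ≤ U') : tateSub ϖ U ≤ tateSub ϖ U' :=
  fun _ hx => mem_tateSub.mpr fun k => h (mem_tateSub.mp hx k)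

/-- An endomorphism preserving `U` preserves `T_ϖ U`. -/
theorem map_mem_tateSub {U : Submodule 𝒪 W} (f : W →ₗ[𝒪] W) (hf : ∀ w ∈ U, f w ∈ U)
    {x : tate ϖ W} (hx : x ∈ tateSub ϖ U) : map ϖ f x ∈ tateSub ϖ U :=
  mem_tateSub.mpr fun k => hf _ (mem_tateSub.mp hx k)

/-- `T_ϖ` commutes with direct sums. -/
theorem isCompl_tateSub {U U' : Submodule 𝒪 W} (h : IsCompl U U') :
    IsCompl (tateSub ϖ U) (tateSub ϖ U') := by
  constructor
  · rw [Submodule.disjoint_def]
    intro x hx hx'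
    apply tate_ext
    intro k
    have h1 := mem_tateSub.mp hx k
    have h2 := mem_tateSub.mp hx' k
    have : ev ϖ W k x ∈ U ⊓ U' := ⟨h1, h2⟩
    rw [h.inf_eq_bot, Submodule.mem_bot] at this
    rw [this, _root_.map_zero]
  · rw [codisjoint_iff, eq_top_iff]
    rintro x -
    let p : W →ₗ[𝒪] W := U.subtype ∘ₗ Submodule.linearProjOfIsCompl U U' h
    have hp : ∀ w, p w ∈ U := fun w => (Submodule.linearProjOfIsCompl U U' h w).2
    have hp' : ∀ w, w - p w ∈ U' := by
      intro w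
      have h1 : Submodule.linearProjOfIsCompl U U' h (w - p w) = 0 := by
        rw [_root_.map_sub]
        have : Submodule.linearProjOfIsCompl U U' h (p w) =
            Submodule.linearProjOfIsCompl U U' h w :=
          Submodule.linearProjOfIsCompl_apply_left h _
        rw [this, sub_self]
      exact (Submodule.linearProjOfIsCompl_apply_eq_zero_iff h).mp h1
    have hx : x = map ϖ p x + (x - map ϖ p x) := by abel
    rw [hx]
    refine Submodule.add_mem_sup (mem_tateSub.mpr fun k => hp _) (mem_tateSub.mpr fun k => ?_)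
    rw [_root_.map_sub, ev_map]
    exact hp' _

end Sub

end Fermat.Agent.S59.Lim.H2

end
end
-- ==== END Fermat.Agent.S59.Lim.H2_TateMap
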