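-- GENERATED (merged mirror, NOTES/tools/trim/merge3_helper67.py): 8 modules of the originals, bodies verbatim.
import Mathlib
import Fermat.Agent.Zm.S48_L02_001
import Fermat.Agent.Zm.S48_L01_003
import Fermat.Agent.Zm.S48_L02_000
import Fermat.Agent.Zm.S48_L01_002
import Fermat.Agent.Zm.S48_L02_003
import Fermat.Agent.Zm.S48_L02_002
import Fermat.Agent.Zm.S48_L01_000
import Fermat.Agent.S48.Cheb.H43_RootMod
import Fermat.Agent.Zm.S35_L04_002
import Fermat.Agent.Lib.SecondIneq.H31_RayAlg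

-- ==== BEGIN Fermat.Agent.S48.Asm.H78_Thin
section

/-!
# S48 assembly leaf G-Thin: `Stmt_Int → Stmt_Rankin → Stmt_Thin`

`K = ℚ(a_p : p ∤ N)` is a number field (Int); each embedding `φ : K → ℂ` extends to
`σ : ℂ →+* ℂ` (`exists_ringHom_extend`); the conjugate form `f^σ` (Int) is again a DS form, so
Rankin bounds `∑_T |φ a_p|² p^{-s}`; the set `Y` of integers of `K` all of whose conjugates have
absolute value `≤ max 1 (r/η)` is finite (Northcott), and for `a_p ∉ Y` the sum over `φ` of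
`|φ a_p|²` is `≥ r/η`.
-/

set_option autoImplicit false
set_option linter.style.haveILetI false

open CongruenceSubgroup

namespace Fermat.Agent.S48.Asm.H78

open Fermat.Agent.S48 Fermat.Agent.S48.Asm

/-- The conjugate of a DS form is a DS form. -/
theorem isDSForm_conj (N : ℕ) [NeZero N] (ε : DirichletCharacter ℂ N)
    (f f' : CuspForm (Gamma1 N) 1) (σ : ℂ →+* ℂ) (hf : IsDSForm N ε f)
    (hf' : ∀ n : ℕ, ModularFormClass.qCoeff f' n = σ (ModularFormClass.qCoeff f n)) :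
    IsDSForm N (ε.ringHomComp σ) f' := by
  constructor
  · rw [hf', hf.one, map_one]
  · intro p hp hpN n
    have h := congrArg σ (hf.hecke p hp hpN n)
    simp only [map_add, map_mul, apply_ite σ, map_zero] at h
    simp only [hf', MulChar.ringHomComp_apply]
    exact h

/-- **G-Thin.** -/
theorem thin_of (hInt : Stmt_Int) (hR : Stmt_Rankin) : Stmt_Thin := by
  classical
  intro N _ ε f hf η hη
  obtain ⟨hint, hfd, hconj⟩ := hInt N ε f hf
  set K : IntermediateField ℚ ℂ := IntermediateField.adjoin ℚ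
    {x : ℂ | ∃ p : ℕ, p.Prime ∧ ¬ p ∣ N ∧ x = ModularFormClass.qCoeff f p} with hK
  haveI : FiniteDimensional ℚ K := hfd
  haveI : NumberField K := { to_charZero := inferInstance, to_finiteDimensional := hfd }
  haveI : Algebra.IsAlgebraic ℚ K := inferInstance
  -- the coefficients as elements of `K`
  set xK : ℕ → K := fun p =>
    if h : p.Prime ∧ ¬ p ∣ N then
      ⟨ModularFormClass.qCoeff f p, IntermediateField.subset_adjoin ℚ _ ⟨p, h.1, h.2, rfl⟩⟩
    else 0 with hxK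
  have hxK_coe : ∀ p : ℕ, p.Prime → ¬ p ∣ N → ((xK p : K) : ℂ) = ModularFormClass.qCoeff f p := by
    intro p hp hpN
    simp only [hxK, dif_pos (And.intro hp hpN)]
  -- Rankin for every conjugate
  have key : ∀ φ : K →+* ℂ, ∃ C : ℝ, ∀ s : ℝ, 1 < s → s ≤ 2 → ∀ T : Finset ℕ,
      (∀ p ∈ T, p.Prime ∧ ¬ p ∣ N) →
        ∑ p ∈ T, ‖φ (xK p)‖ ^ 2 * (p : ℝ) ^ (-s) ≤ Real.log (1 / (s - 1)) + C := by
    intro φ
    obtain ⟨σ, hσ⟩ := exists_ringHom_extend K φ
    obtain ⟨f', hf'⟩ := hconj σ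
    obtain ⟨C, hC⟩ := hR N (ε.ringHomComp σ) f' (isDSForm_conj N ε f f' σ hf hf')
    refine ⟨C, fun s hs1 hs2 T hT => ?_⟩
    have := hC s hs1 hs2 T hT
    refine le_trans (le_of_eq ?_) this
    refine Finset.sum_congr rfl (fun p hp => ?_)
    rw [hf', ← hxK_coe p (hT p hp).1 (hT p hp).2, hσ]
  choose C hC using key
  -- the finite set
  haveI : Nonempty (K →+* ℂ) := ⟨algebraMap K ℂ⟩
  set r : ℕ := Fintype.card (K →+* ℂ) with hr
  have hrpos : 0 < r := Fintype.card_pos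
  have hrR : (0 : ℝ) < r := by exact_mod_cast hrpos
  set c : ℝ := r / η with hc
  have hcpos : 0 < c := div_pos hrR hη
  set B : ℝ := max 1 c with hB
  have hfin := NumberField.Embeddings.finite_of_norm_le K ℂ B
  refine ⟨hfin.toFinset.image (fun x : K => (x : ℂ)), (∑ φ, C φ) / c, fun s hs1 hs2 T hT => ?_⟩
  have hT' : ∀ p ∈ T, p.Prime ∧ ¬ p ∣ N := fun p hp => ⟨(hT p hp).1, (hT p hp).2.1⟩
  -- for `p ∈ T` the sum of the squares of the conjugates is at least `c`
  have hbig : ∀ p ∈ T, c ≤ ∑ φ : K →+* ℂ, ‖φ (xK p)‖ ^ 2 := by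
    intro p hp
    obtain ⟨hpp, hpN, hpY⟩ := hT p hp
    have hnot : xK p ∉ {x : K | IsIntegral ℤ x ∧ ∀ φ : K →+* ℂ, ‖φ x‖ ≤ B} := by
      intro hmem
      apply hpY
      rw [Finset.mem_image]
      exact ⟨xK p, hfin.mem_toFinset.mpr hmem, hxK_coe p hpp hpN⟩
    have hintK : IsIntegral ℤ (xK p) := by
      have h1 : IsIntegral ℤ ((xK p : K) : ℂ) := by
        rw [hxK_coe p hpp hpN]; exact hint p hpp hpN
      exact (isIntegral_algebraMap_iff (algebraMap K ℂ).injective).mp h1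
    have hex : ∃ φ₀ : K →+* ℂ, B < ‖φ₀ (xK p)‖ := by
      by_contra hcon
      push Not at hcon
      exact hnot ⟨hintK, hcon⟩
    obtain ⟨φ₀, hφ₀⟩ := hex
    have h1 : (1 : ℝ) < ‖φ₀ (xK p)‖ := lt_of_le_of_lt (le_max_left _ _) hφ₀
    have h2 : c < ‖φ₀ (xK p)‖ := lt_of_le_of_lt (le_max_right _ _) hφ₀
    have h3 : c ≤ ‖φ₀ (xK p)‖ ^ 2 := by nlinarith
    refine h3.trans ?_
    exact Finset.single_le_sum (f := fun φ : K →+* ℂ => ‖φ (xK p)‖ ^ 2)
      (fun φ _ => sq_nonneg _) (Finset.mem_univ φ₀)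
  have hpow : ∀ p ∈ T, (0 : ℝ) ≤ (p : ℝ) ^ (-s) := fun p _ =>
    Real.rpow_nonneg (Nat.cast_nonneg p) _
  have hsum1 : c * ∑ p ∈ T, (p : ℝ) ^ (-s) ≤
      ∑ p ∈ T, (∑ φ : K →+* ℂ, ‖φ (xK p)‖ ^ 2) * (p : ℝ) ^ (-s) := by
    rw [Finset.mul_sum]
    exact Finset.sum_le_sum (fun p hp => mul_le_mul_of_nonneg_right (hbig p hp) (hpow p hp))
  have hsum2 : ∑ p ∈ T, (∑ φ : K →+* ℂ, ‖φ (xK p)‖ ^ 2) * (p : ℝ) ^ (-s) =
      ∑ φ : K →+* ℂ, ∑ p ∈ T, ‖φ (xK p)‖ ^ 2 * (p : ℝ) ^ (-s) := by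
    simp only [Finset.sum_mul]
    exact Finset.sum_comm
  have hsum3 : ∑ φ : K →+* ℂ, ∑ p ∈ T, ‖φ (xK p)‖ ^ 2 * (p : ℝ) ^ (-s) ≤
      (r : ℝ) * Real.log (1 / (s - 1)) + ∑ φ, C φ := by
    have : ∑ φ : K →+* ℂ, ∑ p ∈ T, ‖φ (xK p)‖ ^ 2 * (p : ℝ) ^ (-s) ≤
        ∑ φ : K →+* ℂ, (Real.log (1 / (s - 1)) + C φ) :=
      Finset.sum_le_sum (fun φ _ => hC φ s hs1 hs2 T hT')
    rw [Finset.sum_add_distrib, Finset.sum_const, Finset.card_univ, nsmul_eq_mul] at this
    exact this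
  have hall : c * ∑ p ∈ T, (p : ℝ) ^ (-s) ≤ (r : ℝ) * Real.log (1 / (s - 1)) + ∑ φ, C φ :=
    hsum1.trans (hsum2 ▸ hsum3)
  have hfinal : c * ∑ p ∈ T, (p : ℝ) ^ (-s) ≤
      c * (η * Real.log (1 / (s - 1)) + (∑ φ, C φ) / c) := by
    have e : c * (η * Real.log (1 / (s - 1)) + (∑ φ, C φ) / c) =
        (r : ℝ) * Real.log (1 / (s - 1)) + ∑ φ, C φ := by
      rw [hc]
      field_simp
    rw [e]
    exact hall
  exact le_of_mul_le_mul_left hfinal hcpos

end Fermat.Agent.S48.Asm.H78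

end
-- ==== END Fermat.Agent.S48.Asm.H78_Thin

-- ==== BEGIN Fermat.Agent.S48.B.H22_DirCharL
section

/-!
# S48, mountain B, leaf B4 = `Stmt_DirCharL` (helper22)

The Galois character of a Dirichlet character `ε` mod `N`, reduced along an arbitrary ring
homomorphism `φ : ℤ̄ → k`: `θ = φ ∘ ε ∘ κ_N`, where `κ_N : Γℚ → (ℤ/N)ˣ` is the cyclotomic
character mod `N`.

Main result: `Fermat.Agent.S48.B.H22.stmt_DirCharL : Stmt_DirCharL`.
-/

set_option autoImplicit false

namespace Fermat.Agent.S48.B.H22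

local notation "Γℚ" => (AlgebraicClosure ℚ ≃ₐ[ℚ] AlgebraicClosure ℚ)

/-- The cyclotomic character mod `N` on `Γℚ`. -/
noncomputable def kappa (N : ℕ) [NeZero N] : Γℚ →* (ZMod N)ˣ :=
  MonoidHom.mk'
    (fun σ => modularCyclotomicCharacter (AlgebraicClosure ℚ)
      (HasEnoughRootsOfUnity.natCard_rootsOfUnity (AlgebraicClosure ℚ) N)
      (σ : AlgebraicClosure ℚ ≃+* AlgebraicClosure ℚ))
    (fun a b => by rw [← map_mul]; congr 1)

theorem kappa_apply (N : ℕ) [NeZero N] (σ : Γℚ) :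
    kappa N σ = modularCyclotomicCharacter (AlgebraicClosure ℚ)
      (HasEnoughRootsOfUnity.natCard_rootsOfUnity (AlgebraicClosure ℚ) N)
      (σ : AlgebraicClosure ℚ ≃+* AlgebraicClosure ℚ) := rfl

/-- Characterisation of `kappa`: if `σ` raises every `N`-th root of unity to the power `m`,
then `κ(σ) = m mod N`. -/
theorem kappa_eq_of_pow (N : ℕ) [NeZero N] (σ : Γℚ) (m : ℕ)
    (h : ∀ t : AlgebraicClosure ℚ, t ^ N = 1 → σ t = t ^ m) :
    ((kappa N σ : (ZMod N)ˣ) : ZMod N) = (m : ZMod N) := by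
  rw [kappa_apply]
  symm
  apply modularCyclotomicCharacter.unique
  intro t ht
  have ht1 : ((t : (AlgebraicClosure ℚ)ˣ) : AlgebraicClosure ℚ) ^ N = 1 := by
    have := (mem_rootsOfUnity N t).1 ht
    rw [← Units.val_pow_eq_pow_val, this, Units.val_one]
  have h1 := h _ ht1
  rw [ZMod.val_natCast]
  change σ (t : AlgebraicClosure ℚ) = _
  rw [h1]
  exact pow_eq_pow_mod m ht1

/-- If `σ` fixes every `N`-th root of unity then `κ(σ) = 1`. -/
theorem kappa_eq_one_of_fix (N : ℕ) [NeZero N] (σ : Γℚ)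
    (h : ∀ t : AlgebraicClosure ℚ, t ^ N = 1 → σ t = t) : kappa N σ = 1 := by
  apply Units.ext
  rw [kappa_eq_of_pow N σ 1 (fun t ht => by rw [h t ht, pow_one])]
  simp

/-- The values of a Dirichlet character on units are integral. -/
theorem isIntegral_dirichlet {N : ℕ} [NeZero N] (ε : DirichletCharacter ℂ N) (u : (ZMod N)ˣ) :
    IsIntegral ℤ (ε (u : ZMod N)) := by
  have hpow : ε (u : ZMod N) ^ (Fintype.card (ZMod N)ˣ) = 1 := by
    rw [← map_pow, ← Units.val_pow_eq_pow_val, pow_card_eq_one, Units.val_one, map_one]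
  have hpos : 0 < Fintype.card (ZMod N)ˣ := Fintype.card_pos
  exact IsIntegral.of_pow hpos (by rw [hpow]; exact isIntegral_one)

/-- The Dirichlet character as a monoid homomorphism into the ring of algebraic integers. -/
noncomputable def etaHom {N : ℕ} [NeZero N] (ε : DirichletCharacter ℂ N) :
    (ZMod N)ˣ →* integralClosure ℤ ℂ where
  toFun u := ⟨ε (u : ZMod N), isIntegral_dirichlet ε u⟩
  map_one' := by
    apply Subtype.ext
    simp
  map_mul' u v := by
    apply Subtype.ext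
    simp

theorem etaHom_coe {N : ℕ} [NeZero N] (ε : DirichletCharacter ℂ N) (u : (ZMod N)ˣ) :
    ((etaHom ε u : integralClosure ℤ ℂ) : ℂ) = ε (u : ZMod N) := rfl

/-- The Galois character `θ = φ ∘ ε ∘ κ_N`. -/
noncomputable def theta {N : ℕ} [NeZero N] (ε : DirichletCharacter ℂ N) {k : Type} [Field k]
    (φ : integralClosure ℤ ℂ →+* k) : Γℚ →* kˣ :=
  ((φ : integralClosure ℤ ℂ →* k).comp (etaHom ε)).toHomUnits.comp (kappa N)

theorem theta_coe {N : ℕ} [NeZero N] (ε : DirichletCharacter ℂ N) {k : Type} [Field k]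
    (φ : integralClosure ℤ ℂ →+* k) (σ : Γℚ) :
    ((theta ε φ σ : kˣ) : k) = φ (etaHom ε (kappa N σ)) := rfl

theorem theta_eq_one_of_fix {N : ℕ} [NeZero N] (ε : DirichletCharacter ℂ N) {k : Type} [Field k]
    (φ : integralClosure ℤ ℂ →+* k) (σ : Γℚ)
    (h : ∀ t : AlgebraicClosure ℚ, t ^ N = 1 → σ t = t) : theta ε φ σ = 1 := by
  unfold theta
  rw [MonoidHom.comp_apply, kappa_eq_one_of_fix N σ h, map_one]

/-- **Leaf B4 = `Stmt_DirCharL`.** -/
theorem stmt_DirCharL : Stmt_DirCharL := by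
  intro N _ ε k _ φ
  refine ⟨theta ε φ, ?_, ?_⟩
  · -- finite level
    obtain ⟨ζ, hζ⟩ := HasEnoughRootsOfUnity.exists_primitiveRoot (AlgebraicClosure ℚ) N
    refine ⟨IntermediateField.adjoin ℚ {ζ}, ?_, ?_⟩
    · exact IntermediateField.adjoin.finiteDimensional ((AlgebraicClosure.isAlgebraic ℚ).isAlgebraic ζ).isIntegral
    · intro σ hσ
      apply theta_eq_one_of_fix
      intro t ht
      obtain ⟨i, -, rfl⟩ := hζ.eq_pow_of_pow_eq_one ht
      rw [map_pow, hσ ζ (IntermediateField.mem_adjoin_simple_self ℚ ζ)]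
  · intro p hp hpN A hA
    have hcop : N.Coprime p := ((Nat.Prime.coprime_iff_not_dvd hp).2 hpN).symm
    refine ⟨?_, ?_⟩
    · intro σ hσ
      apply theta_eq_one_of_fix
      intro t ht
      exact Fermat.Agent.R.H89.inertia_fixes_rootsOfUnity p A hA σ hσ N hcop t ht
    · intro σ hσ e he
      rw [theta_coe]
      congr 1
      apply Subtype.ext
      rw [etaHom_coe, he]
      congr 1
      exact kappa_eq_of_pow N σ p
        (fun t ht => Fermat.Agent.R.H89.stmt_FrobCyc p hp A hA σ hσ N hcop t ht)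

end Fermat.Agent.S48.B.H22

end
-- ==== END Fermat.Agent.S48.B.H22_DirCharL

-- ==== BEGIN Fermat.Agent.S48.B.H46_SmallPieceL
section

/-!
# S48, mountain B, leaf B3 (helper46): `Stmt_SmallPieceL`

A representation `ρ : Γ → GL_r(k)` (`r > 0`, `k` algebraically closed) all of whose elements
satisfy `X² - a(g) X + θ(g) = 0` contains a two dimensional piece `ρ₂` with
`tr ρ₂(g) = a(g)`, `det ρ₂(g) = θ(g)`, trivial where `ρ` and `θ` are.

Proof (`H46_SmallCore.lean`): if there is a common eigenvector, with character `χ`, take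
`χ ⊕ θ/χ`; otherwise a minimal invariant subspace is two dimensional (for an eigenvector `w` of
a non-scalar `g`, `(g - λ')` maps it into `k w`), and on it Cayley–Hamilton identifies trace and
determinant.  The hypothesis `2 ≠ 0` is not used.
-/

set_option autoImplicit false

namespace Fermat.Agent.S48.B.H46

/-- **(B3) SmallPieceL.** -/
theorem stmt_SmallPieceL : Stmt_SmallPieceL := by
  intro k _ _ _ Γ _ r hr ρ θ a hrel
  have : Nonempty (Fin r) := ⟨⟨0, hr⟩⟩
  let E : Matrix (Fin r) (Fin r) k ≃ₐ[k] Module.End k (Fin r → k) := Matrix.toLinAlgEquiv'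
  let Φ : Γ →* Module.End k (Fin r → k) :=
    (E : Matrix (Fin r) (Fin r) k →* Module.End k (Fin r → k)).comp ((Units.coeHom _).comp ρ)
  have hΦ : ∀ g, Φ g = E ((ρ g : GL (Fin r) k) : Matrix (Fin r) (Fin r) k) := fun _ => rfl
  have H : QuadRel Φ θ a := by
    intro g v
    have h1 := congrArg E (hrel g)
    simp only [map_add, map_sub, map_mul, map_smul, map_one, map_zero] at h1
    have h2 := congrArg (fun f : Module.End k (Fin r → k) => f v) h1
    simp only [LinearMap.add_apply, LinearMap.sub_apply, Module.End.mul_apply,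
      LinearMap.smul_apply, Module.End.one_apply, LinearMap.zero_apply] at h2
    rw [hΦ]
    have h3 := eq_neg_of_add_eq_zero_left h2
    rw [sub_eq_iff_eq_add] at h3
    rw [h3]
    abel
  obtain ⟨ρ₂, h1, h2⟩ := exists_rep2 Φ θ a H
  refine ⟨ρ₂, fun g hg hθ => h1 g ?_ hθ, h2⟩
  rw [hΦ, hg]
  simp

end Fermat.Agent.S48.B.H46

end
-- ==== END Fermat.Agent.S48.B.H46_SmallPieceL

-- ==== BEGIN Fermat.Agent.S48.B1.Defs
section

/-!
# S48, mountain B, part B1 = `B.Stmt_EisLift` (Deligne–Serre §6): interfaces (helper55)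

Route.  `f` as in S48 (`IsDSForm N ε f`), `ℓ` large, `φ : ℤ̄ → k`, `𝔩 = ker φ`.
1. (`Stmt_NebOfRel`, "A3") the relations force `f ∈ S₁(N, ε)`.
2. (`Stmt_AlgForm`) there is `f'` with the same relations and eigenvalues, whose coefficients are
   algebraic with a common denominator `D` (descent along `Aut(ℂ/ℚ̄)` + leaf A).
3. (`Stmt_Eis1`, helper22) `E = -2ℓ E_{1,ψ}`, `ψ = ω⁻¹` the inverse Teichmüller character w.r.t. `φ`:
   coefficients in `ℤ[ψ]`, constant term `s = ∑ ψ(a) a ≡ -1`, other coefficients `≡ 0 mod 𝔩`.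
4. `v₀ = D f' · E ∈ S₂(N ℓ, χ)`, `χ = ε ψ`: integral coefficients, `v₀ ≡ -D f' mod 𝔩`,
   `T_p v₀ ≡ a_p v₀ mod 𝔩` (`χ(p) p ≡ ε(p)`).
5. (`Stmt_HeckeNeb`) `T_p` on `S₂(N ℓ, χ)`; (`Stmt_FinDimNeb`, `Stmt_EigInt`) finite dimension and
   integrality of the eigenvalues; then `S49.H44.abstract_lifting` gives the eigenvector `G`.
-/

set_option autoImplicit false

open CongruenceSubgroup UpperHalfPlane ModularForm
open scoped MatrixGroups ModularForm Manifold

namespace Fermat.Agent.S48.B1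

open Fermat.Agent.S48.Int (HasNeb)

/-- `q`-series of `(-2ℓ) · E_{1,ψ}`: integral coefficients, constant term `∑_{a<ℓ} ψ(a) a`. -/
noncomputable def eis1Series (ℓ : ℕ) (ψ : DirichletCharacter ℂ ℓ) : PowerSeries ℂ :=
  PowerSeries.mk fun n =>
    if n = 0 then ∑ a ∈ Finset.range ℓ, ψ (a : ZMod ℓ) * (a : ℂ)
    else -2 * (ℓ : ℂ) * ∑ d ∈ n.divisors, ψ (d : ZMod ℓ)

/-- **B1(a) Eis1** (helper22): the weight one Eisenstein series of an odd character mod `ℓ`. -/
def Stmt_Eis1 : Prop :=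
  ∀ (ℓ : ℕ) [NeZero ℓ], ℓ.Prime → ∀ ψ : DirichletCharacter ℂ ℓ, ψ (-1) = -1 →
    ∃ E : ℍ → ℂ, MDifferentiable 𝓘(ℂ) 𝓘(ℂ) E ∧
      (∀ A : SL(2, ℤ), IsBoundedAtImInfty (E ∣[(1 : ℤ)] A)) ∧
      HasNeb ℓ ψ 1 E ∧ qExpansion 1 E = eis1Series ℓ ψ

/-- **B1(b) HeckeNeb**: the Hecke operator `T_p`, `p ∤ M`, on cusp forms of weight `k` on `Γ₁(M)`
with nebentypus `χ`: `a_n(T_p g) = a_{pn}(g) + χ(p) p^{k-1} a_{n/p}(g)`.
(`T_p g = heckeU k p g + χ(p) • g ∣[k] heckeDiagMatrix p` with the prelude's `ModularForm.heckeU`;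
the prelude gives holomorphy, the cusps and the `q`-expansion for free, only the slash rule with
character is new: port of `ModularForm.heckeT_slash_eq_self_of_mem_Gamma0`.) -/
def Stmt_HeckeNeb : Prop :=
  ∀ (M : ℕ) [NeZero M] (χ : DirichletCharacter ℂ M) (k : ℤ) (g : CuspForm (Gamma1 M) k),
    HasNeb M χ k g → ∀ p : ℕ, p.Prime → ¬ p ∣ M →
      ∃ g' : CuspForm (Gamma1 M) k, HasNeb M χ k g' ∧
        ∀ n : ℕ, ModularFormClass.qCoeff g' n =
          ModularFormClass.qCoeff g (p * n) + χ (p : ZMod M) * (p : ℂ) ^ (k - 1) *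
            (if p ∣ n then ModularFormClass.qCoeff g (n / p) else 0)

/-- **A3 NebOfRel**: a cusp form of weight `k ∈ {1, 2}` on `Γ₁(M)` whose `q`-coefficients satisfy
the Hecke relations for the character `χ` at all primes `p ∤ M` has nebentypus `χ`.
(`g = ∑_ψ g_ψ`; the relations give `(χ(p) - ψ(p)) g_ψ(p z) ∈ S_k(M, ψ)`; if `h` and `h(p z)` are both
in `S_k(M, ψ)` then so are all `h(p^j z)` by `T_p`, so `h = 0` by finite dimension; Dirichlet.) -/
def Stmt_NebOfRel : Prop :=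
  ∀ (M : ℕ) [NeZero M] (χ : DirichletCharacter ℂ M) (k : ℤ), k = 1 ∨ k = 2 →
    ∀ (g : CuspForm (Gamma1 M) k) (b : ℕ → ℂ),
      (∀ p : ℕ, p.Prime → ¬ p ∣ M → ∀ n : ℕ,
        ModularFormClass.qCoeff g (p * n) + χ (p : ZMod M) * (p : ℂ) ^ (k - 1) *
            (if p ∣ n then ModularFormClass.qCoeff g (n / p) else 0) =
          b p * ModularFormClass.qCoeff g n) →
      HasNeb M χ k g

/-- The space of cusp forms of weight `k` on `Γ₁(M)` with nebentypus `χ`. -/
def nebSubmodule (M : ℕ) (χ : DirichletCharacter ℂ M) (k : ℤ) :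
    Submodule ℂ (CuspForm (Gamma1 M) k) where
  carrier := {g | HasNeb M χ k g}
  add_mem' := by
    intro a b ha hb γ hγ
    have h1 := ha γ hγ
    have h2 := hb γ hγ
    simp only [CuspForm.coe_add, SlashAction.add_slash, h1, h2, smul_add]
  zero_mem' := by
    intro γ _
    simp only [CuspForm.coe_zero, SlashAction.zero_slash, smul_zero]
  smul_mem' := by
    intro c a ha γ hγ
    have h1 := ha γ hγ
    have hcoe : ((c • a : CuspForm (Gamma1 M) k) : ℍ → ℂ) = c • (a : ℍ → ℂ) := rfl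
    rw [hcoe, ModularForm.SL_smul_slash, h1, smul_comm]

/-- **FinDimNeb**: `S_k(M, χ)` is finite dimensional for `k ∈ {1, 2}`
(multiply by Eisenstein series of weight 3 to land in `S_*(Γ₀(M))`, which is finite dimensional by
the prelude's Sturm bound `trunc_injective`). -/
def Stmt_FinDimNeb : Prop :=
  ∀ (M : ℕ) [NeZero M] (χ : DirichletCharacter ℂ M) (k : ℤ), k = 1 ∨ k = 2 →
    FiniteDimensional ℂ (nebSubmodule M χ k)

/-- **EigInt**: an eigenvalue of a single `T_p` on `S₂(M, χ)` is an algebraic integer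
(leaf A argument: the coefficients of `g` lie in a finitely generated subgroup of `ℂ` stable under
the values of `χ`). -/
def Stmt_EigInt : Prop :=
  ∀ (M : ℕ) [NeZero M] (χ : DirichletCharacter ℂ M) (g : CuspForm (Gamma1 M) 2),
    HasNeb M χ 2 g → g ≠ 0 → ∀ p : ℕ, p.Prime → ¬ p ∣ M → ∀ μ : ℂ,
      (∀ n : ℕ, ModularFormClass.qCoeff g (p * n) + χ (p : ZMod M) * (p : ℂ) *
          (if p ∣ n then ModularFormClass.qCoeff g (n / p) else 0) =
        μ * ModularFormClass.qCoeff g n) →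
      IsIntegral ℤ μ

/-- **AlgForm**: a form with the same relations and eigenvalues as `f`, all of whose coefficients
are algebraic, with a common denominator. -/
def Stmt_AlgForm : Prop :=
  ∀ (N : ℕ) [NeZero N] (ε : DirichletCharacter ℂ N) (f : CuspForm (Gamma1 N) 1),
    IsDSForm N ε f →
      ∃ f' : CuspForm (Gamma1 N) 1, IsDSForm N ε f' ∧
        (∀ p : ℕ, p.Prime → ¬ p ∣ N → ModularFormClass.qCoeff f' p = ModularFormClass.qCoeff f p) ∧
        ∃ D : ℕ, D ≠ 0 ∧ ∀ n : ℕ, IsIntegral ℤ ((D : ℂ) * ModularFormClass.qCoeff f' n)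

/-- **Teich**: the inverse Teichmüller character with respect to a residue map `φ` into a field of
characteristic `ℓ` (odd prime): an odd character `ψ` mod `ℓ` with `φ(ψ(a)) · a = 1` for all units
`a` (the `(ℓ-1)`-th roots of unity of `ℂ` are algebraic integers and `φ` maps them bijectively onto
the `(ℓ-1)`-th roots of unity of `k`). -/
def Stmt_Teich : Prop :=
  ∀ (ℓ : ℕ) [NeZero ℓ], ℓ.Prime → ℓ ≠ 2 → ∀ (k : Type) [Field k] [CharP k ℓ]
    (φ : integralClosure ℤ ℂ →+* k),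
    ∃ ψ : DirichletCharacter ℂ ℓ, ψ (-1) = -1 ∧
      ∀ (a : (ZMod ℓ)ˣ) (e : integralClosure ℤ ℂ), (e : ℂ) = ψ (a : ZMod ℓ) →
        φ e * (ZMod.castHom (dvd_refl ℓ) k (a : ZMod ℓ)) = 1

end Fermat.Agent.S48.B1

end
-- ==== END Fermat.Agent.S48.B1.Defs

-- ==== BEGIN Fermat.Agent.S48.B1.H22_Eis1Bridge
section

/-!
# S48 B1 (a): weight one Eisenstein series, part 3 — the bridge `W - z G₂ = Zc` (helper22)
-/

set_option autoImplicit false

open UpperHalfPlane hiding I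
open Complex Filter Topology EisensteinSeries Matrix ModularForm SummationFilter
open scoped Real MatrixGroups

noncomputable section

namespace Fermat.Agent.S48.B1.H22

/-! ### The cotangent difference series -/

theorem summable_cotDiff {w w' : ℂ} (hw : w ∈ integerComplement) (hw' : w' ∈ integerComplement) :
    Summable fun n : ℤ => 1 / (w + n) - 1 / (w' + n) := by
  have h1 : Summable fun n : ℤ => ((w + n) * (w' + n))⁻¹ := by
    apply summable_inv_of_isBigO_rpow_inv (a := 2) (by norm_num)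
    have a1 := linear_inv_isBigO_right 1 w
    have a2 := linear_inv_isBigO_right 1 w'
    simpa [pow_two] using! a2.mul a1
  refine (h1.mul_left (w' - w)).congr fun n => ?_
  have e1 := integerComplement_add_ne_zero hw n
  have e2 := integerComplement_add_ne_zero hw' n
  field_simp
  ring

theorem tsum_pair {f : ℤ → ℂ} (hf : Summable f) :
    ∑' n : ℤ, f n = f 0 + ∑' n : ℕ, (f ((n : ℤ) + 1) + f (-((n : ℤ) + 1))) := by
  have hp : Summable fun n : ℕ => f ((n : ℤ) + 1) :=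
    hf.comp_injective (i := fun n : ℕ => ((n : ℤ) + 1)) (by
      intro a b h
      simpa using h)
  have hn : Summable fun n : ℕ => f (-((n : ℤ) + 1)) :=
    hf.comp_injective (i := fun n : ℕ => -((n : ℤ) + 1)) (by
      intro a b h
      simpa using h)
  rw [tsum_of_add_one_of_neg_add_one hp hn, hp.tsum_add hn]
  ring

theorem tsum_cotDiff {w w' : ℂ} (hw : w ∈ integerComplement) (hw' : w' ∈ integerComplement) :
    ∑' n : ℤ, (1 / (w + n) - 1 / (w' + n)) = cotP w - cotP w' := by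
  rw [tsum_pair (summable_cotDiff hw hw')]
  have c1 := cot_series_rep' hw
  have c2 := cot_series_rep' hw'
  have s1 := summable_cotTerm hw
  have s2 := summable_cotTerm hw'
  have e : (fun n : ℕ => (1 / (w + (((n : ℤ) + 1 : ℤ) : ℂ)) - 1 / (w' + (((n : ℤ) + 1 : ℤ) : ℂ)))
      + (1 / (w + ((-((n : ℤ) + 1) : ℤ) : ℂ)) - 1 / (w' + ((-((n : ℤ) + 1) : ℤ) : ℂ))))
      = fun n : ℕ => cotTerm w n - cotTerm w' n := by
    funext n
    simp only [cotTerm]
    push_cast
    ring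
  rw [e, s1.tsum_sub s2]
  simp only [cotTerm] at c1 c2 ⊢
  rw [← c1, ← c2]
  simp only [cotP, Int.cast_zero, add_zero]
  ring

/-! ### Rows -/

/-- The part of `wTerm` without the `z / ω²` term. -/
def aTerm (z : ℂ) (τ : ℍ) (m n : ℤ) : ℂ :=
  if m = 0 ∧ n = 0 then 1 / z else 1 / (z - lam τ ![m, n]) + 1 / lam τ ![m, n]

theorem aTerm_of_ne (z : ℂ) (τ : ℍ) {m n : ℤ} (h : ¬ (m = 0 ∧ n = 0)) :
    aTerm z τ m n = 1 / (z - lam τ ![m, n]) + 1 / lam τ ![m, n] := if_neg h

theorem aTerm_zero_zero (z : ℂ) (τ : ℍ) : aTerm z τ 0 0 = 1 / z := if_pos ⟨rfl, rfl⟩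

theorem cons_eq_zero_iff (m n : ℤ) : (![m, n] : Fin 2 → ℤ) = 0 ↔ m = 0 ∧ n = 0 := by
  constructor
  · intro h
    exact ⟨by simpa using congrFun h 0, by simpa using congrFun h 1⟩
  · rintro ⟨rfl, rfl⟩
    funext i
    fin_cases i <;> simp

theorem wTerm_eq_aTerm (z : ℂ) (τ : ℍ) (m n : ℤ) :
    wTerm z τ ![m, n] = aTerm z τ m n + z * eisSummand 2 ![m, n] τ := by
  unfold wTerm aTerm
  by_cases h : m = 0 ∧ n = 0
  · rw [if_pos ((cons_eq_zero_iff m n).2 h), if_pos h]
    obtain ⟨rfl, rfl⟩ := h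
    simp [eisSummand]
  · rw [if_neg (fun h' => h ((cons_eq_zero_iff m n).1 h')), if_neg h]
    simp only [eisSummand, lam, Matrix.cons_val_zero, Matrix.cons_val_one]
    rw [_root_.zpow_neg, div_eq_mul_inv]
    norm_cast

theorem summable_row_wTerm (z : ℂ) (τ : ℍ) (m : ℤ) :
    Summable fun n : ℤ => wTerm z τ ![m, n] := by
  have h := (finTwoArrowEquiv ℤ).symm.summable_iff.2 (summable_wTerm z τ)
  exact h.prod_factor m

theorem summable_aTerm (z : ℂ) (τ : ℍ) (m : ℤ) : Summable fun n : ℤ => aTerm z τ m n := by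
  have h1 := summable_row_wTerm z τ m
  have h2 := (e2Summand_summable m τ).mul_left z
  refine (h1.sub h2).congr fun n => ?_
  rw [wTerm_eq_aTerm]
  ring

/-- The value of the `m`-th row of the `aTerm`s. -/
def rowC (z : ℂ) (τ : ℍ) (m : ℤ) : ℂ :=
  if m = 0 then cotP z else cotP ((m : ℂ) * (τ : ℂ)) + cotP (z - (m : ℂ) * (τ : ℂ))

theorem mul_coe_mem_integerComplement (τ : ℍ) {m : ℤ} (hm : m ≠ 0) :
    (m : ℂ) * (τ : ℂ) ∈ integerComplement := by
  rw [mem_integerComplement_iff]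
  rintro ⟨k, hk⟩
  have := congrArg Complex.im hk
  rw [intCast_mul_coe_im, intCast_im] at this
  have h2 : (m : ℝ) ≠ 0 := by exact_mod_cast hm
  exact (mul_ne_zero h2 τ.im_ne_zero) this.symm

theorem NotLat.mem_integerComplement {z : ℂ} {τ : ℍ} (h : NotLat z τ) (m : ℤ) :
    (m : ℂ) * (τ : ℂ) - z ∈ integerComplement := by
  rw [mem_integerComplement_iff]
  rintro ⟨k, hk⟩
  apply h ![m, -k]
  rw [lam_cons]
  push_cast
  rw [hk]
  ring

theorem NotLat.self_mem_integerComplement {z : ℂ} {τ : ℍ} (h : NotLat z τ) :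
    z ∈ integerComplement := by
  rw [mem_integerComplement_iff]
  rintro ⟨k, hk⟩
  apply h ![0, k]
  rw [lam_cons, ← hk]
  simp

theorem tsum_aTerm {z : ℂ} {τ : ℍ} (h : NotLat z τ) (m : ℤ) :
    ∑' n : ℤ, aTerm z τ m n = rowC z τ m := by
  by_cases hm : m = 0
  · subst hm
    rw [tsum_pair (summable_aTerm z τ 0), rowC, if_pos rfl]
    have c1 := cot_series_rep' h.self_mem_integerComplement
    have e : (fun n : ℕ => aTerm z τ 0 ((n : ℤ) + 1) + aTerm z τ 0 (-((n : ℤ) + 1)))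
        = fun n : ℕ => cotTerm z n := by
      funext n
      have h1 : ¬ ((0 : ℤ) = 0 ∧ (n : ℤ) + 1 = 0) := by omega
      have h2 : ¬ ((0 : ℤ) = 0 ∧ -((n : ℤ) + 1) = 0) := by omega
      rw [aTerm_of_ne z τ h1, aTerm_of_ne z τ h2, lam_cons, lam_cons]
      simp only [cotTerm]
      push_cast
      have e2 : 1 / (-((n : ℂ) + 1)) = -(1 / ((n : ℂ) + 1)) := by
        rw [one_div, one_div, inv_neg]
      rw [zero_mul, zero_add, zero_add, e2, sub_neg_eq_add]
      ring
    rw [e]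
    simp only [cotTerm] at c1 ⊢
    rw [← c1, aTerm_zero_zero]
    simp only [cotP]
    ring
  · rw [rowC, if_neg hm]
    have hw := mul_coe_mem_integerComplement τ hm
    have hw' := h.mem_integerComplement m
    have key := tsum_cotDiff hw hw'
    have e : (fun n : ℤ => aTerm z τ m n)
        = fun n : ℤ => 1 / ((m : ℂ) * (τ : ℂ) + n) - 1 / ((m : ℂ) * (τ : ℂ) - z + n) := by
      funext n
      have h1 : ¬ (m = 0 ∧ n = 0) := fun hh => hm hh.1
      rw [aTerm_of_ne z τ h1, lam_cons]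
      have e1 : z - ((m : ℂ) * (τ : ℂ) + n) = -((m : ℂ) * (τ : ℂ) - z + n) := by ring
      rw [e1, one_div, one_div, one_div, inv_neg]
      ring
    rw [e, key, show z - (m : ℂ) * (τ : ℂ) = -((m : ℂ) * (τ : ℂ) - z) by ring, cotP_neg]
    ring

/-- The row sums of the Weierstrass zeta function. -/
theorem tsum_row_wTerm {z : ℂ} {τ : ℍ} (h : NotLat z τ) (m : ℤ) :
    ∑' n : ℤ, wTerm z τ ![m, n] = rowC z τ m + z * e2Summand m τ := by
  simp_rw [wTerm_eq_aTerm]
  rw [(summable_aTerm z τ m).tsum_add ((e2Summand_summable m τ).mul_left z), tsum_aTerm h,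
    tsum_mul_left]
  rfl

theorem W_eq_tsum_rows (z : ℂ) (τ : ℍ) :
    HasSum (fun m : ℤ => ∑' n : ℤ, wTerm z τ ![m, n]) (W z τ) := by
  have h := (finTwoArrowEquiv ℤ).symm.summable_iff.2 (summable_wTerm z τ)
  have h2 := h.hasSum.prod_fiberwise (fun m => (h.prod_factor m).hasSum)
  have e : ∑' p : ℤ × ℤ, (wTerm z τ ∘ (finTwoArrowEquiv ℤ).symm) p = W z τ :=
    (finTwoArrowEquiv ℤ).symm.tsum_eq (wTerm z τ)
  rw [e] at h2
  exact h2

/-! ### Symmetric partial sums -/

theorem sum_Icc_rowC (z : ℂ) (τ : ℍ) (M : ℕ) :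
    ∑ m ∈ Finset.Icc (-(M : ℤ)) M, rowC z τ m
      = cotP z + ∑ k ∈ Finset.range M, zcTerm z τ (k + 1) := by
  induction M with
  | zero => simp [rowC]
  | succ M ih =>
    have hI : Finset.Icc (-((M + 1 : ℕ) : ℤ)) ((M + 1 : ℕ) : ℤ)
        = insert (-((M : ℤ) + 1)) (insert ((M : ℤ) + 1) (Finset.Icc (-(M : ℤ)) M)) := by
      ext x
      simp only [Finset.mem_Icc, Finset.mem_insert, Nat.cast_add, Nat.cast_one]
      omega
    rw [hI, Finset.sum_insert, Finset.sum_insert, ih, Finset.sum_range_succ]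
    · have h1 : ((M : ℤ) + 1) ≠ 0 := by omega
      have h2 : (-((M : ℤ) + 1)) ≠ 0 := by omega
      simp only [rowC, if_neg h1, if_neg h2, zcTerm]
      push_cast
      have e1 : (-((M : ℂ) + 1)) * (τ : ℂ) = -(((M : ℂ) + 1) * (τ : ℂ)) := by ring
      rw [e1, cotP_neg, sub_neg_eq_add]
      ring
    · simp only [Finset.mem_Icc]
      omega
    · simp only [Finset.mem_insert, Finset.mem_Icc]
      omega

/-- **The bridge**: `W z τ - z G₂(τ) = Zc z τ`. -/
theorem W_sub_G2 {z : ℂ} {τ : ℍ} (h : NotLat z τ) : W z τ - z * G2 τ = Zc z τ := by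
  have hW : Tendsto (fun M : ℕ => ∑ m ∈ Finset.Icc (-(M : ℤ)) M, ∑' n : ℤ, wTerm z τ ![m, n])
      atTop (𝓝 (W z τ)) := by
    have h1 : HasSum (fun m : ℤ => ∑' n : ℤ, wTerm z τ ![m, n]) (W z τ) (symmetricIcc ℤ) :=
      (W_eq_tsum_rows z τ).mono_left (symmetricIcc ℤ).le_atTop
    exact hasSum_symmetricIcc_iff.1 h1
  have hG : Tendsto (fun M : ℕ => ∑ m ∈ Finset.Icc (-(M : ℤ)) M, e2Summand m τ)
      atTop (𝓝 (G2 τ)) :=
    hasSum_symmetricIcc_iff.1 (summable_e2Summand_symmetricIcc τ).hasSum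
  have hC : Tendsto (fun M : ℕ => ∑ m ∈ Finset.Icc (-(M : ℤ)) M, rowC z τ m)
      atTop (𝓝 (W z τ - z * G2 τ)) := by
    have := hW.sub (hG.const_mul z)
    refine this.congr fun M => ?_
    rw [Finset.mul_sum, ← Finset.sum_sub_distrib]
    refine Finset.sum_congr rfl fun m _ => ?_
    rw [tsum_row_wTerm h]
    ring
  have hZ : Tendsto (fun M : ℕ => ∑ m ∈ Finset.Icc (-(M : ℤ)) M, rowC z τ m)
      atTop (𝓝 (Zc z τ)) := by
    simp_rw [sum_Icc_rowC]
    exact ((summable_zcTerm z τ).hasSum.tendsto_sum_nat).const_add _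
  exact tendsto_nhds_unique hC hZ

/-! ### Transformation laws for `Zc` -/

/-- The modular transformation law of `Zc`. -/
theorem Zc_smul (γ : SL(2, ℤ)) {z : ℂ} {τ : ℍ} (h : NotLat z τ) :
    Zc (z / denom γ τ) (γ • τ) = denom γ τ * Zc z τ + 2 * π * I * (γ 1 0 : ℂ) * z := by
  have hD := denom_ne_zero γ τ
  rw [← W_sub_G2 (h.smul γ), ← W_sub_G2 h, W_smul]
  have hG := congrFun (G2_slash_action γ) τ
  simp only [SL_slash_apply, Pi.sub_apply, D2] at hG
  have hD2 : denom γ τ ^ (-2 : ℤ) = (denom γ τ ^ 2)⁻¹ := by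
    rw [_root_.zpow_neg]
    norm_cast
  rw [hD2] at hG
  have hG' : G2 (γ • τ) = denom γ τ ^ 2 * G2 τ - 2 * π * I * (γ 1 0 : ℂ) * denom γ τ := by
    have h2 : G2 (γ • τ) = (G2 τ - 2 * π * I * (γ 1 0 : ℂ) / denom γ τ) * denom γ τ ^ 2 := by
      rw [← hG, mul_assoc, inv_mul_cancel₀ (pow_ne_zero _ hD), mul_one]
    rw [h2]
    field_simp
  rw [hG']
  field_simp
  ring

end Fermat.Agent.S48.B1.H22

end
end
-- ==== END Fermat.Agent.S48.B1.H22_Eis1Bridge

-- ==== BEGIN Fermat.Agent.S48.Cheb.H31_Cross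
section

/-!
# S48 leaf D3, sub-leaf CROSS (helper31): primes of `N` over primes of `L`

`ℚ ⊆ L ⊆ N` number fields, `L/ℚ` and `N/ℚ` Galois.  For finitely many `a ∈ Gal(N/ℚ)` with
`a|_L = g`:

`∑_a ∑_{w' unramified, Frob_w' = a} |D_w'| p^{-s} ≤ [N : L] ∑_{w unramified, Frob_w = g} |D_w| p^{-s}`

(`sum_tsum_frobEq_le`).  Proof: the Frobenius of an unramified prime is unique, so the sets
`frobEq N a` are disjoint; `w' ↦ w' ∩ 𝓞 L` maps them into `frobEq L g`; for unramified primes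
`|D| = f`, `f (w'/p) = f (w/p) f (w'/w)`, and `∑_{w' ∣ w} e f (w'/w) = [N : L]`.
-/

set_option autoImplicit false
set_option linter.unusedSectionVars false
set_option linter.style.haveILetI false

open NumberField IsDedekindDomain Ideal
open Fermat.Agent.Lib Fermat.Agent.Lib.FrobDensity
open scoped Pointwise

noncomputable section

namespace Fermat.Agent.S48.Cheb.H31

section tower

variable (L N : Type) [Field L] [NumberField L] [Field N] [NumberField N] [Algebra L N]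

/-- The prime of `L` below a prime of `N`. -/
def underL (w' : HeightOneSpectrum (𝓞 N)) : HeightOneSpectrum (𝓞 L) where
  asIdeal := w'.asIdeal.under (𝓞 L)
  isPrime := Ideal.IsPrime.under (𝓞 L) w'.asIdeal
  ne_bot := Ideal.under_ne_bot (𝓞 L) w'.ne_bot

lemma ratPrime_underL (w' : HeightOneSpectrum (𝓞 N)) :
    ZetaPrimes.ratPrime L (underL L N w') = ZetaPrimes.ratPrime N w' := by
  apply H12.eq_ratPrime_of_mem N w' (ZetaPrimes.ratPrime_prime L _)
  have h := ZetaPrimes.ratPrime_mem L (underL L N w')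
  change ((ZetaPrimes.ratPrime L (underL L N w') : ℕ) : 𝓞 L) ∈ w'.asIdeal.under (𝓞 L) at h
  rw [Ideal.under_def, Ideal.mem_comap, map_natCast] at h
  exact h

lemma unram_underL [IsGalois ℚ L] [IsGalois ℚ N] {w' : HeightOneSpectrum (𝓞 N)}
    (h : Unram N w') : Unram L (underL L N w') :=
  (FrobDensity.H31.inertia_under_eq_bot ℚ L N w'.asIdeal
    (FrobDensity.H31.ramificationIdx_int_eq_one N w'.asIdeal h)).2

lemma frob_underL [IsGalois ℚ L] [IsGalois ℚ N] {w' : HeightOneSpectrum (𝓞 N)}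
    {a : N ≃ₐ[ℚ] N} (h : IsArithFrobAt ℤ a w'.asIdeal) :
    IsArithFrobAt ℤ (AlgEquiv.restrictNormalHom L a) (underL L N w').asIdeal := by
  rw [H12.isArithFrobAt_int_iff] at h ⊢
  intro x
  rw [ratPrime_underL]
  change _ ∈ w'.asIdeal.under (𝓞 L)
  rw [Ideal.under_def, Ideal.mem_comap, map_sub, map_pow]
  have h1 : algebraMap (𝓞 L) (𝓞 N) ((AlgEquiv.restrictNormalHom L a) • x) =
      a • (algebraMap (𝓞 L) (𝓞 N) x) := by
    apply Subtype.ext
    change algebraMap L N ((AlgEquiv.restrictNormalHom L a) (x : L)) =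
      a (algebraMap L N (x : L))
    exact AlgEquiv.restrictNormal_commutes a L (x : L)
  rw [h1]
  exact h _

lemma mem_frobEq_underL [IsGalois ℚ L] [IsGalois ℚ N] {w' : HeightOneSpectrum (𝓞 N)}
    {a : N ≃ₐ[ℚ] N} (h : w' ∈ frobEq N a) :
    underL L N w' ∈ frobEq L (AlgEquiv.restrictNormalHom L a) :=
  ⟨unram_underL L N h.1, frob_underL L N h.2⟩

/-- Fibre bound: the decomposition groups of the unramified primes of `N` above a prime `w` of
`L` have orders summing to at most `[N : L] |D_w|`. -/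
lemma sum_decompCard_le [IsGalois ℚ L] [IsGalois ℚ N] (w : HeightOneSpectrum (𝓞 L))
    (U : Finset (HeightOneSpectrum (𝓞 N)))
    (hU : ∀ w' ∈ U, underL L N w' = w ∧ Unram N w') :
    ∑ w' ∈ U, decompCard N w' ≤ Module.finrank L N * decompCard L w := by
  classical
  rcases U.eq_empty_or_nonempty with rfl | ⟨w₀, hw₀⟩
  · simp
  have hw : Unram L w := (hU w₀ hw₀).1 ▸ unram_underL L N (hU w₀ hw₀).2
  have hwmax : w.asIdeal.IsMaximal := w.isMaximal
  have hfin : Finite (w.asIdeal.primesOver (𝓞 N)) :=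
    Algebra.QuasiFinite.finite_primesOver w.asIdeal
  let _ : Fintype (w.asIdeal.primesOver (𝓞 N)) := Fintype.ofFinite _
  have hsum := Ideal.sum_ramification_inertia_eq_finrank w.asIdeal (𝓞 N)
  rw [← IsFractionRing.finrank_eq (𝓞 L) L (𝓞 N) N] at hsum
  have hlies : ∀ w' ∈ U, w'.asIdeal.LiesOver w.asIdeal := by
    intro w' hw'
    refine ⟨?_⟩
    rw [← (hU w' hw').1]
    rfl
  let ψ : {w' // w' ∈ U} → w.asIdeal.primesOver (𝓞 N) :=
    fun w' => ⟨w'.1.asIdeal, w'.1.isPrime, hlies w'.1 w'.2⟩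
  have hψ : Function.Injective ψ := by
    intro a b h
    apply Subtype.ext
    apply HeightOneSpectrum.ext
    exact congrArg (fun q : w.asIdeal.primesOver (𝓞 N) => q.1) h
  have hterm : ∀ w' : {w' // w' ∈ U}, decompCard N w'.1 =
      decompCard L w * ((ψ w').1.ramificationIdx (𝓞 L) * (ψ w').1.inertiaDeg (𝓞 L)) := by
    intro w'
    have hun : Unram N w'.1 := (hU w'.1 w'.2).2
    haveI : w'.1.asIdeal.LiesOver w.asIdeal := hlies w'.1 w'.2
    have he1 : w'.1.asIdeal.ramificationIdx ℤ = 1 :=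
      FrobDensity.H31.ramificationIdx_int_eq_one N w'.1.asIdeal hun
    have he2 : w'.1.asIdeal.ramificationIdx (𝓞 L) ∣ w'.1.asIdeal.ramificationIdx ℤ :=
      Ideal.ramificationIdx_above_dvd (R := ℤ) (S := 𝓞 L) (T := 𝓞 N) w.asIdeal w'.1.asIdeal
    rw [he1, Nat.dvd_one] at he2
    change Nat.card (MulAction.stabilizer (N ≃ₐ[ℚ] N) w'.1.asIdeal) =
      Nat.card (MulAction.stabilizer (L ≃ₐ[ℚ] L) w.asIdeal) *
        (w'.1.asIdeal.ramificationIdx (𝓞 L) * w'.1.asIdeal.inertiaDeg (𝓞 L))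
    rw [H84.card_stabilizer_eq_inertiaDeg w'.1.asIdeal hun,
      H84.card_stabilizer_eq_inertiaDeg w.asIdeal hw, he2, one_mul,
      Ideal.inertiaDeg_tower (R := ℤ) w.asIdeal w'.1.asIdeal]
  calc ∑ w' ∈ U, decompCard N w' = ∑ w' ∈ U.attach, decompCard N w'.1 :=
        (Finset.sum_attach U (fun w' => decompCard N w')).symm
    _ = ∑ w' ∈ U.attach, decompCard L w *
          ((ψ w').1.ramificationIdx (𝓞 L) * (ψ w').1.inertiaDeg (𝓞 L)) :=
        Finset.sum_congr rfl (fun w' _ => hterm w')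
    _ = decompCard L w * ∑ q ∈ U.attach.map ⟨ψ, hψ⟩,
          (q.1.ramificationIdx (𝓞 L) * q.1.inertiaDeg (𝓞 L)) := by
        rw [Finset.sum_map, Finset.mul_sum]
        rfl
    _ ≤ decompCard L w * ∑ q : w.asIdeal.primesOver (𝓞 N),
          (q.1.ramificationIdx (𝓞 L) * q.1.inertiaDeg (𝓞 L)) :=
        Nat.mul_le_mul_left _ (Finset.sum_le_sum_of_subset (Finset.subset_univ _))
    _ = Module.finrank L N * decompCard L w := by rw [hsum, mul_comm]

lemma frobEq_disjoint [IsGalois ℚ N] {a b : N ≃ₐ[ℚ] N} (hab : a ≠ b) :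
    Disjoint (frobEq N a) (frobEq N b) := by
  rw [Set.disjoint_left]
  intro w' ha hb
  apply hab
  have h1 := IsArithFrobAt.mul_inv_mem_inertia ha.2 hb.2
  have h2 : w'.asIdeal.inertia (N ≃ₐ[ℚ] N) = ⊥ := ha.1
  rw [h2, Subgroup.mem_bot] at h1
  exact mul_inv_eq_one.mp h1

/-- `sum_tsum_frobEq_le`, with the fields as section variables. -/
theorem sum_tsum_frobEq_le_aux [IsGalois ℚ L] [IsGalois ℚ N]
    (g : L ≃ₐ[ℚ] L) (R : Finset (N ≃ₐ[ℚ] N))
    (hR : ∀ a ∈ R, AlgEquiv.restrictNormalHom L a = g) (s : ℝ) (hs : 1 < s) :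
    ∑ a ∈ R, ∑' w : frobEq N a, FrobDensity.wt N s w.1
      ≤ (Module.finrank L N : ℝ) * ∑' w : frobEq L g, FrobDensity.wt L s w.1 := by
  classical
  have hsN : Summable (FrobDensity.wt N s) := FrobDensity.H31.summable_wt N hs
  have hsL : Summable (FrobDensity.wt L s) := FrobDensity.H31.summable_wt L hs
  have hd : (R : Set (N ≃ₐ[ℚ] N)).Pairwise (Function.onFun Disjoint (frobEq N)) :=
    fun a _ b _ hab => frobEq_disjoint N hab
  have key := Summable.tsum_finset_bUnion_disjoint (f := FrobDensity.wt N s) hd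
    (fun a _ => hsN.subtype _)
  rw [← key]
  have hnn : (0 : (↥(⋃ a ∈ R, frobEq N a)) → ℝ) ≤ fun x => FrobDensity.wt N s x.1 :=
    fun x => FrobDensity.H31.wt_nonneg' N s x.1
  refine Real.tsum_le_of_sum_le hnn ?_
  intro u
  let U : Finset (HeightOneSpectrum (𝓞 N)) := u.map ⟨Subtype.val, Subtype.val_injective⟩
  have hUmem : ∀ w' ∈ U, ∃ a ∈ R, w' ∈ frobEq N a := by
    intro w' hw'
    obtain ⟨x, -, rfl⟩ := Finset.mem_map.mp hw'
    have := x.2
    simp only [Set.mem_iUnion] at this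
    obtain ⟨a, ha, hmem⟩ := this
    exact ⟨a, ha, hmem⟩
  have hsumU : ∑ x ∈ u, FrobDensity.wt N s x.1 = ∑ w' ∈ U, FrobDensity.wt N s w' := by
    rw [Finset.sum_map]
    rfl
  rw [hsumU]
  let V : Finset (HeightOneSpectrum (𝓞 L)) := U.image (underL L N)
  have hV : ∀ w ∈ V, w ∈ frobEq L g := by
    intro w hw
    obtain ⟨w', hw', rfl⟩ := Finset.mem_image.mp hw
    obtain ⟨a, ha, hmem⟩ := hUmem w' hw'
    rw [← hR a ha]
    exact mem_frobEq_underL L N hmem
  rw [← Finset.sum_fiberwise_of_maps_to (t := V) (g := underL L N)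
    (fun w' hw' => Finset.mem_image_of_mem _ hw')]
  have hfib : ∀ w ∈ V, ∑ w' ∈ U with underL L N w' = w, FrobDensity.wt N s w' ≤
      (Module.finrank L N : ℝ) * FrobDensity.wt L s w := by
    intro w _
    have h1 := sum_decompCard_le L N w (U.filter (underL L N · = w)) (by
      intro w' hw'
      rw [Finset.mem_filter] at hw'
      obtain ⟨a, _, hmem⟩ := hUmem w' hw'.1
      exact ⟨hw'.2, hmem.1⟩)
    have h2 : ∀ w' ∈ U.filter (underL L N · = w), FrobDensity.wt N s w' =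
        (decompCard N w' : ℝ) * ((ZetaPrimes.ratPrime L w : ℕ) : ℝ) ^ (-s) := by
      intro w' hw'
      rw [Finset.mem_filter] at hw'
      rw [← hw'.2, ratPrime_underL]
      rfl
    rw [Finset.sum_congr rfl h2, ← Finset.sum_mul]
    unfold FrobDensity.wt
    rw [← mul_assoc]
    apply mul_le_mul_of_nonneg_right _ (by positivity)
    exact_mod_cast h1
  calc ∑ w ∈ V, ∑ w' ∈ U with underL L N w' = w, FrobDensity.wt N s w'
      ≤ ∑ w ∈ V, (Module.finrank L N : ℝ) * FrobDensity.wt L s w := Finset.sum_le_sum hfib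
    _ = (Module.finrank L N : ℝ) * ∑ w ∈ V, FrobDensity.wt L s w := by rw [Finset.mul_sum]
    _ ≤ (Module.finrank L N : ℝ) * ∑' w : frobEq L g, FrobDensity.wt L s w.1 := by
      apply mul_le_mul_of_nonneg_left _ (by positivity)
      rw [tsum_subtype (frobEq L g) (FrobDensity.wt L s)]
      have h3 : ∑ w ∈ V, FrobDensity.wt L s w =
          ∑ w ∈ V, (frobEq L g).indicator (FrobDensity.wt L s) w :=
        Finset.sum_congr rfl (fun w hw => (Set.indicator_of_mem (hV w hw) _).symm)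
      rw [h3]
      exact Summable.sum_le_tsum V
        (fun w _ => Set.indicator_nonneg (fun x _ => FrobDensity.H31.wt_nonneg' L s x) w)
        (hsL.indicator _)

end tower

/-- **CROSS**: for `ℚ ⊆ L ⊆ N`, both Galois over `ℚ`, and finitely many `a ∈ Gal(N/ℚ)` restricting
to `g` on `L`: `∑_a ∑_{Frob_w' = a} |D_w'| p^{-s} ≤ [N : L] ∑_{Frob_w = g} |D_w| p^{-s}`. -/
theorem sum_tsum_frobEq_le (L N : Type) [Field L] [NumberField L] [IsGalois ℚ L]
    [Field N] [NumberField N] [IsGalois ℚ N] [Algebra L N]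
    (g : L ≃ₐ[ℚ] L) (R : Finset (N ≃ₐ[ℚ] N))
    (hR : ∀ a ∈ R, AlgEquiv.restrictNormalHom L a = g) (s : ℝ) (hs : 1 < s) :
    ∑ a ∈ R, ∑' w : frobEq N a, FrobDensity.wt N s w.1
      ≤ (Module.finrank L N : ℝ) * ∑' w : frobEq L g, FrobDensity.wt L s w.1 :=
  sum_tsum_frobEq_le_aux L N g R hR s hs

end Fermat.Agent.S48.Cheb.H31

end
end
-- ==== END Fermat.Agent.S48.Cheb.H31_Cross

-- ==== BEGIN Fermat.Agent.S48.Cheb.H43_RayNorm
section

/-!
# S48 leaf D2: the norm residue map of a cyclotomic layer is a ray map (helper43)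

`N/ℚ` Galois, `ζ ∈ N` a primitive `m`-th root of unity, `a ∈ Gal(N/ℚ)` such that `⟨a⟩` acts
faithfully on `ζ` and no power of `a` inverts `ζ`; `E = N^{⟨a⟩}`.  For an ideal `I` of `𝓞 E` prime
to `m` there is a unique `σ ∈ ⟨a⟩` with `σ ζ = ζ ^ N(I)`; `I ↦ σ` is a ray map mod `m` onto `⟨a⟩`.
-/

set_option autoImplicit false
set_option linter.unusedSectionVars false
set_option linter.style.haveILetI false

namespace Fermat.Agent.S48.Cheb.H43

open NumberField IsDedekindDomain Ideal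
open Fermat.Agent.Lib

variable {N : Type} [Field N] [NumberField N] [IsGalois ℚ N] {m : ℕ} {ζ : N} {a : N ≃ₐ[ℚ] N}

/-- Elements of `⟨a⟩` are natural powers of `a`. -/
lemma exists_pow_of_mem_zpowers {σ : N ≃ₐ[ℚ] N} (h : σ ∈ Subgroup.zpowers a) :
    ∃ k : ℕ, a ^ k = σ := by
  have := (mem_powers_iff_mem_zpowers (x := a) (y := σ)).mpr h
  exact (Submonoid.mem_powers_iff σ a).mp this

/-- Uniqueness: an element of `⟨a⟩` is determined by its action on `ζ`. -/
lemma eq_of_apply_eq (hinj : ∀ k : ℕ, (a ^ k) ζ = ζ → a ^ k = 1)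
    {σ σ' : N ≃ₐ[ℚ] N} (hσ : σ ∈ Subgroup.zpowers a) (hσ' : σ' ∈ Subgroup.zpowers a)
    (h : σ ζ = σ' ζ) : σ = σ' := by
  obtain ⟨k, hk⟩ := exists_pow_of_mem_zpowers
    ((Subgroup.zpowers a).mul_mem ((Subgroup.zpowers a).inv_mem hσ') hσ)
  have h1 : (a ^ k) ζ = ζ := by
    rw [hk, AlgEquiv.mul_apply, h]
    exact σ'.symm_apply_apply ζ
  have h2 := hinj k h1
  rw [hk] at h2
  exact (inv_mul_eq_one.mp h2).symm

/-- A Galois automorphism maps `ζ` to a power of `ζ`. -/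
lemma exists_apply_eq_pow (hm : m ≠ 0) (hζ : IsPrimitiveRoot ζ m) (σ : N ≃ₐ[ℚ] N) :
    ∃ j : ℕ, σ ζ = ζ ^ j := by
  haveI : NeZero m := ⟨hm⟩
  have h1 : (σ ζ) ^ m = 1 := by rw [← map_pow, hζ.pow_eq_one, map_one]
  obtain ⟨j, -, hj⟩ := hζ.eq_pow_of_pow_eq_one h1
  exact ⟨j, hj.symm⟩

/-- `ζ` as an algebraic integer. -/
noncomputable def zetaInt (hm : m ≠ 0) (hζ : IsPrimitiveRoot ζ m) : 𝓞 N :=
  ⟨ζ, hζ.isIntegral (Nat.pos_of_ne_zero hm)⟩

lemma zetaInt_coe (hm : m ≠ 0) (hζ : IsPrimitiveRoot ζ m) : ((zetaInt hm hζ : 𝓞 N) : N) = ζ :=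
  rfl

lemma zetaInt_prim (hm : m ≠ 0) (hζ : IsPrimitiveRoot ζ m) :
    IsPrimitiveRoot (zetaInt hm hζ) m := by
  have hinj : Function.Injective (algebraMap (𝓞 N) N) := RingOfIntegers.coe_injective
  exact IsPrimitiveRoot.of_map_of_injective (f := algebraMap (𝓞 N) N)
    (show IsPrimitiveRoot (algebraMap (𝓞 N) N (zetaInt hm hζ)) m from hζ) hinj

/-- The fixed field of `⟨a⟩`. -/
abbrev fixE (a : N ≃ₐ[ℚ] N) : IntermediateField ℚ N := FrobDensity.fixK N (Subgroup.zpowers a)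

lemma mem_zpowers_of_restrictScalars (τ : N ≃ₐ[fixE a] N) :
    τ.restrictScalars ℚ ∈ Subgroup.zpowers a := by
  have h1 : τ.restrictScalars ℚ ∈
      (IntermediateField.fixedField (Subgroup.zpowers a)).fixingSubgroup := by
    rw [IntermediateField.mem_fixingSubgroup_iff]
    intro x hx
    exact τ.commutes ⟨x, hx⟩
  rwa [IntermediateField.fixingSubgroup_fixedField] at h1

/-- Existence at primes: for a prime `u ∌ m` of `E` there is `σ ∈ ⟨a⟩` with
`σ ζ = ζ ^ N(u)` (a Frobenius element of `N/E` at a prime above `u`). -/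
theorem exists_sym_prime (hm : m ≠ 0) (hζ : IsPrimitiveRoot ζ m)
    (u : Ideal (𝓞 (fixE a))) [hu : u.IsPrime] (hu0 : u ≠ ⊥) (hmu : (m : 𝓞 (fixE a)) ∉ u) :
    ∃ σ ∈ Subgroup.zpowers a, σ ζ = ζ ^ Ideal.absNorm u := by
  obtain ⟨⟨Q, hQp, hQu⟩⟩ := Ideal.nonempty_primesOver (S := 𝓞 N) u
  have hunder : Q.under (𝓞 (fixE a)) = u := hQu.over.symm
  have hmQ : (m : 𝓞 N) ∉ Q := by
    intro h
    apply hmu
    rw [← hunder, Ideal.under_def, Ideal.mem_comap, map_natCast]
    exact h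
  have hQ0 : Q ≠ ⊥ := by
    rintro rfl
    apply hu0
    rw [← hunder, Ideal.under_def]
    exact Ideal.comap_bot_of_injective _ (FaithfulSMul.algebraMap_injective _ _)
  haveI : IsGalois (fixE a) N := IsGalois.tower_top_of_isGalois ℚ (fixE a) N
  obtain ⟨τ, hτ⟩ := FrobDensity.H12.exists_frob (K := fixE a) Q hQ0
  obtain ⟨j, hj⟩ := exists_apply_eq_pow hm hζ (τ.restrictScalars ℚ)
  refine ⟨τ.restrictScalars ℚ, mem_zpowers_of_restrictScalars τ, ?_⟩
  rw [hj]
  have hcong := (FrobDensity.H12.isArithFrobAt_iff (K := fixE a) Q τ).mp hτ (zetaInt hm hζ)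
  rw [hunder] at hcong
  have h2 : τ • zetaInt hm hζ = zetaInt hm hζ ^ j := by
    apply RingOfIntegers.ext
    exact hj
  rw [h2] at hcong
  have h3 := pow_eq_of_sub_mem hm (zetaInt_prim hm hζ) Q hmQ hcong
  have h4 := congrArg (algebraMap (𝓞 N) N) h3
  simpa [zetaInt] using h4

/-- The modulus `m 𝓞_E`. -/
abbrev modE (a : N ≃ₐ[ℚ] N) (m : ℕ) : Ideal (𝓞 (fixE a)) := Ideal.span {(m : 𝓞 (fixE a))}

lemma modE_ne_bot (hm : m ≠ 0) : modE a m ≠ ⊥ := by
  intro h
  rw [Ideal.span_singleton_eq_bot] at h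
  exact hm (by exact_mod_cast h)

lemma natCast_notMem_of_isCoprime {p : Ideal (𝓞 (fixE a))} (hp : p.IsPrime)
    (h : IsCoprime p (modE a m)) : (m : 𝓞 (fixE a)) ∉ p := by
  intro hmem
  have hle : modE a m ≤ p := (Ideal.span_singleton_le_iff_mem p).mpr hmem
  have := Ideal.isCoprime_iff_sup_eq.mp h
  rw [sup_eq_left.mpr hle] at this
  exact hp.ne_top this

/-- Existence for all nonzero ideals prime to `m`. -/
theorem exists_sym (hm : m ≠ 0) (hζ : IsPrimitiveRoot ζ m) (I : Ideal (𝓞 (fixE a)))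
    (hI0 : I ≠ ⊥) (hI : IsCoprime I (modE a m)) :
    ∃ σ ∈ Subgroup.zpowers a, σ ζ = ζ ^ Ideal.absNorm I := by
  induction I using UniqueFactorizationMonoid.induction_on_prime with
  | h₁ => exact absurd rfl hI0
  | h₂ x hx =>
    rw [Ideal.isUnit_iff] at hx
    subst hx
    exact ⟨1, one_mem _, by simp⟩
  | h₃ J p hJ0 hp ih =>
    have hpP : p.IsPrime := Ideal.isPrime_of_prime hp
    have hp0 : p ≠ ⊥ := hp.ne_zero
    have hcp : IsCoprime p (modE a m) := hI.of_mul_left_left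
    have hcJ : IsCoprime J (modE a m) := hI.of_mul_left_right
    obtain ⟨σ₁, hσ₁, h₁⟩ := exists_sym_prime hm hζ p hp0 (natCast_notMem_of_isCoprime hpP hcp)
    obtain ⟨σ₂, hσ₂, h₂⟩ := ih hJ0 hcJ
    refine ⟨σ₁ * σ₂, (Subgroup.zpowers a).mul_mem hσ₁ hσ₂, ?_⟩
    rw [AlgEquiv.mul_apply, h₂, map_pow, h₁, ← pow_mul, map_mul]

open Classical in
/-- The norm residue map: `I ↦` the `σ ∈ ⟨a⟩` with `σ ζ = ζ ^ N(I)` (junk value `1` if there is
none). -/
noncomputable def rayNorm (a : N ≃ₐ[ℚ] N) (ζ : N) (I : Ideal (𝓞 (fixE a))) :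
    ↥(Subgroup.zpowers a) :=
  if h : ∃ σ ∈ Subgroup.zpowers a, σ ζ = ζ ^ Ideal.absNorm I then ⟨h.choose, h.choose_spec.1⟩
  else 1

lemma rayNorm_eq (hinj : ∀ k : ℕ, (a ^ k) ζ = ζ → a ^ k = 1) {I : Ideal (𝓞 (fixE a))}
    {σ : N ≃ₐ[ℚ] N} (hσ : σ ∈ Subgroup.zpowers a) (h : σ ζ = ζ ^ Ideal.absNorm I) :
    rayNorm a ζ I = ⟨σ, hσ⟩ := by
  have hex : ∃ σ ∈ Subgroup.zpowers a, σ ζ = ζ ^ Ideal.absNorm I := ⟨σ, hσ, h⟩
  unfold rayNorm
  rw [dif_pos hex]
  apply Subtype.ext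
  exact eq_of_apply_eq hinj hex.choose_spec.1 hσ (hex.choose_spec.2.trans h.symm)

end Fermat.Agent.S48.Cheb.H43

end
-- ==== END Fermat.Agent.S48.Cheb.H43_RayNorm

-- ==== BEGIN Fermat.Agent.S48.H55_GroupBound
section

/-!
# S48, leaf E (helper55): `Stmt_GroupBound` (Deligne–Serre, Prop. 7.2)

`stmt_GroupBound : Stmt_GroupBound` with `B = 2 M ^ 4 + 3 M`.

The proof does not use the classification of the subgroups of `GL₂(𝔽_ℓ)` (and not the hypotheses
on `ℓ`):

* if `G` contains a basis `b` of `M₂(k)`, the trace form makes `g ↦ (tr (g b_i))_i` injective, and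
  on the set of the `g` with `g b_i ∈ H` for all `i` (whose complement has at most `4 #(G ∖ H)`
  elements) its values lie in a set with at most `M ^ 4` elements;
* otherwise the semisimple group `G` is commutative and has at most two elements with a given
  characteristic polynomial, so `#(G ∩ H) ≤ 2 M`.
-/

set_option autoImplicit false
set_option linter.style.haveILetI false

namespace Fermat.Agent.S48.H55

open Matrix

variable {k : Type} [Field k]

/-- The spanning case. -/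
theorem card_le_of_span (G : Subgroup (GL (Fin 2) k)) (H : Set (GL (Fin 2) k))
    (Y : Finset (k × k)) (Gf : Finset (GL (Fin 2) k)) (hGf : ∀ g, g ∈ Gf ↔ g ∈ G)
    (hHY : ∀ h ∈ H,
      ((h : Matrix (Fin 2) (Fin 2) k).trace, (h : Matrix (Fin 2) (Fin 2) k).det) ∈ Y)
    (b : Fin 4 → GL (Fin 2) k) (hbG : ∀ i, b i ∈ G)
    (hb : LinearIndependent k (fun i => ((b i : GL (Fin 2) k) : Matrix (Fin 2) (Fin 2) k)))
    (Bd : Finset (GL (Fin 2) k)) (hBd : ∀ g, g ∈ Bd ↔ g ∈ G ∧ g ∉ H) :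
    Gf.card ≤ Y.card ^ 4 + 4 * Bd.card := by
  classical
  have hBdeq : Bd = Gf.filter (fun g => g ∉ H) := by
    ext g
    rw [hBd, Finset.mem_filter, hGf]
  rw [hBdeq]
  set G' : Finset (GL (Fin 2) k) := Gf.filter (fun g => ∀ i, g * b i ∈ H) with hG'
  set Bad : Fin 4 → Finset (GL (Fin 2) k) := fun i => Gf.filter (fun g => g * b i ∉ H)
    with hBad
  have hcover : Gf ⊆ G' ∪ Finset.univ.biUnion Bad := by
    intro g hg
    by_cases h : ∀ i, g * b i ∈ H
    · exact Finset.mem_union_left _ (Finset.mem_filter.mpr ⟨hg, h⟩)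
    · obtain ⟨i, hi⟩ := not_forall.mp h
      exact Finset.mem_union_right _ (Finset.mem_biUnion.mpr
        ⟨i, Finset.mem_univ _, Finset.mem_filter.mpr ⟨hg, hi⟩⟩)
  have hBadcard : ∀ i, (Bad i).card = (Gf.filter (fun g => g ∉ H)).card := by
    intro i
    apply Finset.card_nbij' (fun g => g * b i) (fun g => g * (b i)⁻¹)
    · intro g hg
      have hg' := Finset.mem_filter.mp (Finset.mem_coe.mp hg)
      exact Finset.mem_coe.mpr (Finset.mem_filter.mpr
        ⟨(hGf _).mpr (G.mul_mem ((hGf _).mp hg'.1) (hbG i)), hg'.2⟩)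
    · intro g hg
      have hg' := Finset.mem_filter.mp (Finset.mem_coe.mp hg)
      refine Finset.mem_coe.mpr (Finset.mem_filter.mpr
        ⟨(hGf _).mpr (G.mul_mem ((hGf _).mp hg'.1) (G.inv_mem (hbG i))), ?_⟩)
      show g * (b i)⁻¹ * b i ∉ H
      rw [inv_mul_cancel_right]
      exact hg'.2
    · intro g _
      show g * b i * (b i)⁻¹ = g
      rw [mul_inv_cancel_right]
    · intro g _
      show g * (b i)⁻¹ * b i = g
      rw [inv_mul_cancel_right]
  have hG'card : G'.card ≤ Y.card ^ 4 := by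
    have h1 : G'.card ≤ (Fintype.piFinset (fun _ : Fin 4 => Y.image Prod.fst)).card := by
      apply Finset.card_le_card_of_injOn (s := G')
        (t := Fintype.piFinset (fun _ : Fin 4 => Y.image Prod.fst))
        (fun g => ((fun i => ((g : Matrix (Fin 2) (Fin 2) k) *
          (b i : Matrix (Fin 2) (Fin 2) k)).trace) : Fin 4 → k))
      · intro g hg
        rw [Finset.mem_coe, Fintype.mem_piFinset]
        intro i
        have h2 := hHY _ ((Finset.mem_filter.mp (Finset.mem_coe.mp hg)).2 i)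
        rw [Finset.mem_image]
        exact ⟨_, h2, by rw [Units.val_mul]⟩
      · intro g _ g' _ heq
        have h3 : (g : Matrix (Fin 2) (Fin 2) k) - (g' : Matrix (Fin 2) (Fin 2) k) = 0 := by
          apply eq_zero_of_trace_mul_eq_zero _ hb
          intro i
          have h4 := congrFun heq i
          rw [sub_mul, Matrix.trace_sub, sub_eq_zero]
          exact h4
        exact Units.ext (sub_eq_zero.mp h3)
    rw [Fintype.card_piFinset, Finset.prod_const, Finset.card_univ, Fintype.card_fin] at h1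
    exact h1.trans (Nat.pow_le_pow_left Finset.card_image_le 4)
  have hsum : (Finset.univ.biUnion Bad).card ≤ 4 * (Gf.filter (fun g => g ∉ H)).card := by
    refine Finset.card_biUnion_le.trans ?_
    rw [Finset.sum_congr rfl (fun i _ => hBadcard i), Finset.sum_const, Finset.card_univ,
      Fintype.card_fin, smul_eq_mul]
  calc Gf.card ≤ (G' ∪ Finset.univ.biUnion Bad).card := Finset.card_le_card hcover
    _ ≤ G'.card + (Finset.univ.biUnion Bad).card := Finset.card_union_le _ _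
    _ ≤ Y.card ^ 4 + 4 * (Gf.filter (fun g => g ∉ H)).card := Nat.add_le_add hG'card hsum

/-- The commutative case. -/
theorem card_le_of_abelian (G : Subgroup (GL (Fin 2) k)) (hss : IsSemisimple2 G)
    (hab : ∀ g ∈ G, ∀ h ∈ G,
      (g : Matrix (Fin 2) (Fin 2) k) * (h : Matrix (Fin 2) (Fin 2) k) = h * g)
    (H : Set (GL (Fin 2) k)) (Y : Finset (k × k)) (Gf : Finset (GL (Fin 2) k))
    (hGf : ∀ g, g ∈ Gf ↔ g ∈ G)
    (hHY : ∀ h ∈ H,
      ((h : Matrix (Fin 2) (Fin 2) k).trace, (h : Matrix (Fin 2) (Fin 2) k).det) ∈ Y)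
    (Bd : Finset (GL (Fin 2) k)) (hBd : ∀ g, g ∈ Bd ↔ g ∈ G ∧ g ∉ H) :
    Gf.card ≤ 2 * Y.card + Bd.card := by
  classical
  have hBdeq : Bd = Gf.filter (fun g => g ∉ H) := by
    ext g
    rw [hBd, Finset.mem_filter, hGf]
  rw [hBdeq]
  set Good : Finset (GL (Fin 2) k) := Gf.filter (fun g => g ∈ H) with hGood
  have hsplit : Good.card + (Gf.filter (fun g => g ∉ H)).card = Gf.card :=
    Finset.card_filter_add_card_filter_not (s := Gf) (fun g => g ∈ H)
  let F : GL (Fin 2) k → k × k := fun g =>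
    ((g : Matrix (Fin 2) (Fin 2) k).trace, (g : Matrix (Fin 2) (Fin 2) k).det)
  have h1 : Good.card ≤ 2 * (Good.image F).card := by
    apply Finset.card_le_mul_card_image
    intro y _
    by_contra hlt
    rw [not_le] at hlt
    obtain ⟨a, ha, b, hb, c, hc, hab', hac, hbc⟩ := Finset.two_lt_card.mp hlt
    rw [Finset.mem_filter] at ha hb hc
    have haG : a ∈ G := (hGf a).mp (Finset.mem_filter.mp ha.1).1
    have hbG : b ∈ G := (hGf b).mp (Finset.mem_filter.mp hb.1).1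
    have hcG : c ∈ G := (hGf c).mp (Finset.mem_filter.mp hc.1).1
    have hFa : F a = y := ha.2
    have hFb : F b = y := hb.2
    have hFc : F c = y := hc.2
    have hba : F b = F a := hFb.trans hFa.symm
    have hca : F c = F a := hFc.trans hFa.symm
    have e1 := eq_or_eq_of_charpoly_eq G hss hab a b haG hbG (congrArg Prod.fst hba)
      (congrArg Prod.snd hba)
    have e2 := eq_or_eq_of_charpoly_eq G hss hab a c haG hcG (congrArg Prod.fst hca)
      (congrArg Prod.snd hca)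
    rcases e1 with e1 | e1
    · exact hab' (Units.ext e1.symm)
    · rcases e2 with e2 | e2
      · exact hac (Units.ext e2.symm)
      · exact hbc (Units.ext (e1.trans e2.symm))
  have h2 : (Good.image F).card ≤ Y.card := by
    apply Finset.card_le_card
    intro y hy
    obtain ⟨g, hg, rfl⟩ := Finset.mem_image.mp hy
    exact hHY g (Finset.mem_filter.mp hg).2
  have h3 : Good.card ≤ 2 * Y.card := h1.trans (Nat.mul_le_mul_left 2 h2)
  omega

/-- **(E) GroupBound.** -/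
theorem stmt_GroupBound : Stmt_GroupBound := by
  intro M
  refine ⟨2 * M ^ 4 + 3 * M, ?_⟩
  intro ℓ k _ _ G H Y _ hfin hss _ hHY hY hcount
  classical
  haveI := hfin
  set Gf : Finset (GL (Fin 2) k) := (Set.toFinite (G : Set (GL (Fin 2) k))).toFinset
    with hGfdef
  have hGf : ∀ g, g ∈ Gf ↔ g ∈ G := fun g => by
    rw [hGfdef, Set.Finite.mem_toFinset]
    rfl
  have hcardG : Nat.card G = Gf.card := Nat.subtype_card Gf hGf
  set Bd : Finset (GL (Fin 2) k) := Gf.filter (fun g => g ∉ H) with hBddef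
  have hBd : ∀ g, g ∈ Bd ↔ g ∈ G ∧ g ∉ H := fun g => by
    rw [hBddef, Finset.mem_filter, hGf]
  have hcardB : Nat.card {g : GL (Fin 2) k // g ∈ G ∧ g ∉ H} = Bd.card :=
    Nat.subtype_card _ hBd
  rw [hcardG, hcardB] at hcount
  rw [hcardG]
  by_cases hsp : ∃ b : Fin 4 → GL (Fin 2) k, (∀ i, b i ∈ G) ∧
      LinearIndependent k (fun i => ((b i : GL (Fin 2) k) : Matrix (Fin 2) (Fin 2) k))
  · obtain ⟨b, hbG, hb⟩ := hsp
    have h1 := card_le_of_span G H Y Gf hGf hHY b hbG hb Bd hBd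
    have h2 : Y.card ^ 4 ≤ M ^ 4 := Nat.pow_le_pow_left hY 4
    generalize M ^ 4 = A at h2 ⊢
    generalize Y.card ^ 4 = A' at h1 h2
    omega
  · have hns : ∀ b : Fin 4 → GL (Fin 2) k, (∀ i, b i ∈ G) →
        ¬ LinearIndependent k (fun i => ((b i : GL (Fin 2) k) : Matrix (Fin 2) (Fin 2) k)) :=
      fun b hb hli => hsp ⟨b, hb, hli⟩
    have hab : ∀ g ∈ G, ∀ h ∈ G,
        (g : Matrix (Fin 2) (Fin 2) k) * (h : Matrix (Fin 2) (Fin 2) k) = h * g :=
      fun g hg h hh => abelian_of_not_span G hss hns g h hg hh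
    have h1 := card_le_of_abelian G hss hab H Y Gf hGf hHY Bd hBd
    generalize M ^ 4 = A
    omega

end Fermat.Agent.S48.H55

end
-- ==== END Fermat.Agent.S48.H55_GroupBound
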