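-- GENERATED (merged mirror, NOTES/tools/trim/merge3_helper67.py): 7 modules of the originals, bodies verbatim.
import Mathlib
import Fermat.Agent.Zm.S48_L03_000
import Fermat.Agent.Zm.S35_L02_000
import Fermat.Agent.Zm.S48_L01_000
import Fermat.Agent.Zm.S35_L10_005
import Fermat.Agent.Zm.S48_L02_000
import Fermat.Agent.Zm.S35_L06_001
import Fermat.Agent.S28.H76_Bridge
import Fermat.Agent.Zm.S48_L02_001
import Fermat.Agent.Zm.S48_L03_001
import Fermat.Agent.Zm.S48_L01_001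

-- ==== BEGIN Fermat.Agent.NEB.EIG.H39_Groups
section

/-!
# NEB / EIG (helper39): groups and conjugations for Betti twisting

* `Nrm e`, `conjEnd`, `tw` : for `e : Γ →* G` injective, the submonoid of `G` conjugating `e(Γ)` into
  itself, conjugation as an endomorphism of `Γ`, and the induced operator `tw a φ = φ ∘ conj_a` on
  `Hom(Γ, A)`.
* `Gam1 M c = Γ₀(M) ∩ Γ₁(c)` (as a subgroup of `SL(2, ℤ)`), `inc K : K →* GL₂(ℝ)`.
* `mkSL`, entry lemmas.
-/

set_option autoImplicit false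

namespace Fermat.Agent.NEB.EIG.H39

open CongruenceSubgroup Matrix.SpecialLinearGroup ModularForm
open scoped MatrixGroups

/-! ## Conjugation endomorphisms -/

section ConjEnd

variable {Γ G : Type*} [Group Γ] [Group G] (e : Γ →* G)

/-- The elements of `G` conjugating `e(Γ)` into itself. -/
def Nrm : Submonoid G where
  carrier := {a | ∀ γ, a * e γ * a⁻¹ ∈ e.range}
  one_mem' := fun γ => ⟨γ, by simp⟩
  mul_mem' := by
    intro a b ha hb γ
    obtain ⟨γ₁, h₁⟩ := hb γ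
    obtain ⟨γ₂, h₂⟩ := ha γ₁
    exact ⟨γ₂, by rw [h₂, h₁]; group⟩

variable {e}

theorem mem_Nrm {a : G} : a ∈ Nrm e ↔ ∀ γ, ∃ γ', e γ' = a * e γ * a⁻¹ := Iff.rfl

theorem mem_Nrm_of_comm {a : G} (h : ∀ γ, ∃ γ', e γ' * a = a * e γ) : a ∈ Nrm e := by
  intro γ
  obtain ⟨γ', h'⟩ := h γ
  exact ⟨γ', by rw [← h']; group⟩

theorem range_le_Nrm (g : Γ) : e g ∈ Nrm e := fun γ => ⟨g * γ * g⁻¹, by simp⟩

variable (he : Function.Injective e)

/-- Conjugation by `a ∈ Nrm e` as an endomorphism of `Γ`. -/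
noncomputable def conjEnd (a : Nrm e) : Γ →* Γ :=
  (MonoidHom.ofInjective he).symm.toMonoidHom.comp
    (((MulAut.conj (a : G)).toMonoidHom.comp e).codRestrict e.range
      (fun γ => by simpa [MulAut.conj_apply] using a.2 γ))

theorem e_conjEnd (a : Nrm e) (γ : Γ) : e (conjEnd he a γ) = (a : G) * e γ * (a : G)⁻¹ := by
  have := (MonoidHom.ofInjective he).apply_symm_apply
    ((((MulAut.conj (a : G)).toMonoidHom.comp e).codRestrict e.range
      (fun γ => by simpa [MulAut.conj_apply] using a.2 γ)) γ)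
  have h2 := congrArg Subtype.val this
  simpa [conjEnd, MulAut.conj_apply] using h2

theorem e_conjEnd_mul (a : Nrm e) (γ : Γ) : e (conjEnd he a γ) * (a : G) = (a : G) * e γ := by
  rw [e_conjEnd]; group

theorem conjEnd_mul (a b : Nrm e) (γ : Γ) :
    conjEnd he (a * b) γ = conjEnd he a (conjEnd he b γ) := by
  apply he
  rw [e_conjEnd, e_conjEnd, e_conjEnd]
  simp only [Submonoid.coe_mul]
  group

theorem conjEnd_range (g : Γ) (γ : Γ) :
    conjEnd he (⟨e g, range_le_Nrm g⟩ : Nrm e) γ = g * γ * g⁻¹ := by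
  apply he
  rw [e_conjEnd]
  simp

variable {A : Type*} [AddCommGroup A]

/-- The operator `φ ↦ φ ∘ conj_a` on `Hom(Γ, A)`. -/
noncomputable def tw (a : Nrm e) (φ : Additive Γ →+ A) : Additive Γ →+ A :=
  φ.comp (MonoidHom.toAdditive (conjEnd he a))

theorem tw_apply (a : Nrm e) (φ : Additive Γ →+ A) (γ : Γ) :
    tw he a φ (Additive.ofMul γ) = φ (Additive.ofMul (conjEnd he a γ)) := rfl

theorem tw_mul (a b : Nrm e) (φ : Additive Γ →+ A) :
    tw he (a * b) φ = tw he b (tw he a φ) := by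
  refine AddMonoidHom.ext fun γ => ?_
  obtain ⟨γ, rfl⟩ : ∃ g : Γ, Additive.ofMul g = γ := ⟨Additive.toMul γ, rfl⟩
  rw [tw_apply, tw_apply, tw_apply, conjEnd_mul]

theorem tw_of_range (a : Nrm e) (g : Γ) (h : (a : G) = e g) (φ : Additive Γ →+ A) :
    tw he a φ = φ := by
  refine AddMonoidHom.ext fun γ => ?_
  obtain ⟨γ, rfl⟩ : ∃ g : Γ, Additive.ofMul g = γ := ⟨Additive.toMul γ, rfl⟩
  have : conjEnd he a γ = g * γ * g⁻¹ := by
    apply he
    rw [e_conjEnd, h]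
    simp
  rw [tw_apply, this]
  simp only [ofMul_mul, ofMul_inv, map_add, map_neg]
  abel

theorem tw_one (φ : Additive Γ →+ A) : tw he (1 : Nrm e) φ = φ :=
  tw_of_range he 1 1 (by simp) φ

theorem tw_congr {a b : Nrm e} (h : (a : G) = (b : G)) (φ : Additive Γ →+ A) :
    tw he a φ = tw he b φ := by
  have : a = b := Subtype.ext h
  rw [this]

theorem tw_add (a : Nrm e) (φ ψ : Additive Γ →+ A) :
    tw he a (φ + ψ) = tw he a φ + tw he a ψ := rfl

theorem tw_zero (a : Nrm e) : tw he a (0 : Additive Γ →+ A) = 0 := rfl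

theorem tw_smul {R : Type*} [Semiring R] [Module R A] (a : Nrm e) (r : R) (φ : Additive Γ →+ A) :
    tw he a (r • φ) = r • tw he a φ := rfl

theorem tw_sum {ι : Type*} (s : Finset ι) (a : Nrm e) (f : ι → (Additive Γ →+ A)) :
    tw he a (∑ i ∈ s, f i) = ∑ i ∈ s, tw he a (f i) := by
  classical
  induction s using Finset.induction_on with
  | empty => simp [tw_zero]
  | insert i s hi ih => rw [Finset.sum_insert hi, Finset.sum_insert hi, tw_add, ih]

/-- If `a * b = e g * (b' * a')`-type relations hold in `G`, the operators agree. -/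
theorem tw_eq_of_eq_mul {a b : Nrm e} (g : Γ) (h : (a : G) = e g * (b : G))
    (φ : Additive Γ →+ A) : tw he a φ = tw he b φ := by
  have hab : a = (⟨e g, range_le_Nrm g⟩ : Nrm e) * b := Subtype.ext (by simpa using h)
  rw [hab, tw_mul, tw_of_range he (⟨e g, range_le_Nrm g⟩ : Nrm e) g rfl]

end ConjEnd

/-! ## Integer matrices -/

/-- The element `[[a, b], [c, d]]` of `SL(2, ℤ)`. -/
def mkSL (a b c d : ℤ) (h : a * d - b * c = 1) : SL(2, ℤ) :=
  ⟨!![a, b; c, d], by rw [Matrix.det_fin_two_of]; exact h⟩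

@[simp] theorem mkSL_00 (a b c d : ℤ) (h : a * d - b * c = 1) : mkSL a b c d h 0 0 = a := rfl
@[simp] theorem mkSL_01 (a b c d : ℤ) (h : a * d - b * c = 1) : mkSL a b c d h 0 1 = b := rfl
@[simp] theorem mkSL_10 (a b c d : ℤ) (h : a * d - b * c = 1) : mkSL a b c d h 1 0 = c := rfl
@[simp] theorem mkSL_11 (a b c d : ℤ) (h : a * d - b * c = 1) : mkSL a b c d h 1 1 = d := rfl

theorem sl_mul_00 (g h : SL(2, ℤ)) : (g * h) 0 0 = g 0 0 * h 0 0 + g 0 1 * h 1 0 := by
  rw [Matrix.SpecialLinearGroup.coe_mul, Matrix.mul_apply, Fin.sum_univ_two]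
theorem sl_mul_01 (g h : SL(2, ℤ)) : (g * h) 0 1 = g 0 0 * h 0 1 + g 0 1 * h 1 1 := by
  rw [Matrix.SpecialLinearGroup.coe_mul, Matrix.mul_apply, Fin.sum_univ_two]
theorem sl_mul_10 (g h : SL(2, ℤ)) : (g * h) 1 0 = g 1 0 * h 0 0 + g 1 1 * h 1 0 := by
  rw [Matrix.SpecialLinearGroup.coe_mul, Matrix.mul_apply, Fin.sum_univ_two]
theorem sl_mul_11 (g h : SL(2, ℤ)) : (g * h) 1 1 = g 1 0 * h 0 1 + g 1 1 * h 1 1 := by
  rw [Matrix.SpecialLinearGroup.coe_mul, Matrix.mul_apply, Fin.sum_univ_two]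

theorem sl_det (g : SL(2, ℤ)) : g 0 0 * g 1 1 - g 0 1 * g 1 0 = 1 := by
  have := g.2
  rw [Matrix.det_fin_two] at this
  exact this

theorem sl_inv_00 (g : SL(2, ℤ)) : g⁻¹ 0 0 = g 1 1 := by
  rw [Matrix.SpecialLinearGroup.SL2_inv_expl]; rfl
theorem sl_inv_01 (g : SL(2, ℤ)) : g⁻¹ 0 1 = - g 0 1 := by
  rw [Matrix.SpecialLinearGroup.SL2_inv_expl]; rfl
theorem sl_inv_10 (g : SL(2, ℤ)) : g⁻¹ 1 0 = - g 1 0 := by
  rw [Matrix.SpecialLinearGroup.SL2_inv_expl]; rfl
theorem sl_inv_11 (g : SL(2, ℤ)) : g⁻¹ 1 1 = g 0 0 := by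
  rw [Matrix.SpecialLinearGroup.SL2_inv_expl]; rfl

theorem sl_ext {g h : SL(2, ℤ)} (h00 : g 0 0 = h 0 0) (h01 : g 0 1 = h 0 1) (h10 : g 1 0 = h 1 0)
    (h11 : g 1 1 = h 1 1) : g = h := by
  ext i j
  fin_cases i <;> fin_cases j <;> assumption

/-! ## The groups -/

/-- `Γ₀(M) ∩ Γ₁(c)`: lower-left entry divisible by `M` and by `c`, upper-left entry `≡ 1 mod c`. -/
def Gam1 (M c : ℕ) : Subgroup SL(2, ℤ) where
  carrier := {γ | (M : ℤ) ∣ γ 1 0 ∧ (c : ℤ) ∣ γ 1 0 ∧ (c : ℤ) ∣ γ 0 0 - 1}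
  one_mem' := by
    refine ⟨?_, ?_, ?_⟩ <;> simp
  mul_mem' := by
    rintro g h ⟨g1, g2, g3⟩ ⟨h1, h2, h3⟩
    refine ⟨?_, ?_, ?_⟩
    · rw [sl_mul_10]
      exact dvd_add (Dvd.dvd.mul_right g1 _) (Dvd.dvd.mul_left h1 _)
    · rw [sl_mul_10]
      exact dvd_add (Dvd.dvd.mul_right g2 _) (Dvd.dvd.mul_left h2 _)
    · rw [sl_mul_00]
      have : g 0 0 * h 0 0 + g 0 1 * h 1 0 - 1
          = (g 0 0 - 1) * h 0 0 + (h 0 0 - 1) + g 0 1 * h 1 0 := by ring
      rw [this]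
      exact dvd_add (dvd_add (Dvd.dvd.mul_right g3 _) h3) (Dvd.dvd.mul_left h2 _)
  inv_mem' := by
    rintro g ⟨g1, g2, g3⟩
    refine ⟨?_, ?_, ?_⟩
    · rw [sl_inv_10]; exact (dvd_neg).mpr g1
    · rw [sl_inv_10]; exact (dvd_neg).mpr g2
    · rw [sl_inv_00]
      have hd := sl_det g
      have : g 1 1 - 1 = g 0 1 * g 1 0 - (g 0 0 - 1) * g 1 1 := by linear_combination hd
      rw [this]
      exact dvd_sub (Dvd.dvd.mul_left g2 _) (Dvd.dvd.mul_right g3 _)

theorem mem_Gam1 {M c : ℕ} {γ : SL(2, ℤ)} :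
    γ ∈ Gam1 M c ↔ (M : ℤ) ∣ γ 1 0 ∧ (c : ℤ) ∣ γ 1 0 ∧ (c : ℤ) ∣ γ 0 0 - 1 := Iff.rfl

theorem Gam1_dvd_11 {M c : ℕ} {γ : SL(2, ℤ)} (h : γ ∈ Gam1 M c) : (c : ℤ) ∣ γ 1 1 - 1 := by
  have := (Gam1 M c).inv_mem h
  have h3 := this.2.2
  rwa [sl_inv_00] at h3

theorem Gam1_le_Gamma0 (M c : ℕ) : Gam1 M c ≤ Gamma0 M := fun _ h =>
  Betti.mem_Gamma0_of_dvd h.1

theorem Gamma0_le_Gam1_one (M : ℕ) : Gamma0 M ≤ Gam1 M 1 := fun _ h =>
  ⟨Betti.dvd_of_mem_Gamma0 h, by simp, by simp⟩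

theorem Gam1_mono {M M' c c' : ℕ} (hM : M ∣ M') (hc : c ∣ c') : Gam1 M' c' ≤ Gam1 M c := by
  rintro γ ⟨h1, h2, h3⟩
  exact ⟨(Int.natCast_dvd_natCast.mpr hM).trans h1, (Int.natCast_dvd_natCast.mpr hc).trans h2,
    (Int.natCast_dvd_natCast.mpr hc).trans h3⟩

/-- The inclusion of a subgroup of `SL(2, ℤ)` into `GL₂(ℝ)`. -/
noncomputable def inc (K : Subgroup SL(2, ℤ)) : K →* GL (Fin 2) ℝ := (mapGL ℝ).comp K.subtype

@[simp] theorem inc_apply (K : Subgroup SL(2, ℤ)) (γ : K) : inc K γ = mapGL ℝ (γ : SL(2, ℤ)) := rfl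

theorem inc_injective (K : Subgroup SL(2, ℤ)) : Function.Injective (inc K) := fun _ _ h =>
  Subtype.ext (Betti.mapGL_real_injective h)

theorem mem_range_inc {K : Subgroup SL(2, ℤ)} {g : SL(2, ℤ)} (h : g ∈ K) :
    mapGL ℝ g ∈ (inc K).range := ⟨⟨g, h⟩, rfl⟩

/-- An element of `SL(2, ℤ)` normalising `K` gives an element of `Nrm (inc K)`. -/
theorem mapGL_mem_Nrm {K : Subgroup SL(2, ℤ)} {g : SL(2, ℤ)}
    (h : ∀ γ ∈ K, g * γ * g⁻¹ ∈ K) : mapGL ℝ g ∈ Nrm (inc K) := by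
  intro γ
  exact ⟨⟨g * γ * g⁻¹, h γ γ.2⟩, by simp⟩

end Fermat.Agent.NEB.EIG.H39

end
-- ==== END Fermat.Agent.NEB.EIG.H39_Groups

-- ==== BEGIN Fermat.Agent.NEB.H14_JHDefs
section
attribute [local instance 10000] SubalgebraClass.toAlgebra
attribute [local instance 10000] HahnSeries.powerSeriesAlgebra

/-!
# NEB, package JH (helper14): the interface of `J_H = Pic⁰(F_H)`

`J_H M c H := Pic0 ℚ̄ (FHbar M c H)`.  All operators are TOTAL definitions (no proof arguments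
except `BetaOK`), built from `pullP` / `pushP` of `H14_CorrFF` (`= picMap (pullD φ)`, … ):

* `piUp M c H : JZero M →+ JH M c H` (`π^*`), `piDown M c H` (`π_*`), along `inclBar M c H`;
* `diamond dd d` : the diamond operator `⟨d⟩`, for `dd : DiamondData M c H` (`= Stmt_FH_gal` as data);
* `betaBar hβ : F_H(M) → F_H(Mℓ)`, `f(q) ↦ f(q^ℓ)` (`hβ : BetaOK M c ℓ H`, the conclusion of
  `Stmt_FH_beta`);
* `TH hβ := α_* β^*`, `UH hβ := β_* α^*` on `J_H(M)`, with Kummer functions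
  `THfn hβ f = Norm_α (β f)`, `UHfn hβ f = Norm_β (α f)`;
* `T0 M ℓ := α_* β^*`, `U0 M ℓ := β_* α^*` on `J₀(M)` (`T0_eq_heckeOperatorAlong` in `H14_JHRules`).

The hypotheses of the rules are bundled in `HeckeData M c ℓ H`.
-/

set_option autoImplicit false
set_option linter.unusedSectionVars false
set_option linter.style.haveILetI false
set_option linter.dupNamespace false

noncomputable section

namespace Fermat.Agent.NEB.JH

open AlgebraicCurve ModularCurve IntermediateField HahnSeries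
open Fermat.Agent.NEB Fermat.Agent.NEB.H14 Fermat.Agent.RED

/-- `J_H(M) = Pic⁰` of the function field of `X_H(M)` over `ℚ̄`. -/
abbrev JH (M c : ℕ) (H : Subgroup (ZMod c)ˣ) : Type := Pic0 Kbar ↥(FHbar M c H)

/-! ## 1. Diamond operators -/

/-- The conclusion of `Stmt_FH_gal M c H`, as data. -/
structure DiamondData (M c : ℕ) (H : Subgroup (ZMod c)ˣ) where
  /-- the action of `(ℤ/c)ˣ` on `F_H(M)` -/
  ρ : (ZMod c)ˣ →* (↥(FHbar M c H) ≃ₐ[Kbar] ↥(FHbar M c H))
  gen : ∀ d a, ρ d (genBar M c H a) = genBar M c H (a * d)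
  fix : ∀ d (x : ↥(modularFunctionFieldBar M)), ρ d (inclBar M c H x) = inclBar M c H x
  fixed : ∀ x : ↥(FHbar M c H), (∀ d, ρ d x = x) → ∃ x₀, inclBar M c H x₀ = x
  ker : ∀ d, ρ d = 1 ↔ (d ∈ H ∨ -d ∈ H)
  gal : ∀ d (σ : Kbar ≃ₐ[ℚ] Kbar) (x : ↥(FHbar M c H)),
    ρ d (arithmeticRingAut (FHQ M c H) σ x) = arithmeticRingAut (FHQ M c H) σ (ρ d x)

theorem nonempty_diamondData {M c : ℕ} {H : Subgroup (ZMod c)ˣ} (h : Stmt_FH_gal M c H)
    (h2 : 2 ≤ c) (hc : c ∣ M) (hM : M ≠ 0) : Nonempty (DiamondData M c H) := by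
  obtain ⟨ρ, h1, h2, h3, h4, h5⟩ := h h2 hc hM
  exact ⟨⟨ρ, h1, h2, h3, h4, h5⟩⟩

/-- The diamond operator `⟨d⟩` on `J_H`. -/
def diamond {M c : ℕ} {H : Subgroup (ZMod c)ˣ} (dd : DiamondData M c H) (d : (ZMod c)ˣ) :
    JH M c H →+ JH M c H :=
  DistribSMul.toAddMonoidHom (JH M c H) (dd.ρ d)

@[simp]
theorem diamond_apply {M c : ℕ} {H : Subgroup (ZMod c)ˣ} (dd : DiamondData M c H)
    (d : (ZMod c)ˣ) (x : JH M c H) : diamond dd d x = dd.ρ d • x := rfl

/-! ## 2. `π^*` and `π_*` -/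

/-- `π^* : J₀(M) → J_H(M)`. -/
def piUp (M c : ℕ) (H : Subgroup (ZMod c)ˣ) : JZero M →+ JH M c H := pullP (inclBar M c H)

/-- `π_* : J_H(M) → J₀(M)`. -/
def piDown (M c : ℕ) (H : Subgroup (ZMod c)ˣ) : JH M c H →+ JZero M := pushP (inclBar M c H)

/-! ## 3. Degeneracy maps and Hecke operators -/

/-- The conclusion of `Stmt_FH_beta`: `f(q) ↦ f(q^ℓ)` maps `F_H(M)` into `F_H(Mℓ)`. -/
def BetaOK (M c ℓ : ℕ) [NeZero ℓ] (H : Subgroup (ZMod c)ˣ) : Prop :=
  ∀ x ∈ FHQ M c H, qExpand ℚ ℓ x ∈ FHQ (M * ℓ) c H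

theorem coeffMap_qExpand_jh {R S : Type*} [CommRing R] [CommRing S] (f : R →+* S) (n : ℕ)
    [NeZero n] (x : LaurentSeries R) : coeffMap f (qExpand R n x) = qExpand S n (coeffMap f x) := by
  ext k
  by_cases hk : (n : ℤ) ∣ k
  · obtain ⟨m, rfl⟩ := hk
    rw [coeffMap_coeff, qExpand_coeff_mul, qExpand_coeff_mul, coeffMap_coeff]
  · rw [coeffMap_coeff, qExpand_coeff_of_not_dvd n _ hk, qExpand_coeff_of_not_dvd n _ hk,
      map_zero]

theorem qExpand_mem_lbc {L : Type*} [Field L] [Algebra ℚ L]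
    {F₀ : IntermediateField ℚ (LaurentSeries ℚ)} (n : ℕ)
    [NeZero n] {F₁ : IntermediateField ℚ (LaurentSeries ℚ)} (hF : ∀ y ∈ F₀, qExpand ℚ n y ∈ F₁)
    {x : LaurentSeries L} (hx : x ∈ laurentBaseChange L F₀) :
    qExpand L n x ∈ laurentBaseChange L F₁ := by
  rw [mem_laurentBaseChange_iff] at hx
  induction hx using Subfield.closure_induction with
  | mem y hy =>
      rcases hy with ⟨a, rfl⟩ | ⟨z, hz, rfl⟩
      · rw [algebraMap_laurentSeries_eq_single, qExpand_single, mul_zero,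
          ← algebraMap_laurentSeries_eq_single]
        exact (laurentBaseChange L F₁).algebraMap_mem _
      · have h : coeffEmb L (qExpand ℚ n z) = qExpand L n (coeffEmb L z) :=
          coeffMap_qExpand_jh _ n z
        rw [← h]
        exact coeffEmb_mem_laurentBaseChange L (hF z hz)
  | one => simp
  | add x y _ _ hx hy => simpa using add_mem hx hy
  | neg x _ hx => simpa using neg_mem hx
  | inv x _ hx => simpa using inv_mem hx
  | mul x y _ _ hx hy => simpa using mul_mem hx hy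

section Beta

variable {M c ℓ : ℕ} [NeZero ℓ] {H : Subgroup (ZMod c)ˣ}

/-- `β` as a ring homomorphism. -/
def betaBarRingHom (hβ : BetaOK M c ℓ H) : ↥(FHbar M c H) →+* ↥(FHbar (M * ℓ) c H) where
  toFun x := ⟨qExpand Kbar ℓ (x : LaurentSeries Kbar), qExpand_mem_lbc ℓ hβ x.2⟩
  map_one' := Subtype.ext (map_one (qExpand Kbar ℓ))
  map_mul' _ _ := Subtype.ext (map_mul (qExpand Kbar ℓ) _ _)
  map_zero' := Subtype.ext (map_zero (qExpand Kbar ℓ))
  map_add' _ _ := Subtype.ext (map_add (qExpand Kbar ℓ) _ _)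

/-- The degeneracy map `β : F_H(M) → F_H(Mℓ)`, `f(q) ↦ f(q^ℓ)`. -/
def betaBar (hβ : BetaOK M c ℓ H) : ↥(FHbar M c H) →ₐ[Kbar] ↥(FHbar (M * ℓ) c H) :=
  { betaBarRingHom hβ with
    commutes' := fun a => Subtype.ext <| by
      show qExpand Kbar ℓ (algebraMap Kbar (LaurentSeries Kbar) a)
        = algebraMap Kbar (LaurentSeries Kbar) a
      rw [algebraMap_laurentSeries_eq_single, qExpand_single, mul_zero] }

@[simp]
theorem coe_betaBar (hβ : BetaOK M c ℓ H) (x : ↥(FHbar M c H)) :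
    ((betaBar hβ x : ↥(FHbar (M * ℓ) c H)) : LaurentSeries Kbar)
      = qExpand Kbar ℓ (x : LaurentSeries Kbar) := rfl

/-- The degeneracy map `α : F_H(M) → F_H(Mℓ)` (inclusion). -/
def alphaH (M c ℓ : ℕ) (H : Subgroup (ZMod c)ˣ) :
    ↥(FHbar M c H) →ₐ[Kbar] ↥(FHbar (M * ℓ) c H) :=
  alphaBar (dvd_mul_right M ℓ) c H

@[simp]
theorem coe_alphaH (x : ↥(FHbar M c H)) :
    ((alphaH M c ℓ H x : ↥(FHbar (M * ℓ) c H)) : LaurentSeries Kbar) = (x : LaurentSeries Kbar) :=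
  IntermediateField.coe_inclusion _ x

/-- `T^H := α_* β^*` on `J_H(M)`. -/
def TH (hβ : BetaOK M c ℓ H) : JH M c H →+ JH M c H :=
  (pushP (alphaH M c ℓ H)).comp (pullP (betaBar hβ))

/-- `U^H := β_* α^*` on `J_H(M)`. -/
def UH (hβ : BetaOK M c ℓ H) : JH M c H →+ JH M c H :=
  (pushP (betaBar hβ)).comp (pullP (alphaH M c ℓ H))

/-- The Kummer function of `T^H`: `Norm_α (β f)`. -/
def THfn (hβ : BetaOK M c ℓ H) (f : ↥(FHbar M c H)) : ↥(FHbar M c H) :=
  normFn (alphaH M c ℓ H) (betaBar hβ f)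

/-- The Kummer function of `U^H`: `Norm_β (α f)`. -/
def UHfn (hβ : BetaOK M c ℓ H) (f : ↥(FHbar M c H)) : ↥(FHbar M c H) :=
  normFn (betaBar hβ) (alphaH M c ℓ H f)

end Beta

/-! ## 4. The operators of `J₀(M)` in the same calculus -/

section Zero

variable (M ℓ : ℕ) [NeZero M] [NeZero ℓ]

/-- `T₀ := α_* β^*` on `J₀(M)` (equal to the prelude's `heckeOperatorAlong`). -/
def T0 : JZero M →+ JZero M :=
  (pushP (heckeAlphaBar Kbar M ℓ)).comp (pullP (heckeBetaBar Kbar M ℓ))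

/-- `U₀ := β_* α^*` on `J₀(M)`. -/
def U0 : JZero M →+ JZero M :=
  (pushP (heckeBetaBar Kbar M ℓ)).comp (pullP (heckeAlphaBar Kbar M ℓ))

end Zero

/-! ## 5. The hypotheses of the rules, bundled -/

/-- Everything the rules need at the pair of levels `M`, `Mℓ`. -/
structure HeckeData (M c ℓ : ℕ) [NeZero M] [NeZero ℓ] (H : Subgroup (ZMod c)ˣ) where
  /-- FH-FF at level `M` -/
  isFF : IsFF Kbar ↥(FHbar M c H)
  /-- FH-FF at level `Mℓ` -/
  isFF' : IsFF Kbar ↥(FHbar (M * ℓ) c H)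
  /-- FH-GAL at level `M` -/
  dd : DiamondData M c H
  /-- FH-GAL at level `Mℓ` -/
  dd' : DiamondData (M * ℓ) c H
  /-- FH-BETA -/
  hβ : BetaOK M c ℓ H
  /-- `α` intertwines the diamond operators -/
  alphaGal : ∀ d x, dd'.ρ d (alphaH M c ℓ H x) = alphaH M c ℓ H (dd.ρ d x)
  /-- `β` intertwines the diamond operators -/
  betaGal : ∀ d x, dd'.ρ d (betaBar hβ x) = betaBar hβ (dd.ρ d x)

/-- **FH-FF** (helper84). -/
def Stmt_FH_FF (M c : ℕ) (H : Subgroup (ZMod c)ˣ) : Prop :=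
  2 ≤ c → c ∣ M → M ≠ 0 → IsFF Kbar ↥(FHbar M c H)

/-- **FH-BETAGAL**: `β` intertwines the diamond operators of levels `M` and `Mℓ`
(analytically: `B_ℓ γ B_ℓ⁻¹ ∈ Γ₀(M)` has the same diagonal as `γ ∈ Γ₀(Mℓ)`). -/
def Stmt_FH_betaGal (M c ℓ : ℕ) [NeZero ℓ] (H : Subgroup (ZMod c)ˣ) : Prop :=
  2 ≤ c → c ∣ M → M ≠ 0 →
  ∀ (hβ : BetaOK M c ℓ H) (dd : DiamondData M c H) (dd' : DiamondData (M * ℓ) c H) d x,
    dd'.ρ d (betaBar hβ x) = betaBar hβ (dd.ρ d x)

/-- **FH-ALPHAGAL**: `α` intertwines the diamond operators of levels `M` and `Mℓ`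
(formal: both sides agree on `F₀(M)` and on the generators). -/
def Stmt_FH_alphaGal (M c ℓ : ℕ) (H : Subgroup (ZMod c)ˣ) : Prop :=
  ∀ (dd : DiamondData M c H) (dd' : DiamondData (M * ℓ) c H) d x,
    dd'.ρ d (alphaH M c ℓ H x) = alphaH M c ℓ H (dd.ρ d x)

end Fermat.Agent.NEB.JH

end
end
-- ==== END Fermat.Agent.NEB.H14_JHDefs

-- ==== BEGIN Fermat.Agent.NEB.H29_Inv
section

/-!
# LG-NEB, package INV for function fields (helper29)

`K` algebraically closed, `E`, `L` function fields of one variable over `K` (`RED.IsFF`),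
`φ : E →ₐ[K] L`, a finite group `G` acting on `L` through `ρ` with fixed field `φ(E)`, and
`L / E` unramified in the form of FH-UNR: every place of `L` has a uniformiser in `E`.

* `stmt_INV_FF` : `y ∈ Pic⁰(L)[m]^G ⟹ Φ y - n y = π^* y₀`, `y₀ ∈ Pic⁰(E)[m]`;
* `stmt_SIGMA_FF` : `y₀ ∈ Pic⁰(E)[m]`, `π^* y₀ = 0 ⟹ Φ₀ y₀ - n y₀ = 0`.

Here `π^* = pullP φ` (helper14), `Φ` is any correspondence of `L` with function `N` satisfying
`OpHyp ρ N m n` (for `T_ℓ^H`: `N = Norm_α ∘ β`, `n = ℓ + 1`).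
-/

set_option autoImplicit false
set_option linter.style.haveILetI false

noncomputable section

namespace Fermat.Agent.NEB.H29

open AlgebraicCurve Fermat.Agent.NEB.H14 Fermat.Agent.GTor Fermat.Agent.RED

section FF

variable {K E L : Type} [Field K] [Field E] [Field L] [Algebra K E] [Algebra K L] [IsAlgClosed K]

/-- A function without zeros and poles on a function field is constant. -/
theorem constHyp_of_isFF (hL : IsFF K L) : ConstHyp K L := by
  intro f _ hord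
  obtain ⟨c, hc⟩ := (H17.ffHyp_of_isFF K L hL).const_of_regular (f := f)
    (fun v => le_of_eq (hord v).symm)
  exact ⟨c, hc.symm⟩

/-- Every place of `E` lies under a place of `L`. -/
theorem exists_place_above (hE : IsFF K E) (hL : IsFF K L) (φ : E →ₐ[K] L)
    (v : Place K E) : ∃ w : Place K L, w.restrictAlong φ (isIntegral_hom hE hL φ) = v := by
  classical
  haveI : HasPrincipalDivisors K L := hasPD hL
  have hFI := Fermat.Agent.RED.H51.stmt_FFB_fundamental K E L hE hL φ (isIntegral_hom hE hL φ)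
    inferInstance
  have hfin : FiniteAlong K φ := finiteAlong_hom hE hL φ
  have hdeg := Fermat.Agent.RED.H51.stmt_FFB_deg K E hE v
  letI := algebraAlong φ
  haveI := isScalarTower_along φ
  haveI := isIntegral_along φ (isIntegral_hom hE hL φ)
  haveI : Module.Finite E L := hfin
  haveI : FundamentalIdentity K E L := hFI
  have h1 := FundamentalIdentity.sum_ramificationIndex_mul_deg (K := K) (F := E) (F' := L) v
  have hpos : 0 < Module.finrank E L := Module.finrank_pos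
  by_contra hcon
  push Not at hcon
  have hempty : v.fiber L = ∅ := by
    rw [Finset.eq_empty_iff_forall_notMem]
    intro w hw
    rw [Place.mem_fiber] at hw
    exact hcon w hw
  rw [hempty, Finset.sum_empty, hdeg] at h1
  have : (Module.finrank E L : ℤ) = 0 := by simpa using h1.symm
  omega

/-- FH-UNR gives: divisibility of orders descends from `L` to `E`. -/
theorem dvd_ord_of_uniformiser (hE : IsFF K E) (hL : IsFF K L) (φ : E →ₐ[K] L)
    (hunr : ∀ w : Place K L, ∃ x : E, w.ord (φ x) = 1) (m : ℕ) (e : E)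
    (he : ∀ w : Place K L, (m : ℤ) ∣ w.ord (φ e)) (v : Place K E) : (m : ℤ) ∣ v.ord e := by
  obtain ⟨w, rfl⟩ := exists_place_above hE hL φ v
  obtain ⟨x, hx⟩ := hunr w
  have h1 := Place.ord_restrictAlong φ (isIntegral_hom hE hL φ) w x
  rw [hx] at h1
  have h2 : (Place.ramificationIndexAlong φ w : ℤ) = 1 := by
    have h3 : (Place.ramificationIndexAlong φ w : ℤ) ∣ 1 := ⟨_, h1⟩
    have h4 : (0 : ℤ) ≤ (Place.ramificationIndexAlong φ w : ℤ) := Int.natCast_nonneg _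
    exact Int.eq_one_of_dvd_one h4 h3
  have h5 := Place.ord_restrictAlong φ (isIntegral_hom hE hL φ) w e
  rw [h2, one_mul] at h5
  rw [← h5]
  exact he w

/-- **INV** for an unramified Galois cover of function fields. -/
theorem stmt_INV_FF (hE : IsFF K E) (hL : IsFF K L) (φ : E →ₐ[K] L)
    {G : Type} [Group G] [Finite G] (ρ : G →* (L ≃ₐ[K] L))
    (hfix : ∀ x : L, (∀ d, ρ d x = x) → ∃ x₀ : E, φ x₀ = x)
    (hunr : ∀ w : Place K L, ∃ x : E, w.ord (φ x) = 1)
    (m n : ℕ) (hm : m ≠ 0)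
    {Φ : Divisor K L →+ Divisor K L} {N : L → L} {d : ℤ} (hΦ : IsCorr Φ N d)
    (hN : OpHyp ρ N m n)
    (y : Pic0 K L) (hy : (m : ℤ) • y = 0) (hyG : ∀ d, ρ d • y = y) :
    ∃ y₀ : Pic0 K E, (m : ℤ) • y₀ = 0 ∧ pullP φ y₀ = picMap Φ y - n • y := by
  haveI : HasPrincipalDivisors K E := hasPD hE
  exact stmt_INV_core (constHyp_of_isFF hL) φ (isCorr_pullD hE hL φ) ρ hfix m n hm
    (fun e _ he v => dvd_ord_of_uniformiser hE hL φ hunr m e he v) hΦ hN y hy hyG

/-- **SIGMA**: the kernel of `π^*` on `m`-torsion is Eisenstein. -/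
theorem stmt_SIGMA_FF (hE : IsFF K E) (hL : IsFF K L) (φ : E →ₐ[K] L)
    {G : Type} [Group G] [Finite G] (ρ : G →* (L ≃ₐ[K] L))
    (hfixE : ∀ (d : G) (x : E), ρ d (φ x) = φ x)
    (hfix : ∀ x : L, (∀ d, ρ d x = x) → ∃ x₀ : E, φ x₀ = x)
    (m n : ℕ) (hm : m ≠ 0)
    {Φ₀ : Divisor K E →+ Divisor K E} {N₀ : E → E} {d : ℤ} (hΦ₀ : IsCorr Φ₀ N₀ d)
    {N : L → L} (hN : OpHyp ρ N m n) (hNN : ∀ x : E, φ (N₀ x) = N (φ x))
    (y₀ : Pic0 K E) (hy : (m : ℤ) • y₀ = 0) (hker : pullP φ y₀ = 0) :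
    picMap Φ₀ y₀ - n • y₀ = 0 :=
  stmt_SIGMA_core (constHyp_of_isFF hL) φ (isCorr_pullD hE hL φ) ρ hfixE hfix m n hm hΦ₀ hN hNN
    y₀ hy hker

end FF

end Fermat.Agent.NEB.H29

end
end
-- ==== END Fermat.Agent.NEB.H29_Inv

-- ==== BEGIN Fermat.Agent.NEB.H2_GalNorm
section

/-!
# NEB, package JH, leaf GAL-NORM (helper2): Artin's theorem and the norm as a product

`stmt_GalNorm : H14.Stmt_GalNorm`.  Generic form: `galNorm`.
Also `isGaloisGroup_along`: the `IsGaloisGroup` instance of Mathlib for a finite group of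
automorphisms whose fixed field is the image of `φ`.
-/

set_option autoImplicit false
set_option linter.style.haveILetI false
set_option linter.unusedSectionVars false

noncomputable section

namespace Fermat.Agent.NEB.H2

open AlgebraicCurve Fermat.Agent.NEB.H14

variable {K F F' : Type} [Field K] [Field F] [Field F'] [Algebra K F] [Algebra K F']

/-- A group `G` of `K`-automorphisms of `F'` with fixed field `φ(F)` is a Galois group of
`F' / F` (algebra structure along `φ`). -/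
theorem isGaloisGroup_along (φ : F →ₐ[K] F') (G : Subgroup (F' ≃ₐ[K] F'))
    (h1 : ∀ x : F', (∀ g ∈ G, g x = x) → x ∈ Set.range φ)
    (h2 : ∀ (g : F' ≃ₐ[K] F') (y : F), g ∈ G → g (φ y) = φ y) :
    letI := algebraAlong φ
    IsGaloisGroup G F F' := by
  letI := algebraAlong φ
  exact
    { faithful := inferInstance
      commutes := ⟨fun g a x => by
        show (g : F' ≃ₐ[K] F') (a • x) = a • (g : F' ≃ₐ[K] F') x
        rw [Algebra.smul_def, Algebra.smul_def, map_mul]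
        congr 1
        exact h2 _ a g.2⟩
      isInvariant := ⟨fun x hx => by
        obtain ⟨y, hy⟩ := h1 x (fun g hg => hx ⟨g, hg⟩)
        exact ⟨y, hy⟩⟩ }

/-- **GAL-NORM**, generic form. -/
theorem galNorm (φ : F →ₐ[K] F') (G : Subgroup (F' ≃ₐ[K] F')) [Fintype G]
    (h1 : ∀ x : F', (∀ g ∈ G, g x = x) → x ∈ Set.range φ)
    (h2 : ∀ (g : F' ≃ₐ[K] F') (y : F), g ∈ G → g (φ y) = φ y) :
    FiniteAlong K φ ∧ finrankAlong K φ = Fintype.card G ∧
    ∀ x : F', φ (normFn φ x) = ∏ g : G, (g : F' ≃ₐ[K] F') x := by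
  letI := algebraAlong φ
  haveI : IsGaloisGroup G F F' := isGaloisGroup_along φ G h1 h2
  haveI hfd : FiniteDimensional F F' := IsGaloisGroup.finiteDimensional G F F'
  haveI : IsGalois F F' := IsGaloisGroup.isGalois G F F'
  refine ⟨hfd, ?_, ?_⟩
  · show Module.finrank F F' = Fintype.card G
    rw [← IsGaloisGroup.card_eq_finrank G F F', Nat.card_eq_fintype_card]
  · intro x
    show algebraMap F F' (Algebra.norm F x) = _
    rw [Algebra.norm_eq_prod_automorphisms]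
    symm
    refine Fintype.prod_equiv (IsGaloisGroup.mulEquivAlgEquiv G F F').toEquiv _ _ (fun g => ?_)
    exact (IsGaloisGroup.mulEquivAlgEquiv_apply_apply G F F' g x).symm

/-- **GAL-NORM**. -/
theorem stmt_GalNorm : Stmt_GalNorm := by
  intro K F F' _ _ _ _ _ φ G _ h1 h2
  exact galNorm φ G h1 h2

end Fermat.Agent.NEB.H2

end
end
-- ==== END Fermat.Agent.NEB.H2_GalNorm

-- ==== BEGIN Fermat.Agent.NEB.H84_Gen
section

/-!
# NEB, package FH-GAL, part 3 (helper84): the slash action on the generators of `F_H`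

* `rel_coeffEmb_full` : elements of `F₀(M)` are fixed by `γ ∈ Γ₀(M)`;
* `rel_eisGen` : `γ` maps `e_S` to `e_{S'}`, `S' = {x | d_γ x ∈ S}`.
-/

set_option autoImplicit false

open UpperHalfPlane ModularForm CongruenceSubgroup ModularCurve
open scoped MatrixGroups ModularForm Manifold

noncomputable section

namespace Fermat.Agent.NEB.H84

open Fermat.Agent.S23.H22 (Nice)
open Fermat.Agent.GTor (qLaurent)
open Fermat.Agent.GTor.H56 (qLaurent_mul qLaurent_injective qLaurent_eq_zero_iff qLaurent_zero)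

local notation "ofPS" => HahnSeries.ofPowerSeries ℤ ℂ

variable {M : ℕ} {γ : SL(2, ℤ)}

theorem qLaurent_const' (c : ℂ) : qLaurent (fun _ : ℍ => c) = HahnSeries.C c := by
  have h2 : (fun _ : ℍ => c) = c • (1 : ℍ → ℂ) := by
    funext z
    simp
  rw [h2, qLaurent, (Nice.one 1).qExpansion_smul one_pos, UpperHalfPlane.qExpansion_one]
  rw [← HahnSeries.ofPowerSeries_C]
  congr 1
  ext n
  simp [PowerSeries.coeff_C, PowerSeries.coeff_one]

theorem rel_C (M : ℕ) (γ : SL(2, ℤ)) (c : ℂ) : Rel M γ (HahnSeries.C c) (HahnSeries.C c) := by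
  have := rel_const M γ c
  rwa [qLaurent_const'] at this

/-- Elements of `F₀(M)·ℂ` are fixed by `Γ₀(M)`. -/
theorem rel_of_mem_FNL [NeZero M] (hγ : γ ∈ Gamma0 M) (f : Fermat.Agent.GTor.FNL ℂ M) :
    Rel M γ (f : LaurentSeries ℂ) (f : LaurentSeries ℂ) := by
  obtain ⟨k, A, B, hB, hAB⟩ := Fermat.Agent.GTor.H58.stmt_A1 M f
  exact rel_of_modularForm hγ A B hB hAB

theorem rel_coeffEmb_full [NeZero M] (hγ : γ ∈ Gamma0 M) {z : LaurentSeries ℚ}
    (hz : z ∈ modularFunctionFieldFull M) :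
    Rel M γ (coeffEmb ℂ z) (coeffEmb ℂ z) :=
  rel_of_mem_FNL hγ ⟨coeffEmb ℂ z, coeffEmb_mem_laurentBaseChange ℂ hz⟩

/-! ### The Eisenstein generators -/

theorem slash_levelOne' {k : ℤ} (F : ModularForm 𝒮ℒ k) (γ : SL(2, ℤ)) :
    (F : ℍ → ℂ) ∣[k] γ = F :=
  SlashInvariantFormClass.slash_action_eq F _ ⟨γ, rfl⟩

theorem isW_levelOne (M : ℕ) {k : ℤ} (F : ModularForm 𝒮ℒ k) : IsW M k (F : ℍ → ℂ) where
  mdiff := F.holo'
  slash γ _ := slash_levelOne' F γ
  bdd σ := ModularFormClass.bdd_at_infty_slash F σ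

theorem isW_eisAn {c : ℕ} (hc : c ∣ M) (S : Set (ZMod c)) : IsW M 4 (eisAn c S) where
  mdiff := Fermat.Agent.NEB.H29.eisAn_mdifferentiable c S
  slash γ hγ := by
    have h1 := (Gamma1_mem M γ).mp hγ
    have h0 : γ ∈ Gamma0 c := by
      rw [Gamma0_mem]
      have := h1.2.2
      have h3 : ((γ 1 0 : ℤ) : ZMod c) = ZMod.castHom hc (ZMod c) ((γ 1 0 : ℤ) : ZMod M) := by
        simp
      rw [h3, this, map_zero]
    have h2 := Fermat.Agent.NEB.H29.eisAn_slash_Gamma0 c S ⟨γ, h0⟩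
    rw [h2]
    congr 1
    ext x
    have h3 : ((γ 1 1 : ℤ) : ZMod c) = 1 := by
      have h4 : ((γ 1 1 : ℤ) : ZMod c) = ZMod.castHom hc (ZMod c) ((γ 1 1 : ℤ) : ZMod M) := by
        simp
      rw [h4, h1.2.1, map_one]
    show ((γ 1 1 : ℤ) : ZMod c) * x ∈ S ↔ x ∈ S
    rw [h3, one_mul]
  bdd σ := Fermat.Agent.NEB.H29.eisAn_isBoundedAtImInfty_slash c S σ

theorem mem_Gamma0_of_dvd {c : ℕ} (hc : c ∣ M) (hγ : γ ∈ Gamma0 M) : γ ∈ Gamma0 c := by
  rw [Gamma0_mem] at hγ ⊢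
  have h3 : ((γ 1 0 : ℤ) : ZMod c) = ZMod.castHom hc (ZMod c) ((γ 1 0 : ℤ) : ZMod M) := by
    simp
  rw [h3, hγ, map_zero]

/-- `coeffEmb ℂ (eisGen c S) * E₄ = eisNum` on `q`-expansions. -/
theorem coeffEmb_eisGen_mul (c : ℕ) (S : Set (ZMod c)) :
    coeffEmb ℂ (eisGen c S) * ofPS (eisenstein4.map (Int.castRingHom ℂ)) =
      ofPS ((eisNum c S).map (Int.castRingHom ℂ)) := by
  have h1 : coeffEmb ℂ (eisGen c S) = ofPS ((eisQuot c S).map (Int.castRingHom ℂ)) := by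
    ext n
    rw [coeffEmb_coeff, eisGen]
    rcases lt_or_ge n 0 with hn | hn
    · rw [ModularCurve.ofPowerSeries_coeff_of_neg _ hn,
        ModularCurve.ofPowerSeries_coeff_of_neg _ hn, map_zero]
    · lift n to ℕ using hn
      rw [HahnSeries.ofPowerSeries_apply_coeff, HahnSeries.ofPowerSeries_apply_coeff]
      simp
  rw [h1, ← map_mul, ← map_mul, eisQuot, mul_assoc]
  have h2 : eisenstein4.invOfUnit 1 * eisenstein4 = 1 := by
    rw [mul_comm]
    exact PowerSeries.mul_invOfUnit _ _ (by simp)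
  rw [h2, mul_one]

theorem E4_fun_ne_zero : ((E₄ : ModularForm 𝒮ℒ 4) : ℍ → ℂ) ≠ 0 := by
  intro h
  have h1 : qExpansion 1 (E₄ : ModularForm 𝒮ℒ 4) = 0 := by
    rw [h]
    exact UpperHalfPlane.qExpansion_zero 1
  rw [Fermat.Agent.S28.H76.qExpansion_E4_eq_eisenstein4] at h1
  have h2 := congrArg (PowerSeries.constantCoeff) h1
  rw [← PowerSeries.coeff_zero_eq_constantCoeff_apply, PowerSeries.coeff_map,
    PowerSeries.coeff_zero_eq_constantCoeff_apply, constantCoeff_eisenstein4] at h2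
  simp at h2

/-- **The slash action on the Eisenstein generators.** -/
theorem rel_eisGen {c : ℕ} (hc : c ∣ M) (hγ : γ ∈ Gamma0 M) (S : Set (ZMod c))
    (h0 : (0 : ZMod c) ∉ S) (hS : ∀ x, x ∈ S → -x ∈ S) :
    Rel M γ (coeffEmb ℂ (eisGen c S))
      (coeffEmb ℂ (eisGen c {x | ((γ 1 1 : ℤ) : ZMod c) * x ∈ S})) := by
  set S' : Set (ZMod c) := {x | ((γ 1 1 : ℤ) : ZMod c) * x ∈ S} with hS'
  have h0' : (0 : ZMod c) ∉ S' := by
    intro h
    apply h0
    have : ((γ 1 1 : ℤ) : ZMod c) * 0 ∈ S := h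
    rwa [mul_zero] at this
  have hSS' : ∀ x, x ∈ S' → -x ∈ S' := by
    intro x hx
    have : ((γ 1 1 : ℤ) : ZMod c) * x ∈ S := hx
    show ((γ 1 1 : ℤ) : ZMod c) * (-x) ∈ S
    rw [mul_neg]
    exact hS _ this
  have hC := Fermat.Agent.NEB.H29.eisConst_ne_zero
  have key : Rel M γ (HahnSeries.C Fermat.Agent.NEB.H29.eisConst * coeffEmb ℂ (eisGen c S))
      (HahnSeries.C Fermat.Agent.NEB.H29.eisConst * coeffEmb ℂ (eisGen c S')) := by
    refine ⟨4, eisAn c S, (E₄ : ModularForm 𝒮ℒ 4), isW_eisAn hc S, isW_levelOne M _,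
      E4_fun_ne_zero, ?_, ?_⟩
    · rw [Fermat.Agent.NEB.H29.qLaurent_eisAn c S h0 hS, qLaurent,
        Fermat.Agent.S28.H76.qExpansion_E4_eq_eisenstein4, mul_assoc, coeffEmb_eisGen_mul,
        HahnSeries.C_mul_eq_smul]
    · rw [slash_levelOne',
        Fermat.Agent.NEB.H29.eisAn_slash_Gamma0 c S ⟨γ, mem_Gamma0_of_dvd hc hγ⟩,
        Fermat.Agent.NEB.H29.qLaurent_eisAn c S' h0' hSS', qLaurent,
        Fermat.Agent.S28.H76.qExpansion_E4_eq_eisenstein4, mul_assoc, coeffEmb_eisGen_mul,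
        HahnSeries.C_mul_eq_smul]
  have h2 := rel_mul hγ (rel_C M γ Fermat.Agent.NEB.H29.eisConst⁻¹) key
  have e : ∀ x : LaurentSeries ℂ, HahnSeries.C Fermat.Agent.NEB.H29.eisConst⁻¹ *
      (HahnSeries.C Fermat.Agent.NEB.H29.eisConst * x) = x := by
    intro x
    rw [← mul_assoc, ← map_mul, inv_mul_cancel₀ hC, map_one, one_mul]
  rwa [e, e] at h2

end Fermat.Agent.NEB.H84

end
end
-- ==== END Fermat.Agent.NEB.H84_Gen

-- ==== BEGIN Fermat.Agent.S48.Asm.H01_TraceSet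
section

/-!
# S48, assembly G, leaf G-TraceSet (helper1)

`stmt_TraceSet : Stmt_TraceSet`: the traces and determinants of the elements of order `≤ B` of
`GL₂(ℂ)` are the values of finitely many algebraic integers, namely the sums `α + β` and the
products `α β` of two roots of unity of order `≤ B`.
-/

set_option autoImplicit false
set_option linter.style.haveILetI false
set_option linter.unusedSectionVars false

open scoped MatrixGroups

noncomputable section

namespace Fermat.Agent.S48.Asm.H01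

open Polynomial

/-- The complex roots of unity of order `≤ B`. -/
def rootsLE (B : ℕ) : Finset ℂ :=
  (Finset.Icc 1 B).biUnion fun n => (Polynomial.nthRoots n (1 : ℂ)).toFinset

theorem mem_rootsLE {B n : ℕ} (hn : 0 < n) (hnB : n ≤ B) {ζ : ℂ} (h : ζ ^ n = 1) :
    ζ ∈ rootsLE B := by
  unfold rootsLE
  rw [Finset.mem_biUnion]
  refine ⟨n, Finset.mem_Icc.mpr ⟨hn, hnB⟩, ?_⟩
  rw [Multiset.mem_toFinset, Polynomial.mem_nthRoots hn]
  exact h

/-- The sums and the products of two roots of unity of order `≤ B`. -/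
def traceSetC (B : ℕ) : Finset ℂ :=
  ((rootsLE B ×ˢ rootsLE B).image fun p => p.1 + p.2) ∪
    ((rootsLE B ×ˢ rootsLE B).image fun p => p.1 * p.2)

theorem add_mem_traceSetC {B : ℕ} {α β : ℂ} (hα : α ∈ rootsLE B) (hβ : β ∈ rootsLE B) :
    α + β ∈ traceSetC B := by
  unfold traceSetC
  apply Finset.mem_union_left
  rw [Finset.mem_image]
  exact ⟨(α, β), Finset.mem_product.mpr ⟨hα, hβ⟩, rfl⟩

theorem mul_mem_traceSetC {B : ℕ} {α β : ℂ} (hα : α ∈ rootsLE B) (hβ : β ∈ rootsLE B) :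
    α * β ∈ traceSetC B := by
  unfold traceSetC
  apply Finset.mem_union_right
  rw [Finset.mem_image]
  exact ⟨(α, β), Finset.mem_product.mpr ⟨hα, hβ⟩, rfl⟩

/-- The same set, inside the ring of algebraic integers. -/
def traceSet (B : ℕ) : Finset (integralClosure ℤ ℂ) :=
  @Finset.subtype ℂ (fun x : ℂ => x ∈ integralClosure ℤ ℂ) (Classical.decPred _) (traceSetC B)

theorem mem_traceSet {B : ℕ} (z : integralClosure ℤ ℂ) :
    z ∈ traceSet B ↔ (z : ℂ) ∈ traceSetC B :=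
  @Finset.mem_subtype ℂ (fun x : ℂ => x ∈ integralClosure ℤ ℂ) (Classical.decPred _)
    (traceSetC B) z

/-- **G-TraceSet.** -/
theorem stmt_TraceSet : Stmt_TraceSet := by
  intro B
  refine ⟨traceSet B, ?_⟩
  intro g n hn hnB hg
  have hM : ((g : GL (Fin 2) ℂ) : Matrix (Fin 2) (Fin 2) ℂ) ^ n = 1 := by
    rw [← Units.val_pow_eq_pow_val, hg, Units.val_one]
  obtain ⟨α, β, hα, hβ, htr, hdet⟩ := exists_roots_two _ n hM
  have hαi : IsIntegral ℤ α := IsIntegral.of_pow hn (by rw [hα]; exact isIntegral_one)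
  have hβi : IsIntegral ℤ β := IsIntegral.of_pow hn (by rw [hβ]; exact isIntegral_one)
  have hαm := mem_rootsLE hn hnB hα
  have hβm := mem_rootsLE hn hnB hβ
  refine ⟨⟨⟨α + β, hαi.add hβi⟩, ?_, htr.symm⟩, ⟨⟨α * β, hαi.mul hβi⟩, ?_, hdet.symm⟩⟩
  · rw [mem_traceSet]
    exact add_mem_traceSetC hαm hβm
  · rw [mem_traceSet]
    exact mul_mem_traceSetC hαm hβm

end Fermat.Agent.S48.Asm.H01

end
end
-- ==== END Fermat.Agent.S48.Asm.H01_TraceSet

-- ==== BEGIN Fermat.Agent.S48.Asm.H43_Lemmas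
section

/-!
# S48 assembly: small lemmas (helper43)

* `le_zero_of_mul_log_le`: `c log (1/(s-1)) ≤ C` on `(1, 2]` forces `c ≤ 0`;
* `groupBound'`: `Stmt_GroupBound` without the hypotheses on `ℓ` (helper55's proof);
* `isIntegral_dirichlet`: the values of a Dirichlet character are algebraic integers;
* `exists_frobPrime`: every element of a finite quotient is a Frobenius outside `S`.
-/

set_option autoImplicit false
set_option linter.unusedSectionVars false
set_option linter.style.haveILetI false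

open CongruenceSubgroup
open scoped MatrixGroups

namespace Fermat.Agent.S48.Asm.H43

local notation "Γℚ" => (AlgebraicClosure ℚ ≃ₐ[ℚ] AlgebraicClosure ℚ)

/-- Finite level passes to homomorphisms which are trivial where the given one is. -/
theorem finiteLevel_of_imp {M M' : Type} [MulOneClass M] [MulOneClass M'] (ρ : Γℚ →* M)
    (θ : Γℚ →* M') (h : ∀ σ, ρ σ = 1 → θ σ = 1) (hρ : GaloisFactorsThroughFiniteLevel ρ) :
    GaloisFactorsThroughFiniteLevel θ := by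
  obtain ⟨L, hL, hL'⟩ := hρ
  exact ⟨L, hL, fun σ hσ => h σ (hL' σ hσ)⟩

/-- `c log (1/(s-1)) ≤ C` on `(1, 2]` forces `c ≤ 0`. -/
lemma le_zero_of_mul_log_le (c C : ℝ)
    (h : ∀ s : ℝ, 1 < s → s ≤ 2 → c * Real.log (1 / (s - 1)) ≤ C) : c ≤ 0 := by
  by_contra hc
  push Not at hc
  set t : ℝ := max 0 (C / c + 1) with ht
  have ht0 : 0 ≤ t := le_max_left _ _
  have ht1 : C / c + 1 ≤ t := le_max_right _ _
  have hs1 : (1 : ℝ) < 1 + Real.exp (-t) := by
    have := Real.exp_pos (-t)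
    linarith
  have hs2 : 1 + Real.exp (-t) ≤ 2 := by
    have : Real.exp (-t) ≤ 1 := Real.exp_le_one_iff.mpr (by linarith)
    linarith
  have h1 := h _ hs1 hs2
  have h2 : Real.log (1 / (1 + Real.exp (-t) - 1)) = t := by
    rw [add_sub_cancel_left, one_div, ← Real.exp_neg, neg_neg, Real.log_exp]
  rw [h2] at h1
  have h3 : C / c * c = C := div_mul_cancel₀ C hc.ne'
  have h4 : c * (C / c + 1) ≤ c * t := mul_le_mul_of_nonneg_left ht1 hc.le
  nlinarith

/-- `Stmt_GroupBound` without the hypotheses on `ℓ` (they are not used in helper55's proof). -/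
theorem groupBound' (M : ℕ) : ∃ B : ℕ, ∀ (k : Type) [Field k]
    (G : Subgroup (GL (Fin 2) k)) (H : Set (GL (Fin 2) k)) (Y : Finset (k × k)),
    Finite G → IsSemisimple2 G →
    (∀ h ∈ H, ((h : Matrix (Fin 2) (Fin 2) k).trace, (h : Matrix (Fin 2) (Fin 2) k).det) ∈ Y) →
    Y.card ≤ M →
    120 * Nat.card {g : GL (Fin 2) k // g ∈ G ∧ g ∉ H} ≤ Nat.card G →
    Nat.card G ≤ B := by
  refine ⟨2 * M ^ 4 + 3 * M, ?_⟩
  intro k _ G H Y hfin hss hHY hY hcount
  classical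
  haveI := hfin
  set Gf : Finset (GL (Fin 2) k) := (Set.toFinite (G : Set (GL (Fin 2) k))).toFinset
    with hGfdef
  have hGf : ∀ g, g ∈ Gf ↔ g ∈ G := fun g => by
    rw [hGfdef, Set.Finite.mem_toFinset]
    rfl
  have hcardG : Nat.card G = Gf.card := Nat.subtype_card Gf hGf
  set Bd : Finset (GL (Fin 2) k) := Gf.filter (fun g => g ∉ H) with hBddef
  have hBd : ∀ g, g ∈ Bd ↔ g ∈ G ∧ g ∉ H := fun g => by
    rw [hBddef, Finset.mem_filter, hGf]
  have hcardB : Nat.card {g : GL (Fin 2) k // g ∈ G ∧ g ∉ H} = Bd.card :=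
    Nat.subtype_card _ hBd
  rw [hcardG, hcardB] at hcount
  rw [hcardG]
  by_cases hsp : ∃ b : Fin 4 → GL (Fin 2) k, (∀ i, b i ∈ G) ∧
      LinearIndependent k (fun i => ((b i : GL (Fin 2) k) : Matrix (Fin 2) (Fin 2) k))
  · obtain ⟨b, hbG, hb⟩ := hsp
    have h1 := Fermat.Agent.S48.H55.card_le_of_span G H Y Gf hGf hHY b hbG hb Bd hBd
    have h2 : Y.card ^ 4 ≤ M ^ 4 := Nat.pow_le_pow_left hY 4
    generalize M ^ 4 = A at h2 ⊢
    generalize Y.card ^ 4 = A' at h1 h2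
    omega
  · have hns : ∀ b : Fin 4 → GL (Fin 2) k, (∀ i, b i ∈ G) →
        ¬ LinearIndependent k (fun i => ((b i : GL (Fin 2) k) : Matrix (Fin 2) (Fin 2) k)) :=
      fun b hb hli => hsp ⟨b, hb, hli⟩
    have hab : ∀ g ∈ G, ∀ h ∈ G,
        (g : Matrix (Fin 2) (Fin 2) k) * (h : Matrix (Fin 2) (Fin 2) k) = h * g :=
      fun g hg h hh => Fermat.Agent.S48.H55.abelian_of_not_span G hss hns g h hg hh
    have h1 := Fermat.Agent.S48.H55.card_le_of_abelian G hss hab H Y Gf hGf hHY Bd hBd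
    generalize M ^ 4 = A
    omega

/-- The values of a Dirichlet character are algebraic integers. -/
lemma isIntegral_dirichlet (N : ℕ) [NeZero N] (ε : DirichletCharacter ℂ N) (x : ZMod N) :
    IsIntegral ℤ (ε x) := by
  by_cases hx : IsUnit x
  · obtain ⟨u, rfl⟩ := hx
    have h1 : (ε (u : ZMod N)) ^ (Fintype.card (ZMod N)ˣ) = 1 := by
      rw [← map_pow, ← Units.val_pow_eq_pow_val, pow_card_eq_one, Units.val_one, map_one]
    exact IsIntegral.of_pow Fintype.card_pos (by rw [h1]; exact isIntegral_one)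
  · rw [MulChar.map_nonunit ε hx]
    exact isIntegral_zero

/-- Every element of a finite quotient of `Γℚ` is the image of a Frobenius element at some prime
outside a given finite set. -/
theorem exists_frobPrime (hCS : Stmt_ChebSet) {G : Type} [Group G] [Finite G] (r : Γℚ →* G)
    (hfl : GaloisFactorsThroughFiniteLevel r) (hr : Function.Surjective r) (S : Finset ℕ)
    (g : G) : ∃ p : ℕ, p ∉ S ∧ p ∈ frobPrimes r g := by
  obtain ⟨C, hC⟩ := hCS G r hfl hr S (fun h => h = g) (1 / 2) (by norm_num)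
  by_contra hcon
  push Not at hcon
  have hcard : Nat.card {h : G // h = g} = 1 := by
    rw [Nat.card_eq_one_iff_unique]
    exact ⟨⟨fun a b => Subtype.ext (a.2.trans b.2.symm)⟩, ⟨⟨g, rfl⟩⟩⟩
  have hGpos : (0 : ℝ) < (Nat.card G : ℝ) := by exact_mod_cast Nat.card_pos
  have key : ∀ s : ℝ, 1 < s → s ≤ 2 →
      ((1 - 1 / 2) * ((1 : ℝ) / (Nat.card G : ℝ))) * Real.log (1 / (s - 1)) ≤ C := by
    intro s hs1 hs2
    obtain ⟨T, hT, hle⟩ := hC s hs1 hs2
    have hTe : T = ∅ := by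
      rw [Finset.eq_empty_iff_forall_notMem]
      intro p hp
      obtain ⟨hpS, g', hg', hpg⟩ := hT p hp
      rw [hg'] at hpg
      exact hcon p hpS hpg
    rw [hTe, Finset.sum_empty, hcard, Nat.cast_one] at hle
    linarith
  have := le_zero_of_mul_log_le _ _ key
  have hpos : 0 < (1 - 1 / 2) * ((1 : ℝ) / (Nat.card G : ℝ)) := by positivity
  linarith

end Fermat.Agent.S48.Asm.H43

end
-- ==== END Fermat.Agent.S48.Asm.H43_Lemmas
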