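-- GENERATED (merged mirror, NOTES/tools/trim/merge3_helper67.py): 8 modules of the originals, bodies verbatim.
import Mathlib
import Fermat.Agent.Zm.S35_L10_001
import Fermat.Agent.Zm.S35_L16_000
import Fermat.Agent.Zm.S33_L02_000
import Fermat.Agent.Zm.S35_L09_002
import Fermat.Agent.Zm.S33_L07_000
import Fermat.Agent.Zm.S35_L03_001
import Fermat.Agent.Zm.S33_L04_001
import Fermat.Agent.Zm.S48_L04_000
import Fermat.Agent.Zm.S35_L06_002
import Fermat.Agent.Zm.S35_L13_002
import Fermat.Agent.Zm.S35_L07_000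
import Fermat.Agent.Zm.S35_L15_002
import Fermat.Agent.Zm.S35_L06_001
import Fermat.Agent.Zm.S35_L01_000
import Fermat.Agent.Zm.S35_L02_000

-- ==== BEGIN Fermat.Agent.BAD.H21_UnitW
section

/-!
# BAD_q / COORD (helper21), leaf UNIT-W: the Atkin–Lehner involution on the modular unit

`N = M q`, `a q + b M = 1`, `U = unitF (M q) q = Δ(τ)/Δ(q τ)`.  Then

  `wq U = q ^ 12 / U`.

Proof: through the analytic embedding `emb : F_N → Frac Hol` the unit `U` is `Δ / Δ_q`
(`Δ_q (τ) = Δ (q τ)`; comparison of expansions at `∞`), and `Δ (W τ) = (q (M τ + 1)) ^ 12 Δ (q τ)`,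
`Δ (q W τ) = (M τ + 1) ^ 12 Δ (τ)` by the modularity of `Δ`.
-/

set_option autoImplicit false
set_option synthInstance.maxHeartbeats 400000
set_option maxHeartbeats 1000000
set_option linter.unusedSectionVars false
set_option linter.style.haveILetI false

noncomputable section

namespace Fermat.Agent.BAD.H21

open Fermat.Agent.S24 ModularCurve UpperHalfPlane Fermat.Agent.BAD.H88 Fermat.Agent.BAD.H30
open scoped MatrixGroups Manifold

/-! ## The discriminant as a holomorphic function and its expansions -/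

/-- The discriminant, as an element of `Hol`. -/
def H21_DeltaH : Hol := ⟨fun τ => ModularForm.discriminant τ, CuspForm.discriminant.holo'⟩

theorem H21_DeltaH_apply (τ : ℍ) : (H21_DeltaH : ℍ → ℂ) τ = ModularForm.discriminant τ := rfl

/-- From a power series expansion in `q` to `HasUExp 1`. -/
theorem H21_hasUExp_of_hasSum {f : ℍ → ℂ} {P : PowerSeries ℂ}
    (h : ∀ τ : ℍ, HasSum (fun n : ℕ => PowerSeries.coeff n P *
      Function.Periodic.qParam 1 (τ : ℂ) ^ n) (f τ)) :
    HasUExp 1 f (HahnSeries.ofPowerSeries ℤ ℂ P) := by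
  intro τ
  have hu : uPar 1 τ = Function.Periodic.qParam 1 (τ : ℂ) := by simp [uPar]
  rw [hu]
  have hφ : Function.Injective (fun n : ℕ => (n : ℤ)) := Nat.cast_injective
  refine (hφ.hasSum_iff ?_).mp ?_
  · intro m hm
    have hneg : m < 0 := by
      by_contra hge
      apply hm
      exact ⟨m.toNat, by simp only; omega⟩
    rw [PowerSeries.coeff_coe, if_pos hneg, zero_mul]
  · have hfun : ((fun m : ℤ => (HahnSeries.ofPowerSeries ℤ ℂ P).coeff m *
        Function.Periodic.qParam 1 (τ : ℂ) ^ m) ∘ fun n : ℕ => (n : ℤ))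
        = fun n : ℕ => PowerSeries.coeff n P * Function.Periodic.qParam 1 (τ : ℂ) ^ n := by
      funext n
      show (HahnSeries.ofPowerSeries ℤ ℂ P).coeff (n : ℤ) *
        Function.Periodic.qParam 1 (τ : ℂ) ^ (n : ℤ) = _
      rw [HahnSeries.ofPowerSeries_apply_coeff, zpow_natCast]
    rw [hfun]
    exact h τ

/-- The expansion of `Δ` at `∞`. -/
theorem H21_hasUExp_Delta :
    HasUExp 1 (H21_DeltaH : ℍ → ℂ) (coeffMap iotaC (coeffEmb Kbar deltaSeries)) := by
  have e : coeffMap iotaC (coeffEmb Kbar deltaSeries)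
      = coeffMap (algebraMap ℚ ℂ) deltaSeries := by
    rw [coeffEmb, ModularCurve.coeffMap_coeffMap]
    have e2 : iotaC.comp (algebraMap ℚ Kbar) = algebraMap ℚ ℂ := Subsingleton.elim _ _
    rw [e2]
  rw [e, coeffMap_deltaSeries]
  refine H21_hasUExp_of_hasSum fun τ => ?_
  have h := ModularForm.hasSum_qExpansion (f := CuspForm.discriminant) (h := 1) one_pos
    (by simp) τ
  exact h

/-- `Δ (e τ)`, as an element of `Hol`. -/
def H21_DeltaD (e : ℕ) (he : 0 < e) : Hol :=
  compHol !![(e : ℤ), 0; 0, 1] (diag_det_pos e he) H21_DeltaH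

theorem H21_DeltaD_apply (e : ℕ) (he : 0 < e) (τ : ℍ) :
    (H21_DeltaD e he : ℍ → ℂ) τ
      = ModularForm.discriminant (intGL !![(e : ℤ), 0; 0, 1] (diag_det_pos e he) • τ) := rfl

theorem H21_DeltaD_ne_zero (e : ℕ) (he : 0 < e) : H21_DeltaD e he ≠ 0 := by
  intro h
  have h1 := congrArg (fun f : Hol => (f : ℍ → ℂ) UpperHalfPlane.I) h
  simp only [H21_DeltaD_apply] at h1
  exact ModularForm.discriminant_ne_zero _ h1

/-- The expansion of `Δ (e τ)` in the parameter `u = exp (2 π i τ / N)`. -/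
theorem H21_hasUExp_DeltaD (N : ℕ) [NeZero N] (e : ℕ) [NeZero e] (he : 0 < e) :
    HasUExp N (H21_DeltaD e he : ℍ → ℂ)
      (coeffMap iotaC (qExpand Kbar N (qExpand Kbar e (coeffEmb Kbar deltaSeries)))) := by
  haveI : NeZero (N * e) := ⟨Nat.mul_ne_zero (NeZero.ne N) (NeZero.ne e)⟩
  obtain ⟨c', hc', h1, h2⟩ := HasUExp.comp_affine (N := N) H21_hasUExp_Delta e 1 0 he one_pos
    (one_dvd N) (H21_DeltaD e he : ℍ → ℂ) (fun τ τ' hτ' => by
      rw [H21_DeltaD_apply, H21_DeltaH_apply]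
      congr 1
      apply UpperHalfPlane.ext
      rw [coe_intGL_smul, hτ']
      simp)
  have hNe : N / 1 * e = N * e := by rw [Nat.div_one]
  have : c' = coeffMap iotaC (qExpand Kbar N (qExpand Kbar e (coeffEmb Kbar deltaSeries))) := by
    ext m
    rw [qExpand_qExpand, coeffMap_coeff]
    by_cases hm : ((N * e : ℕ) : ℤ) ∣ m
    · obtain ⟨n, rfl⟩ := hm
      rw [qExpand_coeff_mul]
      have h3 := h1 n
      rw [hNe] at h3
      rw [h3, coeffMap_coeff]
      simp
    · rw [qExpand_coeff_of_not_dvd _ _ hm, map_zero]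
      exact h2 m (by rw [hNe]; exact hm)
  rw [← this]
  exact hc'

theorem H21_DeltaD_one : H21_DeltaD 1 one_pos = H21_DeltaH := by
  apply Subtype.ext
  funext τ
  rw [H21_DeltaD_apply, H21_DeltaH_apply]
  congr 1
  apply UpperHalfPlane.ext
  rw [coe_intGL_smul]
  simp

/-! ## The analytic image of the modular unit -/

/-- **(E1)** the analytic image of the modular unit `Δ(q)/Δ(q^d)` is `Δ(τ)/Δ(d τ)`. -/
theorem H21_emb_unitF (N : ℕ) [NeZero N] (d : ℕ) [NeZero d] (hd : d ∣ N) :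
    emb N (unitF N d hd) = holToMer H21_DeltaH /
      holToMer (H21_DeltaD d (Nat.pos_of_ne_zero (NeZero.ne d))) := by
  have hdpos : 0 < d := Nat.pos_of_ne_zero (NeZero.ne d)
  obtain ⟨X, Y, hY, hXY⟩ := IsFractionRing.div_surjective (A := AT N) (phi N (unitF N d hd))
  have hY0 : Y ≠ 0 := nonZeroDivisors.ne_zero hY
  have hY' : uExpT N Y ≠ 0 := fun h => hY0 (uExpT_injective N (by rw [h, map_zero]))
  -- the series
  set δ : LaurentSeries Kbar := coeffEmb Kbar deltaSeries with hδ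
  have hδd : coeffEmb Kbar (modularUnitSeries d) = δ * (qExpand Kbar d δ)⁻¹ := by
    rw [modularUnitSeries, map_mul, map_inv₀, deltaSeriesN, coeffEmb,
      ModularCurve.coeffMap_qExpand]
    rfl
  have hδd0 : qExpand Kbar N (qExpand Kbar d δ) ≠ 0 := by
    intro h
    have h1 : qExpand Kbar d δ = 0 := qExpand_injective N (by rw [h, map_zero])
    have h2 : δ = 0 := qExpand_injective d (by rw [h1, map_zero])
    have h3 : coeffEmb Kbar deltaSeries = coeffEmb Kbar 0 := by rw [map_zero]; exact h2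
    exact deltaSeries_ne_zero (Fermat.Agent.RED.H30.coeffMap_injective _ h3)
  have hU : uExpT N X * qExpand Kbar N (qExpand Kbar d δ) = uExpT N Y * qExpand Kbar N δ := by
    have h1 := UL_phi N (unitF N d hd)
    rw [← hXY, map_div₀, UL_algebraMap, UL_algebraMap, qN_apply, unitF_coe, hδd, map_mul,
      map_inv₀, div_eq_iff hY'] at h1
    rw [h1]
    field_simp
  -- the functions
  have key : inclAT N X * H21_DeltaD d hdpos = inclAT N Y * H21_DeltaH := by
    apply Subtype.ext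
    funext τ
    have hX := uExp_spec N ((toAT N).symm X)
    have hYs := uExp_spec N ((toAT N).symm Y)
    have hΔd := H21_hasUExp_DeltaD N d hdpos
    have hΔ1 := H21_hasUExp_DeltaD N 1 one_pos
    rw [H21_DeltaD_one, qExpand_one_apply] at hΔ1
    have hL := (hX.mul hΔd) τ
    have hR := (hYs.mul hΔ1) τ
    have hser : coeffMap iotaC (uExp N ((toAT N).symm X)) *
        coeffMap iotaC (qExpand Kbar N (qExpand Kbar d (coeffEmb Kbar deltaSeries)))
        = coeffMap iotaC (uExp N ((toAT N).symm Y)) *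
          coeffMap iotaC (qExpand Kbar N (coeffEmb Kbar deltaSeries)) := by
      rw [← map_mul, ← map_mul]
      exact congrArg _ hU
    rw [hser] at hL
    exact hL.unique hR
  have hYH : holToMer (inclAT N Y) ≠ 0 := fun h =>
    hY0 (holToMer_comp_inclAT_injective N (by
      rw [AlgHom.comp_apply, h, map_zero]))
  have hDH : holToMer (H21_DeltaD d hdpos) ≠ 0 := fun h =>
    H21_DeltaD_ne_zero d hdpos (holToMer_injective (by rw [h, map_zero]))
  show inclLN N (phi N (unitF N d hd)) = _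
  rw [← hXY, map_div₀, inclLN_algebraMap, inclLN_algebraMap, div_eq_div_iff hYH hDH,
    ← map_mul, ← map_mul, key, mul_comm]

/-! ## The transformation of `Δ` under the Atkin–Lehner matrix -/

/-- `Δ` transforms with weight `12` under `SL₂(ℤ)`. -/
theorem H21_Delta_smul (γ : SL(2, ℤ)) (τ : ℍ) :
    ModularForm.discriminant (γ • τ) = denom γ τ ^ (12 : ℤ) * ModularForm.discriminant τ := by
  have hγ : (γ : GL (Fin 2) ℝ) ∈ 𝒮ℒ := ⟨γ, rfl⟩
  exact SlashInvariantForm.slash_action_eqn'' CuspForm.discriminant hγ τ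

/-- Scalar matrices act trivially on `ℍ`. -/
theorem H21_intGL_smul_smul (c : ℤ) (hc : 0 < c) (A : Matrix (Fin 2) (Fin 2) ℤ) (hA : 0 < A.det)
    (hcA : 0 < (c • A).det) (τ : ℍ) : intGL (c • A) hcA • τ = intGL A hA • τ := by
  apply UpperHalfPlane.ext
  rw [coe_intGL_smul, coe_intGL_smul]
  have hc' : (c : ℂ) ≠ 0 := by exact_mod_cast hc.ne'
  simp only [Matrix.smul_apply, smul_eq_mul, Int.cast_mul]
  have hden : ((A 1 0 : ℂ) * τ + A 1 1) ≠ 0 := by
    have := UpperHalfPlane.denom_ne_zero (intGL A hA) τ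
    simpa [denom, intGL_val] using this
  field_simp

theorem H21_intGL_congr {A B : Matrix (Fin 2) (Fin 2) ℤ} (h : A = B) (hA : 0 < A.det)
    (hB : 0 < B.det) : intGL A hA = intGL B hB := by
  subst h
  rfl

section AL

variable (q M : ℕ) (a b : ℤ) (hab : a * q + b * M = 1) (hq : 0 < q)

/-- `γ = !![a, -b; M, q] ∈ SL₂(ℤ)`. -/
def H21_gam : SL(2, ℤ) :=
  ⟨!![a, -b; (M : ℤ), q], by rw [Matrix.det_fin_two_of]; linear_combination hab⟩

/-- `γ' = !![q a, -b; M, 1] ∈ SL₂(ℤ)`. -/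
def H21_gam' : SL(2, ℤ) :=
  ⟨!![(q : ℤ) * a, -b; (M : ℤ), 1], by rw [Matrix.det_fin_two_of]; linear_combination hab⟩

theorem H21_Wmat_eq : Wmat q M a b = (H21_gam q M a b hab).1 * !![(q : ℤ), 0; 0, 1] := by
  rw [Wmat, H21_gam]
  ext i j
  fin_cases i <;> fin_cases j <;> simp [Matrix.mul_apply, Fin.sum_univ_two] <;> ring

theorem H21_diag_mul_Wmat :
    (!![(q : ℤ), 0; 0, 1] : Matrix (Fin 2) (Fin 2) ℤ) * Wmat q M a b
      = (q : ℤ) • (H21_gam' q M a b hab).1 := by
  rw [Wmat, H21_gam']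
  ext i j
  fin_cases i <;> fin_cases j <;>
    simp [Matrix.mul_apply, Fin.sum_univ_two, Matrix.smul_apply] <;> ring

/-- `Δ (W τ) = (M (q τ) + q) ^ 12 Δ (q τ)`. -/
theorem H21_Delta_W (τ : ℍ) :
    ModularForm.discriminant (intGL (Wmat q M a b) (Wmat_det_pos q M a b hab hq) • τ)
      = ((M : ℂ) * ((q : ℂ) * τ) + q) ^ 12 *
        ModularForm.discriminant (intGL !![(q : ℤ), 0; 0, 1] (diag_det_pos q hq) • τ) := by
  have hγ : 0 < ((H21_gam q M a b hab).1).det := intGL_SL_det_pos _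
  have h1 : intGL (Wmat q M a b) (Wmat_det_pos q M a b hab hq) • τ
      = H21_gam q M a b hab • (intGL !![(q : ℤ), 0; 0, 1] (diag_det_pos q hq) • τ) := by
    rw [← intGL_SL_smul _ hγ, ← intGL_mul_smul _ _ hγ (diag_det_pos q hq)
      (by rw [← H21_Wmat_eq]; exact Wmat_det_pos q M a b hab hq)]
    rw [H21_intGL_congr (H21_Wmat_eq q M a b hab)]
  rw [h1, H21_Delta_smul]
  congr 1
  have h2 : ((intGL !![(q : ℤ), 0; 0, 1] (diag_det_pos q hq) • τ : ℍ) : ℂ) = (q : ℂ) * τ := by
    rw [coe_intGL_smul]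
    simp
  have h3 : denom (H21_gam q M a b hab)
      ((intGL !![(q : ℤ), 0; 0, 1] (diag_det_pos q hq) • τ : ℍ) : ℂ)
        = (M : ℂ) * ((q : ℂ) * τ) + q := by
    rw [ModularGroup.denom_apply, h2]
    simp [H21_gam]
  rw [h3]
  norm_cast

/-- `Δ (q W τ) = (M τ + 1) ^ 12 Δ (τ)`. -/
theorem H21_Delta_qW (τ : ℍ) :
    ModularForm.discriminant (intGL !![(q : ℤ), 0; 0, 1] (diag_det_pos q hq) •
        (intGL (Wmat q M a b) (Wmat_det_pos q M a b hab hq) • τ))
      = ((M : ℂ) * τ + 1) ^ 12 * ModularForm.discriminant τ := by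
  have hγ : 0 < ((H21_gam' q M a b hab).1).det := intGL_SL_det_pos _
  have hW := Wmat_det_pos q M a b hab hq
  have hdW : 0 < ((!![(q : ℤ), 0; 0, 1] : Matrix (Fin 2) (Fin 2) ℤ) * Wmat q M a b).det := by
    rw [Matrix.det_mul]
    exact mul_pos (diag_det_pos q hq) hW
  have hqγ : 0 < ((q : ℤ) • (H21_gam' q M a b hab).1).det := by
    rw [← H21_diag_mul_Wmat]
    exact hdW
  have h1 : intGL !![(q : ℤ), 0; 0, 1] (diag_det_pos q hq) •
      (intGL (Wmat q M a b) hW • τ) = H21_gam' q M a b hab • τ := by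
    rw [← intGL_mul_smul _ _ (diag_det_pos q hq) hW hdW,
      H21_intGL_congr (H21_diag_mul_Wmat q M a b hab) hdW hqγ,
      H21_intGL_smul_smul (q : ℤ) (by exact_mod_cast hq) _ hγ hqγ, intGL_SL_smul]
  rw [h1, H21_Delta_smul]
  congr 1
  rw [ModularGroup.denom_apply]
  simp [H21_gam']

end AL

/-! ## The theorem -/

/-- **UNIT-W**: `w_q (Δ(τ)/Δ(q τ)) = q ^ 12 Δ(q τ)/Δ(τ)`. -/
theorem wq_unitF (q M : ℕ) (a b : ℤ) (hab : a * q + b * M = 1) (hq : q.Prime)
    [NeZero (M * q)] [NeZero q] (hd : q ∣ M * q) :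
    wq q M a b hab hq (unitF (M * q) q hd)
      = algebraMap Kbar (FN (M * q)) ((q : Kbar) ^ 12) * (unitF (M * q) q hd)⁻¹ := by
  have hqpos : 0 < q := hq.pos
  have hW := Wmat_det_pos q M a b hab hqpos
  have hΔ0 : holToMer H21_DeltaH ≠ 0 := by
    intro h
    have h1 : H21_DeltaH = 0 := holToMer_injective (by rw [h, map_zero])
    rw [← H21_DeltaD_one] at h1
    exact H21_DeltaD_ne_zero 1 one_pos h1
  have hΔq0 : holToMer (H21_DeltaD q (Nat.pos_of_ne_zero (NeZero.ne q))) ≠ 0 := fun h =>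
    H21_DeltaD_ne_zero q _ (holToMer_injective (by rw [h, map_zero]))
  have hcΔq0 : holToMer (compHol (Wmat q M a b) hW
      (H21_DeltaD q (Nat.pos_of_ne_zero (NeZero.ne q)))) ≠ 0 := fun h =>
    H21_DeltaD_ne_zero q _ (holToMer_comp_compHol_injective (Wmat q M a b) hW (by
      rw [AlgHom.comp_apply, h, map_zero]))
  have key : compHol (Wmat q M a b) hW H21_DeltaH * H21_DeltaH
      = algebraMap Kbar Hol ((q : Kbar) ^ 12) * H21_DeltaD q (Nat.pos_of_ne_zero (NeZero.ne q)) *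
        compHol (Wmat q M a b) hW (H21_DeltaD q (Nat.pos_of_ne_zero (NeZero.ne q))) := by
    apply Subtype.ext
    funext τ
    show ModularForm.discriminant (intGL (Wmat q M a b) hW • τ) * ModularForm.discriminant τ
      = iotaC ((q : Kbar) ^ 12) *
          ModularForm.discriminant (intGL !![(q : ℤ), 0; 0, 1] (diag_det_pos q hqpos) • τ) *
        ModularForm.discriminant (intGL !![(q : ℤ), 0; 0, 1] (diag_det_pos q hqpos) •
          (intGL (Wmat q M a b) hW • τ))
    rw [H21_Delta_W q M a b hab hqpos, H21_Delta_qW q M a b hab hqpos, map_pow, map_natCast]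
    ring
  apply emb_injective (M * q)
  rw [wq_apply, emb_wqHom, map_mul, map_inv₀, AlgHom.commutes, H21_emb_unitF, map_div₀,
    compMer_holToMer, compMer_holToMer, inv_div, ← holToMer.commutes, ← mul_div_assoc,
    div_eq_div_iff hcΔq0 hΔ0, ← map_mul, ← map_mul, ← map_mul, key]

end Fermat.Agent.BAD.H21

end
end
-- ==== END Fermat.Agent.BAD.H21_UnitW

-- ==== BEGIN Fermat.Agent.BADP.AbsStmts
section

set_option autoImplicit false

noncomputable section

open AlgebraicCurve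

namespace Fermat.Agent.BADP

open Fermat.Agent.RED.H17 Fermat.Agent.RED Fermat.Agent.BAD

section Defs

variable {K F k F₁ F₂ : Type*} [Field K] [Field F] [Algebra K F] [Field k] [Field F₁]
  [Algebra k F₁] [Field F₂] [Algebra k F₂]

/-- **(K0), abstract form of ARITH-0**: every function `u` integral for both valuations has a
`𝓘`-fixed part `u0`, integral for both valuations, with the same two reductions, whose poles lie
in fibres (of both partial reduction maps) which contain a pole of `u`. -/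
def IsK0Lift (S : SSD K F k F₁ F₂) (𝓘 : Set (SemilinearAut K F)) : Prop :=
  ∀ u : F, u ∈ S.c₁.V → u ∈ S.c₂.V →
    ∃ u0 : F, (∀ τ ∈ 𝓘, τ • u0 = u0) ∧ u0 ∈ S.c₁.V ∧ u0 ∈ S.c₂.V ∧
      S.c₁.rd u0 = S.c₁.rd u ∧ S.c₂.rd u0 = S.c₂.rd u ∧
      ∀ P : Place K F, P.ord u0 < 0 →
        ∃ P' : Place K F, S.c₁.r P' = S.c₁.r P ∧ S.c₂.r P' = S.c₂.r P ∧ P'.ord u < 0

end Defs

/-- **RAY-ABS** (wild case).  Hypotheses: the numerical hypotheses of `BAD.Stmt_ABS`; `p` odd,
`char k = p`, `p ≠ 0` in `K`; `𝓘3 ⊆ 𝓘` sets of inertial automorphisms with (K0) for `𝓘`;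
`π, ϖ` constants of the maximal ideal with `rd (π ^ (p - 1) / p) = -1`, `ϖ ^ p / p` a unit;
`σ ∈ 𝓘` with (A2) on the functions fixed by `𝓘3` and (A3) on the constants of the maximal ideal
fixed by `𝓘3`.  Then a Kummer function `f ≡ 1` for `V₁` (`p ∣ div f`) of a class which has a
Kummer function `f' ≡ 1` for `V₂` and which is fixed by `𝓘3` is a constant times a `p`-th power.

Proof (plan §12.3): non-special pair `(A₁, A₂)` (`Stmt_NodalNS`), adapted coordinates
(`Stmt_Coords`), their `𝓘`-fixed parts by (K0) are again adapted coordinates (no zero on the fibres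
of the nodes: `DIn`), `P∞` := the zero of a `𝓘`-fixed coordinate at a good point outside `A₁`;
`H51.stmt_MoveP`, `H51.canon_p`, `H51.canon_fixed` (for `τ ∈ 𝓘3`), then `H28.keyP` with `θ = 1`
and `R` the subfield of the functions fixed by `𝓘3`. -/
def Stmt_RayAbs : Prop :=
  ∀ (K F k F₁ F₂ : Type) [Field K] [Field F] [Algebra K F] [Field k] [Field F₁]
    [Algebra k F₁] [Field F₂] [Algebra k F₂] [IsAlgClosed K] [IsAlgClosed k]
    (S : SSD K F k F₁ F₂), FFHyp K F → FFHyp k F₁ → FFHyp k F₂ →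
    ∀ (g g₁ g₂ : ℕ) (c c₁ c₂ : ℤ), IsGenus K F g c → IsGenus k F₁ g₁ c₁ → IsGenus k F₂ g₂ c₂ →
    g + 1 ≤ g₁ + g₂ + S.nodes.card →
    ∀ (p : ℕ), p.Prime → p ≠ 2 → CharP k p → (p : K) ≠ 0 →
    ∀ (𝓘 𝓘3 : Set (SemilinearAut K F)), (∀ τ ∈ 𝓘, S.IsInertial τ) → 𝓘3 ⊆ 𝓘 → IsK0Lift S 𝓘 →
    ∀ (π ϖ : K), S.IsCM π → π ≠ 0 → S.c₁.rd (algebraMap K F (π ^ (p - 1) / p)) = -1 →
      S.IsCM ϖ → S.IsCU (ϖ ^ p / p) →
    ∀ σ ∈ 𝓘,
      (∀ y : F, (∀ τ ∈ 𝓘3, τ • y = y) → y ∈ S.c₁.V →
        (σ • y - y) / algebraMap K F π ∈ S.c₁.V) →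
      (∀ y : F, (∀ τ ∈ 𝓘3, τ • y = y) → y ∈ S.c₂.V →
        (σ • y - y) / algebraMap K F π ∈ S.c₂.V) →
      (∀ a : K, (∀ τ ∈ 𝓘3, SemilinearAut.baseAut τ a = a) → S.IsCM a →
        algebraMap K F (a / ϖ) ∈ S.c₁.V ∧
        S.c₁.rd (algebraMap K F ((SemilinearAut.baseAut σ a - a) / π)) =
          S.c₁.rd (algebraMap K F (a / ϖ)) ∧
        (S.c₁.rd (algebraMap K F (a / ϖ)) = 0 → algebraMap K F (a / ϖ ^ 2) ∈ S.c₁.V)) →
    ∀ (f : F), f ∈ S.c₁.V → S.c₁.rd f = 1 → (∀ P : Place K F, (p : ℤ) ∣ P.ord f) →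
    ∀ (f' h₀ : F) (a : K), f' ∈ S.c₂.V → S.c₂.rd f' = 1 →
      f = algebraMap K F a * f' * h₀ ^ p →
      (∀ τ ∈ 𝓘3, ∃ (e : K) (T : F), τ • f = algebraMap K F e * f * T ^ p) →
      ∃ (e : K) (h : F), f = algebraMap K F e * h ^ p

/-- **RAY-ABS-TAME**.  The same for a class fixed by the whole of `𝓘`, when every constant `a`
of the maximal ideal fixed by `𝓘` satisfies `a ^ p = p a ε` with `ε` in the maximal ideal
(`a ∈ p O_{K₀}`, `p ≥ 3`).  Proof: as RAY-ABS, with `H28.keyNodal_lin` instead of `H28.keyP`. -/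
def Stmt_RayAbsTame : Prop :=
  ∀ (K F k F₁ F₂ : Type) [Field K] [Field F] [Algebra K F] [Field k] [Field F₁]
    [Algebra k F₁] [Field F₂] [Algebra k F₂] [IsAlgClosed K] [IsAlgClosed k]
    (S : SSD K F k F₁ F₂), FFHyp K F → FFHyp k F₁ → FFHyp k F₂ →
    ∀ (g g₁ g₂ : ℕ) (c c₁ c₂ : ℤ), IsGenus K F g c → IsGenus k F₁ g₁ c₁ → IsGenus k F₂ g₂ c₂ →
    g + 1 ≤ g₁ + g₂ + S.nodes.card →
    ∀ (p : ℕ), p.Prime → p ≠ 2 → CharP k p → (p : K) ≠ 0 →
    ∀ (𝓘 : Set (SemilinearAut K F)), (∀ τ ∈ 𝓘, S.IsInertial τ) → IsK0Lift S 𝓘 →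
      (∀ a : K, (∀ τ ∈ 𝓘, SemilinearAut.baseAut τ a = a) → S.IsCM a →
        ∃ ε : K, S.IsCM ε ∧ a ^ p = p * a * ε) →
    ∀ (f : F), f ∈ S.c₁.V → S.c₁.rd f = 1 → (∀ P : Place K F, (p : ℤ) ∣ P.ord f) →
    ∀ (f' h₀ : F) (a : K), f' ∈ S.c₂.V → S.c₂.rd f' = 1 →
      f = algebraMap K F a * f' * h₀ ^ p →
      (∀ τ ∈ 𝓘, ∃ (e : K) (T : F), τ • f = algebraMap K F e * f * T ^ p) →
      ∃ (e : K) (h : F), f = algebraMap K F e * h ^ p

end Fermat.Agent.BADP

end
end
-- ==== END Fermat.Agent.BADP.AbsStmts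

-- ==== BEGIN Fermat.Agent.BADP.H11_Arith0Res
section

/-!
# S44 BADP, leaf ARITH-0 (helper11), part 1: the residue field of the inertia field

Abstract setting: a field `L`, a finite group `Γ` acting on `L` by field automorphisms, a valuation
subring `O` of `L` stable under `Γ` on whose residue field `Γ` acts trivially ("`Γ` is inertial"),
residue characteristic `p`, and the fixed part of the residue field is perfect.  Then every
residue class of `O` contains a `Γ`-fixed element (`exists_fixed_residue`).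
-/

set_option autoImplicit false

namespace Fermat.Agent.BADP.H11

open Polynomial

section Residue

variable {L : Type*} [Field L] {Γ : Type*} [Group Γ] [Fintype Γ] [MulSemiringAction Γ L]
variable (O : ValuationSubring L)

/-- The residue characteristic. -/
theorem charP_residue_of_mem (p : ℕ) [hp : Fact p.Prime] (hpO : (p : L) ∈ O.nonunits) :
    CharP (IsLocalRing.ResidueField ↥O) p := by
  have h0 : ((p : ℕ) : IsLocalRing.ResidueField ↥O) = 0 := by
    rw [← map_natCast (IsLocalRing.residue ↥O), IsLocalRing.residue_eq_zero_iff,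
      ← ValuationSubring.coe_mem_nonunits_iff]
    have h : (((p : ℕ) : ↥O) : L) = ((p : ℕ) : L) := by push_cast; rfl
    rw [h]
    exact hpO
  have h1 : ringChar (IsLocalRing.ResidueField ↥O) ∣ p := ringChar.dvd h0
  rcases (Nat.dvd_prime hp.out).mp h1 with h | h
  · exact absurd h CharP.ringChar_ne_one
  · have h2 := ringChar.charP (IsLocalRing.ResidueField ↥O)
    rwa [h] at h2

theorem sub_mem_nonunits_iff_residue_eq (a b : ↥O) :
    ((a : L) - (b : L)) ∈ O.nonunits ↔ IsLocalRing.residue ↥O a = IsLocalRing.residue ↥O b := by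
  rw [← sub_eq_zero, ← map_sub, IsLocalRing.residue_eq_zero_iff,
    ← ValuationSubring.coe_mem_nonunits_iff]
  rfl

omit [Fintype Γ] in
/-- Iterated `p`-th roots modulo the maximal ideal, inside the fixed ring. -/
theorem exists_fixed_pow_root (p : ℕ)
    (hperf : ∀ x ∈ O, (∀ γ : Γ, γ • x = x) →
      ∃ y ∈ O, (∀ γ : Γ, γ • y = y) ∧ x - y ^ p ∈ O.nonunits) (s : ℕ) :
    ∀ x ∈ O, (∀ γ : Γ, γ • x = x) →
      ∃ y ∈ O, (∀ γ : Γ, γ • y = y) ∧ x - y ^ (p ^ s) ∈ O.nonunits := by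
  induction s with
  | zero =>
    intro x hx hfix
    refine ⟨x, hx, hfix, ?_⟩
    rw [pow_zero, pow_one, sub_self]
    exact O.mem_nonunits_iff.mpr (by simp)
  | succ s ih =>
    intro x hx hfix
    obtain ⟨y, hy, hyfix, hxy⟩ := hperf x hx hfix
    obtain ⟨z, hz, hzfix, hyz⟩ := ih y hy hyfix
    refine ⟨z, hz, hzfix, ?_⟩
    -- x ≡ y^p, y ≡ z^(p^s)  ⟹  x ≡ z^(p^(s+1))
    have e1 := (sub_mem_nonunits_iff_residue_eq O ⟨x, hx⟩ (⟨y, hy⟩ ^ p)).mp (by simpa using hxy)
    have e2 := (sub_mem_nonunits_iff_residue_eq O ⟨y, hy⟩ (⟨z, hz⟩ ^ (p ^ s))).mp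
      (by simpa using hyz)
    have e3 : IsLocalRing.residue ↥O ⟨x, hx⟩
        = IsLocalRing.residue ↥O ((⟨z, hz⟩ : ↥O) ^ (p ^ (s + 1))) := by
      rw [e1, map_pow, e2, map_pow, map_pow, ← pow_mul, pow_succ]
    have := (sub_mem_nonunits_iff_residue_eq O ⟨x, hx⟩ ((⟨z, hz⟩ : ↥O) ^ (p ^ (s + 1)))).mpr e3
    simpa using this

/-- **The residue field of the inertia field.**  If the finite group `Γ` acts inertially on the
valuation ring `O` (residue characteristic `p`) and the `Γ`-fixed elements of `O` have `p`-th roots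
modulo the maximal ideal, then every residue class of `O` contains a `Γ`-fixed element. -/
theorem exists_fixed_residue (p : ℕ) [hp : Fact p.Prime] (hpO : (p : L) ∈ O.nonunits)
    (hstab : ∀ (γ : Γ) (a : L), a ∈ O → γ • a ∈ O)
    (hinert : ∀ (γ : Γ) (a : L), a ∈ O → γ • a - a ∈ O.nonunits)
    (hperf : ∀ x ∈ O, (∀ γ : Γ, γ • x = x) →
      ∃ y ∈ O, (∀ γ : Γ, γ • y = y) ∧ x - y ^ p ∈ O.nonunits)
    (a : L) (ha : a ∈ O) :
    ∃ β ∈ O, (∀ γ : Γ, γ • β = β) ∧ a - β ∈ O.nonunits := by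
  classical
  have := charP_residue_of_mem O p hpO
  -- the characteristic polynomial, with coefficients in `O`
  let PO : (↥O)[X] := ∏ γ : Γ, (X - C (⟨γ • a, hstab γ a ha⟩ : ↥O))
  have hPO : PO.map O.subtype = MulSemiringAction.charpoly Γ a := by
    rw [MulSemiringAction.charpoly_eq, Polynomial.map_prod]
    refine Finset.prod_congr rfl fun γ _ => ?_
    rw [Polynomial.map_sub, map_X, map_C]
    rfl
  have hcoef_fix : ∀ (i : ℕ) (γ : Γ),
      γ • ((PO.coeff i : ↥O) : L) = ((PO.coeff i : ↥O) : L) := by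
    intro i γ
    have h1 : ((PO.coeff i : ↥O) : L) = (MulSemiringAction.charpoly Γ a).coeff i := by
      rw [← hPO, coeff_map]
      rfl
    rw [h1]
    exact MulSemiringAction.smul_coeff_charpoly a i γ
  -- its reduction
  have hred : PO.map (IsLocalRing.residue ↥O)
      = (X - C (IsLocalRing.residue ↥O ⟨a, ha⟩)) ^ Fintype.card Γ := by
    rw [Polynomial.map_prod]
    have h1 : ∀ γ ∈ (Finset.univ : Finset Γ),
        Polynomial.map (IsLocalRing.residue ↥O) (X - C (⟨γ • a, hstab γ a ha⟩ : ↥O))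
          = X - C (IsLocalRing.residue ↥O ⟨a, ha⟩) := by
      intro γ _
      rw [Polynomial.map_sub, map_X, map_C]
      congr 2
      exact (sub_mem_nonunits_iff_residue_eq O _ _).mp (hinert γ a ha)
    rw [Finset.prod_congr rfl h1, Finset.prod_const, Finset.card_univ]
  obtain ⟨s, n', hn', hcard⟩ :=
    Nat.exists_eq_pow_mul_and_not_dvd (Fintype.card_ne_zero (α := Γ)) p hp.out.ne_one
  have hn'0 : n' ≠ 0 := by
    rintro rfl
    exact hn' (dvd_zero p)
  set b := (IsLocalRing.residue ↥O ⟨a, ha⟩) ^ (p ^ s) with hb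
  have hpow : (X - C (IsLocalRing.residue ↥O ⟨a, ha⟩)) ^ Fintype.card Γ
      = expand (IsLocalRing.ResidueField ↥O) (p ^ s) ((X - C b) ^ n') := by
    rw [hcard, pow_mul, sub_pow_char_pow, map_pow, map_sub, expand_X, expand_C, hb, map_pow]
  have hcoeff : (PO.map (IsLocalRing.residue ↥O)).coeff ((n' - 1) * p ^ s) = -b * n' := by
    have h0 : (X - C b : (IsLocalRing.ResidueField ↥O)[X]) = X + C (-b) := by
      rw [map_neg, sub_eq_add_neg]
    rw [hred, hpow, coeff_expand_mul (pow_pos hp.out.pos s), h0, coeff_X_add_C_pow]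
    have h1 : n' - (n' - 1) = 1 := by omega
    have h2 : n'.choose (n' - 1) = n' := by
      obtain ⟨m, rfl⟩ := Nat.exists_eq_succ_of_ne_zero hn'0
      simp
    rw [h1, h2, pow_one]
  rw [coeff_map] at hcoeff
  set c : ↥O := PO.coeff ((n' - 1) * p ^ s) with hc
  -- `n'` is a unit of `O`
  have hn'res : ((n' : ℕ) : IsLocalRing.ResidueField ↥O) ≠ 0 := by
    rw [Ne, CharP.cast_eq_zero_iff (IsLocalRing.ResidueField ↥O) p]
    exact hn'
  have hn'unit : IsUnit ((n' : ℕ) : ↥O) := by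
    rw [← IsLocalRing.residue_ne_zero_iff_isUnit, map_natCast]
    exact hn'res
  obtain ⟨u, hu⟩ := hn'unit
  -- the fixed element `x = - c / n'` with residue `b`
  set x : ↥O := -c * ((u⁻¹ : (↥O)ˣ) : ↥O) with hx
  have hxres : IsLocalRing.residue ↥O x = b := by
    have h1 : IsLocalRing.residue ↥O ((u⁻¹ : (↥O)ˣ) : ↥O) * ((n' : ℕ) : _) = 1 := by
      rw [← map_natCast (IsLocalRing.residue ↥O), ← hu, ← map_mul, Units.inv_mul, map_one]
    rw [hx, map_mul, map_neg, hcoeff]
    calc - (-b * (n' : IsLocalRing.ResidueField ↥O)) * IsLocalRing.residue ↥O ((u⁻¹ : (↥O)ˣ) : ↥O)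
        = b * (IsLocalRing.residue ↥O ((u⁻¹ : (↥O)ˣ) : ↥O) * ((n' : ℕ) : _)) := by ring
      _ = b := by rw [h1, mul_one]
  have hucoe : (((u⁻¹ : (↥O)ˣ) : ↥O) : L) = ((n' : ℕ) : L)⁻¹ := by
    have h1 : (((u⁻¹ : (↥O)ˣ) : ↥O) : L) * ((n' : ℕ) : L) = 1 := by
      have h2 : ((((u⁻¹ : (↥O)ˣ) : ↥O) * (u : ↥O) : ↥O) : L) = 1 := by
        rw [Units.inv_mul]; rfl
      rw [hu] at h2
      simpa using h2
    exact eq_inv_of_mul_eq_one_left h1
  have hxfix : ∀ γ : Γ, γ • (x : L) = (x : L) := by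
    intro γ
    have h1 : (x : L) = -(c : L) * ((n' : ℕ) : L)⁻¹ := by
      rw [hx]
      push_cast
      rw [hucoe]
    have h2 : γ • ((n' : ℕ) : L) = ((n' : ℕ) : L) :=
      map_natCast (MulSemiringAction.toRingHom Γ L γ) n'
    rw [h1, smul_mul', smul_neg, hcoef_fix, smul_inv'', h2]
  obtain ⟨y, hy, hyfix, hxy⟩ := exists_fixed_pow_root O p hperf s (x : L) x.2 hxfix
  refine ⟨y, hy, hyfix, ?_⟩
  have e1 := (sub_mem_nonunits_iff_residue_eq O x (⟨y, hy⟩ ^ (p ^ s))).mp (by simpa using hxy)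
  rw [hxres, map_pow, hb] at e1
  have e2 : (IsLocalRing.residue ↥O ⟨a, ha⟩ - IsLocalRing.residue ↥O ⟨y, hy⟩) ^ (p ^ s) = 0 := by
    rw [sub_pow_char_pow, e1, sub_self]
  have e3 := sub_eq_zero.mp (pow_eq_zero_iff (pow_ne_zero s hp.out.ne_zero) |>.mp e2)
  exact (sub_mem_nonunits_iff_residue_eq O ⟨a, ha⟩ ⟨y, hy⟩).mpr e3

end Residue

end Fermat.Agent.BADP.H11

end
-- ==== END Fermat.Agent.BADP.H11_Arith0Res

-- ==== BEGIN Fermat.Agent.BADP.H15_Span
section

/-!
# S44 BADP, leaf ARITH (function level), part 1 (helper15): **SPAN**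

`L` an algebraic extension of `ℚ`, `F₀ ⊆ ℚ((q))` a subfield, `F_L = laurentBaseChange L F₀`.

* `inv_mem_span_genSet`: the `L`-span of the series with rational coefficients of `F₀` is closed
  under inverses (it is a domain, integral over the field `F₀`);
* `mem_span_of_mem_laurentBaseChange` **(SPAN)**: `F_L` *is* this span;
* `exists_repr_li`: every element of `F_L` is `∑ a i • coeffEmb (y i)` with `y i ∈ F₀` linearly
  independent over `ℚ`.
-/

set_option autoImplicit false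
set_option linter.style.haveILetI false
set_option linter.unusedSectionVars false
set_option synthInstance.maxHeartbeats 400000
set_option maxHeartbeats 1000000

open ModularCurve

noncomputable section

namespace Fermat.Agent.BADP.H15

open Fermat.Agent.GTor.H56

section Span

variable {L : Type} [Field L] [Algebra ℚ L]
variable (F₀ : IntermediateField ℚ (LaurentSeries ℚ))

/-- The `L`-span of the rational functions is closed under inverses, if `L` is algebraic over
`ℚ`. -/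
theorem inv_mem_span_genSet [Algebra.IsAlgebraic ℚ L] {Q : LaurentSeries L}
    (hQ : Q ∈ Submodule.span L (genSet F₀ L)) : Q⁻¹ ∈ Submodule.span L (genSet F₀ L) := by
  letI alg : Algebra ↥F₀ (LaurentSeries L) :=
    ((coeffEmb L).comp (algebraMap ↥F₀ (LaurentSeries ℚ))).toAlgebra
  have halg : ∀ z : ↥F₀, algebraMap ↥F₀ (LaurentSeries L) z
      = coeffEmb L (z : LaurentSeries ℚ) := fun z => rfl
  set T : Subalgebra ↥F₀ (LaurentSeries L) :=
    Algebra.adjoin ↥F₀ (Set.range (algebraMap L (LaurentSeries L))) with hT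
  -- the constants are integral over `F₀`
  have hgen : ∀ c : L, IsIntegral ↥F₀ (algebraMap L (LaurentSeries L) c) := by
    intro c
    obtain ⟨P, hP, hPc⟩ := (Algebra.IsAlgebraic.isIntegral (K := ℚ) (A := L)).isIntegral c
    refine ⟨P.map (algebraMap ℚ ↥F₀), hP.map _, ?_⟩
    rw [Polynomial.eval₂_map]
    have e : (algebraMap ↥F₀ (LaurentSeries L)).comp (algebraMap ℚ ↥F₀)
        = (algebraMap L (LaurentSeries L)).comp (algebraMap ℚ L) := RingHom.ext_rat _ _
    rw [e, ← Polynomial.hom_eval₂, hPc, map_zero]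
  have hT_int : ∀ x ∈ T, IsIntegral ↥F₀ x := by
    intro x hx
    have h1 : T ≤ integralClosure ↥F₀ (LaurentSeries L) := by
      apply Algebra.adjoin_le
      rintro _ ⟨c, rfl⟩
      exact hgen c
    exact h1 hx
  have hQT : ∀ x ∈ Submodule.span L (genSet F₀ L), x ∈ T := by
    intro x hx
    induction hx using Submodule.span_induction with
    | mem y hy =>
      obtain ⟨z, hz, rfl⟩ := hy
      exact T.algebraMap_mem ⟨z, hz⟩
    | zero => exact zero_mem _
    | add x y _ _ hx hy => exact add_mem hx hy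
    | smul c x _ hx =>
      rw [smul_eq_algebraMap_mul]
      exact mul_mem (Algebra.subset_adjoin ⟨c, rfl⟩) hx
  have hTQ : ∀ x ∈ T, x ∈ Submodule.span L (genSet F₀ L) := by
    intro x hx
    induction hx using Algebra.adjoin_induction with
    | mem y hy =>
      obtain ⟨c, rfl⟩ := hy
      have : algebraMap L (LaurentSeries L) c = c • (1 : LaurentSeries L) := by
        rw [smul_eq_algebraMap_mul, mul_one]
      rw [this]
      exact Submodule.smul_mem _ c (Submodule.subset_span (one_mem_genSet F₀ L))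
    | algebraMap z =>
      rw [halg]
      exact Submodule.subset_span ⟨_, z.2, rfl⟩
    | add x y _ _ hx hy => exact add_mem hx hy
    | mul x y _ _ hx hy => exact mul_mem_span_genSet F₀ L hx hy
  have hinv : Q⁻¹ ∈ T :=
    Subalgebra.inv_mem_of_algebraic T (x := ⟨Q, hQT Q hQ⟩) (hT_int Q (hQT Q hQ)).isAlgebraic
  exact hTQ _ hinv

/-- **(SPAN)**: if `L` is algebraic over `ℚ`, then `F₀ · L` is the `L`-span of (the extensions
of coefficients of) the elements of `F₀`. -/
theorem mem_span_of_mem_laurentBaseChange [Algebra.IsAlgebraic ℚ L] {x : LaurentSeries L}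
    (hx : x ∈ laurentBaseChange L F₀) : x ∈ Submodule.span L (genSet F₀ L) := by
  obtain ⟨P, hP, Q, hQ, rfl⟩ := exists_div_of_mem F₀ L hx
  rw [div_eq_mul_inv]
  exact mul_mem_span_genSet F₀ L hP (inv_mem_span_genSet F₀ hQ)

theorem mem_laurentBaseChange_iff_span [Algebra.IsAlgebraic ℚ L] {x : LaurentSeries L} :
    x ∈ laurentBaseChange L F₀ ↔ x ∈ Submodule.span L (genSet F₀ L) :=
  ⟨mem_span_of_mem_laurentBaseChange F₀, span_genSet_le F₀ L⟩

end Span

end Fermat.Agent.BADP.H15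

end
end
-- ==== END Fermat.Agent.BADP.H15_Span

-- ==== BEGIN Fermat.Agent.BADP.H28_KeyPFirst
section

/-!
# Row 38 (S44, BADP), helper28: RAY-K3 abstract core ("Key-p"), part 4: first order formulas

One-valuation formulas for the exponent `p = char k` (odd), `h_i = (s_i - a_i) / s_i`,
`a_i ^ p = p e_i` with `e_i` integral:

* `PRed.congM_pow_depth` : `h_i ^ p ≡ 1 - p e_i / s_i ^ p` modulo `p m`;
* `PRed.depth_formula` : if `c p ∈ m` then `rd (c (f - 1)) = rd (c (f₂ - 1))`, `f₂ = f / ∏ h_i ^ p`;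
* `PRed.first_formula` : `rd ((f - 1) / p) = rd ((f₂ - 1) / p) - ∑ rd e_i / rd s_i ^ p`;
* `PRed.congM_pow_sigma`, `PRed.sigma_formula` : the same for the quotients
  `(s_i - a'_i) / (s_i - a_i)`, `a'_i - a_i = π θ ω_i`, `π ^ (p - 1) = p ν₀`, modulo `p π θ m`.
-/

set_option autoImplicit false
set_option linter.style.haveILetI false
set_option maxHeartbeats 1000000

noncomputable section

open AlgebraicCurve

attribute [local instance] Classical.propDecidable

namespace Fermat.Agent.BAD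

open Fermat.Agent.RED.H17 Fermat.Agent.RED

namespace PRed

variable {K F k F' : Type*} [Field K] [Field F] [Algebra K F] [Field k] [Field F']
  [Algebra k F'] (S : PRed K F k F')

/-- The factor `((s - a) / s) ^ p` to first order in `p`. -/
theorem congM_pow_depth {p : ℕ} (hp : p.Prime) (hp2 : p ≠ 2) {s : F} (hs : S.IsGU s) {a e : K}
    (ha : S.InM (algebraMap K F a)) (hpow : a ^ p = p * e) :
    S.CongM (p : F) (-(algebraMap K F e / s ^ p)) (((s - algebraMap K F a) / s) ^ p) := by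
  have hsne : s ≠ 0 := hs.ne_zero
  have hx : S.InM (-algebraMap K F a / s) := S.inM_neg_div hs ha
  obtain ⟨r, hr, hexp⟩ := S.one_add_pow_prime_mem hp hx.1
  have h1 : (s - algebraMap K F a) / s = 1 + -algebraMap K F a / s := by
    field_simp
    ring
  have hpowF : algebraMap K F a ^ p = (p : F) * algebraMap K F e := by
    rw [← map_pow, hpow, map_mul, map_natCast]
  have hodd : Odd p := hp.odd_of_ne_two hp2
  have hxp : (-algebraMap K F a / s) ^ p = -((p : F) * algebraMap K F e) / s ^ p := by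
    rw [div_pow, hodd.neg_pow, hpowF]
  refine ⟨-algebraMap K F a / s + (-algebraMap K F a / s) ^ 2 * r,
    hx.add ((hx.pow two_ne_zero).mul_right hr), ?_⟩
  rw [h1, hexp, hxp]
  field_simp
  ring

section Depth

variable {ι : Type*} (A : Finset ι) (s : ι → F) (a e : ι → K)
  (hs : ∀ i ∈ A, S.IsGU (s i)) (ha : ∀ i ∈ A, S.InM (algebraMap K F (a i)))
  (he : ∀ i ∈ A, algebraMap K F (e i) ∈ S.V)
  {p : ℕ} (hp : p.Prime) (hp2 : p ≠ 2) (hpM : S.InM (p : F))
  (hpow : ∀ i ∈ A, a i ^ p = p * e i)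

include hs ha he hp hp2 hpM hpow

/-- `(∏ h_i) ^ p = 1 + p η` with `η` integral of reduction `- ∑ rd e_i / rd s_i ^ p`. -/
theorem prod_pow_depth :
    ∃ η : F, η ∈ S.V ∧ (∏ i ∈ A, (s i - algebraMap K F (a i)) / s i) ^ p = 1 + p * η ∧
      S.rd η = -∑ i ∈ A, S.rd (algebraMap K F (e i)) / S.rd (s i) ^ p := by
  have hαmem : ∀ i ∈ A, -(algebraMap K F (e i) / s i ^ p) ∈ S.V := fun i hi => by
    rw [div_eq_mul_inv]
    exact S.V.neg_mem _ (S.V.mul_mem _ _ (he i hi) ((hs i hi).pow p).inv_mem)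
  obtain ⟨μ, hμ, hprod⟩ := CongM.prod hpM A (fun i => -(algebraMap K F (e i) / s i ^ p))
    (fun i => ((s i - algebraMap K F (a i)) / s i) ^ p) hαmem
    (fun i hi => S.congM_pow_depth hp hp2 (hs i hi) (ha i hi) (hpow i hi))
  have hsumV : ∑ i ∈ A, -(algebraMap K F (e i) / s i ^ p) ∈ S.V :=
    Subring.sum_mem S.V.toSubring hαmem
  refine ⟨∑ i ∈ A, -(algebraMap K F (e i) / s i ^ p) + μ, S.V.add_mem _ _ hsumV hμ.1, ?_, ?_⟩
  · rw [← Finset.prod_pow]
    exact hprod
  · rw [S.rd_add hsumV hμ.1, hμ.2, add_zero, (S.rd_sum A _ hαmem).2,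
      ← Finset.sum_neg_distrib]
    apply Finset.sum_congr rfl
    intro i hi
    have hm : algebraMap K F (e i) / s i ^ p ∈ S.V := by
      rw [div_eq_mul_inv]
      exact S.V.mul_mem _ _ (he i hi) ((hs i hi).pow p).inv_mem
    rw [S.rd_neg hm, div_eq_mul_inv, S.rd_mul (he i hi) ((hs i hi).pow p).inv_mem,
      ((hs i hi).pow p).rd_inv, S.rd_pow (hs i hi).1, div_eq_mul_inv]

/-- **Depth.**  If `c p` lies in the maximal ideal and `c (f₂ - 1)` is integral, then
`c (f - 1)` is integral with the same reduction. -/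
theorem depth_formula (f : F) (c : K) (hcp : S.InM (algebraMap K F (c * p)))
    (hαV : algebraMap K F c *
      (f / (∏ i ∈ A, (s i - algebraMap K F (a i)) / s i) ^ p - 1) ∈ S.V) :
    algebraMap K F c * (f - 1) ∈ S.V ∧
      S.rd (algebraMap K F c * (f - 1)) =
        S.rd (algebraMap K F c *
          (f / (∏ i ∈ A, (s i - algebraMap K F (a i)) / s i) ^ p - 1)) := by
  obtain ⟨η, hη, hHη, -⟩ := S.prod_pow_depth A s a e hs ha he hp hp2 hpM hpow
  obtain ⟨hHGU, hHrd⟩ := S.isGU_prod_h A s a hs ha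
  set Hp : F := ∏ i ∈ A, (s i - algebraMap K F (a i)) / s i with hHp
  have hHne : Hp ^ p ≠ 0 := pow_ne_zero _ hHGU.ne_zero
  have hHpV : Hp ^ p ∈ S.V := (hHGU.pow p).1
  have hHprd : S.rd (Hp ^ p) = 1 := by rw [S.rd_pow hHGU.1, hHrd, one_pow]
  have e1 : algebraMap K F c * (f - 1) =
      algebraMap K F c * (f / Hp ^ p - 1) * Hp ^ p + algebraMap K F (c * p) * η := by
    have h2 : f = f / Hp ^ p * Hp ^ p := by rw [div_mul_cancel₀ _ hHne]
    rw [map_mul, map_natCast]
    have h3 : Hp ^ p - 1 = p * η := by rw [hHη]; ring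
    calc algebraMap K F c * (f - 1)
        = algebraMap K F c * (f / Hp ^ p * Hp ^ p - 1) := by rw [← h2]
      _ = algebraMap K F c * (f / Hp ^ p - 1) * Hp ^ p + algebraMap K F c * (Hp ^ p - 1) := by
          ring
      _ = _ := by rw [h3]; ring
  have hm1 : algebraMap K F c * (f / Hp ^ p - 1) * Hp ^ p ∈ S.V := S.V.mul_mem _ _ hαV hHpV
  have hm2 : S.InM (algebraMap K F (c * p) * η) := hcp.mul_right hη
  rw [e1]
  refine ⟨S.V.add_mem _ _ hm1 hm2.1, ?_⟩
  rw [S.rd_add hm1 hm2.1, hm2.2, add_zero, S.rd_mul hαV hHpV, hHprd, mul_one]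

/-- **First order.**  If `(f₂ - 1) / p` is integral, then `(f - 1) / p` is integral, with
reduction `rd ((f₂ - 1) / p) - ∑ rd e_i / rd s_i ^ p`. -/
theorem first_formula (hpF : (p : F) ≠ 0) (f : F)
    (hZ : (f / (∏ i ∈ A, (s i - algebraMap K F (a i)) / s i) ^ p - 1) / p ∈ S.V) :
    (f - 1) / p ∈ S.V ∧
      S.rd ((f - 1) / p) =
        S.rd ((f / (∏ i ∈ A, (s i - algebraMap K F (a i)) / s i) ^ p - 1) / p) -
          ∑ i ∈ A, S.rd (algebraMap K F (e i)) / S.rd (s i) ^ p := by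
  obtain ⟨η, hη, hHη, hηrd⟩ := S.prod_pow_depth A s a e hs ha he hp hp2 hpM hpow
  obtain ⟨hHGU, hHrd⟩ := S.isGU_prod_h A s a hs ha
  set Hp : F := ∏ i ∈ A, (s i - algebraMap K F (a i)) / s i with hHp
  have hHne : Hp ^ p ≠ 0 := pow_ne_zero _ hHGU.ne_zero
  have hHpV : Hp ^ p ∈ S.V := (hHGU.pow p).1
  have hHprd : S.rd (Hp ^ p) = 1 := by rw [S.rd_pow hHGU.1, hHrd, one_pow]
  have e1 : (f - 1) / p = (f / Hp ^ p - 1) / p * Hp ^ p + η := by
    have h2 : f = f / Hp ^ p * Hp ^ p := by rw [div_mul_cancel₀ _ hHne]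
    have h3 : η = (Hp ^ p - 1) / p := by
      rw [hHη]
      field_simp
      ring
    rw [h3]
    field_simp
    ring
  have hm1 : (f / Hp ^ p - 1) / p * Hp ^ p ∈ S.V := S.V.mul_mem _ _ hZ hHpV
  rw [e1]
  refine ⟨S.V.add_mem _ _ hm1 hη, ?_⟩
  rw [S.rd_add hm1 hη, S.rd_mul hZ hHpV, hHprd, mul_one, hηrd]
  ring

end Depth

/-- The factor `((s - a') / (s - a)) ^ p`, `a' - a = π θ ω`, to first order in `p π θ`. -/
theorem congM_pow_sigma {p : ℕ} (hp : p.Prime) (hp2 : p ≠ 2) {s : F} (hs : S.IsGU s)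
    {a a' ω π θ ν₀ : K} (ha : S.InM (algebraMap K F a)) (hω : algebraMap K F ω ∈ S.V)
    (hπ : S.InM (algebraMap K F π)) (hθ : algebraMap K F θ ∈ S.V)
    (hdiff : a' - a = π * θ * ω) (hπp : π ^ (p - 1) = p * ν₀) :
    S.CongM ((p : F) * algebraMap K F (π * θ))
      (-(algebraMap K F ω / (s - algebraMap K F a)) -
        algebraMap K F ν₀ * algebraMap K F θ ^ (p - 1) *
          (algebraMap K F ω ^ p / (s - algebraMap K F a) ^ p))
      (((s - algebraMap K F a') / (s - algebraMap K F a)) ^ p) := by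
  obtain ⟨hsa, -⟩ := hs.sub_const ha.1 ha.2
  have hsane : s - algebraMap K F a ≠ 0 := hsa.ne_zero
  have hq : algebraMap K F ω / (s - algebraMap K F a) ∈ S.V := by
    rw [div_eq_mul_inv]
    exact S.V.mul_mem _ _ hω hsa.inv_mem
  set Y : F := algebraMap K F (π * θ) * (algebraMap K F ω / (s - algebraMap K F a)) with hY
  have hπθ : S.InM (algebraMap K F (π * θ)) := by
    rw [map_mul]
    exact hπ.mul_right hθ
  have hYM : S.InM Y := hπθ.mul_right hq
  obtain ⟨r, hr, hexp⟩ := S.one_add_pow_prime_mem hp hYM.neg.1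
  have h1 : (s - algebraMap K F a') / (s - algebraMap K F a) = 1 + -Y := by
    have : algebraMap K F a' = algebraMap K F a + algebraMap K F (π * θ) * algebraMap K F ω := by
      rw [← map_mul, ← map_add, ← hdiff]
      congr 1
      ring
    rw [hY, this]
    field_simp
    ring
  have hodd : Odd p := hp.odd_of_ne_two hp2
  have hp1 : p = (p - 1) + 1 := by
    have := hp.pos
    omega
  have hπpF : algebraMap K F π ^ (p - 1) = (p : F) * algebraMap K F ν₀ := by
    rw [← map_pow, hπp, map_mul, map_natCast]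
  have hYp : (-Y) ^ p = -((p : F) * algebraMap K F (π * θ) *
      (algebraMap K F ν₀ * algebraMap K F θ ^ (p - 1) *
        (algebraMap K F ω ^ p / (s - algebraMap K F a) ^ p))) := by
    rw [hodd.neg_pow, hY, mul_pow, div_pow, map_mul, mul_pow]
    have e1 : algebraMap K F π ^ p = (p : F) * algebraMap K F ν₀ * algebraMap K F π := by
      conv_lhs => rw [hp1, pow_succ, hπpF]
    have e2 : algebraMap K F θ ^ p = algebraMap K F θ ^ (p - 1) * algebraMap K F θ := by
      conv_lhs => rw [hp1, pow_succ]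
    rw [e1, e2]
    ring
  refine ⟨Y * (algebraMap K F ω / (s - algebraMap K F a)) * r,
    (hYM.mul_right hq).mul_right hr, ?_⟩
  rw [h1, hexp, hYp]
  have e3 : (-Y) ^ 2 = algebraMap K F (π * θ) *
      (Y * (algebraMap K F ω / (s - algebraMap K F a))) := by
    rw [hY]; ring
  rw [e3]
  have e4 : (p : F) * -Y = (p : F) * algebraMap K F (π * θ) *
      (-(algebraMap K F ω / (s - algebraMap K F a))) := by
    rw [hY]; ring
  rw [e4]
  ring

/-- **First order, Galois version.** -/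
theorem sigma_formula {ι : Type*} (A : Finset ι) (s : ι → F) (a a' ω : ι → K)
    (hs : ∀ i ∈ A, S.IsGU (s i)) (ha : ∀ i ∈ A, S.InM (algebraMap K F (a i)))
    (hω : ∀ i ∈ A, algebraMap K F (ω i) ∈ S.V)
    {p : ℕ} (hp : p.Prime) (hp2 : p ≠ 2) (hpM : S.InM (p : F)) (hpF : (p : F) ≠ 0)
    {π θ ν₀ : K} (hπ : S.InM (algebraMap K F π)) (hθ : algebraMap K F θ ∈ S.V)
    (hπne : π ≠ 0) (hθne : θ ≠ 0)
    (hν : algebraMap K F ν₀ ∈ S.V) (hπp : π ^ (p - 1) = p * ν₀)
    (hdiff : ∀ i ∈ A, a' i - a i = π * θ * ω i)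
    {y₀ Λ : F} (hΛ : Λ ∈ S.V) (hy₀ : y₀ = 1 + (p : F) * algebraMap K F (π * θ) * Λ) :
    (y₀ * ∏ i ∈ A, ((s i - algebraMap K F (a' i)) / (s i - algebraMap K F (a i))) ^ p - 1) /
        ((p : F) * algebraMap K F (π * θ)) ∈ S.V ∧
      S.rd ((y₀ * ∏ i ∈ A,
          ((s i - algebraMap K F (a' i)) / (s i - algebraMap K F (a i))) ^ p - 1) /
        ((p : F) * algebraMap K F (π * θ))) =
        S.rd Λ + ∑ i ∈ A, (-(S.rd (algebraMap K F (ω i)) / S.rd (s i)) -
          S.rd (algebraMap K F ν₀) * S.rd (algebraMap K F θ) ^ (p - 1) *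
            (S.rd (algebraMap K F (ω i)) ^ p / S.rd (s i) ^ p)) := by
  have hπθ : S.InM (algebraMap K F (π * θ)) := by
    rw [map_mul]
    exact hπ.mul_right hθ
  have hd : S.InM ((p : F) * algebraMap K F (π * θ)) := hpM.mul_right hπθ.1
  have hd0 : (p : F) * algebraMap K F (π * θ) ≠ 0 :=
    mul_ne_zero hpF ((map_ne_zero_iff _ (algebraMap K F).injective).mpr
      (mul_ne_zero hπne hθne))
  have hsa : ∀ i ∈ A, S.IsGU (s i - algebraMap K F (a i)) ∧
      S.rd (s i - algebraMap K F (a i)) = S.rd (s i) := fun i hi =>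
    (hs i hi).sub_const (ha i hi).1 (ha i hi).2
  have hq : ∀ i ∈ A, algebraMap K F (ω i) / (s i - algebraMap K F (a i)) ∈ S.V := fun i hi => by
    rw [div_eq_mul_inv]
    exact S.V.mul_mem _ _ (hω i hi) (hsa i hi).1.inv_mem
  have hq2 : ∀ i ∈ A, algebraMap K F (ω i) ^ p / (s i - algebraMap K F (a i)) ^ p ∈ S.V :=
    fun i hi => by
      rw [← div_pow]
      exact S.V.pow_mem (hq i hi) p
  have hc2 : algebraMap K F ν₀ * algebraMap K F θ ^ (p - 1) ∈ S.V :=
    S.V.mul_mem _ _ hν (S.V.pow_mem hθ _)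
  have hαmem : ∀ i ∈ A, -(algebraMap K F (ω i) / (s i - algebraMap K F (a i))) -
      algebraMap K F ν₀ * algebraMap K F θ ^ (p - 1) *
        (algebraMap K F (ω i) ^ p / (s i - algebraMap K F (a i)) ^ p) ∈ S.V := fun i hi =>
    S.V.sub_mem (S.V.neg_mem _ (hq i hi)) (S.V.mul_mem _ _ hc2 (hq2 i hi))
  have h₀ : S.CongM ((p : F) * algebraMap K F (π * θ)) Λ y₀ := by
    rw [hy₀]
    exact congM_self _ _
  obtain ⟨h1, h2⟩ := congM_formula hd hd0 A _
    (fun i => ((s i - algebraMap K F (a' i)) / (s i - algebraMap K F (a i))) ^ p) hαmem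
    (fun i hi => S.congM_pow_sigma hp hp2 (hs i hi) (ha i hi) (hω i hi) hπ hθ
      (hdiff i hi) hπp) hΛ h₀
  refine ⟨h1, ?_⟩
  rw [h2]
  congr 1
  apply Finset.sum_congr rfl
  intro i hi
  rw [S.rd_sub (S.V.neg_mem _ (hq i hi)) (S.V.mul_mem _ _ hc2 (hq2 i hi)),
    S.rd_neg (hq i hi), S.rd_mul hc2 (hq2 i hi), S.rd_mul hν (S.V.pow_mem hθ _),
    S.rd_pow hθ]
  have e1 : S.rd (algebraMap K F (ω i) / (s i - algebraMap K F (a i))) =
      S.rd (algebraMap K F (ω i)) / S.rd (s i) := by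
    rw [div_eq_mul_inv, S.rd_mul (hω i hi) (hsa i hi).1.inv_mem, (hsa i hi).1.rd_inv,
      (hsa i hi).2, div_eq_mul_inv]
  have e2 : S.rd (algebraMap K F (ω i) ^ p / (s i - algebraMap K F (a i)) ^ p) =
      S.rd (algebraMap K F (ω i)) ^ p / S.rd (s i) ^ p := by
    rw [← div_pow, S.rd_pow (hq i hi), e1, div_pow]
  rw [e1, e2]

end PRed

end Fermat.Agent.BAD

end
end
-- ==== END Fermat.Agent.BADP.H28_KeyPFirst

-- ==== BEGIN Fermat.Agent.BADP.H57_KumAbs
section

/-!
# S44, package BAD_p, leaf KUM, abstract part (helper57)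

`F / K` a function field of one variable over an algebraically closed field.

* `kum_cmp_abs` : two Kummer pairs `(D, f)`, `(D', f')` (`n D = div f`, `n D' = div f'`) of the
  same class differ by a constant times an `n`-th power: `f = e f' T ^ n`.
* `kum_smul_abs` : the transport of a Kummer pair by a semilinear automorphism.
* `kum_fix_abs` : a Kummer function of a class fixed by a semilinear automorphism `g` satisfies
  `g f = e f T ^ n`.
-/

set_option autoImplicit false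
set_option linter.style.haveILetI false
set_option linter.unusedSectionVars false

noncomputable section

open AlgebraicCurve

namespace Fermat.Agent.BADP.H57

open Fermat.Agent.RED Fermat.Agent.NEB.H29

variable {K F : Type} [Field K] [Field F] [Algebra K F]

/-- Equal classes differ by a principal divisor. -/
theorem exists_fn_of_mk_eq (D D' : Divisor.degZero (K := K) (F := F))
    (h : Pic0.mk D = Pic0.mk D') :
    ∃ T : F, T ≠ 0 ∧ ∀ P : Place K F,
      (D : Divisor K F) P - (D' : Divisor K F) P = P.ord T := by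
  have h1 : -D + D' ∈ (Divisor.principal (K := K) (F := F)).addSubgroupOf
      (Divisor.degZero (K := K) (F := F)) := QuotientAddGroup.eq.mp h
  rw [AddSubgroup.mem_addSubgroupOf, Divisor.mem_principal] at h1
  obtain ⟨T₀, hT₀, hT⟩ := h1
  refine ⟨T₀⁻¹, inv_ne_zero hT₀, fun P => ?_⟩
  have h2 := hT P
  have h3 : ((-D + D' : Divisor.degZero (K := K) (F := F)) : Divisor K F) P
      = -(D : Divisor K F) P + (D' : Divisor K F) P := by
    show (-(D : Divisor K F) + (D' : Divisor K F)) P = _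
    rw [Finsupp.add_apply, Finsupp.neg_apply]
  rw [h3] at h2
  rw [Place.ord_inv, ← h2]
  ring

/-- **KUM-CMP, abstract form.** -/
theorem kum_cmp_abs [IsAlgClosed K] (hF : IsFF K F) (n : ℕ)
    (D D' : Divisor.degZero (K := K) (F := F)) (f f' : F) (hf : f ≠ 0) (hf' : f' ≠ 0)
    (hD : ∀ P : Place K F, (n : ℤ) * (D : Divisor K F) P = P.ord f)
    (hD' : ∀ P : Place K F, (n : ℤ) * (D' : Divisor K F) P = P.ord f')
    (h : Pic0.mk D = Pic0.mk D') :
    ∃ (e : K) (T : F), f = algebraMap K F e * f' * T ^ n := by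
  obtain ⟨T, hT0, hT⟩ := exists_fn_of_mk_eq D D' h
  have hTn : T ^ n ≠ 0 := pow_ne_zero n hT0
  have hden : f' * T ^ n ≠ 0 := mul_ne_zero hf' hTn
  have hu0 : f / (f' * T ^ n) ≠ 0 := div_ne_zero hf hden
  have hord : ∀ P : Place K F, P.ord (f / (f' * T ^ n)) = 0 := by
    intro P
    rw [div_eq_mul_inv, Place.ord_mul _ hf (inv_ne_zero hden), Place.ord_inv,
      Place.ord_mul _ hf' hTn, ← zpow_natCast, Place.ord_zpow, ← hD P, ← hD' P, ← hT P]
    ring
  obtain ⟨e, he⟩ := constHyp_of_isFF hF _ hu0 hord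
  refine ⟨e, T, ?_⟩
  rw [he, mul_assoc, div_mul_cancel₀ _ hden]

/-- The transport of a Kummer pair by a semilinear automorphism. -/
theorem kum_smul_abs (n : ℕ) (g : SemilinearAut K F)
    (D : Divisor.degZero (K := K) (F := F)) (f : F)
    (hD : ∀ P : Place K F, (n : ℤ) * (D : Divisor K F) P = P.ord f) (P : Place K F) :
    (n : ℤ) * ((SemilinearAut.degZeroSMulHom g D : Divisor.degZero (K := K) (F := F)) :
      Divisor K F) P = P.ord (g • f) := by
  rw [SemilinearAut.coe_degZeroSMulHom, SemilinearAut.divisor_smul_apply, hD]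
  have h := SemilinearAut.ord_smul g (g⁻¹ • P) f
  rw [smul_inv_smul] at h
  exact h.symm

theorem smul_ne_zero_h57 (g : SemilinearAut K F) {f : F} (hf : f ≠ 0) : g • f ≠ 0 := by
  intro h0
  apply hf
  have h1 := congrArg (fun z => g⁻¹ • z) h0
  simp only [inv_smul_smul, smul_zero] at h1
  exact h1

/-- **KUM-FIX, abstract form.** -/
theorem kum_fix_abs [IsAlgClosed K] (hF : IsFF K F) (n : ℕ) (g : SemilinearAut K F)
    (D : Divisor.degZero (K := K) (F := F)) (f : F) (hf : f ≠ 0)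
    (hD : ∀ P : Place K F, (n : ℤ) * (D : Divisor K F) P = P.ord f)
    (hfix : g • (Pic0.mk D : Pic0 K F) = Pic0.mk D) :
    ∃ (e : K) (T : F), g • f = algebraMap K F e * f * T ^ n :=
  kum_cmp_abs hF n (SemilinearAut.degZeroSMulHom g D) D (g • f) f (smul_ne_zero_h57 g hf) hf
    (kum_smul_abs n g D f hD) hD ((SemilinearAut.pic0_smul_mk g D).symm.trans hfix)

end Fermat.Agent.BADP.H57

end
end
-- ==== END Fermat.Agent.BADP.H57_KumAbs

-- ==== BEGIN Fermat.Agent.BADP.H74_HDropKL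
section
attribute [local instance 10000] SubalgebraClass.toAlgebra
attribute [local instance 10000] HahnSeries.powerSeriesAlgebra

set_option autoImplicit false
set_option synthInstance.maxHeartbeats 400000
set_option maxHeartbeats 1000000

noncomputable section

open AlgebraicCurve ModularCurve Fermat.Agent.S28.H73 Fermat.Agent.RED.H73

namespace Fermat.Agent.BADP.H74

section General

variable {K F E : Type*} [Field K] [Field F] [Field E] [Algebra K F] [Algebra K E]

/-- The restriction of an algebra homomorphism to `K[x] → K[φ x]`. -/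
def adjoinMap (φ : F →ₐ[K] E) (x : F) :
    ↥(Algebra.adjoin K ({x} : Set F)) →+* ↥(Algebra.adjoin K ({φ x} : Set E)) :=
  ((φ : F →+* E).comp (algebraMap ↥(Algebra.adjoin K ({x} : Set F)) F)).codRestrict
    (Algebra.adjoin K ({φ x} : Set E)).toSubring (by
      intro z
      have h1 : φ (z : F) ∈ (Algebra.adjoin K ({x} : Set F)).map φ := ⟨z, z.2, rfl⟩
      rw [AlgHom.map_adjoin_singleton] at h1
      exact h1)

theorem coe_adjoinMap (φ : F →ₐ[K] E) (x : F) (z : ↥(Algebra.adjoin K ({x} : Set F))) :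
    ((adjoinMap φ x z : ↥(Algebra.adjoin K ({φ x} : Set E))) : E) = φ (z : F) := rfl

/-- Integrality over `K[x]` is preserved by algebra homomorphisms. -/
theorem isIntegral_adjoin_map (φ : F →ₐ[K] E) {x y : F}
    (h : IsIntegral ↥(Algebra.adjoin K ({x} : Set F)) y) :
    IsIntegral ↥(Algebra.adjoin K ({φ x} : Set E)) (φ y) :=
  IsIntegral.map_of_comp_eq (adjoinMap φ x) (φ : F →+* E) (by ext z; rfl) h

theorem adjoinMap_surjective (φ : F →ₐ[K] E) (x : F) :
    Function.Surjective (adjoinMap φ x) := by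
  intro w
  have h1 : (w : E) ∈ (Algebra.adjoin K ({x} : Set F)).map φ := by
    rw [AlgHom.map_adjoin_singleton]
    exact w.2
  obtain ⟨z, hz, hzw⟩ := h1
  exact ⟨⟨z, hz⟩, Subtype.ext hzw⟩

/-- Integrality over `K[x]` is reflected by injective algebra homomorphisms. -/
theorem isIntegral_of_adjoin_map (φ : F →ₐ[K] E) (hφ : Function.Injective φ) {x y : F}
    (h : IsIntegral ↥(Algebra.adjoin K ({φ x} : Set E)) (φ y)) :
    IsIntegral ↥(Algebra.adjoin K ({x} : Set F)) y := by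
  obtain ⟨G', hG'm, hG'r⟩ := h
  have hl : G' ∈ Polynomial.lifts (adjoinMap φ x) := by
    rw [Polynomial.lifts_iff_coeff_lifts]
    intro n
    exact adjoinMap_surjective φ x _
  obtain ⟨G, hGmap, -, hGm⟩ := Polynomial.lifts_and_natDegree_eq_and_monic hl hG'm
  refine ⟨G, hGm, ?_⟩
  apply hφ
  rw [map_zero]
  have h1 := Polynomial.hom_eval₂ G (algebraMap ↥(Algebra.adjoin K ({x} : Set F)) F)
    (φ : F →+* E) y
  have h2 : Polynomial.eval₂ ((φ : F →+* E).comp
      (algebraMap ↥(Algebra.adjoin K ({x} : Set F)) F)) (φ y) G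
      = Polynomial.eval₂ (algebraMap ↥(Algebra.adjoin K ({φ x} : Set E)) E) (φ y) G' := by
    rw [← hGmap, Polynomial.eval₂_map]
    rfl
  exact h1.trans (h2.trans hG'r)

/-- An element which is integral over `K[x]`, with `x` regular at the place `P`, is regular
at `P`. -/
theorem mem_place_of_isIntegral (P : Place K F) {x y : F} (hx : x ∈ P.toValuationSubring)
    (hy : IsIntegral ↥(Algebra.adjoin K ({x} : Set F)) y) : y ∈ P.toValuationSubring :=
  Fermat.Agent.S15.H30.mem_of_isIntegral_map (AlgHom.id K F) Function.injective_id P x hx y hy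

/-- The same, through an embedding. -/
theorem mem_place_of_isIntegral_map (φ : F →ₐ[K] E) (hφ : Function.Injective φ)
    (P : Place K F) {x y : F} (hx : x ∈ P.toValuationSubring)
    (hy : IsIntegral ↥(Algebra.adjoin K ({φ x} : Set E)) (φ y)) : y ∈ P.toValuationSubring :=
  Fermat.Agent.S15.H30.mem_of_isIntegral_map φ hφ P x hx y hy

/-- A function `y ≠ 0` such that `y` and `y⁻¹` are integral over `K[x]` has order `0` at the
places where `x` is regular. -/
theorem ord_eq_zero_of_isIntegral_map (φ : F →ₐ[K] E) (hφ : Function.Injective φ)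
    (P : Place K F) {x y : F} (hx : 0 ≤ P.ord x)
    (hy : IsIntegral ↥(Algebra.adjoin K ({φ x} : Set E)) (φ y))
    (hy' : IsIntegral ↥(Algebra.adjoin K ({φ x} : Set E)) (φ y)⁻¹) : P.ord y = 0 := by
  have hx' : x ∈ P.toValuationSubring := Fermat.Agent.S24.H85.mem_of_ord_nonneg P hx
  have h1 := mem_place_of_isIntegral_map φ hφ P hx' hy
  have h2 : y⁻¹ ∈ P.toValuationSubring := by
    refine mem_place_of_isIntegral_map φ hφ P hx' ?_
    rw [map_inv₀]
    exact hy'
  have h3 := Fermat.Agent.S24.H85.ord_nonneg_of_mem P h1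
  have h4 := Fermat.Agent.S24.H85.ord_nonneg_of_mem P h2
  rw [Place.ord_inv] at h4
  omega

end General

section KL

open Fermat.Agent.BAD

variable (A : ValuationSubring (AlgebraicClosure ℚ)) (ℓ : ℕ) [NeZero ℓ]

/-- **KL, reduction of integral functions**: for a level `ℓ` prime to the residue characteristic
`p`, the reduction of a Gauss-integral function which is integral over `ℚ̄[j]` is integral over
`k[j~]` (as a Laurent series). -/
theorem red_isIntegral {p : ℕ} (hp : p.Prime) (hpℓ : ¬ p ∣ ℓ) (hA : A.LiesOverPrime p)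
    (f : ↥(gaussV A ℓ))
    (hf : IsIntegral ↥(Algebra.adjoin (AlgebraicClosure ℚ)
      ({Fermat.Agent.RED.H73.jF (L := AlgebraicClosure ℚ) ℓ} : Set ↥(FNbar ℓ))) (f : ↥(FNbar ℓ))) :
    IsIntegral ↥(Algebra.adjoin (kV A) ({jqModC (kV A)} : Set (LaurentSeries (kV A))))
      ((gaussRes A ℓ f : ↥(redField A (FNbar ℓ) (hasScale_laurentBaseChange A ℓ))) :
        LaurentSeries (kV A)) := by
  obtain ⟨hxt, hfd, -, hdeg, -⟩ := goodChart_pre ℓ p hp hpℓ A hA
  haveI := hfd
  have h1 := Fermat.Agent.RED.H42.gen_red_isIntegral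
    (S := redSetting A (hasScale_laurentBaseChange A ℓ)) (jF_mem A ℓ) hxt hdeg f hf
  have h2 := isIntegral_adjoin_map
    ((redField A (FNbar ℓ) (hasScale_laurentBaseChange A ℓ)).val) h1
  have h3 : (redField A (FNbar ℓ) (hasScale_laurentBaseChange A ℓ)).val
      ((redSetting A (hasScale_laurentBaseChange A ℓ)).red
        ⟨Fermat.Agent.RED.H73.jF (L := AlgebraicClosure ℚ) ℓ, jF_mem A ℓ⟩) = jqModC (kV A) :=
    red_jF A ℓ
  rw [h3] at h2
  exact h2

end KL

end Fermat.Agent.BADP.H74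

end
end
-- ==== END Fermat.Agent.BADP.H74_HDropKL

-- ==== BEGIN Fermat.Agent.GTor.H75_DescCoreGen
section

/-!
# G-TOR package DESC (helper75): DESC-CORE, torsor form

`k ⊆ K` algebraically closed of characteristic `0`, `K` of infinite transcendence degree over
`k`, `U_n(F_K)` finite.  If `φ ∈ F_K^×` is such that `σ φ / φ` is unramified modulo `n` for every
automorphism `σ` of `K` over `k`, then `φ = bc(φ₀) · hⁿ` with `φ₀ ∈ F_k^×`.
(For unramified `φ` this is DESC-CORE; for `div φ = n E - bc(D₀)` it is the descent step of the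
`n`-divisibility of `Pic⁰(F_k)`.)
-/

set_option autoImplicit false
set_option linter.style.haveILetI false
set_option linter.unusedSectionVars false
set_option maxHeartbeats 1000000

noncomputable section

namespace Fermat.Agent.GTor.H75

open ModularCurve AlgebraicCurve

/-- pigeonhole, torsor form -/
theorem exists_pair_gen (K : Type) [Field K] [Algebra ℚ K]
    (F₀ : IntermediateField ℚ (LaurentSeries ℚ)) (n : ℕ)
    (hfin : Finite (UnrKummer K ↥(laurentBaseChange K F₀) n))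
    (f : ↥(laurentBaseChange K F₀)) (hf : f ≠ 0)
    (m : ℕ) (hm : Nat.card (UnrKummer K ↥(laurentBaseChange K F₀) n) < m) (σ : Fin m → (K ≃+* K))
    (hrel : ∀ i, ∀ w : Place K ↥(laurentBaseChange K F₀),
      (n : ℤ) ∣ w.ord (bcHom ((σ i : K ≃+* K) : K →+* K) F₀ f) - w.ord f) :
    ∃ i j, i ≠ j ∧ ∃ g : ↥(laurentBaseChange K F₀), g ≠ 0 ∧
      coeffMap (((σ i).symm : K →+* K).comp ((σ j : K ≃+* K) : K →+* K)) (f : LaurentSeries K)
        = (f : LaurentSeries K) * (g : LaurentSeries K) ^ n := by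
  classical
  have hne : ∀ i, bcHom ((σ i : K ≃+* K) : K →+* K) F₀ f ≠ 0 := fun i =>
    (map_ne_zero _).mpr hf
  have hq : ∀ i, bcHom ((σ i : K ≃+* K) : K →+* K) F₀ f / f ≠ 0 := fun i =>
    div_ne_zero (hne i) hf
  have hu : ∀ i, Units.mk0 _ (hq i) ∈ unrSubgroup K ↥(laurentBaseChange K F₀) n := fun i w => by
    show (n : ℤ) ∣ w.ord (bcHom ((σ i : K ≃+* K) : K →+* K) F₀ f / f)
    rw [div_eq_mul_inv, w.ord_mul (hne i) (inv_ne_zero hf), w.ord_inv, ← sub_eq_add_neg]
    exact hrel i w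
  let c : Fin m → UnrKummer K ↥(laurentBaseChange K F₀) n := fun i =>
    QuotientGroup.mk ⟨Units.mk0 _ (hq i), hu i⟩
  haveI : Fintype (UnrKummer K ↥(laurentBaseChange K F₀) n) := Fintype.ofFinite _
  have hcard : Fintype.card (UnrKummer K ↥(laurentBaseChange K F₀) n) < Fintype.card (Fin m) := by
    rw [Fintype.card_fin, ← Nat.card_eq_fintype_card]; exact hm
  obtain ⟨i, j, hij, hc⟩ := Fintype.exists_ne_map_eq_of_card_lt c hcard
  refine ⟨i, j, hij, ?_⟩
  have hmem : (⟨Units.mk0 _ (hq i), hu i⟩ : unrSubgroup K ↥(laurentBaseChange K F₀) n)⁻¹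
      * ⟨Units.mk0 _ (hq j), hu j⟩ ∈ powSubgroup K ↥(laurentBaseChange K F₀) n :=
    QuotientGroup.eq.mp hc
  obtain ⟨h, hh0, hh⟩ := H56.exists_eq_pow_of_mem_powSubgroup _ hmem
  have hrel' : bcHom ((σ j : K ≃+* K) : K →+* K) F₀ f
      = bcHom ((σ i : K ≃+* K) : K →+* K) F₀ f * h ^ n := by
    rw [← hh]
    simp only [Subgroup.coe_mul, InvMemClass.coe_inv, Units.val_mul, Units.val_inv_eq_inv_val,
      Units.val_mk0]
    have h1 := hne i
    field_simp
  refine ⟨bcHom (((σ i).symm : K ≃+* K) : K →+* K) F₀ h, (map_ne_zero _).mpr hh0, ?_⟩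
  have h2 := congrArg (fun z => ((bcHom (((σ i).symm : K ≃+* K) : K →+* K) F₀ z :
    ↥(laurentBaseChange K F₀)) : LaurentSeries K)) hrel'
  simp only [map_mul, map_pow, bcHom_coe, MulMemClass.coe_mul, SubmonoidClass.coe_pow,
    coeffMap_coeffMap] at h2
  rw [h2]
  congr 1
  have hid : (((σ i).symm : K ≃+* K) : K →+* K).comp ((σ i : K ≃+* K) : K →+* K)
      = RingHom.id K := by
    ext x
    simp
  rw [hid, coeffMap_id]

/-- DESC-CORE from the conclusion of the pigeonhole step. -/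
theorem descCore_of_pairs (k K : Type) [Field k] [Field K] [Algebra ℚ k] [Algebra ℚ K]
    (F₀ : IntermediateField ℚ (LaurentSeries ℚ))
    [IsAlgClosed k] [IsAlgClosed K] [CharZero k] [Algebra k K] (n : ℕ) (hn : 0 < n)
    (htr : ∀ s : Finset K, ∃ x : K,
      ¬ IsAlgebraic ↥(Subfield.closure (Set.range (algebraMap k K) ∪ (↑s : Set K))) x)
    (f : ↥(laurentBaseChange K F₀)) (hf : f ≠ 0) (m : ℕ)
    (hPair : ∀ σ : Fin m → (K ≃ₐ[k] K),
      ∃ i j, i ≠ j ∧ ∃ g : ↥(laurentBaseChange K F₀), g ≠ 0 ∧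
        coeffMap ((((σ i).toRingEquiv).symm : K →+* K).comp
          (((σ j).toRingEquiv : K ≃+* K) : K →+* K)) (f : LaurentSeries K)
          = (f : LaurentSeries K) * (g : LaurentSeries K) ^ n) :
    ∃ (f₀ : ↥(laurentBaseChange k F₀)) (h : ↥(laurentBaseChange K F₀)),
      f₀ ≠ 0 ∧ h ≠ 0 ∧ f = bcHom (algebraMap k K) F₀ f₀ * h ^ n := by
  classical
  haveI : CharZero K := charZero_of_injective_ringHom (algebraMap k K).injective
  have hf0 : (f : LaurentSeries K) ≠ 0 := fun h0 => hf (Subtype.ext h0)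
  obtain ⟨r, y, a, r', y', b, hy, hy', hP, hQ, hfQ⟩ := exists_lc K F₀ f.2 hf0
  let c : Finset K := Finset.univ.image a ∪ Finset.univ.image b
  have hac : ∀ i, a i ∈ c := fun i =>
    Finset.mem_union_left _ (Finset.mem_image_of_mem a (Finset.mem_univ i))
  have hbc : ∀ i, b i ∈ c := fun i =>
    Finset.mem_union_right _ (Finset.mem_image_of_mem b (Finset.mem_univ i))
  obtain ⟨d, t, σ, ht, hc, hind⟩ := H56.stmt_DescAut k K htr c m
  obtain ⟨i, j, hij, g, hg, hτ⟩ := hPair σ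
  let τ : K →ₐ[k] K := ((σ i).symm : K →ₐ[k] K).comp (σ j : K →ₐ[k] K)
  let t' : Fin d → K := fun l => τ (t l)
  have hτ' : coeffMap (τ : K →+* K) (f : LaurentSeries K)
      = (f : LaurentSeries K) * (g : LaurentSeries K) ^ n := hτ
  have h1 : AlgebraicIndependent k (Sum.elim t' t) := by
    have := (hind i j hij).comp Sum.swap Sum.swap_leftInverse.injective
    convert this using 1
    ext (l | l) <;> rfl
  obtain ⟨-, h2⟩ := AlgebraicIndependent.sumElim_iff.mp h1
  have h3 : AlgebraicIndependent ↥(IntermediateField.adjoin k (Set.range t)) t' :=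
    IntermediateField.algebraicIndependent_adjoin_iff.mpr h2
  let Ft : IntermediateField k K := IntermediateField.adjoin k (Set.range t)
  let E : IntermediateField ↥Ft K := algebraicClosure ↥Ft K
  have h4 : AlgebraicIndependent ↥E t' := h3.algebraicClosure
  haveI : IsScalarTower k ↥E K := IsScalarTower.of_algebraMap_eq (fun x => rfl)
  haveI : IsAlgClosed ↥E := IsAlgClosure.isAlgClosed ↥Ft
  let F' : IntermediateField ↥E K := IntermediateField.adjoin ↥E (Set.range t')
  let k₂ : IntermediateField ↥F' K := algebraicClosure ↥F' K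
  haveI : IsAlgClosed ↥k₂ := IsAlgClosure.isAlgClosed ↥F'
  have hE : ∀ x ∈ c, x ∈ E := fun x hx =>
    mem_algebraicClosure_iff.mpr (IntermediateField.isAlgebraic_adjoin_iff.mpr (hc x hx))
  have hEk₂ : ∀ x : K, x ∈ E → x ∈ k₂ := fun x hx =>
    k₂.algebraMap_mem ⟨x, F'.algebraMap_mem ⟨x, hx⟩⟩
  have hck : ∀ x ∈ c, AlgElem
      (MvPolynomial.aeval t' : MvPolynomial (Fin d) k →ₐ[k] K).toRingHom (τ x) := fun x hx =>
    (algElem_of_isAlgebraic_adjoin ht (hc x hx)).algHom τ
  have hτk₂ : ∀ x ∈ c, τ x ∈ k₂ := fun x hx =>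
    mem_algebraicClosure_iff.mpr (IntermediateField.isAlgebraic_adjoin_iff.mpr
      (isAlgebraic_adjoin_of_algElem h4 (hck x hx).extend))
  have hk₂ : ∀ x : ↥k₂, AlgElem
      (MvPolynomial.aeval t' : MvPolynomial (Fin d) ↥E →ₐ[↥E] K).toRingHom
        (algebraMap ↥k₂ K x) := fun x =>
    algElem_of_isAlgebraic_adjoin h4 (IntermediateField.isAlgebraic_adjoin_iff.mp
      (mem_algebraicClosure_iff.mp x.2))
  obtain ⟨s, s', z, z', α, β, hz, hz', hα, hβ, hA, hτQ, hid⟩ :=
    core_stepA F₀ (algebraMap ↥k₂ K) n hn f y y' hy hy' a b hP hQ hfQ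
      (fun i => ⟨⟨a i, hEk₂ _ (hE _ (hac i))⟩, rfl⟩)
      (fun i => ⟨⟨b i, hEk₂ _ (hE _ (hbc i))⟩, rfl⟩)
      (τ : K →+* K)
      (fun i => ⟨⟨τ (a i), hτk₂ _ (hac i)⟩, rfl⟩)
      (fun i => ⟨⟨τ (b i), hτk₂ _ (hbc i)⟩, rfl⟩) g hτ'
  exact core_stepBC (k := k) (E := ↥E) F₀ (algebraMap ℚ ↥E) n hn t' h4 f y y' z z' hy hy' hz hz'
    a b hP hQ hfQ
    (fun i => ⟨⟨a i, hE _ (hac i)⟩, rfl⟩) (fun i => ⟨⟨b i, hE _ (hbc i)⟩, rfl⟩)
    (fun i => τ (a i)) (fun i => τ (b i)) (fun i => hck _ (hac i)) (fun i => hck _ (hbc i)) hτQ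
    α β
    (fun i => by obtain ⟨x, hx⟩ := hα i; rw [← hx]; exact hk₂ x)
    (fun i => by obtain ⟨x, hx⟩ := hβ i; rw [← hx]; exact hk₂ x)
    hA hid

/-- **DESC-CORE, torsor form.** -/
theorem descCoreGen (k K : Type) [Field k] [Field K] [Algebra ℚ k] [Algebra ℚ K]
    (F₀ : IntermediateField ℚ (LaurentSeries ℚ))
    [IsAlgClosed k] [IsAlgClosed K] [CharZero k] (ι : k →+* K) (n : ℕ) (hn : 0 < n)
    (htr : ∀ s : Finset K, ∃ x : K,
      ¬ IsAlgebraic ↥(Subfield.closure (Set.range ι ∪ (↑s : Set K))) x)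
    (hfin : Finite (UnrKummer K ↥(laurentBaseChange K F₀) n))
    (f : ↥(laurentBaseChange K F₀)) (hf : f ≠ 0)
    (hσ : ∀ σ : K ≃+* K, (∀ c, σ (ι c) = ι c) → ∀ w : Place K ↥(laurentBaseChange K F₀),
      (n : ℤ) ∣ w.ord (bcHom (σ : K →+* K) F₀ f) - w.ord f) :
    ∃ (f₀ : ↥(laurentBaseChange k F₀)) (h : ↥(laurentBaseChange K F₀)),
      f₀ ≠ 0 ∧ h ≠ 0 ∧ f = bcHom ι F₀ f₀ * h ^ n := by
  letI : Algebra k K := ι.toAlgebra
  refine descCore_of_pairs k K F₀ n hn htr f hf
    (Nat.card (UnrKummer K ↥(laurentBaseChange K F₀) n) + 1) (fun σ => ?_)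
  exact exists_pair_gen K F₀ n hfin f hf _ (Nat.lt_succ_self _) (fun i => (σ i).toRingEquiv)
    (fun i w => hσ (σ i).toRingEquiv (fun c => (σ i).commutes c) w)

end Fermat.Agent.GTor.H75

end
end
-- ==== END Fermat.Agent.GTor.H75_DescCoreGen
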