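-- GENERATED (merged mirror, NOTES/tools/trim/merge3_helper67.py): 10 modules of the originals, bodies verbatim.
import Mathlib.RingTheory.AlgebraicIndependent.Adjoin
import Mathlib.RingTheory.AlgebraicIndependent.TranscendenceBasis
import Mathlib.RingTheory.AlgebraicIndependent.Transcendental
import Mathlib.Combinatorics.Matroid.Rank.ENat
import Mathlib.Combinatorics.Matroid.Rank.Finite
import Fermat.Prelude.Def_FLTPrelim_Modularity
import Fermat.Agent.Zm.S44_L01_002
import Fermat.Agent.Zm.S44_L01_003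
import Fermat.Agent.Zm.S35_L06_003
import Fermat.Agent.Zm.S35_L02_005
import Fermat.Agent.Zm.S35_L12_000
import Fermat.Agent.RED.H17_Place
import Fermat.Agent.Zm.S44_L01_004
import Fermat.Agent.Zm.S44_L01_001
import Fermat.Agent.Zm.S35_L01_001
import Fermat.Agent.Lib.EllFinite.Defs

-- ==== BEGIN Fermat.Agent.S15.Desc.H69_CoordCusp
section
attribute [local instance 10000] SubalgebraClass.toAlgebra
attribute [local instance 10000] HahnSeries.powerSeriesAlgebra

/-!
# S15 DESC, leaf COORD, sub-leaf CUSP (helper69): the cusp of the special fibre is not a node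

Level `N = 1 * p`, `A` over `p`, `T = H91.modT` the modular total conservation datum, `z` the
place of `F₁ = k(j~)` at which `j~` has its pole.  Then `z` is not a node of `T`:
`stmt_CoordCusp : H67.Stmt_CoordCusp p`.

Test function `f = j_p / j ^ p` (`j_p = j (q ^ p)`):
* `red₁ f = j~ (q^p) / j~ ^ p = 1`;
* `red₂ f = red₁ (w_p f) = j~ / j~ (q^p) ^ p = j~ ^ (1 - p²)`, which vanishes at `β z`;
* `f` has no pole on the fibre of `z`: `j` has no zero there (zeros of `j` reduce to zeros of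
  `j~`), and the poles of `j_p` are the two cusps, where `ord f = 0` resp. `p² - 1`.
-/

set_option autoImplicit false
set_option linter.style.haveILetI false
set_option linter.unusedSectionVars false
set_option linter.unusedVariables false
set_option synthInstance.maxHeartbeats 400000
set_option maxHeartbeats 1000000

noncomputable section

open HahnSeries IntermediateField AlgebraicCurve ModularCurve
open Fermat.Agent.S28.H73 Fermat.Agent.RED.H73 Fermat.Agent.RED Fermat.Agent.S24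
open Fermat.Agent.BAD.H88

namespace Fermat.Agent.S15.Desc.H69C

open Fermat.Agent.BAD Fermat.Agent.BAD.H91

/-! ## Abstract: zeros reduce to zeros -/

section Abs

variable {K F k F' : Type*} [Field K] [Field F] [Algebra K F] [Field k] [Field F']
  [Algebra k F'] (S : RED.H17.RedSetup K F k F')

/-- If the degree of the Gauss unit `x` does not drop under reduction, zeros of `x` reduce to
zeros of `rd x`: if `rd x` has no zero at `r P` then `x` has no zero at `P`. -/
theorem ord_nonpos_of_ord_rd_nonpos (hP : HasPrincipalDivisors K F)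
    (hP' : HasPrincipalDivisors k F') (hz : H59.ZerosStmt K F) (hz' : H59.ZerosStmt k F')
    {x : F} (hx : S.IsGU x) (hxt : Transcendental K x) (hxt' : Transcendental k (S.rd x))
    [FiniteDimensional K⟮x⟯ F] [FiniteDimensional k⟮S.rd x⟯ F']
    (hdeg : Module.finrank K⟮x⟯ F ≤ Module.finrank k⟮S.rd x⟯ F')
    (P : Place K F) (hQ : (S.r P).ord (S.rd x) ≤ 0) : P.ord x ≤ 0 := by
  have hxt1 : Transcendental K x⁻¹ := fun h => hxt (IsAlgebraic.inv_iff.mp h)
  have e : S.rd x⁻¹ = (S.rd x)⁻¹ := hx.rd_inv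
  have hxt1' : Transcendental k (S.rd x⁻¹) := by
    rw [e]
    exact fun h => hxt' (IsAlgebraic.inv_iff.mp h)
  haveI : FiniteDimensional K⟮x⁻¹⟯ F := ff_finite_of_transcendental x hxt x⁻¹ hxt1
  haveI : FiniteDimensional k⟮S.rd x⁻¹⟯ F' :=
    ff_finite_of_transcendental (S.rd x) hxt' _ hxt1'
  have e2 : Module.finrank k⟮S.rd x⁻¹⟯ F' = Module.finrank k⟮S.rd x⟯ F' := by
    rw [e]
    exact H59.finrank_adjoin_inv _
  have hdeg1 : Module.finrank K⟮x⁻¹⟯ F ≤ Module.finrank k⟮S.rd x⁻¹⟯ F' := by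
    rw [H59.finrank_adjoin_inv, e2]
    exact hdeg
  have h := Fermat.Agent.BAD.H42.ord_nonneg_of_ord_rd_nonneg S hP hP' hz hz' hx.inv hxt1 hxt1'
    hdeg1 P (by rw [e, Place.ord_inv]; omega)
  rw [Place.ord_inv] at h
  omega

end Abs

/-! ## Level `M`: zeros of `j` reduce to zeros of `j~` -/

section Level

variable {A : ValuationSubring (AlgebraicClosure ℚ)} {M q : ℕ} [NeZero M]

/-- The statement for a reduction datum whose `V`, `red` are those of the Gauss valuation. -/
theorem ord_jF_nonpos_aux (hq : q.Prime) (hqM : ¬ q ∣ M) (hA : A.LiesOverPrime q)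
    (SE : RED.H17.RedSetup (AlgebraicClosure ℚ)
      ↥(laurentBaseChange (AlgebraicClosure ℚ) (modularFunctionFieldFull M)) (kV A)
      ↥(redField A (laurentBaseChange (AlgebraicClosure ℚ) (modularFunctionFieldFull M))
        (hasScale_laurentBaseChange A M)))
    (hmem : RED.H73.jF (L := AlgebraicClosure ℚ) M ∈ SE.V)
    (hred : SE.red ⟨RED.H73.jF (L := AlgebraicClosure ℚ) M, hmem⟩ = jRed A M)
    (hFF' : IsFF (kV A)
      ↥(redField A (laurentBaseChange (AlgebraicClosure ℚ) (modularFunctionFieldFull M))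
        (hasScale_laurentBaseChange A M)))
    (P : Place (AlgebraicClosure ℚ)
      ↥(laurentBaseChange (AlgebraicClosure ℚ) (modularFunctionFieldFull M)))
    (h : (SE.r P).ord (jRed A M) ≤ 0) :
    P.ord (RED.H73.jF (L := AlgebraicClosure ℚ) M) ≤ 0 := by
  haveI : IsAlgClosed (kV A) := isAlgClosed_kV A
  have hFF : IsFF (AlgebraicClosure ℚ)
      ↥(laurentBaseChange (AlgebraicClosure ℚ) (modularFunctionFieldFull M)) :=
    H95.stmt_HKA_isFF M
  obtain ⟨hxt', hfd, -, hdeg, -⟩ := goodChart_pre M q hq hqM A hA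
  haveI := hfd
  have H := RED.H17.ffHyp_of_isFF _ _ hFF
  have H' := RED.H17.ffHyp_of_isFF _ _ hFF'
  have hrd : SE.rd (RED.H73.jF (L := AlgebraicClosure ℚ) M) = jRed A M :=
    (SE.rd_of_mem hmem).trans hred
  have hxt : Transcendental (AlgebraicClosure ℚ) (RED.H73.jF (L := AlgebraicClosure ℚ) M) :=
    RED.H34.RedSetting.transcendental_x (S := redSetting A (hasScale_laurentBaseChange A M))
      (jF_mem A M) hxt'
  have hz := RED.H42.zerosAll _ _ hFF
  have hz' := RED.H42.zerosAll _ _ hFF'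
  have key : ∀ y : ↥(redField A (laurentBaseChange (AlgebraicClosure ℚ)
      (modularFunctionFieldFull M)) (hasScale_laurentBaseChange A M)),
      SE.rd (RED.H73.jF (L := AlgebraicClosure ℚ) M) = y → Transcendental (kV A) y →
      Module.finrank ↥((kV A)⟮y⟯)
        ↥(redField A (laurentBaseChange (AlgebraicClosure ℚ) (modularFunctionFieldFull M))
          (hasScale_laurentBaseChange A M))
        = Module.finrank ↥((AlgebraicClosure ℚ)⟮RED.H73.jF (L := AlgebraicClosure ℚ) M⟯)
          ↥(laurentBaseChange (AlgebraicClosure ℚ) (modularFunctionFieldFull M)) →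
      (SE.r P).ord y ≤ 0 → P.ord (RED.H73.jF (L := AlgebraicClosure ℚ) M) ≤ 0 := by
    intro y hy hyt hyd hy0
    subst hy
    have hx : SE.IsGU (RED.H73.jF (L := AlgebraicClosure ℚ) M) :=
      ⟨hmem, fun h0 => hyt (h0 ▸ isAlgebraic_zero)⟩
    haveI hfd' : FiniteDimensional
        ↥((kV A)⟮SE.rd (RED.H73.jF (L := AlgebraicClosure ℚ) M)⟯)
        ↥(redField A (laurentBaseChange (AlgebraicClosure ℚ) (modularFunctionFieldFull M))
          (hasScale_laurentBaseChange A M)) := by
      apply Module.finite_of_finrank_pos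
      rw [hyd]
      exact Module.finrank_pos
    exact ord_nonpos_of_ord_rd_nonpos SE H.principal H'.principal hz hz' hx hxt hyt hyd.ge P hy0
  exact key _ hrd hxt' hdeg h

/-- **Zeros of `j` reduce to zeros of `j~`**, level `M`. -/
theorem ord_jF_nonpos_of_rM (hq : q.Prime) (hqM : ¬ q ∣ M) (ht : TameAt M q)
    (hA : A.LiesOverPrime q) (P : Place (AlgebraicClosure ℚ) ↥(FNbar M))
    (h : (rM hq hqM ht hA P).ord (jRed A M) ≤ 0) :
    P.ord (RED.H73.jF (L := AlgebraicClosure ℚ) M) ≤ 0 :=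
  ord_jF_nonpos_aux hq hqM hA (seM hq hqM ht hA) (jF_mem A M) rfl (isFF_redM hq hqM ht hA) P h

/-- **`j` has no zero over a point where `j~` has no zero**, level `M q`. -/
theorem ord_jF_nonpos_of_rhoM [NeZero (M * q)] (hq : q.Prime) (hqM : ¬ q ∣ M)
    (ht : TameAt M q) (hA : A.LiesOverPrime q)
    (P : Place (AlgebraicClosure ℚ) ↥(FNbar (M * q)))
    (h : (rhoM hq hqM ht hA P).ord (jRed A M) ≤ 0) :
    P.ord (Fermat.Agent.S24.jF (M * q)) ≤ 0 := by
  have h1 := ord_jF_nonpos_of_rM hq hqM ht hA _ h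
  have h2 : P.ord (incl M q (RED.H73.jF (L := AlgebraicClosure ℚ) M)) ≤ 0 := by
    rw [Place.ord_restrictAlong (incl M q) (incl_isIntegral M q) P]
    exact mul_nonpos_of_nonneg_of_nonpos (Int.natCast_nonneg _) h1
  rwa [incl_jF] at h2

end Level

/-! ## The cusp is not a node -/

section Main

open Fermat.Agent.RED.H17

/-- `j` of level `1` is `j (q ^ 1)`. -/
theorem jF_one_eq_jdF : (RED.H73.jF (L := Kbar) 1 : FN 1) = jdF 1 1 (one_dvd 1) := by
  apply Subtype.ext
  show jqModC Kbar = coeffEmb Kbar (qExpand ℚ 1 jq)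
  have h := RED.H73.coeffEmb_qExpand_jq (L := Kbar) 1
  rw [h, qExpand_one_apply]

/-- **(CUSP)**: the pole of `j~` is not a node of the modular total conservation datum of level
`p`. -/
theorem stmt_CoordCusp (p : ℕ) : H67.Stmt_CoordCusp p := by
  intro A a b hab hp _ _ hA hqM ht htot z₀ hz₀ hnode
  haveI : IsAlgClosed (kV A) := isAlgClosed_kV A
  haveI hpF : Fact p.Prime := ⟨hp⟩
  haveI hchar : CharP (kV A) p := H82.charP_kV A hp hA
  have hp2 : (2 : ℤ) ≤ (p : ℤ) := by exact_mod_cast hp.two_le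
  -- the datum
  set T := modT a b hab hp hA hqM ht
    (H73.betaF1 A p 1 hp hA 1 (H82.redField_eq_fullC p 1 a b hab hp A hA)) htot with hT
  set z := (kappa A p 1 a b hab hp hA).symm z₀ with hz
  -- the functions
  set x₁ : FN 1 := RED.H73.jF (L := Kbar) 1 with hx₁
  have hxV : x₁ ∈ VM A 1 := jF_mem A 1
  set jα : FN (1 * p) := heckeAlphaBar Kbar 1 p x₁ with hjα
  set jβ : FN (1 * p) := heckeBetaBar Kbar 1 p x₁ with hjβ
  have hα1 : jα ∈ V1 A p 1 := (alpha_mem_V1_iff A p 1 x₁).2 hxV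
  have hβ1 : jβ ∈ V1 A p 1 := (beta_mem_V1_iff A p 1 x₁).2 hxV
  have hα2 : jα ∈ V2 A p 1 a b hab hp := (alpha_mem_V2_iff A p 1 a b hab hp x₁).2 hxV
  have hβ2 : jβ ∈ V2 A p 1 a b hab hp := (beta_mem_V2_iff A p 1 a b hab hp x₁).2 hxV
  -- the reductions, as series
  have hJ : ((H88.redM A 1 ⟨x₁, hxV⟩ : FM A 1) : LaurentSeries (kV A)) = jqModC (kV A) :=
    red_jF A 1
  have hpow : qExpand (kV A) p (jqModC (kV A)) = jqModC (kV A) ^ p := by
    rw [Fermat.Agent.RED.H10.pow_char_eq p (jqModC (kV A)), coeffMap_jqModC]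
  have sα1 : ((red1 A p 1 ⟨jα, hα1⟩ : F1 A p 1) : LaurentSeries (kV A)) = jqModC (kV A) :=
    (red1_alpha A p 1 x₁ hxV hα1).trans hJ
  have sβ1 : ((red1 A p 1 ⟨jβ, hβ1⟩ : F1 A p 1) : LaurentSeries (kV A))
      = jqModC (kV A) ^ p := by
    rw [red1_beta A p 1 x₁ hxV hβ1, hJ, hpow]
  have sα2 : ((red2 A p 1 a b hab hp ⟨jα, hα2⟩ : F1 A p 1) : LaurentSeries (kV A))
      = jqModC (kV A) ^ p := by
    rw [red2_alpha A p 1 a b hab hp x₁ hxV hα2, hJ, hpow]
  have sβ2 : ((red2 A p 1 a b hab hp ⟨jβ, hβ2⟩ : F1 A p 1) : LaurentSeries (kV A))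
      = jqModC (kV A) :=
    (red2_beta A p 1 a b hab hp x₁ hxV hβ2).trans hJ
  set J : F1 A p 1 := red1 A p 1 ⟨jα, hα1⟩ with hJdef
  have hJ0 : J ≠ 0 := by
    intro h0
    have := congrArg (fun y : F1 A p 1 => (y : LaurentSeries (kV A))) h0
    simp only [sα1, ZeroMemClass.coe_zero] at this
    exact jqModC_ne_zero_of_nontrivial (kV A) this
  have eβ1 : red1 A p 1 ⟨jβ, hβ1⟩ = J ^ p :=
    Subtype.ext (by rw [sβ1, IntermediateField.coe_pow, sα1])
  have eα2 : red2 A p 1 a b hab hp ⟨jα, hα2⟩ = J ^ p :=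
    Subtype.ext (by rw [sα2, IntermediateField.coe_pow, sα1])
  have eβ2 : red2 A p 1 a b hab hp ⟨jβ, hβ2⟩ = J :=
    Subtype.ext (by rw [sβ2, sα1])
  -- Gauss units
  have gα1 : T.p₁.IsGU jα := ⟨hα1, by rw [T.p₁.rd_of_mem hα1]; exact hJ0⟩
  have gβ1 : T.p₁.IsGU jβ := ⟨hβ1, by
    rw [T.p₁.rd_of_mem hβ1]
    show red1 A p 1 ⟨jβ, hβ1⟩ ≠ 0
    rw [eβ1]
    exact pow_ne_zero _ hJ0⟩
  have gα2 : T.p₂.IsGU jα := ⟨hα2, by
    rw [T.p₂.rd_of_mem hα2]
    show red2 A p 1 a b hab hp ⟨jα, hα2⟩ ≠ 0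
    rw [eα2]
    exact pow_ne_zero _ hJ0⟩
  have gβ2 : T.p₂.IsGU jβ := ⟨hβ2, by
    rw [T.p₂.rd_of_mem hβ2]
    show red2 A p 1 a b hab hp ⟨jβ, hβ2⟩ ≠ 0
    rw [eβ2]
    exact hJ0⟩
  have gf1 : T.p₁.IsGU (jβ / jα ^ p) := gβ1.div (gα1.pow p)
  have gf2 : T.p₂.IsGU (jβ / jα ^ p) := gβ2.div (gα2.pow p)
  have rf1 : T.p₁.rd (jβ / jα ^ p) = 1 := by
    rw [gβ1.rd_div (gα1.pow p), T.p₁.rd_pow hα1, T.p₁.rd_of_mem hα1, T.p₁.rd_of_mem hβ1]
    show red1 A p 1 ⟨jβ, hβ1⟩ / (red1 A p 1 ⟨jα, hα1⟩) ^ p = 1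
    rw [eβ1]
    exact div_self (pow_ne_zero _ hJ0)
  have rf2 : T.p₂.rd (jβ / jα ^ p) = J / (J ^ p) ^ p := by
    rw [gβ2.rd_div (gα2.pow p), T.p₂.rd_pow hα2, T.p₂.rd_of_mem hα2, T.p₂.rd_of_mem hβ2]
    show red2 A p 1 a b hab hp ⟨jβ, hβ2⟩ / (red2 A p 1 a b hab hp ⟨jα, hα2⟩) ^ p = _
    rw [eβ2, eα2]
  -- orders of `J`
  have oz : z.ord J = z₀.ord (jRed A 1) :=
    kappa_symm_ord A p 1 a b hab hp hA z₀ J (jRed A 1) (by rw [sα1]; exact (red_jF A 1).symm)
  have hphi : H73.phiF1 A p 1 hp hA 1 (H82.redField_eq_fullC p 1 a b hab hp A hA) J = J :=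
    H73.phiF1_of_int A p 1 hp hA 1 _ J (jqModC ℤ) (by
      rw [sα1]
      exact (coeffMap_jqModC (Int.castRingHom (kV A))).symm)
  have oβ : (T.β z).ord J = z.ord J :=
    H73.betaF1_ord_of_fixed A p 1 hp hA 1 _ z J hphi
  -- `f ∈ R_z`
  have hjα : jα = Fermat.Agent.S24.jF (1 * p) := by
    rw [hjα, ← incl_eq_alpha]
    exact incl_jF
  have hjβ' : jβ = jdF (1 * p) (1 * p) dvd_rfl := by
    rw [hjβ, hx₁, jF_one_eq_jdF]
    exact beta_jdF p 1 1 (one_dvd 1)
  have hpN : (1 * p).Prime := by rwa [one_mul]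
  have hα0 : jα ≠ 0 := gα1.ne_zero
  have hβ0 : jβ ≠ 0 := gβ1.ne_zero
  have hreg : ∀ P, T.ρ P = z → RegAt P (jβ / jα ^ p) := by
    intro P hP
    apply regAt_of_ord_nonneg
    rw [ord_div P hβ0 (pow_ne_zero _ hα0), ord_pow]
    have hρ : rhoM hp hqM ht hA P = z₀ := by
      rw [← kappa_rhoF1 a b hab hp hA hqM ht P]
      have hP' : rhoF1 a b hab hp hA hqM ht P = (kappa A p 1 a b hab hp hA).symm z₀ := hP
      rw [hP']
      exact Equiv.apply_symm_apply _ _
    have h1 : P.ord jα ≤ 0 := by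
      rw [hjα]
      apply ord_jF_nonpos_of_rhoM hp hqM ht hA P
      rw [hρ]
      exact hz₀.le
    by_cases hpole : P.ord jβ < 0
    · rw [hjβ'] at hpole
      obtain ⟨c1, c2, c3, c4⟩ := Fermat.Agent.S15.H2.ord_cusp (1 * p) hpN
      rcases Fermat.Agent.S15.H2.eq_cusp_of_pole_jp (1 * p) hpN P hpole with e | e
      · rw [hjα, hjβ', e, c1, c2]
        push_cast
        omega
      · rw [hjα, hjβ', e, c3, c4]
        push_cast
        nlinarith
    · rw [not_lt] at hpole
      nlinarith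
  have hInR : T.InR z (jβ / jα ^ p) := ⟨gf1.mem, gf2.mem, hreg⟩
  have h0 := hnode (jβ / jα ^ p) hInR 0
  rw [map_zero, sub_zero, sub_zero, rf1, rf2] at h0
  have hv2 : VanAt (T.β z) (J / (J ^ p) ^ p) := by
    apply vanAt_of_ord_pos
    rw [ord_div _ hJ0 (pow_ne_zero _ (pow_ne_zero _ hJ0)), ord_pow, ord_pow, oβ, oz]
    have h3 : (1 : ℤ) < (p : ℤ) * (p : ℤ) := by nlinarith
    have h4 := mul_pos (neg_pos.2 hz₀) (sub_pos.2 h3)
    nlinarith
  have hv1 := h0.2 hv2
  rw [vanAt_iff_ord] at hv1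
  rcases hv1 with h | h
  · exact one_ne_zero h
  · rw [Place.ord_one] at h
    exact lt_irrefl _ h

end Main

end Fermat.Agent.S15.Desc.H69C

end
end
-- ==== END Fermat.Agent.S15.Desc.H69_CoordCusp

-- ==== BEGIN Fermat.Agent.S15.H23_ModEqRoots
section

/-!
# S15 / BRIDGE / MODEQ (helper23), part 2a: the roots `j ∘ A` of the modular equation

For a prime `p` the roots are `ρ_∞ = j(p τ)` and `ρ_b = j((τ + b) / p)`, `0 ≤ b < p`, elements of
the ring `Atil p` of the S24 closure layer.  We compute their `u`-expansions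
(`u = exp (2 π i τ / p)`) and show that `SL(2, ℤ)` permutes them.
-/

set_option autoImplicit false

noncomputable section

namespace Fermat.Agent.S15.H23

open Fermat.Agent.S24 ModularCurve UpperHalfPlane Polynomial
open scoped MatrixGroups

variable (p : ℕ) [NeZero p]

/-- The matrix of `τ ↦ p τ`. -/
def matInf : Matrix (Fin 2) (Fin 2) ℤ := !![(p : ℤ), 0; 0, 1]

/-- The matrix of `τ ↦ (τ + b) / p`. -/
def matB (b : ℤ) : Matrix (Fin 2) (Fin 2) ℤ := !![1, b; 0, (p : ℤ)]

theorem p_pos : 0 < p := Nat.pos_of_ne_zero (NeZero.ne p)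

theorem det_matInf : (matInf p).det = p := by
  rw [matInf, Matrix.det_fin_two_of]; ring

theorem det_matB (b : ℤ) : (matB p b).det = p := by
  rw [matB, Matrix.det_fin_two_of]; ring

theorem det_matInf_pos : 0 < (matInf p).det := by
  rw [det_matInf]; exact_mod_cast p_pos p

theorem det_matB_pos (b : ℤ) : 0 < (matB p b).det := by
  rw [det_matB]; exact_mod_cast p_pos p

/-- `ρ_∞ = j (p τ)`. -/
def rootInf : Atil p :=
  ⟨JA (matInf p), JA_mem_Atil p _ (det_matInf_pos p) (by rw [det_matInf])⟩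

/-- `ρ_b = j ((τ + b) / p)`. -/
def rootB (b : ℤ) : Atil p :=
  ⟨JA (matB p b), JA_mem_Atil p _ (det_matB_pos p b) (by rw [det_matB])⟩

/-! ## Expansions -/

/-- The expansion of `ρ_∞` is `j (u ^ (p²))`. -/
theorem uExp_rootInf :
    haveI : NeZero (p * p) := ⟨Nat.mul_ne_zero (NeZero.ne p) (NeZero.ne p)⟩
    uExp p (rootInf p) = qExpand Kbar (p * p) _root_.Fermat.Agent.S24.jBar := by
  haveI : NeZero (p * p) := ⟨Nat.mul_ne_zero (NeZero.ne p) (NeZero.ne p)⟩
  obtain ⟨c, hc, hc1, hc2⟩ := hasUExp_JA_upper p p 1 0 (p_pos p) one_pos (one_dvd p)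
  have e : uExp p (rootInf p) = c := by
    apply uExp_eq
    show HasUExp p (JA (matInf p) : ℍ → ℂ) (coeffMap iotaC c)
    have : matInf p = !![((p : ℕ) : ℤ), 0; 0, ((1 : ℕ) : ℤ)] := by
      rw [matInf]; simp
    rw [this]
    exact hc
  rw [e]
  ext m
  simp only [Nat.div_one, zero_mul, zpow_zero, one_mul] at hc1 hc2
  by_cases hm : (((p * p : ℕ) : ℤ)) ∣ m
  · obtain ⟨n, rfl⟩ := hm
    rw [hc1, qExpand_coeff_mul]
  · rw [hc2 m hm, qExpand_coeff_of_not_dvd _ _ hm]

/-- The expansion of `ρ_b` is `j (ζ^b u)`. -/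
theorem uExp_rootB (b : ℤ) : uExp p (rootB p b) = twist (zetaK p ^ b) _root_.Fermat.Agent.S24.jBar := by
  obtain ⟨c, hc, hc1, hc2⟩ := hasUExp_JA_upper p 1 p b one_pos (p_pos p) dvd_rfl
  have e : uExp p (rootB p b) = c := by
    apply uExp_eq
    show HasUExp p (JA (matB p b) : ℍ → ℂ) (coeffMap iotaC c)
    have : matB p b = !![((1 : ℕ) : ℤ), b; 0, ((p : ℕ) : ℤ)] := by
      rw [matB]; simp
    rw [this]
    exact hc
  rw [e]
  ext m
  have h1 : p / p * 1 = 1 := by rw [Nat.div_self (p_pos p)]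
  rw [h1] at hc1
  have := hc1 m
  simp only [Nat.cast_one, one_mul] at this
  rw [this, twist_coeff, ← zpow_mul]

theorem uExp_jA' : uExp p (jA p) = qExpand Kbar p _root_.Fermat.Agent.S24.jBar := uExp_jA p

/-! ## `SL(2, ℤ)` permutes the roots -/

/-- The multiset of the `p + 1` roots. -/
def rootSet : Multiset (Atil p) :=
  rootInf p ::ₘ (Multiset.range p).map (fun b : ℕ => rootB p (b : ℤ))

theorem card_rootSet : Multiset.card (rootSet p) = p + 1 := by
  rw [rootSet, Multiset.card_cons, Multiset.card_map, Multiset.card_range]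

theorem JA_shift_inf (b : ℤ) : JA !![(p : ℤ), b; 0, 1] = JA (matInf p) := by
  have h : !![(p : ℤ), b; 0, 1] = (ModularGroup.T ^ b : SL(2, ℤ)).1 * matInf p := by
    rw [show ((ModularGroup.T ^ b : SL(2, ℤ)).1 : Matrix (Fin 2) (Fin 2) ℤ) = !![1, b; 0, 1] from
      ModularGroup.coe_T_zpow b, matInf]
    ext i j
    fin_cases i <;> fin_cases j <;> simp [Matrix.mul_apply, Fin.sum_univ_two]
  rw [h, JA_mul_left _ _ (det_matInf_pos p)]

theorem JA_shift_B (b k : ℤ) : JA (matB p (b + k * p)) = JA (matB p b) := by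
  have h : matB p (b + k * p) = (ModularGroup.T ^ k : SL(2, ℤ)).1 * matB p b := by
    rw [show ((ModularGroup.T ^ k : SL(2, ℤ)).1 : Matrix (Fin 2) (Fin 2) ℤ) = !![1, k; 0, 1] from
      ModularGroup.coe_T_zpow k, matB, matB]
    ext i j
    fin_cases i <;> fin_cases j <;> simp [Matrix.mul_apply, Fin.sum_univ_two]
  rw [h, JA_mul_left _ _ (det_matB_pos p b)]

/-- Every `j ∘ A`, `det A = p` prime, is one of the roots. -/
theorem exists_mem_rootSet (hp : p.Prime) (A : Matrix (Fin 2) (Fin 2) ℤ) (hA : A.det = p) :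
    ∃ r ∈ rootSet p, ((r : Atil p) : Hol) = JA A := by
  have hA0 : 0 < A.det := by rw [hA]; exact_mod_cast p_pos p
  obtain ⟨δ, a, d, b, ha, hd, had, rfl⟩ := hermite_general A hA0
  have hupper : 0 < (!![(a : ℤ), b; 0, (d : ℤ)]).det := det_upper_pos a d b ha hd
  rw [JA_mul_left δ _ hupper]
  have had' : a * d = p := by
    have : ((a * d : ℕ) : ℤ) = (p : ℤ) := by
      rw [← hA, ← had]; push_cast; ring
    exact_mod_cast this
  rcases (Nat.dvd_prime hp).mp ⟨d, had'.symm⟩ with h1 | h1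
  · -- a = 1, d = p
    subst h1
    rw [one_mul] at had'
    subst had'
    refine ⟨rootB d ((b % (d : ℤ)).toNat : ℤ), ?_, ?_⟩
    · rw [rootSet]
      refine Multiset.mem_cons_of_mem (Multiset.mem_map.mpr ⟨(b % (d : ℤ)).toNat, ?_, rfl⟩)
      rw [Multiset.mem_range]
      have hd0 : (0 : ℤ) < d := by exact_mod_cast hd
      have h1 := Int.emod_lt_of_pos b hd0
      have h2 := Int.emod_nonneg b hd0.ne'
      omega
    · show JA (matB d _) = _
      have hd0 : (0 : ℤ) < d := by exact_mod_cast hd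
      have h2 := Int.emod_nonneg b hd0.ne'
      rw [Int.toNat_of_nonneg h2]
      have h3 : b = b % (d : ℤ) + (b / (d : ℤ)) * d := by
        have := Int.emod_add_mul_ediv b d
        linarith [mul_comm (d : ℤ) (b / d)]
      have h4 : (!![((1 : ℕ) : ℤ), b; 0, (d : ℤ)]) = matB d b := by
        rw [matB]; simp
      rw [h4]
      conv_rhs => rw [h3]
      rw [JA_shift_B]
  · -- a = p, d = 1
    subst h1
    have hd1 : d = 1 := by
      have := Nat.eq_of_mul_eq_mul_left ha (by rw [had', mul_one] : a * d = a * 1)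
      exact this
    subst hd1
    refine ⟨rootInf a, Multiset.mem_cons_self _ _, ?_⟩
    show JA (matInf a) = _
    have h4 : (!![((a : ℕ) : ℤ), b; 0, ((1 : ℕ) : ℤ)]) = !![(a : ℤ), b; 0, 1] := by simp
    rw [h4, JA_shift_inf]

theorem smul_mem_rootSet (hp : p.Prime) (γ : SL(2, ℤ)) (r : Atil p) (hr : r ∈ rootSet p) :
    γ • r ∈ rootSet p := by
  have key : ∀ A : Matrix (Fin 2) (Fin 2) ℤ, A.det = p → ∀ r : Atil p, (r : Hol) = JA A →
      γ • r ∈ rootSet p := by
    intro A hA r hr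
    have hA0 : 0 < A.det := by rw [hA]; exact_mod_cast p_pos p
    have hdet : (A * (γ⁻¹ : SL(2, ℤ)).1).det = p := by
      rw [Matrix.det_mul, (γ⁻¹ : SL(2, ℤ)).2, mul_one, hA]
    obtain ⟨r', hr', e⟩ := exists_mem_rootSet p hp _ hdet
    have : γ • r = r' := by
      apply Subtype.ext
      show γ • (r : Hol) = (r' : Hol)
      rw [hr, smul_JA γ A hA0, e]
    rw [this]
    exact hr'
  rw [rootSet, Multiset.mem_cons, Multiset.mem_map] at hr
  rcases hr with rfl | ⟨b, -, rfl⟩
  · exact key (matInf p) (det_matInf p) _ rfl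
  · exact key (matB p b) (det_matB p b) _ rfl

/-! ## The roots are distinct -/

theorem jBar_coeff_neg_one : _root_.Fermat.Agent.S24.jBar.coeff (-1 : ℤ) = 1 := by
  rw [_root_.Fermat.Agent.S24.jBar, coeffEmb_coeff, coeff_jq_neg_one, map_one]

theorem jBar_coeff_of_lt {k : ℤ} (hk : k < -1) : _root_.Fermat.Agent.S24.jBar.coeff k = 0 := by
  rw [_root_.Fermat.Agent.S24.jBar, coeffEmb_coeff, coeff_jq_of_lt hk, map_zero]

theorem uExp_rootB_coeff_neg_one (b : ℤ) :
    (uExp p (rootB p b)).coeff (-1 : ℤ) = (zetaK p ^ b)⁻¹ := by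
  rw [uExp_rootB, twist_coeff, jBar_coeff_neg_one, mul_one, zpow_neg_one]

theorem uExp_rootInf_coeff_neg_one (hp : 2 ≤ p) : (uExp p (rootInf p)).coeff (-1 : ℤ) = 0 := by
  haveI : NeZero (p * p) := ⟨Nat.mul_ne_zero (NeZero.ne p) (NeZero.ne p)⟩
  rw [uExp_rootInf]
  apply qExpand_coeff_of_not_dvd
  intro h
  have h2 : ((p * p : ℕ) : ℤ) ∣ 1 := (dvd_neg).mp h
  have h3 := Int.le_of_dvd one_pos h2
  have : 4 ≤ p * p := by nlinarith
  have : (4 : ℤ) ≤ ((p * p : ℕ) : ℤ) := by exact_mod_cast this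
  omega

theorem nodup_rootSet (hp : p.Prime) : (rootSet p).Nodup := by
  rw [rootSet, Multiset.nodup_cons]
  constructor
  · intro h
    obtain ⟨b, -, hb⟩ := Multiset.mem_map.mp h
    have h1 := congrArg (fun r => (uExp p r).coeff (-1 : ℤ)) hb
    simp only [uExp_rootB_coeff_neg_one, uExp_rootInf_coeff_neg_one p hp.two_le] at h1
    exact inv_ne_zero (zpow_ne_zero _ (zetaK_ne_zero p)) h1
  · refine Multiset.Nodup.map_on ?_ (Multiset.nodup_range p)
    intro b hb b' hb' h
    rw [Multiset.mem_range] at hb hb'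
    have h1 := congrArg (fun r => (uExp p r).coeff (-1 : ℤ)) h
    simp only [uExp_rootB_coeff_neg_one, inv_inj, zpow_natCast] at h1
    exact (isPrimitiveRoot_zetaK p).pow_inj hb hb' h1

/-- `SL(2, ℤ)` permutes the roots. -/
theorem map_smul_rootSet (hp : p.Prime) (γ : SL(2, ℤ)) :
    (rootSet p).map (fun r => γ • r) = rootSet p := by
  have hinj : Function.Injective (fun r : Atil p => γ • r) := MulAction.injective γ
  have hnd : ((rootSet p).map (fun r => γ • r)).Nodup := (nodup_rootSet p hp).map hinj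
  apply Multiset.eq_of_le_of_card_le
  · rw [Multiset.le_iff_subset hnd]
    intro x hx
    obtain ⟨r, hr, rfl⟩ := Multiset.mem_map.mp hx
    exact smul_mem_rootSet p hp γ r hr
  · rw [Multiset.card_map]

end Fermat.Agent.S15.H23

end
end
-- ==== END Fermat.Agent.S15.H23_ModEqRoots

-- ==== BEGIN Fermat.Agent.S15.H63_NewtonDefs
section

set_option autoImplicit false
set_option synthInstance.maxHeartbeats 400000

noncomputable section

open AlgebraicCurve ModularCurve

namespace Fermat.Agent.S15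

/-- The value at `(x, y)` of `X^(p+1) + Y^(p+1) - X^p Y^p + Σ_{i,k ≤ p} c_ik X^i Y^k`. -/
def modEqVal {K R : Type*} [CommRing K] [CommRing R] [Algebra K R] (p : ℕ) (c : ℕ → ℕ → K)
    (x y : R) : R :=
  x ^ (p + 1) + y ^ (p + 1) - x ^ p * y ^ p +
    ∑ i ∈ Finset.range (p + 1), ∑ k ∈ Finset.range (p + 1),
      algebraMap K R (c i k) * x ^ i * y ^ k

/-- The value at `(x, y)` of `∂/∂Y` of `X^(p+1) + Y^(p+1) - X^p Y^p + Σ_{i,k ≤ p} c_ik X^i Y^k`. -/
def modEqDerivY {K : Type*} [CommRing K] (p : ℕ) (c : ℕ → ℕ → K) (x y : K) : K :=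
  (p + 1 : ℕ) * y ^ p - (p : ℕ) * x ^ p * y ^ (p - 1) +
    ∑ i ∈ Finset.range (p + 1), ∑ k ∈ Finset.range (p + 1),
      c i k * x ^ i * ((k : ℕ) * y ^ (k - 1))

/-- `c` is the coefficient system of the modular equation of level `p`. -/
structure IsModEq (p : ℕ) [NeZero p] (c : ℕ → ℕ → Qb) : Prop where
  integral : ∀ i k, IsIntegral ℤ (c i k)
  top : c p p = 0
  rel : modEqVal p c (jBar p) (jBarN p) = 0

/-- (MODEQ) the modular equation of prime level `p` exists, with integral coefficients.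
[`Φ_p(j, Y) = ∏_A (Y - j∘A)` over the `p + 1` classes `A = (p 0; 0 1), (1 b; 0 p)`; the
coefficients are `SL₂(ℤ)`-invariant, hence polynomials in `j` (S24 `lemmaJ`); their `u`-expansions
have coefficients in `ℤ[ζ_p]` and pole order `≤ p + (m-1)/p`, resp. exactly `p + 1` with leading
coefficient `1` for the norm, and `-e₁ = -j^p + …`.] -/
def Stmt_modEq : Prop :=
  ∀ (p : ℕ) [NeZero p], p.Prime → ∃ c : ℕ → ℕ → Qb, IsModEq p c

/-- (NEWTON-VAL a) the dichotomy, for any valuation. -/
def Stmt_newtonVal_dich : Prop :=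
  ∀ (K : Type) [Field K] (A : ValuationSubring K) (p : ℕ), 1 ≤ p → ∀ (c : ℕ → ℕ → K),
    (∀ i k, A.valuation (c i k) ≤ 1) → c p p = 0 → ∀ b a : K, modEqVal p c b a = 0 →
    1 < A.valuation a →
      A.valuation b ^ p = A.valuation a ∨ A.valuation b = A.valuation a ^ p

/-- (NEWTON-VAL b) on the branch `|a| = |b|^p` the point `(b, a)` is a simple root in `Y`. -/
def Stmt_newtonVal_simple : Prop :=
  ∀ (K : Type) [Field K] (A : ValuationSubring K) (p : ℕ), 2 ≤ p → ∀ (c : ℕ → ℕ → K),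
    (∀ i k, A.valuation (c i k) ≤ 1) → c p p = 0 → ∀ b a : K, modEqVal p c b a = 0 →
    1 < A.valuation a → A.valuation b ^ p = A.valuation a → modEqDerivY p c b a ≠ 0

/-- (PLACE-UNIQ) a simple point of a plane model carries at most one place. -/
def Stmt_placeUniq : Prop :=
  ∀ (K F : Type) [Field K] [Field F] [Algebra K F] (X Y : F),
    IntermediateField.adjoin K ({X, Y} : Set F) = ⊤ →
  ∀ (p : ℕ) (c : ℕ → ℕ → K), modEqVal p c X Y = 0 →
  ∀ b a : K, modEqDerivY p c b a ≠ 0 →
  ∀ x y : Place K F, 0 < x.ord (X - algebraMap K F b) → 0 < x.ord (Y - algebraMap K F a) →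
    0 < y.ord (X - algebraMap K F b) → 0 < y.ord (Y - algebraMap K F a) → x = y

end Fermat.Agent.S15

end
end
-- ==== END Fermat.Agent.S15.H63_NewtonDefs

-- ==== BEGIN Fermat.Agent.S17.W2.H18_GeoDefs
section

/-!
# S17-W2, package GEO: interfaces (helper18)

Abstract layer: `K → Ω` fields of characteristic `0` (`K` NOT algebraically closed in general),
`E = FNL K N = K(X₀(N))`, `F = FNL Ω N = Ω(X₀(N))`, `bc : E → F` the coefficientwise base change.
A place `P` of `F` is *generic over `K`* when its `j`-value `t` is transcendental over `K`.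

* `IsEv N P φ`: the ring homomorphism `φ : E → Ω` is "evaluation at `P`": `bc e - φ e` vanishes at `P`.
* `Stmt_E12`: every generic place has an evaluation homomorphism (E1 + E2).
* `Stmt_E4`: a generic place is determined by its evaluation homomorphism (counting).
-/

set_option autoImplicit false

noncomputable section

namespace Fermat.Agent.S17.W2.H18

open AlgebraicCurve IntermediateField ModularCurve Fermat.Agent.GTor Fermat.Agent.RED

variable (K Ω : Type) [Field K] [Field Ω] [Algebra ℚ K] [Algebra ℚ Ω] [Algebra K Ω] (N : ℕ)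

/-- Base change `K(X₀(N)) → Ω(X₀(N))`, coefficientwise on `q`-expansions. -/
abbrev bc : FNL K N →+* FNL Ω N := H75.bcHom (algebraMap K Ω) (modularFunctionFieldFull N)

variable {K Ω}

/-- `P` is a zero of `j - t`. -/
def ZeroAt [NeZero N] (P : Place Ω (FNL Ω N)) (t : Ω) : Prop :=
  0 < P.ord (H33.jL Ω N - algebraMap Ω (FNL Ω N) t)

/-- `φ` is the evaluation at `P` on the functions defined over `K`. -/
def IsEv (P : Place Ω (FNL Ω N)) (φ : FNL K N →+* Ω) : Prop :=
  ∀ e : FNL K N, H17.VanAt P (bc K Ω N e - algebraMap Ω (FNL Ω N) (φ e))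

variable (K Ω)

/-- **G-b**: `K(X₀(N))` is algebraic over `K(j)`. -/
def Stmt_Gb [NeZero N] : Prop :=
  ∀ e : FNL K N, IsAlgebraic K⟮H33.jL K N⟯ e

/-- **E1 + E2**: a place with `j`-value transcendental over `K` has an evaluation homomorphism
on `K(X₀(N))`; it is a `K`-algebra homomorphism and maps `j` to `t`. -/
def Stmt_E12 [NeZero N] : Prop :=
  ∀ (P : Place Ω (FNL Ω N)) (t : Ω), ZeroAt N P t → Transcendental K t →
    ∃ φ : FNL K N →+* Ω, IsEv N P φ ∧ φ (H33.jL K N) = t ∧
      ∀ c : K, φ (algebraMap K (FNL K N) c) = algebraMap K Ω c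

/-- **E3**: evaluation is equivariant under the automorphisms of `Ω` fixing `K`. -/
def Stmt_E3 : Prop :=
  ∀ (P : Place Ω (FNL Ω N)) (φ : FNL K N →+* Ω) (τ : Ω ≃ₐ[ℚ] Ω),
    (∀ c : K, τ (algebraMap K Ω c) = algebraMap K Ω c) → IsEv N P φ →
    IsEv N (arithmeticGalois (modularFunctionFieldFull N) τ • P) ((τ : Ω →+* Ω).comp φ)

/-- **E4** (counting): two zeros of `j - t`, `t` transcendental over `K`, with the same
evaluation homomorphism on `K(X₀(N))` are equal. -/
def Stmt_E4 [NeZero N] : Prop :=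
  ∀ (P Q : Place Ω (FNL Ω N)) (t : Ω), ZeroAt N P t → ZeroAt N Q t → Transcendental K t →
    ∀ φ : FNL K N →+* Ω, IsEv N P φ → IsEv N Q φ → P = Q

end Fermat.Agent.S17.W2.H18

end
end
-- ==== END Fermat.Agent.S17.W2.H18_GeoDefs

-- ==== BEGIN Fermat.Agent.S17.W2.H41_FT45
section

/-!
# S17, package W2: field-theory leaves FT4 and FT5 (helper41)

* `H41.stmt_FT4 : Stmt_FT4 k Ω` (transcendence degree count);
* `H41.stmt_FT5 : Stmt_FT5 k Ω` (independence over an enlarged base).
-/

set_option autoImplicit false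

noncomputable section

namespace Fermat.Agent.S17.W2.H41

open IntermediateField Polynomial

/-- Transfer of algebraicity along a containment of images of the base rings. -/
theorem isAlgebraic_of_forall_exists {A B Ω : Type*} [CommRing A] [CommRing B] [Field Ω]
    [Algebra A Ω] [Algebra B Ω] (hA : Function.Injective (algebraMap A Ω))
    (h : ∀ a : A, ∃ b : B, algebraMap B Ω b = algebraMap A Ω a) {x : Ω}
    (hx : IsAlgebraic A x) : IsAlgebraic B x := by
  classical
  choose f hf using h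
  obtain ⟨p, hp, hpx⟩ := hx
  set q : B[X] := ∑ i ∈ p.support, monomial i (f (p.coeff i)) with hq
  have hmap : q.map (algebraMap B Ω) = p.map (algebraMap A Ω) := by
    rw [hq, Polynomial.map_sum]
    conv_rhs => rw [p.as_sum_support, Polynomial.map_sum]
    refine Finset.sum_congr rfl fun i _ => ?_
    rw [Polynomial.map_monomial, Polynomial.map_monomial, hf]
  refine ⟨q, ?_, ?_⟩
  · intro h0
    apply hp
    have : p.map (algebraMap A Ω) = 0 := by rw [← hmap, h0, Polynomial.map_zero]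
    exact (Polynomial.map_eq_zero_iff hA).1 this
  · rw [Polynomial.aeval_def, ← Polynomial.eval_map, hmap, Polynomial.eval_map,
      ← Polynomial.aeval_def, hpx]

variable {k Ω : Type} [Field k] [Field Ω] [Algebra k Ω]

/-- Elements of `k(s ∪ u)` lie in `k(s)(u)`. -/
theorem mem_adjoin_adjoin_of_mem_adjoin_union (s u : Set Ω) {x : Ω}
    (hx : x ∈ IntermediateField.adjoin k (s ∪ u)) :
    x ∈ IntermediateField.adjoin (IntermediateField.adjoin k s) u := by
  have hle : IntermediateField.adjoin k (s ∪ u) ≤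
      (IntermediateField.adjoin (IntermediateField.adjoin k s) u).restrictScalars k := by
    rw [IntermediateField.adjoin_le_iff]
    rintro y (hy | hy)
    · exact (IntermediateField.adjoin (IntermediateField.adjoin k s) u).algebraMap_mem
        (⟨y, IntermediateField.subset_adjoin k s hy⟩ : IntermediateField.adjoin k s)
    · exact IntermediateField.subset_adjoin (IntermediateField.adjoin k s) u hy
  exact hle hx

/-- Algebraicity over `k(s ∪ u)` gives algebraicity over the `k(s)`-algebra generated by `u`. -/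
theorem isAlgebraic_algebraAdjoin_of_union (s u : Set Ω) {x : Ω}
    (hx : IsAlgebraic (IntermediateField.adjoin k (s ∪ u)) x) :
    IsAlgebraic (Algebra.adjoin (IntermediateField.adjoin k s) u) x := by
  have h1 : IsAlgebraic (IntermediateField.adjoin (IntermediateField.adjoin k s) u) x := by
    refine isAlgebraic_of_forall_exists (A := IntermediateField.adjoin k (s ∪ u))
      (algebraMap (IntermediateField.adjoin k (s ∪ u)) Ω).injective (fun a => ?_) hx
    exact ⟨⟨a.1, mem_adjoin_adjoin_of_mem_adjoin_union s u a.2⟩, rfl⟩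
  exact (IntermediateField.isAlgebraic_adjoin_iff).1 h1

/-- **FT4** (transcendence degree count). -/
theorem stmt_FT4 (k Ω : Type) [Field k] [Field Ω] [Algebra k Ω] : Stmt_FT4 k Ω := by
  classical
  intro s g r t q hrg ht halg
  set K := IntermediateField.adjoin k s with hK
  set M := AlgebraicIndependent.matroid K Ω with hM
  have hInd : M.Indep (Set.range t) :=
    AlgebraicIndependent.matroid_indep_iff.2 ht.to_subtype_range
  have hsub : Set.range t ⊆ M.closure (Set.range q) := by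
    rintro _ ⟨i, rfl⟩
    rw [hM, AlgebraicIndependent.matroid_closure_eq]
    exact (Subalgebra.mem_algebraicClosure _ _).2
      (isAlgebraic_algebraAdjoin_of_union s (Set.range q) (halg i))
  have h1 : (Set.range t).encard ≤ M.eRk (Set.range q) := by
    have := hInd.encard_le_eRk_of_subset hsub
    rwa [Matroid.eRk_closure_eq] at this
  have h2 : M.eRk (Set.range q) ≤ (Set.range q).encard := M.eRk_le_encard _
  have h3 : (Set.range q).encard ≤ r := by
    rw [← Set.image_univ]
    refine (Set.encard_image_le q Set.univ).trans ?_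
    rw [Set.encard_univ]
    simp
  have h4 : (Set.range t).encard = g := by
    rw [← Set.image_univ, ht.injective.encard_image, Set.encard_univ]
    simp
  have hgr : (g : ℕ∞) ≤ r := by
    rw [← h4]
    exact h1.trans (h2.trans h3)
  have hgr' : g ≤ r := by exact_mod_cast hgr
  have hrg' : r = g := le_antisymm hrg hgr'
  subst hrg'
  refine ⟨rfl, ?_⟩
  have h5 : (Set.range q).encard = r := le_antisymm h3 (by rw [← h4]; exact h1.trans h2)
  have h6 : M.eRk (Set.range q) = (Set.range q).encard :=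
    le_antisymm h2 (by rw [h5, ← h4]; exact h1)
  have hqInd : M.Indep (Set.range q) :=
    (Matroid.indep_iff_eRk_eq_encard_of_finite (Set.finite_range q)).2 h6
  have hqinj : Function.Injective q := by
    have hfin : (Set.univ : Set (Fin r)).Finite := Set.finite_univ
    have := hfin.injOn_of_encard_image_eq (f := q) (by
      rw [Set.image_univ, h5, Set.encard_univ]; simp)
    exact Set.injOn_univ.1 this
  exact (algebraicIndependent_subtype_range hqinj).1
    (AlgebraicIndependent.matroid_indep_iff.1 hqInd)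

/-- Elements of `k(s ∪ u ∪ T)` are algebraic over `k(s)(u)` when the elements of `T` are
algebraic over `k(s ∪ u)`. -/
theorem isAlgebraic_adjoin_adjoin_of_mem (s u T : Set Ω)
    (hT : ∀ c ∈ T, IsAlgebraic (IntermediateField.adjoin k (s ∪ u)) c) {x : Ω}
    (hx : x ∈ IntermediateField.adjoin k (s ∪ u ∪ T)) :
    IsAlgebraic (IntermediateField.adjoin (IntermediateField.adjoin k s) u) x := by
  induction hx using IntermediateField.adjoin_induction with
  | mem y hy =>
    rcases hy with hy | hy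
    · have hy' := mem_adjoin_adjoin_of_mem_adjoin_union s u
        (IntermediateField.subset_adjoin k _ hy)
      exact isAlgebraic_algebraMap
        (⟨y, hy'⟩ : IntermediateField.adjoin (IntermediateField.adjoin k s) u)
    · exact isAlgebraic_of_forall_exists (A := IntermediateField.adjoin k (s ∪ u))
        (algebraMap (IntermediateField.adjoin k (s ∪ u)) Ω).injective
        (fun c => ⟨⟨c.1, mem_adjoin_adjoin_of_mem_adjoin_union s u c.2⟩, rfl⟩) (hT y hy)
  | algebraMap c =>
    have h1 : algebraMap k Ω c ∈ IntermediateField.adjoin k s :=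
      (IntermediateField.adjoin k s).algebraMap_mem c
    have h2 : algebraMap k Ω c ∈ IntermediateField.adjoin (IntermediateField.adjoin k s) u :=
      (IntermediateField.adjoin (IntermediateField.adjoin k s) u).algebraMap_mem
        (⟨_, h1⟩ : IntermediateField.adjoin k s)
    exact isAlgebraic_algebraMap
      (⟨_, h2⟩ : IntermediateField.adjoin (IntermediateField.adjoin k s) u)
  | add x y hx hy ihx ihy => exact ihx.add ihy
  | inv x hx ih => exact ih.inv
  | mul x y hx hy ihx ihy => exact ihx.mul ihy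

/-- **FT5** (independence over an enlarged base). -/
theorem stmt_FT5 (k Ω : Type) [Field k] [Field Ω] [Algebra k Ω] : Stmt_FT5 k Ω := by
  classical
  intro s ι ι' a b hsum T hT
  have hswap : AlgebraicIndependent (IntermediateField.adjoin k s) (Sum.elim b a) :=
    (algebraicIndependent_equiv' (Equiv.sumComm ι' ι) (f := Sum.elim a b) (g := Sum.elim b a)
      (by ext (_ | _) <;> rfl)).2 hsum
  have hb : AlgebraicIndependent (Algebra.adjoin (IntermediateField.adjoin k s) (Set.range a)) b :=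
    (AlgebraicIndependent.sumElim_iff.1 hswap).2
  have hb1 : AlgebraicIndependent
      (IntermediateField.adjoin (IntermediateField.adjoin k s) (Set.range a)) b :=
    IntermediateField.algebraicIndependent_adjoin_iff.2 hb
  have hb2 : AlgebraicIndependent
      (algebraicClosure (IntermediateField.adjoin (IntermediateField.adjoin k s) (Set.range a)) Ω)
      b := hb1.algebraicClosure
  let f : IntermediateField.adjoin k (s ∪ Set.range a ∪ T) →+*
      algebraicClosure (IntermediateField.adjoin (IntermediateField.adjoin k s) (Set.range a)) Ω :=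
    { toFun := fun x => ⟨x.1, mem_algebraicClosure_iff.2
        (isAlgebraic_adjoin_adjoin_of_mem s (Set.range a) T hT x.2)⟩
      map_one' := rfl
      map_mul' := fun _ _ => rfl
      map_zero' := rfl
      map_add' := fun _ _ => rfl }
  refine AlgebraicIndependent.of_ringHom_of_comp_eq (x := b) f (RingHom.id Ω) hb2
    (fun x y h => Subtype.ext (congrArg (fun z => z.1) h)) (RingHom.ext fun x => rfl)

/-- Elements of the `k(s)`-algebra generated by `u` lie in `k(s ∪ u)`. -/
theorem mem_adjoin_union_of_mem_algebraAdjoin (s u : Set Ω) {x : Ω}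
    (hx : x ∈ Algebra.adjoin (IntermediateField.adjoin k s) u) :
    x ∈ IntermediateField.adjoin k (s ∪ u) := by
  induction hx using Algebra.adjoin_induction with
  | mem y hy => exact IntermediateField.subset_adjoin k _ (Or.inr hy)
  | algebraMap c =>
    exact IntermediateField.adjoin.mono k s (s ∪ u) Set.subset_union_left c.2
  | add x y hx hy ihx ihy => exact add_mem ihx ihy
  | mul x y hx hy ihx ihy => exact mul_mem ihx ihy

/-- **FT6** (existence of independent families). -/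
theorem stmt_FT6 (k Ω : Type) [Field k] [Field Ω] [Algebra k Ω] : Stmt_FT6 k Ω := by
  classical
  intro hBig s hs g
  induction g with
  | zero => exact ⟨Fin.elim0, algebraicIndependent_empty_type⟩
  | succ g ih =>
    obtain ⟨t, ht⟩ := ih
    obtain ⟨x, hx⟩ := hBig (s ∪ Set.range t) (hs.union (Set.finite_range t))
    have hx' : Transcendental (Algebra.adjoin (IntermediateField.adjoin k s) (Set.range t)) x := by
      intro halg
      apply hx
      exact isAlgebraic_of_forall_exists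
        (A := Algebra.adjoin (IntermediateField.adjoin k s) (Set.range t))
        Subtype.val_injective
        (fun c => ⟨⟨c.1, mem_adjoin_union_of_mem_algebraAdjoin s (Set.range t) c.2⟩, rfl⟩) halg
    have h2 : AlgebraicIndependent (IntermediateField.adjoin k s)
        (fun o : Option (Fin g) => o.elim x t) := (ht.option_iff_transcendental x).2 hx'
    refine ⟨fun i => (finSuccEquiv g i).elim x t, ?_⟩
    exact (algebraicIndependent_equiv' (finSuccEquiv g)
      (f := fun o : Option (Fin g) => o.elim x t) rfl).2 h2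

end Fermat.Agent.S17.W2.H41

end
end
-- ==== END Fermat.Agent.S17.W2.H41_FT45

-- ==== BEGIN Fermat.Agent.S17.W2.H56_Ext
section

set_option autoImplicit false
set_option linter.style.haveILetI false

noncomputable section

namespace Fermat.Agent.S17.W2.H56

open Algebra IntermediateField

/-- Two algebraically closed fields with transcendence bases `v`, `w` over a field `R` and a
bijection `e` of the index sets: there is an `R`-isomorphism `σ` with `σ (v i) = w (e i)`. -/
theorem exists_algEquiv_of_transcendenceBasis {R K L : Type} [Field R] [Field K] [Field L]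
    [Algebra R K] [Algebra R L] [IsAlgClosed K] [IsAlgClosed L] {ι κ : Type} (v : ι → K)
    (w : κ → L) (hv : IsTranscendenceBasis R v) (hw : IsTranscendenceBasis R w) (e : ι ≃ κ) :
    ∃ σ : K ≃ₐ[R] L, ∀ i, σ (v i) = w (e i) := by
  classical
  haveI := IsAlgClosed.isAlgClosure_of_transcendence_basis v hv
  haveI := IsAlgClosed.isAlgClosure_of_transcendence_basis w hw
  let eA : Algebra.adjoin R (Set.range v) ≃ₐ[R] Algebra.adjoin R (Set.range w) :=
    hv.1.aevalEquiv.symm.trans ((MvPolynomial.renameEquiv R e).trans hw.1.aevalEquiv)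
  let σ : K ≃+* L := IsAlgClosure.equivOfEquiv K L eA.toRingEquiv
  have hσ : ∀ a : Algebra.adjoin R (Set.range v),
      σ (algebraMap _ K a) = algebraMap _ L (eA a) := fun a =>
    IsAlgClosure.equivOfEquiv_algebraMap K L eA.toRingEquiv a
  have hk : ∀ c : R, σ (algebraMap R K c) = algebraMap R L c := by
    intro c
    have h1 : algebraMap R K c
        = algebraMap (Algebra.adjoin R (Set.range v)) K (algebraMap R _ c) := rfl
    have h2 : algebraMap R L c
        = algebraMap (Algebra.adjoin R (Set.range w)) L (algebraMap R _ c) := rfl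
    rw [h1, hσ, AlgEquiv.commutes, ← h2]
  refine ⟨AlgEquiv.ofRingEquiv (f := σ) hk, fun i => ?_⟩
  have hvi : v i = algebraMap (Algebra.adjoin R (Set.range v)) K
      (hv.1.aevalEquiv (MvPolynomial.X i)) := by
    simp [AlgebraicIndependent.aevalEquiv]
  have hvei : w (e i) = algebraMap (Algebra.adjoin R (Set.range w)) L
      (hw.1.aevalEquiv (MvPolynomial.X (e i))) := by
    simp [AlgebraicIndependent.aevalEquiv]
  show σ (v i) = w (e i)
  rw [hvi, hσ, hvei]
  congr 1
  simp [eA]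

variable {k Ω : Type} [Field k] [Field Ω] [Algebra k Ω]

/-- Algebraicity over `k(s)(B)` gives algebraicity over `k(s ∪ B)`. -/
lemma isAlgebraic_adjoin_union (s B : Set Ω) {x : Ω}
    (h : IsAlgebraic (IntermediateField.adjoin (IntermediateField.adjoin k s) B) x) :
    IsAlgebraic (IntermediateField.adjoin k (s ∪ B)) x := by
  have hle : ∀ y ∈ IntermediateField.adjoin (IntermediateField.adjoin k s) B,
      y ∈ IntermediateField.adjoin k (s ∪ B) := by
    intro y hy
    rw [← IntermediateField.adjoin_adjoin_left k s B]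
    exact hy
  let f : IntermediateField.adjoin (IntermediateField.adjoin k s) B →+*
      IntermediateField.adjoin k (s ∪ B) :=
    { toFun := fun y => ⟨y, hle y y.2⟩
      map_one' := rfl
      map_mul' := fun _ _ => rfl
      map_zero' := rfl
      map_add' := fun _ _ => rfl }
  have := h.ringHom_of_comp_eq f (RingHom.id Ω)
    (fun a b hab => Subtype.ext (congrArg (fun z : IntermediateField.adjoin k (s ∪ B) =>
      (z : Ω)) hab)) (by ext; rfl)
  simpa using this

/-- Under `Big`, every transcendence basis of `Ω` over `k(s)`, `s` finite, is infinite. -/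
theorem infinite_of_big (hbig : Big k Ω) (s : Set Ω) (hs : s.Finite) (B : Set Ω)
    (hB : IsTranscendenceBasis (IntermediateField.adjoin k s) ((↑) : B → Ω)) : B.Infinite := by
  intro hfin
  obtain ⟨x, hx⟩ := hbig (s ∪ B) (hs.union hfin)
  apply hx
  apply isAlgebraic_adjoin_union
  have := hB.isAlgebraic_field
  rw [Subtype.range_coe] at this
  exact this.isAlgebraic x

end Fermat.Agent.S17.W2.H56

end
end
-- ==== END Fermat.Agent.S17.W2.H56_Ext

-- ==== BEGIN Fermat.Agent.S17.W2.H75_ADiv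
section

/-!
# S17-W2, leaf A (helper75): divisor bookkeeping of the descent of `n`-divisibility

Abstract form: `β : F₁ → F₂` a homomorphism of function fields over `k → K`, every place `v` of
`F₁` has an extension `wOf v` with `ord_{wOf v} (β g) = ord_v g`, all places have degree one.
If every `φ ∈ F₂^×` with `div φ = -n E + β_* D₀` is of the form `β(φ₀) hⁿ`, then `n`-divisibility
of `Pic⁰(F₂)` implies `n`-divisibility of `Pic⁰(F₁)`.
-/

set_option autoImplicit false
set_option linter.style.haveILetI false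
set_option linter.unusedSectionVars false

noncomputable section

namespace Fermat.Agent.S17.W2.H75

open AlgebraicCurve

section Abstract

variable {k K F₁ F₂ : Type*} [Field k] [Field K] [Field F₁] [Field F₂] [Algebra k F₁]
  [Algebra K F₂]

theorem degree_mapDomain (wOf : Place k F₁ → Place K F₂)
    (hdeg₁ : ∀ v : Place k F₁, v.deg = 1) (hdeg₂ : ∀ w : Place K F₂, w.deg = 1)
    (D : Divisor k F₁) :
    Divisor.degree (Finsupp.mapDomain wOf D : Divisor K F₂) = Divisor.degree D := by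
  classical
  induction D using Finsupp.induction_linear with
  | zero => simp
  | add D E hD hE => rw [Finsupp.mapDomain_add, map_add, map_add, hD, hE]
  | single v a =>
    rw [Finsupp.mapDomain_single, Divisor.degree_single, Divisor.degree_single, hdeg₁, hdeg₂]

theorem ord_pow' (w : Place K F₂) (f : F₂) (n : ℕ) : w.ord (f ^ n) = n * w.ord f := by
  have := w.ord_zpow f (n : ℤ)
  rwa [zpow_natCast] at this

variable (β : F₁ →+* F₂) (n : ℕ) (hn : n ≠ 0) (wOf : Place k F₁ → Place K F₂)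
  (hwOf : ∀ (v : Place k F₁) (g : F₁), (wOf v).ord (β g) = v.ord g)
  (hdeg₁ : ∀ v : Place k F₁, v.deg = 1) (hdeg₂ : ∀ w : Place K F₂, w.deg = 1)
  [HasPrincipalDivisors k F₁]

include hwOf in
theorem wOf_injective : Function.Injective wOf := by
  intro v v' h
  apply place_ext_of_ord
  intro g
  rw [← hwOf v g, ← hwOf v' g, h]

include hn hwOf hdeg₁ hdeg₂ in
theorem divisible_of_descent
    (hdesc : ∀ (D₀ : Divisor k F₁) (E : Divisor K F₂) (φ : F₂), φ ≠ 0 →
      (∀ w : Place K F₂, w.ord φ = -((n : ℤ) * E w) + (Finsupp.mapDomain wOf D₀ : Divisor K F₂) w) →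
      ∃ (φ₀ : F₁) (h : F₂), φ₀ ≠ 0 ∧ h ≠ 0 ∧ φ = β φ₀ * h ^ n)
    (hdiv : ∀ z : Pic0 K F₂, ∃ y : Pic0 K F₂, n • y = z) :
    ∀ x : Pic0 k F₁, ∃ y : Pic0 k F₁, n • y = x := by
  classical
  intro x
  obtain ⟨D₀', rfl⟩ := Pic0.mk_surjective x
  set D₀ : Divisor k F₁ := (D₀' : Divisor k F₁) with hD₀
  have hD₀deg : Divisor.degree D₀ = 0 := D₀'.2
  set B : Divisor K F₂ := Finsupp.mapDomain wOf D₀ with hB
  have hBdeg : Divisor.degree B = 0 := by
    rw [hB, degree_mapDomain wOf hdeg₁ hdeg₂, hD₀deg]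
  obtain ⟨y, hy⟩ := hdiv (Pic0.mk ⟨B, hBdeg⟩)
  obtain ⟨E', rfl⟩ := Pic0.mk_surjective y
  have hmem : -(n • E') + ⟨B, hBdeg⟩ ∈
      (Divisor.principal (K := K) (F := F₂)).addSubgroupOf (Divisor.degZero (K := K) (F := F₂)) :=
    QuotientAddGroup.eq.mp hy
  rw [AddSubgroup.mem_addSubgroupOf] at hmem
  obtain ⟨φ, hφ0, hφ⟩ := hmem
  set E : Divisor K F₂ := (E' : Divisor K F₂) with hE
  have hφ' : ∀ w : Place K F₂, w.ord φ = -((n : ℤ) * E w) + B w := by
    intro w
    rw [← hφ w]
    simp only [AddSubgroup.coe_add, AddSubgroup.coe_neg, AddSubgroup.coe_nsmul,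
      Finsupp.add_apply, Finsupp.neg_apply, Finsupp.smul_apply, nsmul_eq_mul]
    rfl
  obtain ⟨φ₀, h, hφ₀, hh, hfac⟩ := hdesc D₀ E φ hφ0 hφ'
  have hinj := wOf_injective β wOf hwOf
  -- orders of `φ₀`
  have hord : ∀ v : Place k F₁, D₀ v - v.ord φ₀ = (n : ℤ) * (E (wOf v) + (wOf v).ord h) := by
    intro v
    have h1 : (wOf v).ord φ = v.ord φ₀ + n * (wOf v).ord h := by
      rw [hfac, (wOf v).ord_mul ((map_ne_zero β).mpr hφ₀) (pow_ne_zero n hh), hwOf, ord_pow']
    have h2 : B (wOf v) = D₀ v := by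
      rw [hB]
      exact Finsupp.mapDomain_apply hinj D₀ v
    have h3 := hφ' (wOf v)
    rw [h2, h1] at h3
    linarith
  obtain ⟨P, hP, hPdeg⟩ := HasPrincipalDivisors.exists_divisor (K := k) φ₀ hφ₀
  set D₁ : Divisor k F₁ := D₀ - P with hD₁
  have hD₁v : ∀ v, D₁ v = (n : ℤ) * (E (wOf v) + (wOf v).ord h) := by
    intro v
    rw [hD₁, Finsupp.sub_apply, hP v, hord v]
  have hn' : (n : ℤ) ≠ 0 := Nat.cast_ne_zero.mpr hn
  set E₀ : Divisor k F₁ := D₁.mapRange (fun a => a / (n : ℤ)) (by simp) with hE₀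
  have hnE₀ : n • E₀ = D₁ := by
    ext v
    rw [Finsupp.smul_apply, hE₀, Finsupp.mapRange_apply, nsmul_eq_mul, hD₁v v,
      Int.mul_ediv_cancel_left _ hn']
  have hD₁deg : Divisor.degree D₁ = 0 := by
    rw [hD₁, map_sub, hD₀deg, hPdeg, sub_zero]
  have hE₀deg : Divisor.degree E₀ = 0 := by
    have : (n : ℤ) * Divisor.degree E₀ = 0 := by
      rw [← nsmul_eq_mul, ← map_nsmul, hnE₀, hD₁deg]
    exact (mul_eq_zero.mp this).resolve_left hn'
  refine ⟨Pic0.mk ⟨E₀, hE₀deg⟩, ?_⟩
  show (QuotientAddGroup.mk (n • (⟨E₀, hE₀deg⟩ : Divisor.degZero (K := k) (F := F₁))) :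
    Pic0 k F₁) = QuotientAddGroup.mk D₀'
  rw [QuotientAddGroup.eq, AddSubgroup.mem_addSubgroupOf]
  refine ⟨φ₀, hφ₀, fun v => ?_⟩
  simp only [AddSubgroup.coe_add, AddSubgroup.coe_neg, AddSubgroup.coe_nsmul,
    Finsupp.add_apply, Finsupp.neg_apply]
  rw [hnE₀, hD₁, Finsupp.sub_apply, hP v]
  show -(D₀ v - v.ord φ₀) + D₀ v = v.ord φ₀
  ring

end Abstract

end Fermat.Agent.S17.W2.H75

end
end
-- ==== END Fermat.Agent.S17.W2.H75_ADiv

-- ==== BEGIN Fermat.Agent.S17.W2.Orbit
section

/-!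
# S17-W2, CORE part 1: finite orbits (helper8)

`G` acts on a type `X` through `ρ : G →* M` and an action of `M`.  `FinOrb ρ H x` says that the
orbit of `x` under the subgroup `H` is finite.
-/

set_option autoImplicit false

noncomputable section

namespace Fermat.Agent.S17.W2

open AlgebraicCurve

section General

variable {G M X : Type*} [Group G] [Group M] [MulAction M X] (ρ : G →* M)

/-- The orbit of `x` under `H`. -/
def orb (H : Subgroup G) (x : X) : Set X := {y | ∃ σ ∈ H, ρ σ • x = y}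

/-- The orbit of `x` under `H` is finite. -/
def FinOrb (H : Subgroup G) (x : X) : Prop := (orb ρ H x).Finite

theorem mem_orb_self (H : Subgroup G) (x : X) : x ∈ orb ρ H x :=
  ⟨1, H.one_mem, by rw [map_one, one_smul]⟩

theorem smul_mem_orb {H : Subgroup G} {x y : X} (hy : y ∈ orb ρ H x) {σ : G} (hσ : σ ∈ H) :
    ρ σ • y ∈ orb ρ H x := by
  obtain ⟨τ, hτ, rfl⟩ := hy
  exact ⟨σ * τ, H.mul_mem hσ hτ, by rw [map_mul, mul_smul]⟩

theorem FinOrb.mono {H H' : Subgroup G} (h : H' ≤ H) {x : X} (hx : FinOrb ρ H x) :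
    FinOrb ρ H' x :=
  hx.subset fun _ ⟨σ, hσ, e⟩ => ⟨σ, h hσ, e⟩

/-- An element of a finite stable set has a finite orbit. -/
theorem finOrb_of_stable {H : Subgroup G} {T : Set X} (hT : T.Finite)
    (hst : ∀ σ ∈ H, ∀ y ∈ T, ρ σ • y ∈ T) {x : X} (hx : x ∈ T) : FinOrb ρ H x :=
  hT.subset fun _ ⟨σ, hσ, e⟩ => e ▸ hst σ hσ x hx

/-- An element fixed by `H` has a finite orbit. -/
theorem finOrb_of_fixed {H : Subgroup G} {x : X} (h : ∀ σ ∈ H, ρ σ • x = x) : FinOrb ρ H x :=
  finOrb_of_stable ρ (Set.finite_singleton x)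
    (fun σ hσ y hy => by rw [Set.mem_singleton_iff] at hy ⊢; rw [hy, h σ hσ]) rfl

/-- Finite orbits pass along equivariant maps. -/
theorem FinOrb.map {Y : Type*} [MulAction M Y] {H : Subgroup G} {x : X} (hx : FinOrb ρ H x)
    (f : X → Y) (hf : ∀ σ ∈ H, f (ρ σ • x) = ρ σ • f x) : FinOrb ρ H (f x) := by
  refine (hx.image f).subset ?_
  rintro _ ⟨σ, hσ, rfl⟩
  exact ⟨ρ σ • x, ⟨σ, hσ, rfl⟩, hf σ hσ⟩

/-- Finite orbits pull back along equivariant maps with finite fibres over the orbit. -/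
theorem FinOrb.of_finite_fibres {Y : Type*} [MulAction M Y] {H : Subgroup G} {x : X}
    (f : X → Y) (hf : ∀ σ ∈ H, f (ρ σ • x) = ρ σ • f x) (hy : FinOrb ρ H (f x))
    (hfib : ∀ y ∈ orb ρ H (f x), (f ⁻¹' {y}).Finite) : FinOrb ρ H x := by
  have : orb ρ H x ⊆ ⋃ y ∈ orb ρ H (f x), f ⁻¹' {y} := by
    rintro _ ⟨σ, hσ, rfl⟩
    simp only [Set.mem_iUnion, Set.mem_preimage, Set.mem_singleton_iff, exists_prop]
    exact ⟨ρ σ • f x, ⟨σ, hσ, rfl⟩, hf σ hσ⟩
  exact (hy.biUnion hfib).subset this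

/-- Finite orbits pull back along maps which are equivariant and injective on the orbit. -/
theorem FinOrb.of_injOn {Y : Type*} [MulAction M Y] {H : Subgroup G} {x : X}
    (f : X → Y) (hf : ∀ σ ∈ H, f (ρ σ • x) = ρ σ • f x) (hy : FinOrb ρ H (f x))
    (hinj : Set.InjOn f (orb ρ H x)) : FinOrb ρ H x := by
  refine Set.Finite.of_finite_image (hy.subset ?_) hinj
  rintro _ ⟨_, ⟨σ, hσ, rfl⟩, rfl⟩
  exact ⟨σ, hσ, (hf σ hσ).symm⟩

end General

section Additive

variable {G M A : Type*} [Group G] [Group M] [AddCommGroup A] [DistribMulAction M A]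
  (ρ : G →* M)

theorem FinOrb.zero (H : Subgroup G) : FinOrb ρ H (0 : A) :=
  finOrb_of_fixed ρ fun _ _ => smul_zero _

theorem FinOrb.add {H : Subgroup G} {x y : A} (hx : FinOrb ρ H x) (hy : FinOrb ρ H y) :
    FinOrb ρ H (x + y) := by
  refine (Set.Finite.image2 (fun a b => a + b) hx hy).subset ?_
  rintro _ ⟨σ, hσ, rfl⟩
  exact ⟨ρ σ • x, ⟨σ, hσ, rfl⟩, ρ σ • y, ⟨σ, hσ, rfl⟩, (smul_add _ _ _).symm⟩

theorem FinOrb.neg {H : Subgroup G} {x : A} (hx : FinOrb ρ H x) : FinOrb ρ H (-x) :=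
  hx.map ρ (fun a => -a) fun _ _ => (smul_neg _ _).symm

theorem FinOrb.sub {H : Subgroup G} {x y : A} (hx : FinOrb ρ H x) (hy : FinOrb ρ H y) :
    FinOrb ρ H (x - y) := by
  rw [sub_eq_add_neg]
  exact hx.add ρ (hy.neg ρ)

theorem FinOrb.sum {ι : Type*} {H : Subgroup G} (s : Finset ι) (f : ι → A)
    (h : ∀ i ∈ s, FinOrb ρ H (f i)) : FinOrb ρ H (∑ i ∈ s, f i) := by
  classical
  induction s using Finset.induction_on with
  | empty => simpa using FinOrb.zero ρ H
  | insert a s ha ih =>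
    rw [Finset.sum_insert ha]
    exact (h a (Finset.mem_insert_self a s)).add ρ
      (ih fun i hi => h i (Finset.mem_insert_of_mem hi))

/-- If the `n`-torsion is finite, an `n`-th root of an element with finite orbit has a finite
orbit. -/
theorem FinOrb.of_nsmul {H : Subgroup G} {n : ℕ} (htors : {x : A | n • x = 0}.Finite) {u : A}
    (hu : FinOrb ρ H (n • u)) : FinOrb ρ H u := by
  have hcomm : ∀ (m : M) (a : A), m • (n • a) = n • (m • a) := fun m a =>
    map_nsmul (DistribSMul.toAddMonoidHom A m) n a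
  refine FinOrb.of_finite_fibres ρ (fun a : A => n • a) (fun σ _ => (hcomm _ _).symm)
    hu fun y _ => ?_
  · by_cases hne : ((fun a : A => n • a) ⁻¹' {y}).Nonempty
    · obtain ⟨a, ha⟩ := hne
      have ha' : n • a = y := ha
      refine (htors.image (fun b => a + b)).subset ?_
      intro c hc
      have hc' : n • c = y := hc
      refine ⟨c - a, ?_, by simp⟩
      show n • (c - a) = 0
      rw [smul_sub, hc', ha', sub_self]
    · rw [Set.not_nonempty_iff_eq_empty.mp hne]
      exact Set.finite_empty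

end Additive

end Fermat.Agent.S17.W2

end
end
-- ==== END Fermat.Agent.S17.W2.Orbit

-- ==== BEGIN Fermat.Agent.S41.H19_I3
section

/-!
# S41 package I3 (helper19): non-Eisenstein

`Stmt_I3`: if `E[p]` is irreducible then the system `ℓ ↦ a_ℓ(W) mod p` is not Eisenstein:
it is NOT the case that `a_ℓ(W) = 1 + ℓ` in `ZMod p` for all good primes `ℓ ∤ M`, `ℓ ≠ p`.

`stmt_I3_of : Stmt_FD → Stmt_main → Stmt_I3` (Frobenius density, item 61, and trace/determinant of
Frobenius on `E[p]`, item 62).  The unconditional form is in `H19_I3Final.lean`.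

Proof: by items 61 and 62 and `E[p]` finite, every `g ∈ G_ℚ` acts on `E[p]` as a power of a
Frobenius at a good prime, so `tr ρ(g) = 1 + det ρ(g)` for all `g`; then `stable_line`
(elementary linear algebra, valid in every characteristic) gives a Galois-stable line.
-/

set_option autoImplicit false

open WeierstrassCurve WeierstrassCurve.Affine WeierstrassCurve.Affine.Point

namespace Fermat.Agent.S41.H19

/-- I3, non-Eisenstein. -/
def Stmt_I3 : Prop :=
  ∀ (E : WeierstrassCurve ℚ) [E.IsElliptic] (W : WeierstrassCurve ℤ), W.IsIntegralModelOf E →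
    ∀ (p M : ℕ), p.Prime → 0 < M →
    GaloisRepIsIrreducible (K := AlgebraicClosure ℚ) ℚ E p →
    ¬ ∀ ℓ : ℕ, ℓ.Prime → W.IsGoodPrimeFor ℓ → ¬ ℓ ∣ M → ℓ ≠ p →
        ((W.apOfModel ℓ : ℤ) : ZMod p) = 1 + (ℓ : ZMod p)

theorem stmt_I3_of (hFD : Fermat.Agent.R.Stmt_FD) (hmain : Fermat.Agent.Lib.EllFinite.Stmt_main) :
    Stmt_I3 := by
  intro E _ W hW p M hp hM hirr hall
  have : Fact p.Prime := ⟨hp⟩
  obtain ⟨C, hC⟩ := hW
  -- the discriminant
  have hΔ : W.Δ ≠ 0 := by
    have h1 : E.Δ ≠ 0 := E.isUnit_Δ.ne_zero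
    have h2 : (C • E).Δ ≠ 0 := by
      rw [WeierstrassCurve.variableChange_Δ]
      exact mul_ne_zero (pow_ne_zero _ (Units.ne_zero _)) h1
    rw [hC, WeierstrassCurve.map_Δ] at h2
    intro h0
    exact h2 (by rw [h0, _root_.map_zero])
  -- irreducibility for the integral model
  have hirr' : GaloisRepIsIrreducible (K := AlgebraicClosure ℚ) ℚ
      (W.map (Int.castRingHom ℚ)).toAffine p :=
    Fermat.Agent.L.H19.irreducible_of_variableChange hC p hirr
  -- the bad set
  set S : Finset ℕ := (M * p * W.Δ.natAbs).primeFactors with hS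
  have hgood : ∀ ℓ : ℕ, ℓ.Prime → ℓ ∉ S → W.IsGoodPrimeFor ℓ ∧ ¬ ℓ ∣ M ∧ ℓ ≠ p := by
    intro ℓ hℓ hℓS
    have hne : M * p * W.Δ.natAbs ≠ 0 :=
      mul_ne_zero (mul_ne_zero hM.ne' hp.ne_zero) (Int.natAbs_ne_zero.mpr hΔ)
    have hnd : ¬ ℓ ∣ M * p * W.Δ.natAbs := fun hd =>
      hℓS (by rw [hS, Nat.mem_primeFactors]; exact ⟨hℓ, hd, hne⟩)
    refine ⟨?_, ?_, ?_⟩
    · intro hd
      apply hnd
      exact Dvd.dvd.mul_left (Int.natCast_dvd.mp hd) _
    · intro hd
      exact hnd (Dvd.dvd.mul_right (Dvd.dvd.mul_right hd p) _)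
    · intro hd
      apply hnd
      rw [hd]
      exact Dvd.dvd.mul_right (dvd_mul_left p M) _
  -- dimension two
  obtain ⟨ℓ₀, A₀, σ₀, j₀, hℓ₀, hℓ₀S, hA₀, hσ₀, -⟩ := hFD S ⊥ inferInstance 1
  have hfr := (hmain W p ℓ₀ hℓ₀ (hgood ℓ₀ hℓ₀ hℓ₀S).2.2.symm (hgood ℓ₀ hℓ₀ hℓ₀S).1 A₀ hA₀ σ₀ hσ₀).1
  have : Module.Finite (ZMod p) (Submodule.torsionBy ℤ
      ((W.map (Int.castRingHom ℚ)).toAffine⁄(AlgebraicClosure ℚ)).Point p) :=
    Module.finite_of_finrank_eq_succ hfr
  have : Finite (Submodule.torsionBy ℤ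
      ((W.map (Int.castRingHom ℚ)).toAffine⁄(AlgebraicClosure ℚ)).Point p) :=
    Module.finite_of_finite (ZMod p)
  have halg : Algebra.IsAlgebraic ℚ (AlgebraicClosure ℚ) := AlgebraicClosure.isAlgebraic ℚ
  obtain ⟨L, hL, hLg⟩ := Fermat.Agent.L.H19.exists_finite_level (F := ℚ) (K := AlgebraicClosure ℚ)
    (W.map (Int.castRingHom ℚ)) p
  -- trace = 1 + det everywhere
  have htr : ∀ g : AlgebraicClosure ℚ ≃ₐ[ℚ] AlgebraicClosure ℚ,
      LinearMap.trace (ZMod p) _ (galoisRepModuleEnd ℚ (W.map (Int.castRingHom ℚ)).toAffine p g)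
        = 1 + LinearMap.det (galoisRepModuleEnd ℚ (W.map (Int.castRingHom ℚ)).toAffine p g) := by
    intro g
    obtain ⟨ℓ, A, σ, j, hℓ, hℓS, hA, hσ, hj⟩ := hFD S L hL g
    obtain ⟨hg, hℓM, hℓp⟩ := hgood ℓ hℓ hℓS
    obtain ⟨-, htrσ, hdetσ⟩ := hmain W p ℓ hℓ hℓp.symm hg A hA σ hσ
    have hρ : galoisRepModuleEnd ℚ (W.map (Int.castRingHom ℚ)).toAffine p g
        = (galoisRepModuleEnd ℚ (W.map (Int.castRingHom ℚ)).toAffine p σ) ^ j := by
      rw [← map_pow]
      apply LinearMap.ext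
      intro v
      exact (hLg (σ ^ j) g hj v).symm
    rw [hρ]
    apply trace_pow_of_trace_eq hfr
    rw [← galoisTrace_def, htrσ, hdetσ, hall ℓ hℓ hg hℓM hℓp]
  obtain ⟨v, hv0, hv⟩ := stable_line hfr _ htr
  -- the stable line contradicts irreducibility
  have hst : IsGaloisStable ℚ (Submodule.span (ZMod p) {v}) := by
    intro σ x hx
    obtain ⟨a, rfl⟩ := Submodule.mem_span_singleton.mp hx
    obtain ⟨c, hc⟩ := hv σ
    rw [galoisRepModuleEnd_apply] at hc
    rw [smul_comm, hc, smul_smul]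
    exact Submodule.smul_mem _ _ (Submodule.mem_span_singleton_self v)
  rcases hirr'.2 _ hst with h0 | h1
  · apply hv0
    have : v ∈ Submodule.span (ZMod p) {v} := Submodule.mem_span_singleton_self v
    rw [h0] at this
    exact (Submodule.mem_bot _).mp this
  · have h2 : Module.finrank (ZMod p) (Submodule.span (ZMod p) {v}) = 1 :=
      finrank_span_singleton hv0
    rw [h1, finrank_top, hfr] at h2
    exact absurd h2 (by norm_num)

end Fermat.Agent.S41.H19

end
-- ==== END Fermat.Agent.S41.H19_I3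

-- ==== BEGIN Fermat.Agent.S41.H19_RelMat
section

/-!
# S41 package H (helper19): the matrix computations

* `conjG_injective`, traces of `inclG`, `conjG`;
* the Atkin–Lehner elements `g0, g1 ∈ Gamma0 N` attached to `q u + N v = 1` and the relations
  `conjG h' = g0 * inclG h * g0⁻¹  →  inclG h' = g1 * conjG h * g1⁻¹` (`AL_swap`),
  `AL_sub`, `AL_surj` (the range of `conjG` is the `g0`-conjugate of the range of `inclG`).
-/

set_option autoImplicit false

open scoped MatrixGroups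
open CongruenceSubgroup Matrix

namespace Fermat.Agent.S41.H19

open Fermat.Agent.S41

/-- The integer matrix of an element of `Gamma0 N`. -/
abbrev mat {N : ℕ} (γ : Gamma0 N) : Matrix (Fin 2) (Fin 2) ℤ :=
  ((γ : SL(2, ℤ)) : Matrix (Fin 2) (Fin 2) ℤ)

lemma mat_injective {N : ℕ} : Function.Injective (mat (N := N)) := fun _ _ h =>
  Subtype.ext (Subtype.ext h)

@[simp] lemma mat_mul {N : ℕ} (γ γ' : Gamma0 N) : mat (γ * γ') = mat γ * mat γ' := rfl

@[simp] lemma mat_one {N : ℕ} : mat (1 : Gamma0 N) = 1 := rfl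

lemma mat_det {N : ℕ} (γ : Gamma0 N) : (mat γ).det = 1 := (γ : SL(2, ℤ)).2

lemma mat_det' {N : ℕ} (γ : Gamma0 N) : mat γ 0 0 * mat γ 1 1 - mat γ 0 1 * mat γ 1 0 = 1 := by
  have := mat_det γ
  rwa [Matrix.det_fin_two] at this

lemma mat_dvd {N : ℕ} (γ : Gamma0 N) : (N : ℤ) ∣ mat γ 1 0 :=
  (ZMod.intCast_zmod_eq_zero_iff_dvd _ _).mp (Gamma0_mem.mp γ.2)

@[simp] lemma mat_inclG (N q : ℕ) (γ : Gamma0 (N * q)) : mat (inclG N q γ) = mat γ := rfl

@[simp] lemma mat_conjG (N q : ℕ) (γ : Gamma0 (N * q)) : mat (conjG N q γ) = conjMat q (mat γ) := rfl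

/-- Constructor for elements of `SL(2, ℤ)`. -/
def mkSL (a b c d : ℤ) (h : a * d - b * c = 1) : SL(2, ℤ) :=
  ⟨!![a, b; c, d], by rw [Matrix.det_fin_two_of]; exact h⟩

/-- Constructor for elements of `Gamma0 N`. -/
def mkG0 (N : ℕ) (a b c d : ℤ) (h : a * d - b * c = 1) (hc : (N : ℤ) ∣ c) : Gamma0 N :=
  ⟨mkSL a b c d h, by
    rw [Gamma0_mem, ZMod.intCast_zmod_eq_zero_iff_dvd]
    simpa [mkSL] using hc⟩

@[simp] lemma mat_mkG0 (N : ℕ) (a b c d : ℤ) (h : a * d - b * c = 1) (hc : (N : ℤ) ∣ c) :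
    mat (mkG0 N a b c d h hc) = !![a, b; c, d] := rfl

/-- `diag(q, 1)`. -/
def Dq (q : ℕ) : Matrix (Fin 2) (Fin 2) ℤ := !![(q : ℤ), 0; 0, 1]

lemma conjMat_Dq {q : ℕ} {A : Matrix (Fin 2) (Fin 2) ℤ} (h : (q : ℤ) ∣ A 1 0) :
    conjMat q A * Dq q = Dq q * A := by
  obtain ⟨c, hc⟩ := h
  rcases eq_or_ne (q : ℤ) 0 with hq | hq
  · ext i j
    fin_cases i <;> fin_cases j <;>
      simp [conjMat, Dq, Matrix.mul_apply, Fin.sum_univ_two, hq, hc]
  · ext i j
    fin_cases i <;> fin_cases j <;>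
      simp [conjMat, Dq, Matrix.mul_apply, Fin.sum_univ_two, hc, Int.mul_ediv_cancel_left _ hq] <;>
      ring

lemma Dq_cancel_left {q : ℕ} (hq : q ≠ 0) {X Y : Matrix (Fin 2) (Fin 2) ℤ}
    (h : Dq q * X = Dq q * Y) : X = Y := by
  have hq' : (q : ℤ) ≠ 0 := by exact_mod_cast hq
  have h00 := congrFun (congrFun h 0) 0
  have h01 := congrFun (congrFun h 0) 1
  have h10 := congrFun (congrFun h 1) 0
  have h11 := congrFun (congrFun h 1) 1
  simp only [Dq, Matrix.mul_apply, Fin.sum_univ_two, Matrix.of_apply, Matrix.cons_val',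
    Matrix.cons_val_zero, Matrix.cons_val_one, Matrix.empty_val', Matrix.cons_val_fin_one,
    zero_mul, add_zero, zero_add, one_mul] at h00 h01 h10 h11
  ext i j
  fin_cases i <;> fin_cases j
  · exact mul_left_cancel₀ hq' h00
  · exact mul_left_cancel₀ hq' h01
  · exact h10
  · exact h11

lemma Dq_cancel_right {q : ℕ} (hq : q ≠ 0) {X Y : Matrix (Fin 2) (Fin 2) ℤ}
    (h : X * Dq q = Y * Dq q) : X = Y := by
  have hq' : (q : ℤ) ≠ 0 := by exact_mod_cast hq
  have h00 := congrFun (congrFun h 0) 0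
  have h01 := congrFun (congrFun h 0) 1
  have h10 := congrFun (congrFun h 1) 0
  have h11 := congrFun (congrFun h 1) 1
  simp only [Dq, Matrix.mul_apply, Fin.sum_univ_two, Matrix.of_apply, Matrix.cons_val',
    Matrix.cons_val_zero, Matrix.cons_val_one, Matrix.empty_val', Matrix.cons_val_fin_one,
    mul_zero, add_zero, zero_add, mul_one] at h00 h01 h10 h11
  ext i j
  fin_cases i <;> fin_cases j
  · exact mul_right_cancel₀ hq' h00
  · exact h01
  · exact mul_right_cancel₀ hq' h10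
  · exact h11

theorem conjG_injective (N q : ℕ) (hq : q ≠ 0) : Function.Injective (conjG N q) := by
  intro γ γ' h
  apply mat_injective
  apply Dq_cancel_left hq
  rw [← conjMat_Dq (q_dvd_of_mem_gamma0_mul γ.2), ← conjMat_Dq (q_dvd_of_mem_gamma0_mul γ'.2)]
  have := congrArg mat h
  rw [mat_conjG, mat_conjG] at this
  rw [this]

lemma trace_conjMat (q : ℕ) (A : Matrix (Fin 2) (Fin 2) ℤ) : (conjMat q A).trace = A.trace := by
  simp [conjMat, Matrix.trace_fin_two]

/-! ### The range of `conjG` -/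

/-- Elements of `Gamma0 N` with upper right entry divisible by `q` are in the range of `conjG`. -/
theorem exists_conjG_eq {N q : ℕ} (hq : q ≠ 0) (β : Gamma0 N) (hβ : (q : ℤ) ∣ mat β 0 1) :
    ∃ h' : Gamma0 (N * q), conjG N q h' = β := by
  have hq' : (q : ℤ) ≠ 0 := by exact_mod_cast hq
  obtain ⟨b, hb⟩ := hβ
  obtain ⟨c, hc⟩ := mat_dvd β
  have hdet := mat_det' β
  refine ⟨mkG0 (N * q) (mat β 0 0) b ((q : ℤ) * mat β 1 0) (mat β 1 1) ?_ ?_, ?_⟩
  · rw [hb] at hdet
    linear_combination hdet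
  · rw [hc]
    exact ⟨c, by push_cast; ring⟩
  · apply mat_injective
    rw [mat_conjG, mat_mkG0]
    ext i j
    fin_cases i <;> fin_cases j <;>
      simp [conjMat, hb, Int.mul_ediv_cancel_left _ hq']

/-! ### Atkin–Lehner elements -/

section AL

variable {N q : ℕ} {u v : ℤ} (huv : (q : ℤ) * u + (N : ℤ) * v = 1)

/-- `g0 = [[q, v], [-N, u]] ∈ Gamma0 N`. -/
def g0 : Gamma0 N :=
  mkG0 N q v (-(N : ℤ)) u (by linear_combination huv) (dvd_neg.mpr dvd_rfl)

/-- `g1 = [[1, v], [-N, q u]] ∈ Gamma0 N`. -/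
def g1 : Gamma0 N :=
  mkG0 N 1 v (-(N : ℤ)) ((q : ℤ) * u) (by linear_combination huv) (dvd_neg.mpr dvd_rfl)

lemma mat_g0 : mat (g0 huv) = !![(q : ℤ), v; -(N : ℤ), u] := rfl

lemma mat_g1 : mat (g1 huv) = !![1, v; -(N : ℤ), (q : ℤ) * u] := rfl

lemma Dq_g1_Dq : Dq q * mat (g1 huv) * Dq q = (q : ℤ) • mat (g0 huv) := by
  rw [mat_g0, mat_g1]
  ext i j
  fin_cases i <;> fin_cases j <;>
    simp [Dq, Matrix.mul_apply, Fin.sum_univ_two] <;> ring

include huv in
lemma isCoprime_q_N : IsCoprime (q : ℤ) (N : ℤ) := ⟨u, v, by linear_combination huv⟩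

include huv in
lemma isCoprime_q_v : IsCoprime (q : ℤ) v := ⟨u, N, by linear_combination huv⟩

/-- The swap relation. -/
theorem AL_swap (hq : q ≠ 0) (h h' : Gamma0 (N * q))
    (hrel : conjG N q h' = g0 huv * inclG N q h * (g0 huv)⁻¹) :
    inclG N q h' = g1 huv * conjG N q h * (g1 huv)⁻¹ := by
  have hq' : (q : ℤ) ≠ 0 := by exact_mod_cast hq
  have e1 : conjMat q (mat h') * mat (g0 huv) = mat (g0 huv) * mat h := by
    have : conjG N q h' * g0 huv = g0 huv * inclG N q h := by rw [hrel]; group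
    have := congrArg mat this
    simpa using this
  have e2 : mat h' * mat (g1 huv) = mat (g1 huv) * conjMat q (mat h) := by
    apply Dq_cancel_left hq
    apply Dq_cancel_right hq
    calc Dq q * (mat h' * mat (g1 huv)) * Dq q
        = (Dq q * mat h') * mat (g1 huv) * Dq q := by simp only [Matrix.mul_assoc]
      _ = (conjMat q (mat h') * Dq q) * mat (g1 huv) * Dq q := by
          rw [conjMat_Dq (q_dvd_of_mem_gamma0_mul h'.2)]
      _ = conjMat q (mat h') * (Dq q * mat (g1 huv) * Dq q) := by simp only [Matrix.mul_assoc]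
      _ = (q : ℤ) • (conjMat q (mat h') * mat (g0 huv)) := by
          rw [Dq_g1_Dq, Matrix.mul_smul]
      _ = (q : ℤ) • (mat (g0 huv) * mat h) := by rw [e1]
      _ = (Dq q * mat (g1 huv) * Dq q) * mat h := by rw [Dq_g1_Dq, Matrix.smul_mul]
      _ = Dq q * mat (g1 huv) * (Dq q * mat h) := by simp only [Matrix.mul_assoc]
      _ = Dq q * mat (g1 huv) * (conjMat q (mat h) * Dq q) := by
          rw [conjMat_Dq (q_dvd_of_mem_gamma0_mul h.2)]
      _ = Dq q * (mat (g1 huv) * conjMat q (mat h)) * Dq q := by simp only [Matrix.mul_assoc]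
  have e3 : inclG N q h' * g1 huv = g1 huv * conjG N q h := by
    apply mat_injective
    simpa using e2
  rw [← e3]
  group

/-- The range of `conjG` is contained in the `g0`-conjugate of the range of `inclG`. -/
theorem AL_sub (h' : Gamma0 (N * q)) :
    ∃ h : Gamma0 (N * q), conjG N q h' = g0 huv * inclG N q h * (g0 huv)⁻¹ := by
  obtain ⟨β, hβ⟩ : ∃ β : Gamma0 N, β = (g0 huv)⁻¹ * conjG N q h' * g0 huv := ⟨_, rfl⟩
  have e1 : g0 huv * β = conjG N q h' * g0 huv := by rw [hβ]; group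
  have e2 : mat (g0 huv) * mat β = conjMat q (mat h') * mat (g0 huv) := congrArg mat e1
  rw [mat_g0] at e2
  have e00 := congrFun (congrFun e2 0) 0
  simp only [conjMat, Matrix.mul_apply, Fin.sum_univ_two, Matrix.of_apply, Matrix.cons_val',
    Matrix.cons_val_zero, Matrix.cons_val_one, Matrix.empty_val', Matrix.cons_val_fin_one] at e00
  have hqv : (q : ℤ) ∣ v * mat β 1 0 :=
    ⟨mat h' 0 0 - (N : ℤ) * mat h' 0 1 - mat β 0 0, by linear_combination e00⟩
  have hq10 : (q : ℤ) ∣ mat β 1 0 := (isCoprime_q_v huv).dvd_of_dvd_mul_left hqv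
  have hNq : ((N * q : ℕ) : ℤ) ∣ mat β 1 0 := by
    push_cast
    exact (isCoprime_q_N huv).symm.mul_dvd (mat_dvd β) hq10
  refine ⟨⟨(β : SL(2, ℤ)), ?_⟩, ?_⟩
  · rw [Gamma0_mem, ZMod.intCast_zmod_eq_zero_iff_dvd]
    exact hNq
  · have : inclG N q ⟨(β : SL(2, ℤ)), by
        rw [Gamma0_mem, ZMod.intCast_zmod_eq_zero_iff_dvd]; exact hNq⟩ = β := rfl
    rw [this, hβ]
    group

/-- The range of `conjG` contains the `g0`-conjugate of the range of `inclG`. -/
theorem AL_surj (hq : q ≠ 0) (h : Gamma0 (N * q)) :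
    ∃ h' : Gamma0 (N * q), conjG N q h' = g0 huv * inclG N q h * (g0 huv)⁻¹ := by
  obtain ⟨β, hβ⟩ : ∃ β : Gamma0 N, β = g0 huv * inclG N q h * (g0 huv)⁻¹ := ⟨_, rfl⟩
  rw [← hβ]
  have e1 : β * g0 huv = g0 huv * inclG N q h := by rw [hβ]; group
  have e2 : mat β * mat (g0 huv) = mat (g0 huv) * mat h := congrArg mat e1
  rw [mat_g0] at e2
  have e00 := congrFun (congrFun e2 0) 0
  simp only [Matrix.mul_apply, Fin.sum_univ_two, Matrix.of_apply, Matrix.cons_val',
    Matrix.cons_val_zero, Matrix.cons_val_one, Matrix.empty_val', Matrix.cons_val_fin_one] at e00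
  obtain ⟨c, hc⟩ := q_dvd_of_mem_gamma0_mul h.2
  have hc' : mat h 1 0 = (q : ℤ) * c := hc
  have hqN : (q : ℤ) ∣ (N : ℤ) * mat β 0 1 :=
    ⟨mat β 0 0 - mat h 0 0 - v * c, by rw [hc'] at e00; linear_combination -e00⟩
  have hq01 : (q : ℤ) ∣ mat β 0 1 := (isCoprime_q_N huv).dvd_of_dvd_mul_left hqN
  exact exists_conjG_eq hq β hq01

end AL

end Fermat.Agent.S41.H19

end
-- ==== END Fermat.Agent.S41.H19_RelMat
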