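-- GENERATED (merged mirror, NOTES/tools/trim/merge3_helper67.py): 9 modules of the originals, bodies verbatim.
import Mathlib
import Fermat.Agent.Zm.S44_L01_004
import Fermat.Agent.Zm.S35_L02_000
import Fermat.Agent.Zm.S35_L15_000
import Fermat.Agent.Zm.S35_L02_002
import Fermat.Agent.RED.HR.H51_FinrankAlong
import Fermat.Agent.Zm.S35_L12_001
import Fermat.Agent.Zm.S35_L14_001
import Fermat.Agent.Zm.S44_L01_002
import Fermat.Agent.Zm.S35_L01_000
import Fermat.Agent.Zm.S33_L02_003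
import Fermat.Agent.Zm.S56_L02_000
import Fermat.Agent.Zm.S35_L02_001
import Fermat.Agent.Zm.S48_L01_002
import Fermat.Agent.Zm.S44_L01_001
import Fermat.Agent.Zm.S35_L13_001
import Fermat.Agent.Zm.S35_L08_001
import Fermat.Agent.Zm.S35_L16_000
import Fermat.Agent.Zm.S35_L17_000
import Fermat.Agent.Zm.S35_L04_000
import Fermat.Agent.Zm.S35_L11_000
import Fermat.Agent.Betti.H21_AlgEig
import Fermat.Agent.Zm.S35_L07_001

-- ==== BEGIN Fermat.Agent.S41.H20_NewLiftDefs
section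

/-!
# S41, NEWLIFT (short route of helper39): interfaces of the leaves consumed by the final assembly

`M = N * q'`.  See the board note "S41 NEWLIFT short route + split".

* `Stmt_LLIFT` (helper77): a nonzero cuspidal class `y : Γ₀(M) → ZMod p` with the eigenvalues of `W`,
  killed by both trace maps, is the reduction mod `p` of a parabolic `y₁ : Γ₀(M) → ℤ` which is killed
  by both trace maps (with `ℤ`-coefficients).  (Its proof uses dual Ihara, hence `Stmt_IHARA`.)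
* `Stmt_AL` (helper39): on `ker cor1 ∩ ker cor2` the Betti operator `U_q` (the operator of the Hecke
  algebra: cosets `[[1, j], [0, q]]`) is an involution.  NB `Tcoh (N*q) A q` is the ADJOINT operator
  (cosets of `Γ diag(q,1) Γ`); the two agree on `ker cor1 ∩ ker cor2`.
-/

set_option autoImplicit false

open scoped MatrixGroups
open WeierstrassCurve WeierstrassCurve.Affine WeierstrassCurve.Affine.Point
open CongruenceSubgroup ModularCurve.Period

namespace Fermat.Agent.S41.H20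

open Fermat.Agent.S41

/-- **L-LIFT**: lifting a new eigenclass mod `p` to an integral new class. -/
def Stmt_LLIFT : Prop :=
  ∀ (E : WeierstrassCurve ℚ) [E.IsElliptic] (W : WeierstrassCurve ℤ), W.IsIntegralModelOf E →
    ∀ (p N q' : ℕ), p.Prime → p ≠ 2 → 0 < N → q'.Prime → ¬ q' ∣ N → q' ≠ p →
    GaloisRepIsIrreducible (K := AlgebraicClosure ℚ) ℚ E p →
    ∀ y : Additive (Gamma0 (N * q')) →+ ZMod p, y ≠ 0 →
    IsCuspidalHom (Gamma0 (N * q')) y → IsEigenOf W p (N * q') (N * q') y →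
    cor1 N q' (ZMod p) y = 0 → cor2 N q' (ZMod p) y = 0 →
    ∃ y₁ : Additive (Gamma0 (N * q')) →+ ℤ, IsParabolicHom (Gamma0 (N * q')) y₁ ∧
      cor1 N q' ℤ y₁ = 0 ∧ cor2 N q' ℤ y₁ = 0 ∧
      ∀ γ : Additive (Gamma0 (N * q')), ((y₁ γ : ℤ) : ZMod p) = y γ

/-- **AL**: `U_q ∘ U_q = 1` on the classes killed by both trace maps (`q ∤ N`, level `N * q`). -/
def Stmt_AL : Prop :=
  ∀ (N q : ℕ) [NeZero (N * q)], 0 < N → q.Prime → ¬ q ∣ N →
    ∀ (A : Type) [AddCommGroup A] (φ : Additive (Gamma0 (N * q)) →+ A),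
    cor1 N q A φ = 0 → cor2 N q A φ = 0 →
    Betti.UB (N * q) A (Dvd.intro_left N rfl) (Betti.UB (N * q) A (Dvd.intro_left N rfl) φ) = φ

end Fermat.Agent.S41.H20

end
-- ==== END Fermat.Agent.S41.H20_NewLiftDefs

-- ==== BEGIN Fermat.Agent.S41.H37_Char
section

/-!
# S41, NEWLIFT leaf CHAR: a characteristic zero eigensystem on the `U² = 1` part

Pure commutative algebra.  A commutative ring `R` acts faithfully on a finite dimensional complex
vector space `V` (cusp forms) and on a finitely generated torsion free `ℤ`-module `Λ` (the Betti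
lattice).  If `c ∈ Λ`, `c ∉ pΛ`, is killed by `u² - 1` and is an eigenvector modulo `p` of a family
`t i` with eigenvalues `a i`, then there is a simultaneous eigenvector `v ∈ V` of `R` whose
eigencharacter `χ` satisfies `χ(u)² = 1` and `χ(t i) ≡ a i` modulo a maximal ideal over `p` of the
ring of algebraic integers.
-/

set_option autoImplicit false

namespace Fermat.Agent.S41.H37

open Module

section Char

variable {R : Type*} [CommRing R]
variable {Λ : Type*} [AddCommGroup Λ]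

/-- The ideal of the elements of `R` which map `c` into `p Λ`. -/
def congIdeal (ρ : R →+* Module.End ℤ Λ) (p : ℕ) (c : Λ) : Ideal R where
  carrier := {r | ∃ d : Λ, ρ r c = (p : ℤ) • d}
  zero_mem' := ⟨0, by simp⟩
  add_mem' := by
    rintro r s ⟨d, hd⟩ ⟨e, he⟩
    exact ⟨d + e, by rw [map_add, LinearMap.add_apply, hd, he, smul_add]⟩
  smul_mem' := by
    rintro s r ⟨d, hd⟩
    refine ⟨ρ s d, ?_⟩
    rw [smul_eq_mul, map_mul, Module.End.mul_apply, hd, map_smul]

/-- The annihilator in `R` of the kernel of `ρ s`. -/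
def annKer (ρ : R →+* Module.End ℤ Λ) (s : R) : Ideal R where
  carrier := {r | ∀ k : Λ, ρ s k = 0 → ρ r k = 0}
  zero_mem' := fun k _ => by simp
  add_mem' := by
    intro r r' hr hr' k hk
    rw [map_add, LinearMap.add_apply, hr k hk, hr' k hk, add_zero]
  smul_mem' := by
    intro x r hr k hk
    rw [smul_eq_mul, map_mul, Module.End.mul_apply, hr k hk, map_zero]

theorem self_mem_annKer (ρ : R →+* Module.End ℤ Λ) (s : R) : s ∈ annKer ρ s := fun _ hk => hk

theorem annKer_le_congIdeal (ρ : R →+* Module.End ℤ Λ) (s : R) (p : ℕ) (c : Λ)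
    (hc : ρ s c = 0) : annKer ρ s ≤ congIdeal ρ p c :=
  fun r hr => ⟨0, by rw [hr c hc, smul_zero]⟩

theorem intCast_apply (ρ : R →+* Module.End ℤ Λ) (n : ℤ) (k : Λ) : ρ (n : R) k = n • k := by
  rw [map_intCast]
  simp

end Char

theorem char_exists
    {R : Type*} [CommRing R] {V : Type*} [AddCommGroup V] [Module ℂ V] [FiniteDimensional ℂ V]
    {Λ : Type*} [AddCommGroup Λ] [Module.Finite ℤ Λ]
    (htf : ∀ (n : ℤ) (x : Λ), n ≠ 0 → n • x = 0 → x = 0)
    (φ : R →+* Module.End ℂ V) (hφ : Function.Injective φ)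
    (ρ : R →+* Module.End ℤ Λ) (hρ : Function.Injective ρ)
    {p : ℕ} (c : Λ) (hc : ∀ d : Λ, c ≠ (p : ℤ) • d)
    (u : R) (hu : ρ (u ^ 2 - 1) c = 0)
    {ι : Type*} (t : ι → R) (a : ι → ℤ)
    (ht : ∀ i, ∃ d : Λ, ρ (t i) c - a i • c = (p : ℤ) • d) :
    ∃ (χ : R →+* ℂ) (v : V) (𝔪 : Ideal (integralClosure ℤ ℂ)),
      v ≠ 0 ∧ (∀ r, φ r v = χ r • v) ∧ χ u ^ 2 = 1 ∧ 𝔪.IsMaximal ∧
      ((p : ℕ) : integralClosure ℤ ℂ) ∈ 𝔪 ∧
      ∀ i, ∃ α : integralClosure ℤ ℂ, (α : ℂ) = χ (t i) ∧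
        α - ((a i : ℤ) : integralClosure ℤ ℂ) ∈ 𝔪 := by
  classical
  -- `R` is integral over `ℤ`
  have hint : ∀ r : R, IsIntegral ℤ r := by
    intro r
    have h1 : IsIntegral ℤ (ρ.toIntAlgHom r) := Algebra.IsIntegral.isIntegral _
    exact (isIntegral_algHom_iff ρ.toIntAlgHom hρ).mp h1
  have : Algebra.IsIntegral ℤ R := ⟨hint⟩
  set J : Ideal R := annKer ρ (u ^ 2 - 1) with hJ
  set I₀ : Ideal R := congIdeal ρ p c with hI₀
  have hJI : J ≤ I₀ := annKer_le_congIdeal ρ _ p c hu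
  have hI₀top : I₀ ≠ ⊤ := by
    intro h
    have h1 : (1 : R) ∈ I₀ := by rw [h]; trivial
    obtain ⟨d, hd⟩ := h1
    rw [map_one, Module.End.one_apply] at hd
    exact hc d hd
  obtain ⟨𝔫, h𝔫max, hI𝔫⟩ := Ideal.exists_le_maximal I₀ hI₀top
  have h𝔫prime : 𝔫.IsPrime := h𝔫max.isPrime
  obtain ⟨𝔭, h𝔭min, h𝔭𝔫⟩ := Ideal.exists_minimalPrimes_le (hJI.trans hI𝔫)
  have h𝔭prime : 𝔭.IsPrime := h𝔭min.1.1
  have hJ𝔭 : J ≤ 𝔭 := h𝔭min.1.2
  -- `𝔭` has characteristic zero
  have hchar : ∀ n : ℤ, (n : R) ∈ 𝔭 → n = 0 := by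
    intro n hn
    by_contra hn0
    rw [Ideal.minimalPrimes_eq_comap] at h𝔭min
    obtain ⟨𝔭', h𝔭', rfl⟩ := h𝔭min
    have h1 : Ideal.Quotient.mk J (n : R) ∈ 𝔭' := hn
    have h2 : Ideal.Quotient.mk J (n : R) ∈ nonZeroDivisors (R ⧸ J) := by
      rw [mem_nonZeroDivisors_iff_right]
      intro x hx
      obtain ⟨r, rfl⟩ := Ideal.Quotient.mk_surjective x
      rw [← map_mul, Ideal.Quotient.eq_zero_iff_mem] at hx
      rw [Ideal.Quotient.eq_zero_iff_mem]
      intro k hk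
      have h3 := hx k hk
      rw [map_mul, Module.End.mul_apply, intCast_apply, map_smul] at h3
      exact htf n _ hn0 h3
    exact (Set.disjoint_left.mp (Ideal.disjoint_nonZeroDivisors_of_mem_minimalPrimes h𝔭')) h1 h2
  -- hence `𝔭` is minimal among all primes of `R`
  have hmin : ∀ 𝔮 : Ideal R, 𝔮.IsPrime → 𝔮 ≤ 𝔭 → 𝔭 ≤ 𝔮 := by
    intro 𝔮 h𝔮 h𝔮𝔭
    have : IsDomain (R ⧸ 𝔮) := Ideal.Quotient.isDomain 𝔮
    have hbot : Ideal.map (Ideal.Quotient.mk 𝔮) 𝔭 = ⊥ := by
      apply Ideal.eq_bot_of_comap_eq_bot (R := ℤ)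
      rw [eq_bot_iff]
      intro n hn
      rw [Ideal.mem_comap] at hn
      have h1 : (n : R) ∈ Ideal.comap (Ideal.Quotient.mk 𝔮) (Ideal.map (Ideal.Quotient.mk 𝔮) 𝔭) := by
        rw [Ideal.mem_comap]
        simpa using hn
      rw [Ideal.comap_map_of_surjective _ Ideal.Quotient.mk_surjective, ← RingHom.ker_eq_comap_bot,
        Ideal.mk_ker, sup_eq_left.mpr h𝔮𝔭] at h1
      rw [Ideal.mem_bot]
      exact hchar n h1
    intro x hx
    have h1 : Ideal.Quotient.mk 𝔮 x ∈ Ideal.map (Ideal.Quotient.mk 𝔮) 𝔭 := Ideal.mem_map_of_mem _ hx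
    rw [hbot, Ideal.mem_bot, Ideal.Quotient.eq_zero_iff_mem] at h1
    exact h1
  obtain ⟨χ, v, hv0, hv, hker⟩ := Fermat.Agent.S49.exists_eigenvector_character φ hφ 𝔭
  have hkerprime : (RingHom.ker χ).IsPrime := RingHom.ker_isPrime χ
  have h𝔭ker : 𝔭 ≤ RingHom.ker χ := hmin _ hkerprime hker
  have hχu : χ u ^ 2 = 1 := by
    have h1 : u ^ 2 - 1 ∈ RingHom.ker χ := h𝔭ker (hJ𝔭 (self_mem_annKer ρ _))
    rw [RingHom.mem_ker, map_sub, map_pow, map_one, sub_eq_zero] at h1
    exact h1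
  obtain ⟨χ', 𝔪, hχ', h𝔪max, h𝔪⟩ :=
    Fermat.Agent.S49.exists_maximal_over hint χ 𝔫 (hker.trans h𝔭𝔫)
  refine ⟨χ, v, 𝔪, hv0, hv, hχu, h𝔪max, ?_, ?_⟩
  · have h1 : ((p : ℕ) : R) ∈ 𝔫 := by
      apply hI𝔫
      refine ⟨c, ?_⟩
      have := intCast_apply ρ (p : ℤ) c
      rw [Int.cast_natCast] at this
      exact this
    have h2 := h𝔪 _ h1
    rwa [map_natCast] at h2
  · intro i
    refine ⟨χ' (t i), hχ' _, ?_⟩
    have h1 : t i - ((a i : ℤ) : R) ∈ 𝔫 := by
      apply hI𝔫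
      obtain ⟨d, hd⟩ := ht i
      refine ⟨d, ?_⟩
      rw [map_sub, LinearMap.sub_apply, intCast_apply, hd]
    have h2 := h𝔪 _ h1
    rwa [map_sub, map_intCast] at h2

end Fermat.Agent.S41.H37

end
-- ==== END Fermat.Agent.S41.H37_Char

-- ==== BEGIN Fermat.Agent.S43.Old.H35_LevelN
section
attribute [local instance 10000] SubalgebraClass.toAlgebra
attribute [local instance 10000] HahnSeries.powerSeriesAlgebra

/-!
# S43, leaf OLD-RED (helper35): NORM-RED at the level `N = M q`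

`A` a valuation subring of `ℚ̄` over `q`, `q ∤ M`, `ℓ ∤ M q` a prime.  The Gauss valuation ring
`V₁ = gaussV A (M q)` of `F_{Mq} · ℚ̄` has the residue field `F~_M = Ft A M`
(`BAD.H82.redField_eq_redField`).

* `resTo` : the Gauss reduction with values in an intermediate field containing the reduced
  field;
* `finrank_alpha_bar`, `finrank_alphaT` : both degeneracy maps `α` have degree `ℓ + 1`;
* `hnorm_levelN` : **NORM-RED**: `res (Norm_α (β f)) = Norm_α~ (β~ (res f))` for `f ∈ V₁`;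
* `levelN_eigen` : the eigen-transfer at the level `N`: if `p D = div f`, `f` a unit of `V₁`,
  `p D' = div (res f)` on `F~_M` and `T_ℓ D - t D` is principal, then `T~_ℓ D' - t D'` is
  principal.
-/

set_option autoImplicit false
set_option linter.style.haveILetI false
set_option linter.unusedSectionVars false
set_option synthInstance.maxHeartbeats 400000
set_option maxHeartbeats 1000000

noncomputable section

open AlgebraicCurve ModularCurve Fermat.Agent.S28.H73 Fermat.Agent.RED.H73 Fermat.Agent.RED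
open Fermat.Agent.BAD

namespace Fermat.Agent.S43.Old.H35

section ResTo

variable (A : ValuationSubring (AlgebraicClosure ℚ))

/-- The reduced fields of equal levels are equal. -/
theorem redField_congr {N₁ N₂ : ℕ} (h : N₁ = N₂) : Ft A N₁ = Ft A N₂ := by
  subst h
  rfl

/-- The Gauss reduction of level `N'`, with values in an intermediate field `E` containing the
reduced field. -/
def resTo (N' : ℕ) (E : IntermediateField (kV A) (LaurentSeries (kV A)))
    (hle : Ft A N' ≤ E) : ↥(gaussV A N') →+* ↥E :=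
  (gaussResF A (hasScale_laurentBaseChange A N')).codRestrict E.toSubring
    (fun x => hle (gaussResF_mem_redField A _ x))

theorem coe_resTo (N' : ℕ) (E : IntermediateField (kV A) (LaurentSeries (kV A)))
    (hle : Ft A N' ≤ E) (x : ↥(gaussV A N')) :
    ((resTo A N' E hle x : ↥E) : LaurentSeries (kV A))
      = gaussResF A (hasScale_laurentBaseChange A N') x := rfl

theorem resTo_eq_zero_iff (N' : ℕ) (E : IntermediateField (kV A) (LaurentSeries (kV A)))
    (hle : Ft A N' ≤ E) (x : ↥(gaussV A N')) :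
    resTo A N' E hle x = 0 ↔ ¬ IsUnit x := by
  rw [isUnit_iff_gaussResF_ne_zero A (hasScale_laurentBaseChange A N') x, not_not]
  constructor
  · intro h
    have := congrArg (Subtype.val) h
    rwa [coe_resTo] at this
  · intro h
    apply Subtype.ext
    rw [coe_resTo, h]
    rfl

theorem resTo_surjective (N' : ℕ) (E : IntermediateField (kV A) (LaurentSeries (kV A)))
    (hle : Ft A N' ≤ E) (hge : E ≤ Ft A N') : Function.Surjective (resTo A N' E hle) := by
  intro y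
  obtain ⟨x, hx⟩ := hge y.2
  exact ⟨x, Subtype.ext hx⟩

end ResTo

section Degree

variable (A : ValuationSubring (AlgebraicClosure ℚ))

/-- The degeneracy map `α` of level `N → N ℓ` has degree `ℓ + 1` over `ℚ̄`. -/
theorem finrank_alpha_bar (N ℓ : ℕ) [NeZero N] [NeZero ℓ] (hℓ : ℓ.Prime) (hℓN : ¬ ℓ ∣ N) :
    finrankAlong (AlgebraicClosure ℚ) (heckeAlphaBar (AlgebraicClosure ℚ) N ℓ) = ℓ + 1 := by
  haveI : NeZero (N * ℓ) := ⟨Nat.mul_ne_zero (NeZero.ne N) (NeZero.ne ℓ)⟩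
  rw [H51.finrankAlong_eq_relfinrank_map (modularFunctionFieldBar N)
    (modularFunctionFieldBar (N * ℓ)) (AlgHom.id _ _) (heckeAlphaBar (AlgebraicClosure ℚ) N ℓ)
    (fun x => coe_heckeAlphaBar N ℓ x), IntermediateField.map_id]
  exact BAD.H82.relfinrank_FM_FN ℓ N hℓ hℓN

/-- The degeneracy map `α~` of the reduced fields has degree `ℓ + 1`. -/
theorem finrank_alphaT (M ℓ q : ℕ) [NeZero M] [NeZero ℓ] (hℓ : ℓ.Prime) (hℓM : ¬ ℓ ∣ M)
    (hq : q.Prime) (hqM : ¬ q ∣ M * ℓ) (hA : A.LiesOverPrime q) :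
    finrankAlong (kV A) (alphaT A M ℓ) = ℓ + 1 := by
  haveI : NeZero (M * ℓ) := ⟨Nat.mul_ne_zero (NeZero.ne M) (NeZero.ne ℓ)⟩
  rw [H51.finrankAlong_eq_relfinrank_map (Ft A M) (Ft A (M * ℓ)) (AlgHom.id _ _)
    (alphaT A M ℓ) (fun x => coe_alphaT A M ℓ x), IntermediateField.map_id,
    ← H36.relfinrank_level_eq (dvd_mul_right M ℓ) hq hqM A hA]
  exact BAD.H82.relfinrank_FM_FN ℓ M hℓ hℓM

end Degree

section NormRed

variable (A : ValuationSubring (AlgebraicClosure ℚ))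

theorem exists_bezout {q M : ℕ} (hq : q.Prime) (hqM : ¬ q ∣ M) :
    ∃ a b : ℤ, a * q + b * M = 1 :=
  Nat.isCoprime_iff_coprime.2 ((Nat.Prime.coprime_iff_not_dvd hq).2 hqM)

/-- The residue field of the Gauss valuation of level `M q` is the reduced field of level `M`. -/
theorem ft_mul_eq (q M : ℕ) [NeZero (M * q)] (hq : q.Prime) (hqM : ¬ q ∣ M)
    (hA : A.LiesOverPrime q) : Ft A (M * q) = Ft A M := by
  obtain ⟨a, b, hab⟩ := exists_bezout hq hqM
  exact BAD.H82.redField_eq_redField q M a b hab hq A hA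

/-- **NORM-RED at the level `N = M q`.** -/
theorem hnorm_levelN (q M ℓ : ℕ) [NeZero M] [NeZero (M * q)] [NeZero ℓ] (hq : q.Prime)
    (hqM : ¬ q ∣ M) (hℓ : ℓ.Prime) (hℓN : ¬ ℓ ∣ M * q) (hA : A.LiesOverPrime q)
    (hle : Ft A (M * q) ≤ Ft A M) (f : ↥(gaussV A (M * q))) :
    ∃ h : normAlong (heckeAlphaBar (AlgebraicClosure ℚ) (M * q) ℓ)
        (heckeBetaBar (AlgebraicClosure ℚ) (M * q) ℓ (f : ↥(FNbar (M * q)))) ∈ gaussV A (M * q),
      resTo A (M * q) (Ft A M) hle ⟨_, h⟩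
        = normAlong (alphaT A M ℓ) (betaT A M ℓ (resTo A (M * q) (Ft A M) hle f)) := by
  have hℓq : ℓ ≠ q := fun h => hℓN (h ▸ dvd_mul_left ℓ M)
  have hℓM : ¬ ℓ ∣ M := fun h => hℓN (h.mul_right q)
  have hqMℓ : ¬ q ∣ M * ℓ := by
    intro h
    rcases (Nat.Prime.dvd_mul hq).1 h with h1 | h1
    · exact hqM h1
    · exact hℓq ((Nat.prime_dvd_prime_iff_eq hq hℓ).1 h1).symm
  haveI : NeZero (M * ℓ) := ⟨Nat.mul_ne_zero (NeZero.ne M) (NeZero.ne ℓ)⟩
  haveI : NeZero (M * ℓ * q) := ⟨Nat.mul_ne_zero (NeZero.ne (M * ℓ)) hq.ne_zero⟩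
  haveI : NeZero (M * q * ℓ) := ⟨Nat.mul_ne_zero (NeZero.ne (M * q)) (NeZero.ne ℓ)⟩
  have heq' : Ft A (M * q * ℓ) = Ft A (M * ℓ) :=
    (_root_.Fermat.Agent.S43.Old.H35.redField_congr A (Nat.mul_right_comm M q ℓ)).trans (ft_mul_eq A q (M * ℓ) hq hqMℓ hA)
  obtain ⟨hα, hβ, hP, hfin, hFI, hNF⟩ := RED.H51.stmt_HKA (M * q) ℓ
  letI iA : Algebra ↥(FNbar (M * q)) ↥(FNbar (M * q * ℓ)) :=
    algebraAlong (heckeAlphaBar (AlgebraicClosure ℚ) (M * q) ℓ)
  letI iA' : Algebra ↥(Ft A M) ↥(Ft A (M * ℓ)) := algebraAlong (alphaT A M ℓ)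
  haveI : Module.Finite ↥(FNbar (M * q)) ↥(FNbar (M * q * ℓ)) := hfin
  have hβmem : heckeBetaBar (AlgebraicClosure ℚ) (M * q) ℓ (f : ↥(FNbar (M * q)))
      ∈ gaussV A (M * q * ℓ) := by
    rw [mem_gaussValSub_iff, coe_heckeBetaBar]
    exact qExpand_mem_gaussRingV A ℓ f.2
  have h1 : ∀ a : ↥(FNbar (M * q)), a ∈ gaussV A (M * q)
      ↔ algebraMap ↥(FNbar (M * q)) ↥(FNbar (M * q * ℓ)) a ∈ gaussV A (M * q * ℓ) := by
    intro a
    rw [mem_gaussValSub_iff, mem_gaussValSub_iff]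
    show _ ↔ ((heckeAlphaBar (AlgebraicClosure ℚ) (M * q) ℓ a : ↥(FNbar (M * q * ℓ))) :
      LaurentSeries (AlgebraicClosure ℚ)) ∈ gaussRingV A
    rw [coe_heckeAlphaBar]
  have h2 : Function.Surjective (resTo A (M * q * ℓ) (Ft A (M * ℓ)) heq'.le) :=
    resTo_surjective A _ _ heq'.le heq'.ge
  have h3 : ∀ a : ↥(gaussV A (M * q * ℓ)),
      resTo A (M * q * ℓ) (Ft A (M * ℓ)) heq'.le a = 0 ↔ ¬ IsUnit a :=
    fun a => resTo_eq_zero_iff A _ _ _ a
  have h4 : ∀ (a : ↥(gaussV A (M * q)))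
      (ha : algebraMap ↥(FNbar (M * q)) ↥(FNbar (M * q * ℓ)) (a : ↥(FNbar (M * q)))
        ∈ gaussV A (M * q * ℓ)),
      resTo A (M * q * ℓ) (Ft A (M * ℓ)) heq'.le ⟨_, ha⟩
        = algebraMap ↥(Ft A M) ↥(Ft A (M * ℓ)) (resTo A (M * q) (Ft A M) hle a) := by
    intro a ha
    apply Subtype.ext
    rw [coe_resTo]
    show _ = ((alphaT A M ℓ (resTo A (M * q) (Ft A M) hle a) : ↥(Ft A (M * ℓ))) :
      LaurentSeries (kV A))
    rw [coe_alphaT, coe_resTo, gaussResF_apply, gaussResF_apply]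
    congr 1
  have h5 : Module.finrank ↥(FNbar (M * q)) ↥(FNbar (M * q * ℓ))
      = Module.finrank ↥(Ft A M) ↥(Ft A (M * ℓ)) := by
    show finrankAlong (AlgebraicClosure ℚ) (heckeAlphaBar (AlgebraicClosure ℚ) (M * q) ℓ)
      = finrankAlong (kV A) (alphaT A M ℓ)
    rw [finrank_alpha_bar (M * q) ℓ hℓ hℓN, finrank_alphaT A M ℓ q hℓ hℓM hq hqMℓ hA]
  obtain ⟨hN, hNeq⟩ := RED.H10.stmt_NormRedAbs ↥(FNbar (M * q)) ↥(FNbar (M * q * ℓ))
    ↥(Ft A M) ↥(Ft A (M * ℓ)) (gaussV A (M * q)) (gaussV A (M * q * ℓ))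
    (resTo A (M * q) (Ft A M) hle) (resTo A (M * q * ℓ) (Ft A (M * ℓ)) heq'.le)
    h1 h2 h3 h4 h5 ⟨_, hβmem⟩
  refine ⟨hN, ?_⟩
  show resTo A (M * q) (Ft A M) hle ⟨_, hN⟩ = Algebra.norm ↥(Ft A M)
    (betaT A M ℓ (resTo A (M * q) (Ft A M) hle f))
  rw [hNeq]
  congr 1
  apply Subtype.ext
  rw [coe_resTo, coe_betaT, coe_resTo, gaussResF_apply, gaussResF_apply]
  exact gaussRedV_qExpand A ℓ ⟨_, f.2⟩ _

end NormRed

section Eigen

variable (A : ValuationSubring (AlgebraicClosure ℚ))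

theorem resTo_scale (N' : ℕ) (E : IntermediateField (kV A) (LaurentSeries (kV A)))
    (hle : Ft A N' ≤ E) (f : ↥(FNbar N')) (hf : f ≠ 0) :
    ∃ c : AlgebraicClosure ℚ, c ≠ 0 ∧
      ∃ h : algebraMap (AlgebraicClosure ℚ) ↥(FNbar N') c * f ∈ gaussV A N',
        resTo A N' E hle ⟨_, h⟩ ≠ 0 := by
  obtain ⟨c, u, hc, hu⟩ := exists_unit_scale A (hasScale_laurentBaseChange A N') f hf
  have hmul : algebraMap (AlgebraicClosure ℚ) ↥(FNbar N') c⁻¹ * f
      = ((u : ↥(gaussV A N')) : ↥(FNbar N')) := by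
    rw [hu, ← mul_assoc, ← map_mul, inv_mul_cancel₀ hc, map_one, one_mul]
  refine ⟨c⁻¹, inv_ne_zero hc, ?_, ?_⟩
  · rw [hmul]
    exact (u : ↥(gaussV A N')).2
  · intro h0
    rw [resTo_eq_zero_iff] at h0
    apply h0
    have : (⟨algebraMap (AlgebraicClosure ℚ) ↥(FNbar N') c⁻¹ * f, by
        rw [hmul]; exact (u : ↥(gaussV A N')).2⟩ : ↥(gaussV A N')) = (u : ↥(gaussV A N')) :=
      Subtype.ext hmul
    rw [this]
    exact u.isUnit

theorem resTo_const (N' : ℕ) (E : IntermediateField (kV A) (LaurentSeries (kV A)))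
    (hle : Ft A N' ≤ E) (c : AlgebraicClosure ℚ)
    (h : algebraMap (AlgebraicClosure ℚ) ↥(FNbar N') c ∈ gaussV A N') :
    ∃ c' : kV A, resTo A N' E hle ⟨_, h⟩ = algebraMap (kV A) ↥E c' := by
  have hc : c ∈ A := (algebraMap_mem_gaussValSub_iff A (hasScale_laurentBaseChange A N') c).1 h
  refine ⟨resV A ⟨c, hc⟩, Subtype.ext ?_⟩
  rw [coe_resTo, coe_algebraMap_F]
  exact gaussResF_algebraMap A (hasScale_laurentBaseChange A N') ⟨c, hc⟩ h

end Eigen

end Fermat.Agent.S43.Old.H35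

end
end
-- ==== END Fermat.Agent.S43.Old.H35_LevelN

-- ==== BEGIN Fermat.Agent.S43.Old.H75_Ker
section

/-!
# S43, leaf OLD: `Stmt_KerStable` from `RED.H51.Stmt_HRcore` (helper75)

The kernel of the reduction map `redM : J₀(M) → Pic (F~_M)` is stable under the Hecke operators
(`heckeOperatorBar M s` is induced by the correspondence `heckeDivBar` on divisors).
-/

set_option autoImplicit false
set_option linter.style.haveILetI false
set_option linter.unusedSectionVars false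
set_option synthInstance.maxHeartbeats 400000
set_option maxHeartbeats 1600000

noncomputable section

open AlgebraicCurve ModularCurve Fermat.Agent.S28.H73 Fermat.Agent.RED.H73
open Fermat.Agent.RED

namespace Fermat.Agent.S43.Old.H75

/-- The kernel of `redM` is stable under all Hecke operators `T_s`, given `Stmt_HRcore`. -/
theorem redPic_heckeOperatorBar_eq_zero (hcore : H51.Stmt_HRcore) (M q : ℕ) [NeZero M]
    (hq : q.Prime) (hqM : ¬ q ∣ M) (A : ValuationSubring (AlgebraicClosure ℚ))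
    (hA : A.LiesOverPrime q)
    (r : Place (AlgebraicClosure ℚ) ↥(modularFunctionFieldBar M) →
        Place (kV A) ↥(redField A (modularFunctionFieldBar M) (hasScale_laurentBaseChange A M)))
    (hr : IsRed A (hasScale_laurentBaseChange A M) r)
    (hmove : HasMove A (hasScale_laurentBaseChange A M) r)
    (s : Nat.Primes) (z : JZero M)
    (hz : H36.redPic A (hasScale_laurentBaseChange A M) hr z = 0) :
    H36.redPic A (hasScale_laurentBaseChange A M) hr (heckeOperatorBar M s z) = 0 := by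
  haveI : NeZero (s : ℕ) := ⟨s.2.ne_zero⟩
  obtain ⟨hα, hβ, hP, hfin, hFI, hNF⟩ := H51.stmt_HKA M (s : ℕ)
  obtain ⟨D, rfl⟩ := Pic0.mk_surjective z
  rw [heckeOperatorBar_apply, heckeOperatorAlong_eq hα hβ hFI hfin hNF]
  have hmk : heckePic0Bar hα hβ hFI hfin hNF (Pic0.mk D)
      = Pic0.mk (Pic0.degZeroCorrespondence (heckeBetaBar (AlgebraicClosure ℚ) M (s : ℕ))
          (heckeAlphaBar (AlgebraicClosure ℚ) M (s : ℕ)) hβ hα hFI D) := rfl
  rw [hmk, H36.redPic_mk_eq_zero_iff]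
  rw [H36.redPic_mk_eq_zero_iff] at hz
  exact hcore M q (s : ℕ) hq s.2 hqM A hA hα hβ r hr hmove
    (D : Divisor (AlgebraicClosure ℚ) ↥(modularFunctionFieldBar M)) hz

/-- **KER** from `Stmt_HRcore`. -/
theorem stmt_KerStable_of (hcore : H51.Stmt_HRcore) : Stmt_KerStable := by
  intro M q _ hq hqM A hA r hr hmove ℓ _ _ z hz
  exact redPic_heckeOperatorBar_eq_zero hcore M q hq hqM A hA r hr hmove ℓ z hz

end Fermat.Agent.S43.Old.H75

end
end
-- ==== END Fermat.Agent.S43.Old.H75_Ker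

-- ==== BEGIN Fermat.Agent.S44.C.Defs2
section

set_option autoImplicit false

namespace Fermat.Agent.S44.C

open WeierstrassCurve WeierstrassCurve.Affine
open Fermat.Agent.S05 (ModelHyp InE0 InE1)

/-- The approximate character `lam(P) = (y - β x) / (y + β x)`, `lam(O) = 1`. -/
noncomputable def lam {L : Type*} [Field L] (β : L) {W : Affine L} : W.Point → L
  | .zero => 1
  | .some x y _ => (y - β * x) / (y + β * x)

@[simp] lemma lam_zero {L : Type*} [Field L] (β : L) {W : Affine L} :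
    lam β (0 : W.Point) = 1 := rfl

@[simp] lemma lam_some {L : Type*} [Field L] (β : L) {W : Affine L} {x y : L}
    (h : W.Nonsingular x y) : lam β (Point.some x y h) = (y - β * x) / (y + β * x) := rfl

/-- **M** (multiplicativity of `lam` on `E₀`, multiplicative reduction `|b| < 1`):
`lam` is a unit on `E₀`, `lam (-P) = (lam P)⁻¹`, `|lam - 1| < 1` on `E₁`, and
`|lam (P + Q) - lam P · lam Q| ≤ |b| · |lam Q - 1|` for `P, Q ∈ E₀`. -/
def Stmt_M : Prop :=
  ∀ (L : Type) [Field L] [DecidableEq L] (A : ValuationSubring L) (W : Affine L),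
    ModelHyp A W → A.valuation W.a₄ < 1 → ∀ β : L, β ^ 2 = W.a₂ →
    (∀ P : W.Point, InE0 A P → A.valuation (lam β P) = 1) ∧
    (∀ P : W.Point, lam β (-P) = (lam β P)⁻¹) ∧
    (∀ P : W.Point, InE1 A P → A.valuation (lam β P - 1) < 1) ∧
    (∀ P Q : W.Point, InE0 A P → InE0 A Q →
      A.valuation (lam β (P + Q) - lam β P * lam β Q) ≤
        A.valuation W.a₄ * A.valuation (lam β Q - 1))

/-- **L4** (no small `p`-torsion in `E₁`): if `|b| < |p| < 1`, `S ∈ E₁`, `p S = O` and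
`|lam S - 1| ^ (p - 1) < |p|` then `S = O`. -/
def Stmt_L4 : Prop :=
  ∀ (L : Type) [Field L] [DecidableEq L] (A : ValuationSubring L) (W : Affine L),
    ModelHyp A W → ∀ β : L, β ^ 2 = W.a₂ →
    ∀ p : ℕ, p.Prime → A.valuation (p : L) < 1 → A.valuation W.a₄ < A.valuation (p : L) →
    ∀ S : W.Point, InE1 A S → p • S = 0 →
      A.valuation (lam β S - 1) ^ (p - 1) < A.valuation (p : L) → S = 0

end Fermat.Agent.S44.C

end
-- ==== END Fermat.Agent.S44.C.Defs2

-- ==== BEGIN Fermat.Agent.S44.C.H01_Val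
section

set_option autoImplicit false

namespace Fermat.Agent.S44.C.H01

open Polynomial

/-! ### Generalities on valuations -/

section Gen

variable {L : Type} [Field L] {Γ₀ : Type} [LinearOrderedCommGroupWithZero Γ₀] (v : Valuation L Γ₀)

theorem val_natCast_le_one (n : ℕ) : v (n : L) ≤ 1 := by
  induction n with
  | zero => simp
  | succ n ih =>
    rw [Nat.cast_succ]
    exact (v.map_add _ _).trans (max_le ih (by rw [v.map_one]))

theorem val_eq_one_of_pow_eq_one {x : L} {n : ℕ} (hn : n ≠ 0) (hx : x ^ n = 1) : v x = 1 := by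
  have h1 : v x ^ n = 1 := by rw [← v.map_pow, hx, v.map_one]
  rcases lt_trichotomy (v x) 1 with h | h | h
  · exact absurd h1 (pow_lt_one₀ zero_le h hn).ne
  · exact h
  · exact absurd h1 (one_lt_pow₀ h hn).ne'

end Gen

/-! ### V3 -/

theorem one_add_pow_eq (p : ℤ) (n : ℕ) : ∃ c : ℤ, (1 + p) ^ n = 1 + n * p + p ^ 2 * c := by
  induction n with
  | zero => exact ⟨0, by simp⟩
  | succ n ih =>
    obtain ⟨c, hc⟩ := ih
    refine ⟨n + c + p * c, ?_⟩
    rw [pow_succ, hc]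
    push_cast
    ring

/-- **V3.** -/
theorem stmt_V3 : Stmt_V3 := by
  intro p hp t ht
  have : Fact p.Prime := ⟨hp⟩
  -- `t ^ (p - 1) = 1 + p s`
  have h1 : (t : ZMod p) ^ (p - 1) = 1 := by
    apply ZMod.pow_card_sub_one_eq_one
    intro h0
    exact ht ((ZMod.intCast_zmod_eq_zero_iff_dvd t p).1 h0)
  have h2 : (p : ℤ) ∣ t ^ (p - 1) - 1 := by
    rw [← ZMod.intCast_zmod_eq_zero_iff_dvd]
    push_cast
    rw [h1, sub_self]
  obtain ⟨s, hs⟩ := h2
  -- choose `n ≡ -s mod p`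
  obtain ⟨n, hn⟩ : ∃ n : ℕ, (p : ℤ) ∣ s + n := by
    refine ⟨((-s) % p).toNat, ?_⟩
    have hp0 : (p : ℤ) ≠ 0 := by exact_mod_cast hp.ne_zero
    have hnn : 0 ≤ (-s) % (p : ℤ) := Int.emod_nonneg _ hp0
    rw [Int.toNat_of_nonneg hnn]
    have h3 : (p : ℤ) ∣ (-s) - (-s) % p := Int.dvd_self_sub_emod
    have h4 : s + (-s) % (p : ℤ) = -((-s) - (-s) % p) := by ring
    rw [h4]
    exact (dvd_neg).2 h3
  obtain ⟨m, hm⟩ := hn
  obtain ⟨c, hc⟩ := one_add_pow_eq (p : ℤ) n
  refine ⟨n, ?_⟩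
  have hpp : t ^ p = t * t ^ (p - 1) := by
    rw [← pow_succ', Nat.sub_add_cancel hp.one_le]
  have h5 : t ^ (p - 1) = 1 + p * s := by linarith
  refine ⟨-(t * (m + s * n + c + p * s * c)), ?_⟩
  rw [hpp, h5, hc]
  have hm' : (n : ℤ) = p * m - s := by linarith
  rw [hm']
  ring

/-! ### V2 -/

/-- **V2.** -/
theorem stmt_V2 : Stmt_V2 := by
  intro L _ Γ₀ _ v p hp δ hδ1 hδp
  by_cases hδ0 : δ = 0
  · subst hδ0
    simp
  have hvδ : 0 < v δ := by
    rw [pos_iff_ne_zero, Ne, v.zero_iff]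
    exact hδ0
  have hvp : 0 < v (p : L) := lt_of_le_of_lt zero_le hδp
  have hpos : 0 < v (p : L) * v δ := mul_pos hvp hvδ
  -- expansion
  have hexp : (1 + δ) ^ p - 1 = (p : L) * δ +
      ∑ m ∈ Finset.range (p - 1), δ ^ (m + 2) * (p.choose (m + 2) : L) := by
    have h1 : (1 + δ) ^ p = ∑ m ∈ Finset.range (p + 1), δ ^ m * (p.choose m : L) := by
      rw [add_comm, add_pow]
      refine Finset.sum_congr rfl fun m _ => ?_
      rw [one_pow, mul_one]
    have hp1 : p = (p - 1) + 1 := (Nat.sub_add_cancel hp.one_le).symm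
    rw [h1, Finset.sum_range_succ']
    conv_lhs => rw [hp1, Finset.sum_range_succ']
    simp only [pow_zero, Nat.choose_zero_right, Nat.cast_one, mul_one, zero_add, pow_one,
      Nat.choose_one_right]
    rw [← hp1]
    ring
  have hrest : v (∑ m ∈ Finset.range (p - 1), δ ^ (m + 2) * (p.choose (m + 2) : L)) <
      v (p : L) * v δ := by
    refine v.map_sum_lt hpos.ne' fun m hm => ?_
    rw [Finset.mem_range] at hm
    rw [v.map_mul, v.map_pow]
    by_cases hmp : m + 2 = p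
    · rw [hmp, Nat.choose_self, Nat.cast_one, v.map_one, mul_one]
      have : v δ ^ p = v δ ^ (p - 1) * v δ := by
        rw [← pow_succ, Nat.sub_add_cancel hp.one_le]
      rw [this]
      exact mul_lt_mul_of_pos_right hδp hvδ
    · have hlt : m + 2 < p := by omega
      have hdvd : p ∣ p.choose (m + 2) := hp.dvd_choose_self (by omega) hlt
      obtain ⟨c, hc⟩ := hdvd
      have h2 : v (p.choose (m + 2) : L) ≤ v (p : L) := by
        rw [hc, Nat.cast_mul, v.map_mul]
        exact mul_le_of_le_one_right zero_le (val_natCast_le_one v c)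
      have h3 : v δ ^ (m + 2) < v δ := by
        have : v δ ^ (m + 2) = v δ ^ (m + 1) * v δ := by rw [← pow_succ]
        rw [this]
        have h4 : v δ ^ (m + 1) < 1 := pow_lt_one₀ zero_le hδ1 (by omega)
        calc v δ ^ (m + 1) * v δ < 1 * v δ := mul_lt_mul_of_pos_right h4 hvδ
          _ = v δ := one_mul _
      calc v δ ^ (m + 2) * v (p.choose (m + 2) : L)
          ≤ v δ ^ (m + 2) * v (p : L) := mul_le_mul_right h2 _
        _ < v δ * v (p : L) := mul_lt_mul_of_pos_right h3 hvp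
        _ = v (p : L) * v δ := mul_comm _ _
  rw [hexp, v.map_add_eq_of_lt_left (by rw [v.map_mul]; exact hrest), v.map_mul]

/-! ### V1 -/

/-- **V1.** -/
theorem stmt_V1 : Stmt_V1 := by
  intro L _ _ _ Γ₀ _ v p hp h
  classical
  have : NeZero (p : L) := ⟨by exact_mod_cast hp.ne_zero⟩
  have : NeZero p := ⟨hp.ne_zero⟩
  obtain ⟨μ, hμ⟩ := HasEnoughRootsOfUnity.exists_primitiveRoot L p
  have hfac : ∀ x : L, x ^ p - 1 = ∏ i ∈ Finset.range p, (x - μ ^ i) := by
    intro x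
    have := congrArg (Polynomial.eval x) (X_pow_sub_C_eq_prod hμ hp.pos (one_pow p))
    simpa [Polynomial.eval_prod] using this
  -- the closest root of unity
  obtain ⟨i0, -, hmin⟩ := Finset.exists_min_image (Finset.range p) (fun i => v (h - μ ^ i))
    ⟨0, Finset.mem_range.2 hp.pos⟩
  set ζ := μ ^ i0 with hζ
  have hζp : ζ ^ p = 1 := by rw [hζ, ← pow_mul, mul_comm, pow_mul, hμ.pow_eq_one, one_pow]
  have hminall : ∀ η : L, η ^ p = 1 → v (h - ζ) ≤ v (h - η) := by
    intro η hη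
    obtain ⟨i, hi, rfl⟩ := hμ.eq_pow_of_pow_eq_one hη
    exact hmin i (Finset.mem_range.2 hi)
  refine ⟨ζ, hζp, ?_⟩
  have hζ0 : ζ ≠ 0 := by
    intro h0
    rw [h0, zero_pow hp.ne_zero] at hζp
    exact zero_ne_one hζp
  have hvζ : v ζ = 1 := val_eq_one_of_pow_eq_one v hp.ne_zero hζp
  -- `h' = h / ζ`
  have hp1 : p = (p - 1) + 1 := (Nat.sub_add_cancel hp.one_le).symm
  have hprim : IsPrimitiveRoot μ ((p - 1) + 1) := by rw [← hp1]; exact hμ
  have hord := hprim.prod_one_sub_pow_eq_order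
  have hvp : v (p : L) = ∏ k ∈ Finset.range (p - 1), v (1 - μ ^ (k + 1)) := by
    rw [← map_prod, hord]
    congr 1
    rw [hp1]
    push_cast
    simp
  have hterm : ∀ k ∈ Finset.range (p - 1), v (1 - μ ^ (k + 1)) ≤ v (h * ζ⁻¹ - μ ^ (k + 1)) := by
    intro k _
    have e1 : h * ζ⁻¹ - μ ^ (k + 1) = ζ⁻¹ * (h - ζ * μ ^ (k + 1)) := by
      field_simp
    have e2 : (1 : L) - μ ^ (k + 1) = ζ⁻¹ * ((h - ζ * μ ^ (k + 1)) - (h - ζ)) := by
      field_simp
      ring
    have hη : (ζ * μ ^ (k + 1)) ^ p = 1 := by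
      rw [mul_pow, hζp, one_mul, ← pow_mul, mul_comm, pow_mul, hμ.pow_eq_one, one_pow]
    have hvi : v ζ⁻¹ = 1 := by rw [map_inv₀, hvζ, inv_one]
    rw [e1, e2, v.map_mul, v.map_mul, hvi, one_mul, one_mul]
    exact (v.map_sub _ _).trans (max_le le_rfl (hminall _ hη))
  have hprod : v ((h * ζ⁻¹) ^ p - 1) =
      v (h * ζ⁻¹ - 1) * ∏ k ∈ Finset.range (p - 1), v (h * ζ⁻¹ - μ ^ (k + 1)) := by
    rw [hfac]
    conv_lhs => rw [hp1, Finset.prod_range_succ']
    rw [pow_zero, v.map_mul, map_prod, mul_comm]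
  have hpow : (h * ζ⁻¹) ^ p - 1 = h ^ p - 1 := by
    rw [mul_pow, inv_pow, hζp, inv_one, mul_one]
  have hfirst : v (h * ζ⁻¹ - 1) = v (h - ζ) := by
    have e : h * ζ⁻¹ - 1 = ζ⁻¹ * (h - ζ) := by field_simp
    rw [e, v.map_mul, map_inv₀, hvζ, inv_one, one_mul]
  rw [← hpow, hprod, hfirst, hvp]
  exact mul_le_mul_right (Finset.prod_le_prod' hterm) _

end Fermat.Agent.S44.C.H01

end
-- ==== END Fermat.Agent.S44.C.H01_Val

-- ==== BEGIN Fermat.Agent.S44.C.H19_RatLim
section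

/-!
# S44, package C, leaves F1–F4 (helper19): the `p`-adic closure of `ℚ` in `L`

`L` a field of characteristic `0`, `A` a valuation subring with `|p| < 1`,
`IsRatLim A p z : ∀ k, ∃ r : ℚ, |z - r| ≤ |p| ^ k`.

* `isRatLim_rat`, `isRatLim_add`, `isRatLim_neg`, `isRatLim_sub`, `isRatLim_mul`,
  `isRatLim_inv` (the last one for algebraic `z`);
* `stmt_F1 : Stmt_F1` : the limits of rationals form a subfield (`L` algebraic over `ℚ`);
* `stmt_F2 : Stmt_F2` : they are fixed by valuation preserving automorphisms;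
* `stmt_F3 : Stmt_F3` : square roots `≡ 1` of limits `≡ 1` are limits (`p` odd);
* `stmt_F4 : Stmt_F4` : unit limits are congruent mod `p²` to integers prime to `p`.
-/

set_option autoImplicit false
set_option linter.unusedSectionVars false

namespace Fermat.Agent.S44.C.H19

open Fermat.Agent.BAD.H82

section Basic

variable {L : Type*} [Field L] [Algebra ℚ L] [CharZero L] (A : ValuationSubring L) {p : ℕ}

theorem algebraMap_rat_eq (r : ℚ) :
    algebraMap ℚ L r = ((r.num : ℤ) : L) / (((r.den : ℕ) : ℤ) : L) := by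
  rw [eq_ratCast, Rat.cast_def, Int.cast_natCast]

theorem val_p_ne_zero (hp : p.Prime) : A.valuation (p : L) ≠ 0 :=
  (Valuation.ne_zero_iff _).2 (Nat.cast_ne_zero.2 hp.ne_zero)

theorem val_p_pos (hp : p.Prime) : 0 < A.valuation (p : L) :=
  zero_lt_iff.2 (val_p_ne_zero A hp)

theorem val_p_pow_le_one (hp1 : A.valuation (p : L) < 1) (n : ℕ) :
    A.valuation (p : L) ^ n ≤ 1 :=
  pow_le_one' hp1.le n

theorem val_p_pow_anti (hp1 : A.valuation (p : L) < 1) {m n : ℕ} (h : m ≤ n) :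
    A.valuation (p : L) ^ n ≤ A.valuation (p : L) ^ m :=
  pow_le_pow_right_of_le_one' hp1.le h

theorem val_p_pow_strictAnti (hp : p.Prime) (hp1 : A.valuation (p : L) < 1) {m n : ℕ}
    (h : m < n) : A.valuation (p : L) ^ n < A.valuation (p : L) ^ m :=
  pow_lt_pow_right_of_lt_one₀ (val_p_pos A hp) hp1 h

theorem isRatLim_rat (r : ℚ) : IsRatLim A p (algebraMap ℚ L r) := fun k =>
  ⟨r, by rw [sub_self, map_zero]; exact zero_le⟩

theorem isRatLim_add {z w : L} (hz : IsRatLim A p z) (hw : IsRatLim A p w) :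
    IsRatLim A p (z + w) := by
  intro k
  obtain ⟨r, hr⟩ := hz k
  obtain ⟨s, hs⟩ := hw k
  refine ⟨r + s, ?_⟩
  have h : z + w - algebraMap ℚ L (r + s) =
      (z - algebraMap ℚ L r) + (w - algebraMap ℚ L s) := by
    rw [map_add]; ring
  rw [h]
  exact (Valuation.map_add _ _ _).trans (max_le hr hs)

theorem isRatLim_neg {z : L} (hz : IsRatLim A p z) : IsRatLim A p (-z) := by
  intro k
  obtain ⟨r, hr⟩ := hz k
  refine ⟨-r, ?_⟩
  have h : -z - algebraMap ℚ L (-r) = -(z - algebraMap ℚ L r) := by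
    rw [map_neg]; ring
  rw [h, Valuation.map_neg]
  exact hr

theorem isRatLim_sub {z w : L} (hz : IsRatLim A p z) (hw : IsRatLim A p w) :
    IsRatLim A p (z - w) := by
  rw [sub_eq_add_neg]
  exact isRatLim_add A hz (isRatLim_neg A hw)

/-- A rational number has valuation at most `|p| ^ (-m)` for some `m`. -/
theorem exists_rat_bound (hp : p.Prime) (hp1 : A.valuation (p : L) < 1) (r : ℚ) :
    ∃ m : ℕ, A.valuation (algebraMap ℚ L r) * A.valuation (p : L) ^ m ≤ 1 := by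
  obtain ⟨m, hm⟩ := exists_valuation_int_eq A hp ((A.mem_nonunits_iff).2 hp1) ((r.den : ℕ) : ℤ)
    (by exact_mod_cast r.den_nz)
  refine ⟨m, ?_⟩
  have hden : A.valuation (((r.den : ℕ) : ℤ) : L) ≠ 0 := by
    rw [hm]
    exact pow_ne_zero _ (val_p_ne_zero A hp)
  rw [algebraMap_rat_eq, map_div₀, ← hm, div_mul_cancel₀ _ hden]
  exact valuation_int_le_one A r.num

/-- A limit of rationals has valuation at most `|p| ^ (-m)` for some `m`. -/
theorem exists_bound (hp : p.Prime) (hp1 : A.valuation (p : L) < 1) {z : L}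
    (hz : IsRatLim A p z) :
    ∃ m : ℕ, A.valuation z * A.valuation (p : L) ^ m ≤ 1 := by
  obtain ⟨r, hr⟩ := hz 0
  rw [pow_zero] at hr
  obtain ⟨m, hm⟩ := exists_rat_bound A hp hp1 r
  refine ⟨m, ?_⟩
  have h : z = (z - algebraMap ℚ L r) + algebraMap ℚ L r := by ring
  calc A.valuation z * A.valuation (p : L) ^ m
      = A.valuation ((z - algebraMap ℚ L r) + algebraMap ℚ L r) * A.valuation (p : L) ^ m := by
        rw [← h]
    _ ≤ max (A.valuation (z - algebraMap ℚ L r)) (A.valuation (algebraMap ℚ L r)) *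
          A.valuation (p : L) ^ m := mul_le_mul_left (Valuation.map_add _ _ _) _
    _ ≤ 1 := by
        rcases le_total (A.valuation (z - algebraMap ℚ L r)) (A.valuation (algebraMap ℚ L r))
          with h1 | h1
        · rw [max_eq_right h1]; exact hm
        · rw [max_eq_left h1]
          calc A.valuation (z - algebraMap ℚ L r) * A.valuation (p : L) ^ m
              ≤ 1 * 1 := mul_le_mul' hr (val_p_pow_le_one A hp1 m)
            _ = 1 := one_mul 1

theorem isRatLim_mul (hp : p.Prime) (hp1 : A.valuation (p : L) < 1) {z w : L}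
    (hz : IsRatLim A p z) (hw : IsRatLim A p w) : IsRatLim A p (z * w) := by
  intro k
  obtain ⟨mz, hmz⟩ := exists_bound A hp hp1 hz
  obtain ⟨s, hs⟩ := hw (k + mz)
  obtain ⟨ms, hms⟩ := exists_rat_bound A hp hp1 s
  obtain ⟨r, hr⟩ := hz (k + ms)
  refine ⟨r * s, ?_⟩
  have h : z * w - algebraMap ℚ L (r * s) =
      z * (w - algebraMap ℚ L s) + algebraMap ℚ L s * (z - algebraMap ℚ L r) := by
    rw [map_mul]; ring
  rw [h]
  refine (Valuation.map_add _ _ _).trans (max_le ?_ ?_)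
  · rw [map_mul]
    calc A.valuation z * A.valuation (w - algebraMap ℚ L s)
        ≤ A.valuation z * A.valuation (p : L) ^ (k + mz) := mul_le_mul_right hs _
      _ = (A.valuation z * A.valuation (p : L) ^ mz) * A.valuation (p : L) ^ k := by
          rw [pow_add, mul_comm (A.valuation (p : L) ^ k), mul_assoc]
      _ ≤ 1 * A.valuation (p : L) ^ k := mul_le_mul_left hmz _
      _ = A.valuation (p : L) ^ k := one_mul _
  · rw [map_mul]
    calc A.valuation (algebraMap ℚ L s) * A.valuation (z - algebraMap ℚ L r)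
        ≤ A.valuation (algebraMap ℚ L s) * A.valuation (p : L) ^ (k + ms) :=
          mul_le_mul_right hr _
      _ = (A.valuation (algebraMap ℚ L s) * A.valuation (p : L) ^ ms) *
            A.valuation (p : L) ^ k := by
          rw [pow_add, mul_comm (A.valuation (p : L) ^ k), mul_assoc]
      _ ≤ 1 * A.valuation (p : L) ^ k := mul_le_mul_left hms _
      _ = A.valuation (p : L) ^ k := one_mul _

theorem isAlgebraic_int_of_rat (halg : Algebra.IsAlgebraic ℚ L) (x : L) : IsAlgebraic ℤ x :=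
  (IsFractionRing.isAlgebraic_iff ℤ ℚ L).2 (halg.isAlgebraic x)

theorem isRatLim_inv (hp : p.Prime) (hp1 : A.valuation (p : L) < 1) {z : L}
    (hz : IsRatLim A p z) (hz0 : z ≠ 0) (halg : IsAlgebraic ℤ z) : IsRatLim A p z⁻¹ := by
  intro k
  obtain ⟨n, hn⟩ := exists_q_pow_le A hp ((A.mem_nonunits_iff).2 hp1) hz0 halg
  obtain ⟨r, hr⟩ := hz (k + 2 * n + 1)
  have hlt : A.valuation (z - algebraMap ℚ L r) < A.valuation z :=
    lt_of_le_of_lt hr (lt_of_lt_of_le (val_p_pow_strictAnti A hp hp1 (by omega)) hn)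
  have hvr : A.valuation (algebraMap ℚ L r) = A.valuation z := by
    have h : algebraMap ℚ L r = z - (z - algebraMap ℚ L r) := by ring
    rw [h]
    exact Valuation.map_sub_eq_of_lt_left _ hlt
  have hvz : A.valuation z ≠ 0 := (Valuation.ne_zero_iff _).2 hz0
  have hr0 : algebraMap ℚ L r ≠ 0 := by
    intro h0
    rw [h0, map_zero] at hvr
    exact hvz hvr.symm
  refine ⟨r⁻¹, ?_⟩
  have h : z⁻¹ - algebraMap ℚ L r⁻¹ =
      -(z - algebraMap ℚ L r) * (z * algebraMap ℚ L r)⁻¹ := by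
    rw [map_inv₀]
    field_simp
    ring
  rw [h, map_mul, Valuation.map_neg, map_inv₀, map_mul, hvr]
  have hpos : 0 < A.valuation z * A.valuation z := zero_lt_iff.2 (mul_ne_zero hvz hvz)
  rw [mul_inv_le_iff₀ hpos]
  calc A.valuation (z - algebraMap ℚ L r)
      ≤ A.valuation (p : L) ^ (k + 2 * n + 1) := hr
    _ ≤ A.valuation (p : L) ^ (k + (n + n)) := val_p_pow_anti A hp1 (by omega)
    _ = A.valuation (p : L) ^ k * (A.valuation (p : L) ^ n * A.valuation (p : L) ^ n) := by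
        rw [pow_add, pow_add]
    _ ≤ A.valuation (p : L) ^ k * (A.valuation z * A.valuation z) :=
        mul_le_mul_right (mul_le_mul' hn hn) _

/-- The subfield of limits of rationals. -/
def ratLimSubfield (hp : p.Prime) (hp1 : A.valuation (p : L) < 1)
    (halg : Algebra.IsAlgebraic ℚ L) : Subfield L where
  carrier := {z | IsRatLim A p z}
  mul_mem' := fun hz hw => isRatLim_mul A hp hp1 hz hw
  one_mem' := by
    have := isRatLim_rat (L := L) A (p := p) 1
    rwa [map_one] at this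
  add_mem' := fun hz hw => isRatLim_add A hz hw
  zero_mem' := by
    have := isRatLim_rat (L := L) A (p := p) 0
    rwa [map_zero] at this
  neg_mem' := fun hz => isRatLim_neg A hz
  inv_mem' := fun z hz => by
    by_cases hz0 : z = 0
    · rw [hz0, inv_zero]
      have := isRatLim_rat (L := L) A (p := p) 0
      rwa [map_zero] at this
    · exact isRatLim_inv A hp hp1 hz hz0 (isAlgebraic_int_of_rat halg z)

theorem mem_ratLimSubfield (hp : p.Prime) (hp1 : A.valuation (p : L) < 1)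
    (halg : Algebra.IsAlgebraic ℚ L) (z : L) :
    z ∈ ratLimSubfield A hp hp1 halg ↔ IsRatLim A p z := Iff.rfl

/-- An element of valuation `≤ |p| ^ k` for all `k` is zero (`L` algebraic: rank one). -/
theorem eq_zero_of_forall_le (hp : p.Prime) (hp1 : A.valuation (p : L) < 1) {x : L}
    (halg : IsAlgebraic ℤ x) (h : ∀ k : ℕ, A.valuation x ≤ A.valuation (p : L) ^ k) : x = 0 := by
  by_contra hx
  obtain ⟨n, hn⟩ := exists_q_pow_le A hp ((A.mem_nonunits_iff).2 hp1) hx halg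
  exact absurd ((h (n + 1)).trans_lt (val_p_pow_strictAnti A hp hp1 (Nat.lt_succ_self n)))
    (not_lt.2 hn)

end Basic

section Arith

/-- Integer Hensel for square roots: `c ≡ 1 mod p`, `p` odd `⇒` `c` is a square mod `p ^ n` of
some `s ≡ 1 mod p`. -/
theorem exists_sqrt_mod_pow {p : ℕ} (hp : p.Prime) (hp2 : p ≠ 2) (c : ℤ)
    (hc : (p : ℤ) ∣ c - 1) (n : ℕ) :
    ∃ s : ℤ, (p : ℤ) ∣ s - 1 ∧ (p : ℤ) ^ (n + 1) ∣ s ^ 2 - c := by
  induction n with
  | zero =>
    refine ⟨1, by simp, ?_⟩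
    rw [zero_add, pow_one]
    have h : (1 : ℤ) ^ 2 - c = -(c - 1) := by ring
    rw [h]
    exact (dvd_neg).2 hc
  | succ n ih =>
    obtain ⟨s, hs1, m, hm⟩ := ih
    have hps : ¬ (p : ℤ) ∣ 2 * s := by
      intro h
      have hpZ : Prime (p : ℤ) := Nat.prime_iff_prime_int.mp hp
      rcases hpZ.dvd_or_dvd h with h2 | h2
      · have h3 : p ∣ 2 := by exact_mod_cast h2
        exact hp2 ((Nat.prime_dvd_prime_iff_eq hp Nat.prime_two).1 h3)
      · have h3 : (p : ℤ) ∣ 1 := by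
          have := dvd_sub h2 hs1
          simpa using this
        exact hpZ.not_dvd_one h3
    have hcop : IsCoprime (2 * s) (p : ℤ) := by
      have hpZ : Prime (p : ℤ) := Nat.prime_iff_prime_int.mp hp
      exact ((hpZ.coprime_iff_not_dvd).2 hps).symm
    obtain ⟨x, y, hxy⟩ := hcop
    refine ⟨s + (p : ℤ) ^ (n + 1) * (-m * x), ?_, ?_⟩
    · have h : s + (p : ℤ) ^ (n + 1) * (-m * x) - 1 = (s - 1) + (p : ℤ) * ((p : ℤ) ^ n * (-m * x)) := by
        ring
      rw [h]
      exact dvd_add hs1 (dvd_mul_right _ _)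
    · refine ⟨m * y + (p : ℤ) ^ n * (-m * x) ^ 2, ?_⟩
      have e1 : (s + (p : ℤ) ^ (n + 1) * (-m * x)) ^ 2 - c =
          (s ^ 2 - c) + (p : ℤ) ^ (n + 1) * (2 * s * (-m * x)) +
            (p : ℤ) ^ (n + 1) * ((p : ℤ) ^ (n + 1) * (-m * x) ^ 2) := by ring
      rw [e1, hm]
      have e2 : (p : ℤ) ^ (n + 1 + 1) = (p : ℤ) ^ (n + 1) * p := pow_succ _ _
      have e3 : (p : ℤ) ^ (n + 1) = (p : ℤ) * (p : ℤ) ^ n := pow_succ' _ _
      rw [e2]
      have e5 : (p : ℤ) ^ (n + 1) * m + (p : ℤ) ^ (n + 1) * (2 * s * (-m * x)) =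
          (p : ℤ) ^ (n + 1) * (p * (m * y)) := by
        linear_combination (-((p : ℤ) ^ (n + 1)) * m) * hxy
      rw [e5]
      conv_lhs => rw [show (p : ℤ) ^ (n + 1) * ((p : ℤ) ^ (n + 1) * (-m * x) ^ 2) =
        (p : ℤ) ^ (n + 1) * ((p : ℤ) * ((p : ℤ) ^ n * (-m * x) ^ 2)) by rw [e3]; ring]
      ring

/-- Division mod `p ^ k`: for `b` prime to `p` there is `t` with `p ^ k ∣ t b - a`. -/
theorem exists_div_mod_pow {p : ℕ} (hp : p.Prime) (a b : ℤ) (hb : ¬ (p : ℤ) ∣ b) (k : ℕ) :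
    ∃ t : ℤ, (p : ℤ) ^ k ∣ t * b - a := by
  have hpZ : Prime (p : ℤ) := Nat.prime_iff_prime_int.mp hp
  have hcop : IsCoprime b ((p : ℤ) ^ k) :=
    (((hpZ.coprime_iff_not_dvd).2 hb).symm).pow_right
  obtain ⟨x, y, hxy⟩ := hcop
  refine ⟨a * x, -(a * y), ?_⟩
  linear_combination a * hxy

end Arith

section Units

variable {L : Type*} [Field L] [Algebra ℚ L] [CharZero L] (A : ValuationSubring L) {p : ℕ}

theorem val_int_le_pow_of_dvd {a : ℤ} {k : ℕ}
    (h : (p : ℤ) ^ k ∣ a) : A.valuation (a : L) ≤ A.valuation (p : L) ^ k := by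
  obtain ⟨c, rfl⟩ := h
  push_cast
  rw [map_mul, map_pow]
  calc A.valuation (p : L) ^ k * A.valuation (c : L)
      ≤ A.valuation (p : L) ^ k * 1 := mul_le_mul_right (valuation_int_le_one A c) _
    _ = A.valuation (p : L) ^ k := mul_one _

theorem val_int_lt_one_of_dvd (hp1 : A.valuation (p : L) < 1) {a : ℤ}
    (h : (p : ℤ) ∣ a) : A.valuation (a : L) < 1 := by
  have h' : (p : ℤ) ^ 1 ∣ a := by rwa [pow_one]
  have h1 := val_int_le_pow_of_dvd (L := L) A h'
  rw [pow_one] at h1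
  exact lt_of_le_of_lt h1 hp1

theorem dvd_of_val_int_lt_one (hp : p.Prime) (hp1 : A.valuation (p : L) < 1) {a : ℤ}
    (h : A.valuation (a : L) < 1) : (p : ℤ) ∣ a := by
  by_contra hna
  exact absurd (valuation_int_eq_one A hp ((A.mem_nonunits_iff).2 hp1) a hna) h.ne

theorem rat_unit (hp : p.Prime) (hp1 : A.valuation (p : L) < 1) {r : ℚ}
    (hr : A.valuation (algebraMap ℚ L r) = 1) :
    ¬ (p : ℤ) ∣ r.num ∧ ¬ (p : ℤ) ∣ ((r.den : ℕ) : ℤ) := by
  have hden0 : (((r.den : ℕ) : ℤ) : L) ≠ 0 := by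
    exact_mod_cast r.den_nz
  have hmul : algebraMap ℚ L r * (((r.den : ℕ) : ℤ) : L) = ((r.num : ℤ) : L) := by
    rw [algebraMap_rat_eq, div_mul_cancel₀ _ hden0]
  have hv : A.valuation (((r.den : ℕ) : ℤ) : L) = A.valuation ((r.num : ℤ) : L) := by
    rw [← hmul, map_mul, hr, one_mul]
  have hden : ¬ (p : ℤ) ∣ ((r.den : ℕ) : ℤ) := by
    intro hd
    have h1 : A.valuation (((r.den : ℕ) : ℤ) : L) < 1 := val_int_lt_one_of_dvd A hp1 hd
    rw [hv] at h1
    have h2 : (p : ℤ) ∣ r.num := dvd_of_val_int_lt_one A hp hp1 h1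
    have h3 : p ∣ r.num.natAbs := Int.natCast_dvd.1 h2
    have h4 : p ∣ r.den := by exact_mod_cast hd
    have h5 := Nat.dvd_gcd h3 h4
    rw [Nat.Coprime.gcd_eq_one r.reduced] at h5
    exact hp.one_lt.ne' (Nat.dvd_one.1 h5)
  refine ⟨fun hn => ?_, hden⟩
  have h1 : A.valuation ((r.num : ℤ) : L) < 1 := val_int_lt_one_of_dvd A hp1 hn
  rw [← hv] at h1
  exact absurd (valuation_int_eq_one A hp ((A.mem_nonunits_iff).2 hp1) _ hden) h1.ne

/-- A rational unit is congruent mod `p ^ (k + 1)` to an integer prime to `p`. -/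
theorem exists_int_approx (hp : p.Prime) (hp1 : A.valuation (p : L) < 1) {r : ℚ}
    (hr : A.valuation (algebraMap ℚ L r) = 1) (k : ℕ) :
    ∃ t : ℤ, ¬ (p : ℤ) ∣ t ∧
      A.valuation (algebraMap ℚ L r - (t : L)) ≤ A.valuation (p : L) ^ (k + 1) := by
  obtain ⟨hnum, hden⟩ := rat_unit A hp hp1 hr
  obtain ⟨t, ht⟩ := exists_div_mod_pow hp r.num ((r.den : ℕ) : ℤ) hden (k + 1)
  have hden0 : (((r.den : ℕ) : ℤ) : L) ≠ 0 := by
    exact_mod_cast r.den_nz
  refine ⟨t, fun hpt => hnum ?_, ?_⟩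
  · have h1 : (p : ℤ) ∣ t * ((r.den : ℕ) : ℤ) - r.num :=
      dvd_trans (dvd_pow_self _ (Nat.succ_ne_zero k)) ht
    have h2 : (p : ℤ) ∣ t * ((r.den : ℕ) : ℤ) := dvd_mul_of_dvd_left hpt _
    have h3 := dvd_sub h2 h1
    simpa using h3
  · have h : algebraMap ℚ L r - (t : L) =
        -(((t * ((r.den : ℕ) : ℤ) - r.num : ℤ)) : L) / (((r.den : ℕ) : ℤ) : L) := by
      rw [algebraMap_rat_eq]
      push_cast
      field_simp
      ring
    rw [h, map_div₀, Valuation.map_neg,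
      valuation_int_eq_one A hp ((A.mem_nonunits_iff).2 hp1) _ hden, div_one]
    exact val_int_le_pow_of_dvd A ht

end Units

section Statements

theorem stmt_F1 : Stmt_F1 := by
  intro L _ _ _ halg A p hp hp1
  exact ⟨ratLimSubfield A hp hp1 halg, fun z => mem_ratLimSubfield A hp hp1 halg z⟩

theorem stmt_F2 : Stmt_F2 := by
  intro L _ _ _ halg A p hp hp1 σ hσ z hz
  have h0 : σ z - z = 0 := by
    refine eq_zero_of_forall_le A hp hp1 (isAlgebraic_int_of_rat halg _) (fun k => ?_)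
    obtain ⟨r, hr⟩ := hz k
    have h : σ z - z = σ (z - algebraMap ℚ L r) - (z - algebraMap ℚ L r) := by
      rw [map_sub, σ.commutes]
      ring
    rw [h]
    exact A.valuation.map_sub_le ((hσ _).le.trans hr) hr
  exact sub_eq_zero.1 h0

theorem stmt_F4 : Stmt_F4 := by
  intro L _ _ _ A p hp hp1 w hw hw1
  obtain ⟨r, hr⟩ := hw 2
  have hlt : A.valuation (w - algebraMap ℚ L r) < A.valuation w := by
    rw [hw1]
    exact lt_of_le_of_lt hr (lt_of_le_of_lt (val_p_pow_anti A hp1 (by omega : 1 ≤ 2))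
      (by rw [pow_one]; exact hp1))
  have hvr : A.valuation (algebraMap ℚ L r) = 1 := by
    have h : algebraMap ℚ L r = w - (w - algebraMap ℚ L r) := by ring
    rw [h, Valuation.map_sub_eq_of_lt_left _ hlt, hw1]
  obtain ⟨t, ht, hrt⟩ := exists_int_approx A hp hp1 hvr 1
  refine ⟨t, ht, ?_⟩
  have h : w - (t : L) = (w - algebraMap ℚ L r) + (algebraMap ℚ L r - (t : L)) := by ring
  rw [h]
  exact (Valuation.map_add _ _ _).trans (max_le hr hrt)

theorem stmt_F3 : Stmt_F3 := by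
  intro L _ _ _ A p hp hp2 hp1 d η hd hd1 hη hη1 k
  -- a rational approximation of `d`
  obtain ⟨r, hr⟩ := hd (k + 1)
  have hpk1 : A.valuation (p : L) ^ (k + 1) < 1 :=
    lt_of_le_of_lt (val_p_pow_anti A hp1 (by omega : 1 ≤ k + 1)) (by rw [pow_one]; exact hp1)
  have hr1 : A.valuation (algebraMap ℚ L r - 1) < 1 := by
    have h : algebraMap ℚ L r - 1 = -(d - algebraMap ℚ L r) + (d - 1) := by ring
    rw [h]
    refine lt_of_le_of_lt (Valuation.map_add _ _ _) (max_lt ?_ hd1)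
    rw [Valuation.map_neg]
    exact lt_of_le_of_lt hr hpk1
  have hvr : A.valuation (algebraMap ℚ L r) = 1 := by
    have h : algebraMap ℚ L r = 1 + (algebraMap ℚ L r - 1) := by ring
    rw [h]
    exact A.valuation.map_one_add_of_lt hr1
  -- an integer approximation `c ≡ 1 mod p`
  obtain ⟨c, -, hrc⟩ := exists_int_approx A hp hp1 hvr k
  have hc1 : (p : ℤ) ∣ c - 1 := by
    refine dvd_of_val_int_lt_one A hp hp1 ?_
    have h : (((c - 1 : ℤ)) : L) = -(algebraMap ℚ L r - (c : L)) + (algebraMap ℚ L r - 1) := by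
      push_cast; ring
    rw [h]
    refine lt_of_le_of_lt (Valuation.map_add _ _ _) (max_lt ?_ hr1)
    rw [Valuation.map_neg]
    exact lt_of_le_of_lt hrc hpk1
  -- a square root of `c` mod `p ^ (k + 1)`
  obtain ⟨s, hs1, hsc⟩ := exists_sqrt_mod_pow hp hp2 c hc1 k
  refine ⟨(s : ℚ), ?_⟩
  have hcast : algebraMap ℚ L (s : ℚ) = (s : L) := map_intCast _ s
  rw [hcast]
  have hs1v : A.valuation ((s : L) - 1) < 1 := by
    have := val_int_lt_one_of_dvd (L := L) A hp1 hs1
    simpa using this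
  have h2 : A.valuation (2 : L) = 1 := by
    have h2' : ¬ (p : ℤ) ∣ 2 := by
      intro h
      have h3 : p ∣ 2 := by exact_mod_cast h
      exact hp2 ((Nat.prime_dvd_prime_iff_eq hp Nat.prime_two).1 h3)
    have := valuation_int_eq_one A hp ((A.mem_nonunits_iff).2 hp1) 2 h2'
    simpa using this
  have hsum : A.valuation ((s : L) + η) = 1 := by
    have h : (s : L) + η = 2 + (((s : L) - 1) + (η - 1)) := by ring
    have hlt : A.valuation (((s : L) - 1) + (η - 1)) < A.valuation (2 : L) := by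
      rw [h2]
      exact lt_of_le_of_lt (Valuation.map_add _ _ _) (max_lt hs1v hη1)
    rw [h, A.valuation.map_add_eq_of_lt_left hlt, h2]
  have hsq : A.valuation ((s : L) ^ 2 - d) ≤ A.valuation (p : L) ^ (k + 1) := by
    have h : (s : L) ^ 2 - d = (((s ^ 2 - c : ℤ)) : L) + (-(algebraMap ℚ L r - (c : L)) +
        -(d - algebraMap ℚ L r)) := by
      push_cast; ring
    rw [h]
    refine (Valuation.map_add _ _ _).trans (max_le (val_int_le_pow_of_dvd A hsc) ?_)
    refine (Valuation.map_add _ _ _).trans (max_le ?_ ?_)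
    · rw [Valuation.map_neg]; exact hrc
    · rw [Valuation.map_neg]; exact hr
  have hfac : (s : L) ^ 2 - d = -((η - (s : L)) * ((s : L) + η)) := by
    rw [← hη]; ring
  rw [hfac, Valuation.map_neg, map_mul, hsum, mul_one] at hsq
  exact hsq.trans (val_p_pow_anti A hp1 (Nat.le_succ k))

end Statements

end Fermat.Agent.S44.C.H19

end
-- ==== END Fermat.Agent.S44.C.H19_RatLim

-- ==== BEGIN Fermat.Agent.S44.CycRam
section

set_option autoImplicit false

namespace Fermat.Agent.S44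

/-- The subgroup of `G_ℚ` fixing the `p`-th roots of unity. -/
def fixRoots (p : ℕ) : Subgroup GQ where
  carrier := {σ | ∀ ζ : AlgebraicClosure ℚ, ζ ^ p = 1 → σ ζ = ζ}
  one_mem' := fun _ _ => rfl
  mul_mem' := by
    intro σ τ hσ hτ ζ hζ
    rw [AlgEquiv.mul_apply, hτ ζ hζ, hσ ζ hζ]
  inv_mem' := by
    intro σ hσ ζ hζ
    have h := hσ ζ hζ
    calc σ⁻¹ ζ = σ⁻¹ (σ ζ) := by rw [h]
      _ = ζ := by
        rw [← AlgEquiv.mul_apply, inv_mul_cancel]
        rfl

theorem fixRoots_normal (p : ℕ) : (fixRoots p).Normal := by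
  constructor
  intro σ hσ τ ζ hζ
  have h1 : (τ⁻¹ ζ) ^ p = 1 := by rw [← map_pow, hζ, map_one]
  have h2 := hσ (τ⁻¹ ζ) h1
  rw [AlgEquiv.mul_apply, AlgEquiv.mul_apply, h2, ← AlgEquiv.mul_apply, mul_inv_cancel]
  rfl

/-- **The cyclotomic character is ramified at `p`.** -/
theorem stmt_CycRam : Stmt_CycRam := by
  intro p hp hp2 A hA
  by_contra hcon
  push Not at hcon
  -- the subgroup fixing the roots of unity is everything
  have htop : fixRoots p = ⊤ := by
    refine Fermat.Agent.Lib.Minkowski.minkowski (fixRoots p) (fixRoots_normal p) ?_ ?_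
    · -- it contains the stabiliser of the finite set of roots of unity
      classical
      have hfin : {ζ : AlgebraicClosure ℚ | ζ ^ p = 1}.Finite := by
        have h0 : (Polynomial.X ^ p - 1 : Polynomial (AlgebraicClosure ℚ)) ≠ 0 :=
          Polynomial.X_pow_sub_C_ne_zero hp.pos 1
        refine ((Polynomial.X ^ p - 1 : Polynomial (AlgebraicClosure ℚ)).roots.toFinset.finite_toSet).subset ?_
        intro ζ hζ
        simp only [Finset.mem_coe, Multiset.mem_toFinset]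
        rw [Polynomial.mem_roots h0]
        simp only [Polynomial.IsRoot, Polynomial.eval_sub, Polynomial.eval_pow, Polynomial.eval_X,
          Polynomial.eval_one]
        rw [Set.mem_setOf_eq] at hζ
        rw [hζ, sub_self]
      refine ⟨hfin.toFinset, fun σ hσ ζ hζ => hσ ζ ?_⟩
      rw [Set.Finite.mem_toFinset]
      exact hζ
    · intro ℓ hℓ
      by_cases hℓp : ℓ = p
      · subst hℓp
        exact ⟨A, hA, fun σ hσ ζ hζ => hcon σ hσ ζ hζ⟩
      · obtain ⟨A', hA'⟩ := Fermat.Agent.Lib.FrobExists.exists_liesOverPrime ℓ hℓ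
        refine ⟨A', hA', fun σ hσ ζ hζ => ?_⟩
        refine Fermat.Agent.R.H89.inertia_fixes_rootsOfUnity ℓ A' hA' σ hσ p ?_ ζ hζ
        exact (Nat.coprime_primes hp hℓ).mpr (fun h => hℓp h.symm)
  -- a primitive root
  haveI : NeZero (p : AlgebraicClosure ℚ) := ⟨by exact_mod_cast hp.ne_zero⟩
  obtain ⟨ζ, hζ⟩ := HasEnoughRootsOfUnity.exists_primitiveRoot (AlgebraicClosure ℚ) p
  -- complex conjugation inverts it and fixes it
  have h1 : complexConjugation ζ = ζ⁻¹ :=
    Fermat.Agent.L.H52.complexConjugation_root hp.ne_zero hζ.pow_eq_one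
  have h2 : complexConjugation ζ = ζ := by
    have hmem : complexConjugation ∈ fixRoots p := by rw [htop]; exact Subgroup.mem_top _
    exact hmem ζ hζ.pow_eq_one
  have hζ0 : ζ ≠ 0 := hζ.ne_zero hp.ne_zero
  have h3 : ζ ^ 2 = 1 := by
    rw [h2] at h1
    rw [pow_two]
    nth_rewrite 1 [h1]
    exact inv_mul_cancel₀ hζ0
  have h4 : p ∣ 2 := hζ.dvd_of_pow_eq_one 2 h3
  have h5 : p ≤ 2 := Nat.le_of_dvd (by norm_num) h4
  have h6 : 2 ≤ p := hp.two_le
  exact hp2 (le_antisymm h5 h6)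

end Fermat.Agent.S44

end
-- ==== END Fermat.Agent.S44.CycRam

-- ==== BEGIN Fermat.Agent.S44.TateModP
section

set_option autoImplicit false

noncomputable section

namespace Fermat.Agent.S44

open AlgebraicCurve ModularCurve Fermat.Agent.GTor Fermat.Agent.Betti Fermat.Agent.GTor.H81

/-! ### Descent of eigenvectors to the prime field -/

/-- A common eigenvector over a field of characteristic `p` of a family of integer matrices, with
integer eigenvalues, gives a common eigenvector over `ZMod p`. -/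
theorem exists_eigenvector_zmod {p : ℕ} (hp : p.Prime) {k : Type*} [Field k] [CharP k p]
    {r : ℕ} {I : Type*} (Mat : I → Matrix (Fin r) (Fin r) ℤ) (c : I → ℤ)
    (v : Fin r → k) (hv : v ≠ 0)
    (h : ∀ i, ((Mat i).map (Int.cast : ℤ → k)).mulVec v = (c i : k) • v) :
    ∃ x : Fin r → ZMod p, x ≠ 0 ∧
      ∀ i, ((Mat i).map (Int.cast : ℤ → ZMod p)).mulVec x = (c i : ZMod p) • x := by
  haveI : Fact p.Prime := ⟨hp⟩
  letI : Algebra (ZMod p) k := ZMod.algebra k p
  obtain ⟨j, hj⟩ : ∃ j, v j ≠ 0 := by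
    by_contra hcon
    push Not at hcon
    exact hv (funext hcon)
  obtain ⟨φ, hφ⟩ := Module.Projective.exists_dual_ne_zero (ZMod p) hj
  have hcast : ∀ (n : ℤ) (y : k), φ ((n : k) * y) = (n : ZMod p) * φ y := by
    intro n y
    have : (n : k) * y = (n : ZMod p) • y := by
      rw [Algebra.smul_def, map_intCast]
    rw [this, map_smul, smul_eq_mul]
  refine ⟨fun a => φ (v a), fun h0 => hφ (congrFun h0 j), fun i => ?_⟩
  funext a
  have h1 := congrFun (h i) a
  simp only [Matrix.mulVec, dotProduct, Matrix.map_apply, Pi.smul_apply, smul_eq_mul] at h1 ⊢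
  rw [← hcast, ← h1, map_sum]
  exact Finset.sum_congr rfl fun b _ => (hcast _ _).symm

/-- An embedding of `ℚ̄` into `ℂ`. -/
theorem exists_embedding_complex : Nonempty (AlgebraicClosure ℚ →+* ℂ) := by
  have halg : Algebra.IsAlgebraic ℚ (AlgebraicClosure ℚ) := AlgebraicClosure.isAlgebraic ℚ
  exact ⟨((IsAlgClosed.lift : AlgebraicClosure ℚ →ₐ[ℚ] ℂ) : AlgebraicClosure ℚ →+* ℂ)⟩

/-! ### The three clauses -/

section Clauses

variable {N p : ℕ} [NeZero N]

theorem jz_torsion_pow (x : Jtor N p) : ∃ n : ℕ, p ^ n • (x : JZero N) = 0 := by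
  refine ⟨1, ?_⟩
  have := Pic0.mem_torsion.1 x.2
  rw [pow_one, ← natCast_zsmul]
  exact this

/-- The Hecke operator of `jzModule` at a good prime, on points. -/
theorem jz_T_apply {ℓ : ℕ} (hℓ : ℓ.Prime) (hℓN : ¬ ℓ ∣ N) (x : Jtor N p) :
    (jzModule N p).T ℓ x = heckeTor p (⟨ℓ, hℓ⟩ : Nat.Primes) x := by
  rw [jzModule.T_eq N p hℓ hℓN]
  rfl

theorem jz_gal_apply (σ : _root_.Fermat.Agent.S44.GQ) (x : Jtor N p) :
    (jzModule N p).gal σ x = JZero.torsionGaloisRep N p σ x := rfl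

/-- **Clause 1**: `J₀(N)[p]` is finite, the Galois action factors through a number field, the
Hecke operators commute with each other and with the Galois action. -/
theorem jz_isContinuous (hp : p.Prime) (hTOR : Stmt_TORc N p) (hHK : Stmt_HK N p) :
    (jzModule N p).IsContinuous := by
  obtain ⟨r, b, hb⟩ := Betti.stmt_basis N
  obtain ⟨M, -, hMT, -⟩ := Betti.H76.stmt_matrixRep N (∅ : Set ℕ) r b hb
  have hL : Stmt_torsLift N := H77.stmt_torsLift N
  obtain ⟨ι⟩ : Nonempty (AlgebraicClosure ℚ →+* ℂ) := exists_embedding_complex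
  obtain ⟨E⟩ := nonempty_torIso hTOR ι
  have hn : p ≠ 0 := hp.ne_zero
  haveI hfin : Finite (Jtor N p) := finite_Jtor hb hL hn E
  refine ⟨hfin, ?_, ?_, ?_⟩
  · -- continuity
    choose L hL1 hL2 using fun x : Jtor N p => stmt_GAL N (x : JZero N)
    refine ⟨⨆ x, L x, ?_, fun σ hσ => ?_⟩
    · haveI : ∀ x, FiniteDimensional ℚ (L x) := hL1
      exact IntermediateField.finiteDimensional_iSup_of_finite
    · refine LinearMap.ext fun x => ?_
      have hx : ∀ y : Jtor N p, (jzModule N p).gal σ y = y := fun y =>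
        Subtype.ext (hL2 y σ fun z hz => hσ z ((le_iSup L y) hz))
      exact hx x
  · -- the Hecke operators commute
    intro ℓ ℓ'
    by_cases h : ℓ.Prime ∧ ¬ ℓ ∣ N
    · by_cases h' : ℓ'.Prime ∧ ¬ ℓ' ∣ N
      · refine LinearMap.ext fun x => ?_
        have key : ∀ y : Jtor N p,
            heckeTor p (⟨ℓ, h.1⟩ : Nat.Primes) (heckeTor p (⟨ℓ', h'.1⟩ : Nat.Primes) y) =
              heckeTor p (⟨ℓ', h'.1⟩ : Nat.Primes) (heckeTor p (⟨ℓ, h.1⟩ : Nat.Primes) y) := by
          intro y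
          apply (theta hb hL hn E).injective
          rw [theta_heckeTor hb hL hn E h.1 h.2 hHK _ (hMT ℓ h.1 h.2 (Set.notMem_empty ℓ)),
            theta_heckeTor hb hL hn E h'.1 h'.2 hHK _ (hMT ℓ' h'.1 h'.2 (Set.notMem_empty ℓ')),
            theta_heckeTor hb hL hn E h'.1 h'.2 hHK _ (hMT ℓ' h'.1 h'.2 (Set.notMem_empty ℓ')),
            theta_heckeTor hb hL hn E h.1 h.2 hHK _ (hMT ℓ h.1 h.2 (Set.notMem_empty ℓ)),
            Matrix.mulVec_mulVec, Matrix.mulVec_mulVec]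
          congr 1
          have hc : M (CuspForm.heckeAlgebra.T h.1 h.2 (Set.notMem_empty ℓ)) *
              M (CuspForm.heckeAlgebra.T h'.1 h'.2 (Set.notMem_empty ℓ')) =
              M (CuspForm.heckeAlgebra.T h'.1 h'.2 (Set.notMem_empty ℓ')) *
                M (CuspForm.heckeAlgebra.T h.1 h.2 (Set.notMem_empty ℓ)) := by
            rw [← map_mul, ← map_mul, mul_comm]
          have := congrArg (fun A : Matrix (Fin r) (Fin r) ℤ =>
            (Int.castRingHom (ZMod p)).mapMatrix A) hc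
          simpa only [map_mul, RingHom.mapMatrix_apply, Int.coe_castRingHom] using this
        exact ((jz_T_apply h.1 h.2 _).trans
          (congrArg (heckeTor p (⟨ℓ, h.1⟩ : Nat.Primes)) (jz_T_apply h'.1 h'.2 x))).trans
          ((key x).trans ((jz_T_apply h'.1 h'.2 _).trans
            (congrArg (heckeTor p (⟨ℓ', h'.1⟩ : Nat.Primes)) (jz_T_apply h.1 h.2 x))).symm)
      · rw [jzModule.T_eq_zero N p h', mul_zero, zero_mul]
    · rw [jzModule.T_eq_zero N p h, mul_zero, zero_mul]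
  · -- Galois commutes with Hecke
    intro σ ℓ
    by_cases h : ℓ.Prime ∧ ¬ ℓ ∣ N
    · refine LinearMap.ext fun x => ?_
      have key := heckeTor_gal (H2.stmt_GalHecke N) p (⟨ℓ, h.1⟩ : Nat.Primes) σ x
      exact (congrArg (JZero.torsionGaloisRep N p σ) (jz_T_apply h.1 h.2 x)).trans
        (key.trans (jz_T_apply h.1 h.2 _).symm)
    · rw [jzModule.T_eq_zero N p h, mul_zero, zero_mul]

/-- **Clause 2**: unramified outside `N p` and the Eichler-Shimura relation. -/
theorem jz_eichlerShimura (hU : Stmt_TorsUnram N p) (hES : Stmt_TorsES N p) :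
    (jzModule N p).EichlerShimura N := by
  intro ℓ hℓ hℓNp A hA
  have hℓN : ¬ ℓ ∣ N := fun h => hℓNp (h.mul_right p)
  have hℓp : ℓ ≠ p := fun h => hℓNp (h ▸ dvd_mul_left ℓ N)
  refine ⟨fun σ hσ => ?_, fun σ hσ => ?_⟩
  · refine LinearMap.ext fun x => ?_
    have hx : ∀ y : Jtor N p, (jzModule N p).gal σ y = y := fun y =>
      Subtype.ext (hU ℓ hℓ hℓN hℓp A hA σ hσ (y : JZero N) (jz_torsion_pow y))
    exact hx x
  · refine LinearMap.ext fun x => ?_
    have hx : ∀ y : Jtor N p,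
        JZero.torsionGaloisRep N p σ (JZero.torsionGaloisRep N p σ y)
          - heckeTor p (⟨ℓ, hℓ⟩ : Nat.Primes) (JZero.torsionGaloisRep N p σ y)
          + (ℓ : ZMod p) • y = 0 := by
      intro y
      have key := hES ℓ hℓ hℓN hℓp A hA σ hσ (y : JZero N) (jz_torsion_pow y)
      rw [Nat.cast_smul_eq_nsmul]
      apply Subtype.ext
      rw [AddSubgroup.coe_zero, AddSubgroup.coe_add, AddSubgroup.coe_sub, AddSubgroup.coe_nsmul]
      exact key
    have e : (jzModule N p).T ℓ = heckeTors N p ⟨ℓ, hℓ⟩ := jzModule.T_eq N p hℓ hℓN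
    rw [e]
    exact hx x

/-- **Clause 3**: every eigenform of level `N` has an eigenvector in `J₀(N)[p]`. -/
theorem jz_hasSupport (hp : p.Prime) (hTOR : Stmt_TORc N p) (hHK : Stmt_HK N p) :
    (jzModule N p).HasSupport N := by
  intro f 𝔪 S t hf h𝔪 hp𝔪 hcong
  obtain ⟨r, b, hb⟩ := Betti.stmt_basis N
  -- the Hecke algebra away from `S ∪ {p}`
  set S' : Set ℕ := (↑S : Set ℕ) ∪ {p} with hS'
  obtain ⟨M, hMinj, hMT, -⟩ := Betti.H76.stmt_matrixRep N S' r b hb
  have hL : Stmt_torsLift N := H77.stmt_torsLift N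
  obtain ⟨ι⟩ : Nonempty (AlgebraicClosure ℚ →+* ℂ) := exists_embedding_complex
  obtain ⟨E⟩ := nonempty_torIso hTOR ι
  have hn : p ≠ 0 := hp.ne_zero
  -- the eigen-character and its reduction
  obtain ⟨χ, hχ⟩ := Fermat.Agent.R.H99.stmt_eigenChar N S' f hf
  haveI := h𝔪
  letI : Field (ZBar ⧸ 𝔪) := Ideal.Quotient.field 𝔪
  haveI : CharP (ZBar ⧸ 𝔪) p := by
    refine (CharP.charP_iff_prime_eq_zero hp).2 ?_
    have : ((p : ZBar) : ZBar ⧸ 𝔪) = 0 := Ideal.Quotient.eq_zero_iff_mem.2 hp𝔪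
    simpa using this
  let χbar : CuspForm.heckeAlgebra N 2 S' →+* (ZBar ⧸ 𝔪) := (Ideal.Quotient.mk 𝔪).comp χ
  obtain ⟨v, hv, hvT⟩ := Betti.H21.exists_eigenvector M hMinj χbar
  -- the index set of good primes
  let I : Type := {ℓ : ℕ // ℓ.Prime ∧ ℓ ∉ S ∧ ¬ ℓ ∣ N ∧ ℓ ≠ p}
  have hIS : ∀ i : I, (i : ℕ) ∉ S' := by
    intro i hi
    rcases hi with hi | hi
    · exact i.2.2.1 (by exact_mod_cast hi)
    · exact i.2.2.2.2 hi
  let Mat : I → Matrix (Fin r) (Fin r) ℤ := fun i =>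
    M (CuspForm.heckeAlgebra.T i.2.1 i.2.2.2.1 (hIS i))
  have hχt : ∀ i : I, χbar (CuspForm.heckeAlgebra.T i.2.1 i.2.2.2.1 (hIS i)) =
      ((t i : ℤ) : ZBar ⧸ 𝔪) := by
    intro i
    obtain ⟨a, ha, ham⟩ := hcong i i.2.1 i.2.2.1 i.2.2.2.1 i.2.2.2.2
    have e : χ (CuspForm.heckeAlgebra.T i.2.1 i.2.2.2.1 (hIS i)) = a :=
      Subtype.ext ((hχ i i.2.1 i.2.2.2.1 (hIS i)).trans ha.symm)
    show (Ideal.Quotient.mk 𝔪) (χ _) = _
    rw [e, ← map_intCast (Ideal.Quotient.mk 𝔪)]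
    exact (Ideal.Quotient.mk_eq_mk_iff_sub_mem _ _).2 ham
  obtain ⟨x, hx, hxT⟩ := exists_eigenvector_zmod hp Mat (fun i => t i) v hv
    (fun i => by rw [← hχt i]; exact hvT _)
  -- back to `J₀(N)[p]`
  let y : Jtor N p := (theta hb hL hn E).symm x
  have hy : theta hb hL hn E y = x := (theta hb hL hn E).apply_symm_apply x
  have hy0 : y ≠ 0 := by
    intro h0
    apply hx
    rw [← hy, h0, map_zero]
  refine ⟨y, hy0, fun ℓ hℓ hℓS hℓN hℓp => ?_⟩
  let i : I := ⟨ℓ, hℓ, hℓS, hℓN, hℓp⟩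
  have key : heckeTor p (⟨ℓ, hℓ⟩ : Nat.Primes) y = ((t ℓ : ℤ) : ZMod p) • y := by
    apply (theta hb hL hn E).injective
    rw [theta_heckeTor hb hL hn E hℓ hℓN hHK (Mat i) (hMT ℓ hℓ hℓN (hIS i)), hy]
    have e2 : theta hb hL hn E (((t ℓ : ℤ) : ZMod p) • y) = ((t ℓ : ℤ) : ZMod p) • x := by
      rw [← hy]
      exact (thetaLin hb hL hn E).map_smul _ y
    rw [e2]
    exact hxT i
  exact (jz_T_apply hℓ hℓN y).trans key

end Clauses

/-! ### Assembly -/

/-- The three clauses for one level and one prime. -/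
theorem jz_tate {N p : ℕ} [NeZero N] (hp : p.Prime) (hTOR : Stmt_TORc N p) (hHK : Stmt_HK N p)
    (hU : Stmt_TorsUnram N p) (hES : Stmt_TorsES N p) :
    (jzModule N p).IsContinuous ∧ (jzModule N p).EichlerShimura N ∧ (jzModule N p).HasSupport N :=
  ⟨jz_isContinuous hp hTOR hHK, jz_eichlerShimura hU hES, jz_hasSupport hp hTOR hHK⟩

/-- **Package A1** from the packages of G-TOR and G-RED which are still open: descent
(`Stmt_DESC`), Hecke compatibility of the torsion dictionary (`Stmt_HK`) and the reduction packages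
(`AllRed`). -/
theorem stmt_TateModP_of
    (hD : ∀ (N : ℕ) [NeZero N] (p : ℕ), p.Prime → Stmt_DESC N p)
    (hHK : ∀ (N : ℕ) [NeZero N] (p : ℕ), p.Prime → Stmt_HK N p)
    (hRed : ∀ (N : ℕ) [NeZero N] (p : ℕ), p.Prime → AllRed N p) : Stmt_TateModP := by
  intro p hp _ N _
  exact jz_tate hp
    (stmt_TORc N p hp.ne_zero (Clo.stmt_A3 N) (Clo.stmt_A4 N) (Clo.stmt_A5 N) (hD N p hp))
    (hHK N p hp) (torsUnram_of_red hp (hRed N p hp)) (torsES_of_red hp (hRed N p hp))

end Fermat.Agent.S44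

end
end
-- ==== END Fermat.Agent.S44.TateModP
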