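-- GENERATED (merged mirror, NOTES/tools/trim/merge3_helper67.py): 10 modules of the originals, bodies verbatim.
import Fermat.Agent.Zm.S44_L02_003
import Fermat.Agent.Zm.S44_L01_003
import Fermat.Agent.Zm.S44_L01_000
import Fermat.Agent.Zm.S35_L03_000
import Fermat.Agent.Zm.S35_L12_000
import Fermat.Agent.GTor.H33_Trdeg
import Fermat.Agent.Zm.S35_L02_000
import Fermat.Agent.Zm.S35_L18_000
import Fermat.Agent.Zm.S35_L07_002
import Fermat.Agent.Zm.S35_L01_002
import Fermat.Agent.Zm.S35_L04_002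
import Fermat.Agent.Lib.EllFinite.Main
import Fermat.Agent.Zm.S44_L02_004
import Fermat.Agent.Zm.S35_L08_001
import Fermat.Agent.Zm.S44_L01_005
import Fermat.Agent.Zm.S44_L02_002

-- ==== BEGIN Fermat.Agent.S17.W2.H56_FT1
section

set_option autoImplicit false
set_option linter.style.haveILetI false

noncomputable section

namespace Fermat.Agent.S17.W2.H56

open Algebra IntermediateField

/-- **FT1**. -/
theorem stmt_FT1 (k Ω : Type) [Field k] [Field Ω] [Algebra k Ω] [IsAlgClosed Ω] :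
    Stmt_FT1 k Ω := by
  classical
  intro hbig s hs c hfin
  by_contra hc
  have hind : AlgebraicIndepOn (IntermediateField.adjoin k s) id ({c} : Set Ω) := by
    change AlgebraicIndependent (IntermediateField.adjoin k s)
      (fun x : ({c} : Set Ω) => id (x : Ω))
    rw [algebraicIndependent_unique_type_iff]
    exact hc
  obtain ⟨B, hcB, hB⟩ := exists_isTranscendenceBasis_superset hind
  have hcB' : c ∈ B := hcB (Set.mem_singleton c)
  have hsub : B ⊆ {d : Ω | ∃ σ ∈ Gs k Ω s, σ c = d} := by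
    intro b hb
    obtain ⟨σ, hσ⟩ := exists_algEquiv_of_transcendenceBasis
      (R := IntermediateField.adjoin k s) (K := Ω) (L := Ω) ((↑) : B → Ω) ((↑) : B → Ω) hB hB
      (Equiv.swap ⟨c, hcB'⟩ ⟨b, hb⟩)
    refine ⟨σ.restrictScalars k, ?_, ?_⟩
    · intro x
      exact σ.commutes x
    · have := hσ ⟨c, hcB'⟩
      simpa using this
  exact infinite_of_big hbig s hs B hB (hfin.subset hsub)

end Fermat.Agent.S17.W2.H56

end
end
-- ==== END Fermat.Agent.S17.W2.H56_FT1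

-- ==== BEGIN Fermat.Agent.S17.W2.H56_FT3
section

set_option autoImplicit false
set_option linter.style.haveILetI false

noncomputable section

namespace Fermat.Agent.S17.W2.H56

open Algebra IntermediateField Cardinal

/-- Conjugacy of two embeddings of a field with a finite transcendence basis. -/
theorem exists_algEquiv_conj {R E Ω : Type} [Field R] [Field E] [Field Ω] [Algebra R E]
    [Algebra R Ω] [IsAlgClosed Ω] (A : Set E) (hAfin : A.Finite)
    (hA : IsTranscendenceBasis R ((↑) : A → E)) (φ φ' : E →ₐ[R] Ω) :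
    ∃ σ : Ω ≃ₐ[R] Ω, ∀ e : E, σ (φ e) = φ' e := by
  classical
  have step : ∀ ψ : E →ₐ[R] Ω, ∃ B : Set Ω,
      (@IsTranscendenceBasis B E Ω _ _ ψ.toRingHom.toAlgebra ((↑) : B → Ω)) ∧
      IsTranscendenceBasis R (Sum.elim ((↑) : B → Ω) (fun a : A => ψ (a : E))) := by
    intro ψ
    letI : Algebra E Ω := ψ.toRingHom.toAlgebra
    haveI : IsScalarTower R E Ω := IsScalarTower.of_algebraMap_eq (fun c => (ψ.commutes c).symm)
    obtain ⟨B, hB⟩ := exists_isTranscendenceBasis E Ω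
    exact ⟨B, hB, hA.sumElim_comp hB⟩
  obtain ⟨B1, hB1, hB1'⟩ := step φ
  obtain ⟨B2, hB2, hB2'⟩ := step φ'
  have hcard : #(B1 ⊕ A) = #(B2 ⊕ A) := hB1'.cardinalMk_eq hB2'
  rw [mk_sum, mk_sum, lift_id, lift_id, lift_id] at hcard
  have hAlt : #A < ℵ₀ := by
    haveI := hAfin.to_subtype
    exact Cardinal.mk_lt_aleph0
  have hB : #B1 = #B2 := (Cardinal.add_right_inj_of_lt_aleph0 hAlt).1 hcard
  obtain ⟨e⟩ := Cardinal.eq.1 hB
  obtain ⟨σ, -⟩ := @exists_algEquiv_of_transcendenceBasis E Ω Ω _ _ _ φ.toRingHom.toAlgebra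
    φ'.toRingHom.toAlgebra _ _ B1 B2 ((↑) : B1 → Ω) ((↑) : B2 → Ω) hB1 hB2 e
  have hσ : ∀ a : E, σ (φ a) = φ' a := fun a =>
    @AlgEquiv.commutes E Ω Ω _ _ _ φ.toRingHom.toAlgebra φ'.toRingHom.toAlgebra σ a
  have hcomm : ∀ c : R, σ (algebraMap R Ω c) = algebraMap R Ω c := by
    intro c
    calc σ (algebraMap R Ω c) = σ (φ (algebraMap R E c)) := by rw [φ.commutes]
      _ = φ' (algebraMap R E c) := hσ _
      _ = algebraMap R Ω c := φ'.commutes c
  refine ⟨AlgEquiv.ofRingEquiv (f := @AlgEquiv.toRingEquiv E Ω Ω _ _ _ φ.toRingHom.toAlgebra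
    φ'.toRingHom.toAlgebra σ) hcomm, fun a => hσ a⟩

open scoped IntermediateField.algebraAdjoinAdjoin in
/-- A field algebraic over `K(x)` has a finite transcendence basis over `K`. -/
theorem exists_finite_transcendenceBasis {R E : Type} [Field R] [Field E] [Algebra R E] (x : E)
    (h : Algebra.IsAlgebraic (IntermediateField.adjoin R {x}) E) :
    ∃ A : Set E, A.Finite ∧ IsTranscendenceBasis R ((↑) : A → E) := by
  haveI := h
  haveI : Algebra.IsAlgebraic (Algebra.adjoin R ({x} : Set E)) E :=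
    Algebra.IsAlgebraic.trans (Algebra.adjoin R ({x} : Set E)) (IntermediateField.adjoin R {x}) E
  obtain ⟨A, hAx, hA⟩ := exists_isTranscendenceBasis_subset (R := R) ({x} : Set E)
  exact ⟨A, (Set.finite_singleton x).subset hAx, hA⟩

/-- **FT3**. -/
theorem stmt_FT3 (k Ω : Type) [Field k] [Field Ω] [Algebra k Ω] [IsAlgClosed Ω] :
    Stmt_FT3 k Ω := by
  intro _ s _ E _ _ x hx φ φ'
  obtain ⟨A, hAfin, hA⟩ := exists_finite_transcendenceBasis x hx
  obtain ⟨σ, hσ⟩ := exists_algEquiv_conj A hAfin hA φ φ'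
  refine ⟨σ.restrictScalars k, ?_, fun e => hσ e⟩
  intro y
  exact σ.commutes y

end Fermat.Agent.S17.W2.H56

end
end
-- ==== END Fermat.Agent.S17.W2.H56_FT3

-- ==== BEGIN Fermat.Agent.S17.W2.H75_A
section
attribute [local instance 10000] SubalgebraClass.toAlgebra
attribute [local instance 10000] HahnSeries.powerSeriesAlgebra

/-!
# S17-W2, leaf A (helper75): descent `ℂ → ℚ̄` of `n`-divisibility of `Pic⁰`

`Stmt_A N n`: if `Pic⁰(ℂ(X₀(N)))` is `n`-divisible, then so is `J₀(N)(ℚ̄)`.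
Route: torsor form of DESC-CORE (`GTor.H75.descCoreGen`) applied to `φ` with
`div φ = -n E + bc_* D₀`; the hypothesis (`σ φ / φ` unramified modulo `n` for
`σ ∈ Aut(ℂ / ℚ̄)`) holds because the Gauss extension of a place of degree one is unique, hence
fixed by `σ`.
-/

set_option autoImplicit false
set_option linter.style.haveILetI false
set_option linter.unusedSectionVars false
set_option maxHeartbeats 1000000

noncomputable section

namespace Fermat.Agent.S17.W2.H75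

open AlgebraicCurve ModularCurve Fermat.Agent.GTor

section General

variable (k K : Type) [Field k] [Field K] [Algebra ℚ k] [Algebra ℚ K]
variable (F₀ : IntermediateField ℚ (LaurentSeries ℚ))

set_option synthInstance.maxHeartbeats 400000 in
/-- uniqueness of the extension of a place of degree one to the base change -/
theorem bc_place_unique (ι : k →+* K) (v : Place k ↥(laurentBaseChange k F₀)) (hdeg : v.deg = 1)
    (w w' : Place K ↥(laurentBaseChange K F₀))
    (hw : ∀ g, w.ord (GTor.H75.bcHom ι F₀ g) = v.ord g)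
    (hw' : ∀ g, w'.ord (GTor.H75.bcHom ι F₀ g) = v.ord g) : w = w' := by
  letI : Algebra k K := ι.toAlgebra
  letI : Algebra k ↥(laurentBaseChange K F₀) :=
    ((algebraMap K ↥(laurentBaseChange K F₀)).comp ι).toAlgebra
  haveI : IsScalarTower k K ↥(laurentBaseChange K F₀) := IsScalarTower.of_algebraMap_eq fun _ => rfl
  let ψ : ↥(laurentBaseChange k F₀) →ₐ[k] ↥(laurentBaseChange K F₀) :=
    { GTor.H75.bcHom ι F₀ with commutes' := fun c => GTor.H75.bcHom_algebraMap ι F₀ c }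
  have hgen : ∀ m : ↥(laurentBaseChange K F₀), ∃ x y : TensorProduct k ↥(laurentBaseChange k F₀) K,
      m = H33.tensorToField ψ x / H33.tensorToField ψ y :=
    H33.exists_quot_of_closure ψ (H33.closure_bcHom_eq_top k K F₀ ι)
  exact place_unique ψ v w hw hdeg hgen w' hw'

/-- the Gauss extension is fixed by the automorphisms of `K` over `k` -/
theorem smul_place_eq (ι : k →+* K) (σ : K ≃ₐ[ℚ] K) (hσ : ∀ c, σ (ι c) = ι c)
    (v : Place k ↥(laurentBaseChange k F₀)) (hdeg : v.deg = 1)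
    (w : Place K ↥(laurentBaseChange K F₀))
    (hw : ∀ g, w.ord (GTor.H75.bcHom ι F₀ g) = v.ord g) :
    arithmeticGalois F₀ σ • w = w := by
  refine bc_place_unique k K F₀ ι v hdeg _ w (fun g => ?_) hw
  have h1 : arithmeticGalois F₀ σ • (GTor.H75.bcHom ι F₀ g) = GTor.H75.bcHom ι F₀ g := by
    apply Subtype.ext
    show coeffMap (σ : K →+* K) (coeffMap ι (g : LaurentSeries k)) = coeffMap ι (g : LaurentSeries k)
    rw [coeffMap_coeffMap]
    exact coeffMap_congr (RingHom.ext fun c => hσ c) _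
  have h2 := SemilinearAut.ord_smul (arithmeticGalois F₀ σ) w (GTor.H75.bcHom ι F₀ g)
  rw [h1] at h2
  rw [h2, hw]

end General

section Modular

variable (N n : ℕ) [NeZero N]

theorem descent_modular (hn : n ≠ 0) (ι : AlgebraicClosure ℚ →+* ℂ)
    (wOf : Place (AlgebraicClosure ℚ) (FNL (AlgebraicClosure ℚ) N) → Place ℂ (FNL ℂ N))
    (hwOf : ∀ v g, (wOf v).ord (GTor.H75.bcHom ι (modularFunctionFieldFull N) g) = v.ord g)
    (hdeg₁ : ∀ v : Place (AlgebraicClosure ℚ) (FNL (AlgebraicClosure ℚ) N), v.deg = 1)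
    (D₀ : Divisor (AlgebraicClosure ℚ) (FNL (AlgebraicClosure ℚ) N))
    (E : Divisor ℂ (FNL ℂ N)) (φ : FNL ℂ N) (hφ0 : φ ≠ 0)
    (hφ : ∀ w : Place ℂ (FNL ℂ N),
      w.ord φ = -((n : ℤ) * E w) + (Finsupp.mapDomain wOf D₀ : Divisor ℂ (FNL ℂ N)) w) :
    ∃ (φ₀ : FNL (AlgebraicClosure ℚ) N) (h : FNL ℂ N), φ₀ ≠ 0 ∧ h ≠ 0 ∧
      φ = GTor.H75.bcHom ι (modularFunctionFieldFull N) φ₀ * h ^ n := by
  classical
  have hfin : Finite (UnrKummer ℂ (FNL ℂ N) n) :=
    H56.finite_unrKummer N n hn (H81.stmt_BETTI_final N n hn)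
  refine GTor.H75.descCoreGen (AlgebraicClosure ℚ) ℂ (modularFunctionFieldFull N) ι n
    (Nat.pos_of_ne_zero hn) (H33.exists_not_isAlgebraic_complex ι) hfin φ hφ0 ?_
  intro σ hσ w
  -- the automorphism as a `ℚ`-algebra automorphism
  let σ' : ℂ ≃ₐ[ℚ] ℂ := AlgEquiv.ofRingEquiv (f := σ) (fun q => by
    exact RingHom.map_rat_algebraMap (σ : ℂ →+* ℂ) q)
  set g := arithmeticGalois (modularFunctionFieldFull N) σ' with hg
  have hgφ : GTor.H75.bcHom (σ : ℂ →+* ℂ) (modularFunctionFieldFull N) φ = g • φ := by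
    apply Subtype.ext
    rfl
  have hord : w.ord (g • φ) = (g⁻¹ • w).ord φ := by
    have := SemilinearAut.ord_smul g (g⁻¹ • w) φ
    rwa [smul_inv_smul] at this
  have hσ' : ∀ c, σ' (ι c) = ι c := hσ
  have hσ'inv : ∀ c, σ'⁻¹ (ι c) = ι c := fun c => by
    have := hσ' c
    calc σ'⁻¹ (ι c) = σ'⁻¹ (σ' (ι c)) := by rw [this]
      _ = ι c := σ'.symm_apply_apply _
  have hfix : ∀ v, g • wOf v = wOf v := fun v =>
    smul_place_eq _ ℂ _ ι σ' hσ' v (hdeg₁ v) (wOf v) (hwOf v)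
  have hfixinv : ∀ v, g⁻¹ • wOf v = wOf v := fun v => by
    rw [hg, ← map_inv]
    exact smul_place_eq _ ℂ _ ι σ'⁻¹ hσ'inv v (hdeg₁ v) (wOf v) (hwOf v)
  have hB : (Finsupp.mapDomain wOf D₀ : Divisor ℂ (FNL ℂ N)) (g⁻¹ • w)
      = (Finsupp.mapDomain wOf D₀ : Divisor ℂ (FNL ℂ N)) w := by
    by_cases hr : w ∈ Set.range wOf
    · obtain ⟨v, rfl⟩ := hr
      rw [hfixinv]
    · have hr' : g⁻¹ • w ∉ Set.range wOf := by
        rintro ⟨v, hv⟩
        apply hr
        refine ⟨v, ?_⟩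
        have : g • (g⁻¹ • w) = g • wOf v := by rw [hv]
        rw [smul_inv_smul, hfix] at this
        exact this.symm
      rw [Finsupp.mapDomain_of_notMem_range _ _ hr, Finsupp.mapDomain_of_notMem_range _ _ hr']
  rw [hgφ, hord, hφ, hφ, hB]
  refine ⟨E w - E (g⁻¹ • w), ?_⟩
  ring

/-- **S17-W2, leaf A.** -/
theorem stmt_A (hn : n ≠ 0) : Stmt_A N n := by
  intro hdiv
  haveI : Algebra.IsAlgebraic ℚ (AlgebraicClosure ℚ) := AlgebraicClosure.isAlgebraic ℚ
  let ι : AlgebraicClosure ℚ →+* ℂ :=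
    (IsAlgClosed.lift : AlgebraicClosure ℚ →ₐ[ℚ] ℂ).toRingHom
  have hdeg₁ : ∀ v : Place (AlgebraicClosure ℚ) (FNL (AlgebraicClosure ℚ) N), v.deg = 1 := by
    intro v
    haveI := H33.finiteDimensional_FNL (AlgebraicClosure ℚ) N
    exact Fermat.Agent.S24.ff_deg_eq_one (H33.jL (AlgebraicClosure ℚ) N)
      (H33.transcendental_jL (AlgebraicClosure ℚ) N) v
  have hdeg₂ : ∀ w : Place ℂ (FNL ℂ N), w.deg = 1 := by
    intro w
    haveI := H33.finiteDimensional_FNL ℂ N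
    exact Fermat.Agent.S24.ff_deg_eq_one (H33.jL ℂ N) (H33.transcendental_jL ℂ N) w
  choose wOf hwOf using fun v =>
    H33.stmt_DescPlaceUp (AlgebraicClosure ℚ) ℂ (modularFunctionFieldFull N) ι v (hdeg₁ v)
  haveI := H33.hasPrincipalDivisors_FNL (AlgebraicClosure ℚ) N
  exact divisible_of_descent (GTor.H75.bcHom ι (modularFunctionFieldFull N)) n hn wOf hwOf
    hdeg₁ hdeg₂ (descent_modular N n hn ι wOf hwOf hdeg₁) hdiv

end Modular

end Fermat.Agent.S17.W2.H75

end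
end
-- ==== END Fermat.Agent.S17.W2.H75_A

-- ==== BEGIN Fermat.Agent.S17.W2.H75_Gb
section

/-!
# S17-W2, GEO sub-leaf G-b (helper75): `K(X₀(N))` is finite over `K(j)`, `K ⊇ ℚ̄` arbitrary

`H33.finiteDimensional_FNL` with a ring homomorphism `ℚ̄ → K` instead of `IsAlgClosed K`.
-/

set_option autoImplicit false
set_option linter.style.haveILetI false
set_option linter.unusedSectionVars false

noncomputable section

namespace Fermat.Agent.S17.W2.H75

open AlgebraicCurve IntermediateField ModularCurve Fermat.Agent.GTor Fermat.Agent.S24 Polynomial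

section Gb

variable (K : Type) [Field K] [Algebra ℚ K] (N : ℕ) [NeZero N]

theorem bcHom_jF_hom (ι : Kbar →+* K) :
    GTor.H75.bcHom ι (modularFunctionFieldFull N) (jF N) = H33.jL K N :=
  Subtype.ext (GTor.H75.coeffMap_coeffEmb' ι jq)

set_option synthInstance.maxHeartbeats 400000 in
set_option maxHeartbeats 1600000 in
theorem isAlgebraic_gen_hom (ι : Kbar →+* K) {x : FNL K N} (hx : x ∈ H33.genSet K N) :
    IsAlgebraic K⟮H33.jL K N⟯ x := by
  obtain ⟨z, hz, hzx⟩ := hx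
  haveI : FiniteDimensional Kbar⟮jF N⟯ (FN N) := asm_finiteDimensional (modClosure N)
  let y : FN N := ⟨coeffEmb Kbar z, coeffEmb_mem_laurentBaseChange Kbar (subset_adjoin ℚ _ hz)⟩
  haveI : Algebra.IsAlgebraic Kbar⟮jF N⟯ (FN N) := Algebra.IsAlgebraic.of_finite _ _
  have hy : IsAlgebraic Kbar⟮jF N⟯ y := Algebra.IsAlgebraic.isAlgebraic y
  have h := H33.isAlgebraic_adjoin_map ι (GTor.H75.bcHom ι (modularFunctionFieldFull N))
    (GTor.H75.bcHom_algebraMap ι (modularFunctionFieldFull N)) (jF N) y hy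
  rw [bcHom_jF_hom K N ι] at h
  have hyx : GTor.H75.bcHom ι (modularFunctionFieldFull N) y = x :=
    Subtype.ext ((GTor.H75.coeffMap_coeffEmb' ι z).trans hzx)
  rwa [hyx] at h

set_option synthInstance.maxHeartbeats 400000 in
set_option maxHeartbeats 1600000 in
/-- `K(X₀(N)) / K(j)` is finite, for every field `K` receiving `ℚ̄`. -/
theorem finiteDimensional_FNL_hom (ι : Kbar →+* K) : FiniteDimensional K⟮H33.jL K N⟯ (FNL K N) := by
  haveI : Finite (H33.genSet K N) := (H33.genSet_finite K N).to_subtype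
  have hfin : FiniteDimensional K⟮H33.jL K N⟯ (adjoin K⟮H33.jL K N⟯ (H33.genSet K N)) :=
    IntermediateField.finiteDimensional_adjoin fun x hx =>
      (isAlgebraic_gen_hom K N ι hx).isIntegral
  have htop : adjoin K⟮H33.jL K N⟯ (H33.genSet K N) = ⊤ := by
    rw [← IntermediateField.restrictScalars_eq_top_iff (K := K), eq_top_iff,
      ← H33.adjoin_genSet K N, adjoin_le_iff]
    intro x hx
    exact subset_adjoin K⟮H33.jL K N⟯ _ hx
  rw [htop] at hfin
  exact (IntermediateField.topEquiv (F := K⟮H33.jL K N⟯)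
    (E := FNL K N)).toLinearEquiv.finiteDimensional

set_option synthInstance.maxHeartbeats 400000 in
/-- **G-b**, for a ring homomorphism `ℚ̄ → K`. -/
theorem stmt_Gb_hom (ι : Kbar →+* K) : H18.Stmt_Gb K N := fun e =>
  haveI := finiteDimensional_FNL_hom K N ι
  (Algebra.IsAlgebraic.of_finite K⟮H33.jL K N⟯ (FNL K N)).isAlgebraic e

/-- **G-b**. -/
theorem stmt_Gb [Algebra (AlgebraicClosure ℚ) K] : H18.Stmt_Gb K N :=
  stmt_Gb_hom K N (algebraMap (AlgebraicClosure ℚ) K)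

end Gb

end Fermat.Agent.S17.W2.H75

end
end
-- ==== END Fermat.Agent.S17.W2.H75_Gb

-- ==== BEGIN Fermat.Agent.S17.W2.Places
section

/-!
# S17-W2, CORE part 2: `j`-values of places and the action (helper8)
-/

set_option autoImplicit false

noncomputable section

namespace Fermat.Agent.S17.W2

open AlgebraicCurve WithZero Fermat.Agent.RED.H51

variable {k Ω F : Type} [Field k] [Field Ω] [Field F] [Algebra k Ω] [Algebra Ω F]
variable (S : Setting k Ω F)

theorem Setting.smul_algebraMap (σ : Ω ≃ₐ[k] Ω) (a : Ω) :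
    S.ρ σ • algebraMap Ω F a = algebraMap Ω F (σ a) := by
  rw [SemilinearAut.smul_algebraMap, S.baseAut_ρ]

theorem Setting.smul_j_sub (σ : Ω ≃ₐ[k] Ω) (t : Ω) :
    S.ρ σ • (S.j - algebraMap Ω F t) = S.j - algebraMap Ω F (σ t) := by
  rw [smul_sub, S.ρ_j, S.smul_algebraMap]

theorem Setting.isZeroAt_smul {P : Place Ω F} {t : Ω} (h : S.IsZeroAt P t) (σ : Ω ≃ₐ[k] Ω) :
    S.IsZeroAt (S.ρ σ • P) (σ t) := by
  unfold Setting.IsZeroAt at h ⊢
  rw [← S.smul_j_sub, SemilinearAut.ord_smul]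
  exact h

theorem Setting.ord_j_smul (P : Place Ω F) (σ : Ω ≃ₐ[k] Ω) :
    (S.ρ σ • P).ord S.j = P.ord S.j := by
  have := SemilinearAut.ord_smul (S.ρ σ) P S.j
  rwa [S.ρ_j] at this

theorem Setting.isZeroAt_unique {P : Place Ω F} {t t' : Ω} (h : S.IsZeroAt P t)
    (h' : S.IsZeroAt P t') : t = t' := by
  unfold Setting.IsZeroAt at h h'
  have h1 : OrdGe P 1 (S.j - algebraMap Ω F t) := Or.inr (by omega)
  have h2 : OrdGe P 1 (S.j - algebraMap Ω F t') := Or.inr (by omega)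
  have h3 := h2.sub h1
  have h4 : S.j - algebraMap Ω F t' - (S.j - algebraMap Ω F t) = algebraMap Ω F (t - t') := by
    rw [map_sub]; ring
  rw [h4] at h3
  rcases h3 with h3 | h3
  · exact sub_eq_zero.mp ((algebraMap Ω F).injective (h3.trans (map_zero _).symm))
  · rw [ord_algebraMap] at h3
    omega

theorem Setting.not_isZeroAt_of_pole {P : Place Ω F} (hP : P.ord S.j < 0) (t : Ω) :
    ¬ S.IsZeroAt P t := by
  intro h
  unfold Setting.IsZeroAt at h
  have h1 : OrdGe P 0 (S.j - algebraMap Ω F t) := Or.inr (by omega)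
  have h2 := h1.add (ordGe_algebraMap P t)
  rw [sub_add_cancel] at h2
  rcases h2 with h2 | h2
  · rw [h2, Place.ord_zero] at hP
    omega
  · omega

section Hyp

variable (H : Fermat.Agent.RED.H42.Hyp Ω F) (hj : ∀ c : Ω, S.j ≠ algebraMap Ω F c)
include H

theorem Setting.pole_or_isZeroAt (P : Place Ω F) (hj : ∀ c : Ω, S.j ≠ algebraMap Ω F c) :
    P.ord S.j < 0 ∨ ∃ t, S.IsZeroAt P t := by
  by_cases hp : P.ord S.j < 0
  · exact Or.inl hp
  right
  have hu : P.adicValuation S.j ≤ 1 := by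
    rw [P.adicValuation_le_one_iff]
    right
    omega
  obtain ⟨c, hc⟩ := Fermat.Agent.RED.H42.exists_const_sub_lt_one P (H.deg_one P) hu
  refine ⟨c, ?_⟩
  unfold Setting.IsZeroAt
  have hne : S.j - algebraMap Ω F c ≠ 0 := fun h0 => hj c (sub_eq_zero.mp h0)
  rw [P.adicValuation_eq_exp_neg_ord hne, ← exp_zero, exp_lt_exp] at hc
  omega

include hj

/-- The zeros of `j - t` form a finite set. -/
theorem Setting.finite_zeros (t : Ω) : {P : Place Ω F | S.IsZeroAt P t}.Finite := by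
  have hne : S.j - algebraMap Ω F t ≠ 0 := fun h0 => hj t (sub_eq_zero.mp h0)
  obtain ⟨D, hD, -⟩ := H.principal _ hne
  refine D.support.finite_toSet.subset ?_
  intro P hP
  simp only [Set.mem_ofPred_eq] at hP
  unfold Setting.IsZeroAt at hP
  simp only [Finset.mem_coe, Finsupp.mem_support_iff, hD P]
  omega

/-- The poles of `j` form a finite set. -/
theorem Setting.finite_poles : {P : Place Ω F | P.ord S.j < 0}.Finite := by
  have hne : S.j ≠ 0 := fun h0 => hj 0 (by rw [h0, map_zero])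
  obtain ⟨D, hD, -⟩ := H.principal _ hne
  refine D.support.finite_toSet.subset ?_
  intro P hP
  simp only [Set.mem_ofPred_eq] at hP
  simp only [Finset.mem_coe, Finsupp.mem_support_iff, hD P]
  omega

/-- `j - t` has a zero. -/
theorem Setting.exists_zero (t : Ω) : ∃ P : Place Ω F, S.IsZeroAt P t := by
  have hne : S.j - algebraMap Ω F t ≠ 0 := fun h0 => hj t (sub_eq_zero.mp h0)
  have hnr : (S.j - algebraMap Ω F t)⁻¹ ∉ Set.range (algebraMap Ω F) := by
    rintro ⟨c, hc⟩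
    have h1 : S.j - algebraMap Ω F t = algebraMap Ω F c⁻¹ := by
      rw [map_inv₀, hc, inv_inv]
    exact hj (c⁻¹ + t) (by rw [map_add, ← h1]; ring)
  obtain ⟨P, hP⟩ := H.exists_pole _ hnr
  refine ⟨P, ?_⟩
  unfold Setting.IsZeroAt
  rw [Place.ord_inv] at hP
  omega

end Hyp

end Fermat.Agent.S17.W2

end
end
-- ==== END Fermat.Agent.S17.W2.Places

-- ==== BEGIN Fermat.Agent.S41.H19_I3Final
section

/-!
# S41 package I3 (helper19): non-Eisenstein, unconditional

`stmt_I3 : Stmt_I3` from item 61 (`Lib/FrobDensity/Main.lean`) and item 62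
(`Lib/EllFinite/Main.lean`).
-/

set_option autoImplicit false

namespace Fermat.Agent.S41.H19

/-- **I3, non-Eisenstein** (unconditional): if `E[p]` is irreducible then it is not the case that
`a_ℓ(W) = 1 + ℓ` in `ZMod p` for all good primes `ℓ ∤ M`, `ℓ ≠ p`. -/
theorem stmt_I3 : Stmt_I3 :=
  stmt_I3_of Fermat.Agent.Lib.FrobDensity.stmt_FD Fermat.Agent.Lib.EllFinite.stmt_main

end Fermat.Agent.S41.H19

end
-- ==== END Fermat.Agent.S41.H19_I3Final

-- ==== BEGIN Fermat.Agent.S41.H19_RelDeg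
section

/-!
# S41 package H (helper19): relations between the degeneracy maps

For a prime `q ∤ N`, `N > 0`, on `Hom(Gamma0 N, A)`:
* `cor1_res1` : `cor1 ∘ res1 = q + 1`,
* `cor2_res2` : `cor2 ∘ res2 = q + 1`,
* `cor2_res1` : `cor2 ∘ res1 = cor1 ∘ res2 = Tcoh q`,
* `Tcoh_res1`, `Tcoh_res2` : `Tcoh (N q) ℓ ∘ res_i = res_i ∘ Tcoh N ℓ` for a prime `ℓ ∤ N q`.
-/

set_option autoImplicit false

open scoped MatrixGroups
open CongruenceSubgroup Matrix

namespace Fermat.Agent.S41.H19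

open Fermat.Agent.S41

section Deg

variable {N q : ℕ} {A : Type*} [AddCommGroup A]

theorem cor1_res1 (hN : 0 < N) (hq : q.Prime) (hqN : ¬ q ∣ N) (φ : Additive (Gamma0 N) →+ A) :
    cor1 N q A (res1 N q A φ) = (q + 1) • φ := by
  have := finiteIndex_inclG hN hq hqN
  unfold cor1 res1
  rw [corAlong_resAlong _ (inclG_injective N q), index_inclG hN hq hqN]

lemma hom_conj {G : Type*} [Group G] (φ : Additive G →+ A) (g x : G) :
    φ (Additive.ofMul (g * x * g⁻¹)) = φ (Additive.ofMul x) := by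
  change φ (Additive.ofMul g + Additive.ofMul x + -Additive.ofMul g) = _
  rw [map_add, map_add, map_neg]
  abel

theorem exists_bezout (hq : q.Prime) (hqN : ¬ q ∣ N) :
    ∃ u v : ℤ, (q : ℤ) * u + (N : ℤ) * v = 1 := by
  have hcop : Nat.Coprime q N := (Nat.Prime.coprime_iff_not_dvd hq).mpr hqN
  have h := Nat.isCoprime_iff_coprime.mpr hcop
  obtain ⟨a, b, hab⟩ := h
  exact ⟨a, b, by linear_combination hab⟩

theorem cor2_eq_cor1 (hN : 0 < N) (hq : q.Prime) (hqN : ¬ q ∣ N) {u v : ℤ}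
    (huv : (q : ℤ) * u + (N : ℤ) * v = 1)
    (φ φ' : Additive (Gamma0 (N * q)) →+ A)
    (hφ : ∀ h h' : Gamma0 (N * q), conjG N q h' = g0 huv * inclG N q h * (g0 huv)⁻¹ →
      φ' (Additive.ofMul h') = φ (Additive.ofMul h)) :
    corAlong A (conjG N q) φ' = corAlong A (inclG N q) φ := by
  have := finiteIndex_inclG hN hq hqN
  exact corAlong_transport (inclG N q) (conjG N q) (inclG_injective N q)
    (conjG_injective N q hq.ne_zero) (g0 huv) (AL_surj huv hq.ne_zero) (AL_sub huv) φ φ' hφ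

theorem cor2_res2 (hN : 0 < N) (hq : q.Prime) (hqN : ¬ q ∣ N) (φ : Additive (Gamma0 N) →+ A) :
    cor2 N q A (res2 N q A φ) = (q + 1) • φ := by
  obtain ⟨u, v, huv⟩ := exists_bezout hq hqN
  rw [← cor1_res1 hN hq hqN φ]
  unfold cor2 cor1
  apply cor2_eq_cor1 hN hq hqN huv
  intro h h' hrel
  change φ (Additive.ofMul (conjG N q h')) = φ (Additive.ofMul (inclG N q h))
  rw [hrel, hom_conj]

theorem cor2_res1 (hN : 0 < N) (hq : q.Prime) (hqN : ¬ q ∣ N) (φ : Additive (Gamma0 N) →+ A) :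
    cor2 N q A (res1 N q A φ) = Tcoh N A q φ := by
  obtain ⟨u, v, huv⟩ := exists_bezout hq hqN
  unfold Tcoh cor2 cor1
  apply cor2_eq_cor1 hN hq hqN huv
  intro h h' hrel
  change φ (Additive.ofMul (inclG N q h')) = φ (Additive.ofMul (conjG N q h))
  rw [AL_swap huv hq.ne_zero h h' hrel, hom_conj]

end Deg

/-! ### Hecke operators commute with the degeneracy maps (Mackey) -/

section Mackey

variable {N q ℓ : ℕ} {A : Type*} [AddCommGroup A]

lemma gamma0_le_aux (N q ℓ : ℕ) : Gamma0 (N * q * ℓ) ≤ Gamma0 (N * ℓ) := by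
  intro g hg
  rw [Gamma0_mem, ZMod.intCast_zmod_eq_zero_iff_dvd] at hg ⊢
  refine dvd_trans ?_ hg
  push_cast
  exact ⟨q, by ring⟩

/-- The inclusion `Gamma0 (N q ℓ) → Gamma0 (N ℓ)`. -/
def inclAux (N q ℓ : ℕ) : Gamma0 (N * q * ℓ) →* Gamma0 (N * ℓ) :=
  Subgroup.inclusion (gamma0_le_aux N q ℓ)

/-- Conjugation by `diag(q, 1)`, `Gamma0 (N q ℓ) → Gamma0 (N ℓ)`. -/
def conjAux (N q ℓ : ℕ) : Gamma0 (N * q * ℓ) →* Gamma0 (N * ℓ) :=
  (conjG (N * ℓ) q).comp (Subgroup.inclusion (le_of_eq (by rw [mul_right_comm])))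

@[simp] lemma mat_inclAux (γ : Gamma0 (N * q * ℓ)) : mat (inclAux N q ℓ γ) = mat γ := rfl

@[simp] lemma mat_conjAux (γ : Gamma0 (N * q * ℓ)) :
    mat (conjAux N q ℓ γ) = conjMat q (mat γ) := rfl

lemma conjMat_comm (q ℓ : ℕ) (M : Matrix (Fin 2) (Fin 2) ℤ) :
    conjMat q (conjMat ℓ M) = conjMat ℓ (conjMat q M) := by
  ext i j
  fin_cases i <;> fin_cases j
  · rfl
  · simp only [conjMat, Matrix.of_apply, Matrix.cons_val', Matrix.cons_val_zero,
      Matrix.cons_val_one, Matrix.empty_val', Matrix.cons_val_fin_one]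
    show (q : ℤ) * ((ℓ : ℤ) * M 0 1) = (ℓ : ℤ) * ((q : ℤ) * M 0 1)
    ring
  · show M 1 0 / (ℓ : ℤ) / (q : ℤ) = M 1 0 / (q : ℤ) / (ℓ : ℤ)
    rw [Int.ediv_ediv_of_nonneg (Int.natCast_nonneg ℓ),
      Int.ediv_ediv_of_nonneg (Int.natCast_nonneg q), mul_comm]
  · rfl

lemma index_le (hN : 0 < N) (hq : q.Prime) (hℓ : ℓ.Prime) (hℓN : ¬ ℓ ∣ N) (hℓq : ℓ ≠ q) :
    Nat.card (Gamma0 N ⧸ (inclG N ℓ).range) ≤
      Nat.card (Gamma0 (N * q) ⧸ (inclG (N * q) ℓ).range) := by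
  have hℓNq : ¬ ℓ ∣ N * q := by
    intro h
    rcases (Nat.Prime.dvd_mul hℓ).mp h with h1 | h1
    · exact hℓN h1
    · exact hℓq ((Nat.prime_dvd_prime_iff_eq hℓ hq).mp h1)
  rw [← Subgroup.index_eq_card, ← Subgroup.index_eq_card, index_inclG hN hℓ hℓN,
    index_inclG (Nat.mul_pos hN hq.pos) hℓ hℓNq]

theorem Tcoh_res1 (hN : 0 < N) (hq : q.Prime) (hℓ : ℓ.Prime) (hℓN : ¬ ℓ ∣ N) (hℓq : ℓ ≠ q)
    (φ : Additive (Gamma0 N) →+ A) :
    Tcoh (N * q) A ℓ (res1 N q A φ) = res1 N q A (Tcoh N A ℓ φ) := by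
  have := finiteIndex_inclG hN hℓ hℓN
  have hN' : (N : ℤ) ≠ 0 := by exact_mod_cast hN.ne'
  have hcop : IsCoprime (q : ℤ) (ℓ : ℤ) :=
    Nat.isCoprime_iff_coprime.mpr ((Nat.coprime_primes hq hℓ).mpr hℓq.symm)
  unfold Tcoh cor1 res1 res2
  rw [corAlong_mackey (inclG N ℓ) (inclG N q) (inclG (N * q) ℓ) (inclAux N q ℓ)
    (inclG_injective N ℓ) (inclG_injective (N * q) ℓ) (fun p => rfl) ?_
    (index_le hN hq hℓ hℓN hℓq)]
  · rfl
  · intro k h hkh
    have e : mat k = mat h := congrArg mat hkh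
    obtain ⟨c₁, hc₁⟩ := mat_dvd k
    obtain ⟨c₂, hc₂⟩ := mat_dvd h
    rw [← e, hc₁] at hc₂
    push_cast at hc₁ hc₂
    have h1 : (q : ℤ) * c₁ = (ℓ : ℤ) * c₂ := by
      apply mul_left_cancel₀ hN'
      linear_combination hc₂
    have h2 : (ℓ : ℤ) ∣ c₁ := hcop.symm.dvd_of_dvd_mul_left ⟨c₂, h1⟩
    obtain ⟨c₃, hc₃⟩ := h2
    refine ⟨⟨(k : SL(2, ℤ)), ?_⟩, rfl⟩
    rw [Gamma0_mem, ZMod.intCast_zmod_eq_zero_iff_dvd]
    refine ⟨c₃, ?_⟩
    change mat k 1 0 = _
    rw [hc₁, hc₃]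
    push_cast
    ring

theorem Tcoh_res2 (hN : 0 < N) (hq : q.Prime) (hℓ : ℓ.Prime) (hℓN : ¬ ℓ ∣ N) (hℓq : ℓ ≠ q)
    (φ : Additive (Gamma0 N) →+ A) :
    Tcoh (N * q) A ℓ (res2 N q A φ) = res2 N q A (Tcoh N A ℓ φ) := by
  have := finiteIndex_inclG hN hℓ hℓN
  have hq' : (q : ℤ) ≠ 0 := by exact_mod_cast hq.ne_zero
  unfold Tcoh cor1 res2
  rw [corAlong_mackey (inclG N ℓ) (conjG N q) (inclG (N * q) ℓ) (conjAux N q ℓ)
    (inclG_injective N ℓ) (inclG_injective (N * q) ℓ) (fun p => rfl) ?_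
    (index_le hN hq hℓ hℓN hℓq)]
  · congr 1
    apply AddMonoidHom.ext
    intro γ
    change φ (Additive.ofMul (conjG N q (conjG (N * q) ℓ (Additive.toMul γ))))
      = φ (Additive.ofMul (conjG N ℓ (conjAux N q ℓ (Additive.toMul γ))))
    congr 2
    apply mat_injective
    rw [mat_conjG, mat_conjG, mat_conjG, mat_conjAux, conjMat_comm]
  · intro k h hkh
    have e : conjMat q (mat k) = mat h := congrArg mat hkh
    obtain ⟨c₁, hc₁⟩ := q_dvd_of_mem_gamma0_mul k.2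
    have hc₁' : mat k 1 0 = (q : ℤ) * c₁ := hc₁
    obtain ⟨c₂, hc₂⟩ := mat_dvd h
    have e10 : mat k 1 0 / (q : ℤ) = mat h 1 0 := congrFun (congrFun e 1) 0
    rw [hc₁', Int.mul_ediv_cancel_left _ hq', hc₂] at e10
    refine ⟨⟨(k : SL(2, ℤ)), ?_⟩, rfl⟩
    rw [Gamma0_mem, ZMod.intCast_zmod_eq_zero_iff_dvd]
    refine ⟨c₂, ?_⟩
    change mat k 1 0 = _
    rw [hc₁', e10]
    push_cast
    ring

end Mackey

end Fermat.Agent.S41.H19

end
-- ==== END Fermat.Agent.S41.H19_RelDeg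

-- ==== BEGIN Fermat.Agent.S43.Old.H35_Eigen
section
attribute [local instance 10000] SubalgebraClass.toAlgebra
attribute [local instance 10000] HahnSeries.powerSeriesAlgebra

/-!
# S43, leaf OLD-RED (helper35): the eigen-transfer at the level `N = M q`

* `levelN_eigen` : if `p D = div f`, `f` a unit of the Gauss valuation ring `V₁` of level
  `N = M q`, `p D' = div (res f)` on `F~_M` and `T_ℓ D - t D` is principal, then
  `T~_ℓ D' - t D'` is principal (`T~_ℓ` the correspondence of the reduced tower).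
-/

set_option autoImplicit false
set_option linter.style.haveILetI false
set_option linter.unusedSectionVars false
set_option synthInstance.maxHeartbeats 400000
set_option maxHeartbeats 1000000

noncomputable section

open AlgebraicCurve ModularCurve Fermat.Agent.S28.H73 Fermat.Agent.RED.H73 Fermat.Agent.RED
open Fermat.Agent.BAD

namespace Fermat.Agent.S43.Old.H35

section Eigen

variable (A : ValuationSubring (AlgebraicClosure ℚ))

/-- The degeneracy maps of the reduced fields are determined by their values. -/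
theorem eq_alphaT (M ℓ : ℕ) [NeZero M] [NeZero ℓ]
    (α' : ↥(Ft A M) →ₐ[kV A] ↥(Ft A (M * ℓ)))
    (hα'c : ∀ x : ↥(Ft A M), ((α' x : ↥(Ft A (M * ℓ))) : LaurentSeries (kV A))
      = (x : LaurentSeries (kV A))) : α' = alphaT A M ℓ :=
  AlgHom.ext fun x => Subtype.ext (by rw [hα'c, coe_alphaT])

theorem eq_betaT (M ℓ : ℕ) [NeZero M] [NeZero ℓ]
    (β' : ↥(Ft A M) →ₐ[kV A] ↥(Ft A (M * ℓ)))
    (hβ'c : ∀ x : ↥(Ft A M), ((β' x : ↥(Ft A (M * ℓ))) : LaurentSeries (kV A))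
      = qExpand (kV A) ℓ (x : LaurentSeries (kV A))) : β' = betaT A M ℓ :=
  AlgHom.ext fun x => Subtype.ext (by rw [hβ'c, coe_betaT])

/-- **The eigen-transfer at the level `N = M q`**, for the Hecke tower `alphaT`, `betaT` of the
reduced fields. -/
theorem levelN_eigen_T (p : ℕ) (hp : p ≠ 0) (q M ℓ : ℕ) [NeZero M] [NeZero (M * q)] [NeZero ℓ]
    (hq : q.Prime) (hqM : ¬ q ∣ M) (hℓ : ℓ.Prime) (hℓN : ¬ ℓ ∣ M * q)
    (hA : A.LiesOverPrime q)
    (hα : HeckeAlphaBarIntegral (AlgebraicClosure ℚ) (M * q) ℓ)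
    (hβ : HeckeBetaBarIntegral (AlgebraicClosure ℚ) (M * q) ℓ)
    [HasPrincipalDivisors (AlgebraicClosure ℚ) ↥(modularFunctionFieldBar (M * q * ℓ))]
    (hα' : (alphaT A M ℓ).toRingHom.IsIntegral) (hβ' : (betaT A M ℓ).toRingHom.IsIntegral)
    [HasPrincipalDivisors (kV A) ↥(Ft A (M * ℓ))]
    (D : Divisor (AlgebraicClosure ℚ) ↥(FNbar (M * q))) (f : ↥(gaussV A (M * q)))
    (hf : gaussRes A (M * q) f ≠ 0)
    (hD : ∀ P : Place (AlgebraicClosure ℚ) ↥(FNbar (M * q)),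
      (p : ℤ) * D P = P.ord (f : ↥(FNbar (M * q))))
    (g : ↥(Ft A M))
    (hg : (g : LaurentSeries (kV A)) = (gaussRes A (M * q) f : LaurentSeries (kV A)))
    (D' : Divisor (kV A) ↥(Ft A M)) (hD' : ∀ Q : Place (kV A) ↥(Ft A M), (p : ℤ) * D' Q = Q.ord g)
    (t : ℤ) (heig : Divisor.IsPrincipal (heckeDivBar hα hβ D - t • D)) :
    Divisor.IsPrincipal (K := kV A) (F := ↥(Ft A M))
      (Divisor.correspondence (betaT A M ℓ) (alphaT A M ℓ) hβ' hα' D' - t • D') := by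
  haveI : IsAlgClosed (AlgebraicClosure ℚ) := inferInstance
  have hℓq : ℓ ≠ q := fun h => hℓN (h ▸ dvd_mul_left ℓ M)
  have hqMℓ : ¬ q ∣ M * ℓ := by
    intro h
    rcases (Nat.Prime.dvd_mul hq).1 h with h1 | h1
    · exact hqM h1
    · exact hℓq ((Nat.prime_dvd_prime_iff_eq hq hℓ).1 h1).symm
  have hle : Ft A (M * q) ≤ Ft A M := (ft_mul_eq A q M hq hqM hA).le
  obtain ⟨-, -, -, hfin, -, hNF⟩ := RED.H51.stmt_HKA (M * q) ℓ
  have TI := towerInputs (A := A) (M := M) (ℓ := ℓ) hq hA hqMℓ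
  have e1 : ((gaussRes A (M * q) f : ↥(Ft A (M * q))) : LaurentSeries (kV A))
      = gaussResF A (hasScale_laurentBaseChange A (M * q)) f := rfl
  have hgf : g = resTo A (M * q) (Ft A M) hle f :=
    Subtype.ext (hg.trans (e1.trans (coe_resTo A (M * q) (Ft A M) hle f).symm))
  have hf0 : gaussResF A (hasScale_laurentBaseChange A (M * q)) f ≠ 0 := by
    intro h0
    apply hf
    apply Subtype.ext
    rw [e1, h0]
    rfl
  have hf' : resTo A (M * q) (Ft A M) hle f ≠ 0 := by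
    intro h0
    rw [resTo_eq_zero_iff] at h0
    exact h0 ((isUnit_iff_gaussResF_ne_zero A (hasScale_laurentBaseChange A (M * q)) f).2 hf0)
  subst hgf
  exact tilde_eigen_of_eigen
    (fun u hu hord => H36.const_of_ord_eq_zero (Fermat.Agent.RED.H95.stmt_HKA_isFF (M * q)) u hu hord)
    (heckeAlphaBar (AlgebraicClosure ℚ) (M * q) ℓ) (heckeBetaBar (AlgebraicClosure ℚ) (M * q) ℓ)
    hα hβ hfin hNF (alphaT A M ℓ) (betaT A M ℓ) hα' hβ' TI.hfin TI.hNF
    (gaussV A (M * q)) (resTo A (M * q) (Ft A M) hle)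
    (fun u => resTo_eq_zero_iff A _ _ hle u)
    (fun u hu => resTo_scale A _ _ hle u hu)
    (fun c h => resTo_const A _ _ hle c h)
    (fun u => hnorm_levelN A q M ℓ hq hqM hℓ hℓN hA hle u)
    p hp t D f hf' hD D' hD' heig

/-- **The eigen-transfer at the level `N = M q`**, for any realisation `α'`, `β'` of the
degeneracy maps of the reduced fields (inclusion and `t ↦ t ^ ℓ`). -/
theorem levelN_eigen (p : ℕ) (hp : p ≠ 0) (q M ℓ : ℕ) [NeZero M] [NeZero (M * q)] [NeZero ℓ]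
    (hq : q.Prime) (hqM : ¬ q ∣ M) (hℓ : ℓ.Prime) (hℓN : ¬ ℓ ∣ M * q)
    (hA : A.LiesOverPrime q)
    (hα : HeckeAlphaBarIntegral (AlgebraicClosure ℚ) (M * q) ℓ)
    (hβ : HeckeBetaBarIntegral (AlgebraicClosure ℚ) (M * q) ℓ)
    [HasPrincipalDivisors (AlgebraicClosure ℚ) ↥(modularFunctionFieldBar (M * q * ℓ))]
    (α' β' : ↥(Ft A M) →ₐ[kV A] ↥(Ft A (M * ℓ)))
    (hα'c : ∀ x : ↥(Ft A M), ((α' x : ↥(Ft A (M * ℓ))) : LaurentSeries (kV A))
      = (x : LaurentSeries (kV A)))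
    (hβ'c : ∀ x : ↥(Ft A M), ((β' x : ↥(Ft A (M * ℓ))) : LaurentSeries (kV A))
      = qExpand (kV A) ℓ (x : LaurentSeries (kV A)))
    (hα' : α'.toRingHom.IsIntegral) (hβ' : β'.toRingHom.IsIntegral)
    [HasPrincipalDivisors (kV A) ↥(Ft A (M * ℓ))]
    (D : Divisor (AlgebraicClosure ℚ) ↥(FNbar (M * q))) (f : ↥(gaussV A (M * q)))
    (hf : gaussRes A (M * q) f ≠ 0)
    (hD : ∀ P : Place (AlgebraicClosure ℚ) ↥(FNbar (M * q)),
      (p : ℤ) * D P = P.ord (f : ↥(FNbar (M * q))))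
    (g : ↥(Ft A M))
    (hg : (g : LaurentSeries (kV A)) = (gaussRes A (M * q) f : LaurentSeries (kV A)))
    (D' : Divisor (kV A) ↥(Ft A M)) (hD' : ∀ Q : Place (kV A) ↥(Ft A M), (p : ℤ) * D' Q = Q.ord g)
    (t : ℤ) (heig : Divisor.IsPrincipal (heckeDivBar hα hβ D - t • D)) :
    Divisor.IsPrincipal (K := kV A) (F := ↥(Ft A M))
      (Divisor.correspondence β' α' hβ' hα' D' - t • D') := by
  obtain rfl := eq_alphaT A M ℓ α' hα'c
  obtain rfl := eq_betaT A M ℓ β' hβ'c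
  exact levelN_eigen_T A p hp q M ℓ hq hqM hℓ hℓN hA hα hβ hα' hβ' D f hf hD g hg D' hD' t heig

end Eigen

end Fermat.Agent.S43.Old.H35

end
end
-- ==== END Fermat.Agent.S43.Old.H35_Eigen

-- ==== BEGIN Fermat.Agent.S43.Old.H35_LevelM
section
attribute [local instance 10000] SubalgebraClass.toAlgebra
attribute [local instance 10000] HahnSeries.powerSeriesAlgebra

/-!
# S43, leaf OLD-RED / G-RED HR (helper35): NORM-RED at the good level `M` and the unit case of
`r_* T_ℓ = T~_ℓ r_*`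

`A` a valuation subring of `ℚ̄` over `q`, `q ∤ M ℓ`, `ℓ ∤ M` a prime, `r` a reduction map of places
of `F_M · ℚ̄` with the conservation law (`IsRed`).

* `hnorm_levelM` : **NORM-RED**: `res (Norm_α (β f)) = Norm_α~ (β~ (res f))` for `f` in the Gauss
  valuation ring of level `M`;
* `mapDomain_hecke_unit` : `r_* (T_ℓ (div u)) = T~_ℓ (r_* (div u))` for Gauss units `u`, where
  `T~_ℓ = Divisor.correspondence (betaT A M ℓ) (alphaT A M ℓ)` is the Hecke correspondence of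
  the reduced tower.
-/

set_option autoImplicit false
set_option linter.style.haveILetI false
set_option linter.unusedSectionVars false
set_option synthInstance.maxHeartbeats 400000
set_option maxHeartbeats 1000000

noncomputable section

open AlgebraicCurve ModularCurve Fermat.Agent.S28.H73 Fermat.Agent.RED.H73 Fermat.Agent.RED
open Fermat.Agent.BAD

namespace Fermat.Agent.S43.Old.H35

section LevelM

variable (A : ValuationSubring (AlgebraicClosure ℚ))

theorem coe_gaussRes (N' : ℕ) (x : ↥(gaussV A N')) :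
    ((gaussRes A N' x : ↥(Ft A N')) : LaurentSeries (kV A))
      = gaussResF A (hasScale_laurentBaseChange A N') x := rfl

theorem resTo_self (N' : ℕ) (x : ↥(gaussV A N')) :
    resTo A N' (Ft A N') le_rfl x = gaussRes A N' x :=
  Subtype.ext ((coe_resTo A N' (Ft A N') le_rfl x).trans (coe_gaussRes A N' x).symm)

/-- **NORM-RED at the good level `M`**, general form (values in `resTo`). -/
theorem hnorm_levelM' (q M ℓ : ℕ) [NeZero M] [NeZero ℓ] (hq : q.Prime) (hℓ : ℓ.Prime)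
    (hℓM : ¬ ℓ ∣ M) (hqMℓ : ¬ q ∣ M * ℓ) (hA : A.LiesOverPrime q) (f : ↥(gaussV A M)) :
    ∃ h : normAlong (heckeAlphaBar (AlgebraicClosure ℚ) M ℓ)
        (heckeBetaBar (AlgebraicClosure ℚ) M ℓ (f : ↥(FNbar M))) ∈ gaussV A M,
      resTo A M (Ft A M) le_rfl ⟨_, h⟩
        = normAlong (alphaT A M ℓ) (betaT A M ℓ (resTo A M (Ft A M) le_rfl f)) := by
  haveI : NeZero (M * ℓ) := ⟨Nat.mul_ne_zero (NeZero.ne M) (NeZero.ne ℓ)⟩
  obtain ⟨hα, hβ, hP, hfin, hFI, hNF⟩ := RED.H51.stmt_HKA M ℓ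
  letI iA : Algebra ↥(FNbar M) ↥(FNbar (M * ℓ)) :=
    algebraAlong (heckeAlphaBar (AlgebraicClosure ℚ) M ℓ)
  letI iA' : Algebra ↥(Ft A M) ↥(Ft A (M * ℓ)) := algebraAlong (alphaT A M ℓ)
  haveI : Module.Finite ↥(FNbar M) ↥(FNbar (M * ℓ)) := hfin
  have hβmem : heckeBetaBar (AlgebraicClosure ℚ) M ℓ (f : ↥(FNbar M)) ∈ gaussV A (M * ℓ) := by
    rw [mem_gaussValSub_iff, coe_heckeBetaBar]
    exact qExpand_mem_gaussRingV A ℓ f.2
  have h1 : ∀ a : ↥(FNbar M), a ∈ gaussV A M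
      ↔ algebraMap ↥(FNbar M) ↥(FNbar (M * ℓ)) a ∈ gaussV A (M * ℓ) := by
    intro a
    rw [mem_gaussValSub_iff, mem_gaussValSub_iff]
    show _ ↔ ((heckeAlphaBar (AlgebraicClosure ℚ) M ℓ a : ↥(FNbar (M * ℓ))) :
      LaurentSeries (AlgebraicClosure ℚ)) ∈ gaussRingV A
    rw [coe_heckeAlphaBar]
  have h2 : Function.Surjective (resTo A (M * ℓ) (Ft A (M * ℓ)) le_rfl) :=
    resTo_surjective A _ _ le_rfl le_rfl
  have h3 : ∀ a : ↥(gaussV A (M * ℓ)),
      resTo A (M * ℓ) (Ft A (M * ℓ)) le_rfl a = 0 ↔ ¬ IsUnit a :=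
    fun a => resTo_eq_zero_iff A _ _ _ a
  have h4 : ∀ (a : ↥(gaussV A M))
      (ha : algebraMap ↥(FNbar M) ↥(FNbar (M * ℓ)) (a : ↥(FNbar M)) ∈ gaussV A (M * ℓ)),
      resTo A (M * ℓ) (Ft A (M * ℓ)) le_rfl ⟨_, ha⟩
        = algebraMap ↥(Ft A M) ↥(Ft A (M * ℓ)) (resTo A M (Ft A M) le_rfl a) := by
    intro a ha
    apply Subtype.ext
    rw [coe_resTo]
    show _ = ((alphaT A M ℓ (resTo A M (Ft A M) le_rfl a) : ↥(Ft A (M * ℓ))) :
      LaurentSeries (kV A))
    rw [coe_alphaT, coe_resTo, gaussResF_apply, gaussResF_apply]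
    congr 1
  have h5 : Module.finrank ↥(FNbar M) ↥(FNbar (M * ℓ))
      = Module.finrank ↥(Ft A M) ↥(Ft A (M * ℓ)) := by
    show finrankAlong (AlgebraicClosure ℚ) (heckeAlphaBar (AlgebraicClosure ℚ) M ℓ)
      = finrankAlong (kV A) (alphaT A M ℓ)
    rw [finrank_alpha_bar M ℓ hℓ hℓM, finrank_alphaT A M ℓ q hℓ hℓM hq hqMℓ hA]
  obtain ⟨hN, hNeq⟩ := RED.H10.stmt_NormRedAbs ↥(FNbar M) ↥(FNbar (M * ℓ))
    ↥(Ft A M) ↥(Ft A (M * ℓ)) (gaussV A M) (gaussV A (M * ℓ))
    (resTo A M (Ft A M) le_rfl) (resTo A (M * ℓ) (Ft A (M * ℓ)) le_rfl)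
    h1 h2 h3 h4 h5 ⟨_, hβmem⟩
  refine ⟨hN, ?_⟩
  show resTo A M (Ft A M) le_rfl ⟨_, hN⟩ = Algebra.norm ↥(Ft A M)
    (betaT A M ℓ (resTo A M (Ft A M) le_rfl f))
  rw [hNeq]
  congr 1
  apply Subtype.ext
  rw [coe_resTo, coe_betaT, coe_resTo, gaussResF_apply, gaussResF_apply]
  exact gaussRedV_qExpand A ℓ ⟨_, f.2⟩ _

/-- **NORM-RED at the good level `M`.** -/
theorem hnorm_levelM (q M ℓ : ℕ) [NeZero M] [NeZero ℓ] (hq : q.Prime) (hℓ : ℓ.Prime)
    (hℓM : ¬ ℓ ∣ M) (hqMℓ : ¬ q ∣ M * ℓ) (hA : A.LiesOverPrime q) (f : ↥(gaussV A M)) :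
    ∃ h : normAlong (heckeAlphaBar (AlgebraicClosure ℚ) M ℓ)
        (heckeBetaBar (AlgebraicClosure ℚ) M ℓ (f : ↥(FNbar M))) ∈ gaussV A M,
      gaussRes A M ⟨_, h⟩ = normAlong (alphaT A M ℓ) (betaT A M ℓ (gaussRes A M f)) := by
  obtain ⟨h, he⟩ := hnorm_levelM' A q M ℓ hq hℓ hℓM hqMℓ hA f
  refine ⟨h, ?_⟩
  rw [← resTo_self, ← resTo_self]
  exact he

/-- **The unit case of `r_* T_ℓ = T~_ℓ r_*`.** -/
theorem mapDomain_hecke_unit (q M ℓ : ℕ) [NeZero M] [NeZero ℓ] (hq : q.Prime) (hℓ : ℓ.Prime)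
    (hℓM : ¬ ℓ ∣ M) (hqMℓ : ¬ q ∣ M * ℓ) (hA : A.LiesOverPrime q)
    (hα : HeckeAlphaBarIntegral (AlgebraicClosure ℚ) M ℓ)
    (hβ : HeckeBetaBarIntegral (AlgebraicClosure ℚ) M ℓ)
    [HasPrincipalDivisors (AlgebraicClosure ℚ) ↥(modularFunctionFieldBar (M * ℓ))]
    (hα' : (alphaT A M ℓ).toRingHom.IsIntegral) (hβ' : (betaT A M ℓ).toRingHom.IsIntegral)
    [HasPrincipalDivisors (kV A) ↥(Ft A (M * ℓ))]
    (r : Place (AlgebraicClosure ℚ) ↥(modularFunctionFieldBar M) → Place (kV A) ↥(Ft A M))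
    (hr : IsRed A (hasScale_laurentBaseChange A M) r)
    (u : ↥(gaussV A M)) (hu : IsUnit u)
    (D : Divisor (AlgebraicClosure ℚ) ↥(modularFunctionFieldBar M))
    (hD : ∀ P, D P = P.ord (u : ↥(modularFunctionFieldBar M))) :
    Finsupp.mapDomain r (heckeDivBar hα hβ D)
      = Divisor.correspondence (betaT A M ℓ) (alphaT A M ℓ) hβ' hα' (Finsupp.mapDomain r D) := by
  obtain ⟨-, -, -, hfin, -, hNF⟩ := RED.H51.stmt_HKA M ℓ
  have TI := towerInputs (A := A) (M := M) (ℓ := ℓ) hq hA hqMℓ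
  have hu0 : (u : ↥(modularFunctionFieldBar M)) ≠ 0 := by
    intro h0
    have : u = 0 := Subtype.ext h0
    rw [this] at hu
    exact not_isUnit_zero hu
  obtain ⟨hmem, hres⟩ := hnorm_levelM A q M ℓ hq hℓ hℓM hqMℓ hA u
  have hy0 : gaussRes A M u ≠ 0 := by
    intro h0
    have h1 : gaussResF A (hasScale_laurentBaseChange A M) u = 0 := by
      rw [← coe_gaussRes, h0]
      rfl
    exact ((isUnit_iff_gaussResF_ne_zero A (hasScale_laurentBaseChange A M) u).1 hu) h1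
  have hβy0 : betaT A M ℓ (gaussRes A M u) ≠ 0 := by
    intro h0
    exact hy0 ((map_eq_zero (betaT A M ℓ)).1 h0)
  have hnu0 : gaussRes A M ⟨_, hmem⟩ ≠ 0 := by
    rw [hres]
    exact normAlong_ne_zero (alphaT A M ℓ) TI.hfin hβy0
  have hnuU : IsUnit (⟨_, hmem⟩ : ↥(gaussV A M)) := by
    rw [isUnit_iff_gaussResF_ne_zero A (hasScale_laurentBaseChange A M)]
    intro h0
    apply hnu0
    apply Subtype.ext
    rw [coe_gaussRes, h0]
    rfl
  have hTD : ∀ P, heckeDivBar hα hβ D P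
      = P.ord (((⟨_, hmem⟩ : ↥(gaussV A M)) : ↥(modularFunctionFieldBar M))) := by
    intro P
    have := corr_ord (heckeBetaBar (AlgebraicClosure ℚ) M ℓ)
      (heckeAlphaBar (AlgebraicClosure ℚ) M ℓ) hβ hα hfin hNF 1 D hu0
      (fun v => by rw [one_mul, hD v]) P
    rw [one_mul] at this
    exact this
  have hD1 : ∀ Q' : Place (kV A) ↥(Ft A M),
      (1 : ℤ) * (Finsupp.mapDomain r D) Q' = Q'.ord (gaussRes A M u) := fun Q' => by
    rw [one_mul]
    exact hr u hu D hD Q'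
  ext Q
  have h2 := corr_ord (betaT A M ℓ) (alphaT A M ℓ) hβ' hα' TI.hfin TI.hNF 1
    (Finsupp.mapDomain r D) hy0 hD1 Q
  rw [one_mul] at h2
  rw [h2, ← hres]
  exact hr ⟨_, hmem⟩ hnuU (heckeDivBar hα hβ D) hTD Q

end LevelM

end Fermat.Agent.S43.Old.H35

end
end
-- ==== END Fermat.Agent.S43.Old.H35_LevelM

-- ==== BEGIN Fermat.Agent.Tate.T6.H97_NOD
section

set_option autoImplicit false

namespace Fermat.Agent.Tate.T6.H97

open WeierstrassCurve WeierstrassCurve.Affine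

variable {k : Type*} [Field k]

lemma nodal_equation_iff (a x y : k) :
    (nodal a).toAffine.Equation x y ↔ y ^ 2 = x ^ 3 + a * x ^ 2 := by
  rw [Affine.equation_iff]
  simp only [nodal]
  constructor <;> intro h <;> linear_combination h

lemma nodal_x_ne_zero {a x y : k} (h : (nodal a).toAffine.Nonsingular x y) : x ≠ 0 := by
  intro hx
  subst hx
  rw [Affine.nonsingular_iff] at h
  obtain ⟨he, hs⟩ := h
  rw [nodal_equation_iff] at he
  have hy : y = 0 := by
    have : y ^ 2 = 0 := by rw [he]; ring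
    exact pow_eq_zero_iff (two_ne_zero) |>.1 this
  subst hy
  simp only [nodal] at hs
  rcases hs with hs | hs
  · exact hs (by ring)
  · exact hs (by ring)

lemma nodal_nonsingular_of_x_ne_zero {a x y : k} (h2 : (2 : k) ≠ 0)
    (he : y ^ 2 = x ^ 3 + a * x ^ 2) (hx : x ≠ 0) : (nodal a).toAffine.Nonsingular x y := by
  rw [Affine.nonsingular_iff]
  refine ⟨(nodal_equation_iff a x y).2 he, ?_⟩
  simp only [nodal]
  by_contra hcon
  rw [not_or, not_not, not_not] at hcon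
  obtain ⟨h1, h2'⟩ := hcon
  have hy : y = 0 := by
    have : 2 * y = 0 := by linear_combination h2'
    exact (mul_eq_zero.1 this).resolve_left h2
  subst hy
  -- `3 x² + 2 a x = 0` and `x³ + a x² = 0`, `x ≠ 0`
  have e1 : 3 * x + 2 * a = 0 := by
    have : x * (3 * x + 2 * a) = 0 := by linear_combination -h1
    exact (mul_eq_zero.1 this).resolve_left hx
  have e2 : x + a = 0 := by
    have : x ^ 2 * (x + a) = 0 := by linear_combination -he
    exact (mul_eq_zero.1 this).resolve_left (pow_ne_zero 2 hx)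
  have : x = 0 := by linear_combination e1 - 2 * e2
  exact hx this

lemma nodal_factor (β x y : k) (he : (nodal (β ^ 2)).toAffine.Equation x y) :
    (y - β * x) * (y + β * x) = x ^ 3 := by
  rw [nodal_equation_iff] at he
  linear_combination he

lemma nodal_add_ne_zero {β x y : k} (h : (nodal (β ^ 2)).toAffine.Nonsingular x y) :
    y + β * x ≠ 0 := by
  intro h0
  have := nodal_factor β x y h.1
  rw [h0, mul_zero] at this
  exact nodal_x_ne_zero h (pow_eq_zero_iff (by norm_num) |>.1 this.symm)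

lemma nodal_sub_ne_zero {β x y : k} (h : (nodal (β ^ 2)).toAffine.Nonsingular x y) :
    y - β * x ≠ 0 := by
  intro h0
  have := nodal_factor β x y h.1
  rw [h0, zero_mul] at this
  exact nodal_x_ne_zero h (pow_eq_zero_iff (by norm_num) |>.1 this.symm)

/-- The value `(y - β x) / (y + β x)` at a nonsingular point, `1` at the point at infinity. -/
noncomputable def nodVal (β : k) : (nodal (β ^ 2)).toAffine.Point → k
  | .zero => 1
  | .some x y _ => (y - β * x) / (y + β * x)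

@[simp] lemma nodVal_zero (β : k) : nodVal β (0 : (nodal (β ^ 2)).toAffine.Point) = 1 := rfl

lemma nodVal_some (β : k) {x y : k} (h : (nodal (β ^ 2)).toAffine.Nonsingular x y) :
    nodVal β (.some x y h) = (y - β * x) / (y + β * x) := rfl

lemma nodVal_mul_some (β : k) {x y : k} (h : (nodal (β ^ 2)).toAffine.Nonsingular x y) :
    nodVal β (.some x y h) * (y + β * x) = y - β * x := by
  rw [nodVal_some, div_mul_cancel₀ _ (nodal_add_ne_zero h)]

lemma nodVal_ne_zero (β : k) (P : (nodal (β ^ 2)).toAffine.Point) : nodVal β P ≠ 0 := by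
  rcases P with _ | ⟨x, y, h⟩
  · exact one_ne_zero
  · rw [nodVal_some]
    exact div_ne_zero (nodal_sub_ne_zero h) (nodal_add_ne_zero h)

variable [DecidableEq k]

lemma nodVal_neg (β : k) (P : (nodal (β ^ 2)).toAffine.Point) :
    nodVal β (-P) = (nodVal β P)⁻¹ := by
  rcases P with _ | ⟨x, y, h⟩
  · show nodVal β (-0) = (nodVal β 0)⁻¹
    rw [neg_zero, nodVal_zero, inv_one]
  · rw [Point.neg_some, nodVal_some, nodVal_some, inv_div]
    have hn : (nodal (β ^ 2)).toAffine.negY x y = -y := by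
      simp [Affine.negY, nodal]
    rw [hn]
    have h1 := nodal_add_ne_zero h
    have h2 := nodal_sub_ne_zero h
    have h3 : -y + β * x ≠ 0 := by
      intro h0; apply h2; linear_combination -h0
    rw [div_eq_div_iff h3 h2]
    ring

omit [DecidableEq k] in
/-- Three collinear points: the products of `y ∓ β x` agree (both are `μ³`). -/
lemma nodVal_line (β : k) {x₁ y₁ x₂ y₂ x₃ y₃ ℓ μ : k} (e₁ : y₁ = ℓ * x₁ + μ)
    (e₂ : y₂ = ℓ * x₂ + μ) (e₃ : -y₃ = ℓ * x₃ + μ) (v₁ : x₁ + x₂ + x₃ = ℓ ^ 2 - β ^ 2)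
    (v₂ : x₁ * x₂ + x₁ * x₃ + x₂ * x₃ = 0 - 2 * ℓ * μ) (v₃ : x₁ * x₂ * x₃ = μ ^ 2) :
    (y₁ - β * x₁) * (y₂ - β * x₂) * (y₃ + β * x₃) =
      (y₁ + β * x₁) * (y₂ + β * x₂) * (y₃ - β * x₃) := by
  have hy₃ : y₃ = -(ℓ * x₃ + μ) := by linear_combination -e₃
  subst e₁ e₂ hy₃
  linear_combination (-(ℓ - β) ^ 3 + (ℓ + β) ^ 3) * v₃
    + (-(ℓ - β) ^ 2 * μ + (ℓ + β) ^ 2 * μ) * v₂ + (2 * β * μ ^ 2) * v₁

lemma nodVal_add (β : k) (P Q : (nodal (β ^ 2)).toAffine.Point) :
    nodVal β (P + Q) = nodVal β P * nodVal β Q := by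
  rcases P with _ | ⟨x₁, y₁, h₁⟩
  · show nodVal β (0 + Q) = nodVal β 0 * _
    rw [zero_add, nodVal_zero, one_mul]
  rcases Q with _ | ⟨x₂, y₂, h₂⟩
  · show nodVal β (_ + 0) = _ * nodVal β 0
    rw [add_zero, nodVal_zero, mul_one]
  rcases hR : (Point.some x₁ y₁ h₁ + Point.some x₂ y₂ h₂) with _ | ⟨x₃, y₃, h₃⟩
  · -- `Q = -P`
    have hQ : Point.some x₂ y₂ h₂ = -Point.some x₁ y₁ h₁ := by
      have h0 : Point.some x₁ y₁ h₁ + Point.some x₂ y₂ h₂ = 0 := hR
      exact (neg_eq_of_add_eq_zero_right h0).symm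
    rw [hQ, nodVal_neg]
    show nodVal β 0 = _
    rw [nodVal_zero, mul_inv_cancel₀ (nodVal_ne_zero β _)]
  · obtain ⟨ℓ, μ, e₁, e₂, e₃, v₁, v₂, v₃⟩ :=
      Fermat.Agent.S05.line (L := k) (nodal (β ^ 2)).toAffine rfl rfl rfl
        x₁ y₁ x₂ y₂ x₃ y₃ h₁ h₂ h₃ hR
    have v₁' : x₁ + x₂ + x₃ = ℓ ^ 2 - β ^ 2 := v₁
    have v₂' : x₁ * x₂ + x₁ * x₃ + x₂ * x₃ = 0 - 2 * ℓ * μ := v₂
    have key := nodVal_line β e₁ e₂ e₃ v₁' v₂' v₃
    have a₁ := nodal_add_ne_zero h₁
    have a₂ := nodal_add_ne_zero h₂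
    have a₃ := nodal_add_ne_zero h₃
    have m₁ := nodVal_mul_some β h₁
    have m₂ := nodVal_mul_some β h₂
    have m₃ := nodVal_mul_some β h₃
    have hne : (y₁ + β * x₁) * (y₂ + β * x₂) * (y₃ + β * x₃) ≠ 0 :=
      mul_ne_zero (mul_ne_zero a₁ a₂) a₃
    apply mul_right_cancel₀ hne
    linear_combination (-(nodVal β (Point.some x₂ y₂ h₂) * (y₂ + β * x₂) * (y₃ + β * x₃))) * m₁
      + (-((y₁ - β * x₁) * (y₃ + β * x₃))) * m₂
      + ((y₁ + β * x₁) * (y₂ + β * x₂)) * m₃ - key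

/-- The homomorphism `Ẽ_ns → kˣ`. -/
noncomputable def nodHom (β : k) : (nodal (β ^ 2)).toAffine.Point →+ Additive kˣ :=
  AddMonoidHom.mk' (fun P => Additive.ofMul (Units.mk0 (nodVal β P) (nodVal_ne_zero β P)))
    (fun P Q => by
      rw [← ofMul_mul]
      congr 1
      apply Units.ext
      simp only [Units.val_mk0, Units.val_mul]
      exact nodVal_add β P Q)

lemma nodHom_val (β : k) (P : (nodal (β ^ 2)).toAffine.Point) :
    ((Additive.toMul (nodHom β P) : kˣ) : k) = nodVal β P := rfl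

omit [DecidableEq k] in
/-- The kernel of `nodHom` is trivial when `2 β ≠ 0`. -/
lemma nodVal_eq_one_iff {β : k} (hβ : β ≠ 0) (h2 : (2 : k) ≠ 0)
    (P : (nodal (β ^ 2)).toAffine.Point) : nodVal β P = 1 ↔ P = 0 := by
  constructor
  · intro h
    rcases P with _ | ⟨x, y, hP⟩
    · rfl
    · exfalso
      have m := nodVal_mul_some β hP
      rw [h, one_mul] at m
      have : 2 * β * x = 0 := by linear_combination m
      rcases mul_eq_zero.1 this with h' | h'
      · rcases mul_eq_zero.1 h' with h'' | h''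
        · exact h2 h''
        · exact hβ h''
      · exact nodal_x_ne_zero hP h'
  · rintro rfl
    rfl

omit [DecidableEq k] in
/-- `x (1 - u)² = 4 β² u` for `u = f(x, y)`. -/
lemma nodVal_x_rel (β : k) {x y : k} (h : (nodal (β ^ 2)).toAffine.Nonsingular x y) :
    x * (1 - nodVal β (.some x y h)) ^ 2 = 4 * β ^ 2 * nodVal β (.some x y h) := by
  have a := nodal_add_ne_zero h
  have m := nodVal_mul_some β h
  have e := nodal_factor β x y h.1
  have h2 : (y + β * x) ^ 2 ≠ 0 := pow_ne_zero 2 a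
  apply mul_right_cancel₀ h2
  set u := nodVal β (.some x y h) with hu
  have e1 : (1 - u) * (y + β * x) = 2 * β * x := by linear_combination -m
  calc x * (1 - u) ^ 2 * (y + β * x) ^ 2 = x * ((1 - u) * (y + β * x)) ^ 2 := by ring
    _ = 4 * β ^ 2 * x ^ 3 := by rw [e1]; ring
    _ = 4 * β ^ 2 * ((y - β * x) * (y + β * x)) := by rw [e]
    _ = 4 * β ^ 2 * u * (y + β * x) ^ 2 := by rw [← m]; ring

/-- **T6-NOD**. -/
theorem stmt_NOD : Stmt_NOD := by
  intro k _ _ β _ _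
  refine ⟨nodHom β, fun x y h => ?_⟩
  rw [nodHom_val]
  exact nodVal_mul_some β h

end Fermat.Agent.Tate.T6.H97

end
-- ==== END Fermat.Agent.Tate.T6.H97_NOD
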