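-- GENERATED (merged mirror, NOTES/tools/trim/merge3_helper67.py): 6 modules of the originals, bodies verbatim.
import Fermat.Agent.Zm.S44_L01_000
import Fermat.Agent.Zm.S33_L01_001
import Fermat.Agent.Zm.S35_L12_000
import Fermat.Agent.Zm.S35_L07_000
import Fermat.Agent.Zm.S44_L01_002
import Fermat.Agent.Zm.S35_L14_000
import Fermat.Agent.Zm.S35_L13_000
import Fermat.Agent.Zm.S35_L17_000

-- ==== BEGIN Fermat.Agent.BADP.EisAbs
section

set_option autoImplicit false

noncomputable section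

open AlgebraicCurve

namespace Fermat.Agent.BADP

open Fermat.Agent.RED.H17 Fermat.Agent.RED Fermat.Agent.BAD

/-- **EIS-ABS** (wild case). -/
def Stmt_EisAbs : Prop :=
  ∀ (K F k F₁ F₂ : Type) [Field K] [Field F] [Algebra K F] [Field k] [Field F₁]
    [Algebra k F₁] [Field F₂] [Algebra k F₂] [IsAlgClosed K] [IsAlgClosed k]
    (S : SSD K F k F₁ F₂), FFHyp K F → FFHyp k F₁ → FFHyp k F₂ →
    ∀ (g g₁ g₂ : ℕ) (c c₁ c₂ : ℤ), IsGenus K F g c → IsGenus k F₁ g₁ c₁ → IsGenus k F₂ g₂ c₂ →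
    g + 1 ≤ g₁ + g₂ + S.nodes.card →
    ∀ (p : ℕ), p.Prime → p ≠ 2 → CharP k p → (p : K) ≠ 0 →
    ∀ (𝓘 𝓘1 𝓘2 : Set (SemilinearAut K F)), (∀ τ ∈ 𝓘, S.IsInertial τ) → 𝓘1 ⊆ 𝓘 → 𝓘2 ⊆ 𝓘1 →
      IsK0Lift S 𝓘 →
    ∀ (F0 : Subfield F), (∀ y : F, y ∈ F0 ↔ ∀ τ ∈ 𝓘, τ • y = y) →
    ∀ (ζ ω : K) (σ : SemilinearAut K F), σ ∈ 𝓘1 →
      H97.KData S.c₁.V.valuation F0 p (algebraMap K F ζ) (algebraMap K F ω)
        ((SemilinearAut.toRingAut σ : F ≃+* F) : F →+* F) →
      H97.KData S.c₂.V.valuation F0 p (algebraMap K F ζ) (algebraMap K F ω)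
        ((SemilinearAut.toRingAut σ : F ≃+* F) : F →+* F) →
      -- descent: the functions fixed by `𝓘2` (by `𝓘1`) are in `F0 (ζ, ω)` (in `F0 (ζ)`)
      (∀ y : F, (∀ τ ∈ 𝓘2, τ • y = y) →
        y ∈ IntermediateField.adjoin F0 ({algebraMap K F ζ, algebraMap K F ω} : Set F)) →
      (∀ y : F, (∀ τ ∈ 𝓘1, τ • y = y) →
        y ∈ IntermediateField.adjoin F0 ({algebraMap K F ζ} : Set F)) →
      (∀ τ ∈ 𝓘2, SemilinearAut.baseAut τ ζ = ζ ∧ SemilinearAut.baseAut τ ω = ω) →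
      (∀ τ ∈ 𝓘1, SemilinearAut.baseAut τ ζ = ζ) →
      -- `σ` normalises `𝓘2`
      (∀ y : F, (∀ τ ∈ 𝓘2, τ • y = y) → ∀ τ ∈ 𝓘2, τ • (σ • y) = σ • y) →
    -- the unit
    ∀ (U : F) (w : ℕ), S.c₁.IsGU U → (∀ τ ∈ 𝓘, τ • U = U) →
      (∀ P : Place K F, S.IsNodeP P → P.ord U = 0) →
      S.c₂.IsGU (U / algebraMap K F ((p : K) ^ w)) → ¬ p ∣ w →
    -- the Kummer function
    ∀ (f : F), S.c₁.IsGU f → (∀ P : Place K F, (p : ℤ) ∣ P.ord f) → (∀ τ ∈ 𝓘2, τ • f = f) →
    -- the class of `σ x - x`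
    ∀ (f₀ f₀' h₀ T : F) (a e : K), f₀ ∈ S.c₁.V → S.c₁.rd f₀ = 1 →
      (∀ P : Place K F, (p : ℤ) ∣ P.ord f₀) → f₀' ∈ S.c₂.V → S.c₂.rd f₀' = 1 →
      f₀ = algebraMap K F a * f₀' * h₀ ^ p →
      (∀ τ ∈ 𝓘1, ∃ (e' : K) (T' : F), τ • f₀ = algebraMap K F e' * f₀ * T' ^ p) →
      σ • f = algebraMap K F e * f * f₀ * T ^ p →
      ∃ m : ℤ, ∀ s ∈ S.nodes, (p : ℤ) ∣ s.1.ord (S.c₁.rd f) - m * s.1.ord (S.c₁.rd U)

/-- **EIS-ABS-TAME**: the class is fixed by `𝓘1`. -/
def Stmt_EisAbsTame : Prop :=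
  ∀ (K F k F₁ F₂ : Type) [Field K] [Field F] [Algebra K F] [Field k] [Field F₁]
    [Algebra k F₁] [Field F₂] [Algebra k F₂] [IsAlgClosed K] [IsAlgClosed k]
    (S : SSD K F k F₁ F₂), FFHyp K F → FFHyp k F₁ → FFHyp k F₂ →
    ∀ (g g₁ g₂ : ℕ) (c c₁ c₂ : ℤ), IsGenus K F g c → IsGenus k F₁ g₁ c₁ → IsGenus k F₂ g₂ c₂ →
    g + 1 ≤ g₁ + g₂ + S.nodes.card →
    ∀ (p : ℕ), p.Prime → p ≠ 2 → CharP k p → (p : K) ≠ 0 →
    ∀ (𝓘 𝓘1 : Set (SemilinearAut K F)), (∀ τ ∈ 𝓘, S.IsInertial τ) → 𝓘1 ⊆ 𝓘 →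
      IsK0Lift S 𝓘 →
    ∀ (F0 : Subfield F), (∀ y : F, y ∈ F0 ↔ ∀ τ ∈ 𝓘, τ • y = y) →
    ∀ (ζ : K), IsPrimitiveRoot ζ p →
      -- the values of `F0` are powers of the value of `p`, for both valuations
      (∀ y ∈ F0, y ≠ 0 → ∃ n : ℤ, S.c₁.V.valuation y = S.c₁.V.valuation (p : F) ^ n) →
      (∀ y ∈ F0, y ≠ 0 → ∃ n : ℤ, S.c₂.V.valuation y = S.c₂.V.valuation (p : F) ^ n) →
      (∀ y : F, (∀ τ ∈ 𝓘1, τ • y = y) →
        y ∈ IntermediateField.adjoin F0 ({algebraMap K F ζ} : Set F)) →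
      (∀ τ ∈ 𝓘1, SemilinearAut.baseAut τ ζ = ζ) →
    ∀ (U : F) (w : ℕ), S.c₁.IsGU U → (∀ τ ∈ 𝓘, τ • U = U) →
      (∀ P : Place K F, S.IsNodeP P → P.ord U = 0) →
      S.c₂.IsGU (U / algebraMap K F ((p : K) ^ w)) → ¬ p ∣ w →
    ∀ (f : F), S.c₁.IsGU f → (∀ P : Place K F, (p : ℤ) ∣ P.ord f) → (∀ τ ∈ 𝓘1, τ • f = f) →
      ∃ m : ℤ, ∀ s ∈ S.nodes, (p : ℤ) ∣ s.1.ord (S.c₁.rd f) - m * s.1.ord (S.c₁.rd U)

end Fermat.Agent.BADP

end
end
-- ==== END Fermat.Agent.BADP.EisAbs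

-- ==== BEGIN Fermat.Agent.BADP.H11_Arith0Alg
section

/-!
# S44 BADP, leaf ARITH-0 (helper11), part 2: the trace section of an inertial action

Abstract setting: a field `L`, a finite group `Γ` acting faithfully on `L`, a valuation subring `O`
of `L` on which `Γ` acts inertially, such that the fixed field `E = L^Γ` is discretely valued by
`O ∩ E` (uniformiser `π`) with perfect residue field.  Then there is `d ∈ L` such that
`λ(a) := ∑_γ γ (d a)` (an `E`-linear map `L → E`) maps `O` into `O` and is the identity modulo the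
maximal ideal of `O`  (`exists_trace_section`).

Proof: `O` is the integral closure of the discrete valuation ring `O ∩ E` in `L`, hence free of
finite rank; lift the residue map on a basis (`exists_fixed_residue`) and represent the resulting
functional by the trace form.
-/

set_option autoImplicit false
set_option linter.style.haveILetI false

namespace Fermat.Agent.BADP.H11

open Polynomial

section TraceSection

variable {L : Type*} [Field L] {Γ : Type*} [Group Γ] [Fintype Γ] [MulSemiringAction Γ L]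
variable (O : ValuationSubring L)

/-- The coefficients of the characteristic polynomial of an element of a stable valuation ring
are in the valuation ring. -/
theorem charpoly_coeff_mem (hstab : ∀ (γ : Γ) (a : L), a ∈ O → γ • a ∈ O) (a : L) (ha : a ∈ O)
    (i : ℕ) : (MulSemiringAction.charpoly Γ a).coeff i ∈ O := by
  classical
  let PO : (↥O)[X] := ∏ γ : Γ, (X - C (⟨γ • a, hstab γ a ha⟩ : ↥O))
  have hPO : PO.map O.subtype = MulSemiringAction.charpoly Γ a := by
    rw [MulSemiringAction.charpoly_eq, Polynomial.map_prod]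
    refine Finset.prod_congr rfl fun γ _ => ?_
    rw [Polynomial.map_sub, map_X, map_C]
    rfl
  rw [← hPO, coeff_map]
  exact (PO.coeff i).2

/-- Powers of an element of valuation `< 1`. -/
theorem val_zpow_le_one_iff {π : L} (hπ0 : π ≠ 0) (hπ : π ∈ O.nonunits) (k : ℤ) :
    O.valuation π ^ k ≤ 1 ↔ 0 ≤ k := by
  have h1 : O.valuation π < 1 := O.mem_nonunits_iff.mp hπ
  have h0 : O.valuation π ≠ 0 := (Valuation.ne_zero_iff _).mpr hπ0
  have h0' : 0 < O.valuation π := zero_lt_iff.mpr h0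
  constructor
  · intro h
    by_contra hk
    rw [not_le] at hk
    have h2 : 1 < O.valuation π ^ k := by
      obtain ⟨n, rfl⟩ : ∃ n : ℕ, k = -((n : ℤ) + 1) := ⟨(-k - 1).toNat, by omega⟩
      rw [zpow_neg, ← Nat.cast_succ, zpow_natCast]
      have h3 : O.valuation π ^ (n + 1) < 1 := pow_lt_one₀ zero_le h1 (Nat.succ_ne_zero n)
      exact (one_lt_inv₀ (pow_pos h0' _)).mpr h3
    exact absurd h (not_le.mpr h2)
  · intro hk
    obtain ⟨n, rfl⟩ := Int.eq_ofNat_of_zero_le hk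
    rw [zpow_natCast]
    exact pow_le_one₀ zero_le h1.le

theorem val_zpow_eq_one_iff {π : L} (hπ0 : π ≠ 0) (hπ : π ∈ O.nonunits) (k : ℤ) :
    O.valuation π ^ k = 1 ↔ k = 0 := by
  have h1 : O.valuation π < 1 := O.mem_nonunits_iff.mp hπ
  have h0 : O.valuation π ≠ 0 := (Valuation.ne_zero_iff _).mpr hπ0
  constructor
  · intro h
    have hk1 : 0 ≤ k := (val_zpow_le_one_iff O hπ0 hπ k).mp h.le
    have hk2 : 0 ≤ -k := by
      apply (val_zpow_le_one_iff O hπ0 hπ (-k)).mp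
      rw [zpow_neg, h, inv_one]
    omega
  · rintro rfl
    exact zpow_zero _

/-- The valuation ring `O ∩ E` of the fixed field `E = L^Γ`. -/
abbrev fixedVal : ValuationSubring (FixedPoints.subfield Γ L) :=
  O.comap (algebraMap (FixedPoints.subfield Γ L) L)

omit [Fintype Γ] in
theorem mem_fixedVal_iff (x : FixedPoints.subfield Γ L) :
    x ∈ fixedVal (Γ := Γ) O ↔ (x : L) ∈ O := Iff.rfl

omit [Fintype Γ] in
variable {O} in
/-- The valuation ring of the fixed field is a discrete valuation ring. -/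
theorem isDVR_fixedVal {π : L} (hπ0 : π ≠ 0) (hπ : π ∈ O.nonunits) (hπfix : ∀ γ : Γ, γ • π = π)
    (hdvr : ∀ x : L, x ≠ 0 → (∀ γ : Γ, γ • x = x) →
      ∃ k : ℤ, O.valuation x = O.valuation π ^ k) :
    IsDiscreteValuationRing ↥(fixedVal (Γ := Γ) O) := by
  have hv0 : O.valuation π ≠ 0 := (Valuation.ne_zero_iff _).mpr hπ0
  have key : ∀ x : ↥(fixedVal (Γ := Γ) O), x ≠ 0 →
      ∃ n : ℕ, O.valuation (((x : FixedPoints.subfield Γ L) : L)) = O.valuation π ^ n := by
    intro x hx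
    have hxL : (((x : FixedPoints.subfield Γ L) : L)) ≠ 0 := by
      intro h
      apply hx
      apply Subtype.ext
      apply Subtype.ext
      exact h
    obtain ⟨k, hk⟩ := hdvr _ hxL (fun γ => (x : FixedPoints.subfield Γ L).2 γ)
    have h1 : O.valuation (((x : FixedPoints.subfield Γ L) : L)) ≤ 1 :=
      (O.valuation_le_one_iff _).mpr x.2
    rw [hk] at h1
    obtain ⟨n, rfl⟩ := Int.eq_ofNat_of_zero_le ((val_zpow_le_one_iff O hπ0 hπ k).mp h1)
    exact ⟨n, by rw [hk, zpow_natCast]⟩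
  have hunit : ∀ x : ↥(fixedVal (Γ := Γ) O),
      O.valuation (((x : FixedPoints.subfield Γ L) : L)) = 1 → IsUnit x := by
    intro x hx
    have hx0 : (x : FixedPoints.subfield Γ L) ≠ 0 := by
      intro h
      rw [h] at hx
      simp at hx
    have hinv : (x : FixedPoints.subfield Γ L)⁻¹ ∈ fixedVal (Γ := Γ) O := by
      rw [mem_fixedVal_iff, ← O.valuation_le_one_iff]
      push_cast
      rw [map_inv₀, hx, inv_one]
    refine ⟨⟨x, ⟨_, hinv⟩, ?_, ?_⟩, rfl⟩
    · apply Subtype.ext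
      show (x : FixedPoints.subfield Γ L) * (x : FixedPoints.subfield Γ L)⁻¹ = 1
      exact mul_inv_cancel₀ hx0
    · apply Subtype.ext
      show (x : FixedPoints.subfield Γ L)⁻¹ * (x : FixedPoints.subfield Γ L) = 1
      exact inv_mul_cancel₀ hx0
  have hinj : ∀ i j : ℕ, O.valuation π ^ i = O.valuation π ^ j → i = j := by
    intro i j h
    have h1 : O.valuation π ^ ((i : ℤ) - (j : ℤ)) = 1 := by
      rw [zpow_sub₀ hv0, zpow_natCast, zpow_natCast, h, div_self (pow_ne_zero _ hv0)]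
    have := (val_zpow_eq_one_iff O hπ0 hπ _).mp h1
    omega
  let πE : FixedPoints.subfield Γ L := ⟨π, hπfix⟩
  have hπE0 : πE ≠ 0 := fun h => hπ0 (congrArg Subtype.val h)
  let π0 : ↥(fixedVal (Γ := Γ) O) := ⟨πE, O.nonunits_le hπ⟩
  have hπ00 : π0 ≠ 0 := fun h => hπE0 (congrArg Subtype.val h)
  refine IsDiscreteValuationRing.ofHasUnitMulPowIrreducibleFactorization ⟨π0, ?_, ?_⟩
  · rw [irreducible_iff]
    refine ⟨?_, fun a b hab => ?_⟩
    · intro hu
      obtain ⟨u, hu⟩ := hu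
      have h1 : π0 * ((u⁻¹ : (↥(fixedVal (Γ := Γ) O))ˣ) : ↥(fixedVal (Γ := Γ) O)) = 1 := by
        rw [← hu, Units.mul_inv]
      have h2' : π * (((((u⁻¹ : (↥(fixedVal (Γ := Γ) O))ˣ) : ↥(fixedVal (Γ := Γ) O)) :
            FixedPoints.subfield Γ L) : L)) = 1 :=
        congrArg (fun z : ↥(fixedVal (Γ := Γ) O) => (((z : FixedPoints.subfield Γ L) : L))) h1
      have h2 := congrArg O.valuation h2'
      rw [map_mul, map_one] at h2
      have h3 : O.valuation
          (((((u⁻¹ : (↥(fixedVal (Γ := Γ) O))ˣ) : ↥(fixedVal (Γ := Γ) O)) :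
            FixedPoints.subfield Γ L) : L)) ≤ 1 :=
        (O.valuation_le_one_iff _).mpr
          (((u⁻¹ : (↥(fixedVal (Γ := Γ) O))ˣ) : ↥(fixedVal (Γ := Γ) O))).2
      have h4 : O.valuation π < 1 := O.mem_nonunits_iff.mp hπ
      have h5 : O.valuation π * O.valuation
          (((((u⁻¹ : (↥(fixedVal (Γ := Γ) O))ˣ) : ↥(fixedVal (Γ := Γ) O)) :
            FixedPoints.subfield Γ L) : L)) < 1 :=
        mul_lt_one_of_lt_of_le h4 h3
      exact absurd h2 (ne_of_lt h5)
    · have ha0 : a ≠ 0 := by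
        rintro rfl
        rw [zero_mul] at hab
        exact hπ00 hab
      have hb0 : b ≠ 0 := by
        rintro rfl
        rw [mul_zero] at hab
        exact hπ00 hab
      obtain ⟨i, hi⟩ := key a ha0
      obtain ⟨j, hj⟩ := key b hb0
      have h2' : π = ((a : FixedPoints.subfield Γ L) : L) * ((b : FixedPoints.subfield Γ L) : L) :=
        congrArg (fun z : ↥(fixedVal (Γ := Γ) O) => (((z : FixedPoints.subfield Γ L) : L))) hab
      have h2 := congrArg O.valuation h2'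
      rw [map_mul, hi, hj, ← pow_add] at h2
      have h3 : O.valuation π ^ 1 = O.valuation π ^ (i + j) := by
        rw [pow_one]
        exact h2
      have h4 := hinj _ _ h3
      rcases Nat.eq_zero_or_pos i with h | h
      · left
        apply hunit
        rw [hi, h, pow_zero]
      · right
        apply hunit
        have : j = 0 := by omega
        rw [hj, this, pow_zero]
  · intro x hx
    obtain ⟨n, hn⟩ := key x hx
    refine ⟨n, ?_⟩
    have hw : (x : FixedPoints.subfield Γ L) / πE ^ n ∈ fixedVal (Γ := Γ) O := by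
      rw [mem_fixedVal_iff, ← O.valuation_le_one_iff]
      push_cast
      rw [map_div₀, map_pow, hn]
      show O.valuation π ^ n / O.valuation π ^ n ≤ 1
      rw [div_self (pow_ne_zero _ hv0)]
    have hwu : IsUnit (⟨_, hw⟩ : ↥(fixedVal (Γ := Γ) O)) := by
      apply hunit
      show O.valuation ((((x : FixedPoints.subfield Γ L) / πE ^ n : FixedPoints.subfield Γ L) : L))
        = 1
      push_cast
      rw [map_div₀, map_pow, hn]
      show O.valuation π ^ n / O.valuation π ^ n = 1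
      rw [div_self (pow_ne_zero _ hv0)]
    obtain ⟨u, hu⟩ := hwu
    refine ⟨u, ?_⟩
    rw [hu]
    apply Subtype.ext
    show πE ^ n * ((x : FixedPoints.subfield Γ L) / πE ^ n) = x
    rw [mul_div_cancel₀ _ (pow_ne_zero _ hπE0)]

variable [FaithfulSMul Γ L]

/-- **The trace section.**  There is `d ∈ L` such that `a ↦ ∑_γ γ (d a)` maps `O` to `O` and is
congruent to the identity modulo the maximal ideal of `O`. -/
theorem exists_trace_section (p : ℕ) [hp : Fact p.Prime] (hpO : (p : L) ∈ O.nonunits)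
    (hstab : ∀ (γ : Γ) (a : L), a ∈ O → γ • a ∈ O)
    (hinert : ∀ (γ : Γ) (a : L), a ∈ O → γ • a - a ∈ O.nonunits)
    (hperf : ∀ x ∈ O, (∀ γ : Γ, γ • x = x) →
      ∃ y ∈ O, (∀ γ : Γ, γ • y = y) ∧ x - y ^ p ∈ O.nonunits)
    {π : L} (hπ0 : π ≠ 0) (hπ : π ∈ O.nonunits) (hπfix : ∀ γ : Γ, γ • π = π)
    (hdvr : ∀ x : L, x ≠ 0 → (∀ γ : Γ, γ • x = x) →
      ∃ k : ℤ, O.valuation x = O.valuation π ^ k) :
    ∃ d : L, ∀ a ∈ O,
      (∑ γ : Γ, γ • (d * a)) ∈ O ∧ (∑ γ : Γ, γ • (d * a)) - a ∈ O.nonunits := by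
  classical
  haveI : IsDiscreteValuationRing ↥(fixedVal (Γ := Γ) O) := isDVR_fixedVal hπ0 hπ hπfix hdvr
  -- algebra structures
  let f : ↥(fixedVal (Γ := Γ) O) →+* ↥O :=
    { toFun := fun x => ⟨((x : FixedPoints.subfield Γ L) : L), x.2⟩
      map_one' := rfl
      map_mul' := fun _ _ => rfl
      map_zero' := rfl
      map_add' := fun _ _ => rfl }
  letI algO : Algebra ↥(fixedVal (Γ := Γ) O) ↥O := f.toAlgebra
  letI algL : Algebra ↥(fixedVal (Γ := Γ) O) L := (O.subtype.comp f).toAlgebra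
  haveI : IsScalarTower ↥(fixedVal (Γ := Γ) O) ↥O L := IsScalarTower.of_algebraMap_eq (fun x => rfl)
  haveI : IsScalarTower ↥(fixedVal (Γ := Γ) O) (FixedPoints.subfield Γ L) L :=
    IsScalarTower.of_algebraMap_eq (fun x => rfl)
  -- `O` is the integral closure of `O ∩ E` in `L`
  haveI hIC : IsIntegralClosure ↥O ↥(fixedVal (Γ := Γ) O) L :=
    { algebraMap_injective := Subtype.val_injective
      isIntegral_iff := by
        intro x
        constructor
        · intro hx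
          have h1 : IsIntegral ↥O x := hx.tower_top
          exact IsIntegrallyClosed.isIntegral_iff.mp h1
        · rintro ⟨y, rfl⟩
          have hlift : MulSemiringAction.charpoly Γ (y : L)
              ∈ Polynomial.lifts (algebraMap ↥(fixedVal (Γ := Γ) O) L) := by
            rw [Polynomial.lifts_iff_coeff_lifts]
            intro n
            refine ⟨⟨⟨_, fun γ => MulSemiringAction.smul_coeff_charpoly (y : L) n γ⟩,
              charpoly_coeff_mem O hstab (y : L) y.2 n⟩, rfl⟩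
          obtain ⟨q, hq1, -, hq2⟩ := Polynomial.lifts_and_natDegree_eq_and_monic hlift
            (MulSemiringAction.monic_charpoly Γ (y : L))
          refine ⟨q, hq2, ?_⟩
          rw [← Polynomial.eval_map, hq1]
          exact MulSemiringAction.eval_charpoly Γ (y : L) }
  haveI : Module.IsTorsionFree ↥(fixedVal (Γ := Γ) O) L :=
    .trans_faithfulSMul ↥(fixedVal (Γ := Γ) O) (FixedPoints.subfield Γ L) L
  haveI : Module.Finite ↥(fixedVal (Γ := Γ) O) ↥O :=
    IsIntegralClosure.finite ↥(fixedVal (Γ := Γ) O) (FixedPoints.subfield Γ L) L ↥O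
  haveI : Module.Free ↥(fixedVal (Γ := Γ) O) ↥O :=
    IsIntegralClosure.module_free ↥(fixedVal (Γ := Γ) O) (FixedPoints.subfield Γ L) L ↥O
  haveI : IsLocalization
      (Algebra.algebraMapSubmonoid ↥O (nonZeroDivisors ↥(fixedVal (Γ := Γ) O))) L :=
    IsIntegralClosure.isLocalization ↥(fixedVal (Γ := Γ) O) (FixedPoints.subfield Γ L) L ↥O
  let b := Module.Free.chooseBasis ↥(fixedVal (Γ := Γ) O) ↥O
  let bL : Module.Basis _ (FixedPoints.subfield Γ L) L :=
    b.localizationLocalization (FixedPoints.subfield Γ L)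
      (nonZeroDivisors ↥(fixedVal (Γ := Γ) O)) L
  -- fixed lifts of the residues of the basis
  have hβ : ∀ i, ∃ β ∈ O, (∀ γ : Γ, γ • β = β) ∧ ((b i : ↥O) : L) - β ∈ O.nonunits :=
    fun i => exists_fixed_residue O p hpO hstab hinert hperf _ (b i).2
  choose β hβO hβfix hβres using hβ
  let βE : _ → FixedPoints.subfield Γ L := fun i => ⟨β i, hβfix i⟩
  let φ : L →ₗ[FixedPoints.subfield Γ L] FixedPoints.subfield Γ L :=
    bL.constr (FixedPoints.subfield Γ L) βE
  let d : L := ((Algebra.traceForm (FixedPoints.subfield Γ L) L).toDual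
    (traceForm_nondegenerate (FixedPoints.subfield Γ L) L)).symm φ
  have hd : ∀ y : L, Algebra.trace (FixedPoints.subfield Γ L) L (d * y) = φ y := by
    intro y
    rw [← Algebra.traceForm_apply]
    exact LinearMap.BilinForm.apply_toDual_symm_apply φ y
  have hsum : ∀ y : L, (∑ γ : Γ, γ • y)
      = ((Algebra.trace (FixedPoints.subfield Γ L) L y : FixedPoints.subfield Γ L) : L) := by
    intro y
    have h1 := trace_eq_sum_automorphisms (K := FixedPoints.subfield Γ L) (L := L) y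
    have h2 : algebraMap (FixedPoints.subfield Γ L) L
        (Algebra.trace (FixedPoints.subfield Γ L) L y)
        = ((Algebra.trace (FixedPoints.subfield Γ L) L y : FixedPoints.subfield Γ L) : L) := rfl
    rw [← h2, h1]
    exact Fintype.sum_equiv (FixedPoints.toAlgAutMulEquiv Γ L).toEquiv _ _ (fun γ => rfl)
  refine ⟨d, fun a ha => ?_⟩
  set aO : ↥O := ⟨a, ha⟩ with haO
  -- the value of the section
  have hval : (∑ γ : Γ, γ • (d * a))
      = ∑ i, ((b.repr aO i : ↥(fixedVal (Γ := Γ) O)) : FixedPoints.subfield Γ L) * (β i : L) := by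
    rw [hsum, hd]
    have h1 : φ a = ∑ i, bL.repr a i • βE i := by
      show bL.constr (FixedPoints.subfield Γ L) βE a = _
      rw [Module.Basis.constr_apply_fintype]
      rfl
    have h2 : ∀ i, bL.repr a i
        = algebraMap ↥(fixedVal (Γ := Γ) O) (FixedPoints.subfield Γ L) (b.repr aO i) := by
      intro i
      have : a = algebraMap ↥O L aO := rfl
      rw [this]
      exact Module.Basis.localizationLocalization_repr_algebraMap _ _ _ b aO i
    rw [h1]
    push_cast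
    refine Finset.sum_congr rfl fun i _ => ?_
    rw [h2 i]
    rfl
  -- the same sum inside `O`
  let tO : ↥O := ∑ i, f (b.repr aO i) * ⟨β i, hβO i⟩
  have htO : (tO : L) = ∑ γ : Γ, γ • (d * a) := by
    rw [hval]
    show O.subtype tO = _
    rw [map_sum]
    rfl
  have haO' : aO = ∑ i, f (b.repr aO i) * b i := by
    conv_lhs => rw [← b.sum_repr aO]
    refine Finset.sum_congr rfl fun i _ => ?_
    rw [Algebra.smul_def]
    rfl
  have hdiff : tO - aO ∈ IsLocalRing.maximalIdeal ↥O := by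
    have h1 : tO - aO = ∑ i, f (b.repr aO i) * (⟨β i, hβO i⟩ - b i) := by
      conv_lhs => rw [haO']
      rw [← Finset.sum_sub_distrib]
      refine Finset.sum_congr rfl fun i _ => ?_
      ring
    rw [h1]
    refine Ideal.sum_mem _ fun i _ => Ideal.mul_mem_left _ _ ?_
    rw [← ValuationSubring.coe_mem_nonunits_iff]
    have h2 : (((⟨β i, hβO i⟩ : ↥O) - b i : ↥O) : L) = -(((b i : ↥O) : L) - β i) := by
      push_cast
      ring
    rw [h2]
    have h3 := hβres i
    rw [O.mem_nonunits_iff] at h3 ⊢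
    rwa [Valuation.map_neg]
  constructor
  · rw [← htO]
    exact tO.2
  · rw [← htO]
    have := (ValuationSubring.coe_mem_nonunits_iff (A := O) (a := tO - aO)).mpr hdiff
    simpa using this

end TraceSection

end Fermat.Agent.BADP.H11

end
-- ==== END Fermat.Agent.BADP.H11_Arith0Alg

-- ==== BEGIN Fermat.Agent.BADP.H15_Desc
section
attribute [local instance 10000] SubalgebraClass.toAlgebra
attribute [local instance 10000] HahnSeries.powerSeriesAlgebra

/-!
# S44 BADP, leaf ARITH (function level), part 2 (helper15): **ORTHO, DESC-F, A1**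

`F = F_N · ℚ̄`, `A` a valuation ring of `ℚ̄`, `V₁ = gaussV A N`.

* `exists_repr` **(SPAN)**: every `g ∈ F` is `∑ a i • bcF (y i)`, `y i ∈ F_N` rational;
* `exists_repr_ortho` **(ORTHO)**: one may take the `y i = e i` integral for `A ∩ ℚ` with
  linearly independent reductions;
* `Ortho`: the key properties of such a family `E i = bcF (e i)`:
  `sum_mem`, `red_sum`, `mem_iff`, `linearIndependent`, `exists_unit`;
* `fixF N H`: the subfield of `F` of the functions fixed by `galF N σ`, `σ ∈ H`;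
* `coeff_fixed` **(DESC-F, coefficients)**: if `∑ a i • E i` is fixed by `σ` then `σ (a i) = a i`;
* `exists_unit_of_fixed` **(A1)**: `g ∈ F^H`, `g ≠ 0` ⇒ `∃ c ∈ (ℚ̄^H)^×`, `c g` is a unit of `V₁`.
-/

set_option autoImplicit false
set_option linter.style.haveILetI false
set_option linter.unusedSectionVars false
set_option synthInstance.maxHeartbeats 400000
set_option maxHeartbeats 1000000

open ModularCurve AlgebraicCurve Fermat.Agent.S28 Fermat.Agent.S28.H73 Fermat.Agent.RED.H73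

noncomputable section

namespace Fermat.Agent.BADP.H15

open Fermat.Agent.RED Fermat.Agent.S24 Fermat.Agent.FL.H22 Fermat.Agent.BAD
  Fermat.Agent.GTor.H56

section Ortho

variable {C : Type} [Field C] (O : ValuationSubring C)
  {F₀ : IntermediateField C (LaurentSeries C)}

/-- Orthonormal bases of the span of a finite family, in terms of series. -/
theorem exists_ortho_repr (hFS : H42.FracScalable O F₀) (h₀ : HasScale O F₀) {n : ℕ}
    (y : Fin n → ↥F₀) :
    ∃ (m : ℕ) (e : Fin m → ↥(gaussValSub O F₀ h₀)),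
      LinearIndependent (kV O) (fun i => gaussResF' O h₀ (e i)) ∧
      ∀ i, ∃ r : Fin m → C, ((y i : ↥F₀) : LaurentSeries C)
        = ∑ j, HahnSeries.C (r j) * (((e j : ↥(gaussValSub O F₀ h₀)) : ↥F₀) : LaurentSeries C) := by
  set W : Submodule C ↥F₀ := Submodule.span C (Set.range y) with hWdef
  haveI : FiniteDimensional C W := FiniteDimensional.span_of_finite C (Set.finite_range y)
  obtain ⟨e, he⟩ := H42.exists_isOrthonormalF O hFS h₀ W
  -- every element of `W` is a combination of `e`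
  have hW : ∀ x ∈ W, ∃ r : Fin (Module.finrank C W) → C,
      x = ∑ j, r j • ((e j : ↥(gaussValSub O F₀ h₀)) : ↥F₀) := by
    intro x hx
    by_cases hx0 : x = 0
    · refine ⟨fun _ => 0, ?_⟩
      rw [hx0]
      simp
    obtain ⟨c, u, hc, hxu⟩ := exists_unit_scale O h₀ x hx0
    have huW : (((u : ↥(gaussValSub O F₀ h₀)) : ↥F₀)) ∈ W := by
      have : (((u : ↥(gaussValSub O F₀ h₀)) : ↥F₀)) = c⁻¹ • x := by
        rw [hxu, Algebra.smul_def, ← mul_assoc, ← map_mul, inv_mul_cancel₀ hc, map_one,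
          one_mul]
      rw [this]
      exact W.smul_mem _ hx
    obtain ⟨d, hd, -⟩ := he.repr u huW
    refine ⟨fun j => c * ((d j : ↥O) : C), ?_⟩
    rw [hxu, hd, ← Algebra.smul_def, Finset.smul_sum]
    refine Finset.sum_congr rfl fun j _ => ?_
    rw [smul_smul]
  refine ⟨_, e, he.indep, fun i => ?_⟩
  obtain ⟨r, hr⟩ := hW (y i) (Submodule.subset_span ⟨i, rfl⟩)
  refine ⟨r, ?_⟩
  rw [← coe_sum_smul_C, ← hr]

end Ortho

section Repr

variable (N : ℕ) [NeZero N]

/-- **(SPAN)**: every function of `F_N · ℚ̄` is a `ℚ̄`-linear combination of rational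
functions. -/
theorem exists_repr (g : FN N) :
    ∃ (n : ℕ) (a : Fin n → Kbar) (y : Fin n → ↥(modularFunctionFieldFull N)),
      g = ∑ i, a i • bcF N (y i) := by
  haveI : Algebra.IsAlgebraic ℚ Kbar := AlgebraicClosure.isAlgebraic ℚ
  have h1 : (g : LaurentSeries Kbar)
      ∈ Submodule.span Kbar (genSet (modularFunctionFieldFull N) Kbar) :=
    mem_span_of_mem_laurentBaseChange (L := Kbar) (modularFunctionFieldFull N) g.2
  obtain ⟨n, a, x, hsum⟩ := Submodule.mem_span_set'.mp h1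
  choose y hy hyx using fun i => (x i).2
  refine ⟨n, a, fun i => ⟨y i, hy i⟩, Subtype.ext ?_⟩
  rw [H42.coe_sum_smul, ← hsum]
  refine Finset.sum_congr rfl fun i _ => ?_
  rw [coe_bcF, ← hyx i]

/-- **(ORTHO)**: every function of `F_N · ℚ̄` is a `ℚ̄`-linear combination of rational functions
which are integral for `A ∩ ℚ` and have linearly independent reductions. -/
theorem exists_repr_ortho (A : ValuationSubring Kbar) (g : FN N) :
    ∃ (n : ℕ) (a : Fin n → Kbar)
      (e : Fin n → ↥(gaussValSub (subV ℚ A) (modularFunctionFieldFull N) (hasScale_full _ N))),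
      LinearIndependent (kV (subV ℚ A))
        (fun i => gaussResF' (subV ℚ A) (hasScale_full _ N) (e i)) ∧
      g = ∑ i, a i • bcF N (e i) := by
  obtain ⟨n, a, y, rfl⟩ := exists_repr N g
  obtain ⟨m, e, he, hye⟩ := exists_ortho_repr (subV ℚ A) (fracScalable_full _ N)
    (hasScale_full _ N) y
  choose r hr using hye
  refine ⟨m, fun j => ∑ i, a i * algebraMap ℚ Kbar (r i j), e, he, ?_⟩
  have h1 : ∀ i, bcF N (y i) = ∑ j, algebraMap ℚ Kbar (r i j) • bcF N (e j) := by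
    intro i
    apply Subtype.ext
    rw [coe_bcF, coe_sum_smul_FN, hr i, coeffEmb_sum_C_mul]
    rfl
  rw [Finset.sum_congr rfl fun i _ => by rw [h1 i, Finset.smul_sum]]
  rw [Finset.sum_comm]
  refine Finset.sum_congr rfl fun j _ => ?_
  rw [Finset.sum_smul]
  refine Finset.sum_congr rfl fun i _ => ?_
  rw [smul_smul]

end Repr

/-! ## Families with linearly independent reductions -/

section Key

open Fermat.Agent.RED.H17

variable {C : Type} [Field C] (O : ValuationSubring C)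
  {F : IntermediateField C (LaurentSeries C)} (h : HasScale O F)
  {n : ℕ} (E : Fin n → ↥(gaussValSub O F h))

/-- An integral combination of integral functions is integral. -/
theorem sum_mem (a : Fin n → C) (ha : ∀ i, a i ∈ O) :
    ∑ i, a i • ((E i : ↥(gaussValSub O F h)) : ↥F) ∈ gaussValSub O F h := by
  refine Subring.sum_mem _ fun i _ => ?_
  rw [Algebra.smul_def]
  exact Subring.mul_mem _ ((algebraMap_mem_gaussValSub_iff O h (a i)).2 (ha i)) (E i).2

/-- The reduction of an integral combination. -/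
theorem red_sum (a : Fin n → C) (ha : ∀ i, a i ∈ O)
    (hm : ∑ i, a i • ((E i : ↥(gaussValSub O F h)) : ↥F) ∈ gaussValSub O F h) :
    gaussResF' O h ⟨_, hm⟩ = ∑ i, resV O ⟨a i, ha i⟩ • gaussResF' O h (E i) := by
  have hc : ∀ i, algebraMap C ↥F (a i) ∈ gaussValSub O F h :=
    fun i => (algebraMap_mem_gaussValSub_iff O h (a i)).2 (ha i)
  have h1 : (⟨_, hm⟩ : ↥(gaussValSub O F h))
      = ∑ i, (⟨algebraMap C ↥F (a i), hc i⟩ : ↥(gaussValSub O F h)) * E i := by
    apply Subtype.ext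
    have h2 : ((∑ i, (⟨algebraMap C ↥F (a i), hc i⟩ : ↥(gaussValSub O F h)) * E i
        : ↥(gaussValSub O F h)) : ↥F)
        = ∑ i, algebraMap C ↥F (a i) * ((E i : ↥(gaussValSub O F h)) : ↥F) :=
      map_sum (gaussValSub O F h).subtype _ _
    rw [h2]
    show ∑ i, a i • ((E i : ↥(gaussValSub O F h)) : ↥F) = _
    exact Finset.sum_congr rfl fun i _ =>
      Algebra.smul_def (a i) ((E i : ↥(gaussValSub O F h)) : ↥F)
  rw [h1, map_sum]
  refine Finset.sum_congr rfl fun i _ => ?_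
  rw [map_mul, gaussResF'_algebraMap O h ⟨a i, ha i⟩ (hc i), Algebra.smul_def]

variable {O h E}

/-- **Scaling**: a nonzero combination of a family with linearly independent reductions becomes a
unit after division by a coefficient of maximal valuation. -/
theorem exists_unit_coeff
    (hE : LinearIndependent (kV O) (fun i => gaussResF' O h (E i)))
    (a : Fin n → C) (ha : a ≠ 0) :
    ∃ m, a m ≠ 0 ∧ (∀ i, a i * (a m)⁻¹ ∈ O) ∧
      ∃ hm : algebraMap C ↥F (a m)⁻¹ * ∑ i, a i • ((E i : ↥(gaussValSub O F h)) : ↥F)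
          ∈ gaussValSub O F h,
        gaussResF' O h ⟨_, hm⟩ ≠ 0 := by
  obtain ⟨m, hm0, hm⟩ := H42.exists_max_coeff O a ha
  have e1 : algebraMap C ↥F (a m)⁻¹ * ∑ i, a i • ((E i : ↥(gaussValSub O F h)) : ↥F)
      = ∑ i, (a i * (a m)⁻¹) • ((E i : ↥(gaussValSub O F h)) : ↥F) := by
    rw [← Algebra.smul_def, Finset.smul_sum]
    refine Finset.sum_congr rfl fun i _ => ?_
    rw [smul_smul, mul_comm]
  have hmem := sum_mem O h E (fun i => a i * (a m)⁻¹) hm
  refine ⟨m, hm0, hm, e1 ▸ hmem, ?_⟩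
  have e2 : (⟨_, e1 ▸ hmem⟩ : ↥(gaussValSub O F h)) = ⟨_, hmem⟩ := Subtype.ext e1
  rw [e2, red_sum O h E _ hm hmem]
  intro h0
  have h3 := Fintype.linearIndependent_iff.mp hE _ h0 m
  have h5 : (⟨a m * (a m)⁻¹, hm m⟩ : ↥O) = 1 := Subtype.ext (mul_inv_cancel₀ hm0)
  rw [h5, map_one] at h3
  exact one_ne_zero h3

/-- A family with linearly independent reductions is linearly independent. -/
theorem eq_zero_of_sum_eq_zero
    (hE : LinearIndependent (kV O) (fun i => gaussResF' O h (E i)))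
    (a : Fin n → C) (ha : ∑ i, a i • ((E i : ↥(gaussValSub O F h)) : ↥F) = 0) : a = 0 := by
  by_contra hne
  obtain ⟨m, -, -, hm, hr⟩ := exists_unit_coeff hE a hne
  apply hr
  have : (⟨_, hm⟩ : ↥(gaussValSub O F h)) = 0 := by
    apply Subtype.ext
    show algebraMap C ↥F (a m)⁻¹ * ∑ i, a i • ((E i : ↥(gaussValSub O F h)) : ↥F) = 0
    rw [ha, mul_zero]
  rw [this, map_zero]

theorem linearIndependent_of_red
    (hE : LinearIndependent (kV O) (fun i => gaussResF' O h (E i))) :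
    LinearIndependent C (fun i => ((E i : ↥(gaussValSub O F h)) : ↥F)) := by
  rw [Fintype.linearIndependent_iff]
  intro a ha i
  rw [_root_.Fermat.Agent.BADP.H15.eq_zero_of_sum_eq_zero hE a ha]
  rfl

/-- **Integrality is read off the coefficients.** -/
theorem coeff_mem_of_sum_mem
    (hE : LinearIndependent (kV O) (fun i => gaussResF' O h (E i)))
    (a : Fin n → C)
    (hg : ∑ i, a i • ((E i : ↥(gaussValSub O F h)) : ↥F) ∈ gaussValSub O F h) :
    ∀ i, a i ∈ O := by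
  by_cases hne : a = 0
  · intro i
    rw [hne]
    exact O.zero_mem
  obtain ⟨m, hm0, hmO, hm, hr⟩ := exists_unit_coeff hE a hne
  have ham : a m ∈ O := by
    by_contra hnot
    have hinv : (a m)⁻¹ ∈ O := (O.mem_or_inv_mem (a m)).resolve_left hnot
    have hc : algebraMap C ↥F (a m)⁻¹ ∈ gaussValSub O F h :=
      (algebraMap_mem_gaussValSub_iff O h _).2 hinv
    apply hr
    have e : (⟨_, hm⟩ : ↥(gaussValSub O F h))
        = (⟨algebraMap C ↥F (a m)⁻¹, hc⟩ : ↥(gaussValSub O F h)) * ⟨_, hg⟩ := Subtype.ext rfl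
    rw [e, map_mul, gaussResF'_algebraMap O h ⟨(a m)⁻¹, hinv⟩ hc]
    have hz : resV O ⟨(a m)⁻¹, hinv⟩ = 0 := by
      rw [IsLocalRing.residue_eq_zero_iff, IsLocalRing.mem_maximalIdeal, mem_nonunits_iff]
      intro hu
      apply hnot
      have h1 := (ValuationSubring.valuation_eq_one_iff O ⟨(a m)⁻¹, hinv⟩).mp hu
      rw [← ValuationSubring.valuation_le_one_iff]
      have h2 : O.valuation (a m) = 1 := by
        have h3 : O.valuation ((a m)⁻¹) = 1 := h1
        rw [map_inv₀, inv_eq_one] at h3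
        exact h3
      exact h2.le
    rw [hz, map_zero, zero_mul]
  intro i
  have : a i = a i * (a m)⁻¹ * a m := by
    rw [mul_assoc, inv_mul_cancel₀ hm0, mul_one]
  rw [this]
  exact O.mul_mem _ _ (hmO i) ham

end Key

/-! ## The Galois action -/

section Fix

variable (N : ℕ) [NeZero N]

theorem galF_bcF (σ : GalQ) (y : ↥(modularFunctionFieldFull N)) :
    galF N σ • bcF N y = bcF N y := by
  apply Subtype.ext
  show coeffMap ((σ : Kbar ≃ₐ[ℚ] Kbar) : Kbar →+* Kbar) (coeffEmb Kbar (y : LaurentSeries ℚ))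
    = coeffEmb Kbar (y : LaurentSeries ℚ)
  exact coeffMap_coeffEmb σ _

theorem galF_const (σ : GalQ) (c : Kbar) :
    galF N σ • algebraMap Kbar (FN N) c = algebraMap Kbar (FN N) (σ c) :=
  arithmeticRingAut_algebraMap (modularFunctionFieldFull N) σ c

theorem galF_smul_smul (σ : GalQ) (c : Kbar) (f : FN N) :
    galF N σ • (c • f) = σ c • (galF N σ • f) := by
  rw [Algebra.smul_def, smul_mul', galF_const, ← Algebra.smul_def]

theorem galF_sum_smul (σ : GalQ) {n : ℕ} (a : Fin n → Kbar) (f : Fin n → FN N) :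
    galF N σ • (∑ i, a i • f i) = ∑ i, σ (a i) • (galF N σ • f i) := by
  rw [Finset.smul_sum]
  exact Finset.sum_congr rfl fun i _ => galF_smul_smul N σ (a i) (f i)

/-- The subfield `F^H` of the functions fixed by the coefficientwise action of the elements of
`H ⊆ G_ℚ`. -/
def fixF (H : Set GalQ) : Subfield (FN N) where
  carrier := {g | ∀ σ ∈ H, galF N σ • g = g}
  mul_mem' := fun {x y} hx hy σ hσ => by rw [smul_mul', hx σ hσ, hy σ hσ]
  one_mem' := fun σ _ => smul_one _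
  add_mem' := fun {x y} hx hy σ hσ => by rw [smul_add, hx σ hσ, hy σ hσ]
  zero_mem' := fun σ _ => smul_zero _
  neg_mem' := fun {x} hx σ hσ => by rw [smul_neg, hx σ hσ]
  inv_mem' := fun x hx σ hσ => by rw [smul_inv'', hx σ hσ]

variable {N}

theorem mem_fixF {H : Set GalQ} {g : FN N} :
    g ∈ fixF N H ↔ ∀ σ ∈ H, galF N σ • g = g := Iff.rfl

variable (N)

theorem bcF_mem_fixF (H : Set GalQ) (y : ↥(modularFunctionFieldFull N)) :
    bcF N y ∈ fixF N H := fun σ _ => galF_bcF N σ y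

theorem const_mem_fixF {H : Set GalQ} {c : Kbar} (hc : ∀ σ ∈ H, σ c = c) :
    algebraMap Kbar (FN N) c ∈ fixF N H := fun σ hσ => by
  rw [galF_const, hc σ hσ]

theorem const_mem_fixF_iff {H : Set GalQ} {c : Kbar} :
    algebraMap Kbar (FN N) c ∈ fixF N H ↔ ∀ σ ∈ H, σ c = c := by
  refine ⟨fun h σ hσ => ?_, const_mem_fixF N⟩
  have := h σ hσ
  rw [galF_const] at this
  exact (algebraMap Kbar (FN N)).injective this

variable (A : ValuationSubring Kbar)

/-- The orthonormal family of `F_N · ℚ̄` attached to an orthonormal family of `F_N`. -/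
def bcE {n : ℕ}
    (e : Fin n → ↥(gaussValSub (subV ℚ A) (modularFunctionFieldFull N) (hasScale_full _ N)))
    (i : Fin n) : ↥(gaussV A N) :=
  ⟨bcF N (e i), bcF_mem_gaussValSub N A (e i)⟩

@[simp] theorem coe_bcE {n : ℕ}
    (e : Fin n → ↥(gaussValSub (subV ℚ A) (modularFunctionFieldFull N) (hasScale_full _ N)))
    (i : Fin n) : ((bcE N A e i : ↥(gaussV A N)) : FN N) = bcF N (e i) := rfl

theorem linearIndependent_red_bcE {n : ℕ}
    (e : Fin n → ↥(gaussValSub (subV ℚ A) (modularFunctionFieldFull N) (hasScale_full _ N)))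
    (he : LinearIndependent (kV (subV ℚ A))
      (fun i => gaussResF' (subV ℚ A) (hasScale_full _ N) (e i))) :
    LinearIndependent (kV A) (fun i => gaussRes A N (bcE N A e i)) :=
  linearIndependent_red_bcF N A e he

/-- **(DESC-F), coefficient form**: if a combination of an orthonormal rational family is fixed
by `σ`, then so are its coefficients. -/
theorem coeff_fixed {n : ℕ}
    (e : Fin n → ↥(gaussValSub (subV ℚ A) (modularFunctionFieldFull N) (hasScale_full _ N)))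
    (he : LinearIndependent (kV (subV ℚ A))
      (fun i => gaussResF' (subV ℚ A) (hasScale_full _ N) (e i)))
    (a : Fin n → Kbar) (σ : GalQ)
    (hσ : galF N σ • (∑ i, a i • bcF N (e i)) = ∑ i, a i • bcF N (e i)) :
    ∀ i, σ (a i) = a i := by
  have h1 : ∑ i, (σ (a i) - a i) • (((bcE N A e i : ↥(gaussV A N)) : FN N)) = 0 := by
    have h2 : ∑ i, (σ (a i) - a i) • (((bcE N A e i : ↥(gaussV A N)) : FN N))
        = galF N σ • (∑ i, a i • bcF N (e i)) - ∑ i, a i • bcF N (e i) := by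
      rw [galF_sum_smul, ← Finset.sum_sub_distrib]
      refine Finset.sum_congr rfl fun i _ => ?_
      rw [galF_bcF, coe_bcE, sub_smul]
    rw [h2, hσ, sub_self]
  have h3 := _root_.Fermat.Agent.BADP.H15.eq_zero_of_sum_eq_zero (linearIndependent_red_bcE N A e he) _ h1
  intro i
  have := congrFun h3 i
  exact sub_eq_zero.mp this

/-- **(A1)**: a nonzero function fixed by `H` becomes a unit of the Gauss valuation ring after
multiplication by a nonzero constant fixed by `H`. -/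
theorem exists_unit_of_fixed (H : Set GalQ) {g : FN N} (hg : g ∈ fixF N H) (hg0 : g ≠ 0) :
    ∃ c : Kbar, c ≠ 0 ∧ (∀ σ ∈ H, σ c = c) ∧
      ∃ hm : algebraMap Kbar (FN N) c * g ∈ gaussV A N, gaussRes A N ⟨_, hm⟩ ≠ 0 := by
  obtain ⟨n, a, e, he, rfl⟩ := exists_repr_ortho N A g
  have ha : a ≠ 0 := by
    rintro rfl
    apply hg0
    simp
  obtain ⟨m, hm0, -, hm, hr⟩ := exists_unit_coeff (linearIndependent_red_bcE N A e he) a ha
  refine ⟨(a m)⁻¹, inv_ne_zero hm0, fun σ hσ => ?_, hm, hr⟩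
  rw [map_inv₀, coeff_fixed N A e he a σ (hg σ hσ) m]

end Fix

/-! ## The two Gauss valuations at level `N = M q` -/

section Two

open Fermat.Agent.BAD.H88

variable (A : ValuationSubring Kbar)
variable (q M : ℕ) (a b : ℤ) (hab : a * q + b * M = 1) (hq : q.Prime) [NeZero (M * q)]

/-- **(A1)** for `V₁`. -/
theorem exists_unit1_of_fixed (H : Set GalQ) {g : FN (M * q)} (hg : g ∈ fixF (M * q) H)
    (hg0 : g ≠ 0) :
    ∃ c : Kbar, c ≠ 0 ∧ (∀ σ ∈ H, σ c = c) ∧
      ∃ hm : algebraMap Kbar (FN (M * q)) c * g ∈ V1 A q M, red1 A q M ⟨_, hm⟩ ≠ 0 :=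
  exists_unit_of_fixed (M * q) A H hg hg0

include hab hq in
/-- `w_q` preserves the fixed functions. -/
theorem wq_mem_fixF (H : Set GalQ) {g : FN (M * q)} (hg : g ∈ fixF (M * q) H) :
    wq q M a b hab hq g ∈ fixF (M * q) H := by
  intro σ hσ
  have h1 := wq_arith q M a b hab hq σ g
  have h2 : arithmeticRingAut (modularFunctionFieldFull (M * q)) σ g = g := hg σ hσ
  rw [h2] at h1
  exact h1.symm

include hab hq in
/-- **(A1)** for `V₂ = V₁ ∘ w_q`. -/
theorem exists_unit2_of_fixed (H : Set GalQ) {g : FN (M * q)} (hg : g ∈ fixF (M * q) H)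
    (hg0 : g ≠ 0) :
    ∃ c : Kbar, c ≠ 0 ∧ (∀ σ ∈ H, σ c = c) ∧
      ∃ hm : algebraMap Kbar (FN (M * q)) c * g ∈ V2 A q M a b hab hq,
        red2 A q M a b hab hq ⟨_, hm⟩ ≠ 0 := by
  have hw0 : wq q M a b hab hq g ≠ 0 := fun h0 =>
    hg0 ((map_eq_zero_iff _ (wq q M a b hab hq).injective).mp h0)
  obtain ⟨c, hc0, hc, hm, hr⟩ :=
    exists_unit1_of_fixed A q M H (wq_mem_fixF q M a b hab hq H hg) hw0
  have e : wq q M a b hab hq (algebraMap Kbar (FN (M * q)) c * g)
      = algebraMap Kbar (FN (M * q)) c * wq q M a b hab hq g := by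
    rw [map_mul, AlgEquiv.commutes]
  have hm2 : algebraMap Kbar (FN (M * q)) c * g ∈ V2 A q M a b hab hq := by
    rw [mem_V2_iff, e]
    exact hm
  refine ⟨c, hc0, hc, hm2, ?_⟩
  rw [red2_mk]
  have e2 : (⟨wq q M a b hab hq (algebraMap Kbar (FN (M * q)) c * g), hm2⟩ : ↥(V1 A q M))
      = ⟨_, hm⟩ := Subtype.ext e
  rw [e2]
  exact hr

end Two

end Fermat.Agent.BADP.H15

end
end
-- ==== END Fermat.Agent.BADP.H15_Desc

-- ==== BEGIN Fermat.Agent.BADP.H21_CoordAbs
section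

/-!
# S44 / S43 / S15, package COORD (helper21): annulus coordinates at the nodes, abstract form

`S` a semistable Deuring datum (`BAD.SSD`) satisfying Riemann's theorem and the numerical
inequality `g + 1 ≤ g₁ + g₂ + δ` (so that helper28/helper60's good lifts `H28.stmt_GoodLift` are
available), `s` a node, `F0` a subfield of `F` (modular: the functions fixed by the inertia group)
and `c₀` a constant of `F0` of the maximal ideal (modular: `c₀ = q`).

* `exists_lift` : **LIFT**, every function on the second component which is regular at `s.2` is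
  the second reduction of a function integral for both valuations without pole on the fibre of `s`
  (quotient of two good lifts);
* `exists_start` : **START**, a function integral for both valuations, without pole on the fibre
  of `s`, whose first reduction has a simple zero at `s.1` and whose second reduction is `0`;
* `exists_isAnnCoord_of_goodLift` : **COORD**, from
  (K0) every function integral for both valuations without pole on the fibre of `s` has a
       companion in `F0` with the same two reductions and without pole on the fibre of `s`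
       (modular: helper93's ARITH-0, the `K₀`-rational part),
  (DISC) `F0 ∩ 𝔪_{V₂} = c₀ (F0 ∩ V₂)`,
  (UNIT) a unit `U` for `V₁` without zero or pole on the fibre, `a = ord_{s.1} (red₁ U) > 0`,
       `U / c₀ ^ w` a unit for `V₂`,
  there are `t ∈ F0` and `n ≥ 1` with `S.IsAnnCoord s t (c₀ ^ n)` and `n a = w`
  (helper67's `exists_isAnnCoord`).
-/

set_option autoImplicit false
set_option linter.style.haveILetI false
set_option linter.unusedSectionVars false

noncomputable section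

open AlgebraicCurve

attribute [local instance] Classical.propDecidable

namespace Fermat.Agent.BADP.H21

open Fermat.Agent.RED.H17 Fermat.Agent.RED Fermat.Agent.BAD Fermat.Agent.S15.Desc.H67

variable {K F k F₁ F₂ : Type} [Field K] [Field F] [Algebra K F] [Field k] [Field F₁]
  [Algebra k F₁] [Field F₂] [Algebra k F₂] [Infinite k]
  (S : SSD K F k F₁ F₂) (H : FFHyp K F) (H₁ : FFHyp k F₁) (H₂ : FFHyp k F₂)
  {g g₁ g₂ : ℕ} {c c₁ c₂ : ℤ} (hR : IsGenus K F g c) (hR₁ : IsGenus k F₁ g₁ c₁)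
  (hR₂ : IsGenus k F₂ g₂ c₂) (hnum : g + 1 ≤ g₁ + g₂ + S.nodes.card)

/-- Interpolation on the first component: a function with prescribed values at the first
branches of the nodes. -/
theorem exists_values₁ (a : Place k F₁ × Place k F₂ → k) :
    ∃ y : F₁, ∀ s ∈ S.nodes, VanAt s.1 (y - algebraMap k F₁ (a s)) := by
  obtain ⟨y, hy⟩ := H51.exists_approx (S.nodes.image Prod.fst)
    (fun v => if h : ∃ s ∈ S.nodes, s.1 = v then algebraMap k F₁ (a h.choose) else 0) 1
  refine ⟨y, fun s hs => ?_⟩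
  have hmem : s.1 ∈ S.nodes.image Prod.fst := Finset.mem_image_of_mem _ hs
  have h1 := hy s.1 hmem
  have hex : ∃ s' ∈ S.nodes, s'.1 = s.1 := ⟨s, hs, rfl⟩
  rw [dif_pos hex] at h1
  have h2 : hex.choose = s := S.inj₁ _ hex.choose_spec.1 s hs hex.choose_spec.2
  rw [h2] at h1
  rw [vanAt_iff_ord]
  rcases h1 with h1 | h1
  · exact Or.inl h1
  · exact Or.inr (by omega)

include H H₁ H₂ hR hR₁ hR₂ hnum in
/-- **LIFT**: a function on the second component, regular at `s.2`, is the second reduction of a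
function integral for both valuations without pole on the fibre of `s`. -/
theorem exists_lift {s : Place k F₁ × Place k F₂} (hs : s ∈ S.nodes) (ψ : F₂)
    (hψ : 0 ≤ s.2.ord ψ) :
    ∃ u : F, u ∈ S.c₁.V ∧ u ∈ S.c₂.V ∧ S.c₂.rd u = ψ ∧ PoleFree S s u := by
  rcases eq_or_ne ψ 0 with rfl | hψ0
  · refine ⟨0, S.c₁.V.zero_mem, S.c₂.V.zero_mem, S.c₂.rd_zero, fun P _ => ?_⟩
    rw [Place.ord_zero]
  -- the denominator on the second component
  obtain ⟨d₂, hd₂0, hd₂⟩ := H51.exists_ord_eq_family (S.nodes.image Prod.snd)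
    (fun v => max 0 (-(v.ord ψ)))
  have hd₂s : ∀ s' ∈ S.nodes, s'.2.ord d₂ = max 0 (-(s'.2.ord ψ)) := fun s' hs' =>
    hd₂ s'.2 (Finset.mem_image_of_mem _ hs')
  have hd₂s0 : s.2.ord d₂ = 0 := by
    rw [hd₂s s hs]
    exact max_eq_left (by omega)
  set y₂ : F₂ := ψ * d₂ with hy₂
  have hy₂reg : ∀ s' ∈ S.nodes, 0 ≤ s'.2.ord y₂ := by
    intro s' hs'
    rw [hy₂, s'.2.ord_mul hψ0 hd₂0, hd₂s s' hs']
    have := le_max_right 0 (-(s'.2.ord ψ))
    omega
  have hd₂reg : ∀ s' ∈ S.nodes, 0 ≤ s'.2.ord d₂ := by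
    intro s' hs'
    rw [hd₂s s' hs']
    exact le_max_left _ _
  -- the values at the second branches
  have hvy : ∀ s' : Place k F₁ × Place k F₂, ∃ a : k, s' ∈ S.nodes →
      VanAt s'.2 (y₂ - algebraMap k F₂ a) := by
    intro s'
    by_cases hs' : s' ∈ S.nodes
    · obtain ⟨a, ha⟩ := exists_value s'.2 (H₂.deg_one s'.2)
        (regAt_of_ord_nonneg (hy₂reg s' hs'))
      exact ⟨a, fun _ => ha⟩
    · exact ⟨0, fun h => absurd h hs'⟩
  choose ay hay using hvy
  have hvd : ∀ s' : Place k F₁ × Place k F₂, ∃ a : k, s' ∈ S.nodes →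
      VanAt s'.2 (d₂ - algebraMap k F₂ a) := by
    intro s'
    by_cases hs' : s' ∈ S.nodes
    · obtain ⟨a, ha⟩ := exists_value s'.2 (H₂.deg_one s'.2)
        (regAt_of_ord_nonneg (hd₂reg s' hs'))
      exact ⟨a, fun _ => ha⟩
    · exact ⟨0, fun h => absurd h hs'⟩
  choose ad had using hvd
  have hads : ad s ≠ 0 := by
    intro h0
    have h1 := had s hs
    rw [h0, map_zero, sub_zero] at h1
    have := h1.ord_pos hd₂0
    omega
  -- the functions on the first component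
  obtain ⟨y₁, hy₁⟩ := exists_values₁ S ay
  obtain ⟨d₁, hd₁⟩ := exists_values₁ S ad
  have hd₁0 : d₁ ≠ 0 := (H60.ord_eq_zero_of_vanAt_sub hads (hd₁ s hs)).1
  -- the good lifts
  obtain ⟨u, hu₁, hu₂, hur₁, hur₂, -, -, hureg⟩ :=
    BAD.H28.stmt_GoodLift K F k F₁ F₂ S H H₁ H₂ g g₁ g₂ c c₁ c₂ hR hR₁ hR₂ hnum y₁ y₂ ∅ ∅
      (fun Q hQ => absurd hQ (Finset.notMem_empty Q))
      (fun Q hQ => absurd hQ (Finset.notMem_empty Q))
      (fun s' hs' => ⟨ay s', hy₁ s' hs', hay s' hs'⟩)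
  obtain ⟨v, hv₁, hv₂, hvr₁, hvr₂, -, -, hvreg⟩ :=
    BAD.H28.stmt_GoodLift K F k F₁ F₂ S H H₁ H₂ g g₁ g₂ c c₁ c₂ hR hR₁ hR₂ hnum d₁ d₂ ∅ ∅
      (fun Q hQ => absurd hQ (Finset.notMem_empty Q))
      (fun Q hQ => absurd hQ (Finset.notMem_empty Q))
      (fun s' hs' => ⟨ad s', hd₁ s' hs', had s' hs'⟩)
  have hvregs : ∀ P, S.c₁.r P = some s.1 → 0 ≤ P.ord v := fun P hP => hvreg P ⟨s, hs, hP⟩
  have huregs : ∀ P, S.c₁.r P = some s.1 → 0 ≤ P.ord u := fun P hP => hureg P ⟨s, hs, hP⟩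
  obtain ⟨hG₁, hG₂, hvz⟩ := S.ord_eq_zero_of_value₁ H.principal hs hv₁ hv₂ hvregs hads
    (by rw [hvr₁]; exact hd₁ s hs)
  refine ⟨u * v⁻¹, S.c₁.V.mul_mem _ _ hu₁ hG₁.inv.1, S.c₂.V.mul_mem _ _ hu₂ hG₂.inv.1, ?_, ?_⟩
  · rw [S.c₂.rd_mul hu₂ hG₂.inv.1, hG₂.rd_inv, hur₂, hvr₂, hy₂, mul_assoc,
      mul_inv_cancel₀ hd₂0, mul_one]
  · intro P hP
    rcases eq_or_ne u 0 with rfl | hu0
    · rw [zero_mul, Place.ord_zero]
    rw [P.ord_mul hu0 (inv_ne_zero hG₁.ne_zero), P.ord_inv, hvz P hP]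
    have := huregs P hP
    omega

include H H₁ H₂ hR hR₁ hR₂ hnum in
/-- **START**: a function integral for both valuations without pole on the fibre of `s`, whose
first reduction has a simple zero at `s.1` and whose second reduction is `0`. -/
theorem exists_start {s : Place k F₁ × Place k F₂} (hs : s ∈ S.nodes) :
    ∃ x : F, x ∈ S.c₁.V ∧ x ∈ S.c₂.V ∧ s.1.ord (S.c₁.rd x) = 1 ∧ S.c₂.rd x = 0 ∧
      PoleFree S s x := by
  obtain ⟨y₁, hy₁0, hy₁⟩ := H51.exists_ord_eq_family (S.nodes.image Prod.fst) (fun _ => 1)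
  have hy₁s : ∀ s' ∈ S.nodes, s'.1.ord y₁ = 1 := fun s' hs' =>
    hy₁ s'.1 (Finset.mem_image_of_mem _ hs')
  obtain ⟨u, hu₁, hu₂, hur₁, hur₂, -, -, hureg⟩ :=
    BAD.H28.stmt_GoodLift K F k F₁ F₂ S H H₁ H₂ g g₁ g₂ c c₁ c₂ hR hR₁ hR₂ hnum y₁ 0 ∅ ∅
      (fun Q hQ => absurd hQ (Finset.notMem_empty Q))
      (fun Q hQ => absurd hQ (Finset.notMem_empty Q))
      (fun s' hs' => ⟨0, by
        rw [map_zero, sub_zero, vanAt_iff_ord]
        exact Or.inr (by rw [hy₁s s' hs']; exact one_pos), by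
        rw [map_zero, sub_zero, vanAt_iff_ord]
        exact Or.inl rfl⟩)
  exact ⟨u, hu₁, hu₂, by rw [hur₁]; exact hy₁s s hs, hur₂, fun P hP => hureg P ⟨s, hs, hP⟩⟩

include H H₁ H₂ hR hR₁ hR₂ hnum in
/-- **COORD, abstract form**: an annulus coordinate in `F0` at the node `s`, of thickness
`c₀ ^ n`, `n a = w`. -/
theorem exists_isAnnCoord_of_goodLift {s : Place k F₁ × Place k F₂} (hs : s ∈ S.nodes)
    {c₀ : K} (hc₀ : c₀ ≠ 0) (hϖ₁ : algebraMap K F c₀ ∈ S.c₁.V)
    (hϖ0 : S.c₁.rd (algebraMap K F c₀) = 0)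
    (F0 : Subfield F) (hϖF : algebraMap K F c₀ ∈ F0)
    (hK0 : ∀ u : F, u ∈ S.c₁.V → u ∈ S.c₂.V → PoleFree S s u →
      ∃ u0 ∈ F0, u0 ∈ S.c₁.V ∧ u0 ∈ S.c₂.V ∧ S.c₁.rd u0 = S.c₁.rd u ∧
        S.c₂.rd u0 = S.c₂.rd u ∧ PoleFree S s u0)
    (hdisc : ∀ f ∈ F0, f ∈ S.c₂.V → S.c₂.rd f = 0 → f / algebraMap K F c₀ ∈ S.c₂.V)
    {U : F} (hU : S.c₁.IsGU U) (hUzf : ZeroFree S s U) {w : ℕ}
    (hU₂ : S.c₂.IsGU (U / algebraMap K F c₀ ^ w)) {a : ℕ} (ha0 : 0 < a)
    (ha : s.1.ord (S.c₁.rd U) = a) :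
    ∃ t ∈ F0, ∃ n : ℕ, 0 < n ∧ S.IsAnnCoord s t (c₀ ^ n) ∧ n * a = w := by
  obtain ⟨x, hx₁, hx₂, hxo, hxr, hxpf⟩ := _root_.Fermat.Agent.BADP.H21.exists_start S H H₁ H₂ hR hR₁ hR₂ hnum hs
  obtain ⟨x₀, hx₀F, hx₀₁, hx₀₂, hx₀r₁, hx₀r₂, hx₀pf⟩ := hK0 x hx₁ hx₂ hxpf
  refine exists_isAnnCoord hs H.principal hc₀ hϖ₁ hϖ0 F0 hϖF ?_ hdisc hU hUzf hU₂ ha0 ha
    hx₀F hx₀₁ (by rw [hx₀r₁]; exact hxo) hx₀₂ (by rw [hx₀r₂]; exact hxr) hx₀pf
  intro ψ hψ
  obtain ⟨u, hu₁, hu₂, hur, hupf⟩ := _root_.Fermat.Agent.BADP.H21.exists_lift S H H₁ H₂ hR hR₁ hR₂ hnum hs ψ hψ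
  obtain ⟨u0, hu0F, hu0₁, hu0₂, -, hu0r₂, hu0pf⟩ := hK0 u hu₁ hu₂ hupf
  exact ⟨u0, hu0F, hu0₁, hu0₂, by rw [hu0r₂]; exact hur, hu0pf⟩

end Fermat.Agent.BADP.H21

end
end
-- ==== END Fermat.Agent.BADP.H21_CoordAbs

-- ==== BEGIN Fermat.Agent.BADP.H28_KeyPTheta
section

/-!
# Row 38 (S44, BADP), helper28: RAY-K3 abstract core ("Key-p"), part 5: the function `Θ`

`PRed.theta_formula` : with `Φ = (f - 1) / p`, `Ψ = (y - 1) / (p π θ)` (`y = y₀ ∏ (h'_i) ^ p`,
`y₀ = 1 + p π θ Λ`) and `κ = θ ^ (p - 1) / u₁`, the function `Θ = Ψ + κ Φ` is integral with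
reduction `rd (Λ + κ Z) - ∑ w_i / rd s_i`, where `w_i = rd ω_i`, `rd e_i = w_i ^ p ū₁`.
-/

set_option autoImplicit false
set_option linter.style.haveILetI false
set_option maxHeartbeats 1000000

noncomputable section

open AlgebraicCurve

attribute [local instance] Classical.propDecidable

namespace Fermat.Agent.BAD

open Fermat.Agent.RED.H17 Fermat.Agent.RED

namespace H28

/-- The order of `σ • x` at `P`. -/
theorem ord_smul_eq {K F : Type*} [Field K] [Field F] [Algebra K F] (σ : SemilinearAut K F)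
    (P : Place K F) (x : F) : P.ord (σ • x) = (σ⁻¹ • P).ord x := by
  have := SemilinearAut.ord_smul σ (σ⁻¹ • P) x
  rwa [smul_inv_smul] at this

end H28

namespace PRed

variable {K F k F' : Type*} [Field K] [Field F] [Algebra K F] [Field k] [Field F']
  [Algebra k F'] (S : PRed K F k F')

/-- **The function `Θ`.** -/
theorem theta_formula {ι : Type*} (A : Finset ι) (s : ι → F) (a a' ω e : ι → K)
    (hs : ∀ i ∈ A, S.IsGU (s i)) (ha : ∀ i ∈ A, S.InM (algebraMap K F (a i)))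
    (hω : ∀ i ∈ A, algebraMap K F (ω i) ∈ S.V) (he : ∀ i ∈ A, algebraMap K F (e i) ∈ S.V)
    {p : ℕ} (hp : p.Prime) (hp2 : p ≠ 2) (hpM : S.InM (p : F)) (hpF : (p : F) ≠ 0)
    {π θ ν₀ κ : K} (hπ : S.InM (algebraMap K F π)) (hθ : algebraMap K F θ ∈ S.V)
    (hπne : π ≠ 0) (hθne : θ ≠ 0)
    (hν : algebraMap K F ν₀ ∈ S.V) (hπp : π ^ (p - 1) = p * ν₀)
    (hκ : algebraMap K F κ ∈ S.V)
    (hdiff : ∀ i ∈ A, a' i - a i = π * θ * ω i) (hpow : ∀ i ∈ A, a i ^ p = p * e i)
    (w : ι → k) (ub θb : k) (hub : ub ≠ 0)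
    (hwrd : ∀ i ∈ A, S.rd (algebraMap K F (ω i)) = algebraMap k F' (w i))
    (herd : ∀ i ∈ A, S.rd (algebraMap K F (e i)) = algebraMap k F' (w i ^ p * ub))
    (hνrd : S.rd (algebraMap K F ν₀) = -1)
    (hθrd : S.rd (algebraMap K F θ) = algebraMap k F' θb)
    (hκrd : S.rd (algebraMap K F κ) = algebraMap k F' (θb ^ (p - 1) / ub))
    (f : F) (hZ : (f / (∏ i ∈ A, (s i - algebraMap K F (a i)) / s i) ^ p - 1) / p ∈ S.V)
    {y₀ Λ : F} (hΛ : Λ ∈ S.V) (hy₀ : y₀ = 1 + (p : F) * algebraMap K F (π * θ) * Λ) :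
    (y₀ * ∏ i ∈ A, ((s i - algebraMap K F (a' i)) / (s i - algebraMap K F (a i))) ^ p - 1) /
        ((p : F) * algebraMap K F (π * θ)) + algebraMap K F κ * ((f - 1) / p) ∈ S.V ∧
      S.rd ((y₀ * ∏ i ∈ A,
          ((s i - algebraMap K F (a' i)) / (s i - algebraMap K F (a i))) ^ p - 1) /
        ((p : F) * algebraMap K F (π * θ)) + algebraMap K F κ * ((f - 1) / p)) =
        S.rd (Λ + algebraMap K F κ *
          ((f / (∏ i ∈ A, (s i - algebraMap K F (a i)) / s i) ^ p - 1) / p)) -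
          ((1 : ℕ) : F') * ∑ i ∈ A, algebraMap k F' (w i) / S.rd (s i) := by
  obtain ⟨hΦV, hΦrd⟩ := S.first_formula A s a e hs ha he hp hp2 hpM hpow hpF f hZ
  obtain ⟨hΨV, hΨrd⟩ := S.sigma_formula A s a a' ω hs ha hω hp hp2 hpM hpF hπ hθ hπne hθne
    hν hπp hdiff hΛ hy₀
  have hκΦ : algebraMap K F κ * ((f - 1) / p) ∈ S.V := S.V.mul_mem _ _ hκ hΦV
  have hκZ : algebraMap K F κ *
      ((f / (∏ i ∈ A, (s i - algebraMap K F (a i)) / s i) ^ p - 1) / p) ∈ S.V :=
    S.V.mul_mem _ _ hκ hZ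
  refine ⟨S.V.add_mem _ _ hΨV hκΦ, ?_⟩
  have hsum : ∑ i ∈ A, (-(S.rd (algebraMap K F (ω i)) / S.rd (s i)) -
        S.rd (algebraMap K F ν₀) * S.rd (algebraMap K F θ) ^ (p - 1) *
          (S.rd (algebraMap K F (ω i)) ^ p / S.rd (s i) ^ p)) -
      S.rd (algebraMap K F κ) * ∑ i ∈ A, S.rd (algebraMap K F (e i)) / S.rd (s i) ^ p =
      -∑ i ∈ A, algebraMap k F' (w i) / S.rd (s i) := by
    rw [Finset.mul_sum, ← Finset.sum_sub_distrib, ← Finset.sum_neg_distrib]
    apply Finset.sum_congr rfl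
    intro i hi
    rw [hwrd i hi, herd i hi, hνrd, hθrd, hκrd, map_div₀, map_mul, map_pow, map_pow]
    have hU : algebraMap k F' ub ≠ 0 := (map_ne_zero_iff _ (algebraMap k F').injective).mpr hub
    have hs0 : S.rd (s i) ≠ 0 := (hs i hi).2
    field_simp
    ring
  rw [S.rd_add hΨV hκΦ, S.rd_mul hκ hΦV, hΨrd, hΦrd, S.rd_add hΛ hκZ, S.rd_mul hκ hZ,
    Nat.cast_one, one_mul]
  linear_combination hsum

end PRed

end Fermat.Agent.BAD

end
end
-- ==== END Fermat.Agent.BADP.H28_KeyPTheta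

-- ==== BEGIN Fermat.Agent.BADP.H74_HDropUnit
section

set_option autoImplicit false
set_option linter.unusedSectionVars false
set_option synthInstance.maxHeartbeats 400000
set_option maxHeartbeats 1000000

noncomputable section

open AlgebraicCurve ModularCurve Fermat.Agent.S28.H73 Fermat.Agent.RED.H73 Polynomial

namespace Fermat.Agent.BADP.H74

open Fermat.Agent.S23.H22 (Q q1)
open Fermat.Agent.S28.H90 (chi chi_eval chi_eval_self chi_monic coeff_mem_of_eval_mem)
open Fermat.Agent.RED.H73 (JL)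
open Fermat.Agent.BAD.H30

section Transfer

variable {K : Type} [Field K] [IsAlgClosed K] (ι : K →+* ℂ) {N : ℕ} [NeZero N] {d : ℕ}

/-- The conjugates of `u + s X` are integral over `K[J]`. -/
theorem isIntegral_liftUnit_add [Infinite K] (hd : d ∣ N) (s : K) (q : Q N) :
    IsIntegral ↥(Algebra.adjoin K ({JL K N} : Set (LaurentSeries K)))
      (liftUnit ι hd q + HahnSeries.C s * liftXN ι N q) := by
  have hcoeff : ∀ k : ℕ,
      (chi (fun q : Q N => liftUnit ι hd q + HahnSeries.C s * liftXN ι N q)).coeff k ∈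
      Algebra.adjoin K ({JL K N} : Set (LaurentSeries K)) := by
    intro k
    have := coeff_mem_of_eval_mem (C := K)
      (Subalgebra.toSubmodule (Algebra.adjoin K ({JL K N} : Set (LaurentSeries K))))
      (chi (fun q : Q N => liftUnit ι hd q + HahnSeries.C s * liftXN ι N q))
      (fun c => by
        rw [chi_eval, LaurentSeries.algebraMap_apply]
        have h := sym_lift ι hd c s
        have e : (∏ q : Q N, (HahnSeries.C c - liftUnit ι hd q - HahnSeries.C s * liftXN ι N q))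
            = ∏ q : Q N, (HahnSeries.C c - (liftUnit ι hd q + HahnSeries.C s * liftXN ι N q)) :=
          Finset.prod_congr rfl fun q _ => by rw [sub_sub]
        rw [e] at h
        exact h) k
    exact this
  have hl : chi (fun q : Q N => liftUnit ι hd q + HahnSeries.C s * liftXN ι N q) ∈
      Polynomial.lifts
      (algebraMap ↥(Algebra.adjoin K ({JL K N} : Set (LaurentSeries K))) (LaurentSeries K)) := by
    rw [Polynomial.lifts_iff_coeff_lifts]
    intro n
    exact ⟨⟨_, hcoeff n⟩, rfl⟩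
  obtain ⟨P, hP, -, hm⟩ := Polynomial.lifts_and_natDegree_eq_and_monic hl (chi_monic _)
  refine ⟨P, hm, ?_⟩
  rw [← aeval_def, aeval_def, ← eval_map, hP]
  exact chi_eval_self (fun q : Q N => liftUnit ι hd q + HahnSeries.C s * liftXN ι N q) q

/-- The conjugates of `j(N z)` are integral over `K[J]`. -/
theorem isIntegral_liftXN [Infinite K] (q : Q N) :
    IsIntegral ↥(Algebra.adjoin K ({JL K N} : Set (LaurentSeries K))) (liftXN ι N q) := by
  have h1 := isIntegral_liftUnit_add ι (dvd_refl N) 1 q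
  have h0 := isIntegral_liftUnit ι (dvd_refl N) q
  have h2 := h1.sub h0
  have e : liftUnit ι (dvd_refl N) q + HahnSeries.C (1 : K) * liftXN ι N q
      - liftUnit ι (dvd_refl N) q = liftXN ι N q := by
    rw [map_one, one_mul, add_sub_cancel_left]
  rw [e] at h2
  exact h2

end Transfer

section FunctionField

open Fermat.Agent.S24 (Kbar FN iotaC)
open Fermat.Agent.S15.H30 (psi psi_apply psi_injective)
open Fermat.Agent.BAD

variable (ℓ : ℕ) [NeZero ℓ]

theorem psi_jF_red : psi ℓ (Fermat.Agent.RED.H73.jF (L := Kbar) ℓ) = JL Kbar ℓ := rfl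

theorem isIntegral_C_JL (c : Kbar) :
    IsIntegral ↥(Algebra.adjoin Kbar ({JL Kbar ℓ} : Set (LaurentSeries Kbar)))
      (HahnSeries.C c : LaurentSeries Kbar) := by
  have : (HahnSeries.C c : LaurentSeries Kbar)
      = algebraMap ↥(Algebra.adjoin Kbar ({JL Kbar ℓ} : Set (LaurentSeries Kbar)))
          (LaurentSeries Kbar) (algebraMap Kbar _ c) := by
    rw [← LaurentSeries.algebraMap_apply]
    rfl
  rw [this]
  exact isIntegral_algebraMap

/-- `Δ(q)/Δ(q^ℓ)` is integral over `ℚ̄[j]`. -/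
theorem isIntegral_unitF :
    IsIntegral ↥(Algebra.adjoin Kbar
      ({Fermat.Agent.RED.H73.jF (L := Kbar) ℓ} : Set ↥(FNbar ℓ)))
      (unitF ℓ ℓ (dvd_refl ℓ) : ↥(FNbar ℓ)) := by
  apply isIntegral_of_adjoin_map (psi ℓ) (psi_injective ℓ)
  rw [psi_jF_red, psi_unitF]
  exact IsIntegral.mul (isIntegral_C_JL ℓ _) (isIntegral_liftUnit iotaC _ _)

/-- `Δ(q^ℓ)/Δ(q)` is integral over `ℚ̄[j]`. -/
theorem isIntegral_unitF_inv :
    IsIntegral ↥(Algebra.adjoin Kbar
      ({Fermat.Agent.RED.H73.jF (L := Kbar) ℓ} : Set ↥(FNbar ℓ)))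
      ((unitF ℓ ℓ (dvd_refl ℓ))⁻¹ : ↥(FNbar ℓ)) := by
  apply isIntegral_of_adjoin_map (psi ℓ) (psi_injective ℓ)
  rw [psi_jF_red, map_inv₀, psi_unitF, mul_inv, ← map_inv₀]
  exact IsIntegral.mul (isIntegral_C_JL ℓ _) (isIntegral_liftUnit_inv iotaC _)

/-- `j(q^ℓ)` as an element of `F_ℓ · ℚ̄`. -/
def jTwoF : ↥(FNbar ℓ) :=
  ⟨qExpand Kbar ℓ (jqModC Kbar), by
    show qExpand Kbar ℓ (jqModC Kbar) ∈ laurentBaseChange Kbar (modularFunctionFieldFull ℓ)
    rw [laurentBaseChange_full_eq]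
    exact jqModCd_mem_full Kbar ℓ (dvd_refl ℓ)⟩

theorem coe_jTwoF : ((jTwoF ℓ : ↥(FNbar ℓ)) : LaurentSeries Kbar) = qExpand Kbar ℓ (jqModC Kbar) :=
  rfl

/-- `j(q^ℓ)` is integral over `ℚ̄[j]`. -/
theorem isIntegral_jTwoF :
    IsIntegral ↥(Algebra.adjoin Kbar
      ({Fermat.Agent.RED.H73.jF (L := Kbar) ℓ} : Set ↥(FNbar ℓ))) (jTwoF ℓ) := by
  apply isIntegral_of_adjoin_map (psi ℓ) (psi_injective ℓ)
  rw [psi_jF_red, psi_apply, coe_jTwoF, ← liftXN_q1 iotaC ℓ]
  exact isIntegral_liftXN iotaC _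

end FunctionField

section Reduction

open Fermat.Agent.S24 (Kbar)
open Fermat.Agent.BAD

variable (A : ValuationSubring (AlgebraicClosure ℚ)) (ℓ : ℕ) [NeZero ℓ] {p : ℕ}

/-- `j~(q^ℓ)` is integral over `k[j~]`. -/
theorem isIntegral_jTwo (hp : p.Prime) (hpℓ : ¬ p ∣ ℓ) (hA : A.LiesOverPrime p) :
    IsIntegral ↥(Algebra.adjoin (kV A) ({jqModC (kV A)} : Set (LaurentSeries (kV A))))
      (qExpand (kV A) ℓ (jqModC (kV A))) := by
  have hmem : jTwoF ℓ ∈ gaussV A ℓ := qExpand_jqModC_mem_gaussRingV A ℓ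
  have h := red_isIntegral A ℓ hp hpℓ hA ⟨jTwoF ℓ, hmem⟩ (isIntegral_jTwoF ℓ)
  have e : ((gaussRes A ℓ ⟨jTwoF ℓ, hmem⟩ :
      ↥(redField A (FNbar ℓ) (hasScale_laurentBaseChange A ℓ))) : LaurentSeries (kV A))
      = qExpand (kV A) ℓ (jqModC (kV A)) := gaussRedV_qExpand_jqModC A ℓ _
  rw [e] at h
  exact h

/-- `Δ~(q)/Δ~(q^ℓ)` is integral over `k[j~]`. -/
theorem isIntegral_unitG (hp : p.Prime) (hpℓ : ¬ p ∣ ℓ) (hA : A.LiesOverPrime p) :
    IsIntegral ↥(Algebra.adjoin (kV A) ({jqModC (kV A)} : Set (LaurentSeries (kV A))))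
      (deltaR (kV A) * (qExpand (kV A) ℓ (deltaR (kV A)))⁻¹) := by
  have h := red_isIntegral A ℓ hp hpℓ hA
    ⟨unitF ℓ ℓ (dvd_refl ℓ), unitF_mem_gaussV A ℓ ℓ (dvd_refl ℓ)⟩ (isIntegral_unitF ℓ)
  rw [gaussRes_unitF] at h
  exact h

/-- `Δ~(q^ℓ)/Δ~(q)` is integral over `k[j~]`. -/
theorem isIntegral_unitG_inv (hp : p.Prime) (hpℓ : ¬ p ∣ ℓ) (hA : A.LiesOverPrime p) :
    IsIntegral ↥(Algebra.adjoin (kV A) ({jqModC (kV A)} : Set (LaurentSeries (kV A))))
      (deltaR (kV A) * (qExpand (kV A) ℓ (deltaR (kV A)))⁻¹)⁻¹ := by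
  have hne := gaussRes_unitF_ne_zero A ℓ ℓ (dvd_refl ℓ)
  have hu : IsUnit (⟨unitF ℓ ℓ (dvd_refl ℓ), unitF_mem_gaussV A ℓ ℓ (dvd_refl ℓ)⟩ :
      ↥(gaussV A ℓ)) := by
    by_contra hnu
    have hmax : (RingHom.ker (gaussRes A ℓ)).IsMaximal :=
      RingHom.ker_isMaximal_of_surjective _ (gaussResF'_surjective A _)
    have hker : RingHom.ker (gaussRes A ℓ) = IsLocalRing.maximalIdeal ↥(gaussV A ℓ) :=
      IsLocalRing.eq_maximalIdeal hmax
    have : (⟨unitF ℓ ℓ (dvd_refl ℓ), unitF_mem_gaussV A ℓ ℓ (dvd_refl ℓ)⟩ : ↥(gaussV A ℓ))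
        ∈ IsLocalRing.maximalIdeal ↥(gaussV A ℓ) := (IsLocalRing.mem_maximalIdeal _).2 hnu
    rw [← hker] at this
    exact hne ((RingHom.mem_ker).1 this)
  obtain ⟨u, hu⟩ := hu
  have hinv : (((u⁻¹ : (↥(gaussV A ℓ))ˣ) : ↥(gaussV A ℓ)) : ↥(FNbar ℓ))
      = (unitF ℓ ℓ (dvd_refl ℓ))⁻¹ := by
    have h3 : ((u : ↥(gaussV A ℓ)) : ↥(FNbar ℓ)) *
        (((u⁻¹ : (↥(gaussV A ℓ))ˣ) : ↥(gaussV A ℓ)) : ↥(FNbar ℓ)) = 1 :=
      congrArg Subtype.val u.mul_inv
    rw [hu] at h3
    exact (inv_eq_of_mul_eq_one_right h3).symm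
  have hint : IsIntegral ↥(Algebra.adjoin Kbar
      ({Fermat.Agent.RED.H73.jF (L := Kbar) ℓ} : Set ↥(FNbar ℓ)))
      ((((u⁻¹ : (↥(gaussV A ℓ))ˣ) : ↥(gaussV A ℓ)) : ↥(FNbar ℓ))) := by
    rw [hinv]
    exact isIntegral_unitF_inv ℓ
  have h := red_isIntegral A ℓ hp hpℓ hA _ hint
  have hred : gaussRes A ℓ ((u⁻¹ : (↥(gaussV A ℓ))ˣ) : ↥(gaussV A ℓ))
      = (gaussRes A ℓ ⟨unitF ℓ ℓ (dvd_refl ℓ), unitF_mem_gaussV A ℓ ℓ (dvd_refl ℓ)⟩)⁻¹ := by
    have h1 : gaussRes A ℓ (u : ↥(gaussV A ℓ)) *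
        gaussRes A ℓ ((u⁻¹ : (↥(gaussV A ℓ))ˣ) : ↥(gaussV A ℓ)) = 1 := by
      rw [← map_mul, Units.mul_inv, map_one]
    rw [hu] at h1
    exact eq_inv_of_mul_eq_one_right h1
  rw [hred] at h
  have e : (((gaussRes A ℓ ⟨unitF ℓ ℓ (dvd_refl ℓ), unitF_mem_gaussV A ℓ ℓ (dvd_refl ℓ)⟩)⁻¹ :
      ↥(redField A (FNbar ℓ) (hasScale_laurentBaseChange A ℓ))) : LaurentSeries (kV A))
      = (deltaR (kV A) * (qExpand (kV A) ℓ (deltaR (kV A)))⁻¹)⁻¹ := by
    rw [← gaussRes_unitF A ℓ ℓ (dvd_refl ℓ)]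
    rfl
  rw [e] at h
  exact h

end Reduction

end Fermat.Agent.BADP.H74

end
end
-- ==== END Fermat.Agent.BADP.H74_HDropUnit
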