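-- GENERATED (merged mirror, NOTES/tools/trim/merge3_helper67.py): 7 modules of the originals, bodies verbatim.
import Mathlib
import Fermat.Agent.Zm.S44_L02_002
import Fermat.Agent.Zm.S44_L01_002

-- ==== BEGIN Fermat.Agent.S05.H28_E1add
section

set_option autoImplicit false

namespace Fermat.Agent.S05.H28

open WeierstrassCurve WeierstrassCurve.Affine

variable {L : Type*} [Field L]

/-- From the line data: `(b - x₁x₂) x₁ x₂ = μ (x₂ y₁ + x₁ y₂)`. -/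
lemma line_mu_identity (b x₁ y₁ x₂ y₂ x₃ ℓ μ : L)
    (e1 : y₁ = ℓ * x₁ + μ) (e2 : y₂ = ℓ * x₂ + μ)
    (V2 : x₁ * x₂ + x₁ * x₃ + x₂ * x₃ = b - 2 * ℓ * μ)
    (V3 : x₁ * x₂ * x₃ = μ ^ 2) :
    (b - x₁ * x₂) * (x₁ * x₂) = μ * (x₂ * y₁ + x₁ * y₂) := by
  rw [e1, e2]
  linear_combination (-(x₁ * x₂)) * V2 + (x₁ + x₂) * V3

/-- Affine case of closure of `E₁` under addition. -/
lemma one_lt_val_add [DecidableEq L] (hline : Stmt_line (L := L))
    {A : ValuationSubring L} {W : Affine L} (hyp : ModelHyp A W)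
    {x₁ y₁ x₂ y₂ x₃ y₃ : L} (h₁ : W.Nonsingular x₁ y₁) (h₂ : W.Nonsingular x₂ y₂)
    (h₃ : W.Nonsingular x₃ y₃) (hx₁ : 1 < A.valuation x₁) (hx₂ : 1 < A.valuation x₂)
    (hadd : Point.some x₁ y₁ h₁ + Point.some x₂ y₂ h₂ = Point.some x₃ y₃ h₃) :
    1 < A.valuation x₃ := by
  obtain ⟨ℓ, μ, e1, e2, -, -, V2, V3⟩ :=
    hline W hyp.a₁ hyp.a₃ hyp.a₆ x₁ y₁ x₂ y₂ x₃ y₃ h₁ h₂ h₃ hadd
  have hI := line_mu_identity W.a₄ x₁ y₁ x₂ y₂ x₃ ℓ μ e1 e2 V2 V3
  set X₁ := A.valuation x₁ with hX₁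
  set X₂ := A.valuation x₂ with hX₂
  have hX₁0 : 0 < X₁ := lt_trans zero_lt_one hx₁
  have hX₂0 : 0 < X₂ := lt_trans zero_lt_one hx₂
  have hX12 : 1 < X₁ * X₂ := one_lt_mul_of_lt_of_le' hx₁ hx₂.le
  have hX120 : 0 < X₁ * X₂ := lt_trans zero_lt_one hX12
  have hY₁ : A.valuation y₁ ^ 2 = X₁ ^ 3 := val_y_sq hyp h₁ hx₁
  have hY₂ : A.valuation y₂ ^ 2 = X₂ ^ 3 := val_y_sq hyp h₂ hx₂
  -- `|b - x₁x₂| = |x₁x₂|`
  have hb : A.valuation (W.a₄ - x₁ * x₂) = X₁ * X₂ := by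
    have : A.valuation W.a₄ < A.valuation (x₁ * x₂) := by
      rw [map_mul]; exact lt_of_le_of_lt hyp.b_le hX12
    rw [Valuation.map_sub_eq_of_lt_right _ this, map_mul]
  -- `|μ| |S| = |x₁x₂|²`
  have hprod : A.valuation μ * A.valuation (x₂ * y₁ + x₁ * y₂) = (X₁ * X₂) ^ 2 := by
    rw [← map_mul, ← hI, map_mul, hb, map_mul, pow_two]
  -- `|S|² < |x₁x₂|³`
  have hS : A.valuation (x₂ * y₁ + x₁ * y₂) ^ 2 < (X₁ * X₂) ^ 3 := by
    have t1 : A.valuation (x₂ * y₁) ^ 2 < (X₁ * X₂) ^ 3 := by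
      rw [map_mul, mul_pow, hY₁, mul_pow]
      calc X₂ ^ 2 * X₁ ^ 3 = X₁ ^ 3 * X₂ ^ 2 := mul_comm _ _
        _ < X₁ ^ 3 * X₂ ^ 3 := by
          have : X₂ ^ 2 < X₂ ^ 3 := pow_lt_pow_right₀ hx₂ (by norm_num)
          have h3 : 0 < X₁ ^ 3 := pow_pos hX₁0 3
          gcongr
    have t2 : A.valuation (x₁ * y₂) ^ 2 < (X₁ * X₂) ^ 3 := by
      rw [map_mul, mul_pow, hY₂, mul_pow]
      have : X₁ ^ 2 < X₁ ^ 3 := pow_lt_pow_right₀ hx₁ (by norm_num)
      have h3 : 0 < X₂ ^ 3 := pow_pos hX₂0 3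
      gcongr
    rcases Valuation.map_add' A.valuation (x₂ * y₁) (x₁ * y₂) with h | h
    · exact lt_of_le_of_lt (pow_le_pow_left₀ zero_le h 2) t1
    · exact lt_of_le_of_lt (pow_le_pow_left₀ zero_le h 2) t2
  -- `|μ|² > |x₁x₂|`
  have hμ : X₁ * X₂ < A.valuation μ ^ 2 := by
    by_contra hcon
    have hcon := not_lt.mp hcon
    have h4 : (X₁ * X₂) ^ 4 = A.valuation μ ^ 2 * A.valuation (x₂ * y₁ + x₁ * y₂) ^ 2 := by
      rw [← mul_pow, hprod, ← pow_mul]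
    have h5 : A.valuation μ ^ 2 * A.valuation (x₂ * y₁ + x₁ * y₂) ^ 2 < (X₁ * X₂) ^ 4 := by
      calc A.valuation μ ^ 2 * A.valuation (x₂ * y₁ + x₁ * y₂) ^ 2
          ≤ (X₁ * X₂) * A.valuation (x₂ * y₁ + x₁ * y₂) ^ 2 := by gcongr
        _ < (X₁ * X₂) * (X₁ * X₂) ^ 3 := by gcongr
        _ = (X₁ * X₂) ^ 4 := by rw [← pow_succ']
    rw [← h4] at h5
    exact lt_irrefl _ h5
  have h6 : A.valuation (x₁ * x₂ * x₃) = A.valuation μ ^ 2 := by rw [V3, map_pow]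
  rw [map_mul, map_mul] at h6
  by_contra hcon
  have hcon := not_lt.mp hcon
  have : X₁ * X₂ * A.valuation x₃ ≤ X₁ * X₂ * 1 := by gcongr
  rw [h6, mul_one] at this
  exact absurd hμ (not_lt.mpr this)

/-- Piece B1: `E₁` is closed under addition. -/
theorem stmt_E1_add_of [DecidableEq L] (hline : Stmt_line (L := L)) :
    Stmt_E1_add (L := L) := by
  intro A W hyp P Q hP hQ
  rcases P with _ | ⟨x₁, y₁, h₁⟩
  · have : (Point.zero : W.Point) + Q = Q := zero_add Q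
    rw [this]; exact hQ
  rcases Q with _ | ⟨x₂, y₂, h₂⟩
  · have : Point.some x₁ y₁ h₁ + (Point.zero : W.Point) = Point.some x₁ y₁ h₁ := add_zero _
    rw [this]; exact hP
  rcases hR : Point.some x₁ y₁ h₁ + Point.some x₂ y₂ h₂ with _ | ⟨x₃, y₃, h₃⟩
  · trivial
  · exact one_lt_val_add hline hyp h₁ h₂ h₃ hP hQ hR

/-- Piece B2 (F1) from the line data alone. -/
theorem stmt_F1_of_line [DecidableEq L] (hline : Stmt_line (L := L)) : Stmt_F1 (L := L) :=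
  stmt_F1_of hline (stmt_E1_add_of hline)

end Fermat.Agent.S05.H28

end
-- ==== END Fermat.Agent.S05.H28_E1add

-- ==== BEGIN Fermat.Agent.S05.H4_M1CpCp
section

set_option autoImplicit false

namespace Fermat.Agent.S05

open WeierstrassCurve WeierstrassCurve.Affine

variable {L : Type*} [Field L] [DecidableEq L]

/-- D3: `C₊ + C₊`. -/
theorem M1_CpCp : Stmt_M1_CpCp (L := L) := by
  intro A W hyp hb β hβ P Q hP hQ
  rcases P with _ | ⟨x₁, y₁, h₁⟩
  · exact absurd hP (by simp [InCp])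
  rcases Q with _ | ⟨x₂, y₂, h₂⟩
  · exact absurd hQ (by simp [InCp])
  obtain ⟨hx₁b, hx₁, ht₁⟩ := hP
  obtain ⟨hx₂b, hx₂, ht₂⟩ := hQ
  obtain ⟨hne, hmain⟩ := H4.cplus_add_cplus line A W hyp hb β hβ h₁ h₂ hx₁b hx₁ ht₁ hx₂b hx₂ ht₂
  have hx₁pos : 0 < A.valuation x₁ := lt_of_le_of_lt zero_le hx₁b
  have hx₂pos : 0 < A.valuation x₂ := lt_of_le_of_lt zero_le hx₂b
  have hbpos : 0 < A.valuation W.a₄ := by
    rw [zero_lt_iff]; exact (Valuation.ne_zero_iff _).2 hyp.b_ne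
  have hXlt : A.valuation x₁ * A.valuation x₂ < 1 := by
    calc A.valuation x₁ * A.valuation x₂ < A.valuation x₁ * 1 :=
          mul_lt_mul_of_pos_left hx₂ hx₁pos
      _ = A.valuation x₁ := mul_one _
      _ < 1 := hx₁
  have hXgt : A.valuation W.a₄ ^ 2 < A.valuation x₁ * A.valuation x₂ := by
    rw [sq]
    exact mul_lt_mul'' hx₁b hx₂b zero_le zero_le
  generalize hS : Point.some x₁ y₁ h₁ + Point.some x₂ y₂ h₂ = S at hne ⊢
  rcases S with _ | ⟨x₃, y₃, h₃⟩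
  · exact absurd rfl hne
  obtain ⟨c1, c2, c3⟩ := hmain x₃ y₃ h₃ hS
  simp only [xVal, InCp, InCm, InET]
  rw [map_mul] at c1 c2 c3
  refine ⟨fun h => ?_, fun h => ?_, fun h => c3 h⟩
  · obtain ⟨e, t⟩ := c1 h
    exact ⟨⟨by rw [e]; exact h, by rw [e]; exact hXlt, t⟩, e⟩
  · obtain ⟨e, t⟩ := c2 h
    have hXpos : 0 < A.valuation x₁ * A.valuation x₂ := mul_pos hx₁pos hx₂pos
    refine ⟨⟨?_, ?_, t⟩, e⟩
    · -- `|b| < |x₃|`
      have : A.valuation W.a₄ * (A.valuation x₁ * A.valuation x₂) <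
          A.valuation x₃ * (A.valuation x₁ * A.valuation x₂) := by
        rw [e, sq]; exact mul_lt_mul_of_pos_left h hbpos
      exact lt_of_mul_lt_mul_right this zero_le
    · -- `|x₃| < 1`
      have : A.valuation x₃ * (A.valuation x₁ * A.valuation x₂) <
          1 * (A.valuation x₁ * A.valuation x₂) := by
        rw [e, one_mul]; exact hXgt
      exact lt_of_mul_lt_mul_right this zero_le

end Fermat.Agent.S05

end
-- ==== END Fermat.Agent.S05.H4_M1CpCp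

-- ==== BEGIN Fermat.Agent.S05.H6_M1Cases
section

set_option autoImplicit false

namespace Fermat.Agent.S05.H6

open WeierstrassCurve WeierstrassCurve.Affine

variable {L : Type*} [Field L] {Γ₀ : Type*} [LinearOrderedCommGroupWithZero Γ₀]
  (v : Valuation L Γ₀)

/-- Line data: `x₁, x₂, x₃` are the abscissae of the intersection of the line
`y = ℓ x + μ` with `y² = x³ + a x² + b x` (Vieta relations); symmetric in `x₁, x₂, x₃`. -/
structure LineData (a b x₁ x₂ x₃ ℓ μ : L) : Prop where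
  e₁ : x₁ + x₂ + x₃ = ℓ ^ 2 - a
  e₂ : x₁ * x₂ + x₁ * x₃ + x₂ * x₃ = b - 2 * ℓ * μ
  e₃ : x₁ * x₂ * x₃ = μ ^ 2

namespace LineData

variable {a b x₁ x₂ x₃ ℓ μ : L}

lemma swap₂₃ (h : LineData a b x₁ x₂ x₃ ℓ μ) : LineData a b x₁ x₃ x₂ ℓ μ :=
  ⟨by linear_combination h.e₁, by linear_combination h.e₂, by linear_combination h.e₃⟩

lemma swap₁₂ (h : LineData a b x₁ x₂ x₃ ℓ μ) : LineData a b x₂ x₁ x₃ ℓ μ :=
  ⟨by linear_combination h.e₁, by linear_combination h.e₂, by linear_combination h.e₃⟩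

end LineData

section basic

variable {v}

lemma mul_lt_of_le_of_lt_one {a b c : Γ₀} (hc : 0 < c) (ha : a ≤ c) (hb : b < 1) : a * b < c := by
  rcases eq_or_ne a 0 with rfl | ha0
  · simpa using hc
  · calc a * b < a * 1 := by
          exact mul_lt_mul_of_pos_left hb (zero_lt_iff.2 ha0)
      _ = a := mul_one a
      _ ≤ c := ha

/-- If `v (b - c) = r` and `v b < r` then `v c = r`. -/
lemma val_eq_of_sub_of_lt {b c : L} {r : Γ₀} (h : v (b - c) = r) (hb : v b < r) : v c = r := by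
  have hc : c = b - (b - c) := by ring
  rw [hc, sub_eq_add_neg, add_comm]
  have : v b < v (-(b - c)) := by rw [Valuation.map_neg, h]; exact hb
  rw [Valuation.map_add_eq_of_lt_left v this, Valuation.map_neg, h]

end basic

/-- Case 1: `E₀ + E₀ ⊆ E₀`. -/
theorem one_le_of_one_le {a b x₁ x₂ x₃ ℓ μ : L} (ha : v a ≤ 1) (hb : v b < 1) (h2 : v 2 = 1)
    (hl : LineData a b x₁ x₂ x₃ ℓ μ) (h₁ : 1 ≤ v x₁) (h₂ : 1 ≤ v x₂) : 1 ≤ v x₃ := by
  by_contra h₃
  rw [not_le] at h₃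
  have h12 : 1 ≤ v (x₁ * x₂) := by
    rw [map_mul]; exact one_le_mul_of_one_le_of_one_le h₁ h₂
  have h12pos : 0 < v (x₁ * x₂) := lt_of_lt_of_le zero_lt_one h12
  have hx1 : v x₁ ≤ v (x₁ * x₂) := by
    rw [map_mul]; exact le_mul_of_one_le_right' h₂
  have hx2 : v x₂ ≤ v (x₁ * x₂) := by
    rw [map_mul]; exact le_mul_of_one_le_left' h₁
  have hsum : v (x₁ + x₂) ≤ v (x₁ * x₂) :=
    (v.map_add_le_max' _ _).trans (max_le hx1 hx2)
  have hsmall : v ((x₁ + x₂) * x₃) < v (x₁ * x₂) := by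
    rw [map_mul]; exact mul_lt_of_le_of_lt_one h12pos hsum h₃
  have he₂ : v (b - 2 * ℓ * μ) = v (x₁ * x₂) := by
    rw [← hl.e₂]
    have : x₁ * x₂ + x₁ * x₃ + x₂ * x₃ = x₁ * x₂ + (x₁ + x₂) * x₃ := by ring
    rw [this]
    exact Valuation.map_add_eq_of_lt_left v hsmall
  have hlm : v (ℓ * μ) = v (x₁ * x₂) := by
    have h2lm : v (2 * ℓ * μ) = v (ℓ * μ) := by
      rw [mul_assoc, map_mul, h2, one_mul]
    rw [← h2lm]
    exact val_eq_of_sub_of_lt he₂ (lt_of_lt_of_le hb h12)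
  have hμ : v μ ^ 2 < v (x₁ * x₂) := by
    rw [← map_pow, ← hl.e₃, map_mul]
    exact mul_lt_of_le_of_lt_one h12pos le_rfl h₃
  have hℓ : v ℓ ^ 2 ≤ v (x₁ * x₂) := by
    rw [← map_pow]
    have : ℓ ^ 2 = x₁ + x₂ + x₃ + a := by linear_combination -hl.e₁
    rw [this]
    refine (v.map_add_le_max' _ _).trans (max_le ?_ (ha.trans h12))
    refine (v.map_add_le_max' _ _).trans (max_le hsum (h₃.le.trans h12))
  have hsq : (v (ℓ * μ)) ^ 2 < v (x₁ * x₂) ^ 2 := by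
    rw [map_mul, mul_pow, sq (v (x₁ * x₂))]
    calc v ℓ ^ 2 * v μ ^ 2 ≤ v (x₁ * x₂) * v μ ^ 2 := mul_le_mul_left hℓ _
      _ < v (x₁ * x₂) * v (x₁ * x₂) := mul_lt_mul_of_pos_left hμ h12pos
  rw [hlm] at hsq
  exact lt_irrefl _ hsq

section basic2

variable {v}

lemma sq_lt_self_of_lt_one {a : Γ₀} (h0 : 0 < a) (h1 : a < 1) : a ^ 2 < a := by
  rw [sq]
  calc a * a < a * 1 := mul_lt_mul_of_pos_left h1 h0
    _ = a := mul_one a

lemma mul_lt_mul_of_lt_of_lt' {a b c d : Γ₀} (h1 : a < b) (h2 : c < d) : a * c < b * d := by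
  have hb : 0 < b := lt_of_le_of_lt zero_le h1
  have hd : 0 < d := lt_of_le_of_lt zero_le h2
  calc a * c ≤ b * c := mul_le_mul_left h1.le c
    _ < b * d := mul_lt_mul_of_pos_left h2 hb

lemma val_pos_of_lt {x y : L} (h : v x < v y) : 0 < v y := lt_of_le_of_lt zero_le h

end basic2

/-- Lower bound: if `1 ≤ |x₁|` and `|b| < |x₂|` then `|b| < |x₃|`. -/
theorem lt_of_one_le_of_lt {a b x₁ x₂ x₃ ℓ μ : L} (ha : v a ≤ 1) (hb : v b < 1) (h2 : v 2 = 1)
    (hl : LineData a b x₁ x₂ x₃ ℓ μ) (h₁ : 1 ≤ v x₁) (h₂ : v b < v x₂) : v b < v x₃ := by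
  by_contra h₃
  rw [not_lt] at h₃
  have hx1pos : 0 < v x₁ := lt_of_lt_of_le zero_lt_one h₁
  have hx2pos : 0 < v x₂ := val_pos_of_lt h₂
  have h12pos : 0 < v (x₁ * x₂) := by rw [map_mul]; exact mul_pos hx1pos hx2pos
  have hb12 : v b < v (x₁ * x₂) := by
    rw [map_mul]
    calc v b < v x₂ := h₂
      _ = 1 * v x₂ := (one_mul _).symm
      _ ≤ v x₁ * v x₂ := mul_le_mul_left h₁ _
  have h13 : v (x₁ * x₃) < v (x₁ * x₂) := by
    rw [map_mul, map_mul]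
    exact mul_lt_mul_of_pos_left (lt_of_le_of_lt h₃ h₂) hx1pos
  have h23 : v (x₂ * x₃) < v (x₁ * x₂) := by
    rw [map_mul, map_mul, mul_comm (v x₁)]
    exact mul_lt_mul_of_pos_left (lt_of_le_of_lt h₃ (lt_of_lt_of_le hb h₁)) hx2pos
  have he₂ : v (b - 2 * ℓ * μ) = v (x₁ * x₂) := by
    rw [← hl.e₂, add_assoc]
    exact Valuation.map_add_eq_of_lt_left v (Valuation.map_add_lt v h13 h23)
  have hlm : v (ℓ * μ) = v (x₁ * x₂) := by
    have h2lm : v (2 * ℓ * μ) = v (ℓ * μ) := by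
      rw [mul_assoc, map_mul, h2, one_mul]
    rw [← h2lm]
    exact val_eq_of_sub_of_lt he₂ hb12
  -- `|x₁x₂| = |ℓ|² |x₃|`
  have hkey : v (x₁ * x₂) = v ℓ ^ 2 * v x₃ := by
    have h1 : v (x₁ * x₂) * v (x₁ * x₂) = v ℓ ^ 2 * v x₃ * v (x₁ * x₂) := by
      calc v (x₁ * x₂) * v (x₁ * x₂) = v ((ℓ * μ) ^ 2) := by rw [map_pow, hlm, sq]
        _ = v (ℓ ^ 2 * (x₁ * x₂ * x₃)) := by rw [hl.e₃]; ring_nf
        _ = v ℓ ^ 2 * v x₃ * v (x₁ * x₂) := by
            rw [map_mul, map_mul v (x₁ * x₂), map_pow, mul_assoc, mul_comm (v x₃)]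
    exact (mul_left_inj' h12pos.ne').mp h1
  have hℓ : v ℓ ^ 2 ≤ max (v x₁) (v x₂) := by
    rw [← map_pow]
    have : ℓ ^ 2 = x₁ + x₂ + x₃ + a := by linear_combination -hl.e₁
    rw [this]
    refine Valuation.map_add_le v (Valuation.map_add_le v ?_ ?_) ?_
    · exact (v.map_add_le_max' _ _)
    · exact le_max_of_le_left ((h₃.trans hb.le).trans h₁)
    · exact le_max_of_le_left (ha.trans h₁)
  rcases le_total (v x₂) (v x₁) with h | h
  · rw [max_eq_left h] at hℓ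
    have : v x₁ * v x₂ ≤ v x₁ * v b := by
      rw [← map_mul, hkey]
      exact mul_le_mul' hℓ h₃
    have := le_of_mul_le_mul_left this hx1pos
    exact absurd h₂ (not_lt.2 this)
  · rw [max_eq_right h] at hℓ
    have : v x₁ * v x₂ ≤ v b * v x₂ := by
      rw [← map_mul, hkey, mul_comm (v b)]
      exact mul_le_mul' hℓ h₃
    have := le_of_mul_le_mul_right this hx2pos
    exact absurd (lt_of_lt_of_le hb h₁) (not_lt.2 this)

/-- Case 2 (branch and size): if `P₁ ∈ E₀`, `P₂ ∈ C₊(β)` and `P₃' = -(P₁ + P₂)` lies in the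
annulus, then `P₃'` is on the branch `-β` and `|x₃| = |x₂|`. -/
theorem branch_of_one_le {a b β x₁ x₂ x₃ y₂ y₃ ℓ μ : L} (ha : v a = 1)
    (h2 : v 2 = 1) (hβ : β ^ 2 = a)
    (hl : LineData a b x₁ x₂ x₃ ℓ μ) (hy₂ : y₂ = ℓ * x₂ + μ) (hy₃ : y₃ = ℓ * x₃ + μ)
    (heq₃ : y₃ ^ 2 = x₃ ^ 3 + a * x₃ ^ 2 + b * x₃)
    (h₁ : 1 ≤ v x₁) (h₂ : v b < v x₂) (h₂' : v x₂ < 1) (h₃ : v b < v x₃) (h₃' : v x₃ < 1)
    (hbr : v (y₂ - β * x₂) < v x₂) :
    v (y₃ + β * x₃) < v x₃ ∧ v x₃ = v x₂ := by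
  have hx1pos : 0 < v x₁ := lt_of_lt_of_le zero_lt_one h₁
  have hx2pos : 0 < v x₂ := val_pos_of_lt h₂
  have hx3pos : 0 < v x₃ := val_pos_of_lt h₃
  have h23pos : 0 < v (x₂ * x₃) := by rw [map_mul]; exact mul_pos hx2pos hx3pos
  have hvβ : v β = 1 := by
    have : v β ^ 2 = 1 := by rw [← map_pow, hβ, ha]
    exact sq_eq_one.mp this
  have h2β : v (2 * β) = 1 := by rw [map_mul, h2, hvβ, one_mul]
  -- the product of the two branch functions is small
  have hprod : v (y₃ + β * x₃) * v (y₃ - β * x₃) < v x₃ * v x₃ := by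
    have : (y₃ + β * x₃) * (y₃ - β * x₃) = x₃ * (x₃ ^ 2 + b) := by
      linear_combination heq₃ - x₃ ^ 2 * hβ
    rw [← map_mul, this, map_mul]
    refine mul_lt_mul_of_pos_left ?_ hx3pos
    refine Valuation.map_add_lt v ?_ h₃
    rw [map_pow]; exact sq_lt_self_of_lt_one hx3pos h₃'
  -- relations (R+) and (R-)
  have Rp : μ * (y₂ * x₃ + y₃ * x₂) = (b - x₂ * x₃) * (x₂ * x₃) := by
    rw [hy₂, hy₃]
    linear_combination (x₂ * x₃) * hl.e₂ - (x₂ + x₃) * hl.e₃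
  have Rm : y₂ * x₃ - y₃ * x₂ = μ * (x₃ - x₂) := by
    rw [hy₂, hy₃]; ring
  have hμ : v μ ^ 2 = v x₁ * v (x₂ * x₃) := by
    rw [← map_pow, ← hl.e₃, mul_assoc, map_mul]
  have hux : v ((y₂ - β * x₂) * x₃) < v (x₂ * x₃) := by
    rw [map_mul, map_mul]
    exact mul_lt_mul_of_pos_right hbr hx3pos
  have hw : v (y₃ + β * x₃) < v x₃ := by
    by_contra hcon
    rw [not_lt] at hcon
    have hw' : v (y₃ - β * x₃) < v x₃ := by
      by_contra hcon'
      rw [not_lt] at hcon'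
      exact absurd hprod (not_lt.2 (mul_le_mul' hcon hcon'))
    have hweq : v (y₃ + β * x₃) = v x₃ := by
      have : y₃ + β * x₃ = (2 * β) * x₃ + (y₃ - β * x₃) := by ring
      rw [this]
      have h2 : v (y₃ - β * x₃) < v (2 * β * x₃) := by
        rw [map_mul, h2β, one_mul]; exact hw'
      rw [Valuation.map_add_eq_of_lt_left v h2, map_mul, h2β, one_mul]
    have hsum : v (y₂ * x₃ + y₃ * x₂) = v (x₂ * x₃) := by
      have : y₂ * x₃ + y₃ * x₂ = (y₃ + β * x₃) * x₂ + (y₂ - β * x₂) * x₃ := by ring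
      rw [this]
      have h2 : v ((y₂ - β * x₂) * x₃) < v ((y₃ + β * x₃) * x₂) := by
        rw [map_mul v (y₃ + β * x₃), hweq, mul_comm (v x₃), ← map_mul]; exact hux
      rw [Valuation.map_add_eq_of_lt_left v h2, map_mul, hweq, mul_comm, ← map_mul]
    have hμeq : v μ = v (b - x₂ * x₃) := by
      have := congrArg v Rp
      rw [map_mul, hsum, map_mul v (b - x₂ * x₃)] at this
      exact (mul_left_inj' h23pos.ne').mp this
    have hlt : v (b - x₂ * x₃) ^ 2 < v (x₂ * x₃) := by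
      rcases le_total (v b) (v (x₂ * x₃)) with hle | hle
      · have h1 : v (b - x₂ * x₃) ≤ v (x₂ * x₃) := Valuation.map_sub_le v hle le_rfl
        have h23lt : v (x₂ * x₃) < 1 := by
          rw [map_mul]
          calc v x₂ * v x₃ < 1 * 1 := mul_lt_mul_of_lt_of_lt' h₂' h₃'
            _ = 1 := one_mul 1
        exact lt_of_le_of_lt (pow_le_pow_left' h1 2) (sq_lt_self_of_lt_one h23pos h23lt)
      · have h1 : v (b - x₂ * x₃) ≤ v b := Valuation.map_sub_le v le_rfl hle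
        refine lt_of_le_of_lt (pow_le_pow_left' h1 2) ?_
        rw [sq, map_mul]
        exact mul_lt_mul_of_lt_of_lt' h₂ h₃
    have hge : v (x₂ * x₃) ≤ v μ ^ 2 := by
      rw [hμ]
      calc v (x₂ * x₃) = 1 * v (x₂ * x₃) := (one_mul _).symm
        _ ≤ v x₁ * v (x₂ * x₃) := mul_le_mul_left h₁ _
    rw [hμeq] at hge
    exact absurd hlt (not_lt.2 hge)
  refine ⟨hw, ?_⟩
  -- size
  have hwx : v ((y₃ + β * x₃) * x₂) < v (x₂ * x₃) := by
    rw [map_mul, map_mul, mul_comm (v x₂)]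
    exact mul_lt_mul_of_pos_right hw hx2pos
  have hdiff : v (y₂ * x₃ - y₃ * x₂) = v (x₂ * x₃) := by
    have : y₂ * x₃ - y₃ * x₂ =
        (2 * β) * (x₂ * x₃) + ((y₂ - β * x₂) * x₃ - (y₃ + β * x₃) * x₂) := by ring
    rw [this]
    have h2 : v ((y₂ - β * x₂) * x₃ - (y₃ + β * x₃) * x₂) < v (2 * β * (x₂ * x₃)) := by
      rw [map_mul v (2 * β), h2β, one_mul]
      exact Valuation.map_sub_lt v hux hwx
    rw [Valuation.map_add_eq_of_lt_left v h2, map_mul v (2 * β), h2β, one_mul]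
  have hμd : v μ * v (x₃ - x₂) = v (x₂ * x₃) := by
    rw [← map_mul, ← Rm, hdiff]
  have hsq : v x₁ * v (x₃ - x₂) ^ 2 = v x₂ * v x₃ := by
    have h1 : v x₁ * v (x₃ - x₂) ^ 2 * v (x₂ * x₃) = v x₂ * v x₃ * v (x₂ * x₃) := by
      calc v x₁ * v (x₃ - x₂) ^ 2 * v (x₂ * x₃)
          = v μ ^ 2 * v (x₃ - x₂) ^ 2 := by
            rw [hμ, mul_assoc, mul_assoc, mul_comm (v (x₃ - x₂) ^ 2)]
        _ = (v μ * v (x₃ - x₂)) ^ 2 := by rw [mul_pow]
        _ = v x₂ * v x₃ * v (x₂ * x₃) := by rw [hμd, sq, map_mul]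
    exact (mul_left_inj' h23pos.ne').mp h1
  by_contra hne
  rcases lt_or_gt_of_ne hne with hlt | hgt
  · -- |x₃| < |x₂|
    rw [Valuation.map_sub_eq_of_lt_right v hlt, sq, ← mul_assoc] at hsq
    have h3 : v x₁ * v x₂ = v x₃ := by
      have := (mul_left_inj' hx2pos.ne').mp (hsq.trans (mul_comm _ _))
      exact this
    have : v x₂ ≤ v x₃ := by
      rw [← h3]
      calc v x₂ = 1 * v x₂ := (one_mul _).symm
        _ ≤ v x₁ * v x₂ := mul_le_mul_left h₁ _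
    exact absurd hlt (not_lt.2 this)
  · -- |x₂| < |x₃|
    rw [Valuation.map_sub_eq_of_lt_left v hgt, sq, ← mul_assoc] at hsq
    have h3 : v x₁ * v x₃ = v x₂ := (mul_left_inj' hx3pos.ne').mp hsq
    have : v x₃ ≤ v x₂ := by
      rw [← h3]
      calc v x₃ = 1 * v x₃ := (one_mul _).symm
        _ ≤ v x₁ * v x₃ := mul_le_mul_left h₁ _
    exact absurd hgt (not_lt.2 this)

section points

variable {L : Type*} [Field L] [DecidableEq L]

omit [DecidableEq L] in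
lemma val_a_eq_one {A : ValuationSubring L} {W : Affine L} (hyp : ModelHyp A W)
    (hb : A.valuation W.a₄ < 1) : A.valuation W.a₂ = 1 := by
  have h4 : A.valuation (4 * W.a₄) < 1 := by
    have : (4 : L) = 2 * 2 := by norm_num
    rw [this, map_mul, map_mul, hyp.two, one_mul, one_mul]; exact hb
  have hsq : A.valuation (W.a₂ ^ 2) = 1 := by
    have : W.a₂ ^ 2 = (W.a₂ ^ 2 - 4 * W.a₄) + 4 * W.a₄ := by ring
    rw [this]
    have h' : A.valuation (4 * W.a₄) < A.valuation (W.a₂ ^ 2 - 4 * W.a₄) := by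
      rw [hyp.disc]; exact h4
    rw [Valuation.map_add_eq_of_lt_left _ h', hyp.disc]
  rw [map_pow] at hsq
  exact sq_eq_one.mp hsq

/-- `Stmt_M1_E0E0`: `E₀` is closed under addition. -/
theorem M1_E0E0 : Stmt_M1_E0E0 (L := L) := by
  intro A W hyp hb P Q hP hQ
  rcases P with _ | ⟨x₁, y₁, h₁⟩
  · rw [← Point.zero_def, zero_add]; exact hQ
  rcases Q with _ | ⟨x₂, y₂, h₂⟩
  · rw [← Point.zero_def, add_zero]; exact hP
  generalize hR : Point.some x₁ y₁ h₁ + Point.some x₂ y₂ h₂ = R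
  rcases R with _ | ⟨x₃, y₃, h₃⟩
  · trivial
  obtain ⟨ℓ, μ, -, -, -, e₁, e₂, e₃⟩ :=
    line W hyp.a₁ hyp.a₃ hyp.a₆ x₁ y₁ x₂ y₂ x₃ y₃ h₁ h₂ h₃ hR
  exact one_le_of_one_le A.valuation hyp.a_le hb hyp.two ⟨e₁, e₂, e₃⟩ hP hQ

/-- `Stmt_M1_E0Cp`: `E₀ + C₊ ⊆ C₊`, preserving `|x|`. -/
theorem M1_E0Cp : Stmt_M1_E0Cp (L := L) := by
  intro A W hyp hb β hβ P Q hP hQ
  rcases P with _ | ⟨x₁, y₁, h₁⟩
  · rw [← Point.zero_def, zero_add]; exact ⟨hQ, rfl⟩
  rcases Q with _ | ⟨x₂, y₂, h₂⟩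
  · exact absurd hQ id
  obtain ⟨hQ1, hQ2, hQ3⟩ := hQ
  have hP' : 1 ≤ A.valuation x₁ := hP
  generalize hR : Point.some x₁ y₁ h₁ + Point.some x₂ y₂ h₂ = R
  rcases R with _ | ⟨x₃, y₃, h₃⟩
  · exfalso
    rw [← Point.zero_def] at hR
    have h := eq_neg_of_add_eq_zero_left hR
    rw [Point.neg_some] at h
    have hx : x₁ = x₂ := by injection h
    rw [hx] at hP'
    exact absurd hQ2 (not_lt.2 hP')
  obtain ⟨ℓ, μ, -, hy₂, hy₃, e₁, e₂, e₃⟩ :=
    line W hyp.a₁ hyp.a₃ hyp.a₆ x₁ y₁ x₂ y₂ x₃ y₃ h₁ h₂ h₃ hR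
  have hl : LineData W.a₂ W.a₄ x₁ x₂ x₃ ℓ μ := ⟨e₁, e₂, e₃⟩
  have hlt1 : A.valuation x₃ < 1 := by
    by_contra hcon
    rw [not_lt] at hcon
    have := one_le_of_one_le A.valuation hyp.a_le hb hyp.two hl.swap₂₃ hP' hcon
    exact absurd hQ2 (not_lt.2 this)
  have hltb : A.valuation W.a₄ < A.valuation x₃ :=
    lt_of_one_le_of_lt A.valuation hyp.a_le hb hyp.two hl hP' hQ1
  have heq₃ : (-y₃) ^ 2 = x₃ ^ 3 + W.a₂ * x₃ ^ 2 + W.a₄ * x₃ := by
    have := (legendre_equation_iff hyp.a₁ hyp.a₃ hyp.a₆ x₃ y₃).1 h₃.1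
    rw [neg_sq]; exact this
  obtain ⟨hbr, hsz⟩ := branch_of_one_le A.valuation (val_a_eq_one hyp hb) hyp.two hβ hl hy₂ hy₃
    heq₃ hP' hQ1 hQ2 hltb hlt1 hQ3
  refine ⟨⟨hltb, hlt1, ?_⟩, hsz⟩
  have : y₃ - β * x₃ = -(-y₃ + β * x₃) := by ring
  rw [this, Valuation.map_neg]
  exact hbr

end points

end Fermat.Agent.S05.H6

end
-- ==== END Fermat.Agent.S05.H6_M1Cases

-- ==== BEGIN Fermat.Agent.S13.WP3.H4_M1Cases
section

set_option autoImplicit false

namespace Fermat.Agent.S13.WP3.H4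

open WeierstrassCurve WeierstrassCurve.Affine

variable {L : Type*} [Field L] [DecidableEq L]

/-- (2D3) `C(λ) + C(λ)`. -/
theorem cc : Stmt2_CC (L := L) := by
  intro A W hyp lam hlam P Q hP hQ
  rcases P with _ | ⟨x₁, y₁, h₁⟩
  · exact absurd hP (by simp [InC])
  rcases Q with _ | ⟨x₂, y₂, h₂⟩
  · exact absurd hQ (by simp [InC])
  obtain ⟨hx₁b, hx₁, ht₁⟩ := hP
  obtain ⟨hx₂b, hx₂, ht₂⟩ := hQ
  obtain ⟨hne, hmain⟩ := c_add_c H5.line2 A W hyp lam hlam h₁ h₂ hx₁b hx₁ ht₁ hx₂b hx₂ ht₂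
  have hx₁pos : 0 < A.valuation x₁ := lt_of_le_of_lt zero_le hx₁b
  have hx₂pos : 0 < A.valuation x₂ := lt_of_le_of_lt zero_le hx₂b
  have hbpos : 0 < A.valuation W.a₄ := by
    rw [zero_lt_iff]; exact (Valuation.ne_zero_iff _).2 hyp.b_ne
  have hXlt : A.valuation x₁ * A.valuation x₂ < 1 := by
    calc A.valuation x₁ * A.valuation x₂ < A.valuation x₁ * 1 :=
          mul_lt_mul_of_pos_left hx₂ hx₁pos
      _ = A.valuation x₁ := mul_one _
      _ < 1 := hx₁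
  have hXgt : A.valuation W.a₄ ^ 2 < A.valuation x₁ * A.valuation x₂ := by
    rw [sq]
    exact mul_lt_mul'' hx₁b hx₂b zero_le zero_le
  generalize hS : Point.some x₁ y₁ h₁ + Point.some x₂ y₂ h₂ = S at hne ⊢
  rcases S with _ | ⟨x₃, y₃, h₃⟩
  · exact absurd rfl hne
  obtain ⟨c1, c2, c3⟩ := hmain x₃ y₃ h₃ hS
  simp only [xVal, InC, InET]
  rw [map_mul] at c1 c2 c3
  refine ⟨fun h => ?_, fun h => ?_, fun h => c3 h⟩
  · obtain ⟨e, t⟩ := c1 h
    exact ⟨⟨by rw [e]; exact h, by rw [e]; exact hXlt, t⟩, e⟩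
  · obtain ⟨e, t⟩ := c2 h
    refine ⟨⟨?_, ?_, t⟩, e⟩
    · have : A.valuation W.a₄ * (A.valuation x₁ * A.valuation x₂) <
          A.valuation x₃ * (A.valuation x₁ * A.valuation x₂) := by
        rw [e, sq]; exact mul_lt_mul_of_pos_left h hbpos
      exact lt_of_mul_lt_mul_right this zero_le
    · have : A.valuation x₃ * (A.valuation x₁ * A.valuation x₂) <
          1 * (A.valuation x₁ * A.valuation x₂) := by
        rw [e, one_mul]; exact hXgt
      exact lt_of_mul_lt_mul_right this zero_le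

/-- (2D4) translation by `T = (0,0)`. -/
theorem addT : Stmt2_addT (L := L) := by
  intro W ha₁ ha₃ ha₆ hT x y h hx
  obtain ⟨h', e⟩ := add_T W ha₁ ha₃ ha₆ hT x y h hx
  have hy : -((y + x) * W.a₄ / x ^ 2) = -(W.a₄ * (y + x) / x ^ 2) := by ring
  have h'' : W.Nonsingular (W.a₄ / x) (-(W.a₄ * (y + x) / x ^ 2)) := hy ▸ h'
  refine ⟨h'', ?_⟩
  rw [e]
  congr 1

end Fermat.Agent.S13.WP3.H4

end
-- ==== END Fermat.Agent.S13.WP3.H4_M1Cases

-- ==== BEGIN Fermat.Agent.S13.WP3.H5_CoreI4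
section

set_option autoImplicit false

namespace Fermat.Agent.S13.WP3.H5

open WeierstrassCurve WeierstrassCurve.Affine WeierstrassCurve.Affine.Point

section aux

variable {L : Type*} [Field L]

/-- On the model, a point with `|x| ≤ 1` has `|y| ≤ 1`. -/
lemma val_y_le_one {A : ValuationSubring L} {W : Affine L} (hyp : ModelHyp2 A W) {x y : L}
    (h : W.Nonsingular x y) (hx : A.valuation x ≤ 1) : A.valuation y ≤ 1 := by
  by_contra hy
  push Not at hy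
  have e := (frey_equation_iff hyp.a₁ hyp.a₃ hyp.a₆ x y).1 h.1
  have hy0 : A.valuation y ≠ 0 := fun h0 => by rw [h0] at hy; exact not_lt_zero hy
  have h1 : A.valuation (x * y) < A.valuation (y ^ 2) := by
    rw [map_mul, map_pow, pow_two]
    exact mul_lt_mul_of_pos_right (lt_of_le_of_lt hx hy) (zero_lt_iff.2 hy0)
  have h2 : A.valuation (y ^ 2 + x * y) = A.valuation (y ^ 2) :=
    Valuation.map_add_eq_of_lt_left _ h1
  have h3 : A.valuation (x ^ 3 + W.a₂ * x ^ 2 + W.a₄ * x) ≤ 1 := by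
    refine Valuation.map_add_le _ (Valuation.map_add_le _ ?_ ?_) ?_
    · rw [map_pow]; exact pow_le_one₀ zero_le hx
    · rw [map_mul, map_pow]
      exact mul_le_one' hyp.a_le (pow_le_one₀ zero_le hx)
    · rw [map_mul]
      exact mul_le_one' hyp.b_lt.le hx
  rw [← e, h2, map_pow] at h3
  have : 1 < A.valuation y ^ 2 := one_lt_pow₀ hy two_ne_zero
  exact absurd h3 (not_le.2 this)

/-- A root of `λ² + λ = a` with `|a| ≤ 1` is integral. -/
lemma val_lam_le_one {A : ValuationSubring L} {a lam : L} (ha : A.valuation a ≤ 1)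
    (hlam : lam ^ 2 + lam = a) : A.valuation lam ≤ 1 := by
  by_contra h
  push Not at h
  have h0 : A.valuation lam ≠ 0 := fun h0 => by rw [h0] at h; exact not_lt_zero h
  have h1 : A.valuation lam < A.valuation (lam ^ 2) := by
    rw [map_pow, pow_two]
    calc A.valuation lam = 1 * A.valuation lam := (one_mul _).symm
      _ < A.valuation lam * A.valuation lam := mul_lt_mul_of_pos_right h (zero_lt_iff.2 h0)
  have h2 : A.valuation (lam ^ 2 + lam) = A.valuation (lam ^ 2) :=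
    Valuation.map_add_eq_of_lt_left _ h1
  rw [hlam, map_pow] at h2
  have : 1 < A.valuation lam ^ 2 := one_lt_pow₀ h two_ne_zero
  rw [← h2] at this
  exact absurd ha (not_le.2 this)

/-- An automorphism acting trivially on the residue field (of residue characteristic 2) fixes
the roots of `λ² + λ = a` when it fixes `a`. -/
lemma sigma_lam {A : ValuationSubring L} {a lam : L} (ha : A.valuation a ≤ 1)
    (h2 : A.valuation (2 : L) < 1) (hlam : lam ^ 2 + lam = a) (σ : L →+* L) (hσa : σ a = a)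
    (hσr : ∀ x, A.valuation x ≤ 1 → A.valuation (σ x - x) < 1) : σ lam = lam := by
  have hl := val_lam_le_one ha hlam
  have e : (σ lam - lam) * (σ lam + lam + 1) = 0 := by
    have : σ lam ^ 2 + σ lam = a := by rw [← map_pow, ← map_add, hlam, hσa]
    linear_combination this - hlam
  rcases mul_eq_zero.1 e with h | h
  · exact sub_eq_zero.1 h
  · exfalso
    have h3 := hσr lam hl
    have e2 : σ lam - lam = -(1 + 2 * lam) := by linear_combination h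
    rw [e2, Valuation.map_neg] at h3
    have h4 : A.valuation (2 * lam) < 1 := by
      rw [map_mul]
      calc A.valuation 2 * A.valuation lam ≤ A.valuation 2 * 1 := by gcongr
        _ = A.valuation 2 := mul_one _
        _ < 1 := h2
    rw [Valuation.map_one_add_of_lt _ h4] at h3
    exact lt_irrefl _ h3

end aux

section main

variable {K₀ L : Type} [Field K₀] [Field L] [DecidableEq L] [Algebra K₀ L] [IsAlgClosed L]

/-- Piece (2F), from the other pieces. -/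
theorem coreI4_of (hM1 : Stmt2_M1 (L := L)) (hann : Stmt2_annulus (L := L))
    (hsame : Stmt2_sameRed (L := L)) (hE1a : Stmt2_E1_add (L := L))
    (hE1n : Stmt2_E1_neg (L := L)) (hF1 : Stmt2_F1 (L := L))
    (A : ValuationSubring L) (W' : Affine K₀) (hyp : ModelHyp2 A (W'⁄L))
    (n : ℕ) (hn : A.valuation (n : L) = 1)
    (σ : L ≃ₐ[K₀] L) (hσv : ∀ x, A.valuation (σ x) = A.valuation x)
    (hσr : ∀ x, A.valuation x ≤ 1 → A.valuation (σ x - x) < 1)
    (P : (W'⁄L).Point) (hP : (n : ℤ) • P = 0) :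
    InE0 A (σ • P - P) ∧ (InE0 A P → σ • P = P) := by
  have hP' : n • P = 0 := by rwa [natCast_zsmul] at hP
  constructor
  · -- component of `σ P` equals the component of `P`
    obtain ⟨lam, hlam⟩ : ∃ lam : L, lam ^ 2 + lam = (W'⁄L).a₂ := by
      obtain ⟨z, hz⟩ := IsAlgClosed.exists_root
        (Polynomial.X ^ 2 + Polynomial.X - Polynomial.C ((W'⁄L).a₂) : Polynomial L) (by
          have : (Polynomial.X ^ 2 + Polynomial.X - Polynomial.C ((W'⁄L).a₂) :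
              Polynomial L).degree = 2 := by
            compute_degree!
          rw [this]; norm_num)
      refine ⟨z, ?_⟩
      simp only [Polynomial.IsRoot.def, Polynomial.eval_sub, Polynomial.eval_add,
        Polynomial.eval_pow, Polynomial.eval_X, Polynomial.eval_C] at hz
      linear_combination hz
    have hσa : (σ : L →+* L) (W'⁄L).a₂ = (W'⁄L).a₂ := σ.commutes _
    have hσlam : σ lam = lam := sigma_lam hyp.a_le hyp.two hlam (σ : L →+* L) hσa hσr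
    obtain ⟨φ, hker, hC, hT⟩ := hM1 A (W'⁄L) hyp lam hlam
    have key : φ (σ • P) = φ P := by
      rcases P with _ | ⟨x, y, h⟩
      · rfl
      · obtain ⟨hσ, hσP⟩ : ∃ hσ : (W'⁄L).Nonsingular (σ x) (σ y),
            σ • (Point.some x y h : (W'⁄L).Point) = Point.some (σ x) (σ y) hσ := ⟨_, rfl⟩
        by_cases hx1 : 1 ≤ A.valuation x
        · have h1 : φ (Point.some x y h) = 0 := (hker _).2 hx1
          have h2 : φ (σ • (Point.some x y h : (W'⁄L).Point)) = 0 := by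
            rw [hσP]
            exact (hker _).2 (show 1 ≤ A.valuation (σ x) by rw [hσv]; exact hx1)
          rw [h1, h2]
        push Not at hx1
        by_cases hxb : A.valuation x ≤ A.valuation (W'⁄L).a₄
        · rw [hσP, hT _ _ h hxb, hT _ _ _ (by rw [hσv]; exact hxb)]
        push Not at hxb
        have hx0 : x ≠ 0 := by
          rintro rfl
          rw [_root_.map_zero] at hxb
          exact not_lt_zero hxb
        have hσx0 : σ x ≠ 0 := by simpa using hx0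
        have hvu : valUnit A (σ x) hσx0 = valUnit A x hx0 := by
          apply Units.ext
          simp [valUnit, hσv]
        rcases hann A (W'⁄L) hyp lam hlam x y h hxb hx1 with hb | hb
        · rw [hσP, hC _ _ h hx0 hxb hx1 hb, hC _ _ _ hσx0 (by rw [hσv]; exact hxb)
            (by rw [hσv]; exact hx1) (by
              have : σ y - lam * σ x = σ (y - lam * x) := by
                rw [map_sub, map_mul, hσlam]
              rw [this, hσv, hσv]; exact hb), hvu]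
        · -- pass to `-P`
          have hneg : -(Point.some x y h : (W'⁄L).Point) =
              Point.some x ((W'⁄L).negY x y) ((nonsingular_neg ..).mpr h) := Point.neg_some h
          have hb' : A.valuation ((W'⁄L).negY x y - lam * x) < A.valuation x := by
            have : (W'⁄L).negY x y - lam * x = -(y - (-1 - lam) * x) := by
              rw [frey_negY hyp.a₁ hyp.a₃]; ring
            rw [this, Valuation.map_neg]; exact hb
          have h1 : φ (-(Point.some x y h : (W'⁄L).Point)) =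
              Additive.ofMul (QuotientGroup.mk (valUnit A x hx0)) := by
            rw [hneg]; exact hC _ _ _ hx0 hxb hx1 hb'
          have h2 : φ (-(σ • (Point.some x y h : (W'⁄L).Point))) =
              Additive.ofMul (QuotientGroup.mk (valUnit A x hx0)) := by
            rw [← smul_neg, hneg]
            obtain ⟨hσ', this⟩ : ∃ hσ' : (W'⁄L).Nonsingular (σ x) (σ ((W'⁄L).negY x y)),
                σ • (Point.some x ((W'⁄L).negY x y) ((nonsingular_neg ..).mpr h) :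
                (W'⁄L).Point) = Point.some (σ x) (σ ((W'⁄L).negY x y)) hσ' := ⟨_, rfl⟩
            rw [this, hC _ _ _ hσx0 (by rw [hσv]; exact hxb) (by rw [hσv]; exact hx1) (by
              have : σ ((W'⁄L).negY x y) - lam * σ x = σ ((W'⁄L).negY x y - lam * x) := by
                rw [map_sub, map_mul, hσlam]
              rw [this, hσv, hσv]; exact hb'), hvu]
          rw [map_neg] at h1 h2
          exact neg_injective (h2.trans h1.symm)
    rw [← hker, map_sub, key, sub_self]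
  · intro hE0
    -- `σ P - P ∈ E₁`
    have hR : _root_.Fermat.Agent.S13.WP3.InE1 A (σ • P - P) := by
      rcases P with _ | ⟨x, y, h⟩
      · show _root_.Fermat.Agent.S13.WP3.InE1 A (σ • (0 : (W'⁄L).Point) - 0)
        rw [smul_zero, sub_zero]; trivial
      · obtain ⟨hσ, hσP⟩ : ∃ hσ : (W'⁄L).Nonsingular (σ x) (σ y),
            σ • (Point.some x y h : (W'⁄L).Point) = Point.some (σ x) (σ y) hσ := ⟨_, rfl⟩
        have hx1 : 1 ≤ A.valuation x := hE0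
        rcases lt_or_eq_of_le hx1 with hx | hx
        · rw [sub_eq_add_neg]
          refine hE1a A (W'⁄L) hyp _ _ ?_ (hE1n A (W'⁄L) hyp _ hx)
          rw [hσP]
          show 1 < A.valuation (σ x)
          rw [hσv]; exact hx
        · rw [hσP]
          refine hsame A (W'⁄L) hyp _ _ _ _ _ h (by rw [hσv]; exact hx.symm)
            (hσr x hx.symm.le) (hσr y (val_y_le_one hyp h hx.symm.le))
    by_contra hne
    have hne' : σ • P - P ≠ 0 := fun h => hne (sub_eq_zero.1 h)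
    apply hF1 A (W'⁄L) hyp _ hR hne' n hn
    rw [smul_sub, ← smul_comm σ n P, hP', smul_zero, sub_zero]

end main

end Fermat.Agent.S13.WP3.H5

end
-- ==== END Fermat.Agent.S13.WP3.H5_CoreI4

-- ==== BEGIN Fermat.Agent.S13.WP3.H5_E1
section

set_option autoImplicit false

namespace Fermat.Agent.S13.WP3.H5

open WeierstrassCurve WeierstrassCurve.Affine

variable {L : Type*} [Field L]

/-- The curve equation of the model. -/
lemma eqn2 {A : ValuationSubring L} {W : Affine L} (hyp : ModelHyp2 A W) {x y : L}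
    (h : W.Nonsingular x y) : y ^ 2 + x * y = x ^ 3 + W.a₂ * x ^ 2 + W.a₄ * x :=
  (frey_equation_iff hyp.a₁ hyp.a₃ hyp.a₆ x y).1 h.1

/-- `|x³ + a x² + b x| = |x|³` for `|x| > 1`. -/
lemma val_cubic {A : ValuationSubring L} {W : Affine L} (hyp : ModelHyp2 A W) {x : L}
    (hx : 1 < A.valuation x) :
    A.valuation (x ^ 3 + W.a₂ * x ^ 2 + W.a₄ * x) = A.valuation x ^ 3 := by
  have hx0 : 0 < A.valuation x := lt_trans zero_lt_one hx
  have e1 : A.valuation (W.a₂ * x ^ 2) < A.valuation (x ^ 3) := by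
    rw [map_mul, map_pow, map_pow]
    calc A.valuation W.a₂ * A.valuation x ^ 2 ≤ 1 * A.valuation x ^ 2 := by
          gcongr; exact hyp.a_le
      _ = A.valuation x ^ 2 := one_mul _
      _ < A.valuation x ^ 3 := pow_lt_pow_right₀ hx (by norm_num)
  have e2 : A.valuation (W.a₄ * x) < A.valuation (x ^ 3) := by
    rw [map_mul, map_pow]
    calc A.valuation W.a₄ * A.valuation x ≤ 1 * A.valuation x := by
          gcongr; exact hyp.b_lt.le
      _ = A.valuation x ^ 1 := by rw [one_mul, pow_one]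
      _ < A.valuation x ^ 3 := pow_lt_pow_right₀ hx (by norm_num)
  have e3 : A.valuation (W.a₂ * x ^ 2 + W.a₄ * x) < A.valuation (x ^ 3) :=
    Valuation.map_add_lt _ e1 e2
  rw [add_assoc, Valuation.map_add_eq_of_lt_left _ e3, map_pow]

/-- On `E₁`: `|x| < |y|`. -/
lemma val_x_lt_val_y {A : ValuationSubring L} {W : Affine L} (hyp : ModelHyp2 A W) {x y : L}
    (h : W.Nonsingular x y) (hx : 1 < A.valuation x) : A.valuation x < A.valuation y := by
  by_contra hcon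
  have hcon := not_lt.mp hcon
  have hx0 : 0 < A.valuation x := lt_trans zero_lt_one hx
  have h1 : A.valuation (y ^ 2 + x * y) ≤ A.valuation x ^ 2 := by
    refine Valuation.map_add_le _ ?_ ?_
    · rw [map_pow]; exact pow_le_pow_left₀ zero_le hcon 2
    · rw [map_mul, pow_two]; gcongr
  rw [eqn2 hyp h, val_cubic hyp hx] at h1
  exact absurd (pow_lt_pow_right₀ hx (by norm_num : 2 < 3)) (not_lt.2 h1)

/-- On `E₁`: `|y|² = |x|³`. -/
lemma val_y_sq2 {A : ValuationSubring L} {W : Affine L} (hyp : ModelHyp2 A W) {x y : L}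
    (h : W.Nonsingular x y) (hx : 1 < A.valuation x) :
    A.valuation y ^ 2 = A.valuation x ^ 3 := by
  have hxy := val_x_lt_val_y hyp h hx
  have hy0 : 0 < A.valuation y := lt_trans (lt_trans zero_lt_one hx) hxy
  have h1 : A.valuation (x * y) < A.valuation (y ^ 2) := by
    rw [map_mul, map_pow, pow_two]
    exact mul_lt_mul_of_pos_right hxy hy0
  have h2 : A.valuation (y ^ 2 + x * y) = A.valuation (y ^ 2) :=
    Valuation.map_add_eq_of_lt_left _ h1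
  rw [eqn2 hyp h, val_cubic hyp hx, map_pow] at h2
  exact h2.symm

/-- On `E₁`: `1 < |y|`. -/
lemma one_lt_val_y2 {A : ValuationSubring L} {W : Affine L} (hyp : ModelHyp2 A W) {x y : L}
    (h : W.Nonsingular x y) (hx : 1 < A.valuation x) : 1 < A.valuation y :=
  lt_trans hx (val_x_lt_val_y hyp h hx)

/-- On `E₁`: `|x / y| < 1`. -/
lemma val_z_lt_one2 {A : ValuationSubring L} {W : Affine L} (hyp : ModelHyp2 A W) {x y : L}
    (h : W.Nonsingular x y) (hx : 1 < A.valuation x) : A.valuation (x / y) < 1 := by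
  have hy0 : 0 < A.valuation y := lt_trans zero_lt_one (one_lt_val_y2 hyp h hx)
  rw [map_div₀, div_lt_one₀ hy0]
  exact val_x_lt_val_y hyp h hx

/-- On `E₁`: `|x / y|² |x| = 1`. -/
lemma val_z_sq_mul {A : ValuationSubring L} {W : Affine L} (hyp : ModelHyp2 A W) {x y : L}
    (h : W.Nonsingular x y) (hx : 1 < A.valuation x) :
    A.valuation (x / y) ^ 2 * A.valuation x = 1 := by
  have hy0 : A.valuation y ≠ 0 := (lt_trans zero_lt_one (one_lt_val_y2 hyp h hx)).ne'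
  rw [map_div₀, div_pow, val_y_sq2 hyp h hx, div_mul_eq_mul_div, ← pow_succ]
  exact div_self (pow_ne_zero _ (lt_trans zero_lt_one hx).ne')

lemma ne_zero_of_one_lt {A : ValuationSubring L} {x : L} (hx : 1 < A.valuation x) : x ≠ 0 := by
  rintro rfl
  simp at hx

/-- From the line data: `(b - x₁x₂) x₁ x₂ = μ (x₂ y₁ + x₁ y₂ + x₁ x₂)`. -/
lemma line_mu_identity2 (b x₁ y₁ x₂ y₂ x₃ ℓ μ : L)
    (e1 : y₁ = ℓ * x₁ + μ) (e2 : y₂ = ℓ * x₂ + μ)
    (V2 : x₁ * x₂ + x₁ * x₃ + x₂ * x₃ = b - (2 * ℓ + 1) * μ)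
    (V3 : x₁ * x₂ * x₃ = μ ^ 2) :
    (b - x₁ * x₂) * (x₁ * x₂) = μ * (x₂ * y₁ + x₁ * y₂ + x₁ * x₂) := by
  rw [e1, e2]
  linear_combination (-(x₁ * x₂)) * V2 + (x₁ + x₂) * V3

/-- Affine case of closure of `E₁` under addition. -/
lemma one_lt_val_add2 [DecidableEq L]
    {A : ValuationSubring L} {W : Affine L} (hyp : ModelHyp2 A W)
    {x₁ y₁ x₂ y₂ x₃ y₃ : L} (h₁ : W.Nonsingular x₁ y₁) (h₂ : W.Nonsingular x₂ y₂)
    (h₃ : W.Nonsingular x₃ y₃) (hx₁ : 1 < A.valuation x₁) (hx₂ : 1 < A.valuation x₂)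
    (hadd : Point.some x₁ y₁ h₁ + Point.some x₂ y₂ h₂ = Point.some x₃ y₃ h₃) :
    1 < A.valuation x₃ := by
  obtain ⟨ℓ, μ, e1, e2, -, -, V2, V3⟩ :=
    line2 W hyp.a₁ hyp.a₃ hyp.a₆ x₁ y₁ x₂ y₂ x₃ y₃ h₁ h₂ h₃ hadd
  have hI := line_mu_identity2 W.a₄ x₁ y₁ x₂ y₂ x₃ ℓ μ e1 e2 V2 V3
  set X₁ := A.valuation x₁ with hX₁
  set X₂ := A.valuation x₂ with hX₂
  have hX₁0 : 0 < X₁ := lt_trans zero_lt_one hx₁
  have hX₂0 : 0 < X₂ := lt_trans zero_lt_one hx₂
  have hX12 : 1 < X₁ * X₂ := one_lt_mul_of_lt_of_le' hx₁ hx₂.le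
  have hX120 : 0 < X₁ * X₂ := lt_trans zero_lt_one hX12
  have hY₁ : A.valuation y₁ ^ 2 = X₁ ^ 3 := val_y_sq2 hyp h₁ hx₁
  have hY₂ : A.valuation y₂ ^ 2 = X₂ ^ 3 := val_y_sq2 hyp h₂ hx₂
  -- `|b - x₁x₂| = |x₁x₂|`
  have hb : A.valuation (W.a₄ - x₁ * x₂) = X₁ * X₂ := by
    have : A.valuation W.a₄ < A.valuation (x₁ * x₂) := by
      rw [map_mul]; exact lt_trans hyp.b_lt hX12
    rw [Valuation.map_sub_eq_of_lt_right _ this, map_mul]
  -- `|μ| |S| = |x₁x₂|²`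
  have hprod : A.valuation μ * A.valuation (x₂ * y₁ + x₁ * y₂ + x₁ * x₂) = (X₁ * X₂) ^ 2 := by
    rw [← map_mul, ← hI, map_mul, hb, map_mul, pow_two]
  -- `|S|² < |x₁x₂|³`
  have hS : A.valuation (x₂ * y₁ + x₁ * y₂ + x₁ * x₂) ^ 2 < (X₁ * X₂) ^ 3 := by
    have t1 : A.valuation (x₂ * y₁) ^ 2 < (X₁ * X₂) ^ 3 := by
      rw [map_mul, mul_pow, hY₁, mul_pow]
      calc X₂ ^ 2 * X₁ ^ 3 = X₁ ^ 3 * X₂ ^ 2 := mul_comm _ _
        _ < X₁ ^ 3 * X₂ ^ 3 := by
          have : X₂ ^ 2 < X₂ ^ 3 := pow_lt_pow_right₀ hx₂ (by norm_num)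
          have h3 : 0 < X₁ ^ 3 := pow_pos hX₁0 3
          gcongr
    have t2 : A.valuation (x₁ * y₂) ^ 2 < (X₁ * X₂) ^ 3 := by
      rw [map_mul, mul_pow, hY₂, mul_pow]
      have : X₁ ^ 2 < X₁ ^ 3 := pow_lt_pow_right₀ hx₁ (by norm_num)
      have h3 : 0 < X₂ ^ 3 := pow_pos hX₂0 3
      gcongr
    have t3 : A.valuation (x₁ * x₂) ^ 2 < (X₁ * X₂) ^ 3 := by
      rw [map_mul]
      exact pow_lt_pow_right₀ hX12 (by norm_num)
    rcases Valuation.map_add' A.valuation (x₂ * y₁ + x₁ * y₂) (x₁ * x₂) with h | h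
    · rcases Valuation.map_add' A.valuation (x₂ * y₁) (x₁ * y₂) with h' | h'
      · exact lt_of_le_of_lt (pow_le_pow_left₀ zero_le (h.trans h') 2) t1
      · exact lt_of_le_of_lt (pow_le_pow_left₀ zero_le (h.trans h') 2) t2
    · exact lt_of_le_of_lt (pow_le_pow_left₀ zero_le h 2) t3
  -- `|μ|² > |x₁x₂|`
  have hμ : X₁ * X₂ < A.valuation μ ^ 2 := by
    by_contra hcon
    have hcon := not_lt.mp hcon
    have h4 : (X₁ * X₂) ^ 4 =
        A.valuation μ ^ 2 * A.valuation (x₂ * y₁ + x₁ * y₂ + x₁ * x₂) ^ 2 := by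
      rw [← mul_pow, hprod, ← pow_mul]
    have h5 : A.valuation μ ^ 2 * A.valuation (x₂ * y₁ + x₁ * y₂ + x₁ * x₂) ^ 2
        < (X₁ * X₂) ^ 4 := by
      calc A.valuation μ ^ 2 * A.valuation (x₂ * y₁ + x₁ * y₂ + x₁ * x₂) ^ 2
          ≤ (X₁ * X₂) * A.valuation (x₂ * y₁ + x₁ * y₂ + x₁ * x₂) ^ 2 := by gcongr
        _ < (X₁ * X₂) * (X₁ * X₂) ^ 3 := by gcongr
        _ = (X₁ * X₂) ^ 4 := by rw [← pow_succ']
    rw [← h4] at h5
    exact lt_irrefl _ h5
  have h6 : A.valuation (x₁ * x₂ * x₃) = A.valuation μ ^ 2 := by rw [V3, map_pow]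
  rw [map_mul, map_mul] at h6
  by_contra hcon
  have hcon := not_lt.mp hcon
  have : X₁ * X₂ * A.valuation x₃ ≤ X₁ * X₂ * 1 := by gcongr
  rw [h6, mul_one] at this
  exact absurd hμ (not_lt.mpr this)

/-- Piece (2B1): `E₁` is closed under addition. -/
theorem E1_add2 [DecidableEq L] : Stmt2_E1_add (L := L) := by
  intro A W hyp P Q hP hQ
  rcases P with _ | ⟨x₁, y₁, h₁⟩
  · have : (Point.zero : W.Point) + Q = Q := zero_add Q
    rw [this]; exact hQ
  rcases Q with _ | ⟨x₂, y₂, h₂⟩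
  · have : Point.some x₁ y₁ h₁ + (Point.zero : W.Point) = Point.some x₁ y₁ h₁ := add_zero _
    rw [this]; exact hP
  rcases hR : Point.some x₁ y₁ h₁ + Point.some x₂ y₂ h₂ with _ | ⟨x₃, y₃, h₃⟩
  · trivial
  · exact one_lt_val_add2 hyp h₁ h₂ h₃ hP hQ hR

/-- Piece (2B2): `E₁` is closed under negation. -/
theorem E1_neg2 [DecidableEq L] : Stmt2_E1_neg (L := L) := by
  intro A W hyp P hP
  rcases P with _ | ⟨x, y, h⟩
  · exact hP
  · rw [Point.neg_some]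
    exact hP

/-- The local parameter `z = x / y` (with `z(0) = 0`). -/
noncomputable def zc2 {W : Affine L} : W.Point → L
  | .zero => 0
  | .some x y _ => x / y

@[simp] lemma zc2_zero {W : Affine L} : zc2 (0 : W.Point) = 0 := rfl

@[simp] lemma zc2_some {W : Affine L} {x y : L} (h : W.Nonsingular x y) :
    zc2 (Point.some x y h) = x / y := rfl

lemma val_zc2_lt_one {A : ValuationSubring L} {W : Affine L} (hyp : ModelHyp2 A W) (P : W.Point)
    (hP : _root_.Fermat.Agent.S13.WP3.InE1 A P) : A.valuation (zc2 P) < 1 := by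
  rcases P with _ | ⟨x, y, h⟩
  · show A.valuation (0 : L) < 1
    simp
  · exact val_z_lt_one2 hyp h hP

lemma zc2_ne_zero {A : ValuationSubring L} {W : Affine L} (hyp : ModelHyp2 A W) (P : W.Point)
    (hP : _root_.Fermat.Agent.S13.WP3.InE1 A P) (hP0 : P ≠ 0) : zc2 P ≠ 0 := by
  rcases P with _ | ⟨x, y, h⟩
  · exact absurd rfl hP0
  · have hx : 1 < A.valuation x := hP
    rw [zc2_some]
    exact div_ne_zero (ne_zero_of_one_lt hx) (ne_zero_of_one_lt (one_lt_val_y2 hyp h hx))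

/-- `|z(-P) + z(P)| < |z(P)|` on `E₁ ∖ {0}`. -/
lemma val_zc2_neg_add {A : ValuationSubring L} {W : Affine L} (hyp : ModelHyp2 A W)
    (P : W.Point) (hP : _root_.Fermat.Agent.S13.WP3.InE1 A P) (hP0 : P ≠ 0) :
    A.valuation (zc2 (-P) + zc2 P) < A.valuation (zc2 P) := by
  rcases P with _ | ⟨x, y, h⟩
  · exact absurd rfl hP0
  · have hx : 1 < A.valuation x := hP
    have hx0 : x ≠ 0 := ne_zero_of_one_lt hx
    have hy1 := one_lt_val_y2 hyp h hx
    have hy0 : y ≠ 0 := ne_zero_of_one_lt hy1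
    have hxy := val_x_lt_val_y hyp h hx
    have hyx : A.valuation (-y - x) = A.valuation y := by
      rw [Valuation.map_sub_eq_of_lt_left _ (by rwa [Valuation.map_neg]), Valuation.map_neg]
    have hyx0 : -y - x ≠ 0 := by
      intro h0; rw [h0, map_zero] at hyx
      exact (lt_trans zero_lt_one hy1).ne hyx
    rw [Point.neg_some, zc2_some, zc2_some, frey_negY hyp.a₁ hyp.a₃]
    have e : x / (-y - x) + x / y = -(x / (-y - x)) * (x / y) := by
      field_simp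
      ring
    rw [e, map_mul, Valuation.map_neg]
    have hz0 : 0 < A.valuation (x / y) := by
      rw [Valuation.pos_iff]; exact div_ne_zero hx0 hy0
    have hlt : A.valuation (x / (-y - x)) < 1 := by
      rw [map_div₀, hyx, ← map_div₀]
      exact val_z_lt_one2 hyp h hx
    calc A.valuation (x / (-y - x)) * A.valuation (x / y) < 1 * A.valuation (x / y) := by
          gcongr
      _ = A.valuation (x / y) := one_mul _

/-- The algebraic identity behind the key estimate. -/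
lemma key_identity2 (a b x₁ y₁ x₂ y₂ x₃ y₃ ℓ μ : L)
    (e1 : y₁ = ℓ * x₁ + μ) (e2 : y₂ = ℓ * x₂ + μ) (e3 : -y₃ - x₃ = ℓ * x₃ + μ)
    (V1 : x₁ + x₂ + x₃ = ℓ ^ 2 + ℓ - a)
    (V2 : x₁ * x₂ + x₁ * x₃ + x₂ * x₃ = b - (2 * ℓ + 1) * μ)
    (V3 : x₁ * x₂ * x₃ = μ ^ 2) (hy₁ : y₁ ≠ 0) (hy₂ : y₂ ≠ 0) (hy₃ : y₃ ≠ 0) (hμ : μ ≠ 0) :
    x₃ / y₃ - x₁ / y₁ - x₂ / y₂ = (x₁ / y₁ + x₂ / y₂) * (x₃ / y₃)
      + (2 * b * ℓ / μ - a) * ((x₁ / y₁) * (x₂ / y₂) * (x₃ / y₃))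
      - ℓ * ((x₁ / y₁) * (x₂ / y₂) * (x₃ / y₃)) := by
  have hy₃' : y₃ = -(ℓ * x₃ + μ) - x₃ := by linear_combination -e3
  have S : x₃ * y₁ * y₂ - x₁ * y₂ * y₃ - x₂ * y₁ * y₃ - x₁ * x₃ * y₂ - x₂ * x₃ * y₁
      = 2 * b * ℓ * μ - (a + ℓ) * μ ^ 2 := by
    rw [e1, e2, hy₃']
    linear_combination (3 * ℓ ^ 2) * V3 + (2 * ℓ * μ) * V2 + μ ^ 2 * V1
  field_simp
  linear_combination (μ) * S + ((a + ℓ) * μ - 2 * b * ℓ) * V3

/-- `a * b * c < b` when `a < 1`, `c ≤ 1`, `0 < b`. -/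
lemma mul3_lt {Γ : Type*} [LinearOrderedCommGroupWithZero Γ] {a b c : Γ}
    (ha : a < 1) (hb : 0 < b) (hc : c ≤ 1) : a * b * c < b := by
  have h1 : a * c ≤ a * 1 := by gcongr
  have h2 : a * c < 1 := lt_of_le_of_lt (by simpa using h1) ha
  calc a * b * c = b * (a * c) := by ac_rfl
    _ < b * 1 := by gcongr
    _ = b := mul_one b

/-- Key estimate: for `P₁, P₂, P₁ + P₂` affine points of `E₁` with `|z₁| ≤ |z₂|`:
`|z₃ - z₁ - z₂| < |z₂|`. -/
lemma key_estimate2 [DecidableEq L]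
    {A : ValuationSubring L} {W : Affine L} (hyp : ModelHyp2 A W)
    {x₁ y₁ x₂ y₂ x₃ y₃ : L} (h₁ : W.Nonsingular x₁ y₁) (h₂ : W.Nonsingular x₂ y₂)
    (h₃ : W.Nonsingular x₃ y₃) (hx₁ : 1 < A.valuation x₁) (hx₂ : 1 < A.valuation x₂)
    (hx₃ : 1 < A.valuation x₃) (h12 : A.valuation (x₁ / y₁) ≤ A.valuation (x₂ / y₂))
    (hadd : Point.some x₁ y₁ h₁ + Point.some x₂ y₂ h₂ = Point.some x₃ y₃ h₃) :
    A.valuation (x₃ / y₃ - x₁ / y₁ - x₂ / y₂) < A.valuation (x₂ / y₂) := by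
  obtain ⟨ℓ, μ, e1, e2, e3, V1, V2, V3⟩ :=
    line2 W hyp.a₁ hyp.a₃ hyp.a₆ x₁ y₁ x₂ y₂ x₃ y₃ h₁ h₂ h₃ hadd
  have hx₁0 : x₁ ≠ 0 := ne_zero_of_one_lt hx₁
  have hx₂0 : x₂ ≠ 0 := ne_zero_of_one_lt hx₂
  have hx₃0 : x₃ ≠ 0 := ne_zero_of_one_lt hx₃
  have hy₁ : y₁ ≠ 0 := ne_zero_of_one_lt (one_lt_val_y2 hyp h₁ hx₁)
  have hy₂ : y₂ ≠ 0 := ne_zero_of_one_lt (one_lt_val_y2 hyp h₂ hx₂)
  have hy₃ : y₃ ≠ 0 := ne_zero_of_one_lt (one_lt_val_y2 hyp h₃ hx₃)
  have hμ : μ ≠ 0 := by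
    intro h0
    rw [h0] at V3
    have : x₁ * x₂ * x₃ ≠ 0 := mul_ne_zero (mul_ne_zero hx₁0 hx₂0) hx₃0
    exact this (by rw [V3]; ring)
  rw [key_identity2 _ _ _ _ _ _ _ _ _ _ e1 e2 e3 V1 V2 V3 hy₁ hy₂ hy₃ hμ]
  set z₁ := x₁ / y₁ with hz₁
  set z₂ := x₂ / y₂ with hz₂
  set z₃ := x₃ / y₃ with hz₃
  have hz₁1 : A.valuation z₁ < 1 := val_z_lt_one2 hyp h₁ hx₁
  have hz₂1 : A.valuation z₂ < 1 := val_z_lt_one2 hyp h₂ hx₂
  have hz₃1 : A.valuation z₃ < 1 := val_z_lt_one2 hyp h₃ hx₃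
  have hz₁0 : 0 < A.valuation z₁ := by
    rw [Valuation.pos_iff]; exact div_ne_zero hx₁0 hy₁
  have hz₂0 : 0 < A.valuation z₂ := by
    rw [Valuation.pos_iff]; exact div_ne_zero hx₂0 hy₂
  have hz₃0 : 0 < A.valuation z₃ := by
    rw [Valuation.pos_iff]; exact div_ne_zero hx₃0 hy₃
  have q₁ : A.valuation z₁ ^ 2 * A.valuation x₁ = 1 := val_z_sq_mul hyp h₁ hx₁
  have q₂ : A.valuation z₂ ^ 2 * A.valuation x₂ = 1 := val_z_sq_mul hyp h₂ hx₂
  have q₃ : A.valuation z₃ ^ 2 * A.valuation x₃ = 1 := val_z_sq_mul hyp h₃ hx₃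
  -- `|x₂| ≤ |x₁|`
  have hx21 : A.valuation x₂ ≤ A.valuation x₁ := by
    have h1 : A.valuation z₁ ^ 2 ≤ A.valuation z₂ ^ 2 := pow_le_pow_left₀ zero_le h12 2
    have h2 : A.valuation z₁ ^ 2 * A.valuation x₂ ≤ A.valuation z₁ ^ 2 * A.valuation x₁ := by
      calc A.valuation z₁ ^ 2 * A.valuation x₂ ≤ A.valuation z₂ ^ 2 * A.valuation x₂ := by
            gcongr
        _ = A.valuation z₁ ^ 2 * A.valuation x₁ := by rw [q₁, q₂]
    exact le_of_mul_le_mul_left h2 (pow_pos hz₁0 2)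
  have hμv : 0 < A.valuation μ := by
    rw [Valuation.pos_iff]; exact hμ
  have hM : A.valuation μ ^ 2 = A.valuation x₁ * A.valuation x₂ * A.valuation x₃ := by
    rw [← map_pow, ← V3, map_mul, map_mul]
  -- `|ℓ|² < |x₁| |x₃|`
  have hℓ13 : A.valuation ℓ ^ 2 < A.valuation x₁ * A.valuation x₃ := by
    have c1 : A.valuation x₁ < A.valuation x₁ * A.valuation x₃ := by
      calc A.valuation x₁ = A.valuation x₁ * 1 := (mul_one _).symm
        _ < A.valuation x₁ * A.valuation x₃ := by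
          have := lt_trans zero_lt_one hx₁
          gcongr
    have c3 : A.valuation x₃ < A.valuation x₁ * A.valuation x₃ := by
      calc A.valuation x₃ = 1 * A.valuation x₃ := (one_mul _).symm
        _ < A.valuation x₁ * A.valuation x₃ := by
          have := lt_trans zero_lt_one hx₃
          gcongr
    rcases le_or_gt (A.valuation ℓ) 1 with hl | hl
    · exact lt_of_le_of_lt (pow_le_one₀ zero_le hl) (lt_trans hx₁ c1)
    · have e : A.valuation (ℓ ^ 2 + ℓ) = A.valuation ℓ ^ 2 := by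
        rw [Valuation.map_add_eq_of_lt_left, map_pow]
        rw [map_pow]
        calc A.valuation ℓ = A.valuation ℓ ^ 1 := (pow_one _).symm
          _ < A.valuation ℓ ^ 2 := pow_lt_pow_right₀ hl (by norm_num)
      have e' : ℓ ^ 2 + ℓ = x₁ + x₂ + x₃ + W.a₂ := by linear_combination -V1
      rw [← e, e']
      refine lt_of_le_of_lt (Valuation.map_add_le_max' _ _ _) (max_lt ?_ ?_)
      · refine lt_of_le_of_lt (Valuation.map_add_le_max' _ _ _) (max_lt ?_ c3)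
        refine lt_of_le_of_lt (Valuation.map_add_le_max' _ _ _) (max_lt c1 ?_)
        exact lt_of_le_of_lt hx21 c1
      · exact lt_of_le_of_lt hyp.a_le (lt_trans hx₁ c1)
  -- `|ℓ| ≤ |μ|`
  have hℓμ : A.valuation ℓ ≤ A.valuation μ := by
    refine (pow_le_pow_iff_left₀ zero_le zero_le (by norm_num : (2 : ℕ) ≠ 0)).1 ?_
    rw [hM]
    refine hℓ13.le.trans ?_
    calc A.valuation x₁ * A.valuation x₃ = A.valuation x₁ * 1 * A.valuation x₃ := by
          rw [mul_one]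
      _ ≤ A.valuation x₁ * A.valuation x₂ * A.valuation x₃ := by
          gcongr
  -- `|2 b ℓ / μ - a| ≤ 1`
  have hR : A.valuation (2 * W.a₄ * ℓ / μ - W.a₂) ≤ 1 := by
    refine Valuation.map_sub_le _ ?_ hyp.a_le
    rw [map_div₀, map_mul, map_mul, div_le_one₀ hμv]
    calc A.valuation 2 * A.valuation W.a₄ * A.valuation ℓ ≤ 1 * 1 * A.valuation μ := by
          gcongr
          · exact hyp.two.le
          · exact hyp.b_lt.le
      _ = A.valuation μ := by rw [one_mul, one_mul]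
  -- `|ℓ z₁ z₃| < 1`
  have hℓz : A.valuation ℓ * A.valuation z₁ * A.valuation z₃ < 1 := by
    have h1 : (A.valuation ℓ * A.valuation z₁ * A.valuation z₃) ^ 2 < 1 ^ 2 := by
      rw [mul_pow, mul_pow, one_pow]
      calc A.valuation ℓ ^ 2 * A.valuation z₁ ^ 2 * A.valuation z₃ ^ 2
          < (A.valuation x₁ * A.valuation x₃) * A.valuation z₁ ^ 2 * A.valuation z₃ ^ 2 := by
            have := pow_pos hz₁0 2
            have := pow_pos hz₃0 2
            gcongr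
        _ = (A.valuation z₁ ^ 2 * A.valuation x₁) * (A.valuation z₃ ^ 2 * A.valuation x₃) := by
            ac_rfl
        _ = 1 := by rw [q₁, q₃, one_mul]
    exact lt_of_pow_lt_pow_left₀ 2 zero_le h1
  -- the three terms
  have t1 : A.valuation ((z₁ + z₂) * z₃) < A.valuation z₂ := by
    rw [map_mul]
    have : A.valuation (z₁ + z₂) ≤ A.valuation z₂ := Valuation.map_add_le _ h12 le_rfl
    calc A.valuation (z₁ + z₂) * A.valuation z₃ ≤ A.valuation z₂ * A.valuation z₃ := by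
          gcongr
      _ < A.valuation z₂ * 1 := by gcongr
      _ = A.valuation z₂ := mul_one _
  have t2 : A.valuation ((2 * W.a₄ * ℓ / μ - W.a₂) * (z₁ * z₂ * z₃)) < A.valuation z₂ := by
    rw [map_mul, map_mul, map_mul]
    calc A.valuation (2 * W.a₄ * ℓ / μ - W.a₂) *
          (A.valuation z₁ * A.valuation z₂ * A.valuation z₃)
        ≤ 1 * (A.valuation z₁ * A.valuation z₂ * A.valuation z₃) := by gcongr
      _ = A.valuation z₁ * A.valuation z₂ * A.valuation z₃ := one_mul _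
      _ < A.valuation z₂ := mul3_lt hz₁1 hz₂0 hz₃1.le
  have t3 : A.valuation (ℓ * (z₁ * z₂ * z₃)) < A.valuation z₂ := by
    rw [map_mul, map_mul, map_mul]
    calc A.valuation ℓ * (A.valuation z₁ * A.valuation z₂ * A.valuation z₃)
        = (A.valuation ℓ * A.valuation z₁ * A.valuation z₃) * A.valuation z₂ := by ac_rfl
      _ < 1 * A.valuation z₂ := by gcongr
      _ = A.valuation z₂ := one_mul _
  exact Valuation.map_sub_lt _ (Valuation.map_add_lt _ t1 t2) t3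

lemma val_natCast_le_one (A : ValuationSubring L) (k : ℕ) : A.valuation (k : L) ≤ 1 := by
  rw [ValuationSubring.valuation_le_one_iff]
  exact natCast_mem A k

/-- The induction behind F1: for `P ∈ E₁`, `P ≠ 0` and all `k`,
`k • P ∈ E₁` and `|z(k • P) - k z(P)| < |z(P)|`. -/
lemma nsmul_estimate2 [DecidableEq L]
    {A : ValuationSubring L} {W : Affine L} (hyp : ModelHyp2 A W) (P : W.Point)
    (hP : _root_.Fermat.Agent.S13.WP3.InE1 A P) (hP0 : P ≠ 0) (k : ℕ) :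
    _root_.Fermat.Agent.S13.WP3.InE1 A (k • P) ∧ A.valuation (zc2 (k • P) - (k : L) * zc2 P) < A.valuation (zc2 P) := by
  have hzP : zc2 P ≠ 0 := zc2_ne_zero hyp P hP hP0
  have hzPv : 0 < A.valuation (zc2 P) := by rw [Valuation.pos_iff]; exact hzP
  induction k with
  | zero =>
    refine ⟨by rw [zero_smul]; trivial, ?_⟩
    rw [zero_smul, zc2_zero, Nat.cast_zero, zero_mul, sub_zero, _root_.map_zero]
    exact hzPv
  | succ k ih =>
    obtain ⟨ihE, ihz⟩ := ih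
    have hE' : _root_.Fermat.Agent.S13.WP3.InE1 A ((k + 1) • P) := by
      rw [succ_nsmul]
      exact E1_add2 A W hyp _ _ ihE hP
    refine ⟨hE', ?_⟩
    -- `|z(k • P)| ≤ |z(P)|`
    have hle : A.valuation (zc2 (k • P)) ≤ A.valuation (zc2 P) := by
      have e : zc2 (k • P) = (zc2 (k • P) - (k : L) * zc2 P) + (k : L) * zc2 P := by ring
      rw [e]
      refine Valuation.map_add_le _ ihz.le ?_
      rw [map_mul]
      calc A.valuation (k : L) * A.valuation (zc2 P) ≤ 1 * A.valuation (zc2 P) := by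
            gcongr; exact val_natCast_le_one A k
        _ = A.valuation (zc2 P) := one_mul _
    rw [succ_nsmul] at hE' ⊢
    push_cast
    rcases hQ : k • P with _ | ⟨x₁, y₁, h₁⟩
    · -- `k • P = 0`
      rw [hQ] at ihz
      have e0 : (Point.zero : W.Point) + P = P := zero_add P
      rw [e0]
      have e1 : zc2 P - ((k : L) + 1) * zc2 P = zc2 (Point.zero : W.Point) - (k : L) * zc2 P := by
        show zc2 P - ((k : L) + 1) * zc2 P = 0 - (k : L) * zc2 P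
        ring
      rw [e1]
      exact ihz
    · rw [hQ] at ihz ihE hE' hle
      rcases hQ' : Point.some x₁ y₁ h₁ + P with _ | ⟨x₃, y₃, h₃⟩
      · -- `k • P + P = 0`
        have e0 : Point.some x₁ y₁ h₁ = -P := eq_neg_of_add_eq_zero_left hQ'
        rw [e0] at ihz
        have e1 : zc2 (Point.zero : W.Point) - ((k : L) + 1) * zc2 P =
            (zc2 (-P) - (k : L) * zc2 P) - (zc2 (-P) + zc2 P) := by
          show 0 - ((k : L) + 1) * zc2 P = _
          ring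
        rw [e1]
        exact Valuation.map_sub_lt _ ihz (val_zc2_neg_add hyp P hP hP0)
      · rw [hQ'] at hE'
        rcases P with _ | ⟨x₂, y₂, h₂⟩
        · exact absurd rfl hP0
        · have hz := key_estimate2 hyp h₁ h₂ h₃ ihE hP hE' hle hQ'
          simp only [zc2_some] at ihz hzPv hz ⊢
          have e1 : x₃ / y₃ - ((k : L) + 1) * (x₂ / y₂) =
              (x₁ / y₁ - (k : L) * (x₂ / y₂)) + (x₃ / y₃ - x₁ / y₁ - x₂ / y₂) := by
            ring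
          rw [e1]
          exact Valuation.map_add_lt _ ihz hz

/-- Piece (2B3) (F1): `E₁` has no `n`-torsion for `n` a unit of `A`. -/
theorem F1_2 [DecidableEq L] : Stmt2_F1 (L := L) := by
  intro A W hyp P hP hP0 n hn hnP
  obtain ⟨-, hz⟩ := nsmul_estimate2 hyp P hP hP0 n
  rw [hnP, zc2_zero, zero_sub, Valuation.map_neg, map_mul, hn, one_mul] at hz
  exact lt_irrefl _ hz

end Fermat.Agent.S13.WP3.H5

end
-- ==== END Fermat.Agent.S13.WP3.H5_E1

-- ==== BEGIN Fermat.Agent.S13.WP3.H6_E0Cases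
section

set_option autoImplicit false

namespace Fermat.Agent.S13.WP3.H6

open WeierstrassCurve WeierstrassCurve.Affine

variable {L : Type*} [Field L] {Γ₀ : Type*} [LinearOrderedCommGroupWithZero Γ₀]
  (v : Valuation L Γ₀)

/-- Line data: `x₁, x₂, x₃` are the abscissae of the intersection of the line
`y = ℓ x + μ` with `y² + x y = x³ + a x² + b x` (Vieta relations); symmetric in `x₁, x₂, x₃`. -/
structure LineData2 (a b x₁ x₂ x₃ ℓ μ : L) : Prop where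
  e₁ : x₁ + x₂ + x₃ = ℓ ^ 2 + ℓ - a
  e₂ : x₁ * x₂ + x₁ * x₃ + x₂ * x₃ = b - (2 * ℓ + 1) * μ
  e₃ : x₁ * x₂ * x₃ = μ ^ 2

namespace LineData2

variable {a b x₁ x₂ x₃ ℓ μ : L}

lemma swap₂₃ (h : LineData2 a b x₁ x₂ x₃ ℓ μ) : LineData2 a b x₁ x₃ x₂ ℓ μ :=
  ⟨by linear_combination h.e₁, by linear_combination h.e₂, by linear_combination h.e₃⟩

lemma swap₁₂ (h : LineData2 a b x₁ x₂ x₃ ℓ μ) : LineData2 a b x₂ x₁ x₃ ℓ μ :=
  ⟨by linear_combination h.e₁, by linear_combination h.e₂, by linear_combination h.e₃⟩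

end LineData2

section basic

variable {v}

lemma mul_lt_of_le_of_lt_one {a b c : Γ₀} (hc : 0 < c) (ha : a ≤ c) (hb : b < 1) : a * b < c := by
  rcases eq_or_ne a 0 with rfl | ha0
  · simpa using hc
  · calc a * b < a * 1 := by
          exact mul_lt_mul_of_pos_left hb (zero_lt_iff.2 ha0)
      _ = a := mul_one a
      _ ≤ c := ha

/-- If `v (b - c) = r` and `v b < r` then `v c = r`. -/
lemma val_eq_of_sub_of_lt {b c : L} {r : Γ₀} (h : v (b - c) = r) (hb : v b < r) : v c = r := by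
  have hc : c = b - (b - c) := by ring
  rw [hc, sub_eq_add_neg, add_comm]
  have : v b < v (-(b - c)) := by rw [Valuation.map_neg, h]; exact hb
  rw [Valuation.map_add_eq_of_lt_left v this, Valuation.map_neg, h]

lemma sq_lt_self_of_lt_one {a : Γ₀} (h0 : 0 < a) (h1 : a < 1) : a ^ 2 < a := by
  rw [sq]
  calc a * a < a * 1 := mul_lt_mul_of_pos_left h1 h0
    _ = a := mul_one a

lemma mul_lt_mul_of_lt_of_lt' {a b c d : Γ₀} (h1 : a < b) (h2 : c < d) : a * c < b * d := by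
  have hb : 0 < b := lt_of_le_of_lt zero_le h1
  calc a * c ≤ b * c := mul_le_mul_left h1.le c
    _ < b * d := mul_lt_mul_of_pos_left h2 hb

lemma val_pos_of_lt {x y : L} (h : v x < v y) : 0 < v y := lt_of_le_of_lt zero_le h

/-- `|ℓ| ≤ 1` as soon as `|ℓ² + ℓ| ≤ 1`. -/
lemma val_le_one_of_sq_add {ℓ : L} (h : v (ℓ ^ 2 + ℓ) ≤ 1) : v ℓ ≤ 1 := by
  by_contra hcon
  rw [not_le] at hcon
  have hpos : 0 < v ℓ := lt_trans zero_lt_one hcon
  have hlt : v ℓ < v (ℓ ^ 2) := by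
    rw [map_pow, sq]
    calc v ℓ = v ℓ * 1 := (mul_one _).symm
      _ < v ℓ * v ℓ := mul_lt_mul_of_pos_left hcon hpos
  rw [Valuation.map_add_eq_of_lt_left v hlt, map_pow] at h
  have : (1 : Γ₀) < v ℓ ^ 2 := by
    rw [sq]
    calc (1 : Γ₀) < v ℓ := hcon
      _ = v ℓ * 1 := (mul_one _).symm
      _ ≤ v ℓ * v ℓ := mul_le_mul_right hcon.le _
  exact absurd h (not_le.2 this)

/-- `|2ℓ + 1|² ≤ M` if `1 ≤ M`, `|ℓ² + ℓ| ≤ M` and `|2| ≤ 1`. -/
lemma val_two_mul_add_one_sq_le {ℓ : L} {M : Γ₀} (h2 : v 2 ≤ 1) (hM : 1 ≤ M)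
    (h : v (ℓ ^ 2 + ℓ) ≤ M) : v (2 * ℓ + 1) ^ 2 ≤ M := by
  rcases le_or_gt (v ℓ) 1 with hℓ | hℓ
  · have h1 : v (2 * ℓ + 1) ≤ 1 := by
      refine Valuation.map_add_le v ?_ (le_of_eq v.map_one)
      rw [map_mul]
      calc v 2 * v ℓ ≤ 1 * 1 := mul_le_mul' h2 hℓ
        _ = 1 := one_mul 1
    calc v (2 * ℓ + 1) ^ 2 ≤ 1 ^ 2 := pow_le_pow_left' h1 2
      _ = 1 := one_pow 2
      _ ≤ M := hM
  · have hpos : 0 < v ℓ := lt_trans zero_lt_one hℓ
    have hlt : v ℓ < v (ℓ ^ 2) := by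
      rw [map_pow, sq]
      calc v ℓ = v ℓ * 1 := (mul_one _).symm
        _ < v ℓ * v ℓ := mul_lt_mul_of_pos_left hℓ hpos
    rw [Valuation.map_add_eq_of_lt_left v hlt, map_pow] at h
    have h1 : v (2 * ℓ + 1) ≤ v ℓ := by
      refine Valuation.map_add_le v ?_ (by rw [v.map_one]; exact hℓ.le)
      rw [map_mul]
      calc v 2 * v ℓ ≤ 1 * v ℓ := mul_le_mul_left h2 _
        _ = v ℓ := one_mul _
    exact (pow_le_pow_left' h1 2).trans h

end basic

/-- Case 1: `E₀ + E₀ ⊆ E₀`. -/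
theorem one_le_of_one_le {a b x₁ x₂ x₃ ℓ μ : L} (ha : v a ≤ 1) (hb : v b < 1) (h2 : v 2 ≤ 1)
    (hl : LineData2 a b x₁ x₂ x₃ ℓ μ) (h₁ : 1 ≤ v x₁) (h₂ : 1 ≤ v x₂) : 1 ≤ v x₃ := by
  by_contra h₃
  rw [not_le] at h₃
  have h12 : 1 ≤ v (x₁ * x₂) := by
    rw [map_mul]; exact one_le_mul_of_one_le_of_one_le h₁ h₂
  have h12pos : 0 < v (x₁ * x₂) := lt_of_lt_of_le zero_lt_one h12
  have hx1 : v x₁ ≤ v (x₁ * x₂) := by
    rw [map_mul]; exact le_mul_of_one_le_right' h₂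
  have hx2 : v x₂ ≤ v (x₁ * x₂) := by
    rw [map_mul]; exact le_mul_of_one_le_left' h₁
  have hsum : v (x₁ + x₂) ≤ v (x₁ * x₂) :=
    (v.map_add_le_max' _ _).trans (max_le hx1 hx2)
  have hsmall : v ((x₁ + x₂) * x₃) < v (x₁ * x₂) := by
    rw [map_mul]; exact mul_lt_of_le_of_lt_one h12pos hsum h₃
  have he₂ : v (b - (2 * ℓ + 1) * μ) = v (x₁ * x₂) := by
    rw [← hl.e₂]
    have : x₁ * x₂ + x₁ * x₃ + x₂ * x₃ = x₁ * x₂ + (x₁ + x₂) * x₃ := by ring
    rw [this]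
    exact Valuation.map_add_eq_of_lt_left v hsmall
  have hlm : v ((2 * ℓ + 1) * μ) = v (x₁ * x₂) :=
    val_eq_of_sub_of_lt he₂ (lt_of_lt_of_le hb h12)
  have hμ : v μ ^ 2 < v (x₁ * x₂) := by
    rw [← map_pow, ← hl.e₃, map_mul]
    exact mul_lt_of_le_of_lt_one h12pos le_rfl h₃
  have hℓ : v (2 * ℓ + 1) ^ 2 ≤ v (x₁ * x₂) := by
    refine val_two_mul_add_one_sq_le h2 h12 ?_
    have : ℓ ^ 2 + ℓ = x₁ + x₂ + x₃ + a := by linear_combination -hl.e₁
    rw [this]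
    refine (v.map_add_le_max' _ _).trans (max_le ?_ (ha.trans h12))
    refine (v.map_add_le_max' _ _).trans (max_le hsum (h₃.le.trans h12))
  have hsq : (v ((2 * ℓ + 1) * μ)) ^ 2 < v (x₁ * x₂) ^ 2 := by
    rw [map_mul, mul_pow, sq (v (x₁ * x₂))]
    calc v (2 * ℓ + 1) ^ 2 * v μ ^ 2 ≤ v (x₁ * x₂) * v μ ^ 2 := mul_le_mul_left hℓ _
      _ < v (x₁ * x₂) * v (x₁ * x₂) := mul_lt_mul_of_pos_left hμ h12pos
  rw [hlm] at hsq
  exact lt_irrefl _ hsq

/-- Lower bound: if `1 ≤ |x₁|` and `|b| < |x₂|` then `|b| < |x₃|`. -/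
theorem lt_of_one_le_of_lt {a b x₁ x₂ x₃ ℓ μ : L} (ha : v a ≤ 1) (hb : v b < 1) (h2 : v 2 ≤ 1)
    (hl : LineData2 a b x₁ x₂ x₃ ℓ μ) (h₁ : 1 ≤ v x₁) (h₂ : v b < v x₂) : v b < v x₃ := by
  by_contra h₃
  rw [not_lt] at h₃
  have hx1pos : 0 < v x₁ := lt_of_lt_of_le zero_lt_one h₁
  have hx2pos : 0 < v x₂ := val_pos_of_lt h₂
  have h12pos : 0 < v (x₁ * x₂) := by rw [map_mul]; exact mul_pos hx1pos hx2pos
  have hb12 : v b < v (x₁ * x₂) := by
    rw [map_mul]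
    calc v b < v x₂ := h₂
      _ = 1 * v x₂ := (one_mul _).symm
      _ ≤ v x₁ * v x₂ := mul_le_mul_left h₁ _
  have h13 : v (x₁ * x₃) < v (x₁ * x₂) := by
    rw [map_mul, map_mul]
    exact mul_lt_mul_of_pos_left (lt_of_le_of_lt h₃ h₂) hx1pos
  have h23 : v (x₂ * x₃) < v (x₁ * x₂) := by
    rw [map_mul, map_mul, mul_comm (v x₁)]
    exact mul_lt_mul_of_pos_left (lt_of_le_of_lt h₃ (lt_of_lt_of_le hb h₁)) hx2pos
  have he₂ : v (b - (2 * ℓ + 1) * μ) = v (x₁ * x₂) := by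
    rw [← hl.e₂, add_assoc]
    exact Valuation.map_add_eq_of_lt_left v (Valuation.map_add_lt v h13 h23)
  have hlm : v ((2 * ℓ + 1) * μ) = v (x₁ * x₂) := val_eq_of_sub_of_lt he₂ hb12
  -- `|x₁x₂| = |2ℓ+1|² |x₃|`
  have hkey : v (x₁ * x₂) = v (2 * ℓ + 1) ^ 2 * v x₃ := by
    have h1 : v (x₁ * x₂) * v (x₁ * x₂) = v (2 * ℓ + 1) ^ 2 * v x₃ * v (x₁ * x₂) := by
      calc v (x₁ * x₂) * v (x₁ * x₂) = v (((2 * ℓ + 1) * μ) ^ 2) := by rw [map_pow, hlm, sq]
        _ = v ((2 * ℓ + 1) ^ 2 * (x₁ * x₂ * x₃)) := by rw [hl.e₃]; ring_nf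
        _ = v (2 * ℓ + 1) ^ 2 * v x₃ * v (x₁ * x₂) := by
            rw [map_mul, map_mul v (x₁ * x₂), map_pow, mul_assoc, mul_comm (v x₃)]
    exact (mul_left_inj' h12pos.ne').mp h1
  have hℓ : v (2 * ℓ + 1) ^ 2 ≤ max (v x₁) (v x₂) := by
    refine val_two_mul_add_one_sq_le h2 (le_max_of_le_left h₁) ?_
    have : ℓ ^ 2 + ℓ = x₁ + x₂ + x₃ + a := by linear_combination -hl.e₁
    rw [this]
    refine Valuation.map_add_le v (Valuation.map_add_le v ?_ ?_) ?_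
    · exact (v.map_add_le_max' _ _)
    · exact le_max_of_le_left ((h₃.trans hb.le).trans h₁)
    · exact le_max_of_le_left (ha.trans h₁)
  rcases le_total (v x₂) (v x₁) with h | h
  · rw [max_eq_left h] at hℓ
    have : v x₁ * v x₂ ≤ v x₁ * v b := by
      rw [← map_mul, hkey]
      exact mul_le_mul' hℓ h₃
    have := le_of_mul_le_mul_left this hx1pos
    exact absurd h₂ (not_lt.2 this)
  · rw [max_eq_right h] at hℓ
    have : v x₁ * v x₂ ≤ v b * v x₂ := by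
      rw [← map_mul, hkey, mul_comm (v b)]
      exact mul_le_mul' hℓ h₃
    have := le_of_mul_le_mul_right this hx2pos
    exact absurd (lt_of_lt_of_le hb h₁) (not_lt.2 this)

/-- Case 2 (branch and size): if `P₁ ∈ E₀`, `P₂ ∈ C(λ)` and `P₃' = -(P₁ + P₂) = (x₃, y₃)` lies in
the annulus, then `P₃'` is on the branch `-1-λ` and `|x₃| = |x₂|`. -/
theorem branch_of_one_le {a b lam x₁ x₂ x₃ y₂ y₃ ℓ μ : L} (ha : v a ≤ 1)
    (h2 : v 2 < 1) (hlam : lam ^ 2 + lam = a)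
    (hl : LineData2 a b x₁ x₂ x₃ ℓ μ) (hy₂ : y₂ = ℓ * x₂ + μ) (hy₃ : y₃ = ℓ * x₃ + μ)
    (heq₃ : y₃ ^ 2 + x₃ * y₃ = x₃ ^ 3 + a * x₃ ^ 2 + b * x₃)
    (h₁ : 1 ≤ v x₁) (h₂ : v b < v x₂) (h₂' : v x₂ < 1) (h₃ : v b < v x₃) (h₃' : v x₃ < 1)
    (hbr : v (y₂ - lam * x₂) < v x₂) :
    v (y₃ + (1 + lam) * x₃) < v x₃ ∧ v x₃ = v x₂ := by
  have hx1pos : 0 < v x₁ := lt_of_lt_of_le zero_lt_one h₁
  have hx2pos : 0 < v x₂ := val_pos_of_lt h₂
  have hx3pos : 0 < v x₃ := val_pos_of_lt h₃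
  have h23pos : 0 < v (x₂ * x₃) := by rw [map_mul]; exact mul_pos hx2pos hx3pos
  have hvlam : v lam ≤ 1 := val_le_one_of_sq_add (by rw [hlam]; exact ha)
  have h2β : v (1 + 2 * lam) = 1 := by
    have h2l : v (2 * lam) < v (1 : L) := by
      rw [map_mul, v.map_one]
      calc v 2 * v lam ≤ v 2 * 1 := mul_le_mul_right hvlam _
        _ = v 2 := mul_one _
        _ < 1 := h2
    rw [Valuation.map_add_eq_of_lt_left v h2l, v.map_one]
  -- the product of the two branch functions is small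
  have hprod : v (y₃ + (1 + lam) * x₃) * v (y₃ - lam * x₃) < v x₃ * v x₃ := by
    have : (y₃ + (1 + lam) * x₃) * (y₃ - lam * x₃) = x₃ * (x₃ ^ 2 + b) := by
      linear_combination heq₃ - x₃ ^ 2 * hlam
    rw [← map_mul, this, map_mul]
    refine mul_lt_mul_of_pos_left ?_ hx3pos
    refine Valuation.map_add_lt v ?_ h₃
    rw [map_pow]; exact sq_lt_self_of_lt_one hx3pos h₃'
  -- relations (R+) and (R-)
  have Rp : μ * ((y₂ - lam * x₂) * x₃ + (y₃ + (1 + lam) * x₃) * x₂) =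
      (b - x₂ * x₃) * (x₂ * x₃) := by
    rw [hy₂, hy₃]
    linear_combination (x₂ * x₃) * hl.e₂ - (x₂ + x₃) * hl.e₃
  have Rm : y₂ * x₃ - y₃ * x₂ = μ * (x₃ - x₂) := by
    rw [hy₂, hy₃]; ring
  have hμ : v μ ^ 2 = v x₁ * v (x₂ * x₃) := by
    rw [← map_pow, ← hl.e₃, mul_assoc, map_mul]
  have hux : v ((y₂ - lam * x₂) * x₃) < v (x₂ * x₃) := by
    rw [map_mul, map_mul]
    exact mul_lt_mul_of_pos_right hbr hx3pos
  have hw : v (y₃ + (1 + lam) * x₃) < v x₃ := by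
    by_contra hcon
    rw [not_lt] at hcon
    have hw' : v (y₃ - lam * x₃) < v x₃ := by
      by_contra hcon'
      rw [not_lt] at hcon'
      exact absurd hprod (not_lt.2 (mul_le_mul' hcon hcon'))
    have hweq : v (y₃ + (1 + lam) * x₃) = v x₃ := by
      have : y₃ + (1 + lam) * x₃ = (1 + 2 * lam) * x₃ + (y₃ - lam * x₃) := by ring
      rw [this]
      have h2 : v (y₃ - lam * x₃) < v ((1 + 2 * lam) * x₃) := by
        rw [map_mul, h2β, one_mul]; exact hw'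
      rw [Valuation.map_add_eq_of_lt_left v h2, map_mul, h2β, one_mul]
    have hsum : v ((y₂ - lam * x₂) * x₃ + (y₃ + (1 + lam) * x₃) * x₂) = v (x₂ * x₃) := by
      have h2 : v ((y₂ - lam * x₂) * x₃) < v ((y₃ + (1 + lam) * x₃) * x₂) := by
        rw [map_mul v (y₃ + (1 + lam) * x₃), hweq, mul_comm (v x₃), ← map_mul]; exact hux
      rw [Valuation.map_add_eq_of_lt_right v h2, map_mul, hweq, mul_comm, ← map_mul]
    have hμeq : v μ = v (b - x₂ * x₃) := by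
      have := congrArg v Rp
      rw [map_mul, hsum, map_mul v (b - x₂ * x₃)] at this
      exact (mul_left_inj' h23pos.ne').mp this
    have hlt : v (b - x₂ * x₃) ^ 2 < v (x₂ * x₃) := by
      rcases le_total (v b) (v (x₂ * x₃)) with hle | hle
      · have h1 : v (b - x₂ * x₃) ≤ v (x₂ * x₃) := Valuation.map_sub_le v hle le_rfl
        have h23lt : v (x₂ * x₃) < 1 := by
          rw [map_mul]
          calc v x₂ * v x₃ < 1 * 1 := mul_lt_mul_of_lt_of_lt' h₂' h₃'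
            _ = 1 := one_mul 1
        exact lt_of_le_of_lt (pow_le_pow_left' h1 2) (sq_lt_self_of_lt_one h23pos h23lt)
      · have h1 : v (b - x₂ * x₃) ≤ v b := Valuation.map_sub_le v le_rfl hle
        refine lt_of_le_of_lt (pow_le_pow_left' h1 2) ?_
        rw [sq, map_mul]
        exact mul_lt_mul_of_lt_of_lt' h₂ h₃
    have hge : v (x₂ * x₃) ≤ v μ ^ 2 := by
      rw [hμ]
      calc v (x₂ * x₃) = 1 * v (x₂ * x₃) := (one_mul _).symm
        _ ≤ v x₁ * v (x₂ * x₃) := mul_le_mul_left h₁ _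
    rw [hμeq] at hge
    exact absurd hlt (not_lt.2 hge)
  refine ⟨hw, ?_⟩
  -- size
  have hwx : v ((y₃ + (1 + lam) * x₃) * x₂) < v (x₂ * x₃) := by
    rw [map_mul, map_mul, mul_comm (v x₂)]
    exact mul_lt_mul_of_pos_right hw hx2pos
  have hdiff : v (y₂ * x₃ - y₃ * x₂) = v (x₂ * x₃) := by
    have : y₂ * x₃ - y₃ * x₂ =
        (1 + 2 * lam) * (x₂ * x₃) +
          ((y₂ - lam * x₂) * x₃ - (y₃ + (1 + lam) * x₃) * x₂) := by ring
    rw [this]
    have h2 : v ((y₂ - lam * x₂) * x₃ - (y₃ + (1 + lam) * x₃) * x₂) <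
        v ((1 + 2 * lam) * (x₂ * x₃)) := by
      rw [map_mul v (1 + 2 * lam), h2β, one_mul]
      exact Valuation.map_sub_lt v hux hwx
    rw [Valuation.map_add_eq_of_lt_left v h2, map_mul v (1 + 2 * lam), h2β, one_mul]
  have hμd : v μ * v (x₃ - x₂) = v (x₂ * x₃) := by
    rw [← map_mul, ← Rm, hdiff]
  have hsq : v x₁ * v (x₃ - x₂) ^ 2 = v x₂ * v x₃ := by
    have h1 : v x₁ * v (x₃ - x₂) ^ 2 * v (x₂ * x₃) = v x₂ * v x₃ * v (x₂ * x₃) := by
      calc v x₁ * v (x₃ - x₂) ^ 2 * v (x₂ * x₃)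
          = v μ ^ 2 * v (x₃ - x₂) ^ 2 := by
            rw [hμ, mul_assoc, mul_assoc, mul_comm (v (x₃ - x₂) ^ 2)]
        _ = (v μ * v (x₃ - x₂)) ^ 2 := by rw [mul_pow]
        _ = v x₂ * v x₃ * v (x₂ * x₃) := by rw [hμd, sq, map_mul]
    exact (mul_left_inj' h23pos.ne').mp h1
  by_contra hne
  rcases lt_or_gt_of_ne hne with hlt | hgt
  · -- |x₃| < |x₂|
    rw [Valuation.map_sub_eq_of_lt_right v hlt, sq, ← mul_assoc] at hsq
    have h3 : v x₁ * v x₂ = v x₃ :=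
      (mul_left_inj' hx2pos.ne').mp (hsq.trans (mul_comm _ _))
    have : v x₂ ≤ v x₃ := by
      rw [← h3]
      calc v x₂ = 1 * v x₂ := (one_mul _).symm
        _ ≤ v x₁ * v x₂ := mul_le_mul_left h₁ _
    exact absurd hlt (not_lt.2 this)
  · -- |x₂| < |x₃|
    rw [Valuation.map_sub_eq_of_lt_left v hgt, sq, ← mul_assoc] at hsq
    have h3 : v x₁ * v x₃ = v x₂ := (mul_left_inj' hx3pos.ne').mp hsq
    have : v x₃ ≤ v x₂ := by
      rw [← h3]
      calc v x₃ = 1 * v x₃ := (one_mul _).symm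
        _ ≤ v x₁ * v x₃ := mul_le_mul_left h₁ _
    exact absurd hgt (not_lt.2 this)

section points

variable {L : Type*} [Field L]

lemma equation_iff2 {W : Affine L} (h₁ : W.a₁ = 1) (h₃ : W.a₃ = 0) (h₆ : W.a₆ = 0)
    (x y : L) : W.Equation x y ↔ y ^ 2 + x * y = x ^ 3 + W.a₂ * x ^ 2 + W.a₄ * x := by
  rw [Affine.equation_iff, h₁, h₃, h₆]
  constructor <;> intro h <;> linear_combination h

lemma negY2 {W : Affine L} (h₁ : W.a₁ = 1) (h₃ : W.a₃ = 0) (x y : L) :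
    W.negY x y = -y - x := by
  simp [Affine.negY, h₁, h₃]

variable [DecidableEq L]

/-- (2A) line data for the model `y² + x y = x³ + a x² + b x`. -/
theorem line2 : Stmt2_line (L := L) := by
  intro W h₁ h₃ h₆ x₁ y₁ x₂ y₂ x₃ y₃ hP₁ hP₂ hP₃ hadd
  have e₁ := (equation_iff2 h₁ h₃ h₆ x₁ y₁).1 hP₁.1
  have e₂ := (equation_iff2 h₁ h₃ h₆ x₂ y₂).1 hP₂.1
  by_cases hxy : x₁ = x₂ ∧ y₁ = W.negY x₂ y₂
  · rw [Point.add_of_Y_eq hxy.1 hxy.2] at hadd
    exact absurd hadd.symm (Point.some_ne_zero hP₃)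
  rw [Point.add_some hxy] at hadd
  have hx₃ : W.addX x₁ x₂ (W.slope x₁ x₂ y₁ y₂) = x₃ := by
    injection hadd
  have hy₃ : W.addY x₁ x₂ y₁ (W.slope x₁ x₂ y₁ y₂) = y₃ := by
    injection hadd
  obtain ⟨ℓ, hℓ⟩ : ∃ ℓ, ℓ = W.slope x₁ x₂ y₁ y₂ := ⟨_, rfl⟩
  rw [← hℓ] at hx₃ hy₃
  simp only [addX, h₁] at hx₃
  simp only [addY, negAddY, addX, negY2 h₁ h₃, h₁] at hy₃
  have key : x₁ ^ 2 + x₁ * x₂ + x₂ ^ 2 + (W.a₂ - ℓ ^ 2 - ℓ) * (x₁ + x₂) + W.a₄
      - (2 * ℓ + 1) * (y₁ - ℓ * x₁) = 0 ∧ y₂ = ℓ * x₂ + (y₁ - ℓ * x₁) := by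
    by_cases hx : x₁ = x₂
    · have hy : y₁ ≠ W.negY x₂ y₂ := fun h => hxy ⟨hx, h⟩
      have hyy := Y_eq_of_Y_ne hP₁.1 hP₂.1 hx hy
      subst hx; subst hyy
      have hd : y₁ - W.negY x₁ y₁ ≠ 0 := sub_ne_zero.2 hy
      have hℓ' : ℓ * (y₁ - W.negY x₁ y₁) = 3 * x₁ ^ 2 + 2 * W.a₂ * x₁ + W.a₄ - W.a₁ * y₁ := by
        rw [hℓ, slope_of_Y_ne rfl hy, div_mul_cancel₀ _ hd]
      rw [negY2 h₁ h₃, h₁] at hℓ'
      refine ⟨?_, by ring⟩
      linear_combination (-1 : L) * hℓ'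
    · have hd : x₁ - x₂ ≠ 0 := sub_ne_zero.2 hx
      have hℓ' : ℓ * (x₁ - x₂) = y₁ - y₂ := by
        rw [hℓ, slope_of_X_ne hx, div_mul_cancel₀ _ hd]
      refine ⟨?_, by linear_combination hℓ'⟩
      apply mul_left_cancel₀ hd
      linear_combination (-1 : L) * e₁ + e₂ + (ℓ * (x₁ - x₂) - y₁ - y₂ - x₂) * hℓ'
  obtain ⟨key, hy₂⟩ := key
  refine ⟨ℓ, y₁ - ℓ * x₁, by ring, hy₂, ?_, ?_, ?_, ?_⟩
  · rw [← hy₃, ← hx₃]; ring
  · rw [← hx₃]; ring
  · rw [← hx₃]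
    linear_combination (-1 : L) * key
  · rw [← hx₃]
    linear_combination (-1 : L) * e₁ - x₁ * key

/-- (2D0) `Stmt2_E0_add`: `E₀` is closed under addition. -/
theorem E0_add : Stmt2_E0_add (L := L) := by
  intro A W hyp P Q hP hQ
  rcases P with _ | ⟨x₁, y₁, h₁⟩
  · rw [← Point.zero_def, zero_add]; exact hQ
  rcases Q with _ | ⟨x₂, y₂, h₂⟩
  · rw [← Point.zero_def, add_zero]; exact hP
  generalize hR : Point.some x₁ y₁ h₁ + Point.some x₂ y₂ h₂ = R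
  rcases R with _ | ⟨x₃, y₃, h₃⟩
  · trivial
  obtain ⟨ℓ, μ, -, -, -, e₁, e₂, e₃⟩ :=
    line2 W hyp.a₁ hyp.a₃ hyp.a₆ x₁ y₁ x₂ y₂ x₃ y₃ h₁ h₂ h₃ hR
  exact one_le_of_one_le A.valuation hyp.a_le hyp.b_lt hyp.two.le ⟨e₁, e₂, e₃⟩ hP hQ

omit [DecidableEq L] in
/-- `E₀` is closed under negation. -/
theorem E0_neg (A : ValuationSubring L) (W : Affine L) (P : W.Point) (hP : InE0 A P) :
    InE0 A (-P) := by
  rcases P with _ | ⟨x, y, h⟩
  · exact hP
  · exact hP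

/-- (2D2) `Stmt2_E0C`: `E₀ + C(λ) ⊆ C(λ)`, preserving `|x|`. -/
theorem E0C : Stmt2_E0C (L := L) := by
  intro A W hyp lam hlam P Q hP hQ
  rcases P with _ | ⟨x₁, y₁, h₁⟩
  · rw [← Point.zero_def, zero_add]; exact ⟨hQ, rfl⟩
  rcases Q with _ | ⟨x₂, y₂, h₂⟩
  · exact absurd hQ id
  obtain ⟨hQ1, hQ2, hQ3⟩ := hQ
  have hP' : 1 ≤ A.valuation x₁ := hP
  generalize hR : Point.some x₁ y₁ h₁ + Point.some x₂ y₂ h₂ = R
  rcases R with _ | ⟨x₃, y₃, h₃⟩
  · exfalso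
    rw [← Point.zero_def] at hR
    have h := eq_neg_of_add_eq_zero_left hR
    rw [Point.neg_some] at h
    have hx : x₁ = x₂ := by injection h
    rw [hx] at hP'
    exact absurd hQ2 (not_lt.2 hP')
  obtain ⟨ℓ, μ, -, hy₂, hy₃, e₁, e₂, e₃⟩ :=
    line2 W hyp.a₁ hyp.a₃ hyp.a₆ x₁ y₁ x₂ y₂ x₃ y₃ h₁ h₂ h₃ hR
  have hl : LineData2 W.a₂ W.a₄ x₁ x₂ x₃ ℓ μ := ⟨e₁, e₂, e₃⟩
  have hlt1 : A.valuation x₃ < 1 := by
    by_contra hcon
    rw [not_lt] at hcon
    have := one_le_of_one_le A.valuation hyp.a_le hyp.b_lt hyp.two.le hl.swap₂₃ hP' hcon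
    exact absurd hQ2 (not_lt.2 this)
  have hltb : A.valuation W.a₄ < A.valuation x₃ :=
    lt_of_one_le_of_lt A.valuation hyp.a_le hyp.b_lt hyp.two.le hl hP' hQ1
  have heq₃ : (-y₃ - x₃) ^ 2 + x₃ * (-y₃ - x₃) = x₃ ^ 3 + W.a₂ * x₃ ^ 2 + W.a₄ * x₃ := by
    have := (equation_iff2 hyp.a₁ hyp.a₃ hyp.a₆ x₃ y₃).1 h₃.1
    linear_combination this
  obtain ⟨hbr, hsz⟩ := branch_of_one_le A.valuation hyp.a_le hyp.two hlam hl hy₂ hy₃
    heq₃ hP' hQ1 hQ2 hltb hlt1 hQ3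
  refine ⟨⟨hltb, hlt1, ?_⟩, hsz⟩
  have : y₃ - lam * x₃ = -(-y₃ - x₃ + (1 + lam) * x₃) := by ring
  rw [this, Valuation.map_neg]
  exact hbr

end points

end Fermat.Agent.S13.WP3.H6

end
-- ==== END Fermat.Agent.S13.WP3.H6_E0Cases
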