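-- GENERATED (merged mirror, NOTES/tools/trim/merge3_helper67.py): 6 modules of the originals, bodies verbatim.
import Fermat.Agent.Zm.S44_L02_002
import Fermat.Agent.Zm.S44_L01_002
import Fermat.Agent.Zm.S44_L02_003
import Fermat.Agent.Zm.S35_L03_002
import Fermat.Agent.Zm.S35_L13_002

-- ==== BEGIN Fermat.Agent.S13.WP3.I4
section

set_option autoImplicit false

namespace Fermat.Agent.S13.WP3

open WeierstrassCurve WeierstrassCurve.Affine WeierstrassCurve.Affine.Point

/-- `E₀` is stable under negation (same `x`-coordinate). -/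
lemma inE0_neg {L : Type*} [Field L] [DecidableEq L] (A : ValuationSubring L) {W : Affine L}
    (P : W.Point) (h : InE0 A P) : InE0 A (-P) := by
  rcases P with _ | ⟨x, y, hns⟩
  · exact h
  · exact h

/-- The additive subgroup `E[p] ∩ E₀` of `E[p]`. -/
noncomputable def e0AddSubgroup (P : FreyPackage) (A : ValuationSubring Qbar)
    (hE0 : Stmt2_E0_add (L := Qbar)) (hyp : ModelHyp2 A (P.freyCurve⁄Qbar)) :
    AddSubgroup (Vp P) where
  carrier := {x | InE0 A (x : (P.freyCurve⁄Qbar).Point)}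
  zero_mem' := trivial
  add_mem' := fun ha hb => hE0 A _ hyp _ _ ha hb
  neg_mem' := fun ha => inE0_neg A _ ha

/-- (I4) from the core statement. -/
theorem two_unipotent_of (hcore : Stmt2_coreI4) (har : Stmt2_arith)
    (hin : Fermat.Agent.S05.Stmt_inertia) (hE0 : Stmt2_E0_add (L := Qbar)) :
    Fermat.Agent.S13.Stmt_two_unipotent := by
  intro P A hA
  obtain ⟨hyp, hp1, -⟩ := har P A hA
  refine ⟨AddSubgroup.toZModSubmodule P.p (e0AddSubgroup P A hE0 hyp), ?_, ?_⟩
  · intro σ hσ x hx
    obtain ⟨hval, hres⟩ := hin A σ hσ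
    have hx0 : InE0 A (x : (P.freyCurve⁄Qbar).Point) := hx
    have hxt : (P.p : ℤ) • (x : (P.freyCurve⁄Qbar).Point) = 0 := by
      have := x.2
      rwa [Submodule.mem_torsionBy_iff] at this
    exact Subtype.ext ((hcore ℚ Qbar A P.freyCurve hyp P.p hp1 σ hval hres x.1 hxt).2 hx0)
  · intro σ hσ x
    obtain ⟨hval, hres⟩ := hin A σ hσ
    have hxt : (P.p : ℤ) • (x : (P.freyCurve⁄Qbar).Point) = 0 := by
      have := x.2
      rwa [Submodule.mem_torsionBy_iff] at this
    exact (hcore ℚ Qbar A P.freyCurve hyp P.p hp1 σ hval hres x.1 hxt).1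

end Fermat.Agent.S13.WP3

end
-- ==== END Fermat.Agent.S13.WP3.I4

-- ==== BEGIN Fermat.Agent.S13.WP3.M1
section

set_option autoImplicit false

namespace Fermat.Agent.S13.WP3.M1

open WeierstrassCurve WeierstrassCurve.Affine

variable {L : Type*} [Field L]

section quot

variable {A : ValuationSubring L} {W : Affine L} (hyp : ModelHyp2 A W)

/-- The class of a unit of the value group in the component group, written additively. -/
noncomputable def cls (u : (A.ValueGroup)ˣ) : Additive (CompGroup hyp) :=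
  Additive.ofMul (QuotientGroup.mk u)

lemma cls_mul (u w : (A.ValueGroup)ˣ) : cls hyp (u * w) = cls hyp u + cls hyp w := rfl

lemma cls_inv (u : (A.ValueGroup)ˣ) : cls hyp u⁻¹ = - cls hyp u := rfl

lemma cls_one : cls hyp 1 = 0 := rfl

lemma cls_eq_zero_iff (u : (A.ValueGroup)ˣ) :
    cls hyp u = 0 ↔ u ∈ Subgroup.zpowers (bUnit hyp ^ 2) :=
  QuotientGroup.eq_one_iff u

lemma cls_b_add_cls_b : cls hyp (bUnit hyp) + cls hyp (bUnit hyp) = 0 := by
  rw [← cls_mul, cls_eq_zero_iff, ← sq]
  exact Subgroup.mem_zpowers _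

lemma neg_cls_b : - cls hyp (bUnit hyp) = cls hyp (bUnit hyp) :=
  neg_eq_of_add_eq_zero_left (cls_b_add_cls_b hyp)

lemma val_bUnit : ((bUnit hyp : (A.ValueGroup)ˣ) : A.ValueGroup) = A.valuation W.a₄ := rfl

lemma val_valUnit (x : L) (hx : x ≠ 0) :
    ((valUnit A x hx : (A.ValueGroup)ˣ) : A.ValueGroup) = A.valuation x := rfl

/-- An element of `⟨|b|²⟩` is `≥ 1` or `≤ |b|²`. -/
lemma mem_zpowers_cases {u : (A.ValueGroup)ˣ}
    (hu : u ∈ Subgroup.zpowers (bUnit hyp ^ 2)) :
    (1 : A.ValueGroup) ≤ u ∨ (u : A.ValueGroup) ≤ A.valuation W.a₄ ^ 2 := by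
  have hb := hyp.b_lt
  obtain ⟨k, rfl⟩ := Subgroup.mem_zpowers_iff.1 hu
  have hb0 : (0 : A.ValueGroup) < A.valuation W.a₄ ^ 2 :=
    pow_pos (zero_lt_iff.2 (by simpa using hyp.b_ne)) 2
  have hb1 : A.valuation W.a₄ ^ 2 ≤ 1 := pow_le_one₀ zero_le hb.le
  have hval : (((bUnit hyp ^ 2) ^ k : (A.ValueGroup)ˣ) : A.ValueGroup) =
      (A.valuation W.a₄ ^ 2) ^ k := by
    rw [Units.val_zpow_eq_zpow_val, Units.val_pow_eq_pow_val, val_bUnit]
  rw [hval]
  rcases le_or_gt k 0 with hk | hk
  · exact Or.inl (one_le_zpow_of_nonpos₀ hb0 hb1 hk)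
  · right
    obtain ⟨n, rfl⟩ : ∃ n : ℕ, k = n + 1 := ⟨(k - 1).toNat, by omega⟩
    rw [zpow_add_one₀ hb0.ne', zpow_natCast]
    calc (A.valuation W.a₄ ^ 2) ^ n * A.valuation W.a₄ ^ 2
        ≤ 1 * A.valuation W.a₄ ^ 2 := by
          gcongr
          exact pow_le_one₀ zero_le hb1
      _ = A.valuation W.a₄ ^ 2 := one_mul _

include hyp in
lemma b_sq_lt_b : A.valuation W.a₄ ^ 2 < A.valuation W.a₄ := by
  have hb := hyp.b_lt
  have hb0 : (0 : A.ValueGroup) < A.valuation W.a₄ := zero_lt_iff.2 (by simpa using hyp.b_ne)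
  calc A.valuation W.a₄ ^ 2 = A.valuation W.a₄ * A.valuation W.a₄ := sq _
    _ < A.valuation W.a₄ * 1 := by gcongr
    _ = A.valuation W.a₄ := mul_one _

lemma cls_b_ne_zero : cls hyp (bUnit hyp) ≠ 0 := by
  intro h
  rcases mem_zpowers_cases hyp ((cls_eq_zero_iff hyp _).1 h) with h1 | h1
  · rw [val_bUnit] at h1; exact absurd hyp.b_lt (not_lt.2 h1)
  · rw [val_bUnit] at h1; exact absurd (b_sq_lt_b hyp) (not_lt.2 h1)

lemma cls_ne_zero_of_mid {u : (A.ValueGroup)ˣ}
    (h1 : A.valuation W.a₄ < (u : A.ValueGroup)) (h2 : (u : A.ValueGroup) < 1) :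
    cls hyp u ≠ 0 := by
  intro h
  rcases mem_zpowers_cases hyp ((cls_eq_zero_iff hyp _).1 h) with h3 | h3
  · exact absurd h2 (not_lt.2 h3)
  · exact absurd (lt_trans (lt_of_le_of_lt h3 (b_sq_lt_b hyp)) h1) (lt_irrefl _)

end quot


section map

variable {A : ValuationSubring L} {W : Affine L} (hyp : ModelHyp2 A W) (lam : L)

open Classical in
/-- The component map. -/
noncomputable def compMap : W.Point → Additive (CompGroup hyp)
  | .zero => 0
  | .some x y _ =>
    if hx : x = 0 then cls hyp (bUnit hyp)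
    else if 1 ≤ A.valuation x then 0
    else if A.valuation x ≤ A.valuation W.a₄ then cls hyp (bUnit hyp)
    else if A.valuation (y - lam * x) < A.valuation x then cls hyp (valUnit A x hx)
    else - cls hyp (valUnit A x hx)

lemma compMap_zero : compMap hyp lam (0 : W.Point) = 0 := rfl

lemma compMap_of_one_le {x y : L} (h : W.Nonsingular x y) (hx : 1 ≤ A.valuation x) :
    compMap hyp lam (.some x y h) = 0 := by
  have hx0 : x ≠ 0 := by
    rintro rfl
    rw [map_zero] at hx
    exact absurd hx (not_le.2 zero_lt_one)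
  simp only [compMap, dif_neg hx0, if_pos hx]

lemma compMap_of_le_b {x y : L} (h : W.Nonsingular x y)
    (hx : A.valuation x ≤ A.valuation W.a₄) :
    compMap hyp lam (.some x y h) = cls hyp (bUnit hyp) := by
  by_cases hx0 : x = 0
  · simp only [compMap, dif_pos hx0]
  · have h1 : ¬ 1 ≤ A.valuation x := not_le.2 (lt_of_le_of_lt hx hyp.b_lt)
    simp only [compMap, dif_neg hx0, if_neg h1, if_pos hx]

lemma compMap_of_C {x y : L} (h : W.Nonsingular x y) (hx0 : x ≠ 0)
    (hxb : A.valuation W.a₄ < A.valuation x) (hx1 : A.valuation x < 1)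
    (ht : A.valuation (y - lam * x) < A.valuation x) :
    compMap hyp lam (.some x y h) = cls hyp (valUnit A x hx0) := by
  simp only [compMap, dif_neg hx0, if_neg (not_le.2 hx1), if_neg (not_le.2 hxb), if_pos ht]

lemma compMap_of_not_C {x y : L} (h : W.Nonsingular x y) (hx0 : x ≠ 0)
    (hxb : A.valuation W.a₄ < A.valuation x) (hx1 : A.valuation x < 1)
    (ht : ¬ A.valuation (y - lam * x) < A.valuation x) :
    compMap hyp lam (.some x y h) = - cls hyp (valUnit A x hx0) := by
  simp only [compMap, dif_neg hx0, if_neg (not_le.2 hx1), if_neg (not_le.2 hxb), if_neg ht]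

end map

/-! ### The curve equation and the point `T` -/

section basic

variable {W : Affine L}

lemma equation_iff2 (h₁ : W.a₁ = 1) (h₃ : W.a₃ = 0) (h₆ : W.a₆ = 0) (x y : L) :
    W.Equation x y ↔ y ^ 2 + x * y = x ^ 3 + W.a₂ * x ^ 2 + W.a₄ * x := by
  rw [Affine.equation_iff, h₁, h₃, h₆]
  constructor <;> intro h <;> linear_combination h

lemma nonsingular_T (h₆ : W.a₆ = 0) (hb : W.a₄ ≠ 0) : W.Nonsingular 0 0 := by
  rw [Affine.nonsingular_iff', Affine.equation_iff']
  refine ⟨by rw [h₆]; ring, Or.inl ?_⟩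
  simpa using hb

lemma y_eq_zero_of_x_eq_zero (h₁ : W.a₁ = 1) (h₃ : W.a₃ = 0) (h₆ : W.a₆ = 0) {y : L}
    (h : W.Equation 0 y) : y = 0 := by
  have e := (equation_iff2 h₁ h₃ h₆ 0 y).1 h
  have : y ^ 2 = 0 := by linear_combination e
  exact pow_eq_zero_iff (two_ne_zero) |>.1 this

lemma T_add_T [DecidableEq L] (h₁ : W.a₁ = 1) (h₃ : W.a₃ = 0) (hT : W.Nonsingular 0 0) :
    Point.some 0 0 hT + Point.some 0 0 hT = 0 := by
  apply Point.add_of_Y_eq rfl
  simp [Affine.negY, h₁, h₃]

end basic

/-! ### The middle region -/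

section mid

variable {A : ValuationSubring L} {W : Affine L} (hyp : ModelHyp2 A W)

include hyp

lemma val_lam {lam : L} (hlam : lam ^ 2 + lam = W.a₂) : A.valuation lam ≤ 1 := by
  by_contra hcon
  rw [not_le] at hcon
  have h1 : A.valuation lam < A.valuation (lam ^ 2) := by
    rw [map_pow, sq]
    calc A.valuation lam = A.valuation lam * 1 := (mul_one _).symm
      _ < A.valuation lam * A.valuation lam := by
        have : 0 < A.valuation lam := lt_trans zero_lt_one hcon
        gcongr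
  have h2 : A.valuation (lam ^ 2 + lam) = A.valuation (lam ^ 2) :=
    (A.valuation).map_add_eq_of_lt_left h1
  have h3 : 1 < A.valuation (lam ^ 2 + lam) := by
    rw [h2]; exact lt_trans hcon h1
  rw [hlam] at h3
  exact absurd hyp.a_le (not_le.2 h3)

lemma val_two_lam_add_one {lam : L} (hlam : lam ^ 2 + lam = W.a₂) :
    A.valuation (2 * lam + 1) = 1 := by
  have h1 : A.valuation (2 * lam) < 1 := by
    rw [map_mul]
    calc A.valuation 2 * A.valuation lam ≤ A.valuation 2 * 1 := by
          gcongr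
          exact val_lam hyp hlam
      _ = A.valuation 2 := mul_one _
      _ < 1 := hyp.two
  have h2 : A.valuation (2 * lam) < A.valuation (1 : L) := by rwa [map_one]
  rw [(A.valuation).map_add_eq_of_lt_right h2, map_one]

lemma mid_or {lam : L} (hlam : lam ^ 2 + lam = W.a₂) {x y : L}
    (h : W.Nonsingular x y) (hxb : A.valuation W.a₄ < A.valuation x) (hx1 : A.valuation x < 1) :
    A.valuation (y - lam * x) < A.valuation x ∨
      A.valuation (y - (-1 - lam) * x) < A.valuation x := by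
  have e := (equation_iff2 hyp.a₁ hyp.a₃ hyp.a₆ x y).1 h.1
  have hxpos : 0 < A.valuation x := lt_of_le_of_lt zero_le hxb
  have key : (y - lam * x) * (y - (-1 - lam) * x) = x * (x ^ 2 + W.a₄) := by
    linear_combination e - x ^ 2 * hlam
  have h1 : A.valuation (x ^ 2 + W.a₄) < A.valuation x := by
    apply (A.valuation).map_add_lt _ hxb
    rw [map_pow, sq]
    calc A.valuation x * A.valuation x < A.valuation x * 1 := by gcongr
      _ = A.valuation x := mul_one _
  have h2 : A.valuation (y - lam * x) * A.valuation (y - (-1 - lam) * x)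
      < A.valuation x * A.valuation x := by
    rw [← map_mul, key, map_mul]
    gcongr
  by_contra hcon
  simp only [not_or, not_lt] at hcon
  exact absurd h2 (not_lt.2 (mul_le_mul' hcon.1 hcon.2))

lemma mid_not_both {lam : L} (hlam : lam ^ 2 + lam = W.a₂) {x y : L}
    (_hx0 : x ≠ 0)
    (h1 : A.valuation (y - lam * x) < A.valuation x)
    (h2 : A.valuation (y - (-1 - lam) * x) < A.valuation x) :
    False := by
  have e : (2 * lam + 1) * x = (y - (-1 - lam) * x) - (y - lam * x) := by ring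
  have h3 : A.valuation ((2 * lam + 1) * x) < A.valuation x := by
    rw [e]; exact (A.valuation).map_sub_lt h2 h1
  rw [map_mul, val_two_lam_add_one hyp hlam, one_mul] at h3
  exact lt_irrefl _ h3

end mid

/-! ### Translation by `T` -/

section translate

variable [DecidableEq L] {A : ValuationSubring L} {W : Affine L} (hyp : ModelHyp2 A W)

/-- The point `T = (0,0)`. -/
noncomputable def ptT : W.Point :=
  .some 0 0 (nonsingular_T hyp.a₆ hyp.b_ne)

lemma ptT_add_ptT : ptT hyp + ptT hyp = 0 :=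
  T_add_T hyp.a₁ hyp.a₃ _

lemma add_ptT_add_ptT (P : W.Point) : P + ptT hyp + ptT hyp = P := by
  rw [add_assoc, ptT_add_ptT, add_zero]

omit [DecidableEq L] in
lemma some_eq_ptT {y : L} (h : W.Nonsingular 0 y) : Point.some 0 y h = ptT hyp := by
  have hy : y = 0 := y_eq_zero_of_x_eq_zero hyp.a₁ hyp.a₃ hyp.a₆ h.1
  subst hy
  rfl

omit [DecidableEq L] in
lemma compMap_ptT (lam : L) : compMap hyp lam (ptT hyp) = cls hyp (bUnit hyp) := by
  simp only [ptT, compMap, dif_pos]

omit [DecidableEq L] in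
lemma valUnit_div (x : L) (hx : x ≠ 0) (hbx : W.a₄ / x ≠ 0) :
    valUnit A (W.a₄ / x) hbx = bUnit hyp * (valUnit A x hx)⁻¹ := by
  apply Units.ext
  rw [Units.val_mul, Units.val_inv_eq_inv_val, val_valUnit, val_valUnit, val_bUnit, map_div₀,
    div_eq_mul_inv]

/-- `φ(P + T) = φ(P) + [|b|]`. -/
lemma compMap_add_ptT (h4 : Stmt2_addT (L := L)) {lam : L} (hlam : lam ^ 2 + lam = W.a₂)
    (P : W.Point) :
    compMap hyp lam (P + ptT hyp) = compMap hyp lam P + cls hyp (bUnit hyp) := by
  have hb := hyp.b_lt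
  rcases P with _ | ⟨x, y, h⟩
  · rw [show (Point.zero : W.Point) = 0 from rfl, zero_add, compMap_ptT, compMap_zero, zero_add]
  by_cases hx0 : x = 0
  · subst hx0
    rw [some_eq_ptT hyp h, ptT_add_ptT, compMap_ptT, compMap_zero, cls_b_add_cls_b]
  obtain ⟨h', hadd⟩ := h4 W hyp.a₁ hyp.a₃ hyp.a₆ (nonsingular_T hyp.a₆ hyp.b_ne)
    x y h hx0
  have hsum : Point.some x y h + ptT hyp = Point.some _ _ h' := hadd
  rw [hsum]
  have hxpos : 0 < A.valuation x := zero_lt_iff.2 (by simpa using hx0)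
  have hbpos : 0 < A.valuation W.a₄ := zero_lt_iff.2 (by simpa using hyp.b_ne)
  have hbx0 : W.a₄ / x ≠ 0 := div_ne_zero hyp.b_ne hx0
  have hvx' : A.valuation (W.a₄ / x) = A.valuation W.a₄ / A.valuation x := map_div₀ _ _ _
  rcases le_or_gt 1 (A.valuation x) with hx1 | hx1
  · -- `P ∈ E₀`
    rw [compMap_of_one_le hyp lam h hx1, zero_add]
    apply compMap_of_le_b hyp lam
    rw [hvx', div_le_iff₀ hxpos]
    calc A.valuation W.a₄ = A.valuation W.a₄ * 1 := (mul_one _).symm
      _ ≤ A.valuation W.a₄ * A.valuation x := by gcongr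
  rcases le_or_gt (A.valuation x) (A.valuation W.a₄) with hxb | hxb
  · -- `P ∈ T + E₀`
    rw [compMap_of_le_b hyp lam h hxb, cls_b_add_cls_b]
    apply compMap_of_one_le
    rw [hvx', one_le_div₀ hxpos]
    exact hxb
  -- middle region
  have hx'b : A.valuation W.a₄ < A.valuation (W.a₄ / x) := by
    rw [hvx', lt_div_iff₀ hxpos]
    calc A.valuation W.a₄ * A.valuation x < A.valuation W.a₄ * 1 := by gcongr
      _ = A.valuation W.a₄ := mul_one _
  have hx'1 : A.valuation (W.a₄ / x) < 1 := by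
    rw [hvx', div_lt_one₀ hxpos]
    exact hxb
  have hfac : A.valuation (W.a₄ / x ^ 2) * A.valuation x = A.valuation (W.a₄ / x) := by
    rw [← map_mul]
    congr 1
    field_simp
  by_cases ht : A.valuation (y - lam * x) < A.valuation x
  · -- `P ∈ C(λ)`, so `P + T ∈ C(-1-λ)`
    have ht' : A.valuation (-(W.a₄ * (y + x) / x ^ 2) - (-1 - lam) * (W.a₄ / x))
        < A.valuation (W.a₄ / x) := by
      have e : -(W.a₄ * (y + x) / x ^ 2) - (-1 - lam) * (W.a₄ / x)
          = -((W.a₄ / x ^ 2) * (y - lam * x)) := by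
        field_simp
        ring
      rw [e, Valuation.map_neg, map_mul, ← hfac]
      have : 0 < A.valuation (W.a₄ / x ^ 2) :=
        zero_lt_iff.2 (by simpa using div_ne_zero hyp.b_ne (pow_ne_zero 2 hx0))
      gcongr
    have hnot : ¬ A.valuation (-(W.a₄ * (y + x) / x ^ 2) - lam * (W.a₄ / x))
        < A.valuation (W.a₄ / x) :=
      fun hcon => mid_not_both hyp hlam hbx0 hcon ht'
    rw [compMap_of_C hyp lam h hx0 hxb hx1 ht, compMap_of_not_C hyp lam h' hbx0 hx'b hx'1 hnot,
      valUnit_div hyp x hx0 hbx0, cls_mul, cls_inv, neg_add, neg_neg, neg_cls_b, add_comm]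
  · -- `P ∈ C(-1-λ)`, so `P + T ∈ C(λ)`
    have ht2 : A.valuation (y - (-1 - lam) * x) < A.valuation x :=
      (mid_or hyp hlam h hxb hx1).resolve_left ht
    have ht' : A.valuation (-(W.a₄ * (y + x) / x ^ 2) - lam * (W.a₄ / x))
        < A.valuation (W.a₄ / x) := by
      have e : -(W.a₄ * (y + x) / x ^ 2) - lam * (W.a₄ / x)
          = -((W.a₄ / x ^ 2) * (y - (-1 - lam) * x)) := by
        field_simp
        ring
      rw [e, Valuation.map_neg, map_mul, ← hfac]
      have : 0 < A.valuation (W.a₄ / x ^ 2) :=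
        zero_lt_iff.2 (by simpa using div_ne_zero hyp.b_ne (pow_ne_zero 2 hx0))
      gcongr
    rw [compMap_of_not_C hyp lam h hx0 hxb hx1 ht, compMap_of_C hyp lam h' hbx0 hx'b hx'1 ht',
      valUnit_div hyp x hx0 hbx0, cls_mul, cls_inv, add_comm]

/-- Every point lies in `X = E₀ ∪ C(λ)` or in `X + T`. -/
lemma mem_X_or (h4 : Stmt2_addT (L := L)) {lam : L} (hlam : lam ^ 2 + lam = W.a₂)
    (P : W.Point) :
    (InE0 A P ∨ InC A lam P) ∨ (InE0 A (P + ptT hyp) ∨ InC A lam (P + ptT hyp)) := by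
  rcases P with _ | ⟨x, y, h⟩
  · exact Or.inl (Or.inl trivial)
  by_cases hx0 : x = 0
  · subst hx0
    right; left
    rw [some_eq_ptT hyp h, ptT_add_ptT]
    trivial
  obtain ⟨h', hadd⟩ := h4 W hyp.a₁ hyp.a₃ hyp.a₆ (nonsingular_T hyp.a₆ hyp.b_ne)
    x y h hx0
  have hsum : Point.some x y h + ptT hyp = Point.some _ _ h' := hadd
  have hxpos : 0 < A.valuation x := zero_lt_iff.2 (by simpa using hx0)
  have hvx' : A.valuation (W.a₄ / x) = A.valuation W.a₄ / A.valuation x := map_div₀ _ _ _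
  rcases le_or_gt 1 (A.valuation x) with hx1 | hx1
  · exact Or.inl (Or.inl hx1)
  rcases le_or_gt (A.valuation x) (A.valuation W.a₄) with hxb | hxb
  · right; left
    rw [hsum]
    show 1 ≤ A.valuation (W.a₄ / x)
    rw [hvx', one_le_div₀ hxpos]
    exact hxb
  by_cases ht : A.valuation (y - lam * x) < A.valuation x
  · exact Or.inl (Or.inr ⟨hxb, hx1, ht⟩)
  · right; right
    rw [hsum]
    have ht2 : A.valuation (y - (-1 - lam) * x) < A.valuation x :=
      (mid_or hyp hlam h hxb hx1).resolve_left ht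
    have hfac : A.valuation (W.a₄ / x ^ 2) * A.valuation x = A.valuation (W.a₄ / x) := by
      rw [← map_mul]
      congr 1
      field_simp
    refine ⟨?_, ?_, ?_⟩
    · rw [hvx', lt_div_iff₀ hxpos]
      calc A.valuation W.a₄ * A.valuation x < A.valuation W.a₄ * 1 := by
            have hbpos : 0 < A.valuation W.a₄ := zero_lt_iff.2 (by simpa using hyp.b_ne)
            gcongr
        _ = A.valuation W.a₄ := mul_one _
    · rw [hvx', div_lt_one₀ hxpos]
      exact hxb
    · have e : -(W.a₄ * (y + x) / x ^ 2) - lam * (W.a₄ / x)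
          = -((W.a₄ / x ^ 2) * (y - (-1 - lam) * x)) := by
        field_simp
        ring
      rw [e, Valuation.map_neg, map_mul, ← hfac]
      have : 0 < A.valuation (W.a₄ / x ^ 2) :=
        zero_lt_iff.2 (by simpa using div_ne_zero hyp.b_ne (pow_ne_zero 2 hx0))
      gcongr

end translate

/-! ### Additivity -/

section additivity

variable [DecidableEq L] {A : ValuationSubring L} {W : Affine L} (hyp : ModelHyp2 A W)

omit [DecidableEq L] in
lemma compMap_of_InE0 (lam : L) {P : W.Point} (h : InE0 A P) : compMap hyp lam P = 0 := by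
  rcases P with _ | ⟨x, y, hns⟩
  · rfl
  · exact compMap_of_one_le hyp lam hns h

omit [DecidableEq L] in
lemma compMap_of_InET (lam : L) {P : W.Point} (h : InET A P) :
    compMap hyp lam P = cls hyp (bUnit hyp) := by
  rcases P with _ | ⟨x, y, hns⟩
  · exact h.elim
  · exact compMap_of_le_b hyp lam hns h

omit [DecidableEq L] in
lemma compMap_of_InC (lam : L) {P : W.Point} (h : InC A lam P) :
    ∃ u : (A.ValueGroup)ˣ, (u : A.ValueGroup) = xVal A P ∧ compMap hyp lam P = cls hyp u := by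
  rcases P with _ | ⟨x, y, hns⟩
  · exact h.elim
  · obtain ⟨h1, h2, h3⟩ := h
    have hx0 : x ≠ 0 := by
      rintro rfl
      rw [map_zero] at h1
      exact absurd h1 (not_lt.2 zero_le)
    exact ⟨valUnit A x hx0, rfl, compMap_of_C hyp lam hns hx0 h1 h2 h3⟩

omit [DecidableEq L] in
lemma compMap_of_InC' {lam : L} (hlam : lam ^ 2 + lam = W.a₂) {P : W.Point}
    (h : InC A (-1 - lam) P) :
    ∃ u : (A.ValueGroup)ˣ, (u : A.ValueGroup) = xVal A P ∧ compMap hyp lam P = - cls hyp u := by
  rcases P with _ | ⟨x, y, hns⟩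
  · exact h.elim
  · obtain ⟨h1, h2, h3⟩ := h
    have hx0 : x ≠ 0 := by
      rintro rfl
      rw [map_zero] at h1
      exact absurd h1 (not_lt.2 zero_le)
    have hnot : ¬ A.valuation (y - lam * x) < A.valuation x :=
      fun hcon => mid_not_both hyp hlam hx0 hcon h3
    exact ⟨valUnit A x hx0, rfl, compMap_of_not_C hyp lam hns hx0 h1 h2 hnot⟩

/-- Additivity on `X × X`, `X = E₀ ∪ C(λ)`. -/
lemma compMap_add_X (h1 : Stmt2_E0_add (L := L)) (h2 : Stmt2_E0C (L := L))
    (h3 : Stmt2_CC (L := L)) {lam : L} (hlam : lam ^ 2 + lam = W.a₂) (P Q : W.Point)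
    (hP : InE0 A P ∨ InC A lam P) (hQ : InE0 A Q ∨ InC A lam Q) :
    compMap hyp lam (P + Q) = compMap hyp lam P + compMap hyp lam Q := by
  have key : ∀ P Q : W.Point, InE0 A P → InC A lam Q →
      compMap hyp lam (P + Q) = compMap hyp lam P + compMap hyp lam Q := by
    intro P Q hP hQ
    obtain ⟨hc, hv⟩ := h2 A W hyp lam hlam P Q hP hQ
    obtain ⟨u, hu, eu⟩ := compMap_of_InC hyp lam hc
    obtain ⟨w, hw, ew⟩ := compMap_of_InC hyp lam hQ
    have huw : u = w := Units.ext (hu.trans (hv.trans hw.symm))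
    rw [eu, ew, compMap_of_InE0 hyp lam hP, zero_add, huw]
  rcases hP with hP | hP <;> rcases hQ with hQ | hQ
  · rw [compMap_of_InE0 hyp lam (h1 A W hyp P Q hP hQ), compMap_of_InE0 hyp lam hP,
      compMap_of_InE0 hyp lam hQ, add_zero]
  · exact key P Q hP hQ
  · rw [add_comm P Q, key Q P hQ hP, add_comm]
  · obtain ⟨c1, c2, c3⟩ := h3 A W hyp lam hlam P Q hP hQ
    obtain ⟨u, hu, eu⟩ := compMap_of_InC hyp lam hP
    obtain ⟨w, hw, ew⟩ := compMap_of_InC hyp lam hQ
    rw [eu, ew, ← cls_mul]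
    rcases lt_trichotomy (A.valuation W.a₄) (xVal A P * xVal A Q) with h | h | h
    · obtain ⟨hc, hv⟩ := c1 h
      obtain ⟨z, hz, ez⟩ := compMap_of_InC hyp lam hc
      have : z = u * w := Units.ext (by rw [hz, hv, Units.val_mul, hu, hw])
      rw [ez, this]
    · have hET := c3 h.symm
      rw [compMap_of_InET hyp lam hET]
      have : bUnit hyp = u * w := Units.ext (by rw [val_bUnit, h, Units.val_mul, hu, hw])
      rw [this]
    · obtain ⟨hc, hv⟩ := c2 h
      obtain ⟨z, hz, ez⟩ := compMap_of_InC' hyp hlam hc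
      have : z * (u * w) = bUnit hyp ^ 2 :=
        Units.ext (by rw [Units.val_mul, Units.val_mul, hz, hu, hw, hv, Units.val_pow_eq_pow_val,
          val_bUnit])
      have h0 : cls hyp z + cls hyp (u * w) = 0 := by
        rw [← cls_mul, this, cls_eq_zero_iff]
        exact Subgroup.mem_zpowers _
      rw [ez]
      exact neg_eq_of_add_eq_zero_right h0

/-- Additivity of the component map. -/
lemma compMap_add (h1 : Stmt2_E0_add (L := L)) (h2 : Stmt2_E0C (L := L))
    (h3 : Stmt2_CC (L := L)) (h4 : Stmt2_addT (L := L))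
    {lam : L} (hlam : lam ^ 2 + lam = W.a₂) (P Q : W.Point) :
    compMap hyp lam (P + Q) = compMap hyp lam P + compMap hyp lam Q := by
  have hT := compMap_add_ptT hyp h4 hlam
  have hbb := cls_b_add_cls_b hyp
  rcases mem_X_or hyp h4 hlam P with hP | hP <;> rcases mem_X_or hyp h4 hlam Q with hQ | hQ
  · exact compMap_add_X hyp h1 h2 h3 hlam P Q hP hQ
  · have e : P + Q = (P + (Q + ptT hyp)) + ptT hyp := by
      rw [← add_assoc, add_ptT_add_ptT]
    have h5 := compMap_add_X hyp h1 h2 h3 hlam P (Q + ptT hyp) hP hQ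
    rw [e, hT, h5, hT, add_assoc, add_assoc, hbb, add_zero]
  · have e : P + Q = ((P + ptT hyp) + Q) + ptT hyp := by
      rw [add_right_comm P (ptT hyp) Q, add_ptT_add_ptT]
    have h5 := compMap_add_X hyp h1 h2 h3 hlam (P + ptT hyp) Q hP hQ
    rw [e, hT, h5, hT, add_right_comm (compMap hyp lam P), add_assoc, hbb, add_zero]
  · have e : P + Q = (P + ptT hyp) + (Q + ptT hyp) := by
      rw [add_add_add_comm, ptT_add_ptT, add_zero]
    have h5 := compMap_add_X hyp h1 h2 h3 hlam (P + ptT hyp) (Q + ptT hyp) hP hQ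
    rw [e, h5, hT, hT, add_add_add_comm, hbb, add_zero]

omit [DecidableEq L] in
/-- The kernel of the component map is `E₀`. -/
lemma compMap_eq_zero_iff {lam : L} (P : W.Point) :
    compMap hyp lam P = 0 ↔ InE0 A P := by
  refine ⟨fun h => ?_, compMap_of_InE0 hyp lam⟩
  rcases P with _ | ⟨x, y, hns⟩
  · trivial
  show 1 ≤ A.valuation x
  by_contra hx1
  rw [not_le] at hx1
  rcases le_or_gt (A.valuation x) (A.valuation W.a₄) with hxb | hxb
  · rw [compMap_of_le_b hyp lam hns hxb] at h
    exact cls_b_ne_zero hyp h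
  have hx0 : x ≠ 0 := by
    rintro rfl
    rw [map_zero] at hxb
    exact absurd hxb (not_lt.2 zero_le)
  have hne : cls hyp (valUnit A x hx0) ≠ 0 := cls_ne_zero_of_mid hyp hxb hx1
  by_cases ht : A.valuation (y - lam * x) < A.valuation x
  · rw [compMap_of_C hyp lam hns hx0 hxb hx1 ht] at h
    exact hne h
  · rw [compMap_of_not_C hyp lam hns hx0 hxb hx1 ht, neg_eq_zero] at h
    exact hne h

end additivity

/-- Piece (2D) (M1), assuming the case lemmas. -/
theorem M1_of_cases [DecidableEq L] (h1 : Stmt2_E0_add (L := L)) (h2 : Stmt2_E0C (L := L))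
    (h3 : Stmt2_CC (L := L)) (h4 : Stmt2_addT (L := L)) :
    Stmt2_M1 (L := L) := by
  intro A W hyp lam hlam
  refine ⟨AddMonoidHom.mk' (compMap hyp lam) (compMap_add hyp h1 h2 h3 h4 hlam), ?_, ?_, ?_⟩
  · intro P
    exact compMap_eq_zero_iff hyp P
  · intro x y h hx0 hxb hx1 ht
    exact compMap_of_C hyp lam h hx0 hxb hx1 ht
  · intro x y h hxb
    exact compMap_of_le_b hyp lam h hxb

/-- (2D') the annulus dichotomy. -/
theorem annulus : Stmt2_annulus (L := L) := by
  intro A W hyp lam hlam x y h hxb hx1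
  exact mid_or hyp hlam h hxb hx1

end Fermat.Agent.S13.WP3.M1

end
-- ==== END Fermat.Agent.S13.WP3.M1

-- ==== BEGIN Fermat.Agent.S15.H63_ModEqShape
section

set_option autoImplicit false
set_option synthInstance.maxHeartbeats 400000

noncomputable section

open Polynomial Finset

namespace Fermat.Agent.S15.H63

/-- The coefficient system attached to the polynomials `E k`. -/
def cOf {K : Type*} [Field K] (p : ℕ) (E : ℕ → K[X]) (i k : ℕ) : K :=
  if i = p ∧ k = p then 0 else (E k).coeff i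

section

variable {K R : Type*} [Field K] [CommRing R] [Algebra K R] (p : ℕ) (E : ℕ → K[X])

theorem cOf_top : cOf p E p p = 0 := by
  unfold cOf
  rw [if_pos ⟨rfl, rfl⟩]

theorem cOf_of_ne {i k : ℕ} (h : ¬ (i = p ∧ k = p)) : cOf p E i k = (E k).coeff i := by
  unfold cOf
  rw [if_neg h]

/-- The column `k = 0`. -/
theorem col_zero (hp : 1 ≤ p) (hdeg0 : (E 0).natDegree ≤ p + 1) (h0 : (E 0).coeff (p + 1) = 1)
    (x : R) :
    ∑ i ∈ range (p + 1), algebraMap K R (cOf p E i 0) * x ^ i = aeval x (E 0) - x ^ (p + 1) := by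
  rw [Polynomial.aeval_eq_sum_range' (n := p + 2) (by omega), Finset.sum_range_succ _ (p + 1), h0,
    one_smul, add_sub_cancel_right]
  refine Finset.sum_congr rfl fun i _ => ?_
  rw [cOf_of_ne p E (by omega), Algebra.smul_def]

/-- The columns `0 < k < p`. -/
theorem col_mid {k : ℕ} (hk : k < p) (hdeg : (E k).natDegree ≤ p) (x : R) :
    ∑ i ∈ range (p + 1), algebraMap K R (cOf p E i k) * x ^ i = aeval x (E k) := by
  rw [Polynomial.aeval_eq_sum_range' (n := p + 1) (by omega)]
  refine Finset.sum_congr rfl fun i _ => ?_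
  rw [cOf_of_ne p E (by omega), Algebra.smul_def]

/-- The column `k = p`. -/
theorem col_top (hdeg : (E p).natDegree ≤ p) (hpp : (E p).coeff p = -1) (x : R) :
    ∑ i ∈ range (p + 1), algebraMap K R (cOf p E i p) * x ^ i = aeval x (E p) + x ^ p := by
  rw [Polynomial.aeval_eq_sum_range' (n := p + 1) (by omega), Finset.sum_range_succ _ p,
    Finset.sum_range_succ _ p, hpp, cOf_top, map_zero, zero_mul, add_zero, neg_smul, one_smul,
    neg_add_cancel_right]
  refine Finset.sum_congr rfl fun i hi => ?_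
  rw [Finset.mem_range] at hi
  rw [cOf_of_ne p E (by omega), Algebra.smul_def]

/-- **Shape lemma**: `modEqVal` of the coefficient system `cOf p E` is
`Y^(p+1) + Σ_{k ≤ p} E_k(X) Y^k`. -/
theorem modEqVal_cOf (hp : 1 ≤ p) (hdeg : ∀ k, 1 ≤ k → k ≤ p → (E k).natDegree ≤ p)
    (hdeg0 : (E 0).natDegree ≤ p + 1) (h0 : (E 0).coeff (p + 1) = 1)
    (hpp : (E p).coeff p = -1) (x y : R) :
    modEqVal p (cOf p E) x y =
      y ^ (p + 1) + ∑ k ∈ range (p + 1), aeval x (E k) * y ^ k := by
  unfold modEqVal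
  rw [Finset.sum_comm]
  have hcol : ∀ k ∈ range (p + 1),
      ∑ i ∈ range (p + 1), algebraMap K R (cOf p E i k) * x ^ i * y ^ k =
        (aeval x (E k) - (if k = 0 then x ^ (p + 1) else 0) + (if k = p then x ^ p else 0)) *
          y ^ k := by
    intro k hk
    rw [Finset.mem_range] at hk
    rw [← Finset.sum_mul]
    congr 1
    rcases Nat.eq_zero_or_pos k with h | h
    · subst h
      rw [if_pos rfl, if_neg (by omega), add_zero]
      exact col_zero p E hp hdeg0 h0 x
    · rcases Nat.lt_or_ge k p with h' | h'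
      · rw [if_neg (by omega), if_neg (by omega), sub_zero, add_zero]
        exact col_mid p E h' (hdeg k h (by omega)) x
      · have hkp : k = p := by omega
        subst hkp
        rw [if_neg (by omega), if_pos rfl, sub_zero]
        exact col_top k E (hdeg k h le_rfl) hpp x
  rw [Finset.sum_congr rfl hcol]
  simp only [add_mul, sub_mul, Finset.sum_add_distrib, Finset.sum_sub_distrib, ite_mul,
    zero_mul]
  rw [Finset.sum_ite_eq' (range (p + 1)) 0, Finset.sum_ite_eq' (range (p + 1)) p,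
    if_pos (Finset.mem_range.mpr (by omega)), if_pos (Finset.mem_range.mpr (by omega)), pow_zero,
    mul_one]
  ring

end

/-- **MODEQ from the polynomials `E k`.** -/
theorem isModEq_of_polys (p : ℕ) [NeZero p] (hp : 1 ≤ p) (E : ℕ → Qb[X])
    (hdeg : ∀ k, 1 ≤ k → k ≤ p → (E k).natDegree ≤ p)
    (hdeg0 : (E 0).natDegree ≤ p + 1) (h0 : (E 0).coeff (p + 1) = 1)
    (hpp : (E p).coeff p = -1) (hint : ∀ k i, IsIntegral ℤ ((E k).coeff i))
    (hrel : (jBarN p) ^ (p + 1) +
      ∑ k ∈ range (p + 1), aeval (jBar p) (E k) * (jBarN p) ^ k = 0) :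
    IsModEq p (cOf p E) where
  integral := fun i k => by
    unfold cOf
    split_ifs
    · exact isIntegral_zero
    · exact hint k i
  top := cOf_top p E
  rel := by
    rw [modEqVal_cOf p E hp hdeg hdeg0 h0 hpp]
    exact hrel

end Fermat.Agent.S15.H63

end
end
-- ==== END Fermat.Agent.S15.H63_ModEqShape

-- ==== BEGIN Fermat.Agent.S15.H63_NewtonVal
section

set_option autoImplicit false

namespace Fermat.Agent.S15.H63

open Finset

variable {K : Type*} [Field K] (A : ValuationSubring K)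

/-- Integers have absolute value `≤ 1`. -/
lemma val_natCast_le_one (n : ℕ) : A.valuation (n : K) ≤ 1 := by
  rw [ValuationSubring.valuation_le_one_iff]
  exact natCast_mem A n

section sums

variable (p : ℕ) (c : ℕ → ℕ → K) (hc : ∀ i k, A.valuation (c i k) ≤ 1) (hcpp : c p p = 0)
include hc hcpp

/-- Strict bound for the lower terms. -/
lemma val_lower_lt (b a : K) (M : A.ValueGroup) (hM : M ≠ 0)
    (h : ∀ i k, i ≤ p → k ≤ p → ¬ (i = p ∧ k = p) →
      A.valuation b ^ i * A.valuation a ^ k < M) :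
    A.valuation (∑ i ∈ range (p + 1), ∑ k ∈ range (p + 1), c i k * b ^ i * a ^ k) < M := by
  apply Valuation.map_sum_lt _ hM
  intro i hi
  apply Valuation.map_sum_lt _ hM
  intro k hk
  rw [mem_range] at hi hk
  by_cases hik : i = p ∧ k = p
  · obtain ⟨rfl, rfl⟩ := hik
    rw [hcpp, zero_mul, zero_mul, map_zero]
    exact zero_lt_iff.mpr hM
  · have h1 := h i k (by omega) (by omega) hik
    calc A.valuation (c i k * b ^ i * a ^ k)
        = A.valuation (c i k) * (A.valuation b ^ i * A.valuation a ^ k) := by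
          rw [map_mul, map_mul, map_pow, map_pow, mul_assoc]
      _ ≤ 1 * (A.valuation b ^ i * A.valuation a ^ k) := mul_le_mul_left (hc i k) _
      _ = A.valuation b ^ i * A.valuation a ^ k := one_mul _
      _ < M := h1

/-- Weak bound for the lower terms, with an extra factor `w i k` of absolute value `≤ 1`. -/
lemma val_lower_le (b : K) (t : ℕ → K) (M : A.ValueGroup)
    (h : ∀ i k, i ≤ p → k ≤ p → ¬ (i = p ∧ k = p) →
      A.valuation b ^ i * A.valuation (t k) ≤ M) :
    A.valuation (∑ i ∈ range (p + 1), ∑ k ∈ range (p + 1), c i k * b ^ i * t k) ≤ M := by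
  apply Valuation.map_sum_le
  intro i hi
  apply Valuation.map_sum_le
  intro k hk
  rw [mem_range] at hi hk
  by_cases hik : i = p ∧ k = p
  · obtain ⟨rfl, rfl⟩ := hik
    rw [hcpp, zero_mul, zero_mul, map_zero]
    exact zero_le
  · have h1 := h i k (by omega) (by omega) hik
    calc A.valuation (c i k * b ^ i * t k)
        = A.valuation (c i k) * (A.valuation b ^ i * A.valuation (t k)) := by
          rw [map_mul, map_mul, map_pow, mul_assoc]
      _ ≤ 1 * (A.valuation b ^ i * A.valuation (t k)) := mul_le_mul_left (hc i k) _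
      _ = A.valuation b ^ i * A.valuation (t k) := one_mul _
      _ ≤ M := h1

end sums

/-! ### Monomials in a linearly ordered group with zero -/

section mono

variable {Γ : Type*} [LinearOrderedCommGroupWithZero Γ]

lemma mono_lt_of_lt_left {v u : Γ} (hv : 1 < v) (hu : 1 < u) {i k p : ℕ} (hi : i < p)
    (hk : k ≤ p) : v ^ i * u ^ k < v ^ p * u ^ p := by
  have h1 : v ^ i < v ^ p := pow_lt_pow_right₀ hv hi
  have h2 : u ^ k ≤ u ^ p := pow_le_pow_right₀ hu.le hk
  have hu0 : 0 < u ^ k := pow_pos (zero_lt_one.trans hu) k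
  have hv0 : 0 < v ^ p := pow_pos (zero_lt_one.trans hv) p
  calc v ^ i * u ^ k < v ^ p * u ^ k := mul_lt_mul_of_pos_right h1 hu0
    _ ≤ v ^ p * u ^ p := mul_le_mul_of_nonneg_left h2 hv0.le

lemma mono_lt_of_lt_right {v u : Γ} (hv : 1 < v) (hu : 1 < u) {i k p : ℕ} (hi : i ≤ p)
    (hk : k < p) : v ^ i * u ^ k < v ^ p * u ^ p := by
  rw [mul_comm (v ^ i), mul_comm (v ^ p)]
  exact mono_lt_of_lt_left hu hv hk hi

lemma mono_lt {v u : Γ} (hv : 1 < v) (hu : 1 < u) {i k p : ℕ} (hi : i ≤ p) (hk : k ≤ p)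
    (hik : ¬ (i = p ∧ k = p)) : v ^ i * u ^ k < v ^ p * u ^ p := by
  rcases Nat.lt_or_ge i p with h | h
  · exact mono_lt_of_lt_left hv hu h hk
  · have hip : i = p := le_antisymm hi h
    have hkp : k < p := by
      rcases Nat.lt_or_ge k p with h' | h'
      · exact h'
      · exact absurd ⟨hip, le_antisymm hk h'⟩ hik
    exact mono_lt_of_lt_right hv hu hi hkp

end mono

/-! ### The dichotomy -/

/-- **(NEWTON-VAL a)** -/
theorem newtonVal_dich (p : ℕ) (hp : 1 ≤ p) (c : ℕ → ℕ → K)
    (hc : ∀ i k, A.valuation (c i k) ≤ 1) (hcpp : c p p = 0) (b a : K)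
    (h : modEqVal p c b a = 0) (ha : 1 < A.valuation a) :
    A.valuation b ^ p = A.valuation a ∨ A.valuation b = A.valuation a ^ p := by
  set v := A.valuation b with hv
  set u := A.valuation a with hu
  have hu0 : 0 < u := zero_lt_one.trans ha
  -- the equation
  unfold modEqVal at h
  simp only [Algebra.algebraMap_self_apply] at h
  set S := ∑ i ∈ range (p + 1), ∑ k ∈ range (p + 1), c i k * b ^ i * a ^ k with hS
  have hT1 : A.valuation (b ^ (p + 1)) = v ^ p * v := by rw [map_pow, pow_succ]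
  have hT2 : A.valuation (a ^ (p + 1)) = u ^ p * u := by rw [map_pow, pow_succ]
  have hT3 : A.valuation (b ^ p * a ^ p) = v ^ p * u ^ p := by rw [map_mul, map_pow, map_pow]
  -- Step 1: `1 < v`
  have hv1 : 1 < v := by
    by_contra hcon
    rw [not_lt] at hcon
    have hup : 0 < u ^ p * u := mul_pos (pow_pos hu0 p) hu0
    have hupu : u ^ p < u ^ p * u := by
      calc u ^ p = u ^ p * 1 := (mul_one _).symm
        _ < u ^ p * u := mul_lt_mul_of_pos_left ha (pow_pos hu0 p)
    have b1 : A.valuation (b ^ (p + 1)) < u ^ p * u := by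
      rw [map_pow]
      calc v ^ (p + 1) ≤ 1 := pow_le_one₀ zero_le hcon
        _ ≤ u ^ p := one_le_pow₀ ha.le
        _ < u ^ p * u := hupu
    have b3 : A.valuation (b ^ p * a ^ p) < u ^ p * u := by
      rw [hT3]
      calc v ^ p * u ^ p ≤ 1 * u ^ p := mul_le_mul_left (pow_le_one₀ zero_le hcon) _
        _ = u ^ p := one_mul _
        _ < u ^ p * u := hupu
    have bS : A.valuation S < u ^ p * u := by
      apply val_lower_lt A p c hc hcpp b a _ hup.ne'
      intro i k _ hk _
      calc v ^ i * u ^ k ≤ 1 * u ^ k := mul_le_mul_left (pow_le_one₀ zero_le hcon) _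
        _ = u ^ k := one_mul _
        _ ≤ u ^ p := pow_le_pow_right₀ ha.le hk
        _ < u ^ p * u := hupu
    have hrest : A.valuation (b ^ (p + 1) - b ^ p * a ^ p + S) < A.valuation (a ^ (p + 1)) := by
      rw [hT2]
      exact Valuation.map_add_lt _ (Valuation.map_sub_lt _ b1 b3) bS
    have := Valuation.map_add_eq_of_lt_left _ hrest
    have e : a ^ (p + 1) + (b ^ (p + 1) - b ^ p * a ^ p + S) = 0 := by linear_combination h
    rw [e, map_zero, hT2] at this
    exact hup.ne this
  have hv0 : 0 < v := zero_lt_one.trans hv1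
  have hvp : 0 < v ^ p := pow_pos hv0 p
  have hup : 0 < u ^ p := pow_pos hu0 p
  -- Step 2: the lower terms are smaller than `v^p u^p`
  have bS : A.valuation S < v ^ p * u ^ p := by
    apply val_lower_lt A p c hc hcpp b a _ (mul_pos hvp hup).ne'
    intro i k hi hk hik
    exact mono_lt hv1 ha hi hk hik
  -- Step 3: trichotomy
  rcases lt_trichotomy v (u ^ p) with h1 | h1 | h1
  · rcases lt_trichotomy u (v ^ p) with h2 | h2 | h2
    · -- `T3` dominates
      exfalso
      have b1 : A.valuation (b ^ (p + 1)) < v ^ p * u ^ p := by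
        rw [hT1]; exact mul_lt_mul_of_pos_left h1 hvp
      have b2 : A.valuation (a ^ (p + 1)) < v ^ p * u ^ p := by
        rw [hT2, mul_comm (v ^ p)]; exact mul_lt_mul_of_pos_left h2 hup
      have hrest : A.valuation (b ^ (p + 1) + a ^ (p + 1) + S) <
          A.valuation (b ^ p * a ^ p) := by
        rw [hT3]
        exact Valuation.map_add_lt _ (Valuation.map_add_lt _ b1 b2) bS
      have := Valuation.map_sub_eq_of_lt_left _ hrest
      have e : b ^ p * a ^ p - (b ^ (p + 1) + a ^ (p + 1) + S) = 0 := by linear_combination -h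
      rw [e, map_zero, hT3] at this
      exact (mul_pos hvp hup).ne this
    · exact Or.inl h2.symm
    · -- `T2` dominates
      exfalso
      have hvu : v < u := by
        calc v = v ^ 1 := (pow_one v).symm
          _ ≤ v ^ p := pow_le_pow_right₀ hv1.le hp
          _ < u := h2
      have b1 : A.valuation (b ^ (p + 1)) < u ^ p * u := by
        rw [hT1, ← pow_succ, ← pow_succ]
        exact pow_lt_pow_left₀ hvu zero_le (Nat.succ_ne_zero p)
      have b3 : A.valuation (b ^ p * a ^ p) < u ^ p * u := by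
        rw [hT3, mul_comm (v ^ p)]; exact mul_lt_mul_of_pos_left h2 hup
      have bS' : A.valuation S < u ^ p * u := by
        rw [hT3] at b3; exact bS.trans b3
      have hrest : A.valuation (b ^ (p + 1) - b ^ p * a ^ p + S) < A.valuation (a ^ (p + 1)) := by
        rw [hT2]
        exact Valuation.map_add_lt _ (Valuation.map_sub_lt _ b1 b3) bS'
      have := Valuation.map_add_eq_of_lt_left _ hrest
      have e : a ^ (p + 1) + (b ^ (p + 1) - b ^ p * a ^ p + S) = 0 := by linear_combination h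
      rw [e, map_zero, hT2] at this
      exact (mul_pos hup hu0).ne this
  · exact Or.inr h1
  · -- `T1` dominates
    exfalso
    have huv : u < v := by
      calc u = u ^ 1 := (pow_one u).symm
        _ ≤ u ^ p := pow_le_pow_right₀ ha.le hp
        _ < v := h1
    have b2 : A.valuation (a ^ (p + 1)) < v ^ p * v := by
      rw [hT2, ← pow_succ, ← pow_succ]
      exact pow_lt_pow_left₀ huv zero_le (Nat.succ_ne_zero p)
    have b3 : A.valuation (b ^ p * a ^ p) < v ^ p * v := by
      rw [hT3]; exact mul_lt_mul_of_pos_left h1 hvp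
    have bS' : A.valuation S < v ^ p * v := by
      rw [hT3] at b3; exact bS.trans b3
    have hrest : A.valuation (a ^ (p + 1) - b ^ p * a ^ p + S) < A.valuation (b ^ (p + 1)) := by
      rw [hT1]
      exact Valuation.map_add_lt _ (Valuation.map_sub_lt _ b2 b3) bS'
    have := Valuation.map_add_eq_of_lt_left _ hrest
    have e : b ^ (p + 1) + (a ^ (p + 1) - b ^ p * a ^ p + S) = 0 := by linear_combination h
    rw [e, map_zero, hT1] at this
    exact (mul_pos hvp hv0).ne this

theorem stmt_newtonVal_dich : Stmt_newtonVal_dich := by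
  intro K _ A p hp c hc hcpp b a h ha
  exact newtonVal_dich A p hp c hc hcpp b a h ha

/-! ### Simplicity of the root on the branch `|a| = |b|^p` -/

section mono2

variable {Γ : Type*} [LinearOrderedCommGroupWithZero Γ]

/-- `v^i u^k ≤ v^(p-1) u^p` for `(i, k) ≠ (p, p)`, when `u = v^p`. -/
lemma mono_le_branch {v u : Γ} (hv : 1 < v) {p : ℕ} (hvu : v ^ p = u)
    {i k : ℕ} (hi : i ≤ p) (hk : k ≤ p) (hik : ¬ (i = p ∧ k = p)) :
    v ^ i * u ^ k ≤ v ^ (p - 1) * u ^ p := by
  have hv0 : 0 < v := zero_lt_one.trans hv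
  have hu1 : 1 ≤ u := by rw [← hvu]; exact one_le_pow₀ hv.le
  have hu0 : 0 < u := zero_lt_one.trans_le hu1
  rcases Nat.lt_or_ge k p with h | h
  · calc v ^ i * u ^ k ≤ v ^ p * u ^ k :=
          mul_le_mul_left (pow_le_pow_right₀ hv.le hi) _
      _ = u ^ (k + 1) := by rw [hvu, pow_succ, mul_comm]
      _ ≤ u ^ p := pow_le_pow_right₀ hu1 h
      _ = 1 * u ^ p := (one_mul _).symm
      _ ≤ v ^ (p - 1) * u ^ p := mul_le_mul_left (one_le_pow₀ hv.le) _
  · have hkp : k = p := le_antisymm hk h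
    have hip : i ≤ p - 1 := by
      rcases Nat.lt_or_ge i p with h' | h'
      · omega
      · exact absurd ⟨le_antisymm hi h', hkp⟩ hik
    rw [hkp]
    exact mul_le_mul_left (pow_le_pow_right₀ hv.le hip) _

/-- `v^i u^k < u^(p-1) u` for `(i, k+1) ≠ (p, p)`, when `u = v^p`. -/
lemma mono_lt_branch {v u : Γ} (hv : 1 < v) {p : ℕ} (hp : 1 ≤ p) (hvu : v ^ p = u)
    {i k : ℕ} (hi : i ≤ p) (hk : k + 1 ≤ p) (hik : ¬ (i = p ∧ k + 1 = p)) :
    v ^ i * u ^ k < u ^ p := by
  have hv0 : 0 < v := zero_lt_one.trans hv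
  have hu1 : 1 < u := by rw [← hvu]; exact one_lt_pow₀ hv (by omega)
  have hu0 : 0 < u := zero_lt_one.trans hu1
  rcases Nat.lt_or_ge (k + 1) p with h | h
  · calc v ^ i * u ^ k ≤ v ^ p * u ^ k :=
          mul_le_mul_left (pow_le_pow_right₀ hv.le hi) _
      _ = u ^ (k + 1) := by rw [hvu, pow_succ, mul_comm]
      _ < u ^ p := pow_lt_pow_right₀ hu1 h
  · have hkp : k + 1 = p := le_antisymm hk h
    have hip : i < p := by
      rcases Nat.lt_or_ge i p with h' | h'
      · exact h'
      · exact absurd ⟨le_antisymm hi h', hkp⟩ hik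
    calc v ^ i * u ^ k < v ^ p * u ^ k :=
          mul_lt_mul_of_pos_right (pow_lt_pow_right₀ hv hip) (pow_pos hu0 k)
      _ = u ^ (k + 1) := by rw [hvu, pow_succ, mul_comm]
      _ = u ^ p := by rw [hkp]

end mono2

/-- **(NEWTON-VAL b)** -/
theorem newtonVal_simple (p : ℕ) (hp : 2 ≤ p) (c : ℕ → ℕ → K)
    (hc : ∀ i k, A.valuation (c i k) ≤ 1) (hcpp : c p p = 0) (b a : K)
    (h : modEqVal p c b a = 0) (ha : 1 < A.valuation a)
    (hba : A.valuation b ^ p = A.valuation a) : modEqDerivY p c b a ≠ 0 := by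
  set v := A.valuation b with hv
  set u := A.valuation a with hu
  have hp0 : p ≠ 0 := by omega
  have hu0 : 0 < u := zero_lt_one.trans ha
  have hv1 : 1 < v := by
    by_contra hcon
    rw [not_lt] at hcon
    have h1 : v ^ p ≤ 1 := pow_le_one₀ zero_le hcon
    rw [hba] at h1
    exact absurd ha (not_lt.mpr h1)
  have hv0 : 0 < v := zero_lt_one.trans hv1
  have hup : 0 < u ^ p := pow_pos hu0 p
  -- the equation
  unfold modEqVal at h
  simp only [Algebra.algebraMap_self_apply] at h
  set S := ∑ i ∈ range (p + 1), ∑ k ∈ range (p + 1), c i k * b ^ i * a ^ k with hS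
  -- Step A: `|a - b^p| ≤ v^(p-1)`
  have bS : A.valuation S ≤ v ^ (p - 1) * u ^ p := by
    apply val_lower_le A p c hc hcpp b (fun k => a ^ k)
    intro i k hi hk hik
    rw [map_pow]
    exact mono_le_branch hv1 hba hi hk hik
  have b1 : A.valuation (b ^ (p + 1)) ≤ v ^ (p - 1) * u ^ p := by
    rw [map_pow]
    have e : v ^ (p + 1) = v ^ (p - 1) * v ^ 2 := by
      rw [← pow_add]; congr 1; omega
    rw [e]
    have h2 : v ^ 2 ≤ u ^ p := by
      calc v ^ 2 ≤ v ^ p := pow_le_pow_right₀ hv1.le hp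
        _ = u := hba
        _ = u ^ 1 := (pow_one u).symm
        _ ≤ u ^ p := pow_le_pow_right₀ ha.le (by omega)
    exact mul_le_mul_right h2 _
  have e1 : a ^ p * (a - b ^ p) = -(b ^ (p + 1) + S) := by linear_combination h
  have bA : A.valuation (a - b ^ p) ≤ v ^ (p - 1) := by
    have h3 : A.valuation (a ^ p * (a - b ^ p)) ≤ v ^ (p - 1) * u ^ p := by
      rw [e1, Valuation.map_neg]
      exact Valuation.map_add_le _ b1 bS
    rw [map_mul, map_pow, mul_comm] at h3
    exact le_of_mul_le_mul_right h3 hup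
  -- Step B: `|a + p (a - b^p)| = u`
  have bB : A.valuation (a + (p : K) * (a - b ^ p)) = u := by
    apply Valuation.map_add_eq_of_lt_left
    rw [map_mul]
    calc A.valuation (p : K) * A.valuation (a - b ^ p)
        ≤ 1 * v ^ (p - 1) := mul_le_mul' (val_natCast_le_one A p) bA
      _ = v ^ (p - 1) := one_mul _
      _ < v ^ p := pow_lt_pow_right₀ hv1 (by omega)
      _ = u := hba
  -- Step C: the main term
  have hap : a ^ p = a ^ (p - 1) * a := (pow_sub_one_mul hp0 a).symm
  have hup' : u ^ p = u ^ (p - 1) * u := (pow_sub_one_mul hp0 u).symm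
  set T := a ^ (p - 1) * (a + (p : K) * (a - b ^ p)) with hT
  have bT : A.valuation T = u ^ p := by
    rw [hT, map_mul, map_pow, bB, ← hup']
  -- Step D: the lower terms of the derivative
  set S' := ∑ i ∈ range (p + 1), ∑ k ∈ range (p + 1),
      c i k * b ^ i * ((k : ℕ) * a ^ (k - 1)) with hS'
  have bS' : A.valuation S' < u ^ p := by
    apply Valuation.map_sum_lt _ hup.ne'
    intro i hi
    apply Valuation.map_sum_lt _ hup.ne'
    intro k hk
    rw [mem_range] at hi hk
    by_cases hik : i = p ∧ k = p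
    · obtain ⟨rfl, rfl⟩ := hik
      rw [hcpp, zero_mul, zero_mul, map_zero]
      exact hup
    · rcases Nat.eq_zero_or_pos k with hk0 | hk0
      · rw [hk0, Nat.cast_zero, zero_mul, mul_zero, map_zero]
        exact hup
      · obtain ⟨k', rfl⟩ : ∃ k', k = k' + 1 := ⟨k - 1, by omega⟩
        have h4 := mono_lt_branch hv1 (by omega : 1 ≤ p) hba (i := i) (k := k') (by omega)
          (by omega) hik
        calc A.valuation (c i (k' + 1) * b ^ i * (((k' + 1 : ℕ) : K) * a ^ (k' + 1 - 1)))
            = A.valuation (c i (k' + 1)) * A.valuation (((k' + 1 : ℕ) : K)) *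
                (v ^ i * u ^ k') := by
              rw [map_mul, map_mul, map_mul, map_pow, map_pow, Nat.add_sub_cancel]
              exact mul_mul_mul_comm _ _ _ _
          _ ≤ 1 * 1 * (v ^ i * u ^ k') :=
              mul_le_mul_left (mul_le_mul' (hc i (k' + 1)) (val_natCast_le_one A _)) _
          _ = v ^ i * u ^ k' := by rw [one_mul, one_mul]
          _ < u ^ p := h4
  -- Step E
  have eD : modEqDerivY p c b a = T + S' := by
    unfold modEqDerivY
    rw [hT, hap]
    push_cast
    ring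
  intro h0
  have h5 : A.valuation (T + S') = A.valuation T :=
    Valuation.map_add_eq_of_lt_left _ (by rw [bT]; exact bS')
  rw [← eD, h0, map_zero, bT] at h5
  exact hup.ne h5

theorem stmt_newtonVal_simple : Stmt_newtonVal_simple := by
  intro K _ A p hp c hc hcpp b a h ha hba
  exact newtonVal_simple A p hp c hc hcpp b a h ha hba

end Fermat.Agent.S15.H63

end
-- ==== END Fermat.Agent.S15.H63_NewtonVal

-- ==== BEGIN Fermat.Agent.S17.W2.H18_GeoEv
section
attribute [local instance 10000] SubalgebraClass.toAlgebra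
attribute [local instance 10000] HahnSeries.powerSeriesAlgebra

/-!
# S17-W2, package GEO, parts E1–E3: evaluation at a generic place (helper18)

* `HasVal P f a`: `f - a` vanishes at `P`; calculus of values.
* `stmt_E3`: evaluation is equivariant.
* `stmt_E12`: a place with `j`-value transcendental over `K` has an evaluation homomorphism on
  `K(X₀(N))` (from `Stmt_Gb`: `K(X₀(N))` is algebraic over `K(j)`).
-/

set_option autoImplicit false
set_option linter.unusedSectionVars false

noncomputable section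

namespace Fermat.Agent.S17.W2.H18

open AlgebraicCurve IntermediateField ModularCurve Fermat.Agent.GTor Fermat.Agent.RED Polynomial

/-! ## Values at a place -/

section Val

variable {Ω F : Type*} [Field Ω] [Field F] [Algebra Ω F]

/-- `f` has the value `a` at `P`. -/
def HasVal (P : Place Ω F) (f : F) (a : Ω) : Prop := H17.VanAt P (f - algebraMap Ω F a)

variable {P : Place Ω F} {f g : F} {a b : Ω}

theorem HasVal.regAt (h : HasVal P f a) : H17.RegAt P f := H17.RegAt.of_vanAt_sub h

theorem hasVal_algebraMap (P : Place Ω F) (a : Ω) : HasVal P (algebraMap Ω F a) a := by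
  unfold HasVal
  rw [sub_self]
  exact H17.vanAt_zero P

theorem hasVal_zero (P : Place Ω F) : HasVal P (0 : F) 0 := by
  simpa using hasVal_algebraMap P (0 : Ω)

theorem hasVal_one (P : Place Ω F) : HasVal P (1 : F) 1 := by
  simpa using hasVal_algebraMap P (1 : Ω)

theorem HasVal.unique (h : HasVal P f a) (h' : HasVal P f b) : a = b :=
  H17.value_unique P h h'

theorem HasVal.add (h : HasVal P f a) (h' : HasVal P g b) : HasVal P (f + g) (a + b) := by
  unfold HasVal at *
  have := h.add h'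
  rw [map_add]
  rwa [show f + g - (algebraMap Ω F a + algebraMap Ω F b)
    = f - algebraMap Ω F a + (g - algebraMap Ω F b) by ring]

theorem HasVal.neg (h : HasVal P f a) : HasVal P (-f) (-a) := by
  unfold HasVal at *
  have := h.neg
  rw [map_neg]
  rwa [show -f - -algebraMap Ω F a = -(f - algebraMap Ω F a) by ring]

theorem HasVal.sub (h : HasVal P f a) (h' : HasVal P g b) : HasVal P (f - g) (a - b) := by
  rw [sub_eq_add_neg, sub_eq_add_neg]
  exact h.add h'.neg

theorem HasVal.mul (h : HasVal P f a) (h' : HasVal P g b) : HasVal P (f * g) (a * b) := by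
  have h1 : H17.VanAt P ((f - algebraMap Ω F a) * g) := H17.VanAt.mul_regAt h h'.regAt
  have h2 : H17.VanAt P (algebraMap Ω F a * (g - algebraMap Ω F b)) :=
    H17.RegAt.mul_vanAt (H17.regAt_algebraMap P a) h'
  unfold HasVal
  have := h1.add h2
  rw [map_mul]
  rwa [show f * g - algebraMap Ω F a * algebraMap Ω F b
    = (f - algebraMap Ω F a) * g + algebraMap Ω F a * (g - algebraMap Ω F b) by ring]

theorem HasVal.pow (h : HasVal P f a) (n : ℕ) : HasVal P (f ^ n) (a ^ n) := by
  induction n with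
  | zero => simpa using hasVal_one P
  | succ n ih => rw [pow_succ, pow_succ]; exact ih.mul h

theorem HasVal.adicValuation_eq_one (h : HasVal P f a) (ha : a ≠ 0) :
    P.adicValuation f = 1 := by
  have h1 : P.adicValuation (algebraMap Ω F a) = 1 := H17.adicValuation_algebraMap P ha
  have h2 : P.adicValuation (f - algebraMap Ω F a) < 1 := h
  have h3 : f = algebraMap Ω F a + (f - algebraMap Ω F a) := by ring
  rw [h3, Valuation.map_add_eq_of_lt_left _ (by rw [h1]; exact h2), h1]

theorem HasVal.ne_zero (h : HasVal P f a) (ha : a ≠ 0) : f ≠ 0 := by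
  intro hf
  have := h.adicValuation_eq_one ha
  rw [hf, map_zero] at this
  exact zero_ne_one this

theorem HasVal.inv (h : HasVal P f a) (ha : a ≠ 0) : HasVal P f⁻¹ a⁻¹ := by
  have hf : f ≠ 0 := h.ne_zero ha
  have hreg : H17.RegAt P f⁻¹ := by
    unfold H17.RegAt
    rw [map_inv₀, h.adicValuation_eq_one ha, inv_one]
  have h1 : H17.VanAt P ((f - algebraMap Ω F a) * f⁻¹) := H17.VanAt.mul_regAt h hreg
  have h2 : H17.VanAt P (-(algebraMap Ω F a⁻¹) * ((f - algebraMap Ω F a) * f⁻¹)) :=
    H17.RegAt.mul_vanAt (H17.regAt_algebraMap P a⁻¹).neg h1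
  unfold HasVal
  have hne : algebraMap Ω F a ≠ 0 := by
    rw [Ne, map_eq_zero_iff _ (algebraMap Ω F).injective]
    exact ha
  rw [show f⁻¹ - algebraMap Ω F a⁻¹
    = -(algebraMap Ω F a⁻¹) * ((f - algebraMap Ω F a) * f⁻¹) by
      rw [map_inv₀]
      field_simp
      ring]
  exact h2

theorem HasVal.div (h : HasVal P f a) (h' : HasVal P g b) (hb : b ≠ 0) :
    HasVal P (f / g) (a / b) := by
  rw [div_eq_mul_inv, div_eq_mul_inv]
  exact h.mul (h'.inv hb)

theorem HasVal.ord_eq_zero (h : HasVal P f a) (ha : a ≠ 0) : P.ord f = 0 := by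
  have hf := h.ne_zero ha
  have h1 : 0 ≤ P.ord f := h.regAt.ord_nonneg
  have h2 : 0 ≤ P.ord f⁻¹ := (h.inv ha).regAt.ord_nonneg
  rw [P.ord_inv] at h2
  omega

theorem hasVal_smul (g : SemilinearAut Ω F) (h : HasVal P f a) :
    HasVal (g • P) (g • f) (SemilinearAut.baseAut g a) := by
  unfold HasVal at *
  rw [← SemilinearAut.smul_algebraMap, ← smul_sub]
  rw [H17.vanAt_iff_ord] at h ⊢
  rcases h with h | h
  · left
    rw [h, smul_zero]
  · right
    rw [SemilinearAut.ord_smul]
    exact h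

end Val

/-! ## The abstract layer -/

section Abstract

variable {K Ω : Type} [Field K] [Field Ω] [Algebra ℚ K] [Algebra ℚ Ω] [Algebra K Ω] (N : ℕ)

theorem isEv_iff (P : Place Ω (FNL Ω N)) (φ : FNL K N →+* Ω) :
    IsEv N P φ ↔ ∀ e : FNL K N, HasVal P (bc K Ω N e) (φ e) := Iff.rfl

theorem bc_algebraMap (c : K) :
    bc K Ω N (algebraMap K (FNL K N) c) = algebraMap Ω (FNL Ω N) (algebraMap K Ω c) :=
  H75.bcHom_algebraMap _ _ c

theorem bc_jL [NeZero N] : bc K Ω N (H33.jL K N) = H33.jL Ω N :=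
  Subtype.ext (H75.coeffMap_coeffEmb' (algebraMap K Ω) jq)

theorem smul_bc (τ : Ω ≃ₐ[ℚ] Ω) (hτ : ∀ c : K, τ (algebraMap K Ω c) = algebraMap K Ω c)
    (e : FNL K N) :
    arithmeticGalois (modularFunctionFieldFull N) τ • bc K Ω N e = bc K Ω N e := by
  apply Subtype.ext
  show coeffMap (τ : Ω →+* Ω) (coeffMap (algebraMap K Ω) (e : LaurentSeries K))
    = coeffMap (algebraMap K Ω) (e : LaurentSeries K)
  rw [coeffMap_coeffMap]
  exact coeffMap_congr (RingHom.ext fun c => hτ c) _

/-- **E3**. -/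
theorem stmt_E3 : Stmt_E3 K Ω N := by
  intro P φ τ hτ hev e
  have h := hasVal_smul (arithmeticGalois (modularFunctionFieldFull N) τ) (hev e)
  rw [smul_bc N τ hτ] at h
  exact h

theorem zeroAt_iff [NeZero N] (P : Place Ω (FNL Ω N)) (t : Ω) :
    ZeroAt N P t ↔ HasVal P (H33.jL Ω N) t := by
  unfold ZeroAt HasVal
  rw [H17.vanAt_iff_ord]
  constructor
  · intro h; exact Or.inr h
  · rintro (h | h)
    · exact absurd (sub_eq_zero.mp h) (H33.jL_ne_algebraMap Ω N t)
    · exact h

theorem zeroAt_smul [NeZero N] {P : Place Ω (FNL Ω N)} {t : Ω} (h : ZeroAt N P t)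
    (τ : Ω ≃ₐ[ℚ] Ω) :
    ZeroAt N (arithmeticGalois (modularFunctionFieldFull N) τ • P) (τ t) := by
  rw [zeroAt_iff] at h ⊢
  have h2 := hasVal_smul (arithmeticGalois (modularFunctionFieldFull N) τ) h
  have h3 : arithmeticGalois (modularFunctionFieldFull N) τ • H33.jL Ω N = H33.jL Ω N :=
    Subtype.ext (coeffMap_coeffEmb τ jq)
  rw [h3] at h2
  exact h2

variable [NeZero N]

/-- The value of a polynomial in `j`. -/
theorem hasVal_eval₂ {P : Place Ω (FNL Ω N)} {t : Ω} (h : ZeroAt N P t) (p : K[X]) :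
    HasVal P (bc K Ω N (eval₂ (algebraMap K (FNL K N)) (H33.jL K N) p))
      (eval₂ (algebraMap K Ω) t p) := by
  rw [zeroAt_iff] at h
  induction p using Polynomial.induction_on' with
  | add p q hp hq =>
    rw [eval₂_add, eval₂_add, map_add]
    exact hp.add hq
  | monomial n c =>
    rw [eval₂_monomial, eval₂_monomial, map_mul, map_pow, bc_algebraMap, bc_jL]
    exact (hasVal_algebraMap P _).mul (h.pow n)

set_option synthInstance.maxHeartbeats 400000 in
theorem hasVal_aeval {P : Place Ω (FNL Ω N)} {t : Ω} (h : ZeroAt N P t) (p : K[X]) :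
    HasVal P (bc K Ω N (aeval (H33.jL K N) p)) (aeval t p) := by
  rw [aeval_def, aeval_def]
  exact hasVal_eval₂ N h p

set_option synthInstance.maxHeartbeats 400000 in
/-- The functions in `K(j)` are regular at a generic place. -/
theorem regAt_of_mem_adjoin {P : Place Ω (FNL Ω N)} {t : Ω} (h : ZeroAt N P t)
    (ht : Transcendental K t) {a : FNL K N} (ha : a ∈ K⟮H33.jL K N⟯) :
    H17.RegAt P (bc K Ω N a) := by
  obtain ⟨r, s, rfl⟩ := (mem_adjoin_simple_iff K a).mp ha
  by_cases hs : s = 0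
  · rw [hs, map_zero, div_zero, map_zero]
    exact H17.regAt_zero P
  · have hst : aeval t s ≠ 0 := fun h0 => hs ((transcendental_iff.mp ht) s h0)
    rw [map_div₀]
    exact ((hasVal_aeval N h r).div (hasVal_aeval N h s) hst).regAt

set_option synthInstance.maxHeartbeats 400000 in
/-- **E1**: all functions defined over `K` are regular at a generic place. -/
theorem regAt_bc (hGb : Stmt_Gb K N) {P : Place Ω (FNL Ω N)} {t : Ω} (h : ZeroAt N P t)
    (ht : Transcendental K t) (e : FNL K N) : H17.RegAt P (bc K Ω N e) := by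
  rw [H17.regAt_iff_mem]
  let V : ValuationSubring (FNL K N) := P.toValuationSubring.comap (bc K Ω N)
  show e ∈ V
  have hle : ∀ a : FNL K N, a ∈ K⟮H33.jL K N⟯ → a ∈ V := fun a ha =>
    (H17.regAt_iff_mem P _).mp (regAt_of_mem_adjoin N h ht ha)
  let ψ : K⟮H33.jL K N⟯ →+* V :=
    { toFun := fun a => ⟨(a : FNL K N), hle a a.2⟩
      map_one' := rfl
      map_mul' := fun _ _ => rfl
      map_zero' := rfl
      map_add' := fun _ _ => rfl }
  have hint : IsIntegral K⟮H33.jL K N⟯ e := (hGb e).isIntegral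
  obtain ⟨p, hp, hpe⟩ := hint
  have hV : IsIntegral V e := by
    refine ⟨p.map ψ, hp.map ψ, ?_⟩
    rw [eval₂_map]
    exact hpe
  obtain ⟨y, hy⟩ := IsIntegrallyClosed.isIntegral_iff.mp hV
  rw [← hy]
  exact y.2

/-- **E1 + E2**. -/
theorem stmt_E12 [IsAlgClosed Ω] [CharZero Ω] (hGb : Stmt_Gb K N) : Stmt_E12 K Ω N := by
  intro P t h ht
  have hFF : IsFF Ω (FNL Ω N) := H33.exists_transcendental_finite Ω N
  have hdeg : P.deg = 1 := H51.stmt_FFB_deg Ω (FNL Ω N) hFF P
  have hex : ∀ e : FNL K N, ∃ c : Ω, HasVal P (bc K Ω N e) c := fun e =>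
    H17.exists_value P hdeg (regAt_bc N hGb h ht e)
  choose φ hφ using hex
  have huniq : ∀ (e : FNL K N) (c : Ω), HasVal P (bc K Ω N e) c → φ e = c := fun e c hc =>
    (hφ e).unique hc
  refine ⟨{ toFun := φ
            map_one' := huniq 1 1 (by rw [map_one]; exact hasVal_one P)
            map_mul' := fun x y => huniq _ _ (by rw [map_mul]; exact (hφ x).mul (hφ y))
            map_zero' := huniq 0 0 (by rw [map_zero]; exact hasVal_zero P)
            map_add' := fun x y => huniq _ _ (by rw [map_add]; exact (hφ x).add (hφ y)) },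
    fun e => hφ e, ?_, fun c => ?_⟩
  · refine huniq _ _ ?_
    rw [bc_jL]
    exact (zeroAt_iff N P t).mp h
  · refine huniq _ _ ?_
    rw [bc_algebraMap]
    exact hasVal_algebraMap P _

end Abstract

end Fermat.Agent.S17.W2.H18

end
end
-- ==== END Fermat.Agent.S17.W2.H18_GeoEv

-- ==== BEGIN Fermat.Agent.S17.W2.H18_GeoSetting
section
attribute [local instance 10000] SubalgebraClass.toAlgebra
attribute [local instance 10000] HahnSeries.powerSeriesAlgebra

/-!
# S17-W2, package GEO, part G-a: the `Setting` on `Ω(X₀(N))` (helper18)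
-/

set_option autoImplicit false
set_option linter.unusedSectionVars false

noncomputable section

namespace Fermat.Agent.S17.W2.H18

open AlgebraicCurve IntermediateField ModularCurve Fermat.Agent.GTor Fermat.Agent.RED
open scoped Pointwise

section Order

variable (Ω : Type) [Field Ω] [Algebra ℚ Ω] (N : ℕ) [NeZero N]

theorem jL_coe : ((H33.jL Ω N : FNL Ω N) : LaurentSeries Ω) = coeffEmb Ω jq := rfl

theorem jL_ne_zero : H33.jL Ω N ≠ 0 := by
  intro h
  have h1 := H33.jL_ne_algebraMap Ω N 0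
  rw [map_zero] at h1
  exact h1 h

theorem jL_order : ((H33.jL Ω N : FNL Ω N) : LaurentSeries Ω).order = -1 := by
  have hne : ((H33.jL Ω N : FNL Ω N) : LaurentSeries Ω) ≠ 0 := fun h =>
    jL_ne_zero Ω N (Subtype.ext h)
  apply le_antisymm
  · refine HahnSeries.order_le_of_coeff_ne_zero ?_
    rw [jL_coe, coeffEmb_coeff, coeff_jq_neg_one, map_one]
    exact one_ne_zero
  · by_contra hcon
    rw [not_le] at hcon
    have h1 : ((H33.jL Ω N : FNL Ω N) : LaurentSeries Ω).coeff
        ((H33.jL Ω N : FNL Ω N) : LaurentSeries Ω).order = 0 := by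
      rw [jL_coe, coeffEmb_coeff, coeff_jq_of_lt (by rw [← jL_coe Ω N]; exact hcon), map_zero]
    exact hne (HahnSeries.coeff_order_eq_zero.mp h1)

/-- The place `q = 0` of `Ω(X₀(N))`. -/
def ooPlace : Place Ω (FNL Ω N) :=
  KD.H22.laurentPlace (laurentBaseChange Ω (modularFunctionFieldFull N)) (H33.jL Ω N)
    (jL_order Ω N)

theorem mem_ooPlace_iff (x : FNL Ω N) :
    x ∈ (ooPlace Ω N).toValuationSubring ↔ x = 0 ∨ 0 ≤ (x : LaurentSeries Ω).order :=
  KD.H22.mem_laurentPlace_iff _ _ _ x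

theorem order_coeffMap (τ : Ω ≃+* Ω) (x : LaurentSeries Ω) :
    (coeffMap (τ : Ω →+* Ω) x).order = x.order := by
  rcases eq_or_ne x 0 with rfl | hx
  · simp
  have hinj : Function.Injective (coeffMap (τ : Ω →+* Ω)) := fun a b h => by
    ext m
    have := congrArg (fun z => z.coeff m) h
    simpa using this
  have hx' : coeffMap (τ : Ω →+* Ω) x ≠ 0 := fun h => hx (hinj (by rw [h, map_zero]))
  apply le_antisymm
  · refine HahnSeries.order_le_of_coeff_ne_zero ?_
    rw [coeffMap_coeff]
    intro h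
    have h2 : x.coeff x.order = 0 := by
      have := congrArg τ.symm h
      simpa using this
    exact hx (HahnSeries.coeff_order_eq_zero.mp h2)
  · refine HahnSeries.order_le_of_coeff_ne_zero ?_
    intro h
    have h2 : (coeffMap (τ : Ω →+* Ω) x).coeff (coeffMap (τ : Ω →+* Ω) x).order = 0 := by
      rw [coeffMap_coeff, h, map_zero]
    exact hx' (HahnSeries.coeff_order_eq_zero.mp h2)

theorem smul_ooPlace (τ : Ω ≃ₐ[ℚ] Ω) :
    arithmeticGalois (modularFunctionFieldFull N) τ • ooPlace Ω N = ooPlace Ω N := by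
  ext1
  rw [SemilinearAut.smul_toValuationSubring]
  ext x
  rw [ValuationSubring.mem_pointwise_smul_iff_inv_smul_mem, mem_ooPlace_iff, mem_ooPlace_iff]
  have hcoe : (((arithmeticGalois (modularFunctionFieldFull N) τ)⁻¹ • x : FNL Ω N) :
      LaurentSeries Ω) = coeffMap ((τ.symm : Ω ≃ₐ[ℚ] Ω) : Ω →+* Ω) (x : LaurentSeries Ω) := rfl
  have h0 : ((arithmeticGalois (modularFunctionFieldFull N) τ)⁻¹ • x = 0) ↔ x = 0 :=
    smul_eq_zero_iff_eq _
  rw [h0, hcoe]
  have := order_coeffMap Ω (τ.symm : Ω ≃ₐ[ℚ] Ω).toRingEquiv (x : LaurentSeries Ω)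
  rw [show (((τ.symm : Ω ≃ₐ[ℚ] Ω).toRingEquiv : Ω ≃+* Ω) : Ω →+* Ω)
    = ((τ.symm : Ω ≃ₐ[ℚ] Ω) : Ω →+* Ω) from rfl] at this
  rw [this]

theorem smul_jL (τ : Ω ≃ₐ[ℚ] Ω) :
    arithmeticGalois (modularFunctionFieldFull N) τ • H33.jL Ω N = H33.jL Ω N :=
  Subtype.ext (coeffMap_coeffEmb τ jq)

end Order

section Setting

variable (Ω : Type) [Field Ω] [Algebra ℚ Ω] [Algebra (AlgebraicClosure ℚ) Ω] (N : ℕ) [NeZero N]

/-- Restriction of scalars `Aut(Ω / ℚ̄) → Aut(Ω / ℚ)`. -/
def resQ : (Ω ≃ₐ[AlgebraicClosure ℚ] Ω) →* (Ω ≃ₐ[ℚ] Ω) where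
  toFun σ := σ.restrictScalars ℚ
  map_one' := rfl
  map_mul' _ _ := rfl

@[simp] theorem resQ_apply (σ : Ω ≃ₐ[AlgebraicClosure ℚ] Ω) (a : Ω) : resQ Ω σ a = σ a := rfl

/-- The coefficientwise action of `Aut(Ω / ℚ̄)` on `Ω(X₀(N))`. -/
def rho : (Ω ≃ₐ[AlgebraicClosure ℚ] Ω) →* SemilinearAut Ω (FNL Ω N) :=
  (arithmeticGalois (modularFunctionFieldFull N)).comp (resQ Ω)

theorem rho_apply (σ : Ω ≃ₐ[AlgebraicClosure ℚ] Ω) :
    rho Ω N σ = arithmeticGalois (modularFunctionFieldFull N) (resQ Ω σ) := rfl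

/-- **G-a**: the setting on `Ω(X₀(N))`. -/
def geoSetting : Setting (AlgebraicClosure ℚ) Ω (FNL Ω N) where
  ρ := rho Ω N
  baseAut_ρ := fun _ _ => rfl
  j := H33.jL Ω N
  ρ_j := fun σ => smul_jL Ω N (resQ Ω σ)
  oo := ooPlace Ω N
  ρ_oo := fun σ => smul_ooPlace Ω N (resQ Ω σ)

@[simp] theorem geoSetting_j : (geoSetting Ω N).j = H33.jL Ω N := rfl

@[simp] theorem geoSetting_ρ (σ : Ω ≃ₐ[AlgebraicClosure ℚ] Ω) :
    (geoSetting Ω N).ρ σ = arithmeticGalois (modularFunctionFieldFull N) (resQ Ω σ) := rfl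

theorem geoSetting_isZeroAt (P : Place Ω (FNL Ω N)) (t : Ω) :
    (geoSetting Ω N).IsZeroAt P t ↔ ZeroAt N P t := Iff.rfl

theorem geoSetting_j_ne (c : Ω) : (geoSetting Ω N).j ≠ algebraMap Ω (FNL Ω N) c :=
  H33.jL_ne_algebraMap Ω N c

end Setting

end Fermat.Agent.S17.W2.H18

end
end
-- ==== END Fermat.Agent.S17.W2.H18_GeoSetting
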