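-- GENERATED (merged mirror, NOTES/tools/trim/merge3_helper67.py): 7 modules of the originals, bodies verbatim.
import Fermat.Agent.Zm.S44_L03_002
import Fermat.Agent.Zm.S44_L03_001
import Fermat.Agent.Zm.S44_L02_002
import Fermat.Agent.Zm.S44_L02_003
import Fermat.Agent.Zm.S35_L08_004
import Fermat.Agent.Zm.S44_L03_003
import Fermat.Agent.Zm.S44_L02_004
import Fermat.Agent.Lib.TorsionGen.MulFormula

-- ==== BEGIN Fermat.Agent.S13.WP3.I4Final
section

set_option autoImplicit false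

namespace Fermat.Agent.S13.WP3

open WeierstrassCurve WeierstrassCurve.Affine WeierstrassCurve.Affine.Point

/-- (2D) the component homomorphism, proved. -/
theorem stmt2_M1 {L : Type*} [Field L] [DecidableEq L] : Stmt2_M1 (L := L) :=
  M1.M1_of_cases H6.E0_add H6.E0C H4.cc H4.addT

/-- (2F) the core of (I4), from piece (2B). -/
theorem stmt2_coreI4_of
    (hE1a : ∀ (L : Type) [Field L] [DecidableEq L], Stmt2_E1_add (L := L))
    (hE1n : ∀ (L : Type) [Field L] [DecidableEq L], Stmt2_E1_neg (L := L))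
    (hF1 : ∀ (L : Type) [Field L] [DecidableEq L], Stmt2_F1 (L := L)) : Stmt2_coreI4 := by
  intro K₀ L _ _ _ _ _ A W' hyp n hn σ hσv hσr P hP
  exact H5.coreI4_of stmt2_M1 M1.annulus H38.sameRed (hE1a L) (hE1n L) (hF1 L)
    A W' hyp n hn σ hσv hσr P hP

/-- (I4) from piece (2B). -/
theorem two_unipotent_of_2B
    (hE1a : ∀ (L : Type) [Field L] [DecidableEq L], Stmt2_E1_add (L := L))
    (hE1n : ∀ (L : Type) [Field L] [DecidableEq L], Stmt2_E1_neg (L := L))
    (hF1 : ∀ (L : Type) [Field L] [DecidableEq L], Stmt2_F1 (L := L)) :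
    Fermat.Agent.S13.Stmt_two_unipotent :=
  two_unipotent_of (stmt2_coreI4_of hE1a hE1n hF1) H15.arith2 Fermat.Agent.S05.inertia
    H6.E0_add

end Fermat.Agent.S13.WP3

end
-- ==== END Fermat.Agent.S13.WP3.I4Final

-- ==== BEGIN Fermat.Agent.S15.H23_ModEq
section

/-!
# S15 / BRIDGE / MODEQ (helper23), part 2b: the modular equation of prime level

`Φ_p(j, Y) = ∏_A (Y - j ∘ A)`; the coefficients are `SL(2, ℤ)`-invariant, hence polynomials in `j`
(S24 `lemmaJ`), with integral coefficients and the degrees read off from the `u`-expansions.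

Main result: `stmt_modEq : Stmt_modEq`.
-/

set_option autoImplicit false

noncomputable section

namespace Fermat.Agent.S15.H23

open Fermat.Agent.S24 ModularCurve UpperHalfPlane Polynomial
open scoped MatrixGroups

/-! ## Series facts -/

section Series

variable {K : Type*} [Field K]

theorem ordGE_qExpand (N : ℕ) [NeZero N] {f : LaurentSeries K} {n : ℤ} (hf : OrdGE f n) :
    OrdGE (qExpand K N f) ((N : ℤ) * n) := by
  intro k hk
  by_cases hd : (N : ℤ) ∣ k
  · obtain ⟨m, rfl⟩ := hd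
    rw [qExpand_coeff_mul]
    apply hf
    have hN : (0 : ℤ) < N := by exact_mod_cast Nat.pos_of_ne_zero (NeZero.ne N)
    exact lt_of_mul_lt_mul_left hk hN.le
  · exact qExpand_coeff_of_not_dvd N f hd

theorem qExpand_mem_intSer (N : ℕ) [NeZero N] {f : LaurentSeries K} (hf : f ∈ intSer K) :
    qExpand K N f ∈ intSer K := by
  rw [mem_intSer] at hf ⊢
  intro k
  by_cases hd : (N : ℤ) ∣ k
  · obtain ⟨m, rfl⟩ := hd
    rw [qExpand_coeff_mul]
    exact hf m
  · rw [qExpand_coeff_of_not_dvd N f hd]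
    exact isIntegral_zero

theorem ordGE_twist (z : K) {f : LaurentSeries K} {n : ℤ} (hf : OrdGE f n) :
    OrdGE (twist z f) n := by
  intro k hk
  rw [twist_coeff, hf k hk, mul_zero]

theorem twist_mem_intSer (z : K) (m : ℕ) (hm : 0 < m) (hz : z ^ m = 1) {f : LaurentSeries K}
    (hf : f ∈ intSer K) : twist z f ∈ intSer K := by
  rw [mem_intSer] at hf ⊢
  intro k
  rw [twist_coeff]
  refine IsIntegral.mul ?_ (hf k)
  apply IsIntegral.of_pow hm
  have : (z ^ k) ^ m = 1 := by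
    rw [← zpow_natCast, ← zpow_mul, mul_comm, zpow_mul, zpow_natCast, hz, one_zpow]
  rw [this]
  exact isIntegral_one

end Series

theorem ordGE_jBar : OrdGE S24.jBar (-1) := fun _ hk => jBar_coeff_of_lt hk

theorem jBar_mem_intSer : S24.jBar ∈ intSer Kbar := by
  rw [mem_intSer]
  intro k
  rw [S24.jBar, coeffEmb_coeff]
  obtain ⟨m, hm⟩ := Fermat.Agent.S28.jq_coeff_int k
  rw [hm]
  have : algebraMap ℚ Kbar (m : ℚ) = algebraMap ℤ Kbar m := by simp
  rw [this]
  exact isIntegral_algebraMap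

/-! ## The polynomial `Φ_p(j, Y) = ∏ (Y - j ∘ A)` -/

variable (p : ℕ) [NeZero p]

/-- The roots, in `AT p`. -/
def rootSetT : Multiset (AT p) := rootSet p

/-- `Φ_p(j, Y) = ∏ (Y - j ∘ A)`. -/
def PhiT : (AT p)[X] := ((rootSetT p).map (fun r => X - C r)).prod

theorem map_smul_rootSetT (hp : p.Prime) (γ : SL(2, ℤ)) :
    (rootSetT p).map (fun r => γ • r) = rootSetT p := map_smul_rootSet p hp γ

theorem PhiT_map_smul (hp : p.Prime) (γ : SL(2, ℤ)) :
    (PhiT p).map (MulSemiringAction.toRingHom SL(2, ℤ) (AT p) γ) = PhiT p := by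
  rw [PhiT, Polynomial.map_multiset_prod, Multiset.map_map]
  conv_rhs => rw [← map_smul_rootSetT p hp γ, Multiset.map_map]
  congr 1
  apply Multiset.map_congr rfl
  intro r _
  simp only [Function.comp_apply, Polynomial.map_sub, Polynomial.map_X, Polynomial.map_C,
    MulSemiringAction.toRingHom_apply]

theorem smul_PhiT_coeff (hp : p.Prime) (γ : SL(2, ℤ)) (k : ℕ) :
    γ • (PhiT p).coeff k = (PhiT p).coeff k := by
  have h := congrArg (fun P => P.coeff k) (PhiT_map_smul p hp γ)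
  simp only [Polynomial.coeff_map, MulSemiringAction.toRingHom_apply] at h
  exact h

/-- `J = j (u ^ p)`. -/
def Jser : LaurentSeries Kbar := qExpand Kbar p S24.jBar

/-- Lemma J, in terms of expansions. -/
theorem lemmaJT (f : AT p) (hf : ∀ γ : SL(2, ℤ), γ • f = f) :
    ∃ P : Kbar[X], aeval (Jser p) P = uExpT p f := by
  obtain ⟨P, hP⟩ := lemmaJ p f hf
  refine ⟨P, ?_⟩
  have h1 : uExp p (aeval (jA p) P) = aeval (uExp p (jA p)) P :=
    (Polynomial.aeval_algHom_apply (uExp p) (jA p) P).symm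
  rw [hP, uExp_jA] at h1
  exact h1.symm

/-- The coefficients `Q_k ∈ Q̄[X]` of `Φ_p = ∑ Q_k(j) Y ^ k`. -/
def Qpol (hp : p.Prime) (k : ℕ) : Kbar[X] :=
  (lemmaJT p ((PhiT p).coeff k) (fun γ => smul_PhiT_coeff p hp γ k)).choose

theorem aeval_Qpol (hp : p.Prime) (k : ℕ) :
    aeval (Jser p) (Qpol p hp k) = uExpT p ((PhiT p).coeff k) :=
  (lemmaJT p ((PhiT p).coeff k) (fun γ => smul_PhiT_coeff p hp γ k)).choose_spec

/-! ## The expansion of `Φ_p` -/

/-- `R_∞ = j (u ^ (p²))`. -/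
def Rinf : LaurentSeries Kbar := qExpand Kbar p (Jser p)

/-- `R_b = j (ζ ^ b u)`. -/
def Rb (b : ℕ) : LaurentSeries Kbar := twist (zetaK p ^ (b : ℤ)) S24.jBar

theorem uExpT_rootInf : uExpT p (toAT p (rootInf p)) = Rinf p := by
  show uExp p (rootInf p) = Rinf p
  rw [uExp_rootInf, Rinf, Jser, qExpand_qExpand]

theorem uExpT_rootB (b : ℕ) : uExpT p (toAT p (rootB p (b : ℤ))) = Rb p b :=
  uExp_rootB p b

theorem rootSetT_eq : rootSetT p =
    toAT p (rootInf p) ::ₘ (Multiset.range p).map (fun b : ℕ => toAT p (rootB p (b : ℤ))) := rfl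

/-- The expansion of `Φ_p`. -/
def PhiU : (LaurentSeries Kbar)[X] :=
  (X - C (Rinf p)) * ∏ b ∈ Finset.range p, (X - C (Rb p b))

theorem PhiT_map_uExpT :
    (PhiT p).map (uExpT p : AT p →+* LaurentSeries Kbar) = PhiU p := by
  rw [PhiT, rootSetT_eq, Multiset.map_cons, Multiset.prod_cons, Polynomial.map_mul,
    Polynomial.map_multiset_prod, Multiset.map_map, Multiset.map_map, PhiU,
    Finset.prod_eq_multiset_prod, Finset.range_val]
  congr 1
  · rw [Polynomial.map_sub, Polynomial.map_X, Polynomial.map_C]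
    congr 2
    exact uExpT_rootInf p
  · congr 1
    apply Multiset.map_congr rfl
    intro b _
    simp only [Function.comp_apply, Polynomial.map_sub, Polynomial.map_X, Polynomial.map_C]
    congr 2
    exact uExpT_rootB p b

theorem PhiU_coeff (k : ℕ) : (PhiU p).coeff k = uExpT p ((PhiT p).coeff k) := by
  rw [← PhiT_map_uExpT, Polynomial.coeff_map]
  rfl

theorem aeval_Qpol' (hp : p.Prime) (k : ℕ) :
    aeval (Jser p) (Qpol p hp k) = (PhiU p).coeff k := by
  rw [aeval_Qpol, PhiU_coeff]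

/-! ### Orders and integrality of the roots -/

theorem ordGE_Jser : OrdGE (Jser p) (-(p : ℤ)) := by
  have h := ordGE_qExpand p ordGE_jBar
  rwa [mul_neg_one] at h

theorem Jser_coeff : (Jser p).coeff (-(p : ℤ)) = 1 := by
  have h := qExpand_coeff_mul p S24.jBar (-1)
  rw [mul_neg_one, jBar_coeff_neg_one] at h
  exact h

theorem Jser_mem_intSer : Jser p ∈ intSer Kbar := qExpand_mem_intSer p jBar_mem_intSer

theorem ordGE_Rinf : OrdGE (Rinf p) (-((p * p : ℕ) : ℤ)) := by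
  have h := ordGE_qExpand p (ordGE_Jser p)
  have e : (p : ℤ) * -(p : ℤ) = -((p * p : ℕ) : ℤ) := by push_cast; ring
  rwa [e] at h

theorem Rinf_coeff : (Rinf p).coeff (-((p * p : ℕ) : ℤ)) = 1 := by
  have h := qExpand_coeff_mul p (Jser p) (-(p : ℤ))
  have e : (p : ℤ) * -(p : ℤ) = -((p * p : ℕ) : ℤ) := by push_cast; ring
  rw [e, Jser_coeff] at h
  exact h

theorem Rinf_mem_intSer : Rinf p ∈ intSer Kbar := qExpand_mem_intSer p (Jser_mem_intSer p)

theorem ordGE_Rb (b : ℕ) : OrdGE (Rb p b) (-1) := ordGE_twist _ ordGE_jBar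

theorem Rb_coeff (b : ℕ) : (Rb p b).coeff (-1 : ℤ) = (zetaK p ^ b)⁻¹ := by
  rw [Rb, twist_coeff, jBar_coeff_neg_one, mul_one, zpow_neg_one, zpow_natCast]

theorem Rb_mem_intSer (b : ℕ) : Rb p b ∈ intSer Kbar := by
  refine twist_mem_intSer _ p (p_pos p) ?_ jBar_mem_intSer
  rw [zpow_natCast, ← pow_mul, mul_comm, pow_mul, (isPrimitiveRoot_zetaK p).pow_eq_one, one_pow]

theorem PhiU_coeff_mem_intSer (k : ℕ) : (PhiU p).coeff k ∈ intSer Kbar := by
  have hX : (X : (LaurentSeries Kbar)[X]) ∈ Polynomial.liftsRing (intSer Kbar).subtype :=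
    (Polynomial.lifts_iff_liftsRing _ _).mp (Polynomial.X_mem_lifts _)
  have hC : ∀ r : LaurentSeries Kbar, r ∈ intSer Kbar →
      (C r : (LaurentSeries Kbar)[X]) ∈ Polynomial.liftsRing (intSer Kbar).subtype := by
    intro r hr
    exact (Polynomial.lifts_iff_liftsRing _ _).mp
      (Polynomial.C_mem_lifts (intSer Kbar).subtype ⟨r, hr⟩)
  have h : PhiU p ∈ Polynomial.liftsRing (intSer Kbar).subtype := by
    rw [PhiU]
    refine Subring.mul_mem _ (Subring.sub_mem _ hX (hC _ (Rinf_mem_intSer p)))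
      (Subring.prod_mem _ fun b _ => Subring.sub_mem _ hX (hC _ (Rb_mem_intSer p b)))
  have h2 := (Polynomial.lifts_iff_coeff_lifts _).mp
    ((Polynomial.lifts_iff_liftsRing _ _).mpr h) k
  obtain ⟨⟨x, hx⟩, hxe⟩ := h2
  rw [← hxe]
  exact hx

/-! ## Degrees, leading coefficients, integrality -/

theorem PhiU_coeff_ordGE (k : ℕ) :
    OrdGE ((PhiU p).coeff k) ((k : ℤ) - p - ((p * p : ℕ) : ℤ)) := by
  have h := modEq_coeff_ordGE (Finset.range p) (fun b => Rb p b) (fun b _ => ordGE_Rb p b)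
    (Rinf p) (p * p) (Nat.mul_pos (p_pos p) (p_pos p)) (ordGE_Rinf p) k
  rw [Finset.card_range] at h
  exact h

theorem natDegree_Qpol_le (hp : p.Prime) (k : ℕ) (hk : 1 ≤ k) : (Qpol p hp k).natDegree ≤ p := by
  apply natDegree_le_of_ordGE (Jser p) p (p_pos p) (ordGE_Jser p) (Jser_coeff p) (Qpol p hp k) p
    ((k : ℤ) - p - ((p * p : ℕ) : ℤ))
  · push_cast
    have : (1 : ℤ) ≤ k := by exact_mod_cast hk
    nlinarith
  · rw [aeval_Qpol']
    exact PhiU_coeff_ordGE p k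

theorem natDegree_Qpol_zero_le (hp : p.Prime) : (Qpol p hp 0).natDegree ≤ p + 1 := by
  apply natDegree_le_of_ordGE (Jser p) p (p_pos p) (ordGE_Jser p) (Jser_coeff p) (Qpol p hp 0)
    (p + 1) (((0 : ℕ) : ℤ) - p - ((p * p : ℕ) : ℤ))
  · push_cast
    have : (1 : ℤ) ≤ p := by exact_mod_cast (p_pos p)
    nlinarith
  · rw [aeval_Qpol']
    exact PhiU_coeff_ordGE p 0

theorem prod_neg_inv_pow {K : Type*} [Field K] {ζ : K} {n : ℕ} (hn : 0 < n)
    (h : IsPrimitiveRoot ζ n) : ∏ b ∈ Finset.range n, (-(ζ ^ b)⁻¹) = -1 := by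
  have h1 : Polynomial.nthRoots n (1 : K) = (Multiset.range n).map (fun b => ζ ^ b * 1) :=
    h.nthRoots_eq (one_pow n)
  have h2 : ((Polynomial.nthRoots n (1 : K)).map (fun a => X - C a)).prod = X ^ n - C (1 : K) := by
    rw [Polynomial.nthRoots]
    apply Polynomial.prod_multiset_X_sub_C_of_monic_of_roots_card_eq
      (Polynomial.monic_X_pow_sub_C 1 hn.ne')
    rw [← Polynomial.nthRoots, h.card_nthRoots_one, Polynomial.natDegree_X_pow_sub_C]
  rw [h1, Multiset.map_map] at h2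
  have h3 := congrArg (Polynomial.eval 0) h2
  rw [Polynomial.eval_multiset_prod, Multiset.map_map] at h3
  simp only [Function.comp_apply, mul_one, Polynomial.eval_sub, Polynomial.eval_X,
    Polynomial.eval_C, Polynomial.eval_pow, zero_sub, zero_pow hn.ne'] at h3
  have h4 : ∏ b ∈ Finset.range n, (-(ζ ^ b)) = -1 := by
    rw [Finset.prod_eq_multiset_prod, Finset.range_val]
    exact h3
  have h5 : ∏ b ∈ Finset.range n, (-(ζ ^ b)⁻¹) = (∏ b ∈ Finset.range n, (-(ζ ^ b)))⁻¹ := by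
    rw [← Finset.prod_inv_distrib]
    refine Finset.prod_congr rfl fun b _ => ?_
    rw [inv_neg]
  rw [h5, h4, inv_neg, inv_one]

theorem Qpol_zero_coeff (hp : p.Prime) : (Qpol p hp 0).coeff (p + 1) = 1 := by
  have h1 := aeval_coeff_lead (Jser p) p (p_pos p) (ordGE_Jser p) (Jser_coeff p) (Qpol p hp 0)
    (p + 1) (natDegree_Qpol_zero_le p hp)
  rw [← h1, aeval_Qpol', PhiU]
  have h2 := modEq_coeff_zero_lead (Finset.range p) (fun b => Rb p b) (fun b _ => ordGE_Rb p b)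
    (Rinf p) (p * p) (ordGE_Rinf p)
  rw [Finset.card_range] at h2
  have e : -((p : ℤ) * ((p + 1 : ℕ) : ℤ)) = -((p : ℤ) + ((p * p : ℕ) : ℤ)) := by
    push_cast; ring
  rw [e, h2, Rinf_coeff]
  simp only [Rb_coeff]
  rw [prod_neg_inv_pow (p_pos p) (isPrimitiveRoot_zetaK p)]
  ring

theorem Qpol_p_coeff (hp : p.Prime) : (Qpol p hp p).coeff p = -1 := by
  have h1 := aeval_coeff_lead (Jser p) p (p_pos p) (ordGE_Jser p) (Jser_coeff p) (Qpol p hp p)
    p (natDegree_Qpol_le p hp p hp.one_le)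
  rw [← h1, aeval_Qpol', PhiU]
  have h2 := modEq_coeff_card_lead (Finset.range p) (fun b => Rb p b) (fun b _ => ordGE_Rb p b)
    (Rinf p) (p * p) (by nlinarith [hp.two_le])
  rw [Finset.card_range] at h2
  have e : -((p : ℤ) * (p : ℤ)) = -((p * p : ℕ) : ℤ) := by
    push_cast; ring
  rw [e, h2, Rinf_coeff]

theorem isIntegral_Qpol_coeff (hp : p.Prime) (k i : ℕ) :
    IsIntegral ℤ ((Qpol p hp k).coeff i) := by
  apply isIntegral_coeff_of_aeval_mem (Jser p) p (p_pos p) (ordGE_Jser p) (Jser_coeff p)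
    (Jser_mem_intSer p)
  rw [aeval_Qpol']
  exact PhiU_coeff_mem_intSer p k

/-! ## The relation -/

theorem PhiU_eval_Rinf : (PhiU p).eval (Rinf p) = 0 := by
  rw [PhiU, Polynomial.eval_mul, Polynomial.eval_sub, Polynomial.eval_X, Polynomial.eval_C,
    sub_self, zero_mul]

theorem PhiU_monic : (PhiU p).Monic :=
  (Polynomial.monic_X_sub_C _).mul
    (Polynomial.monic_prod_of_monic _ _ fun _ _ => Polynomial.monic_X_sub_C _)

theorem PhiU_natDegree : (PhiU p).natDegree = p + 1 := by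
  rw [PhiU, Polynomial.Monic.natDegree_mul (Polynomial.monic_X_sub_C _)
    (Polynomial.monic_prod_of_monic _ _ fun _ _ => Polynomial.monic_X_sub_C _),
    Polynomial.natDegree_X_sub_C,
    Polynomial.natDegree_prod_of_monic _ _ fun _ _ => Polynomial.monic_X_sub_C _]
  simp only [Polynomial.natDegree_X_sub_C, Finset.sum_const, Finset.card_range, smul_eq_mul,
    mul_one]
  ring

theorem PhiU_rel (hp : p.Prime) :
    (Rinf p) ^ (p + 1) +
      ∑ k ∈ Finset.range (p + 1), aeval (Jser p) (Qpol p hp k) * (Rinf p) ^ k = 0 := by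
  have h := PhiU_eval_Rinf p
  rw [Polynomial.eval_eq_sum_range' (n := p + 2) (by rw [PhiU_natDegree]; omega),
    Finset.sum_range_succ] at h
  have h1 : (PhiU p).coeff (p + 1) = 1 := by
    have := (PhiU_monic p).coeff_natDegree
    rwa [PhiU_natDegree] at this
  rw [h1, one_mul, add_comm] at h
  rw [← h]
  congr 1
  refine Finset.sum_congr rfl fun k _ => ?_
  rw [aeval_Qpol']

theorem series_rel (hp : p.Prime) :
    (Jser p) ^ (p + 1) +
      ∑ k ∈ Finset.range (p + 1), aeval S24.jBar (Qpol p hp k) * (Jser p) ^ k = 0 := by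
  apply qExpand_injective (R := Kbar) p
  rw [map_zero, map_add, map_pow, map_sum, ← PhiU_rel p hp]
  congr 1
  refine Finset.sum_congr rfl fun k _ => ?_
  rw [map_mul, map_pow]
  congr 1
  exact (Polynomial.aeval_algHom_apply (qExpandAlgHomC Kbar p) S24.jBar (Qpol p hp k)).symm

/-! ## Transport to the function field and conclusion -/

theorem coeffEmb_qExpand_eq (x : LaurentSeries ℚ) :
    coeffEmb Kbar (qExpand ℚ p x) = qExpand Kbar p (coeffEmb Kbar x) := by
  ext k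
  by_cases hd : (p : ℤ) ∣ k
  · obtain ⟨m, rfl⟩ := hd
    rw [coeffEmb_coeff, qExpand_coeff_mul, qExpand_coeff_mul, coeffEmb_coeff]
  · rw [coeffEmb_coeff, qExpand_coeff_of_not_dvd p _ hd, qExpand_coeff_of_not_dvd p _ hd,
      map_zero]

set_option synthInstance.maxHeartbeats 400000 in
set_option maxHeartbeats 1000000 in
theorem rel_of_series (E : ℕ → Kbar[X])
    (h : (Jser p) ^ (p + 1) +
      ∑ k ∈ Finset.range (p + 1), aeval S24.jBar (E k) * (Jser p) ^ k = 0) :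
    (S15.jBarN p) ^ (p + 1) +
      ∑ k ∈ Finset.range (p + 1), aeval (S15.jBar p) (E k) * (S15.jBarN p) ^ k = 0 := by
  have hinj : Function.Injective (modularFunctionFieldBar p).val :=
    (modularFunctionFieldBar p).val.injective
  apply hinj
  have e1 : (modularFunctionFieldBar p).val (S15.jBarN p) = Jser p := by
    show coeffEmb Kbar (qExpand ℚ p jq) = _
    rw [coeffEmb_qExpand_eq]
    rfl
  have e2 : (modularFunctionFieldBar p).val (S15.jBar p) = S24.jBar := rfl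
  rw [map_zero, map_add, map_pow, map_sum, e1, ← h]
  congr 1
  refine Finset.sum_congr rfl fun k _ => ?_
  rw [map_mul, map_pow, e1, ← Polynomial.aeval_algHom_apply, e2]

/-- **MODEQ**: the modular equation of prime level `p` exists, with integral coefficients. -/
theorem stmt_modEq : Stmt_modEq := by
  intro p _ hp
  exact ⟨_, H63.isModEq_of_polys p hp.one_le (Qpol p hp)
    (fun k hk _ => natDegree_Qpol_le p hp k hk) (natDegree_Qpol_zero_le p hp)
    (Qpol_zero_coeff p hp) (Qpol_p_coeff p hp) (isIntegral_Qpol_coeff p hp)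
    (rel_of_series p _ (series_rel p hp))⟩

end Fermat.Agent.S15.H23

end
end
-- ==== END Fermat.Agent.S15.H23_ModEq

-- ==== BEGIN Fermat.Agent.S17.W2.H18_GeoAbs
section
attribute [local instance 10000] SubalgebraClass.toAlgebra
attribute [local instance 10000] HahnSeries.powerSeriesAlgebra

/-!
# S17-W2, package GEO, part G-e, abstract layer (helper18)

`K → Ω`, `Ω` algebraically closed of characteristic `0`.  From `Stmt_Gb` and `Stmt_E4`:

* `abs_stab`: a generic place `P` is fixed by the automorphisms of `Ω / K` fixing `t = j(P)` and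
  the finitely many values `ev_P(j(q^d))`;
* `abs_trans`: two generic places are conjugate under `Aut(Ω / K)`.
-/

set_option autoImplicit false
set_option linter.unusedSectionVars false

noncomputable section

namespace Fermat.Agent.S17.W2.H18

open AlgebraicCurve IntermediateField ModularCurve Fermat.Agent.GTor Fermat.Agent.RED Polynomial

variable {K Ω : Type} [Field K] [Field Ω] [Algebra ℚ K] [Algebra ℚ Ω] [Algebra K Ω] (N : ℕ)
  [NeZero N]

set_option synthInstance.maxHeartbeats 400000 in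
/-- Two ring homomorphisms on `K(X₀(N))` which agree on `K` and on the generators are equal. -/
theorem ringHom_eq_of_genSet {R : Type*} [Field R] (φ ψ : FNL K N →+* R)
    (hc : ∀ c : K, φ (algebraMap K (FNL K N) c) = ψ (algebraMap K (FNL K N) c))
    (hg : ∀ x ∈ H33.genSet K N, φ x = ψ x) (e : FNL K N) : φ e = ψ e := by
  have he : e ∈ adjoin K (H33.genSet K N) := by
    rw [H33.adjoin_genSet]
    exact IntermediateField.mem_top
  induction he using IntermediateField.adjoin_induction with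
  | mem x hx => exact hg x hx
  | algebraMap c => exact hc c
  | add x y _ _ hx hy => rw [map_add, map_add, hx, hy]
  | inv x _ hx => rw [map_inv₀, map_inv₀, hx]
  | mul x y _ _ hx hy => rw [map_mul, map_mul, hx, hy]

theorem isEv_congr {P : Place Ω (FNL Ω N)} {φ ψ : FNL K N →+* Ω} (h : IsEv N P φ)
    (hφψ : ∀ e, φ e = ψ e) : IsEv N P ψ := by
  intro e
  rw [← hφψ e]
  exact h e

variable [IsAlgClosed Ω] [CharZero Ω]

/-- **GenStab**, abstract form. -/
theorem abs_stab (hGb : Stmt_Gb K N) (hE4 : Stmt_E4 K Ω N) (P : Place Ω (FNL Ω N)) (t : Ω)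
    (h : ZeroAt N P t) (ht : Transcendental K t) :
    ∃ φ : FNL K N →+* Ω, IsEv N P φ ∧ φ (H33.jL K N) = t ∧
      (∀ c : K, φ (algebraMap K (FNL K N) c) = algebraMap K Ω c) ∧
      ∀ τ : Ω ≃ₐ[ℚ] Ω, (∀ c : K, τ (algebraMap K Ω c) = algebraMap K Ω c) → τ t = t →
        (∀ x ∈ H33.genSet K N, τ (φ x) = φ x) →
        arithmeticGalois (modularFunctionFieldFull N) τ • P = P := by
  obtain ⟨φ, hφ, hφj, hφc⟩ := stmt_E12 N hGb P t h ht
  refine ⟨φ, hφ, hφj, hφc, fun τ hτ hτt hτg => ?_⟩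
  have h3 := stmt_E3 (K := K) (Ω := Ω) N P φ τ hτ hφ
  have h4 : IsEv N (arithmeticGalois (modularFunctionFieldFull N) τ • P) φ := by
    refine isEv_congr N h3 (ringHom_eq_of_genSet N _ _ (fun c => ?_) fun x hx => ?_)
    · show τ (φ _) = φ _
      rw [hφc, hτ]
    · exact hτg x hx
  have h5 := zeroAt_smul N h τ
  rw [hτt] at h5
  exact hE4 _ _ t h5 h ht φ h4 hφ

set_option synthInstance.maxHeartbeats 400000 in
/-- The values of the generators at a generic place are algebraic over `K(t)`. -/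
theorem isAlgebraic_ev (hGb : Stmt_Gb K N) (φ : FNL K N →+* Ω)
    (hφc : ∀ c : K, φ (algebraMap K (FNL K N) c) = algebraMap K Ω c) (e : FNL K N) :
    IsAlgebraic K⟮φ (H33.jL K N)⟯ (φ e) :=
  H33.isAlgebraic_adjoin_map (RingHom.id K) φ (fun c => hφc c) (H33.jL K N) e (hGb e)

set_option synthInstance.maxHeartbeats 400000 in
/-- **GenTrans**, abstract form. -/
theorem abs_trans (hGb : Stmt_Gb K N) (hE4 : Stmt_E4 K Ω N) (P Q : Place Ω (FNL Ω N))
    (t t' : Ω) (hP : ZeroAt N P t) (hQ : ZeroAt N Q t') (ht : Transcendental K t)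
    (ht' : Transcendental K t') :
    ∃ τ : Ω ≃ₐ[ℚ] Ω, (∀ c : K, τ (algebraMap K Ω c) = algebraMap K Ω c) ∧
      arithmeticGalois (modularFunctionFieldFull N) τ • P = Q := by
  obtain ⟨φ, hφ, hφj, hφc⟩ := stmt_E12 N hGb P t hP ht
  obtain ⟨ψ, hψ, hψj, hψc⟩ := stmt_E12 N hGb Q t' hQ ht'
  let φ' : FNL K N →ₐ[K] Ω := { φ with commutes' := hφc }
  let ψ' : FNL K N →ₐ[K] Ω := { ψ with commutes' := hψc }
  have halg : Algebra.IsAlgebraic (IntermediateField.adjoin K {H33.jL K N}) (FNL K N) :=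
    ⟨fun e => hGb e⟩
  obtain ⟨A, hAfin, hA⟩ := H56.exists_finite_transcendenceBasis (H33.jL K N) halg
  obtain ⟨σ, hσ⟩ := H56.exists_algEquiv_conj A hAfin hA φ' ψ'
  let τ : Ω ≃ₐ[ℚ] Ω := AlgEquiv.ofRingEquiv (f := σ.toRingEquiv) (fun q => by
    rw [eq_ratCast]
    exact map_ratCast σ.toRingEquiv q)
  have hτ : ∀ a : Ω, τ a = σ a := fun _ => rfl
  have hτK : ∀ c : K, τ (algebraMap K Ω c) = algebraMap K Ω c := fun c => by
    rw [hτ]
    exact σ.commutes c
  refine ⟨τ, hτK, ?_⟩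
  have h3 := stmt_E3 (K := K) (Ω := Ω) N P φ τ hτK hφ
  have h4 : IsEv N (arithmeticGalois (modularFunctionFieldFull N) τ • P) ψ :=
    isEv_congr N h3 fun e => hσ e
  have h5 := zeroAt_smul N hP τ
  have h6 : τ t = t' := by
    rw [← hφj, ← hψj]
    exact hσ _
  rw [h6] at h5
  exact hE4 _ _ t' h5 hQ ht' ψ h4 hψ

end Fermat.Agent.S17.W2.H18

end
end
-- ==== END Fermat.Agent.S17.W2.H18_GeoAbs

-- ==== BEGIN Fermat.Agent.S17.W2.PlaceOrbit
section

/-!
# S17-W2, CORE part 3: places with finite orbit (helper8)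

A place has a finite orbit under `Aut(Ω / k(s))` iff it is a pole of `j` or its `j`-value is
algebraic over `k(s)`.
-/

set_option autoImplicit false

noncomputable section

namespace Fermat.Agent.S17.W2

open AlgebraicCurve WithZero Fermat.Agent.RED.H51 IntermediateField

variable {k Ω F : Type} [Field k] [Field Ω] [Field F] [Algebra k Ω] [Algebra Ω F]

/-- **FT2**: an element algebraic over `k(s)` has a finite orbit under `Aut(Ω / k(s))`. -/
theorem finite_orbit_of_isAlgebraic (s : Set Ω) {c : Ω}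
    (hc : IsAlgebraic (IntermediateField.adjoin k s) c) :
    {d : Ω | ∃ σ ∈ Gs k Ω s, σ c = d}.Finite := by
  classical
  have hp0 : minpoly (IntermediateField.adjoin k s) c ≠ 0 := minpoly.ne_zero hc.isIntegral
  refine ((minpoly (IntermediateField.adjoin k s) c).rootSet_finite Ω).subset ?_
  rintro _ ⟨σ, hσ, rfl⟩
  let σ' : Ω ≃ₐ[IntermediateField.adjoin k s] Ω :=
    IntermediateField.fixingSubgroupEquiv (IntermediateField.adjoin k s) ⟨σ, hσ⟩
  have hσ' : σ' c = σ c := rfl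
  rw [Polynomial.mem_rootSet_of_ne hp0, ← hσ']
  have := Polynomial.aeval_algHom_apply (σ' : Ω →ₐ[IntermediateField.adjoin k s] Ω) c
    (minpoly (IntermediateField.adjoin k s) c)
  rw [minpoly.aeval, map_zero] at this
  exact this

variable (S : Setting k Ω F)

/-- The action on places, as an action of `Aut(Ω / k)`-orbits: `j`-values of an orbit. -/
theorem Setting.orbit_value_subset {H : Subgroup (Ω ≃ₐ[k] Ω)} {P : Place Ω F} {t : Ω}
    (hP : S.IsZeroAt P t) (val : Place Ω F → Ω)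
    (hval : ∀ Q c, S.IsZeroAt Q c → val Q = c) :
    {d : Ω | ∃ σ ∈ H, σ t = d} ⊆ val '' orb S.ρ H P := by
  rintro _ ⟨σ, hσ, rfl⟩
  exact ⟨S.ρ σ • P, ⟨σ, hσ, rfl⟩, hval _ _ (S.isZeroAt_smul hP σ)⟩

/-- A place with finite orbit whose `j`-value is `t`: the orbit of `t` is finite. -/
theorem Setting.finite_orbit_value {H : Subgroup (Ω ≃ₐ[k] Ω)} {P : Place Ω F} {t : Ω}
    (hP : S.IsZeroAt P t) (hfin : FinOrb S.ρ H P) : {d : Ω | ∃ σ ∈ H, σ t = d}.Finite := by
  classical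
  let val : Place Ω F → Ω := fun Q => if h : ∃ c, S.IsZeroAt Q c then h.choose else 0
  have hval : ∀ Q c, S.IsZeroAt Q c → val Q = c := by
    intro Q c hc
    have h : ∃ c, S.IsZeroAt Q c := ⟨c, hc⟩
    simp only [val, dif_pos h]
    exact S.isZeroAt_unique h.choose_spec hc
  exact (hfin.image val).subset (S.orbit_value_subset hP val hval)

section Hyp

variable (H : Fermat.Agent.RED.H42.Hyp Ω F) (hj : ∀ c : Ω, S.j ≠ algebraMap Ω F c)
include H hj

/-- Poles of `j` have finite orbits. -/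
theorem Setting.finOrb_of_pole (G' : Subgroup (Ω ≃ₐ[k] Ω)) {P : Place Ω F}
    (hP : P.ord S.j < 0) : FinOrb S.ρ G' P :=
  finOrb_of_stable S.ρ (S.finite_poles H hj)
    (fun σ _ Q hQ => by
      simp only [Set.mem_ofPred_eq] at hQ ⊢
      rwa [S.ord_j_smul]) hP

/-- Places with `j`-value algebraic over `k(s)` have finite orbits under `Aut(Ω / k(s))`. -/
theorem Setting.finOrb_of_isAlgebraic (s : Set Ω) {P : Place Ω F} {t : Ω}
    (hP : S.IsZeroAt P t) (ht : IsAlgebraic (IntermediateField.adjoin k s) t) :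
    FinOrb S.ρ (Gs k Ω s) P := by
  have hfin := finite_orbit_of_isAlgebraic s ht
  have hT : (⋃ d ∈ {d : Ω | ∃ σ ∈ Gs k Ω s, σ t = d}, {Q : Place Ω F | S.IsZeroAt Q d}).Finite :=
    hfin.biUnion fun d _ => S.finite_zeros H hj d
  refine finOrb_of_stable S.ρ hT ?_ ?_
  · intro σ hσ Q hQ
    simp only [Set.mem_iUnion, Set.mem_ofPred_eq, exists_prop] at hQ ⊢
    obtain ⟨d, ⟨τ, hτ, rfl⟩, hQd⟩ := hQ
    exact ⟨σ (τ t), ⟨σ * τ, (Gs k Ω s).mul_mem hσ hτ, rfl⟩, S.isZeroAt_smul hQd σ⟩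
  · simp only [Set.mem_iUnion, Set.mem_ofPred_eq, exists_prop]
    exact ⟨t, ⟨1, (Gs k Ω s).one_mem, rfl⟩, hP⟩

omit H hj in
/-- A place with finite orbit under `Aut(Ω / k(s))` is a pole of `j` or has a `j`-value algebraic
over `k(s)`. -/
theorem Setting.isAlgebraic_of_finOrb (hFT1 : Stmt_FT1 k Ω) (hbig : Big k Ω) {s : Set Ω}
    (hs : s.Finite) {P : Place Ω F} {t : Ω} (hP : S.IsZeroAt P t)
    (hfin : FinOrb S.ρ (Gs k Ω s) P) : IsAlgebraic (IntermediateField.adjoin k s) t :=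
  hFT1 hbig s hs t (S.finite_orbit_value hP hfin)

end Hyp

end Fermat.Agent.S17.W2

end
end
-- ==== END Fermat.Agent.S17.W2.PlaceOrbit

-- ==== BEGIN Fermat.Agent.S41.H19_HeckeFormula
section

/-!
# S41 (helper19): the explicit formula for the Hecke operator `Tcoh`

For a prime `ℓ ∤ N`, `N > 0`, with the classical right coset representatives
`a_j = [[1, j], [0, ℓ]]` (`j < ℓ`), `a_∞ = [[ℓ, 0], [0, 1]]`:

* `Tcoh_eq_sum` : if `a_j * g = γ_j * a_{s j}` for all `j` (integer matrices, `γ_j ∈ Gamma0 N`)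
  then `Tcoh N A ℓ x g = ∑ j, x (γ j)`;
* `exists_hecke_sol` : such `s, γ` exist for every `g ∈ Gamma0 N`.
-/

set_option autoImplicit false

open scoped MatrixGroups
open CongruenceSubgroup Matrix

namespace Fermat.Agent.S41.H19

open Fermat.Agent.S41

/-- The classical right coset representatives of `Γ diag(1,ℓ) Γ`. -/
def aMat (ℓ : ℕ) : Option (Fin ℓ) → Matrix (Fin 2) (Fin 2) ℤ
  | some j => !![1, (j : ℕ); 0, (ℓ : ℤ)]
  | none => !![(ℓ : ℤ), 0; 0, 1]

lemma aMat_none (ℓ : ℕ) : aMat ℓ none = Dq ℓ := rfl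

lemma mat_mul_inv {N : ℕ} (t : Gamma0 N) : mat t * mat t⁻¹ = 1 := by
  rw [← mat_mul, mul_inv_cancel, mat_one]

lemma mat_inv_mul {N : ℕ} (t : Gamma0 N) : mat t⁻¹ * mat t = 1 := by
  rw [← mat_mul, inv_mul_cancel, mat_one]

lemma mat_cancel_right {N : ℕ} (t : Gamma0 N) {X Y : Matrix (Fin 2) (Fin 2) ℤ}
    (h : X * mat t = Y * mat t) : X = Y := by
  have := congrArg (· * mat t⁻¹) h
  simpa [Matrix.mul_assoc, mat_mul_inv] using this

lemma mat_cancel_left {N : ℕ} (t : Gamma0 N) {X Y : Matrix (Fin 2) (Fin 2) ℤ}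
    (h : mat t * X = mat t * Y) : X = Y := by
  have := congrArg (mat t⁻¹ * ·) h
  simpa [← Matrix.mul_assoc, mat_inv_mul] using this

/-- Distinct `a_j` lie in distinct right cosets of `SL(2, ℤ)`. -/
lemma aMat_coset {ℓ : ℕ} (hℓ : 2 ≤ ℓ) {N : ℕ} (K : Gamma0 N) (i j : Option (Fin ℓ))
    (h : mat K * aMat ℓ j = aMat ℓ i) : i = j := by
  have hℓ' : (2 : ℤ) ≤ (ℓ : ℤ) := by exact_mod_cast hℓ
  have h00 := congrFun (congrFun h 0) 0
  have h01 := congrFun (congrFun h 0) 1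
  have h10 := congrFun (congrFun h 1) 0
  have h11 := congrFun (congrFun h 1) 1
  rcases i with _ | i <;> rcases j with _ | j <;>
    simp only [aMat, Matrix.mul_apply, Fin.sum_univ_two, Matrix.of_apply, Matrix.cons_val',
      Matrix.cons_val_zero, Matrix.cons_val_one, Matrix.empty_val', Matrix.cons_val_fin_one,
      mul_zero, mul_one, add_zero, zero_add] at h00 h01 h10 h11
  · rfl
  · -- i = none, j = some: K10 = 0, K10 j + K11 ℓ = 1
    exfalso
    rw [h10, zero_mul, zero_add] at h11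
    have : (ℓ : ℤ) ∣ 1 := ⟨mat K 1 1, by linear_combination -h11⟩
    have := Int.le_of_dvd one_pos this
    omega
  · -- i = some, j = none: K00 ℓ = 1
    exfalso
    have : (ℓ : ℤ) ∣ 1 := ⟨mat K 0 0, by linear_combination -h00⟩
    have := Int.le_of_dvd one_pos this
    omega
  · -- both some
    congr 1
    rw [h00, one_mul] at h01
    have hd : (ℓ : ℤ) ∣ ((i : ℕ) : ℤ) - ((j : ℕ) : ℤ) := ⟨mat K 0 1, by linear_combination -h01⟩
    have hi := i.2
    have hj := j.2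
    apply Fin.ext
    have h1 : ((i : ℕ) : ℤ) % (ℓ : ℤ) = ((j : ℕ) : ℤ) % (ℓ : ℤ) :=
      Int.emod_eq_emod_iff_emod_sub_eq_zero.mpr (Int.emod_eq_zero_of_dvd hd)
    rw [Int.emod_eq_of_lt (by positivity) (by exact_mod_cast hi),
      Int.emod_eq_of_lt (by positivity) (by exact_mod_cast hj)] at h1
    exact_mod_cast h1

/-! ### Explicit representatives of `Gamma0 N / Gamma0 (N ℓ)` -/

section Reps

variable {N ℓ : ℕ} {u v : ℤ} (huv : (ℓ : ℤ) * u + (N : ℤ) * v = 1)

/-- Representatives `t_j` of `Gamma0 N / Gamma0 (N ℓ)` with `a_j t_j = c_j diag(ℓ,1)`. -/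
def tRep : Option (Fin ℓ) → Gamma0 N
  | some j => mkG0 N ((ℓ : ℤ) * u - ((j : ℕ) : ℤ) * N) (-v - ((j : ℕ) : ℤ)) N 1
      (by linear_combination huv) dvd_rfl
  | none => 1

/-- The elements `c_j ∈ Gamma0 N` with `a_j t_j = c_j diag(ℓ,1)`. -/
def cRep : Option (Fin ℓ) → Gamma0 N
  | some _ => mkG0 N u (-v) N ℓ (by linear_combination huv) dvd_rfl
  | none => 1

lemma aMat_tRep (j : Option (Fin ℓ)) :
    aMat ℓ j * mat (tRep huv j) = mat (cRep huv j) * Dq ℓ := by
  rcases j with _ | j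
  · simp [tRep, cRep, aMat_none]
  · simp only [tRep, cRep, aMat, mat_mkG0, Dq]
    ext a b
    fin_cases a <;> fin_cases b <;> simp [Matrix.mul_apply, Fin.sum_univ_two] <;> ring

lemma tRep_inj (hℓ : 2 ≤ ℓ) (i j : Option (Fin ℓ))
    (h : (tRep huv i)⁻¹ * tRep huv j ∈ (inclG N ℓ).range) : i = j := by
  obtain ⟨h, hh⟩ := h
  have e1 : tRep huv i * inclG N ℓ h = tRep huv j := by rw [hh]; group
  have e1' : mat (tRep huv i) * mat h = mat (tRep huv j) := congrArg mat e1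
  obtain ⟨K, hK⟩ : ∃ K : Gamma0 N, K = cRep huv i * conjG N ℓ h * (cRep huv j)⁻¹ := ⟨_, rfl⟩
  have e2 : K * cRep huv j = cRep huv i * conjG N ℓ h := by rw [hK]; group
  have e2' : mat K * mat (cRep huv j) = mat (cRep huv i) * conjMat ℓ (mat h) := congrArg mat e2
  apply aMat_coset hℓ K
  apply mat_cancel_right (tRep huv j)
  calc mat K * aMat ℓ j * mat (tRep huv j)
      = mat K * (aMat ℓ j * mat (tRep huv j)) := by rw [Matrix.mul_assoc]
    _ = mat K * mat (cRep huv j) * Dq ℓ := by rw [aMat_tRep, Matrix.mul_assoc]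
    _ = mat (cRep huv i) * (conjMat ℓ (mat h) * Dq ℓ) := by rw [e2', Matrix.mul_assoc]
    _ = mat (cRep huv i) * Dq ℓ * mat h := by
        rw [conjMat_Dq (q_dvd_of_mem_gamma0_mul h.2), Matrix.mul_assoc]
    _ = aMat ℓ i * (mat (tRep huv i) * mat h) := by rw [← aMat_tRep, Matrix.mul_assoc]
    _ = aMat ℓ i * mat (tRep huv j) := by rw [e1']

theorem isReps_tRep (hN : 0 < N) (hℓ : ℓ.Prime) (hℓN : ¬ ℓ ∣ N) :
    IsReps (inclG N ℓ) (tRep huv) := by
  have := finiteIndex_inclG hN hℓ hℓN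
  have hfin : Finite (Gamma0 N ⧸ (inclG N ℓ).range) := Subgroup.finite_quotient_of_finiteIndex
  have hinj : Function.Injective
      (fun i : Option (Fin ℓ) => (tRep huv i : Gamma0 N ⧸ (inclG N ℓ).range)) := by
    intro i j hij
    exact tRep_inj huv hℓ.two_le i j (QuotientGroup.eq.mp hij)
  have hcard : Nat.card (Gamma0 N ⧸ (inclG N ℓ).range) ≤ Nat.card (Option (Fin ℓ)) := by
    rw [← Subgroup.index_eq_card, index_inclG hN hℓ hℓN, Nat.card_eq_fintype_card,
      Fintype.card_option, Fintype.card_fin]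
  have hbij := hinj.bijective_of_nat_card_le hcard
  constructor
  · exact tRep_inj huv hℓ.two_le
  · intro g
    obtain ⟨i, hi⟩ := hbij.2 (g : Gamma0 N ⧸ (inclG N ℓ).range)
    exact ⟨i, QuotientGroup.eq.mp hi⟩

end Reps

/-! ### The formula -/

section Formula

variable {N ℓ : ℕ} {A : Type*} [AddCommGroup A]

lemma hecke_sol_injective (hℓ : 2 ≤ ℓ) (g : Gamma0 N) (s : Option (Fin ℓ) → Option (Fin ℓ))
    (γ : Option (Fin ℓ) → Gamma0 N)
    (h : ∀ j, aMat ℓ j * mat g = mat (γ j) * aMat ℓ (s j)) : Function.Injective s := by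
  intro j j' hjj'
  apply aMat_coset hℓ (γ j * (γ j')⁻¹)
  apply mat_cancel_right g
  rw [h j, hjj', mat_mul, Matrix.mul_assoc, Matrix.mul_assoc, h j', ← Matrix.mul_assoc (mat (γ j')⁻¹),
    mat_inv_mul, Matrix.one_mul]

/-- **Explicit formula for the Hecke operator** `T_ℓ` on `Hom(Gamma0 N, A)`, `ℓ ∤ N` prime. -/
theorem Tcoh_eq_sum (hN : 0 < N) (hℓ : ℓ.Prime) (hℓN : ¬ ℓ ∣ N) (x : Additive (Gamma0 N) →+ A)
    (g : Gamma0 N) (s : Option (Fin ℓ) → Option (Fin ℓ)) (γ : Option (Fin ℓ) → Gamma0 N)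
    (h : ∀ j, aMat ℓ j * mat g = mat (γ j) * aMat ℓ (s j)) :
    Tcoh N A ℓ x (Additive.ofMul g) = ∑ j, x (Additive.ofMul (γ j)) := by
  obtain ⟨u, v, huv⟩ := exists_bezout hℓ hℓN
  have ht := isReps_tRep huv hN hℓ hℓN
  have hs : Function.Bijective s :=
    Finite.injective_iff_bijective.mp (hecke_sol_injective hℓ.two_le g s γ h)
  let e : Option (Fin ℓ) ≃ Option (Fin ℓ) := Equiv.ofBijective s hs
  have key : ∀ i, ∃ hi : Gamma0 (N * ℓ),
      g * tRep huv i = tRep huv (e.symm i) * inclG N ℓ hi ∧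
      conjG N ℓ hi = (cRep huv (e.symm i))⁻¹ * γ (e.symm i) * cRep huv i := by
    intro i
    obtain ⟨j, hj⟩ : ∃ j, j = e.symm i := ⟨_, rfl⟩
    rw [← hj]
    have hsj : s j = i := by rw [hj]; exact e.apply_symm_apply i
    obtain ⟨h₀, hh₀⟩ : ∃ h₀ : Gamma0 N, h₀ = (tRep huv j)⁻¹ * g * tRep huv i := ⟨_, rfl⟩
    obtain ⟨k, hk⟩ : ∃ k : Gamma0 N, k = (cRep huv j)⁻¹ * γ j * cRep huv i := ⟨_, rfl⟩
    have e1 : tRep huv j * h₀ = g * tRep huv i := by rw [hh₀]; group
    have e1' : mat (tRep huv j) * mat h₀ = mat g * mat (tRep huv i) := congrArg mat e1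
    have e2 : cRep huv j * k = γ j * cRep huv i := by rw [hk]; group
    have e2' : mat (cRep huv j) * mat k = mat (γ j) * mat (cRep huv i) := congrArg mat e2
    have e3 : Dq ℓ * mat h₀ = mat k * Dq ℓ := by
      apply mat_cancel_left (cRep huv j)
      calc mat (cRep huv j) * (Dq ℓ * mat h₀)
          = (mat (cRep huv j) * Dq ℓ) * mat h₀ := by rw [Matrix.mul_assoc]
        _ = aMat ℓ j * (mat (tRep huv j) * mat h₀) := by rw [← aMat_tRep, Matrix.mul_assoc]
        _ = (aMat ℓ j * mat g) * mat (tRep huv i) := by rw [e1', Matrix.mul_assoc]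
        _ = mat (γ j) * (aMat ℓ i * mat (tRep huv i)) := by rw [h j, hsj, Matrix.mul_assoc]
        _ = (mat (γ j) * mat (cRep huv i)) * Dq ℓ := by rw [aMat_tRep, Matrix.mul_assoc]
        _ = mat (cRep huv j) * (mat k * Dq ℓ) := by rw [← e2', Matrix.mul_assoc]
    have h10 : mat h₀ 1 0 = (ℓ : ℤ) * mat k 1 0 := by
      have := congrFun (congrFun e3 1) 0
      simpa [Dq, Matrix.mul_apply, Fin.sum_univ_two, mul_comm] using this
    have hmem : (h₀ : SL(2, ℤ)) ∈ Gamma0 (N * ℓ) := by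
      rw [Gamma0_mem, ZMod.intCast_zmod_eq_zero_iff_dvd]
      obtain ⟨c, hc⟩ := mat_dvd k
      exact ⟨c, by change mat h₀ 1 0 = _; rw [h10, hc]; push_cast; ring⟩
    refine ⟨⟨(h₀ : SL(2, ℤ)), hmem⟩, e1.symm, ?_⟩
    rw [← hk]
    apply mat_injective
    rw [mat_conjG]
    apply Dq_cancel_right hℓ.ne_zero
    rw [conjMat_Dq (q_dvd_of_mem_gamma0_mul hmem)]
    exact e3
  choose hh hh1 hh2 using key
  unfold Tcoh cor1
  rw [corAlong_eq_sum (inclG N ℓ) (inclG_injective N ℓ) (tRep huv) ht _ g (fun i => e.symm i) hh hh1]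
  have hterm : ∀ i, res2 N ℓ A x (Additive.ofMul (hh i))
      = x (Additive.ofMul (γ (e.symm i)))
        + (x (Additive.ofMul (cRep huv i)) - x (Additive.ofMul (cRep huv (e.symm i)))) := by
    intro i
    change x (Additive.ofMul (conjG N ℓ (hh i))) = _
    rw [hh2 i]
    change x (-Additive.ofMul (cRep huv (e.symm i)) + Additive.ofMul (γ (e.symm i))
      + Additive.ofMul (cRep huv i)) = _
    rw [map_add, map_add, map_neg]
    abel
  have hp1 : ∑ i, x (Additive.ofMul (γ (e.symm i))) = ∑ j, x (Additive.ofMul (γ j)) :=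
    Equiv.sum_comp e.symm (fun j => x (Additive.ofMul (γ j)))
  have hp2 : ∑ i, x (Additive.ofMul (cRep huv (e.symm i)))
      = ∑ j, x (Additive.ofMul (cRep huv j)) :=
    Equiv.sum_comp e.symm (fun j => x (Additive.ofMul (cRep huv j)))
  rw [Finset.sum_congr rfl (fun i _ => hterm i), Finset.sum_add_distrib, Finset.sum_sub_distrib,
    hp1, hp2, sub_self, add_zero]

/-- Existence of the data `(s, γ)` in `Tcoh_eq_sum`. -/
theorem exists_hecke_sol (hN : 0 < N) (hℓ : ℓ.Prime) (hℓN : ¬ ℓ ∣ N) (g : Gamma0 N) :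
    ∃ (s : Option (Fin ℓ) → Option (Fin ℓ)) (γ : Option (Fin ℓ) → Gamma0 N),
      ∀ j, aMat ℓ j * mat g = mat (γ j) * aMat ℓ (s j) := by
  obtain ⟨u, v, huv⟩ := exists_bezout hℓ hℓN
  have ht := isReps_tRep huv hN hℓ hℓN
  obtain ⟨σ, k, hk⟩ := ht.exists_sol g
  have hσ := ht.sol_bijective hk
  let e : Option (Fin ℓ) ≃ Option (Fin ℓ) := Equiv.ofBijective σ hσ
  refine ⟨fun j => e.symm j, fun j => cRep huv j * conjG N ℓ (k (e.symm j)) * (cRep huv (e.symm j))⁻¹,
    fun j => ?_⟩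
  obtain ⟨i, hi⟩ : ∃ i, i = e.symm j := ⟨_, rfl⟩
  change aMat ℓ j * mat g
    = mat (cRep huv j * conjG N ℓ (k (e.symm j)) * (cRep huv (e.symm j))⁻¹) * aMat ℓ (e.symm j)
  rw [← hi]
  have hσi : σ i = j := by rw [hi]; exact e.apply_symm_apply j
  have e1 : mat g * mat (tRep huv i) = mat (tRep huv j) * mat (k i) := by
    have := congrArg mat (hk i)
    rw [hσi] at this
    exact this
  apply mat_cancel_right (tRep huv i)
  rw [mat_mul, mat_mul, mat_conjG]
  calc aMat ℓ j * mat g * mat (tRep huv i)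
      = aMat ℓ j * (mat g * mat (tRep huv i)) := by rw [Matrix.mul_assoc]
    _ = (aMat ℓ j * mat (tRep huv j)) * mat (k i) := by rw [e1, Matrix.mul_assoc]
    _ = mat (cRep huv j) * (Dq ℓ * mat (k i)) := by rw [aMat_tRep, Matrix.mul_assoc]
    _ = mat (cRep huv j) * (conjMat ℓ (mat (k i)) * Dq ℓ) := by
        rw [conjMat_Dq (q_dvd_of_mem_gamma0_mul (k i).2)]
    _ = mat (cRep huv j) * conjMat ℓ (mat (k i)) * (mat (cRep huv i)⁻¹ * (mat (cRep huv i) * Dq ℓ)) := by
        rw [← Matrix.mul_assoc (mat (cRep huv i)⁻¹), mat_inv_mul, Matrix.one_mul, Matrix.mul_assoc]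
    _ = mat (cRep huv j) * conjMat ℓ (mat (k i)) * mat (cRep huv i)⁻¹ * aMat ℓ i * mat (tRep huv i) := by
        rw [← aMat_tRep]
        simp only [Matrix.mul_assoc]

end Formula

end Fermat.Agent.S41.H19

end
-- ==== END Fermat.Agent.S41.H19_HeckeFormula

-- ==== BEGIN Fermat.Agent.S44.C.H38_M
section

set_option autoImplicit false

namespace Fermat.Agent.S44.C.H38

open WeierstrassCurve WeierstrassCurve.Affine
open Fermat.Agent.S05 (ModelHyp InE0 InE1)

/-! ### Ordered groups with zero -/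

section Gen

variable {Γ : Type*} [LinearOrderedCommGroupWithZero Γ]

lemma le_of_sq_le_sq_g {a b : Γ} (h : a ^ 2 ≤ b ^ 2) : a ≤ b := by
  by_contra hc
  have hc := not_le.1 hc
  have : b ^ 2 < a ^ 2 := pow_lt_pow_left₀ hc zero_le (by norm_num)
  exact absurd h (not_le.2 this)

lemma eq_of_sq_eq_sq_g {a b : Γ} (h : a ^ 2 = b ^ 2) : a = b :=
  le_antisymm (le_of_sq_le_sq_g h.le) (le_of_sq_le_sq_g h.ge)

end Gen

/-! ### Valuations of `y ± β x` on `E₀` -/

section Val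

variable {L : Type*} [Field L] {Γ : Type*} [LinearOrderedCommGroupWithZero Γ] (v : Valuation L Γ)

/-- If `s d = x (x² + b)`, `s - d = 2 β x` with `|2 β| = 1`, `|b| < 1 ≤ |x|` then
`|s| = |d|` and `|s|² = |x|³`. -/
lemma val_sd {x b s d c : L} (hx : 1 ≤ v x) (hb : v b < 1) (hc : v c = 1)
    (hprod : s * d = x * (x ^ 2 + b)) (hdiff : s - d = c * x) :
    v s = v d ∧ v s ^ 2 = v x ^ 3 := by
  have hx0 : 0 < v x := lt_of_lt_of_le zero_lt_one hx
  have hx2 : 1 ≤ v x ^ 2 := one_le_pow₀ hx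
  have h1 : v (x ^ 2 + b) = v x ^ 2 := by
    rw [← map_pow]
    refine Valuation.map_add_eq_of_lt_left v ?_
    rw [map_pow]
    exact lt_of_lt_of_le hb hx2
  have hp : v s * v d = v x ^ 3 := by
    rw [← map_mul, hprod, map_mul, h1]; exact (pow_succ' (v x) 2).symm
  have hd : v (s - d) = v x := by rw [hdiff, map_mul, hc, one_mul]
  have hlt : v x ^ 2 < v x → False := by
    intro h
    have : v x ^ 1 ≤ v x ^ 2 := pow_le_pow_right₀ hx (by norm_num)
    rw [pow_one] at this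
    exact absurd h (not_lt.2 this)
  have heq : v s = v d := by
    rcases lt_trichotomy (v s) (v d) with h | h | h
    · exfalso
      have h2 : v (s - d) = v d := Valuation.map_sub_eq_of_lt_right v h
      have h3 : v d = v x := by rw [← h2, hd]
      have h4 : v s = v x ^ 2 := by
        rw [h3] at hp
        have : v s * v x = v x ^ 2 * v x := by rw [hp]; exact pow_succ (v x) 2
        exact mul_right_cancel₀ hx0.ne' this
      rw [h4, h3] at h
      exact hlt h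
    · exact h
    · exfalso
      have h2 : v (s - d) = v s := Valuation.map_sub_eq_of_lt_left v h
      have h3 : v s = v x := by rw [← h2, hd]
      have h4 : v d = v x ^ 2 := by
        rw [h3] at hp
        have : v x * v d = v x * v x ^ 2 := by rw [hp]; exact pow_succ' (v x) 2
        exact mul_left_cancel₀ hx0.ne' this
      rw [h4, h3] at h
      exact hlt h
  refine ⟨heq, ?_⟩
  rw [sq, ← hp, heq]

end Val

/-! ### The model -/

section Model

variable {L : Type*} [Field L] {A : ValuationSubring L} {W : Affine L}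

lemma model_eqn (hyp : ModelHyp A W) {x y : L} (h : W.Nonsingular x y) :
    y ^ 2 = x ^ 3 + W.a₂ * x ^ 2 + W.a₄ * x :=
  (Fermat.Agent.S05.legendre_equation_iff hyp.a₁ hyp.a₃ hyp.a₆ x y).1 h.1

lemma val_four (hyp : ModelHyp A W) : A.valuation (4 : L) = 1 := by
  have : (4 : L) = 2 * 2 := by norm_num
  rw [this, map_mul, hyp.two, one_mul]

lemma val_a_eq_one (hyp : ModelHyp A W) (hb : A.valuation W.a₄ < 1) :
    A.valuation W.a₂ = 1 := by
  have h4b : A.valuation (4 * W.a₄) < 1 := by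
    rw [map_mul, val_four hyp, one_mul]; exact hb
  have h1 : A.valuation (W.a₂ ^ 2) = 1 := by
    have : W.a₂ ^ 2 = (W.a₂ ^ 2 - 4 * W.a₄) + 4 * W.a₄ := by ring
    rw [this, Valuation.map_add_eq_of_lt_left _ (by rw [hyp.disc]; exact h4b), hyp.disc]
  rw [map_pow] at h1
  exact eq_of_sq_eq_sq_g (by rw [h1, one_pow])

lemma val_beta_eq_one (hyp : ModelHyp A W) (hb : A.valuation W.a₄ < 1) {β : L}
    (hβ : β ^ 2 = W.a₂) : A.valuation β = 1 := by
  have h1 : A.valuation β ^ 2 = 1 := by rw [← map_pow, hβ, val_a_eq_one hyp hb]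
  exact eq_of_sq_eq_sq_g (by rw [h1, one_pow])

lemma val_two_beta (hyp : ModelHyp A W) (hb : A.valuation W.a₄ < 1) {β : L}
    (hβ : β ^ 2 = W.a₂) : A.valuation (2 * β) = 1 := by
  rw [map_mul, hyp.two, val_beta_eq_one hyp hb hβ, one_mul]

/-- On `E₀`: `|y + β x| = |y - β x|` and `|y + β x|² = |x|³`. -/
lemma val_s_d (hyp : ModelHyp A W) (hb : A.valuation W.a₄ < 1) {β : L}
    (hβ : β ^ 2 = W.a₂) {x y : L} (h : W.Nonsingular x y) (hx : 1 ≤ A.valuation x) :
    A.valuation (y + β * x) = A.valuation (y - β * x) ∧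
      A.valuation (y + β * x) ^ 2 = A.valuation x ^ 3 := by
  refine val_sd A.valuation hx hb (val_two_beta hyp hb hβ) ?_ (by ring)
  have e := model_eqn hyp h
  linear_combination e - x ^ 2 * hβ

lemma s_ne_zero (hyp : ModelHyp A W) (hb : A.valuation W.a₄ < 1) {β : L}
    (hβ : β ^ 2 = W.a₂) {x y : L} (h : W.Nonsingular x y) (hx : 1 ≤ A.valuation x) :
    y + β * x ≠ 0 := by
  intro h0
  have h1 := (val_s_d hyp hb hβ h hx).2
  rw [h0, map_zero] at h1
  have hx0 : 0 < A.valuation x := lt_of_lt_of_le zero_lt_one hx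
  have : (0 : A.ValueGroup) < A.valuation x ^ 3 := pow_pos hx0 3
  rw [← h1] at this
  simp at this

lemma d_ne_zero (hyp : ModelHyp A W) (hb : A.valuation W.a₄ < 1) {β : L}
    (hβ : β ^ 2 = W.a₂) {x y : L} (h : W.Nonsingular x y) (hx : 1 ≤ A.valuation x) :
    y - β * x ≠ 0 := by
  intro h0
  have h1 := val_s_d hyp hb hβ h hx
  rw [h0, map_zero] at h1
  have := s_ne_zero hyp hb hβ h hx
  exact this ((map_eq_zero _).1 h1.1)

/-- `lam` is a unit on `E₀`. -/
theorem val_lam_eq_one (hyp : ModelHyp A W) (hb : A.valuation W.a₄ < 1) {β : L}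
    (hβ : β ^ 2 = W.a₂) (P : W.Point) (hP : InE0 A P) : A.valuation (lam β P) = 1 := by
  rcases P with _ | ⟨x, y, h⟩
  · show A.valuation (1 : L) = 1
    exact map_one _
  · have hx : 1 ≤ A.valuation x := hP
    have h1 := val_s_d hyp hb hβ h hx
    have hs := s_ne_zero hyp hb hβ h hx
    rw [lam_some, map_div₀, ← h1.1]
    exact div_self ((map_ne_zero _).2 hs)

/-- `lam (-P) = (lam P)⁻¹`. -/
theorem lam_neg (hyp : ModelHyp A W) (β : L) (P : W.Point) : lam β (-P) = (lam β P)⁻¹ := by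
  rcases P with _ | ⟨x, y, h⟩
  · show lam β (-(0 : W.Point)) = (lam β (0 : W.Point))⁻¹
    simp
  · rw [Point.neg_some, lam_some, lam_some, Fermat.Agent.S05.legendre_negY hyp.a₁ hyp.a₃, inv_div]
    have e1 : -y - β * x = -(y + β * x) := by ring
    have e2 : -y + β * x = -(y - β * x) := by ring
    rw [e1, e2, neg_div_neg_eq]

/-- `lam P - 1 = -(2 β x)/(y + β x)`. -/
lemma lam_sub_one (hyp : ModelHyp A W) (hb : A.valuation W.a₄ < 1) {β : L}
    (hβ : β ^ 2 = W.a₂) {x y : L} (h : W.Nonsingular x y) (hx : 1 ≤ A.valuation x) :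
    lam β (Point.some x y h) - 1 = -(2 * β * x) / (y + β * x) := by
  have hs := s_ne_zero hyp hb hβ h hx
  rw [lam_some]
  field_simp
  ring

/-- On `E₀ \ 0`: `|lam P - 1|² |x| = 1`. -/
lemma val_lam_sub_one_sq (hyp : ModelHyp A W) (hb : A.valuation W.a₄ < 1) {β : L}
    (hβ : β ^ 2 = W.a₂) {x y : L} (h : W.Nonsingular x y) (hx : 1 ≤ A.valuation x) :
    A.valuation (lam β (Point.some x y h) - 1) ^ 2 * A.valuation x = 1 := by
  have h1 := (val_s_d hyp hb hβ h hx).2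
  have hs := s_ne_zero hyp hb hβ h hx
  have hx0 : 0 < A.valuation x := lt_of_lt_of_le zero_lt_one hx
  have hs0 : A.valuation (y + β * x) ≠ 0 := (map_ne_zero _).2 hs
  rw [lam_sub_one hyp hb hβ h hx, map_div₀, Valuation.map_neg, map_mul, val_two_beta hyp hb hβ,
    one_mul, div_pow, h1, div_mul_eq_mul_div, ← pow_succ]
  exact div_self (pow_ne_zero _ hx0.ne')

/-- `|lam - 1| < 1` on `E₁`. -/
theorem val_lam_sub_one_lt (hyp : ModelHyp A W) (hb : A.valuation W.a₄ < 1) {β : L}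
    (hβ : β ^ 2 = W.a₂) (P : W.Point) (hP : InE1 A P) : A.valuation (lam β P - 1) < 1 := by
  rcases P with _ | ⟨x, y, h⟩
  · show A.valuation ((1 : L) - 1) < 1
    rw [sub_self, map_zero]; exact zero_lt_one
  · have hx : 1 < A.valuation x := hP
    have h1 := val_lam_sub_one_sq hyp hb hβ h hx.le
    by_contra hc
    have hc := not_lt.1 hc
    have h2 : 1 ≤ A.valuation (lam β (Point.some x y h) - 1) ^ 2 := one_le_pow₀ hc
    have h3 : 1 < A.valuation (lam β (Point.some x y h) - 1) ^ 2 * A.valuation x := by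
      calc (1 : A.ValueGroup) < A.valuation x := hx
        _ = 1 * A.valuation x := (one_mul _).symm
        _ ≤ _ := mul_le_mul_left h2 _
    rw [h1] at h3
    exact lt_irrefl _ h3

/-- The exact identity behind the multiplicativity of `lam` (line `y = ℓ x + μ`). -/
lemma key_id (a b β ℓ μ x₁ x₂ x₃ y₁ y₂ y₃ : L) (hβ : β ^ 2 = a)
    (e₁ : y₁ = ℓ * x₁ + μ) (e₂ : y₂ = ℓ * x₂ + μ) (e₃ : -y₃ = ℓ * x₃ + μ)
    (V₁ : x₁ + x₂ + x₃ = ℓ ^ 2 - a) (V₂ : x₁ * x₂ + x₁ * x₃ + x₂ * x₃ = b - 2 * ℓ * μ)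
    (V₃ : x₁ * x₂ * x₃ = μ ^ 2) :
    (y₃ - β * x₃) * ((y₁ + β * x₁) * (y₂ + β * x₂))
        - (y₁ - β * x₁) * (y₂ - β * x₂) * (y₃ + β * x₃) = -(4 * b * β * ℓ * μ) := by
  have e₃' : y₃ = -(ℓ * x₃ + μ) := by linear_combination -e₃
  subst e₁ e₂ e₃'
  linear_combination (-(6 * ℓ ^ 2 * β + 2 * β ^ 3)) * V₃ + (-(4 * ℓ * β * μ)) * V₂
    + (-(2 * β * μ ^ 2)) * V₁ + (-(2 * β * μ ^ 2)) * hβ

variable [DecidableEq L]

/-- The affine case of the main estimate. -/
lemma val_lam_add_some (hyp : ModelHyp A W) (hb : A.valuation W.a₄ < 1) {β : L}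
    (hβ : β ^ 2 = W.a₂) {x₁ y₁ x₂ y₂ x₃ y₃ : L} (h₁ : W.Nonsingular x₁ y₁)
    (h₂ : W.Nonsingular x₂ y₂) (h₃ : W.Nonsingular x₃ y₃)
    (hx₁ : 1 ≤ A.valuation x₁) (hx₂ : 1 ≤ A.valuation x₂) (hx₃ : 1 ≤ A.valuation x₃)
    (hadd : Point.some x₁ y₁ h₁ + Point.some x₂ y₂ h₂ = Point.some x₃ y₃ h₃) :
    A.valuation (lam β (Point.some x₃ y₃ h₃)
        - lam β (Point.some x₁ y₁ h₁) * lam β (Point.some x₂ y₂ h₂)) ≤
      A.valuation W.a₄ * A.valuation (lam β (Point.some x₂ y₂ h₂) - 1) := by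
  obtain ⟨ℓ, μ, e₁, e₂, e₃, V₁, V₂, V₃⟩ :=
    Fermat.Agent.S05.line W hyp.a₁ hyp.a₃ hyp.a₆ x₁ y₁ x₂ y₂ x₃ y₃ h₁ h₂ h₃ hadd
  have hs₁ := s_ne_zero hyp hb hβ h₁ hx₁
  have hs₂ := s_ne_zero hyp hb hβ h₂ hx₂
  have hs₃ := s_ne_zero hyp hb hβ h₃ hx₃
  have S₁ := (val_s_d hyp hb hβ h₁ hx₁).2
  have S₂ := (val_s_d hyp hb hβ h₂ hx₂).2
  have S₃ := (val_s_d hyp hb hβ h₃ hx₃).2
  have hU := val_lam_sub_one_sq hyp hb hβ h₂ hx₂
  set E : L := lam β (Point.some x₃ y₃ h₃)
        - lam β (Point.some x₁ y₁ h₁) * lam β (Point.some x₂ y₂ h₂) with hE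
  set U : A.ValueGroup := A.valuation (lam β (Point.some x₂ y₂ h₂) - 1) with hUdef
  -- the exact identity
  have hid : E * ((y₁ + β * x₁) * (y₂ + β * x₂) * (y₃ + β * x₃)) = -(4 * W.a₄ * β * ℓ * μ) := by
    rw [← key_id W.a₂ W.a₄ β ℓ μ x₁ x₂ x₃ y₁ y₂ y₃ hβ e₁ e₂ e₃ V₁ V₂ V₃, hE, lam_some, lam_some,
      lam_some]
    field_simp
  -- notation
  set X₁ := A.valuation x₁
  set X₂ := A.valuation x₂
  set X₃ := A.valuation x₃
  set T₁ := A.valuation (y₁ + β * x₁)
  set T₂ := A.valuation (y₂ + β * x₂)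
  set T₃ := A.valuation (y₃ + β * x₃)
  have hX₁ : 0 < X₁ := lt_of_lt_of_le zero_lt_one hx₁
  have hX₂ : 0 < X₂ := lt_of_lt_of_le zero_lt_one hx₂
  have hX₃ : 0 < X₃ := lt_of_lt_of_le zero_lt_one hx₃
  have c1 : A.valuation E * (T₁ * T₂ * T₃) = A.valuation W.a₄ * (A.valuation ℓ * A.valuation μ) := by
    have := congrArg A.valuation hid
    rw [map_mul, map_mul, map_mul, Valuation.map_neg, map_mul, map_mul, map_mul, map_mul,
      val_four hyp, val_beta_eq_one hyp hb hβ, one_mul, mul_one] at this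
    rw [this, mul_assoc]
  have c3 : A.valuation μ ^ 2 = X₁ * X₂ * X₃ := by
    rw [← map_pow, ← V₃, map_mul, map_mul]
  -- `|ℓ|² ≤ |x₁|² |x₂| |x₃|²`
  have c4 : A.valuation ℓ ^ 2 ≤ X₁ ^ 2 * X₂ * X₃ ^ 2 := by
    have hB1 : (1 : A.ValueGroup) ≤ X₁ ^ 2 := one_le_pow₀ hx₁
    have hB3 : (1 : A.ValueGroup) ≤ X₃ ^ 2 := one_le_pow₀ hx₃
    have b1 : X₁ ≤ X₁ ^ 2 * X₂ * X₃ ^ 2 := by
      calc X₁ = X₁ ^ 1 := (pow_one _).symm
        _ ≤ X₁ ^ 2 := pow_le_pow_right₀ hx₁ (by norm_num)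
        _ ≤ X₁ ^ 2 * X₂ := le_mul_of_one_le_right' hx₂
        _ ≤ X₁ ^ 2 * X₂ * X₃ ^ 2 := le_mul_of_one_le_right' hB3
    have b2 : X₂ ≤ X₁ ^ 2 * X₂ * X₃ ^ 2 := by
      calc X₂ ≤ X₁ ^ 2 * X₂ := le_mul_of_one_le_left' hB1
        _ ≤ X₁ ^ 2 * X₂ * X₃ ^ 2 := le_mul_of_one_le_right' hB3
    have b3 : X₃ ≤ X₁ ^ 2 * X₂ * X₃ ^ 2 := by
      calc X₃ = X₃ ^ 1 := (pow_one _).symm
        _ ≤ X₃ ^ 2 := pow_le_pow_right₀ hx₃ (by norm_num)
        _ ≤ X₁ ^ 2 * X₂ * X₃ ^ 2 := le_mul_of_one_le_left' (one_le_mul_of_one_le_of_one_le hB1 hx₂)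
    have b0 : A.valuation W.a₂ ≤ X₁ ^ 2 * X₂ * X₃ ^ 2 :=
      le_trans hyp.a_le (le_trans hx₂ b2)
    have : ℓ ^ 2 = x₁ + x₂ + x₃ + W.a₂ := by linear_combination -V₁
    rw [← map_pow, this]
    exact Valuation.map_add_le _ (Valuation.map_add_le _ (Valuation.map_add_le _ b1 b2) b3) b0
  -- squares
  have hPi : 0 < (X₁ * X₂ * X₃) ^ 3 * X₂ := mul_pos (pow_pos (mul_pos (mul_pos hX₁ hX₂) hX₃) 3) hX₂
  refine le_of_sq_le_sq_g ((mul_le_mul_iff_left₀ hPi).1 ?_)
  have l1 : A.valuation E ^ 2 * ((X₁ * X₂ * X₃) ^ 3 * X₂) =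
      A.valuation W.a₄ ^ 2 * (A.valuation ℓ ^ 2 * (X₁ * X₂ ^ 2 * X₃)) := by
    have e : (T₁ * T₂ * T₃) ^ 2 = (X₁ * X₂ * X₃) ^ 3 := by
      rw [mul_pow, mul_pow, S₁, S₂, S₃, mul_pow, mul_pow]
    have := congrArg (fun t => t ^ 2 * X₂) c1
    beta_reduce at this
    rw [mul_pow, e] at this
    rw [← mul_assoc, this, mul_pow, mul_pow, c3]
    simp only [pow_succ, pow_zero, one_mul]
    ac_rfl
  have l2 : (A.valuation W.a₄ * U) ^ 2 * ((X₁ * X₂ * X₃) ^ 3 * X₂) =
      A.valuation W.a₄ ^ 2 * ((X₁ ^ 2 * X₂ * X₃ ^ 2) * (X₁ * X₂ ^ 2 * X₃)) := by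
    have : (A.valuation W.a₄ * U) ^ 2 * ((X₁ * X₂ * X₃) ^ 3 * X₂) =
        A.valuation W.a₄ ^ 2 * (X₁ * X₂ * X₃) ^ 3 * (U ^ 2 * X₂) := by
      rw [mul_pow]; ac_rfl
    rw [this, hU, mul_one]
    simp only [pow_succ, pow_zero, one_mul]
    ac_rfl
  rw [l1, l2]
  gcongr

omit [DecidableEq L] in
/-- `lam` is nonzero on `E₀`. -/
lemma lam_ne_zero (hyp : ModelHyp A W) (hb : A.valuation W.a₄ < 1) {β : L}
    (hβ : β ^ 2 = W.a₂) (P : W.Point) (hP : InE0 A P) : lam β P ≠ 0 := by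
  intro h0
  have := val_lam_eq_one hyp hb hβ P hP
  rw [h0, map_zero] at this
  exact zero_ne_one this

/-- **Main estimate**: `|lam (P + Q) - lam P · lam Q| ≤ |b| · |lam Q - 1|` on `E₀`. -/
theorem val_lam_add (hyp : ModelHyp A W) (hb : A.valuation W.a₄ < 1) {β : L}
    (hβ : β ^ 2 = W.a₂) (P Q : W.Point) (hP : InE0 A P) (hQ : InE0 A Q) :
    A.valuation (lam β (P + Q) - lam β P * lam β Q) ≤
      A.valuation W.a₄ * A.valuation (lam β Q - 1) := by
  have hPQ : InE0 A (P + Q) := Fermat.Agent.S05.H6.M1_E0E0 A W hyp hb P Q hP hQ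
  by_cases hP0 : P = 0
  · subst hP0
    rw [zero_add, lam_zero, one_mul, sub_self, map_zero]
    exact zero_le
  by_cases hQ0 : Q = 0
  · subst hQ0
    rw [add_zero, lam_zero, mul_one, sub_self, map_zero]
    exact zero_le
  by_cases hS0 : P + Q = 0
  · have hQ' : Q = -P := (neg_eq_of_add_eq_zero_right hS0).symm
    rw [hS0, hQ', lam_neg hyp β P, lam_zero, mul_inv_cancel₀ (lam_ne_zero hyp hb hβ P hP), sub_self,
      map_zero]
    exact zero_le
  rcases P with _ | ⟨x₁, y₁, h₁⟩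
  · exact absurd rfl hP0
  rcases Q with _ | ⟨x₂, y₂, h₂⟩
  · exact absurd rfl hQ0
  rcases hS : Point.some x₁ y₁ h₁ + Point.some x₂ y₂ h₂ with _ | ⟨x₃, y₃, h₃⟩
  · exact absurd hS hS0
  rw [hS] at hPQ
  exact val_lam_add_some hyp hb hβ h₁ h₂ h₃ hP hQ hPQ hS

end Model

/-- Leaf **M** of package C. -/
theorem stmt_M : Stmt_M := by
  intro L _ _ A W hyp hb β hβ
  exact ⟨fun P hP => val_lam_eq_one hyp hb hβ P hP, fun P => lam_neg hyp β P,
    fun P hP => val_lam_sub_one_lt hyp hb hβ P hP,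
    fun P Q hP hQ => val_lam_add hyp hb hβ P Q hP hQ⟩

end Fermat.Agent.S44.C.H38

end
-- ==== END Fermat.Agent.S44.C.H38_M

-- ==== BEGIN Fermat.Agent.Tate.T6.H97_DP
section

set_option autoImplicit false

namespace Fermat.Agent.Tate.T6.H97

open WeierstrassCurve WeierstrassCurve.Affine Polynomial
open Fermat.Agent.Lib.TorsionGen

section general

variable {K : Type*} [Field K]

/-- A nonzero polynomial over an algebraically closed field whose only root is `0` is a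
monomial. -/
lemma eq_C_mul_X_pow_of_roots [IsAlgClosed K] {g : K[X]} (hg : g ≠ 0)
    (hroot : ∀ x, g.eval x = 0 → x = 0) : g = C g.leadingCoeff * X ^ g.natDegree := by
  have hs := IsAlgClosed.splits g
  have h1 := hs.eq_prod_roots
  have hr : g.roots = Multiset.replicate g.natDegree 0 := by
    rw [Multiset.eq_replicate]
    exact ⟨splits_iff_card_roots.1 hs, fun x hx => hroot x ((mem_roots hg).1 hx)⟩
  rw [hr, Multiset.map_replicate, Multiset.prod_replicate] at h1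
  simpa using h1

variable [DecidableEq K]

lemma nodVal_nsmul (β : K) (n : ℕ) (P : (nodal (β ^ 2)).toAffine.Point) :
    nodVal β (n • P) = nodVal β P ^ n := by
  induction n with
  | zero => rw [zero_smul, pow_zero, nodVal_zero]
  | succ n ih => rw [succ_nsmul, nodVal_add, ih, pow_succ]

variable (p : ℕ) [Fact p.Prime] [CharP K p]

/-- No `p`-torsion on the nonsingular locus of the nodal cubic in characteristic `p`. -/
lemma nodal_no_p_torsion {β : K} (hβ : β ≠ 0) (h2 : (2 : K) ≠ 0)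
    (P : (nodal (β ^ 2)).toAffine.Point) (hP : p • P = 0) : P = 0 := by
  have h := nodVal_nsmul β p P
  rw [hP, nodVal_zero] at h
  have hu : nodVal β P = 1 := by
    apply frobenius_inj K p
    rw [frobenius_def, ← h, map_one]
  exact (nodVal_eq_one_iff hβ h2 P).1 hu

/-- The only root of `preΨ'_p` is `0`. -/
lemma nodal_root_eq_zero [IsAlgClosed K] {β : K} (hβ : β ≠ 0) (h2 : (2 : K) ≠ 0)
    (hp : ¬ Even p) {x₀ : K} (hx : ((nodal (β ^ 2)).preΨ' p).eval x₀ = 0) : x₀ = 0 := by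
  by_contra hx0
  obtain ⟨y₀, hy⟩ := IsAlgClosed.exists_pow_nat_eq (x₀ ^ 3 + β ^ 2 * x₀ ^ 2) (n := 2)
    (by norm_num)
  have hns := nodal_nonsingular_of_x_ne_zero h2 hy hx0
  have h1 : p • Point.some x₀ y₀ hns = 0 :=
    (nsmul_eq_zero_iff_eval_preΨ' (W := (nodal (β ^ 2)).toAffine) hns hp).2 hx
  have h3 := nodal_no_p_torsion p hβ h2 _ h1
  exact Point.some_ne_zero _ h3

/-- The multiplication-by-`p` formula on the nodal cubic, as a polynomial identity. -/
lemma nodal_mul_formula [IsAlgClosed K] {β : K} (hβ : β ≠ 0) (h2 : (2 : K) ≠ 0) :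
    X ^ p * (nodal (β ^ 2)).ΨSq (p : ℤ) =
      C ((4 * β ^ 2) ^ (p - 1)) * (nodal (β ^ 2)).Φ (p : ℤ) := by
  have hp : p.Prime := Fact.out
  apply eq_of_infinite_eval_eq
  -- the finite exceptional set
  set S : Set K := {u | ∃ k, 1 ≤ k ∧ k ≤ p ∧ u ^ k = 1} with hS
  have hSfin : S.Finite := by
    have hsub : S ⊆ ⋃ k ∈ Finset.Icc 1 p, {u : K | (X ^ k - C 1 : K[X]).IsRoot u} := by
      rintro u ⟨k, hk1, hkp, hu⟩
      simp only [Set.mem_iUnion, Set.mem_ofPred_eq, Finset.mem_Icc, exists_prop]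
      refine ⟨k, ⟨hk1, hkp⟩, ?_⟩
      simp [hu]
    refine Set.Finite.subset ?_ hsub
    refine Set.Finite.biUnion (Finset.finite_toSet _) (fun k hk => ?_)
    have hk1 : 0 < k := by
      have := (Finset.mem_Icc.1 hk).1
      omega
    exact finite_setOfPred_isRoot (X_pow_sub_C_ne_zero hk1 (1 : K))
  set F : Set K := {0} ∪ (fun u => 4 * β ^ 2 * u / (1 - u) ^ 2) '' S with hF
  have hFfin : F.Finite := (Set.finite_singleton 0).union (hSfin.image _)
  refine hFfin.infinite_compl.mono (fun x hx => ?_)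
  rw [hF, Set.mem_compl_iff, Set.mem_union, not_or] at hx
  obtain ⟨hx0, hxS⟩ := hx
  have hx0 : x ≠ 0 := hx0
  obtain ⟨y, hy⟩ := IsAlgClosed.exists_pow_nat_eq (x ^ 3 + β ^ 2 * x ^ 2) (n := 2) (by norm_num)
  have hns := nodal_nonsingular_of_x_ne_zero h2 hy hx0
  set P : (nodal (β ^ 2)).toAffine.Point := Point.some x y hns with hPdef
  set u := nodVal β P with hu
  have hrel : x * (1 - u) ^ 2 = 4 * β ^ 2 * u := nodVal_x_rel β hns
  have hu1 : u ≠ 1 := fun h => Point.some_ne_zero hns ((nodVal_eq_one_iff hβ h2 P).1 h)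
  have h1u : (1 - u) ≠ 0 := sub_ne_zero.2 (Ne.symm hu1)
  have hxu : 4 * β ^ 2 * u / (1 - u) ^ 2 = x := by
    rw [div_eq_iff (pow_ne_zero 2 h1u)]
    exact hrel.symm
  have huS : u ∉ S := fun h => hxS ⟨u, h, hxu⟩
  have hL : ∀ k, 1 ≤ k → k ≤ p → k • P ≠ 0 := by
    intro k hk1 hkp h0
    apply huS
    refine ⟨k, hk1, hkp, ?_⟩
    rw [hu, ← nodVal_nsmul, h0, nodVal_zero]
  have hform := xc_nsmul_mul_eval_ΨSq (W := (nodal (β ^ 2)).toAffine) hns hp.one_le hL
  have hpP := hL p hp.one_le le_rfl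
  have hval : nodVal β (p • P) = u ^ p := nodVal_nsmul β p P
  rw [← hPdef] at hform
  rcases hQ : p • P with _ | ⟨x', y', h'⟩
  · exact absurd hQ hpP
  rw [hQ] at hform hval
  rw [Fermat.Agent.Lib.Torsion.H11.xc_some] at hform
  have hrel' : x' * (1 - u ^ p) ^ 2 = 4 * β ^ 2 * u ^ p := by
    have := nodVal_x_rel β h'
    rwa [hval] at this
  have hfrob : (1 - u) ^ p = 1 - u ^ p := by
    rw [sub_pow_char, one_pow]
  have hup : (1 - u ^ p) ≠ 0 := by
    rw [← hfrob]; exact pow_ne_zero p h1u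
  have hpow : (4 * β ^ 2) ^ p = (4 * β ^ 2) ^ (p - 1) * (4 * β ^ 2) := by
    rw [← pow_succ]
    congr 1
    have := hp.one_le
    omega
  have key : x ^ p = (4 * β ^ 2) ^ (p - 1) * x' := by
    apply mul_right_cancel₀ (pow_ne_zero 2 hup)
    have e1 : ((1 - u) ^ p) ^ 2 = ((1 - u) ^ 2) ^ p := by
      rw [← pow_mul, ← pow_mul, mul_comm]
    calc x ^ p * (1 - u ^ p) ^ 2 = (x * (1 - u) ^ 2) ^ p := by
          rw [← hfrob, mul_pow, e1]
      _ = (4 * β ^ 2) ^ p * u ^ p := by rw [hrel, mul_pow]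
      _ = (4 * β ^ 2) ^ (p - 1) * (4 * β ^ 2 * u ^ p) := by rw [hpow]; ring
      _ = (4 * β ^ 2) ^ (p - 1) * x' * (1 - u ^ p) ^ 2 := by rw [← hrel']; ring
  show eval x (X ^ p * (nodal (β ^ 2)).ΨSq (p : ℤ)) =
    eval x (C ((4 * β ^ 2) ^ (p - 1)) * (nodal (β ^ 2)).Φ (p : ℤ))
  rw [eval_mul, eval_pow, eval_X, eval_mul, eval_C, ← hform, key]
  ring

/-- The degree of `preΨ'_p` on the nodal cubic in characteristic `p`. -/
lemma nodal_natDegree_preΨ' [IsAlgClosed K] {β : K} (hβ : β ≠ 0) (h2 : (2 : K) ≠ 0)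
    (hp : ¬ Even p) :
    (nodal (β ^ 2)).preΨ' p ≠ 0 ∧ 2 * ((nodal (β ^ 2)).preΨ' p).natDegree + p = p ^ 2 := by
  have hC := nodal_mul_formula p hβ h2
  rw [ΨSq_ofNat, if_neg hp, mul_one] at hC
  have hc : (4 * β ^ 2) ^ (p - 1) ≠ 0 := by
    apply pow_ne_zero
    have h4 : (4 : K) ≠ 0 := by
      have : (4 : K) = 2 * 2 := by norm_num
      rw [this]; exact mul_ne_zero h2 h2
    exact mul_ne_zero h4 (pow_ne_zero 2 hβ)
  have hΦ : (C ((4 * β ^ 2) ^ (p - 1)) * (nodal (β ^ 2)).Φ (p : ℤ)).natDegree = p ^ 2 := by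
    rw [natDegree_C_mul hc, natDegree_Φ, Int.natAbs_natCast]
  have hne : (nodal (β ^ 2)).preΨ' p ≠ 0 := by
    intro h0
    rw [h0] at hC
    have h0' : C ((4 * β ^ 2) ^ (p - 1)) * (nodal (β ^ 2)).Φ (p : ℤ) = 0 := by
      rw [← hC]; simp
    rcases mul_eq_zero.1 h0' with h | h
    · exact hc (C_eq_zero.1 h)
    · exact Φ_ne_zero _ _ h
  refine ⟨hne, ?_⟩
  have h := congrArg natDegree hC
  rw [hΦ, natDegree_mul (pow_ne_zero _ X_ne_zero) (pow_ne_zero _ hne), natDegree_X_pow,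
    natDegree_pow] at h
  omega

/-- **DP** over an algebraically closed field, with `a = β²`. -/
lemma nodal_preΨ'_eq [IsAlgClosed K] {β : K} (hβ : β ≠ 0) (h2 : (2 : K) ≠ 0) (hp : ¬ Even p) :
    ∃ c : K, c ≠ 0 ∧ (nodal (β ^ 2)).preΨ' p = C c * X ^ ((p ^ 2 - p) / 2) := by
  obtain ⟨hne, hdeg⟩ := nodal_natDegree_preΨ' p hβ h2 hp
  have h := eq_C_mul_X_pow_of_roots hne (fun x hx => nodal_root_eq_zero p hβ h2 hp hx)
  have hd : ((nodal (β ^ 2)).preΨ' p).natDegree = (p ^ 2 - p) / 2 := by omega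
  refine ⟨((nodal (β ^ 2)).preΨ' p).leadingCoeff, leadingCoeff_ne_zero.2 hne, ?_⟩
  rw [← hd]
  exact h

end general

lemma nodal_map {k K : Type*} [CommRing k] [CommRing K] (φ : k →+* K) (a : k) :
    (nodal a).map φ = nodal (φ a) := by
  ext <;> simp [nodal]

/-- **T6-DP**. -/
theorem stmt_DP : Stmt_DP := by
  intro k _ p _ _ hp2 a ha
  classical
  have hp : p.Prime := Fact.out
  have hodd : ¬ Even p := by
    intro h
    exact hp2 ((Nat.Prime.even_iff hp).1 h)
  let φ : k →+* AlgebraicClosure k := algebraMap k (AlgebraicClosure k)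
  have hφ : Function.Injective φ := (algebraMap k (AlgebraicClosure k)).injective
  have hchar : CharP (AlgebraicClosure k) p := charP_of_injective_ringHom hφ p
  have h2 : (2 : AlgebraicClosure k) ≠ 0 := by
    intro h
    have h' : ((2 : ℕ) : AlgebraicClosure k) = 0 := by exact_mod_cast h
    have hdvd : p ∣ 2 := (CharP.cast_eq_zero_iff (AlgebraicClosure k) p 2).1 h'
    exact hp2 ((Nat.prime_dvd_prime_iff_eq hp Nat.prime_two).1 hdvd)
  obtain ⟨β, hβ⟩ := IsAlgClosed.exists_pow_nat_eq (φ a) (n := 2) (by norm_num)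
  have hβ0 : β ≠ 0 := by
    rintro rfl
    have : φ a = 0 := by rw [← hβ]; ring
    exact ha ((map_eq_zero φ).1 this)
  obtain ⟨c, hc, hcX⟩ := nodal_preΨ'_eq p hβ0 h2 hodd
  have hmap : ((nodal a).preΨ' p).map φ = C c * X ^ ((p ^ 2 - p) / 2) := by
    rw [← map_preΨ', nodal_map, ← hβ]
    exact hcX
  set g := (nodal a).preΨ' p with hg
  set m := (p ^ 2 - p) / 2 with hm
  have hcoeff : φ (g.coeff m) = c := by
    rw [← coeff_map, hmap]
    simp
  refine ⟨g.coeff m, ?_, ?_⟩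
  · intro h0
    rw [h0, map_zero] at hcoeff
    exact hc hcoeff.symm
  · apply Polynomial.map_injective φ hφ
    rw [hmap, Polynomial.map_mul, Polynomial.map_pow, map_X, map_C, hcoeff]

end Fermat.Agent.Tate.T6.H97

end
-- ==== END Fermat.Agent.Tate.T6.H97_DP
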