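-- GENERATED (merged mirror, NOTES/tools/trim/merge3_helper67.py): 7 modules of the originals, bodies verbatim.
import Fermat.Agent.Zm.S44_L02_000
import Fermat.Agent.S05.H95_Inertia
import Fermat.Agent.Zm.S56_L04_000
import Fermat.Agent.Zm.S33_L01_001
import Fermat.Agent.Zm.S33_L07_000
import Fermat.Agent.Zm.S35_L07_000
import Fermat.Agent.Zm.S44_L02_001
import Fermat.Agent.Zm.S44_L01_001
import Fermat.Agent.Zm.S44_L02_002

-- ==== BEGIN Fermat.Agent.BADP.H11_Arith0Field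
section

/-!
# S44 BADP, leaf ARITH-0 (helper11), part 3: the field-level section `λ : L → L ∩ ℚ̄^I`

`A` a valuation subring of `ℚ̄` over `p`, `I` its inertia group, `L ⊂ ℚ̄` a finite normal
extension of `ℚ`, `Γ = inertiaRes A L` the image of `I` in `Gal(L/ℚ)`.

* `exists_section_field` : there is `d ∈ L` such that for every `a ∈ L ∩ A` the element
  `∑_{γ ∈ Γ} γ (d a)` lies in `A` and is congruent to `a` modulo the maximal ideal of `A`.

Inputs: `exists_trace_section` (abstract), `R.H6.stmt_UnrFix` (the inertia field is unramified),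
`FL.H38.exists_pow_eq_one_residue` (the residue field is algebraic over `𝔽_p`).
-/

set_option autoImplicit false
set_option linter.style.haveILetI false
set_option linter.unusedSectionVars false

noncomputable section

namespace Fermat.Agent.BADP.H11

local notation "Qbar" => AlgebraicClosure ℚ

section General

variable {K M : Type*} [Field K] [Field M]

theorem valuation_eq_one_iff_mem (B : ValuationSubring M) {z : M} (hz : z ≠ 0) :
    B.valuation z = 1 ↔ z ∈ B ∧ z⁻¹ ∈ B := by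
  constructor
  · intro h
    refine ⟨(B.valuation_le_one_iff z).mp h.le, (B.valuation_le_one_iff _).mp ?_⟩
    rw [map_inv₀, h, inv_one]
  · rintro ⟨h1, h2⟩
    have e1 := (B.valuation_le_one_iff z).mpr h1
    have e2 := (B.valuation_le_one_iff _).mpr h2
    rw [map_inv₀] at e2
    have h0 : B.valuation z ≠ 0 := (Valuation.ne_zero_iff _).mpr hz
    have e3 : 1 ≤ B.valuation z := (inv_le_one₀ (zero_lt_iff.mpr h0)).mp e2
    exact le_antisymm e1 e3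

theorem comap_valuation_eq_one_iff (B : ValuationSubring M) (f : K →+* M) {z : K} (hz : z ≠ 0) :
    (B.comap f).valuation z = 1 ↔ B.valuation (f z) = 1 := by
  rw [valuation_eq_one_iff_mem _ hz, valuation_eq_one_iff_mem _ ((map_ne_zero f).mpr hz),
    ValuationSubring.mem_comap, ValuationSubring.mem_comap, map_inv₀]

theorem mem_comap_nonunits_iff (B : ValuationSubring M) (f : K →+* M) (z : K) :
    z ∈ (B.comap f).nonunits ↔ f z ∈ B.nonunits := by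
  rw [ValuationSubring.mem_nonunits_iff_or, ValuationSubring.mem_nonunits_iff_or,
    ValuationSubring.mem_comap, map_inv₀, map_eq_zero]

end General

variable (A : ValuationSubring Qbar) (L : IntermediateField ℚ Qbar)
  [FiniteDimensional ℚ L] [Normal ℚ L]

/-- The image of the inertia group of `A` in `Gal(L/ℚ)`. -/
def inertiaRes : Subgroup (L ≃ₐ[ℚ] L) :=
  (A.inertiaSubgroupIn ℚ).map (AlgEquiv.restrictNormalHom L)

instance : Fintype ↥(inertiaRes A L) := Fintype.ofFinite _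

/-- The valuation ring `A ∩ L` of `L`. -/
abbrev valL : ValuationSubring L := A.comap (algebraMap L Qbar)

theorem mem_valL_iff (x : L) : x ∈ valL A L ↔ (x : Qbar) ∈ A := Iff.rfl

theorem mem_valL_nonunits_iff (x : L) : x ∈ (valL A L).nonunits ↔ (x : Qbar) ∈ A.nonunits :=
  mem_comap_nonunits_iff A (algebraMap L Qbar) x

/-- Every element of the restricted inertia group lifts to the inertia group. -/
theorem exists_lift (γ : inertiaRes A L) :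
    ∃ σ ∈ A.inertiaSubgroupIn ℚ,
      ∀ x : L, σ (x : Qbar) = (((γ : L ≃ₐ[ℚ] L) x : L) : Qbar) := by
  obtain ⟨σ, hσ, hγ⟩ := γ.2
  refine ⟨σ, hσ, fun x => ?_⟩
  rw [← hγ]
  exact (AlgEquiv.restrictNormal_commutes σ L x).symm

/-- A chosen lift of `γ ∈ Γ` to the inertia group. -/
def liftI (γ : inertiaRes A L) : Qbar ≃ₐ[ℚ] Qbar := (exists_lift A L γ).choose

theorem liftI_mem (γ : inertiaRes A L) : liftI A L γ ∈ A.inertiaSubgroupIn ℚ :=
  (exists_lift A L γ).choose_spec.1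

theorem liftI_apply (γ : inertiaRes A L) (x : L) :
    liftI A L γ (x : Qbar) = (((γ : L ≃ₐ[ℚ] L) x : L) : Qbar) :=
  (exists_lift A L γ).choose_spec.2 x

/-- The restriction of an element of the inertia group. -/
def resI (σ : Qbar ≃ₐ[ℚ] Qbar) (hσ : σ ∈ A.inertiaSubgroupIn ℚ) : inertiaRes A L :=
  ⟨AlgEquiv.restrictNormalHom L σ, ⟨σ, hσ, rfl⟩⟩

theorem resI_apply (σ : Qbar ≃ₐ[ℚ] Qbar) (hσ : σ ∈ A.inertiaSubgroupIn ℚ) (x : L) :
    ((((resI A L σ hσ : inertiaRes A L) : L ≃ₐ[ℚ] L) x : L) : Qbar) = σ (x : Qbar) :=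
  AlgEquiv.restrictNormal_commutes σ L x

theorem smul_valL_mem (γ : inertiaRes A L) (a : L) (ha : a ∈ valL A L) :
    γ • a ∈ valL A L := by
  rw [mem_valL_iff] at ha ⊢
  show ((((γ : L ≃ₐ[ℚ] L) a : L)) : Qbar) ∈ A
  rw [← liftI_apply]
  exact (Fermat.Agent.S05.H95.mem_iff_of_mem_inertia A (liftI_mem A L γ)).mpr ha

theorem smul_sub_mem_nonunits (γ : inertiaRes A L) (a : L) (ha : a ∈ valL A L) :
    γ • a - a ∈ (valL A L).nonunits := by
  rw [mem_valL_nonunits_iff]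
  rw [mem_valL_iff] at ha
  show (((((γ : L ≃ₐ[ℚ] L) a : L)) : Qbar) - (a : Qbar)) ∈ A.nonunits
  rw [← liftI_apply]
  exact Fermat.Agent.S05.H95.sub_mem_nonunits_of_mem_inertia A (liftI_mem A L γ) ha

/-- A `Γ`-fixed element of `L` is fixed by the inertia group. -/
theorem fixed_of_fixed (x : L) (hx : ∀ γ : inertiaRes A L, γ • x = x)
    (σ : Qbar ≃ₐ[ℚ] Qbar) (hσ : σ ∈ A.inertiaSubgroupIn ℚ) : σ (x : Qbar) = x := by
  rw [← resI_apply A L σ hσ x]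
  exact congrArg (fun y : L => (y : Qbar)) (hx (resI A L σ hσ))

/-- Perfectness of the residue field, inside the fixed ring. -/
theorem exists_pth_root {p : ℕ} (hp : p.Prime) (hA : A.LiesOverPrime p) (x : L)
    (hx : x ∈ valL A L) (hfix : ∀ γ : inertiaRes A L, γ • x = x) :
    ∃ y ∈ valL A L, (∀ γ : inertiaRes A L, γ • y = y) ∧ x - y ^ p ∈ (valL A L).nonunits := by
  rw [mem_valL_iff] at hx
  by_cases h0 : IsLocalRing.residue ↥A ⟨(x : Qbar), hx⟩ = 0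
  · refine ⟨0, zero_mem _, fun γ => smul_zero γ, ?_⟩
    rw [zero_pow hp.ne_zero, sub_zero, mem_valL_nonunits_iff]
    rw [IsLocalRing.residue_eq_zero_iff, ← ValuationSubring.coe_mem_nonunits_iff] at h0
    exact h0
  · obtain ⟨m, hm0, hmp, hm⟩ := Fermat.Agent.FL.H38.exists_pow_eq_one_residue A hp hA _ h0
    -- `p j = 1 + m t`
    obtain ⟨j, t, hjt⟩ : ∃ j t : ℕ, p * j = 1 + m * t := by
      rcases Nat.lt_or_ge 1 m with h1 | h1
      · obtain ⟨j, -, hj⟩ := Nat.exists_mul_mod_eq_one_of_coprime hmp.symm h1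
        refine ⟨j, p * j / m, ?_⟩
        have := Nat.div_add_mod (p * j) m
        rw [hj] at this
        omega
      · have : m = 1 := by omega
        subst this
        exact ⟨1, p - 1, by have := hp.pos; omega⟩
    refine ⟨x ^ j, ?_, fun γ => ?_, ?_⟩
    · rw [mem_valL_iff]
      push_cast
      exact pow_mem hx j
    · rw [smul_pow', hfix]
    · rw [mem_valL_nonunits_iff]
      have e1 : IsLocalRing.residue ↥A (⟨(x : Qbar), hx⟩ - (⟨(x : Qbar), hx⟩ ^ j) ^ p) = 0 := by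
        rw [map_sub, map_pow, map_pow, ← pow_mul, mul_comm j p, hjt, pow_add, pow_one, pow_mul,
          hm, one_pow, mul_one, sub_self]
      rw [IsLocalRing.residue_eq_zero_iff, ← ValuationSubring.coe_mem_nonunits_iff] at e1
      have e2 : (((⟨(x : Qbar), hx⟩ - (⟨(x : Qbar), hx⟩ ^ j) ^ p : ↥A)) : Qbar)
          = ((x - (x ^ j) ^ p : L) : Qbar) := by
        push_cast
        rfl
      rw [e2] at e1
      exact e1

/-- The fixed field is discretely valued with uniformiser `p`. -/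
theorem exists_zpow_valL {p : ℕ} (hp : p.Prime) (hA : A.LiesOverPrime p) (x : L) (hx0 : x ≠ 0)
    (hfix : ∀ γ : inertiaRes A L, γ • x = x) :
    ∃ k : ℤ, (valL A L).valuation x = (valL A L).valuation (p : L) ^ k := by
  have hxQ : (x : Qbar) ≠ 0 := fun h => hx0 (Subtype.ext h)
  obtain ⟨k, hk⟩ := Fermat.Agent.R.H6.stmt_UnrFix p hp A hA (x : Qbar) hxQ
    (fun σ hσ => fixed_of_fixed A L x hfix σ hσ)
  refine ⟨k, ?_⟩
  have hp0 : (p : L) ≠ 0 := by exact_mod_cast hp.ne_zero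
  have hpQ : (p : Qbar) ≠ 0 := by exact_mod_cast hp.ne_zero
  have hz0 : x / (p : L) ^ k ≠ 0 := div_ne_zero hx0 (zpow_ne_zero _ hp0)
  have h1 : (valL A L).valuation (x / (p : L) ^ k) = 1 := by
    rw [comap_valuation_eq_one_iff A (algebraMap L Qbar) hz0]
    have e : algebraMap L Qbar (x / (p : L) ^ k) = (x : Qbar) / (p : Qbar) ^ k := by
      rw [map_div₀, map_zpow₀, map_natCast]
      rfl
    rw [e, map_div₀, map_zpow₀, hk]
    exact div_self (zpow_ne_zero _ ((Valuation.ne_zero_iff _).mpr hpQ))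
  rw [map_div₀, map_zpow₀] at h1
  have h2 : (valL A L).valuation (p : L) ^ k ≠ 0 :=
    zpow_ne_zero _ ((Valuation.ne_zero_iff _).mpr hp0)
  exact (div_eq_one_iff_eq h2).mp h1

/-- **The field-level section.**  There is `d ∈ L` such that for all `a ∈ L ∩ A` the element
`∑_γ γ (d a)` is in `A` and congruent to `a` modulo the maximal ideal. -/
theorem exists_section_field {p : ℕ} (hp : p.Prime) (hA : A.LiesOverPrime p) :
    ∃ d : L, ∀ a : L, (a : Qbar) ∈ A →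
      (((∑ γ : inertiaRes A L, γ • (d * a) : L) : Qbar) ∈ A) ∧
      (((∑ γ : inertiaRes A L, γ • (d * a) : L) : Qbar) - (a : Qbar)) ∈ A.nonunits := by
  haveI : Fact p.Prime := ⟨hp⟩
  have hp0 : (p : L) ≠ 0 := by exact_mod_cast hp.ne_zero
  have hpO : (p : L) ∈ (valL A L).nonunits := by
    rw [mem_valL_nonunits_iff]
    have : (((p : L) : L) : Qbar) = (p : Qbar) := by push_cast; rfl
    rw [this]
    exact hA
  have hpfix : ∀ γ : inertiaRes A L, γ • (p : L) = (p : L) := fun γ =>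
    map_natCast (γ : L ≃ₐ[ℚ] L) p
  obtain ⟨d, hd⟩ := exists_trace_section (Γ := inertiaRes A L) (valL A L) p hpO
    (smul_valL_mem A L) (smul_sub_mem_nonunits A L) (exists_pth_root A L hp hA)
    hp0 hpO hpfix (exists_zpow_valL A L hp hA)
  refine ⟨d, fun a ha => ?_⟩
  obtain ⟨h1, h2⟩ := hd a ha
  refine ⟨h1, ?_⟩
  rw [mem_valL_nonunits_iff] at h2
  exact h2

/-- The sum over `Γ` is `Γ`-invariant. -/
theorem smul_sum_inertiaRes (γ' : inertiaRes A L) (y : L) :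
    γ' • (∑ γ : inertiaRes A L, γ • y) = ∑ γ : inertiaRes A L, γ • y := by
  rw [Finset.smul_sum]
  simp_rw [← mul_smul]
  exact Fintype.sum_bijective (fun γ => γ' * γ) (Group.mulLeft_bijective γ') _ _ (fun _ => rfl)

end Fermat.Agent.BADP.H11

end
end
-- ==== END Fermat.Agent.BADP.H11_Arith0Field

-- ==== BEGIN Fermat.Agent.BADP.H15_DescAdj
section
attribute [local instance 10000] SubalgebraClass.toAlgebra
attribute [local instance 10000] HahnSeries.powerSeriesAlgebra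

/-!
# S44 BADP, leaf ARITH (function level), part 3 (helper15): the shapes of `H97_Bridge`

`A` a place of `ℚ̄` over `p`, `I = A.inertiaSubgroupIn ℚ`, `K₀ = ℚ̄^I`, `F = F_N · ℚ̄`,
`F0 = fixF N I = F^I`.

* `mem_adjoin_of_fixed_fn` **(DESC-F)**: a function fixed by all `σ ∈ I` which fix the set
  `T ⊆ ℚ̄` pointwise lies in `F^I (T)`; forms `mem_adjoin_pair_of_fixed`,
  `mem_adjoin_singleton_of_fixed` for `T = {ζ, ω}`, `T = {ω}`;
* `const_mem_F0`, `galF_F0`: the hypotheses `hF0`, `hfix` of `H97.kdata_fn`;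
* `stmt_A1`, `stmt_A1_two` **(A1, `H = I`)**: the hypothesis `hA1` of `H97.kdata_fn` for a
  component `T : PRed` whose valuation ring contains `V₁` (resp. `V₂`).
-/

set_option autoImplicit false
set_option linter.style.haveILetI false
set_option linter.unusedSectionVars false
set_option synthInstance.maxHeartbeats 400000
set_option maxHeartbeats 1000000

open ModularCurve AlgebraicCurve Fermat.Agent.S28 Fermat.Agent.S28.H73 Fermat.Agent.RED.H73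

noncomputable section

namespace Fermat.Agent.BADP.H15

open Fermat.Agent.RED Fermat.Agent.S24 Fermat.Agent.FL.H22 Fermat.Agent.BAD
  Fermat.Agent.BADP.H97

section Adjoin

variable (N : ℕ) [NeZero N] (A : ValuationSubring Kbar)

/-- The inertia group as a set. -/
abbrev inertiaSet : Set GalQ := ((A.inertiaSubgroupIn ℚ : Subgroup GalQ) : Set GalQ)

/-- The constants of `K₀` are in `F^I` (`hF0` of `H97.kdata_fn`). -/
theorem const_mem_F0 {c : Kbar} (hc : c ∈ K0 A) :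
    algebraMap Kbar (FN N) c ∈ fixF N (inertiaSet A) :=
  const_mem_fixF N fun σ hσ => mem_K0.mp hc σ hσ

/-- The inertia group fixes `F^I` (`hfix` of `H97.kdata_fn`). -/
theorem galF_F0 {σ : GalQ} (hσ : σ ∈ A.inertiaSubgroupIn ℚ) {g : FN N}
    (hg : g ∈ fixF N (inertiaSet A)) : galF N σ • g = g := hg σ hσ

/-- The constants of `K₀(T)` are in `F^I (T)`. -/
theorem const_mem_adjoin (T : Set Kbar) {c : Kbar}
    (hc : c ∈ IntermediateField.adjoin (K0 A) T) :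
    algebraMap Kbar (FN N) c ∈
      IntermediateField.adjoin (fixF N (inertiaSet A)) (⇑(algebraMap Kbar (FN N)) '' T) := by
  induction hc using IntermediateField.adjoin_induction with
  | mem x hx => exact IntermediateField.subset_adjoin _ _ ⟨x, hx, rfl⟩
  | algebraMap x =>
    exact (IntermediateField.adjoin (fixF N (inertiaSet A))
      (⇑(algebraMap Kbar (FN N)) '' T)).algebraMap_mem ⟨_, const_mem_F0 N A x.2⟩
  | add x y _ _ hx hy =>
    rw [map_add]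
    exact add_mem hx hy
  | inv x _ hx =>
    rw [map_inv₀]
    exact inv_mem hx
  | mul x y _ _ hx hy =>
    rw [map_mul]
    exact mul_mem hx hy

variable {p : ℕ}

/-- **(DESC-F)**: a function fixed by the elements of the inertia group which fix `T ⊆ ℚ̄`
pointwise lies in the field generated over `F^I` by the constants of `T`. -/
theorem mem_adjoin_of_fixed_fn (hp : p.Prime) (hA : A.LiesOverPrime p) (T : Set Kbar)
    {g : FN N}
    (hg : ∀ σ ∈ A.inertiaSubgroupIn ℚ, (∀ t ∈ T, σ t = t) → galF N σ • g = g) :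
    g ∈ IntermediateField.adjoin (fixF N (inertiaSet A)) (⇑(algebraMap Kbar (FN N)) '' T) := by
  obtain ⟨n, a, e, he, rfl⟩ := exists_repr_ortho N A g
  refine _root_.sum_mem fun i _ => ?_
  rw [Algebra.smul_def]
  refine mul_mem (const_mem_adjoin N A T ?_) ?_
  · exact mem_adjoin_of_fixed hp hA T fun σ hσ hT => coeff_fixed N A e he a σ (hg σ hσ hT) i
  · exact (IntermediateField.adjoin (fixF N (inertiaSet A))
      (⇑(algebraMap Kbar (FN N)) '' T)).algebraMap_mem ⟨_, bcF_mem_fixF N _ (e i)⟩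

/-- **(DESC-F)** for `I₂ = {σ ∈ I | σ ζ = ζ, σ ω = ω}` (hypothesis `hg` of `H97.stmt_A2`). -/
theorem mem_adjoin_pair_of_fixed (hp : p.Prime) (hA : A.LiesOverPrime p) (ζ ω : Kbar)
    {g : FN N}
    (hg : ∀ σ ∈ A.inertiaSubgroupIn ℚ, σ ζ = ζ → σ ω = ω → galF N σ • g = g) :
    g ∈ IntermediateField.adjoin (fixF N (inertiaSet A))
      ({algebraMap Kbar (FN N) ζ, algebraMap Kbar (FN N) ω} : Set (FN N)) := by
  have := mem_adjoin_of_fixed_fn N A hp hA {ζ, ω} (g := g) fun σ hσ hT =>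
    hg σ hσ (hT ζ (Set.mem_insert _ _)) (hT ω (Set.mem_insert_of_mem _ rfl))
  rwa [Set.image_pair] at this

/-- **(DESC-F)** for `I₃ = {σ ∈ I | σ ω = ω}` (hypothesis `hg` of `H97.stmt_A2_k3`). -/
theorem mem_adjoin_singleton_of_fixed (hp : p.Prime) (hA : A.LiesOverPrime p) (ω : Kbar)
    {g : FN N}
    (hg : ∀ σ ∈ A.inertiaSubgroupIn ℚ, σ ω = ω → galF N σ • g = g) :
    g ∈ IntermediateField.adjoin (fixF N (inertiaSet A))
      ({algebraMap Kbar (FN N) ω} : Set (FN N)) := by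
  have := mem_adjoin_of_fixed_fn N A hp hA {ω} (g := g) fun σ hσ hT =>
    hg σ hσ (hT ω rfl)
  rwa [Set.image_singleton] at this

end Adjoin

/-! ## (A1) for a component of a semistable datum -/

section A1

variable {k F' : Type*} [Field k] [Field F'] [Algebra k F']

/-- A unit of a valuation ring contained in the valuation ring of a component is a Gauss unit of
the component. -/
theorem isGU_of_unit {F : Type*} [Field F] [Algebra Kbar F] (T : PRed Kbar F k F')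
    (V : ValuationSubring F) (hV : ∀ f, f ∈ V → f ∈ T.V) {f : F} (hf : f ∈ V) (hf0 : f ≠ 0)
    (hinv : f⁻¹ ∈ V) : T.IsGU f := by
  refine ⟨hV f hf, ?_⟩
  rw [T.rd_of_mem (hV f hf)]
  intro h0
  have h1 : T.red ⟨f, hV f hf⟩ * T.red ⟨f⁻¹, hV _ hinv⟩ = 1 := by
    rw [← map_mul]
    have : (⟨f, hV f hf⟩ : ↥T.V) * ⟨f⁻¹, hV _ hinv⟩ = 1 := Subtype.ext (mul_inv_cancel₀ hf0)
    rw [this, map_one]
  rw [h0, zero_mul] at h1
  exact zero_ne_one h1

variable (N : ℕ) [NeZero N] (A : ValuationSubring Kbar)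

/-- A function of the Gauss valuation ring with nonzero reduction is invertible there. -/
theorem inv_mem_gaussV {f : FN N} (hf : f ∈ gaussV A N) (hr : gaussRes A N ⟨f, hf⟩ ≠ 0) :
    f ≠ 0 ∧ f⁻¹ ∈ gaussV A N := by
  have hu : IsUnit (⟨f, hf⟩ : ↥(gaussV A N)) :=
    (Fermat.Agent.RED.H17.gaussResF'_ne_zero_iff_isUnit A (hasScale_laurentBaseChange A N) _).mp hr
  obtain ⟨v, hv⟩ := hu.exists_right_inv
  have h1 : f * (v : FN N) = 1 := congrArg Subtype.val hv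
  have hf0 : f ≠ 0 := by
    rintro rfl
    rw [zero_mul] at h1
    exact zero_ne_one h1
  refine ⟨hf0, ?_⟩
  have h2 : f⁻¹ = (v : FN N) := (eq_inv_of_mul_eq_one_right h1).symm
  rw [h2]
  exact v.2

/-- **(A1)** for `H = I`, in the form of `hA1` of `H97.kdata_fn`: for a component `T` whose
valuation ring contains the Gauss valuation ring `V₁`. -/
theorem stmt_A1 (T : PRed Kbar (FN N) k F') (hV : ∀ f, f ∈ gaussV A N → f ∈ T.V) :
    ∀ g ∈ fixF N (inertiaSet A), g ≠ 0 → ∃ c ∈ K0 A, c ≠ 0 ∧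
      T.IsGU (algebraMap Kbar (FN N) c * g) := by
  intro g hg hg0
  obtain ⟨c, hc0, hc, hm, hr⟩ := exists_unit_of_fixed N A (inertiaSet A) hg hg0
  obtain ⟨h0, hinv⟩ := inv_mem_gaussV N A hm hr
  exact ⟨c, mem_K0.mpr hc, hc0, isGU_of_unit T (gaussV A N) hV hm h0 hinv⟩

/-- **(A1)**, general subgroup: for `g ∈ F^H`. -/
theorem stmt_A1_gen (T : PRed Kbar (FN N) k F') (hV : ∀ f, f ∈ gaussV A N → f ∈ T.V)
    (H : Set GalQ) :
    ∀ g ∈ fixF N H, g ≠ 0 → ∃ c : Kbar, (∀ σ ∈ H, σ c = c) ∧ c ≠ 0 ∧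
      T.IsGU (algebraMap Kbar (FN N) c * g) := by
  intro g hg hg0
  obtain ⟨c, hc0, hc, hm, hr⟩ := exists_unit_of_fixed N A H hg hg0
  obtain ⟨h0, hinv⟩ := inv_mem_gaussV N A hm hr
  exact ⟨c, hc, hc0, isGU_of_unit T (gaussV A N) hV hm h0 hinv⟩

end A1

section A1Two

open Fermat.Agent.BAD.H88

variable {k F' : Type*} [Field k] [Field F'] [Algebra k F']
variable (A : ValuationSubring Kbar)
variable (q M : ℕ) (a b : ℤ) (hab : a * q + b * M = 1) (hq : q.Prime) [NeZero (M * q)]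

include hab hq in
/-- **(A1)** for the second component: `T.V ⊇ V₂ = V₁ ∘ w_q`. -/
theorem stmt_A1_two_gen (T : PRed Kbar (FN (M * q)) k F')
    (hV : ∀ f, f ∈ V2 A q M a b hab hq → f ∈ T.V) (H : Set GalQ) :
    ∀ g ∈ fixF (M * q) H, g ≠ 0 → ∃ c : Kbar, (∀ σ ∈ H, σ c = c) ∧ c ≠ 0 ∧
      T.IsGU (algebraMap Kbar (FN (M * q)) c * g) := by
  intro g hg hg0
  have hw0 : wq q M a b hab hq g ≠ 0 := fun h0 =>
    hg0 ((map_eq_zero_iff _ (wq q M a b hab hq).injective).mp h0)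
  obtain ⟨c, hc0, hc, hm, hr⟩ :=
    exists_unit_of_fixed (M * q) A H (wq_mem_fixF q M a b hab hq H hg) hw0
  obtain ⟨h0, hinv⟩ := inv_mem_gaussV (M * q) A hm hr
  have e : wq q M a b hab hq (algebraMap Kbar (FN (M * q)) c * g)
      = algebraMap Kbar (FN (M * q)) c * wq q M a b hab hq g := by
    rw [map_mul, AlgEquiv.commutes]
  have hcg0 : algebraMap Kbar (FN (M * q)) c * g ≠ 0 :=
    mul_ne_zero (fun h => hc0 ((map_eq_zero_iff _ (algebraMap Kbar (FN (M * q))).injective).mp h))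
      hg0
  refine ⟨c, hc, hc0, isGU_of_unit T (V2 A q M a b hab hq) hV ?_ hcg0 ?_⟩
  · rw [mem_V2_iff, e]
    exact hm
  · rw [mem_V2_iff, map_inv₀, e]
    exact hinv

include hab hq in
/-- **(A1)** for `H = I` and the second component, in the form of `hA1` of `H97.kdata_fn`. -/
theorem stmt_A1_two (T : PRed Kbar (FN (M * q)) k F')
    (hV : ∀ f, f ∈ V2 A q M a b hab hq → f ∈ T.V) :
    ∀ g ∈ fixF (M * q) (inertiaSet A), g ≠ 0 → ∃ c ∈ K0 A, c ≠ 0 ∧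
      T.IsGU (algebraMap Kbar (FN (M * q)) c * g) := by
  intro g hg hg0
  obtain ⟨c, hc, hc0, hu⟩ := stmt_A1_two_gen A q M a b hab hq T hV (inertiaSet A) g hg hg0
  exact ⟨c, mem_K0.mpr hc, hc0, hu⟩

end A1Two

end Fermat.Agent.BADP.H15

end
end
-- ==== END Fermat.Agent.BADP.H15_DescAdj

-- ==== BEGIN Fermat.Agent.BADP.H28_KeyP
section

/-!
# Row 38 (S44, BADP), helper28: RAY-K3 abstract core: the key lemma for the exponent `p = char k`

`H28.keyP` : the nodal key lemma (`BAD.Stmt_KeyNodal`) for the exponent `n = p = char k`, `p` odd,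
for a function `f` without zeros and poles off the discs, under arithmetic hypotheses:

* (A0) `π, ϖ ∈ K` in the maximal ideal, `θ ∈ K` integral, `rd (π ^ (p - 1) / p) = -1`,
  `ϖ ^ p / p` a unit;
* (A1) `σ` inertial, fixing the coordinates `s_Q`;
* (A2) `R` a subfield of `F` containing `f`, the `s_Q` and the `a_Q`, with
  `c ∈ R ∩ V_i ⇒ (σ c - c) / (π θ) ∈ V_i`;
* (A3) for the constants `a = a_Q`: `a / ϖ` integral, `rd ((σ a - a) / (π θ)) = rd (a / ϖ)`, and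
  `rd (a / ϖ) = 0 ⇒ a / ϖ²` integral.

(peu ramifié `K₃ = K₀(u^{1/p})`: `θ = 1`; très ramifié `K₀((p u)^{1/p})`: `θ = ϖ`.)

Proof: (A) `(f₂ - 1) / p` is integral (`f₂ = f / ∏ ((s_Q - a_Q) / s_Q) ^ p`); (B) the function
`Θ = (σ f / f - 1) / (p π θ) + (θ ^ (p - 1) / u₁) (f - 1) / p` has reductions
`(regular on the discs) - ∑ rd (a_Q / ϖ) / rd s_Q`, so `rd (a_Q / ϖ) = 0` by the residue argument;
(C) then `a_Q ^ p = p a_Q ε_Q` with `ε_Q` in the maximal ideal, and `keyNodal_lin` applies.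

Plan: `NOTES/plan/L_S44.md` §12.3 (e1) (helper93).
-/

set_option autoImplicit false
set_option linter.style.haveILetI false
set_option maxHeartbeats 4000000

noncomputable section

open AlgebraicCurve

attribute [local instance] Classical.propDecidable

namespace Fermat.Agent.BAD

open Fermat.Agent.RED.H17 Fermat.Agent.RED

local notation "L" => riemannRochSpace

namespace H28

/-- The identity behind `ε = a ^ (p - 1) / p`. -/
theorem eps_identity {K : Type*} [Field K] {p : ℕ} (hp3 : 3 ≤ p) {ϖ : K} (hϖ : ϖ ≠ 0)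
    (hpK : (p : K) ≠ 0) (a : K) :
    a ^ (p - 1) / p = (a / ϖ ^ 2) ^ (p - 1) * (ϖ ^ p / p) * ϖ ^ (p - 2) := by
  have e1 : (ϖ ^ 2) ^ (p - 1) = ϖ ^ p * ϖ ^ (p - 2) := by
    rw [← pow_add, ← pow_mul]
    congr 1
    omega
  rw [div_pow, e1]
  field_simp

section Main

variable {K F k F₁ F₂ : Type} [Field K] [Field F] [Algebra K F] [Field k] [Field F₁]
  [Algebra k F₁] [Field F₂] [Algebra k F₂]

/-- **The nodal key lemma for the exponent `p = char k`** (abstract core of RAY-K3). -/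
theorem keyP (S : SSD K F k F₁ F₂) (H : FFHyp K F)
    (A₁ : Finset (Place k F₁)) (A₂ : Finset (Place k F₂))
    (hA₁ : Disjoint A₁ S.br₁) (hA₂ : Disjoint A₂ S.br₂) (hNS : S.IsNS A₁ A₂)
    (s₁ : Place k F₁ → F) (s₂ : Place k F₂ → F)
    (hs₁ : ∀ Q ∈ A₁, S.IsCoordA₁ A₁ A₂ (s₁ Q) Q) (hs₂ : ∀ Q ∈ A₂, S.IsCoordA₂ A₁ A₂ (s₂ Q) Q)
    (p : ℕ) (hp : p.Prime) (hp2 : p ≠ 2) (hpk : (p : k) = 0) (hpK : (p : K) ≠ 0)
    (f : F) (hf₁ : f ∈ S.c₁.V) (hf₂ : f ∈ S.c₂.V) (hrd₁ : S.c₁.rd f = 1) (hrd₂ : S.c₂.rd f = 1)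
    (Pinf : Place K F) (Qinf : Place k F₁) (hQinfg : Qinf ∈ S.c₁.good) (hQinfA : Qinf ∉ A₁)
    (hPinf : S.c₁.r Pinf = some Qinf) (hfinf : VanAt Pinf (f - 1))
    (a₁ : Place k F₁ → K) (a₂ : Place k F₂ → K)
    (ha₁ : ∀ Q ∈ A₁, algebraMap K F (a₁ Q) ∈ S.c₁.V ∧ S.c₁.rd (algebraMap K F (a₁ Q)) = 0)
    (ha₂ : ∀ Q ∈ A₂, algebraMap K F (a₂ Q) ∈ S.c₂.V ∧ S.c₂.rd (algebraMap K F (a₂ Q)) = 0)
    (hord0 : ∀ P, (∀ Q ∈ A₁, S.c₁.r P ≠ some Q) → (∀ Q ∈ A₂, S.c₂.r P ≠ some Q) →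
      P.ord f = 0)
    (hord₁ : ∀ Q ∈ A₁, ∀ P, S.c₁.r P = some Q →
      P.ord f = p * (P.ord (s₁ Q - algebraMap K F (a₁ Q)) - P.ord (s₁ Q)))
    (hord₂ : ∀ Q ∈ A₂, ∀ P, S.c₂.r P = some Q →
      P.ord f = p * (P.ord (s₂ Q - algebraMap K F (a₂ Q)) - P.ord (s₂ Q)))
    -- the arithmetic hypotheses
    (π ϖ θ : K) (hπ : S.IsCM π) (hπne : π ≠ 0) (hθ : algebraMap K F θ ∈ S.c₁.V) (hθne : θ ≠ 0)
    (hπp : S.c₁.rd (algebraMap K F (π ^ (p - 1) / p)) = -1)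
    (hϖ : S.IsCM ϖ) (hϖp : S.IsCU (ϖ ^ p / p))
    (σ : SemilinearAut K F) (hσ : S.IsInertial σ)
    (hσs₁ : ∀ Q ∈ A₁, σ • s₁ Q = s₁ Q) (hσs₂ : ∀ Q ∈ A₂, σ • s₂ Q = s₂ Q)
    (R : Subfield F) (hfR : f ∈ R) (hsR₁ : ∀ Q ∈ A₁, s₁ Q ∈ R) (hsR₂ : ∀ Q ∈ A₂, s₂ Q ∈ R)
    (haR₁ : ∀ Q ∈ A₁, algebraMap K F (a₁ Q) ∈ R) (haR₂ : ∀ Q ∈ A₂, algebraMap K F (a₂ Q) ∈ R)
    (hR₁ : ∀ c ∈ R, c ∈ S.c₁.V → (σ • c - c) / algebraMap K F (π * θ) ∈ S.c₁.V)
    (hR₂ : ∀ c ∈ R, c ∈ S.c₂.V → (σ • c - c) / algebraMap K F (π * θ) ∈ S.c₂.V)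
    (hA3₁ : ∀ Q ∈ A₁, algebraMap K F (a₁ Q / ϖ) ∈ S.c₁.V ∧
      S.c₁.rd (algebraMap K F ((SemilinearAut.baseAut σ (a₁ Q) - a₁ Q) / (π * θ))) =
        S.c₁.rd (algebraMap K F (a₁ Q / ϖ)) ∧
      (S.c₁.rd (algebraMap K F (a₁ Q / ϖ)) = 0 → algebraMap K F (a₁ Q / ϖ ^ 2) ∈ S.c₁.V))
    (hA3₂ : ∀ Q ∈ A₂, algebraMap K F (a₂ Q / ϖ) ∈ S.c₁.V ∧
      S.c₁.rd (algebraMap K F ((SemilinearAut.baseAut σ (a₂ Q) - a₂ Q) / (π * θ))) =
        S.c₁.rd (algebraMap K F (a₂ Q / ϖ)) ∧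
      (S.c₁.rd (algebraMap K F (a₂ Q / ϖ)) = 0 → algebraMap K F (a₂ Q / ϖ ^ 2) ∈ S.c₁.V)) :
    f = 1 := by
  have hP := H.principal
  have hK : S.KeyHyp A₁ A₂ s₁ s₂ := ⟨hA₁, hA₂, hs₁, hs₂⟩
  obtain ⟨⟨hHGU₁, hHrd₁⟩, ⟨hHGU₂, hHrd₂⟩, ⟨hf₂GU₁, hf₂rd₁⟩, ⟨hf₂GU₂, hf₂rd₂⟩, hf₂ord₁,
    hf₂ord₂⟩ := hK.key_f₂ hP ha₁ ha₂ p hf₁ hf₂ hrd₁ hrd₂ hord₁ hord₂
  set A : Finset (Place k F₁ ⊕ Place k F₂) := SSD.keyA A₁ A₂ with hAdef
  set s : Place k F₁ ⊕ Place k F₂ → F := Sum.elim s₁ s₂ with hsdef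
  set a : Place k F₁ ⊕ Place k F₂ → K := Sum.elim a₁ a₂ with hadef
  set Hp : F := ∏ i ∈ A, (s i - algebraMap K F (a i)) / s i with hHp
  set f₂ : F := f / Hp ^ p with hf₂def
  have haCM : ∀ i ∈ A, S.IsCM (a i) := fun i hi => S.inM_keyA ha₁ ha₂ hi
  have hsGU₁ : ∀ i ∈ A, S.c₁.IsGU (s i) := fun i hi => hK.isGU₁ hi
  have hsGU₂ : ∀ i ∈ A, S.c₂.IsGU (s i) := fun i hi => hK.isGU₂ hi
  have haM₁ : ∀ i ∈ A, S.c₁.InM (algebraMap K F (a i)) := fun i hi =>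
    ⟨(haCM i hi).mem₁, (haCM i hi).rd₁⟩
  have haM₂ : ∀ i ∈ A, S.c₂.InM (algebraMap K F (a i)) := fun i hi =>
    ⟨(haCM i hi).mem₂, (haCM i hi).rd₂⟩
  have hpF : (p : F) ≠ 0 := by
    have : (p : F) = algebraMap K F (p : K) := by simp
    rw [this]
    exact (map_ne_zero_iff _ (algebraMap K F).injective).mpr hpK
  have hpM₁ : S.c₁.InM (p : F) := PRed.inM_natCast hpk
  have hpM₂ : S.c₂.InM (p : F) := PRed.inM_natCast hpk
  have hϖne : ϖ ≠ 0 := by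
    rintro rfl
    have h0 : ((0 : K) ^ p / p) = 0 := by rw [zero_pow hp.ne_zero, zero_div]
    rw [h0] at hϖp
    exact hϖp.isGU₁.ne_zero (map_zero _)
  have hπθne : π * θ ≠ 0 := mul_ne_zero hπne hθne
  have hπθF : algebraMap K F (π * θ) ≠ 0 :=
    (map_ne_zero_iff _ (algebraMap K F).injective).mpr hπθne
  have hθ₂ : algebraMap K F θ ∈ S.c₂.V := (S.const_mem θ).mp hθ
  -- (A3) on the index set
  have hA3 : ∀ i ∈ A, algebraMap K F (a i / ϖ) ∈ S.c₁.V ∧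
      S.c₁.rd (algebraMap K F ((SemilinearAut.baseAut σ (a i) - a i) / (π * θ))) =
        S.c₁.rd (algebraMap K F (a i / ϖ)) ∧
      (S.c₁.rd (algebraMap K F (a i / ϖ)) = 0 → algebraMap K F (a i / ϖ ^ 2) ∈ S.c₁.V) := by
    intro i hi
    rcases SSD.mem_keyA.mp hi with ⟨Q, hQ, rfl⟩ | ⟨Q, hQ, rfl⟩
    · exact hA3₁ Q hQ
    · exact hA3₂ Q hQ
  have hsR : ∀ i ∈ A, s i ∈ R := by
    intro i hi
    rcases SSD.mem_keyA.mp hi with ⟨Q, hQ, rfl⟩ | ⟨Q, hQ, rfl⟩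
    · exact hsR₁ Q hQ
    · exact hsR₂ Q hQ
  have haR : ∀ i ∈ A, algebraMap K F (a i) ∈ R := by
    intro i hi
    rcases SSD.mem_keyA.mp hi with ⟨Q, hQ, rfl⟩ | ⟨Q, hQ, rfl⟩
    · exact haR₁ Q hQ
    · exact haR₂ Q hQ
  have hσs : ∀ i ∈ A, σ • s i = s i := by
    intro i hi
    rcases SSD.mem_keyA.mp hi with ⟨Q, hQ, rfl⟩ | ⟨Q, hQ, rfl⟩
    · exact hσs₁ Q hQ
    · exact hσs₂ Q hQ
  -- the constants `e_i = a_i ^ p / p = (a_i / ϖ) ^ p u₁`
  set u₁ : K := ϖ ^ p / p with hu₁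
  set e : Place k F₁ ⊕ Place k F₂ → K := fun i => a i ^ p / p with he
  have hpow : ∀ i ∈ A, a i ^ p = p * e i := fun i _ => by
    simp only [he]
    field_simp
  have heq : ∀ i, e i = (a i / ϖ) ^ p * u₁ := fun i => by
    simp only [he, hu₁]
    rw [div_pow]
    field_simp
  have he₁ : ∀ i ∈ A, algebraMap K F (e i) ∈ S.c₁.V := fun i hi => by
    rw [heq i, map_mul, map_pow]
    exact S.c₁.V.mul_mem _ _ (S.c₁.V.pow_mem (hA3 i hi).1 p) hϖp.isGU₁.1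
  have he₂ : ∀ i ∈ A, algebraMap K F (e i) ∈ S.c₂.V := fun i hi =>
    (S.const_mem _).mp (he₁ i hi)
  -- regularity of `f₂` on the discs
  have hf₂reg₁ : ∀ Q ∈ A₁, ∀ P, S.c₁.r P = some Q → RegAt P f₂ := fun Q hQ P hPQ =>
    regAt_of_ord_nonneg (le_of_eq (hf₂ord₁ Q hQ P hPQ).symm)
  have hf₂reg₂ : ∀ Q ∈ A₂, ∀ P, S.c₂.r P = some Q → RegAt P f₂ := fun Q hQ P hPQ =>
    regAt_of_ord_nonneg (le_of_eq (hf₂ord₂ Q hQ P hPQ).symm)
  have hfreg : ∀ P, (∀ Q ∈ A₁, S.c₁.r P ≠ some Q) → (∀ Q ∈ A₂, S.c₂.r P ≠ some Q) →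
      RegAt P f := fun P h1 h2 => regAt_of_ord_nonneg (le_of_eq (hord0 P h1 h2).symm)
  -- Step A: `(f₂ - 1) / p` is integral
  have hZ : (f₂ - 1) / p ∈ S.c₁.V ∧ (f₂ - 1) / p ∈ S.c₂.V := by
    by_cases h1 : f₂ - 1 = 0
    · rw [h1, zero_div]
      exact ⟨S.c₁.V.zero_mem, S.c₂.V.zero_mem⟩
    have hImem : ∀ z ∈ ({f₂ - 1} : Finset F),
        (z ∈ S.c₁.V ∧ S.c₁.rd z = 0) ∧ (z ∈ S.c₂.V ∧ S.c₂.rd z = 0) := by
      intro z hz
      rw [Finset.mem_singleton] at hz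
      subst hz
      exact ⟨⟨S.c₁.V.sub_mem hf₂GU₁.1 S.c₁.V.one_mem, by
        rw [S.c₁.rd_sub hf₂GU₁.1 S.c₁.V.one_mem, hf₂rd₁, S.c₁.rd_one, sub_self]⟩,
        ⟨S.c₂.V.sub_mem hf₂GU₂.1 S.c₂.V.one_mem, by
        rw [S.c₂.rd_sub hf₂GU₂.1 S.c₂.V.one_mem, hf₂rd₂, S.c₂.rd_one, sub_self]⟩⟩
    obtain ⟨c, hc, ⟨hdV₁, hdrd₁⟩, ⟨hdV₂, hdrd₂⟩, hcI, z₀, hz₀, hz₀GU⟩ :=
      S.exists_scale_max₂ {f₂ - 1} hImem ⟨f₂ - 1, Finset.mem_singleton_self _, h1⟩
    rw [Finset.mem_singleton] at hz₀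
    subst hz₀
    have hαV₁ : algebraMap K F c * (f₂ - 1) ∈ S.c₁.V :=
      (hcI _ (Finset.mem_singleton_self _)).1
    have hαV₂ : algebraMap K F c * (f₂ - 1) ∈ S.c₂.V :=
      (hcI _ (Finset.mem_singleton_self _)).2
    have hcF : algebraMap K F c ≠ 0 := (map_ne_zero_iff _ (algebraMap K F).injective).mpr hc
    have hinv : algebraMap K F (c * p)⁻¹ ∈ S.c₁.V → (f₂ - 1) / p ∈ S.c₁.V ∧
        (f₂ - 1) / p ∈ S.c₂.V := by
      intro h
      have h' := (S.const_mem _).mp h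
      have e1 : (f₂ - 1) / p = algebraMap K F (c * p)⁻¹ * (algebraMap K F c * (f₂ - 1)) := by
        rw [map_inv₀, map_mul, map_natCast]
        field_simp
      rw [e1]
      exact ⟨S.c₁.V.mul_mem _ _ h hαV₁, S.c₂.V.mul_mem _ _ h' hαV₂⟩
    rcases S.isCU_or_isCM (c * p) with hU | hM | hM'
    · apply hinv
      rw [map_inv₀]
      exact hU.isGU₁.inv_mem
    · exfalso
      obtain ⟨hφV₁, hφrd₁⟩ := S.c₁.depth_formula A s a e hsGU₁ haM₁ he₁ hp hp2 hpM₁ hpow f c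
        ⟨hM.mem₁, hM.rd₁⟩ hαV₁
      obtain ⟨hφV₂, hφrd₂⟩ := S.c₂.depth_formula A s a e hsGU₂ haM₂ he₂ hp hp2 hpM₂ hpow f c
        ⟨hM.mem₂, hM.rd₂⟩ hαV₂
      have hφreg : ∀ P, (∀ Q ∈ A₁, S.c₁.r P ≠ some Q) → (∀ Q ∈ A₂, S.c₂.r P ≠ some Q) →
          0 ≤ P.ord (algebraMap K F c * (f - 1)) := fun P h1 h2 =>
        ((regAt_algebraMap P c).mul ((hfreg P h1 h2).sub (regAt_one P))).ord_nonneg
      have hαreg₁ : ∀ Q ∈ A₁, RegAt Q (S.c₁.rd (algebraMap K F c * (f₂ - 1))) := by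
        intro Q hQ
        apply S.c₁.regAt_rd hP hαV₁ (hK.good₁ hQ)
        intro P hPQ
        exact ((regAt_algebraMap P c).mul ((hf₂reg₁ Q hQ P hPQ).sub (regAt_one P))).ord_nonneg
      have hαreg₂ : ∀ Q ∈ A₂, RegAt Q (S.c₂.rd (algebraMap K F c * (f₂ - 1))) := by
        intro Q hQ
        apply S.c₂.regAt_rd hP hαV₂ (hK.good₂ hQ)
        intro P hPQ
        exact ((regAt_algebraMap P c).mul ((hf₂reg₂ Q hQ P hPQ).sub (regAt_one P))).ord_nonneg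
      have hzero₁ : ∀ x : F₁, x = x - ((1 : ℕ) : F₁) *
          ∑ i ∈ A, algebraMap k F₁ ((fun _ => (0 : k)) i) / S.c₁.rd (s i) := by
        intro x
        simp
      have hzero₂ : ∀ x : F₂, x = x - ((1 : ℕ) : F₂) *
          ∑ i ∈ A, algebraMap k F₂ ((fun _ => (0 : k)) i) / S.c₂.rd (s i) := by
        intro x
        simp
      obtain ⟨e', he₁', -, -, hαe₁, hαe₂⟩ := hK.residue_core hP hNS hφV₁ hφV₂ hφreg
        (fun _ => 0) 1 (by rw [Nat.cast_one]; exact one_ne_zero) hαreg₁ hαreg₂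
        (hφrd₁.trans (hzero₁ _)) (hφrd₂.trans (hzero₂ _))
      have he0 : e' = 0 := hK.const_eq_zero hP hφV₁ hφreg hQinfg hQinfA hPinf
        ((regAt_algebraMap Pinf c).mul_vanAt hfinf) he₁'
      rcases hz₀GU with h | h
      · exact h.2 (by rw [hαe₁, he0, map_zero])
      · exact h.2 (by rw [hαe₂, he0, map_zero])
    · apply hinv
      exact hM'.mem₁
  obtain ⟨hZ₁, hZ₂⟩ := hZ
  set Z : F := (f₂ - 1) / p with hZdef
  -- reductions of the constants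
  set ν₀ : K := π ^ (p - 1) / p with hν₀
  have hπp' : π ^ (p - 1) = p * ν₀ := by
    simp only [hν₀]
    field_simp
  have hν₁ : algebraMap K F ν₀ ∈ S.c₁.V := by
    by_contra h
    rw [S.c₁.rd_of_not_mem h] at hπp
    exact (neg_ne_zero.mpr one_ne_zero) hπp.symm
  have hνrd₁ : S.c₁.rd (algebraMap K F ν₀) = algebraMap k F₁ (-1) := by
    rw [hπp, map_neg, map_one]
  have hν₂ : algebraMap K F ν₀ ∈ S.c₂.V := (S.rd₂_const hν₁ hνrd₁).1
  have hνrd₂ : S.c₂.rd (algebraMap K F ν₀) = -1 := by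
    rw [(S.rd₂_const hν₁ hνrd₁).2, map_neg, map_one]
  obtain ⟨θb, hθb₁⟩ := S.c₁.rd_const_eq θ hθ
  have hθb₂ : S.c₂.rd (algebraMap K F θ) = algebraMap k F₂ θb := (S.rd₂_const hθ hθb₁).2
  obtain ⟨ub, hub₁⟩ := S.c₁.rd_const_eq u₁ hϖp.isGU₁.1
  have hub0 : ub ≠ 0 := by
    rintro rfl
    rw [map_zero] at hub₁
    exact hϖp.isGU₁.2 hub₁
  set κ : K := θ ^ (p - 1) / u₁ with hκ
  have hκ₁ : algebraMap K F κ ∈ S.c₁.V := by
    rw [hκ, map_div₀, map_pow, div_eq_mul_inv]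
    exact S.c₁.V.mul_mem _ _ (S.c₁.V.pow_mem hθ _) hϖp.isGU₁.inv_mem
  have hκrd₁ : S.c₁.rd (algebraMap K F κ) = algebraMap k F₁ (θb ^ (p - 1) / ub) := by
    rw [hκ, map_div₀ (algebraMap K F), map_pow, div_eq_mul_inv,
      S.c₁.rd_mul (S.c₁.V.pow_mem hθ _) hϖp.isGU₁.inv_mem, S.c₁.rd_pow hθ,
      hϖp.isGU₁.rd_inv, hθb₁, hub₁, map_div₀, map_pow, div_eq_mul_inv]
  have hκ₂ : algebraMap K F κ ∈ S.c₂.V := (S.rd₂_const hκ₁ hκrd₁).1
  have hκrd₂ : S.c₂.rd (algebraMap K F κ) = algebraMap k F₂ (θb ^ (p - 1) / ub) :=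
    (S.rd₂_const hκ₁ hκrd₁).2
  -- the constants `ω_i = (σ a_i - a_i) / (π θ)`
  obtain ⟨ω, hωdef⟩ : ∃ ω : Place k F₁ ⊕ Place k F₂ → K,
      ∀ i, ω i = (SemilinearAut.baseAut σ (a i) - a i) / (π * θ) := ⟨_, fun _ => rfl⟩
  have hdiff : ∀ i ∈ A, SemilinearAut.baseAut σ (a i) - a i = π * θ * ω i := fun i _ => by
    rw [hωdef i]
    field_simp
  have hω₁ : ∀ i ∈ A, algebraMap K F (ω i) ∈ S.c₁.V := by
    intro i hi
    have h := hR₁ _ (haR i hi) (haCM i hi).mem₁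
    rw [SemilinearAut.smul_algebraMap, ← map_sub, ← map_div₀, ← hωdef i] at h
    exact h
  have hω₂ : ∀ i ∈ A, algebraMap K F (ω i) ∈ S.c₂.V := fun i hi =>
    (S.const_mem _).mp (hω₁ i hi)
  have hwex : ∀ i, ∃ w : k, i ∈ A → S.c₁.rd (algebraMap K F (ω i)) = algebraMap k F₁ w := by
    intro i
    by_cases hi : i ∈ A
    · obtain ⟨w, hw⟩ := S.c₁.rd_const_eq (ω i) (hω₁ i hi)
      exact ⟨w, fun _ => hw⟩
    · exact ⟨0, fun h => absurd h hi⟩
  choose w hw₁ using hwex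
  have hw₂ : ∀ i ∈ A, S.c₂.rd (algebraMap K F (ω i)) = algebraMap k F₂ (w i) :=
    fun i hi => (S.rd₂_const (hω₁ i hi) (hw₁ i hi)).2
  have hA3rd : ∀ i ∈ A, S.c₁.rd (algebraMap K F (a i / ϖ)) = algebraMap k F₁ (w i) := by
    intro i hi
    rw [← (hA3 i hi).2.1, ← hωdef i, hw₁ i hi]
  have herd₁ : ∀ i ∈ A, S.c₁.rd (algebraMap K F (e i)) = algebraMap k F₁ (w i ^ p * ub) := by
    intro i hi
    rw [heq i, map_mul, map_pow, S.c₁.rd_mul (S.c₁.V.pow_mem (hA3 i hi).1 p) hϖp.isGU₁.1,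
      S.c₁.rd_pow (hA3 i hi).1, hA3rd i hi, hub₁, map_mul, map_pow]
  have herd₂ : ∀ i ∈ A, S.c₂.rd (algebraMap K F (e i)) = algebraMap k F₂ (w i ^ p * ub) :=
    fun i hi => (S.rd₂_const (he₁ i hi) (herd₁ i hi)).2
  -- `Z ∈ R` and the function `Λ`
  have hHpR : Hp ∈ R := by
    rw [hHp]
    exact prod_mem fun i hi => div_mem (sub_mem (hsR i hi) (haR i hi)) (hsR i hi)
  have hf₂R : f₂ ∈ R := div_mem hfR (pow_mem hHpR p)
  have hZR : Z ∈ R := div_mem (sub_mem hf₂R (one_mem R)) (natCast_mem R p)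
  set Λ : F := (σ • Z - Z) / algebraMap K F (π * θ) / f₂ with hΛdef
  have hΛ₁ : Λ ∈ S.c₁.V := by
    rw [hΛdef, div_eq_mul_inv]
    exact S.c₁.V.mul_mem _ _ (hR₁ Z hZR hZ₁) hf₂GU₁.inv_mem
  have hΛ₂ : Λ ∈ S.c₂.V := by
    rw [hΛdef, div_eq_mul_inv]
    exact S.c₂.V.mul_mem _ _ (hR₂ Z hZR hZ₂) hf₂GU₂.inv_mem
  have hf₂ne : f₂ ≠ 0 := hf₂GU₁.ne_zero
  have hf₂Z : f₂ = 1 + p * Z := by
    rw [hZdef]
    field_simp
    ring
  have hσp : σ • (p : F) = p := map_natCast (SemilinearAut.toRingAut σ) p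
  have hσf₂ : σ • f₂ = 1 + p * σ • Z := by
    conv_lhs => rw [hf₂Z]
    rw [smul_add, smul_one, smul_mul', hσp]
  have hy₀ : σ • f₂ / f₂ = 1 + (p : F) * algebraMap K F (π * θ) * Λ := by
    rw [hΛdef, hσf₂]
    field_simp
    linear_combination -hf₂Z
  -- the product identity
  have hff₂ : f = f₂ * Hp ^ p := by
    rw [hf₂def, div_mul_cancel₀ _ (pow_ne_zero _ hHGU₁.ne_zero)]
  have hσh : ∀ i ∈ A, σ • ((s i - algebraMap K F (a i)) / s i) =
      (s i - algebraMap K F (SemilinearAut.baseAut σ (a i))) / s i := by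
    intro i hi
    have h1 : σ • ((s i - algebraMap K F (a i)) / s i) =
        (σ • s i - σ • algebraMap K F (a i)) / (σ • s i) := by
      simp only [SemilinearAut.smul_def, map_div₀, map_sub]
    rw [h1, hσs i hi, SemilinearAut.smul_algebraMap]
  have hσHp : σ • Hp =
      ∏ i ∈ A, (s i - algebraMap K F (SemilinearAut.baseAut σ (a i))) / s i := by
    have h1 : σ • Hp = ∏ i ∈ A, σ • ((s i - algebraMap K F (a i)) / s i) := by
      rw [hHp]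
      exact map_prod (SemilinearAut.toRingAut σ) _ A
    rw [h1]
    exact Finset.prod_congr rfl hσh
  have hσf : σ • f / f = (σ • f₂ / f₂) * ∏ i ∈ A,
      ((s i - algebraMap K F (SemilinearAut.baseAut σ (a i))) /
        (s i - algebraMap K F (a i))) ^ p := by
    have h1 : σ • f = σ • f₂ * (σ • Hp) ^ p := by
      conv_lhs => rw [hff₂]
      rw [smul_mul', smul_pow']
    have h2 : ∏ i ∈ A, ((s i - algebraMap K F (SemilinearAut.baseAut σ (a i))) /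
        (s i - algebraMap K F (a i))) ^ p = ((σ • Hp) / Hp) ^ p := by
      rw [Finset.prod_pow, hσHp, hHp, ← Finset.prod_div_distrib]
      congr 1
      apply Finset.prod_congr rfl
      intro i hi
      have h3 := (hsGU₁ i hi).ne_zero
      have h4 := ((hsGU₁ i hi).sub_const (haM₁ i hi).1 (haM₁ i hi).2).1.ne_zero
      field_simp
    rw [h2, h1, div_pow, ← mul_div_mul_comm]
    conv_lhs => rw [hff₂]
  -- the function `Θ`
  obtain ⟨hΘV₁, hΘrd₁⟩ := S.c₁.theta_formula A s a (fun i => SemilinearAut.baseAut σ (a i)) ω e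
    hsGU₁ haM₁ hω₁ he₁ hp hp2 hpM₁ hpF ⟨hπ.mem₁, hπ.rd₁⟩ hθ hπne hθne hν₁ hπp' hκ₁ hdiff hpow
    w ub θb hub0 hw₁ herd₁ hπp hθb₁ hκrd₁ f hZ₁ hΛ₁ hy₀
  obtain ⟨hΘV₂, hΘrd₂⟩ := S.c₂.theta_formula A s a (fun i => SemilinearAut.baseAut σ (a i)) ω e
    hsGU₂ haM₂ hω₂ he₂ hp hp2 hpM₂ hpF ⟨hπ.mem₂, hπ.rd₂⟩ hθ₂ hπne hθne hν₂ hπp' hκ₂ hdiff hpow
    w ub θb hub0 hw₂ herd₂ hνrd₂ hθb₂ hκrd₂ f hZ₂ hΛ₂ hy₀
  rw [← hσf] at hΘV₁ hΘrd₁ hΘV₂ hΘrd₂
  have hσinv₁ : ∀ P, S.c₁.r (σ⁻¹ • P) = S.c₁.r P := fun P => by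
    have := hσ.r₁ (σ⁻¹ • P)
    rw [smul_inv_smul] at this
    exact this.symm
  have hσinv₂ : ∀ P, S.c₂.r (σ⁻¹ • P) = S.c₂.r P := fun P => by
    have := hσ.r₂ (σ⁻¹ • P)
    rw [smul_inv_smul] at this
    exact this.symm
  have hpc : (p : F) = algebraMap K F (p : K) := by simp
  have hΘreg : ∀ P, (∀ Q ∈ A₁, S.c₁.r P ≠ some Q) → (∀ Q ∈ A₂, S.c₂.r P ≠ some Q) →
      0 ≤ P.ord ((σ • f / f - 1) / ((p : F) * algebraMap K F (π * θ)) +
        algebraMap K F κ * ((f - 1) / p)) := by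
    intro P h1 h2
    have hf0 : P.ord f = 0 := hord0 P h1 h2
    have hσf0 : P.ord (σ • f) = 0 := by
      rw [ord_smul_eq]
      exact hord0 _ (fun Q hQ => by rw [hσinv₁]; exact h1 Q hQ)
        (fun Q hQ => by rw [hσinv₂]; exact h2 Q hQ)
    have hq : RegAt P (σ • f / f) := by
      rw [div_eq_mul_inv]
      exact (regAt_of_ord_nonneg (le_of_eq hσf0.symm)).mul (regAt_inv_of_ord_eq_zero hf0)
    have hΨ : RegAt P ((σ • f / f - 1) / ((p : F) * algebraMap K F (π * θ))) := by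
      have : (p : F) * algebraMap K F (π * θ) = algebraMap K F (p * (π * θ)) := by
        rw [map_mul (algebraMap K F) (p : K), ← hpc]
      rw [this, div_eq_mul_inv, ← map_inv₀]
      exact (hq.sub (regAt_one P)).mul (regAt_algebraMap P _)
    have hΦ : RegAt P ((f - 1) / p) := by
      rw [hpc, div_eq_mul_inv, ← map_inv₀]
      exact ((hfreg P h1 h2).sub (regAt_one P)).mul (regAt_algebraMap P _)
    exact (hΨ.add ((regAt_algebraMap P κ).mul hΦ)).ord_nonneg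
  have hαreg₁ : ∀ Q ∈ A₁, RegAt Q (S.c₁.rd (Λ + algebraMap K F κ * Z)) := by
    intro Q hQ
    apply S.c₁.regAt_rd hP (S.c₁.V.add_mem _ _ hΛ₁ (S.c₁.V.mul_mem _ _ hκ₁ hZ₁)) (hK.good₁ hQ)
    intro P hPQ
    have hZreg : ∀ P', S.c₁.r P' = some Q → RegAt P' Z := fun P' hP' => by
      rw [hZdef, hpc, div_eq_mul_inv, ← map_inv₀]
      exact ((hf₂reg₁ Q hQ P' hP').sub (regAt_one P')).mul (regAt_algebraMap P' _)
    have hσZ : RegAt P (σ • Z) := by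
      apply regAt_of_ord_nonneg
      rw [ord_smul_eq]
      exact (hZreg _ (by rw [hσinv₁]; exact hPQ)).ord_nonneg
    have hΛreg : RegAt P Λ := by
      rw [hΛdef, div_eq_mul_inv, div_eq_mul_inv, ← map_inv₀]
      exact ((hσZ.sub (hZreg P hPQ)).mul (regAt_algebraMap P _)).mul
        (regAt_inv_of_ord_eq_zero (hf₂ord₁ Q hQ P hPQ))
    exact (hΛreg.add ((regAt_algebraMap P κ).mul (hZreg P hPQ))).ord_nonneg
  have hαreg₂ : ∀ Q ∈ A₂, RegAt Q (S.c₂.rd (Λ + algebraMap K F κ * Z)) := by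
    intro Q hQ
    apply S.c₂.regAt_rd hP (S.c₂.V.add_mem _ _ hΛ₂ (S.c₂.V.mul_mem _ _ hκ₂ hZ₂)) (hK.good₂ hQ)
    intro P hPQ
    have hZreg : ∀ P', S.c₂.r P' = some Q → RegAt P' Z := fun P' hP' => by
      rw [hZdef, hpc, div_eq_mul_inv, ← map_inv₀]
      exact ((hf₂reg₂ Q hQ P' hP').sub (regAt_one P')).mul (regAt_algebraMap P' _)
    have hσZ : RegAt P (σ • Z) := by
      apply regAt_of_ord_nonneg
      rw [ord_smul_eq]
      exact (hZreg _ (by rw [hσinv₂]; exact hPQ)).ord_nonneg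
    have hΛreg : RegAt P Λ := by
      rw [hΛdef, div_eq_mul_inv, div_eq_mul_inv, ← map_inv₀]
      exact ((hσZ.sub (hZreg P hPQ)).mul (regAt_algebraMap P _)).mul
        (regAt_inv_of_ord_eq_zero (hf₂ord₂ Q hQ P hPQ))
    exact (hΛreg.add ((regAt_algebraMap P κ).mul (hZreg P hPQ))).ord_nonneg
  -- Step B: the residues `w_i` vanish
  obtain ⟨-, -, -, hw0, -, -⟩ := hK.residue_core hP hNS hΘV₁ hΘV₂ hΘreg w 1
    (by rw [Nat.cast_one]; exact one_ne_zero) hαreg₁ hαreg₂ hΘrd₁ hΘrd₂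
  -- Step C: the linear regime
  have hp3 : 3 ≤ p := by
    have := hp.two_le
    omega
  have hlin : ∀ i ∈ A, ∃ ε : K, S.IsCM ε ∧ a i ^ p = p * a i * ε := by
    intro i hi
    have h0 : S.c₁.rd (algebraMap K F (a i / ϖ)) = 0 := by
      rw [hA3rd i hi, hw0 i hi, map_zero]
    have h2 := (hA3 i hi).2.2 h0
    refine ⟨a i ^ (p - 1) / p, ?_, ?_⟩
    · rw [eps_identity hp3 hϖne hpK (a i)]
      show S.c₁.InM (algebraMap K F ((a i / ϖ ^ 2) ^ (p - 1) * (ϖ ^ p / p) * ϖ ^ (p - 2)))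
      rw [map_mul, map_mul, map_pow, map_pow]
      refine PRed.InM.mul_left (S.c₁.V.mul_mem _ _ (S.c₁.V.pow_mem h2 _) hϖp.isGU₁.1) ?_
      exact PRed.InM.pow ⟨hϖ.mem₁, hϖ.rd₁⟩ (by omega)
    · have hp1 : p = (p - 1) + 1 := by omega
      have e1 : a i ^ p = a i ^ (p - 1) * a i := by
        conv_lhs => rw [hp1, pow_succ]
      rw [e1]
      field_simp
  have hlin₁ : ∀ Q ∈ A₁, ∃ ε : K, S.IsCM ε ∧ a₁ Q ^ p = p * a₁ Q * ε := fun Q hQ =>
    hlin (Sum.inl Q) (SSD.inl_mem_keyA hQ)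
  have hlin₂ : ∀ Q ∈ A₂, ∃ ε : K, S.IsCM ε ∧ a₂ Q ^ p = p * a₂ Q * ε := fun Q hQ =>
    hlin (Sum.inr Q) (SSD.inr_mem_keyA hQ)
  exact keyNodal_lin S H A₁ A₂ hA₁ hA₂ hNS s₁ s₂ hs₁ hs₂ p hp f hf₁ hf₂ hrd₁ hrd₂ Pinf Qinf
    hQinfg hQinfA hPinf hfinf a₁ a₂ ha₁ ha₂ hlin₁ hlin₂
    (fun P h1 h2 => le_of_eq (hord0 P h1 h2).symm) hord₁ hord₂

end Main

end H28

end Fermat.Agent.BAD

end
end
-- ==== END Fermat.Agent.BADP.H28_KeyP

-- ==== BEGIN Fermat.Agent.BADP.H38_EisNodeDefs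
section

set_option autoImplicit false

noncomputable section

open AlgebraicCurve

namespace Fermat.Agent.BADP.H38

open Fermat.Agent.RED.H17 Fermat.Agent.RED Fermat.Agent.BAD Fermat.Agent.BADP

/-- **EIS-ABS (N) = NODE-VAL.** -/
def Stmt_NodeVal : Prop :=
  ∀ (K F k F₁ F₂ : Type) [Field K] [Field F] [Algebra K F] [Field k] [Field F₁]
    [Algebra k F₁] [Field F₂] [Algebra k F₂] [IsAlgClosed K] [IsAlgClosed k]
    (S : SSD K F k F₁ F₂), FFHyp K F → FFHyp k F₁ → FFHyp k F₂ →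
    ∀ (g g₁ g₂ : ℕ) (c c₁ c₂ : ℤ), IsGenus K F g c → IsGenus k F₁ g₁ c₁ → IsGenus k F₂ g₂ c₂ →
    g + 1 ≤ g₁ + g₂ + S.nodes.card →
    ∀ (p : ℕ), p.Prime → CharP k p → (p : K) ≠ 0 →
    ∀ (𝓘 𝓘' : Set (SemilinearAut K F)), (∀ τ ∈ 𝓘, S.IsInertial τ) → 𝓘' ⊆ 𝓘 →
      IsK0Lift S 𝓘 →
    ∀ (F0 : Subfield F), (∀ y : F, y ∈ F0 ↔ ∀ τ ∈ 𝓘, τ • y = y) →
      -- the values of `F0` for `V₂` are powers of the value of `p`
      (∀ y ∈ F0, y ≠ 0 → ∃ n : ℤ, S.c₂.V.valuation y = S.c₂.V.valuation (p : F) ^ n) →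
    -- the unit
    ∀ (U : F) (w : ℕ), S.c₁.IsGU U → (∀ τ ∈ 𝓘, τ • U = U) →
      (∀ P : Place K F, S.IsNodeP P → P.ord U = 0) →
      S.c₂.IsGU (U / algebraMap K F ((p : K) ^ w)) → ¬ p ∣ w →
    -- the Kummer function
    ∀ (f : F), S.c₁.IsGU f → (∀ P : Place K F, (p : ℤ) ∣ P.ord f) → (∀ τ ∈ 𝓘', τ • f = f) →
      ∃ (e : Place k F₁ × Place k F₂ → ℕ) (G : Place k F₁ × Place k F₂ → F)
        (d : Place k F₁ × Place k F₂ → ℤ), ∀ s ∈ S.nodes,
        (e s : ℤ) * s.1.ord (S.c₁.rd U) = w ∧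
        (∀ τ ∈ 𝓘', τ • G s = G s) ∧ S.c₁.IsGU (G s) ∧
        (∀ P : Place K F, S.c₁.r P = some s.1 → (p : ℤ) * P.ord (G s) = P.ord f) ∧
        S.c₂.V.valuation f =
          S.c₂.V.valuation (p : F) ^ ((e s : ℤ) * (s.1.ord (S.c₁.rd f) - p * d s)) *
            S.c₂.V.valuation (G s) ^ p

end Fermat.Agent.BADP.H38

end
end
-- ==== END Fermat.Agent.BADP.H38_EisNodeDefs

-- ==== BEGIN Fermat.Agent.L.H52_RecFinal
section

set_option autoImplicit false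

open WeierstrassCurve WeierstrassCurve.Affine WeierstrassCurve.Affine.Point
open scoped WeierstrassCurve.Affine

namespace Fermat.Agent.L.H52

/-- Transport of `E[p]` to an integral model (helper19's `exists_torsEquiv`). -/
theorem stmt_Transport : Stmt_Transport := by
  intro E W p hW
  obtain ⟨C, hC⟩ := hW
  exact Fermat.Agent.L.H19.exists_torsEquiv (K := AlgebraicClosure ℚ) hC p

/-- **L-REC**, generic form, from items 61 and 62. -/
theorem stmt_Rec (hFD : Fermat.Agent.R.Stmt_FD) (hmain : Fermat.Agent.Lib.EllFinite.Stmt_main) :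
    Stmt_Rec :=
  stmt_Rec_of hFD hmain Fermat.Agent.L.H19.stmt_BLR Fermat.Agent.L.H19.stmt_ODD

/-- **L-REC**, in the shape of the S44 wiring, from items 61 and 62. -/
theorem stmt_Recovery (hFD : Fermat.Agent.R.Stmt_FD)
    (hmain : Fermat.Agent.Lib.EllFinite.Stmt_main) : Fermat.Agent.S44.Stmt_Recovery :=
  stmt_Recovery_of (stmt_Rec hFD hmain) stmt_Transport

end Fermat.Agent.L.H52

end
-- ==== END Fermat.Agent.L.H52_RecFinal

-- ==== BEGIN Fermat.Agent.S05.CoreMult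
section

set_option autoImplicit false

namespace Fermat.Agent.S05

open WeierstrassCurve WeierstrassCurve.Affine

section aux

variable {L : Type*} [Field L]

/-- Nonvanishing of the discriminant of the model curve. -/
lemma ModelHyp.Δ_ne_zero {A : ValuationSubring L} {W : Affine L} (hyp : ModelHyp A W) :
    W.Δ ≠ 0 := by
  have h2 : (2 : L) ≠ 0 := by
    intro h
    have := hyp.two
    rw [h, map_zero] at this
    exact zero_ne_one this
  have hd : W.a₂ ^ 2 - 4 * W.a₄ ≠ 0 := by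
    intro h
    have := hyp.disc
    rw [h, map_zero] at this
    exact zero_ne_one this
  have hΔ : W.Δ = 16 * W.a₄ ^ 2 * (W.a₂ ^ 2 - 4 * W.a₄) := by
    simp only [WeierstrassCurve.Δ, WeierstrassCurve.b₂, WeierstrassCurve.b₄, WeierstrassCurve.b₆,
      WeierstrassCurve.b₈, hyp.a₁, hyp.a₃, hyp.a₆]
    ring
  rw [hΔ]
  have h16 : (16 : L) ≠ 0 := by
    have : (16 : L) = 2 ^ 4 := by norm_num
    rw [this]
    exact pow_ne_zero _ h2
  exact mul_ne_zero (mul_ne_zero h16 (pow_ne_zero _ hyp.b_ne)) hd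

/-- In the multiplicative case `a` is a unit. -/
lemma ModelHyp.val_a_eq_one {A : ValuationSubring L} {W : Affine L} (hyp : ModelHyp A W)
    (hb : A.valuation W.a₄ < 1) : A.valuation W.a₂ = 1 := by
  have h4 : A.valuation (4 * W.a₄) < 1 := by
    have h4' : A.valuation (4 : L) ≤ 1 := by
      have : (4 : L) = 2 * 2 := by norm_num
      rw [this, map_mul, hyp.two, one_mul]
    rw [map_mul]
    calc A.valuation 4 * A.valuation W.a₄ ≤ 1 * A.valuation W.a₄ := by gcongr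
      _ = A.valuation W.a₄ := one_mul _
      _ < 1 := hb
  have h1 : A.valuation (W.a₂ ^ 2) = 1 := by
    have := hyp.disc
    have e : W.a₂ ^ 2 = (W.a₂ ^ 2 - 4 * W.a₄) + 4 * W.a₄ := by ring
    rw [e, Valuation.map_add_eq_of_lt_left _ (by rw [this]; exact h4), this]
  rw [map_pow] at h1
  exact (pow_eq_one_iff_left (two_ne_zero)).mp h1

end aux

end Fermat.Agent.S05

namespace Fermat.Agent.S05

open WeierstrassCurve WeierstrassCurve.Affine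

section fixedpoint

variable {L : Type*} [Field L] [IsAlgClosed L]

/-- Existence of a point on the `+`-branch above a given `x₀` with `|b| < |x₀| < 1`, fixed by an
inertia-like automorphism fixing `x₀`, `a`, `b`. -/
lemma exists_fixed_branch_point {A : ValuationSubring L} {W : Affine L} (hyp : ModelHyp A W)
    (hb : A.valuation W.a₄ < 1) (β : L) (hβ : β ^ 2 = W.a₂)
    (σ : L →+* L) (hσr : ∀ x, A.valuation x ≤ 1 → A.valuation (σ x - x) < 1)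
    (hσa : σ W.a₂ = W.a₂) (hσb : σ W.a₄ = W.a₄)
    (x₀ : L) (hσx : σ x₀ = x₀) (hx1 : A.valuation x₀ < 1) (hxb : A.valuation W.a₄ < A.valuation x₀) :
    ∃ (y₀ : L) (_ : W.Nonsingular x₀ y₀), A.valuation (y₀ - β * x₀) < A.valuation x₀ ∧ σ y₀ = y₀ := by
  have hx0 : x₀ ≠ 0 := by
    rintro rfl
    rw [map_zero] at hxb
    exact not_lt_zero hxb
  have hvx0 : A.valuation x₀ ≠ 0 := by simpa using hx0
  have hva := hyp.val_a_eq_one hb
  have hvβ : A.valuation β = 1 := by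
    have : A.valuation β ^ 2 = 1 := by rw [← map_pow, hβ, hva]
    exact (pow_eq_one_iff_left two_ne_zero).mp this
  obtain ⟨y', hy'⟩ := IsAlgClosed.exists_pow_nat_eq (x₀ ^ 3 + W.a₂ * x₀ ^ 2 + W.a₄ * x₀)
    (n := 2) (by norm_num)
  -- the product of the two branches is small
  have hprod : (y' - β * x₀) * (y' + β * x₀) = x₀ * (x₀ ^ 2 + W.a₄) := by
    linear_combination hy' - x₀ ^ 2 * hβ
  have hsmall : A.valuation (x₀ ^ 2 + W.a₄) < A.valuation x₀ := by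
    apply Valuation.map_add_lt _ _ hxb
    rw [map_pow, pow_two]
    calc A.valuation x₀ * A.valuation x₀ < 1 * A.valuation x₀ :=
          mul_lt_mul_of_pos_right hx1 (zero_lt_iff.2 hvx0)
      _ = A.valuation x₀ := one_mul _
  have hlt : A.valuation (y' - β * x₀) * A.valuation (y' + β * x₀) <
      A.valuation x₀ * A.valuation x₀ := by
    rw [← map_mul, hprod, map_mul]
    exact mul_lt_mul_of_pos_left hsmall (zero_lt_iff.2 hvx0)
  -- choose the branch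
  obtain ⟨y₀, hy₀, hbr⟩ : ∃ y₀ : L, y₀ ^ 2 = x₀ ^ 3 + W.a₂ * x₀ ^ 2 + W.a₄ * x₀ ∧
      A.valuation (y₀ - β * x₀) < A.valuation x₀ := by
    by_cases h1 : A.valuation (y' - β * x₀) < A.valuation x₀
    · exact ⟨y', hy', h1⟩
    · refine ⟨-y', by rw [neg_sq, hy'], ?_⟩
      have h2 : A.valuation (y' + β * x₀) < A.valuation x₀ := by
        by_contra h2
        push Not at h1 h2
        exact absurd hlt (not_lt.2 (mul_le_mul' h1 h2))
      have : -y' - β * x₀ = -(y' + β * x₀) := by ring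
      rw [this, Valuation.map_neg]
      exact h2
  have hns : W.Nonsingular x₀ y₀ :=
    (equation_iff_nonsingular_of_Δ_ne_zero hyp.Δ_ne_zero).1
      ((legendre_equation_iff hyp.a₁ hyp.a₃ hyp.a₆ x₀ y₀).2 hy₀)
  refine ⟨y₀, hns, hbr, ?_⟩
  -- `σ y₀ = ± y₀`, and the sign is `+` since `σ` is trivial on the residue field
  have hsq : (σ y₀) ^ 2 = y₀ ^ 2 := by
    rw [← map_pow, hy₀]
    simp only [map_add, map_mul, map_pow, hσx, hσa, hσb]
  have hvy : A.valuation y₀ = A.valuation x₀ := by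
    have e : y₀ = β * x₀ + (y₀ - β * x₀) := by ring
    rw [e, Valuation.map_add_eq_of_lt_left _ (by rwa [map_mul, hvβ, one_mul]), map_mul, hvβ,
      one_mul]
  rcases eq_or_eq_neg_of_sq_eq_sq _ _ hsq with h | h
  · exact h
  · exfalso
    -- z = y₀ / x₀ is a unit with σ z = -z
    have hz : A.valuation (y₀ / x₀) = 1 := by
      rw [map_div₀, hvy, div_self hvx0]
    have hσz : σ (y₀ / x₀) = -(y₀ / x₀) := by
      rw [map_div₀, h, hσx, neg_div]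
    have := hσr (y₀ / x₀) hz.le
    rw [hσz] at this
    have e : -(y₀ / x₀) - y₀ / x₀ = -(2 * (y₀ / x₀)) := by ring
    rw [e, Valuation.map_neg, map_mul, hyp.two, one_mul, hz] at this
    exact lt_irrefl _ this

end fixedpoint

end Fermat.Agent.S05

namespace Fermat.Agent.S05

open WeierstrassCurve WeierstrassCurve.Affine

section main

variable {K₀ L : Type} [Field K₀] [Field L] [DecidableEq L] [Algebra K₀ L] [IsAlgClosed L]

omit [IsAlgClosed L] in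
/-- The action of `σ` on points is inertia-like. -/
lemma inertiaLike_smul (A : ValuationSubring L) (W' : Affine K₀) (σ : L ≃ₐ[K₀] L)
    (hσv : ∀ x, A.valuation (σ x) = A.valuation x)
    (hσr : ∀ x, A.valuation x ≤ 1 → A.valuation (σ x - x) < 1) :
    InertiaLike A (W'⁄L) (σ : L →+* L) (fun P => σ • P) where
  val_eq := hσv
  res := hσr
  map_zero := rfl
  map_some := fun _ _ _ => ⟨_, rfl⟩

/-- Core theorem, multiplicative case. -/
theorem core_mult (hM1 : Stmt_M1 (L := L)) (hF1 : Stmt_F1 (L := L)) (hF2 : Stmt_F2 (L := L))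
    (A : ValuationSubring L) (W' : Affine K₀) (hyp : ModelHyp A (W'⁄L))
    (hb : A.valuation (algebraMap K₀ L W'.a₄) < 1)
    (p : ℕ) (hodd : Odd p) (hp : A.valuation (p : L) = 1)
    (c : K₀) (hc : A.valuation (algebraMap K₀ L c) ^ p = A.valuation (algebraMap K₀ L W'.a₄) ^ 2)
    (σ : L ≃ₐ[K₀] L) (hσv : ∀ x, A.valuation (σ x) = A.valuation x)
    (hσr : ∀ x, A.valuation x ≤ 1 → A.valuation (σ x - x) < 1)
    (P : (W'⁄L).Point) (hP : (p : ℤ) • P = 0) : σ • P = P := by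
  have hp0 : p ≠ 0 := by
    rintro rfl
    exact absurd hodd (by decide)
  have hP' : p • P = 0 := by rwa [natCast_zsmul] at hP
  have hb' : A.valuation (W'⁄L).a₄ < 1 := hb
  have hI := inertiaLike_smul A W' σ hσv hσr
  obtain ⟨β, hβ⟩ := IsAlgClosed.exists_pow_nat_eq ((W'⁄L).a₂) (n := 2) (by norm_num)
  obtain ⟨φ, hker, hφ⟩ := hM1 A (W'⁄L) hyp hb' β hβ
  -- it suffices to find a σ-fixed point `P₀` in the same component as `P`
  suffices h : ∃ P₀ : (W'⁄L).Point, σ • P₀ = P₀ ∧ φ P₀ = φ P by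
    obtain ⟨P₀, hfix, hcomp⟩ := h
    have hQ : InE0 A (P - P₀) := by
      rw [← hker, map_sub, hcomp, sub_self]
    have hR := hF2 A (W'⁄L) hyp _ _ hI (P - P₀) hQ
    have hR' : σ • (P - P₀) - (P - P₀) = σ • P - P := by
      rw [smul_sub, hfix]; abel
    simp only [hR'] at hR
    by_contra hne
    have hne' : σ • P - P ≠ 0 := fun h => hne (sub_eq_zero.1 h)
    apply hF1 A (W'⁄L) hyp _ hR hne' p hp
    rw [smul_sub, ← smul_comm σ p P, hP', smul_zero, sub_zero]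
  -- notation
  have hb0 : algebraMap K₀ L W'.a₄ ≠ 0 := hyp.b_ne
  have hvb0 : A.valuation (algebraMap K₀ L W'.a₄) ≠ 0 := by simpa using hb0
  have hc0 : algebraMap K₀ L c ≠ 0 := by
    intro h
    rw [h, map_zero, zero_pow hp0] at hc
    exact pow_ne_zero 2 hvb0 hc.symm
  have hvc0 : A.valuation (algebraMap K₀ L c) ≠ 0 := by simpa using hc0
  have hvc1 : A.valuation (algebraMap K₀ L c) < 1 := by
    by_contra h
    push Not at h
    have h1 : 1 ≤ A.valuation (algebraMap K₀ L c) ^ p := one_le_pow₀ h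
    rw [hc] at h1
    have h2 : A.valuation (algebraMap K₀ L W'.a₄) ^ 2 < 1 := pow_lt_one₀ zero_le hb two_ne_zero
    exact absurd h1 (not_le.2 h2)
  have hσc : σ (algebraMap K₀ L c) = algebraMap K₀ L c := σ.commutes c
  have hσa : (σ : L →+* L) (W'⁄L).a₂ = (W'⁄L).a₂ := σ.commutes _
  have hσb : (σ : L →+* L) (W'⁄L).a₄ = (W'⁄L).a₄ := σ.commutes _
  set cU : (A.ValueGroup)ˣ := valUnit A (algebraMap K₀ L c) hc0 with hcU
  have hcUp : cU ^ p = bUnit hyp ^ 2 := by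
    apply Units.ext
    simp only [hcU, valUnit, bUnit, Units.val_pow_eq_pow_val, Units.val_mk0]
    exact hc
  -- small case: `0 < r`, `2 r < p`
  have small : ∀ r : ℕ, 0 < r → 2 * r < p → ∃ P₀ : (W'⁄L).Point, σ • P₀ = P₀ ∧
      φ P₀ = Additive.ofMul (QuotientGroup.mk (cU ^ r)) := by
    intro r hr0 hr
    have hx1 : A.valuation ((algebraMap K₀ L c) ^ r) < 1 := by
      rw [map_pow]
      exact pow_lt_one₀ zero_le hvc1 hr0.ne'
    have hxb : A.valuation (W'⁄L).a₄ < A.valuation ((algebraMap K₀ L c) ^ r) := by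
      by_contra h
      push Not at h
      have h2 : A.valuation ((algebraMap K₀ L c) ^ r) ^ 2 ≤ A.valuation (W'⁄L).a₄ ^ 2 :=
        pow_le_pow_left₀ zero_le h 2
      have h3 : A.valuation (algebraMap K₀ L c) ^ p < A.valuation (algebraMap K₀ L c) ^ (2 * r) :=
        pow_lt_pow_right_of_lt_one₀ (zero_lt_iff.2 hvc0) hvc1 hr
      rw [map_pow, ← pow_mul, mul_comm r 2] at h2
      exact absurd (h3.trans_le h2) (by rw [hc]; exact lt_irrefl _)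
    have hσx : (σ : L →+* L) ((algebraMap K₀ L c) ^ r) = (algebraMap K₀ L c) ^ r := by
      rw [map_pow]; congr 1
    obtain ⟨y₀, hns, hbr, hσy⟩ := exists_fixed_branch_point hyp hb' β hβ (σ : L →+* L) hσr hσa hσb
      _ hσx hx1 hxb
    refine ⟨Point.some _ _ hns, ?_, ?_⟩
    · show Point.some (σ _) (σ y₀) _ = _
      have h1 : σ ((algebraMap K₀ L c) ^ r) = (algebraMap K₀ L c) ^ r := hσx
      have h2 : σ y₀ = y₀ := hσy
      simp only [h1, h2]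
    · rw [hφ _ _ hns (pow_ne_zero _ hc0) hxb hx1 hbr]
      congr 2
      apply Units.ext
      simp [hcU, valUnit, map_pow]
  -- all residues `r < p`
  have allr : ∀ r : ℕ, r < p → ∃ P₀ : (W'⁄L).Point, σ • P₀ = P₀ ∧
      φ P₀ = Additive.ofMul (QuotientGroup.mk (cU ^ r)) := by
    intro r hr
    rcases Nat.eq_zero_or_pos r with rfl | hr0
    · exact ⟨0, smul_zero σ, by simp⟩
    rcases lt_or_gt_of_ne (show 2 * r ≠ p from fun h => by
        obtain ⟨k, hk⟩ := hodd; omega) with h2 | h2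
    · exact small r hr0 h2
    · obtain ⟨P₀, hfix, hcomp⟩ := small (p - r) (by omega) (by omega)
      refine ⟨-P₀, by rw [smul_neg, hfix], ?_⟩
      rw [map_neg, hcomp, ← ofMul_inv, ← QuotientGroup.mk_inv]
      congr 1
      rw [QuotientGroup.eq]
      rw [inv_inv, ← pow_add, Nat.sub_add_cancel hr.le, hcUp]
      exact Subgroup.mem_zpowers _
  -- the component of `P`
  obtain ⟨g, hg⟩ := QuotientGroup.mk_surjective (Additive.toMul (φ P))
  have hgp : g ^ p ∈ Subgroup.zpowers (bUnit hyp ^ 2) := by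
    rw [← QuotientGroup.eq_one_iff, QuotientGroup.mk_pow, hg, ← toMul_nsmul, ← map_nsmul, hP',
      map_zero, toMul_zero]
  obtain ⟨k, hk⟩ := Subgroup.mem_zpowers_iff.1 hgp
  have hgk : g = cU ^ k := by
    have : g ^ p = (cU ^ k) ^ p := by
      rw [← hk, ← hcUp, ← zpow_natCast (cU ^ k) p, ← zpow_natCast cU p, ← zpow_mul, ← zpow_mul,
        mul_comm]
    exact pow_left_injective hp0 this
  have hpZ : (p : ℤ) ≠ 0 := by exact_mod_cast hp0
  obtain ⟨P₀, hfix, hcomp⟩ := allr (k % (p : ℤ)).toNat (by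
    have := Int.emod_lt_of_pos k (show (0 : ℤ) < p by omega)
    have := Int.emod_nonneg k hpZ
    omega)
  refine ⟨P₀, hfix, ?_⟩
  rw [hcomp]
  apply Additive.toMul.injective
  rw [toMul_ofMul, ← hg, hgk, QuotientGroup.eq]
  have hkr : cU ^ k = (bUnit hyp ^ 2) ^ (k / (p : ℤ)) * cU ^ (k % (p : ℤ)).toNat := by
    rw [← hcUp, ← zpow_natCast cU p, ← zpow_mul, ← zpow_natCast cU (k % (p : ℤ)).toNat,
      Int.toNat_of_nonneg (Int.emod_nonneg k hpZ), ← zpow_add, Int.mul_ediv_add_emod]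
  rw [hkr, mul_comm, mul_inv_cancel_right]
  exact Subgroup.zpow_mem _ (Subgroup.mem_zpowers _) _

end main

end Fermat.Agent.S05

end
-- ==== END Fermat.Agent.S05.CoreMult

-- ==== BEGIN Fermat.Agent.S05.Derived
section

set_option autoImplicit false

namespace Fermat.Agent.S05

open WeierstrassCurve WeierstrassCurve.Affine

variable {L : Type*} [Field L]

/-! ### Pure algebra consequences of the line data -/

/-- (R1)  `μ (x₂ y₁ + x₁ y₂) = x₁ x₂ (b - x₁ x₂)`. -/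
lemma derived_R1 {b ℓ μ x₁ y₁ x₂ y₂ x₃ : L} (hy₁ : y₁ = ℓ * x₁ + μ) (hy₂ : y₂ = ℓ * x₂ + μ)
    (hV₂ : x₁ * x₂ + x₁ * x₃ + x₂ * x₃ = b - 2 * ℓ * μ) (hV₃ : x₁ * x₂ * x₃ = μ ^ 2) :
    μ * (x₂ * y₁ + x₁ * y₂) = x₁ * x₂ * (b - x₁ * x₂) := by
  subst hy₁ hy₂
  linear_combination (-(x₁ + x₂)) * hV₃ + x₁ * x₂ * hV₂

/-- (R2)  `μ (x₂ - x₁) = x₂ y₁ - x₁ y₂`. -/
lemma derived_R2 {ℓ μ x₁ y₁ x₂ y₂ : L} (hy₁ : y₁ = ℓ * x₁ + μ) (hy₂ : y₂ = ℓ * x₂ + μ) :
    μ * (x₂ - x₁) = x₂ * y₁ - x₁ * y₂ := by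
  subst hy₁ hy₂
  ring

/-- (R3)  `x₁ y₃ + x₃ y₁ = μ (x₃ - x₁)`  (this is (R2) for the pair `P₁, -P₃`). -/
lemma derived_R3 {ℓ μ x₁ y₁ x₃ y₃ : L} (hy₁ : y₁ = ℓ * x₁ + μ) (hy₃ : -y₃ = ℓ * x₃ + μ) :
    x₁ * y₃ + x₃ * y₁ = μ * (x₃ - x₁) := by
  subst hy₁
  linear_combination (-x₁) * hy₃

/-- (A1), division-free:  `x₃ (x₂ y₁ + x₁ y₂)² = x₁ x₂ (x₁ x₂ - b)²`  when `x₁ x₂ ≠ 0`. -/
lemma derived_A1 {b ℓ μ x₁ y₁ x₂ y₂ x₃ : L} (hy₁ : y₁ = ℓ * x₁ + μ) (hy₂ : y₂ = ℓ * x₂ + μ)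
    (hV₂ : x₁ * x₂ + x₁ * x₃ + x₂ * x₃ = b - 2 * ℓ * μ) (hV₃ : x₁ * x₂ * x₃ = μ ^ 2)
    (hx₁ : x₁ ≠ 0) (hx₂ : x₂ ≠ 0) :
    x₃ * (x₂ * y₁ + x₁ * y₂) ^ 2 = x₁ * x₂ * (x₁ * x₂ - b) ^ 2 := by
  have hR1 := derived_R1 hy₁ hy₂ hV₂ hV₃
  have h12 : x₁ * x₂ ≠ 0 := mul_ne_zero hx₁ hx₂
  apply mul_left_cancel₀ h12
  have : (μ * (x₂ * y₁ + x₁ * y₂)) ^ 2 = (x₁ * x₂ * (b - x₁ * x₂)) ^ 2 := by rw [hR1]
  linear_combination this + (x₂ * y₁ + x₁ * y₂) ^ 2 * hV₃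

variable [DecidableEq L]

/-! ### The same, packaged for a sum of two affine points -/

/-- All division-free relations for `P₁ + P₂ = P₃` (all three affine) in one statement. -/
theorem derived_line {W : Affine L} (h₁ : W.a₁ = 0) (h₃ : W.a₃ = 0) (h₆ : W.a₆ = 0)
    {x₁ y₁ x₂ y₂ x₃ y₃ : L} {hP₁ : W.Nonsingular x₁ y₁} {hP₂ : W.Nonsingular x₂ y₂}
    {hP₃ : W.Nonsingular x₃ y₃}
    (hadd : Point.some x₁ y₁ hP₁ + Point.some x₂ y₂ hP₂ = Point.some x₃ y₃ hP₃) :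
    ∃ μ : L, x₁ * x₂ * x₃ = μ ^ 2 ∧
      μ * (x₂ * y₁ + x₁ * y₂) = x₁ * x₂ * (W.a₄ - x₁ * x₂) ∧
      μ * (x₂ - x₁) = x₂ * y₁ - x₁ * y₂ ∧
      x₁ * y₃ + x₃ * y₁ = μ * (x₃ - x₁) ∧
      x₂ * y₃ + x₃ * y₂ = μ * (x₃ - x₂) := by
  obtain ⟨ℓ, μ, hy₁, hy₂, hy₃, -, hV₂, hV₃⟩ :=
    line W h₁ h₃ h₆ x₁ y₁ x₂ y₂ x₃ y₃ hP₁ hP₂ hP₃ hadd
  exact ⟨μ, hV₃, derived_R1 hy₁ hy₂ hV₂ hV₃, derived_R2 hy₁ hy₂, derived_R3 hy₁ hy₃,
    derived_R3 hy₂ hy₃⟩

/-- (A1) for a sum of affine points with `x₁ x₂ ≠ 0`, in the coordinates `t = y / x`: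
`x₃ · x₁ x₂ (t₁ + t₂)² = (x₁ x₂ - b)²`. -/
theorem derived_A1_t {W : Affine L} (h₁ : W.a₁ = 0) (h₃ : W.a₃ = 0) (h₆ : W.a₆ = 0)
    {x₁ y₁ x₂ y₂ x₃ y₃ : L} {hP₁ : W.Nonsingular x₁ y₁} {hP₂ : W.Nonsingular x₂ y₂}
    {hP₃ : W.Nonsingular x₃ y₃}
    (hadd : Point.some x₁ y₁ hP₁ + Point.some x₂ y₂ hP₂ = Point.some x₃ y₃ hP₃)
    (hx₁ : x₁ ≠ 0) (hx₂ : x₂ ≠ 0) :
    x₃ * (x₁ * x₂ * (y₁ / x₁ + y₂ / x₂) ^ 2) = (x₁ * x₂ - W.a₄) ^ 2 := by
  obtain ⟨ℓ, μ, hy₁, hy₂, -, -, hV₂, hV₃⟩ :=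
    line W h₁ h₃ h₆ x₁ y₁ x₂ y₂ x₃ y₃ hP₁ hP₂ hP₃ hadd
  have hA1 := derived_A1 hy₁ hy₂ hV₂ hV₃ hx₁ hx₂
  have h12 : x₁ * x₂ ≠ 0 := mul_ne_zero hx₁ hx₂
  apply mul_left_cancel₀ h12
  have ht : x₁ * x₂ * (y₁ / x₁ + y₂ / x₂) = x₂ * y₁ + x₁ * y₂ := by
    field_simp
  calc x₁ * x₂ * (x₃ * (x₁ * x₂ * (y₁ / x₁ + y₂ / x₂) ^ 2))
      = x₃ * (x₁ * x₂ * (y₁ / x₁ + y₂ / x₂)) ^ 2 := by ring
    _ = x₃ * (x₂ * y₁ + x₁ * y₂) ^ 2 := by rw [ht]
    _ = x₁ * x₂ * (x₁ * x₂ - W.a₄) ^ 2 := hA1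

/-- The `μ` of the line in terms of `t`-coordinates: `μ (t₁ + t₂) = b - x₁ x₂`, together with
`x₁ x₂ x₃ = μ²` and the formula `t₃ = -t₁ + μ / x₁ - x₁ x₂ / μ` (valid when `μ ≠ 0`, i.e. `x₃ ≠ 0`). -/
theorem derived_t {W : Affine L} (h₁ : W.a₁ = 0) (h₃ : W.a₃ = 0) (h₆ : W.a₆ = 0)
    {x₁ y₁ x₂ y₂ x₃ y₃ : L} {hP₁ : W.Nonsingular x₁ y₁} {hP₂ : W.Nonsingular x₂ y₂}
    {hP₃ : W.Nonsingular x₃ y₃}
    (hadd : Point.some x₁ y₁ hP₁ + Point.some x₂ y₂ hP₂ = Point.some x₃ y₃ hP₃)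
    (hx₁ : x₁ ≠ 0) (hx₂ : x₂ ≠ 0) :
    ∃ μ : L, x₁ * x₂ * x₃ = μ ^ 2 ∧
      μ * (y₁ / x₁ + y₂ / x₂) = W.a₄ - x₁ * x₂ ∧
      μ * (x₂ - x₁) = x₁ * x₂ * (y₁ / x₁ - y₂ / x₂) ∧
      (x₃ ≠ 0 → y₃ / x₃ = -(y₁ / x₁) + μ / x₁ - x₁ * x₂ / μ) ∧
      (x₃ ≠ 0 → y₃ / x₃ = -(y₂ / x₂) + μ / x₂ - x₁ * x₂ / μ) := by
  obtain ⟨μ, hV₃, hR1, hR2, hR3, hR3'⟩ := derived_line h₁ h₃ h₆ hadd
  have h12 : x₁ * x₂ ≠ 0 := mul_ne_zero hx₁ hx₂
  refine ⟨μ, hV₃, ?_, ?_, ?_, ?_⟩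
  · apply mul_left_cancel₀ h12
    have ht : x₁ * x₂ * (y₁ / x₁ + y₂ / x₂) = x₂ * y₁ + x₁ * y₂ := by
      field_simp
    calc x₁ * x₂ * (μ * (y₁ / x₁ + y₂ / x₂)) = μ * (x₁ * x₂ * (y₁ / x₁ + y₂ / x₂)) := by ring
      _ = μ * (x₂ * y₁ + x₁ * y₂) := by rw [ht]
      _ = x₁ * x₂ * (W.a₄ - x₁ * x₂) := hR1
  · have ht : x₁ * x₂ * (y₁ / x₁ - y₂ / x₂) = x₂ * y₁ - x₁ * y₂ := by
      field_simp
    rw [ht, hR2]
  · intro hx₃
    have hμ : μ ≠ 0 := by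
      intro h
      rw [h] at hV₃
      have : x₁ * x₂ * x₃ ≠ 0 := mul_ne_zero h12 hx₃
      exact this (by rw [hV₃]; ring)
    have key : x₁ * x₂ / μ = μ / x₃ := by
      rw [div_eq_div_iff hμ hx₃]
      linear_combination hV₃
    rw [key]
    field_simp
    linear_combination hR3
  · intro hx₃
    have hμ : μ ≠ 0 := by
      intro h
      rw [h] at hV₃
      have : x₁ * x₂ * x₃ ≠ 0 := mul_ne_zero h12 hx₃
      exact this (by rw [hV₃]; ring)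
    have key : x₁ * x₂ / μ = μ / x₃ := by
      rw [div_eq_div_iff hμ hx₃]
      linear_combination hV₃
    rw [key]
    field_simp
    linear_combination hR3'

/-! ### The point `T = (0,0)` and translation by it -/

omit [DecidableEq L] in
/-- `T = (0,0)` is a nonsingular point of the model curve as soon as `b ≠ 0`. -/
lemma derived_nonsingular_T {W : Affine L} (h₆ : W.a₆ = 0) (hb : W.a₄ ≠ 0) :
    W.Nonsingular 0 0 := by
  rw [Affine.nonsingular_iff, Affine.equation_iff]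
  refine ⟨by simp [h₆], Or.inl ?_⟩
  simpa using hb.symm

omit [DecidableEq L] in
/-- On the model curve a point with `x = 0` has `y = 0`. -/
lemma derived_y_eq_zero_of_x_eq_zero {W : Affine L} (h₁ : W.a₁ = 0) (h₃ : W.a₃ = 0) (h₆ : W.a₆ = 0)
    {y : L} (h : W.Equation 0 y) : y = 0 := by
  have := (legendre_equation_iff h₁ h₃ h₆ 0 y).1 h
  have h2 : y ^ 2 = 0 := by rw [this]; ring
  exact pow_eq_zero_iff (two_ne_zero) |>.1 h2

/-- `T + T = 0`. -/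
lemma derived_T_add_T {W : Affine L} (h₁ : W.a₁ = 0) (h₃ : W.a₃ = 0) (hT : W.Nonsingular 0 0) :
    Point.some 0 0 hT + Point.some 0 0 hT = 0 := by
  apply Point.add_of_Y_eq rfl
  rw [legendre_negY h₁ h₃]
  simp

/-- Translation by `T = (0,0)`:  `(x, y) + T = (b / x, -(b y) / x²)` for `x ≠ 0`. -/
theorem derived_add_T {W : Affine L} (h₁ : W.a₁ = 0) (h₃ : W.a₃ = 0) (h₆ : W.a₆ = 0)
    {x y : L} (h : W.Nonsingular x y) (hT : W.Nonsingular 0 0) (hx : x ≠ 0) :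
    ∃ h' : W.Nonsingular (W.a₄ / x) (-(W.a₄ * y) / x ^ 2),
      Point.some x y h + Point.some 0 0 hT = Point.some (W.a₄ / x) (-(W.a₄ * y) / x ^ 2) h' := by
  have e := (legendre_equation_iff h₁ h₃ h₆ x y).1 h.1
  have hxy : ¬(x = 0 ∧ y = W.negY 0 0) := fun hh => hx hh.1
  have hsl : W.slope x 0 y 0 = y / x := by
    rw [slope_of_X_ne hx]
    simp
  have hX : W.addX x 0 (W.slope x 0 y 0) = W.a₄ / x := by
    rw [hsl]
    simp only [addX, h₁]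
    field_simp
    linear_combination e
  have hY : W.addY x 0 y (W.slope x 0 y 0) = -(W.a₄ * y) / x ^ 2 := by
    rw [hsl]
    simp only [addY, negAddY, addX, legendre_negY h₁ h₃, h₁]
    field_simp
    linear_combination (-y) * e
  have key := Point.add_some (W := W) hxy (h₁ := h) (h₂ := hT)
  have hns : W.Nonsingular (W.a₄ / x) (-(W.a₄ * y) / x ^ 2) := by
    have := nonsingular_add h hT hxy
    rwa [hX, hY] at this
  refine ⟨hns, ?_⟩
  rw [key]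
  congr 1

/-- In `t`-coordinates: `x(P + T) = b / x`, `t(P + T) = -t(P)`. -/
theorem derived_add_T_t {W : Affine L} (h₁ : W.a₁ = 0) (h₃ : W.a₃ = 0) (h₆ : W.a₆ = 0)
    {x y : L} (h : W.Nonsingular x y) (hT : W.Nonsingular 0 0) (hx : x ≠ 0) :
    ∃ (x' y' : L) (h' : W.Nonsingular x' y'),
      Point.some x y h + Point.some 0 0 hT = Point.some x' y' h' ∧
      x' ≠ 0 ∧ x * x' = W.a₄ ∧ y' / x' = -(y / x) := by
  obtain ⟨h', hadd⟩ := derived_add_T h₁ h₃ h₆ h hT hx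
  have hb : W.a₄ ≠ 0 := by
    intro hb
    have := hT
    rw [Affine.nonsingular_iff, Affine.equation_iff] at this
    rcases this with ⟨-, h2 | h2⟩
    · simp [hb] at h2
    · simp [h₁, h₃] at h2
  refine ⟨_, _, h', hadd, div_ne_zero hb hx, by field_simp, ?_⟩
  field_simp

/-- Piece D4 (`Stmt_M1_addT` of `M1Defs.lean`): translation by `T = (0,0)`. -/
theorem M1_addT : Stmt_M1_addT (L := L) := by
  intro W h₁ h₃ h₆ hT x y h hx
  obtain ⟨h', hadd⟩ := derived_add_T h₁ h₃ h₆ h hT hx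
  have e : -(W.a₄ * y) / x ^ 2 = -(W.a₄ * y / x ^ 2) := by ring
  refine ⟨e ▸ h', ?_⟩
  rw [hadd]
  congr 1

omit [DecidableEq L] in
/-- Pure algebra behind `derived_F1_key`. -/
lemma derived_F1_key_alg {a b x₁ x₂ t₁ t₂ μ t₃ : L} (hx₁ : x₁ ≠ 0) (hx₂ : x₂ ≠ 0)
    (hD : x₁ * x₂ - b ≠ 0) (hs : t₁ + t₂ ≠ 0) (hμs : μ * (t₁ + t₂) = b - x₁ * x₂)
    (E₂ : t₂ ^ 2 * x₂ = x₂ ^ 2 + a * x₂ + b)
    (ht₃ : t₃ = -t₁ + μ / x₁ - x₁ * x₂ / μ) :
    t₃ * (t₁ + t₂) = t₁ * t₂ + a + b / x₁ + b / x₂ + b * (t₁ + t₂) ^ 2 / (x₁ * x₂ - b) := by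
  have hμ : μ = -(x₁ * x₂ - b) / (t₁ + t₂) := by
    rw [eq_div_iff hs]; linear_combination hμs
  subst ht₃
  rw [hμ]
  have hD' : b - x₁ * x₂ ≠ 0 := fun h => hD (by linear_combination -h)
  field_simp
  linear_combination (x₁ * (x₁ * x₂ - b)) * E₂

/-- Key identity for F1 (`t = y / x`), valid when `x₁ x₂ ≠ b`, `x₃ ≠ 0`:
`t₃ (t₁ + t₂) = t₁ t₂ + a + b / x₁ + b / x₂ + b (t₁ + t₂)² / (x₁ x₂ - b)`. -/
theorem derived_F1_key {W : Affine L} (h₁ : W.a₁ = 0) (h₃ : W.a₃ = 0) (h₆ : W.a₆ = 0)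
    {x₁ y₁ x₂ y₂ x₃ y₃ : L} {hP₁ : W.Nonsingular x₁ y₁} {hP₂ : W.Nonsingular x₂ y₂}
    {hP₃ : W.Nonsingular x₃ y₃}
    (hadd : Point.some x₁ y₁ hP₁ + Point.some x₂ y₂ hP₂ = Point.some x₃ y₃ hP₃)
    (hx₁ : x₁ ≠ 0) (hx₂ : x₂ ≠ 0) (hx₃ : x₃ ≠ 0) (hb : x₁ * x₂ - W.a₄ ≠ 0) :
    y₃ / x₃ * (y₁ / x₁ + y₂ / x₂) =
      y₁ / x₁ * (y₂ / x₂) + W.a₂ + W.a₄ / x₁ + W.a₄ / x₂ +
        W.a₄ * (y₁ / x₁ + y₂ / x₂) ^ 2 / (x₁ * x₂ - W.a₄) := by
  obtain ⟨μ, -, hμs, -, ht₃, -⟩ := derived_t h₁ h₃ h₆ hadd hx₁ hx₂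
  have e₂ := (legendre_equation_iff h₁ h₃ h₆ x₂ y₂).1 hP₂.1
  have hs : y₁ / x₁ + y₂ / x₂ ≠ 0 := by
    intro h
    rw [h, mul_zero] at hμs
    exact hb (by linear_combination hμs)
  have E₂ : (y₂ / x₂) ^ 2 * x₂ = x₂ ^ 2 + W.a₂ * x₂ + W.a₄ := by
    field_simp
    linear_combination e₂
  exact derived_F1_key_alg hx₁ hx₂ hb hs hμs E₂ (ht₃ hx₃)

end Fermat.Agent.S05

end
-- ==== END Fermat.Agent.S05.Derived
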