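-- GENERATED (merged mirror, NOTES/tools/trim/merge3_helper67.py): 7 modules of the originals, bodies verbatim.
import Fermat.Agent.Zm.S44_L03_000
import Fermat.Agent.Zm.S35_L06_002
import Fermat.Agent.Zm.S44_L02_000
import Fermat.Agent.Zm.S33_L05_000
import Fermat.Agent.Zm.S33_L05_001
import Fermat.Agent.Zm.S33_L08_000
import Fermat.Agent.Zm.S35_L04_002
import Fermat.Agent.Lib.EllFinite.Main
import Fermat.Agent.Zm.S44_L02_001
import Fermat.Agent.Zm.S44_L03_001
import Fermat.Agent.Zm.S44_L02_002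

-- ==== BEGIN Fermat.Agent.BADP.H11_Arith0Ser
section

/-!
# S44 BADP, leaf ARITH-0 (helper11), part 4: the section on Laurent series and the Gauss ring

`L ⊂ ℚ̄` finite normal over `ℚ`, `Γ = inertiaRes A L`, acting coefficientwise on `L((t))`.
For `d ∈ L`:  `TL d y = ∑_γ γ (d y)`,  `NL b = ∏_γ γ b`.

* `TL_gauss` : if `d` is a section (`exists_section_field`) and `x = a / b` with `a, b ∈ (A ∩ L)((t))`,
  `b` primitive, then `TL d x` is in the Gauss ring of `A` and has the same reduction as `x`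
  (norm trick: `TL d x = TL d (a b♯) / NL b`).
-/

set_option autoImplicit false
set_option linter.style.haveILetI false
set_option linter.unusedSectionVars false

noncomputable section

namespace Fermat.Agent.BADP.H11

open ModularCurve Fermat.Agent.S28 Fermat.Agent.S28.H73 Fermat.Agent.RED.H73

open scoped Classical

local notation "Qbar" => AlgebraicClosure ℚ

variable (A : ValuationSubring Qbar) (L : IntermediateField ℚ Qbar)
  [FiniteDimensional ℚ L] [Normal ℚ L]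

/-- `L((t)) → ℚ̄((t))`. -/
def iotaL : LaurentSeries ↥L →+* LaurentSeries Qbar := coeffMap (algebraMap ↥L Qbar)

@[simp] theorem iotaL_coeff (y : LaurentSeries ↥L) (n : ℤ) :
    (iotaL L y).coeff n = ((y.coeff n : ↥L) : Qbar) := rfl

theorem iotaL_injective : Function.Injective (iotaL L) := by
  intro g h hgh
  ext n
  have := congrArg (fun x : LaurentSeries Qbar => x.coeff n) hgh
  simpa using this

theorem iotaL_C (c : ↥L) : iotaL L (HahnSeries.C c) = HahnSeries.C (c : Qbar) := by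
  show coeffMap (algebraMap ↥L Qbar) (HahnSeries.single 0 c) = HahnSeries.single 0 (c : Qbar)
  rw [coeffMap_single]
  rfl

/-- The coefficientwise action of `γ ∈ Γ` on `L((t))`. -/
def actL (γ : inertiaRes A L) : LaurentSeries ↥L →+* LaurentSeries ↥L :=
  coeffMap (((γ : ↥L ≃ₐ[ℚ] ↥L) : ↥L →+* ↥L))

@[simp] theorem actL_coeff (γ : inertiaRes A L) (y : LaurentSeries ↥L) (n : ℤ) :
    (actL A L γ y).coeff n = γ • (y.coeff n) := rfl

theorem actL_actL (γ γ' : inertiaRes A L) (y : LaurentSeries ↥L) :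
    actL A L γ (actL A L γ' y) = actL A L (γ * γ') y := by
  ext n
  simp only [actL_coeff, mul_smul]

theorem actL_one (y : LaurentSeries ↥L) : actL A L 1 y = y := by
  ext n
  simp only [actL_coeff, one_smul]

theorem actL_C (γ : inertiaRes A L) (c : ↥L) :
    actL A L γ (HahnSeries.C c) = HahnSeries.C (γ • c) := by
  show coeffMap _ (HahnSeries.single 0 c) = HahnSeries.single 0 (γ • c)
  rw [coeffMap_single]
  rfl

/-- The lifts act on `ι (L((t)))` through `Γ`. -/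
theorem coeffMap_liftI_iotaL (γ : inertiaRes A L) (y : LaurentSeries ↥L) :
    coeffMap ((liftI A L γ : Qbar ≃ₐ[ℚ] Qbar) : Qbar →+* Qbar) (iotaL L y)
      = iotaL L (actL A L γ y) := by
  ext n
  simp only [coeffMap_coeff, iotaL_coeff, actL_coeff]
  exact liftI_apply A L γ (y.coeff n)

/-- The inertia group acts on `ι (L((t)))` through `Γ`. -/
theorem coeffMap_iotaL (σ : Qbar ≃ₐ[ℚ] Qbar) (hσ : σ ∈ A.inertiaSubgroupIn ℚ)
    (y : LaurentSeries ↥L) :
    coeffMap ((σ : Qbar ≃ₐ[ℚ] Qbar) : Qbar →+* Qbar) (iotaL L y)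
      = iotaL L (actL A L (resI A L σ hσ) y) := by
  ext n
  simp only [coeffMap_coeff, iotaL_coeff, actL_coeff]
  exact (resI_apply A L σ hσ (y.coeff n)).symm

/-- The trace operator on `L((t))`. -/
def TL (d : ↥L) (y : LaurentSeries ↥L) : LaurentSeries ↥L :=
  ∑ γ : inertiaRes A L, actL A L γ (HahnSeries.C d * y)

/-- The norm operator on `L((t))`. -/
def NL (b : LaurentSeries ↥L) : LaurentSeries ↥L := ∏ γ : inertiaRes A L, actL A L γ b

/-- The cofactor of `b` in its norm. -/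
def SL (b : LaurentSeries ↥L) : LaurentSeries ↥L :=
  ∏ γ ∈ (Finset.univ : Finset (inertiaRes A L)).erase 1, actL A L γ b

theorem mul_SL (b : LaurentSeries ↥L) : b * SL A L b = NL A L b := by
  have h := Finset.mul_prod_erase (Finset.univ : Finset (inertiaRes A L))
    (fun γ => actL A L γ b) (Finset.mem_univ 1)
  have h1 : actL A L 1 b = b := actL_one A L b
  rw [NL, ← h, SL, h1]

theorem actL_NL (γ : inertiaRes A L) (b : LaurentSeries ↥L) :
    actL A L γ (NL A L b) = NL A L b := by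
  rw [NL, map_prod]
  simp_rw [actL_actL]
  exact Fintype.prod_bijective (fun γ' => γ * γ') (Group.mulLeft_bijective γ) _ _ (fun _ => rfl)

theorem actL_TL (γ : inertiaRes A L) (d : ↥L) (y : LaurentSeries ↥L) :
    actL A L γ (TL A L d y) = TL A L d y := by
  rw [TL, map_sum]
  simp_rw [actL_actL]
  exact Fintype.sum_bijective (fun γ' => γ * γ') (Group.mulLeft_bijective γ) _ _ (fun _ => rfl)

theorem TL_mul_fixed (d : ↥L) (y z : LaurentSeries ↥L)
    (hz : ∀ γ : inertiaRes A L, actL A L γ z = z) :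
    TL A L d (y * z) = TL A L d y * z := by
  rw [TL, TL, Finset.sum_mul]
  refine Finset.sum_congr rfl fun γ _ => ?_
  rw [← mul_assoc, map_mul, hz]

theorem TL_coeff (d : ↥L) (y : LaurentSeries ↥L) (n : ℤ) :
    (TL A L d y).coeff n = ∑ γ : inertiaRes A L, γ • (d * y.coeff n) := by
  rw [TL, HahnSeries.coeff_sum]
  refine Finset.sum_congr rfl fun γ _ => ?_
  rw [actL_coeff, HahnSeries.C_mul_eq_smul, HahnSeries.coeff_smul, smul_eq_mul]

theorem TL_add (d : ↥L) (y z : LaurentSeries ↥L) :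
    TL A L d (y + z) = TL A L d y + TL A L d z := by
  rw [TL, TL, TL, ← Finset.sum_add_distrib]
  refine Finset.sum_congr rfl fun γ _ => ?_
  rw [mul_add, map_add]

/-- `TL` is linear over the `Γ`-fixed constants. -/
theorem TL_C_mul (d c : ↥L) (hc : ∀ γ : inertiaRes A L, γ • c = c) (y : LaurentSeries ↥L) :
    TL A L d (HahnSeries.C c * y) = HahnSeries.C c * TL A L d y := by
  rw [mul_comm, TL_mul_fixed A L d y _ (fun γ => by rw [actL_C, hc]), mul_comm]

/-! ### Integral series: `(A ∩ L)((t))` -/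

/-- The inclusion `A ∩ L → A`. -/
def inclA : ↥(valL A L) →+* ↥A where
  toFun x := ⟨((x : ↥L) : Qbar), x.2⟩
  map_one' := rfl
  map_mul' _ _ := rfl
  map_zero' := rfl
  map_add' _ _ := rfl

/-- `(A ∩ L)((t)) → A((t))`. -/
def toA : LaurentSeries ↥(valL A L) →+* LaurentSeries ↥A := coeffMap (inclA A L)

/-- `(A ∩ L)((t)) → L((t))`. -/
def jO : LaurentSeries ↥(valL A L) →+* LaurentSeries ↥L := iotaV (valL A L)

theorem jO_injective : Function.Injective (jO A L) := iotaV_injective (valL A L)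

theorem iotaV_toA (y : LaurentSeries ↥(valL A L)) :
    iotaV A (toA A L y) = iotaL L (jO A L y) := by
  ext n
  rfl

/-- The action of `γ ∈ Γ` on `A ∩ L`. -/
def gamO (γ : inertiaRes A L) : ↥(valL A L) →+* ↥(valL A L) where
  toFun x := ⟨γ • (x : ↥L), smul_valL_mem A L γ x x.2⟩
  map_one' := Subtype.ext (smul_one γ)
  map_mul' x y := Subtype.ext (smul_mul' γ (x : ↥L) (y : ↥L))
  map_zero' := Subtype.ext (smul_zero γ)
  map_add' x y := Subtype.ext (smul_add γ (x : ↥L) (y : ↥L))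

/-- The coefficientwise action of `γ ∈ Γ` on `(A ∩ L)((t))`. -/
def actO (γ : inertiaRes A L) : LaurentSeries ↥(valL A L) →+* LaurentSeries ↥(valL A L) :=
  coeffMap (gamO A L γ)

theorem jO_actO (γ : inertiaRes A L) (y : LaurentSeries ↥(valL A L)) :
    jO A L (actO A L γ y) = actL A L γ (jO A L y) := by
  ext n
  rfl

theorem actO_one (y : LaurentSeries ↥(valL A L)) : actO A L 1 y = y := by
  apply jO_injective A L
  rw [jO_actO, actL_one]

/-- The inertia group acts trivially on the reduction. -/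
theorem redV_toA_actO (γ : inertiaRes A L) (y : LaurentSeries ↥(valL A L)) :
    redV A (toA A L (actO A L γ y)) = redV A (toA A L y) := by
  ext n
  show resV A (inclA A L (gamO A L γ (y.coeff n))) = resV A (inclA A L (y.coeff n))
  rw [← sub_eq_zero, ← map_sub, IsLocalRing.residue_eq_zero_iff,
    ← ValuationSubring.coe_mem_nonunits_iff]
  have h := smul_sub_mem_nonunits A L γ (y.coeff n : ↥L) (y.coeff n).2
  rw [mem_valL_nonunits_iff] at h
  exact h

/-- The norm of an integral series. -/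
def NO (b : LaurentSeries ↥(valL A L)) : LaurentSeries ↥(valL A L) :=
  ∏ γ : inertiaRes A L, actO A L γ b

/-- The cofactor of an integral series in its norm. -/
def SO (b : LaurentSeries ↥(valL A L)) : LaurentSeries ↥(valL A L) :=
  ∏ γ ∈ (Finset.univ : Finset (inertiaRes A L)).erase 1, actO A L γ b

theorem mul_SO (b : LaurentSeries ↥(valL A L)) : b * SO A L b = NO A L b := by
  have h := Finset.mul_prod_erase (Finset.univ : Finset (inertiaRes A L))
    (fun γ => actO A L γ b) (Finset.mem_univ 1)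
  have h1 : actO A L 1 b = b := actO_one A L b
  rw [NO, ← h, SO, h1]

theorem jO_NO (b : LaurentSeries ↥(valL A L)) : jO A L (NO A L b) = NL A L (jO A L b) := by
  rw [NO, NL, map_prod]
  refine Finset.prod_congr rfl fun γ _ => ?_
  rw [jO_actO]

theorem redV_toA_NO (b : LaurentSeries ↥(valL A L)) :
    redV A (toA A L (NO A L b)) = redV A (toA A L b) ^ Fintype.card (inertiaRes A L) := by
  rw [NO, map_prod, map_prod]
  rw [Finset.prod_congr rfl (fun γ _ => redV_toA_actO A L γ b), Finset.prod_const,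
    Finset.card_univ]

/-- The section property of `d ∈ L` (conclusion of `exists_section_field`). -/
def IsSection (d : ↥L) : Prop :=
  ∀ a : ↥L, (a : Qbar) ∈ A →
    (((∑ γ : inertiaRes A L, γ • (d * a) : ↥L) : Qbar) ∈ A) ∧
    (((∑ γ : inertiaRes A L, γ • (d * a) : ↥L) : Qbar) - (a : Qbar)) ∈ A.nonunits

theorem exists_isSection {p : ℕ} (hp : p.Prime) (hA : A.LiesOverPrime p) :
    ∃ d : ↥L, IsSection A L d :=
  exists_section_field A L hp hA

variable {A L}

/-- The section applied to an integral series is integral with the same reduction. -/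
theorem IsSection.exists_TO {d : ↥L} (hd : IsSection A L d) (y : LaurentSeries ↥(valL A L)) :
    ∃ t : LaurentSeries ↥(valL A L), jO A L t = TL A L d (jO A L y) ∧
      redV A (toA A L t) = redV A (toA A L y) := by
  have hco : CoeffsIn (valL A L).toSubring (TL A L d (jO A L y)) := by
    intro n
    rw [TL_coeff]
    exact (hd _ (y.coeff n).2).1
  obtain ⟨t, ht⟩ := exists_iotaV_eq (valL A L) hco
  refine ⟨t, ht, ?_⟩
  ext n
  show resV A (inclA A L (t.coeff n)) = resV A (inclA A L (y.coeff n))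
  rw [← sub_eq_zero, ← map_sub, IsLocalRing.residue_eq_zero_iff,
    ← ValuationSubring.coe_mem_nonunits_iff]
  have h1 : ((t.coeff n : ↥(valL A L)) : ↥L) = (TL A L d (jO A L y)).coeff n := by
    rw [← ht]
    rfl
  have h2 := (hd _ (y.coeff n).2).2
  rw [TL_coeff] at h1
  show (((t.coeff n : ↥(valL A L)) : ↥L) : Qbar) - (((y.coeff n : ↥(valL A L)) : ↥L) : Qbar)
    ∈ A.nonunits
  rw [h1]
  exact h2

/-- **The section preserves the Gauss ring and the reduction** (norm trick). -/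
theorem IsSection.gauss {d : ↥L} (hd : IsSection A L d) (a b : LaurentSeries ↥(valL A L))
    (hb : redV A (toA A L b) ≠ 0) (x : LaurentSeries ↥L) (hx : jO A L b * x = jO A L a) :
    ∃ (h1 : iotaL L (TL A L d x) ∈ gaussRingV A) (h2 : iotaL L x ∈ gaussRingV A),
      gaussRedV A ⟨_, h1⟩ = gaussRedV A ⟨_, h2⟩ := by
  have hN : redV A (toA A L (NO A L b)) ≠ 0 := by
    rw [redV_toA_NO]
    exact pow_ne_zero _ hb
  set y : LaurentSeries ↥(valL A L) := a * SO A L b with hy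
  have e1 : jO A L (NO A L b) * x = jO A L y := by
    rw [← mul_SO, map_mul, hy, map_mul, ← hx]
    ring
  obtain ⟨t, ht, htred⟩ := hd.exists_TO y
  have hfix : ∀ γ : inertiaRes A L, actL A L γ (jO A L (NO A L b)) = jO A L (NO A L b) := by
    intro γ
    rw [jO_NO, actL_NL]
  have e2 : jO A L (NO A L b) * TL A L d x = jO A L t := by
    rw [ht, ← e1, mul_comm (jO A L (NO A L b)) x, TL_mul_fixed A L d x _ hfix, mul_comm]
  have e3 : iotaV A (toA A L (NO A L b)) * iotaL L (TL A L d x) = iotaV A (toA A L t) := by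
    rw [iotaV_toA, iotaV_toA, ← map_mul, e2]
  have e4 : iotaV A (toA A L (NO A L b)) * iotaL L x = iotaV A (toA A L y) := by
    rw [iotaV_toA, iotaV_toA, ← map_mul, e1]
  have h1 : iotaL L (TL A L d x) ∈ gaussRingV A := ⟨_, _, hN, e3⟩
  have h2 : iotaL L x ∈ gaussRingV A := ⟨_, _, hN, e4⟩
  refine ⟨h1, h2, ?_⟩
  rw [gaussRedV_eq A ⟨_, h1⟩ hN e3, gaussRedV_eq A ⟨_, h2⟩ hN e4, htred]

end Fermat.Agent.BADP.H11

end
end
-- ==== END Fermat.Agent.BADP.H11_Arith0Ser

-- ==== BEGIN Fermat.Agent.BADP.H38_EisNode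
section

set_option autoImplicit false
set_option linter.style.haveILetI false

noncomputable section

open AlgebraicCurve

attribute [local instance] Classical.propDecidable

namespace Fermat.Agent.BADP.H38

open Fermat.Agent.RED.H17 Fermat.Agent.RED Fermat.Agent.BAD Fermat.Agent.BADP
  Fermat.Agent.S15.Desc.H67

/-! ### Valuation and reduction (any constant field) -/

section Val

variable {K F k F' : Type*} [Field K] [Field F] [Algebra K F] [Field k] [Field F']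
  [Algebra k F'] {T : PRed K F k F'}

theorem nv_rd_eq_zero_of_val_lt {g : F} (h : T.V.valuation g < 1) : T.rd g = 0 := by
  have hg : g ∈ T.V := (T.V.valuation_le_one_iff g).1 h.le
  rw [T.rd_of_mem hg, T.red_eq_zero_iff]
  exact (T.V.valuation_lt_one_iff ⟨g, hg⟩).2 h

theorem nv_val_lt_of_rd_eq_zero {g : F} (hg : g ∈ T.V) (h : T.rd g = 0) :
    T.V.valuation g < 1 := by
  rw [T.rd_of_mem hg, T.red_eq_zero_iff] at h
  exact (T.V.valuation_lt_one_iff ⟨g, hg⟩).1 h

theorem nv_isGU_iff_val_eq_one {g : F} : T.IsGU g ↔ T.V.valuation g = 1 := by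
  constructor
  · rintro ⟨hg, hr⟩
    refine le_antisymm ((T.V.valuation_le_one_iff g).2 hg) ?_
    by_contra hlt
    rw [not_le] at hlt
    exact hr (nv_rd_eq_zero_of_val_lt hlt)
  · intro h
    have hg : g ∈ T.V := (T.V.valuation_le_one_iff g).1 h.le
    refine ⟨hg, fun h0 => ?_⟩
    have := nv_val_lt_of_rd_eq_zero hg h0
    rw [h] at this
    exact lt_irrefl _ this

end Val

/-! ### The value computation in the value group -/

section Gamma

variable {Γ : Type*} [LinearOrderedCommGroupWithZero Γ]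

/-- The computation in the value group. -/
theorem nv_value_identity {vf vc vC vG x : Γ} {n p : ℕ} {m d : ℤ} (hx : x ≠ 0) (hc : vc ≠ 0)
    (h1 : vc * vf = 1) (h2 : vC⁻¹ * vG = 1)
    (h3 : 1 / (vc * (x ^ n) ^ m * (vC / (x ^ n) ^ d) ^ p) = 1) :
    vf = x ^ ((n : ℤ) * (m - p * d)) * vG ^ p := by
  have hC0 : vC ≠ 0 := by
    rintro rfl
    rw [inv_zero, zero_mul] at h2
    exact zero_ne_one h2
  have hG : vG = vC := by
    have := congrArg (fun y => vC * y) h2
    simpa [← mul_assoc, mul_inv_cancel₀ hC0] using this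
  have hxn : x ^ n ≠ 0 := pow_ne_zero n hx
  have h4 : vc * (x ^ n) ^ m * (vC / (x ^ n) ^ d) ^ p = 1 := by
    rw [one_div] at h3
    exact inv_eq_one.1 h3
  have h5 : vf = (x ^ n) ^ m * (vC / (x ^ n) ^ d) ^ p := by
    have e1 : vc * vf = vc * ((x ^ n) ^ m * (vC / (x ^ n) ^ d) ^ p) := by
      rw [h1, ← mul_assoc, h4]
    exact mul_left_cancel₀ hc e1
  rw [h5, hG, mul_sub, zpow_sub₀ hx, zpow_mul, zpow_natCast, div_pow, ← zpow_natCast ((x ^ n) ^ d) p,
    ← zpow_mul, ← zpow_natCast x n, ← zpow_mul, ← zpow_mul, mul_comm d (p : ℤ), ← mul_div_assoc,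
    div_mul_eq_mul_div]

end Gamma

/-! ### One node -/

section Node

variable {K F k F₁ F₂ : Type} [Field K] [Field F] [Algebra K F] [Field k] [Field F₁]
  [Algebra k F₁] [Field F₂] [Algebra k F₂] [IsAlgClosed k]

/-- **NODE-VAL** at one node. -/
theorem nodeVal_at (S : SSD K F k F₁ F₂) (H : FFHyp K F) (H₁ : FFHyp k F₁) (H₂ : FFHyp k F₂)
    {g g₁ g₂ : ℕ} {c c₁ c₂ : ℤ} (hR : IsGenus K F g c) (hR₁ : IsGenus k F₁ g₁ c₁)
    (hR₂ : IsGenus k F₂ g₂ c₂) (hnum : g + 1 ≤ g₁ + g₂ + S.nodes.card)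
    {p : ℕ} (hchar : CharP k p) (hpK : (p : K) ≠ 0)
    (𝓘 𝓘' : Set (SemilinearAut K F)) (hI : ∀ τ ∈ 𝓘, S.IsInertial τ) (hsub : 𝓘' ⊆ 𝓘)
    (hK0 : IsK0Lift S 𝓘) (F0 : Subfield F) (hF0 : ∀ y : F, y ∈ F0 ↔ ∀ τ ∈ 𝓘, τ • y = y)
    (hval : ∀ y ∈ F0, y ≠ 0 → ∃ n : ℤ, S.c₂.V.valuation y = S.c₂.V.valuation (p : F) ^ n)
    (U : F) (w : ℕ) (hU : S.c₁.IsGU U) (hUnode : ∀ P : Place K F, S.IsNodeP P → P.ord U = 0)
    (hU₂ : S.c₂.IsGU (U / algebraMap K F ((p : K) ^ w))) (hw : ¬ p ∣ w)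
    (f : F) (hf : S.c₁.IsGU f) (hdiv : ∀ P : Place K F, (p : ℤ) ∣ P.ord f)
    (hfix : ∀ τ ∈ 𝓘', τ • f = f) {s : Place k F₁ × Place k F₂} (hs : s ∈ S.nodes) :
    ∃ (e : ℕ) (G : F) (d : ℤ), (e : ℤ) * s.1.ord (S.c₁.rd U) = w ∧
      (∀ τ ∈ 𝓘', τ • G = G) ∧ S.c₁.IsGU G ∧
      (∀ P : Place K F, S.c₁.r P = some s.1 → (p : ℤ) * P.ord G = P.ord f) ∧
      S.c₂.V.valuation f =
        S.c₂.V.valuation (p : F) ^ ((e : ℤ) * (s.1.ord (S.c₁.rd f) - p * d)) *
          S.c₂.V.valuation G ^ p := by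
  haveI : Infinite k := IsAlgClosed.instInfinite
  haveI := hchar
  -- the constant `p`
  have hpcast : algebraMap K F (p : K) = (p : F) := map_natCast _ p
  have hpV₁ : algebraMap K F (p : K) ∈ S.c₁.V := by
    rw [hpcast]
    exact S.c₁.natCast_mem_V p
  have hp0 : S.c₁.rd (algebraMap K F (p : K)) = 0 := by
    rw [hpcast, S.c₁.rd_natCast, ← map_natCast (algebraMap k F₁), CharP.cast_eq_zero, map_zero]
  have hpF0 : algebraMap K F (p : K) ∈ F0 := by
    rw [hpcast]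
    exact natCast_mem F0 p
  obtain ⟨hpV₂, hp0₂⟩ := S.rd₂_const_zero hpV₁ hp0
  have hpF_ne : (p : F) ≠ 0 := by
    rw [← hpcast]
    exact (map_ne_zero_iff _ (algebraMap K F).injective).mpr hpK
  have hvp_ne : S.c₂.V.valuation (p : F) ≠ 0 := (Valuation.ne_zero_iff _).2 hpF_ne
  have hvp_lt : S.c₂.V.valuation (p : F) < 1 := by
    rw [← hpcast]
    exact nv_val_lt_of_rd_eq_zero hpV₂ hp0₂
  -- the unit `U`
  have hw0 : 0 < w := Nat.pos_of_ne_zero fun h0 => hw (h0 ▸ dvd_zero p)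
  have hU₂' : S.c₂.IsGU (U / algebraMap K F (p : K) ^ w) := by
    rw [← map_pow]
    exact hU₂
  have hUzf : ZeroFree S s U := fun P hP => hUnode P ⟨s, hs, hP⟩
  obtain ⟨hpw₂, hpw0⟩ := rd₂_pow_unif (S := S) hpV₁ hp0 hw0
  have hpwF : algebraMap K F (p : K) ^ w ≠ 0 := by
    rw [hpcast]
    exact pow_ne_zero w hpF_ne
  have hUeq : U = algebraMap K F (p : K) ^ w * (U / algebraMap K F (p : K) ^ w) := by
    rw [mul_div_cancel₀ _ hpwF]
  have hUV₂ : U ∈ S.c₂.V := by
    rw [hUeq]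
    exact S.c₂.V.mul_mem _ _ hpw₂ hU₂'.1
  have hUr₂ : S.c₂.rd U = 0 := by
    rw [hUeq, S.c₂.rd_mul hpw₂ hU₂'.1, hpw0, zero_mul]
  have hUvan : VanAt s.1 (S.c₁.rd U) :=
    vanAt₁_of_rd₂_eq_zero hs hU.1 hUV₂ hUr₂ hUzf.poleFree
  have hUpos : 0 < s.1.ord (S.c₁.rd U) := hUvan.ord_pos hU.2
  obtain ⟨a, ha⟩ : ∃ a : ℕ, s.1.ord (S.c₁.rd U) = a :=
    ⟨(s.1.ord (S.c₁.rd U)).toNat, (Int.toNat_of_nonneg hUpos.le).symm⟩
  have ha0 : 0 < a := by
    rw [ha] at hUpos
    exact_mod_cast hUpos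
  -- (K0)
  have hK0' : ∀ u : F, u ∈ S.c₁.V → u ∈ S.c₂.V → PoleFree S s u →
      ∃ u0 ∈ F0, u0 ∈ S.c₁.V ∧ u0 ∈ S.c₂.V ∧ S.c₁.rd u0 = S.c₁.rd u ∧
        S.c₂.rd u0 = S.c₂.rd u ∧ PoleFree S s u0 := by
    intro u hu₁ hu₂ hupf
    obtain ⟨u0, hu0fix, hu0₁, hu0₂, hr₁, hr₂, hpoles⟩ := hK0 u hu₁ hu₂
    refine ⟨u0, (hF0 u0).2 hu0fix, hu0₁, hu0₂, hr₁, hr₂, fun P hP => ?_⟩
    by_contra hneg
    rw [not_le] at hneg
    obtain ⟨P', hP'₁, -, hP'lt⟩ := hpoles P hneg
    have := hupf P' (hP'₁.trans hP)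
    omega
  -- (DISC)
  have hdisc : ∀ y ∈ F0, y ∈ S.c₂.V → S.c₂.rd y = 0 → y / algebraMap K F (p : K) ∈ S.c₂.V := by
    intro y hyF hy₂ hyr
    rcases eq_or_ne y 0 with rfl | hy0
    · rw [zero_div]
      exact S.c₂.V.zero_mem
    obtain ⟨n, hn⟩ := hval y hyF hy0
    have hylt : S.c₂.V.valuation y < 1 := nv_val_lt_of_rd_eq_zero hy₂ hyr
    have hn1 : 1 ≤ n := by
      by_contra hcon
      rw [not_le] at hcon
      have hn0 : n ≤ 0 := by omega
      have h1 : 1 ≤ S.c₂.V.valuation (p : F) ^ n :=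
        one_le_zpow_of_nonpos₀ (zero_lt_iff.2 hvp_ne) hvp_lt.le hn0
      rw [← hn] at h1
      exact absurd hylt (not_lt.2 h1)
    rw [← S.c₂.V.valuation_le_one_iff, map_div₀, hn, hpcast]
    have e : S.c₂.V.valuation (p : F) ^ n / S.c₂.V.valuation (p : F) =
        S.c₂.V.valuation (p : F) ^ (n - 1) := by
      rw [zpow_sub₀ hvp_ne, zpow_one]
    rw [e]
    exact zpow_le_one₀ (zero_lt_iff.2 hvp_ne) hvp_lt.le (by omega)
  -- the annulus coordinate
  obtain ⟨t, htF0, n, hn0, hann, hna⟩ :=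
    H21.exists_isAnnCoord_of_goodLift S H H₁ H₂ hR hR₁ hR₂ hnum hs hpK hpV₁ hp0 F0 hpF0 hK0'
      hdisc hU hUzf hU₂' ha0 ha
  -- the divisor `div f / p`
  obtain ⟨Df, hDf, -⟩ := H.principal.exists_divisor f hf.ne_zero
  set D : Place K F →₀ ℤ := Df.mapRange (fun m => m / (p : ℤ)) (Int.zero_ediv _) with hDdef
  have hDP : ∀ P : Place K F, (p : ℤ) * D P = P.ord f := by
    intro P
    rw [hDdef, Finsupp.mapRange_apply, hDf P]
    exact Int.mul_ediv_cancel' (hdiv P)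
  have hpZ : (p : ℤ) ≠ 0 := by
    intro h0
    apply hpK
    have : p = 0 := by exact_mod_cast h0
    rw [this, Nat.cast_zero]
  have hDinv : ∀ τ ∈ 𝓘', ∀ P, S.c₁.r P = some s.1 → D (τ • P) = D P := by
    intro τ hτ P _
    have h1 : (p : ℤ) * D (τ • P) = (p : ℤ) * D P := by
      rw [hDP, hDP]
      conv_lhs => rw [← hfix τ hτ]
      exact SemilinearAut.ord_smul τ P f
    exact mul_left_cancel₀ hpZ h1
  obtain ⟨G, C, hC0, hGfix, -, hGord, hG₁, hG₂, hrad⟩ :=
    H97.local_node S H.principal H.deg_one hs hann 𝓘'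
      (fun τ hτ => ⟨(hI τ (hsub hτ)).r₁, (hF0 t).1 htF0 τ (hsub hτ)⟩) D hDinv
  -- the scale of `f` for `V₂`
  obtain ⟨b, hb0, hb⟩ := S.c₂.exists_isGU_scale hf.ne_zero
  have h1f : S.c₁.IsGU (algebraMap K F 1 * f) := by
    rw [map_one, one_mul]
    exact hf
  have hcu := hrad f 1 b p h1f hb (fun P hP => (hDP P).symm)
  rw [map_one, one_mul] at hcu
  set d : ℤ := ∑ P ∈ D.support.filter (fun P => S.c₁.r P = some s.1), D P with hd
  refine ⟨n, G, d, ?_, hGfix, hG₁, fun P hP => ?_, ?_⟩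
  · rw [ha]
    exact_mod_cast hna
  · rw [hGord P hP, hDP]
  · -- valuations
    have hv1 : S.c₂.V.valuation (algebraMap K F b) * S.c₂.V.valuation f = 1 := by
      rw [← map_mul]
      exact nv_isGU_iff_val_eq_one.1 hb
    have hv2 : (S.c₂.V.valuation (algebraMap K F C))⁻¹ * S.c₂.V.valuation G = 1 := by
      rw [← map_inv₀, ← map_mul, ← map_inv₀]
      exact nv_isGU_iff_val_eq_one.1 hG₂
    have hv3 := nv_isGU_iff_val_eq_one.1 hcu.isGU₂
    simp only [map_div₀, map_mul, map_pow, map_zpow₀, map_one, map_natCast] at hv3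
    have hbv : S.c₂.V.valuation (algebraMap K F b) ≠ 0 :=
      (Valuation.ne_zero_iff _).2 ((map_ne_zero_iff _ (algebraMap K F).injective).mpr hb0)
    exact nv_value_identity hvp_ne hbv hv1 hv2 hv3

end Node

/-- Leaf **(N) NODE-VAL** of EIS-ABS. -/
theorem stmt_NodeVal : Stmt_NodeVal := by
  intro K F k F₁ F₂ _ _ _ _ _ _ _ _ _ _ S H H₁ H₂ g g₁ g₂ c c₁ c₂ hR hR₁ hR₂ hnum p _ hchar hpK
    𝓘 𝓘' hI hsub hK0 F0 hF0 hval U w hU _ hUnode hU₂ hw f hf hdiv hfix
  have key : ∀ s : Place k F₁ × Place k F₂, ∃ (e : ℕ) (G : F) (d : ℤ), s ∈ S.nodes →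
      ((e : ℤ) * s.1.ord (S.c₁.rd U) = w ∧
      (∀ τ ∈ 𝓘', τ • G = G) ∧ S.c₁.IsGU G ∧
      (∀ P : Place K F, S.c₁.r P = some s.1 → (p : ℤ) * P.ord G = P.ord f) ∧
      S.c₂.V.valuation f =
        S.c₂.V.valuation (p : F) ^ ((e : ℤ) * (s.1.ord (S.c₁.rd f) - p * d)) *
          S.c₂.V.valuation G ^ p) := by
    intro s
    by_cases hs : s ∈ S.nodes
    · obtain ⟨e, G, d, h⟩ := nodeVal_at S H H₁ H₂ hR hR₁ hR₂ hnum hchar hpK 𝓘 𝓘' hI hsub hK0
        F0 hF0 hval U w hU hUnode hU₂ hw f hf hdiv hfix hs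
      exact ⟨e, G, d, fun _ => h⟩
    · exact ⟨0, 0, 0, fun h => absurd h hs⟩
  choose e G d h using key
  exact ⟨e, G, d, fun s hs => h s hs⟩

end Fermat.Agent.BADP.H38

end
end
-- ==== END Fermat.Agent.BADP.H38_EisNode

-- ==== BEGIN Fermat.Agent.BADP.H51_RayPrep
section

/-!
# S44, package RAY-ABS (helper51), part 1: invariant coordinates, invariant place at infinity

Setting: `S : SSD K F k F₁ F₂`, `𝓘` a set of inertial semilinear automorphisms.

* `SSD.IsK0Part 𝓘 u u₀` : `u₀` is an `𝓘`-invariant function, integral for both valuations, with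
  the same reductions as `u`, whose poles lie in the fibres (of the reduction maps) in which `u`
  has a pole ("`K₀`-rational part" of `u`, leaf ARITH-0).
* `isCoordA₁_k0`, `isCoordA₂_k0` : the `K₀`-part of an adapted coordinate is an adapted
  coordinate.
* `exists_fixed_place` : over every good point of the first component there is an `𝓘`-fixed
  place (the zero of an invariant coordinate).
* `fixedSub 𝓘` : the subfield of the `𝓘`-invariant functions.
* `exists_inv_coords` : a balanced non-special pair with INVARIANT adapted coordinates.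
-/

set_option autoImplicit false
set_option linter.style.haveILetI false
set_option linter.unusedSectionVars false
set_option maxHeartbeats 1000000

noncomputable section

open AlgebraicCurve

attribute [local instance] Classical.propDecidable

namespace Fermat.Agent.BADP.H51

open Fermat.Agent.RED.H17 Fermat.Agent.RED Fermat.Agent.BAD

local notation "L" => riemannRochSpace

section K0

variable {K F k F₁ F₂ : Type} [Field K] [Field F] [Algebra K F] [Field k] [Field F₁]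
  [Algebra k F₁] [Field F₂] [Algebra k F₂]

/-- `u₀` is an `𝓘`-invariant part of `u`: invariant, integral for both valuations with the same
reductions as `u`, poles only in the fibres where `u` has a pole. -/
structure IsK0Part (S : SSD K F k F₁ F₂) (𝓘 : Set (SemilinearAut K F)) (u u₀ : F) : Prop where
  fixed : ∀ τ ∈ 𝓘, τ • u₀ = u₀
  mem₁ : u₀ ∈ S.c₁.V
  mem₂ : u₀ ∈ S.c₂.V
  rd₁ : S.c₁.rd u₀ = S.c₁.rd u
  rd₂ : S.c₂.rd u₀ = S.c₂.rd u
  poles : ∀ P : Place K F, P.ord u₀ < 0 →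
    ∃ P' : Place K F, S.c₁.r P' = S.c₁.r P ∧ S.c₂.r P' = S.c₂.r P ∧ P'.ord u < 0

/-- The subfield of the `𝓘`-invariant functions. -/
def fixedSub (𝓘 : Set (SemilinearAut K F)) : Subfield F where
  carrier := {c | ∀ τ ∈ 𝓘, τ • c = c}
  mul_mem' := fun {a b} ha hb τ hτ => by rw [smul_mul', ha τ hτ, hb τ hτ]
  one_mem' := fun τ _ => smul_one τ
  add_mem' := fun {a b} ha hb τ hτ => by rw [smul_add, ha τ hτ, hb τ hτ]
  zero_mem' := fun τ _ => smul_zero τ
  neg_mem' := fun {a} ha τ hτ => by rw [smul_neg, ha τ hτ]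
  inv_mem' := fun a ha τ hτ => by rw [smul_inv'', ha τ hτ]

theorem mem_fixedSub {𝓘 : Set (SemilinearAut K F)} {c : F} :
    c ∈ fixedSub 𝓘 ↔ ∀ τ ∈ 𝓘, τ • c = c := Iff.rfl

theorem algebraMap_mem_fixedSub {𝓘 : Set (SemilinearAut K F)} {a : K}
    (ha : ∀ τ ∈ 𝓘, SemilinearAut.baseAut τ a = a) : algebraMap K F a ∈ fixedSub 𝓘 := by
  intro τ hτ
  rw [SemilinearAut.smul_algebraMap, ha τ hτ]

variable {S : SSD K F k F₁ F₂} {𝓘 : Set (SemilinearAut K F)}

namespace IsK0Part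

variable {u u₀ : F} (h : IsK0Part S 𝓘 u u₀)

include h in
theorem isGU₁ (hu : S.c₁.IsGU u) : S.c₁.IsGU u₀ := ⟨h.mem₁, by rw [h.rd₁]; exact hu.2⟩

include h in
theorem isGU₂ (hu : S.c₂.IsGU u) : S.c₂.IsGU u₀ := ⟨h.mem₂, by rw [h.rd₂]; exact hu.2⟩

include h in
/-- No pole on a fibre of the first reduction map. -/
theorem reg₁ {Q : Place k F₁} (hu : ∀ P, S.c₁.r P = some Q → 0 ≤ P.ord u) (P : Place K F)
    (hP : S.c₁.r P = some Q) : 0 ≤ P.ord u₀ := by
  by_contra hneg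
  obtain ⟨P', h1, -, h3⟩ := h.poles P (not_le.mp hneg)
  have := hu P' (by rw [h1, hP])
  omega

include h in
/-- No pole on a fibre of the second reduction map. -/
theorem reg₂ {Q : Place k F₂} (hu : ∀ P, S.c₂.r P = some Q → 0 ≤ P.ord u) (P : Place K F)
    (hP : S.c₂.r P = some Q) : 0 ≤ P.ord u₀ := by
  by_contra hneg
  obtain ⟨P', -, h2, h3⟩ := h.poles P (not_le.mp hneg)
  have := hu P' (by rw [h2, hP])
  omega

end IsK0Part

/-- A unit for both valuations without zero or pole on the fibre of a node has reductions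
without zero or pole at the two branches. -/
theorem ord_rd_node (hP : HasPrincipalDivisors K F) {s : Place k F₁ × Place k F₂}
    (hs : s ∈ S.nodes) {u : F} (h₁ : S.c₁.IsGU u) (h₂ : S.c₂.IsGU u)
    (hord : ∀ P, S.c₁.r P = some s.1 → P.ord u = 0) :
    s.1.ord (S.c₁.rd u) = 0 ∧ s.2.ord (S.c₂.rd u) = 0 := by
  have hsum := S.sum_node hP hs h₁ h₂ ⟨1, by rw [map_one, one_mul]⟩
  have hz : ∑ P ∈ (dv hP u).support, (if S.c₁.r P = some s.1 then P.ord u else 0) = 0 := by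
    refine Finset.sum_eq_zero fun P _ => ?_
    split_ifs with hPs
    · exact hord P hPs
    · rfl
  rw [hz] at hsum
  obtain ⟨a, ha1, ha2⟩ := S.glue s hs u h₁.1 h₂.1 (fun P hPs => le_of_eq (hord P hPs).symm)
  rw [← S.c₁.rd_of_mem h₁.1] at ha1
  rw [← S.c₂.rd_of_mem h₂.1] at ha2
  have e1 : 0 ≤ s.1.ord (S.c₁.rd u) := (RegAt.of_vanAt_sub ha1).ord_nonneg
  have e2 : 0 ≤ s.2.ord (S.c₂.rd u) := (RegAt.of_vanAt_sub ha2).ord_nonneg
  constructor <;> omega

/-- The `K₀`-part of a function without zero or pole on the fibres of the nodes has no zero or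
pole on the fibres of the nodes. -/
theorem IsK0Part.ord_node (hP : HasPrincipalDivisors K F) {u u₀ : F} (h : IsK0Part S 𝓘 u u₀)
    (h₁ : S.c₁.IsGU u) (h₂ : S.c₂.IsGU u) (hord : ∀ P, S.IsNodeP P → P.ord u = 0)
    (P : Place K F) (hPn : S.IsNodeP P) : P.ord u₀ = 0 := by
  obtain ⟨s, hs, hPs⟩ := hPn
  obtain ⟨o1, o2⟩ := ord_rd_node hP hs h₁ h₂ (fun P' hP' => hord P' ⟨s, hs, hP'⟩)
  refine S.ord_eq_zero_of_node hP hs (h.isGU₁ h₁) (h.isGU₂ h₂) ⟨1, by rw [map_one, one_mul]⟩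
    (fun P' hP' => h.reg₁ (fun P'' hP'' => le_of_eq (hord P'' ⟨s, hs, hP''⟩).symm) P' hP')
    ?_ ?_ hPs
  · rw [h.rd₁]; exact o1
  · rw [h.rd₂]; exact o2

/-- The `K₀`-part of an adapted coordinate (first component) is an adapted coordinate. -/
theorem isCoordA₁_k0 (hP : HasPrincipalDivisors K F) {A₁ : Finset (Place k F₁)}
    {A₂ : Finset (Place k F₂)} {s s₀ : F} {Q : Place k F₁} (hs : S.IsCoordA₁ A₁ A₂ s Q)
    (h : IsK0Part S 𝓘 s s₀) : S.IsCoordA₁ A₁ A₂ s₀ Q := by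
  obtain ⟨hc, hGU₂, ho₁, ho₂, hr₁, hr₂, hn⟩ := hs
  refine ⟨⟨hc.good, h.isGU₁ hc.isGU, fun P hPQ => h.reg₁ hc.reg P hPQ, by
    rw [h.rd₁]; exact hc.ord_one⟩, h.isGU₂ hGU₂, ?_, ?_, ?_, ?_, ?_⟩
  · intro Q' hQ' hne
    rw [h.rd₁]
    exact ho₁ Q' hQ' hne
  · intro Q' hQ'
    rw [h.rd₂]
    exact ho₂ Q' hQ'
  · intro P Q' hQ' hPQ'
    exact h.reg₁ (fun P' hP' => hr₁ P' Q' hQ' hP') P hPQ'
  · intro P Q' hQ' hPQ'
    exact h.reg₂ (fun P' hP' => hr₂ P' Q' hQ' hP') P hPQ'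
  · exact h.ord_node hP hc.isGU hGU₂ hn

/-- The `K₀`-part of an adapted coordinate (second component) is an adapted coordinate. -/
theorem isCoordA₂_k0 (hP : HasPrincipalDivisors K F) {A₁ : Finset (Place k F₁)}
    {A₂ : Finset (Place k F₂)} {s s₀ : F} {Q : Place k F₂} (hs : S.IsCoordA₂ A₁ A₂ s Q)
    (h : IsK0Part S 𝓘 s s₀) : S.IsCoordA₂ A₁ A₂ s₀ Q := by
  obtain ⟨hc, hGU₁, ho₂, ho₁, hr₁, hr₂, hn⟩ := hs
  refine ⟨⟨hc.good, h.isGU₂ hc.isGU, fun P hPQ => h.reg₂ hc.reg P hPQ, by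
    rw [h.rd₂]; exact hc.ord_one⟩, h.isGU₁ hGU₁, ?_, ?_, ?_, ?_, ?_⟩
  · intro Q' hQ' hne
    rw [h.rd₂]
    exact ho₂ Q' hQ' hne
  · intro Q' hQ'
    rw [h.rd₁]
    exact ho₁ Q' hQ'
  · intro P Q' hQ' hPQ'
    exact h.reg₁ (fun P' hP' => hr₁ P' Q' hQ' hP') P hPQ'
  · intro P Q' hQ' hPQ'
    exact h.reg₂ (fun P' hP' => hr₂ P' Q' hQ' hP') P hPQ'
  · exact h.ord_node hP hGU₁ hc.isGU hn

end K0

section Exist

variable {K F k F₁ F₂ : Type} [Field K] [Field F] [Algebra K F] [Field k] [Field F₁]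
  [Algebra k F₁] [Field F₂] [Algebra k F₂]

/-- **Invariant adapted coordinates**: a balanced non-special pair `(A₁, A₂)` (avoiding given
finite sets) with `𝓘`-invariant adapted coordinates. -/
theorem exists_inv_coords [Infinite k] (S : SSD K F k F₁ F₂) (H : FFHyp K F) (H₁ : FFHyp k F₁)
    (H₂ : FFHyp k F₂) {g g₁ g₂ : ℕ} {c c₁ c₂ : ℤ} (hR : IsGenus K F g c)
    (hR₁ : IsGenus k F₁ g₁ c₁) (hR₂ : IsGenus k F₂ g₂ c₂)
    (hnum : g + 1 ≤ g₁ + g₂ + S.nodes.card) {𝓘 : Set (SemilinearAut K F)}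
    (hK0 : ∀ u : F, u ∈ S.c₁.V → u ∈ S.c₂.V → ∃ u₀ : F, IsK0Part S 𝓘 u u₀)
    (T₁ : Finset (Place k F₁)) (T₂ : Finset (Place k F₂)) :
    ∃ (A₁ : Finset (Place k F₁)) (A₂ : Finset (Place k F₂)) (s₁ : Place k F₁ → F)
      (s₂ : Place k F₂ → F),
      Disjoint A₁ S.br₁ ∧ Disjoint A₂ S.br₂ ∧ Disjoint A₁ T₁ ∧ Disjoint A₂ T₂ ∧
      S.IsNS A₁ A₂ ∧ A₁.card + A₂.card + 1 = g₁ + g₂ + S.nodes.card ∧
      (∀ Q ∈ A₁, S.IsCoordA₁ A₁ A₂ (s₁ Q) Q) ∧ (∀ Q ∈ A₂, S.IsCoordA₂ A₁ A₂ (s₂ Q) Q) ∧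
      (∀ Q ∈ A₁, ∀ τ ∈ 𝓘, τ • s₁ Q = s₁ Q) ∧ (∀ Q ∈ A₂, ∀ τ ∈ 𝓘, τ • s₂ Q = s₂ Q) := by
  obtain ⟨A₁, A₂, s₁, s₂, hd₁, hd₂, hT₁, hT₂, hNSA, hcard, hs₁, hs₂⟩ :=
    exists_ns_coords S H H₁ H₂ hR hR₁ hR₂ hnum T₁ T₂
  have ex₁ : ∀ Q, ∃ s₀ : F, Q ∈ A₁ → IsK0Part S 𝓘 (s₁ Q) s₀ := by
    intro Q
    by_cases hQ : Q ∈ A₁
    · obtain ⟨s₀, h0⟩ := hK0 (s₁ Q) (hs₁ Q hQ).1.isGU.1 (hs₁ Q hQ).2.1.1
      exact ⟨s₀, fun _ => h0⟩
    · exact ⟨0, fun h => absurd h hQ⟩
  choose t₁ ht₁ using ex₁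
  have ex₂ : ∀ Q, ∃ s₀ : F, Q ∈ A₂ → IsK0Part S 𝓘 (s₂ Q) s₀ := by
    intro Q
    by_cases hQ : Q ∈ A₂
    · obtain ⟨s₀, h0⟩ := hK0 (s₂ Q) (hs₂ Q hQ).2.1.1 (hs₂ Q hQ).1.isGU.1
      exact ⟨s₀, fun _ => h0⟩
    · exact ⟨0, fun h => absurd h hQ⟩
  choose t₂ ht₂ using ex₂
  exact ⟨A₁, A₂, t₁, t₂, hd₁, hd₂, hT₁, hT₂, hNSA, hcard,
    fun Q hQ => isCoordA₁_k0 H.principal (hs₁ Q hQ) (ht₁ Q hQ),
    fun Q hQ => isCoordA₂_k0 H.principal (hs₂ Q hQ) (ht₂ Q hQ),
    fun Q hQ => (ht₁ Q hQ).fixed, fun Q hQ => (ht₂ Q hQ).fixed⟩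

/-- **An invariant place over a good point** of the first component: the zero of an invariant
coordinate. -/
theorem exists_fixed_place [Infinite k] (S : SSD K F k F₁ F₂) (H : FFHyp K F) (H₁ : FFHyp k F₁)
    (H₂ : FFHyp k F₂) {g g₁ g₂ : ℕ} {c c₁ c₂ : ℤ} (hR : IsGenus K F g c)
    (hR₁ : IsGenus k F₁ g₁ c₁) (hR₂ : IsGenus k F₂ g₂ c₂)
    (hnum : g + 1 ≤ g₁ + g₂ + S.nodes.card) {𝓘 : Set (SemilinearAut K F)}
    (h𝓘 : ∀ τ ∈ 𝓘, S.IsInertial τ)
    (hK0 : ∀ u : F, u ∈ S.c₁.V → u ∈ S.c₂.V → ∃ u₀ : F, IsK0Part S 𝓘 u u₀)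
    {Qinf : Place k F₁} (hQinf : Qinf ∈ S.c₁.good) :
    ∃ Pinf : Place K F, S.c₁.r Pinf = some Qinf ∧ ∀ τ ∈ 𝓘, τ • Pinf = Pinf := by
  have hd₁ : Disjoint ({Qinf} : Finset (Place k F₁)) S.br₁ :=
    Finset.disjoint_singleton_left.mpr (S.notMem_br₁ hQinf)
  have hd₂ : Disjoint (∅ : Finset (Place k F₂)) S.br₂ := Finset.disjoint_empty_left _
  obtain ⟨hco₁, -⟩ := BAD.H28.stmt_Coords K F k F₁ F₂ S H H₁ H₂ g g₁ g₂ c c₁ c₂ hR hR₁ hR₂
    hnum {Qinf} ∅ hd₁ hd₂
  obtain ⟨s, hs⟩ := hco₁ Qinf (Finset.mem_singleton_self Qinf)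
  have hs' : S.IsCoordA₁ {Qinf} ∅ s Qinf := hs
  obtain ⟨s₀, h0⟩ := hK0 s hs'.1.isGU.1 hs'.2.1.1
  have hs₀ := isCoordA₁_k0 H.principal hs' h0
  obtain ⟨Y, hY, hY1, hYu⟩ := hs₀.1.exists_zero H.principal
  refine ⟨Y, hY, fun τ hτ => ?_⟩
  by_contra hne
  have h1 : S.c₁.r (τ • Y) = some Qinf := by rw [(h𝓘 τ hτ).r₁, hY]
  have h2 := hYu (τ • Y) h1 hne
  have h3 : (τ • Y).ord (τ • s₀) = Y.ord s₀ := SemilinearAut.ord_smul τ Y s₀
  rw [h0.fixed τ hτ, h2, hY1] at h3
  exact zero_ne_one h3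

end Exist

end Fermat.Agent.BADP.H51

end
end
-- ==== END Fermat.Agent.BADP.H51_RayPrep

-- ==== BEGIN Fermat.Agent.BADP.H66_EisTame
section

set_option autoImplicit false
set_option linter.style.haveILetI false
set_option linter.unusedSectionVars false

noncomputable section

open AlgebraicCurve

namespace Fermat.Agent.BADP.H66

open Fermat.Agent.RED.H17 Fermat.Agent.RED Fermat.Agent.BAD Fermat.Agent.BADP

/-- **Arithmetic core of (T).**  `π` with `0 < π < 1` in a linearly ordered group with zero,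
`p` prime, `w` prime to `p`; at every node `s` integers `e s`, `nU s`, `nf s`, `d s`, `j s` with
`e s · nU s = w` and `X = (π ^ (p - 1)) ^ (e s · (nf s - p · d s)) · (π ^ j s) ^ p` for a value
`X` which does not depend on `s`.  Then `nf s ≡ m · nU s` modulo `p` for a fixed `m`. -/
theorem eisTame_arith {Γ₀ : Type*} [LinearOrderedCommGroupWithZero Γ₀] {ι : Type*}
    (nodes : Finset ι) {p : ℕ} (hp : p.Prime) {w : ℕ} (hw : ¬ p ∣ w)
    {π X : Γ₀} (hπ0 : 0 < π) (hπ1 : π < 1)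
    (e : ι → ℕ) (nU nf d j : ι → ℤ)
    (he : ∀ s ∈ nodes, (e s : ℤ) * nU s = w)
    (hX : ∀ s ∈ nodes, X = (π ^ (p - 1)) ^ ((e s : ℤ) * (nf s - p * d s)) * (π ^ j s) ^ p) :
    ∃ m : ℤ, ∀ s ∈ nodes, (p : ℤ) ∣ nf s - m * nU s := by
  haveI : Fact p.Prime := ⟨hp⟩
  -- the exponent of `π`
  have hA : ∀ s ∈ nodes,
      X = π ^ (((p : ℤ) - 1) * ((e s : ℤ) * (nf s - p * d s)) + p * j s) := by
    intro s hs
    rw [hX s hs, ← zpow_natCast π (p - 1), ← zpow_mul, ← zpow_natCast (π ^ j s) p, ← zpow_mul,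
      ← zpow_add₀ hπ0.ne']
    congr 1
    push_cast [Nat.cast_sub hp.one_le]
    ring
  -- the exponents agree
  have hAeq : ∀ s ∈ nodes, ∀ s' ∈ nodes,
      ((p : ℤ) - 1) * ((e s : ℤ) * (nf s - p * d s)) + p * j s =
        ((p : ℤ) - 1) * ((e s' : ℤ) * (nf s' - p * d s')) + p * j s' := by
    intro s hs s' hs'
    exact zpow_right_injective₀ hπ0 hπ1.ne ((hA s hs).symm.trans (hA s' hs'))
  -- modulo `p`
  have hmod : ∀ s ∈ nodes, ∀ s' ∈ nodes,
      ((e s : ℕ) : ZMod p) * ((nf s : ℤ) : ZMod p) = ((e s' : ℕ) : ZMod p) * ((nf s' : ℤ) : ZMod p) := by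
    intro s hs s' hs'
    have h := congrArg (fun x : ℤ => (x : ZMod p)) (hAeq s hs s' hs')
    simp only [Int.cast_add, Int.cast_mul, Int.cast_sub, Int.cast_natCast, Int.cast_one,
      CharP.cast_eq_zero, zero_mul, zero_sub, add_zero, sub_zero, neg_mul, one_mul,
      neg_inj] at h
    exact h
  have hw0 : ((w : ℕ) : ZMod p) ≠ 0 := by
    rw [Ne, ZMod.natCast_eq_zero_iff]
    exact hw
  have heU : ∀ s ∈ nodes, ((e s : ℕ) : ZMod p) * ((nU s : ℤ) : ZMod p) = (w : ZMod p) := by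
    intro s hs
    have h := congrArg (fun x : ℤ => (x : ZMod p)) (he s hs)
    simpa using h
  rcases nodes.eq_empty_or_nonempty with hemp | ⟨s₀, hs₀⟩
  · exact ⟨0, fun s hs => absurd hs (by rw [hemp]; exact Finset.notMem_empty s)⟩
  obtain ⟨m, hm⟩ := ZMod.intCast_surjective
    (((e s₀ : ℕ) : ZMod p) * ((nf s₀ : ℤ) : ZMod p) / (w : ZMod p))
  refine ⟨m, fun s hs => ?_⟩
  rw [← ZMod.intCast_zmod_eq_zero_iff_dvd, Int.cast_sub, Int.cast_mul, hm, sub_eq_zero]
  have hes : ((e s : ℕ) : ZMod p) ≠ 0 := by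
    intro h0
    apply hw0
    rw [← heU s hs, h0, zero_mul]
  have hnU : ((nU s : ℤ) : ZMod p) ≠ 0 := by
    intro h0
    apply hw0
    rw [← heU s hs, h0, mul_zero]
  have h1 := hmod s₀ hs₀ s hs
  have h2 := heU s hs
  rw [h1, ← h2]
  field_simp

section Core

variable {K F k F₁ F₂ : Type} [Field K] [Field F] [Algebra K F] [Field k] [Field F₁]
  [Algebra k F₁] [Field F₂] [Algebra k F₂]

/-- `v₂ p < 1` when the residue characteristic is `p`. -/
theorem val₂_natCast_lt_one (S : SSD K F k F₁ F₂) (p : ℕ) [CharP k p] :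
    S.c₂.V.valuation (p : F) < 1 := by
  have h0 : S.c₂.red (p : S.c₂.V) = 0 := by
    rw [map_natCast]
    have h1 : ((p : k) : k) = 0 := CharP.cast_eq_zero k p
    have h2 : ((p : ℕ) : F₂) = algebraMap k F₂ (p : k) := (map_natCast (algebraMap k F₂) p).symm
    rw [h2, h1, map_zero]
  have h3 := (S.c₂.red_eq_zero_iff _).1 h0
  have h4 := (S.c₂.V.valuation_lt_one_iff _).1 h3
  exact_mod_cast h4

/-- **(T) for one datum**, from the conclusion of (N) for the functions fixed by `𝓘1`. -/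
theorem eisTame_core (S : SSD K F k F₁ F₂) {p : ℕ} (hp : p.Prime) [CharP k p]
    (hpK : (p : K) ≠ 0) (𝓘1 : Set (SemilinearAut K F)) (F0 : Subfield F)
    {ζ : K} (hζ : IsPrimitiveRoot ζ p)
    (hval₂ : ∀ y ∈ F0, y ≠ 0 → ∃ n : ℤ, S.c₂.V.valuation y = S.c₂.V.valuation (p : F) ^ n)
    (hdesc : ∀ y : F, (∀ τ ∈ 𝓘1, τ • y = y) →
      y ∈ IntermediateField.adjoin F0 ({algebraMap K F ζ} : Set F))
    (U : F) {w : ℕ} (hw : ¬ p ∣ w) (f : F)
    (hN : ∃ (e : Place k F₁ × Place k F₂ → ℕ) (G : Place k F₁ × Place k F₂ → F)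
        (d : Place k F₁ × Place k F₂ → ℤ), ∀ s ∈ S.nodes,
        (e s : ℤ) * s.1.ord (S.c₁.rd U) = w ∧
        (∀ τ ∈ 𝓘1, τ • G s = G s) ∧ S.c₁.IsGU (G s) ∧
        (∀ P : Place K F, S.c₁.r P = some s.1 → (p : ℤ) * P.ord (G s) = P.ord f) ∧
        S.c₂.V.valuation f =
          S.c₂.V.valuation (p : F) ^ ((e s : ℤ) * (s.1.ord (S.c₁.rd f) - p * d s)) *
            S.c₂.V.valuation (G s) ^ p) :
    ∃ m : ℤ, ∀ s ∈ S.nodes, (p : ℤ) ∣ s.1.ord (S.c₁.rd f) - m * s.1.ord (S.c₁.rd U) := by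
  classical
  obtain ⟨e, G, d, hN⟩ := hN
  have hζF : IsPrimitiveRoot (algebraMap K F ζ) p :=
    hζ.map_of_injective (algebraMap K F).injective
  have hv : S.c₂.V.valuation (p : F) < 1 := val₂_natCast_lt_one S p
  have hpF : (p : F) ≠ 0 := by
    have h : ((p : ℕ) : F) = algebraMap K F (p : K) := (map_natCast (algebraMap K F) p).symm
    rw [h]
    exact (map_ne_zero (algebraMap K F)).2 hpK
  have hv0 : S.c₂.V.valuation (p : F) ≠ 0 := (Valuation.ne_zero_iff _).2 hpF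
  have hπpow := H97.val_root_sub_one_pow S.c₂.V.valuation hp hζF
  have hp1 : p - 1 ≠ 0 := Nat.sub_ne_zero_of_lt hp.one_lt
  have hπ0 : S.c₂.V.valuation (algebraMap K F ζ - 1) ≠ 0 := by
    intro h0
    rw [h0, zero_pow hp1] at hπpow
    exact hv0 hπpow.symm
  have hπ1 : S.c₂.V.valuation (algebraMap K F ζ - 1) < 1 := by
    by_contra hge
    rw [not_lt] at hge
    have h1 : (1 : S.c₂.V.ValueGroup) ≤ S.c₂.V.valuation (algebraMap K F ζ - 1) ^ (p - 1) :=
      one_le_pow₀ hge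
    rw [hπpow] at h1
    exact absurd hv (not_lt.2 h1)
  -- the values of the `G s`
  have hj : ∀ s : Place k F₁ × Place k F₂, ∃ j : ℤ, s ∈ S.nodes →
      S.c₂.V.valuation (G s) = S.c₂.V.valuation (algebraMap K F ζ - 1) ^ j := by
    intro s
    by_cases hs : s ∈ S.nodes
    · obtain ⟨-, hfix, hGU, -, -⟩ := hN s hs
      obtain ⟨j, hj⟩ := H97.val_k1 S.c₂.V.valuation hp hζF hv hv0 hval₂ (hdesc (G s) hfix)
        hGU.ne_zero
      exact ⟨j, fun _ => hj⟩
    · exact ⟨0, fun h => absurd h hs⟩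
  choose j hj using hj
  refine eisTame_arith S.nodes hp hw (zero_lt_iff.2 hπ0) hπ1 e
    (fun s => s.1.ord (S.c₁.rd U)) (fun s => s.1.ord (S.c₁.rd f)) d j
    (X := S.c₂.V.valuation f) (fun s hs => (hN s hs).1) (fun s hs => ?_)
  obtain ⟨-, -, -, -, hval⟩ := hN s hs
  rw [hval, hπpow, hj s hs]

end Core

/-- **EIS-ABS-TAME** from **NODE-VAL** (helper66). -/
theorem stmt_EisAbsTame_of (hN : H38.Stmt_NodeVal) : Stmt_EisAbsTame := by
  intro K F k F₁ F₂ _ _ _ _ _ _ _ _ _ _ S H H₁ H₂ g g₁ g₂ c c₁ c₂ hR hR₁ hR₂ hnum p hp _hp2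
    hchar hpK 𝓘 𝓘1 hI h1 hK0 F0 hF0 ζ hζ _hval₁ hval₂ hdesc _hζfix U w hU hUfix hUnode hU₂ hw
    f hf hfdiv hffix
  haveI : CharP k p := hchar
  exact eisTame_core S hp hpK 𝓘1 F0 hζ hval₂ hdesc U hw f
    (hN K F k F₁ F₂ S H H₁ H₂ g g₁ g₂ c c₁ c₂ hR hR₁ hR₂ hnum p hp hchar hpK 𝓘 𝓘1 hI h1 hK0 F0
      hF0 hval₂ U w hU hUfix hUnode hU₂ hw f hf hfdiv hffix)

end Fermat.Agent.BADP.H66

end
end
-- ==== END Fermat.Agent.BADP.H66_EisTame

-- ==== BEGIN Fermat.Agent.L.H52_RecUncond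
section

set_option autoImplicit false

open WeierstrassCurve WeierstrassCurve.Affine WeierstrassCurve.Affine.Point
open scoped WeierstrassCurve.Affine

namespace Fermat.Agent.L.H52

/-- **L-REC**, generic form. -/
theorem rec_main : Stmt_Rec :=
  stmt_Rec Fermat.Agent.Lib.FrobDensity.stmt_FD Fermat.Agent.Lib.EllFinite.stmt_main

/-- **Package B of the S44 wiring** (congruence recovery). -/
theorem recovery : Fermat.Agent.S44.Stmt_Recovery :=
  stmt_Recovery Fermat.Agent.Lib.FrobDensity.stmt_FD Fermat.Agent.Lib.EllFinite.stmt_main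

/-- `E[p]` has dimension `2` (model with non-zero discriminant). -/
theorem finrank_tors_main {W : WeierstrassCurve ℤ} {p : ℕ} [Fact p.Prime] (hΔ : W.Δ ≠ 0) :
    Module.finrank (ZMod p) (TorsQ (WQ W) p) = 2 :=
  finrank_tors Fermat.Agent.Lib.FrobDensity.stmt_FD Fermat.Agent.Lib.EllFinite.stmt_main hΔ

/-- `det ρ(c) = -1` for the complex conjugation `c`. -/
theorem det_complexConjugation_main {W : WeierstrassCurve ℤ} {p : ℕ} [Fact p.Prime]
    (hΔ : W.Δ ≠ 0) : LinearMap.det (rhoW W p complexConjugation) = -1 :=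
  det_complexConjugation Fermat.Agent.Lib.FrobDensity.stmt_FD
    Fermat.Agent.Lib.EllFinite.stmt_main hΔ

/-- Burnside for an irreducible `E[p]`, `p` odd. -/
theorem span_rhoW_main {W : WeierstrassCurve ℤ} {p : ℕ} [Fact p.Prime] (hp2 : p ≠ 2)
    (hΔ : W.Δ ≠ 0)
    (hirr : GaloisRepIsIrreducible (K := AlgebraicClosure ℚ) ℚ (WQ W).toAffine p) :
    Submodule.span (ZMod p) (Set.range (rhoW W p)) = ⊤ :=
  span_rhoW_eq_top Fermat.Agent.Lib.FrobDensity.stmt_FD Fermat.Agent.Lib.EllFinite.stmt_main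
    Fermat.Agent.L.H19.stmt_ODD hp2 hΔ hirr

end Fermat.Agent.L.H52

end
-- ==== END Fermat.Agent.L.H52_RecUncond

-- ==== BEGIN Fermat.Agent.S05.Core
section

set_option autoImplicit false

namespace Fermat.Agent.S05

open WeierstrassCurve WeierstrassCurve.Affine

namespace H5

/-- Piece B1, proved. -/
theorem E1_add {L : Type*} [Field L] [DecidableEq L] : Stmt_E1_add (L := L) :=
  H28.stmt_E1_add_of line

/-- Piece B2 (F1), proved. -/
theorem F1 {L : Type*} [Field L] [DecidableEq L] : Stmt_F1 (L := L) :=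
  H28.stmt_F1_of_line line

/-- Piece C (F2), proved. -/
theorem F2 {L : Type*} [Field L] [DecidableEq L] : Stmt_F2 (L := L) :=
  F2_of_E1_add E1_add

end H5

/-- The core theorem, given the component homomorphism. -/
theorem core_of_M1 (hM1 : ∀ (L : Type) [Field L] [DecidableEq L], Stmt_M1 (L := L)) :
    Stmt_core := by
  intro K₀ L _ _ _ _ _ A W' hyp p hodd hp c hc σ hσv hσr P hP
  rcases lt_or_eq_of_le hyp.b_le with hb | hb
  · exact core_mult (hM1 L) H5.F1 H5.F2 A W' hyp hb p hodd hp c hc σ hσv hσr P hP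
  · exact H55.coreGood (fun L _ _ => H5.F1) (fun L _ _ => H5.F2) K₀ L A W' hyp hb p hodd hp σ hσv hσr
      P hP

end Fermat.Agent.S05

end
-- ==== END Fermat.Agent.S05.Core

-- ==== BEGIN Fermat.Agent.S05.M1
section

set_option autoImplicit false

namespace Fermat.Agent.S05.M1

open WeierstrassCurve WeierstrassCurve.Affine

variable {L : Type*} [Field L]

section quot

variable {A : ValuationSubring L} {W : Affine L} (hyp : ModelHyp A W)

/-- The class of a unit of the value group in the component group, written additively. -/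
noncomputable def cls (u : (A.ValueGroup)ˣ) : Additive (CompGroup hyp) :=
  Additive.ofMul (QuotientGroup.mk u)

lemma cls_mul (u w : (A.ValueGroup)ˣ) : cls hyp (u * w) = cls hyp u + cls hyp w := rfl

lemma cls_inv (u : (A.ValueGroup)ˣ) : cls hyp u⁻¹ = - cls hyp u := rfl

lemma cls_one : cls hyp 1 = 0 := rfl

lemma cls_eq_zero_iff (u : (A.ValueGroup)ˣ) :
    cls hyp u = 0 ↔ u ∈ Subgroup.zpowers (bUnit hyp ^ 2) :=
  QuotientGroup.eq_one_iff u

lemma cls_b_add_cls_b : cls hyp (bUnit hyp) + cls hyp (bUnit hyp) = 0 := by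
  rw [← cls_mul, cls_eq_zero_iff, ← sq]
  exact Subgroup.mem_zpowers _

lemma neg_cls_b : - cls hyp (bUnit hyp) = cls hyp (bUnit hyp) :=
  neg_eq_of_add_eq_zero_left (cls_b_add_cls_b hyp)

lemma val_bUnit : ((bUnit hyp : (A.ValueGroup)ˣ) : A.ValueGroup) = A.valuation W.a₄ := rfl

lemma val_valUnit (x : L) (hx : x ≠ 0) :
    ((valUnit A x hx : (A.ValueGroup)ˣ) : A.ValueGroup) = A.valuation x := rfl

/-- A unit `u` with `|b|² < u < 1`... more precisely: an element of `⟨|b|²⟩` is `≥ 1` or `≤ |b|²`. -/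
lemma mem_zpowers_cases (hb : A.valuation W.a₄ < 1) {u : (A.ValueGroup)ˣ}
    (hu : u ∈ Subgroup.zpowers (bUnit hyp ^ 2)) :
    (1 : A.ValueGroup) ≤ u ∨ (u : A.ValueGroup) ≤ A.valuation W.a₄ ^ 2 := by
  obtain ⟨k, rfl⟩ := Subgroup.mem_zpowers_iff.1 hu
  have hb0 : (0 : A.ValueGroup) < A.valuation W.a₄ ^ 2 :=
    pow_pos (zero_lt_iff.2 (by simpa using hyp.b_ne)) 2
  have hb1 : A.valuation W.a₄ ^ 2 ≤ 1 := pow_le_one₀ zero_le hb.le
  have hval : (((bUnit hyp ^ 2) ^ k : (A.ValueGroup)ˣ) : A.ValueGroup) =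
      (A.valuation W.a₄ ^ 2) ^ k := by
    rw [Units.val_zpow_eq_zpow_val, Units.val_pow_eq_pow_val, val_bUnit]
  rw [hval]
  rcases le_or_gt k 0 with hk | hk
  · exact Or.inl (one_le_zpow_of_nonpos₀ hb0 hb1 hk)
  · right
    obtain ⟨n, rfl⟩ : ∃ n : ℕ, k = n + 1 := ⟨(k - 1).toNat, by omega⟩
    rw [zpow_add_one₀ hb0.ne', zpow_natCast]
    calc (A.valuation W.a₄ ^ 2) ^ n * A.valuation W.a₄ ^ 2
        ≤ 1 * A.valuation W.a₄ ^ 2 := by
          gcongr
          exact pow_le_one₀ zero_le hb1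
      _ = A.valuation W.a₄ ^ 2 := one_mul _

include hyp in
lemma b_sq_lt_b (hb : A.valuation W.a₄ < 1) : A.valuation W.a₄ ^ 2 < A.valuation W.a₄ := by
  have hb0 : (0 : A.ValueGroup) < A.valuation W.a₄ := zero_lt_iff.2 (by simpa using hyp.b_ne)
  calc A.valuation W.a₄ ^ 2 = A.valuation W.a₄ * A.valuation W.a₄ := sq _
    _ < A.valuation W.a₄ * 1 := by gcongr
    _ = A.valuation W.a₄ := mul_one _

lemma cls_b_ne_zero (hb : A.valuation W.a₄ < 1) : cls hyp (bUnit hyp) ≠ 0 := by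
  intro h
  rcases mem_zpowers_cases hyp hb ((cls_eq_zero_iff hyp _).1 h) with h1 | h1
  · rw [val_bUnit] at h1; exact absurd hb (not_lt.2 h1)
  · rw [val_bUnit] at h1; exact absurd (b_sq_lt_b hyp hb) (not_lt.2 h1)

lemma cls_ne_zero_of_mid (hb : A.valuation W.a₄ < 1) {u : (A.ValueGroup)ˣ}
    (h1 : A.valuation W.a₄ < (u : A.ValueGroup)) (h2 : (u : A.ValueGroup) < 1) :
    cls hyp u ≠ 0 := by
  intro h
  rcases mem_zpowers_cases hyp hb ((cls_eq_zero_iff hyp _).1 h) with h3 | h3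
  · exact absurd h2 (not_lt.2 h3)
  · exact absurd (lt_trans (lt_of_le_of_lt h3 (b_sq_lt_b hyp hb)) h1) (lt_irrefl _)

end quot


section map

variable {A : ValuationSubring L} {W : Affine L} (hyp : ModelHyp A W) (β : L)

open Classical in
/-- The component map. -/
noncomputable def compMap : W.Point → Additive (CompGroup hyp)
  | .zero => 0
  | .some x y _ =>
    if hx : x = 0 then cls hyp (bUnit hyp)
    else if 1 ≤ A.valuation x then 0
    else if A.valuation x ≤ A.valuation W.a₄ then cls hyp (bUnit hyp)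
    else if A.valuation (y - β * x) < A.valuation x then cls hyp (valUnit A x hx)
    else - cls hyp (valUnit A x hx)

lemma compMap_zero : compMap hyp β (0 : W.Point) = 0 := rfl

lemma compMap_of_one_le {x y : L} (h : W.Nonsingular x y) (hx : 1 ≤ A.valuation x) :
    compMap hyp β (.some x y h) = 0 := by
  have hx0 : x ≠ 0 := by
    rintro rfl
    rw [map_zero] at hx
    exact absurd hx (not_le.2 zero_lt_one)
  simp only [compMap, dif_neg hx0, if_pos hx]

lemma compMap_of_le_b (hb : A.valuation W.a₄ < 1) {x y : L} (h : W.Nonsingular x y)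
    (hx : A.valuation x ≤ A.valuation W.a₄) :
    compMap hyp β (.some x y h) = cls hyp (bUnit hyp) := by
  by_cases hx0 : x = 0
  · simp only [compMap, dif_pos hx0]
  · have h1 : ¬ 1 ≤ A.valuation x := not_le.2 (lt_of_le_of_lt hx hb)
    simp only [compMap, dif_neg hx0, if_neg h1, if_pos hx]

lemma compMap_of_Cp {x y : L} (h : W.Nonsingular x y) (hx0 : x ≠ 0)
    (hxb : A.valuation W.a₄ < A.valuation x) (hx1 : A.valuation x < 1)
    (ht : A.valuation (y - β * x) < A.valuation x) :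
    compMap hyp β (.some x y h) = cls hyp (valUnit A x hx0) := by
  simp only [compMap, dif_neg hx0, if_neg (not_le.2 hx1), if_neg (not_le.2 hxb), if_pos ht]

lemma compMap_of_not_Cp {x y : L} (h : W.Nonsingular x y) (hx0 : x ≠ 0)
    (hxb : A.valuation W.a₄ < A.valuation x) (hx1 : A.valuation x < 1)
    (ht : ¬ A.valuation (y - β * x) < A.valuation x) :
    compMap hyp β (.some x y h) = - cls hyp (valUnit A x hx0) := by
  simp only [compMap, dif_neg hx0, if_neg (not_le.2 hx1), if_neg (not_le.2 hxb), if_neg ht]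


end map

/-! ### The middle region -/

section mid

variable {A : ValuationSubring L} {W : Affine L} (hyp : ModelHyp A W)

include hyp

lemma val_a (hb : A.valuation W.a₄ < 1) : A.valuation W.a₂ = 1 :=
  H4.val_a_eq_one _ hyp.two hb hyp.disc

lemma val_β (hb : A.valuation W.a₄ < 1) {β : L} (hβ : β ^ 2 = W.a₂) : A.valuation β = 1 := by
  apply H4.val_eq_one_of_sq
  rw [hβ]
  exact val_a hyp hb

lemma mid_or (_hb : A.valuation W.a₄ < 1) {β : L} (hβ : β ^ 2 = W.a₂) {x y : L}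
    (h : W.Nonsingular x y) (hxb : A.valuation W.a₄ < A.valuation x) (hx1 : A.valuation x < 1) :
    A.valuation (y - β * x) < A.valuation x ∨ A.valuation (y + β * x) < A.valuation x := by
  have e := (legendre_equation_iff hyp.a₁ hyp.a₃ hyp.a₆ x y).1 h.1
  have hxpos : 0 < A.valuation x := lt_of_le_of_lt zero_le hxb
  have key : (y - β * x) * (y + β * x) = x * (x ^ 2 + W.a₄) := by
    linear_combination e - x ^ 2 * hβ
  have h1 : A.valuation (x ^ 2 + W.a₄) < A.valuation x := by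
    apply (A.valuation).map_add_lt _ hxb
    rw [map_pow, sq]
    calc A.valuation x * A.valuation x < A.valuation x * 1 := by gcongr
      _ = A.valuation x := mul_one _
  have h2 : A.valuation (y - β * x) * A.valuation (y + β * x) < A.valuation x * A.valuation x := by
    rw [← map_mul, key, map_mul]
    gcongr
  by_contra hcon
  simp only [not_or, not_lt] at hcon
  exact absurd h2 (not_lt.2 (mul_le_mul' hcon.1 hcon.2))

lemma mid_not_both (hb : A.valuation W.a₄ < 1) {β : L} (hβ : β ^ 2 = W.a₂) {x y : L}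
    (_hx0 : x ≠ 0)
    (h1 : A.valuation (y - β * x) < A.valuation x) (h2 : A.valuation (y + β * x) < A.valuation x) :
    False := by
  have e : 2 * β * x = (y + β * x) - (y - β * x) := by ring
  have h3 : A.valuation (2 * β * x) < A.valuation x := by
    rw [e]; exact (A.valuation).map_sub_lt h2 h1
  rw [map_mul, map_mul, hyp.two, val_β hyp hb hβ, one_mul, one_mul] at h3
  exact lt_irrefl _ h3

end mid

/-! ### Translation by `T` -/

section translate

variable [DecidableEq L] {A : ValuationSubring L} {W : Affine L} (hyp : ModelHyp A W)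

/-- The point `T = (0,0)`. -/
noncomputable def ptT : W.Point :=
  .some 0 0 (derived_nonsingular_T hyp.a₆ hyp.b_ne)

lemma ptT_add_ptT : ptT hyp + ptT hyp = 0 :=
  derived_T_add_T hyp.a₁ hyp.a₃ _

lemma add_ptT_add_ptT (P : W.Point) : P + ptT hyp + ptT hyp = P := by
  rw [add_assoc, ptT_add_ptT, add_zero]

omit [DecidableEq L] in
lemma some_eq_ptT {y : L} (h : W.Nonsingular 0 y) : Point.some 0 y h = ptT hyp := by
  have hy : y = 0 := derived_y_eq_zero_of_x_eq_zero hyp.a₁ hyp.a₃ hyp.a₆ h.1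
  subst hy
  rfl

omit [DecidableEq L] in
lemma compMap_ptT (β : L) : compMap hyp β (ptT hyp) = cls hyp (bUnit hyp) := by
  simp only [ptT, compMap, dif_pos]

omit [DecidableEq L] in
lemma valUnit_div (x : L) (hx : x ≠ 0) (hbx : W.a₄ / x ≠ 0) :
    valUnit A (W.a₄ / x) hbx = bUnit hyp * (valUnit A x hx)⁻¹ := by
  apply Units.ext
  rw [Units.val_mul, Units.val_inv_eq_inv_val, val_valUnit, val_valUnit, val_bUnit, map_div₀,
    div_eq_mul_inv]

/-- `φ(P + T) = φ(P) + [|b|]`. -/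
lemma compMap_add_ptT (hb : A.valuation W.a₄ < 1) {β : L} (hβ : β ^ 2 = W.a₂) (P : W.Point) :
    compMap hyp β (P + ptT hyp) = compMap hyp β P + cls hyp (bUnit hyp) := by
  rcases P with _ | ⟨x, y, h⟩
  · rw [show (Point.zero : W.Point) = 0 from rfl, zero_add, compMap_ptT, compMap_zero, zero_add]
  by_cases hx0 : x = 0
  · subst hx0
    rw [some_eq_ptT hyp h, ptT_add_ptT, compMap_ptT, compMap_zero, cls_b_add_cls_b]
  obtain ⟨h', hadd⟩ := M1_addT W hyp.a₁ hyp.a₃ hyp.a₆ (derived_nonsingular_T hyp.a₆ hyp.b_ne)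
    x y h hx0
  have hsum : Point.some x y h + ptT hyp = Point.some _ _ h' := hadd
  rw [hsum]
  have hxpos : 0 < A.valuation x := zero_lt_iff.2 (by simpa using hx0)
  have hbpos : 0 < A.valuation W.a₄ := zero_lt_iff.2 (by simpa using hyp.b_ne)
  have hbx0 : W.a₄ / x ≠ 0 := div_ne_zero hyp.b_ne hx0
  have hvx' : A.valuation (W.a₄ / x) = A.valuation W.a₄ / A.valuation x := map_div₀ _ _ _
  rcases le_or_gt 1 (A.valuation x) with hx1 | hx1
  · -- `P ∈ E₀`
    rw [compMap_of_one_le hyp β h hx1, zero_add]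
    apply compMap_of_le_b hyp β hb
    rw [hvx', div_le_iff₀ hxpos]
    calc A.valuation W.a₄ = A.valuation W.a₄ * 1 := (mul_one _).symm
      _ ≤ A.valuation W.a₄ * A.valuation x := by gcongr
  rcases le_or_gt (A.valuation x) (A.valuation W.a₄) with hxb | hxb
  · -- `P ∈ T + E₀`
    rw [compMap_of_le_b hyp β hb h hxb, cls_b_add_cls_b]
    apply compMap_of_one_le
    rw [hvx', one_le_div₀ hxpos]
    exact hxb
  -- middle region
  have hx'b : A.valuation W.a₄ < A.valuation (W.a₄ / x) := by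
    rw [hvx', lt_div_iff₀ hxpos]
    calc A.valuation W.a₄ * A.valuation x < A.valuation W.a₄ * 1 := by gcongr
      _ = A.valuation W.a₄ := mul_one _
  have hx'1 : A.valuation (W.a₄ / x) < 1 := by
    rw [hvx', div_lt_one₀ hxpos]
    exact hxb
  have hfac : A.valuation (W.a₄ / x ^ 2) * A.valuation x = A.valuation (W.a₄ / x) := by
    rw [← map_mul]
    congr 1
    field_simp
  by_cases ht : A.valuation (y - β * x) < A.valuation x
  · -- `P ∈ C₊`, so `P + T ∈ C₋`
    have ht' : A.valuation (-(W.a₄ * y / x ^ 2) + β * (W.a₄ / x)) < A.valuation (W.a₄ / x) := by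
      have e : -(W.a₄ * y / x ^ 2) + β * (W.a₄ / x) = -((W.a₄ / x ^ 2) * (y - β * x)) := by
        field_simp
        ring
      rw [e, Valuation.map_neg, map_mul, ← hfac]
      have : 0 < A.valuation (W.a₄ / x ^ 2) :=
        zero_lt_iff.2 (by simpa using div_ne_zero hyp.b_ne (pow_ne_zero 2 hx0))
      gcongr
    have hnot : ¬ A.valuation (-(W.a₄ * y / x ^ 2) - β * (W.a₄ / x)) < A.valuation (W.a₄ / x) :=
      fun hcon => mid_not_both hyp hb hβ hbx0 hcon ht'
    rw [compMap_of_Cp hyp β h hx0 hxb hx1 ht, compMap_of_not_Cp hyp β h' hbx0 hx'b hx'1 hnot,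
      valUnit_div hyp x hx0 hbx0, cls_mul, cls_inv, neg_add, neg_neg, neg_cls_b, add_comm]
  · -- `P ∈ C₋`, so `P + T ∈ C₊`
    have ht2 : A.valuation (y + β * x) < A.valuation x :=
      (mid_or hyp hb hβ h hxb hx1).resolve_left ht
    have ht' : A.valuation (-(W.a₄ * y / x ^ 2) - β * (W.a₄ / x)) < A.valuation (W.a₄ / x) := by
      have e : -(W.a₄ * y / x ^ 2) - β * (W.a₄ / x) = -((W.a₄ / x ^ 2) * (y + β * x)) := by
        field_simp
        ring
      rw [e, Valuation.map_neg, map_mul, ← hfac]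
      have : 0 < A.valuation (W.a₄ / x ^ 2) :=
        zero_lt_iff.2 (by simpa using div_ne_zero hyp.b_ne (pow_ne_zero 2 hx0))
      gcongr
    rw [compMap_of_not_Cp hyp β h hx0 hxb hx1 ht, compMap_of_Cp hyp β h' hbx0 hx'b hx'1 ht',
      valUnit_div hyp x hx0 hbx0, cls_mul, cls_inv, add_comm]

/-- Every point lies in `X = E₀ ∪ C₊` or in `X + T`. -/
lemma mem_X_or (hb : A.valuation W.a₄ < 1) {β : L} (hβ : β ^ 2 = W.a₂) (P : W.Point) :
    (InE0 A P ∨ InCp A β P) ∨ (InE0 A (P + ptT hyp) ∨ InCp A β (P + ptT hyp)) := by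
  rcases P with _ | ⟨x, y, h⟩
  · exact Or.inl (Or.inl trivial)
  by_cases hx0 : x = 0
  · subst hx0
    right; left
    rw [some_eq_ptT hyp h, ptT_add_ptT]
    trivial
  obtain ⟨h', hadd⟩ := M1_addT W hyp.a₁ hyp.a₃ hyp.a₆ (derived_nonsingular_T hyp.a₆ hyp.b_ne)
    x y h hx0
  have hsum : Point.some x y h + ptT hyp = Point.some _ _ h' := hadd
  have hxpos : 0 < A.valuation x := zero_lt_iff.2 (by simpa using hx0)
  have hvx' : A.valuation (W.a₄ / x) = A.valuation W.a₄ / A.valuation x := map_div₀ _ _ _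
  rcases le_or_gt 1 (A.valuation x) with hx1 | hx1
  · exact Or.inl (Or.inl hx1)
  rcases le_or_gt (A.valuation x) (A.valuation W.a₄) with hxb | hxb
  · right; left
    rw [hsum]
    show 1 ≤ A.valuation (W.a₄ / x)
    rw [hvx', one_le_div₀ hxpos]
    exact hxb
  by_cases ht : A.valuation (y - β * x) < A.valuation x
  · exact Or.inl (Or.inr ⟨hxb, hx1, ht⟩)
  · right; right
    rw [hsum]
    have ht2 : A.valuation (y + β * x) < A.valuation x :=
      (mid_or hyp hb hβ h hxb hx1).resolve_left ht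
    have hfac : A.valuation (W.a₄ / x ^ 2) * A.valuation x = A.valuation (W.a₄ / x) := by
      rw [← map_mul]
      congr 1
      field_simp
    refine ⟨?_, ?_, ?_⟩
    · rw [hvx', lt_div_iff₀ hxpos]
      calc A.valuation W.a₄ * A.valuation x < A.valuation W.a₄ * 1 := by
            have hbpos : 0 < A.valuation W.a₄ := zero_lt_iff.2 (by simpa using hyp.b_ne)
            gcongr
        _ = A.valuation W.a₄ := mul_one _
    · rw [hvx', div_lt_one₀ hxpos]
      exact hxb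
    · have e : -(W.a₄ * y / x ^ 2) - β * (W.a₄ / x) = -((W.a₄ / x ^ 2) * (y + β * x)) := by
        field_simp
        ring
      rw [e, Valuation.map_neg, map_mul, ← hfac]
      have : 0 < A.valuation (W.a₄ / x ^ 2) :=
        zero_lt_iff.2 (by simpa using div_ne_zero hyp.b_ne (pow_ne_zero 2 hx0))
      gcongr

end translate

/-! ### Additivity -/

section additivity

variable [DecidableEq L] {A : ValuationSubring L} {W : Affine L} (hyp : ModelHyp A W)

omit [DecidableEq L] in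
lemma compMap_of_InE0 (β : L) {P : W.Point} (h : InE0 A P) : compMap hyp β P = 0 := by
  rcases P with _ | ⟨x, y, hns⟩
  · rfl
  · exact compMap_of_one_le hyp β hns h

omit [DecidableEq L] in
lemma compMap_of_InET (hb : A.valuation W.a₄ < 1) (β : L) {P : W.Point} (h : InET A P) :
    compMap hyp β P = cls hyp (bUnit hyp) := by
  rcases P with _ | ⟨x, y, hns⟩
  · exact h.elim
  · exact compMap_of_le_b hyp β hb hns h

omit [DecidableEq L] in
lemma compMap_of_InCp (β : L) {P : W.Point} (h : InCp A β P) :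
    ∃ u : (A.ValueGroup)ˣ, (u : A.ValueGroup) = xVal A P ∧ compMap hyp β P = cls hyp u := by
  rcases P with _ | ⟨x, y, hns⟩
  · exact h.elim
  · obtain ⟨h1, h2, h3⟩ := h
    have hx0 : x ≠ 0 := by
      rintro rfl
      rw [map_zero] at h1
      exact absurd h1 (not_lt.2 zero_le)
    exact ⟨valUnit A x hx0, rfl, compMap_of_Cp hyp β hns hx0 h1 h2 h3⟩

omit [DecidableEq L] in
lemma compMap_of_InCm (hb : A.valuation W.a₄ < 1) {β : L} (hβ : β ^ 2 = W.a₂) {P : W.Point}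
    (h : InCm A β P) :
    ∃ u : (A.ValueGroup)ˣ, (u : A.ValueGroup) = xVal A P ∧ compMap hyp β P = - cls hyp u := by
  rcases P with _ | ⟨x, y, hns⟩
  · exact h.elim
  · obtain ⟨h1, h2, h3⟩ := h
    have hx0 : x ≠ 0 := by
      rintro rfl
      rw [map_zero] at h1
      exact absurd h1 (not_lt.2 zero_le)
    have hnot : ¬ A.valuation (y - β * x) < A.valuation x :=
      fun hcon => mid_not_both hyp hb hβ hx0 hcon h3
    exact ⟨valUnit A x hx0, rfl, compMap_of_not_Cp hyp β hns hx0 h1 h2 hnot⟩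

/-- Additivity on `X × X`, `X = E₀ ∪ C₊`. -/
lemma compMap_add_X (h1 : Stmt_M1_E0E0 (L := L)) (h2 : Stmt_M1_E0Cp (L := L))
    (hb : A.valuation W.a₄ < 1) {β : L} (hβ : β ^ 2 = W.a₂) (P Q : W.Point)
    (hP : InE0 A P ∨ InCp A β P) (hQ : InE0 A Q ∨ InCp A β Q) :
    compMap hyp β (P + Q) = compMap hyp β P + compMap hyp β Q := by
  have key : ∀ P Q : W.Point, InE0 A P → InCp A β Q →
      compMap hyp β (P + Q) = compMap hyp β P + compMap hyp β Q := by
    intro P Q hP hQ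
    obtain ⟨hc, hv⟩ := h2 A W hyp hb β hβ P Q hP hQ
    obtain ⟨u, hu, eu⟩ := compMap_of_InCp hyp β hc
    obtain ⟨w, hw, ew⟩ := compMap_of_InCp hyp β hQ
    have huw : u = w := Units.ext (hu.trans (hv.trans hw.symm))
    rw [eu, ew, compMap_of_InE0 hyp β hP, zero_add, huw]
  rcases hP with hP | hP <;> rcases hQ with hQ | hQ
  · rw [compMap_of_InE0 hyp β (h1 A W hyp hb P Q hP hQ), compMap_of_InE0 hyp β hP,
      compMap_of_InE0 hyp β hQ, add_zero]
  · exact key P Q hP hQ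
  · rw [add_comm P Q, key Q P hQ hP, add_comm]
  · obtain ⟨c1, c2, c3⟩ := M1_CpCp A W hyp hb β hβ P Q hP hQ
    obtain ⟨u, hu, eu⟩ := compMap_of_InCp hyp β hP
    obtain ⟨w, hw, ew⟩ := compMap_of_InCp hyp β hQ
    rw [eu, ew, ← cls_mul]
    rcases lt_trichotomy (A.valuation W.a₄) (xVal A P * xVal A Q) with h | h | h
    · obtain ⟨hc, hv⟩ := c1 h
      obtain ⟨z, hz, ez⟩ := compMap_of_InCp hyp β hc
      have : z = u * w := Units.ext (by rw [hz, hv, Units.val_mul, hu, hw])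
      rw [ez, this]
    · have hET := c3 h.symm
      rw [compMap_of_InET hyp hb β hET]
      have : bUnit hyp = u * w := Units.ext (by rw [val_bUnit, h, Units.val_mul, hu, hw])
      rw [this]
    · obtain ⟨hc, hv⟩ := c2 h
      obtain ⟨z, hz, ez⟩ := compMap_of_InCm hyp hb hβ hc
      have : z * (u * w) = bUnit hyp ^ 2 :=
        Units.ext (by rw [Units.val_mul, Units.val_mul, hz, hu, hw, hv, Units.val_pow_eq_pow_val,
          val_bUnit])
      have h0 : cls hyp z + cls hyp (u * w) = 0 := by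
        rw [← cls_mul, this, cls_eq_zero_iff]
        exact Subgroup.mem_zpowers _
      rw [ez]
      exact neg_eq_of_add_eq_zero_right h0

/-- Additivity of the component map. -/
lemma compMap_add (h1 : Stmt_M1_E0E0 (L := L)) (h2 : Stmt_M1_E0Cp (L := L))
    (hb : A.valuation W.a₄ < 1) {β : L} (hβ : β ^ 2 = W.a₂) (P Q : W.Point) :
    compMap hyp β (P + Q) = compMap hyp β P + compMap hyp β Q := by
  have hT := compMap_add_ptT hyp hb hβ
  have hbb := cls_b_add_cls_b hyp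
  rcases mem_X_or hyp hb hβ P with hP | hP <;> rcases mem_X_or hyp hb hβ Q with hQ | hQ
  · exact compMap_add_X hyp h1 h2 hb hβ P Q hP hQ
  · have e : P + Q = (P + (Q + ptT hyp)) + ptT hyp := by
      rw [← add_assoc, add_ptT_add_ptT]
    have h3 := compMap_add_X hyp h1 h2 hb hβ P (Q + ptT hyp) hP hQ
    rw [e, hT, h3, hT, add_assoc, add_assoc, hbb, add_zero]
  · have e : P + Q = ((P + ptT hyp) + Q) + ptT hyp := by
      rw [add_right_comm P (ptT hyp) Q, add_ptT_add_ptT]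
    have h3 := compMap_add_X hyp h1 h2 hb hβ (P + ptT hyp) Q hP hQ
    rw [e, hT, h3, hT, add_right_comm (compMap hyp β P), add_assoc, hbb, add_zero]
  · have e : P + Q = (P + ptT hyp) + (Q + ptT hyp) := by
      rw [add_add_add_comm, ptT_add_ptT, add_zero]
    have h3 := compMap_add_X hyp h1 h2 hb hβ (P + ptT hyp) (Q + ptT hyp) hP hQ
    rw [e, h3, hT, hT, add_add_add_comm, hbb, add_zero]

omit [DecidableEq L] in
/-- The kernel of the component map is `E₀`. -/
lemma compMap_eq_zero_iff (hb : A.valuation W.a₄ < 1) {β : L} (P : W.Point) :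
    compMap hyp β P = 0 ↔ InE0 A P := by
  refine ⟨fun h => ?_, compMap_of_InE0 hyp β⟩
  rcases P with _ | ⟨x, y, hns⟩
  · trivial
  show 1 ≤ A.valuation x
  by_contra hx1
  rw [not_le] at hx1
  rcases le_or_gt (A.valuation x) (A.valuation W.a₄) with hxb | hxb
  · rw [compMap_of_le_b hyp β hb hns hxb] at h
    exact cls_b_ne_zero hyp hb h
  have hx0 : x ≠ 0 := by
    rintro rfl
    rw [map_zero] at hxb
    exact absurd hxb (not_lt.2 zero_le)
  have hne : cls hyp (valUnit A x hx0) ≠ 0 := cls_ne_zero_of_mid hyp hb hxb hx1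
  by_cases ht : A.valuation (y - β * x) < A.valuation x
  · rw [compMap_of_Cp hyp β hns hx0 hxb hx1 ht] at h
    exact hne h
  · rw [compMap_of_not_Cp hyp β hns hx0 hxb hx1 ht, neg_eq_zero] at h
    exact hne h

end additivity

/-- Piece D (M1), assuming the two remaining case lemmas. -/
theorem M1_of_cases [DecidableEq L] (h1 : Stmt_M1_E0E0 (L := L)) (h2 : Stmt_M1_E0Cp (L := L)) :
    Stmt_M1 (L := L) := by
  intro A W hyp hb β hβ
  refine ⟨AddMonoidHom.mk' (compMap hyp β) (compMap_add hyp h1 h2 hb hβ), ?_, ?_⟩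
  · intro P
    exact compMap_eq_zero_iff hyp hb P
  · intro x y h hx0 hxb hx1 ht
    exact compMap_of_Cp hyp β h hx0 hxb hx1 ht

end Fermat.Agent.S05.M1

end
-- ==== END Fermat.Agent.S05.M1
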