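-- GENERATED (merged mirror, NOTES/tools/trim/merge3_helper67.py): 6 modules of the originals, bodies verbatim.
import Fermat.Prelude.Def_FreyPackage_DetCyclotomic
import Fermat.Agent.Zm.S44_L04_000
import Fermat.Agent.Zm.S35_L06_002
import Fermat.Agent.Zm.S44_L01_002
import Fermat.Agent.Zm.S44_L02_001
import Fermat.Agent.Zm.S35_L13_002
import Fermat.Agent.Zm.S35_L14_002
import Fermat.Agent.Zm.S35_L11_001
import Fermat.Agent.Zm.S44_L04_001
import Fermat.Agent.Zm.S44_L03_001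
import Fermat.Agent.Zm.S35_L01_003
import Fermat.Agent.Zm.S44_L02_002

-- ==== BEGIN Fermat.Agent.BADP.H11_Arith0Adapt
section

/-!
# S44 BADP, leaf ARITH-0 (helper11), part 5: adapted number fields and the section on `F_N · ℚ̄`

* `Adapted A L x` : the series `x ∈ ℚ̄((t))` is `e · a / b` with `e ∈ L` and `a, b ∈ (A ∩ L)((t))`
  primitive.
* `exists_adapted` : every element of `F_N · ℚ̄` is adapted to every finite normal `L` containing a
  suitable finite set.
* `Adapted.section_gauss` : for `x` adapted to `L`, a section `d` and a constant `c` fixed by the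
  inertia group with `c x` in the Gauss ring: `c · T x` is in the Gauss ring with the same
  reduction, where `T x = ∑_γ γ̃ (d x)` (`Tser`).
-/

set_option autoImplicit false
set_option linter.style.haveILetI false
set_option linter.unusedSectionVars false

noncomputable section

namespace Fermat.Agent.BADP.H11

open ModularCurve Fermat.Agent.S28 Fermat.Agent.S28.H73 Fermat.Agent.RED.H73

open scoped Classical

local notation "Qbar" => AlgebraicClosure ℚ

/-- `C c` is in the Gauss ring iff `c ∈ A`. -/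
theorem C_mem_gaussRingV_iff (A : ValuationSubring Qbar) (c : Qbar) :
    (HahnSeries.C c : LaurentSeries Qbar) ∈ gaussRingV A ↔ c ∈ A := by
  constructor
  · intro hm
    by_cases hc0 : c = 0
    · rw [hc0]; exact A.zero_mem
    rcases A.mem_or_inv_mem c with hc | hc
    · exact hc
    · by_cases hr : gaussRedV A ⟨HahnSeries.C c, hm⟩ = 0
      · exfalso
        have h1 : gaussRedV A (⟨HahnSeries.C c, hm⟩ * ⟨HahnSeries.C c⁻¹, C_mem_gaussRingV A hc⟩)
            = 1 := by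
          have e : (⟨HahnSeries.C c, hm⟩ * ⟨HahnSeries.C c⁻¹, C_mem_gaussRingV A hc⟩
              : gaussRingV A) = 1 := by
            apply Subtype.ext
            show (HahnSeries.C c : LaurentSeries Qbar) * HahnSeries.C c⁻¹ = 1
            rw [C_inv', mul_inv_cancel₀ (C_ne_zero' hc0)]
          rw [e, map_one]
        rw [map_mul, hr, zero_mul] at h1
        exact zero_ne_one h1
      · exact ((gaussUnit_C_iff A).1 (gaussUnit_of_gaussRedV_ne_zero A hm hr)).1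
  · exact C_mem_gaussRingV A

variable (A : ValuationSubring Qbar) (L : IntermediateField ℚ Qbar)
  [FiniteDimensional ℚ L] [Normal ℚ L]

/-- A series with coefficients in `L` comes from `L((t))`. -/
theorem exists_iotaL_eq {f : LaurentSeries Qbar} (hf : ∀ n : ℤ, f.coeff n ∈ L) :
    ∃ g : LaurentSeries ↥L, iotaL L g = f := by
  have hsupp : (Function.support fun n : ℤ => (⟨f.coeff n, hf n⟩ : ↥L)) ⊆ f.support := by
    intro n hn
    show f.coeff n ≠ 0
    intro h0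
    apply hn
    exact Subtype.ext h0
  exact ⟨⟨fun n => ⟨f.coeff n, hf n⟩, f.isPWO_support.mono hsupp⟩, HahnSeries.ext rfl⟩

/-- A primitive series with coefficients in `L` comes from a primitive series over `A ∩ L`. -/
theorem exists_prim_of_primSeries {f : LaurentSeries Qbar} (hf : ∀ n : ℤ, f.coeff n ∈ L)
    (hp : PrimSeries A.toSubring f) :
    ∃ a : LaurentSeries ↥(valL A L), redV A (toA A L a) ≠ 0 ∧ iotaL L (jO A L a) = f := by
  obtain ⟨g, hg⟩ := exists_iotaL_eq L hf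
  have hco : CoeffsIn (valL A L).toSubring g := by
    intro n
    show ((g.coeff n : ↥L) : Qbar) ∈ A
    have : ((g.coeff n : ↥L) : Qbar) = f.coeff n := by rw [← hg]; rfl
    rw [this]
    exact hp.1 n
  obtain ⟨a, ha⟩ := exists_iotaV_eq (valL A L) hco
  have hfa : iotaL L (jO A L a) = f := by
    show iotaL L (iotaV (valL A L) a) = f
    rw [ha, hg]
  refine ⟨a, ?_, hfa⟩
  obtain ⟨g', hg', hg'f⟩ := (primSeries_iff A f).1 hp
  have : g' = toA A L a := by
    apply iotaV_injective A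
    rw [hg'f, iotaV_toA, hfa]
  rw [← this]
  exact hg'

/-- `x = e · a / b` with `e ∈ L` and `a, b` primitive series over `A ∩ L`. -/
def Adapted (x : LaurentSeries Qbar) : Prop :=
  ∃ (a b : LaurentSeries ↥(valL A L)) (e : ↥L),
    redV A (toA A L a) ≠ 0 ∧ redV A (toA A L b) ≠ 0 ∧
      iotaL L (jO A L b) * x = HahnSeries.C (e : Qbar) * iotaL L (jO A L a)

/-- The trace operator on `ℚ̄((t))` (through the chosen lifts). -/
def Tser (d : ↥L) (x : LaurentSeries Qbar) : LaurentSeries Qbar :=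
  ∑ γ : inertiaRes A L,
    coeffMap ((liftI A L γ : Qbar ≃ₐ[ℚ] Qbar) : Qbar →+* Qbar) (HahnSeries.C (d : Qbar) * x)

theorem Tser_iotaL (d : ↥L) (y : LaurentSeries ↥L) :
    Tser A L d (iotaL L y) = iotaL L (TL A L d y) := by
  rw [Tser, TL, map_sum]
  refine Finset.sum_congr rfl fun γ _ => ?_
  rw [← iotaL_C, ← map_mul, coeffMap_liftI_iotaL]

theorem toA_ne_zero_of_red {b : LaurentSeries ↥(valL A L)} (hb : redV A (toA A L b) ≠ 0) :
    jO A L b ≠ 0 := by
  intro h0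
  apply hb
  have : b = 0 := jO_injective A L (by rw [h0, map_zero])
  rw [this, map_zero, map_zero]

variable {A L}

/-- An adapted series comes from `L((t))`. -/
theorem Adapted.exists_eq {x : LaurentSeries Qbar} (hx : Adapted A L x) :
    ∃ (a b : LaurentSeries ↥(valL A L)) (e : ↥L) (x' : LaurentSeries ↥L),
      redV A (toA A L a) ≠ 0 ∧ redV A (toA A L b) ≠ 0 ∧ iotaL L x' = x ∧
        jO A L b * x' = HahnSeries.C e * jO A L a := by
  obtain ⟨a, b, e, ha, hb, h⟩ := hx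
  have hb0 : jO A L b ≠ 0 := toA_ne_zero_of_red A L hb
  have hb0' : iotaL L (jO A L b) ≠ 0 := fun h0 => hb0 (iotaL_injective L (by rw [h0, map_zero]))
  refine ⟨a, b, e, HahnSeries.C e * jO A L a / jO A L b, ha, hb, ?_, ?_⟩
  · rw [map_div₀, map_mul, iotaL_C, ← h, mul_div_cancel_left₀ _ hb0']
  · rw [mul_div_cancel₀ _ hb0]

/-- The section of an adapted series has coefficients fixed by the inertia group. -/
theorem Adapted.coeffMap_Tser {x : LaurentSeries Qbar} (hx : Adapted A L x) (d : ↥L)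
    (σ : Qbar ≃ₐ[ℚ] Qbar) (hσ : σ ∈ A.inertiaSubgroupIn ℚ) :
    coeffMap ((σ : Qbar ≃ₐ[ℚ] Qbar) : Qbar →+* Qbar) (Tser A L d x) = Tser A L d x := by
  obtain ⟨a, b, e, x', -, -, rfl, -⟩ := hx.exists_eq
  rw [Tser_iotaL, coeffMap_iotaL A L σ hσ, actL_TL]

theorem jO_C (e : ↥(valL A L)) :
    jO A L (HahnSeries.C e) = HahnSeries.C ((e : ↥(valL A L)) : ↥L) := by
  show coeffMap (valL A L).subtype (HahnSeries.single 0 e) = HahnSeries.single 0 (e : ↥L)
  rw [coeffMap_single]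
  rfl

/-- **The section on adapted series**: if `c` is fixed by the inertia group and `c x` is in the
Gauss ring, then `c · T x` is in the Gauss ring and has the same reduction. -/
theorem Adapted.section_gauss {x : LaurentSeries Qbar} (hx : Adapted A L x) {d : ↥L}
    (hd : IsSection A L d) {p : ℕ} (hp : p.Prime) (hA : A.LiesOverPrime p)
    (c : Qbar) (hc : ∀ σ ∈ A.inertiaSubgroupIn ℚ, σ c = c)
    (hcx : HahnSeries.C c * x ∈ gaussRingV A) :
    ∃ h1 : HahnSeries.C c * Tser A L d x ∈ gaussRingV A,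
      gaussRedV A ⟨_, h1⟩ = gaussRedV A ⟨_, hcx⟩ := by
  obtain ⟨a, b, e, x', ha, hb, hx', hbx⟩ := hx.exists_eq
  have hb0 : jO A L b ≠ 0 := toA_ne_zero_of_red A L hb
  have ha0 : jO A L a ≠ 0 := toA_ne_zero_of_red A L ha
  -- trivial cases
  by_cases hc0 : c = 0
  · subst hc0
    have e1 : HahnSeries.C (0 : Qbar) * Tser A L d x = HahnSeries.C (0 : Qbar) * x := by
      rw [map_zero, zero_mul, zero_mul]
    refine ⟨e1 ▸ hcx, ?_⟩
    congr 1
    exact Subtype.ext e1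
  by_cases he0 : e = 0
  · have hx0 : x' = 0 := by
      rw [he0, map_zero, zero_mul] at hbx
      exact (mul_eq_zero.mp hbx).resolve_left hb0
    have hxx : x = 0 := by rw [← hx', hx0, map_zero]
    have hT : Tser A L d x = 0 := by
      rw [← hx', hx0, Tser_iotaL]
      have : TL A L d 0 = 0 := by
        rw [TL]
        simp
      rw [this, map_zero]
    have e1 : HahnSeries.C c * Tser A L d x = HahnSeries.C c * x := by rw [hT, hxx]
    refine ⟨e1 ▸ hcx, ?_⟩
    congr 1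
    exact Subtype.ext e1
  -- the main case: `c = ε p^k`
  obtain ⟨k, hk⟩ := Fermat.Agent.R.H6.stmt_UnrFix p hp A hA c hc0 hc
  have hp0 : (p : ↥L) ≠ 0 := by exact_mod_cast hp.ne_zero
  have hpQ : (p : Qbar) ≠ 0 := by exact_mod_cast hp.ne_zero
  set pk : ↥L := (p : ↥L) ^ k with hpk
  have hpk0 : pk ≠ 0 := zpow_ne_zero _ hp0
  have hpkQ : ((pk : ↥L) : Qbar) = (p : Qbar) ^ k := by
    rw [hpk]
    rfl
  have hpkQ0 : ((pk : ↥L) : Qbar) ≠ 0 := by
    rw [hpkQ]
    exact zpow_ne_zero _ hpQ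
  set ε : Qbar := c / (pk : Qbar) with hε
  have hε0 : ε ≠ 0 := div_ne_zero hc0 hpkQ0
  have hεv : A.valuation ε = 1 := by
    rw [hε, map_div₀, hpkQ, map_zpow₀, hk]
    exact div_self (zpow_ne_zero _ ((Valuation.ne_zero_iff _).mpr hpQ))
  obtain ⟨hεA, hεiA⟩ := (valuation_eq_one_iff_mem A hε0).mp hεv
  have hcε : c = ε * (pk : Qbar) := by
    rw [hε, div_mul_cancel₀ _ hpkQ0]
  -- `p^k x` is in the Gauss ring
  have hpx : HahnSeries.C ((pk : ↥L) : Qbar) * x ∈ gaussRingV A := by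
    have h1 := (gaussRingV A).mul_mem (C_mem_gaussRingV A hεiA) hcx
    have h2 : HahnSeries.C ε⁻¹ * (HahnSeries.C c * x) = HahnSeries.C ((pk : ↥L) : Qbar) * x := by
      rw [← mul_assoc, ← map_mul, hcε, ← mul_assoc, inv_mul_cancel₀ hε0, one_mul]
    rwa [h2] at h1
  -- the Gauss unit `u = a / b`
  have hxu : x = HahnSeries.C (e : Qbar) * (iotaL L (jO A L a) / iotaL L (jO A L b)) := by
    rw [← hx', ← iotaL_C, ← map_div₀, ← map_mul]
    congr 1
    rw [← mul_div_assoc, ← hbx, mul_div_cancel_left₀ _ hb0]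
  have hu : GaussUnit A (iotaL L (jO A L a) / iotaL L (jO A L b)) := by
    refine ⟨toA A L b, toA A L a, hb, ha, ?_⟩
    rw [iotaV_toA, iotaV_toA]
    have hb0' : iotaL L (jO A L b) ≠ 0 :=
      fun h0 => hb0 (iotaL_injective L (by rw [h0, map_zero]))
    rw [mul_div_cancel₀ _ hb0']
  have hu0 := hu.ne_zero
  -- `p^k e ∈ A`
  have hpe : ((pk * e : ↥L) : Qbar) ∈ A := by
    rw [← _root_.Fermat.Agent.BADP.H11.C_mem_gaussRingV_iff]
    have h1 := (gaussRingV A).mul_mem hpx hu.inv.mem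
    have h2 : HahnSeries.C ((pk : ↥L) : Qbar) * x * (iotaL L (jO A L a) / iotaL L (jO A L b))⁻¹
        = HahnSeries.C (((pk * e : ↥L)) : Qbar) := by
      conv_lhs => rw [hxu]
      rw [← mul_assoc, mul_assoc, mul_inv_cancel₀ hu0, mul_one, ← map_mul]
      rfl
    rwa [h2] at h1
  set e' : ↥(valL A L) := ⟨pk * e, hpe⟩ with he'
  set a'' : LaurentSeries ↥(valL A L) := HahnSeries.C e' * a with ha''
  have hrel : jO A L b * (HahnSeries.C pk * x') = jO A L a'' := by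
    rw [ha'', map_mul, jO_C, he']
    show jO A L b * (HahnSeries.C pk * x') = HahnSeries.C (pk * e) * jO A L a
    rw [map_mul, mul_left_comm, hbx]
    ring
  obtain ⟨h1, h2, hred⟩ := hd.gauss a'' b hb (HahnSeries.C pk * x') hrel
  have hpkfix : ∀ γ : inertiaRes A L, γ • pk = pk := by
    intro γ
    show (γ : ↥L ≃ₐ[ℚ] ↥L) pk = pk
    rw [hpk, map_zpow₀, map_natCast]
  have eT : iotaL L (TL A L d (HahnSeries.C pk * x'))
      = HahnSeries.C ((pk : ↥L) : Qbar) * Tser A L d x := by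
    rw [TL_C_mul A L d pk hpkfix, map_mul, iotaL_C, ← hx', Tser_iotaL]
  have eX : iotaL L (HahnSeries.C pk * x') = HahnSeries.C ((pk : ↥L) : Qbar) * x := by
    rw [map_mul, iotaL_C, hx']
  have h1' : HahnSeries.C ((pk : ↥L) : Qbar) * Tser A L d x ∈ gaussRingV A := eT ▸ h1
  have hred' : gaussRedV A ⟨_, h1'⟩ = gaussRedV A ⟨_, hpx⟩ := by
    have e1 : (⟨_, h1'⟩ : gaussRingV A) = ⟨_, h1⟩ := Subtype.ext eT.symm
    have e2 : (⟨_, hpx⟩ : gaussRingV A) = ⟨_, h2⟩ := Subtype.ext eX.symm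
    rw [e1, e2, hred]
  -- multiply by `ε`
  have hεm : (HahnSeries.C ε : LaurentSeries Qbar) ∈ gaussRingV A := C_mem_gaussRingV A hεA
  have f1 : HahnSeries.C c * Tser A L d x
      = HahnSeries.C ε * (HahnSeries.C ((pk : ↥L) : Qbar) * Tser A L d x) := by
    rw [← mul_assoc, ← map_mul, ← hcε]
  have f2 : HahnSeries.C c * x = HahnSeries.C ε * (HahnSeries.C ((pk : ↥L) : Qbar) * x) := by
    rw [← mul_assoc, ← map_mul, ← hcε]
  have hm : HahnSeries.C c * Tser A L d x ∈ gaussRingV A := by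
    rw [f1]
    exact (gaussRingV A).mul_mem hεm h1'
  refine ⟨hm, ?_⟩
  have g1 : (⟨_, hm⟩ : gaussRingV A) = ⟨_, hεm⟩ * ⟨_, h1'⟩ := Subtype.ext f1
  have g2 : (⟨_, hcx⟩ : gaussRingV A) = ⟨_, hεm⟩ * ⟨_, hpx⟩ := Subtype.ext f2
  rw [g1, g2, map_mul, map_mul, hred']

variable (A)

/-- Zero is adapted to every `L`. -/
theorem adapted_zero (L : IntermediateField ℚ Qbar) [FiniteDimensional ℚ L] [Normal ℚ L] :
    Adapted A L 0 := by
  refine ⟨1, 1, 0, ?_, ?_, ?_⟩
  · rw [map_one, map_one]; exact one_ne_zero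
  · rw [map_one, map_one]; exact one_ne_zero
  · rw [mul_zero]
    show (0 : LaurentSeries Qbar) = HahnSeries.C ((0 : ↥L) : Qbar) * _
    rw [ZeroMemClass.coe_zero, map_zero, zero_mul]

/-- **Existence of adapted fields**: a quotient of two elements of `IntSpan` is adapted to every
finite normal `L` containing a suitable finite set. -/
theorem exists_adapted_div {a0 b0 : LaurentSeries Qbar} (ha : a0 ∈ IntSpan Qbar)
    (hb : b0 ∈ IntSpan Qbar) :
    ∃ s : Finset Qbar, ∀ (L : IntermediateField ℚ Qbar) [FiniteDimensional ℚ L] [Normal ℚ L],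
      (∀ c ∈ s, c ∈ L) → Adapted A L (a0 / b0) := by
  by_cases ha0 : a0 = 0
  · refine ⟨∅, fun L _ _ _ => ?_⟩
    rw [ha0, zero_div]
    exact adapted_zero A L
  by_cases hb0 : b0 = 0
  · refine ⟨∅, fun L _ _ _ => ?_⟩
    rw [hb0, div_zero]
    exact adapted_zero A L
  obtain ⟨ι, _, c, m, hcm⟩ := exists_repr_of_mem_intSpan ha
  obtain ⟨ι', _, c', m', hcm'⟩ := exists_repr_of_mem_intSpan hb
  obtain ⟨ca, hca, hpa⟩ := exists_primSeries_scale A ha ha0
  obtain ⟨cb, hcb, hpb⟩ := exists_primSeries_scale A hb hb0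
  refine ⟨Finset.univ.image c ∪ Finset.univ.image c' ∪ {ca, cb}, fun L _ _ hL => ?_⟩
  have hcL : ∀ i, c i ∈ L := fun i => hL _ (by simp)
  have hc'L : ∀ i, c' i ∈ L := fun i => hL _ (by simp)
  have hcaL : ca ∈ L := hL _ (by simp)
  have hcbL : cb ∈ L := hL _ (by simp)
  have hcoa : ∀ n : ℤ, (HahnSeries.C ca * a0).coeff n ∈ L := by
    intro n
    rw [HahnSeries.C_mul_eq_smul, HahnSeries.coeff_smul, smul_eq_mul, hcm, coeff_repr]
    refine L.mul_mem hcaL (L.sum_mem fun i _ => L.mul_mem (hcL i) ?_)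
    exact intCast_mem L _
  have hcob : ∀ n : ℤ, (HahnSeries.C cb * b0).coeff n ∈ L := by
    intro n
    rw [HahnSeries.C_mul_eq_smul, HahnSeries.coeff_smul, smul_eq_mul, hcm', coeff_repr]
    refine L.mul_mem hcbL (L.sum_mem fun i _ => L.mul_mem (hc'L i) ?_)
    exact intCast_mem L _
  obtain ⟨a, hared, haeq⟩ := exists_prim_of_primSeries A L hcoa hpa
  obtain ⟨b, hbred, hbeq⟩ := exists_prim_of_primSeries A L hcob hpb
  refine ⟨a, b, ⟨cb, hcbL⟩ / ⟨ca, hcaL⟩, hared, hbred, ?_⟩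
  rw [haeq, hbeq]
  have e1 : (((⟨cb, hcbL⟩ / ⟨ca, hcaL⟩ : ↥L)) : Qbar) = cb / ca := rfl
  rw [e1, ← mul_assoc, ← map_mul, div_mul_cancel₀ _ hca, mul_assoc, mul_div_cancel₀ _ hb0]

/-- Every element of `F_N · ℚ̄` is adapted to every finite normal `L` containing a suitable
finite set. -/
theorem exists_adapted (N : ℕ) {x : LaurentSeries Qbar}
    (hx : x ∈ laurentBaseChange Qbar (modularFunctionFieldFull N)) :
    ∃ s : Finset Qbar, ∀ (L : IntermediateField ℚ Qbar) [FiniteDimensional ℚ L] [Normal ℚ L],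
      (∀ c ∈ s, c ∈ L) → Adapted A L x := by
  rw [laurentBaseChange_full_eq] at hx
  obtain ⟨a0, ha0, b0, hb0, rfl⟩ := IntermediateField.mem_adjoin_iff_div.1 hx
  have hle : Algebra.adjoin Qbar (divisorExpansionsC Qbar N) ≤ IntSpan Qbar :=
    Algebra.adjoin_le (divisorExpansionsC_subset_intSpan N)
  exact exists_adapted_div A (hle ha0) (hle hb0)

/-- A finite normal extension of `ℚ` inside `ℚ̄` containing a given finite set. -/
theorem exists_normal_finite (s : Finset Qbar) :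
    ∃ L : IntermediateField ℚ Qbar, FiniteDimensional ℚ L ∧ Normal ℚ L ∧ ∀ c ∈ s, c ∈ L := by
  let P : Polynomial ℚ := ∏ c ∈ s, minpoly ℚ c
  have hP0 : P ≠ 0 := Finset.prod_ne_zero_iff.mpr fun c _ =>
    minpoly.ne_zero ((AlgebraicClosure.isAlgebraic ℚ).isAlgebraic c).isIntegral
  let L : IntermediateField ℚ Qbar := IntermediateField.adjoin ℚ (P.rootSet Qbar)
  have hsplit : (P.map (algebraMap ℚ Qbar)).Splits := IsAlgClosed.splits _
  have hsf : P.IsSplittingField ℚ L := IntermediateField.adjoin_rootSet_isSplittingField hsplit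
  refine ⟨L, Polynomial.IsSplittingField.finiteDimensional L P,
    Normal.of_isSplittingField P, fun c hc => ?_⟩
  apply IntermediateField.subset_adjoin
  rw [Polynomial.mem_rootSet]
  refine ⟨hP0, ?_⟩
  rw [map_prod]
  exact Finset.prod_eq_zero hc (minpoly.aeval ℚ c)

end Fermat.Agent.BADP.H11

end
end
-- ==== END Fermat.Agent.BADP.H11_Arith0Adapt

-- ==== BEGIN Fermat.Agent.BADP.H51_RayAbs
section

/-!
# S44 / S33, package RAY-ABS (helper51): the abstract assembly of (e) = RAY-K3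

Setting: `S : SSD K F k F₁ F₂`, `char k = p` odd, `𝓘 ⊇ 𝓘₃` sets of inertial semilinear
automorphisms, every function integral for both valuations has an `𝓘`-invariant part
(`IsK0Part`, leaf ARITH-0).

* `rayCanon` : a Kummer function `f ≡ 1` for `V₁` of a class of the connected part
  (`f = a f' h₀ ^ p`, `f' ≡ 1` for `V₂`) whose class is `𝓘₃`-invariant has an invariant
  canonical form: `f₁ = f h ^ p` is in canonical form (`IsCanon`) with respect to `𝓘`-invariant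
  adapted coordinates and an `𝓘`-invariant place `P∞`, and `f₁`, the points `X_Q` and the values
  `a_Q` are fixed by `𝓘₃`.
* `rayAbs` **(RAY-ABS)** : under the arithmetic hypotheses (A0), (A2), (A3) of `BAD.H28.keyP`
  (for the fixed field of `𝓘₃`, `σ ∈ 𝓘`), `f` is a `p`-th power.
* `rayAbsTame` **(RAY-ABS-TAME)** : if the invariant constants of the maximal ideal are in the
  linear regime (`a ^ p = p a ε`), `f` is a `p`-th power (via `BAD.H28.keyNodal_lin`).
-/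

set_option autoImplicit false
set_option linter.style.haveILetI false
set_option linter.unusedSectionVars false
set_option maxHeartbeats 2000000

noncomputable section

open AlgebraicCurve

attribute [local instance] Classical.propDecidable

namespace Fermat.Agent.BADP.H51

open Fermat.Agent.RED.H17 Fermat.Agent.RED Fermat.Agent.BAD

local notation "L" => riemannRochSpace

section Main

variable {K F k F₁ F₂ : Type} [Field K] [Field F] [Algebra K F] [Field k] [Field F₁]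
  [Algebra k F₁] [Field F₂] [Algebra k F₂]

/-- **The invariant canonical form** of a Kummer function of a class of the connected part. -/
theorem rayCanon [IsAlgClosed K] [Infinite k] (S : SSD K F k F₁ F₂) (H : FFHyp K F)
    (H₁ : FFHyp k F₁) (H₂ : FFHyp k F₂) {g g₁ g₂ : ℕ} {c c₁ c₂ : ℤ} (hR : IsGenus K F g c)
    (hR₁ : IsGenus k F₁ g₁ c₁) (hR₂ : IsGenus k F₂ g₂ c₂)
    (hnum : g + 1 ≤ g₁ + g₂ + S.nodes.card) (p : ℕ) [hp : Fact p.Prime] [CharP k p]
    {𝓘 𝓘₃ : Set (SemilinearAut K F)} (h₃ : 𝓘₃ ⊆ 𝓘) (h𝓘 : ∀ τ ∈ 𝓘, S.IsInertial τ)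
    (hK0 : ∀ u : F, u ∈ S.c₁.V → u ∈ S.c₂.V → ∃ u₀ : F, IsK0Part S 𝓘 u u₀)
    {f : F} (hf₁ : f ∈ S.c₁.V) (hrd₁ : S.c₁.rd f = 1)
    (hdiv : ∀ P : Place K F, (p : ℤ) ∣ P.ord f)
    {f' h₀ : F} {a : K} (hf' : f' ∈ S.c₂.V) (hrd' : S.c₂.rd f' = 1)
    (hff' : f = algebraMap K F a * f' * h₀ ^ p)
    (hcls : ∀ τ ∈ 𝓘₃, ∃ (e : K) (T : F), τ • f = algebraMap K F e * f * T ^ p) :
    ∃ (A₁ : Finset (Place k F₁)) (A₂ : Finset (Place k F₂)) (s₁ : Place k F₁ → F)
      (s₂ : Place k F₂ → F) (Pinf : Place K F) (Qinf : Place k F₁) (h : F)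
      (a₁ : Place k F₁ → K) (a₂ : Place k F₂ → K)
      (X₁ : Place k F₁ → Place K F) (X₂ : Place k F₂ → Place K F),
      Disjoint A₁ S.br₁ ∧ Disjoint A₂ S.br₂ ∧ S.IsNS A₁ A₂ ∧
      (∀ Q ∈ A₁, S.IsCoordA₁ A₁ A₂ (s₁ Q) Q) ∧ (∀ Q ∈ A₂, S.IsCoordA₂ A₁ A₂ (s₂ Q) Q) ∧
      (∀ Q ∈ A₁, ∀ τ ∈ 𝓘, τ • s₁ Q = s₁ Q) ∧ (∀ Q ∈ A₂, ∀ τ ∈ 𝓘, τ • s₂ Q = s₂ Q) ∧
      Qinf ∈ S.c₁.good ∧ Qinf ∉ A₁ ∧ S.c₁.r Pinf = some Qinf ∧ (∀ τ ∈ 𝓘, τ • Pinf = Pinf) ∧
      h ≠ 0 ∧ IsCanon S A₁ A₂ s₁ s₂ p Pinf (f * h ^ p) a₁ a₂ X₁ X₂ ∧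
      (∀ τ ∈ 𝓘₃, τ • (f * h ^ p) = f * h ^ p) ∧
      (∀ Q ∈ A₁, ∀ τ ∈ 𝓘₃, τ • X₁ Q = X₁ Q ∧ SemilinearAut.baseAut τ (a₁ Q) = a₁ Q) ∧
      (∀ Q ∈ A₂, ∀ τ ∈ 𝓘₃, τ • X₂ Q = X₂ Q ∧ SemilinearAut.baseAut τ (a₂ Q) = a₂ Q) := by
  have hp0 : p ≠ 0 := hp.out.ne_zero
  -- the place at infinity
  obtain ⟨Qinf, hQinf⟩ := H₁.exists_notMem S.br₁
  have hQinfg : Qinf ∈ S.c₁.good := S.good₁_of_notMem hQinf
  obtain ⟨Pinf, hPinf, hPinfσ⟩ :=
    exists_fixed_place S H H₁ H₂ hR hR₁ hR₂ hnum h𝓘 hK0 hQinfg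
  -- the invariant coordinates
  obtain ⟨A₁, A₂, s₁, s₂, hd₁, hd₂, hT₁, -, hNSA, hcard, hs₁, hs₂, hs₁σ, hs₂σ⟩ :=
    exists_inv_coords S H H₁ H₂ hR hR₁ hR₂ hnum hK0 {Qinf} ∅
  have hQinfA : Qinf ∉ A₁ := fun h =>
    Finset.disjoint_left.mp hT₁ h (Finset.mem_singleton_self Qinf)
  -- TIss-position
  obtain ⟨hM, hM0, hm₁, hm₂, hmr₁, hmr₂, hmnode⟩ :=
    stmt_MoveP K F k F₁ F₂ S H H₁ H₂ g g₁ g₂ c c₁ c₂ hR hR₁ hR₂ hnum p hp.out inferInstance f
      hf₁ hrd₁ hdiv f' h₀ a hf' hrd' hff'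
  have hf0 : f ≠ 0 := by
    intro h0
    rw [h0, S.c₁.rd_zero] at hrd₁
    exact zero_ne_one hrd₁
  have hdivM : ∀ P : Place K F, (p : ℤ) ∣ P.ord (f * hM ^ p) := by
    intro P
    rw [P.ord_mul hf0 (pow_ne_zero _ hM0), ord_pow]
    exact dvd_add (hdiv P) (dvd_mul_right _ _)
  -- the canonical form
  obtain ⟨hC, a₁, a₂, X₁, X₂, hC₁, hC₂, hCr₁, hCr₂, hcan⟩ :=
    canon_p S H H₁ H₂ hR hd₁ hd₂ hNSA (by omega) hs₁ hs₂ p hm₁ hm₂ hmr₁ hmr₂ hdivM hmnode
      hQinfg hQinfA hPinf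
  have hC0 : hC ≠ 0 := by
    intro h0
    rw [h0, S.c₁.rd_zero] at hCr₁
    exact zero_ne_one hCr₁
  have hH0 : hM * hC ≠ 0 := mul_ne_zero hM0 hC0
  have e : f * (hM * hC) ^ p = f * hM ^ p * hC ^ p := by rw [mul_pow, mul_assoc]
  rw [← e] at hcan
  -- invariance
  have hfix : ∀ τ ∈ 𝓘₃, τ • (f * (hM * hC) ^ p) = f * (hM * hC) ^ p ∧
      (∀ Q ∈ A₁, τ • X₁ Q = X₁ Q ∧ SemilinearAut.baseAut τ (a₁ Q) = a₁ Q) ∧
      ∀ Q ∈ A₂, τ • X₂ Q = X₂ Q ∧ SemilinearAut.baseAut τ (a₂ Q) = a₂ Q := by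
    intro τ hτ
    obtain ⟨e₀, T, hT⟩ := hcls τ hτ
    refine canon_fixed S H H₁ H₂ hd₁ hd₂ hNSA hp0 hcan (h𝓘 τ (h₃ hτ))
      (fun Q hQ => hs₁σ Q hQ τ (h₃ hτ)) (fun Q hQ => hs₂σ Q hQ τ (h₃ hτ))
      (hPinfσ τ (h₃ hτ)) e₀ (T * (τ • (hM * hC)) / (hM * hC)) ?_
    rw [smul_mul', smul_pow', hT, div_pow, mul_pow]
    field_simp
    ring
  exact ⟨A₁, A₂, s₁, s₂, Pinf, Qinf, hM * hC, a₁, a₂, X₁, X₂, hd₁, hd₂, hNSA, hs₁, hs₂, hs₁σ,
    hs₂σ, hQinfg, hQinfA, hPinf, hPinfσ, hH0, hcan, fun τ hτ => (hfix τ hτ).1,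
    fun Q hQ τ hτ => (hfix τ hτ).2.1 Q hQ, fun Q hQ τ hτ => (hfix τ hτ).2.2 Q hQ⟩

/-- **RAY-ABS.**  Under the arithmetic hypotheses (A0), (A2), (A3) of the key lemma for the
exponent `p` (helper28's `keyP`), a Kummer function of a class of the connected part whose class
is `𝓘₃`-invariant is a `p`-th power. -/
theorem rayAbs [IsAlgClosed K] [Infinite k] (S : SSD K F k F₁ F₂) (H : FFHyp K F)
    (H₁ : FFHyp k F₁) (H₂ : FFHyp k F₂) {g g₁ g₂ : ℕ} {c c₁ c₂ : ℤ} (hR : IsGenus K F g c)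
    (hR₁ : IsGenus k F₁ g₁ c₁) (hR₂ : IsGenus k F₂ g₂ c₂)
    (hnum : g + 1 ≤ g₁ + g₂ + S.nodes.card) (p : ℕ) (hp : p.Prime) (hp2 : p ≠ 2)
    (hchar : CharP k p) (hpK : (p : K) ≠ 0)
    {𝓘 𝓘₃ : Set (SemilinearAut K F)} (h₃ : 𝓘₃ ⊆ 𝓘) (h𝓘 : ∀ τ ∈ 𝓘, S.IsInertial τ)
    (hK0 : ∀ u : F, u ∈ S.c₁.V → u ∈ S.c₂.V → ∃ u₀ : F, IsK0Part S 𝓘 u u₀)
    -- the arithmetic hypotheses
    (π ϖ θ : K) (hπ : S.IsCM π) (hπne : π ≠ 0) (hθ : algebraMap K F θ ∈ S.c₁.V) (hθne : θ ≠ 0)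
    (hπp : S.c₁.rd (algebraMap K F (π ^ (p - 1) / p)) = -1)
    (hϖ : S.IsCM ϖ) (hϖp : S.IsCU (ϖ ^ p / p))
    (σ : SemilinearAut K F) (hσ : σ ∈ 𝓘)
    (hA2₁ : ∀ x : F, (∀ τ ∈ 𝓘₃, τ • x = x) → x ∈ S.c₁.V →
      (σ • x - x) / algebraMap K F (π * θ) ∈ S.c₁.V)
    (hA2₂ : ∀ x : F, (∀ τ ∈ 𝓘₃, τ • x = x) → x ∈ S.c₂.V →
      (σ • x - x) / algebraMap K F (π * θ) ∈ S.c₂.V)
    (hA3 : ∀ b : K, (∀ τ ∈ 𝓘₃, SemilinearAut.baseAut τ b = b) → S.IsCM b →
      algebraMap K F (b / ϖ) ∈ S.c₁.V ∧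
      S.c₁.rd (algebraMap K F ((SemilinearAut.baseAut σ b - b) / (π * θ))) =
        S.c₁.rd (algebraMap K F (b / ϖ)) ∧
      (S.c₁.rd (algebraMap K F (b / ϖ)) = 0 → algebraMap K F (b / ϖ ^ 2) ∈ S.c₁.V))
    -- the Kummer data
    {f : F} (hf₁ : f ∈ S.c₁.V) (hrd₁ : S.c₁.rd f = 1)
    (hdiv : ∀ P : Place K F, (p : ℤ) ∣ P.ord f)
    {f' h₀ : F} {a : K} (hf' : f' ∈ S.c₂.V) (hrd' : S.c₂.rd f' = 1)
    (hff' : f = algebraMap K F a * f' * h₀ ^ p)
    (hcls : ∀ τ ∈ 𝓘₃, ∃ (e : K) (T : F), τ • f = algebraMap K F e * f * T ^ p) :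
    ∃ h : F, f = h ^ p := by
  haveI : Fact p.Prime := ⟨hp⟩
  haveI : CharP k p := hchar
  obtain ⟨A₁, A₂, s₁, s₂, Pinf, Qinf, h, a₁, a₂, X₁, X₂, hd₁, hd₂, hNSA, hs₁, hs₂, hs₁σ, hs₂σ,
    hQinfg, hQinfA, hPinf, -, hh0, hcan, hffix, hfix₁, hfix₂⟩ :=
    rayCanon S H H₁ H₂ hR hR₁ hR₂ hnum p h₃ h𝓘 hK0 hf₁ hrd₁ hdiv hf' hrd' hff' hcls
  have hpk : (p : k) = 0 := CharP.cast_eq_zero k p
  have hCM₂ : ∀ Q ∈ A₂, S.IsCM (a₂ Q) := fun Q hQ =>
    S.rd₁_const_zero (hcan.ha₂ Q hQ).1 (hcan.ha₂ Q hQ).2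
  have hone : f * h ^ p = 1 :=
    BAD.H28.keyP S H A₁ A₂ hd₁ hd₂ hNSA s₁ s₂ hs₁ hs₂ p hp hp2 hpk hpK (f * h ^ p) hcan.mem₁
      hcan.mem₂ hcan.rd₁ hcan.rd₂ Pinf Qinf hQinfg hQinfA hPinf hcan.inf a₁ a₂ hcan.ha₁ hcan.ha₂
      hcan.off hcan.on₁ hcan.on₂ π ϖ θ hπ hπne hθ hθne hπp hϖ hϖp σ (h𝓘 σ hσ)
      (fun Q hQ => hs₁σ Q hQ σ hσ) (fun Q hQ => hs₂σ Q hQ σ hσ) (fixedSub 𝓘₃) hffix
      (fun Q hQ τ hτ => hs₁σ Q hQ τ (h₃ hτ)) (fun Q hQ τ hτ => hs₂σ Q hQ τ (h₃ hτ))
      (fun Q hQ => algebraMap_mem_fixedSub fun τ hτ => (hfix₁ Q hQ τ hτ).2)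
      (fun Q hQ => algebraMap_mem_fixedSub fun τ hτ => (hfix₂ Q hQ τ hτ).2)
      (fun x hx hx₁ => hA2₁ x hx hx₁) (fun x hx hx₂ => hA2₂ x hx hx₂)
      (fun Q hQ => hA3 (a₁ Q) (fun τ hτ => (hfix₁ Q hQ τ hτ).2) (hcan.ha₁ Q hQ))
      (fun Q hQ => hA3 (a₂ Q) (fun τ hτ => (hfix₂ Q hQ τ hτ).2) (hCM₂ Q hQ))
  refine ⟨h⁻¹, ?_⟩
  rw [inv_pow]
  exact eq_inv_of_mul_eq_one_left hone

/-- **RAY-ABS-TAME.**  If the `𝓘₃`-invariant constants of the maximal ideal are in the linear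
regime (`b ^ p = p b ε` with `ε` in the maximal ideal), a Kummer function of a class of the
connected part whose class is `𝓘₃`-invariant is a `p`-th power. -/
theorem rayAbsTame [IsAlgClosed K] [Infinite k] (S : SSD K F k F₁ F₂) (H : FFHyp K F)
    (H₁ : FFHyp k F₁) (H₂ : FFHyp k F₂) {g g₁ g₂ : ℕ} {c c₁ c₂ : ℤ} (hR : IsGenus K F g c)
    (hR₁ : IsGenus k F₁ g₁ c₁) (hR₂ : IsGenus k F₂ g₂ c₂)
    (hnum : g + 1 ≤ g₁ + g₂ + S.nodes.card) (p : ℕ) (hp : p.Prime) (hchar : CharP k p)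
    {𝓘 𝓘₃ : Set (SemilinearAut K F)} (h₃ : 𝓘₃ ⊆ 𝓘) (h𝓘 : ∀ τ ∈ 𝓘, S.IsInertial τ)
    (hK0 : ∀ u : F, u ∈ S.c₁.V → u ∈ S.c₂.V → ∃ u₀ : F, IsK0Part S 𝓘 u u₀)
    (hlin : ∀ b : K, (∀ τ ∈ 𝓘₃, SemilinearAut.baseAut τ b = b) → S.IsCM b →
      ∃ ε : K, S.IsCM ε ∧ b ^ p = p * b * ε)
    {f : F} (hf₁ : f ∈ S.c₁.V) (hrd₁ : S.c₁.rd f = 1)
    (hdiv : ∀ P : Place K F, (p : ℤ) ∣ P.ord f)
    {f' h₀ : F} {a : K} (hf' : f' ∈ S.c₂.V) (hrd' : S.c₂.rd f' = 1)
    (hff' : f = algebraMap K F a * f' * h₀ ^ p)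
    (hcls : ∀ τ ∈ 𝓘₃, ∃ (e : K) (T : F), τ • f = algebraMap K F e * f * T ^ p) :
    ∃ h : F, f = h ^ p := by
  haveI : Fact p.Prime := ⟨hp⟩
  haveI : CharP k p := hchar
  obtain ⟨A₁, A₂, s₁, s₂, Pinf, Qinf, h, a₁, a₂, X₁, X₂, hd₁, hd₂, hNSA, hs₁, hs₂, -, -,
    hQinfg, hQinfA, hPinf, -, hh0, hcan, -, hfix₁, hfix₂⟩ :=
    rayCanon S H H₁ H₂ hR hR₁ hR₂ hnum p h₃ h𝓘 hK0 hf₁ hrd₁ hdiv hf' hrd' hff' hcls
  have hCM₂ : ∀ Q ∈ A₂, S.IsCM (a₂ Q) := fun Q hQ =>
    S.rd₁_const_zero (hcan.ha₂ Q hQ).1 (hcan.ha₂ Q hQ).2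
  have hone : f * h ^ p = 1 :=
    BAD.H28.keyNodal_lin S H A₁ A₂ hd₁ hd₂ hNSA s₁ s₂ hs₁ hs₂ p hp (f * h ^ p) hcan.mem₁
      hcan.mem₂ hcan.rd₁ hcan.rd₂ Pinf Qinf hQinfg hQinfA hPinf hcan.inf a₁ a₂ hcan.ha₁ hcan.ha₂
      (fun Q hQ => hlin (a₁ Q) (fun τ hτ => (hfix₁ Q hQ τ hτ).2) (hcan.ha₁ Q hQ))
      (fun Q hQ => hlin (a₂ Q) (fun τ hτ => (hfix₂ Q hQ τ hτ).2) (hCM₂ Q hQ))
      (fun P h₁ h₂ => le_of_eq (hcan.off P h₁ h₂).symm) hcan.on₁ hcan.on₂
  refine ⟨h⁻¹, ?_⟩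
  rw [inv_pow]
  exact eq_inv_of_mul_eq_one_left hone

end Main

end Fermat.Agent.BADP.H51

end
end
-- ==== END Fermat.Agent.BADP.H51_RayAbs

-- ==== BEGIN Fermat.Agent.L.H52_DetCyc
section

set_option autoImplicit false

open WeierstrassCurve WeierstrassCurve.Affine WeierstrassCurve.Affine.Point
open scoped WeierstrassCurve.Affine

namespace Fermat.Agent.L.H52

section Det

variable {W : WeierstrassCurve ℤ} {p : ℕ} [Fact p.Prime]

/-- **`det ρ = χ_p`**, elementary form, for an integral model. -/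
theorem det_rhoW_eq_natCast (hΔ : W.Δ ≠ 0) (σ : GQ) (n : ℕ)
    (hn : ∀ ζ : Qb, ζ ^ p = 1 → σ ζ = ζ ^ n) :
    LinearMap.det (rhoW W p σ) = (n : ZMod p) := by
  have hFD := Fermat.Agent.Lib.FrobDensity.stmt_FD
  have hmain := Fermat.Agent.Lib.EllFinite.stmt_main
  have hpp : p.Prime := Fact.out
  haveI := finite_tors (p := p) hFD hmain hΔ
  obtain ⟨L₀, hL₀, hfix⟩ := exists_level (WQ W) p
  haveI : NeZero p := ⟨hpp.ne_zero⟩
  obtain ⟨ζ, hζ⟩ := HasEnoughRootsOfUnity.exists_primitiveRoot Qb p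
  let L₁ : IntermediateField ℚ Qb := IntermediateField.adjoin ℚ {ζ}
  have hL₁ : FiniteDimensional ℚ L₁ :=
    IntermediateField.adjoin.finiteDimensional (hζ.isIntegral hpp.pos).tower_top
  haveI := hL₀
  haveI := hL₁
  obtain ⟨ℓ, A, τ, j, hℓ, -, hℓp, hgood, hA, hτ, hj⟩ :=
    exists_frob (p := p) hFD hΔ ∅ (L₀ ⊔ L₁) inferInstance σ
  have hρ1 : ∀ g : GQ, (∀ x ∈ L₀, g x = x) → rhoW W p g = 1 := by
    intro g hg
    refine LinearMap.ext fun v => ?_
    rw [galoisRepModuleEnd_apply, Module.End.one_apply]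
    exact hfix g hg v
  have hρ : rhoW W p σ = rhoW W p τ ^ j := by
    rw [← map_pow]
    exact (map_eq_of_agree (rhoW W p) L₀ hρ1
      (fun x hx => hj x ((le_sup_left : L₀ ≤ L₀ ⊔ L₁) hx))).symm
  have hdet := (hmain W p ℓ hℓ (Ne.symm hℓp) hgood A hA τ hτ).2.2
  have hζ1 : ζ ^ p = 1 := hζ.pow_eq_one
  have hζL : ζ ∈ L₀ ⊔ L₁ :=
    (le_sup_right : L₁ ≤ L₀ ⊔ L₁) (IntermediateField.mem_adjoin_simple_self ℚ ζ)
  have h1 : ζ ^ (ℓ ^ j) = ζ ^ n := by
    rw [← frob_pow_root A hℓ hpp hℓp hA hτ j hζ1, hj ζ hζL, hn ζ hζ1]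
  have hfo : IsOfFinOrder ζ := isOfFinOrder_iff_pow_eq_one.2 ⟨p, hpp.pos, hζ1⟩
  have h2 : ℓ ^ j ≡ n [MOD p] := by
    have := hfo.pow_eq_pow_iff_modEq.1 h1
    rwa [← hζ.eq_orderOf] at this
  have h3 : ((ℓ ^ j : ℕ) : ZMod p) = (n : ZMod p) := (ZMod.natCast_eq_natCast_iff _ _ _).2 h2
  rw [hρ, map_pow, hdet]
  exact_mod_cast h3

/-- **`det ρ = χ_p`**, elementary form, for a curve over `ℚ` with an integral model. -/
theorem det_eq_natCast {E : WeierstrassCurve ℚ} (hW : W.IsIntegralModelOf E) (hΔ : W.Δ ≠ 0)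
    (σ : GQ) (n : ℕ) (hn : ∀ ζ : Qb, ζ ^ p = 1 → σ ζ = ζ ^ n) :
    LinearMap.det (galoisRepModuleEnd (S := ℚ) (K := AlgebraicClosure ℚ) E.toAffine p σ)
      = (n : ZMod p) := by
  obtain ⟨C, hC⟩ := hW
  rw [Fermat.Agent.L.H19.det_galois_eq (K := AlgebraicClosure ℚ) hC p σ]
  exact det_rhoW_eq_natCast hΔ σ n hn

/-- The action of `σ` on `p`-th roots of unity is through the mod `p` cyclotomic character. -/
theorem root_action [NeZero p] (hn : Nat.card (rootsOfUnity p Qb) = p) (σ : GQ) (ζ : Qb)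
    (hζ : ζ ^ p = 1) :
    σ ζ = ζ ^ ((modularCyclotomicCharacter Qb hn (σ : Qb ≃+* Qb) : (ZMod p)ˣ) : ZMod p).val := by
  have hpp : p.Prime := Fact.out
  have hζ0 : ζ ≠ 0 := by
    rintro rfl
    rw [zero_pow hpp.ne_zero] at hζ
    exact zero_ne_one hζ
  have hmem : Units.mk0 ζ hζ0 ∈ rootsOfUnity p Qb := by
    rw [mem_rootsOfUnity]
    exact Units.ext (by simpa using hζ)
  have h := modularCyclotomicCharacter.spec Qb hn (σ : Qb ≃+* Qb) hmem
  simpa using h

/-- **`det ρ = χ_p`** in the prelude's form, for an integral model. -/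
theorem galoisRepDetEqCyclotomic_rhoW [NeZero p] (hΔ : W.Δ ≠ 0)
    (hn : Nat.card (rootsOfUnity p Qb) = p) :
    GaloisRepDetEqCyclotomic (K := AlgebraicClosure ℚ) ℚ (WQ W).toAffine p hn := by
  intro σ
  apply Units.ext
  rw [galoisRepDet_apply]
  have h1 : ((LinearEquiv.det (galoisRep (S := ℚ) (K := AlgebraicClosure ℚ)
      (WQ W).toAffine p σ) : (ZMod p)ˣ) : ZMod p) = LinearMap.det (rhoW W p σ) :=
    LinearEquiv.coe_det _
  rw [h1, det_rhoW_eq_natCast hΔ σ _ (root_action hn σ), ZMod.natCast_zmod_val]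

/-- **`det ρ = χ_p`** in the prelude's form, for a curve over `ℚ` with an integral model. -/
theorem galoisRepDetEqCyclotomic [NeZero p] {E : WeierstrassCurve ℚ}
    (hW : W.IsIntegralModelOf E) (hΔ : W.Δ ≠ 0) (hn : Nat.card (rootsOfUnity p Qb) = p) :
    GaloisRepDetEqCyclotomic (K := AlgebraicClosure ℚ) ℚ E.toAffine p hn := by
  intro σ
  apply Units.ext
  rw [galoisRepDet_apply]
  have h1 : ((LinearEquiv.det (galoisRep (S := ℚ) (K := AlgebraicClosure ℚ)
      E.toAffine p σ) : (ZMod p)ˣ) : ZMod p)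
      = LinearMap.det (galoisRepModuleEnd (S := ℚ) (K := AlgebraicClosure ℚ) E.toAffine p σ) :=
    LinearEquiv.coe_det _
  rw [h1, det_eq_natCast hW hΔ σ _ (root_action hn σ), ZMod.natCast_zmod_val]

end Det

end Fermat.Agent.L.H52

end
-- ==== END Fermat.Agent.L.H52_DetCyc

-- ==== BEGIN Fermat.Agent.RED.HR.H51_DegSwap
section
attribute [local instance 10000] SubalgebraClass.toAlgebra
attribute [local instance 10000] HahnSeries.powerSeriesAlgebra

/-!
# G-RED package HR-RED, leaf DEG (helper51): symmetry of the modular equation, degrees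

`stmt_SwapDeg : H95.Stmt_SwapDeg` : over `κ = k` (residue field of `A` over `ℓ ≠ s`) and
`κ = ℚ̄`, `[κ(j, j_s) : κ(j_s)] = [κ(j, j_s) : κ(j)]`, `j_s = j(q^s)`, `s` prime.

Inputs: the modular equation `Φ_s(j, j_s) = 0` of helper23 (`S15.H23.stmt_modEq`), monic in both
variables with integral coefficients (so it reduces modulo `ℓ`), `[κ(j, j_s) : κ(j)] = s + 1`
(helper73: `relfinrank_fullC_bar`, `stmt_GA_deg`), the zeros theorem (`H51.zerosAll`) and the
`q`-order place (helper22: `laurentPlace`).  Abstract part: `RED/HR/H51_DegAbs.lean`.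

This file contains no `sorry`.
-/

set_option autoImplicit false
set_option linter.style.haveILetI false
set_option linter.unusedSectionVars false
set_option synthInstance.maxHeartbeats 400000
set_option maxHeartbeats 1000000

noncomputable section

open AlgebraicCurve ModularCurve IntermediateField
open Fermat.Agent.S28.H73 Fermat.Agent.RED.H73 Fermat.Agent.RED

namespace Fermat.Agent.RED.H51

open Fermat.Agent.S15 (modEqVal IsModEq)

/-! ## Algebra of the modular equation -/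

section ModEqAlg

theorem algebraMap_laurent_single {R : Type*} [CommRing R] (c : R) :
    algebraMap R (LaurentSeries R) c = HahnSeries.single 0 c := by
  have h1 : algebraMap R (PowerSeries R) c = PowerSeries.C c := by simp
  rw [HahnSeries.algebraMap_apply', h1, HahnSeries.ofPowerSeries_C]
  rfl

theorem coeffMap_algebraMap {R S : Type*} [CommRing R] [CommRing S] (f : R →+* S) (a : R) :
    coeffMap f (algebraMap R (LaurentSeries R) a) = algebraMap S (LaurentSeries S) (f a) := by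
  rw [algebraMap_laurent_single, algebraMap_laurent_single, coeffMap_single]

theorem map_modEqVal {K K' R R' : Type*} [CommRing K] [CommRing K'] [CommRing R] [CommRing R']
    [Algebra K R] [Algebra K' R'] (φ : K →+* K') (f : R →+* R')
    (hf : ∀ a, f (algebraMap K R a) = algebraMap K' R' (φ a)) (p : ℕ) (c : ℕ → ℕ → K)
    (x y : R) :
    f (modEqVal p c x y) = modEqVal p (fun i k => φ (c i k)) (f x) (f y) := by
  simp only [modEqVal, map_add, map_sub, map_mul, map_pow, map_sum, hf]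

variable {K R : Type*} [CommRing K] [CommRing R] [Algebra K R]

/-- The coefficient of `X ^ i` (`i ≤ s`) in the modular equation, as a polynomial in `y`. -/
def modEqCoef (s : ℕ) (c : ℕ → ℕ → K) (y : R) (i : ℕ) : R :=
  (if i = 0 then y ^ (s + 1) else 0) - (if i = s then y ^ s else 0) +
    ∑ k ∈ Finset.range (s + 1), algebraMap K R (c i k) * y ^ k

theorem modEqCoef_mem (s : ℕ) (c : ℕ → ℕ → K) (y : R) (i : ℕ) :
    modEqCoef s c y i ∈ Algebra.adjoin K ({y} : Set R) := by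
  have hy : y ∈ Algebra.adjoin K ({y} : Set R) := Algebra.subset_adjoin rfl
  refine add_mem (sub_mem ?_ ?_) (sum_mem fun k _ => mul_mem (Subalgebra.algebraMap_mem _ _)
    (pow_mem hy k))
  · split_ifs
    · exact pow_mem hy _
    · exact zero_mem _
  · split_ifs
    · exact pow_mem hy _
    · exact zero_mem _

theorem modEqVal_eq_rel (s : ℕ) (c : ℕ → ℕ → K) (x y : R) :
    modEqVal s c x y
      = x ^ (s + 1) + ∑ i ∈ Finset.range (s + 1), modEqCoef s c y i * x ^ i := by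
  have h0 : ∑ i ∈ Finset.range (s + 1), (if i = 0 then y ^ (s + 1) else 0) * x ^ i
      = y ^ (s + 1) := by
    rw [Finset.sum_eq_single 0]
    · simp
    · intro i _ hi
      rw [if_neg hi, zero_mul]
    · intro h
      exact absurd (Finset.mem_range.mpr (Nat.succ_pos s)) h
  have hs : ∑ i ∈ Finset.range (s + 1), (if i = s then y ^ s else 0) * x ^ i
      = x ^ s * y ^ s := by
    rw [Finset.sum_eq_single s]
    · simp [mul_comm]
    · intro i _ hi
      rw [if_neg hi, zero_mul]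
    · intro h
      exact absurd (Finset.mem_range.mpr (Nat.lt_succ_self s)) h
  have hc : ∑ i ∈ Finset.range (s + 1),
      (∑ k ∈ Finset.range (s + 1), algebraMap K R (c i k) * y ^ k) * x ^ i
      = ∑ i ∈ Finset.range (s + 1), ∑ k ∈ Finset.range (s + 1),
          algebraMap K R (c i k) * x ^ i * y ^ k := by
    refine Finset.sum_congr rfl fun i _ => ?_
    rw [Finset.sum_mul]
    refine Finset.sum_congr rfl fun k _ => ?_
    ring
  simp only [modEqCoef, add_mul, sub_mul, Finset.sum_add_distrib, Finset.sum_sub_distrib]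
  rw [h0, hs, hc, modEqVal]
  ring

end ModEqAlg

/-! ## The field `κ(j, j_s)` -/

section Field

variable (κ : Type) [Field κ] (s : ℕ) [NeZero s]

/-- `j` as an element of `κ(j(q^d) : d ∣ s)`. -/
def jE : ↥(modularFunctionFieldFullC κ s) := ⟨jqModC κ, jqModC_mem_full κ s⟩

/-- `j(q^s)` as an element of `κ(j(q^d) : d ∣ s)`. -/
def jsE : ↥(modularFunctionFieldFullC κ s) :=
  ⟨qExpand κ s (jqModC κ), jqModCd_mem_full κ s dvd_rfl⟩

theorem coe_jE : ((jE κ s : ↥(modularFunctionFieldFullC κ s)) : LaurentSeries κ) = jqModC κ :=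
  rfl

theorem coe_jsE : ((jsE κ s : ↥(modularFunctionFieldFullC κ s)) : LaurentSeries κ)
    = qExpand κ s (jqModC κ) := rfl

theorem order_jqModC : (jqModC κ).order = -1 := by
  have h := JL_order κ 1
  have e : JL κ 1 = jqModC κ := qExpand_one_apply _
  rw [e] at h
  rw [h]
  norm_num

theorem order_qExpand_jqModC : (qExpand κ s (jqModC κ)).order = -(s : ℤ) := JL_order κ s

/-- For `s` prime, `κ(j(q^d) : d ∣ s)` is generated by `j` and `j(q^s)`. -/
theorem adjoin_jE_jsE (hs : s.Prime) :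
    IntermediateField.adjoin κ ({jE κ s, jsE κ s} : Set ↥(modularFunctionFieldFullC κ s))
      = ⊤ := by
  rw [eq_top_iff]
  rintro ⟨z, hz⟩ -
  have hle : modularFunctionFieldFullC κ s ≤
      (IntermediateField.adjoin κ
        ({jE κ s, jsE κ s} : Set ↥(modularFunctionFieldFullC κ s))).map
        (modularFunctionFieldFullC κ s).val := by
    show IntermediateField.adjoin κ (divisorExpansionsC κ s) ≤ _
    rw [IntermediateField.adjoin_le_iff]
    rintro _ ⟨d, hd0, hd, rfl⟩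
    rcases (Nat.dvd_prime hs).mp hd with h1 | h1
    · refine ⟨jE κ s, IntermediateField.subset_adjoin κ _ (Set.mem_insert _ _), ?_⟩
      show jqModC κ = qExpand κ d (jqModC κ)
      rw [qExpand_congr h1, qExpand_one_apply]
    · refine ⟨jsE κ s, IntermediateField.subset_adjoin κ _
        (Set.mem_insert_of_mem _ rfl), ?_⟩
      show qExpand κ s (jqModC κ) = qExpand κ d (jqModC κ)
      rw [qExpand_congr h1]
  obtain ⟨w, hw, hwz⟩ := hle hz
  have : w = ⟨z, hz⟩ := Subtype.ext hwz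
  rw [← this]
  exact hw

/-- **Symmetry of the modular equation, degrees**, over an algebraically closed field `κ`:
if `κ(j, j_s)` is a function field with `[κ(j, j_s) : κ(j)] = s + 1` and the modular equation
holds over `κ`, then `[κ(j, j_s) : κ(j_s)] = s + 1`. -/
theorem swapDeg_fullC [IsAlgClosed κ] (hs : s.Prime)
    (hFF : IsFF κ ↥(modularFunctionFieldFullC κ s))
    (hdeg : (IntermediateField.adjoin κ ({jqModC κ} : Set (LaurentSeries κ))).relfinrank
      (modularFunctionFieldFullC κ s) = s + 1)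
    (c : ℕ → ℕ → κ)
    (hc : modEqVal s c (jqModC κ) (qExpand κ s (jqModC κ)) = 0) :
    (IntermediateField.adjoin κ
        ({qExpand κ s (jqModC κ)} : Set (LaurentSeries κ))).relfinrank
      (modularFunctionFieldFullC κ s) = s + 1 := by
  set E := modularFunctionFieldFullC κ s with hE
  have hx0 : (jqModC κ).order < 0 := by rw [order_jqModC]; norm_num
  have hy0 : (qExpand κ s (jqModC κ)).order < 0 := by
    rw [order_qExpand_jqModC]
    have : (0 : ℤ) < s := by exact_mod_cast hs.pos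
    omega
  have hx : Transcendental κ (jE κ s) :=
    transcendental_subtype E (jE κ s) (transcendental_of_order_neg hx0)
  have hy : Transcendental κ (jsE κ s) :=
    transcendental_subtype E (jsE κ s) (transcendental_of_order_neg hy0)
  have hdegx : Module.finrank ↥(κ⟮jE κ s⟯) ↥E = s + 1 := by
    rw [finrank_adjoin_simple_subtype E (jE κ s)]
    exact hdeg
  -- the `q`-order place
  have hxne : jE κ s ≠ 0 := fun h => hx (h ▸ isAlgebraic_zero)
  have hyne : jsE κ s ≠ 0 := fun h => hy (h ▸ isAlgebraic_zero)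
  set P : Place κ ↥E :=
    Fermat.Agent.RED.KD.H22.laurentPlace E (jE κ s) (order_jqModC κ) with hP
  have hPx : P.ord (jE κ s) = -1 := by
    rw [hP, Fermat.Agent.RED.KD.H22.ord_laurentPlace E (jE κ s) (order_jqModC κ) _ hxne]
    exact order_jqModC κ
  have hPy : P.ord (jsE κ s) = -(s : ℤ) := by
    rw [hP, Fermat.Agent.RED.KD.H22.ord_laurentPlace E (jE κ s) (order_jqModC κ) _ hyne]
    exact order_qExpand_jqModC κ s
  -- the relation in `E`
  have hrel0 : modEqVal s c (jE κ s) (jsE κ s) = 0 := by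
    have h1 := map_modEqVal (RingHom.id κ) (E.val : ↥E →+* LaurentSeries κ)
      (fun a => E.val.commutes a) s c (jE κ s) (jsE κ s)
    have h2 : (E.val : ↥E →+* LaurentSeries κ) (modEqVal s c (jE κ s) (jsE κ s)) = 0 :=
      h1.trans hc
    exact Subtype.ext h2
  rw [modEqVal_eq_rel] at hrel0
  have h := swapDeg_abs hFF (jE κ s) (jsE κ s) (adjoin_jE_jsE κ s hs) s hs.one_le hx hy hdegx
    P hPx hPy (modEqCoef s c (jsE κ s)) (modEqCoef_mem s c (jsE κ s)) hrel0
  exact (finrank_adjoin_simple_subtype E (jsE κ s)).symm.trans h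

end Field

/-! ## The modular equation over `ℚ̄` and over the residue field -/

section ModEq

theorem coeffMap_injective_of_injective {R S : Type*} [CommRing R] [CommRing S] (f : R →+* S)
    (hf : Function.Injective f) : Function.Injective (coeffMap f) := by
  intro x y hxy
  ext n
  have := congrArg (fun z : LaurentSeries S => z.coeff n) hxy
  exact hf (by simpa using this)

/-- The modular equation of prime level `s` over `ℚ̄`, as an identity of Laurent series. -/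
theorem modEq_bar (s : ℕ) [NeZero s] (hs : s.Prime) :
    ∃ c : ℕ → ℕ → AlgebraicClosure ℚ, (∀ i k, IsIntegral ℤ (c i k)) ∧
      modEqVal s c (jqModC (AlgebraicClosure ℚ))
        (qExpand (AlgebraicClosure ℚ) s (jqModC (AlgebraicClosure ℚ))) = 0 := by
  obtain ⟨c, hc⟩ := Fermat.Agent.S15.H23.stmt_modEq s hs
  refine ⟨c, hc.integral, ?_⟩
  have h1 := map_modEqVal (RingHom.id (AlgebraicClosure ℚ))
    ((modularFunctionFieldBar s).val :
      ↥(modularFunctionFieldBar s) →+* LaurentSeries (AlgebraicClosure ℚ))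
    (fun a => (modularFunctionFieldBar s).val.commutes a) s c
    (Fermat.Agent.S15.jBar s) (Fermat.Agent.S15.jBarN s)
  rw [hc.rel, map_zero] at h1
  have e1 : ((modularFunctionFieldBar s).val :
      ↥(modularFunctionFieldBar s) →+* LaurentSeries (AlgebraicClosure ℚ))
      (Fermat.Agent.S15.jBar s) = jqModC (AlgebraicClosure ℚ) := by
    show coeffEmb (AlgebraicClosure ℚ) jq = _
    have := coeffEmb_qExpand_jq (L := AlgebraicClosure ℚ) 1
    rwa [qExpand_one_apply, qExpand_one_apply] at this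
  have e2 : ((modularFunctionFieldBar s).val :
      ↥(modularFunctionFieldBar s) →+* LaurentSeries (AlgebraicClosure ℚ))
      (Fermat.Agent.S15.jBarN s)
      = qExpand (AlgebraicClosure ℚ) s (jqModC (AlgebraicClosure ℚ)) :=
    coeffEmb_qExpand_jq (L := AlgebraicClosure ℚ) s
  rw [e1, e2] at h1
  exact h1.symm

/-- Algebraic integers lie in every valuation subring. -/
theorem mem_valuationSubring_of_isIntegral {L : Type*} [Field L] (A : ValuationSubring L)
    {x : L} (hx : IsIntegral ℤ x) : x ∈ A := by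
  have h1 : IsIntegral ↥A x := hx.tower_top
  obtain ⟨y, hy⟩ := IsIntegrallyClosed.isIntegral_iff.mp h1
  rw [← hy]
  exact y.2

/-- The modular equation of prime level `s` over the residue field of a valuation subring of
`ℚ̄`. -/
theorem modEq_res (A : ValuationSubring (AlgebraicClosure ℚ)) (s : ℕ) [NeZero s]
    (hs : s.Prime) :
    ∃ c : ℕ → ℕ → kV A,
      modEqVal s c (jqModC (kV A)) (qExpand (kV A) s (jqModC (kV A))) = 0 := by
  obtain ⟨c, hint, hc⟩ := modEq_bar s hs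
  set c' : ℕ → ℕ → ↥A := fun i k => ⟨c i k, mem_valuationSubring_of_isIntegral A (hint i k)⟩
    with hc'
  -- the identity over `A`
  have hA : modEqVal s c' (jqModC ↥A) (qExpand ↥A s (jqModC ↥A)) = 0 := by
    apply coeffMap_injective_of_injective A.subtype Subtype.val_injective
    rw [map_zero, map_modEqVal A.subtype (coeffMap A.subtype)
      (fun a => coeffMap_algebraMap A.subtype a), coeffMap_qExpand, coeffMap_jqModC]
    exact hc
  refine ⟨fun i k => resV A (c' i k), ?_⟩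
  have h2 := map_modEqVal (resV A) (coeffMap (resV A))
    (fun a => coeffMap_algebraMap (resV A) a) s c' (jqModC ↥A) (qExpand ↥A s (jqModC ↥A))
  rw [hA, map_zero, coeffMap_qExpand, coeffMap_jqModC] at h2
  exact h2.symm

end ModEq

/-! ## `Stmt_SwapDeg` -/

theorem isFF_fullC_bar (N : ℕ) [NeZero N] :
    IsFF (AlgebraicClosure ℚ) ↥(modularFunctionFieldFullC (AlgebraicClosure ℚ) N) := by
  have h := H95.stmt_HKA_isFF N
  have e : modularFunctionFieldBar N = modularFunctionFieldFullC (AlgebraicClosure ℚ) N :=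
    laurentBaseChange_full_eq N
  rw [e] at h
  exact h

theorem isFF_fullC_res (N ℓ : ℕ) [NeZero N] (hℓ : ℓ.Prime) (hℓN : ¬ ℓ ∣ N)
    (A : ValuationSubring (AlgebraicClosure ℚ)) (hA : A.LiesOverPrime ℓ) :
    IsFF (kV A) ↥(modularFunctionFieldFullC (kV A) N) := by
  have h1 := isFF_redField_bar N ℓ hℓ hℓN A hA
  have h2 := stmt_GA N ℓ hℓ hℓN A hA
  rw [h2] at h1
  exact h1

/-- `[κ(j(q^d) : d ∣ N) : κ(j)] = ψ(N)` over the residue field. -/
theorem relfinrank_fullC_res (N ℓ : ℕ) [NeZero N] (hℓ : ℓ.Prime) (hℓN : ¬ ℓ ∣ N)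
    (A : ValuationSubring (AlgebraicClosure ℚ)) (hA : A.LiesOverPrime ℓ) :
    (IntermediateField.adjoin (kV A) ({jqModC (kV A)} : Set (LaurentSeries (kV A)))).relfinrank
      (modularFunctionFieldFullC (kV A) N) = dedekindPsi N := by
  rw [(stmt_GA_deg N ℓ hℓ hℓN A hA).1, relfinrank_fullC_bar]

/-- `[κ(j, j_s) : κ(j_s)] = s + 1` over `ℚ̄`. -/
theorem relfinrank_swap_bar (s : ℕ) [NeZero s] (hs : s.Prime) :
    (IntermediateField.adjoin (AlgebraicClosure ℚ)
        ({qExpand (AlgebraicClosure ℚ) s (jqModC (AlgebraicClosure ℚ))} :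
          Set (LaurentSeries (AlgebraicClosure ℚ)))).relfinrank
      (modularFunctionFieldFullC (AlgebraicClosure ℚ) s) = s + 1 := by
  obtain ⟨c, -, hc⟩ := modEq_bar s hs
  refine swapDeg_fullC (AlgebraicClosure ℚ) s hs (isFF_fullC_bar s) ?_ c hc
  rw [relfinrank_fullC_bar, dedekindPsi_prime hs]

/-- `[κ(j, j_s) : κ(j_s)] = s + 1` over the residue field of `A` over `ℓ ≠ s`. -/
theorem relfinrank_swap_res (ℓ s : ℕ) [NeZero s] (hℓ : ℓ.Prime) (hs : s.Prime) (hsℓ : s ≠ ℓ)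
    (A : ValuationSubring (AlgebraicClosure ℚ)) (hA : A.LiesOverPrime ℓ) :
    (IntermediateField.adjoin (kV A)
        ({qExpand (kV A) s (jqModC (kV A))} : Set (LaurentSeries (kV A)))).relfinrank
      (modularFunctionFieldFullC (kV A) s) = s + 1 := by
  haveI : IsAlgClosed (kV A) := isAlgClosed_kV A
  have hℓs : ¬ ℓ ∣ s := fun h => hsℓ ((Nat.prime_dvd_prime_iff_eq hℓ hs).mp h).symm
  obtain ⟨c, hc⟩ := modEq_res A s hs
  refine swapDeg_fullC (kV A) s hs (isFF_fullC_res s ℓ hℓ hℓs A hA) ?_ c hc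
  rw [relfinrank_fullC_res s ℓ hℓ hℓs A hA, dedekindPsi_prime hs]

/-- **Symmetry of the modular equation, degrees.** -/
theorem stmt_SwapDeg : Fermat.Agent.RED.H95.Stmt_SwapDeg := by
  intro ℓ s _ hℓ hs hsℓ A hA
  have hℓs : ¬ ℓ ∣ s := fun h => hsℓ ((Nat.prime_dvd_prime_iff_eq hℓ hs).mp h).symm
  refine ⟨?_, ?_⟩
  · rw [relfinrank_swap_res ℓ s hℓ hs hsℓ A hA, relfinrank_fullC_res s ℓ hℓ hℓs A hA,
      dedekindPsi_prime hs]
  · rw [relfinrank_swap_bar s hs, relfinrank_fullC_bar, dedekindPsi_prime hs]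

end Fermat.Agent.RED.H51

end
end
-- ==== END Fermat.Agent.RED.HR.H51_DegSwap

-- ==== BEGIN Fermat.Agent.S05.M1Final
section

set_option autoImplicit false

namespace Fermat.Agent.S05

/-- Piece D (M1): the component homomorphism in the multiplicative case. -/
theorem M1 {L : Type*} [Field L] [DecidableEq L] : Stmt_M1 (L := L) :=
  M1.M1_of_cases H6.M1_E0E0 H6.M1_E0Cp

end Fermat.Agent.S05

end
-- ==== END Fermat.Agent.S05.M1Final

-- ==== BEGIN Fermat.Agent.S13.H87_PKernel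
section

set_option autoImplicit false

namespace Fermat.Agent.S13.H87

open WeierstrassCurve WeierstrassCurve.Affine WeierstrassCurve.Affine.Point
open Fermat.Agent.S05

/-! ### Arithmetic of the Frey package at an odd prime (including `q = p`) -/

open Fermat.Agent.S05.H15 in
/-- Variant of S05 piece G without the hypothesis `q ≠ p` (and without the conclusion `|p| = 1`),
recording in addition that the shift `e` is integral at `A`. -/
theorem arith_p (P : FreyPackage) (q : ℕ) (hq : q.Prime) (hq2 : q ≠ 2)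
    (A : ValuationSubring Qbar) (hA : A.LiesOverPrime q) :
    ∃ e c : ℚ, e ^ 3 + (4 * P.freyCurve.a₂ + 1) * e ^ 2 + 16 * P.freyCurve.a₄ * e = 0 ∧
      ModelHyp A ((modelOf P.freyCurve e)⁄Qbar) ∧
      A.valuation (algebraMap ℚ Qbar e) ≤ 1 ∧
      A.valuation (algebraMap ℚ Qbar c) ^ P.p =
        A.valuation (algebraMap ℚ Qbar (modelOf P.freyCurve e).a₄) ^ 2 := by
  have hqK : ((q : ℕ) : Qbar) ∈ A.nonunits := hA
  have h4 : 4 * P.freyCurve.a₂ + 1 = ((P.b ^ P.p - P.a ^ P.p : ℤ) : ℚ) := by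
    simp only [FreyPackage.freyCurve]
    push_cast
    ring
  have h16 : 16 * P.freyCurve.a₄ = ((-(P.a ^ P.p * P.b ^ P.p) : ℤ) : ℚ) := by
    simp only [FreyPackage.freyCurve]
    push_cast
    ring
  have hval2 : A.valuation (2 : Qbar) = 1 := by
    have := valuation_natCast_eq_one_of_ne (A := A) hq hqK Nat.prime_two (Ne.symm hq2)
    simpa using this
  have hcast : ∀ n : ℤ, algebraMap ℚ Qbar ((n : ℤ) : ℚ) = ((n : ℤ) : Qbar) := fun n => by simp
  by_cases hc : (q : ℤ) ∣ P.c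
  · -- case `q ∣ c`: `e = a^p`, `c₀ = (a c)^2`
    have hqb : ¬ (q : ℤ) ∣ P.b := fun h =>
      not_dvd_of_gcd_eq_one hq P.hgcdbc h hc
    refine ⟨((P.a ^ P.p : ℤ) : ℚ), (((P.a * P.c) ^ 2 : ℤ) : ℚ), ?_, ?_, ?_, ?_⟩
    · rw [h4, h16]; push_cast; ring
    · have ha2 : (modelOf P.freyCurve ((P.a ^ P.p : ℤ) : ℚ)).a₂ =
          ((P.b ^ P.p + 2 * P.a ^ P.p : ℤ) : ℚ) := by
        simp only [modelOf]; rw [h4]; push_cast; ring
      have ha4 : (modelOf P.freyCurve ((P.a ^ P.p : ℤ) : ℚ)).a₄ =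
          ((P.a ^ P.p * P.c ^ P.p : ℤ) : ℚ) := by
        simp only [modelOf]; rw [h4, h16, ← P.hFLT]; push_cast; ring
      refine ⟨by simp [modelOf], by simp [modelOf], by simp [modelOf], ?_, ?_, ?_, hval2, ?_⟩
      · show A.valuation (algebraMap ℚ Qbar _) ≤ 1
        rw [ha2, hcast]; exact valuation_intCast_le_one A _
      · show A.valuation (algebraMap ℚ Qbar _) ≤ 1
        rw [ha4, hcast]; exact valuation_intCast_le_one A _
      · show algebraMap ℚ Qbar _ ≠ 0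
        rw [ha4, hcast]
        have : (P.a ^ P.p * P.c ^ P.p : ℤ) ≠ 0 :=
          mul_ne_zero (pow_ne_zero _ P.ha0) (pow_ne_zero _ P.hc0)
        exact_mod_cast this
      · show A.valuation ((algebraMap ℚ Qbar _) ^ 2 - 4 * (algebraMap ℚ Qbar _)) = 1
        rw [ha2, ha4, hcast, hcast]
        have : (((P.b ^ P.p + 2 * P.a ^ P.p : ℤ) : Qbar)) ^ 2
            - 4 * ((P.a ^ P.p * P.c ^ P.p : ℤ) : Qbar) = (((P.b ^ P.p) ^ 2 : ℤ) : Qbar) := by
          rw [← P.hFLT]; push_cast; ring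
        rw [this]
        exact valuation_intCast_eq_one_of_not_dvd hq hqK
          (not_dvd_pow hq (not_dvd_pow hq hqb _) _)
    · rw [hcast]; exact valuation_intCast_le_one A _
    · have ha4 : (modelOf P.freyCurve ((P.a ^ P.p : ℤ) : ℚ)).a₄ =
          ((P.a ^ P.p * P.c ^ P.p : ℤ) : ℚ) := by
        simp only [modelOf]; rw [h4, h16, ← P.hFLT]; push_cast; ring
      rw [ha4, hcast, hcast, ← map_pow, ← map_pow]
      congr 1
      push_cast
      ring
  · -- case `q ∤ c`: `e = 0`, `c₀ = (a b)^2`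
    refine ⟨0, (((P.a * P.b) ^ 2 : ℤ) : ℚ), ?_, ?_, ?_, ?_⟩
    · have hp0 : P.p ≠ 0 := P.hp0
      simp
    · have ha2 : (modelOf P.freyCurve 0).a₂ = ((P.b ^ P.p - P.a ^ P.p : ℤ) : ℚ) := by
        simp only [modelOf]; rw [h4]; push_cast; ring
      have ha4 : (modelOf P.freyCurve 0).a₄ = ((-(P.a ^ P.p * P.b ^ P.p) : ℤ) : ℚ) := by
        simp only [modelOf]; rw [h16]; push_cast; ring
      refine ⟨by simp [modelOf], by simp [modelOf], by simp [modelOf], ?_, ?_, ?_, hval2, ?_⟩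
      · show A.valuation (algebraMap ℚ Qbar _) ≤ 1
        rw [ha2, hcast]; exact valuation_intCast_le_one A _
      · show A.valuation (algebraMap ℚ Qbar _) ≤ 1
        rw [ha4, hcast]; exact valuation_intCast_le_one A _
      · show algebraMap ℚ Qbar _ ≠ 0
        rw [ha4, hcast]
        have : (-(P.a ^ P.p * P.b ^ P.p) : ℤ) ≠ 0 :=
          neg_ne_zero.2 (mul_ne_zero (pow_ne_zero _ P.ha0) (pow_ne_zero _ P.hb0))
        exact_mod_cast this
      · show A.valuation ((algebraMap ℚ Qbar _) ^ 2 - 4 * (algebraMap ℚ Qbar _)) = 1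
        rw [ha2, ha4, hcast, hcast]
        have : (((P.b ^ P.p - P.a ^ P.p : ℤ) : Qbar)) ^ 2
            - 4 * ((-(P.a ^ P.p * P.b ^ P.p) : ℤ) : Qbar) = (((P.c ^ P.p) ^ 2 : ℤ) : Qbar) := by
          rw [← P.hFLT]; push_cast; ring
        rw [this]
        exact valuation_intCast_eq_one_of_not_dvd hq hqK
          (not_dvd_pow hq (not_dvd_pow hq hc _) _)
    · rw [_root_.map_zero, _root_.map_zero]; exact zero_le_one
    · have ha4 : (modelOf P.freyCurve 0).a₄ = ((-(P.a ^ P.p * P.b ^ P.p) : ℤ) : ℚ) := by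
        simp only [modelOf]; rw [h16]; push_cast; ring
      rw [ha4, hcast, hcast, ← map_pow, ← map_pow]
      congr 1
      push_cast
      ring

/-! ### The core argument on the model, without `|p| = 1` -/

section core

variable {K₀ L : Type} [Field K₀] [Field L] [DecidableEq L] [Algebra K₀ L] [IsAlgClosed L]

/-- Multiplicative case of the S05 core argument, stopped before the use of `F1`:
for a `p`-torsion point `P` and an inertia-like `σ`, `σ P - P` lies in the kernel of reduction.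
(No hypothesis on `|p|`.) -/
theorem core_mult_E1 (hM1 : Stmt_M1 (L := L)) (hF2 : Stmt_F2 (L := L))
    (A : ValuationSubring L) (W' : Affine K₀) (hyp : ModelHyp A (W'⁄L))
    (hb : A.valuation (algebraMap K₀ L W'.a₄) < 1)
    (p : ℕ) (hodd : Odd p)
    (c : K₀) (hc : A.valuation (algebraMap K₀ L c) ^ p = A.valuation (algebraMap K₀ L W'.a₄) ^ 2)
    (σ : L ≃ₐ[K₀] L) (hσv : ∀ x, A.valuation (σ x) = A.valuation x)
    (hσr : ∀ x, A.valuation x ≤ 1 → A.valuation (σ x - x) < 1)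
    (P : (W'⁄L).Point) (hP : (p : ℤ) • P = 0) : S05.InE1 A (σ • P - P) := by
  have hp0 : p ≠ 0 := by
    rintro rfl
    exact absurd hodd (by decide)
  have hP' : p • P = 0 := by rwa [natCast_zsmul] at hP
  have hb' : A.valuation (W'⁄L).a₄ < 1 := hb
  have hI := S05.inertiaLike_smul A W' σ hσv hσr
  obtain ⟨β, hβ⟩ := IsAlgClosed.exists_pow_nat_eq ((W'⁄L).a₂) (n := 2) (by norm_num)
  obtain ⟨φ, hker, hφ⟩ := hM1 A (W'⁄L) hyp hb' β hβ
  -- it suffices to find a σ-fixed point `P₀` in the same component as `P`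
  suffices h : ∃ P₀ : (W'⁄L).Point, σ • P₀ = P₀ ∧ φ P₀ = φ P by
    obtain ⟨P₀, hfix, hcomp⟩ := h
    have hQ : S05.InE0 A (P - P₀) := by
      rw [← hker, map_sub, hcomp, sub_self]
    have hR := hF2 A (W'⁄L) hyp _ _ hI (P - P₀) hQ
    have hR' : σ • (P - P₀) - (P - P₀) = σ • P - P := by
      rw [smul_sub, hfix]; abel
    simp only [hR'] at hR
    exact hR
  -- notation
  have hb0 : algebraMap K₀ L W'.a₄ ≠ 0 := hyp.b_ne
  have hvb0 : A.valuation (algebraMap K₀ L W'.a₄) ≠ 0 := by simpa using hb0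
  have hc0 : algebraMap K₀ L c ≠ 0 := by
    intro h
    rw [h, _root_.map_zero, zero_pow hp0] at hc
    exact pow_ne_zero 2 hvb0 hc.symm
  have hvc0 : A.valuation (algebraMap K₀ L c) ≠ 0 := by simpa using hc0
  have hvc1 : A.valuation (algebraMap K₀ L c) < 1 := by
    by_contra h
    push Not at h
    have h1 : 1 ≤ A.valuation (algebraMap K₀ L c) ^ p := one_le_pow₀ h
    rw [hc] at h1
    have h2 : A.valuation (algebraMap K₀ L W'.a₄) ^ 2 < 1 := pow_lt_one₀ zero_le hb two_ne_zero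
    exact absurd h1 (not_le.2 h2)
  have hσa : (σ : L →+* L) (W'⁄L).a₂ = (W'⁄L).a₂ := σ.commutes _
  have hσb : (σ : L →+* L) (W'⁄L).a₄ = (W'⁄L).a₄ := σ.commutes _
  set cU : (A.ValueGroup)ˣ := valUnit A (algebraMap K₀ L c) hc0 with hcU
  have hcUp : cU ^ p = bUnit hyp ^ 2 := by
    apply Units.ext
    simp only [hcU, valUnit, bUnit, Units.val_pow_eq_pow_val, Units.val_mk0]
    exact hc
  -- small case: `0 < r`, `2 r < p`
  have small : ∀ r : ℕ, 0 < r → 2 * r < p → ∃ P₀ : (W'⁄L).Point, σ • P₀ = P₀ ∧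
      φ P₀ = Additive.ofMul (QuotientGroup.mk (cU ^ r)) := by
    intro r hr0 hr
    have hx1 : A.valuation ((algebraMap K₀ L c) ^ r) < 1 := by
      rw [map_pow]
      exact pow_lt_one₀ zero_le hvc1 hr0.ne'
    have hxb : A.valuation (W'⁄L).a₄ < A.valuation ((algebraMap K₀ L c) ^ r) := by
      by_contra h
      push Not at h
      have h2 : A.valuation ((algebraMap K₀ L c) ^ r) ^ 2 ≤ A.valuation (W'⁄L).a₄ ^ 2 :=
        pow_le_pow_left₀ zero_le h 2
      have h3 : A.valuation (algebraMap K₀ L c) ^ p < A.valuation (algebraMap K₀ L c) ^ (2 * r) :=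
        pow_lt_pow_right_of_lt_one₀ (zero_lt_iff.2 hvc0) hvc1 hr
      rw [map_pow, ← pow_mul, mul_comm r 2] at h2
      exact absurd (h3.trans_le h2) (by rw [hc]; exact lt_irrefl _)
    have hσx : (σ : L →+* L) ((algebraMap K₀ L c) ^ r) = (algebraMap K₀ L c) ^ r := by
      rw [map_pow]; congr 1
      exact σ.commutes c
    obtain ⟨y₀, hns, hbr, hσy⟩ := exists_fixed_branch_point hyp hb' β hβ (σ : L →+* L) hσr hσa hσb
      _ hσx hx1 hxb
    refine ⟨Point.some _ _ hns, ?_, ?_⟩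
    · show Point.some (σ _) (σ y₀) _ = _
      have h1 : σ ((algebraMap K₀ L c) ^ r) = (algebraMap K₀ L c) ^ r := hσx
      have h2 : σ y₀ = y₀ := hσy
      simp only [h1, h2]
    · rw [hφ _ _ hns (pow_ne_zero _ hc0) hxb hx1 hbr]
      congr 2
      apply Units.ext
      simp [hcU, valUnit, map_pow]
  -- all residues `r < p`
  have allr : ∀ r : ℕ, r < p → ∃ P₀ : (W'⁄L).Point, σ • P₀ = P₀ ∧
      φ P₀ = Additive.ofMul (QuotientGroup.mk (cU ^ r)) := by
    intro r hr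
    rcases Nat.eq_zero_or_pos r with rfl | hr0
    · exact ⟨0, smul_zero σ, by simp⟩
    rcases lt_or_gt_of_ne (show 2 * r ≠ p from fun h => by
        obtain ⟨k, hk⟩ := hodd; omega) with h2 | h2
    · exact small r hr0 h2
    · obtain ⟨P₀, hfix, hcomp⟩ := small (p - r) (by omega) (by omega)
      refine ⟨-P₀, by rw [smul_neg, hfix], ?_⟩
      rw [map_neg, hcomp, ← ofMul_inv, ← QuotientGroup.mk_inv]
      congr 1
      rw [QuotientGroup.eq]
      rw [inv_inv, ← pow_add, Nat.sub_add_cancel hr.le, hcUp]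
      exact Subgroup.mem_zpowers _
  -- the component of `P`
  obtain ⟨g, hg⟩ := QuotientGroup.mk_surjective (Additive.toMul (φ P))
  have hgp : g ^ p ∈ Subgroup.zpowers (bUnit hyp ^ 2) := by
    rw [← QuotientGroup.eq_one_iff, QuotientGroup.mk_pow, hg, ← toMul_nsmul, ← map_nsmul, hP',
      _root_.map_zero, toMul_zero]
  obtain ⟨k, hk⟩ := Subgroup.mem_zpowers_iff.1 hgp
  have hgk : g = cU ^ k := by
    have : g ^ p = (cU ^ k) ^ p := by
      rw [← hk, ← hcUp, ← zpow_natCast (cU ^ k) p, ← zpow_natCast cU p, ← zpow_mul, ← zpow_mul,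
        mul_comm]
    exact pow_left_injective hp0 this
  have hpZ : (p : ℤ) ≠ 0 := by exact_mod_cast hp0
  obtain ⟨P₀, hfix, hcomp⟩ := allr (k % (p : ℤ)).toNat (by
    have := Int.emod_lt_of_pos k (show (0 : ℤ) < p by omega)
    have := Int.emod_nonneg k hpZ
    omega)
  refine ⟨P₀, hfix, ?_⟩
  rw [hcomp]
  apply Additive.toMul.injective
  rw [toMul_ofMul, ← hg, hgk, QuotientGroup.eq]
  have hkr : cU ^ k = (bUnit hyp ^ 2) ^ (k / (p : ℤ)) * cU ^ (k % (p : ℤ)).toNat := by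
    rw [← hcUp, ← zpow_natCast cU p, ← zpow_mul, ← zpow_natCast cU (k % (p : ℤ)).toNat,
      Int.toNat_of_nonneg (Int.emod_nonneg k hpZ), ← zpow_add, Int.mul_ediv_add_emod]
  rw [hkr, mul_comm, mul_inv_cancel_right]
  exact Subgroup.zpow_mem _ (Subgroup.mem_zpowers _) _

/-- Good and multiplicative case together. -/
theorem core_E1 (hM1 : Stmt_M1 (L := L))
    (A : ValuationSubring L) (W' : Affine K₀) (hyp : ModelHyp A (W'⁄L))
    (p : ℕ) (hodd : Odd p)
    (c : K₀) (hc : A.valuation (algebraMap K₀ L c) ^ p = A.valuation (algebraMap K₀ L W'.a₄) ^ 2)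
    (σ : L ≃ₐ[K₀] L) (hσv : ∀ x, A.valuation (σ x) = A.valuation x)
    (hσr : ∀ x, A.valuation x ≤ 1 → A.valuation (σ x - x) < 1)
    (P : (W'⁄L).Point) (hP : (p : ℤ) • P = 0) : S05.InE1 A (σ • P - P) := by
  rcases lt_or_eq_of_le hyp.b_le with hb | hb
  · exact core_mult_E1 hM1 S05.H5.F2 A W' hyp hb p hodd c hc σ hσv hσr P hP
  · exact H55.smul_sub_inE1 S05.H5.F2 A W' hyp hb σ hσv hσr P

end core

/-! ### Assembly -/

section main

/-- Comparison of the kernels of reduction under the variable change `x = 4 X - e`. -/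
lemma one_lt_val_fx_iff {A : ValuationSubring Qbar} (h2 : A.valuation (2 : Qbar) = 1)
    {r X : Qbar} (hr : A.valuation r ≤ 1) :
    1 < A.valuation (H14.fx (2 : Qbar) r X) ↔ X ∉ A := by
  have h4 : A.valuation ((2 : Qbar) ^ 2 * X) = A.valuation X := by
    rw [map_mul, map_pow, h2, one_pow, one_mul]
  rw [H14.fx, ← A.valuation_le_one_iff, not_le]
  constructor
  · intro h
    by_contra hX
    rw [not_lt] at hX
    have : A.valuation ((2 : Qbar) ^ 2 * X + r) ≤ 1 :=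
      A.valuation.map_add_le (by rw [h4]; exact hX) hr
    exact absurd h (not_lt.mpr this)
  · intro hX
    rw [A.valuation.map_add_eq_of_lt_left (by rw [h4]; exact lt_of_le_of_lt hr hX), h4]
    exact hX

/-- (I6) from the component homomorphism of S05 (piece D, `Stmt_M1`). -/
theorem p_kernel_of_M1 (hM1 : ∀ (L : Type) [Field L] [DecidableEq L], Stmt_M1 (L := L)) :
    Stmt_p_kernel := by
  intro P A hA
  have hp2 : P.p ≠ 2 := by have := P.hp5; omega
  obtain ⟨e, c, he, hyp, heA, hc⟩ := arith_p P P.p P.pp hp2 A hA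
  have hvc := H14.isVarChange_modelOf (L := Qbar) P.freyCurve rfl rfl rfl e he
  -- equivariance of the variable change
  have hΦσ : ∀ (σ : Gal) (Q : (P.freyCurve⁄Qbar).Point),
      hvc.addEquiv (σ • Q) = σ • hvc.addEquiv Q := by
    intro σ Q
    rcases Q with _ | ⟨X, Y, hXY⟩
    · rfl
    · rw [WeierstrassCurve.Affine.Point.algEquiv_smul_def, Affine.Point.map_some,
        hvc.addEquiv_some, hvc.addEquiv_some,
        WeierstrassCurve.Affine.Point.algEquiv_smul_def, Affine.Point.map_some]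
      apply H14.IsVarChange.some_congr
      · simp only [H14.fx, map_add, map_mul, map_pow, map_ofNat, AlgEquiv.coe_toAlgHom,
          AlgEquiv.commutes]
      · simp only [H14.fy, map_add, map_mul, map_pow, map_ofNat, _root_.map_zero, map_one,
          AlgEquiv.coe_toAlgHom]
  -- comparison of the two kernels of reduction
  have hr : A.valuation (algebraMap ℚ Qbar (-e)) ≤ 1 := by
    rw [map_neg, Valuation.map_neg]; exact heA
  have hcmp : ∀ Q : (P.freyCurve⁄Qbar).Point,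
      S05.InE1 A (hvc.addEquiv Q) ↔ S13.InE1 A Q := by
    intro Q
    rcases Q with _ | ⟨X, Y, hXY⟩
    · exact Iff.rfl
    · rw [hvc.addEquiv_some]
      exact one_lt_val_fx_iff hyp.two hr
  -- the kernel of reduction as a subgroup of `V`
  let T₀ : AddSubgroup (Vp P) :=
    { carrier := {x | S05.InE1 A (hvc.addEquiv x.1)}
      zero_mem' := by
        show S05.InE1 A (hvc.addEquiv (0 : (P.freyCurve⁄Qbar).Point))
        rw [_root_.map_zero]; trivial
      add_mem' := by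
        intro x y hx hy
        show S05.InE1 A (hvc.addEquiv (x.1 + y.1))
        rw [map_add]
        exact S05.H5.E1_add A _ hyp _ _ hx hy
      neg_mem' := by
        intro x hx
        show S05.InE1 A (hvc.addEquiv (-x.1))
        rw [map_neg]
        revert hx
        show S05.InE1 A (hvc.addEquiv x.1) → _
        generalize hvc.addEquiv x.1 = Q
        intro hQ
        rcases Q with _ | ⟨X, Y, hXY⟩
        · exact hQ
        · exact hQ }
  refine ⟨AddSubgroup.toZModSubmodule P.p T₀, ?_, ?_⟩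
  · intro x
    rw [AddSubgroup.mem_toZModSubmodule]
    exact hcmp x.1
  · intro σ hσ x
    rw [AddSubgroup.mem_toZModSubmodule]
    show S05.InE1 A (hvc.addEquiv (σ • x.1 - x.1))
    rw [map_sub, hΦσ]
    obtain ⟨hval, hres⟩ := S05.inertia A σ hσ
    have hx : (P.p : ℤ) • x.1 = 0 := by
      have := x.2
      rwa [Submodule.mem_torsionBy_iff] at this
    have hΦx : (P.p : ℤ) • hvc.addEquiv x.1 = 0 :=
      (map_zsmul hvc.addEquiv (P.p : ℤ) x.1).symm.trans
        ((congrArg hvc.addEquiv hx).trans (_root_.map_zero hvc.addEquiv))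
    exact core_E1 (hM1 Qbar) A (modelOf P.freyCurve e) hyp P.p P.hp_odd c hc σ hval hres _ hΦx

end main

end Fermat.Agent.S13.H87

end
-- ==== END Fermat.Agent.S13.H87_PKernel
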