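-- GENERATED (merged mirror, NOTES/tools/trim/merge3_helper67.py): 8 modules of the originals, bodies verbatim.
import Fermat.Prelude.Def_FLTPrelim_GaloisRep
import Fermat.Agent.Zm.S44_L02_003
import Fermat.Agent.Zm.S44_L04_001
import Fermat.Agent.Zm.S44_L03_002
import Fermat.Agent.Zm.S44_L01_003
import Fermat.Agent.Zm.S44_L03_003
import Fermat.Agent.Zm.S35_L02_000
import Fermat.Agent.Zm.S44_L04_000
import Fermat.Agent.Zm.S44_L02_004
import Fermat.Agent.Zm.S44_L03_001
import Fermat.Agent.Zm.S44_L01_004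

-- ==== BEGIN Fermat.Agent.S15.Desc.H69_CoordCuspGen
section
attribute [local instance 10000] SubalgebraClass.toAlgebra
attribute [local instance 10000] HahnSeries.powerSeriesAlgebra

/-!
# BAD_q / COORD, leaf CUSP at a general level `M q` (helper69)

`q ∤ M` tame, `A` over `q`, `T = H91.modT` the modular total conservation datum of level `M q`.
A place `z₀` of the reduced field of level `M` at which `j~` has a pole (a cusp of the special
fibre) is not a node of `T`:

* `coordCusp_gen : z₀.ord (jRed A M) < 0 → ¬ T.IsNode (κ⁻¹ z₀)`.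

Test function `f = j_q / j ^ q`, `j_q = j (t ^ q)`, as at level `p` (`H69_CoordCusp.lean`); the
poles of `j_q` are handled by the Newton polygon of the modular equation `Φ_q(j, j_q) = 0`
(`H63.newtonVal_dich` for the valuation ring of the place): `|j_q| > 1 ⇒ |j_q| ≤ |j| ^ q`.

* `modEq_level` : the modular equation of level `q` holds in `F_{M q}`;
* `regAt_jq_div` : `j_q / j ^ q` is regular at every place of `F_{M q}` at which `j` has no zero.
-/

set_option autoImplicit false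
set_option linter.style.haveILetI false
set_option linter.unusedSectionVars false
set_option linter.unusedVariables false
set_option synthInstance.maxHeartbeats 400000
set_option maxHeartbeats 1000000

noncomputable section

open HahnSeries IntermediateField AlgebraicCurve ModularCurve
open Fermat.Agent.S28.H73 Fermat.Agent.RED.H73 Fermat.Agent.RED Fermat.Agent.S24
open Fermat.Agent.BAD.H88

namespace Fermat.Agent.S15.Desc.H69C

open Fermat.Agent.BAD Fermat.Agent.BAD.H91 Fermat.Agent.RED.H17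

/-! ## The modular equation at level `M q` -/

section ModEq

/-- `modEqVal` commutes with algebra homomorphisms. -/
theorem map_modEqVal {K R R' : Type*} [CommRing K] [CommRing R] [CommRing R'] [Algebra K R]
    [Algebra K R'] (φ : R →ₐ[K] R') (p : ℕ) (c : ℕ → ℕ → K) (x y : R) :
    φ (Fermat.Agent.S15.modEqVal p c x y) = Fermat.Agent.S15.modEqVal p c (φ x) (φ y) := by
  unfold Fermat.Agent.S15.modEqVal
  simp only [map_add, map_sub, map_mul, map_pow, map_sum, AlgHom.commutes]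

variable (M q : ℕ) [NeZero M] [NeZero q] [NeZero (M * q)]

/-- **The modular equation of level `q` in `F_{M q}`**: `Φ_q(j, j_q) = 0`. -/
theorem modEq_level (hq : q.Prime) :
    ∃ c : ℕ → ℕ → Kbar, (∀ i k, IsIntegral ℤ (c i k)) ∧ c q q = 0 ∧
      Fermat.Agent.S15.modEqVal q c
        (heckeAlphaBar Kbar M q (RED.H73.jF (L := Kbar) M))
        (heckeBetaBar Kbar M q (RED.H73.jF (L := Kbar) M)) = 0 := by
  obtain ⟨c, hc⟩ := Fermat.Agent.S15.H23.stmt_modEq q hq
  refine ⟨c, hc.integral, hc.top, ?_⟩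
  have hinj : Function.Injective (modularFunctionFieldBar (M * q)).val :=
    (modularFunctionFieldBar (M * q)).val.injective
  apply hinj
  rw [map_zero, map_modEqVal]
  have hrel := congrArg (modularFunctionFieldBar q).val hc.rel
  rw [map_zero, map_modEqVal] at hrel
  have ej : jqModC Kbar = coeffEmb Kbar jq := by
    have h := RED.H73.coeffEmb_qExpand_jq (L := Kbar) 1
    rw [qExpand_one_apply, qExpand_one_apply] at h
    exact h.symm
  have e1 : (modularFunctionFieldBar (M * q)).val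
      (heckeAlphaBar Kbar M q (RED.H73.jF (L := Kbar) M))
      = (modularFunctionFieldBar q).val (Fermat.Agent.S15.jBar q) := by
    show ((heckeAlphaBar Kbar M q (RED.H73.jF (L := Kbar) M) : FN (M * q)) :
      LaurentSeries Kbar) = coeffEmb Kbar jq
    rw [coe_heckeAlphaBar]
    exact ej
  have e2 : (modularFunctionFieldBar (M * q)).val
      (heckeBetaBar Kbar M q (RED.H73.jF (L := Kbar) M))
      = (modularFunctionFieldBar q).val (Fermat.Agent.S15.jBarN q) := by
    show ((heckeBetaBar Kbar M q (RED.H73.jF (L := Kbar) M) : FN (M * q)) :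
      LaurentSeries Kbar) = coeffEmb Kbar (qExpand ℚ q jq)
    rw [coe_heckeBetaBar, Fermat.Agent.S15.H23.coeffEmb_qExpand_eq]
    show qExpand Kbar q (jqModC Kbar) = _
    rw [ej]
  rw [e1, e2]
  exact hrel

end ModEq

/-! ## Regularity of `j_q / j ^ q` -/

section Reg

variable {K F : Type*} [Field K] [Field F] [Algebra K F]

/-- Abstract form: if `Φ(x, y) = 0` for a modular-type equation with integral constant
coefficients, then `y / x ^ q` is regular at every place at which `x` has no zero. -/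
theorem regAt_div_pow_of_modEq (q : ℕ) (hq : 1 ≤ q) (c : ℕ → ℕ → K)
    (hcpp : c q q = 0) (x y : F) (hrel : Fermat.Agent.S15.modEqVal q c x y = 0)
    (P : Place K F) (hx : P.ord x ≤ 0) (hx0 : x ≠ 0) : RegAt P (y / x ^ q) := by
  by_cases hy : RegAt P y
  · rw [div_eq_mul_inv, ← inv_pow]
    refine hy.mul (RegAt.pow ?_ q)
    apply regAt_of_ord_nonneg
    rw [Place.ord_inv]
    omega
  · -- a pole of `y`: Newton polygon
    set B := P.toValuationSubring with hB
    have hy1 : 1 < B.valuation y := by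
      rw [regAt_iff_mem] at hy
      by_contra hcon
      rw [not_lt] at hcon
      exact hy ((ValuationSubring.valuation_le_one_iff B y).mp hcon)
    have hc : ∀ i k, B.valuation (algebraMap K F (c i k)) ≤ 1 := by
      intro i k
      rw [ValuationSubring.valuation_le_one_iff]
      exact (regAt_iff_mem P _).mp (regAt_algebraMap P (c i k))
    have hcpp' : algebraMap K F (c q q) = 0 := by rw [hcpp, map_zero]
    have hrel' : Fermat.Agent.S15.modEqVal q (fun i k => algebraMap K F (c i k)) x y = 0 := by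
      rw [← hrel]
      unfold Fermat.Agent.S15.modEqVal
      simp only [Algebra.algebraMap_self_apply]
    have hd := Fermat.Agent.S15.H63.newtonVal_dich B q hq
      (fun i k => algebraMap K F (c i k)) hc hcpp' x y hrel' hy1
    have hle : B.valuation y ≤ B.valuation x ^ q := by
      rcases hd with h | h
      · exact h.ge
      · rw [h, ← pow_mul]
        exact le_self_pow₀ hy1.le (Nat.mul_ne_zero (by omega) (by omega))
    rw [regAt_iff_mem, ← hB, ← ValuationSubring.valuation_le_one_iff, map_div₀, map_pow]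
    have hpos : 0 < B.valuation x ^ q := lt_of_lt_of_le (zero_lt_one.trans hy1) hle
    exact (div_le_one₀ hpos).mpr hle

end Reg

/-! ## The cusp is not a node, general level -/

section MainGen

variable {A : ValuationSubring Kbar} {q M : ℕ} (a b : ℤ) (hab : a * q + b * M = 1)
  (hq : q.Prime) [NeZero M] [NeZero (M * q)] [NeZero q] (hA : A.LiesOverPrime q)
  (hqM : ¬ q ∣ M) (ht : TameAt M q)

/-- **(CUSP)**, general level `M q`: a pole of `j~` is not a node of the modular total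
conservation datum of level `M q`. -/
theorem coordCusp_gen
    (htot : ∀ (u₁ : ↥(V1 A q M)) (u₂ : ↥(V2 A q M a b hab hq)), red1 A q M u₁ ≠ 0 →
      red2 A q M a b hab hq u₂ ≠ 0 →
      (∃ c : Kbar, (u₂ : FN (M * q)) = algebraMap Kbar (FN (M * q)) c * (u₁ : FN (M * q))) →
      ∀ D : Divisor Kbar (FN (M * q)), (∀ P, D P = P.ord (u₁ : FN (M * q))) →
        ∀ z : Place (kV A) (F1 A q M),
          Finsupp.mapDomain (rhoF1 a b hab hq hA hqM ht) D z
            = z.ord (red1 A q M u₁)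
              + (H73.betaF1 A q M hq hA M (H82.redField_eq_fullC q M a b hab hq A hA) z).ord
                  (red2 A q M a b hab hq u₂))
    (z₀ : Place (kV A) ↥(H91.redM A M)) (hz₀ : z₀.ord (jRed A M) < 0) :
    ¬ (modT a b hab hq hA hqM ht
        (H73.betaF1 A q M hq hA M (H82.redField_eq_fullC q M a b hab hq A hA)) htot).IsNode
      ((kappa A q M a b hab hq hA).symm z₀) := by
  intro hnode
  haveI : IsAlgClosed (kV A) := isAlgClosed_kV A
  haveI hpF : Fact q.Prime := ⟨hq⟩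
  haveI hchar : CharP (kV A) q := H82.charP_kV A hq hA
  have hp2 : (2 : ℤ) ≤ (q : ℤ) := by exact_mod_cast hq.two_le
  -- the datum
  set T := modT a b hab hq hA hqM ht
    (H73.betaF1 A q M hq hA M (H82.redField_eq_fullC q M a b hab hq A hA)) htot with hT
  set z := (kappa A q M a b hab hq hA).symm z₀ with hz
  -- the functions
  set x₁ : FN M := RED.H73.jF (L := Kbar) M with hx₁
  have hxV : x₁ ∈ VM A M := jF_mem A M
  set jα : FN (M * q) := heckeAlphaBar Kbar M q x₁ with hjα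
  set jβ : FN (M * q) := heckeBetaBar Kbar M q x₁ with hjβ
  have hα1 : jα ∈ V1 A q M := (alpha_mem_V1_iff A q M x₁).2 hxV
  have hβ1 : jβ ∈ V1 A q M := (beta_mem_V1_iff A q M x₁).2 hxV
  have hα2 : jα ∈ V2 A q M a b hab hq := (alpha_mem_V2_iff A q M a b hab hq x₁).2 hxV
  have hβ2 : jβ ∈ V2 A q M a b hab hq := (beta_mem_V2_iff A q M a b hab hq x₁).2 hxV
  -- the reductions, as series
  have hJ : ((H88.redM A M ⟨x₁, hxV⟩ : FM A M) : LaurentSeries (kV A)) = jqModC (kV A) :=
    red_jF A M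
  have hpow : qExpand (kV A) q (jqModC (kV A)) = jqModC (kV A) ^ q := by
    rw [Fermat.Agent.RED.H10.pow_char_eq q (jqModC (kV A)), coeffMap_jqModC]
  have sα1 : ((red1 A q M ⟨jα, hα1⟩ : F1 A q M) : LaurentSeries (kV A)) = jqModC (kV A) :=
    (red1_alpha A q M x₁ hxV hα1).trans hJ
  have sβ1 : ((red1 A q M ⟨jβ, hβ1⟩ : F1 A q M) : LaurentSeries (kV A))
      = jqModC (kV A) ^ q := by
    rw [red1_beta A q M x₁ hxV hβ1, hJ, hpow]
  have sα2 : ((red2 A q M a b hab hq ⟨jα, hα2⟩ : F1 A q M) : LaurentSeries (kV A))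
      = jqModC (kV A) ^ q := by
    rw [red2_alpha A q M a b hab hq x₁ hxV hα2, hJ, hpow]
  have sβ2 : ((red2 A q M a b hab hq ⟨jβ, hβ2⟩ : F1 A q M) : LaurentSeries (kV A))
      = jqModC (kV A) :=
    (red2_beta A q M a b hab hq x₁ hxV hβ2).trans hJ
  set J : F1 A q M := red1 A q M ⟨jα, hα1⟩ with hJdef
  have hJ0 : J ≠ 0 := by
    intro h0
    have := congrArg (fun y : F1 A q M => (y : LaurentSeries (kV A))) h0
    simp only [sα1, ZeroMemClass.coe_zero] at this
    exact jqModC_ne_zero_of_nontrivial (kV A) this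
  have eβ1 : red1 A q M ⟨jβ, hβ1⟩ = J ^ q :=
    Subtype.ext (by rw [sβ1, IntermediateField.coe_pow, sα1])
  have eα2 : red2 A q M a b hab hq ⟨jα, hα2⟩ = J ^ q :=
    Subtype.ext (by rw [sα2, IntermediateField.coe_pow, sα1])
  have eβ2 : red2 A q M a b hab hq ⟨jβ, hβ2⟩ = J :=
    Subtype.ext (by rw [sβ2, sα1])
  -- Gauss units
  have gα1 : T.p₁.IsGU jα := ⟨hα1, by rw [T.p₁.rd_of_mem hα1]; exact hJ0⟩
  have gβ1 : T.p₁.IsGU jβ := ⟨hβ1, by
    rw [T.p₁.rd_of_mem hβ1]
    show red1 A q M ⟨jβ, hβ1⟩ ≠ 0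
    rw [eβ1]
    exact pow_ne_zero _ hJ0⟩
  have gα2 : T.p₂.IsGU jα := ⟨hα2, by
    rw [T.p₂.rd_of_mem hα2]
    show red2 A q M a b hab hq ⟨jα, hα2⟩ ≠ 0
    rw [eα2]
    exact pow_ne_zero _ hJ0⟩
  have gβ2 : T.p₂.IsGU jβ := ⟨hβ2, by
    rw [T.p₂.rd_of_mem hβ2]
    show red2 A q M a b hab hq ⟨jβ, hβ2⟩ ≠ 0
    rw [eβ2]
    exact hJ0⟩
  have gf1 : T.p₁.IsGU (jβ / jα ^ q) := gβ1.div (gα1.pow q)
  have gf2 : T.p₂.IsGU (jβ / jα ^ q) := gβ2.div (gα2.pow q)
  have rf1 : T.p₁.rd (jβ / jα ^ q) = 1 := by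
    rw [gβ1.rd_div (gα1.pow q), T.p₁.rd_pow hα1, T.p₁.rd_of_mem hα1, T.p₁.rd_of_mem hβ1]
    show red1 A q M ⟨jβ, hβ1⟩ / (red1 A q M ⟨jα, hα1⟩) ^ q = 1
    rw [eβ1]
    exact div_self (pow_ne_zero _ hJ0)
  have rf2 : T.p₂.rd (jβ / jα ^ q) = J / (J ^ q) ^ q := by
    rw [gβ2.rd_div (gα2.pow q), T.p₂.rd_pow hα2, T.p₂.rd_of_mem hα2, T.p₂.rd_of_mem hβ2]
    show red2 A q M a b hab hq ⟨jβ, hβ2⟩ / (red2 A q M a b hab hq ⟨jα, hα2⟩) ^ q = _
    rw [eβ2, eα2]
  -- orders of `J`
  have oz : z.ord J = z₀.ord (jRed A M) :=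
    kappa_symm_ord A q M a b hab hq hA z₀ J (jRed A M) (by rw [sα1]; exact (red_jF A M).symm)
  have hphi : H73.phiF1 A q M hq hA M (H82.redField_eq_fullC q M a b hab hq A hA) J = J :=
    H73.phiF1_of_int A q M hq hA M _ J (jqModC ℤ) (by
      rw [sα1]
      exact (coeffMap_jqModC (Int.castRingHom (kV A))).symm)
  have oβ : (T.β z).ord J = z.ord J :=
    H73.betaF1_ord_of_fixed A q M hq hA M _ z J hphi
  -- `f ∈ R_z`
  have hjα' : jα = Fermat.Agent.S24.jF (M * q) := by
    rw [hjα, ← incl_eq_alpha]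
    exact incl_jF
  have hα0 : jα ≠ 0 := gα1.ne_zero
  have hβ0 : jβ ≠ 0 := gβ1.ne_zero
  obtain ⟨c, -, hctop, hrel⟩ := modEq_level M q hq
  have hreg : ∀ P, T.ρ P = z → RegAt P (jβ / jα ^ q) := by
    intro P hP
    have hρ : rhoM hq hqM ht hA P = z₀ := by
      rw [← kappa_rhoF1 a b hab hq hA hqM ht P]
      have hP' : rhoF1 a b hab hq hA hqM ht P = (kappa A q M a b hab hq hA).symm z₀ := hP
      rw [hP']
      exact Equiv.apply_symm_apply _ _
    have h1 : P.ord jα ≤ 0 := by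
      rw [hjα']
      apply ord_jF_nonpos_of_rhoM hq hqM ht hA P
      rw [hρ]
      exact hz₀.le
    exact regAt_div_pow_of_modEq q hq.one_le c hctop jα jβ hrel P h1 hα0
  have hInR : T.InR z (jβ / jα ^ q) := ⟨gf1.mem, gf2.mem, hreg⟩
  have h0 := hnode (jβ / jα ^ q) hInR 0
  rw [map_zero, sub_zero, sub_zero, rf1, rf2] at h0
  have hv2 : VanAt (T.β z) (J / (J ^ q) ^ q) := by
    apply vanAt_of_ord_pos
    rw [ord_div _ hJ0 (pow_ne_zero _ (pow_ne_zero _ hJ0)), ord_pow, ord_pow, oβ, oz]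
    have h3 : (1 : ℤ) < (q : ℤ) * (q : ℤ) := by nlinarith
    have h4 := mul_pos (neg_pos.2 hz₀) (sub_pos.2 h3)
    nlinarith
  have hv1 := h0.2 hv2
  rw [vanAt_iff_ord] at hv1
  rcases hv1 with h | h
  · exact one_ne_zero h
  · rw [Place.ord_one] at h
    exact lt_irrefl _ h

end MainGen

end Fermat.Agent.S15.Desc.H69C

end
end
-- ==== END Fermat.Agent.S15.Desc.H69_CoordCuspGen

-- ==== BEGIN Fermat.Agent.S17.W2.Canon
section

/-!
# S17-W2, CORE part 4: the canonical divisor of a class (helper8)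

Fix a place `oo`.  Every class `x ∈ Pic⁰` is `cls D = [D - deg D · oo]` for exactly one effective
divisor `D` with `D(oo) = 0` and `L(D) = Ω` (the effective divisor of minimal degree).
-/

set_option autoImplicit false

noncomputable section

namespace Fermat.Agent.S17.W2

open AlgebraicCurve WithZero Fermat.Agent.RED.H51 Fermat.Agent.RED.H42

variable {Ω F : Type} [Field Ω] [Field F] [Algebra Ω F]

local notation "L" => riemannRochSpace

/-- All functions in `L(D)` are constant. -/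
def OnlyConst (D : Divisor Ω F) : Prop := ∀ f ∈ L D, ∃ c : Ω, f = algebraMap Ω F c

/-- `D` is canonical (relative to `oo`): effective, not through `oo`, `L(D)` = constants. -/
def IsCanon (oo : Place Ω F) (D : Divisor Ω F) : Prop := 0 ≤ D ∧ D oo = 0 ∧ OnlyConst D

variable (H : Hyp Ω F)
include H

theorem degree_normDiv (oo : Place Ω F) (D : Divisor Ω F) :
    D - Finsupp.single oo (Divisor.degree D) ∈ Divisor.degZero (K := Ω) (F := F) := by
  rw [Divisor.mem_degZero, map_sub, Divisor.degree_single, H.deg_one oo]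
  simp

/-- The class of `D - deg D · oo`. -/
def cls (oo : Place Ω F) (D : Divisor Ω F) : Pic0 Ω F :=
  Pic0.mk ⟨D - Finsupp.single oo (Divisor.degree D), degree_normDiv H oo D⟩

theorem cls_add (oo : Place Ω F) (D E : Divisor Ω F) :
    cls H oo (D + E) = cls H oo D + cls H oo E := by
  unfold cls
  rw [← Pic0.mk_add]
  congr 1
  apply Subtype.ext
  simp only [AddSubgroup.coe_add, map_add, Finsupp.single_add]
  abel

theorem cls_of_degZero (oo : Place Ω F) (D : Divisor.degZero (K := Ω) (F := F)) :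
    cls H oo (D : Divisor Ω F) = Pic0.mk D := by
  unfold cls
  congr 1
  apply Subtype.ext
  have : Divisor.degree (D : Divisor Ω F) = 0 := D.2
  simp [this]

theorem cls_eq_of_principal (oo : Place Ω F) {D E : Divisor Ω F} {f : F} (hf : f ≠ 0)
    (hE : ∀ v, E v = v.ord f) : cls H oo (D + E) = cls H oo D := by
  obtain ⟨E', hE', hE'0⟩ := H.principal f hf
  have hEE : E = E' := by
    ext v
    rw [hE v, hE' v]
  subst hEE
  unfold cls
  symm
  rw [Pic0.mk, Pic0.mk, QuotientAddGroup.eq]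
  simp only [AddSubgroup.mem_addSubgroupOf, AddSubgroup.coe_add, NegMemClass.coe_neg]
  rw [Divisor.mem_principal]
  refine ⟨f, hf, fun v => ?_⟩
  rw [← hE' v]
  simp only [map_add, hE'0, add_zero, Finsupp.add_apply, Finsupp.neg_apply, Finsupp.sub_apply]
  ring

/-- Two divisors with the same class differ by a principal divisor and a multiple of `oo`. -/
theorem exists_of_cls_eq (oo : Place Ω F) {D E : Divisor Ω F} (h : cls H oo D = cls H oo E) :
    ∃ f : F, f ≠ 0 ∧ ∀ v, v.ord f =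
      (E - Finsupp.single oo (Divisor.degree E)) v - (D - Finsupp.single oo (Divisor.degree D)) v := by
  unfold cls at h
  rw [Pic0.mk, Pic0.mk, QuotientAddGroup.eq] at h
  simp only [AddSubgroup.mem_addSubgroupOf, AddSubgroup.coe_add, NegMemClass.coe_neg] at h
  rw [Divisor.mem_principal] at h
  obtain ⟨f, hf, hfv⟩ := h
  refine ⟨f, hf, fun v => ?_⟩
  rw [← hfv v]
  simp only [Finsupp.add_apply, Finsupp.neg_apply, Finsupp.sub_apply]
  ring

/-- An effective divisor of degree `0` is zero. -/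
theorem eq_zero_of_nonneg_of_degree {D : Divisor Ω F} (hD : 0 ≤ D)
    (hdeg : Divisor.degree D ≤ 0) : D = 0 := by
  rcases eq_or_exists_lt hD with h | ⟨v, hv⟩
  · exact h.symm
  · exfalso
    have h1 := le_sub_single hD hv
    have h2 := degree_nonneg h1
    rw [map_sub, Divisor.degree_single, H.deg_one v] at h2
    simp at h2
    omega

/-- Uniqueness of the canonical divisor. -/
theorem canon_unique_aux (oo : Place Ω F) {D E : Divisor Ω F} (hD : IsCanon oo D)
    (hE : IsCanon oo E) (h : cls H oo D = cls H oo E)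
    (hle : Divisor.degree D ≤ Divisor.degree E) : D = E := by
  classical
  obtain ⟨f, hf, hfv⟩ := exists_of_cls_eq H oo h
  -- `f ∈ L(D)`... we use `f⁻¹`: `div f⁻¹ + E = D + (deg E - deg D) oo ≥ 0`
  have hmem : f⁻¹ ∈ L E := by
    rw [mem_riemannRochSpace_iff]
    intro v
    right
    rw [Place.ord_inv, hfv v]
    simp only [Finsupp.sub_apply, Finsupp.single_apply]
    have hDv := Finsupp.le_def.mp hD.1 v
    simp only [Finsupp.coe_zero, Pi.zero_apply] at hDv
    split_ifs <;> omega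
  obtain ⟨c, hc⟩ := hE.2.2 _ hmem
  have hford : ∀ v : Place Ω F, v.ord f = 0 := by
    intro v
    have : v.ord f⁻¹ = 0 := by rw [hc, ord_algebraMap]
    rw [Place.ord_inv] at this
    omega
  have hoo := hfv oo
  rw [hford oo] at hoo
  simp only [Finsupp.sub_apply, Finsupp.single_apply, if_true, hD.2.1, hE.2.1] at hoo
  have hdeg : Divisor.degree D = Divisor.degree E := by omega
  ext v
  have hv := hfv v
  rw [hford v, hdeg] at hv
  simp only [Finsupp.sub_apply] at hv
  omega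

theorem canon_unique (oo : Place Ω F) {D E : Divisor Ω F} (hD : IsCanon oo D)
    (hE : IsCanon oo E) (h : cls H oo D = cls H oo E) : D = E := by
  rcases le_total (Divisor.degree D) (Divisor.degree E) with hle | hle
  · exact canon_unique_aux H oo hD hE h hle
  · exact (canon_unique_aux H oo hE hD h.symm hle).symm

/-- Existence of the canonical divisor, of degree at most `g`. -/
theorem canon_exists (oo : Place Ω F) (g : ℕ)
    (hR : ∀ D : Divisor Ω F,
      Divisor.degree D + 1 - g ≤ (Module.finrank Ω (riemannRochSpace D) : ℤ))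
    (x : Pic0 Ω F) :
    ∃ D : Divisor Ω F, IsCanon oo D ∧ cls H oo D = x ∧ Divisor.degree D ≤ g := by
  classical
  obtain ⟨E₀, rfl⟩ := Pic0.mk_surjective x
  have hE₀ : Divisor.degree (E₀ : Divisor Ω F) = 0 := E₀.2
  have hdegm : ∀ m : ℕ, Divisor.degree ((E₀ : Divisor Ω F) + Finsupp.single oo (m : ℤ)) = m := by
    intro m
    rw [map_add, hE₀, Divisor.degree_single, H.deg_one oo]
    simp
  have hex : ∃ m : ℕ, L ((E₀ : Divisor Ω F) + Finsupp.single oo (m : ℤ)) ≠ ⊥ := by
    refine ⟨g, fun hbot => ?_⟩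
    have h1 := hR ((E₀ : Divisor Ω F) + Finsupp.single oo (g : ℤ))
    rw [hdegm g, hbot, finrank_bot] at h1
    simp at h1
  set m := Nat.find hex with hm
  have hmspec : L ((E₀ : Divisor Ω F) + Finsupp.single oo (m : ℤ)) ≠ ⊥ := Nat.find_spec hex
  have hmg : m ≤ g := Nat.find_min' hex (by
    intro hbot
    have h1 := hR ((E₀ : Divisor Ω F) + Finsupp.single oo (g : ℤ))
    rw [hdegm g, hbot, finrank_bot] at h1
    simp at h1)
  obtain ⟨f, hf, hf0⟩ := (Submodule.ne_bot_iff _).mp hmspec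
  obtain ⟨Df, hDf, hDf0⟩ := H.principal f hf0
  set D : Divisor Ω F := (E₀ : Divisor Ω F) + Finsupp.single oo (m : ℤ) + Df with hD
  have hD0 : 0 ≤ D := by
    rw [Finsupp.le_def]
    intro v
    have := (mem_riemannRochSpace_iff.mp hf) v
    rcases this with h | h
    · exact absurd h hf0
    · rw [hD, Finsupp.add_apply, hDf v]
      simp only [Finsupp.coe_zero, Pi.zero_apply]
      omega
  have hdegD : Divisor.degree D = m := by
    rw [hD, map_add, hdegm m, hDf0, add_zero]
  have hcls : cls H oo D = Pic0.mk E₀ := by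
    rw [hD, cls_eq_of_principal H oo hf0 hDf, cls_add, cls_of_degZero]
    have : cls H oo (Finsupp.single oo (m : ℤ)) = 0 := by
      unfold cls
      have h0 : (Finsupp.single oo (m : ℤ) : Divisor Ω F)
          - Finsupp.single oo (Divisor.degree (Finsupp.single oo (m : ℤ) : Divisor Ω F)) = 0 := by
        rw [Divisor.degree_single, H.deg_one oo]
        simp
      have : (⟨_, degree_normDiv H oo (Finsupp.single oo (m : ℤ))⟩ :
          Divisor.degZero (K := Ω) (F := F)) = 0 := Subtype.ext h0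
      rw [this, Pic0.mk_zero]
    rw [this, add_zero]
  -- the case distinction `m = 0` / `m ≥ 1`
  rcases Nat.eq_zero_or_pos m with hm0 | hmpos
  · have hDz : D = 0 := eq_zero_of_nonneg_of_degree H hD0 (by rw [hdegD, hm0]; simp)
    refine ⟨D, ⟨hD0, by rw [hDz]; simp, ?_⟩, hcls, by rw [hdegD]; exact_mod_cast hmg⟩
    intro h hh
    rw [hDz, L_zero_eq H, Submodule.mem_span_singleton] at hh
    obtain ⟨c, rfl⟩ := hh
    exact ⟨c, by rw [Algebra.smul_def, mul_one]⟩
  · -- `L(E₀ + (m-1) oo) = ⊥`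
    have hprev : L ((E₀ : Divisor Ω F) + Finsupp.single oo ((m - 1 : ℕ) : ℤ)) = ⊥ := by
      by_contra hne
      exact Nat.find_min hex (by omega : m - 1 < m) hne
    have hsplit : (E₀ : Divisor Ω F) + Finsupp.single oo (m : ℤ)
        = (E₀ : Divisor Ω F) + Finsupp.single oo ((m - 1 : ℕ) : ℤ) + Finsupp.single oo 1 := by
      rw [add_assoc, ← Finsupp.single_add]
      congr 2
      push_cast [Nat.cast_sub hmpos]
      ring
    have hfnot : f ∉ L ((E₀ : Divisor Ω F) + Finsupp.single oo ((m - 1 : ℕ) : ℤ)) := by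
      rw [hprev]
      exact hf0
    refine ⟨D, ⟨hD0, ?_, ?_⟩, hcls, by rw [hdegD]; exact_mod_cast hmg⟩
    · -- `D(oo) = 0`
      by_contra hne
      have hpos : 1 ≤ D oo := by
        have := Finsupp.le_def.mp hD0 oo
        simp only [Finsupp.coe_zero, Pi.zero_apply] at this
        omega
      apply hfnot
      rw [mem_riemannRochSpace_iff]
      intro v
      right
      have hfv := (mem_riemannRochSpace_iff.mp hf) v
      rcases hfv with h | h
      · exact absurd h hf0
      · by_cases hv : v = oo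
        · subst hv
          rw [hD, Finsupp.add_apply, hDf, Finsupp.add_apply, Finsupp.single_eq_same] at hpos
          rw [Finsupp.add_apply, Finsupp.single_eq_same]
          push_cast [Nat.cast_sub hmpos]
          omega
        · rw [Finsupp.add_apply, Finsupp.single_eq_of_ne hv] at h ⊢
          exact h
    · -- `OnlyConst D`
      intro h hh
      have hhf : h * f ∈ L ((E₀ : Divisor Ω F) + Finsupp.single oo (m : ℤ)) :=
        mul_mem_L hf0 hDf hh
      rw [hsplit] at hhf hf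
      obtain ⟨c, hc⟩ := one_step oo (H.deg_one oo) _ hf hfnot hhf
      rw [hprev, Submodule.mem_bot] at hc
      refine ⟨c, ?_⟩
      have : (h - algebraMap Ω F c) * f = 0 := by
        rw [sub_mul, ← Algebra.smul_def]
        exact hc
      rcases mul_eq_zero.mp this with h1 | h1
      · exact sub_eq_zero.mp h1
      · exact absurd h1 hf0

end Fermat.Agent.S17.W2

end
end
-- ==== END Fermat.Agent.S17.W2.Canon

-- ==== BEGIN Fermat.Agent.S17.W2.H18_Geo
section

/-!
# S17-W2, package GEO: `Stmt_GEO` from `Stmt_Gb` and `Stmt_E4` (helper18)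

`stmt_GEO_of : GeoInput Ω N → Stmt_GEO Ω N`, where `GeoInput` asks for `Stmt_Gb K N` and
`Stmt_E4 K Ω N` for the intermediate fields `K = ℚ̄(s)` of `Ω / ℚ̄`.
-/

set_option autoImplicit false
set_option linter.unusedSectionVars false

noncomputable section

namespace Fermat.Agent.S17.W2.H18

open AlgebraicCurve IntermediateField ModularCurve Fermat.Agent.GTor Fermat.Agent.RED Polynomial

section Conv

variable {k Ω : Type} [Field k] [Field Ω] [Algebra k Ω]

/-- Algebraicity over an intermediate field of `Ω / K` passes to a larger intermediate field of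
`Ω / k`. -/
theorem isAlgebraic_of_forall_mem {K : IntermediateField k Ω} (L : IntermediateField K Ω)
    (L' : IntermediateField k Ω) (h : ∀ y : Ω, y ∈ L → y ∈ L') {c : Ω}
    (hc : IsAlgebraic L c) : IsAlgebraic L' c := by
  obtain ⟨p, hp0, hp⟩ := hc
  let f : L →+* L' :=
    { toFun := fun y => ⟨(y : Ω), h y y.2⟩
      map_one' := rfl
      map_mul' := fun _ _ => rfl
      map_zero' := rfl
      map_add' := fun _ _ => rfl }
  refine ⟨p.map f, (Polynomial.map_ne_zero_iff f.injective).mpr hp0, ?_⟩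
  rw [aeval_def, eval₂_map]
  rw [aeval_def] at hp
  exact hp

theorem mem_adjoin_insert_of_mem (s : Set Ω) (t : Ω) (y : Ω)
    (hy : y ∈ IntermediateField.adjoin (IntermediateField.adjoin k s) ({t} : Set Ω)) :
    y ∈ IntermediateField.adjoin k (insert t s) := by
  have h := IntermediateField.adjoin_adjoin_left k s ({t} : Set Ω)
  have h2 : y ∈ (IntermediateField.adjoin (IntermediateField.adjoin k s)
      ({t} : Set Ω)).restrictScalars k := hy
  rw [h, Set.union_singleton] at h2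
  exact h2

end Conv

variable (Ω : Type) [Field Ω] [Algebra ℚ Ω] [Algebra (AlgebraicClosure ℚ) Ω] (N : ℕ) [NeZero N]

/-- The two inputs of helper75, for the fields `ℚ̄(s) ⊆ Ω`. -/
def GeoInput : Prop :=
  ∀ K : IntermediateField (AlgebraicClosure ℚ) Ω, Stmt_Gb K N ∧ Stmt_E4 K Ω N

variable [IsAlgClosed Ω] [CharZero Ω]

set_option synthInstance.maxHeartbeats 400000 in
set_option maxHeartbeats 1600000 in
theorem genStab (hin : GeoInput Ω N) : GenStab (geoSetting Ω N) := by
  intro s _ P t hP ht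
  obtain ⟨hGb, hE4⟩ := hin (IntermediateField.adjoin (AlgebraicClosure ℚ) s)
  obtain ⟨φ, -, hφj, hφc, hfix⟩ := abs_stab N hGb hE4 P t hP ht
  refine ⟨φ '' H33.genSet (IntermediateField.adjoin (AlgebraicClosure ℚ) s) N,
    (H33.genSet_finite _ N).image _, ?_, ?_⟩
  · rintro c ⟨x, -, rfl⟩
    have h1 := isAlgebraic_ev N hGb φ hφc x
    rw [hφj] at h1
    exact isAlgebraic_of_forall_mem _ _ (mem_adjoin_insert_of_mem s t) h1
  · intro σ hσ
    rw [IntermediateField.mem_fixingSubgroup_iff] at hσ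
    show arithmeticGalois (modularFunctionFieldFull N) (resQ Ω σ) • P = P
    refine hfix (resQ Ω σ) (fun c => ?_) ?_ fun x hx => ?_
    · refine hσ _ ?_
      exact IntermediateField.adjoin.mono _ _ _
        ((Set.subset_insert t s).trans Set.subset_union_left) c.2
    · refine hσ _ (IntermediateField.subset_adjoin _ _ ?_)
      exact Set.mem_union_left _ (Set.mem_insert t s)
    · refine hσ _ (IntermediateField.subset_adjoin _ _ ?_)
      exact Set.mem_union_right _ ⟨x, hx, rfl⟩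

set_option synthInstance.maxHeartbeats 400000 in
set_option maxHeartbeats 1600000 in
theorem genTrans (hin : GeoInput Ω N) : GenTrans (geoSetting Ω N) := by
  intro s _ P Q t t' hP hQ ht ht'
  obtain ⟨hGb, hE4⟩ := hin (IntermediateField.adjoin (AlgebraicClosure ℚ) s)
  obtain ⟨τ, hτ, hPQ⟩ := abs_trans N hGb hE4 P Q t t' hP hQ ht ht'
  let σ : Ω ≃ₐ[AlgebraicClosure ℚ] Ω := AlgEquiv.ofRingEquiv (f := τ.toRingEquiv) (fun c =>
    hτ ⟨algebraMap (AlgebraicClosure ℚ) Ω c,
      (IntermediateField.adjoin (AlgebraicClosure ℚ) s).algebraMap_mem c⟩)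
  refine ⟨σ, ?_, ?_⟩
  · rw [IntermediateField.mem_fixingSubgroup_iff]
    intro x hx
    exact hτ ⟨x, hx⟩
  · show arithmeticGalois (modularFunctionFieldFull N) (resQ Ω σ) • P = Q
    have h : resQ Ω σ = τ := AlgEquiv.ext fun _ => rfl
    rw [h]
    exact hPQ

/-- **GEO**, from `Stmt_Gb` and `Stmt_E4`. -/
theorem stmt_GEO_of (hin : GeoInput Ω N) : Stmt_GEO Ω N :=
  ⟨geoSetting Ω N, geoSetting_j_ne Ω N, genStab Ω N hin, genTrans Ω N hin⟩

end Fermat.Agent.S17.W2.H18

end
end
-- ==== END Fermat.Agent.S17.W2.H18_Geo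

-- ==== BEGIN Fermat.Agent.S17.W2.H75_GE4
section

/-!
# S17-W2, GEO sub-leaf G-d (helper75): `Stmt_E4` by counting

Two zeros `P`, `Q` of `j - t` (`t` transcendental over `K`) with the same evaluation homomorphism on
`E = K(X₀(N))` are equal:  the `d = [E : K(j)]` embeddings `ψ : E → Ω` over `K(j)` (`j ↦ t`) are all
of the form `ev_R` for zeros `R` of `j - t` (conjugacy of embeddings + equivariance), `ψ ↦ R_ψ` is
injective, and `j - t` has at most `[F : Ω(j - t)] ≤ d` zeros.
-/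

set_option autoImplicit false
set_option linter.style.haveILetI false
set_option linter.unusedSectionVars false

noncomputable section

namespace Fermat.Agent.S17.W2.H75

open AlgebraicCurve IntermediateField ModularCurve Fermat.Agent.GTor Fermat.Agent.RED Polynomial

section E4

variable {K Ω : Type} [Field K] [Field Ω] [Algebra ℚ K] [Algebra ℚ Ω] [Algebra K Ω] (N : ℕ)
  [NeZero N]

set_option synthInstance.maxHeartbeats 400000 in
set_option maxHeartbeats 1600000 in
/-- `K(X₀(N)) / K(j)` is finite if it is algebraic. -/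
theorem finiteDimensional_of_Gb (hGb : H18.Stmt_Gb K N) :
    FiniteDimensional K⟮H33.jL K N⟯ (FNL K N) := by
  haveI : Finite (H33.genSet K N) := (H33.genSet_finite K N).to_subtype
  have hfin : FiniteDimensional K⟮H33.jL K N⟯ (adjoin K⟮H33.jL K N⟯ (H33.genSet K N)) :=
    IntermediateField.finiteDimensional_adjoin fun x _ => (hGb x).isIntegral
  have htop : adjoin K⟮H33.jL K N⟯ (H33.genSet K N) = ⊤ := by
    rw [← IntermediateField.restrictScalars_eq_top_iff (K := K), eq_top_iff,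
      ← H33.adjoin_genSet K N, adjoin_le_iff]
    intro x hx
    exact subset_adjoin K⟮H33.jL K N⟯ _ hx
  rw [htop] at hfin
  exact (IntermediateField.topEquiv (F := K⟮H33.jL K N⟯)
    (E := FNL K N)).toLinearEquiv.finiteDimensional

set_option synthInstance.maxHeartbeats 400000 in
set_option maxHeartbeats 1600000 in
/-- `bc` maps `K(j)` into `Ω(j - t)`. -/
theorem bc_mem_adjoin_sub (t : Ω) {a : FNL K N} (ha : a ∈ K⟮H33.jL K N⟯) :
    H18.bc K Ω N a ∈ Ω⟮H33.jL Ω N - algebraMap Ω (FNL Ω N) t⟯ := by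
  induction ha using IntermediateField.adjoin_induction with
  | mem y hy =>
    rw [Set.mem_singleton_iff] at hy
    subst hy
    rw [H18.bc_jL]
    have h1 : (H33.jL Ω N - algebraMap Ω (FNL Ω N) t) + algebraMap Ω (FNL Ω N) t ∈
        Ω⟮H33.jL Ω N - algebraMap Ω (FNL Ω N) t⟯ :=
      add_mem (mem_adjoin_simple_self Ω _) (IntermediateField.algebraMap_mem _ t)
    rwa [sub_add_cancel] at h1
  | algebraMap c =>
    rw [H18.bc_algebraMap]
    exact IntermediateField.algebraMap_mem _ _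
  | add x y _ _ hx hy => rw [map_add]; exact add_mem hx hy
  | inv x _ hx => rw [map_inv₀]; exact inv_mem hx
  | mul x y _ _ hx hy => rw [map_mul]; exact mul_mem hx hy

set_option synthInstance.maxHeartbeats 400000 in
set_option maxHeartbeats 1600000 in
/-- `[F : Ω(j - t)] ≤ [E : K(j)]`. -/
theorem finrank_FNL_le [FiniteDimensional K⟮H33.jL K N⟯ (FNL K N)] (t : Ω) :
    FiniteDimensional Ω⟮H33.jL Ω N - algebraMap Ω (FNL Ω N) t⟯ (FNL Ω N) ∧
      Module.finrank Ω⟮H33.jL Ω N - algebraMap Ω (FNL Ω N) t⟯ (FNL Ω N) ≤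
        Module.finrank K⟮H33.jL K N⟯ (FNL K N) := by
  letI iEF : Algebra (FNL K N) (FNL Ω N) := (H18.bc K Ω N).toAlgebra
  letI iAF : Algebra K⟮H33.jL K N⟯ (FNL Ω N) :=
    ((H18.bc K Ω N).comp (algebraMap K⟮H33.jL K N⟯ (FNL K N))).toAlgebra
  letI iAB : Algebra K⟮H33.jL K N⟯ Ω⟮H33.jL Ω N - algebraMap Ω (FNL Ω N) t⟯ :=
    (RingHom.codRestrict ((H18.bc K Ω N).comp (algebraMap K⟮H33.jL K N⟯ (FNL K N)))
      Ω⟮H33.jL Ω N - algebraMap Ω (FNL Ω N) t⟯ (fun a => bc_mem_adjoin_sub N t a.2)).toAlgebra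
  refine @finrank_le_of_adjoin_range_eq_top K⟮H33.jL K N⟯ (FNL K N)
    Ω⟮H33.jL Ω N - algebraMap Ω (FNL Ω N) t⟯ (FNL Ω N) _ _ _ _ _ _ iAB iAF iEF
    (IsScalarTower.of_algebraMap_eq (fun a => rfl))
    (IsScalarTower.of_algebraMap_eq (fun a => rfl)) _ ?_
  rw [← IntermediateField.restrictScalars_eq_top_iff (K := Ω), eq_top_iff,
    ← H33.adjoin_genSet Ω N, adjoin_le_iff]
  rintro g ⟨z, hz, hzg⟩
  refine subset_adjoin _ _ ⟨⟨coeffEmb K z,
    coeffEmb_mem_laurentBaseChange K (subset_adjoin ℚ _ hz)⟩, ?_⟩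
  exact Subtype.ext ((GTor.H75.coeffMap_coeffEmb' _ z).trans hzg)

end E4

end Fermat.Agent.S17.W2.H75

end
end
-- ==== END Fermat.Agent.S17.W2.H75_GE4

-- ==== BEGIN Fermat.Agent.S41.H20_Bridge
section

/-!
# S41, NEWLIFT leaf BRIDGE-T: `Tcoh N A ℓ = Betti.TB N A` for primes `ℓ ∤ N`

The transfer-type operator `Tcoh = cor1 ∘ res2` of `S41/Defs.lean` and the Betti Hecke operator
`TB` of `Betti/Defs.lean` (the operator represented by `heckeAlgebra.T` on the parabolic lattice)
coincide for primes `ℓ ∤ N`: both are `γ ↦ ∑ x (κ_j γ)` with `a_j γ = κ_j(γ) a_{s j}`,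
`a_j = [[1, j], [0, ℓ]]`, `a_∞ = [[ℓ, 0], [0, 1]]` (`H19.Tcoh_eq_sum`).

NB for `ℓ ∣ N` the operators `Tcoh N A ℓ` (double coset of `diag(ℓ,1)`) and `Betti.UB`
(double coset of `diag(1,ℓ)`) are different (adjoint to each other).
-/

set_option autoImplicit false

open scoped MatrixGroups
open CongruenceSubgroup Matrix Matrix.SpecialLinearGroup

namespace Fermat.Agent.S41.H20

open Fermat.Agent.S41 Fermat.Agent.S41.H19 Fermat.Agent.Betti
open P2MW.S_ModularForm_heckeT_slash_eq_self_of_mem_Gamma0.ModularForm.HeckeSlashInvariance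
open ModularForm

/-- the index bijection `Option (Fin ℓ) ≃ OnePoint (ZMod ℓ)` -/
noncomputable def idxEquiv (ℓ : ℕ) [NeZero ℓ] : Option (Fin ℓ) ≃ OnePoint (ZMod ℓ) :=
  Equiv.optionCongr (ZMod.finEquiv ℓ).toEquiv

theorem idxEquiv_none (ℓ : ℕ) [NeZero ℓ] : idxEquiv ℓ none = (OnePoint.infty : OnePoint (ZMod ℓ)) :=
  rfl

theorem idxEquiv_some (ℓ : ℕ) [NeZero ℓ] (j : Fin ℓ) :
    idxEquiv ℓ (some j) = ((ZMod.finEquiv ℓ j : ZMod ℓ) : OnePoint (ZMod ℓ)) := rfl

theorem val_finEquiv (ℓ : ℕ) [NeZero ℓ] (j : Fin ℓ) : (ZMod.finEquiv ℓ j : ZMod ℓ).val = j := by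
  rcases ℓ with _ | n
  · exact (NeZero.ne 0 rfl).elim
  · rfl

/-- The real matrix of `repT ℓ` at the index `idxEquiv ℓ j` is the integer matrix `aMat ℓ j`. -/
theorem val_repT_idxEquiv (ℓ : ℕ) [NeZero ℓ] (j : Option (Fin ℓ)) :
    ((repT ℓ (idxEquiv ℓ j) : GL (Fin 2) ℝ) : Matrix (Fin 2) (Fin 2) ℝ)
      = (aMat ℓ j).map (Int.cast : ℤ → ℝ) := by
  have hℓ : ℓ ≠ 0 := NeZero.ne ℓ
  rcases j with _ | j
  · rw [idxEquiv_none]
    show ((heckeDiagMatrix ℓ : GL (Fin 2) ℝ) : Matrix (Fin 2) (Fin 2) ℝ) = _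
    rw [val_heckeDiagMatrix hℓ]
    ext a b
    fin_cases a <;> fin_cases b <;> simp [aMat]
  · rw [idxEquiv_some]
    show ((heckeMatrix ℓ (ZMod.finEquiv ℓ j : ZMod ℓ).val : GL (Fin 2) ℝ) :
      Matrix (Fin 2) (Fin 2) ℝ) = _
    rw [val_heckeMatrix hℓ, val_finEquiv]
    ext a b
    fin_cases a <;> fin_cases b <;> simp [aMat]

theorem val_incl (N : ℕ) (g : Gamma0 N) :
    ((incl N g : GL (Fin 2) ℝ) : Matrix (Fin 2) (Fin 2) ℝ) = (mat g).map (Int.cast : ℤ → ℝ) := by
  ext a b
  simp [incl_apply, mat]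

theorem intCast_map_injective :
    Function.Injective (fun M : Matrix (Fin 2) (Fin 2) ℤ => M.map (Int.cast : ℤ → ℝ)) := by
  intro M M' h
  ext a b
  have := congrFun (congrFun h a) b
  simpa using this

/-- **BRIDGE-T**: `Tcoh N A ℓ = TB N A` for a prime `ℓ ∤ N`. -/
theorem Tcoh_eq_TB {N ℓ : ℕ} {A : Type*} [AddCommGroup A] (hN : 0 < N) (hℓ : ℓ.Prime)
    (hℓN : ¬ ℓ ∣ N) (x : Additive (Gamma0 N) →+ A) :
    Tcoh N A ℓ x = TB N A hℓ hℓN x := by
  have : Fact ℓ.Prime := ⟨hℓ⟩
  have : NeZero ℓ := ⟨hℓ.ne_zero⟩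
  refine AddMonoidHom.ext fun g' => ?_
  obtain ⟨g, rfl⟩ : ∃ g : Gamma0 N, Additive.ofMul g = g' := ⟨Additive.toMul g', rfl⟩
  set H := isHeckeFamily_T N hℓN with hH
  have key : ∀ j : Option (Fin ℓ),
      aMat ℓ j * mat g
        = mat (H.kap g (idxEquiv ℓ j)) * aMat ℓ ((idxEquiv ℓ).symm (H.perm g (idxEquiv ℓ j))) := by
    intro j
    apply intCast_map_injective
    show (aMat ℓ j * mat g).map (Int.cast : ℤ → ℝ)
      = (mat (H.kap g (idxEquiv ℓ j))
          * aMat ℓ ((idxEquiv ℓ).symm (H.perm g (idxEquiv ℓ j)))).map (Int.cast : ℤ → ℝ)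
    have h1 := congrArg (fun M : GL (Fin 2) ℝ => (M : Matrix (Fin 2) (Fin 2) ℝ))
      (H.rep_mul g (idxEquiv ℓ j))
    simp only [Units.val_mul] at h1
    rw [val_repT_idxEquiv, val_incl, val_incl] at h1
    have h2 : ((repT ℓ (H.perm g (idxEquiv ℓ j)) : GL (Fin 2) ℝ) : Matrix (Fin 2) (Fin 2) ℝ)
        = (aMat ℓ ((idxEquiv ℓ).symm (H.perm g (idxEquiv ℓ j)))).map (Int.cast : ℤ → ℝ) := by
      rw [← val_repT_idxEquiv, Equiv.apply_symm_apply]
    rw [h2] at h1
    rw [Matrix.map_mul_intCast, Matrix.map_mul_intCast]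
    exact h1
  rw [Tcoh_eq_sum hN hℓ hℓN x g _ _ key, TB_apply_apply]
  exact Fintype.sum_equiv (idxEquiv ℓ) _ _ (fun j => rfl)

end Fermat.Agent.S41.H20

end
-- ==== END Fermat.Agent.S41.H20_Bridge

-- ==== BEGIN Fermat.Agent.S44.C.H33_Twist
section

set_option autoImplicit false

namespace Fermat.Agent.S44.C.H33

open WeierstrassCurve WeierstrassCurve.Affine
open Fermat.Agent.S05 (ModelHyp InE0 InE1)

section twist

variable {L : Type*} [Field L]

/-- The twist subgroup `T = {O} ∪ {(x, β y') : x, y' ∈ F}`. -/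
def InT (F : Subfield L) (β : L) {W : Affine L} : W.Point → Prop
  | .zero => True
  | .some x y _ => x ∈ F ∧ ∃ y' ∈ F, y = β * y'

lemma InT_zero (F : Subfield L) (β : L) {W : Affine L} : InT F β (0 : W.Point) := trivial

lemma InT_some_iff (F : Subfield L) (β : L) {W : Affine L} {x y : L} (h : W.Nonsingular x y) :
    InT F β (Point.some x y h) ↔ x ∈ F ∧ ∃ y' ∈ F, y = β * y' := Iff.rfl

lemma InT_neg {F : Subfield L} {β : L} {W : Affine L} (h₁ : W.a₁ = 0) (h₃ : W.a₃ = 0)
    {P : W.Point} (hP : InT F β P) : InT F β (-P) := by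
  rcases P with _ | ⟨x, y, h⟩
  · exact hP
  · obtain ⟨hx, y', hy', rfl⟩ := hP
    rw [Point.neg_some]
    refine ⟨hx, -y', F.neg_mem hy', ?_⟩
    simp only [Affine.negY, h₁, h₃]
    ring

lemma InT_add [DecidableEq L] {F : Subfield L} {β : L} {W : Affine L} (h₁ : W.a₁ = 0)
    (h₃ : W.a₃ = 0) (hβ : β ^ 2 = W.a₂) (hβ0 : β ≠ 0) (ha : W.a₂ ∈ F) (hb : W.a₄ ∈ F)
    {P Q : W.Point} (hP : InT F β P) (hQ : InT F β Q) : InT F β (P + Q) := by
  rcases P with _ | ⟨x₁, y₁, hn₁⟩
  · have : (Point.zero : W.Point) + Q = Q := zero_add Q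
    rw [this]; exact hQ
  rcases Q with _ | ⟨x₂, y₂, hn₂⟩
  · have : Point.some x₁ y₁ hn₁ + (Point.zero : W.Point) = Point.some x₁ y₁ hn₁ := add_zero _
    rw [this]; exact hP
  obtain ⟨hx₁, y₁', hy₁', rfl⟩ := hP
  obtain ⟨hx₂, y₂', hy₂', rfl⟩ := hQ
  by_cases hxy : x₁ = x₂ ∧ β * y₁' = W.negY x₂ (β * y₂')
  · rw [Point.add_of_Y_eq hxy.1 hxy.2]
    trivial
  rw [Point.add_some hxy]
  -- the slope is `β ℓ'` with `ℓ' ∈ F`
  obtain ⟨ℓ', hℓ', hℓ⟩ : ∃ ℓ' ∈ F, W.slope x₁ x₂ (β * y₁') (β * y₂') = β * ℓ' := by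
    by_cases hx : x₁ = x₂
    · have hy : β * y₁' ≠ W.negY x₂ (β * y₂') := fun h => hxy ⟨hx, h⟩
      refine ⟨(3 * x₁ ^ 2 + 2 * W.a₂ * x₁ + W.a₄) / (2 * W.a₂ * y₁'), ?_, ?_⟩
      · refine F.div_mem (F.add_mem (F.add_mem (F.mul_mem ?_ (F.pow_mem hx₁ 2))
          (F.mul_mem (F.mul_mem ?_ ha) hx₁)) hb) (F.mul_mem (F.mul_mem ?_ ha) hy₁')
        · exact_mod_cast natCast_mem F 3
        · exact_mod_cast natCast_mem F 2
        · exact_mod_cast natCast_mem F 2
      · rw [slope_of_Y_ne hx hy]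
        simp only [Affine.negY, h₁, h₃, zero_mul, sub_zero]
        rw [← hβ]
        have e1 : β * y₁' - -(β * y₁') = 2 * β * y₁' := by ring
        have e2 : (2 : L) * β ^ 2 * y₁' = β * (2 * β * y₁') := by ring
        rw [e1, e2, ← mul_div_assoc, mul_div_mul_left _ _ hβ0]
    · refine ⟨(y₁' - y₂') / (x₁ - x₂), F.div_mem (F.sub_mem hy₁' hy₂') (F.sub_mem hx₁ hx₂), ?_⟩
      rw [slope_of_X_ne hx]
      ring
  show W.addX x₁ x₂ (W.slope x₁ x₂ (β * y₁') (β * y₂')) ∈ F ∧ ∃ y' ∈ F,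
    W.addY x₁ x₂ (β * y₁') (W.slope x₁ x₂ (β * y₁') (β * y₂')) = β * y'
  rw [hℓ]
  have hX : W.addX x₁ x₂ (β * ℓ') = W.a₂ * ℓ' ^ 2 - W.a₂ - x₁ - x₂ := by
    simp only [Affine.addX, h₁]
    rw [← hβ]; ring
  have hXF : W.addX x₁ x₂ (β * ℓ') ∈ F := by
    rw [hX]
    exact F.sub_mem (F.sub_mem (F.sub_mem (F.mul_mem ha (F.pow_mem hℓ' 2)) ha) hx₁) hx₂
  refine ⟨hXF, -(ℓ' * (W.addX x₁ x₂ (β * ℓ') - x₁) + y₁'), ?_, ?_⟩
  · exact F.neg_mem (F.add_mem (F.mul_mem hℓ' (F.sub_mem hXF hx₁)) hy₁')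
  · simp only [Affine.addY, Affine.negAddY, Affine.negY, h₁, h₃]
    ring

lemma InT_nsmul [DecidableEq L] {F : Subfield L} {β : L} {W : Affine L} (h₁ : W.a₁ = 0)
    (h₃ : W.a₃ = 0) (hβ : β ^ 2 = W.a₂) (hβ0 : β ≠ 0) (ha : W.a₂ ∈ F) (hb : W.a₄ ∈ F)
    {P : W.Point} (hP : InT F β P) (n : ℕ) : InT F β (n • P) := by
  induction n with
  | zero => rw [zero_smul]; exact InT_zero F β
  | succ k ih => rw [succ_nsmul]; exact InT_add h₁ h₃ hβ hβ0 ha hb ih hP

/-- `lam` takes values in `F` on `T`. -/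
lemma lam_mem_of_InT {F : Subfield L} {β : L} (hβ0 : β ≠ 0) {W : Affine L} {P : W.Point}
    (hP : InT F β P) : lam β P ∈ F := by
  rcases P with _ | ⟨x, y, h⟩
  · exact F.one_mem
  · obtain ⟨hx, y', hy', rfl⟩ := hP
    rw [lam_some]
    have e1 : β * y' - β * x = β * (y' - x) := by ring
    have e2 : β * y' + β * x = β * (y' + x) := by ring
    rw [e1, e2, mul_div_mul_left _ _ hβ0]
    exact F.div_mem (F.sub_mem hy' hx) (F.add_mem hy' hx)

end twist

section equivariance

variable {K₀ L : Type*} [Field K₀] [Field L] [DecidableEq L] [Algebra K₀ L]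

/-- An automorphism fixing `F` and `β` fixes `T` pointwise. -/
lemma smul_eq_of_InT {F : Subfield L} {β : L} (W' : Affine K₀) (σ : L ≃ₐ[K₀] L)
    (hσF : ∀ z ∈ F, σ z = z) (hσβ : σ β = β) {P : (W'⁄L).Point} (hP : InT F β P) :
    σ • P = P := by
  rcases P with _ | ⟨x, y, h⟩
  · rfl
  · obtain ⟨hx, y', hy', rfl⟩ := hP
    have h1 : σ x = x := hσF x hx
    have h2 : σ (β * y') = β * y' := by rw [map_mul, hσβ, hσF y' hy']
    show Point.some (σ x) (σ (β * y')) _ = _
    simp only [h1, h2]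

/-- `lam` is equivariant for automorphisms fixing `β`. -/
lemma lam_smul {β : L} (W' : Affine K₀) (σ : L ≃ₐ[K₀] L) (hσβ : σ β = β)
    (P : (W'⁄L).Point) : lam β (σ • P) = σ (lam β P) := by
  rcases P with _ | ⟨x, y, h⟩
  · show (1 : L) = σ 1
    rw [map_one]
  · show (σ y - β * σ x) / (σ y + β * σ x) = σ ((y - β * x) / (y + β * x))
    rw [map_div₀, map_sub, map_add, map_mul, hσβ]

end equivariance

section branch

variable {L : Type*} [Field L] [IsAlgClosed L]

/-- A point of `T` on the `+`-branch above `x₀ ∈ F` with `|b| < |x₀| < 1`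
(`F` closed under square roots of elements `≡ 1`). -/
lemma exists_branch_point_InT {A : ValuationSubring L} {W : Affine L} (hyp : ModelHyp A W)
    (hb : A.valuation W.a₄ < 1) (β : L) (hβ : β ^ 2 = W.a₂) (F : Subfield L)
    (ha : W.a₂ ∈ F) (hbF : W.a₄ ∈ F)
    (hsqrt : ∀ d η : L, d ∈ F → A.valuation (d - 1) < 1 → η ^ 2 = d →
      A.valuation (η - 1) < 1 → η ∈ F)
    (x₀ : L) (hx₀F : x₀ ∈ F) (hx1 : A.valuation x₀ < 1)
    (hxb : A.valuation W.a₄ < A.valuation x₀) :
    ∃ (y₀ : L) (h : W.Nonsingular x₀ y₀), A.valuation (y₀ - β * x₀) < A.valuation x₀ ∧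
      InT F β (Point.some x₀ y₀ h) := by
  have hx0 : x₀ ≠ 0 := by
    rintro rfl
    rw [map_zero] at hxb
    exact not_lt_zero hxb
  have hvx0 : A.valuation x₀ ≠ 0 := by simpa using hx0
  have hva := hyp.val_a_eq_one hb
  have ha0 : W.a₂ ≠ 0 := by
    intro h
    rw [h, map_zero] at hva
    exact zero_ne_one hva
  have hvβ : A.valuation β = 1 := by
    have : A.valuation β ^ 2 = 1 := by rw [← map_pow, hβ, hva]
    exact (pow_eq_one_iff_left two_ne_zero).mp this
  -- `d = 1 + (x₀ + b / x₀) / a`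
  set d : L := 1 + (x₀ + W.a₄ / x₀) / W.a₂ with hd
  have hdF : d ∈ F :=
    F.add_mem F.one_mem (F.div_mem (F.add_mem hx₀F (F.div_mem hbF hx₀F)) ha)
  have hd1 : A.valuation (d - 1) < 1 := by
    have e : d - 1 = (x₀ + W.a₄ / x₀) / W.a₂ := by rw [hd]; ring
    rw [e, map_div₀, hva, div_one]
    apply Valuation.map_add_lt _ hx1
    rw [map_div₀, div_lt_one₀ (zero_lt_iff.2 hvx0)]
    exact hxb
  obtain ⟨η', hη'⟩ := IsAlgClosed.exists_pow_nat_eq d (n := 2) (by norm_num)
  obtain ⟨η, hη, hη1⟩ : ∃ η : L, η ^ 2 = d ∧ A.valuation (η - 1) < 1 := by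
    have hprod : (η' - 1) * (η' + 1) = d - 1 := by rw [← hη']; ring
    by_cases h1 : A.valuation (η' - 1) < 1
    · exact ⟨η', hη', h1⟩
    · refine ⟨-η', by rw [neg_sq, hη'], ?_⟩
      have h2 : A.valuation (η' + 1) < 1 := by
        by_contra h2
        push Not at h1 h2
        have : (1 : A.ValueGroup) ≤ A.valuation (η' - 1) * A.valuation (η' + 1) := by
          calc (1 : A.ValueGroup) = 1 * 1 := (one_mul 1).symm
            _ ≤ A.valuation (η' - 1) * A.valuation (η' + 1) := mul_le_mul' h1 h2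
        rw [← map_mul, hprod] at this
        exact absurd hd1 (not_lt.2 this)
      have : -η' - 1 = -(η' + 1) := by ring
      rw [this, Valuation.map_neg]
      exact h2
  have hηF : η ∈ F := hsqrt d η hdF hd1 hη hη1
  have hy₀ : (β * (x₀ * η)) ^ 2 = x₀ ^ 3 + W.a₂ * x₀ ^ 2 + W.a₄ * x₀ := by
    rw [mul_pow, mul_pow, hβ, hη, hd]
    field_simp
    ring
  have hns : W.Nonsingular x₀ (β * (x₀ * η)) :=
    (equation_iff_nonsingular_of_Δ_ne_zero hyp.Δ_ne_zero).1
      ((Fermat.Agent.S05.legendre_equation_iff hyp.a₁ hyp.a₃ hyp.a₆ x₀ _).2 hy₀)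
  refine ⟨β * (x₀ * η), hns, ?_, hx₀F, x₀ * η, F.mul_mem hx₀F hηF, rfl⟩
  have e : β * (x₀ * η) - β * x₀ = β * x₀ * (η - 1) := by ring
  rw [e, map_mul, map_mul, hvβ, one_mul]
  calc A.valuation x₀ * A.valuation (η - 1) < A.valuation x₀ * 1 :=
        mul_lt_mul_of_pos_left hη1 (zero_lt_iff.2 hvx0)
    _ = A.valuation x₀ := mul_one _

end branch

end Fermat.Agent.S44.C.H33

end
-- ==== END Fermat.Agent.S44.C.H33_Twist

-- ==== BEGIN Fermat.Agent.S44.C.H38_L4
section

set_option autoImplicit false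

namespace Fermat.Agent.S44.C.H38

open WeierstrassCurve WeierstrassCurve.Affine
open Fermat.Agent.S05 (ModelHyp InE0 InE1)

section L4

variable {L : Type*} [Field L] [DecidableEq L] {A : ValuationSubring L} {W : Affine L}

omit [DecidableEq L] in
lemma inE0_of_inE1 {P : W.Point} (h : InE1 A P) : InE0 A P := by
  rcases P with _ | ⟨x, y, hxy⟩
  · trivial
  · exact le_of_lt (show 1 < A.valuation x from h)

/-- `E₁` is closed under `k • ·`. -/
lemma inE1_nsmul (hyp : ModelHyp A W) {S : W.Point} (hS : InE1 A S) (k : ℕ) :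
    InE1 A (k • S) := by
  induction k with
  | zero => rw [zero_smul]; trivial
  | succ k ih =>
    rw [succ_nsmul]
    exact Fermat.Agent.S05.H28.stmt_E1_add_of Fermat.Agent.S05.line A W hyp _ _ ih hS

/-- `|lam (k S) - lam(S)^k| ≤ |b| |lam S - 1|` for `S ∈ E₁`. -/
lemma val_lam_nsmul (hyp : ModelHyp A W) (hb : A.valuation W.a₄ < 1) {β : L}
    (hβ : β ^ 2 = W.a₂) {S : W.Point} (hS : InE1 A S) (k : ℕ) :
    A.valuation (lam β (k • S) - lam β S ^ k) ≤
      A.valuation W.a₄ * A.valuation (lam β S - 1) := by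
  induction k with
  | zero =>
    rw [zero_smul, lam_zero, pow_zero, sub_self, map_zero]
    exact zero_le
  | succ k ih =>
    have h1 := val_lam_add hyp hb hβ (k • S) S (inE0_of_inE1 (inE1_nsmul hyp hS k))
      (inE0_of_inE1 hS)
    have h2 : A.valuation ((lam β (k • S) - lam β S ^ k) * lam β S) ≤
        A.valuation W.a₄ * A.valuation (lam β S - 1) := by
      rw [map_mul, val_lam_eq_one hyp hb hβ S (inE0_of_inE1 hS), mul_one]
      exact ih
    have e : lam β ((k + 1) • S) - lam β S ^ (k + 1) =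
        (lam β (k • S + S) - lam β (k • S) * lam β S) +
          (lam β (k • S) - lam β S ^ k) * lam β S := by
      rw [succ_nsmul, pow_succ]; ring
    rw [e]
    exact Valuation.map_add_le _ h1 h2

omit [DecidableEq L] in
/-- `lam S ≠ 1` for `S ∈ E₀`, `S ≠ O`. -/
lemma lam_sub_one_ne_zero (hyp : ModelHyp A W) (hb : A.valuation W.a₄ < 1) {β : L}
    (hβ : β ^ 2 = W.a₂) {S : W.Point} (hS : InE0 A S) (hS0 : S ≠ 0) : lam β S - 1 ≠ 0 := by
  rcases S with _ | ⟨x, y, h⟩
  · exact absurd rfl hS0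
  · have hx : 1 ≤ A.valuation x := hS
    have h1 := val_lam_sub_one_sq hyp hb hβ h hx
    intro h0
    rw [h0, map_zero, zero_pow (by norm_num), zero_mul] at h1
    exact zero_ne_one h1

end L4

/-- Leaf **L4** of package C, from leaf V2. -/
theorem stmt_L4_of (hV2 : Stmt_V2) : Stmt_L4 := by
  intro L _ _ A W hyp β hβ p hp hp1 hbp S hS hpS hsmall
  by_contra hS0
  have hb : A.valuation W.a₄ < 1 := lt_trans hbp hp1
  set δ : L := lam β S - 1 with hδ
  have hδ0 : δ ≠ 0 := lam_sub_one_ne_zero hyp hb hβ (inE0_of_inE1 hS) hS0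
  have hδ1 : A.valuation δ < 1 := val_lam_sub_one_lt hyp hb hβ S hS
  have h1 := val_lam_nsmul hyp hb hβ hS p
  rw [hpS, lam_zero] at h1
  have e : lam β S = 1 + δ := by rw [hδ]; ring
  rw [e, Valuation.map_sub_swap, add_sub_cancel_left] at h1
  rw [hV2 L A.ValueGroup A.valuation p hp δ hδ1 hsmall] at h1
  have hδpos : 0 < A.valuation δ := by
    rw [Valuation.pos_iff]; exact hδ0
  have := (mul_le_mul_iff_left₀ hδpos).1 h1
  exact absurd hbp (not_lt.2 this)

/-- Leaf **L4** of package C. -/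
theorem stmt_L4 : Stmt_L4 := stmt_L4_of H01.stmt_V2

end Fermat.Agent.S44.C.H38

end
-- ==== END Fermat.Agent.S44.C.H38_L4

-- ==== BEGIN Fermat.Agent.S44.Final
section

set_option autoImplicit false

open WeierstrassCurve WeierstrassCurve.Affine WeierstrassCurve.Affine.Point
open scoped WeierstrassCurve.Affine

namespace Fermat.Agent.S44

/-- The Frey curve has non-zero discriminant. -/
theorem freyCurve_Δ_ne_zero (P : FreyPackage) : P.freyCurve.Δ ≠ 0 := by
  rw [← Fermat.Agent.S04.H59.freyCurveInt_map P, WeierstrassCurve.map_Δ]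
  simpa using Fermat.Agent.S04.H59.freyCurveInt_Δ_ne_zero P

/-- **Package E**: the Frey system is not Eisenstein. -/
theorem stmt_NonEis : Stmt_NonEis := by
  intro P W hW N hN hirr
  haveI : P.freyCurve.IsElliptic := ⟨isUnit_iff_ne_zero.mpr (freyCurve_Δ_ne_zero P)⟩
  have h := Fermat.Agent.S41.H19.stmt_I3 P.freyCurve W hW P.p N P.pp hN hirr
  by_contra hcon
  apply h
  intro ℓ hℓ hℓW hℓN hℓp
  by_contra hne
  exact hcon ⟨ℓ, hℓ, hℓW, hℓN, hℓp, hne⟩

/-- **S44 from packages A and C only.**  The conclusion is the frozen statement S44. -/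
theorem result_of_AC (hA : Stmt_Module) (hC : Stmt_FreyFiniteAtP)
    (P : FreyPackage) {N : ℕ} (hcond : P.IsConductorLevel N) (hpN : P.p ∣ N)
    (hirr : GaloisRepIsIrreducible (K := AlgebraicClosure ℚ) ℚ P.freyCurve P.p)
    (hmod : P.ModularRepOfLevel N) :
    ∃ M : ℕ, M ∣ N ∧ ¬ P.p ∣ M ∧ P.ModularRepOfLevel M :=
  result_of_inputs hA Fermat.Agent.L.H52.recovery hC stmt_PlaceOver stmt_NonEis
    P hcond hpN hirr hmod

/-- **S44 from the three open leaves**: the Tate package mod `p` of `J₀(N)` (A1), the structure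
of `J₀(N)[p]` at `p ∥ N` (A2 = BAD_p), and the local analysis of the Frey curve at `p` (C). -/
theorem result_of_leaves (h1 : Stmt_TateModP) (h2 : Stmt_BadP) (hC : Stmt_FreyFiniteAtP)
    (P : FreyPackage) {N : ℕ} (hcond : P.IsConductorLevel N) (hpN : P.p ∣ N)
    (hirr : GaloisRepIsIrreducible (K := AlgebraicClosure ℚ) ℚ P.freyCurve P.p)
    (hmod : P.ModularRepOfLevel N) :
    ∃ M : ℕ, M ∣ N ∧ ¬ P.p ∣ M ∧ P.ModularRepOfLevel M :=
  result_of_AC (stmt_Module_of h1 h2 stmt_CycRam) hC P hcond hpN hirr hmod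

end Fermat.Agent.S44

end
-- ==== END Fermat.Agent.S44.Final
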