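-- GENERATED (merged mirror, NOTES/tools/trim/merge3_helper67.py): 8 modules of the originals, bodies verbatim.
import Fermat.Agent.Zm.S44_L05_000
import Fermat.Agent.Zm.S35_L12_000
import Fermat.Agent.Zm.S35_L07_000
import Fermat.Agent.RED.H17_Place
import Fermat.Agent.Zm.S44_L01_000
import Fermat.Agent.Zm.S35_L01_003
import Fermat.Agent.Zm.S44_L05_001
import Fermat.Agent.Zm.S44_L02_004
import Fermat.Agent.Zm.S35_L11_000
import Fermat.Agent.Zm.S35_L04_000
import Fermat.Agent.Zm.S35_L09_001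

-- ==== BEGIN Fermat.Agent.BADP.H11_Arith0
section

/-!
# S44 BADP, leaf ARITH-0 (helper11): `K0`-rational parts of modular functions

`A` a valuation subring of `ℚ̄` over `p`, `I` its inertia group, `K0 = ℚ̄^I`, `F = F_N · ℚ̄`.

* `traceOp N σ d g = ∑_i σ_i (d g)` (coefficientwise action `galF`), for a finite family `σ_i ∈ I`
  and a constant `d`.
* `exists_traceOp` : for every finite set `S ⊂ F` there are `σ, d` such that for all `g ∈ S` the
  function `g0 = traceOp N σ d g` is fixed by `I` and, for every `c ∈ K0` with `c g` in the Gauss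
  valuation ring `V1`, also `c g0 ∈ V1` with the same reduction.
* `traceOp_comm` : `traceOp` commutes with every `ℚ̄`-algebra automorphism commuting with `galF`.
* `exists_pole_of_traceOp` : a pole of `traceOp N σ d g` at `P` gives a pole of `g` at `σ_i⁻¹ P`.
* `stmt_Arith0` : **ARITH-0** in the form of `NOTES/plan/L_S44.md` §12 (level `M p`, `V1`, `V2 = V1 ∘ w_p`).
-/

set_option autoImplicit false
set_option linter.style.haveILetI false
set_option linter.unusedSectionVars false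
set_option synthInstance.maxHeartbeats 400000
set_option maxHeartbeats 1000000

noncomputable section

namespace Fermat.Agent.BADP.H11

open AlgebraicCurve ModularCurve Fermat.Agent.BAD Fermat.Agent.S28 Fermat.Agent.S28.H73
  Fermat.Agent.RED.H73

open scoped Classical

local notation "Qbar" => AlgebraicClosure ℚ

/-- The trace operator `g ↦ ∑_i σ_i (d g)` on `F_N · ℚ̄`. -/
def traceOp (N : ℕ) {ι : Type} [Fintype ι] (σ : ι → GalQ) (d : Qbar) (g : ↥(FNbar N)) :
    ↥(FNbar N) :=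
  ∑ i, galF N (σ i) • (algebraMap Qbar ↥(FNbar N) d * g)

theorem coe_traceOp (N : ℕ) {ι : Type} [Fintype ι] (σ : ι → GalQ) (d : Qbar) (g : ↥(FNbar N)) :
    ((traceOp N σ d g : ↥(FNbar N)) : LaurentSeries Qbar)
      = ∑ i, coeffMap ((σ i : Qbar ≃ₐ[ℚ] Qbar) : Qbar →+* Qbar)
          (HahnSeries.C d * (g : LaurentSeries Qbar)) := by
  rw [traceOp]
  have h : ∀ s : Finset ι, (((∑ i ∈ s, galF N (σ i) • (algebraMap Qbar ↥(FNbar N) d * g) :
      ↥(FNbar N))) : LaurentSeries Qbar)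
      = ∑ i ∈ s, coeffMap ((σ i : Qbar ≃ₐ[ℚ] Qbar) : Qbar →+* Qbar)
          (HahnSeries.C d * (g : LaurentSeries Qbar)) := by
    intro s
    induction s using Finset.induction_on with
    | empty => simp
    | insert i s hi ih =>
      rw [Finset.sum_insert hi, Finset.sum_insert hi, ← ih]
      show ((galF N (σ i) • (algebraMap Qbar ↥(FNbar N) d * g) : ↥(FNbar N)) :
        LaurentSeries Qbar) + _ = _
      rw [coe_arithmeticGalois_smul]
      congr 2
      show ((algebraMap Qbar ↥(FNbar N) d : ↥(FNbar N)) : LaurentSeries Qbar) *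
        (g : LaurentSeries Qbar) = _
      rw [coe_algebraMap_F]
  exact h Finset.univ

/-- **ARITH-0, operator form.**  For every finite set `S` of modular functions there is a trace
operator `T = traceOp N σ d` (`σ_i` in the inertia group) such that for all `g ∈ S`: `T g` is
fixed by the inertia group, and for every constant `c` fixed by the inertia group with `c g` in
the Gauss valuation ring, `c · T g` is in the Gauss valuation ring with the same reduction. -/
theorem exists_traceOp (N : ℕ) (A : ValuationSubring Qbar) {p : ℕ} (hp : p.Prime)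
    (hA : A.LiesOverPrime p) (S : Finset ↥(FNbar N)) :
    ∃ (ι : Type) (_ : Fintype ι) (σ : ι → GalQ) (d : Qbar),
      (∀ i, σ i ∈ A.inertiaSubgroupIn ℚ) ∧
      ∀ g ∈ S,
        (∀ τ ∈ A.inertiaSubgroupIn ℚ, galF N τ • traceOp N σ d g = traceOp N σ d g) ∧
        ∀ c : Qbar, (∀ τ ∈ A.inertiaSubgroupIn ℚ, τ c = c) →
          ∀ hcg : algebraMap Qbar ↥(FNbar N) c * g ∈ gaussV A N,
            ∃ hcT : algebraMap Qbar ↥(FNbar N) c * traceOp N σ d g ∈ gaussV A N,
              gaussRes A N ⟨_, hcT⟩ = gaussRes A N ⟨_, hcg⟩ := by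
  -- a number field adapted to all elements of `S`
  have hex : ∀ g : ↥(FNbar N), ∃ s : Finset Qbar,
      ∀ (L : IntermediateField ℚ Qbar) [FiniteDimensional ℚ L] [Normal ℚ L],
        (∀ c ∈ s, c ∈ L) → Adapted A L (g : LaurentSeries Qbar) :=
    fun g => exists_adapted A N g.2
  choose sf hsf using hex
  obtain ⟨L, hfin, hnorm, hL⟩ := exists_normal_finite (S.biUnion sf)
  haveI := hfin
  haveI := hnorm
  have hadapt : ∀ g ∈ S, Adapted A L (g : LaurentSeries Qbar) := by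
    intro g hg
    exact hsf g L (fun c hc => hL c (Finset.mem_biUnion.mpr ⟨g, hg, hc⟩))
  obtain ⟨d, hd⟩ := exists_isSection A L hp hA
  have hcoe : ∀ g : ↥(FNbar N),
      ((traceOp N (liftI A L) (d : Qbar) g : ↥(FNbar N)) : LaurentSeries Qbar)
        = Tser A L d (g : LaurentSeries Qbar) := fun g => coe_traceOp N _ _ g
  refine ⟨↥(inertiaRes A L), inferInstance, liftI A L, (d : Qbar), liftI_mem A L,
    fun g hg => ⟨fun τ hτ => ?_, fun c hc hcg => ?_⟩⟩
  · apply Subtype.ext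
    rw [coe_arithmeticGalois_smul, hcoe]
    exact (hadapt g hg).coeffMap_Tser d τ hτ
  · have hcg' : HahnSeries.C c * (g : LaurentSeries Qbar) ∈ gaussRingV A := by
      have := (mem_gaussValSub_iff A (hasScale_laurentBaseChange A N) _).mp hcg
      have e : ((algebraMap Qbar ↥(FNbar N) c * g : ↥(FNbar N)) : LaurentSeries Qbar)
          = HahnSeries.C c * (g : LaurentSeries Qbar) := by
        show ((algebraMap Qbar ↥(FNbar N) c : ↥(FNbar N)) : LaurentSeries Qbar) *
          (g : LaurentSeries Qbar) = _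
        rw [coe_algebraMap_F]
      rwa [e] at this
    obtain ⟨h1, hred⟩ := (hadapt g hg).section_gauss hd hp hA c hc hcg'
    have e1 : ((algebraMap Qbar ↥(FNbar N) c * traceOp N (liftI A L) (d : Qbar) g : ↥(FNbar N)) :
        LaurentSeries Qbar) = HahnSeries.C c * Tser A L d (g : LaurentSeries Qbar) := by
      show ((algebraMap Qbar ↥(FNbar N) c : ↥(FNbar N)) : LaurentSeries Qbar) *
        ((traceOp N (liftI A L) (d : Qbar) g : ↥(FNbar N)) : LaurentSeries Qbar) = _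
      rw [coe_algebraMap_F, hcoe]
    have e2 : ((algebraMap Qbar ↥(FNbar N) c * g : ↥(FNbar N)) : LaurentSeries Qbar)
        = HahnSeries.C c * (g : LaurentSeries Qbar) := by
      show ((algebraMap Qbar ↥(FNbar N) c : ↥(FNbar N)) : LaurentSeries Qbar) *
        (g : LaurentSeries Qbar) = _
      rw [coe_algebraMap_F]
    have hcT : algebraMap Qbar ↥(FNbar N) c * traceOp N (liftI A L) (d : Qbar) g ∈ gaussV A N := by
      rw [mem_gaussValSub_iff, e1]
      exact h1
    refine ⟨hcT, ?_⟩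
    apply Subtype.ext
    show gaussResF A (hasScale_laurentBaseChange A N) ⟨_, hcT⟩
      = gaussResF A (hasScale_laurentBaseChange A N) ⟨_, hcg⟩
    rw [gaussResF_apply, gaussResF_apply]
    have g1 : (⟨((algebraMap Qbar ↥(FNbar N) c * traceOp N (liftI A L) (d : Qbar) g :
        ↥(FNbar N)) : LaurentSeries Qbar), hcT⟩ : gaussRingV A) = ⟨_, h1⟩ := Subtype.ext e1
    have g2 : (⟨((algebraMap Qbar ↥(FNbar N) c * g : ↥(FNbar N)) : LaurentSeries Qbar), hcg⟩ :
        gaussRingV A) = ⟨_, hcg'⟩ := Subtype.ext e2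
    exact (congrArg (gaussRedV A) g1).trans (hred.trans (congrArg (gaussRedV A) g2).symm)

/-- `traceOp` commutes with every `ℚ̄`-algebra automorphism of `F` which commutes with the
coefficientwise Galois action. -/
theorem traceOp_comm (N : ℕ) {ι : Type} [Fintype ι] (σ : ι → GalQ) (d : Qbar)
    (w : ↥(FNbar N) ≃ₐ[Qbar] ↥(FNbar N))
    (hw : ∀ (i : ι) (x : ↥(FNbar N)), w (galF N (σ i) • x) = galF N (σ i) • w x)
    (g : ↥(FNbar N)) : w (traceOp N σ d g) = traceOp N σ d (w g) := by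
  rw [traceOp, traceOp, map_sum]
  refine Finset.sum_congr rfl fun i _ => ?_
  rw [hw, map_mul, AlgEquiv.commutes]

/-- A pole of `traceOp N σ d g` at `P` comes from a pole of `g` at some `σ_i⁻¹ P`. -/
theorem exists_pole_of_traceOp (N : ℕ) {ι : Type} [Fintype ι] (σ : ι → GalQ) (d : Qbar)
    (g : ↥(FNbar N)) (P : Place Qbar ↥(FNbar N)) (hP : P.ord (traceOp N σ d g) < 0) :
    ∃ i, ((galF N (σ i))⁻¹ • P).ord g < 0 := by
  by_contra hcon
  simp only [not_exists, not_lt] at hcon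
  have hd0 : d ≠ 0 := by
    rintro rfl
    have : traceOp N σ (0 : Qbar) g = 0 := by
      rw [traceOp]
      simp
    rw [this, Place.ord_zero] at hP
    exact lt_irrefl _ hP
  have hterm : ∀ i, 0 ≤ P.ord (galF N (σ i) • (algebraMap Qbar ↥(FNbar N) d * g)) := by
    intro i
    have h1 : P.ord (galF N (σ i) • (algebraMap Qbar ↥(FNbar N) d * g))
        = ((galF N (σ i))⁻¹ • P).ord (algebraMap Qbar ↥(FNbar N) d * g) := by
      have h2 := SemilinearAut.ord_smul (galF N (σ i)) ((galF N (σ i))⁻¹ • P)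
        (algebraMap Qbar ↥(FNbar N) d * g)
      rw [smul_inv_smul] at h2
      exact h2
    rw [h1, Fermat.Agent.RED.H17.ord_algebraMap_mul _ hd0]
    exact hcon i
  have hsum : ∀ s : Finset ι,
      0 ≤ P.ord (∑ i ∈ s, galF N (σ i) • (algebraMap Qbar ↥(FNbar N) d * g)) := by
    intro s
    induction s using Finset.induction_on with
    | empty => simp [Place.ord_zero]
    | insert i s hi ih =>
      rw [Finset.sum_insert hi]
      rcases Fermat.Agent.RED.H17.le_ord_add P (Or.inr (hterm i)) (Or.inr ih) with h | h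
      · rw [h, Place.ord_zero]
      · exact h
  exact absurd hP (not_lt.mpr (hsum Finset.univ))

end Fermat.Agent.BADP.H11

end
end
-- ==== END Fermat.Agent.BADP.H11_Arith0

-- ==== BEGIN Fermat.Agent.BADP.H51_RayFinal
section

/-!
# S44, package RAY-ABS (helper51): `Stmt_RayAbs` and `Stmt_RayAbsTame` are PROVED

`stmt_RayAbs : BADP.Stmt_RayAbs`, `stmt_RayAbsTame : BADP.Stmt_RayAbsTame`
(statements of helper93, `BADP/AbsStmts.lean`), from `H51.rayAbs` (with `θ = 1`) and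
`H51.rayAbsTame`.
-/

set_option autoImplicit false
set_option linter.style.haveILetI false
set_option maxHeartbeats 1000000

noncomputable section

open AlgebraicCurve

namespace Fermat.Agent.BADP.H51

open Fermat.Agent.RED.H17 Fermat.Agent.RED Fermat.Agent.BAD

section Bridge

variable {K F k F₁ F₂ : Type} [Field K] [Field F] [Algebra K F] [Field k] [Field F₁]
  [Algebra k F₁] [Field F₂] [Algebra k F₂]

/-- `IsK0Lift` in the form used by `rayAbs`. -/
theorem isK0Part_of_isK0Lift {S : SSD K F k F₁ F₂} {𝓘 : Set (SemilinearAut K F)}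
    (h : IsK0Lift S 𝓘) (u : F) (hu₁ : u ∈ S.c₁.V) (hu₂ : u ∈ S.c₂.V) :
    ∃ u₀ : F, IsK0Part S 𝓘 u u₀ := by
  obtain ⟨u₀, h1, h2, h3, h4, h5, h6⟩ := h u hu₁ hu₂
  exact ⟨u₀, h1, h2, h3, h4, h5, h6⟩

end Bridge

/-- **RAY-ABS.** -/
theorem stmt_RayAbs : Stmt_RayAbs := by
  intro K F k F₁ F₂ _ _ _ _ _ _ _ _ _ _ S H H₁ H₂ g g₁ g₂ c c₁ c₂ hR hR₁ hR₂ hnum p hp hp2 hchar
    hpK 𝓘 𝓘3 h𝓘 h3 hK0 π ϖ hπ hπne hπp hϖ hϖp σ hσ hA2₁ hA2₂ hA3 f hf₁ hrd₁ hdiv f' h₀ a hf'
    hrd' hff' hcls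
  obtain ⟨h, hh⟩ := rayAbs S H H₁ H₂ hR hR₁ hR₂ hnum p hp hp2 hchar hpK h3 h𝓘
    (isK0Part_of_isK0Lift hK0) π ϖ 1 hπ hπne
    (by rw [map_one]; exact S.c₁.V.one_mem) one_ne_zero hπp hϖ hϖp σ hσ
    (fun x hx hx₁ => by rw [mul_one]; exact hA2₁ x hx hx₁)
    (fun x hx hx₂ => by rw [mul_one]; exact hA2₂ x hx hx₂)
    (fun b hb hbm => by rw [mul_one]; exact hA3 b hb hbm)
    hf₁ hrd₁ hdiv hf' hrd' hff' hcls
  exact ⟨1, h, by rw [map_one, one_mul]; exact hh⟩

/-- **RAY-ABS-TAME.** -/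
theorem stmt_RayAbsTame : Stmt_RayAbsTame := by
  intro K F k F₁ F₂ _ _ _ _ _ _ _ _ _ _ S H H₁ H₂ g g₁ g₂ c c₁ c₂ hR hR₁ hR₂ hnum p hp _ hchar
    _ 𝓘 h𝓘 hK0 hlin f hf₁ hrd₁ hdiv f' h₀ a hf' hrd' hff' hcls
  obtain ⟨h, hh⟩ := rayAbsTame S H H₁ H₂ hR hR₁ hR₂ hnum p hp hchar (subset_refl 𝓘) h𝓘
    (isK0Part_of_isK0Lift hK0) hlin hf₁ hrd₁ hdiv hf' hrd' hff' hcls
  exact ⟨1, h, by rw [map_one, one_mul]; exact hh⟩

end Fermat.Agent.BADP.H51

end
end
-- ==== END Fermat.Agent.BADP.H51_RayFinal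

-- ==== BEGIN Fermat.Agent.L.H52_DetCycFrey
section

set_option autoImplicit false

open WeierstrassCurve WeierstrassCurve.Affine WeierstrassCurve.Affine.Point
open scoped WeierstrassCurve.Affine

namespace Fermat.Agent.L.H52

variable (P : FreyPackage)

/-- The integral Frey model is an integral model of the Frey curve. -/
theorem freyCurveInt_isIntegralModelOf : P.freyCurveInt.IsIntegralModelOf P.freyCurve :=
  ⟨1, by rw [one_smul, Fermat.Agent.S04.H59.freyCurveInt_map P]⟩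

/-- **`det ρ = χ_p` for the Frey curve**, elementary form. -/
theorem frey_det_eq_natCast (σ : GQ) (n : ℕ)
    (hn : ∀ ζ : Qb, ζ ^ P.p = 1 → σ ζ = ζ ^ n) :
    LinearMap.det (galoisRepModuleEnd (S := ℚ) (K := AlgebraicClosure ℚ) P.freyCurve.toAffine
      P.p σ) = (n : ZMod P.p) :=
  haveI : Fact P.p.Prime := ⟨P.pp⟩
  det_eq_natCast (freyCurveInt_isIntegralModelOf P)
    (Fermat.Agent.S04.H59.freyCurveInt_Δ_ne_zero P) σ n hn

/-- **`det ρ = χ_p` for the Frey curve**, prelude form. -/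
theorem frey_galoisRepDetEqCyclotomic :
    haveI : NeZero P.p := ⟨P.pp.ne_zero⟩
    GaloisRepDetEqCyclotomic (K := AlgebraicClosure ℚ) ℚ P.freyCurve.toAffine P.p
      P.card_rootsOfUnity_algebraicClosure :=
  haveI : Fact P.p.Prime := ⟨P.pp⟩
  haveI : NeZero P.p := ⟨P.pp.ne_zero⟩
  galoisRepDetEqCyclotomic (freyCurveInt_isIntegralModelOf P)
    (Fermat.Agent.S04.H59.freyCurveInt_Δ_ne_zero P) P.card_rootsOfUnity_algebraicClosure

end Fermat.Agent.L.H52

end
-- ==== END Fermat.Agent.L.H52_DetCycFrey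

-- ==== BEGIN Fermat.Agent.RED.HR.H51_DegTower
section

/-!
# G-RED package HR-RED, leaf DEG (helper51): the degeneracy map `β` has no defect

`stmt_DegBeta : H95.Stmt_DegBeta` : `[F~_{Ns} : β F~_N] = [F_{Ns} : β F_N]`, `β : f(q) ↦ f(q^s)`,
`s ≠ ℓ` prime, `ℓ ∤ N` (`s ∣ N` allowed).

Tower law (`degBeta_mul`): over `κ = k, ℚ̄`, with `J = κ(j)`, `J_s = κ(j(q^s)) = β J`,
`E_L = κ(j(q^d) : d ∣ L)`:
`ψ(N) [E_{Ns} : β E_N] = [β E_N : J_s] [E_{Ns} : β E_N] = [E_{Ns} : J_s]
  = [E_s : J_s] [E_{Ns} : E_s] = [E_s : J] [E_{Ns} : E_s] = [E_{Ns} : J] = ψ(Ns)`.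

This file contains no `sorry`.
-/

set_option autoImplicit false
set_option linter.style.haveILetI false
set_option linter.unusedSectionVars false
set_option synthInstance.maxHeartbeats 400000
set_option maxHeartbeats 1000000

noncomputable section

open AlgebraicCurve ModularCurve IntermediateField
open Fermat.Agent.S28.H73 Fermat.Agent.RED.H73 Fermat.Agent.RED

namespace Fermat.Agent.RED.H51

section Tower

variable (κ : Type) [Field κ]

theorem fullC_le_of_dvd {N M : ℕ} (h : N ∣ M) :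
    modularFunctionFieldFullC κ N ≤ modularFunctionFieldFullC κ M := by
  apply IntermediateField.adjoin.mono
  rintro x ⟨d, hd0, hd, hx⟩
  exact ⟨d, hd0, hd.trans h, hx⟩

theorem adjoin_jqModC_le_fullC (N : ℕ) :
    IntermediateField.adjoin κ ({jqModC κ} : Set (LaurentSeries κ))
      ≤ modularFunctionFieldFullC κ N := by
  rw [IntermediateField.adjoin_le_iff]
  rintro x hx
  rw [Set.mem_singleton_iff] at hx
  subst hx
  exact jqModC_mem_full κ N

theorem adjoin_js_le_fullC (s : ℕ) [NeZero s] {M : ℕ} (h : s ∣ M) :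
    IntermediateField.adjoin κ ({qExpand κ s (jqModC κ)} : Set (LaurentSeries κ))
      ≤ modularFunctionFieldFullC κ M := by
  rw [IntermediateField.adjoin_le_iff]
  rintro x hx
  rw [Set.mem_singleton_iff] at hx
  subst hx
  exact jqModCd_mem_full κ M h

/-- `β κ(j) = κ(j(q^s))`. -/
theorem map_adjoin_jqModC (s : ℕ) [NeZero s] :
    (IntermediateField.adjoin κ ({jqModC κ} : Set (LaurentSeries κ))).map (qExpandAlgHomC κ s)
      = IntermediateField.adjoin κ ({qExpand κ s (jqModC κ)} : Set (LaurentSeries κ)) := by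
  rw [IntermediateField.adjoin_map, Set.image_singleton]
  rfl

/-- `β E_N ≤ E_{Ns}`. -/
theorem map_fullC_le (N s : ℕ) [NeZero s] :
    (modularFunctionFieldFullC κ N).map (qExpandAlgHomC κ s)
      ≤ modularFunctionFieldFullC κ (N * s) := by
  rw [modularFunctionFieldFullC, IntermediateField.adjoin_map, IntermediateField.adjoin_le_iff]
  rintro _ ⟨_, ⟨d, hd0, hd, rfl⟩, rfl⟩
  haveI : NeZero (s * d) := ⟨Nat.mul_ne_zero (NeZero.ne s) (NeZero.ne d)⟩
  have e : qExpandAlgHomC κ s (qExpand κ d (jqModC κ)) = qExpand κ (s * d) (jqModC κ) := by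
    rw [qExpandAlgHomC_apply, qExpand_qExpand]
  rw [e]
  exact jqModCd_mem_full κ (N * s) (by rw [mul_comm s d]; exact Nat.mul_dvd_mul hd dvd_rfl)

/-- The tower law for `β`. -/
theorem degBeta_mul (N s : ℕ) [NeZero N] [NeZero s] {a b : ℕ}
    (hN : (IntermediateField.adjoin κ ({jqModC κ} : Set (LaurentSeries κ))).relfinrank
      (modularFunctionFieldFullC κ N) = a)
    (hNs : (IntermediateField.adjoin κ ({jqModC κ} : Set (LaurentSeries κ))).relfinrank
      (modularFunctionFieldFullC κ (N * s)) = b)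
    (hswap : (IntermediateField.adjoin κ
          ({qExpand κ s (jqModC κ)} : Set (LaurentSeries κ))).relfinrank
          (modularFunctionFieldFullC κ s)
        = (IntermediateField.adjoin κ ({jqModC κ} : Set (LaurentSeries κ))).relfinrank
          (modularFunctionFieldFullC κ s)) :
    a * ((modularFunctionFieldFullC κ N).map (qExpandAlgHomC κ s)).relfinrank
        (modularFunctionFieldFullC κ (N * s)) = b := by
  set J := IntermediateField.adjoin κ ({jqModC κ} : Set (LaurentSeries κ)) with hJ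
  set Js := IntermediateField.adjoin κ ({qExpand κ s (jqModC κ)} : Set (LaurentSeries κ))
    with hJs
  have hsNs : s ∣ N * s := Dvd.intro_left N rfl
  -- `[β E_N : J_s] = [E_N : J]`
  have h1 : Js.relfinrank ((modularFunctionFieldFullC κ N).map (qExpandAlgHomC κ s)) = a := by
    have := relfinrank_map_map J (modularFunctionFieldFullC κ N) (qExpandAlgHomC κ s)
    rw [map_adjoin_jqModC] at this
    rw [this, hN]
  have hle1 : Js ≤ (modularFunctionFieldFullC κ N).map (qExpandAlgHomC κ s) := by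
    rw [hJs, ← map_adjoin_jqModC]
    exact IntermediateField.map_mono _ (adjoin_jqModC_le_fullC κ N)
  have t1 := relfinrank_mul_relfinrank hle1 (map_fullC_le κ N s)
  have t2 := relfinrank_mul_relfinrank (adjoin_js_le_fullC κ s dvd_rfl)
    (fullC_le_of_dvd κ hsNs)
  have t3 := relfinrank_mul_relfinrank (adjoin_jqModC_le_fullC κ s)
    (fullC_le_of_dvd κ hsNs)
  rw [h1] at t1
  rw [t1, ← t2, hswap, t3, hNs]

end Tower

/-- The common value: `ψ(N) [E_{Ns} : β E_N] = ψ(Ns)` over `ℚ̄`. -/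
theorem degBeta_bar (N s : ℕ) [NeZero N] [NeZero s] (hs : s.Prime) :
    dedekindPsi N * ((modularFunctionFieldFullC (AlgebraicClosure ℚ) N).map
        (qExpandAlgHomC (AlgebraicClosure ℚ) s)).relfinrank
        (modularFunctionFieldFullC (AlgebraicClosure ℚ) (N * s)) = dedekindPsi (N * s) := by
  haveI : NeZero (N * s) := ⟨Nat.mul_ne_zero (NeZero.ne N) (NeZero.ne s)⟩
  refine degBeta_mul (AlgebraicClosure ℚ) N s (relfinrank_fullC_bar N)
    (relfinrank_fullC_bar (N * s)) ?_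
  rw [relfinrank_swap_bar s hs, relfinrank_fullC_bar, dedekindPsi_prime hs]

/-- **The degeneracy map `β` has no defect.** -/
theorem stmt_DegBeta : Fermat.Agent.RED.H95.Stmt_DegBeta := by
  intro N ℓ s _ _ hℓ hs hsℓ hℓN A hA
  haveI : NeZero (N * s) := ⟨Nat.mul_ne_zero (NeZero.ne N) (NeZero.ne s)⟩
  have hℓs : ¬ ℓ ∣ s := fun h => hsℓ ((Nat.prime_dvd_prime_iff_eq hℓ hs).mp h).symm
  have hℓNs : ¬ ℓ ∣ N * s := fun h => (hℓ.dvd_mul.mp h).elim hℓN hℓs
  obtain ⟨hsw1, hsw2⟩ := stmt_SwapDeg ℓ s hℓ hs hsℓ A hA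
  have hψ : 0 < dedekindPsi N := Fermat.Agent.RED.KD.H22.dedekindPsi_pos N
  have e1 := degBeta_mul (kV A) N s (relfinrank_fullC_res N ℓ hℓ hℓN A hA)
    (relfinrank_fullC_res (N * s) ℓ hℓ hℓNs A hA) hsw1
  have e2 := degBeta_mul (AlgebraicClosure ℚ) N s (relfinrank_fullC_bar N)
    (relfinrank_fullC_bar (N * s)) hsw2
  exact Nat.eq_of_mul_eq_mul_left hψ (e1.trans e2.symm)

end Fermat.Agent.RED.H51

end
end
-- ==== END Fermat.Agent.RED.HR.H51_DegTower

-- ==== BEGIN Fermat.Agent.S13.H87_PKernelFinal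
section

set_option autoImplicit false

namespace Fermat.Agent.S13.H87

/-- (I6): at `A` over `p`, the kernel of reduction is a subspace `T` of `E[p]` and inertia acts
trivially on `E[p] / T`. -/
theorem p_kernel : Stmt_p_kernel :=
  p_kernel_of_M1 (fun _ _ _ => Fermat.Agent.S05.M1)

end Fermat.Agent.S13.H87

end
-- ==== END Fermat.Agent.S13.H87_PKernelFinal

-- ==== BEGIN Fermat.Agent.S17.W2.CanonAct
section

/-!
# S17-W2, CORE part 5: the action on divisors, classes and canonical divisors (helper8)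
-/

set_option autoImplicit false

noncomputable section

namespace Fermat.Agent.S17.W2

open AlgebraicCurve WithZero Fermat.Agent.RED.H51 Fermat.Agent.RED.H42

variable {k Ω F : Type} [Field k] [Field Ω] [Field F] [Algebra k Ω] [Algebra Ω F]
variable (S : Setting k Ω F)

local notation "L" => riemannRochSpace

theorem Setting.inv_smul_oo (σ : Ω ≃ₐ[k] Ω) : (S.ρ σ)⁻¹ • S.oo = S.oo := by
  rw [inv_smul_eq_iff, S.ρ_oo]

theorem smul_nonneg_divisor (g : SemilinearAut Ω F) {D : Divisor Ω F} (hD : 0 ≤ D) :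
    0 ≤ g • D := by
  rw [Finsupp.le_def]
  intro w
  rw [SemilinearAut.divisor_smul_apply]
  exact Finsupp.le_def.mp hD _

theorem mem_L_smul (g : SemilinearAut Ω F) {D : Divisor Ω F} {f : F} (hf : f ∈ L (g • D)) :
    g⁻¹ • f ∈ L D := by
  rw [mem_riemannRochSpace_iff] at hf ⊢
  intro v
  rcases hf (g • v) with h | h
  · left
    rw [h, smul_zero]
  · right
    rw [SemilinearAut.divisor_smul_apply_smul] at h
    have h2 := SemilinearAut.ord_smul g v (g⁻¹ • f)
    rw [smul_inv_smul] at h2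
    rw [← h2]
    exact h

theorem onlyConst_smul (g : SemilinearAut Ω F) {D : Divisor Ω F} (hD : OnlyConst D) :
    OnlyConst (g • D) := by
  intro f hf
  obtain ⟨c, hc⟩ := hD _ (mem_L_smul g hf)
  refine ⟨SemilinearAut.baseAut g c, ?_⟩
  rw [← SemilinearAut.smul_algebraMap, ← hc, smul_inv_smul]

theorem Setting.isCanon_smul {D : Divisor Ω F} (hD : IsCanon S.oo D) (σ : Ω ≃ₐ[k] Ω) :
    IsCanon S.oo (S.ρ σ • D) := by
  refine ⟨smul_nonneg_divisor _ hD.1, ?_, onlyConst_smul _ hD.2.2⟩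
  rw [SemilinearAut.divisor_smul_apply, S.inv_smul_oo]
  exact hD.2.1

variable (H : Hyp Ω F)
include H

theorem Setting.cls_smul (D : Divisor Ω F) (σ : Ω ≃ₐ[k] Ω) :
    S.ρ σ • cls H S.oo D = cls H S.oo (S.ρ σ • D) := by
  unfold cls
  rw [SemilinearAut.pic0_smul_mk]
  congr 1
  apply Subtype.ext
  rw [SemilinearAut.coe_degZeroSMulHom]
  simp only [smul_sub, SemilinearAut.smul_single, S.ρ_oo, SemilinearAut.degree_smul]

/-- The class of a canonical divisor has a finite orbit iff the divisor has. -/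
theorem Setting.finOrb_cls_iff {G' : Subgroup (Ω ≃ₐ[k] Ω)} {D : Divisor Ω F}
    (hD : IsCanon S.oo D) : FinOrb S.ρ G' (cls H S.oo D) ↔ FinOrb S.ρ G' D := by
  constructor
  · intro h
    refine FinOrb.of_injOn S.ρ (cls H S.oo) (fun σ _ => (S.cls_smul H D σ).symm) h ?_
    rintro _ ⟨σ, _, rfl⟩ _ ⟨τ, _, rfl⟩ hcl
    exact canon_unique H S.oo (S.isCanon_smul hD σ) (S.isCanon_smul hD τ) hcl
  · intro h
    exact h.map S.ρ (cls H S.oo) fun σ _ => (S.cls_smul H D σ).symm

omit H in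
/-- A divisor has a finite orbit iff all its points have. -/
theorem Setting.finOrb_divisor_iff {G' : Subgroup (Ω ≃ₐ[k] Ω)} {D : Divisor Ω F} :
    FinOrb S.ρ G' D ↔ ∀ P ∈ D.support, FinOrb S.ρ G' P := by
  classical
  constructor
  · intro h P hP
    have hT : (⋃ D' ∈ orb S.ρ G' D, ((D' : Divisor Ω F).support : Set (Place Ω F))).Finite :=
      h.biUnion fun D' _ => D'.support.finite_toSet
    refine finOrb_of_stable S.ρ hT ?_ ?_
    · intro σ hσ Q hQ
      simp only [Set.mem_iUnion, Finset.mem_coe, exists_prop] at hQ ⊢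
      obtain ⟨D', hD', hQD'⟩ := hQ
      refine ⟨S.ρ σ • D', smul_mem_orb S.ρ hD' hσ, ?_⟩
      rw [Finsupp.mem_support_iff] at hQD' ⊢
      rwa [SemilinearAut.divisor_smul_apply_smul]
    · simp only [Set.mem_iUnion, Finset.mem_coe, exists_prop]
      exact ⟨D, mem_orb_self S.ρ G' D, hP⟩
  · intro h
    have hsum : D = ∑ P ∈ D.support, Finsupp.single P (D P) := by
      conv_lhs => rw [← Finsupp.sum_single D]
      rfl
    rw [hsum]
    refine FinOrb.sum S.ρ _ _ fun P hP => ?_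
    exact (h P hP).map S.ρ (fun Q => (Finsupp.single Q (D P) : Divisor Ω F))
      fun σ _ => (SemilinearAut.smul_single _ _ _).symm

end Fermat.Agent.S17.W2

end
end
-- ==== END Fermat.Agent.S17.W2.CanonAct

-- ==== BEGIN Fermat.Agent.S17.W2.H75_GE4Main
section

/-!
# S17-W2, GEO sub-leaf G-d (helper75): `Stmt_E4`, the counting argument
-/

set_option autoImplicit false
set_option linter.style.haveILetI false
set_option linter.unusedSectionVars false

noncomputable section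

namespace Fermat.Agent.S17.W2.H75

open AlgebraicCurve IntermediateField ModularCurve Fermat.Agent.GTor Fermat.Agent.RED Polynomial

section E4

variable {K Ω : Type} [Field K] [Field Ω] [Algebra ℚ K] [Algebra ℚ Ω] [Algebra K Ω] (N : ℕ)
  [NeZero N] [IsAlgClosed Ω] [CharZero Ω]

set_option synthInstance.maxHeartbeats 400000 in
set_option maxHeartbeats 1600000 in
/-- Every `K`-embedding `ψ` of `E` with `ψ j = t` is the evaluation at a zero of `j - t`. -/
theorem exists_place_of_hom (hGb : H18.Stmt_Gb K N) {P : Place Ω (FNL Ω N)} {t : Ω}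
    (hP : H18.ZeroAt N P t) (ht : Transcendental K t) (ψ : FNL K N →+* Ω)
    (hψc : ∀ c : K, ψ (algebraMap K (FNL K N) c) = algebraMap K Ω c)
    (hψj : ψ (H33.jL K N) = t) :
    ∃ R : Place Ω (FNL Ω N), H18.ZeroAt N R t ∧ H18.IsEv N R ψ := by
  obtain ⟨φ, hφ, hφj, hφc⟩ := H18.stmt_E12 N hGb P t hP ht
  let φ' : FNL K N →ₐ[K] Ω := { φ with commutes' := hφc }
  let ψ' : FNL K N →ₐ[K] Ω := { ψ with commutes' := hψc }
  have halg : Algebra.IsAlgebraic (IntermediateField.adjoin K {H33.jL K N}) (FNL K N) :=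
    ⟨fun e => hGb e⟩
  obtain ⟨A, hAfin, hA⟩ := H56.exists_finite_transcendenceBasis (H33.jL K N) halg
  obtain ⟨σ, hσ⟩ := H56.exists_algEquiv_conj A hAfin hA φ' ψ'
  let τ : Ω ≃ₐ[ℚ] Ω := AlgEquiv.ofRingEquiv (f := σ.toRingEquiv) (fun q => by
    rw [eq_ratCast]
    exact map_ratCast σ.toRingEquiv q)
  have hτ : ∀ a : Ω, τ a = σ a := fun _ => rfl
  have hτK : ∀ c : K, τ (algebraMap K Ω c) = algebraMap K Ω c := fun c => by
    rw [hτ]
    exact σ.commutes c
  have h3 := H18.stmt_E3 (K := K) (Ω := Ω) N P φ τ hτK hφ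
  have h4 : H18.IsEv N (arithmeticGalois (modularFunctionFieldFull N) τ • P) ψ :=
    H18.isEv_congr N h3 fun e => hσ e
  have h5 := H18.zeroAt_smul N hP τ
  have h6 : τ t = t := by
    calc τ t = σ (φ' (H33.jL K N)) := by rw [hτ]; exact congrArg σ hφj.symm
      _ = ψ' (H33.jL K N) := hσ _
      _ = t := hψj
  rw [h6] at h5
  exact ⟨_, h5, h4⟩

set_option synthInstance.maxHeartbeats 400000 in
set_option maxHeartbeats 3200000 in
/-- **E4** (counting): two zeros of `j - t`, `t` transcendental over `K`, with the same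
evaluation homomorphism on `K(X₀(N))` are equal. -/
theorem stmt_E4 (hGb : H18.Stmt_Gb K N) : H18.Stmt_E4 K Ω N := by
  intro P Q t hP hQ ht φ hφP hφQ
  classical
  by_contra hPQ
  -- `φ` is a `K`-algebra homomorphism with `φ j = t`
  obtain ⟨φ', hφ', hφ'j, hφ'c⟩ := H18.stmt_E12 N hGb P t hP ht
  have hφφ' : ∀ e, φ e = φ' e := fun e => H18.HasVal.unique (hφP e) (hφ' e)
  have hφj : φ (H33.jL K N) = t := by rw [hφφ', hφ'j]
  have hφc : ∀ c, φ (algebraMap K (FNL K N) c) = algebraMap K Ω c := fun c => by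
    rw [hφφ', hφ'c]
  -- degrees
  haveI hfinE : FiniteDimensional K⟮H33.jL K N⟯ (FNL K N) := finiteDimensional_of_Gb N hGb
  obtain ⟨hfinF, hle⟩ := finrank_FNL_le (K := K) (Ω := Ω) N t
  haveI := hfinF
  haveI : CharZero K := charZero_of_injective_algebraMap (algebraMap ℚ K).injective
  haveI : CharZero K⟮H33.jL K N⟯ :=
    charZero_of_injective_algebraMap (algebraMap K K⟮H33.jL K N⟯).injective
  -- the embeddings over `K(j)`
  letI iAΩ : Algebra K⟮H33.jL K N⟯ Ω :=
    (φ.comp (algebraMap K⟮H33.jL K N⟯ (FNL K N))).toAlgebra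
  have hcard := card_algHom_eq_finrank K⟮H33.jL K N⟯ (FNL K N) Ω
  have hpos : 0 < Module.finrank K⟮H33.jL K N⟯ (FNL K N) := Module.finrank_pos
  haveI : Finite (FNL K N →ₐ[K⟮H33.jL K N⟯] Ω) :=
    Nat.finite_of_card_ne_zero (by rw [hcard]; exact hpos.ne')
  haveI := Fintype.ofFinite (FNL K N →ₐ[K⟮H33.jL K N⟯] Ω)
  have hex : ∀ ψ : FNL K N →ₐ[K⟮H33.jL K N⟯] Ω,
      ∃ R : Place Ω (FNL Ω N), H18.ZeroAt N R t ∧ H18.IsEv N R (ψ : FNL K N →+* Ω) := by
    intro ψ
    refine exists_place_of_hom N hGb hP ht (ψ : FNL K N →+* Ω) (fun c => ?_) ?_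
    · have h1 := ψ.commutes (algebraMap K K⟮H33.jL K N⟯ c)
      exact h1.trans (hφc c)
    · have h1 := ψ.commutes ⟨H33.jL K N, mem_adjoin_simple_self K _⟩
      exact h1.trans hφj
  choose R hRz hRev using hex
  have hRinj : Function.Injective R := by
    intro ψ ψ' h
    refine AlgHom.ext fun e => ?_
    have h1 := hRev ψ e
    have h2 := hRev ψ' e
    rw [← h] at h2
    exact H18.HasVal.unique h1 h2
  let φA : FNL K N →ₐ[K⟮H33.jL K N⟯] Ω := { φ with commutes' := fun a => rfl }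
  obtain ⟨P', hP'z, hP'ev, hP'ne⟩ : ∃ P' : Place Ω (FNL Ω N),
      H18.ZeroAt N P' t ∧ H18.IsEv N P' φ ∧ P' ≠ R φA := by
    by_cases h : P = R φA
    · exact ⟨Q, hQ, hφQ, fun h' => hPQ (h.trans h'.symm)⟩
    · exact ⟨P, hP, hφP, h⟩
  have hP'notin : P' ∉ Finset.univ.image R := by
    intro hmem
    obtain ⟨ψ, -, hψ⟩ := Finset.mem_image.mp hmem
    have h1 : ψ = φA := by
      refine AlgHom.ext fun e => ?_
      have h2 := hRev ψ e
      rw [hψ] at h2
      exact H18.HasVal.unique h2 (hP'ev e)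
    exact hP'ne (by rw [← hψ, h1])
  have hS := card_zeros_le_finrank (H33.jL Ω N - algebraMap Ω (FNL Ω N) t)
    (insert P' (Finset.univ.image R)) (by
      intro v hv
      rcases Finset.mem_insert.mp hv with rfl | hv
      · exact hP'z
      · obtain ⟨ψ, -, rfl⟩ := Finset.mem_image.mp hv
        exact hRz ψ)
  rw [Finset.card_insert_of_notMem hP'notin, Finset.card_image_of_injective _ hRinj,
    Finset.card_univ, ← Nat.card_eq_fintype_card, hcard] at hS
  omega

end E4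

end Fermat.Agent.S17.W2.H75

end
end
-- ==== END Fermat.Agent.S17.W2.H75_GE4Main

-- ==== BEGIN Fermat.Agent.S41.H20_NewLift
section

/-!
# S41, NEWLIFT: the final assembly (short route)

`newlift_of : (Stmt_IHARA → Stmt_LLIFT) → Stmt_AL → Stmt_NEWLIFT`.

`M = N * q'`.  L-LIFT gives an integral parabolic class `y₁` killed by both trace maps with
`y₁ mod p = y`.  In the Betti lattice `Λ = Hom_par(Γ₀(M), ℤ)`, on which the Hecke algebra
`R = heckeAlgebra M 2 ∅` acts faithfully (`Betti.H76.heckeRho`), the class `c = y₁` is not divisible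
by `p`, is killed by `U_{q'}² - 1` (AL) and is an eigenvector modulo `p` of the `T_ℓ` with the
eigenvalues of `W` (BRIDGE-T).  `H37.char_exists` then gives a simultaneous eigenvector
`v ∈ S₂(Γ₀(M))` whose eigencharacter `χ` has `χ(U_{q'})² = 1` and `χ(T_ℓ) ≡ a_ℓ(W)`.
-/

set_option autoImplicit false

open scoped MatrixGroups
open WeierstrassCurve WeierstrassCurve.Affine WeierstrassCurve.Affine.Point
open CongruenceSubgroup ModularCurve.Period CuspForm ModularFormClass

namespace Fermat.Agent.S41.H20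

open Fermat.Agent.S41 Fermat.Agent.Betti Fermat.Agent.Betti.H76

section Lattice

variable {N : ℕ}

/-- A parabolic homomorphism to `ℤ` all of whose values are divisible by `p ≠ 0` is `p` times a
parabolic homomorphism. -/
theorem exists_eq_smul_of_forall_dvd {p : ℕ} (hp : p ≠ 0) (ψ : ParZ N)
    (h : ∀ γ : Additive (Gamma0 N), (p : ℤ) ∣ (ψ : Additive (Gamma0 N) →+ ℤ) γ) :
    ∃ d : ParZ N, ψ = (p : ℤ) • d := by
  have hp' : (p : ℤ) ≠ 0 := by exact_mod_cast hp
  let d₀ : Additive (Gamma0 N) →+ ℤ :=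
    { toFun := fun γ => (ψ : Additive (Gamma0 N) →+ ℤ) γ / (p : ℤ)
      map_zero' := by simp
      map_add' := fun γ δ => by
        show (ψ : Additive (Gamma0 N) →+ ℤ) (γ + δ) / (p : ℤ) = _
        rw [map_add, Int.add_ediv_of_dvd_left (h γ)] }
  have hd₀ : ∀ γ, (p : ℤ) * d₀ γ = (ψ : Additive (Gamma0 N) →+ ℤ) γ := fun γ =>
    Int.mul_ediv_cancel' (h γ)
  have hpar : d₀ ∈ ParZ N := by
    rw [mem_parabolicHoms_iff]
    intro γ hγ
    have h1 : (ψ : Additive (Gamma0 N) →+ ℤ) (Additive.ofMul γ) = 0 :=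
      (mem_parabolicHoms_iff.mp ψ.2) γ hγ
    have h2 := hd₀ (Additive.ofMul γ)
    rw [h1] at h2
    exact (mul_eq_zero.mp h2).resolve_left hp'
  refine ⟨⟨d₀, hpar⟩, ?_⟩
  apply Subtype.ext
  refine AddMonoidHom.ext fun γ => ?_
  show (ψ : Additive (Gamma0 N) →+ ℤ) γ = (p : ℤ) • d₀ γ
  rw [smul_eq_mul, hd₀]

theorem parZ_torsionFree (n : ℤ) (x : ParZ N) (hn : n ≠ 0) (h : n • x = 0) : x = 0 := by
  apply Subtype.ext
  refine AddMonoidHom.ext fun γ => ?_
  have h1 : (n • (x : Additive (Gamma0 N) →+ ℤ)) γ = 0 := by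
    have := congrArg (fun z : ParZ N => (z : Additive (Gamma0 N) →+ ℤ) γ) h
    simpa using this
  have h2 : n * (x : Additive (Gamma0 N) →+ ℤ) γ = 0 := by simpa using h1
  exact (mul_eq_zero.mp h2).resolve_left hn

theorem parZ_finite (N : ℕ) [NeZero N] : Module.Finite ℤ (ParZ N) := by
  obtain ⟨r, b, hb⟩ := stmt_basis N
  exact Module.Finite.of_basis (parBasis hb)

end Lattice

/-- Reduction mod `p` commutes with `TB`. -/
theorem castAddHom_comp_TB {N : ℕ} {ℓ : ℕ} (hℓ : ℓ.Prime) (hℓN : ¬ ℓ ∣ N) (p : ℕ)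
    (φ : Additive (Gamma0 N) →+ ℤ) :
    (Int.castAddHom (ZMod p)).comp (TB N ℤ hℓ hℓN φ)
      = TB N (ZMod p) hℓ hℓN ((Int.castAddHom (ZMod p)).comp φ) := by
  have : Fact ℓ.Prime := ⟨hℓ⟩
  exact ((isHeckeFamily_T N hℓN).heckeOp_comp (incl_injective N) (Int.castAddHom (ZMod p)) φ).symm

/-- The `q`-coefficients at primes of the normalisation of a simultaneous eigenvector. -/
theorem qCoeff_normalized_eigenvector {M : ℕ} [NeZero M] (χ : heckeAlgebra M 2 ∅ →+* ℂ)
    (v : CuspForm (Gamma0 M) 2)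
    (hv : ∀ T : heckeAlgebra M 2 ∅,
      (T : Module.End ℂ (CuspForm (Gamma0 M) 2)) v = χ T • v)
    (hb1 : qCoeff ⇑v 1 ≠ 0) {ℓ : ℕ} (hℓ : ℓ.Prime) :
    qCoeff ⇑((qCoeff ⇑v 1)⁻¹ • v) ℓ = Fermat.Agent.S49.eigenvalueAt χ ℓ := by
  have h := Fermat.Agent.S49.qCoeff_eigen_relation χ v hv hℓ 1
  have hnd : ¬ ℓ ∣ 1 := fun h => hℓ.one_lt.ne' (Nat.dvd_one.mp h)
  rw [if_neg hnd, mul_zero, add_zero, mul_one] at h
  rw [Fermat.Agent.S49.qCoeff_smul, h]
  field_simp

/-- **NEWLIFT** from L-LIFT and AL. -/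
theorem newlift_of (hL : Stmt_IHARA → Stmt_LLIFT) (hAL : Stmt_AL) : Stmt_NEWLIFT := by
  intro hIh E _ W hW p N q' hp hp2 hN hq' hq'N hq'p hirr y hy0 hycusp hyeig hc1 hc2
  obtain ⟨y₁, hy₁par, hy₁c1, hy₁c2, hy₁red⟩ :=
    hL hIh E W hW p N q' hp hp2 hN hq' hq'N hq'p hirr y hy0 hycusp hyeig hc1 hc2
  have hM : NeZero (N * q') := ⟨(Nat.mul_pos hN hq'.pos).ne'⟩
  have hMpos : 0 < N * q' := Nat.mul_pos hN hq'.pos
  have hq'M : q' ∣ N * q' := Dvd.intro_left N rfl
  have hfd : FiniteDimensional ℂ (CuspForm (Gamma0 (N * q')) 2) :=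
    Fermat.Agent.R.H99.finiteDimensional_cuspForm (N * q')
  have hfin : Module.Finite ℤ (ParZ (N * q')) := parZ_finite (N * q')
  -- the two faithful actions
  let φ : heckeAlgebra (N * q') 2 ∅ →+* Module.End ℂ (CuspForm (Gamma0 (N * q')) 2) :=
    (heckeAlgebra (N * q') 2 ∅).val.toRingHom
  have hφ : Function.Injective φ := Subtype.val_injective
  let ρ := heckeRho (N * q') ∅
  have hρ : Function.Injective ρ := heckeRho_injective (N * q') ∅
  -- the class
  let c : ParZ (N * q') := ⟨y₁, mem_parabolicHoms_iff.mpr hy₁par⟩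
  have hred : (Int.castAddHom (ZMod p)).comp y₁ = y :=
    AddMonoidHom.ext fun γ => hy₁red γ
  have hc : ∀ d : ParZ (N * q'), c ≠ (p : ℤ) • d := by
    intro d hcd
    apply hy0
    refine AddMonoidHom.ext fun γ => ?_
    rw [← hy₁red γ]
    have h1 : y₁ γ = (p : ℤ) * (d : Additive (Gamma0 (N * q')) →+ ℤ) γ := by
      have := congrArg (fun z : ParZ (N * q') => (z : Additive (Gamma0 (N * q')) →+ ℤ) γ) hcd
      simpa using this
    rw [h1]
    simp
  -- `U_{q'}`
  let u : heckeAlgebra (N * q') 2 ∅ := heckeAlgebra.U hq' hq'M (Set.notMem_empty q')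
  have hu : ρ (u ^ 2 - 1) c = 0 := by
    rw [map_sub, map_pow, map_one, LinearMap.sub_apply, Module.End.one_apply, pow_two,
      Module.End.mul_apply, sub_eq_zero]
    apply Subtype.ext
    rw [heckeRho_U (N * q') ∅ hq' hq'M (Set.notMem_empty q') (ρ u c),
      heckeRho_U (N * q') ∅ hq' hq'M (Set.notMem_empty q') c]
    exact hAL N q' hN hq' hq'N ℤ y₁ hy₁c1 hy₁c2
  -- the `T_ℓ`
  let ι : Type := {ℓ : ℕ // ℓ.Prime ∧ W.IsGoodPrimeFor ℓ ∧ ¬ ℓ ∣ N * q' ∧ ℓ ≠ p}
  let t : ι → heckeAlgebra (N * q') 2 ∅ := fun i =>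
    heckeAlgebra.T i.2.1 i.2.2.2.1 (Set.notMem_empty i.1)
  let a : ι → ℤ := fun i => W.apOfModel i.1
  have ht : ∀ i, ∃ d : ParZ (N * q'), ρ (t i) c - a i • c = (p : ℤ) • d := by
    intro i
    apply exists_eq_smul_of_forall_dvd hp.ne_zero
    intro γ
    have h1 : ((ρ (t i) c - a i • c : ParZ (N * q')) : Additive (Gamma0 (N * q')) →+ ℤ)
        = TB (N * q') ℤ i.2.1 i.2.2.2.1 y₁ - a i • y₁ := by
      show ((ρ (t i) c : ParZ (N * q')) : Additive (Gamma0 (N * q')) →+ ℤ) - a i • y₁ = _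
      rw [heckeRho_T (N * q') ∅ i.2.1 i.2.2.2.1 (Set.notMem_empty i.1) c]
    rw [h1, ← ZMod.intCast_zmod_eq_zero_iff_dvd]
    have h2 : (Int.castAddHom (ZMod p)).comp (TB (N * q') ℤ i.2.1 i.2.2.2.1 y₁)
        = ((W.apOfModel i.1 : ℤ) : ZMod p) • y := by
      rw [castAddHom_comp_TB, hred, ← Tcoh_eq_TB hMpos i.2.1 i.2.2.2.1]
      exact hyeig i.1 i.2.1 i.2.2.1 i.2.2.2.1 i.2.2.2.2
    have h3 := congrArg (fun z : Additive (Gamma0 (N * q')) →+ ZMod p => z γ) h2
    simp only [AddMonoidHom.comp_apply, Int.coe_castAddHom, AddMonoidHom.smul_apply] at h3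
    show (((TB (N * q') ℤ i.2.1 i.2.2.2.1 y₁ - a i • y₁) γ : ℤ) : ZMod p) = 0
    rw [AddMonoidHom.sub_apply, AddMonoidHom.smul_apply, Int.cast_sub, h3, smul_eq_mul]
    show ((W.apOfModel i.1 : ℤ) : ZMod p) * y γ - (((W.apOfModel i.1 * y₁ γ : ℤ)) : ZMod p) = 0
    rw [Int.cast_mul, hy₁red γ, sub_self]
  obtain ⟨χ, v, 𝔪, hv0, hv, hχu, hmax, hp𝔪, hcong⟩ :=
    Fermat.Agent.S41.H37.char_exists parZ_torsionFree φ hφ ρ hρ c hc u hu t a ht
  have hv' : ∀ T : heckeAlgebra (N * q') 2 ∅,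
      (T : Module.End ℂ (CuspForm (Gamma0 (N * q')) 2)) v = χ T • v := fun T => hv T
  obtain ⟨hb1, hg⟩ := Fermat.Agent.R.H99.isNormalizedEigenform_of_eigenvector χ v hv0 hv'
  refine ⟨(qCoeff ⇑v 1)⁻¹ • v, 𝔪, hg, hmax, hp𝔪, ?_, ?_⟩
  · intro ℓ hℓ hgood hℓM hℓp
    obtain ⟨α, hα, hα𝔪⟩ := hcong ⟨ℓ, hℓ, hgood, hℓM, hℓp⟩
    refine ⟨α, ?_, hα𝔪⟩
    rw [hα, qCoeff_normalized_eigenvector χ v hv' hb1 hℓ,
      Fermat.Agent.S49.eigenvalueAt_of_not_dvd χ hℓ hℓM]
  · show qCoeff ⇑((qCoeff ⇑v 1)⁻¹ • v) q' ^ 2 = 1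
    rw [qCoeff_normalized_eigenvector χ v hv' hb1 hq',
      Fermat.Agent.S49.eigenvalueAt_of_dvd χ hq' hq'M]
    exact hχu

end Fermat.Agent.S41.H20

end
-- ==== END Fermat.Agent.S41.H20_NewLift
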