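-- GENERATED (merged mirror, NOTES/tools/trim/merge3_helper67.py): 4 modules of the originals, bodies verbatim.
import Fermat.Agent.Zm.S44_L01_004
import Fermat.Agent.Zm.S44_L05_001
import Fermat.Agent.Zm.S44_L05_000
import Fermat.Agent.S05.H15_Val
import Fermat.Agent.Zm.S44_L02_004
import Fermat.Agent.Zm.S44_L04_000

-- ==== BEGIN Fermat.Agent.S43.Wiring2
section

set_option autoImplicit false

open WeierstrassCurve WeierstrassCurve.Affine WeierstrassCurve.Affine.Point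
open scoped WeierstrassCurve.Affine

namespace Fermat.Agent.S43

open Fermat.Agent.S44

/-- **BAD_q, abstract form (level lowering slice).**  See the header. -/
def _root_.Fermat.Agent.S44.HeckeGaloisModule.HasToricPartAt {p : ℕ} (H : HeckeGaloisModule p)
    (N q : ℕ) (A : ValuationSubring (AlgebraicClosure ℚ)) : Prop :=
  ∃ (T : Submodule (ZMod p) H.J) (U : Module.End (ZMod p) H.J),
    (∀ σ : GQ, U * H.gal σ = H.gal σ * U) ∧
    (∀ x ∈ T, U x ∈ T ∧ U (U x) = x) ∧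
    (∀ σ : GQ, A.IsFrobeniusAt σ q → ∀ x ∈ T, H.gal σ x = (q : ZMod p) • U x) ∧
    (∀ (S : Finset ℕ) (t : ℕ → ℤ) (x : H.J), x ∉ T →
      (∀ σ ∈ A.inertiaSubgroupIn ℚ, H.gal σ x = x) →
      (∀ ℓ : ℕ, ℓ.Prime → ℓ ∉ S → ¬ ℓ ∣ N → ℓ ≠ p → H.T ℓ x = ((t ℓ : ℤ) : ZMod p) • x) →
      (∃ ℓ : ℕ, ℓ.Prime ∧ ℓ ∉ S ∧ ¬ ℓ ∣ N ∧ ℓ ≠ p ∧ ((t ℓ : ℤ) : ZMod p) ≠ 1 + (ℓ : ZMod p)) →
      ∃ (g : CuspForm (CongruenceSubgroup.Gamma0 (N / q)) 2) (𝔪 : Ideal ZBar),
        g.IsNormalizedEigenform ∧ 𝔪.IsMaximal ∧ (p : ZBar) ∈ 𝔪 ∧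
        ∀ ℓ : ℕ, ℓ.Prime → ℓ ∉ S → ¬ ℓ ∣ N → ℓ ≠ p →
          ∃ a : ZBar, (a : ℂ) = ModularFormClass.qCoeff g ℓ ∧ a - ((t ℓ : ℤ) : ZBar) ∈ 𝔪)

/-- **Mazur's principle at `q`, module form.**  `V` irreducible, unramified at `A` (a place over
`q`), the Frobenius elements at `A` do not all act on `V` through one scalar; `V` embeds
Galois-equivariantly into `J` with Hecke eigenvalues `t ℓ`, not Eisenstein.  Then the system `t`
comes from an eigenform of level `N / q`. -/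
def _root_.Fermat.Agent.S44.HeckeGaloisModule.RemovesQ {p : ℕ} (H : HeckeGaloisModule p)
    (N q : ℕ) (A : ValuationSubring (AlgebraicClosure ℚ)) : Prop :=
  ∀ (V : Type) [AddCommGroup V] [Module (ZMod p) V] (ρ : GQ →* Module.End (ZMod p) V)
    (ι : V →ₗ[ZMod p] H.J) (S : Finset ℕ) (t : ℕ → ℤ),
    (∀ W : Submodule (ZMod p) V, (∀ σ : GQ, ∀ x ∈ W, ρ σ x ∈ W) → W = ⊥ ∨ W = ⊤) →
    (∀ σ ∈ A.inertiaSubgroupIn ℚ, ∀ v : V, ρ σ v = v) →
    (¬ ∃ c : ZMod p, ∀ σ : GQ, A.IsFrobeniusAt σ q → ∀ v : V, ρ σ v = c • v) →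
    Function.Injective ι →
    (∀ (σ : GQ) (v : V), ι (ρ σ v) = H.gal σ (ι v)) →
    (∀ ℓ : ℕ, ℓ.Prime → ℓ ∉ S → ¬ ℓ ∣ N → ℓ ≠ p →
      ∀ v : V, H.T ℓ (ι v) = ((t ℓ : ℤ) : ZMod p) • ι v) →
    (∃ ℓ : ℕ, ℓ.Prime ∧ ℓ ∉ S ∧ ¬ ℓ ∣ N ∧ ℓ ≠ p ∧ ((t ℓ : ℤ) : ZMod p) ≠ 1 + (ℓ : ZMod p)) →
    ∃ (g : CuspForm (CongruenceSubgroup.Gamma0 (N / q)) 2) (𝔪 : Ideal ZBar),
      g.IsNormalizedEigenform ∧ 𝔪.IsMaximal ∧ (p : ZBar) ∈ 𝔪 ∧
      ∀ ℓ : ℕ, ℓ.Prime → ℓ ∉ S → ¬ ℓ ∣ N → ℓ ≠ p →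
        ∃ a : ZBar, (a : ℂ) = ModularFormClass.qCoeff g ℓ ∧ a - ((t ℓ : ℤ) : ZBar) ∈ 𝔪

/-- An equivariant map out of an irreducible module is zero or injective. -/
theorem injective_of_irreducible {p : ℕ} {V J : Type} [AddCommGroup V] [Module (ZMod p) V]
    [AddCommGroup J] [Module (ZMod p) J]
    (ρ : GQ →* Module.End (ZMod p) V) (gal : GQ →* Module.End (ZMod p) J)
    (hirr : ∀ W : Submodule (ZMod p) V, (∀ σ : GQ, ∀ x ∈ W, ρ σ x ∈ W) → W = ⊥ ∨ W = ⊤)
    (κ : V →ₗ[ZMod p] J) (hκ : ∀ (σ : GQ) (v : V), κ (ρ σ v) = gal σ (κ v))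
    (hne : ∃ v, κ v ≠ 0) : Function.Injective κ := by
  rcases hirr (LinearMap.ker κ) (fun σ x hx => by
    rw [LinearMap.mem_ker] at hx ⊢
    rw [hκ, hx, _root_.map_zero]) with h | h
  · exact LinearMap.ker_eq_bot.mp h
  · exfalso
    obtain ⟨v, hv⟩ := hne
    apply hv
    have : v ∈ LinearMap.ker κ := by rw [h]; trivial
    exact LinearMap.mem_ker.mp this

/-- **Mazur's principle at `q`** from the abstract structure. -/
theorem removesQ_of_toric {p : ℕ} (hp : p.Prime) (hp2 : p ≠ 2) (H : HeckeGaloisModule p)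
    (N q : ℕ) (A : ValuationSubring (AlgebraicClosure ℚ))
    (hbad : H.HasToricPartAt N q A) : H.RemovesQ N q A := by
  have : Fact p.Prime := ⟨hp⟩
  intro V _ _ ρ ι S t hirr hunr hnexc hinj hequiv hT hNE
  obtain ⟨T, U, hUgal, hUT, hFrob, hlow⟩ := hbad
  by_cases hcase : ∃ v : V, ι v ∉ T
  · obtain ⟨v, hv⟩ := hcase
    refine hlow S t (ι v) hv (fun σ hσ => ?_) (fun ℓ hℓ hℓS hℓN hℓp => hT ℓ hℓ hℓS hℓN hℓp v) hNE
    rw [← hequiv, hunr σ hσ v]
  · exfalso
    push Not at hcase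
    have h2 : (2 : ZMod p) ≠ 0 := by
      intro h
      have h' : ((2 : ℕ) : ZMod p) = 0 := by exact_mod_cast h
      rw [ZMod.natCast_eq_zero_iff] at h'
      exact hp2 ((Nat.prime_dvd_prime_iff_eq hp Nat.prime_two).mp h')
    -- the two eigen-components of `ι` for `U`
    have key : ∀ ε : ZMod p, ε * ε = 1 → (∃ v, ι v + ε • U (ι v) ≠ 0) →
        ∀ σ : GQ, A.IsFrobeniusAt σ q → ∀ v : V, ρ σ v = ((q : ZMod p) * ε) • v := by
      intro ε hε hne σ hσ v
      set κ : V →ₗ[ZMod p] H.J := ι + ε • (U ∘ₗ ι) with hκ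
      have hκv : ∀ w, κ w = ι w + ε • U (ι w) := fun w => rfl
      have hκeq : ∀ (τ : GQ) (w : V), κ (ρ τ w) = H.gal τ (κ w) := by
        intro τ w
        rw [hκv, hκv, hequiv, map_add, map_smul]
        congr 2
        have := congrArg (fun f : Module.End (ZMod p) H.J => f (ι w)) (hUgal τ)
        simpa using this
      have hκinj : Function.Injective κ := injective_of_irreducible ρ H.gal hirr κ hκeq hne
      have hκT : ∀ w, κ w ∈ T := fun w => by
        rw [hκv]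
        exact T.add_mem (hcase w) (T.smul_mem _ (hUT _ (hcase w)).1)
      have hUκ : ∀ w, U (κ w) = ε • κ w := by
        intro w
        rw [hκv, map_add, map_smul, (hUT _ (hcase w)).2, smul_add, smul_smul, hε, one_smul, add_comm]
      apply hκinj
      rw [hκeq, hFrob σ hσ _ (hκT v), hUκ, smul_smul, map_smul]
    apply hnexc
    by_cases hplus : ∃ v, ι v + (1 : ZMod p) • U (ι v) ≠ 0
    · exact ⟨(q : ZMod p) * 1, key 1 (by ring) hplus⟩
    · push Not at hplus
      have hminus : ∃ v, ι v + (-1 : ZMod p) • U (ι v) ≠ 0 := by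
        by_contra hcon
        push Not at hcon
        -- then `2 ι = 0`, so `V = 0`, and `⊥ = ⊤`
        have hι0 : ∀ v, ι v = 0 := by
          intro v
          have h1 := hplus v
          have h3 := hcon v
          have h4 : (2 : ZMod p) • ι v = 0 := by
            have : (2 : ZMod p) • ι v = (ι v + (1 : ZMod p) • U (ι v)) + (ι v + (-1 : ZMod p) • U (ι v)) := by
              rw [two_smul]; module
            rw [this, h1, h3, add_zero]
          rcases smul_eq_zero.mp h4 with h | h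
          · exact absurd h h2
          · exact h
        have hV0 : ∀ v : V, v = 0 := fun v => hinj (by rw [hι0 v, _root_.map_zero])
        obtain ⟨ℓ, -, -, -, -, hℓ⟩ := hNE
        -- every scalar works on the zero module
        exact hnexc ⟨0, fun σ _ v => by rw [hV0 v]; simp⟩
      exact ⟨(q : ZMod p) * (-1), key (-1) (by ring) hminus⟩

/-- **Package BAD_q (level lowering slice).**  The structure of `J₀(N)[p]` at a place over a prime
`q ∥ N`, `q ≠ p`. -/
def Stmt_BadQ : Prop :=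
  ∀ (p : ℕ), p.Prime → p ≠ 2 → ∀ (N : ℕ) [NeZero N] (q : ℕ), q.Prime → q ≠ p →
    q ∣ N → ¬ q ^ 2 ∣ N →
    ∀ A : ValuationSubring (AlgebraicClosure ℚ), A.LiesOverPrime q →
      (jzModule N p).HasToricPartAt N q A

/-- The conclusion of the core of S43, relative to a model `W`. -/
def LowerConcl (p N q : ℕ) (W : WeierstrassCurve ℤ) : Prop :=
  ∃ (g : CuspForm (CongruenceSubgroup.Gamma0 (N / q)) 2) (𝔪 : Ideal (integralClosure ℤ ℂ))
    (S : Finset ℕ),
    g.IsNormalizedEigenform ∧ 𝔪.IsMaximal ∧ (p : integralClosure ℤ ℂ) ∈ 𝔪 ∧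
    ∀ ℓ : ℕ, ℓ.Prime → ℓ ∉ S → ¬ ℓ ∣ N → ℓ ≠ p → W.IsGoodPrimeFor ℓ →
      ∃ a : integralClosure ℤ ℂ, (a : ℂ) = ModularFormClass.qCoeff g ℓ ∧
        a - ((W.apOfModel ℓ : ℤ) : integralClosure ℤ ℂ) ∈ 𝔪

/-- **Package PIVOT (item 66): the exceptional case.**  If all Frobenius elements at a place over
`q` act on the `p`-torsion of the Frey curve through one scalar (this forces `q ≡ 1 mod p`), the
level can still be lowered at `q`. -/
def Stmt_Pivot : Prop :=
  ∀ (P : FreyPackage) (N q : ℕ), P.IsConductorLevel N → q.Prime → q ≠ 2 → q ≠ P.p → q ∣ N →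
    GaloisRepIsIrreducible (K := AlgebraicClosure ℚ) ℚ P.freyCurve P.p →
    P.GaloisRepUnramifiedAt q →
    ∀ (f : CuspForm (CongruenceSubgroup.Gamma0 N) 2) (W : WeierstrassCurve ℤ)
      (𝔪 : Ideal (integralClosure ℤ ℂ)),
    f.IsNormalizedEigenform → W.IsIntegralModelOf P.freyCurve → 𝔪.IsMaximal →
    (P.p : integralClosure ℤ ℂ) ∈ 𝔪 →
    (∀ ℓ : ℕ, ℓ.Prime → W.IsGoodPrimeFor ℓ → ¬ ℓ ∣ N → ℓ ≠ P.p →
      ∃ a : integralClosure ℤ ℂ, (a : ℂ) = ModularFormClass.qCoeff f ℓ ∧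
        a - ((W.apOfModel ℓ : ℤ) : integralClosure ℤ ℂ) ∈ 𝔪) →
    ∀ A : ValuationSubring (AlgebraicClosure ℚ), A.LiesOverPrime q →
    (∃ c : ZMod P.p, ∀ σ : GQ, A.IsFrobeniusAt σ q → ∀ v : Tors P.freyCurve P.p,
      galoisRepModuleEnd (S := ℚ) (K := AlgebraicClosure ℚ) P.freyCurve.toAffine P.p σ v
        = c • v) →
    LowerConcl P.p N q W

/-- **The core of S43 from the packages.** -/
theorem lowerConcl_of (h1 : Stmt_TateModP) (h2 : Stmt_BadQ) (h3 : Stmt_Pivot)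
    (P : FreyPackage) {N q : ℕ} (hcond : P.IsConductorLevel N) (hq : q.Prime) (hq2 : q ≠ 2)
    (hqp : q ≠ P.p) (hqN : q ∣ N)
    (hirr : GaloisRepIsIrreducible (K := AlgebraicClosure ℚ) ℚ P.freyCurve P.p)
    (hunr : P.GaloisRepUnramifiedAt q)
    (f : CuspForm (CongruenceSubgroup.Gamma0 N) 2) (W : WeierstrassCurve ℤ)
    (𝔪 : Ideal (integralClosure ℤ ℂ)) (hf : f.IsNormalizedEigenform)
    (hW : W.IsIntegralModelOf P.freyCurve)
    (h𝔪 : 𝔪.IsMaximal) (hp𝔪 : (P.p : integralClosure ℤ ℂ) ∈ 𝔪)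
    (hcong : ∀ ℓ : ℕ, ℓ.Prime → W.IsGoodPrimeFor ℓ → ¬ ℓ ∣ N → ℓ ≠ P.p →
      ∃ a : integralClosure ℤ ℂ, (a : ℂ) = ModularFormClass.qCoeff f ℓ ∧
        a - ((W.apOfModel ℓ : ℤ) : integralClosure ℤ ℂ) ∈ 𝔪) :
    LowerConcl P.p N q W := by
  have hp : P.p.Prime := P.pp
  have hp2 : P.p ≠ 2 := by have := P.hp5; omega
  have hΔ : W.Δ ≠ 0 := integralModel_Δ_ne_zero P hW
  have : NeZero N := ⟨hcond.pos.ne'⟩
  obtain ⟨A, hAq⟩ := stmt_PlaceOver q hq
  by_cases hexc : ∃ c : ZMod P.p, ∀ σ : GQ, A.IsFrobeniusAt σ q → ∀ v : Tors P.freyCurve P.p,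
      galoisRepModuleEnd (S := ℚ) (K := AlgebraicClosure ℚ) P.freyCurve.toAffine P.p σ v = c • v
  · exact h3 P N q hcond hq hq2 hqp hqN hirr hunr f W 𝔪 hf hW h𝔪 hp𝔪 hcong A hAq hexc
  · obtain ⟨hcont, hES, hsupp⟩ := h1 P.p hp hp2 N
    set S : Finset ℕ := W.Δ.natAbs.primeFactors with hS
    have hgood : ∀ ℓ : ℕ, ℓ.Prime → ℓ ∉ S → W.IsGoodPrimeFor ℓ := fun ℓ hℓ h =>
      prime_not_mem_of_good hℓ hΔ h
    obtain ⟨x, hx0, hx⟩ := hsupp f 𝔪 S (fun ℓ => W.apOfModel ℓ) hf h𝔪 hp𝔪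
      (fun ℓ hℓ hℓS hℓN hℓp => hcong ℓ hℓ (hgood ℓ hℓ hℓS) hℓN hℓp)
    obtain ⟨ι, hinj, hequiv, hT⟩ := Fermat.Agent.L.H52.recovery P.p hp hp2 N hcond.pos
      (jzModule N P.p) hcont hES P.freyCurve W hW hirr S hgood x hx0 hx
    have hNE : ∃ ℓ : ℕ, ℓ.Prime ∧ ℓ ∉ S ∧ ¬ ℓ ∣ N ∧ ℓ ≠ P.p ∧
        ((W.apOfModel ℓ : ℤ) : ZMod P.p) ≠ 1 + (ℓ : ZMod P.p) := by
      obtain ⟨ℓ, hℓ, hℓW, hℓN, hℓp, hne⟩ := stmt_NonEis P W hW N hcond.pos hirr
      refine ⟨ℓ, hℓ, ?_, hℓN, hℓp, hne⟩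
      intro hmem
      rw [hS, Nat.mem_primeFactors] at hmem
      exact hℓW (Int.natCast_dvd.mpr hmem.2.1)
    have hq2N : ¬ q ^ 2 ∣ N := hcond.sq_not_dvd hq
    have hrem := removesQ_of_toric hp hp2 (jzModule N P.p) N q A
      (h2 P.p hp hp2 N q hq hqp hqN hq2N A hAq)
    obtain ⟨g, 𝔪', hg, h𝔪', hp𝔪', hgc⟩ := hrem (Tors P.freyCurve P.p)
      (galoisRepModuleEnd (S := ℚ) (K := AlgebraicClosure ℚ) P.freyCurve.toAffine P.p)
      ι S (fun ℓ => W.apOfModel ℓ)
      (fun W' hW' => hirr.2 W' (fun σ x hx => hW' σ x hx))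
      (fun σ hσ v => hunr A hAq σ hσ v)
      hexc hinj (fun σ v => hequiv σ v) hT hNE
    exact ⟨g, 𝔪', S, hg, h𝔪', hp𝔪', fun ℓ hℓ hℓS hℓN hℓp _ => hgc ℓ hℓ hℓS hℓN hℓp⟩

/-- The frozen type of S43 from `LowerConcl` for the model of the given witness. -/
theorem result_of_lowerConcl (P : FreyPackage) {N q : ℕ}
    (hcond : P.IsConductorLevel N) (hq : q.Prime) (hqN : q ∣ N)
    (W : WeierstrassCurve ℤ) (hW : W.IsIntegralModelOf P.freyCurve)
    (h : LowerConcl P.p N q W) :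
    ∃ M : ℕ, M ∣ N ∧ ¬ q ∣ M ∧ P.ModularRepOfLevel M := by
  obtain ⟨g, 𝔪, S, hg, hmax, hp, hcong⟩ := h
  have hNq : N / q * q = N := Nat.div_mul_cancel hqN
  have hqM : ¬ q ∣ N / q := by
    intro hd
    have : q * q ∣ N := by
      obtain ⟨k, hk⟩ := hd
      exact ⟨k, by rw [← hNq, hk]; ring⟩
    exact hcond.sq_not_dvd hq (by rwa [pow_two])
  refine ⟨N / q, Nat.div_dvd_of_dvd hqN, hqM, ?_⟩
  set m : ℤ := (q : ℤ) * ∏ s ∈ S, ((if s = 0 then 1 else s : ℕ) : ℤ) with hm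
  have hm0 : m ≠ 0 := by
    rw [hm]
    refine mul_ne_zero (by exact_mod_cast hq.ne_zero) ?_
    refine Finset.prod_ne_zero_iff.2 (fun s _ => ?_)
    split_ifs with h
    · norm_num
    · exact_mod_cast h
  have hqm : (q : ℤ) ∣ m := Dvd.intro _ rfl
  have hSm : ∀ s ∈ S, s ≠ 0 → ((s : ℕ) : ℤ) ∣ m := by
    intro s hs hs0
    rw [hm]
    refine Dvd.dvd.mul_left ?_ _
    have := Finset.dvd_prod_of_mem (fun s => ((if s = 0 then 1 else s : ℕ) : ℤ)) hs
    simpa [hs0] using this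
  refine ⟨g, scaleModel W m, 𝔪, hg, scaleModel_isIntegralModelOf hW hm0, hmax, hp, ?_⟩
  intro ℓ hℓ hgood hℓM hℓp
  obtain ⟨hℓm, hgood'⟩ := scaleModel_isGoodPrimeFor hℓ hgood
  have hℓq : ℓ ≠ q := by
    rintro rfl
    exact hℓm hqm
  have hℓS : ℓ ∉ S := by
    intro hs
    exact hℓm (hSm ℓ hs hℓ.ne_zero)
  have hℓN : ¬ ℓ ∣ N := by
    intro hd
    rw [← hNq] at hd
    rcases (Nat.Prime.dvd_mul hℓ).1 hd with h | h
    · exact hℓM h
    · exact hℓq ((Nat.prime_dvd_prime_iff_eq hℓ hq).1 h)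
  obtain ⟨a, ha, hac⟩ := hcong ℓ hℓ hℓS hℓN hℓp hgood'
  refine ⟨a, ha, ?_⟩
  rw [scaleModel_apOfModel W hℓ hℓm]
  exact hac

/-- **S43 from the three open leaves**: the Tate package mod `p` of `J₀(N)` (shared with S44),
the structure of `J₀(N)[p]` at `q ∥ N` (BAD_q), and the exceptional case (PIVOT).  The conclusion
is the frozen statement S43. -/
theorem result_of_leaves (h1 : Stmt_TateModP) (h2 : Stmt_BadQ) (h3 : Stmt_Pivot)
    (P : FreyPackage) {N q : ℕ}
    (hcond : P.IsConductorLevel N) (hq : q.Prime) (hq2 : q ≠ 2) (hqp : q ≠ P.p) (hqN : q ∣ N)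
    (hirr : GaloisRepIsIrreducible (K := AlgebraicClosure ℚ) ℚ P.freyCurve P.p)
    (hmod : P.ModularRepOfLevel N) (hunr : P.GaloisRepUnramifiedAt q) :
    ∃ M : ℕ, M ∣ N ∧ ¬ q ∣ M ∧ P.ModularRepOfLevel M := by
  obtain ⟨f, W, 𝔪, hf, hW, h𝔪, hp𝔪, hcong⟩ := hmod
  exact result_of_lowerConcl P hcond hq hqN W hW
    (lowerConcl_of h1 h2 h3 P hcond hq hq2 hqp hqN hirr hunr f W 𝔪 hf hW h𝔪 hp𝔪 hcong)

end Fermat.Agent.S43

end
-- ==== END Fermat.Agent.S43.Wiring2

-- ==== BEGIN Fermat.Agent.S44.C.H33_Core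
section

set_option autoImplicit false

namespace Fermat.Agent.S44.C.H33

open WeierstrassCurve WeierstrassCurve.Affine
open Fermat.Agent.S05 (ModelHyp InE0 InE1 valUnit bUnit)

section core

variable {L : Type} [Field L] [DecidableEq L] [IsAlgClosed L] [CharZero L] [Algebra ℚ L]

/-- In every component of order dividing `p` there is a point of the twist subgroup `T`. -/
theorem exists_InT_same_component
    (A : ValuationSubring L) (W' : Affine ℚ) (hyp : ModelHyp A (W'⁄L))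
    (hb : A.valuation (algebraMap ℚ L W'.a₄) < 1)
    (p : ℕ) (hodd : Odd p)
    (c : ℚ) (hc : A.valuation (algebraMap ℚ L c) ^ p = A.valuation (algebraMap ℚ L W'.a₄) ^ 2)
    (β : L) (hβ : β ^ 2 = (W'⁄L).a₂) (F : Subfield L) (hQF : ∀ r : ℚ, algebraMap ℚ L r ∈ F)
    (hsqrt : ∀ d η : L, d ∈ F → A.valuation (d - 1) < 1 → η ^ 2 = d →
      A.valuation (η - 1) < 1 → η ∈ F)
    (φ : (W'⁄L).Point →+ Additive (Fermat.Agent.S05.CompGroup hyp))
    (hφ : ∀ (x y : L) (h : (W'⁄L).Nonsingular x y) (hx0 : x ≠ 0),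
      A.valuation (W'⁄L).a₄ < A.valuation x → A.valuation x < 1 →
      A.valuation (y - β * x) < A.valuation x →
      φ (.some x y h) = Additive.ofMul (QuotientGroup.mk (valUnit A x hx0)))
    (P : (W'⁄L).Point) (hP : p • P = 0) :
    ∃ R₀ : (W'⁄L).Point, InT F β R₀ ∧ φ R₀ = φ P := by
  have hp0 : p ≠ 0 := by
    rintro rfl
    exact absurd hodd (by decide)
  have hb' : A.valuation (W'⁄L).a₄ < 1 := hb
  have haF : (W'⁄L).a₂ ∈ F := hQF W'.a₂
  have hbF : (W'⁄L).a₄ ∈ F := hQF W'.a₄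
  have hb0 : algebraMap ℚ L W'.a₄ ≠ 0 := hyp.b_ne
  have hvb0 : A.valuation (algebraMap ℚ L W'.a₄) ≠ 0 := by simpa using hb0
  have hc0 : algebraMap ℚ L c ≠ 0 := by
    intro h
    rw [h, _root_.map_zero, zero_pow hp0] at hc
    exact pow_ne_zero 2 hvb0 hc.symm
  have hvc0 : A.valuation (algebraMap ℚ L c) ≠ 0 := by simpa using hc0
  have hvc1 : A.valuation (algebraMap ℚ L c) < 1 := by
    by_contra h
    push Not at h
    have h1 : 1 ≤ A.valuation (algebraMap ℚ L c) ^ p := one_le_pow₀ h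
    rw [hc] at h1
    have h2 : A.valuation (algebraMap ℚ L W'.a₄) ^ 2 < 1 := pow_lt_one₀ zero_le hb two_ne_zero
    exact absurd h1 (not_le.2 h2)
  have hβ0 : β ≠ 0 := by
    intro h
    have hva := hyp.val_a_eq_one hb'
    rw [← hβ, h] at hva
    simp at hva
  set cU : (A.ValueGroup)ˣ := valUnit A (algebraMap ℚ L c) hc0 with hcU
  have hcUp : cU ^ p = bUnit hyp ^ 2 := by
    apply Units.ext
    simp only [hcU, valUnit, bUnit, Units.val_pow_eq_pow_val, Units.val_mk0]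
    exact hc
  -- small case: `0 < r`, `2 r < p`
  have small : ∀ r : ℕ, 0 < r → 2 * r < p → ∃ P₀ : (W'⁄L).Point, InT F β P₀ ∧
      φ P₀ = Additive.ofMul (QuotientGroup.mk (cU ^ r)) := by
    intro r hr0 hr
    have hx1 : A.valuation ((algebraMap ℚ L c) ^ r) < 1 := by
      rw [map_pow]
      exact pow_lt_one₀ zero_le hvc1 hr0.ne'
    have hxb : A.valuation (W'⁄L).a₄ < A.valuation ((algebraMap ℚ L c) ^ r) := by
      by_contra h
      push Not at h
      have h2 : A.valuation ((algebraMap ℚ L c) ^ r) ^ 2 ≤ A.valuation (W'⁄L).a₄ ^ 2 :=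
        pow_le_pow_left₀ zero_le h 2
      have h3 : A.valuation (algebraMap ℚ L c) ^ p < A.valuation (algebraMap ℚ L c) ^ (2 * r) :=
        pow_lt_pow_right_of_lt_one₀ (zero_lt_iff.2 hvc0) hvc1 hr
      rw [map_pow, ← pow_mul, mul_comm r 2] at h2
      exact absurd (h3.trans_le h2) (by rw [hc]; exact lt_irrefl _)
    have hxF : (algebraMap ℚ L c) ^ r ∈ F := F.pow_mem (hQF c) r
    obtain ⟨y₀, hns, hbr, hT⟩ := exists_branch_point_InT hyp hb' β hβ F haF hbF hsqrt
      _ hxF hx1 hxb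
    refine ⟨Point.some _ _ hns, hT, ?_⟩
    rw [hφ _ _ hns (pow_ne_zero _ hc0) hxb hx1 hbr]
    congr 2
    apply Units.ext
    simp [hcU, valUnit, map_pow]
  -- all residues `r < p`
  have allr : ∀ r : ℕ, r < p → ∃ P₀ : (W'⁄L).Point, InT F β P₀ ∧
      φ P₀ = Additive.ofMul (QuotientGroup.mk (cU ^ r)) := by
    intro r hr
    rcases Nat.eq_zero_or_pos r with rfl | hr0
    · exact ⟨0, InT_zero F β, by simp⟩
    rcases lt_or_gt_of_ne (show 2 * r ≠ p from fun h => by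
        obtain ⟨k, hk⟩ := hodd; omega) with h2 | h2
    · exact small r hr0 h2
    · obtain ⟨P₀, hfix, hcomp⟩ := small (p - r) (by omega) (by omega)
      refine ⟨-P₀, InT_neg hyp.a₁ hyp.a₃ hfix, ?_⟩
      rw [map_neg, hcomp, ← ofMul_inv, ← QuotientGroup.mk_inv]
      congr 1
      rw [QuotientGroup.eq]
      rw [inv_inv, ← pow_add, Nat.sub_add_cancel hr.le, hcUp]
      exact Subgroup.mem_zpowers _
  -- the component of `P`
  obtain ⟨g, hg⟩ := QuotientGroup.mk_surjective (Additive.toMul (φ P))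
  have hgp : g ^ p ∈ Subgroup.zpowers (bUnit hyp ^ 2) := by
    rw [← QuotientGroup.eq_one_iff, QuotientGroup.mk_pow, hg, ← toMul_nsmul, ← map_nsmul, hP,
      _root_.map_zero, toMul_zero]
  obtain ⟨k, hk⟩ := Subgroup.mem_zpowers_iff.1 hgp
  have hgk : g = cU ^ k := by
    have : g ^ p = (cU ^ k) ^ p := by
      rw [← hk, ← hcUp, ← zpow_natCast (cU ^ k) p, ← zpow_natCast cU p, ← zpow_mul, ← zpow_mul,
        mul_comm]
    exact pow_left_injective hp0 this
  have hpZ : (p : ℤ) ≠ 0 := by exact_mod_cast hp0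
  obtain ⟨P₀, hfix, hcomp⟩ := allr (k % (p : ℤ)).toNat (by
    have := Int.emod_lt_of_pos k (show (0 : ℤ) < p by omega)
    have := Int.emod_nonneg k hpZ
    omega)
  refine ⟨P₀, hfix, ?_⟩
  rw [hcomp]
  apply Additive.toMul.injective
  rw [toMul_ofMul, ← hg, hgk, QuotientGroup.eq]
  have hkr : cU ^ k = (bUnit hyp ^ 2) ^ (k / (p : ℤ)) * cU ^ (k % (p : ℤ)).toNat := by
    rw [← hcUp, ← zpow_natCast cU p, ← zpow_mul, ← zpow_natCast cU (k % (p : ℤ)).toNat,
      Int.toNat_of_nonneg (Int.emod_nonneg k hpZ), ← zpow_add, Int.mul_ediv_add_emod]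
  rw [hkr, mul_comm, mul_inv_cancel_right]
  exact Subgroup.zpow_mem _ (Subgroup.mem_zpowers _) _

/-- **Core theorem on the model** (peu ramifié with `u = 1 + p`). -/
theorem core_peu (hV1 : Stmt_V1) (hV3 : Stmt_V3) (hF1 : _root_.Fermat.Agent.S44.C.Stmt_F1) (hF2 : _root_.Fermat.Agent.S44.C.Stmt_F2)
    (hF3 : Stmt_F3) (hF4 : Stmt_F4) (hM : Stmt_M) (hL4 : Stmt_L4)
    (halg : Algebra.IsAlgebraic ℚ L)
    (A : ValuationSubring L) (W' : Affine ℚ) (hyp : ModelHyp A (W'⁄L))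
    (p : ℕ) (hp : p.Prime) (hp2 : p ≠ 2) (hpA : A.valuation (p : L) < 1)
    (hb2 : A.valuation (algebraMap ℚ L W'.a₄) ≤ A.valuation (p : L) ^ 2)
    (c : ℚ) (hc : A.valuation (algebraMap ℚ L c) ^ p = A.valuation (algebraMap ℚ L W'.a₄) ^ 2)
    (σ : L ≃ₐ[ℚ] L) (hσv : ∀ x, A.valuation (σ x) = A.valuation x)
    (hσr : ∀ x, A.valuation x ≤ 1 → A.valuation (σ x - x) < 1)
    (hσζ : ∀ ζ : L, ζ ^ p = 1 → σ ζ = ζ)
    (hσω : ∀ z : L, z ^ p = 1 + (p : L) → σ z = z)
    (P : (W'⁄L).Point) (hP : p • P = 0) : σ • P = P := by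
  -- basic facts on `p`
  have hp0 : (p : L) ≠ 0 := Nat.cast_ne_zero.2 hp.ne_zero
  have hvp0 : A.valuation (p : L) ≠ 0 := by simpa using hp0
  have hvp_pos : 0 < A.valuation (p : L) := zero_lt_iff.2 hvp0
  have hvp2 : A.valuation (p : L) ^ 2 < A.valuation (p : L) := by
    rw [pow_two]
    calc A.valuation (p : L) * A.valuation (p : L) < A.valuation (p : L) * 1 :=
          mul_lt_mul_of_pos_left hpA hvp_pos
      _ = A.valuation (p : L) := mul_one _
  have hpnu : (p : L) ∈ A.nonunits := (ValuationSubring.mem_nonunits_iff A).2 hpA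
  have hodd : Odd p := hp.odd_of_ne_two hp2
  have hb : A.valuation (W'⁄L).a₄ < 1 := lt_of_le_of_lt hb2 (lt_trans hvp2 hpA)
  have hbp : A.valuation (W'⁄L).a₄ < A.valuation (p : L) := lt_of_le_of_lt hb2 hvp2
  have hb2' : A.valuation (W'⁄L).a₄ ≤ A.valuation (p : L) ^ 2 := hb2
  -- `β`
  obtain ⟨β, hβ⟩ := IsAlgClosed.exists_pow_nat_eq ((W'⁄L).a₂) (n := 2) (by norm_num)
  have hva := hyp.val_a_eq_one hb
  have hvβ : A.valuation β = 1 := by
    have : A.valuation β ^ 2 = 1 := by rw [← map_pow, hβ, hva]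
    exact (pow_eq_one_iff_left two_ne_zero).mp this
  have hβ0 : β ≠ 0 := by
    intro h
    rw [h, map_zero] at hvβ
    exact zero_ne_one hvβ
  have hσβ : σ β = β := by
    have hsq : (σ β) ^ 2 = β ^ 2 := by
      rw [← map_pow, hβ]
      exact σ.commutes _
    rcases eq_or_eq_neg_of_sq_eq_sq _ _ hsq with h | h
    · exact h
    · exfalso
      have := hσr β hvβ.le
      rw [h] at this
      have e : -β - β = -(2 * β) := by ring
      rw [e, Valuation.map_neg, map_mul, hyp.two, one_mul, hvβ] at this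
      exact lt_irrefl _ this
  -- the field `F`
  obtain ⟨F, hF⟩ := hF1 L halg A p hp hpA
  have hQF : ∀ r : ℚ, algebraMap ℚ L r ∈ F := fun r =>
    (hF _).2 (fun k => ⟨r, by rw [sub_self, map_zero]; exact zero_le⟩)
  have hσF : ∀ z ∈ F, σ z = z := fun z hz => hF2 L halg A p hp hpA σ hσv z ((hF z).1 hz)
  have hsqrt : ∀ d η : L, d ∈ F → A.valuation (d - 1) < 1 → η ^ 2 = d →
      A.valuation (η - 1) < 1 → η ∈ F := fun d η hd h1 h2 h3 =>
    (hF η).2 (hF3 L A p hp hp2 hpA d η ((hF d).1 hd) h1 h2 h3)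
  have haF : (W'⁄L).a₂ ∈ F := hQF W'.a₂
  have hbF : (W'⁄L).a₄ ∈ F := hQF W'.a₄
  -- the approximate character and the component map
  obtain ⟨hMunit, hMneg, hME1, hMadd⟩ := hM L A (W'⁄L) hyp hb β hβ
  obtain ⟨φ, hker, hφ⟩ := Fermat.Agent.S05.M1 A (W'⁄L) hyp hb β hβ
  -- the point `R₀` of `T` in the component of `P`
  obtain ⟨R₀, hR₀T, hR₀φ⟩ := exists_InT_same_component A W' hyp hb p hodd c hc β hβ F hQF hsqrt
    φ hφ P hP
  have hσR₀ : σ • R₀ = R₀ := smul_eq_of_InT W' σ hσF hσβ hR₀T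
  -- `Q = P - R₀ ∈ E₀`
  obtain ⟨Q, hQdef⟩ : ∃ Q, Q = P - R₀ := ⟨_, rfl⟩
  have hPQ : P = Q + R₀ := by rw [hQdef]; abel
  have hQ0 : InE0 A Q := by rw [← hker, hQdef, map_sub, hR₀φ, sub_self]
  have hkQ0 : ∀ k : ℕ, InE0 A (k • Q) := fun k => by
    rw [← hker, map_nsmul, (hker Q).2 hQ0, nsmul_zero]
  have hpQ : p • Q = -(p • R₀) := by rw [hQdef, smul_sub, hP, zero_sub]
  have hpQT : InT F β (p • Q) := by
    rw [hpQ]
    exact InT_neg hyp.a₁ hyp.a₃ (InT_nsmul hyp.a₁ hyp.a₃ hβ hβ0 haF hbF hR₀T p)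
  have hσpQ : σ • (p • Q) = p • Q := smul_eq_of_InT W' σ hσF hσβ hpQT
  -- `g = lam Q`, `w = lam (p Q)`
  obtain ⟨g, hgdef⟩ : ∃ g, g = lam β Q := ⟨_, rfl⟩
  have hg1 : A.valuation g = 1 := by rw [hgdef]; exact hMunit Q hQ0
  have hg0 : g ≠ 0 := by
    intro h
    rw [h, map_zero] at hg1
    exact zero_ne_one hg1
  obtain ⟨w, hwdef⟩ : ∃ w, w = lam β (p • Q) := ⟨_, rfl⟩
  have hwF : w ∈ F := by rw [hwdef]; exact lam_mem_of_InT hβ0 hpQT
  have hw1 : A.valuation w = 1 := by rw [hwdef]; exact hMunit _ (hkQ0 p)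
  have hgsub : A.valuation (g - 1) ≤ 1 :=
    (A.valuation.map_sub _ _).trans (max_le hg1.le (by rw [map_one]))
  have hnsmul : ∀ k : ℕ, A.valuation (lam β (k • Q) - g ^ k) ≤ A.valuation (W'⁄L).a₄ := by
    intro k
    induction k with
    | zero => rw [zero_smul, lam_zero, pow_zero, sub_self, map_zero]; exact zero_le
    | succ k ih =>
      rw [succ_nsmul, pow_succ]
      have h1 := hMadd (k • Q) Q (hkQ0 k) hQ0
      rw [← hgdef] at h1
      have h3 : A.valuation (lam β (k • Q + Q) - lam β (k • Q) * g) ≤ A.valuation (W'⁄L).a₄ :=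
        h1.trans (mul_le_of_le_one_right' hgsub)
      have e : lam β (k • Q + Q) - g ^ k * g =
          (lam β (k • Q + Q) - lam β (k • Q) * g) + (lam β (k • Q) - g ^ k) * g := by ring
      rw [e]
      refine (A.valuation.map_add _ _).trans (max_le h3 ?_)
      rw [map_mul, hg1, mul_one]
      exact ih
  have hgw : A.valuation (w - g ^ p) ≤ A.valuation (p : L) ^ 2 := by
    rw [hwdef]
    exact (hnsmul p).trans hb2'
  -- `w ≡ t ^ p (1 + p) ^ n` mod `p²`
  obtain ⟨t, htp, htw⟩ := hF4 L A p hp hpA w ((hF w).1 hwF) hw1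
  obtain ⟨n, hn⟩ := hV3 p hp t htp
  have ht1 : A.valuation (t : L) = 1 :=
    Fermat.Agent.S05.H15.valuation_intCast_eq_one_of_not_dvd hp hpnu htp
  have htn : A.valuation ((t : L) - (t : L) ^ p * (1 + (p : L)) ^ n) ≤
      A.valuation (p : L) ^ 2 := by
    obtain ⟨k, hk⟩ := hn
    have e : (t : L) - (t : L) ^ p * (1 + (p : L)) ^ n = (p : L) ^ 2 * (k : L) := by
      have := congrArg (Int.cast : ℤ → L) hk
      push_cast at this
      exact this
    rw [e, map_mul, map_pow]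
    exact mul_le_of_le_one_right' (Fermat.Agent.S05.H15.valuation_intCast_le_one A k)
  obtain ⟨ω, hω⟩ := IsAlgClosed.exists_pow_nat_eq (1 + (p : L)) (n := p) hp.pos
  have hσω' : σ ω = ω := hσω ω hω
  have hv1p : A.valuation (1 + (p : L)) = 1 := by
    rw [Valuation.map_add_eq_of_lt_left _ (by rw [map_one]; exact hpA), map_one]
  have hvω : A.valuation ω = 1 := by
    have : A.valuation ω ^ p = 1 := by rw [← map_pow, hω, hv1p]
    exact (pow_eq_one_iff_left hp.ne_zero).mp this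
  obtain ⟨g₀, hg₀def⟩ : ∃ g₀, g₀ = (t : L) * ω ^ n := ⟨_, rfl⟩
  have hg₀p : g₀ ^ p = (t : L) ^ p * (1 + (p : L)) ^ n := by
    rw [hg₀def, mul_pow, ← pow_mul, mul_comm n p, pow_mul, hω]
  have hvg₀ : A.valuation g₀ = 1 := by
    rw [hg₀def, map_mul, map_pow, ht1, hvω, one_pow, one_mul]
  have hg₀0 : g₀ ≠ 0 := by
    intro h
    rw [h, map_zero] at hvg₀
    exact zero_ne_one hvg₀
  have hσg₀ : σ g₀ = g₀ := by
    rw [hg₀def, map_mul, map_pow, hσω', map_intCast]
  have h1 : A.valuation (g ^ p - g₀ ^ p) ≤ A.valuation (p : L) ^ 2 := by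
    have e : g ^ p - g₀ ^ p = -(w - g ^ p) + ((w - (t : L)) +
        ((t : L) - (t : L) ^ p * (1 + (p : L)) ^ n)) := by rw [hg₀p]; ring
    rw [e]
    refine (A.valuation.map_add _ _).trans (max_le ?_ ?_)
    · rw [Valuation.map_neg]; exact hgw
    · exact (A.valuation.map_add _ _).trans (max_le htw htn)
  obtain ⟨g₂, hg₂def⟩ : ∃ g₂, g₂ = g / g₀ := ⟨_, rfl⟩
  have hgg : g = g₂ * g₀ := by rw [hg₂def, div_mul_cancel₀ _ hg₀0]
  have hg₂ : A.valuation (g₂ ^ p - 1) ≤ A.valuation (p : L) ^ 2 := by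
    have e : g₂ ^ p - 1 = (g ^ p - g₀ ^ p) / g₀ ^ p := by
      rw [hg₂def, div_pow, sub_div, div_self (pow_ne_zero _ hg₀0)]
    rw [e, map_div₀, map_pow, hvg₀, one_pow, div_one]
    exact h1
  obtain ⟨ζ, hζ, hζg⟩ := hV1 L A.ValueGroup A.valuation p hp g₂
  have h2 : A.valuation (g₂ - ζ) ≤ A.valuation (p : L) := by
    have h := hζg.trans hg₂
    rw [pow_two] at h
    exact le_of_mul_le_mul_right h hvp_pos
  have hσζ' : σ ζ = ζ := hσζ ζ hζ
  have h3 : A.valuation (σ g₂ - g₂) ≤ A.valuation (p : L) := by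
    have e : σ g₂ - g₂ = σ (g₂ - ζ) - (g₂ - ζ) := by rw [map_sub, hσζ']; ring
    rw [e]
    exact (A.valuation.map_sub _ _).trans (max_le (by rw [hσv]; exact h2) h2)
  have h4 : A.valuation (σ g - g) ≤ A.valuation (p : L) := by
    have e : σ g - g = (σ g₂ - g₂) * g₀ := by
      rw [hgg, map_mul, hσg₀]; ring
    rw [e, map_mul, hvg₀, mul_one]
    exact h3
  -- `S = σ Q - Q ∈ E₁[p]`
  have hI := Fermat.Agent.S05.inertiaLike_smul A W' σ hσv hσr
  have hS1' : InE1 A (σ • Q - Q) := Fermat.Agent.S05.H5.F2 A (W'⁄L) hyp _ _ hI Q hQ0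
  obtain ⟨S, hSdef⟩ : ∃ S, S = σ • Q - Q := ⟨_, rfl⟩
  have hS1 : InE1 A S := by rw [hSdef]; exact hS1'
  have hS0 : InE0 A S := Fermat.Agent.S05.H55.inE0_of_inE1 A S hS1
  have hpS : p • S = 0 := by
    have e : p • (σ • Q) = σ • (p • Q) :=
      (map_nsmul (DistribSMul.toAddMonoidHom (W'⁄L).Point σ) p Q).symm
    rw [hSdef, smul_sub, e, hσpQ, sub_self]
  have hσQ : σ • Q = Q + S := by rw [hSdef]; abel
  have hlamσ : lam β (σ • Q) = σ g := by rw [hgdef]; exact lam_smul W' σ hσβ Q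
  have h5 := hMadd Q S hQ0 hS0
  rw [← hσQ, hlamσ, ← hgdef] at h5
  have hδ1 : A.valuation (lam β S - 1) < 1 := hME1 S hS1
  have h6 : A.valuation (σ g - g * lam β S) ≤ A.valuation (p : L) :=
    h5.trans ((mul_le_of_le_one_right' hδ1.le).trans hbp.le)
  have h7 : A.valuation (lam β S - 1) ≤ A.valuation (p : L) := by
    have e : g * (lam β S - 1) = -(σ g - g * lam β S) + (σ g - g) := by ring
    have h := (A.valuation.map_add (-(σ g - g * lam β S)) (σ g - g)).trans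
      (max_le (by rw [Valuation.map_neg]; exact h6) h4)
    rw [← e, map_mul, hg1, one_mul] at h
    exact h
  have h8 : A.valuation (lam β S - 1) ^ (p - 1) < A.valuation (p : L) := by
    have hp3 : 2 ≤ p - 1 := by
      have := hp.two_le
      have : p ≠ 2 := hp2
      omega
    calc A.valuation (lam β S - 1) ^ (p - 1) ≤ A.valuation (p : L) ^ (p - 1) :=
          pow_le_pow_left₀ zero_le h7 _
      _ ≤ A.valuation (p : L) ^ 2 := pow_le_pow_of_le_one zero_le hpA.le hp3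
      _ < A.valuation (p : L) := hvp2
  have hS : S = 0 := hL4 L A (W'⁄L) hyp β hβ p hp hpA hbp S hS1 hpS h8
  have hσQ' : σ • Q = Q := by rw [hσQ, hS, add_zero]
  calc σ • P = σ • (Q + R₀) := by rw [hPQ]
    _ = σ • Q + σ • R₀ := smul_add σ Q R₀
    _ = Q + R₀ := by rw [hσQ', hσR₀]
    _ = P := hPQ.symm

end core

end Fermat.Agent.S44.C.H33

end
-- ==== END Fermat.Agent.S44.C.H33_Core

-- ==== BEGIN Fermat.Agent.S44.Final2
section

set_option autoImplicit false

open WeierstrassCurve WeierstrassCurve.Affine WeierstrassCurve.Affine.Point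
open scoped WeierstrassCurve.Affine

namespace Fermat.Agent.S44

open Fermat.Agent.GTor Fermat.Agent.GTor.H81 in
/-- **S44 from the open packages.**  The conclusion is the frozen statement S44. -/
theorem result_of_open
    (hD : ∀ (N : ℕ) [NeZero N] (p : ℕ), p.Prime → Stmt_DESC N p)
    (hHK : ∀ (N : ℕ) [NeZero N] (p : ℕ), p.Prime → Stmt_HK N p)
    (hRed : ∀ (N : ℕ) [NeZero N] (p : ℕ), p.Prime → AllRed N p)
    (h2 : Stmt_BadP) (hC : Stmt_FreyFiniteAtP)
    (P : FreyPackage) {N : ℕ} (hcond : P.IsConductorLevel N) (hpN : P.p ∣ N)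
    (hirr : GaloisRepIsIrreducible (K := AlgebraicClosure ℚ) ℚ P.freyCurve P.p)
    (hmod : P.ModularRepOfLevel N) :
    ∃ M : ℕ, M ∣ N ∧ ¬ P.p ∣ M ∧ P.ModularRepOfLevel M :=
  result_of_leaves (stmt_TateModP_of hD hHK hRed) h2 hC P hcond hpN hirr hmod

end Fermat.Agent.S44

end
-- ==== END Fermat.Agent.S44.Final2

-- ==== BEGIN Fermat.Agent.S52.H5_UnipCoreOdd
section

set_option autoImplicit false

namespace Fermat.Agent.S52.H5

open WeierstrassCurve WeierstrassCurve.Affine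
open Fermat.Agent.S05

section defs

variable {L : Type*} [Field L] [DecidableEq L]

/-- An additive self-map of the points which is "inertia up to a shift of size `≤ |a₄|`". -/
structure ShiftedInertia (A : ValuationSubring L) (W : Affine L) (σ : L →+* L)
    (s : W.Point →+ W.Point) : Prop where
  val_eq : ∀ x, A.valuation (σ x) = A.valuation x
  res : ∀ x, A.valuation x ≤ 1 → A.valuation (σ x - x) < 1
  map_some : ∀ (x y : L) (h : W.Nonsingular x y), ∃ (x' y' : L) (h' : W.Nonsingular x' y'),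
    s (.some x y h) = .some x' y' h' ∧ A.valuation (x' - σ x) ≤ A.valuation W.a₄ ∧
      A.valuation (y' - σ y) ≤ A.valuation W.a₄

end defs

section val

variable {L : Type*} [Field L] {A : ValuationSubring L}

/-- If `|x' - σ x| ≤ r < |x|` then `|x'| = |x|`. -/
lemma val_shift_eq {σ : L →+* L} (hσv : ∀ x, A.valuation (σ x) = A.valuation x) {x x' : L}
    {r : A.ValueGroup} (h : A.valuation (x' - σ x) ≤ r) (hr : r < A.valuation x) :
    A.valuation x' = A.valuation x := by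
  have e : x' = σ x + (x' - σ x) := by ring
  rw [e, Valuation.map_add_eq_of_lt_left _ (by rw [hσv]; exact lt_of_le_of_lt h hr), hσv]

/-- If `|x' - σ x| ≤ r` and `|x| ≤ r` then `|x'| ≤ r`. -/
lemma val_shift_le {σ : L →+* L} (hσv : ∀ x, A.valuation (σ x) = A.valuation x) {x x' : L}
    {r : A.ValueGroup} (h : A.valuation (x' - σ x) ≤ r) (hr : A.valuation x ≤ r) :
    A.valuation x' ≤ r := by
  have e : x' = σ x + (x' - σ x) := by ring
  rw [e]
  exact Valuation.map_add_le _ (by rw [hσv]; exact hr) h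

/-- The branch condition `|y - γ x| < |x|` is stable under a shifted inertia map. -/
lemma branch_shift {σ : L →+* L} (hσv : ∀ x, A.valuation (σ x) = A.valuation x)
    (hσr : ∀ x, A.valuation x ≤ 1 → A.valuation (σ x - x) < 1) {x y x' y' γ : L}
    {r : A.ValueGroup} (hx : A.valuation (x' - σ x) ≤ r) (hy : A.valuation (y' - σ y) ≤ r)
    (hr : r < A.valuation x) (hγ : A.valuation γ ≤ 1)
    (hbr : A.valuation (y - γ * x) < A.valuation x) :
    A.valuation (y' - γ * x') < A.valuation x' := by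
  rw [val_shift_eq hσv hx hr]
  have hxpos : 0 < A.valuation x := lt_of_le_of_lt zero_le hr
  have e : y' - γ * x' = σ (y - γ * x) + (σ γ - γ) * σ x + (y' - σ y) - γ * (x' - σ x) := by
    rw [map_sub, map_mul]; ring
  rw [e]
  refine Valuation.map_sub_lt _ (Valuation.map_add_lt _ (Valuation.map_add_lt _ ?_ ?_) ?_) ?_
  · rw [hσv]; exact hbr
  · rw [map_mul, hσv]
    calc A.valuation (σ γ - γ) * A.valuation x < 1 * A.valuation x :=
          mul_lt_mul_of_pos_right (hσr γ hγ) hxpos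
      _ = A.valuation x := one_mul _
  · exact lt_of_le_of_lt hy hr
  · rw [map_mul]
    calc A.valuation γ * A.valuation (x' - σ x) ≤ 1 * A.valuation (x' - σ x) := by gcongr
      _ = A.valuation (x' - σ x) := one_mul _
      _ ≤ r := hx
      _ < A.valuation x := hr

end val

section sameRed

variable {L : Type*} [Field L] [DecidableEq L]

/-- Two affine points of the model with unit `x`-coordinate and the same reduction differ by an
element of `E₁`. -/
theorem sameRed_odd (A : ValuationSubring L) (W : Affine L) (hyp : ModelHyp A W)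
    (x y x' y' : L) (h : W.Nonsingular x y) (h' : W.Nonsingular x' y')
    (hx : A.valuation x = 1) (hxx : A.valuation (x' - x) < 1) (hyy : A.valuation (y' - y) < 1) :
    InE1 A (Point.some x' y' h' - Point.some x y h) := by
  rw [sub_eq_add_neg, Point.neg_some]
  have hx' : A.valuation x' = 1 := by
    have e : x' = x + (x' - x) := by ring
    rw [e, Valuation.map_add_eq_of_lt_left _ (by rw [hx]; exact hxx), hx]
  have heq := H87.model_equation hyp h
  have heq' := H87.model_equation hyp h'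
  have hy1 : A.valuation y ≤ 1 := H87.val_y_le_one hyp.a_le hyp.b_le hx heq
  by_cases hX : x' = x
  · by_cases hY : y' = W.negY x (W.negY x y)
    · rw [Point.add_of_Y_eq hX hY]
      trivial
    · rw [Point.add_of_Y_ne hY]
      show 1 < A.valuation (W.addX x' x (W.slope x' x y' (W.negY x y)))
      rw [Affine.slope_of_Y_ne hX hY, Affine.addX, hyp.a₁, H87.model_negY hyp]
      rw [H87.model_negY hyp, H87.model_negY hyp, neg_neg] at hY
      have hsq : y' ^ 2 = y ^ 2 := by rw [heq, heq', hX]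
      have hσy : y' = -y := by
        have : (y' - y) * (y' + y) = 0 := by linear_combination hsq
        rcases mul_eq_zero.mp this with h0 | h0
        · exact absurd (sub_eq_zero.mp h0) hY
        · exact eq_neg_of_add_eq_zero_left h0
      have hy0 : y ≠ 0 := by
        rintro rfl
        apply hY
        rw [hσy, neg_zero]
      have hylt : A.valuation y < 1 := by
        have : y' - y = -(2 * y) := by rw [hσy]; ring
        rw [this, Valuation.map_neg, map_mul, hyp.two, one_mul] at hyy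
        exact hyy
      have key := H87.tangent_case (v := A.valuation) hyp.a_le hyp.two hyp.disc hx hylt hy0 heq
      rw [hX, hσy]
      convert key using 2
      ring
  · rw [Point.add_of_X_ne hX]
    show 1 < A.valuation (W.addX x' x (W.slope x' x y' (W.negY x y)))
    rw [Affine.slope_of_X_ne hX, Affine.addX, hyp.a₁, H87.model_negY hyp]
    have key := H87.secant_case (v := A.valuation) hyp.a_le hyp.b_le hyp.two hyp.disc hx hx'
      hxx hyy heq heq' hX
    convert key using 2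
    ring

end sameRed

section core

variable {L : Type*} [Field L] [DecidableEq L]

/-- The component map is invariant under a shifted inertia map. -/
theorem compMap_shift (A : ValuationSubring L) (W : Affine L) (hyp : ModelHyp A W)
    (hb : A.valuation W.a₄ < 1) (β : L) (hβ : β ^ 2 = W.a₂)
    (σ : L →+* L) (s : W.Point →+ W.Point) (hs : ShiftedInertia A W σ s) (P : W.Point) :
    M1.compMap hyp β (s P) = M1.compMap hyp β P := by
  rcases P with _ | ⟨x, y, h⟩
  · show M1.compMap hyp β (s 0) = M1.compMap hyp β 0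
    rw [map_zero]
  obtain ⟨x', y', h', hsP, hxs, hys⟩ := hs.map_some x y h
  rw [hsP]
  have hβ1 : A.valuation β = 1 := M1.val_β hyp hb hβ
  by_cases hx1 : 1 ≤ A.valuation x
  · have hx1' : 1 ≤ A.valuation x' := by
      rw [val_shift_eq hs.val_eq hxs (lt_of_lt_of_le hb hx1)]; exact hx1
    rw [M1.compMap_of_one_le hyp β h hx1, M1.compMap_of_one_le hyp β h' hx1']
  push Not at hx1
  by_cases hxb : A.valuation x ≤ A.valuation W.a₄
  · rw [M1.compMap_of_le_b hyp β hb h hxb,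
      M1.compMap_of_le_b hyp β hb h' (val_shift_le hs.val_eq hxs hxb)]
  push Not at hxb
  have hvx' : A.valuation x' = A.valuation x := val_shift_eq hs.val_eq hxs hxb
  have hx0 : x ≠ 0 := by
    rintro rfl
    rw [map_zero] at hxb
    exact not_lt_zero hxb
  have hx0' : x' ≠ 0 := by
    intro h0
    rw [h0, map_zero] at hvx'
    rw [← hvx'] at hxb
    exact not_lt_zero hxb
  have hvu : valUnit A x' hx0' = valUnit A x hx0 := by
    apply Units.ext
    simp [valUnit, hvx']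
  have hxb' : A.valuation W.a₄ < A.valuation x' := by rw [hvx']; exact hxb
  have hx1' : A.valuation x' < 1 := by rw [hvx']; exact hx1
  by_cases ht : A.valuation (y - β * x) < A.valuation x
  · have ht' : A.valuation (y' - β * x') < A.valuation x' :=
      branch_shift hs.val_eq hs.res hxs hys hxb hβ1.le ht
    rw [M1.compMap_of_Cp hyp β h hx0 hxb hx1 ht, M1.compMap_of_Cp hyp β h' hx0' hxb' hx1' ht', hvu]
  · have hm : A.valuation (y + β * x) < A.valuation x := by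
      rcases M1.mid_or hyp hb hβ h hxb hx1 with h1 | h1
      · exact absurd h1 ht
      · exact h1
    have hm' : A.valuation (y' + β * x') < A.valuation x' := by
      have hm2 : A.valuation (y - (-β) * x) < A.valuation x := by
        have : y - (-β) * x = y + β * x := by ring
        rw [this]; exact hm
      have := branch_shift hs.val_eq hs.res hxs hys hxb
        (by rw [Valuation.map_neg]; exact hβ1.le) hm2
      have e : y' - (-β) * x' = y' + β * x' := by ring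
      rwa [e] at this
    have ht' : ¬ A.valuation (y' - β * x') < A.valuation x' :=
      fun hcon => M1.mid_not_both hyp hb hβ hx0' hcon hm'
    rw [M1.compMap_of_not_Cp hyp β h hx0 hxb hx1 ht,
      M1.compMap_of_not_Cp hyp β h' hx0' hxb' hx1' ht', hvu]

/-- A shifted inertia map moves every point inside its `E₀`-coset. -/
theorem inE0_shift_sub (A : ValuationSubring L) (W : Affine L) (hyp : ModelHyp A W)
    (hb : A.valuation W.a₄ < 1) (β : L) (hβ : β ^ 2 = W.a₂)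
    (σ : L →+* L) (s : W.Point →+ W.Point) (hs : ShiftedInertia A W σ s) (P : W.Point) :
    InE0 A (s P - P) := by
  let φ : W.Point →+ Additive (CompGroup hyp) :=
    AddMonoidHom.mk' (M1.compMap hyp β) (M1.compMap_add hyp H6.M1_E0E0 H6.M1_E0Cp hb hβ)
  have hφ : ∀ Q, φ Q = M1.compMap hyp β Q := fun _ => rfl
  have h0 : φ (s P - P) = 0 := by
    rw [map_sub, hφ, hφ, compMap_shift A W hyp hb β hβ σ s hs P, sub_self]
  rw [hφ] at h0
  exact (M1.compMap_eq_zero_iff hyp hb (s P - P)).1 h0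

/-- A shifted inertia map moves every point of `E₀` inside its `E₁`-coset. -/
theorem inE1_shift_sub (A : ValuationSubring L) (W : Affine L) (hyp : ModelHyp A W)
    (hb : A.valuation W.a₄ < 1)
    (σ : L →+* L) (s : W.Point →+ W.Point) (hs : ShiftedInertia A W σ s) (Q : W.Point)
    (hQ : InE0 A Q) : InE1 A (s Q - Q) := by
  rcases Q with _ | ⟨x, y, h⟩
  · show InE1 A (s 0 - 0)
    rw [map_zero, sub_zero]; trivial
  obtain ⟨x', y', h', hsP, hxs, hys⟩ := hs.map_some x y h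
  rw [hsP]
  have hx1 : 1 ≤ A.valuation x := hQ
  have hvx' : A.valuation x' = A.valuation x := val_shift_eq hs.val_eq hxs (lt_of_lt_of_le hb hx1)
  rcases hx1.lt_or_eq with hgt | heq1
  · rw [sub_eq_add_neg, Point.neg_some]
    apply Fermat.Agent.S05.H5.E1_add A W hyp
    · show 1 < A.valuation x'
      rw [hvx']; exact hgt
    · exact hgt
  · have hx : A.valuation x = 1 := heq1.symm
    have hy1 : A.valuation y ≤ 1 :=
      H87.val_y_le_one hyp.a_le hyp.b_le hx (H87.model_equation hyp h)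
    refine sameRed_odd A W hyp x y x' y' h h' hx ?_ ?_
    · have e : x' - x = (x' - σ x) + (σ x - x) := by ring
      rw [e]
      exact Valuation.map_add_lt _ (lt_of_le_of_lt hxs hb) (hs.res x hx.le)
    · have e : y' - y = (y' - σ y) + (σ y - y) := by ring
      rw [e]
      exact Valuation.map_add_lt _ (lt_of_le_of_lt hys hb) (hs.res y hy1)

/-- **Unipotent core, odd model.**  On the model `y² = x³ + a x² + b x`, `|b| < 1`, a shifted
inertia map `s` satisfies `(s - 1)² = 0` on the `n`-torsion, `n` a unit of `A`. -/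
theorem core_odd (A : ValuationSubring L) (W : Affine L) (hyp : ModelHyp A W)
    (hb : A.valuation W.a₄ < 1) (β : L) (hβ : β ^ 2 = W.a₂)
    (n : ℕ) (hn : A.valuation (n : L) = 1)
    (σ : L →+* L) (s : W.Point →+ W.Point) (hs : ShiftedInertia A W σ s)
    (P : W.Point) (hP : n • P = 0) : s (s P - P) = s P - P := by
  have hD0 : InE0 A (s P - P) := inE0_shift_sub A W hyp hb β hβ σ s hs P
  have hD1 : InE1 A (s (s P - P) - (s P - P)) := inE1_shift_sub A W hyp hb σ s hs _ hD0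
  by_contra hne
  have hne' : s (s P - P) - (s P - P) ≠ 0 := fun h => hne (sub_eq_zero.1 h)
  apply Fermat.Agent.S05.H5.F1 A W hyp _ hD1 hne' n hn
  have h1 : n • (s P - P) = 0 := by
    rw [smul_sub, ← map_nsmul, hP, map_zero, sub_zero]
  rw [smul_sub, ← map_nsmul, h1, map_zero, sub_zero]

end core

end Fermat.Agent.S52.H5

end
-- ==== END Fermat.Agent.S52.H5_UnipCoreOdd
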