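-- GENERATED (merged mirror, NOTES/tools/trim/merge3_helper67.py): 8 modules of the originals, bodies verbatim.
import Fermat.Agent.Zm.S44_L02_000
import Fermat.Agent.Zm.S44_L06_000
import Fermat.Agent.Zm.S33_L05_000
import Fermat.Agent.Zm.S33_L02_000
import Fermat.Agent.Zm.S33_L08_000
import Fermat.Agent.Zm.S33_L03_001
import Fermat.Agent.Zm.S44_L02_001
import Fermat.Agent.Zm.S44_L01_004
import Fermat.Agent.RED.HR.H51_FinrankAlong
import Fermat.Agent.Zm.S44_L06_001
import Fermat.Agent.Zm.S35_L07_000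
import Fermat.Agent.Zm.S35_L11_000
import Fermat.Agent.Zm.S35_L18_000
import Fermat.Agent.Zm.S35_L16_000
import Fermat.Agent.Zm.S44_L04_001
import Fermat.Agent.Zm.S44_L03_001
import Fermat.Agent.Lib.PointVariableChange

-- ==== BEGIN Fermat.Agent.BADP.H97_EisNorm
section

/-!
# S44 (row 38), package EIS-ABS (helper97), part 1: normalisation

* `IsLC P t y a` : `a` is the leading coefficient of `y` at the place `P` with respect to the
  uniformiser `t`; `IsLC.smul` (equivariance for automorphisms fixing `P` and `t`).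
* `exists_fixed_pow_root` : if `R = e h ^ p` is fixed by a set `𝓘` of automorphisms which fix a
  place `P` and a uniformiser at `P`, then `R = e' H ^ p` with `H` and `e'` fixed by `𝓘`.
* `exists_fixed_unif` : an `𝓘`-fixed place over a good point with an `𝓘`-fixed uniformiser.
* `exists_fixed_const` : every constant of the residue field is the reduction of an `𝓘`-fixed
  constant.

Plan: `NOTES/plan/L_S44.md` §12.2 (d2).
-/

set_option autoImplicit false
set_option linter.style.haveILetI false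
set_option linter.unusedSectionVars false

noncomputable section

open AlgebraicCurve

attribute [local instance] Classical.propDecidable

namespace Fermat.Agent.BADP.H97

open Fermat.Agent.RED.H17 Fermat.Agent.RED Fermat.Agent.BAD

section LC

variable {K F : Type*} [Field K] [Field F] [Algebra K F]

/-- `a` is the leading coefficient of `y` at `P` with respect to `t`. -/
def IsLC (P : Place K F) (t y : F) (a : K) : Prop :=
  VanAt P (y / t ^ (P.ord y) - algebraMap K F a)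

theorem ne_zero_of_ord_eq_one {P : Place K F} {t : F} (ht : P.ord t = 1) : t ≠ 0 := by
  rintro rfl
  rw [Place.ord_zero] at ht
  exact zero_ne_one ht

theorem ord_div_zpow {P : Place K F} {t : F} (ht : P.ord t = 1) {y : F} (hy : y ≠ 0) :
    P.ord (y / t ^ (P.ord y)) = 0 := by
  have ht0 := ne_zero_of_ord_eq_one ht
  rw [Fermat.Agent.RED.H17.ord_div P hy (zpow_ne_zero _ ht0), Place.ord_zpow, ht, mul_one,
    sub_self]

theorem exists_isLC {P : Place K F} (hdeg : P.deg = 1) {t : F} (ht : P.ord t = 1) {y : F}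
    (hy : y ≠ 0) : ∃ a : K, a ≠ 0 ∧ IsLC P t y a := by
  have ht0 := ne_zero_of_ord_eq_one ht
  have h0 := ord_div_zpow ht hy
  obtain ⟨a, ha⟩ := exists_value P hdeg (regAt_of_ord_nonneg (le_of_eq h0.symm))
  refine ⟨a, ?_, ha⟩
  rintro rfl
  rw [map_zero, sub_zero] at ha
  have hne : y / t ^ (P.ord y) ≠ 0 := div_ne_zero hy (zpow_ne_zero _ ht0)
  have := ha.ord_pos hne
  omega

theorem IsLC.unique {P : Place K F} {t y : F} {a b : K} (ha : IsLC P t y a)
    (hb : IsLC P t y b) : a = b :=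
  value_unique P ha hb

theorem ord_smul_of_fixed {τ : SemilinearAut K F} {P : Place K F} (hP : τ • P = P) (y : F) :
    P.ord (τ • y) = P.ord y := by
  have := SemilinearAut.ord_smul τ P y
  rwa [hP] at this

theorem smul_div_zpow (τ : SemilinearAut K F) (y t : F) (n : ℤ) :
    τ • (y / t ^ n) = (τ • y) / (τ • t) ^ n := by
  simp only [SemilinearAut.smul_def, map_div₀, map_zpow₀]

theorem IsLC.smul {τ : SemilinearAut K F} {P : Place K F} {t y : F} {a : K}
    (hP : τ • P = P) (ht : τ • t = t) (h : IsLC P t y a) :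
    IsLC P t (τ • y) (SemilinearAut.baseAut τ a) := by
  unfold IsLC at h ⊢
  have h1 := H28.vanAt_smul_of τ h
  rw [hP, smul_sub, smul_div_zpow, ht, SemilinearAut.smul_algebraMap] at h1
  rwa [ord_smul_of_fixed hP]

theorem IsLC.const_mul {P : Place K F} {t y : F} {a : K} (h : IsLC P t y a) {c : K}
    (hc : c ≠ 0) : IsLC P t (algebraMap K F c * y) (c * a) := by
  unfold IsLC at h ⊢
  rw [ord_algebraMap_mul P hc]
  have e : algebraMap K F c * y / t ^ (P.ord y) - algebraMap K F (c * a) =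
      algebraMap K F c * (y / t ^ (P.ord y) - algebraMap K F a) := by
    rw [map_mul]
    ring
  rw [e]
  exact (regAt_algebraMap P c).mul_vanAt h

end LC

section Root

variable {K F : Type*} [Field K] [Field F] [Algebra K F]

/-- **NORMALISE.**  If `R = e h ^ p` is fixed by `𝓘`, and `𝓘` fixes a place `P` and a
uniformiser `t` at `P`, then `R = e' H ^ p` with `H` and `e'` fixed by `𝓘`. -/
theorem exists_fixed_pow_root (H : FFHyp K F) {𝓘 : Set (SemilinearAut K F)} {P : Place K F}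
    {t : F} (hPfix : ∀ τ ∈ 𝓘, τ • P = P) (htfix : ∀ τ ∈ 𝓘, τ • t = t) (ht : P.ord t = 1)
    {p : ℕ} (hp : p ≠ 0) {R h : F} {e : K} (hR0 : R ≠ 0)
    (hR : R = algebraMap K F e * h ^ p) (hRfix : ∀ τ ∈ 𝓘, τ • R = R) :
    ∃ (H' : F) (e' : K), H' ≠ 0 ∧ e' ≠ 0 ∧ (∀ τ ∈ 𝓘, τ • H' = H') ∧
      (∀ τ ∈ 𝓘, SemilinearAut.baseAut τ e' = e') ∧ R = algebraMap K F e' * H' ^ p := by
  have he0 : e ≠ 0 := by
    rintro rfl
    rw [map_zero, zero_mul] at hR
    exact hR0 hR
  have hh0 : h ≠ 0 := by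
    rintro rfl
    rw [zero_pow hp, mul_zero] at hR
    exact hR0 hR
  obtain ⟨β, hβ0, hβ⟩ := exists_isLC (H.deg_one P) ht hh0
  have hβF : algebraMap K F β ≠ 0 := (map_ne_zero_iff _ (algebraMap K F).injective).mpr hβ0
  set H' : F := algebraMap K F β⁻¹ * h with hH'
  have hH'0 : H' ≠ 0 := mul_ne_zero
    ((map_ne_zero_iff _ (algebraMap K F).injective).mpr (inv_ne_zero hβ0)) hh0
  have hlc : IsLC P t H' 1 := by
    have := hβ.const_mul (inv_ne_zero hβ0)
    rwa [inv_mul_cancel₀ hβ0] at this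
  set e' : K := e * β ^ p with he'
  have he'0 : e' ≠ 0 := mul_ne_zero he0 (pow_ne_zero _ hβ0)
  have hRe : R = algebraMap K F e' * H' ^ p := by
    rw [hR, he', hH', map_mul, map_pow, mul_pow, map_inv₀, inv_pow, mul_assoc,
      mul_inv_cancel_left₀ (pow_ne_zero p hβF)]
  have hfix : ∀ τ ∈ 𝓘, τ • H' = H' := by
    intro τ hτ
    have hτH0 : τ • H' ≠ 0 := by
      rw [SemilinearAut.smul_def]
      exact (map_ne_zero_iff _ (SemilinearAut.toRingAut τ).injective).mpr hH'0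
    have hτe0 : SemilinearAut.baseAut τ e' ≠ 0 :=
      (map_ne_zero_iff _ (SemilinearAut.baseAut τ).injective).mpr he'0
    -- `(τ H' / H') ^ p` is a constant
    have h1 : algebraMap K F (SemilinearAut.baseAut τ e') * (τ • H') ^ p =
        algebraMap K F e' * H' ^ p := by
      have := hRfix τ hτ
      rw [hRe, smul_mul', smul_pow', SemilinearAut.smul_algebraMap] at this
      exact this
    have h2 : ((τ • H') / H') ^ p = algebraMap K F (e' / SemilinearAut.baseAut τ e') := by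
      rw [div_pow, map_div₀]
      have hτeF : algebraMap K F (SemilinearAut.baseAut τ e') ≠ 0 :=
        (map_ne_zero_iff _ (algebraMap K F).injective).mpr hτe0
      field_simp
      linear_combination h1
    have hξ0 : (τ • H') / H' ≠ 0 := div_ne_zero hτH0 hH'0
    have hreg : ∀ v : Place K F, 0 ≤ v.ord ((τ • H') / H') := by
      intro v
      have h3 := congrArg v.ord h2
      rw [Fermat.Agent.RED.H17.ord_pow, ord_algebraMap] at h3
      have hpZ : (p : ℤ) ≠ 0 := by exact_mod_cast hp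
      rcases mul_eq_zero.mp h3 with h4 | h4
      · exact absurd h4 hpZ
      · exact le_of_eq h4.symm
    obtain ⟨c, hc⟩ := H.const_of_regular hreg
    have hc0 : c ≠ 0 := by
      rintro rfl
      rw [map_zero] at hc
      exact hξ0 hc
    have h4 : τ • H' = algebraMap K F c * H' := by
      rw [← hc]
      field_simp
    have h5 : IsLC P t (τ • H') (SemilinearAut.baseAut τ 1) := hlc.smul (hPfix τ hτ) (htfix τ hτ)
    rw [map_one, h4] at h5
    have h6 : IsLC P t (algebraMap K F c * H') (c * 1) := hlc.const_mul hc0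
    have h7 : (1 : K) = c * 1 := h5.unique h6
    rw [mul_one] at h7
    rw [h4, ← h7, map_one, one_mul]
  refine ⟨H', e', hH'0, he'0, hfix, fun τ hτ => ?_, hRe⟩
  have h1 := hRfix τ hτ
  rw [hRe, smul_mul', smul_pow', hfix τ hτ, SemilinearAut.smul_algebraMap] at h1
  have h2 : algebraMap K F (SemilinearAut.baseAut τ e') = algebraMap K F e' :=
    mul_right_cancel₀ (pow_ne_zero p hH'0) h1
  exact (algebraMap K F).injective h2

end Root

/-! ### Valuation and reduction (general `PRed`) -/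

section PV

variable {K F k F' : Type*} [Field K] [Field F] [Algebra K F] [Field k] [Field F']
  [Algebra k F'] {T : PRed K F k F'}

theorem pv_mem_iff (g : F) : g ∈ T.V ↔ T.V.valuation g ≤ 1 :=
  (T.V.valuation_le_one_iff g).symm

theorem pv_rd_eq_zero {g : F} (h : T.V.valuation g < 1) : T.rd g = 0 :=
  (inM_iff_val_lt.2 h).2

theorem pv_lt_of_rd {g : F} (hg : g ∈ T.V) (h : T.rd g = 0) : T.V.valuation g < 1 :=
  inM_iff_val_lt.1 ⟨hg, h⟩

theorem pv_isGU_iff {g : F} : T.IsGU g ↔ T.V.valuation g = 1 := by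
  constructor
  · rintro ⟨hg, h0⟩
    refine le_antisymm ((pv_mem_iff g).1 hg) (not_lt.1 fun hlt => h0 (pv_rd_eq_zero hlt))
  · intro h
    have hg : g ∈ T.V := (pv_mem_iff g).2 h.le
    refine ⟨hg, fun h0 => ?_⟩
    have := pv_lt_of_rd hg h0
    rw [h] at this
    exact lt_irrefl _ this

theorem pv_pow_eq_one {Γ₀ : Type*} [LinearOrderedCommGroupWithZero Γ₀] {x : Γ₀} {n : ℕ}
    (hn : n ≠ 0) (h : x ^ n = 1) : x = 1 := by
  rcases lt_trichotomy x 1 with hlt | heq | hgt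
  · have := pow_lt_one₀ zero_le hlt hn
    rw [h] at this
    exact absurd this (lt_irrefl _)
  · exact heq
  · have := one_lt_pow₀ hgt hn
    rw [h] at this
    exact absurd this (lt_irrefl _)

/-- In characteristic `p`, an element of a field whose `p`-th power is `1` is `1`. -/
theorem eq_one_of_pow_char {E : Type*} [Field E] {p : ℕ} [hp : Fact p.Prime] [CharP E p]
    {x : E} (h : x ^ p = 1) : x = 1 := by
  have h1 : (x - 1) ^ p = 0 := by
    rw [sub_pow_char, h, one_pow, sub_self]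
  exact sub_eq_zero.1 (pow_eq_zero_iff hp.out.ne_zero |>.1 h1)

/-- A constant multiple of a function of the value group `v θ ^ ℤ`, of reduction `1`, is
congruent to `1` modulo `θ`. -/
theorem pv_sub_one_div {θ : K} (hθ : algebraMap K F θ ∈ T.V) (hθ0 : T.rd (algebraMap K F θ) = 0)
    (hθne : θ ≠ 0) {y : F} (hy : y ∈ T.V) (hyr : T.rd y = 1)
    (hval : y - 1 ≠ 0 → ∃ m : ℤ, T.V.valuation (y - 1) = T.V.valuation (algebraMap K F θ) ^ m) :
    (y - 1) / algebraMap K F θ ∈ T.V := by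
  set v := T.V.valuation with hv
  rcases eq_or_ne (y - 1) 0 with h0 | h0
  · rw [h0, zero_div]
    exact T.V.zero_mem
  obtain ⟨m, hm⟩ := hval h0
  have hθF : algebraMap K F θ ≠ 0 := (map_ne_zero_iff _ (algebraMap K F).injective).mpr hθne
  have hθv : v (algebraMap K F θ) < 1 := pv_lt_of_rd hθ hθ0
  have hθpos : 0 < v (algebraMap K F θ) := zero_lt_iff.2 ((Valuation.ne_zero_iff v).2 hθF)
  have hlt : v (y - 1) < 1 := by
    refine pv_lt_of_rd (T.V.sub_mem hy T.V.one_mem) ?_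
    rw [T.rd_sub hy T.V.one_mem, hyr, T.rd_one, sub_self]
  have hm1 : 1 ≤ m := by
    by_contra hcon
    have hm0 : m ≤ 0 := by omega
    have : (1 : _) ≤ v (algebraMap K F θ) ^ m := by
      have h1 := (zpow_le_zpow_iff_right_of_lt_one₀ hθpos hθv).2 hm0
      rwa [zpow_zero] at h1
    rw [← hm] at this
    exact absurd hlt (not_lt.2 this)
  rw [pv_mem_iff, map_div₀, hm, div_le_one₀ hθpos]
  have h1 := (zpow_le_zpow_iff_right_of_lt_one₀ hθpos hθv).2 hm1
  rwa [zpow_one] at h1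

end PV

/-! ### Invariant places, uniformisers, coordinates and constants -/

section Inv

variable {K F k F₁ F₂ : Type} [Field K] [Field F] [Algebra K F] [Field k] [Field F₁]
  [Algebra k F₁] [Field F₂] [Algebra k F₂] [Infinite k]

/-- An `𝓘`-invariant coordinate at every good place of the first component. -/
theorem exists_inv_coord₁ (S : SSD K F k F₁ F₂) (H : FFHyp K F) (H₁ : FFHyp k F₁)
    (H₂ : FFHyp k F₂) {g g₁ g₂ : ℕ} {c c₁ c₂ : ℤ} (hR : IsGenus K F g c)
    (hR₁ : IsGenus k F₁ g₁ c₁) (hR₂ : IsGenus k F₂ g₂ c₂)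
    (hnum : g + 1 ≤ g₁ + g₂ + S.nodes.card) {𝓘 : Set (SemilinearAut K F)}
    (hK0 : ∀ u : F, u ∈ S.c₁.V → u ∈ S.c₂.V → ∃ u₀ : F, H51.IsK0Part S 𝓘 u u₀)
    {Q : Place k F₁} (hQ : Q ∈ S.c₁.good) :
    ∃ t : F, S.c₁.IsCoord t Q ∧ ∀ τ ∈ 𝓘, τ • t = t := by
  have hd₁ : Disjoint ({Q} : Finset (Place k F₁)) S.br₁ :=
    Finset.disjoint_singleton_left.mpr (S.notMem_br₁ hQ)
  have hd₂ : Disjoint (∅ : Finset (Place k F₂)) S.br₂ := Finset.disjoint_empty_left _
  obtain ⟨hco₁, -⟩ := BAD.H28.stmt_Coords K F k F₁ F₂ S H H₁ H₂ g g₁ g₂ c c₁ c₂ hR hR₁ hR₂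
    hnum {Q} ∅ hd₁ hd₂
  obtain ⟨s, hs⟩ := hco₁ Q (Finset.mem_singleton_self Q)
  have hs' : S.IsCoordA₁ {Q} ∅ s Q := hs
  obtain ⟨s₀, h0⟩ := hK0 s hs'.1.isGU.1 hs'.2.1.1
  exact ⟨s₀, (H51.isCoordA₁_k0 H.principal hs' h0).1, h0.fixed⟩

/-- An `𝓘`-invariant coordinate at every good place of the second component. -/
theorem exists_inv_coord₂ (S : SSD K F k F₁ F₂) (H : FFHyp K F) (H₁ : FFHyp k F₁)
    (H₂ : FFHyp k F₂) {g g₁ g₂ : ℕ} {c c₁ c₂ : ℤ} (hR : IsGenus K F g c)
    (hR₁ : IsGenus k F₁ g₁ c₁) (hR₂ : IsGenus k F₂ g₂ c₂)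
    (hnum : g + 1 ≤ g₁ + g₂ + S.nodes.card) {𝓘 : Set (SemilinearAut K F)}
    (hK0 : ∀ u : F, u ∈ S.c₁.V → u ∈ S.c₂.V → ∃ u₀ : F, H51.IsK0Part S 𝓘 u u₀)
    {Q : Place k F₂} (hQ : Q ∈ S.c₂.good) :
    ∃ t : F, S.c₂.IsCoord t Q ∧ ∀ τ ∈ 𝓘, τ • t = t := by
  have hd₁ : Disjoint (∅ : Finset (Place k F₁)) S.br₁ := Finset.disjoint_empty_left _
  have hd₂ : Disjoint ({Q} : Finset (Place k F₂)) S.br₂ :=
    Finset.disjoint_singleton_left.mpr (S.notMem_br₂ hQ)
  obtain ⟨-, hco₂⟩ := BAD.H28.stmt_Coords K F k F₁ F₂ S H H₁ H₂ g g₁ g₂ c c₁ c₂ hR hR₁ hR₂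
    hnum ∅ {Q} hd₁ hd₂
  obtain ⟨s, hs⟩ := hco₂ Q (Finset.mem_singleton_self Q)
  have hs' : S.IsCoordA₂ ∅ {Q} s Q := hs
  obtain ⟨s₀, h0⟩ := hK0 s hs'.2.1.1 hs'.1.isGU.1
  exact ⟨s₀, (H51.isCoordA₂_k0 H.principal hs' h0).1, h0.fixed⟩

/-- **An invariant place with an invariant uniformiser** over a good point. -/
theorem exists_fixed_unif (S : SSD K F k F₁ F₂) (H : FFHyp K F) (H₁ : FFHyp k F₁)
    (H₂ : FFHyp k F₂) {g g₁ g₂ : ℕ} {c c₁ c₂ : ℤ} (hR : IsGenus K F g c)
    (hR₁ : IsGenus k F₁ g₁ c₁) (hR₂ : IsGenus k F₂ g₂ c₂)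
    (hnum : g + 1 ≤ g₁ + g₂ + S.nodes.card) {𝓘 : Set (SemilinearAut K F)}
    (h𝓘 : ∀ τ ∈ 𝓘, S.IsInertial τ)
    (hK0 : ∀ u : F, u ∈ S.c₁.V → u ∈ S.c₂.V → ∃ u₀ : F, H51.IsK0Part S 𝓘 u u₀)
    {Q : Place k F₁} (hQ : Q ∈ S.c₁.good) :
    ∃ (P : Place K F) (t : F), S.c₁.r P = some Q ∧ (∀ τ ∈ 𝓘, τ • P = P) ∧
      (∀ τ ∈ 𝓘, τ • t = t) ∧ P.ord t = 1 := by
  obtain ⟨t, ht, htfix⟩ := exists_inv_coord₁ S H H₁ H₂ hR hR₁ hR₂ hnum hK0 hQ
  obtain ⟨Y, hY, hY1, hYu⟩ := ht.exists_zero H.principal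
  refine ⟨Y, t, hY, fun τ hτ => ?_, htfix, hY1⟩
  by_contra hne
  have h1 : S.c₁.r (τ • Y) = some Q := by rw [(h𝓘 τ hτ).r₁, hY]
  have h2 := hYu (τ • Y) h1 hne
  have h3 : (τ • Y).ord (τ • t) = Y.ord t := SemilinearAut.ord_smul τ Y t
  rw [htfix τ hτ, h2, hY1] at h3
  exact zero_ne_one h3

/-- **(K0-CONST)** every non-zero constant of the residue field is the reduction of an
`𝓘`-invariant constant. -/
theorem exists_fixed_const (S : SSD K F k F₁ F₂) (H : FFHyp K F)
    {𝓘 : Set (SemilinearAut K F)}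
    (hK0 : ∀ u : F, u ∈ S.c₁.V → u ∈ S.c₂.V → ∃ u₀ : F, H51.IsK0Part S 𝓘 u u₀) (κ : k) :
    ∃ c : K, (∀ τ ∈ 𝓘, SemilinearAut.baseAut τ c = c) ∧ algebraMap K F c ∈ S.c₁.V ∧
      S.c₁.rd (algebraMap K F c) = algebraMap k F₁ κ := by
  obtain ⟨c, hc, hcr⟩ := S.c₁.const_surj κ
  obtain ⟨u₀, h0⟩ := hK0 _ hc ((S.const_mem c).1 hc)
  have hreg : ∀ v : Place K F, 0 ≤ v.ord u₀ := by
    intro v
    by_contra hneg
    obtain ⟨P', -, -, h3⟩ := h0.poles v (not_le.mp hneg)
    rw [ord_algebraMap] at h3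
    exact lt_irrefl _ h3
  obtain ⟨c₀, hc₀⟩ := H.const_of_regular hreg
  refine ⟨c₀, fun τ hτ => ?_, ?_, ?_⟩
  · have := h0.fixed τ hτ
    rw [hc₀, SemilinearAut.smul_algebraMap] at this
    exact (algebraMap K F).injective this
  · rw [← hc₀]
    exact h0.mem₁
  · rw [← hc₀, h0.rd₁, S.c₁.rd_of_mem hc]
    exact hcr

end Inv

/-! ### The normalised root -/

section Norm

variable {K F k F₁ F₂ : Type*} [Field K] [Field F] [Algebra K F] [Field k] [Field F₁]
  [Algebra k F₁] [Field F₂] [Algebra k F₂] {p' : ℕ}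

theorem baseAut_zpow (τ : SemilinearAut K F) (a : K) (n : ℤ) :
    SemilinearAut.baseAut τ (a ^ n) = (SemilinearAut.baseAut τ a) ^ n :=
  map_zpow₀ _ _ _

theorem pow_scale_aux {c e' : K} (he' : e' ≠ 0) {H' R : F}
    (hR : R = algebraMap K F e' * H' ^ p') :
    (algebraMap K F c * H') ^ p' = algebraMap K F (c ^ p' / e') * R := by
  have : algebraMap K F e' ≠ 0 := (map_ne_zero_iff _ (algebraMap K F).injective).mpr he'
  rw [hR, mul_pow, map_div₀, map_pow]
  field_simp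

theorem const_eq_aux {c e' : K} (he' : e' ≠ 0) {H' R : F} (hR0 : R ≠ 0)
    (hR : R = algebraMap K F e' * H' ^ p') :
    algebraMap K F (c ^ p' / e') = (algebraMap K F c * H') ^ p' / R := by
  rw [pow_scale_aux (c := c) he' hR]
  field_simp

/-- **The normalised root.**  `R = e' H' ^ p` with `H'` fixed by `𝓘2`, `R ≡ 1` for both
valuations; the functions fixed by `𝓘2` have values in `v θ ^ ℤ`.  Then a constant multiple
`H = c H'`, fixed by `𝓘2`, satisfies `(H - 1) / θ ∈ V₁ ∩ V₂`. -/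
theorem exists_normalised [IsAlgClosed k] (S : SSD K F k F₁ F₂) {p : ℕ} (hp : p.Prime)
    [CharP k p] {𝓘2 : Set (SemilinearAut K F)}
    (hconst : ∀ κ : k, ∃ c : K, (∀ τ ∈ 𝓘2, SemilinearAut.baseAut τ c = c) ∧
      algebraMap K F c ∈ S.c₁.V ∧ S.c₁.rd (algebraMap K F c) = algebraMap k F₁ κ)
    {θ : K} (hθ : S.IsCM θ) (hθne : θ ≠ 0)
    (hθfix : ∀ τ ∈ 𝓘2, SemilinearAut.baseAut τ θ = θ)
    (hval₁ : ∀ y : F, (∀ τ ∈ 𝓘2, τ • y = y) → y ≠ 0 →
      ∃ m : ℤ, S.c₁.V.valuation y = S.c₁.V.valuation (algebraMap K F θ) ^ m)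
    (hval₂ : ∀ y : F, (∀ τ ∈ 𝓘2, τ • y = y) → y ≠ 0 →
      ∃ m : ℤ, S.c₂.V.valuation y = S.c₂.V.valuation (algebraMap K F θ) ^ m)
    {R H' : F} {e' : K} (hH'0 : H' ≠ 0) (hH'fix : ∀ τ ∈ 𝓘2, τ • H' = H')
    (hR : R = algebraMap K F e' * H' ^ p)
    (hR₁ : R ∈ S.c₁.V) (hRr₁ : S.c₁.rd R = 1) (hR₂ : R ∈ S.c₂.V) (hRr₂ : S.c₂.rd R = 1) :
    ∃ c : K, c ≠ 0 ∧ (∀ τ ∈ 𝓘2, τ • (algebraMap K F c * H') = algebraMap K F c * H') ∧
      (algebraMap K F c * H' - 1) / algebraMap K F θ ∈ S.c₁.V ∧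
      (algebraMap K F c * H' - 1) / algebraMap K F θ ∈ S.c₂.V := by
  haveI : Fact p.Prime := ⟨hp⟩
  haveI : CharP F₁ p := charP_of_injective_algebraMap (algebraMap k F₁).injective p
  haveI : CharP F₂ p := charP_of_injective_algebraMap (algebraMap k F₂).injective p
  have hp0 : p ≠ 0 := hp.ne_zero
  have hθF : algebraMap K F θ ≠ 0 := (map_ne_zero_iff _ (algebraMap K F).injective).mpr hθne
  have hRGU₁ : S.c₁.IsGU R := ⟨hR₁, by rw [hRr₁]; exact one_ne_zero⟩
  have hRGU₂ : S.c₂.IsGU R := ⟨hR₂, by rw [hRr₂]; exact one_ne_zero⟩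
  have he'0 : e' ≠ 0 := by
    rintro rfl
    rw [map_zero, zero_mul] at hR
    exact hRGU₁.ne_zero hR
  -- step 1: a unit for `V₁`
  obtain ⟨m, hm⟩ := hval₁ H' hH'fix hH'0
  obtain ⟨c₁, hc₁⟩ : ∃ c₁ : K, c₁ = θ ^ (-m) := ⟨_, rfl⟩
  have hc₁0 : c₁ ≠ 0 := by rw [hc₁]; exact zpow_ne_zero _ hθne
  have hc₁fix : ∀ τ ∈ 𝓘2, SemilinearAut.baseAut τ c₁ = c₁ := fun τ hτ => by
    rw [hc₁, baseAut_zpow, hθfix τ hτ]
  have hU₁ : S.c₁.IsGU (algebraMap K F c₁ * H') := by
    rw [pv_isGU_iff, map_mul, hm, hc₁, map_zpow₀, map_zpow₀, ← zpow_add₀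
      ((Valuation.ne_zero_iff _).2 hθF), neg_add_cancel, zpow_zero]
  -- step 2: the reduction is a constant
  have hpow₁ : (algebraMap K F c₁ * H') ^ p = algebraMap K F (c₁ ^ p / e') * R :=
    pow_scale_aux he'0 hR
  have hcU : S.c₁.IsGU (algebraMap K F (c₁ ^ p / e')) := by
    rw [const_eq_aux he'0 hRGU₁.ne_zero hR]
    exact (hU₁.pow p).div hRGU₁
  obtain ⟨κ, hκ⟩ := S.c₁.rd_const_eq _ hcU.1
  have hrdp : S.c₁.rd (algebraMap K F c₁ * H') ^ p = algebraMap k F₁ κ := by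
    rw [← S.c₁.rd_pow hU₁.1, hpow₁, S.c₁.rd_mul hcU.1 hR₁, hRr₁, mul_one, hκ]
  obtain ⟨lam, hlam⟩ := IsAlgClosed.exists_pow_nat_eq κ hp.pos
  have hrd₁ : S.c₁.rd (algebraMap K F c₁ * H') = algebraMap k F₁ lam := by
    have h1 : (S.c₁.rd (algebraMap K F c₁ * H') - algebraMap k F₁ lam) ^ p = 0 := by
      rw [sub_pow_char, hrdp, ← map_pow, hlam, sub_self]
    exact sub_eq_zero.1 ((pow_eq_zero_iff hp0).1 h1)
  have hlam0 : lam ≠ 0 := by
    rintro rfl
    rw [map_zero] at hrd₁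
    exact hU₁.2 hrd₁
  -- step 3: divide by an invariant lift of `lam`
  obtain ⟨cl, hclfix, hclm, hclr⟩ := hconst lam
  have hclU : S.c₁.IsGU (algebraMap K F cl) := ⟨hclm, by
    rw [hclr]
    exact (map_ne_zero_iff _ (algebraMap k F₁).injective).mpr hlam0⟩
  have hcl0 : cl ≠ 0 := by
    rintro rfl
    exact hclU.ne_zero (map_zero _)
  obtain ⟨c, hc⟩ : ∃ c : K, c = c₁ / cl := ⟨_, rfl⟩
  have hc0 : c ≠ 0 := by rw [hc]; exact div_ne_zero hc₁0 hcl0
  have hcH : algebraMap K F c * H' = algebraMap K F c₁ * H' / algebraMap K F cl := by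
    rw [hc, map_div₀]
    ring
  have hfix : ∀ τ ∈ 𝓘2, τ • (algebraMap K F c * H') = algebraMap K F c * H' := by
    intro τ hτ
    rw [smul_mul', SemilinearAut.smul_algebraMap, hH'fix τ hτ, hc, map_div₀, hc₁fix τ hτ,
      hclfix τ hτ]
  have hHU₁ : S.c₁.IsGU (algebraMap K F c * H') := by
    rw [hcH]
    exact hU₁.div hclU
  have hHr₁ : S.c₁.rd (algebraMap K F c * H') = 1 := by
    rw [hcH, hU₁.rd_div hclU, hrd₁, hclr]
    exact div_self ((map_ne_zero_iff _ (algebraMap k F₁).injective).mpr hlam0)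
  -- step 4: the second valuation
  have hpow : (algebraMap K F c * H') ^ p = algebraMap K F (c ^ p / e') * R :=
    pow_scale_aux he'0 hR
  have heU : S.c₁.IsGU (algebraMap K F (c ^ p / e')) := by
    rw [const_eq_aux he'0 hRGU₁.ne_zero hR]
    exact (hHU₁.pow p).div hRGU₁
  have her₁ : S.c₁.rd (algebraMap K F (c ^ p / e')) = algebraMap k F₁ 1 := by
    rw [const_eq_aux he'0 hRGU₁.ne_zero hR, (hHU₁.pow p).rd_div hRGU₁, S.c₁.rd_pow hHU₁.1,
      hHr₁, hRr₁, one_pow, div_one, map_one]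
  obtain ⟨hem₂, her₂⟩ := S.rd₂_const heU.1 her₁
  rw [map_one] at her₂
  have heU₂ : S.c₂.IsGU (algebraMap K F (c ^ p / e')) := ⟨hem₂, by
    rw [her₂]; exact one_ne_zero⟩
  have hHpU₂ : S.c₂.IsGU ((algebraMap K F c * H') ^ p) := by
    rw [hpow]
    exact heU₂.mul hRGU₂
  have hHU₂ : S.c₂.IsGU (algebraMap K F c * H') := by
    rw [pv_isGU_iff] at hHpU₂ ⊢
    rw [map_pow] at hHpU₂
    exact pv_pow_eq_one hp0 hHpU₂
  have hHr₂ : S.c₂.rd (algebraMap K F c * H') = 1 := by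
    refine eq_one_of_pow_char (p := p) ?_
    rw [← S.c₂.rd_pow hHU₂.1, hpow, S.c₂.rd_mul hem₂ hR₂, her₂, hRr₂, mul_one]
  -- step 5: `(H - 1) / θ` is integral
  have hsubfix : ∀ τ ∈ 𝓘2, τ • (algebraMap K F c * H' - 1) = algebraMap K F c * H' - 1 := by
    intro τ hτ
    rw [smul_sub, hfix τ hτ, smul_one]
  exact ⟨c, hc0, hfix,
    pv_sub_one_div hθ.mem₁ hθ.rd₁ hθne hHU₁.1 hHr₁ (fun h0 => hval₁ _ hsubfix h0),
    pv_sub_one_div hθ.mem₂ hθ.rd₂ hθne hHU₂.1 hHr₂ (fun h0 => hval₂ _ hsubfix h0)⟩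

end Norm

end Fermat.Agent.BADP.H97

end
end
-- ==== END Fermat.Agent.BADP.H97_EisNorm

-- ==== BEGIN Fermat.Agent.L.LiftEig.H46_CharM
section

/-!
# S43 OLD, leaf CHAR-M (helper46)

`M ≥ 1`, `p` a prime, `ℓ i` a family of primes not dividing `M`, `t i ∈ ℤ`.  If every integral
polynomial `P` in the `T_{ℓ i}` which vanishes on the Betti lattice `ParZ M = Hom_par(Γ₀(M), ℤ)`
has `p ∣ P(t)`, there are a normalised eigenform `g` of weight `2` and level `M` and a maximal
ideal `𝔪 ∋ p` of the ring of algebraic integers with `a_{ℓ i}(g) ≡ t i mod 𝔪` for all `i`.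

* `charM_hecke` : the relations are taken in the Hecke algebra `heckeAlgebra M 2 ∅`;
* `charM`       : the relations are taken on `ParZ M` (via `Betti.H76.heckeRho`);
* `charM_pt`    : the same, the relation tested on every element of `ParZ M`.
-/

set_option autoImplicit false

open scoped MatrixGroups
open CongruenceSubgroup CuspForm ModularFormClass

namespace Fermat.Agent.L.LiftEig.H46

open Fermat.Agent.Betti Fermat.Agent.Betti.H76

variable {p : ℕ} (M : ℕ) [NeZero M] {ι : Type} (ℓ : ι → ℕ) (hℓ : ∀ i, (ℓ i).Prime)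
  (hℓM : ∀ i, ¬ ℓ i ∣ M) (t : ι → ℤ)

/-- The family `T_{ℓ i}` in the Hecke algebra. -/
noncomputable def heckeFam : ι → heckeAlgebra M 2 ∅ :=
  fun i => heckeAlgebra.T (hℓ i) (hℓM i) (Set.notMem_empty (ℓ i))

/-- The Hecke algebra is integral over `ℤ`. -/
theorem heckeAlgebra_isIntegral (r : heckeAlgebra M 2 ∅) : IsIntegral ℤ r := by
  haveI : Module.Finite ℤ (ParZ M) := Fermat.Agent.S41.H20.parZ_finite M
  have h1 : IsIntegral ℤ ((heckeRho M ∅).toIntAlgHom r) := Algebra.IsIntegral.isIntegral _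
  exact (isIntegral_algHom_iff (heckeRho M ∅).toIntAlgHom (heckeRho_injective M ∅)).mp h1

/-- **CHAR-M**, relations in the Hecke algebra. -/
theorem charM_hecke (hp : p.Prime)
    (H : ∀ P : MvPolynomial ι ℤ, MvPolynomial.aeval (heckeFam M ℓ hℓ hℓM) P = 0 →
      (p : ℤ) ∣ MvPolynomial.eval t P) :
    ∃ (g : CuspForm (Gamma0 M) 2) (𝔪 : Ideal (integralClosure ℤ ℂ)),
      g.IsNormalizedEigenform ∧ 𝔪.IsMaximal ∧ ((p : ℕ) : integralClosure ℤ ℂ) ∈ 𝔪 ∧
      ∀ i, ∃ a : integralClosure ℤ ℂ, (a : ℂ) = qCoeff g (ℓ i) ∧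
        a - ((t i : ℤ) : integralClosure ℤ ℂ) ∈ 𝔪 := by
  haveI hfd : FiniteDimensional ℂ (CuspForm (Gamma0 M) 2) :=
    Fermat.Agent.R.H99.finiteDimensional_cuspForm M
  let φ : heckeAlgebra M 2 ∅ →+* Module.End ℂ (CuspForm (Gamma0 M) 2) :=
    (heckeAlgebra M 2 ∅).val.toRingHom
  have hφ : Function.Injective φ := Subtype.val_injective
  obtain ⟨χ, v, 𝔪, hv0, hv, hmax, hp𝔪, hcong⟩ :=
    char_of_relations (heckeAlgebra_isIntegral M) φ hφ hp (heckeFam M ℓ hℓ hℓM) t H
  have hv' : ∀ T : heckeAlgebra M 2 ∅,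
      (T : Module.End ℂ (CuspForm (Gamma0 M) 2)) v = χ T • v := fun T => hv T
  obtain ⟨hb1, hg⟩ := Fermat.Agent.R.H99.isNormalizedEigenform_of_eigenvector χ v hv0 hv'
  refine ⟨(qCoeff ⇑v 1)⁻¹ • v, 𝔪, hg, hmax, hp𝔪, fun i => ?_⟩
  obtain ⟨α, hα, hα𝔪⟩ := hcong i
  refine ⟨α, ?_, hα𝔪⟩
  rw [hα, Fermat.Agent.S41.H20.qCoeff_normalized_eigenvector χ v hv' hb1 (hℓ i),
    Fermat.Agent.S49.eigenvalueAt_of_not_dvd χ (hℓ i) (hℓM i)]
  rfl

/-- **CHAR-M**, relations on the Betti lattice. -/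
theorem charM (hp : p.Prime)
    (H : ∀ P : MvPolynomial ι ℤ,
      heckeRho M ∅ (MvPolynomial.aeval (heckeFam M ℓ hℓ hℓM) P) = 0 →
      (p : ℤ) ∣ MvPolynomial.eval t P) :
    ∃ (g : CuspForm (Gamma0 M) 2) (𝔪 : Ideal (integralClosure ℤ ℂ)),
      g.IsNormalizedEigenform ∧ 𝔪.IsMaximal ∧ ((p : ℕ) : integralClosure ℤ ℂ) ∈ 𝔪 ∧
      ∀ i, ∃ a : integralClosure ℤ ℂ, (a : ℂ) = qCoeff g (ℓ i) ∧
        a - ((t i : ℤ) : integralClosure ℤ ℂ) ∈ 𝔪 :=
  charM_hecke M ℓ hℓ hℓM t hp fun P hP => H P (by rw [hP, map_zero])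

/-- **CHAR-M**, the relation tested on every element of the Betti lattice. -/
theorem charM_pt (hp : p.Prime)
    (H : ∀ P : MvPolynomial ι ℤ,
      (∀ c : ParZ M, heckeRho M ∅ (MvPolynomial.aeval (heckeFam M ℓ hℓ hℓM) P) c = 0) →
      (p : ℤ) ∣ MvPolynomial.eval t P) :
    ∃ (g : CuspForm (Gamma0 M) 2) (𝔪 : Ideal (integralClosure ℤ ℂ)),
      g.IsNormalizedEigenform ∧ 𝔪.IsMaximal ∧ ((p : ℕ) : integralClosure ℤ ℂ) ∈ 𝔪 ∧
      ∀ i, ∃ a : integralClosure ℤ ℂ, (a : ℂ) = qCoeff g (ℓ i) ∧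
        a - ((t i : ℤ) : integralClosure ℤ ℂ) ∈ 𝔪 :=
  charM M ℓ hℓ hℓM t hp fun P hP => H P fun c => by rw [hP, LinearMap.zero_apply]

end Fermat.Agent.L.LiftEig.H46

end
-- ==== END Fermat.Agent.L.LiftEig.H46_CharM

-- ==== BEGIN Fermat.Agent.RED.HR.H69_DegInst
section
attribute [local instance 10000] SubalgebraClass.toAlgebra
attribute [local instance 10000] HahnSeries.powerSeriesAlgebra

/-!
# G-RED package HR-RED, leaf DEG-INST (helper69): the degree hypothesis of `H78.hr_abs`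

`A` over `ℓ`, `ℓ ∤ N`, `s ≠ ℓ` a prime (`s ∣ N` allowed).  The degeneracy maps
`β = heckeBetaBar ℚ̄ N s : F_N · ℚ̄ → F_{Ns} · ℚ̄` and `β~ = H35.betaT A N s : F~_N → F~_{Ns}`
(substitution `t ↦ t ^ s`) have the same degree:

* `finrankAlong_beta_eq : finrankAlong ℚ̄ β = finrankAlong k β~`.

Proof: both are relative degrees of `κ(j(q^d) : d ∣ N)(q ↦ q^s)` in `κ(j(q^d) : d ∣ N s)`
(`H51.finrankAlong_eq_relfinrank_map`, `laurentBaseChange_full_eq`, `stmt_GA`), which agree by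
helper51's `stmt_DegBeta`.
-/

set_option autoImplicit false
set_option linter.style.haveILetI false
set_option linter.unusedSectionVars false
set_option synthInstance.maxHeartbeats 400000
set_option maxHeartbeats 1000000

noncomputable section

open AlgebraicCurve ModularCurve Fermat.Agent.S28.H73 Fermat.Agent.RED.H73 Fermat.Agent.RED
open Fermat.Agent.S43.Old.H35

namespace Fermat.Agent.RED.H69D

/-- The degree of `β` over `ℚ̄` as a relative degree of the fields `ℚ̄(j(q^d))`. -/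
theorem finrankAlong_beta_bar (N s : ℕ) [NeZero N] [NeZero s] :
    finrankAlong (AlgebraicClosure ℚ) (heckeBetaBar (AlgebraicClosure ℚ) N s)
      = ((modularFunctionFieldFullC (AlgebraicClosure ℚ) N).map
          (qExpandAlgHomC (AlgebraicClosure ℚ) s)).relfinrank
        (modularFunctionFieldFullC (AlgebraicClosure ℚ) (N * s)) := by
  rw [H51.finrankAlong_eq_relfinrank_map (modularFunctionFieldBar N)
    (modularFunctionFieldBar (N * s)) (qExpandAlgHomC (AlgebraicClosure ℚ) s)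
    (heckeBetaBar (AlgebraicClosure ℚ) N s) (fun x => coe_heckeBetaBar N s x)]
  have e1 : modularFunctionFieldBar N = modularFunctionFieldFullC (AlgebraicClosure ℚ) N :=
    laurentBaseChange_full_eq N
  have e2 : modularFunctionFieldBar (N * s)
      = modularFunctionFieldFullC (AlgebraicClosure ℚ) (N * s) :=
    laurentBaseChange_full_eq (N * s)
  rw [e1, e2]

/-- The degree of `β~` over `k` as a relative degree of the fields `k(j~(q^d))`. -/
theorem finrankAlong_betaT (N ℓ s : ℕ) [NeZero N] [NeZero s] (hℓ : ℓ.Prime) (hs : s.Prime)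
    (hsℓ : s ≠ ℓ) (hℓN : ¬ ℓ ∣ N) (A : ValuationSubring (AlgebraicClosure ℚ))
    (hA : A.LiesOverPrime ℓ) :
    finrankAlong (kV A) (betaT A N s)
      = ((modularFunctionFieldFullC (kV A) N).map (qExpandAlgHomC (kV A) s)).relfinrank
        (modularFunctionFieldFullC (kV A) (N * s)) := by
  haveI : NeZero (N * s) := ⟨Nat.mul_ne_zero (NeZero.ne N) (NeZero.ne s)⟩
  have hℓs : ¬ ℓ ∣ s := fun h => hsℓ ((Nat.prime_dvd_prime_iff_eq hℓ hs).mp h).symm
  have hℓNs : ¬ ℓ ∣ N * s := fun h => (hℓ.dvd_mul.mp h).elim hℓN hℓs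
  rw [H51.finrankAlong_eq_relfinrank_map (Ft A N) (Ft A (N * s)) (qExpandAlgHomC (kV A) s)
    (betaT A N s) (fun x => coe_betaT A N s x)]
  have e1 : Ft A N = modularFunctionFieldFullC (kV A) N := stmt_GA N ℓ hℓ hℓN A hA
  have e2 : Ft A (N * s) = modularFunctionFieldFullC (kV A) (N * s) :=
    stmt_GA (N * s) ℓ hℓ hℓNs A hA
  rw [e1, e2]

/-- **DEG-INST**: `β` and `β~` have the same degree. -/
theorem finrankAlong_beta_eq (N ℓ s : ℕ) [NeZero N] [NeZero s] (hℓ : ℓ.Prime) (hs : s.Prime)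
    (hsℓ : s ≠ ℓ) (hℓN : ¬ ℓ ∣ N) (A : ValuationSubring (AlgebraicClosure ℚ))
    (hA : A.LiesOverPrime ℓ) :
    finrankAlong (AlgebraicClosure ℚ) (heckeBetaBar (AlgebraicClosure ℚ) N s)
      = finrankAlong (kV A) (betaT A N s) := by
  rw [finrankAlong_beta_bar, finrankAlong_betaT N ℓ s hℓ hs hsℓ hℓN A hA]
  exact (H51.stmt_DegBeta N ℓ s hℓ hs hsℓ hℓN A hA).symm

end Fermat.Agent.RED.H69D

end
end
-- ==== END Fermat.Agent.RED.HR.H69_DegInst

-- ==== BEGIN Fermat.Agent.S17.W2.Bad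
section

/-!
# S17-W2, CORE part 6: the bad set of a canonical divisor of degree `< g` is finite (helper8)

If `L(E) = Ω`, `E ≥ 0` and `deg E < g`, then `L(E + P) = Ω` for all but finitely many `P`.
-/

set_option autoImplicit false

noncomputable section

namespace Fermat.Agent.S17.W2

open AlgebraicCurve WithZero Fermat.Agent.RED.H51 Fermat.Agent.RED.H42

variable {Ω F : Type} [Field Ω] [Field F] [Algebra Ω F]

local notation "L" => riemannRochSpace

variable (H : Hyp Ω F)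
include H

theorem degree_sum_single (T : Finset (Place Ω F)) :
    Divisor.degree (∑ P ∈ T, (Finsupp.single P 1 : Divisor Ω F)) = T.card := by
  classical
  rw [map_sum]
  simp only [Divisor.degree_single, H.deg_one, Nat.cast_one, mul_one, Finset.sum_const,
    nsmul_eq_mul]

omit H in
theorem sum_single_nonneg (T : Finset (Place Ω F)) :
    0 ≤ ∑ P ∈ T, (Finsupp.single P 1 : Divisor Ω F) := by
  classical
  refine Finset.sum_nonneg fun P _ => ?_
  rw [Finsupp.le_def]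
  intro v
  rw [Finsupp.single_apply]
  split_ifs <;> simp

omit H in
theorem sum_single_apply_of_notMem (T : Finset (Place Ω F)) {P : Place Ω F} (hP : P ∉ T) :
    (∑ Q ∈ T, (Finsupp.single Q 1 : Divisor Ω F)) P = 0 := by
  classical
  rw [Finsupp.finsetSum_apply]
  refine Finset.sum_eq_zero fun Q hQ => ?_
  rw [Finsupp.single_apply, if_neg]
  rintro rfl
  exact hP hQ

omit H in
theorem one_mem_L_of_nonneg {D : Divisor Ω F} (hD : 0 ≤ D) : (1 : F) ∈ L D := by
  rw [mem_riemannRochSpace_iff]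
  intro v
  right
  have := Finsupp.le_def.mp hD v
  simp only [Finsupp.coe_zero, Pi.zero_apply] at this
  rw [Place.ord_one]
  omega

/-- The chain argument: `l(E + Σ_T P) ≥ #T + 1` if all `P ∈ T` are bad for `E`. -/
theorem card_lt_finrank_of_bad {E : Divisor Ω F} (hE0 : 0 ≤ E) (hE : OnlyConst E)
    (T : Finset (Place Ω F)) (hT : ∀ P ∈ T, ¬ OnlyConst (E + Finsupp.single P 1)) :
    T.card + 1 ≤ Module.finrank Ω (L (E + ∑ P ∈ T, (Finsupp.single P 1 : Divisor Ω F))) := by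
  classical
  induction T using Finset.induction_on with
  | empty =>
    rw [Finset.card_empty, zero_add, Finset.sum_empty, add_zero]
    have hfin := finite_L H E
    have h1 : (1 : F) ∈ L E := one_mem_L_of_nonneg hE0
    exact Nat.succ_le_of_lt (Module.finrank_pos_iff_exists_ne_zero.mpr
      ⟨⟨1, h1⟩, fun h => one_ne_zero (congrArg Subtype.val h)⟩)
  | insert P T hPT ih =>
    have ih' := ih fun Q hQ => hT Q (Finset.mem_insert_of_mem hQ)
    rw [Finset.card_insert_of_notMem hPT, Finset.sum_insert hPT]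
    set DT : Divisor Ω F := E + ∑ Q ∈ T, (Finsupp.single Q 1 : Divisor Ω F) with hDT
    have hrew : E + ((Finsupp.single P 1 : Divisor Ω F) + ∑ Q ∈ T, (Finsupp.single Q 1 : Divisor Ω F))
        = DT + Finsupp.single P 1 := by
      rw [hDT]; abel
    rw [hrew]
    have hbad := hT P (Finset.mem_insert_self P T)
    unfold OnlyConst at hbad
    push Not at hbad
    obtain ⟨f, hf, hfc⟩ := hbad
    have hsumnn := sum_single_nonneg T
    have hf1 : f ∈ L (DT + Finsupp.single P 1) := by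
      refine L_mono ?_ hf
      rw [hDT]
      rw [Finsupp.le_def] at hsumnn ⊢
      intro v
      have hv := hsumnn v
      simp only [Finsupp.coe_zero, Pi.zero_apply, Finsupp.add_apply] at hv ⊢
      omega
    have hf2 : f ∉ L DT := by
      intro hfDT
      have hfE : f ∈ L E := by
        rw [mem_riemannRochSpace_iff] at hf hfDT ⊢
        intro v
        by_cases hv : v = P
        · subst hv
          rcases hfDT v with h | h
          · exact Or.inl h
          · right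
            rw [hDT, Finsupp.add_apply, sum_single_apply_of_notMem T hPT, add_zero] at h
            exact h
        · rcases hf v with h | h
          · exact Or.inl h
          · right
            rw [Finsupp.add_apply, Finsupp.single_eq_of_ne hv, add_zero] at h
            exact h
      obtain ⟨c, hc⟩ := hE f hfE
      exact hfc c hc
    have hsingle : (0 : Divisor Ω F) ≤ Finsupp.single P 1 := by
      rw [Finsupp.le_def]
      intro v
      rw [Finsupp.single_apply]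
      split_ifs <;> simp
    have hle : L DT ≤ L (DT + Finsupp.single P 1) := L_mono (le_add_of_nonneg_right hsingle)
    have hlt : L DT < L (DT + Finsupp.single P 1) :=
      lt_of_le_of_ne hle fun heq => hf2 (heq ▸ hf1)
    have hfin := finite_L H (DT + Finsupp.single P 1)
    have := Submodule.finrank_lt_finrank_of_lt hlt
    omega

/-- **Finiteness of the bad set.** -/
theorem finite_bad (g : ℕ) (c : ℤ)
    (hR : ∀ D : Divisor Ω F, c ≤ Divisor.degree D →
      (Module.finrank Ω (riemannRochSpace D) : ℤ) = Divisor.degree D + 1 - g)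
    {E : Divisor Ω F} (hE0 : 0 ≤ E) (hE : OnlyConst E) (hdeg : Divisor.degree E < g) :
    {P : Place Ω F | ¬ OnlyConst (E + Finsupp.single P 1)}.Finite := by
  classical
  by_contra hinf
  have hinf' : {P : Place Ω F | ¬ OnlyConst (E + Finsupp.single P 1)}.Infinite := hinf
  obtain ⟨T, hTsub, hTcard⟩ := hinf'.exists_subset_card_eq (c - Divisor.degree E).toNat
  have h1 := card_lt_finrank_of_bad H hE0 hE T fun P hP => hTsub hP
  have hdegT : Divisor.degree (E + ∑ P ∈ T, (Finsupp.single P 1 : Divisor Ω F))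
      = Divisor.degree E + T.card := by
    rw [map_add, degree_sum_single H]
  have h2 := hR (E + ∑ P ∈ T, (Finsupp.single P 1 : Divisor Ω F)) (by
    rw [hdegT, hTcard]
    have := Int.self_le_toNat (c - Divisor.degree E)
    omega)
  rw [hdegT] at h2
  have h3 : ((T.card + 1 : ℕ) : ℤ) ≤
      (Module.finrank Ω (L (E + ∑ P ∈ T, (Finsupp.single P 1 : Divisor Ω F))) : ℤ) := by
    exact_mod_cast h1
  rw [h2] at h3
  push_cast at h3
  omega

end Fermat.Agent.S17.W2

end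
end
-- ==== END Fermat.Agent.S17.W2.Bad

-- ==== BEGIN Fermat.Agent.S43.BadQ
section

set_option autoImplicit false
set_option synthInstance.maxHeartbeats 400000
set_option maxHeartbeats 1000000

noncomputable section

open AlgebraicCurve ModularCurve

namespace Fermat.Agent.S43.BadQ

open Fermat.Agent.BAD Fermat.Agent.S44 Fermat.Agent.S28.H73 Fermat.Agent.RED.H73

/-! ## `K1` is a subgroup -/

section K1

variable (A : ValuationSubring (AlgebraicClosure ℚ)) (N n : ℕ)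

/-- **The finite part**: the class `x` has a Kummer function which is a unit for the Gauss
valuation and whose reduction has a divisor divisible by `n`. -/
def Fin1 (x : JZero N) : Prop :=
  ∃ (D : Divisor.degZero (K := AlgebraicClosure ℚ) (F := ↥(FNbar N))) (f : ↥(gaussV A N)),
    x = Pic0.mk D ∧ gaussRes A N f ≠ 0 ∧
    (∀ P : Place (AlgebraicClosure ℚ) ↥(FNbar N),
      (n : ℤ) * (D : Divisor (AlgebraicClosure ℚ) ↥(FNbar N)) P = P.ord ((f : ↥(FNbar N)))) ∧
    ∀ Q : Place (kV A) ↥(redField A (FNbar N) (hasScale_laurentBaseChange A N)),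
      (n : ℤ) ∣ Q.ord (gaussRes A N f)

theorem inK1_zero : InK1 A N n (0 : JZero N) := by
  refine ⟨0, 1, rfl, map_one _, fun P => ?_⟩
  show (n : ℤ) * (0 : Divisor (AlgebraicClosure ℚ) ↥(FNbar N)) P = P.ord (1 : ↥(FNbar N))
  rw [Place.ord_one, Finsupp.zero_apply, mul_zero]

variable {A N n}

theorem ne_zero_of_gaussRes_eq_one {f : ↥(gaussV A N)} (h : gaussRes A N f = 1) :
    (f : ↥(FNbar N)) ≠ 0 := by
  intro h0
  have : f = 0 := Subtype.ext h0
  rw [this, map_zero] at h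
  exact zero_ne_one h

theorem InK1.add {x y : JZero N} (hx : InK1 A N n x) (hy : InK1 A N n y) :
    InK1 A N n (x + y) := by
  obtain ⟨D, f, rfl, hf, hD⟩ := hx
  obtain ⟨E, g, rfl, hg, hE⟩ := hy
  refine ⟨D + E, f * g, (Pic0.mk_add D E).symm, by rw [map_mul, hf, hg, mul_one], fun P => ?_⟩
  have h1 : (((f * g : ↥(gaussV A N)) : ↥(FNbar N))) = (f : ↥(FNbar N)) * (g : ↥(FNbar N)) := rfl
  rw [h1, Place.ord_mul _ (ne_zero_of_gaussRes_eq_one hf) (ne_zero_of_gaussRes_eq_one hg),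
    ← hD P, ← hE P]
  show (n : ℤ) * ((D : Divisor (AlgebraicClosure ℚ) ↥(FNbar N)) +
    (E : Divisor (AlgebraicClosure ℚ) ↥(FNbar N))) P = _
  rw [Finsupp.add_apply, mul_add]

theorem InK1.neg {x : JZero N} (hx : InK1 A N n x) : InK1 A N n (-x) := by
  obtain ⟨D, f, rfl, hf, hD⟩ := hx
  have hf0 := ne_zero_of_gaussRes_eq_one hf
  have hu : IsUnit f := by
    by_contra hnu
    have hm : f ∈ IsLocalRing.maximalIdeal ↥(gaussV A N) := (IsLocalRing.mem_maximalIdeal f).2 hnu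
    rw [← ker_gaussResF' A (hasScale_laurentBaseChange A N), RingHom.mem_ker] at hm
    have h0 : gaussRes A N f = 0 := hm
    rw [hf] at h0
    exact one_ne_zero h0
  obtain ⟨u, rfl⟩ := hu
  refine ⟨-D, ((u⁻¹ : (↥(gaussV A N))ˣ) : ↥(gaussV A N)), rfl, ?_, fun P => ?_⟩
  · have h1 : gaussRes A N ((u⁻¹ : (↥(gaussV A N))ˣ) : ↥(gaussV A N)) * gaussRes A N (u : ↥(gaussV A N)) = 1 := by
      rw [← map_mul, Units.inv_mul, map_one]
    rw [hf, mul_one] at h1
    exact h1
  · have h2 : (((u⁻¹ : (↥(gaussV A N))ˣ) : ↥(gaussV A N)) : ↥(FNbar N)) =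
        ((u : ↥(gaussV A N)) : ↥(FNbar N))⁻¹ := by
      have h3 : (((u⁻¹ : (↥(gaussV A N))ˣ) : ↥(gaussV A N)) : ↥(FNbar N)) *
          ((u : ↥(gaussV A N)) : ↥(FNbar N)) = 1 := by
        have := congrArg (fun z : ↥(gaussV A N) => (z : ↥(FNbar N))) (Units.inv_mul u)
        exact this
      exact eq_inv_of_mul_eq_one_left h3
    rw [h2, Place.ord_inv, ← hD P]
    show (n : ℤ) * (-(D : Divisor (AlgebraicClosure ℚ) ↥(FNbar N))) P = _
    rw [Finsupp.neg_apply, mul_neg]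

end K1

/-! ## The Atkin-Lehner involution on `J₀(M q)` -/

section W

variable (q M : ℕ) (a b : ℤ) (hab : a * q + b * M = 1) (hq : q.Prime) [NeZero (M * q)]

/-- `w_q` as a semilinear automorphism of `F_{M q} · ℚ̄`. -/
def wS : SemilinearAut (AlgebraicClosure ℚ) ↥(FNbar (M * q)) :=
  SemilinearAut.ofAlgAut (H88.wq q M a b hab hq)

theorem wS_mul_self : wS q M a b hab hq * wS q M a b hab hq = 1 := by
  unfold wS
  rw [← map_mul]
  have h : H88.wq q M a b hab hq * H88.wq q M a b hab hq = 1 :=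
    AlgEquiv.ext fun x => H88.wq_wq q M a b hab hq x
  rw [h, map_one]

theorem wS_comm_gal (σ : GalQ) :
    wS q M a b hab hq * galF (M * q) σ = galF (M * q) σ * wS q M a b hab hq := by
  apply Subtype.ext
  apply Prod.ext
  · apply RingEquiv.ext
    intro x
    exact H88.wq_arith q M a b hab hq σ x
  · show (1 : RingAut (AlgebraicClosure ℚ)) * σ.toRingEquiv = σ.toRingEquiv * 1
    rw [one_mul, mul_one]

variable (p : ℕ)

/-- `w_q` on `J₀(M q)[p]`. -/
def wTors : Module.End (ZMod p) (JTors (M * q) p) :=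
  SemilinearAut.torsionRep _ _ p (wS q M a b hab hq)

theorem coe_wTors_apply (x : JTors (M * q) p) :
    ((wTors q M a b hab hq p x : JTors (M * q) p) : JZero (M * q)) =
      wS q M a b hab hq • (x : JZero (M * q)) := rfl

theorem wTors_mul_self : wTors q M a b hab hq p * wTors q M a b hab hq p = 1 := by
  unfold wTors
  rw [← map_mul, wS_mul_self, map_one]

theorem wTors_wTors (x : JTors (M * q) p) :
    wTors q M a b hab hq p (wTors q M a b hab hq p x) = x := by
  have := congrArg (fun f : Module.End (ZMod p) (JTors (M * q) p) => f x)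
    (wTors_mul_self q M a b hab hq p)
  exact this

theorem wTors_comm_gal (σ : GQ) :
    wTors q M a b hab hq p * JZero.torsionGaloisRep (M * q) p σ =
      JZero.torsionGaloisRep (M * q) p σ * wTors q M a b hab hq p := by
  show SemilinearAut.torsionRep _ _ p (wS q M a b hab hq) *
      SemilinearAut.torsionRep _ _ p (galF (M * q) σ) =
    SemilinearAut.torsionRep _ _ p (galF (M * q) σ) *
      SemilinearAut.torsionRep _ _ p (wS q M a b hab hq)
  rw [← map_mul, ← map_mul, wS_comm_gal]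

variable (A : ValuationSubring (AlgebraicClosure ℚ))

/-- **The toric part** `T = K1 ∩ w K1` of `J₀(M q)[p]`, as a subgroup. -/
def toricAdd : AddSubgroup (JTors (M * q) p) where
  carrier := {x | InK1 A (M * q) p (x : JZero (M * q)) ∧
    InK1 A (M * q) p (wS q M a b hab hq • (x : JZero (M * q)))}
  zero_mem' := by
    refine ⟨inK1_zero A (M * q) p, ?_⟩
    show InK1 A (M * q) p (wS q M a b hab hq • (0 : JZero (M * q)))
    rw [show wS q M a b hab hq • (0 : JZero (M * q)) = 0 from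
      smul_zero (A := JZero (M * q)) (wS q M a b hab hq)]
    exact inK1_zero A (M * q) p
  add_mem' := by
    rintro x y ⟨hx, hx'⟩ ⟨hy, hy'⟩
    refine ⟨InK1.add hx hy, ?_⟩
    show InK1 A (M * q) p (wS q M a b hab hq • ((x : JZero (M * q)) + (y : JZero (M * q))))
    rw [show wS q M a b hab hq • ((x : JZero (M * q)) + (y : JZero (M * q))) =
      wS q M a b hab hq • (x : JZero (M * q)) + wS q M a b hab hq • (y : JZero (M * q)) from
      smul_add (A := JZero (M * q)) (wS q M a b hab hq) _ _]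
    exact InK1.add hx' hy'
  neg_mem' := by
    rintro x ⟨hx, hx'⟩
    refine ⟨InK1.neg hx, ?_⟩
    show InK1 A (M * q) p (wS q M a b hab hq • (-(x : JZero (M * q))))
    rw [show wS q M a b hab hq • (-(x : JZero (M * q))) =
      -(wS q M a b hab hq • (x : JZero (M * q))) from
      smul_neg (A := JZero (M * q)) (wS q M a b hab hq) _]
    exact InK1.neg hx'

/-- **The toric part** `T = K1 ∩ w K1` of `J₀(M q)[p]`. -/
def toric : Submodule (ZMod p) (JTors (M * q) p) :=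
  AddSubgroup.toZModSubmodule p (toricAdd q M a b hab hq p A)

theorem mem_toric_iff (x : JTors (M * q) p) :
    x ∈ toric q M a b hab hq p A ↔ InK1 A (M * q) p (x : JZero (M * q)) ∧
      InK1 A (M * q) p (wS q M a b hab hq • (x : JZero (M * q))) := Iff.rfl

end W

/-! ## The leaves -/

/-- **W-ACT (Hecke part).**  The Atkin-Lehner involution `w_q` commutes with the Hecke operators
`T_ℓ`, `ℓ ∤ M q`, on `J₀(M q)`. -/
def Stmt_WHecke : Prop :=
  ∀ (q M : ℕ) (a b : ℤ) (hab : a * q + b * M = 1) (hq : q.Prime) [NeZero (M * q)]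
    (ℓ : Nat.Primes), ¬ (ℓ : ℕ) ∣ M * q → ∀ x : JZero (M * q),
      heckeOperatorBar (M * q) ℓ (wS q M a b hab hq • x) =
        wS q M a b hab hq • heckeOperatorBar (M * q) ℓ x

/-- **FROB-T.**  There is a sign `ε = ± 1` such that every Frobenius element at a place `A` over
`q` acts on the toric part `T = K1 ∩ w K1` of `J₀(M q)[p]` as `ε q w_q`. -/
def Stmt_FrobToric : Prop :=
  ∃ ε : ℤ, (ε = 1 ∨ ε = -1) ∧
    ∀ (p : ℕ), p.Prime → 5 ≤ p →
    ∀ (q M : ℕ) (a b : ℤ) (hab : a * q + b * M = 1) (hq : q.Prime) [NeZero (M * q)], q ≠ p →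
    ∀ A : ValuationSubring (AlgebraicClosure ℚ), A.LiesOverPrime q →
    ∀ σ : GQ, A.IsFrobeniusAt σ q → ∀ x : JZero (M * q), (p : ℤ) • x = 0 →
      InK1 A (M * q) p x → InK1 A (M * q) p (wS q M a b hab hq • x) →
      σ • x = (ε * (q : ℤ)) • (wS q M a b hab hq • x)

/-- **COMP-EIS.**  An inertia-fixed common eigenvector of the Hecke operators in `J₀(N)[p]` which
is not Eisenstein lies in the finite part (the component group is Eisenstein). -/
def Stmt_CompEis : Prop :=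
  ∀ (p : ℕ), p.Prime → 5 ≤ p → ∀ (N : ℕ) [NeZero N] (q : ℕ), q.Prime → q ≠ p →
    q ∣ N → ¬ q ^ 2 ∣ N →
    ∀ A : ValuationSubring (AlgebraicClosure ℚ), A.LiesOverPrime q →
    ∀ (S : Finset ℕ) (t : ℕ → ℤ) (x : (jzModule N p).J),
      (∀ σ ∈ A.inertiaSubgroupIn ℚ, (jzModule N p).gal σ x = x) →
      (∀ ℓ : ℕ, ℓ.Prime → ℓ ∉ S → ¬ ℓ ∣ N → ℓ ≠ p →
        (jzModule N p).T ℓ x = ((t ℓ : ℤ) : ZMod p) • x) →
      (∃ ℓ : ℕ, ℓ.Prime ∧ ℓ ∉ S ∧ ¬ ℓ ∣ N ∧ ℓ ≠ p ∧ ((t ℓ : ℤ) : ZMod p) ≠ 1 + (ℓ : ZMod p)) →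
      Fin1 A N p (jzModule.pt N p x)

/-- **OLD.**  A common eigenvector of the Hecke operators in the finite part of `J₀(N)[p]` whose
reduction on the component of `∞` is not trivial comes from level `N / q`. -/
def Stmt_Old : Prop :=
  ∀ (p : ℕ), p.Prime → 5 ≤ p → ∀ (N : ℕ) [NeZero N] (q : ℕ), q.Prime → q ≠ p →
    q ∣ N → ¬ q ^ 2 ∣ N →
    ∀ A : ValuationSubring (AlgebraicClosure ℚ), A.LiesOverPrime q →
    ∀ (S : Finset ℕ) (t : ℕ → ℤ) (x : (jzModule N p).J),
      Fin1 A N p (jzModule.pt N p x) → ¬ InK1 A N p (jzModule.pt N p x) →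
      (∀ ℓ : ℕ, ℓ.Prime → ℓ ∉ S → ¬ ℓ ∣ N → ℓ ≠ p →
        (jzModule N p).T ℓ x = ((t ℓ : ℤ) : ZMod p) • x) →
      ∃ (g : CuspForm (CongruenceSubgroup.Gamma0 (N / q)) 2) (𝔪 : Ideal ZBar),
        g.IsNormalizedEigenform ∧ 𝔪.IsMaximal ∧ (p : ZBar) ∈ 𝔪 ∧
        ∀ ℓ : ℕ, ℓ.Prime → ℓ ∉ S → ¬ ℓ ∣ N → ℓ ≠ p →
          ∃ a : ZBar, (a : ℂ) = ModularFormClass.qCoeff g ℓ ∧ a - ((t ℓ : ℤ) : ZBar) ∈ 𝔪

/-- **Package BAD_q (level lowering slice), `p ≥ 5`.** -/
def Stmt_BadQ5 : Prop :=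
  ∀ (p : ℕ), p.Prime → 5 ≤ p → ∀ (N : ℕ) [NeZero N] (q : ℕ), q.Prime → q ≠ p →
    q ∣ N → ¬ q ^ 2 ∣ N →
    ∀ A : ValuationSubring (AlgebraicClosure ℚ), A.LiesOverPrime q →
      (jzModule N p).HasToricPartAt N q A

/-! ## The wiring -/

section Wiring

variable (q M : ℕ) (a b : ℤ) (hab : a * q + b * M = 1) (hq : q.Prime) [NeZero (M * q)] (p : ℕ)

/-- `w_q` commutes with the Hecke operators on `J₀(M q)[p]`. -/
theorem wTors_T (hW : Stmt_WHecke) {ℓ : ℕ} (hℓ : ℓ.Prime) (hℓN : ¬ ℓ ∣ M * q)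
    (x : (jzModule (M * q) p).J) :
    (jzModule (M * q) p).T ℓ (wTors q M a b hab hq p x) =
      wTors q M a b hab hq p ((jzModule (M * q) p).T ℓ x) := by
  rw [jzModule.T_eq (M * q) p hℓ hℓN]
  apply Subtype.ext
  exact hW q M a b hab hq ⟨ℓ, hℓ⟩ hℓN _

theorem wTors_gal (σ : GQ) (x : (jzModule (M * q) p).J) :
    (jzModule (M * q) p).gal σ (wTors q M a b hab hq p x) =
      wTors q M a b hab hq p ((jzModule (M * q) p).gal σ x) := by
  have := congrArg (fun f : Module.End (ZMod p) (JTors (M * q) p) => f x)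
    (wTors_comm_gal q M a b hab hq p σ)
  exact this.symm

/-- Scalar multiplication by an integer on the torsion module. -/
theorem coe_intCast_smul (N : ℕ) (k : ℤ) (x : JTors N p) :
    ((((k : ℤ) : ZMod p) • x : JTors N p) : JZero N) = k • (x : JZero N) := by
  rw [Int.cast_smul_eq_zsmul]
  rfl

variable (A : ValuationSubring (AlgebraicClosure ℚ))

include hab hq in
/-- **The wiring at level `M q`.** -/
theorem hasToric_of_leaves (hW : Stmt_WHecke) (hF : Stmt_FrobToric) (hC : Stmt_CompEis)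
    (hO : Stmt_Old) (hp : p.Prime) (hp5 : 5 ≤ p) (hqp : q ≠ p) (hqN : q ∣ M * q)
    (hq2 : ¬ q ^ 2 ∣ M * q) (hA : A.LiesOverPrime q) :
    (jzModule (M * q) p).HasToricPartAt (M * q) q A := by
  obtain ⟨ε, hε, hF⟩ := hF
  have hε2 : (((ε : ℤ) : ZMod p)) * ((ε : ℤ) : ZMod p) = 1 := by
    rcases hε with rfl | rfl <;> simp
  set w : Module.End (ZMod p) (JTors (M * q) p) := wTors q M a b hab hq p with hw
  refine ⟨toric q M a b hab hq p A, ((ε : ℤ) : ZMod p) • w, ?_, ?_, ?_, ?_⟩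
  · intro σ
    show (((ε : ℤ) : ZMod p) • w) * JZero.torsionGaloisRep (M * q) p σ =
      JZero.torsionGaloisRep (M * q) p σ * (((ε : ℤ) : ZMod p) • w)
    rw [smul_mul_assoc, mul_smul_comm, hw, wTors_comm_gal]
  · intro (x : JTors (M * q) p) hx
    have hx' := (mem_toric_iff q M a b hab hq p A x).1 hx
    have hwx : w x ∈ toric q M a b hab hq p A := by
      refine (mem_toric_iff q M a b hab hq p A (w x)).2 ⟨hx'.2, ?_⟩
      have h1 : wS q M a b hab hq • ((w x : JTors (M * q) p) : JZero (M * q)) =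
          ((w (w x) : JTors (M * q) p) : JZero (M * q)) := rfl
      rw [h1, hw, wTors_wTors]
      exact hx'.1
    constructor
    · exact (toric q M a b hab hq p A).smul_mem _ hwx
    · show ((ε : ℤ) : ZMod p) • w (((ε : ℤ) : ZMod p) • w x) = x
      rw [map_smul, smul_smul, hε2, one_smul, hw, wTors_wTors]
  · intro σ hσ (x : JTors (M * q) p) hx
    have hx' := (mem_toric_iff q M a b hab hq p A x).1 hx
    have hx0 : (p : ℤ) • ((x : JTors (M * q) p) : JZero (M * q)) = 0 :=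
      Pic0.mem_torsion.mp x.property
    have h := hF p hp hp5 q M a b hab hq hqp A hA σ hσ _ hx0 hx'.1 hx'.2
    show JZero.torsionGaloisRep (M * q) p σ x = (q : ZMod p) • (((ε : ℤ) : ZMod p) • w x)
    apply Subtype.ext
    rw [JZero.coe_torsionGaloisRep_apply, h, smul_smul]
    have h2 : (q : ZMod p) * ((ε : ℤ) : ZMod p) = (((ε * (q : ℤ) : ℤ)) : ZMod p) := by
      push_cast
      ring
    rw [h2, coe_intCast_smul]
    rfl
  · intro S t x hxT hI hT hNE
    have hFx := hC p hp hp5 (M * q) q hq hqp hqN hq2 A hA S t x hI hT hNE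
    by_cases h1 : InK1 A (M * q) p (jzModule.pt (M * q) p x)
    · -- then `w x ∉ K1`
      have h2 : ¬ InK1 A (M * q) p (jzModule.pt (M * q) p (w x)) := by
        intro h2
        exact hxT ((mem_toric_iff q M a b hab hq p A x).2 ⟨h1, h2⟩)
      have hI' : ∀ σ ∈ A.inertiaSubgroupIn ℚ, (jzModule (M * q) p).gal σ (w x) = w x := by
        intro σ hσ
        rw [hw, wTors_gal, hI σ hσ]
      have hT' : ∀ ℓ : ℕ, ℓ.Prime → ℓ ∉ S → ¬ ℓ ∣ M * q → ℓ ≠ p →
          (jzModule (M * q) p).T ℓ (w x) = ((t ℓ : ℤ) : ZMod p) • w x := by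
        intro ℓ hℓ hℓS hℓN hℓp
        rw [hw, wTors_T q M a b hab hq p hW hℓ hℓN, hT ℓ hℓ hℓS hℓN hℓp]
        exact map_smul (wTors q M a b hab hq p) _ _
      have hFw := hC p hp hp5 (M * q) q hq hqp hqN hq2 A hA S t (w x) hI' hT' hNE
      exact hO p hp hp5 (M * q) q hq hqp hqN hq2 A hA S t (w x) hFw h2 hT'
    · exact hO p hp hp5 (M * q) q hq hqp hqN hq2 A hA S t x hFx h1 hT

end Wiring

/-- **`Stmt_BadQ5` from the four leaves.** -/
theorem badQ5_of_leaves (hW : Stmt_WHecke) (hF : Stmt_FrobToric) (hC : Stmt_CompEis)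
    (hO : Stmt_Old) : Stmt_BadQ5 := by
  intro p hp hp5 N _ q hq hqp hqN hq2 A hA
  obtain ⟨M, rfl⟩ : ∃ M, N = M * q := ⟨N / q, (Nat.div_mul_cancel hqN).symm⟩
  have hqM : ¬ q ∣ M := by
    rintro ⟨k, rfl⟩
    exact hq2 ⟨k, by ring⟩
  have hcop : IsCoprime (q : ℤ) (M : ℤ) :=
    Nat.isCoprime_iff_coprime.2 ((Nat.Prime.coprime_iff_not_dvd hq).2 hqM)
  obtain ⟨a, b, hab⟩ := hcop
  exact hasToric_of_leaves q M a b hab hq p A hW hF hC hO hp hp5 hqp hqN hq2 hA

/-! ## S43 from `Stmt_BadQ5` -/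

section S43

open WeierstrassCurve WeierstrassCurve.Affine WeierstrassCurve.Affine.Point
open scoped WeierstrassCurve.Affine

/-- The core of S43 from the packages (`p ≥ 5` version of `S43.lowerConcl_of`). -/
theorem lowerConcl_of5 (h1 : Stmt_TateModP) (h2 : Stmt_BadQ5) (h3 : _root_.Fermat.Agent.S43.Stmt_Pivot)
    (P : FreyPackage) {N q : ℕ} (hcond : P.IsConductorLevel N) (hq : q.Prime) (hq2 : q ≠ 2)
    (hqp : q ≠ P.p) (hqN : q ∣ N)
    (hirr : GaloisRepIsIrreducible (K := AlgebraicClosure ℚ) ℚ P.freyCurve P.p)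
    (hunr : P.GaloisRepUnramifiedAt q)
    (f : CuspForm (CongruenceSubgroup.Gamma0 N) 2) (W : WeierstrassCurve ℤ)
    (𝔪 : Ideal (integralClosure ℤ ℂ)) (hf : f.IsNormalizedEigenform)
    (hW : W.IsIntegralModelOf P.freyCurve)
    (h𝔪 : 𝔪.IsMaximal) (hp𝔪 : (P.p : integralClosure ℤ ℂ) ∈ 𝔪)
    (hcong : ∀ ℓ : ℕ, ℓ.Prime → W.IsGoodPrimeFor ℓ → ¬ ℓ ∣ N → ℓ ≠ P.p →
      ∃ a : integralClosure ℤ ℂ, (a : ℂ) = ModularFormClass.qCoeff f ℓ ∧
        a - ((W.apOfModel ℓ : ℤ) : integralClosure ℤ ℂ) ∈ 𝔪) :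
    LowerConcl P.p N q W := by
  have hp : P.p.Prime := P.pp
  have hp5 : 5 ≤ P.p := P.hp5
  have hp2 : P.p ≠ 2 := by omega
  have hΔ : W.Δ ≠ 0 := integralModel_Δ_ne_zero P hW
  have : NeZero N := ⟨hcond.pos.ne'⟩
  obtain ⟨A, hAq⟩ := stmt_PlaceOver q hq
  by_cases hexc : ∃ c : ZMod P.p, ∀ σ : GQ, A.IsFrobeniusAt σ q → ∀ v : Tors P.freyCurve P.p,
      galoisRepModuleEnd (S := ℚ) (K := AlgebraicClosure ℚ) P.freyCurve.toAffine P.p σ v = c • v
  · exact h3 P N q hcond hq hq2 hqp hqN hirr hunr f W 𝔪 hf hW h𝔪 hp𝔪 hcong A hAq hexc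
  · obtain ⟨hcont, hES, hsupp⟩ := h1 P.p hp hp2 N
    set S : Finset ℕ := W.Δ.natAbs.primeFactors with hS
    have hgood : ∀ ℓ : ℕ, ℓ.Prime → ℓ ∉ S → W.IsGoodPrimeFor ℓ := fun ℓ hℓ h =>
      prime_not_mem_of_good hℓ hΔ h
    obtain ⟨x, hx0, hx⟩ := hsupp f 𝔪 S (fun ℓ => W.apOfModel ℓ) hf h𝔪 hp𝔪
      (fun ℓ hℓ hℓS hℓN hℓp => hcong ℓ hℓ (hgood ℓ hℓ hℓS) hℓN hℓp)
    obtain ⟨ι, hinj, hequiv, hT⟩ := Fermat.Agent.L.H52.recovery P.p hp hp2 N hcond.pos
      (jzModule N P.p) hcont hES P.freyCurve W hW hirr S hgood x hx0 hx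
    have hNE : ∃ ℓ : ℕ, ℓ.Prime ∧ ℓ ∉ S ∧ ¬ ℓ ∣ N ∧ ℓ ≠ P.p ∧
        ((W.apOfModel ℓ : ℤ) : ZMod P.p) ≠ 1 + (ℓ : ZMod P.p) := by
      obtain ⟨ℓ, hℓ, hℓW, hℓN, hℓp, hne⟩ := stmt_NonEis P W hW N hcond.pos hirr
      refine ⟨ℓ, hℓ, ?_, hℓN, hℓp, hne⟩
      intro hmem
      rw [hS, Nat.mem_primeFactors] at hmem
      exact hℓW (Int.natCast_dvd.mpr hmem.2.1)
    have hq2N : ¬ q ^ 2 ∣ N := hcond.sq_not_dvd hq
    have hrem := removesQ_of_toric hp hp2 (jzModule N P.p) N q A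
      (h2 P.p hp hp5 N q hq hqp hqN hq2N A hAq)
    obtain ⟨g, 𝔪', hg, h𝔪', hp𝔪', hgc⟩ := hrem (Tors P.freyCurve P.p)
      (galoisRepModuleEnd (S := ℚ) (K := AlgebraicClosure ℚ) P.freyCurve.toAffine P.p)
      ι S (fun ℓ => W.apOfModel ℓ)
      (fun W' hW' => hirr.2 W' (fun σ x hx => hW' σ x hx))
      (fun σ hσ v => hunr A hAq σ hσ v)
      hexc hinj (fun σ v => hequiv σ v) hT hNE
    exact ⟨g, 𝔪', S, hg, h𝔪', hp𝔪', fun ℓ hℓ hℓS hℓN hℓp _ => hgc ℓ hℓ hℓS hℓN hℓp⟩

/-- **S43 from the Tate package mod `p`, BAD_q for `p ≥ 5` and PIVOT.**  The conclusion is the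
frozen statement S43. -/
theorem result_of_leaves5 (h1 : Stmt_TateModP) (h2 : Stmt_BadQ5) (h3 : _root_.Fermat.Agent.S43.Stmt_Pivot)
    (P : FreyPackage) {N q : ℕ}
    (hcond : P.IsConductorLevel N) (hq : q.Prime) (hq2 : q ≠ 2) (hqp : q ≠ P.p) (hqN : q ∣ N)
    (hirr : GaloisRepIsIrreducible (K := AlgebraicClosure ℚ) ℚ P.freyCurve P.p)
    (hmod : P.ModularRepOfLevel N) (hunr : P.GaloisRepUnramifiedAt q) :
    ∃ M : ℕ, M ∣ N ∧ ¬ q ∣ M ∧ P.ModularRepOfLevel M := by
  obtain ⟨f, W, 𝔪, hf, hW, h𝔪, hp𝔪, hcong⟩ := hmod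
  exact result_of_lowerConcl P hcond hq hqN W hW
    (lowerConcl_of5 h1 h2 h3 P hcond hq hq2 hqp hqN hirr hunr f W 𝔪 hf hW h𝔪 hp𝔪 hcong)

/-- **S43 from the leaves of BAD_q.** -/
theorem result_of_badq_leaves (h1 : Stmt_TateModP) (hW : Stmt_WHecke) (hF : Stmt_FrobToric)
    (hC : Stmt_CompEis) (hO : Stmt_Old) (h3 : _root_.Fermat.Agent.S43.Stmt_Pivot)
    (P : FreyPackage) {N q : ℕ}
    (hcond : P.IsConductorLevel N) (hq : q.Prime) (hq2 : q ≠ 2) (hqp : q ≠ P.p) (hqN : q ∣ N)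
    (hirr : GaloisRepIsIrreducible (K := AlgebraicClosure ℚ) ℚ P.freyCurve P.p)
    (hmod : P.ModularRepOfLevel N) (hunr : P.GaloisRepUnramifiedAt q) :
    ∃ M : ℕ, M ∣ N ∧ ¬ q ∣ M ∧ P.ModularRepOfLevel M :=
  result_of_leaves5 h1 (badQ5_of_leaves hW hF hC hO) h3 P hcond hq hq2 hqp hqN hirr hmod hunr

end S43

end Fermat.Agent.S43.BadQ

end
end
-- ==== END Fermat.Agent.S43.BadQ

-- ==== BEGIN Fermat.Agent.S44.TateModP2
section

set_option autoImplicit false

open WeierstrassCurve WeierstrassCurve.Affine WeierstrassCurve.Affine.Point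
open scoped WeierstrassCurve.Affine

namespace Fermat.Agent.S44

open Fermat.Agent.GTor Fermat.Agent.GTor.H81

/-- The torsion dictionary of `J₀(N)` at a prime `p`. -/
theorem jz_torc (N p : ℕ) [NeZero N] (hp : p.Prime) : Stmt_TORc N p :=
  stmt_TORc N p hp.ne_zero (Clo.stmt_A3 N) (Clo.stmt_A4 N) (Clo.stmt_A5 N)
    (H75.stmt_DESC N p hp.ne_zero)

/-- `J₀(N)[p]` is finite, the Galois action factors through a number field, the Hecke operators
commute with each other and with the Galois action. -/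
theorem jz_isContinuous_uncond (N p : ℕ) [NeZero N] (hp : p.Prime) :
    (jzModule N p).IsContinuous :=
  jz_isContinuous hp (jz_torc N p hp) (H44.stmt_HK N p)

/-- Every eigenform of level `N` has an eigenvector in `J₀(N)[p]`. -/
theorem jz_hasSupport_uncond (N p : ℕ) [NeZero N] (hp : p.Prime) :
    (jzModule N p).HasSupport N :=
  jz_hasSupport hp (jz_torc N p hp) (H44.stmt_HK N p)

/-- **Package A1** from the reduction packages of G-RED. -/
theorem stmt_TateModP_of_red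
    (hRed : ∀ (N : ℕ) [NeZero N] (p : ℕ), p.Prime → AllRed N p) : Stmt_TateModP :=
  stmt_TateModP_of (fun N _ p hp => H75.stmt_DESC N p hp.ne_zero)
    (fun N _ p _ => H44.stmt_HK N p) hRed

/-- **S44 from the open packages**: the reduction packages of G-RED, BAD_p and the local analysis
of the Frey curve at `p`.  The conclusion is the frozen statement S44. -/
theorem result_of_red
    (hRed : ∀ (N : ℕ) [NeZero N] (p : ℕ), p.Prime → AllRed N p)
    (h2 : Stmt_BadP) (hC : Stmt_FreyFiniteAtP)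
    (P : FreyPackage) {N : ℕ} (hcond : P.IsConductorLevel N) (hpN : P.p ∣ N)
    (hirr : GaloisRepIsIrreducible (K := AlgebraicClosure ℚ) ℚ P.freyCurve P.p)
    (hmod : P.ModularRepOfLevel N) :
    ∃ M : ℕ, M ∣ N ∧ ¬ P.p ∣ M ∧ P.ModularRepOfLevel M :=
  result_of_leaves (stmt_TateModP_of_red hRed) h2 hC P hcond hpN hirr hmod

end Fermat.Agent.S44

end
-- ==== END Fermat.Agent.S44.TateModP2

-- ==== BEGIN Fermat.Agent.S52.H5_UnipCoreTwo
section

set_option autoImplicit false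

namespace Fermat.Agent.S52.H5

open WeierstrassCurve WeierstrassCurve.Affine
open Fermat.Agent.S13.WP3

section core

variable {L : Type*} [Field L] [DecidableEq L]

/-- The component map (model at `2`) is invariant under a shifted inertia map. -/
theorem compMap_shift_two (A : ValuationSubring L) (W : Affine L) (hyp : ModelHyp2 A W)
    (lam : L) (hlam : lam ^ 2 + lam = W.a₂)
    (σ : L →+* L) (s : W.Point →+ W.Point) (hs : ShiftedInertia A W σ s) (P : W.Point) :
    M1.compMap hyp lam (s P) = M1.compMap hyp lam P := by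
  have hb := hyp.b_lt
  rcases P with _ | ⟨x, y, h⟩
  · show M1.compMap hyp lam (s 0) = M1.compMap hyp lam 0
    rw [map_zero]
  obtain ⟨x', y', h', hsP, hxs, hys⟩ := hs.map_some x y h
  rw [hsP]
  have hl1 : A.valuation lam ≤ 1 := M1.val_lam hyp hlam
  by_cases hx1 : 1 ≤ A.valuation x
  · have hx1' : 1 ≤ A.valuation x' := by
      rw [val_shift_eq hs.val_eq hxs (lt_of_lt_of_le hb hx1)]; exact hx1
    rw [M1.compMap_of_one_le hyp lam h hx1, M1.compMap_of_one_le hyp lam h' hx1']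
  push Not at hx1
  by_cases hxb : A.valuation x ≤ A.valuation W.a₄
  · rw [M1.compMap_of_le_b hyp lam h hxb,
      M1.compMap_of_le_b hyp lam h' (val_shift_le hs.val_eq hxs hxb)]
  push Not at hxb
  have hvx' : A.valuation x' = A.valuation x := val_shift_eq hs.val_eq hxs hxb
  have hx0 : x ≠ 0 := by
    rintro rfl
    rw [map_zero] at hxb
    exact not_lt_zero hxb
  have hx0' : x' ≠ 0 := by
    intro h0
    rw [h0, map_zero] at hvx'
    rw [← hvx'] at hxb
    exact not_lt_zero hxb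
  have hvu : valUnit A x' hx0' = valUnit A x hx0 := by
    apply Units.ext
    simp [valUnit, hvx']
  have hxb' : A.valuation W.a₄ < A.valuation x' := by rw [hvx']; exact hxb
  have hx1' : A.valuation x' < 1 := by rw [hvx']; exact hx1
  by_cases ht : A.valuation (y - lam * x) < A.valuation x
  · have ht' : A.valuation (y' - lam * x') < A.valuation x' :=
      branch_shift hs.val_eq hs.res hxs hys hxb hl1 ht
    rw [M1.compMap_of_C hyp lam h hx0 hxb hx1 ht, M1.compMap_of_C hyp lam h' hx0' hxb' hx1' ht',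
      hvu]
  · have hm : A.valuation (y - (-1 - lam) * x) < A.valuation x := by
      rcases M1.mid_or hyp hlam h hxb hx1 with h1 | h1
      · exact absurd h1 ht
      · exact h1
    have hl2 : A.valuation (-1 - lam) ≤ 1 := by
      have e : (-1 - lam : L) = -(1 + lam) := by ring
      rw [e, Valuation.map_neg]
      exact Valuation.map_add_le _ (by rw [map_one]) hl1
    have hm' : A.valuation (y' - (-1 - lam) * x') < A.valuation x' :=
      branch_shift hs.val_eq hs.res hxs hys hxb hl2 hm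
    have ht' : ¬ A.valuation (y' - lam * x') < A.valuation x' :=
      fun hcon => M1.mid_not_both hyp hlam hx0' hcon hm'
    rw [M1.compMap_of_not_C hyp lam h hx0 hxb hx1 ht,
      M1.compMap_of_not_C hyp lam h' hx0' hxb' hx1' ht', hvu]

/-- A shifted inertia map moves every point inside its `E₀`-coset (model at `2`). -/
theorem inE0_shift_sub_two (A : ValuationSubring L) (W : Affine L) (hyp : ModelHyp2 A W)
    (lam : L) (hlam : lam ^ 2 + lam = W.a₂)
    (σ : L →+* L) (s : W.Point →+ W.Point) (hs : ShiftedInertia A W σ s) (P : W.Point) :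
    InE0 A (s P - P) := by
  let φ : W.Point →+ Additive (CompGroup hyp) :=
    AddMonoidHom.mk' (M1.compMap hyp lam)
      (M1.compMap_add hyp H6.E0_add H6.E0C H4.cc H4.addT hlam)
  have hφ : ∀ Q, φ Q = M1.compMap hyp lam Q := fun _ => rfl
  have h0 : φ (s P - P) = 0 := by
    rw [map_sub, hφ, hφ, compMap_shift_two A W hyp lam hlam σ s hs P, sub_self]
  rw [hφ] at h0
  exact (M1.compMap_eq_zero_iff hyp (s P - P)).1 h0

/-- A shifted inertia map moves every point of `E₀` inside its `E₁`-coset (model at `2`). -/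
theorem inE1_shift_sub_two (A : ValuationSubring L) (W : Affine L) (hyp : ModelHyp2 A W)
    (σ : L →+* L) (s : W.Point →+ W.Point) (hs : ShiftedInertia A W σ s) (Q : W.Point)
    (hQ : InE0 A Q) : InE1 A (s Q - Q) := by
  have hb := hyp.b_lt
  rcases Q with _ | ⟨x, y, h⟩
  · show InE1 A (s 0 - 0)
    rw [map_zero, sub_zero]; trivial
  obtain ⟨x', y', h', hsP, hxs, hys⟩ := hs.map_some x y h
  rw [hsP]
  have hx1 : 1 ≤ A.valuation x := hQ
  have hvx' : A.valuation x' = A.valuation x := val_shift_eq hs.val_eq hxs (lt_of_lt_of_le hb hx1)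
  rcases hx1.lt_or_eq with hgt | heq1
  · rw [sub_eq_add_neg]
    refine Fermat.Agent.S13.WP3.H5.E1_add2 A W hyp _ _ ?_
      (Fermat.Agent.S13.WP3.H5.E1_neg2 A W hyp _ hgt)
    show 1 < A.valuation x'
    rw [hvx']; exact hgt
  · have hx : A.valuation x = 1 := heq1.symm
    have hy1 : A.valuation y ≤ 1 := Fermat.Agent.S13.WP3.H5.val_y_le_one hyp h hx.le
    refine H38.sameRed A W hyp x' y' x y h' h (by rw [hvx', hx]) ?_ ?_
    · have e : x' - x = (x' - σ x) + (σ x - x) := by ring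
      rw [e]
      exact Valuation.map_add_lt _ (lt_of_le_of_lt hxs hb) (hs.res x hx.le)
    · have e : y' - y = (y' - σ y) + (σ y - y) := by ring
      rw [e]
      exact Valuation.map_add_lt _ (lt_of_le_of_lt hys hb) (hs.res y hy1)

/-- **Unipotent core, model at `2`.**  On the model `y² + x y = x³ + a x² + b x`, `|b| < 1`,
`|2| < 1`, a shifted inertia map `s` satisfies `(s - 1)² = 0` on the `n`-torsion, `n` a unit
of `A`. -/
theorem core_two (A : ValuationSubring L) (W : Affine L) (hyp : ModelHyp2 A W)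
    (lam : L) (hlam : lam ^ 2 + lam = W.a₂)
    (n : ℕ) (hn : A.valuation (n : L) = 1)
    (σ : L →+* L) (s : W.Point →+ W.Point) (hs : ShiftedInertia A W σ s)
    (P : W.Point) (hP : n • P = 0) : s (s P - P) = s P - P := by
  have hD0 : InE0 A (s P - P) := inE0_shift_sub_two A W hyp lam hlam σ s hs P
  have hD1 : InE1 A (s (s P - P) - (s P - P)) := inE1_shift_sub_two A W hyp σ s hs _ hD0
  by_contra hne
  have hne' : s (s P - P) - (s P - P) ≠ 0 := fun h => hne (sub_eq_zero.1 h)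
  apply Fermat.Agent.S13.WP3.H5.F1_2 A W hyp _ hD1 hne' n hn
  have h1 : n • (s P - P) = 0 := by
    rw [smul_sub, ← map_nsmul, hP, map_zero, sub_zero]
  rw [smul_sub, ← map_nsmul, h1, map_zero, sub_zero]

end core

end Fermat.Agent.S52.H5

end
-- ==== END Fermat.Agent.S52.H5_UnipCoreTwo

-- ==== BEGIN Fermat.Agent.S52.H5_UnipTransfer
section

set_option autoImplicit false

namespace Fermat.Agent.S52.H5

open WeierstrassCurve WeierstrassCurve.Affine
open Fermat.Agent.Lib.PointVariableChange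

variable {L : Type*} [Field L] [DecidableEq L]

/-- An additive self-map of the points acting on coordinates by an inertia-like `σ`. -/
structure InertiaOn (A : ValuationSubring L) (E : Affine L) (σ : L →+* L)
    (sE : E.Point →+ E.Point) : Prop where
  val_eq : ∀ x, A.valuation (σ x) = A.valuation x
  res : ∀ x, A.valuation x ≤ 1 → A.valuation (σ x - x) < 1
  map_some : ∀ (x y : L) (h : E.Nonsingular x y),
    ∃ h' : E.Nonsingular (σ x) (σ y), sE (.some x y h) = .some (σ x) (σ y) h'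

/-- The conjugate of `sE` by the change of variables `C`. -/
noncomputable def conjVC (E : Affine L) (C : VariableChange L) (sE : E.Point →+ E.Point) :
    (C • E).toAffine.Point →+ (C • E).toAffine.Point :=
  (equiv E C).symm.toAddMonoidHom.comp (sE.comp (equiv E C).toAddMonoidHom)

lemma equiv_conjVC (E : Affine L) (C : VariableChange L) (sE : E.Point →+ E.Point)
    (Q : (C • E).toAffine.Point) : equiv E C (conjVC E C sE Q) = sE (equiv E C Q) := by
  simp [conjVC]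

lemma conjVC_eq_iff (E : Affine L) (C : VariableChange L) (sE : E.Point →+ E.Point)
    (Q R : (C • E).toAffine.Point) : conjVC E C sE Q = R ↔ sE (equiv E C Q) = equiv E C R := by
  rw [← equiv_conjVC]
  exact ⟨fun h => by rw [h], fun h => (equiv E C).injective h⟩

/-- The conjugate of an inertia map by a change of variables is a shifted inertia map. -/
theorem shifted_of_varChange (A : ValuationSubring L) (E : Affine L) (σ : L →+* L)
    (sE : E.Point →+ E.Point) (hI : InertiaOn A E σ sE) (C : VariableChange L)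
    (hu : σ (C.u : L) = C.u) (hs : σ C.s = C.s) (d₁ d₂ : L)
    (hd₁ : σ C.r = C.r + (C.u : L) ^ 2 * d₁)
    (hd₂ : σ C.t = C.t + (C.u : L) ^ 3 * d₂ + (C.u : L) ^ 2 * C.s * d₁)
    (h₁ : A.valuation d₁ ≤ A.valuation (C • E).a₄)
    (h₂ : A.valuation d₂ ≤ A.valuation (C • E).a₄) :
    ShiftedInertia A (C • E).toAffine σ (conjVC E C sE) where
  val_eq := hI.val_eq
  res := hI.res
  map_some := by
    intro X Y h
    obtain ⟨h', hsE⟩ := hI.map_some _ _ ((nonsingular_vc E C X Y).mpr h)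
    have eX : vcX C (σ X + d₁) = σ (vcX C X) := by
      simp only [vcX, map_add, map_mul, map_pow, hu, hd₁]; ring
    have eY : vcY C (σ X + d₁) (σ Y + d₂) = σ (vcY C X Y) := by
      simp only [vcY, map_add, map_mul, map_pow, hu, hs, hd₂]; ring
    have hns : (C • E).toAffine.Nonsingular (σ X + d₁) (σ Y + d₂) := by
      rw [← nonsingular_vc, eX, eY]; exact h'
    refine ⟨σ X + d₁, σ Y + d₂, hns, ?_, ?_, ?_⟩
    · rw [conjVC_eq_iff, equiv_some, equiv_some, hsE]
      simp only [eX, eY]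
    · have : σ X + d₁ - σ X = d₁ := by ring
      rw [this]; exact h₁
    · have : σ Y + d₂ - σ Y = d₂ := by ring
      rw [this]; exact h₂

/-- Transport of the unipotency statement back to `E`. -/
theorem unip_of_conjVC (E : Affine L) (C : VariableChange L) (sE : E.Point →+ E.Point) (n : ℕ)
    (hcore : ∀ Q : (C • E).toAffine.Point, n • Q = 0 →
      conjVC E C sE (conjVC E C sE Q - Q) = conjVC E C sE Q - Q)
    (P : E.Point) (hP : n • P = 0) : sE (sE P - P) = sE P - P := by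
  have hQ : n • (equiv E C).symm P = 0 := by
    rw [← map_nsmul, hP, map_zero]
  have h := hcore _ hQ
  have h2 := congrArg (equiv E C) h
  rw [equiv_conjVC, map_sub, map_sub, equiv_conjVC, AddEquiv.apply_symm_apply] at h2
  rw [map_sub]
  exact h2

end Fermat.Agent.S52.H5

end
-- ==== END Fermat.Agent.S52.H5_UnipTransfer
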