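-- GENERATED (merged mirror, NOTES/tools/trim/merge3_helper67.py): 9 modules of the originals, bodies verbatim.
import Fermat.Agent.Zm.S44_L07_000
import Fermat.Agent.Zm.S33_L03_000
import Fermat.Agent.Zm.S44_L01_001
import Fermat.Agent.Zm.S44_L01_003
import Fermat.Agent.GTor.H2_Equivariance
import Fermat.Agent.Zm.S35_L13_000
import Fermat.Agent.Zm.S44_L01_004
import Fermat.Agent.Zm.S44_L03_003
import Fermat.Agent.RED.HR.H78_HRAbs
import Fermat.Agent.Zm.S44_L02_001
import Fermat.Agent.Lib.EllFinite.H4_RedVal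
import Fermat.Agent.Lib.EllFinite.H4_RedOf
import Fermat.Agent.Lib.EllFinite.H46_RedTors

-- ==== BEGIN Fermat.Agent.BADP.H97_EisCorr
section

/-!
# S44 (row 38), package EIS-ABS (helper97), part 2: the correction factors of D-CORE'

`T : PRed K F k F'`, `θ` a constant of the maximal ideal, `σ` a semilinear automorphism.

* `isFC_of_val_sigma_div` : (K3) `⇒` `G / σ G ≡ 1 + m θ`;
* `isFC_coord` : `(s - a) / s ≡ 1 + 0 θ` if `v a ≤ v θ ^ 2`;
* `ord_corr` : the order of `H (G / σ G) x`;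
* `exists_corr_good` : the correction factor at a good place (hypothesis `hR` of
  `SSD.dcore_gen`).

Plan: `NOTES/plan/L_S44.md` §12.2 (d3), (d4).
-/

set_option autoImplicit false
set_option linter.style.haveILetI false
set_option linter.unusedSectionVars false

noncomputable section

open AlgebraicCurve

attribute [local instance] Classical.propDecidable

namespace Fermat.Agent.BADP.H97

open Fermat.Agent.RED.H17 Fermat.Agent.RED Fermat.Agent.BAD

section FC2

variable {K F k F' : Type*} [Field K] [Field F] [Algebra K F] [Field k] [Field F']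
  [Algebra k F'] {T : PRed K F k F'} {θ : K} {σ : SemilinearAut K F}

theorem smul_ne_zero_of_ne {G : F} (hG : G ≠ 0) : σ • G ≠ 0 := by
  rw [SemilinearAut.smul_def]
  exact (map_ne_zero_iff _ (SemilinearAut.toRingAut σ).injective).mpr hG

/-- (K3) `⇒` first order: if `v (σ G / G - (1 - m θ)) ≤ v θ ^ 2` then `G / σ G ≡ 1 + m θ`. -/
theorem isFC_of_val_sigma_div (hθ : algebraMap K F θ ∈ T.V)
    (hθ0 : T.rd (algebraMap K F θ) = 0) (hθne : θ ≠ 0) {G : F} (m : ℤ)
    (h : T.V.valuation ((σ • G) / G - (1 - (m : F) * algebraMap K F θ)) ≤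
      T.V.valuation (algebraMap K F θ) ^ 2) :
    T.IsFC θ (G / (σ • G)) (m : F') := by
  have hθF : algebraMap K F θ ≠ 0 := (map_ne_zero_iff _ (algebraMap K F).injective).mpr hθne
  set y : F := ((σ • G) / G - (1 - (m : F) * algebraMap K F θ)) / algebraMap K F θ ^ 2 with hy
  have hym : y ∈ T.V := by
    rw [pv_mem_iff, hy, map_div₀, map_pow]
    exact div_le_one_of_le₀ h zero_le
  have hmm : (m : F) ∈ T.V := intCast_mem T.V m
  have hmr : T.rd (m : F) = (m : F') := by
    have := (rd_intCast (K := K) T m).2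
    rwa [map_intCast] at this
  have e1 : (σ • G) / G = 1 + algebraMap K F θ * (-(m : F) + algebraMap K F θ * y) := by
    rw [hy]
    field_simp
    ring
  have hΛ : -(m : F) + algebraMap K F θ * y ∈ T.V :=
    T.V.add_mem _ _ (T.V.neg_mem _ hmm) (T.V.mul_mem _ _ hθ hym)
  have hΛr : T.rd (-(m : F) + algebraMap K F θ * y) = -(m : F') := by
    rw [T.rd_add (T.V.neg_mem _ hmm) (T.V.mul_mem _ _ hθ hym), T.rd_neg hmm, hmr,
      T.rd_mul hθ hym, hθ0, zero_mul, add_zero]
  have h1 : T.IsFC θ ((σ • G) / G) (-(m : F')) := ⟨_, hΛ, hΛr, e1⟩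
  have h2 := h1.inv hθ hθ0
  rwa [inv_div, neg_neg] at h2

/-- `(s - a) / s ≡ 1 + 0 θ` if `v a ≤ v θ ^ 2`. -/
theorem isFC_coord (hθ : algebraMap K F θ ∈ T.V) (hθ0 : T.rd (algebraMap K F θ) = 0)
    (hθne : θ ≠ 0) {s : F} (hs : T.IsGU s) {a : K}
    (ha : T.V.valuation (algebraMap K F a) ≤ T.V.valuation (algebraMap K F θ) ^ 2) :
    T.IsFC θ ((s - algebraMap K F a) / s) 0 := by
  have hθF : algebraMap K F θ ≠ 0 := (map_ne_zero_iff _ (algebraMap K F).injective).mpr hθne
  refine PRed.isFC_of_sq hθ hθ0 hθne ?_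
  have hs0 := hs.ne_zero
  have e : ((s - algebraMap K F a) / s - 1) / algebraMap K F θ ^ 2 =
      -(algebraMap K F a / algebraMap K F θ ^ 2 * s⁻¹) := by
    field_simp
    ring
  rw [e]
  refine T.V.neg_mem _ (T.V.mul_mem _ _ ?_ hs.inv_mem)
  rw [pv_mem_iff, map_div₀, map_pow]
  exact div_le_one_of_le₀ ha zero_le

/-- (K2) `⇒` first order, valuation form. -/
theorem isFC_of_val_sigma_sub (hθ : algebraMap K F θ ∈ T.V)
    (hθ0 : T.rd (algebraMap K F θ) = 0) (hθne : θ ≠ 0) {G : F} (hG : T.IsGU G)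
    (h : T.V.valuation (σ • G - G) ≤ T.V.valuation (algebraMap K F θ) ^ 2) :
    T.IsFC θ (G / (σ • G)) 0 := by
  refine isFC_div_smul_of_sq hθ hθ0 hθne hG ?_
  rw [pv_mem_iff, map_div₀, map_pow]
  exact div_le_one_of_le₀ h zero_le

end FC2

section Ord

variable {K F : Type*} [Field K] [Field F] [Algebra K F] {σ : SemilinearAut K F}

/-- The order of `H (G / σ G) x` at `P`. -/
theorem ord_corr {p : ℕ} (hp : p ≠ 0) {f Hn F0c G x : F} {P : Place K F}
    (hHn : (p : ℤ) * P.ord Hn = (σ⁻¹ • P).ord f - P.ord f - P.ord F0c)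
    (hG0 : G ≠ 0) (hG : (p : ℤ) * P.ord G = P.ord f)
    (hG' : (p : ℤ) * (σ⁻¹ • P).ord G = (σ⁻¹ • P).ord f)
    (hx0 : x ≠ 0) (hx : P.ord F0c = p * P.ord x) :
    0 ≤ P.ord (Hn * (G / (σ • G) * x)) := by
  rcases eq_or_ne Hn 0 with rfl | hH0
  · rw [zero_mul, Place.ord_zero]
  have hσG : σ • G ≠ 0 := smul_ne_zero_of_ne hG0
  rw [P.ord_mul hH0 (mul_ne_zero (div_ne_zero hG0 hσG) hx0),
    P.ord_mul (div_ne_zero hG0 hσG) hx0, Fermat.Agent.RED.H17.ord_div P hG0 hσG,
    ord_smul_inv]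
  have hpZ : (0 : ℤ) < p := by exact_mod_cast Nat.pos_of_ne_zero hp
  have h0 : (p : ℤ) * (P.ord Hn + (P.ord G - (σ⁻¹ • P).ord G + P.ord x)) = 0 := by
    rw [mul_add, mul_add, mul_sub, hHn, hG, hG', hx]
    ring
  rcases mul_eq_zero.mp h0 with h1 | h1
  · omega
  · exact le_of_eq h1.symm

end Ord

section Good

variable {K F k F' : Type*} [Field K] [Field F] [Algebra K F] [Field k] [Field F']
  [Algebra k F'] (T : PRed K F k F')

/-- The divisor `div f / p`. -/
def divQuot (hP : HasPrincipalDivisors K F) (f : F) (p : ℕ) : Place K F →₀ ℤ :=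
  (dv hP f).mapRange (fun n => n / (p : ℤ)) (by simp)

theorem divQuot_apply (hP : HasPrincipalDivisors K F) (f : F) (p : ℕ) (P : Place K F) :
    divQuot hP f p P = P.ord f / (p : ℤ) := by
  rw [divQuot, Finsupp.mapRange_apply, dv_apply]

theorem mul_divQuot (hP : HasPrincipalDivisors K F) {f : F} {p : ℕ}
    (hdiv : ∀ P : Place K F, (p : ℤ) ∣ P.ord f) (P : Place K F) :
    (p : ℤ) * divQuot hP f p P = P.ord f := by
  rw [divQuot_apply]
  exact Int.mul_ediv_cancel' (hdiv P)

theorem divQuot_smul (hP : HasPrincipalDivisors K F) {f : F} (p : ℕ) {τ : SemilinearAut K F}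
    (hτ : τ • f = f) (P : Place K F) : divQuot hP f p (τ • P) = divQuot hP f p P := by
  rw [divQuot_apply, divQuot_apply]
  have := SemilinearAut.ord_smul τ P f
  rw [hτ] at this
  rw [this]

/-- **The correction factor at a good place** (hypothesis `hR` of `SSD.dcore_gen`). -/
theorem exists_corr_good (hP : HasPrincipalDivisors K F) (hdeg : ∀ v : Place K F, v.deg = 1)
    {θ : K} (hθ : algebraMap K F θ ∈ T.V) (hθ0 : T.rd (algebraMap K F θ) = 0) (hθne : θ ≠ 0)
    {σ : SemilinearAut K F} (hσr : ∀ P : Place K F, T.r (σ • P) = T.r P)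
    {𝓘2 : Set (SemilinearAut K F)} (h𝓘2 : ∀ τ ∈ 𝓘2, ∀ P : Place K F, T.r (τ • P) = T.r P)
    (hK2 : ∀ y : F, (∀ τ ∈ 𝓘2, τ • y = y) → T.V.valuation y ≤ 1 →
      T.V.valuation (σ • y - y) ≤ T.V.valuation (algebraMap K F θ) ^ 2)
    {p : ℕ} (hp : p ≠ 0) {f : F} (hdiv : ∀ P : Place K F, (p : ℤ) ∣ P.ord f)
    (hffix : ∀ τ ∈ 𝓘2, τ • f = f) {Hn F0c : F}
    (hHn : ∀ P : Place K F,
      (p : ℤ) * P.ord Hn = (σ⁻¹ • P).ord f - P.ord f - P.ord F0c)
    {Q : Place k F'} {t : F} (ht : T.IsCoord t Q) (htfix : ∀ τ ∈ 𝓘2, τ • t = t)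
    {x : F} (hx0 : x ≠ 0) (hx : T.IsFC θ x 0)
    (hxord : ∀ P : Place K F, T.r P = some Q → P.ord F0c = p * P.ord x) :
    ∃ (c : F) (l : k), T.IsFC θ c (algebraMap k F' l) ∧
      ∀ P : Place K F, T.r P = some Q → 0 ≤ P.ord (Hn * c) := by
  obtain ⟨G, hGfix, hGord, hGU⟩ := local_good T hP hdeg ht 𝓘2
    (fun τ hτ => ⟨h𝓘2 τ hτ, htfix τ hτ⟩) (divQuot hP f p)
    (fun τ hτ P _ => divQuot_smul hP p (hffix τ hτ) P)
  have hFC : T.IsFC θ (G / (σ • G)) 0 :=
    isFC_of_val_sigma_sub hθ hθ0 hθne hGU (hK2 G hGfix ((pv_mem_iff G).1 hGU.1))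
  refine ⟨G / (σ • G) * x, 0, ?_, fun P hPQ => ?_⟩
  · have := hFC.mul hθ hθ0 hx
    rwa [add_zero, ← map_zero (algebraMap k F')] at this
  · have hσP : T.r (σ⁻¹ • P) = some Q := by
      have := hσr (σ⁻¹ • P)
      rw [smul_inv_smul] at this
      rw [← this]
      exact hPQ
    refine ord_corr hp (hHn P) hGU.ne_zero ?_ ?_ hx0 (hxord P hPQ)
    · rw [hGord P hPQ]
      exact mul_divQuot hP hdiv P
    · rw [hGord _ hσP]
      exact mul_divQuot hP hdiv _

end Good

end Fermat.Agent.BADP.H97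

end
end
-- ==== END Fermat.Agent.BADP.H97_EisCorr

-- ==== BEGIN Fermat.Agent.L.LiftEig.H46_CharMStmt
section

/-!
# S43 OLD, leaf CHAR-M (helper46): `Stmt_CharM`

`stmt_CharM : Fermat.Agent.L.LiftEig.Stmt_CharM` (the statement of `L/LiftEig/Defs.lean`).

Bridge between the noncommutative polynomials `HPoly` evaluated at the Betti operators and the
commutative polynomials evaluated in the Hecke algebra:
* `toMv`        : `HPoly M S → ℤ[X_ℓ]`, surjective;
* `evalt_eq`    : `evalt t P = (toMv P)(t)`;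
* `evalB_eq_heckeRho` : on the Betti lattice `evalB P` is the action of `(toMv P)(T)`.
-/

set_option autoImplicit false

open scoped MatrixGroups
open CongruenceSubgroup CuspForm ModularFormClass

noncomputable section

namespace Fermat.Agent.L.LiftEig.H46

open Fermat.Agent.Betti Fermat.Agent.Betti.H76 Fermat.Agent.L.LiftEig ModularCurve

variable (M : ℕ) (S : Set ℕ)

/-- The commutative polynomial of a noncommutative one. -/
def toMv : HPoly M S →ₐ[ℤ] MvPolynomial (GoodPrime M S) ℤ :=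
  FreeAlgebra.lift ℤ (fun ℓ : GoodPrime M S => (MvPolynomial.X ℓ : MvPolynomial (GoodPrime M S) ℤ))

@[simp] theorem toMv_ι (ℓ : GoodPrime M S) : toMv M S (FreeAlgebra.ι ℤ ℓ) = MvPolynomial.X ℓ := by
  simp [toMv]

theorem toMv_surjective : Function.Surjective (toMv M S) := by
  intro P
  induction P using MvPolynomial.induction_on with
  | C a =>
    refine ⟨algebraMap ℤ _ a, ?_⟩
    rw [AlgHom.commutes]
    rfl
  | add p q hp hq =>
    obtain ⟨a, rfl⟩ := hp
    obtain ⟨b, rfl⟩ := hq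
    exact ⟨a + b, map_add _ _ _⟩
  | mul_X p i hp =>
    obtain ⟨a, rfl⟩ := hp
    exact ⟨a * FreeAlgebra.ι ℤ i, by rw [map_mul, toMv_ι]⟩

theorem evalt_eq (t : ℕ → ℤ) (P : HPoly M S) :
    evalt M S t P = MvPolynomial.eval (fun ℓ : GoodPrime M S => t ℓ.1) (toMv M S P) := by
  have h : evalt M S t =
      (MvPolynomial.aeval (fun ℓ : GoodPrime M S => t ℓ.1)).comp (toMv M S) := by
    apply FreeAlgebra.hom_ext
    funext ℓ
    simp [evalt, toMv]
  rw [h, AlgHom.comp_apply, MvPolynomial.aeval_def]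
  rfl

variable [NeZero M]

/-- The family of the good Hecke operators in the Hecke algebra. -/
def goodFam : GoodPrime M S → heckeAlgebra M 2 ∅ :=
  heckeFam M (fun ℓ : GoodPrime M S => ℓ.1) (fun ℓ => ℓ.2.1) (fun ℓ => ℓ.2.2.1)

/-- On the Betti lattice `evalB P` is the action of `(toMv P)(T)`. -/
theorem evalB_eq_heckeRho (P : HPoly M S) :
    ∀ ψ : ParZ M, evalB M S ℤ P (ψ : Additive (Gamma0 M) →+ ℤ) =
      ((heckeRho M ∅ (MvPolynomial.aeval (goodFam M S) (toMv M S P)) ψ : ParZ M) :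
        Additive (Gamma0 M) →+ ℤ) := by
  induction P using FreeAlgebra.induction with
  | grade0 r =>
    intro ψ
    rw [AlgHom.commutes, AlgHom.commutes, AlgHom.commutes]
    have h1 : heckeRho M ∅ (algebraMap ℤ (heckeAlgebra M 2 ∅) r) =
        algebraMap ℤ (Module.End ℤ (ParZ M)) r := by
      rw [eq_intCast, eq_intCast, map_intCast]
    rw [h1, Module.algebraMap_end_apply, Module.algebraMap_end_apply]
    rfl
  | grade1 ℓ =>
    intro ψ
    rw [toMv_ι, MvPolynomial.aeval_X]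
    have h1 := evalB_X M S ℤ ℓ (ψ : Additive (Gamma0 M) →+ ℤ)
    have h2 : evalB M S ℤ (FreeAlgebra.ι ℤ ℓ) = evalB M S ℤ (HPoly.X ℓ) := rfl
    rw [h2, h1]
    exact (heckeRho_T M ∅ ℓ.2.1 ℓ.2.2.1 (Set.notMem_empty ℓ.1) ψ).symm
  | mul a b ha hb =>
    intro ψ
    rw [map_mul, map_mul, map_mul, map_mul, Module.End.mul_apply, Module.End.mul_apply, hb ψ,
      ha]
  | add a b ha hb =>
    intro ψ
    rw [map_add, map_add, map_add, map_add, LinearMap.add_apply, LinearMap.add_apply, ha ψ,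
      hb ψ]
    rfl

/-- **CHAR-M.** -/
theorem stmt_CharM : Stmt_CharM := by
  intro p hp M _ S t H
  obtain ⟨g, 𝔪, hg, hmax, hp𝔪, hcong⟩ := charM_hecke (p := p) M
    (fun ℓ : GoodPrime M (↑S : Set ℕ) => ℓ.1) (fun ℓ => ℓ.2.1) (fun ℓ => ℓ.2.2.1)
    (fun ℓ => t ℓ.1) hp (fun P hP => by
      obtain ⟨P', rfl⟩ := toMv_surjective M (↑S : Set ℕ) P
      rw [← evalt_eq]
      refine H P' fun ψ hψ => ?_
      have h1 := evalB_eq_heckeRho M (↑S : Set ℕ) P' ⟨ψ, hψ⟩
      have h2 : MvPolynomial.aeval (goodFam M (↑S : Set ℕ)) (toMv M (↑S : Set ℕ) P') = 0 := hP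
      rw [h2, map_zero] at h1
      exact h1)
  refine ⟨g, 𝔪, hg, hmax, hp𝔪, fun ℓ hℓ hℓS hℓM => ?_⟩
  exact hcong ⟨ℓ, hℓ, hℓM, hℓS⟩

end Fermat.Agent.L.LiftEig.H46

end
end
-- ==== END Fermat.Agent.L.LiftEig.H46_CharMStmt

-- ==== BEGIN Fermat.Agent.S17.W2.Generic
section

/-!
# S17-W2, CORE part 7 (B1): generic tuples give canonical divisors (helper8)
-/

set_option autoImplicit false

noncomputable section

namespace Fermat.Agent.S17.W2

open AlgebraicCurve WithZero Fermat.Agent.RED.H51 Fermat.Agent.RED.H42 IntermediateField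

variable {k Ω F : Type} [Field k] [Field Ω] [Field F] [Algebra k Ω] [Algebra Ω F]

local notation "L" => riemannRochSpace

/-- Monotonicity of algebraicity in the base field. -/
theorem isAlgebraic_mono {K K' : IntermediateField k Ω} (h : K ≤ K') {c : Ω}
    (hc : IsAlgebraic K c) : IsAlgebraic K' c := by
  letI : Algebra K K' := (IntermediateField.inclusion h).toRingHom.toAlgebra
  haveI : IsScalarTower K K' Ω := IsScalarTower.of_algebraMap_eq fun _ => rfl
  exact hc.tower_top K'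

theorem isAlgebraic_adjoin_mono {s s' : Set Ω} (h : s ⊆ s') {c : Ω}
    (hc : IsAlgebraic (IntermediateField.adjoin k s) c) :
    IsAlgebraic (IntermediateField.adjoin k s') c :=
  isAlgebraic_mono (IntermediateField.adjoin.mono k s s' h) hc

theorem Gs_anti {s s' : Set Ω} (h : s ⊆ s') : Gs k Ω s' ≤ Gs k Ω s :=
  IntermediateField.fixingSubgroup_le (IntermediateField.adjoin.mono k s s' h)

variable (S : Setting k Ω F)

/-- A generic tuple over `k(s)`: places with algebraically independent `j`-values. -/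
structure IsGen (s : Set Ω) {r : ℕ} (P : Fin r → Place Ω F) (t : Fin r → Ω) : Prop where
  zero : ∀ i, S.IsZeroAt (P i) (t i)
  indep : AlgebraicIndependent (IntermediateField.adjoin k s) t

/-- The divisor `P₁ + ⋯ + P_r`. -/
def gdiv {r : ℕ} (P : Fin r → Place Ω F) : Divisor Ω F := ∑ i, Finsupp.single (P i) 1

theorem gdiv_succ {r : ℕ} (P : Fin (r + 1) → Place Ω F) :
    gdiv P = gdiv (fun i : Fin r => P i.castSucc) + Finsupp.single (P (Fin.last r)) 1 := by
  unfold gdiv
  rw [Fin.sum_univ_castSucc]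

theorem gdiv_nonneg {r : ℕ} (P : Fin r → Place Ω F) : 0 ≤ gdiv P := by
  classical
  refine Finset.sum_nonneg fun i _ => ?_
  rw [Finsupp.le_def]
  intro v
  rw [Finsupp.single_apply]
  split_ifs <;> simp

theorem Setting.smul_gdiv {r : ℕ} (P : Fin r → Place Ω F) (g : SemilinearAut Ω F) :
    g • gdiv P = gdiv (fun i => g • P i) := by
  unfold gdiv
  rw [Finset.smul_sum]
  simp only [SemilinearAut.smul_single]

theorem IsGen.castSucc {s : Set Ω} {r : ℕ} {P : Fin (r + 1) → Place Ω F} {t : Fin (r + 1) → Ω}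
    (h : IsGen S s P t) : IsGen S s (fun i : Fin r => P i.castSucc) (fun i : Fin r => t i.castSucc) :=
  ⟨fun _ => h.zero _, h.indep.comp _ (Fin.castSucc_injective r)⟩

/-- The hypotheses of CORE, bundled. -/
structure CoreHyp (g : ℕ) (c : ℤ) : Prop where
  hyp : Hyp Ω F
  hj : ∀ a : Ω, S.j ≠ algebraMap Ω F a
  riemann_le : ∀ D : Divisor Ω F,
    Divisor.degree D + 1 - g ≤ (Module.finrank Ω (riemannRochSpace D) : ℤ)
  riemann_eq : ∀ D : Divisor Ω F, c ≤ Divisor.degree D →
    (Module.finrank Ω (riemannRochSpace D) : ℤ) = Divisor.degree D + 1 - g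
  big : Big k Ω
  ft1 : Stmt_FT1 k Ω
  ft4 : Stmt_FT4 k Ω
  ft5 : Stmt_FT5 k Ω
  ft6 : Stmt_FT6 k Ω
  stab : GenStab S
  trans : GenTrans S

theorem degree_gdiv (H : Hyp Ω F) {r : ℕ} (P : Fin r → Place Ω F) :
    Divisor.degree (gdiv P) = r := by
  unfold gdiv
  rw [map_sum]
  simp only [Divisor.degree_single, H.deg_one, Nat.cast_one, mul_one, Finset.sum_const,
    Finset.card_univ, Fintype.card_fin, nsmul_eq_mul]

theorem isCanon_zero (H : Hyp Ω F) (oo : Place Ω F) : IsCanon oo (0 : Divisor Ω F) := by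
  refine ⟨le_rfl, rfl, ?_⟩
  intro f hf
  rw [L_zero_eq H, Submodule.mem_span_singleton] at hf
  obtain ⟨c, rfl⟩ := hf
  exact ⟨c, by rw [Algebra.smul_def, mul_one]⟩

variable {S}

/-- **B1**: the divisor of a generic tuple of length `≤ g` is canonical. -/
theorem isCanon_gdiv {g : ℕ} {c : ℤ} (C : CoreHyp S g c) {s : Set Ω} (hs : s.Finite) :
    ∀ {r : ℕ}, r ≤ g → ∀ {P : Fin r → Place Ω F} {t : Fin r → Ω}, IsGen S s P t →
      IsCanon S.oo (gdiv P) := by
  classical
  intro r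
  induction r with
  | zero =>
    intro _ P t _
    have : gdiv P = 0 := by
      unfold gdiv
      simp
    rw [this]
    exact isCanon_zero C.hyp S.oo
  | succ r ih =>
    intro hr P t h
    have hE := ih (by omega) (h.castSucc S)
    set E : Divisor Ω F := gdiv (fun i : Fin r => P i.castSucc) with hEdef
    set a : Fin r → Ω := fun i => t i.castSucc with ha
    -- the stabilising sets
    have hst : ∀ i : Fin r, ∃ T : Set Ω, T.Finite ∧
        (∀ c ∈ T, IsAlgebraic (IntermediateField.adjoin k (insert (t i.castSucc) s)) c) ∧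
        ∀ σ ∈ Gs k Ω (insert (t i.castSucc) s ∪ T), S.ρ σ • P i.castSucc = P i.castSucc :=
      fun i => C.stab s hs _ _ (h.zero _) (h.indep.transcendental _)
    choose T hTfin hTalg hTfix using hst
    set s'' : Set Ω := s ∪ Set.range a ∪ ⋃ i, T i with hs''
    have hs''fin : s''.Finite :=
      (hs.union (Set.finite_range a)).union (Set.finite_iUnion hTfin)
    have hfixP : ∀ σ ∈ Gs k Ω s'', ∀ i : Fin r, S.ρ σ • P i.castSucc = P i.castSucc := by
      intro σ hσ i
      refine hTfix i σ (Gs_anti ?_ hσ)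
      rintro x (hx | hx)
      · rcases hx with rfl | hx
        · exact Or.inl (Or.inr ⟨i, rfl⟩)
        · exact Or.inl (Or.inl hx)
      · exact Or.inr (Set.mem_iUnion.mpr ⟨i, hx⟩)
    have hfixE : ∀ σ ∈ Gs k Ω s'', S.ρ σ • E = E := by
      intro σ hσ
      rw [hEdef, Setting.smul_gdiv]
      congr 1
      funext i
      exact hfixP σ hσ i
    -- the last point is transcendental over `k(s'')`
    have htr : Transcendental (IntermediateField.adjoin k s'') (t (Fin.last r)) := by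
      let e : Fin r ⊕ Unit → Fin (r + 1) := Sum.elim Fin.castSucc fun _ => Fin.last r
      have he : Function.Injective e := by
        rintro (i | u) (i' | u') hii
        · exact congrArg Sum.inl (Fin.castSucc_injective r hii)
        · exact absurd hii (Fin.castSucc_lt_last i).ne
        · exact absurd hii.symm (Fin.castSucc_lt_last i').ne
        · rfl
      have h1 : AlgebraicIndependent (IntermediateField.adjoin k s)
          (Sum.elim a fun _ : Unit => t (Fin.last r)) := by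
        have := h.indep.comp e he
        convert this using 1
        funext x
        rcases x with i | u <;> rfl
      have h2 := C.ft5 s (Fin r) Unit a (fun _ => t (Fin.last r)) h1 (⋃ i, T i) (by
        intro c hc
        obtain ⟨i, hi⟩ := Set.mem_iUnion.mp hc
        refine isAlgebraic_adjoin_mono ?_ (hTalg i c hi)
        rintro x (rfl | hx)
        · exact Or.inr ⟨i, rfl⟩
        · exact Or.inl hx)
      exact h2.transcendental ()
    have hnofin : ¬ FinOrb S.ρ (Gs k Ω s'') (P (Fin.last r)) := fun hfin =>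
      htr (S.isAlgebraic_of_finOrb C.ft1 C.big hs''fin (h.zero _) hfin)
    rw [gdiv_succ]
    refine ⟨?_, ?_, ?_⟩
    · rw [← gdiv_succ]
      exact gdiv_nonneg P
    · rw [Finsupp.add_apply, hE.2.1, zero_add, Finsupp.single_apply, if_neg]
      intro hoo
      apply hnofin
      rw [hoo]
      exact finOrb_of_fixed S.ρ fun σ _ => S.ρ_oo σ
    · by_contra hbad
      apply hnofin
      have hdegE : Divisor.degree E < g := by
        rw [hEdef, degree_gdiv C.hyp]
        exact_mod_cast hr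
      have hfinbad := finite_bad C.hyp g c C.riemann_eq hE.1 hE.2.2 hdegE
      refine finOrb_of_stable S.ρ hfinbad ?_ hbad
      intro σ hσ Q hQ hcon
      apply hQ
      have h3 := onlyConst_smul (S.ρ σ)⁻¹ hcon
      rwa [smul_add, SemilinearAut.smul_single, inv_smul_smul,
        inv_smul_eq_iff.mpr (hfixE σ hσ).symm] at h3

end Fermat.Agent.S17.W2

end
end
-- ==== END Fermat.Agent.S17.W2.Generic

-- ==== BEGIN Fermat.Agent.S43.H88_WHecke
section
attribute [local instance 10000] SubalgebraClass.toAlgebra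
attribute [local instance 10000] HahnSeries.powerSeriesAlgebra

/-!
# S43, leaf W-HECKE (helper88): `w_q` commutes with the Hecke operators `T_ℓ`, `ℓ ∤ M q`

The Atkin–Lehner involution `w_q` of level `M q` lifts to the Atkin–Lehner involution `w_q` of
level `M q ℓ` (`= W_q` for the factorisation `(M ℓ) · q`), compatibly with both degeneracy maps
`α, β : F_{M q} → F_{M q ℓ}`; hence it commutes with the correspondence `T_ℓ` (helper2's
`pic0_correspondence_smul`).
-/

set_option autoImplicit false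
set_option synthInstance.maxHeartbeats 400000
set_option maxHeartbeats 1000000
set_option linter.unusedSectionVars false
set_option linter.style.haveILetI false

noncomputable section

namespace Fermat.Agent.S43.H88

open Fermat.Agent.S24 Fermat.Agent.BAD.H88 Fermat.Agent.S36.NU.H88 ModularCurve AlgebraicCurve
open Fermat.Agent.S43.BadQ AlgebraicCurve.SemilinearAut

section Lift

variable (q M : ℕ) (a b : ℤ) (hab : a * q + b * M = 1) (hq : q.Prime) [NeZero (M * q)]
variable (ℓ : ℕ) [NeZero ℓ] (a' b' : ℤ) (hab' : a' * q + b' * ((M * ℓ : ℕ) : ℤ) = 1)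

theorem level_eq : M * q * ℓ = M * ℓ * q := by ring

/-- `w_q` at level `M q ℓ`. -/
def wUp : FN (M * q * ℓ) ≃ₐ[Kbar] FN (M * q * ℓ) :=
  wQ (M * q * ℓ) q (M * ℓ) a' b' (level_eq q M ℓ) hab'

include hab hq

/-- `w_q` at level `M q ℓ` extends `w_q` at level `M q` along `α`. -/
theorem wUp_comp_alpha :
    (wUp q M ℓ a' b' hab').toAlgHom.comp (heckeAlphaBar Kbar (M * q) ℓ)
      = (heckeAlphaBar Kbar (M * q) ℓ).comp (wq q M a b hab hq).toAlgHom := by
  apply algHom_ext_of_adjoin _ (adjoin_jdF (M * q))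
  rintro x ⟨D, hD0, hD, rfl⟩
  rw [AlgHom.comp_apply, AlgHom.comp_apply, alpha_jdF]
  rcases dvd_cases q M a b hab hq D hD with ⟨e, he⟩ | ⟨d, e, rfl, he⟩
  · haveI : NeZero (D * q) := ⟨(Nat.mul_pos (Nat.pos_of_ne_zero (NeZero.ne D)) hq.pos).ne'⟩
    have h1 : (wq q M a b hab hq).toAlgHom (jdF (M * q) D hD)
        = jdF (M * q) (D * q) (Nat.mul_dvd_mul_right ⟨e, he⟩ q) :=
      wqHom_jdF q M a b hab hq D ⟨e, he⟩
    rw [h1, alpha_jdF]
    exact wQ_jdF' (M * q * ℓ) q (M * ℓ) a' b' (level_eq q M ℓ) hab' D (D * q) D (e * ℓ) 1 q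
      (mul_one D).symm rfl (by rw [he]; ring) (one_mul q).symm _ _
  · have hdpos : 0 < d := by
      rcases Nat.eq_zero_or_pos d with h | h
      · exfalso; apply NeZero.ne (d * q); rw [h, zero_mul]
      · exact h
    haveI : NeZero d := ⟨hdpos.ne'⟩
    have h1 : (wq q M a b hab hq).toAlgHom (jdF (M * q) (d * q) hD)
        = jdF (M * q) d (Dvd.dvd.mul_right ⟨e, he⟩ q) :=
      wqHom_jdF_mul q M a b hab hq d ⟨e, he⟩
    rw [h1, alpha_jdF]
    exact wQ_jdF' (M * q * ℓ) q (M * ℓ) a' b' (level_eq q M ℓ) hab' (d * q) d d (e * ℓ) q 1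
      rfl (mul_one d).symm (by rw [he]; ring) (mul_one q).symm _ _

/-- `w_q` at level `M q ℓ` extends `w_q` at level `M q` along `β`. -/
theorem wUp_comp_beta :
    (wUp q M ℓ a' b' hab').toAlgHom.comp (heckeBetaBar Kbar (M * q) ℓ)
      = (heckeBetaBar Kbar (M * q) ℓ).comp (wq q M a b hab hq).toAlgHom := by
  apply algHom_ext_of_adjoin _ (adjoin_jdF (M * q))
  rintro x ⟨D, hD0, hD, rfl⟩
  have hℓ0 : 0 < ℓ := Nat.pos_of_ne_zero (NeZero.ne ℓ)
  haveI : NeZero (D * ℓ) := ⟨(Nat.mul_pos (Nat.pos_of_ne_zero (NeZero.ne D)) hℓ0).ne'⟩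
  rw [AlgHom.comp_apply, AlgHom.comp_apply, beta_jdF]
  rcases dvd_cases q M a b hab hq D hD with ⟨e, he⟩ | ⟨d, e, rfl, he⟩
  · haveI : NeZero (D * q) := ⟨(Nat.mul_pos (Nat.pos_of_ne_zero (NeZero.ne D)) hq.pos).ne'⟩
    haveI : NeZero (D * q * ℓ) :=
      ⟨(Nat.mul_pos (Nat.mul_pos (Nat.pos_of_ne_zero (NeZero.ne D)) hq.pos) hℓ0).ne'⟩
    have h1 : (wq q M a b hab hq).toAlgHom (jdF (M * q) D hD)
        = jdF (M * q) (D * q) (Nat.mul_dvd_mul_right ⟨e, he⟩ q) :=
      wqHom_jdF q M a b hab hq D ⟨e, he⟩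
    rw [h1, beta_jdF]
    exact wQ_jdF' (M * q * ℓ) q (M * ℓ) a' b' (level_eq q M ℓ) hab' (D * ℓ) (D * q * ℓ)
      (D * ℓ) e 1 q (mul_one _).symm (by ring) (by rw [he]; ring) (one_mul q).symm _ _
  · have hdpos : 0 < d := by
      rcases Nat.eq_zero_or_pos d with h | h
      · exfalso; apply NeZero.ne (d * q); rw [h, zero_mul]
      · exact h
    haveI : NeZero d := ⟨hdpos.ne'⟩
    haveI : NeZero (d * ℓ) := ⟨(Nat.mul_pos hdpos hℓ0).ne'⟩
    have h1 : (wq q M a b hab hq).toAlgHom (jdF (M * q) (d * q) hD)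
        = jdF (M * q) d (Dvd.dvd.mul_right ⟨e, he⟩ q) :=
      wqHom_jdF_mul q M a b hab hq d ⟨e, he⟩
    rw [h1, beta_jdF]
    exact wQ_jdF' (M * q * ℓ) q (M * ℓ) a' b' (level_eq q M ℓ) hab' (d * q * ℓ) (d * ℓ)
      (d * ℓ) e q 1 (by ring) (mul_one _).symm (by rw [he]; ring) (mul_one q).symm _ _

theorem intertwines_alpha :
    IntertwinesAlong ((heckeAlphaBar Kbar (M * q) ℓ : _ →ₐ[Kbar] _) : _ →+* _)
      (_root_.Fermat.Agent.S43.BadQ.wS q M a b hab hq) (SemilinearAut.ofAlgAut (wUp q M ℓ a' b' hab')) := by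
  intro x
  exact congrArg (fun f : FN (M * q) →ₐ[Kbar] FN (M * q * ℓ) => f x)
    (wUp_comp_alpha q M a b hab hq ℓ a' b' hab')

theorem intertwines_beta :
    IntertwinesAlong ((heckeBetaBar Kbar (M * q) ℓ : _ →ₐ[Kbar] _) : _ →+* _)
      (_root_.Fermat.Agent.S43.BadQ.wS q M a b hab hq) (SemilinearAut.ofAlgAut (wUp q M ℓ a' b' hab')) := by
  intro x
  exact congrArg (fun f : FN (M * q) →ₐ[Kbar] FN (M * q * ℓ) => f x)
    (wUp_comp_beta q M a b hab hq ℓ a' b' hab')

end Lift

/-- **W-HECKE.** -/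
theorem stmt_WHecke : Stmt_WHecke := by
  intro q M a b hab hq _ ℓ hℓN x
  haveI : NeZero (ℓ : ℕ) := ⟨ℓ.2.ne_zero⟩
  rw [heckeOperatorBar_apply, heckeOperatorBar_apply]
  by_cases hI : HeckeInputsAlong Kbar (M * q) ℓ
  · obtain ⟨hα, hβ, hP, hfin, hFI, hN⟩ := hI
    -- Bezout at level `M ℓ`
    have hqℓ : (q : ℕ) ≠ ℓ := by
      rintro h
      exact hℓN (h ▸ Dvd.intro_left M rfl)
    have hcop : Nat.Coprime q (M * ℓ) := by
      apply Nat.Coprime.mul_right
      · exact (Nat.Prime.coprime_iff_not_dvd hq).mpr (q_not_dvd_M q M a b hab hq)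
      · exact (Nat.coprime_primes hq ℓ.2).mpr hqℓ
    obtain ⟨a', b', hab'⟩ : ∃ a' b' : ℤ, a' * q + b' * ((M * ℓ : ℕ) : ℤ) = 1 := by
      have h := Nat.isCoprime_iff_coprime.mpr hcop
      obtain ⟨u, v, huv⟩ := h
      exact ⟨u, v, huv⟩
    rw [heckeOperatorAlong_eq hα hβ hFI hfin hN]
    exact Fermat.Agent.GTor.H2.pic0_correspondence_smul (_root_.Fermat.Agent.S43.BadQ.wS q M a b hab hq)
      (SemilinearAut.ofAlgAut (wUp q M ℓ a' b' hab')) _ _ hβ hα hFI hfin hN
      (intertwines_beta q M a b hab hq ℓ a' b' hab')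
      (intertwines_alpha q M a b hab hq ℓ a' b' hab') x
  · rw [heckeOperatorAlong_of_not hI, AddMonoidHom.zero_apply, AddMonoidHom.zero_apply,
      smul_zero]

end Fermat.Agent.S43.H88

end
end
-- ==== END Fermat.Agent.S43.H88_WHecke

-- ==== BEGIN Fermat.Agent.S43.Old.DefsRed
section

/-!
# S43, leaf OLD (= LIFT-EIG): the geometric leaf OLD-RED  (helper75; owner of the proof: helper35)

`Stmt_OldRed`: `N = M q`, `q ∤ M`, `A` over `q`, `redM : J₀(M) → Pic (F~_M)` the reduction map.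
Let `x ∈ J₀(N)[p]` be in the finite part (`Fin1`), not in `K1`, with `T_ℓ x = t_ℓ x` for the good
primes `ℓ`.  Then there is `z ∈ J₀(M)` such that `y = redM z` is a non-zero class killed by `p`
and `redM (T_ℓ z) = t_ℓ y` for the good primes `ℓ`.

(`y` = the class of `div (res f) / p` on the component of `∞`, `F~_N = F~_M`; the prime `p` is
arbitrary, `q = p` is allowed.)
-/

set_option autoImplicit false
set_option synthInstance.maxHeartbeats 400000
set_option maxHeartbeats 1000000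

noncomputable section

open AlgebraicCurve ModularCurve Fermat.Agent.S28.H73 Fermat.Agent.RED.H73
open Fermat.Agent.RED Fermat.Agent.BAD Fermat.Agent.S43.BadQ

namespace Fermat.Agent.S43.Old

/-- **OLD-RED.** -/
def Stmt_OldRed : Prop :=
  ∀ (p : ℕ), p.Prime → ∀ (N M q : ℕ) [NeZero N] [NeZero M], N = M * q → q.Prime → ¬ q ∣ M →
    ∀ A : ValuationSubring (AlgebraicClosure ℚ), A.LiesOverPrime q →
    ∀ (r : Place (AlgebraicClosure ℚ) ↥(modularFunctionFieldBar M) →
        Place (kV A) ↥(redField A (modularFunctionFieldBar M) (hasScale_laurentBaseChange A M)))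
      (hr : IsRed A (hasScale_laurentBaseChange A M) r),
      HasMove A (hasScale_laurentBaseChange A M) r →
    ∀ (S : Finset ℕ) (t : ℕ → ℤ) (x : JZero N), (p : ℤ) • x = 0 →
      Fin1 A N p x → ¬ InK1 A N p x →
      (∀ ℓ : Nat.Primes, (ℓ : ℕ) ∉ S → ¬ (ℓ : ℕ) ∣ N → (ℓ : ℕ) ≠ p →
        heckeOperatorBar N ℓ x = t ℓ • x) →
      ∃ z : JZero M,
        H36.redPic A (hasScale_laurentBaseChange A M) hr z ≠ 0 ∧
        (p : ℤ) • H36.redPic A (hasScale_laurentBaseChange A M) hr z = 0 ∧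
        ∀ ℓ : Nat.Primes, (ℓ : ℕ) ∉ S → ¬ (ℓ : ℕ) ∣ N → (ℓ : ℕ) ≠ p →
          H36.redPic A (hasScale_laurentBaseChange A M) hr (heckeOperatorBar M ℓ z)
            = t ℓ • H36.redPic A (hasScale_laurentBaseChange A M) hr z

end Fermat.Agent.S43.Old

end
end
-- ==== END Fermat.Agent.S43.Old.DefsRed

-- ==== BEGIN Fermat.Agent.S43.Old.H35_HRDiv
section
attribute [local instance 10000] SubalgebraClass.toAlgebra
attribute [local instance 10000] HahnSeries.powerSeriesAlgebra

/-!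
# G-RED HR / S43 OLD-RED (helper35): `r_* T_s = T~_s r_*` on all divisors

`A` a valuation subring of `ℚ̄` over `q`, `q ∤ M`, `s ≠ q` a prime (`s ∣ M` allowed), `r` a
reduction map of places of `F_M · ℚ̄` with the conservation law and the moving lemma.

* `finrank_alpha_eq` : the degeneracy maps `α`, `α~` have the same degree (any `s`, `q ∤ M s`);
* `hnorm_gen` : **NORM-RED** along `α` at the level `M`, any `s` with `q ∤ M s`;
* `hr_div` : `r_* (T_s D) = T~_s (r_* D)` for ALL divisors `D`, where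
  `T~_s = Divisor.correspondence (betaT A M s) (alphaT A M s)`
  (helper78's abstract theorem `H78.hr_abs`, helper51's and helper69's degree of `β`).
-/

set_option autoImplicit false
set_option linter.style.haveILetI false
set_option linter.unusedSectionVars false
set_option synthInstance.maxHeartbeats 400000
set_option maxHeartbeats 1000000

noncomputable section

open AlgebraicCurve ModularCurve Fermat.Agent.S28.H73 Fermat.Agent.RED.H73 Fermat.Agent.RED
open Fermat.Agent.BAD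

namespace Fermat.Agent.S43.Old.H35

section HRDiv

variable (A : ValuationSubring (AlgebraicClosure ℚ))

/-- The degeneracy maps `α` and `α~` have the same degree. -/
theorem finrank_alpha_eq (q M s : ℕ) [NeZero M] [NeZero s] (hq : q.Prime)
    (hqMs : ¬ q ∣ M * s) (hA : A.LiesOverPrime q) :
    finrankAlong (AlgebraicClosure ℚ) (heckeAlphaBar (AlgebraicClosure ℚ) M s)
      = finrankAlong (kV A) (alphaT A M s) := by
  haveI : NeZero (M * s) := ⟨Nat.mul_ne_zero (NeZero.ne M) (NeZero.ne s)⟩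
  rw [H51.finrankAlong_eq_relfinrank_map (modularFunctionFieldBar M)
    (modularFunctionFieldBar (M * s)) (AlgHom.id _ _) (heckeAlphaBar (AlgebraicClosure ℚ) M s)
    (fun x => coe_heckeAlphaBar M s x), IntermediateField.map_id,
    H51.finrankAlong_eq_relfinrank_map (Ft A M) (Ft A (M * s)) (AlgHom.id _ _)
    (alphaT A M s) (fun x => coe_alphaT A M s x), IntermediateField.map_id]
  exact H36.relfinrank_level_eq (dvd_mul_right M s) hq hqMs A hA

/-- **NORM-RED at the good level `M`**, any `s` (values in `resTo`). -/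
theorem hnorm_gen' (q M s : ℕ) [NeZero M] [NeZero s] (hq : q.Prime)
    (hqMs : ¬ q ∣ M * s) (hA : A.LiesOverPrime q) (f : ↥(gaussV A M)) :
    ∃ h : normAlong (heckeAlphaBar (AlgebraicClosure ℚ) M s)
        (heckeBetaBar (AlgebraicClosure ℚ) M s (f : ↥(FNbar M))) ∈ gaussV A M,
      resTo A M (Ft A M) le_rfl ⟨_, h⟩
        = normAlong (alphaT A M s) (betaT A M s (resTo A M (Ft A M) le_rfl f)) := by
  haveI : NeZero (M * s) := ⟨Nat.mul_ne_zero (NeZero.ne M) (NeZero.ne s)⟩
  obtain ⟨hα, hβ, hP, hfin, hFI, hNF⟩ := RED.H51.stmt_HKA M s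
  letI iA : Algebra ↥(FNbar M) ↥(FNbar (M * s)) :=
    algebraAlong (heckeAlphaBar (AlgebraicClosure ℚ) M s)
  letI iA' : Algebra ↥(Ft A M) ↥(Ft A (M * s)) := algebraAlong (alphaT A M s)
  haveI : Module.Finite ↥(FNbar M) ↥(FNbar (M * s)) := hfin
  have hβmem : heckeBetaBar (AlgebraicClosure ℚ) M s (f : ↥(FNbar M)) ∈ gaussV A (M * s) := by
    rw [mem_gaussValSub_iff, coe_heckeBetaBar]
    exact qExpand_mem_gaussRingV A s f.2
  have h1 : ∀ a : ↥(FNbar M), a ∈ gaussV A M
      ↔ algebraMap ↥(FNbar M) ↥(FNbar (M * s)) a ∈ gaussV A (M * s) := by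
    intro a
    rw [mem_gaussValSub_iff, mem_gaussValSub_iff]
    show _ ↔ ((heckeAlphaBar (AlgebraicClosure ℚ) M s a : ↥(FNbar (M * s))) :
      LaurentSeries (AlgebraicClosure ℚ)) ∈ gaussRingV A
    rw [coe_heckeAlphaBar]
  have h2 : Function.Surjective (resTo A (M * s) (Ft A (M * s)) le_rfl) :=
    resTo_surjective A _ _ le_rfl le_rfl
  have h3 : ∀ a : ↥(gaussV A (M * s)),
      resTo A (M * s) (Ft A (M * s)) le_rfl a = 0 ↔ ¬ IsUnit a :=
    fun a => resTo_eq_zero_iff A _ _ _ a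
  have h4 : ∀ (a : ↥(gaussV A M))
      (ha : algebraMap ↥(FNbar M) ↥(FNbar (M * s)) (a : ↥(FNbar M)) ∈ gaussV A (M * s)),
      resTo A (M * s) (Ft A (M * s)) le_rfl ⟨_, ha⟩
        = algebraMap ↥(Ft A M) ↥(Ft A (M * s)) (resTo A M (Ft A M) le_rfl a) := by
    intro a ha
    apply Subtype.ext
    rw [coe_resTo]
    show _ = ((alphaT A M s (resTo A M (Ft A M) le_rfl a) : ↥(Ft A (M * s))) :
      LaurentSeries (kV A))
    rw [coe_alphaT, coe_resTo, gaussResF_apply, gaussResF_apply]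
    congr 1
  have h5 : Module.finrank ↥(FNbar M) ↥(FNbar (M * s))
      = Module.finrank ↥(Ft A M) ↥(Ft A (M * s)) :=
    finrank_alpha_eq A q M s hq hqMs hA
  obtain ⟨hN, hNeq⟩ := RED.H10.stmt_NormRedAbs ↥(FNbar M) ↥(FNbar (M * s))
    ↥(Ft A M) ↥(Ft A (M * s)) (gaussV A M) (gaussV A (M * s))
    (resTo A M (Ft A M) le_rfl) (resTo A (M * s) (Ft A (M * s)) le_rfl)
    h1 h2 h3 h4 h5 ⟨_, hβmem⟩
  refine ⟨hN, ?_⟩
  show resTo A M (Ft A M) le_rfl ⟨_, hN⟩ = Algebra.norm ↥(Ft A M)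
    (betaT A M s (resTo A M (Ft A M) le_rfl f))
  rw [hNeq]
  congr 1
  apply Subtype.ext
  rw [coe_resTo, coe_betaT, coe_resTo, gaussResF_apply, gaussResF_apply]
  exact gaussRedV_qExpand A s ⟨_, f.2⟩ _

/-- **NORM-RED at the good level `M`**, any `s` with `q ∤ M s`. -/
theorem hnorm_gen (q M s : ℕ) [NeZero M] [NeZero s] (hq : q.Prime)
    (hqMs : ¬ q ∣ M * s) (hA : A.LiesOverPrime q) (f : ↥(gaussV A M)) :
    ∃ h : normAlong (heckeAlphaBar (AlgebraicClosure ℚ) M s)
        (heckeBetaBar (AlgebraicClosure ℚ) M s (f : ↥(FNbar M))) ∈ gaussV A M,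
      gaussRes A M ⟨_, h⟩ = normAlong (alphaT A M s) (betaT A M s (gaussRes A M f)) := by
  obtain ⟨h, he⟩ := hnorm_gen' A q M s hq hqMs hA f
  refine ⟨h, ?_⟩
  rw [← resTo_self, ← resTo_self]
  exact he

/-- **HR on divisors**: `r_* (T_s D) = T~_s (r_* D)` for all divisors `D`
(`A` over `q`, `q ∤ M`, `s ≠ q` prime). -/
theorem hr_div (q M s : ℕ) [NeZero M] [NeZero s] (hq : q.Prime) (hs : s.Prime) (hsq : s ≠ q)
    (hqM : ¬ q ∣ M) (hA : A.LiesOverPrime q)
    (hα : HeckeAlphaBarIntegral (AlgebraicClosure ℚ) M s)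
    (hβ : HeckeBetaBarIntegral (AlgebraicClosure ℚ) M s)
    [HasPrincipalDivisors (AlgebraicClosure ℚ) ↥(modularFunctionFieldBar (M * s))]
    (hα' : (alphaT A M s).toRingHom.IsIntegral) (hβ' : (betaT A M s).toRingHom.IsIntegral)
    [HasPrincipalDivisors (kV A) ↥(Ft A (M * s))]
    (r : Place (AlgebraicClosure ℚ) ↥(modularFunctionFieldBar M) → Place (kV A) ↥(Ft A M))
    (hr : IsRed A (hasScale_laurentBaseChange A M) r)
    (hm : HasMove A (hasScale_laurentBaseChange A M) r)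
    (D : Divisor (AlgebraicClosure ℚ) ↥(modularFunctionFieldBar M)) :
    Finsupp.mapDomain r (heckeDivBar hα hβ D)
      = Divisor.correspondence (betaT A M s) (alphaT A M s) hβ' hα' (Finsupp.mapDomain r D) := by
  haveI : IsAlgClosed (AlgebraicClosure ℚ) := inferInstance
  have hqMs : ¬ q ∣ M * s := by
    intro h
    rcases (Nat.Prime.dvd_mul hq).1 h with h1 | h1
    · exact hqM h1
    · exact hsq ((Nat.prime_dvd_prime_iff_eq hq hs).1 h1).symm
  obtain ⟨hα₀, hβ₀, hP₀, hfin, hFI, hNF⟩ := RED.H51.stmt_HKA M s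
  have TI := towerInputs (A := A) (M := M) (ℓ := s) hq hA hqMs
  have hFF := Fermat.Agent.RED.H95.stmt_HKA_isFF M
  exact Fermat.Agent.RED.H78.hr_abs
    (heckeAlphaBar (AlgebraicClosure ℚ) M s) (heckeBetaBar (AlgebraicClosure ℚ) M s) hα hβ
    (alphaT A M s) (betaT A M s) hα' hβ' (gaussV A M) (gaussRes A M) r
    (H51.stmt_FFB_principal _ _ hFF) (H51.stmt_FFB_deg _ _ hFF) TI.hdeg
    hFI TI.hFI hfin hNF TI.hfin TI.hNF
    (Fermat.Agent.RED.H69D.finrankAlong_beta_eq M q s hq hs hsq hqM A hA)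
    (fun a ha => (isUnit_iff_gaussResF_ne_zero A (hasScale_laurentBaseChange A M) a).2
      (fun h0 => ha (Subtype.ext ((coe_gaussRes A M a).trans (h0.trans rfl)))))
    hr hm
    (fun u _ => hnorm_gen A q M s hq hqMs hA u)
    D

end HRDiv

end Fermat.Agent.S43.Old.H35

end
end
-- ==== END Fermat.Agent.S43.Old.H35_HRDiv

-- ==== BEGIN Fermat.Agent.S44.TateModP3
section

set_option autoImplicit false

open WeierstrassCurve WeierstrassCurve.Affine WeierstrassCurve.Affine.Point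
open scoped WeierstrassCurve.Affine

namespace Fermat.Agent.S44

open Fermat.Agent.GTor Fermat.Agent.GTor.H81

/-- The reduction packages of G-RED at every level, in the shape used by G-TOR. -/
theorem allRed_uncond (N : ℕ) [NeZero N] (p : ℕ) (_hp : p.Prime) : AllRed N p := by
  intro ℓ hℓ hNp A hA
  have : NeZero ℓ := ⟨hℓ.ne_zero⟩
  exact Fermat.Agent.RED.H36.allRed N p ℓ hℓ hNp A hA

/-- **Package A1**, unconditional. -/
theorem stmt_TateModP : Stmt_TateModP :=
  stmt_TateModP_of_red (fun N _ p hp => allRed_uncond N p hp)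

/-- **S44 from the two open packages**: BAD_p and the local analysis of the Frey curve at `p`.
The conclusion is the frozen statement S44. -/
theorem result_of_badP
    (h2 : Stmt_BadP) (hC : Stmt_FreyFiniteAtP)
    (P : FreyPackage) {N : ℕ} (hcond : P.IsConductorLevel N) (hpN : P.p ∣ N)
    (hirr : GaloisRepIsIrreducible (K := AlgebraicClosure ℚ) ℚ P.freyCurve P.p)
    (hmod : P.ModularRepOfLevel N) :
    ∃ M : ℕ, M ∣ N ∧ ¬ P.p ∣ M ∧ P.ModularRepOfLevel M :=
  result_of_leaves stmt_TateModP h2 hC P hcond hpN hirr hmod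

end Fermat.Agent.S44

end
-- ==== END Fermat.Agent.S44.TateModP3

-- ==== BEGIN Fermat.Agent.S52.H5_UnipArith
section

set_option autoImplicit false

namespace Fermat.Agent.S52.H5

open WeierstrassCurve WeierstrassCurve.Affine
open Fermat.Agent.Lib.EllFinite.H4 (IntCoeff)

section identities

variable {L : Type*} [Field L]

/-- The `2`-division polynomial `ψ₂² = 4x³ + b₂x² + 2b₄x + b₆`, evaluated at `e`. -/
def psi2sq (E : Affine L) (e : L) : L := 4 * e ^ 3 + E.b₂ * e ^ 2 + 2 * E.b₄ * e + E.b₆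

/-- `b₂` of the curve translated by `e`. -/
def trB2 (E : Affine L) (e : L) : L := E.b₂ + 12 * e

/-- `b₄` of the curve translated by `e`. -/
def trB4 (E : Affine L) (e : L) : L := E.b₄ + e * E.b₂ + 6 * e ^ 2

lemma four_Δ_of_root (E : Affine L) (e : L) (h : psi2sq E e = 0) :
    4 * E.Δ = trB4 E e ^ 2 * (trB2 E e ^ 2 - 32 * trB4 E e) := by
  simp only [psi2sq, trB2, trB4, Δ, b₂, b₄, b₆, b₈] at h ⊢
  linear_combination (-(E.a₁ ^ 2 + 4 * E.a₂ + 12 * e) ^ 3
    - 108 * (4 * e ^ 3 + (E.a₁ ^ 2 + 4 * E.a₂) * e ^ 2 + 2 * (2 * E.a₄ + E.a₁ * E.a₃) * e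
        + (E.a₃ ^ 2 + 4 * E.a₆))
    + 36 * (E.a₁ ^ 2 + 4 * E.a₂ + 12 * e) *
        (2 * E.a₄ + E.a₁ * E.a₃ + e * (E.a₁ ^ 2 + 4 * E.a₂) + 6 * e ^ 2)) * h

lemma c₄_eq_tr (E : Affine L) (e : L) : E.c₄ = trB2 E e ^ 2 - 24 * trB4 E e := by
  simp only [trB2, trB4, c₄]
  ring

lemma psi2sq_add (E : Affine L) (e r : L) :
    psi2sq E (e + r) = psi2sq E e + r * (4 * r ^ 2 + trB2 E e * r + 2 * trB4 E e) := by
  simp only [psi2sq, trB2, trB4]
  ring

lemma trB4_add (E : Affine L) (e r : L) :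
    trB4 E (e + r) = trB4 E e + trB2 E e * r + 6 * r ^ 2 := by
  simp only [trB2, trB4]
  ring

lemma trB2_add (E : Affine L) (e r : L) : trB2 E (e + r) = trB2 E e + 12 * r := by
  simp only [trB2]
  ring

/-- `ψ₂²` has a root in an algebraically closed field in which `4 ≠ 0`. -/
lemma exists_psi2sq_root [IsAlgClosed L] (E : Affine L) (h4 : (4 : L) ≠ 0) :
    ∃ e, psi2sq E e = 0 := by
  have hdeg : (Polynomial.C (4 : L) * Polynomial.X ^ 3 + Polynomial.C E.b₂ * Polynomial.X ^ 2 +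
      Polynomial.C (2 * E.b₄) * Polynomial.X + Polynomial.C E.b₆).degree = 3 :=
    Polynomial.degree_cubic h4
  obtain ⟨e, he⟩ := IsAlgClosed.exists_root _ (by rw [hdeg]; norm_num)
  refine ⟨e, ?_⟩
  simpa [psi2sq, Polynomial.IsRoot.def] using he

/-- A fixed field endomorphism maps roots of `ψ₂²` to roots. -/
lemma psi2sq_map (E : Affine L) (σ : L →+* L) (h₁ : σ E.a₁ = E.a₁) (h₂ : σ E.a₂ = E.a₂)
    (h₃ : σ E.a₃ = E.a₃) (h₄ : σ E.a₄ = E.a₄) (h₆ : σ E.a₆ = E.a₆) (e : L) :
    psi2sq E (σ e) = σ (psi2sq E e) := by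
  simp only [psi2sq, b₂, b₄, b₆, map_add, map_mul, map_pow, h₁, h₂, h₃, h₄, h₆, map_ofNat]

end identities

section valuations

variable {L : Type*} [Field L] {A : ValuationSubring L}

lemma val_ofNat_le (n : ℕ) [n.AtLeastTwo] : A.valuation (OfNat.ofNat n : L) ≤ 1 := by
  rw [A.valuation_le_one_iff]
  exact ofNat_mem A n

lemma IntCoeff.b₂_le {E : Affine L} (hE : IntCoeff A E) : A.valuation E.b₂ ≤ 1 := by
  have h1 := hE.a₁; have h2 := hE.a₂
  rw [A.valuation_le_one_iff] at *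
  simp only [b₂]
  aesop

lemma IntCoeff.b₄_le {E : Affine L} (hE : IntCoeff A E) : A.valuation E.b₄ ≤ 1 := by
  have h1 := hE.a₁; have h3 := hE.a₃; have h4 := hE.a₄
  rw [A.valuation_le_one_iff] at *
  simp only [b₄]
  aesop

lemma IntCoeff.b₆_le {E : Affine L} (hE : IntCoeff A E) : A.valuation E.b₆ ≤ 1 := by
  have h3 := hE.a₃; have h6 := hE.a₆
  rw [A.valuation_le_one_iff] at *
  simp only [b₆]
  aesop

lemma trB2_le {E : Affine L} (hE : IntCoeff A E) {e : L} (he : A.valuation e ≤ 1) :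
    A.valuation (trB2 E e) ≤ 1 := by
  have h2 := IntCoeff.b₂_le hE
  rw [A.valuation_le_one_iff] at *
  simp only [trB2]
  aesop

lemma trB4_le {E : Affine L} (hE : IntCoeff A E) {e : L} (he : A.valuation e ≤ 1) :
    A.valuation (trB4 E e) ≤ 1 := by
  have h2 := IntCoeff.b₂_le hE; have h4 := IntCoeff.b₄_le hE
  rw [A.valuation_le_one_iff] at *
  simp only [trB4]
  aesop

/-- A root of `u x³ + c₂ x² + c₁ x + c₀` with `|u| = 1` and integral `cᵢ` is integral. -/
lemma val_le_one_of_cubic {u c₂ c₁ c₀ x : L} (hu : A.valuation u = 1)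
    (h₂ : A.valuation c₂ ≤ 1) (h₁ : A.valuation c₁ ≤ 1) (h₀ : A.valuation c₀ ≤ 1)
    (h : u * x ^ 3 + c₂ * x ^ 2 + c₁ * x + c₀ = 0) : A.valuation x ≤ 1 := by
  by_contra hx
  push Not at hx
  have hx0 : 0 < A.valuation x := lt_trans zero_lt_one hx
  have h3 : A.valuation x ^ 3 = A.valuation (c₂ * x ^ 2 + c₁ * x + c₀) := by
    have : u * x ^ 3 = -(c₂ * x ^ 2 + c₁ * x + c₀) := by linear_combination h
    have h' := congrArg A.valuation this
    rw [Valuation.map_neg, map_mul, hu, one_mul, map_pow] at h'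
    exact h'
  have hle : A.valuation (c₂ * x ^ 2 + c₁ * x + c₀) ≤ A.valuation x ^ 2 := by
    have hxsq : A.valuation x ≤ A.valuation x ^ 2 := by
      rw [sq]
      calc A.valuation x = 1 * A.valuation x := (one_mul _).symm
        _ ≤ A.valuation x * A.valuation x := by gcongr
    refine Valuation.map_add_le _ (Valuation.map_add_le _ ?_ ?_) ?_
    · rw [map_mul, map_pow]
      calc A.valuation c₂ * A.valuation x ^ 2 ≤ 1 * A.valuation x ^ 2 := by gcongr
        _ = A.valuation x ^ 2 := one_mul _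
    · rw [map_mul]
      calc A.valuation c₁ * A.valuation x ≤ 1 * A.valuation x := by gcongr
        _ = A.valuation x := one_mul _
        _ ≤ A.valuation x ^ 2 := hxsq
    · exact h₀.trans (one_le_pow₀ hx.le)
  have hlt : A.valuation x ^ 2 < A.valuation x ^ 3 := pow_lt_pow_right₀ hx (by norm_num)
  rw [h3] at hlt
  exact absurd hle (not_le.2 hlt)

/-- A root of `u x² + c₁ x + c₀` with `|u| = 1` and integral `cᵢ` is integral. -/
lemma val_le_one_of_quadratic {u c₁ c₀ x : L} (hu : A.valuation u = 1)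
    (h₁ : A.valuation c₁ ≤ 1) (h₀ : A.valuation c₀ ≤ 1)
    (h : u * x ^ 2 + c₁ * x + c₀ = 0) : A.valuation x ≤ 1 := by
  by_contra hx
  push Not at hx
  have hx0 : 0 < A.valuation x := lt_trans zero_lt_one hx
  have h3 : A.valuation x ^ 2 = A.valuation (c₁ * x + c₀) := by
    have : u * x ^ 2 = -(c₁ * x + c₀) := by linear_combination h
    have h' := congrArg A.valuation this
    rw [Valuation.map_neg, map_mul, hu, one_mul, map_pow] at h'
    exact h'
  have hle : A.valuation (c₁ * x + c₀) ≤ A.valuation x := by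
    refine Valuation.map_add_le _ ?_ (h₀.trans hx.le)
    rw [map_mul]
    calc A.valuation c₁ * A.valuation x ≤ 1 * A.valuation x := by gcongr
      _ = A.valuation x := one_mul _
  have hlt : A.valuation x < A.valuation x ^ 2 := by
    rw [sq]
    calc A.valuation x = 1 * A.valuation x := (one_mul _).symm
      _ < A.valuation x * A.valuation x := mul_lt_mul_of_pos_right hx hx0
  rw [h3] at hlt
  exact absurd hle (not_le.2 hlt)

lemma val_eq_one_of_sq_eq_one {g : A.ValueGroup} (h : g ^ 2 = 1) : g = 1 :=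
  (pow_eq_one_iff_left two_ne_zero).mp h

lemma val_lt_one_of_sq_lt_one {g : A.ValueGroup} (h : g ^ 2 < 1) : g < 1 := by
  by_contra hg
  push Not at hg
  exact absurd h (not_lt.2 (one_le_pow₀ hg))

end valuations

end Fermat.Agent.S52.H5

end
-- ==== END Fermat.Agent.S52.H5_UnipArith

-- ==== BEGIN Fermat.Agent.S52.H5_UnipGood
section

set_option autoImplicit false

namespace Fermat.Agent.S52.H5

open WeierstrassCurve WeierstrassCurve.Affine IsLocalRing
open Fermat.Agent.Lib.EllFinite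

variable {F : Type*} [Field F] [DecidableEq F] {A : ValuationSubring F}

/-- **Good reduction.**  If `V` has good reduction at `A`, an inertia-like additive map fixes the
`n`-torsion pointwise, for `n` a unit of `A`. -/
theorem unram_of_isRedOf {V : Affine F} {Vk : Affine (ResidueField A)} (h : H4.IsRedOf A V Vk)
    (hΔ : Vk.Δ ≠ 0) (σ : F →+* F) (sV : V.Point →+ V.Point) (hI : InertiaOn A V σ sV)
    (n : ℕ) (hn : A.valuation (n : F) = 1) (P : V.Point) (hP : n • P = 0) : sV P = P := by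
  classical
  have hnk : (n : ResidueField A) ≠ 0 := by
    have h1 : residue A (n : A) ≠ 0 := by
      rw [H4.res_ne_zero_iff]
      simpa using hn
    simpa using h1
  have hr : H4.redOf h hΔ (sV P) = H4.redOf h hΔ P := by
    refine H4.redOf_equivariant h hΔ σ id sV id (map_zero sV) rfl hI.map_some
      (fun x y hxy => ⟨hxy, rfl⟩) (fun x => by rw [hI.val_eq]) ?_ P
    intro a ha
    rw [id, H4.res_eq_iff]
    exact hI.res a (A.valuation_le_one a)
  have h0 : H4.redOf h hΔ (sV P - P) = 0 := by rw [map_sub, hr, sub_self]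
  have hnD : n • (sV P - P) = 0 := by
    rw [smul_sub, ← map_nsmul, hP, map_zero, sub_zero]
  rcases (H4.redOf_eq_zero_iff h hΔ _).1 h0 with h1 | ⟨x, y, hxy, e, hx⟩
  · exact sub_eq_zero.1 h1
  · exfalso
    rw [e] at hnD
    obtain ⟨W', hV, hVk⟩ := h
    subst hV
    have := H46.x_mem_of_nsmul_eq_zero hnk hxy hnD
    rw [← A.valuation_le_one_iff] at this
    exact absurd hx (not_lt.2 this)

end Fermat.Agent.S52.H5

end
-- ==== END Fermat.Agent.S52.H5_UnipGood
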