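-- GENERATED (merged mirror, NOTES/tools/trim/merge3_helper67.py): 6 modules of the originals, bodies verbatim.
import Mathlib
import Fermat.Agent.Zm.S56_L08_003
import Fermat.Agent.Zm.S56_L03_000
import Fermat.Agent.Zm.S56_L01_000
import Fermat.Agent.Zm.S56_L08_004
import Fermat.Agent.Zm.S35_L02_001
import Fermat.Agent.Zm.S56_L07_000

-- ==== BEGIN Fermat.Agent.S55.CFT.GS.H6_CD_B
section

set_option autoImplicit false

open scoped Pointwise NumberField

noncomputable section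

namespace Fermat.Agent.S55.CFT.GS.H6

open Fermat.Agent.S55 Fermat.Agent.S55.Top Fermat.Agent.Lib.FrobExists
  Fermat.Agent.Lib.InertiaBridge Fermat.Agent.Lib.Minkowski Fermat.Agent.Lib.UnramVal
  IsDedekindDomain

local notation "Qb" => AlgebraicClosure ℚ

section bridge

variable (S : Finset Nat.Primes) (K : IntermediateField ℚ Qb) [FiniteDimensional ℚ K]

theorem numberField_K : NumberField K := ⟨⟩

attribute [local instance] numberField_K

variable {S K}

/-- `q` is a uniformizer at the prime of `K` under a place over `q ∉ S`. -/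
theorem valuation_q_eq (hK : K.IsUnramifiedOutside S) (q : Nat.Primes) (hq : q ∉ S)
    (A : ValuationSubring Qb) (hA : A.LiesOverPrime (q : ℕ)) :
    (vBelow K q q.2 A hA).valuation K ((q : ℕ) : K) = WithZero.exp (-1 : ℤ) := by
  set v := vBelow K q q.2 A hA with hv
  obtain ⟨π, hπ⟩ := v.intValuation_exists_uniformizer
  have hq0 : ((q : ℕ) : K) ≠ 0 := by exact_mod_cast q.2.ne_zero
  have hπ0 : π ≠ 0 := by
    rintro rfl
    rw [map_zero] at hπ
    exact WithZero.exp_ne_zero hπ.symm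
  have hπK : v.valuation K (algebraMap (𝓞 K) K π) = WithZero.exp (-1 : ℤ) := by
    rw [HeightOneSpectrum.valuation_of_algebraMap]; exact hπ
  have hπK0 : (algebraMap (𝓞 K) K π) ≠ 0 := by
    intro h
    exact hπ0 ((FaithfulSMul.algebraMap_eq_zero_iff (𝓞 K) K).mp h)
  have hvq : v.valuation K ((q : ℕ) : K) ≠ 0 := (Valuation.ne_zero_iff _).mpr hq0
  set e : ℤ := -WithZero.log (v.valuation K ((q : ℕ) : K)) with he
  have hvq' : v.valuation K ((q : ℕ) : K) = WithZero.exp (-e) := by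
    rw [he, neg_neg, WithZero.exp_log hvq]
  -- `e ≥ 1`
  have hmem : ((q : ℕ) : 𝓞 K) ∈ primeBelow K A := natCast_mem_primeBelow K A q hA
  have he1 : 1 ≤ e := by
    have h1 : v.intValuation ((q : ℕ) : 𝓞 K) ≤ WithZero.exp (-((1 : ℕ) : ℤ)) := by
      rw [HeightOneSpectrum.intValuation_le_pow_iff_mem, pow_one]
      exact hmem
    have hcast : ((q : ℕ) : K) = algebraMap (𝓞 K) K ((q : ℕ) : 𝓞 K) := by simp
    rw [hcast, HeightOneSpectrum.valuation_of_algebraMap] at hvq'
    rw [hvq', WithZero.exp_le_exp] at h1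
    push_cast at h1
    omega
  -- the order of `π` at `A`
  obtain ⟨k, hk⟩ := Fermat.Agent.R.H6.stmt_UnrFix (q : ℕ) q.2 A hA
    ((algebraMap (𝓞 K) K π : K) : Qb) (by
      intro h
      exact hπK0 (Subtype.ext h)) (fun σ hσ => by
      have h1 := hK.2 q hq A hA hσ
      exact (IntermediateField.mem_fixingSubgroup_iff K σ).mp h1 _ (algebraMap (𝓞 K) K π).2)
  -- `q π^(-e)` is a unit
  have hy : v.valuation K (((q : ℕ) : K) * (algebraMap (𝓞 K) K π) ^ (-e)) = 1 := by
    rw [map_mul, map_zpow₀, hvq', hπK, ← WithZero.exp_zsmul, ← WithZero.exp_add]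
    simp
  have h1 := val_eq_one_of_valuation_eq_one K q q.2 A hA _ hy
  have h2 : ((((q : ℕ) : K) * (algebraMap (𝓞 K) K π) ^ (-e) : K) : Qb)
      = ((q : ℕ) : Qb) * ((algebraMap (𝓞 K) K π : K) : Qb) ^ (-e) := by
    push_cast
    rfl
  rw [h2, map_mul, map_zpow₀, hk, ← zpow_mul] at h1
  have h3 : A.valuation ((q : ℕ) : Qb) ^ (1 + k * -e) = A.valuation ((q : ℕ) : Qb) ^ (0 : ℤ) := by
    rw [zpow_add₀ (val_q_ne_zero A q q.2), zpow_one, zpow_zero]
    exact h1
  have h4 : 1 + k * -e = 0 :=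
    zpow_right_injective₀ (zero_lt_iff.mpr (val_q_ne_zero A q q.2)) (val_q_lt_one A q hA).ne h3
  have h5 : e = 1 := by
    have h6 : k * e = 1 := by linarith
    rcases Int.eq_one_or_neg_one_of_mul_eq_one' h6 with ⟨_, h7⟩ | ⟨_, h7⟩
    · exact h7
    · omega
  rw [hvq', h5]

/-- **Bridge**: for `a ∈ Kˣ` the order at a place `A` over `q ∉ S` is the order at the prime of
`K` under `A`. -/
theorem isOrd_of_mem (hK : K.IsUnramifiedOutside S) (q : Nat.Primes) (hq : q ∉ S)
    (A : ValuationSubring Qb) (hA : A.LiesOverPrime (q : ℕ)) (a : K) (ha : a ≠ 0) :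
    IsOrd A (q : ℕ) (a : Qb) (ordAt (vBelow K q q.2 A hA) a) := by
  set v := vBelow K q q.2 A hA with hv
  have hvq := valuation_q_eq hK q hq A hA
  have hva : v.valuation K a ≠ 0 := (Valuation.ne_zero_iff _).mpr ha
  have hy : v.valuation K (a * ((q : ℕ) : K) ^ (-ordAt v a)) = 1 := by
    rw [map_mul, map_zpow₀, hvq, ← WithZero.exp_zsmul, ordAt, neg_neg]
    conv_lhs => rw [← WithZero.exp_log hva]
    rw [← WithZero.exp_add]
    simp
  have h1 := val_eq_one_of_valuation_eq_one K q q.2 A hA _ hy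
  rw [isOrd_iff_unit q.2]
  have h2 : ((a * ((q : ℕ) : K) ^ (-ordAt v a) : K) : Qb)
      = (a : Qb) * ((q : ℕ) : Qb) ^ (-ordAt v a) := by
    push_cast
    rfl
  rw [← h2]
  exact h1

/-- An algebraic number is a unit at all places outside finitely many rational primes. -/
theorem exists_bound_unit (x : Qb) (hx : x ≠ 0) :
    ∃ N : ℤ, N ≠ 0 ∧ ∀ (q : ℕ), q.Prime → ¬ (q : ℤ) ∣ N → ∀ A : ValuationSubring Qb,
      A.LiesOverPrime q → A.valuation x = 1 := by
  have key : ∀ y : Qb, ∃ N : ℤ, N ≠ 0 ∧ ∀ (q : ℕ), q.Prime → ¬ (q : ℤ) ∣ N →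
      ∀ A : ValuationSubring Qb, A.LiesOverPrime q → A.valuation y ≤ 1 := by
    intro y
    obtain ⟨N, hN0, hNy⟩ := (isAlgebraic_int_qbar y).exists_integral_multiple
    refine ⟨N, hN0, fun q hq hqN A hA => ?_⟩
    have h1 : A.valuation (N • y) ≤ 1 := valuation_le_one_of_isIntegral A _ hNy
    have h2 : A.valuation ((N : ℤ) : Qb) = 1 := valuation_intCast_eq_one A q hq hA N hqN
    rw [zsmul_eq_mul, map_mul, h2, one_mul] at h1
    exact h1
  obtain ⟨N₁, hN₁, h₁⟩ := key x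
  obtain ⟨N₂, hN₂, h₂⟩ := key x⁻¹
  refine ⟨N₁ * N₂, mul_ne_zero hN₁ hN₂, fun q hq hqN A hA => ?_⟩
  have hd1 : ¬ (q : ℤ) ∣ N₁ := fun h => hqN (Dvd.dvd.mul_right h N₂)
  have hd2 : ¬ (q : ℤ) ∣ N₂ := fun h => hqN (Dvd.dvd.mul_left h N₁)
  have h3 := h₁ q hq hd1 A hA
  have h4 := h₂ q hq hd2 A hA
  rw [map_inv₀] at h4
  have h0 : A.valuation x ≠ 0 := (Valuation.ne_zero_iff _).mpr hx
  refine le_antisymm h3 ?_
  rwa [inv_le_one₀ (zero_lt_iff.mpr h0)] at h4

end bridge

/-! ### Conjugacy of the places over a prime of `K` -/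

section conj

open Fermat.Agent.Lib.InertiaLift

attribute [local instance] Fermat.Agent.Lib.InertiaLift.qbar_isAlgebraic'
  Fermat.Agent.Lib.InertiaLift.qbar_isAlgClosure' Fermat.Agent.Lib.InertiaLift.qbar_isGalois'
  Fermat.Agent.Lib.InertiaLift.intF_smulCommClass Fermat.Agent.Lib.InertiaLift.intF_isInvariant
  Fermat.Agent.Lib.FrobIntegers.zbarTopologicalSpace
  Fermat.Agent.Lib.FrobIntegers.zbar_discreteTopology
  Fermat.Agent.Lib.InertiaLift.intF_continuousSMul

/-- If the prime of `ZBar` under `A'` is `g` times the prime under `A`, then `g` maps `A` into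
`A'`. -/
theorem map_mem_of_primeUnder_smul (A A' : ValuationSubring Qb) (q : ℕ) (hq : q.Prime)
    (hA : A.LiesOverPrime q) (g : GQ) (hg : primeUnder A' = g • primeUnder A) (x : Qb)
    (hx : x ∈ A) : g x ∈ A' := by
  obtain ⟨y, s, hy, hs, hvs, hxs⟩ := exists_integral_frac A q hq hA x hx (isAlgebraic_int_qbar x)
  have hgy : A'.valuation (g y) ≤ 1 :=
    valuation_le_one_of_isIntegral A' _ (map_isIntegral_int g hy)
  have hgs : A'.valuation (g s) = 1 := by
    refine le_antisymm (valuation_le_one_of_isIntegral A' _ (map_isIntegral_int g hs)) ?_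
    by_contra hlt
    rw [not_le] at hlt
    have h1 : (g • (⟨s, hs⟩ : integralClosure ℤ Qb)) ∈ primeUnder A' := hlt
    rw [hg, Ideal.smul_mem_pointwise_smul_iff, mem_primeUnder] at h1
    rw [hvs] at h1
    exact lt_irrefl _ h1
  rw [← A'.valuation_le_one_iff]
  have h2 : g x * g s = g y := by rw [← map_mul, hxs]
  have h3 := congrArg A'.valuation h2
  rw [map_mul, hgs, mul_one] at h3
  rw [h3]
  exact hgy

/-- Transport of orders along `g` with `primeUnder A' = g • primeUnder A`. -/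
theorem isOrd_of_primeUnder_smul (A A' : ValuationSubring Qb) (q : ℕ) (hq : q.Prime)
    (hA : A.LiesOverPrime q) (g : GQ) (hg : primeUnder A' = g • primeUnder A) (x : Qb) (k : ℤ)
    (h : IsOrd A q x k) : IsOrd A' q (g x) k := by
  have hx : x ≠ 0 := h.ne_zero hq
  have hq0 : (q : Qb) ≠ 0 := by exact_mod_cast hq.ne_zero
  have hy : x * (q : Qb) ^ (-k) ≠ 0 := mul_ne_zero hx (zpow_ne_zero _ hq0)
  have hgy : g (x * (q : Qb) ^ (-k)) = g x * (q : Qb) ^ (-k) := by
    rw [map_mul, map_zpow₀, map_natCast]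
  have hgy0 : g x * (q : Qb) ^ (-k) ≠ 0 := by
    rw [← hgy]
    exact (map_ne_zero g).mpr hy
  rw [isOrd_iff_unit hq] at h ⊢
  rw [valuation_eq_one_iff_mem _ _ hy] at h
  rw [valuation_eq_one_iff_mem _ _ hgy0, ← hgy, ← map_inv₀]
  exact ⟨map_mem_of_primeUnder_smul A A' q hq hA g hg _ h.1,
    map_mem_of_primeUnder_smul A A' q hq hA g hg _ h.2⟩

/-- Two places of `ℚ̄` over the same prime of `K` are conjugate under `G_K`. -/
theorem exists_fixing_smul (K : IntermediateField ℚ Qb) (A A' : ValuationSubring Qb)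
    (h : primeBelow K A = primeBelow K A') :
    ∃ g : GQ, g ∈ K.fixingSubgroup ∧ primeUnder A' = g • primeUnder A := by
  have hP := primeUnder_isPrime A
  have hP' := primeUnder_isPrime A'
  have hunder : (primeUnder A).under (intF K) = (primeUnder A').under (intF K) := by
    ext a
    rw [Ideal.under_def, Ideal.under_def, Ideal.mem_comap, Ideal.mem_comap, mem_primeUnder,
      mem_primeUnder]
    have haK : (((a : integralClosure ℤ Qb) : Qb)) ∈ K := a.2
    have hint : IsIntegral ℤ (⟨((a : integralClosure ℤ Qb) : Qb), haK⟩ : K) := by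
      rw [← isIntegral_algebraMap_iff (FaithfulSMul.algebraMap_injective K Qb)]
      exact (a : integralClosure ℤ Qb).2
    let b : 𝓞 K := ⟨⟨((a : integralClosure ℤ Qb) : Qb), haK⟩, hint⟩
    have h1 : b ∈ primeBelow K A ↔ b ∈ primeBelow K A' := by rw [h]
    rw [mem_primeBelow, mem_primeBelow] at h1
    exact h1
  obtain ⟨g, hg⟩ := Algebra.IsInvariant.exists_smul_of_under_eq_of_profinite
    (A := intF K) (G := Qb ≃ₐ[K] Qb) (primeUnder A) (primeUnder A') hunder
  refine ⟨toGal K g, ?_, ?_⟩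
  · rw [IntermediateField.mem_fixingSubgroup_iff]
    intro x hx
    exact g.commutes ⟨x, hx⟩
  · rw [toGal_smul_ideal]
    exact hg

end conj

end Fermat.Agent.S55.CFT.GS.H6

end
end
-- ==== END Fermat.Agent.S55.CFT.GS.H6_CD_B

-- ==== BEGIN Fermat.Agent.S56.H57_Tensor
section

/-!
# S56, leaf LOC-p-SO (helper57): coordinates on `k[ε] ⊗ V` and the action of a first-order
deformation in these coordinates
-/

set_option autoImplicit false

noncomputable section

namespace Fermat.Agent.S56.H57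

open Fermat.Agent.S53 TrivSqZeroExt IsLocalRing groupCohomology Fermat.Agent.S56.Dict
  Fermat.Agent.S56.Dict.H85
open scoped TensorProduct

section Tensor

variable {k : Type} [Field k] (V : Type) [AddCommGroup V] [Module k V]

theorem dual_eq (d : DualNumber k) :
    d = d.fst • (1 : DualNumber k) + d.snd • (DualNumber.eps : DualNumber k) := by
  ext <;> simp

theorem tmul_decomp (w : DualNumber k ⊗[k] V) :
    w = (1 : DualNumber k) ⊗ₜ[k] proj₁ V w + (DualNumber.eps : DualNumber k) ⊗ₜ[k] proj₂ V w := by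
  induction w using TensorProduct.induction_on with
  | zero => simp
  | add a b ha hb =>
    rw [map_add, map_add, TensorProduct.tmul_add, TensorProduct.tmul_add]
    calc a + b = ((1 : DualNumber k) ⊗ₜ[k] proj₁ V a
            + (DualNumber.eps : DualNumber k) ⊗ₜ[k] proj₂ V a)
          + ((1 : DualNumber k) ⊗ₜ[k] proj₁ V b
            + (DualNumber.eps : DualNumber k) ⊗ₜ[k] proj₂ V b) := by rw [← ha, ← hb]
      _ = _ := by abel
  | tmul d v =>
    rw [proj₁_tmul, proj₂_tmul, TensorProduct.tmul_smul, TensorProduct.tmul_smul,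
      TensorProduct.smul_tmul', TensorProduct.smul_tmul', ← TensorProduct.add_tmul,
      ← dual_eq]

theorem proj₁_smul (a : DualNumber k) (w : DualNumber k ⊗[k] V) :
    proj₁ V (a • w) = a.fst • proj₁ V w := by
  induction w using TensorProduct.induction_on with
  | zero => simp
  | add x y hx hy => rw [smul_add, map_add, map_add, hx, hy, smul_add]
  | tmul d v =>
    rw [TensorProduct.smul_tmul', proj₁_tmul, proj₁_tmul, smul_eq_mul, TrivSqZeroExt.fst_mul,
      mul_smul]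

theorem proj₂_smul (a : DualNumber k) (w : DualNumber k ⊗[k] V) :
    proj₂ V (a • w) = a.fst • proj₂ V w + a.snd • proj₁ V w := by
  induction w using TensorProduct.induction_on with
  | zero => simp
  | add x y hx hy =>
    rw [smul_add, map_add, map_add, map_add, hx, hy, smul_add, smul_add]
    abel
  | tmul d v =>
    rw [TensorProduct.smul_tmul', proj₁_tmul, proj₂_tmul, proj₂_tmul, smul_eq_mul,
      TrivSqZeroExt.snd_mul, add_smul, smul_smul, smul_smul]
    simp [mul_comm]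

@[simp] theorem proj₁_one_tmul (v : V) : proj₁ V ((1 : DualNumber k) ⊗ₜ[k] v) = v := by
  rw [proj₁_tmul, TrivSqZeroExt.fst_one, one_smul]

@[simp] theorem proj₂_one_tmul (v : V) : proj₂ V ((1 : DualNumber k) ⊗ₜ[k] v) = 0 := by
  rw [proj₂_tmul, TrivSqZeroExt.snd_one, zero_smul]

@[simp] theorem proj₁_eps_tmul (v : V) :
    proj₁ V ((DualNumber.eps : DualNumber k) ⊗ₜ[k] v) = 0 := by
  rw [proj₁_tmul, DualNumber.fst_eps, zero_smul]

@[simp] theorem proj₂_eps_tmul (v : V) :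
    proj₂ V ((DualNumber.eps : DualNumber k) ⊗ₜ[k] v) = v := by
  rw [proj₂_tmul, DualNumber.snd_eps, one_smul]

end Tensor

section Action

variable {k : Type} [Field k] (ρbar : ResidualGaloisRep k) (ρx : GaloisRepAdic (DualNumber k))
  (c : _root_.Fermat.Agent.S56.GQ → Module.End k ρbar.V)
  (θ : (DualNumber k ⊗[k] ρbar.V) ≃ₗ[DualNumber k] ρx.V)

/-- first coordinate of a vector of the deformation -/
def co₁ (y : ρx.V) : ρbar.V := proj₁ ρbar.V (θ.symm y)

/-- second coordinate of a vector of the deformation -/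
def co₂ (y : ρx.V) : ρbar.V := proj₂ ρbar.V (θ.symm y)

theorem eq_theta_co (y : ρx.V) :
    y = θ ((1 : DualNumber k) ⊗ₜ[k] co₁ ρbar ρx θ y
      + (DualNumber.eps : DualNumber k) ⊗ₜ[k] co₂ ρbar ρx θ y) := by
  rw [co₁, co₂, ← tmul_decomp, LinearEquiv.apply_symm_apply]

theorem co₁_theta (v u : ρbar.V) :
    co₁ ρbar ρx θ (θ ((1 : DualNumber k) ⊗ₜ[k] v + (DualNumber.eps : DualNumber k) ⊗ₜ[k] u))
      = v := by
  rw [co₁, LinearEquiv.symm_apply_apply, map_add, proj₁_one_tmul, proj₁_eps_tmul, add_zero]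

theorem co₂_theta (v u : ρbar.V) :
    co₂ ρbar ρx θ (θ ((1 : DualNumber k) ⊗ₜ[k] v + (DualNumber.eps : DualNumber k) ⊗ₜ[k] u))
      = u := by
  rw [co₂, LinearEquiv.symm_apply_apply, map_add, proj₂_one_tmul, proj₂_eps_tmul, zero_add]

theorem co₁_sub (y y' : ρx.V) :
    co₁ ρbar ρx θ (y - y') = co₁ ρbar ρx θ y - co₁ ρbar ρx θ y' := by
  rw [co₁, co₁, co₁, map_sub, map_sub]

theorem co₂_sub (y y' : ρx.V) :
    co₂ ρbar ρx θ (y - y') = co₂ ρbar ρx θ y - co₂ ρbar ρx θ y' := by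
  rw [co₂, co₂, co₂, map_sub, map_sub]

theorem co₁_smul (a : DualNumber k) (y : ρx.V) :
    co₁ ρbar ρx θ (a • y) = a.fst • co₁ ρbar ρx θ y := by
  rw [co₁, co₁, map_smul, proj₁_smul]

theorem co₂_smul (a : DualNumber k) (y : ρx.V) :
    co₂ ρbar ρx θ (a • y) = a.fst • co₂ ρbar ρx θ y + a.snd • co₁ ρbar ρx θ y := by
  rw [co₁, co₂, co₂, map_smul, proj₂_smul]

variable {ρbar ρx c θ}

theorem rho_theta_eps
    (hθ : ∀ (σ : _root_.Fermat.Agent.S56.GQ) (v : ρbar.V), ρx.ρ σ (θ ((1 : DualNumber k) ⊗ₜ[k] v)) =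
      θ ((1 : DualNumber k) ⊗ₜ[k] (ρbar.ρ σ v) +
        (DualNumber.eps : DualNumber k) ⊗ₜ[k] (c σ (ρbar.ρ σ v))))
    (σ : _root_.Fermat.Agent.S56.GQ) (u : ρbar.V) :
    ρx.ρ σ (θ ((DualNumber.eps : DualNumber k) ⊗ₜ[k] u))
      = θ ((DualNumber.eps : DualNumber k) ⊗ₜ[k] (ρbar.ρ σ u)) := by
  rw [← eps_smul_one_tmul, map_smul, map_smul, hθ σ u, ← map_smul, smul_add,
    eps_smul_one_tmul, eps_smul_eps_tmul, add_zero]

theorem rho_theta_general
    (hθ : ∀ (σ : _root_.Fermat.Agent.S56.GQ) (v : ρbar.V), ρx.ρ σ (θ ((1 : DualNumber k) ⊗ₜ[k] v)) =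
      θ ((1 : DualNumber k) ⊗ₜ[k] (ρbar.ρ σ v) +
        (DualNumber.eps : DualNumber k) ⊗ₜ[k] (c σ (ρbar.ρ σ v))))
    (σ : _root_.Fermat.Agent.S56.GQ) (v u : ρbar.V) :
    ρx.ρ σ (θ ((1 : DualNumber k) ⊗ₜ[k] v + (DualNumber.eps : DualNumber k) ⊗ₜ[k] u))
      = θ ((1 : DualNumber k) ⊗ₜ[k] (ρbar.ρ σ v) +
        (DualNumber.eps : DualNumber k) ⊗ₜ[k] (c σ (ρbar.ρ σ v) + ρbar.ρ σ u)) := by
  rw [map_add, map_add, hθ σ v, rho_theta_eps hθ σ u, ← map_add, TensorProduct.tmul_add,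
    add_assoc]

theorem co₁_rho
    (hθ : ∀ (σ : _root_.Fermat.Agent.S56.GQ) (v : ρbar.V), ρx.ρ σ (θ ((1 : DualNumber k) ⊗ₜ[k] v)) =
      θ ((1 : DualNumber k) ⊗ₜ[k] (ρbar.ρ σ v) +
        (DualNumber.eps : DualNumber k) ⊗ₜ[k] (c σ (ρbar.ρ σ v))))
    (σ : _root_.Fermat.Agent.S56.GQ) (y : ρx.V) :
    co₁ ρbar ρx θ (ρx.ρ σ y) = ρbar.ρ σ (co₁ ρbar ρx θ y) := by
  conv_lhs => rw [eq_theta_co ρbar ρx θ y]
  rw [rho_theta_general hθ, co₁_theta]

theorem co₂_rho
    (hθ : ∀ (σ : _root_.Fermat.Agent.S56.GQ) (v : ρbar.V), ρx.ρ σ (θ ((1 : DualNumber k) ⊗ₜ[k] v)) =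
      θ ((1 : DualNumber k) ⊗ₜ[k] (ρbar.ρ σ v) +
        (DualNumber.eps : DualNumber k) ⊗ₜ[k] (c σ (ρbar.ρ σ v))))
    (σ : _root_.Fermat.Agent.S56.GQ) (y : ρx.V) :
    co₂ ρbar ρx θ (ρx.ρ σ y)
      = c σ (ρbar.ρ σ (co₁ ρbar ρx θ y)) + ρbar.ρ σ (co₂ ρbar ρx θ y) := by
  conv_lhs => rw [eq_theta_co ρbar ρx θ y]
  rw [rho_theta_general hθ, co₂_theta]

end Action

end Fermat.Agent.S56.H57

end

end
-- ==== END Fermat.Agent.S56.H57_Tensor

-- ==== BEGIN Fermat.Agent.S56.H59_LocTWh0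
section

/-!
# Cluster T leaf LOC-TW-h0 (helper59)

At a Taylor-Wiles prime `q` (unramified, Frobenius with distinct eigenvalues in `k`) the local
invariants of `ad⁰ ρbar` are one-dimensional.
-/

set_option autoImplicit false
set_option linter.unusedSectionVars false
set_option linter.unusedVariables false
set_option linter.style.haveILetI false

noncomputable section

namespace Fermat.Agent.S56.H59

open Polynomial Module ExtCitation

/-- The place `padicPlace q` lies over `q`. -/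
theorem padicPlace_liesOverPrime (q : ℕ) [Fact q.Prime] : (padicPlace q).LiesOverPrime q := by
  have hq : (q : ℕ).Prime := Fact.out
  show (q : AlgebraicClosure ℚ) ∈ (padicPlace q).nonunits
  rw [ValuationSubring.mem_nonunits_iff_or]
  right
  intro hmem
  rw [← Fermat.Agent.Lib.LocalGlobalDense.absQ_le_one_iff, map_inv₀,
    Fermat.Agent.Lib.LocalGlobalDense.absQ_natCast_self, inv_inv] at hmem
  have : (1 : ℝ) < q := by exact_mod_cast hq.one_lt
  linarith

/-- A Frobenius element commutes with every element of the decomposition group, modulo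
inertia. -/
theorem commutator_mem_inertia {K L : Type*} [Field K] [Field L] [Algebra K L]
    (A : ValuationSubring L) (q : ℕ) (σ₀ σ : L ≃ₐ[K] L) (h₀ : A.IsFrobeniusAt σ₀ q)
    (hσ : σ ∈ A.decompositionSubgroup K) :
    σ * σ₀ * σ⁻¹ * σ₀⁻¹ ∈ A.inertiaSubgroupIn K := by
  obtain ⟨hσ₀, hfrob⟩ := h₀
  let g : A.decompositionSubgroup K := ⟨σ, hσ⟩
  let f : A.decompositionSubgroup K := ⟨σ₀, hσ₀⟩
  refine ⟨g * f * g⁻¹ * f⁻¹, ?_, rfl⟩
  show g * f * g⁻¹ * f⁻¹ ∈ A.inertiaSubgroup K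
  rw [ValuationSubring.inertiaSubgroup, MonoidHom.mem_ker]
  ext x
  show (g * f * g⁻¹ * f⁻¹) • x = x
  rw [mul_smul, mul_smul, mul_smul]
  have h1 : f • (g⁻¹ • (f⁻¹ • x)) = g⁻¹ • x := by
    rw [hfrob, ← smul_pow', ← hfrob, smul_inv_smul]
  rw [h1, smul_inv_smul]

section LinAlg

variable {k V : Type*} [Field k] [AddCommGroup V] [Module k V] [Module.Finite k V]

/-- An eigenbasis for an endomorphism of a plane whose characteristic polynomial has two
distinct roots. -/
theorem exists_eigenbasis (hV : finrank k V = 2) (T : Module.End k V) (α β : k) (hαβ : α ≠ β)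
    (hT : LinearMap.charpoly T = (X - C α) * (X - C β)) :
    ∃ b : Basis (Fin 2) k V, T (b 0) = α • b 0 ∧ T (b 1) = β • b 1 := by
  have hα : T.HasEigenvalue α := by
    rw [Module.End.hasEigenvalue_iff_isRoot_charpoly, hT]; simp
  have hβ : T.HasEigenvalue β := by
    rw [Module.End.hasEigenvalue_iff_isRoot_charpoly, hT]; simp
  obtain ⟨e₁, he₁⟩ := hα.exists_hasEigenvector
  obtain ⟨e₂, he₂⟩ := hβ.exists_hasEigenvector
  have hli : LinearIndependent k ![e₁, e₂] := by
    refine Module.End.eigenvectors_linearIndependent' T ![α, β] ?_ ![e₁, e₂] ?_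
    · intro i j hij
      fin_cases i <;> fin_cases j <;> simp_all
    · intro i
      fin_cases i
      · exact he₁
      · exact he₂
  refine ⟨basisOfLinearIndependentOfCardEqFinrank hli (by simp [hV]), ?_, ?_⟩
  · rw [coe_basisOfLinearIndependentOfCardEqFinrank]
    exact he₁.apply_eq_smul
  · rw [coe_basisOfLinearIndependentOfCardEqFinrank]
    exact he₂.apply_eq_smul

/-- Trace of an endomorphism that is diagonal in a basis of a plane. -/
theorem trace_of_diag (b : Basis (Fin 2) k V) (f : Module.End k V) (a d : k)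
    (h0 : f (b 0) = a • b 0) (h1 : f (b 1) = d • b 1) : LinearMap.trace k V f = a + d := by
  rw [LinearMap.trace_eq_matrix_trace k b f, Matrix.trace_fin_two, LinearMap.toMatrix_apply,
    LinearMap.toMatrix_apply, h0, h1]
  simp

/-- An endomorphism commuting with a diagonal endomorphism with distinct entries is diagonal. -/
theorem diag_of_commute (b : Basis (Fin 2) k V) (T f : Module.End k V) (α β : k) (hαβ : α ≠ β)
    (h0 : T (b 0) = α • b 0) (h1 : T (b 1) = β • b 1) (hc : T ∘ₗ f = f ∘ₗ T) :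
    ∃ a d : k, f (b 0) = a • b 0 ∧ f (b 1) = d • b 1 := by
  have hT : ∀ v : V, T v = (α * b.repr v 0) • b 0 + (β * b.repr v 1) • b 1 := by
    intro v
    conv_lhs => rw [← b.sum_repr v]
    rw [Fin.sum_univ_two, map_add, map_smul, map_smul, h0, h1, smul_smul, smul_smul,
      mul_comm α, mul_comm β]
  have hv : ∀ v : V, v = (b.repr v 0) • b 0 + (b.repr v 1) • b 1 := by
    intro v
    conv_lhs => rw [← b.sum_repr v]
    rw [Fin.sum_univ_two]
  refine ⟨b.repr (f (b 0)) 0, b.repr (f (b 1)) 1, ?_, ?_⟩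
  · have h2 : T (f (b 0)) = α • f (b 0) := by
      have := LinearMap.congr_fun hc (b 0)
      simp only [LinearMap.comp_apply] at this
      rw [this, h0, map_smul]
    have h3 := congrArg (fun v => b.repr v 1) h2
    simp only [hT (f (b 0)), map_add, map_smul, Finsupp.add_apply, Finsupp.smul_apply,
      Basis.repr_self, smul_eq_mul] at h3
    simp at h3
    have h4 : b.repr (f (b 0)) 1 = 0 := by
      rcases h3 with h3 | h3
      · exact absurd h3.symm hαβ
      · exact h3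
    conv_lhs => rw [hv (f (b 0))]
    rw [h4, zero_smul, add_zero]
  · have h2 : T (f (b 1)) = β • f (b 1) := by
      have := LinearMap.congr_fun hc (b 1)
      simp only [LinearMap.comp_apply] at this
      rw [this, h1, map_smul]
    have h3 := congrArg (fun v => b.repr v 0) h2
    simp only [hT (f (b 1)), map_add, map_smul, Finsupp.add_apply, Finsupp.smul_apply,
      Basis.repr_self, smul_eq_mul] at h3
    simp at h3
    have h4 : b.repr (f (b 1)) 0 = 0 := by
      rcases h3 with h3 | h3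
      · exact absurd h3 hαβ
      · exact h3
    conv_lhs => rw [hv (f (b 1))]
    rw [h4, zero_smul, zero_add]

/-- The trace-zero centraliser of an endomorphism of a plane with two distinct eigenvalues
is a line, spanned by an element which commutes with everything commuting with `T`. -/
theorem exists_generator (hV : finrank k V = 2) (T : Module.End k V) (α β : k) (hαβ : α ≠ β)
    (hT : LinearMap.charpoly T = (X - C α) * (X - C β)) :
    ∃ f₀ : Module.End k V, f₀ ≠ 0 ∧ LinearMap.trace k V f₀ = 0 ∧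
      (∀ s : Module.End k V, s * T = T * s → s * f₀ = f₀ * s) ∧
      ∀ f : Module.End k V, LinearMap.trace k V f = 0 → T ∘ₗ f = f ∘ₗ T →
        ∃ c : k, c • f₀ = f := by
  obtain ⟨b, h0, h1⟩ := exists_eigenbasis hV T α β hαβ hT
  have hsub : α - β ≠ 0 := sub_ne_zero.mpr hαβ
  refine ⟨(2 : k) • T - (α + β) • (1 : Module.End k V), ?_, ?_, ?_, ?_⟩
  · intro h
    have h2 := LinearMap.congr_fun h (b 0)
    simp only [LinearMap.sub_apply, LinearMap.smul_apply, Module.End.one_apply, h0,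
      LinearMap.zero_apply, smul_smul, ← sub_smul] at h2
    have h3 : (2 * α - (α + β)) = α - β := by ring
    rw [h3] at h2
    rcases smul_eq_zero.mp h2 with h4 | h4
    · exact hsub h4
    · exact b.ne_zero 0 h4
  · refine (trace_of_diag b _ (α - β) (β - α) ?_ ?_).trans (by ring)
    · simp only [LinearMap.sub_apply, LinearMap.smul_apply, Module.End.one_apply, h0,
        smul_smul, ← sub_smul]
      congr 1; ring
    · simp only [LinearMap.sub_apply, LinearMap.smul_apply, Module.End.one_apply, h1,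
        smul_smul, ← sub_smul]
      congr 1; ring
  · intro s hs
    rw [mul_sub, sub_mul, mul_smul_comm, smul_mul_assoc, hs, mul_smul_comm, smul_mul_assoc,
      mul_one, one_mul]
  · intro f hf hc
    obtain ⟨a, d, ha, hd⟩ := diag_of_commute b T f α β hαβ h0 h1 hc
    have htr := trace_of_diag b f a d ha hd
    rw [hf] at htr
    have hd' : d = -a := by linear_combination -htr
    refine ⟨a / (α - β), ?_⟩
    apply b.ext
    intro i
    fin_cases i
    · show (a / (α - β)) • ((2 : k) • T - (α + β) • (1 : Module.End k V)) (b 0) = f (b 0)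
      simp only [LinearMap.sub_apply, LinearMap.smul_apply, Module.End.one_apply, h0,
        smul_smul, ← sub_smul, ha]
      congr 1
      field_simp
      ring
    · show (a / (α - β)) • ((2 : k) • T - (α + β) • (1 : Module.End k V)) (b 1) = f (b 1)
      simp only [LinearMap.sub_apply, LinearMap.smul_apply, Module.End.one_apply, h1,
        smul_smul, ← sub_smul, hd, hd']
      congr 1
      field_simp
      ring

end LinAlg

/-- `ρbar` of a commutator in inertia is trivial, so images commute. -/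
theorem rho_commute_of_decomposition {k : Type} [Field k] (ρbar : ResidualGaloisRep k)
    (q : ℕ) (A : ValuationSubring (AlgebraicClosure ℚ)) (hA : A.LiesOverPrime q)
    (hunr : ρbar.IsUnramifiedAt q) (σ₀ σ : GQ) (h₀ : A.IsFrobeniusAt σ₀ q)
    (hσ : σ ∈ A.decompositionSubgroup ℚ) :
    ρbar.ρ σ * ρbar.ρ σ₀ = ρbar.ρ σ₀ * ρbar.ρ σ := by
  have h1 := hunr A hA _ (commutator_mem_inertia A q σ₀ σ h₀ hσ)
  rw [map_mul, map_mul, map_mul] at h1
  have h2 : ρbar.ρ σ⁻¹ * ρbar.ρ σ = 1 := by rw [← map_mul, inv_mul_cancel, map_one]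
  have h3 : ρbar.ρ σ₀⁻¹ * ρbar.ρ σ₀ = 1 := by rw [← map_mul, inv_mul_cancel, map_one]
  calc ρbar.ρ σ * ρbar.ρ σ₀
      = (ρbar.ρ σ * ρbar.ρ σ₀ * ρbar.ρ σ⁻¹ * ρbar.ρ σ₀⁻¹) * (ρbar.ρ σ₀ * ρbar.ρ σ) := by
        rw [mul_assoc (ρbar.ρ σ * ρbar.ρ σ₀ * ρbar.ρ σ⁻¹), ← mul_assoc (ρbar.ρ σ₀⁻¹), h3,
          one_mul, mul_assoc (ρbar.ρ σ * ρbar.ρ σ₀), h2, mul_one]
    _ = ρbar.ρ σ₀ * ρbar.ρ σ := by rw [h1, one_mul]

/-- Invariance under the adjoint action is commutation. -/
theorem adRepr_eq_iff {k : Type} [Field k] (ρbar : ResidualGaloisRep k) (g : GQ)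
    (f : Module.End k ρbar.V) :
    adRepr ρbar g f = f ↔ ρbar.ρ g * f = f * ρbar.ρ g := by
  rw [adRepr_apply]
  have h2 : ρbar.ρ g⁻¹ * ρbar.ρ g = 1 := by rw [← map_mul, inv_mul_cancel, map_one]
  have h3 : ρbar.ρ g * ρbar.ρ g⁻¹ = 1 := by rw [← map_mul, mul_inv_cancel, map_one]
  show ρbar.ρ g * (f * ρbar.ρ g⁻¹) = f ↔ _
  constructor
  · intro h
    calc ρbar.ρ g * f = ρbar.ρ g * f * (ρbar.ρ g⁻¹ * ρbar.ρ g) := by rw [h2, mul_one]
      _ = (ρbar.ρ g * (f * ρbar.ρ g⁻¹)) * ρbar.ρ g := by simp only [mul_assoc]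
      _ = f * ρbar.ρ g := by rw [h]
  · intro h
    calc ρbar.ρ g * (f * ρbar.ρ g⁻¹) = (ρbar.ρ g * f) * ρbar.ρ g⁻¹ := by simp only [mul_assoc]
      _ = f * (ρbar.ρ g * ρbar.ρ g⁻¹) := by rw [h, mul_assoc]
      _ = f := by rw [h3, mul_one]

/-- **Leaf LOC-TW-h0.** -/
theorem stmt_loc_TW_h0 : Fermat.Agent.S56.Stmt_loc_TW_h0 := by
  intro k _ _ ρbar q hunr hfrob
  haveI : Fact (q : ℕ).Prime := ⟨q.2⟩
  have hP := padicPlace_liesOverPrime (q : ℕ)
  obtain ⟨σ₀, hσ₀⟩ :=
    Fermat.Agent.Lib.FrobExists.exists_isFrobeniusAt (q : ℕ) q.2 (padicPlace (q : ℕ)) hP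
  obtain ⟨α, β, hαβ, hT⟩ := hfrob _ hP σ₀ hσ₀
  -- a local lift of the Frobenius, up to the kernel of `ρbar`
  obtain ⟨L, hL, hρL⟩ := ρbar.factorsThroughFiniteLevel
  haveI := hL
  obtain ⟨τ₀, hτ₀⟩ := Fermat.Agent.Lib.LocalGlobalDense.exists_local_lift_field (q : ℕ) σ₀
    hσ₀.mem_decompositionSubgroup L
  have hτ₀' : ρbar.ρ (primeLocalToGlobal q τ₀) = ρbar.ρ σ₀ := by
    have h1 : ρbar.ρ (σ₀⁻¹ * primeLocalToGlobal q τ₀) = 1 := by
      apply hρL
      intro x hx
      show σ₀⁻¹ (primeLocalToGlobal q τ₀ x) = x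
      have : primeLocalToGlobal q τ₀ x = σ₀ x := hτ₀ x hx
      rw [this]
      exact σ₀.symm_apply_apply x
    have h2 : ρbar.ρ σ₀ * ρbar.ρ (σ₀⁻¹ * primeLocalToGlobal q τ₀) = ρbar.ρ σ₀ := by
      rw [h1, mul_one]
    rw [← map_mul, mul_inv_cancel_left] at h2
    exact h2
  -- every local element commutes with the Frobenius under `ρbar`
  have hcomm : ∀ τ : primeLocalGaloisGroup q,
      ρbar.ρ (primeLocalToGlobal q τ) * ρbar.ρ σ₀ = ρbar.ρ σ₀ * ρbar.ρ (primeLocalToGlobal q τ) :=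
    fun τ => rho_commute_of_decomposition ρbar q (padicPlace (q : ℕ)) hP hunr σ₀ _ hσ₀
      (localGaloisToGlobal_mem_decompositionSubgroup (q : ℕ) τ)
  obtain ⟨f₀, hne, htr, hcen, hgen⟩ :=
    exists_generator ρbar.finrank_eq (ρbar.ρ σ₀) α β hαβ hT
  have hf₀mem : f₀ ∈ ad0Sub ρbar := htr
  -- the underlying endomorphism of an element of the local representation
  let ι : (locRep (ad0 ρbar) q).V →ₗ[k] Module.End k ρbar.V := (ad0Sub ρbar).subtype
  have hι_inj : Function.Injective ι := (ad0Sub ρbar).injective_subtype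
  have hι_tr : ∀ x : (locRep (ad0 ρbar) q).V, LinearMap.trace k ρbar.V (ι x) = 0 :=
    fun x => (show ad0Sub ρbar from x).2
  -- membership in the invariants
  have hinv_iff : ∀ x : (locRep (ad0 ρbar) q).V,
      x ∈ (locRep (ad0 ρbar) q).ρ.invariants ↔
        ∀ τ : primeLocalGaloisGroup q,
          ρbar.ρ (primeLocalToGlobal q τ) * ι x = ι x * ρbar.ρ (primeLocalToGlobal q τ) := by
    intro x
    rw [Representation.mem_invariants]
    refine forall_congr' fun τ => ?_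
    rw [← adRepr_eq_iff]
    constructor
    · intro h
      exact congrArg ι h
    · intro h
      exact hι_inj h
  let x₀ : (locRep (ad0 ρbar) q).V := (show ad0Sub ρbar from ⟨f₀, hf₀mem⟩)
  have hx₀ : ι x₀ = f₀ := rfl
  have hx₀inv : x₀ ∈ (locRep (ad0 ρbar) q).ρ.invariants := by
    rw [hinv_iff]
    intro τ
    rw [hx₀]
    exact hcen _ (hcomm τ)
  rw [finrank_eq_one_iff']
  refine ⟨⟨x₀, hx₀inv⟩, ?_, ?_⟩
  · intro h
    apply hne
    have h1 : x₀ = 0 := congrArg Subtype.val h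
    rw [← hx₀, h1, map_zero]
  · rintro ⟨x, hx⟩
    have hx' := (hinv_iff x).mp hx τ₀
    rw [hτ₀'] at hx'
    obtain ⟨c, hc⟩ := hgen (ι x) (hι_tr x) hx'
    refine ⟨c, ?_⟩
    apply Subtype.ext
    apply hι_inj
    show ι (c • x₀) = ι x
    rw [map_smul, hx₀, hc]

end Fermat.Agent.S56.H59

end
end
-- ==== END Fermat.Agent.S56.H59_LocTWh0

-- ==== BEGIN Fermat.Agent.S56.H92_StableFlFinal
section

set_option autoImplicit false

namespace Fermat.Agent.S56.H92

/-- **Leaf T-S-Fl.** -/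
theorem stmt_stable_Fl : Fermat.Agent.S56.Stmt_stable_Fl :=
  stable_Fl_of_flatProd Fermat.Agent.R.H54.stmt_FlatProd

end Fermat.Agent.S56.H92

end
-- ==== END Fermat.Agent.S56.H92_StableFlFinal

-- ==== BEGIN Fermat.Agent.S56.LocMin.H85_Unip
section

/-!
# S56, leaf LOC-min, part B1/B3 (helper85): unipotent linear algebra

* `pow_eq_one_of_sub_one_sq`: `(f - 1)² = 0` and `p = 0` imply `f ^ p = 1`.
* `sq_zero_and_rel_of_sub_one_sq`: for a first-order deformation `R = (1 + ε c) g` with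
  `(R - 1)² = 0`: `N² = 0` and `c N + N c = 0`, `N = g - 1`.
* `exists_conj_sub_eq`: in dimension `2` and odd characteristic, `N ≠ 0`, `N² = 0`,
  `tr c = 0`, `c N + N c = 0` imply `c = g m g⁻¹ - m` for a trace-zero `m` (`g = 1 + N`).
* `isCocycleOf_sub`: changing a cocycle of a first-order deformation by a coboundary.
-/

set_option autoImplicit false

noncomputable section

namespace Fermat.Agent.S56.LocMin

open IsLocalRing Fermat.Agent.S53 Fermat.Agent.S56 Fermat.Agent.S56.Dict Fermat.Agent.S56.Dict.H85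
open scoped TensorProduct

section ring

variable {R : Type*} [Ring R]

lemma pow_eq_of_sub_one_sq (f : R) (h : (f - 1) * (f - 1) = 0) (n : ℕ) :
    f ^ n = 1 + n • (f - 1) := by
  induction n with
  | zero => simp
  | succ n ih =>
    have e : f = 1 + (f - 1) := by abel
    have e2 : (1 + n • (f - 1)) * (1 + (f - 1))
        = 1 + n • (f - 1) + (f - 1) + n • ((f - 1) * (f - 1)) := by
      rw [mul_add, mul_one, add_mul, one_mul, smul_mul_assoc]
      abel
    rw [pow_succ, ih]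
    nth_rewrite 2 [e]
    rw [e2, h, smul_zero, add_zero, add_smul, one_smul]
    abel

lemma pow_eq_one_of_sub_one_sq (f : R) (h : (f - 1) * (f - 1) = 0) (p : ℕ)
    (hp : p • (1 : R) = 0) : f ^ p = 1 := by
  rw [pow_eq_of_sub_one_sq f h p]
  have : p • (f - 1) = (p • (1 : R)) * (f - 1) := by rw [smul_mul_assoc, one_mul]
  rw [this, hp, zero_mul, add_zero]

end ring

section dual

variable {k : Type} [Field k] {V : Type} [AddCommGroup V] [Module k V]
  {W : Type} [AddCommGroup W] [Module (DualNumber k) W]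
  (θ : (DualNumber k ⊗[k] V) ≃ₗ[DualNumber k] W) (R : Module.End (DualNumber k) W)
  (g c : Module.End k V)

/-- The action on the `ε`-part. -/
lemma apply_theta_eps
    (h : ∀ v : V, R (θ ((1 : DualNumber k) ⊗ₜ[k] v)) =
      θ ((1 : DualNumber k) ⊗ₜ[k] (g v) + (DualNumber.eps : DualNumber k) ⊗ₜ[k] (c (g v))))
    (w : V) : R (θ ((DualNumber.eps : DualNumber k) ⊗ₜ[k] w))
      = θ ((DualNumber.eps : DualNumber k) ⊗ₜ[k] (g w)) := by
  rw [← eps_smul_one_tmul, map_smul, map_smul, h w, ← map_smul, smul_add,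
    eps_smul_one_tmul, eps_smul_eps_tmul, add_zero]

/-- Two elements with the same image have the same components. -/
lemma eq_of_theta_eq {a a' b b' : V}
    (h : θ ((1 : DualNumber k) ⊗ₜ[k] a + (DualNumber.eps : DualNumber k) ⊗ₜ[k] b)
      = θ ((1 : DualNumber k) ⊗ₜ[k] a' + (DualNumber.eps : DualNumber k) ⊗ₜ[k] b')) :
    a = a' ∧ b = b' := by
  have h2 := θ.injective h
  have p1 := congrArg (proj₁ V) h2
  have p2 := congrArg (proj₂ V) h2
  simp only [map_add, proj₁_tmul, proj₂_tmul, TrivSqZeroExt.fst_one, TrivSqZeroExt.snd_one,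
    one_smul, zero_smul, DualNumber.fst_eps, DualNumber.snd_eps, add_zero, zero_add] at p1 p2
  exact ⟨p1, p2⟩

/-- `(R - 1)²` on the constant part. -/
lemma sub_one_sq_theta
    (h : ∀ v : V, R (θ ((1 : DualNumber k) ⊗ₜ[k] v)) =
      θ ((1 : DualNumber k) ⊗ₜ[k] (g v) + (DualNumber.eps : DualNumber k) ⊗ₜ[k] (c (g v))))
    (v : V) : ((R - 1) * (R - 1)) (θ ((1 : DualNumber k) ⊗ₜ[k] v))
      = θ ((1 : DualNumber k) ⊗ₜ[k] ((g - 1) ((g - 1) v)) +
          (DualNumber.eps : DualNumber k) ⊗ₜ[k] (c (g ((g - 1) v)) + (g - 1) (c (g v)))) := by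
  have h1 : ∀ u : V, (R - 1) (θ ((1 : DualNumber k) ⊗ₜ[k] u))
      = θ ((1 : DualNumber k) ⊗ₜ[k] ((g - 1) u) +
          (DualNumber.eps : DualNumber k) ⊗ₜ[k] (c (g u))) := by
    intro u
    rw [LinearMap.sub_apply, Module.End.one_apply, h u, ← map_sub, LinearMap.sub_apply,
      Module.End.one_apply, TensorProduct.tmul_sub]
    congr 1
    abel
  have h2 : ∀ u : V, (R - 1) (θ ((DualNumber.eps : DualNumber k) ⊗ₜ[k] u))
      = θ ((DualNumber.eps : DualNumber k) ⊗ₜ[k] ((g - 1) u)) := by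
    intro u
    rw [LinearMap.sub_apply, Module.End.one_apply, apply_theta_eps θ R g c h u, ← map_sub,
      LinearMap.sub_apply, Module.End.one_apply, TensorProduct.tmul_sub]
  rw [Module.End.mul_apply, h1 v, map_add, map_add, h1, h2, ← map_add, TensorProduct.tmul_add]
  congr 1
  try abel

/-- For `R = (1 + ε c) g` with `(R - 1)² = 0`: `N² = 0` and `c N + N c = 0`, where `N = g - 1`. -/
theorem sq_zero_and_rel_of_sub_one_sq
    (h : ∀ v : V, R (θ ((1 : DualNumber k) ⊗ₜ[k] v)) =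
      θ ((1 : DualNumber k) ⊗ₜ[k] (g v) + (DualNumber.eps : DualNumber k) ⊗ₜ[k] (c (g v))))
    (hR : (R - 1) * (R - 1) = 0) :
    (g - 1) * (g - 1) = 0 ∧ c * (g - 1) + (g - 1) * c = 0 := by
  have key : ∀ v : V, (g - 1) ((g - 1) v) = 0 ∧ c (g ((g - 1) v)) + (g - 1) (c (g v)) = 0 := by
    intro v
    have h1 := sub_one_sq_theta θ R g c h v
    rw [hR, LinearMap.zero_apply] at h1
    have h0 : θ ((1 : DualNumber k) ⊗ₜ[k] (0 : V) + (DualNumber.eps : DualNumber k) ⊗ₜ[k] (0 : V))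
        = 0 := by
      rw [TensorProduct.tmul_zero, TensorProduct.tmul_zero, add_zero, map_zero]
    rw [← h0] at h1
    obtain ⟨e1, e2⟩ := eq_of_theta_eq θ h1
    exact ⟨e1.symm, e2.symm⟩
  have hN : (g - 1) * (g - 1) = 0 := LinearMap.ext fun v => (key v).1
  refine ⟨hN, ?_⟩
  -- `c g N + N c g = 0` with `g = 1 + N`
  have h2 : c * g * (g - 1) + (g - 1) * c * g = 0 :=
    LinearMap.ext fun v => (key v).2
  have hg : g = 1 + (g - 1) := by abel
  set N := g - 1 with hNdef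
  rw [hg] at h2
  have h3 : c * N + N * c + N * c * N = 0 := by
    have e : c * (1 + N) * N + N * c * (1 + N) = c * N + N * c + N * c * N + c * (N * N) := by
      noncomm_ring
    rw [e, hN, mul_zero, add_zero] at h2
    exact h2
  have h4 : N * c * N = 0 := by
    have e : N * (c * N + N * c + N * c * N) = N * c * N + (N * N) * c + (N * N) * c * N := by
      noncomm_ring
    rw [h3, mul_zero, hN, zero_mul, zero_mul, add_zero, add_zero] at e
    exact e.symm
  rw [h4, add_zero] at h3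
  exact h3

/-- Changing the cocycle by a coboundary: the core computation. -/
lemma cocycle_rel_sub (g' : Module.End k V)
    (h : ∀ v : V, R (θ ((1 : DualNumber k) ⊗ₜ[k] v)) =
      θ ((1 : DualNumber k) ⊗ₜ[k] (g v) + (DualNumber.eps : DualNumber k) ⊗ₜ[k] (c (g v))))
    (hg : ∀ v : V, g' (g v) = v) (m : Module.End k V) (v : V) :
    R (((unip (-m)).trans θ) ((1 : DualNumber k) ⊗ₜ[k] v)) =
      ((unip (-m)).trans θ) ((1 : DualNumber k) ⊗ₜ[k] (g v) +
        (DualNumber.eps : DualNumber k) ⊗ₜ[k] ((c - (g ∘ₗ m ∘ₗ g' - m)) (g v))) := by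
  have hL : R (θ (unip (-m) ((1 : DualNumber k) ⊗ₜ[k] v)))
      = θ ((1 : DualNumber k) ⊗ₜ[k] (g v) +
          (DualNumber.eps : DualNumber k) ⊗ₜ[k] (c (g v) + g ((-m) v))) := by
    rw [unip_one_tmul, map_add, map_add, h v, apply_theta_eps θ R g c h, ← map_add,
      TensorProduct.tmul_add, add_assoc]
  have hR : unip (-m) ((1 : DualNumber k) ⊗ₜ[k] (g v) +
        (DualNumber.eps : DualNumber k) ⊗ₜ[k] ((c - (g ∘ₗ m ∘ₗ g' - m)) (g v)))
      = (1 : DualNumber k) ⊗ₜ[k] (g v) + (DualNumber.eps : DualNumber k) ⊗ₜ[k]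
          ((-m) (g v) + (c - (g ∘ₗ m ∘ₗ g' - m)) (g v)) := by
    rw [map_add, unip_one_tmul, unip_eps_tmul, TensorProduct.tmul_add, add_assoc]
  rw [LinearEquiv.trans_apply, LinearEquiv.trans_apply, hL, hR]
  congr 3
  simp only [LinearMap.sub_apply, LinearMap.comp_apply, LinearMap.neg_apply, hg, map_neg]
  abel

end dual

section matrix

variable {k : Type*} [Field k]

/-- The standard nilpotent matrix. -/
def nilMat (k : Type*) [Field k] : Matrix (Fin 2) (Fin 2) k := !![0, 1; 0, 0]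

theorem matrix_key (h2 : (2 : k) ≠ 0) (C : Matrix (Fin 2) (Fin 2) k)
    (hC : C * nilMat k + nilMat k * C = 0) :
    ∃ m : Matrix (Fin 2) (Fin 2) k, m.trace = 0 ∧
      C * (1 + nilMat k) = nilMat k * m - m * nilMat k := by
  have h00 : C 1 0 = 0 := by
    have := congrFun (congrFun hC 0) 0
    simpa [nilMat, Matrix.mul_apply, Fin.sum_univ_two, Matrix.add_apply, Matrix.vecMul,
      dotProduct] using this
  have h01 : C 0 0 + C 1 1 = 0 := by
    have := congrFun (congrFun hC 0) 1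
    simpa [nilMat, Matrix.mul_apply, Fin.sum_univ_two, Matrix.add_apply, Matrix.vecMul,
      dotProduct] using this
  have h11 : C 1 1 = - C 0 0 := by linear_combination h01
  refine ⟨!![-(C 0 0 + C 0 1) / 2, 0; C 0 0, (C 0 0 + C 0 1) / 2], ?_, ?_⟩
  · simp [Matrix.trace, Fin.sum_univ_two]
    ring
  · ext i j
    fin_cases i <;> fin_cases j <;>
      simp [nilMat, Matrix.mul_apply, Fin.sum_univ_two, Matrix.add_apply, Matrix.one_apply,
        h00, h11]
    field_simp
    ring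

variable {V : Type*} [AddCommGroup V] [Module k V]

/-- In dimension `2` and odd characteristic: if `N ≠ 0`, `N² = 0` and `c N + N c = 0` then
`c (1 + N) = N m - m N` for some trace-zero `m`. -/
theorem exists_comm_eq (hV : Module.finrank k V = 2) (h2 : (2 : k) ≠ 0)
    (N c : Module.End k V) (hN0 : N ≠ 0) (hN : N * N = 0) (hc : c * N + N * c = 0) :
    ∃ m : Module.End k V, LinearMap.trace k V m = 0 ∧ c * (1 + N) = N * m - m * N := by
  classical
  obtain ⟨v, hv⟩ : ∃ v, N v ≠ 0 := by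
    by_contra hcon
    push Not at hcon
    exact hN0 (LinearMap.ext hcon)
  have hNN : ∀ u, N (N u) = 0 := fun u => by
    have := congrArg (fun f : Module.End k V => f u) hN
    exact this
  have hli : LinearIndependent k ![N v, v] := by
    rw [LinearIndependent.pair_iff]
    intro s t hst
    have h1 := congrArg N hst
    rw [map_add, map_smul, map_smul, hNN, smul_zero, zero_add, map_zero] at h1
    have ht : t = 0 := (smul_eq_zero.1 h1).resolve_right hv
    rw [ht, zero_smul, add_zero] at hst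
    exact ⟨(smul_eq_zero.1 hst).resolve_right hv, ht⟩
  let b : Module.Basis (Fin 2) k V :=
    basisOfLinearIndependentOfCardEqFinrank hli (by rw [hV]; rfl)
  have hb0 : b 0 = N v := by
    show (basisOfLinearIndependentOfCardEqFinrank hli _) 0 = _
    rw [coe_basisOfLinearIndependentOfCardEqFinrank]
    rfl
  have hb1 : b 1 = v := by
    show (basisOfLinearIndependentOfCardEqFinrank hli _) 1 = _
    rw [coe_basisOfLinearIndependentOfCardEqFinrank]
    rfl
  let e := LinearMap.toMatrixAlgEquiv b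
  have heN : e N = nilMat k := by
    ext i j
    rw [LinearMap.toMatrixAlgEquiv_apply]
    fin_cases j
    · have : N (b 0) = 0 := by rw [hb0, hNN]
      simp only [Fin.zero_eta, this, map_zero, Finsupp.coe_zero, Pi.zero_apply]
      fin_cases i <;> simp [nilMat]
    · have : N (b 1) = b 0 := by rw [hb1, hb0]
      simp only [Fin.mk_one, this, Module.Basis.repr_self]
      fin_cases i <;> simp [nilMat]
  have hC : e c * nilMat k + nilMat k * e c = 0 := by
    rw [← heN, ← map_mul, ← map_mul, ← map_add, hc, map_zero]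
  obtain ⟨m₀, hm₀, hm⟩ := matrix_key h2 (e c) hC
  refine ⟨e.symm m₀, ?_, ?_⟩
  · rw [LinearMap.trace_eq_matrix_trace k b]
    have : LinearMap.toMatrix b b (e.symm m₀) = m₀ := e.apply_symm_apply m₀
    rw [this, hm₀]
  · apply e.injective
    rw [map_mul, map_add, map_one, map_sub, map_mul, map_mul, e.apply_symm_apply, heN]
    exact hm

end matrix

section charpoly

variable {A : Type*} [CommRing A] {W : Type*} [AddCommGroup W] [Module A W] [Module.Free A W]
  [Module.Finite A W]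

/-- Cayley-Hamilton for a unipotent characteristic polynomial. -/
theorem sub_one_sq_of_charpoly (f : Module.End A W)
    (h : LinearMap.charpoly f = (Polynomial.X - 1) ^ 2) : (f - 1) * (f - 1) = 0 := by
  have h1 := LinearMap.aeval_self_charpoly f
  rw [h, map_pow, map_sub, Polynomial.aeval_X, map_one, pow_two] at h1
  exact h1

end charpoly

section cocycle

variable {𝒪 : Type} [CommRing 𝒪] [IsLocalRing 𝒪]
variable {ρbar : ResidualGaloisRep (ResidueField 𝒪)} {𝒟 : Cond 𝒪}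

theorem rho_rho_inv (σ : _root_.Fermat.Agent.S56.GQ) (v : ρbar.V) : ρbar.ρ σ (ρbar.ρ σ⁻¹ v) = v := by
  have h := rho_inv_rho ρbar σ⁻¹ v
  rwa [inv_inv] at h

/-- Changing the cocycle of a first-order deformation by the coboundary of `m`. -/
theorem isCocycleOf_sub (x : TSub 𝒪 ρbar 𝒟) (c : _root_.Fermat.Agent.S56.GQ → Module.End (ResidueField 𝒪) ρbar.V)
    (hc : IsCocycleOf x c) (m : Module.End (ResidueField 𝒪) ρbar.V) :
    IsCocycleOf x (fun σ => c σ - (ρbar.ρ σ ∘ₗ m ∘ₗ ρbar.ρ σ⁻¹ - m)) := by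
  obtain ⟨θ, hθ⟩ := hc
  exact ⟨(unip (-m)).trans θ, fun σ v =>
    cocycle_rel_sub θ (x.1.ρ σ) (ρbar.ρ σ) (c σ) (ρbar.ρ σ⁻¹) (hθ σ)
      (rho_inv_rho ρbar σ) m v⟩

/-- The deformation determines the residual representation and the cocycle. -/
theorem eq_of_rho_eq (x : TSub 𝒪 ρbar 𝒟) (c : _root_.Fermat.Agent.S56.GQ → Module.End (ResidueField 𝒪) ρbar.V)
    (hc : IsCocycleOf x c) {σ τ : _root_.Fermat.Agent.S56.GQ} (h : x.1.ρ σ = x.1.ρ τ) :
    ρbar.ρ σ = ρbar.ρ τ ∧ c σ = c τ := by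
  obtain ⟨θ, hθ⟩ := hc
  have key : ∀ v : ρbar.V, ρbar.ρ σ v = ρbar.ρ τ v ∧ c σ (ρbar.ρ σ v) = c τ (ρbar.ρ τ v) := by
    intro v
    have h1 := hθ σ v
    rw [h, hθ τ v] at h1
    obtain ⟨e1, e2⟩ := eq_of_theta_eq θ h1
    exact ⟨e1.symm, e2.symm⟩
  have hg : ρbar.ρ σ = ρbar.ρ τ := LinearMap.ext fun v => (key v).1
  refine ⟨hg, LinearMap.ext fun u => ?_⟩
  have h2 := (key (ρbar.ρ σ⁻¹ u)).2
  rw [← hg, rho_rho_inv] at h2
  exact h2

/-- The relations at an element on which the deformation is unipotent. -/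
theorem rel_of_unipotent (x : TSub 𝒪 ρbar 𝒟) (c : _root_.Fermat.Agent.S56.GQ → Module.End (ResidueField 𝒪) ρbar.V)
    (hc : IsCocycleOf x c) (σ : _root_.Fermat.Agent.S56.GQ)
    (h : LinearMap.charpoly (x.1.ρ σ) = (Polynomial.X - 1) ^ 2) :
    (ρbar.ρ σ - 1) * (ρbar.ρ σ - 1) = 0 ∧ c σ * (ρbar.ρ σ - 1) + (ρbar.ρ σ - 1) * c σ = 0 := by
  obtain ⟨θ, hθ⟩ := hc
  exact sq_zero_and_rel_of_sub_one_sq θ (x.1.ρ σ) (ρbar.ρ σ) (c σ) (hθ σ)
    (sub_one_sq_of_charpoly _ h)

end cocycle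

end Fermat.Agent.S56.LocMin

end

end
-- ==== END Fermat.Agent.S56.LocMin.H85_Unip

-- ==== BEGIN Fermat.Agent.S56.TWS.Defs
section

set_option autoImplicit false

/-!
# Cluster T / S56, package TW-SELECT (owner-planner: helper74): exact sub-packages

Plan: `NOTES/plan/T_TWS.md`.  Target: `Stmt_TW_select` (`S56/LeavesNT.lean`).
Notation: `k` the residue field, `M' = tateDual p (ad0 ρbar)`.

* `cycKer p n`      : the elements of `G_ℚ` fixing the `p^(n+1)`-th roots of unity.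
* `HasDistinctEig`  : `ρbar σ` has two distinct eigenvalues in `k`.
* `Stmt_H1_image`   (TWS-A, group theory): a cocycle of `M'` vanishing on `ker ρbar` is a coboundary.
* `Stmt_levKer`     (TWS-B): a cocycle with nonzero class does not vanish on `ker ρbar ∩ cycKer p n`.
* `Stmt_distinct`   (TWS-C1): `cycKer p n` contains an element with distinct eigenvalues.
* `Stmt_irred`      (TWS-C2): `M'` has no proper nonzero stable subspace.
* `Stmt_select`     (TWS-C): the element `σ` of the Chebotarev argument.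
* `Stmt_prime`      (TWS-D): Frobenius density gives the prime.
* `Stmt_core`       (TWS-CD): one prime for one class.
* `Stmt_TW_select` from `Stmt_core` is TWS-E (counting).
-/

noncomputable section

namespace Fermat.Agent.S56.TWS

open Polynomial IsLocalRing CategoryTheory groupCohomology ExtCitation Fermat.Agent.S53 Module

/-- The elements of `G_ℚ` fixing all `p^(n+1)`-th roots of unity. -/
def cycKer (p n : ℕ) : Subgroup _root_.Fermat.Agent.S56.GQ where
  carrier := {g | ∀ μ : AlgebraicClosure ℚ, μ ^ p ^ (n + 1) = 1 → g μ = μ}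
  mul_mem' := fun {a b} ha hb μ hμ => by
    rw [AlgEquiv.mul_apply, hb μ hμ, ha μ hμ]
  one_mem' := fun _ _ => rfl
  inv_mem' := fun {a} ha μ hμ => by
    have h := ha μ hμ
    calc a⁻¹ μ = a⁻¹ (a μ) := by rw [h]
      _ = μ := by rw [← AlgEquiv.mul_apply, inv_mul_cancel, AlgEquiv.one_apply]

theorem mem_cycKer {p n : ℕ} {g : _root_.Fermat.Agent.S56.GQ} :
    g ∈ cycKer p n ↔ ∀ μ : AlgebraicClosure ℚ, μ ^ p ^ (n + 1) = 1 → g μ = μ := Iff.rfl

/-- `ρbar σ` has two distinct eigenvalues in `k`. -/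
def HasDistinctEig {k : Type} [Field k] (ρbar : ResidualGaloisRep k) (σ : _root_.Fermat.Agent.S56.GQ) : Prop :=
  ∃ α β : k, α ≠ β ∧ LinearMap.charpoly (ρbar.ρ σ) = (X - C α) * (X - C β)

/-- **TWS-A** (finite group theory; classification-free, see the plan).  A cocycle of
`ad⁰ ρbar (1)`-dual which vanishes on `ker ρbar` is a coboundary:
`H¹(ρbar(G_ℚ), ad⁰(1)) = 0`. -/
def Stmt_H1_image : Prop :=
  ∀ (𝒪 : Type) [CommRing 𝒪] [IsDomain 𝒪] [IsDiscreteValuationRing 𝒪]
    [IsAdicComplete (maximalIdeal 𝒪) 𝒪] [Finite (ResidueField 𝒪)]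
    (p : ℕ) [Fact p.Prime] [CharP (ResidueField 𝒪) p]
    (ρbar : ResidualGaloisRep (ResidueField 𝒪)) (S Smin : Finset ℕ),
    Hyp 𝒪 p ρbar S Smin →
    ∀ c : cocycles₁ (tateDual p (ad0 ρbar)), (∀ s : _root_.Fermat.Agent.S56.GQ, ρbar.ρ s = 1 → c s = 0) →
      ∃ m : tateDual p (ad0 ρbar), ∀ g : _root_.Fermat.Agent.S56.GQ, c g = (tateDual p (ad0 ρbar)).ρ g m - m

/-- **TWS-B.** A cocycle of `M'` with nonzero class does not vanish identically on
`ker ρbar ∩ cycKer p n`.  (From TWS-A and GLOB-h0.) -/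
def Stmt_levKer : Prop :=
  ∀ (𝒪 : Type) [CommRing 𝒪] [IsDomain 𝒪] [IsDiscreteValuationRing 𝒪]
    [IsAdicComplete (maximalIdeal 𝒪) 𝒪] [Finite (ResidueField 𝒪)]
    (p : ℕ) [Fact p.Prime] [CharP (ResidueField 𝒪) p]
    (ρbar : ResidualGaloisRep (ResidueField 𝒪)) (S Smin : Finset ℕ),
    Hyp 𝒪 p ρbar S Smin →
    ∀ c : cocycles₁ (tateDual p (ad0 ρbar)), (H1π (tateDual p (ad0 ρbar))).hom c ≠ 0 →
      ∀ n : ℕ, ∃ τ : _root_.Fermat.Agent.S56.GQ, τ ∈ cycKer p n ∧ ρbar.ρ τ = 1 ∧ c τ ≠ 0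

/-- **TWS-C1.** `cycKer p n` contains an element whose image under `ρbar` has distinct
eigenvalues.  (From `hTW`, `habs`, `hsplit`.) -/
def Stmt_distinct : Prop :=
  ∀ (𝒪 : Type) [CommRing 𝒪] [IsDomain 𝒪] [IsDiscreteValuationRing 𝒪]
    [IsAdicComplete (maximalIdeal 𝒪) 𝒪] [Finite (ResidueField 𝒪)]
    (p : ℕ) [Fact p.Prime] [CharP (ResidueField 𝒪) p]
    (ρbar : ResidualGaloisRep (ResidueField 𝒪)) (S Smin : Finset ℕ),
    Hyp 𝒪 p ρbar S Smin → ∀ n : ℕ, ∃ g : _root_.Fermat.Agent.S56.GQ, g ∈ cycKer p n ∧ HasDistinctEig ρbar g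

/-- **TWS-C2.** `M' = ad⁰ ρbar (1)`-dual is an irreducible `k[G_ℚ]`-module.
(From `H27.eq_zero_of_twisted` and the trace form.) -/
def Stmt_irred : Prop :=
  ∀ (𝒪 : Type) [CommRing 𝒪] [IsDomain 𝒪] [IsDiscreteValuationRing 𝒪]
    [IsAdicComplete (maximalIdeal 𝒪) 𝒪] [Finite (ResidueField 𝒪)]
    (p : ℕ) [Fact p.Prime] [CharP (ResidueField 𝒪) p]
    (ρbar : ResidualGaloisRep (ResidueField 𝒪)) (S Smin : Finset ℕ),
    Hyp 𝒪 p ρbar S Smin →
    ∀ W : Submodule (ResidueField 𝒪) (tateDual p (ad0 ρbar)),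
      (∀ (g : _root_.Fermat.Agent.S56.GQ), ∀ x ∈ W, (tateDual p (ad0 ρbar)).ρ g x ∈ W) → W = ⊥ ∨ W = ⊤

/-- **TWS-C.** For a cocycle with nonzero class and every `n` there is `σ` fixing the
`p^(n+1)`-th roots of unity, with distinct eigenvalues, such that the restriction of the class to
the procyclic group generated by `σ` is nonzero: `c σ ∉ (σ - 1) M'`. -/
def Stmt_select : Prop :=
  ∀ (𝒪 : Type) [CommRing 𝒪] [IsDomain 𝒪] [IsDiscreteValuationRing 𝒪]
    [IsAdicComplete (maximalIdeal 𝒪) 𝒪] [Finite (ResidueField 𝒪)]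
    (p : ℕ) [Fact p.Prime] [CharP (ResidueField 𝒪) p]
    (ρbar : ResidualGaloisRep (ResidueField 𝒪)) (S Smin : Finset ℕ),
    Hyp 𝒪 p ρbar S Smin →
    ∀ c : cocycles₁ (tateDual p (ad0 ρbar)), (H1π (tateDual p (ad0 ρbar))).hom c ≠ 0 →
      ∀ n : ℕ, ∃ σ : _root_.Fermat.Agent.S56.GQ, σ ∈ cycKer p n ∧ HasDistinctEig ρbar σ ∧
        ∀ m : tateDual p (ad0 ρbar), c σ ≠ (tateDual p (ad0 ρbar)).ρ σ m - m

/-- **TWS-D.** (Frobenius density `Lib.FrobDensity.H47.stmt_FD2` + local-global glue.)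
For a level-constant cocycle `c` and `σ` as in TWS-C there is a prime `q` outside any given
finite set, `q ≡ 1 mod p^(n+1)`, all of whose Frobenius elements have distinct eigenvalues, at
which the class of `c` is not locally trivial. -/
def Stmt_prime : Prop :=
  ∀ (𝒪 : Type) [CommRing 𝒪] [IsDomain 𝒪] [IsDiscreteValuationRing 𝒪]
    [IsAdicComplete (maximalIdeal 𝒪) 𝒪] [Finite (ResidueField 𝒪)]
    (p : ℕ) [Fact p.Prime] [CharP (ResidueField 𝒪) p]
    (ρbar : ResidualGaloisRep (ResidueField 𝒪)) (S Smin : Finset ℕ),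
    Hyp 𝒪 p ρbar S Smin →
    ∀ c : cocycles₁ (tateDual p (ad0 ρbar)),
      IsLevelConstant₁ (MonoidHom.id _root_.Fermat.Agent.S56.GQ) (c : _root_.Fermat.Agent.S56.GQ → tateDual p (ad0 ρbar)) →
      ∀ (n : ℕ) (σ : _root_.Fermat.Agent.S56.GQ), σ ∈ cycKer p n → HasDistinctEig ρbar σ →
        (∀ m : tateDual p (ad0 ρbar), c σ ≠ (tateDual p (ad0 ρbar)).ρ σ m - m) →
        ∀ S' : Finset ℕ, ∃ q : Nat.Primes, (q : ℕ) ∉ S' ∧ (q : ℕ) ∉ S ∧
          p ^ (n + 1) ∣ (q : ℕ) - 1 ∧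
          (∀ P : ValuationSubring (AlgebraicClosure ℚ), P.LiesOverPrime (q : ℕ) →
            ∀ φ : _root_.Fermat.Agent.S56.GQ, P.IsFrobeniusAt φ (q : ℕ) → HasDistinctEig ρbar φ) ∧
          resAt (tateDual p (ad0 ρbar)) q ((H1π (tateDual p (ad0 ρbar))).hom c) ≠ 0

/-- **TWS-CD.** One Taylor-Wiles prime for one nonzero continuous class. -/
def Stmt_core : Prop :=
  ∀ (𝒪 : Type) [CommRing 𝒪] [IsDomain 𝒪] [IsDiscreteValuationRing 𝒪]
    [IsAdicComplete (maximalIdeal 𝒪) 𝒪] [Finite (ResidueField 𝒪)]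
    (p : ℕ) [Fact p.Prime] [CharP (ResidueField 𝒪) p]
    (ρbar : ResidualGaloisRep (ResidueField 𝒪)) (S Smin : Finset ℕ),
    Hyp 𝒪 p ρbar S Smin →
    ∀ ξ : H1 (tateDual p (ad0 ρbar)),
      ξ ∈ continuousH1 (MonoidHom.id _root_.Fermat.Agent.S56.GQ) (tateDual p (ad0 ρbar)) → ξ ≠ 0 →
      ∀ (n : ℕ) (S' : Finset ℕ), ∃ q : Nat.Primes, (q : ℕ) ∉ S' ∧ (q : ℕ) ∉ S ∧
        p ^ (n + 1) ∣ (q : ℕ) - 1 ∧
        (∀ P : ValuationSubring (AlgebraicClosure ℚ), P.LiesOverPrime (q : ℕ) →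
          ∀ φ : _root_.Fermat.Agent.S56.GQ, P.IsFrobeniusAt φ (q : ℕ) → HasDistinctEig ρbar φ) ∧
        resAt (tateDual p (ad0 ρbar)) q ξ ≠ 0

/-- TWS-CD from TWS-C and TWS-D. -/
theorem stmt_core_of (hC : Stmt_select) (hD : Stmt_prime) : Stmt_core := by
  intro 𝒪 _ _ _ _ _ p _ _ ρbar S Smin hyp ξ hξ hξ0 n S'
  obtain ⟨c, hc, rfl⟩ := (mem_continuousH1_iff _ _ _).1 hξ
  obtain ⟨σ, hσ, hdist, hne⟩ := hC 𝒪 p ρbar S Smin hyp c hξ0 n
  exact hD 𝒪 p ρbar S Smin hyp c hc n σ hσ hdist hne S'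

end Fermat.Agent.S56.TWS

end

end
-- ==== END Fermat.Agent.S56.TWS.Defs
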