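-- GENERATED (merged mirror, NOTES/tools/trim/merge3_helper67.py): 6 modules of the originals, bodies verbatim.
import Fermat.Agent.Zm.S56_L09_004
import Fermat.Agent.Zm.S56_L07_003
import Fermat.Agent.Zm.S56_L07_002
import Fermat.Agent.Zm.S56_L06_003
import Fermat.Agent.Zm.S56_L09_002
import Fermat.Agent.S05.H95_Inertia
import Fermat.Agent.Zm.S56_L03_000
import Fermat.Agent.Zm.S56_L09_005

-- ==== BEGIN Fermat.Agent.S55.CFT.GS.H24_Pl
section

set_option autoImplicit false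
set_option linter.unusedSectionVars false
set_option linter.unusedVariables false
set_option linter.style.haveILetI false

open CategoryTheory groupCohomology ExtCitation TensorProduct

open scoped Pointwise

noncomputable section

namespace Fermat.Agent.S55.CFT.GS.H24

open Fermat.Agent.S55 Fermat.Agent.S55.Top Fermat.Agent.S55.CFT Fermat.Agent.S55.CFT.GS.Bri

local notation "Qb" => AlgebraicClosure ℚ

section phi

variable (K : IntermediateField ℚ Qb) [NumberField ↥K] (q : Nat.Primes)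

theorem φσ_tmul (σ : GQ) (a : Qp q) (x : ↥K) :
    haveI := fact_primes q
    φσ K q σ (a ⊗ₜ[ℚ] x) =
      algebraMap (Qp q) (PadicAlgCl (q : ℕ)) a * padicEmbedding (q : ℕ) (σ (x : Qb)) := by
  haveI := fact_primes q
  unfold φσ
  rw [Algebra.TensorProduct.lift_tmul]
  rfl

/-- A `ℚ_q`-algebra map on `ℚ_q ⊗ K` is determined by its values on `1 ⊗ x`. -/
theorem semiLocal_algHom_ext
    {ψ ψ' : haveI := fact_primes q; SemiLocal ↥K q →ₐ[Qp q] PadicAlgCl (q : ℕ)}
    (h : ∀ x : ↥K, ψ ((1 : Qp q) ⊗ₜ[ℚ] x) = ψ' ((1 : Qp q) ⊗ₜ[ℚ] x)) : ψ = ψ' := by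
  haveI := fact_primes q
  apply Algebra.TensorProduct.ext'
  intro a x
  have e : (a ⊗ₜ[ℚ] x : SemiLocal ↥K q) = a • ((1 : Qp q) ⊗ₜ[ℚ] x) := by
    rw [TensorProduct.smul_tmul']
    congr 1
    exact (mul_one a).symm
  rw [e, map_smul, map_smul, h]

/-- A ring map `K → ℚ̄_q` comes from an element of `G_ℚ`. -/
theorem exists_gal_of_hom
    (j : haveI := fact_primes q; ↥K →ₐ[ℚ] PadicAlgCl (q : ℕ)) :
    haveI := fact_primes q
    ∃ σ : GQ, ∀ x : ↥K, padicEmbedding (q : ℕ) (σ (x : Qb)) = j x := by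
  haveI := fact_primes q
  have hint : ∀ x : ↥K, IsIntegral ℚ (j x) := fun x =>
    (Algebra.IsIntegral.isIntegral (R := ℚ) x).map j
  have hrange : ∀ x : ↥K, j x ∈ (padicEmbedding (q : ℕ)).range := by
    intro x
    obtain ⟨y, hy⟩ := LOC.H5.exists_padicEmbedding_eq (q : ℕ) (j x) (hint x)
    exact ⟨y, hy⟩
  let e := AlgEquiv.ofInjective (padicEmbedding (q : ℕ)) (padicEmbedding (q : ℕ)).injective
  let τ : ↥K →ₐ[ℚ] Qb := (e.symm : (padicEmbedding (q : ℕ)).range →ₐ[ℚ] Qb).comp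
    (j.codRestrict (padicEmbedding (q : ℕ)).range hrange)
  have hτ : ∀ x : ↥K, padicEmbedding (q : ℕ) (τ x) = j x := by
    intro x
    have h1 : e (τ x) = j.codRestrict (padicEmbedding (q : ℕ)).range hrange x := by
      show e (e.symm (j.codRestrict (padicEmbedding (q : ℕ)).range hrange x)) = _
      rw [AlgEquiv.apply_symm_apply]
    have h2 := congrArg Subtype.val h1
    exact h2
  have := h49_qbar_isGalois
  have hn : Normal ℚ Qb := IsGalois.to_normal
  let σ₀ : Qb →ₐ[ℚ] Qb := τ.liftNormal Qb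
  have hσ₀ : ∀ x : ↥K, σ₀ (x : Qb) = τ x := fun x => τ.liftNormal_commutes Qb x
  let σ : GQ := AlgEquiv.ofBijective σ₀ (AlgHom.normal_bijective ℚ Qb Qb σ₀)
  refine ⟨σ, fun x => ?_⟩
  have : σ (x : Qb) = σ₀ (x : Qb) := rfl
  rw [this, hσ₀, hτ]

/-- **PL-ex**. -/
theorem plEx : Stmt_PlEx := by
  intro K _ v
  obtain ⟨q, M⟩ := v
  haveI := fact_primes q
  have hmax : M.asIdeal.IsMaximal := M.2
  letI : Field (SemiLocal ↥K q ⧸ M.asIdeal) := Ideal.Quotient.field M.asIdeal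
  haveI : Algebra.IsAlgebraic (Qp q) (SemiLocal ↥K q ⧸ M.asIdeal) :=
    Algebra.IsAlgebraic.of_finite (Qp q) _
  let e : (SemiLocal ↥K q ⧸ M.asIdeal) →ₐ[Qp q] PadicAlgCl (q : ℕ) := IsAlgClosed.lift
  let ψ : SemiLocal ↥K q →ₐ[Qp q] PadicAlgCl (q : ℕ) :=
    e.comp (Ideal.Quotient.mkₐ (Qp q) M.asIdeal)
  have hker : RingHom.ker ψ = M.asIdeal := by
    ext z
    rw [RingHom.mem_ker]
    show e (Ideal.Quotient.mk M.asIdeal z) = 0 ↔ _
    rw [map_eq_zero_iff e e.toRingHom.injective, Ideal.Quotient.eq_zero_iff_mem]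
  let j : ↥K →ₐ[ℚ] PadicAlgCl (q : ℕ) :=
    (ψ.restrictScalars ℚ).comp (Algebra.TensorProduct.includeRight : ↥K →ₐ[ℚ] SemiLocal ↥K q)
  obtain ⟨σ, hσ⟩ := exists_gal_of_hom K q j
  have hφ : φσ K q σ = ψ := by
    apply semiLocal_algHom_ext
    intro x
    rw [φσ_tmul, map_one, one_mul, hσ]
    rfl
  refine ⟨σ, ?_⟩
  show (⟨q, M⟩ : Place ↥K) = plσ K q σ
  unfold plσ
  congr 1
  apply MaximalSpectrum.ext
  show M.asIdeal = RingHom.ker (φσ K q σ)
  rw [hφ]
  exact hker.symm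

/-- The kernel of `φσ` determines the place. -/
theorem plσ_eq_iff (σ σ' : GQ) :
    plσ K q σ = plσ K q σ' ↔ RingHom.ker (φσ K q σ) = RingHom.ker (φσ K q σ') := by
  constructor
  · intro h
    unfold plσ at h
    have h1 := eq_of_heq (Sigma.mk.inj h).2
    exact congrArg MaximalSpectrum.asIdeal h1
  · intro h
    unfold plσ
    congr 1
    exact MaximalSpectrum.ext h

/-- `ι_q ∘ rl h = h ∘ ι_q`. -/
theorem padicEmbedding_rl (h : Gl q) (x : Qb) :
    haveI := fact_primes q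
    padicEmbedding (q : ℕ) (rl q h x) = glAut q h (padicEmbedding (q : ℕ) x) := by
  haveI := fact_primes q
  exact padicEmbedding_localGaloisToGlobal (q : ℕ) (glAut q h) x

/-- **PL-eq**, the easy direction. -/
theorem plσ_eq_of_double (σ : GQ) (h : Gl q) (g : GQ) (hg : g ∈ K.fixingSubgroup) :
    plσ K q (rl q h * σ * g) = plσ K q σ := by
  haveI := fact_primes q
  rw [plσ_eq_iff]
  have hφ : φσ K q (rl q h * σ * g) = (glAut q h : PadicAlgCl (q : ℕ) →ₐ[Qp q] PadicAlgCl (q : ℕ)).comp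
      (φσ K q σ) := by
    apply semiLocal_algHom_ext
    intro x
    rw [φσ_tmul, map_one, one_mul]
    have hgx : g (x : Qb) = x := (IntermediateField.mem_fixingSubgroup_iff K g).mp hg _ x.2
    have e1 : (rl q h * σ * g) (x : Qb) = rl q h (σ (x : Qb)) := by
      simp only [AlgEquiv.mul_apply, hgx]
    rw [e1, padicEmbedding_rl]
    show _ = glAut q h (φσ K q σ ((1 : Qp q) ⊗ₜ[ℚ] x))
    rw [φσ_tmul, map_one, one_mul]
  ext z
  rw [RingHom.mem_ker, RingHom.mem_ker, hφ]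
  show glAut q h (φσ K q σ z) = 0 ↔ _
  rw [map_eq_zero_iff _ (glAut q h).injective]

/-- **PL-eq**. -/
theorem plEq : Stmt_PlEq := by
  intro K _ q σ σ'
  haveI := fact_primes q
  constructor
  · intro h
    rw [plσ_eq_iff] at h
    have hmax : (RingHom.ker (φσ K q σ)).IsMaximal := ker_φσ_isMaximal K q σ
    letI : Field (SemiLocal ↥K q ⧸ RingHom.ker (φσ K q σ)) :=
      Ideal.Quotient.field (RingHom.ker (φσ K q σ))
    let f : (SemiLocal ↥K q ⧸ RingHom.ker (φσ K q σ)) →ₐ[Qp q] PadicAlgCl (q : ℕ) :=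
      Ideal.Quotient.liftₐ (RingHom.ker (φσ K q σ)) (φσ K q σ) (fun a ha => ha)
    let f' : (SemiLocal ↥K q ⧸ RingHom.ker (φσ K q σ)) →ₐ[Qp q] PadicAlgCl (q : ℕ) :=
      Ideal.Quotient.liftₐ (RingHom.ker (φσ K q σ)) (φσ K q σ') (fun a ha => by
        rw [h] at ha
        exact ha)
    letI : Algebra (SemiLocal ↥K q ⧸ RingHom.ker (φσ K q σ)) (PadicAlgCl (q : ℕ)) :=
      f.toRingHom.toAlgebra
    haveI : IsScalarTower (Qp q) (SemiLocal ↥K q ⧸ RingHom.ker (φσ K q σ))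
        (PadicAlgCl (q : ℕ)) :=
      IsScalarTower.of_algebraMap_eq (fun a => (f.commutes a).symm)
    haveI : Normal (Qp q) (PadicAlgCl (q : ℕ)) :=
      IsAlgClosure.normal (Qp q) (PadicAlgCl (q : ℕ))
    let h₀ : PadicAlgCl (q : ℕ) →ₐ[Qp q] PadicAlgCl (q : ℕ) := f'.liftNormal (PadicAlgCl (q : ℕ))
    have hh₀ : ∀ z : SemiLocal ↥K q, h₀ (φσ K q σ z) = φσ K q σ' z := by
      intro z
      have := f'.liftNormal_commutes (PadicAlgCl (q : ℕ))
        (Ideal.Quotient.mk (RingHom.ker (φσ K q σ)) z)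
      exact this
    let hh : Gl q := AlgEquiv.ofBijective h₀ (AlgHom.normal_bijective (Qp q) _ _ h₀)
    have hx : ∀ x : ↥K, σ' (x : Qb) = (rl q hh * σ) (x : Qb) := by
      intro x
      apply (padicEmbedding (q : ℕ)).injective
      have e1 := hh₀ ((1 : Qp q) ⊗ₜ[ℚ] x)
      rw [φσ_tmul, φσ_tmul, map_one, one_mul, one_mul] at e1
      show padicEmbedding (q : ℕ) (σ' (x : Qb)) =
        padicEmbedding (q : ℕ) (rl q hh (σ (x : Qb)))
      rw [padicEmbedding_rl]
      exact e1.symm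
    refine ⟨hh, (rl q hh * σ)⁻¹ * σ', ?_, by group⟩
    rw [IntermediateField.mem_fixingSubgroup_iff]
    intro x hxK
    have := hx ⟨x, hxK⟩
    show ((rl q hh * σ)⁻¹ * σ') x = x
    rw [AlgEquiv.mul_apply, this]
    show (rl q hh * σ)⁻¹ ((rl q hh * σ) x) = x
    exact (rl q hh * σ).symm_apply_apply x
  · rintro ⟨h, g, hg, rfl⟩
    exact (plσ_eq_of_double K q σ h g hg).symm

end phi

section sys

attribute [local instance] locAct

/-- **PL-S**. -/
theorem plS : Stmt_PlS := by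
  intro S K _ 𝔓
  refine ⟨fun q w w' h => ?_, fun q v hv => ?_⟩
  · obtain ⟨h₁, g, hg, e⟩ := (plEq K q.1 (𝔓.σ q w) (𝔓.σ q w')).1 h
    have h1 : (𝔓.loc q).rep w' = h₁ • (𝔓.loc q).rep w := by
      rw [← 𝔓.σ_smul q w', e, mul_smul, mul_smul, smul_x0_of_mem_fix hg, 𝔓.σ_smul q w]
      rfl
    have h2 := (𝔓.loc q).o_smul h₁ ((𝔓.loc q).rep w)
    rw [← h1, (𝔓.loc q).o_rep, (𝔓.loc q).o_rep] at h2
    exact h2.symm
  · obtain ⟨q', M⟩ := v
    have hq : q' = q.1 := hv
    subst hq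
    obtain ⟨σ, hσ⟩ := plEx K ⟨q.1, M⟩
    set x : XK K := σ • x0 K with hx
    have ht := (𝔓.loc q).t_smul x
    set w := (𝔓.loc q).o x with hw
    set t := (𝔓.loc q).t x with htdef
    refine ⟨w, ?_⟩
    rw [hσ]
    show plσ K q.1 σ = plσ K q.1 (𝔓.σ q w)
    have h1 : ((rl q.1 t * 𝔓.σ q w)⁻¹ * σ) • x0 K = x0 K := by
      rw [mul_smul, ← hx, ← ht, inv_smul_eq_iff, mul_smul, 𝔓.σ_smul q w]
      rfl
    have h2 := mem_fix_of_smul_x0 h1
    have e : σ = rl q.1 t * 𝔓.σ q w * ((rl q.1 t * 𝔓.σ q w)⁻¹ * σ) := by group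
    rw [e]
    exact plσ_eq_of_double K q.1 (𝔓.σ q w) t _ h2

end sys

end Fermat.Agent.S55.CFT.GS.H24

end

end
-- ==== END Fermat.Agent.S55.CFT.GS.H24_Pl

-- ==== BEGIN Fermat.Agent.S56.H47_Basic
section

set_option autoImplicit false

/-!
# Cluster T / S56: the small leaves AD0-basic and TATE-basic (helper47)
-/

noncomputable section

namespace Fermat.Agent.S56.H47

open Polynomial IsLocalRing CategoryTheory groupCohomology ExtCitation Module

/-! ### AD0-basic -/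

theorem ad0Val_ρ_apply {k : Type} [Field k] (ρbar : ResidualGaloisRep k) (g : GQ)
    (f : ad0 ρbar) :
    ad0Val ρbar ((ad0 ρbar).ρ g f) = ρbar.ρ g ∘ₗ ad0Val ρbar f ∘ₗ ρbar.ρ g⁻¹ := rfl

theorem ad0Val_injective {k : Type} [Field k] (ρbar : ResidualGaloisRep k) :
    Function.Injective (ad0Val ρbar) :=
  Subtype.val_injective

theorem ad0_ρ_eq_one {k : Type} [Field k] (ρbar : ResidualGaloisRep k) (g : GQ)
    (h : ρbar.ρ g = 1) : (ad0 ρbar).ρ g = 1 := by
  have h' : ρbar.ρ g⁻¹ = 1 := by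
    have := map_mul ρbar.ρ g⁻¹ g
    rw [inv_mul_cancel, map_one, h, mul_one] at this
    exact this.symm
  refine LinearMap.ext fun f => ad0Val_injective ρbar ?_
  rw [ad0Val_ρ_apply, h, h']
  rfl

theorem ad0_basic : Stmt_ad0_basic := by
  intro k _ ρbar
  refine ⟨?_, ?_, ?_⟩
  · change FiniteDimensional k (ad0Sub ρbar)
    infer_instance
  · intro m
    obtain ⟨L, hL, h⟩ := ρbar.factorsThroughFiniteLevel
    refine ⟨L, hL, fun s hs => ?_⟩
    have h1 : ρbar.ρ s = 1 := h s fun x hx =>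
      (IntermediateField.mem_fixingSubgroup_iff L s).1 hs x hx
    rw [ad0_ρ_eq_one ρbar s h1]; rfl
  · intro q hq A hA g hg
    exact ad0_ρ_eq_one ρbar g (hq A hA g hg)

/-! ### TATE-basic -/

/-- An automorphism fixing all `p`-th roots of unity has trivial cyclotomic character. -/
theorem cycloChar_eq_one_of_fix (p : ℕ) [Fact p.Prime] (σ : GQ)
    (h : ∀ t : AlgebraicClosure ℚ, t ^ p = 1 → σ t = t) : cycloChar p σ = 1 := by
  haveI : NeZero p := ⟨(Fact.out : p.Prime).ne_zero⟩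
  haveI : Fact (1 < p) := ⟨(Fact.out : p.Prime).one_lt⟩
  have h1 := modularCyclotomicCharacter.unique (L := AlgebraicClosure ℚ)
    (card_rootsOfUnity_eq_self p) (σ : AlgebraicClosure ℚ ≃+* AlgebraicClosure ℚ)
    (c := (1 : ZMod p)) (fun t ht => by
      rw [ZMod.val_one, pow_one]
      have ht' : (t : AlgebraicClosure ℚ) ^ p = 1 := by
        have := (mem_rootsOfUnity p t).1 ht
        rw [← Units.val_pow_eq_pow_val, this, Units.val_one]
      exact h t ht')
  refine Units.ext ?_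
  rw [Units.val_one]
  exact h1.symm

theorem cycloK_eq_one_of_fix (p : ℕ) [Fact p.Prime] (k : Type) [Field k] [CharP k p] (σ : GQ)
    (h : ∀ t : AlgebraicClosure ℚ, t ^ p = 1 → σ t = t) : cycloK p k σ = 1 := by
  unfold cycloK
  rw [MonoidHom.comp_apply, cycloChar_eq_one_of_fix p σ h, map_one]

/-- Inertia at `q ≠ p` fixes the `p`-th roots of unity. -/
theorem inertia_fix_root {p q : ℕ} (hp : p.Prime) (hq : q.Prime) (hpq : q ≠ p)
    (A : ValuationSubring (AlgebraicClosure ℚ)) (hA : A.LiesOverPrime q) (σ : GQ)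
    (hσ : σ ∈ A.inertiaSubgroupIn ℚ) (t : AlgebraicClosure ℚ) (ht : t ^ p = 1) : σ t = t := by
  by_contra hne
  have hvt : A.valuation t = 1 := by
    have h1 : A.valuation t ^ p = 1 := by rw [← map_pow, ht, map_one]
    exact (pow_eq_one_iff_of_nonneg zero_le hp.ne_zero).1 h1
  have htA : t ∈ A := (A.valuation_le_one_iff t).1 hvt.le
  have ht0 : t ≠ 0 := by
    rintro rfl
    rw [zero_pow hp.ne_zero] at ht
    exact zero_ne_one ht
  have h1 : σ t - t ∈ A.nonunits := S05.H95.sub_mem_nonunits_of_mem_inertia A hσ htA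
  have hz : (σ t * t⁻¹) ^ p = 1 := by
    rw [mul_pow, ← map_pow, ht, map_one, inv_pow, ht, inv_one, mul_one]
  have hz1 : σ t * t⁻¹ ≠ 1 := by
    intro h
    apply hne
    have := congrArg (· * t) h
    simpa [ht0] using this
  have hzprim : IsPrimitiveRoot (σ t * t⁻¹) p := by
    haveI : Fact p.Prime := ⟨hp⟩
    have ho : orderOf (σ t * t⁻¹) = p := orderOf_eq_prime hz hz1
    rw [← ho]
    exact IsPrimitiveRoot.orderOf _
  have hsum : ∑ i ∈ Finset.range p, (σ t * t⁻¹) ^ i = 0 := hzprim.geom_sum_eq_zero hp.one_lt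
  have hv : A.valuation (σ t * t⁻¹ - 1) < 1 := by
    have h2 : σ t * t⁻¹ - 1 = (σ t - t) * t⁻¹ := by
      field_simp
    rw [h2, map_mul, map_inv₀, hvt, inv_one, mul_one]
    exact (A.mem_nonunits_iff).1 h1
  have hzA : σ t * t⁻¹ ∈ A := by
    have : σ t * t⁻¹ = (σ t * t⁻¹ - 1) + 1 := by ring
    rw [this]
    exact A.add_mem _ _ ((A.valuation_le_one_iff _).1 hv.le) A.one_mem
  have hvi : ∀ i : ℕ, A.valuation ((σ t * t⁻¹) ^ i - 1) < 1 := by
    intro i
    have h3 : (σ t * t⁻¹) ^ i - 1 = (σ t * t⁻¹ - 1) * ∑ j ∈ Finset.range i, (σ t * t⁻¹) ^ j :=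
      (mul_geom_sum _ _).symm
    rw [h3, map_mul]
    have h4 : A.valuation (∑ j ∈ Finset.range i, (σ t * t⁻¹) ^ j) ≤ 1 :=
      (A.valuation_le_one_iff _).2 (A.sum_mem fun j _ => A.pow_mem hzA j)
    calc A.valuation (σ t * t⁻¹ - 1) * A.valuation (∑ j ∈ Finset.range i, (σ t * t⁻¹) ^ j)
        ≤ A.valuation (σ t * t⁻¹ - 1) := mul_le_of_le_one_right' h4
      _ < 1 := hv
  have hvp : A.valuation ((p : ℕ) : AlgebraicClosure ℚ) < 1 := by
    have h5 : ((p : ℕ) : AlgebraicClosure ℚ) =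
        - ∑ i ∈ Finset.range p, ((σ t * t⁻¹) ^ i - 1) := by
      rw [Finset.sum_sub_distrib, hsum]
      simp
    rw [h5, Valuation.map_neg]
    exact Valuation.map_sum_lt _ one_ne_zero (fun i _ => hvi i)
  have hvq : A.valuation ((q : ℕ) : AlgebraicClosure ℚ) < 1 := (A.mem_nonunits_iff).1 hA
  have hcop : Nat.Coprime p q := (Nat.coprime_primes hp hq).2 (Ne.symm hpq)
  have hbez : (p : ℤ) * Int.gcdA p q + (q : ℤ) * Int.gcdB p q = 1 := by
    have := Int.gcd_eq_gcd_ab p q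
    rw [← this]
    exact_mod_cast hcop
  have hint : ∀ a : ℤ, A.valuation ((a : ℤ) : AlgebraicClosure ℚ) ≤ 1 := fun a =>
    (A.valuation_le_one_iff _).2 (intCast_mem A a)
  have h6 : (1 : AlgebraicClosure ℚ) =
      ((p : ℕ) : AlgebraicClosure ℚ) * ((Int.gcdA p q : ℤ) : AlgebraicClosure ℚ) +
        ((q : ℕ) : AlgebraicClosure ℚ) * ((Int.gcdB p q : ℤ) : AlgebraicClosure ℚ) := by
    exact_mod_cast hbez.symm
  have h7 : A.valuation (1 : AlgebraicClosure ℚ) < 1 := by
    rw [h6]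
    refine lt_of_le_of_lt (Valuation.map_add _ _ _) (max_lt ?_ ?_)
    · rw [map_mul]
      exact lt_of_le_of_lt (mul_le_of_le_one_right' (hint _)) hvp
    · rw [map_mul]
      exact lt_of_le_of_lt (mul_le_of_le_one_right' (hint _)) hvq
  rw [map_one] at h7
  exact lt_irrefl _ h7

theorem tateDual_ρ_apply (p : ℕ) [Fact p.Prime] {k : Type} [Field k] [CharP k p]
    (M : Rep.{0} k GQ) (g : GQ) (f : Module.Dual k M) :
    (tateDual p M).ρ g f = (cycloK p k g : k) • (f ∘ₗ M.ρ g⁻¹) := rfl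

theorem tateDual_ρ_eq_one (p : ℕ) [Fact p.Prime] {k : Type} [Field k] [CharP k p]
    (M : Rep.{0} k GQ) (g : GQ) (h1 : M.ρ g = 1) (h2 : cycloK p k g = 1) :
    (tateDual p M).ρ g = 1 := by
  have h' : M.ρ g⁻¹ = 1 := by
    have := map_mul M.ρ g⁻¹ g
    rw [inv_mul_cancel, map_one, h1, mul_one] at this
    exact this.symm
  refine LinearMap.ext fun f => ?_
  rw [tateDual_ρ_apply, h', h2, Units.val_one, one_smul]
  rfl

/-- A smooth finite-dimensional representation is fixed by an open subgroup. -/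
theorem exists_field_of_smooth {k : Type} [Field k] (M : Rep.{0} k GQ) [FiniteDimensional k M]
    (hsm : IsSmoothRep M) :
    ∃ F : IntermediateField ℚ (AlgebraicClosure ℚ), FiniteDimensional ℚ F ∧
      ∀ s ∈ F.fixingSubgroup, M.ρ s = 1 := by
  classical
  let b := Module.finBasis k M
  choose F hF hfix using fun i => hsm (b i)
  haveI : ∀ i, FiniteDimensional ℚ (F i) := hF
  refine ⟨⨆ i, F i, IntermediateField.finiteDimensional_iSup_of_finite, fun s hs => ?_⟩
  refine b.ext fun i => ?_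
  have hsi : s ∈ (F i).fixingSubgroup :=
    IntermediateField.fixingSubgroup_antitone (le_iSup F i) hs
  rw [hfix i s hsi]
  rfl

theorem tate_basic : Stmt_tate_basic := by
  intro p _ k _ _ M _ hsm
  have hp : p.Prime := Fact.out
  refine ⟨?_, ?_, ?_⟩
  · change FiniteDimensional k (Module.Dual k M)
    infer_instance
  · intro f
    obtain ⟨F, hF, hfix⟩ := exists_field_of_smooth M hsm
    haveI := hF
    haveI : NeZero p := ⟨hp.ne_zero⟩
    haveI : NeZero (p : AlgebraicClosure ℚ) := ⟨Nat.cast_ne_zero.mpr hp.ne_zero⟩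
    obtain ⟨ζ, hζ⟩ := HasEnoughRootsOfUnity.exists_primitiveRoot (AlgebraicClosure ℚ) p
    have hζint : IsIntegral ℚ ζ := hζ.isIntegral hp.pos |>.tower_top (R := ℤ)
    haveI : FiniteDimensional ℚ (IntermediateField.adjoin ℚ {ζ}) :=
      IntermediateField.adjoin.finiteDimensional hζint
    refine ⟨F ⊔ IntermediateField.adjoin ℚ {ζ}, IntermediateField.finiteDimensional_sup _ _,
      fun s hs => ?_⟩
    have hs1 : s ∈ F.fixingSubgroup := IntermediateField.fixingSubgroup_antitone le_sup_left hs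
    have hs2 : s ∈ (IntermediateField.adjoin ℚ {ζ}).fixingSubgroup :=
      IntermediateField.fixingSubgroup_antitone le_sup_right hs
    have hsζ : s ζ = ζ := (IntermediateField.mem_fixingSubgroup_iff _ s).1 hs2 ζ
      (IntermediateField.mem_adjoin_simple_self ℚ ζ)
    have hχ : cycloK p k s = 1 := by
      refine cycloK_eq_one_of_fix p k s fun t ht => ?_
      obtain ⟨i, -, rfl⟩ := hζ.eq_pow_of_pow_eq_one ht
      rw [map_pow, hsζ]
    rw [tateDual_ρ_eq_one p M s (hfix s hs1) hχ]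
    rfl
  · intro q hq hqp hur A hA g hg
    refine tateDual_ρ_eq_one p M g (hur A hA g hg) ?_
    exact cycloK_eq_one_of_fix p k g fun t ht => inertia_fix_root hp hq hqp A hA g hg t ht

end Fermat.Agent.S56.H47

end

end
-- ==== END Fermat.Agent.S56.H47_Basic

-- ==== BEGIN Fermat.Agent.S56.H9_Kummer
section

/-
Sub-leaf KUMMER-LOCAL of LOC-p-SO (cluster T, S56): the level-constant crossed homomorphisms
`G_{ℚ_p} → k(ω)` are spanned modulo coboundaries by the Kummer characters of `p` and `1 + p`.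
Route: Hilbert 90 by Poincare series at finite level, then `ℚ_pˣ` modulo `p`-th powers.
-/

set_option autoImplicit false
set_option linter.unusedSectionVars false
set_option linter.style.haveILetI false

namespace Fermat.Agent.S56.H9

open Fermat.Agent.Lib.LocalKummer groupCohomology ExtCitation Fermat.Agent.S56.H57

local notation "Qbar" => AlgebraicClosure ℚ

section setup

variable (p : ℕ) [Fact p.Prime]

local notation "Ω" => PadicAlgCl p
local notation "GL" => (PadicAlgCl p ≃ₐ[ℚ_[p]] PadicAlgCl p)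

/-- The mod `p` cyclotomic character of the local Galois group, with values in `ZMod p`. -/
noncomputable def omegaZ (s : GL) : ZMod p := ((cycloChar p (localGaloisToGlobal p s) : (ZMod p)ˣ) : ZMod p)

lemma locCycK_eq (k : Type) [Field k] [CharP k p] (s : GL) :
    locCycK p k s = (ZMod.castHom (dvd_refl p) k : ZMod p →+* k) (omegaZ p s) := rfl

lemma omegaZ_mul (s t : GL) : omegaZ p (s * t) = omegaZ p s * omegaZ p t := by
  unfold omegaZ
  rw [map_mul, map_mul, Units.val_mul]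

lemma omegaZ_one : omegaZ p 1 = 1 := by
  unfold omegaZ
  rw [map_one, map_one, Units.val_one]

/-- The action of the global Galois group on `p`-th roots of unity. -/
lemma cycloChar_spec (σ : Qbar ≃ₐ[ℚ] Qbar) {ζ₀ : Qbar} (hζ₀ : ζ₀ ^ p = 1) :
    σ ζ₀ = zpowZ ζ₀ ((cycloChar p σ : (ZMod p)ˣ) : ZMod p) := by
  haveI : NeZero p := ⟨(Fact.out : p.Prime).ne_zero⟩
  have h0 : ζ₀ ≠ 0 := by
    rintro rfl
    rw [zero_pow (NeZero.ne p)] at hζ₀
    exact zero_ne_one hζ₀
  let u : Qbarˣ := Units.mk0 ζ₀ h0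
  have hu : u ∈ rootsOfUnity p Qbar := by
    rw [mem_rootsOfUnity]
    apply Units.ext
    simpa [u] using hζ₀
  have h1 := modularCyclotomicCharacter.spec (L := Qbar) (n := p) (card_rootsOfUnity_eq_self p)
    (σ : Qbar ≃+* Qbar) hu
  exact h1

/-- The embedding `Qbar → Ω` as a monoid hom, compatible with the Galois actions. -/
lemma smul_padicEmbedding (s : GL) (x : Qbar) :
    s • padicEmbedding p x = padicEmbedding p (localGaloisToGlobal p s x) :=
  (padicEmbedding_localGaloisToGlobal p s x).symm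

lemma smul_eq_apply (s : GL) (x : Ω) : s • x = s x := rfl

lemma smul_zpow_padic (s : GL) (x : Ω) (i : ℤ) : s • (x ^ i) = (s • x) ^ i :=
  map_zpow₀ s x i

lemma smul_zeta (s : GL) {ζ₀ : Qbar} (hζ₀ : ζ₀ ^ p = 1) :
    s • padicEmbedding p ζ₀ = zpowZ (padicEmbedding p ζ₀) (omegaZ p s) := by
  rw [smul_padicEmbedding, cycloChar_spec p _ hζ₀]
  unfold zpowZ omegaZ
  rw [map_pow]

/-- The subgroup of the local Galois group fixing the image of `F`. -/
noncomputable def lvl (F : IntermediateField ℚ Qbar) : Subgroup GL :=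
  F.fixingSubgroup.comap (localGaloisToGlobal p)

lemma mem_lvl {F : IntermediateField ℚ Qbar} {s : GL} :
    s ∈ lvl p F ↔ localGaloisToGlobal p s ∈ F.fixingSubgroup := Iff.rfl

lemma mem_lvl_iff {F : IntermediateField ℚ Qbar} {s : GL} :
    s ∈ lvl p F ↔ ∀ x : F, s • padicEmbedding p (x : Qbar) = padicEmbedding p (x : Qbar) := by
  rw [mem_lvl, IntermediateField.mem_fixingSubgroup_iff]
  constructor
  · intro h x
    rw [smul_padicEmbedding, h x x.2]
  · intro h x hx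
    have h1 := h ⟨x, hx⟩
    rw [smul_padicEmbedding] at h1
    exact (padicEmbedding p).injective h1

instance finite_quot_lvl (F : IntermediateField ℚ Qbar) [FiniteDimensional ℚ F] :
    Finite (GL ⧸ lvl p F) := by
  let f : GL → (F →ₐ[ℚ] Qbar) := fun s => ((localGaloisToGlobal p s : Qbar ≃ₐ[ℚ] Qbar) :
    Qbar →ₐ[ℚ] Qbar).comp F.val
  have hf : ∀ s t : GL, f s = f t → s⁻¹ * t ∈ lvl p F := by
    intro s t hst
    rw [mem_lvl, IntermediateField.mem_fixingSubgroup_iff]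
    intro x hx
    have h1 : localGaloisToGlobal p s x = localGaloisToGlobal p t x :=
      congrArg (fun φ : F →ₐ[ℚ] Qbar => φ ⟨x, hx⟩) hst
    rw [map_mul, map_inv]
    show (localGaloisToGlobal p s)⁻¹ (localGaloisToGlobal p t x) = x
    rw [← h1]
    exact (localGaloisToGlobal p s).symm_apply_apply x
  have hf' : ∀ s t : GL, s⁻¹ * t ∈ lvl p F → f s = f t := by
    intro s t hst
    rw [mem_lvl, IntermediateField.mem_fixingSubgroup_iff] at hst
    apply AlgHom.ext
    intro x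
    have h1 := hst x x.2
    rw [map_mul, map_inv] at h1
    show localGaloisToGlobal p s x = localGaloisToGlobal p t x
    have h2 : (localGaloisToGlobal p s)⁻¹ (localGaloisToGlobal p t x) = x := h1
    have h3 := congrArg (localGaloisToGlobal p s) h2
    rw [← h3]
    exact (localGaloisToGlobal p s).apply_symm_apply (localGaloisToGlobal p t x)
  let fbar : GL ⧸ lvl p F → (F →ₐ[ℚ] Qbar) :=
    Quotient.lift f (fun s t hst => hf' s t (QuotientGroup.leftRel_apply.1 hst))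
  have hinj : Function.Injective fbar := by
    intro x y hxy
    induction x using QuotientGroup.induction_on with
    | H s =>
      induction y using QuotientGroup.induction_on with
      | H t => exact QuotientGroup.eq.2 (hf s t hxy)
  exact Finite.of_injective fbar hinj

end setup

section kummer

variable (p : ℕ) [Fact p.Prime]

local notation "Ω" => PadicAlgCl p
local notation "GL" => (PadicAlgCl p ≃ₐ[ℚ_[p]] PadicAlgCl p)

/-- Crossed homomorphism property of a Kummer character. -/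
lemma kummer_cocycle [NeZero p] {ζ : Ω} (hζ : IsPrimitiveRoot ζ p) (ω : GL → ZMod p)
    (hω : ∀ s : GL, s • ζ = zpowZ ζ (ω s)) {γ : Ω} (hγ : γ ≠ 0) (κ : GL → ZMod p)
    (hκ : ∀ s : GL, s • γ = zpowZ ζ (κ s) * γ) (s t : GL) :
    κ (s * t) = κ s + ω s * κ t := by
  have h1 : (s * t) • γ = zpowZ ζ (κ s + ω s * κ t) * γ := by
    rw [mul_smul, hκ t, smul_mul', smul_zpowZ, hω s, zpowZ_zpowZ hζ.pow_eq_one, hκ s,
      zpowZ_add hζ.pow_eq_one]
    ring
  rw [hκ (s * t)] at h1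
  exact zpowZ_injective hζ (mul_right_cancel₀ hγ h1)

/-- Existence of the Kummer character of an element whose `p`-th power is fixed. -/
lemma exists_kummer_char [NeZero p] {ζ : Ω} (hζ : IsPrimitiveRoot ζ p) {γ : Ω} (hγ : γ ≠ 0)
    (hfix : ∀ s : GL, s • (γ ^ p) = γ ^ p) (s : GL) :
    ∃ a : ZMod p, s • γ = zpowZ ζ a * γ := by
  have h1 : (s • γ / γ) ^ p = 1 := by
    rw [div_pow, ← smul_pow', hfix s]
    exact div_self (pow_ne_zero _ hγ)
  obtain ⟨a, ha⟩ := exists_zpowZ_eq hζ h1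
  refine ⟨a, ?_⟩
  rw [ha]
  field_simp

/-- The Kummer character attached to `γ`. -/
noncomputable def kummerChar [NeZero p] {ζ : Ω} (hζ : IsPrimitiveRoot ζ p) {γ : Ω} (hγ : γ ≠ 0)
    (hfix : ∀ s : GL, s • (γ ^ p) = γ ^ p) (s : GL) : ZMod p :=
  Classical.choose (exists_kummer_char p hζ hγ hfix s)

lemma kummerChar_spec [NeZero p] {ζ : Ω} (hζ : IsPrimitiveRoot ζ p) {γ : Ω} (hγ : γ ≠ 0)
    (hfix : ∀ s : GL, s • (γ ^ p) = γ ^ p) (s : GL) :
    s • γ = zpowZ ζ (kummerChar p hζ hγ hfix s) * γ :=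
  Classical.choose_spec (exists_kummer_char p hζ hγ hfix s)

/-- The `ZMod p`-valued statement. -/
theorem kummer_zmod (hp2 : p ≠ 2) [NeZero p] {ζ₀ : Qbar} (hζ₀ : IsPrimitiveRoot ζ₀ p)
    {π₀ η₀ : Qbar} (hπ₀ : π₀ ^ p = (p : Qbar)) (hη₀ : η₀ ^ p = 1 + (p : Qbar))
    (κ₁ κ₂ : GL → ZMod p)
    (hκ₁ : ∀ s : GL, s • padicEmbedding p π₀ =
      zpowZ (padicEmbedding p ζ₀) (κ₁ s) * padicEmbedding p π₀)
    (hκ₂ : ∀ s : GL, s • padicEmbedding p η₀ =
      zpowZ (padicEmbedding p ζ₀) (κ₂ s) * padicEmbedding p η₀)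
    (c : GL → ZMod p) (hc : ∀ s t, c (s * t) = c s + omegaZ p s * c t)
    (hlev : IsLevelConstant₁ (localGaloisToGlobal p) c) :
    ∃ a b d : ZMod p, ∀ s, c s = a * κ₁ s + b * κ₂ s + d * (omegaZ p s - 1) := by
  have hp : p.Prime := Fact.out
  set ζ : Ω := padicEmbedding p ζ₀ with hζdef
  have hζ : IsPrimitiveRoot ζ p := hζ₀.map_of_injective (padicEmbedding p).injective
  have hω : ∀ s : GL, s • ζ = zpowZ ζ (omegaZ p s) := fun s => smul_zeta p s hζ₀.pow_eq_one
  obtain ⟨F, hF, hcF⟩ := hlev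
  haveI := hF
  have hc1 : c 1 = 0 := by
    have := hc 1 1
    rw [mul_one, omegaZ_one, one_mul] at this
    exact left_eq_add.1 this
  -- Hilbert 90
  obtain ⟨γ, hγ0, hγ⟩ := exists_hilbert90 (fun s : GL => zpowZ ζ (c s)) (by
      intro s t
      show zpowZ ζ (c (s * t)) = zpowZ ζ (c s) * s • zpowZ ζ (c t)
      rw [smul_zpowZ, hω s, zpowZ_zpowZ hζ.pow_eq_one, hc, zpowZ_add hζ.pow_eq_one])
    (fun s => zpowZ_ne_zero hζ.pow_eq_one _) (lvl p F) (by
      intro u hu
      have := hcF 1 u hu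
      rw [one_mul, hc1] at this
      show zpowZ ζ (c u) = 1
      rw [this, zpowZ_zero])
    ((padicEmbedding p : Qbar →* Ω).comp (F.val : F →* Qbar))
    (fun s hs => (mem_lvl_iff p).2 hs) (fun u hu x => (mem_lvl_iff p).1 hu x)
  -- `γ ^ p` is rational
  have hfix : ∀ s : GL, s (γ ^ p) = γ ^ p := by
    intro s
    have h1 : s • (γ ^ p) = γ ^ p := by
      rw [smul_pow', hγ s, mul_pow, zpowZ_pow ζ hζ.pow_eq_one, one_mul]
    exact h1
  obtain ⟨a', ha'⟩ := (InfiniteGalois.mem_range_algebraMap_iff_fixed (γ ^ p)).2 hfix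
  have ha'0 : a' ≠ 0 := by
    rintro rfl
    rw [map_zero] at ha'
    exact pow_ne_zero _ hγ0 ha'.symm
  obtain ⟨i, j, b, hb0, hdec⟩ := exists_decomp p hp2 a' ha'0
  set π : Ω := padicEmbedding p π₀ with hπdef
  set η : Ω := padicEmbedding p η₀ with hηdef
  have hπ : π ^ p = (p : Ω) := by
    rw [hπdef, ← map_pow, hπ₀, map_natCast]
  have hη : η ^ p = 1 + (p : Ω) := by
    rw [hηdef, ← map_pow, hη₀, map_add, map_one, map_natCast]
  have hp0 : (p : Ω) ≠ 0 := by exact_mod_cast hp.ne_zero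
  have hπ0 : π ≠ 0 := by
    intro h
    rw [h, zero_pow hp.ne_zero] at hπ
    exact hp0 hπ.symm
  have h1p : (1 + (p : Ω)) ≠ 0 := by
    have : ((1 + p : ℕ) : Ω) ≠ 0 := by exact_mod_cast (Nat.succ_ne_zero p ∘ (by omega))
    simpa using this
  have hη0 : η ≠ 0 := by
    intro h
    rw [h, zero_pow hp.ne_zero] at hη
    exact h1p hη.symm
  set b' : Ω := algebraMap ℚ_[p] Ω b with hb'def
  have hb'0 : b' ≠ 0 := by
    rw [hb'def]
    exact (map_ne_zero _).2 hb0
  have hb'fix : ∀ s : GL, s • b' = b' := fun s => s.commutes b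
  set δ : Ω := π ^ i * η ^ j * b' with hδdef
  have hδ0 : δ ≠ 0 := mul_ne_zero (mul_ne_zero (zpow_ne_zero _ hπ0) (zpow_ne_zero _ hη0)) hb'0
  have hδp : δ ^ p = γ ^ p := by
    rw [← ha', hdec, hδdef, mul_pow, mul_pow, ← zpow_natCast (π ^ i), ← zpow_mul,
      ← zpow_natCast (η ^ j), ← zpow_mul, mul_comm i, mul_comm j, zpow_mul, zpow_mul,
      zpow_natCast, zpow_natCast, hπ, hη]
    simp only [map_mul, map_zpow₀, map_pow, map_add, map_one, map_natCast]
    rfl
  have h2 : (γ / δ) ^ p = 1 := by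
    rw [div_pow, hδp]
    exact div_self (pow_ne_zero _ hγ0)
  obtain ⟨t, ht⟩ := exists_zpowZ_eq hζ h2
  have hγδ : γ = zpowZ ζ t * δ := by
    rw [ht]
    field_simp
  refine ⟨(i : ZMod p), (j : ZMod p), t, fun s => ?_⟩
  -- compare the two expressions of `s • γ`
  have e1 : s • γ = zpowZ ζ (c s + t) * δ := by
    rw [hγ s, hγδ, zpowZ_add hζ.pow_eq_one]
    ring
  have e2 : s • δ = zpowZ ζ (κ₁ s * (i : ZMod p) + κ₂ s * (j : ZMod p)) * δ := by
    rw [hδdef, smul_mul', smul_mul', hb'fix s, smul_zpow_padic, smul_zpow_padic, hκ₁ s, hκ₂ s,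
      mul_zpow,
      mul_zpow, zpowZ_zpow hζ.pow_eq_one, zpowZ_zpow hζ.pow_eq_one, zpowZ_add hζ.pow_eq_one]
    ring
  have e3 : s • γ = zpowZ ζ (omegaZ p s * t + (κ₁ s * (i : ZMod p) + κ₂ s * (j : ZMod p))) * δ := by
    rw [zpowZ_add hζ.pow_eq_one, mul_assoc, ← e2, hγδ, smul_mul', smul_zpowZ, hω s,
      zpowZ_zpowZ hζ.pow_eq_one]
  rw [e1] at e3
  have e4 := zpowZ_injective hζ (mul_right_cancel₀ hδ0 e3)
  linear_combination e4

/-- Reduction of `k`-valued crossed homomorphisms to `ZMod p`-valued ones. -/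
theorem kummer_of_zmod (k : Type) [Field k] [Finite k] [CharP k p]
    (κ₁ κ₂ : GL → ZMod p)
    (hz : ∀ c : GL → ZMod p, (∀ s t, c (s * t) = c s + omegaZ p s * c t) →
      IsLevelConstant₁ (localGaloisToGlobal p) c →
      ∃ a b d : ZMod p, ∀ s, c s = a * κ₁ s + b * κ₂ s + d * (omegaZ p s - 1))
    (c : GL → k) (hc : IsKummerCocycle p k c) :
    ∃ a b d : k, ∀ s, c s =
      a * (ZMod.castHom (dvd_refl p) k : ZMod p →+* k) (κ₁ s) +
      b * (ZMod.castHom (dvd_refl p) k : ZMod p →+* k) (κ₂ s) +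
      d * (locCycK p k s - 1) := by
  classical
  set φ : ZMod p →+* k := ZMod.castHom (dvd_refl p) k with hφ
  letI : Algebra (ZMod p) k := φ.toAlgebra
  haveI : Module.Finite (ZMod p) k := Module.Finite.of_finite
  let B := Module.finBasis (ZMod p) k
  obtain ⟨hcc, F, hF, hcF⟩ := hc
  have hsmul : ∀ (a : ZMod p) (x : k), a • x = φ a * x := fun a x => Algebra.smul_def a x
  have key : ∀ i, ∃ a b d : ZMod p, ∀ s, B.repr (c s) i =
      a * κ₁ s + b * κ₂ s + d * (omegaZ p s - 1) := by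
    intro i
    apply hz (fun s => B.repr (c s) i)
    · intro s t
      show B.repr (c (s * t)) i = B.repr (c s) i + omegaZ p s * B.repr (c t) i
      rw [hcc s t, _root_.Fermat.Agent.S56.H9.locCycK_eq, ← hsmul, map_add, map_smul]
      rfl
    · exact ⟨F, hF, fun g s hs => by
        show B.repr (c (g * s)) i = B.repr (c g) i
        rw [hcF g s hs]⟩
  choose a b d habd using key
  refine ⟨∑ i, φ (a i) * B i, ∑ i, φ (b i) * B i, ∑ i, φ (d i) * B i, fun s => ?_⟩
  have h1 : c s = ∑ i, φ (B.repr (c s) i) * B i := by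
    conv_lhs => rw [← B.sum_repr (c s)]
    exact Finset.sum_congr rfl (fun i _ => hsmul _ _)
  rw [h1, Finset.sum_mul, Finset.sum_mul, Finset.sum_mul, ← Finset.sum_add_distrib,
    ← Finset.sum_add_distrib]
  apply Finset.sum_congr rfl
  intro i _
  rw [habd i s, _root_.Fermat.Agent.S56.H9.locCycK_eq]
  simp only [map_add, map_mul, map_sub, map_one]
  ring

/-- **Sub-leaf KUMMER-LOCAL.** -/
theorem stmt_localKummer : Stmt_localKummer := by
  intro p _ hp2 k _ _ _
  have hp : p.Prime := Fact.out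
  haveI : NeZero p := ⟨hp.ne_zero⟩
  haveI : NeZero (p : Qbar) := ⟨by exact_mod_cast hp.ne_zero⟩
  obtain ⟨ζ₀, hζ₀⟩ := HasEnoughRootsOfUnity.exists_primitiveRoot Qbar p
  obtain ⟨π₀, hπ₀⟩ := IsAlgClosed.exists_pow_nat_eq (p : Qbar) hp.pos
  obtain ⟨η₀, hη₀⟩ := IsAlgClosed.exists_pow_nat_eq (1 + (p : Qbar)) hp.pos
  set ζ : PadicAlgCl p := padicEmbedding p ζ₀ with hζdef
  have hζ : IsPrimitiveRoot ζ p := hζ₀.map_of_injective (padicEmbedding p).injective
  have hω : ∀ s : (PadicAlgCl p ≃ₐ[ℚ_[p]] PadicAlgCl p), s • ζ = zpowZ ζ (omegaZ p s) := fun s => smul_zeta p s hζ₀.pow_eq_one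
  have hp0 : (p : PadicAlgCl p) ≠ 0 := by exact_mod_cast hp.ne_zero
  have h1p : (1 + (p : PadicAlgCl p)) ≠ 0 := by
    have : ((1 + p : ℕ) : PadicAlgCl p) ≠ 0 := by
      exact_mod_cast (by omega : 1 + p ≠ 0)
    simpa using this
  have hπ : (padicEmbedding p π₀) ^ p = (p : PadicAlgCl p) := by
    rw [← map_pow, hπ₀, map_natCast]
  have hη : (padicEmbedding p η₀) ^ p = 1 + (p : PadicAlgCl p) := by
    rw [← map_pow, hη₀, map_add, map_one, map_natCast]
  have hπ0 : padicEmbedding p π₀ ≠ 0 := by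
    intro h
    rw [h, zero_pow hp.ne_zero] at hπ
    exact hp0 hπ.symm
  have hη0 : padicEmbedding p η₀ ≠ 0 := by
    intro h
    rw [h, zero_pow hp.ne_zero] at hη
    exact h1p hη.symm
  have hπfix : ∀ s : (PadicAlgCl p ≃ₐ[ℚ_[p]] PadicAlgCl p), s • ((padicEmbedding p π₀) ^ p) = (padicEmbedding p π₀) ^ p := by
    intro s
    rw [hπ]
    exact map_natCast s p
  have hηfix : ∀ s : (PadicAlgCl p ≃ₐ[ℚ_[p]] PadicAlgCl p), s • ((padicEmbedding p η₀) ^ p) = (padicEmbedding p η₀) ^ p := by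
    intro s
    rw [hη]
    show s (1 + (p : PadicAlgCl p)) = 1 + (p : PadicAlgCl p)
    rw [map_add, map_one, map_natCast]
  set κ₁ : (PadicAlgCl p ≃ₐ[ℚ_[p]] PadicAlgCl p) → ZMod p := kummerChar p hζ hπ0 hπfix with hκ₁def
  set κ₂ : (PadicAlgCl p ≃ₐ[ℚ_[p]] PadicAlgCl p) → ZMod p := kummerChar p hζ hη0 hηfix with hκ₂def
  have hκ₁ : ∀ s : (PadicAlgCl p ≃ₐ[ℚ_[p]] PadicAlgCl p), s • padicEmbedding p π₀ = zpowZ ζ (κ₁ s) * padicEmbedding p π₀ :=
    kummerChar_spec p hζ hπ0 hπfix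
  have hκ₂ : ∀ s : (PadicAlgCl p ≃ₐ[ℚ_[p]] PadicAlgCl p), s • padicEmbedding p η₀ = zpowZ ζ (κ₂ s) * padicEmbedding p η₀ :=
    kummerChar_spec p hζ hη0 hηfix
  set φ : ZMod p →+* k := ZMod.castHom (dvd_refl p) k with hφ
  -- the two generators are Kummer cocycles
  have hgen : ∀ (γ₀ : Qbar) (κ : (PadicAlgCl p ≃ₐ[ℚ_[p]] PadicAlgCl p) → ZMod p), padicEmbedding p γ₀ ≠ 0 →
      (∀ s : (PadicAlgCl p ≃ₐ[ℚ_[p]] PadicAlgCl p), s • padicEmbedding p γ₀ = zpowZ ζ (κ s) * padicEmbedding p γ₀) →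
      IsKummerCocycle p k (fun s => φ (κ s)) := by
    intro γ₀ κ hγ0 hκ
    have hcoc := kummer_cocycle p hζ (omegaZ p) hω hγ0 κ hκ
    refine ⟨fun s t => ?_, ?_⟩
    · show φ (κ (s * t)) = φ (κ s) + locCycK p k s * φ (κ t)
      rw [hcoc s t, _root_.Fermat.Agent.S56.H9.locCycK_eq, map_add, map_mul]
    · have halg : IsIntegral ℚ γ₀ := ((AlgebraicClosure.isAlgebraic ℚ).isAlgebraic γ₀).isIntegral
      refine ⟨IntermediateField.adjoin ℚ {γ₀},
        IntermediateField.adjoin.finiteDimensional halg, fun g s hs => ?_⟩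
      have h1 : localGaloisToGlobal p s γ₀ = γ₀ :=
        (IntermediateField.mem_fixingSubgroup_iff _ _).1 hs γ₀
          (IntermediateField.mem_adjoin_simple_self ℚ γ₀)
      have h2 : s • padicEmbedding p γ₀ = padicEmbedding p γ₀ := by
        rw [smul_padicEmbedding, h1]
      have h3 : zpowZ ζ (κ s) = 1 := by
        have := hκ s
        rw [h2] at this
        exact (mul_right_cancel₀ hγ0 (this.symm.trans (one_mul _).symm))
      have h4 : κ s = 0 := (zpowZ_eq_one_iff hζ _).1 h3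
      show φ (κ (g * s)) = φ (κ g)
      rw [hcoc g s, h4, mul_zero, add_zero]
  refine ⟨fun s => φ (κ₁ s), fun s => φ (κ₂ s), hgen π₀ κ₁ hπ0 hκ₁, hgen η₀ κ₂ hη0 hκ₂, ?_⟩
  intro c hc
  exact kummer_of_zmod p k κ₁ κ₂
    (fun c' hc' hlev' => kummer_zmod p hp2 hζ₀ hπ₀ hη₀ κ₁ κ₂ hκ₁ hκ₂ c' hc' hlev') c hc

end kummer

end Fermat.Agent.S56.H9

end
-- ==== END Fermat.Agent.S56.H9_Kummer

-- ==== BEGIN Fermat.Agent.S56.TWS.H01_Count
section

set_option autoImplicit false

/-!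
# Cluster T / S56, package TW-SELECT, sub-package TWS-E (helper1)

`Stmt_TW_select` from `Stmt_core` (one Taylor-Wiles prime for one nonzero continuous class):
induction on the number of primes.  For `Z' ≤ Z` of dimension `≤ m` and a finite set `S'` there
are `m` distinct Taylor-Wiles primes outside `S'` such that no nonzero class of `Z'` is locally
trivial at all of them: pick `ψ ∈ Z' ∖ 0` (or a fixed `ψ₀ ∈ Z ∖ 0` if `Z' = 0`), a prime `q` with
`res_q ψ ≠ 0`, and continue with `Z' ∩ ker res_q` and `S' ∪ {q}`.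
-/

noncomputable section

namespace Fermat.Agent.S56.TWS.H01

open Polynomial IsLocalRing CategoryTheory groupCohomology ExtCitation Fermat.Agent.S53 Module

section Count

variable {k : Type} [Field k] {H : Type} [AddCommGroup H] [Module k H]

/-- Abstract counting lemma.  `good q` : "q is an admissible prime", `res q` : the local
restriction at `q`.  If every nonzero element of `C` is detected by an admissible prime outside
any finite set, then for `Z' ≤ Z ≤ C` with `dim Z' ≤ m` (and `Z ≠ 0` if `m ≠ 0`... we ask for a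
nonzero `ψ₀ ∈ C`) there are `m` distinct admissible primes outside `S'` detecting `Z'`. -/
theorem exists_family {ι : Type} [DecidableEq ι] {X : ι → Type} [∀ q, AddCommGroup (X q)]
    [∀ q, Module k (X q)] (res : ∀ q, H →ₗ[k] X q) (good : ι → Prop)
    (C : Set H)
    (hcore : ∀ ξ ∈ C, ξ ≠ 0 → ∀ S' : Finset ι, ∃ q, q ∉ S' ∧ good q ∧ res q ξ ≠ 0)
    (ψ₀ : H) (hψ₀ : ψ₀ ∈ C) (hψ₀0 : ψ₀ ≠ 0) :
    ∀ (m : ℕ) (Z' : Submodule k H) [Module.Finite k Z'], (Z' : Set H) ⊆ C → finrank k Z' ≤ m →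
      ∀ S' : Finset ι, ∃ qv : Fin m → ι, Function.Injective qv ∧ (∀ i, qv i ∉ S') ∧
        (∀ i, good (qv i)) ∧ ∀ ξ ∈ Z', (∀ i, res (qv i) ξ = 0) → ξ = 0 := by
  intro m
  induction m with
  | zero =>
    intro Z' _ _ hfin S'
    refine ⟨Fin.elim0, fun i => i.elim0, fun i => i.elim0, fun i => i.elim0, fun ξ hξ _ => ?_⟩
    have h0 : finrank k Z' = 0 := Nat.le_zero.1 hfin
    have hbot : Z' = ⊥ := Submodule.finrank_eq_zero.1 h0
    rw [hbot] at hξ
    exact (Submodule.mem_bot k).1 hξ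
  | succ m ih =>
    intro Z' _ hZ' hfin S'
    -- the class `ψ` to be detected
    obtain ⟨ψ, hψC, hψ0, hψZ⟩ : ∃ ψ : H, ψ ∈ C ∧ ψ ≠ 0 ∧ (Z' ≠ ⊥ → ψ ∈ Z') := by
      by_cases hb : Z' = ⊥
      · exact ⟨ψ₀, hψ₀, hψ₀0, fun h => absurd hb h⟩
      · obtain ⟨ψ, hψ, hψ0⟩ := Submodule.exists_mem_ne_zero_of_ne_bot hb
        exact ⟨ψ, hZ' hψ, hψ0, fun _ => hψ⟩
    obtain ⟨q, hqS', hqgood, hqres⟩ := hcore ψ hψC hψ0 S'
    -- the smaller space
    let Z'' : Submodule k H := Z' ⊓ LinearMap.ker (res q)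
    have hle : Z'' ≤ Z' := inf_le_left
    have : Module.Finite k Z'' := Submodule.finiteDimensional_of_le hle
    have hfin'' : finrank k Z'' ≤ m := by
      by_cases hb : Z' = ⊥
      · have hb'' : Z'' = ⊥ := by
          rw [eq_bot_iff]; exact hle.trans hb.le
        rw [hb'', finrank_bot]
        exact Nat.zero_le m
      · have hlt : Z'' < Z' := by
          refine lt_of_le_of_ne hle fun heq => hqres ?_
          have hψ'' : ψ ∈ Z'' := by rw [heq]; exact hψZ hb
          exact LinearMap.mem_ker.1 hψ''.2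
        have := Submodule.finrank_lt_finrank_of_lt hlt
        omega
    obtain ⟨qv', hinj, hout, hgood, hdet⟩ :=
      ih Z'' (fun x hx => hZ' (hle hx)) hfin'' (insert q S')
    have hne : ∀ i, qv' i ≠ q := fun i h =>
      hout i (by rw [h]; exact Finset.mem_insert_self q S')
    refine ⟨Fin.cons q qv', ?_, ?_, ?_, ?_⟩
    · rw [Fin.cons_injective_iff]
      refine ⟨?_, hinj⟩
      rintro ⟨i, hi⟩
      exact hne i hi
    · intro i
      refine Fin.cases ?_ (fun j => ?_) i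
      · rw [Fin.cons_zero]; exact hqS'
      · rw [Fin.cons_succ]
        exact fun h => hout j (Finset.mem_insert_of_mem h)
    · intro i
      refine Fin.cases ?_ (fun j => ?_) i
      · rw [Fin.cons_zero]; exact hqgood
      · rw [Fin.cons_succ]; exact hgood j
    · intro ξ hξ hres
      have h0 : res q ξ = 0 := by
        have := hres 0
        rwa [Fin.cons_zero] at this
      refine hdet ξ ⟨hξ, LinearMap.mem_ker.2 h0⟩ fun i => ?_
      have := hres i.succ
      rwa [Fin.cons_succ] at this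

end Count

/-- **TWS-E.** `Stmt_TW_select` from `Stmt_core`. -/
theorem stmt_TW_select_of (hcore : Stmt_core) : Stmt_TW_select := by
  intro 𝒪 _ _ _ _ _ p _ _ ρbar S Smin hyp Z _ hZ n
  classical
  have hSprime : ∀ q ∈ S, q.Prime := hyp.hS
  by_cases hZbot : Z = ⊥
  · -- no primes needed
    have h0 : finrank (ResidueField 𝒪) Z = 0 := by rw [hZbot, finrank_bot]
    have hempty : IsEmpty (Fin (finrank (ResidueField 𝒪) Z)) := by
      rw [h0]; infer_instance
    refine ⟨fun i => hempty.elim i, ⟨fun i => hempty.elim i, fun i => hempty.elim i,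
      fun i => hempty.elim i⟩, fun ξ hξ _ => ?_⟩
    rw [hZbot] at hξ
    exact (Submodule.mem_bot _).1 hξ
  · obtain ⟨ψ₀, hψ₀, hψ₀0⟩ := Submodule.exists_mem_ne_zero_of_ne_bot hZbot
    -- admissible primes
    let good : Nat.Primes → Prop := fun q =>
      (q : ℕ) ∉ S ∧ p ^ (n + 1) ∣ (q : ℕ) - 1 ∧
        ∀ P : ValuationSubring (AlgebraicClosure ℚ), P.LiesOverPrime (q : ℕ) →
          ∀ φ : _root_.Fermat.Agent.S56.GQ, P.IsFrobeniusAt φ (q : ℕ) → HasDistinctEig ρbar φ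
    have hc : ∀ ξ ∈ (Z : Set (H1 (tateDual p (ad0 ρbar)))), ξ ≠ 0 → ∀ S' : Finset Nat.Primes,
        ∃ q, q ∉ S' ∧ good q ∧ resAt (tateDual p (ad0 ρbar)) q ξ ≠ 0 := by
      intro ξ hξ hξ0 S'
      obtain ⟨q, hq1, hq2, hq3, hq4, hq5⟩ :=
        hcore 𝒪 p ρbar S Smin hyp ξ (hZ hξ) hξ0 n (S'.image fun q : Nat.Primes => (q : ℕ))
      refine ⟨q, fun h => hq1 (Finset.mem_image_of_mem _ h), ⟨hq2, hq3, hq4⟩, hq5⟩
    obtain ⟨qv, hinj, -, hgood, hdet⟩ :=
      exists_family (fun q => resAt (tateDual p (ad0 ρbar)) q) good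
        (Z : Set (H1 (tateDual p (ad0 ρbar)))) hc ψ₀ hψ₀ hψ₀0
        (finrank (ResidueField 𝒪) Z) Z (fun _ h => h) le_rfl ∅
    refine ⟨fun i => ((qv i : Nat.Primes) : ℕ), ⟨?_, ?_, ?_⟩, ?_⟩
    · intro i j hij
      exact hinj (Subtype.ext hij)
    · intro i
      exact ⟨(qv i).2, (hgood i).1, (hgood i).2.1⟩
    · intro i P hP φ hφ
      exact (hgood i).2.2 P hP φ hφ
    · intro ξ hξ hres
      refine hdet ξ hξ fun i => hres (qv i) ?_
      exact Finset.mem_image_of_mem _ (Finset.mem_univ i)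

end Fermat.Agent.S56.TWS.H01

end

end
-- ==== END Fermat.Agent.S56.TWS.H01_Count

-- ==== BEGIN Fermat.Agent.S56.TWS.H13_Loc
section

/-!
# Cluster T / S56, package TW-SELECT, piece D-loc (helper13): `loc_coboundary`

If the class of a cocycle `c` of `M` is locally trivial at `q`, where both `M` and `c` factor
through a finite level `F`, then `c φ ∈ (φ - 1) M` for every `φ` in the decomposition group of
ANY place `A` over `q`.  No Frobenius property and no unramifiedness is needed.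
-/

set_option autoImplicit false
set_option linter.unusedSectionVars false
set_option linter.style.haveILetI false
set_option linter.unusedVariables false

noncomputable section

namespace Fermat.Agent.S56.TWS.H13

open CategoryTheory groupCohomology ExtCitation Fermat.Agent.S56 Fermat.Agent.S56.H13
open Fermat.Agent.Lib.LocalGlobalDense Fermat.Agent.Lib.InertiaConj
open Fermat.Agent.Lib.InertiaBridge Fermat.Agent.Lib.FrobIntegers
open scoped Pointwise

variable {k : Type} [Field k]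

/-- Conjugating a coboundary value: if `c ψ = (ψ - 1) m` then
`c (g ψ g⁻¹) = (g ψ g⁻¹ - 1) (g m - c g)`. -/
theorem cocycle_conj (M : Rep k GQ) (c : cocycles₁ M) (g ψ : GQ) (m : M)
    (h : c ψ = M.ρ ψ m - m) :
    c (g * ψ * g⁻¹) = M.ρ (g * ψ * g⁻¹) (M.ρ g m - c g) - (M.ρ g m - c g) := by
  have e1 : c (g * ψ * g⁻¹) = M.ρ (g * ψ) (c g⁻¹) + c (g * ψ) := cocycle_mul c (g * ψ) g⁻¹
  have e2 : c (g * ψ) = M.ρ g (c ψ) + c g := cocycle_mul c g ψ
  have e3 : c g⁻¹ = - M.ρ g⁻¹ (c g) := cocycle_inv c g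
  have e4 : M.ρ (g * ψ) (M.ρ g⁻¹ (c g)) = M.ρ (g * ψ * g⁻¹) (c g) := by
    rw [map_mul (M.ρ) (g * ψ) g⁻¹]
    rfl
  have e5 : M.ρ g (M.ρ ψ m) = M.ρ (g * ψ * g⁻¹) (M.ρ g m) := by
    have : g * ψ * g⁻¹ * g = g * ψ := by group
    have h1 : M.ρ (g * ψ * g⁻¹) (M.ρ g m) = M.ρ (g * ψ * g⁻¹ * g) m := by
      rw [map_mul (M.ρ) (g * ψ * g⁻¹) g]
      rfl
    rw [h1, this, map_mul (M.ρ) g ψ]
    rfl
  rw [e1, e2, e3, h, map_neg, e4, map_sub, e5, map_sub]
  abel

/-- **D-loc.**  Local triviality at `q` gives `c φ ∈ (φ - 1) M` for `φ` in any decomposition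
group over `q`. -/
theorem loc_coboundary (M : Rep k GQ) (F : IntermediateField ℚ (AlgebraicClosure ℚ))
    [FiniteDimensional ℚ F]
    (hM : ∀ s ∈ F.fixingSubgroup, M.ρ s = 1)
    (c : cocycles₁ M) (hc : ∀ g s : GQ, s ∈ F.fixingSubgroup → c (g * s) = c g)
    (q : Nat.Primes) (A : ValuationSubring (AlgebraicClosure ℚ))
    (hA : A.LiesOverPrime (q : ℕ))
    (φ : GQ) (hφ : φ ∈ A.decompositionSubgroup ℚ)
    (h0 : resAt M q ((H1π M).hom c) = 0) :
    ∃ m : M, c φ = M.ρ φ m - m := by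
  haveI : Fact (q : ℕ).Prime := ⟨q.2⟩
  obtain ⟨m, hm⟩ := exists_coboundary c q h0
  have hA₀ := primeLocalPlace_liesOver q
  obtain ⟨g, hg⟩ := exists_smul_primeUnder (q : ℕ) q.2 (primeLocalPlace q) A hA₀ hA
  -- `ψ = g⁻¹ φ g` lies in the decomposition group of the distinguished place
  have hφ' := (mem_decompositionSubgroup_iff (q : ℕ) q.2 A hA φ).mp hφ
  have hψ : g⁻¹ * φ * g ∈ (primeLocalPlace q).decompositionSubgroup ℚ := by
    rw [mem_decompositionSubgroup_iff (q : ℕ) q.2 (primeLocalPlace q) hA₀]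
    rw [mul_smul, mul_smul, ← hg, hφ', hg, inv_smul_smul]
  have hψD : g⁻¹ * φ * g ∈ (padicPlace (q : ℕ)).decompositionSubgroup ℚ := hψ
  obtain ⟨τ, hτ⟩ := exists_local_lift_field (q : ℕ) (g⁻¹ * φ * g) hψD F
  obtain ⟨g₀, hg₀⟩ : ∃ g₀ : GQ, g₀ = localGaloisToGlobal (q : ℕ) τ := ⟨_, rfl⟩
  have hg₀loc : g₀ = primeLocalToGlobal q τ := hg₀
  have hs : g₀⁻¹ * (g⁻¹ * φ * g) ∈ F.fixingSubgroup := by
    rw [IntermediateField.mem_fixingSubgroup_iff]
    intro x hx
    show g₀⁻¹ ((g⁻¹ * φ * g) x) = x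
    rw [← hτ x hx, ← hg₀]
    exact AlgEquiv.symm_apply_apply g₀ x
  have hψ_eq : g⁻¹ * φ * g = g₀ * (g₀⁻¹ * (g⁻¹ * φ * g)) := by group
  have hcψ : c (g⁻¹ * φ * g) = M.ρ (g⁻¹ * φ * g) m - m := by
    have h1 : c (g⁻¹ * φ * g) = c g₀ := by
      conv_lhs => rw [hψ_eq]
      exact hc g₀ _ hs
    have h2 : M.ρ (g⁻¹ * φ * g) = M.ρ g₀ := by
      conv_lhs => rw [hψ_eq]
      rw [map_mul, hM _ hs, mul_one]
    rw [h1, h2, hg₀loc]
    exact hm τ
  have hconj := cocycle_conj M c g (g⁻¹ * φ * g) m hcψ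
  have hφ_eq : g * (g⁻¹ * φ * g) * g⁻¹ = φ := by group
  rw [hφ_eq] at hconj
  exact ⟨_, hconj⟩

/-- A coboundary value at `g` propagates to the powers of `g`. -/
theorem cocycle_pow_cob (M : Rep k GQ) (c : cocycles₁ M) (g : GQ) (a : M)
    (h : c g = M.ρ g a - a) (n : ℕ) : c (g ^ n) = M.ρ (g ^ n) a - a := by
  induction n with
  | zero =>
    rw [pow_zero, cocycles₁_map_one, map_one]
    show (0 : M) = a - a
    rw [sub_self]
  | succ n ih =>
    have e1 : c (g ^ (n + 1)) = M.ρ g (c (g ^ n)) + c g := by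
      rw [pow_succ']
      exact cocycle_mul c g (g ^ n)
    have e2 : M.ρ (g ^ (n + 1)) a = M.ρ g (M.ρ (g ^ n) a) := by
      rw [pow_succ', map_mul]
      rfl
    rw [e1, ih, h, e2, map_sub]
    abel

/-- **D-loc, final form.**  If moreover `σ` agrees with a power of `φ` on `F`, then
`c σ ∈ (σ - 1) M`. -/
theorem loc_coboundary_of_pow (M : Rep k GQ) (F : IntermediateField ℚ (AlgebraicClosure ℚ))
    [FiniteDimensional ℚ F]
    (hM : ∀ s ∈ F.fixingSubgroup, M.ρ s = 1)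
    (c : cocycles₁ M) (hc : ∀ g s : GQ, s ∈ F.fixingSubgroup → c (g * s) = c g)
    (q : Nat.Primes) (A : ValuationSubring (AlgebraicClosure ℚ))
    (hA : A.LiesOverPrime (q : ℕ))
    (φ : GQ) (hφ : φ ∈ A.decompositionSubgroup ℚ)
    (h0 : resAt M q ((H1π M).hom c) = 0)
    (σ : GQ) (j : ℕ) (hσ : ∀ x ∈ F, (φ ^ j) x = σ x) :
    ∃ m : M, c σ = M.ρ σ m - m := by
  obtain ⟨m, hm⟩ := loc_coboundary M F hM c hc q A hA φ hφ h0
  have hpow := cocycle_pow_cob M c φ m hm j
  have hs : (φ ^ j)⁻¹ * σ ∈ F.fixingSubgroup := by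
    rw [IntermediateField.mem_fixingSubgroup_iff]
    intro x hx
    show (φ ^ j)⁻¹ (σ x) = x
    rw [← hσ x hx]
    exact AlgEquiv.symm_apply_apply (φ ^ j) x
  have hσ_eq : σ = φ ^ j * ((φ ^ j)⁻¹ * σ) := by group
  have h1 : c σ = c (φ ^ j) := by
    conv_lhs => rw [hσ_eq]
    exact hc _ _ hs
  have h2 : M.ρ σ = M.ρ (φ ^ j) := by
    conv_lhs => rw [hσ_eq]
    rw [map_mul, hM _ hs, mul_one]
  exact ⟨m, by rw [h1, h2]; exact hpow⟩

end Fermat.Agent.S56.TWS.H13

end
end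
-- ==== END Fermat.Agent.S56.TWS.H13_Loc

-- ==== BEGIN Fermat.Agent.S56.TWS.H27_Irred
section

set_option autoImplicit false

/-!
# Cluster T / S56, package TWS-C2 (helper27): `ad⁰ ρbar (1)`-dual is irreducible

* `exists_char_of_line`     : a stable line in a representation gives a character.
* `finrank_ad0Sub`          : `dim ad⁰ = 3`.
* `ad0_irreducible`         : `ad⁰ ρbar` has no proper nonzero stable subspace.
* `dualTwist_irreducible`   : `(ad⁰ ρbar).dualTwist χ` has no proper nonzero stable subspace.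
* `stmt_irred`              : `Stmt_irred`.
-/

noncomputable section

namespace Fermat.Agent.S56.TWS.H27

open Polynomial IsLocalRing CategoryTheory groupCohomology ExtCitation Fermat.Agent.S53 Module
open Fermat.Agent.S56 Fermat.Agent.S56.H27
open scoped TensorProduct

section Generic

variable {k : Type*} [Field k] {G : Type*} [Group G] {M : Type*} [AddCommGroup M] [Module k M]

/-- A nonzero vector spanning a stable line of a representation gives a character. -/
theorem exists_char_of_vector (ρ : Representation k G M) (x : M) (hx : x ≠ 0)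
    (h : ∀ g : G, ∃ c : k, ρ g x = c • x) :
    ∃ ψ : G →* kˣ, ∀ g : G, ρ g x = (ψ g : k) • x := by
  choose c hc using h
  have hinj : ∀ a b : k, a • x = b • x → a = b := by
    intro a b hab
    have h0 : (a - b) • x = 0 := by rw [sub_smul, hab, sub_self]
    rcases smul_eq_zero.mp h0 with h1 | h1
    · exact sub_eq_zero.mp h1
    · exact absurd h1 hx
  have h1 : c 1 = 1 := by
    apply hinj
    rw [← hc 1, map_one, one_smul]
    rfl
  have hmul : ∀ g h : G, c (g * h) = c g * c h := by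
    intro g h
    apply hinj
    rw [← hc (g * h), map_mul, Module.End.mul_apply, hc h, map_smul, hc g, smul_smul, mul_comm]
  let ψ₀ : G →* k := { toFun := c, map_one' := h1, map_mul' := hmul }
  refine ⟨ψ₀.toHomUnits, fun g => ?_⟩
  rw [MonoidHom.coe_toHomUnits]
  exact hc g

/-- A stable line of a representation gives a nonzero vector and a character. -/
theorem exists_char_of_line (ρ : Representation k G M) (L : Submodule k M)
    (hL : Module.finrank k L = 1) (hstab : ∀ g : G, ∀ x ∈ L, ρ g x ∈ L) :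
    ∃ x : M, x ∈ L ∧ x ≠ 0 ∧ ∃ ψ : G →* kˣ, ∀ g : G, ρ g x = (ψ g : k) • x := by
  obtain ⟨v, hv0, hv⟩ := finrank_eq_one_iff'.mp hL
  have hx0 : (v : M) ≠ 0 := fun h => hv0 (Subtype.ext h)
  refine ⟨v, v.2, hx0, exists_char_of_vector ρ v hx0 fun g => ?_⟩
  obtain ⟨c, hc⟩ := hv ⟨ρ g v, hstab g v v.2⟩
  refine ⟨c, ?_⟩
  have := congrArg Subtype.val hc
  simpa using this.symm

end Generic

section GenericThree

variable {k : Type*} [Field k] {G : Type*} [Group G] {M : Type*} [AddCommGroup M] [Module k M]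
  [FiniteDimensional k M]

omit [FiniteDimensional k M] in
/-- The coannihilator of a subspace of the dual stable under a twisted dual action is stable. -/
theorem coannihilator_stable (ρ : Representation k G M)
    (ρ' : Representation k G (Module.Dual k M)) (χ : G →* kˣ)
    (hρ' : ∀ (g : G) (φ : Module.Dual k M), ρ' g φ = (χ g : k) • (φ ∘ₗ ρ g⁻¹))
    (W : Submodule k (Module.Dual k M)) (hW : ∀ g : G, ∀ φ ∈ W, ρ' g φ ∈ W) :
    ∀ g : G, ∀ x ∈ W.dualCoannihilator, ρ g x ∈ W.dualCoannihilator := by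
  intro g x hx
  rw [Submodule.mem_dualCoannihilator] at hx ⊢
  intro φ hφ
  have h1 := hx _ (hW g⁻¹ φ hφ)
  rw [hρ', inv_inv, LinearMap.smul_apply, LinearMap.comp_apply, smul_eq_mul] at h1
  rcases mul_eq_zero.mp h1 with h2 | h2
  · exact absurd h2 (Units.ne_zero _)
  · exact h2

omit [FiniteDimensional k M] in
/-- The annihilator of a stable subspace is stable under a twisted dual action. -/
theorem annihilator_stable (ρ : Representation k G M)
    (ρ' : Representation k G (Module.Dual k M)) (χ : G →* kˣ)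
    (hρ' : ∀ (g : G) (φ : Module.Dual k M), ρ' g φ = (χ g : k) • (φ ∘ₗ ρ g⁻¹))
    (W : Submodule k M) (hW : ∀ g : G, ∀ x ∈ W, ρ g x ∈ W) :
    ∀ g : G, ∀ φ ∈ W.dualAnnihilator, ρ' g φ ∈ W.dualAnnihilator := by
  intro g φ hφ
  rw [Submodule.mem_dualAnnihilator] at hφ ⊢
  intro x hx
  rw [hρ', LinearMap.smul_apply, LinearMap.comp_apply, hφ _ (hW g⁻¹ x hx), smul_zero]

/-- A `3`-dimensional representation and its twisted dual are irreducible as soon as neither has
a stable line. -/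
theorem irreducible_of_no_line (h3 : Module.finrank k M = 3) (ρ : Representation k G M)
    (ρ' : Representation k G (Module.Dual k M)) (χ : G →* kˣ)
    (hρ' : ∀ (g : G) (φ : Module.Dual k M), ρ' g φ = (χ g : k) • (φ ∘ₗ ρ g⁻¹))
    (hM : ∀ (x : M) (ψ : G →* kˣ), (∀ g : G, ρ g x = (ψ g : k) • x) → x = 0)
    (hD : ∀ (φ : Module.Dual k M) (ψ : G →* kˣ), (∀ g : G, ρ' g φ = (ψ g : k) • φ) → φ = 0) :
    (∀ W : Submodule k M, (∀ g : G, ∀ x ∈ W, ρ g x ∈ W) → W = ⊥ ∨ W = ⊤) ∧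
    (∀ W : Submodule k (Module.Dual k M), (∀ g : G, ∀ φ ∈ W, ρ' g φ ∈ W) → W = ⊥ ∨ W = ⊤) := by
  have h3' : Module.finrank k (Module.Dual k M) = 3 := by rw [Subspace.dual_finrank_eq, h3]
  have noLineM : ∀ L : Submodule k M, Module.finrank k L = 1 →
      (∀ g : G, ∀ x ∈ L, ρ g x ∈ L) → False := by
    intro L hL hst
    obtain ⟨x, _, hx0, ψ, hψ⟩ := exists_char_of_line ρ L hL hst
    exact hx0 (hM x ψ hψ)
  have noLineD : ∀ L : Submodule k (Module.Dual k M), Module.finrank k L = 1 →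
      (∀ g : G, ∀ x ∈ L, ρ' g x ∈ L) → False := by
    intro L hL hst
    obtain ⟨x, _, hx0, ψ, hψ⟩ := exists_char_of_line ρ' L hL hst
    exact hx0 (hD x ψ hψ)
  constructor
  · intro W hW
    by_contra hcon
    push Not at hcon
    obtain ⟨hbot, htop⟩ := hcon
    have hlt : Module.finrank k W < 3 := by
      rw [← h3]
      exact Submodule.finrank_lt htop
    have hpos : Module.finrank k W ≠ 0 := fun h => hbot (Submodule.finrank_eq_zero.mp h)
    have hcases : Module.finrank k W = 1 ∨ Module.finrank k W = 2 := by omega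
    rcases hcases with h1 | h2
    · exact noLineM W h1 hW
    · have h4 := Subspace.finrank_add_finrank_dualAnnihilator_eq W
      rw [h3, h2] at h4
      exact noLineD W.dualAnnihilator (by omega) (annihilator_stable ρ ρ' χ hρ' W hW)
  · intro W hW
    by_contra hcon
    push Not at hcon
    obtain ⟨hbot, htop⟩ := hcon
    have hlt : Module.finrank k W < 3 := by
      rw [← h3']
      exact Submodule.finrank_lt htop
    have hpos : Module.finrank k W ≠ 0 := fun h => hbot (Submodule.finrank_eq_zero.mp h)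
    have hcases : Module.finrank k W = 1 ∨ Module.finrank k W = 2 := by omega
    rcases hcases with h1 | h2
    · exact noLineD W h1 hW
    · have h4 := Subspace.finrank_add_finrank_dualCoannihilator_eq W
      rw [h3, h2] at h4
      exact noLineM W.dualCoannihilator (by omega) (coannihilator_stable ρ ρ' χ hρ' W hW)

end GenericThree

section Dim

variable {k : Type} [Field k] (ρbar : ResidualGaloisRep k)



theorem finrank_ad0Sub (hchar : (2 : k) ≠ 0) : Module.finrank k (ad0Sub ρbar) = 3 := by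
  have h1 := LinearMap.finrank_range_add_finrank_ker (LinearMap.trace k ρbar.V)
  have h2 : Module.finrank k (Module.End k ρbar.V) = 4 := by
    rw [Module.finrank_linearMap, ρbar.finrank_eq]
  have h3 : LinearMap.range (LinearMap.trace k ρbar.V) = ⊤ := by
    rw [LinearMap.range_eq_top]
    apply LinearMap.surjective_of_ne_zero
    intro h
    have h4 := congrArg (fun φ : Module.End k ρbar.V →ₗ[k] k => φ 1) h
    simp only [LinearMap.trace_one, LinearMap.zero_apply, ρbar.finrank_eq] at h4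
    apply hchar
    exact_mod_cast h4
  rw [h3, finrank_top, Module.finrank_self, h2] at h1
  show Module.finrank k (LinearMap.ker (LinearMap.trace k ρbar.V)) = 3
  omega

end Dim

section Irred

variable {k : Type} [Field k] (ρbar : ResidualGaloisRep k)

/-- The hypothesis `hTW` of `Hyp`, as a `Prop` on `ρbar`. -/
def TWHyp : Prop :=
  ∀ (K : Type) [Field K] [Algebra k K] (G : Subgroup _root_.Fermat.Agent.S56.GQ), G.index = 2 →
    ∀ V : Submodule K (ρbar.baseChange K).V,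
      (∀ σ ∈ G, ∀ x ∈ V, (ρbar.baseChange K).ρ σ x ∈ V) → V = ⊥ ∨ V = ⊤

/-- No nonzero trace-zero endomorphism spans a stable line of `ad⁰ ρbar`. -/
theorem eq_zero_of_ad0_eigen (hchar : (2 : k) ≠ 0) (habs : ρbar.IsAbsolutelyIrreducible)
    (hTW : TWHyp ρbar) (f₀ : ad0Sub ρbar) (ψ : _root_.Fermat.Agent.S56.GQ →* kˣ)
    (h : ∀ g : _root_.Fermat.Agent.S56.GQ, (ad0 ρbar).ρ g f₀ = (ψ g : k) • f₀) : f₀ = 0 := by
  apply Subtype.ext
  refine eq_zero_of_twisted ρbar hchar habs hTW ψ⁻¹ f₀.1 f₀.2 fun g => ?_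
  have h1 : ρbar.ρ g * f₀.1 * ρbar.ρ g⁻¹ = (ψ g : k) • f₀.1 := congrArg Subtype.val (h g)
  have h2 : ρbar.ρ g * f₀.1 = (ψ g : k) • (f₀.1 * ρbar.ρ g) := by
    have h3 : ρbar.ρ g * f₀.1 * ρbar.ρ g⁻¹ * ρbar.ρ g = (ψ g : k) • f₀.1 * ρbar.ρ g := by
      rw [h1]
    rw [mul_assoc (ρbar.ρ g * f₀.1), rho_inv_mul, mul_one, smul_mul_assoc] at h3
    exact h3
  rw [h2, smul_smul, MonoidHom.inv_apply, Units.val_inv_eq_inv_val,
    inv_mul_cancel₀ (Units.ne_zero _), one_smul]

/-- No nonzero functional spans a stable line of `(ad⁰ ρbar).dualTwist χ`. -/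
theorem eq_zero_of_dualTwist_eigen (hchar : (2 : k) ≠ 0) (habs : ρbar.IsAbsolutelyIrreducible)
    (hTW : TWHyp ρbar) (χ : _root_.Fermat.Agent.S56.GQ →* kˣ) (lam : (ad0 ρbar).dualTwist χ) (ψ : _root_.Fermat.Agent.S56.GQ →* kˣ)
    (h : ∀ g : _root_.Fermat.Agent.S56.GQ, ((ad0 ρbar).dualTwist χ).ρ g lam = (ψ g : k) • lam) : lam = 0 := by
  have hinv := dualTwist_invariants_eq_bot ρbar hchar habs hTW (χ * ψ⁻¹)
  have hmem : (show (ad0 ρbar).dualTwist (χ * ψ⁻¹) from lam) ∈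
      ((ad0 ρbar).dualTwist (χ * ψ⁻¹)).ρ.invariants := by
    rw [Representation.mem_invariants]
    intro g
    have h1 := h g
    rw [Rep.dualTwist_ρ_apply] at h1 ⊢
    rw [MonoidHom.mul_apply, MonoidHom.inv_apply, Units.val_mul, Units.val_inv_eq_inv_val,
      mul_comm, mul_smul]
    have h2 : ((ψ g : k))⁻¹ • ((ψ g : k) • (show Module.Dual k (ad0 ρbar) from lam)) =
        (show Module.Dual k (ad0 ρbar) from lam) := by
      rw [smul_smul, inv_mul_cancel₀ (Units.ne_zero _), one_smul]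
    exact (congrArg (fun φ : Module.Dual k (ad0 ρbar) => ((ψ g : k))⁻¹ • φ) h1).trans h2
  rw [hinv] at hmem
  exact (Submodule.mem_bot k).mp hmem

theorem ad0_dualTwist_irreducible (hchar : (2 : k) ≠ 0) (habs : ρbar.IsAbsolutelyIrreducible)
    (hTW : TWHyp ρbar) (χ : _root_.Fermat.Agent.S56.GQ →* kˣ) :
    (∀ W : Submodule k (ad0 ρbar), (∀ g : _root_.Fermat.Agent.S56.GQ, ∀ x ∈ W, (ad0 ρbar).ρ g x ∈ W) → W = ⊥ ∨ W = ⊤) ∧
    (∀ W : Submodule k ((ad0 ρbar).dualTwist χ),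
      (∀ g : _root_.Fermat.Agent.S56.GQ, ∀ x ∈ W, ((ad0 ρbar).dualTwist χ).ρ g x ∈ W) → W = ⊥ ∨ W = ⊤) := by
  exact irreducible_of_no_line (M := ad0Sub ρbar) (finrank_ad0Sub ρbar hchar) (ad0 ρbar).ρ
    ((ad0 ρbar).dualTwist χ).ρ χ (fun g φ => Rep.dualTwist_ρ_apply (ad0 ρbar) χ g φ)
    (fun x ψ h => eq_zero_of_ad0_eigen ρbar hchar habs hTW x ψ h)
    (fun φ ψ h => eq_zero_of_dualTwist_eigen ρbar hchar habs hTW χ φ ψ h)

/-- `ad⁰ ρbar` has no proper nonzero stable subspace. -/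
theorem ad0_irreducible (hchar : (2 : k) ≠ 0) (habs : ρbar.IsAbsolutelyIrreducible)
    (hTW : TWHyp ρbar) (W : Submodule k (ad0 ρbar))
    (hW : ∀ g : _root_.Fermat.Agent.S56.GQ, ∀ x ∈ W, (ad0 ρbar).ρ g x ∈ W) : W = ⊥ ∨ W = ⊤ :=
  (ad0_dualTwist_irreducible ρbar hchar habs hTW 1).1 W hW

/-- `(ad⁰ ρbar).dualTwist χ` has no proper nonzero stable subspace. -/
theorem dualTwist_irreducible (hchar : (2 : k) ≠ 0) (habs : ρbar.IsAbsolutelyIrreducible)
    (hTW : TWHyp ρbar) (χ : _root_.Fermat.Agent.S56.GQ →* kˣ) (W : Submodule k ((ad0 ρbar).dualTwist χ))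
    (hW : ∀ g : _root_.Fermat.Agent.S56.GQ, ∀ x ∈ W, ((ad0 ρbar).dualTwist χ).ρ g x ∈ W) : W = ⊥ ∨ W = ⊤ :=
  (ad0_dualTwist_irreducible ρbar hchar habs hTW χ).2 W hW

end Irred

theorem two_ne_zero_of_hyp {𝒪 : Type} [CommRing 𝒪] [IsLocalRing 𝒪]
    (p : ℕ) [Fact p.Prime] [CharP (ResidueField 𝒪) p] (hp2 : p ≠ 2) :
    (2 : ResidueField 𝒪) ≠ 0 := by
  intro h
  have h2 : ((2 : ℕ) : ResidueField 𝒪) = 0 := by exact_mod_cast h
  rw [CharP.cast_eq_zero_iff (ResidueField 𝒪) p] at h2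
  have hp : p.Prime := Fact.out
  exact hp2 ((Nat.prime_dvd_prime_iff_eq hp Nat.prime_two).mp h2)

/-- **TWS-C2.** -/
theorem stmt_irred : Stmt_irred := by
  intro 𝒪 _ _ _ _ _ p _ _ ρbar S Smin hyp W hW
  exact dualTwist_irreducible ρbar (two_ne_zero_of_hyp p hyp.hp2) hyp.habs hyp.hTW
    (cycloK p (ResidueField 𝒪)) W hW

end Fermat.Agent.S56.TWS.H27

end

end
-- ==== END Fermat.Agent.S56.TWS.H27_Irred
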