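-- GENERATED (merged mirror, NOTES/tools/trim/merge3_helper67.py): 10 modules of the originals, bodies verbatim.
import Mathlib
import Fermat.Agent.Zm.S56_L10_003
import Fermat.Agent.Zm.S56_L09_003
import Fermat.Agent.Zm.S56_L09_001
import Fermat.Agent.Zm.S56_L10_002
import Fermat.Agent.Zm.S56_L04_004
import Fermat.Agent.Zm.S56_L09_002
import Fermat.Agent.Zm.S56_L06_004
import Fermat.Agent.Zm.S56_L07_005
import Fermat.Agent.Zm.S56_L03_000
import Fermat.Agent.Zm.S56_L04_000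
import Fermat.Agent.Zm.S56_L02_000
import Fermat.Agent.Zm.S56_L01_000
import Fermat.Agent.Zm.S56_L09_004
import Fermat.Agent.Zm.S56_L10_004
import Fermat.Agent.Zm.S56_L03_003
import Fermat.Agent.Zm.S56_L04_003

-- ==== BEGIN Fermat.Agent.S55.CFT.GS.H24_AsmI3
section

set_option autoImplicit false
set_option linter.unusedSectionVars false
set_option linter.unusedVariables false
set_option linter.style.haveILetI false

open CategoryTheory Module groupCohomology ExtCitation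

noncomputable section

namespace Fermat.Agent.S55.CFT.GS.H24

open Fermat.Agent.S55 Fermat.Agent.S55.Top Fermat.Agent.S55.CFT.GS

local notation "Qb" => AlgebraicClosure ℚ

section units

variable {p : ℕ} [Fact p.Prime] {S : Finset Nat.Primes} {K : IntermediateField ℚ Qb}

/-- `U_K ∩ Kˣᵖ = U_Kᵖ`. -/
theorem subgroupOf_KPs_eq_range (hK : K.IsUnramifiedOutside S) (H : Subgroup Qbˣ)
    (hH : (H : Set Qbˣ) = UK S K) :
    (KPs p K).subgroupOf H = (powMonoidHom p : ↥H →* ↥H).range := by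
  have hmem : ∀ x : Qbˣ, x ∈ H ↔ x ∈ UK S K := fun x => by
    rw [← hH]
    rfl
  ext x
  rw [Subgroup.mem_subgroupOf, MonoidHom.mem_range]
  constructor
  · intro hx
    obtain ⟨b, hb, hbx⟩ := mem_KPs.1 hx
    have hxU := (hmem _).1 x.2
    have hbU : b ∈ H := by
      rw [hmem]
      refine ⟨hb, inOm_of_mem hK hb, fun q hq A hA => ?_⟩
      have h1 := hxU.2.2 q hq A hA
      rw [← hbx, Units.val_pow_eq_pow_val, map_pow] at h1
      exact val_eq_one_of_pow A (Fact.out : p.Prime).ne_zero h1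
    refine ⟨⟨b, hbU⟩, ?_⟩
    apply Subtype.ext
    exact hbx
  · rintro ⟨y, rfl⟩
    exact mem_KPs.2 ⟨(y : Qbˣ), ((hmem _).1 y.2).1, rfl⟩

/-- `U_K Kˣᵖ = U_K ⊔ Kˣᵖ`. -/
theorem UKP_eq_sup (H V' : Subgroup Qbˣ) (hH : (H : Set Qbˣ) = UK S K)
    (hV' : (V' : Set Qbˣ) = UKP S p K) : V' = H ⊔ KPs p K := by
  have hmem : ∀ x : Qbˣ, x ∈ H ↔ x ∈ UK S K := fun x => by
    rw [← hH]
    rfl
  have hmem' : ∀ x : Qbˣ, x ∈ V' ↔ x ∈ UKP S p K := fun x => by
    rw [← hV']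
    rfl
  ext x
  rw [hmem', Subgroup.mem_sup]
  constructor
  · rintro ⟨u, b, hu, hb, rfl⟩
    exact ⟨u, (hmem u).2 hu, b ^ p, mem_KPs.2 ⟨b, hb, rfl⟩, rfl⟩
  · rintro ⟨u, hu, z, hz, rfl⟩
    obtain ⟨b, hb, rfl⟩ := mem_KPs.1 hz
    exact ⟨u, b, (hmem u).1 hu, hb, rfl⟩

/-- `[U_K Kˣᵖ : Kˣᵖ] = [U_K : U_Kᵖ]`. -/
theorem relIndex_KPs_UKP (hK : K.IsUnramifiedOutside S) (H V' : Subgroup Qbˣ)
    (hH : (H : Set Qbˣ) = UK S K) (hV' : (V' : Set Qbˣ) = UKP S p K) :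
    (KPs p K).relIndex V' = (powMonoidHom p : ↥H →* ↥H).range.index := by
  rw [UKP_eq_sup H V' hH hV', Subgroup.relIndex_sup_right,
    ← subgroupOf_KPs_eq_range hK H hH]
  rfl

end units

/-- `#H²_S(G_K, 𝔽_p) = [Z²_S : B²_S]`. -/
theorem card_H2K (p : ℕ) [Fact p.Prime] (S : Finset Nat.Primes) (K : IntermediateField ℚ Qb) :
    Nat.card (H2K (ZMod p) S K) =
      (B2K (ZMod p) S K).toAddSubgroup.relIndex (Z2K (ZMod p) S K).toAddSubgroup := rfl

/-- **GS-AsmI3.** -/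
theorem asmI3 : Stmt_GS_AsmI3 := by
  intro hH90 hHasse hOne hUR hCD hI1 p _ hp2 S hp K hK
  have hpp : p.Prime := Fact.out
  -- the root of unity
  obtain ⟨ζ₀, hζ₀K, hζ₀⟩ := hK.2
  have hζ₀0 : ζ₀ ≠ 0 := hζ₀.ne_zero hpp.ne_zero
  obtain ⟨ζ, rfl⟩ : ∃ ζ : Qbˣ, (ζ : Qb) = ζ₀ := ⟨Units.mk0 ζ₀ hζ₀0, rfl⟩
  have hζ : IsPrimitiveRoot ζ p := IsPrimitiveRoot.coe_units_iff.1 hζ₀
  have hζK : ζ ∈ KxS K := hζ₀K
  -- a place system
  haveI : Finite (XK K) := finite_XK hK.1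
  let 𝔓 : PlaceSys S K := placeSysOut S K
  -- the inputs
  obtain ⟨H, n, hH, hidx, hn⟩ := hUR p hp2 S hp K hK 𝔓
  obtain ⟨V, V', T, T', hV, hV', hT, hT', hVfin, hTfin, hle⟩ := hCD p hp2 S hp K hK
  obtain ⟨-, h2w, -, -⟩ := hI1 p hp2 S hp K hK 𝔓
  -- `V = V_S`
  have hVeq : V = VSs S p K := SetLike.coe_injective (hV.trans coe_VSs.symm)
  subst hVeq
  have hmemV' : ∀ x : Qbˣ, x ∈ V' ↔ x ∈ UKP S p K := fun x => by
    rw [← hV']
    rfl
  have h1H : (1 : Qbˣ) ∈ UK S K := by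
    rw [← hH]
    exact H.one_mem
  have hKV' : KPs p K ≤ V' := by
    intro a ha
    obtain ⟨b, hb, rfl⟩ := mem_KPs.1 ha
    exact (hmemV' _).2 ⟨1, b, h1H, hb, (one_mul _).symm⟩
  have hV'V : V' ≤ VSs S p K := by
    intro a ha
    have h1 := UKP_subset_VS (p := p) hp hK.1 ((hmemV' a).1 ha)
    exact mem_VSs.2 h1
  -- `#H¹`
  have hc1 : Nat.card ↥(Z1K (ZMod p) S K) = p ^ n * V'.relIndex (VSs S p K) := by
    rw [card_Z1K hζ hH90 hK.1 hζK, ← Subgroup.relIndex_mul_relIndex _ _ _ hKV' hV'V,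
      relIndex_KPs_UKP hK.1 H V' hH hV', hidx]
  -- `#H²`
  obtain ⟨hb0, hble⟩ := relIndex_B2K_ZL hHasse hH90 hp2 hp hK 𝔓 hζ hζK T T' hT hT' hTfin
  obtain ⟨hc0, m, hm, hcle⟩ := relIndex_ZL 𝔓 hOne hp2 hp hK h2w
  have hc2 : Nat.card (H2K (ZMod p) S K) =
      (B2K (ZMod p) S K).toAddSubgroup.relIndex (ZL (ZMod p) 𝔓).toAddSubgroup *
        (ZL (ZMod p) 𝔓).toAddSubgroup.relIndex (Z2K (ZMod p) S K).toAddSubgroup := by
    rw [card_H2K, AddSubgroup.relIndex_mul_relIndex _ _ _ (B2K_le_ZL 𝔓) (ZL_le_Z2K 𝔓)]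
  have hp0 : 0 < p := hpp.pos
  have hc1ne : Nat.card ↥(Z1K (ZMod p) S K) ≠ 0 := by
    rw [hc1]
    exact mul_ne_zero (pow_ne_zero _ hpp.ne_zero) hVfin
  have hc2ne : Nat.card (H2K (ZMod p) S K) ≠ 0 := by
    rw [hc2]
    exact mul_ne_zero hb0 hc0
  haveI hf1 : Finite ↥(Z1K (ZMod p) S K) := Nat.finite_of_card_ne_zero hc1ne
  haveI hf2 : Finite (H2K (ZMod p) S K) := Nat.finite_of_card_ne_zero hc2ne
  haveI hm1 : Module.Finite (ZMod p) ↥(Z1K (ZMod p) S K) := Module.Finite.of_finite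
  haveI hm2 : Module.Finite (ZMod p) (H2K (ZMod p) S K) := Module.Finite.of_finite
  refine ⟨hm1, hm2, ?_⟩
  have e1 : Nat.card ↥(Z1K (ZMod p) S K) =
      p ^ Module.finrank (ZMod p) ↥(Z1K (ZMod p) S K) := by
    rw [Module.natCard_eq_pow_finrank (K := ZMod p), Nat.card_zmod]
  have e2 : Nat.card (H2K (ZMod p) S K) =
      p ^ Module.finrank (ZMod p) (H2K (ZMod p) S K) := by
    rw [Module.natCard_eq_pow_finrank (K := ZMod p), Nat.card_zmod]
  -- the inequality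
  have hmain : p ^ (Module.finrank (ZMod p) (H2K (ZMod p) S K) + n) ≤
      p ^ (Module.finrank (ZMod p) ↥(Z1K (ZMod p) S K) + m) := by
    rw [pow_add, pow_add, ← e1, ← e2, hc1, hc2]
    calc (B2K (ZMod p) S K).toAddSubgroup.relIndex (ZL (ZMod p) 𝔓).toAddSubgroup *
          (ZL (ZMod p) 𝔓).toAddSubgroup.relIndex (Z2K (ZMod p) S K).toAddSubgroup * p ^ n
        ≤ V'.relIndex (VSs S p K) * p ^ m * p ^ n := by
          gcongr
          exact hble.trans hle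
      _ = p ^ n * V'.relIndex (VSs S p K) * p ^ m := by ring
  have hexp := (Nat.pow_le_pow_iff_right hpp.one_lt).1 hmain
  omega

end Fermat.Agent.S55.CFT.GS.H24

end

end
-- ==== END Fermat.Agent.S55.CFT.GS.H24_AsmI3

-- ==== BEGIN Fermat.Agent.S56.FL.H57_CohDefs
section

set_option autoImplicit false

/-!
# LOC-p-FL, package COH (helper57): the two TAME inputs of `Stmt_COH_SS`, `Stmt_COH_RED`

`G = Gp p = Gal(K̄/ℚ_p)`, `I = inertiaP p`, `L/ℚ_p` finite Galois, `G_L = L.fixingSubgroup`,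
`Γ = Gal(L/ℚ_p) = G/G_L ⊇ Γ₀` (inertia) `⊇ Γ₁` (wild inertia).

* `Stmt_Tame`    : the structure of `Γ`: with `P` = the preimage of `Γ₁` in `G`,
    `P` is normal, contains `G_L`, `P/G_L` is a `p`-group;
    `Γ/Γ₀` is generated by the image of a Frobenius `φ`, the image of `I` in `Γ/Γ₁` is generated by
    the image of `s ∈ I`, and `φ s φ⁻¹ ≡ s^p` modulo `P`.
* `Stmt_CycSurj` : the mod `p` cyclotomic character maps inertia onto `𝔽_pˣ`
    (`ℚ_p(μ_p)/ℚ_p` is totally ramified of degree `p - 1`).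
-/

noncomputable section

namespace Fermat.Agent.S56.FL.H57

open Fermat.Agent.S56.FL

/-- **TAME**: Frobenius, tame generator and wild inertia at the finite level `L`. -/
def Stmt_Tame : Prop :=
  ∀ (p : ℕ) [Fact p.Prime] (L : IntermediateField ℚ_[p] (PadicAlgCl p))
    [FiniteDimensional ℚ_[p] L], Normal ℚ_[p] L →
    ∃ (P : Subgroup (Gp p)) (φ s : Gp p),
      P.Normal ∧ L.fixingSubgroup ≤ P ∧
      (∀ w ∈ P, ∃ N : ℕ, w ^ (p ^ N) ∈ L.fixingSubgroup) ∧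
      s ∈ inertiaP p ∧
      (∀ σ : Gp p, ∃ n : ℕ, ∃ ι ∈ inertiaP p, ∃ τ ∈ L.fixingSubgroup, σ = φ ^ n * ι * τ) ∧
      (∀ ι ∈ inertiaP p, ∃ n : ℕ, ∃ w ∈ P, ι = s ^ n * w) ∧
      (∃ w ∈ P, φ * s * φ⁻¹ = s ^ p * w)

/-- **CYC-SURJ**: every exponent prime to `p` is the value of the mod `p` cyclotomic character at
an element of the inertia group. -/
def Stmt_CycSurj : Prop :=
  ∀ (p : ℕ) [Fact p.Prime] (n : ℕ), ¬ p ∣ n →
    ∃ σ ∈ inertiaP p, ∀ ζ : PadicAlgCl p, ζ ^ p = 1 → σ ζ = ζ ^ n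

end Fermat.Agent.S56.FL.H57

end

end
-- ==== END Fermat.Agent.S56.FL.H57_CohDefs

-- ==== BEGIN Fermat.Agent.S56.FL.H59_Frob
section

set_option autoImplicit false
set_option linter.style.haveILetI false

/-!
# LOC-p-FL, package UNITS / CC2, leaf FROB (helper59): a Frobenius element of `Gal(K̄/ℚ_p)` for a
finite Galois extension `M/ℚ_p`
-/

noncomputable section

namespace Fermat.Agent.S56.FL.H59

open Fermat.Agent.S56.FL Fermat.Agent.S56.FL.H15

theorem stmt_FROB : H15.Stmt_FROB := by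
  intro p _ M _ hN
  haveI : Normal ℚ_[p] M := hN
  obtain ⟨φ₀, hφ₀⟩ := exists_frobenius M hN
  obtain ⟨φ, hφ⟩ := H38.resL_surjective (L := M) φ₀
  refine ⟨φ, fun a haM ha => ?_⟩
  have h1 := hφ₀ ⟨⟨a, haM⟩, ha⟩
  rw [mem_mL] at h1
  have h2 : (((φ₀ • (⟨⟨a, haM⟩, ha⟩ : OL M) - (⟨⟨a, haM⟩, ha⟩ : OL M) ^ p : OL M) : M) :
      PadicAlgCl p) = φ a - a ^ p := by
    push_cast
    rw [coe_smul_OL, ← hφ, H38.resL_apply]
  rw [h2] at h1
  exact h1

end Fermat.Agent.S56.FL.H59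

end

end
-- ==== END Fermat.Agent.S56.FL.H59_Frob

-- ==== BEGIN Fermat.Agent.S56.FL.H61_Inert
section

set_option autoImplicit false
set_option linter.style.haveILetI false
set_option linter.unusedSectionVars false

noncomputable section

namespace Fermat.Agent.S56.FL.H61

open scoped NNReal
open Fermat.Agent.S56.FL Fermat.Agent.S56.FL.H15 Fermat.Agent.S56.H9 Module Polynomial

variable {p : ℕ} [Fact p.Prime]

variable (K : IntermediateField ℚ_[p] (PadicAlgCl p)) [FiniteDimensional ℚ_[p] K]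

/-- In the tame case the wild inertia group is trivial. -/
theorem eq_one_of_mem_wild (hN : Normal ℚ_[p] K) (hdeg : ¬ p ∣ finrank ℚ_[p] K)
    {w : K ≃ₐ[ℚ_[p]] K} (hw : w ∈ wild (mL K) (K ≃ₐ[ℚ_[p]] K)) : w = 1 := by
  have hp : p.Prime := Fact.out
  haveI : Normal ℚ_[p] K := hN
  haveI : IsGalois ℚ_[p] K := ⟨⟩
  obtain ⟨n, hn⟩ := H59.wild_pow_eq_one K hw
  have h3 : orderOf w ∣ p ^ n := orderOf_dvd_of_pow_eq_one hn
  have h4 : orderOf w ∣ finrank ℚ_[p] K := by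
    rw [← IsGalois.card_aut_eq_finrank ℚ_[p] K]
    exact orderOf_dvd_natCard w
  have hcop : Nat.Coprime (p ^ n) (finrank ℚ_[p] K) :=
    Nat.Coprime.pow_left _ ((Nat.Prime.coprime_iff_not_dvd hp).2 hdeg)
  exact orderOf_eq_one_iff.1 (Nat.eq_one_of_dvd_coprimes hcop h3 h4)

open Classical in
/-- The inertia group of a finite Galois extension has `e` elements. -/
theorem card_inertiaSet_eq (hN : Normal ℚ_[p] K) {ϖ : K} (h0 : 0 < ‖ϖ‖) (h1 : ‖ϖ‖ < 1)
    (hmax : ∀ a : K, ‖a‖ < 1 → ‖a‖ ≤ ‖ϖ‖) {e : ℕ} (he : ‖ϖ‖ ^ e = (p : ℝ)⁻¹) :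
    (H59.inertiaSet K).card = e := by
  obtain ⟨x, π, q, h, hq⟩ := exists_goodGen_q K
  obtain ⟨Pz, hP⟩ := exists_isMinZ hN h
  obtain ⟨hx, hπ0, hπ1, hπmax, hxq, hres⟩ := id h
  have hπϖ : ‖π‖ = ‖ϖ‖ := le_antisymm (hmax π hπ1) (hπmax ϖ h1)
  refine le_antisymm ?_ ?_
  · have := card_inertia_le h hq hP (e := e) (by rw [hπϖ]; exact he)
    exact this
  · have h2 := H59.norm_pow_card_orbit_le hN ϖ h1
    rw [← he] at h2
    have h3 : e ≤ (H59.inertiaOrbit ϖ).card := (pow_le_pow_iff_right_of_lt_one₀ h0 h1).mp h2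
    exact h3.trans Finset.card_image_le

variable {K}

/-- The tame relation for `d = σ ϖ / ϖ`. -/
theorem tameRel_unif {ϖ : K} (h0 : 0 < ‖ϖ‖) (h1 : ‖ϖ‖ < 1)
    (hmax : ∀ a : K, ‖a‖ < 1 → ‖a‖ ≤ ‖ϖ‖) {σ : K ≃ₐ[ℚ_[p]] K}
    (hσ : σ ∈ (mL K).inertia (K ≃ₐ[ℚ_[p]] K)) (d : OL K) (hd : (d : K) = σ ϖ / ϖ) :
    TameRel (mL K) σ d := by
  have hϖ0 : ϖ ≠ 0 := norm_pos_iff.mp h0
  have hσϖ : ‖σ ϖ‖ = ‖ϖ‖ := norm_algEquiv σ ϖ
  intro x hx
  have hx1 : ‖(x : K)‖ < 1 := hx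
  have hxϖ : ‖(x : K)‖ ≤ ‖ϖ‖ := hmax _ hx1
  have hu : ‖(x : K) / ϖ‖ ≤ 1 := by
    rw [norm_div, div_le_one h0]; exact hxϖ
  let u : OL K := ⟨(x : K) / ϖ, hu⟩
  let b : OL K := ⟨σ ϖ, by
    change ‖σ ϖ‖ ≤ 1
    rw [hσϖ]; exact h1.le⟩
  have hb : b ∈ mL K := by
    change ‖σ ϖ‖ < 1
    rw [hσϖ]; exact h1
  have ha : σ • u - u ∈ mL K := hσ u
  have key : σ • x - d * x = (σ • u - u) * b := by
    apply Subtype.ext
    change σ (x : K) - (d : K) * (x : K) = (σ ((x : K) / ϖ) - (x : K) / ϖ) * σ ϖ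
    rw [hd, map_div₀]
    have hσϖ0 : σ ϖ ≠ 0 := by
      intro h; rw [h, norm_zero] at hσϖ; exact h0.ne hσϖ
    field_simp
  rw [key, pow_two]
  exact Ideal.mul_mem_mul ha hb

variable (K) in
open Classical in
/-- The number of elements of the inertia subgroup. -/
theorem natCard_inertia_eq (hN : Normal ℚ_[p] K) {ϖ : K} (h0 : 0 < ‖ϖ‖) (h1 : ‖ϖ‖ < 1)
    (hmax : ∀ a : K, ‖a‖ < 1 → ‖a‖ ≤ ‖ϖ‖) {e : ℕ} (he : ‖ϖ‖ ^ e = (p : ℝ)⁻¹) :
    Nat.card ((mL K).inertia (K ≃ₐ[ℚ_[p]] K)) = e := by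
  rw [← card_inertiaSet_eq K hN h0 h1 hmax he]
  have h2 : Nat.card ((mL K).inertia (K ≃ₐ[ℚ_[p]] K))
      = Nat.card {τ // τ ∈ H59.inertiaSet K} :=
    Nat.card_congr (Equiv.subtypeEquivRight fun τ => by
      rw [H59.mem_inertiaSet]; exact H59.mem_inertia_iff K τ)
  rw [h2, Nat.card_eq_fintype_card, Fintype.card_coe]

/-- **INERT.** -/
theorem stmt_INERT : H15.Stmt_INERT := by
  intro p _ K _ hN hdeg ϖ hϖK h0 h1 hmax e he
  classical
  haveI : Normal ℚ_[p] K := hN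
  let ϖK : K := ⟨ϖ, hϖK⟩
  have h0' : 0 < ‖ϖK‖ := h0
  have h1' : ‖ϖK‖ < 1 := h1
  have hmax' : ∀ a : K, ‖a‖ < 1 → ‖a‖ ≤ ‖ϖK‖ := fun a ha => hmax a a.2 ha
  have he' : ‖ϖK‖ ^ e = (p : ℝ)⁻¹ := he
  have hϖ0 : ϖ ≠ 0 := norm_pos_iff.mp h0
  have hcard := natCard_inertia_eq K hN h0' h1' hmax' he'
  haveI hdom : IsDomain (OL K ⧸ mL K) := Ideal.Quotient.isDomain _
  let f : (mL K).inertia (K ≃ₐ[ℚ_[p]] K) →* (OL K ⧸ mL K) := tameChar (H59.mL_ne_bot K)
  let F : (mL K).inertia (K ≃ₐ[ℚ_[p]] K) →* (OL K ⧸ mL K)ˣ := f.toHomUnits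
  have hF : ∀ a, ((F a : (OL K ⧸ mL K)ˣ) : OL K ⧸ mL K) = f a := fun a => rfl
  have hFinj : Function.Injective F := by
    rw [injective_iff_map_eq_one]
    intro a ha
    have h2 : f a = 1 := by rw [← hF, ha]; rfl
    have hw := (tameChar_eq_one_iff (H59.mL_ne_bot K) a).1 h2
    exact Subtype.ext (eq_one_of_mem_wild K hN hdeg hw)
  haveI hcyc : IsCyclic ((mL K).inertia (K ≃ₐ[ℚ_[p]] K)) :=
    isCyclic_of_injective_ringHom ((Units.coeHom (OL K ⧸ mL K)).comp F)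
      (Units.val_injective.comp hFinj)
  obtain ⟨g, hg⟩ := hcyc.exists_generator
  have hord : orderOf g = e := by
    rw [orderOf_eq_card_of_forall_mem_zpowers hg, hcard]
  have hgd : depth p K (g : K ≃ₐ[ℚ_[p]] K) < 1 := (H59.mem_inertia_iff K g).1 g.2
  obtain ⟨σ, hσ, hσg⟩ := H38.inertia_onto_of_depth (g : K ≃ₐ[ℚ_[p]] K) hgd
  refine ⟨σ, hσ, fun n => ?_⟩
  -- the unit `d = g ϖ / ϖ`
  have hgϖ : ‖(g : K ≃ₐ[ℚ_[p]] K) ϖK‖ = ‖ϖK‖ := norm_algEquiv _ ϖK
  have hdn : ‖(g : K ≃ₐ[ℚ_[p]] K) ϖK / ϖK‖ ≤ 1 := by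
    rw [norm_div, hgϖ, div_self h0'.ne']
  let d : OL K := ⟨(g : K ≃ₐ[ℚ_[p]] K) ϖK / ϖK, hdn⟩
  have hTR : TameRel (mL K) (g : K ≃ₐ[ℚ_[p]] K) d := tameRel_unif h0' h1' hmax' g.2 d rfl
  have hfg : f g = Ideal.Quotient.mk (mL K) d := tameChar_eq (H59.mL_ne_bot K) g hTR
  have hσϖ : σ ϖ = (((g : K ≃ₐ[ℚ_[p]] K) ϖK : K) : PadicAlgCl p) := by
    rw [← hσg]; exact (H38.resL_apply σ ϖK).symm
  have hcoe : (σ ϖ / ϖ) ^ n - 1 = (((d ^ n - 1 : OL K) : K) : PadicAlgCl p) := by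
    rw [hσϖ]
    rfl
  have h3 : ‖(σ ϖ / ϖ) ^ n - 1‖ < 1 ↔ f g ^ n = 1 := by
    rw [hcoe, hfg, ← map_pow, ← sub_eq_zero, ← map_one (Ideal.Quotient.mk (mL K)), ← map_sub,
      Ideal.Quotient.eq_zero_iff_mem]
    exact Iff.rfl
  rw [h3, ← map_pow, ← hord, orderOf_dvd_iff_pow_eq_one]
  constructor
  · intro h
    apply hFinj
    apply Units.ext
    rw [hF, h, map_one]; rfl
  · intro h
    rw [h, map_one]

end Fermat.Agent.S56.FL.H61

end

end
-- ==== END Fermat.Agent.S56.FL.H61_Inert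

-- ==== BEGIN Fermat.Agent.S56.FL.H85_CCKum
section

set_option autoImplicit false
set_option linter.unusedSectionVars false
set_option linter.style.haveILetI false

/-!
# LOC-p-FL, package UNITS (helper85): the Kummer relation over an unramified field

`H ≤ Gal(K̄/ℚ_p)` (think of `H = Gal(K̄/K)`, `K` unramified), `f : H → 𝔽_p` an `ω`-twisted
cocycle.  `KumRel ζ H f u` : `u ∈ 𝒪_K` and `1 + p u` is a Kummer class of `f`, i.e.
`α ^ p = 1 + p u`, `s α = ζ ^ (f s) α` for `s ∈ H`.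

* `KumRel.add`, `KumRel.cob`, `KumRel.conj`, `KumRel.congr` : formal properties.
* `KumRel.unique` : `u` is unique modulo the maximal ideal (`K` unramified).
* `KumRel.ker`    : `u ≡ 0` ⟹ `f` vanishes on `H ∩ ker ω`.
* `exists_kumRel` : existence for bounded cocycles (Hilbert 90, `KUMBDD`, norm descent).
-/

noncomputable section

namespace Fermat.Agent.S56.FL.H85

open scoped NNReal
open Fermat.Agent.S56.FL Fermat.Agent.Lib.LocalKummer

variable {p : ℕ} [Fact p.Prime]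

/-- `1 + p u` is a Kummer class of `f` over the fixed field of `H`. -/
def KumRel (ζ : PadicAlgCl p) (H : Subgroup (Gp p)) (f : Gp p → ZMod p) (u : PadicAlgCl p) :
    Prop :=
  (∀ s ∈ H, s u = u) ∧ ‖u‖ ≤ 1 ∧
    ∃ α : PadicAlgCl p, α ^ p = 1 + (p : PadicAlgCl p) * u ∧
      ∀ s ∈ H, s α = zpowZ ζ (f s) * α

variable {ζ : PadicAlgCl p} {H : Subgroup (Gp p)} {f f' : Gp p → ZMod p} {u u' : PadicAlgCl p}

theorem norm_p_Ω : ‖(p : PadicAlgCl p)‖ = (p : ℝ)⁻¹ := H38.norm_p_algCl'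

theorem pinv_pos : (0 : ℝ) < (p : ℝ)⁻¹ :=
  inv_pos.mpr (by exact_mod_cast (Fact.out : p.Prime).pos)

theorem pinv_lt_one : (p : ℝ)⁻¹ < 1 :=
  inv_lt_one_of_one_lt₀ (by exact_mod_cast (Fact.out : p.Prime).one_lt)

theorem KumRel.congr (h : KumRel ζ H f u) (hf : ∀ s ∈ H, f s = f' s) : KumRel ζ H f' u := by
  obtain ⟨h1, h2, α, h3, h4⟩ := h
  exact ⟨h1, h2, α, h3, fun s hs => by rw [← hf s hs]; exact h4 s hs⟩

theorem KumRel.add (hζ : ζ ^ p = 1) (h : KumRel ζ H f u) (h' : KumRel ζ H f' u') :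
    KumRel ζ H (fun s => f s + f' s) (u + u' + (p : PadicAlgCl p) * u * u') := by
  obtain ⟨h1, h2, α, h3, h4⟩ := h
  obtain ⟨h1', h2', α', h3', h4'⟩ := h'
  refine ⟨fun s hs => ?_, ?_, α * α', ?_, fun s hs => ?_⟩
  · rw [map_add, map_add, map_mul, map_mul, map_natCast, h1 s hs, h1' s hs]
  · refine (IsUltrametricDist.norm_add_le_max _ _).trans (max_le
      ((IsUltrametricDist.norm_add_le_max _ _).trans (max_le h2 h2')) ?_)
    rw [norm_mul, norm_mul, norm_p_Ω]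
    calc (p : ℝ)⁻¹ * ‖u‖ * ‖u'‖ ≤ 1 * 1 * 1 :=
          mul_le_mul (mul_le_mul pinv_lt_one.le h2 (norm_nonneg _) zero_le_one) h2'
            (norm_nonneg _) (by norm_num)
      _ = 1 := by norm_num
  · rw [mul_pow, h3, h3']; ring
  · rw [map_mul, h4 s hs, h4' s hs, zpowZ_add hζ]; ring

theorem KumRel.cob (hζ : IsPrimitiveRoot ζ p) (H : Subgroup (Gp p)) (m : ZMod p) :
    KumRel ζ H (fun s => (((omg hζ s : (ZMod p)ˣ) : ZMod p) - 1) * m) 0 := by
  refine ⟨fun s _ => map_zero _, by simp, zpowZ ζ m, ?_, fun s _ => ?_⟩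
  · rw [zpowZ_pow ζ hζ.pow_eq_one, mul_zero, add_zero]
  · rw [omg_zpowZ hζ, ← zpowZ_add hζ.pow_eq_one]
    congr 1
    ring

theorem KumRel.conj (hζ : IsPrimitiveRoot ζ p) (hH : H.Normal) (h : KumRel ζ H f u) (g : Gp p) :
    KumRel ζ H (fun s => ((omg hζ g : (ZMod p)ˣ) : ZMod p) * f (g⁻¹ * s * g)) (g u) := by
  obtain ⟨h1, h2, α, h3, h4⟩ := h
  have hconj : ∀ s ∈ H, g⁻¹ * s * g ∈ H := fun s hs => by
    have := hH.conj_mem s hs g⁻¹
    rwa [inv_inv] at this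
  have hsg : ∀ (s : Gp p) (x : PadicAlgCl p), s (g x) = g ((g⁻¹ * s * g) x) := by
    intro s x
    have : g * (g⁻¹ * s * g) = s * g := by group
    rw [← AlgEquiv.mul_apply, ← AlgEquiv.mul_apply, this]
  refine ⟨fun s hs => ?_, by rw [norm_gal]; exact h2, g α, ?_, fun s hs => ?_⟩
  · rw [hsg, h1 _ (hconj s hs)]
  · rw [← map_pow, h3, map_add, map_one, map_mul, map_natCast]
  · rw [hsg, h4 _ (hconj s hs), map_mul, omg_zpowZ hζ]

/-- Auxiliary: `‖(1 + x) ^ p - 1‖ ≤ (p⁻¹)²` if `‖x‖ ≤ p⁻¹`. -/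
theorem norm_one_add_pow_sub_one_le {x : PadicAlgCl p} (hx : ‖x‖ ≤ (p : ℝ)⁻¹) :
    ‖(1 + x) ^ p - 1‖ ≤ ((p : ℝ)⁻¹) ^ 2 := by
  have hp : p.Prime := Fact.out
  have hx1 : ‖x‖ ≤ 1 := hx.trans pinv_lt_one.le
  have h1 := H59.norm_one_add_pow_sub_le hp hx1
  rw [norm_p_Ω] at h1
  have h2 : (1 + x) ^ p - 1 = ((1 + x) ^ p - 1 - x ^ p) + x ^ p := by ring
  rw [h2]
  refine (IsUltrametricDist.norm_add_le_max _ _).trans (max_le ?_ ?_)
  · refine h1.trans ?_
    rw [sq]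
    exact mul_le_mul_of_nonneg_left hx pinv_pos.le
  · rw [norm_pow]
    calc ‖x‖ ^ p ≤ ((p : ℝ)⁻¹) ^ p := pow_le_pow_left₀ (norm_nonneg _) hx _
      _ ≤ ((p : ℝ)⁻¹) ^ 2 := pow_le_pow_of_le_one pinv_pos.le pinv_lt_one.le hp.two_le

theorem norm_one_add_p_mul (hu : ‖u‖ ≤ 1) : ‖1 + (p : PadicAlgCl p) * u‖ = 1 := by
  have h1 : ‖(p : PadicAlgCl p) * u‖ < ‖(1 : PadicAlgCl p)‖ := by
    rw [norm_mul, norm_p_Ω, norm_one]
    calc (p : ℝ)⁻¹ * ‖u‖ ≤ (p : ℝ)⁻¹ * 1 := mul_le_mul_of_nonneg_left hu pinv_pos.le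
      _ < 1 := by rw [mul_one]; exact pinv_lt_one
  rw [IsUltrametricDist.norm_add_eq_max_of_norm_ne_norm (ne_of_gt h1), norm_one]
  exact max_eq_left (by rw [← norm_one (α := PadicAlgCl p)]; exact h1.le)

theorem KumRel.unique (hζ : ζ ^ p = 1) (hI : inertiaP p ≤ H) (h : KumRel ζ H f u)
    (h' : KumRel ζ H f u') : ‖u - u'‖ < 1 := by
  have hp : p.Prime := Fact.out
  obtain ⟨h1, h2, α, h3, h4⟩ := h
  obtain ⟨h1', h2', α', h3', h4'⟩ := h'
  have hA : ‖1 + (p : PadicAlgCl p) * u‖ = 1 := norm_one_add_p_mul h2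
  have hA' : ‖1 + (p : PadicAlgCl p) * u'‖ = 1 := norm_one_add_p_mul h2'
  have hA'0 : 1 + (p : PadicAlgCl p) * u' ≠ 0 := by
    intro h0; rw [h0, norm_zero] at hA'; exact zero_ne_one hA'
  have hα'0 : α' ≠ 0 := by
    intro h0; rw [h0, zero_pow hp.ne_zero] at h3'; exact hA'0 h3'.symm
  set b : PadicAlgCl p := α / α' with hb
  have hbfix : ∀ s ∈ H, s b = b := by
    intro s hs
    rw [hb, map_div₀, h4 s hs, h4' s hs]
    exact mul_div_mul_left _ _ (zpowZ_ne_zero hζ _)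
  have hbp : b ^ p - 1 = (p : PadicAlgCl p) * (u - u') / (1 + (p : PadicAlgCl p) * u') := by
    rw [hb, div_pow, h3, h3']
    field_simp
    ring
  have hbpn : ‖b ^ p - 1‖ = (p : ℝ)⁻¹ * ‖u - u'‖ := by
    rw [hbp, norm_div, norm_mul, norm_p_Ω, hA', div_one]
  have huu : ‖u - u'‖ ≤ 1 := by
    rw [sub_eq_add_neg]
    exact (IsUltrametricDist.norm_add_le_max _ _).trans (max_le h2 (by rw [norm_neg]; exact h2'))
  have hbn : ‖b‖ = 1 := by
    have : ‖b‖ ^ p = 1 := by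
      rw [← norm_pow, hb, div_pow, h3, h3', norm_div, hA, hA', div_one]
    exact (pow_eq_one_iff_of_nonneg (norm_nonneg _) hp.ne_zero).mp this
  set x : PadicAlgCl p := b - 1 with hx
  have hb1 : b = 1 + x := by rw [hx]; ring
  have hx1 : ‖x‖ ≤ 1 := by
    rw [hx, sub_eq_add_neg]
    exact (IsUltrametricDist.norm_add_le_max _ _).trans
      (max_le hbn.le (by rw [norm_neg, norm_one]))
  have hxlt : ‖x‖ < 1 := by
    have h5 := H59.norm_one_add_pow_sub_le hp hx1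
    rw [norm_p_Ω, ← hb1] at h5
    have h6 : x ^ p = (b ^ p - 1) - (b ^ p - 1 - x ^ p) := by ring
    have h7 : ‖x ^ p‖ ≤ (p : ℝ)⁻¹ := by
      rw [h6, sub_eq_add_neg]
      refine (IsUltrametricDist.norm_add_le_max _ _).trans (max_le ?_ ?_)
      · rw [hbpn]
        calc (p : ℝ)⁻¹ * ‖u - u'‖ ≤ (p : ℝ)⁻¹ * 1 := mul_le_mul_of_nonneg_left huu pinv_pos.le
          _ = (p : ℝ)⁻¹ := mul_one _
      · rw [norm_neg]
        refine h5.trans ?_
        calc (p : ℝ)⁻¹ * ‖x‖ ≤ (p : ℝ)⁻¹ * 1 := mul_le_mul_of_nonneg_left hx1 pinv_pos.le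
          _ = (p : ℝ)⁻¹ := mul_one _
    rw [norm_pow] at h7
    by_contra hcon
    have h8 : (1 : ℝ) ≤ ‖x‖ ^ p := one_le_pow₀ (not_lt.mp hcon)
    exact absurd (h8.trans h7) (not_le.mpr pinv_lt_one)
  have hxfix : ∀ σ ∈ inertiaP p, σ x = x := fun σ hσ => by
    rw [hx, map_sub, map_one, hbfix σ (hI hσ)]
  have hxle : ‖x‖ ≤ (p : ℝ)⁻¹ := H38.norm_le_inv_of_fixed hxfix hxlt
  have h9 := norm_one_add_pow_sub_one_le hxle
  rw [← hb1, hbpn, sq] at h9
  have h10 : ‖u - u'‖ ≤ (p : ℝ)⁻¹ := le_of_mul_le_mul_left h9 pinv_pos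
  exact h10.trans_lt pinv_lt_one

theorem KumRel.ker (hp2 : p ≠ 2) (hζ : IsPrimitiveRoot ζ p) (hI : inertiaP p ≤ H)
    (h : KumRel ζ H f u) (hu : ‖u‖ < 1) : ∀ s ∈ H, s ζ = ζ → f s = 0 := by
  have hp : p.Prime := Fact.out
  obtain ⟨h1, h2, α, h3, h4⟩ := h
  have hule : ‖u‖ ≤ (p : ℝ)⁻¹ :=
    H38.norm_le_inv_of_fixed (fun σ hσ => h1 σ (hI hσ)) hu
  have hy : ‖(1 + (p : PadicAlgCl p) * u) - 1‖ < ‖1 - ζ‖ ^ p := by
    refine lt_of_le_of_lt ?_ (lt_norm_one_sub_zeta_pow p hp2 hζ)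
    rw [add_sub_cancel_left, norm_mul, norm_p_Ω, sq]
    exact mul_le_mul_of_nonneg_left hule pinv_pos.le
  obtain ⟨b, hbp, hb1⟩ := exists_root_near_one hp hζ hy
  have hA : ‖1 + (p : PadicAlgCl p) * u‖ = 1 := norm_one_add_p_mul h2
  have hb0 : b ≠ 0 := by
    intro h0
    rw [h0, zero_pow hp.ne_zero] at hbp
    rw [← hbp, norm_zero] at hA
    exact zero_ne_one hA
  have hα0 : α ≠ 0 := by
    intro h0
    rw [h0, zero_pow hp.ne_zero] at h3
    rw [← h3, norm_zero] at hA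
    exact zero_ne_one hA
  have hbfix : ∀ s ∈ H, s b = b := by
    intro s hs
    refine root_near_one_fixed hp hζ (s : PadicAlgCl p ≃ₐ[ℚ_[p]] PadicAlgCl p).toRingEquiv.toRingHom
      (fun x => norm_gal p s x) hbp ?_ hb1
    show s (1 + (p : PadicAlgCl p) * u) = 1 + (p : PadicAlgCl p) * u
    rw [map_add, map_one, map_mul, map_natCast, h1 s hs]
  have hquot : (α / b) ^ p = 1 := by
    rw [div_pow, h3, hbp]
    exact div_self (by rw [← hbp]; exact pow_ne_zero _ hb0)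
  obtain ⟨m, hm⟩ := exists_zpowZ_eq hζ hquot
  have hαb : α = zpowZ ζ m * b := by
    rw [hm]; field_simp
  intro s hs hsζ
  have h5 : s α = α := by
    have : s (zpowZ ζ m) = zpowZ ζ m := by
      unfold zpowZ
      rw [map_pow, hsζ]
    rw [hαb, map_mul, this, hbfix s hs]
  have h6 := h4 s hs
  rw [h5] at h6
  have h7 : zpowZ ζ (f s) = 1 := by
    have : zpowZ ζ (f s) * α = 1 * α := by rw [one_mul]; exact h6.symm
    exact mul_right_cancel₀ hα0 this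
  exact (zpowZ_eq_one_iff hζ _).mp h7

/-- Twisted Hilbert 90 (Kummer theory) for `ω`-twisted cocycles on `H`. -/
theorem exists_resolvent_tw (hζ : IsPrimitiveRoot ζ p)
    (L : IntermediateField ℚ_[p] (PadicAlgCl p)) [FiniteDimensional ℚ_[p] L]
    (f : Gp p → ZMod p)
    (hf : ∀ s ∈ H, ∀ t ∈ H, f (s * t) = f s + ((omg hζ s : (ZMod p)ˣ) : ZMod p) * f t)
    (hfL : ∀ s ∈ L.fixingSubgroup, f s = 0) :
    ∃ γ : PadicAlgCl p, γ ≠ 0 ∧ ∀ s ∈ H, s γ = zpowZ ζ (f s) * γ := by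
  have h1 : L.fixingSubgroup.index ≠ 0 := by
    rw [← IntermediateField.finrank_eq_fixingSubgroup_index]
    exact Module.finrank_pos.ne'
  haveI : L.fixingSubgroup.FiniteIndex := ⟨h1⟩
  haveI : ((L.fixingSubgroup).subgroupOf H).FiniteIndex := inferInstance
  haveI : Finite (H ⧸ (L.fixingSubgroup).subgroupOf H) :=
    Subgroup.finite_quotient_of_finiteIndex
  have hz : ∀ g h : H, zpowZ ζ (f ((g * h : H) : Gp p))
      = zpowZ ζ (f (g : Gp p)) * g • zpowZ ζ (f (h : Gp p)) := by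
    intro g h
    show zpowZ ζ (f ((g : Gp p) * (h : Gp p))) = zpowZ ζ (f g) * (g : Gp p) (zpowZ ζ (f h))
    rw [hf _ g.2 _ h.2, zpowZ_add hζ.pow_eq_one, omg_zpowZ hζ]
  have hU : ∀ u ∈ (L.fixingSubgroup).subgroupOf H, zpowZ ζ (f (u : Gp p)) = 1 := by
    intro u hu
    rw [hfL _ (Subgroup.mem_subgroupOf.mp hu), zpowZ_zero]
  let ι : L →* PadicAlgCl p := ((algebraMap L (PadicAlgCl p) : L →+* PadicAlgCl p) : L →* PadicAlgCl p)
  have hstab : ∀ g : H, (∀ x : L, g • ι x = ι x) → g ∈ (L.fixingSubgroup).subgroupOf H := by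
    intro g hg
    rw [Subgroup.mem_subgroupOf, IntermediateField.mem_fixingSubgroup_iff]
    intro x hx
    exact hg ⟨x, hx⟩
  have hstab' : ∀ u ∈ (L.fixingSubgroup).subgroupOf H, ∀ x : L, u • ι x = ι x := by
    intro u hu x
    rw [Subgroup.mem_subgroupOf, IntermediateField.mem_fixingSubgroup_iff] at hu
    exact hu x x.2
  obtain ⟨γ, hγ0, hγ⟩ := exists_hilbert90 (G := H) (Ω := PadicAlgCl p) (F := L)
    (fun s => zpowZ ζ (f (s : Gp p))) hz (fun s => zpowZ_ne_zero hζ.pow_eq_one _)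
    ((L.fixingSubgroup).subgroupOf H) hU ι hstab hstab'
  exact ⟨γ, hγ0, fun s hs => hγ ⟨s, hs⟩⟩

/-- **Existence of Kummer classes `≡ 1 mod p`** for bounded twisted cocycles. -/
theorem exists_kumRel (hND : Stmt_NormDesc) (hζ : IsPrimitiveRoot ζ p)
    (L : IntermediateField ℚ_[p] (PadicAlgCl p)) [FiniteDimensional ℚ_[p] L]
    (hNL : Normal ℚ_[p] L) (hbdd : IsBddField p L) (hζL : ζ ∈ L)
    (hLH : L.fixingSubgroup ≤ H) (f : Gp p → ZMod p)
    (hf : ∀ s ∈ H, ∀ t ∈ H, f (s * t) = f s + ((omg hζ s : (ZMod p)ˣ) : ZMod p) * f t)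
    (hfL : ∀ s ∈ L.fixingSubgroup, f s = 0) :
    ∃ u : PadicAlgCl p, KumRel ζ H f u := by
  have hp : p.Prime := Fact.out
  obtain ⟨γ, hγ0, hγ⟩ := exists_resolvent_tw hζ L f hf hfL
  have hγL : γ ∈ L := by
    refine mem_of_fixed_of_le (le_refl _) fun s hs => ?_
    rw [hγ s (hLH hs), hfL s hs, zpowZ_zero, one_mul]
  obtain ⟨a, ha⟩ : ∃ a : PadicAlgCl p, a = γ ^ p := ⟨_, rfl⟩
  have ha0 : a ≠ 0 := by rw [ha]; exact pow_ne_zero _ hγ0
  have hafix : ∀ s ∈ H, s a = a := by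
    intro s hs
    rw [ha, map_pow, hγ s hs, mul_pow, zpowZ_pow ζ hζ.pow_eq_one, one_mul]
  -- the field `K' = K(ζ)`
  set N : Subgroup (Gp p) := H ⊓ (omg hζ).ker with hN
  have hLN : L.fixingSubgroup ≤ N := by
    intro s hs
    exact ⟨hLH hs, MonoidHom.mem_ker.mpr ((omg_eq_one_iff hζ s).mpr
      ((IntermediateField.mem_fixingSubgroup_iff L s).mp hs ζ hζL))⟩
  set K' : IntermediateField ℚ_[p] (PadicAlgCl p) := IntermediateField.fixedField N with hK'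
  have hK'L : K' ≤ L := by
    intro x hx
    rw [hK', IntermediateField.mem_fixedField_iff] at hx
    exact mem_of_fixed_of_le hLN hx
  haveI : FiniteDimensional ℚ_[p] K' :=
    FiniteDimensional.of_injective (IntermediateField.inclusion hK'L).toLinearMap
      (IntermediateField.inclusion hK'L).injective
  have hζK' : ζ ∈ K' := by
    rw [hK', IntermediateField.mem_fixedField_iff]
    intro s hs
    exact (omg_eq_one_iff hζ s).mp (MonoidHom.mem_ker.mp hs.2)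
  have haK' : a ∈ K' := by
    rw [hK', IntermediateField.mem_fixedField_iff]
    intro s hs
    exact hafix s hs.1
  obtain ⟨b, hbK', hb0, hb⟩ := kumbdd_core L K' hNL hK'L hbdd
    ⟨ζ, hζK', hζ.ne_one hp.one_lt, hζ.pow_eq_one⟩ a haK' ha0 ⟨γ, hγL, ha.symm⟩
  have hbfix : ∀ s ∈ H, s ζ = ζ → s b = b := by
    intro s hs hsζ
    rw [hK', IntermediateField.mem_fixedField_iff] at hbK'
    exact hbK' s ⟨hs, MonoidHom.mem_ker.mpr ((omg_eq_one_iff hζ s).mpr hsζ)⟩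
  obtain ⟨b₁, hb₁0, hb₁fix, hb₁⟩ := hND p ζ hζ H a b hafix ha0 hbfix hb0 hb
  have hpΩ : (p : PadicAlgCl p) ≠ 0 := by
    intro h0
    have := norm_p_Ω (p := p)
    rw [h0, norm_zero] at this
    exact absurd this (ne_of_lt pinv_pos)
  refine ⟨(a * b₁ ^ p - 1) / (p : PadicAlgCl p), fun s hs => ?_, ?_, γ * b₁, ?_, fun s hs => ?_⟩
  · rw [map_div₀, map_sub, map_mul, map_pow, map_one, map_natCast, hafix s hs, hb₁fix s hs]
  · rw [norm_div, norm_p_Ω, div_le_one pinv_pos]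
    exact hb₁
  · rw [mul_pow, ← ha]
    field_simp
    ring
  · rw [map_mul, hγ s hs, hb₁fix s hs, mul_assoc]

end Fermat.Agent.S56.FL.H85

end

end
-- ==== END Fermat.Agent.S56.FL.H85_CCKum

-- ==== BEGIN Fermat.Agent.S56.FL.LF.H15_Twist
section

set_option autoImplicit false
set_option linter.style.haveILetI false
set_option linter.unusedSectionVars false

/-!
# LOC-p-FL, package UNITS / CC2 (helper15): the twist estimates

`K`, `ϖ`, `r = ‖ϖ‖` as in `LevCtx`; `σ` in the inertia group, `θ = σ ϖ / ϖ`, `a ∈ K` with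
`‖a - 1‖ ≤ r^i` (`i ≥ 1`), `m : ℕ`.  Then
`σ a - a^m ≡ (θ^i - m) (a - 1)` modulo elements of norm `< r^i`.

* `LevCtx.norm_twist_lt`         : `‖θ^i - m‖ < 1` ⟹ `‖σ a - a^m‖ < r^i`.
* `LevCtx.norm_theta_sub_lt`     : `‖σ a - a^m‖ < r^i`, `‖a - 1‖ = r^i` ⟹ `‖θ^i - m‖ < 1`.
* `LevCtx.norm_theta_pow_pow_sub`: `θ_{σ^j} ≡ θ_σ^j`.
-/

noncomputable section

namespace Fermat.Agent.S56.FL.H15

open scoped NNReal
open Fermat.Agent.S56.FL Module

variable {p : ℕ} [Fact p.Prime]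

/-- `‖(1+y)^m - 1 - m y‖ ≤ ‖y‖²`. -/
theorem norm_one_add_pow_sub_le_sq {y : PadicAlgCl p} (hy : ‖y‖ ≤ 1) (m : ℕ) :
    ‖(1 + y) ^ m - 1 - (m : PadicAlgCl p) * y‖ ≤ ‖y‖ ^ 2 := by
  have h1y : ‖1 + y‖ ≤ 1 :=
    (IsUltrametricDist.norm_add_le_max _ _).trans (max_le (by simp) hy)
  induction m with
  | zero => simp
  | succ m ih =>
    have h1 : (1 + y) ^ (m + 1) - 1 - ((m + 1 : ℕ) : PadicAlgCl p) * y
        = (1 + y) * ((1 + y) ^ m - 1 - (m : PadicAlgCl p) * y) + (m : PadicAlgCl p) * y ^ 2 := by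
      push_cast; ring
    rw [h1]
    refine (IsUltrametricDist.norm_add_le_max _ _).trans (max_le ?_ ?_)
    · rw [norm_mul]
      calc ‖1 + y‖ * ‖(1 + y) ^ m - 1 - (m : PadicAlgCl p) * y‖
          ≤ 1 * ‖y‖ ^ 2 := mul_le_mul h1y ih (norm_nonneg _) zero_le_one
        _ = ‖y‖ ^ 2 := one_mul _
    · rw [norm_mul, norm_pow]
      calc ‖(m : PadicAlgCl p)‖ * ‖y‖ ^ 2 ≤ 1 * ‖y‖ ^ 2 :=
            mul_le_mul_of_nonneg_right (norm_natCast_le_one m) (by positivity)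
        _ = ‖y‖ ^ 2 := one_mul _

namespace LevCtx

variable {K : IntermediateField ℚ_[p] (PadicAlgCl p)} {ϖ ζ : PadicAlgCl p} {e₀ : ℕ}

/-- The three error terms of `σ a - a^m - (θ^i - m)(a - 1)`. -/
theorem twist_decomp (σ : Gp p) (a θ : PadicAlgCl p) (i m : ℕ) :
    σ a - a ^ m = (σ (a - 1) - θ ^ i * (a - 1)) + (θ ^ i - (m : PadicAlgCl p)) * (a - 1)
      - ((1 + (a - 1)) ^ m - 1 - (m : PadicAlgCl p) * (a - 1)) := by
  rw [map_sub, map_one]
  ring

theorem norm_quad_lt (h : LevCtx K ϖ ζ e₀) {a : PadicAlgCl p} {i : ℕ} (hi : 0 < i)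
    (ha : ‖a - 1‖ ≤ ‖ϖ‖ ^ i) (m : ℕ) :
    ‖(1 + (a - 1)) ^ m - 1 - (m : PadicAlgCl p) * (a - 1)‖ < ‖ϖ‖ ^ i := by
  have ha1 : ‖a - 1‖ ≤ 1 := ha.trans (h.pow_le_one' i)
  refine (norm_one_add_pow_sub_le_sq ha1 m).trans_lt ?_
  calc ‖a - 1‖ ^ 2 ≤ (‖ϖ‖ ^ i) ^ 2 := pow_le_pow_left₀ (norm_nonneg _) ha 2
    _ = ‖ϖ‖ ^ i * ‖ϖ‖ ^ i := sq _
    _ < ‖ϖ‖ ^ i * 1 := mul_lt_mul_of_pos_left (h.pow_lt_one' hi) (h.pow_pos' i)
    _ = ‖ϖ‖ ^ i := mul_one _

/-- `‖σ a - a^m‖ ≤ r^i` always. -/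
theorem norm_twist_le (h : LevCtx K ϖ ζ e₀) {a : PadicAlgCl p} {i : ℕ}
    (ha : ‖a - 1‖ ≤ ‖ϖ‖ ^ i) (σ : Gp p) (m : ℕ) : ‖σ a - a ^ m‖ ≤ ‖ϖ‖ ^ i := by
  have ha1 : ‖a - 1‖ ≤ 1 := ha.trans (h.pow_le_one' i)
  have h1 : σ a - a ^ m = σ (a - 1) - (a ^ m - 1) := by rw [map_sub, map_one]; ring
  rw [h1]
  refine (norm_sub_le_max_algCl _ _).trans (max_le ?_ ?_)
  · rw [norm_gal]; exact ha
  · have ha' : ‖a‖ ≤ 1 := by
      have : a = (a - 1) + 1 := by ring
      rw [this]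
      exact (IsUltrametricDist.norm_add_le_max _ _).trans (max_le ha1 (by simp))
    have := norm_pow_sub_pow_le_algCl ha' (norm_one (α := PadicAlgCl p)).le m
    rw [one_pow] at this
    exact this.trans ha

/-- If `θ^i ≡ m` then `σ a ≡ a^m` modulo `r^{i+1}`. -/
theorem norm_twist_lt (h : LevCtx K ϖ ζ e₀) {a : PadicAlgCl p} (haK : a ∈ K) {i : ℕ}
    (hi : 0 < i) (ha : ‖a - 1‖ ≤ ‖ϖ‖ ^ i) {σ : Gp p} (hσ : σ ∈ inertiaP p) {m : ℕ}
    (hθ : ‖(σ ϖ / ϖ) ^ i - (m : PadicAlgCl p)‖ < 1) : ‖σ a - a ^ m‖ < ‖ϖ‖ ^ i := by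
  rw [twist_decomp σ a (σ ϖ / ϖ) i m]
  refine (norm_sub_le_max_algCl _ _).trans_lt (max_lt
    ((IsUltrametricDist.norm_add_le_max _ _).trans_lt (max_lt ?_ ?_)) (h.norm_quad_lt hi ha m))
  · exact h.norm_map_sub_theta hσ (K.sub_mem haK K.one_mem) ha
  · rw [norm_mul]
    calc ‖(σ ϖ / ϖ) ^ i - (m : PadicAlgCl p)‖ * ‖a - 1‖
        ≤ ‖(σ ϖ / ϖ) ^ i - (m : PadicAlgCl p)‖ * ‖ϖ‖ ^ i :=
          mul_le_mul_of_nonneg_left ha (norm_nonneg _)
      _ < 1 * ‖ϖ‖ ^ i := mul_lt_mul_of_pos_right hθ (h.pow_pos' i)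
      _ = ‖ϖ‖ ^ i := one_mul _

/-- If `σ a ≡ a^m` modulo `r^{i+1}` and `‖a - 1‖ = r^i` then `θ^i ≡ m`. -/
theorem norm_theta_sub_lt (h : LevCtx K ϖ ζ e₀) {a : PadicAlgCl p} (haK : a ∈ K) {i : ℕ}
    (hi : 0 < i) (ha : ‖a - 1‖ = ‖ϖ‖ ^ i) {σ : Gp p} (hσ : σ ∈ inertiaP p) {m : ℕ}
    (hlt : ‖σ a - a ^ m‖ < ‖ϖ‖ ^ i) : ‖(σ ϖ / ϖ) ^ i - (m : PadicAlgCl p)‖ < 1 := by
  have h1 : (σ ϖ / ϖ ^ 1 * 1) = σ ϖ / ϖ := by rw [pow_one, mul_one]
  have hdec := twist_decomp σ a (σ ϖ / ϖ) i m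
  have h2 : ((σ ϖ / ϖ) ^ i - (m : PadicAlgCl p)) * (a - 1)
      = (σ a - a ^ m) - (σ (a - 1) - (σ ϖ / ϖ) ^ i * (a - 1))
        + ((1 + (a - 1)) ^ m - 1 - (m : PadicAlgCl p) * (a - 1)) := by
    rw [hdec]; ring
  have h3 : ‖((σ ϖ / ϖ) ^ i - (m : PadicAlgCl p)) * (a - 1)‖ < ‖ϖ‖ ^ i := by
    rw [h2]
    refine (IsUltrametricDist.norm_add_le_max _ _).trans_lt (max_lt
      ((norm_sub_le_max_algCl _ _).trans_lt (max_lt hlt ?_)) (h.norm_quad_lt hi ha.le m))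
    exact h.norm_map_sub_theta hσ (K.sub_mem haK K.one_mem) ha.le
  rw [norm_mul, ha] at h3
  by_contra hcon
  have h4 : 1 ≤ ‖(σ ϖ / ϖ) ^ i - (m : PadicAlgCl p)‖ := not_lt.mp hcon
  have h5 : ‖ϖ‖ ^ i ≤ ‖(σ ϖ / ϖ) ^ i - (m : PadicAlgCl p)‖ * ‖ϖ‖ ^ i := by
    calc ‖ϖ‖ ^ i = 1 * ‖ϖ‖ ^ i := (one_mul _).symm
      _ ≤ _ := mul_le_mul_of_nonneg_right h4 (h.pow_pos' i).le
  exact absurd h3 (not_lt.mpr h5)

/-- `θ_{σ τ} ≡ θ_σ θ_τ` on inertia. -/
theorem norm_theta_mul_sub (h : LevCtx K ϖ ζ e₀) {σ : Gp p} (hσ : σ ∈ inertiaP p) (τ : Gp p) :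
    ‖(σ * τ) ϖ / ϖ - (σ ϖ / ϖ) * (τ ϖ / ϖ)‖ < 1 := by
  have hϖ0 : ϖ ≠ 0 := h.ϖ_ne_zero
  have h1 : (σ * τ) ϖ / ϖ - (σ ϖ / ϖ) * (τ ϖ / ϖ) = (σ (τ ϖ / ϖ) - τ ϖ / ϖ) * (σ ϖ / ϖ) := by
    rw [AlgEquiv.mul_apply, map_div₀]
    have hσϖ : σ ϖ ≠ 0 := fun h0 => hϖ0 ((map_eq_zero_iff σ σ.injective).mp h0)
    field_simp
  rw [h1, norm_mul, h.norm_theta σ, mul_one]
  exact hσ _ (h.norm_theta τ).le

/-- `θ_{σ^j} ≡ θ_σ^j` on inertia. -/
theorem norm_theta_pow_pow_sub (h : LevCtx K ϖ ζ e₀) {σ : Gp p} (hσ : σ ∈ inertiaP p) (j : ℕ) :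
    ‖(σ ^ j) ϖ / ϖ - (σ ϖ / ϖ) ^ j‖ < 1 := by
  induction j with
  | zero =>
    rw [pow_zero, pow_zero, AlgEquiv.one_apply, div_self h.ϖ_ne_zero, sub_self, norm_zero]
    exact zero_lt_one
  | succ j ih =>
    have h1 := h.norm_theta_mul_sub hσ (σ ^ j)
    have h2 : (σ ^ (j + 1)) ϖ / ϖ - (σ ϖ / ϖ) ^ (j + 1)
        = ((σ * σ ^ j) ϖ / ϖ - (σ ϖ / ϖ) * ((σ ^ j) ϖ / ϖ))
          + (σ ϖ / ϖ) * ((σ ^ j) ϖ / ϖ - (σ ϖ / ϖ) ^ j) := by
      rw [pow_succ' σ j]; ring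
    rw [h2]
    refine (IsUltrametricDist.norm_add_le_max _ _).trans_lt (max_lt h1 ?_)
    rw [norm_mul, h.norm_theta σ, one_mul]
    exact ih

end LevCtx

end Fermat.Agent.S56.FL.H15

end

end
-- ==== END Fermat.Agent.S56.FL.LF.H15_Twist

-- ==== BEGIN Fermat.Agent.S56.GW.H92_FinGlobFinal
section

set_option autoImplicit false

/-!
# Cluster T / S56, package GW-FIN-glob: DONE

`stmt_fin_glob : Stmt_fin_glob`, from `fin_glob_of_HM` (`GW/H92_FinGlob.lean`) and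
Hermite–Minkowski (`Fermat.Agent.Lib.H25HM.stmt_HM`, helper25).
-/

namespace Fermat.Agent.S56.H92

/-- Hermite–Minkowski in the form used by `fin_glob_of_HM`. -/
theorem hmInput : HMInput := Fermat.Agent.Lib.H25HM.stmt_HM

/-- **Package GW-FIN-glob.** -/
theorem stmt_fin_glob : Stmt_fin_glob := fin_glob_of_HM hmInput

end Fermat.Agent.S56.H92

end
-- ==== END Fermat.Agent.S56.GW.H92_FinGlobFinal

-- ==== BEGIN Fermat.Agent.S56.GW.H9_FinLoc
section

/-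
Package GW-FIN-loc of cluster T (S56): the continuous local cohomology `H¹_cont(ℚ_q, M)` of a
finite smooth representation is finite (all primes `q`, including the residue characteristic).
Route: Kummer theory inside `PadicAlgCl q` (Lagrange resolvents, finiteness of `Eˣ / ℓ`).
-/
set_option autoImplicit false
set_option linter.unusedSectionVars false
set_option linter.style.haveILetI false

namespace Fermat.Agent.S56.H9

open Fermat.Agent.Lib.LocalKummer groupCohomology ExtCitation CategoryTheory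
open scoped IntermediateField

local notation "Qbar" => AlgebraicClosure ℚ

section galois

/-- A finite extension of `ℚ` inside `Qbar` is simple. -/
lemma exists_primitive (F : IntermediateField ℚ Qbar) [FiniteDimensional ℚ F] :
    ∃ θ : Qbar, F = ℚ⟮θ⟯ := by
  obtain ⟨α, hα⟩ := Field.exists_primitive_element ℚ F
  refine ⟨(α : Qbar), le_antisymm ?_ (IntermediateField.adjoin_simple_le_iff.2 α.2)⟩
  intro x hx
  have h1 : (⟨x, hx⟩ : F) ∈ ℚ⟮α⟯ := by
    rw [hα]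
    trivial
  have key : ∀ y : F, y ∈ ℚ⟮α⟯ → (y : Qbar) ∈ ℚ⟮(α : Qbar)⟯ := by
    intro y hy
    induction hy using IntermediateField.adjoin_induction with
    | mem z hz =>
      rw [Set.mem_singleton_iff] at hz
      rw [hz]
      exact IntermediateField.mem_adjoin_simple_self ℚ _
    | algebraMap r =>
      have : ((algebraMap ℚ F r : F) : Qbar) = algebraMap ℚ Qbar r := by
        simp
      rw [this]
      exact IntermediateField.algebraMap_mem _ r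
    | add z w _ _ hz hw => exact add_mem hz hw
    | inv z _ hz => exact inv_mem hz
    | mul z w _ _ hz hw => exact mul_mem hz hw
  exact key ⟨x, hx⟩ h1

lemma mem_fixingSubgroup_simple {K L : Type*} [Field K] [Field L] [Algebra K L]
    (σ : L ≃ₐ[K] L) (x : L) : σ ∈ (K⟮x⟯).fixingSubgroup ↔ σ x = x := by
  constructor
  · intro h
    exact (IntermediateField.mem_fixingSubgroup_iff _ _).1 h x
      (IntermediateField.mem_adjoin_simple_self K x)
  · intro h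
    let E' : IntermediateField K L :=
      Subalgebra.toIntermediateField (AlgHom.equalizer (σ : L →ₐ[K] L) (AlgHom.id K L))
        (fun y hy => by
          show σ y⁻¹ = y⁻¹
          rw [map_inv₀]
          congr 1)
    have h1 : K⟮x⟯ ≤ E' := IntermediateField.adjoin_simple_le_iff.2 h
    rw [IntermediateField.mem_fixingSubgroup_iff]
    intro y hy
    exact h1 hy

variable (q : ℕ) [Fact q.Prime]

local notation "Ω" => PadicAlgCl q

lemma lvl_simple_eq (θ : Qbar) :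
    lvl q ℚ⟮θ⟯ = (ℚ_[q]⟮padicEmbedding q θ⟯).fixingSubgroup := by
  ext s
  rw [mem_lvl, mem_fixingSubgroup_simple, mem_fixingSubgroup_simple]
  constructor
  · intro h
    have := smul_padicEmbedding q s θ
    rw [h] at this
    exact this
  · intro h
    have h1 := smul_padicEmbedding q s θ
    rw [smul_eq_apply, h] at h1
    exact ((padicEmbedding q).injective h1).symm

/-- Finiteness of the quotient by a pulled-back level subgroup. -/
lemma finite_quot_comap {V : Type*} [Group V] (ρ : V →* (Qbar ≃ₐ[ℚ] Qbar))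
    (F : IntermediateField ℚ Qbar) [FiniteDimensional ℚ F] :
    Finite (V ⧸ F.fixingSubgroup.comap ρ) := by
  let f : V → (F →ₐ[ℚ] Qbar) := fun s => ((ρ s : Qbar ≃ₐ[ℚ] Qbar) : Qbar →ₐ[ℚ] Qbar).comp F.val
  have hf : ∀ s t : V, f s = f t → s⁻¹ * t ∈ F.fixingSubgroup.comap ρ := by
    intro s t hst
    rw [Subgroup.mem_comap, IntermediateField.mem_fixingSubgroup_iff]
    intro x hx
    have h1 : ρ s x = ρ t x := congrArg (fun φ : F →ₐ[ℚ] Qbar => φ ⟨x, hx⟩) hst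
    rw [map_mul, map_inv]
    show (ρ s)⁻¹ (ρ t x) = x
    rw [← h1]
    exact (ρ s).symm_apply_apply x
  have hf' : ∀ s t : V, s⁻¹ * t ∈ F.fixingSubgroup.comap ρ → f s = f t := by
    intro s t hst
    rw [Subgroup.mem_comap, IntermediateField.mem_fixingSubgroup_iff] at hst
    apply AlgHom.ext
    intro x
    have h1 := hst x x.2
    rw [map_mul, map_inv] at h1
    show ρ s x = ρ t x
    have h2 : (ρ s)⁻¹ (ρ t x) = x := h1
    have h3 := congrArg (ρ s) h2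
    rw [← h3]
    exact (ρ s).apply_symm_apply (ρ t x)
  let fbar : V ⧸ F.fixingSubgroup.comap ρ → (F →ₐ[ℚ] Qbar) :=
    Quotient.lift f (fun s t hst => hf' s t (QuotientGroup.leftRel_apply.1 hst))
  have hinj : Function.Injective fbar := by
    intro x y hxy
    induction x using QuotientGroup.induction_on with
    | H s =>
      induction y using QuotientGroup.induction_on with
      | H t => exact QuotientGroup.eq.2 (hf s t hxy)
  exact Finite.of_injective fbar hinj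

end galois

section chars

variable (q : ℕ) [Fact q.Prime] (ℓ : ℕ)

local notation "Ω" => PadicAlgCl q

/-- Continuous additive characters of a level subgroup of the local Galois group. -/
def IsContChar (F : IntermediateField ℚ Qbar) (ψ : ↥(lvl q F) → ZMod ℓ) : Prop :=
  (∀ u v, ψ (u * v) = ψ u + ψ v) ∧
    ∃ F' : IntermediateField ℚ Qbar, FiniteDimensional ℚ F' ∧
      ∀ u : lvl q F, (u : PadicAlgCl q ≃ₐ[ℚ_[q]] PadicAlgCl q) ∈ lvl q F' → ψ u = 0

/-- **Finiteness of the continuous characters** of an open subgroup of `G_{ℚ_q}` with values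
in `ZMod ℓ` (any primes `q`, `ℓ`), when the subgroup fixes the `ℓ`-th roots of unity. -/
theorem finite_contChar (hℓ : ℓ.Prime) (F : IntermediateField ℚ Qbar) [FiniteDimensional ℚ F]
    {ζ₀ : Qbar} (hζ₀ : IsPrimitiveRoot ζ₀ ℓ) (hζF : ζ₀ ∈ F) :
    {ψ : ↥(lvl q F) → ZMod ℓ | IsContChar q ℓ F ψ}.Finite := by
  haveI : NeZero ℓ := ⟨hℓ.ne_zero⟩
  obtain ⟨θ, hθ⟩ := exists_primitive F
  set E : IntermediateField ℚ_[q] Ω := ℚ_[q]⟮padicEmbedding q θ⟯ with hE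
  haveI : FiniteDimensional ℚ_[q] E :=
    IntermediateField.adjoin.finiteDimensional
      ((PadicAlgCl.isAlgebraic q).isAlgebraic (padicEmbedding q θ)).isIntegral
  have hlvl : lvl q F = E.fixingSubgroup := by
    rw [hθ]
    exact lvl_simple_eq q θ
  obtain ⟨T, hT, hrep⟩ := exists_finite_reps q ℓ hℓ E
  set ζ : Ω := padicEmbedding q ζ₀ with hζdef
  have hζ : IsPrimitiveRoot ζ ℓ := hζ₀.map_of_injective (padicEmbedding q).injective
  have hfix : ∀ u : lvl q F, u • ζ = ζ := fun u => (mem_lvl_iff q).1 u.2 ⟨ζ₀, hζF⟩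
  have hfin := finite_kummerChar (G := ↥(lvl q F)) hζ hfix T hT (by
    intro a ha0 hafix
    have haE : a ∈ E := by
      rw [← InfiniteGalois.fixedField_fixingSubgroup E, IntermediateField.mem_fixedField_iff]
      intro σ hσ
      rw [← hlvl] at hσ
      exact hafix ⟨σ, hσ⟩
    obtain ⟨t, ht, b, hb0, hb, hab⟩ := hrep a haE ha0
    refine ⟨t, ht, b, hb0, fun u => ?_, hab⟩
    have hu : (u : PadicAlgCl q ≃ₐ[ℚ_[q]] PadicAlgCl q) ∈ E.fixingSubgroup :=
      hlvl ▸ u.2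
    exact hb u hu)
  refine hfin.subset ?_
  rintro ψ ⟨hadd, F', hF', hψ⟩
  haveI := hF'
  haveI hFF' : FiniteDimensional ℚ (F ⊔ F' : IntermediateField ℚ Qbar) :=
    IntermediateField.finiteDimensional_sup F F'
  let ρ : ↥(lvl q F) →* (Qbar ≃ₐ[ℚ] Qbar) := (localGaloisToGlobal q).comp (lvl q F).subtype
  haveI : Finite (↥(lvl q F) ⧸ (F ⊔ F').fixingSubgroup.comap ρ) := finite_quot_comap ρ (F ⊔ F')
  refine exists_resolvent ζ hζ.pow_eq_one hfix ψ hadd ((F ⊔ F').fixingSubgroup.comap ρ) ?_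
    ((padicEmbedding q : Qbar →* Ω).comp ((F ⊔ F' : IntermediateField ℚ Qbar).val :
      (F ⊔ F' : IntermediateField ℚ Qbar) →* Qbar)) ?_ ?_
  · intro u hu
    apply hψ u
    exact IntermediateField.fixingSubgroup_antitone le_sup_right hu
  · intro u hu
    have h1 : (u : PadicAlgCl q ≃ₐ[ℚ_[q]] PadicAlgCl q) ∈ lvl q (F ⊔ F') :=
      (mem_lvl_iff q).2 hu
    exact h1
  · intro u hu x
    have h1 : (u : PadicAlgCl q ≃ₐ[ℚ_[q]] PadicAlgCl q) ∈ lvl q (F ⊔ F') := hu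
    exact (mem_lvl_iff q).1 h1 x

end chars

section cocycles

/-- Coordinates on a finite `ZMod ℓ`-vector space. -/
lemma exists_coords (ℓ : ℕ) [Fact ℓ.Prime] (M : Type) [AddCommGroup M] [Module (ZMod ℓ) M]
    [Finite M] : ∃ (n : ℕ) (co : M →+ (Fin n → ZMod ℓ)), Function.Injective co := by
  haveI : Module.Finite (ZMod ℓ) M := Module.Finite.of_finite
  let B := Module.finBasis (ZMod ℓ) M
  refine ⟨Module.finrank (ZMod ℓ) M, (B.equivFun : M ≃ₗ[ZMod ℓ] _).toLinearMap.toAddMonoidHom,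
    ?_⟩
  exact B.equivFun.injective

variable (q : ℕ) [Fact q.Prime]

/-- Finiteness of the set of level-constant crossed homomorphisms of the local Galois group at
`q` with values in a finite `k`-vector space on which an open subgroup acts trivially. -/
theorem finite_levelCocycles (k : Type) [Field k] [Finite k] (M : Type) [AddCommGroup M]
    [Module k M] [FiniteDimensional k M]
    (ρ : (PadicAlgCl q ≃ₐ[ℚ_[q]] PadicAlgCl q) → M →ₗ[k] M)
    (F0 : IntermediateField ℚ Qbar) [FiniteDimensional ℚ F0]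
    (hρ : ∀ u ∈ lvl q F0, ρ u = 1) :
    {c : (PadicAlgCl q ≃ₐ[ℚ_[q]] PadicAlgCl q) → M |
      (∀ g h, c (g * h) = ρ g (c h) + c g) ∧
        IsLevelConstant₁ (localGaloisToGlobal q) c}.Finite := by
  classical
  -- the characteristic
  obtain ⟨ℓ, hℓchar⟩ := CharP.exists k
  haveI := hℓchar
  have hℓ : ℓ.Prime :=
    (CharP.char_is_prime_or_zero k ℓ).resolve_right (CharP.char_ne_zero_of_finite k ℓ)
  haveI : NeZero ℓ := ⟨hℓ.ne_zero⟩
  haveI : Fact ℓ.Prime := ⟨hℓ⟩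
  haveI : NeZero (ℓ : Qbar) := ⟨by exact_mod_cast hℓ.ne_zero⟩
  obtain ⟨ζ₀, hζ₀⟩ := HasEnoughRootsOfUnity.exists_primitiveRoot Qbar ℓ
  haveI : FiniteDimensional ℚ ℚ⟮ζ₀⟯ :=
    IntermediateField.adjoin.finiteDimensional
      ((AlgebraicClosure.isAlgebraic ℚ).isAlgebraic ζ₀).isIntegral
  set F : IntermediateField ℚ Qbar := F0 ⊔ ℚ⟮ζ₀⟯ with hF
  haveI : FiniteDimensional ℚ F := IntermediateField.finiteDimensional_sup F0 ℚ⟮ζ₀⟯
  have hζF : ζ₀ ∈ F := (le_sup_right : ℚ⟮ζ₀⟯ ≤ F) (IntermediateField.mem_adjoin_simple_self ℚ ζ₀)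
  have hρF : ∀ u ∈ lvl q F, ρ u = 1 := fun u hu =>
    hρ u (IntermediateField.fixingSubgroup_antitone (le_sup_left : F0 ≤ F) hu)
  have hX := finite_contChar q ℓ hℓ F hζ₀ hζF
  -- `M` as a `ZMod ℓ`-space
  haveI : Finite M := Module.finite_of_finite k
  obtain ⟨n, co, hco⟩ := @exists_coords ℓ _ M _ (AddCommGroup.zmodModule (n := ℓ) (by
    intro x
    rw [← Nat.cast_smul_eq_nsmul k ℓ x, CharP.cast_eq_zero k ℓ, zero_smul])) _
  have hY := finite_of_coords_finite (V := ↥(lvl q F)) (fun m i => co m i) hco _ hX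
  refine finite_of_restrict_finite (lvl q F) (fun g m => ρ g m) _ ?_ _ hY ?_
  · rintro c ⟨hc, -⟩ g u -
    exact hc g u
  · rintro c ⟨hc, F', hF', hlev⟩ i
    have hc1 : c 1 = 0 := by
      have := hc 1 1
      rw [mul_one] at this
      have h1 : ρ 1 = 1 := hρF 1 (Subgroup.one_mem _)
      rw [h1, Module.End.one_apply] at this
      exact left_eq_add.1 this
    refine ⟨fun u v => ?_, F', hF', fun u hu => ?_⟩
    · show co (c ((u * v : lvl q F) : PadicAlgCl q ≃ₐ[ℚ_[q]] PadicAlgCl q)) i =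
        co (c u) i + co (c v) i
      rw [Subgroup.coe_mul, hc, hρF u u.2, Module.End.one_apply, map_add, Pi.add_apply,
        add_comm]
    · show co (c u) i = 0
      have h2 := hlev 1 u hu
      rw [one_mul, hc1] at h2
      rw [h2, map_zero, Pi.zero_apply]

end cocycles

section final

/-- **Package GW-FIN-loc.** -/
theorem stmt_fin_loc : Stmt_fin_loc := by
  intro k _ _ M _ hsm q
  haveI : Fact (q : ℕ).Prime := ⟨q.2⟩
  obtain ⟨F0, hF0fd, hF0n, hF0⟩ := exists_field_trivial M hsm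
  haveI := hF0fd
  have hS := finite_levelCocycles (q : ℕ) k M
    (fun g => M.ρ (localGaloisToGlobal (q : ℕ) g)) F0 (fun u hu => hF0 _ hu)
  have hfinZ : Finite ↥(levelCocycles₁ (primeLocalToGlobal q) (locRep M q)) := by
    haveI := hS.to_subtype
    refine Finite.of_injective
      (fun c => (⟨fun g => (c : cocycles₁ (locRep M q)) g, ?_, ?_⟩ :
        ↥{c : (PadicAlgCl (q : ℕ) ≃ₐ[ℚ_[(q : ℕ)]] PadicAlgCl (q : ℕ)) → M |
          (∀ g h, c (g * h) = M.ρ (localGaloisToGlobal (q : ℕ) g) (c h) + c g) ∧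
            IsLevelConstant₁ (localGaloisToGlobal (q : ℕ)) c})) ?_
    · intro g h
      exact cocycle_mul (c : cocycles₁ (locRep M q)) g h
    · exact c.2
    · intro c c' h
      have h1 : ∀ g, (c : cocycles₁ (locRep M q)) g = (c' : cocycles₁ (locRep M q)) g :=
        fun g => congrFun (congrArg Subtype.val h) g
      apply Subtype.ext
      apply Subtype.ext
      funext g
      exact h1 g
  haveI := hfinZ
  haveI : Module.Finite k ↥(levelCocycles₁ (primeLocalToGlobal q) (locRep M q)) :=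
    Module.Finite.of_finite
  exact Module.Finite.map _ _

end final

end Fermat.Agent.S56.H9

end
-- ==== END Fermat.Agent.S56.GW.H9_FinLoc

-- ==== BEGIN Fermat.Agent.S56.GW.Reduce
section

set_option autoImplicit false

/-!
# Cluster T / S56, package GW: reduction of `Stmt_GW` to the sub-packages (helper47)

`gw_of_core : Stmt_fin_glob → Stmt_fin_loc → Stmt_GW_core → Stmt_GW`, sorry-free.
-/

noncomputable section

namespace Fermat.Agent.S56

open Polynomial IsLocalRing CategoryTheory groupCohomology ExtCitation Module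

theorem two_ne_zero_of_charP (p : ℕ) [Fact p.Prime] (hp2 : p ≠ 2) (k : Type) [Field k]
    [CharP k p] : (2 : k) ≠ 0 := by
  intro h
  have h1 : ((2 : ℕ) : k) = 0 := by exact_mod_cast h
  have h2 : p ∣ 2 := (CharP.cast_eq_zero_iff k p 2).1 h1
  have h3 := (Nat.prime_dvd_prime_iff_eq (Fact.out : p.Prime) Nat.prime_two).1 h2
  exact hp2 h3

theorem sel_eq_selmerAdm {k : Type} [Field k] (M : Rep.{0} k GQ) (Sg : Finset Nat.Primes)
    (L : ∀ v : extArithIndex Sg, Submodule k (H1 (Rep.res (extArithLoc Sg v) M)))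
    (adm : Submodule k (H1 M)) :
    GW.sel (fun v => (locRes (extArithLoc Sg) M v).hom) L adm =
      selmerAdm (extArithLoc Sg) M L adm := by
  ext x
  rw [GW.mem_sel, mem_selmerAdm_iff]

theorem sel_bot_eq_sha {k : Type} [Field k] (M : Rep.{0} k GQ) (Sg : Finset Nat.Primes) :
    GW.sel (fun v => (locRes (extArithLoc Sg) M v).hom) (fun _ => ⊥) (continuousH1S Sg M) =
      sha₁ Sg M := by
  ext x
  rw [GW.mem_sel, sha₁, Submodule.mem_inf, LinearMap.mem_ker]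
  constructor
  · rintro ⟨h1, h2⟩
    refine ⟨h2, funext fun v => ?_⟩
    exact (Submodule.mem_bot k).1 (h1 v)
  · rintro ⟨h2, h1⟩
    refine ⟨fun v => ?_, h2⟩
    exact (Submodule.mem_bot k).2 (congrFun h1 v)

theorem sel_orth_eq_selmerAdm {k : Type} [Field k] (M M' : Rep.{0} k GQ) (Sg : Finset Nat.Primes)
    (B : ∀ v : extArithIndex Sg, H1 (Rep.res (extArithLoc Sg v) M) →ₗ[k]
      H1 (Rep.res (extArithLoc Sg v) M') →ₗ[k] k)
    (L : ∀ v : extArithIndex Sg, Submodule k (H1 (Rep.res (extArithLoc Sg v) M)))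
    (adm' : Submodule k (H1 M')) :
    GW.sel (fun v => (locRes (extArithLoc Sg) M' v).hom) (fun v => GW.orth (B v) (L v)) adm' =
      selmerAdm (extArithLoc Sg) M' (dualConditions (extArithLoc Sg) M M' B L) adm' := by
  ext x
  rw [GW.mem_sel, mem_selmerAdm_iff]
  constructor
  · rintro ⟨h1, h2⟩
    exact ⟨fun v => (mem_orthogonal_iff _ _ _).2 (h1 v), h2⟩
  · rintro ⟨h1, h2⟩
    exact ⟨fun v => (mem_orthogonal_iff _ _ _).1 (h1 v), h2⟩

/-- **Reduction of the Greenberg-Wiles package** to finiteness, reciprocity, the lower bound and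
tame local duality. -/
theorem gw_of_core (hfg : Stmt_fin_glob) (hfl : Stmt_fin_loc) (hcore : Stmt_GW_core) :
    Stmt_GW := by
  intro p _ hp2 k _ _ _ M _ hsm
  classical
  obtain ⟨P, hperf, hSg⟩ := hcore p hp2 k M hsm
  obtain ⟨hM'fd, hM'sm, -⟩ := H47.tate_basic p k M hsm
  haveI := hM'fd
  have h2 : (2 : k) ≠ 0 := two_ne_zero_of_charP p hp2 k
  refine ⟨P, hperf, fun Sg hpSg hur L hL => ?_⟩
  obtain ⟨hrec, hLB⟩ := hSg Sg hpSg hur
  haveI hadm : FiniteDimensional k (continuousH1S Sg M) := hfg k M hsm Sg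
  haveI hadm' : FiniteDimensional k (continuousH1S Sg (tateDual p M)) :=
    hfg k (tateDual p M) hM'sm Sg
  have hLfin : ∀ v, FiniteDimensional k (L v) := by
    intro v
    rcases v with u | q
    · have hbot : L (Sum.inl u) = ⊥ := by
        rw [eq_bot_iff]
        intro x _
        exact (Submodule.mem_bot k).2 (H13.H1_archimedean_eq_zero h2 _ x)
      rw [hbot]
      infer_instance
    · have hq : FiniteDimensional k (locH1 M q.1) := hfl k M hsm q.1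
      exact @Submodule.finiteDimensional_of_le k _ _ _ _ _ _ hq (hL (Sum.inr q))
  haveI := hLfin
  -- reciprocity over `extArithIndex Sg`
  have hrec' : ∀ x ∈ continuousH1S Sg M, ∀ y ∈ continuousH1S Sg (tateDual p M),
      ∑ v : extArithIndex Sg, P.fam Sg v ((locRes (extArithLoc Sg) M v).hom x)
        ((locRes (extArithLoc Sg) (tateDual p M) v).hom y) = 0 := by
    intro x hx y hy
    let f : extArithIndex Sg → k := fun v => P.fam Sg v ((locRes (extArithLoc Sg) M v).hom x)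
        ((locRes (extArithLoc Sg) (tateDual p M) v).hom y)
    have h1 : ∑ v : extArithIndex Sg, f v =
        ∑ u : Unit, f (Sum.inl u) + ∑ q : ↥Sg, f (Sum.inr q) :=
      Fintype.sum_sum_type (fun v : Unit ⊕ ↥Sg => f v)
    have h3 : ∑ u : Unit, f (Sum.inl u) = 0 := by
      refine Finset.sum_eq_zero fun u _ => ?_
      have hx0 : (locRes (extArithLoc Sg) M (Sum.inl u)).hom x = 0 :=
        H13.H1_archimedean_eq_zero h2 _ _
      show P.fam Sg (Sum.inl u) ((locRes (extArithLoc Sg) M (Sum.inl u)).hom x) _ = 0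
      rw [hx0, map_zero]
      rfl
    have h4 : ∑ q : ↥Sg, f (Sum.inr q) =
        ∑ q ∈ Sg, P.atp q (resAt M q x) (resAt (tateDual p M) q y) :=
      Finset.sum_coe_sort Sg
        (fun q => P.atp q (resAt M q x) (resAt (tateDual p M) q y))
    show ∑ v : extArithIndex Sg, f v = 0
    rw [h1, h3, h4, zero_add]
    exact hrec x hx y hy
  have key := GW.abstract_gw (fun v => (locRes (extArithLoc Sg) M v).hom)
    (fun v => (locRes (extArithLoc Sg) (tateDual p M) v).hom) (P.fam Sg)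
    (continuousH1S Sg M) (continuousH1S Sg (tateDual p M)) hrec' L
  rw [sel_eq_selmerAdm, sel_bot_eq_sha, sel_orth_eq_selmerAdm] at key
  refine ⟨inferInstance, inferInstance, hLfin, ?_⟩
  unfold greenbergWilesLeAdm
  rw [sum_h0]
  omega

end Fermat.Agent.S56

end

end
-- ==== END Fermat.Agent.S56.GW.Reduce

-- ==== BEGIN Fermat.Agent.S56.GWC.Defs
section

set_option autoImplicit false

/-!
# Cluster T / S56, package GW-CORE, layer 2: interfaces for `Stmt_PT2`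

Owner-planner: helper64.  Plan: `NOTES/plan/T_GWC.md`.  Layer 1 (helper47): `S56/GW/Defs2.lean`,
`S56/GW/Core.lean` (`Stmt_GW_core ⇐ Stmt_INV + Stmt_PERF_cup + Stmt_PT2 + Stmt_EC + Stmt_ARCH`).
`Stmt_EC` is planned in `NOTES/plan/T_EC.md` (helper27), modular Artin induction in `S56/IND`
(helper74).

Everything here is stated in the cochain language of helper49's engine (`S55/Coh/Defs.lean`):
level-`S` cochains `G_ℚ^n → X`, cone cochains, traces.

* `H3S`, `Stmt_H3S_ext`, `Stmt_H3S_ret`, `Stmt_H3S_base` : vanishing of `H³_S` and its dévissage.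
* `BetaOneMono`, `Stmt_B1M_ext`, `Stmt_B1M_ret`, `Stmt_B1M_base` : injectivity of
  `H¹_c(X') → H²_S(X)^∨` and its dévissage; `Stmt_B1` : `β¹` is bijective for all modules.
* `grpSha1`, …, `PT2Ineq`, `Stmt_CONE1`, `Stmt_DUALCOUNT`, `Stmt_DD`, `Stmt_PT2e` : the counting
  form of `Stmt_PT2` in the cochain language (additive groups and indices, so that the statement
  does not depend on the field of scalars).
* `Stmt_RS`, `Stmt_BRk` : restriction of scalars `k → 𝔽_p` and the bridge to the prelude's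
  vocabulary.
-/

noncomputable section

namespace Fermat.Agent.S56.GWC

open CategoryTheory groupCohomology ExtCitation Module

/-! ### H³_S = 0 -/

section H3

variable {k : Type} [Field k]

/-- `H³_S(X) = 0`: every level-`S` 3-cocycle is the coboundary of a level-`S` 2-cochain. -/
def H3S (S : Finset Nat.Primes) (X : Rep.{0} k S55.GQ) : Prop :=
  ∀ z : S55.GQ × S55.GQ × S55.GQ → X, S55.dThree X z = 0 → S55.IsLevS₃ S z →
    ∃ b : S55.GQ × S55.GQ → X, IsLevelConstantS₂ S b ∧ S55.dTwo X b = z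

end H3

/-- **Package H3-ext**: `H³_S = 0` is closed under extensions (middle exactness of the long exact
sequence in degree 3: lift along a set-theoretic section of `π`). -/
def Stmt_H3S_ext : Prop :=
  ∀ (k : Type) [Field k] (S : Finset Nat.Primes)
    (X₁ X X₂ : Rep.{0} k S55.GQ) (i : X₁ ⟶ X) (π : X ⟶ X₂), S55.IsSES i π →
    S55.Lev S X₁ → S55.Lev S X → S55.Lev S X₂ → H3S S X₁ → H3S S X₂ → H3S S X

/-- **Package H3-ret**: `H³_S = 0` passes to retracts. -/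
def Stmt_H3S_ret : Prop :=
  ∀ (k : Type) [Field k] (S : Finset Nat.Primes) (X Y : Rep.{0} k S55.GQ),
    S55.IsRetract X Y → H3S S Y → H3S S X

/-- **Package H3-base** (from S55-E4, input `Top.Stmt_I2` + Shapiro in degree 3): `H³_S` of a
permutation module `𝔽_p[G_ℚ/G_K]`, `K` a base field of degree prime to `p`, vanishes. -/
def Stmt_H3S_base : Prop :=
  ∀ (p : ℕ) [Fact p.Prime], p ≠ 2 → ∀ S : Finset Nat.Primes, pPrime p ∈ S →
    ∀ K : IntermediateField ℚ (AlgebraicClosure ℚ), S55.IsBaseField S p K →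
      ¬ p ∣ K.fixingSubgroup.index → H3S S (S55.permRep (ZMod p) K)

/-- **Package H3** (assembly: base + dévissage + `S55.Stmt_E3`): `H³_S(X) = 0` for every
finite-dimensional `𝔽_p`-module of level `S ∋ p`. -/
def Stmt_H3S : Prop :=
  ∀ (p : ℕ) [Fact p.Prime], p ≠ 2 → ∀ (S : Finset Nat.Primes)
    (X : Rep.{0} (ZMod p) S55.GQ) [FiniteDimensional (ZMod p) X], pPrime p ∈ S →
    S55.Lev S X → H3S S X

/-! ### β¹ mono -/

section B1M

variable {k : Type} [Field k] {S : Finset Nat.Primes} {χ : S55.GQ →* kˣ}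

/-- `β¹` is injective: a cone 1-cocycle of `X'` which pairs to zero with all level-`S`
2-cocycles of `X` is a cone 1-coboundary.  (`H¹_c(X') ↪ H²_S(X)^∨`.) -/
def BetaOneMono (tr : S55.Trace S χ) (X : Rep.{0} k S55.GQ) : Prop :=
  ∀ y : S55.C1c S (S55.Md χ X), S55.IsZ1c S (S55.Md χ X) y →
    (∀ a : S55.GQ × S55.GQ → X, S55.IsZ2S S X a → tr.toFun (S55.cupB1 S χ X a y) = 0) →
    S55.IsB1c S (S55.Md χ X) y

end B1M

/-- **Package B1M-ext** (four lemma, mono version).  For `0 → X₁ → X → X₂ → 0` of level `S`: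
`β¹mono(X₁) ∧ β¹mono(X₂) ∧ H³_S(X₁) = 0 ⟹ β¹mono(X)`.
(Proof: `y ∈ Z¹_c(X')` orthogonal to `Z²_S(X)`.  Its image in `Z¹_c(X₁')` is orthogonal to
`Z²_S(X₁)`, so it is a coboundary; correct `y` by a coboundary so that it comes from
`y₂ ∈ Z¹_c(X₂')`.  Every `a₂ ∈ Z²_S(X₂)` lifts to `a ∈ Z²_S(X)` because `H³_S(X₁) = 0`;
so `y₂` is orthogonal to `Z²_S(X₂)`, hence a coboundary.) -/
def Stmt_B1M_ext : Prop :=
  ∀ (k : Type) [Field k] (S : Finset Nat.Primes) (χ : S55.GQ →* kˣ) (tr : S55.Trace S χ),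
    S55.LevChar S χ →
    ∀ (X₁ X X₂ : Rep.{0} k S55.GQ) (i : X₁ ⟶ X) (π : X ⟶ X₂), S55.IsSES i π →
      S55.Lev S X₁ → S55.Lev S X → S55.Lev S X₂ →
      BetaOneMono tr X₁ → BetaOneMono tr X₂ → H3S S X₁ → BetaOneMono tr X

/-- **Package B1M-ret**: `β¹mono` passes to retracts. -/
def Stmt_B1M_ret : Prop :=
  ∀ (k : Type) [Field k] (S : Finset Nat.Primes) (χ : S55.GQ →* kˣ) (tr : S55.Trace S χ)
    (X Y : Rep.{0} k S55.GQ), S55.IsRetract X Y → BetaOneMono tr Y → BetaOneMono tr X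

/-- **Package B1M-base** (from S55-E4: PT-LIN + Shapiro).  The strengthening of
`S55.Top.Stmt_E4P` by `β¹mono` (same trace).  At the level of `K` (trivial coefficients):
`β¹mono` follows from `Top.Stmt_G1K` (a locally trivial `b ≠ 0` pairs nontrivially), adjointness,
`α³mono` and `Top.Stmt_I1`, `Top.Stmt_I4` (the image of `H²_S → ⊕_w H²(K_w)` is the hyperplane
`∑_w tr_w = 0`, every `tr_w ≠ 0`). -/
def Stmt_B1M_base : Prop :=
  ∀ (p : ℕ) [Fact p.Prime], p ≠ 2 → ∀ S : Finset Nat.Primes, pPrime p ∈ S →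
    ∀ K : IntermediateField ℚ (AlgebraicClosure ℚ), S55.IsBaseField S p K →
      ¬ p ∣ K.fixingSubgroup.index →
      ∃ tr : S55.Trace S (cycloChar p),
        S55.AlphaTwoEpi tr (S55.permRep (ZMod p) K) ∧
        S55.AlphaThreeMono tr (S55.permRep (ZMod p) K) ∧
        S55.BetaOneEpi tr (S55.permRep (ZMod p) K) ∧
        S55.BetaTwoMono tr (S55.permRep (ZMod p) K) ∧
        BetaOneMono tr (S55.permRep (ZMod p) K)

/-- **Package B1** (assembly): for every finite-dimensional `𝔽_p`-module `X` of level `S ∋ p`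
there is a trace for which `β¹` is bijective. -/
def Stmt_B1 : Prop :=
  ∀ (p : ℕ) [Fact p.Prime], p ≠ 2 → ∀ (S : Finset Nat.Primes)
    (X : Rep.{0} (ZMod p) S55.GQ) [FiniteDimensional (ZMod p) X], pPrime p ∈ S →
    S55.Lev S X →
    ∃ tr : S55.Trace S (cycloChar p), S55.BetaOneEpi tr X ∧ BetaOneMono tr X

/-! ### The counting form of `Stmt_PT2` -/

section count

variable {k : Type} [Field k] (S : Finset Nat.Primes) (X : Rep.{0} k S55.GQ)

/-- The additive group of cone 1-cocycles `Z¹_c(X)`. -/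
def grpZ1c : AddSubgroup (S55.C1c S X) where
  carrier := {y | S55.IsZ1c S X y}
  zero_mem' := S55.isZ1c_zero X
  add_mem' := by
    rintro y y' ⟨⟨hd, hl⟩, hq⟩ ⟨⟨hd', hl'⟩, hq'⟩
    refine ⟨⟨?_, hl.add hl'⟩, fun q => ?_⟩
    · show S55.dOne X (y.1 + y'.1) = 0
      rw [S55.dOne_add, hd, hd', add_zero]
    · show S55.resOne q.1 (y.1 + y'.1) = S55.dZeroL X q.1 (y.2 q + y'.2 q)
      rw [S55.resOne_add, S55.dZeroL_add, hq q, hq' q]
  neg_mem' := by
    rintro y ⟨⟨hd, hl⟩, hq⟩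
    refine ⟨⟨?_, S55.levS₁_neg hl⟩, fun q => ?_⟩
    · have h0 : S55.dOne X (-y.1) = 0 - S55.dOne X y.1 := by
        funext t; simp [S55.dOne]; abel
      show S55.dOne X (-y.1) = 0
      rw [h0, hd, sub_zero]
    · have h0 : S55.resOne q.1 (-y.1) = 0 - S55.resOne q.1 y.1 := by
        funext h; simp [S55.resOne]
      have h1 : S55.dZeroL X q.1 (-(y.2 q)) = 0 - S55.dZeroL X q.1 (y.2 q) := by
        funext h; simp [S55.dZeroL]; abel
      show S55.resOne q.1 (-y.1) = S55.dZeroL X q.1 (-(y.2 q))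
      rw [h0, h1, hq q]

/-- The additive group of cone 1-coboundaries `B¹_c(X)`. -/
def grpB1c : AddSubgroup (S55.C1c S X) where
  carrier := {y | S55.IsB1c S X y}
  zero_mem' := ⟨0, by funext g; simp [S55.dZero], fun _ => rfl⟩
  add_mem' := by
    rintro y y' ⟨m, hm, hq⟩ ⟨m', hm', hq'⟩
    refine ⟨m + m', ?_, fun q => ?_⟩
    · show y.1 + y'.1 = _
      rw [S55.dZero_add, hm, hm']
    · show y.2 q + y'.2 q = _
      rw [hq q, hq' q]
  neg_mem' := by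
    rintro y ⟨m, hm, hq⟩
    refine ⟨-m, ?_, fun q => ?_⟩
    · show -y.1 = _
      rw [hm]
      funext g
      simp [S55.dZero]
      abel
    · show -(y.2 q) = _
      rw [hq q]

/-- `#H¹_c(X)`, the order of the cone cohomology in degree `1` (`0` if it is infinite). -/
def cardH1c : ℕ := (grpB1c S X).relIndex (grpZ1c S X)

/-- The inequality of `Stmt_PT2` in terms of cardinalities:
`H²_S(X')` is finite and `#Ш¹_S(X) · ∏_{q ∈ S} #H⁰(ℚ_q, X) ≤ #H²_S(X') · #H⁰(ℚ, X)`. -/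
def PT2Ineq (χ : S55.GQ →* kˣ) : Prop :=
  Finite (continuousH2S S (S55.Md χ X)) ∧
    Nat.card (sha₁ S X) * ∏ q ∈ S, Nat.card (S56.locRep X q).ρ.invariants ≤
      Nat.card (continuousH2S S (S55.Md χ X)) * Nat.card X.ρ.invariants

end count

/-- **Package CONE1** (the cone sequence in degree `≤ 1`; generic, linear algebra).
`0 → H⁰(X) → ⊕_{q ∈ S} H⁰(ℚ_q, X) → H¹_c(X) → Ш¹_S(X) → 0`, in terms of cardinalities
(`Nat.card` and `relIndex` are `0` on infinite sets; both sides vanish if `Ш¹_S` is infinite).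
Bridge to the prelude's `sha₁`: `S55.H48.shaπ1_surjective`, `shaπ1_eq_zero_iff`,
`isSha1_of_mem`, `exists_mem_of_isSha1`. -/
def Stmt_CONE1 : Prop :=
  ∀ (k : Type) [Field k], (2 : k) ≠ 0 → ∀ (S : Finset Nat.Primes) (X : Rep.{0} k S55.GQ),
    Finite X → S.Nonempty →
    cardH1c S X * Nat.card X.ρ.invariants =
      Nat.card (sha₁ S X) * ∏ q ∈ S, Nat.card (S56.locRep X q).ρ.invariants

/-- **Package DUALCOUNT** (generic, linear algebra).  If `β¹` is bijective for `Y` and `H¹_c(Y')`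
is finite, then `H²_S(Y)` is finite of the same order.
(The pairing descends to `H¹_c(Y') × H²_S(Y) → k` by `S55.H48.tr_cupB1_dOne` and
`S55.dCone2_cupB11`-type identities.) -/
def Stmt_DUALCOUNT : Prop :=
  ∀ (k : Type) [Field k] [Finite k] (S : Finset Nat.Primes) (χ : S55.GQ →* kˣ)
    (tr : S55.Trace S χ), S55.LevChar S χ → ∀ Y : Rep.{0} k S55.GQ, S55.Lev S Y →
    S55.BetaOneEpi tr Y → BetaOneMono tr Y → cardH1c S (S55.Md χ Y) ≠ 0 →
    Finite (continuousH2S S Y) ∧ Nat.card (continuousH2S S Y) = cardH1c S (S55.Md χ Y)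

/-- **Package DD** (double duality): `X → X''` is an isomorphism of representations for
finite-dimensional `X`, so `#H¹_c(X'') = #H¹_c(X)`. -/
def Stmt_DD : Prop :=
  ∀ (k : Type) [Field k] (S : Finset Nat.Primes) (χ : S55.GQ →* kˣ) (X : Rep.{0} k S55.GQ),
    FiniteDimensional k X → cardH1c S (S55.Md χ (S55.Md χ X)) = cardH1c S X

/-- **Package PT2e**: `Stmt_PT2` over `𝔽_p`, in the counting form. -/
def Stmt_PT2e : Prop :=
  ∀ (p : ℕ) [Fact p.Prime], p ≠ 2 → ∀ (S : Finset Nat.Primes)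
    (X : Rep.{0} (ZMod p) S55.GQ) [FiniteDimensional (ZMod p) X], pPrime p ∈ S →
    S55.Lev S X → PT2Ineq S X (cycloChar p)

/-- **Package RS** (restriction of scalars `k → 𝔽_p` + bridge).  `M` over `k` is also an
`𝔽_p[G_ℚ]`-module `M₀` (same underlying group, same cochains, same cocycles);
`(M')₀ ≅ (M₀)'` by `φ ↦ Tr_{k/𝔽_p} ∘ φ`; so `PT2Ineq` for `M₀` gives `PT2Ineq` for `M`, which is
`Stmt_PT2` for `M` (`#V = (#k)^{dim_k V}`). -/
def Stmt_RS : Prop := Stmt_PT2e → S56.Stmt_PT2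

end Fermat.Agent.S56.GWC

end

end
-- ==== END Fermat.Agent.S56.GWC.Defs
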