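-- GENERATED (merged mirror, NOTES/tools/trim/merge3_helper67.py): 2 modules of the originals, bodies verbatim.
import Fermat.Agent.Zm.S56_L06_000
import Fermat.Agent.Zm.S56_L09_005
import Fermat.Agent.Zm.S56_L02_005
import Fermat.Agent.Zm.S56_L04_004
import Fermat.Agent.Zm.S56_L09_002

-- ==== BEGIN Fermat.Agent.S55.CFT.GS.H6_UR_Defs
section

set_option autoImplicit false

open scoped NumberField

noncomputable section

namespace Fermat.Agent.S55.CFT.GS.H6

open Fermat.Agent.S55 Fermat.Agent.S55.Top IsDedekindDomain ExtCitation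

local notation "Qb" => AlgebraicClosure ℚ

/-- **UR-TC**: a number field containing a primitive `p`-th root of unity, `p` odd, is totally
complex: `2 (rank of the units + 1) = [K : ℚ]`. -/
def Stmt_UR_TC : Prop :=
  ∀ (K : Type) [Field K] [NumberField K] (p : ℕ), p.Prime → p ≠ 2 →
    (∃ ζ : K, IsPrimitiveRoot ζ p) →
    2 * (NumberField.Units.rank K + 1) = Module.finrank ℚ K

/-- **UR-U**: for a finite extension `K` of `ℚ` inside `ℚ̄`, unramified outside `S`, and the
finite set `SK` of the primes of `𝓞 K` over the primes in `S`: `U_K` is the underlying set of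
a subgroup `H` of `ℚ̄ˣ` in which the `p`-th powers have the same index as in the group of
`SK`-units of `K`. -/
def Stmt_UR_U : Prop :=
  ∀ (S : Finset Nat.Primes) (K : IntermediateField ℚ Qb) [NumberField ↥K],
    K.IsUnramifiedOutside S →
    ∀ SK : Finset (HeightOneSpectrum (𝓞 ↥K)),
      (∀ v : HeightOneSpectrum (𝓞 ↥K), v ∈ SK ↔ ∃ q ∈ S, (((q : ℕ) : 𝓞 ↥K)) ∈ v.asIdeal) →
      ∀ p : ℕ, ∃ H : Subgroup Qbˣ, (H : Set Qbˣ) = UK S K ∧
        (powMonoidHom p : ↥H →* ↥H).range.index =
          (powMonoidHom p : ((SK : Set (HeightOneSpectrum (𝓞 ↥K))).unit ↥K) →*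
            ((SK : Set (HeightOneSpectrum (𝓞 ↥K))).unit ↥K)).range.index

/-- **UR-PL**: the orbits of the local Galois group at `q` on `G_ℚ / G_K` are as many as the
primes of `𝓞 K` over `q`. -/
def Stmt_UR_PL : Prop :=
  ∀ (K : IntermediateField ℚ Qb) [NumberField ↥K] (q : Nat.Primes) (W : Type) [Fintype W],
    @OrbitData (Gl q) _ (XK K) (locAct K q) W →
    Fintype.card W =
      {v : HeightOneSpectrum (𝓞 ↥K) | (((q : ℕ) : 𝓞 ↥K)) ∈ v.asIdeal}.ncard

end Fermat.Agent.S55.CFT.GS.H6

end
end
-- ==== END Fermat.Agent.S55.CFT.GS.H6_UR_Defs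

-- ==== BEGIN Fermat.Agent.S56.LocMin.H85_Level
section

/-!
# S56, leaf LOC-min, part A' (helper85): the unramified classes at the prime `q`

For a finite Galois extension `F` of `ℚ` inside `ℚ̄`, `inertiaLevel q F` is the subgroup of
`G_{ℚ_q}` of the elements acting trivially on the integers of `F` modulo the place; the classes
of the cocycles vanishing on it form a subspace `unrH1 M q F` of the continuous local classes,
of dimension at most `h⁰(ℚ_q, M)`.  Their union over `F` is `unrH1All M q`, with the same bound.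
-/

set_option autoImplicit false
set_option linter.unusedSectionVars false
set_option linter.style.haveILetI false

namespace Fermat.Agent.S56.LocMin

open NumberField CategoryTheory groupCohomology ExtCitation Fermat.Agent.S56.H9 Fermat.Agent.S56

local notation "Qbar" => AlgebraicClosure ℚ

universe u

section abstractLevel

/-- The abstract bound at a finite level. -/
theorem finrank_map_unrCocycles_comap_le {k G : Type u} [Field k] [Group G] (M : Rep k G)
    [FiniteDimensional k M]
    {B : Type*} [CommRing B] {Γ : Type*} [Group Γ] [Finite Γ] [MulSemiringAction Γ B]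
    (𝔓 : Ideal B) [𝔓.IsMaximal] (q : ℕ) [Fact q.Prime] [CharP (B ⧸ 𝔓) q] [Finite (B ⧸ 𝔓)]
    (rt : G →* Γ) (hstab : ∀ g : G, ∀ x : B, rt g • x ∈ 𝔓 ↔ x ∈ 𝔓) :
    Module.Finite k ((unrCocycles M ((𝔓.inertia Γ).comap rt)).map (H1π M).hom) ∧
      Module.finrank k ((unrCocycles M ((𝔓.inertia Γ).comap rt)).map (H1π M).hom)
        ≤ Module.finrank k M.ρ.invariants := by
  classical
  have hD' : ∀ σ ∈ rt.range, ∀ x, σ • x ∈ 𝔓 ↔ x ∈ 𝔓 := by
    rintro _ ⟨g, rfl⟩ x
    exact hstab g x
  obtain ⟨φ', hφ', a, -, hgen'⟩ := exists_frob_generator 𝔓 q rt.range hD'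
  obtain ⟨φ, rfl⟩ := hφ'
  have hnormal : ((𝔓.inertia Γ).comap rt).Normal := by
    refine ⟨fun i hi g => ?_⟩
    rw [Subgroup.mem_comap, map_mul, map_mul, map_inv]
    exact conj_mem_inertia (hstab g) hi
  refine finrank_map_unrCocycles_le hnormal φ ?_
  intro g
  obtain ⟨n, hn⟩ := hgen' (rt g) ⟨g, rfl⟩
  refine ⟨n, (φ ^ n)⁻¹ * g, ?_, ?_⟩
  · rw [Subgroup.mem_comap, map_mul, map_inv, map_pow]
    exact hn
  · rw [mul_inv_cancel_left]

end abstractLevel

section level

variable (q : Nat.Primes)

/-- The elements of `G_{ℚ_q}` acting trivially on the integers of `F` modulo the place. -/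
noncomputable def inertiaLevel (F : IntermediateField ℚ Qbar) :
    Subgroup (primeLocalGaloisGroup q) where
  carrier := {g | ∀ x : Qbar, x ∈ F → IsIntegral ℤ x →
    primeLocalToGlobal q g x - x ∈ (primeLocalPlace q).nonunits}
  one_mem' := by
    intro x _ _
    rw [map_one, AlgEquiv.one_apply, sub_self]
    exact (ValuationSubring.mem_nonunits_iff _).2 (by rw [map_zero]; exact zero_lt_one)
  mul_mem' := by
    intro a b ha hb x hx hxi
    have h1 := ha x hx hxi
    have h2 := hb x hx hxi
    rw [ValuationSubring.mem_nonunits_iff] at h1 h2 ⊢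
    have h3 : (primeLocalPlace q).valuation
        (primeLocalToGlobal q a (primeLocalToGlobal q b x - x)) < 1 :=
      (Fermat.Agent.Lib.InertiaBridge.valuation_map_lt_one_iff _ _
        (primeLocalToGlobal_mem_decomposition q a) _).2 h2
    have e : primeLocalToGlobal q (a * b) x - x
        = primeLocalToGlobal q a (primeLocalToGlobal q b x - x)
          + (primeLocalToGlobal q a x - x) := by
      rw [map_mul, AlgEquiv.mul_apply, map_sub]
      ring
    rw [e]
    exact lt_of_le_of_lt (Valuation.map_add _ _ _) (max_lt h3 h1)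
  inv_mem' := by
    intro a ha x hx hxi
    have h1 := ha x hx hxi
    rw [ValuationSubring.mem_nonunits_iff] at h1 ⊢
    have hdec : (primeLocalToGlobal q a)⁻¹ ∈ (primeLocalPlace q).decompositionSubgroup ℚ :=
      inv_mem (primeLocalToGlobal_mem_decomposition q a)
    have h3 : (primeLocalPlace q).valuation
        ((primeLocalToGlobal q a)⁻¹ (primeLocalToGlobal q a x - x)) < 1 :=
      (Fermat.Agent.Lib.InertiaBridge.valuation_map_lt_one_iff _ _ hdec _).2 h1
    have e : primeLocalToGlobal q a⁻¹ x - x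
        = - ((primeLocalToGlobal q a)⁻¹ (primeLocalToGlobal q a x - x)) := by
      rw [map_inv, map_sub]
      have : (primeLocalToGlobal q a)⁻¹ (primeLocalToGlobal q a x) = x :=
        (primeLocalToGlobal q a).symm_apply_apply x
      rw [this]
      ring
    rw [e, Valuation.map_neg]
    exact h3

lemma mem_inertiaLevel {F : IntermediateField ℚ Qbar} {g : primeLocalGaloisGroup q} :
    g ∈ inertiaLevel q F ↔ ∀ x : Qbar, x ∈ F → IsIntegral ℤ x →
      primeLocalToGlobal q g x - x ∈ (primeLocalPlace q).nonunits := Iff.rfl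

lemma inertiaLevel_anti {F F' : IntermediateField ℚ Qbar} (h : F ≤ F') :
    inertiaLevel q F' ≤ inertiaLevel q F := fun _ hg x hx hxi => hg x (h hx) hxi

lemma levelSubgroup_le_inertiaLevel (F : IntermediateField ℚ Qbar) :
    levelSubgroup q F ≤ inertiaLevel q F := by
  intro g hg x hx _
  have h1 : primeLocalToGlobal q g x = x :=
    (IntermediateField.mem_fixingSubgroup_iff F _).1 hg x hx
  rw [h1, sub_self]
  exact (ValuationSubring.mem_nonunits_iff _).2 (by rw [map_zero]; exact zero_lt_one)

/-- The finite-level description of `inertiaLevel`. -/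
lemma inertiaLevel_eq_comap (F : IntermediateField ℚ Qbar) [NumberField F] [Normal ℚ F] :
    inertiaLevel q F = ((primeAt (primeLocalPlace q) F).inertia (F ≃ₐ[ℚ] F)).comap
      ((AlgEquiv.restrictNormalHom F).comp (primeLocalToGlobal q)) := by
  ext g
  rw [mem_inertiaLevel, Subgroup.mem_comap]
  constructor
  · intro h y
    show ((AlgEquiv.restrictNormalHom F).comp (primeLocalToGlobal q)) g • y - y
      ∈ primeAt (primeLocalPlace q) F
    rw [mem_primeAt, map_sub, MonoidHom.comp_apply, intIncl_restrictNormal_smul]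
    exact (ValuationSubring.mem_nonunits_iff _).1
      (h (intIncl F y) (SetLike.coe_mem (y : F)) (isIntegral_intIncl F y))
  · intro hg x hx hxi
    have hxi' : IsIntegral ℤ (⟨x, hx⟩ : F) := by
      refine (isIntegral_algebraMap_iff (B := Qbar) ?_).1 hxi
      exact (algebraMap F Qbar).injective
    obtain ⟨y, hy⟩ : ∃ y : 𝓞 F, intIncl F y = x := ⟨⟨⟨x, hx⟩, hxi'⟩, rfl⟩
    have h1 : ((AlgEquiv.restrictNormalHom F).comp (primeLocalToGlobal q)) g • y - y
        ∈ primeAt (primeLocalPlace q) F := hg y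
    rw [mem_primeAt, map_sub, MonoidHom.comp_apply, intIncl_restrictNormal_smul, hy] at h1
    exact (ValuationSubring.mem_nonunits_iff _).2 h1

/-- Lifting: an element of `inertiaLevel q F` is the product of an element of the inertia group
of the place and an element fixing `F`. -/
lemma exists_inertia_mul_of_mem_inertiaLevel (F : IntermediateField ℚ Qbar) [Normal ℚ F]
    {g : primeLocalGaloisGroup q} (hg : g ∈ inertiaLevel q F) :
    ∃ σ ∈ (primeLocalPlace q).inertiaSubgroupIn ℚ, ∃ s ∈ F.fixingSubgroup,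
      primeLocalToGlobal q g = σ * s := by
  obtain ⟨σ, hσ, hσF⟩ := Fermat.Agent.Lib.InertiaLift.exists_mem_inertiaSubgroupIn_eqOn
    (q : ℕ) q.2 (primeLocalPlace q) (primeLocalPlace_liesOver q) F (primeLocalToGlobal q g) hg
  refine ⟨σ, hσ, σ⁻¹ * primeLocalToGlobal q g, ?_, ?_⟩
  · rw [IntermediateField.mem_fixingSubgroup_iff]
    intro x hx
    show σ⁻¹ (primeLocalToGlobal q g x) = x
    rw [← hσF x hx]
    exact σ.symm_apply_apply x
  · rw [mul_inv_cancel_left]

end level

section classes

variable {k : Type} [Field k] (M : Rep k GQ) (q : Nat.Primes)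

/-- The classes of the cocycles vanishing on `inertiaLevel q F`. -/
noncomputable def unrH1 (F : IntermediateField ℚ Qbar) : Submodule k (H1 (locRep M q)) :=
  (unrCocycles (locRep M q) (inertiaLevel q F)).map (H1π (locRep M q)).hom

lemma unrH1_mono {F F' : IntermediateField ℚ Qbar} (h : F ≤ F') :
    unrH1 M q F ≤ unrH1 M q F' :=
  Submodule.map_mono (unrCocycles_anti _ (inertiaLevel_anti q h))

lemma unrH1_le_locH1 (F : IntermediateField ℚ Qbar) [FiniteDimensional ℚ F] :
    unrH1 M q F ≤ locH1 M q := by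
  rintro x ⟨c, hc, rfl⟩
  refine H1π_mem_continuousH1 _ _ ⟨F, inferInstance, fun g s hs => ?_⟩
  have hs' : s ∈ inertiaLevel q F := levelSubgroup_le_inertiaLevel q F hs
  have h0 : (c : cocycles₁ (locRep M q)) s = 0 := hc s hs'
  rw [cocycle_mul, h0, map_zero, zero_add]

theorem finrank_unrH1_le [FiniteDimensional k M] (F : IntermediateField ℚ Qbar)
    [FiniteDimensional ℚ F] [Normal ℚ F] :
    Module.Finite k (unrH1 M q F) ∧
      Module.finrank k (unrH1 M q F) ≤ Module.finrank k (locRep M q).ρ.invariants := by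
  haveI : NumberField F :=
    { to_charZero := inferInstance, to_finiteDimensional := inferInstance }
  haveI : Fact (q : ℕ).Prime := ⟨q.2⟩
  have hA : ((q : ℕ) : Qbar) ∈ (primeLocalPlace q).nonunits := primeLocalPlace_liesOver q
  have hq0 : (q : ℕ) ≠ 0 := q.2.ne_zero
  haveI : (primeAt (primeLocalPlace q) F).IsMaximal := primeAt_isMaximal _ _ hq0 hA
  haveI : Finite (𝓞 F ⧸ primeAt (primeLocalPlace q) F) := finite_quotient_primeAt _ _ hq0 hA
  haveI : CharP (𝓞 F ⧸ primeAt (primeLocalPlace q) F) (q : ℕ) :=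
    charP_quotient_primeAt _ _ q.2 hA
  unfold unrH1
  rw [inertiaLevel_eq_comap]
  refine finrank_map_unrCocycles_comap_le (locRep M q) (primeAt (primeLocalPlace q) F) (q : ℕ)
    ((AlgEquiv.restrictNormalHom F).comp (primeLocalToGlobal q)) ?_
  intro g x
  rw [mem_primeAt, mem_primeAt, MonoidHom.comp_apply, intIncl_restrictNormal_smul]
  exact Fermat.Agent.Lib.InertiaBridge.valuation_map_lt_one_iff _ _
    (primeLocalToGlobal_mem_decomposition q g) _

/-- The union of the `unrH1 M q F` over the finite Galois extensions `F`. -/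
noncomputable def unrH1All : Submodule k (H1 (locRep M q)) :=
  ⨆ F : {F : IntermediateField ℚ Qbar // FiniteDimensional ℚ F ∧ Normal ℚ F}, unrH1 M q F.1

lemma unrH1_le_unrH1All (F : IntermediateField ℚ Qbar) [hfd : FiniteDimensional ℚ F]
    [hn : Normal ℚ F] : unrH1 M q F ≤ unrH1All M q :=
  le_iSup (fun F : {F : IntermediateField ℚ Qbar // FiniteDimensional ℚ F ∧ Normal ℚ F} =>
    unrH1 M q F.1) ⟨F, hfd, hn⟩

lemma unrH1All_le_locH1 : unrH1All M q ≤ locH1 M q := by
  refine iSup_le ?_
  rintro ⟨F, hfd, hn⟩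
  haveI := hfd
  exact unrH1_le_locH1 M q F

theorem finrank_unrH1All_le [FiniteDimensional k M] :
    Module.Finite k (unrH1All M q) ∧
      Module.finrank k (unrH1All M q) ≤ Module.finrank k (locRep M q).ρ.invariants := by
  haveI : Nonempty {F : IntermediateField ℚ Qbar // FiniteDimensional ℚ F ∧ Normal ℚ F} :=
    ⟨⟨⊥, inferInstance, Normal.of_algEquiv (IntermediateField.botEquiv ℚ Qbar).symm⟩⟩
  refine finrank_iSup_le_of_directed _ ?_ _ ?_
  · rintro ⟨F, hfd, hn⟩ ⟨F', hfd', hn'⟩
    haveI := hfd
    haveI := hfd'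
    refine ⟨⟨F ⊔ F', IntermediateField.finiteDimensional_sup F F',
      @IntermediateField.normal_sup ℚ Qbar _ _ _ F F' hn hn'⟩, ?_, ?_⟩
    · exact unrH1_mono M q le_sup_left
    · exact unrH1_mono M q le_sup_right
  · rintro ⟨F, hfd, hn⟩
    haveI := hfd
    haveI := hn
    exact finrank_unrH1_le M q F

/-- The restriction of a global cocycle vanishing on the inertia group of the place and on the
fixing subgroup of a finite Galois extension is unramified. -/
theorem resAt_H1π_mem_unrH1All (c : cocycles₁ M) (F : IntermediateField ℚ Qbar)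
    [FiniteDimensional ℚ F] [Normal ℚ F] (hF : ∀ s ∈ F.fixingSubgroup, c s = 0)
    (hI : ∀ σ ∈ (primeLocalPlace q).inertiaSubgroupIn ℚ, c σ = 0) :
    resAt M q ((H1π M).hom c) ∈ unrH1All M q := by
  rw [Fermat.Agent.S56.Dict.H85.resAt_H1π]
  refine unrH1_le_unrH1All M q F (Submodule.mem_map_of_mem ?_)
  intro g hg
  obtain ⟨σ, hσ, s, hs, hgs⟩ := exists_inertia_mul_of_mem_inertiaLevel q F hg
  rw [Fermat.Agent.S56.Dict.H85.resCocycle_apply, hgs, cocycle_mul, hF s hs, hI σ hσ, map_zero,
    zero_add]

end classes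

end Fermat.Agent.S56.LocMin

end
-- ==== END Fermat.Agent.S56.LocMin.H85_Level
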