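-- GENERATED (merged mirror, NOTES/tools/trim/merge3_helper67.py): 6 modules of the originals, bodies verbatim.
import Mathlib
import Fermat.Agent.Zm.S56_L10_005
import Fermat.Agent.Zm.S56_L10_006
import Fermat.Agent.Zm.S56_L09_005
import Fermat.Agent.Zm.S56_L09_004
import Fermat.Agent.Zm.S56_L10_004
import Fermat.Agent.Zm.S56_L10_008
import Fermat.Agent.Zm.S56_L05_004
import Fermat.Agent.Zm.S48_L01_000
import Fermat.Agent.Zm.S56_L04_005

-- ==== BEGIN Fermat.Agent.S55.CFT.GS.H49_Real2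
section

set_option autoImplicit false
set_option linter.unusedSectionVars false

open CategoryTheory groupCohomology ExtCitation

open scoped Pointwise

noncomputable section

namespace Fermat.Agent.S55.CFT.GS.H49

open Fermat.Agent.S55 Fermat.Agent.S55.Top Fermat.Agent.S55.CFT Fermat.Agent.S55.CFT.GS.Bri

local notation "Qb" => AlgebraicClosure ℚ

attribute [local instance 10000] smulGalUnits

variable {K N : IntermediateField ℚ Qb} (hKN : K ≤ N)
  [NumberField ↥K] [NumberField ↥(H6.NK hKN)] [Normal ↥K ↥(H6.NK hKN)]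

/-! ### Inflation of 1- and 2-cochains -/

omit [NumberField ↥K] [NumberField ↥(H6.NK hKN)] [Normal ↥K ↥(H6.NK hKN)] in
theorem val_add {L X : Type} [CommGroup L] [CommGroup X] (v : L →* X) (a b : Additive L) :
    v (Additive.toMul (a + b)) = v (Additive.toMul a) * v (Additive.toMul b) := by
  simp only [toMul_add, map_mul]

omit [NumberField ↥K] [NumberField ↥(H6.NK hKN)] [Normal ↥K ↥(H6.NK hKN)] in
theorem val_sub {L X : Type} [CommGroup L] [CommGroup X] (v : L →* X) (a b : Additive L) :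
    v (Additive.toMul (a - b)) = v (Additive.toMul a) / v (Additive.toMul b) := by
  simp only [toMul_sub, map_div]

omit [NumberField ↥K] [NumberField ↥(H6.NK hKN)] [Normal ↥K ↥(H6.NK hKN)] in
theorem val_nsmul {L X : Type} [CommGroup L] [CommGroup X] (v : L →* X) (n : ℕ)
    (a : Additive L) :
    v (Additive.toMul (n • a)) = v (Additive.toMul a) ^ n := by
  simp only [toMul_nsmul, map_pow]

omit [NumberField ↥K] [NumberField ↥(H6.NK hKN)] [Normal ↥K ↥(H6.NK hKN)] in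
theorem val_d2 {L X : Type} [CommGroup L] [CommGroup X] (v : L →* X) (a b c d : Additive L) :
    v (Additive.toMul (a - b + c - d)) =
      v (Additive.toMul a) / v (Additive.toMul b) * v (Additive.toMul c) /
        v (Additive.toMul d) := by
  simp only [toMul_sub, toMul_add, map_mul, map_div]

omit [NumberField ↥K] [NumberField ↥(H6.NK hKN)] [Normal ↥K ↥(H6.NK hKN)] in
theorem val_d1 {L X : Type} [CommGroup L] [CommGroup X] (v : L →* X) (a b c : Additive L) :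
    v (Additive.toMul (a - b + c)) =
      v (Additive.toMul a) / v (Additive.toMul b) * v (Additive.toMul c) := by
  simp only [toMul_sub, toMul_add, map_mul, map_div]

/-- The inflation to `G_K` of a 1-cochain of `Gal(N/K)` with values in `Nˣ`. -/
def infl₁ (b : (↥(H6.NK hKN) ≃ₐ[↥K] ↥(H6.NK hKN)) → (repL ↥K ↥(H6.NK hKN))) :
    ↥K.fixingSubgroup → Qbˣ :=
  fun g => valU hKN (Additive.toMul (b (resG hKN g)))

theorem infl₂_apply (f : (↥(H6.NK hKN) ≃ₐ[↥K] ↥(H6.NK hKN)) ×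
      (↥(H6.NK hKN) ≃ₐ[↥K] ↥(H6.NK hKN)) → (repL ↥K ↥(H6.NK hKN)))
    (g₁ g₂ : ↥K.fixingSubgroup) :
    infl₂ hKN f (g₁, g₂) = valU hKN (Additive.toMul (f (resG hKN g₁, resG hKN g₂))) := rfl

theorem infl₂_injective : Function.Injective (infl₂ hKN) := by
  intro f f' h
  funext ⟨τ₁, τ₂⟩
  have h1 := congrFun h (liftG hKN τ₁, liftG hKN τ₂)
  rw [infl₂_apply, infl₂_apply, resG_liftG, resG_liftG] at h1
  exact Additive.toMul.injective (valU_injective hKN h1)

theorem isLevN₂_infl₂ (f : (↥(H6.NK hKN) ≃ₐ[↥K] ↥(H6.NK hKN)) ×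
      (↥(H6.NK hKN) ≃ₐ[↥K] ↥(H6.NK hKN)) → (repL ↥K ↥(H6.NK hKN))) :
    IsLevN₂ K N (infl₂ hKN f) := by
  refine ⟨fun g₁ g₂ s₁ s₂ h₁ h₂ => ?_, fun t => valU_mem hKN _⟩
  rw [infl₂_apply, infl₂_apply, resG_mul_of_mem hKN g₁ s₁ h₁, resG_mul_of_mem hKN g₂ s₂ h₂]

theorem isLevN₁_infl₁ (b : (↥(H6.NK hKN) ≃ₐ[↥K] ↥(H6.NK hKN)) → (repL ↥K ↥(H6.NK hKN))) :
    IsLevN₁ K N (infl₁ hKN b) := by
  refine ⟨fun g s h => ?_, fun t => valU_mem hKN _⟩
  show valU hKN _ = valU hKN _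
  rw [resG_mul_of_mem hKN g s h]

/-- `d²` commutes with inflation. -/
theorem mTwo_infl₂ (f : (↥(H6.NK hKN) ≃ₐ[↥K] ↥(H6.NK hKN)) ×
      (↥(H6.NK hKN) ≃ₐ[↥K] ↥(H6.NK hKN)) → (repL ↥K ↥(H6.NK hKN)))
    (g₁ g₂ g₃ : ↥K.fixingSubgroup) :
    mTwo (infl₂ hKN f) (g₁, g₂, g₃) =
      valU hKN (Additive.toMul
        ((d₂₃ (repL ↥K ↥(H6.NK hKN))).hom f (resG hKN g₁, resG hKN g₂, resG hKN g₃))) := by
  rw [d₂₃_hom_apply]
  refine Eq.trans ?_ (val_d2 (valU hKN) _ _ _ _).symm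
  simp only [mTwo, infl₂_apply, map_mul]
  rw [← valU_smul]
  rfl

/-- `d¹` commutes with inflation. -/
theorem mOne_infl₁ (b : (↥(H6.NK hKN) ≃ₐ[↥K] ↥(H6.NK hKN)) → (repL ↥K ↥(H6.NK hKN)))
    (g₁ g₂ : ↥K.fixingSubgroup) :
    mOne (infl₁ hKN b) (g₁, g₂) =
      valU hKN (Additive.toMul
        ((d₁₂ (repL ↥K ↥(H6.NK hKN))).hom b (resG hKN g₁, resG hKN g₂))) := by
  rw [d₁₂_hom_apply]
  refine Eq.trans ?_ (val_d1 (valU hKN) _ _ _).symm
  simp only [mOne, infl₁, map_mul]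
  rw [← valU_smul]
  rfl

theorem mOne_infl₁' (b : (↥(H6.NK hKN) ≃ₐ[↥K] ↥(H6.NK hKN)) → (repL ↥K ↥(H6.NK hKN))) :
    mOne (infl₁ hKN b) = infl₂ hKN ((d₁₂ (repL ↥K ↥(H6.NK hKN))).hom b) := by
  funext ⟨g₁, g₂⟩
  rw [mOne_infl₁, infl₂_apply]

/-- A 2-cochain is a cocycle iff its inflation is. -/
theorem mem_cocycles₂_iff_mTwo (f : (↥(H6.NK hKN) ≃ₐ[↥K] ↥(H6.NK hKN)) ×
      (↥(H6.NK hKN) ≃ₐ[↥K] ↥(H6.NK hKN)) → (repL ↥K ↥(H6.NK hKN))) :
    f ∈ cocycles₂ (repL ↥K ↥(H6.NK hKN)) ↔ mTwo (infl₂ hKN f) = 1 := by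
  constructor
  · intro hf
    funext ⟨g₁, g₂, g₃⟩
    rw [mTwo_infl₂]
    have h0 : (d₂₃ (repL ↥K ↥(H6.NK hKN))).hom f = 0 := hf
    rw [h0]
    exact map_one (valU hKN)
  · intro h
    show (d₂₃ (repL ↥K ↥(H6.NK hKN))).hom f = 0
    funext ⟨τ₁, τ₂, τ₃⟩
    have h1 := congrFun h (liftG hKN τ₁, liftG hKN τ₂, liftG hKN τ₃)
    rw [mTwo_infl₂, resG_liftG, resG_liftG, resG_liftG] at h1
    have h2 : valU hKN (Additive.toMul
        ((d₂₃ (repL ↥K ↥(H6.NK hKN))).hom f (τ₁, τ₂, τ₃))) = valU hKN 1 := by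
      rw [h1, map_one]; rfl
    exact Additive.toMul.injective (valU_injective hKN h2)

/-! ### Descent of cochains of level `N` -/

/-- The 2-cochain of `Gal(N/K)` defined by an `N`-valued 2-cochain on `G_K`. -/
def desc₂ (c : ↥K.fixingSubgroup × ↥K.fixingSubgroup → Qbˣ) (hc : ∀ t, (c t : Qb) ∈ N) :
    (↥(H6.NK hKN) ≃ₐ[↥K] ↥(H6.NK hKN)) × (↥(H6.NK hKN) ≃ₐ[↥K] ↥(H6.NK hKN)) →
      (repL ↥K ↥(H6.NK hKN)) :=
  fun t => Additive.ofMul (unitOf hKN (c (liftG hKN t.1, liftG hKN t.2)) (hc _))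

/-- The 1-cochain of `Gal(N/K)` defined by an `N`-valued 1-cochain on `G_K`. -/
def desc₁ (b : ↥K.fixingSubgroup → Qbˣ) (hb : ∀ t, (b t : Qb) ∈ N) :
    (↥(H6.NK hKN) ≃ₐ[↥K] ↥(H6.NK hKN)) → (repL ↥K ↥(H6.NK hKN)) :=
  fun t => Additive.ofMul (unitOf hKN (b (liftG hKN t)) (hb _))

theorem infl₂_desc₂ (c : ↥K.fixingSubgroup × ↥K.fixingSubgroup → Qbˣ) (hc : IsLevN₂ K N c) :
    infl₂ hKN (desc₂ hKN c hc.2) = c := by
  funext ⟨g₁, g₂⟩
  obtain ⟨s₁, hs₁, e₁⟩ := liftG_resG hKN g₁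
  obtain ⟨s₂, hs₂, e₂⟩ := liftG_resG hKN g₂
  rw [infl₂_apply]
  show valU hKN (unitOf hKN _ _) = _
  rw [valU_unitOf]
  show c (liftG hKN (resG hKN g₁), liftG hKN (resG hKN g₂)) = c (g₁, g₂)
  rw [e₁, e₂]
  exact hc.1 g₁ g₂ s₁ s₂ hs₁ hs₂

theorem infl₁_desc₁ (b : ↥K.fixingSubgroup → Qbˣ) (hb : IsLevN₁ K N b) :
    infl₁ hKN (desc₁ hKN b hb.2) = b := by
  funext g
  obtain ⟨s, hs, e⟩ := liftG_resG hKN g
  show valU hKN (unitOf hKN _ _) = _
  rw [valU_unitOf]
  show b (liftG hKN (resG hKN g)) = b g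
  rw [e]
  exact hb.1 g s hs

/-! ### Additivity -/

theorem infl₂_add (f f' : (↥(H6.NK hKN) ≃ₐ[↥K] ↥(H6.NK hKN)) ×
      (↥(H6.NK hKN) ≃ₐ[↥K] ↥(H6.NK hKN)) → (repL ↥K ↥(H6.NK hKN))) :
    infl₂ hKN (f + f') = fun t => infl₂ hKN f t * infl₂ hKN f' t := by
  funext ⟨g₁, g₂⟩
  exact val_add (valU hKN) _ _

theorem infl₂_sub (f f' : (↥(H6.NK hKN) ≃ₐ[↥K] ↥(H6.NK hKN)) ×
      (↥(H6.NK hKN) ≃ₐ[↥K] ↥(H6.NK hKN)) → (repL ↥K ↥(H6.NK hKN))) :
    infl₂ hKN (f - f') = fun t => infl₂ hKN f t / infl₂ hKN f' t := by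
  funext ⟨g₁, g₂⟩
  exact val_sub (valU hKN) _ _

theorem infl₂_nsmul (n : ℕ) (f : (↥(H6.NK hKN) ≃ₐ[↥K] ↥(H6.NK hKN)) ×
      (↥(H6.NK hKN) ≃ₐ[↥K] ↥(H6.NK hKN)) → (repL ↥K ↥(H6.NK hKN))) :
    infl₂ hKN (n • f) = fun t => infl₂ hKN f t ^ n := by
  funext ⟨g₁, g₂⟩
  exact val_nsmul (valU hKN) n _

end Fermat.Agent.S55.CFT.GS.H49

end

end
-- ==== END Fermat.Agent.S55.CFT.GS.H49_Real2

-- ==== BEGIN Fermat.Agent.S56.H57_Shape
section

/-!
# S56, leaf LOC-p-SO (helper57): the shape of a strict-ordinary first-order deformation at `p`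

For a first-order deformation `ρx = (1 + ε c) ρbar` which is strict ordinary at `p` with cyclotomic
determinant (`p` odd) there are `v₀ ≠ 0` and `v₁` in `V̄` such that
* `k v₀` is a *strict-ordinary line* of `ρbar` at the place `P` (`IsSOLine`);
* for every `m` with `m v₀ = v₁` the cocycle `c + ∂m` has values, on the decomposition group, in
  the endomorphisms killing `v₀` with image in `k v₀`.
-/

set_option autoImplicit false
set_option linter.unusedSectionVars false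
set_option linter.unusedVariables false

noncomputable section

namespace Fermat.Agent.S56.H57

open Fermat.Agent.S53 TrivSqZeroExt IsLocalRing groupCohomology ExtCitation Fermat.Agent.S56.Dict
  Fermat.Agent.S56.Dict.H85
open scoped TensorProduct

section Cyclo

variable (p : ℕ) [Fact p.Prime]

/-- the value in `k` of the mod `p` cyclotomic character -/
def omegaK (k : Type) [Field k] [CharP k p] (σ : _root_.Fermat.Agent.S56.GQ) : k := ((cycloK p k σ : (k)ˣ) : k)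

theorem locCycK_eq (k : Type) [Field k] [CharP k p] (s : PadicAlgCl p ≃ₐ[ℚ_[p]] PadicAlgCl p) :
    locCycK p k s = omegaK p k (localGaloisToGlobal p s) := rfl

theorem omegaK_ne_zero (k : Type) [Field k] [CharP k p] (σ : _root_.Fermat.Agent.S56.GQ) : omegaK p k σ ≠ 0 :=
  Units.ne_zero _

theorem omegaK_mul (k : Type) [Field k] [CharP k p] (σ τ : _root_.Fermat.Agent.S56.GQ) :
    omegaK p k (σ * τ) = omegaK p k σ * omegaK p k τ := by
  unfold omegaK
  rw [map_mul, Units.val_mul]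

theorem omegaK_eq_natCast (k : Type) [Field k] [CharP k p] (σ : _root_.Fermat.Agent.S56.GQ) :
    omegaK p k σ = ((cycloExp p σ : ℕ) : k) := by
  unfold omegaK cycloK
  rw [MonoidHom.comp_apply, Units.coe_map, MonoidHom.coe_coe, coe_cycloChar, map_natCast]

theorem map_root_eq_pow (σ : _root_.Fermat.Agent.S56.GQ) (μ : AlgebraicClosure ℚ) (hμ : μ ^ p ^ 1 = 1) :
    σ μ = μ ^ cycloExp p σ := by
  have : NeZero p := ⟨(Fact.out : p.Prime).ne_zero⟩
  rw [pow_one] at hμ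
  have hμ0 : μ ≠ 0 := by
    rintro rfl
    rw [zero_pow (Fact.out : p.Prime).ne_zero] at hμ
    exact zero_ne_one hμ
  have ht : Units.mk0 μ hμ0 ∈ rootsOfUnity p (AlgebraicClosure ℚ) := by
    rw [mem_rootsOfUnity]
    ext
    simpa using hμ
  have := modularCyclotomicCharacter.spec (L := AlgebraicClosure ℚ) (card_rootsOfUnity_eq_self p)
    (σ : AlgebraicClosure ℚ ≃+* AlgebraicClosure ℚ) ht
  simpa [cycloExp] using this

theorem omegaK_eq_one_of_fix (k : Type) [Field k] [CharP k p] (σ : _root_.Fermat.Agent.S56.GQ)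
    (h : ∀ t : AlgebraicClosure ℚ, t ^ p = 1 → σ t = t) : omegaK p k σ = 1 := by
  unfold omegaK
  rw [H47.cycloK_eq_one_of_fix p k σ h, Units.val_one]

end Cyclo

section SOLine

variable (p : ℕ) [Fact p.Prime] {k : Type} [Field k] [CharP k p] (ρbar : ResidualGaloisRep k)

/-- `k v₀` is a strict-ordinary line of `ρbar` at the place `P`. -/
def IsSOLine (P : ValuationSubring (AlgebraicClosure ℚ)) (v₀ : ρbar.V) : Prop :=
  v₀ ≠ 0 ∧
  (∀ σ ∈ P.inertiaSubgroupIn ℚ, ∀ v : ρbar.V, ∃ t : k, ρbar.ρ σ v - v = t • v₀) ∧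
  ∀ σ ∈ P.decompositionSubgroup ℚ, ∃ z : k, z * z = 1 ∧
    ρbar.ρ σ v₀ = (omegaK p k σ * z) • v₀ ∧ ∀ v : ρbar.V, ∃ t : k, ρbar.ρ σ v - z • v = t • v₀

end SOLine

section Shape

variable (p : ℕ) [Fact p.Prime] {k : Type} [Field k] [CharP k p]

omit [Fact p.Prime] in
theorem natCast_dual_eq_zero : ((p : ℕ) : DualNumber k) = 0 := by
  ext
  · simp
  · simp

theorem span_p_eq_bot : Ideal.span {(((p ^ 1 : ℕ) : ℕ) : DualNumber k)} = ⊥ := by
  rw [pow_one, natCast_dual_eq_zero, Ideal.span_singleton_eq_bot]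

theorem eps_ne_zero' : (DualNumber.eps : DualNumber k) ≠ 0 := by
  intro h
  have := congrArg TrivSqZeroExt.snd h
  simp at this

variable {p}

/-- the determinant of an endomorphism which is triangular in a basis -/
theorem det_of_triangular {A : Type} [CommRing A] {M : Type} [AddCommGroup M] [Module A M]
    (b : Module.Basis (Fin 2) A M) (f : Module.End A M) (x z l : A)
    (h0 : f (b 0) = x • b 0) (h1 : f (b 1) = z • b 1 + l • b 0) :
    LinearMap.det f = x * z := by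
  rw [← LinearMap.det_toMatrix b, Matrix.det_fin_two]
  have e00 : LinearMap.toMatrix b b f 0 0 = x := by
    rw [LinearMap.toMatrix_apply, h0]; simp
  have e10 : LinearMap.toMatrix b b f 1 0 = 0 := by
    rw [LinearMap.toMatrix_apply, h0]; simp
  have e11 : LinearMap.toMatrix b b f 1 1 = z := by
    rw [LinearMap.toMatrix_apply, h1]; simp
  rw [e00, e10, e11, mul_zero, sub_zero]

variable (p)

/-- the arithmetic of the two characters: `z` is a sign and `x = ω z`, both in `k` -/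
theorem char_facts (hp2 : p ≠ 2) (a : ℕ) (ha : (a : k) ≠ 0) (xs zs : DualNumber k)
    (h1 : xs = (a : DualNumber k) * zs) (h2 : xs * zs = (a : DualNumber k)) :
    zs.snd = 0 ∧ zs.fst * zs.fst = 1 ∧ xs.snd = 0 ∧ xs.fst = (a : k) * zs.fst := by
  have h2ne : (2 : k) ≠ 0 := by
    intro h
    have h' : ((2 : ℕ) : k) = 0 := by exact_mod_cast h
    rw [CharP.cast_eq_zero_iff k p] at h'
    have := (Nat.prime_dvd_prime_iff_eq (Fact.out : p.Prime) Nat.prime_two).1 h'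
    exact hp2 this
  rw [h1] at h2
  have hf := congrArg TrivSqZeroExt.fst h2
  have hs := congrArg TrivSqZeroExt.snd h2
  simp only [TrivSqZeroExt.fst_mul, TrivSqZeroExt.snd_mul, TrivSqZeroExt.fst_natCast,
    TrivSqZeroExt.snd_natCast, smul_eq_mul, MulOpposite.smul_eq_mul_unop, MulOpposite.unop_op,
    zero_mul, add_zero] at hf hs
  have hz1 : zs.fst * zs.fst = 1 := by
    have : (a : k) * (zs.fst * zs.fst) = (a : k) * 1 := by rw [mul_one, ← mul_assoc]; exact hf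
    exact mul_left_cancel₀ ha this
  have hz0 : zs.fst ≠ 0 := by
    intro h
    rw [h, mul_zero] at hz1
    exact zero_ne_one hz1
  have hzs : zs.snd = 0 := by
    have : (a : k) * 2 * zs.fst * zs.snd = 0 := by rw [← hs]; ring
    have h3 : (a : k) * 2 * zs.fst ≠ 0 := mul_ne_zero (mul_ne_zero ha h2ne) hz0
    exact (mul_eq_zero.1 this).resolve_left h3
  refine ⟨hzs, hz1, ?_, ?_⟩
  · rw [h1]
    simp [hzs]
  · rw [h1]
    simp

theorem mem_decomposition_of_mem_inertia (P : ValuationSubring (AlgebraicClosure ℚ)) (σ : _root_.Fermat.Agent.S56.GQ)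
    (hσ : σ ∈ P.inertiaSubgroupIn ℚ) : σ ∈ P.decompositionSubgroup ℚ := by
  obtain ⟨τ, -, rfl⟩ := Subgroup.mem_map.1 hσ
  exact τ.2

theorem rho_rho_inv (ρbar : ResidualGaloisRep k) (σ : _root_.Fermat.Agent.S56.GQ) (v : ρbar.V) :
    ρbar.ρ σ (ρbar.ρ σ⁻¹ v) = v := by
  have := rho_inv_rho ρbar σ⁻¹ v
  rwa [inv_inv] at this

/-- **The shape of a strict-ordinary first-order deformation.** -/
theorem exists_shape (hp2 : p ≠ 2) (ρbar : ResidualGaloisRep k)
    (ρx : GaloisRepAdic (DualNumber k)) (c : _root_.Fermat.Agent.S56.GQ → Module.End k ρbar.V)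
    (θ : (DualNumber k ⊗[k] ρbar.V) ≃ₗ[DualNumber k] ρx.V)
    (hθ : ∀ (σ : _root_.Fermat.Agent.S56.GQ) (v : ρbar.V), ρx.ρ σ (θ ((1 : DualNumber k) ⊗ₜ[k] v)) =
      θ ((1 : DualNumber k) ⊗ₜ[k] (ρbar.ρ σ v) +
        (DualNumber.eps : DualNumber k) ⊗ₜ[k] (c σ (ρbar.ρ σ v))))
    (hdet : ρx.DetIsCyclotomic p) (hso : ρx.IsStrictOrdinaryAt p)
    (P : ValuationSubring (AlgebraicClosure ℚ)) (hP : P.LiesOverPrime p) :
    ∃ v₀ v₁ : ρbar.V, IsSOLine p ρbar P v₀ ∧
      ∀ σ ∈ P.decompositionSubgroup ℚ, ∀ m : Module.End k ρbar.V, m v₀ = v₁ →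
        (c σ + ρbar.ρ σ ∘ₗ m ∘ₗ ρbar.ρ σ⁻¹ - m) v₀ = 0 ∧
        ∀ v : ρbar.V, ∃ t : k, (c σ + ρbar.ρ σ ∘ₗ m ∘ₗ ρbar.ρ σ⁻¹ - m) v = t • v₀ := by
  obtain ⟨L, ⟨b, hL⟩, hD, hI, hchar⟩ := hso.2 P hP
  have hb0 : b 0 ∈ L := by rw [hL]; exact Submodule.mem_span_singleton_self _
  obtain ⟨v₀, hv₀⟩ : ∃ v₀, v₀ = co₁ ρbar ρx θ (b 0) := ⟨_, rfl⟩
  obtain ⟨v₁, hv₁⟩ : ∃ v₁, v₁ = co₂ ρbar ρx θ (b 0) := ⟨_, rfl⟩
  -- `v₀ ≠ 0`
  have hv₀ne : v₀ ≠ 0 := by
    intro h0
    have e1 := eq_theta_co ρbar ρx θ (b 0)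
    rw [← hv₀, ← hv₁, h0, TensorProduct.tmul_zero, zero_add] at e1
    have e2 : (DualNumber.eps : DualNumber k) • b 0 = 0 := by
      rw [e1, ← map_smul, eps_smul_eps_tmul, map_zero]
    have e3 := congrArg (fun y => b.repr y 0) e2
    simp only [map_smul, Module.Basis.repr_self, Finsupp.smul_apply, Finsupp.single_eq_same,
      smul_eq_mul, mul_one, map_zero, Finsupp.coe_zero, Pi.zero_apply] at e3
    exact eps_ne_zero' e3
  -- the data at an element of the decomposition group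
  have key : ∀ σ ∈ P.decompositionSubgroup ℚ, ∃ z : k, z * z = 1 ∧
      ρbar.ρ σ v₀ = (omegaK p k σ * z) • v₀ ∧
      c σ (ρbar.ρ σ v₀) + ρbar.ρ σ v₁ = (omegaK p k σ * z) • v₁ ∧
      ∀ v : ρbar.V, ∃ a₀ a₁ : k, ρbar.ρ σ v - z • v = a₀ • v₀ ∧
        c σ (ρbar.ρ σ v) = a₀ • v₁ + a₁ • v₀ := by
    intro σ hσ
    obtain ⟨xs, zs, hx, hz, hcyc⟩ := hchar σ hσ
    have hroot := map_root_eq_pow p σ
    have h1 : xs = ((cycloExp p σ : ℕ) : DualNumber k) * zs := by
      have := hcyc 1 (cycloExp p σ) hroot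
      rw [span_p_eq_bot, Ideal.mem_bot, sub_eq_zero] at this
      exact this
    have h2 : LinearMap.det (ρx.ρ σ) = ((cycloExp p σ : ℕ) : DualNumber k) := by
      have := hdet.2 1 σ (cycloExp p σ) hroot
      rw [span_p_eq_bot, Ideal.mem_bot, sub_eq_zero] at this
      exact this
    have hb1 := hz (b 1)
    rw [hL, Submodule.mem_span_singleton] at hb1
    obtain ⟨l, hl⟩ := hb1
    have h3 : LinearMap.det (ρx.ρ σ) = xs * zs :=
      det_of_triangular b (ρx.ρ σ) xs zs l (hx (b 0) hb0) (by rw [hl]; abel)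
    have ha : ((cycloExp p σ : ℕ) : k) ≠ 0 := by
      rw [← omegaK_eq_natCast]
      exact omegaK_ne_zero p k σ
    obtain ⟨hzs, hz1, hxs, hxf⟩ := char_facts p hp2 (cycloExp p σ) ha xs zs h1 (by rw [← h3, h2])
    rw [← omegaK_eq_natCast] at hxf
    refine ⟨zs.fst, hz1, ?_, ?_, ?_⟩
    · have e := congrArg (co₁ ρbar ρx θ) (hx (b 0) hb0)
      rw [co₁_rho hθ, co₁_smul, ← hv₀, hxf] at e
      exact e
    · have e := congrArg (co₂ ρbar ρx θ) (hx (b 0) hb0)
      rw [co₂_rho hθ, co₂_smul, ← hv₀, ← hv₁, hxs, zero_smul, add_zero, hxf] at e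
      exact e
    · intro v
      have hy := hz (θ ((1 : DualNumber k) ⊗ₜ[k] v + (DualNumber.eps : DualNumber k) ⊗ₜ[k] 0))
      rw [hL, Submodule.mem_span_singleton] at hy
      obtain ⟨l', hl'⟩ := hy
      refine ⟨l'.fst, l'.snd, ?_, ?_⟩
      · have e := congrArg (co₁ ρbar ρx θ) hl'
        rw [co₁_smul, co₁_sub, co₁_rho hθ, co₁_smul, co₁_theta, ← hv₀] at e
        exact e.symm
      · have e := congrArg (co₂ ρbar ρx θ) hl'
        rw [co₂_smul, co₂_sub, co₂_rho hθ, co₂_smul, co₁_theta, co₂_theta, ← hv₀, ← hv₁, hzs,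
          map_zero, smul_zero, zero_smul, add_zero, add_zero, sub_zero] at e
        exact e.symm
  refine ⟨v₀, v₁, ⟨hv₀ne, ?_, ?_⟩, ?_⟩
  · -- inertia
    intro σ hσ v
    have hy := hI σ hσ (θ ((1 : DualNumber k) ⊗ₜ[k] v + (DualNumber.eps : DualNumber k) ⊗ₜ[k] 0))
    rw [hL, Submodule.mem_span_singleton] at hy
    obtain ⟨l', hl'⟩ := hy
    refine ⟨l'.fst, ?_⟩
    have e := congrArg (co₁ ρbar ρx θ) hl'
    rw [co₁_smul, co₁_sub, co₁_rho hθ, co₁_theta, ← hv₀] at e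
    exact e.symm
  · intro σ hσ
    obtain ⟨z, hz1, hz2, -, hz4⟩ := key σ hσ
    exact ⟨z, hz1, hz2, fun v => by
      obtain ⟨a₀, -, h, -⟩ := hz4 v
      exact ⟨a₀, h⟩⟩
  · intro σ hσ m hm
    obtain ⟨z, hz1, hz2, hz3, hz4⟩ := key σ hσ
    have hx0 : omegaK p k σ * z ≠ 0 := by
      refine mul_ne_zero (omegaK_ne_zero p k σ) ?_
      intro h
      rw [h, mul_zero] at hz1
      exact zero_ne_one hz1
    -- the value on `ρbar σ v`
    have hval : ∀ v : ρbar.V, (c σ + ρbar.ρ σ ∘ₗ m ∘ₗ ρbar.ρ σ⁻¹ - m) (ρbar.ρ σ v)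
        = c σ (ρbar.ρ σ v) + ρbar.ρ σ (m v) - m (ρbar.ρ σ v) := by
      intro v
      simp only [LinearMap.sub_apply, LinearMap.add_apply, LinearMap.comp_apply, rho_inv_rho]
    have hgen : ∀ v : ρbar.V, ∃ t : k,
        (c σ + ρbar.ρ σ ∘ₗ m ∘ₗ ρbar.ρ σ⁻¹ - m) (ρbar.ρ σ v) = t • v₀ := by
      intro v
      obtain ⟨a₀, a₁, e1, e2⟩ := hz4 v
      obtain ⟨a₀', -, e3, -⟩ := hz4 (m v)
      refine ⟨a₁ + a₀', ?_⟩
      have e4 : ρbar.ρ σ v = z • v + a₀ • v₀ := by rw [← e1]; abel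
      have e5 : ρbar.ρ σ (m v) = z • m v + a₀' • v₀ := by rw [← e3]; abel
      rw [hval, e2, e5, e4, map_add, map_smul, map_smul, hm, add_smul]
      abel
    refine ⟨?_, ?_⟩
    · have e1 : (c σ + ρbar.ρ σ ∘ₗ m ∘ₗ ρbar.ρ σ⁻¹ - m) (ρbar.ρ σ v₀) = 0 := by
        rw [hval, hm]
        have e2 : c σ (ρbar.ρ σ v₀) = (omegaK p k σ * z) • v₁ - ρbar.ρ σ v₁ := by
          rw [← hz3]; abel
        rw [e2, hz2, map_smul, hm]
        abel
      rw [hz2, map_smul] at e1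
      exact (smul_eq_zero.1 e1).resolve_left hx0
    · intro v
      obtain ⟨t, ht⟩ := hgen (ρbar.ρ σ⁻¹ v)
      rw [rho_rho_inv] at ht
      exact ⟨t, ht⟩

end Shape

end Fermat.Agent.S56.H57

end

end
-- ==== END Fermat.Agent.S56.H57_Shape

-- ==== BEGIN Fermat.Agent.S56.LocMin.H85_LocMin
section

/-!
# S56, leaf LOC-min (helper85): `Stmt_loc_min`

At a prime `q ∈ Smin`, `q ≠ p`, the classes of the first-order deformations which are unipotent
on inertia at `q` restrict to unramified classes at `q`; these form a space of dimension at most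
`h⁰(ℚ_q, ad⁰ ρbar)`.
-/

set_option autoImplicit false
set_option linter.unusedSectionVars false
set_option linter.style.haveILetI false

noncomputable section

namespace Fermat.Agent.S56.LocMin

open IsLocalRing CategoryTheory groupCohomology ExtCitation Fermat.Agent.S53 Fermat.Agent.S56
  Fermat.Agent.S56.H9 Fermat.Agent.S56.Dict Fermat.Agent.S56.Dict.H85

local notation "Qbar" => AlgebraicClosure ℚ

section core

variable {𝒪 : Type} [CommRing 𝒪] [IsLocalRing 𝒪]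
variable {ρbar : ResidualGaloisRep (ResidueField 𝒪)} {𝒟 : Cond 𝒪}

/-- `p = 0` in the endomorphism ring of a module over the dual numbers. -/
lemma nsmul_one_end_eq_zero (p : ℕ) (hpk : (p : ResidueField 𝒪) = 0) (W : Type)
    [AddCommGroup W] [Module (DualNumber (ResidueField 𝒪)) W] :
    p • (1 : Module.End (DualNumber (ResidueField 𝒪)) W) = 0 := by
  have h1 : (p : DualNumber (ResidueField 𝒪)) = 0 := by
    rw [← map_natCast (algebraMap (ResidueField 𝒪) (DualNumber (ResidueField 𝒪))), hpk, map_zero]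
  rw [← Nat.cast_smul_eq_nsmul (DualNumber (ResidueField 𝒪)), h1]
  exact zero_smul (DualNumber (ResidueField 𝒪))
    (1 : Module.End (DualNumber (ResidueField 𝒪)) W)

/-- The coboundary of `m`, as a cocycle. -/
def cobCocycle (m : ad0 ρbar) : cocycles₁ (ad0 ρbar) :=
  ⟨(d₀₁ (ad0 ρbar)).hom m, coboundaries₁_le_cocycles₁ _ ⟨m, rfl⟩⟩

lemma cobCocycle_apply (m : ad0 ρbar) (σ : _root_.Fermat.Agent.S56.GQ) :
    (cobCocycle m : cocycles₁ (ad0 ρbar)) σ = (d₀₁ (ad0 ρbar)).hom m σ := rfl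

lemma H1π_cobCocycle (m : ad0 ρbar) : (H1π (ad0 ρbar)).hom (cobCocycle m) = 0 :=
  (H1π_eq_zero_iff _).2 ⟨m, rfl⟩

/-- An extension of `ρbar` ramified at `q` is ramified at the standard place over `q`. -/
lemma exists_ramified_at_place (q : Nat.Primes) (hram : ¬ ρbar.IsUnramifiedAt (q : ℕ)) :
    ∃ σ ∈ (primeLocalPlace q).inertiaSubgroupIn ℚ, ρbar.ρ σ ≠ 1 := by
  unfold ResidualGaloisRep.IsUnramifiedAt at hram
  push Not at hram
  obtain ⟨A, hA, σ, hσ, hne⟩ := hram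
  obtain ⟨g, hg⟩ := Fermat.Agent.Lib.InertiaConj.exists_conj_mem_inertia (q : ℕ) q.2
    (primeLocalPlace q) A (primeLocalPlace_liesOver q) hA
  refine ⟨g⁻¹ * σ * g, (hg σ).1 hσ, fun h1 => hne ?_⟩
  have h2 : σ = g * (g⁻¹ * σ * g) * g⁻¹ := by group
  rw [h2, map_mul, map_mul, h1, mul_one, ← map_mul, mul_inv_cancel, map_one]

/-- **The class of a deformation unipotent on inertia at `q` is unramified at `q`.** -/
theorem resAt_mem_unrH1All_of_unipotent (p : ℕ) (hp : p.Prime) (hp2 : p ≠ 2)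
    (hpk : (p : ResidueField 𝒪) = 0) (q : Nat.Primes) (hqp : (q : ℕ) ≠ p)
    (hram : ¬ ρbar.IsUnramifiedAt (q : ℕ)) (x : TSub 𝒪 ρbar 𝒟)
    (hx : x.1.IsUnipotentOnInertiaAt (q : ℕ)) (ξ : H1 (ad0 ρbar)) (hξ : IsClassOf x ξ) :
    resAt (ad0 ρbar) q ξ ∈ unrH1All (ad0 ρbar) q := by
  classical
  obtain ⟨c, hc, rfl⟩ := hξ
  have hP := primeLocalPlace_liesOver q
  -- exponent `p` on inertia
  have hpow : ∀ σ ∈ (primeLocalPlace q).inertiaSubgroupIn ℚ, x.1.ρ σ ^ p = 1 := fun σ hσ =>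
    pow_eq_one_of_sub_one_sq _ (sub_one_sq_of_charpoly _ (hx _ hP σ hσ)) p
      (nsmul_one_end_eq_zero p hpk _)
  -- a finite Galois level
  obtain ⟨L, hL, hLker⟩ := exists_finite_le_ker x
  haveI := hL
  let F : IntermediateField ℚ Qbar := IntermediateField.normalClosure ℚ L Qbar
  haveI hFfd : FiniteDimensional ℚ F := inferInstance
  haveI hnQ : Normal ℚ Qbar := (Fermat.Agent.Lib.InertiaLift.qbar_isGalois').to_normal
  haveI hFn : Normal ℚ F := normalClosure.normal ℚ L Qbar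
  have hLF : L ≤ F := L.le_normalClosure
  have hF : ∀ s ∈ F.fixingSubgroup, x.1.ρ s = 1 := fun s hs =>
    MonoidHom.mem_ker.1 (hLker (IntermediateField.fixingSubgroup_antitone hLF hs))
  -- the image of inertia is cyclic
  have hcop : p.Coprime (q : ℕ) := (Nat.coprime_primes hp q.2).2 (Ne.symm hqp)
  obtain ⟨τ₀, hτ₀, hgen⟩ := exists_inertia_generator (q : ℕ) q.2 (primeLocalPlace q) hP
    x.1.ρ F hF p hcop hpow
  -- `ρbar τ₀ ≠ 1`
  have hN0 : ρbar.ρ τ₀ - 1 ≠ 0 := by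
    intro h0
    have h1 : ρbar.ρ τ₀ = 1 := sub_eq_zero.1 h0
    obtain ⟨σ, hσ, hne⟩ := exists_ramified_at_place q hram
    obtain ⟨n, hn⟩ := hgen σ hσ
    rw [← map_pow] at hn
    have h2 := (eq_of_rho_eq x _ hc hn).1
    rw [map_pow, h1, one_pow] at h2
    exact hne h2
  -- the relations at `τ₀`
  obtain ⟨hN, hrel⟩ := rel_of_unipotent x _ hc τ₀ (hx _ hP τ₀ hτ₀)
  have h2k : (2 : ResidueField 𝒪) ≠ 0 := by
    intro h2
    haveI : CharP (ResidueField 𝒪) p := (CharP.charP_iff_prime_eq_zero hp).2 hpk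
    have h3 : ((2 : ℕ) : ResidueField 𝒪) = 0 := by exact_mod_cast h2
    have h4 := (CharP.cast_eq_zero_iff (ResidueField 𝒪) p 2).1 h3
    exact hp2 ((Nat.prime_dvd_prime_iff_eq hp Nat.prime_two).1 h4)
  obtain ⟨m₀, hm₀, hm⟩ := exists_comm_eq ρbar.finrank_eq h2k (ρbar.ρ τ₀ - 1)
    (ad0Val ρbar ((c : _root_.Fermat.Agent.S56.GQ → ad0 ρbar) τ₀)) hN0 hN hrel
  let m : ad0 ρbar := ⟨m₀, hm₀⟩
  have hmval : ad0Val ρbar m = m₀ := rfl
  -- the modified cocycle
  let c' : cocycles₁ (ad0 ρbar) := c - cobCocycle m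
  have hc'val : ∀ σ : _root_.Fermat.Agent.S56.GQ, ad0Val ρbar ((c' : _root_.Fermat.Agent.S56.GQ → ad0 ρbar) σ)
      = ad0Val ρbar ((c : _root_.Fermat.Agent.S56.GQ → ad0 ρbar) σ) - (ρbar.ρ σ ∘ₗ m₀ ∘ₗ ρbar.ρ σ⁻¹ - m₀) := by
    intro σ
    have e : (c' : _root_.Fermat.Agent.S56.GQ → ad0 ρbar) σ = (c : _root_.Fermat.Agent.S56.GQ → ad0 ρbar) σ - (d₀₁ (ad0 ρbar)).hom m σ := rfl
    rw [e, map_sub, ad0Val_d₀₁, hmval]
  have hc' : IsCocycleOf x (fun σ => ad0Val ρbar ((c' : _root_.Fermat.Agent.S56.GQ → ad0 ρbar) σ)) := by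
    have h1 := isCocycleOf_sub x _ hc m₀
    have h2 : (fun σ => ad0Val ρbar ((c' : _root_.Fermat.Agent.S56.GQ → ad0 ρbar) σ))
        = fun σ => ad0Val ρbar ((c : _root_.Fermat.Agent.S56.GQ → ad0 ρbar) σ) - (ρbar.ρ σ ∘ₗ m₀ ∘ₗ ρbar.ρ σ⁻¹ - m₀) :=
      funext hc'val
    rw [h2]
    exact h1
  have hclass : (H1π (ad0 ρbar)).hom c' = (H1π (ad0 ρbar)).hom c := by
    show (H1π (ad0 ρbar)).hom (c - cobCocycle m) = _
    rw [map_sub, H1π_cobCocycle, sub_zero]
  -- `c' τ₀ = 0`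
  have hτ₀0 : (c' : _root_.Fermat.Agent.S56.GQ → ad0 ρbar) τ₀ = 0 := by
    apply Fermat.Agent.S56.H47.ad0Val_injective ρbar
    rw [hc'val, map_zero, sub_eq_zero]
    have hgg : ρbar.ρ τ₀ * ρbar.ρ τ₀⁻¹ = 1 := by rw [← map_mul, mul_inv_cancel, map_one]
    have e1 : ad0Val ρbar ((c : _root_.Fermat.Agent.S56.GQ → ad0 ρbar) τ₀) * ρbar.ρ τ₀
        = ρbar.ρ τ₀ * m₀ - m₀ * ρbar.ρ τ₀ := by
      have e0 : (1 : Module.End (ResidueField 𝒪) ρbar.V) + (ρbar.ρ τ₀ - 1) = ρbar.ρ τ₀ := by abel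
      rw [e0] at hm
      rw [hm]
      noncomm_ring
    have e2 : ad0Val ρbar ((c : _root_.Fermat.Agent.S56.GQ → ad0 ρbar) τ₀)
        = (ad0Val ρbar ((c : _root_.Fermat.Agent.S56.GQ → ad0 ρbar) τ₀) * ρbar.ρ τ₀) * ρbar.ρ τ₀⁻¹ := by
      rw [mul_assoc, hgg, mul_one]
    rw [e2, e1, sub_mul, mul_assoc, mul_assoc, hgg, mul_one]
    rfl
  -- `c'` vanishes on inertia
  have hI : ∀ σ ∈ (primeLocalPlace q).inertiaSubgroupIn ℚ, (c' : _root_.Fermat.Agent.S56.GQ → ad0 ρbar) σ = 0 := by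
    intro σ hσ
    obtain ⟨n, hn⟩ := hgen σ hσ
    rw [← map_pow] at hn
    have h2 := (eq_of_rho_eq x _ hc' hn).2
    have h3 : (c' : _root_.Fermat.Agent.S56.GQ → ad0 ρbar) (τ₀ ^ n) = 0 := by
      have h4 := cocycle_pow c' τ₀ 0 (by rw [hτ₀0, map_zero, sub_zero]) n
      rw [h4, map_zero, sub_zero]
    have h5 : ad0Val ρbar ((c' : _root_.Fermat.Agent.S56.GQ → ad0 ρbar) σ) = ad0Val ρbar ((c' : _root_.Fermat.Agent.S56.GQ → ad0 ρbar) (τ₀ ^ n)) :=
      h2
    rw [h3, map_zero] at h5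
    apply Fermat.Agent.S56.H47.ad0Val_injective ρbar
    rw [h5, map_zero]
  -- `c'` vanishes on the fixing subgroup of `F`
  have hF0 : ∀ s ∈ F.fixingSubgroup, (c' : _root_.Fermat.Agent.S56.GQ → ad0 ρbar) s = 0 := by
    intro s hs
    have h1 := cocycle_eq_zero_of_mem_ker x _ hc' s
      (hLker (IntermediateField.fixingSubgroup_antitone hLF hs))
    apply Fermat.Agent.S56.H47.ad0Val_injective ρbar
    rw [map_zero]
    exact h1
  rw [← hclass]
  exact resAt_H1π_mem_unrH1All (ad0 ρbar) q c' F hF0 hI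

end core

/-- **Leaf LOC-min.** -/
theorem stmt_loc_min : Stmt_loc_min := by
  intro 𝒪 _ _ _ _ _ p _ ρbar S Smin hyp q hq hqp
  have hp : p.Prime := Fact.out
  have hpk : (p : ResidueField 𝒪) = 0 := by
    have := (IsLocalRing.residue_eq_zero_iff (p : 𝒪)).mpr hyp.hp𝒪
    simpa using this
  have hram : ¬ ρbar.IsUnramifiedAt (q : ℕ) := (hyp.hmin (q : ℕ) q.2 hqp).1 hq
  haveI : FiniteDimensional (ResidueField 𝒪) (ad0 ρbar) :=
    (Fermat.Agent.S56.H47.ad0_basic (ResidueField 𝒪) ρbar).1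
  have hfin := finrank_unrH1All_le (ad0 ρbar) q
  constructor
  · refine ⟨unrH1All (ad0 ρbar) q, unrH1All_le_locH1 _ q, hfin.1, by simpa using hfin.2,
      fun T x ξ hξ => ?_⟩
    exact resAt_mem_unrH1All_of_unipotent p hp hyp.hp2 hpk q hqp hram x
      (x.2.1.2 (q : ℕ) hq q.2 hqp) ξ hξ
  · refine ⟨unrH1All (ad0 ρbar) q, unrH1All_le_locH1 _ q, hfin.1, by simpa using hfin.2,
      fun T x ξ hξ => ?_⟩
    exact resAt_mem_unrH1All_of_unipotent p hp hyp.hp2 hpk q hqp hram x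
      (x.2.1.2 (q : ℕ) hq q.2 hqp) ξ hξ

end Fermat.Agent.S56.LocMin

end

end
-- ==== END Fermat.Agent.S56.LocMin.H85_LocMin

-- ==== BEGIN Fermat.Agent.S56.TWS.H01_Select
section

set_option autoImplicit false

/-!
# Cluster T / S56, package TW-SELECT, sub-package TWS-C (helper1)

`Stmt_select` from `Stmt_levKer` (TWS-B), `Stmt_distinct` (TWS-C1) and `Stmt_irred` (TWS-C2).

Let `c` be a cocycle of `M' = ad⁰ ρbar (1)`-dual with nonzero class, `H_n = ker ρbar ∩ cycKer p n`.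
* `c` is a homomorphism on `H_n` (which acts trivially on `M'`), `c (g τ g⁻¹) = g • c τ`, so the
  span `W` of `c (H_n)` is stable; it is nonzero by TWS-B, hence `W = M'` by TWS-C2.
* `g₁ ∈ cycKer p n` has distinct eigenvalues (TWS-C1); `x₀ ∈ ad⁰`, `x₀ ≠ 0`, commutes with
  `ρbar g₁`; evaluation at `x₀` kills `(σ - 1) M'` for `σ = g₁` and `σ = τ g₁`, `τ ∈ H_n`.
* some `τ ∈ H_n` has `c τ (x₀) ≠ 0`; then `σ = g₁` or `σ = τ g₁` works.
-/

noncomputable section

namespace Fermat.Agent.S56.TWS.H01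

open Polynomial IsLocalRing CategoryTheory groupCohomology ExtCitation Fermat.Agent.S53 Module

/-- Elements of `cycKer p n` have trivial mod `p` cyclotomic character. -/
theorem cycloK_eq_one_of_mem_cycKer (p n : ℕ) [Fact p.Prime] (k : Type) [Field k] [CharP k p]
    {g : _root_.Fermat.Agent.S56.GQ} (hg : g ∈ cycKer p n) : cycloK p k g = 1 := by
  refine H47.cycloK_eq_one_of_fix p k g fun t ht => hg t ?_
  rw [pow_succ', pow_mul, ht, one_pow]

/-- `cycKer p n` is stable under conjugation. -/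
theorem conj_mem_cycKer {p n : ℕ} {τ : _root_.Fermat.Agent.S56.GQ} (hτ : τ ∈ cycKer p n) (g : _root_.Fermat.Agent.S56.GQ) :
    g * τ * g⁻¹ ∈ cycKer p n := by
  intro μ hμ
  have h1 : (g⁻¹ μ) ^ p ^ (n + 1) = 1 := by rw [← map_pow, hμ, map_one]
  rw [AlgEquiv.mul_apply, AlgEquiv.mul_apply, hτ _ h1, ← AlgEquiv.mul_apply, mul_inv_cancel,
    AlgEquiv.one_apply]

theorem rho_conj_eq_one {k : Type} [Field k] (ρbar : ResidualGaloisRep k) {τ : _root_.Fermat.Agent.S56.GQ}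
    (hτ : ρbar.ρ τ = 1) (g : _root_.Fermat.Agent.S56.GQ) : ρbar.ρ (g * τ * g⁻¹) = 1 := by
  rw [map_mul, map_mul, hτ, mul_one, ← map_mul, mul_inv_cancel, map_one]

section Cocycle

variable {p : ℕ} [Fact p.Prime] {k : Type} [Field k] [CharP k p] (ρbar : ResidualGaloisRep k)

/-- Elements of `ker ρbar ∩ cycKer p n` act trivially on `M'`. -/
theorem tateDual_ρ_eq_one_of_mem {n : ℕ} {τ : _root_.Fermat.Agent.S56.GQ} (hτ : τ ∈ cycKer p n) (h1 : ρbar.ρ τ = 1) :
    (tateDual p (ad0 ρbar)).ρ τ = 1 :=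
  H47.tateDual_ρ_eq_one p (ad0 ρbar) τ (H47.ad0_ρ_eq_one ρbar τ h1)
    (cycloK_eq_one_of_mem_cycKer p n k hτ)

theorem cocycle_mul (c : cocycles₁ (tateDual p (ad0 ρbar))) (g h : _root_.Fermat.Agent.S56.GQ) :
    c (g * h) = (tateDual p (ad0 ρbar)).ρ g (c h) + c g :=
  (mem_cocycles₁_iff (c : _root_.Fermat.Agent.S56.GQ → tateDual p (ad0 ρbar))).1 c.2 g h

/-- `c (g τ g⁻¹) = g • c τ` when `g τ g⁻¹` acts trivially. -/
theorem cocycle_conj (c : cocycles₁ (tateDual p (ad0 ρbar))) (g τ : _root_.Fermat.Agent.S56.GQ)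
    (htriv : (tateDual p (ad0 ρbar)).ρ (g * τ * g⁻¹) = 1) :
    c (g * τ * g⁻¹) = (tateDual p (ad0 ρbar)).ρ g (c τ) := by
  have h1 := cocycle_mul ρbar c (g * τ * g⁻¹) g
  have h2 := cocycle_mul ρbar c g τ
  rw [htriv, Module.End.one_apply] at h1
  have e : g * τ * g⁻¹ * g = g * τ := by group
  rw [e, h2] at h1
  -- h1 : ρ g (c τ) + c g = c g + c (g τ g⁻¹)
  have h3 : (tateDual p (ad0 ρbar)).ρ g (c τ) + c g = c (g * τ * g⁻¹) + c g := by
    rw [h1, add_comm]
  exact (add_right_cancel h3).symm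

end Cocycle

/-- **TWS-C.** `Stmt_select` from TWS-B, TWS-C1, TWS-C2. -/
theorem stmt_select_of (hB : Stmt_levKer) (hC1 : Stmt_distinct) (hC2 : Stmt_irred) :
    Stmt_select := by
  intro 𝒪 _ _ _ _ _ p _ _ ρbar S Smin hyp c hc n
  classical
  -- the space `W`
  let M' := tateDual p (ad0 ρbar)
  let Hn : Set _root_.Fermat.Agent.S56.GQ := {τ | τ ∈ cycKer p n ∧ ρbar.ρ τ = 1}
  let W : Submodule (ResidueField 𝒪) M' :=
    Submodule.span (ResidueField 𝒪) ((fun τ => (c : _root_.Fermat.Agent.S56.GQ → M') τ) '' Hn)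
  have hWstab : ∀ (g : _root_.Fermat.Agent.S56.GQ), ∀ x ∈ W, M'.ρ g x ∈ W := by
    intro g x hx
    induction hx using Submodule.span_induction with
    | mem x hx =>
      obtain ⟨τ, ⟨hτ1, hτ2⟩, rfl⟩ := hx
      have h1 : g * τ * g⁻¹ ∈ cycKer p n := conj_mem_cycKer hτ1 g
      have h2 : ρbar.ρ (g * τ * g⁻¹) = 1 := rho_conj_eq_one ρbar hτ2 g
      have h3 := cocycle_conj ρbar c g τ (tateDual_ρ_eq_one_of_mem ρbar h1 h2)
      refine Submodule.subset_span ⟨g * τ * g⁻¹, ⟨h1, h2⟩, ?_⟩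
      exact h3
    | zero => rw [map_zero]; exact W.zero_mem
    | add x y _ _ hx hy => rw [map_add]; exact W.add_mem hx hy
    | smul a x _ hx => rw [map_smul]; exact W.smul_mem a hx
  obtain ⟨τ₀, hτ₀1, hτ₀2, hτ₀3⟩ := hB 𝒪 p ρbar S Smin hyp c hc n
  have hWtop : W = ⊤ := by
    rcases hC2 𝒪 p ρbar S Smin hyp W hWstab with h | h
    · exfalso
      apply hτ₀3
      have : (c : _root_.Fermat.Agent.S56.GQ → M') τ₀ ∈ W := Submodule.subset_span ⟨τ₀, ⟨hτ₀1, hτ₀2⟩, rfl⟩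
      rw [h] at this
      exact (Submodule.mem_bot _).1 this
    · exact h
  -- the element `g₁` and the vector `x₀`
  obtain ⟨g₁, hg₁, α, β, hαβ, hchar⟩ := hC1 𝒪 p ρbar S Smin hyp n
  obtain ⟨f₀, hf₀, htr, hcomm, -⟩ :=
    H59.exists_generator ρbar.finrank_eq (ρbar.ρ g₁) α β hαβ hchar
  let x₀ : ad0 ρbar := (⟨f₀, by
    show f₀ ∈ LinearMap.ker _
    rw [LinearMap.mem_ker]; exact htr⟩ : ad0Sub ρbar)
  have hx₀ : x₀ ≠ 0 := by
    intro h
    apply hf₀
    exact congrArg Subtype.val h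
  -- `x₀` is fixed by `g₁⁻¹`
  have hfix : (ad0 ρbar).ρ g₁⁻¹ x₀ = x₀ := by
    apply H47.ad0Val_injective ρbar
    rw [H47.ad0Val_ρ_apply, inv_inv]
    show ρbar.ρ g₁⁻¹ * f₀ * ρbar.ρ g₁ = f₀
    have h1 : f₀ * ρbar.ρ g₁ = ρbar.ρ g₁ * f₀ := hcomm (ρbar.ρ g₁) rfl |>.symm ▸ rfl
    have h2 : ρbar.ρ g₁⁻¹ * ρbar.ρ g₁ = 1 := by rw [← map_mul, inv_mul_cancel, map_one]
    rw [mul_assoc, h1, ← mul_assoc, h2, one_mul]
  -- evaluation at `x₀`
  let e : M' →ₗ[ResidueField 𝒪] ResidueField 𝒪 :=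
    Module.Dual.eval (ResidueField 𝒪) (ad0 ρbar) x₀
  have he : ∀ f : M', e f = (f : Module.Dual (ResidueField 𝒪) (ad0 ρbar)) x₀ := fun f => rfl
  -- `e` kills `(σ - 1) M'` for every `σ` acting as `g₁`
  have hkill : ∀ σ : _root_.Fermat.Agent.S56.GQ, M'.ρ σ = M'.ρ g₁ → ∀ m : M', e (M'.ρ σ m - m) = 0 := by
    intro σ hσ m
    rw [hσ, map_sub, he, he, H47.tateDual_ρ_apply,
      cycloK_eq_one_of_mem_cycKer p n (ResidueField 𝒪) hg₁, Units.val_one, one_smul,
      LinearMap.comp_apply, hfix, sub_self]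
  -- some `τ ∈ H_n` with `e (c τ) ≠ 0`
  have hτ : ∃ τ : _root_.Fermat.Agent.S56.GQ, τ ∈ cycKer p n ∧ ρbar.ρ τ = 1 ∧ e ((c : _root_.Fermat.Agent.S56.GQ → M') τ) ≠ 0 := by
    by_contra hcon
    have hle : W ≤ LinearMap.ker e := by
      refine Submodule.span_le.2 ?_
      rintro _ ⟨τ, ⟨hτ1, hτ2⟩, rfl⟩
      refine LinearMap.mem_ker.2 ?_
      by_contra h0
      exact hcon ⟨τ, hτ1, hτ2, h0⟩
    rw [hWtop, top_le_iff, LinearMap.ker_eq_top] at hle
    obtain ⟨f, hf⟩ := (Module.forall_dual_apply_eq_zero_iff (ResidueField 𝒪) x₀).not.2 hx₀ |>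
      not_forall.1
    exact hf (LinearMap.congr_fun hle f)
  obtain ⟨τ, hτ1, hτ2, hτ3⟩ := hτ
  by_cases hg : e ((c : _root_.Fermat.Agent.S56.GQ → M') g₁) = 0
  · -- `σ = τ g₁`
    have hact : M'.ρ (τ * g₁) = M'.ρ g₁ := by
      rw [map_mul, tateDual_ρ_eq_one_of_mem ρbar hτ1 hτ2, one_mul]
    refine ⟨τ * g₁, (cycKer p n).mul_mem hτ1 hg₁, ⟨α, β, hαβ, ?_⟩, fun m hm => ?_⟩
    · rw [map_mul, hτ2, one_mul]; exact hchar
    · have h1 := cocycle_mul ρbar c τ g₁
      rw [tateDual_ρ_eq_one_of_mem ρbar hτ1 hτ2, Module.End.one_apply] at h1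
      have h2 : e ((c : _root_.Fermat.Agent.S56.GQ → M') (τ * g₁)) = 0 := by
        rw [hm]; exact hkill (τ * g₁) hact m
      rw [h1, map_add, hg, zero_add] at h2
      exact hτ3 h2
  · refine ⟨g₁, hg₁, ⟨α, β, hαβ, hchar⟩, fun m hm => hg ?_⟩
    rw [hm]; exact hkill g₁ rfl m

end Fermat.Agent.S56.TWS.H01

end

end
-- ==== END Fermat.Agent.S56.TWS.H01_Select

-- ==== BEGIN Fermat.Agent.S56.TWS.H27_Tr
section

set_option autoImplicit false

/-!
# Cluster T / S56, package TWS-A-tr (helper27): from the matrix form to `Stmt_H1_image`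

`stmt_H1_image_of : H74.Stmt_H1_matrix → Stmt_H1_image`.

* `endOf`  : the trace-zero endomorphism `f` attached to a functional `lam` on `ad⁰`,
             `tr (f m) = lam (tzProj m)`; equivariance `endOf_rho`.
* `matR`   : `ρbar` in a basis, as `GQ →* M₂(k)`.
-/

noncomputable section

namespace Fermat.Agent.S56.TWS.H27

open Polynomial IsLocalRing CategoryTheory groupCohomology ExtCitation Fermat.Agent.S53 Module
open Fermat.Agent.S56 Fermat.Agent.S56.H27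
open scoped TensorProduct

section EndOf

variable {k : Type} [Field k] (ρbar : ResidualGaloisRep k)

/-- The trace form as a linear equivalence. -/
def trEquiv : Module.End k ρbar.V ≃ₗ[k] Module.Dual k (Module.End k ρbar.V) :=
  LinearEquiv.ofBijective (trForm ρbar) ⟨trForm_injective ρbar, trForm_surjective ρbar⟩

theorem trEquiv_apply (f m : Module.End k ρbar.V) :
    trEquiv ρbar f m = LinearMap.trace k ρbar.V (f * m) := rfl

/-- The endomorphism attached to a functional on `ad⁰`. -/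
def endOf (hchar : (2 : k) ≠ 0) : Module.Dual k (ad0Sub ρbar) →ₗ[k] Module.End k ρbar.V :=
  (trEquiv ρbar).symm.toLinearMap ∘ₗ (tzProj ρbar hchar).dualMap

theorem trace_endOf_mul (hchar : (2 : k) ≠ 0) (lam : Module.Dual k (ad0Sub ρbar))
    (m : Module.End k ρbar.V) :
    LinearMap.trace k ρbar.V (endOf ρbar hchar lam * m) = lam (tzProj ρbar hchar m) := by
  rw [← trEquiv_apply]
  show (trEquiv ρbar) ((trEquiv ρbar).symm ((tzProj ρbar hchar).dualMap lam)) m = _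
  rw [LinearEquiv.apply_symm_apply]
  rfl

theorem tzProj_one (hchar : (2 : k) ≠ 0) : tzProj ρbar hchar 1 = 0 := by
  apply Subtype.ext
  rw [tzProj_coe, tzMap_apply, LinearMap.trace_one, ρbar.finrank_eq, smul_smul]
  have : (2⁻¹ : k) * ((2 : ℕ) : k) = 1 := by
    push_cast
    exact inv_mul_cancel₀ hchar
  rw [this, one_smul, sub_self]
  rfl

theorem trace_endOf (hchar : (2 : k) ≠ 0) (lam : Module.Dual k (ad0Sub ρbar)) :
    LinearMap.trace k ρbar.V (endOf ρbar hchar lam) = 0 := by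
  have h := trace_endOf_mul ρbar hchar lam 1
  rw [mul_one, tzProj_one, map_zero] at h
  exact h

/-- An endomorphism is determined by the functional `m ↦ tr (f m)`. -/
theorem eq_of_trace_mul {f g : Module.End k ρbar.V}
    (h : ∀ m, LinearMap.trace k ρbar.V (f * m) = LinearMap.trace k ρbar.V (g * m)) : f = g := by
  apply trForm_injective ρbar
  ext m
  exact h m

theorem endOf_injective (hchar : (2 : k) ≠ 0) : Function.Injective (endOf ρbar hchar) := by
  rw [injective_iff_map_eq_zero]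
  intro lam h
  apply LinearMap.ext
  intro x
  have h1 := trace_endOf_mul ρbar hchar lam x.1
  rw [h, zero_mul, map_zero, tzProj_of_mem] at h1
  exact h1.symm

theorem ad0Repr_tzProj (hchar : (2 : k) ≠ 0) (g : _root_.Fermat.Agent.S56.GQ) (m : Module.End k ρbar.V) :
    ad0Repr ρbar g (tzProj ρbar hchar m) = tzProj ρbar hchar (adRepr ρbar g m) :=
  Subtype.ext (adRepr_tzMap ρbar g m)

/-- Equivariance of `endOf`, explicit form. -/
theorem endOf_twist (hchar : (2 : k) ≠ 0) (a : k) (g : _root_.Fermat.Agent.S56.GQ)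
    (lam : Module.Dual k (ad0Sub ρbar)) :
    endOf ρbar hchar (a • (lam ∘ₗ ad0Repr ρbar g⁻¹)) =
      a • (ρbar.ρ g * endOf ρbar hchar lam * ρbar.ρ g⁻¹) := by
  apply eq_of_trace_mul ρbar
  intro m
  rw [trace_endOf_mul, LinearMap.smul_apply, LinearMap.comp_apply,
    ad0Repr_tzProj, ← trace_endOf_mul, smul_mul_assoc, map_smul, adRepr_eq_mul, inv_inv]
  congr 1
  calc LinearMap.trace k ρbar.V (endOf ρbar hchar lam * (ρbar.ρ g⁻¹ * m * ρbar.ρ g))
      = LinearMap.trace k ρbar.V ((endOf ρbar hchar lam * (ρbar.ρ g⁻¹ * m)) * ρbar.ρ g) := by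
        simp only [mul_assoc]
    _ = LinearMap.trace k ρbar.V (ρbar.ρ g * (endOf ρbar hchar lam * (ρbar.ρ g⁻¹ * m))) :=
        LinearMap.trace_mul_comm k _ _
    _ = LinearMap.trace k ρbar.V (ρbar.ρ g * endOf ρbar hchar lam * ρbar.ρ g⁻¹ * m) := by
        simp only [mul_assoc]

/-- Equivariance of `endOf`. -/
theorem endOf_rho (hchar : (2 : k) ≠ 0) (χ : _root_.Fermat.Agent.S56.GQ →* kˣ) (g : _root_.Fermat.Agent.S56.GQ)
    (lam : (ad0 ρbar).dualTwist χ) :
    endOf ρbar hchar (((ad0 ρbar).dualTwist χ).ρ g lam) =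
      (χ g : k) • (ρbar.ρ g * endOf ρbar hchar lam * ρbar.ρ g⁻¹) :=
  endOf_twist ρbar hchar (χ g : k) g lam

/-- The functional attached to a trace-zero endomorphism. -/
def funOf (f : Module.End k ρbar.V) : Module.Dual k (ad0Sub ρbar) :=
  (trForm ρbar f) ∘ₗ (ad0Sub ρbar).subtype

theorem endOf_funOf (hchar : (2 : k) ≠ 0) (f : Module.End k ρbar.V)
    (hf : LinearMap.trace k ρbar.V f = 0) : endOf ρbar hchar (funOf ρbar f) = f := by
  apply eq_of_trace_mul ρbar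
  intro m
  rw [trace_endOf_mul]
  show LinearMap.trace k ρbar.V (f * tzMap ρbar m) = _
  rw [tzMap_apply, mul_sub, map_sub, mul_smul_comm, mul_smul_comm, mul_one, map_smul, map_smul,
    hf, smul_zero, smul_zero, sub_zero]

end EndOf

section Cyclo

variable (p : ℕ) [Fact p.Prime]

/-- The defining property of the cyclotomic exponent, for all `p`-th roots of unity. -/
theorem map_root_eq_pow (σ : _root_.Fermat.Agent.S56.GQ) (μ : AlgebraicClosure ℚ) (hμ : μ ^ p = 1) :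
    σ μ = μ ^ (cycloExp p σ) := by
  have : NeZero p := ⟨(Fact.out : p.Prime).ne_zero⟩
  have hu : IsUnit μ := IsUnit.of_pow_eq_one hμ (Fact.out : p.Prime).ne_zero
  obtain ⟨u, hu'⟩ := hu
  have hmem : u ∈ rootsOfUnity p (AlgebraicClosure ℚ) := by
    rw [mem_rootsOfUnity]
    ext
    rw [Units.val_pow_eq_pow_val, hu', Units.val_one]
    exact hμ
  have := modularCyclotomicCharacter.spec (AlgebraicClosure ℚ) (card_rootsOfUnity_eq_self p)
    (σ : AlgebraicClosure ℚ ≃+* AlgebraicClosure ℚ) hmem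
  rw [hu'] at this
  exact this

theorem cycloK_val (k : Type) [Field k] [CharP k p] (σ : _root_.Fermat.Agent.S56.GQ) :
    (cycloK p k σ : k) = ((cycloExp p σ : ℕ) : k) := by
  unfold cycloK
  rw [MonoidHom.comp_apply, Units.coe_map, MonoidHom.coe_coe, coe_cycloChar, map_natCast]

/-- The determinant of `ρbar` is the cyclotomic character. -/
theorem det_eq_cycloK {k : Type} [Field k] [CharP k p] (ρbar : ResidualGaloisRep k)
    (hdet : (GaloisRepAdic.ofResidualGaloisRep ρbar).DetIsCyclotomic p) (σ : _root_.Fermat.Agent.S56.GQ) :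
    LinearMap.det (ρbar.ρ σ) = (cycloK p k σ : k) := by
  obtain ⟨_, h⟩ := hdet
  have h1 := h 1 σ (cycloExp p σ) (fun μ hμ => by
    rw [pow_one] at hμ
    exact map_root_eq_pow p σ μ hμ)
  have hpk : ((p ^ 1 : ℕ) : k) = 0 := by
    rw [pow_one]
    exact CharP.cast_eq_zero k p
  rw [hpk, Ideal.span_singleton_zero, Ideal.mem_bot, sub_eq_zero] at h1
  rw [cycloK_val]
  exact h1

/-- For `p` odd there is an automorphism with cyclotomic character `2`. -/
theorem exists_cycloK_eq_two (hp2 : p ≠ 2) (k : Type) [Field k] [CharP k p] :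
    ∃ σ : _root_.Fermat.Agent.S56.GQ, (cycloK p k σ : k) = 2 := by
  have hp : p.Prime := Fact.out
  have : NeZero p := ⟨hp.ne_zero⟩
  have : NeZero (p : AlgebraicClosure ℚ) := ⟨Nat.cast_ne_zero.mpr hp.ne_zero⟩
  obtain ⟨ζ₀, hζ⟩ : ∃ ζ₀ : AlgebraicClosure ℚ, IsPrimitiveRoot ζ₀ p :=
    HasEnoughRootsOfUnity.exists_primitiveRoot (AlgebraicClosure ℚ) p
  have hcop : Nat.Coprime 2 p := by
    rw [Nat.coprime_comm, Nat.Prime.coprime_iff_not_dvd hp]
    intro h2
    exact hp2 ((Nat.prime_dvd_prime_iff_eq hp Nat.prime_two).mp h2)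
  have hζ2 : IsPrimitiveRoot (ζ₀ ^ 2) p := hζ.pow_of_coprime 2 hcop
  have hmin : minpoly ℚ (ζ₀ ^ 2) = Polynomial.cyclotomic p ℚ :=
    (Polynomial.cyclotomic_eq_minpoly_rat hζ2 hp.pos).symm
  have hroot : Polynomial.aeval ζ₀ (minpoly ℚ (ζ₀ ^ 2)) = 0 := by
    rw [hmin, Polynomial.aeval_def, Polynomial.eval₂_eq_eval_map, Polynomial.map_cyclotomic]
    exact hζ.isRoot_cyclotomic hp.pos
  have : Algebra.IsAlgebraic ℚ (AlgebraicClosure ℚ) := AlgebraicClosure.isAlgebraic ℚ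
  have : IsAlgClosure ℚ (AlgebraicClosure ℚ) := ⟨inferInstance, inferInstance⟩
  have : IsGalois ℚ (AlgebraicClosure ℚ) := inferInstance
  have : Normal ℚ (AlgebraicClosure ℚ) := IsGalois.to_normal
  have halg : IsAlgebraic ℚ (ζ₀ ^ 2) := Algebra.IsAlgebraic.isAlgebraic _
  obtain ⟨σ, hσ⟩ := minpoly.exists_algEquiv_of_root halg hroot
  refine ⟨σ, ?_⟩
  rw [cycloK_val]
  have h1 : ζ₀ ^ (cycloExp p σ) = ζ₀ ^ 2 := by
    rw [← map_root_eq_pow p σ ζ₀ hζ.pow_eq_one]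
    exact hσ
  have h2 : cycloExp p σ ≡ 2 [MOD p] := by
    obtain ⟨u, hu⟩ := hζ.isUnit hp.ne_zero
    have hu' : IsPrimitiveRoot u p := by
      rw [← IsPrimitiveRoot.coe_units_iff, hu]; exact hζ
    rw [← hu, ← Units.val_pow_eq_pow_val, ← Units.val_pow_eq_pow_val, Units.val_inj,
      pow_eq_pow_iff_modEq, ← hu'.eq_orderOf] at h1
    exact h1
  have h3 := (CharP.natCast_eq_natCast k p).mpr h2
  rw [h3]
  norm_num

end Cyclo

section Mat

variable {k : Type} [Field k] (ρbar : ResidualGaloisRep k)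

/-- A basis of `V`. -/
def basisV : Basis (Fin 2) k ρbar.V := Module.finBasisOfFinrankEq k ρbar.V ρbar.finrank_eq

/-- Endomorphisms as matrices. -/
def matEquiv : Module.End k ρbar.V ≃ₐ[k] Matrix (Fin 2) (Fin 2) k :=
  LinearMap.toMatrixAlgEquiv (basisV ρbar)

theorem matEquiv_eq (f : Module.End k ρbar.V) :
    matEquiv ρbar f = LinearMap.toMatrix (basisV ρbar) (basisV ρbar) f := rfl

theorem trace_matEquiv (f : Module.End k ρbar.V) :
    (matEquiv ρbar f).trace = LinearMap.trace k ρbar.V f := by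
  rw [matEquiv_eq, LinearMap.trace_eq_matrix_trace k (basisV ρbar)]

theorem det_matEquiv (f : Module.End k ρbar.V) :
    (matEquiv ρbar f).det = LinearMap.det f := by
  rw [matEquiv_eq, LinearMap.det_toMatrix]

/-- `ρbar` in matrix form. -/
def matR : _root_.Fermat.Agent.S56.GQ →* Matrix (Fin 2) (Fin 2) k :=
  ((matEquiv ρbar : Module.End k ρbar.V →ₐ[k] Matrix (Fin 2) (Fin 2) k) :
    Module.End k ρbar.V →* Matrix (Fin 2) (Fin 2) k).comp ρbar.ρ

theorem matR_apply (g : _root_.Fermat.Agent.S56.GQ) : matR ρbar g = matEquiv ρbar (ρbar.ρ g) := rfl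

theorem charpoly_rank_two (A : Module.End k ρbar.V) :
    A.charpoly = X ^ 2 - C (LinearMap.trace k ρbar.V A) * X + C (LinearMap.det A) := by
  rw [← LinearMap.charpoly_toMatrix A (basisV ρbar), Matrix.charpoly_fin_two,
    LinearMap.trace_eq_matrix_trace k (basisV ρbar), LinearMap.det_toMatrix]

theorem trace_det_of_charpoly (A : Module.End k ρbar.V) (α β : k)
    (h : A.charpoly = (X - C α) * (X - C β)) :
    LinearMap.trace k ρbar.V A = α + β ∧ LinearMap.det A = α * β := by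
  rw [charpoly_rank_two ρbar A] at h
  have h0 := congrArg (fun q : k[X] => q.coeff 0) h
  have h1 := congrArg (fun q : k[X] => q.coeff 1) h
  have e : (X - C α) * (X - C β) = X ^ 2 - C (α + β) * X + C (α * β) := by
    simp only [map_add, map_mul]; ring
  rw [e] at h0 h1
  simp only [coeff_add, coeff_sub, coeff_X_pow, coeff_C_mul, coeff_X, coeff_C] at h0 h1
  simp at h0 h1
  exact ⟨by linear_combination -h1, h0⟩

/-- No nonzero nilpotent `n` with `n ρ(x) n = 0` for all `x`. -/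
theorem exists_ne_zero_of_nilpotent (habs : ρbar.IsAbsolutelyIrreducible)
    (n : Module.End k ρbar.V) (hn : n ≠ 0) :
    ∃ x : _root_.Fermat.Agent.S56.GQ, n * ρbar.ρ x * n ≠ 0 := by
  by_contra hcon
  push Not at hcon
  have hnK : LinearMap.baseChange (AlgebraicClosure k) n ≠ 0 :=
    fun h => hn (baseChange_eq_zero ρbar (AlgebraicClosure k) n h)
  have hrel : ∀ x : _root_.Fermat.Agent.S56.GQ, LinearMap.baseChange (AlgebraicClosure k) n *
      (LinearMap.baseChange (AlgebraicClosure k) (ρbar.ρ x) *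
        LinearMap.baseChange (AlgebraicClosure k) n) = 0 := by
    intro x
    rw [← LinearMap.baseChange_mul, ← LinearMap.baseChange_mul, ← mul_assoc, hcon x,
      LinearMap.baseChange_zero]
  let W : Submodule (AlgebraicClosure k) (ρbar.baseChange (AlgebraicClosure k)).V :=
    ⨅ x : _root_.Fermat.Agent.S56.GQ, LinearMap.ker (LinearMap.baseChange (AlgebraicClosure k) n ∘ₗ
      LinearMap.baseChange (AlgebraicClosure k) (ρbar.ρ x))
  have hW : ∀ w, w ∈ W ↔ ∀ x : _root_.Fermat.Agent.S56.GQ, LinearMap.baseChange (AlgebraicClosure k) n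
      (LinearMap.baseChange (AlgebraicClosure k) (ρbar.ρ x) w) = 0 := by
    intro w
    simp only [W, Submodule.mem_iInf, LinearMap.mem_ker, LinearMap.comp_apply]
  have hstab : ∀ σ : _root_.Fermat.Agent.S56.GQ, ∀ w ∈ W, (ρbar.baseChange (AlgebraicClosure k)).ρ σ w ∈ W := by
    intro σ w hw
    rw [hW] at hw ⊢
    intro x
    have h1 := hw (x * σ)
    rw [map_mul, LinearMap.baseChange_mul] at h1
    exact h1
  have hrange : ∀ v, LinearMap.baseChange (AlgebraicClosure k) n v ∈ W := by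
    intro v
    rw [hW]
    intro x
    have h1 := congrArg (fun φ : Module.End (AlgebraicClosure k)
      (AlgebraicClosure k ⊗[k] ρbar.V) => φ v) (hrel x)
    exact h1
  rcases habs W hstab with h | h
  · apply hnK
    ext v
    have h1 := hrange ((1 : AlgebraicClosure k) ⊗ₜ[k] v)
    rw [h, Submodule.mem_bot] at h1
    simpa using h1
  · apply hnK
    apply LinearMap.ext
    intro w
    have h1 : w ∈ W := by rw [h]; trivial
    have h2 := (hW w).mp h1 1
    rw [map_one, LinearMap.baseChange_one] at h2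
    exact h2

/-- The matrix form of `ρbar` satisfies `H74.Irr`. -/
theorem irr_matR (habs : ρbar.IsAbsolutelyIrreducible) : H74.Irr (matR ρbar) := by
  intro N hN0 _
  have hn : (matEquiv ρbar).symm N ≠ 0 := by
    intro h
    apply hN0
    have := congrArg (matEquiv ρbar) h
    rwa [AlgEquiv.apply_symm_apply, map_zero] at this
  obtain ⟨x, hx⟩ := exists_ne_zero_of_nilpotent ρbar habs _ hn
  refine ⟨x, fun h => hx ?_⟩
  apply (matEquiv ρbar).injective
  rw [map_mul, map_mul, AlgEquiv.apply_symm_apply, map_zero, ← matR_apply]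
  exact h

end Mat

section Main

variable {k : Type} [Field k] (ρbar : ResidualGaloisRep k)

/-- `endOf` on the carrier of the representation `ad⁰ ρbar (χ)`-dual. -/
def endOfR (hchar : (2 : k) ≠ 0) (χ : _root_.Fermat.Agent.S56.GQ →* kˣ) :
    ((ad0 ρbar).dualTwist χ) →ₗ[k] Module.End k ρbar.V :=
  endOf ρbar hchar

/-- `funOf` with values in the carrier of the representation `ad⁰ ρbar (χ)`-dual. -/
def funOfR (χ : _root_.Fermat.Agent.S56.GQ →* kˣ) (f : Module.End k ρbar.V) : (ad0 ρbar).dualTwist χ :=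
  funOf ρbar f

theorem trace_endOfR (hchar : (2 : k) ≠ 0) (χ : _root_.Fermat.Agent.S56.GQ →* kˣ) (lam : (ad0 ρbar).dualTwist χ) :
    LinearMap.trace k ρbar.V (endOfR ρbar hchar χ lam) = 0 :=
  trace_endOf ρbar hchar lam

theorem endOfR_injective (hchar : (2 : k) ≠ 0) (χ : _root_.Fermat.Agent.S56.GQ →* kˣ) :
    Function.Injective (endOfR ρbar hchar χ) :=
  endOf_injective ρbar hchar

theorem endOfR_rho (hchar : (2 : k) ≠ 0) (χ : _root_.Fermat.Agent.S56.GQ →* kˣ) (g : _root_.Fermat.Agent.S56.GQ)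
    (lam : (ad0 ρbar).dualTwist χ) :
    endOfR ρbar hchar χ (((ad0 ρbar).dualTwist χ).ρ g lam) =
      (χ g : k) • (ρbar.ρ g * endOfR ρbar hchar χ lam * ρbar.ρ g⁻¹) :=
  endOf_rho ρbar hchar χ g lam

theorem endOfR_funOfR (hchar : (2 : k) ≠ 0) (χ : _root_.Fermat.Agent.S56.GQ →* kˣ) (f : Module.End k ρbar.V)
    (hf : LinearMap.trace k ρbar.V f = 0) : endOfR ρbar hchar χ (funOfR ρbar χ f) = f :=
  endOf_funOf ρbar hchar f hf

/-- The matrix cocycle attached to a cocycle of `ad⁰ ρbar (χ)`-dual. -/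
def matCoc (hchar : (2 : k) ≠ 0) (χ : _root_.Fermat.Agent.S56.GQ →* kˣ) (c : cocycles₁ ((ad0 ρbar).dualTwist χ))
    (g : _root_.Fermat.Agent.S56.GQ) : Matrix (Fin 2) (Fin 2) k :=
  matEquiv ρbar (endOfR ρbar hchar χ (c g))

theorem matCoc_apply (hchar : (2 : k) ≠ 0) (χ : _root_.Fermat.Agent.S56.GQ →* kˣ)
    (c : cocycles₁ ((ad0 ρbar).dualTwist χ)) (g : _root_.Fermat.Agent.S56.GQ) :
    matCoc ρbar hchar χ c g = matEquiv ρbar (endOfR ρbar hchar χ (c g)) := rfl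

theorem matR_inv (g : _root_.Fermat.Agent.S56.GQ) : matR ρbar g⁻¹ = matEquiv ρbar (ρbar.ρ g⁻¹) := rfl

theorem matCoc_twCoc (hchar : (2 : k) ≠ 0) (χ : _root_.Fermat.Agent.S56.GQ →* kˣ)
    (hdet : ∀ g : _root_.Fermat.Agent.S56.GQ, LinearMap.det (ρbar.ρ g) = (χ g : k))
    (c : cocycles₁ ((ad0 ρbar).dualTwist χ))
    (hc : ∀ s : _root_.Fermat.Agent.S56.GQ, ρbar.ρ s = 1 → c s = 0) :
    H74.TwCoc (matR ρbar) χ (matCoc ρbar hchar χ c) where
  det := fun g => by rw [matR_apply, det_matEquiv, hdet]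
  tr := fun g => by
    rw [matCoc_apply, trace_matEquiv, trace_endOfR]
  mul := fun g h => by
    have h1 : c (g * h) = ((ad0 ρbar).dualTwist χ).ρ g (c h) + c g :=
      (mem_cocycles₁_iff (c : _root_.Fermat.Agent.S56.GQ → (ad0 ρbar).dualTwist χ)).1 c.2 g h
    rw [matCoc_apply, matCoc_apply, matCoc_apply, h1, map_add, endOfR_rho, map_add, map_smul,
      map_mul, map_mul, matR_apply, matR_inv, add_comm]
  ker := fun s hs => by
    have h1 : ρbar.ρ s = 1 := by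
      apply (matEquiv ρbar).injective
      rw [map_one, ← matR_apply]
      exact hs
    rw [matCoc_apply, hc s h1, map_zero, map_zero]

/-- A cocycle of `ad⁰ ρbar (χ)`-dual whose matrix form is a coboundary is a coboundary. -/
theorem coboundary_of_matCoc (hchar : (2 : k) ≠ 0) (χ : _root_.Fermat.Agent.S56.GQ →* kˣ)
    (c : cocycles₁ ((ad0 ρbar).dualTwist χ)) (m : Matrix (Fin 2) (Fin 2) k)
    (hm0 : m.trace = 0) (hm : ∀ g, matCoc ρbar hchar χ c g = H74.cobd (matR ρbar) χ m g) :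
    ∃ m' : (ad0 ρbar).dualTwist χ, ∀ g : _root_.Fermat.Agent.S56.GQ, c g = ((ad0 ρbar).dualTwist χ).ρ g m' - m' := by
  have hf0 : LinearMap.trace k ρbar.V ((matEquiv ρbar).symm m) = 0 := by
    rw [← trace_matEquiv, AlgEquiv.apply_symm_apply, hm0]
  refine ⟨funOfR ρbar χ ((matEquiv ρbar).symm m), fun g => ?_⟩
  apply endOfR_injective ρbar hchar χ
  apply (matEquiv ρbar).injective
  have h1 := hm g
  rw [H74.cobd, matCoc_apply] at h1
  rw [map_sub, endOfR_rho, endOfR_funOfR ρbar hchar χ _ hf0, map_sub, map_smul, map_mul, map_mul,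
    AlgEquiv.apply_symm_apply, ← matR_apply, ← matR_inv]
  exact h1

end Main

/-- **TWS-A-tr.** The matrix form of TWS-A implies `Stmt_H1_image`. -/
theorem stmt_H1_image_of (hM : H74.Stmt_H1_matrix) : Stmt_H1_image := by
  intro 𝒪 _ _ _ _ _ p _ _ ρbar S Smin hyp c hc
  have hchar : (2 : ResidueField 𝒪) ≠ 0 := two_ne_zero_of_hyp p hyp.hp2
  let _ : Fintype (ResidueField 𝒪) := Fintype.ofFinite _
  have hdet := det_eq_cycloK p ρbar hyp.hdet
  have hTw := matCoc_twCoc ρbar hchar (cycloK p (ResidueField 𝒪)) hdet c hc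
  have hsplit : ∀ g : _root_.Fermat.Agent.S56.GQ, ∃ α β : ResidueField 𝒪,
      (matR ρbar g).trace = α + β ∧ (matR ρbar g).det = α * β := by
    intro g
    obtain ⟨α, β, h⟩ := hyp.hsplit g
    refine ⟨α, β, ?_⟩
    rw [matR_apply, trace_matEquiv, det_matEquiv]
    exact trace_det_of_charpoly ρbar _ α β h
  have h5 : p = 5 → ∃ γ : _root_.Fermat.Agent.S56.GQ, (cycloK p (ResidueField 𝒪) γ : ResidueField 𝒪) ^ 2 ≠ 1 := by
    intro hp5
    obtain ⟨σ, hσ⟩ := exists_cycloK_eq_two p hyp.hp2 (ResidueField 𝒪)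
    refine ⟨σ, ?_⟩
    rw [hσ]
    intro h
    have h3 : ((3 : ℕ) : ResidueField 𝒪) = 0 := by
      push_cast
      linear_combination h
    rw [CharP.cast_eq_zero_iff (ResidueField 𝒪) p, hp5] at h3
    omega
  obtain ⟨m, hm0, hm⟩ := hM (ResidueField 𝒪) p hyp.hp2 _root_.Fermat.Agent.S56.GQ (matR ρbar)
    (cycloK p (ResidueField 𝒪)) (matCoc ρbar hchar (cycloK p (ResidueField 𝒪)) c) hTw hsplit h5
    (irr_matR ρbar hyp.habs)
  exact coboundary_of_matCoc ρbar hchar (cycloK p (ResidueField 𝒪)) c m hm0 hm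

end Fermat.Agent.S56.TWS.H27

end

end
-- ==== END Fermat.Agent.S56.TWS.H27_Tr

-- ==== BEGIN Fermat.Agent.S56.TWS.H59_LevKer
section

/-!
# Cluster T / S56, package TWS-B (helper59): `Stmt_H1_image → Stmt_levKer`

A cocycle of `M' = ad⁰ ρbar (1)`-dual with nonzero class does not vanish identically on
`ker ρbar ∩ cycKer p n`.

Proof.  Suppose it does.  `ker ρbar` acts trivially on `M'` (the determinant of `ρbar` is the
cyclotomic character).  For `t ∈ ker ρbar` and `g ∈ G_ℚ` the commutator `g t g⁻¹ t⁻¹` lies in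
`ker ρbar ∩ cycKer p n`, so `0 = c (g t g⁻¹ t⁻¹) = g • c t - c t`: `c t` is invariant, hence zero
(GLOB-h0).  So `c` vanishes on `ker ρbar` and is a coboundary by TWS-A.
-/

set_option autoImplicit false
set_option linter.unusedSectionVars false
set_option linter.unusedVariables false
set_option linter.style.haveILetI false

noncomputable section

namespace Fermat.Agent.S56.TWS.H59

open Polynomial Module ExtCitation IsLocalRing CategoryTheory groupCohomology Fermat.Agent.S56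

section Det

variable (p : ℕ) [Fact p.Prime] {k : Type} [Field k] [CharP k p] (ρbar : ResidualGaloisRep k)

/-- An automorphism raises every `p`-th root of unity to the power `cycloExp`. -/
theorem map_root_eq_pow_cycloExp (σ : GQ) (μ : AlgebraicClosure ℚ) (hμ : μ ^ p = 1) :
    σ μ = μ ^ (cycloExp p σ) := by
  haveI : NeZero p := ⟨(Fact.out : p.Prime).ne_zero⟩
  let t : rootsOfUnity p (AlgebraicClosure ℚ) := rootsOfUnity.mkOfPowEq μ hμ
  have ht : ((t : (AlgebraicClosure ℚ)ˣ) : AlgebraicClosure ℚ) = μ :=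
    rootsOfUnity.coe_mkOfPowEq hμ
  have := modularCyclotomicCharacter.spec (AlgebraicClosure ℚ) (card_rootsOfUnity_eq_self p)
    (σ : AlgebraicClosure ℚ ≃+* AlgebraicClosure ℚ) t.2
  rw [ht] at this
  exact this

/-- The determinant of `ρbar` is the mod `p` cyclotomic character. -/
theorem det_eq_cycloK (hdet : (GaloisRepAdic.ofResidualGaloisRep ρbar).DetIsCyclotomic p)
    (σ : GQ) : LinearMap.det (ρbar.ρ σ) = ((cycloK p k σ : kˣ) : k) := by
  obtain ⟨hpk, h⟩ := hdet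
  rw [IsLocalRing.maximalIdeal_eq_bot, Ideal.mem_bot] at hpk
  have h1 := h 1 σ (cycloExp p σ) (fun μ hμ => by
    rw [pow_one] at hμ
    exact map_root_eq_pow_cycloExp p σ μ hμ)
  rw [pow_one, hpk, Ideal.span_singleton_zero, Ideal.mem_bot, sub_eq_zero] at h1
  have h2 : ((cycloK p k σ : kˣ) : k) = ((cycloExp p σ : ℕ) : k) := by
    unfold cycloK
    rw [MonoidHom.comp_apply, Units.coe_map, MonoidHom.coe_coe, coe_cycloChar, map_natCast]
  rw [h2]
  exact h1

theorem cycloK_eq_one_of_rho (hdet : (GaloisRepAdic.ofResidualGaloisRep ρbar).DetIsCyclotomic p)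
    (σ : GQ) (hσ : ρbar.ρ σ = 1) : cycloK p k σ = 1 := by
  apply Units.ext
  rw [← det_eq_cycloK p ρbar hdet σ, hσ, Units.val_one]
  exact LinearMap.det_id

end Det

/-- **TWS-B.** -/
theorem stmt_levKer_of (hA : Stmt_H1_image) : Stmt_levKer := by
  intro 𝒪 _ _ _ _ _ p _ _ ρbar S Smin hyp c hc n
  by_contra hno
  have h0 : ∀ τ : GQ, τ ∈ cycKer p n → ρbar.ρ τ = 1 → c τ = 0 := by
    intro τ hτ hρ
    by_contra hne
    exact hno ⟨τ, hτ, hρ, hne⟩
  have hchar : (2 : ResidueField 𝒪) ≠ 0 := by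
    intro h2
    have h3 : ((2 : ℕ) : ResidueField 𝒪) = 0 := by exact_mod_cast h2
    rw [CharP.cast_eq_zero_iff (ResidueField 𝒪) p] at h3
    have hp : p.Prime := Fact.out
    exact hyp.hp2 ((Nat.prime_dvd_prime_iff_eq hp Nat.prime_two).mp h3)
  -- `ker ρbar` acts trivially on `M'`
  have htriv : ∀ t : GQ, ρbar.ρ t = 1 → (tateDual p (ad0 ρbar)).ρ t = 1 := fun t ht =>
    H47.tateDual_ρ_eq_one p (ad0 ρbar) t (H47.ad0_ρ_eq_one ρbar t ht)
      (cycloK_eq_one_of_rho p ρbar hyp.hdet t ht)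
  have hcm : ∀ g h : GQ, c (g * h) = (tateDual p (ad0 ρbar)).ρ g (c h) + c g := fun g h =>
    (mem_cocycles₁_iff (c : GQ → tateDual p (ad0 ρbar))).1 c.2 g h
  have hinvbot := H27.dualTwist_invariants_eq_bot ρbar hchar hyp.habs hyp.hTW
    (cycloK p (ResidueField 𝒪))
  -- `c` vanishes on `ker ρbar`
  have hker : ∀ t : GQ, ρbar.ρ t = 1 → c t = 0 := by
    intro t ht
    have ht' : ρbar.ρ t⁻¹ = 1 := by
      have := map_mul ρbar.ρ t⁻¹ t
      rw [inv_mul_cancel, map_one, ht, mul_one] at this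
      exact this.symm
    have hmem : c t ∈ (tateDual p (ad0 ρbar)).ρ.invariants := by
      rw [Representation.mem_invariants]
      intro g
      have hconj : ρbar.ρ (g * t * g⁻¹) = 1 := by
        rw [map_mul, map_mul, ht, mul_one, ← map_mul, mul_inv_cancel, map_one]
      have hρ : ρbar.ρ (g * t * g⁻¹ * t⁻¹) = 1 := by
        rw [map_mul, hconj, ht', mul_one]
      have hz := h0 _ (commutator_mem_cycKer p n g t) hρ
      -- expand the cocycle on the commutator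
      have e1 := hcm (g * t * g⁻¹) t⁻¹
      rw [hz, htriv _ hconj, Module.End.one_apply] at e1
      -- `c t⁻¹ = - c t`
      have e2 := hcm t⁻¹ t
      rw [inv_mul_cancel, cocycles₁_map_one, htriv _ ht', Module.End.one_apply] at e2
      -- `c (g t g⁻¹) = g • c t`
      have e3 := hcm (g * t * g⁻¹) g
      rw [htriv _ hconj, Module.End.one_apply] at e3
      have e4 : g * t * g⁻¹ * g = g * t := by group
      rw [e4, hcm g t] at e3
      -- combine
      have e5 : (tateDual p (ad0 ρbar)).ρ g (c t) = c (g * t * g⁻¹) := by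
        have := e3
        rw [add_comm (c g)] at this
        exact add_right_cancel this
      rw [e5]
      have e6 : c t⁻¹ = - c t := by
        rw [eq_neg_iff_add_eq_zero, add_comm]
        exact e2.symm
      rw [e6] at e1
      have e7 : c (g * t * g⁻¹) - c t = 0 := by
        rw [sub_eq_add_neg, add_comm]
        exact e1.symm
      exact sub_eq_zero.mp e7
    have hbot : c t ∈ ((ad0 ρbar).dualTwist (cycloK p (ResidueField 𝒪))).ρ.invariants := hmem
    rw [hinvbot, Submodule.mem_bot] at hbot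
    exact hbot
  obtain ⟨m, hm⟩ := hA 𝒪 p ρbar S Smin hyp c hker
  apply hc
  rw [H1π_eq_zero_iff]
  exact ⟨m, funext fun g => (hm g).symm⟩

end Fermat.Agent.S56.TWS.H59

end
end
-- ==== END Fermat.Agent.S56.TWS.H59_LevKer
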