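-- GENERATED (merged mirror, NOTES/tools/trim/merge3_helper67.py): 8 modules of the originals, bodies verbatim.
import Mathlib
import Fermat.Agent.Zm.S56_L11_003
import Fermat.Agent.Zm.S56_L11_001
import Fermat.Agent.Zm.S56_L09_003
import Fermat.Agent.Zm.S56_L07_004
import Fermat.Agent.Zm.S56_L10_002
import Fermat.Agent.Zm.S56_L11_002
import Fermat.Agent.Zm.S56_L05_004
import Fermat.Agent.Zm.S56_L09_002
import Fermat.Agent.Zm.S56_L07_005
import Fermat.Agent.Zm.S56_L10_003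

-- ==== BEGIN Fermat.Agent.S55.CFT.GS.H49_Real2Stmts
section

set_option autoImplicit false
set_option linter.unusedSectionVars false

open CategoryTheory groupCohomology ExtCitation

open scoped Pointwise

noncomputable section

namespace Fermat.Agent.S55.CFT.GS.H49

open Fermat.Agent.S55 Fermat.Agent.S55.Top Fermat.Agent.S55.CFT Fermat.Agent.S55.CFT.GS.Bri

local notation "Qb" => AlgebraicClosure ℚ

attribute [local instance 10000] smulGalUnits

/-- **R2-ex**. -/
theorem stmt_R2_ex : Stmt_R2_ex := by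
  intro K N hKN _ _ _ c hlev hcoc
  have hmem : desc₂ hKN c hlev.2 ∈ cocycles₂ (repL ↥K ↥(H6.NK hKN)) := by
    rw [mem_cocycles₂_iff_mTwo, infl₂_desc₂ hKN c hlev]
    exact hcoc
  exact ⟨H2π _ ⟨_, hmem⟩, ⟨_, hmem⟩, infl₂_desc₂ hKN c hlev, rfl⟩

/-- **R2-surj**. -/
theorem stmt_R2_surj : Stmt_R2_surj := by
  intro K N hKN _ _ _ x
  induction x using H2_induction_on with
  | h f =>
    exact ⟨infl₂ hKN f.1, isLevN₂_infl₂ hKN f.1, (mem_cocycles₂_iff_mTwo hKN f.1).1 f.2,
      f, rfl, rfl⟩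

/-- **R2-uniq**. -/
theorem stmt_R2_uniq : Stmt_R2_uniq := by
  rintro K N hKN _ _ _ c x x' ⟨f, hf, hx⟩ ⟨f', hf', hx'⟩
  have : f = f' := Subtype.ext (infl₂_injective hKN (hf.trans hf'.symm))
  rw [← hx, ← hx', this]

/-- **R2-lev**. -/
theorem stmt_R2_lev : Stmt_R2_lev := by
  rintro K N hKN _ _ _ c x ⟨f, hf, hx⟩
  rw [← hf]
  exact ⟨isLevN₂_infl₂ hKN f.1, (mem_cocycles₂_iff_mTwo hKN f.1).1 f.2⟩

/-- **R2-mul**. -/
theorem stmt_R2_mul : Stmt_R2_mul := by
  rintro K N hKN _ _ _ c c' x x' ⟨f, hf, hx⟩ ⟨f', hf', hx'⟩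
  refine ⟨⟨f + f', ?_, ?_⟩, ⟨f - f', ?_, ?_⟩, fun n => ⟨n • f, ?_, ?_⟩⟩
  · rw [← hf, ← hf']
    exact infl₂_add hKN f.1 f'.1
  · rw [← hx, ← hx']
    exact map_add (H2π (repL ↥K ↥(H6.NK hKN))).hom f f'
  · rw [← hf, ← hf']
    exact infl₂_sub hKN f.1 f'.1
  · rw [← hx, ← hx']
    exact map_sub (H2π (repL ↥K ↥(H6.NK hKN))).hom f f'
  · rw [← hf]
    exact infl₂_nsmul hKN n f.1
  · rw [← hx]
    exact (map_nsmul (H2π (repL ↥K ↥(H6.NK hKN))).hom n f).trans
      (natCast_zsmul _ n).symm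

/-- **R2-zero**. -/
theorem stmt_R2_zero : Stmt_R2_zero := by
  rintro K N hKN _ _ _ c x ⟨f, hf, hx⟩
  rw [← hx, H2π_eq_zero_iff]
  constructor
  · rintro ⟨b, hb⟩
    refine ⟨infl₁ hKN b, isLevN₁_infl₁ hKN b, fun t => ?_⟩
    rw [mOne_infl₁', ← hf]
    exact congrArg (fun u => infl₂ hKN u t) hb.symm
  · rintro ⟨b, hb, hcb⟩
    refine ⟨desc₁ hKN b hb.2, ?_⟩
    apply infl₂_injective hKN
    rw [← mOne_infl₁', infl₁_desc₁ hKN b hb]
    funext t
    rw [← hcb t, ← hf]
    rfl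

end Fermat.Agent.S55.CFT.GS.H49

end

end
-- ==== END Fermat.Agent.S55.CFT.GS.H49_Real2Stmts

-- ==== BEGIN Fermat.Agent.S56.FL.H15_CC2K
section

set_option autoImplicit false
set_option linter.style.haveILetI false
set_option linter.unusedSectionVars false

/-!
# LOC-p-FL, package UNITS / CC2 (helper15): the field `K = L^N`

`L/ℚ_p` finite Galois, `N` a normal subgroup of `Gal(K̄/ℚ_p)` with `g^m ∈ N` for all `g` (`p ∤ m`).

* `kField L N`          : `K = {a ∈ L | n a = a ∀ n ∈ N}`.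
* `normal_kField`, `not_dvd_finrank_kField`, `isTame_kField`.
* `exists_wit`          : Kummer witnesses in `L` (Lagrange resolvent).
* `exists_wit_bdd`      : if `L` is bounded there are witnesses with `‖α^p - 1‖ ≤ p⁻¹`
                          (`H59.stmt_KUMBDD`).
-/

noncomputable section

namespace Fermat.Agent.S56.FL.H15

open scoped NNReal
open Fermat.Agent.S56.FL Fermat.Agent.Lib.LocalKummer Fermat.Agent.S56.FL.H85 Module

variable {p : ℕ} [Fact p.Prime]

/-- The fixed field of `N` in `L`. -/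
def kField (L : IntermediateField ℚ_[p] (PadicAlgCl p)) (N : Subgroup (Gp p)) :
    IntermediateField ℚ_[p] (PadicAlgCl p) :=
  L ⊓ IntermediateField.fixedField N

variable {L : IntermediateField ℚ_[p] (PadicAlgCl p)} {N : Subgroup (Gp p)}

theorem mem_kField {a : PadicAlgCl p} : a ∈ kField L N ↔ a ∈ L ∧ ∀ n ∈ N, n a = a := by
  rw [kField, IntermediateField.mem_inf, IntermediateField.mem_fixedField_iff]

theorem kField_le : kField L N ≤ L := inf_le_left

instance finiteDimensional_kField [FiniteDimensional ℚ_[p] L] :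
    FiniteDimensional ℚ_[p] (kField L N) :=
  FiniteDimensional.of_injective (IntermediateField.inclusion (kField_le (L := L) (N := N))).toLinearMap
    (IntermediateField.inclusion_injective kField_le)

theorem map_mem_of_normal [Normal ℚ_[p] L] (σ : Gp p) {a : PadicAlgCl p} (ha : a ∈ L) :
    σ a ∈ L := by
  have := H38.resL_apply σ (⟨a, ha⟩ : L)
  rw [← this]
  exact (H38.resL L σ ⟨a, ha⟩).2

theorem map_mem_kField [Normal ℚ_[p] L] (hN : N.Normal) (σ : Gp p) {a : PadicAlgCl p}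
    (ha : a ∈ kField L N) : σ a ∈ kField L N := by
  rw [mem_kField] at ha ⊢
  refine ⟨map_mem_of_normal σ ha.1, fun n hn => ?_⟩
  have hconj : σ⁻¹ * n * σ ∈ N := by
    have := hN.conj_mem n hn σ⁻¹
    rwa [inv_inv] at this
  have h1 : n (σ a) = σ ((σ⁻¹ * n * σ) a) := by
    have : σ * (σ⁻¹ * n * σ) = n * σ := by group
    rw [← AlgEquiv.mul_apply, ← AlgEquiv.mul_apply, this]
  rw [h1, ha.2 _ hconj]

theorem normal_kField [Normal ℚ_[p] L] (hN : N.Normal) : Normal ℚ_[p] (kField L N) := by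
  rw [IntermediateField.normal_iff_forall_map_le']
  intro σ a ha
  rw [IntermediateField.mem_map] at ha
  obtain ⟨b, hb, rfl⟩ := ha
  exact map_mem_kField hN σ hb

/-- The degree of `K/ℚ_p` is prime to `p`. -/
theorem not_dvd_finrank_kField [FiniteDimensional ℚ_[p] L] [Normal ℚ_[p] L] (hN : N.Normal)
    {m : ℕ} (hm : ¬ p ∣ m) (hexp : ∀ g : Gp p, g ^ m ∈ N) :
    ¬ p ∣ finrank ℚ_[p] (kField L N) := by
  haveI : Normal ℚ_[p] (kField L N) := normal_kField hN
  haveI : IsGalois ℚ_[p] (kField L N) := ⟨⟩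
  intro hdvd
  rw [← IsGalois.card_aut_eq_finrank] at hdvd
  haveI : Fintype (kField L N ≃ₐ[ℚ_[p]] kField L N) := Fintype.ofFinite _
  rw [Nat.card_eq_fintype_card] at hdvd
  obtain ⟨τ, hτ⟩ := exists_prime_orderOf_dvd_card p hdvd
  obtain ⟨g, rfl⟩ := H38.resL_surjective (L := kField L N) τ
  have h1 : (H38.resL (kField L N) g) ^ m = 1 := by
    rw [← map_pow]
    ext a
    have h2 := H38.resL_apply (g ^ m) a
    rw [h2, AlgEquiv.one_apply]
    exact (mem_kField.mp a.2).2 _ (hexp g)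
  have h3 := orderOf_dvd_of_pow_eq_one h1
  rw [hτ] at h3
  exact hm h3

theorem isTame_kField [FiniteDimensional ℚ_[p] L] [Normal ℚ_[p] L] (hN : N.Normal)
    {m : ℕ} (hm : ¬ p ∣ m) (hexp : ∀ g : Gp p, g ^ m ∈ N) : IsTameField p (kField L N) := by
  refine ⟨finrank ℚ_[p] (kField L N), finrank_pos, not_dvd_finrank_kField hN hm hexp, ?_⟩
  intro x hx hx0
  have hx0' : (⟨x, hx⟩ : kField L N) ≠ 0 := fun h => hx0 (congrArg Subtype.val h)
  exact norm_pow_finrank (kField L N) ⟨x, hx⟩ hx0'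

/-- An element of `L` fixed by `N` is a witness of `0`. -/
theorem isWit_of_mem_kField {ζ : PadicAlgCl p} {b : PadicAlgCl p} (hb : b ∈ kField L N)
    (hb0 : b ≠ 0) : IsWit L N ζ (fun _ => 0) b :=
  ⟨(mem_kField.mp hb).1, hb0, fun n hn => by
    rw [(mem_kField.mp hb).2 n hn, zpowZ_zero, one_mul]⟩

theorem IsWit.pow_p_mem_kField {ζ : PadicAlgCl p} {ψ : Gp p → ZMod p} {α : PadicAlgCl p}
    (hζ : ζ ^ p = 1) (h : IsWit L N ζ ψ α) : α ^ p ∈ kField L N :=
  mem_kField.mpr ⟨pow_mem h.1 p, fun _ hn => h.pow_p_fixed hζ hn⟩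

theorem IsWit.mem_kField_of_zero {ζ : PadicAlgCl p} {ψ : Gp p → ZMod p} {α : PadicAlgCl p}
    (h : IsWit L N ζ ψ α) (hψ : ∀ n ∈ N, ψ n = 0) : α ∈ kField L N :=
  mem_kField.mpr ⟨h.1, fun _ hn => h.fixed_of_zero hψ hn⟩

/-- Existence of Kummer witnesses in `L` (Lagrange resolvent for the action of `N` on `L`). -/
theorem exists_wit [FiniteDimensional ℚ_[p] L] [Normal ℚ_[p] L] {ζ : PadicAlgCl p}
    (hζ : ζ ^ p = 1) (hζL : ζ ∈ L) (hNζ : ∀ n ∈ N, n ζ = ζ) (ψ : Gp p → ZMod p)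
    (hadd : ∀ n ∈ N, ∀ n' ∈ N, ψ (n * n') = ψ n + ψ n')
    (hL : ∀ n ∈ N, n ∈ L.fixingSubgroup → ψ n = 0) :
    ∃ α, IsWit L N ζ ψ α := by
  classical
  set f : ↥N →* (L ≃ₐ[ℚ_[p]] L) := (H38.resL L).comp N.subtype with hf
  letI act : MulSemiringAction ↥N ↥L := MulSemiringAction.compHom L f
  have hact : ∀ (g : ↥N) (x : L), g • x = H38.resL L (g : Gp p) x := fun _ _ => rfl
  haveI : Finite (↥N ⧸ f.ker) :=
    Finite.of_equiv _ (QuotientGroup.quotientKerEquivRange f).symm.toEquiv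
  set ζL : L := ⟨ζ, hζL⟩ with hζL'
  have hζLp : ζL ^ p = 1 := Subtype.ext (by simpa using hζ)
  have hfix : ∀ g : ↥N, g • ζL = ζL := by
    intro g
    apply Subtype.ext
    rw [hact, H38.resL_apply]
    exact hNζ g g.2
  have hU : ∀ u ∈ f.ker, ψ (u : Gp p) = 0 := by
    intro u hu
    have h1 : H38.resL L (u : Gp p) = 1 := hu
    exact hL u u.2 (H38.mem_fixingSubgroup_of_resL_eq_one h1)
  have hstab : ∀ g : ↥N, (∀ x : L, g • (MonoidHom.id L) x = (MonoidHom.id L) x) → g ∈ f.ker := by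
    intro g hg
    rw [MonoidHom.mem_ker]
    ext x
    have := hg x
    simp only [MonoidHom.id_apply] at this
    rw [hact] at this
    rw [AlgEquiv.one_apply]
    exact congrArg Subtype.val this
  have hstab' : ∀ u ∈ f.ker, ∀ x : L, u • (MonoidHom.id L) x = (MonoidHom.id L) x := by
    intro u hu x
    have h1 : H38.resL L (u : Gp p) = 1 := hu
    simp only [MonoidHom.id_apply]
    rw [hact, h1, AlgEquiv.one_apply]
  obtain ⟨γ, h0, hγ⟩ := exists_resolvent (G := ↥N) (Ω := ↥L) (F := ↥L) ζL hζLp hfix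
    (fun g => ψ (g : Gp p)) (fun g h => hadd g g.2 h h.2) f.ker hU (MonoidHom.id L) hstab hstab'
  refine ⟨(γ : PadicAlgCl p), γ.2, fun h => h0 (Subtype.ext h), fun n hn => ?_⟩
  have h1 := hγ ⟨n, hn⟩
  rw [hact] at h1
  have h2 := congrArg (fun t : L => (t : PadicAlgCl p)) h1
  simp only [H38.resL_apply] at h2
  rw [h2]
  unfold zpowZ
  push_cast
  rfl

/-- Witnesses with `‖α^p - 1‖ ≤ p⁻¹` when `L` has bounded ramification. -/
theorem exists_wit_bdd (hp2 : p ≠ 2) [FiniteDimensional ℚ_[p] L] [hNL : Normal ℚ_[p] L]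
    (hbdd : IsBddField p L) (hN : N.Normal) {m : ℕ} (hm : ¬ p ∣ m)
    (hexp : ∀ g : Gp p, g ^ m ∈ N) {ζ : PadicAlgCl p} (hζ : IsPrimitiveRoot ζ p) (hζL : ζ ∈ L)
    (hNζ : ∀ n ∈ N, n ζ = ζ) (ψ : Gp p → ZMod p)
    (hadd : ∀ n ∈ N, ∀ n' ∈ N, ψ (n * n') = ψ n + ψ n')
    (hL : ∀ n ∈ N, n ∈ L.fixingSubgroup → ψ n = 0) :
    ∃ α, IsWit L N ζ ψ α ∧ ‖α ^ p - 1‖ ≤ (p : ℝ)⁻¹ := by
  have hp : p.Prime := Fact.out
  obtain ⟨γ, hγ⟩ := exists_wit hζ.pow_eq_one hζL hNζ ψ hadd hL
  have haK := hγ.pow_p_mem_kField hζ.pow_eq_one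
  have ha0 : γ ^ p ≠ 0 := pow_ne_zero _ hγ.ne_zero
  have hζK : ζ ∈ kField L N := mem_kField.mpr ⟨hζL, hNζ⟩
  obtain ⟨b, hbK, hb0, hb⟩ := H59.stmt_KUMBDD p hp2 L (kField L N) hNL (normal_kField hN)
    kField_le hbdd (isTame_kField hN hm hexp) ⟨ζ, hζK, hζ.ne_one hp.one_lt, hζ.pow_eq_one⟩
    (γ ^ p) haK ha0 ⟨γ, hγ.mem, rfl⟩
  refine ⟨γ * b, ?_, ?_⟩
  · exact (hγ.mul hζ.pow_eq_one (isWit_of_mem_kField hbK hb0)).congr fun n _ => by simp
  · rw [mul_pow]; exact hb

end Fermat.Agent.S56.FL.H15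

end

end
-- ==== END Fermat.Agent.S56.FL.H15_CC2K

-- ==== BEGIN Fermat.Agent.S56.FL.H15_Comp
section

set_option autoImplicit false
set_option linter.style.haveILetI false

/-!
# LOC-p-FL (helper15): bounded ramification is stable under composita

* `ringHom_padicInt_ext` : ring homomorphisms `ℤ_p → Q` agree if `p^N = 0` in `Q`.
* `hasPM_of_isBdd`  : **Krasner direction** (Fontaine, Prop. 1.5 (i)): a finite Galois `L` with
  bounded ramification has property `(P_m)` for all `m > p/(p-1)`.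
* `hasPM_sup`       : `(P_m)` passes to composita.
* `isBdd_of_not_dvd_finrank` : a Galois extension of degree prime to `p` has bounded ramification.
* `cycloField p`    : `ℚ_p(μ_p)`; finite, normal, bounded.
* `isBdd_sup_cyclo`, `isBdd_sup` : composita of bounded fields are bounded.
-/

noncomputable section

namespace Fermat.Agent.S56.FL.H15

open scoped NNReal
open Fermat.Agent.S56.FL Module Polynomial IntermediateField

variable {p : ℕ} [Fact p.Prime]

/-- Ring homomorphisms out of `ℤ_p` into a ring killed by a power of `p` are unique. -/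
theorem ringHom_padicInt_ext {Q : Type*} [Ring Q] (N : ℕ) (hN : (p : Q) ^ N = 0)
    (f g : ℤ_[p] →+* Q) : f = g := by
  ext a
  have h := PadicInt.appr_spec N a
  rw [Ideal.mem_span_singleton] at h
  obtain ⟨b, hb⟩ := h
  have ha : a = (PadicInt.appr a N : ℤ_[p]) + (p : ℤ_[p]) ^ N * b := by
    rw [← hb]; ring
  rw [ha]
  simp only [map_add, map_mul, map_pow, map_natCast, hN, zero_mul]

variable {L : IntermediateField ℚ_[p] (PadicAlgCl p)} [FiniteDimensional ℚ_[p] L]

/-- Monotonicity of `t ↦ ∏_τ max t (depth τ)`. -/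
theorem prod_max_depth_mono {s t : ℝ} (hs : 0 ≤ s) (hst : s ≤ t) :
    ∏ τ : L ≃ₐ[ℚ_[p]] L, max s (depth p L τ) ≤ ∏ τ : L ≃ₐ[ℚ_[p]] L, max t (depth p L τ) :=
  Finset.prod_le_prod (fun _ _ => hs.trans (le_max_left _ _)) fun _ _ => max_le_max hst le_rfl

/-- A field containing a good generator contains `L`. -/
theorem le_of_goodGen_mem {x π : L} {q : ℕ} (h : IsGoodGen L x π q) {Pz : ℤ_[p][X]}
    (hP : IsMinZ L x Pz) {F : IntermediateField ℚ_[p] (PadicAlgCl p)}
    (hx : (x : PadicAlgCl p) ∈ F) : L ≤ F := by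
  intro a haL
  have hp0 : (p : PadicAlgCl p) ≠ 0 := by
    intro h0
    have := norm_p_algCl (p := p)
    rw [h0, norm_zero] at this
    have : (0 : ℝ) < (p : ℝ)⁻¹ := inv_pos.mpr p_pos_real
    linarith
  have hpinv1 : (p : ℝ)⁻¹ < 1 := inv_lt_one_of_one_lt₀ one_lt_p_real
  obtain ⟨N, hN⟩ : ∃ N : ℕ, ‖(p : PadicAlgCl p) ^ N * a‖ ≤ 1 := by
    rcases eq_or_ne a 0 with rfl | ha0
    · exact ⟨0, by simp⟩
    · have hapos : 0 < ‖a‖ := norm_pos_iff.mpr ha0
      obtain ⟨N, hN⟩ := exists_pow_lt_of_lt_one (inv_pos.mpr hapos) hpinv1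
      refine ⟨N, ?_⟩
      rw [norm_mul, norm_pow, norm_p_algCl]
      have := mul_lt_mul_of_pos_right hN hapos
      rw [inv_mul_cancel₀ hapos.ne'] at this
      exact this.le
  have hmem : (p : PadicAlgCl p) ^ N * a ∈ L := L.mul_mem (pow_mem (_root_.natCast_mem L p) N) haL
  obtain ⟨g, hg⟩ := exists_poly_eq h hP ⟨(p : PadicAlgCl p) ^ N * a, hmem⟩ hN
  have h1 : (p : PadicAlgCl p) ^ N * a ∈ F := by
    have := evZ_mem (F := F) hx g
    rw [hg] at this
    exact this
  have h2 : a = ((p : PadicAlgCl p) ^ N)⁻¹ * ((p : PadicAlgCl p) ^ N * a) := by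
    rw [inv_mul_cancel_left₀ (pow_ne_zero N hp0)]
  rw [h2]
  exact F.mul_mem (F.inv_mem (pow_mem (_root_.natCast_mem F p) N)) h1

/-- **Krasner direction.**  Bounded ramification implies property `(P_m)` for `m > p/(p-1)`. -/
theorem hasPM_of_isBdd (hN : Normal ℚ_[p] L) (hb : IsBddField p L) : HasPM p L := by
  classical
  intro c hc0 hcp F hF ⟨φ⟩
  have hp : p.Prime := Fact.out
  obtain ⟨x, π, q, h, hq⟩ := exists_goodGen_q L
  obtain ⟨Pz, hP⟩ := exists_isMinZ hN h
  have hx1 : ‖(x : PadicAlgCl p)‖ ≤ 1 := h.1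
  -- a lift `β` of `φ x`
  obtain ⟨β', hβ'⟩ := Ideal.Quotient.mk_surjective (φ ⟨x, x.2, hx1⟩)
  set β : PadicAlgCl p := β'.1 with hβ
  have hβF : β ∈ F := β'.2.1
  have hβ1 : ‖β‖ ≤ 1 := β'.2.2
  -- `p^N = 0` in the quotient
  have hpinv1 : (p : ℝ)⁻¹ < 1 := inv_lt_one_of_one_lt₀ one_lt_p_real
  have hc0' : (0 : ℝ) < c := by exact_mod_cast hc0
  obtain ⟨N, hN'⟩ := exists_pow_lt_of_lt_one hc0' hpinv1
  have hpN : ((p : intRing p F ⧸ ballIdeal p F c)) ^ N = 0 := by
    have h1 : ((p : intRing p F ⧸ ballIdeal p F c)) ^ N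
        = Ideal.Quotient.mk (ballIdeal p F c) ((p : intRing p F) ^ N) := by
      rw [map_pow, map_natCast]
    rw [h1, Ideal.Quotient.eq_zero_iff_mem, mem_ballIdeal]
    push_cast
    rw [norm_pow, norm_p_algCl]
    exact hN'.le
  -- the two evaluation homomorphisms agree
  let evF : ℤ_[p][X] →+* intRing p F :=
    (eval₂RingHom (phiZ p) β).codRestrict (intRing p F)
      fun g => ⟨evZ_mem hβF g, norm_evZ_le_one hβ1 g⟩
  let evL : ℤ_[p][X] →+* intRing p L :=
    (eval₂RingHom (phiZ p) (x : PadicAlgCl p)).codRestrict (intRing p L)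
      fun g => ⟨evZ_mem x.2 g, norm_evZ_le_one hx1 g⟩
  have hagree : φ.comp evL = (Ideal.Quotient.mk (ballIdeal p F c)).comp evF := by
    refine Polynomial.ringHom_ext' ?_ ?_
    · exact ringHom_padicInt_ext N hpN _ _
    · change φ (evL X) = Ideal.Quotient.mk (ballIdeal p F c) (evF X)
      have h1 : evL X = ⟨x, x.2, hx1⟩ := Subtype.ext (by simp [evL])
      have h2 : evF X = β' := Subtype.ext (by simp [evF, hβ])
      rw [h1, h2, hβ']
  have hPβ : ‖Pz.eval₂ (phiZ p) β‖ ≤ c := by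
    have h1 := congrArg (fun f : ℤ_[p][X] →+* _ => f Pz) hagree
    simp only [RingHom.comp_apply] at h1
    have h2 : evL Pz = 0 := Subtype.ext (by simpa [evL] using hP.eval₂_self)
    rw [h2, map_zero] at h1
    have h3 := (Ideal.Quotient.eq_zero_iff_mem.mp h1.symm)
    rw [mem_ballIdeal] at h3
    exact h3
  -- the nearest conjugate
  obtain ⟨τ₁, -, hτ₁⟩ := Finset.exists_min_image Finset.univ
    (fun τ : L ≃ₐ[ℚ_[p]] L => ‖β - ((τ x : L) : PadicAlgCl p)‖) ⟨1, Finset.mem_univ _⟩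
  have h₁ := h.map τ₁
  have hP₁ := hP.map τ₁
  have hclosest : ∀ τ : L ≃ₐ[ℚ_[p]] L,
      ‖β - ((τ₁ x : L) : PadicAlgCl p)‖ ≤ ‖β - ((τ (τ₁ x) : L) : PadicAlgCl p)‖ := by
    intro τ
    have := hτ₁ (τ * τ₁) (Finset.mem_univ _)
    simpa [AlgEquiv.mul_apply] using this
  set x₁ : L := τ₁ x with hx₁
  set d : ℝ := ‖β - (x₁ : PadicAlgCl p)‖ with hd
  have hΨ : ∏ τ : L ≃ₐ[ℚ_[p]] L, max d (depth p L τ) = ‖Pz.eval₂ (phiZ p) β‖ := by
    rw [hP₁.norm_eval₂]
    exact (Finset.prod_congr rfl fun τ _ => norm_sub_map_eq_max h₁ hclosest τ).symm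
  have hdlt : ∀ σ : L ≃ₐ[ℚ_[p]] L, σ ≠ 1 → d < depth p L σ := by
    intro σ hσ
    by_contra hcon
    have hle : depth p L σ ≤ d := not_lt.mp hcon
    have h1 := prod_max_depth_mono (L := L) (depth_nonneg L σ) hle
    have h2 := hb σ hσ
    have h3 : (∏ τ : L ≃ₐ[ℚ_[p]] L, max (depth p L σ) (depth p L τ)) ^ (p - 1)
        ≤ (c : ℝ) ^ (p - 1) := by
      refine pow_le_pow_left₀ ?_ (h1.trans (hΨ.le.trans hPβ)) _
      exact Finset.prod_nonneg fun τ _ => (depth_nonneg L σ).trans (le_max_left _ _)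
    have h4 : (c : ℝ) ^ (p - 1) < ((p : ℝ)⁻¹) ^ p := by
      have := NNReal.coe_lt_coe.mpr hcp
      push_cast at this
      exact this
    linarith
  -- Krasner's lemma
  have hint : IsIntegral ℚ_[p] (x₁ : PadicAlgCl p) :=
    (Algebra.IsAlgebraic.isAlgebraic _).isIntegral
  have hintβ : IsIntegral ℚ_[p] β := (Algebra.IsAlgebraic.isAlgebraic _).isIntegral
  haveI : IsKrasner ℚ_[p] (PadicAlgCl p) := IsKrasner.of_completeSpace ℚ_[p] (PadicAlgCl p)
  have hK : (x₁ : PadicAlgCl p) ∈ ℚ_[p]⟮β⟯ := by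
    refine IsKrasner.krasner (Irreducible.separable (minpoly.irreducible hint))
      (IsAlgClosed.splits _) hintβ ?_
    intro x' hx' hne
    -- `x'` is a conjugate `τ x₁`
    have hroot : Pz.eval₂ (phiZ p) x' = 0 := by
      have h1 : aeval x' (minpoly ℚ_[p] (x₁ : PadicAlgCl p)) = 0 := by
        rw [hx']; exact minpoly.aeval _ _
      have h4 : minpoly ℚ_[p] (x₁ : PadicAlgCl p) = minpoly ℚ_[p] x₁ :=
        minpoly.algebraMap_eq (algebraMap L (PadicAlgCl p)).injective x₁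
      rw [h4, ← hP₁.map_eq, aeval_def, eval₂_map] at h1
      exact h1
    rw [hP₁.eval₂_eq_prod, Finset.prod_eq_zero_iff] at hroot
    obtain ⟨τ, -, hτ⟩ := hroot
    have hx'τ : x' = ((τ x₁ : L) : PadicAlgCl p) := sub_eq_zero.mp hτ
    have hτ1 : τ ≠ 1 := by
      rintro rfl
      exact hne (by rw [hx'τ]; rfl)
    have h5 := hdlt τ hτ1
    rw [depth_eq_of_goodGen h₁ τ] at h5
    rw [hx'τ, norm_sub_rev (x₁ : PadicAlgCl p) β]
    have h6 : ‖(x₁ : PadicAlgCl p) - ((τ x₁ : L) : PadicAlgCl p)‖ = ‖τ x₁ - x₁‖ := by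
      rw [norm_sub_rev]; rfl
    rw [h6]
    exact h5
  have hx₁F : (x₁ : PadicAlgCl p) ∈ F := by
    have hle : ℚ_[p]⟮β⟯ ≤ F := by
      rw [adjoin_simple_le_iff]; exact hβF
    exact hle hK
  exact le_of_goodGen_mem h₁ hP₁ hx₁F

omit [FiniteDimensional ℚ_[p] L] in
/-- `(P_m)` passes to composita. -/
theorem hasPM_sup {L₁ L₂ : IntermediateField ℚ_[p] (PadicAlgCl p)} (h₁ : HasPM p L₁)
    (h₂ : HasPM p L₂) : HasPM p (L₁ ⊔ L₂) := by
  intro c hc0 hcp F hF ⟨φ⟩
  have hle₁ : intRing p L₁ ≤ intRing p (L₁ ⊔ L₂) := fun a ha =>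
    ⟨(le_sup_left : L₁ ≤ L₁ ⊔ L₂) ha.1, ha.2⟩
  have hle₂ : intRing p L₂ ≤ intRing p (L₁ ⊔ L₂) := fun a ha =>
    ⟨(le_sup_right : L₂ ≤ L₁ ⊔ L₂) ha.1, ha.2⟩
  exact sup_le (h₁ c hc0 hcp F hF ⟨φ.comp (Subring.inclusion hle₁)⟩)
    (h₂ c hc0 hcp F hF ⟨φ.comp (Subring.inclusion hle₂)⟩)

/-- A Galois extension of degree prime to `p` has bounded ramification. -/
theorem isBdd_of_not_dvd_finrank (hN : Normal ℚ_[p] L) (hdeg : ¬ p ∣ finrank ℚ_[p] L) :
    IsBddField p L := by
  classical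
  intro σ hσ
  have hp : p.Prime := Fact.out
  haveI : Normal ℚ_[p] L := hN
  haveI : IsGalois ℚ_[p] L := ⟨⟩
  obtain ⟨x, π, q, h, hq⟩ := exists_goodGen_q L
  obtain ⟨Pz, hP⟩ := exists_isMinZ hN h
  obtain ⟨hx, hπ0, hπ1, hπmax, hxq, hres⟩ := id h
  obtain ⟨e, he0, he⟩ := exists_ramIdx hπ0 hπ1 hπmax
  have hpinv0 : (0 : ℝ) < (p : ℝ)⁻¹ := inv_pos.mpr p_pos_real
  have hpinv1 : (p : ℝ)⁻¹ < 1 := inv_lt_one_of_one_lt₀ one_lt_p_real
  -- `depth σ ≥ ‖π‖`
  have hge : ‖π‖ ≤ depth p L σ := by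
    by_contra hcon
    have h1 := dvd_orderOf_of_depth_lt h hσ (not_le.mp hcon)
    have h2 : orderOf σ ∣ finrank ℚ_[p] L := by
      rw [← IsGalois.card_aut_eq_finrank ℚ_[p] L]
      exact orderOf_dvd_natCard σ
    exact hdeg (h1.trans h2)
  have h1 : ‖π‖ ^ e ≤ ∏ τ : L ≃ₐ[ℚ_[p]] L, max (depth p L σ) (depth p L τ) := by
    have h2 := prod_max_depth_mono (L := L) hπ0.le hge
    refine le_trans ?_ h2
    have h3 := prod_max_pow h 1
    rw [pow_one] at h3
    rw [h3]
    refine pow_le_pow_of_le_one hπ0.le hπ1.le ?_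
    have h4 : ramSum L π 1 = ramCard L π 1 := by rw [ramSum, Finset.sum_range_one]
    rw [h4]
    refine le_trans (Finset.card_le_card ?_) (card_inertia_le h hq hP he)
    intro τ hτ
    rw [Finset.mem_filter] at hτ ⊢
    refine ⟨hτ.1, lt_of_le_of_lt hτ.2 ?_⟩
    rw [pow_one]; exact hπ1
  rw [he] at h1
  calc ((p : ℝ)⁻¹) ^ p ≤ ((p : ℝ)⁻¹) ^ (p - 1) :=
        pow_le_pow_of_le_one hpinv0.le hpinv1.le (Nat.sub_le p 1)
    _ ≤ _ := pow_le_pow_left₀ hpinv0.le h1 _

/-! ## The cyclotomic field `ℚ_p(μ_p)` and composita -/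

variable (p) in
/-- `ℚ_p(μ_p)`, the splitting field of `X^p - 1` in `K̄`. -/
def cycloField : IntermediateField ℚ_[p] (PadicAlgCl p) :=
  IntermediateField.adjoin ℚ_[p] ((X ^ p - 1 : ℚ_[p][X]).rootSet (PadicAlgCl p))

theorem mem_cycloField_of_pow_eq_one {ζ : PadicAlgCl p} (hζ : ζ ^ p = 1) : ζ ∈ cycloField p := by
  have hp : p.Prime := Fact.out
  refine IntermediateField.subset_adjoin _ _ ?_
  rw [mem_rootSet]
  refine ⟨X_pow_sub_C_ne_zero hp.pos 1, ?_⟩
  simp [hζ]

instance isSplittingField_cycloField :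
    (X ^ p - 1 : ℚ_[p][X]).IsSplittingField ℚ_[p] (cycloField p) :=
  IntermediateField.adjoin_rootSet_isSplittingField (IsAlgClosed.splits _)

instance finiteDimensional_cycloField : FiniteDimensional ℚ_[p] (cycloField p) :=
  Polynomial.IsSplittingField.finiteDimensional (cycloField p) (X ^ p - 1 : ℚ_[p][X])

theorem normal_cycloField : Normal ℚ_[p] (cycloField p) :=
  Normal.of_isSplittingField (X ^ p - 1 : ℚ_[p][X])

/-- There is a primitive `p`-th root of unity in `K̄`. -/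
theorem exists_zeta : ∃ ζ : PadicAlgCl p, ζ ≠ 1 ∧ ζ ^ p = 1 := by
  have hp : p.Prime := Fact.out
  haveI : NeZero (p : PadicAlgCl p) := ⟨by
    intro h0
    have := norm_p_algCl (p := p)
    rw [h0, norm_zero] at this
    have : (0 : ℝ) < (p : ℝ)⁻¹ := inv_pos.mpr p_pos_real
    linarith⟩
  obtain ⟨ζ, hζ⟩ := HasEnoughRootsOfUnity.exists_primitiveRoot (PadicAlgCl p) p
  exact ⟨ζ, hζ.ne_one hp.one_lt, hζ.pow_eq_one⟩

theorem cycloField_eq_adjoin {ζ : PadicAlgCl p} (h1 : ζ ≠ 1) (hζ : ζ ^ p = 1) :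
    cycloField p = ℚ_[p]⟮ζ⟯ := by
  have hp : p.Prime := Fact.out
  haveI : NeZero p := ⟨hp.ne_zero⟩
  have hprim : IsPrimitiveRoot ζ p := by
    rw [IsPrimitiveRoot.iff_orderOf]
    exact orderOf_eq_prime hζ h1
  refine le_antisymm ?_ ?_
  · rw [cycloField, IntermediateField.adjoin_le_iff]
    intro η hη
    rw [mem_rootSet] at hη
    have hη1 : η ^ p = 1 := by
      have := hη.2
      simpa [sub_eq_zero] using this
    obtain ⟨i, -, rfl⟩ := hprim.eq_pow_of_pow_eq_one hη1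
    exact pow_mem (IntermediateField.mem_adjoin_simple_self _ _) i
  · rw [IntermediateField.adjoin_simple_le_iff]
    exact mem_cycloField_of_pow_eq_one hζ

theorem finrank_cycloField_lt : finrank ℚ_[p] (cycloField p) < p := by
  have hp : p.Prime := Fact.out
  obtain ⟨ζ, h1, hζ⟩ := exists_zeta (p := p)
  have hint : IsIntegral ℚ_[p] ζ := (Algebra.IsAlgebraic.isAlgebraic ζ).isIntegral
  rw [cycloField_eq_adjoin h1 hζ, IntermediateField.adjoin.finrank hint]
  have hprim : IsPrimitiveRoot ζ p := by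
    rw [IsPrimitiveRoot.iff_orderOf]
    exact orderOf_eq_prime hζ h1
  have hroot : aeval ζ (cyclotomic p ℚ_[p]) = 0 := by
    have := hprim.isRoot_cyclotomic hp.pos
    rw [IsRoot.def, ← map_cyclotomic p (algebraMap ℚ_[p] (PadicAlgCl p)), eval_map,
      ← aeval_def] at this
    exact this
  have hne : cyclotomic p ℚ_[p] ≠ 0 := cyclotomic_ne_zero p ℚ_[p]
  have hle := natDegree_le_of_dvd (minpoly.dvd ℚ_[p] ζ hroot) hne
  rw [natDegree_cyclotomic, Nat.totient_prime hp] at hle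
  have := hp.pos
  omega

theorem not_dvd_finrank_cycloField : ¬ p ∣ finrank ℚ_[p] (cycloField p) := by
  intro h
  have h1 := Nat.le_of_dvd finrank_pos h
  have h2 := finrank_cycloField_lt (p := p)
  omega

theorem isBdd_cycloField : IsBddField p (cycloField p) :=
  isBdd_of_not_dvd_finrank normal_cycloField not_dvd_finrank_cycloField

/-- The compositum of two bounded fields and `ℚ_p(μ_p)` is bounded (every prime `p`). -/
theorem isBdd_sup_cyclo_all {L₁ L₂ : IntermediateField ℚ_[p] (PadicAlgCl p)}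
    [FiniteDimensional ℚ_[p] L₁] [FiniteDimensional ℚ_[p] L₂]
    (hN₁ : Normal ℚ_[p] L₁) (hN₂ : Normal ℚ_[p] L₂)
    (hb₁ : IsBddField p L₁) (hb₂ : IsBddField p L₂) :
    ∃ (_ : FiniteDimensional ℚ_[p] (L₁ ⊔ L₂ ⊔ cycloField p : IntermediateField ℚ_[p] _)),
      Normal ℚ_[p] (L₁ ⊔ L₂ ⊔ cycloField p : IntermediateField ℚ_[p] _) ∧
      IsBddField p (L₁ ⊔ L₂ ⊔ cycloField p) := by
  haveI := hN₁
  haveI := hN₂
  haveI : Normal ℚ_[p] (cycloField p) := normal_cycloField
  have hfin : FiniteDimensional ℚ_[p] (L₁ ⊔ L₂ ⊔ cycloField p : IntermediateField ℚ_[p] _) :=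
    inferInstance
  have hnorm : Normal ℚ_[p] (L₁ ⊔ L₂ ⊔ cycloField p : IntermediateField ℚ_[p] _) :=
    inferInstance
  refine ⟨hfin, hnorm, ?_⟩
  obtain ⟨ζ, h1, hζ⟩ := exists_zeta (p := p)
  refine ck_all p _ hnorm ⟨ζ, ?_, h1, hζ⟩ ?_
  · exact (le_sup_right : cycloField p ≤ L₁ ⊔ L₂ ⊔ cycloField p)
      (mem_cycloField_of_pow_eq_one hζ)
  · exact hasPM_sup (hasPM_sup (hasPM_of_isBdd hN₁ hb₁) (hasPM_of_isBdd hN₂ hb₂))
      (hasPM_of_isBdd normal_cycloField isBdd_cycloField)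

/-- The compositum of two bounded fields and `ℚ_p(μ_p)` is bounded. -/
theorem isBdd_sup_cyclo (hp2 : p ≠ 2) {L₁ L₂ : IntermediateField ℚ_[p] (PadicAlgCl p)}
    [FiniteDimensional ℚ_[p] L₁] [FiniteDimensional ℚ_[p] L₂]
    (hN₁ : Normal ℚ_[p] L₁) (hN₂ : Normal ℚ_[p] L₂)
    (hb₁ : IsBddField p L₁) (hb₂ : IsBddField p L₂) :
    ∃ (_ : FiniteDimensional ℚ_[p] (L₁ ⊔ L₂ ⊔ cycloField p : IntermediateField ℚ_[p] _)),
      Normal ℚ_[p] (L₁ ⊔ L₂ ⊔ cycloField p : IntermediateField ℚ_[p] _) ∧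
      IsBddField p (L₁ ⊔ L₂ ⊔ cycloField p) :=
  isBdd_sup_cyclo_all hN₁ hN₂ hb₁ hb₂

/-- **The compositum of two bounded fields is bounded** (every prime `p`). -/
theorem isBdd_sup_all {L₁ L₂ : IntermediateField ℚ_[p] (PadicAlgCl p)}
    [FiniteDimensional ℚ_[p] L₁] [FiniteDimensional ℚ_[p] L₂]
    (hN₁ : Normal ℚ_[p] L₁) (hN₂ : Normal ℚ_[p] L₂)
    (hb₁ : IsBddField p L₁) (hb₂ : IsBddField p L₂) :
    IsBddField p (L₁ ⊔ L₂) := by
  haveI := hN₁
  haveI := hN₂
  obtain ⟨hfin, hnorm, hb⟩ := isBdd_sup_cyclo_all hN₁ hN₂ hb₁ hb₂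
  haveI := hfin
  exact stmt_HERB p (L₁ ⊔ L₂ ⊔ cycloField p) (L₁ ⊔ L₂) hnorm inferInstance le_sup_left hb

/-- **The compositum of two bounded fields is bounded.** -/
theorem isBdd_sup (hp2 : p ≠ 2) {L₁ L₂ : IntermediateField ℚ_[p] (PadicAlgCl p)}
    [FiniteDimensional ℚ_[p] L₁] [FiniteDimensional ℚ_[p] L₂]
    (hN₁ : Normal ℚ_[p] L₁) (hN₂ : Normal ℚ_[p] L₂)
    (hb₁ : IsBddField p L₁) (hb₂ : IsBddField p L₂) :
    IsBddField p (L₁ ⊔ L₂) :=
  isBdd_sup_all hN₁ hN₂ hb₁ hb₂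

end Fermat.Agent.S56.FL.H15

end

end
-- ==== END Fermat.Agent.S56.FL.H15_Comp

-- ==== BEGIN Fermat.Agent.S56.FL.H38_Tame
section

set_option autoImplicit false

/-!
# LOC-p-FL, TAME bridge (helper38): from `Gal(L/ℚ_p)` to `Gal(K̄/ℚ_p)`

`Stmt_LocTame` is the structure of `Γ = Gal(L/ℚ_p)` for a finite Galois `L/ℚ_p`, stated on `Γ`
(with `depth < 1` for the inertia subgroup `Γ₀`):  a normal subgroup `W` all of whose elements
have `p`-power order, a Frobenius `φ` and a tame generator `s ∈ Γ₀` with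

* (T3) `Γ = ⟨φ⟩ Γ₀`,
* (T1) `Γ₀ = ⟨s⟩ W`,
* (T2) `φ s φ⁻¹ ≡ s ^ p` modulo `W`.

`stmt_Tame_of : Stmt_LocTame → H57.Stmt_Tame` lifts this to `G = Gal(K̄/ℚ_p)` with `P` the
preimage of `W`, by `H38.resL_surjective` and `H38.inertia_onto_of_depth`.
-/

noncomputable section

namespace Fermat.Agent.S56.FL.H38

open scoped NNReal
open Fermat.Agent.S56.FL Polynomial Module

/-- **LOC-TAME**: Frobenius, tame generator and wild inertia of `Gal(L/ℚ_p)`. -/
def Stmt_LocTame : Prop :=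
  ∀ (p : ℕ) [Fact p.Prime] (L : IntermediateField ℚ_[p] (PadicAlgCl p))
    [FiniteDimensional ℚ_[p] L], Normal ℚ_[p] L →
    ∃ (W : Subgroup (L ≃ₐ[ℚ_[p]] L)) (φ s : L ≃ₐ[ℚ_[p]] L),
      W.Normal ∧ (∀ w ∈ W, ∃ N : ℕ, w ^ (p ^ N) = 1) ∧
      depth p L s < 1 ∧
      (∀ g : L ≃ₐ[ℚ_[p]] L, ∃ n : ℕ, depth p L ((φ ^ n)⁻¹ * g) < 1) ∧
      (∀ γ : L ≃ₐ[ℚ_[p]] L, depth p L γ < 1 → ∃ n : ℕ, (s ^ n)⁻¹ * γ ∈ W) ∧
      (s ^ p)⁻¹ * (φ * s * φ⁻¹) ∈ W

variable {p : ℕ} [Fact p.Prime]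

variable {L : IntermediateField ℚ_[p] (PadicAlgCl p)} [Normal ℚ_[p] L]

theorem resL_eq_one_of_mem_fixingSubgroup {σ : Gp p} (h : σ ∈ L.fixingSubgroup) :
    resL L σ = 1 := by
  apply AlgEquiv.ext
  intro a
  apply Subtype.ext
  rw [resL_apply]
  exact (IntermediateField.mem_fixingSubgroup_iff L σ).mp h a a.2

theorem resL_eq_one_iff {σ : Gp p} : resL L σ = 1 ↔ σ ∈ L.fixingSubgroup :=
  ⟨mem_fixingSubgroup_of_resL_eq_one, resL_eq_one_of_mem_fixingSubgroup⟩

/-- Inertia of `Gal(K̄/ℚ_p)` restricts into `depth < 1`. -/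
theorem depth_resL_lt_one [FiniteDimensional ℚ_[p] L] {ι : Gp p} (hι : ι ∈ inertiaP p) :
    depth p L (resL L ι) < 1 := by
  obtain ⟨x, π, q, h⟩ := H15.exists_goodGen L
  rw [H15.depth_eq_of_goodGen h]
  have h1 : ‖resL L ι x - x‖ = ‖ι (x : PadicAlgCl p) - (x : PadicAlgCl p)‖ := by
    rw [← resL_apply]; rfl
  rw [h1]
  exact hι _ h.1

/-- The bridge: `Stmt_LocTame` gives helper57's `Stmt_Tame`. -/
theorem stmt_Tame_of (h : Stmt_LocTame) : H57.Stmt_Tame := by
  intro p _ L _ hL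
  obtain ⟨W, φ, s, hWn, hWp, hs, hT3, hT1, hT2⟩ := h p L hL
  obtain ⟨φt, hφt⟩ := resL_surjective (L := L) φ
  obtain ⟨st, hstI, hst⟩ := inertia_onto_of_depth s hs
  refine ⟨W.comap (resL L), φt, st, ?_, ?_, ?_, hstI, ?_, ?_, ?_⟩
  · exact Subgroup.Normal.comap hWn _
  · intro σ hσ
    rw [Subgroup.mem_comap, resL_eq_one_of_mem_fixingSubgroup hσ]
    exact W.one_mem
  · intro w hw
    obtain ⟨N, hN⟩ := hWp _ (Subgroup.mem_comap.mp hw)
    refine ⟨N, mem_fixingSubgroup_of_resL_eq_one ?_⟩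
    rw [map_pow, hN]
  · intro σ
    obtain ⟨n, hn⟩ := hT3 (resL L σ)
    obtain ⟨ι, hιI, hι⟩ := inertia_onto_of_depth _ hn
    refine ⟨n, ι, hιI, (φt ^ n * ι)⁻¹ * σ, mem_fixingSubgroup_of_resL_eq_one ?_, ?_⟩
    · rw [map_mul, map_inv, map_mul, map_pow, hφt, hι]
      group
    · group
  · intro ι hι
    obtain ⟨n, hn⟩ := hT1 (resL L ι) (depth_resL_lt_one hι)
    refine ⟨n, (st ^ n)⁻¹ * ι, ?_, ?_⟩
    · rw [Subgroup.mem_comap, map_mul, map_inv, map_pow, hst]
      exact hn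
    · group
  · refine ⟨(st ^ p)⁻¹ * (φt * st * φt⁻¹), ?_, ?_⟩
    · rw [Subgroup.mem_comap, map_mul, map_inv, map_pow, map_mul, map_mul, map_inv, hst, hφt]
      exact hT2
    · group

end Fermat.Agent.S56.FL.H38

end

end
-- ==== END Fermat.Agent.S56.FL.H38_Tame

-- ==== BEGIN Fermat.Agent.S56.FL.H54_FLA
section

/-!
# LOC-p-FL, package BRIDGE-1 (helper54): `Stmt_FL_A`

Fontaine's bound for flat Galois modules: a finite flat `G_ℚ`-module killed by `p` (`p` odd) is
trivial on `Gal(K̄/L)` for a finite Galois `L/ℚ_p` of bounded ramification.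

Proof: local model `H` (`exists_local_model`), `L` = the field generated by the points of
`H ⊗ ℤ_(p)[μ_p]`; `(P_m)` for `L` by `H50.stmt_PM`, bounded ramification by `H15.stmt_CK`.
-/

set_option autoImplicit false
set_option linter.unusedSectionVars false
set_option linter.style.haveILetI false

noncomputable section

namespace Fermat.Agent.S56.FL.H54

open scoped NNReal TensorProduct
open Fermat.Agent.S56.FL Fermat.Agent.R.H54 WithConv

/-- **FL_A** (BRIDGE-1). -/
theorem stmt_FL_A : Stmt_FL_A := by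
  intro p _ hp2 M _ act hkill hflat
  obtain ⟨H, _, _, hfin, hflatH, hcoc, e, hmul, hact⟩ := exists_local_model hflat
  haveI := hfin
  haveI := hflatH
  haveI := hcoc
  have hkillH : ∀ x : WithConv (H →ₐ[Zloc p] PadicAlgCl p), x ^ p = 1 :=
    pow_eq_one_of_kill e hmul hkill
  haveI hfd : FiniteDimensional ℚ_[p] (pointField p (H ⊗[Zloc p] MuAlg p)) :=
    finiteDimensional_pointField
  have hN : Normal ℚ_[p] (pointField p (H ⊗[Zloc p] MuAlg p)) := normal_pointField
  have hPM : HasPM p (pointField p (H ⊗[Zloc p] MuAlg p)) :=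
    H50.stmt_PM p hp2 (H ⊗[Zloc p] MuAlg p) (prod_mu_pow_eq_one hkillH)
  obtain ⟨ζ, hζ1, hζp⟩ := exists_root_ne_one (p := p)
  have hB : IsBddField p (pointField p (H ⊗[Zloc p] MuAlg p)) :=
    H15.stmt_CK p hp2 _ hN ⟨ζ, root_mem_pointField_prod_mu ζ hζp, hζ1, hζp⟩ hPM
  refine ⟨pointField p (H ⊗[Zloc p] MuAlg p), hfd, hN, hB, ?_⟩
  intro σ hσ m
  obtain ⟨x, rfl⟩ := e.surjective m
  have hσ' : σ ∈ (pointField p H).fixingSubgroup :=
    (IntermediateField.mem_fixingSubgroup_iff _ σ).mpr (fun y hy =>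
      (IntermediateField.mem_fixingSubgroup_iff _ σ).mp hσ y (pointField_le_prod_mu hy))
  rw [← hact, pointAct_eq_of_mem_fixingSubgroup σ hσ' x]

end Fermat.Agent.S56.FL.H54

end

end
-- ==== END Fermat.Agent.S56.FL.H54_FLA

-- ==== BEGIN Fermat.Agent.S56.FL.H57_CohDefs2
section

set_option autoImplicit false

/-!
# LOC-p-FL, package COH (helper57): the leaf TAME-CHARS of `Stmt_COH_RED`

Two characters `χ₁, χ₂ : G_p → kˣ` (`k` of characteristic `p`, `p` odd) of finite level whose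
product is the cyclotomic character on inertia: on inertia both are powers of their values at one
element `s` of the inertia group, and `χ₁ s ≠ χ₂ s` (the cyclotomic character is not a square on
inertia).
-/

noncomputable section

namespace Fermat.Agent.S56.FL.H57

open Fermat.Agent.S56.FL

/-- **TAME-CHARS.** -/
def Stmt_TameChars : Prop :=
  ∀ (p : ℕ) [Fact p.Prime], p ≠ 2 →
    ∀ (k : Type) [Field k] [CharP k p] (χ₁ χ₂ : Gp p →* kˣ)
      (L : IntermediateField ℚ_[p] (PadicAlgCl p)) [FiniteDimensional ℚ_[p] L],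
      Normal ℚ_[p] L →
      (∀ σ : Gp p, σ ∈ L.fixingSubgroup → χ₁ σ = 1 ∧ χ₂ σ = 1) →
      (∀ σ : Gp p, σ ∈ inertiaP p → IsCycloAt ((χ₁ σ : k) * (χ₂ σ : k)) σ) →
      ∃ s : Gp p, s ∈ inertiaP p ∧
        (∀ ι : Gp p, ι ∈ inertiaP p → ∃ n : ℕ, χ₁ ι = χ₁ s ^ n ∧ χ₂ ι = χ₂ s ^ n) ∧
        χ₁ s ≠ χ₂ s

end Fermat.Agent.S56.FL.H57

end

end
-- ==== END Fermat.Agent.S56.FL.H57_CohDefs2

-- ==== BEGIN Fermat.Agent.S56.FL.H85_CCRes
section

set_option autoImplicit false
set_option linter.unusedSectionVars false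
set_option linter.style.haveILetI false

/-!
# LOC-p-FL, package UNITS (helper85): the residue field of `K = K̄^H` and its Galois action

* `OH H`, `mH H`, `kH H` : integers, maximal ideal, residue field of the fixed field of `H`.
* `actk H g`             : the action of `g ∈ Gal(K̄/ℚ_p)` on `kH H` (`H` normal).
* `actk_fixed`           : the fixed points are the prime field (from `Stmt_ResFix`).
-/

noncomputable section

namespace Fermat.Agent.S56.FL.H85

open scoped NNReal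
open Fermat.Agent.S56.FL

variable {p : ℕ} [Fact p.Prime] (H : Subgroup (Gp p))

/-- The integers of the fixed field of `H`. -/
def OH : Subring (PadicAlgCl p) where
  carrier := {x | (∀ s ∈ H, s x = x) ∧ ‖x‖ ≤ 1}
  mul_mem' {a b} ha hb := ⟨fun s hs => by rw [map_mul, ha.1 s hs, hb.1 s hs], by
    rw [norm_mul]; exact mul_le_one₀ ha.2 (norm_nonneg _) hb.2⟩
  one_mem' := ⟨fun s _ => map_one s, by simp⟩
  add_mem' {a b} ha hb := ⟨fun s hs => by rw [map_add, ha.1 s hs, hb.1 s hs],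
    (IsUltrametricDist.norm_add_le_max a b).trans (max_le ha.2 hb.2)⟩
  zero_mem' := ⟨fun s _ => map_zero s, by simp⟩
  neg_mem' {a} ha := ⟨fun s hs => by rw [map_neg, ha.1 s hs], by rw [norm_neg]; exact ha.2⟩

variable {H}

theorem mem_OH {x : PadicAlgCl p} : x ∈ OH H ↔ (∀ s ∈ H, s x = x) ∧ ‖x‖ ≤ 1 := Iff.rfl

variable (H)

/-- The maximal ideal of `OH H`. -/
def mH : Ideal (OH H) where
  carrier := {x | ‖(x : PadicAlgCl p)‖ < 1}
  add_mem' {a b} ha hb :=
    (IsUltrametricDist.norm_add_le_max (a : PadicAlgCl p) b).trans_lt (max_lt ha hb)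
  zero_mem' := by simp
  smul_mem' r a ha := by
    change ‖((r * a : OH H) : PadicAlgCl p)‖ < 1
    rw [Subring.coe_mul, norm_mul]
    calc ‖(r : PadicAlgCl p)‖ * ‖(a : PadicAlgCl p)‖ ≤ 1 * ‖(a : PadicAlgCl p)‖ :=
          mul_le_mul_of_nonneg_right r.2.2 (norm_nonneg _)
      _ = ‖(a : PadicAlgCl p)‖ := one_mul _
      _ < 1 := ha

variable {H}

theorem mem_mH {x : OH H} : x ∈ mH H ↔ ‖(x : PadicAlgCl p)‖ < 1 := Iff.rfl

variable (H)

instance mH_isMaximal : (mH H).IsMaximal := by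
  rw [Ideal.isMaximal_iff]
  refine ⟨?_, fun J x _ hx hxJ => ?_⟩
  · intro h
    have : ‖((1 : OH H) : PadicAlgCl p)‖ < 1 := h
    simp at this
  · have hx1 : ‖(x : PadicAlgCl p)‖ = 1 := le_antisymm x.2.2 (not_lt.mp hx)
    have hx0 : (x : PadicAlgCl p) ≠ 0 := by
      intro h
      rw [h] at hx1
      simp at hx1
    have hinv : (x : PadicAlgCl p)⁻¹ ∈ OH H :=
      ⟨fun s hs => by rw [map_inv₀, x.2.1 s hs], by rw [norm_inv, hx1, inv_one]⟩
    have h1 : (⟨(x : PadicAlgCl p)⁻¹, hinv⟩ : OH H) * x = 1 := by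
      apply Subtype.ext
      rw [Subring.coe_mul, Subring.coe_one]
      exact inv_mul_cancel₀ hx0
    rw [← h1]
    exact J.mul_mem_left _ hxJ

/-- The residue field of the fixed field of `H`. -/
abbrev kH : Type := OH H ⧸ mH H

instance kH_field : Field (kH H) := Ideal.Quotient.field (mH H)

instance kH_charP : CharP (kH H) p := by
  have hp : p.Prime := Fact.out
  have h0 : ((p : ℕ) : kH H) = 0 := by
    have : ((p : ℕ) : kH H) = Ideal.Quotient.mk (mH H) ((p : ℕ) : OH H) := by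
      rw [map_natCast]
    rw [this, Ideal.Quotient.eq_zero_iff_mem, mem_mH, Subring.coe_natCast, norm_p_Ω]
    exact pinv_lt_one
  obtain ⟨q, hq⟩ := CharP.exists (kH H)
  have hqp : q ∣ p := (CharP.cast_eq_zero_iff (kH H) q p).mp h0
  rcases (Nat.dvd_prime hp).mp hqp with h1 | h1
  · exfalso
    subst h1
    exact CharP.char_ne_one (kH H) 1 rfl
  · subst h1
    exact hq

instance kH_algebra : Algebra (ZMod p) (kH H) := ZMod.algebra (kH H) p

/-- The class of an integer of the fixed field of `H`. -/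
def clH (x : PadicAlgCl p) (hx : x ∈ OH H) : kH H := Ideal.Quotient.mk (mH H) ⟨x, hx⟩

variable {H}

theorem clH_eq_iff {x y : PadicAlgCl p} (hx : x ∈ OH H) (hy : y ∈ OH H) :
    clH H x hx = clH H y hy ↔ ‖x - y‖ < 1 := by
  unfold clH
  rw [Ideal.Quotient.eq, mem_mH]
  rfl

theorem clH_eq_zero_iff {x : PadicAlgCl p} (hx : x ∈ OH H) : clH H x hx = 0 ↔ ‖x‖ < 1 := by
  unfold clH
  rw [Ideal.Quotient.eq_zero_iff_mem, mem_mH]

theorem clH_add {x y : PadicAlgCl p} (hx : x ∈ OH H) (hy : y ∈ OH H) :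
    clH H (x + y) ((OH H).add_mem hx hy) = clH H x hx + clH H y hy := rfl

theorem clH_surjective (y : kH H) : ∃ (x : PadicAlgCl p) (hx : x ∈ OH H), clH H x hx = y := by
  obtain ⟨x, rfl⟩ := Ideal.Quotient.mk_surjective y
  exact ⟨x.1, x.2, rfl⟩

theorem KumRel.mem_OH {ζ : PadicAlgCl p} {f : Gp p → ZMod p} {u : PadicAlgCl p}
    (h : KumRel ζ H f u) : u ∈ OH H := ⟨h.1, h.2.1⟩

theorem KumRel.norm_le {ζ : PadicAlgCl p} {f : Gp p → ZMod p} {u : PadicAlgCl p}
    (h : KumRel ζ H f u) : ‖u‖ ≤ 1 := h.2.1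

/-! ## The Galois action -/

variable (H) [hH : H.Normal]

theorem map_mem_OH (g : Gp p) {x : PadicAlgCl p} (hx : x ∈ OH H) : g x ∈ OH H := by
  refine ⟨fun s hs => ?_, by rw [norm_gal]; exact hx.2⟩
  have h1 : g⁻¹ * s * g ∈ H := by
    have := hH.conj_mem s hs g⁻¹
    rwa [inv_inv] at this
  have h2 : s (g x) = g ((g⁻¹ * s * g) x) := by
    have : g * (g⁻¹ * s * g) = s * g := by group
    rw [← AlgEquiv.mul_apply, ← AlgEquiv.mul_apply, this]
  rw [h2, hx.1 _ h1]

/-- The action of `g` on the integers of the fixed field of the normal subgroup `H`. -/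
def actO (g : Gp p) : OH H →+* OH H where
  toFun x := ⟨g x, map_mem_OH H g x.2⟩
  map_one' := Subtype.ext (map_one g)
  map_mul' x y := Subtype.ext (map_mul g _ _)
  map_zero' := Subtype.ext (map_zero g)
  map_add' x y := Subtype.ext (map_add g _ _)

/-- The action of `g` on the residue field. -/
def actk (g : Gp p) : kH H →+* kH H :=
  Ideal.quotientMap (mH H) (actO H g) (fun x hx => by
    rw [Ideal.mem_comap, mem_mH]
    show ‖g (x : PadicAlgCl p)‖ < 1
    rw [norm_gal]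
    exact hx)

theorem actk_clH (g : Gp p) {x : PadicAlgCl p} (hx : x ∈ OH H) :
    actk H g (clH H x hx) = clH H (g x) (map_mem_OH H g hx) := by
  unfold actk clH
  rw [Ideal.quotientMap_mk]
  rfl

/-- **The fixed points of the residual Galois action are the prime field.** -/
theorem actk_fixed (hRF : Stmt_ResFix) [Finite (Gp p ⧸ H)] (hn : ¬ p ∣ Nat.card (Gp p ⧸ H))
    (y : kH H) (hy : ∀ g, actk H g y = y) : ∃ j : ZMod p, algebraMap (ZMod p) (kH H) j = y := by
  obtain ⟨x, hx, rfl⟩ := clH_surjective y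
  have h1 : ∀ g : Gp p, ‖g x - x‖ < 1 := by
    intro g
    have := hy g
    rw [actk_clH, clH_eq_iff] at this
    exact this
  obtain ⟨j, hj⟩ := hRF p H hn x hx.2 hx.1 h1
  refine ⟨(j : ZMod p), ?_⟩
  rw [map_natCast]
  have h2 : ((j : ℕ) : kH H) = clH H (j : PadicAlgCl p) (natCast_mem (OH H) j) := by
    unfold clH
    rw [← map_natCast (Ideal.Quotient.mk (mH H))]
    rfl
  rw [h2, clH_eq_iff, ← norm_neg, neg_sub]
  exact hj

end Fermat.Agent.S56.FL.H85

end

end
-- ==== END Fermat.Agent.S56.FL.H85_CCRes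

-- ==== BEGIN Fermat.Agent.S56.GW.Core
section

set_option autoImplicit false
set_option linter.style.haveILetI false

/-!
# Cluster T / S56, package GW-CORE: layer-1 wiring (sorry-free)

* `lb_of_PT2_EC : Stmt_PT2 → Stmt_EC → Stmt_ARCH → Stmt_LB`
* `gw_core_of_inv : Stmt_INV → Stmt_PERF_cup → Stmt_LB → Stmt_GW_core`

The local pairings are `P_q([x], [y]) = inv_q (x ∪ y)` on continuous classes (extended to all
classes by a linear projection onto the continuous cocycles).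
-/

noncomputable section

namespace Fermat.Agent.S56

open Polynomial IsLocalRing CategoryTheory groupCohomology ExtCitation Module

/-! ### Part A: the lower bound from `PT2`, `EC`, `ARCH` -/

theorem lb_of_PT2_EC (hPT : Stmt_PT2) (hEC : Stmt_EC) (hA : Stmt_ARCH) : Stmt_LB := by
  intro p _ hp2 k _ _ _ M _ hsm Sg hpSg hur
  obtain ⟨hM'fd, hM'sm, hM'ur⟩ := H47.tate_basic p k M hsm
  haveI := hM'fd
  obtain ⟨hfin, hpt⟩ := hPT p hp2 k M hsm Sg hpSg hur
  have hur' : ∀ q : Nat.Primes, q ∉ Sg → IsUnramifiedRepAt (tateDual p M) (q : ℕ) := by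
    intro q hq
    refine hM'ur q q.2 ?_ (hur q hq)
    intro h
    apply hq
    have h1 : q = pPrime p := Subtype.ext h
    rw [h1]
    exact hpSg
  have hec := hEC p hp2 k (tateDual p M) hM'sm Sg hpSg hur' hfin
  have harch := hA p hp2 k M
  have hdim : finrank k (tateDual p M) = finrank k M := Rep.finrank_dualTwist k M _
  omega

/-! ### Part B: levels -/

section levels

variable {k : Type} [Field k]

/-- A finite-dimensional smooth representation is trivial on an open subgroup. -/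
theorem exists_level_fin (M : Rep.{0} k GQ) [FiniteDimensional k M] (hsm : IsSmoothRep M) :
    ∃ F : IntermediateField ℚ (AlgebraicClosure ℚ), FiniteDimensional ℚ F ∧
      ∀ s ∈ F.fixingSubgroup, M.ρ s = 1 := by
  choose F hF hFfix using hsm
  let b := Module.finBasis k M
  let F₀ : IntermediateField ℚ (AlgebraicClosure ℚ) := ⨆ i, F (b i)
  haveI : ∀ i, FiniteDimensional ℚ (F (b i)) := fun i => hF (b i)
  haveI : FiniteDimensional ℚ F₀ := IntermediateField.finiteDimensional_iSup_of_finite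
  refine ⟨F₀, inferInstance, fun s hs => ?_⟩
  apply b.ext
  intro i
  have hsi : s ∈ (F (b i)).fixingSubgroup :=
    IntermediateField.fixingSubgroup_antitone (le_iSup (fun i => F (b i)) i) hs
  exact hFfix (b i) s hsi

/-- A finite-dimensional smooth representation unramified outside `Sg` is trivial on the
absolute Galois group of a finite extension unramified outside `Sg`. -/
theorem exists_level_unr (M : Rep.{0} k GQ) [FiniteDimensional k M] (hsm : IsSmoothRep M)
    (Sg : Finset Nat.Primes) (hur : ∀ q : Nat.Primes, q ∉ Sg → IsUnramifiedRepAt M (q : ℕ)) :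
    ∃ F : IntermediateField ℚ (AlgebraicClosure ℚ), F.IsUnramifiedOutside Sg ∧
      ∀ s ∈ F.fixingSubgroup, M.ρ s = 1 := by
  obtain ⟨F₀, hF₀, hker⟩ := exists_level_fin M hsm
  haveI := hF₀
  haveI : IsGalois ℚ (AlgebraicClosure ℚ) := by
    letI : Algebra.IsAlgebraic ℚ (AlgebraicClosure ℚ) := AlgebraicClosure.isAlgebraic ℚ
    letI : IsAlgClosure ℚ (AlgebraicClosure ℚ) := ⟨inferInstance, inferInstance⟩
    infer_instance
  let H : Subgroup GQ := M.ρ.ker
  have hle : F₀.fixingSubgroup ≤ H := fun s hs => MonoidHom.mem_ker.mpr (hker s hs)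
  have hopen : IsOpen (H : Set GQ) := Subgroup.isOpen_mono hle F₀.fixingSubgroup_isOpen
  have hclosed : IsClosed (H : Set GQ) := (⟨H, hopen⟩ : OpenSubgroup GQ).isClosed
  let Hc : ClosedSubgroup GQ := ⟨H, hclosed⟩
  have hfix : (IntermediateField.fixedField H).fixingSubgroup = H :=
    InfiniteGalois.fixingSubgroup_fixedField Hc
  refine ⟨IntermediateField.fixedField H, ⟨?_, ?_⟩, ?_⟩
  · rw [← InfiniteGalois.isOpen_iff_finite, hfix]
    exact hopen
  · intro q hq A hA g hg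
    rw [hfix]
    exact MonoidHom.mem_ker.mpr (hur q hq A hA g hg)
  · intro s hs
    rw [hfix] at hs
    exact MonoidHom.mem_ker.mp hs

end levels

/-! ### Part C: the cup product of 1-cocycles -/

section cup

variable {k : Type} [Field k] (p : ℕ) [Fact p.Prime] [CharP k p] (M : Rep.{0} k GQ)

theorem evT_add_left (m m' : M) (φ : tateDual p M) :
    evT p M (m + m') φ = evT p M m φ + evT p M m' φ :=
  map_add (show Module.Dual k M from φ) m m'

theorem evT_sub_left (m m' : M) (φ : tateDual p M) :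
    evT p M (m - m') φ = evT p M m φ - evT p M m' φ :=
  map_sub (show Module.Dual k M from φ) m m'

theorem evT_smul_left (c : k) (m : M) (φ : tateDual p M) :
    evT p M (c • m) φ = c * evT p M m φ :=
  map_smul (show Module.Dual k M from φ) c m

theorem evT_add_right (m : M) (φ φ' : tateDual p M) :
    evT p M m (φ + φ') = evT p M m φ + evT p M m φ' := rfl

theorem evT_sub_right (m : M) (φ φ' : tateDual p M) :
    evT p M m (φ - φ') = evT p M m φ - evT p M m φ' := rfl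

theorem evT_smul_right (c : k) (m : M) (φ : tateDual p M) :
    evT p M m (c • φ) = c * evT p M m φ := rfl

/-- Invariance of the evaluation pairing: `⟨g m, g φ⟩ = χ(g) ⟨m, φ⟩`. -/
theorem evT_rho (g : GQ) (m : M) (φ : tateDual p M) :
    evT p M (M.ρ g m) ((tateDual p M).ρ g φ) = (cycloK p k g : k) * evT p M m φ := by
  have h : (tateDual p M).ρ g φ = (cycloK p k g : k) • ((show Module.Dual k M from φ) ∘ₗ M.ρ g⁻¹) :=
    Rep.dualTwist_ρ_apply M (cycloK p k) g φ
  rw [h]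
  show (cycloK p k g : k) * (show Module.Dual k M from φ) (M.ρ g⁻¹ (M.ρ g m)) = _
  have h2 : M.ρ g⁻¹ (M.ρ g m) = m := by
    rw [← Module.End.mul_apply, ← map_mul, inv_mul_cancel, map_one]
    rfl
  rw [h2]
  rfl

variable {H : Type} [Group H] (r : H →* GQ)

/-- The cup product of 1-cochains on a group `H` mapping to `G_ℚ`. -/
def cupH (x : H → M) (y : H → tateDual p M) : H × H → k :=
  fun t => evT p M (x t.1) ((tateDual p M).ρ (r t.1) (y t.2))

theorem cupH_apply (x : H → M) (y : H → tateDual p M) (g h : H) :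
    cupH p M r x y (g, h) = evT p M (x g) ((tateDual p M).ρ (r g) (y h)) := rfl

theorem rho_mul_apply (N : Rep.{0} k GQ) (a b : GQ) (n : N) :
    N.ρ (a * b) n = N.ρ a (N.ρ b n) := by
  rw [map_mul]
  rfl

/-- The cup product of two 1-cocycles is a 2-cocycle of `k(1)`. -/
theorem cupH_cocycle (x : H → M) (y : H → tateDual p M)
    (hx : ∀ g h : H, x (g * h) = M.ρ (r g) (x h) + x g)
    (hy : ∀ g h : H, y (g * h) = (tateDual p M).ρ (r g) (y h) + y g) (g h l : H) :
    (cycloK p k (r g) : k) * cupH p M r x y (h, l) - cupH p M r x y (g * h, l)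
      + cupH p M r x y (g, h * l) - cupH p M r x y (g, h) = 0 := by
  have h1 : (cycloK p k (r g) : k) * cupH p M r x y (h, l) =
      evT p M (M.ρ (r g) (x h)) ((tateDual p M).ρ (r g) ((tateDual p M).ρ (r h) (y l))) :=
    (evT_rho p M (r g) (x h) _).symm
  have h2 : cupH p M r x y (g * h, l) =
      evT p M (M.ρ (r g) (x h)) ((tateDual p M).ρ (r g) ((tateDual p M).ρ (r h) (y l))) +
        evT p M (x g) ((tateDual p M).ρ (r g) ((tateDual p M).ρ (r h) (y l))) := by
    rw [cupH_apply, hx g h, evT_add_left, map_mul, rho_mul_apply]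
  have h3 : cupH p M r x y (g, h * l) =
      evT p M (x g) ((tateDual p M).ρ (r g) ((tateDual p M).ρ (r h) (y l))) +
        evT p M (x g) ((tateDual p M).ρ (r g) (y h)) := by
    rw [cupH_apply, hy h l, map_add]
    exact evT_add_right p M _ _ _
  rw [h1, h2, h3, cupH_apply]
  ring

/-- Left coboundaries: `(d m) ∪ y = d (h ↦ ⟨m, y h⟩)`. -/
theorem cupH_cob_left (m : M) (y : H → tateDual p M)
    (hy : ∀ g h : H, y (g * h) = (tateDual p M).ρ (r g) (y h) + y g) (g h : H) :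
    cupH p M r (fun g => M.ρ (r g) m - m) y (g, h) =
      (cycloK p k (r g) : k) * evT p M m (y h) - evT p M m (y (g * h)) + evT p M m (y g) := by
  have h1 : cupH p M r (fun g => M.ρ (r g) m - m) y (g, h) =
      evT p M (M.ρ (r g) m) ((tateDual p M).ρ (r g) (y h)) -
        evT p M m ((tateDual p M).ρ (r g) (y h)) := by
    rw [cupH_apply]
    exact evT_sub_left p M _ _ _
  have h2 : evT p M m (y (g * h)) =
      evT p M m ((tateDual p M).ρ (r g) (y h)) + evT p M m (y g) := by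
    rw [hy g h]
    exact evT_add_right p M _ _ _
  rw [h1, h2, evT_rho]
  ring

/-- Right coboundaries: `x ∪ (d m') = d (g ↦ - ⟨x g, g m'⟩)`. -/
theorem cupH_cob_right (x : H → M) (m' : tateDual p M)
    (hx : ∀ g h : H, x (g * h) = M.ρ (r g) (x h) + x g) (g h : H) :
    cupH p M r x (fun h => (tateDual p M).ρ (r h) m' - m') (g, h) =
      (cycloK p k (r g) : k) * (- evT p M (x h) ((tateDual p M).ρ (r h) m'))
        - (- evT p M (x (g * h)) ((tateDual p M).ρ (r (g * h)) m'))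
        + (- evT p M (x g) ((tateDual p M).ρ (r g) m')) := by
  have h1 : cupH p M r x (fun h => (tateDual p M).ρ (r h) m' - m') (g, h) =
      evT p M (x g) ((tateDual p M).ρ (r g) ((tateDual p M).ρ (r h) m')) -
        evT p M (x g) ((tateDual p M).ρ (r g) m') := by
    rw [cupH_apply, map_sub]
    exact evT_sub_right p M _ _ _
  have h2 : evT p M (x (g * h)) ((tateDual p M).ρ (r (g * h)) m') =
      evT p M (M.ρ (r g) (x h)) ((tateDual p M).ρ (r g) ((tateDual p M).ρ (r h) m')) +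
        evT p M (x g) ((tateDual p M).ρ (r g) ((tateDual p M).ρ (r h) m')) := by
    rw [hx g h, evT_add_left, map_mul, rho_mul_apply]
  rw [h1, h2, evT_rho]
  ring

theorem cupH_add_left (x x' : H → M) (y : H → tateDual p M) :
    cupH p M r (x + x') y = cupH p M r x y + cupH p M r x' y := by
  funext t
  simp only [cupH, Pi.add_apply, evT_add_left]

theorem cupH_add_right (x : H → M) (y y' : H → tateDual p M) :
    cupH p M r x (y + y') = cupH p M r x y + cupH p M r x y' := by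
  funext t
  simp only [cupH, Pi.add_apply, map_add]
  exact evT_add_right p M _ _ _

theorem cupH_smul_left (c : k) (x : H → M) (y : H → tateDual p M) :
    cupH p M r (c • x) y = c • cupH p M r x y := by
  funext t
  simp only [cupH, Pi.smul_apply, evT_smul_left, smul_eq_mul]

theorem cupH_smul_right (c : k) (x : H → M) (y : H → tateDual p M) :
    cupH p M r x (c • y) = c • cupH p M r x y := by
  funext t
  simp only [cupH, Pi.smul_apply, map_smul, smul_eq_mul]
  exact evT_smul_right p M _ _ _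

end cup

/-! ### Part D: sections and projections -/

section linalg

variable {k : Type} [Field k] {G : Type} [Group G]

theorem H1π_surj (A : Rep.{0} k G) : Function.Surjective (H1π A).hom := fun ξ =>
  H1_induction_on (C := fun ξ => ∃ c : cocycles₁ A, (H1π A).hom c = ξ) ξ (fun c => ⟨c, rfl⟩)

/-- A linear section of `H1π`. -/
def h1Sec (A : Rep.{0} k G) : H1 A →ₗ[k] cocycles₁ A :=
  ((H1π A).hom.exists_rightInverse_of_surjective
    (LinearMap.range_eq_top.2 (H1π_surj A))).choose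

theorem H1π_h1Sec (A : Rep.{0} k G) (ξ : H1 A) : (H1π A).hom (h1Sec A ξ) = ξ := by
  have h := ((H1π A).hom.exists_rightInverse_of_surjective
    (LinearMap.range_eq_top.2 (H1π_surj A))).choose_spec
  exact LinearMap.congr_fun h ξ

/-- `h1Sec (H1π c)` differs from `c` by a coboundary. -/
theorem h1Sec_H1π (A : Rep.{0} k G) (c : cocycles₁ A) :
    ∃ m : A, ∀ g : G, (h1Sec A ((H1π A).hom c) : G → A) g = c g + (A.ρ g m - m) := by
  have h : (H1π A).hom (h1Sec A ((H1π A).hom c) - c) = 0 := by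
    rw [map_sub, H1π_h1Sec, sub_self]
  rw [H1π_eq_zero_iff] at h
  obtain ⟨m, hm⟩ := h
  refine ⟨m, fun g => ?_⟩
  have h2 := congrFun hm g
  rw [d₀₁_hom_apply] at h2
  have h3 : ((h1Sec A ((H1π A).hom c) - c : cocycles₁ A) : G → A) g =
      (h1Sec A ((H1π A).hom c) : G → A) g - c g := rfl
  rw [h3] at h2
  rw [h2]
  abel

variable (r : G →* GQ)

theorem exists_levRetr (A : Rep.{0} k G) :
    ∃ g : cocycles₁ A →ₗ[k] levelCocycles₁ r A,
      ∀ c : levelCocycles₁ r A, g (c : cocycles₁ A) = c := by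
  obtain ⟨C, hC⟩ := Submodule.exists_isCompl (levelCocycles₁ r A)
  refine ⟨(levelCocycles₁ r A).projectionOnto C hC, fun c => ?_⟩
  exact Submodule.projectionOnto_apply_left hC c

/-- A linear projection of the cocycles onto the level cocycles. -/
def levProj (A : Rep.{0} k G) : cocycles₁ A →ₗ[k] cocycles₁ A :=
  (levelCocycles₁ r A).subtype ∘ₗ (exists_levRetr r A).choose

theorem levProj_isLevel (A : Rep.{0} k G) (c : cocycles₁ A) :
    IsLevelConstant₁ r (levProj r A c : G → A) :=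
  ((exists_levRetr r A).choose c).2

theorem levProj_of_isLevel (A : Rep.{0} k G) (c : cocycles₁ A)
    (hc : IsLevelConstant₁ r (c : G → A)) : levProj r A c = c := by
  have h3 : (exists_levRetr r A).choose c = ⟨c, hc⟩ :=
    (exists_levRetr r A).choose_spec ⟨c, hc⟩
  show ((levelCocycles₁ r A).subtype ((exists_levRetr r A).choose c)) = c
  rw [h3]
  rfl

end linalg

/-! ### Part E: continuity of cup products -/

section cont

variable {k : Type} [Field k] (p : ℕ) [Fact p.Prime] [CharP k p] (M : Rep.{0} k GQ)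

theorem isLocZ1_of_cocycle (N : Rep.{0} k GQ) (q : Nat.Primes) (c : cocycles₁ (locRep N q))
    (hc : IsLevelConstant₁ (rq q) (c : Gq q → N)) : IsLocZ1 N q (c : Gq q → N) :=
  ⟨fun g h => (mem_cocycles₁_iff (c : Gq q → (locRep N q))).mp c.2 g h, hc⟩

/-- The coboundary of a vector fixed by an open subgroup is level constant. -/
theorem isLevel_cob (N : Rep.{0} k GQ) (q : Nat.Primes) (m : N)
    (hm : ∃ F : IntermediateField ℚ (AlgebraicClosure ℚ), FiniteDimensional ℚ F ∧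
      ∀ s ∈ F.fixingSubgroup, N.ρ s m = m) :
    IsLevelConstant₁ (rq q) (fun g : Gq q => N.ρ (rq q g) m - m) := by
  obtain ⟨F, hF, hfix⟩ := hm
  refine ⟨F, hF, fun g s hs => ?_⟩
  show N.ρ (rq q (g * s)) m - m = N.ρ (rq q g) m - m
  rw [map_mul, rho_mul_apply, hfix _ hs]

/-- Left coboundaries cup to continuous coboundaries. -/
theorem isLocB2_cup_left (q : Nat.Primes) (m : M) (y : Gq q → tateDual p M)
    (hy : IsLocZ1 (tateDual p M) q y) :
    IsLocB2 (cycloK p k) q (cupH p M (rq q) (fun g => M.ρ (rq q g) m - m) y) := by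
  refine ⟨fun h => evT p M m (y h), ?_, fun g h => ?_⟩
  · obtain ⟨F, hF, hc⟩ := hy.2
    exact ⟨F, hF, fun g s hs => by
      show evT p M m (y (g * s)) = evT p M m (y g)
      rw [hc g s hs]⟩
  · exact cupH_cob_left p M (rq q) m y hy.1 g h

/-- Right coboundaries cup to continuous coboundaries. -/
theorem isLocB2_cup_right (q : Nat.Primes) (x : Gq q → M) (hx : IsLocZ1 M q x)
    (m' : tateDual p M)
    (hm' : ∃ F : IntermediateField ℚ (AlgebraicClosure ℚ), FiniteDimensional ℚ F ∧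
      ∀ s ∈ F.fixingSubgroup, (tateDual p M).ρ s m' = m') :
    IsLocB2 (cycloK p k) q
      (cupH p M (rq q) x (fun h => (tateDual p M).ρ (rq q h) m' - m')) := by
  refine ⟨fun g => - evT p M (x g) ((tateDual p M).ρ (rq q g) m'), ?_, fun g h => ?_⟩
  · obtain ⟨F, hF, hc⟩ := hx.2
    obtain ⟨F', hF', hfix⟩ := hm'
    haveI := hF; haveI := hF'
    refine ⟨F ⊔ F', inferInstance, fun g s hs => ?_⟩
    have h1 := hc g s (IntermediateField.fixingSubgroup_antitone le_sup_left hs)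
    have h2 := hfix _ (IntermediateField.fixingSubgroup_antitone le_sup_right hs)
    show - evT p M (x (g * s)) ((tateDual p M).ρ (rq q (g * s)) m') =
      - evT p M (x g) ((tateDual p M).ρ (rq q g) m')
    rw [h1, map_mul, rho_mul_apply, h2]
  · exact cupH_cob_right p M (rq q) x m' hx.1 g h

/-- The cup product of continuous local 1-cocycles is a continuous 2-cocycle. -/
theorem isLocZ2_cup (q : Nat.Primes) (x : Gq q → M) (hx : IsLocZ1 M q x)
    (y : Gq q → tateDual p M) (hy : IsLocZ1 (tateDual p M) q y)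
    (hM' : ∃ F : IntermediateField ℚ (AlgebraicClosure ℚ), FiniteDimensional ℚ F ∧
      ∀ s ∈ F.fixingSubgroup, (tateDual p M).ρ s = 1) :
    IsLocZ2 (cycloK p k) q (cupH p M (rq q) x y) := by
  refine ⟨fun g h l => cupH_cocycle p M (rq q) x y hx.1 hy.1 g h l, ?_⟩
  obtain ⟨F, hF, hc⟩ := hx.2
  obtain ⟨F', hF', hc'⟩ := hy.2
  obtain ⟨F'', hF'', hfix⟩ := hM'
  haveI := hF; haveI := hF'; haveI := hF''
  refine ⟨F ⊔ F' ⊔ F'', inferInstance, fun g g' s s' hs hs' => ?_⟩
  have h1 := hc g s (IntermediateField.fixingSubgroup_antitone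
    (le_sup_left.trans le_sup_left) hs)
  have h2 := hc' g' s' (IntermediateField.fixingSubgroup_antitone
    (le_sup_right.trans le_sup_left) hs')
  have h3 := hfix _ (IntermediateField.fixingSubgroup_antitone le_sup_right hs)
  show evT p M (x (g * s)) ((tateDual p M).ρ (rq q (g * s)) (y (g' * s'))) =
    evT p M (x g) ((tateDual p M).ρ (rq q g) (y g'))
  rw [h1, h2, map_mul, rho_mul_apply, h3]
  rfl

/-- The cup product of level-`Sg` global 1-cocycles is a level-`Sg` 2-cocycle. -/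
theorem isGlobZ2_cup (Sg : Finset Nat.Primes) (x : GQ → M) (hx : IsGlobZ1 Sg M x)
    (y : GQ → tateDual p M) (hy : IsGlobZ1 Sg (tateDual p M) y)
    (hM' : ∃ F : IntermediateField ℚ (AlgebraicClosure ℚ), F.IsUnramifiedOutside Sg ∧
      ∀ s ∈ F.fixingSubgroup, (tateDual p M).ρ s = 1) :
    IsGlobZ2 (cycloK p k) Sg (cupH p M (MonoidHom.id GQ) x y) := by
  refine ⟨fun g h l => cupH_cocycle p M (MonoidHom.id GQ) x y hx.1 hy.1 g h l, ?_⟩
  obtain ⟨F, hF, hc⟩ := hx.2
  obtain ⟨F', hF', hc'⟩ := hy.2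
  obtain ⟨F'', hF'', hfix⟩ := hM'
  haveI := hF.1; haveI := hF'.1; haveI := hF''.1
  refine ⟨F ⊔ F' ⊔ F'', (hF.sup hF').sup hF'', fun g g' s s' hs hs' => ?_⟩
  have h1 := hc g s (IntermediateField.fixingSubgroup_antitone
    (le_sup_left.trans le_sup_left) hs)
  have h2 := hc' g' s' (IntermediateField.fixingSubgroup_antitone
    (le_sup_right.trans le_sup_left) hs')
  have h3 := hfix _ (IntermediateField.fixingSubgroup_antitone le_sup_right hs)
  show evT p M (x (g * s)) ((tateDual p M).ρ (g * s) (y (g' * s'))) =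
    evT p M (x g) ((tateDual p M).ρ g (y g'))
  rw [h1, h2, rho_mul_apply, h3]
  rfl

end cont

/-! ### Part F: the local pairings -/

section main

variable {k : Type} [Field k] (p : ℕ) [Fact p.Prime] [CharP k p] (M : Rep.{0} k GQ)

/-- The underlying function of a local cocycle, with values in `M`. -/
def locFn (N : Rep.{0} k GQ) (q : Nat.Primes) : cocycles₁ (locRep N q) →ₗ[k] (Gq q → N) :=
  (cocycles₁ (locRep N q)).subtype

theorem locFn_apply (N : Rep.{0} k GQ) (q : Nat.Primes) (c : cocycles₁ (locRep N q))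
    (g : Gq q) : locFn N q c g = c g := rfl

/-- The bilinear form on local cocycles: `(x, y) ↦ inv (π x ∪ π y)`, `π` a linear projection
onto the continuous cocycles. -/
def cupForm (q : Nat.Primes) (inv : (Gq q × Gq q → k) →ₗ[k] k) :
    cocycles₁ (locRep M q) →ₗ[k] cocycles₁ (locRep (tateDual p M) q) →ₗ[k] k :=
  LinearMap.mk₂ k
    (fun x y => inv (cupH p M (rq q) (locFn M q (levProj (rq q) (locRep M q) x))
      (locFn (tateDual p M) q (levProj (rq q) (locRep (tateDual p M) q) y))))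
    (fun x x' y => by simp only [map_add, cupH_add_left])
    (fun c x y => by simp only [map_smul, cupH_smul_left, smul_eq_mul])
    (fun x y y' => by simp only [map_add, cupH_add_right])
    (fun c x y => by simp only [map_smul, cupH_smul_right, smul_eq_mul])

theorem cupForm_apply (q : Nat.Primes) (inv : (Gq q × Gq q → k) →ₗ[k] k)
    (x : cocycles₁ (locRep M q)) (y : cocycles₁ (locRep (tateDual p M) q)) :
    cupForm p M q inv x y = inv (cupH p M (rq q) (locFn M q (levProj (rq q) (locRep M q) x))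
      (locFn (tateDual p M) q (levProj (rq q) (locRep (tateDual p M) q) y))) := rfl

/-- The local pairing at `q` on `H¹ × H¹`. -/
def pairAt (q : Nat.Primes) (inv : (Gq q × Gq q → k) →ₗ[k] k) :
    H1 (locRep M q) →ₗ[k] H1 (locRep (tateDual p M) q) →ₗ[k] k :=
  (cupForm p M q inv).compl₁₂ (h1Sec (locRep M q)) (h1Sec (locRep (tateDual p M) q))

theorem pairAt_apply (q : Nat.Primes) (inv : (Gq q × Gq q → k) →ₗ[k] k)
    (ξ : H1 (locRep M q)) (η : H1 (locRep (tateDual p M) q)) :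
    pairAt p M q inv ξ η =
      cupForm p M q inv (h1Sec (locRep M q) ξ) (h1Sec (locRep (tateDual p M) q) η) := rfl

/-- On continuous cocycles the pairing is `inv (x ∪ y)`. -/
theorem pairAt_H1π (hsm : IsSmoothRep M) (hsm' : IsSmoothRep (tateDual p M))
    (q : Nat.Primes) (inv : (Gq q × Gq q → k) →ₗ[k] k)
    (hinv : ∀ z : Gq q × Gq q → k, IsLocB2 (cycloK p k) q z → inv z = 0)
    (cx : cocycles₁ (locRep M q)) (hx : IsLevelConstant₁ (rq q) (cx : Gq q → M))
    (cy : cocycles₁ (locRep (tateDual p M) q))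
    (hy : IsLevelConstant₁ (rq q) (cy : Gq q → tateDual p M)) :
    pairAt p M q inv ((H1π (locRep M q)).hom cx) ((H1π (locRep (tateDual p M) q)).hom cy) =
      inv (cupH p M (rq q) (locFn M q cx) (locFn (tateDual p M) q cy)) := by
  rw [pairAt_apply, cupForm_apply]
  obtain ⟨m, hm⟩ := h1Sec_H1π (locRep M q) cx
  obtain ⟨m', hm'⟩ := h1Sec_H1π (locRep (tateDual p M) q) cy
  have hdm : IsLevelConstant₁ (rq q) (fun g : Gq q => M.ρ (rq q g) m - m) :=
    isLevel_cob M q m (hsm m)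
  have hdm' : IsLevelConstant₁ (rq q)
      (fun g : Gq q => (tateDual p M).ρ (rq q g) m' - m') :=
    isLevel_cob (tateDual p M) q m' (hsm' m')
  have hXeq : locFn M q (h1Sec (locRep M q) ((H1π (locRep M q)).hom cx)) =
      locFn M q cx + (fun g : Gq q => M.ρ (rq q g) m - m) := funext hm
  have hYeq : locFn (tateDual p M) q (h1Sec (locRep (tateDual p M) q)
      ((H1π (locRep (tateDual p M) q)).hom cy)) =
      locFn (tateDual p M) q cy + (fun g : Gq q => (tateDual p M).ρ (rq q g) m' - m') :=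
    funext hm'
  have hlx : IsLevelConstant₁ (rq q)
      (h1Sec (locRep M q) ((H1π (locRep M q)).hom cx) : Gq q → M) := by
    have h := hx.add hdm
    have h2 : (h1Sec (locRep M q) ((H1π (locRep M q)).hom cx) : Gq q → M) =
        (cx : Gq q → M) + (fun g : Gq q => M.ρ (rq q g) m - m) := hXeq
    rw [h2]
    exact h
  have hly : IsLevelConstant₁ (rq q)
      (h1Sec (locRep (tateDual p M) q) ((H1π (locRep (tateDual p M) q)).hom cy) :
        Gq q → tateDual p M) := by
    have h := hy.add hdm'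
    have h2 : (h1Sec (locRep (tateDual p M) q) ((H1π (locRep (tateDual p M) q)).hom cy) :
        Gq q → tateDual p M) =
        (cy : Gq q → tateDual p M) +
          (fun g : Gq q => (tateDual p M).ρ (rq q g) m' - m') := hYeq
    rw [h2]
    exact h
  rw [levProj_of_isLevel (rq q) (locRep M q) _ hlx,
    levProj_of_isLevel (rq q) (locRep (tateDual p M) q) _ hly]
  have hYZ1 : IsLocZ1 (tateDual p M) q (locFn (tateDual p M) q
      (h1Sec (locRep (tateDual p M) q) ((H1π (locRep (tateDual p M) q)).hom cy))) :=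
    isLocZ1_of_cocycle (tateDual p M) q _ hly
  have hXZ1 : IsLocZ1 M q (locFn M q cx) := isLocZ1_of_cocycle M q cx hx
  rw [hXeq, cupH_add_left, map_add, hinv _ (isLocB2_cup_left p M q m _ hYZ1), add_zero,
    hYeq, cupH_add_right, map_add, hinv _ (isLocB2_cup_right p M q _ hXZ1 m' (hsm' m')),
    add_zero]

/-- **GW-CORE from its three sub-packages.** -/
theorem gw_core_of_inv (hINV : Stmt_INV) (hPERF : Stmt_PERF_cup) (hLB : Stmt_LB) :
    Stmt_GW_core := by
  intro p _ hp2 k _ _ _ M _ hsm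
  obtain ⟨inv, hB, hNZ, hREC⟩ := hINV p hp2 k
  obtain ⟨hM'fd, hM'sm, hM'ur⟩ := H47.tate_basic p k M hsm
  haveI := hM'fd
  refine ⟨⟨0, fun q => pairAt p M q (inv q)⟩, ?_, ?_⟩
  · -- tame local duality
    intro q hq1 hur y hy hxy
    obtain ⟨cy, hcy, rfl⟩ := (mem_continuousH1_iff _ _ y).1 hy
    have hM'lev := exists_level_fin (tateDual p M) hM'sm
    have hyZ1 := isLocZ1_of_cocycle (tateDual p M) q cy hcy
    obtain ⟨m', hm'⟩ := hPERF p hp2 k M hsm q hq1 hur (locFn (tateDual p M) q cy) hyZ1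
      (fun x hx => by
        let cx : cocycles₁ (locRep M q) :=
          ⟨x, (mem_cocycles₁_iff (A := locRep M q) x).2 hx.1⟩
        have h0 := hxy ((H1π (locRep M q)).hom cx) (H1π_mem_continuousH1 _ _ hx.2)
        have h1 : pairAt p M q (inv q) ((H1π (locRep M q)).hom cx)
            ((H1π (locRep (tateDual p M) q)).hom cy) = 0 := h0
        rw [pairAt_H1π p M hsm hM'sm q (inv q) (hB q) cx hx.2 cy hcy] at h1
        exact hNZ q hq1 _ (isLocZ2_cup p M q x hx (locFn (tateDual p M) q cy) hyZ1 hM'lev) h1)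
    rw [H1π_eq_zero_iff]
    refine ⟨m', funext fun g => ?_⟩
    rw [d₀₁_hom_apply]
    exact (hm' g).symm
  · intro Sg hpSg hur
    refine ⟨?_, hLB p hp2 k M hsm Sg hpSg hur⟩
    intro x hx y hy
    obtain ⟨cx, hcx, rfl⟩ := (mem_continuousH1S_iff Sg M x).1 hx
    obtain ⟨cy, hcy, rfl⟩ := (mem_continuousH1S_iff Sg (tateDual p M) y).1 hy
    have hur' : ∀ q : Nat.Primes, q ∉ Sg → IsUnramifiedRepAt (tateDual p M) (q : ℕ) := by
      intro q hq
      refine hM'ur q q.2 ?_ (hur q hq)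
      intro h
      apply hq
      have h1 : q = pPrime p := Subtype.ext h
      rw [h1]
      exact hpSg
    have hlev := exists_level_unr (tateDual p M) hM'sm Sg hur'
    have hxZ : IsGlobZ1 Sg M (cx : GQ → M) :=
      ⟨fun g h => (mem_cocycles₁_iff (cx : GQ → M)).mp cx.2 g h, hcx⟩
    have hyZ : IsGlobZ1 Sg (tateDual p M) (cy : GQ → tateDual p M) :=
      ⟨fun g h => (mem_cocycles₁_iff (cy : GQ → tateDual p M)).mp cy.2 g h, hcy⟩
    have hz := isGlobZ2_cup p M Sg _ hxZ _ hyZ hlev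
    have hrec := hREC Sg hpSg _ hz
    rw [← hrec]
    refine Finset.sum_congr rfl fun q _ => ?_
    show pairAt p M q (inv q) (resAt M q ((H1π M).hom cx))
      (resAt (tateDual p M) q ((H1π (tateDual p M)).hom cy)) = _
    rw [resAt_H1π, resAt_H1π]
    have hlx : IsLevelConstant₁ (rq q)
        (((mapCocycles₁ (primeLocalToGlobal q)
          (𝟙 (Rep.res (primeLocalToGlobal q) M))).hom cx : cocycles₁ (locRep M q)) :
          Gq q → M) := by
      obtain ⟨F, hF, hc⟩ := hcx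
      refine ⟨F, hF.1, fun g s hs => ?_⟩
      show cx (rq q (g * s)) = cx (rq q g)
      rw [map_mul]
      exact hc _ _ hs
    have hly : IsLevelConstant₁ (rq q)
        (((mapCocycles₁ (primeLocalToGlobal q)
          (𝟙 (Rep.res (primeLocalToGlobal q) (tateDual p M)))).hom cy :
            cocycles₁ (locRep (tateDual p M) q)) : Gq q → tateDual p M) := by
      obtain ⟨F, hF, hc⟩ := hcy
      refine ⟨F, hF.1, fun g s hs => ?_⟩
      show cy (rq q (g * s)) = cy (rq q g)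
      rw [map_mul]
      exact hc _ _ hs
    rw [pairAt_H1π p M hsm hM'sm q (inv q) (hB q) _ hlx _ hly]
    rfl

end main

end Fermat.Agent.S56

end

end
-- ==== END Fermat.Agent.S56.GW.Core
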