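-- GENERATED (merged mirror, NOTES/tools/trim/merge3_helper67.py): 9 modules of the originals, bodies verbatim.
import Mathlib.Analysis.Normed.Module.Connected
import Mathlib.Analysis.Calculus.DSlope
import Mathlib.Analysis.Calculus.MeanValue
import Mathlib.Analysis.Analytic.IsolatedZeros
import Mathlib.Analysis.Analytic.Uniqueness
import Mathlib.Analysis.Meromorphic.Order
import Mathlib.NumberTheory.LSeries.HurwitzZetaValues
import Mathlib.NumberTheory.ModularForms.LevelOne.GradedRing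
import Fermat.Agent.Zm.S15_L01_000
import Fermat.Agent.Zm.S35_L16_001
import Fermat.Agent.Zm.S35_L18_000
import Fermat.Agent.Zm.S44_L08_000
import Fermat.Agent.S15.Bridge.H45_InjSurj
import Fermat.Agent.Zm.S33_L04_001
import Fermat.Agent.Zm.S56_L10_002
import Fermat.Agent.Zm.S56_L10_003
import Fermat.Agent.Zm.S56_L12_001

-- ==== BEGIN Fermat.Agent.BAD.H28_GlueW
section

/-!
# Item 65 / row 37 (S43, leaf FROB-T), abstract form (helper28): GLUE with a swap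

Setting: a semistable Deuring datum `S` (two components, nodes), a Frobenius-like semilinear
automorphism `τ` of exponent `Q` which PERMUTES the nodes, and an automorphism `W` which SWAPS
the two components (`V₁ ↔ V₂`, reductions `ι : F₁ → F₂`, `ι' : F₂ → F₁`, values at the branches
preserved) and permutes the nodes in the same way as `τ` (the Atkin--Lehner involution `w_q` on
`X₀(Mq)`: the node `(s, φ s)`, `s` supersingular, goes to `(φ s, s) = φ (s, φ s)`).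

* `SSD.IsFrobSwap S τ W τ₁ τ₂ ι ι' Q` : the hypotheses on `(τ, W)`.
* `Stmt_GlueFrobW` : on the toric part (the two scaled reductions of the Kummer function `f` are
  `n`-th powers, `n ∣ div f`) one has `τ f · (W f) ^ Q ∈ (F^×)^n`, i.e. `φ = - Q · w` on `T`
  (`ε = -1` in `NOTES/plan/L_S43_BADQ.md`).
* `H28.glueCoreW` : the core (for a unit `F_h` in good position).
* `H28.glueFrobW_of : Stmt_Moving → Stmt_GoodLift → Stmt_TIss → Stmt_GlueFrobW`.
* `stmt_GlueFrobW : Stmt_GlueFrobW` (unconditional).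
* `H28.glueFrobW_two` : the form with two Kummer functions (`f` for `x`, `f'` for `w x`).

Proof.  Moving lemma: `F_h = a₁ f y ^ n` unit for both valuations, no zero or pole on the fibres
of the nodes, reductions `ψ₁ ^ n`, `ψ₂ ^ n`, `ψ_i` units at the branches.  The glue invariant of
`F_h` at the node `s` is `ζ_s = ψ₁(s₁) / ψ₂(s₂) ∈ μ_n`; `τ F_h` has invariant `ζ_s ^ Q` at `τ s`,
`W F_h` has invariant `ζ_s⁻¹` at `W s = τ s`.  So `U₁ = τ₁ ψ₁ (ι' ψ₂) ^ Q` and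
`U₂ = τ₂ ψ₂ (ι ψ₁) ^ Q` have the same values at the two branches of every node; lift `(U₁, U₂)`
to `u` (good lift); `τ F_h (W F_h) ^ Q / u ^ n` satisfies TI-ss-gp.
-/

set_option autoImplicit false
set_option linter.style.haveILetI false
set_option maxHeartbeats 1000000

noncomputable section

open AlgebraicCurve

attribute [local instance] Classical.propDecidable

namespace Fermat.Agent.BAD

open Fermat.Agent.RED.H17 Fermat.Agent.RED

namespace SSD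

variable {K F k F₁ F₂ : Type*} [Field K] [Field F] [Algebra K F] [Field k] [Field F₁]
  [Algebra k F₁] [Field F₂] [Algebra k F₂]

/-- `τ` is Frobenius-like of exponent `Q`, `W` swaps the two components, and both induce the
same permutation of the nodes (for every node `s'` there is a node `s` with `τ s = s' = W s`;
this is expressed through the values at the branches). -/
structure IsFrobSwap (S : SSD K F k F₁ F₂) (τ W : SemilinearAut K F) (τ₁ : F₁ →+* F₁)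
    (τ₂ : F₂ →+* F₂) (ι : F₁ →+* F₂) (ι' : F₂ →+* F₁) (Q : ℕ) : Prop where
  mem₁ : ∀ f : F, f ∈ S.c₁.V → τ • f ∈ S.c₁.V
  mem₂ : ∀ f : F, f ∈ S.c₂.V → τ • f ∈ S.c₂.V
  red₁ : ∀ (f : F) (h : f ∈ S.c₁.V) (h' : τ • f ∈ S.c₁.V),
    S.c₁.red ⟨_, h'⟩ = τ₁ (S.c₁.red ⟨f, h⟩)
  red₂ : ∀ (f : F) (h : f ∈ S.c₂.V) (h' : τ • f ∈ S.c₂.V),
    S.c₂.red ⟨_, h'⟩ = τ₂ (S.c₂.red ⟨f, h⟩)
  node : ∀ P : Place K F, S.IsNodeP P → S.IsNodeP (τ⁻¹ • P)
  wmem₁ : ∀ f : F, f ∈ S.c₁.V → W • f ∈ S.c₂.V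
  wmem₂ : ∀ f : F, f ∈ S.c₂.V → W • f ∈ S.c₁.V
  wred₁ : ∀ (f : F) (h : f ∈ S.c₁.V) (h' : W • f ∈ S.c₂.V),
    S.c₂.red ⟨_, h'⟩ = ι (S.c₁.red ⟨f, h⟩)
  wred₂ : ∀ (f : F) (h : f ∈ S.c₂.V) (h' : W • f ∈ S.c₁.V),
    S.c₁.red ⟨_, h'⟩ = ι' (S.c₂.red ⟨f, h⟩)
  wnode : ∀ P : Place K F, S.IsNodeP P → S.IsNodeP (W⁻¹ • P)
  val : ∀ s' ∈ S.nodes, ∃ s ∈ S.nodes,
    (∀ (ψ : F₁) (a : k), VanAt s.1 (ψ - algebraMap k F₁ a) →
      VanAt s'.1 (τ₁ ψ - algebraMap k F₁ (a ^ Q))) ∧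
    (∀ (ψ : F₂) (a : k), VanAt s.2 (ψ - algebraMap k F₂ a) →
      VanAt s'.2 (τ₂ ψ - algebraMap k F₂ (a ^ Q))) ∧
    (∀ (ψ : F₁) (a : k), VanAt s.1 (ψ - algebraMap k F₁ a) →
      VanAt s'.2 (ι ψ - algebraMap k F₂ a)) ∧
    (∀ (ψ : F₂) (a : k), VanAt s.2 (ψ - algebraMap k F₂ a) →
      VanAt s'.1 (ι' ψ - algebraMap k F₁ a))

end SSD

/-- **GLUE with a swap (FROB-T, abstract form).**  On the toric part, `τ f · (W f) ^ Q` is an
`n`-th power. -/
def Stmt_GlueFrobW : Prop :=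
  ∀ (K F k F₁ F₂ : Type) [Field K] [Field F] [Algebra K F] [Field k] [Field F₁]
    [Algebra k F₁] [Field F₂] [Algebra k F₂] [IsAlgClosed K] [IsAlgClosed k]
    (S : SSD K F k F₁ F₂) (_ : FFHyp K F) (_ : FFHyp k F₁) (_ : FFHyp k F₂)
    (g g₁ g₂ : ℕ) (c c₁ c₂ : ℤ), IsGenus K F g c → IsGenus k F₁ g₁ c₁ → IsGenus k F₂ g₂ c₂ →
    g + 1 ≤ g₁ + g₂ + S.nodes.card →
    ∀ (n : ℕ), (n : k) ≠ 0 →
    ∀ (τ W : SemilinearAut K F) (τ₁ : F₁ →+* F₁) (τ₂ : F₂ →+* F₂) (ι : F₁ →+* F₂)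
      (ι' : F₂ →+* F₁) (Q : ℕ), S.IsFrobSwap τ W τ₁ τ₂ ι ι' Q →
    ∀ (f : F) (a₁ a₂ : K) (h₁ : F₁) (h₂ : F₂), h₁ ≠ 0 → h₂ ≠ 0 →
      algebraMap K F a₁ * f ∈ S.c₁.V → S.c₁.rd (algebraMap K F a₁ * f) = h₁ ^ n →
      algebraMap K F a₂ * f ∈ S.c₂.V → S.c₂.rd (algebraMap K F a₂ * f) = h₂ ^ n →
      (∀ P : Place K F, (n : ℤ) ∣ P.ord f) →
      ∃ t : F, t ^ n = (τ • f) * (W • f) ^ Q

namespace H28

open Fermat.Agent.BAD.H60

section OneField

variable {k F : Type*} [Field k] [Field F] [Algebra k F]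

/-- The value of a product. -/
theorem vanAt_mul_sub {v : Place k F} {x y : F} {a b : k}
    (hx : VanAt v (x - algebraMap k F a)) (hy : VanAt v (y - algebraMap k F b)) :
    VanAt v (x * y - algebraMap k F (a * b)) := by
  have h1 := (RegAt.of_vanAt_sub hy).mul_vanAt hx
  have h2 := (regAt_algebraMap v a).mul_vanAt hy
  have h3 := h1.add h2
  have e : x * y - algebraMap k F (a * b) =
      y * (x - algebraMap k F a) + algebraMap k F a * (y - algebraMap k F b) := by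
    rw [map_mul]
    ring
  rw [e]
  exact h3

/-- An identity in a field. -/
theorem pow_mul_div_aux {E : Type*} [Field E] (A B : E) (n Q : ℕ) (hA : A ≠ 0) (hB : B ≠ 0) :
    A ^ n * (B ^ n) ^ Q / (A * B ^ Q) ^ n = 1 := by
  have h1 : (A * B ^ Q) ^ n = A ^ n * (B ^ n) ^ Q := by
    rw [mul_pow, ← pow_mul, ← pow_mul, mul_comm Q n]
  rw [h1, div_self (mul_ne_zero (pow_ne_zero _ hA) (pow_ne_zero _ (pow_ne_zero _ hB)))]

end OneField

/-- A semilinear automorphism maps non-zero elements to non-zero elements. -/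
theorem smul_ne_zero_of_ne_zero {K F : Type*} [Field K] [Field F] [Algebra K F]
    (τ : SemilinearAut K F) {y : F} (hy : y ≠ 0) : τ • y ≠ 0 := by
  intro h0
  apply hy
  have := congrArg (fun z => τ⁻¹ • z) h0
  simpa using this

/-- The core of GLUE with a swap: for a unit `F_h` for both valuations, without zero or pole on
the fibres of the nodes, with reductions `ψ₁ ^ n`, `ψ₂ ^ n` and divisor divisible by `n`, the
function `τ F_h · (W F_h) ^ Q` is an `n`-th power. -/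
theorem glueCoreW (hGL : Stmt_GoodLift) (hTI : Stmt_TIss)
    {K F k F₁ F₂ : Type} [Field K] [Field F] [Algebra K F] [Field k] [Field F₁]
    [Algebra k F₁] [Field F₂] [Algebra k F₂] [IsAlgClosed K] [IsAlgClosed k]
    (S : SSD K F k F₁ F₂) (H : FFHyp K F) (H₁ : FFHyp k F₁) (H₂ : FFHyp k F₂)
    (g g₁ g₂ : ℕ) (c c₁ c₂ : ℤ) (hR : IsGenus K F g c) (hR₁ : IsGenus k F₁ g₁ c₁)
    (hR₂ : IsGenus k F₂ g₂ c₂) (hnum : g + 1 ≤ g₁ + g₂ + S.nodes.card)
    (n : ℕ) (hn : (n : k) ≠ 0)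
    (τ W : SemilinearAut K F) (τ₁ : F₁ →+* F₁) (τ₂ : F₂ →+* F₂) (ι : F₁ →+* F₂)
    (ι' : F₂ →+* F₁) (Q : ℕ) (hτ : S.IsFrobSwap τ W τ₁ τ₂ ι ι' Q)
    (Fh : F) (ψ₁ : F₁) (ψ₂ : F₂) (hFh₁ : S.c₁.IsGU Fh) (hFh₂ : S.c₂.IsGU Fh)
    (hrdF₁ : S.c₁.rd Fh = ψ₁ ^ n) (hrdF₂ : S.c₂.rd Fh = ψ₂ ^ n)
    (hordF : ∀ P : Place K F, (n : ℤ) ∣ P.ord Fh)
    (hnode : ∀ P : Place K F, S.IsNodeP P → P.ord Fh = 0) :
    ∃ t : F, t ^ n = (τ • Fh) * (W • Fh) ^ Q := by
  have hn0 : n ≠ 0 := by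
    rintro rfl
    exact hn Nat.cast_zero
  have hFh0 : Fh ≠ 0 := hFh₁.ne_zero
  have hψ₁0 : ψ₁ ≠ 0 := by
    rintro rfl
    apply hFh₁.2
    rw [hrdF₁, zero_pow hn0]
  have hψ₂0 : ψ₂ ≠ 0 := by
    rintro rfl
    apply hFh₂.2
    rw [hrdF₂, zero_pow hn0]
  have hordψ : ∀ s ∈ S.nodes, s.1.ord ψ₁ = 0 ∧ s.2.ord ψ₂ = 0 := by
    intro s hs
    obtain ⟨h1, h2⟩ := ord_rd_eq_zero_of_node S H.principal hFh₁ hFh₂ hnode hs
    rw [hrdF₁, ord_pow] at h1
    rw [hrdF₂, ord_pow] at h2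
    have hnZ : (n : ℤ) ≠ 0 := by exact_mod_cast hn0
    exact ⟨(mul_eq_zero.mp h1).resolve_left hnZ, (mul_eq_zero.mp h2).resolve_left hnZ⟩
  -- the functions `U₁`, `U₂`
  set U₁ : F₁ := τ₁ ψ₁ * ι' ψ₂ ^ Q with hU₁
  set U₂ : F₂ := τ₂ ψ₂ * ι ψ₁ ^ Q with hU₂
  have hτψ₁0 : τ₁ ψ₁ ≠ 0 := (map_ne_zero τ₁).mpr hψ₁0
  have hτψ₂0 : τ₂ ψ₂ ≠ 0 := (map_ne_zero τ₂).mpr hψ₂0
  have hιψ₁0 : ι ψ₁ ≠ 0 := (map_ne_zero ι).mpr hψ₁0
  have hιψ₂0 : ι' ψ₂ ≠ 0 := (map_ne_zero ι').mpr hψ₂0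
  have hU₁0 : U₁ ≠ 0 := mul_ne_zero hτψ₁0 (pow_ne_zero _ hιψ₂0)
  have hU₂0 : U₂ ≠ 0 := mul_ne_zero hτψ₂0 (pow_ne_zero _ hιψ₁0)
  have hval : ∀ s' ∈ S.nodes, ∃ a : k, a ≠ 0 ∧ VanAt s'.1 (U₁ - algebraMap k F₁ a) ∧
      VanAt s'.2 (U₂ - algebraMap k F₂ a) := by
    intro s' hs'
    obtain ⟨s, hs, hv₁, hv₂, hw₁, hw₂⟩ := hτ.val s' hs'
    obtain ⟨b₁, hb₁0, hb₁⟩ := exists_value_ne_zero (H₁.deg_one s.1) hψ₁0 (hordψ s hs).1
    obtain ⟨b₂, hb₂0, hb₂⟩ := exists_value_ne_zero (H₂.deg_one s.2) hψ₂0 (hordψ s hs).2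
    refine ⟨b₁ ^ Q * b₂ ^ Q, mul_ne_zero (pow_ne_zero _ hb₁0) (pow_ne_zero _ hb₂0), ?_, ?_⟩
    · exact vanAt_mul_sub (hv₁ ψ₁ b₁ hb₁) (vanAt_pow_sub (hw₂ ψ₂ b₂ hb₂) Q)
    · have := vanAt_mul_sub (hv₂ ψ₂ b₂ hb₂) (vanAt_pow_sub (hw₁ ψ₁ b₁ hb₁) Q)
      rwa [mul_comm (b₂ ^ Q) (b₁ ^ Q)] at this
  -- the lift `u`
  obtain ⟨u, hu1, hu2, hrdu₁, hrdu₂, -, -, hureg⟩ := hGL K F k F₁ F₂ S H H₁ H₂ g g₁ g₂ c c₁ c₂
    hR hR₁ hR₂ hnum U₁ U₂ ∅ ∅ (fun Q hQ => absurd hQ (Finset.notMem_empty Q))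
    (fun Q hQ => absurd hQ (Finset.notMem_empty Q))
    (fun s hs => by
      obtain ⟨a, -, ha₁, ha₂⟩ := hval s hs
      exact ⟨a, ha₁, ha₂⟩)
  have huGU₁ : S.c₁.IsGU u := ⟨hu1, by rw [hrdu₁]; exact hU₁0⟩
  have huGU₂ : S.c₂.IsGU u := ⟨hu2, by rw [hrdu₂]; exact hU₂0⟩
  have hu0 : u ≠ 0 := huGU₁.ne_zero
  have hunode : ∀ P, S.IsNodeP P → P.ord u = 0 :=
    ord_eq_zero_of_isNodeP S H.principal huGU₁ huGU₂ hureg
      (fun s hs => by
        obtain ⟨a, ha0, ha₁, -⟩ := hval s hs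
        rw [hrdu₁]
        exact (ord_eq_zero_of_vanAt_sub ha0 ha₁).2)
      (fun s hs => by
        obtain ⟨a, ha0, -, ha₂⟩ := hval s hs
        rw [hrdu₂]
        exact (ord_eq_zero_of_vanAt_sub ha0 ha₂).2)
  -- `τ F_h`
  have hτ₁ : S.c₁.IsGU (τ • Fh) ∧ S.c₁.rd (τ • Fh) = τ₁ ψ₁ ^ n := by
    have hm := hτ.mem₁ Fh hFh₁.1
    have hr : S.c₁.rd (τ • Fh) = τ₁ ψ₁ ^ n := by
      rw [S.c₁.rd_of_mem hm, hτ.red₁ Fh hFh₁.1 hm, ← S.c₁.rd_of_mem hFh₁.1, hrdF₁, map_pow]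
    exact ⟨⟨hm, by rw [hr]; exact pow_ne_zero _ hτψ₁0⟩, hr⟩
  have hτ₂ : S.c₂.IsGU (τ • Fh) ∧ S.c₂.rd (τ • Fh) = τ₂ ψ₂ ^ n := by
    have hm := hτ.mem₂ Fh hFh₂.1
    have hr : S.c₂.rd (τ • Fh) = τ₂ ψ₂ ^ n := by
      rw [S.c₂.rd_of_mem hm, hτ.red₂ Fh hFh₂.1 hm, ← S.c₂.rd_of_mem hFh₂.1, hrdF₂, map_pow]
    exact ⟨⟨hm, by rw [hr]; exact pow_ne_zero _ hτψ₂0⟩, hr⟩
  -- `W F_h`
  have hW₁ : S.c₁.IsGU (W • Fh) ∧ S.c₁.rd (W • Fh) = ι' ψ₂ ^ n := by
    have hm := hτ.wmem₂ Fh hFh₂.1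
    have hr : S.c₁.rd (W • Fh) = ι' ψ₂ ^ n := by
      rw [S.c₁.rd_of_mem hm, hτ.wred₂ Fh hFh₂.1 hm, ← S.c₂.rd_of_mem hFh₂.1, hrdF₂, map_pow]
    exact ⟨⟨hm, by rw [hr]; exact pow_ne_zero _ hιψ₂0⟩, hr⟩
  have hW₂ : S.c₂.IsGU (W • Fh) ∧ S.c₂.rd (W • Fh) = ι ψ₁ ^ n := by
    have hm := hτ.wmem₁ Fh hFh₁.1
    have hr : S.c₂.rd (W • Fh) = ι ψ₁ ^ n := by
      rw [S.c₂.rd_of_mem hm, hτ.wred₁ Fh hFh₁.1 hm, ← S.c₁.rd_of_mem hFh₁.1, hrdF₁, map_pow]
    exact ⟨⟨hm, by rw [hr]; exact pow_ne_zero _ hιψ₁0⟩, hr⟩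
  -- the function `gg = τ F_h (W F_h) ^ Q / u ^ n`
  set gg : F := (τ • Fh) * (W • Fh) ^ Q / u ^ n with hgg
  have hnum₁ : S.c₁.IsGU ((τ • Fh) * (W • Fh) ^ Q) := hτ₁.1.mul (hW₁.1.pow Q)
  have hnum₂ : S.c₂.IsGU ((τ • Fh) * (W • Fh) ^ Q) := hτ₂.1.mul (hW₂.1.pow Q)
  have hgg₁ : S.c₁.IsGU gg := hnum₁.div (huGU₁.pow n)
  have hgg₂ : S.c₂.IsGU gg := hnum₂.div (huGU₂.pow n)
  have hggrd₁ : S.c₁.rd gg = 1 := by
    rw [hnum₁.rd_div (huGU₁.pow n), S.c₁.rd_mul hτ₁.1.1 (hW₁.1.pow Q).1, hτ₁.2,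
      S.c₁.rd_pow hW₁.1.1, hW₁.2, S.c₁.rd_pow hu1, hrdu₁, hU₁]
    exact pow_mul_div_aux _ _ n Q hτψ₁0 hιψ₂0
  have hggrd₂ : S.c₂.rd gg = 1 := by
    rw [hnum₂.rd_div (huGU₂.pow n), S.c₂.rd_mul hτ₂.1.1 (hW₂.1.pow Q).1, hτ₂.2,
      S.c₂.rd_pow hW₂.1.1, hW₂.2, S.c₂.rd_pow hu2, hrdu₂, hU₂]
    exact pow_mul_div_aux _ _ n Q hτψ₂0 hιψ₁0
  -- orders
  have hordτ : ∀ (σ : SemilinearAut K F) (P : Place K F) (y : F),
      P.ord (σ • y) = (σ⁻¹ • P).ord y := by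
    intro σ P y
    have := SemilinearAut.ord_smul σ (σ⁻¹ • P) y
    rwa [smul_inv_smul] at this
  have hτF0 : τ • Fh ≠ 0 := hτ₁.1.ne_zero
  have hWF0 : W • Fh ≠ 0 := hW₁.1.ne_zero
  have hordg : ∀ P : Place K F,
      P.ord gg = (τ⁻¹ • P).ord Fh + Q * (W⁻¹ • P).ord Fh - n * P.ord u := by
    intro P
    rw [hgg, ord_div P (mul_ne_zero hτF0 (pow_ne_zero _ hWF0)) (pow_ne_zero _ hu0),
      P.ord_mul hτF0 (pow_ne_zero _ hWF0), ord_pow, ord_pow, hordτ, hordτ]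
  have hdivg : ∀ P : Place K F, (n : ℤ) ∣ P.ord gg := by
    intro P
    rw [hordg]
    exact dvd_sub (dvd_add (hordF _) (dvd_mul_of_dvd_right (hordF _) _)) (dvd_mul_right _ _)
  have hnodeg : ∀ P : Place K F, S.IsNodeP P → P.ord gg = 0 := by
    intro P hP
    rw [hordg, hnode _ (hτ.node P hP), hnode _ (hτ.wnode P hP), hunode P hP]
    ring
  obtain ⟨t, ht⟩ := hTI K F k F₁ F₂ S H H₁ H₂ g g₁ g₂ c c₁ c₂ hR hR₁ hR₂ hnum n hn gg
    hgg₁.1 hgg₂.1 hggrd₁ hggrd₂ hdivg hnodeg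
  refine ⟨t * u, ?_⟩
  rw [mul_pow, ht, hgg]
  have h2 : u ^ n ≠ 0 := pow_ne_zero _ hu0
  field_simp

/-- **GLUE with a swap**, from the moving lemma, good lifts and TI-ss-gp. -/
theorem glueFrobW_of (hMv : Stmt_Moving) (hGL : Stmt_GoodLift) (hTI : Stmt_TIss) :
    Stmt_GlueFrobW := by
  intro K F k F₁ F₂ _ _ _ _ _ _ _ _ _ _ S H H₁ H₂ g g₁ g₂ c c₁ c₂ hR hR₁ hR₂ hnum n hn τ W τ₁ τ₂
    ι ι' Q hτ f a₁ a₂ h₁ h₂ hh₁ hh₂ hm₁ hr₁ hm₂ hr₂ hdiv
  have hn0 : n ≠ 0 := by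
    rintro rfl
    exact hn Nat.cast_zero
  have hnpos : 0 < n := Nat.pos_of_ne_zero hn0
  have hGU₁ : S.c₁.IsGU (algebraMap K F a₁ * f) := ⟨hm₁, by rw [hr₁]; exact pow_ne_zero _ hh₁⟩
  have hGU₂ : S.c₂.IsGU (algebraMap K F a₂ * f) := ⟨hm₂, by rw [hr₂]; exact pow_ne_zero _ hh₂⟩
  have hf0 : f ≠ 0 := right_ne_zero_of_mul hGU₁.ne_zero
  have hA₁ : algebraMap K F a₁ ≠ 0 := left_ne_zero_of_mul hGU₁.ne_zero
  have hA₂ : algebraMap K F a₂ ≠ 0 := left_ne_zero_of_mul hGU₂.ne_zero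
  have ha₁ : a₁ ≠ 0 := fun h0 => hA₁ (by rw [h0, map_zero])
  have ha₂ : a₂ ≠ 0 := fun h0 => hA₂ (by rw [h0, map_zero])
  -- lifts of `h₁`, `h₂`
  obtain ⟨X₁, hX₁m, hX₁r⟩ := S.c₁.exists_rd_eq h₁
  obtain ⟨X₂, hX₂m, hX₂r⟩ := S.c₂.exists_rd_eq h₂
  have hX₁ : S.c₁.IsGU X₁ := ⟨hX₁m, by rw [hX₁r]; exact hh₁⟩
  have hX₂ : S.c₂.IsGU X₂ := ⟨hX₂m, by rw [hX₂r]; exact hh₂⟩
  have hX₁0 : X₁ ≠ 0 := hX₁.ne_zero
  have hX₂0 : X₂ ≠ 0 := hX₂.ne_zero
  obtain ⟨e, he⟩ := IsAlgClosed.exists_pow_nat_eq (a₁ / a₂) hnpos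
  have he0 : e ≠ 0 := by
    rintro rfl
    rw [zero_pow hn0] at he
    exact div_ne_zero ha₁ ha₂ he.symm
  have hE0 : algebraMap K F e ≠ 0 := fun h0 => he0 ((map_eq_zero (algebraMap K F)).mp h0)
  have hEn : algebraMap K F e ^ n = algebraMap K F a₁ / algebraMap K F a₂ := by
    rw [← map_pow, he, map_div₀]
  -- the normalised function and the twist
  set f' : F := algebraMap K F a₁ * f / X₁ ^ n with hf'
  set ϑ : F := algebraMap K F e * X₂ / X₁ with hϑ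
  have hϑ0 : ϑ ≠ 0 := div_ne_zero (mul_ne_zero hE0 hX₂0) hX₁0
  have hf'GU : S.c₁.IsGU f' := hGU₁.div (hX₁.pow n)
  have hf'rd : S.c₁.rd f' = 1 := by
    rw [hf', hGU₁.rd_div (hX₁.pow n), hr₁, S.c₁.rd_pow hX₁m, hX₁r,
      div_self (pow_ne_zero _ hh₁)]
  have key : f' / ϑ ^ n = algebraMap K F a₂ * f / X₂ ^ n := by
    rw [hf', hϑ, div_pow, mul_pow, hEn]
    have h1 : X₁ ^ n ≠ 0 := pow_ne_zero _ hX₁0
    have h2 : X₂ ^ n ≠ 0 := pow_ne_zero _ hX₂0
    field_simp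
  have hf'₂ : S.c₂.IsGU (f' / ϑ ^ n) := by
    rw [key]
    exact hGU₂.div (hX₂.pow n)
  have hf'₂rd : S.c₂.rd (f' / ϑ ^ n) = 1 := by
    rw [key, hGU₂.rd_div (hX₂.pow n), hr₂, S.c₂.rd_pow hX₂m, hX₂r,
      div_self (pow_ne_zero _ hh₂)]
  have hf'0 : f' ≠ 0 := hf'GU.ne_zero
  have hdiv' : ∀ P : Place K F, (n : ℤ) ∣ P.ord f' := by
    intro P
    rw [hf', ord_div P (mul_ne_zero hA₁ hf0) (pow_ne_zero _ hX₁0), P.ord_mul hA₁ hf0,
      ord_algebraMap, zero_add, ord_pow]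
    exact dvd_sub (hdiv P) (dvd_mul_right _ _)
  let x : S.Twist n :=
    { f := f'
      ϑ := ϑ
      hϑ := hϑ0
      hf₁ := hf'GU.1
      hrd₁ := hf'rd
      hf₂ := hf'₂
      hdiv := hdiv'
      hγ := fun s _ => by rw [hf'₂rd, Place.ord_one] }
  obtain ⟨h, hhG₁, hhG₂, hnode⟩ :=
    hMv K F k F₁ F₂ S H H₁ H₂ g g₁ g₂ c c₁ c₂ hR hR₁ hR₂ hnum n hn x
  change S.c₂.IsGU (ϑ * h) at hhG₂
  change ∀ P : Place K F, S.IsNodeP P → P.ord (f' * h ^ n) = 0 at hnode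
  have hh0 : h ≠ 0 := hhG₁.ne_zero
  set Fh : F := f' * h ^ n with hFh
  have hFh₁ : S.c₁.IsGU Fh := hf'GU.mul (hhG₁.pow n)
  have eFh : Fh = (f' / ϑ ^ n) * (ϑ * h) ^ n := by
    have hϑn : ϑ ^ n ≠ 0 := pow_ne_zero _ hϑ0
    rw [hFh, mul_pow]
    field_simp
  have hFh₂ : S.c₂.IsGU Fh := by
    rw [eFh]
    exact hf'₂.mul (hhG₂.pow n)
  have hrdF₁ : S.c₁.rd Fh = S.c₁.rd h ^ n := by
    rw [hFh, S.c₁.rd_mul hf'GU.1 (hhG₁.pow n).1, hf'rd, one_mul, S.c₁.rd_pow hhG₁.1]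
  have hrdF₂ : S.c₂.rd Fh = S.c₂.rd (ϑ * h) ^ n := by
    rw [eFh, S.c₂.rd_mul hf'₂.1 (hhG₂.pow n).1, hf'₂rd, one_mul, S.c₂.rd_pow hhG₂.1]
  have hordF : ∀ P : Place K F, (n : ℤ) ∣ P.ord Fh := by
    intro P
    rw [hFh, P.ord_mul hf'0 (pow_ne_zero _ hh0), ord_pow]
    exact dvd_add (hdiv' P) (dvd_mul_right _ _)
  obtain ⟨t, ht⟩ := glueCoreW hGL hTI S H H₁ H₂ g g₁ g₂ c c₁ c₂ hR hR₁ hR₂ hnum n hn τ W τ₁ τ₂
    ι ι' Q hτ Fh (S.c₁.rd h) (S.c₂.rd (ϑ * h)) hFh₁ hFh₂ hrdF₁ hrdF₂ hordF hnode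
  -- conclusion
  set y : F := h / X₁ with hy
  have hy0 : y ≠ 0 := div_ne_zero hh0 hX₁0
  have hFy : Fh = algebraMap K F a₁ * f * y ^ n := by
    rw [hFh, hf', hy, div_pow]
    have h1 : X₁ ^ n ≠ 0 := pow_ne_zero _ hX₁0
    field_simp
  have hτy0 : τ • y ≠ 0 := smul_ne_zero_of_ne_zero τ hy0
  have hWy0 : W • y ≠ 0 := smul_ne_zero_of_ne_zero W hy0
  set b : K := SemilinearAut.baseAut τ a₁ with hb
  set b' : K := SemilinearAut.baseAut W a₁ with hb'
  have hb0 : b ≠ 0 := by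
    rw [hb]
    exact (map_ne_zero _).mpr ha₁
  have hb'0 : b' ≠ 0 := by
    rw [hb']
    exact (map_ne_zero _).mpr ha₁
  have hB0 : algebraMap K F b ≠ 0 := fun h0 => hb0 ((map_eq_zero (algebraMap K F)).mp h0)
  have hB'0 : algebraMap K F b' ≠ 0 := fun h0 => hb'0 ((map_eq_zero (algebraMap K F)).mp h0)
  have hτF : τ • Fh = algebraMap K F b * (τ • f) * (τ • y) ^ n := by
    rw [hFy, smul_mul', smul_mul', smul_pow', SemilinearAut.smul_algebraMap]
  have hWF : W • Fh = algebraMap K F b' * (W • f) * (W • y) ^ n := by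
    rw [hFy, smul_mul', smul_mul', smul_pow', SemilinearAut.smul_algebraMap]
  obtain ⟨κ, hκ⟩ := IsAlgClosed.exists_pow_nat_eq (b * b' ^ Q) hnpos
  have hκ0 : κ ≠ 0 := by
    rintro rfl
    rw [zero_pow hn0] at hκ
    exact mul_ne_zero hb0 (pow_ne_zero _ hb'0) hκ.symm
  have hK0 : algebraMap K F κ ≠ 0 := fun h0 => hκ0 ((map_eq_zero (algebraMap K F)).mp h0)
  have hKn : algebraMap K F κ ^ n = algebraMap K F b * algebraMap K F b' ^ Q := by
    rw [← map_pow, hκ, map_mul, map_pow]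
  refine ⟨t / (algebraMap K F κ * (τ • y) * (W • y) ^ Q), ?_⟩
  rw [div_pow, mul_pow, mul_pow, ht, hKn, hτF, hWF]
  have h3 : (τ • y) ^ n ≠ 0 := pow_ne_zero _ hτy0
  have h4 : (W • y) ^ Q ≠ 0 := pow_ne_zero _ hWy0
  field_simp
  ring

end H28

/-- **GLUE with a swap (FROB-T, abstract form), unconditional.** -/
theorem stmt_GlueFrobW : Stmt_GlueFrobW :=
  H28.glueFrobW_of stmt_Moving H28.stmt_GoodLift H28.stmt_TIss

namespace H28

/-- **GLUE with a swap, form with two Kummer functions.**  `f` is a Kummer function of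
`x ∈ K1` (`red₁ f = 1`), `f'` is a Kummer function of a class `x' ∈ K1` with `x = w x'`
(`red₁ f' = 1`), so that `f = c θ ^ n W f'`.  Then `τ f · (W f) ^ Q` is an `n`-th power. -/
theorem glueFrobW_two
    {K F k F₁ F₂ : Type} [Field K] [Field F] [Algebra K F] [Field k] [Field F₁]
    [Algebra k F₁] [Field F₂] [Algebra k F₂] [IsAlgClosed K] [IsAlgClosed k]
    (S : SSD K F k F₁ F₂) (H : FFHyp K F) (H₁ : FFHyp k F₁) (H₂ : FFHyp k F₂)
    (g g₁ g₂ : ℕ) (c c₁ c₂ : ℤ) (hR : IsGenus K F g c) (hR₁ : IsGenus k F₁ g₁ c₁)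
    (hR₂ : IsGenus k F₂ g₂ c₂) (hnum : g + 1 ≤ g₁ + g₂ + S.nodes.card)
    (n : ℕ) (hn : (n : k) ≠ 0)
    (τ W : SemilinearAut K F) (τ₁ : F₁ →+* F₁) (τ₂ : F₂ →+* F₂) (ι : F₁ →+* F₂)
    (ι' : F₂ →+* F₁) (Q : ℕ) (hτ : S.IsFrobSwap τ W τ₁ τ₂ ι ι' Q)
    (f f' θ : F) (c₀ : K) (hc₀ : c₀ ≠ 0) (hθ : θ ≠ 0)
    (hf : f ∈ S.c₁.V) (hf1 : S.c₁.rd f = 1) (hf' : f' ∈ S.c₁.V) (hf'1 : S.c₁.rd f' = 1)
    (hrel : f = algebraMap K F c₀ * θ ^ n * (W • f'))
    (hdiv : ∀ P : Place K F, (n : ℤ) ∣ P.ord f) :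
    ∃ t : F, t ^ n = (τ • f) * (W • f) ^ Q := by
  have hC0 : algebraMap K F c₀ ≠ 0 := fun h0 => hc₀ ((map_eq_zero (algebraMap K F)).mp h0)
  obtain ⟨e, he0, hem, her⟩ := S.c₂.exists_scale θ hθ
  have hE0 : algebraMap K F e ≠ 0 := fun h0 => he0 ((map_eq_zero (algebraMap K F)).mp h0)
  have hGθ : S.c₂.IsGU (algebraMap K F e * θ) := ⟨hem, by rw [S.c₂.rd_of_mem hem]; exact her⟩
  have hWm : W • f' ∈ S.c₂.V := hτ.wmem₁ f' hf'
  have hWr : S.c₂.rd (W • f') = 1 := by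
    rw [S.c₂.rd_of_mem hWm, hτ.wred₁ f' hf' hWm, ← S.c₁.rd_of_mem hf', hf'1, map_one]
  have hGW : S.c₂.IsGU (W • f') := ⟨hWm, by rw [hWr]; exact one_ne_zero⟩
  have e2 : algebraMap K F (e ^ n / c₀) * f = (algebraMap K F e * θ) ^ n * (W • f') := by
    rw [hrel, map_div₀, map_pow, mul_pow]
    field_simp
  have hG2 : S.c₂.IsGU ((algebraMap K F e * θ) ^ n * (W • f')) := (hGθ.pow n).mul hGW
  refine stmt_GlueFrobW K F k F₁ F₂ S H H₁ H₂ g g₁ g₂ c c₁ c₂ hR hR₁ hR₂ hnum n hn τ W τ₁ τ₂ ι ι'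
    Q hτ f 1 (e ^ n / c₀) 1 (S.c₂.rd (algebraMap K F e * θ)) one_ne_zero hGθ.2 ?_ ?_ ?_ ?_ hdiv
  · rw [map_one, one_mul]
    exact hf
  · rw [map_one, one_mul, hf1, one_pow]
  · rw [e2]
    exact hG2.1
  · rw [e2, S.c₂.rd_mul (hGθ.pow n).1 hWm, hWr, mul_one, S.c₂.rd_pow hGθ.1]

end H28

end Fermat.Agent.BAD

end
end
-- ==== END Fermat.Agent.BAD.H28_GlueW

-- ==== BEGIN Fermat.Agent.RED.H51_HRFinal
section

/-!
# G-RED package HR-RED (helper51): `S15.Stmt_HR p` from the core alone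

* `stmt_RM : Stmt_RM` : the reduction map with the conservation law and the moving lemma exists at
  every level `N` prime to `ℓ`, unconditionally (`H36.stmt_RM_of`, helper76's `stmt_DR2`,
  `stmt_NDESC`).
* `stmt_HR_of_core : Stmt_HRcore → S15.Stmt_HR p` (`p` prime).
* `reductionModL_hsmul_of_core` : the same at every level `N` prime to `ℓ`, for all `z`.

This file contains no `sorry`.
-/

set_option autoImplicit false

noncomputable section

open ModularCurve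

namespace Fermat.Agent.RED.H51

/-- **Package RM**, unconditional. -/
theorem stmt_RM : Fermat.Agent.RED.Stmt_RM :=
  Fermat.Agent.RED.H36.stmt_RM_of Fermat.Agent.RED.H76.stmt_DR2 stmt_NDESC

/-- The kernel of the reduction modulo `ℓ ∤ N` on `J₀(N)` is stable under the Hecke ring, from
the core `Stmt_HRcore`. -/
theorem reductionModL_hsmul_of_core (hcore : Stmt_HRcore) (N : ℕ) [NeZero N] {ℓ : ℕ}
    (hℓ : ℓ.Prime) (hℓN : ¬ ℓ ∣ N) (A : ValuationSubring (AlgebraicClosure ℚ))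
    (hA : A.LiesOverPrime ℓ) (t : HeckeAlg) (z : JZero N)
    (hz : reductionModL A N z = 0) :
    reductionModL A N (Fermat.Agent.S15.hsmul N t z) = 0 :=
  reductionModL_hsmul N hcore stmt_RM hℓ hℓN A hA t z hz

/-- **HR** (S15 leaf) from the core `Stmt_HRcore`. -/
theorem stmt_HR_of_core (hcore : Stmt_HRcore) (p : ℕ) [NeZero p] (hp : p.Prime) :
    Fermat.Agent.S15.Stmt_HR p :=
  stmt_HR_of hcore stmt_RM p hp

end Fermat.Agent.RED.H51

end
end
-- ==== END Fermat.Agent.RED.H51_HRFinal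

-- ==== BEGIN Fermat.Agent.RED.HR.H78_HRMain
section

/-!
# G-RED package HR-RED, MAIN (helper78): `Stmt_HRcore`, unconditional

`stmt_HRcore : RED.H51.Stmt_HRcore` : for a reduction map `r` of level `N` (prime to `ℓ`) with
the conservation law and the moving lemma and every prime `s`: if `r_* D` is principal then
`r_* (T_s D)` is principal.

* `s = ℓ` : `H11.hrcore_ell` (Eichler–Shimura on divisors, helper95/helper11);
* `s ≠ ℓ` : `r_* (T_s D) = T~_s (r_* D)` (`H35.hr_div` = the abstract theorem `H78.hr_abs` +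
  NORM-RED of helper10/helper35 + the degree of `β~` of helper51/helper69), and the correspondence
  `T~_s = α~_* β~^*` of the reduced fields preserves principal divisors (norm formula, FF-B).
This file contains no `sorry`.
-/

set_option autoImplicit false
set_option linter.style.haveILetI false
set_option synthInstance.maxHeartbeats 400000
set_option maxHeartbeats 1000000

noncomputable section

open AlgebraicCurve ModularCurve Fermat.Agent.S28.H73 Fermat.Agent.RED Fermat.Agent.RED.H73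
open Fermat.Agent.S43.Old.H35

namespace Fermat.Agent.RED.H78

/-- **HR core**, unconditional. -/
theorem stmt_HRcore : Fermat.Agent.RED.H51.Stmt_HRcore := by
  intro N ℓ s _ _ hℓ hs hℓN A hA hα hβ _ r hr hmove D hD
  by_cases hsℓ : s = ℓ
  · subst hsℓ
    exact H11.hrcore_ell N s hℓ hℓN A hA hα hβ r hr hmove D hD
  · have hℓs : ¬ ℓ ∣ s := fun h => hsℓ ((Nat.prime_dvd_prime_iff_eq hℓ hs).mp h).symm
    have hℓNs : ¬ ℓ ∣ N * s := fun h => (hℓ.dvd_mul.mp h).elim hℓN hℓs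
    have TI := towerInputs (A := A) (M := N) (ℓ := s) hℓ hA hℓNs
    haveI := TI.hP
    rw [hr_div A ℓ N s hℓ hs hsℓ hℓN hA hα hβ TI.hα TI.hβ r hr hmove D]
    exact Divisor.correspondence_mem_principal (betaT A N s) (alphaT A N s) TI.hβ TI.hα
      TI.hfin TI.hNF hD

end Fermat.Agent.RED.H78

end
end
-- ==== END Fermat.Agent.RED.HR.H78_HRMain

-- ==== BEGIN Fermat.Agent.S13.WP3.H6_Pigeonhole
section

set_option autoImplicit false

namespace Fermat.Agent.S13.WP3.H6P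

open WeierstrassCurve WeierstrassCurve.Affine

variable {L : Type*} [Field L]

lemma pg_equation_iff {W : Affine L} (h₁ : W.a₁ = 1) (h₃ : W.a₃ = 0) (h₆ : W.a₆ = 0)
    (x y : L) : W.Equation x y ↔ y ^ 2 + x * y = x ^ 3 + W.a₂ * x ^ 2 + W.a₄ * x := by
  rw [Affine.equation_iff, h₁, h₃, h₆]
  constructor <;> intro h <;> linear_combination h

/-- On the model, a point with `|x| = 1` has `|y| ≤ 1`. -/
lemma pg_y_le {A : ValuationSubring L} {W : Affine L} (hyp : ModelHyp2 A W) {x y : L}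
    (he : W.Equation x y) (hx : A.valuation x = 1) : A.valuation y ≤ 1 := by
  by_contra hcon
  have hy : 1 < A.valuation y := not_le.1 hcon
  have e := (pg_equation_iff hyp.a₁ hyp.a₃ hyp.a₆ x y).1 he
  have hxy : A.valuation (x * y) = A.valuation y := by rw [map_mul, hx, one_mul]
  have hy2 : A.valuation y < A.valuation (y ^ 2) := by
    rw [map_pow, pow_two]
    calc A.valuation y = 1 * A.valuation y := (one_mul _).symm
      _ < A.valuation y * A.valuation y := by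
        have h0 : (0 : A.ValueGroup) < A.valuation y := lt_trans zero_lt_one hy
        exact mul_lt_mul_of_pos_right hy h0
  have hL : A.valuation (y ^ 2 + x * y) = A.valuation (y ^ 2) :=
    Valuation.map_add_eq_of_lt_left _ (by rw [hxy]; exact hy2)
  have hL1 : 1 < A.valuation (y ^ 2 + x * y) := by
    rw [hL]; exact lt_trans hy hy2
  have h3 : A.valuation (x ^ 3) ≤ 1 := by rw [map_pow, hx, one_pow]
  have h2 : A.valuation (W.a₂ * x ^ 2) ≤ 1 := by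
    rw [map_mul, map_pow, hx, one_pow, mul_one]; exact hyp.a_le
  have h1 : A.valuation (W.a₄ * x) ≤ 1 := by
    rw [map_mul, hx, mul_one]; exact hyp.b_lt.le
  have hR : A.valuation (x ^ 3 + W.a₂ * x ^ 2 + W.a₄ * x) ≤ 1 :=
    (Valuation.map_add_le _ ((Valuation.map_add_le _ h3 h2)) h1)
  rw [e] at hL1
  exact absurd hL1 (not_lt.2 hR)

/-- In a group, a nonzero element killed by a prime `p` is not killed by `0 < k < p`. -/
lemma pg_nsmul_ne_zero {G : Type*} [AddGroup G] {Q : G} {p : ℕ} (hp : p.Prime)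
    (hpQ : p • Q = 0) (hQ : Q ≠ 0) {k : ℕ} (hk0 : 0 < k) (hkp : k < p) : k • Q ≠ 0 := by
  intro h
  have h1 : addOrderOf Q ∣ p := addOrderOf_dvd_of_nsmul_eq_zero hpQ
  have h2 : addOrderOf Q ∣ k := addOrderOf_dvd_of_nsmul_eq_zero h
  rcases (Nat.dvd_prime hp).1 h1 with h3 | h3
  · exact hQ (AddMonoid.addOrderOf_eq_one_iff.1 h3)
  · rw [h3] at h2
    exact absurd (Nat.le_of_dvd hk0 h2) (not_le.2 hkp)

variable [DecidableEq L]

/-- Multiples of a point of `E₀` are in `E₀`. -/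
lemma pg_nsmul_InE0 (hadd : Stmt2_E0_add (L := L)) {A : ValuationSubring L} {W : Affine L}
    (hyp : ModelHyp2 A W) (Q : W.Point) (hQ : InE0 A Q) (k : ℕ) : InE0 A (k • Q) := by
  induction k with
  | zero => rw [zero_nsmul]; trivial
  | succ n ih => rw [succ_nsmul]; exact hadd A W hyp _ _ ih hQ

/-- The reduction data of a nonzero multiple `k • Q`, `0 < k < p`. -/
lemma pg_data (hadd : Stmt2_E0_add (L := L)) (hF1 : Stmt2_F1 (L := L))
    {A : ValuationSubring L} {W : Affine L} (hyp : ModelHyp2 A W) (R : Set L)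
    (hR : ∀ r ∈ R, A.valuation r ≤ 1 → A.valuation r < 1 ∨ A.valuation (r - 1) < 1)
    {p : ℕ} (hp : p.Prime) (hpu : A.valuation (p : L) = 1)
    (Q : W.Point) (hpQ : p • Q = 0) (hQ0 : InE0 A Q)
    (hRQ : ∀ (k : ℕ) (x y : L) (h : W.Nonsingular x y), k • Q = .some x y h → x ∈ R ∧ y ∈ R)
    (hQ : Q ≠ 0) {k : ℕ} (hk0 : 0 < k) (hkp : k < p) :
    ∃ (x y : L) (h : W.Nonsingular x y), k • Q = .some x y h ∧ A.valuation x = 1 ∧
      A.valuation (x - 1) < 1 ∧ (A.valuation y < 1 ∨ A.valuation (y - 1) < 1) := by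
  have hk : k • Q ≠ 0 := pg_nsmul_ne_zero hp hpQ hQ hk0 hkp
  have hE0 : InE0 A (k • Q) := pg_nsmul_InE0 hadd hyp Q hQ0 k
  have hpk : p • (k • Q) = 0 := by
    rw [smul_comm, hpQ, smul_zero]
  generalize hP : k • Q = P at hk hE0 hpk
  rcases P with _ | ⟨x, y, h⟩
  · exact absurd rfl hk
  have hx1 : 1 ≤ A.valuation x := hE0
  have hx2 : A.valuation x ≤ 1 := by
    by_contra hcon
    have hlt : 1 < A.valuation x := not_le.1 hcon
    exact hF1 A W hyp (.some x y h) hlt hk p hpu hpk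
  have hx : A.valuation x = 1 := le_antisymm hx2 hx1
  have hy : A.valuation y ≤ 1 := pg_y_le hyp h.1 hx
  obtain ⟨hxR, hyR⟩ := hRQ k x y h hP
  refine ⟨x, y, h, rfl, hx, ?_, hR y hyR hy⟩
  rcases hR x hxR hx.le with h' | h'
  · rw [hx] at h'; exact absurd h' (lt_irrefl _)
  · exact h'

omit [DecidableEq L] in
lemma pg_sub_lt {A : ValuationSubring L} {u w : L} (hu : A.valuation (u - 1) < 1)
    (hw : A.valuation (w - 1) < 1) : A.valuation (u - w) < 1 := by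
  have : u - w = (u - 1) - (w - 1) := by ring
  rw [this]
  exact Valuation.map_sub_lt _ hu hw

omit [DecidableEq L] in
lemma pg_sub_lt' {A : ValuationSubring L} {u w : L} (hu : A.valuation u < 1)
    (hw : A.valuation w < 1) : A.valuation (u - w) < 1 :=
  Valuation.map_sub_lt _ hu hw

/-- Two multiples `j • Q`, `i • Q` (`i < j < p`) with the same reduction: contradiction. -/
lemma pg_clash (hsame : Stmt2_sameRed (L := L)) (hF1 : Stmt2_F1 (L := L))
    {A : ValuationSubring L} {W : Affine L} (hyp : ModelHyp2 A W)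
    {p : ℕ} (hp : p.Prime) (hpu : A.valuation (p : L) = 1)
    (Q : W.Point) (hpQ : p • Q = 0) (hQ : Q ≠ 0) {i j : ℕ} (hij : i < j) (hjp : j < p)
    {x y x' y' : L} {h : W.Nonsingular x y} {h' : W.Nonsingular x' y'}
    (hj : j • Q = .some x y h) (hi : i • Q = .some x' y' h')
    (hx : A.valuation x = 1) (hxx : A.valuation (x - x') < 1)
    (hyy : A.valuation (y - y') < 1) : False := by
  have h1 : _root_.Fermat.Agent.S13.WP3.InE1 A (Point.some x y h - Point.some x' y' h') :=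
    hsame A W hyp x y x' y' h h' hx hxx hyy
  have h2 : Point.some x y h - Point.some x' y' h' = (j - i) • Q := by
    rw [← hj, ← hi, sub_eq_add_neg, ← sub_nsmul _ hij.le]
  rw [h2] at h1
  have h3 : (j - i) • Q ≠ 0 :=
    pg_nsmul_ne_zero hp hpQ hQ (Nat.sub_pos_of_lt hij) (lt_of_le_of_lt (Nat.sub_le _ _) hjp)
  have h4 : p • ((j - i) • Q) = 0 := by rw [smul_comm, hpQ, smul_zero]
  exact hF1 A W hyp _ h1 h3 p hpu h4

/-- Piece (2G-c), relative to `E0_add`, `sameRed`, `F1`. -/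
theorem pigeonhole (hadd : Stmt2_E0_add (L := L)) (hsame : Stmt2_sameRed (L := L))
    (hF1 : Stmt2_F1 (L := L)) : Stmt2_pigeonhole (L := L) := by
  intro A W hyp R hR p hp hp5 hpu Q hpQz hQ0 hRQ
  by_contra hQ
  have hpQ : p • Q = 0 := by
    have := hpQz
    rwa [natCast_zsmul] at this
  obtain ⟨x₁, y₁, h₁, e₁, hx₁, hx₁', hy₁⟩ :=
    pg_data hadd hF1 hyp R hR hp hpu Q hpQ hQ0 hRQ hQ (k := 1) (by norm_num) (by omega)
  obtain ⟨x₂, y₂, h₂, e₂, hx₂, hx₂', hy₂⟩ :=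
    pg_data hadd hF1 hyp R hR hp hpu Q hpQ hQ0 hRQ hQ (k := 2) (by norm_num) (by omega)
  obtain ⟨x₃, y₃, h₃, e₃, hx₃, hx₃', hy₃⟩ :=
    pg_data hadd hF1 hyp R hR hp hpu Q hpQ hQ0 hRQ hQ (k := 3) (by norm_num) (by omega)
  have c21 : ¬ A.valuation (y₂ - y₁) < 1 := fun hh =>
    pg_clash hsame hF1 hyp hp hpu Q hpQ hQ (i := 1) (j := 2) (by norm_num) (by omega)
      e₂ e₁ hx₂ (pg_sub_lt hx₂' hx₁') hh
  have c31 : ¬ A.valuation (y₃ - y₁) < 1 := fun hh =>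
    pg_clash hsame hF1 hyp hp hpu Q hpQ hQ (i := 1) (j := 3) (by norm_num) (by omega)
      e₃ e₁ hx₃ (pg_sub_lt hx₃' hx₁') hh
  have c32 : ¬ A.valuation (y₃ - y₂) < 1 := fun hh =>
    pg_clash hsame hF1 hyp hp hpu Q hpQ hQ (i := 2) (j := 3) (by norm_num) (by omega)
      e₃ e₂ hx₃ (pg_sub_lt hx₃' hx₂') hh
  rcases hy₁ with a1 | a1 <;> rcases hy₂ with a2 | a2 <;> rcases hy₃ with a3 | a3
  · exact c21 (pg_sub_lt' a2 a1)
  · exact c21 (pg_sub_lt' a2 a1)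
  · exact c31 (pg_sub_lt' a3 a1)
  · exact c32 (pg_sub_lt a3 a2)
  · exact c32 (pg_sub_lt' a3 a2)
  · exact c31 (pg_sub_lt a3 a1)
  · exact c21 (pg_sub_lt a2 a1)
  · exact c21 (pg_sub_lt a2 a1)

end Fermat.Agent.S13.WP3.H6P

end
-- ==== END Fermat.Agent.S13.WP3.H6_Pigeonhole

-- ==== BEGIN Fermat.Agent.S15.An.H11_Dup
section

set_option autoImplicit false

noncomputable section

open Filter Topology
open scoped PeriodPair

namespace Fermat.Agent.S15.An.H11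

variable (L : PeriodPair)

/-- Two functions which agree on a punctured neighbourhood of a point of continuity agree
there. -/
lemma eq_of_eventuallyEq_punctured {f g : ℂ → ℂ} {x : ℂ} (h : f =ᶠ[𝓝[≠] x] g)
    (hf : ContinuousAt f x) (hg : ContinuousAt g x) : f x = g x := by
  have h1 : Tendsto f (𝓝[≠] x) (𝓝 (f x)) := hf.tendsto.mono_left nhdsWithin_le_nhds
  have h2 : Tendsto g (𝓝[≠] x) (𝓝 (g x)) := hg.tendsto.mono_left nhdsWithin_le_nhds
  exact tendsto_nhds_unique (h1.congr' h) h2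

lemma compl_lattice_mem_nhds {z : ℂ} (hz : z ∉ L.lattice) : (L.lattice : Set ℂ)ᶜ ∈ 𝓝 z :=
  L.isClosed_lattice.isOpen_compl.mem_nhds hz

lemma isPreconnected_compl_lattice : IsPreconnected (L.lattice : Set ℂ)ᶜ := by
  have hc : (L.lattice : Set ℂ).Countable := by
    have : Countable L.lattice := L.latticeEquivProd.toEquiv.injective.countable
    exact Set.to_countable _
  have hr : 1 < Module.rank ℝ ℂ := by
    rw [Complex.rank_real_complex]
    norm_num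
  exact (hc.isPathConnected_compl_of_one_lt_rank hr).isConnected.isPreconnected

lemma hasDerivAt_P {x : ℂ} (hx : x ∉ L.lattice) : HasDerivAt ℘[L] (℘'[L] x) x := by
  have := (L.analyticOnNhd_weierstrassP x hx).differentiableAt.hasDerivAt
  rwa [L.deriv_weierstrassP] at this

lemma hasDerivAt_P' {x : ℂ} (hx : x ∉ L.lattice) : HasDerivAt ℘'[L] (deriv ℘'[L] x) x :=
  (L.analyticOnNhd_derivWeierstrassP x hx).differentiableAt.hasDerivAt

/-- `℘'` does not vanish identically near a point. -/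
lemma not_eventually_P'_eq_zero {z : ℂ} (hz : z ∉ L.lattice) :
    ¬ (∀ᶠ w in 𝓝 z, ℘'[L] w = 0) := by
  intro h0
  have hU := isPreconnected_compl_lattice L
  have hopen : IsOpen (L.lattice : Set ℂ)ᶜ := L.isClosed_lattice.isOpen_compl
  have h1 : Set.EqOn ℘'[L] 0 (L.lattice : Set ℂ)ᶜ :=
    L.analyticOnNhd_derivWeierstrassP.eqOn_zero_of_preconnected_of_eventuallyEq_zero hU hz h0
  have h2 : ∀ x ∈ (L.lattice : Set ℂ)ᶜ, ℘[L] x = ℘[L] z := by
    intro x hx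
    refine hopen.is_const_of_deriv_eq_zero hU L.differentiableOn_weierstrassP ?_ hx hz
    intro y hy
    rw [L.deriv_weierstrassP]
    exact h1 hy
  have h3 : meromorphicOrderAt ℘[L] 0 = -2 := L.order_weierstrassP 0 (zero_mem _)
  have h4 : ℘[L] =ᶠ[𝓝[≠] 0] fun _ => ℘[L] z := by
    have hm := L.compl_lattice_sdiff_singleton_mem_nhds 0
    filter_upwards [nhdsWithin_le_nhds hm, self_mem_nhdsWithin] with w hw hw0
    apply h2
    intro hwL
    exact hw ⟨hwL, hw0⟩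
  rw [meromorphicOrderAt_congr h4] at h3
  classical
  rw [meromorphicOrderAt_const] at h3
  split_ifs at h3
  · exact absurd h3 (by decide)
  · exact absurd h3 (by decide)

/-- `℘'' = 6 ℘² - g₂/2`. -/
theorem deriv_P'_eq {z : ℂ} (hz : z ∉ L.lattice) :
    deriv ℘'[L] z = 6 * ℘[L] z ^ 2 - L.g₂ / 2 := by
  have hrel : ∀ w, w ∉ L.lattice →
      ℘'[L] w * (2 * deriv ℘'[L] w - 12 * ℘[L] w ^ 2 + L.g₂) = 0 := by
    intro w hw
    have hP := hasDerivAt_P L hw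
    have hP' := hasDerivAt_P' L hw
    have e : (fun u => ℘'[L] u ^ 2) =ᶠ[𝓝 w]
        fun u => 4 * ℘[L] u ^ 3 - L.g₂ * ℘[L] u - L.g₃ := by
      filter_upwards [compl_lattice_mem_nhds L hw] with u hu
      exact L.derivWeierstrassP_sq u hu
    have d1 : HasDerivAt (fun u => ℘'[L] u ^ 2) (2 * ℘'[L] w * deriv ℘'[L] w) w := by
      have := hP'.pow 2
      refine this.congr_deriv ?_
      simp
    have d2 : HasDerivAt (fun u => 4 * ℘[L] u ^ 3 - L.g₂ * ℘[L] u - L.g₃)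
        (4 * (3 * ℘[L] w ^ 2 * ℘'[L] w) - L.g₂ * ℘'[L] w) w := by
      have := (((hP.pow 3).const_mul 4).sub (hP.const_mul L.g₂)).sub_const L.g₃
      refine this.congr_deriv ?_
      simp
    have := (d1.congr_of_eventuallyEq e.symm).unique d2
    linear_combination this
  rcases (L.analyticOnNhd_derivWeierstrassP z hz).eventually_eq_zero_or_eventually_ne_zero with
    h0 | h0
  · exact absurd h0 (not_eventually_P'_eq_zero L hz)
  · have hD0 : (fun w => 2 * deriv ℘'[L] w - 12 * ℘[L] w ^ 2 + L.g₂) =ᶠ[𝓝[≠] z] fun _ => 0 := by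
      filter_upwards [h0, nhdsWithin_le_nhds (compl_lattice_mem_nhds L hz)] with w hw1 hw2
      exact (mul_eq_zero.mp (hrel w hw2)).resolve_left hw1
    have hc1 : ContinuousAt (deriv ℘'[L]) z :=
      (L.analyticOnNhd_derivWeierstrassP z hz).deriv.continuousAt
    have hc2 : ContinuousAt ℘[L] z := (L.analyticOnNhd_weierstrassP z hz).continuousAt
    have hDc : ContinuousAt (fun w => 2 * deriv ℘'[L] w - 12 * ℘[L] w ^ 2 + L.g₂) z := by
      fun_prop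
    have h := eq_of_eventuallyEq_punctured hD0 hDc continuousAt_const
    have h' : 2 * deriv ℘'[L] z - 12 * ℘[L] z ^ 2 + L.g₂ = 0 := h
    linear_combination h' / 2

/-- The limit `w → z` of the addition theorem. -/
theorem dup_deriv (hadd : Stmt_add) {z : ℂ} (hz : z ∉ L.lattice) (h2z : 2 * z ∉ L.lattice) :
    (℘[L] (2 * z) + 2 * ℘[L] z) * ℘'[L] z ^ 2 = (1 / 4) * deriv ℘'[L] z ^ 2 := by
  have hzz : z + z ∉ L.lattice := by rwa [← two_mul]
  have hφ0 : (fun w => (℘[L] (z + w) + ℘[L] z + ℘[L] w) * dslope ℘[L] z w ^ 2 -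
      (1 / 4) * dslope ℘'[L] z w ^ 2) =ᶠ[𝓝[≠] z] fun _ => 0 := by
    have hcont : ContinuousAt (fun w : ℂ => z + w) z := by fun_prop
    have hm : ∀ᶠ w in 𝓝 z, z + w ∉ L.lattice := hcont.eventually (compl_lattice_mem_nhds L hzz)
    filter_upwards [self_mem_nhdsWithin, nhdsWithin_le_nhds (compl_lattice_mem_nhds L hz),
      nhdsWithin_le_nhds hm] with w hne hw hzw
    have hne' : w - z ≠ 0 := sub_ne_zero.mpr hne
    have key := hadd L z w hz hw hzw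
    rw [dslope_of_ne _ hne, dslope_of_ne _ hne, slope_def_field, slope_def_field]
    field_simp
    linear_combination 4 * key
  have hc1 : ContinuousAt (fun w => ℘[L] (z + w)) z := by
    have h1 : ContinuousAt ℘[L] (z + z) := (L.analyticOnNhd_weierstrassP (z + z) hzz).continuousAt
    have h2 : ContinuousAt (fun w : ℂ => z + w) z := by fun_prop
    exact ContinuousAt.comp (f := fun w : ℂ => z + w) (g := ℘[L]) h1 h2
  have hc2 : ContinuousAt ℘[L] z := (L.analyticOnNhd_weierstrassP z hz).continuousAt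
  have hc3 : ContinuousAt (dslope ℘[L] z) z :=
    continuousAt_dslope_same.mpr (L.analyticOnNhd_weierstrassP z hz).differentiableAt
  have hc4 : ContinuousAt (dslope ℘'[L] z) z :=
    continuousAt_dslope_same.mpr (L.analyticOnNhd_derivWeierstrassP z hz).differentiableAt
  have hφc : ContinuousAt (fun w => (℘[L] (z + w) + ℘[L] z + ℘[L] w) * dslope ℘[L] z w ^ 2 -
      (1 / 4) * dslope ℘'[L] z w ^ 2) z := by
    fun_prop
  have h := eq_of_eventuallyEq_punctured hφ0 hφc continuousAt_const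
  have h' : (℘[L] (z + z) + ℘[L] z + ℘[L] z) * dslope ℘[L] z z ^ 2 -
      (1 / 4) * dslope ℘'[L] z z ^ 2 = 0 := h
  rw [dslope_same, dslope_same, L.deriv_weierstrassP] at h'
  rw [two_mul]
  linear_combination h'

/-- **(AN-DUP)** from (AN-ADD). -/
theorem stmt_dup_of_add (hadd : Stmt_add) : Stmt_dup := by
  intro L z hz h2z
  rw [dup_deriv L hadd hz h2z, deriv_P'_eq L hz]

end Fermat.Agent.S15.An.H11

end
end
-- ==== END Fermat.Agent.S15.An.H11_Dup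

-- ==== BEGIN Fermat.Agent.S15.An.H11_JL
section

set_option autoImplicit false

noncomputable section

open UpperHalfPlane ModularForm EisensteinSeries
open scoped Real

namespace Fermat.Agent.S15.An.H11

lemma bernoulli'_six : bernoulli' 6 = 1 / 42 := by
  have h2 : Nat.choose 6 2 = 15 := by decide
  have h3 : Nat.choose 6 3 = 20 := by decide
  have h4 : Nat.choose 6 4 = 15 := by decide
  have h5 : bernoulli' 5 = 0 := bernoulli'_eq_zero_of_odd (by decide) (by norm_num)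
  rw [bernoulli'_def]
  norm_num [Finset.sum_range_succ, Finset.sum_range_zero, h2, h3, h4, h5]

lemma bernoulli_six : bernoulli 6 = 1 / 42 := by
  rw [bernoulli_eq_bernoulli'_of_ne_one (by norm_num), bernoulli'_six]

lemma riemannZeta_six : riemannZeta 6 = (π : ℂ) ^ 6 / 945 := by
  have h := riemannZeta_two_mul_nat (k := 3) (by norm_num)
  have e : ((2 : ℂ) * ((3 : ℕ) : ℂ)) = 6 := by norm_num
  rw [e] at h
  rw [h, bernoulli_six]
  have hf : ((2 * 3 : ℕ).factorial : ℂ) = 720 := by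
    norm_num [Nat.factorial]
  rw [hf]
  push_cast
  ring

lemma g₂_periodPair (c : ℂ) (hc : c ≠ 0) (τ : ℍ) :
    (Fermat.Agent.S20.H29.periodPair c hc τ).g₂ = (c ^ 4)⁻¹ * (4 / 3 * (π : ℂ) ^ 4 * E₄ τ) := by
  rw [PeriodPair.g₂, Fermat.Agent.S20.H29.G_periodPair c hc τ (by norm_num : 3 ≤ 4)]
  have e : (((4 : ℕ) : ℂ)) = 4 := by norm_num
  rw [e, riemannZeta_four]
  ring

lemma g₃_periodPair (c : ℂ) (hc : c ≠ 0) (τ : ℍ) :
    (Fermat.Agent.S20.H29.periodPair c hc τ).g₃ = (c ^ 6)⁻¹ * (8 / 27 * (π : ℂ) ^ 6 * E₆ τ) := by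
  rw [PeriodPair.g₃, Fermat.Agent.S20.H29.G_periodPair c hc τ (by norm_num : 3 ≤ 6)]
  have e : (((6 : ℕ) : ℂ)) = 6 := by norm_num
  rw [e, riemannZeta_six]
  ring

/-- The discriminant `g₂³ - 27 g₃²` of the lattice `c (ℤ τ + ℤ)`. -/
lemma disc_periodPair (c : ℂ) (hc : c ≠ 0) (τ : ℍ) :
    (Fermat.Agent.S20.H29.periodPair c hc τ).g₂ ^ 3 -
      27 * (Fermat.Agent.S20.H29.periodPair c hc τ).g₃ ^ 2 =
      (c ^ 12)⁻¹ * (64 / 27 * (π : ℂ) ^ 12) * (1728 * ModularForm.discriminant τ) := by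
  rw [g₂_periodPair, g₃_periodPair, ModularForm.discriminant_eq_E₄_cube_sub_E₆_sq]
  field_simp
  ring

/-- **(AN-J)** -/
theorem stmt_jL : Stmt_jL := by
  intro c hc τ
  have hπ : (π : ℂ) ≠ 0 := by exact_mod_cast Real.pi_ne_zero
  unfold jL
  rw [disc_periodPair, g₂_periodPair]
  unfold Fermat.Agent.S24.jAn
  have hk : (c ^ 12)⁻¹ * (64 / 27 * (π : ℂ) ^ 12) ≠ 0 :=
    mul_ne_zero (inv_ne_zero (pow_ne_zero _ hc)) (mul_ne_zero (by norm_num) (pow_ne_zero _ hπ))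
  have e1 : 1728 * ((c ^ 4)⁻¹ * (4 / 3 * (π : ℂ) ^ 4 * E₄ τ)) ^ 3 =
      ((c ^ 12)⁻¹ * (64 / 27 * (π : ℂ) ^ 12) * 1728) * (E₄ τ) ^ 3 := by
    field_simp
    ring
  have e2 : (c ^ 12)⁻¹ * (64 / 27 * (π : ℂ) ^ 12) * (1728 * ModularForm.discriminant τ) =
      ((c ^ 12)⁻¹ * (64 / 27 * (π : ℂ) ^ 12) * 1728) * ModularForm.discriminant τ := by ring
  rw [e1, e2, mul_div_mul_left _ _ (mul_ne_zero hk (by norm_num))]

end Fermat.Agent.S15.An.H11

end
end
-- ==== END Fermat.Agent.S15.An.H11_JL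

-- ==== BEGIN Fermat.Agent.S15.An.H34_Basis
section

/-!
# S15 / BRIDGE / BR-AN, leaf AN-BASIS (helper34)

`stmt_basis_of : Stmt_jL → Stmt_basis`: for a lattice `Λ` and `z₀ ∉ Λ` with `p z₀ ∈ Λ`, the lattices
`Λ ⊂ Λ' = Λ + ℤ z₀` are `c (ℤ p τ₁ + ℤ) ⊂ c (ℤ τ₁ + ℤ)` for some `τ₁ ∈ ℍ`, `c ≠ 0`
(elementary divisors by hand), and `jL` depends only on the lattice.
-/

set_option autoImplicit false

noncomputable section

open UpperHalfPlane
open scoped PeriodPair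

namespace Fermat.Agent.S15.An.H34

open Fermat.Agent.S15.An

/-- The lattice sums depend only on the lattice. -/
theorem G_congr (L L₂ : PeriodPair) (h : L.lattice = L₂.lattice) (n : ℕ) : L.G n = L₂.G n := by
  unfold PeriodPair.G
  exact tsum_congr_set_coe (fun l : ℂ => (l ^ n)⁻¹) (congrArg (fun S : Submodule ℤ ℂ => (S : Set ℂ)) h)

theorem jL_congr (L L₂ : PeriodPair) (h : L.lattice = L₂.lattice) : jL L = jL L₂ := by
  unfold jL PeriodPair.g₂ PeriodPair.g₃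
  rw [G_congr L L₂ h 4, G_congr L L₂ h 6]

/-- The two periods of a period pair have non-real quotient. -/
theorem im_div_ne_zero (L : PeriodPair) : (L.ω₁ / L.ω₂).im ≠ 0 := by
  intro h
  have hind := LinearIndependent.pair_iff.1 L.indep
  have hω₂ : L.ω₂ ≠ 0 := by
    intro h0
    have := hind 0 1 (by simp [h0])
    exact one_ne_zero this.2
  have hr : L.ω₁ / L.ω₂ = ((L.ω₁ / L.ω₂).re : ℂ) := by
    apply Complex.ext
    · simp
    · simp [h]
  have h1 : L.ω₁ = ((L.ω₁ / L.ω₂).re : ℂ) * L.ω₂ := by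
    rw [← hr]
    field_simp
  have := hind 1 (-(L.ω₁ / L.ω₂).re) (by
    simp only [one_smul, Complex.real_smul]
    push_cast
    linear_combination h1)
  exact one_ne_zero this.1

theorem im_div_swap_ne_zero (L : PeriodPair) : (L.ω₂ / L.ω₁).im ≠ 0 := by
  have h := im_div_ne_zero L
  intro h0
  apply h
  have : L.ω₁ / L.ω₂ = (L.ω₂ / L.ω₁)⁻¹ := by rw [inv_div]
  rw [this, Complex.inv_im, h0]
  simp

theorem core_aux (hJ : Stmt_jL) (L : PeriodPair) (u v : ℂ)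
    (huv : ∀ x, x ∈ L.lattice ↔ ∃ m n : ℤ, (m : ℂ) * u + (n : ℂ) * v = x)
    (p : ℕ) (hp : p.Prime) (z₀ : ℂ)
    (a b : ℤ) (hab : (p : ℂ) * z₀ = (a : ℂ) * u + (b : ℂ) * v)
    (x y : ℤ) (hxy : x * a + y * (p : ℤ) = 1) (ε : ℤ) (hε : ε * ε = 1) (hv : v ≠ 0)
    (hpos : 0 < (((u + ((x * b : ℤ) : ℂ) * v) / (p : ℂ)) / ((ε : ℂ) * v)).im) :
    ∃ (L' : PeriodPair) (τ₁ τ₂ : ℍ),
      (∀ z : ℂ, z ∈ L'.lattice ↔ ∃ k : ℤ, z - (k : ℂ) * z₀ ∈ L.lattice) ∧
      (τ₂ : ℂ) = (p : ℂ) * (τ₁ : ℂ) ∧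
      jL L' = Fermat.Agent.S24.jAn τ₁ ∧ jL L = Fermat.Agent.S24.jAn τ₂ := by
  have hp0 : (p : ℂ) ≠ 0 := Nat.cast_ne_zero.2 hp.ne_zero
  have hεC : (ε : ℂ) * (ε : ℂ) = 1 := by exact_mod_cast hε
  have hε0 : (ε : ℂ) ≠ 0 := by
    intro h
    rw [h, mul_zero] at hεC
    exact zero_ne_one hεC
  have hxyC : (x : ℂ) * (a : ℂ) + (y : ℂ) * (p : ℂ) = 1 := by exact_mod_cast hxy
  set η₁ : ℂ := (u + ((x * b : ℤ) : ℂ) * v) / (p : ℂ) with hη₁
  set c : ℂ := (ε : ℂ) * v with hc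
  have hc0 : c ≠ 0 := mul_ne_zero hε0 hv
  -- the key identities
  have I1 : (p : ℂ) * η₁ = u + (x : ℂ) * (b : ℂ) * v := by
    rw [hη₁]
    push_cast
    field_simp
  have I2 : η₁ = (x : ℂ) * z₀ + (y : ℂ) * u := by
    apply mul_left_cancel₀ hp0
    rw [I1]
    linear_combination (-(x : ℂ)) * hab - u * hxyC
  have I3 : z₀ = (a : ℂ) * η₁ + (y : ℂ) * (b : ℂ) * v := by
    apply mul_left_cancel₀ hp0
    linear_combination hab - (a : ℂ) * I1 - (b : ℂ) * v * hxyC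
  have I4 : v = (ε : ℂ) * c := by
    rw [hc, ← mul_assoc, hεC, one_mul]
  let τ₁ : ℍ := ⟨η₁ / c, hpos⟩
  have hpos2 : 0 < ((p : ℂ) * (η₁ / c)).im := by
    have : ((p : ℂ) * (η₁ / c)).im = (p : ℝ) * (η₁ / c).im := by
      simp [Complex.mul_im]
    rw [this]
    exact mul_pos (Nat.cast_pos.2 hp.pos) hpos
  let τ₂ : ℍ := ⟨(p : ℂ) * (η₁ / c), hpos2⟩
  have hτ₁ : c * (τ₁ : ℂ) = η₁ := by
    show c * (η₁ / c) = η₁
    field_simp
  have hτ₂ : c * (τ₂ : ℂ) = (p : ℂ) * η₁ := by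
    show c * ((p : ℂ) * (η₁ / c)) = (p : ℂ) * η₁
    field_simp
  refine ⟨Fermat.Agent.S20.H29.periodPair c hc0 τ₁, τ₁, τ₂, ?_, rfl, hJ c hc0 τ₁, ?_⟩
  · intro z
    rw [PeriodPair.mem_lattice]
    simp only [Fermat.Agent.S20.H29.periodPair_ω₁, Fermat.Agent.S20.H29.periodPair_ω₂, hτ₁]
    constructor
    · rintro ⟨m, n, rfl⟩
      refine ⟨m * x, (huv _).2 ⟨m * y, n * ε, ?_⟩⟩
      push_cast
      rw [hc]
      linear_combination (-(m : ℂ)) * I2
    · rintro ⟨k, hk⟩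
      obtain ⟨m, n, hmn⟩ := (huv _).1 hk
      refine ⟨k * a + m * p, (k * y * b - m * x * b + n) * ε, ?_⟩
      push_cast
      have hz : z = (k : ℂ) * z₀ + ((m : ℂ) * u + (n : ℂ) * v) := by
        rw [hmn]
        ring
      rw [hz]
      linear_combination (-(k : ℂ)) * I3 + (m : ℂ) * I1 -
        ((k : ℂ) * y * b - m * x * b + n) * I4
  · rw [← hJ c hc0 τ₂]
    apply jL_congr
    ext z
    rw [huv, PeriodPair.mem_lattice]
    simp only [Fermat.Agent.S20.H29.periodPair_ω₁, Fermat.Agent.S20.H29.periodPair_ω₂, hτ₂]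
    constructor
    · rintro ⟨m, n, rfl⟩
      refine ⟨m, (n - m * x * b) * ε, ?_⟩
      push_cast
      linear_combination (m : ℂ) * I1 - ((n : ℂ) - m * x * b) * I4
    · rintro ⟨m, n, rfl⟩
      refine ⟨m, m * x * b + n * ε, ?_⟩
      push_cast
      rw [hc]
      linear_combination (-(m : ℂ)) * I1

theorem core (hJ : Stmt_jL) (L : PeriodPair) (u v : ℂ)
    (huv : ∀ x, x ∈ L.lattice ↔ ∃ m n : ℤ, (m : ℂ) * u + (n : ℂ) * v = x)
    (him : (u / v).im ≠ 0) (p : ℕ) (hp : p.Prime) (z₀ : ℂ)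
    (a b : ℤ) (hab : (p : ℂ) * z₀ = (a : ℂ) * u + (b : ℂ) * v) (ha : ¬ (p : ℤ) ∣ a) :
    ∃ (L' : PeriodPair) (τ₁ τ₂ : ℍ),
      (∀ z : ℂ, z ∈ L'.lattice ↔ ∃ k : ℤ, z - (k : ℂ) * z₀ ∈ L.lattice) ∧
      (τ₂ : ℂ) = (p : ℂ) * (τ₁ : ℂ) ∧
      jL L' = Fermat.Agent.S24.jAn τ₁ ∧ jL L = Fermat.Agent.S24.jAn τ₂ := by
  have hp0 : (p : ℂ) ≠ 0 := Nat.cast_ne_zero.2 hp.ne_zero
  have hpR : (0 : ℝ) < p := Nat.cast_pos.2 hp.pos
  have hv : v ≠ 0 := by
    rintro rfl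
    simp at him
  have hcop : IsCoprime a (p : ℤ) :=
    ((Nat.prime_iff_prime_int.1 hp).coprime_iff_not_dvd.2 ha).symm
  obtain ⟨x, y, hxy⟩ := hcop
  -- the imaginary part of `η₁ / v`
  have hw : (((u + ((x * b : ℤ) : ℂ) * v) / (p : ℂ)) / v).im = (u / v).im / p := by
    have h1 : ((u + ((x * b : ℤ) : ℂ) * v) / (p : ℂ)) / v =
        (u / v + ((x * b : ℤ) : ℂ)) / ((p : ℝ) : ℂ) := by
      push_cast
      field_simp
    rw [h1, Complex.div_ofReal_im, Complex.add_im, Complex.intCast_im, add_zero]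
  rcases lt_or_gt_of_ne him with hneg | hpos
  · refine core_aux hJ L u v huv p hp z₀ a b hab x y hxy (-1) (by norm_num) hv ?_
    have h2 : ((u + ((x * b : ℤ) : ℂ) * v) / (p : ℂ)) / (((-1 : ℤ) : ℂ) * v) =
        -(((u + ((x * b : ℤ) : ℂ) * v) / (p : ℂ)) / v) := by
      push_cast
      field_simp
    rw [h2, Complex.neg_im, hw]
    have : (u / v).im / p < 0 := div_neg_of_neg_of_pos hneg hpR
    linarith
  · refine core_aux hJ L u v huv p hp z₀ a b hab x y hxy 1 (by norm_num) hv ?_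
    have h2 : ((u + ((x * b : ℤ) : ℂ) * v) / (p : ℂ)) / (((1 : ℤ) : ℂ) * v) =
        ((u + ((x * b : ℤ) : ℂ) * v) / (p : ℂ)) / v := by
      push_cast
      rw [one_mul]
    rw [h2, hw]
    exact div_pos hpos hpR

/-- **AN-BASIS**, from AN-J. -/
theorem stmt_basis_of (hJ : Stmt_jL) : Stmt_basis := by
  intro L p z₀ hp hz₀ hpz
  obtain ⟨a, b, hab⟩ := PeriodPair.mem_lattice.1 hpz
  have hp0 : (p : ℂ) ≠ 0 := Nat.cast_ne_zero.2 hp.ne_zero
  by_cases ha : (p : ℤ) ∣ a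
  · have hb : ¬ (p : ℤ) ∣ b := by
      intro hb
      obtain ⟨a', rfl⟩ := ha
      obtain ⟨b', rfl⟩ := hb
      apply hz₀
      rw [PeriodPair.mem_lattice]
      refine ⟨a', b', ?_⟩
      apply mul_left_cancel₀ hp0
      rw [← hab]
      push_cast
      ring
    refine _root_.Fermat.Agent.S15.An.H34.core hJ L L.ω₂ L.ω₁ ?_ (im_div_swap_ne_zero L) p hp z₀ b a ?_ hb
    · intro x
      rw [PeriodPair.mem_lattice]
      constructor
      · rintro ⟨m, n, rfl⟩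
        exact ⟨n, m, by ring⟩
      · rintro ⟨m, n, rfl⟩
        exact ⟨n, m, by ring⟩
    · rw [← hab]
      ring
  · refine _root_.Fermat.Agent.S15.An.H34.core hJ L L.ω₁ L.ω₂ (fun x => PeriodPair.mem_lattice) (im_div_ne_zero L) p hp z₀ a b
      hab.symm ha

end Fermat.Agent.S15.An.H34

end
end
-- ==== END Fermat.Agent.S15.An.H34_Basis

-- ==== BEGIN Fermat.Agent.S15.An.H45_AddInjSurj
section

set_option autoImplicit false

noncomputable section

open scoped PeriodPair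

namespace Fermat.Agent.S15.An.H45

/-- (AN-ADD) -/
theorem stmt_add : Stmt_add := fun L _ _ hz hw hzw => Fermat.Agent.S15.H45.wP_add L hz hw hzw

/-- (AN-INJ) -/
theorem stmt_inj : Stmt_inj := fun L _ _ ha hb h => Fermat.Agent.S15.H45.wP_inj L ha hb h

/-- (AN-SURJ) -/
theorem stmt_surj : Stmt_surj := fun L c => Fermat.Agent.S15.H45.wP_surj L c

end Fermat.Agent.S15.An.H45

end
end
-- ==== END Fermat.Agent.S15.An.H45_AddInjSurj

-- ==== BEGIN Fermat.Agent.S15.Desc.H66_BddFon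
section

/-!
# S15 / DESC, ROUTE-F: the Fontaine family is a bounded family (package BASE-F; helper66)

`isBddFamily_bddFon : r ≠ 2 → IsBddFamily r (padicPlace r) (bddFon r)`.

Inputs (cluster T, all landed): `H38.stmt_CC0` (bounded homomorphisms are unramified),
`H85.kumbdd_core` (Kummer generators inside a bounded field are `≡ 1 mod r` up to `r`-th powers),
`H15.isBdd_sup`, `H15.isBdd_cycloField`, `H38.inertia_onto`, and helper13's
`Lib/LocalGlobalDense.exists_local_lift_field`.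

* `exists_inertiaP_lift` : an element of the inertia group of `padicPlace r` agrees on a given
  finite set with the image of an element of the local inertia group `inertiaP r`.
* `cc0_bddFon`, `kum_bddFon`, `isBddFamily_bddFon`.
-/

set_option autoImplicit false
set_option linter.style.haveILetI false
set_option linter.unusedSectionVars false

noncomputable section

namespace Fermat.Agent.S15.Desc.H66

open Fermat.Agent.S56.FL Fermat.Agent.Lib.LocalGlobalDense Fermat.Agent.Lib.InertiaBridge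
open Polynomial IntermediateField

local notation "Qbar" => AlgebraicClosure ℚ
local notation "GQ" => (AlgebraicClosure ℚ ≃ₐ[ℚ] AlgebraicClosure ℚ)

variable (r : ℕ) [Fact r.Prime]

local instance isAlgebraicQbar_h66 : Algebra.IsAlgebraic ℚ (AlgebraicClosure ℚ) :=
  AlgebraicClosure.isAlgebraic ℚ
local instance isAlgClosureQbar_h66 : IsAlgClosure ℚ (AlgebraicClosure ℚ) :=
  ⟨inferInstance, inferInstance⟩
local instance normalQbar_h66 : Normal ℚ (AlgebraicClosure ℚ) :=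
  IsAlgClosure.normal ℚ (AlgebraicClosure ℚ)
local instance towerQqPadic_h66 : IsScalarTower ℚ ℚ_[r] (PadicAlgCl r) :=
  IsScalarTower.of_algebraMap_eq' (Subsingleton.elim _ _)
local instance normalPadic_h66 : Normal ℚ_[r] (PadicAlgCl r) :=
  IsAlgClosure.normal ℚ_[r] (PadicAlgCl r)

/-- `(padicPlace r).valuation y < 1` means `‖ι y‖ < 1`. -/
theorem norm_lt_one_of_valuation_lt_one {y : Qbar} (h : (padicPlace r).valuation y < 1) :
    ‖padicEmbedding r y‖ < 1 := by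
  rw [← ValuationSubring.mem_nonunits_iff, ValuationSubring.mem_nonunits_iff_or] at h
  rcases h with h | h
  · rw [h, map_zero, norm_zero]
    exact one_pos
  · rw [← absQ_le_one_iff, map_inv₀, not_le] at h
    have hpos : 0 < absQ r y := by
      by_contra hcon
      have h0 : absQ r y = 0 := le_antisymm (not_lt.mp hcon) ((absQ r).nonneg y)
      rw [h0, inv_zero] at h
      exact absurd h (by norm_num)
    rw [← absQ_apply]
    exact (one_lt_inv₀ hpos).mp h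

/-- The image under `ℚ̄ → ℚ̄_r` of a polynomial expression in `α`. -/
theorem padicEmbedding_aeval (α : Qbar) (g : ℚ[X]) :
    padicEmbedding r (aeval α g) =
      aeval (padicEmbedding r α) (g.map (algebraMap ℚ ℚ_[r])) := by
  rw [aeval_map_algebraMap, aeval_algHom_apply]

/-- A finite normal extension `F` of `ℚ` inside `ℚ̄` with a generator `α`: every element of `F` is a
polynomial in `α`. -/
theorem exists_aeval_eq_of_primitive (F : IntermediateField ℚ Qbar) [FiniteDimensional ℚ F]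
    (α : F) (hα : ℚ⟮α⟯ = ⊤) (x : Qbar) (hx : x ∈ F) :
    ∃ g : ℚ[X], aeval (α : Qbar) g = x := by
  have h1 : Algebra.adjoin ℚ {α} = ⊤ := by
    have h2 := IntermediateField.adjoin_simple_toSubalgebra_of_isAlgebraic
      (Algebra.IsAlgebraic.isAlgebraic (R := ℚ) α)
    rw [hα, IntermediateField.top_toSubalgebra] at h2
    exact h2.symm
  have h3 : (⟨x, hx⟩ : F) ∈ Algebra.adjoin ℚ {α} := by rw [h1]; exact Algebra.mem_top
  rw [Algebra.adjoin_singleton_eq_range_aeval] at h3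
  obtain ⟨g, hg⟩ := h3
  refine ⟨g, ?_⟩
  have h4 : ((aeval α g : F) : Qbar) = x := congrArg (fun t : F => (t : Qbar)) hg
  rw [← h4]
  exact aeval_algebraMap_apply Qbar α g

/-- **Inertia lifts.**  An element of the inertia group of `padicPlace r` agrees on a given finite
set with the image of an element of the local inertia group. -/
theorem exists_inertiaP_lift (s : GQ) (hs : s ∈ (padicPlace r).inertiaSubgroupIn ℚ)
    (S : Finset Qbar) :
    ∃ τ ∈ inertiaP r, ∀ x ∈ S, localGaloisToGlobal r τ x = s x := by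
  classical
  obtain ⟨hsD, hsI⟩ := (mem_inertiaSubgroupIn_iff_forall (padicPlace r) s).mp hs
  -- the normal closure `F` of `ℚ(S)`
  have hSint : ∀ x ∈ (S : Set Qbar), IsIntegral ℚ x := fun x _ =>
    (Algebra.IsAlgebraic.isAlgebraic x).isIntegral
  haveI : FiniteDimensional ℚ (IntermediateField.adjoin ℚ (S : Set Qbar)) :=
    IntermediateField.finiteDimensional_adjoin hSint
  obtain ⟨F, hFdef⟩ : ∃ F : IntermediateField ℚ Qbar,
      F = IntermediateField.normalClosure ℚ (IntermediateField.adjoin ℚ (S : Set Qbar)) Qbar :=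
    ⟨_, rfl⟩
  haveI hFfin : FiniteDimensional ℚ F := by
    rw [hFdef]; exact normalClosure.is_finiteDimensional ℚ _ Qbar
  haveI hFnorm : Normal ℚ F := by rw [hFdef]; exact normalClosure.normal ℚ _ Qbar
  have hSF : ∀ x ∈ S, x ∈ F := fun x hx => by
    rw [hFdef]
    exact IntermediateField.le_normalClosure _ (IntermediateField.subset_adjoin ℚ _ hx)
  have hFstab : ∀ (g : GQ) (x : Qbar), x ∈ F → g x ∈ F := fun g x hx =>
    (IntermediateField.normal_iff_forall_map_le'.mp hFnorm g) ⟨x, hx, rfl⟩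
  obtain ⟨α, hα⟩ := Field.exists_primitive_element ℚ F
  obtain ⟨β, hβ⟩ : ∃ β, β = padicEmbedding r (α : Qbar) := ⟨_, rfl⟩
  have hβint : IsIntegral ℚ_[r] β := (Algebra.IsAlgebraic.isAlgebraic β).isIntegral
  obtain ⟨LF, hLF⟩ : ∃ LF : IntermediateField ℚ_[r] (PadicAlgCl r), LF = ℚ_[r]⟮β⟯ := ⟨_, rfl⟩
  haveI hLFfin : FiniteDimensional ℚ_[r] LF := by
    rw [hLF]; exact IntermediateField.adjoin.finiteDimensional hβint
  -- the image of `F` lies in `LF`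
  have hFLF : ∀ x ∈ F, padicEmbedding r x ∈ LF := by
    intro x hx
    obtain ⟨g, hg⟩ := exists_aeval_eq_of_primitive F α hα x hx
    rw [← hg, padicEmbedding_aeval, ← hβ, hLF]
    have h1 : aeval β (g.map (algebraMap ℚ ℚ_[r])) ∈ Algebra.adjoin ℚ_[r] {β} := by
      rw [Algebra.adjoin_singleton_eq_range_aeval]
      exact ⟨_, rfl⟩
    exact IntermediateField.algebra_adjoin_le_adjoin ℚ_[r] _ h1
  -- `LF` is normal
  haveI hLFnorm : Normal ℚ_[r] LF := by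
    rw [IntermediateField.normal_iff_forall_map_le']
    intro σ
    rw [hLF, IntermediateField.adjoin_map, Set.image_singleton, IntermediateField.adjoin_le_iff,
      Set.singleton_subset_iff, ← hLF]
    have h1 : (σ : PadicAlgCl r →ₐ[ℚ_[r]] PadicAlgCl r) β =
        padicEmbedding r (localGaloisToGlobal r σ (α : Qbar)) := by
      rw [padicEmbedding_localGaloisToGlobal, hβ]
      rfl
    rw [SetLike.mem_coe, h1]
    exact hFLF _ (hFstab _ _ α.2)
  -- a local lift of `s` on `F`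
  obtain ⟨τ₀, hτ₀⟩ := exists_local_lift_field r s hsD F
  -- its restriction to `LF` is in the inertia group of `LF`
  have hγ : ∀ a : LF, ‖a‖ ≤ 1 → ‖H38.resL LF τ₀ a - a‖ < 1 := by
    intro a ha
    have ha' : ‖(a : PadicAlgCl r)‖ ≤ 1 := ha
    have h0 : ‖H38.resL LF τ₀ a - a‖ = ‖τ₀ (a : PadicAlgCl r) - (a : PadicAlgCl r)‖ := by
      rw [← H38.resL_apply]; rfl
    rw [h0]
    -- write `a` as a polynomial in `β`
    have haA : (a : PadicAlgCl r) ∈ Algebra.adjoin ℚ_[r] {β} := by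
      have h2 := IntermediateField.adjoin_simple_toSubalgebra_of_isAlgebraic
        (Algebra.IsAlgebraic.isAlgebraic (R := ℚ_[r]) β)
      rw [← h2, ← hLF]
      exact a.2
    rw [Algebra.adjoin_singleton_eq_range_aeval] at haA
    obtain ⟨g, hg⟩ := haA
    have hg' : aeval β g = (a : PadicAlgCl r) := hg
    obtain ⟨C, hCdef⟩ : ∃ C : ℝ, C = ∑ i ∈ Finset.range (g.natDegree + 1), ‖β‖ ^ i := ⟨_, rfl⟩
    have hC : 0 ≤ C := by
      rw [hCdef]; exact Finset.sum_nonneg fun i _ => pow_nonneg (norm_nonneg _) _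
    obtain ⟨δ, hδdef⟩ : ∃ δ : ℝ, δ = 1 / (2 * (C + 1)) := ⟨_, rfl⟩
    have hδ : 0 < δ := by rw [hδdef]; positivity
    have hδC : δ * C < 1 := by
      rw [hδdef, div_mul_eq_mul_div, one_mul, div_lt_one (by positivity)]
      linarith
    have hex : ∀ i : ℕ, ∃ q : ℚ, ‖g.coeff i - (q : ℚ_[r])‖ < δ :=
      fun i => Padic.rat_dense r (g.coeff i) hδ
    choose q hq using hex
    have hq' : ∀ i, ‖g.coeff i - (q i : ℚ_[r])‖ ≤ δ := fun i => (hq i).le
    obtain ⟨x, hx⟩ : ∃ x : Qbar, x = ∑ i ∈ Finset.range (g.natDegree + 1),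
        algebraMap ℚ Qbar (q i) * (α : Qbar) ^ i := ⟨_, rfl⟩
    have hxF : x ∈ F := by
      rw [hx]
      exact F.sum_mem fun i _ => F.mul_mem (F.algebraMap_mem _) (pow_mem α.2 i)
    have hιx : padicEmbedding r x = ∑ i ∈ Finset.range (g.natDegree + 1),
        algebraMap ℚ_[r] (PadicAlgCl r) (q i : ℚ_[r]) * β ^ i := by
      rw [hx, padicEmbedding_sum, hβ]
    have h4 := norm_aeval_sub_le r g q δ hq' β
    rw [hg', ← hιx] at h4
    have hclose : ‖(a : PadicAlgCl r) - padicEmbedding r x‖ < 1 := by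
      rw [← hCdef] at h4
      exact lt_of_le_of_lt h4 hδC
    have hιx1 : ‖padicEmbedding r x‖ ≤ 1 := by
      have h5 : padicEmbedding r x =
          (a : PadicAlgCl r) - ((a : PadicAlgCl r) - padicEmbedding r x) := by ring
      rw [h5]
      exact (H15.norm_sub_le_max_algCl _ _).trans (max_le ha' hclose.le)
    have hxA : x ∈ padicPlace r := by
      rw [← absQ_le_one_iff, absQ_apply]; exact hιx1
    have hsx : ‖padicEmbedding r (s x - x)‖ < 1 :=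
      norm_lt_one_of_valuation_lt_one r (hsI x hxA)
    have hτx : τ₀ (padicEmbedding r x) = padicEmbedding r (s x) := by
      rw [← padicEmbedding_localGaloisToGlobal, hτ₀ x hxF]
    have h6 : τ₀ (a : PadicAlgCl r) - (a : PadicAlgCl r) =
        (τ₀ ((a : PadicAlgCl r) - padicEmbedding r x) + padicEmbedding r (s x - x)) -
          ((a : PadicAlgCl r) - padicEmbedding r x) := by
      rw [map_sub, hτx, map_sub]; ring
    rw [h6]
    refine (H15.norm_sub_le_max_algCl _ _).trans_lt (max_lt ?_ hclose)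
    refine (IsUltrametricDist.norm_add_le_max _ _).trans_lt (max_lt ?_ hsx)
    rw [norm_gal]; exact hclose
  obtain ⟨τ, hτ, hτres⟩ := H38.inertia_onto (H38.resL LF τ₀) hγ
  refine ⟨τ, hτ, fun x hx => ?_⟩
  apply (padicEmbedding r).toRingHom.injective
  show padicEmbedding r (localGaloisToGlobal r τ x) = padicEmbedding r (s x)
  rw [padicEmbedding_localGaloisToGlobal, ← hτ₀ x (hSF x hx), padicEmbedding_localGaloisToGlobal]
  have h7 := congrArg (fun e : LF ≃ₐ[ℚ_[r]] LF =>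
    ((e ⟨padicEmbedding r x, hFLF x (hSF x hx)⟩ : LF) : PadicAlgCl r)) hτres
  simp only [H38.resL_apply] at h7
  exact h7

/-- **(CC0) for the Fontaine family** (`r` odd): an additive character vanishing on a member of
`bddFon r` is unramified at `padicPlace r`. -/
theorem cc0_bddFon (hr2 : r ≠ 2) (u : GQ → ZMod r) (hadd : ∀ σ τ, u (σ * τ) = u σ + u τ)
    (hH : ∃ H ∈ bddFon r, ∀ σ ∈ H, u σ = 0) :
    ∀ σ ∈ (padicPlace r).inertiaSubgroupIn ℚ, u σ = 0 := by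
  obtain ⟨H, ⟨⟨S, hS⟩, L, hfin, hN, hb, hL⟩, hu⟩ := hH
  intro s hs
  obtain ⟨τ, hτ, hτS⟩ := exists_inertiaP_lift r s hs S
  -- the local cocycle
  obtain ⟨c, hc⟩ : ∃ c : (⊤ : Subgroup (Gp r)) → ZMod r,
      c = fun σ : (⊤ : Subgroup (Gp r)) => u (localGaloisToGlobal r (σ : Gp r)) := ⟨_, rfl⟩
  have hcb : IsBddCocycle (⊤ : Subgroup (Gp r)) (1 : (⊤ : Subgroup (Gp r)) →* (ZMod r)ˣ) c := by
    refine ⟨fun σ τ => ?_, L, hfin, hN, hb, fun σ hσ => ⟨rfl, ?_⟩⟩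
    · rw [hc]
      simp only [Subgroup.coe_mul, map_mul, hadd, MonoidHom.one_apply, Units.val_one, one_mul]
    · rw [hc]
      exact hu _ (hL _ hσ)
  have h0 : c ⟨τ, Subgroup.mem_top τ⟩ = 0 :=
    H38.stmt_CC0 r hr2 (ZMod r) ⊤ le_top c hcb ⟨τ, Subgroup.mem_top τ⟩ hτ
  rw [hc] at h0
  have h0' : u (localGaloisToGlobal r τ) = 0 := h0
  have h1 : (localGaloisToGlobal r τ)⁻¹ * s ∈ H := by
    refine hS _ (fun x hx => ?_)
    show (localGaloisToGlobal r τ)⁻¹ (s x) = x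
    rw [← hτS x hx]
    exact AlgEquiv.symm_apply_apply _ x
  have h2 : s = localGaloisToGlobal r τ * ((localGaloisToGlobal r τ)⁻¹ * s) := by group
  rw [h2, hadd, hu _ h1, add_zero]
  exact h0'

/-- The norm of the image of a rational number. -/
theorem norm_padicEmbedding_rat {a : ℚ} (ha : a ≠ 0) :
    ‖padicEmbedding r (algebraMap ℚ Qbar a)‖ = (r : ℝ) ^ (-padicValRat r a) := by
  rw [AlgHom.commutes, IsScalarTower.algebraMap_apply ℚ ℚ_[r] (PadicAlgCl r) a]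
  have h1 : algebraMap ℚ ℚ_[r] a = (a : ℚ_[r]) := rfl
  rw [h1]
  have h2 := PadicAlgCl.norm_extends r (a : ℚ_[r])
  rw [show ((a : ℚ_[r]) : PadicAlgCl r) = algebraMap ℚ_[r] (PadicAlgCl r) (a : ℚ_[r]) from rfl]
    at h2
  rw [h2, Padic.norm_eq_zpow_neg_valuation (by exact_mod_cast ha), Padic.valuation_ratCast]

/-- **(KUM) for the Fontaine family** (`r` odd): a `μ_r`-valued crossed homomorphism vanishing on
a member of `bddFon r` has unit class at `r`. -/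
theorem kum_bddFon (hr2 : r ≠ 2) (z : GQ → Qbar)
    (hH : ∃ H ∈ bddFon r, ∀ σ ∈ H, z σ = 1) : H97.UnitClassAt r z := by
  obtain ⟨H, ⟨-, L, hfin, hN, hb, hL⟩, hz1⟩ := hH
  intro a γ ha hγ hzγ
  haveI := hfin
  haveI := hN
  have hp : r.Prime := Fact.out
  have hr1 : (1 : ℝ) < r := by exact_mod_cast hp.one_lt
  have hr0 : (0 : ℝ) < r := by linarith
  -- `ι γ ∈ L`
  have hγL : padicEmbedding r γ ∈ L := by
    refine H38.mem_of_fixed_by_fixingSubgroup (fun σ hσ => ?_)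
    rw [← padicEmbedding_localGaloisToGlobal, hzγ, hz1 _ (hL σ hσ), one_mul]
  -- the compositum with the cyclotomic field
  haveI : Normal ℚ_[r] (H15.cycloField r) := H15.normal_cycloField
  have hb' : IsBddField r (L ⊔ H15.cycloField r) :=
    H15.isBdd_sup hr2 hN H15.normal_cycloField hb H15.isBdd_cycloField
  have hN' : Normal ℚ_[r] (L ⊔ H15.cycloField r : IntermediateField ℚ_[r] (PadicAlgCl r)) :=
    inferInstance
  obtain ⟨ζ, hζ1, hζr⟩ := H15.exists_zeta (p := r)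
  obtain ⟨A, hA⟩ : ∃ A : PadicAlgCl r, A = padicEmbedding r (algebraMap ℚ Qbar a) := ⟨_, rfl⟩
  have hAK : A ∈ H15.cycloField r := by
    rw [hA, AlgHom.commutes, IsScalarTower.algebraMap_apply ℚ ℚ_[r] (PadicAlgCl r) a]
    exact (H15.cycloField r).algebraMap_mem _
  have hA0 : A ≠ 0 := by
    rw [hA]
    intro h
    have h1 := (padicEmbedding r).toRingHom.injective (h.trans (map_zero _).symm)
    exact ha ((algebraMap ℚ Qbar).injective (h1.trans (map_zero _).symm))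
  have hpow : (padicEmbedding r γ) ^ r = A := by rw [← map_pow, hγ, hA]
  obtain ⟨b, hbK, hb0, hnorm⟩ := H85.kumbdd_core (L ⊔ H15.cycloField r) (H15.cycloField r) hN'
    le_sup_right hb' ⟨ζ, H15.mem_cycloField_of_pow_eq_one hζr, hζ1, hζr⟩ A hAK hA0
    ⟨padicEmbedding r γ, (le_sup_left : L ≤ L ⊔ H15.cycloField r) hγL, hpow⟩
  -- norms
  have hlt : ‖A * b ^ r - 1‖ < 1 :=
    lt_of_le_of_lt hnorm (inv_lt_one_of_one_lt₀ hr1)
  have hone : ‖A * b ^ r‖ = 1 := by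
    have h1 : A * b ^ r = 1 + (A * b ^ r - 1) := by ring
    rw [h1, H15.norm_add_eq_left (by rw [norm_one]; exact hlt), norm_one]
  rw [norm_mul, norm_pow, hA, norm_padicEmbedding_rat r ha] at hone
  obtain ⟨k, hk⟩ := H15.norm_pow_finrank (H15.cycloField r) ⟨b, hbK⟩
    (fun h => hb0 (congrArg (fun t : H15.cycloField r => (t : PadicAlgCl r)) h))
  have hk' : ‖b‖ ^ Module.finrank ℚ_[r] (H15.cycloField r) = (r : ℝ) ^ k := hk
  obtain ⟨n, hn⟩ : ∃ n : ℕ, n = Module.finrank ℚ_[r] (H15.cycloField r) := ⟨_, rfl⟩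
  rw [← hn] at hk'
  have hnr : ¬ r ∣ n := by rw [hn]; exact H15.not_dvd_finrank_cycloField
  have h2 : (r : ℝ) ^ (-padicValRat r a * n + k * r) = (r : ℝ) ^ (0 : ℤ) := by
    rw [zpow_zero, zpow_add₀ hr0.ne', zpow_mul, zpow_mul, zpow_natCast, zpow_natCast, ← hk',
      ← pow_mul, mul_comm n r, pow_mul, ← mul_pow, hone, one_pow]
  have h3 := zpow_right_injective₀ hr0 hr1.ne' h2
  have h4 : (r : ℤ) ∣ padicValRat r a * n := ⟨k, by linarith⟩
  rcases (Nat.prime_iff_prime_int.mp hp).dvd_or_dvd h4 with h5 | h5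
  · exact h5
  · exact absurd (Int.natCast_dvd_natCast.mp h5) hnr

/-- **BASE-F**: the Fontaine family is a bounded family at `padicPlace r` (`r` odd). -/
theorem isBddFamily_bddFon (hr2 : r ≠ 2) : IsBddFamily r (padicPlace r) (bddFon r) where
  isOpen := fun _ hH => hH.1
  cc0 := fun u hadd hH => cc0_bddFon r hr2 u hadd hH
  kum := fun z _ _ hH => kum_bddFon r hr2 z hH

end Fermat.Agent.S15.Desc.H66

end
end
-- ==== END Fermat.Agent.S15.Desc.H66_BddFon
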