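-- GENERATED (merged mirror, NOTES/tools/trim/merge3_helper67.py): 4 modules of the originals, bodies verbatim.
import Fermat.Agent.Zm.S44_L08_000
import Fermat.Agent.Zm.S44_L01_004
import Fermat.Agent.Zm.S35_L12_001
import Fermat.Agent.Zm.S35_L10_005
import Fermat.Agent.Zm.S35_L13_002
import Fermat.Agent.Zm.S35_L14_001
import Fermat.Agent.Zm.S35_L15_000
import Fermat.Agent.S43.Old.H75_WireAbs
import Fermat.Agent.Zm.S44_L01_001
import Fermat.Agent.Zm.S44_L02_001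
import Fermat.Agent.Zm.S35_L05_001

-- ==== BEGIN Fermat.Agent.BADP.H97_EisWild
section

/-!
# S44 (row 38), package EIS-ABS (helper97), part 3: the wild main line (D-CORE)

`eis_wild_core` : in the setting of `BADP.Stmt_EisAbs` (arithmetic in the form (K1), (K2),
(K3)), let `G_s` (for every node `s`) be a `V₁`-unit fixed by `𝓘2` with
`p · ord_P (G_s) = ord_P f` on the fibre of `s`.  Then `v₂ (G_s) = v₂ θ ^ (m s)` with `m s`
independent of `s` modulo `p`.

Proof (plan `NOTES/plan/L_S44.md` §12.2): canonical form `f₀c` of the class of `f₀`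
(`H51.rayCanon`), `R = σ f / (f f₀c) = e' H ^ p` with `H` fixed by `𝓘2`
(`exists_fixed_pow_root`), normalised (`exists_normalised`), and `SSD.dcore_gen` for `H` with
the correction factors `G_s / σ G_s` at the nodes and `exists_corr_good` at the good places.
-/

set_option autoImplicit false
set_option linter.style.haveILetI false
set_option linter.unusedSectionVars false
set_option maxHeartbeats 1000000

noncomputable section

open AlgebraicCurve

attribute [local instance] Classical.propDecidable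

namespace Fermat.Agent.BADP.H97

open Fermat.Agent.RED.H17 Fermat.Agent.RED Fermat.Agent.BAD

section Wild

variable {K F k F₁ F₂ : Type} [Field K] [Field F] [Algebra K F] [Field k] [Field F₁]
  [Algebra k F₁] [Field F₂] [Algebra k F₂]

/-- `σ f / f` is a unit of reduction `1` for a valuation with (K3). -/
theorem isGU_smul_div {F' : Type} [Field F'] [Algebra k F'] (T : PRed K F k F') {θ : K}
    (hθ : algebraMap K F θ ∈ T.V) (hθ0 : T.rd (algebraMap K F θ) = 0)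
    {σ : SemilinearAut K F} {f : F} {m : ℤ}
    (h : T.V.valuation ((σ • f) / f - (1 - (m : F) * algebraMap K F θ)) ≤
      T.V.valuation (algebraMap K F θ) ^ 2) :
    (σ • f) / f ∈ T.V ∧ T.rd ((σ • f) / f) = 1 := by
  have hθv : T.V.valuation (algebraMap K F θ) < 1 := pv_lt_of_rd hθ hθ0
  have hEv : T.V.valuation ((σ • f) / f - (1 - (m : F) * algebraMap K F θ)) < 1 := by
    refine lt_of_le_of_lt h ?_
    exact pow_lt_one₀ zero_le hθv (by norm_num)
  have hEm : (σ • f) / f - (1 - (m : F) * algebraMap K F θ) ∈ T.V := (pv_mem_iff _).2 hEv.le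
  have hEr := pv_rd_eq_zero hEv
  have hmm : (m : F) ∈ T.V := intCast_mem T.V m
  have h1m : 1 - (m : F) * algebraMap K F θ ∈ T.V :=
    T.V.sub_mem T.V.one_mem (T.V.mul_mem _ _ hmm hθ)
  have h1r : T.rd (1 - (m : F) * algebraMap K F θ) = 1 := by
    rw [T.rd_sub T.V.one_mem (T.V.mul_mem _ _ hmm hθ), T.rd_one, T.rd_mul hmm hθ, hθ0,
      mul_zero, sub_zero]
  have e : (σ • f) / f =
      ((σ • f) / f - (1 - (m : F) * algebraMap K F θ)) + (1 - (m : F) * algebraMap K F θ) := by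
    ring
  rw [e]
  refine ⟨T.V.add_mem _ _ hEm h1m, ?_⟩
  rw [T.rd_add hEm h1m, hEr, h1r, zero_add]

/-- **EIS-ABS, the wild main line.** -/
theorem eis_wild_core [IsAlgClosed K] [IsAlgClosed k] (S : SSD K F k F₁ F₂) (H : FFHyp K F)
    (H₁ : FFHyp k F₁) (H₂ : FFHyp k F₂) {g g₁ g₂ : ℕ} {c c₁ c₂ : ℤ} (hR : IsGenus K F g c)
    (hR₁ : IsGenus k F₁ g₁ c₁) (hR₂ : IsGenus k F₂ g₂ c₂)
    (hnum : g + 1 ≤ g₁ + g₂ + S.nodes.card) (p : ℕ) (hp : p.Prime) (hchar : CharP k p)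
    {𝓘 𝓘1 𝓘2 : Set (SemilinearAut K F)} (h𝓘 : ∀ τ ∈ 𝓘, S.IsInertial τ) (h1 : 𝓘1 ⊆ 𝓘)
    (h2 : 𝓘2 ⊆ 𝓘1) (hK0 : IsK0Lift S 𝓘) {σ : SemilinearAut K F} (hσ : σ ∈ 𝓘1)
    (hnorm : ∀ y : F, (∀ τ ∈ 𝓘2, τ • y = y) → ∀ τ ∈ 𝓘2, τ • (σ • y) = σ • y)
    {θ : K} (hθ : S.IsCM θ) (hθne : θ ≠ 0)
    (hθfix : ∀ τ ∈ 𝓘2, SemilinearAut.baseAut τ θ = θ)
    -- the arithmetic
    (hK3₁ : ∀ y : F, (∀ τ ∈ 𝓘2, τ • y = y) → y ≠ 0 → ∃ m : ℤ,
      S.c₁.V.valuation y = S.c₁.V.valuation (algebraMap K F θ) ^ m ∧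
      S.c₁.V.valuation ((σ • y) / y - (1 - (m : F) * algebraMap K F θ)) ≤
        S.c₁.V.valuation (algebraMap K F θ) ^ 2)
    (hK3₂ : ∀ y : F, (∀ τ ∈ 𝓘2, τ • y = y) → y ≠ 0 → ∃ m : ℤ,
      S.c₂.V.valuation y = S.c₂.V.valuation (algebraMap K F θ) ^ m ∧
      S.c₂.V.valuation ((σ • y) / y - (1 - (m : F) * algebraMap K F θ)) ≤
        S.c₂.V.valuation (algebraMap K F θ) ^ 2)
    (hK2₁ : ∀ y : F, (∀ τ ∈ 𝓘2, τ • y = y) → S.c₁.V.valuation y ≤ 1 →
      S.c₁.V.valuation (σ • y - y) ≤ S.c₁.V.valuation (algebraMap K F θ) ^ 2)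
    (hK2₂ : ∀ y : F, (∀ τ ∈ 𝓘2, τ • y = y) → S.c₂.V.valuation y ≤ 1 →
      S.c₂.V.valuation (σ • y - y) ≤ S.c₂.V.valuation (algebraMap K F θ) ^ 2)
    (hK1₁ : ∀ a : K, (∀ τ ∈ 𝓘1, SemilinearAut.baseAut τ a = a) → S.IsCM a →
      S.c₁.V.valuation (algebraMap K F a) ≤ S.c₁.V.valuation (algebraMap K F θ) ^ 2)
    (hK1₂ : ∀ a : K, (∀ τ ∈ 𝓘1, SemilinearAut.baseAut τ a = a) → S.IsCM a →
      S.c₂.V.valuation (algebraMap K F a) ≤ S.c₂.V.valuation (algebraMap K F θ) ^ 2)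
    -- the Kummer data
    {f : F} (hf : S.c₁.IsGU f) (hdiv : ∀ P : Place K F, (p : ℤ) ∣ P.ord f)
    (hffix : ∀ τ ∈ 𝓘2, τ • f = f)
    {f₀ f₀' h₀ T : F} {a e : K} (hf₀ : f₀ ∈ S.c₁.V) (hf₀r : S.c₁.rd f₀ = 1)
    (hf₀div : ∀ P : Place K F, (p : ℤ) ∣ P.ord f₀) (hf₀' : f₀' ∈ S.c₂.V)
    (hf₀'r : S.c₂.rd f₀' = 1) (hff : f₀ = algebraMap K F a * f₀' * h₀ ^ p)
    (hcls : ∀ τ ∈ 𝓘1, ∃ (e' : K) (T' : F), τ • f₀ = algebraMap K F e' * f₀ * T' ^ p)
    (hσf : σ • f = algebraMap K F e * f * f₀ * T ^ p)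
    -- the node data
    (G : Place k F₁ × Place k F₂ → F)
    (hG : ∀ s ∈ S.nodes, (∀ τ ∈ 𝓘2, τ • G s = G s) ∧ S.c₁.IsGU (G s) ∧
      ∀ P : Place K F, S.c₁.r P = some s.1 → (p : ℤ) * P.ord (G s) = P.ord f) :
    ∃ m : Place k F₁ × Place k F₂ → ℤ,
      (∀ s ∈ S.nodes, S.c₂.V.valuation (G s) = S.c₂.V.valuation (algebraMap K F θ) ^ (m s)) ∧
      ∀ s ∈ S.nodes, ∀ s' ∈ S.nodes, (p : ℤ) ∣ m s - m s' := by
  haveI : Fact p.Prime := ⟨hp⟩
  haveI : CharP k p := hchar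
  have hP := H.principal
  have hdeg := H.deg_one
  have hp0 : p ≠ 0 := hp.ne_zero
  have hK0' : ∀ u : F, u ∈ S.c₁.V → u ∈ S.c₂.V → ∃ u₀ : F, H51.IsK0Part S 𝓘 u u₀ :=
    fun u hu₁ hu₂ => H51.isK0Part_of_isK0Lift hK0 u hu₁ hu₂
  have h𝓘2 : ∀ τ ∈ 𝓘2, S.IsInertial τ := fun τ hτ => h𝓘 τ (h1 (h2 hτ))
  have hσI : S.IsInertial σ := h𝓘 σ (h1 hσ)
  -- the canonical form of `f₀`
  obtain ⟨A₁, A₂, s₁, s₂, Pinf, Qinf, h₁, a₁, a₂, X₁, X₂, hd₁, hd₂, hNSA, hs₁, hs₂, hs₁σ, hs₂σ,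
    hQinfg, hQinfA, hPinf, hPinffix, hh₁0, hcan, hFfix, hfix₁, hfix₂⟩ :=
    H51.rayCanon S H H₁ H₂ hR hR₁ hR₂ hnum p h1 h𝓘 hK0' hf₀ hf₀r hf₀div hf₀' hf₀'r hff hcls
  obtain ⟨F0c, hF0c⟩ : ∃ F0c : F, F0c = f₀ * h₁ ^ p := ⟨_, rfl⟩
  rw [← hF0c] at hcan hFfix
  have hF0cGU₁ : S.c₁.IsGU F0c := ⟨hcan.mem₁, by rw [hcan.rd₁]; exact one_ne_zero⟩
  have hF0cGU₂ : S.c₂.IsGU F0c := ⟨hcan.mem₂, by rw [hcan.rd₂]; exact one_ne_zero⟩
  have hF0c0 : F0c ≠ 0 := hF0cGU₁.ne_zero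
  have hf₀0 : f₀ ≠ 0 := by
    rintro rfl
    rw [zero_mul] at hF0c
    exact hF0c0 hF0c
  -- an invariant place with an invariant uniformiser
  obtain ⟨Pu, t, -, hPufix, htfix, ht1⟩ :=
    exists_fixed_unif S H H₁ H₂ hR hR₁ hR₂ hnum h𝓘 hK0' hQinfg
  -- the function `R`
  have hf0 : f ≠ 0 := hf.ne_zero
  have hσf0 : σ • f ≠ 0 := smul_ne_zero_of_ne hf0
  obtain ⟨R, hRdef⟩ : ∃ R : F, R = (σ • f) / (f * F0c) := ⟨_, rfl⟩
  have hR0 : R ≠ 0 := by
    rw [hRdef]
    exact div_ne_zero hσf0 (mul_ne_zero hf0 hF0c0)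
  have hRe : R = algebraMap K F e * (T / h₁) ^ p := by
    rw [hRdef, hσf, hF0c, div_pow]
    field_simp
  have hRfix : ∀ τ ∈ 𝓘2, τ • R = R := by
    intro τ hτ
    rw [hRdef, smul_div₀', smul_mul', hnorm f hffix τ hτ, hffix τ hτ, hFfix τ (h2 hτ)]
  have hσfGU : S.c₁.IsGU (σ • f) := ⟨hσI.mem₁ f hf.1, by
    rw [H51.rd₁_smul hσI hf.1]; exact hf.2⟩
  have hRGU₁ : S.c₁.IsGU R := by
    rw [hRdef]
    exact hσfGU.div (hf.mul hF0cGU₁)
  have hRr₁ : S.c₁.rd R = 1 := by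
    rw [hRdef, hσfGU.rd_div (hf.mul hF0cGU₁), H51.rd₁_smul hσI hf.1,
      S.c₁.rd_mul hf.1 hF0cGU₁.1, hcan.rd₁, mul_one]
    exact div_self hf.2
  obtain ⟨mf, -, hmf⟩ := hK3₂ f hffix hf0
  obtain ⟨hq₂, hqr₂⟩ := isGU_smul_div S.c₂ hθ.mem₂ hθ.rd₂ hmf
  have hqGU₂ : S.c₂.IsGU ((σ • f) / f) := ⟨hq₂, by rw [hqr₂]; exact one_ne_zero⟩
  have hRdef₂ : R = (σ • f) / f / F0c := by rw [hRdef, div_mul_eq_div_div]
  have hRGU₂ : S.c₂.IsGU R := by
    rw [hRdef₂]
    exact hqGU₂.div hF0cGU₂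
  have hRr₂ : S.c₂.rd R = 1 := by
    rw [hRdef₂, hqGU₂.rd_div hF0cGU₂, hqr₂, hcan.rd₂, div_one]
  -- the root, fixed by `𝓘2`
  obtain ⟨H', e', hH'0, he'0, hH'fix, -, hRe'⟩ :=
    exists_fixed_pow_root H (𝓘 := 𝓘2) (fun τ hτ => hPufix τ (h1 (h2 hτ)))
      (fun τ hτ => htfix τ (h1 (h2 hτ))) ht1 hp0 hR0 hRe hRfix
  -- normalisation
  obtain ⟨cn, hcn0, hHnfix, hΨ₁, hΨ₂⟩ :=
    exists_normalised S hp (𝓘2 := 𝓘2)
      (fun κ => by
        obtain ⟨c', h1', h2', h3'⟩ := exists_fixed_const S H hK0' κ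
        exact ⟨c', fun τ hτ => h1' τ (h1 (h2 hτ)), h2', h3'⟩)
      hθ hθne hθfix
      (fun y hy hy0 => by
        obtain ⟨m, hm, -⟩ := hK3₁ y hy hy0
        exact ⟨m, hm⟩)
      (fun y hy hy0 => by
        obtain ⟨m, hm, -⟩ := hK3₂ y hy hy0
        exact ⟨m, hm⟩)
      hH'0 hH'fix hRe' hRGU₁.1 hRr₁ hRGU₂.1 hRr₂
  obtain ⟨Hn, hHndef⟩ : ∃ Hn : F, Hn = algebraMap K F cn * H' := ⟨_, rfl⟩
  rw [← hHndef] at hHnfix hΨ₁ hΨ₂
  -- the divisor of `Hn`
  have hHn : ∀ P : Place K F,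
      (p : ℤ) * P.ord Hn = (σ⁻¹ • P).ord f - P.ord f - P.ord F0c := by
    intro P
    have e1 : P.ord R = (p : ℤ) * P.ord Hn := by
      rw [hHndef, ord_algebraMap_mul P hcn0, hRe', ord_algebraMap_mul P he'0,
        Fermat.Agent.RED.H17.ord_pow]
    have e2 : P.ord R = (σ⁻¹ • P).ord f - P.ord f - P.ord F0c := by
      rw [hRdef, Fermat.Agent.RED.H17.ord_div P hσf0 (mul_ne_zero hf0 hF0c0), ord_smul_inv,
        P.ord_mul hf0 hF0c0]
      ring
    rw [← e1, e2]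
  -- the exponents of the `G s`
  have hmex : ∀ s : Place k F₁ × Place k F₂, ∃ m : ℤ, s ∈ S.nodes →
      (S.c₂.V.valuation (G s) = S.c₂.V.valuation (algebraMap K F θ) ^ m ∧
        S.c₂.V.valuation ((σ • G s) / G s - (1 - (m : F) * algebraMap K F θ)) ≤
          S.c₂.V.valuation (algebraMap K F θ) ^ 2) := by
    intro s
    by_cases hs : s ∈ S.nodes
    · obtain ⟨m, hm⟩ := hK3₂ (G s) (hG s hs).1 (hG s hs).2.1.ne_zero
      exact ⟨m, fun _ => hm⟩
    · exact ⟨0, fun h => absurd h hs⟩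
  choose m hm using hmex
  -- D-CORE'
  obtain ⟨b₁, b₂, -, -, hl⟩ := S.dcore_gen hP H₁ H₂ hθne hθ hΨ₁ hΨ₂ (fun _ => 0)
    (fun s => ((m s : ℤ) : k))
    (by
      intro s hs
      obtain ⟨hGfix, hGU, hGord⟩ := hG s hs
      refine ⟨G s / (σ • G s), ?_, ?_, fun P hPs => ?_⟩
      · rw [map_zero]
        exact isFC_of_val_sigma_sub hθ.mem₁ hθ.rd₁ hθne hGU
          (hK2₁ (G s) hGfix ((pv_mem_iff _).1 hGU.1))
      · rw [map_intCast]
        exact isFC_of_val_sigma_div hθ.mem₂ hθ.rd₂ hθne (m s) (hm s hs).2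
      · have hσP : S.c₁.r (σ⁻¹ • P) = some s.1 := by
          have := hσI.r₁ (σ⁻¹ • P)
          rw [smul_inv_smul] at this
          rw [← this]
          exact hPs
        have hoff : P.ord F0c = 0 := by
          refine hcan.off P (fun Q hQ hPQ => ?_) (fun Q hQ hPQ => ?_)
          · rw [hPs] at hPQ
            have hQs : s.1 = Q := Option.some.inj hPQ
            exact Finset.disjoint_left.mp hd₁ hQ (hQs ▸ Finset.mem_image_of_mem Prod.fst hs)
          · rw [S.r₂_of_node hs hPs] at hPQ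
            have hQs : s.2 = Q := Option.some.inj hPQ
            exact Finset.disjoint_left.mp hd₂ hQ (hQs ▸ Finset.mem_image_of_mem Prod.snd hs)
        have := ord_corr (σ := σ) hp0 (hHn P) hGU.ne_zero (hGord P hPs) (hGord _ hσP)
          (one_ne_zero) (by rw [hoff, Place.ord_one, mul_zero])
        rwa [mul_one] at this)
    (by
      intro Q hQ
      by_cases hQA : Q ∈ A₁
      · have hco : S.c₁.IsCoord (s₁ Q) Q := (hs₁ Q hQA).1
        have ha := hcan.ha₁ Q hQA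
        have hsub := hco.sub_const ha.1 ha.2
        refine exists_corr_good S.c₁ hP hdeg hθ.mem₁ hθ.rd₁ hθne hσI.r₁
          (fun τ hτ => (h𝓘2 τ hτ).r₁) hK2₁ hp0 hdiv hffix hHn hco
          (fun τ hτ => hs₁σ Q hQA τ (h1 (h2 hτ)))
          (x := (s₁ Q - algebraMap K F (a₁ Q)) / s₁ Q)
          (div_ne_zero hsub.isGU.ne_zero hco.isGU.ne_zero)
          (isFC_coord hθ.mem₁ hθ.rd₁ hθne hco.isGU
            (hK1₁ (a₁ Q) (fun τ hτ => (hfix₁ Q hQA τ hτ).2) ha))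
          (fun P hPQ => ?_)
        rw [hcan.on₁ Q hQA P hPQ,
          Fermat.Agent.RED.H17.ord_div P hsub.isGU.ne_zero hco.isGU.ne_zero]
      · obtain ⟨t', ht', ht'fix⟩ := exists_inv_coord₁ S H H₁ H₂ hR hR₁ hR₂ hnum hK0' hQ
        refine exists_corr_good S.c₁ hP hdeg hθ.mem₁ hθ.rd₁ hθne hσI.r₁
          (fun τ hτ => (h𝓘2 τ hτ).r₁) hK2₁ hp0 hdiv hffix hHn ht'
          (fun τ hτ => ht'fix τ (h1 (h2 hτ))) (x := 1) one_ne_zero PRed.isFC_one
          (fun P hPQ => ?_)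
        rw [Place.ord_one, mul_zero]
        refine hcan.off P (fun Q' hQ' hPQ' => ?_) (fun Q' hQ' hPQ' => ?_)
        · rw [hPQ] at hPQ'
          exact hQA (Option.some.inj hPQ' ▸ hQ')
        · rw [S.r₂_none_of_good₁ hQ hPQ] at hPQ'
          exact absurd hPQ' (by simp))
    (by
      intro Q hQ
      by_cases hQA : Q ∈ A₂
      · have hco : S.c₂.IsCoord (s₂ Q) Q := (hs₂ Q hQA).1
        have ha := hcan.ha₂ Q hQA
        have hsub := hco.sub_const ha.1 ha.2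
        refine exists_corr_good S.c₂ hP hdeg hθ.mem₂ hθ.rd₂ hθne hσI.r₂
          (fun τ hτ => (h𝓘2 τ hτ).r₂) hK2₂ hp0 hdiv hffix hHn hco
          (fun τ hτ => hs₂σ Q hQA τ (h1 (h2 hτ)))
          (x := (s₂ Q - algebraMap K F (a₂ Q)) / s₂ Q)
          (div_ne_zero hsub.isGU.ne_zero hco.isGU.ne_zero)
          (isFC_coord hθ.mem₂ hθ.rd₂ hθne hco.isGU
            (hK1₂ (a₂ Q) (fun τ hτ => (hfix₂ Q hQA τ hτ).2) (S.rd₁_const_zero ha.1 ha.2)))
          (fun P hPQ => ?_)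
        rw [hcan.on₂ Q hQA P hPQ,
          Fermat.Agent.RED.H17.ord_div P hsub.isGU.ne_zero hco.isGU.ne_zero]
      · obtain ⟨t', ht', ht'fix⟩ := exists_inv_coord₂ S H H₁ H₂ hR hR₁ hR₂ hnum hK0' hQ
        refine exists_corr_good S.c₂ hP hdeg hθ.mem₂ hθ.rd₂ hθne hσI.r₂
          (fun τ hτ => (h𝓘2 τ hτ).r₂) hK2₂ hp0 hdiv hffix hHn ht'
          (fun τ hτ => ht'fix τ (h1 (h2 hτ))) (x := 1) one_ne_zero PRed.isFC_one
          (fun P hPQ => ?_)
        rw [Place.ord_one, mul_zero]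
        refine hcan.off P (fun Q' hQ' hPQ' => ?_) (fun Q' hQ' hPQ' => ?_)
        · rw [S.r₁_none_of_good₂ hQ hPQ] at hPQ'
          exact absurd hPQ' (by simp)
        · rw [hPQ] at hPQ'
          exact hQA (Option.some.inj hPQ' ▸ hQ'))
  refine ⟨m, fun s hs => (hm s hs).1, fun s hs s' hs' => ?_⟩
  have e1 := hl s hs
  have e2 := hl s' hs'
  rw [sub_zero] at e1 e2
  have e3 : (((m s - m s' : ℤ)) : k) = 0 := by
    push_cast
    rw [e1, e2, sub_self]
  exact (CharP.intCast_eq_zero_iff k p _).1 e3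

end Wild

end Fermat.Agent.BADP.H97

end
end
-- ==== END Fermat.Agent.BADP.H97_EisWild

-- ==== BEGIN Fermat.Agent.S17.W2.MainLemma
section

/-!
# S17-W2, CORE part 8 (ML): the main lemma (helper8)

`v = cls (P₁ + ⋯ + P_g)` generic over `k(s)`.  If `w` is a class such that `v` is algebraic over
every `k(s')`, `s' ⊇ s`, over which `w` is algebraic, then `w = cls (Q₁ + ⋯ + Q_g)` with
`(Q_i)` generic over `k(s)`.
-/

set_option autoImplicit false

noncomputable section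

namespace Fermat.Agent.S17.W2

open AlgebraicCurve WithZero Fermat.Agent.RED.H51 Fermat.Agent.RED.H42 IntermediateField

variable {k Ω F : Type} [Field k] [Field Ω] [Field F] [Algebra k Ω] [Algebra Ω F]
variable {S : Setting k Ω F}

local notation "L" => riemannRochSpace

theorem gdiv_apply_pos {r : ℕ} (P : Fin r → Place Ω F) (i : Fin r) : 1 ≤ gdiv P (P i) := by
  classical
  unfold gdiv
  rw [Finsupp.finsetSum_apply]
  have h1 : (Finsupp.single (P i) (1 : ℤ)) (P i) ≤ ∑ j, (Finsupp.single (P j) (1 : ℤ)) (P i) :=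
    Finset.single_le_sum (f := fun j => (Finsupp.single (P j) (1 : ℤ)) (P i))
      (fun j _ => by
        show 0 ≤ (Finsupp.single (P j) (1 : ℤ)) (P i)
        rw [Finsupp.single_apply]
        split_ifs <;> simp) (Finset.mem_univ i)
  rwa [Finsupp.single_eq_same] at h1

/-- Elements of `s` are algebraic over `k(s)`. -/
theorem isAlgebraic_of_mem {s : Set Ω} {a : Ω} (ha : a ∈ s) :
    IsAlgebraic (IntermediateField.adjoin k s) a := by
  have hmem : a ∈ IntermediateField.adjoin k s := IntermediateField.subset_adjoin k s ha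
  exact isAlgebraic_algebraMap (⟨a, hmem⟩ : IntermediateField.adjoin k s)

theorem main_lemma {g : ℕ} {c : ℤ} (C : CoreHyp S g c) {s : Set Ω} (hs : s.Finite)
    {P : Fin g → Place Ω F} {t : Fin g → Ω} (hP : IsGen S s P t) (w : Pic0 Ω F)
    (hw : ∀ s' : Set Ω, s'.Finite → s ⊆ s' → FinOrb S.ρ (Gs k Ω s') w →
      FinOrb S.ρ (Gs k Ω s') (cls C.hyp S.oo (gdiv P))) :
    ∃ (Q : Fin g → Place Ω F) (q : Fin g → Ω), IsGen S s Q q ∧ w = cls C.hyp S.oo (gdiv Q) := by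
  classical
  obtain ⟨Dw, hDw, hclsw, hdegw⟩ := canon_exists C.hyp S.oo g C.riemann_le w
  -- the non-poles in the support of `Dw`
  set U' : Finset (Place Ω F) := Dw.support.filter fun Q => ¬ Q.ord S.j < 0 with hU'
  have hval : ∀ Q ∈ U', ∃ a, S.IsZeroAt Q a := by
    intro Q hQ
    rw [hU', Finset.mem_filter] at hQ
    exact (S.pole_or_isZeroAt C.hyp Q C.hj).resolve_left hQ.2
  obtain ⟨r, hr⟩ : ∃ r, U'.card = r := ⟨_, rfl⟩
  let e : ↥U' ≃ Fin r := U'.equivFinOfCardEq hr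
  let Q : Fin r → Place Ω F := fun i => ((e.symm i : ↥U') : Place Ω F)
  have hQmem : ∀ i, Q i ∈ U' := fun i => (e.symm i).2
  choose q hq using fun i => hval (Q i) (hQmem i)
  -- `D' = Σ_{U'} P ≤ Dw`
  have hgdivQ : gdiv Q = ∑ R ∈ U', (Finsupp.single R 1 : Divisor Ω F) := by
    unfold gdiv
    rw [← Finset.sum_coe_sort U' fun R => (Finsupp.single R 1 : Divisor Ω F)]
    exact Fintype.sum_equiv e.symm _ _ fun i => rfl
  have hle : gdiv Q ≤ Dw := by
    rw [hgdivQ, Finsupp.le_def]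
    intro R
    have hR0 := Finsupp.le_def.mp hDw.1 R
    simp only [Finsupp.coe_zero, Pi.zero_apply] at hR0
    by_cases hR : R ∈ U'
    · rw [Finsupp.finsetSum_apply, Finset.sum_eq_single_of_mem R hR
        (fun R' _ hne => by rw [Finsupp.single_apply, if_neg hne]), Finsupp.single_eq_same]
      rw [hU', Finset.mem_filter, Finsupp.mem_support_iff] at hR
      omega
    · rw [sum_single_apply_of_notMem U' hR]
      exact hR0
  have hrg : r ≤ g := by
    have h1 := degree_mono hle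
    rw [degree_gdiv C.hyp] at h1
    exact_mod_cast h1.trans hdegw
  -- all points of `Dw` are algebraic over `k(s')`
  set s' : Set Ω := s ∪ Set.range q with hs'
  have hs'fin : s'.Finite := hs.union (Set.finite_range q)
  have hDwfin : FinOrb S.ρ (Gs k Ω s') Dw := by
    rw [S.finOrb_divisor_iff]
    intro R hR
    by_cases hpole : R.ord S.j < 0
    · exact S.finOrb_of_pole C.hyp C.hj _ hpole
    · have hRU : R ∈ U' := by
        rw [hU', Finset.mem_filter]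
        exact ⟨hR, hpole⟩
      have hRQ : Q (e ⟨R, hRU⟩) = R := by
        simp only [Q, Equiv.symm_apply_apply]
      have hz := hq (e ⟨R, hRU⟩)
      rw [hRQ] at hz
      exact S.finOrb_of_isAlgebraic C.hyp C.hj s' hz
        (isAlgebraic_of_mem (Or.inr ⟨e ⟨R, hRU⟩, rfl⟩))
  have hwfin : FinOrb S.ρ (Gs k Ω s') w := by
    rw [← hclsw, S.finOrb_cls_iff C.hyp hDw]
    exact hDwfin
  have hvfin := hw s' hs'fin Set.subset_union_left hwfin
  have hcanP := isCanon_gdiv C hs le_rfl hP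
  rw [S.finOrb_cls_iff C.hyp hcanP, S.finOrb_divisor_iff] at hvfin
  have htalg : ∀ i, IsAlgebraic (IntermediateField.adjoin k (s ∪ Set.range q)) (t i) := by
    intro i
    refine S.isAlgebraic_of_finOrb C.ft1 C.big hs'fin (hP.zero i) (hvfin (P i) ?_)
    rw [Finsupp.mem_support_iff]
    have := gdiv_apply_pos P i
    omega
  obtain ⟨hrg', hqind⟩ := C.ft4 s g r t q hrg hP.indep htalg
  subst hrg'
  refine ⟨Q, q, ⟨hq, hqind⟩, ?_⟩
  rw [← hclsw]
  congr 1
  have hsub : 0 ≤ Dw - gdiv Q := sub_nonneg.mpr hle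
  have hdeg0 : Divisor.degree (Dw - gdiv Q) ≤ 0 := by
    rw [map_sub, degree_gdiv C.hyp]
    omega
  have := eq_zero_of_nonneg_of_degree C.hyp hsub hdeg0
  exact sub_eq_zero.mp this

end Fermat.Agent.S17.W2

end
end
-- ==== END Fermat.Agent.S17.W2.MainLemma

-- ==== BEGIN Fermat.Agent.S43.Old.H75_OldRedAsm
section
attribute [local instance 10000] SubalgebraClass.toAlgebra
attribute [local instance 10000] HahnSeries.powerSeriesAlgebra

/-!
# S43, leaf OLD-RED: assembly from the Hecke compatibility of the reductions (helper75)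

`Stmt_HeckeRed` : for `N = M q`, `q ∤ M`, `A` over `q` and a prime `ℓ ∤ N` there is an additive
endomorphism `T~` of the divisors of the reduced field `F~_M` such that

* (level `M`)  `r_* (T_ℓ D_z) - T~ (r_* D_z)` is principal for every divisor `D_z` of `F_M`
  (helper95: `T~ = α~_* β~^*`, divisor-level form of HR);
* (level `N`)  if `p D = div f`, `f` a Gauss unit of `F_N`, `p D' = div (res f)` on
  `F~_N = F~_M` and `T_ℓ D - t D` is principal, then `T~ D' - t D'` is principal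
  (helper35: NORM-RED along `α` at level `N`, `H35.tilde_eigen_of_eigen`).

`stmt_OldRed_of_heckeRed : Stmt_HeckeRed → Stmt_OldRed`.
-/

set_option autoImplicit false
set_option linter.style.haveILetI false
set_option linter.unusedSectionVars false
set_option synthInstance.maxHeartbeats 400000
set_option maxHeartbeats 1600000

noncomputable section

open AlgebraicCurve ModularCurve Fermat.Agent.S28.H73 Fermat.Agent.RED.H73
open Fermat.Agent.RED Fermat.Agent.BAD Fermat.Agent.S43.BadQ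

namespace Fermat.Agent.S43.Old

/-- **HECKE-RED**: the Hecke compatibility of the two reductions (level `M`, place reduction;
level `N = M q`, reduction of Kummer functions on the component of `∞`). -/
def Stmt_HeckeRed : Prop :=
  ∀ (p : ℕ), p.Prime → ∀ (M q ℓ : ℕ) [NeZero M] [NeZero (M * q)] [NeZero ℓ], q.Prime → ¬ q ∣ M →
    ℓ.Prime → ¬ ℓ ∣ M * q →
    ∀ A : ValuationSubring (AlgebraicClosure ℚ), A.LiesOverPrime q →
    ∃ Tt : Divisor (kV A)
          ↥(redField A (modularFunctionFieldBar M) (hasScale_laurentBaseChange A M)) →+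
        Divisor (kV A)
          ↥(redField A (modularFunctionFieldBar M) (hasScale_laurentBaseChange A M)),
      (∀ (hα : HeckeAlphaBarIntegral (AlgebraicClosure ℚ) M ℓ)
          (hβ : HeckeBetaBarIntegral (AlgebraicClosure ℚ) M ℓ)
          [HasPrincipalDivisors (AlgebraicClosure ℚ) ↥(modularFunctionFieldBar (M * ℓ))]
          (r : Place (AlgebraicClosure ℚ) ↥(modularFunctionFieldBar M) →
            Place (kV A)
              ↥(redField A (modularFunctionFieldBar M) (hasScale_laurentBaseChange A M))),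
          IsRed A (hasScale_laurentBaseChange A M) r →
          HasMove A (hasScale_laurentBaseChange A M) r →
          ∀ Dz : Divisor (AlgebraicClosure ℚ) ↥(modularFunctionFieldBar M),
            Divisor.IsPrincipal
              (Finsupp.mapDomain r (heckeDivBar hα hβ Dz) - Tt (Finsupp.mapDomain r Dz))) ∧
      (∀ (hα : HeckeAlphaBarIntegral (AlgebraicClosure ℚ) (M * q) ℓ)
          (hβ : HeckeBetaBarIntegral (AlgebraicClosure ℚ) (M * q) ℓ)
          [HasPrincipalDivisors (AlgebraicClosure ℚ) ↥(modularFunctionFieldBar (M * q * ℓ))]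
          (D : Divisor (AlgebraicClosure ℚ) ↥(FNbar (M * q))) (f : ↥(gaussV A (M * q))),
          gaussRes A (M * q) f ≠ 0 →
          (∀ P : Place (AlgebraicClosure ℚ) ↥(FNbar (M * q)),
            (p : ℤ) * D P = P.ord ((f : ↥(FNbar (M * q))))) →
          ∀ g : ↥(redField A (modularFunctionFieldBar M) (hasScale_laurentBaseChange A M)),
            (g : LaurentSeries (kV A)) = (gaussRes A (M * q) f : LaurentSeries (kV A)) →
          ∀ D' : Divisor (kV A)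
              ↥(redField A (modularFunctionFieldBar M) (hasScale_laurentBaseChange A M)),
            (∀ Q, (p : ℤ) * D' Q = Q.ord g) →
          ∀ t : ℤ, Divisor.IsPrincipal (heckeDivBar hα hβ D - t • D) →
            Divisor.IsPrincipal (Tt D' - t • D'))

section Transport

variable {k K : Type*} [Field k] [Field K] [Algebra k K]

/-- Transport of a property of intermediate fields along an equality. -/
theorem transport_field (φ : IntermediateField k K → Prop) {E₁ E₂ : IntermediateField k K}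
    (e : E₁ = E₂) (h : φ E₁) : φ E₂ := e ▸ h

/-- Transport of an element along an equality of intermediate fields. -/
theorem exists_transport {E₁ E₂ : IntermediateField k K} (e : E₁ = E₂) (x : ↥E₁) :
    ∃ g : ↥E₂, (g : K) = (x : K) ∧ (x ≠ 0 → g ≠ 0) := by
  subst e
  exact ⟨x, rfl, id⟩

end Transport

section Divide

variable {k E : Type*} [Field k] [Field E] [Algebra k E]

/-- A divisor all of whose coefficients are divisible by `p ≠ 0` is `p` times a divisor. -/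
theorem exists_divisor_div (p : ℕ) (hp : p ≠ 0) (Dg : Divisor k E)
    (hdvd : ∀ Q : Place k E, (p : ℤ) ∣ Dg Q) :
    ∃ D' : Divisor k E, ∀ Q : Place k E, (p : ℤ) * D' Q = Dg Q := by
  have hpZ : (p : ℤ) ≠ 0 := by exact_mod_cast hp
  refine ⟨Finsupp.mapRange (fun n : ℤ => n / (p : ℤ)) (by simp) Dg, fun Q => ?_⟩
  rw [Finsupp.mapRange_apply]
  exact Int.mul_ediv_cancel' (hdvd Q)

end Divide

/-- **OLD-RED from HECKE-RED.** -/
theorem stmt_OldRed_of_heckeRed (hHR : Stmt_HeckeRed) : Stmt_OldRed := by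
  intro p hp N M q _ _ hN hq hqM A hA r hr hmove S t x hpx hF hK hT
  subst hN
  haveI : IsAlgClosed (kV A) := isAlgClosed_kV A
  have hcop : IsCoprime (q : ℤ) (M : ℤ) :=
    Nat.isCoprime_iff_coprime.2 ((Nat.Prime.coprime_iff_not_dvd hq).2 hqM)
  obtain ⟨a, b, hab⟩ := hcop
  have e : redField A (modularFunctionFieldBar (M * q)) (hasScale_laurentBaseChange A (M * q))
      = redField A (modularFunctionFieldBar M) (hasScale_laurentBaseChange A M) :=
    Fermat.Agent.BAD.H82.redField_eq_redField q M a b hab hq A hA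
  -- function field facts
  have hFFM := H95.stmt_HKA_isFF M
  have hFFN := H95.stmt_HKA_isFF (M * q)
  have hFt := isFF_redField_bar M q hq hqM A hA
  have HM := H17.ffHyp_of_isFF _ _ hFFM
  have HN := H17.ffHyp_of_isFF _ _ hFFN
  have Ht := H17.ffHyp_of_isFF _ _ hFt
  have hpZ : (p : ℤ) ≠ 0 := by exact_mod_cast hp.ne_zero
  -- the data of `Fin1`
  obtain ⟨D, f, hxD, hf, hD, hdvd⟩ := hF
  -- transport of `res f` to the reduced field of level `M`
  obtain ⟨g, hg, hg0'⟩ := exists_transport e (gaussRes A (M * q) f)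
  have hg0 : g ≠ 0 := hg0' hf
  -- divisibility at level `M`
  have hdvdM : ∀ Q : Place (kV A) ↥(redField A (modularFunctionFieldBar M)
      (hasScale_laurentBaseChange A M)), (p : ℤ) ∣ Q.ord g := by
    have h1 := transport_field
      (φ := fun E : IntermediateField (kV A) (LaurentSeries (kV A)) => ∀ g' : ↥E,
        (g' : LaurentSeries (kV A)) = (gaussRes A (M * q) f : LaurentSeries (kV A)) →
        ∀ Q : Place (kV A) ↥E, (p : ℤ) ∣ Q.ord g') e
      (fun g' hg' Q => by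
        have h2 : g' = gaussRes A (M * q) f := Subtype.ext hg'
        rw [h2]
        exact hdvd Q)
    exact h1 g hg
  -- the divisor `D' = div (res f) / p`
  obtain ⟨Dg, hDg, hDg0⟩ := Ht.principal.exists_divisor g hg0
  obtain ⟨D', hD'⟩ := exists_divisor_div p hp.ne_zero Dg (fun Q => by rw [hDg Q]; exact hdvdM Q)
  have hD'g : ∀ Q : Place (kV A) ↥(redField A (modularFunctionFieldBar M)
      (hasScale_laurentBaseChange A M)), (p : ℤ) * D' Q = Q.ord g := fun Q => by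
    rw [hD' Q, hDg Q]
  have hpD' : (p : ℤ) • D' = Dg := by
    ext Q
    rw [Finsupp.smul_apply, smul_eq_mul, hD' Q]
  have hD'deg : Divisor.degree D' = 0 := by
    have h2 : (p : ℤ) • Divisor.degree D' = 0 := by rw [← map_zsmul, hpD', hDg0]
    rcases smul_eq_zero.mp h2 with h | h
    · exact absurd h hpZ
    · exact h
  have hDgp : Dg ∈ Divisor.principal (K := kV A) (F := ↥(redField A (modularFunctionFieldBar M)
      (hasScale_laurentBaseChange A M))) := ⟨g, hg0, hDg⟩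
  -- NONZERO
  have hD'np : D' ∉ Divisor.principal (K := kV A) (F := ↥(redField A (modularFunctionFieldBar M)
      (hasScale_laurentBaseChange A M))) := by
    rintro ⟨g', hg'0, hg'⟩
    apply hK
    have key := transport_field
      (φ := fun E : IntermediateField (kV A) (LaurentSeries (kV A)) => ∀ g₁ : ↥E,
        (g₁ : LaurentSeries (kV A)) = (gaussRes A (M * q) f : LaurentSeries (kV A)) →
        ∃ g'' : ↥E, g'' ≠ 0 ∧ ∀ Q : Place (kV A) ↥E, Q.ord g₁ = (p : ℤ) * Q.ord g'') e.symm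
      (fun g₁ hg₁ => ⟨g', hg'0, fun Q => by
        have h2 : g₁ = g := Subtype.ext (hg₁.trans hg.symm)
        rw [h2, ← hD'g Q, hg' Q]⟩)
    obtain ⟨g'', hg''0, hg''⟩ := key (gaussRes A (M * q) f) rfl
    have hconstN := transport_field
      (φ := fun E : IntermediateField (kV A) (LaurentSeries (kV A)) => ∀ g₀ : ↥E, g₀ ≠ 0 →
        (∀ Q : Place (kV A) ↥E, Q.ord g₀ = 0) → ∃ c : kV A, g₀ = algebraMap (kV A) ↥E c) e.symm
      (fun g₀ h0 hQ => H36.const_of_ord_eq_zero hFt g₀ h0 hQ)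
    obtain ⟨D₁, f₁, hDD₁, hf₁, hD₁⟩ := H75.exists_kummer_one_of_principal A
      (hasScale_laurentBaseChange A (M * q)) HN.principal hconstN p hp.ne_zero D f hf hD
      g'' hg''0 hg''
    exact ⟨D₁, f₁, hxD.trans hDD₁, hf₁, hD₁⟩
  -- LIFT-PT
  obtain ⟨Dz, hDz⟩ := H75.exists_degZero_mapDomain_eq A (hasScale_laurentBaseChange A M) hr
    HM.principal HM.deg_one Ht.deg_one D' hD'deg
  refine ⟨Pic0.mk Dz, ?_, ?_, ?_⟩
  · rw [H36.redPic_mk, hDz]
    intro h0
    exact hD'np ((QuotientAddGroup.eq_zero_iff _).mp h0)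
  · rw [H36.redPic_mk, hDz]
    have h1 : (p : ℤ) • (QuotientAddGroup.mk D' : Pic (kV A) ↥(redField A
        (modularFunctionFieldBar M) (hasScale_laurentBaseChange A M)))
        = QuotientAddGroup.mk ((p : ℤ) • D') := rfl
    rw [h1, hpD']
    exact (QuotientAddGroup.eq_zero_iff _).mpr hDgp
  · intro ℓ hℓS hℓN hℓp
    haveI : NeZero (ℓ : ℕ) := ⟨ℓ.2.ne_zero⟩
    obtain ⟨Tt, hb, hc⟩ := hHR p hp M q (ℓ : ℕ) hq hqM ℓ.2 hℓN A hA
    obtain ⟨hαN, hβN, hPN, hfinN, hFIN, hNFN⟩ := H51.stmt_HKA (M * q) (ℓ : ℕ)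
    obtain ⟨hαM, hβM, hPM, hfinM, hFIM, hNFM⟩ := H51.stmt_HKA M (ℓ : ℕ)
    -- the eigen-equation at level `N`
    have heig : Divisor.IsPrincipal (heckeDivBar hαN hβN
        (D : Divisor (AlgebraicClosure ℚ) ↥(FNbar (M * q)))
        - t ℓ • (D : Divisor (AlgebraicClosure ℚ) ↥(FNbar (M * q)))) := by
      have h1 := hT ℓ hℓS hℓN hℓp
      rw [hxD, heckeOperatorBar_apply, heckeOperatorAlong_eq hαN hβN hFIN hfinN hNFN] at h1
      have hmk : heckePic0Bar hαN hβN hFIN hfinN hNFN (Pic0.mk D)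
          = Pic0.mk (Pic0.degZeroCorrespondence (heckeBetaBar (AlgebraicClosure ℚ) (M * q) (ℓ : ℕ))
              (heckeAlphaBar (AlgebraicClosure ℚ) (M * q) (ℓ : ℕ)) hβN hαN hFIN D) := rfl
      have h2 : t (ℓ : ℕ) • Pic0.mk D = Pic0.mk (t (ℓ : ℕ) • D) := rfl
      rw [hmk, h2] at h1
      have h3 := (QuotientAddGroup.eq (s := (Divisor.principal (K := AlgebraicClosure ℚ)
        (F := ↥(FNbar (M * q)))).addSubgroupOf
        (Divisor.degZero (K := AlgebraicClosure ℚ) (F := ↥(FNbar (M * q)))))).mp h1.symm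
      rw [AddSubgroup.mem_addSubgroupOf] at h3
      have h4 : (heckeDivBar hαN hβN (D : Divisor (AlgebraicClosure ℚ) ↥(FNbar (M * q)))
          - t ℓ • (D : Divisor (AlgebraicClosure ℚ) ↥(FNbar (M * q))))
          = -(t ℓ • (D : Divisor (AlgebraicClosure ℚ) ↥(FNbar (M * q))))
            + heckeDivBar hαN hβN (D : Divisor (AlgebraicClosure ℚ) ↥(FNbar (M * q))) := by
        abel
      rw [h4]
      exact h3
    have hcD' := hc hαN hβN (D : Divisor (AlgebraicClosure ℚ) ↥(FNbar (M * q))) f hf hD g hg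
      D' hD'g (t ℓ) heig
    have hbDz := hb hαM hβM r hr hmove (Dz : Divisor (AlgebraicClosure ℚ)
      ↥(modularFunctionFieldBar M))
    rw [hDz] at hbDz
    -- conclusion
    rw [heckeOperatorBar_apply, heckeOperatorAlong_eq hαM hβM hFIM hfinM hNFM]
    have hmkM : heckePic0Bar hαM hβM hFIM hfinM hNFM (Pic0.mk Dz)
        = Pic0.mk (Pic0.degZeroCorrespondence (heckeBetaBar (AlgebraicClosure ℚ) M (ℓ : ℕ))
            (heckeAlphaBar (AlgebraicClosure ℚ) M (ℓ : ℕ)) hβM hαM hFIM Dz) := rfl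
    rw [hmkM, H36.redPic_mk, H36.redPic_mk, hDz]
    have h5 : t (ℓ : ℕ) • (QuotientAddGroup.mk D' : Pic (kV A) ↥(redField A
        (modularFunctionFieldBar M) (hasScale_laurentBaseChange A M)))
        = QuotientAddGroup.mk (t (ℓ : ℕ) • D') := rfl
    rw [h5]
    refine (QuotientAddGroup.eq (s := Divisor.principal (K := kV A)
      (F := ↥(redField A (modularFunctionFieldBar M) (hasScale_laurentBaseChange A M))))).mpr ?_
    have h6 := (Divisor.principal (K := kV A) (F := ↥(redField A (modularFunctionFieldBar M)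
      (hasScale_laurentBaseChange A M)))).neg_mem
      ((Divisor.principal (K := kV A) (F := ↥(redField A (modularFunctionFieldBar M)
      (hasScale_laurentBaseChange A M)))).add_mem hbDz hcD')
    convert h6 using 1
    show -(Finsupp.mapDomain r (heckeDivBar hαM hβM (Dz : Divisor (AlgebraicClosure ℚ)
      ↥(modularFunctionFieldBar M)))) + t (ℓ : ℕ) • D' = _
    abel

end Fermat.Agent.S43.Old

end
end
-- ==== END Fermat.Agent.S43.Old.H75_OldRedAsm

-- ==== BEGIN Fermat.Agent.S43.Old.Wire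
section

/-!
# S43, leaf OLD (= LIFT-EIG): the wiring (helper75)

`old_of_leaves` : `Stmt_OldRed → Stmt_Star → Stmt_KerStable → Stmt_TorsRel → Stmt_CharM →` the
statement OLD for every prime `p` and every prime `q ∥ N` (`q = p` allowed);
`stmt_Old_of_leaves` : the same leaves give `S43.BadQ.Stmt_Old`.

Proof.  `M = N / q`, `r` the reduction map of level `M` (`H36.stmt_RM`), `z` from OLD-RED,
`y = redM z ≠ 0`, `p y = 0`.  Let `P` be a relation of the good Hecke operators on the Betti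
lattice of level `M`.  `P(T)` kills the torsion of `J₀(M)` (TORS-REL) and commutes with `G_ℚ`
(`GTor.H2.stmt_GalHecke`), so `redM (P(T) z) = 0` (STAR).  On the other hand
`redM (P(T) z) = P(t) y` (`red_lift_eq`, by KER and OLD-RED).  Hence `p ∣ P(t)`, and CHAR-M gives
the eigenform of level `M`.
-/

set_option autoImplicit false
set_option linter.style.haveILetI false
set_option linter.unusedSectionVars false
set_option synthInstance.maxHeartbeats 400000
set_option maxHeartbeats 1600000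

noncomputable section

open AlgebraicCurve ModularCurve Fermat.Agent.S28.H73 Fermat.Agent.RED.H73
open Fermat.Agent.RED Fermat.Agent.BAD Fermat.Agent.S43.BadQ Fermat.Agent.S44
open Fermat.Agent.L.LiftEig

namespace Fermat.Agent.S43.Old

/-- **OLD from the leaves**, general form: `p` any prime, `q ∥ N` any prime. -/
theorem old_of_leaves (hOR : Stmt_OldRed) (hStar : Stmt_Star) (hKer : Stmt_KerStable)
    (hTR : Stmt_TorsRel) (hCM : Stmt_CharM)
    (p : ℕ) (hp : p.Prime) (N : ℕ) [NeZero N] (q : ℕ) (hq : q.Prime) (hqN : q ∣ N)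
    (hq2 : ¬ q ^ 2 ∣ N) (A : ValuationSubring (AlgebraicClosure ℚ)) (hA : A.LiesOverPrime q)
    (S : Finset ℕ) (t : ℕ → ℤ) (x : (jzModule N p).J)
    (hF : Fin1 A N p (jzModule.pt N p x)) (hK : ¬ InK1 A N p (jzModule.pt N p x))
    (hT : ∀ ℓ : ℕ, ℓ.Prime → ℓ ∉ S → ¬ ℓ ∣ N → ℓ ≠ p →
      (jzModule N p).T ℓ x = ((t ℓ : ℤ) : ZMod p) • x) :
    ∃ (g : CuspForm (CongruenceSubgroup.Gamma0 (N / q)) 2) (𝔪 : Ideal ZBar),
      g.IsNormalizedEigenform ∧ 𝔪.IsMaximal ∧ (p : ZBar) ∈ 𝔪 ∧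
      ∀ ℓ : ℕ, ℓ.Prime → ℓ ∉ S → ¬ ℓ ∣ N → ℓ ≠ p →
        ∃ a : ZBar, (a : ℂ) = ModularFormClass.qCoeff g ℓ ∧ a - ((t ℓ : ℤ) : ZBar) ∈ 𝔪 := by
  have hN : N = N / q * q := (Nat.div_mul_cancel hqN).symm
  have hM0 : N / q ≠ 0 := by
    intro h0
    have h1 := hN
    rw [h0, zero_mul] at h1
    exact NeZero.ne N h1
  haveI : NeZero (N / q) := ⟨hM0⟩
  have hqM : ¬ q ∣ N / q := by
    rintro ⟨k, hk⟩
    apply hq2
    refine ⟨k, ?_⟩
    calc N = N / q * q := hN
      _ = q * k * q := by rw [hk]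
      _ = q ^ 2 * k := by ring
  have hMN : N / q ∣ N := Nat.div_dvd_of_dvd hqN
  obtain ⟨r, hr, hmove⟩ := H36.stmt_RM (N / q) q hq hqM A hA
  -- the eigen-equation on `J₀(N)`
  have hT' : ∀ ℓ : Nat.Primes, (ℓ : ℕ) ∉ S → ¬ (ℓ : ℕ) ∣ N → (ℓ : ℕ) ≠ p →
      heckeOperatorBar N ℓ (jzModule.pt N p x) = t ℓ • jzModule.pt N p x := by
    intro ℓ hℓS hℓN hℓp
    have h1 := hT ℓ ℓ.2 hℓS hℓN hℓp
    have h2 := congrArg (jzModule.pt N p) h1
    rw [jzModule.pt_T N p ℓ.2 hℓN] at h2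
    exact h2.trans (coe_intCast_smul p N (t ℓ) x)
  obtain ⟨z, hz0, hzp, hzT⟩ := hOR p hp N (N / q) q hN hq hqM A hA r hr hmove S t
    (jzModule.pt N p x) (jzModule.pt_torsion N p x) hF hK hT'
  -- the bad set
  obtain ⟨S₁, hS₁⟩ : ∃ S₁ : Finset ℕ, S₁ = insert p (insert q S) := ⟨_, rfl⟩
  have hmemS₁ : ∀ ℓ : ℕ, ℓ ∉ S₁ ↔ ℓ ≠ p ∧ ℓ ≠ q ∧ ℓ ∉ S := by
    intro ℓ
    rw [hS₁, Finset.mem_insert, Finset.mem_insert]
    tauto
  have hndvd : ∀ ℓ : ℕ, ℓ.Prime → ¬ ℓ ∣ N / q → ℓ ≠ q → ¬ ℓ ∣ N := by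
    intro ℓ hℓ hℓM hℓq hℓN
    rw [hN] at hℓN
    rcases (Nat.Prime.dvd_mul hℓ).mp hℓN with h | h
    · exact hℓM h
    · exact hℓq ((Nat.prime_dvd_prime_iff_eq hℓ hq).mp h)
  -- the relations
  have hrel : ∀ P : HPoly (N / q) (↑S₁ : Set ℕ), IsBettiRel (N / q) ↑S₁ P →
      (p : ℤ) ∣ evalt (N / q) ↑S₁ t P := by
    intro P hP
    -- `P(T)` kills the reduction
    have h1 : H36.redPic A (hasScale_laurentBaseChange A (N / q)) hr
        (evalJ (N / q) ↑S₁ P z) = 0 := by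
      refine hStar (N / q) q hq hqM A hA r hr (evalJ (N / q) ↑S₁ P).toAddMonoidHom ?_ ?_ z
      · intro σ y
        exact H75.lift_smul_comm
          (fun ℓ : GoodPrime (N / q) (↑S₁ : Set ℕ) => heckeOperatorBar (N / q) ⟨ℓ.1, ℓ.2.1⟩)
          (fun ℓ σ y => (Fermat.Agent.GTor.H2.stmt_GalHecke (N / q) ⟨ℓ.1, ℓ.2.1⟩ σ y).symm)
          P σ y
      · intro h hh y hy
        exact hTR (N / q) ↑S₁ P hP h hh y hy
    -- `redM (P(T) z) = P(t) redM z`
    have h2 := H75.red_lift_eq (H36.redPic A (hasScale_laurentBaseChange A (N / q)) hr)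
      (fun ℓ : GoodPrime (N / q) (↑S₁ : Set ℕ) => heckeOperatorBar (N / q) ⟨ℓ.1, ℓ.2.1⟩)
      (fun ℓ : GoodPrime (N / q) (↑S₁ : Set ℕ) => t ℓ.1)
      (fun ℓ u hu => hKer (N / q) q hq hqM A hA r hr hmove ⟨ℓ.1, ℓ.2.1⟩ ℓ.2.2.1
        (((hmemS₁ ℓ.1).mp ℓ.2.2.2).2.1) u hu)
      z
      (fun ℓ => hzT ⟨ℓ.1, ℓ.2.1⟩ (((hmemS₁ ℓ.1).mp ℓ.2.2.2).2.2)
        (hndvd ℓ.1 ℓ.2.1 ℓ.2.2.1 (((hmemS₁ ℓ.1).mp ℓ.2.2.2).2.1))
        (((hmemS₁ ℓ.1).mp ℓ.2.2.2).1))
      P z 1 (one_smul ℤ _).symm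
    have h3 : evalt (N / q) ↑S₁ t P •
        H36.redPic A (hasScale_laurentBaseChange A (N / q)) hr z = 0 := by
      have h4 : H36.redPic A (hasScale_laurentBaseChange A (N / q)) hr
          (evalJ (N / q) ↑S₁ P z) = (evalt (N / q) ↑S₁ t P * 1) •
          H36.redPic A (hasScale_laurentBaseChange A (N / q)) hr z := h2
      rw [h1, mul_one] at h4
      exact h4.symm
    exact H75.dvd_of_smul_eq_zero hp hz0 hzp h3
  obtain ⟨g, 𝔪, hg, h𝔪, hp𝔪, hcong⟩ := hCM p hp (N / q) S₁ t hrel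
  refine ⟨g, 𝔪, hg, h𝔪, hp𝔪, fun ℓ hℓ hℓS hℓN hℓp => ?_⟩
  have hℓq : ℓ ≠ q := by
    rintro rfl
    exact hℓN hqN
  exact hcong ℓ hℓ ((hmemS₁ ℓ).mpr ⟨hℓp, hℓq, hℓS⟩) (fun h => hℓN (h.trans hMN))

/-- **`S43.BadQ.Stmt_Old` from the leaves.** -/
theorem stmt_Old_of_leaves (hOR : Stmt_OldRed) (hStar : Stmt_Star) (hKer : Stmt_KerStable)
    (hTR : Stmt_TorsRel) (hCM : Stmt_CharM) : Stmt_Old := by
  intro p hp _ N _ q hq _ hqN hq2 A hA S t x hF hK hT
  exact old_of_leaves hOR hStar hKer hTR hCM p hp N q hq hqN hq2 A hA S t x hF hK hT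

end Fermat.Agent.S43.Old

end
end
-- ==== END Fermat.Agent.S43.Old.Wire
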