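-- GENERATED (merged mirror, NOTES/tools/trim/merge3_helper67.py): 7 modules of the originals, bodies verbatim.
import Fermat.Agent.Zm.S44_L09_000
import Fermat.Agent.Zm.S44_L04_000
import Fermat.Agent.Zm.S44_L09_001
import Fermat.Agent.Zm.S44_L08_000
import Fermat.Agent.Zm.S44_L02_002
import Fermat.Agent.S05.H15_Val
import Fermat.Agent.Zm.S44_L02_004
import Fermat.Agent.Zm.S35_L08_000

-- ==== BEGIN Fermat.Agent.BADP.H97_EisFinal
section

/-!
# S44 (row 38), package EIS-ABS (helper97), part 4: `Stmt_EisAbs` is PROVED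

`stmt_EisAbs : BADP.Stmt_EisAbs` (statement of helper93, `BADP/EisAbs.lean`), from
* `H38.stmt_NodeVal` (helper38: annulus coordinates, `H97.local_node`, `SSD.nodeRad`),
* `H97.eis_wild_core` (the first-order analysis `SSD.dcore_gen`),
* the arithmetic `KData` ((K1), (K2), (K3) of `H97_KArith`, `H97_KSpan`, `val_k1`).
-/

set_option autoImplicit false
set_option linter.style.haveILetI false
set_option linter.unusedSectionVars false
set_option maxHeartbeats 1000000

noncomputable section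

open AlgebraicCurve

attribute [local instance] Classical.propDecidable

namespace Fermat.Agent.BADP.H97

open Fermat.Agent.RED.H17 Fermat.Agent.RED Fermat.Agent.BAD

/-! ### The final arithmetic -/

section Arith

/-- From `e_s n_s ≡ e_s' n_s'` and `e_s a_s = w`, `p ∤ w`: the vector `n` is proportional to
the vector `a` modulo `p`. -/
theorem eis_concl {ι : Type*} {p : ℕ} (hp : p.Prime) {nodes : Finset ι}
    (hne : nodes.Nonempty) {e a n : ι → ℤ} {w : ℤ} (hw : ¬ (p : ℤ) ∣ w)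
    (hea : ∀ s ∈ nodes, e s * a s = w)
    (hcong : ∀ s ∈ nodes, ∀ s' ∈ nodes, (p : ℤ) ∣ e s * n s - e s' * n s') :
    ∃ c : ℤ, ∀ s ∈ nodes, (p : ℤ) ∣ n s - c * a s := by
  have hpZ : Prime (p : ℤ) := Nat.prime_iff_prime_int.mp hp
  obtain ⟨s₀, hs₀⟩ := hne
  have hcop : IsCoprime w (p : ℤ) := by
    rw [isCoprime_comm]
    exact (Prime.coprime_iff_not_dvd hpZ).2 hw
  obtain ⟨x, y, hxy⟩ := hcop
  refine ⟨e s₀ * n s₀ * x, fun s hs => ?_⟩
  have h1 : (p : ℤ) ∣ e s * (n s - e s₀ * n s₀ * x * a s) := by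
    have e1 : e s * (n s - e s₀ * n s₀ * x * a s) =
        (e s * n s - e s₀ * n s₀) + e s₀ * n s₀ * y * p := by
      have hw' := hea s hs
      linear_combination (-(e s₀ * n s₀ * x)) * hw' - (e s₀ * n s₀) * hxy
    rw [e1]
    exact dvd_add (hcong s hs s₀ hs₀) (Dvd.intro_left _ rfl)
  rcases hpZ.dvd_or_dvd h1 with h2 | h2
  · exfalso
    apply hw
    rw [← hea s hs]
    exact Dvd.dvd.mul_right h2 _
  · exact h2

/-- The congruence `e_s n_s ≡ e_s' n_s'` from the equality of the exponents. -/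
theorem eis_cong {p : ℕ} {e n d m e' n' d' m' : ℤ}
    (h : (p : ℤ) * ((p : ℤ) - 1) * (e * (n - p * d)) + p * m =
      (p : ℤ) * ((p : ℤ) - 1) * (e' * (n' - p * d')) + p * m')
    (hp0 : (p : ℤ) ≠ 0) (hm : (p : ℤ) ∣ m - m') : (p : ℤ) ∣ e * n - e' * n' := by
  have h1 : ((p : ℤ) - 1) * (e * (n - p * d)) + m = ((p : ℤ) - 1) * (e' * (n' - p * d')) + m' :=
    mul_left_cancel₀ hp0 (by linear_combination h)
  obtain ⟨q, hq⟩ := hm
  refine ⟨e * n - e * d * p + e * d - e' * n' + e' * d' * p - e' * d' + q, ?_⟩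
  linear_combination (-1 : ℤ) * h1 + hq

end Arith

section Map

variable {K F : Type*} [Field K] [Field F] [Algebra K F]

theorem theta_algebraMap (ζ ω : K) :
    theta (algebraMap K F ζ) (algebraMap K F ω) = algebraMap K F (theta ζ ω) := by
  simp only [theta, map_div₀, map_mul, map_sub, map_one]

theorem baseAut_theta (τ : SemilinearAut K F) {ζ ω : K} (hζ : SemilinearAut.baseAut τ ζ = ζ)
    (hω : SemilinearAut.baseAut τ ω = ω) :
    SemilinearAut.baseAut τ (theta ζ ω) = theta ζ ω := by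
  simp only [theta, map_div₀, map_mul, map_sub, map_one, hζ, hω]

theorem toRingAut_coe_apply (σ : SemilinearAut K F) (y : F) :
    ((SemilinearAut.toRingAut σ : F ≃+* F) : F →+* F) y = σ • y := by
  rw [SemilinearAut.smul_def]
  rfl

end Map

section K1

variable {K F k F' : Type*} [Field K] [Field F] [Algebra K F] [Field k] [Field F']
  [Algebra k F'] {T : PRed K F k F'}

/-- (K1') the constants of the maximal ideal in `F0 (ζ)` are divisible by `θ ^ 2`. -/
theorem val_le_theta_sq {F0 : Subfield F} {p : ℕ} {ζ ω : F} {σ : F →+* F}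
    (hKD : KData T.V.valuation F0 p ζ ω σ) {y : F}
    (hy : y ∈ IntermediateField.adjoin F0 ({ζ} : Set F)) (hlt : T.V.valuation y < 1) :
    T.V.valuation y ≤ T.V.valuation (theta ζ ω) ^ 2 := by
  set v := T.V.valuation with hv
  rcases eq_or_ne y 0 with rfl | hy0
  · rw [map_zero]
    exact zero_le
  obtain ⟨j, hj⟩ := val_k1 v hKD.prime hKD.root hKD.vp_lt hKD.vp_ne hKD.val0 hy hy0
  have hπpos : 0 < v (ζ - 1) := zero_lt_iff.2 ((Valuation.ne_zero_iff v).2 hKD.pi_ne_zero)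
  have hπlt : v (ζ - 1) < 1 := by
    rw [hKD.val_pi_eq]
    exact pow_lt_one₀ zero_le hKD.val_theta_lt hKD.prime.ne_zero
  have hj1 : 1 ≤ j := by
    by_contra hcon
    have hj0 : j ≤ 0 := by omega
    have : (1 : _) ≤ v (ζ - 1) ^ j := by
      have h1 := (zpow_le_zpow_iff_right_of_lt_one₀ hπpos hπlt).2 hj0
      rwa [zpow_zero] at h1
    rw [← hj] at this
    exact absurd hlt (not_lt.2 this)
  have h1 : v y ≤ v (ζ - 1) := by
    rw [hj]
    have h1 := (zpow_le_zpow_iff_right_of_lt_one₀ hπpos hπlt).2 hj1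
    rwa [zpow_one] at h1
  refine le_trans h1 ?_
  rw [hKD.val_pi_eq]
  exact pow_le_pow_of_le_one zero_le hKD.val_theta_lt.le hKD.prime.two_le

end K1

/-- **EIS-ABS** (wild case), from NODE-VAL. -/
theorem stmt_EisAbs_of_nodeVal (hNV : H38.Stmt_NodeVal) : Stmt_EisAbs := by
  intro K F k F₁ F₂ _ _ _ _ _ _ _ _ _ _ S H H₁ H₂ g g₁ g₂ c c₁ c₂ hR hR₁ hR₂ hnum p hp hp2 hchar
    hpK 𝓘 𝓘1 𝓘2 h𝓘 h1 h2 hK0 F0 hF0 ζ ω σ hσ hKD₁ hKD₂ hdesc2 hdesc1 hfix2 hfix1 hnorm U w hU
    hUfix hUnode hU₂ hw f hf hdiv hffix f₀ f₀' h₀ T a e hf₀ hf₀r hf₀div hf₀' hf₀'r hff hcls hσf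
  -- NODE-VAL
  obtain ⟨en, G, d, hN⟩ := hNV K F k F₁ F₂ S H H₁ H₂ g g₁ g₂ c c₁ c₂ hR hR₁ hR₂ hnum p hp hchar
    hpK 𝓘 𝓘2 h𝓘 (h2.trans h1) hK0 F0 hF0 hKD₂.val0 U w hU hUfix hUnode hU₂ hw f hf hdiv hffix
  -- `θ`
  have hθF : algebraMap K F (theta ζ ω) = theta (algebraMap K F ζ) (algebraMap K F ω) :=
    (theta_algebraMap ζ ω).symm
  have hθlt₁ : S.c₁.V.valuation (algebraMap K F (theta ζ ω)) < 1 := by
    rw [hθF]; exact hKD₁.val_theta_lt
  have hθ : S.IsCM (theta ζ ω) := ⟨(pv_mem_iff _).2 hθlt₁.le, pv_rd_eq_zero hθlt₁⟩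
  have hθne : theta ζ ω ≠ 0 := by
    intro h0
    have := hKD₁.theta_ne_zero
    rw [← hθF, h0, map_zero] at this
    exact this rfl
  have hθfix : ∀ τ ∈ 𝓘2, SemilinearAut.baseAut τ (theta ζ ω) = theta ζ ω := fun τ hτ =>
    baseAut_theta τ (hfix2 τ hτ).1 (hfix2 τ hτ).2
  -- the main line
  obtain ⟨m, hmv, hmc⟩ := eis_wild_core S H H₁ H₂ hR hR₁ hR₂ hnum p hp hchar h𝓘 h1 h2 hK0 hσ
    hnorm hθ hθne hθfix
    (fun y hy hy0 => by
      obtain ⟨m, h1', h2'⟩ := hKD₁.val_sigma_div_adjoin (hdesc2 y hy) hy0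
      rw [toRingAut_coe_apply, ← hθF] at h2'
      rw [← hθF] at h1'
      exact ⟨m, h1', h2'⟩)
    (fun y hy hy0 => by
      obtain ⟨m, h1', h2'⟩ := hKD₂.val_sigma_div_adjoin (hdesc2 y hy) hy0
      rw [toRingAut_coe_apply, ← hθF] at h2'
      rw [← hθF] at h1'
      exact ⟨m, h1', h2'⟩)
    (fun y hy hle => by
      have := hKD₁.val_sigma_sub_adjoin (hdesc2 y hy) hle
      rwa [toRingAut_coe_apply, ← hθF] at this)
    (fun y hy hle => by
      have := hKD₂.val_sigma_sub_adjoin (hdesc2 y hy) hle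
      rwa [toRingAut_coe_apply, ← hθF] at this)
    (fun b hb hbm => by
      rw [hθF]
      refine val_le_theta_sq hKD₁ (hdesc1 _ fun τ hτ => ?_) (pv_lt_of_rd hbm.mem₁ hbm.rd₁)
      rw [SemilinearAut.smul_algebraMap, hb τ hτ])
    (fun b hb hbm => by
      rw [hθF]
      refine val_le_theta_sq hKD₂ (hdesc1 _ fun τ hτ => ?_) (pv_lt_of_rd hbm.mem₂ hbm.rd₂)
      rw [SemilinearAut.smul_algebraMap, hb τ hτ])
    hf hdiv hffix hf₀ hf₀r hf₀div hf₀' hf₀'r hff hcls hσf G
    (fun s hs => ⟨(hN s hs).2.1, (hN s hs).2.2.1, (hN s hs).2.2.2.1⟩)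
  -- the exponent of `v₂ f`
  have hp0 : (p : ℤ) ≠ 0 := by exact_mod_cast hp.ne_zero
  have hexp : ∀ s ∈ S.nodes, S.c₂.V.valuation f =
      S.c₂.V.valuation (algebraMap K F (theta ζ ω)) ^
        ((p : ℤ) * ((p : ℤ) - 1) * ((en s : ℤ) * (s.1.ord (S.c₁.rd f) - p * d s)) +
          p * m s) := by
    intro s hs
    have hθ0 : S.c₂.V.valuation (algebraMap K F (theta ζ ω)) ≠ 0 := by
      rw [hθF]; exact hKD₂.val_theta_ne_zero
    have hvp : S.c₂.V.valuation (p : F) =
        S.c₂.V.valuation (algebraMap K F (theta ζ ω)) ^ ((p : ℤ) * ((p : ℤ) - 1)) := by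
      rw [hθF, ← hKD₂.val_theta_pow, ← zpow_natCast]
      congr 1
      push_cast [Nat.cast_sub hp.one_le]
      ring
    rw [(hN s hs).2.2.2.2, hvp, hmv s hs, ← zpow_mul, ← zpow_natCast, ← zpow_mul,
      ← zpow_add₀ hθ0]
    congr 1
    ring
  have hcong : ∀ s ∈ S.nodes, ∀ s' ∈ S.nodes,
      (p : ℤ) ∣ (en s : ℤ) * s.1.ord (S.c₁.rd f) - (en s' : ℤ) * s'.1.ord (S.c₁.rd f) := by
    intro s hs s' hs'
    have h3 := (hexp s hs).symm.trans (hexp s' hs')
    rw [hθF] at h3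
    have h4 := hKD₂.zpow_theta_inj h3
    exact eis_cong h4 hp0 (hmc s hs s' hs')
  exact eis_concl hp S.nodes_nonempty
    (fun h => hw (by exact_mod_cast h)) (fun s hs => (hN s hs).1) hcong

/-- **EIS-ABS** (wild case). -/
theorem stmt_EisAbs : Stmt_EisAbs := stmt_EisAbs_of_nodeVal H38.stmt_NodeVal

end Fermat.Agent.BADP.H97

end
end
-- ==== END Fermat.Agent.BADP.H97_EisFinal

-- ==== BEGIN Fermat.Agent.S17.W2.Trans
section

/-!
# S17-W2, CORE part 9 (B4): generic tuples are conjugate (helper8)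
-/

set_option autoImplicit false

noncomputable section

namespace Fermat.Agent.S17.W2

open AlgebraicCurve WithZero Fermat.Agent.RED.H51 Fermat.Agent.RED.H42 IntermediateField

variable {k Ω F : Type} [Field k] [Field Ω] [Field F] [Algebra k Ω] [Algebra Ω F]
variable {S : Setting k Ω F}

/-- Automorphisms over `k(s)` preserve algebraic independence over `k(s)`. -/
theorem algebraicIndependent_comp_of_mem_Gs {s : Set Ω} {ι : Type*} {t : ι → Ω}
    (ht : AlgebraicIndependent (IntermediateField.adjoin k s) t) {σ : Ω ≃ₐ[k] Ω}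
    (hσ : σ ∈ Gs k Ω s) : AlgebraicIndependent (IntermediateField.adjoin k s) fun i => σ (t i) := by
  let σ' : Ω ≃ₐ[IntermediateField.adjoin k s] Ω :=
    IntermediateField.fixingSubgroupEquiv (IntermediateField.adjoin k s) ⟨σ, hσ⟩
  exact ht.map' (f := (σ' : Ω →ₐ[IntermediateField.adjoin k s] Ω)) σ'.injective

/-- FT5 for a head of length one. -/
theorem indep_tail (hFT5 : Stmt_FT5 k Ω) {s : Set Ω} {r : ℕ} {t : Fin (r + 1) → Ω}
    (ht : AlgebraicIndependent (IntermediateField.adjoin k s) t) {T : Set Ω}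
    (hT : ∀ c ∈ T, IsAlgebraic (IntermediateField.adjoin k (insert (t (Fin.last r)) s)) c) :
    AlgebraicIndependent (IntermediateField.adjoin k (insert (t (Fin.last r)) s ∪ T))
      fun i : Fin r => t i.castSucc := by
  let e : Unit ⊕ Fin r → Fin (r + 1) := Sum.elim (fun _ => Fin.last r) Fin.castSucc
  have he : Function.Injective e := by
    rintro (u | i) (u' | i') hii
    · rfl
    · exact absurd hii.symm (Fin.castSucc_lt_last i').ne
    · exact absurd hii (Fin.castSucc_lt_last i).ne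
    · exact congrArg Sum.inr (Fin.castSucc_injective r hii)
  have h1 : AlgebraicIndependent (IntermediateField.adjoin k s)
      (Sum.elim (fun _ : Unit => t (Fin.last r)) fun i : Fin r => t i.castSucc) := by
    have := ht.comp e he
    convert this using 1
    funext x
    rcases x with u | i <;> rfl
  have hset : s ∪ Set.range (fun _ : Unit => t (Fin.last r)) = insert (t (Fin.last r)) s := by
    ext x
    simp only [Set.mem_union, Set.mem_range, exists_const, Set.mem_insert_iff]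
    constructor
    · rintro (h | h)
      · exact Or.inr h
      · exact Or.inl h.symm
    · rintro (h | h)
      · exact Or.inr h.symm
      · exact Or.inl h
  have h2 := hFT5 s Unit (Fin r) (fun _ => t (Fin.last r)) (fun i => t i.castSucc) h1 T (by
    rw [hset]
    exact hT)
  rwa [hset] at h2

/-- **B4**: two generic tuples over `k(s)` are conjugate under `Aut(Ω / k(s))`. -/
theorem gen_trans {g : ℕ} {c : ℤ} (C : CoreHyp S g c) :
    ∀ (r : ℕ) {s : Set Ω}, s.Finite → ∀ {P Q : Fin r → Place Ω F} {t q : Fin r → Ω},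
      IsGen S s P t → IsGen S s Q q → ∃ σ ∈ Gs k Ω s, ∀ i, S.ρ σ • P i = Q i := by
  intro r
  induction r with
  | zero =>
    intro s _ P Q t q _ _
    exact ⟨1, (Gs k Ω s).one_mem, fun i => i.elim0⟩
  | succ r ih =>
    intro s hs P Q t q hP hQ
    obtain ⟨σ₁, hσ₁, hσ₁P⟩ := C.trans s hs (P (Fin.last r)) (Q (Fin.last r)) (t (Fin.last r))
      (q (Fin.last r)) (hP.zero _) (hQ.zero _) (hP.indep.transcendental _)
      (hQ.indep.transcendental _)
    obtain ⟨T, hTfin, hTalg, hTfix⟩ := C.stab s hs (Q (Fin.last r)) (q (Fin.last r)) (hQ.zero _)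
      (hQ.indep.transcendental _)
    set s' : Set Ω := insert (q (Fin.last r)) s ∪ T with hs'
    have hs'fin : s'.Finite := (hs.insert _).union hTfin
    have hss' : s ⊆ s' := fun x hx => Or.inl (Or.inr hx)
    -- the value of `σ₁` at the last `j`-value
    have hlast : σ₁ (t (Fin.last r)) = q (Fin.last r) := by
      have h1 := S.isZeroAt_smul (hP.zero (Fin.last r)) σ₁
      rw [hσ₁P] at h1
      exact S.isZeroAt_unique h1 (hQ.zero _)
    have hPind : AlgebraicIndependent (IntermediateField.adjoin k s) fun i => σ₁ (t i) :=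
      algebraicIndependent_comp_of_mem_Gs hP.indep hσ₁
    have hP' : IsGen S s' (fun i : Fin r => S.ρ σ₁ • P i.castSucc)
        (fun i : Fin r => σ₁ (t i.castSucc)) := by
      refine ⟨fun i => S.isZeroAt_smul (hP.zero _) σ₁, ?_⟩
      have := indep_tail C.ft5 hPind (T := T) (by
        show ∀ c ∈ T, IsAlgebraic (IntermediateField.adjoin k (insert (σ₁ (t (Fin.last r))) s)) c
        rw [hlast]
        exact hTalg)
      have hset : insert (σ₁ (t (Fin.last r))) s ∪ T = s' := by rw [hlast]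
      rw [hset] at this
      exact this
    have hQ' : IsGen S s' (fun i : Fin r => Q i.castSucc) (fun i : Fin r => q i.castSucc) :=
      ⟨fun i => hQ.zero _, indep_tail C.ft5 hQ.indep hTalg⟩
    obtain ⟨σ', hσ', hσ'P⟩ := ih hs'fin hP' hQ'
    refine ⟨σ' * σ₁, (Gs k Ω s).mul_mem (Gs_anti hss' hσ') hσ₁, fun i => ?_⟩
    rw [map_mul, mul_smul]
    refine Fin.lastCases ?_ (fun i => ?_) i
    · rw [hσ₁P]
      exact hTfix σ' hσ'
    · exact hσ'P i

end Fermat.Agent.S17.W2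

end
end
-- ==== END Fermat.Agent.S17.W2.Trans

-- ==== BEGIN Fermat.Agent.S44.BadP3
section
attribute [local instance 10000] SubalgebraClass.toAlgebra
attribute [local instance 10000] HahnSeries.powerSeriesAlgebra

set_option autoImplicit false
set_option synthInstance.maxHeartbeats 400000
set_option maxHeartbeats 1000000

noncomputable section

open AlgebraicCurve ModularCurve

namespace Fermat.Agent.S44

open Fermat.Agent.BAD Fermat.Agent.S43.BadQ Fermat.Agent.S28.H73 Fermat.Agent.RED.H73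

/-! ## `Fin1` is a subgroup -/

section Fin

variable {A : ValuationSubring (AlgebraicClosure ℚ)} {N n : ℕ}

theorem ne_zero_of_gaussRes_ne_zero {f : ↥(gaussV A N)} (h : gaussRes A N f ≠ 0) :
    (f : ↥(FNbar N)) ≠ 0 := by
  intro h0
  have : f = 0 := Subtype.ext h0
  rw [this, map_zero] at h
  exact h rfl

theorem fin1_zero : Fin1 A N n (0 : JZero N) := by
  refine ⟨0, 1, rfl, by rw [map_one]; exact one_ne_zero, fun P => ?_, fun Q => ?_⟩
  · show (n : ℤ) * (0 : Divisor (AlgebraicClosure ℚ) ↥(FNbar N)) P = P.ord (1 : ↥(FNbar N))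
    rw [Place.ord_one, Finsupp.zero_apply, mul_zero]
  · rw [map_one, Place.ord_one]
    exact dvd_zero _

theorem Fin1.add {x y : JZero N} (hx : Fin1 A N n x) (hy : Fin1 A N n y) :
    Fin1 A N n (x + y) := by
  obtain ⟨D, f, rfl, hf, hD, hQ⟩ := hx
  obtain ⟨E, g, rfl, hg, hE, hQ'⟩ := hy
  refine ⟨D + E, f * g, (Pic0.mk_add D E).symm, by rw [map_mul]; exact mul_ne_zero hf hg,
    fun P => ?_, fun Q => ?_⟩
  · have h1 : (((f * g : ↥(gaussV A N)) : ↥(FNbar N))) = (f : ↥(FNbar N)) * (g : ↥(FNbar N)) := rfl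
    rw [h1, Place.ord_mul _ (ne_zero_of_gaussRes_ne_zero hf) (ne_zero_of_gaussRes_ne_zero hg),
      ← hD P, ← hE P]
    show (n : ℤ) * ((D : Divisor (AlgebraicClosure ℚ) ↥(FNbar N)) +
      (E : Divisor (AlgebraicClosure ℚ) ↥(FNbar N))) P = _
    rw [Finsupp.add_apply, mul_add]
  · rw [map_mul, Place.ord_mul _ hf hg]
    exact dvd_add (hQ Q) (hQ' Q)

theorem Fin1.neg {x : JZero N} (hx : Fin1 A N n x) : Fin1 A N n (-x) := by
  obtain ⟨D, f, rfl, hf, hD, hQ⟩ := hx
  have hu : IsUnit f := by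
    by_contra hnu
    have hm : f ∈ IsLocalRing.maximalIdeal ↥(gaussV A N) := (IsLocalRing.mem_maximalIdeal f).2 hnu
    rw [← ker_gaussResF' A (hasScale_laurentBaseChange A N), RingHom.mem_ker] at hm
    exact hf hm
  obtain ⟨u, rfl⟩ := hu
  have h1 : gaussRes A N ((u⁻¹ : (↥(gaussV A N))ˣ) : ↥(gaussV A N)) *
      gaussRes A N (u : ↥(gaussV A N)) = 1 := by
    rw [← map_mul, Units.inv_mul, map_one]
  have hinv : gaussRes A N ((u⁻¹ : (↥(gaussV A N))ˣ) : ↥(gaussV A N)) =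
      (gaussRes A N (u : ↥(gaussV A N)))⁻¹ := eq_inv_of_mul_eq_one_left h1
  refine ⟨-D, ((u⁻¹ : (↥(gaussV A N))ˣ) : ↥(gaussV A N)), rfl, ?_, fun P => ?_, fun Q => ?_⟩
  · rw [hinv]
    exact inv_ne_zero hf
  · have h2 : (((u⁻¹ : (↥(gaussV A N))ˣ) : ↥(gaussV A N)) : ↥(FNbar N)) =
        ((u : ↥(gaussV A N)) : ↥(FNbar N))⁻¹ := by
      have h3 : (((u⁻¹ : (↥(gaussV A N))ˣ) : ↥(gaussV A N)) : ↥(FNbar N)) *
          ((u : ↥(gaussV A N)) : ↥(FNbar N)) = 1 := by
        have := congrArg (fun z : ↥(gaussV A N) => (z : ↥(FNbar N))) (Units.inv_mul u)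
        exact this
      exact eq_inv_of_mul_eq_one_left h3
    rw [h2, Place.ord_inv, ← hD P]
    show (n : ℤ) * (-(D : Divisor (AlgebraicClosure ℚ) ↥(FNbar N))) P = _
    rw [Finsupp.neg_apply, mul_neg]
  · rw [hinv, Place.ord_inv]
    exact (dvd_neg).2 (hQ Q)

end Fin

/-! ## The finite part -/

section W

variable (p M : ℕ) (a b : ℤ) (hab : a * p + b * M = 1) (hp : p.Prime) [NeZero (M * p)]
variable (A : ValuationSubring (AlgebraicClosure ℚ))

/-- **The finite part** `G = {x : Fin1 x ∧ Fin1 (w x)}` of `J₀(M p)[p]`, as a subgroup. -/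
def finPAdd : AddSubgroup (JTors (M * p) p) where
  carrier := {x | Fin1 A (M * p) p (x : JZero (M * p)) ∧
    Fin1 A (M * p) p (wS p M a b hab hp • (x : JZero (M * p)))}
  zero_mem' := by
    refine ⟨fin1_zero, ?_⟩
    show Fin1 A (M * p) p (wS p M a b hab hp • (0 : JZero (M * p)))
    rw [show wS p M a b hab hp • (0 : JZero (M * p)) = 0 from
      smul_zero (A := JZero (M * p)) (wS p M a b hab hp)]
    exact fin1_zero
  add_mem' := by
    rintro x y ⟨hx, hx'⟩ ⟨hy, hy'⟩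
    refine ⟨Fin1.add hx hy, ?_⟩
    show Fin1 A (M * p) p (wS p M a b hab hp • ((x : JZero (M * p)) + (y : JZero (M * p))))
    rw [show wS p M a b hab hp • ((x : JZero (M * p)) + (y : JZero (M * p))) =
      wS p M a b hab hp • (x : JZero (M * p)) + wS p M a b hab hp • (y : JZero (M * p)) from
      smul_add (A := JZero (M * p)) (wS p M a b hab hp) _ _]
    exact Fin1.add hx' hy'
  neg_mem' := by
    rintro x ⟨hx, hx'⟩
    refine ⟨Fin1.neg hx, ?_⟩
    show Fin1 A (M * p) p (wS p M a b hab hp • (-(x : JZero (M * p))))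
    rw [show wS p M a b hab hp • (-(x : JZero (M * p))) =
      -(wS p M a b hab hp • (x : JZero (M * p))) from
      smul_neg (A := JZero (M * p)) (wS p M a b hab hp) _]
    exact Fin1.neg hx'

/-- **The finite part** `G` of `J₀(M p)[p]`. -/
def finP : Submodule (ZMod p) (JTors (M * p) p) :=
  AddSubgroup.toZModSubmodule p (finPAdd p M a b hab hp A)

theorem mem_finP_iff (x : JTors (M * p) p) :
    x ∈ finP p M a b hab hp A ↔ Fin1 A (M * p) p (x : JZero (M * p)) ∧
      Fin1 A (M * p) p (wS p M a b hab hp • (x : JZero (M * p))) := Iff.rfl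

end W

/-! ## The leaves -/

/-- **(c) OLD at `p`.**  A common eigenvector of the Hecke operators in the finite part of
`J₀(N)[p]`, `p ∥ N`, whose reduction on the component of `∞` is not trivial comes from level
`N / p`.  (This is `S43.BadQ.Stmt_Old` with the bad prime `q := p`.) -/
def Stmt_OldP : Prop :=
  ∀ (p : ℕ), p.Prime → 5 ≤ p → ∀ (N : ℕ) [NeZero N], p ∣ N → ¬ p ^ 2 ∣ N →
    ∀ A : ValuationSubring (AlgebraicClosure ℚ), A.LiesOverPrime p →
    ∀ (S : Finset ℕ) (t : ℕ → ℤ) (x : (jzModule N p).J),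
      Fin1 A N p (jzModule.pt N p x) → ¬ InK1 A N p (jzModule.pt N p x) →
      (jzModule N p).IsEigen N S t x → ComesFromLevel p N (N / p) S t

/-- **(d) SLOPE at `p`.**  A non-Eisenstein common eigenvector `x` of the Hecke operators in
`J₀(N)[p]`, `p ∥ N`, such that `(σ - 1) x` lies, for `σ` in the inertia group, in a subspace `Y`
on which inertia acts through the cyclotomic character, and which is fixed by the inertia of
`ℚ_p^nr(μ_p, u^(1/p))`, `u` prime to `p`, lies in the finite part. -/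
def Stmt_SlopeP : Prop :=
  ∀ (p : ℕ), p.Prime → 5 ≤ p → ∀ (N : ℕ) [NeZero N], p ∣ N → ¬ p ^ 2 ∣ N →
    ∀ A : ValuationSubring (AlgebraicClosure ℚ), A.LiesOverPrime p →
    ∀ (S : Finset ℕ) (t : ℕ → ℤ) (x : (jzModule N p).J)
      (Y : Submodule (ZMod p) (jzModule N p).J) (u : ℤ),
      (jzModule N p).IsEigen N S t x → NonEisSystem p N S t →
      (jzModule N p).IsCycOn A Y →
      (∀ σ ∈ A.inertiaSubgroupIn ℚ, (jzModule N p).gal σ x - x ∈ Y) →
      ¬ (p : ℤ) ∣ u → (jzModule N p).IsPeuFixed A u x →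
      Fin1 A N p (jzModule.pt N p x)

/-- **(e) RAYNAUD at `p`.**  An element `x` of `K1 ∩ w K1 ⊆ J₀(M p)[p]` such that `(σ - 1) x`
lies, for `σ` in the inertia group, in a subspace `Y` on which inertia acts through the
cyclotomic character, and which is fixed by the inertia of `ℚ_p^nr(μ_p, u^(1/p))`, `u` prime to
`p`, lies in `Y`. -/
def Stmt_RayP : Prop :=
  ∀ (p : ℕ), 5 ≤ p → ∀ (M : ℕ) (a b : ℤ) (hab : a * p + b * M = 1) (hp : p.Prime)
    [NeZero (M * p)],
    ∀ A : ValuationSubring (AlgebraicClosure ℚ), A.LiesOverPrime p →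
    ∀ (x : (jzModule (M * p) p).J) (Y : Submodule (ZMod p) (jzModule (M * p) p).J) (u : ℤ),
      InK1 A (M * p) p (jzModule.pt (M * p) p x) →
      InK1 A (M * p) p (wS p M a b hab hp • jzModule.pt (M * p) p x) →
      (jzModule (M * p) p).IsCycOn A Y →
      (∀ σ ∈ A.inertiaSubgroupIn ℚ, (jzModule (M * p) p).gal σ x - x ∈ Y) →
      ¬ (p : ℤ) ∣ u → (jzModule (M * p) p).IsPeuFixed A u x →
      x ∈ Y

/-! ## The wiring -/

section Wiring

variable (p M : ℕ) (a b : ℤ) (hab : a * p + b * M = 1) (hp : p.Prime) [NeZero (M * p)]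
variable (A : ValuationSubring (AlgebraicClosure ℚ))

include hab hp in
/-- **The wiring at level `M p`.** -/
theorem hasBadStructure_of_leaves (hO : Stmt_OldP) (hS : Stmt_SlopeP) (hR : Stmt_RayP)
    (hp5 : 5 ≤ p) (hpN : p ∣ M * p) (hp2 : ¬ p ^ 2 ∣ M * p) (hA : A.LiesOverPrime p) :
    (jzModule (M * p) p).HasBadStructure (M * p) A := by
  have hW := Fermat.Agent.S43.H88.stmt_WHecke
  obtain ⟨w, hwdef⟩ : ∃ w : Module.End (ZMod p) (jzModule (M * p) p).J,
      w = wTors p M a b hab hp p := ⟨_, rfl⟩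
  have hwT : ∀ {S : Finset ℕ} {t : ℕ → ℤ} {x : (jzModule (M * p) p).J},
      (jzModule (M * p) p).IsEigen (M * p) S t x →
      (jzModule (M * p) p).IsEigen (M * p) S t (w x) := by
    intro S t x hT ℓ hℓ hℓS hℓN hℓp
    have h1 := wTors_T p M a b hab hp p hW hℓ hℓN x
    have h2 := hT ℓ hℓ hℓS hℓN hℓp
    rw [hwdef]
    exact h1.trans ((congrArg (wTors p M a b hab hp p) h2).trans
      (map_smul (wTors p M a b hab hp p) _ _))
  have hgal : ∀ (σ : GQ) (z : (jzModule (M * p) p).J),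
      (jzModule (M * p) p).gal σ (w z) = w ((jzModule (M * p) p).gal σ z) := by
    intro σ z
    rw [hwdef]
    exact wTors_gal p M a b hab hp p σ z
  have hpt : ∀ z : (jzModule (M * p) p).J,
      jzModule.pt (M * p) p (w z) = wS p M a b hab hp • jzModule.pt (M * p) p z := by
    intro z
    rw [hwdef]
    rfl
  have hmemG : ∀ z : (jzModule (M * p) p).J, z ∈ finP p M a b hab hp A ↔
      Fin1 A (M * p) p (jzModule.pt (M * p) p z) ∧
        Fin1 A (M * p) p (jzModule.pt (M * p) p (w z)) := by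
    intro z
    rw [hpt z]
    exact mem_finP_iff p M a b hab hp A z
  have hmemT : ∀ z : (jzModule (M * p) p).J, z ∈ toric p M a b hab hp p A ↔
      InK1 A (M * p) p (jzModule.pt (M * p) p z) ∧
        InK1 A (M * p) p (jzModule.pt (M * p) p (w z)) := by
    intro z
    rw [hpt z]
    exact mem_toric_iff p M a b hab hp p A z
  refine ⟨toric p M a b hab hp p A, finP p M a b hab hp A, ?_, ?_, ?_⟩
  · -- (c)
    intro S t x hxG hxT hT
    have hxG' := (hmemG x).1 hxG
    by_cases h1 : InK1 A (M * p) p (jzModule.pt (M * p) p x)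
    · have h2 : ¬ InK1 A (M * p) p (jzModule.pt (M * p) p (w x)) := by
        intro h2
        exact hxT ((hmemT x).2 ⟨h1, h2⟩)
      exact hO p hp hp5 (M * p) hpN hp2 A hA S t (w x) hxG'.2 h2 (hwT hT)
    · exact hO p hp hp5 (M * p) hpN hp2 A hA S t x hxG'.1 h1 hT
  · -- (d)
    intro S t x Y u hT hNE hY hsub hu hfix
    refine (hmemG x).2
      ⟨hS p hp hp5 (M * p) hpN hp2 A hA S t x Y u hT hNE hY hsub hu hfix, ?_⟩
    -- the same for `w x` and `w Y`
    have hY' : (jzModule (M * p) p).IsCycOn A (Y.map w) := by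
      intro σ hσ n hn y hy
      obtain ⟨y0, hy0, rfl⟩ := Submodule.mem_map.mp hy
      rw [hgal σ y0, hY σ hσ n hn y0 hy0, map_smul]
    have hsub' : ∀ σ ∈ A.inertiaSubgroupIn ℚ,
        (jzModule (M * p) p).gal σ (w x) - w x ∈ Y.map w := by
      intro σ hσ
      have h1 : (jzModule (M * p) p).gal σ (w x) - w x =
          w ((jzModule (M * p) p).gal σ x - x) := by
        rw [hgal σ x, map_sub]
      rw [h1]
      exact Submodule.mem_map_of_mem (hsub σ hσ)
    have hfix' : (jzModule (M * p) p).IsPeuFixed A u (w x) := by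
      intro σ hσ h1 h2
      rw [hgal σ x, hfix σ hσ h1 h2]
    exact hS p hp hp5 (M * p) hpN hp2 A hA S t (w x) (Y.map w) u (hwT hT) hNE hY' hsub' hu hfix'
  · -- (e)
    intro x Y u hx hY hsub hu hfix
    have hx' := (hmemT x).1 hx
    rw [hpt x] at hx'
    exact hR p hp5 M a b hab hp A hA x Y u hx'.1 hx'.2 hY hsub hu hfix

end Wiring

/-- **`Stmt_BadP2` from the three leaves.** -/
theorem stmt_BadP2_of_leaves (hO : Stmt_OldP) (hS : Stmt_SlopeP) (hR : Stmt_RayP) :
    Stmt_BadP2 := by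
  intro p hp hp5 N _ hpN hp2 A hA
  obtain ⟨M, rfl⟩ : ∃ M, N = M * p := ⟨N / p, (Nat.div_mul_cancel hpN).symm⟩
  have hpM : ¬ p ∣ M := by
    rintro ⟨k, rfl⟩
    exact hp2 ⟨k, by ring⟩
  have hcop : IsCoprime (p : ℤ) (M : ℤ) :=
    Nat.isCoprime_iff_coprime.2 ((Nat.Prime.coprime_iff_not_dvd hp).2 hpM)
  obtain ⟨a, b, hab⟩ := hcop
  exact hasBadStructure_of_leaves p M a b hab hp A hO hS hR hp5 hpN hp2 hA

open WeierstrassCurve WeierstrassCurve.Affine WeierstrassCurve.Affine.Point in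
open scoped WeierstrassCurve.Affine in
/-- **S44 from the four open leaves**: (c) `Stmt_OldP`, (d) `Stmt_SlopeP`, (e) `Stmt_RayP` and
package C `Stmt_FreyFiniteAtP`.  The conclusion is the frozen statement S44. -/
theorem result_of_leavesP (hO : Stmt_OldP) (hS : Stmt_SlopeP) (hR : Stmt_RayP)
    (hC : Stmt_FreyFiniteAtP)
    (P : FreyPackage) {N : ℕ} (hcond : P.IsConductorLevel N) (hpN : P.p ∣ N)
    (hirr : GaloisRepIsIrreducible (K := AlgebraicClosure ℚ) ℚ P.freyCurve P.p)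
    (hmod : P.ModularRepOfLevel N) :
    ∃ M : ℕ, M ∣ N ∧ ¬ P.p ∣ M ∧ P.ModularRepOfLevel M :=
  result_of_badStructure (stmt_BadP2_of_leaves hO hS hR) hC P hcond hpN hirr hmod

end Fermat.Agent.S44

end
end
-- ==== END Fermat.Agent.S44.BadP3

-- ==== BEGIN Fermat.Agent.S52.H5_Unip
section

set_option autoImplicit false

namespace Fermat.Agent.S52.H5

open WeierstrassCurve WeierstrassCurve.Affine WeierstrassCurve.Affine.Point IsLocalRing
open Fermat.Agent.Lib.EllFinite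
open Fermat.Agent.Lib.EllFinite.H4 (IntCoeff)

/-- `Q̄`. -/
abbrev Qb : Type := AlgebraicClosure ℚ

/-- The curve over `Q̄` attached to an integral Weierstrass model. -/
noncomputable abbrev EQ (W : WeierstrassCurve ℤ) : Affine Qb :=
  (W.map (Int.castRingHom ℚ))⁄(AlgebraicClosure ℚ)

section coeffs

variable (W : WeierstrassCurve ℤ)

lemma EQ_eq_map : (EQ W) = (W.map (Int.castRingHom Qb)).toAffine := by
  show ((W.map (Int.castRingHom ℚ)).map (algebraMap ℚ Qb)) = W.map (Int.castRingHom Qb)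
  rw [WeierstrassCurve.map_map]
  congr 1

lemma EQ_a₁ : (EQ W).a₁ = ((W.a₁ : ℤ) : Qb) := by rw [EQ_eq_map]; rfl
lemma EQ_a₂ : (EQ W).a₂ = ((W.a₂ : ℤ) : Qb) := by rw [EQ_eq_map]; rfl
lemma EQ_a₃ : (EQ W).a₃ = ((W.a₃ : ℤ) : Qb) := by rw [EQ_eq_map]; rfl
lemma EQ_a₄ : (EQ W).a₄ = ((W.a₄ : ℤ) : Qb) := by rw [EQ_eq_map]; rfl
lemma EQ_a₆ : (EQ W).a₆ = ((W.a₆ : ℤ) : Qb) := by rw [EQ_eq_map]; rfl

lemma EQ_Δ : (EQ W).Δ = ((W.Δ : ℤ) : Qb) := by
  rw [EQ_eq_map]
  exact WeierstrassCurve.map_Δ W (Int.castRingHom Qb)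

lemma EQ_c₄ : (EQ W).c₄ = ((W.c₄ : ℤ) : Qb) := by
  rw [EQ_eq_map]
  exact WeierstrassCurve.map_c₄ W (Int.castRingHom Qb)

lemma EQ_intCoeff (A : ValuationSubring Qb) : IntCoeff A (EQ W) where
  a₁ := by rw [EQ_a₁]; exact Fermat.Agent.S05.H15.valuation_intCast_le_one A _
  a₂ := by rw [EQ_a₂]; exact Fermat.Agent.S05.H15.valuation_intCast_le_one A _
  a₃ := by rw [EQ_a₃]; exact Fermat.Agent.S05.H15.valuation_intCast_le_one A _
  a₄ := by rw [EQ_a₄]; exact Fermat.Agent.S05.H15.valuation_intCast_le_one A _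
  a₆ := by rw [EQ_a₆]; exact Fermat.Agent.S05.H15.valuation_intCast_le_one A _

/-- The curve over `Q̄` is the generic fibre of the model over `A`. -/
lemma EQ_isRedOf (A : ValuationSubring Qb) :
    H4.IsRedOf A (EQ W) (W.map ((residue A).comp (Int.castRingHom A))).toAffine := by
  have h := H4.isRedOf_map (F := Qb) (A := A) W (Int.castRingHom A)
  have e : (algebraMap A Qb).comp (Int.castRingHom A) = Int.castRingHom Qb :=
    RingHom.ext_int _ _
  rw [e] at h
  rw [EQ_eq_map]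
  exact h

end coeffs

section action

variable (W : WeierstrassCurve ℤ)

/-- The action of a Galois automorphism on points, as an additive map. -/
noncomputable def galAdd (σ : Qb ≃ₐ[ℚ] Qb) : (EQ W).Point →+ (EQ W).Point :=
  DistribSMul.toAddMonoidHom (EQ W).Point σ

lemma galAdd_apply (σ : Qb ≃ₐ[ℚ] Qb) (P : (EQ W).Point) : galAdd W σ P = σ • P := rfl

lemma inertiaOn_galAdd (A : ValuationSubring Qb) (σ : Qb ≃ₐ[ℚ] Qb)
    (hσ : σ ∈ A.inertiaSubgroupIn ℚ) :
    InertiaOn A (EQ W) (σ : Qb →+* Qb) (galAdd W σ) where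
  val_eq := (Fermat.Agent.S05.inertia A σ hσ).1
  res := (Fermat.Agent.S05.inertia A σ hσ).2
  map_some := fun _ _ _ => ⟨_, rfl⟩

end action

section main

variable (W : WeierstrassCurve ℤ) (l : ℕ) (hl : l.Prime) (n : ℕ) (hn : ¬ l ∣ n)
  (A : ValuationSubring Qb) (hA : A.LiesOverPrime l)

include hl hn hA in
lemma val_n_eq_one : A.valuation (n : Qb) = 1 := by
  have : ¬ (l : ℤ) ∣ (n : ℤ) := fun h => hn (Int.natCast_dvd_natCast.1 h)
  simpa using Fermat.Agent.S05.H15.valuation_intCast_eq_one_of_not_dvd hl hA this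

/-- **Good reduction**: inertia at a prime of good reduction acts trivially on the `n`-torsion,
`n` prime to `l`. -/
theorem unram_good (hgood : ¬ (l : ℤ) ∣ W.Δ)
    (hl : l.Prime) (hn : ¬ l ∣ n) (hA : A.LiesOverPrime l)
    (σ : Qb ≃ₐ[ℚ] Qb) (hσ : σ ∈ A.inertiaSubgroupIn ℚ)
    (P : (EQ W).Point) (hP : (n : ℤ) • P = 0) : σ • P = P := by
  have hP' : n • P = 0 := by rwa [natCast_zsmul] at hP
  have hΔk : (W.map ((residue A).comp (Int.castRingHom A))).toAffine.Δ ≠ 0 := by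
    show (W.map ((residue A).comp (Int.castRingHom A))).Δ ≠ 0
    rw [WeierstrassCurve.map_Δ, RingHom.comp_apply, H4.res_ne_zero_iff]
    simpa using Fermat.Agent.S05.H15.valuation_intCast_eq_one_of_not_dvd hl hA hgood
  exact unram_of_isRedOf (EQ_isRedOf W A) hΔk (σ : Qb →+* Qb) (galAdd W σ)
    (inertiaOn_galAdd W A σ hσ) n (val_n_eq_one l hl n hn A hA) P hP'

/-- **E-UNIP**: inertia at `l` acts unipotently on the `n`-torsion of a curve which is semistable
at `l`, for every `n` prime to `l`. -/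
theorem unip (hΔ : W.Δ ≠ 0) (hss : (l : ℤ) ∣ W.Δ → ¬ (l : ℤ) ∣ W.c₄)
    (hl : l.Prime) (hn : ¬ l ∣ n) (hA : A.LiesOverPrime l)
    (σ : Qb ≃ₐ[ℚ] Qb) (hσ : σ ∈ A.inertiaSubgroupIn ℚ)
    (P : (EQ W).Point) (hP : (n : ℤ) • P = 0) : σ • (σ • P - P) = σ • P - P := by
  by_cases hbad : (l : ℤ) ∣ W.Δ
  · have hP' : n • P = 0 := by rwa [natCast_zsmul] at hP
    have hnv := val_n_eq_one l hl n hn A hA
    have hE := EQ_intCoeff W A
    have hI := inertiaOn_galAdd W A σ hσ
    have hΔ0 : (EQ W).Δ ≠ 0 := by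
      rw [EQ_Δ]; exact_mod_cast hΔ
    have hΔv : A.valuation (EQ W).Δ < 1 := by
      rw [EQ_Δ]; exact Fermat.Agent.S05.H15.valuation_intCast_lt_one_of_dvd hA hbad
    have hc₄v : A.valuation (EQ W).c₄ = 1 := by
      rw [EQ_c₄]; exact Fermat.Agent.S05.H15.valuation_intCast_eq_one_of_not_dvd hl hA (hss hbad)
    have h₁ : (σ : Qb →+* Qb) (EQ W).a₁ = (EQ W).a₁ := by rw [EQ_a₁]; exact map_intCast _ _
    have h₂ : (σ : Qb →+* Qb) (EQ W).a₂ = (EQ W).a₂ := by rw [EQ_a₂]; exact map_intCast _ _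
    have h₃ : (σ : Qb →+* Qb) (EQ W).a₃ = (EQ W).a₃ := by rw [EQ_a₃]; exact map_intCast _ _
    have h₄ : (σ : Qb →+* Qb) (EQ W).a₄ = (EQ W).a₄ := by rw [EQ_a₄]; exact map_intCast _ _
    have h₆ : (σ : Qb →+* Qb) (EQ W).a₆ = (EQ W).a₆ := by rw [EQ_a₆]; exact map_intCast _ _
    by_cases h2 : l = 2
    · subst h2
      have h2v : A.valuation (2 : Qb) < 1 := by
        have := Fermat.Agent.S05.H15.valuation_lt_one_of_mem_nonunits hA
        simpa using this
      exact unip_mult_two hE two_ne_zero h2v hΔ0 hΔv hc₄v (σ : Qb →+* Qb) (galAdd W σ) hI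
        h₁ h₂ h₃ h₄ h₆ n hnv P hP'
    · have h2v : A.valuation (2 : Qb) = 1 := by
        have := Fermat.Agent.S05.H15.valuation_natCast_eq_one_of_ne hl hA Nat.prime_two
          (fun h => h2 h.symm)
        simpa using this
      exact unip_mult_odd hE h2v hΔ0 hΔv hc₄v (σ : Qb →+* Qb) (galAdd W σ) hI
        h₁ h₂ h₃ h₄ h₆ n hnv P hP'
  · have key : ∀ Q : (EQ W).Point, (n : ℤ) • Q = 0 → σ • Q = Q :=
      fun Q hQ => unram_good W l n A hbad hl hn hA σ hσ Q hQ
    rw [key P hP, sub_self, smul_zero]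

/-- `unip` on the torsion submodule. -/
theorem unip_torsionBy (hΔ : W.Δ ≠ 0) (hss : (l : ℤ) ∣ W.Δ → ¬ (l : ℤ) ∣ W.c₄)
    (hl : l.Prime) (hn : ¬ l ∣ n) (hA : A.LiesOverPrime l)
    (σ : Qb ≃ₐ[ℚ] Qb) (hσ : σ ∈ A.inertiaSubgroupIn ℚ)
    (v : Submodule.torsionBy ℤ (EQ W).Point (n : ℤ)) : σ • (σ • v - v) = σ • v - v := by
  apply Subtype.ext
  have hv : (n : ℤ) • (v : (EQ W).Point) = 0 := by
    have := v.2
    rwa [Submodule.mem_torsionBy_iff] at this
  exact unip W l n A hΔ hss hl hn hA σ hσ v hv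

/-- `unram_good` on the torsion submodule. -/
theorem unram_good_torsionBy (hgood : ¬ (l : ℤ) ∣ W.Δ)
    (hl : l.Prime) (hn : ¬ l ∣ n) (hA : A.LiesOverPrime l)
    (σ : Qb ≃ₐ[ℚ] Qb) (hσ : σ ∈ A.inertiaSubgroupIn ℚ)
    (v : Submodule.torsionBy ℤ (EQ W).Point (n : ℤ)) : σ • v = v := by
  apply Subtype.ext
  have hv : (n : ℤ) • (v : (EQ W).Point) = 0 := by
    have := v.2
    rwa [Submodule.mem_torsionBy_iff] at this
  exact unram_good W l n A hgood hl hn hA σ hσ v hv

end main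

end Fermat.Agent.S52.H5

end
-- ==== END Fermat.Agent.S52.H5_Unip

-- ==== BEGIN Fermat.Agent.S17.W2.Core
section

/-!
# S17-W2, CORE part 10 (B5): `Pic⁰(F)` is `n`-divisible (helper8)

`core_of_hyp`: from the bundled hypotheses `CoreHyp` and the finiteness of the `n`-torsion.
`stmt_Core_of`: the interface statement `Stmt_Core S n` from the field-theory leaves.
-/

set_option autoImplicit false

noncomputable section

namespace Fermat.Agent.S17.W2

open AlgebraicCurve WithZero Fermat.Agent.RED.H51 Fermat.Agent.RED.H42 IntermediateField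

variable {k Ω F : Type} [Field k] [Field Ω] [Field F] [Algebra k Ω] [Algebra Ω F]
variable {S : Setting k Ω F}

theorem smul_nsmul_pic0 (g : SemilinearAut Ω F) (n : ℕ) (x : Pic0 Ω F) :
    g • (n • x) = n • (g • x) :=
  map_nsmul (DistribSMul.toAddMonoidHom (Pic0 Ω F) g) n x

/-- Every class is algebraic over `k(s)` for a finite set `s`. -/
theorem exists_finite_finOrb {g : ℕ} {c : ℤ} (C : CoreHyp S g c) (x : Pic0 Ω F) :
    ∃ s : Set Ω, s.Finite ∧ FinOrb S.ρ (Gs k Ω s) x := by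
  classical
  obtain ⟨Dx, hDx, hclsx, -⟩ := canon_exists C.hyp S.oo g C.riemann_le x
  let val : Place Ω F → Ω := fun Q => if h : ∃ a, S.IsZeroAt Q a then h.choose else 0
  have hval : ∀ Q, (∃ a, S.IsZeroAt Q a) → S.IsZeroAt Q (val Q) := by
    intro Q h
    simp only [val, dif_pos h]
    exact h.choose_spec
  refine ⟨val '' (Dx.support : Set (Place Ω F)), Dx.support.finite_toSet.image val, ?_⟩
  rw [← hclsx, S.finOrb_cls_iff C.hyp hDx, S.finOrb_divisor_iff]
  intro R hR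
  rcases S.pole_or_isZeroAt C.hyp R C.hj with hpole | hz
  · exact S.finOrb_of_pole C.hyp C.hj _ hpole
  · exact S.finOrb_of_isAlgebraic C.hyp C.hj _ (hval R hz)
      (isAlgebraic_of_mem ⟨R, hR, rfl⟩)

/-- **CORE**: `Pic⁰(F)` is `n`-divisible. -/
theorem core_of_hyp {g : ℕ} {c : ℤ} (C : CoreHyp S g c) (n : ℕ)
    (htors : {x : Pic0 Ω F | n • x = 0}.Finite) (x : Pic0 Ω F) :
    ∃ y : Pic0 Ω F, n • y = x := by
  classical
  obtain ⟨s, hs, hxfin⟩ := exists_finite_finOrb C x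
  obtain ⟨t, ht⟩ := C.ft6 C.big s hs g
  choose P hP using fun i => S.exists_zero C.hyp C.hj (t i)
  have hgen : IsGen S s P t := ⟨hP, ht⟩
  set v : Pic0 Ω F := cls C.hyp S.oo (gdiv P) with hv
  -- `n • v` is generic
  obtain ⟨Q, q, hQ, hQv⟩ := main_lemma C hs hgen (n • v) fun s' _ _ h =>
    FinOrb.of_nsmul S.ρ htors h
  -- `x + v` is generic
  obtain ⟨R, r', hR, hRv⟩ := main_lemma C hs hgen (x + v) fun s' _ hss' h => by
    have h1 : FinOrb S.ρ (Gs k Ω s') x := hxfin.mono S.ρ (Gs_anti hss')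
    have h2 := h.sub S.ρ h1
    rwa [add_sub_cancel_left] at h2
  obtain ⟨σ, -, hσ⟩ := gen_trans C g hs hQ hgen
  obtain ⟨τ, -, hτ⟩ := gen_trans C g hs hQ hR
  have h1 : n • (S.ρ σ • v) = v := by
    rw [← smul_nsmul_pic0, hQv, S.cls_smul C.hyp, Setting.smul_gdiv, hv]
    congr 2
    funext i
    exact hσ i
  have h2 : n • (S.ρ τ • v) = x + v := by
    rw [← smul_nsmul_pic0, hQv, S.cls_smul C.hyp, Setting.smul_gdiv, hRv]
    congr 2
    funext i
    exact hτ i
  refine ⟨S.ρ τ • v - S.ρ σ • v, ?_⟩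
  rw [nsmul_sub, h1, h2, add_sub_cancel_right]

/-- The interface statement **CORE** from the field-theory leaves. -/
theorem stmt_Core_of [IsAlgClosed Ω] (S : Setting k Ω F) (n : ℕ)
    (h1 : Stmt_FT1 k Ω) (h4 : Stmt_FT4 k Ω) (h5 : Stmt_FT5 k Ω) (h6 : Stmt_FT6 k Ω) :
    Stmt_Core S n := by
  intro hFF hj hbig hstab htrans htors x
  obtain ⟨g, c, hR⟩ := Fermat.Agent.RED.H42.stmt_FFR_riemann Ω F hFF
  have hz := Fermat.Agent.RED.H42.zerosAll Ω F hFF
  obtain ⟨y, hy, hfin⟩ := hFF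
  have H : Hyp Ω F := hyp_of_zeros hz hy
  have C : CoreHyp S g c :=
    { hyp := H
      hj := hj
      riemann_le := fun D => (hR D).1
      riemann_eq := fun D => (hR D).2
      big := hbig
      ft1 := h1
      ft4 := h4
      ft5 := h5
      ft6 := h6
      stab := hstab
      trans := htrans }
  exact core_of_hyp C n htors x

end Fermat.Agent.S17.W2

end
end
-- ==== END Fermat.Agent.S17.W2.Core

-- ==== BEGIN Fermat.Agent.S44.BadP4
section

set_option autoImplicit false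
set_option synthInstance.maxHeartbeats 400000
set_option maxHeartbeats 1000000

noncomputable section

open AlgebraicCurve ModularCurve

namespace Fermat.Agent.S44

open Fermat.Agent.BAD Fermat.Agent.S43.BadQ Fermat.Agent.S28.H73 Fermat.Agent.RED.H73

/-! ## Abstract part -/

section Abstract

variable {p : ℕ} (H : HeckeGaloisModule p) (A : ValuationSubring (AlgebraicClosure ℚ))

/-- An element of `G_ℚ` which acts on the `p`-th roots of unity by `ζ ↦ ζ ^ n` with
`n ≡ 1 mod p` fixes them. -/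
theorem fixes_roots_of_cast_eq_one (hp : p.Prime) {σ : GQ} {n : ℕ}
    (hn : ∀ ζ : AlgebraicClosure ℚ, ζ ^ p = 1 → σ ζ = ζ ^ n) (h1 : (n : ZMod p) = 1) :
    ∀ ζ : AlgebraicClosure ℚ, ζ ^ p = 1 → σ ζ = ζ := by
  intro ζ hζ
  rw [hn ζ hζ]
  have hmod : n % p = 1 % p := (ZMod.natCast_eq_natCast_iff' n 1 p).mp (by simpa using h1)
  have h1p : 1 % p = 1 := Nat.mod_eq_of_lt hp.one_lt
  have hdec : n = p * (n / p) + 1 := by
    have := Nat.div_add_mod n p
    omega
  rw [hdec, pow_add, pow_mul, hζ, one_pow, one_mul, pow_one]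

/-- If `σ` does not fix the `p`-th roots of unity and acts on them by `ζ ↦ ζ ^ n`, then
`n ≢ 1 mod p`. -/
theorem cast_ne_one_of_moves (hp : p.Prime) {σ : GQ} {n : ℕ}
    (hn : ∀ ζ : AlgebraicClosure ℚ, ζ ^ p = 1 → σ ζ = ζ ^ n)
    {ζ : AlgebraicClosure ℚ} (hζ : ζ ^ p = 1) (hne : σ ζ ≠ ζ) : (n : ZMod p) ≠ 1 :=
  fun h1 => hne (fixes_roots_of_cast_eq_one hp hn h1 ζ hζ)

/-- **(e0), abstract form.**  Let `G0` be a subspace containing every subspace on which inertia
acts through the cyclotomic character, without non-zero element fixed by the stabiliser of a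
`p`-th root of `u` in the inertia group.  Then clause (e) of `HasBadStructure` holds for `G0`. -/
theorem ray_of_rayK3 (hp : p.Prime) (G0 : Submodule (ZMod p) H.J)
    (hY0 : ∀ Y : Submodule (ZMod p) H.J, H.IsCycOn A Y → Y ≤ G0)
    (hK3 : ∀ (x : H.J) (u : ℤ) (ω : AlgebraicClosure ℚ), x ∈ G0 → ¬ (p : ℤ) ∣ u →
      ω ^ p = (u : AlgebraicClosure ℚ) →
      (∀ σ ∈ A.inertiaSubgroupIn ℚ, σ ω = ω → H.gal σ x = x) → x = 0)
    (x : H.J) (Y : Submodule (ZMod p) H.J) (u : ℤ) (hx : x ∈ G0) (hY : H.IsCycOn A Y)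
    (hsub : ∀ σ ∈ A.inertiaSubgroupIn ℚ, H.gal σ x - x ∈ Y) (hu : ¬ (p : ℤ) ∣ u)
    (hfix : H.IsPeuFixed A u x) : x ∈ Y := by
  haveI : Fact p.Prime := ⟨hp⟩
  have hp0 : (p : AlgebraicClosure ℚ) ≠ 0 := by
    exact_mod_cast hp.ne_zero
  -- a `p`-th root of `u`
  obtain ⟨ω, hω⟩ : ∃ ω : AlgebraicClosure ℚ, ω ^ p = (u : AlgebraicClosure ℚ) :=
    IsAlgClosed.exists_pow_nat_eq _ hp.pos
  have hω0 : ω ≠ 0 := by
    rintro rfl
    rw [zero_pow hp.ne_zero] at hω
    have hu0 : u = 0 := by exact_mod_cast hω.symm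
    exact hu (hu0 ▸ dvd_zero _)
  -- an element fixing `μ_p` and `ω` fixes every `p`-th root of `u`
  have hall : ∀ σ : GQ, (∀ ζ : AlgebraicClosure ℚ, ζ ^ p = 1 → σ ζ = ζ) → σ ω = ω →
      ∀ z : AlgebraicClosure ℚ, z ^ p = (u : AlgebraicClosure ℚ) → σ z = z := by
    intro σ h1 h2 z hz
    have hq : (z / ω) ^ p = 1 := by
      rw [div_pow, hz, hω, div_self]
      rw [← hω]
      exact pow_ne_zero _ hω0
    have h3 := h1 (z / ω) hq
    have hz' : z = (z / ω) * ω := by field_simp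
    rw [hz', map_mul, h3, h2]
  -- the elements of `I₂` fix `g x` for every `g` in the inertia group
  have hI2 : ∀ γ ∈ A.inertiaSubgroupIn ℚ, ∀ g ∈ A.inertiaSubgroupIn ℚ,
      (∀ ζ : AlgebraicClosure ℚ, ζ ^ p = 1 → γ ζ = ζ) → γ ω = ω →
      H.gal γ (H.gal g x) = H.gal g x := by
    intro γ hγ g hg h1 h2
    -- `γ' = g⁻¹ γ g`
    have hγ' : g⁻¹ * γ * g ∈ A.inertiaSubgroupIn ℚ :=
      Subgroup.mul_mem _ (Subgroup.mul_mem _ (Subgroup.inv_mem _ hg) hγ) hg
    have hginv : ∀ z : AlgebraicClosure ℚ, g⁻¹ (g z) = z := by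
      intro z
      rw [← AlgEquiv.mul_apply, inv_mul_cancel]
      rfl
    have h1' : ∀ ζ : AlgebraicClosure ℚ, ζ ^ p = 1 → (g⁻¹ * γ * g) ζ = ζ := by
      intro ζ hζ
      rw [AlgEquiv.mul_apply, AlgEquiv.mul_apply, h1 (g ζ) (by rw [← map_pow, hζ, map_one]),
        hginv]
    have h2' : ∀ z : AlgebraicClosure ℚ, z ^ p = (u : AlgebraicClosure ℚ) →
        (g⁻¹ * γ * g) z = z := by
      intro z hz
      have hgz : (g z) ^ p = (u : AlgebraicClosure ℚ) := by
        rw [← map_pow, hz, map_intCast]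
      rw [AlgEquiv.mul_apply, AlgEquiv.mul_apply, hall γ h1 h2 (g z) hgz, hginv]
    have h3 := hfix (g⁻¹ * γ * g) hγ' h1' h2'
    have h4 : H.gal γ (H.gal g x) = H.gal g (H.gal (g⁻¹ * γ * g) x) := by
      rw [← Module.End.mul_apply, ← Module.End.mul_apply, ← map_mul, ← map_mul]
      congr 2
      group
    rw [h4, h3]
  by_cases hcase : ∃ τ₀ ∈ A.inertiaSubgroupIn ℚ, τ₀ ω = ω ∧
      ∃ ζ : AlgebraicClosure ℚ, ζ ^ p = 1 ∧ τ₀ ζ ≠ ζ
  · obtain ⟨τ₀, hτ₀, hτ₀ω, ζ₀, hζ₀, hne⟩ := hcase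
    obtain ⟨n₀, hn₀⟩ := exists_pow_on_roots p hp.pos τ₀
    have hc : (n₀ : ZMod p) ≠ 1 := cast_ne_one_of_moves hp hn₀ hζ₀ hne
    have hc' : (n₀ : ZMod p) - 1 ≠ 0 := sub_ne_zero.mpr hc
    set y₀ : H.J := H.gal τ₀ x - x with hy₀
    have hy₀Y : y₀ ∈ Y := hsub τ₀ hτ₀
    set y : H.J := ((n₀ : ZMod p) - 1)⁻¹ • y₀ with hy
    have hyY : y ∈ Y := Y.smul_mem _ hy₀Y
    -- `x - y` is fixed by `I₃`
    have hfix3 : ∀ τ ∈ A.inertiaSubgroupIn ℚ, τ ω = ω → H.gal τ (x - y) = x - y := by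
      intro τ hτ hτω
      obtain ⟨n, hn⟩ := exists_pow_on_roots p hp.pos τ
      set yτ : H.J := H.gal τ x - x with hyτ
      have hyτY : yτ ∈ Y := hsub τ hτ
      -- the commutator
      have hcomm : H.gal (τ * τ₀) x = H.gal (τ₀ * τ) x := by
        set γ : GQ := τ * τ₀ * τ⁻¹ * τ₀⁻¹ with hγ
        have hγI : γ ∈ A.inertiaSubgroupIn ℚ :=
          Subgroup.mul_mem _ (Subgroup.mul_mem _ (Subgroup.mul_mem _ hτ hτ₀)
            (Subgroup.inv_mem _ hτ)) (Subgroup.inv_mem _ hτ₀)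
        have hinv : ∀ (g : GQ) (z : AlgebraicClosure ℚ), g z = z → g⁻¹ z = z := by
          intro g z hz
          calc g⁻¹ z = g⁻¹ (g z) := by rw [hz]
            _ = z := by
              rw [← AlgEquiv.mul_apply, inv_mul_cancel]
              rfl
        have hγω : γ ω = ω := by
          rw [hγ, AlgEquiv.mul_apply, AlgEquiv.mul_apply, AlgEquiv.mul_apply,
            hinv τ₀ ω hτ₀ω, hinv τ ω hτω, hτ₀ω, hτω]
        have hγζ : ∀ ζ : AlgebraicClosure ℚ, ζ ^ p = 1 → γ ζ = ζ := by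
          intro ζ hζ
          -- `τ⁻¹ τ₀⁻¹ ζ = τ₀⁻¹ τ⁻¹ ζ` since both `τ`, `τ₀` act by powers
          have hpow : ∀ (g : GQ) (m : ℕ), (∀ ξ : AlgebraicClosure ℚ, ξ ^ p = 1 → g ξ = ξ ^ m) →
              ∀ ξ : AlgebraicClosure ℚ, ξ ^ p = 1 → (g ξ) ^ p = 1 := by
            intro g m _ ξ hξ
            rw [← map_pow, hξ, map_one]
          have e1 : (τ * τ₀) ζ = (τ₀ * τ) ζ := by
            rw [AlgEquiv.mul_apply, AlgEquiv.mul_apply, hn₀ ζ hζ, hn ζ hζ, map_pow, map_pow,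
              hn ζ hζ, hn₀ ζ hζ, ← pow_mul, ← pow_mul, mul_comm]
          have e2 : γ = (τ * τ₀) * (τ₀ * τ)⁻¹ := by
            rw [hγ]
            group
          rw [e2, AlgEquiv.mul_apply]
          have e3 : (τ₀ * τ)⁻¹ ζ = (τ * τ₀)⁻¹ ζ := by
            have h5 : ((τ₀ * τ)⁻¹ ζ) ^ p = 1 := by rw [← map_pow, hζ, map_one]
            have h6 : (τ * τ₀) ((τ₀ * τ)⁻¹ ζ) = ζ := by
              have e1' : (τ * τ₀) ((τ₀ * τ)⁻¹ ζ) = (τ₀ * τ) ((τ₀ * τ)⁻¹ ζ) := by
                rw [AlgEquiv.mul_apply, AlgEquiv.mul_apply, hn₀ _ h5, hn _ h5, map_pow, map_pow,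
                  hn _ h5, hn₀ _ h5, ← pow_mul, ← pow_mul, mul_comm]
              rw [e1', ← AlgEquiv.mul_apply, mul_inv_cancel]
              rfl
            calc (τ₀ * τ)⁻¹ ζ = (τ * τ₀)⁻¹ ((τ * τ₀) ((τ₀ * τ)⁻¹ ζ)) := by
                  rw [← AlgEquiv.mul_apply, inv_mul_cancel]
                  rfl
              _ = (τ * τ₀)⁻¹ ζ := by rw [h6]
          rw [e3, ← AlgEquiv.mul_apply, mul_inv_cancel]
          rfl
        have h7 := hI2 γ hγI (τ₀ * τ) (Subgroup.mul_mem _ hτ₀ hτ) hγζ hγω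
        have h8 : H.gal (τ * τ₀) x = H.gal γ (H.gal (τ₀ * τ) x) := by
          rw [← Module.End.mul_apply, ← map_mul]
          congr 2
          rw [hγ]
          group
        rw [h8, h7]
      -- the cocycle relation
      have hτy₀ : H.gal τ y₀ = (n : ZMod p) • y₀ := hY τ hτ n hn y₀ hy₀Y
      have hτ₀yτ : H.gal τ₀ yτ = (n₀ : ZMod p) • yτ := hY τ₀ hτ₀ n₀ hn₀ yτ hyτY
      have e1 : H.gal (τ * τ₀) x = x + yτ + (n : ZMod p) • y₀ := by
        rw [map_mul, Module.End.mul_apply]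
        have : H.gal τ₀ x = x + y₀ := by rw [hy₀]; abel
        rw [this, map_add, hτy₀]
        have : H.gal τ x = x + yτ := by rw [hyτ]; abel
        rw [this]
      have e2 : H.gal (τ₀ * τ) x = x + y₀ + (n₀ : ZMod p) • yτ := by
        rw [map_mul, Module.End.mul_apply]
        have : H.gal τ x = x + yτ := by rw [hyτ]; abel
        rw [this, map_add, hτ₀yτ]
        have : H.gal τ₀ x = x + y₀ := by rw [hy₀]; abel
        rw [this]
      have e3 : ((n₀ : ZMod p) - 1) • yτ = ((n : ZMod p) - 1) • y₀ := by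
        have h9 : x + yτ + (n : ZMod p) • y₀ = x + y₀ + (n₀ : ZMod p) • yτ := by
          rw [← e1, ← e2, hcomm]
        rw [sub_smul, sub_smul, one_smul, one_smul]
        have h10 : yτ + (n : ZMod p) • y₀ = y₀ + (n₀ : ZMod p) • yτ := by
          rw [add_assoc, add_assoc] at h9
          exact add_left_cancel h9
        rw [sub_eq_sub_iff_add_eq_add, add_comm _ y₀, ← h10, add_comm]
      have e4 : yτ = ((n : ZMod p) - 1) • y := by
        rw [hy, smul_smul, mul_comm, ← smul_smul, ← e3, smul_smul, inv_mul_cancel₀ hc', one_smul]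
      have hτy : H.gal τ y = (n : ZMod p) • y := hY τ hτ n hn y hyY
      rw [map_sub, hτy]
      have : H.gal τ x = x + yτ := by rw [hyτ]; abel
      rw [this, e4, sub_smul, one_smul]
      abel
    have hyG0 : y ∈ G0 := hY0 Y hY hyY
    have hzero := hK3 (x - y) u ω (G0.sub_mem hx hyG0) hu hω hfix3
    have hxy : x = y := sub_eq_zero.mp hzero
    rw [hxy]
    exact hyY
  · -- the character is trivial on `I₃`: `x` itself is fixed by `I₃`
    push Not at hcase
    have hfix3 : ∀ τ ∈ A.inertiaSubgroupIn ℚ, τ ω = ω → H.gal τ x = x := by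
      intro τ hτ hτω
      exact hfix τ hτ (fun ζ hζ => hcase τ hτ hτω ζ hζ)
        (hall τ (fun ζ hζ => hcase τ hτ hτω ζ hζ) hτω)
    rw [hK3 x u ω hx hu hω hfix3]
    exact Y.zero_mem

end Abstract

/-! ## `K1` is stable under multiples -/

section K1

variable {A : ValuationSubring (AlgebraicClosure ℚ)} {N n : ℕ}

theorem InK1.nsmul {x : JZero N} (hx : InK1 A N n x) (m : ℕ) : InK1 A N n (m • x) := by
  induction m with
  | zero => rw [zero_nsmul]; exact inK1_zero A N n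
  | succ m ih => rw [succ_nsmul]; exact InK1.add ih hx

theorem InK1.sub {x y : JZero N} (hx : InK1 A N n x) (hy : InK1 A N n y) :
    InK1 A N n (x - y) := by
  rw [sub_eq_add_neg]
  exact InK1.add hx (InK1.neg hy)

end K1

/-! ## (Y0) and (e0) for `J₀(M p)[p]` -/

section Concrete

variable (p M : ℕ) (a b : ℤ) (hab : a * p + b * M = 1) (hp : p.Prime) [NeZero (M * p)]
variable (A : ValuationSubring (AlgebraicClosure ℚ))

/-- An element `y` of `J₀(N)[p]` on which some element of the inertia group acts by a scalar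
`≠ 1` lies in `K1`. -/
theorem inK1_of_scalar {N : ℕ} [NeZero N] (hp : p.Prime) (y : (jzModule N p).J) {σ : GQ}
    (hσ : σ ∈ A.inertiaSubgroupIn ℚ) {n : ℕ} (hn : (n : ZMod p) ≠ 1)
    (hy : (jzModule N p).gal σ y = (n : ZMod p) • y) :
    InK1 A N p (jzModule.pt N p y) := by
  have : Fact p.Prime := ⟨hp⟩
  have htors : (p : ℤ) • jzModule.pt N p y = 0 := jzModule.pt_torsion N p y
  have htors' : p • jzModule.pt N p y = 0 := by
    rw [← natCast_zsmul]
    exact htors
  have hB0 := Fermat.Agent.BAD.H91.stmt_B0 N A σ hσ p (jzModule.pt N p y) htors'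
  -- `σ y - y = (n - 1) y`
  have h1 : σ • jzModule.pt N p y = n • jzModule.pt N p y := by
    have h2 := congrArg (jzModule.pt N p) hy
    rw [jzModule.pt_gal] at h2
    rw [h2]
    have h3 : ((n : ZMod p) • y : (jzModule N p).J) = n • y := Nat.cast_smul_eq_nsmul _ _ _
    rw [h3]
    rfl
  rw [h1] at hB0
  -- an inverse of `n - 1` modulo `p`
  have hne : (n : ZMod p) - 1 ≠ 0 := sub_ne_zero.mpr hn
  obtain ⟨m, hm⟩ : ∃ m : ℕ, (m : ZMod p) = ((n : ZMod p) - 1)⁻¹ :=
    ⟨(((n : ZMod p) - 1)⁻¹).val, ZMod.natCast_zmod_val _⟩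
  have h4 := InK1.nsmul hB0 m
  -- `m ((n - 1) y) = y`
  have h5 : m • (n • jzModule.pt N p y - jzModule.pt N p y) = jzModule.pt N p y := by
    have h6 : ((m : ZMod p) • (((n : ZMod p) - 1) • y) : (jzModule N p).J) = y := by
      rw [smul_smul, hm, inv_mul_cancel₀ hne, one_smul]
    have h7 : (((n : ZMod p) - 1) • y : (jzModule N p).J) = n • y - y := by
      rw [sub_smul, one_smul, Nat.cast_smul_eq_nsmul]
    rw [h7, Nat.cast_smul_eq_nsmul] at h6
    have h8 := congrArg (jzModule.pt N p) h6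
    exact (show m • (n • jzModule.pt N p y - jzModule.pt N p y) =
      jzModule.pt N p (m • (n • y - y)) from rfl).trans h8
  rw [h5] at h4
  exact h4

include hab hp in
/-- **(Y0)**: a subspace on which inertia acts through the cyclotomic character lies in
`G0 = K1 ∩ w K1`. -/
theorem isCycOn_le (hp2 : p ≠ 2) (hA : A.LiesOverPrime p)
    (Y : Submodule (ZMod p) (jzModule (M * p) p).J) (hY : (jzModule (M * p) p).IsCycOn A Y) :
    Y ≤ toric p M a b hab hp p A := by
  intro y hy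
  obtain ⟨σ, hσ, ζ, hζ, hne⟩ := stmt_CycRam p hp hp2 A hA
  obtain ⟨n, hn⟩ := exists_pow_on_roots p hp.pos σ
  have hc : (n : ZMod p) ≠ 1 := cast_ne_one_of_moves hp hn hζ hne
  have hσy := hY σ hσ n hn y hy
  refine (mem_toric_iff p M a b hab hp p A y).2 ⟨inK1_of_scalar p A hp y hσ hc hσy, ?_⟩
  -- the same for `w y`
  have hw : (jzModule (M * p) p).gal σ (wTors p M a b hab hp p y) =
      (n : ZMod p) • wTors p M a b hab hp p y := by
    have h1 := wTors_gal p M a b hab hp p σ y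
    exact h1.trans ((congrArg (wTors p M a b hab hp p) hσy).trans
      (map_smul (wTors p M a b hab hp p) _ _))
  exact inK1_of_scalar p A hp (wTors p M a b hab hp p y) hσ hc hw

end Concrete

/-- **(RAY-K3).**  The connected part `G0 = K1 ∩ w K1` of `J₀(M p)[p]` has no non-zero element
fixed by the inertia group of `ℚ_p^nr(ω)`, `ω ^ p = u`, `u` an integer prime to `p`. -/
def Stmt_RayK3 : Prop :=
  ∀ (p : ℕ), 5 ≤ p → ∀ (M : ℕ) (a b : ℤ) (hab : a * p + b * M = 1) (hp : p.Prime)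
    [NeZero (M * p)],
    ∀ A : ValuationSubring (AlgebraicClosure ℚ), A.LiesOverPrime p →
    ∀ (x : (jzModule (M * p) p).J) (u : ℤ) (ω : AlgebraicClosure ℚ),
      InK1 A (M * p) p (jzModule.pt (M * p) p x) →
      InK1 A (M * p) p (wS p M a b hab hp • jzModule.pt (M * p) p x) →
      ¬ (p : ℤ) ∣ u → ω ^ p = (u : AlgebraicClosure ℚ) →
      (∀ σ ∈ A.inertiaSubgroupIn ℚ, σ ω = ω → (jzModule (M * p) p).gal σ x = x) →
      x = 0

/-- **(e0)**: `Stmt_RayK3` gives `Stmt_RayP`. -/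
theorem stmt_RayP_of_rayK3 (h : Stmt_RayK3) : Stmt_RayP := by
  intro p hp5 M a b hab hp _ A hA x Y u hx hwx hY hsub hu hfix
  have hp2 : p ≠ 2 := by omega
  refine ray_of_rayK3 (jzModule (M * p) p) A hp (toric p M a b hab hp p A)
    (fun Y' hY' => isCycOn_le p M a b hab hp A hp2 hA Y' hY') ?_ x Y u
    ((mem_toric_iff p M a b hab hp p A x).2 ⟨hx, hwx⟩) hY hsub hu hfix
  intro x' u' ω hx' hu' hω hfix'
  have hx'' := (mem_toric_iff p M a b hab hp p A x').1 hx'
  exact h p hp5 M a b hab hp A hA x' u' ω hx''.1 hx''.2 hu' hω hfix'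

end Fermat.Agent.S44

end
end
-- ==== END Fermat.Agent.S44.BadP4

-- ==== BEGIN Fermat.Agent.S52.H5_UnipDecomp
section

set_option autoImplicit false

namespace Fermat.Agent.S52.H5

open WeierstrassCurve WeierstrassCurve.Affine
open Fermat.Agent.S05 Fermat.Agent.Lib.PointVariableChange
open Fermat.Agent.Lib.EllFinite.H4 (IntCoeff)

section defs

variable {L : Type*} [Field L] [DecidableEq L]

/-- An additive self-map of the points which is a valuation preserving field endomorphism up to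
a shift of size `≤ |a₄|`. -/
structure ShiftedVal (A : ValuationSubring L) (W : Affine L) (σ : L →+* L)
    (s : W.Point →+ W.Point) : Prop where
  val_eq : ∀ x, A.valuation (σ x) = A.valuation x
  map_some : ∀ (x y : L) (h : W.Nonsingular x y), ∃ (x' y' : L) (h' : W.Nonsingular x' y'),
    s (.some x y h) = .some x' y' h' ∧ A.valuation (x' - σ x) ≤ A.valuation W.a₄ ∧
      A.valuation (y' - σ y) ≤ A.valuation W.a₄

/-- An additive self-map of the points acting on coordinates by a valuation preserving `σ`. -/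
structure ValOn (A : ValuationSubring L) (E : Affine L) (σ : L →+* L)
    (sE : E.Point →+ E.Point) : Prop where
  val_eq : ∀ x, A.valuation (σ x) = A.valuation x
  map_some : ∀ (x y : L) (h : E.Nonsingular x y),
    ∃ h' : E.Nonsingular (σ x) (σ y), sE (.some x y h) = .some (σ x) (σ y) h'

lemma ShiftedInertia.toShiftedVal {A : ValuationSubring L} {W : Affine L} {σ : L →+* L}
    {s : W.Point →+ W.Point} (h : ShiftedInertia A W σ s) : ShiftedVal A W σ s :=
  ⟨h.val_eq, h.map_some⟩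

lemma InertiaOn.toValOn {A : ValuationSubring L} {E : Affine L} {σ : L →+* L}
    {sE : E.Point →+ E.Point} (h : InertiaOn A E σ sE) : ValOn A E σ sE :=
  ⟨h.val_eq, h.map_some⟩

/-- The conjugate of a valuation preserving map by a change of variables. -/
theorem shiftedVal_of_varChange (A : ValuationSubring L) (E : Affine L) (σ : L →+* L)
    (sE : E.Point →+ E.Point) (hI : ValOn A E σ sE) (C : VariableChange L)
    (hu : σ (C.u : L) = C.u) (hs : σ C.s = C.s) (d₁ d₂ : L)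
    (hd₁ : σ C.r = C.r + (C.u : L) ^ 2 * d₁)
    (hd₂ : σ C.t = C.t + (C.u : L) ^ 3 * d₂ + (C.u : L) ^ 2 * C.s * d₁)
    (h₁ : A.valuation d₁ ≤ A.valuation (C • E).a₄)
    (h₂ : A.valuation d₂ ≤ A.valuation (C • E).a₄) :
    ShiftedVal A (C • E).toAffine σ (conjVC E C sE) where
  val_eq := hI.val_eq
  map_some := by
    intro X Y h
    obtain ⟨h', hsE⟩ := hI.map_some _ _ ((nonsingular_vc E C X Y).mpr h)
    have eX : vcX C (σ X + d₁) = σ (vcX C X) := by
      simp only [vcX, map_add, map_mul, map_pow, hu, hd₁]; ring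
    have eY : vcY C (σ X + d₁) (σ Y + d₂) = σ (vcY C X Y) := by
      simp only [vcY, map_add, map_mul, map_pow, hu, hs, hd₂]; ring
    have hns : (C • E).toAffine.Nonsingular (σ X + d₁) (σ Y + d₂) := by
      rw [← nonsingular_vc, eX, eY]; exact h'
    refine ⟨σ X + d₁, σ Y + d₂, hns, ?_, ?_, ?_⟩
    · rw [conjVC_eq_iff, equiv_some, equiv_some, hsE]
      simp only [eX, eY]
    · have : σ X + d₁ - σ X = d₁ := by ring
      rw [this]; exact h₁
    · have : σ Y + d₂ - σ Y = d₂ := by ring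
      rw [this]; exact h₂

end defs

section arith

variable {L : Type*} [Field L] {A : ValuationSubring L}

lemma trB4_map (E : Affine L) (σ : L →+* L) (h₁ : σ E.a₁ = E.a₁) (h₂ : σ E.a₂ = E.a₂)
    (h₃ : σ E.a₃ = E.a₃) (h₄ : σ E.a₄ = E.a₄) (e : L) :
    trB4 E (σ e) = σ (trB4 E e) := by
  simp only [trB4, b₂, b₄, map_add, map_mul, map_pow, h₁, h₂, h₃, h₄, map_ofNat]

/-- A valuation preserving endomorphism fixing the coefficients moves a root of `ψ₂²` at the node
by at most `|trB4|` (odd residue characteristic). -/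
theorem val_shift_root_odd_of_val {E : Affine L}
    (h2 : A.valuation (2 : L) = 1) (hc₄ : A.valuation E.c₄ = 1)
    {e : L} (he : psi2sq E e = 0) (hb : A.valuation (trB4 E e) < 1)
    (σ : L →+* L) (hσv : ∀ x, A.valuation (σ x) = A.valuation x)
    (h₁ : σ E.a₁ = E.a₁) (h₂ : σ E.a₂ = E.a₂) (h₃ : σ E.a₃ = E.a₃) (h₄ : σ E.a₄ = E.a₄)
    (h₆ : σ E.a₆ = E.a₆) :
    A.valuation (σ e - e) ≤ A.valuation (trB4 E e) := by
  have h4 := val_four_of_two h2
  set δ := σ e - e with hδ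
  have hσe : e + δ = σ e := by rw [hδ]; ring
  have hroot : psi2sq E (e + δ) = 0 := by
    rw [hσe, psi2sq_map E σ h₁ h₂ h₃ h₄ h₆, he, map_zero]
  rw [psi2sq_add, he, zero_add] at hroot
  rcases mul_eq_zero.1 hroot with h0 | h0
  · rw [h0, map_zero]; exact zero_le
  · -- `|δ| < 1`
    have hb' : A.valuation (trB4 E (e + δ)) < 1 := by
      rw [hσe, trB4_map E σ h₁ h₂ h₃ h₄, hσv]; exact hb
    have e3 : 2 * δ ^ 2 = trB4 E (e + δ) + trB4 E e := by
      rw [trB4_add]; linear_combination (-1 : L) * h0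
    have hδ1 : A.valuation δ < 1 := by
      apply val_lt_one_of_sq_lt_one
      have h := congrArg A.valuation e3
      rw [map_mul, h2, one_mul, map_pow] at h
      rw [h]
      exact Valuation.map_add_lt _ hb' hb
    have hB2 : A.valuation (trB2 E e) = 1 := by
      have h := congrArg A.valuation (c₄_eq_tr E e)
      rw [hc₄] at h
      have hsm : A.valuation (24 * trB4 E e) < 1 := by
        rw [map_mul]
        calc A.valuation (24 : L) * A.valuation (trB4 E e) ≤ 1 * A.valuation (trB4 E e) := by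
              gcongr; exact val_ofNat_le 24
          _ = A.valuation (trB4 E e) := one_mul _
          _ < 1 := hb
      have e1 : trB2 E e ^ 2 = (trB2 E e ^ 2 - 24 * trB4 E e) + 24 * trB4 E e := by ring
      have : A.valuation (trB2 E e ^ 2) = 1 := by
        rw [e1, Valuation.map_add_eq_of_lt_left _ (by rw [← h]; exact hsm), ← h]
      rw [map_pow] at this
      exact val_eq_one_of_sq_eq_one this
    have hsum : A.valuation (4 * δ + trB2 E e) = 1 := by
      rw [Valuation.map_add_eq_of_lt_right _ (by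
        rw [hB2, map_mul, h4, one_mul]; exact hδ1), hB2]
    have e2 : 2 * trB4 E e = -(δ * (4 * δ + trB2 E e)) := by linear_combination h0
    have h := congrArg A.valuation e2
    simp only [map_mul, Valuation.map_neg, hsum, mul_one, h2, one_mul] at h
    rw [h]

end arith

section model

variable {L : Type*} [Field L] [DecidableEq L] [IsAlgClosed L] {A : ValuationSubring L}

/-- **One model for all `σ`** (odd residue characteristic, multiplicative reduction): there is a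
root `e` of `ψ₂²` such that `vcOdd E e • E` is the S05 model with `|b| < 1`, and the conjugate of
every valuation preserving (resp. inertia-like) `σ` fixing the coefficients of `E` is a shifted
valuation preserving (resp. shifted inertia) map of the model. -/
theorem exists_model_odd_val {E : Affine L} (hE : IntCoeff A E)
    (h2 : A.valuation (2 : L) = 1) (hΔ0 : E.Δ ≠ 0) (hΔ : A.valuation E.Δ < 1)
    (hc₄ : A.valuation E.c₄ = 1) :
    ∃ e : L, psi2sq E e = 0 ∧ A.valuation e ≤ 1 ∧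
      ModelHyp A (vcOdd E e • E).toAffine ∧ A.valuation (vcOdd E e • E).toAffine.a₄ < 1 ∧
      (∀ (σ : L →+* L) (sE : E.Point →+ E.Point), ValOn A E σ sE →
        σ E.a₁ = E.a₁ → σ E.a₂ = E.a₂ → σ E.a₃ = E.a₃ → σ E.a₄ = E.a₄ → σ E.a₆ = E.a₆ →
        ShiftedVal A (vcOdd E e • E).toAffine σ (conjVC E (vcOdd E e) sE)) ∧
      (∀ (σ : L →+* L) (sE : E.Point →+ E.Point), InertiaOn A E σ sE →
        σ E.a₁ = E.a₁ → σ E.a₂ = E.a₂ → σ E.a₃ = E.a₃ → σ E.a₄ = E.a₄ → σ E.a₆ = E.a₆ →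
        ShiftedInertia A (vcOdd E e • E).toAffine σ (conjVC E (vcOdd E e) sE)) := by
  have h20 := two_ne_zero_of_val h2
  obtain ⟨e, he, hev, hb⟩ := exists_root_odd hE h2 hΔ
  obtain ⟨hyp, hb'⟩ := modelHyp_odd hE h2 hΔ0 hc₄ he hev hb
  have ha₄ : (vcOdd E e • E).a₄ = trB4 E e / 2 := vcOdd_a₄ E e h20
  refine ⟨e, he, hev, hyp, hb', ?_, ?_⟩
  · intro σ sE hI h₁ h₂ h₃ h₄ h₆
    have hshift := val_shift_root_odd_of_val h2 hc₄ he hb σ hI.val_eq h₁ h₂ h₃ h₄ h₆
    refine shiftedVal_of_varChange A E σ sE hI (vcOdd E e) ?_ ?_ (σ e - e) 0 ?_ ?_ ?_ ?_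
    · simp [vcOdd]
    · simp only [vcOdd, map_div₀, map_neg, h₁, map_ofNat]
    · simp only [vcOdd, Units.val_one, one_pow, one_mul]; ring
    · simp only [vcOdd, Units.val_one, one_pow, one_mul, map_div₀, map_neg, map_add, map_mul, h₁,
        h₃, map_ofNat, mul_zero, add_zero]
      field_simp
      ring
    · rw [ha₄, map_div₀, h2, div_one]; exact hshift
    · rw [map_zero]; exact zero_le
  · intro σ sE hI h₁ h₂ h₃ h₄ h₆
    have hshift := val_shift_root_odd_of_val h2 hc₄ he hb σ hI.val_eq h₁ h₂ h₃ h₄ h₆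
    refine shifted_of_varChange A E σ sE hI (vcOdd E e) ?_ ?_ (σ e - e) 0 ?_ ?_ ?_ ?_
    · simp [vcOdd]
    · simp only [vcOdd, map_div₀, map_neg, h₁, map_ofNat]
    · simp only [vcOdd, Units.val_one, one_pow, one_mul]; ring
    · simp only [vcOdd, Units.val_one, one_pow, one_mul, map_div₀, map_neg, map_add, map_mul, h₁,
        h₃, map_ofNat, mul_zero, add_zero]
      field_simp
      ring
    · rw [ha₄, map_div₀, h2, div_one]; exact hshift
    · rw [map_zero]; exact zero_le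

end model

section rat

open ValuationSubring

/-- The action of a Galois automorphism preserving the valuation. -/
lemma valOn_galAdd (W : WeierstrassCurve ℤ) (A : ValuationSubring Qb) (σ : Qb ≃ₐ[ℚ] Qb)
    (hσ : σ ∈ A.decompositionSubgroup ℚ) :
    ValOn A (EQ W) (σ : Qb →+* Qb) (galAdd W σ) where
  val_eq := by
    have := Fermat.Agent.S05.isAlgebraic_algebraicClosure_rat
    exact fun x => Fermat.Agent.S05.H37.valuation_apply_eq_of_mem_decomposition A hσ x
  map_some := fun _ _ _ => ⟨_, rfl⟩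

/-- **Model at an odd prime of multiplicative reduction**, for `W` over `ℤ`: one root `e`, the
S05 model `vcOdd (EQ W) e • EQ W`, and the transported Galois action: shifted valuation preserving
for `σ` in the decomposition group of `A`, shifted inertia for `σ` in the inertia group. -/
theorem exists_model_odd_Q (W : WeierstrassCurve ℤ) (l : ℕ) (hl : l.Prime) (hl2 : l ≠ 2)
    (hΔ : W.Δ ≠ 0) (hbad : (l : ℤ) ∣ W.Δ) (hc₄ : ¬ (l : ℤ) ∣ W.c₄)
    (A : ValuationSubring Qb) (hA : A.LiesOverPrime l) :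
    ∃ e : Qb, psi2sq (EQ W) e = 0 ∧ A.valuation e ≤ 1 ∧
      ModelHyp A (vcOdd (EQ W) e • EQ W).toAffine ∧
      A.valuation (vcOdd (EQ W) e • EQ W).toAffine.a₄ < 1 ∧
      (∀ σ : Qb ≃ₐ[ℚ] Qb, σ ∈ A.decompositionSubgroup ℚ →
        ShiftedVal A (vcOdd (EQ W) e • EQ W).toAffine (σ : Qb →+* Qb)
          (conjVC (EQ W) (vcOdd (EQ W) e) (galAdd W σ))) ∧
      (∀ σ : Qb ≃ₐ[ℚ] Qb, σ ∈ A.inertiaSubgroupIn ℚ →
        ShiftedInertia A (vcOdd (EQ W) e • EQ W).toAffine (σ : Qb →+* Qb)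
          (conjVC (EQ W) (vcOdd (EQ W) e) (galAdd W σ))) := by
  have hE := EQ_intCoeff W A
  have hΔ0 : (EQ W).Δ ≠ 0 := by
    rw [EQ_Δ]; exact_mod_cast hΔ
  have hΔv : A.valuation (EQ W).Δ < 1 := by
    rw [EQ_Δ]; exact Fermat.Agent.S05.H15.valuation_intCast_lt_one_of_dvd hA hbad
  have hc₄v : A.valuation (EQ W).c₄ = 1 := by
    rw [EQ_c₄]; exact Fermat.Agent.S05.H15.valuation_intCast_eq_one_of_not_dvd hl hA hc₄
  have h2v : A.valuation (2 : Qb) = 1 := by
    have := Fermat.Agent.S05.H15.valuation_natCast_eq_one_of_ne hl hA Nat.prime_two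
      (fun h => hl2 h.symm)
    simpa using this
  have h₁ : ∀ σ : Qb ≃ₐ[ℚ] Qb, (σ : Qb →+* Qb) (EQ W).a₁ = (EQ W).a₁ := fun σ => by
    rw [EQ_a₁]; exact map_intCast _ _
  have h₂ : ∀ σ : Qb ≃ₐ[ℚ] Qb, (σ : Qb →+* Qb) (EQ W).a₂ = (EQ W).a₂ := fun σ => by
    rw [EQ_a₂]; exact map_intCast _ _
  have h₃ : ∀ σ : Qb ≃ₐ[ℚ] Qb, (σ : Qb →+* Qb) (EQ W).a₃ = (EQ W).a₃ := fun σ => by
    rw [EQ_a₃]; exact map_intCast _ _
  have h₄ : ∀ σ : Qb ≃ₐ[ℚ] Qb, (σ : Qb →+* Qb) (EQ W).a₄ = (EQ W).a₄ := fun σ => by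
    rw [EQ_a₄]; exact map_intCast _ _
  have h₆ : ∀ σ : Qb ≃ₐ[ℚ] Qb, (σ : Qb →+* Qb) (EQ W).a₆ = (EQ W).a₆ := fun σ => by
    rw [EQ_a₆]; exact map_intCast _ _
  obtain ⟨e, he, hev, hyp, hb, hV, hI⟩ := exists_model_odd_val hE h2v hΔ0 hΔv hc₄v
  exact ⟨e, he, hev, hyp, hb,
    fun σ hσ => hV _ _ (valOn_galAdd W A σ hσ) (h₁ σ) (h₂ σ) (h₃ σ) (h₄ σ) (h₆ σ),
    fun σ hσ => hI _ _ (inertiaOn_galAdd W A σ hσ) (h₁ σ) (h₂ σ) (h₃ σ) (h₄ σ) (h₆ σ)⟩

end rat

end Fermat.Agent.S52.H5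

end
-- ==== END Fermat.Agent.S52.H5_UnipDecomp
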