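-- GENERATED (merged mirror, NOTES/tools/trim/merge3_helper67.py): 9 modules of the originals, bodies verbatim.
import Fermat.Agent.Zm.S44_L10_000
import Fermat.Agent.Zm.S35_L20_000
import Fermat.Agent.Zm.S35_L17_000
import Fermat.Agent.Zm.S44_L03_003
import Fermat.Agent.Zm.S44_L02_003
import Fermat.Agent.S17.WeakMW
import Fermat.Agent.Zm.S44_L01_005
import Fermat.Agent.Zm.S35_L13_001
import Fermat.Agent.Zm.S35_L12_001
import Fermat.Agent.Zm.S33_L02_000
import Fermat.Agent.Zm.S44_L06_000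
import Fermat.Agent.Zm.S44_L05_001
import Fermat.Agent.Zm.S33_L03_001
import Fermat.Agent.Zm.S44_L04_001
import Fermat.Agent.Lib.EllFinite.H4_Red

-- ==== BEGIN Fermat.Agent.BADP.Defs
section
attribute [local instance 10000] SubalgebraClass.toAlgebra
attribute [local instance 10000] HahnSeries.powerSeriesAlgebra

set_option autoImplicit false
set_option synthInstance.maxHeartbeats 400000
set_option maxHeartbeats 1000000

noncomputable section

open AlgebraicCurve ModularCurve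

namespace Fermat.Agent.BADP

open Fermat.Agent.BAD Fermat.Agent.S44 Fermat.Agent.S43.BadQ Fermat.Agent.S28.H73
  Fermat.Agent.RED.H73

/-- The reduction of the modular unit `Δ(z)/Δ(pz)`, as a function on the component of `∞`. -/
def unitRed (A : ValuationSubring (AlgebraicClosure ℚ)) (N p : ℕ) [NeZero N] [NeZero p]
    (hd : p ∣ N) :
    ↥(redField A (FNbar N) (hasScale_laurentBaseChange A N)) :=
  gaussRes A N ⟨Fermat.Agent.BAD.H30.unitF N p hd,
    Fermat.Agent.BAD.H30.unitF_mem_gaussV A N p hd⟩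

/-- **Eisenstein Kummer pair.**  `(D, f)` is a Kummer pair of `x` with `f` a unit of the Gauss
valuation ring, and the divisor of the reduction of `f` is congruent modulo `p` to `c` times the
non-cuspidal part of the divisor of the reduction of the modular unit. -/
def IsEisPair (A : ValuationSubring (AlgebraicClosure ℚ)) (N p : ℕ) [NeZero N] [NeZero p]
    (hd : p ∣ N)
    (x : JZero N) (D : Divisor.degZero (K := AlgebraicClosure ℚ) (F := ↥(FNbar N)))
    (f : ↥(gaussV A N)) (c : ℤ) : Prop :=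
  x = Pic0.mk D ∧ gaussRes A N f ≠ 0 ∧
  (∀ P : Place (AlgebraicClosure ℚ) ↥(FNbar N),
    (p : ℤ) * (D : Divisor (AlgebraicClosure ℚ) ↥(FNbar N)) P = P.ord ((f : ↥(FNbar N)))) ∧
  ∀ Q : Place (kV A) ↥(redField A (FNbar N) (hasScale_laurentBaseChange A N)),
    (0 ≤ Q.ord (Fermat.Agent.BAD.H91.jRed A N) →
      (p : ℤ) ∣ Q.ord (gaussRes A N f) - c * Q.ord (unitRed A N p hd)) ∧
    (Q.ord (Fermat.Agent.BAD.H91.jRed A N) < 0 → (p : ℤ) ∣ Q.ord (gaussRes A N f))

/-- **(d0)-(d5), (d7): the slope vector is Eisenstein.**  A class `x` of `J₀(N)[p]` such that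
`(σ - 1) x` lies, for `σ` in the inertia group, in a subspace `Y` on which inertia acts through
the cyclotomic character, and which is fixed by the inertia of `ℚ_p^nr(μ_p, u^(1/p))`, has an
Eisenstein Kummer pair.  (No Hecke operator.) -/
def Stmt_EisSlopeP : Prop :=
  ∀ (p : ℕ) [NeZero p], p.Prime → 5 ≤ p → ∀ (N : ℕ) [NeZero N] (hd : p ∣ N), ¬ p ^ 2 ∣ N →
    ∀ A : ValuationSubring (AlgebraicClosure ℚ), A.LiesOverPrime p →
    ∀ (x : (jzModule N p).J) (Y : Submodule (ZMod p) (jzModule N p).J) (u : ℤ),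
      (jzModule N p).IsCycOn A Y →
      (∀ σ ∈ A.inertiaSubgroupIn ℚ, (jzModule N p).gal σ x - x ∈ Y) →
      ¬ (p : ℤ) ∣ u → (jzModule N p).IsPeuFixed A u x →
      ∃ (D : Divisor.degZero (K := AlgebraicClosure ℚ) (F := ↥(FNbar N))) (f : ↥(gaussV A N))
        (c : ℤ), IsEisPair A N p hd (jzModule.pt N p x) D f c

/-- **(d6) = H-DROP: the Eisenstein slope vectors are Eisenstein for the Hecke operators.**
A common eigenvector of the Hecke operators with a non-Eisenstein system of eigenvalues which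
has an Eisenstein Kummer pair lies in the finite part.

Proof (plan §12.2 (d6)): `div (red (N_α (β f))) = α~_* β~^* div (red f)` (NORM-RED along `α` at
level `N ℓ` for the Gauss valuation, as in OLD-RED); `β U / α U = G(z)/G(pz)`, `G = Δ(ℓz)/Δ(z)`,
has reduction `G~ ^ (1 - p)` (Kronecker), a unit outside the cusps; hence `T~_ℓ Ξ = (ℓ + 1) Ξ`
for the non-cuspidal part `Ξ` of `div (red U)`, and `(t_ℓ - ℓ - 1) c Ξ ≡ 0` modulo `p`. -/
def Stmt_HDropP : Prop :=
  ∀ (p : ℕ) [NeZero p], p.Prime → 5 ≤ p → ∀ (N : ℕ) [NeZero N] (hd : p ∣ N), ¬ p ^ 2 ∣ N →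
    ∀ A : ValuationSubring (AlgebraicClosure ℚ), A.LiesOverPrime p →
    ∀ (S : Finset ℕ) (t : ℕ → ℤ) (x : (jzModule N p).J),
      (jzModule N p).IsEigen N S t x → NonEisSystem p N S t →
      ∀ (D : Divisor.degZero (K := AlgebraicClosure ℚ) (F := ↥(FNbar N))) (f : ↥(gaussV A N))
        (c : ℤ), IsEisPair A N p hd (jzModule.pt N p x) D f c →
        Fin1 A N p (jzModule.pt N p x)

/-- **Clause (d) from its two halves.** -/
theorem stmt_SlopeP_of (h1 : Stmt_EisSlopeP) (h2 : Stmt_HDropP) : Stmt_SlopeP := by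
  intro p hp hp5 N _ hd hp2 A hA S t x Y u hT hNE hY hsub hu hfix
  have : NeZero p := ⟨hp.ne_zero⟩
  obtain ⟨D, f, c, hpair⟩ := h1 p hp hp5 N hd hp2 A hA x Y u hY hsub hu hfix
  exact h2 p hp hp5 N hd hp2 A hA S t x hT hNE D f c hpair

end Fermat.Agent.BADP

end
end
-- ==== END Fermat.Agent.BADP.Defs

-- ==== BEGIN Fermat.Agent.S17.W2.Final
section

/-!
# S17-W2: assembly (helper8)

`stmt_divisible_of`: `Stmt_divisible N n` from the single remaining leaf GEO
(FT1, FT4, FT5, FT6 and A are landed).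
-/

set_option autoImplicit false

noncomputable section

namespace Fermat.Agent.S17.W2

open AlgebraicCurve ModularCurve Fermat.Agent.GTor Cardinal

/-- A countable field inside an uncountable algebraically closed field: `Big`. -/
theorem big_of_countable (k Ω : Type) [Field k] [Field Ω] [Algebra k Ω] (hk : #k ≤ ℵ₀)
    (hΩ : ℵ₀ < #Ω) : Big k Ω := by
  intro s hs
  by_contra hcon
  push Not at hcon
  have halg : Algebra.IsAlgebraic (IntermediateField.adjoin k s) Ω :=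
    ⟨fun x => not_not.mp (hcon x)⟩
  have h1 : #Ω ≤ max #(IntermediateField.adjoin k s) ℵ₀ :=
    Algebra.IsAlgebraic.cardinalMk_le_max (IntermediateField.adjoin k s) Ω
  have h2 : #(IntermediateField.adjoin k s) ≤ ℵ₀ := by
    refine (IntermediateField.cardinalMk_adjoin_le k s).trans ?_
    refine sup_le (sup_le hk ?_) le_rfl
    exact Cardinal.le_aleph0_iff_set_countable.mpr hs.countable
  exact absurd (h1.trans (max_le h2 le_rfl)) (not_le.mpr hΩ)

theorem big_complex [Algebra (AlgebraicClosure ℚ) ℂ] : Big (AlgebraicClosure ℚ) ℂ :=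
  big_of_countable _ _ H33.cardinalMk_algebraicClosure_rat
    (by rw [Cardinal.mk_complex]; exact Cardinal.aleph0_lt_continuum)

/-- **FIN**: the `n`-torsion of `Pic⁰(ℂ(X₀(N)))` is finite. -/
theorem torsion_finite_complex (N n : ℕ) [NeZero N] (hn : n ≠ 0) :
    {x : Pic0 ℂ (FNL ℂ N) | n • x = 0}.Finite := by
  obtain ⟨e, -⟩ := H33.stmt_KUM_FNL ℂ N hn
  have := H56.finite_unrKummer N n hn (H81.stmt_BETTI_final N n hn)
  have : Finite (Additive (UnrKummer ℂ (FNL ℂ N) n)) :=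
    Finite.of_equiv _ (Additive.ofMul (α := UnrKummer ℂ (FNL ℂ N) n))
  have : Finite (Pic0.torsion ℂ (FNL ℂ N) n) := Finite.of_equiv _ e.toEquiv
  have hfin : (Set.range (Subtype.val : Pic0.torsion ℂ (FNL ℂ N) n → Pic0 ℂ (FNL ℂ N))).Finite :=
    Set.finite_range _
  refine hfin.subset ?_
  intro x hx
  refine ⟨⟨x, ?_⟩, rfl⟩
  rw [Pic0.mem_torsion]
  have hx' : n • x = 0 := hx
  exact hx'

theorem isFF_complex (N : ℕ) [NeZero N] : Fermat.Agent.RED.IsFF ℂ (FNL ℂ N) :=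
  H33.exists_transcendental_finite ℂ N

/-- **W2** from the open leaves. -/
theorem stmt_divisible_of (N n : ℕ) [NeZero N] (hn : n ≠ 0)
    (hGEO : ∀ _ : Algebra (AlgebraicClosure ℚ) ℂ, Stmt_GEO ℂ N) :
    Fermat.Agent.S17.Stmt_divisible N n := by
  intro x _
  have : Algebra.IsAlgebraic ℚ (AlgebraicClosure ℚ) := AlgebraicClosure.isAlgebraic ℚ
  letI inst : Algebra (AlgebraicClosure ℚ) ℂ :=
    (IsAlgClosed.lift : AlgebraicClosure ℚ →ₐ[ℚ] ℂ).toRingHom.toAlgebra
  obtain ⟨S, hj, hstab, htrans⟩ := hGEO inst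
  have hcore := stmt_Core_of S n (H56.stmt_FT1 _ _) (H41.stmt_FT4 _ _) (H41.stmt_FT5 _ _)
    (H41.stmt_FT6 _ _)
    (isFF_complex N) hj big_complex hstab htrans (torsion_finite_complex N n hn)
  exact H75.stmt_A N n hn hcore x

end Fermat.Agent.S17.W2

end
end
-- ==== END Fermat.Agent.S17.W2.Final

-- ==== BEGIN Fermat.Agent.S44.BadP5
section

set_option autoImplicit false
set_option synthInstance.maxHeartbeats 400000
set_option maxHeartbeats 1000000

noncomputable section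

open AlgebraicCurve ModularCurve

namespace Fermat.Agent.S44

open Fermat.Agent.BAD Fermat.Agent.S43.BadQ Fermat.Agent.S28.H73 Fermat.Agent.RED.H73

/-- `ω` is a good `p`-th root of `u`: some element of the inertia group at `A` fixes `ω` and
moves a `p`-th root of unity. -/
def IsGoodRoot (p : ℕ) (A : ValuationSubring (AlgebraicClosure ℚ)) (u : ℤ)
    (ω : AlgebraicClosure ℚ) : Prop :=
  ω ^ p = (u : AlgebraicClosure ℚ) ∧
    ∃ τ₀ ∈ A.inertiaSubgroupIn ℚ, τ₀ ω = ω ∧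
      ∃ ζ : AlgebraicClosure ℚ, ζ ^ p = 1 ∧ τ₀ ζ ≠ ζ

/-- **(GOOD-ROOT)**: every integer prime to `p` has a good `p`-th root. -/
def Stmt_GoodRoot : Prop :=
  ∀ (p : ℕ), p.Prime → p ≠ 2 → ∀ A : ValuationSubring (AlgebraicClosure ℚ),
    A.LiesOverPrime p → ∀ u : ℤ, ¬ (p : ℤ) ∣ u → ∃ ω : AlgebraicClosure ℚ, IsGoodRoot p A u ω

section Abstract

variable {p : ℕ} (H : HeckeGaloisModule p) (A : ValuationSubring (AlgebraicClosure ℚ))

/-- **(e0), abstract form, corrected.** -/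
theorem ray_of_rayK3x (hp : p.Prime) (G0 : Submodule (ZMod p) H.J)
    (hY0 : ∀ Y : Submodule (ZMod p) H.J, H.IsCycOn A Y → Y ≤ G0)
    (hK3 : ∀ (x : H.J) (u : ℤ) (ω : AlgebraicClosure ℚ), x ∈ G0 → ¬ (p : ℤ) ∣ u →
      ω ^ p = (u : AlgebraicClosure ℚ) →
      (∃ τ₀ ∈ A.inertiaSubgroupIn ℚ, τ₀ ω = ω ∧
        ∃ ζ : AlgebraicClosure ℚ, ζ ^ p = 1 ∧ τ₀ ζ ≠ ζ) →
      (∀ σ ∈ A.inertiaSubgroupIn ℚ, σ ω = ω → H.gal σ x = x) → x = 0)
    (hroot : ∀ u : ℤ, ¬ (p : ℤ) ∣ u → ∃ ω : AlgebraicClosure ℚ,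
      ω ^ p = (u : AlgebraicClosure ℚ) ∧ ∃ τ₀ ∈ A.inertiaSubgroupIn ℚ, τ₀ ω = ω ∧
        ∃ ζ : AlgebraicClosure ℚ, ζ ^ p = 1 ∧ τ₀ ζ ≠ ζ)
    (x : H.J) (Y : Submodule (ZMod p) H.J) (u : ℤ) (hx : x ∈ G0) (hY : H.IsCycOn A Y)
    (hsub : ∀ σ ∈ A.inertiaSubgroupIn ℚ, H.gal σ x - x ∈ Y) (hu : ¬ (p : ℤ) ∣ u)
    (hfix : H.IsPeuFixed A u x) : x ∈ Y := by
  haveI : Fact p.Prime := ⟨hp⟩
  have hp0 : (p : AlgebraicClosure ℚ) ≠ 0 := by
    exact_mod_cast hp.ne_zero
  -- a good `p`-th root of `u`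
  obtain ⟨ω, hω, hgood⟩ := hroot u hu
  have hω0 : ω ≠ 0 := by
    rintro rfl
    rw [zero_pow hp.ne_zero] at hω
    have hu0 : u = 0 := by exact_mod_cast hω.symm
    exact hu (hu0 ▸ dvd_zero _)
  -- an element fixing `μ_p` and `ω` fixes every `p`-th root of `u`
  have hall : ∀ σ : GQ, (∀ ζ : AlgebraicClosure ℚ, ζ ^ p = 1 → σ ζ = ζ) → σ ω = ω →
      ∀ z : AlgebraicClosure ℚ, z ^ p = (u : AlgebraicClosure ℚ) → σ z = z := by
    intro σ h1 h2 z hz
    have hq : (z / ω) ^ p = 1 := by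
      rw [div_pow, hz, hω, div_self]
      rw [← hω]
      exact pow_ne_zero _ hω0
    have h3 := h1 (z / ω) hq
    have hz' : z = (z / ω) * ω := by field_simp
    rw [hz', map_mul, h3, h2]
  -- the elements of `I₂` fix `g x` for every `g` in the inertia group
  have hI2 : ∀ γ ∈ A.inertiaSubgroupIn ℚ, ∀ g ∈ A.inertiaSubgroupIn ℚ,
      (∀ ζ : AlgebraicClosure ℚ, ζ ^ p = 1 → γ ζ = ζ) → γ ω = ω →
      H.gal γ (H.gal g x) = H.gal g x := by
    intro γ hγ g hg h1 h2
    -- `γ' = g⁻¹ γ g`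
    have hγ' : g⁻¹ * γ * g ∈ A.inertiaSubgroupIn ℚ :=
      Subgroup.mul_mem _ (Subgroup.mul_mem _ (Subgroup.inv_mem _ hg) hγ) hg
    have hginv : ∀ z : AlgebraicClosure ℚ, g⁻¹ (g z) = z := by
      intro z
      rw [← AlgEquiv.mul_apply, inv_mul_cancel]
      rfl
    have h1' : ∀ ζ : AlgebraicClosure ℚ, ζ ^ p = 1 → (g⁻¹ * γ * g) ζ = ζ := by
      intro ζ hζ
      rw [AlgEquiv.mul_apply, AlgEquiv.mul_apply, h1 (g ζ) (by rw [← map_pow, hζ, map_one]),
        hginv]
    have h2' : ∀ z : AlgebraicClosure ℚ, z ^ p = (u : AlgebraicClosure ℚ) →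
        (g⁻¹ * γ * g) z = z := by
      intro z hz
      have hgz : (g z) ^ p = (u : AlgebraicClosure ℚ) := by
        rw [← map_pow, hz, map_intCast]
      rw [AlgEquiv.mul_apply, AlgEquiv.mul_apply, hall γ h1 h2 (g z) hgz, hginv]
    have h3 := hfix (g⁻¹ * γ * g) hγ' h1' h2'
    have h4 : H.gal γ (H.gal g x) = H.gal g (H.gal (g⁻¹ * γ * g) x) := by
      rw [← Module.End.mul_apply, ← Module.End.mul_apply, ← map_mul, ← map_mul]
      congr 2
      group
    rw [h4, h3]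
  obtain ⟨τ₀, hτ₀, hτ₀ω, ζ₀, hζ₀, hne⟩ := hgood
  obtain ⟨n₀, hn₀⟩ := exists_pow_on_roots p hp.pos τ₀
  have hc : (n₀ : ZMod p) ≠ 1 := cast_ne_one_of_moves hp hn₀ hζ₀ hne
  have hc' : (n₀ : ZMod p) - 1 ≠ 0 := sub_ne_zero.mpr hc
  set y₀ : H.J := H.gal τ₀ x - x with hy₀
  have hy₀Y : y₀ ∈ Y := hsub τ₀ hτ₀
  set y : H.J := ((n₀ : ZMod p) - 1)⁻¹ • y₀ with hy
  have hyY : y ∈ Y := Y.smul_mem _ hy₀Y
  -- `x - y` is fixed by `I₃`
  have hfix3 : ∀ τ ∈ A.inertiaSubgroupIn ℚ, τ ω = ω → H.gal τ (x - y) = x - y := by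
    intro τ hτ hτω
    obtain ⟨n, hn⟩ := exists_pow_on_roots p hp.pos τ
    set yτ : H.J := H.gal τ x - x with hyτ
    have hyτY : yτ ∈ Y := hsub τ hτ
    -- the commutator
    have hcomm : H.gal (τ * τ₀) x = H.gal (τ₀ * τ) x := by
      set γ : GQ := τ * τ₀ * τ⁻¹ * τ₀⁻¹ with hγ
      have hγI : γ ∈ A.inertiaSubgroupIn ℚ :=
        Subgroup.mul_mem _ (Subgroup.mul_mem _ (Subgroup.mul_mem _ hτ hτ₀)
          (Subgroup.inv_mem _ hτ)) (Subgroup.inv_mem _ hτ₀)
      have hinv : ∀ (g : GQ) (z : AlgebraicClosure ℚ), g z = z → g⁻¹ z = z := by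
        intro g z hz
        calc g⁻¹ z = g⁻¹ (g z) := by rw [hz]
          _ = z := by
            rw [← AlgEquiv.mul_apply, inv_mul_cancel]
            rfl
      have hγω : γ ω = ω := by
        rw [hγ, AlgEquiv.mul_apply, AlgEquiv.mul_apply, AlgEquiv.mul_apply,
          hinv τ₀ ω hτ₀ω, hinv τ ω hτω, hτ₀ω, hτω]
      have hγζ : ∀ ζ : AlgebraicClosure ℚ, ζ ^ p = 1 → γ ζ = ζ := by
        intro ζ hζ
        -- `τ⁻¹ τ₀⁻¹ ζ = τ₀⁻¹ τ⁻¹ ζ` since both `τ`, `τ₀` act by powers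
        have hpow : ∀ (g : GQ) (m : ℕ), (∀ ξ : AlgebraicClosure ℚ, ξ ^ p = 1 → g ξ = ξ ^ m) →
            ∀ ξ : AlgebraicClosure ℚ, ξ ^ p = 1 → (g ξ) ^ p = 1 := by
          intro g m _ ξ hξ
          rw [← map_pow, hξ, map_one]
        have e1 : (τ * τ₀) ζ = (τ₀ * τ) ζ := by
          rw [AlgEquiv.mul_apply, AlgEquiv.mul_apply, hn₀ ζ hζ, hn ζ hζ, map_pow, map_pow,
            hn ζ hζ, hn₀ ζ hζ, ← pow_mul, ← pow_mul, mul_comm]
        have e2 : γ = (τ * τ₀) * (τ₀ * τ)⁻¹ := by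
          rw [hγ]
          group
        rw [e2, AlgEquiv.mul_apply]
        have e3 : (τ₀ * τ)⁻¹ ζ = (τ * τ₀)⁻¹ ζ := by
          have h5 : ((τ₀ * τ)⁻¹ ζ) ^ p = 1 := by rw [← map_pow, hζ, map_one]
          have h6 : (τ * τ₀) ((τ₀ * τ)⁻¹ ζ) = ζ := by
            have e1' : (τ * τ₀) ((τ₀ * τ)⁻¹ ζ) = (τ₀ * τ) ((τ₀ * τ)⁻¹ ζ) := by
              rw [AlgEquiv.mul_apply, AlgEquiv.mul_apply, hn₀ _ h5, hn _ h5, map_pow, map_pow,
                hn _ h5, hn₀ _ h5, ← pow_mul, ← pow_mul, mul_comm]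
            rw [e1', ← AlgEquiv.mul_apply, mul_inv_cancel]
            rfl
          calc (τ₀ * τ)⁻¹ ζ = (τ * τ₀)⁻¹ ((τ * τ₀) ((τ₀ * τ)⁻¹ ζ)) := by
                rw [← AlgEquiv.mul_apply, inv_mul_cancel]
                rfl
            _ = (τ * τ₀)⁻¹ ζ := by rw [h6]
        rw [e3, ← AlgEquiv.mul_apply, mul_inv_cancel]
        rfl
      have h7 := hI2 γ hγI (τ₀ * τ) (Subgroup.mul_mem _ hτ₀ hτ) hγζ hγω
      have h8 : H.gal (τ * τ₀) x = H.gal γ (H.gal (τ₀ * τ) x) := by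
        rw [← Module.End.mul_apply, ← map_mul]
        congr 2
        rw [hγ]
        group
      rw [h8, h7]
    -- the cocycle relation
    have hτy₀ : H.gal τ y₀ = (n : ZMod p) • y₀ := hY τ hτ n hn y₀ hy₀Y
    have hτ₀yτ : H.gal τ₀ yτ = (n₀ : ZMod p) • yτ := hY τ₀ hτ₀ n₀ hn₀ yτ hyτY
    have e1 : H.gal (τ * τ₀) x = x + yτ + (n : ZMod p) • y₀ := by
      rw [map_mul, Module.End.mul_apply]
      have : H.gal τ₀ x = x + y₀ := by rw [hy₀]; abel
      rw [this, map_add, hτy₀]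
      have : H.gal τ x = x + yτ := by rw [hyτ]; abel
      rw [this]
    have e2 : H.gal (τ₀ * τ) x = x + y₀ + (n₀ : ZMod p) • yτ := by
      rw [map_mul, Module.End.mul_apply]
      have : H.gal τ x = x + yτ := by rw [hyτ]; abel
      rw [this, map_add, hτ₀yτ]
      have : H.gal τ₀ x = x + y₀ := by rw [hy₀]; abel
      rw [this]
    have e3 : ((n₀ : ZMod p) - 1) • yτ = ((n : ZMod p) - 1) • y₀ := by
      have h9 : x + yτ + (n : ZMod p) • y₀ = x + y₀ + (n₀ : ZMod p) • yτ := by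
        rw [← e1, ← e2, hcomm]
      rw [sub_smul, sub_smul, one_smul, one_smul]
      have h10 : yτ + (n : ZMod p) • y₀ = y₀ + (n₀ : ZMod p) • yτ := by
        rw [add_assoc, add_assoc] at h9
        exact add_left_cancel h9
      rw [sub_eq_sub_iff_add_eq_add, add_comm _ y₀, ← h10, add_comm]
    have e4 : yτ = ((n : ZMod p) - 1) • y := by
      rw [hy, smul_smul, mul_comm, ← smul_smul, ← e3, smul_smul, inv_mul_cancel₀ hc', one_smul]
    have hτy : H.gal τ y = (n : ZMod p) • y := hY τ hτ n hn y hyY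
    rw [map_sub, hτy]
    have : H.gal τ x = x + yτ := by rw [hyτ]; abel
    rw [this, e4, sub_smul, one_smul]
    abel
  have hyG0 : y ∈ G0 := hY0 Y hY hyY
  have hzero := hK3 (x - y) u ω (G0.sub_mem hx hyG0) hu hω
    ⟨τ₀, hτ₀, hτ₀ω, ζ₀, hζ₀, hne⟩ hfix3
  have hxy : x = y := sub_eq_zero.mp hzero
  rw [hxy]
  exact hyY
end Abstract

/-- **(RAY-K3), corrected.**  The connected part `G0 = K1 ∩ w K1` of `J₀(M p)[p]` has no
non-zero element fixed by the stabiliser in the inertia group of a GOOD `p`-th root `ω` of `u`,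
`u` an integer prime to `p`. -/
def Stmt_RayK3x : Prop :=
  ∀ (p : ℕ), 5 ≤ p → ∀ (M : ℕ) (a b : ℤ) (hab : a * p + b * M = 1) (hp : p.Prime)
    [NeZero (M * p)],
    ∀ A : ValuationSubring (AlgebraicClosure ℚ), A.LiesOverPrime p →
    ∀ (x : (jzModule (M * p) p).J) (u : ℤ) (ω : AlgebraicClosure ℚ),
      InK1 A (M * p) p (jzModule.pt (M * p) p x) →
      InK1 A (M * p) p (wS p M a b hab hp • jzModule.pt (M * p) p x) →
      ¬ (p : ℤ) ∣ u → IsGoodRoot p A u ω →
      (∀ σ ∈ A.inertiaSubgroupIn ℚ, σ ω = ω → (jzModule (M * p) p).gal σ x = x) →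
      x = 0

/-- **(e0), corrected**: `Stmt_RayK3x` and `Stmt_GoodRoot` give `Stmt_RayP`. -/
theorem stmt_RayP_of_rayK3x (h : Stmt_RayK3x) (hg : Stmt_GoodRoot) : Stmt_RayP := by
  intro p hp5 M a b hab hp _ A hA x Y u hx hwx hY hsub hu hfix
  have hp2 : p ≠ 2 := by omega
  refine ray_of_rayK3x (jzModule (M * p) p) A hp (toric p M a b hab hp p A)
    (fun Y' hY' => isCycOn_le p M a b hab hp A hp2 hA Y' hY') ?_ ?_ x Y u
    ((mem_toric_iff p M a b hab hp p A x).2 ⟨hx, hwx⟩) hY hsub hu hfix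
  · intro x' u' ω hx' hu' hω hgood hfix'
    have hx'' := (mem_toric_iff p M a b hab hp p A x').1 hx'
    exact h p hp5 M a b hab hp A hA x' u' ω hx''.1 hx''.2 hu' ⟨hω, hgood⟩ hfix'
  · intro u' hu'
    obtain ⟨ω, hω, hgood⟩ := hg p hp hp2 A hA u' hu'
    exact ⟨ω, hω, hgood⟩

end Fermat.Agent.S44

end
end
-- ==== END Fermat.Agent.S44.BadP5

-- ==== BEGIN Fermat.Agent.Tate.T6.Defs2
section

set_option autoImplicit false

open WeierstrassCurve WeierstrassCurve.Affine Polynomial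

namespace Fermat.Agent.Tate.T6

open Fermat.Agent.S05 (ModelHyp InE0)

/-- **ROOT**: on the S05 model `y² = x³ + a x² + b x` (`|a| = 1`, `|b| < 1`) over an algebraically
closed valued field of characteristic `0` and odd residue characteristic `p` there is a point of
order `p` outside `E₀` (i.e. with `|x| < 1`). -/
def Stmt_ROOT : Prop :=
  ∀ (L : Type) [Field L] [DecidableEq L] [IsAlgClosed L] [CharZero L] (A : ValuationSubring L)
    (p : ℕ), p.Prime → p ≠ 2 → A.valuation (p : L) < 1 →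
  ∀ (W : Affine L), ModelHyp A W → A.valuation W.a₄ < 1 → W.Δ ≠ 0 →
    ∃ (x y : L) (h : W.Nonsingular x y), p • Point.some x y h = 0 ∧ A.valuation x < 1

end Fermat.Agent.Tate.T6

end
-- ==== END Fermat.Agent.Tate.T6.Defs2

-- ==== BEGIN Fermat.Agent.BADP.H74_HDropEig
section

set_option autoImplicit false
set_option synthInstance.maxHeartbeats 400000
set_option maxHeartbeats 1000000

noncomputable section

open AlgebraicCurve ModularCurve

namespace Fermat.Agent.BADP.H74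

/-- The class of a degree-zero divisor is zero iff the divisor is principal. -/
theorem isPrincipal_of_mk_eq {K F : Type*} [Field K] [Field F] [Algebra K F]
    (D E : Divisor.degZero (K := K) (F := F)) (h : Pic0.mk D = Pic0.mk E) :
    ((D : Divisor K F) - (E : Divisor K F)).IsPrincipal := by
  have h1 : -D + E ∈ (Divisor.principal (K := K) (F := F)).addSubgroupOf
      (Divisor.degZero (K := K) (F := F)) := QuotientAddGroup.eq.mp h
  rw [AddSubgroup.mem_addSubgroupOf] at h1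
  have h2 := (Divisor.principal (K := K) (F := F)).neg_mem h1
  have h3 : -((-D + E : Divisor.degZero (K := K) (F := F)) : Divisor K F)
      = (D : Divisor K F) - (E : Divisor K F) := by
    push_cast
    abel
  rw [h3] at h2
  exact h2

theorem mk_zsmul {K F : Type*} [Field K] [Field F] [Algebra K F]
    (D : Divisor.degZero (K := K) (F := F)) (t : ℤ) :
    t • Pic0.mk D = Pic0.mk (t • D) := rfl

/-- The eigen-equation in `J₀(N)` gives the eigen-equation on divisors, up to a principal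
divisor. -/
theorem heig_of_eigen (N : ℕ) [NeZero N] (ℓ : ℕ) [NeZero ℓ] (hℓ : ℓ.Prime)
    (hα : HeckeAlphaBarIntegral (AlgebraicClosure ℚ) N ℓ)
    (hβ : HeckeBetaBarIntegral (AlgebraicClosure ℚ) N ℓ)
    [hP : HasPrincipalDivisors (AlgebraicClosure ℚ)
      (laurentBaseChange (AlgebraicClosure ℚ) (modularFunctionFieldFull (N * ℓ)))]
    (hfin : FiniteAlong (AlgebraicClosure ℚ) (heckeAlphaBar (AlgebraicClosure ℚ) N ℓ))
    (hFI : FundamentalIdentityAlong (AlgebraicClosure ℚ)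
      (heckeBetaBar (AlgebraicClosure ℚ) N ℓ) hβ)
    (hN : NormFormulaAlong (AlgebraicClosure ℚ) (heckeAlphaBar (AlgebraicClosure ℚ) N ℓ) hfin)
    (D : Divisor.degZero (K := AlgebraicClosure ℚ) (F := ↥(Fermat.Agent.BAD.FNbar N))) (t : ℤ)
    (h : heckeOperatorBar N ⟨ℓ, hℓ⟩ (Pic0.mk D) = t • Pic0.mk D) :
    (Divisor.correspondence (heckeBetaBar (AlgebraicClosure ℚ) N ℓ)
      (heckeAlphaBar (AlgebraicClosure ℚ) N ℓ) hβ hα
        (D : Divisor (AlgebraicClosure ℚ) ↥(Fermat.Agent.BAD.FNbar N))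
      - t • (D : Divisor (AlgebraicClosure ℚ) ↥(Fermat.Agent.BAD.FNbar N))).IsPrincipal := by
  have h1 := Fermat.Agent.Lib.HeckeComm.heckeOperatorBar_mk N ⟨ℓ, hℓ⟩ hα hβ hP hfin hFI hN D
  rw [h1, mk_zsmul] at h
  have h2 := isPrincipal_of_mk_eq _ _ h
  exact h2

end Fermat.Agent.BADP.H74

end
end
-- ==== END Fermat.Agent.BADP.H74_HDropEig

-- ==== BEGIN Fermat.Agent.BADP.ModP
section
attribute [local instance 10000] SubalgebraClass.toAlgebra
attribute [local instance 10000] HahnSeries.powerSeriesAlgebra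

set_option autoImplicit false
set_option synthInstance.maxHeartbeats 400000
set_option maxHeartbeats 1000000

noncomputable section

open AlgebraicCurve ModularCurve

namespace Fermat.Agent.BADP

open Fermat.Agent.BAD Fermat.Agent.S44 Fermat.Agent.S43.BadQ Fermat.Agent.S28.H73
  Fermat.Agent.RED.H73

/-- The reduced function field of level `N` at `A` (the function field of the component of `∞`
of the reduction). -/
abbrev RedF (A : ValuationSubring (AlgebraicClosure ℚ)) (N : ℕ) : Type :=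
  ↥(redField A (FNbar N) (hasScale_laurentBaseChange A N))

section Datum

variable (A : ValuationSubring (AlgebraicClosure ℚ)) (p M : ℕ) (a b : ℤ)
  (hab : a * p + b * M = 1) (hp : p.Prime) [NeZero (M * p)]

/-- **The modular semistable Deuring datum at `p`, with its fields exposed.** -/
structure IsModDatum
    (S : SSD (AlgebraicClosure ℚ) ↥(FNbar (M * p)) (kV A) (RedF A (M * p)) (RedF A (M * p))) :
    Prop where
  /-- the first valuation ring is the Gauss valuation ring -/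
  mem₁ : ∀ f : ↥(FNbar (M * p)), f ∈ S.c₁.V ↔ f ∈ gaussV A (M * p)
  /-- the first reduction is the Gauss reduction -/
  red₁ : ∀ (f : ↥(gaussV A (M * p))) (hf : (f : ↥(FNbar (M * p))) ∈ S.c₁.V),
    S.c₁.red ⟨(f : ↥(FNbar (M * p))), hf⟩ = gaussRes A (M * p) f
  /-- the second valuation ring is `V₁ ∘ w_p` -/
  mem₂ : ∀ f : ↥(FNbar (M * p)), f ∈ S.c₂.V ↔ wS p M a b hab hp • f ∈ gaussV A (M * p)
  /-- the second reduction is `gaussRes ∘ w_p` -/
  red₂ : ∀ (f : ↥(FNbar (M * p))) (hf : f ∈ S.c₂.V)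
    (hf' : wS p M a b hab hp • f ∈ gaussV A (M * p)),
    S.c₂.red ⟨f, hf⟩ = gaussRes A (M * p) ⟨wS p M a b hab hp • f, hf'⟩
  /-- Riemann's theorem -/
  ff : RED.H17.FFHyp (AlgebraicClosure ℚ) ↥(FNbar (M * p))
  ff₁ : RED.H17.FFHyp (kV A) (RedF A (M * p))
  genus : ∃ (g g₁ : ℕ) (c c₁ : ℤ), RED.H17.IsGenus (AlgebraicClosure ℚ) ↥(FNbar (M * p)) g c ∧
    RED.H17.IsGenus (kV A) (RedF A (M * p)) g₁ c₁ ∧ g + 1 ≤ g₁ + g₁ + S.nodes.card
  /-- the inertia group acts inertially -/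
  inertial : ∀ σ ∈ A.inertiaSubgroupIn ℚ, S.IsInertial (galF (M * p) σ)

end Datum

/-- **(MOD-P)**: the modular semistable Deuring datum at `p ≥ 5`, `p ∤ M`, exists.
Proof: `BAD.H91.modSSD_body` (with `BAD.H23.tot_mod`), keeping `S := T.toSSD …` explicit; the
four identifications are definitional (`H91.vred1`, `H91.vred2`, `H88.mem_V2_iff`,
`H88.red2_mk`), `wS • f = wq f`. -/
def Stmt_ModP : Prop :=
  ∀ (p : ℕ), 5 ≤ p → ∀ (M : ℕ) (a b : ℤ) (hab : a * p + b * M = 1) (hp : p.Prime)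
    [NeZero (M * p)],
    ∀ A : ValuationSubring (AlgebraicClosure ℚ), A.LiesOverPrime p →
      ∃ S : SSD (AlgebraicClosure ℚ) ↥(FNbar (M * p)) (kV A) (RedF A (M * p)) (RedF A (M * p)),
        IsModDatum A p M a b hab hp S

/-- **(CUSP)**: the cusps of the reduction (the poles of `j~`) are good places of the first
component, for every modular datum.  (helper21's general-level form of helper69's CUSP leaf.) -/
def Stmt_CuspGoodP : Prop :=
  ∀ (p : ℕ), 5 ≤ p → ∀ (M : ℕ) (a b : ℤ) (hab : a * p + b * M = 1) (hp : p.Prime)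
    [NeZero (M * p)],
    ∀ A : ValuationSubring (AlgebraicClosure ℚ), A.LiesOverPrime p →
    ∀ S : SSD (AlgebraicClosure ℚ) ↥(FNbar (M * p)) (kV A) (RedF A (M * p)) (RedF A (M * p)),
      IsModDatum A p M a b hab hp S →
      ∀ Q : Place (kV A) (RedF A (M * p)),
        Q.ord (Fermat.Agent.BAD.H91.jRed A (M * p)) < 0 → Q ∈ S.c₁.good

end Fermat.Agent.BADP

end
end
-- ==== END Fermat.Agent.BADP.ModP

-- ==== BEGIN Fermat.Agent.S17.W2.H75_GeoFinal
section

/-!
# S17-W2: GEO and the `n`-divisibility of `J₀(N)(ℚ̄)` (helper75, wiring of helper8 + helper18)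

* `geoInput`: `Stmt_Gb` and `Stmt_E4` for all intermediate fields of `Ω / ℚ̄`;
* `stmt_GEO : Stmt_GEO Ω N` for `Ω` algebraically closed of characteristic `0`;
* `stmt_divisible : S17.Stmt_divisible N n` for `n ≠ 0` (package W2 of S17, unconditional).
-/

set_option autoImplicit false
set_option linter.style.haveILetI false
set_option linter.unusedSectionVars false

noncomputable section

namespace Fermat.Agent.S17.W2.H75

open AlgebraicCurve IntermediateField ModularCurve Fermat.Agent.GTor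

section Geo

variable (Ω : Type) [Field Ω] [Algebra ℚ Ω] [Algebra (AlgebraicClosure ℚ) Ω] (N : ℕ) [NeZero N]
  [IsAlgClosed Ω] [CharZero Ω]

set_option synthInstance.maxHeartbeats 400000 in
set_option maxHeartbeats 1600000 in
theorem geoInput : H18.GeoInput Ω N := fun K =>
  ⟨stmt_Gb K N, stmt_E4 N (stmt_Gb K N)⟩

/-- **GEO**. -/
theorem stmt_GEO : Stmt_GEO Ω N := H18.stmt_GEO_of Ω N (geoInput Ω N)

end Geo

/-- **S17-W2**: `J₀(N)(ℚ̄)` is `n`-divisible. -/
theorem stmt_divisible (N n : ℕ) [NeZero N] (hn : n ≠ 0) :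
    Fermat.Agent.S17.Stmt_divisible N n :=
  stmt_divisible_of N n hn fun _ => stmt_GEO ℂ N

end Fermat.Agent.S17.W2.H75

end
end
-- ==== END Fermat.Agent.S17.W2.H75_GeoFinal

-- ==== BEGIN Fermat.Agent.S44.H66_GoodRoot
section

set_option autoImplicit false

noncomputable section

namespace Fermat.Agent.S44.H66

open Fermat.Agent.S44 Fermat.Agent.BADP.H97

/-- Powers of `σ` with `σ ζ = ζ`, `σ ω = ζ ω`. -/
theorem pow_apply_of {σ : AlgebraicClosure ℚ ≃ₐ[ℚ] AlgebraicClosure ℚ}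
    {ζ ω : AlgebraicClosure ℚ} (hζ : σ ζ = ζ) (hω : σ ω = ζ * ω) (m : ℕ) :
    (σ ^ m) ζ = ζ ∧ (σ ^ m) ω = ζ ^ m * ω := by
  induction m with
  | zero =>
    refine ⟨rfl, ?_⟩
    rw [pow_zero, pow_zero, one_mul]
    rfl
  | succ k ih =>
    obtain ⟨h1, h2⟩ := ih
    constructor
    · rw [pow_succ, AlgEquiv.mul_apply, hζ, h1]
    · rw [pow_succ, AlgEquiv.mul_apply, hω, map_mul, h1, h2]
      ring

/-- **(GOOD-ROOT)** (helper66). -/
theorem stmt_GoodRoot : Stmt_GoodRoot := by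
  intro p hp hp2 A hA u hu
  have : NeZero ((p : ℕ) : AlgebraicClosure ℚ) := ⟨Nat.cast_ne_zero.2 hp.ne_zero⟩
  have : NeZero p := ⟨hp.ne_zero⟩
  obtain ⟨ζ, hζ⟩ := HasEnoughRootsOfUnity.exists_primitiveRoot (AlgebraicClosure ℚ) p
  obtain ⟨τ', hτ', ζ', hζ', hne'⟩ := stmt_CycRam p hp hp2 A hA
  rcases karith_dichotomy hp hp2 hA u hu hζ with
    ⟨z, hzK, hz⟩ | ⟨t, ω, σ, htK, ht, htω, hσ, hK⟩
  · exact ⟨z, hz, τ', hτ', (mem_K0.1 hzK) τ' hτ', ζ', hζ', hne'⟩
  · -- `τ'` moves `ζ`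
    have hτζ : τ' ζ ≠ ζ := by
      intro h
      obtain ⟨k, -, hk⟩ := hζ.eq_pow_of_pow_eq_one hζ'
      apply hne'
      rw [← hk, map_pow, h]
    have hu0 : (u : AlgebraicClosure ℚ) ≠ 0 := by
      intro h0
      have : u = 0 := by exact_mod_cast h0
      exact hu (this ▸ dvd_zero _)
    have hω0 : ω ≠ 0 := by
      rintro rfl
      rw [mul_zero, zero_pow hp.ne_zero] at htω
      exact hu0 htω.symm
    have hσζ : σ ζ = ζ := hK.σζ
    have hσω : σ ω = ζ * ω := hK.σω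
    -- `τ' ω = ζ ^ j ω`
    obtain ⟨u1, hu1K, -, hωp⟩ := hK.pow
    have hfixc : τ' (1 + (p : AlgebraicClosure ℚ) * u1) = 1 + (p : AlgebraicClosure ℚ) * u1 :=
      (mem_K0.1 (add_mem (one_mem _) (mul_mem (natCast_mem_K0 p) hu1K))) τ' hτ'
    have hτω : (τ' ω / ω) ^ p = 1 := by
      rw [div_pow, ← map_pow, hωp, hfixc, div_self]
      rw [← hωp]
      exact pow_ne_zero _ hω0
    obtain ⟨j, hj, hjζ⟩ := hζ.eq_pow_of_pow_eq_one hτω
    have hτω' : τ' ω = ζ ^ j * ω := by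
      rw [hjζ, div_mul_cancel₀ _ hω0]
    -- `τ' ζ = ζ ^ n`
    have hτζp : (τ' ζ) ^ p = 1 := by rw [← map_pow, hζ.pow_eq_one, map_one]
    obtain ⟨n, -, hn⟩ := hζ.eq_pow_of_pow_eq_one hτζp
    obtain ⟨h1, h2⟩ := pow_apply_of hσζ hσω (p - j)
    have hτ₀ : σ ^ (p - j) * τ' ∈ A.inertiaSubgroupIn ℚ :=
      Subgroup.mul_mem _ (Subgroup.pow_mem _ hσ _) hτ'
    have hτ₀ω : (σ ^ (p - j) * τ') ω = ω := by
      rw [AlgEquiv.mul_apply, hτω', map_mul, map_pow, h1, h2, ← mul_assoc, ← pow_add,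
        Nat.add_sub_cancel' hj.le, hζ.pow_eq_one, one_mul]
    refine ⟨t * ω, htω, σ ^ (p - j) * τ', hτ₀, ?_, ζ, hζ.pow_eq_one, ?_⟩
    · rw [map_mul, hτ₀ω, (mem_K0.1 htK) _ hτ₀]
    · rw [AlgEquiv.mul_apply, ← hn, map_pow, h1, hn]
      exact hτζ

end Fermat.Agent.S44.H66

end
end
-- ==== END Fermat.Agent.S44.H66_GoodRoot

-- ==== BEGIN Fermat.Agent.Tate.T6.H97_Root
section

set_option autoImplicit false

namespace Fermat.Agent.Tate.T6.H97

open WeierstrassCurve WeierstrassCurve.Affine Polynomial IsLocalRing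
open Fermat.Agent.S05 (ModelHyp)
open Fermat.Agent.Lib.TorsionGen
open Fermat.Agent.Lib.EllFinite

section valpoly

variable {L : Type*} [Field L] (A : ValuationSubring L)

/-- A product of linear factors `X - ξ` with `1 ≤ |ξ|`: the constant coefficient dominates. -/
lemma coeff_prod_le (s : Multiset L) (hs : ∀ ξ ∈ s, 1 ≤ A.valuation ξ) (i : ℕ) :
    A.valuation ((s.map (fun ξ => X - C ξ)).prod.coeff i) ≤
      A.valuation ((s.map (fun ξ => X - C ξ)).prod.coeff 0) := by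
  induction s using Multiset.induction_on generalizing i with
  | empty =>
    rw [Multiset.map_zero, Multiset.prod_zero]
    by_cases hi : i = 0
    · rw [hi]
    · rw [coeff_one, if_neg hi, map_zero]
      exact zero_le
  | cons ξ t ih =>
    rw [Multiset.map_cons, Multiset.prod_cons]
    have hξ : 1 ≤ A.valuation ξ := hs ξ (Multiset.mem_cons_self ξ t)
    have iht : ∀ j, A.valuation ((t.map (fun ξ => X - C ξ)).prod.coeff j) ≤
        A.valuation ((t.map (fun ξ => X - C ξ)).prod.coeff 0) :=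
      fun j => ih (fun η hη => hs η (Multiset.mem_cons_of_mem hη)) j
    set P := (t.map (fun ξ => X - C ξ)).prod with hP
    have h0 : ((X - C ξ) * P).coeff 0 = -ξ * P.coeff 0 := by
      rw [mul_coeff_zero, coeff_sub, coeff_X_zero, coeff_C_zero, zero_sub]
    have hv0 : A.valuation (((X - C ξ) * P).coeff 0) = A.valuation ξ * A.valuation (P.coeff 0) := by
      rw [h0, map_mul, Valuation.map_neg]
    rw [hv0]
    have hle : A.valuation (P.coeff 0) ≤ A.valuation ξ * A.valuation (P.coeff 0) := by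
      calc A.valuation (P.coeff 0) = 1 * A.valuation (P.coeff 0) := (one_mul _).symm
        _ ≤ A.valuation ξ * A.valuation (P.coeff 0) := mul_le_mul' hξ le_rfl
    cases i with
    | zero => rw [hv0]
    | succ j =>
      have hj : ((X - C ξ) * P).coeff (j + 1) = P.coeff j - ξ * P.coeff (j + 1) := by
        rw [sub_mul, coeff_sub, coeff_X_mul, coeff_C_mul]
      rw [hj]
      refine (Valuation.map_sub _ _ _).trans (max_le ((iht j).trans hle) ?_)
      rw [map_mul]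
      exact mul_le_mul' le_rfl (iht (j + 1))

/-- A split polynomial all of whose roots have `1 ≤ |ξ|`: the constant coefficient dominates. -/
lemma coeff_le_coeff_zero_of_roots [IsAlgClosed L] (g : L[X])
    (hs : ∀ ξ ∈ g.roots, 1 ≤ A.valuation ξ) (i : ℕ) :
    A.valuation (g.coeff i) ≤ A.valuation (g.coeff 0) := by
  have hprod := (IsAlgClosed.splits g).eq_prod_roots
  have key := coeff_prod_le A g.roots hs i
  have e : ∀ j, g.coeff j =
      g.leadingCoeff * ((g.roots.map (fun ξ => X - C ξ)).prod).coeff j := by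
    intro j
    conv_lhs => rw [hprod]
    rw [coeff_C_mul]
  rw [e i, e 0, map_mul, map_mul]
  exact mul_le_mul' le_rfl key

end valpoly

/-- **T6-ROOT**. -/
theorem stmt_ROOT : Stmt_ROOT := by
  intro L _ _ _ _ A p hp hp2 hpv W hW hb hΔ
  classical
  have hfact : Fact p.Prime := ⟨hp⟩
  have hodd : ¬ Even p := fun h => hp2 ((Nat.Prime.even_iff hp).1 h)
  -- `|a| = 1`
  have h4 : A.valuation (4 : L) ≤ 1 := by
    have : (4 : L) = 2 * 2 := by norm_num
    rw [this, map_mul, hW.two, one_mul]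
  have h4b : A.valuation (4 * W.a₄) < 1 := by
    rw [map_mul]
    calc A.valuation (4 : L) * A.valuation W.a₄ ≤ 1 * A.valuation W.a₄ := mul_le_mul' h4 le_rfl
      _ = A.valuation W.a₄ := one_mul _
      _ < 1 := hb
  have hasq : A.valuation (W.a₂ ^ 2) = 1 := by
    have e : W.a₂ ^ 2 = (W.a₂ ^ 2 - 4 * W.a₄) + 4 * W.a₄ := by ring
    rw [e, Valuation.map_add_eq_of_lt_left _ (by rw [hW.disc]; exact h4b), hW.disc]
  have hav : A.valuation W.a₂ = 1 := by
    refine le_antisymm hW.a_le ?_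
    have h1 : A.valuation (W.a₂ ^ 2) ≤ A.valuation W.a₂ := by
      rw [pow_two, map_mul]
      calc A.valuation W.a₂ * A.valuation W.a₂ ≤ 1 * A.valuation W.a₂ :=
            mul_le_mul' hW.a_le le_rfl
        _ = A.valuation W.a₂ := one_mul _
    rw [hasq] at h1
    exact h1
  -- the model over `A`
  let aA : A := ⟨W.a₂, (A.valuation_le_one_iff _).1 hW.a_le⟩
  let bA : A := ⟨W.a₄, (A.valuation_le_one_iff _).1 hW.b_le⟩
  let WA : WeierstrassCurve A := ⟨0, aA, 0, bA, 0⟩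
  have hWA : WA.map (algebraMap A L) = W := by
    ext
    · show algebraMap A L 0 = W.a₁
      rw [map_zero, hW.a₁]
    · rfl
    · show algebraMap A L 0 = W.a₃
      rw [map_zero, hW.a₃]
    · rfl
    · show algebraMap A L 0 = W.a₆
      rw [map_zero, hW.a₆]
  have hres_b : residue A bA = 0 := (H4.res_eq_zero_iff bA).2 hb
  have hres_a : residue A aA ≠ 0 := (H4.res_ne_zero_iff aA).2 hav
  have hWk : WA.map (residue A) = nodal (residue A aA) := by
    ext
    · show residue A 0 = 0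
      rw [map_zero]
    · rfl
    · show residue A 0 = 0
      rw [map_zero]
    · exact hres_b
    · show residue A 0 = 0
      rw [map_zero]
  -- the residue field has characteristic `p`
  have hp0 : ((p : ℕ) : ResidueField A) = 0 := by
    have h1 : residue A ((p : ℕ) : A) = 0 := by
      apply (H4.res_eq_zero_iff _).2
      simpa using hpv
    simpa using h1
  have hchar : CharP (ResidueField A) p := (CharP.charP_iff_prime_eq_zero hp).2 hp0
  obtain ⟨c, hc, hDP⟩ := stmt_DP (ResidueField A) p hp2 (residue A aA) hres_a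
  set d₀ := (p ^ 2 - p) / 2 with hd₀
  have hd₀1 : 1 ≤ d₀ := by
    have h3 : 3 ≤ p := by
      have := hp.two_le
      omega
    have h6 : 6 ≤ p ^ 2 - p := by
      have : p ^ 2 = p * p := by ring
      have h9 : 3 * p ≤ p * p := Nat.mul_le_mul_right p h3
      omega
    omega
  set g₀ := WA.preΨ' p with hg₀
  have hg₀k : g₀.map (residue A) = C c * X ^ d₀ := by
    rw [hg₀, ← map_preΨ', hWk, hDP]
  have hgL : g₀.map (algebraMap A L) = W.preΨ' p := by
    rw [hg₀, ← map_preΨ', hWA]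
  have hcoeff_d : A.valuation ((W.preΨ' p).coeff d₀) = 1 := by
    rw [← hgL, coeff_map]
    apply (H4.res_ne_zero_iff _).1
    rw [← coeff_map, hg₀k, coeff_C_mul, coeff_X_pow, if_pos rfl, mul_one]
    exact hc
  have hcoeff_0 : A.valuation ((W.preΨ' p).coeff 0) < 1 := by
    rw [← hgL, coeff_map]
    apply (H4.res_eq_zero_iff _).1
    rw [← coeff_map, hg₀k, coeff_C_mul, coeff_X_pow, if_neg (by omega), mul_zero]
  -- a small root
  obtain ⟨ξ, hξ, hξv⟩ : ∃ ξ ∈ (W.preΨ' p).roots, A.valuation ξ < 1 := by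
    by_contra hcon
    have hall : ∀ ξ ∈ (W.preΨ' p).roots, 1 ≤ A.valuation ξ :=
      fun ξ hξ => not_lt.1 (fun h => hcon ⟨ξ, hξ, h⟩)
    have key := coeff_le_coeff_zero_of_roots A (W.preΨ' p) hall d₀
    rw [hcoeff_d] at key
    exact absurd key (not_le.2 hcoeff_0)
  have hroot : (W.preΨ' p).eval ξ = 0 := (mem_roots'.1 hξ).2
  obtain ⟨y, hy⟩ := IsAlgClosed.exists_pow_nat_eq (ξ ^ 3 + W.a₂ * ξ ^ 2 + W.a₄ * ξ) (n := 2)
    (by norm_num)
  have heq : W.Equation ξ y :=
    (Fermat.Agent.S05.legendre_equation_iff hW.a₁ hW.a₃ hW.a₆ ξ y).2 hy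
  have hns : W.Nonsingular ξ y := (equation_iff_nonsingular_of_Δ_ne_zero hΔ).1 heq
  exact ⟨ξ, y, hns, (nsmul_eq_zero_iff_eval_preΨ' hns hodd).2 hroot, hξv⟩

end Fermat.Agent.Tate.T6.H97

end
-- ==== END Fermat.Agent.Tate.T6.H97_Root
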