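-- GENERATED (merged mirror, NOTES/tools/trim/merge3_helper67.py): 10 modules of the originals, bodies verbatim.
import Mathlib
import Fermat.Prelude.Def_GaloisRep_ComplexConjugation
import Fermat.Agent.Zm.S33_L02_001
import Fermat.Agent.Zm.S44_L12_000
import Fermat.Agent.Zm.S35_L12_000
import Fermat.Agent.Zm.S35_L09_001
import Fermat.Agent.Zm.S44_L01_002
import Fermat.Agent.Zm.S56_L04_000
import Fermat.Agent.Zm.S35_L01_003
import Fermat.Agent.Zm.S35_L03_006
import Fermat.Agent.Zm.S35_L02_001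

-- ==== BEGIN Fermat.Agent.S15.Desc.H69_Count
section

/-!
# S15 / DESC: two counting lemmas for ASM (helper69)

* `finrank_sup_span_of_indep_mod` : if the family `u` is linearly independent modulo the
  finite-dimensional subspace `B`, then `dim (B + span u) = dim B + #u`.
* `exists_lifts_mod_r` : a finite abelian group `H` has elements `h_1, …, h_m`, where
  `r^m = #H[r]`, which are independent modulo `r H`.
-/

set_option autoImplicit false

namespace Fermat.Agent.S15.Desc

open Module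

theorem finrank_sup_span_of_indep_mod {K E ι : Type*} [Field K] [AddCommGroup E] [Module K E]
    [Fintype ι] (B : Submodule K E) [Module.Finite K B] (u : ι → E)
    (hu : ∀ c : ι → K, ∑ i, c i • u i ∈ B → ∀ i, c i = 0) :
    ∃ _ : Module.Finite K ↥(B ⊔ Submodule.span K (Set.range u)),
      finrank K ↥(B ⊔ Submodule.span K (Set.range u)) = finrank K B + Fintype.card ι := by
  haveI : Module.Finite K ↥(Submodule.span K (Set.range u)) :=
    FiniteDimensional.span_of_finite K (Set.finite_range u)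
  haveI hfin : Module.Finite K ↥(B ⊔ Submodule.span K (Set.range u)) := inferInstance
  refine ⟨hfin, ?_⟩
  set T := B ⊔ Submodule.span K (Set.range u) with hT
  have hrn := finrank_eq_map_add_inf_ker T B.mkQ
  have hmap : T.map B.mkQ = Submodule.span K (Set.range (fun i => B.mkQ (u i))) := by
    rw [hT, Submodule.map_sup, Submodule.map_span, ← Set.range_comp]
    have : B.map B.mkQ = ⊥ := by
      rw [eq_bot_iff]
      rintro _ ⟨b, hb, rfl⟩
      rw [Submodule.mem_bot, Submodule.mkQ_apply, Submodule.Quotient.mk_eq_zero]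
      exact hb
    rw [this, bot_sup_eq]
    rfl
  have hli : LinearIndependent K (fun i => B.mkQ (u i)) := by
    rw [Fintype.linearIndependent_iff]
    intro c hc
    refine hu c ?_
    have h1 : B.mkQ (∑ i, c i • u i) = 0 := by
      rw [map_sum]
      simpa only [map_smul] using hc
    rwa [Submodule.mkQ_apply, Submodule.Quotient.mk_eq_zero] at h1
  have hker : T ⊓ LinearMap.ker B.mkQ = B := by
    rw [Submodule.ker_mkQ]
    exact inf_eq_right.mpr le_sup_left
  rw [hmap, finrank_span_eq_card hli, hker] at hrn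
  omega

/-- Auxiliary form of `exists_lifts_mod_r`, with the quotient `H / rH` given as a vector space. -/
theorem exists_lifts_mod_r_aux {H Q : Type*} [AddCommGroup H] [Finite H] (r : ℕ)
    [hr : Fact r.Prime] [AddCommGroup Q] [Module (ZMod r) Q] [Finite Q] (q : H →+ Q)
    (hq : Function.Surjective q)
    (hcard : Nat.card Q = Nat.card {h : H // r • h = 0}) :
    ∃ (m : ℕ) (hs : Fin m → H), r ^ m = Nat.card {h : H // r • h = 0} ∧
      ∀ a : Fin m → ℕ, (∃ h' : H, ∑ i, a i • hs i = r • h') → ∀ i, r ∣ a i := by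
  classical
  have : NeZero r := ⟨hr.out.ne_zero⟩
  have hfinQ : Module.Finite (ZMod r) Q := Module.Finite.of_finite
  have h7 : Nat.card Q = r ^ finrank (ZMod r) Q := by
    rw [Module.natCard_eq_pow_finrank (K := ZMod r), Nat.card_zmod]
  let b := Module.finBasis (ZMod r) Q
  choose lift hlift using hq
  refine ⟨finrank (ZMod r) Q, fun i => lift (b i), ?_, ?_⟩
  · rw [← h7, hcard]
  · rintro a ⟨h', hh'⟩ i
    have h8 : q (∑ i, a i • lift (b i)) = 0 := by
      rw [hh', map_nsmul]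
      have : (r : ZMod r) • q h' = 0 := by rw [ZMod.natCast_self, zero_smul]
      rwa [Nat.cast_smul_eq_nsmul] at this
    rw [map_sum] at h8
    have h9 : ∑ i, ((a i : ℕ) : ZMod r) • b i = 0 := by
      rw [← h8]
      refine Finset.sum_congr rfl fun i _ => ?_
      rw [map_nsmul, hlift, Nat.cast_smul_eq_nsmul]
    have h10 := (Fintype.linearIndependent_iff.mp b.linearIndependent)
      (fun i => ((a i : ℕ) : ZMod r)) h9 i
    exact (ZMod.natCast_eq_zero_iff (a i) r).mp h10

/-- A finite abelian group has `m` elements independent modulo `r`, where `r^m = #H[r]`. -/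
theorem exists_lifts_mod_r {H : Type*} [AddCommGroup H] [Finite H] (r : ℕ) [hr : Fact r.Prime] :
    ∃ (m : ℕ) (hs : Fin m → H), r ^ m = Nat.card {h : H // r • h = 0} ∧
      ∀ a : Fin m → ℕ, (∃ h' : H, ∑ i, a i • hs i = r • h') → ∀ i, r ∣ a i := by
  classical
  have h1 : Nat.card H = Nat.card (H ⧸ (nsmulAddMonoidHom (α := H) r).range) *
      Nat.card (nsmulAddMonoidHom (α := H) r).range :=
    AddSubgroup.card_eq_card_quotient_mul_card_addSubgroup _
  have h2 : Nat.card H = Nat.card (H ⧸ (nsmulAddMonoidHom (α := H) r).ker) *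
      Nat.card (nsmulAddMonoidHom (α := H) r).ker :=
    AddSubgroup.card_eq_card_quotient_mul_card_addSubgroup _
  have h3 : Nat.card (H ⧸ (nsmulAddMonoidHom (α := H) r).ker) =
      Nat.card (nsmulAddMonoidHom (α := H) r).range :=
    Nat.card_congr (QuotientAddGroup.quotientKerEquivRange _).toEquiv
  have h4 : 0 < Nat.card (nsmulAddMonoidHom (α := H) r).range := Nat.card_pos
  have h5 : Nat.card (H ⧸ (nsmulAddMonoidHom (α := H) r).range) =
      Nat.card (nsmulAddMonoidHom (α := H) r).ker := by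
    have : Nat.card (H ⧸ (nsmulAddMonoidHom (α := H) r).range) *
        Nat.card (nsmulAddMonoidHom (α := H) r).range =
        Nat.card (nsmulAddMonoidHom (α := H) r).ker *
        Nat.card (nsmulAddMonoidHom (α := H) r).range := by
      rw [← h1, h2, h3, mul_comm]
    exact Nat.eq_of_mul_eq_mul_right h4 this
  have h6 : Nat.card (nsmulAddMonoidHom (α := H) r).ker = Nat.card {h : H // r • h = 0} := rfl
  letI : Module (ZMod r) (H ⧸ (nsmulAddMonoidHom (α := H) r).range) :=
    QuotientAddGroup.zmodModule (fun x => ⟨x, rfl⟩)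
  exact exists_lifts_mod_r_aux r (QuotientAddGroup.mk' (nsmulAddMonoidHom (α := H) r).range)
    (QuotientAddGroup.mk'_surjective _) (h5.trans h6)

end Fermat.Agent.S15.Desc

end
-- ==== END Fermat.Agent.S15.Desc.H69_Count

-- ==== BEGIN Fermat.Agent.S15.Desc.H69_DivAll
section

/-!
# S15 / DESC: `J₀(N)(ℚ̄)` is divisible (helper69)

`S17.Stmt_divisible N n` is stated for Galois-fixed points only, but its proof
(`S17.W2.stmt_divisible_of`) never uses that hypothesis.  Here is the statement for all points: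

* `jzero_divisible_all : n ≠ 0 → ∀ x : JZero N, ∃ y, n • y = x`;
* `jzero_tors_divisible : m ≠ 0 → n • x = 0 → ∃ y, m • y = x ∧ (m * n) • y = 0`
  (`J[n] = m · J[m n]`).
-/

set_option autoImplicit false

noncomputable section

namespace Fermat.Agent.S15.Desc

open AlgebraicCurve ModularCurve Fermat.Agent.GTor Fermat.Agent.S17.W2

/-- **`J₀(N)(ℚ̄)` is `n`-divisible** (all points, not only the rational ones). -/
theorem jzero_divisible_all (N n : ℕ) [NeZero N] (hn : n ≠ 0) (x : JZero N) :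
    ∃ y : JZero N, n • y = x := by
  have : Algebra.IsAlgebraic ℚ (AlgebraicClosure ℚ) := AlgebraicClosure.isAlgebraic ℚ
  let inst : Algebra (AlgebraicClosure ℚ) ℂ :=
    (IsAlgClosed.lift : AlgebraicClosure ℚ →ₐ[ℚ] ℂ).toRingHom.toAlgebra
  obtain ⟨S, hj, hstab, htrans⟩ := H75.stmt_GEO ℂ N
  have hcore := stmt_Core_of S n (H56.stmt_FT1 _ _) (H41.stmt_FT4 _ _) (H41.stmt_FT5 _ _)
    (H41.stmt_FT6 _ _)
    (isFF_complex N) hj big_complex hstab htrans (torsion_finite_complex N n hn)
  exact H75.stmt_A N n hn hcore x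

/-- `J[n] = m · J[m n]`. -/
theorem jzero_tors_divisible (N m n : ℕ) [NeZero N] (hm : m ≠ 0) {x : JZero N}
    (hx : n • x = 0) : ∃ y : JZero N, m • y = x ∧ (m * n) • y = 0 := by
  obtain ⟨y, hy⟩ := jzero_divisible_all N m hm x
  refine ⟨y, hy, ?_⟩
  rw [mul_comm, mul_smul, hy, hx]

end Fermat.Agent.S15.Desc

end
end
-- ==== END Fermat.Agent.S15.Desc.H69_DivAll

-- ==== BEGIN Fermat.Agent.S15.Desc.H69_Kolchin
section

/-!
# S15 / DESC: Kolchin-type lemma (package CONST, algebra; helper69)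

`r` a prime, `Q` a nonzero finite `𝔽_r`-vector space with a representation `ρ` of a group `G`,
`c : G →* 𝔽_rˣ` a character.  If every `σ ∈ G` satisfies `((σ - 1)(σ - c σ))^N = 0` on `Q`, then
there is a nonzero vector `q` on which `G` acts by the trivial character or by `c`
(`exists_eigenvector`).

* `exists_fixed_ne_zero` : a group whose elements act with `r`-power order on a nonzero finite
  abelian group killed by `r` has a nonzero fixed vector.
-/

set_option autoImplicit false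

namespace Fermat.Agent.S15.Desc

/-- A group all of whose elements act with `r`-power order on a nontrivial finite abelian group
killed by `r` has a nonzero fixed vector. -/
theorem exists_fixed_ne_zero {H Q : Type*} [Group H] [AddCommGroup Q] [Finite Q] [Nontrivial Q]
    [DistribMulAction H Q] (r : ℕ) [hr : Fact r.Prime] (hQ : ∀ q : Q, r • q = 0)
    (hun : ∀ h : H, ∃ k : ℕ, ∀ q : Q, (h ^ (r ^ k)) • q = q) :
    ∃ q : Q, q ≠ 0 ∧ ∀ h : H, h • q = q := by
  classical
  let f : H →* Equiv.Perm Q := MulAction.toPermHom H Q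
  have hP : IsPGroup r f.range := by
    rintro ⟨g, h, rfl⟩
    obtain ⟨k, hk⟩ := hun h
    refine ⟨k, Subtype.ext ?_⟩
    show (f h) ^ (r ^ k) = 1
    rw [← map_pow]
    ext q
    exact hk q
  have hcard : r ∣ Nat.card Q := by
    obtain ⟨q, hq⟩ := exists_ne (0 : Q)
    have h1 : addOrderOf q ∣ r := addOrderOf_dvd_of_nsmul_eq_zero (hQ q)
    have h2 : addOrderOf q = r := by
      rcases (Nat.dvd_prime hr.out).mp h1 with h | h
      · exact absurd (AddMonoid.addOrderOf_eq_one_iff.mp h) hq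
      · exact h
    rw [← h2]
    exact addOrderOf_dvd_natCard q
  have h0 : (0 : Q) ∈ MulAction.fixedPoints f.range Q := by
    rintro ⟨g, h, rfl⟩
    show f h 0 = 0
    exact smul_zero h
  obtain ⟨b, hb, hb0⟩ := hP.exists_fixed_point_of_prime_dvd_card_of_fixed_point Q hcard h0
  refine ⟨b, fun h => hb0 h.symm, fun h => ?_⟩
  exact hb ⟨f h, h, rfl⟩

section Eigen

variable {r : ℕ} [hr : Fact r.Prime] {G Q : Type*} [Group G] [AddCommGroup Q]
  [Module (ZMod r) Q]

/-- If `(ρ h - 1)^M = 0` then `ρ (h ^ r^k) = 1` for `r^k ≥ M`. -/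
theorem rep_pow_eq_one_of_unipotent [Nontrivial Q] (ρ : Representation (ZMod r) G Q) (h : G)
    (M : ℕ) (hM : (ρ h - 1) ^ M = 0) : ∃ k : ℕ, ρ (h ^ (r ^ k)) = 1 := by
  have : CharP (Module.End (ZMod r) Q) r :=
    charP_of_injective_algebraMap (algebraMap (ZMod r) (Module.End (ZMod r) Q)).injective r
  obtain ⟨k, hk⟩ : ∃ k : ℕ, M ≤ r ^ k := ⟨M, (Nat.lt_pow_self hr.out.one_lt).le⟩
  refine ⟨k, ?_⟩
  have h1 : (ρ h - 1) ^ (r ^ k) = 0 := by
    rw [← Nat.sub_add_cancel hk, pow_add, hM, mul_zero]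
  rw [sub_pow_char_pow_of_commute r k (Commute.one_right _), one_pow, sub_eq_zero] at h1
  rw [map_pow]
  exact h1

/-- **Kolchin-type lemma.** -/
theorem exists_eigenvector [Finite Q] [Nontrivial Q] (ρ : Representation (ZMod r) G Q)
    (c : G →* (ZMod r)ˣ)
    (hES : ∀ σ : G, ∃ N : ℕ, ((ρ σ - 1) * (ρ σ - ((c σ : (ZMod r)ˣ) : ZMod r) • 1)) ^ N = 0) :
    ∃ q : Q, q ≠ 0 ∧
      ((∀ σ : G, ρ σ q = q) ∨ (∀ σ : G, ρ σ q = ((c σ : (ZMod r)ˣ) : ZMod r) • q)) := by
  classical
  -- Step 1: the kernel of `c` has a nonzero fixed vector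
  let H : Subgroup G := c.ker
  let _iH : DistribMulAction H Q :=
    DistribMulAction.compHom Q ((ρ : G →* Module.End (ZMod r) Q).comp H.subtype)
  have hsm : ∀ (h : H) (q : Q), h • q = ρ (h : G) q := fun h q => rfl
  have hQ : ∀ q : Q, r • q = 0 := by
    intro q
    have : ((r : ZMod r)) • q = 0 := by rw [ZMod.natCast_self, zero_smul]
    rwa [Nat.cast_smul_eq_nsmul] at this
  have hun : ∀ h : H, ∃ k : ℕ, ∀ q : Q, (h ^ (r ^ k)) • q = q := by
    intro h
    obtain ⟨N, hN⟩ := hES (h : G)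
    have hc : c (h : G) = 1 := h.2
    rw [hc, Units.val_one, one_smul, ← pow_two, ← pow_mul] at hN
    obtain ⟨k, hk⟩ := rep_pow_eq_one_of_unipotent ρ (h : G) _ hN
    refine ⟨k, fun q => ?_⟩
    rw [hsm]
    show ρ ((h : G) ^ (r ^ k)) q = q
    rw [hk]
    rfl
  obtain ⟨q₀, hq₀, hfix₀⟩ := exists_fixed_ne_zero r hQ hun
  -- the fixed space of `H`
  let F : Submodule (ZMod r) Q :=
    { carrier := {q | ∀ h : G, c h = 1 → ρ h q = q}
      add_mem' := fun {a b} ha hb h hh => by rw [map_add, ha h hh, hb h hh]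
      zero_mem' := fun h _ => map_zero _
      smul_mem' := fun a q hq h hh => by rw [map_smul, hq h hh] }
  have hFmem : ∀ q : Q, q ∈ F ↔ ∀ h : G, c h = 1 → ρ h q = q := fun q => Iff.rfl
  have hq₀F : q₀ ∈ F := fun h hh => hfix₀ ⟨h, hh⟩
  have hFstab : ∀ (σ : G) (q : Q), q ∈ F → ρ σ q ∈ F := by
    intro σ q hq h hh
    have h1 : c (σ⁻¹ * h * σ) = 1 := by
      rw [map_mul, map_mul, hh, mul_one, map_inv, inv_mul_cancel]
    have h2 := hq _ h1
    have h3 : ρ h (ρ σ q) = ρ σ (ρ (σ⁻¹ * h * σ) q) := by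
      have h4 : ρ h * ρ σ = ρ σ * ρ (σ⁻¹ * h * σ) := by
        rw [← map_mul, ← map_mul]
        congr 1
        group
      exact LinearMap.congr_fun h4 q
    rw [h3, h2]
  -- Step 2: a generator of the image of `c`
  obtain ⟨⟨g₀, σ₁, hσ₁⟩, hgen⟩ := IsCyclic.exists_generator (α := c.range)
  have hgen' : ∀ σ : G, ∃ k : ℤ, c σ = c σ₁ ^ k := by
    intro σ
    have := hgen ⟨c σ, σ, rfl⟩
    rw [Subgroup.mem_zpowers_iff] at this
    obtain ⟨k, hk⟩ := this
    refine ⟨k, ?_⟩
    have h1 := congrArg Subtype.val hk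
    simp only [Subgroup.coe_zpow] at h1
    rw [← h1, hσ₁]
  -- Step 3: an eigenvector of `σ₁` in `F`
  set c₁ : ZMod r := ((c σ₁ : (ZMod r)ˣ) : ZMod r) with hc₁
  set E : Module.End (ZMod r) Q := (ρ σ₁ - 1) * (ρ σ₁ - c₁ • 1) with hE
  have hEF : ∀ q ∈ F, E q ∈ F := by
    intro q hq
    have h1 : (ρ σ₁ - c₁ • 1) q ∈ F := by
      rw [LinearMap.sub_apply, LinearMap.smul_apply, Module.End.one_apply]
      exact F.sub_mem (hFstab σ₁ q hq) (F.smul_mem _ hq)
    rw [hE, Module.End.mul_apply, LinearMap.sub_apply, Module.End.one_apply]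
    exact F.sub_mem (hFstab σ₁ _ h1) h1
  obtain ⟨N, hN⟩ := hES σ₁
  have hEpowF : ∀ n : ℕ, (E ^ n) q₀ ∈ F := by
    intro n
    induction n with
    | zero => rw [pow_zero]; exact hq₀F
    | succ n ih => rw [pow_succ', Module.End.mul_apply]; exact hEF _ ih
  have hex : ∃ n : ℕ, (E ^ n) q₀ = 0 := ⟨N, by rw [hN]; rfl⟩
  let m := Nat.find hex
  have hm : (E ^ m) q₀ = 0 := Nat.find_spec hex
  have hm0 : m ≠ 0 := by
    intro h0
    rw [h0, pow_zero] at hm
    exact hq₀ hm
  obtain ⟨m', hm'⟩ := Nat.exists_eq_succ_of_ne_zero hm0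
  set q₁ : Q := (E ^ m') q₀ with hq₁
  have hq₁0 : q₁ ≠ 0 := by
    intro h0
    have : m ≤ m' := Nat.find_min' hex h0
    omega
  have hq₁F : q₁ ∈ F := hEpowF m'
  have hEq₁ : E q₁ = 0 := by
    have h5 : E * E ^ m' = E ^ m := by rw [hm', pow_succ']
    have h6 : E q₁ = (E * E ^ m') q₀ := rfl
    rw [h6, h5]
    exact hm
  -- the eigenvector
  have key : ∃ v : Q, v ≠ 0 ∧ v ∈ F ∧ (ρ σ₁ v = v ∨ ρ σ₁ v = c₁ • v) := by
    by_cases hg : ρ σ₁ q₁ - c₁ • q₁ = 0
    · exact ⟨q₁, hq₁0, hq₁F, Or.inr (sub_eq_zero.mp hg)⟩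
    · refine ⟨ρ σ₁ q₁ - c₁ • q₁, hg, F.sub_mem (hFstab σ₁ _ hq₁F) (F.smul_mem _ hq₁F), Or.inl ?_⟩
      have h1 : E q₁ = ρ σ₁ (ρ σ₁ q₁ - c₁ • q₁) - (ρ σ₁ q₁ - c₁ • q₁) := by
        rw [hE, Module.End.mul_apply, LinearMap.sub_apply, LinearMap.sub_apply,
          LinearMap.smul_apply, Module.End.one_apply, Module.End.one_apply]
      rw [hEq₁] at h1
      exact (sub_eq_zero.mp h1.symm)
  obtain ⟨v, hv0, hvF, hv⟩ := key
  refine ⟨v, hv0, ?_⟩
  rcases hv with hv | hv
  · -- trivial character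
    left
    let S : Subgroup G :=
      { carrier := {σ | ρ σ v = v}
        mul_mem' := fun {a b} ha hb => by
          show ρ (a * b) v = v
          rw [map_mul, Module.End.mul_apply, hb, ha]
        one_mem' := by
          show ρ 1 v = v
          rw [map_one]; rfl
        inv_mem' := fun {a} ha => by
          show ρ a⁻¹ v = v
          have h1 : ρ a⁻¹ (ρ a v) = v := by
            have h4 : ρ a⁻¹ * ρ a = 1 := by rw [← map_mul, inv_mul_cancel, map_one]
            exact LinearMap.congr_fun h4 v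
          rw [ha] at h1
          exact h1 }
    intro σ
    obtain ⟨k, hk⟩ := hgen' σ
    have h1 : σ * (σ₁ ^ k)⁻¹ ∈ S := by
      show ρ (σ * (σ₁ ^ k)⁻¹) v = v
      refine hvF _ ?_
      rw [map_mul, map_inv, map_zpow, hk, mul_inv_cancel]
    have h2 : σ₁ ^ k ∈ S := S.zpow_mem (show σ₁ ∈ S from hv) k
    have h3 : σ = σ * (σ₁ ^ k)⁻¹ * σ₁ ^ k := by group
    have h4 : σ ∈ S := by
      rw [h3]
      exact S.mul_mem h1 h2
    exact h4
  · -- the character `c`
    right
    let S : Subgroup G :=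
      { carrier := {σ | ρ σ v = ((c σ : (ZMod r)ˣ) : ZMod r) • v}
        mul_mem' := fun {a b} ha hb => by
          show ρ (a * b) v = ((c (a * b) : (ZMod r)ˣ) : ZMod r) • v
          rw [map_mul, Module.End.mul_apply, hb, map_smul, ha, smul_smul, map_mul, Units.val_mul,
            mul_comm]
        one_mem' := by
          show ρ 1 v = ((c 1 : (ZMod r)ˣ) : ZMod r) • v
          rw [map_one, map_one, Units.val_one, one_smul]; rfl
        inv_mem' := fun {a} ha => by
          show ρ a⁻¹ v = ((c a⁻¹ : (ZMod r)ˣ) : ZMod r) • v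
          have h1 : ρ a⁻¹ (ρ a v) = v := by
            have h4 : ρ a⁻¹ * ρ a = 1 := by rw [← map_mul, inv_mul_cancel, map_one]
            exact LinearMap.congr_fun h4 v
          rw [ha, map_smul] at h1
          have h2 : ((c a⁻¹ : (ZMod r)ˣ) : ZMod r) * ((c a : (ZMod r)ˣ) : ZMod r) = 1 := by
            rw [← Units.val_mul, ← map_mul, inv_mul_cancel, map_one, Units.val_one]
          calc ρ a⁻¹ v = (((c a⁻¹ : (ZMod r)ˣ) : ZMod r) * ((c a : (ZMod r)ˣ) : ZMod r)) • ρ a⁻¹ v := by
                rw [h2, one_smul]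
            _ = ((c a⁻¹ : (ZMod r)ˣ) : ZMod r) • (((c a : (ZMod r)ˣ) : ZMod r) • ρ a⁻¹ v) := by
                rw [smul_smul]
            _ = ((c a⁻¹ : (ZMod r)ˣ) : ZMod r) • v := by rw [h1] }
    intro σ
    obtain ⟨k, hk⟩ := hgen' σ
    have h1 : σ * (σ₁ ^ k)⁻¹ ∈ S := by
      show ρ (σ * (σ₁ ^ k)⁻¹) v = ((c (σ * (σ₁ ^ k)⁻¹) : (ZMod r)ˣ) : ZMod r) • v
      have hc1 : c (σ * (σ₁ ^ k)⁻¹) = 1 := by
        rw [map_mul, map_inv, map_zpow, hk, mul_inv_cancel]
      rw [hc1, Units.val_one, one_smul]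
      exact hvF _ hc1
    have h2 : σ₁ ^ k ∈ S := S.zpow_mem (show σ₁ ∈ S from hv) k
    have h3 : σ = σ * (σ₁ ^ k)⁻¹ * σ₁ ^ k := by group
    have h4 : σ ∈ S := by
      rw [h3]
      exact S.mul_mem h1 h2
    exact h4

end Eigen

end Fermat.Agent.S15.Desc

end
-- ==== END Fermat.Agent.S15.Desc.H69_Kolchin

-- ==== BEGIN Fermat.Agent.S15.Desc.H69_Tors
section

/-!
# S15 / DESC: the `r`-torsion of a `G`-module as an `𝔽_r[G]`-module; Kummer cocycles (helper69)

`J` an abelian group with an action of a group `G` and of a commutative ring `R` commuting with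
`G`; `r` a prime, `e ∈ R`.

* `TorsR J r` : the type `J[r]`, with its structure of `ZMod r`-module and its `G`-action.
* `toTors` : `J → J[r]` (junk value `0` outside `J[r]`).
* `kumDom G J r` : `Y = {y | r • y is G-fixed}`.
* `kumCoc r e y` : the cocycle `σ ↦ e • (σ • y - y)` with values in `J[r]`, for `y ∈ Y`.
* `eisW r e` : `W = {v ∈ J[r] | e • v = v}`.
* `cobMap` : `v ↦ (σ ↦ σ • v - v)`.
-/

set_option autoImplicit false

namespace Fermat.Agent.S15.Desc

open Module

section Tors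

variable (J : Type*) [AddCommGroup J] (r : ℕ)

/-- `J[r]`. -/
def torsR : AddSubgroup J := (nsmulAddMonoidHom (α := J) r).ker

variable {J r}

theorem mem_torsR {v : J} : v ∈ torsR J r ↔ r • v = 0 := Iff.rfl

variable (J r)

/-- `J[r]` as a type. -/
abbrev TorsR : Type _ := ↥(torsR J r)

noncomputable instance instModuleTorsR : Module (ZMod r) (TorsR J r) :=
  AddCommGroup.zmodModule (fun x => Subtype.ext (by
    have := x.2
    rw [mem_torsR] at this
    simpa using this))

variable {J r}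

theorem coe_zmod_smul (c : ZMod r) [NeZero r] (v : TorsR J r) :
    ((c • v : TorsR J r) : J) = c.val • (v : J) := by
  conv_lhs => rw [← ZMod.natCast_zmod_val c, Nat.cast_smul_eq_nsmul]
  rfl

theorem zmod_smul_eq_nsmul {E : Type*} [AddCommGroup E] [Module (ZMod r) E] [NeZero r]
    (c : ZMod r) (x : E) : c • x = c.val • x := by
  conv_lhs => rw [← ZMod.natCast_zmod_val c, Nat.cast_smul_eq_nsmul]

variable {G : Type*} [Group G] [DistribMulAction G J]

instance instDMATorsR : DistribMulAction G (TorsR J r) where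
  smul σ v := ⟨σ • (v : J), by
    rw [mem_torsR, ← smul_comm, mem_torsR.mp v.2, smul_zero]⟩
  one_smul v := Subtype.ext (one_smul G (v : J))
  mul_smul σ τ v := Subtype.ext (mul_smul σ τ (v : J))
  smul_zero σ := Subtype.ext (smul_zero σ)
  smul_add σ v w := Subtype.ext (smul_add σ (v : J) (w : J))

theorem coe_gal_smul (σ : G) (v : TorsR J r) : ((σ • v : TorsR J r) : J) = σ • (v : J) := rfl

instance instSMulCommTorsR : SMulCommClass G (ZMod r) (TorsR J r) where
  smul_comm σ c v := ZMod.map_smul (DistribSMul.toAddMonoidHom (TorsR J r) σ) c v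

/-- `J → J[r]`, with junk value `0` outside `J[r]`. -/
noncomputable def toTors (r : ℕ) (x : J) : TorsR J r :=
  open Classical in if h : r • x = 0 then ⟨x, h⟩ else 0

theorem coe_toTors {x : J} (h : r • x = 0) : ((toTors r x : TorsR J r) : J) = x := by
  unfold toTors
  rw [dif_pos h]

theorem toTors_coe (v : TorsR J r) : toTors r (v : J) = v :=
  Subtype.ext (coe_toTors (mem_torsR.mp v.2))

theorem toTors_add {x y : J} (hx : r • x = 0) (hy : r • y = 0) :
    toTors r (x + y) = toTors r x + toTors r y := by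
  apply Subtype.ext
  rw [coe_toTors (by rw [smul_add, hx, hy, add_zero]), AddSubgroup.coe_add, coe_toTors hx,
    coe_toTors hy]

theorem toTors_zero : toTors r (0 : J) = 0 :=
  Subtype.ext (coe_toTors (smul_zero r))

end Tors

section Kummer

variable (G : Type*) (J : Type*) [Group G] [AddCommGroup J] [DistribMulAction G J]

/-- The `G`-fixed points. -/
def ratG : AddSubgroup J where
  carrier := {z | ∀ σ : G, σ • z = z}
  zero_mem' := fun σ => smul_zero σ
  add_mem' := fun {a b} ha hb σ => by rw [smul_add, ha σ, hb σ]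
  neg_mem' := fun {a} ha σ => by rw [smul_neg, ha σ]

/-- `Y = {y | r • y is G-fixed}`. -/
def kumDom (r : ℕ) : AddSubgroup J where
  carrier := {y | ∀ σ : G, σ • (r • y) = r • y}
  zero_mem' := fun σ => by rw [smul_zero, smul_zero]
  add_mem' := fun {a b} ha hb σ => by rw [smul_add, smul_add, ha σ, hb σ]
  neg_mem' := fun {a} ha σ => by rw [smul_neg, smul_neg, ha σ]

variable {G J}

theorem mem_ratG {z : J} : z ∈ ratG G J ↔ ∀ σ : G, σ • z = z := Iff.rfl

theorem mem_kumDom {r : ℕ} {y : J} : y ∈ kumDom G J r ↔ ∀ σ : G, σ • (r • y) = r • y := Iff.rfl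

theorem ratG_le_kumDom (r : ℕ) : ratG G J ≤ kumDom G J r := by
  intro z hz σ
  rw [← smul_comm, hz σ]

theorem torsR_le_kumDom (r : ℕ) : torsR J r ≤ kumDom G J r := by
  intro v hv σ
  rw [mem_torsR.mp hv, smul_zero]

variable {R : Type*} [CommRing R] [Module R J]

/-- The Kummer cocycle `σ ↦ e • (σ • y - y)`, with values in `J[r]` (for `y ∈ Y`). -/
noncomputable def kumCoc (r : ℕ) (e : R) (y : J) : G → TorsR J r :=
  fun σ => toTors r (e • (σ • y - y))

variable (hGH : ∀ (σ : G) (t : R) (z : J), σ • (t • z) = t • (σ • z))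

theorem nsmul_kum {r : ℕ} (e : R) {y : J} (hy : y ∈ kumDom G J r) (σ : G) :
    r • (e • (σ • y - y)) = 0 := by
  rw [← smul_comm e, smul_sub, ← smul_comm σ, hy σ, sub_self, smul_zero]

theorem coe_kumCoc {r : ℕ} (e : R) {y : J} (hy : y ∈ kumDom G J r) (σ : G) :
    ((kumCoc r e y σ : TorsR J r) : J) = e • (σ • y - y) :=
  coe_toTors (nsmul_kum e hy σ)

theorem kumCoc_add {r : ℕ} (e : R) {y y' : J} (hy : y ∈ kumDom G J r) (hy' : y' ∈ kumDom G J r) :
    kumCoc (G := G) r e (y + y') = kumCoc r e y + kumCoc r e y' := by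
  funext σ
  apply Subtype.ext
  rw [coe_kumCoc e ((kumDom G J r).add_mem hy hy'), Pi.add_apply, AddSubgroup.coe_add,
    coe_kumCoc e hy, coe_kumCoc e hy', ← smul_add]
  congr 1
  rw [smul_add]
  abel

theorem kumCoc_zero {r : ℕ} (e : R) : kumCoc (G := G) r e (0 : J) = 0 := by
  funext σ
  apply Subtype.ext
  rw [coe_kumCoc e (kumDom G J r).zero_mem, smul_zero, sub_zero, smul_zero]
  rfl

theorem kumCoc_nsmul {r : ℕ} (e : R) (n : ℕ) {y : J} (hy : y ∈ kumDom G J r) :
    kumCoc (G := G) r e (n • y) = n • kumCoc r e y := by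
  induction n with
  | zero => rw [zero_smul, zero_smul]; exact kumCoc_zero e
  | succ n ih =>
    rw [succ_nsmul, succ_nsmul, kumCoc_add e ((kumDom G J r).nsmul_mem hy n) hy, ih]

include hGH in
/-- The cocycle relation. -/
theorem kumCoc_cocycle {r : ℕ} (e : R) {y : J} (hy : y ∈ kumDom G J r) (σ τ : G) :
    kumCoc r e y (σ * τ) = kumCoc r e y σ + σ • kumCoc r e y τ := by
  apply Subtype.ext
  rw [AddSubgroup.coe_add, coe_gal_smul, coe_kumCoc e hy, coe_kumCoc e hy, coe_kumCoc e hy,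
    hGH, ← smul_add]
  congr 1
  rw [mul_smul, smul_sub]
  abel

/-- `W = {v ∈ J[r] | e • v = v}`. -/
def eisW (r : ℕ) [NeZero r] (e : R) : Submodule (ZMod r) (TorsR J r) where
  carrier := {v | e • (v : J) = v}
  add_mem' := fun {a b} ha hb => by
    show e • ((a + b : TorsR J r) : J) = ((a + b : TorsR J r) : J)
    rw [AddSubgroup.coe_add, smul_add, ha, hb]
  zero_mem' := smul_zero e
  smul_mem' := fun c v hv => by
    show e • ((c • v : TorsR J r) : J) = ((c • v : TorsR J r) : J)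
    rw [coe_zmod_smul, smul_comm, hv]

theorem mem_eisW {r : ℕ} [NeZero r] {e : R} {v : TorsR J r} :
    v ∈ eisW r e ↔ e • (v : J) = v := Iff.rfl

/-- The coboundary map `v ↦ (σ ↦ σ • v - v)`. -/
def cobMap (G : Type*) (J : Type*) [Group G] [AddCommGroup J] [DistribMulAction G J] (r : ℕ) :
    TorsR J r →ₗ[ZMod r] (G → TorsR J r) where
  toFun v := fun σ => σ • v - v
  map_add' a b := by
    funext σ
    simp only [Pi.add_apply, smul_add]
    abel
  map_smul' c v := by
    funext σ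
    simp only [RingHom.id_apply, Pi.smul_apply, smul_sub]
    rw [smul_comm]

theorem cobMap_apply {r : ℕ} (v : TorsR J r) (σ : G) : cobMap G J r v σ = σ • v - v := rfl

include hGH in
/-- On `W` the Kummer cocycle of a torsion point is its coboundary. -/
theorem kumCoc_coe_of_mem_eisW {r : ℕ} [NeZero r] {e : R} {w : TorsR J r}
    (hw : w ∈ eisW r e) : kumCoc r e (w : J) = cobMap G J r w := by
  funext σ
  apply Subtype.ext
  rw [coe_kumCoc e (torsR_le_kumDom r w.2), cobMap_apply, AddSubgroup.coe_sub, coe_gal_smul,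
    smul_sub, ← hGH, mem_eisW.mp hw]

end Kummer

end Fermat.Agent.S15.Desc

end
-- ==== END Fermat.Agent.S15.Desc.H69_Tors

-- ==== BEGIN Fermat.Agent.S15.Desc.H83_GlueNodes
section

/-!
# S15 / DESC, leaf GLUE-dim (helper83), abstract part 3: the number of nodes

For a semistable Deuring datum `S` (two components, `δ` nodes) with Riemann's theorem for the
three function fields (genera `g`, `g₁`, `g₂`):

* `nodes_card_le` : if `g + 1 ≤ g₁ + g₂ + δ` then `g₁ + g₂ + δ ≤ g + 1`, hence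
  `g + 1 = g₁ + g₂ + δ` (`genus_formula`).

Proof: the trivial twist and `G = M (P₁ + P₂)` with `P_i` over a regular point of the `i`-th
component, `M` large: `deg G + 1 - g ≤ l(G)` (Riemann), `l(G) ≤ dim Rsub(G)` (pivot),
`Rsub(G) = Λ` and `dim Λ = deg G + 2 - g₁ - g₂ - δ` (surjectivity of the reduction).
-/

set_option autoImplicit false
set_option linter.style.haveILetI false

noncomputable section

open AlgebraicCurve

attribute [local instance] Classical.propDecidable

namespace Fermat.Agent.S15.Desc.H83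

open Fermat.Agent.RED.H17 Fermat.Agent.RED Fermat.Agent.BAD

local notation "L" => riemannRochSpace

/-- **The number of nodes is at most `g + 1 - g₁ - g₂`.** -/
theorem nodes_card_le (hTS : Stmt_TwSurj) (hPiv : Stmt_Pivot)
    {K F k F₁ F₂ : Type} [Field K] [Field F] [Algebra K F] [Field k] [Field F₁]
    [Algebra k F₁] [Field F₂] [Algebra k F₂] [Infinite k]
    (S : SSD K F k F₁ F₂) (H : FFHyp K F) (H₁ : FFHyp k F₁) (H₂ : FFHyp k F₂)
    (g g₁ g₂ : ℕ) (c c₁ c₂ : ℤ) (hR : IsGenus K F g c) (hR₁ : IsGenus k F₁ g₁ c₁)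
    (hR₂ : IsGenus k F₂ g₂ c₂) (hnum : g + 1 ≤ g₁ + g₂ + S.nodes.card) :
    g₁ + g₂ + S.nodes.card ≤ g + 1 := by
  obtain ⟨Q₁, hQ₁⟩ := H₁.exists_notMem S.br₁
  obtain ⟨Q₂, hQ₂⟩ := H₂.exists_notMem S.br₂
  have hg₁ : Q₁ ∈ S.c₁.good := (H60.not_mem_br₁_iff S Q₁).mp hQ₁
  have hg₂ : Q₂ ∈ S.c₂.good := (H60.not_mem_br₂_iff S Q₂).mp hQ₂
  obtain ⟨P₁, hP₁⟩ := S.c₁.r_surjective H.principal Q₁ hg₁
  obtain ⟨P₂, hP₂⟩ := S.c₂.r_surjective H.principal Q₂ hg₂
  have hP₁₂ : S.c₂.r P₁ = none := H60.r₂_eq_none_of_r₁ S hg₁ hP₁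
  have hP₂₁ : S.c₁.r P₂ = none := H60.r₁_eq_none_of_r₂ S hg₂ hP₂
  set M : ℕ := (c₁ + S.nodes.card).toNat + (c₂ + S.nodes.card).toNat with hM
  set G : Divisor K F := M • (Finsupp.single P₁ 1 + Finsupp.single P₂ 1) with hGdef
  have hpush₁ : S.push₁ G = M • Finsupp.single Q₁ 1 := by
    rw [H60.push₁_eq, hGdef, H60.pushOpt_nsmul, H60.pushOpt_add,
      H60.pushOpt_single_some _ hP₁, H60.pushOpt_single_none _ hP₂₁, add_zero]
  have hpush₂ : S.push₂ G = M • Finsupp.single Q₂ 1 := by
    rw [H60.push₂_eq, hGdef, H60.pushOpt_nsmul, H60.pushOpt_add,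
      H60.pushOpt_single_none _ hP₁₂, H60.pushOpt_single_some _ hP₂, zero_add]
  have hG : S.GoodPos G := by
    intro P hP hnode
    obtain ⟨s, hs, hsP⟩ := hnode
    have hcase : P = P₁ ∨ P = P₂ := by
      by_contra hcon
      rw [not_or] at hcon
      apply hP
      rw [hGdef, Finsupp.smul_apply, Finsupp.add_apply, Finsupp.single_apply,
        Finsupp.single_apply, if_neg (Ne.symm hcon.1), if_neg (Ne.symm hcon.2), add_zero,
        smul_zero]
    rcases hcase with rfl | rfl
    · rw [hP₁] at hsP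
      exact (S.good₁ Q₁).mp hg₁ s hs (Option.some.inj hsP).symm
    · rw [hP₂₁] at hsP
      exact absurd hsP (by simp)
  have hMle₁ : c₁ + S.nodes.card ≤ (M : ℤ) := by
    have h1 := Int.self_le_toNat (c₁ + S.nodes.card)
    have h2 : ((c₁ + S.nodes.card).toNat : ℤ) ≤ (M : ℤ) := by
      exact_mod_cast (by omega : (c₁ + S.nodes.card).toNat ≤ M)
    omega
  have hMle₂ : c₂ + S.nodes.card ≤ (M : ℤ) := by
    have h1 := Int.self_le_toNat (c₂ + S.nodes.card)
    have h2 : ((c₂ + S.nodes.card).toNat : ℤ) ≤ (M : ℤ) := by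
      exact_mod_cast (by omega : (c₂ + S.nodes.card).toNat ≤ M)
    omega
  have hd₁ : c₁ + S.nodes.card ≤ Divisor.degree (S.push₁ G) := by
    rw [hpush₁, map_nsmul, Divisor.degree_single, H₁.deg_one, nsmul_eq_mul]
    simpa using hMle₁
  have hd₂ : c₂ + S.nodes.card ≤ Divisor.degree (S.push₂ G) := by
    rw [hpush₂, map_nsmul, Divisor.degree_single, H₂.deg_one, nsmul_eq_mul]
    simpa using hMle₂
  obtain ⟨lam, -, hRL, hcount⟩ := hTS K F k F₁ F₂ S H H₁ H₂ g g₁ g₂ c c₁ c₂ hR hR₁ hR₂ hnum 1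
    (by rw [Nat.cast_one]; exact one_ne_zero) (H60.trivTwist S) G hG hd₁ hd₂
  have hfin : Module.Finite k
      (S.Rsub (H60.trivTwist S).ϑ ((H60.trivTwist S).Dx H.principal + G)) := by
    rw [hRL]
    exact H60.finite_Lam S H₁ H₂ _ _ _
  have hpiv := hPiv K F k F₁ F₂ S H H₁ H₂ (H60.trivTwist S).ϑ (H60.trivTwist S).hϑ _ hfin
  rw [hRL] at hpiv
  have hri := (hR ((H60.trivTwist S).Dx H.principal + G)).1
  rw [H60.trivTwist_Dx, zero_add] at hri hpiv
  have hpiv' : (Module.finrank K (L G) : ℤ) ≤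
      (Module.finrank k (S.Lam lam (S.push₁ G)
        (S.push₂ G + (H60.trivTwist S).Δ H₂.principal)) : ℤ) := by
    exact_mod_cast hpiv
  rw [hcount] at hpiv'
  omega

/-- **The genus formula** of a semistable Deuring datum with enough nodes. -/
theorem genus_formula (hTS : Stmt_TwSurj) (hPiv : Stmt_Pivot)
    {K F k F₁ F₂ : Type} [Field K] [Field F] [Algebra K F] [Field k] [Field F₁]
    [Algebra k F₁] [Field F₂] [Algebra k F₂] [Infinite k]
    (S : SSD K F k F₁ F₂) (H : FFHyp K F) (H₁ : FFHyp k F₁) (H₂ : FFHyp k F₂)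
    (g g₁ g₂ : ℕ) (c c₁ c₂ : ℤ) (hR : IsGenus K F g c) (hR₁ : IsGenus k F₁ g₁ c₁)
    (hR₂ : IsGenus k F₂ g₂ c₂) (hnum : g + 1 ≤ g₁ + g₂ + S.nodes.card) :
    g + 1 = g₁ + g₂ + S.nodes.card :=
  le_antisymm hnum
    (nodes_card_le hTS hPiv S H H₁ H₂ g g₁ g₂ c c₁ c₂ hR hR₁ hR₂ hnum)

end Fermat.Agent.S15.Desc.H83

end
end
-- ==== END Fermat.Agent.S15.Desc.H83_GlueNodes

-- ==== BEGIN Fermat.Agent.S15.Desc.H87_CoordDisc
section

/-!
# S15 DESC, leaf COORD / DISC (helper87)

The Gauss valuation is discrete on the functions with inertia-fixed `q`-expansion: a non-zero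
quotient of two series with coefficients in `A₀ = A ∩ ℚ̄^I` is `p ^ m · u`, `u` a unit of the
Gauss valuation ring.

* `val_le_zpow_iff`, `exists_nat_val` : the valuation of a non-zero element of `A₀` is
  `|p| ^ k`, `k ∈ ℕ`;
* `exists_scale_prim` : a non-zero series with coefficients in `A₀` is `p ^ k · ι(g)` with
  `red g ≠ 0`;
* `stmt_CoordDisc : H67.Stmt_CoordDisc`.
-/

set_option autoImplicit false
set_option linter.style.haveILetI false
set_option synthInstance.maxHeartbeats 400000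
set_option maxHeartbeats 400000

noncomputable section

open HahnSeries IntermediateField AlgebraicCurve ModularCurve
open Fermat.Agent.S28.H73 Fermat.Agent.RED.H73 Fermat.Agent.RED Fermat.Agent.S24

namespace Fermat.Agent.S15.Desc.H87

open Fermat.Agent.BAD Fermat.Agent.S15.Desc.H67

section val

variable (A : ValuationSubring Kbar) {p : ℕ}

/-- The valuation of a non-zero inertia-fixed element of `A` is `|p| ^ k` with `k ∈ ℕ`. -/
theorem exists_nat_val (hp : p.Prime) (hA : A.LiesOverPrime p) {c : Kbar}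
    (hc : c ∈ inertiaRing A) (hc0 : c ≠ 0) :
    ∃ k : ℕ, A.valuation c = A.valuation (p : Kbar) ^ k := by
  have hlt : A.valuation (p : Kbar) < 1 := A.mem_nonunits_iff.1 hA
  have hne : A.valuation (p : Kbar) ≠ 0 :=
    (Valuation.ne_zero_iff _).2 (by exact_mod_cast hp.ne_zero)
  have h0 : 0 < A.valuation (p : Kbar) := lt_of_le_of_ne zero_le (Ne.symm hne)
  obtain ⟨k, hk⟩ := Fermat.Agent.R.H6.stmt_UnrFix p hp A hA c hc0 hc.2
  have hle : A.valuation c ≤ 1 := (A.valuation_le_one_iff c).2 hc.1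
  have hk0 : 0 ≤ k := by
    by_contra hneg
    rw [not_le] at hneg
    have h1 : A.valuation (p : Kbar) ^ (0 : ℤ) < A.valuation (p : Kbar) ^ k :=
      zpow_right_strictAnti₀ h0 hlt hneg
    rw [zpow_zero, ← hk] at h1
    exact absurd hle (not_le.2 h1)
  refine ⟨k.toNat, ?_⟩
  rw [hk, ← zpow_natCast, Int.toNat_of_nonneg hk0]

end val

section series

variable (A : ValuationSubring Kbar) {p : ℕ}

/-- A non-zero series with coefficients in `A₀` is `p ^ k · ι(g)` with `red g ≠ 0`. -/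
theorem exists_scale_prim (hp : p.Prime) (hA : A.LiesOverPrime p) (G : LaurentSeries Kbar)
    (hG : G ≠ 0) (hcoef : ∀ n : ℤ, G.coeff n ∈ inertiaRing A) :
    ∃ (k : ℕ) (g : LaurentSeries ↥A), redV A g ≠ 0 ∧
      G = HahnSeries.C ((p : Kbar) ^ k) * iotaV A g := by
  classical
  have hlt : A.valuation (p : Kbar) < 1 := A.mem_nonunits_iff.1 hA
  have hp0 : (p : Kbar) ≠ 0 := by exact_mod_cast hp.ne_zero
  have hne : A.valuation (p : Kbar) ≠ 0 := (Valuation.ne_zero_iff _).2 hp0
  have h0 : 0 < A.valuation (p : Kbar) := lt_of_le_of_ne zero_le (Ne.symm hne)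
  -- the minimal exponent
  have hex : ∃ k : ℕ, ∃ n : ℤ, G.coeff n ≠ 0 ∧
      A.valuation (G.coeff n) = A.valuation (p : Kbar) ^ k := by
    obtain ⟨n, hn⟩ : ∃ n : ℤ, G.coeff n ≠ 0 := by
      by_contra hcon
      apply hG
      ext n
      by_contra hn
      exact hcon ⟨n, hn⟩
    obtain ⟨k, hk⟩ := exists_nat_val A hp hA (hcoef n) hn
    exact ⟨k, n, hn, hk⟩
  set k := Nat.find hex with hkdef
  obtain ⟨n₀, hn₀, hvn₀⟩ := Nat.find_spec hex
  have hmin : ∀ n : ℤ, A.valuation (G.coeff n) ≤ A.valuation (p : Kbar) ^ k := by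
    intro n
    by_cases hn : G.coeff n = 0
    · rw [hn, map_zero]
      exact zero_le
    · obtain ⟨j, hj⟩ := exists_nat_val A hp hA (hcoef n) hn
      have hkj : k ≤ j := Nat.find_min' hex ⟨n, hn, hj⟩
      rw [hj]
      exact pow_le_pow_of_le_one h0.le hlt.le hkj
  have hpk0 : (p : Kbar) ^ k ≠ 0 := pow_ne_zero _ hp0
  have hvpk : A.valuation ((p : Kbar) ^ k) ≠ 0 := (Valuation.ne_zero_iff _).2 hpk0
  -- the scaled series
  set G' : LaurentSeries Kbar := HahnSeries.C (((p : Kbar) ^ k)⁻¹) * G with hG'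
  have hG'coeff : ∀ n : ℤ, G'.coeff n = ((p : Kbar) ^ k)⁻¹ * G.coeff n := by
    intro n
    rw [hG', HahnSeries.C_mul_eq_smul, HahnSeries.coeff_smul, smul_eq_mul]
  have hG'v : ∀ n : ℤ, A.valuation (G'.coeff n) ≤ 1 := by
    intro n
    rw [hG'coeff, map_mul, map_inv₀, map_pow]
    rw [inv_mul_le_iff₀ (pow_pos h0 k), mul_one]
    exact hmin n
  have hco : Fermat.Agent.S28.CoeffsIn A.toSubring G' := fun n => (A.valuation_le_one_iff _).1 (hG'v n)
  obtain ⟨g, hg⟩ := exists_iotaV_eq A hco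
  refine ⟨k, g, ?_, ?_⟩
  · rw [redV_ne_zero_iff]
    refine ⟨n₀, ?_⟩
    rw [isUnit_iff_inv_mem]
    have hc : ((g.coeff n₀ : ↥A) : Kbar) = G'.coeff n₀ := by rw [← hg]; rfl
    rw [hc, hG'coeff]
    have hv1 : A.valuation (((p : Kbar) ^ k)⁻¹ * G.coeff n₀) = 1 := by
      rw [map_mul, map_inv₀, map_pow, hvn₀]
      exact inv_mul_cancel₀ (pow_ne_zero _ hne)
    refine ⟨mul_ne_zero (inv_ne_zero hpk0) hn₀, ?_⟩
    rw [← A.valuation_le_one_iff, map_inv₀, hv1, inv_one]
  · rw [hg, hG', ← mul_assoc, ← map_mul, mul_inv_cancel₀ hpk0, map_one, one_mul]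

end series

/-- **(DISC)**: the Gauss valuation is discrete on the functions with inertia-fixed
`q`-expansion. -/
theorem stmt_CoordDisc : H67.Stmt_CoordDisc := by
  intro p hp A hA N _ f hfrac hf0
  obtain ⟨G, H, hH0, hfH, hGc, hHc⟩ := hfrac
  have hp0 : (p : Kbar) ≠ 0 := by exact_mod_cast hp.ne_zero
  have hG0 : G ≠ 0 := by
    rw [← hfH]
    exact mul_ne_zero hf0 hH0
  have hG0' : (G : LaurentSeries Kbar) ≠ 0 := fun h => hG0 (Subtype.ext h)
  have hH0' : (H : LaurentSeries Kbar) ≠ 0 := fun h => hH0 (Subtype.ext h)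
  obtain ⟨kG, g, hg, hGe⟩ := exists_scale_prim A hp hA (G : LaurentSeries Kbar) hG0' hGc
  obtain ⟨kH, h, hh, hHe⟩ := exists_scale_prim A hp hA (H : LaurentSeries Kbar) hH0' hHc
  set a : Kbar := (p : Kbar) ^ kG with ha
  set b : Kbar := (p : Kbar) ^ kH with hb
  have ha0 : a ≠ 0 := pow_ne_zero _ hp0
  have hb0 : b ≠ 0 := pow_ne_zero _ hp0
  -- the unit
  set u : FN N := algebraMap Kbar (FN N) (b / a) * f with hu
  have hfHL : (f : LaurentSeries Kbar) * (H : LaurentSeries Kbar) = (G : LaurentSeries Kbar) :=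
    congrArg Subtype.val hfH
  have hcoeu : (u : LaurentSeries Kbar) = HahnSeries.C (b / a) * (f : LaurentSeries Kbar) := by
    show ((algebraMap Kbar (FN N) (b / a) : FN N) : LaurentSeries Kbar)
      * (f : LaurentSeries Kbar) = _
    rw [coe_algebraMap_F]
  have hCa : (HahnSeries.C a : LaurentSeries Kbar) ≠ 0 := C_ne_zero' ha0
  have hCb : (HahnSeries.C b : LaurentSeries Kbar) ≠ 0 := C_ne_zero' hb0
  have hkey : iotaV A h * (u : LaurentSeries Kbar) = iotaV A g := by
    have h1 : (f : LaurentSeries Kbar) * (HahnSeries.C b * iotaV A h)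
        = HahnSeries.C a * iotaV A g := by
      rw [← hHe, ← hGe]
      exact hfHL
    have h2 : HahnSeries.C a * (iotaV A h * (u : LaurentSeries Kbar))
        = HahnSeries.C a * iotaV A g := by
      rw [← h1, hcoeu]
      have hC : (HahnSeries.C (b / a) : LaurentSeries Kbar)
          = HahnSeries.C b * (HahnSeries.C a)⁻¹ := by
        rw [div_eq_mul_inv, map_mul, C_inv']
      rw [hC]
      field_simp
    exact mul_left_cancel₀ hCa h2
  have humem : u ∈ gaussV A N := ⟨h, g, hh, hkey⟩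
  have hred : gaussRedV A ⟨(u : LaurentSeries Kbar), humem⟩ = redV A g / redV A h :=
    gaussRedV_eq A ⟨(u : LaurentSeries Kbar), humem⟩ hh hkey
  refine ⟨(kG : ℤ) - (kH : ℤ), ⟨u, humem⟩, ?_, ?_⟩
  · intro h0
    have h1 : ((gaussRes A N ⟨u, humem⟩ : ↥(redField A (FNbar N)
        (hasScale_laurentBaseChange A N))) : LaurentSeries (kV A)) = 0 := by
      rw [h0]
      rfl
    have h2 : gaussRedV A ⟨(u : LaurentSeries Kbar), humem⟩ = 0 := h1
    rw [hred] at h2
    exact div_ne_zero hg hh h2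
  · show f = algebraMap Kbar (FN N) ((p : Kbar) ^ ((kG : ℤ) - (kH : ℤ))) * u
    rw [zpow_sub₀ hp0, zpow_natCast, zpow_natCast, hu, ← mul_assoc, ← map_mul]
    have : (p : Kbar) ^ kG / (p : Kbar) ^ kH * (b / a) = 1 := by
      rw [← ha, ← hb]
      field_simp
    rw [this, map_one, one_mul]

end Fermat.Agent.S15.Desc.H87

end
end
-- ==== END Fermat.Agent.S15.Desc.H87_CoordDisc

-- ==== BEGIN Fermat.Agent.S15.Desc.H87_CoordMult
section

/-!
# S15 DESC, leaf COORD / MULT (helper87)

The multiplicities of the roots of the supersingular polynomial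
`H = X^{4a} (X - 1728)^{6b} g^{12}` are `12`, `4` (only at `0`), `6` (only at `1728`).
-/

set_option autoImplicit false

noncomputable section

namespace Fermat.Agent.S15.Desc.H87

open Polynomial

/-- The root multiplicity of a squarefree polynomial is at most `1`. -/
theorem rootMultiplicity_le_one_of_squarefree {F : Type*} [Field F] {g : F[X]}
    (hg : Squarefree g) (β : F) : g.rootMultiplicity β ≤ 1 := by
  by_contra h
  have h2 : 2 ≤ g.rootMultiplicity β := by omega
  have hdvd : (X - C β) ^ 2 ∣ g :=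
    dvd_trans (pow_dvd_pow _ h2) (pow_rootMultiplicity_dvd g β)
  rw [pow_two] at hdvd
  have hu := hg _ hdvd
  exact (Polynomial.not_isUnit_X_sub_C β) hu

/-- The root multiplicity of a power. -/
theorem rootMultiplicity_pow_eq {F : Type*} [Field F] {g : F[X]} (hg : g ≠ 0) (β : F)
    (n : ℕ) : (g ^ n).rootMultiplicity β = n * g.rootMultiplicity β := by
  induction n with
  | zero =>
    rw [pow_zero, zero_mul, rootMultiplicity_eq_zero_iff]
    intro h
    exfalso
    rw [IsRoot.def, eval_one] at h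
    exact one_ne_zero h
  | succ n ih =>
    rw [pow_succ, rootMultiplicity_mul (mul_ne_zero (pow_ne_zero _ hg) hg), ih]
    ring

/-- **(MULT)**: the multiplicities of the roots of the supersingular polynomial. -/
theorem stmt_CoordMult : H67.Stmt_CoordMult := by
  intro F _ m a b d β
  classical
  have hg0 : d.g ≠ 0 := d.g_ne_zero
  have ha := d.a_le_one
  have hb := d.b_le_one
  have h1728 := d.h1728
  have hX : (X : F[X]) ^ (4 * a) ≠ 0 := pow_ne_zero _ X_ne_zero
  have hX1 : (X - C (1728 : F)) ^ (6 * b) ≠ 0 := pow_ne_zero _ (X_sub_C_ne_zero _)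
  have hg12 : d.g ^ 12 ≠ 0 := pow_ne_zero _ hg0
  have hH : d.H.rootMultiplicity β =
      4 * a * (X : F[X]).rootMultiplicity β + 6 * b * (X - C (1728 : F)).rootMultiplicity β
        + 12 * d.g.rootMultiplicity β := by
    rw [Fermat.Agent.BAD.H21.H21_SSData.H,
      rootMultiplicity_mul (mul_ne_zero (mul_ne_zero hX hX1) hg12),
      rootMultiplicity_mul (mul_ne_zero hX hX1)]
    rw [rootMultiplicity_pow_eq X_ne_zero, rootMultiplicity_pow_eq (X_sub_C_ne_zero _),
      rootMultiplicity_pow_eq hg0]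
  have hgle := rootMultiplicity_le_one_of_squarefree d.squarefree_g β
  have hXm : (X : F[X]).rootMultiplicity β = if β = 0 then 1 else 0 := by
    have h := rootMultiplicity_X_sub_C (x := β) (y := (0 : F))
    rw [map_zero, sub_zero] at h
    exact h
  have hX1m : (X - C (1728 : F)).rootMultiplicity β = if β = 1728 then 1 else 0 :=
    rootMultiplicity_X_sub_C
  by_cases hβ0 : β = 0
  · -- `β = 0`
    have hg : d.g.rootMultiplicity β = 0 := by
      rw [rootMultiplicity_eq_zero_iff]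
      intro h
      rw [hβ0] at h
      exact absurd h d.not_isRoot_zero
    have hne : β ≠ 1728 := by
      rw [hβ0]
      exact fun h => h1728 h.symm
    rw [hXm, hX1m, if_pos hβ0, if_neg hne, hg] at hH
    rcases Nat.eq_zero_or_pos a with h | h
    · left; rw [hH, h]; simp
    · right; right; left
      refine ⟨hβ0, ?_⟩
      have : a = 1 := by omega
      rw [hH, this]; simp
  · by_cases hβ1 : β = 1728
    · have hg : d.g.rootMultiplicity β = 0 := by
        rw [rootMultiplicity_eq_zero_iff]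
        intro h
        rw [hβ1] at h
        exact absurd h d.not_isRoot_1728
      rw [hXm, hX1m, if_neg hβ0, if_pos hβ1, hg] at hH
      rcases Nat.eq_zero_or_pos b with h | h
      · left; rw [hH, h]; simp
      · right; right; right
        refine ⟨hβ1, ?_⟩
        have : b = 1 := by omega
        rw [hH, this]; simp
    · rw [hXm, hX1m, if_neg hβ0, if_neg hβ1] at hH
      rcases Nat.eq_zero_or_pos (d.g.rootMultiplicity β) with h | h
      · left; rw [hH, h]; simp
      · right; left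
        have : d.g.rootMultiplicity β = 1 := by omega
        rw [hH, this]; simp

end Fermat.Agent.S15.Desc.H87

end
end
-- ==== END Fermat.Agent.S15.Desc.H87_CoordMult

-- ==== BEGIN Fermat.Agent.S15.Desc.H87_LocExp
section

set_option autoImplicit false
set_option synthInstance.maxHeartbeats 400000
set_option linter.style.haveILetI false

noncomputable section

open ModularCurve

namespace Fermat.Agent.S15.Desc.H87

open Fermat.Agent.S15

/-- The Galois action commutes with multiplication by a natural number. -/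
theorem gal_nsmul {N : ℕ} (σ : GalQ) (n : ℕ) (y : JZero N) : σ • (n • y) = n • (σ • y) :=
  map_nsmul (DistribSMul.toAddMonoidHom (JZero N) σ) n y

/-- **L4 (LOC-l)**: inertia at a prime `ℓ ∤ p r` fixes every `r`-division point of a rational
point of `J₀(p)`. -/
theorem loc_l_of_redPackage {p r ℓ : ℕ} [NeZero p] [NeZero ℓ]
    (A : ValuationSubring (AlgebraicClosure ℚ))
    (hred : Fermat.Agent.S37.RedPackage p r ℓ A)
    {τ : GalQ} (hτ : τ ∈ A.inertiaSubgroupIn ℚ) {y : JZero p} (hy : r • y ∈ ratPts p) :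
    τ • y = y := by
  obtain ⟨Y, _, red, σ₀, -, hin, -, hinj, -⟩ := hred
  have h1 : r ^ 1 • (τ • y - y) = 0 := by
    rw [pow_one, nsmul_sub, ← gal_nsmul, hy τ, sub_self]
  have h2 : red (τ • y - y) = 0 := by
    rw [map_sub, hin τ hτ y, sub_self]
  exact sub_eq_zero.1 (hinj _ ⟨1, h1⟩ h2)

/-- L4 for all multiples: inertia at `ℓ ∤ p r` fixes every point `y` with `r ^ n • y` rational. -/
theorem loc_l_pow_of_redPackage {p r ℓ : ℕ} [NeZero p] [NeZero ℓ]
    (A : ValuationSubring (AlgebraicClosure ℚ))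
    (hred : Fermat.Agent.S37.RedPackage p r ℓ A)
    {τ : GalQ} (hτ : τ ∈ A.inertiaSubgroupIn ℚ) {y : JZero p} {n : ℕ}
    (hy : r ^ n • y ∈ ratPts p) :
    τ • y = y := by
  obtain ⟨Y, _, red, σ₀, -, hin, -, hinj, -⟩ := hred
  have h1 : r ^ n • (τ • y - y) = 0 := by
    rw [nsmul_sub, ← gal_nsmul, hy τ, sub_self]
  have h2 : red (τ • y - y) = 0 := by
    rw [map_sub, hin τ hτ y, sub_self]
  exact sub_eq_zero.1 (hinj _ ⟨n, h1⟩ h2)

/-- L4, cocycle form: the Kummer cocycle `σ ↦ σ • y - y` of an `r`-division point of a rational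
point vanishes on inertia at `ℓ ∤ p r`. -/
theorem kummer_inertia_trivial {p r ℓ : ℕ} [NeZero p] [NeZero ℓ]
    (A : ValuationSubring (AlgebraicClosure ℚ))
    (hred : Fermat.Agent.S37.RedPackage p r ℓ A)
    {τ : GalQ} (hτ : τ ∈ A.inertiaSubgroupIn ℚ) {y : JZero p} (hy : r • y ∈ ratPts p) :
    τ • y - y = 0 :=
  sub_eq_zero.2 (loc_l_of_redPackage A hred hτ hy)

/-- The torsion part of a finitely generated abelian group is finite. -/
theorem finite_torsion_of_fg (T : Type*) [AddCommGroup T] [AddGroup.FG T] :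
    Finite ↥(Submodule.torsion ℤ T) := by
  haveI : Module.Finite ℤ T := Module.Finite.iff_addGroup_fg.mpr inferInstance
  haveI : IsNoetherian ℤ T := isNoetherian_of_isNoetherianRing_of_finite ℤ T
  haveI : Module.Finite ℤ ↥(Submodule.torsion ℤ T) := Module.IsNoetherian.finite ℤ _
  exact Module.finite_of_fg_torsion _ (Submodule.torsion_isTorsion)

/-- In a finitely generated abelian group the `r`-power torsion has bounded exponent. -/
theorem exists_exp_of_fg (T : Type*) [AddCommGroup T] [AddGroup.FG T] (r : ℕ) (hr : r.Prime) :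
    ∃ k : ℕ, ∀ t : T, (∃ n : ℕ, r ^ n • t = 0) → r ^ k • t = 0 := by
  haveI := finite_torsion_of_fg T
  haveI : Fintype ↥(Submodule.torsion ℤ T) := Fintype.ofFinite _
  set e : ℕ := Fintype.card ↥(Submodule.torsion ℤ T) with he
  have he0 : e ≠ 0 := Fintype.card_ne_zero
  refine ⟨e.factorization r, fun t ⟨n, hn⟩ => ?_⟩
  have ht : t ∈ Submodule.torsion ℤ T := by
    rw [Submodule.mem_torsion_iff]
    refine ⟨⟨((r ^ n : ℕ) : ℤ), ?_⟩, ?_⟩
    · rw [mem_nonZeroDivisors_iff_ne_zero]
      exact_mod_cast pow_ne_zero n hr.ne_zero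
    · show ((r ^ n : ℕ) : ℤ) • t = 0
      rw [natCast_zsmul, hn]
  have h1 : e • (⟨t, ht⟩ : ↥(Submodule.torsion ℤ T)) = 0 := card_nsmul_eq_zero
  have h1' : e • t = 0 := by
    have := congrArg Subtype.val h1
    simpa using this
  -- `gcd (r ^ n) e` kills `t`
  have h2 : Nat.gcd (r ^ n) e • t = 0 := by
    have hd : addOrderOf t ∣ Nat.gcd (r ^ n) e :=
      Nat.dvd_gcd (addOrderOf_dvd_of_nsmul_eq_zero hn) (addOrderOf_dvd_of_nsmul_eq_zero h1')
    exact addOrderOf_dvd_iff_nsmul_eq_zero.1 hd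
  have h3 : Nat.gcd (r ^ n) e ∣ r ^ e.factorization r := by
    obtain ⟨j, hj, hje⟩ := (Nat.dvd_prime_pow hr).1 (Nat.gcd_dvd_left (r ^ n) e)
    rw [hje]
    refine pow_dvd_pow r ?_
    have : r ^ j ∣ e := hje ▸ Nat.gcd_dvd_right (r ^ n) e
    exact (hr.pow_dvd_iff_le_factorization he0).1 this
  obtain ⟨c, hc⟩ := h3
  rw [hc, mul_nsmul, h2, smul_zero]

/-- **L8 (EXP)**: the rational points of `J₀(p)` of `r`-power order have bounded exponent. -/
theorem exp_bound (hS18 : Stmt_S18) {p : ℕ} [NeZero p]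
    (hRI : Stmt_redInputs p) (hFG : Stmt_redFG p) (r : ℕ) (hr : r.Prime) :
    ∃ k : ℕ, ∀ z ∈ ratPts p, (∃ n : ℕ, r ^ n • z = 0) → r ^ k • z = 0 := by
  -- a prime `ℓ ∉ {p, r}`
  obtain ⟨ℓ, hℓge, hℓ⟩ := Nat.exists_infinite_primes (p + r + 1)
  have hℓp : ℓ ≠ p := by omega
  have hℓr : ℓ ≠ r := by omega
  have hp0 : p ≠ 0 := NeZero.ne p
  have hℓndvd : ¬ ℓ ∣ p := fun hd => by
    have := Nat.le_of_dvd (Nat.pos_of_ne_zero hp0) hd
    omega
  obtain ⟨A, hA⟩ := Fermat.Agent.Lib.FrobExists.exists_liesOverPrime ℓ hℓ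
  have h := hRI ℓ hℓ hℓp A hA
  haveI : Fact ℓ.Prime := ⟨hℓ⟩
  have hT := hFG ℓ hℓ hℓp A hA
  haveI : AddGroup.FG ↥(AddSubgroup.map (reductionModL A p) (ratPts p)) :=
    (AddGroup.fg_iff_addSubgroup_fg _).2 hT
  obtain ⟨k, hk⟩ := exists_exp_of_fg ↥(AddSubgroup.map (reductionModL A p) (ratPts p)) r hr
  refine ⟨k, fun z hz ⟨n, hn⟩ => ?_⟩
  have hmem : reductionModL A p z ∈ AddSubgroup.map (reductionModL A p) (ratPts p) :=
    AddSubgroup.mem_map_of_mem _ hz
  have h1 := hk ⟨reductionModL A p z, hmem⟩ ⟨n, by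
    apply Subtype.ext
    simp only [AddSubgroup.coe_nsmul, AddSubgroup.coe_zero]
    rw [← map_nsmul, hn, map_zero]⟩
  have h2 : reductionModL A p (r ^ k • z) = 0 := by
    have := congrArg Subtype.val h1
    simp only [AddSubgroup.coe_nsmul, AddSubgroup.coe_zero] at this
    rw [map_nsmul]
    exact this
  have hnd : ¬ ℓ ∣ r ^ n := fun hd =>
    hℓr ((Nat.prime_dvd_prime_iff_eq hℓ hr).1 (hℓ.dvd_of_dvd_pow hd))
  refine hS18 p hℓndvd A hA h (r ^ n) hnd (r ^ k • z) ?_ h2
  rw [smul_comm, hn, smul_zero]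

end Fermat.Agent.S15.Desc.H87

end
end
-- ==== END Fermat.Agent.S15.Desc.H87_LocExp

-- ==== BEGIN Fermat.Agent.S15.Desc.H87_Proj
section

set_option autoImplicit false
set_option linter.style.haveILetI false

noncomputable section

namespace Fermat.Agent.S15.Desc.H87

/-- In a finite monoid every element has an idempotent power with positive exponent. -/
theorem exists_pow_idem {M : Type*} [Monoid M] [Finite M] (a : M) :
    ∃ N : ℕ, 0 < N ∧ a ^ (2 * N) = a ^ N := by
  obtain ⟨i, j, hij, h⟩ := Finite.exists_ne_map_eq_of_infinite (fun n : ℕ => a ^ (n + 1))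
  wlog hlt : i < j generalizing i j
  · exact this j i hij.symm h.symm (lt_of_le_of_ne (not_lt.1 hlt) hij.symm)
  have h' : a ^ (i + 1) = a ^ (j + 1) := h
  have hd0 : 0 < j - i := by omega
  have hper : ∀ n, i + 1 ≤ n → a ^ (n + (j - i)) = a ^ n := by
    intro n hn
    obtain ⟨m, rfl⟩ := Nat.exists_eq_add_of_le hn
    have e1 : i + 1 + m + (j - i) = (j + 1) + m := by omega
    rw [e1, pow_add, ← h', ← pow_add]
  have hper' : ∀ m n, i + 1 ≤ n → a ^ (n + m * (j - i)) = a ^ n := by
    intro m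
    induction m with
    | zero => intro n _; simp
    | succ m ih =>
      intro n hn
      rw [Nat.succ_mul, ← add_assoc, hper _ (by omega), ih n hn]
  refine ⟨(i + 1) * (j - i), Nat.mul_pos (Nat.succ_pos i) hd0, ?_⟩
  have h1 : i + 1 ≤ (i + 1) * (j - i) := Nat.le_mul_of_pos_right _ hd0
  have := hper' (i + 1) ((i + 1) * (j - i)) h1
  rw [two_mul]
  exact this

section Proj

variable {R J : Type*} [CommRing R] [AddCommGroup J] [Module R J]

/-- `J[n]` as an `R`-submodule. -/
def torsSub (R J : Type*) [CommRing R] [AddCommGroup J] [Module R J] (n : ℕ) :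
    Submodule R J where
  carrier := {v | n • v = 0}
  add_mem' := fun {a b} ha hb => by
    show n • (a + b) = 0
    rw [smul_add, ha, hb, add_zero]
  zero_mem' := smul_zero n
  smul_mem' := fun c v hv => by
    show n • (c • v) = 0
    rw [smul_comm, hv, smul_zero]

theorem mem_torsSub {n : ℕ} {v : J} : v ∈ torsSub R J n ↔ n • v = 0 := Iff.rfl

/-- The action of `R` on `J[n]`. -/
def actTors (R J : Type*) [CommRing R] [AddCommGroup J] [Module R J] (n : ℕ) :
    R →+* AddMonoid.End ↥(torsSub R J n) :=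
  Module.toAddMonoidEnd R ↥(torsSub R J n)

theorem actTors_apply {n : ℕ} (t : R) (v : ↥(torsSub R J n)) :
    ((actTors R J n t v : ↥(torsSub R J n)) : J) = t • (v : J) := rfl

theorem smul_eq_of_actTors_eq {n : ℕ} {t t' : R} (h : actTors R J n t = actTors R J n t')
    {v : J} (hv : n • v = 0) : t • v = t' • v := by
  have := congrArg (fun f : AddMonoid.End ↥(torsSub R J n) =>
    ((f ⟨v, hv⟩ : ↥(torsSub R J n)) : J)) h
  exact this

/-- The image of `R` in `End J[n]`, as a quotient of `R`. -/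
abbrev ImgTors (R J : Type*) [CommRing R] [AddCommGroup J] [Module R J] (n : ℕ) : Type _ :=
  R ⧸ RingHom.ker (actTors R J n)

theorem finite_imgTors {n : ℕ} (hfin : {v : J | n • v = 0}.Finite) :
    Finite (ImgTors R J n) := by
  haveI : Finite ↥(torsSub R J n) := hfin.to_subtype
  haveI : Finite (AddMonoid.End ↥(torsSub R J n)) :=
    Finite.of_injective (fun f : AddMonoid.End ↥(torsSub R J n) =>
      (f : ↥(torsSub R J n) → ↥(torsSub R J n))) DFunLike.coe_injective
  exact Finite.of_injective _ (RingHom.kerLift_injective (actTors R J n))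

theorem smul_eq_of_mk_eq {n : ℕ} {t t' : R}
    (h : Ideal.Quotient.mk (RingHom.ker (actTors R J n)) t
      = Ideal.Quotient.mk (RingHom.ker (actTors R J n)) t')
    {v : J} (hv : n • v = 0) : t • v = t' • v := by
  refine smul_eq_of_actTors_eq (n := n) ?_ hv
  have h1 := congrArg (RingHom.kerLift (actTors R J n)) h
  rwa [RingHom.kerLift_mk, RingHom.kerLift_mk] at h1

/-- **PROJ** (general form, on `J[n]`): the Eisenstein projector. -/
theorem exists_eis_projector_gen (ε : R →+* ℤ) (r n : ℕ)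
    (hfin : {v : J | n • v = 0}.Finite) :
    ∃ e : R, (r : ℤ) ∣ ε e - 1 ∧
      (∀ y : J, n • y = 0 → e • (e • y) = e • y) ∧
      (∀ t : R, (r : ℤ) ∣ ε t → ∃ N : ℕ, ∀ v : J, n • v = 0 → e • v = v → t ^ N • v = 0) := by
  classical
  haveI : Finite (ImgTors R J n) := finite_imgTors hfin
  haveI : Fintype (ImgTors R J n) := Fintype.ofFinite _
  set mk := Ideal.Quotient.mk (RingHom.ker (actTors R J n)) with hmk
  -- the image of `𝔓`
  set S : Finset (ImgTors R J n) :=
    Finset.univ.filter (fun a => ∃ t : R, (r : ℤ) ∣ ε t ∧ mk t = a) with hS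
  -- representatives and exponents
  let pick : ImgTors R J n → R := fun a =>
    if h : ∃ t : R, (r : ℤ) ∣ ε t ∧ mk t = a then h.choose else 0
  have hpick_dvd : ∀ a, (r : ℤ) ∣ ε (pick a) := by
    intro a
    by_cases h : ∃ t : R, (r : ℤ) ∣ ε t ∧ mk t = a
    · simp only [pick, dif_pos h]
      exact h.choose_spec.1
    · simp only [pick, dif_neg h, map_zero, dvd_zero]
  have hpick_mk : ∀ a ∈ S, mk (pick a) = a := by
    intro a ha
    have h : ∃ t : R, (r : ℤ) ∣ ε t ∧ mk t = a := (Finset.mem_filter.1 ha).2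
    simp only [pick, dif_pos h]
    exact h.choose_spec.2
  let Nid : ImgTors R J n → ℕ := fun a => (exists_pow_idem a).choose
  have hNid_pos : ∀ a, 0 < Nid a := fun a => (exists_pow_idem a).choose_spec.1
  have hNid : ∀ a, a ^ (2 * Nid a) = a ^ Nid a := fun a => (exists_pow_idem a).choose_spec.2
  have hidem : ∀ a : ImgTors R J n, IsIdempotentElem (1 - a ^ Nid a) := by
    intro a
    apply IsIdempotentElem.one_sub
    show a ^ Nid a * a ^ Nid a = a ^ Nid a
    rw [← pow_add, ← two_mul, hNid]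
  set e : R := ∏ a ∈ S, (1 - pick a ^ Nid a) with he
  have hmke : mk e = ∏ a ∈ S, (1 - a ^ Nid a) := by
    rw [he, map_prod]
    refine Finset.prod_congr rfl fun a ha => ?_
    rw [map_sub, map_one, map_pow, hpick_mk a ha]
  have hmke_idem : IsIdempotentElem (mk e) := by
    rw [hmke]
    refine Finset.prod_induction _ IsIdempotentElem (fun a b ha hb => ha.mul hb)
      IsIdempotentElem.one fun a _ => hidem a
  refine ⟨e, ?_, ?_, ?_⟩
  · -- `ε e ≡ 1 mod r`
    have h1 : ((ε e : ℤ) : ZMod r) = 1 := by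
      rw [he, map_prod, Int.cast_prod]
      refine Finset.prod_eq_one fun a _ => ?_
      rw [map_sub, map_one, map_pow, Int.cast_sub, Int.cast_one, Int.cast_pow,
        (ZMod.intCast_zmod_eq_zero_iff_dvd _ _).2 (hpick_dvd a), zero_pow (hNid_pos a).ne',
        sub_zero]
    rw [← ZMod.intCast_zmod_eq_zero_iff_dvd, Int.cast_sub, h1, Int.cast_one, sub_self]
  · -- idempotent
    intro y hy
    rw [← mul_smul]
    refine smul_eq_of_mk_eq (n := n) ?_ hy
    rw [map_mul]
    exact hmke_idem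
  · -- nilpotency
    intro t ht
    have haS : mk t ∈ S := Finset.mem_filter.2 ⟨Finset.mem_univ _, t, ht, rfl⟩
    refine ⟨Nid (mk t), fun v hv hev => ?_⟩
    have hzero : mk (t ^ Nid (mk t) * e) = mk 0 := by
      rw [map_mul, map_pow, hmke, ← Finset.mul_prod_erase S _ haS, ← mul_assoc, map_zero]
      have : mk t ^ Nid (mk t) * (1 - mk t ^ Nid (mk t)) = 0 := by
        rw [mul_sub, mul_one, ← pow_add, ← two_mul, hNid, sub_self]
      rw [this, zero_mul]
    have h1 := smul_eq_of_mk_eq (n := n) hzero hv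
    rw [zero_smul, mul_smul, hev] at h1
    exact h1

/-- **PROJ**: the Eisenstein projector on `J[r^(k+1)]`, in the shape used by `selB_abstract`
(`hidem`) and `sel_bound` (`hEis` of `es_nilpotent`). -/
theorem exists_eis_projector (ε : R →+* ℤ) (r k : ℕ)
    (hfin : {v : J | r ^ (k + 1) • v = 0}.Finite) :
    ∃ e : R, (r : ℤ) ∣ ε e - 1 ∧
      (∀ y : J, r ^ (k + 1) • y = 0 → e • (e • y) = e • y) ∧
      (∀ t : R, (r : ℤ) ∣ ε t → ∃ N : ℕ, ∀ v : J, r • v = 0 → e • v = v → t ^ N • v = 0) := by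
  obtain ⟨e, h1, h2, h3⟩ := exists_eis_projector_gen (J := J) ε r (r ^ (k + 1)) hfin
  refine ⟨e, h1, h2, fun t ht => ?_⟩
  obtain ⟨N, hN⟩ := h3 t ht
  refine ⟨N, fun v hv hev => hN v ?_ hev⟩
  rw [pow_succ', mul_nsmul, hv, smul_zero]

/-- The projector is not in the Eisenstein prime: `r ∤ ε e` (for `r ≠ 1`). -/
theorem not_dvd_of_dvd_sub_one {r : ℕ} (hr : r ≠ 1) {a : ℤ} (h : (r : ℤ) ∣ a - 1) :
    ¬ (r : ℤ) ∣ a := by
  intro h2
  have h3 : (r : ℤ) ∣ 1 := by
    have := dvd_sub h2 h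
    rwa [sub_sub_cancel] at this
  have h4 : (r : ℤ) = 1 := Int.eq_one_of_dvd_one (Int.natCast_nonneg r) h3
  exact hr (by exact_mod_cast h4)

end Proj

end Fermat.Agent.S15.Desc.H87

end
end
-- ==== END Fermat.Agent.S15.Desc.H87_Proj

-- ==== BEGIN Fermat.Agent.S15.Desc.H97_Conj
section

/-!
# S15 / DESC, NUM-∞, leaf EXC: a complex conjugation in `G_ℚ` (helper97)

`exists_conj`: there are an embedding `ι : ℚ̄ → ℂ` and `c ∈ G_ℚ` with `ι ∘ c = conj ∘ ι`,
`c * c = 1`, and `c ζ = ζ⁻¹ ≠ ζ` for every primitive `r`-th root of unity `ζ`, `2 < r`.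
(`ι = complexEmbedding`, `c = complexConjugation` of the prelude.)
-/

set_option autoImplicit false

open scoped ComplexConjugate

noncomputable section

namespace Fermat.Agent.S15.Desc.H97

/-- The complex conjugation of the prelude inverts the roots of unity. -/
theorem complexConjugation_rootOfUnity {z : AlgebraicClosure ℚ} {n : ℕ} (hn : n ≠ 0)
    (hz : z ^ n = 1) : complexConjugation z = z⁻¹ := by
  have hinj : Function.Injective complexEmbedding := complexEmbedding.toRingHom.injective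
  apply hinj
  rw [complexEmbedding_complexConjugation, map_inv₀]
  have h1 : (complexEmbedding z) ^ n = 1 := by rw [← map_pow, hz, map_one]
  have h2 : ‖complexEmbedding z‖ = 1 := Complex.norm_eq_one_of_pow_eq_one h1 hn
  exact (Complex.inv_eq_conj h2).symm

/-- The complex conjugation of the prelude moves the primitive `r`-th roots of unity, `2 < r`. -/
theorem complexConjugation_primitiveRoot_ne {ζ : AlgebraicClosure ℚ} {r : ℕ} (hr : 2 < r)
    (hζ : IsPrimitiveRoot ζ r) : complexConjugation ζ ≠ ζ := by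
  rw [complexConjugation_rootOfUnity (by omega : r ≠ 0) hζ.pow_eq_one]
  intro h
  have h0 : ζ ≠ 0 := hζ.ne_zero (by omega)
  have h2 : ζ ^ 2 = 1 := by
    rw [sq]
    nth_rewrite 1 [← h]
    exact inv_mul_cancel₀ h0
  exact hζ.pow_ne_one_of_pos_of_lt (by norm_num) hr h2

/-- **EXC**: an embedding `ι : ℚ̄ → ℂ` and an element `c` of `G_ℚ` inducing the complex conjugation
through `ι`; `c` is an involution and moves every primitive `r`-th root of unity, `2 < r`. -/
theorem exists_conj :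
    ∃ (ι : AlgebraicClosure ℚ →+* ℂ) (c : AlgebraicClosure ℚ ≃ₐ[ℚ] AlgebraicClosure ℚ),
      (∀ a : AlgebraicClosure ℚ, ι (c a) = conj (ι a)) ∧ c * c = 1 ∧
      (∀ (z : AlgebraicClosure ℚ) (n : ℕ), n ≠ 0 → z ^ n = 1 → c z = z⁻¹) ∧
      ∀ (r : ℕ) (ζ : AlgebraicClosure ℚ), 2 < r → IsPrimitiveRoot ζ r → c ζ ≠ ζ :=
  ⟨complexEmbedding.toRingHom, complexConjugation, complexEmbedding_complexConjugation,
    complexConjugation_mul_self, fun _ _ hn hz => complexConjugation_rootOfUnity hn hz,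
    fun _ _ hr hζ => complexConjugation_primitiveRoot_ne hr hζ⟩

/-- Primitive roots of unity exist in `ℚ̄`. -/
theorem exists_primitiveRoot_Qbar (r : ℕ) (hr : r ≠ 0) :
    ∃ ζ : AlgebraicClosure ℚ, IsPrimitiveRoot ζ r :=
  haveI : NeZero r := ⟨hr⟩
  HasEnoughRootsOfUnity.exists_primitiveRoot (AlgebraicClosure ℚ) r

/-- EXC in the shape of `Stmt_NUMinfOdd`. -/
theorem exists_conj_root (r : ℕ) (hr : 2 < r) :
    ∃ (ι : AlgebraicClosure ℚ →+* ℂ) (c : AlgebraicClosure ℚ ≃ₐ[ℚ] AlgebraicClosure ℚ)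
      (ζ : AlgebraicClosure ℚ),
      (∀ a : AlgebraicClosure ℚ, ι (c a) = conj (ι a)) ∧ c * c = 1 ∧ IsPrimitiveRoot ζ r ∧
        c ζ ≠ ζ := by
  obtain ⟨ι, c, h1, h2, -, h4⟩ := exists_conj
  obtain ⟨ζ, hζ⟩ := exists_primitiveRoot_Qbar r (by omega)
  exact ⟨ι, c, ζ, h1, h2, hζ, h4 r ζ hr hζ⟩

end Fermat.Agent.S15.Desc.H97

end
end
-- ==== END Fermat.Agent.S15.Desc.H97_Conj
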