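-- GENERATED (merged mirror, NOTES/tools/trim/merge3_helper67.py): 8 modules of the originals, bodies verbatim.
import Mathlib
import Fermat.Statements.S18
import Fermat.Agent.Zm.S35_L11_001
import Fermat.Agent.Zm.S35_L07_003
import Fermat.Agent.Zm.S35_L10_003
import Fermat.Agent.Zm.S35_L03_004
import Fermat.Agent.Zm.S44_L01_002
import Fermat.Agent.Zm.S35_L14_002
import Fermat.Agent.Zm.S35_L09_002
import Fermat.Agent.Zm.S44_L02_003
import Fermat.Agent.RED.H17_Place
import Fermat.Agent.S15.H11_BRDefs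
import Fermat.Agent.Zm.S44_L05_000
import Fermat.Agent.S05.H14_VarChange
import Fermat.Agent.S05.H15_Val
import Fermat.Agent.Zm.S35_L12_001
import Fermat.Agent.Zm.S35_L18_000
import Fermat.Agent.Zm.S56_L12_001

-- ==== BEGIN Fermat.Agent.S15.H26_CuspNe
section
attribute [local instance 10000] SubalgebraClass.toAlgebra
attribute [local instance 10000] HahnSeries.powerSeriesAlgebra

/-!
# S15, package CUSP-ne (helper26): `[P∞ - P0] ≠ 0` on `X₀(p)`, `p ∉ {2, 3, 5, 7, 13}`

If `P∞ - P0 = div f`, then `f` has a single simple zero, so `[F : K(f)] = 1` (zeros theorem) and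
every `f - a` has a single simple zero.  Hence `-2 • P0` is the divisor of `df`
(`ff_ordDifferential_zero / pole`), of degree `-2`.  The Riemann–Hurwitz count of S24 for `x = j`
(`ff_riemann_hurwitz_of_zeros` with the counts `asm_card_zeros_*`, `asm_card_poles`) and the
arithmetic `asm_genus_arith` give `genusFormula p = 0`, which is false for `p ∉ {2, 3, 5, 7, 13}`.
-/

set_option autoImplicit false
set_option linter.style.haveILetI false
set_option linter.unusedSectionVars false
set_option linter.unusedVariables false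

noncomputable section

open HahnSeries IntermediateField AlgebraicCurve ModularCurve KaehlerDifferential

namespace Fermat.Agent.S15.H26

open Fermat.Agent.S24 (Kbar FN jF modClosure asm_finrank asm_finiteDimensional
  asm_transcendental_jF h72_zerosStmt)

/-! ## Arithmetic: `genusFormula p > 0` -/

theorem cuspCount_prime {p : ℕ} (hp : p.Prime) : cuspCount p = 2 := by
  rw [cuspCount, Nat.Prime.divisors hp, Finset.sum_pair hp.one_lt.ne]
  simp [Nat.div_self hp.pos]

theorem nuTwo_le_two {p : ℕ} (hp : p.Prime) : nuTwo p ≤ 2 := by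
  haveI : Fact p.Prime := ⟨hp⟩
  classical
  rw [nuTwo]
  have hne : (Polynomial.X ^ 2 + 1 : Polynomial (ZMod p)) ≠ 0 := by
    intro h
    have := congrArg (fun q => Polynomial.coeff q 2) h
    simp [Polynomial.coeff_one] at this
  have hdeg : (Polynomial.X ^ 2 + 1 : Polynomial (ZMod p)).natDegree ≤ 2 := by
    refine (Polynomial.natDegree_add_le _ _).trans ?_
    simp
  have hsub : {x : ZMod p | x ^ 2 + 1 = 0} ⊆
      ((Polynomial.X ^ 2 + 1 : Polynomial (ZMod p)).roots.toFinset : Set (ZMod p)) := by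
    intro x hx
    rw [Finset.mem_coe, Multiset.mem_toFinset, Polynomial.mem_roots hne]
    simpa [Polynomial.IsRoot] using hx
  calc Nat.card {x : ZMod p // x ^ 2 + 1 = 0}
      = Set.ncard {x : ZMod p | x ^ 2 + 1 = 0} := (Nat.card_coe_set_eq _)
    _ ≤ Set.ncard ((Polynomial.X ^ 2 + 1 : Polynomial (ZMod p)).roots.toFinset : Set (ZMod p)) :=
        Set.ncard_le_ncard hsub (Finset.finite_toSet _)
    _ = ((Polynomial.X ^ 2 + 1 : Polynomial (ZMod p)).roots.toFinset).card :=
        Set.ncard_coe_finset _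
    _ ≤ Multiset.card (Polynomial.X ^ 2 + 1 : Polynomial (ZMod p)).roots :=
        Multiset.toFinset_card_le _
    _ ≤ (Polynomial.X ^ 2 + 1 : Polynomial (ZMod p)).natDegree := Polynomial.card_roots' _
    _ ≤ 2 := hdeg

theorem nuThree_le_two {p : ℕ} (hp : p.Prime) : nuThree p ≤ 2 := by
  haveI : Fact p.Prime := ⟨hp⟩
  classical
  rw [nuThree]
  have hne : (Polynomial.X ^ 2 + Polynomial.X + 1 : Polynomial (ZMod p)) ≠ 0 := by
    intro h
    have := congrArg (fun q => Polynomial.coeff q 2) h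
    simp [Polynomial.coeff_one, Polynomial.coeff_X] at this
  have hdeg : (Polynomial.X ^ 2 + Polynomial.X + 1 : Polynomial (ZMod p)).natDegree ≤ 2 := by
    refine (Polynomial.natDegree_add_le _ _).trans ?_
    refine max_le ((Polynomial.natDegree_add_le _ _).trans ?_) (by simp)
    simp
  have hsub : {x : ZMod p | x ^ 2 + x + 1 = 0} ⊆
      ((Polynomial.X ^ 2 + Polynomial.X + 1 : Polynomial (ZMod p)).roots.toFinset :
        Set (ZMod p)) := by
    intro x hx
    rw [Finset.mem_coe, Multiset.mem_toFinset, Polynomial.mem_roots hne]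
    simpa [Polynomial.IsRoot] using hx
  calc Nat.card {x : ZMod p // x ^ 2 + x + 1 = 0}
      = Set.ncard {x : ZMod p | x ^ 2 + x + 1 = 0} := (Nat.card_coe_set_eq _)
    _ ≤ Set.ncard ((Polynomial.X ^ 2 + Polynomial.X + 1 : Polynomial (ZMod p)).roots.toFinset :
          Set (ZMod p)) :=
        Set.ncard_le_ncard hsub (Finset.finite_toSet _)
    _ = ((Polynomial.X ^ 2 + Polynomial.X + 1 : Polynomial (ZMod p)).roots.toFinset).card :=
        Set.ncard_coe_finset _
    _ ≤ Multiset.card (Polynomial.X ^ 2 + Polynomial.X + 1 : Polynomial (ZMod p)).roots :=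
        Multiset.toFinset_card_le _
    _ ≤ (Polynomial.X ^ 2 + Polynomial.X + 1 : Polynomial (ZMod p)).natDegree :=
        Polynomial.card_roots' _
    _ ≤ 2 := hdeg

theorem nuTwo_eleven : nuTwo 11 = 0 := by
  rw [nuTwo]
  haveI : IsEmpty {x : ZMod 11 // x ^ 2 + 1 = 0} := by
    refine ⟨fun ⟨x, hx⟩ => ?_⟩
    revert x
    decide
  exact Nat.card_of_isEmpty

theorem nuThree_eleven : nuThree 11 = 0 := by
  rw [nuThree]
  haveI : IsEmpty {x : ZMod 11 // x ^ 2 + x + 1 = 0} := by
    refine ⟨fun ⟨x, hx⟩ => ?_⟩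
    revert x
    decide
  exact Nat.card_of_isEmpty

theorem dedekindPsi_prime {p : ℕ} (hp : p.Prime) : dedekindPsi p = p + 1 := by
  have := Fermat.Agent.S20.H19.dedekindPsi_prime_pow hp (n := 1) one_pos
  simpa using this

/-- The genus formula is positive at the primes `p ∉ {2, 3, 5, 7, 13}`. -/
theorem genusFormula_pos {p : ℕ} (hp : p.Prime) (hp' : p ∉ ({2, 3, 5, 7, 13} : Finset ℕ)) :
    0 < genusFormula p := by
  rw [genusFormula, dedekindPsi_prime hp, cuspCount_prime hp]
  have h2 := nuTwo_le_two hp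
  have h3 := nuThree_le_two hp
  have h2' : (nuTwo p : ℚ) ≤ 2 := by exact_mod_cast h2
  have h3' : (nuThree p : ℚ) ≤ 2 := by exact_mod_cast h3
  simp only [Finset.mem_insert, Finset.mem_singleton, not_or] at hp'
  obtain ⟨n2, n3, n5, n7, n13⟩ := hp'
  by_cases h11 : p = 11
  · subst h11
    rw [nuTwo_eleven, nuThree_eleven]
    norm_num
  · have hge : 17 ≤ p := by
      by_contra hlt
      rw [not_le] at hlt
      have h1 := hp.two_le
      interval_cases p <;> first | omega | (exfalso; revert hp; decide)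
    have hge' : (17 : ℚ) ≤ (p : ℚ) := by exact_mod_cast hge
    push_cast
    linarith


/-! ## The main argument -/

open Fermat.Agent.S24 in
/-- A function with a zero or a pole is not constant. -/
theorem transcendental_of_ord_ne_zero {p : ℕ} [NeZero p] {f : FN p} (v : PlaceBar p)
    (hv : v.ord f ≠ 0) : Transcendental Kbar f := by
  intro halg
  have hint : IsIntegral Kbar f := halg.isIntegral
  have hdeg1 : (minpoly Kbar f).degree = 1 :=
    IsAlgClosed.degree_eq_one_of_irreducible Kbar (minpoly.irreducible hint)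
  obtain ⟨a, ha⟩ := minpoly.mem_range_of_degree_eq_one Kbar f hdeg1
  apply hv
  rw [← ha]
  exact Fermat.Agent.S24.H59.ord_algebraMap_eq_zero' v a

open Fermat.Agent.S24 ModularGroup in
/-- **CUSP-ne**: the cuspidal class `[P∞ - P0]` of `X₀(p)` is not zero, `p ∉ {2, 3, 5, 7, 13}`. -/
theorem stmt_cuspNe (p : ℕ) [NeZero p] (hp : p.Prime)
    (hp' : p ∉ ({2, 3, 5, 7, 13} : Finset ℕ)) : Stmt_cuspNe p := by
  classical
  intro Pinf P0 h hzero
  have hne : Pinf ≠ P0 := Fermat.Agent.S15.H30.isCuspPair_ne hp.two_le h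
  -- the function `f` with divisor `P∞ - P0`
  have hprin : (Finsupp.single Pinf 1 - Finsupp.single P0 1 : Divisor Kbar (FN p)) ∈
      Divisor.principal (K := Kbar) (F := FN p) := by
    have h1 := (QuotientAddGroup.eq_zero_iff _).mp hzero
    exact AddSubgroup.mem_addSubgroupOf.mp h1
  obtain ⟨f, hf0, hf⟩ := hprin
  have hord : ∀ v : PlaceBar p,
      v.ord f = (if Pinf = v then 1 else 0) - (if P0 = v then 1 else 0) := fun v => by
    rw [← hf v, Finsupp.sub_apply, Finsupp.single_apply, Finsupp.single_apply]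
  have hordInf : Pinf.ord f = 1 := by
    rw [hord Pinf, if_pos rfl, if_neg (Ne.symm hne)]; norm_num
  have hordP0 : P0.ord f = -1 := by
    rw [hord P0, if_neg hne, if_pos rfl]; norm_num
  have hx := asm_transcendental_jF (modClosure p)
  haveI := asm_finiteDimensional (modClosure p)
  have hzeros : H59.ZerosStmt Kbar (FN p) := fun y hy _ => ff_zeros y hy
  have htr : Transcendental Kbar f :=
    transcendental_of_ord_ne_zero Pinf (by rw [hordInf]; norm_num)
  haveI hfd : FiniteDimensional Kbar⟮f⟯ (FN p) := ff_finite_of_transcendental (jF p) hx f htr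
  -- `[F : K(f)] = 1`
  have hn1 : Module.finrank Kbar⟮f⟯ (FN p) = 1 := by
    obtain ⟨hfin, hsum⟩ := hzeros f htr
    have hset : {v : PlaceBar p | 0 < v.ord f} = {Pinf} := by
      ext v
      simp only [Set.mem_ofPred_eq, Set.mem_singleton_iff]
      constructor
      · intro hv
        rw [hord v] at hv
        by_contra hvne
        rw [if_neg (fun e => hvne e.symm)] at hv
        split_ifs at hv <;> omega
      · rintro rfl
        rw [hordInf]; norm_num
    rw [hset, finsum_mem_singleton, hordInf] at hsum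
    exact_mod_cast hsum.symm
  -- every zero of `f - a` is simple
  have hsimple : ∀ (a : Kbar) (v : PlaceBar p), 0 < v.ord (f - algebraMap Kbar (FN p) a) →
      v.ord (f - algebraMap Kbar (FN p) a) = 1 := by
    intro a v hv
    obtain ⟨Z, hZ, hZsum, -⟩ := H85.zeros_sub f htr (fun y hy hfd => @hzeros y hy hfd) a
    rw [hn1] at hZsum
    have hvZ : v ∈ Z := (hZ v).2 hv
    have hle : v.ord (f - algebraMap Kbar (FN p) a) ≤
        ∑ w ∈ Z, w.ord (f - algebraMap Kbar (FN p) a) :=
      Finset.single_le_sum (f := fun w : PlaceBar p => w.ord (f - algebraMap Kbar (FN p) a))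
        (fun w hw => ((hZ w).1 hw).le) hvZ
    rw [hZsum] at hle
    push_cast at hle
    omega
  -- the divisor of `df`
  have hω : D Kbar (FN p) f ≠ 0 := ff_D_ne_zero (jF p) hx f htr
  have hD : ∀ v : PlaceBar p, (Finsupp.single P0 (-2) : Divisor Kbar (FN p)) v
      = v.ordDifferential (D Kbar (FN p) f) := by
    intro v
    by_cases hv : P0 = v
    · subst hv
      rw [Finsupp.single_eq_same,
        ff_ordDifferential_pole (jF p) hx P0 f (by rw [hordP0]; norm_num), hordP0]
      norm_num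
    · rw [Finsupp.single_apply, if_neg hv]
      have hreg : 0 ≤ v.ord f := by
        rw [hord v, if_neg hv]
        split_ifs <;> norm_num
      have hmem : f ∈ v.toValuationSubring := H85.mem_of_ord_nonneg v hreg
      obtain ⟨a, ha⟩ := H85.exists_ord_sub_pos v (ff_deg_eq_one (jF p) hx v) htr hmem
      rw [ff_ordDifferential_zero (jF p) hx v f a ha, hsimple a v ha]
      norm_num
  -- Riemann–Hurwitz for `x = j`
  have hN : 1 < p := hp.one_lt
  have hn := asm_finrank (modClosure p)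
  have h01728 : (0 : Kbar) ≠ 1728 := by norm_num
  have key := ff_riemann_hurwitz_of_zeros hzeros (jF p) hx {0, 1728}
    (fun a => if a = 0 then orbN p (S * T) else orbN p S)
    (by
      intro a ha
      rcases Finset.mem_insert.mp ha with rfl | ha
      · simpa using asm_card_zeros_zero (modClosure p) hN
      · rw [Finset.mem_singleton] at ha
        subst ha
        simpa [h01728.symm] using asm_card_zeros_1728 (modClosure p) hN)
    (by
      intro a ha
      rw [Finset.mem_insert, Finset.mem_singleton, not_or] at ha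
      rw [hn]
      exact asm_card_zeros_generic (modClosure p) a ha.1 ha.2)
    (orbN p T) (asm_card_poles (modClosure p)) (D Kbar (FN p) f) hω
    (Finsupp.single P0 (-2)) hD
  have hdeg : Divisor.degree (Finsupp.single P0 (-2) : Divisor Kbar (FN p)) = -2 := by
    rw [Divisor.degree_single, h.deg_zero]
    norm_num
  have harith := asm_genus_arith p (-2) (by
    rw [← hdeg, key, Finset.sum_pair h01728, hn]
    simp [h01728.symm])
  have h0 : genusFormula p = 0 := by
    rw [← harith]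
    norm_num
  exact absurd h0 (genusFormula_pos hp hp').ne'

end Fermat.Agent.S15.H26

end
end
-- ==== END Fermat.Agent.S15.H26_CuspNe

-- ==== BEGIN Fermat.Agent.S15.H30_BRPlace
section
attribute [local instance 10000] SubalgebraClass.toAlgebra
attribute [local instance 10000] HahnSeries.powerSeriesAlgebra

/-!
# S15, package BR-PLACE (helper30): the place of `X₀(p)` at a point of `ℍ`

For `τ ∈ ℍ` the valuation "order of vanishing at `τ`" of the Galois closure (`S24.wN`) restricts
to `F_N` and defines a place `placeAt N τ`.  A function `x ∈ F_N` whose image in the closure is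
a holomorphic function `f` vanishing at `τ` has positive order at `placeAt N τ`.
Hence `Stmt_BRplace`.
-/

set_option autoImplicit false
set_option synthInstance.maxHeartbeats 400000

noncomputable section

open HahnSeries AlgebraicCurve ModularCurve UpperHalfPlane WithZero

namespace Fermat.Agent.S15.H30

open Fermat.Agent.S24
open Fermat.Agent.RED.KD.H22 (placeOfValuation exists_ord_placeOfValuation)

variable (N : ℕ) [NeZero N]

/-- The valuation of `F_N` at the point `τ`. -/
def valAt (τ : ℍ) : Valuation (FN N) ℤᵐ⁰ := (wN N τ).comap (phi N).toRingHom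

theorem valAt_apply (τ : ℍ) (x : FN N) : valAt N τ x = wN N τ (phi N x) := rfl

theorem valAt_of_phi (τ : ℍ) (x : FN N) (f : AT N) (h : phi N x = algebraMap (AT N) (LN N) f) :
    valAt N τ x = Hol.ordVal τ (valAT N f) := by
  rw [valAt_apply, h, wN_algebraMap_AT, wAT_apply]

theorem valAt_algebraMap_le (τ : ℍ) (c : Kbar) : valAt N τ (algebraMap Kbar (FN N) c) ≤ 1 := by
  rw [valAt_apply, (phi N).commutes]
  by_cases hc : c = 0
  · rw [hc, map_zero, map_zero]
    exact zero_le_one
  · rw [wN_algebraMap N τ c hc]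

theorem phi_jF_sub (b : Kbar) :
    phi N (jF N - algebraMap Kbar (FN N) b)
      = algebraMap (AT N) (LN N) (jT N - algebraMap Kbar (AT N) b) := by
  rw [map_sub, phi_jF, (phi N).commutes, map_sub,
    ← IsScalarTower.algebraMap_apply Kbar (AT N) (LN N)]

theorem valAt_jF_sub (τ : ℍ) (b : Kbar) (h : jAn τ = iotaC b) :
    valAt N τ (jF N - algebraMap Kbar (FN N) b) < 1 := by
  rw [valAt_of_phi N τ _ _ (phi_jF_sub N b), Hol.ordVal_lt_one_iff, valAT_j_sub_apply, h, sub_self]

theorem jF_sub_ne_zero (b : Kbar) : jF N - algebraMap Kbar (FN N) b ≠ 0 := by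
  intro h
  have h1 := congrArg (phi N) h
  rw [phi_jF_sub, map_zero] at h1
  have h2 : jT N - algebraMap Kbar (AT N) b = 0 :=
    (IsFractionRing.injective (AT N) (LN N)) (by rw [h1, map_zero])
  exact valAT_j_sub_ne_zero N b (by rw [h2, map_zero])

theorem valAt_nontrivial (τ : ℍ) (b : Kbar) (h : jAn τ = iotaC b) :
    ∃ x : FN N, x ≠ 0 ∧ valAt N τ x ≠ 1 :=
  ⟨_, jF_sub_ne_zero N b, (valAt_jF_sub N τ b h).ne⟩

/-- The place of `F_N` at a point `τ` with algebraic `j(τ)`. -/
def placeAt (τ : ℍ) (b : Kbar) (h : jAn τ = iotaC b) : Place Kbar (FN N) :=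
  placeOfValuation (valAt N τ) (valAt_algebraMap_le N τ) (valAt_nontrivial N τ b h)

/-- A nonzero function with valuation `< 1` has positive order. -/
theorem ord_placeAt_pos (τ : ℍ) (b : Kbar) (h : jAn τ = iotaC b) (x : FN N) (hx : x ≠ 0)
    (hv : valAt N τ x < 1) : 0 < (placeAt N τ b h).ord x := by
  obtain ⟨e, he, hord⟩ := exists_ord_placeOfValuation (valAt N τ) (valAt_algebraMap_le N τ)
    (valAt_nontrivial N τ b h)
  have h1 := hord x hx
  have hv0 : valAt N τ x ≠ 0 := (Valuation.ne_zero_iff _).mpr hx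
  have h2 : WithZero.log (valAt N τ x) < 0 := by
    rw [← WithZero.log_one]
    exact (WithZero.log_lt_log hv0 one_ne_zero).mpr hv
  have h3 : (0 : ℤ) < (e : ℤ) * (placeAt N τ b h).ord x := by
    have : (e : ℤ) * (placeAt N τ b h).ord x = -(WithZero.log (valAt N τ x)) := h1.symm
    rw [this]
    omega
  have he' : (0 : ℤ) < (e : ℤ) := by exact_mod_cast he
  exact (mul_pos_iff_of_pos_left he').mp h3

theorem ord_placeAt_jF_sub (τ : ℍ) (b : Kbar) (h : jAn τ = iotaC b) :
    0 < (placeAt N τ b h).ord (jF N - algebraMap Kbar (FN N) b) :=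
  ord_placeAt_pos N τ b h _ (jF_sub_ne_zero N b) (valAt_jF_sub N τ b h)

/-! ### The value of `j(d z)` -/

theorem phi_jdF_sub (d : ℕ) [NeZero d] (hd : d ∣ N) (a : Kbar) :
    phi N (jdF N d hd - algebraMap Kbar (FN N) a)
      = algebraMap (AT N) (LN N) (toAT N (jdA N d) - algebraMap Kbar (AT N) a) := by
  rw [map_sub, phi_jdF, (phi N).commutes, map_sub,
    ← IsScalarTower.algebraMap_apply Kbar (AT N) (LN N)]

theorem valAT_jdA_sub_apply (d : ℕ) [NeZero d] (hd : d ∣ N) (a : Kbar) (τ : ℍ) :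
    ((valAT N (toAT N (jdA N d) - algebraMap Kbar (AT N) a) : Hol) : ℍ → ℂ) τ
      = (JA !![(d : ℤ), 0; 0, 1] : ℍ → ℂ) τ - iotaC a := by
  have h1 : valAT N (toAT N (jdA N d) - algebraMap Kbar (AT N) a)
      = valAT N (toAT N (jdA N d)) - valAT N (algebraMap Kbar (AT N) a) := RingHom.map_sub _ _ _
  rw [h1]
  have h2 : valAT N (toAT N (jdA N d)) = ((jdA N d : Atil N) : Hol) := by
    show (((toAT N).symm (toAT N (jdA N d)) : Atil N) : Hol) = _
    rw [AlgEquiv.symm_apply_apply]
  rw [h2, jdA_coe N d (Nat.pos_of_ne_zero (NeZero.ne d)) hd]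
  rfl

theorem JA_diag_apply (d : ℕ) [NeZero d] (τ τ' : ℍ) (h : (τ' : ℂ) = (d : ℂ) * (τ : ℂ)) :
    (JA !![(d : ℤ), 0; 0, 1] : ℍ → ℂ) τ = jAn τ' := by
  have hdet : 0 < (!![(d : ℤ), 0; 0, 1] : Matrix (Fin 2) (Fin 2) ℤ).det := by
    simpa [Matrix.det_fin_two] using Nat.pos_of_ne_zero (NeZero.ne d)
  rw [JA_apply _ hdet]
  congr 1
  apply UpperHalfPlane.ext
  rw [coe_intGL_smul, h]
  simp

theorem valAt_jdF_sub (d : ℕ) [NeZero d] (hd : d ∣ N) (τ τ' : ℍ)
    (h : (τ' : ℂ) = (d : ℂ) * (τ : ℂ)) (a : Kbar)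
    (ha : jAn τ' = iotaC a) :
    valAt N τ (jdF N d hd - algebraMap Kbar (FN N) a) < 1 := by
  rw [valAt_of_phi N τ _ _ (phi_jdF_sub N d hd a), Hol.ordVal_lt_one_iff,
    valAT_jdA_sub_apply N d hd a τ, JA_diag_apply d τ τ' h, ha, sub_self]

theorem jdF_sub_ne_zero (d : ℕ) [NeZero d] (hd : d ∣ N) (a : Kbar) :
    jdF N d hd - algebraMap Kbar (FN N) a ≠ 0 := by
  intro h
  have h1 : ((jdF N d hd : FN N) : LaurentSeries Kbar) = algebraMap Kbar (LaurentSeries Kbar) a := by
    have := congrArg (Subtype.val : FN N → LaurentSeries Kbar) (sub_eq_zero.mp h)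
    exact this
  have h2 := congrArg HahnSeries.order h1
  rw [Fermat.Agent.S15.H22.jdF_coe, Fermat.Agent.S15.H22.order_qExpand d _
    Fermat.Agent.RED.KD.H22.jBar_ne_zero, Fermat.Agent.RED.KD.H22.jBar_order,
    algebraMap_laurentSeries_eq_single] at h2
  have hd0 : (0 : ℤ) < (d : ℤ) := by exact_mod_cast Nat.pos_of_ne_zero (NeZero.ne d)
  by_cases ha : a = 0
  · rw [ha, HahnSeries.single_eq_zero, HahnSeries.order_zero] at h2
    omega
  · rw [HahnSeries.order_single ha] at h2
    omega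

end Fermat.Agent.S15.H30

namespace Fermat.Agent.S15.H30

open Fermat.Agent.S24

/-- **BR-PLACE**. -/
theorem stmt_BRplace : Stmt_BRplace := by
  intro p _ hp b a ⟨τ₁, τ₂, hτ, hb, ha⟩
  refine ⟨placeAt p τ₁ b hb, Fermat.Agent.S15.H22.place_deg_eq_one p _, ?_, ?_⟩
  · exact ord_placeAt_jF_sub p τ₁ b hb
  · exact ord_placeAt_pos p τ₁ b hb _ (jdF_sub_ne_zero p p dvd_rfl a)
      (valAt_jdF_sub p p dvd_rfl τ₁ τ₂ hτ a ha)

end Fermat.Agent.S15.H30

end
end
-- ==== END Fermat.Agent.S15.H30_BRPlace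

-- ==== BEGIN Fermat.Agent.S15.H40_SelAlg
section

/-!
# S15: the algebraic core in Selmer form (helper40)

`key_algebra_sel` replaces the Nakayama core `key_algebra` (helper83) of Mazur's specialisation
argument: instead of the Eisenstein descent `M = ℤ c + 𝔓 M` it uses the weaker statement

  (SELB)  `∀ z ∈ M, ∃ t, r ∤ ε t ∧ ∃ h ∈ M` of `r`-power order `∧ ∃ w ∈ M, t • z = h + r • w`,

which follows from the single inequality `dim Sel(V) ≤ dim V^G` for the Eisenstein part `V` of
`J[r]` (no statement on the rational torsion, no statement on the cuspidal class is needed, and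
`M` need not be finitely generated).

Proof.  Iterating (SELB) gives `t_k • y = h_k + r ^ k • w_k` for every `k`.  The images `X₁`, `X₂` of
`M` under the two reductions are finitely generated, so for large `k` an element of `r`-power
order of `r ^ k X_i` vanishes.  At the first place `red₁ y = 0` gives `red₁ h_k = 0`, hence
`h_k = 0` by the injectivity of `red₁` on torsion of `r`-power order.  At the second place
`red₂ (ε t_k • c) = r ^ k • red₂ w_k`; multiplying by the prime-to-`r` part of the order of `c` one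
gets an element of `r`-power order, so it vanishes and `r ∣ ε t_k`: contradiction.
-/

set_option autoImplicit false

namespace Fermat.Agent.S15.H40

/-- In a finitely generated subgroup of an abelian group the elements of `r`-power order are
killed by a fixed power of `r`. -/
theorem exists_pow_kill {Y : Type*} [AddCommGroup Y] (X : AddSubgroup Y) (hX : X.FG) (r : ℕ) :
    ∃ c : ℕ, ∀ v ∈ X, (∃ j : ℕ, r ^ j • v = 0) → r ^ c • v = 0 := by
  classical
  have hfg : AddGroup.FG X := (AddGroup.fg_iff_addSubgroup_fg X).mpr hX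
  have hfin : Module.Finite ℤ X := Module.Finite.iff_addGroup_fg.mpr hfg
  let P : Submodule ℤ X :=
    { carrier := {v | ∃ j : ℕ, r ^ j • v = 0}
      zero_mem' := ⟨0, smul_zero _⟩
      add_mem' := by
        rintro a b ⟨j, hj⟩ ⟨j', hj'⟩
        refine ⟨j + j', ?_⟩
        rw [smul_add, pow_add, mul_smul, mul_smul, hj', smul_zero, add_zero, smul_comm, hj,
          smul_zero]
      smul_mem' := by
        rintro n a ⟨j, hj⟩
        exact ⟨j, by rw [smul_comm, hj, smul_zero]⟩ }
  have hPfg : P.FG := IsNoetherian.noetherian P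
  obtain ⟨S, hS⟩ := hPfg
  have hSP : ∀ s ∈ S, ∃ j : ℕ, r ^ j • s = 0 := fun s hs => by
    have : s ∈ P := hS ▸ Submodule.subset_span hs
    exact this
  choose! jf hjf using hSP
  refine ⟨S.sup jf, ?_⟩
  intro v hv hvt
  have hvP : (⟨v, hv⟩ : X) ∈ P := by
    obtain ⟨j, hj⟩ := hvt
    exact ⟨j, Subtype.ext (by simpa using hj)⟩
  have key : ∀ u ∈ P, r ^ (S.sup jf) • u = 0 := by
    intro u hu
    rw [← hS] at hu
    induction hu using Submodule.span_induction with
    | mem s hs =>
      have hle : jf s ≤ S.sup jf := Finset.le_sup hs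
      obtain ⟨d, hd⟩ := Nat.exists_eq_add_of_le hle
      rw [hd, pow_add, mul_comm, mul_smul, hjf s hs, smul_zero]
    | zero => exact smul_zero _
    | add a b _ _ ha hb => rw [smul_add, ha, hb, add_zero]
    | smul n a _ ha => rw [smul_comm, ha, smul_zero]
  have := key _ hvP
  have h2 := congrArg (Subtype.val) this
  simpa using h2

/-- In a finitely generated subgroup `X`, for `k` large, an element of `r`-power order of
`r ^ k X` vanishes. -/
theorem eq_zero_of_pow_smul {Y : Type*} [AddCommGroup Y] (X : AddSubgroup Y) (r c : ℕ)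
    (hc : ∀ v ∈ X, (∃ j : ℕ, r ^ j • v = 0) → r ^ c • v = 0)
    {k : ℕ} (hk : c ≤ k) (u v : Y) (hv : v ∈ X) (huv : u = r ^ k • v)
    (hu : ∃ j : ℕ, r ^ j • u = 0) : u = 0 := by
  obtain ⟨j, hj⟩ := hu
  have h1 : r ^ (j + k) • v = 0 := by
    rw [pow_add, mul_smul, ← huv, hj]
  have h2 : r ^ c • v = 0 := hc v hv ⟨j + k, h1⟩
  obtain ⟨d, hd⟩ := Nat.exists_eq_add_of_le hk
  rw [huv, hd, pow_add, mul_comm, mul_smul, h2, smul_zero]

variable {T J Y₁ Y₂ : Type*} [CommRing T] [AddCommGroup J] [Module T J]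
  [AddCommGroup Y₁] [AddCommGroup Y₂]

/-- Iteration of (SELB). -/
theorem selB_iterate (M : Submodule T J) (ε : T →+* ℤ) (r : ℕ) (hr : r.Prime)
    (hsel : ∀ z ∈ M, ∃ t : T, ¬ (r : ℤ) ∣ ε t ∧ ∃ h ∈ M, (∃ j : ℕ, r ^ j • h = 0) ∧
      ∃ w ∈ M, t • z = h + r • w) (k : ℕ) :
    ∀ z ∈ M, ∃ t : T, ¬ (r : ℤ) ∣ ε t ∧ ∃ h ∈ M, (∃ j : ℕ, r ^ j • h = 0) ∧
      ∃ w ∈ M, t • z = h + r ^ k • w := by
  have hrp : Prime (r : ℤ) := Nat.prime_iff_prime_int.mp hr
  induction k with
  | zero =>
    intro z hz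
    refine ⟨1, ?_, 0, M.zero_mem, ⟨0, smul_zero _⟩, z, hz, ?_⟩
    · rw [map_one]
      exact fun h => hrp.not_isUnit (isUnit_of_dvd_one h)
    · rw [one_smul, zero_add, pow_zero, one_smul]
  | succ k ih =>
    intro z hz
    obtain ⟨t, ht, h, hM, ⟨j, hj⟩, w, hwM, htz⟩ := ih z hz
    obtain ⟨t', ht', h', hM', ⟨j', hj'⟩, w', hwM', htw⟩ := hsel w hwM
    refine ⟨t' * t, ?_, t' • h + r ^ k • h', ?_, ⟨j + j', ?_⟩, w', hwM', ?_⟩
    · rw [map_mul]
      exact fun hd => (hrp.dvd_or_dvd hd).elim ht' ht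
    · exact M.add_mem (M.smul_mem t' hM) (M.toAddSubgroup.nsmul_mem hM' _)
    · have e1 : r ^ (j + j') • (t' • h) = 0 := by
        rw [pow_add, mul_comm, mul_smul, smul_comm (r ^ j) t' h, hj, smul_zero, smul_zero]
      have e2 : r ^ (j + j') • (r ^ k • h') = 0 := by
        rw [pow_add, mul_smul, smul_comm (r ^ j') (r ^ k), hj', smul_zero, smul_zero]
      rw [smul_add, e1, e2, add_zero]
    · have e3 : t' • (r ^ k • w) = r ^ k • (t' • w) := smul_comm t' (r ^ k) w
      rw [mul_smul, htz, smul_add, e3, htw, smul_add, add_assoc, pow_succ, mul_smul]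

/-- **The algebraic core of Mazur's specialisation argument, Selmer form.** -/
theorem key_algebra_sel
    (M : Submodule T J) (red₁ : J →+ Y₁) (red₂ : J →+ Y₂)
    (hHR₁ : ∀ t : T, ∀ z ∈ M, red₁ z = 0 → red₁ (t • z) = 0)
    (hHR₂ : ∀ t : T, ∀ z ∈ M, red₂ z = 0 → red₂ (t • z) = 0)
    (hfg₁ : (AddSubgroup.map red₁ M.toAddSubgroup).FG)
    (hfg₂ : (AddSubgroup.map red₂ M.toAddSubgroup).FG)
    (ε : T →+* ℤ) (c : J) (hcM : c ∈ M) (hc : ∀ t : T, t • c = ε t • c)
    (N : ℕ) (hN : N ≠ 0) (hcN : N • c = 0)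
    (r : ℕ) (hr : r.Prime)
    (hsel : ∀ z ∈ M, ∃ t : T, ¬ (r : ℤ) ∣ ε t ∧ ∃ h ∈ M, (∃ j : ℕ, r ^ j • h = 0) ∧
      ∃ w ∈ M, t • z = h + r • w)
    (hinj₁ : ∀ h : J, (∃ j : ℕ, r ^ j • h = 0) → red₁ h = 0 → h = 0)
    (hinj₂ : ∀ k : ℤ, red₂ (k • c) = 0 → (r : ℤ) ∣ k)
    (y : J) (hyM : y ∈ M) (hy₁ : red₁ y = 0) (hy₂ : red₂ (y - c) = 0) : False := by
  classical
  have hrp : Prime (r : ℤ) := Nat.prime_iff_prime_int.mp hr
  obtain ⟨c₁, hc₁⟩ := exists_pow_kill _ hfg₁ r
  obtain ⟨c₂, hc₂⟩ := exists_pow_kill _ hfg₂ r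
  set k := max c₁ c₂ with hk
  obtain ⟨t, ht, h, hM, ⟨j, hj⟩, w, hwM, htz⟩ := selB_iterate M ε r hr hsel k y hyM
  -- the first place
  have e1 : red₁ (t • y) = 0 := hHR₁ t y hyM hy₁
  have e2 : red₁ h = r ^ k • red₁ (-w) := by
    rw [htz, map_add, map_nsmul] at e1
    rw [map_neg, smul_neg]
    exact eq_neg_of_add_eq_zero_left e1
  have e3 : red₁ h = 0 :=
    eq_zero_of_pow_smul _ r c₁ hc₁ (le_max_left _ _) (red₁ h) (red₁ (-w))
      ⟨-w, M.neg_mem hwM, rfl⟩ e2 ⟨j, by rw [← map_nsmul, hj, map_zero]⟩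
  have h0 : h = 0 := hinj₁ h ⟨j, hj⟩ e3
  rw [h0, zero_add] at htz
  -- the second place
  have e4 : red₂ (t • (y - c)) = 0 :=
    hHR₂ t (y - c) (M.sub_mem hyM hcM) hy₂
  have e5 : red₂ (ε t • c) = r ^ k • red₂ w := by
    rw [smul_sub, map_sub, sub_eq_zero, htz, hc t, map_nsmul] at e4
    exact e4.symm
  obtain ⟨a, N', hN', hNeq⟩ := Nat.exists_eq_pow_mul_and_not_dvd hN r hr.ne_one
  -- `u = (N' * ε t) • c` has `r`-power order
  have e6 : red₂ (((N' : ℤ) * ε t) • c) = r ^ k • red₂ (N' • w) := by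
    rw [mul_smul, map_zsmul, e5, map_nsmul, Nat.cast_smul_eq_nsmul, smul_comm]
  have e7 : r ^ a • (((N' : ℤ) * ε t) • c) = 0 := by
    have : r ^ a • (((N' : ℤ) * ε t) • c) = ε t • (N • c) := by
      rw [hNeq, ← Nat.cast_smul_eq_nsmul ℤ (r ^ a), ← Nat.cast_smul_eq_nsmul ℤ (r ^ a * N'),
        smul_smul, smul_smul]
      congr 1
      push_cast
      ring
    rw [this, hcN, smul_zero]
  have e8 : red₂ (((N' : ℤ) * ε t) • c) = 0 :=
    eq_zero_of_pow_smul _ r c₂ hc₂ (le_max_right _ _) _ (red₂ (N' • w))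
      ⟨N' • w, M.toAddSubgroup.nsmul_mem hwM _, rfl⟩ e6
      ⟨a, by rw [← map_nsmul, e7, map_zero]⟩
  have e9 : (r : ℤ) ∣ (N' : ℤ) * ε t := hinj₂ _ e8
  rcases hrp.dvd_or_dvd e9 with h1 | h1
  · exact hN' (by exact_mod_cast h1)
  · exact ht h1

end Fermat.Agent.S15.H40

end
-- ==== END Fermat.Agent.S15.H40_SelAlg

-- ==== BEGIN Fermat.Agent.S15.H63_BrGal
section

set_option autoImplicit false
set_option synthInstance.maxHeartbeats 400000

namespace Fermat.Agent.S15.H63

open AlgebraicCurve ModularCurve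

/-- `arithmeticGalois σ` fixes every element with rational `q`-expansion. -/
lemma arithGal_smul_coeffEmb (N : ℕ) (σ : GalQ) (s : LaurentSeries ℚ)
    (hs : coeffEmb (AlgebraicClosure ℚ) s ∈ modularFunctionFieldBar N) :
    arithmeticGalois (modularFunctionFieldFull N) σ •
        (⟨coeffEmb (AlgebraicClosure ℚ) s, hs⟩ : modularFunctionFieldBar N) =
      ⟨coeffEmb (AlgebraicClosure ℚ) s, hs⟩ := by
  apply Subtype.ext
  rw [coe_arithmeticGalois_smul]
  exact coeffMap_coeffEmb σ s

lemma arithGal_smul_jBar (N : ℕ) (σ : GalQ) :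
    arithmeticGalois (modularFunctionFieldFull N) σ • jBar N = jBar N :=
  arithGal_smul_coeffEmb N σ _ _

lemma arithGal_smul_jBarN (N : ℕ) [NeZero N] (σ : GalQ) :
    arithmeticGalois (modularFunctionFieldFull N) σ • jBarN N = jBarN N :=
  arithGal_smul_coeffEmb N σ _ _

/-- The action on `f - c`, `f` with rational `q`-expansion, `c` a constant. -/
lemma arithGal_smul_sub_const (N : ℕ) (σ : GalQ) (f : modularFunctionFieldBar N)
    (hf : arithmeticGalois (modularFunctionFieldFull N) σ • f = f) (c : Qb) :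
    arithmeticGalois (modularFunctionFieldFull N) σ •
        (f - algebraMap Qb (modularFunctionFieldBar N) c) =
      f - algebraMap Qb (modularFunctionFieldBar N) (σ c) := by
  rw [smul_sub, hf, SemilinearAut.smul_algebraMap, baseAut_arithmeticGalois]
  rfl

/-- **(BR-GAL)** -/
theorem stmt_BRgal : Stmt_BRgal := by
  intro p _ _ x b a σ h
  obtain ⟨h1, h2⟩ := h
  unfold HasValues galPlace
  constructor
  · rw [← arithGal_smul_sub_const p σ (jBar p) (arithGal_smul_jBar p σ) b,
      SemilinearAut.ord_smul]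
    exact h1
  · rw [← arithGal_smul_sub_const p σ (jBarN p) (arithGal_smul_jBarN p σ) a,
      SemilinearAut.ord_smul]
    exact h2

end Fermat.Agent.S15.H63

end
-- ==== END Fermat.Agent.S15.H63_BrGal

-- ==== BEGIN Fermat.Agent.S15.H63_PlaceUniq
section

set_option autoImplicit false

noncomputable section

open AlgebraicCurve Finset
open Fermat.Agent.RED.H17

namespace Fermat.Agent.S15.H63

section tay

variable {K F : Type*} [Field K] [Field F] [Algebra K F] (X Y : F) (b a : K)

/-- The coordinate ring `K[X, Y] ⊆ F`. -/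
abbrev R0 (K : Type*) {F : Type*} [Field K] [Field F] [Algebra K F] (X Y : F) : Subalgebra K F :=
  Algebra.adjoin K ({X, Y} : Set F)

lemma X_mem_R0 : X ∈ R0 K X Y := Algebra.subset_adjoin (by simp)

lemma Y_mem_R0 : Y ∈ R0 K X Y := Algebra.subset_adjoin (by simp)

lemma t_mem_R0 : X - algebraMap K F b ∈ R0 K X Y :=
  sub_mem (X_mem_R0 X Y) (Subalgebra.algebraMap_mem _ _)

lemma s_mem_R0 : Y - algebraMap K F a ∈ R0 K X Y :=
  sub_mem (Y_mem_R0 X Y) (Subalgebra.algebraMap_mem _ _)

/-- `g ≡ c + d (Y - a)` modulo `(X - b, (Y - a)^2)` in `K[X, Y]`. -/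
def Tay (g : F) (c d : K) : Prop :=
  ∃ α ∈ R0 K X Y, ∃ γ ∈ R0 K X Y,
    g = algebraMap K F c + algebraMap K F d * (Y - algebraMap K F a) +
      (X - algebraMap K F b) * α + (Y - algebraMap K F a) ^ 2 * γ

variable {X Y b a}

lemma Tay.mem {g : F} {c d : K} (h : Tay X Y b a g c d) : g ∈ R0 K X Y := by
  obtain ⟨α, hα, γ, hγ, rfl⟩ := h
  exact add_mem (add_mem (add_mem (Subalgebra.algebraMap_mem _ _)
    (mul_mem (Subalgebra.algebraMap_mem _ _) (s_mem_R0 X Y a))) (mul_mem (t_mem_R0 X Y b) hα))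
    (mul_mem (pow_mem (s_mem_R0 X Y a) 2) hγ)

lemma Tay.congr {g g' : F} {c c' d d' : K} (h : Tay X Y b a g c d) (hg : g = g') (hc : c = c')
    (hd : d = d') : Tay X Y b a g' c' d' := by
  subst hg hc hd
  exact h

variable (X Y b a)

lemma tay_const (r : K) : Tay X Y b a (algebraMap K F r) r 0 :=
  ⟨0, zero_mem _, 0, zero_mem _, by rw [map_zero]; ring⟩

lemma tay_X : Tay X Y b a X b 0 :=
  ⟨1, one_mem _, 0, zero_mem _, by rw [map_zero]; ring⟩

lemma tay_Y : Tay X Y b a Y a 1 :=
  ⟨0, zero_mem _, 0, zero_mem _, by rw [map_one]; ring⟩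

variable {X Y b a}

lemma Tay.add {g g' : F} {c c' d d' : K} (h : Tay X Y b a g c d) (h' : Tay X Y b a g' c' d') :
    Tay X Y b a (g + g') (c + c') (d + d') := by
  obtain ⟨α, hα, γ, hγ, rfl⟩ := h
  obtain ⟨α', hα', γ', hγ', rfl⟩ := h'
  exact ⟨α + α', add_mem hα hα', γ + γ', add_mem hγ hγ', by rw [map_add, map_add]; ring⟩

lemma Tay.neg {g : F} {c d : K} (h : Tay X Y b a g c d) : Tay X Y b a (-g) (-c) (-d) := by
  obtain ⟨α, hα, γ, hγ, rfl⟩ := h
  exact ⟨-α, neg_mem hα, -γ, neg_mem hγ, by rw [map_neg, map_neg]; ring⟩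

lemma Tay.sub {g g' : F} {c c' d d' : K} (h : Tay X Y b a g c d) (h' : Tay X Y b a g' c' d') :
    Tay X Y b a (g - g') (c - c') (d - d') :=
  (h.add h'.neg).congr (sub_eq_add_neg _ _).symm (sub_eq_add_neg _ _).symm
    (sub_eq_add_neg _ _).symm

lemma Tay.mul {g g' : F} {c c' d d' : K} (h : Tay X Y b a g c d) (h' : Tay X Y b a g' c' d') :
    Tay X Y b a (g * g') (c * c') (c * d' + d * c') := by
  have hg' := h'.mem
  obtain ⟨α, hα, γ, hγ, rfl⟩ := h
  obtain ⟨α', hα', γ', hγ', rfl⟩ := h'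
  have hs := s_mem_R0 (K := K) X Y a
  have hK : ∀ r : K, algebraMap K F r ∈ R0 K X Y := fun r => Subalgebra.algebraMap_mem _ _
  refine ⟨α * (algebraMap K F c' + algebraMap K F d' * (Y - algebraMap K F a) +
      (X - algebraMap K F b) * α' + (Y - algebraMap K F a) ^ 2 * γ') +
      (algebraMap K F c + algebraMap K F d * (Y - algebraMap K F a) +
        (Y - algebraMap K F a) ^ 2 * γ) * α', ?_,
    algebraMap K F (d * d') + algebraMap K F c * γ' + algebraMap K F c' * γ +
      algebraMap K F d * (Y - algebraMap K F a) * γ' +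
      algebraMap K F d' * (Y - algebraMap K F a) * γ +
      (Y - algebraMap K F a) ^ 2 * γ * γ', ?_, ?_⟩
  · exact add_mem (mul_mem hα hg') (mul_mem (add_mem (add_mem (hK _) (mul_mem (hK _) hs))
      (mul_mem (pow_mem hs 2) hγ)) hα')
  · exact add_mem (add_mem (add_mem (add_mem (add_mem (hK _) (mul_mem (hK _) hγ'))
      (mul_mem (hK _) hγ)) (mul_mem (mul_mem (hK _) hs) hγ'))
      (mul_mem (mul_mem (hK _) hs) hγ)) (mul_mem (mul_mem (pow_mem hs 2) hγ) hγ')
  · simp only [map_add, map_mul]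
    ring

lemma Tay.pow {g : F} {c d : K} (h : Tay X Y b a g c d) (n : ℕ) :
    Tay X Y b a (g ^ n) (c ^ n) ((n : ℕ) * c ^ (n - 1) * d) := by
  induction n with
  | zero =>
    refine (tay_const X Y b a (1 : K)).congr ?_ ?_ ?_
    · rw [map_one, pow_zero]
    · rw [pow_zero]
    · simp
  | succ n ih =>
    refine (ih.mul h).congr (pow_succ _ _).symm (pow_succ _ _).symm ?_
    rcases n with _ | m
    · simp
    · simp only [Nat.add_sub_cancel]
      push_cast
      ring

lemma tay_sum {ι : Type*} (s : Finset ι) (g : ι → F) (c d : ι → K)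
    (h : ∀ i ∈ s, Tay X Y b a (g i) (c i) (d i)) :
    Tay X Y b a (∑ i ∈ s, g i) (∑ i ∈ s, c i) (∑ i ∈ s, d i) := by
  classical
  induction s using Finset.induction_on with
  | empty =>
    simp only [sum_empty]
    exact (tay_const X Y b a (0 : K)).congr (map_zero _) rfl rfl
  | insert i s hi ih =>
    rw [sum_insert hi, sum_insert hi, sum_insert hi]
    exact (h i (mem_insert_self _ _)).add (ih fun j hj => h j (mem_insert_of_mem hj))

variable (X Y b a)

/-- The Taylor expansion of the modular polynomial. -/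
lemma tay_modEq (p : ℕ) (c : ℕ → ℕ → K) :
    Tay X Y b a (modEqVal p c X Y) (modEqVal p c b a) (modEqDerivY p c b a) := by
  have hX := tay_X (K := K) X Y b a
  have hY := tay_Y (K := K) X Y b a
  have h1 := hX.pow (p + 1)
  have h2 := hY.pow (p + 1)
  have h3 := (hX.pow p).mul (hY.pow p)
  have h4 := tay_sum (X := X) (Y := Y) (b := b) (a := a) (range (p + 1)) _ _ _ fun i _ =>
    tay_sum (X := X) (Y := Y) (b := b) (a := a) (range (p + 1)) _ _ _ fun k _ =>
      ((tay_const X Y b a (c i k)).mul (hX.pow i)).mul (hY.pow k)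
  refine (((h1.add h2).sub h3).add h4).congr rfl ?_ ?_
  · unfold modEqVal
    simp only [Algebra.algebraMap_self_apply]
  · unfold modEqDerivY
    simp only [mul_zero, zero_mul, add_zero, zero_add, mul_one, Nat.add_sub_cancel]
    ring

lemma exists_tay {g : F} (hg : g ∈ R0 K X Y) : ∃ c d : K, Tay X Y b a g c d := by
  induction hg using Algebra.adjoin_induction with
  | mem x hx =>
    rcases hx with rfl | hx
    · exact ⟨_, _, tay_X x Y b a⟩
    · rw [Set.mem_singleton_iff] at hx
      subst hx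
      exact ⟨_, _, tay_Y X x b a⟩
  | algebraMap r => exact ⟨_, _, tay_const X Y b a r⟩
  | add x y _ _ hx hy =>
    obtain ⟨c, d, h⟩ := hx
    obtain ⟨c', d', h'⟩ := hy
    exact ⟨_, _, h.add h'⟩
  | mul x y _ _ hx hy =>
    obtain ⟨c, d, h⟩ := hx
    obtain ⟨c', d', h'⟩ := hy
    exact ⟨_, _, h.mul h'⟩

/-! ### Specialisation at a place -/

variable {X Y b a}

lemma regAt_X (z : Place K F) (hzt : VanAt z (X - algebraMap K F b)) : RegAt z X := by
  have := hzt.regAt.add (regAt_algebraMap z b)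
  rwa [sub_add_cancel] at this

lemma regAt_of_mem_R0 (z : Place K F) (hzt : VanAt z (X - algebraMap K F b))
    (hzs : VanAt z (Y - algebraMap K F a)) {g : F} (hg : g ∈ R0 K X Y) : RegAt z g := by
  induction hg using Algebra.adjoin_induction with
  | mem x hx =>
    rcases hx with rfl | hx
    · exact regAt_X z hzt
    · rw [Set.mem_singleton_iff] at hx
      subst hx
      exact regAt_X z hzs
  | algebraMap r => exact regAt_algebraMap z r
  | add x y _ _ hx hy => exact hx.add hy
  | mul x y _ _ hx hy => exact hx.mul hy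

lemma Tay.vanAt (z : Place K F) (hzt : VanAt z (X - algebraMap K F b))
    (hzs : VanAt z (Y - algebraMap K F a)) {g : F} {c d : K} (h : Tay X Y b a g c d) :
    VanAt z (g - algebraMap K F c) := by
  obtain ⟨α, hα, γ, hγ, rfl⟩ := h
  have e : algebraMap K F c + algebraMap K F d * (Y - algebraMap K F a) +
      (X - algebraMap K F b) * α + (Y - algebraMap K F a) ^ 2 * γ - algebraMap K F c =
      algebraMap K F d * (Y - algebraMap K F a) + (X - algebraMap K F b) * α +
        (Y - algebraMap K F a) * ((Y - algebraMap K F a) * γ) := by ring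
  rw [e]
  exact (((regAt_algebraMap z d).mul_vanAt hzs).add
    (hzt.mul_regAt (regAt_of_mem_R0 z hzt hzs hα))).add
    (hzs.mul_regAt (hzs.regAt.mul (regAt_of_mem_R0 z hzt hzs hγ)))

/-- A function with nonzero value at the point is a unit at the place. -/
lemma ord_eq_zero_of_vanAt_sub (z : Place K F) {g : F} {c : K} (hc : c ≠ 0)
    (h : VanAt z (g - algebraMap K F c)) : g ≠ 0 ∧ z.ord g = 0 := by
  have hc' : algebraMap K F c ≠ 0 := (map_ne_zero_iff _ (algebraMap K F).injective).mpr hc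
  have e : g = algebraMap K F c + (g - algebraMap K F c) := by ring
  have h1 : z.ord (algebraMap K F c + (g - algebraMap K F c)) = z.ord (algebraMap K F c) := by
    apply ord_add_of_lt z hc'
    rcases (vanAt_iff_ord z _).mp h with h0 | h0
    · exact Or.inl h0
    · right
      rw [ord_algebraMap]
      exact h0
  rw [← e, ord_algebraMap] at h1
  refine ⟨?_, h1⟩
  rintro rfl
  rw [zero_sub] at h
  exact not_vanAt_algebraMap z hc (by simpa using h.neg)

/-! ### The key induction -/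

/-- Every nonzero `g ∈ K[X, Y]` is, up to a power of the unit `U`, a power of `t` times a
function with nonzero value. -/
lemma key_ind (x : Place K F) (hxt : 0 < x.ord (X - algebraMap K F b))
    (hxs : VanAt x (Y - algebraMap K F a)) {U V : F} (hV : V ∈ R0 K X Y) (hU : U ∈ R0 K X Y)
    (hU0 : U ≠ 0) (hUx : x.ord U = 0)
    (hrel : (Y - algebraMap K F a) * U = (X - algebraMap K F b) * V) :
    ∀ (n : ℕ) (g : F), g ∈ R0 K X Y → g ≠ 0 → x.ord g ≤ n →
      ∃ (m : ℕ) (h : F) (c d : K), c ≠ 0 ∧ Tay X Y b a h c d ∧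
        U ^ m * g = (X - algebraMap K F b) ^ m * h := by
  have hxt' : VanAt x (X - algebraMap K F b) := vanAt_of_ord_pos hxt
  have ht0 : X - algebraMap K F b ≠ 0 := by
    intro h0
    rw [h0, Place.ord_zero] at hxt
    exact lt_irrefl _ hxt
  intro n
  induction n with
  | zero =>
    intro g hg hg0 hord
    obtain ⟨c, d, hT⟩ := exists_tay X Y b a hg
    by_cases hc : c = 0
    · exfalso
      subst hc
      have h1 := hT.vanAt x hxt' hxs
      rw [map_zero, sub_zero] at h1
      have h2 := h1.ord_pos hg0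
      omega
    · exact ⟨0, g, c, d, hc, hT, by simp⟩
  | succ n ih =>
    intro g hg hg0 hord
    obtain ⟨c, d, hT⟩ := exists_tay X Y b a hg
    by_cases hc : c = 0
    · subst hc
      obtain ⟨α, hα, γ, hγ, rfl⟩ := hT
      have hs := s_mem_R0 (K := K) X Y a
      have hg₁ : V * (algebraMap K F d + (Y - algebraMap K F a) * γ) + α * U ∈ R0 K X Y :=
        add_mem (mul_mem hV (add_mem (Subalgebra.algebraMap_mem _ _) (mul_mem hs hγ)))
          (mul_mem hα hU)
      have e : U * (algebraMap K F 0 + algebraMap K F d * (Y - algebraMap K F a) +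
          (X - algebraMap K F b) * α + (Y - algebraMap K F a) ^ 2 * γ) =
          (X - algebraMap K F b) *
            (V * (algebraMap K F d + (Y - algebraMap K F a) * γ) + α * U) := by
        rw [map_zero]
        linear_combination (algebraMap K F d + (Y - algebraMap K F a) * γ) * hrel
      have hg₁0 : V * (algebraMap K F d + (Y - algebraMap K F a) * γ) + α * U ≠ 0 := by
        intro h0
        rw [h0, mul_zero] at e
        exact (mul_ne_zero hU0 hg0) e
      have hord₁ : x.ord (V * (algebraMap K F d + (Y - algebraMap K F a) * γ) + α * U) ≤ n := by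
        have h3 := congrArg x.ord e
        rw [x.ord_mul hU0 hg0, x.ord_mul ht0 hg₁0, hUx] at h3
        omega
      obtain ⟨m, h, c, d', hc, hT', hm⟩ := ih _ hg₁ hg₁0 hord₁
      refine ⟨m + 1, h, c, d', hc, hT', ?_⟩
      rw [pow_succ, pow_succ]
      linear_combination U ^ m * e + (X - algebraMap K F b) * hm
    · exact ⟨0, g, c, d, hc, hT, by simp⟩

lemma ord_of_key (z : Place K F) (hzt : VanAt z (X - algebraMap K F b))
    (hzs : VanAt z (Y - algebraMap K F a)) (ht0 : X - algebraMap K F b ≠ 0) {U : F}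
    (hU0 : U ≠ 0) (hUz : z.ord U = 0) {m : ℕ} {g h : F} {c d : K} (hc : c ≠ 0)
    (hT : Tay X Y b a h c d) (hg0 : g ≠ 0)
    (hm : U ^ m * g = (X - algebraMap K F b) ^ m * h) :
    z.ord g = m * z.ord (X - algebraMap K F b) := by
  obtain ⟨hh0, hh⟩ := ord_eq_zero_of_vanAt_sub z hc (hT.vanAt z hzt hzs)
  have h3 := congrArg z.ord hm
  rw [z.ord_mul (pow_ne_zero _ hU0) hg0, z.ord_mul (pow_ne_zero _ ht0) hh0, ord_pow, ord_pow,
    hUz, hh, mul_zero, zero_add, add_zero] at h3
  exact h3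

end tay

/-! ### The statement -/

theorem placeUniq {K F : Type*} [Field K] [Field F] [Algebra K F] (X Y : F)
    (hgen : IntermediateField.adjoin K ({X, Y} : Set F) = ⊤)
    (p : ℕ) (c : ℕ → ℕ → K) (hrel : modEqVal p c X Y = 0)
    (b a : K) (hD : modEqDerivY p c b a ≠ 0)
    (x y : Place K F) (hxt : 0 < x.ord (X - algebraMap K F b))
    (hxs : 0 < x.ord (Y - algebraMap K F a))
    (hyt : 0 < y.ord (X - algebraMap K F b)) (hys : 0 < y.ord (Y - algebraMap K F a)) :
    x = y := by
  have hxt' : VanAt x (X - algebraMap K F b) := vanAt_of_ord_pos hxt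
  have hxs' : VanAt x (Y - algebraMap K F a) := vanAt_of_ord_pos hxs
  have hyt' : VanAt y (X - algebraMap K F b) := vanAt_of_ord_pos hyt
  have hys' : VanAt y (Y - algebraMap K F a) := vanAt_of_ord_pos hys
  have ht0 : X - algebraMap K F b ≠ 0 := by
    intro h0
    rw [h0, Place.ord_zero] at hxt
    exact lt_irrefl _ hxt
  -- the Taylor expansion of the equation
  have hT := tay_modEq X Y b a p c
  rw [hrel] at hT
  have hc0 : modEqVal p c b a = 0 := by
    by_contra hne
    have h1 := hT.vanAt x hxt' hxs'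
    rw [zero_sub] at h1
    exact not_vanAt_algebraMap x hne (by simpa using h1.neg)
  rw [hc0] at hT
  obtain ⟨α, hα, γ, hγ, h0⟩ := hT
  set d₀ := modEqDerivY p c b a with hd₀
  have hs := s_mem_R0 (K := K) X Y a
  -- `U`, `V`
  have hU : algebraMap K F d₀ + (Y - algebraMap K F a) * γ ∈ R0 K X Y :=
    add_mem (Subalgebra.algebraMap_mem _ _) (mul_mem hs hγ)
  have hV : -α ∈ R0 K X Y := neg_mem hα
  have hUV : (Y - algebraMap K F a) * (algebraMap K F d₀ + (Y - algebraMap K F a) * γ) =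
      (X - algebraMap K F b) * (-α) := by
    rw [map_zero] at h0
    linear_combination -h0
  have hUvan : ∀ z : Place K F, VanAt z (X - algebraMap K F b) →
      VanAt z (Y - algebraMap K F a) →
      VanAt z (algebraMap K F d₀ + (Y - algebraMap K F a) * γ - algebraMap K F d₀) := by
    intro z hzt hzs
    rw [add_sub_cancel_left]
    exact hzs.mul_regAt (regAt_of_mem_R0 z hzt hzs hγ)
  obtain ⟨hU0, hUx⟩ := ord_eq_zero_of_vanAt_sub x hD (hUvan x hxt' hxs')
  obtain ⟨-, hUy⟩ := ord_eq_zero_of_vanAt_sub y hD (hUvan y hyt' hys')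
  -- orders of elements of `R₀`
  have hR : ∀ g ∈ R0 K X Y, g ≠ 0 → ∃ m : ℕ,
      x.ord g = m * x.ord (X - algebraMap K F b) ∧
      y.ord g = m * y.ord (X - algebraMap K F b) := by
    intro g hg hg0
    obtain ⟨n, hn⟩ := Int.eq_ofNat_of_zero_le (regAt_of_mem_R0 x hxt' hxs' hg).ord_nonneg
    obtain ⟨m, h, c', d', hc', hT', hm⟩ :=
      key_ind x hxt hxs' hV hU hU0 hUx hUV n g hg hg0 (le_of_eq hn)
    exact ⟨m, ord_of_key x hxt' hxs' ht0 hU0 hUx hc' hT' hg0 hm,
      ord_of_key y hyt' hys' ht0 hU0 hUy hc' hT' hg0 hm⟩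
  -- the valuation rings coincide
  apply Place.ext
  ext f
  rw [← regAt_iff_mem, ← regAt_iff_mem, regAt_iff_ord, regAt_iff_ord]
  rcases eq_or_ne f 0 with hf | hf
  · simp [hf]
  have hmem : f ∈ IntermediateField.adjoin K ({X, Y} : Set F) := by
    rw [hgen]
    exact IntermediateField.mem_top
  obtain ⟨g, hg, h, hh, rfl⟩ := IntermediateField.mem_adjoin_iff_div.mp hmem
  have hg0 : g ≠ 0 := by
    rintro rfl
    exact hf (zero_div _)
  have hh0 : h ≠ 0 := by
    rintro rfl
    exact hf (div_zero _)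
  obtain ⟨m, hmx, hmy⟩ := hR g hg hg0
  obtain ⟨m', hmx', hmy'⟩ := hR h hh hh0
  rw [or_iff_right hf, or_iff_right hf, ord_div x hg0 hh0, ord_div y hg0 hh0, hmx, hmx', hmy,
    hmy', ← sub_mul, ← sub_mul]
  rw [mul_nonneg_iff_of_pos_right hxt, mul_nonneg_iff_of_pos_right hyt]

theorem stmt_placeUniq : Stmt_placeUniq := by
  intro K F _ _ _ X Y hgen p c hrel b a hD x y hxt hxs hyt hys
  exact placeUniq X Y hgen p c hrel b a hD x y hxt hxs hyt hys

end Fermat.Agent.S15.H63

end
end
-- ==== END Fermat.Agent.S15.H63_PlaceUniq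

-- ==== BEGIN Fermat.Agent.S15.H66_BRe0Odd
section

set_option autoImplicit false

namespace Fermat.Agent.S15.H66

open WeierstrassCurve WeierstrassCurve.Affine WeierstrassCurve.Affine.Point
open Fermat.Agent.Lib.Torsion.H11 Fermat.Agent.S12.H11 Fermat.Agent.S15.H11
open Fermat.Agent.S05 Fermat.Agent.S05.H15

/-- The S05 model centred at the node root `e₁`. -/
noncomputable def nodeModel (e₁ e₂ e₃ : QB) : Affine QB :=
  ⟨0, -((e₂ - e₁) + (e₃ - e₁)), 0, (e₂ - e₁) * (e₃ - e₁), 0⟩

section model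

variable {W : WeierstrassCurve ℤ} {A : ValuationSubring QB} {e₁ e₂ e₃ : QB}

/-- The change of variables `x = X + e₁`, `y = Y - (a₁/2) X - (a₁ e₁ + a₃)/2`. -/
lemma isVarChange_nodeModel (hT : TwoTors (EB W) e₁ e₂ e₃) :
    H14.IsVarChange (nodeModel e₁ e₂ e₃) (EB W) (1 : QB) e₁
      (-(((W.a₁ : ℤ) : QB)) / 2) (-(((W.a₁ : ℤ) : QB) * e₁ + ((W.a₃ : ℤ) : QB)) / 2) := by
  have hb2 := hT.hb2
  have hb4 := hT.hb4
  have hb6 := hT.hb6
  simp only [WeierstrassCurve.b₂, WeierstrassCurve.b₄, WeierstrassCurve.b₆] at hb2 hb4 hb6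
  rw [EB_a₁, EB_a₂] at hb2
  rw [EB_a₁, EB_a₃, EB_a₄] at hb4
  rw [EB_a₃, EB_a₆] at hb6
  refine ⟨one_ne_zero, ?_, ?_, ?_, ?_, ?_⟩
  · rw [EB_a₁]
    show (1 : QB) * 0 = _
    ring
  · rw [EB_a₁, EB_a₂]
    show (1 : QB) ^ 2 * (-((e₂ - e₁) + (e₃ - e₁))) = _
    linear_combination (-1 / 4 : QB) * hb2
  · rw [EB_a₁, EB_a₃]
    show (1 : QB) ^ 3 * 0 = _
    ring
  · rw [EB_a₁, EB_a₂, EB_a₃, EB_a₄]
    show (1 : QB) ^ 4 * ((e₂ - e₁) * (e₃ - e₁)) = _
    linear_combination (-1 / 2 : QB) * hb4 - (e₁ / 2) * hb2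
  · rw [EB_a₁, EB_a₂, EB_a₃, EB_a₄, EB_a₆]
    show (1 : QB) ^ 6 * 0 = _
    linear_combination (-e₁ ^ 2 / 4) * hb2 - (e₁ / 2) * hb4 - (1 / 4 : QB) * hb6

/-- The model hypotheses at an odd place. -/
lemma modelHyp_nodeModel (hN : NodeRoots W A e₁ e₂ e₃) (h2 : A.valuation (2 : QB) = 1) :
    ModelHyp A (nodeModel e₁ e₂ e₃) ∧ A.valuation (nodeModel e₁ e₂ e₃).a₄ < 1 := by
  have h4 : A.valuation (4 : QB) = 1 := by
    have : (4 : QB) = 2 * 2 := by norm_num
    rw [this, map_mul, h2, mul_one]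
  have hd12 : A.valuation (e₂ - e₁) < 1 := by
    have := hN.d12_lt
    rwa [h4] at this
  have hd13 : A.valuation (e₃ - e₁) = 1 := by
    have := hN.d13
    rwa [map_mul, h4, one_mul] at this
  have hd23 : A.valuation (e₃ - e₂) = 1 := by
    have := hN.d23
    rwa [map_mul, h4, one_mul] at this
  have hne12 : e₂ - e₁ ≠ 0 := sub_ne_zero.2 (Ne.symm hN.ne12)
  have hne13 : e₃ - e₁ ≠ 0 := by
    intro h0
    rw [h0, _root_.map_zero] at hd13
    exact zero_ne_one hd13
  refine ⟨⟨rfl, rfl, rfl, ?_, ?_, ?_, h2, ?_⟩, ?_⟩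
  · show A.valuation (-((e₂ - e₁) + (e₃ - e₁))) ≤ 1
    rw [Valuation.map_neg]
    exact Valuation.map_add_le _ hd12.le hd13.le
  · show A.valuation ((e₂ - e₁) * (e₃ - e₁)) ≤ 1
    rw [map_mul, hd13, mul_one]
    exact hd12.le
  · show (e₂ - e₁) * (e₃ - e₁) ≠ 0
    exact mul_ne_zero hne12 hne13
  · show A.valuation ((-((e₂ - e₁) + (e₃ - e₁))) ^ 2 - 4 * ((e₂ - e₁) * (e₃ - e₁))) = 1
    have : (-((e₂ - e₁) + (e₃ - e₁))) ^ 2 - 4 * ((e₂ - e₁) * (e₃ - e₁)) = (e₃ - e₂) ^ 2 := by
      ring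
    rw [this, map_pow, hd23, one_pow]
  · show A.valuation ((e₂ - e₁) * (e₃ - e₁)) < 1
    rw [map_mul, hd13, mul_one]
    exact hd12

end model

/-- (BR-E0) at an odd prime. -/
theorem stmt_BRe0_odd {ℓ : ℕ} (hℓ : ℓ.Prime) (hℓ2 : ℓ ≠ 2) : Stmt_BRe0 ℓ := by
  intro W _ _ _ A hA e₁ e₂ e₃ hN P hP n
  have hqK : ((ℓ : ℕ) : QB) ∈ A.nonunits := hA
  have h2 : A.valuation (2 : QB) = 1 := by
    have := valuation_natCast_eq_one_of_ne (A := A) hℓ hqK Nat.prime_two (Ne.symm hℓ2)
    simpa using this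
  obtain ⟨hyp, hb⟩ := modelHyp_nodeModel hN h2
  obtain ⟨β, hβ⟩ := IsAlgClosed.exists_pow_nat_eq (nodeModel e₁ e₂ e₃).a₂ (n := 2) (by norm_num)
  obtain ⟨φ, hker, -⟩ := S05.M1 A _ hyp hb β hβ
  have hvc := isVarChange_nodeModel (W := W) hN.tt
  set Φ := hvc.addEquiv with hΦ
  -- the key dictionary
  have hdict : ∀ Q : (nodeModel e₁ e₂ e₃).Point,
      InE0 A Q ↔ (Φ Q = 0 ∨ 1 ≤ A.valuation (xc (EB W) (Φ Q) - e₁)) := by
    intro Q
    rcases Q with _ | ⟨X, Y, hXY⟩
    · constructor
      · intro _; left; rfl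
      · intro _; trivial
    · have hsome : Φ (Point.some X Y hXY) = Point.some (H14.fx 1 e₁ X)
          (H14.fy 1 (-(((W.a₁ : ℤ) : QB)) / 2)
            (-(((W.a₁ : ℤ) : QB) * e₁ + ((W.a₃ : ℤ) : QB)) / 2) X Y)
          ((hvc.nonsingular_iff X Y).2 hXY) := hvc.addEquiv_some hXY
      have hx : xc (EB W) (Φ (Point.some X Y hXY)) - e₁ = X := by
        rw [hsome, xc_some, H14.fx]
        ring
      rw [hx]
      constructor
      · intro h; right; exact h
      · rintro (h | h)
        · rw [hsome] at h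
          exact absurd h (Point.some_ne_zero _)
        · exact h
  have hP' : InE0 A (Φ.symm P) := by
    rw [hdict, AddEquiv.apply_symm_apply]
    exact hP
  have hφ : φ (Φ.symm (n • P)) = 0 := by
    rw [map_nsmul, map_nsmul, (hker _).2 hP']
    exact nsmul_zero _
  have := (hdict _).1 ((hker _).1 hφ)
  rwa [AddEquiv.apply_symm_apply] at this

end Fermat.Agent.S15.H66

end
-- ==== END Fermat.Agent.S15.H66_BRe0Odd

-- ==== BEGIN Fermat.Agent.S18
section

/-!
# S18: prime-to-`ℓ` torsion of `J₀(N)` injects under reduction modulo `ℓ ∤ N`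

Final wiring (helper17): `S18.s18_of_DR2_KD` (route C torsion injectivity from the Deuring
reduction datum, descent from the tame levels `N, 2N, 3N` by Kummer descent) with
helper76's `stmt_DR2` (G-RED: charts, conservation, genus) and helper22's `stmt_KD`.
-/

set_option autoImplicit false
open ModularCurve

namespace Fermat.Agent.S18

theorem result (N : ℕ) [NeZero N] {ℓ : ℕ}
    [Fact ℓ.Prime] (hℓN : ¬ ℓ ∣ N) (A : ValuationSubring (AlgebraicClosure ℚ)) (hA : A.LiesOverPrime ℓ)
    (h : ModularCurve.ReductionInputsModL A N) (m : ℕ) (hm : ¬ ℓ ∣ m) (z : ModularCurve.JZero N)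
    (hmz : m • z = 0) (hz : ModularCurve.reductionModL A N z = 0) :
    z = 0 :=
  s18_of_DR2_KD Fermat.Agent.RED.H76.stmt_DR2 Fermat.Agent.RED.KD.H22.stmt_KD N hℓN A hA h m hm z
    hmz hz

end Fermat.Agent.S18

end
-- ==== END Fermat.Agent.S18

-- ==== BEGIN Fermat.Agent.S56.FL.H50_AllP
section

/-!
# LOC-p-FL: the Fontaine side for EVERY prime `p` (including `p = 2`)

The proofs of `Stmt_PM`, `Stmt_CK`, `Stmt_FL_A` never use the hypothesis `p ≠ 2`:
* `pm_all`   : `(P_m)` for the field of points of a finite flat cocommutative Hopf algebra killed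
               by `p`;
* `H15.ck_all`, `H15.isBdd_sup_all` (in `FL/H15_CK.lean`, `FL/H15_Comp.lean`);
* `fon_all`  : Fontaine's bound;
* `fl_A_all` : a finite flat `G_ℚ`-module killed by `p` is trivial on `Gal(K̄/L)`, `L/ℚ_p` finite
               Galois of bounded ramification.
(What is genuinely odd: `Stmt_CC0`, `Stmt_SUBQ`, the counts.)
-/

set_option autoImplicit false
set_option linter.unusedSectionVars false
set_option linter.style.haveILetI false

noncomputable section

namespace Fermat.Agent.S56.FL.H50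

open scoped NNReal TensorProduct
open Fermat.Agent.S56.FL Fermat.Agent.R.H54 WithConv

/-- **PM** for every prime `p`. -/
theorem pm_all (p : ℕ) [Fact p.Prime] (H : Type) [CommRing H] [HopfAlgebra (Zloc p) H]
    [Module.Finite (Zloc p) H] [Module.Flat (Zloc p) H] [Coalgebra.IsCocomm (Zloc p) H]
    (hkill : ∀ x : WithConv (H →ₐ[Zloc p] PadicAlgCl p), x ^ p = 1) :
    HasPM p (pointField p H) := by
  haveI : Module.Free (Zloc p) H := Module.free_of_flat_of_isLocalRing
  exact pm_core hkill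

/-- **FL_A** for every prime `p`: a finite flat `G_ℚ`-module killed by `p` is trivial on
`Gal(K̄/L)` for a finite Galois `L/ℚ_p` of bounded ramification. -/
theorem fl_A_all (p : ℕ) [Fact p.Prime] (M : Type) [AddCommGroup M] (act : GQ → M → M)
    (hkill : ∀ m : M, p • m = 0) (hflat : Fermat.Agent.R.IsFlatGaloisModule p M act) :
    ∃ (L : IntermediateField ℚ_[p] (PadicAlgCl p)) (_ : FiniteDimensional ℚ_[p] L),
      Normal ℚ_[p] L ∧ IsBddField p L ∧
        ∀ σ : Gp p, σ ∈ L.fixingSubgroup → ∀ m : M, act (localGaloisToGlobal p σ) m = m := by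
  obtain ⟨H, _, _, hfin, hflatH, hcoc, e, hmul, hact⟩ := H54.exists_local_model hflat
  haveI := hfin
  haveI := hflatH
  haveI := hcoc
  have hkillH : ∀ x : WithConv (H →ₐ[Zloc p] PadicAlgCl p), x ^ p = 1 :=
    H54.pow_eq_one_of_kill e hmul hkill
  haveI hfd : FiniteDimensional ℚ_[p] (pointField p (H ⊗[Zloc p] H54.MuAlg p)) :=
    H54.finiteDimensional_pointField
  have hN : Normal ℚ_[p] (pointField p (H ⊗[Zloc p] H54.MuAlg p)) := H54.normal_pointField
  have hPM : HasPM p (pointField p (H ⊗[Zloc p] H54.MuAlg p)) :=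
    pm_all p (H ⊗[Zloc p] H54.MuAlg p) (H54.prod_mu_pow_eq_one hkillH)
  obtain ⟨ζ, hζ1, hζp⟩ := H54.exists_root_ne_one (p := p)
  have hB : IsBddField p (pointField p (H ⊗[Zloc p] H54.MuAlg p)) :=
    H15.ck_all p _ hN ⟨ζ, H54.root_mem_pointField_prod_mu ζ hζp, hζ1, hζp⟩ hPM
  refine ⟨pointField p (H ⊗[Zloc p] H54.MuAlg p), hfd, hN, hB, ?_⟩
  intro σ hσ m
  obtain ⟨x, rfl⟩ := e.surjective m
  have hσ' : σ ∈ (pointField p H).fixingSubgroup :=
    (IntermediateField.mem_fixingSubgroup_iff _ σ).mpr (fun y hy =>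
      (IntermediateField.mem_fixingSubgroup_iff _ σ).mp hσ y (H54.pointField_le_prod_mu hy))
  rw [← hact, H54.pointAct_eq_of_mem_fixingSubgroup σ hσ' x]

end Fermat.Agent.S56.FL.H50

end

end
-- ==== END Fermat.Agent.S56.FL.H50_AllP
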