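-- GENERATED (merged mirror, NOTES/tools/trim/merge3_helper67.py): 6 modules of the originals, bodies verbatim.
import Mathlib
import Fermat.Prelude.Def_AlgebraicCurve_BaseChangeGalois
import Fermat.Agent.Zm.S35_L04_001
import Fermat.Agent.Zm.S35_L02_000
import Fermat.Agent.Zm.S35_L01_003
import Fermat.Agent.RED.Defs
import Fermat.Agent.Zm.S35_L03_005
import Fermat.Agent.Zm.S35_L02_002
import Fermat.Agent.Zm.S44_L01_002
import Fermat.Agent.S15.H11_BRLam
import Fermat.Agent.S15.H11_BRRoots
import Fermat.Agent.Zm.S35_L15_002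

-- ==== BEGIN Fermat.Agent.S15.Desc.H97_Reflect
section

/-!
# S15 / DESC, NUM-∞, leaf N3: the reflection principle (helper97)

Complex conjugation on the Kummer–Betti dictionary of G-TOR.  `J = diag(-1, 1)`, so that
`(F ∣[k] J) τ = conj (F (-conj τ))` (Mathlib's slash action of `GL₂(ℝ)`).

* `isTwistedForm_slashJ` : `R` twisted form with multiplier `ζ ^ φ` ⟹ `R ∣ J` twisted form with
  multiplier `ζ ^ (-φ ∘ jConj)`;
* `qExpansion_slashJ_coeff`, `qLaurent_slashJ` : the `q`-expansion of `F ∣ J` has the conjugate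
  coefficients;
* `reflForm B` : the modular form `B ∣ J` on `Γ₀(N)`;
* `hasChar_conj` : `HasChar N n f φ → HasChar N n (conj f) (-φ ∘ jConj)`;
* `torChar_conj`, `torChar_conj'` (**N3**): if `ι ∘ c = conj ∘ ι` then
  `TorChar N n ι x φ → TorChar N n ι (c • x) (-(charInvolution N ℤ (ZMod n) φ))`.
-/

set_option autoImplicit false

open UpperHalfPlane ModularForm CongruenceSubgroup Function
open scoped MatrixGroups ModularForm Manifold ComplexConjugate

noncomputable section

namespace Fermat.Agent.S15.Desc.H97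

open Fermat.Agent.GTor Fermat.Agent.GTor.H56 ModularCurve.Period
open Fermat.Agent.S23.H22 (Nice)

/-- Slash by `J` is `F ↦ conj ∘ F ∘ (τ ↦ -conj τ)`, in every weight. -/
theorem slashJ_apply (k : ℤ) (F : ℍ → ℂ) (τ : ℍ) : (F ∣[k] J) τ = conj (F (J • τ)) := by
  simp [ModularForm.slash_apply]

theorem J_mul_J : (J * J : GL (Fin 2) ℝ) = 1 := by
  rw [← sq, J_sq]

theorem J_smul_J_smul (τ : ℍ) : J • J • τ = τ := by
  rw [← mul_smul, J_mul_J, one_smul]

theorem im_J_smul (τ : ℍ) : (J • τ).im = τ.im := by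
  have h := coe_J_smul τ
  have : ((J • τ : ℍ) : ℂ).im = (τ : ℂ).im := by
    rw [h]; simp
  exact this

/-- `J γ = jConj(γ) J` in `GL₂(ℝ)`. -/
theorem J_mul_SL (γ : SL(2, ℤ)) :
    J * (Matrix.SpecialLinearGroup.mapGL ℝ γ : GL (Fin 2) ℝ) =
      (Matrix.SpecialLinearGroup.mapGL ℝ (jConjSL γ) : GL (Fin 2) ℝ) * J := by
  ext i j
  fin_cases i <;> fin_cases j <;>
    simp [Matrix.mul_apply, Fin.sum_univ_two, jConjMat]

/-- `(F ∣ J) ∣ γ = (F ∣ jConj γ) ∣ J`. -/
theorem slashJ_slash_SL (k : ℤ) (F : ℍ → ℂ) (γ : SL(2, ℤ)) :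
    (F ∣[k] J) ∣[k] γ = (F ∣[k] (jConjSL γ)) ∣[k] J := by
  rw [SL_slash, SL_slash, ← SlashAction.slash_mul, ← SlashAction.slash_mul]
  congr 1
  exact J_mul_SL γ

theorem isBoundedAtImInfty_slashJ {F : ℍ → ℂ} (hF : IsBoundedAtImInfty F) (k : ℤ) :
    IsBoundedAtImInfty (F ∣[k] J) := by
  rw [isBoundedAtImInfty_iff] at hF ⊢
  obtain ⟨M, A, h⟩ := hF
  refine ⟨M, A, fun z hz => ?_⟩
  rw [slashJ_apply, RCLike.norm_conj]
  exact h _ (by rw [im_J_smul]; exact hz)

theorem conj_zetaPow (n : ℕ) (a : ZMod n) : conj (zetaPow n a) = zetaPow n (-a) := by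
  have h1 : zetaPow n a * zetaPow n (-a) = 1 := by
    rw [← zetaPow_add, add_neg_cancel, zetaPow_zero]
  have h2 : ‖zetaPow n a‖ = 1 := by
    rw [zetaPow]
    have : (2 * (Real.pi : ℂ) * Complex.I * ((ZMod.val a : ℕ) : ℂ) / (n : ℂ)) =
        ((2 * Real.pi * (ZMod.val a : ℝ) / (n : ℝ) : ℝ) : ℂ) * Complex.I := by
      push_cast; ring
    rw [this, Complex.norm_exp_ofReal_mul_I]
  have h3 : zetaPow n a * conj (zetaPow n a) = 1 := by
    rw [Complex.mul_conj, Complex.normSq_eq_norm_sq, h2]; simp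
  have h0 : zetaPow n a ≠ 0 := fun h => by rw [h, zero_mul] at h1; exact zero_ne_one h1
  exact mul_left_cancel₀ h0 (h3.trans h1.symm)

variable {N n : ℕ} {k : ℤ} {φ : Additive (Gamma0 N) →+ ZMod n} {R : ℍ → ℂ}

/-- **Reflection of twisted forms**: `R ∣ J` is a twisted form with multiplier
`ζ ^ (-φ ∘ jConj)`. -/
theorem isTwistedForm_slashJ (h : IsTwistedForm N n k φ R) :
    IsTwistedForm N n k (-(φ.comp (MonoidHom.toAdditive (jConjGamma0 N)))) (R ∣[k] J) where
  mdiff := h.mdiff.slash k J
  slash γ := by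
    rw [slashJ_slash_SL]
    have h1 := h.slash (jConjGamma0 N γ)
    rw [jConjGamma0_coe] at h1
    rw [h1, ModularForm.smul_slash, sigma_J]
    congr 1
    show conj (zetaPow n _) = zetaPow n _
    rw [conj_zetaPow]
    rfl
  bdd σ := by
    rw [slashJ_slash_SL]
    exact isBoundedAtImInfty_slashJ (h.bdd _) k


/-! ### `q`-expansions -/

/-- `𝕢 (J • τ) = conj (𝕢 τ)`. -/
theorem qParam_J_smul (τ : ℍ) :
    Periodic.qParam 1 ((J • τ : ℍ) : ℂ) = conj (Periodic.qParam 1 (τ : ℂ)) := by
  rw [coe_J_smul, Periodic.qParam, Periodic.qParam, ← Complex.exp_conj]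
  congr 1
  simp only [map_div₀, map_mul, Complex.conj_ofReal, Complex.conj_I, map_ofNat, Complex.ofReal_one,
    map_one]
  ring

/-- The `q`-expansion of `F ∣ J` has the conjugate coefficients. -/
theorem qExpansion_slashJ_coeff {F : ℍ → ℂ} (k : ℤ) (hF : Nice 1 F) (hFc : Nice 1 (F ∣[k] J))
    (m : ℕ) : (qExpansion 1 (F ∣[k] J)).coeff m = conj ((qExpansion 1 F).coeff m) := by
  have hsum : ∀ τ : ℍ, HasSum (fun m : ℕ =>
      conj ((qExpansion 1 F).coeff m) • Periodic.qParam 1 (τ : ℂ) ^ m) ((F ∣[k] J) τ) := by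
    intro τ
    have h2 := hasSum_qExpansion one_pos hF.per hF.hol hF.bdd (J • τ)
    rw [qParam_J_smul] at h2
    have h3 := Complex.hasSum_conj'.2 h2
    rw [slashJ_apply]
    have h4 : (fun m : ℕ => conj ((qExpansion 1 F).coeff m) • Periodic.qParam 1 (τ : ℂ) ^ m) =
        fun m : ℕ => conj ((qExpansion 1 F).coeff m • conj (Periodic.qParam 1 (τ : ℂ)) ^ m) := by
      funext m
      simp only [smul_eq_mul, map_mul, map_pow, Complex.conj_conj]
    rw [h4]
    exact h3
  exact (UpperHalfPlane.qExpansion_coeff_unique (ContinuousMap.mk _ hFc.hol.continuous) one_pos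
    (hFc.analyticAt one_pos) hsum m).symm


/-- Complex conjugation, as an automorphism of `ℂ` over `ℚ`. -/
def conjQ : ℂ ≃ₐ[ℚ] ℂ := Complex.conjAe.restrictScalars ℚ

theorem conjQ_apply (z : ℂ) : (conjQ : ℂ →+* ℂ) z = conj z := rfl

/-- The `q`-expansion of `F ∣ J` is the conjugate series. -/
theorem qLaurent_slashJ {F : ℍ → ℂ} (k : ℤ) (hF : Nice 1 F) (hFc : Nice 1 (F ∣[k] J)) :
    qLaurent (F ∣[k] J) = ModularCurve.coeffMap (conjQ : ℂ →+* ℂ) (qLaurent F) := by
  ext m
  rw [ModularCurve.coeffMap_coeff, conjQ_apply]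
  rcases lt_or_ge m 0 with hm | hm
  · rw [qLaurent, qLaurent, ModularCurve.ofPowerSeries_coeff_of_neg _ hm,
      ModularCurve.ofPowerSeries_coeff_of_neg _ hm, map_zero]
  · lift m to ℕ using hm
    rw [qLaurent, qLaurent, HahnSeries.ofPowerSeries_apply_coeff,
      HahnSeries.ofPowerSeries_apply_coeff, qExpansion_slashJ_coeff k hF hFc]

theorem pow_slashJ (k : ℤ) (n : ℕ) (R : ℍ → ℂ) :
    (fun z => (R ∣[k] J) z ^ n) = (fun z => R z ^ n) ∣[(n : ℤ) * k] J := by
  funext z
  rw [slashJ_apply, slashJ_apply, map_pow]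

variable [NeZero N]

/-- The reflected modular form `B ∣ J`. -/
def reflForm (B : ModularForm (Gamma0 N) k) : ModularForm (Gamma0 N) k :=
  toModularForm (n := 1) (R := (B : ℍ → ℂ) ∣[k] J) (by
    have h := isTwistedForm_slashJ (isTwistedForm_of_modularForm (N := N) 1 B)
    have h0 : (-((0 : Additive (Gamma0 N) →+ ZMod 1).comp
        (MonoidHom.toAdditive (jConjGamma0 N)))) = 0 := by
      ext γ
      simp
    rw [h0] at h
    exact h)

theorem reflForm_coe (B : ModularForm (Gamma0 N) k) :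
    (reflForm B : ℍ → ℂ) = (B : ℍ → ℂ) ∣[k] J := rfl

theorem reflForm_ne_zero {B : ModularForm (Gamma0 N) k} (hB : B ≠ 0) : reflForm B ≠ 0 := by
  intro h
  apply hB
  ext τ
  have h1 : (reflForm B : ℍ → ℂ) (J • τ) = 0 := by rw [h]; rfl
  rw [reflForm_coe, slashJ_apply, J_smul_J_smul] at h1
  have h2 := congrArg conj h1
  rw [Complex.conj_conj, map_zero] at h2
  exact h2

/-- **Reflection for `HasChar`**: if `f` has character `φ`, the conjugate series has character
`-φ ∘ jConj`. -/
theorem hasChar_conj {f : FNL ℂ N} (hf : HasChar N n f φ) :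
    HasChar N n ⟨ModularCurve.coeffMap (conjQ : ℂ →+* ℂ) (f : LaurentSeries ℂ),
        ModularCurve.coeffMap_mem_laurentBaseChange conjQ f.2⟩
      (-(φ.comp (MonoidHom.toAdditive (jConjGamma0 N)))) := by
  obtain ⟨k, R, B, hR, hB, h⟩ := hf
  have hRc := isTwistedForm_slashJ hR
  refine ⟨k, R ∣[k] J, reflForm B, hRc, reflForm_ne_zero hB, ?_⟩
  have hBn : Nice 1 (fun z => (B : ℍ → ℂ) z ^ n) :=
    (isTwistedForm_of_modularForm (N := N) n B).nice_pow
  have hBcn : Nice 1 (fun z => (reflForm B : ℍ → ℂ) z ^ n) :=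
    (isTwistedForm_of_modularForm (N := N) n (reflForm B)).nice_pow
  have e1 : (fun z => (R ∣[k] J) z ^ n) = (fun z => R z ^ n) ∣[(n : ℤ) * k] J := pow_slashJ k n R
  have e2 : (fun z => (reflForm B : ℍ → ℂ) z ^ n) =
      (fun z => (B : ℍ → ℂ) z ^ n) ∣[(n : ℤ) * k] J := by
    rw [reflForm_coe]; exact pow_slashJ k n B
  have q1 : qLaurent (fun z => (R ∣[k] J) z ^ n) =
      ModularCurve.coeffMap (conjQ : ℂ →+* ℂ) (qLaurent (fun z => R z ^ n)) := by
    rw [e1]
    exact qLaurent_slashJ _ hR.nice_pow (e1 ▸ hRc.nice_pow)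
  have q2 : qLaurent (fun z => (reflForm B : ℍ → ℂ) z ^ n) =
      ModularCurve.coeffMap (conjQ : ℂ →+* ℂ) (qLaurent (fun z => (B : ℍ → ℂ) z ^ n)) := by
    rw [e2]
    exact qLaurent_slashJ _ hBn (e2 ▸ hBcn)
  rw [q1, q2, h, map_mul]


set_option maxHeartbeats 1600000 in
set_option synthInstance.maxHeartbeats 400000 in
open AlgebraicCurve ModularCurve in
/-- **N3 (reflection principle)**: if `c ∈ G_ℚ` induces complex conjugation under the embedding
`ι : ℚ̄ → ℂ` and the torsion class `x` has Betti character `φ`, then `c • x` has Betti character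
`-φ ∘ jConj`. -/
theorem torChar_conj (ι : AlgebraicClosure ℚ →+* ℂ) (c : GQ)
    (hc : ∀ a : AlgebraicClosure ℚ, ι (c a) = conj (ι a)) {x : JZero N}
    (h : TorChar N n ι x φ) :
    TorChar N n ι (c • x) (-(φ.comp (MonoidHom.toAdditive (jConjGamma0 N)))) := by
  obtain ⟨D, f, f', hf0, hx, hD, hcoef, hchar⟩ := h
  refine ⟨SemilinearAut.degZeroSMulHom (arithmeticGalois (modularFunctionFieldFull N) c) D,
    arithmeticGalois (modularFunctionFieldFull N) c • f,
    ⟨ModularCurve.coeffMap (conjQ : ℂ →+* ℂ) (f' : LaurentSeries ℂ),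
      ModularCurve.coeffMap_mem_laurentBaseChange conjQ f'.2⟩, ?_, ?_, ?_, ?_, hasChar_conj hchar⟩
  · intro h0
    exact hf0 ((smul_eq_zero_iff_eq _).1 h0)
  · rw [hx, galois_smul_pic0_def, SemilinearAut.pic0_smul_mk]
  · intro v
    rw [SemilinearAut.coe_degZeroSMulHom, SemilinearAut.divisor_smul_apply,
      hD ((arithmeticGalois (modularFunctionFieldFull N) c)⁻¹ • v)]
    have := SemilinearAut.ord_smul (arithmeticGalois (modularFunctionFieldFull N) c)
      ((arithmeticGalois (modularFunctionFieldFull N) c)⁻¹ • v) f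
    rw [smul_inv_smul] at this
    exact this.symm
  · intro m
    have h1 : ((arithmeticGalois (modularFunctionFieldFull N) c • f : FNL (AlgebraicClosure ℚ) N) :
        LaurentSeries (AlgebraicClosure ℚ)) = ModularCurve.coeffMap
          (c : AlgebraicClosure ℚ →+* AlgebraicClosure ℚ) (f : LaurentSeries (AlgebraicClosure ℚ)) :=
      coe_arithmeticGalois_smul (modularFunctionFieldFull N) c f
    have h2 : (ModularCurve.coeffMap (conjQ : ℂ →+* ℂ) (f' : LaurentSeries ℂ)).coeff m =
        conj ((f' : LaurentSeries ℂ).coeff m) := ModularCurve.coeffMap_coeff _ _ m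
    have h3 : (ModularCurve.coeffMap (c : AlgebraicClosure ℚ →+* AlgebraicClosure ℚ)
        (f : LaurentSeries (AlgebraicClosure ℚ))).coeff m =
        c ((f : LaurentSeries (AlgebraicClosure ℚ)).coeff m) := ModularCurve.coeffMap_coeff _ _ m
    rw [h1, h3, hc, ← hcoef m]
    exact h2

/-- N3 in terms of the involution `charInvolution` of the prelude. -/
theorem torChar_conj' (ι : AlgebraicClosure ℚ →+* ℂ) (c : GQ)
    (hc : ∀ a : AlgebraicClosure ℚ, ι (c a) = conj (ι a)) {x : ModularCurve.JZero N}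
    (h : TorChar N n ι x φ) :
    TorChar N n ι (c • x) (-(charInvolution N ℤ (ZMod n) φ)) :=
  torChar_conj ι c hc h

end Fermat.Agent.S15.Desc.H97

end
end
-- ==== END Fermat.Agent.S15.Desc.H97_Reflect

-- ==== BEGIN Fermat.Agent.S15.Desc.H99_NumTwoAlg
section

/-!
# S15 / DESC / NUM-∞ at `r = 2`: the lattice algebra (helper99)

`H = ℤ^n` with an involution `I` and an endomorphism `M` commuting with `I`, idempotent modulo
`2^m` (`2 n < 2^m`), with `tr (M I) = 0`.  In `H / 2 H = 𝔽₂^n` let `W = {v | M v = v}` and let `U`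
be the image of `H⁺ = ker (I - 1)`.  Then `2 dim (W ∩ U) = dim W`.

Steps:
* `isLocalRing_zmod_two_pow` : `ℤ / 2^m` is local;
* `trace_eq_rank_of_idem` : over a local ring `Λ` with a homomorphism `φ` to a field, the trace
  of an idempotent matrix `A` is the rank of `φ(A)`;
* `trace_eq_rank_mod` : for an integer matrix idempotent modulo `2^m`, `tr M ≡ rank (M mod 2)`
  modulo `2^m`;
* `two_mul_finrank_eq` : the result.
-/

set_option autoImplicit false
set_option linter.unusedSectionVars false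
set_option linter.style.haveILetI false

namespace Fermat.Agent.S15.Desc.H99

open Module

section Local

/-- `ℤ / 2^m` is a local ring. -/
theorem isLocalRing_zmod_two_pow (m : ℕ) (hm : m ≠ 0) : IsLocalRing (ZMod (2 ^ m)) := by
  haveI : Fact (Nat.Prime 2) := ⟨Nat.prime_two⟩
  haveI : Fact (1 < 2 ^ m) := ⟨Nat.one_lt_two_pow hm⟩
  exact IsLocalRing.of_surjective' (PadicInt.toZModPow m) (ZMod.ringHom_surjective _)

end Local

section Idem

variable {Λ : Type*} [CommRing Λ] [IsLocalRing Λ] {d : ℕ}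

/-- The range of an idempotent matrix over a local ring is free. -/
theorem free_range_of_idem (A : Matrix (Fin d) (Fin d) Λ) (hA : A * A = A) :
    Module.Free Λ (LinearMap.range A.mulVecLin) := by
  have hproj : Module.Projective Λ (LinearMap.range A.mulVecLin) := by
    refine Module.Projective.of_split (LinearMap.range A.mulVecLin).subtype
      (A.mulVecLin.codRestrict (LinearMap.range A.mulVecLin) fun x => LinearMap.mem_range_self _ x)
      ?_
    ext ⟨x, hx⟩ : 1
    obtain ⟨y, rfl⟩ := hx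
    apply Subtype.ext
    simp only [LinearMap.comp_apply, Submodule.subtype_apply, LinearMap.codRestrict_apply,
      LinearMap.id_apply, Matrix.mulVecLin_apply, Matrix.mulVec_mulVec, hA]
  exact Module.free_of_flat_of_isLocalRing

/-- A vector in the range of an idempotent matrix is fixed by it. -/
theorem mulVec_eq_of_mem_range (A : Matrix (Fin d) (Fin d) Λ) (hA : A * A = A)
    {x : Fin d → Λ} (hx : x ∈ LinearMap.range A.mulVecLin) : A.mulVec x = x := by
  obtain ⟨y, rfl⟩ := hx
  rw [Matrix.mulVecLin_apply, Matrix.mulVec_mulVec, hA]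

theorem ker_eq_range_one_sub (A : Matrix (Fin d) (Fin d) Λ) (hA : A * A = A) :
    LinearMap.ker A.mulVecLin = LinearMap.range (1 - A).mulVecLin := by
  ext x
  rw [LinearMap.mem_ker, LinearMap.mem_range, Matrix.mulVecLin_apply]
  constructor
  · intro h
    refine ⟨x, ?_⟩
    rw [Matrix.mulVecLin_apply, Matrix.sub_mulVec, Matrix.one_mulVec, h, sub_zero]
  · rintro ⟨y, rfl⟩
    rw [Matrix.mulVecLin_apply, Matrix.mulVec_mulVec, mul_sub, mul_one, hA, sub_self,
      Matrix.zero_mulVec]

theorem one_sub_idem (A : Matrix (Fin d) (Fin d) Λ) (hA : A * A = A) :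
    (1 - A) * (1 - A) = 1 - A := by
  simp only [mul_sub, sub_mul, mul_one, one_mul, hA, sub_self, sub_zero]

/-- A matrix whose range lies in a submodule with a basis of `ρ` elements factors through
`Λ^ρ`; hence the rank of its image under a homomorphism to a field is at most `ρ`. -/
theorem rank_map_le_of_basis {k : Type*} [Field k] (φ : Λ →+* k)
    (A : Matrix (Fin d) (Fin d) Λ) (p : Submodule Λ (Fin d → Λ))
    (hp : ∀ x, A.mulVec x ∈ p) {ρ : ℕ} (b : Basis (Fin ρ) Λ p) :
    (A.map φ).rank ≤ ρ := by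
  classical
  set B : Matrix (Fin d) (Fin ρ) Λ := Matrix.of fun j i => (b i : Fin d → Λ) j with hB
  set C : Matrix (Fin ρ) (Fin d) Λ :=
    Matrix.of fun i l => b.repr ⟨A.mulVec (Pi.single l 1), hp _⟩ i with hC
  have hBC : B * C = A := by
    ext j l
    have h1 := b.sum_repr ⟨A.mulVec (Pi.single l 1), hp _⟩
    have h2 := congrArg (fun x : p => (x : Fin d → Λ) j) h1
    simp only [Submodule.coe_sum, Submodule.coe_smul, Finset.sum_apply, Pi.smul_apply,
      smul_eq_mul] at h2
    have h4 : A.mulVec (Pi.single l 1) j = A j l := by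
      simp
    rw [h4] at h2
    rw [Matrix.mul_apply]
    simp only [hB, hC, Matrix.of_apply]
    rw [← h2]
    exact Finset.sum_congr rfl fun i _ => mul_comm _ _
  have h3 : A.map φ = B.map φ * C.map φ := by
    rw [← hBC, Matrix.map_mul]
  rw [h3]
  exact (Matrix.rank_mul_le_left _ _).trans (Matrix.rank_le_width _)

/-- Subadditivity of the rank of matrices over a field. -/
theorem matrix_rank_add_le {k : Type*} [Field k] (A B : Matrix (Fin d) (Fin d) k) :
    (A + B).rank ≤ A.rank + B.rank := by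
  have hle : LinearMap.range (A + B).mulVecLin ≤
      LinearMap.range A.mulVecLin ⊔ LinearMap.range B.mulVecLin := by
    rintro _ ⟨x, rfl⟩
    rw [Matrix.mulVecLin_apply, Matrix.add_mulVec]
    exact Submodule.add_mem_sup (LinearMap.mem_range_self A.mulVecLin x)
      (LinearMap.mem_range_self B.mulVecLin x)
  exact (Submodule.finrank_mono hle).trans (Submodule.finrank_add_le_finrank_add_finrank _ _)

/-- **Trace of an idempotent over a local ring**: it is the rank of its reduction. -/
theorem trace_eq_rank_of_idem {k : Type*} [Field k] (φ : Λ →+* k)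
    (A : Matrix (Fin d) (Fin d) Λ) (hA : A * A = A) :
    A.trace = ((A.map φ).rank : Λ) := by
  classical
  haveI hfp : Module.Free Λ (LinearMap.range A.mulVecLin) := free_range_of_idem A hA
  haveI hfq : Module.Free Λ (LinearMap.ker A.mulVecLin) := by
    rw [ker_eq_range_one_sub A hA]
    exact free_range_of_idem (1 - A) (one_sub_idem A hA)
  haveI hnq : Module.Finite Λ (LinearMap.ker A.mulVecLin) := by
    rw [ker_eq_range_one_sub A hA]
    infer_instance
  have hproj : LinearMap.IsProj (LinearMap.range A.mulVecLin) A.mulVecLin :=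
    ⟨fun x => LinearMap.mem_range_self _ x, fun x hx => mulVec_eq_of_mem_range A hA hx⟩
  have htr : LinearMap.trace Λ (Fin d → Λ) A.mulVecLin =
      (finrank Λ (LinearMap.range A.mulVecLin) : Λ) := hproj.trace
  have htr2 : LinearMap.trace Λ (Fin d → Λ) A.mulVecLin = A.trace := by
    rw [LinearMap.trace_eq_matrix_trace Λ (Pi.basisFun Λ (Fin d)),
      LinearMap.toMatrix_eq_toMatrix', ← Matrix.toLin'_apply', LinearMap.toMatrix'_toLin']
  -- dimensions
  set ρ := finrank Λ (LinearMap.range A.mulVecLin) with hρ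
  set κ := finrank Λ (LinearMap.ker A.mulVecLin) with hκ
  have hsum : ρ + κ = d := by
    have e := Submodule.prodEquivOfIsCompl _ _ hproj.isCompl
    have h1 := e.finrank_eq
    rw [Module.finrank_prod, Module.finrank_fin_fun] at h1
    exact h1
  have hle1 : (A.map φ).rank ≤ ρ :=
    rank_map_le_of_basis φ A _ (fun x => LinearMap.mem_range_self _ x)
      (Module.finBasis Λ (LinearMap.range A.mulVecLin))
  have hle2 : ((1 - A).map φ).rank ≤ κ := by
    refine rank_map_le_of_basis φ (1 - A) (LinearMap.ker A.mulVecLin) (fun x => ?_)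
      (Module.finBasis Λ (LinearMap.ker A.mulVecLin))
    rw [ker_eq_range_one_sub A hA]
    exact LinearMap.mem_range_self _ x
  have hone : (1 : Matrix (Fin d) (Fin d) k) = A.map φ + (1 - A).map φ := by
    ext i j
    simp only [Matrix.add_apply, Matrix.map_apply, Matrix.sub_apply, map_sub, add_sub_cancel]
    by_cases h : i = j <;> simp [h, Matrix.one_apply]
  have hd : d ≤ (A.map φ).rank + ((1 - A).map φ).rank := by
    have h1 : (1 : Matrix (Fin d) (Fin d) k).rank = d := by
      rw [Matrix.rank_one, Fintype.card_fin]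
    calc d = (1 : Matrix (Fin d) (Fin d) k).rank := h1.symm
      _ = (A.map φ + (1 - A).map φ).rank := by rw [← hone]
      _ ≤ (A.map φ).rank + ((1 - A).map φ).rank := matrix_rank_add_le _ _
  have hfin : (A.map φ).rank = ρ := by omega
  rw [← htr2, htr, hfin]

end Idem

section IntMat

variable {d : ℕ}

/-- **Trace of an integer matrix idempotent modulo `2^m`**. -/
theorem trace_eq_rank_mod (m : ℕ) (hm : m ≠ 0) (M N : Matrix (Fin d) (Fin d) ℤ)
    (hM : M * M = M + (2 : ℤ) ^ m • N) :
    ((M.trace : ℤ) : ZMod (2 ^ m)) =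
      (((M.map (Int.cast : ℤ → ZMod 2)).rank : ℕ) : ZMod (2 ^ m)) := by
  haveI := isLocalRing_zmod_two_pow m hm
  have hdvd : 2 ∣ 2 ^ m := dvd_pow_self 2 hm
  set A : Matrix (Fin d) (Fin d) (ZMod (2 ^ m)) := M.map (Int.castRingHom (ZMod (2 ^ m))) with hAdef
  have hA : A * A = A := by
    rw [hAdef, ← Matrix.map_mul, hM]
    ext i j
    simp only [Matrix.map_apply, Matrix.add_apply, Matrix.smul_apply, smul_eq_mul, map_add,
      map_mul, map_pow, eq_intCast, Int.cast_ofNat]
    have h0 : ((2 : ZMod (2 ^ m)) ^ m) = 0 := by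
      have := ZMod.natCast_self (2 ^ m)
      push_cast at this
      exact this
    rw [h0, zero_mul, add_zero]
  have h1 := trace_eq_rank_of_idem (ZMod.castHom hdvd (ZMod 2)) A hA
  have h2 : A.map (ZMod.castHom hdvd (ZMod 2)) = M.map (Int.cast : ℤ → ZMod 2) := by
    ext i j
    simp only [hAdef, Matrix.map_apply, eq_intCast, map_intCast]
  have h3 : A.trace = ((M.trace : ℤ) : ZMod (2 ^ m)) := by
    rw [hAdef, Matrix.trace, Matrix.trace, Int.cast_sum]
    rfl
  rw [← h3, h1, h2]

end IntMat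

section Lattice

variable {n : ℕ}

/-- Reduction modulo `2` of integer vectors. -/
def red2 (n : ℕ) : (Fin n → ℤ) →+ (Fin n → ZMod 2) where
  toFun h := fun i => (h i : ZMod 2)
  map_zero' := by funext i; simp
  map_add' a b := by funext i; simp

@[simp] theorem red2_apply (h : Fin n → ℤ) (i : Fin n) : red2 n h i = (h i : ZMod 2) := rfl

theorem red2_surjective : Function.Surjective (red2 n) := by
  intro w
  choose c hc using fun i => ZMod.intCast_surjective (w i)
  exact ⟨c, funext hc⟩

theorem red2_mulVec {a b : ℕ} (A : Matrix (Fin a) (Fin b) ℤ) (h : Fin b → ℤ) :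
    red2 a (A.mulVec h) = (A.map (Int.cast : ℤ → ZMod 2)).mulVec (red2 b h) := by
  funext i
  exact RingHom.map_mulVec (Int.castRingHom (ZMod 2)) A h i

theorem red2_eq_zero_iff (h : Fin n → ℤ) :
    red2 n h = 0 ↔ ∃ g : Fin n → ℤ, h = (2 : ℤ) • g := by
  constructor
  · intro h0
    have h1 : ∀ i, (2 : ℤ) ∣ h i := fun i => by
      have := congrFun h0 i
      simp only [red2_apply, Pi.zero_apply] at this
      exact_mod_cast (ZMod.intCast_zmod_eq_zero_iff_dvd (h i) 2).mp this
    choose g hg using h1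
    exact ⟨g, funext fun i => by simp [hg i]⟩
  · rintro ⟨g, rfl⟩
    funext i
    simp only [red2_apply, Pi.smul_apply, smul_eq_mul, Int.cast_mul, Int.cast_ofNat,
      Pi.zero_apply]
    have : (2 : ZMod 2) = 0 := by decide
    rw [this, zero_mul]

/-- `W₀`: the fixed space of `M mod 2`. -/
def latW (M : Matrix (Fin n) (Fin n) ℤ) : Submodule (ZMod 2) (Fin n → ZMod 2) where
  carrier := {v | (M.map (Int.cast : ℤ → ZMod 2)).mulVec v = v}
  add_mem' := fun {a b} ha hb => by
    show (M.map (Int.cast : ℤ → ZMod 2)).mulVec (a + b) = a + b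
    rw [Matrix.mulVec_add, ha, hb]
  zero_mem' := Matrix.mulVec_zero _
  smul_mem' := fun c v hv => by
    show (M.map (Int.cast : ℤ → ZMod 2)).mulVec (c • v) = c • v
    rw [Matrix.mulVec_smul, hv]

theorem mem_latW {M : Matrix (Fin n) (Fin n) ℤ} {v : Fin n → ZMod 2} :
    v ∈ latW M ↔ (M.map (Int.cast : ℤ → ZMod 2)).mulVec v = v := Iff.rfl

/-- `U₀`: the image in `𝔽₂^n` of `H⁺ = ker (I - 1)`. -/
def latU (I : Matrix (Fin n) (Fin n) ℤ) : Submodule (ZMod 2) (Fin n → ZMod 2) where
  carrier := {v | ∃ h : Fin n → ℤ, I.mulVec h = h ∧ red2 n h = v}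
  add_mem' := by
    rintro _ _ ⟨a, ha, rfl⟩ ⟨b, hb, rfl⟩
    exact ⟨a + b, by rw [Matrix.mulVec_add, ha, hb], map_add _ _ _⟩
  zero_mem' := ⟨0, Matrix.mulVec_zero _, map_zero _⟩
  smul_mem' := by
    rintro c _ ⟨a, ha, rfl⟩
    obtain ⟨z, rfl⟩ := ZMod.intCast_surjective c
    refine ⟨z • a, by rw [Matrix.mulVec_smul, ha], ?_⟩
    funext i
    simp [red2]

theorem mem_latU {I : Matrix (Fin n) (Fin n) ℤ} {v : Fin n → ZMod 2} :
    v ∈ latU I ↔ ∃ h : Fin n → ℤ, I.mulVec h = h ∧ red2 n h = v := Iff.rfl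

/-- The reduction of `M` modulo `2` is idempotent. -/
theorem map_idem_two (m : ℕ) (hm : m ≠ 0) (M N : Matrix (Fin n) (Fin n) ℤ)
    (hM : M * M = M + (2 : ℤ) ^ m • N) :
    M.map (Int.cast : ℤ → ZMod 2) * M.map (Int.cast : ℤ → ZMod 2) =
      M.map (Int.cast : ℤ → ZMod 2) := by
  have h1 : M.map (Int.castRingHom (ZMod 2)) * M.map (Int.castRingHom (ZMod 2)) =
      M.map (Int.castRingHom (ZMod 2)) := by
    rw [← Matrix.map_mul, hM]
    ext i j
    simp only [Matrix.map_apply, Matrix.add_apply, Matrix.smul_apply, smul_eq_mul, map_add,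
      map_mul, map_pow, eq_intCast, Int.cast_ofNat]
    have h0 : ((2 : ZMod 2) ^ m) = 0 := by
      have : (2 : ZMod 2) = 0 := by decide
      rw [this, zero_pow hm]
    rw [h0, zero_mul, add_zero]
  exact h1

/-- `dim W₀ = rank (M mod 2)`. -/
theorem finrank_latW (m : ℕ) (hm : m ≠ 0) (M N : Matrix (Fin n) (Fin n) ℤ)
    (hM : M * M = M + (2 : ℤ) ^ m • N) :
    finrank (ZMod 2) ↥(latW M) = (M.map (Int.cast : ℤ → ZMod 2)).rank := by
  have hid := map_idem_two m hm M N hM
  have : latW M = LinearMap.range (M.map (Int.cast : ℤ → ZMod 2)).mulVecLin := by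
    ext v
    rw [mem_latW, LinearMap.mem_range]
    constructor
    · intro h
      exact ⟨v, h⟩
    · rintro ⟨w, rfl⟩
      rw [Matrix.mulVecLin_apply, Matrix.mulVec_mulVec, hid]
  rw [this]
  rfl

end Lattice

section Plus

variable {n : ℕ} (I : Matrix (Fin n) (Fin n) ℤ)

/-- `H⁺ = ker (I - 1)`. -/
def latPlus : Submodule ℤ (Fin n → ℤ) where
  carrier := {h | I.mulVec h = h}
  add_mem' := fun {a b} ha hb => by
    show I.mulVec (a + b) = a + b
    rw [Matrix.mulVec_add, ha, hb]
  zero_mem' := Matrix.mulVec_zero _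
  smul_mem' := fun c v hv => by
    show I.mulVec (c • v) = c • v
    rw [Matrix.mulVec_smul, hv]

variable {I}

theorem mem_latPlus {h : Fin n → ℤ} : h ∈ latPlus I ↔ I.mulVec h = h := Iff.rfl

/-- `H⁺` is saturated in `H`. -/
theorem mem_latPlus_of_smul {a : ℤ} (ha : a ≠ 0) {g : Fin n → ℤ} (h : a • g ∈ latPlus I) :
    g ∈ latPlus I := by
  rw [mem_latPlus] at h ⊢
  rw [Matrix.mulVec_smul] at h
  funext i
  have := congrFun h i
  simp only [Pi.smul_apply, smul_eq_mul] at this
  exact mul_left_cancel₀ ha this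

theorem mulVec_mem_latPlus {M : Matrix (Fin n) (Fin n) ℤ} (hMI : M * I = I * M)
    {h : Fin n → ℤ} (hh : h ∈ latPlus I) : M.mulVec h ∈ latPlus I := by
  rw [mem_latPlus] at hh ⊢
  rw [Matrix.mulVec_mulVec, ← hMI, ← Matrix.mulVec_mulVec, hh]

/-- The error term of an approximate idempotent commuting with `I` preserves `H⁺`. -/
theorem mulVec_err_mem_latPlus {m : ℕ} {M N : Matrix (Fin n) (Fin n) ℤ} (hMI : M * I = I * M)
    (hM : M * M = M + (2 : ℤ) ^ m • N) {h : Fin n → ℤ} (hh : h ∈ latPlus I) :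
    N.mulVec h ∈ latPlus I := by
  apply mem_latPlus_of_smul (a := (2 : ℤ) ^ m) (pow_ne_zero _ two_ne_zero)
  have h1 : (2 : ℤ) ^ m • N.mulVec h = M.mulVec (M.mulVec h) - M.mulVec h := by
    rw [Matrix.mulVec_mulVec, hM, Matrix.add_mulVec, Matrix.smul_mulVec]
    abel
  rw [h1]
  exact Submodule.sub_mem _ (mulVec_mem_latPlus hMI (mulVec_mem_latPlus hMI hh))
    (mulVec_mem_latPlus hMI hh)

variable (I)

/-- The restriction to `H⁺` of a matrix commuting with `I`. -/
def restrPlus (M : Matrix (Fin n) (Fin n) ℤ) (hMI : M * I = I * M) :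
    latPlus I →ₗ[ℤ] latPlus I :=
  M.mulVecLin.restrict (p := latPlus I) fun _ hh => mulVec_mem_latPlus hMI hh

@[simp] theorem coe_restrPlus (M : Matrix (Fin n) (Fin n) ℤ) (hMI : M * I = I * M)
    (h : latPlus I) : ((restrPlus I M hMI h : latPlus I) : Fin n → ℤ) = M.mulVec h := rfl

variable {I}

/-- `2 tr (M | H⁺) = tr M + tr (M I)`. -/
theorem two_mul_trace_restrPlus (hI : I * I = 1) (M : Matrix (Fin n) (Fin n) ℤ)
    (hMI : M * I = I * M) :
    2 * LinearMap.trace ℤ (latPlus I) (restrPlus I M hMI) = M.trace + (M * I).trace := by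
  have hf : ∀ x : Fin n → ℤ, (M * (1 + I)).mulVecLin x ∈ latPlus I := by
    intro x
    rw [mem_latPlus, Matrix.mulVecLin_apply, Matrix.mulVec_mulVec]
    congr 1
    rw [← mul_assoc, ← hMI, mul_assoc, mul_add, mul_one, hI, add_comm]
  have h1 := LinearMap.trace_restrict_eq_of_forall_mem (latPlus I) (M * (1 + I)).mulVecLin hf
  have h2 : (M * (1 + I)).mulVecLin.restrict (p := latPlus I) (fun x _ => hf x) =
      (2 : ℤ) • restrPlus I M hMI := by
    ext ⟨x, hx⟩ : 1
    apply Subtype.ext
    rw [LinearMap.coe_restrict_apply, LinearMap.smul_apply, Submodule.coe_smul, coe_restrPlus,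
      Matrix.mulVecLin_apply, ← Matrix.mulVec_mulVec, Matrix.add_mulVec, Matrix.one_mulVec,
      mem_latPlus.mp hx, ← two_smul ℤ x, Matrix.mulVec_smul]
  have h3 : LinearMap.trace ℤ (Fin n → ℤ) (M * (1 + I)).mulVecLin = (M * (1 + I)).trace := by
    rw [LinearMap.trace_eq_matrix_trace ℤ (Pi.basisFun ℤ (Fin n)),
      LinearMap.toMatrix_eq_toMatrix', ← Matrix.toLin'_apply', LinearMap.toMatrix'_toLin']
  rw [h2, map_smul, h3, smul_eq_mul] at h1
  rw [h1, mul_add, mul_one, Matrix.trace_add]

end Plus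

section Basis

variable {n d : ℕ} {I : Matrix (Fin n) (Fin n) ℤ} (β : Basis (Fin d) ℤ (latPlus I))

/-- The matrix of the inclusion `H⁺ → H`. -/
noncomputable def matB : Matrix (Fin n) (Fin d) ℤ := Matrix.of fun k i => (β i : Fin n → ℤ) k

theorem matB_mulVec (c : Fin d → ℤ) :
    (matB β).mulVec c = ((β.equivFun.symm c : latPlus I) : Fin n → ℤ) := by
  funext k
  rw [Basis.equivFun_symm_apply]
  simp only [matB, Matrix.mulVec, dotProduct, Matrix.of_apply, Submodule.coe_sum,
    Submodule.coe_smul, Finset.sum_apply, Pi.smul_apply, smul_eq_mul]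
  exact Finset.sum_congr rfl fun i _ => mul_comm _ _

theorem matB_mulVec_mem (c : Fin d → ℤ) : (matB β).mulVec c ∈ latPlus I := by
  rw [matB_mulVec]
  exact Subtype.property _

theorem exists_matB_mulVec_eq {h : Fin n → ℤ} (hh : h ∈ latPlus I) :
    ∃ c : Fin d → ℤ, (matB β).mulVec c = h :=
  ⟨β.equivFun ⟨h, hh⟩, by rw [matB_mulVec, LinearEquiv.symm_apply_apply]⟩

theorem matB_mulVec_injective : Function.Injective (matB β).mulVec := by
  intro c c' h
  rw [matB_mulVec, matB_mulVec] at h
  exact β.equivFun.symm.injective (Subtype.ext h)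

/-- `M B = B M⁺`. -/
theorem mul_matB (M : Matrix (Fin n) (Fin n) ℤ) (hMI : M * I = I * M) :
    M * matB β = matB β * LinearMap.toMatrix β β (restrPlus I M hMI) := by
  apply Matrix.mulVec_injective
  funext c
  rw [← Matrix.mulVec_mulVec, ← Matrix.mulVec_mulVec, matB_mulVec, matB_mulVec]
  have hc : c = ⇑(β.repr (β.equivFun.symm c)) := by
    rw [← Basis.equivFun_apply, LinearEquiv.apply_symm_apply]
  conv_rhs => rw [hc, LinearMap.toMatrix_mulVec_repr]
  rw [← Basis.equivFun_apply, LinearEquiv.symm_apply_apply]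
  rfl

/-- The reduction modulo `2` of the inclusion `H⁺ → H` is injective (`H⁺` is saturated). -/
theorem red_matB_injective :
    Function.Injective ((matB β).map (Int.cast : ℤ → ZMod 2)).mulVecLin := by
  intro w w' hww
  have h0 : ((matB β).map (Int.cast : ℤ → ZMod 2)).mulVec (w - w') = 0 := by
    have := sub_eq_zero.mpr hww
    rw [← map_sub] at this
    exact this
  obtain ⟨c, hc⟩ := red2_surjective (w - w')
  rw [← hc, ← red2_mulVec, red2_eq_zero_iff] at h0
  obtain ⟨g, hg⟩ := h0
  have hgm : g ∈ latPlus I :=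
    mem_latPlus_of_smul (a := 2) two_ne_zero (hg ▸ matB_mulVec_mem β c)
  obtain ⟨c', hc'⟩ := exists_matB_mulVec_eq β hgm
  have h1 : (matB β).mulVec c = (matB β).mulVec ((2 : ℤ) • c') := by
    rw [Matrix.mulVec_smul, hc', hg]
  have hcc := matB_mulVec_injective β h1
  have h2 : w - w' = 0 := by
    rw [← hc, hcc]
    exact (red2_eq_zero_iff _).mpr ⟨c', rfl⟩
  exact sub_eq_zero.mp h2

/-- `W₀ ∩ U₀` is the image of the range of `M⁺ mod 2`. -/
theorem latW_inf_latU_eq (m : ℕ) (hm : m ≠ 0) (M N : Matrix (Fin n) (Fin n) ℤ)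
    (hMI : M * I = I * M) (hM : M * M = M + (2 : ℤ) ^ m • N) :
    latW M ⊓ latU I =
      (LinearMap.range ((LinearMap.toMatrix β β (restrPlus I M hMI)).map
        (Int.cast : ℤ → ZMod 2)).mulVecLin).map
        ((matB β).map (Int.cast : ℤ → ZMod 2)).mulVecLin := by
  have hid := map_idem_two m hm M N hM
  have hcomm : M.map (Int.cast : ℤ → ZMod 2) * (matB β).map (Int.cast : ℤ → ZMod 2) =
      (matB β).map (Int.cast : ℤ → ZMod 2) *
        (LinearMap.toMatrix β β (restrPlus I M hMI)).map (Int.cast : ℤ → ZMod 2) := by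
    have h1 := congrArg (fun X : Matrix (Fin n) (Fin d) ℤ => X.map (Int.castRingHom (ZMod 2)))
      (mul_matB β M hMI)
    simp only [Matrix.map_mul] at h1
    exact h1
  have key : ∀ c : Fin d → ℤ, ((matB β).map (Int.cast : ℤ → ZMod 2)).mulVec
      (((LinearMap.toMatrix β β (restrPlus I M hMI)).map (Int.cast : ℤ → ZMod 2)).mulVec
        (red2 d c)) =
      (M.map (Int.cast : ℤ → ZMod 2)).mulVec (red2 n ((matB β).mulVec c)) := by
    intro c
    rw [Matrix.mulVec_mulVec, ← hcomm, ← Matrix.mulVec_mulVec, ← red2_mulVec]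
  ext v
  rw [Submodule.mem_inf, mem_latW, mem_latU, Submodule.mem_map]
  constructor
  · rintro ⟨hv, h, hh, rfl⟩
    obtain ⟨c, hc⟩ := exists_matB_mulVec_eq β hh
    refine ⟨_, LinearMap.mem_range_self _ (red2 d c), ?_⟩
    rw [Matrix.mulVecLin_apply, Matrix.mulVecLin_apply, key, hc, hv]
  · rintro ⟨_, ⟨w, rfl⟩, rfl⟩
    obtain ⟨c, rfl⟩ := red2_surjective w
    rw [Matrix.mulVecLin_apply, Matrix.mulVecLin_apply, key]
    constructor
    · rw [Matrix.mulVec_mulVec, hid]
    · exact ⟨M.mulVec ((matB β).mulVec c),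
        mulVec_mem_latPlus hMI (matB_mulVec_mem β c), red2_mulVec _ _⟩

end Basis

section Main

variable {n : ℕ}

/-- **NUM-∞ at `2`, lattice form**: `2 dim (W₀ ∩ U₀) = dim W₀`. -/
theorem two_mul_finrank_inf_eq (m : ℕ) (hm : m ≠ 0) (hnm : 2 * n < 2 ^ m)
    (M I N : Matrix (Fin n) (Fin n) ℤ) (hI : I * I = 1) (hMI : M * I = I * M)
    (htr : (M * I).trace = 0) (hM : M * M = M + (2 : ℤ) ^ m • N) :
    2 * finrank (ZMod 2) ↥(latW M ⊓ latU I) = finrank (ZMod 2) ↥(latW M) := by
  classical
  set β := Module.finBasis ℤ (latPlus I) with hβ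
  set Mp := LinearMap.toMatrix β β (restrPlus I M hMI) with hMp
  set Np := LinearMap.toMatrix β β (restrPlus I N
    (by
      -- `N` commutes with `I` (torsion-freeness)
      have h1 : (2 : ℤ) ^ m • (N * I) = (2 : ℤ) ^ m • (I * N) := by
        have e1 : (2 : ℤ) ^ m • N = M * M - M := by rw [hM]; abel
        rw [← Matrix.smul_mul, ← Matrix.mul_smul, e1, sub_mul, mul_sub, mul_assoc, hMI,
          ← mul_assoc, hMI, mul_assoc]
      ext i j
      have := congrFun (congrFun h1 i) j
      simp only [Matrix.smul_apply, smul_eq_mul] at this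
      exact mul_left_cancel₀ (pow_ne_zero _ two_ne_zero) this)) with hNp
  -- `M⁺` is idempotent modulo `2^m`
  have hMpid : Mp * Mp = Mp + (2 : ℤ) ^ m • Np := by
    rw [hMp, hNp, ← LinearMap.toMatrix_mul, ← map_smul, ← map_add]
    congr 1
    ext ⟨x, hx⟩ : 1
    apply Subtype.ext
    simp only [Module.End.mul_apply, LinearMap.add_apply, LinearMap.smul_apply,
      Submodule.coe_add, Submodule.coe_smul, coe_restrPlus]
    rw [Matrix.mulVec_mulVec, hM, Matrix.add_mulVec, Matrix.smul_mulVec]
  have hT := trace_eq_rank_mod m hm M N hM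
  have hTp := trace_eq_rank_mod m hm Mp Np hMpid
  have htr2 : 2 * Mp.trace = M.trace := by
    have := two_mul_trace_restrPlus hI M hMI
    rw [htr, add_zero, LinearMap.trace_eq_matrix_trace ℤ β] at this
    exact this
  have hW := finrank_latW m hm M N hM
  have hWU : finrank (ZMod 2) ↥(latW M ⊓ latU I) =
      (Mp.map (Int.cast : ℤ → ZMod 2)).rank := by
    rw [latW_inf_latU_eq β m hm M N hMI hM]
    exact (Submodule.equivMapOfInjective _ (red_matB_injective β) _).finrank_eq.symm
  -- numerics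
  have hle1 : finrank (ZMod 2) ↥(latW M) ≤ n := by
    have := Submodule.finrank_le (latW M)
    rwa [Module.finrank_fin_fun] at this
  have hle2 : finrank (ZMod 2) ↥(latW M ⊓ latU I) ≤ finrank (ZMod 2) ↥(latW M) :=
    Submodule.finrank_mono inf_le_left
  have hcong : ((2 * finrank (ZMod 2) ↥(latW M ⊓ latU I) : ℕ) : ZMod (2 ^ m)) =
      ((finrank (ZMod 2) ↥(latW M) : ℕ) : ZMod (2 ^ m)) := by
    rw [hWU, hW, ← hT, ← htr2, Nat.cast_mul, ← hTp]
    push_cast
    rfl
  have h3 := (ZMod.natCast_eq_natCast_iff' _ _ _).mp hcong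
  rw [Nat.mod_eq_of_lt (by omega), Nat.mod_eq_of_lt (by omega)] at h3
  exact h3

end Main

end Fermat.Agent.S15.Desc.H99

end
-- ==== END Fermat.Agent.S15.Desc.H99_NumTwoAlg

-- ==== BEGIN Fermat.Agent.S15.FG.Defs
section
attribute [local instance 10000] SubalgebraClass.toAlgebra
attribute [local instance 10000] HahnSeries.powerSeriesAlgebra

set_option autoImplicit false
set_option synthInstance.maxHeartbeats 400000

noncomputable section

open AlgebraicCurve ModularCurve Fermat.Agent.S28.H73 Fermat.Agent.RED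

namespace Fermat.Agent.S15.FG

/-- (FG-BRIDGE) the reductions of the rational points of `J₀(p)` are fixed by a Frobenius `φ` of
the reduced function field, and `φ` fixes a place and a non-constant function. -/
def Stmt_FGbridge (p : ℕ) : Prop :=
  ∀ ℓ : ℕ, ℓ.Prime → ℓ ≠ p → ∀ A : ValuationSubring (AlgebraicClosure ℚ), A.LiesOverPrime ℓ →
  ∀ h : ReductionInputsModL A p,
    IsFF (kV A) ↥(modularFunctionFieldFullC (kV A) p) ∧
    ∃ (φ : SemilinearAut (kV A) ↥(modularFunctionFieldFullC (kV A) p))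
      (P₀ : Place (kV A) ↥(modularFunctionFieldFullC (kV A) p))
      (x : ↥(modularFunctionFieldFullC (kV A) p)),
      (∀ a : kV A, SemilinearAut.baseAut φ a = a ^ ℓ) ∧ φ • P₀ = P₀ ∧
      Transcendental (kV A) x ∧ φ • x = x ∧
      ∀ D : Divisor.degZero (K := AlgebraicClosure ℚ) (F := ↥(modularFunctionFieldBar p)),
        Pic0.mk D ∈ ratPts p →
        φ • Finsupp.mapDomain (placeReductionModL h)
              (D : Divisor (AlgebraicClosure ℚ) ↥(modularFunctionFieldBar p))
            - Finsupp.mapDomain (placeReductionModL h)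
              (D : Divisor (AlgebraicClosure ℚ) ↥(modularFunctionFieldBar p))
          ∈ Divisor.principal (K := kV A) (F := ↥(modularFunctionFieldFullC (kV A) p))

end Fermat.Agent.S15.FG

end
end
-- ==== END Fermat.Agent.S15.FG.Defs

-- ==== BEGIN Fermat.Agent.S15.FG.H11_Fin
section

set_option autoImplicit false

noncomputable section

open AlgebraicCurve IntermediateField WithZero

namespace Fermat.Agent.S15.FG.H11

open Fermat.Agent.RED.H42

variable {K F : Type*} [Field K] [Field F] [Algebra K F]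

local notation "L" => riemannRochSpace

/-! ### Orders and valuations -/

theorem adicValuation_lt_one_iff_ord {v : Place K F} {f : F} (hf : f ≠ 0) :
    v.adicValuation f < 1 ↔ 0 < v.ord f := by
  rw [v.adicValuation_eq_exp_neg_ord hf, ← exp_zero, exp_lt_exp]
  omega

theorem adicValuation_le_one_iff_ord {v : Place K F} {f : F} (hf : f ≠ 0) :
    v.adicValuation f ≤ 1 ↔ 0 ≤ v.ord f := by
  rw [v.adicValuation_eq_exp_neg_ord hf, ← exp_zero, exp_le_exp]
  omega

theorem ord_algebraMap_eq_zero (v : Place K F) (c : K) : v.ord (algebraMap K F c) = 0 := by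
  rcases eq_or_ne c 0 with rfl | hc
  · simp
  · have h := adicValuation_algebraMap v hc
    have hne : algebraMap K F c ≠ 0 := by
      intro h0
      rw [h0, map_zero] at h
      exact zero_ne_one h
    rw [v.adicValuation_eq_exp_neg_ord hne, ← exp_zero] at h
    have := exp_injective h
    omega

/-! ### Uniqueness of the effective divisor when `l(D) = 1` -/

theorem eq_of_finrank_eq_one {D D' : Divisor K F} (hD : 0 ≤ D) (hD' : 0 ≤ D')
    (hl : Module.finrank K (L D) = 1) (hp : D' - D ∈ Divisor.principal (K := K) (F := F)) :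
    D' = D := by
  obtain ⟨h, hh0, hh⟩ := hp
  have hhL : h ∈ L D := by
    rw [mem_riemannRochSpace_iff]
    intro v
    right
    have h1 := hh v
    have h2 := Finsupp.le_def.mp hD' v
    rw [Finsupp.sub_apply] at h1
    simp only [Finsupp.coe_zero, Pi.zero_apply] at h2
    omega
  have h1L : (1 : F) ∈ L D := one_mem_L hD
  have h10 : (⟨1, h1L⟩ : L D) ≠ 0 := fun h0 => one_ne_zero (congrArg Subtype.val h0)
  obtain ⟨c, hc⟩ := (finrank_eq_one_iff_of_nonzero' (⟨1, h1L⟩ : L D) h10).mp hl ⟨h, hhL⟩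
  have hc' : h = algebraMap K F c := by
    have := congrArg Subtype.val hc
    simp only [Submodule.coe_smul] at this
    rw [← this, Algebra.smul_def, mul_one]
  ext v
  have h1 := hh v
  rw [hc', ord_algebraMap_eq_zero, Finsupp.sub_apply] at h1
  omega

/-! ### The minimal effective representative -/

theorem degree_add_nsmul_single (H : Hyp K F) (P₀ : Place K F) (C : Divisor K F) (n : ℕ) :
    Divisor.degree (C + n • Finsupp.single P₀ 1) = Divisor.degree C + n := by
  rw [map_add, map_nsmul, Divisor.degree_single, H.deg_one P₀]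
  simp

/-- Every class of degree `0` contains `D - n P₀` with `D ≥ 0` of degree `n ≤ g` and
`l(D) = 1`. -/
theorem exists_effective (H : Hyp K F) (g : ℕ)
    (hg : ∀ D : Divisor K F, Divisor.degree D + 1 - g ≤ (Module.finrank K (L D) : ℤ))
    (P₀ : Place K F) (C : Divisor K F) (hC : Divisor.degree C = 0) :
    ∃ (n : ℕ) (D : Divisor K F), n ≤ g ∧ 0 ≤ D ∧ Divisor.degree D = n ∧
      Module.finrank K (L D) = 1 ∧
      D - (C + n • Finsupp.single P₀ 1) ∈ Divisor.principal (K := K) (F := F) := by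
  classical
  have hex : ∃ n : ℕ, L (C + n • Finsupp.single P₀ 1) ≠ ⊥ := by
    refine ⟨g, fun hbot => ?_⟩
    have h1 := hg (C + g • Finsupp.single P₀ 1)
    rw [degree_add_nsmul_single H, hC, hbot, finrank_bot] at h1
    simp at h1
  set n := Nat.find hex with hn
  have hne : L (C + n • Finsupp.single P₀ 1) ≠ ⊥ := Nat.find_spec hex
  have hng : n ≤ g := Nat.find_min' hex (by
    intro hbot
    have h1 := hg (C + g • Finsupp.single P₀ 1)
    rw [degree_add_nsmul_single H, hC, hbot, finrank_bot] at h1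
    simp at h1)
  haveI hfin : Module.Finite K (L (C + n • Finsupp.single P₀ 1)) := finite_L H _
  have hge : 1 ≤ Module.finrank K (L (C + n • Finsupp.single P₀ 1)) := by
    rw [Nat.one_le_iff_ne_zero, Ne, Submodule.finrank_eq_zero]
    exact hne
  have hle : Module.finrank K (L (C + n • Finsupp.single P₀ 1)) ≤ 1 := by
    rcases Nat.eq_zero_or_pos n with h0 | hpos
    · have hdeg : Divisor.degree (C + n • Finsupp.single P₀ 1) = 0 := by
        rw [degree_add_nsmul_single H, hC, h0]
        simp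
      have h1 := finrank_L_le H (D := C + n • Finsupp.single P₀ 1) (by rw [hdeg])
      rw [hdeg, zero_add] at h1
      exact_mod_cast h1
    · obtain ⟨m, hm⟩ : ∃ m, n = m + 1 := ⟨n - 1, by omega⟩
      have hmin : ¬ L (C + m • Finsupp.single P₀ 1) ≠ ⊥ := Nat.find_min hex (by omega)
      rw [not_not] at hmin
      have hstep := step_finrank P₀ (H.deg_one P₀) (C + m • Finsupp.single P₀ 1)
        (finite_L H _)
      have e : C + m • Finsupp.single P₀ 1 + Finsupp.single P₀ 1 =
          C + n • Finsupp.single P₀ 1 := by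
        rw [hm, succ_nsmul, add_assoc]
      rw [e, hmin, finrank_bot] at hstep
      exact hstep.2
  obtain ⟨f, hf, hf0⟩ := (Submodule.ne_bot_iff _).mp hne
  obtain ⟨E, hE, hE0⟩ := H.principal f hf0
  refine ⟨n, C + n • Finsupp.single P₀ 1 + E, hng, ?_, ?_, ?_, ?_⟩
  · rw [Finsupp.le_def]
    intro v
    rcases (mem_riemannRochSpace_iff.mp hf) v with h | h
    · exact absurd h hf0
    · rw [Finsupp.add_apply, hE v]
      simp only [Finsupp.coe_zero, Pi.zero_apply]
      omega
  · rw [map_add, degree_add_nsmul_single H, hC, hE0]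
    simp
  · rw [finrank_L_add_principal H hf0 hE]
    omega
  · rw [add_sub_cancel_left]
    exact ⟨f, hf0, hE⟩

/-! ### Semilinear automorphisms -/

theorem smul_nonneg {φ : SemilinearAut K F} {D : Divisor K F} (hD : 0 ≤ D) : 0 ≤ φ • D := by
  rw [Finsupp.le_def]
  intro w
  rw [SemilinearAut.divisor_smul_apply]
  exact Finsupp.le_def.mp hD _

/-- The effective representative of a `φ`-fixed class is `φ`-fixed. -/
theorem smul_eq_of_finrank_eq_one (φ : SemilinearAut K F) {P₀ : Place K F}
    (hP₀ : φ • P₀ = P₀) {C D : Divisor K F} {n : ℕ} (hD : 0 ≤ D)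
    (hl : Module.finrank K (L D) = 1)
    (hDC : D - (C + n • Finsupp.single P₀ 1) ∈ Divisor.principal (K := K) (F := F))
    (hC : φ • C - C ∈ Divisor.principal (K := K) (F := F)) : φ • D = D := by
  refine eq_of_finrank_eq_one hD (smul_nonneg hD) hl ?_
  have h1 := SemilinearAut.smul_mem_principal φ hDC
  have e : φ • D - D = φ • (D - (C + n • Finsupp.single P₀ 1)) -
      (D - (C + n • Finsupp.single P₀ 1)) + (φ • C - C) := by
    rw [smul_sub, smul_add, smul_comm φ n, SemilinearAut.smul_single, hP₀]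
    abel
  rw [e]
  exact AddSubgroup.add_mem _ (AddSubgroup.sub_mem _ h1 hDC) hC

/-! ### Finiteness of the fixed places -/

theorem finite_ord_ne_zero (H : Hyp K F) {f : F} (hf : f ≠ 0) :
    {P : Place K F | P.ord f ≠ 0}.Finite := by
  obtain ⟨D, hD, -⟩ := H.principal f hf
  refine (D.support.finite_toSet).subset fun P hP => ?_
  rw [Finset.mem_coe, Finsupp.mem_support_iff, hD P]
  exact hP

theorem baseAut_pow (φ : SemilinearAut K F) (m : ℕ) :
    SemilinearAut.baseAut (φ ^ m) = SemilinearAut.baseAut φ ^ m := by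
  induction m with
  | zero => simp
  | succ m ih => rw [pow_succ, pow_succ, SemilinearAut.baseAut_mul, ih]

theorem pow_smul_eq_self {φ : SemilinearAut K F} {x : F} (hφx : φ • x = x) (m : ℕ) :
    φ ^ m • x = x := by
  induction m with
  | zero => simp
  | succ m ih => rw [pow_succ, mul_smul, hφx, ih]

/-- A semilinear automorphism which fixes a transcendental element and has finitely many fixed
constants fixes only finitely many places. -/
theorem finite_fixed_places (H : Hyp K F) (ψ : SemilinearAut K F) {x : F}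
    (hx : Transcendental K x) (hψx : ψ • x = x)
    (hfix : {a : K | SemilinearAut.baseAut ψ a = a}.Finite) :
    {P : Place K F | ψ • P = P}.Finite := by
  have hxa : ∀ a : K, x - algebraMap K F a ≠ 0 := by
    intro a h0
    apply hx
    rw [sub_eq_zero.mp h0]
    exact isAlgebraic_algebraMap a
  have hx0 : x ≠ 0 := by
    have := hxa 0
    simpa using this
  have hT : ({P : Place K F | P.ord x ≠ 0} ∪
      ⋃ a ∈ {a : K | SemilinearAut.baseAut ψ a = a},
        {P : Place K F | P.ord (x - algebraMap K F a) ≠ 0}).Finite :=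
    (finite_ord_ne_zero H hx0).union
      (hfix.biUnion fun a _ => finite_ord_ne_zero H (hxa a))
  refine hT.subset fun P hP => ?_
  have hP' : ψ • P = P := hP
  by_cases hneg : P.ord x < 0
  · left
    show P.ord x ≠ 0
    omega
  · right
    have hle : P.adicValuation x ≤ 1 := (adicValuation_le_one_iff_ord hx0).mpr (by omega)
    obtain ⟨a, ha⟩ := exists_const_sub_lt_one P (H.deg_one P) hle
    have hord : 0 < P.ord (x - algebraMap K F a) := (adicValuation_lt_one_iff_ord (hxa a)).mp ha
    have hψ : ψ • (x - algebraMap K F a) =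
        x - algebraMap K F (SemilinearAut.baseAut ψ a) := by
      rw [smul_sub, hψx, SemilinearAut.smul_algebraMap]
    have hord2 : 0 < P.ord (x - algebraMap K F (SemilinearAut.baseAut ψ a)) := by
      have h1 := SemilinearAut.ord_smul ψ P (x - algebraMap K F a)
      rw [hP', hψ] at h1
      rw [h1]
      exact hord
    have ha2 : P.adicValuation (x - algebraMap K F (SemilinearAut.baseAut ψ a)) < 1 :=
      (adicValuation_lt_one_iff_ord (hxa _)).mpr hord2
    have hfixa : SemilinearAut.baseAut ψ a = a := by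
      by_contra hne
      have hne' : SemilinearAut.baseAut ψ a - a ≠ 0 := sub_ne_zero.mpr hne
      have h1 := adicValuation_algebraMap P hne'
      have e : algebraMap K F (SemilinearAut.baseAut ψ a - a) =
          (x - algebraMap K F a) - (x - algebraMap K F (SemilinearAut.baseAut ψ a)) := by
        rw [map_sub]
        ring
      rw [e] at h1
      have h2 := Valuation.map_sub P.adicValuation (x - algebraMap K F a)
        (x - algebraMap K F (SemilinearAut.baseAut ψ a))
      rw [h1] at h2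
      exact absurd h2 (not_le.mpr (max_lt ha ha2))
    refine Set.mem_biUnion (x := a) hfixa ?_
    show P.ord (x - algebraMap K F a) ≠ 0
    omega

/-! ### Finiteness of the fixed effective divisors -/

theorem degree_eq_sum (H : Hyp K F) (D : Divisor K F) :
    Divisor.degree D = ∑ v ∈ D.support, D v := by
  have h : Divisor.degree D = D.sum fun v n => n * (v.deg : ℤ) := by
    simp [Divisor.degree, Finsupp.liftAddHom_apply]
  rw [h, Finsupp.sum]
  refine Finset.sum_congr rfl fun v _ => ?_
  rw [H.deg_one v]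
  simp

theorem pow_smul_divisor_eq {φ : SemilinearAut K F} {D : Divisor K F} (hD : φ • D = D)
    (m : ℕ) : φ ^ m • D = D := by
  induction m with
  | zero => simp
  | succ m ih => rw [pow_succ, mul_smul, hD, ih]

/-- The `φ`-fixed effective divisors of a given degree form a finite set. -/
theorem finite_fixed_effective (H : Hyp K F) (φ : SemilinearAut K F) {x : F}
    (hx : Transcendental K x) (hφx : φ • x = x)
    (hfix : ∀ m : ℕ, 0 < m → {a : K | (SemilinearAut.baseAut φ ^ m) a = a}.Finite) (n : ℕ) :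
    {D : Divisor K F | 0 ≤ D ∧ Divisor.degree D = n ∧ φ • D = D}.Finite := by
  classical
  have hT : (⋃ m ∈ (Finset.Icc 1 n : Finset ℕ), {P : Place K F | φ ^ m • P = P}).Finite := by
    refine Set.Finite.biUnion (Finset.finite_toSet _) fun m hm => ?_
    have hm1 : 0 < m := by
      have := Finset.mem_Icc.mp hm
      omega
    refine finite_fixed_places H (φ ^ m) hx (pow_smul_eq_self hφx m) ?_
    rw [baseAut_pow]
    exact hfix m hm1
  refine (Finset.finite_toSet (hT.toFinset.finsupp fun _ => Finset.Icc (0 : ℤ) n)).subset ?_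
  rintro D ⟨hD0, hDn, hDφ⟩
  have hpos : ∀ v, 0 ≤ D v := fun v => by
    have := Finsupp.le_def.mp hD0 v
    simpa using this
  have hsum := degree_eq_sum H D
  rw [hDn] at hsum
  have hcard : (D.support.card : ℤ) ≤ n := by
    rw [hsum]
    have : (D.support.card : ℤ) = ∑ _v ∈ D.support, (1 : ℤ) := by simp
    rw [this]
    refine Finset.sum_le_sum fun v hv => ?_
    have h1 := hpos v
    have h2 := Finsupp.mem_support_iff.mp hv
    omega
  rw [Finset.mem_coe, Finset.mem_finsupp_iff]
  constructor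
  · intro P hP
    rw [Set.Finite.mem_toFinset]
    -- the orbit of `P` lies in the support
    have horb : ∀ i : ℕ, φ ^ i • P ∈ D.support := by
      intro i
      rw [Finsupp.mem_support_iff]
      have h1 := SemilinearAut.divisor_smul_apply_smul (φ ^ i) D P
      rw [pow_smul_divisor_eq hDφ i] at h1
      rw [h1]
      exact Finsupp.mem_support_iff.mp hP
    have hlt : D.support.card < (Finset.range (n + 1)).card := by
      rw [Finset.card_range]
      have : (D.support.card : ℤ) < n + 1 := by omega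
      exact_mod_cast this
    obtain ⟨i, hi, j, hj, hij, hPij⟩ := Finset.exists_ne_map_eq_of_card_lt_of_maps_to hlt
      (f := fun i => φ ^ i • P) (fun i _ => horb i)
    rw [Finset.mem_range] at hi hj
    -- WLOG `i < j`
    have key : ∀ i j : ℕ, i < j → j < n + 1 → φ ^ i • P = φ ^ j • P →
        P ∈ ⋃ m ∈ (Finset.Icc 1 n : Finset ℕ), {P : Place K F | φ ^ m • P = P} := by
      intro i j hlt hjn h
      have e : φ ^ j = φ ^ i * φ ^ (j - i) := by
        rw [← pow_add]
        congr 1
        omega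
      rw [e, mul_smul] at h
      have h' := MulAction.injective (φ ^ i) h
      refine Set.mem_biUnion (x := j - i) ?_ h'.symm
      rw [Finset.mem_coe, Finset.mem_Icc]
      omega
    rcases lt_or_gt_of_ne hij with h | h
    · exact key i j h hj hPij
    · exact key j i h hi hPij.symm
  · intro P _
    rw [Finset.mem_Icc]
    refine ⟨hpos P, ?_⟩
    by_cases hP : P ∈ D.support
    · rw [hsum]
      exact Finset.single_le_sum (f := fun v => D v) (fun v _ => hpos v) hP
    · rw [Finsupp.notMem_support_iff.mp hP]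
      positivity

/-! ### The finiteness theorem -/

/-- **FIN**: the classes of degree `0` which are fixed by `φ` form a finite set. -/
theorem fin_fixed (H : Hyp K F) (g : ℕ)
    (hg : ∀ D : Divisor K F, Divisor.degree D + 1 - g ≤ (Module.finrank K (L D) : ℤ))
    (φ : SemilinearAut K F) (P₀ : Place K F) (hP₀ : φ • P₀ = P₀) {x : F}
    (hx : Transcendental K x) (hφx : φ • x = x)
    (hfix : ∀ m : ℕ, 0 < m → {a : K | (SemilinearAut.baseAut φ ^ m) a = a}.Finite) :
    {c : Pic K F | ∃ C : Divisor K F, Divisor.degree C = 0 ∧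
      φ • C - C ∈ Divisor.principal (K := K) (F := F) ∧ c = QuotientAddGroup.mk C}.Finite := by
  have hfin : (⋃ n ∈ (Finset.range (g + 1) : Finset ℕ),
      (fun D : Divisor K F => (QuotientAddGroup.mk (D - n • Finsupp.single P₀ 1) : Pic K F)) ''
        {D : Divisor K F | 0 ≤ D ∧ Divisor.degree D = n ∧ φ • D = D}).Finite :=
    Set.Finite.biUnion (Finset.finite_toSet _) fun n _ =>
      (finite_fixed_effective H φ hx hφx hfix n).image _
  refine hfin.subset ?_
  rintro c ⟨C, hC0, hCφ, rfl⟩
  obtain ⟨n, D, hng, hD0, hDn, hl, hDC⟩ := exists_effective H g hg P₀ C hC0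
  have hDφ := smul_eq_of_finrank_eq_one φ hP₀ hD0 hl hDC hCφ
  refine Set.mem_biUnion (x := n) (by rw [Finset.mem_coe, Finset.mem_range]; omega) ?_
  refine ⟨D, ⟨hD0, hDn, hDφ⟩, ?_⟩
  show (QuotientAddGroup.mk (D - n • Finsupp.single P₀ 1) : Pic K F) = QuotientAddGroup.mk C
  rw [QuotientAddGroup.eq]
  have e : -(D - n • Finsupp.single P₀ 1) + C = -(D - (C + n • Finsupp.single P₀ 1)) := by
    abel
  rw [e]
  exact AddSubgroup.neg_mem _ hDC

end Fermat.Agent.S15.FG.H11

end
end
-- ==== END Fermat.Agent.S15.FG.H11_Fin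

-- ==== BEGIN Fermat.Agent.S15.H11_BRVal
section

set_option autoImplicit false

namespace Fermat.Agent.S15.H11

open WeierstrassCurve Fermat.Agent.Lib.Torsion.H11 Fermat.Agent.S12.H11
open Fermat.Agent.S05.H15

/-- A nonzero multiple `R` of a point `Q` of prime order has `Q` among its multiples. -/
lemma exists_nsmul_eq_of_prime_order {G : Type*} [AddGroup G] {Q R : G} {p : ℕ} (hp : p.Prime)
    (hord : addOrderOf Q = p) (hR : R ∈ AddSubgroup.zmultiples Q) (hR0 : R ≠ 0) :
    ∃ m : ℕ, m • R = Q := by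
  have hfin : IsOfFinAddOrder Q := by
    rw [← addOrderOf_pos_iff, hord]
    exact hp.pos
  obtain ⟨n, rfl⟩ : ∃ n : ℕ, n • Q = R := by
    have := (hfin.mem_multiples_iff_mem_zmultiples (y := R)).mpr hR
    exact (AddSubmonoid.mem_multiples_iff _ _).mp this
  have hnp : ¬ p ∣ n := by
    intro hdvd
    apply hR0
    rw [← hord] at hdvd
    exact addOrderOf_dvd_iff_nsmul_eq_zero.mp hdvd
  have hcop : Nat.Coprime n p := ((Nat.Prime.coprime_iff_not_dvd hp).mpr hnp).symm
  obtain ⟨m, -, hm⟩ := Nat.exists_mul_mod_eq_one_of_coprime hcop hp.one_lt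
  refine ⟨m, ?_⟩
  rw [← mul_nsmul, ← mod_addOrderOf_nsmul, hord, hm, one_nsmul]

/-- Every element of `zmultiples Q` is a natural multiple, for `Q` of finite order. -/
lemma exists_nsmul_of_mem_zmultiples {G : Type*} [AddGroup G] {Q R : G}
    (hfin : IsOfFinAddOrder Q) (hR : R ∈ AddSubgroup.zmultiples Q) : ∃ n : ℕ, n • Q = R := by
  have := (hfin.mem_multiples_iff_mem_zmultiples (y := R)).mpr hR
  exact (AddSubmonoid.mem_multiples_iff _ _).mp this

/-- **(BR-VAL)** from the local pieces. -/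
theorem stmt_BRval_of (hzc : ∀ ℓ : ℕ, ℓ.Prime → Stmt_BRzc ℓ)
    (he0 : ∀ ℓ : ℕ, ℓ.Prime → Stmt_BRe0 ℓ) : Fermat.Agent.S15.Stmt_BRval := by
  intro p hp hp2 W hΔ Q _ hord β hβ ℓ hℓ _ hd hc A hA
  obtain ⟨e₁, e₂, e₃, hN, hw⟩ := stmt_BRroots W hΔ ℓ hℓ hd hc A hA
  have hfin : IsOfFinAddOrder Q := by
    rw [← addOrderOf_pos_iff, hord]
    exact hp.pos
  have : Finite (AddSubgroup.zmultiples Q) := by
    have := hfin.finite_zmultiples
    exact Set.finite_coe_iff.mpr this
  let inst0 : Fintype (AddSubgroup.zmultiples Q) := Fintype.ofFinite _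
  have hcard : Fintype.card (AddSubgroup.zmultiples Q) = p := by
    rw [← Nat.card_eq_fintype_card, Nat.card_zmultiples, hord]
  have hodd : Odd (Fintype.card (AddSubgroup.zmultiples Q)) := by
    rw [hcard]
    exact hp.odd_of_ne_two hp2
  have hQ0 : Q ≠ 0 := by
    intro h0
    rw [h0, addOrderOf_zero] at hord
    exact hp.one_lt.ne hord
  have hβ' := hβ e₁ e₂ e₃ inst0 hN.tt
  have hj : (((Fermat.Agent.S15.jRat W : ℚ)) : QB) = jQB W := rfl
  have hΔ' : (EB W).Δ ≠ 0 := by
    rw [EB_Δ]
    exact_mod_cast hΔ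
  have h4 : A.valuation (4 : QB) ≤ 1 := by
    have := valuation_intCast_le_one A 4
    push_cast at this
    exact this
  have h4ne : A.valuation (4 : QB) ≠ 0 := by
    rw [Valuation.ne_zero_iff]
    norm_num
  have hx : A.valuation ((e₂ - e₁) / 4) < 1 := by
    rw [map_div₀, div_lt_one₀ (lt_of_le_of_ne zero_le h4ne.symm)]
    exact hN.d12_lt
  have hzcQ := hzc ℓ hℓ W hΔ hd hc A hA e₁ e₂ e₃ hN
  have he0Q := he0 ℓ hℓ W hΔ hd hc A hA e₁ e₂ e₃ hN
  rw [hj, hβ']
  constructor
  · intro hin
    have hQin : 1 ≤ A.valuation (xc (EB W) Q - e₁) := (hzcQ Q hQ0).mp hin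
    have hall : ∀ R ∈ AddSubgroup.zmultiples Q, R ≠ 0 →
        1 ≤ A.valuation (xc (EB W) R - e₁) := by
      intro R hR hR0
      obtain ⟨n, rfl⟩ := exists_nsmul_of_mem_zmultiples hfin hR
      rcases he0Q Q (Or.inr hQin) n with h | h
      · exact absurd h hR0
      · exact h
    have key := one_le_val_quot A.valuation (EBar W) (AddSubgroup.zmultiples Q) hN.tt hΔ' hodd h4
      hN.d12_lt hN.ne12 hN.d13 hN.d23 hall
    rw [hcard] at key
    exact le_of_one_le_mul hp.ne_zero hw hx key
  · intro hout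
    have hQout : A.valuation (xc (EB W) Q - e₁) < 1 := by
      rw [← not_le]
      intro h
      exact hout ((hzcQ Q hQ0).mpr h)
    have hall : ∀ R ∈ AddSubgroup.zmultiples Q, R ≠ 0 →
        A.valuation (xc (EB W) R - e₁) < 1 := by
      intro R hR hR0
      rw [← not_le]
      intro h
      obtain ⟨m, hm⟩ := exists_nsmul_eq_of_prime_order hp hord hR hR0
      have hm' : ∀ T : (EB W).Point, T = Q →
          (T = 0 ∨ 1 ≤ A.valuation (xc (EB W) T - e₁)) → False := by
        intro T hT hT'
        subst hT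
        rcases hT' with h' | h'
        · exact hQ0 h'
        · exact absurd h' (not_le.mpr hQout)
      exact hm' _ hm (he0Q R (Or.inr h) m)
    have key := val_quot_lt_one A.valuation (EBar W) (AddSubgroup.zmultiples Q) hN.tt hΔ' hodd
      (by rw [hcard]; exact hp.one_lt) h4 hN.d12_lt hN.ne12 hN.d13 hN.d23 hall
    rw [hcard] at key
    exact lt_pow_of_mul_lt_one hw key

end Fermat.Agent.S15.H11


end
-- ==== END Fermat.Agent.S15.H11_BRVal

-- ==== BEGIN Fermat.Agent.S15.H26_CuspEis
section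

/-!
# S15, package CUSP-eis (helper26): reduction of `Stmt_cuspEis p` to the generators

`stmt_cuspEis_of p hp hc hself : Stmt_cuspEis p`, where
* `hc : HeckeOperatorsCommuteBar p` (helper2: `Lib.HeckeComm.heckeOperatorsCommuteBar p`),
* `hself` : `U_p κ = κ` for the cuspidal class `κ = [P∞ - P0]` (the operator `T_p` of the prelude).

The good primes are `H26.heckeOperatorBar_ptClass` (`T_ℓ κ = (ℓ + 1) κ`, `ℓ ≠ p`).
-/

set_option autoImplicit false
set_option synthInstance.maxHeartbeats 400000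
set_option linter.style.haveILetI false
set_option linter.unusedSectionVars false
set_option linter.unusedVariables false

noncomputable section

open AlgebraicCurve ModularCurve

namespace Fermat.Agent.S15.H26

/-- `T_ℓ κ = ε(ℓ) κ` for all primes `ℓ`, given `U_p κ = κ`. -/
theorem heckeOperatorBar_ptClass_eis (p : ℕ) [NeZero p] (hp : p.Prime)
    (Pinf P0 : PlaceBar p) (h : IsCuspPair p Pinf P0)
    (hself : heckeOperatorBar p ⟨p, hp⟩ (ptClass Pinf P0 h.deg_inf h.deg_zero)
      = ptClass Pinf P0 h.deg_inf h.deg_zero) (ℓ : Nat.Primes) :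
    heckeOperatorBar p ℓ (ptClass Pinf P0 h.deg_inf h.deg_zero)
      = eisensteinSystem p ℓ • ptClass Pinf P0 h.deg_inf h.deg_zero := by
  by_cases hℓ : (ℓ : ℕ) = p
  · have e : ℓ = ⟨p, hp⟩ := Subtype.ext hℓ
    subst e
    have h1 : eisensteinSystem p (⟨p, hp⟩ : Nat.Primes) = 1 :=
      eisensteinSystem_of_dvd (N := p) (ℓ := ⟨p, hp⟩) (dvd_refl p)
    rw [h1, one_smul]
    exact hself
  · have hnd : ¬ (ℓ : ℕ) ∣ p := fun hd => hℓ ((Nat.prime_dvd_prime_iff_eq ℓ.2 hp).mp hd)
    rw [eisensteinSystem_of_not_dvd hnd, heckeOperatorBar_ptClass p hp ℓ hℓ Pinf P0 h, add_comm]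

/-- The action of the Hecke ring of the prelude on an eigenvector of all the `T_ℓ`. -/
theorem hsmul_eq_eisEval_smul (p : ℕ) [NeZero p] (hc : HeckeOperatorsCommuteBar p)
    (κ : JZero p) (hκ : ∀ ℓ : Nat.Primes, heckeOperatorBar p ℓ κ = eisensteinSystem p ℓ • κ)
    (t : HeckeAlg) : hsmul p t κ = eisEval p t • κ := by
  have h0 : hsmul p t κ = heckeEvalBar hc t κ := heckeModuleBar_smul_def hc t κ
  rw [h0]
  clear h0
  induction t using MvPolynomial.induction_on with
  | C a =>
    rw [heckeEvalBar_C, Module.End.intCast_apply]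
    congr 1
    show a = MvPolynomial.aeval (eisensteinSystem p) (MvPolynomial.C a)
    rw [MvPolynomial.aeval_C]
    rfl
  | add s t hs ht =>
    rw [map_add, LinearMap.add_apply, hs, ht, map_add]
    exact (add_zsmul _ _ _).symm
  | mul_X t ℓ ht =>
    have hX : heckeEvalBar hc (MvPolynomial.X ℓ) = heckeOperatorBar p ℓ :=
      heckeEvalBar_heckeGen hc ℓ
    have hε : eisEval p (t * MvPolynomial.X ℓ) = eisEval p t * eisensteinSystem p ℓ := by
      rw [map_mul]
      congr 1
      show MvPolynomial.aeval (eisensteinSystem p) (MvPolynomial.X ℓ) = _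
      rw [MvPolynomial.aeval_X]
    rw [map_mul, Module.End.mul_apply, hX, hκ ℓ, map_zsmul, ht, hε, smul_smul, mul_comm]

/-- **CUSP-eis** from the commutation of the Hecke operators and `U_p κ = κ`. -/
theorem stmt_cuspEis_of (p : ℕ) [NeZero p] (hp : p.Prime) (hc : HeckeOperatorsCommuteBar p)
    (hself : ∀ (Pinf P0 : PlaceBar p) (h : IsCuspPair p Pinf P0),
      heckeOperatorBar p ⟨p, hp⟩ (ptClass Pinf P0 h.deg_inf h.deg_zero)
        = ptClass Pinf P0 h.deg_inf h.deg_zero) :
    Stmt_cuspEis p := by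
  intro Pinf P0 h t
  exact hsmul_eq_eisEval_smul p hc _
    (heckeOperatorBar_ptClass_eis p hp Pinf P0 h (hself Pinf P0 h)) t

end Fermat.Agent.S15.H26

end
end
-- ==== END Fermat.Agent.S15.H26_CuspEis
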