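-- GENERATED (merged mirror, NOTES/tools/trim/merge3_helper67.py): 9 modules of the originals, bodies verbatim.
import Fermat.Agent.Zm.S15_L01_002
import Fermat.Agent.Zm.S15_L01_003
import Fermat.Agent.Zm.S35_L07_002
import Fermat.Agent.Zm.S35_L14_002
import Fermat.Agent.Zm.S35_L01_003
import Fermat.Agent.Zm.S15_L01_000
import Fermat.Agent.Zm.S44_L01_003
import Fermat.Agent.Zm.S44_L01_002
import Fermat.Agent.Zm.S44_L03_002
import Fermat.Agent.Zm.S15_L01_004

-- ==== BEGIN Fermat.Agent.S15.Desc.H69_Eigen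
section

/-!
# S15 / DESC: eigen-functionals (package CONST, algebra; helper69)

`V` a finite `𝔽_r`-vector space with a representation `ρ` of a group `G`, `χ : G →* 𝔽_rˣ`,
`W ≤ V` a nonzero `G`-stable subspace on which every `σ` satisfies `((σ - 1)(σ - χ σ))^N = 0`.
Then there is a linear form `π` on `V`, nonzero on `W`, with `π (σ w) = π w` for all `σ`, `w ∈ W`,
or `π (σ w) = χ σ · π w` for all `σ`, `w ∈ W`  (`exists_eigen_functional`).
-/

set_option autoImplicit false

namespace Fermat.Agent.S15.Desc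

section

variable {r : ℕ} [hr : Fact r.Prime] {G V : Type*} [Group G] [AddCommGroup V]
  [Module (ZMod r) V]

/-- The operator `(σ - 1)(σ - χ σ)`. -/
noncomputable def esOp (ρ : Representation (ZMod r) G V) (χ : G →* (ZMod r)ˣ) (σ : G) :
    Module.End (ZMod r) V :=
  (ρ σ - 1) * (ρ σ - ((χ σ : (ZMod r)ˣ) : ZMod r) • 1)

/-- The restriction of a representation to a stable subspace. -/
noncomputable def subRep (ρ : Representation (ZMod r) G V) (W : Submodule (ZMod r) V)
    (hstab : ∀ σ : G, ∀ w ∈ W, ρ σ w ∈ W) : Representation (ZMod r) G W where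
  toFun σ := (ρ σ).restrict (hstab σ)
  map_one' := by
    ext w
    simp
  map_mul' σ τ := by
    ext w
    simp

theorem subRep_apply (ρ : Representation (ZMod r) G V) (W : Submodule (ZMod r) V)
    (hstab : ∀ σ : G, ∀ w ∈ W, ρ σ w ∈ W) (σ : G) (w : W) :
    ((subRep ρ W hstab σ w : W) : V) = ρ σ (w : V) := rfl

theorem esOp_subRep_pow (ρ : Representation (ZMod r) G V) (χ : G →* (ZMod r)ˣ)
    (W : Submodule (ZMod r) V) (hstab : ∀ σ : G, ∀ w ∈ W, ρ σ w ∈ W) (σ : G) (N : ℕ) (w : W) :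
    (((esOp (subRep ρ W hstab) χ σ ^ N) w : W) : V) = (esOp ρ χ σ ^ N) (w : V) := by
  induction N generalizing w with
  | zero => rfl
  | succ N ih =>
    rw [pow_succ, Module.End.mul_apply, ih, pow_succ, Module.End.mul_apply]
    congr 1

theorem exists_eigen_functional [Finite V] (ρ : Representation (ZMod r) G V)
    (χ : G →* (ZMod r)ˣ) (W : Submodule (ZMod r) V) (hW : W ≠ ⊥)
    (hstab : ∀ σ : G, ∀ w ∈ W, ρ σ w ∈ W)
    (hES : ∀ σ : G, ∃ N : ℕ, ∀ w ∈ W, (esOp ρ χ σ ^ N) w = 0) :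
    ∃ π : V →ₗ[ZMod r] ZMod r, (∃ w ∈ W, π w ≠ 0) ∧
      ((∀ σ : G, ∀ w ∈ W, π (ρ σ w) = π w) ∨
       (∀ σ : G, ∀ w ∈ W, π (ρ σ w) = ((χ σ : (ZMod r)ˣ) : ZMod r) * π w)) := by
  classical
  have : NeZero r := ⟨hr.out.ne_zero⟩
  set ρW := subRep ρ W hstab with hρW
  -- the dual is nontrivial and finite
  obtain ⟨w₀, hw₀W, hw₀⟩ := (Submodule.ne_bot_iff W).mp hW
  have hex : ∃ f : Module.Dual (ZMod r) W, f ⟨w₀, hw₀W⟩ ≠ 0 := by
    by_contra hcon
    push Not at hcon
    have := (Module.forall_dual_apply_eq_zero_iff (ZMod r) (⟨w₀, hw₀W⟩ : W)).mp hcon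
    exact hw₀ (congrArg Subtype.val this)
  obtain ⟨f₀, hf₀⟩ := hex
  have : Nontrivial (Module.Dual (ZMod r) W) :=
    nontrivial_of_ne f₀ 0 (fun h => hf₀ (by rw [h]; rfl))
  have : Finite (Module.Dual (ZMod r) W) :=
    Finite.of_injective (fun f : Module.Dual (ZMod r) W => (f : W → ZMod r))
      DFunLike.coe_injective
  -- the hypothesis for the dual representation
  have hESD : ∀ σ : G, ∃ N : ℕ,
      ((ρW.dual σ - 1) * (ρW.dual σ - (((χ⁻¹ σ : (ZMod r)ˣ)) : ZMod r) • 1)) ^ N = 0 := by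
    intro σ
    obtain ⟨N, hN⟩ := hES σ⁻¹
    refine ⟨N, ?_⟩
    have hc : (χ⁻¹ σ : (ZMod r)ˣ) = χ σ⁻¹ := by
      rw [MonoidHom.inv_apply, map_inv]
    rw [hc]
    set T : Module.End (ZMod r) W := ρW σ⁻¹ with hT
    set c' : ZMod r := ((χ σ⁻¹ : (ZMod r)ˣ) : ZMod r) with hc'
    have hdual : ρW.dual σ = Module.Dual.transpose (R := ZMod r) T := Representation.dual_apply ρW σ
    have hstep : ∀ f : Module.Dual (ZMod r) W,
        ((ρW.dual σ - 1) * (ρW.dual σ - c' • 1)) f = f.comp (esOp ρW χ σ⁻¹) := by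
      intro f
      rw [hdual]
      ext w
      simp only [Module.End.mul_apply, LinearMap.sub_apply, LinearMap.smul_apply,
        Module.End.one_apply, Module.Dual.transpose_apply, LinearMap.comp_apply, esOp,
        map_sub, map_smul, smul_eq_mul]
      rfl
    have hpow : ∀ (n : ℕ) (f : Module.Dual (ZMod r) W),
        (((ρW.dual σ - 1) * (ρW.dual σ - c' • 1)) ^ n) f = f.comp (esOp ρW χ σ⁻¹ ^ n) := by
      intro n
      induction n with
      | zero => intro f; rfl
      | succ n ih =>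
        intro f
        rw [pow_succ, Module.End.mul_apply, hstep, ih, pow_succ']
        rfl
    have hzero : esOp ρW χ σ⁻¹ ^ N = 0 := by
      ext w
      rw [esOp_subRep_pow ρ χ W hstab σ⁻¹ N w, hN _ w.2]
      rfl
    ext f w
    rw [hpow N f, hzero]
    simp
  obtain ⟨f, hf0, hf⟩ := exists_eigenvector ρW.dual χ⁻¹ hESD
  obtain ⟨π, hπ⟩ := LinearMap.exists_extend f
  have hπW : ∀ w : W, π (w : V) = f w := fun w => LinearMap.congr_fun hπ w
  refine ⟨π, ?_, ?_⟩
  · by_contra hcon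
    push Not at hcon
    apply hf0
    ext w
    rw [← hπW w, hcon _ w.2]
    rfl
  · have hdualapp : ∀ (σ : G) (w : W), (ρW.dual σ⁻¹ f) w = f (ρW σ w) := by
      intro σ w
      rw [Representation.dual_apply, Module.Dual.transpose_apply, LinearMap.comp_apply, inv_inv]
    rcases hf with hf | hf
    · left
      intro σ w hw
      have h1 := hdualapp σ ⟨w, hw⟩
      rw [hf σ⁻¹] at h1
      have h2 : π (ρ σ w) = f (ρW σ ⟨w, hw⟩) := hπW (ρW σ ⟨w, hw⟩)
      rw [h2, ← h1]
      exact (hπW ⟨w, hw⟩).symm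
    · right
      intro σ w hw
      have h1 := hdualapp σ ⟨w, hw⟩
      rw [hf σ⁻¹, LinearMap.smul_apply, smul_eq_mul] at h1
      have h2 : π (ρ σ w) = f (ρW σ ⟨w, hw⟩) := hπW (ρW σ ⟨w, hw⟩)
      rw [h2, ← h1]
      have hc : (χ⁻¹ σ⁻¹ : (ZMod r)ˣ) = χ σ := by
        rw [MonoidHom.inv_apply, map_inv, inv_inv]
      rw [hc, hπW ⟨w, hw⟩]

end

end Fermat.Agent.S15.Desc

end
-- ==== END Fermat.Agent.S15.Desc.H69_Eigen

-- ==== BEGIN Fermat.Agent.S15.Desc.H69_NumP
section

/-!
# S15 / DESC: the local condition at the bad prime and its numerics (NUM-p; helper69)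

`J` an abelian group with commuting actions of `G` and of a commutative ring `R`, `r` a prime,
`e ∈ R` idempotent on `J[r]`, `W = e J[r]`, `I ≤ G` (the inertia group at the bad prime `p`).

Hypotheses:
* (TU) `(σ - 1)(τ - 1) x = 0` for `σ, τ ∈ I` and `x` of `r`-power order (`BAD.Stmt_TorsUnip`);
* (CYC) on `J[r^m]` the group `I` acts through a cyclic group (tame inertia);
* (CG) there is a `G`-fixed point `t₀` of `r`-power order such that every `G`-fixed point is
  `a t₀ + r y` with `y` fixed by `I` (the component group is cyclic, generated by the cusp).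

Conclusion (`exists_vt`): there is a subspace `Vt ≤ J[r]` containing the values on `I` of all
Kummer cocycles `σ ↦ e (σ y - y)` (`r y` rational), with `2 dim (W ∩ Vt) ≤ dim W + 1`.

No toric part, no Weil pairing: `Vt = N W + 𝔽_r v₀`, `N = σ₀ - 1`, `N² = 0`, `v₀ = e N y₀ ∈ ker N`.
-/

set_option autoImplicit false

namespace Fermat.Agent.S15.Desc

open Module

section NumP

variable {G J R : Type*} [Group G] [AddCommGroup J] [DistribMulAction G J] [CommRing R]
  [Module R J]

/-- `σ^k u - u = k (σ u - u)` if `(σ - 1)² u = 0`. -/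
theorem pow_smul_sub_of_unip (σ : G) (u : J) (h : σ • σ • u - σ • u - σ • u + u = 0) (k : ℕ) :
    σ ^ k • u - u = k • (σ • u - u) := by
  have h2 : σ • (σ • u - u) = σ • u - u := by
    rw [smul_sub]
    have : σ • σ • u - σ • u - (σ • u - u) = 0 := by
      rw [← h]; abel
    exact sub_eq_zero.mp this
  induction k with
  | zero => rw [pow_zero, one_smul, sub_self, zero_smul]
  | succ k ih =>
    have h3 : σ ^ (k + 1) • u - u = σ ^ k • (σ • u - u) + (σ ^ k • u - u) := by
      rw [pow_succ, mul_smul, smul_sub]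
      abel
    have h4 : ∀ j : ℕ, σ ^ j • (σ • u - u) = σ • u - u := by
      intro j
      induction j with
      | zero => rw [pow_zero, one_smul]
      | succ j ihj => rw [pow_succ, mul_smul, h2, ihj]
    rw [h3, h4 k, ih, succ_nsmul]
    abel

variable (r : ℕ) [hr : Fact r.Prime] (e : R)
variable (hGH : ∀ (σ : G) (t : R) (z : J), σ • (t • z) = t • (σ • z))

include hGH in
/-- **NUM-p.** -/
theorem exists_vt (I : Subgroup G)
    (hfin : Finite (TorsR J r))
    (hidem : ∀ v : J, r • v = 0 → e • (e • v) = e • v)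
    (hdiv : ∀ x : J, (∀ σ : G, σ • x = x) → ∃ y : J, r • y = x)
    (htu : ∀ σ ∈ I, ∀ τ ∈ I, ∀ x : J, (∃ n : ℕ, r ^ n • x = 0) →
      σ • τ • x - σ • x - τ • x + x = 0)
    (hcyc : ∀ m : ℕ, ∃ σ₀ ∈ I, ∀ σ ∈ I, ∃ k : ℕ, ∀ u : J, r ^ m • u = 0 → σ • u = σ₀ ^ k • u)
    (hcg : ∃ t₀ : J, (∀ σ : G, σ • t₀ = t₀) ∧ (∃ n : ℕ, r ^ n • t₀ = 0) ∧
      ∀ x : J, (∀ σ : G, σ • x = x) → ∃ (a : ℤ) (y : J), (∀ σ ∈ I, σ • y = y) ∧
        x = a • t₀ + r • y) :
    haveI : NeZero r := ⟨hr.out.ne_zero⟩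
    ∃ Vt : Submodule (ZMod r) (TorsR J r),
      (∀ σ ∈ I, ∀ y ∈ kumDom G J r, kumCoc r e y σ ∈ Vt) ∧
      2 * finrank (ZMod r) ↥(eisW (J := J) r e ⊓ Vt) ≤ finrank (ZMod r) ↥(eisW (J := J) r e) + 1 := by
  classical
  haveI : NeZero r := ⟨hr.out.ne_zero⟩
  haveI : Module.Finite (ZMod r) (TorsR J r) := Module.Finite.of_finite
  obtain ⟨t₀, ht₀fix, ⟨n, hn⟩, hcg⟩ := hcg
  obtain ⟨y₀, hy₀⟩ := hdiv t₀ ht₀fix
  have hy₀tors : r ^ (n + 1) • y₀ = 0 := by
    rw [pow_succ, mul_smul, hy₀, hn]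
  have hy₀dom : y₀ ∈ kumDom G J r := fun σ => by rw [hy₀, ht₀fix σ]
  obtain ⟨σ₀, hσ₀, hcyc⟩ := hcyc (n + 1)
  -- torsion of order `r` is torsion of order `r ^ (n + 1)`
  have htors1 : ∀ v : J, r • v = 0 → r ^ (n + 1) • v = 0 := by
    intro v hv
    rw [pow_succ, mul_smul, hv, smul_zero]
  -- the operator `N = σ₀ - 1` on `J[r]`
  let N : TorsR J r →ₗ[ZMod r] TorsR J r :=
    { toFun := fun v => σ₀ • v - v
      map_add' := fun a b => by rw [smul_add]; abel
      map_smul' := fun c v => by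
        rw [RingHom.id_apply, smul_sub, smul_comm] }
  have hNapp : ∀ v : TorsR J r, N v = σ₀ • v - v := fun v => rfl
  have hunip : ∀ x : J, (∃ n : ℕ, r ^ n • x = 0) → σ₀ • σ₀ • x - σ₀ • x - σ₀ • x + x = 0 :=
    fun x hx => htu σ₀ hσ₀ σ₀ hσ₀ x hx
  have hfix_of_unip : ∀ x : J, (∃ n : ℕ, r ^ n • x = 0) → σ₀ • (σ₀ • x - x) = σ₀ • x - x := by
    intro x hx
    rw [smul_sub]
    have : σ₀ • σ₀ • x - σ₀ • x - (σ₀ • x - x) = 0 := by
      rw [← hunip x hx]; abel
    exact sub_eq_zero.mp this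
  have hNN : ∀ v : TorsR J r, N (N v) = 0 := by
    intro v
    apply Subtype.ext
    show σ₀ • (σ₀ • (v : J) - (v : J)) - (σ₀ • (v : J) - (v : J)) = 0
    rw [hfix_of_unip (v : J) ⟨1, by rw [pow_one]; exact mem_torsR.mp v.2⟩, sub_self]
  set W : Submodule (ZMod r) (TorsR J r) := eisW r e with hW
  have hNW : ∀ w ∈ W, N w ∈ W := by
    intro w hw
    show e • ((N w : TorsR J r) : J) = ((N w : TorsR J r) : J)
    have hw' : e • (w : J) = w := hw
    show e • (σ₀ • (w : J) - (w : J)) = σ₀ • (w : J) - (w : J)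
    rw [smul_sub, ← hGH, hw']
  -- the vector `v₀`
  set v₀ : TorsR J r := kumCoc r e y₀ σ₀ with hv₀
  have hv₀coe : (v₀ : J) = e • (σ₀ • y₀ - y₀) := coe_kumCoc e hy₀dom σ₀
  have hkum_tors : r • (σ₀ • y₀ - y₀) = 0 := by
    rw [smul_sub, ← smul_comm, hy₀, ht₀fix, sub_self]
  have hv₀W : v₀ ∈ W := by
    show e • (v₀ : J) = v₀
    rw [hv₀coe]
    exact hidem _ hkum_tors
  have hNv₀ : N v₀ = 0 := by
    apply Subtype.ext
    show σ₀ • (v₀ : J) - (v₀ : J) = 0
    rw [hv₀coe, hGH, hfix_of_unip y₀ ⟨n + 1, hy₀tors⟩, sub_self]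
  -- the subspace
  set Vt : Submodule (ZMod r) (TorsR J r) := W.map N ⊔ Submodule.span (ZMod r) {v₀} with hVt
  have hVtW : Vt ≤ W := by
    refine sup_le ?_ ?_
    · rintro _ ⟨w, hw, rfl⟩
      exact hNW w hw
    · rw [Submodule.span_le]
      rintro _ rfl
      exact hv₀W
  have hVtker : Vt ≤ LinearMap.ker N := by
    refine sup_le ?_ ?_
    · rintro _ ⟨w, -, rfl⟩
      exact LinearMap.mem_ker.mpr (hNN w)
    · rw [Submodule.span_le]
      rintro _ rfl
      exact LinearMap.mem_ker.mpr hNv₀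
  refine ⟨Vt, ?_, ?_⟩
  · -- the Kummer cocycles
    intro σ hσ y hy
    have hxfix : ∀ τ : G, τ • (r • y) = r • y := hy
    obtain ⟨a, y', hy'fix, hxy⟩ := hcg (r • y) hxfix
    obtain ⟨k, hk⟩ := hcyc σ hσ
    -- `v = y - a y₀ - y'` is killed by `r`
    obtain ⟨v, hv⟩ : ∃ v : J, v = y - a • y₀ - y' := ⟨_, rfl⟩
    have hvtors : r • v = 0 := by
      rw [hv, smul_sub, smul_sub, hxy, smul_comm r a y₀, hy₀]
      abel
    have hyv : y = a • y₀ + y' + v := by rw [hv]; abel
    have h1 : σ • y - y = a • (σ • y₀ - y₀) + (σ • v - v) := by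
      rw [hyv, smul_add, smul_add, hy'fix σ hσ, smul_comm σ a y₀, smul_sub]
      abel
    have h2 : σ • y₀ - y₀ = k • (σ₀ • y₀ - y₀) := by
      rw [hk y₀ hy₀tors]
      exact pow_smul_sub_of_unip σ₀ y₀ (hunip y₀ ⟨n + 1, hy₀tors⟩) k
    have h3 : σ • v - v = k • (σ₀ • v - v) := by
      rw [hk v (htors1 v hvtors)]
      exact pow_smul_sub_of_unip σ₀ v (hunip v ⟨1, by rw [pow_one]; exact hvtors⟩) k
    -- the element `e v` of `W`
    have hevt : r • (e • v) = 0 := by rw [← smul_comm, hvtors, smul_zero]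
    set w : TorsR J r := ⟨e • v, hevt⟩ with hw
    have hwW : w ∈ W := by
      show e • (e • v) = e • v
      exact hidem v hvtors
    have hkey : kumCoc r e y σ = (a * k) • v₀ + k • N w := by
      apply Subtype.ext
      rw [coe_kumCoc e hy σ, AddSubgroup.coe_add, AddSubgroup.coe_zsmul, AddSubgroup.coe_nsmul,
        hv₀coe]
      show e • (σ • y - y) = (a * k) • e • (σ₀ • y₀ - y₀) + k • (σ₀ • (e • v) - e • v)
      rw [h1, h2, h3, smul_add]
      congr 1
      · rw [smul_comm e a, smul_comm e k, mul_smul, natCast_zsmul]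
      · rw [smul_comm e k, smul_sub, ← hGH]
    rw [hkey]
    refine Vt.add_mem ?_ ?_
    · exact zsmul_mem (Submodule.mem_sup_right (Submodule.mem_span_singleton_self v₀)) _
    · exact Vt.nsmul_mem (Submodule.mem_sup_left (Submodule.mem_map_of_mem hwW)) _
  · -- the dimension count
    have hinf : W ⊓ Vt = Vt := inf_eq_right.mpr hVtW
    rw [hinf]
    have h1 : finrank (ZMod r) ↥Vt ≤ finrank (ZMod r) ↥(W.map N) + 1 := by
      refine (Submodule.finrank_add_le_finrank_add_finrank _ _).trans ?_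
      have h0 : finrank (ZMod r) ↥(Submodule.span (ZMod r) ({v₀} : Set (TorsR J r))) ≤ 1 := by
        have := finrank_span_finset_le_card (R := ZMod r) ({v₀} : Finset (TorsR J r))
        rw [Finset.card_singleton, Finset.coe_singleton] at this
        exact this
      omega
    have h2 : finrank (ZMod r) ↥Vt ≤ finrank (ZMod r) ↥(W ⊓ LinearMap.ker N) :=
      Submodule.finrank_mono (le_inf hVtW hVtker)
    have h3 := finrank_eq_map_add_inf_ker W N
    omega

end NumP

end Fermat.Agent.S15.Desc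

end
-- ==== END Fermat.Agent.S15.Desc.H69_NumP

-- ==== BEGIN Fermat.Agent.S15.Desc.H69_TorsEnd
section

/-!
# S15 / DESC: the ring `R` acting on `J[r]` (helper69)

`torsEnd J r : R →+* End_{𝔽_r}(J[r])`, and the finiteness of the subgroup `torsH`-type subgroups.
-/

set_option autoImplicit false

namespace Fermat.Agent.S15.Desc

open Module

section TorsEnd

variable (J : Type*) [AddCommGroup J] (r : ℕ) [NeZero r] {R : Type*} [CommRing R] [Module R J]

/-- The action of `t ∈ R` on `J[r]`. -/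
def torsEndFun (t : R) : TorsR J r →ₗ[ZMod r] TorsR J r where
  toFun v := ⟨t • (v : J), by rw [mem_torsR, smul_comm, mem_torsR.mp v.2, smul_zero]⟩
  map_add' a b := Subtype.ext (by
    show t • ((a + b : TorsR J r) : J) = t • (a : J) + t • (b : J)
    rw [AddSubgroup.coe_add, smul_add])
  map_smul' c v := Subtype.ext (by
    show t • ((c • v : TorsR J r) : J) = ((c • (⟨t • (v : J), _⟩ : TorsR J r) : TorsR J r) : J)
    rw [coe_zmod_smul, coe_zmod_smul, smul_comm])

theorem coe_torsEndFun (t : R) (v : TorsR J r) : ((torsEndFun J r t v : TorsR J r) : J) = t • (v : J) :=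
  rfl

/-- The ring homomorphism `R → End_{𝔽_r}(J[r])`. -/
def torsEnd : R →+* Module.End (ZMod r) (TorsR J r) where
  toFun := torsEndFun J r
  map_one' := by
    ext v
    rw [coe_torsEndFun, one_smul]
    rfl
  map_mul' a b := by
    ext v
    rw [coe_torsEndFun, mul_smul]
    rfl
  map_zero' := by
    ext v
    rw [coe_torsEndFun, zero_smul]
    rfl
  map_add' a b := by
    ext v
    rw [coe_torsEndFun, add_smul]
    rfl

theorem coe_torsEnd (t : R) (v : TorsR J r) : ((torsEnd J r t v : TorsR J r) : J) = t • (v : J) :=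
  rfl

end TorsEnd

end Fermat.Agent.S15.Desc

end
-- ==== END Fermat.Agent.S15.Desc.H69_TorsEnd

-- ==== BEGIN Fermat.Agent.S15.Desc.H99_NumTwo
section

/-!
# S15 / DESC / NUM-∞ at `r = 2`: the abstract statement (helper99)

`J` an abelian group with commuting actions of a group `G` and of a commutative ring `R`,
`2`-divisible; `c ∈ G` an involution, `e ∈ R`.  Coordinates `θ₂ : J[2] ≃ 𝔽₂^n`,
`θ₄ : J[4] ≃ (ℤ/4)^n` (compatible), in which `e` acts through an integer matrix `M` and `c` through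
`-I`, `I` an integer involution commuting with `M` with `tr (M I) = 0`, and `M` idempotent modulo
`2^m`, `2 n < 2^m`.  Then `Vinf := θ₂⁻¹ (image of ker (I - 1))` contains the values at `c` of the
Kummer cocycles, and `2 dim (W ∩ Vinf) ≤ dim W` for `W = e J[2]`.

(`Vinf = 2 · ker (c + 1 | J[4])`: for `y = 2 z` with `2 y` rational, `u = e (c z - z) ∈ J[4]`
satisfies `c u = -u` and `2 u = e (c y - y)`.)
-/

set_option autoImplicit false
set_option linter.unusedSectionVars false

namespace Fermat.Agent.S15.Desc.H99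

open Module Fermat.Agent.S15.Desc

section Lift

variable {n : ℕ}

/-- A vector of `(ℤ/4)^n` fixed by an integer involution `I` is congruent modulo `2` to an
integer vector fixed by `I`. -/
theorem exists_lift_fixed (I : Matrix (Fin n) (Fin n) ℤ) (hI : I * I = 1)
    (x : Fin n → ZMod 4) (hx : (I.map (Int.cast : ℤ → ZMod 4)).mulVec x = x) :
    ∃ h : Fin n → ℤ, I.mulVec h = h ∧
      ∀ i, (h i : ZMod 2) = ZMod.castHom (show 2 ∣ 4 by norm_num) (ZMod 2) (x i) := by
  choose h₀ hh₀ using fun i => ZMod.intCast_surjective (x i)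
  have hx0 : x = fun i => ((h₀ i : ℤ) : ZMod 4) := funext fun i => (hh₀ i).symm
  -- `I h₀ ≡ h₀` modulo `4`
  have h1 : ∀ i, (4 : ℤ) ∣ I.mulVec h₀ i - h₀ i := by
    intro i
    have e1 : (((I.mulVec h₀ i : ℤ)) : ZMod 4) = x i := by
      have := RingHom.map_mulVec (Int.castRingHom (ZMod 4)) I h₀ i
      have e2 : (I.map (Int.castRingHom (ZMod 4))).mulVec (Int.castRingHom (ZMod 4) ∘ h₀) =
          (I.map (Int.cast : ℤ → ZMod 4)).mulVec x := by
        rw [hx0]; rfl
      rw [e2, hx] at this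
      exact this
    have e3 : ((I.mulVec h₀ i - h₀ i : ℤ) : ZMod 4) = 0 := by
      rw [Int.cast_sub, e1, hh₀ i, sub_self]
    exact_mod_cast (ZMod.intCast_zmod_eq_zero_iff_dvd _ 4).mp e3
  choose g hg using h1
  have hIh : I.mulVec h₀ = h₀ + (4 : ℤ) • g := by
    funext i
    have := hg i
    simp only [Pi.add_apply, Pi.smul_apply, smul_eq_mul]
    linarith
  -- `I g = - g`
  have hIg : I.mulVec g = -g := by
    have e1 : I.mulVec (I.mulVec h₀) = h₀ := by
      rw [Matrix.mulVec_mulVec, hI, Matrix.one_mulVec]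
    rw [hIh, Matrix.mulVec_add, Matrix.mulVec_smul, hIh] at e1
    funext i
    have := congrFun e1 i
    simp only [Pi.add_apply, Pi.smul_apply, smul_eq_mul, Pi.neg_apply] at this ⊢
    linarith
  refine ⟨h₀ + (2 : ℤ) • g, ?_, fun i => ?_⟩
  · rw [Matrix.mulVec_add, Matrix.mulVec_smul, hIh, hIg]
    funext i
    simp only [Pi.add_apply, Pi.smul_apply, smul_eq_mul, Pi.neg_apply]
    ring
  · simp only [Pi.add_apply, Pi.smul_apply, smul_eq_mul, Int.cast_add, Int.cast_mul,
      Int.cast_ofNat]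
    have h2 : (2 : ZMod 2) = 0 := by decide
    rw [h2, zero_mul, add_zero, ← hh₀ i, map_intCast]

end Lift

section Abstract

variable {J : Type*} [AddCommGroup J] {G : Type*} [Group G] [DistribMulAction G J]
  {R : Type*} [CommRing R] [Module R J]

/-- An additive equivalence of `ZMod 2`-modules is linear. -/
noncomputable def linOfAdd {n : ℕ} (θ₂ : TorsR J 2 ≃+ (Fin n → ZMod 2)) :
    TorsR J 2 ≃ₗ[ZMod 2] (Fin n → ZMod 2) :=
  { θ₂ with map_smul' := fun c x => ZMod.map_smul θ₂.toAddMonoidHom c x }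

@[simp] theorem linOfAdd_apply {n : ℕ} (θ₂ : TorsR J 2 ≃+ (Fin n → ZMod 2)) (v : TorsR J 2) :
    linOfAdd θ₂ v = θ₂ v := rfl

theorem finrank_comap_linOfAdd {n : ℕ} (θ₂ : TorsR J 2 ≃+ (Fin n → ZMod 2))
    (S : Submodule (ZMod 2) (Fin n → ZMod 2)) :
    finrank (ZMod 2) ↥(S.comap (linOfAdd θ₂).toLinearMap) = finrank (ZMod 2) ↥S := by
  have h1 : S.comap (linOfAdd θ₂).toLinearMap = S.map (linOfAdd θ₂).symm.toLinearMap :=
    (Submodule.map_equiv_eq_comap_symm (linOfAdd θ₂).symm S).symm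
  rw [h1]
  exact LinearEquiv.finrank_map_eq (linOfAdd θ₂).symm S

/-- **NUM-∞ at `2`, abstract form.** -/
theorem numInfTwo_abstract
    (hdiv : ∀ y : J, ∃ z : J, 2 • z = y)
    (c : G) (hcc : ∀ z : J, c • c • z = z)
    (e : R) (hce : ∀ z : J, c • (e • z) = e • (c • z))
    {n : ℕ} (M I N : Matrix (Fin n) (Fin n) ℤ) (m : ℕ) (hm : m ≠ 0) (hnm : 2 * n < 2 ^ m)
    (hI : I * I = 1) (hMI : M * I = I * M) (htr : (M * I).trace = 0)
    (hM : M * M = M + (2 : ℤ) ^ m • N)
    (θ₂ : TorsR J 2 ≃+ (Fin n → ZMod 2)) (θ₄ : TorsR J 4 ≃+ (Fin n → ZMod 4))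
    (h2e : ∀ v w : TorsR J 2, (w : J) = e • (v : J) →
      θ₂ w = (M.map (Int.cast : ℤ → ZMod 2)).mulVec (θ₂ v))
    (h4c : ∀ u w : TorsR J 4, (w : J) = c • (u : J) →
      θ₄ w = -((I.map (Int.cast : ℤ → ZMod 4)).mulVec (θ₄ u)))
    (h42 : ∀ (u : TorsR J 4) (v : TorsR J 2), (v : J) = 2 • (u : J) →
      ∀ i, θ₂ v i = ZMod.castHom (show 2 ∣ 4 by norm_num) (ZMod 2) (θ₄ u i)) :
    ∃ Vinf : Submodule (ZMod 2) (TorsR J 2),
      (∀ y ∈ kumDom G J 2, kumCoc 2 e y c ∈ Vinf) ∧
      2 * finrank (ZMod 2) ↥(eisW (J := J) 2 e ⊓ Vinf) ≤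
        finrank (ZMod 2) ↥(eisW (J := J) 2 e) := by
  refine ⟨(latU I).comap (linOfAdd θ₂).toLinearMap, ?_, ?_⟩
  · intro y hy
    rw [Submodule.mem_comap, LinearEquiv.coe_coe, linOfAdd_apply, mem_latU]
    obtain ⟨z, hz⟩ := hdiv y
    have hv : ((kumCoc 2 e y c : TorsR J 2) : J) = e • (c • y - y) := coe_kumCoc e hy c
    -- the point `u = e (c z - z)` of `J[4]`
    have h4 : (4 : ℕ) • z = 2 • y := by
      rw [← hz, smul_smul]
      norm_num
    have hu4 : 4 • (e • (c • z - z)) = 0 := by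
      calc 4 • (e • (c • z - z)) = e • (4 • (c • z - z)) := smul_comm _ _ _
        _ = e • (4 • (c • z) - 4 • z) := by rw [smul_sub (4 : ℕ) (c • z) z]
        _ = e • (c • (4 • z) - 4 • z) := by rw [smul_comm (4 : ℕ) c z]
        _ = 0 := by rw [h4, hy c, sub_self, smul_zero]
    set u : TorsR J 4 := ⟨e • (c • z - z), hu4⟩ with hu
    have hcu : ((-u : TorsR J 4) : J) = c • (u : J) := by
      show -(e • (c • z - z)) = c • (e • (c • z - z))
      calc -(e • (c • z - z)) = e • (-(c • z - z)) := (smul_neg _ _).symm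
        _ = e • (z - c • z) := by rw [neg_sub]
        _ = e • (c • (c • z) - c • z) := by rw [hcc]
        _ = e • (c • (c • z - z)) := by rw [smul_sub c (c • z) z]
        _ = c • (e • (c • z - z)) := (hce _).symm
    have h2u : ((kumCoc 2 e y c : TorsR J 2) : J) = 2 • (u : J) := by
      rw [hv]
      show e • (c • y - y) = 2 • (e • (c • z - z))
      calc e • (c • y - y) = e • (c • (2 • z) - 2 • z) := by rw [hz]
        _ = e • (2 • (c • z) - 2 • z) := by rw [smul_comm (2 : ℕ) c z]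
        _ = e • (2 • (c • z - z)) := by rw [smul_sub (2 : ℕ) (c • z) z]
        _ = 2 • (e • (c • z - z)) := (smul_comm _ _ _).symm
    have hfix : (I.map (Int.cast : ℤ → ZMod 4)).mulVec (θ₄ u) = θ₄ u := by
      have := h4c u (-u) hcu
      rw [map_neg, neg_inj] at this
      exact this.symm
    obtain ⟨h, hh, hred⟩ := exists_lift_fixed I hI (θ₄ u) hfix
    refine ⟨h, hh, funext fun i => ?_⟩
    rw [red2_apply, hred i, h42 u _ h2u i]
  · have hW : eisW (J := J) 2 e = (latW M).comap (linOfAdd θ₂).toLinearMap := by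
      ext v
      rw [Submodule.mem_comap, LinearEquiv.coe_coe, linOfAdd_apply, mem_latW, mem_eisW]
      have hw2 : 2 • (e • (v : J)) = 0 := by
        rw [← smul_comm e, mem_torsR.mp v.2, smul_zero]
      have key := h2e v ⟨e • (v : J), hw2⟩ rfl
      rw [← key]
      constructor
      · intro h
        congr 1
        exact Subtype.ext h
      · intro h
        have := θ₂.injective h
        exact congrArg Subtype.val this
    rw [hW, ← Submodule.comap_inf, finrank_comap_linOfAdd, finrank_comap_linOfAdd]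
    exact (two_mul_finrank_inf_eq m hm hnm M I N hI hMI htr hM).le

end Abstract

end Fermat.Agent.S15.Desc.H99

end
-- ==== END Fermat.Agent.S15.Desc.H99_NumTwo

-- ==== BEGIN Fermat.Agent.S15.FG.H11_Asm
section
attribute [local instance 10000] SubalgebraClass.toAlgebra
attribute [local instance 10000] HahnSeries.powerSeriesAlgebra

set_option autoImplicit false
set_option synthInstance.maxHeartbeats 400000
set_option maxHeartbeats 1000000

noncomputable section

open AlgebraicCurve ModularCurve Fermat.Agent.S28.H73 Fermat.Agent.RED Fermat.Agent.RED.H73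

namespace Fermat.Agent.S15.FG.H11

section Abs

variable {K F : Type*} [Field K] [Field F] [Algebra K F]

/-- The natural map `Pic⁰ → Pic`. -/
def pic0ToPic : Pic0 K F →+ Pic K F :=
  QuotientAddGroup.map _ _ (Divisor.degZero (K := K) (F := F)).subtype (by
    intro D hD
    exact hD)

theorem pic0ToPic_mk (D : Divisor.degZero (K := K) (F := F)) :
    pic0ToPic (Pic0.mk D) = QuotientAddGroup.mk (D : Divisor K F) := rfl

theorem pic0ToPic_injective : Function.Injective (pic0ToPic (K := K) (F := F)) := by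
  rw [injective_iff_map_eq_zero]
  intro x hx
  obtain ⟨D, rfl⟩ := Pic0.mk_surjective x
  rw [pic0ToPic_mk, QuotientAddGroup.eq_zero_iff] at hx
  exact (QuotientAddGroup.eq_zero_iff _).mpr hx

/-- The fixed points of the `m`-th power of `a ↦ a ^ q` form a finite set. -/
theorem finite_fixed_pow {s : K ≃+* K} {q : ℕ} (hq : 2 ≤ q) (hs : ∀ a : K, s a = a ^ q)
    (m : ℕ) (hm : 0 < m) : {a : K | (s ^ m) a = a}.Finite := by
  classical
  have hsm : ∀ (m : ℕ) (a : K), (s ^ m) a = a ^ (q ^ m) := by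
    intro m
    induction m with
    | zero => intro a; simp
    | succ m ih =>
      intro a
      rw [pow_succ', RingAut.mul_apply, ih, hs, ← pow_mul, pow_succ]
  have hlt : 1 < q ^ m := Nat.one_lt_pow hm.ne' (by omega)
  have hpoly : (Polynomial.X ^ (q ^ m) - Polynomial.X : Polynomial K) ≠ 0 := by
    intro h0
    have h1 := congrArg (fun p => Polynomial.coeff p 1) h0
    simp only [Polynomial.coeff_sub, Polynomial.coeff_X_pow, Polynomial.coeff_X_one,
      Polynomial.coeff_zero] at h1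
    rw [if_neg (by omega)] at h1
    simp at h1
  refine ((Polynomial.X ^ (q ^ m) - Polynomial.X : Polynomial K).roots.toFinset.finite_toSet).subset
    fun a ha => ?_
  rw [Finset.mem_coe, Multiset.mem_toFinset, Polynomial.mem_roots hpoly]
  have : a ^ (q ^ m) = a := by rw [← hsm]; exact ha
  simp [this]

end Abs

/-- **FG from the bridge.** -/
theorem stmt_redFG_of_bridge {p : ℕ} (hB : Stmt_FGbridge p) : Stmt_redFG p := by
  intro ℓ hℓ hℓp A hA
  classical
  by_cases h : ReductionInputsModL A p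
  swap
  · rw [reductionModL_of_not h]
    have : AddSubgroup.map (0 : JZero p →+ JZeroC (IsLocalRing.ResidueField A) p) (ratPts p)
        = ⊥ := by
      ext y
      simp only [AddSubgroup.mem_map, AddMonoidHom.zero_apply, AddSubgroup.mem_bot]
      constructor
      · rintro ⟨_, _, rfl⟩
        rfl
      · rintro rfl
        exact ⟨0, AddSubgroup.zero_mem _, rfl⟩
    rw [this]
    exact ⟨∅, by simp⟩
  haveI : IsAlgClosed (kV A) := isAlgClosed_kV A
  obtain ⟨hFF, φ, P₀, x, hφ, hP₀, hx, hφx, hfixD⟩ := hB ℓ hℓ hℓp A hA h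
  have hFF' := hFF
  obtain ⟨x₀, hx₀, hfin₀⟩ := hFF'
  have H : H42.Hyp (kV A) ↥(modularFunctionFieldFullC (kV A) p) :=
    H42.hyp_of_zeros (H42.zerosAll _ _ hFF) hx₀
  obtain ⟨g, c, hg⟩ := H42.stmt_FFR_riemann _ _ hFF
  have hS := fin_fixed H g (fun D => (hg D).1) φ P₀ hP₀ hx hφx
    (fun m hm => finite_fixed_pow hℓ.two_le hφ m hm)
  -- the image is finite
  have hsub : (pic0ToPic (K := kV A) (F := ↥(modularFunctionFieldFullC (kV A) p))) ''
      ((AddSubgroup.map (reductionModL A p) (ratPts p) : AddSubgroup _) : Set _) ⊆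
      {c : Pic (kV A) ↥(modularFunctionFieldFullC (kV A) p) |
        ∃ C : Divisor (kV A) ↥(modularFunctionFieldFullC (kV A) p), Divisor.degree C = 0 ∧
          φ • C - C ∈ Divisor.principal (K := kV A)
            (F := ↥(modularFunctionFieldFullC (kV A) p)) ∧ c = QuotientAddGroup.mk C} := by
    rintro _ ⟨y, ⟨z, hz, rfl⟩, rfl⟩
    obtain ⟨D, rfl⟩ := Pic0.mk_surjective z
    rw [reductionModL_mk h D, pic0ToPic_mk]
    refine ⟨_, ?_, hfixD D hz, rfl⟩
    exact Divisor.mem_degZero.mp (reductionDegZeroAlong (placeReductionModL h)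
      (isPlaceReductionModL_placeReductionModL h).1 D).2
  have hfinite : ((AddSubgroup.map (reductionModL A p) (ratPts p) : AddSubgroup _) :
      Set (JZeroC (IsLocalRing.ResidueField A) p)).Finite :=
    Set.Finite.of_finite_image (hS.subset hsub) pic0ToPic_injective.injOn
  haveI : Finite ↥(AddSubgroup.map (reductionModL A p) (ratPts p)) := hfinite.to_subtype
  exact (AddGroup.fg_iff_addSubgroup_fg _).mp AddGroup.fg_of_finite

end Fermat.Agent.S15.FG.H11

end
end
-- ==== END Fermat.Agent.S15.FG.H11_Asm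

-- ==== BEGIN Fermat.Agent.S15.H17_RI
section

/-!
# S15, input (RI) (helper17): `Stmt_redInputs p` from `Stmt_RM`

`stmt_redInputs_of : Stmt_RM → p.Prime → Stmt_redInputs p` (G-RED package RI,
`RED/H17_RI.lean`).
-/

set_option autoImplicit false
set_option synthInstance.maxHeartbeats 400000
set_option linter.style.haveILetI false

noncomputable section

open ModularCurve

namespace Fermat.Agent.S15.H17

/-- **(RI)** from the reduction maps of G-RED. -/
theorem stmt_redInputs_of (hRM : Fermat.Agent.RED.Stmt_RM) {p : ℕ} (hp : p.Prime) :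
    Stmt_redInputs p := by
  intro ℓ hℓ hℓp A hA
  haveI : NeZero p := ⟨hp.ne_zero⟩
  exact Fermat.Agent.RED.H17.reductionInputsModL_of_RM hRM p ℓ hℓ
    ((Nat.prime_dvd_prime_iff_eq hℓ hp).not.mpr hℓp) A hA

end Fermat.Agent.S15.H17

end
end
-- ==== END Fermat.Agent.S15.H17_RI

-- ==== BEGIN Fermat.Agent.S15.H26_CuspEisFinal
section

/-!
# S15, package CUSP-eis (helper26 + helper2): `Stmt_cuspEis p` for every prime `p`

`stmt_cuspEis p hp : Stmt_cuspEis p`, unconditional:
* good primes `ℓ ≠ p`: `H26.heckeOperatorBar_ptClass` (helper26),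
* `ℓ = p`: `H2.heckeOperatorBar_ptClass_self` (helper2),
* commutation of the Hecke operators: `Lib.HeckeComm.heckeOperatorsCommuteBar` (helper2),
* reduction to the generators: `H26.stmt_cuspEis_of`.
-/

set_option autoImplicit false

noncomputable section

namespace Fermat.Agent.S15.H26

/-- **CUSP-eis**: the cuspidal class `κ = [P∞ - P0]` of `J₀(p)` is an Eisenstein eigenvector:
`t κ = ε(t) κ` for every `t` in the Hecke ring. -/
theorem stmt_cuspEis (p : ℕ) [NeZero p] (hp : p.Prime) : Stmt_cuspEis p :=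
  stmt_cuspEis_of p hp (Fermat.Agent.Lib.HeckeComm.heckeOperatorsCommuteBar p)
    (fun Pinf P0 h => Fermat.Agent.S15.H2.heckeOperatorBar_ptClass_self p hp Pinf P0 h)

end Fermat.Agent.S15.H26

end
end
-- ==== END Fermat.Agent.S15.H26_CuspEisFinal

-- ==== BEGIN Fermat.Agent.S15.H63_BrDef
section

set_option autoImplicit false

namespace Fermat.Agent.S15.H63

open WeierstrassCurve WeierstrassCurve.Affine Polynomial Fermat.Agent.Lib.Torsion.H11
  Fermat.Agent.S12.H11

set_option linter.style.haveILetI false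

/-! ### Symmetry of `jOfDiff` and `quotJ` -/

section sym

variable {K : Type*} [Field K]

lemma jOfDiff_swap12 (a b c : K) : jOfDiff b a c = jOfDiff a b c := by
  unfold jOfDiff; congr 1 <;> ring

lemma jOfDiff_swap23 (a b c : K) : jOfDiff a c b = jOfDiff a b c := by
  unfold jOfDiff; congr 1 <;> ring

lemma jOfDiff_neg1 (a b c : K) : jOfDiff (-a) b c = jOfDiff a b c := by
  unfold jOfDiff; congr 1 <;> ring

lemma jOfDiff_neg2 (a b c : K) : jOfDiff a (-b) c = jOfDiff a b c := by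
  unfold jOfDiff; congr 1 <;> ring

lemma jOfDiff_neg3 (a b c : K) : jOfDiff a b (-c) = jOfDiff a b c := by
  unfold jOfDiff; congr 1 <;> ring

variable [DecidableEq K] (W : Affine K) (N : AddSubgroup W.Point) [Fintype N]

/-- `quotDiff e' e e'' = ± quotDiff e e' e''`. -/
lemma quotDiff_swap (e e' e'' : K) :
    quotDiff W N e' e e'' = quotDiff W N e e' e'' ∨
      quotDiff W N e' e e'' = -quotDiff W N e e' e'' := by
  unfold quotDiff
  rcases Nat.even_or_odd (Fintype.card N) with h | h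
  · left
    have : (e - e') ^ Fintype.card N = (e' - e) ^ Fintype.card N := by
      rw [← h.neg_pow]; ring
    rw [this, mul_comm (Xi W N e') (Xi W N e)]
  · right
    have : (e - e') ^ Fintype.card N = -(e' - e) ^ Fintype.card N := by
      rw [← h.neg_pow]; ring
    rw [this, mul_comm (Xi W N e') (Xi W N e)]
    ring

lemma quotJ_swap23 (e1 e2 e3 : K) : quotJ W N e1 e3 e2 = quotJ W N e1 e2 e3 := by
  unfold quotJ
  rw [jOfDiff_swap12]
  rcases quotDiff_swap W N e2 e3 e1 with h | h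
  · rw [h]
  · rw [h, jOfDiff_neg3]

lemma quotJ_swap12 (e1 e2 e3 : K) : quotJ W N e2 e1 e3 = quotJ W N e1 e2 e3 := by
  unfold quotJ
  -- `jOfDiff (D 2 1 3) (D 2 3 1) (D 1 3 2)` versus `jOfDiff (D 1 2 3) (D 1 3 2) (D 2 3 1)`
  rw [jOfDiff_swap23 (quotDiff W N e2 e1 e3)]
  rcases quotDiff_swap W N e1 e2 e3 with h | h
  · rw [h]
  · rw [h, jOfDiff_neg1]

end sym

/-! ### Factorisations of the 2-division polynomial -/

section roots

variable {K : Type*} [Field K] {W : Affine K}

/-- Two factorisations of the 2-division polynomial differ by a permutation of the roots. -/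
lemma perm_of_twoTors {e1 e2 e3 f1 f2 f3 : K} (H : TwoTors W e1 e2 e3)
    (H' : TwoTors W f1 f2 f3) :
    (f1 = e1 ∧ f2 = e2 ∧ f3 = e3) ∨ (f1 = e1 ∧ f2 = e3 ∧ f3 = e2) ∨
    (f1 = e2 ∧ f2 = e1 ∧ f3 = e3) ∨ (f1 = e2 ∧ f2 = e3 ∧ f3 = e1) ∨
    (f1 = e3 ∧ f2 = e1 ∧ f3 = e2) ∨ (f1 = e3 ∧ f2 = e2 ∧ f3 = e1) := by
  have h2 := H.two_ne
  have h4 : (4 : K) ≠ 0 := by
    have : (4 : K) = 2 * 2 := by norm_num
    rw [this]; exact mul_ne_zero h2 h2
  have s1 : f1 + f2 + f3 = e1 + e2 + e3 := by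
    have := H.hb2.symm.trans H'.hb2
    apply mul_left_cancel₀ h4
    linear_combination this
  have s2 : f1 * f2 + f1 * f3 + f2 * f3 = e1 * e2 + e1 * e3 + e2 * e3 := by
    have := H.hb4.symm.trans H'.hb4
    apply mul_left_cancel₀ h2
    linear_combination -this
  have s3 : f1 * f2 * f3 = e1 * e2 * e3 := by
    have := H.hb6.symm.trans H'.hb6
    apply mul_left_cancel₀ h4
    linear_combination this
  -- `f1` is a root
  have r1 : (f1 - e1) * (f1 - e2) * (f1 - e3) = 0 := by
    linear_combination f1 ^ 2 * s1 - f1 * s2 + s3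
  -- the remaining two roots, given that `f1 = a` and `{a, b, c} = {e1, e2, e3}`
  have key : ∀ a b c : K, f1 = a → a + b + c = e1 + e2 + e3 →
      a * b + a * c + b * c = e1 * e2 + e1 * e3 + e2 * e3 →
      (f2 = b ∧ f3 = c) ∨ (f2 = c ∧ f3 = b) := by
    intro a b c ha hs1 hs2
    have t1 : f2 + f3 = b + c := by linear_combination s1 - hs1 - ha
    have t2 : f2 * f3 = b * c := by
      linear_combination s2 - hs2 - (f2 + f3) * ha - a * t1
    have q : (f2 - b) * (f2 - c) = 0 := by linear_combination f2 * t1 - t2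
    rcases mul_eq_zero.mp q with h | h
    · left
      have hb : f2 = b := sub_eq_zero.mp h
      exact ⟨hb, by linear_combination t1 - hb⟩
    · right
      have hc : f2 = c := sub_eq_zero.mp h
      exact ⟨hc, by linear_combination t1 - hc⟩
  rcases mul_eq_zero.mp r1 with h | h
  · rcases mul_eq_zero.mp h with h | h
    · have ha : f1 = e1 := sub_eq_zero.mp h
      rcases key e1 e2 e3 ha rfl rfl with ⟨hb, hc⟩ | ⟨hb, hc⟩
      · exact Or.inl ⟨ha, hb, hc⟩
      · exact Or.inr (Or.inl ⟨ha, hb, hc⟩)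
    · have ha : f1 = e2 := sub_eq_zero.mp h
      rcases key e2 e1 e3 ha (by ring) (by ring) with ⟨hb, hc⟩ | ⟨hb, hc⟩
      · exact Or.inr (Or.inr (Or.inl ⟨ha, hb, hc⟩))
      · exact Or.inr (Or.inr (Or.inr (Or.inl ⟨ha, hb, hc⟩)))
  · have ha : f1 = e3 := sub_eq_zero.mp h
    rcases key e3 e1 e2 ha (by ring) (by ring) with ⟨hb, hc⟩ | ⟨hb, hc⟩
    · exact Or.inr (Or.inr (Or.inr (Or.inr (Or.inl ⟨ha, hb, hc⟩))))
    · exact Or.inr (Or.inr (Or.inr (Or.inr (Or.inr ⟨ha, hb, hc⟩))))

/-- `quotJ` does not depend on the factorisation. -/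
lemma quotJ_eq_of_twoTors [DecidableEq K] (N : AddSubgroup W.Point) [Fintype N]
    {e1 e2 e3 f1 f2 f3 : K} (H : TwoTors W e1 e2 e3) (H' : TwoTors W f1 f2 f3) :
    quotJ W N f1 f2 f3 = quotJ W N e1 e2 e3 := by
  rcases perm_of_twoTors H H' with ⟨rfl, rfl, rfl⟩ | ⟨rfl, rfl, rfl⟩ | ⟨rfl, rfl, rfl⟩ |
    ⟨rfl, rfl, rfl⟩ | ⟨rfl, rfl, rfl⟩ | ⟨rfl, rfl, rfl⟩
  · rfl
  · exact quotJ_swap23 W N _ _ _
  · exact quotJ_swap12 W N _ _ _
  · -- `(f1, f2, f3) = (e2, e3, e1)`
    rw [quotJ_swap23, quotJ_swap12]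
  · -- `(f1, f2, f3) = (e3, e1, e2)`
    rw [quotJ_swap12, quotJ_swap23]
  · -- `(f1, f2, f3) = (e3, e2, e1)`
    rw [quotJ_swap12, quotJ_swap23, quotJ_swap12]

/-- Over an algebraically closed field (with `2 ≠ 0`) the 2-division polynomial splits. -/
lemma exists_twoTors [IsAlgClosed K] (W : Affine K) (h2 : (2 : K) ≠ 0) :
    ∃ e1 e2 e3 : K, TwoTors W e1 e2 e3 := by
  have h4 : (4 : K) ≠ 0 := by
    have : (4 : K) = 2 * 2 := by norm_num
    rw [this]; exact mul_ne_zero h2 h2
  set s : K := W.b₂ / 4 with hs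
  set t : K := W.b₄ / 2 with ht
  set w : K := W.b₆ / 4 with hw
  -- a root of the cubic
  obtain ⟨e1, he1⟩ := IsAlgClosed.exists_root (X ^ 3 + C s * X ^ 2 + C t * X + C w : K[X]) (by
    have : (X ^ 3 + C s * X ^ 2 + C t * X + C w : K[X]).degree = 3 := by compute_degree!
    rw [this]; norm_num)
  simp only [IsRoot.def, eval_add, eval_mul, eval_pow, eval_X, eval_C] at he1
  -- a root of the quadratic quotient
  obtain ⟨e2, he2⟩ := IsAlgClosed.exists_root
    (X ^ 2 + C (s + e1) * X + C (t + e1 * (s + e1)) : K[X]) (by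
    have : (X ^ 2 + C (s + e1) * X + C (t + e1 * (s + e1)) : K[X]).degree = 2 := by
      compute_degree!
    rw [this]; norm_num)
  simp only [IsRoot.def, eval_add, eval_mul, eval_pow, eval_X, eval_C] at he2
  have hb2 : W.b₂ = 4 * s := by rw [hs]; field_simp
  have hb4 : W.b₄ = 2 * t := by rw [ht]; field_simp
  have hb6 : W.b₆ = 4 * w := by rw [hw]; field_simp
  refine ⟨e1, e2, -(s + e1) - e2, h2, ?_, ?_, ?_⟩
  · rw [hb2]; ring
  · rw [hb4]; linear_combination 2 * he2
  · rw [hb6]; linear_combination 4 * he1 - 4 * e1 * he2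

end roots

/-! ### Galois equivariance -/

section galois

variable (W₀ : Affine ℚ)

lemma xc_smul (σ : GalQ) (R : (W₀⁄Qb).Point) :
    xc (W₀⁄Qb) (σ • R) = σ (xc (W₀⁄Qb) R) := by
  rcases R with _ | ⟨x, y, h⟩
  · change xc (W₀⁄Qb) (0 : (W₀⁄Qb).Point) = σ 0
    rw [map_zero]
    rfl
  · rfl

variable {W₀}

lemma twoTors_smul {e1 e2 e3 : Qb} (H : TwoTors (W₀⁄Qb) e1 e2 e3) (σ : GalQ) :
    TwoTors (W₀⁄Qb) (σ e1) (σ e2) (σ e3) := by
  have hb2 : σ ((W₀⁄Qb).b₂) = (W₀⁄Qb).b₂ := by
    change σ ((W₀.map (algebraMap ℚ Qb)).b₂) = (W₀.map (algebraMap ℚ Qb)).b₂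
    rw [WeierstrassCurve.map_b₂]
    exact σ.commutes _
  have hb4 : σ ((W₀⁄Qb).b₄) = (W₀⁄Qb).b₄ := by
    change σ ((W₀.map (algebraMap ℚ Qb)).b₄) = (W₀.map (algebraMap ℚ Qb)).b₄
    rw [WeierstrassCurve.map_b₄]
    exact σ.commutes _
  have hb6 : σ ((W₀⁄Qb).b₆) = (W₀⁄Qb).b₆ := by
    change σ ((W₀.map (algebraMap ℚ Qb)).b₆) = (W₀.map (algebraMap ℚ Qb)).b₆
    rw [WeierstrassCurve.map_b₆]
    exact σ.commutes _
  refine ⟨H.two_ne, ?_, ?_, ?_⟩
  · rw [← hb2, H.hb2]; simp only [map_mul, map_add, map_neg, map_ofNat]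
  · rw [← hb4, H.hb4]; simp only [map_mul, map_add, map_ofNat]
  · rw [← hb6, H.hb6]; simp only [map_mul, map_neg, map_ofNat]

variable (N : AddSubgroup (W₀⁄Qb).Point) [Fintype N]
  (hN : ∀ (σ : GalQ) (R : (W₀⁄Qb).Point), R ∈ N → σ • R ∈ N)
include hN

lemma Xi_smul (σ : GalQ) (e : Qb) :
    σ (Xi (W₀⁄Qb) N e) = Xi (W₀⁄Qb) N (σ e) := by
  unfold Xi
  rw [map_prod]
  refine Finset.prod_nbij' (fun R => (⟨σ • (R : (W₀⁄Qb).Point), hN σ R R.2⟩ : N))
    (fun R => (⟨σ⁻¹ • (R : (W₀⁄Qb).Point), hN σ⁻¹ R R.2⟩ : N)) ?_ ?_ ?_ ?_ ?_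
  · intro R hR
    simp only [Finset.mem_erase, Finset.mem_univ, and_true, ne_eq] at hR ⊢
    intro h
    apply hR
    have h' : σ • (R : (W₀⁄Qb).Point) = 0 := congrArg Subtype.val h
    rw [smul_eq_zero_iff_eq] at h'
    exact Subtype.ext h'
  · intro R hR
    simp only [Finset.mem_erase, Finset.mem_univ, and_true, ne_eq] at hR ⊢
    intro h
    apply hR
    have h' : σ⁻¹ • (R : (W₀⁄Qb).Point) = 0 := congrArg Subtype.val h
    rw [smul_eq_zero_iff_eq] at h'
    exact Subtype.ext h'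
  · intro R _
    apply Subtype.ext
    simp
  · intro R _
    apply Subtype.ext
    simp
  · intro R _
    simp only
    rw [xc_smul, map_sub]

lemma quotDiff_smul (σ : GalQ) (e e' e'' : Qb) :
    σ (quotDiff (W₀⁄Qb) N e e' e'') = quotDiff (W₀⁄Qb) N (σ e) (σ e') (σ e'') := by
  unfold quotDiff
  rw [map_div₀, map_mul, map_mul, map_pow, map_sub, Xi_smul N hN, Xi_smul N hN, Xi_smul N hN]

lemma quotJ_smul (σ : GalQ) (e1 e2 e3 : Qb) :
    σ (quotJ (W₀⁄Qb) N e1 e2 e3) = quotJ (W₀⁄Qb) N (σ e1) (σ e2) (σ e3) := by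
  unfold quotJ jOfDiff
  rw [map_div₀, map_mul, map_pow, map_pow, map_add, map_add, map_pow, map_pow, map_pow, map_mul,
    map_mul, quotDiff_smul N hN, quotDiff_smul N hN, quotDiff_smul N hN, map_ofNat]

/-- `quotJ` is Galois-invariant. -/
lemma quotJ_fixed {e1 e2 e3 : Qb} (H : TwoTors (W₀⁄Qb) e1 e2 e3) (σ : GalQ) :
    σ (quotJ (W₀⁄Qb) N e1 e2 e3) = quotJ (W₀⁄Qb) N e1 e2 e3 := by
  rw [quotJ_smul N hN]
  exact quotJ_eq_of_twoTors N H (twoTors_smul H σ)

/-- `quotJ` is a rational number. -/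
lemma exists_rat_quotJ {e1 e2 e3 : Qb} (H : TwoTors (W₀⁄Qb) e1 e2 e3) :
    ∃ β : ℚ, ((β : ℚ) : Qb) = quotJ (W₀⁄Qb) N e1 e2 e3 := by
  obtain ⟨β, hβ⟩ := Fermat.Agent.S13.H12.fixed_rat _ (quotJ_fixed N hN H)
  refine ⟨β, ?_⟩
  rw [← hβ]
  simp

end galois

/-- **(BR-DEF)** -/
theorem stmt_BRdef : Stmt_BRdef := by
  classical
  intro p hp _ W _ Q hfix hord
  have hfin : IsOfFinAddOrder Q := by
    rw [← addOrderOf_pos_iff, hord]
    exact hp.pos
  haveI : Finite (AddSubgroup.zmultiples Q) := by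
    have := hfin.finite_zmultiples
    exact Set.finite_coe_iff.mpr this
  letI inst0 : Fintype (AddSubgroup.zmultiples Q) := Fintype.ofFinite _
  have hN : ∀ (σ : GalQ) (R : (EBar W).Point), R ∈ AddSubgroup.zmultiples Q →
      σ • R ∈ AddSubgroup.zmultiples Q := by
    intro σ R hR
    obtain ⟨k, rfl⟩ := AddSubgroup.mem_zmultiples_iff.mp hR
    rw [Affine.Point.algEquiv_smul_zsmul, hfix σ]
    exact AddSubgroup.mem_zmultiples_iff.mpr ⟨k, rfl⟩
  obtain ⟨e1, e2, e3, H⟩ := exists_twoTors (EBar W) two_ne_zero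
  obtain ⟨β, hβ⟩ := exists_rat_quotJ (AddSubgroup.zmultiples Q) hN H
  refine ⟨β, ?_⟩
  intro f1 f2 f3 inst H'
  have hinst : inst = inst0 := Subsingleton.elim _ _
  subst hinst
  rw [hβ]
  exact (quotJ_eq_of_twoTors _ H H').symm

end Fermat.Agent.S15.H63

end
-- ==== END Fermat.Agent.S15.H63_BrDef

-- ==== BEGIN Fermat.Agent.S15.H63_Newton
section

set_option autoImplicit false
set_option synthInstance.maxHeartbeats 400000

noncomputable section

open AlgebraicCurve ModularCurve IntermediateField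
open Fermat.Agent.RED.H17

namespace Fermat.Agent.S15.H63

/-- Algebraic integers lie in every valuation subring. -/
theorem val_le_one_of_integral {K : Type*} [Field K] (A : ValuationSubring K) (x : K)
    (hx : IsIntegral ℤ x) : A.valuation x ≤ 1 := by
  have h1 : IsIntegral A x := hx.tower_top
  rw [ValuationSubring.valuation_le_one_iff]
  have h2 := (Valuation.Integers.isIntegral_iff_v_le_one
    (Valuation.valuationSubring.integers A.valuation) (x := x)).mp
    (by rw [A.valuationSubring_valuation]; exact h1)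
  exact (ValuationSubring.valuation_le_one_iff A x).mp h2

/-! ### `F_p = Q̄(j, j_p)` for `p` prime -/

theorem full_prime_le (p : ℕ) [NeZero p] (hp : p.Prime) :
    modularFunctionFieldFull p ≤
      IntermediateField.adjoin ℚ ({jq, qExpand ℚ p jq} : Set (LaurentSeries ℚ)) := by
  rw [modularFunctionFieldFull, adjoin_le_iff]
  rintro x ⟨d, hd, hdvd, rfl⟩
  rcases (Nat.dvd_prime hp).mp hdvd with h | h
  · rw [qExpand_congr h jq, qExpand_one_apply]
    exact subset_adjoin ℚ _ (Set.mem_insert _ _)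
  · rw [qExpand_congr h jq]
    exact subset_adjoin ℚ _ (Set.mem_insert_of_mem _ rfl)

theorem coeffEmb_mem_adjoin_pair (p : ℕ) [NeZero p] {x : LaurentSeries ℚ}
    (hx : x ∈ IntermediateField.adjoin ℚ ({jq, qExpand ℚ p jq} : Set (LaurentSeries ℚ))) :
    coeffEmb Qb x ∈ IntermediateField.adjoin Qb
      ({coeffEmb Qb jq, coeffEmb Qb (qExpand ℚ p jq)} : Set (LaurentSeries Qb)) := by
  induction hx using IntermediateField.adjoin_induction with
  | mem y hy =>
    rcases hy with rfl | hy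
    · exact subset_adjoin Qb _ (Set.mem_insert _ _)
    · rw [Set.mem_singleton_iff.mp hy]
      exact subset_adjoin Qb _ (Set.mem_insert_of_mem _ rfl)
  | algebraMap r =>
    have : coeffEmb Qb (algebraMap ℚ (LaurentSeries ℚ) r)
        = algebraMap Qb (LaurentSeries Qb) (algebraMap ℚ Qb r) := by
      rw [coeffEmb, algebraMap_laurentSeries_eq_single, algebraMap_laurentSeries_eq_single,
        coeffMap_single]
    rw [this]
    exact IntermediateField.algebraMap_mem _ _
  | add y z _ _ hy hz => rw [map_add]; exact add_mem hy hz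
  | mul y z _ _ hy hz => rw [map_mul]; exact mul_mem hy hz
  | inv y _ hy => rw [map_inv₀]; exact inv_mem hy

theorem bar_prime_le (p : ℕ) [NeZero p] (hp : p.Prime) :
    modularFunctionFieldBar p ≤ IntermediateField.adjoin Qb
      ({coeffEmb Qb jq, coeffEmb Qb (qExpand ℚ p jq)} : Set (LaurentSeries Qb)) := by
  rw [modularFunctionFieldBar, laurentBaseChange, adjoin_le_iff]
  rintro _ ⟨x, hx, rfl⟩
  exact coeffEmb_mem_adjoin_pair p (full_prime_le p hp hx)

/-- `F_p = Q̄(j, j_p)`. -/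
theorem adjoin_jBar_pair (p : ℕ) [NeZero p] (hp : p.Prime) :
    IntermediateField.adjoin Qb ({jBar p, jBarN p} : Set (modularFunctionFieldBar p)) = ⊤ := by
  rw [eq_top_iff]
  intro z _
  have hz : (z : LaurentSeries Qb) ∈ IntermediateField.adjoin Qb
      ({coeffEmb Qb jq, coeffEmb Qb (qExpand ℚ p jq)} : Set (LaurentSeries Qb)) :=
    bar_prime_le p hp z.2
  have hmap : (IntermediateField.adjoin Qb
      ({jBar p, jBarN p} : Set (modularFunctionFieldBar p))).map (modularFunctionFieldBar p).val =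
      IntermediateField.adjoin Qb
        ({coeffEmb Qb jq, coeffEmb Qb (qExpand ℚ p jq)} : Set (LaurentSeries Qb)) := by
    rw [adjoin_map, Set.image_pair]
    rfl
  rw [← hmap] at hz
  obtain ⟨y, hy, hyz⟩ := hz
  have : y = z := Subtype.ext hyz
  rwa [← this]

/-! ### Specialisation of the equation -/

/-- The values of a place satisfy the equation. -/
theorem modEq_values {K F : Type*} [Field K] [Field F] [Algebra K F] (X Y : F)
    (p : ℕ) (c : ℕ → ℕ → K) (hrel : modEqVal p c X Y = 0) (b a : K) (x : Place K F)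
    (hxt : 0 < x.ord (X - algebraMap K F b)) (hxs : 0 < x.ord (Y - algebraMap K F a)) :
    modEqVal p c b a = 0 := by
  have hT := tay_modEq X Y b a p c
  rw [hrel] at hT
  by_contra hne
  have h1 := hT.vanAt x (vanAt_of_ord_pos hxt) (vanAt_of_ord_pos hxs)
  rw [zero_sub] at h1
  exact not_vanAt_algebraMap x hne (by simpa using h1.neg)

/-! ### BR-NEWTON -/

theorem brnewton_dich (hmod : Stmt_modEq) : Stmt_BRnewton_dich := by
  intro p _ hp x b a hv A ha
  obtain ⟨c, hc⟩ := hmod p hp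
  have h0 := modEq_values (jBar p) (jBarN p) p c hc.rel b a x hv.1 hv.2
  exact newtonVal_dich A p hp.one_lt.le c
    (fun i k => val_le_one_of_integral A _ (hc.integral i k)) hc.top b a h0 ha

theorem brnewton_uniq (hmod : Stmt_modEq) : Stmt_BRnewton_uniq := by
  intro p _ hp x y b a hx hy A ha hba
  obtain ⟨c, hc⟩ := hmod p hp
  have h0 := modEq_values (jBar p) (jBarN p) p c hc.rel b a x hx.1 hx.2
  have hD := newtonVal_simple A p hp.two_le c
    (fun i k => val_le_one_of_integral A _ (hc.integral i k)) hc.top b a h0 ha hba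
  exact placeUniq (jBar p) (jBarN p) (adjoin_jBar_pair p hp) p c hc.rel b a hD x y
    hx.1 hx.2 hy.1 hy.2

end Fermat.Agent.S15.H63

end
end
-- ==== END Fermat.Agent.S15.H63_Newton
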