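-- GENERATED (merged mirror, NOTES/tools/trim/merge3_helper67.py): 4 modules of the originals, bodies verbatim.
import Fermat.Agent.S15.H11_BRDefs
import Fermat.Agent.Zm.S15_L01_000
import Fermat.Agent.S05.H15_Val
import Fermat.Agent.Zm.S44_L01_002
import Fermat.Agent.Zm.S35_L02_001
import Fermat.Agent.Zm.S35_L01_003
import Fermat.Agent.Lib.RedE0.Torsion
import Fermat.Agent.Lib.EllFinite.H46_RedTorsStmt

-- ==== BEGIN Fermat.Agent.S15.H66_BRzcOdd
section

set_option autoImplicit false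

namespace Fermat.Agent.S15.H66

open WeierstrassCurve WeierstrassCurve.Affine WeierstrassCurve.Affine.Point
open Fermat.Agent.Lib.Torsion.H11 Fermat.Agent.S12.H11 Fermat.Agent.S15.H11
open Fermat.Agent.S05.H15

/-- The converse of `S12.H66.zc_unpack`: an integral point one of whose partial derivatives is
a unit lies in the identity component. -/
theorem zc_pack (W : WeierstrassCurve ℤ) (V : ValuationSubring QB) (x y : QB)
    (h : (EB W).Nonsingular x y) (hx : V.valuation x ≤ 1) (hy : V.valuation y ≤ 1)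
    (hu : V.valuation (((W.a₁ : ℤ) : QB) * y
          - (3 * x ^ 2 + 2 * ((W.a₂ : ℤ) : QB) * x + ((W.a₄ : ℤ) : QB))) = 1 ∨
        V.valuation (2 * y + ((W.a₁ : ℤ) : QB) * x + ((W.a₃ : ℤ) : QB)) = 1) :
    W.InZeroComponentAt V (Point.some x y h) := by
  right
  have hxV : x ∈ V := (V.valuation_le_one_iff x).mp hx
  have hyV : y ∈ V := (V.valuation_le_one_iff y).mp hy
  refine ⟨x, y, h, rfl, Or.inr ⟨hxV, hyV, ?_⟩⟩
  set x' : V := ⟨x, hxV⟩ with hx'
  set y' : V := ⟨y, hyV⟩ with hy'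
  have heq := h.1
  rw [Affine.equation_iff, EB_a₁, EB_a₂, EB_a₃, EB_a₄, EB_a₆] at heq
  have hVeq : y' ^ 2 + ((W.a₁ : ℤ) : V) * x' * y' + ((W.a₃ : ℤ) : V) * y'
      = x' ^ 3 + ((W.a₂ : ℤ) : V) * x' ^ 2 + ((W.a₄ : ℤ) : V) * x' + ((W.a₆ : ℤ) : V) := by
    apply Subtype.ext
    push_cast
    simp only [hx', hy']
    linear_combination heq
  have hres := congrArg (IsLocalRing.residue V) hVeq
  simp only [map_add, map_mul, map_pow, map_intCast] at hres
  rw [Affine.nonsingular_iff', Affine.equation_iff]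
  have e1 : (W.map (Int.castRingHom (IsLocalRing.ResidueField V))).toAffine.a₁ =
      ((W.a₁ : ℤ) : IsLocalRing.ResidueField V) := by simp
  have e2 : (W.map (Int.castRingHom (IsLocalRing.ResidueField V))).toAffine.a₂ =
      ((W.a₂ : ℤ) : IsLocalRing.ResidueField V) := by simp
  have e3 : (W.map (Int.castRingHom (IsLocalRing.ResidueField V))).toAffine.a₃ =
      ((W.a₃ : ℤ) : IsLocalRing.ResidueField V) := by simp
  have e4 : (W.map (Int.castRingHom (IsLocalRing.ResidueField V))).toAffine.a₄ =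
      ((W.a₄ : ℤ) : IsLocalRing.ResidueField V) := by simp
  have e6 : (W.map (Int.castRingHom (IsLocalRing.ResidueField V))).toAffine.a₆ =
      ((W.a₆ : ℤ) : IsLocalRing.ResidueField V) := by simp
  rw [e1, e2, e3, e4, e6]
  refine ⟨by linear_combination hres, ?_⟩
  rcases hu with hu | hu
  · left
    have hunit : IsUnit (((W.a₁ : ℤ) : V) * y'
        - (3 * x' ^ 2 + 2 * ((W.a₂ : ℤ) : V) * x' + ((W.a₄ : ℤ) : V))) := by
      rw [V.valuation_eq_one_iff]
      have hcoe : ((((W.a₁ : ℤ) : V) * y'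
          - (3 * x' ^ 2 + 2 * ((W.a₂ : ℤ) : V) * x' + ((W.a₄ : ℤ) : V)) : V) : QB)
          = ((W.a₁ : ℤ) : QB) * y
            - (3 * x ^ 2 + 2 * ((W.a₂ : ℤ) : QB) * x + ((W.a₄ : ℤ) : QB)) := by
        push_cast
        rfl
      rw [hcoe]
      exact hu
    have := (IsLocalRing.residue_ne_zero_iff_isUnit _).mpr hunit
    intro h0
    apply this
    simp only [map_sub, map_add, map_mul, map_pow, map_ofNat, map_intCast]
    linear_combination h0
  · right
    have hunit : IsUnit (2 * y' + ((W.a₁ : ℤ) : V) * x' + ((W.a₃ : ℤ) : V)) := by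
      rw [V.valuation_eq_one_iff]
      have hcoe : ((2 * y' + ((W.a₁ : ℤ) : V) * x' + ((W.a₃ : ℤ) : V) : V) : QB)
          = 2 * y + ((W.a₁ : ℤ) : QB) * x + ((W.a₃ : ℤ) : QB) := by
        push_cast
        rfl
      rw [hcoe]
      exact hu
    have := (IsLocalRing.residue_ne_zero_iff_isUnit _).mpr hunit
    intro h0
    apply this
    simp only [map_add, map_mul, map_ofNat, map_intCast]
    linear_combination h0


/-- The `y`-coordinate of a point with integral `x`-coordinate is integral. -/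
theorem val_y_le_one_int (W : WeierstrassCurve ℤ) (V : ValuationSubring QB) (x y : QB)
    (h : (EB W).Equation x y) (hx : V.valuation x ≤ 1) : V.valuation y ≤ 1 := by
  rw [Affine.equation_iff, EB_a₁, EB_a₂, EB_a₃, EB_a₄, EB_a₆] at h
  by_contra hy
  rw [not_le] at hy
  have hc : V.valuation (((W.a₁ : ℤ) : QB) * x + ((W.a₃ : ℤ) : QB)) ≤ 1 := by
    apply Valuation.map_add_le
    · rw [map_mul]; exact mul_le_one₀ (valuation_intCast_le_one V _) zero_le hx
    · exact valuation_intCast_le_one V _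
  have hr : V.valuation (x ^ 3 + ((W.a₂ : ℤ) : QB) * x ^ 2 + ((W.a₄ : ℤ) : QB) * x
      + ((W.a₆ : ℤ) : QB)) ≤ 1 := by
    apply Valuation.map_add_le
    · apply Valuation.map_add_le
      · apply Valuation.map_add_le
        · rw [map_pow]; exact pow_le_one₀ zero_le hx
        · rw [map_mul, map_pow]
          exact mul_le_one₀ (valuation_intCast_le_one V _) zero_le (pow_le_one₀ zero_le hx)
      · rw [map_mul]; exact mul_le_one₀ (valuation_intCast_le_one V _) zero_le hx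
    · exact valuation_intCast_le_one V _
  have hfac : y * (y + (((W.a₁ : ℤ) : QB) * x + ((W.a₃ : ℤ) : QB)))
      = x ^ 3 + ((W.a₂ : ℤ) : QB) * x ^ 2 + ((W.a₄ : ℤ) : QB) * x + ((W.a₆ : ℤ) : QB) := by
    linear_combination h
  have hsum : V.valuation (y + (((W.a₁ : ℤ) : QB) * x + ((W.a₃ : ℤ) : QB)))
      = V.valuation y := Valuation.map_add_eq_of_lt_left _ (lt_of_le_of_lt hc hy)
  rw [← hfac, map_mul, hsum] at hr
  have : 1 < V.valuation y * V.valuation y := by
    calc (1 : V.ValueGroup) < V.valuation y := hy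
      _ = V.valuation y * 1 := (mul_one _).symm
      _ ≤ V.valuation y * V.valuation y := mul_le_mul_right hy.le _
  exact absurd hr (not_le.2 this)

section main

variable {W : WeierstrassCurve ℤ} {A : ValuationSubring QB} {e₁ e₂ e₃ : QB}

/-- `ψ₂² = 4 (x - e₁)(x - e₂)(x - e₃)` on the curve. -/
lemma psi_sq (hN : NodeRoots W A e₁ e₂ e₃) {x y : QB} (h : (EB W).Equation x y) :
    (2 * y + ((W.a₁ : ℤ) : QB) * x + ((W.a₃ : ℤ) : QB)) ^ 2
      = 4 * ((x - e₁) * (x - e₂) * (x - e₃)) := by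
  have hb2 := hN.tt.hb2
  have hb4 := hN.tt.hb4
  have hb6 := hN.tt.hb6
  simp only [WeierstrassCurve.b₂, WeierstrassCurve.b₄, WeierstrassCurve.b₆] at hb2 hb4 hb6
  rw [EB_a₁, EB_a₂] at hb2
  rw [EB_a₁, EB_a₃, EB_a₄] at hb4
  rw [EB_a₃, EB_a₆] at hb6
  rw [Affine.equation_iff, EB_a₁, EB_a₂, EB_a₃, EB_a₄, EB_a₆] at h
  linear_combination 4 * h + x ^ 2 * hb2 + 2 * x * hb4 + hb6

/-- `4 F_x = 2 a₁ ψ₂ - f'(x)`. -/
lemma four_Fx (hN : NodeRoots W A e₁ e₂ e₃) (x y : QB) :
    4 * (((W.a₁ : ℤ) : QB) * y - (3 * x ^ 2 + 2 * ((W.a₂ : ℤ) : QB) * x + ((W.a₄ : ℤ) : QB)))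
      = 2 * ((W.a₁ : ℤ) : QB) * (2 * y + ((W.a₁ : ℤ) : QB) * x + ((W.a₃ : ℤ) : QB))
        - 4 * ((x - e₂) * (x - e₃) + (x - e₁) * (x - e₃))
        - 4 * ((x - e₁) * (x - e₂)) := by
  have hb2 := hN.tt.hb2
  have hb4 := hN.tt.hb4
  simp only [WeierstrassCurve.b₂, WeierstrassCurve.b₄] at hb2 hb4
  rw [EB_a₁, EB_a₂] at hb2
  rw [EB_a₁, EB_a₃, EB_a₄] at hb4
  linear_combination (-2 * x) * hb2 - 2 * hb4

end main

/-- (BR-ZC) at an odd prime. -/
theorem stmt_BRzc_odd {ℓ : ℕ} (hℓ : ℓ.Prime) (hℓ2 : ℓ ≠ 2) : Stmt_BRzc ℓ := by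
  intro W _ _ _ A hA e₁ e₂ e₃ hN P hP
  have hqK : ((ℓ : ℕ) : QB) ∈ A.nonunits := hA
  have h2 : A.valuation (2 : QB) = 1 := by
    have := valuation_natCast_eq_one_of_ne (A := A) hℓ hqK Nat.prime_two (Ne.symm hℓ2)
    simpa using this
  have h4 : A.valuation (4 : QB) = 1 := by
    have : (4 : QB) = 2 * 2 := by norm_num
    rw [this, map_mul, h2, mul_one]
  have hd12 : A.valuation (e₂ - e₁) < 1 := by
    have := hN.d12_lt
    rwa [h4] at this
  have hd13 : A.valuation (e₃ - e₁) = 1 := by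
    have := hN.d13
    rwa [map_mul, h4, one_mul] at this
  have hd23 : A.valuation (e₃ - e₂) = 1 := by
    have := hN.d23
    rwa [map_mul, h4, one_mul] at this
  have ha1 : A.valuation ((W.a₁ : ℤ) : QB) ≤ 1 := valuation_intCast_le_one A _
  rcases P with _ | ⟨x, y, h⟩
  · exact absurd rfl hP
  show W.InZeroComponentAt A (Point.some x y h) ↔ 1 ≤ A.valuation (x - e₁)
  -- the relations between the three differences
  have hx2 : x - e₂ = (x - e₁) - (e₂ - e₁) := by ring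
  have hx3 : x - e₃ = (x - e₁) - (e₃ - e₁) := by ring
  constructor
  · intro hZ
    rcases Fermat.Agent.S12.H66.zc_unpack W A x y h hZ with hx | ⟨hx, hy, hpart⟩
    · have hx1 : 1 < A.valuation x := by
        rw [← not_le, A.valuation_le_one_iff]; exact hx
      rw [Valuation.map_sub_eq_of_lt_left _ (lt_of_le_of_lt hN.e1_le hx1)]
      exact hx1.le
    · by_contra hlt
      rw [not_le] at hlt
      have hlt2 : A.valuation (x - e₂) < 1 := by
        rw [hx2]; exact Valuation.map_sub_lt _ hlt hd12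
      have hle3 : A.valuation (x - e₃) ≤ 1 := by
        rw [hx3]; exact Valuation.map_sub_le _ hlt.le hd13.le
      have hψ : A.valuation (2 * y + ((W.a₁ : ℤ) : QB) * x + ((W.a₃ : ℤ) : QB)) < 1 := by
        by_contra hge
        rw [not_lt] at hge
        have h1 : 1 ≤ A.valuation ((2 * y + ((W.a₁ : ℤ) : QB) * x + ((W.a₃ : ℤ) : QB)) ^ 2) := by
          rw [map_pow]; exact one_le_pow₀ hge
        rw [psi_sq hN h.1, map_mul, h4, one_mul, map_mul, map_mul] at h1
        have h2' : A.valuation (x - e₁) * A.valuation (x - e₂) * A.valuation (x - e₃) < 1 :=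
          mul_lt_one_of_nonneg_of_lt_one_left zero_le
            (mul_lt_one_of_nonneg_of_lt_one_left zero_le hlt hlt2.le) hle3
        exact absurd h1 (not_le.2 h2')
      have hFx : A.valuation (((W.a₁ : ℤ) : QB) * y
          - (3 * x ^ 2 + 2 * ((W.a₂ : ℤ) : QB) * x + ((W.a₄ : ℤ) : QB))) < 1 := by
        have h4F : A.valuation (4 * (((W.a₁ : ℤ) : QB) * y
            - (3 * x ^ 2 + 2 * ((W.a₂ : ℤ) : QB) * x + ((W.a₄ : ℤ) : QB)))) < 1 := by
          rw [four_Fx hN x y]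
          apply Valuation.map_sub_lt
          · apply Valuation.map_sub_lt
            · rw [map_mul, map_mul, h2, one_mul]
              exact mul_lt_one_of_nonneg_of_lt_one_right ha1 zero_le hψ
            · rw [map_mul, h4, one_mul]
              apply Valuation.map_add_lt
              · rw [map_mul]
                exact mul_lt_one_of_nonneg_of_lt_one_left zero_le hlt2 hle3
              · rw [map_mul]
                exact mul_lt_one_of_nonneg_of_lt_one_left zero_le hlt hle3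
          · rw [map_mul, h4, one_mul, map_mul]
            exact mul_lt_one_of_nonneg_of_lt_one_left zero_le hlt hlt2.le
        rwa [map_mul, h4, one_mul] at h4F
      rcases hpart with hp | hp
      · exact hp hFx
      · exact hp hψ
  · intro hge
    by_cases hx : A.valuation x ≤ 1
    · have hy : A.valuation y ≤ 1 := val_y_le_one_int W A x y h.1 hx
      have hle1 : A.valuation (x - e₁) ≤ 1 := Valuation.map_sub_le _ hx hN.e1_le
      have heq1 : A.valuation (x - e₁) = 1 := le_antisymm hle1 hge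
      have heq2 : A.valuation (x - e₂) = 1 := by
        rw [hx2, Valuation.map_sub_eq_of_lt_left _ (by rw [heq1]; exact hd12), heq1]
      have hle3 : A.valuation (x - e₃) ≤ 1 := by
        rw [hx3]; exact Valuation.map_sub_le _ hle1 hd13.le
      apply zc_pack W A x y h hx hy
      rcases lt_or_eq_of_le hle3 with hlt3 | heq3
      · left
        have hψ : A.valuation (2 * y + ((W.a₁ : ℤ) : QB) * x + ((W.a₃ : ℤ) : QB)) < 1 := by
          by_contra hge'
          rw [not_lt] at hge'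
          have h1 : 1 ≤ A.valuation
              ((2 * y + ((W.a₁ : ℤ) : QB) * x + ((W.a₃ : ℤ) : QB)) ^ 2) := by
            rw [map_pow]; exact one_le_pow₀ hge'
          rw [psi_sq hN h.1, map_mul, h4, one_mul, map_mul, map_mul, heq1, heq2, one_mul,
            one_mul] at h1
          exact absurd h1 (not_le.2 hlt3)
        have h4F : A.valuation (4 * (((W.a₁ : ℤ) : QB) * y
            - (3 * x ^ 2 + 2 * ((W.a₂ : ℤ) : QB) * x + ((W.a₄ : ℤ) : QB)))) = 1 := by
          rw [four_Fx hN x y]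
          have hlast : A.valuation (4 * ((x - e₁) * (x - e₂))) = 1 := by
            rw [map_mul, h4, one_mul, map_mul, heq1, heq2, one_mul]
          rw [Valuation.map_sub_eq_of_lt_right, hlast]
          rw [hlast]
          apply Valuation.map_sub_lt
          · rw [map_mul, map_mul, h2, one_mul]
            exact mul_lt_one_of_nonneg_of_lt_one_right ha1 zero_le hψ
          · rw [map_mul, h4, one_mul]
            apply Valuation.map_add_lt
            · rw [map_mul, heq2, one_mul]; exact hlt3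
            · rw [map_mul, heq1, one_mul]; exact hlt3
        rwa [map_mul, h4, one_mul] at h4F
      · right
        have hsq : A.valuation ((2 * y + ((W.a₁ : ℤ) : QB) * x + ((W.a₃ : ℤ) : QB)) ^ 2)
            = 1 := by
          rw [psi_sq hN h.1, map_mul, h4, one_mul, map_mul, map_mul, heq1, heq2, heq3,
            one_mul, one_mul]
        rw [map_pow] at hsq
        exact (pow_eq_one_iff_of_nonneg zero_le two_ne_zero).1 hsq
    · right
      refine ⟨x, y, h, rfl, Or.inl ?_⟩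
      rw [← A.valuation_le_one_iff]
      exact hx

end Fermat.Agent.S15.H66

end
-- ==== END Fermat.Agent.S15.H66_BRzcOdd

-- ==== BEGIN Fermat.Agent.S15.H67_BridgeAsm
section

set_option autoImplicit false
set_option synthInstance.maxHeartbeats 400000

noncomputable section

open AlgebraicCurve ModularCurve
open WeierstrassCurve WeierstrassCurve.Affine

namespace Fermat.Agent.S15.H67

open Fermat.Agent.S15 Fermat.Agent.S13

/-- At a prime of multiplicative reduction `|j(W)| > 1`. -/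
theorem one_lt_val_jRat (W : WeierstrassCurve ℤ) (hΔ : W.Δ ≠ 0) {ℓ : ℕ} (hℓ : ℓ.Prime)
    (hℓΔ : (ℓ : ℤ) ∣ W.Δ) (hℓc : ¬ (ℓ : ℤ) ∣ W.c₄) (A : ValuationSubring Qb)
    (hA : A.LiesOverPrime ℓ) : 1 < A.valuation ((jRat W : ℚ) : Qb) := by
  have h1 : A.valuation ((W.c₄ : ℤ) : Qb) = 1 :=
    H63.val_intCast_eq_one_of_not_dvd hℓ hA hℓc
  have h2 : A.valuation ((W.Δ : ℤ) : Qb) < 1 :=
    Fermat.Agent.S12.H67.val_intCast_lt_one_of_dvd hA hℓΔ
  have h3 : A.valuation ((W.Δ : ℤ) : Qb) ≠ 0 := by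
    rw [Ne, map_eq_zero]
    exact_mod_cast hΔ
  have hj : ((jRat W : ℚ) : Qb) = ((W.c₄ : ℤ) : Qb) ^ 3 / ((W.Δ : ℤ) : Qb) := by
    simp [jRat]
  rw [hj, map_div₀, map_pow, h1, one_pow]
  rw [one_lt_div₀ (zero_lt_iff.mpr h3)]
  exact h2

section order

variable {Γ : Type*} [LinearOrderedCommGroupWithZero Γ]

/-- From the dichotomy and the coarse bounds to the exact relations. -/
theorem exact_of_dich {a b : Γ} {p : ℕ} (hp : 2 ≤ p) (ha : 1 < a)
    (hd : b ^ p = a ∨ b = a ^ p) :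
    (b < a ^ p → b ^ p = a) ∧ (a ≤ b → b = a ^ p) := by
  refine ⟨fun h => ?_, fun h => ?_⟩
  · rcases hd with hd | hd
    · exact hd
    · exact absurd hd (ne_of_lt h)
  · rcases hd with hd | hd
    · exfalso
      have hb : 1 < b := by
        by_contra hb
        rw [not_lt] at hb
        have : b ^ p ≤ 1 := pow_le_one₀ zero_le' hb
        rw [hd] at this
        exact absurd ha (not_lt.mpr this)
      have h1 : b < b ^ p := by
        calc b = b ^ 1 := (pow_one b).symm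
          _ < b ^ p := pow_lt_pow_right₀ hb (by omega)
      rw [hd] at h1
      exact absurd h (not_le.mpr h1)
    · exact hd

end order

/-- **BRIDGE (Fricke-dual form) from its inputs.** -/
theorem bridge'_of_inputs (hdef : Stmt_BRdef) (hval : Stmt_BRval) (han : Stmt_BRan)
    (hplace : Stmt_BRplace) (hdich : Stmt_BRnewton_dich) (huniq : Stmt_BRnewton_uniq)
    (hgal : Stmt_BRgal) (hB3 : Stmt_B3)
    (p : ℕ) [NeZero p] (hp : p.Prime) (hp2 : p ≠ 2) : Stmt_bridge' p := by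
  intro W hΔ Q hQfix hQord h2Δ h2c h2 Pinf P0 hc
  obtain ⟨β, hβ⟩ := hdef p hp hp2 W hΔ Q hQfix hQord
  obtain ⟨x, hx1, hxv⟩ := hplace p hp ((β : ℚ) : Qb) ((jRat W : ℚ) : Qb)
    (han p hp hp2 W hΔ h2Δ h2c Q hQord β hβ)
  have hp2' : 2 ≤ p := hp.two_le
  -- the exact relations at a prime of multiplicative reduction
  have hexact : ∀ ℓ : ℕ, ℓ.Prime → ℓ ≠ p → (ℓ : ℤ) ∣ W.Δ → ¬ (ℓ : ℤ) ∣ W.c₄ →
      ∀ A : ValuationSubring Qb, A.LiesOverPrime ℓ →
        1 < A.valuation ((jRat W : ℚ) : Qb) ∧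
        (¬ W.InZeroComponentAt A Q →
          A.valuation ((β : ℚ) : Qb) ^ p = A.valuation ((jRat W : ℚ) : Qb)) ∧
        (W.InZeroComponentAt A Q →
          A.valuation ((β : ℚ) : Qb) = A.valuation ((jRat W : ℚ) : Qb) ^ p) := by
    intro ℓ hℓ hℓp hℓΔ hℓc A hA
    have ha := one_lt_val_jRat W hΔ hℓ hℓΔ hℓc A hA
    have hd := hdich p hp x _ _ hxv A ha
    have hv := hval p hp hp2 W hΔ Q hQfix hQord β hβ ℓ hℓ hℓp hℓΔ hℓc A hA
    have he := exact_of_dich hp2' ha hd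
    exact ⟨ha, fun h => he.1 (hv.2 h), fun h => he.2 (hv.1 h)⟩
  refine ⟨x, hx1, ?_, ?_⟩
  · -- Galois-fixed
    intro σ
    obtain ⟨A, hA⟩ := Fermat.Agent.Lib.FrobExists.exists_liesOverPrime 2 Nat.prime_two
    obtain ⟨ha, hb, -⟩ := hexact 2 Nat.prime_two (fun h => hp2 h.symm)
      (by exact_mod_cast h2Δ) (by exact_mod_cast h2c) A hA
    have hσ := hgal p hp x _ _ σ hxv
    have e1 : σ ((β : ℚ) : Qb) = ((β : ℚ) : Qb) := by
      rw [← eq_ratCast (algebraMap ℚ Qb) β]; exact σ.commutes β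
    have e2 : σ ((jRat W : ℚ) : Qb) = ((jRat W : ℚ) : Qb) := by
      rw [← eq_ratCast (algebraMap ℚ Qb) (jRat W)]; exact σ.commutes _
    rw [e1, e2] at hσ
    exact huniq p hp _ _ _ _ hσ hxv A ha (hb (h2 A hA))
  · intro ℓ hℓ hℓp hℓΔ hℓc A hA h
    obtain ⟨ha, hb, hb'⟩ := hexact ℓ hℓ hℓp hℓΔ hℓc A hA
    have h3 := hB3 p hp Pinf P0 hc x _ _ hxv ℓ hℓ hℓp A hA h ha
    exact ⟨fun hz => h3.1 (hb hz), fun hz => h3.2 (hb' hz)⟩

end Fermat.Agent.S15.H67

end
end
-- ==== END Fermat.Agent.S15.H67_BridgeAsm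

-- ==== BEGIN Fermat.Agent.S15.H83_Elem
section

set_option autoImplicit false

namespace Fermat.Agent.S15

open WeierstrassCurve WeierstrassCurve.Affine IsLocalRing
open Fermat.Agent.Lib.RedE0
open Fermat.Agent.Lib.EllFinite Fermat.Agent.Lib.EllFinite.H4 Fermat.Agent.Lib.EllFinite.H46

/-- (ELEM, weak form) a rational point of prime order `p` in the identity component at a prime
`ℓ ≠ p` of multiplicative reduction forces `p ≤ ℓ + 1`. -/
def Stmt_elemLe : Prop :=
  ∀ (p : ℕ), p.Prime → ∀ (W : WeierstrassCurve ℤ), W.Δ ≠ 0 →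
  ∀ Q : ((W.map (Int.castRingHom ℚ))⁄(AlgebraicClosure ℚ)).Point,
    (∀ σ : GalQ, σ • Q = Q) → addOrderOf Q = p →
    ∀ ℓ : ℕ, ℓ.Prime → ℓ ≠ p → (ℓ : ℤ) ∣ W.Δ → ¬ (ℓ : ℤ) ∣ W.c₄ →
      ∀ (A : ValuationSubring (AlgebraicClosure ℚ)), A.LiesOverPrime ℓ →
        W.InZeroComponentAt A Q → p ≤ ℓ + 1

namespace H83

section Bridge

variable (W : WeierstrassCurve ℤ) (A : ValuationSubring (AlgebraicClosure ℚ))

/-- The special fibre of the model over `A` is the prelude's reduced curve. -/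
lemma Ek_WA_eq_map :
    Ek A (WA W A) = (W.map (Int.castRingHom (ResidueField A))).toAffine := by
  show (W.map (Int.castRingHom A)).map (residue A) = W.map (Int.castRingHom (ResidueField A))
  rw [WeierstrassCurve.map_map]
  exact congrArg W.map (RingHom.ext_int _ _)

/-- Transport of the prelude's points to the model over `A`. -/
noncomputable def toEF :
    ((W.map (Int.castRingHom ℚ))⁄(AlgebraicClosure ℚ)).Point ≃+ (EF A (WA W A)).Point :=
  pointCongr (EF_WA_eq W A).symm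

lemma toEF_zero : toEF W A 0 = 0 := map_zero _

lemma toEF_some {x y : AlgebraicClosure ℚ}
    (h : ((W.map (Int.castRingHom ℚ))⁄(AlgebraicClosure ℚ)).Nonsingular x y) :
    toEF W A (.some x y h) = .some x y ((EF_WA_eq W A).symm ▸ h) :=
  pointCongr_some _ _

lemma toEF_eq_some {P : ((W.map (Int.castRingHom ℚ))⁄(AlgebraicClosure ℚ)).Point}
    {x y : AlgebraicClosure ℚ} (h : (EF A (WA W A)).Nonsingular x y)
    (e : toEF W A P = .some x y h) :
    P = .some x y ((EF_WA_eq W A) ▸ h) := by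
  apply (toEF W A).injective
  rw [e, toEF_some]

variable [DecidableEq (ResidueField A)]

variable {W A} in
/-- The prelude's `InZeroComponentAt` gives membership in `E0`. -/
theorem mem_E0_of_inZeroComponentAt
    {Q : ((W.map (Int.castRingHom ℚ))⁄(AlgebraicClosure ℚ)).Point}
    (h : W.InZeroComponentAt A Q) :
    toEF W A Q ∈ E0 A (WA W A) := by
  rcases h with h0 | ⟨x, y, hns, hQ, hx | ⟨hx, hy, hk⟩⟩
  · have e : toEF W A Q = 0 := by rw [h0]; exact toEF_zero W A
    rw [e]; exact (E0 A (WA W A)).zero_mem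
  · have e : toEF W A Q = .some x y ((EF_WA_eq W A).symm ▸ hns) := by
      rw [hQ]; exact toEF_some W A hns
    rw [e]
    apply E1_le_E0
    rw [mem_E1_iff, inE1_some_iff]
    rw [← A.valuation_le_one_iff, not_le] at hx
    exact hx
  · have e : toEF W A Q = .some x y ((EF_WA_eq W A).symm ▸ hns) := by
      rw [hQ]; exact toEF_some W A hns
    rw [e]
    have hk' : (Ek A (WA W A)).Nonsingular (residue A ⟨x, hx⟩) (residue A ⟨y, hy⟩) := by
      rw [Ek_WA_eq_map]; exact hk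
    exact ⟨_, Or.inr (intRedTo_some (a := ⟨x, hx⟩) (b := ⟨y, hy⟩)
      ((EF_WA_eq W A).symm ▸ hns) hk')⟩

end Bridge

section Rat

variable {A : ValuationSubring (AlgebraicClosure ℚ)}

/-- The residue of a rational number which is integral at `A` lies in the prime field. -/
theorem residue_rat_mem_range {ℓ : ℕ} [Fact ℓ.Prime] (hA : A.LiesOverPrime ℓ)
    (f : ZMod ℓ →+* ResidueField A) (a : A) (r : ℚ)
    (har : (a : AlgebraicClosure ℚ) = algebraMap ℚ (AlgebraicClosure ℚ) r) :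
    residue A a ∈ f.range := by
  have hℓ : ℓ.Prime := Fact.out
  have hq : ((ℓ : ℕ) : AlgebraicClosure ℚ) ∈ A.nonunits := hA
  -- `a * den = num` in `A`
  have h1 : (a : AlgebraicClosure ℚ) * ((r.den : ℤ) : AlgebraicClosure ℚ)
      = ((r.num : ℤ) : AlgebraicClosure ℚ) := by
    rw [har]
    have : (r : ℚ) * (r.den : ℚ) = (r.num : ℚ) := Rat.mul_den_eq_num r
    have h2 := congrArg (algebraMap ℚ (AlgebraicClosure ℚ)) this
    rw [map_mul] at h2
    simpa using h2
  -- `ℓ ∤ den`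
  have hden : ¬ (ℓ : ℤ) ∣ (r.den : ℤ) := by
    intro hd
    have hv : A.valuation ((r.num : ℤ) : AlgebraicClosure ℚ) < 1 := by
      rw [← h1, map_mul]
      calc A.valuation (a : AlgebraicClosure ℚ) * A.valuation ((r.den : ℤ) : AlgebraicClosure ℚ)
          ≤ 1 * A.valuation ((r.den : ℤ) : AlgebraicClosure ℚ) := by
            gcongr; exact A.valuation_le_one a
        _ = A.valuation ((r.den : ℤ) : AlgebraicClosure ℚ) := one_mul _
        _ < 1 := Fermat.Agent.S05.H15.valuation_intCast_lt_one_of_dvd hq hd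
    have hn : (ℓ : ℤ) ∣ r.num := (Fermat.Agent.S05.H15.valuation_intCast_lt_one_iff hℓ hq).1 hv
    have hcop : Nat.Coprime r.num.natAbs r.den := r.reduced
    have h3 : ℓ ∣ r.num.natAbs := Int.natCast_dvd.1 hn
    have h4 : ℓ ∣ r.den := Int.natCast_dvd_natCast.1 hd
    have := Nat.dvd_gcd h3 h4
    rw [hcop.gcd_eq_one] at this
    exact hℓ.one_lt.ne' (Nat.dvd_one.1 this)
  have hden' : ((r.den : ℤ) : ZMod ℓ) ≠ 0 := by
    rw [Ne, ZMod.intCast_zmod_eq_zero_iff_dvd]
    exact hden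
  have hfden : f ((r.den : ℤ) : ZMod ℓ) ≠ 0 := (map_ne_zero f).2 hden'
  -- the identity in the residue field
  have h5 : residue A a * f ((r.den : ℤ) : ZMod ℓ) = f ((r.num : ℤ) : ZMod ℓ) := by
    have h6 : a * ((r.den : ℤ) : A) = ((r.num : ℤ) : A) := by
      apply Subtype.ext
      push_cast
      exact_mod_cast h1
    have h7 := congrArg (residue A) h6
    rw [map_mul, map_intCast, map_intCast] at h7
    rw [map_intCast, map_intCast]
    exact h7
  refine ⟨((r.num : ℤ) : ZMod ℓ) / ((r.den : ℤ) : ZMod ℓ), ?_⟩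
  rw [map_div₀, div_eq_iff hfden, h5]

end Rat

/-- **ELEM (weak form)**. -/
theorem stmt_elemLe : Stmt_elemLe := by
  classical
  intro p hp W _ Q hfix hord ℓ hℓ hℓp hℓΔ hℓc A hA hin
  have : Fact ℓ.Prime := ⟨hℓ⟩
  have hchar : CharP (ResidueField A) ℓ := charP_residueField A hℓ hA
  have hpk : (p : ResidueField A) ≠ 0 := natCast_residue_ne_zero hℓ hp (Ne.symm hℓp) hA
  let f : ZMod ℓ →+* ResidueField A := ZMod.castHom (dvd_refl ℓ) (ResidueField A)
  set Q' : (EF A (WA W A)).Point := toEF W A Q with hQ'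
  have hQ'ord : addOrderOf Q' = p := by
    rw [hQ', ← hord]
    exact (toEF W A).addOrderOf_eq Q
  have hQ'0 : Q' ∈ E0 A (WA W A) := mem_E0_of_inZeroComponentAt hin
  have hW₀ : (W.map (Int.castRingHom (ZMod ℓ))).map f = (WA W A).map (residue A) := by
    show (W.map (Int.castRingHom (ZMod ℓ))).map f = (W.map (Int.castRingHom A)).map (residue A)
    rw [WeierstrassCurve.map_map, WeierstrassCurve.map_map]
    congr 1
    exact RingHom.ext_int _ _
  have hΔ₀ : (W.map (Int.castRingHom (ZMod ℓ))).Δ = 0 := by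
    rw [WeierstrassCurve.map_Δ]
    show ((W.Δ : ℤ) : ZMod ℓ) = 0
    rw [ZMod.intCast_zmod_eq_zero_iff_dvd]
    exact hℓΔ
  have hc₀ : (W.map (Int.castRingHom (ZMod ℓ))).c₄ ≠ 0 := by
    rw [WeierstrassCurve.map_c₄]
    show ((W.c₄ : ℤ) : ZMod ℓ) ≠ 0
    rw [Ne, ZMod.intCast_zmod_eq_zero_iff_dvd]
    exact hℓc
  have hrat : ∀ (k : ℕ) (a b : A)
      (h : (EF A (WA W A)).Nonsingular (a : AlgebraicClosure ℚ) (b : AlgebraicClosure ℚ)),
      k • Q' = .some _ _ h → residue A a ∈ f.range ∧ residue A b ∈ f.range := by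
    intro k a b h hk
    -- back to the prelude's curve
    have hk'' : k • Q = .some (a : AlgebraicClosure ℚ) (b : AlgebraicClosure ℚ)
        ((EF_WA_eq W A) ▸ h) := by
      apply toEF_eq_some W A h
      rw [map_nsmul]
      exact hk
    have hfixk : ∀ σ : GalQ, σ • (k • Q) = k • Q := by
      intro σ
      have := Point.algEquiv_smul_zsmul (W' := (W.map (Int.castRingHom ℚ)).toAffine) σ (k : ℤ) Q
      rw [natCast_zsmul, natCast_zsmul, hfix σ] at this
      exact this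
    have hab : ∀ σ : GalQ, σ (a : AlgebraicClosure ℚ) = a ∧ σ (b : AlgebraicClosure ℚ) = b := by
      intro σ
      have h1 := hfixk σ
      rw [hk'', Point.algEquiv_smul_def, Point.map_some] at h1
      simp only [Point.some.injEq] at h1
      exact h1
    obtain ⟨ra, hra⟩ := Fermat.Agent.S13.H12.exists_rat_of_fixed (a : AlgebraicClosure ℚ)
      (fun σ => (hab σ).1)
    obtain ⟨rb, hrb⟩ := Fermat.Agent.S13.H12.exists_rat_of_fixed (b : AlgebraicClosure ℚ)
      (fun σ => (hab σ).2)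
    exact ⟨residue_rat_mem_range hA f a ra hra.symm, residue_rat_mem_range hA f b rb hrb.symm⟩
  have := order_le_card_add_one f (W.map (Int.castRingHom (ZMod ℓ))) hW₀ hΔ₀ hc₀ hpk hQ'ord hQ'0
    hrat
  rwa [Nat.card_zmod] at this

/-- The form used by the wiring: `ℓ ∤ p - 1`. -/
theorem not_dvd_pred_of_inZero {p : ℕ} (hp : p.Prime) (hp3 : p ≠ 3) (W : WeierstrassCurve ℤ)
    (hΔ : W.Δ ≠ 0) (Q : ((W.map (Int.castRingHom ℚ))⁄(AlgebraicClosure ℚ)).Point)
    (hfix : ∀ σ : GalQ, σ • Q = Q) (hord : addOrderOf Q = p)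
    {ℓ : ℕ} (hℓ : ℓ.Prime) (hℓp : ℓ ≠ p) (hℓΔ : (ℓ : ℤ) ∣ W.Δ) (hℓc : ¬ (ℓ : ℤ) ∣ W.c₄)
    (A : ValuationSubring (AlgebraicClosure ℚ)) (hA : A.LiesOverPrime ℓ)
    (hin : W.InZeroComponentAt A Q) : ¬ ℓ ∣ p - 1 := by
  intro hd
  have hle := stmt_elemLe p hp W hΔ Q hfix hord ℓ hℓ hℓp hℓΔ hℓc A hA hin
  have hp1 : 0 < p - 1 := by
    have := hp.two_le
    omega
  have hle' : ℓ ≤ p - 1 := Nat.le_of_dvd hp1 hd
  have hpl : p = ℓ + 1 := by omega
  -- `p` and `ℓ = p - 1` both prime: `p = 3`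
  rcases Nat.even_or_odd ℓ with he | ho
  · have : ℓ = 2 := (Nat.Prime.even_iff hℓ).mp he
    omega
  · have h2 : 2 ∣ p := by
      rw [hpl]
      exact (Nat.even_add_one.mpr (Nat.not_even_iff_odd.mpr ho)).two_dvd
    have := (Nat.prime_dvd_prime_iff_eq Nat.prime_two hp).1 h2
    have := hℓ.two_le
    omega

end H83

end Fermat.Agent.S15

end
-- ==== END Fermat.Agent.S15.H83_Elem

-- ==== BEGIN Fermat.Agent.S15.Wiring
section

/-!
# S15 (Mazur's key step): wiring  (helper83; plan `NOTES/plan/S15.md`)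

Sorry-free proofs of

* `core` : the CORE statement on rational places of `X₀(p)` (no rational place reduces to the
  cusp `P0` at `2` and at `3` and to the cusp `P∞` at a prime `ℓ ≠ p`, `ℓ ∤ p - 1`), from the
  leaves `Stmt_S18`, `Stmt_GH`, `Stmt_HR`, `Stmt_redFG`, `Stmt_cusp*`, `Stmt_descent`;
* `result_of_inputs` : the frozen statement S15 from `core`'s leaves, `Stmt_redInputs`,
  `Stmt_cuspExists`, `Stmt_bridge` and `Stmt_elem`;
* `stmt_redFG_of_S17` : `Stmt_redFG` follows from Mordell–Weil (frozen S17), if one prefers.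
-/

set_option autoImplicit false
set_option synthInstance.maxHeartbeats 400000

noncomputable section

open HahnSeries IntermediateField AlgebraicCurve ModularCurve
open WeierstrassCurve WeierstrassCurve.Affine

namespace Fermat.Agent.S15

/-! ## Classes of differences of places -/

section PtClass

variable {K F : Type*} [Field K] [Field F] [Algebra K F]

theorem ptClass_self (P : Place K F) (hP : P.deg = 1) : ptClass P P hP hP = 0 := by
  have h : (⟨Finsupp.single P 1 - Finsupp.single P 1, by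
      rw [Divisor.mem_degZero, map_sub, sub_self]⟩ : Divisor.degZero (K := K) (F := F)) = 0 :=
    Subtype.ext (sub_self _)
  rw [ptClass, h]
  rfl

theorem ptClass_congr {P P' Q Q' : Place K F} (hPP : P = P') (hQQ : Q = Q')
    (hP : P.deg = 1) (hQ : Q.deg = 1) (hP' : P'.deg = 1) (hQ' : Q'.deg = 1) :
    ptClass P Q hP hQ = ptClass P' Q' hP' hQ' := by
  subst hPP
  subst hQQ
  rfl

end PtClass

theorem red_ptClass {N : ℕ} {A : ValuationSubring (AlgebraicClosure ℚ)}
    (h : ReductionInputsModL A N) (P Q : PlaceBar N) (hP : P.deg = 1) (hQ : Q.deg = 1) :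
    reductionModL A N (ptClass P Q hP hQ) =
      ptClass (placeReductionModL h P) (placeReductionModL h Q)
        (by rw [(isPlaceReductionModL_placeReductionModL h).1, hP])
        (by rw [(isPlaceReductionModL_placeReductionModL h).1, hQ]) := by
  rw [ptClass, reductionModL_mk h]
  refine congrArg Pic0.mk (Subtype.ext ?_)
  rw [coe_reductionDegZeroAlong]
  show Finsupp.mapDomain (placeReductionModL h) (Finsupp.single P 1 - Finsupp.single Q 1) = _
  rw [Finsupp.mapDomain_sub, Finsupp.mapDomain_single, Finsupp.mapDomain_single]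

theorem deg_galPlace {N : ℕ} (σ : GalQ) (P : PlaceBar N) : (galPlace N σ P).deg = P.deg :=
  SemilinearAut.deg_smul _ P

theorem gal_smul_ptClass {N : ℕ} (σ : GalQ) (P Q : PlaceBar N) (hP : P.deg = 1)
    (hQ : Q.deg = 1) :
    σ • ptClass P Q hP hQ =
      ptClass (galPlace N σ P) (galPlace N σ Q)
        ((deg_galPlace σ P).trans hP) ((deg_galPlace σ Q).trans hQ) := by
  rw [ptClass, galois_smul_pic0_def, SemilinearAut.pic0_smul_mk]
  refine congrArg Pic0.mk (Subtype.ext ?_)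
  rw [SemilinearAut.coe_degZeroSMulHom]
  show arithmeticGalois (modularFunctionFieldFull N) σ •
      (Finsupp.single P 1 - Finsupp.single Q 1 : Divisor (AlgebraicClosure ℚ) _) = _
  rw [smul_sub, SemilinearAut.smul_single, SemilinearAut.smul_single]
  rfl

theorem ptClass_mem_ratPts {N : ℕ} (P Q : PlaceBar N) (hP : P.deg = 1) (hQ : Q.deg = 1)
    (hPfix : ∀ σ : GalQ, galPlace N σ P = P) (hQfix : ∀ σ : GalQ, galPlace N σ Q = Q) :
    ptClass P Q hP hQ ∈ ratPts N := by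
  intro σ
  rw [gal_smul_ptClass]
  exact ptClass_congr (hPfix σ) (hQfix σ) _ _ _ _

/-! ## Torsion injectivity on multiples of the cuspidal class -/

/-- If `r ∣ addOrderOf κ`, `r` a prime different from the prime `ℓ₀`, and torsion of order `r`
injects under `red` (S18), then `red (k • κ) = 0` forces `r ∣ k`. -/
theorem dvd_of_red_zsmul_eq_zero {G Y : Type*} [AddCommGroup G] [AddCommGroup Y] (red : G →+ Y)
    (κ : G) (r : ℕ) (hrκ : r ∣ addOrderOf κ) (hκ : addOrderOf κ ≠ 0)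
    (hinj : ∀ z : G, r • z = 0 → red z = 0 → z = 0)
    (k : ℤ) (hk : red (k • κ) = 0) : (r : ℤ) ∣ k := by
  obtain ⟨q, hq⟩ := hrκ
  have hq0 : q ≠ 0 := by
    rintro rfl
    rw [mul_zero] at hq
    exact hκ hq
  set z : G := q • (k • κ) with hz
  have h1 : r • z = 0 := by
    rw [hz, smul_smul, ← hq, smul_comm, addOrderOf_nsmul_eq_zero, smul_zero]
  have h2 : red z = 0 := by rw [hz, map_nsmul, hk, smul_zero]
  have h3 : z = 0 := hinj z h1 h2
  have h4 : ((q : ℤ) * k) • κ = 0 := by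
    rw [mul_smul, Nat.cast_smul_eq_nsmul]
    exact h3
  have h5 : (addOrderOf κ : ℤ) ∣ (q : ℤ) * k := (addOrderOf_dvd_iff_zsmul_eq_zero).mpr h4
  rw [hq] at h5
  push_cast at h5
  have hq0' : (q : ℤ) ≠ 0 := by exact_mod_cast hq0
  have h6 : (r : ℤ) * q ∣ k * q := by rwa [mul_comm k]
  exact (mul_dvd_mul_iff_right hq0').mp h6

/-! ## CORE -/

theorem ptClass_swap {K F : Type*} [Field K] [Field F] [Algebra K F] (P Q : Place K F)
    (hP : P.deg = 1) (hQ : Q.deg = 1) : ptClass Q P hQ hP = -ptClass P Q hP hQ := by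
  have h : (⟨Finsupp.single Q 1 - Finsupp.single P 1, by
      rw [Divisor.mem_degZero, map_sub, Divisor.degree_single, Divisor.degree_single, hP, hQ,
        sub_self]⟩ : Divisor.degZero (K := K) (F := F)) =
      -⟨Finsupp.single P 1 - Finsupp.single Q 1, by
        rw [Divisor.mem_degZero, map_sub, Divisor.degree_single, Divisor.degree_single, hP, hQ,
          sub_self]⟩ :=
    Subtype.ext (neg_sub _ _).symm
  rw [ptClass, ptClass, h]
  rfl

set_option maxHeartbeats 1600000 in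
/-- **CORE, general form**: `T` is any commutative ring acting on `J₀(p)` and preserving the
rational points and the kernels of the reductions, `Ca`, `Cb` are two rational places of degree
one whose class `κ = [Ca - Cb]` is torsion, Eisenstein (for the character `ε : T → ℤ`) and
generates `J₀(p)(ℚ)` modulo the Eisenstein prime over `r ∣ ord κ`.  Then no rational place of
`X₀(p)` reduces to `Cb` at `2` and at `3` and to `Ca` at a prime `ℓ ≠ p` with `ℓ ∤ p - 1`. -/
theorem core_gen (p : ℕ) [NeZero p] (hp : p.Prime) (hp2 : p ≠ 2) (hp3 : p ≠ 3)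
    (hS18 : Stmt_S18) (hFG : Stmt_redFG p)
    {T : Type*} [CommRing T] [Module T (JZero p)] (ε : T →+* ℤ)
    (hsub : ∀ (t : T) (z : JZero p), z ∈ ratPts p → t • z ∈ ratPts p)
    (hHR : ∀ ℓ : ℕ, ℓ.Prime → ℓ ≠ p → ∀ A : ValuationSubring (AlgebraicClosure ℚ),
      A.LiesOverPrime ℓ → ∀ (t : T) (z : JZero p), z ∈ ratPts p → reductionModL A p z = 0 →
        reductionModL A p (t • z) = 0)
    (Ca Cb : PlaceBar p) (ha : Ca.deg = 1) (hb : Cb.deg = 1)
    (hafix : ∀ σ : GalQ, galPlace p σ Ca = Ca) (hbfix : ∀ σ : GalQ, galPlace p σ Cb = Cb)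
    (hκtors : (p - 1) • ptClass Ca Cb ha hb = 0)
    (hκE : ∀ t : T, t • ptClass Ca Cb ha hb = ε t • ptClass Ca Cb ha hb)
    (r : ℕ) (hr : r.Prime) (hrκ : r ∣ addOrderOf (ptClass Ca Cb ha hb))
    (hdesc : ∀ z ∈ ratPts p, ∃ m : ℤ, z - m • ptClass Ca Cb ha hb ∈
      AddSubgroup.closure {v | ∃ t : T, (r : ℤ) ∣ ε t ∧ ∃ w ∈ ratPts p, v = t • w})
    (x : PlaceBar p) (hx1 : x.deg = 1) (hxfix : ∀ σ : GalQ, galPlace p σ x = x)
    (A₂ : ValuationSubring (AlgebraicClosure ℚ)) (hA₂ : A₂.LiesOverPrime 2)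
    (h₂ : ReductionInputsModL A₂ p)
    (hx₂ : placeReductionModL h₂ x = placeReductionModL h₂ Cb)
    (A₃ : ValuationSubring (AlgebraicClosure ℚ)) (hA₃ : A₃.LiesOverPrime 3)
    (h₃ : ReductionInputsModL A₃ p)
    (hx₃ : placeReductionModL h₃ x = placeReductionModL h₃ Cb)
    (ℓ : ℕ) (hℓ : ℓ.Prime) (hℓp : ℓ ≠ p) (hℓn : ¬ ℓ ∣ p - 1)
    (A : ValuationSubring (AlgebraicClosure ℚ)) (hA : A.LiesOverPrime ℓ)
    (h : ReductionInputsModL A p)
    (hxℓ : placeReductionModL h x = placeReductionModL h Ca) : False := by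
  classical
  set κ : JZero p := ptClass Ca Cb ha hb with hκ
  set y : JZero p := ptClass x Cb hx1 hb with hy
  have hp1 : 0 < p - 1 := by
    have := hp.two_le
    omega
  have hκord : addOrderOf κ ∣ p - 1 := addOrderOf_dvd_of_nsmul_eq_zero hκtors
  have hκ0 : addOrderOf κ ≠ 0 := fun h0 => by
    rw [h0, zero_dvd_iff] at hκord
    omega
  have hrp1 : r ∣ p - 1 := hrκ.trans hκord
  have hrℓ : r ≠ ℓ := fun e => hℓn (e ▸ hrp1)
  have hrp : r ≠ p := fun e => by
    have h1 := Nat.le_of_dvd hp1 hrp1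
    omega
  -- the auxiliary prime `ℓ₀ ∈ {2, 3}`, `ℓ₀ ≠ r`
  obtain ⟨ℓ₀, hℓ₀, hℓ₀p, hℓ₀r, A₀, hA₀, h₀, hx₀⟩ :
      ∃ ℓ₀ : ℕ, ℓ₀.Prime ∧ ℓ₀ ≠ p ∧ ℓ₀ ≠ r ∧ ∃ (A₀ : ValuationSubring (AlgebraicClosure ℚ))
        (_ : A₀.LiesOverPrime ℓ₀) (h₀ : ReductionInputsModL A₀ p),
        placeReductionModL h₀ x = placeReductionModL h₀ Cb := by
    by_cases hr2 : r = 2
    · exact ⟨3, Nat.prime_three, fun e => hp3 e.symm, by omega, A₃, hA₃, h₃, hx₃⟩
    · exact ⟨2, Nat.prime_two, fun e => hp2 e.symm, fun e => hr2 e.symm, A₂, hA₂, h₂, hx₂⟩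
  -- the submodule of rational points
  let M : Submodule T (JZero p) :=
    { carrier := {z | z ∈ ratPts p}
      zero_mem' := (ratPts p).zero_mem
      add_mem' := fun {a b} ha hb => (ratPts p).add_mem ha hb
      smul_mem' := fun t z hz => hsub t z hz }
  have hMrat : M.toAddSubgroup = ratPts p := by
    ext z
    rfl
  have hκM : κ ∈ M := ptClass_mem_ratPts Ca Cb ha hb hafix hbfix
  have hyM : y ∈ M := ptClass_mem_ratPts x Cb hx1 hb hxfix hbfix
  -- injectivity of the two reductions on torsion of order `r`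
  have hinj : ∀ (ℓ' : ℕ) (_ : ℓ'.Prime) (_ : ℓ' ≠ p) (_ : ℓ' ≠ r)
      (A' : ValuationSubring (AlgebraicClosure ℚ)) (_ : A'.LiesOverPrime ℓ')
      (_ : ReductionInputsModL A' p) (k : ℤ),
      reductionModL A' p (k • κ) = 0 → (r : ℤ) ∣ k := by
    intro ℓ' hℓ' hℓ'p hℓ'r A' hA' h' k hk
    haveI : Fact ℓ'.Prime := ⟨hℓ'⟩
    have hℓ'N : ¬ ℓ' ∣ p := fun hd => hℓ'p ((Nat.prime_dvd_prime_iff_eq hℓ' hp).mp hd)
    have hℓ'r' : ¬ ℓ' ∣ r := fun hd => hℓ'r ((Nat.prime_dvd_prime_iff_eq hℓ' hr).mp hd)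
    exact dvd_of_red_zsmul_eq_zero (reductionModL A' p) κ r hrκ hκ0
      (fun z hz1 hz2 => hS18 p hℓ'N A' hA' h' r hℓ'r' z hz1 hz2) k hk
  -- the Eisenstein prime
  set 𝔓 : Ideal T := Ideal.comap ε (Ideal.span {(r : ℤ)}) with h𝔓def
  have h𝔓 : ∀ t ∈ 𝔓, (r : ℤ) ∣ ε t := fun t ht =>
    Ideal.mem_span_singleton.mp (Ideal.mem_comap.mp ht)
  have hr1 : ¬ (r : ℤ) ∣ 1 := by
    intro hd
    have := Int.natAbs_dvd_natAbs.mpr hd
    simp only [Int.natAbs_natCast, Int.natAbs_one, Nat.dvd_one] at this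
    exact hr.one_lt.ne' this
  have hD' : ∀ z ∈ M, ∃ m : ℤ, z - m • κ ∈ 𝔓 • M := by
    intro z hz
    obtain ⟨m, hm⟩ := hdesc z hz
    refine ⟨m, ?_⟩
    have hle : AddSubgroup.closure {v | ∃ t : T, (r : ℤ) ∣ ε t ∧ ∃ w ∈ ratPts p, v = t • w}
        ≤ (𝔓 • M).toAddSubgroup := by
      rw [AddSubgroup.closure_le]
      rintro v ⟨t, ht, w, hw, rfl⟩
      exact Submodule.smul_mem_smul (Ideal.mem_comap.mpr (Ideal.mem_span_singleton.mpr ht)) hw
    exact hle hm
  -- `y` reduces to `0` at `ℓ₀`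
  have hy0 : reductionModL A₀ p y = 0 := by
    rw [hy, red_ptClass h₀]
    rw [ptClass_congr hx₀ rfl _ _
      (by rw [(isPlaceReductionModL_placeReductionModL h₀).1, hb])
      (by rw [(isPlaceReductionModL_placeReductionModL h₀).1, hb])]
    exact ptClass_self _ _
  -- `y - κ` reduces to `0` at `ℓ`
  have hyκ : reductionModL A p (y - κ) = 0 := by
    have e1 := red_ptClass h x Cb hx1 hb
    have e2 := red_ptClass h Ca Cb ha hb
    rw [map_sub, sub_eq_zero, hy, hκ, e1, e2]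
    exact ptClass_congr hxℓ rfl _ _ _ _
  exact key_algebra M (reductionModL A₀ p) (reductionModL A p)
    (fun t z hz hz0 => hHR ℓ₀ hℓ₀ hℓ₀p A₀ hA₀ t z hz hz0)
    (fun t z hz hz0 => hHR ℓ hℓ hℓp A hA t z hz hz0)
    (by rw [hMrat]; exact hFG ℓ₀ hℓ₀ hℓ₀p A₀ hA₀)
    (by rw [hMrat]; exact hFG ℓ hℓ hℓp A hA)
    ε κ hκM hκE (r : ℤ) hr1 𝔓 h𝔓 hD'
    (hinj ℓ₀ hℓ₀ hℓ₀p hℓ₀r A₀ hA₀ h₀) (hinj ℓ hℓ hℓp (Ne.symm hrℓ) A hA h) y hyM hy0 hyκ

/-- (EIS) **abstract form of the Hecke inputs**: some commutative ring `T` acts on `J₀(p)`,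
preserving the rational points and the kernels of the reductions modulo `ℓ ≠ p` on them, the
cuspidal class `κ = [P∞ - P0]` is an eigenvector with character `ε : T → ℤ`, and for some prime
`r ∣ ord κ` the group `J₀(p)(ℚ)` is generated by `κ` modulo `𝔓_r J₀(p)(ℚ)`,
`𝔓_r = {t | r ∣ ε t}`.  (The ring may be the full Hecke ring of the prelude, the anemic Hecke
ring, or `ℤ[T_ℓ₀]` for a single good prime `ℓ₀`.) -/
def Stmt_eisData (p : ℕ) [NeZero p] : Prop :=
  ∀ (Pinf P0 : PlaceBar p) (hc : IsCuspPair p Pinf P0),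
    ∃ (T : Type) (_ : CommRing T) (_ : Module T (JZero p)) (ε : T →+* ℤ) (r : ℕ),
      (∀ (t : T) (z : JZero p), z ∈ ratPts p → t • z ∈ ratPts p) ∧
      (∀ ℓ : ℕ, ℓ.Prime → ℓ ≠ p → ∀ A : ValuationSubring (AlgebraicClosure ℚ),
        A.LiesOverPrime ℓ → ∀ (t : T) (z : JZero p), z ∈ ratPts p → reductionModL A p z = 0 →
          reductionModL A p (t • z) = 0) ∧
      (∀ t : T, t • ptClass Pinf P0 hc.deg_inf hc.deg_zero =
        ε t • ptClass Pinf P0 hc.deg_inf hc.deg_zero) ∧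
      r.Prime ∧ r ∣ addOrderOf (ptClass Pinf P0 hc.deg_inf hc.deg_zero) ∧
      ∀ z ∈ ratPts p, ∃ m : ℤ, z - m • ptClass Pinf P0 hc.deg_inf hc.deg_zero ∈
        AddSubgroup.closure {v | ∃ t : T, (r : ℤ) ∣ ε t ∧ ∃ w ∈ ratPts p, v = t • w}

/-- The abstract Hecke inputs from the leaves on the Hecke ring of the prelude. -/
theorem stmt_eisData_of_leaves (p : ℕ) [NeZero p] (hGH : Stmt_GH p) (hHR : Stmt_HR p)
    (hcE : Stmt_cuspEis p) (hD : Stmt_descent p) : Stmt_eisData p := by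
  intro Pinf P0 hc
  obtain ⟨r, hr, hrκ, hdesc⟩ := hD Pinf P0 hc
  refine ⟨HeckeAlg, inferInstance, heckeModuleBar p, eisEval p, r, ?_, ?_, ?_, hr, hrκ, ?_⟩
  · intro t z hz σ
    letI := heckeModuleBar p
    show σ • hsmul p t z = hsmul p t z
    rw [hGH σ t z, hz σ]
  · intro ℓ hℓ hℓp A hA t z hz hz0
    exact hHR ℓ hℓ hℓp A hA t z hz hz0
  · intro t
    exact hcE Pinf P0 hc t
  · intro z hz
    obtain ⟨m, hm⟩ := hdesc z hz
    exact ⟨m, hm⟩

/-- **CORE**: no rational place of `X₀(p)` reduces to the cusp `P0` at `2` and at `3` and to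
the cusp `P∞` at a prime `ℓ ≠ p` with `ℓ ∤ p - 1`. -/
theorem core_of_eisData (p : ℕ) [NeZero p] (hp : p.Prime) (hp2 : p ≠ 2) (hp3 : p ≠ 3)
    (hS18 : Stmt_S18) (hFG : Stmt_redFG p)
    (hcG : Stmt_cuspGal p) (hcT : Stmt_cuspTors p) (hE : Stmt_eisData p)
    (Pinf P0 : PlaceBar p) (hc : IsCuspPair p Pinf P0)
    (x : PlaceBar p) (hx1 : x.deg = 1) (hxfix : ∀ σ : GalQ, galPlace p σ x = x)
    (A₂ : ValuationSubring (AlgebraicClosure ℚ)) (hA₂ : A₂.LiesOverPrime 2)
    (h₂ : ReductionInputsModL A₂ p)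
    (hx₂ : placeReductionModL h₂ x = placeReductionModL h₂ P0)
    (A₃ : ValuationSubring (AlgebraicClosure ℚ)) (hA₃ : A₃.LiesOverPrime 3)
    (h₃ : ReductionInputsModL A₃ p)
    (hx₃ : placeReductionModL h₃ x = placeReductionModL h₃ P0)
    (ℓ : ℕ) (hℓ : ℓ.Prime) (hℓp : ℓ ≠ p) (hℓn : ¬ ℓ ∣ p - 1)
    (A : ValuationSubring (AlgebraicClosure ℚ)) (hA : A.LiesOverPrime ℓ)
    (h : ReductionInputsModL A p)
    (hxℓ : placeReductionModL h x = placeReductionModL h Pinf) : False := by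
  obtain ⟨T, iR, iM, ε, r, hsub, hHR, hκE, hr, hrκ, hdesc⟩ := hE Pinf P0 hc
  exact core_gen p hp hp2 hp3 hS18 hFG ε hsub hHR Pinf P0 hc.deg_inf hc.deg_zero
    (fun σ => (hcG Pinf P0 hc σ).1) (fun σ => (hcG Pinf P0 hc σ).2) (hcT Pinf P0 hc) hκE r hr hrκ
    hdesc x hx1 hxfix A₂ hA₂ h₂ hx₂ A₃ hA₃ h₃ hx₃ ℓ hℓ hℓp hℓn A hA h hxℓ

/-- **CORE, Fricke-dual form**: no rational place of `X₀(p)` reduces to the cusp `P∞` at `2`
and at `3` and to the cusp `P0` at a prime `ℓ ≠ p` with `ℓ ∤ p - 1`. -/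
theorem core'_of_eisData (p : ℕ) [NeZero p] (hp : p.Prime) (hp2 : p ≠ 2) (hp3 : p ≠ 3)
    (hS18 : Stmt_S18) (hFG : Stmt_redFG p)
    (hcG : Stmt_cuspGal p) (hcT : Stmt_cuspTors p) (hE : Stmt_eisData p)
    (Pinf P0 : PlaceBar p) (hc : IsCuspPair p Pinf P0)
    (x : PlaceBar p) (hx1 : x.deg = 1) (hxfix : ∀ σ : GalQ, galPlace p σ x = x)
    (A₂ : ValuationSubring (AlgebraicClosure ℚ)) (hA₂ : A₂.LiesOverPrime 2)
    (h₂ : ReductionInputsModL A₂ p)
    (hx₂ : placeReductionModL h₂ x = placeReductionModL h₂ Pinf)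
    (A₃ : ValuationSubring (AlgebraicClosure ℚ)) (hA₃ : A₃.LiesOverPrime 3)
    (h₃ : ReductionInputsModL A₃ p)
    (hx₃ : placeReductionModL h₃ x = placeReductionModL h₃ Pinf)
    (ℓ : ℕ) (hℓ : ℓ.Prime) (hℓp : ℓ ≠ p) (hℓn : ¬ ℓ ∣ p - 1)
    (A : ValuationSubring (AlgebraicClosure ℚ)) (hA : A.LiesOverPrime ℓ)
    (h : ReductionInputsModL A p)
    (hxℓ : placeReductionModL h x = placeReductionModL h P0) : False := by
  obtain ⟨T, iR, iM, ε, r, hsub, hHR, hκE, hr, hrκ, hdesc⟩ := hE Pinf P0 hc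
  have hsw : ptClass P0 Pinf hc.deg_zero hc.deg_inf = -ptClass Pinf P0 hc.deg_inf hc.deg_zero :=
    ptClass_swap Pinf P0 hc.deg_inf hc.deg_zero
  refine core_gen p hp hp2 hp3 hS18 hFG ε hsub hHR P0 Pinf hc.deg_zero hc.deg_inf
    (fun σ => (hcG Pinf P0 hc σ).2) (fun σ => (hcG Pinf P0 hc σ).1) ?_ ?_ r hr ?_ ?_
    x hx1 hxfix A₂ hA₂ h₂ hx₂ A₃ hA₃ h₃ hx₃ ℓ hℓ hℓp hℓn A hA h hxℓ
  · rw [hsw, neg_nsmul, hcT Pinf P0 hc, neg_zero]
  · intro t
    rw [hsw, smul_neg, hκE t]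
    exact (zsmul_neg _ _).symm
  · rw [hsw, addOrderOf_neg]
    exact hrκ
  · intro z hz
    obtain ⟨m, hm⟩ := hdesc z hz
    refine ⟨-m, ?_⟩
    rw [hsw, neg_smul, smul_neg, neg_neg]
    exact hm

/-- **CORE** from the leaves on the Hecke ring of the prelude. -/
theorem core (p : ℕ) [NeZero p] (hp : p.Prime) (hp2 : p ≠ 2) (hp3 : p ≠ 3)
    (hS18 : Stmt_S18) (hGH : Stmt_GH p) (hHR : Stmt_HR p) (hFG : Stmt_redFG p)
    (hcG : Stmt_cuspGal p) (hcT : Stmt_cuspTors p) (hcE : Stmt_cuspEis p)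
    (hD : Stmt_descent p)
    (Pinf P0 : PlaceBar p) (hc : IsCuspPair p Pinf P0)
    (x : PlaceBar p) (hx1 : x.deg = 1) (hxfix : ∀ σ : GalQ, galPlace p σ x = x)
    (A₂ : ValuationSubring (AlgebraicClosure ℚ)) (hA₂ : A₂.LiesOverPrime 2)
    (h₂ : ReductionInputsModL A₂ p)
    (hx₂ : placeReductionModL h₂ x = placeReductionModL h₂ P0)
    (A₃ : ValuationSubring (AlgebraicClosure ℚ)) (hA₃ : A₃.LiesOverPrime 3)
    (h₃ : ReductionInputsModL A₃ p)
    (hx₃ : placeReductionModL h₃ x = placeReductionModL h₃ P0)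
    (ℓ : ℕ) (hℓ : ℓ.Prime) (hℓp : ℓ ≠ p) (hℓn : ¬ ℓ ∣ p - 1)
    (A : ValuationSubring (AlgebraicClosure ℚ)) (hA : A.LiesOverPrime ℓ)
    (h : ReductionInputsModL A p)
    (hxℓ : placeReductionModL h x = placeReductionModL h Pinf) : False :=
  core_of_eisData p hp hp2 hp3 hS18 hFG hcG hcT (stmt_eisData_of_leaves p hGH hHR hcE hD)
    Pinf P0 hc x hx1 hxfix A₂ hA₂ h₂ hx₂ A₃ hA₃ h₃ hx₃ ℓ hℓ hℓp hℓn A hA h hxℓ

/-! ## `Stmt_redFG` from Mordell–Weil -/

theorem ratPts_eq_fixedPoints (N : ℕ) :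
    ratPts N = FixedPoints.addSubgroup GalQ (JZero N) := by
  ext z
  rw [mem_ratPts, FixedPoints.mem_addSubgroup]

/-- The finiteness input (FG) follows from Mordell–Weil (the frozen statement S17 at level `p`).
(It is much weaker: the reduction of `J₀(p)(ℚ)` modulo `ℓ` is a finite group.) -/
theorem stmt_redFG_of_S17 (p : ℕ) (h17 : Stmt_S17 p) : Stmt_redFG p := by
  classical
  intro ℓ _ _ A _
  have h1 : (ratPts p).FG := by
    rw [ratPts_eq_fixedPoints]
    exact (AddGroup.fg_iff_addSubgroup_fg _).mp h17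
  obtain ⟨S, hS⟩ := h1
  refine ⟨S.image (reductionModL A p), ?_⟩
  rw [Finset.coe_image, ← AddMonoidHom.map_closure, hS]

/-! ## `Stmt_GH` from the commutation of the generators (G-TOR package GalHecke) -/

/-- (GH) follows from the commutation of Galois with the generators `T_ℓ`
(the statement `Fermat.Agent.GTor.Stmt_GalHecke p`, restated here to keep imports small). -/
theorem stmt_GH_of_generators (p : ℕ) [NeZero p]
    (h : ∀ (ℓ : Nat.Primes) (σ : GalQ) (x : JZero p),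
      σ • heckeOperatorBar p ℓ x = heckeOperatorBar p ℓ (σ • x)) :
    Stmt_GH p := by
  intro σ t z
  by_cases hc : HeckeOperatorsCommuteBar p
  · have key : ∀ (t : HeckeAlg) (z : JZero p),
        σ • heckeEvalBar hc t z = heckeEvalBar hc t (σ • z) := by
      intro t
      induction t using MvPolynomial.induction_on with
      | C a =>
        intro z
        rw [heckeEvalBar_C, Module.End.intCast_apply, Module.End.intCast_apply]
        exact map_zsmul (DistribSMul.toAddMonoidHom (JZero p) σ) a z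
      | add f g hf hg =>
        intro z
        rw [map_add, LinearMap.add_apply, LinearMap.add_apply, smul_add, hf, hg]
      | mul_X f ℓ hf =>
        intro z
        rw [map_mul, Module.End.mul_apply, Module.End.mul_apply, hf]
        congr 1
        have hX : heckeEvalBar hc (MvPolynomial.X ℓ) = heckeOperatorBar p ℓ :=
          heckeEvalBar_heckeGen hc ℓ
        rw [hX]
        exact h ℓ σ z
    show σ • hsmul p t z = hsmul p t (σ • z)
    rw [hsmul, hsmul, heckeModuleBar_smul_def hc, heckeModuleBar_smul_def hc]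
    exact key t z
  · show σ • hsmul p t z = hsmul p t (σ • z)
    rw [hsmul, hsmul, heckeModuleBar_smul_of_not hc, heckeModuleBar_smul_of_not hc]
    exact map_zsmul (DistribSMul.toAddMonoidHom (JZero p) σ) _ z

/-! ## The frozen statement from the leaves -/

/-- All inputs of S15 at a prime level `p`. -/
structure Inputs (p : ℕ) [NeZero p] : Prop where
  redInputs : Stmt_redInputs p
  gh : Stmt_GH p
  hr : Stmt_HR p
  redFG : Stmt_redFG p
  cuspExists : Stmt_cuspExists p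
  cuspGal : Stmt_cuspGal p
  cuspTors : Stmt_cuspTors p
  cuspEis : Stmt_cuspEis p
  descent : Stmt_descent p
  bridge : Stmt_bridge p

/-- **S15 from its inputs** (the statement below the hypotheses `hS18`, `hE`, `hI` is the frozen
statement S15, verbatim). -/
theorem result_of_inputs (hS18 : Stmt_S18) (hE : Stmt_elem)
    (hI : ∀ (p : ℕ) [NeZero p], p.Prime → p ∉ ({2, 3, 5, 7, 13} : Finset ℕ) → Inputs p)
    {p : ℕ} (hp : p.Prime) (hp' : p ∉ ({2, 3, 5, 7, 13} : Finset ℕ))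
    (W : WeierstrassCurve ℤ) (hΔ : W.Δ ≠ 0)
    (Q : ((W.map (Int.castRingHom ℚ))⁄(AlgebraicClosure ℚ)).Point)
    (hQfix : ∀ σ : AlgebraicClosure ℚ ≃ₐ[ℚ] AlgebraicClosure ℚ, σ • Q = Q)
    (hQord : addOrderOf Q = p)
    (h2Δ : (2 : ℤ) ∣ W.Δ) (h2c₄ : ¬ (2 : ℤ) ∣ W.c₄)
    (h2 : ∀ A : ValuationSubring (AlgebraicClosure ℚ), A.LiesOverPrime 2 →
      ¬ W.InZeroComponentAt A Q)
    (h3Δ : (3 : ℤ) ∣ W.Δ) (h3c₄ : ¬ (3 : ℤ) ∣ W.c₄)
    (h3 : ∀ A : ValuationSubring (AlgebraicClosure ℚ), A.LiesOverPrime 3 →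
      ¬ W.InZeroComponentAt A Q)
    {ℓ : ℕ} (hℓ : ℓ.Prime) (hℓp : ℓ ≠ p) (hℓΔ : (ℓ : ℤ) ∣ W.Δ) (hℓc₄ : ¬ (ℓ : ℤ) ∣ W.c₄)
    (A : ValuationSubring (AlgebraicClosure ℚ)) (hA : A.LiesOverPrime ℓ) :
    ¬ W.InZeroComponentAt A Q := by
  intro hin
  haveI : NeZero p := ⟨hp.ne_zero⟩
  have hp2 : p ≠ 2 := fun e => hp' (by simp [e])
  have hp3 : p ≠ 3 := fun e => hp' (by simp [e])
  have I := hI p hp hp'
  obtain ⟨Pinf, P0, hc⟩ := I.cuspExists
  obtain ⟨x, hx1, hxfix, hxred⟩ :=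
    I.bridge W hΔ Q hQfix hQord h2Δ h2c₄ h3Δ h3c₄ Pinf P0 hc
  -- the places over `2` and `3`
  obtain ⟨A₂, hA₂⟩ := Fermat.Agent.Lib.FrobExists.exists_liesOverPrime 2 Nat.prime_two
  obtain ⟨A₃, hA₃⟩ := Fermat.Agent.Lib.FrobExists.exists_liesOverPrime 3 Nat.prime_three
  have h₂ := I.redInputs 2 Nat.prime_two (Ne.symm hp2) A₂ hA₂
  have h₃ := I.redInputs 3 Nat.prime_three (Ne.symm hp3) A₃ hA₃
  have h := I.redInputs ℓ hℓ hℓp A hA
  have hx₂ := (hxred 2 Nat.prime_two (Ne.symm hp2) (by exact_mod_cast h2Δ)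
    (by exact_mod_cast h2c₄) A₂ hA₂ h₂).1 (h2 A₂ hA₂)
  have hx₃ := (hxred 3 Nat.prime_three (Ne.symm hp3) (by exact_mod_cast h3Δ)
    (by exact_mod_cast h3c₄) A₃ hA₃ h₃).1 (h3 A₃ hA₃)
  have hxℓ := (hxred ℓ hℓ hℓp hℓΔ hℓc₄ A hA h).2 hin
  -- `ℓ ∤ p - 1`
  have hdvd : p ∣ (ℓ - 1) * (ℓ + 1) :=
    hE p hp W hΔ Q hQfix hQord ℓ hℓ hℓp hℓΔ hℓc₄ A hA hin
  have hℓn : ¬ ℓ ∣ p - 1 := by
    intro hd
    have hp1 : 0 < p - 1 := by
      have := hp.two_le
      omega
    have hle : ℓ ≤ p - 1 := Nat.le_of_dvd hp1 hd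
    have hℓ2 := hℓ.two_le
    rcases (Nat.Prime.dvd_mul hp).mp hdvd with h1 | h1
    · have := Nat.le_of_dvd (by omega) h1
      omega
    · have h2' := Nat.le_of_dvd (by omega) h1
      have hpl : p = ℓ + 1 := by omega
      -- `p` and `ℓ = p - 1` both prime: `p = 3`
      rcases Nat.Prime.eq_one_or_self_of_dvd hp 2 (by
        rcases Nat.even_or_odd ℓ with he | ho
        · -- `ℓ` even prime: `ℓ = 2`, `p = 3`
          exfalso
          have : ℓ = 2 := (Nat.Prime.even_iff hℓ).mp he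
          omega
        · rw [hpl]
          exact (Nat.even_add_one.mpr (Nat.not_even_iff_odd.mpr ho)).two_dvd) with h3' | h3'
      · omega
      · omega
  exact core p hp hp2 hp3 hS18 I.gh I.hr I.redFG I.cuspGal I.cuspTors I.cuspEis I.descent
    Pinf P0 hc x hx1 hxfix A₂ hA₂ h₂ hx₂ A₃ hA₃ h₃ hx₃ ℓ hℓ hℓp hℓn A hA h hxℓ

end Fermat.Agent.S15

end
end
-- ==== END Fermat.Agent.S15.Wiring
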