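-- GENERATED (merged mirror, NOTES/tools/trim/merge3_helper67.py): 9 modules of the originals, bodies verbatim.
import Mathlib
import Fermat.Agent.Zm.S35_L15_002
import Fermat.Agent.Zm.S35_L03_003
import Fermat.Agent.Zm.S35_L13_002
import Fermat.Agent.Zm.S35_L03_005
import Fermat.Agent.Zm.S35_L11_000
import Fermat.Agent.Zm.S35_L08_000
import Fermat.Agent.Zm.S44_L01_003
import Fermat.Agent.Zm.S33_L03_001
import Fermat.Agent.Zm.S44_L01_002
import Fermat.Agent.Zm.S35_L07_000
import Fermat.Agent.Zm.S33_L02_000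
import Fermat.Agent.Zm.S35_L03_002
import Fermat.Agent.RED.H17_Place
import Fermat.Agent.Zm.S35_L03_004

-- ==== BEGIN Fermat.Agent.S15.B3.H83_IntJ
section

/-!
# S15, package B3 (helper83), part 1: `j_p = j(q^p)` is integral over `Q̄[j]`

The conjugate data of helper73/helper30 (`CADataL`) contain the symmetric-function property
`∏_q (c - U q - s X_d q) ∈ Q̄[J]`; with `sym_three` (`b = 0`) the characteristic polynomial
`∏_q (T - X_d q)` has coefficients in `Q̄[J]`, so `X_d q₀ = j(q^d)` is integral over `Q̄[j]`.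
Consequence: a place of `X₀(p)` which is not a pole of `j` is not a pole of `j_p`
(`ord_jBarN_nonneg`), and the poles of `j_p` are the two cusps (`poleN_eq_of_isCuspPair`).
-/

set_option autoImplicit false
set_option synthInstance.maxHeartbeats 400000

noncomputable section

open HahnSeries IntermediateField AlgebraicCurve ModularCurve Polynomial

namespace Fermat.Agent.S15.B3

open Fermat.Agent.S24 (Kbar FN jF jdF)
open Fermat.Agent.RED.H73 (CADataL JL sym_three caDataBar)
open Fermat.Agent.S28.H90 (chi chi_eval chi_monic chi_eval_self coeff_mem_of_eval_mem)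
open Fermat.Agent.S15.H30 (psi psi_apply psi_injective psi_jF mem_of_isIntegral_map)

variable {p : ℕ} [NeZero p]

/-- The coefficients of `∏_q (T - X_d q)` lie in `Q̄[J]`. -/
theorem chiX_coeff_mem (D : CADataL Kbar p) (d : ℕ) (hd : d ∣ p) (k : ℕ) :
    (chi (D.X d)).coeff k ∈ Algebra.adjoin Kbar ({JL Kbar p} : Set (LaurentSeries Kbar)) := by
  have := coeff_mem_of_eval_mem (C := Kbar)
    (Subalgebra.toSubmodule (Algebra.adjoin Kbar ({JL Kbar p} : Set (LaurentSeries Kbar))))
    (chi (D.X d))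
    (fun c => by
      rw [chi_eval]
      have h := sym_three (Algebra.adjoin Kbar ({JL Kbar p} : Set (LaurentSeries Kbar)))
        D.U (D.X d)
        (fun c s => by
          have h0 := D.sym d hd c s
          rw [LaurentSeries.algebraMap_apply, LaurentSeries.algebraMap_apply]
          exact h0) c 0 1
      have e : (∏ q, (algebraMap Kbar (LaurentSeries Kbar) c - D.X d q))
          = ∏ q, (algebraMap Kbar (LaurentSeries Kbar) c
              - algebraMap Kbar (LaurentSeries Kbar) 0 * D.U q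
              - algebraMap Kbar (LaurentSeries Kbar) 1 * D.X d q) :=
        Finset.prod_congr rfl fun q _ => by rw [map_zero, map_one, zero_mul, one_mul, sub_zero]
      rw [e]
      exact h) k
  exact this

/-- `X_d q` is integral over `Q̄[J]`. -/
theorem isIntegral_X (D : CADataL Kbar p) (d : ℕ) (hd : d ∣ p) (q : D.Q) :
    IsIntegral ↥(Algebra.adjoin Kbar ({JL Kbar p} : Set (LaurentSeries Kbar))) (D.X d q) := by
  have hl : chi (D.X d) ∈ Polynomial.lifts
      (algebraMap ↥(Algebra.adjoin Kbar ({JL Kbar p} : Set (LaurentSeries Kbar)))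
        (LaurentSeries Kbar)) := by
    rw [Polynomial.lifts_iff_coeff_lifts]
    intro n
    exact ⟨⟨_, chiX_coeff_mem D d hd n⟩, rfl⟩
  obtain ⟨P, hP, -, hm⟩ := Polynomial.lifts_and_natDegree_eq_and_monic hl (chi_monic (D.X d))
  refine ⟨P, hm, ?_⟩
  rw [← aeval_def, aeval_def, ← eval_map, hP]
  exact chi_eval_self (D.X d) q

/-- `ψ (j(q^d)) = X_d q₀`. -/
theorem psi_jdF (D : CADataL Kbar p) (d : ℕ) [NeZero d] (hd : d ∣ p) :
    psi p (jdF p d hd) = D.X d D.q₀ := by
  rw [psi_apply, D.X_q₀ d hd]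
  show qExpand Kbar p (coeffEmb Kbar (qExpand ℚ d jq)) = _
  rw [Fermat.Agent.RED.H73.coeffEmb_qExpand_jq (L := Kbar) d]

/-- A place of `X₀(p)` at which `j` is regular is not a pole of `j(q^d)`, `d ∣ p`. -/
theorem jdF_mem_of_jF_mem (d : ℕ) [NeZero d] (hd : d ∣ p) (P : Place Kbar (FN p))
    (hj : _root_.Fermat.Agent.S24.jF p ∈ P.toValuationSubring) : jdF p d hd ∈ P.toValuationSubring := by
  refine mem_of_isIntegral_map (psi p) (psi_injective p) P (_root_.Fermat.Agent.S24.jF p) hj (jdF p d hd) ?_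
  rw [psi_jF, psi_jdF (caDataBar p) d hd]
  exact isIntegral_X (caDataBar p) d hd _

/-- A place of `X₀(p)` which is not a pole of `j` is not a pole of `j_p`. -/
theorem ord_jBarN_nonneg (P : PlaceBar p) (h : 0 ≤ P.ord (_root_.Fermat.Agent.S15.jBar p)) : 0 ≤ P.ord (jBarN p) :=
  Fermat.Agent.S24.H85.ord_nonneg_of_mem P
    (jdF_mem_of_jF_mem p dvd_rfl P (Fermat.Agent.S24.H85.mem_of_ord_nonneg P h))

/-- For `p` prime, every pole of `j_p` on `X₀(p)` is one of the two cusps. -/
theorem poleN_eq_of_isCuspPair (hp : p.Prime) {Pinf P0 : PlaceBar p}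
    (h : IsCuspPair p Pinf P0) (P : PlaceBar p) (hP : P.ord (jBarN p) < 0) :
    P = Pinf ∨ P = P0 := by
  refine Fermat.Agent.S15.H30.pole_eq_of_isCuspPair hp h P ?_
  by_contra hcon
  rw [not_lt] at hcon
  have := ord_jBarN_nonneg P hcon
  omega

end Fermat.Agent.S15.B3

end
end
-- ==== END Fermat.Agent.S15.B3.H83_IntJ

-- ==== BEGIN Fermat.Agent.S15.B3.H83_Val
section

/-!
# S15, package B3 (helper83), part 3c: the valuation of a place

`pv x = x.toValuationSubring.valuation`; dictionary with `Place.ord`, and the value lemma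
`pv_zero_lemma`: if `u ≡ α`, `w ≡ β` at `x` and `c α^n = β` then `c u^n / w ≡ 1` at `x`.
-/

set_option autoImplicit false

noncomputable section

open AlgebraicCurve

namespace Fermat.Agent.S15.B3

section Val

variable {K F : Type*} [Field K] [Field F] [Algebra K F] (x : Place K F)

/-- The valuation of a place. -/
abbrev pv : Valuation F x.toValuationSubring.ValueGroup := x.toValuationSubring.valuation

theorem pv_le_one_iff {f : F} : pv x f ≤ 1 ↔ 0 ≤ x.ord f := by
  rw [ValuationSubring.valuation_le_one_iff]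
  exact ⟨fun h => Fermat.Agent.S24.H85.ord_nonneg_of_mem x h,
    fun h => Fermat.Agent.S24.H85.mem_of_ord_nonneg x h⟩

theorem one_lt_pv_iff {f : F} : 1 < pv x f ↔ x.ord f < 0 := by
  rw [← not_le, pv_le_one_iff, not_le]

theorem pv_lt_one_iff {f : F} (hf : f ≠ 0) : pv x f < 1 ↔ 0 < x.ord f := by
  have h1 : pv x f ≠ 0 := (Valuation.ne_zero_iff _).mpr hf
  have h2 : 1 < pv x f⁻¹ ↔ x.ord f⁻¹ < 0 := one_lt_pv_iff x
  rw [map_inv₀, Place.ord_inv, one_lt_inv₀ (zero_lt_iff.mpr h1)] at h2
  rw [h2]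
  omega

theorem pv_lt_one_of_ord_pos {f : F} (h : 0 < x.ord f) : pv x f < 1 := by
  have hf : f ≠ 0 := by
    rintro rfl
    simp at h
  exact (pv_lt_one_iff x hf).mpr h

theorem pv_algebraMap {c : K} (hc : c ≠ 0) : pv x (algebraMap K F c) = 1 := by
  have h1 : pv x (algebraMap K F c) ≤ 1 :=
    (ValuationSubring.valuation_le_one_iff _ _).mpr (x.algebraMap_mem' c)
  have h2 : pv x (algebraMap K F c⁻¹) ≤ 1 :=
    (ValuationSubring.valuation_le_one_iff _ _).mpr (x.algebraMap_mem' c⁻¹)
  have h0 : pv x (algebraMap K F c) ≠ 0 := by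
    rw [Valuation.ne_zero_iff]
    exact fun h => hc ((map_eq_zero _).mp h)
  rw [map_inv₀, map_inv₀, inv_le_one₀ (zero_lt_iff.mpr h0)] at h2
  exact le_antisymm h1 h2

theorem pv_algebraMap_le (c : K) : pv x (algebraMap K F c) ≤ 1 :=
  (ValuationSubring.valuation_le_one_iff _ _).mpr (x.algebraMap_mem' c)

/-- If `u ≡ α ≠ 0` at `x` then `u` is a unit at `x`. -/
theorem pv_eq_one_of_sub {u : F} {α : K} (hα : α ≠ 0)
    (hu : pv x (u - algebraMap K F α) < 1) : pv x u = 1 := by
  have h : u = (u - algebraMap K F α) + algebraMap K F α := by ring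
  rw [h, Valuation.map_add_eq_of_lt_right _ (by rw [pv_algebraMap x hα]; exact hu),
    pv_algebraMap x hα]

/-- If `u ≡ α` at `x` then `u ^ n ≡ α ^ n` at `x`. -/
theorem pv_pow_sub_lt {u : F} {α : K} (hu : pv x (u - algebraMap K F α) < 1) (n : ℕ) :
    pv x (u ^ n - algebraMap K F α ^ n) < 1 := by
  have hα : pv x (algebraMap K F α) ≤ 1 := pv_algebraMap_le x α
  have hu1 : pv x u ≤ 1 := by
    have h : u = (u - algebraMap K F α) + algebraMap K F α := by ring
    rw [h]
    exact le_trans (Valuation.map_add _ _ _) (max_le hu.le hα)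
  have hsum : pv x (∑ i ∈ Finset.range n, u ^ i * algebraMap K F α ^ (n - 1 - i)) ≤ 1 := by
    refine Valuation.map_sum_le _ fun i _ => ?_
    rw [map_mul, map_pow, map_pow]
    exact mul_le_one₀ (pow_le_one₀ zero_le hu1) zero_le (pow_le_one₀ zero_le hα)
  rw [← geom_sum₂_mul, map_mul]
  calc pv x (∑ i ∈ Finset.range n, u ^ i * algebraMap K F α ^ (n - 1 - i))
        * pv x (u - algebraMap K F α)
      ≤ 1 * pv x (u - algebraMap K F α) := mul_le_mul_left hsum _
    _ = pv x (u - algebraMap K F α) := one_mul _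
    _ < 1 := hu

/-- **Value lemma**: if `u ≡ α`, `w ≡ β ≠ 0` at `x` and `c α^n = β`, then `c u^n / w ≡ 1`. -/
theorem pv_zero_lemma {u w : F} {α β c : K} (hβ : β ≠ 0) (n : ℕ)
    (hu : pv x (u - algebraMap K F α) < 1) (hw : pv x (w - algebraMap K F β) < 1)
    (hc : c * α ^ n = β) :
    pv x (algebraMap K F c * (u ^ n * w⁻¹) - 1) < 1 := by
  have hw1 : pv x w = 1 := pv_eq_one_of_sub x hβ hw
  have hw0 : w ≠ 0 := by
    intro h
    rw [h, map_zero] at hw1
    exact zero_ne_one hw1
  have e : algebraMap K F c * (u ^ n * w⁻¹) - 1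
      = (algebraMap K F c * (u ^ n - algebraMap K F α ^ n) - (w - algebraMap K F β)) * w⁻¹ := by
    have hcβ : algebraMap K F β = algebraMap K F c * algebraMap K F α ^ n := by
      rw [← hc, map_mul, map_pow]
    rw [hcβ]
    field_simp
    ring
  rw [e, map_mul, map_inv₀, hw1, inv_one, mul_one]
  refine lt_of_le_of_lt (Valuation.map_sub _ _ _) (max_lt ?_ hw)
  rw [map_mul]
  calc pv x (algebraMap K F c) * pv x (u ^ n - algebraMap K F α ^ n)
      ≤ 1 * pv x (u ^ n - algebraMap K F α ^ n) := mul_le_mul_left (pv_algebraMap_le x c) _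
    _ = pv x (u ^ n - algebraMap K F α ^ n) := one_mul _
    _ < 1 := pv_pow_sub_lt x hu n

/-- `c (u - α)` is small at `x` if `u ≡ α`. -/
theorem pv_scale_lemma {u : F} {α c : K} (hu : pv x (u - algebraMap K F α) < 1)
    (hc : c * α = 1) : pv x (algebraMap K F c * u - 1) < 1 := by
  have e : algebraMap K F c * u - 1 = algebraMap K F c * (u - algebraMap K F α) := by
    rw [mul_sub, ← map_mul, hc, map_one]
  rw [e, map_mul]
  calc pv x (algebraMap K F c) * pv x (u - algebraMap K F α)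
      ≤ 1 * pv x (u - algebraMap K F α) := mul_le_mul_left (pv_algebraMap_le x c) _
    _ = pv x (u - algebraMap K F α) := one_mul _
    _ < 1 := hu

theorem ord_pow_nat (f : F) (n : ℕ) : x.ord (f ^ n) = n * x.ord f := by
  have := x.ord_zpow f (n : ℤ)
  rwa [zpow_natCast] at this

end Val

end Fermat.Agent.S15.B3

end
end
-- ==== END Fermat.Agent.S15.B3.H83_Val

-- ==== BEGIN Fermat.Agent.S15.Desc.H26_NumInfAlg
section

/-!
# S15 / DESC / NUM-∞: the linear algebra (helper26)

`K` a field with `2 ≠ 0`, `V` a finite dimensional `K`-vector space, `E` an idempotent endomorphism,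
`I` an involution commuting with `E`.  If `E (1 + I)` and `E (1 - I)` have the same characteristic
polynomial, then `dim (E V) ≤ 2 dim (E V ∩ ker (I + 1))`.

(The characteristic polynomial is the bridge from characteristic `0`: for integer matrices the
identity of characteristic polynomials is proved over `ℂ` and reduced modulo `r`.)
-/

set_option autoImplicit false

namespace Fermat.Agent.S15.Desc.H26

open Module

section Alg

variable {K V : Type*} [Field K] [AddCommGroup V] [Module K V]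

/-- `B² = 2B` for `B = E (1 + I)`. -/
theorem numInf_B_sq {E I : Module.End K V} (hE : E * E = E) (hI : I * I = 1)
    (hEI : Commute E I) : (E * (1 + I)) * (E * (1 + I)) = (2 : K) • (E * (1 + I)) := by
  have hc : Commute (1 + I) E := (Commute.one_left E).add_left hEI.symm
  calc (E * (1 + I)) * (E * (1 + I)) = E * ((1 + I) * E) * (1 + I) := by
        simp only [mul_assoc]
    _ = E * (E * (1 + I)) * (1 + I) := by rw [hc.eq]
    _ = (E * E) * ((1 + I) * (1 + I)) := by simp only [mul_assoc]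
    _ = E * ((1 + I) * (1 + I)) := by rw [hE]
    _ = E * ((2 : K) • (1 + I)) := by
        congr 1
        rw [two_smul, mul_add, mul_one, add_mul, one_mul, hI]
        abel
    _ = (2 : K) • (E * (1 + I)) := by rw [mul_smul_comm]

/-- `(B - 2)² = -2 (B - 2)` when `B² = 2 B`. -/
theorem numInf_sub_two_sq {B : Module.End K V} (hB : B * B = (2 : K) • B) :
    (B - (2 : K) • (1 : Module.End K V)) * (B - (2 : K) • (1 : Module.End K V)) =
      (-2 : K) • (B - (2 : K) • (1 : Module.End K V)) := by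
  ext v
  have hBv : B (B v) = (2 : K) • B v := by
    have := congrArg (fun f : Module.End K V => f v) hB
    simpa using this
  simp only [Module.End.mul_apply, LinearMap.sub_apply, LinearMap.smul_apply,
    Module.End.one_apply, map_sub, map_smul, hBv]
  module

theorem numInf_pow_eq_zero {B : Module.End K V} (h2 : (2 : K) ≠ 0) (hB : B * B = (2 : K) • B)
    (v : V) (k : ℕ) (hk : ((B - (2 : K) • (1 : Module.End K V)) ^ (k + 1)) v = 0) :
    (B - (2 : K) • (1 : Module.End K V)) v = 0 := by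
  induction k with
  | zero => simpa using hk
  | succ k ih =>
    apply ih
    have h1 : (B - (2 : K) • (1 : Module.End K V)) ^ (k + 1 + 1) =
        (-2 : K) • (B - (2 : K) • (1 : Module.End K V)) ^ (k + 1) := by
      rw [pow_succ, pow_succ, mul_assoc, numInf_sub_two_sq hB, mul_smul_comm]
    rw [h1, LinearMap.smul_apply] at hk
    have h3 : (-2 : K) ≠ 0 := neg_ne_zero.mpr h2
    exact (smul_eq_zero.mp hk).resolve_left h3

/-- The generalised eigenspace of `E (1 + I)` for the eigenvalue `2`. -/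
theorem numInf_maxGenEigenspace (h2 : (2 : K) ≠ 0) {E I : Module.End K V} (hE : E * E = E)
    (hI : I * I = 1) (hEI : Commute E I) :
    (E * (1 + I)).maxGenEigenspace (2 : K) =
      LinearMap.ker (E - 1) ⊓ LinearMap.ker (I - 1) := by
  have hB := numInf_B_sq hE hI hEI
  ext v
  rw [Module.End.mem_maxGenEigenspace, Submodule.mem_inf, LinearMap.mem_ker, LinearMap.mem_ker,
    LinearMap.sub_apply, LinearMap.sub_apply, Module.End.one_apply, sub_eq_zero, sub_eq_zero]
  constructor
  · rintro ⟨k, hk⟩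
    have h1 : (E * (1 + I) - (2 : K) • (1 : Module.End K V)) v = 0 := by
      rcases k with _ | k
      · have : v = 0 := by simpa using hk
        rw [this, map_zero]
      · exact numInf_pow_eq_zero h2 hB v k hk
    have h3 : E (v + I v) = (2 : K) • v := by
      have := sub_eq_zero.mp (by simpa using h1 : E (v + I v) - (2 : K) • v = 0)
      exact this
    have hII : I (I v) = v := by
      have := congrArg (fun f : Module.End K V => f v) hI
      simpa using this
    have hIE : ∀ w, I (E w) = E (I w) := fun w => by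
      have := congrArg (fun f : Module.End K V => f w) hEI.eq
      simpa using this.symm
    have h4 : (2 : K) • I v = (2 : K) • v := by
      have : I (E (v + I v)) = I ((2 : K) • v) := by rw [h3]
      rw [hIE, map_add, hII, map_smul, add_comm (I v) v, h3] at this
      exact this.symm
    have h5 : I v = v := smul_right_injective V h2 h4
    have h6 : (2 : K) • E v = (2 : K) • v := by
      rw [h5, ← two_smul K v, map_smul] at h3
      exact h3
    exact ⟨smul_right_injective V h2 h6, h5⟩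
  · rintro ⟨h1, h2'⟩
    refine ⟨1, ?_⟩
    rw [pow_one, LinearMap.sub_apply, LinearMap.smul_apply, Module.End.one_apply,
      Module.End.mul_apply, LinearMap.add_apply, Module.End.one_apply, h2', ← two_smul K v,
      map_smul, h1, sub_self]

variable [FiniteDimensional K V]

/-- **NUM-∞, linear algebra**: if `E (1 + I)` and `E (1 - I)` have the same characteristic
polynomial then `dim (E V) ≤ 2 dim (E V ∩ ker (I + 1))`. -/
theorem numInf_finrank_le (h2 : (2 : K) ≠ 0) {E I : Module.End K V} (hE : E * E = E)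
    (hI : I * I = 1) (hEI : Commute E I)
    (hchar : (E * (1 + I)).charpoly = (E * (1 - I)).charpoly) :
    finrank K ↥(LinearMap.ker (E - 1)) ≤
      2 * finrank K ↥(LinearMap.ker (E - 1) ⊓ LinearMap.ker (I + 1)) := by
  have hI' : (-I) * (-I) = 1 := by rw [neg_mul_neg, hI]
  have hEI' : Commute E (-I) := hEI.neg_right
  have hp := numInf_maxGenEigenspace h2 hE hI hEI
  have hm := numInf_maxGenEigenspace h2 hE hI' hEI'
  have hker : LinearMap.ker (-I - 1) = LinearMap.ker (I + 1) := by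
    ext v
    simp only [LinearMap.mem_ker, LinearMap.sub_apply, LinearMap.neg_apply, LinearMap.add_apply,
      Module.End.one_apply]
    constructor
    · intro h
      have : I v + v = -(-I v - v) := by abel
      rw [this, h, neg_zero]
    · intro h
      have : -I v - v = -(I v + v) := by abel
      rw [this, h, neg_zero]
  have hsub : E * (1 + -I) = E * (1 - I) := by rw [sub_eq_add_neg]
  rw [hsub, hker] at hm
  have e1 : finrank K ↥(LinearMap.ker (E - 1) ⊓ LinearMap.ker (I - 1)) =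
      finrank K ↥(LinearMap.ker (E - 1) ⊓ LinearMap.ker (I + 1)) := by
    rw [← hp, ← hm, LinearMap.finrank_maxGenEigenspace_eq, LinearMap.finrank_maxGenEigenspace_eq,
      hchar]
  have hle : LinearMap.ker (E - 1) ≤
      (LinearMap.ker (E - 1) ⊓ LinearMap.ker (I - 1)) ⊔
        (LinearMap.ker (E - 1) ⊓ LinearMap.ker (I + 1)) := by
    intro v hv
    have hEv : E v = v := by
      rw [LinearMap.mem_ker, LinearMap.sub_apply, Module.End.one_apply, sub_eq_zero] at hv
      exact hv
    have hII : I (I v) = v := by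
      have := congrArg (fun f : Module.End K V => f v) hI
      simpa using this
    have hIE : ∀ w, I (E w) = E (I w) := fun w => by
      have := congrArg (fun f : Module.End K V => f w) hEI.eq
      simpa using this.symm
    have hdec : v = (2 : K)⁻¹ • (v + I v) + (2 : K)⁻¹ • (v - I v) := by
      rw [← smul_add]
      have : v + I v + (v - I v) = (2 : K) • v := by rw [two_smul]; abel
      rw [this, smul_smul, inv_mul_cancel₀ h2, one_smul]
    rw [hdec]
    refine Submodule.add_mem_sup (Submodule.smul_mem _ _ ?_) (Submodule.smul_mem _ _ ?_)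
    · refine Submodule.mem_inf.mpr ⟨?_, ?_⟩
      · rw [LinearMap.mem_ker, LinearMap.sub_apply, Module.End.one_apply, map_add, ← hIE, hEv,
          sub_self]
      · rw [LinearMap.mem_ker, LinearMap.sub_apply, Module.End.one_apply, map_add, hII]
        abel
    · refine Submodule.mem_inf.mpr ⟨?_, ?_⟩
      · rw [LinearMap.mem_ker, LinearMap.sub_apply, Module.End.one_apply, map_sub, ← hIE, hEv,
          sub_self]
      · rw [LinearMap.mem_ker, LinearMap.add_apply, Module.End.one_apply, map_sub, hII]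
        abel
  calc finrank K ↥(LinearMap.ker (E - 1))
      ≤ finrank K ↥((LinearMap.ker (E - 1) ⊓ LinearMap.ker (I - 1)) ⊔
        (LinearMap.ker (E - 1) ⊓ LinearMap.ker (I + 1))) := Submodule.finrank_mono hle
    _ ≤ finrank K ↥(LinearMap.ker (E - 1) ⊓ LinearMap.ker (I - 1)) +
        finrank K ↥(LinearMap.ker (E - 1) ⊓ LinearMap.ker (I + 1)) :=
      Submodule.finrank_add_le_finrank_add_finrank _ _
    _ = 2 * finrank K ↥(LinearMap.ker (E - 1) ⊓ LinearMap.ker (I + 1)) := by
      rw [e1, two_mul]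

end Alg

end Fermat.Agent.S15.Desc.H26

end
-- ==== END Fermat.Agent.S15.Desc.H26_NumInfAlg

-- ==== BEGIN Fermat.Agent.S15.Desc.H26_NumInfChar0
section

/-!
# S15 / DESC / NUM-∞: the characteristic `0` input (helper26)

`H_ℂ = Hom_par(Γ₀(N), ℂ)`, `ι` = `charInvolution`.  The Eichler–Shimura isomorphism
`Φ : S₂ × S₂ ≃ H_ℂ`, `(f, g) ↦ (1 + ι) P f + (1 - ι) P g` (`Fermat.Agent.S21.result`) intertwines
the Hecke operators and carries `(f, g) ↦ (f, -g)` to `ι`.  Hence `Ψ = Φ ∘ swap ∘ Φ⁻¹` is an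
automorphism of `H_ℂ` commuting with the Betti Hecke operators and anticommuting with `ι`, and

* `charpoly_matW_plus_minus` : the integer matrices `M_w (1 + M_ι)` and `M_w (1 - M_ι)` have the
  same characteristic polynomial;
* `trace_matW_mul_matI` : `trace (M_w M_ι) = 0`,

for the matrix `M_w` of every word `w` in the Betti Hecke operators in a universal basis `b`.
-/

set_option autoImplicit false

open CongruenceSubgroup ModularCurve ModularCurve.Period
open scoped MatrixGroups

noncomputable section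

namespace Fermat.Agent.S15.Desc.H26

open Fermat.Agent.Betti Fermat.Agent.Betti.H76

section Complex

variable (N : ℕ) [NeZero N] (S : Set ℕ)

/-- `Hom_par(Γ₀(N), ℂ)`. -/
abbrev ParC : Submodule ℂ (Additive (Gamma0 N) →+ ℂ) := parabolicHoms ℂ (Gamma0 N) ℂ

theorem periodHomPair_mem (x : CuspForm (Gamma0 N) 2 × CuspForm (Gamma0 N) 2) :
    periodHomPair N x ∈ ParC N := by
  have h : periodHomPair N x ∈ LinearMap.range (periodHomPair N) := ⟨x, rfl⟩
  rw [(Fermat.Agent.S21.result N).2] at h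
  exact h

/-- The Eichler–Shimura isomorphism. -/
def esEquiv : (CuspForm (Gamma0 N) 2 × CuspForm (Gamma0 N) 2) ≃ₗ[ℂ] ParC N :=
  LinearEquiv.ofBijective ((periodHomPair N).codRestrict (ParC N) (periodHomPair_mem N))
    ⟨fun x y h => (Fermat.Agent.S21.result N).1 (congrArg Subtype.val h), fun φ => by
      have h : (φ : Additive (Gamma0 N) →+ ℂ) ∈ parabolicHoms ℂ (Gamma0 N) ℂ := φ.2
      rw [← (Fermat.Agent.S21.result N).2] at h
      obtain ⟨x, hx⟩ := h
      exact ⟨x, Subtype.ext hx⟩⟩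

theorem coe_esEquiv (x : CuspForm (Gamma0 N) 2 × CuspForm (Gamma0 N) 2) :
    ((esEquiv N x : ParC N) : Additive (Gamma0 N) →+ ℂ) = periodHomPair N x := rfl

theorem periodHomPair_apply (f g : CuspForm (Gamma0 N) 2) :
    periodHomPair N (f, g) =
      (periodMap N f + charInvolution N ℂ ℂ (periodMap N f)) +
        (periodMap N g - charInvolution N ℂ ℂ (periodMap N g)) := by
  obtain ⟨pml, hpml, hdef⟩ := periodHomPair_def N
    (Fermat.Agent.S21.existsPeriodMapLinear_of_partA (Fermat.Agent.S21.partA N))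
  rw [hdef]
  simp only [LinearMap.coprod_apply, LinearMap.comp_apply, LinearMap.add_apply,
    LinearMap.sub_apply, LinearMap.id_apply, hpml]

theorem periodMap_neg (g : CuspForm (Gamma0 N) 2) : periodMap N (-g) = -periodMap N g := by
  obtain ⟨pml, hpml⟩ :=
    Fermat.Agent.S21.existsPeriodMapLinear_of_partA (Fermat.Agent.S21.partA N)
  rw [← hpml, ← hpml, map_neg]

/-- The Betti word operator on `Hom_par(Γ₀(N), ℂ)`. -/
def wordBC (w : FreeAlgebra ℤ (Gen S)) : Module.End ℂ (ParC N) where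
  toFun φ := ⟨wordB N S ℂ w φ, wordB_mem_parabolicHoms N S ℂ w φ.2⟩
  map_add' φ ψ := Subtype.ext (map_add (wordB N S ℂ w) (φ : Additive (Gamma0 N) →+ ℂ) ψ)
  map_smul' c φ := Subtype.ext (wordB_smul N S w c φ)

theorem coe_wordBC (w : FreeAlgebra ℤ (Gen S)) (φ : ParC N) :
    ((wordBC N S w φ : ParC N) : Additive (Gamma0 N) →+ ℂ) = wordB N S ℂ w φ := rfl

/-- The involution on `Hom_par(Γ₀(N), ℂ)`. -/
def invC : Module.End ℂ (ParC N) :=
  (charInvolution N ℂ ℂ).restrict (fun _ h => charInvolution_mem_parabolicHoms N ℂ ℂ h)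

omit [NeZero N] in
theorem coe_invC (φ : ParC N) :
    ((invC N φ : ParC N) : Additive (Gamma0 N) →+ ℂ) = charInvolution N ℂ ℂ φ := rfl

theorem esEquiv_wordS (w : FreeAlgebra ℤ (Gen S)) (f g : CuspForm (Gamma0 N) 2) :
    esEquiv N (wordS N S w f, wordS N S w g) = wordBC N S w (esEquiv N (f, g)) := by
  apply Subtype.ext
  rw [coe_wordBC, coe_esEquiv, coe_esEquiv, periodHomPair_apply, periodHomPair_apply,
    map_add, map_sub, map_add, ← wordB_charInvolution, ← wordB_charInvolution,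
    ← periodMap_wordS, ← periodMap_wordS]

theorem invC_esEquiv (f g : CuspForm (Gamma0 N) 2) :
    invC N (esEquiv N (f, g)) = esEquiv N (f, -g) := by
  apply Subtype.ext
  rw [coe_invC, coe_esEquiv, coe_esEquiv, periodHomPair_apply, periodHomPair_apply,
    map_add, map_sub, map_add, charInvolution_charInvolution, charInvolution_charInvolution,
    periodMap_neg, map_neg]
  abel

/-- The automorphism `Ψ = Φ ∘ swap ∘ Φ⁻¹`. -/
def swapC : ParC N ≃ₗ[ℂ] ParC N :=
  ((esEquiv N).symm.trans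
    (LinearEquiv.prodComm ℂ (CuspForm (Gamma0 N) 2) (CuspForm (Gamma0 N) 2))).trans (esEquiv N)

theorem swapC_esEquiv (f g : CuspForm (Gamma0 N) 2) :
    swapC N (esEquiv N (f, g)) = esEquiv N (g, f) := by
  simp [swapC]

theorem swapC_wordBC (w : FreeAlgebra ℤ (Gen S)) (φ : ParC N) :
    swapC N (wordBC N S w φ) = wordBC N S w (swapC N φ) := by
  obtain ⟨⟨f, g⟩, rfl⟩ := (esEquiv N).surjective φ
  rw [← esEquiv_wordS, swapC_esEquiv, swapC_esEquiv, esEquiv_wordS]

theorem swapC_invC (φ : ParC N) : swapC N (invC N φ) = -invC N (swapC N φ) := by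
  obtain ⟨⟨f, g⟩, rfl⟩ := (esEquiv N).surjective φ
  rw [invC_esEquiv, swapC_esEquiv, swapC_esEquiv, invC_esEquiv, ← map_neg]
  congr 1
  simp

instance instFiniteParC : Module.Finite ℂ (ParC N) :=
  haveI := Fermat.Agent.S21.finite_cuspForm N
  Module.Finite.equiv (esEquiv N)

theorem conj_wordBC_invC (w : FreeAlgebra ℤ (Gen S)) :
    (swapC N).conj (wordBC N S w * (1 + invC N)) = wordBC N S w * (1 - invC N) := by
  ext1 φ
  obtain ⟨ψ, rfl⟩ := (swapC N).surjective φ
  rw [LinearEquiv.conj_apply_apply, LinearEquiv.symm_apply_apply, Module.End.mul_apply,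
    Module.End.mul_apply, LinearMap.add_apply, LinearMap.sub_apply, Module.End.one_apply,
    Module.End.one_apply, swapC_wordBC, map_add, swapC_invC, sub_eq_add_neg]

/-- Over `ℂ`: `T (1 + ι)` and `T (1 - ι)` have the same characteristic polynomial. -/
theorem charpoly_wordBC (w : FreeAlgebra ℤ (Gen S)) :
    (wordBC N S w * (1 + invC N)).charpoly = (wordBC N S w * (1 - invC N)).charpoly := by
  rw [← conj_wordBC_invC, LinearEquiv.charpoly_conj]

theorem conj_wordBC_mul_invC (w : FreeAlgebra ℤ (Gen S)) :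
    (swapC N).conj (wordBC N S w * invC N) = -(wordBC N S w * invC N) := by
  ext1 φ
  obtain ⟨ψ, rfl⟩ := (swapC N).surjective φ
  rw [LinearEquiv.conj_apply_apply, LinearEquiv.symm_apply_apply, Module.End.mul_apply,
    LinearMap.neg_apply, Module.End.mul_apply, swapC_wordBC, swapC_invC, map_neg]

/-- Over `ℂ`: `trace (T ι) = 0`. -/
theorem trace_wordBC_mul_invC (w : FreeAlgebra ℤ (Gen S)) :
    LinearMap.trace ℂ (ParC N) (wordBC N S w * invC N) = 0 := by
  have h := LinearMap.trace_conj' (wordBC N S w * invC N) (swapC N)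
  rw [conj_wordBC_mul_invC] at h
  have hneg : LinearMap.trace ℂ (ParC N) (-(wordBC N S w * invC N)) =
      -LinearMap.trace ℂ (ParC N) (wordBC N S w * invC N) :=
    (LinearMap.trace ℂ (ParC N)).map_neg (wordBC N S w * invC N)
  have h3 : LinearMap.trace ℂ (ParC N) (wordBC N S w * invC N) =
      -LinearMap.trace ℂ (ParC N) (wordBC N S w * invC N) := h.symm.trans hneg
  have h2 : (2 : ℂ) * LinearMap.trace ℂ (ParC N) (wordBC N S w * invC N) = 0 := by
    rw [two_mul]
    nth_rewrite 1 [h3]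
    exact neg_add_cancel _
  exact (mul_eq_zero.mp h2).resolve_left two_ne_zero

end Complex

section Matrices

variable {N : ℕ} [NeZero N] (S : Set ℕ) {n : ℕ} {b : Fin n → (Additive (Gamma0 N) →+ ℤ)}

/-- The complexification of an integral parabolic homomorphism. -/
def toParC (φ : ParZ N) : ParC N :=
  ⟨(Int.castAddHom ℂ).comp (φ : Additive (Gamma0 N) →+ ℤ),
    castHom_complex_comp_mem_parabolicHoms N φ.2⟩

omit [NeZero N] in
theorem coe_toParC (φ : ParZ N) :
    ((toParC φ : ParC N) : Additive (Gamma0 N) →+ ℂ) =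
      (Int.castAddHom ℂ).comp (φ : Additive (Gamma0 N) →+ ℤ) := rfl

omit [NeZero N] in
theorem toParC_apply (φ : ParZ N) (γ : Additive (Gamma0 N)) :
    ((toParC φ : ParC N) : Additive (Gamma0 N) →+ ℂ) γ =
      (((φ : Additive (Gamma0 N) →+ ℤ) γ : ℤ) : ℂ) := rfl

omit [NeZero N] in
theorem toParC_sum_smul (c : Fin n → ℤ) (φ : Fin n → ParZ N) :
    toParC (∑ i, c i • φ i) = ∑ i, (c i : ℂ) • toParC (φ i) := by
  apply Subtype.ext
  refine AddMonoidHom.ext fun γ => ?_
  rw [toParC_apply]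
  simp only [Submodule.coe_sum, Submodule.coe_smul, AddMonoidHom.coe_finsetSum,
    Finset.sum_apply, AddMonoidHom.coe_smul, Pi.smul_apply, smul_eq_mul, Int.cast_sum,
    Int.cast_mul]
  refine Finset.sum_congr rfl fun i _ => ?_
  rfl

variable (hb : IsParBasis N b)

/-- The complexification of a universal basis is a basis of `Hom_par(Γ₀(N), ℂ)`. -/
def parBasisC (hb : IsParBasis N b) : Module.Basis (Fin n) ℂ (ParC N) :=
  Module.Basis.mk (v := fun i => toParC (parBasis hb i))
    (by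
      rw [Fintype.linearIndependent_iff]
      intro g hg
      obtain ⟨a, -, ha⟩ := hb.2 ℂ (0 : Additive (Gamma0 N) →+ ℂ) (fun _ _ => rfl)
      have h1 : g = a := by
        apply ha
        intro γ
        have h2 := congrArg (fun φ : ParC N => (φ : Additive (Gamma0 N) →+ ℂ) γ) hg
        simp only [Submodule.coe_sum, Submodule.coe_smul, AddMonoidHom.coe_finsetSum,
          Finset.sum_apply, AddMonoidHom.coe_smul, Pi.smul_apply, smul_eq_mul,
          ZeroMemClass.coe_zero, AddMonoidHom.zero_apply, toParC_apply, parBasis_apply] at h2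
        rw [AddMonoidHom.zero_apply, ← h2]
        exact Finset.sum_congr rfl fun i _ => by rw [zsmul_eq_mul, mul_comm]
      have h3 : (0 : Fin n → ℂ) = a := by
        apply ha
        intro γ
        simp
      intro i
      rw [h1, ← h3]
      rfl)
    (by
      rintro ⟨φ, hφ⟩ -
      obtain ⟨a, ha, -⟩ := hb.2 ℂ φ hφ
      have : (⟨φ, hφ⟩ : ParC N) = ∑ i, a i • toParC (parBasis hb i) := by
        apply Subtype.ext
        refine AddMonoidHom.ext fun γ => ?_
        simp only [Submodule.coe_sum, Submodule.coe_smul, AddMonoidHom.coe_finsetSum,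
          Finset.sum_apply, AddMonoidHom.coe_smul, Pi.smul_apply, smul_eq_mul, toParC_apply,
          parBasis_apply]
        rw [ha γ]
        exact Finset.sum_congr rfl fun i _ => by rw [zsmul_eq_mul, mul_comm]
      rw [this]
      exact Submodule.sum_mem _ fun i _ =>
        Submodule.smul_mem _ _ (Submodule.subset_span ⟨i, rfl⟩))

omit [NeZero N] in
theorem parBasisC_apply (i : Fin n) : parBasisC hb i = toParC (parBasis hb i) := by
  simp [parBasisC]

/-- The involution on `Hom_par(Γ₀(N), ℤ)`. -/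
def invZ (N : ℕ) : Module.End ℤ (ParZ N) :=
  (charInvolution N ℤ ℤ).restrict (fun _ h => charInvolution_mem_parabolicHoms N ℤ ℤ h)

omit [NeZero N] in
theorem coe_invZ (φ : ParZ N) :
    ((invZ N φ : ParZ N) : Additive (Gamma0 N) →+ ℤ) = charInvolution N ℤ ℤ φ := rfl

/-- The matrix of a word in the Betti Hecke operators. -/
def matW (w : FreeAlgebra ℤ (Gen S)) : Matrix (Fin n) (Fin n) ℤ :=
  LinearMap.toMatrix (parBasis hb) (parBasis hb) (wordBL N S w)

/-- The matrix of the involution. -/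
def matI : Matrix (Fin n) (Fin n) ℤ :=
  LinearMap.toMatrix (parBasis hb) (parBasis hb) (invZ N)

omit [NeZero N] in
theorem end_parBasis (f : Module.End ℤ (ParZ N)) (j : Fin n) :
    f (parBasis hb j) =
      ∑ i, LinearMap.toMatrix (parBasis hb) (parBasis hb) f i j • parBasis hb i := by
  conv_lhs => rw [← Matrix.toLin_toMatrix (parBasis hb) (parBasis hb) f]
  rw [Matrix.toLin_self]

omit [NeZero N] in
theorem toMatrix_of_parBasisC (f : Module.End ℂ (ParC N)) (g : Module.End ℤ (ParZ N))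
    (h : ∀ φ : ParZ N, f (toParC φ) = toParC (g φ)) :
    LinearMap.toMatrix (parBasisC hb) (parBasisC hb) f =
      (LinearMap.toMatrix (parBasis hb) (parBasis hb) g).map (Int.castRingHom ℂ) := by
  have h1 : f = Matrix.toLin (parBasisC hb) (parBasisC hb)
      ((LinearMap.toMatrix (parBasis hb) (parBasis hb) g).map (Int.castRingHom ℂ)) := by
    apply (parBasisC hb).ext
    intro j
    rw [Matrix.toLin_self, parBasisC_apply, h, end_parBasis hb g j, toParC_sum_smul]
    refine Finset.sum_congr rfl fun i _ => ?_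
    rw [parBasisC_apply]
    rfl
  conv_lhs => rw [h1]
  rw [LinearMap.toMatrix_toLin]

theorem wordBC_toParC (w : FreeAlgebra ℤ (Gen S)) (φ : ParZ N) :
    wordBC N S w (toParC φ) = toParC (wordBL N S w φ) := by
  apply Subtype.ext
  rw [coe_wordBC, coe_toParC, coe_toParC, wordBL_coe, wordB_comp]

omit [NeZero N] in
theorem invC_toParC (φ : ParZ N) : invC N (toParC φ) = toParC (invZ N φ) := by
  apply Subtype.ext
  rfl

theorem toMatrix_wordBC (w : FreeAlgebra ℤ (Gen S)) :
    LinearMap.toMatrix (parBasisC hb) (parBasisC hb) (wordBC N S w) =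
      (matW S hb w).map (Int.castRingHom ℂ) :=
  toMatrix_of_parBasisC hb _ _ (wordBC_toParC S w)

omit [NeZero N] in
theorem toMatrix_invC :
    LinearMap.toMatrix (parBasisC hb) (parBasisC hb) (invC N) =
      (matI hb).map (Int.castRingHom ℂ) :=
  toMatrix_of_parBasisC hb _ _ invC_toParC

omit [NeZero N] in
theorem matI_mul_matI : matI hb * matI hb = 1 := by
  unfold matI
  rw [← LinearMap.toMatrix_mul]
  have : invZ N * invZ N = 1 := by
    ext1 φ
    apply Subtype.ext
    rw [Module.End.mul_apply, coe_invZ, coe_invZ, charInvolution_charInvolution]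
    rfl
  rw [this, LinearMap.toMatrix_one]

theorem matW_comm_matI (w : FreeAlgebra ℤ (Gen S)) :
    matW S hb w * matI hb = matI hb * matW S hb w := by
  unfold matI matW
  rw [← LinearMap.toMatrix_mul, ← LinearMap.toMatrix_mul]
  congr 1
  ext1 φ
  apply Subtype.ext
  rw [Module.End.mul_apply, Module.End.mul_apply, wordBL_coe, coe_invZ, coe_invZ, wordBL_coe,
    wordB_charInvolution]

omit [NeZero N] in
theorem toParC_add (φ ψ : ParZ N) : toParC (φ + ψ) = toParC φ + toParC ψ := by
  apply Subtype.ext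
  refine AddMonoidHom.ext fun γ => ?_
  show (((φ + ψ : ParZ N) : Additive (Gamma0 N) →+ ℤ) γ : ℂ) = _
  simp [toParC_apply]

omit [NeZero N] in
theorem toParC_sub (φ ψ : ParZ N) : toParC (φ - ψ) = toParC φ - toParC ψ := by
  apply Subtype.ext
  refine AddMonoidHom.ext fun γ => ?_
  show (((φ - ψ : ParZ N) : Additive (Gamma0 N) →+ ℤ) γ : ℂ) = _
  simp [toParC_apply]

theorem charpoly_of_parBasisC (f : Module.End ℂ (ParC N)) (g : Module.End ℤ (ParZ N))
    (h : ∀ φ : ParZ N, f (toParC φ) = toParC (g φ)) :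
    f.charpoly = (LinearMap.toMatrix (parBasis hb) (parBasis hb) g).charpoly.map
      (Int.castRingHom ℂ) := by
  rw [← LinearMap.charpoly_toMatrix f (parBasisC hb), toMatrix_of_parBasisC hb f g h,
    Matrix.charpoly_map]

omit [NeZero N] in
theorem toMatrix_mul_one_add (g : Module.End ℤ (ParZ N)) :
    LinearMap.toMatrix (parBasis hb) (parBasis hb) (g * (1 + invZ N)) =
      LinearMap.toMatrix (parBasis hb) (parBasis hb) g * (1 + matI hb) := by
  rw [LinearMap.toMatrix_mul, map_add, LinearMap.toMatrix_one]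
  rfl

omit [NeZero N] in
theorem toMatrix_mul_one_sub (g : Module.End ℤ (ParZ N)) :
    LinearMap.toMatrix (parBasis hb) (parBasis hb) (g * (1 - invZ N)) =
      LinearMap.toMatrix (parBasis hb) (parBasis hb) g * (1 - matI hb) := by
  rw [LinearMap.toMatrix_mul]
  congr 1
  have h1 : (1 : Module.End ℤ (ParZ N)) - invZ N = 1 + -invZ N := sub_eq_add_neg _ _
  rw [h1, map_add, LinearMap.toMatrix_one, sub_eq_add_neg]
  congr 1
  exact map_neg (LinearMap.toMatrix (parBasis hb) (parBasis hb)) (invZ N)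

/-- **NUM-∞, characteristic zero**: `M_w (1 + M_ι)` and `M_w (1 - M_ι)` have the same
characteristic polynomial. -/
theorem charpoly_matW_plus_minus (w : FreeAlgebra ℤ (Gen S)) :
    (matW S hb w * (1 + matI hb)).charpoly = (matW S hb w * (1 - matI hb)).charpoly := by
  apply Polynomial.map_injective (Int.castRingHom ℂ) Int.cast_injective
  have hp := charpoly_of_parBasisC hb (wordBC N S w * (1 + invC N))
    (wordBL N S w * (1 + invZ N)) (fun φ => by
      rw [Module.End.mul_apply, Module.End.mul_apply, LinearMap.add_apply,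
        LinearMap.add_apply, Module.End.one_apply, Module.End.one_apply, invC_toParC,
        ← toParC_add, wordBC_toParC])
  have hm := charpoly_of_parBasisC hb (wordBC N S w * (1 - invC N))
    (wordBL N S w * (1 - invZ N)) (fun φ => by
      rw [Module.End.mul_apply, Module.End.mul_apply, LinearMap.sub_apply,
        LinearMap.sub_apply, Module.End.one_apply, Module.End.one_apply, invC_toParC,
        ← toParC_sub, wordBC_toParC])
  rw [toMatrix_mul_one_add] at hp
  rw [toMatrix_mul_one_sub] at hm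
  exact hp.symm.trans ((charpoly_wordBC N S w).trans hm)

/-- **NUM-∞, characteristic zero**: `trace (M_w M_ι) = 0`. -/
theorem trace_matW_mul_matI (w : FreeAlgebra ℤ (Gen S)) :
    (matW S hb w * matI hb).trace = 0 := by
  have h := trace_wordBC_mul_invC N S w
  rw [LinearMap.trace_eq_matrix_trace ℂ (parBasisC hb), LinearMap.toMatrix_mul,
    toMatrix_wordBC S hb w, toMatrix_invC hb, ← Matrix.map_mul] at h
  have h2 : ((matW S hb w * matI hb).map (Int.castRingHom ℂ)).trace =
      (((matW S hb w * matI hb).trace : ℤ) : ℂ) := by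
    simp [Matrix.trace]
  rw [h2] at h
  exact_mod_cast h

end Matrices

end Fermat.Agent.S15.Desc.H26

end
end
-- ==== END Fermat.Agent.S15.Desc.H26_NumInfChar0

-- ==== BEGIN Fermat.Agent.S15.Desc.H63_B0div
section

/-!
# S15 / DESC: (B0-div) — inertia moves division points by toric classes (helper63)

`b0div` : for every level `N ≠ 0`, every valuation ring `A` of `ℚ̄`, `σ` in the inertia group
`I_A`, every `n` and every `y ∈ J₀(N)` such that `n y` is fixed by `I_A`:
`σ y - y ∈ K1(n)` (`BAD.InK1`), i.e. `σ y - y` is the class of a divisor `D₁` with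
`n D₁ = div f₁`, `f₁` a Gauss unit with reduction `1`.

Proof: `n y` is the class of an `I_A`-stable divisor `B` (Hilbert 90 descent of helper61/helper35,
`S36.H61.exists_invariant_rep`); `n D - B = div f`, `f = c u` with `u` a Gauss unit; then
`n (σ D - D) = div (σ u / u)` and `σ u / u` reduces to `1` (helper91's argument for (B0)).
-/

set_option autoImplicit false
set_option linter.style.haveILetI false

noncomputable section

open AlgebraicCurve ModularCurve Fermat.Agent.S28.H73 Fermat.Agent.RED.H73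

namespace Fermat.Agent.S15.Desc.H63

open Fermat.Agent.BAD Fermat.Agent.BAD.H91

/-- **(B0-div)**. -/
theorem b0div (N : ℕ) [NeZero N] (A : ValuationSubring (AlgebraicClosure ℚ)) (σ : _root_.Fermat.Agent.BAD.GalQ)
    (hσ : σ ∈ A.inertiaSubgroupIn ℚ) (n : ℕ) (y : JZero N)
    (hy : ∀ τ ∈ A.inertiaSubgroupIn ℚ, τ • (n • y) = n • y) : InK1 A N n (σ • y - y) := by
  obtain ⟨D, rfl⟩ := Pic0.mk_surjective y
  have hfix : ∀ τ ∈ A.inertiaSubgroupIn ℚ,
      τ • (Pic0.mk (n • D) : JZero N) = Pic0.mk (n • D) := hy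
  obtain ⟨B, hclass, hBfix⟩ :=
    Fermat.Agent.S36.H61.exists_invariant_rep N (A.inertiaSubgroupIn ℚ) (n • D) hfix
  -- `B - n D = div f₀`
  have h2 := (QuotientAddGroup.eq).1 hclass
  rw [AddSubgroup.mem_addSubgroupOf] at h2
  obtain ⟨f₀, hf₀, hf₀D⟩ := h2
  have hf₀D' : ∀ P : Place (AlgebraicClosure ℚ) ↥(FNbar N),
      P.ord f₀ = (B : Divisor (AlgebraicClosure ℚ) ↥(FNbar N)) P
        - (n : ℤ) * (D : Divisor (AlgebraicClosure ℚ) ↥(FNbar N)) P := by
    intro P
    rw [← hf₀D P]
    show (-(n • (D : Divisor (AlgebraicClosure ℚ) ↥(FNbar N)))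
      + (B : Divisor (AlgebraicClosure ℚ) ↥(FNbar N))) P = _
    rw [Finsupp.add_apply, Finsupp.neg_apply, Finsupp.smul_apply, nsmul_eq_mul]
    ring
  -- `f = f₀⁻¹ = c u`
  obtain ⟨c, u, hc, hfu⟩ := exists_unit_scale A (hasScale_laurentBaseChange A N) f₀⁻¹
    (inv_ne_zero hf₀)
  have hu : ((u : ↥(gaussV A N)) : ↥(FNbar N)) ∈ gaussV A N := (u : ↥(gaussV A N)).2
  have hu0 : ((u : ↥(gaussV A N)) : ↥(FNbar N)) ≠ 0 := by
    intro h0
    apply inv_ne_zero hf₀
    rw [hfu, h0, mul_zero]
  let σu : ↥(gaussV A N) := ⟨galF N σ • ((u : ↥(gaussV A N)) : ↥(FNbar N)),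
    galF_mem_gaussV A N hσ hu⟩
  let f₁ : ↥(gaussV A N) := σu * ((u⁻¹ : (↥(gaussV A N))ˣ) : ↥(gaussV A N))
  have hres : gaussRes A N f₁ = 1 := by
    show gaussRes A N (σu * ((u⁻¹ : (↥(gaussV A N))ˣ) : ↥(gaussV A N))) = 1
    rw [map_mul]
    have e1 : gaussRes A N σu = gaussRes A N (u : ↥(gaussV A N)) :=
      gaussRes_galF A N hσ hu
    rw [e1, ← map_mul, Units.mul_inv, map_one]
  have hf₁ : ((f₁ : ↥(gaussV A N)) : ↥(FNbar N))
      = (galF N σ • ((u : ↥(gaussV A N)) : ↥(FNbar N)))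
        * (((u : ↥(gaussV A N)) : ↥(FNbar N)))⁻¹ := by
    show (galF N σ • ((u : ↥(gaussV A N)) : ↥(FNbar N)))
        * (((u⁻¹ : (↥(gaussV A N))ˣ) : ↥(gaussV A N)) : ↥(FNbar N)) = _
    congr 1
    have : ((u : ↥(gaussV A N)) : ↥(FNbar N))
        * (((u⁻¹ : (↥(gaussV A N))ˣ) : ↥(gaussV A N)) : ↥(FNbar N)) = 1 := by
      have h := congrArg (fun z : ↥(gaussV A N) => (z : ↥(FNbar N))) (Units.mul_inv u)
      exact h
    exact (eq_inv_of_mul_eq_one_right this)
  -- orders of `u`
  have hordu : ∀ P : Place (AlgebraicClosure ℚ) ↥(FNbar N),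
      P.ord ((u : ↥(gaussV A N)) : ↥(FNbar N))
        = (n : ℤ) * (D : Divisor (AlgebraicClosure ℚ) ↥(FNbar N)) P
          - (B : Divisor (AlgebraicClosure ℚ) ↥(FNbar N)) P := by
    intro P
    have h1 : P.ord f₀⁻¹ = P.ord ((u : ↥(gaussV A N)) : ↥(FNbar N)) := by
      rw [hfu, Place.ord_mul _ ((map_ne_zero _).2 hc) hu0, ord_algebraMap_zero, zero_add]
    rw [← h1, Place.ord_inv, hf₀D' P]
    ring
  -- `B` is fixed by `σ`
  have hBσ : ∀ P : Place (AlgebraicClosure ℚ) ↥(FNbar N),
      (B : Divisor (AlgebraicClosure ℚ) ↥(FNbar N)) ((galF N σ)⁻¹ • P)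
        = (B : Divisor (AlgebraicClosure ℚ) ↥(FNbar N)) P := by
    intro P
    have h := DFunLike.congr_fun (hBfix ⟨σ, hσ⟩) P
    rw [SemilinearAut.divisor_smul_apply] at h
    exact h
  refine ⟨SemilinearAut.degZeroSMulHom (galF N σ) D - D, f₁, ?_, hres, fun P => ?_⟩
  · show galF N σ • (Pic0.mk D) - Pic0.mk D = _
    rw [SemilinearAut.pic0_smul_mk]
    rfl
  · have hσu0 : galF N σ • ((u : ↥(gaussV A N)) : ↥(FNbar N)) ≠ 0 := by
      intro h0
      apply hu0
      have h1 := congrArg (fun z => (galF N σ)⁻¹ • z) h0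
      simp only [inv_smul_smul, smul_zero] at h1
      exact h1
    rw [hf₁, Place.ord_mul _ hσu0 (inv_ne_zero hu0), Place.ord_inv, ord_galF_smul, hordu, hordu,
      hBσ P]
    have e : ((SemilinearAut.degZeroSMulHom (galF N σ) D - D :
        Divisor.degZero (K := AlgebraicClosure ℚ) (F := ↥(FNbar N))) :
          Divisor (AlgebraicClosure ℚ) ↥(FNbar N)) P
        = (D : Divisor (AlgebraicClosure ℚ) ↥(FNbar N)) ((galF N σ)⁻¹ • P)
          - (D : Divisor (AlgebraicClosure ℚ) ↥(FNbar N)) P := by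
      rw [AddSubgroup.coe_sub, SemilinearAut.coe_degZeroSMulHom, Finsupp.sub_apply,
        SemilinearAut.divisor_smul_apply]
    rw [e]
    ring

end Fermat.Agent.S15.Desc.H63

end
end
-- ==== END Fermat.Agent.S15.Desc.H63_B0div

-- ==== BEGIN Fermat.Agent.S15.Desc.H63_TwoGlob
section

set_option autoImplicit false

namespace Fermat.Agent.S15.Desc.H63

local notation "Qbar" => AlgebraicClosure ℚ
local notation "GQ" => (AlgebraicClosure ℚ ≃ₐ[ℚ] AlgebraicClosure ℚ)

/-- A nonzero rational number all of whose valuations are even is `± c²`. -/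
theorem rat_eq_pm_sq (a : ℚ) (ha : a ≠ 0)
    (h : ∀ l : ℕ, l.Prime → (2 : ℤ) ∣ padicValRat l a) :
    ∃ c : ℚ, c ≠ 0 ∧ (a = c ^ 2 ∨ a = -c ^ 2) := by
  have hnum : a.num ≠ 0 := Rat.num_ne_zero.2 ha
  have hden : a.den ≠ 0 := a.den_ne_zero
  have hcop : Nat.Coprime a.num.natAbs a.den := a.reduced
  have hdef : ∀ l : ℕ, padicValRat l a =
      (padicValNat l a.num.natAbs : ℤ) - (padicValNat l a.den : ℤ) := fun l => rfl
  have hboth : ∀ l : ℕ, l.Prime → 2 ∣ padicValNat l a.num.natAbs ∧ 2 ∣ padicValNat l a.den := by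
    intro l hl
    have hl' := h l hl
    rw [hdef] at hl'
    by_cases hd : l ∣ a.den
    · have hn : ¬ l ∣ a.num.natAbs := by
        intro hn
        have := Nat.dvd_gcd hn hd
        rw [hcop.gcd_eq_one] at this
        exact hl.one_lt.ne' (Nat.dvd_one.1 this)
      have h0 : padicValNat l a.num.natAbs = 0 := padicValNat.eq_zero_of_not_dvd hn
      rw [h0] at hl' ⊢
      refine ⟨dvd_zero _, ?_⟩
      have : (2 : ℤ) ∣ (padicValNat l a.den : ℤ) := by
        have := (dvd_neg (a := (2 : ℤ))).2 hl'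
        simpa using this
      exact_mod_cast this
    · have h0 : padicValNat l a.den = 0 := padicValNat.eq_zero_of_not_dvd hd
      rw [h0] at hl' ⊢
      refine ⟨?_, dvd_zero _⟩
      have : (2 : ℤ) ∣ (padicValNat l a.num.natAbs : ℤ) := by simpa using hl'
      exact_mod_cast this
  obtain ⟨m, hm⟩ := H97.nat_eq_pow_of_dvd_padicValNat (r := 2) (Int.natAbs_ne_zero.2 hnum)
    (fun l hl => (hboth l hl).1)
  obtain ⟨d, hd⟩ := H97.nat_eq_pow_of_dvd_padicValNat (r := 2) hden (fun l hl => (hboth l hl).2)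
  have hd0 : (d : ℚ) ≠ 0 := by
    intro h0
    have : d = 0 := by exact_mod_cast h0
    rw [this, zero_pow two_ne_zero] at hd
    exact hden hd
  have hm0 : (m : ℚ) ≠ 0 := by
    intro h0
    have : m = 0 := by exact_mod_cast h0
    rw [this, zero_pow two_ne_zero] at hm
    exact hnum (Int.natAbs_eq_zero.mp hm)
  have hdq : (a.den : ℚ) = (d : ℚ) ^ 2 := by exact_mod_cast hd
  have ha' : a = (a.num : ℚ) / (a.den : ℚ) := (Rat.num_div_den a).symm
  refine ⟨(m : ℚ) / d, div_ne_zero hm0 hd0, ?_⟩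
  rcases Int.natAbs_eq a.num with hs | hs
  · left
    have hnq : (a.num : ℚ) = (m : ℚ) ^ 2 := by
      have e1 : (a.num : ℚ) = ((a.num.natAbs : ℤ) : ℚ) := congrArg (fun z : ℤ => (z : ℚ)) hs
      rw [e1, hm]
      push_cast
      rfl
    rw [div_pow, ← hnq, ← hdq]
    exact ha'
  · right
    have hnq : (a.num : ℚ) = -((m : ℚ) ^ 2) := by
      have e1 : (a.num : ℚ) = ((-(a.num.natAbs : ℤ) : ℤ) : ℚ) :=
        congrArg (fun z : ℤ => (z : ℚ)) hs
      rw [e1, hm]
      push_cast
      rfl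
    rw [div_pow, ← neg_div, ← hnq, ← hdq]
    exact ha'

/-- A fourth root of unity from a square root of `± c²`. -/
theorem coboundary_of_pm_sq (z : GQ → Qbar) (γ : Qbar) (a c : ℚ) (hc : c ≠ 0)
    (hac : a = c ^ 2 ∨ a = -c ^ 2)
    (hγ : γ ^ 2 = algebraMap ℚ Qbar a) (hzγ : ∀ σ : GQ, σ γ = z σ * γ) :
    ∃ ζ : Qbar, ζ ^ 4 = 1 ∧ ∀ σ : GQ, σ ζ = z σ * ζ := by
  have hc' : algebraMap ℚ Qbar c ≠ 0 := (map_ne_zero _).2 hc
  refine ⟨γ / algebraMap ℚ Qbar c, ?_, fun σ => ?_⟩
  · have h4 : (4 : ℕ) = 2 * 2 := rfl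
    rw [div_pow, h4, pow_mul, pow_mul, hγ]
    rcases hac with h | h
    · rw [h, map_pow, ← pow_mul]
      exact div_self (pow_ne_zero _ hc')
    · rw [h, map_neg, map_pow, neg_sq, ← pow_mul]
      exact div_self (pow_ne_zero _ hc')
  · rw [map_div₀, hzγ σ, AlgEquiv.commutes, mul_div_assoc]

/-- **(G3) for `r = 2`**: a `μ_2`-valued open crossed homomorphism which is unramified outside
`2` and has unit class at `2` is the coboundary of a fourth root of unity. -/
theorem glob_mu2_trunc (z : GQ → Qbar)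
    (hz : ∀ σ τ : GQ, z (σ * τ) = z σ * σ (z τ)) (hzr : ∀ σ, z σ ^ 2 = 1)
    (hopen : ∃ S : Finset Qbar, ∀ σ : GQ, (∀ x ∈ S, σ x = x) → z σ = 1)
    (hunr : ∀ ℓ : ℕ, ℓ.Prime → ℓ ≠ 2 → H97.UnramAt ℓ z) (hloc : H97.UnitClassAt 2 z) :
    ∃ ζ : Qbar, ζ ^ 4 = 1 ∧ ∀ σ : GQ, σ ζ = z σ * ζ := by
  obtain ⟨a, γ, ha, hγ, hzγ⟩ := H97.kummer_class 2 z hz hzr two_ne_zero hopen
  have hall : ∀ ℓ : ℕ, ℓ.Prime → (2 : ℤ) ∣ padicValRat ℓ a := by
    intro ℓ hℓ
    by_cases hℓr : ℓ = 2
    · subst hℓr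
      exact_mod_cast hloc a γ ha hγ hzγ
    · exact_mod_cast H97.dvd_padicValRat_of_unramAt Nat.prime_two hℓ hℓr z (hunr ℓ hℓ hℓr) a ha γ
        hγ hzγ
  obtain ⟨c, hc0, hc⟩ := rat_eq_pm_sq a ha hall
  exact coboundary_of_pm_sq z γ a c hc0 hc hγ hzγ

/-- **(G4) for `r = 2`**: two `μ_2`-valued open crossed homomorphisms which are unramified outside
`{2, p}` and have unit class at `2`: a nontrivial combination is the coboundary of a fourth root
of unity. -/
theorem glob_mu2_full {p : ℕ} (hp : p.Prime) (z₁ z₂ : GQ → Qbar)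
    (hz₁ : ∀ σ τ : GQ, z₁ (σ * τ) = z₁ σ * σ (z₁ τ)) (hzr₁ : ∀ σ, z₁ σ ^ 2 = 1)
    (hz₂ : ∀ σ τ : GQ, z₂ (σ * τ) = z₂ σ * σ (z₂ τ)) (hzr₂ : ∀ σ, z₂ σ ^ 2 = 1)
    (hopen₁ : ∃ S : Finset Qbar, ∀ σ : GQ, (∀ x ∈ S, σ x = x) → z₁ σ = 1)
    (hopen₂ : ∃ S : Finset Qbar, ∀ σ : GQ, (∀ x ∈ S, σ x = x) → z₂ σ = 1)
    (hunr₁ : ∀ ℓ : ℕ, ℓ.Prime → ℓ ≠ 2 → ℓ ≠ p → H97.UnramAt ℓ z₁)
    (hunr₂ : ∀ ℓ : ℕ, ℓ.Prime → ℓ ≠ 2 → ℓ ≠ p → H97.UnramAt ℓ z₂)
    (hloc₁ : H97.UnitClassAt 2 z₁) (hloc₂ : H97.UnitClassAt 2 z₂) :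
    ∃ (c₁ c₂ : ℕ) (ζ : Qbar), (¬ 2 ∣ c₁ ∨ ¬ 2 ∣ c₂) ∧ ζ ^ 4 = 1 ∧
      ∀ σ : GQ, σ ζ = z₁ σ ^ c₁ * z₂ σ ^ c₂ * ζ := by
  obtain ⟨a₁, γ₁, ha₁, hγ₁, hzγ₁⟩ := H97.kummer_class 2 z₁ hz₁ hzr₁ two_ne_zero hopen₁
  obtain ⟨a₂, γ₂, ha₂, hγ₂, hzγ₂⟩ := H97.kummer_class 2 z₂ hz₂ hzr₂ two_ne_zero hopen₂
  obtain ⟨c₁, c₂, hc, hdvd⟩ := H97.exists_comb_dvd Nat.prime_two (padicValRat p a₁)
    (padicValRat p a₂)
  set a : ℚ := a₁ ^ c₁ * a₂ ^ c₂ with ha
  have ha0 : a ≠ 0 := mul_ne_zero (pow_ne_zero _ ha₁) (pow_ne_zero _ ha₂)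
  have hval : ∀ ℓ : ℕ, ℓ.Prime →
      padicValRat ℓ a = c₁ * padicValRat ℓ a₁ + c₂ * padicValRat ℓ a₂ := by
    intro ℓ hℓ
    have hfact : Fact ℓ.Prime := ⟨hℓ⟩
    rw [ha, padicValRat.mul (pow_ne_zero _ ha₁) (pow_ne_zero _ ha₂), padicValRat.pow a₁,
      padicValRat.pow a₂]
  have hall : ∀ ℓ : ℕ, ℓ.Prime → (2 : ℤ) ∣ padicValRat ℓ a := by
    intro ℓ hℓ
    rw [hval ℓ hℓ]
    by_cases hℓp : ℓ = p
    · subst hℓp
      exact_mod_cast hdvd
    · have h1 : (2 : ℤ) ∣ padicValRat ℓ a₁ := by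
        by_cases hℓr : ℓ = 2
        · subst hℓr
          exact_mod_cast hloc₁ a₁ γ₁ ha₁ hγ₁ hzγ₁
        · exact_mod_cast H97.dvd_padicValRat_of_unramAt Nat.prime_two hℓ hℓr z₁
            (hunr₁ ℓ hℓ hℓr hℓp) a₁ ha₁ γ₁ hγ₁ hzγ₁
      have h2 : (2 : ℤ) ∣ padicValRat ℓ a₂ := by
        by_cases hℓr : ℓ = 2
        · subst hℓr
          exact_mod_cast hloc₂ a₂ γ₂ ha₂ hγ₂ hzγ₂
        · exact_mod_cast H97.dvd_padicValRat_of_unramAt Nat.prime_two hℓ hℓr z₂
            (hunr₂ ℓ hℓ hℓr hℓp) a₂ ha₂ γ₂ hγ₂ hzγ₂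
      exact dvd_add (Dvd.dvd.mul_left h1 _) (Dvd.dvd.mul_left h2 _)
  obtain ⟨c, hc0, hcr⟩ := rat_eq_pm_sq a ha0 hall
  obtain ⟨ζ, hζ, hzζ⟩ := coboundary_of_pm_sq (fun σ => z₁ σ ^ c₁ * z₂ σ ^ c₂)
    (γ₁ ^ c₁ * γ₂ ^ c₂) a c hc0 hcr
    (by
      rw [ha, map_mul, map_pow, map_pow, ← hγ₁, ← hγ₂]
      ring)
    (fun σ => by
      show σ (γ₁ ^ c₁ * γ₂ ^ c₂) = z₁ σ ^ c₁ * z₂ σ ^ c₂ * (γ₁ ^ c₁ * γ₂ ^ c₂)
      rw [map_mul, map_pow, map_pow, hzγ₁ σ, hzγ₂ σ]
      ring)
  exact ⟨c₁, c₂, ζ, hc, hζ, hzζ⟩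

end Fermat.Agent.S15.Desc.H63

end
-- ==== END Fermat.Agent.S15.Desc.H63_TwoGlob

-- ==== BEGIN Fermat.Agent.S15.Desc.H67_CoordLeavesTwo
section

/-!
# S15 DESC, leaf COORD (helper67): the sub-leaf F0 (the field of inertia-fixed functions)

* `Stmt_CoordF0 p` **(F0)** : at level `1 * p` there is a subfield `F0` of `F_p · ℚ̄` which
  contains `j`, `j_p = j(q^p)` and the constants of `inertiaRing A`, is fixed pointwise by the
  inertia group of `A`, and on which the second valuation is discrete with uniformizer `p`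
  (`f ∈ F0 ∩ V₂`, `red₂ f = 0` implies `f / p ∈ V₂`).

Intended proof: `F0 = {f | IsFrac0 A N f ∧ IsFrac0 A N (w_p f)}` (a subfield: quotients `G / H` of
series with coefficients in `inertiaRing A`), `Stmt_CoordDisc` applied to `w_p f`.
-/

set_option autoImplicit false
set_option linter.style.haveILetI false
set_option synthInstance.maxHeartbeats 400000
set_option maxHeartbeats 400000

noncomputable section

open HahnSeries IntermediateField AlgebraicCurve ModularCurve
open Fermat.Agent.S28.H73 Fermat.Agent.RED.H73 Fermat.Agent.RED Fermat.Agent.S24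
open Fermat.Agent.BAD.H88

namespace Fermat.Agent.S15.Desc.H67

open Fermat.Agent.BAD Fermat.Agent.BAD.H91

/-- **(F0)**: the field of inertia-fixed functions at level `1 * p`. -/
def Stmt_CoordF0 (p : ℕ) : Prop :=
  ∀ (A : ValuationSubring Kbar) (a b : ℤ) (hab : a * p + b * (1 : ℕ) = 1) (hp : p.Prime)
    [NeZero (1 * p)] [NeZero p], A.LiesOverPrime p →
    ∃ F0 : Subfield (FN (1 * p)),
      jdF (1 * p) 1 (one_dvd _) ∈ F0 ∧ jdF (1 * p) (1 * p) dvd_rfl ∈ F0 ∧
      (∀ c ∈ inertiaRing A, algebraMap Kbar (FN (1 * p)) c ∈ F0) ∧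
      (∀ f ∈ F0, ∀ σ ∈ A.inertiaSubgroupIn ℚ, galF (1 * p) σ • f = f) ∧
      (∀ f ∈ F0, ∀ h : f ∈ V2 A p 1 a b hab hp, red2 A p 1 a b hab hp ⟨f, h⟩ = 0 →
        f / algebraMap Kbar (FN (1 * p)) (p : Kbar) ∈ V2 A p 1 a b hab hp)

end Fermat.Agent.S15.Desc.H67

end
end
-- ==== END Fermat.Agent.S15.Desc.H67_CoordLeavesTwo

-- ==== BEGIN Fermat.Agent.S15.Desc.H67_CoordModDefs
section

/-!
# S15 DESC, route 2, leaf COORD: the modular interface `Stmt_CoordMod p`  (helper67)

`Stmt_CoordMod p` is the statement consumed by helper63's `Stmt_FIX p r`: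

* the seven clauses of `BAD.Stmt_ModSSD p p` (a semistable Deuring datum `S` for `F_p · ℚ̄` whose
  first component is the Gauss valuation, with Riemann's theorem for the three function fields,
  enough nodes, and on which the inertia group of `A` acts inertially);
* `g₁ = 0` (the component of `∞` is rational);
* for every node `s` an annulus coordinate `t` (helper28's `SSD.IsAnnCoord`) with uniformiser
  `p ^ e s`, `0 < e s`, which is FIXED by the inertia group of `A`;
* for every prime `r` there is at most one node with `r ∣ e s`.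

This file contains the definition only.  The abstract construction of the coordinates is
`Fermat.Agent.S15.Desc.H67.exists_isAnnCoord` (`S15/Desc/H67_Coord.lean`).
-/

set_option autoImplicit false

noncomputable section

open AlgebraicCurve ModularCurve

namespace Fermat.Agent.S15.Desc.H67

open Fermat.Agent.BAD Fermat.Agent.S28.H73 Fermat.Agent.RED.H73

/-- **COORD, modular form**, at the prime level `p`: the semistable Deuring datum of `X₀(p)` at
`p` together with inertia-fixed annulus coordinates of thickness `p ^ e s` at all nodes. -/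
def Stmt_CoordMod (p : ℕ) : Prop :=
  ∀ A : ValuationSubring (AlgebraicClosure ℚ), A.LiesOverPrime p →
    ∃ (F₁ F₂ : Type) (_ : Field F₁) (_ : Algebra (kV A) F₁) (_ : Field F₂)
      (_ : Algebra (kV A) F₂)
      (S : SSD (AlgebraicClosure ℚ) ↥(FNbar p) (kV A) F₁ F₂)
      (_ : RED.H17.FFHyp (AlgebraicClosure ℚ) ↥(FNbar p)) (_ : RED.H17.FFHyp (kV A) F₁)
      (_ : RED.H17.FFHyp (kV A) F₂) (g g₁ g₂ : ℕ) (c c₁ c₂ : ℤ),
      RED.H17.IsGenus (AlgebraicClosure ℚ) ↥(FNbar p) g c ∧
      RED.H17.IsGenus (kV A) F₁ g₁ c₁ ∧ RED.H17.IsGenus (kV A) F₂ g₂ c₂ ∧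
      g + 1 ≤ g₁ + g₂ + S.nodes.card ∧
      (∀ f : ↥(FNbar p), f ∈ gaussV A p → f ∈ S.c₁.V) ∧
      (∀ (f : ↥(gaussV A p)) (hf : (f : ↥(FNbar p)) ∈ S.c₁.V), gaussRes A p f = 1 →
        S.c₁.red ⟨(f : ↥(FNbar p)), hf⟩ = 1) ∧
      (∀ σ ∈ A.inertiaSubgroupIn ℚ, S.IsInertial (galF p σ)) ∧
      g₁ = 0 ∧
      ∃ e : Place (kV A) F₁ × Place (kV A) F₂ → ℕ,
        (∀ s ∈ S.nodes, 0 < e s ∧
          ∃ t : ↥(FNbar p), S.IsAnnCoord s t ((p : AlgebraicClosure ℚ) ^ e s) ∧
            ∀ σ ∈ A.inertiaSubgroupIn ℚ, galF p σ • t = t) ∧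
        (∀ r : ℕ, r.Prime → ∀ s ∈ S.nodes, ∀ s' ∈ S.nodes, r ∣ e s → r ∣ e s' → s = s')

/-- `Stmt_CoordMod p` contains `BAD.Stmt_ModSSD p p`. -/
theorem stmt_ModSSD_of_coordMod {p : ℕ} (h : Stmt_CoordMod p) : Stmt_ModSSD p p := by
  intro A hA
  obtain ⟨F₁, F₂, i₁, i₂, i₃, i₄, S, h₁, h₂, h₃, g, g₁, g₂, c, c₁, c₂, a₁, a₂, a₃, a₄, a₅, a₆,
    a₇, -⟩ := h A hA
  exact ⟨F₁, F₂, i₁, i₂, i₃, i₄, S, h₁, h₂, h₃, g, g₁, g₂, c, c₁, c₂, a₁, a₂, a₃, a₄, a₅, a₆, a₇⟩

end Fermat.Agent.S15.Desc.H67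

end
end
-- ==== END Fermat.Agent.S15.Desc.H67_CoordModDefs

-- ==== BEGIN Fermat.Agent.S15.Desc.H67_CoordRat
section

/-!
# S15 DESC, leaf COORD (helper67): places of a rational function field `F = k(x)`

`F / k` a function field generated by one transcendental element `x` (`k⟮x⟯ = ⊤`), with the zeros
theorem `H59.ZerosStmt k F`.

* `rat_exists_zero`, `rat_zero_unique` : `x - β` has exactly one zero, of order one;
* `rat_ord_sub_value` : at a place `z` where `x` is regular with value `β`, `ord_z (x - β) = 1`;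
* `rat_ord_aeval` : `ord_z P(x) = rootMultiplicity β P`;
* `rat_exists_fraction` : a function regular at `z` is `N(x) / D(x)` with `D(β) ≠ 0`;
* `rat_genus_eq_zero` : the Riemann genus of `F` is `0`.
-/

set_option autoImplicit false

noncomputable section

open AlgebraicCurve IntermediateField Polynomial

namespace Fermat.Agent.S15.Desc.H67

open Fermat.Agent.RED.H17 Fermat.Agent.S24

variable {k F : Type} [Field k] [Field F] [Algebra k F]

theorem rat_transcendental_sub {x : F} (hx : Transcendental k x) (β : k) :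
    Transcendental k (x - algebraMap k F β) := by
  intro h
  apply hx
  have := h.add (isAlgebraic_algebraMap (R := k) (A := F) β)
  rwa [sub_add_cancel] at this

theorem rat_adjoin_sub {x : F} (htop : k⟮x⟯ = ⊤) (β : k) :
    k⟮x - algebraMap k F β⟯ = ⊤ := by
  rw [eq_top_iff, ← htop, adjoin_simple_le_iff]
  have h1 : x - algebraMap k F β ∈ k⟮x - algebraMap k F β⟯ := mem_adjoin_simple_self _ _
  have := add_mem h1 ((k⟮x - algebraMap k F β⟯).algebraMap_mem β)
  rwa [sub_add_cancel] at this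

/-- A generator `y` of `F / k` has exactly one zero, and it is simple. -/
theorem rat_gen_zero (hz : H59.ZerosStmt k F) {y : F} (hy : Transcendental k y)
    (htop : k⟮y⟯ = ⊤) :
    ∃ z : Place k F, z.ord y = 1 ∧ ∀ z' : Place k F, 0 < z'.ord y → z' = z := by
  classical
  have hfd : FiniteDimensional k⟮y⟯ F := by
    apply FiniteDimensional.of_finrank_pos
    rw [htop, IntermediateField.finrank_top]
    exact one_pos
  obtain ⟨hfin, hsum⟩ := hz y hy
  have h1 : Module.finrank k⟮y⟯ F = 1 := by rw [htop, IntermediateField.finrank_top]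
  rw [h1, finsum_mem_eq_finite_toFinset_sum _ hfin, Nat.cast_one] at hsum
  have hne : hfin.toFinset.Nonempty := by
    rw [Finset.nonempty_iff_ne_empty]
    intro h
    rw [h, Finset.sum_empty] at hsum
    exact zero_ne_one hsum
  obtain ⟨z, hzmem⟩ := hne
  have hpos : ∀ v ∈ hfin.toFinset, 0 < v.ord y := fun v hv => by simpa using hv
  have hsplit := Finset.add_sum_erase hfin.toFinset (fun v => v.ord y) hzmem
  have hrest : 0 ≤ ∑ v ∈ hfin.toFinset.erase z, v.ord y :=
    Finset.sum_nonneg fun v hv => (hpos v (Finset.mem_of_mem_erase hv)).le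
  have hz1 := hpos z hzmem
  have hzord : z.ord y = 1 := by
    have : z.ord y + ∑ v ∈ hfin.toFinset.erase z, v.ord y = 1 := hsplit.trans hsum
    omega
  have hrest0 : ∑ v ∈ hfin.toFinset.erase z, v.ord y = 0 := by
    have : z.ord y + ∑ v ∈ hfin.toFinset.erase z, v.ord y = 1 := hsplit.trans hsum
    omega
  refine ⟨z, hzord, fun z' hz' => ?_⟩
  by_contra hne'
  have hmem' : z' ∈ hfin.toFinset.erase z := by
    rw [Finset.mem_erase]
    exact ⟨hne', by simpa using hz'⟩
  have := Finset.single_le_sum (f := fun v : Place k F => v.ord y)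
    (fun v hv => (hpos v (Finset.mem_of_mem_erase hv)).le) hmem'
  have h3 : 0 < z'.ord y := hz'
  have h4 : z'.ord y ≤ ∑ v ∈ hfin.toFinset.erase z, v.ord y := this
  omega

/-- `x - β` has exactly one zero, and it is simple. -/
theorem rat_exists_zero (hz : H59.ZerosStmt k F) {x : F} (hx : Transcendental k x)
    (htop : k⟮x⟯ = ⊤) (β : k) :
    ∃ z : Place k F, z.ord (x - algebraMap k F β) = 1 ∧
      ∀ z' : Place k F, 0 < z'.ord (x - algebraMap k F β) → z' = z :=
  rat_gen_zero hz (rat_transcendental_sub hx β) (rat_adjoin_sub htop β)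

/-- `x` has exactly one pole, and it is simple. -/
theorem rat_exists_pole (hz : H59.ZerosStmt k F) {x : F} (hx : Transcendental k x)
    (htop : k⟮x⟯ = ⊤) :
    ∃ z : Place k F, z.ord x = -1 ∧ ∀ z' : Place k F, z'.ord x < 0 → z' = z := by
  have htr : Transcendental k x⁻¹ := fun h => hx (IsAlgebraic.inv_iff.mp h)
  have htop' : k⟮x⁻¹⟯ = ⊤ := by rw [H59.adjoin_inv_eq, htop]
  obtain ⟨z, h1, h2⟩ := rat_gen_zero hz htr htop'
  refine ⟨z, ?_, fun z' hz' => h2 z' ?_⟩
  · rw [Place.ord_inv] at h1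
    omega
  · rw [Place.ord_inv]
    omega

/-- At a place where `x` has the value `β`, `x - β` is a uniformizer. -/
theorem rat_ord_sub_value (hz : H59.ZerosStmt k F) {x : F} (hx : Transcendental k x)
    (htop : k⟮x⟯ = ⊤) {z : Place k F} {β : k} (h : VanAt z (x - algebraMap k F β)) :
    z.ord (x - algebraMap k F β) = 1 := by
  obtain ⟨z₀, h1, h2⟩ := rat_exists_zero hz hx htop β
  have hne : x - algebraMap k F β ≠ 0 := fun h0 =>
    rat_transcendental_sub hx β (h0 ▸ isAlgebraic_zero)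
  rw [h2 z (h.ord_pos hne)]
  exact h1

/-- Two places where `x` has the same value are equal. -/
theorem rat_place_ext (hz : H59.ZerosStmt k F) {x : F} (hx : Transcendental k x)
    (htop : k⟮x⟯ = ⊤) {z z' : Place k F} {β : k} (h : VanAt z (x - algebraMap k F β))
    (h' : VanAt z' (x - algebraMap k F β)) : z = z' := by
  obtain ⟨z₀, h1, h2⟩ := rat_exists_zero hz hx htop β
  have hne : x - algebraMap k F β ≠ 0 := fun h0 =>
    rat_transcendental_sub hx β (h0 ▸ isAlgebraic_zero)
  rw [h2 z (h.ord_pos hne), h2 z' (h'.ord_pos hne)]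

theorem rat_aeval_ne_zero {x : F} (hx : Transcendental k x) {P : k[X]} (hP : P ≠ 0) :
    aeval x P ≠ 0 := fun h => hx ⟨P, hP, h⟩

/-- `P(x)` is regular where `x` is regular. -/
theorem rat_regAt_aeval {x : F} {z : Place k F} (hreg : RegAt z x) (Q : k[X]) :
    RegAt z (aeval x Q) := by
  induction Q using Polynomial.induction_on' with
  | add p q hp hq => rw [map_add]; exact hp.add hq
  | monomial n a =>
    rw [aeval_monomial]
    exact (regAt_algebraMap z a).mul (hreg.pow n)

/-- `P(x) - P(β)` vanishes where `x - β` vanishes. -/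
theorem rat_vanAt_aeval_sub {x : F} {z : Place k F} {β : k}
    (h : VanAt z (x - algebraMap k F β)) (P : k[X]) :
    VanAt z (aeval x P - algebraMap k F (P.eval β)) := by
  have hreg : RegAt z x := RegAt.of_vanAt_sub h
  obtain ⟨Q, hQ⟩ : (X - C β) ∣ P - C (P.eval β) := by
    rw [dvd_iff_isRoot]
    simp
  have e : aeval x P - algebraMap k F (P.eval β) = (x - algebraMap k F β) * aeval x Q := by
    have := congrArg (aeval x) hQ
    simpa using this
  rw [e]
  exact h.mul_regAt (rat_regAt_aeval hreg Q)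

/-- `P(x)` has order `0` where `x` has a value `β` with `P(β) ≠ 0`. -/
theorem rat_ord_aeval_eq_zero {x : F} {z : Place k F} {β : k}
    (h : VanAt z (x - algebraMap k F β)) {P : k[X]} (hP : P.eval β ≠ 0) :
    z.ord (aeval x P) = 0 := by
  have h1 := rat_vanAt_aeval_sub h P
  have hc : z.ord (algebraMap k F (P.eval β)) = 0 := ord_algebraMap z _
  have hcne : algebraMap k F (P.eval β) ≠ 0 :=
    (map_ne_zero_iff _ (algebraMap k F).injective).mpr hP
  have e : aeval x P = algebraMap k F (P.eval β) + (aeval x P - algebraMap k F (P.eval β)) := by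
    ring
  rw [e, ord_add_of_lt z hcne, hc]
  rcases (vanAt_iff_ord z _).mp h1 with h0 | h0
  · exact Or.inl h0
  · right
    rw [hc]
    exact h0

/-- **The order of `P(x)`** at the place where `x = β` is the multiplicity of the root `β`. -/
theorem rat_ord_aeval (hz : H59.ZerosStmt k F) {x : F} (hx : Transcendental k x)
    (htop : k⟮x⟯ = ⊤) {z : Place k F} {β : k} (h : VanAt z (x - algebraMap k F β))
    {P : k[X]} (hP : P ≠ 0) : z.ord (aeval x P) = (P.rootMultiplicity β : ℤ) := by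
  obtain ⟨Q, hQ, hQβ⟩ := exists_eq_pow_rootMultiplicity_mul_and_not_dvd P hP β
  have hQ0 : Q.eval β ≠ 0 := fun h0 => hQβ (dvd_iff_isRoot.mpr h0)
  have hne : x - algebraMap k F β ≠ 0 := fun h0 =>
    rat_transcendental_sub hx β (h0 ▸ isAlgebraic_zero)
  have hQne : Q ≠ 0 := fun h0 => hQ0 (by rw [h0, eval_zero])
  have e : aeval x P = (x - algebraMap k F β) ^ P.rootMultiplicity β * aeval x Q := by
    conv_lhs => rw [hQ]
    simp
  rw [e, z.ord_mul (pow_ne_zero _ hne) (rat_aeval_ne_zero hx hQne), ord_pow,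
    rat_ord_sub_value hz hx htop h, rat_ord_aeval_eq_zero h hQ0]
  ring

/-- **A function regular at the place `x = β` is `N(x) / D(x)` with `D(β) ≠ 0`.** -/
theorem rat_exists_fraction (hz : H59.ZerosStmt k F) {x : F} (hx : Transcendental k x)
    (htop : k⟮x⟯ = ⊤) {z : Place k F} {β : k} (h : VanAt z (x - algebraMap k F β))
    (ψ : F) (hψ : 0 ≤ z.ord ψ) :
    ∃ N D : k[X], D.eval β ≠ 0 ∧ ψ * aeval x D = aeval x N := by
  by_cases hψ0 : ψ = 0
  · exact ⟨0, 1, by simp, by simp [hψ0]⟩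
  have hmem : ψ ∈ k⟮x⟯ := by rw [htop]; exact IntermediateField.mem_top
  obtain ⟨N₀, D₀, hfrac⟩ := (IntermediateField.mem_adjoin_simple_iff k ψ).mp hmem
  have hD₀ : D₀ ≠ 0 := by
    rintro rfl
    rw [map_zero, div_zero] at hfrac
    exact hψ0 hfrac
  have hN₀ : N₀ ≠ 0 := by
    rintro rfl
    rw [map_zero, zero_div] at hfrac
    exact hψ0 hfrac
  obtain ⟨N₁, hN₁, hN₁β⟩ := exists_eq_pow_rootMultiplicity_mul_and_not_dvd N₀ hN₀ β
  obtain ⟨D₁, hD₁, hD₁β⟩ := exists_eq_pow_rootMultiplicity_mul_and_not_dvd D₀ hD₀ β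
  have hD₁0 : D₁.eval β ≠ 0 := fun h0 => hD₁β (dvd_iff_isRoot.mpr h0)
  have hD₁ne : D₁ ≠ 0 := fun h0 => hD₁0 (by rw [h0, eval_zero])
  have hne : x - algebraMap k F β ≠ 0 := fun h0 =>
    rat_transcendental_sub hx β (h0 ▸ isAlgebraic_zero)
  have hoN := rat_ord_aeval hz hx htop h hN₀
  have hoD := rat_ord_aeval hz hx htop h hD₀
  have hDx : aeval x D₀ ≠ 0 := rat_aeval_ne_zero hx hD₀
  have hNx : aeval x N₀ ≠ 0 := rat_aeval_ne_zero hx hN₀
  have hord : z.ord ψ = (N₀.rootMultiplicity β : ℤ) - (D₀.rootMultiplicity β : ℤ) := by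
    rw [hfrac, ord_div z hNx hDx, hoN, hoD]
  have hle : D₀.rootMultiplicity β ≤ N₀.rootMultiplicity β := by omega
  obtain ⟨m, hm⟩ := Nat.exists_eq_add_of_le hle
  refine ⟨(X - C β) ^ m * N₁, D₁, hD₁0, ?_⟩
  have eN : aeval x N₀ = (x - algebraMap k F β) ^ N₀.rootMultiplicity β * aeval x N₁ := by
    conv_lhs => rw [hN₁]
    simp
  have eD : aeval x D₀ = (x - algebraMap k F β) ^ D₀.rootMultiplicity β * aeval x D₁ := by
    conv_lhs => rw [hD₁]
    simp
  have hD₁x : aeval x D₁ ≠ 0 := rat_aeval_ne_zero hx hD₁ne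
  have hpow : (x - algebraMap k F β) ^ D₀.rootMultiplicity β ≠ 0 := pow_ne_zero _ hne
  rw [hfrac, eN, eD, hm, pow_add]
  simp only [map_mul, map_pow, map_sub, aeval_X, aeval_C]
  field_simp

/-- **The Riemann genus of a rational function field is `0`.** -/
theorem rat_genus_eq_zero (H : FFHyp k F) (hz : H59.ZerosStmt k F) {x : F}
    (hx : Transcendental k x) (htop : k⟮x⟯ = ⊤) {g : ℕ} {c : ℤ} (hg : IsGenus k F g c) :
    g = 0 := by
  classical
  obtain ⟨z, hzord, hzuniq⟩ := rat_exists_pole hz hx htop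
  set n : ℕ := c.toNat with hn
  set D : Divisor k F := Finsupp.single z (n : ℤ) with hD
  have hdeg : Divisor.degree D = n := by
    rw [hD, Divisor.degree_single, H.deg_one, Nat.cast_one, mul_one]
  have hc : c ≤ Divisor.degree D := by
    rw [hdeg, hn]
    exact Int.self_le_toNat c
  have hfin := (hg D).2 hc
  rw [hdeg] at hfin
  have hfinD : Module.Finite k ↥(riemannRochSpace D) := H.finite D
  -- the powers of `x` are in `L(D)`
  have hmem : ∀ i : Fin (n + 1), x ^ (i : ℕ) ∈ riemannRochSpace D := by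
    intro i
    rw [mem_L_iff_ord]
    intro v
    right
    rw [ord_pow]
    by_cases hv : v = z
    · subst hv
      rw [hD, Finsupp.single_eq_same, hzord]
      have : ((i : ℕ) : ℤ) ≤ n := by exact_mod_cast Nat.lt_succ_iff.mp i.2
      linarith
    · rw [hD, Finsupp.single_eq_of_ne hv, neg_zero]
      have : 0 ≤ v.ord x := by
        by_contra hneg
        exact hv (hzuniq v (not_le.mp hneg))
      positivity
  have hli : LinearIndependent k (fun i : Fin (n + 1) => (⟨x ^ (i : ℕ), hmem i⟩ : ↥(riemannRochSpace D))) := by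
    have h1 : LinearIndependent k (fun i : Fin (n + 1) => x ^ (i : ℕ)) := by
      have hinj := (transcendental_iff_injective.mp hx)
      have hpow : LinearIndependent k (fun i : ℕ => x ^ i) := by
        have h0 := (Polynomial.basisMonomials k).linearIndependent.map' (aeval x).toLinearMap
          (LinearMap.ker_eq_bot.mpr hinj)
        have e : (fun i : ℕ => x ^ i) = ⇑(aeval x).toLinearMap ∘ ⇑(basisMonomials k) := by
          funext i
          rw [Function.comp_apply, Polynomial.coe_basisMonomials, AlgHom.toLinearMap_apply,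
            aeval_monomial, map_one, one_mul]
        rw [e]
        exact h0
      exact hpow.comp _ Fin.val_injective
    exact LinearIndependent.of_comp (riemannRochSpace D).subtype (by simpa [Function.comp_def] using h1)
  have hcard := hli.fintype_card_le_finrank
  rw [Fintype.card_fin] at hcard
  have : ((n + 1 : ℕ) : ℤ) ≤ (n : ℤ) + 1 - g := by
    rw [← hfin]
    exact_mod_cast hcard
  push_cast at this
  omega

end Fermat.Agent.S15.Desc.H67

end
end
-- ==== END Fermat.Agent.S15.Desc.H67_CoordRat
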