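-- GENERATED (merged mirror, NOTES/tools/trim/merge3_helper67.py): 5 modules of the originals, bodies verbatim.
import Fermat.Agent.Zm.S15_L01_000
import Fermat.Agent.S15.An.H67_Liouville
import Fermat.Agent.S15.H11_BRDefs
import Fermat.Agent.Lib.Torsion.H11_Order
import Fermat.Agent.Zm.S35_L11_001
import Fermat.Agent.Zm.S35_L14_002
import Fermat.Agent.Zm.S35_L13_002
import Fermat.Agent.Zm.S35_L03_005
import Fermat.Agent.Zm.S35_L01_003
import Fermat.Agent.Zm.S15_L01_002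
import Fermat.Agent.Zm.S33_L04_001
import Fermat.Agent.Zm.S15_L01_001

-- ==== BEGIN Fermat.Agent.S15.An.H67_LiouvProd
section

set_option autoImplicit false

noncomputable section

open scoped PeriodPair Topology
open Filter

namespace Fermat.Agent.S15.An.H67

/-- The hypotheses of AN-LIOUV on `Λ ⊂ Λ' = Λ + ℤ z₀`. -/
structure Setup (L L' : PeriodPair) (p : ℕ) (z₀ : ℂ) : Prop where
  hp : p.Prime
  hp2 : p ≠ 2
  hz₀ : z₀ ∉ L.lattice
  hpz₀ : (p : ℂ) * z₀ ∈ L.lattice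
  hL' : ∀ z : ℂ, z ∈ L'.lattice ↔ ∃ k : ℤ, z - (k : ℂ) * z₀ ∈ L.lattice

namespace Setup

variable {L L' : PeriodPair} {p : ℕ} {z₀ : ℂ} (S : Setup L L' p z₀)
include S

theorem sub_lattice {z : ℂ} (hz : z ∈ L.lattice) : z ∈ L'.lattice :=
  (S.hL' z).mpr ⟨0, by simpa using hz⟩

theorem z₀_mem : z₀ ∈ L'.lattice :=
  (S.hL' z₀).mpr ⟨1, by simp⟩

theorem int_mul_mem (k : ℤ) : (k : ℂ) * z₀ ∈ L'.lattice :=
  (S.hL' _).mpr ⟨k, by simp⟩

theorem int_mul_p_mem (k : ℤ) : (k : ℂ) * ((p : ℂ) * z₀) ∈ L.lattice := by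
  have := L.lattice.smul_mem k S.hpz₀
  simpa [zsmul_eq_mul] using this

theorem int_mul_notMem (n : ℤ) (hn : ¬ (p : ℤ) ∣ n) : (n : ℂ) * z₀ ∉ L.lattice := by
  intro h
  have hcop : IsCoprime n (p : ℤ) := by
    have hp' : Prime (p : ℤ) := Nat.prime_iff_prime_int.mp S.hp
    exact (hp'.coprime_iff_not_dvd.mpr hn).symm
  obtain ⟨a, b, hab⟩ := hcop
  apply S.hz₀
  have h1 : (a : ℂ) * ((n : ℂ) * z₀) ∈ L.lattice := by
    have := L.lattice.smul_mem a h
    simpa [zsmul_eq_mul] using this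
  have h2 := S.int_mul_p_mem b
  have h3 : z₀ = (a : ℂ) * ((n : ℂ) * z₀) + (b : ℂ) * ((p : ℂ) * z₀) := by
    have : ((a * n + b * p : ℤ) : ℂ) = 1 := by rw [hab]; simp
    push_cast at this
    linear_combination (-z₀) * this
  rw [h3]
  exact L.lattice.add_mem h1 h2

theorem nat_mul_notMem (k : ℕ) (hk0 : 0 < k) (hkp : k < p) : (k : ℂ) * z₀ ∉ L.lattice := by
  have := S.int_mul_notMem (k : ℤ) (by
    intro h
    have h' : p ∣ k := by exact_mod_cast h
    exact absurd (Nat.le_of_dvd hk0 h') (by omega))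
  simpa using this

theorem add_int_mul_notMem {z : ℂ} (hz : z ∉ L'.lattice) (k : ℤ) :
    z + (k : ℂ) * z₀ ∉ L.lattice := by
  intro h
  apply hz
  refine (S.hL' z).mpr ⟨-k, ?_⟩
  have : z - ((-k : ℤ) : ℂ) * z₀ = z + (k : ℂ) * z₀ := by push_cast; ring
  rw [this]
  exact h

theorem add_nat_mul_notMem {z : ℂ} (hz : z ∉ L'.lattice) (k : ℕ) :
    z + (k : ℂ) * z₀ ∉ L.lattice := by
  have := S.add_int_mul_notMem hz (k : ℤ)
  simpa using this

omit S in
/-- `℘_Λ` is invariant under translation by elements of `Λ`. -/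
theorem wp_add_of_mem (L : PeriodPair) (z : ℂ) {l : ℂ} (hl : l ∈ L.lattice) :
    ℘[L] (z + l) = ℘[L] z :=
  L.weierstrassP_add_coe z ⟨l, hl⟩

theorem wp_add_p (z : ℂ) : ℘[L] (z + (p : ℂ) * z₀) = ℘[L] z :=
  wp_add_of_mem L z S.hpz₀

end Setup

/-- `F_e(z) = ∏_{k < p} (℘(z + k z₀) - e)`. -/
def Fprod (L : PeriodPair) (p : ℕ) (z₀ e z : ℂ) : ℂ :=
  ∏ k ∈ Finset.range p, (℘[L] (z + (k : ℂ) * z₀) - e)

/-- `H_e(z) = ∏_{0 < k < p} (℘(z + k z₀) - e)`. -/
def Hprod (L : PeriodPair) (p : ℕ) (z₀ e z : ℂ) : ℂ :=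
  ∏ k ∈ Finset.Ico 1 p, (℘[L] (z + (k : ℂ) * z₀) - e)

theorem Hprod_zero (L : PeriodPair) (p : ℕ) (z₀ e : ℂ) : Hprod L p z₀ e 0 = XiAn L p z₀ e := by
  simp [Hprod, XiAn]

theorem Fprod_eq (L : PeriodPair) (p : ℕ) (hp : 0 < p) (z₀ e z : ℂ) :
    Fprod L p z₀ e z = (℘[L] z - e) * Hprod L p z₀ e z := by
  unfold Fprod Hprod
  rw [Finset.range_eq_Ico, Finset.prod_eq_prod_Ico_succ_bot hp]
  simp

namespace Setup

variable {L L' : PeriodPair} {p : ℕ} {z₀ : ℂ} (S : Setup L L' p z₀)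
include S

theorem Fprod_add_z₀ (e z : ℂ) : Fprod L p z₀ e (z + z₀) = Fprod L p z₀ e z := by
  obtain ⟨m, rfl⟩ : ∃ m, p = m + 1 := ⟨p - 1, by have := S.hp.pos; omega⟩
  unfold Fprod
  rw [Finset.prod_range_succ, Finset.prod_range_succ']
  have h1 : ∀ k : ℕ, z + z₀ + (k : ℂ) * z₀ = z + ((k + 1 : ℕ) : ℂ) * z₀ := by
    intro k; push_cast; ring
  simp only [h1]
  have h2 : ℘[L] (z + ((m + 1 : ℕ) : ℂ) * z₀) = ℘[L] (z + ((0 : ℕ) : ℂ) * z₀) := by
    rw [S.wp_add_p z]; simp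
  rw [h2]

theorem Fprod_sub_z₀ (e z : ℂ) : Fprod L p z₀ e (z - z₀) = Fprod L p z₀ e z := by
  rw [← S.Fprod_add_z₀ e (z - z₀), sub_add_cancel]

theorem Fprod_add_int_mul (e z : ℂ) (k : ℤ) :
    Fprod L p z₀ e (z + (k : ℂ) * z₀) = Fprod L p z₀ e z := by
  induction k using Int.induction_on with
  | zero => simp
  | succ n ih =>
    have : z + ((n + 1 : ℤ) : ℂ) * z₀ = (z + ((n : ℤ) : ℂ) * z₀) + z₀ := by push_cast; ring
    rw [this, S.Fprod_add_z₀, ih]
  | pred n ih =>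
    have : z + ((-n - 1 : ℤ) : ℂ) * z₀ = (z + ((-n : ℤ) : ℂ) * z₀) - z₀ := by push_cast; ring
    rw [this, S.Fprod_sub_z₀, ih]

omit S in
theorem Fprod_add_of_mem (L : PeriodPair) (p : ℕ) (z₀ e z : ℂ) {l : ℂ} (hl : l ∈ L.lattice) :
    Fprod L p z₀ e (z + l) = Fprod L p z₀ e z := by
  unfold Fprod
  refine Finset.prod_congr rfl fun k _ => ?_
  have : z + l + (k : ℂ) * z₀ = (z + (k : ℂ) * z₀) + l := by ring
  rw [this, wp_add_of_mem L _ hl]

theorem Fprod_periodic (e z : ℂ) {l : ℂ} (hl : l ∈ L'.lattice) :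
    Fprod L p z₀ e (z + l) = Fprod L p z₀ e z := by
  obtain ⟨k, hk⟩ := (S.hL' l).mp hl
  have : z + l = (z + (l - (k : ℂ) * z₀)) + (k : ℂ) * z₀ := by ring
  rw [this, S.Fprod_add_int_mul, Fprod_add_of_mem L p z₀ e z hk]

theorem Fprod_analyticAt (e : ℂ) {z : ℂ} (hz : z ∉ L'.lattice) :
    AnalyticAt ℂ (Fprod L p z₀ e) z := by
  unfold Fprod
  apply Finset.analyticAt_fun_prod
  intro k _
  have h1 : AnalyticAt ℂ ℘[L] (z + (k : ℂ) * z₀) :=
    L.analyticOnNhd_weierstrassP _ (S.add_nat_mul_notMem hz k)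
  have h2 : AnalyticAt ℂ (fun w : ℂ => w + (k : ℂ) * z₀) z := by fun_prop
  have h3 : AnalyticAt ℂ (fun w : ℂ => ℘[L] (w + (k : ℂ) * z₀)) z :=
    h1.comp (f := fun w : ℂ => w + (k : ℂ) * z₀) h2
  exact h3.sub analyticAt_const

theorem Hprod_analyticAt_zero (e : ℂ) : AnalyticAt ℂ (Hprod L p z₀ e) 0 := by
  unfold Hprod
  apply Finset.analyticAt_fun_prod
  intro k hk
  rw [Finset.mem_Ico] at hk
  have h1 : AnalyticAt ℂ ℘[L] ((0 : ℂ) + (k : ℂ) * z₀) := by
    rw [zero_add]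
    exact L.analyticOnNhd_weierstrassP _ (S.nat_mul_notMem k (by omega) hk.2)
  have h2 : AnalyticAt ℂ (fun w : ℂ => w + (k : ℂ) * z₀) 0 := by fun_prop
  have h3 : AnalyticAt ℂ (fun w : ℂ => ℘[L] (w + (k : ℂ) * z₀)) 0 :=
    h1.comp (f := fun w : ℂ => w + (k : ℂ) * z₀) h2
  exact h3.sub analyticAt_const

theorem Hprod_neg (e z : ℂ) : Hprod L p z₀ e (-z) = Hprod L p z₀ e z := by
  unfold Hprod
  have hp1 : 1 ≤ p := S.hp.pos
  -- reflect k ↦ p - k
  have hrefl := Finset.prod_Ico_reflect (fun k => ℘[L] (z + (k : ℂ) * z₀) - e) 1 (n := p)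
    (m := p) (by omega)
  have hIco : Finset.Ico (p + 1 - p) (p + 1 - 1) = Finset.Ico 1 p := by
    congr 1 <;> omega
  rw [hIco] at hrefl
  rw [← hrefl]
  refine Finset.prod_congr rfl fun k hk => ?_
  rw [Finset.mem_Ico] at hk
  congr 1
  have hcast : ((p - k : ℕ) : ℂ) = (p : ℂ) - (k : ℂ) := by
    rw [Nat.cast_sub (by omega)]
  rw [hcast, ← L.weierstrassP_neg]
  have : -(-z + (k : ℂ) * z₀) = (z + ((p : ℂ) - (k : ℂ)) * z₀) + ((-1 : ℤ) : ℂ) * ((p : ℂ) * z₀) := by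
    push_cast; ring
  rw [this, wp_add_of_mem L _ (S.int_mul_p_mem (-1))]

/-- The key identity: `F_e - Ξ(e) ℘_Λ'` is constant off `Λ'`. -/
theorem exists_const (e : ℂ) :
    ∃ c : ℂ, ∀ z : ℂ, z ∉ L'.lattice →
      Fprod L p z₀ e z - XiAn L p z₀ e * ℘[L'] z = c := by
  obtain ⟨M, hM, hMeq⟩ := exists_sq_of_even (Hprod L p z₀ e) (S.Hprod_analyticAt_zero e)
    (Filter.Eventually.of_forall fun z => S.Hprod_neg e z)
  rw [Hprod_zero] at hMeq
  refine exists_const_of_periodic L'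
    (fun z => Fprod L p z₀ e z - XiAn L p z₀ e * ℘[L'] z)
    (fun z => M z + (℘[L - (0 : ℂ)] z - e) * Hprod L p z₀ e z
      - XiAn L p z₀ e * ℘[L' - (0 : ℂ)] z) ?_ ?_ ?_ ?_
  · intro z l
    show Fprod L p z₀ e (z + l) - XiAn L p z₀ e * ℘[L'] (z + l) =
      Fprod L p z₀ e z - XiAn L p z₀ e * ℘[L'] z
    rw [S.Fprod_periodic e z l.2, L'.weierstrassP_add_coe]
  · intro z hz
    have h1 := S.Fprod_analyticAt e hz
    have h2 : AnalyticAt ℂ ℘[L'] z := L'.analyticOnNhd_weierstrassP _ hz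
    exact h1.sub (analyticAt_const.mul h2)
  · have h1 : AnalyticAt ℂ ℘[L - (0 : ℂ)] 0 := L.analyticAt_weierstrassPExcept 0
    have h2 : AnalyticAt ℂ ℘[L' - (0 : ℂ)] 0 := L'.analyticAt_weierstrassPExcept 0
    have h3 := S.Hprod_analyticAt_zero e
    exact (hM.add ((h1.sub analyticAt_const).mul h3)).sub (analyticAt_const.mul h2)
  · rw [Filter.EventuallyEq, eventually_nhdsWithin_iff]
    filter_upwards [hMeq] with z hz hz0
    have hz0' : z ≠ 0 := hz0
    show Fprod L p z₀ e z - XiAn L p z₀ e * ℘[L'] z =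
      M z + (℘[L - (0 : ℂ)] z - e) * Hprod L p z₀ e z - XiAn L p z₀ e * ℘[L' - (0 : ℂ)] z
    rw [Fprod_eq L p S.hp.pos, hz]
    have e1 := L.weierstrassPExcept_def (0 : L.lattice) z
    have e2 := L'.weierstrassPExcept_def (0 : L'.lattice) z
    simp only [ZeroMemClass.coe_zero, sub_zero] at e1 e2
    rw [e1, e2]
    field_simp
    ring

end Setup

end Fermat.Agent.S15.An.H67

end
end
-- ==== END Fermat.Agent.S15.An.H67_LiouvProd

-- ==== BEGIN Fermat.Agent.S15.An.H87_Ladder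
section

set_option autoImplicit false

noncomputable section

open scoped PeriodPair

namespace Fermat.Agent.S15.An.H87

open WeierstrassCurve Fermat.Agent.Lib.Torsion.H11

/-! ### The analytic x-only relation -/

/-- The symmetric biquadratic form of the short model `y² = 4 x³ - g₂ x - g₃`. -/
def symS (g2 g3 u v t : ℂ) : ℂ :=
  (u ^ 2 * v ^ 2 + u ^ 2 * t ^ 2 + v ^ 2 * t ^ 2) - 2 * u * v * t * (u + v + t)
    + g2 / 2 * (u * v + u * t + v * t) + g3 * (u + v + t) + g2 ^ 2 / 16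

/-- The analytic x-only addition relation. -/
theorem an_rel (hadd : Stmt_add) (L : PeriodPair) {u v : ℂ} (hu : u ∉ L.lattice)
    (hv : v ∉ L.lattice) (huv : u + v ∉ L.lattice) (huv' : u - v ∉ L.lattice)
    (hne : ℘[L] u ≠ ℘[L] v) (t : ℂ) :
    (℘[L] (u + v) - t) * (℘[L] (u - v) - t) * (℘[L] u - ℘[L] v) ^ 2 =
      symS L.g₂ L.g₃ (℘[L] u) (℘[L] v) t := by
  have hD : ℘[L] u - ℘[L] v ≠ 0 := sub_ne_zero.2 hne
  have hnv : -v ∉ L.lattice := fun h => hv (by simpa using L.lattice.neg_mem h)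
  have a := hadd L u v hu hv huv
  have b := hadd L u (-v) hu hnv (by rwa [← sub_eq_add_neg])
  rw [← sub_eq_add_neg, L.weierstrassP_neg, L.derivWeierstrassP_neg] at b
  have E1 := L.derivWeierstrassP_sq u hu
  have E2 := L.derivWeierstrassP_sq v hv
  apply mul_right_cancel₀ (pow_ne_zero 2 hD)
  unfold symS
  linear_combination
    (℘[L] (u - v) - t) * (℘[L] u - ℘[L] v) ^ 2 * a
    + (1 / 4 * (℘'[L] u - ℘'[L] v) ^ 2
        - (℘[L] u + ℘[L] v + t) * (℘[L] u - ℘[L] v) ^ 2) * b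
    + (1 / 16 * (℘'[L] u ^ 2 - ℘'[L] v ^ 2 + (4 * ℘[L] u ^ 3 - L.g₂ * ℘[L] u - L.g₃)
          - (4 * ℘[L] v ^ 3 - L.g₂ * ℘[L] v - L.g₃))
        - (℘[L] u + ℘[L] v + t) * (℘[L] u - ℘[L] v) ^ 2 / 2) * E1
    + (-(1 / 16 * (℘'[L] u ^ 2 - ℘'[L] v ^ 2 + (4 * ℘[L] u ^ 3 - L.g₂ * ℘[L] u - L.g₃)
          - (4 * ℘[L] v ^ 3 - L.g₂ * ℘[L] v - L.g₃)))
        - (℘[L] u + ℘[L] v + t) * (℘[L] u - ℘[L] v) ^ 2 / 2) * E2

/-! ### The algebraic x-only relations, in `ℂ` -/

section alg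

open Fermat.Agent.S15.H11 Fermat.Agent.S24

variable (W : WeierstrassCurve ℤ)

/-- The shifted `x`-coordinate `ι x(P) + b₂/12` (the `℘`-value). -/
def Xs (P : (EBar W).Point) : ℂ := iotaC (xc (EBar W) P) + (W.b₂ : ℂ) / 12

lemma iotaC_injective : Function.Injective iotaC := iotaC.injective

lemma Xs_eq_iff {P P' : (EBar W).Point} : Xs W P = Xs W P' ↔ xc (EBar W) P = xc (EBar W) P' := by
  unfold Xs
  constructor
  · intro h
    exact _root_.Fermat.Agent.S15.An.H87.iotaC_injective (add_right_cancel h)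
  · intro h
    rw [h]

lemma EBar_b₂ : (EBar W).b₂ = ((W.b₂ : ℤ) : Qb) := EB_b₂ W
lemma EBar_b₄ : (EBar W).b₄ = ((W.b₄ : ℤ) : Qb) := EB_b₄ W
lemma EBar_b₆ : (EBar W).b₆ = ((W.b₆ : ℤ) : Qb) := EB_b₆ W
lemma EBar_b₈ : (EBar W).b₈ = ((W.b₈ : ℤ) : Qb) := EB_b₈ W

/-- The form `symF` of `W` is the form `symS` of the short model after the shift. -/
lemma symF_shift (x₁ x₂ t : Qb) :
    iotaC (symF (EBar W) x₁ x₂ t) =
      symS ((W.c₄ : ℂ) / 12) ((W.c₆ : ℂ) / 216) (iotaC x₁ + (W.b₂ : ℂ) / 12)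
        (iotaC x₂ + (W.b₂ : ℂ) / 12) (iotaC t + (W.b₂ : ℂ) / 12) := by
  have hrel : (4 : ℂ) * (W.b₈ : ℂ) = (W.b₂ : ℂ) * (W.b₆ : ℂ) - (W.b₄ : ℂ) ^ 2 := by
    exact_mod_cast congrArg (Int.cast : ℤ → ℂ) W.b_relation
  have hc4 : (W.c₄ : ℂ) = (W.b₂ : ℂ) ^ 2 - 24 * (W.b₄ : ℂ) := by
    simp only [WeierstrassCurve.c₄]; push_cast; ring
  have hc6 : (W.c₆ : ℂ) = -(W.b₂ : ℂ) ^ 3 + 36 * (W.b₂ : ℂ) * (W.b₄ : ℂ) - 216 * (W.b₆ : ℂ) := by
    simp only [WeierstrassCurve.c₆]; push_cast; ring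
  unfold symF symS
  rw [EBar_b₂, EBar_b₄, EBar_b₆, EBar_b₈, hc4, hc6]
  simp only [map_sub, map_add, map_mul, map_pow, map_ofNat, map_intCast]
  linear_combination (-1 / 4 : ℂ) * hrel

/-- `ψ₂²` after the shift. -/
lemma psi2sq_shift (x : Qb) :
    iotaC (psi2sq (EBar W) x) =
      4 * (iotaC x + (W.b₂ : ℂ) / 12) ^ 3 - (W.c₄ : ℂ) / 12 * (iotaC x + (W.b₂ : ℂ) / 12)
        - (W.c₆ : ℂ) / 216 := by
  have hc4 : (W.c₄ : ℂ) = (W.b₂ : ℂ) ^ 2 - 24 * (W.b₄ : ℂ) := by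
    simp only [WeierstrassCurve.c₄]; push_cast; ring
  have hc6 : (W.c₆ : ℂ) = -(W.b₂ : ℂ) ^ 3 + 36 * (W.b₂ : ℂ) * (W.b₄ : ℂ) - 216 * (W.b₆ : ℂ) := by
    simp only [WeierstrassCurve.c₆]; push_cast; ring
  unfold psi2sq
  rw [EBar_b₂, EBar_b₄, EBar_b₆, hc4, hc6]
  simp only [map_add, map_mul, map_pow, map_ofNat, map_intCast]
  ring

/-- `φ₂` after the shift. -/
lemma phi2_shift (x : Qb) :
    iotaC (phi2 (EBar W) x) =
      1 / 4 * (6 * (iotaC x + (W.b₂ : ℂ) / 12) ^ 2 - (W.c₄ : ℂ) / 12 / 2) ^ 2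
        - (2 * (iotaC x + (W.b₂ : ℂ) / 12) + (W.b₂ : ℂ) / 12) * iotaC (psi2sq (EBar W) x) := by
  have hrel : (4 : ℂ) * (W.b₈ : ℂ) = (W.b₂ : ℂ) * (W.b₆ : ℂ) - (W.b₄ : ℂ) ^ 2 := by
    exact_mod_cast congrArg (Int.cast : ℤ → ℂ) W.b_relation
  have hc4 : (W.c₄ : ℂ) = (W.b₂ : ℂ) ^ 2 - 24 * (W.b₄ : ℂ) := by
    simp only [WeierstrassCurve.c₄]; push_cast; ring
  unfold phi2 psi2sq
  rw [EBar_b₂, EBar_b₄, EBar_b₆, EBar_b₈, hc4]
  simp only [map_sub, map_add, map_mul, map_pow, map_ofNat, map_intCast]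
  linear_combination (-1 / 4 : ℂ) * hrel

/-- The algebraic addition relation in `ℂ`. -/
theorem alg_rel_C {A B : (EBar W).Point} (hA : A ≠ 0) (hB : B ≠ 0)
    (hx : xc (EBar W) A ≠ xc (EBar W) B) :
    symS ((W.c₄ : ℂ) / 12) ((W.c₆ : ℂ) / 216) (Xs W A) (Xs W B) (Xs W (A + B)) = 0 := by
  have h := xc_add_rel (EBar W) hA hB hx (xc (EBar W) (A + B))
  rw [sub_self, zero_mul, zero_mul] at h
  unfold Xs
  rw [← symF_shift, ← h, _root_.map_zero]

/-- The algebraic duplication relation in `ℂ`. -/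
theorem alg_dup_C {x y : Qb} (h : (EBar W).Nonsingular x y) (hy : y ≠ (EBar W).negY x y) :
    (Xs W ((2 : ℕ) • Affine.Point.some x y h) + 2 * Xs W (Affine.Point.some x y h)) *
        iotaC (psi2sq (EBar W) x) =
      1 / 4 * (6 * Xs W (Affine.Point.some x y h) ^ 2 - (W.c₄ : ℂ) / 12 / 2) ^ 2 := by
  have h2 := congrArg iotaC (xc_two_smul (EBar W) h hy)
  rw [map_mul, phi2_shift] at h2
  unfold Xs
  rw [xc_some]
  linear_combination h2

end alg

/-! ### Periodicity -/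

section periodic

variable (L : PeriodPair)

lemma wp_eq_of_add_mem {a b : ℂ} (h : a + b ∈ L.lattice) : ℘[L] a = ℘[L] b := by
  have e : a = -b + ((⟨a + b, h⟩ : L.lattice) : ℂ) := by
    show a = -b + (a + b)
    ring
  calc ℘[L] a = ℘[L] (-b + ((⟨a + b, h⟩ : L.lattice) : ℂ)) := congrArg _ e
    _ = ℘[L] (-b) := L.weierstrassP_add_coe _ _
    _ = ℘[L] b := L.weierstrassP_neg b

lemma wp'_eq_neg_of_add_mem {a b : ℂ} (h : a + b ∈ L.lattice) : ℘'[L] a = -℘'[L] b := by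
  have e : a = -b + ((⟨a + b, h⟩ : L.lattice) : ℂ) := by
    show a = -b + (a + b)
    ring
  calc ℘'[L] a = ℘'[L] (-b + ((⟨a + b, h⟩ : L.lattice) : ℂ)) := congrArg _ e
    _ = ℘'[L] (-b) := L.derivWeierstrassP_add_coe _ _
    _ = -℘'[L] b := L.derivWeierstrassP_neg b

end periodic

/-! ### The ladder -/

section ladder

open Fermat.Agent.S15.H11 Fermat.Agent.S24

variable {W : WeierstrassCurve ℤ} {p : ℕ} {Q : (EBar W).Point}

lemma nsmul_ne_zero_of_lt (hord : addOrderOf Q = p) {k : ℕ} (hk0 : 0 < k) (hkp : k < p) :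
    k • Q ≠ 0 :=
  nsmul_ne_zero_of_lt_addOrderOf hk0.ne' (hord ▸ hkp)

/-- Multiples of `Q` with the same `x`-coordinate. -/
lemma eq_or_add_eq_of_xc_eq (hord : addOrderOf Q = p) {j k : ℕ} (hj0 : 0 < j)
    (hjp : j < p) (hk0 : 0 < k) (hkp : k < p)
    (h : xc (EBar W) (j • Q) = xc (EBar W) (k • Q)) : j = k ∨ j + k = p := by
  rcases eq_or_eq_neg_of_xc_eq (EBar W) (nsmul_ne_zero_of_lt hord hj0 hjp)
    (nsmul_ne_zero_of_lt hord hk0 hkp) h with h1 | h1
  · left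
    have h2 := nsmul_eq_nsmul_iff_modEq.1 h1
    rw [hord] at h2
    exact h2.eq_of_lt_of_lt hjp hkp
  · right
    have h2 : (j + k) • Q = 0 := by
      rw [add_nsmul, h1, neg_add_cancel]
    have h3 : p ∣ j + k := by
      rw [← hord]
      exact addOrderOf_dvd_iff_nsmul_eq_zero.2 h2
    obtain ⟨c, hc⟩ := h3
    have hc1 : c = 1 := by
      rcases Nat.lt_or_ge c 1 with h0 | h1'
      · have : c = 0 := by omega
        subst this
        omega
      · rcases Nat.lt_or_ge c 2 with h0 | h2'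
        · omega
        · exfalso
          have : p * 2 ≤ p * c := Nat.mul_le_mul_left p h2'
          omega
    rw [hc, hc1, mul_one]

/-- The ladder statement at level `k`. -/
def LadderAt (W : WeierstrassCurve ℤ) (Q : (EBar W).Point) (L : PeriodPair) (z₀ : ℂ)
    (k : ℕ) : Prop :=
  (k : ℂ) * z₀ ∉ L.lattice ∧ ℘[L] ((k : ℂ) * z₀) = Xs W (k • Q)

/-- The induction step of the ladder. -/
theorem ladder_step (hadd : Stmt_add) (hp : p.Prime) (hp2 : p ≠ 2)
    (hord : addOrderOf Q = p) (L : PeriodPair) (hg2 : L.g₂ = (W.c₄ : ℂ) / 12)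
    (hg3 : L.g₃ = (W.c₆ : ℂ) / 216) {z₀ : ℂ} {n : ℕ} (hn : n + 3 < p)
    (h1 : LadderAt W Q L z₀ 1) (ha : LadderAt W Q L z₀ (n + 1))
    (hb : LadderAt W Q L z₀ (n + 2)) : LadderAt W Q L z₀ (n + 3) := by
  obtain ⟨hz1, hw1⟩ := h1
  obtain ⟨hza, hwa⟩ := ha
  obtain ⟨hzb, hwb⟩ := hb
  rw [Nat.cast_one, one_mul] at hz1 hw1
  rw [one_nsmul] at hw1
  have hu : (((n + 3 : ℕ) : ℂ)) * z₀ = ((n + 2 : ℕ) : ℂ) * z₀ + z₀ := by push_cast; ring
  have hd : (((n + 1 : ℕ) : ℂ)) * z₀ = ((n + 2 : ℕ) : ℂ) * z₀ - z₀ := by push_cast; ring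
  have hQb : (n + 2) • Q ≠ 0 := nsmul_ne_zero_of_lt hord (by omega) (by omega)
  have hQ1 : Q ≠ 0 := by
    have := nsmul_ne_zero_of_lt hord (k := 1) (by omega) (by omega)
    rwa [one_nsmul] at this
  -- `x((n+2)Q) ≠ x(Q)`
  have hxne : xc (EBar W) ((n + 2) • Q) ≠ xc (EBar W) Q := by
    intro h
    have h' : xc (EBar W) ((n + 2) • Q) = xc (EBar W) (1 • Q) := by rw [one_nsmul]; exact h
    rcases eq_or_add_eq_of_xc_eq hord (by omega) (by omega) (by omega) (by omega) h' with h2 | h2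
    · omega
    · omega
  have hXne : Xs W ((n + 2) • Q) ≠ Xs W Q := fun h => hxne ((Xs_eq_iff W).1 h)
  have hwne : ℘[L] (((n + 2 : ℕ) : ℂ) * z₀) ≠ ℘[L] z₀ := by
    rw [hwb, hw1]; exact hXne
  -- `(n+3) z₀ ∉ Λ`
  have hzc : ((n + 3 : ℕ) : ℂ) * z₀ ∉ L.lattice := by
    intro hmem
    rw [hu] at hmem
    exact hwne (wp_eq_of_add_mem L hmem)
  refine ⟨hzc, ?_⟩
  have hrel := an_rel hadd L hzb hz1 (by rw [← hu]; exact hzc) (by rw [← hd]; exact hza) hwne
    (Xs W ((n + 3) • Q))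
  have halg := alg_rel_C W hQb hQ1 hxne
  have hsum : (n + 2) • Q + Q = (n + 3) • Q := (succ_nsmul Q (n + 2)).symm
  rw [hsum] at halg
  rw [← hu, ← hd, hwa, hwb, hw1, hg2, hg3, halg] at hrel
  rcases mul_eq_zero.1 hrel with h3 | h3
  · rcases mul_eq_zero.1 h3 with h4 | h4
    · exact sub_eq_zero.1 h4
    · exfalso
      have h5 : xc (EBar W) ((n + 1) • Q) = xc (EBar W) ((n + 3) • Q) :=
        (Xs_eq_iff W).1 (sub_eq_zero.1 h4)
      rcases eq_or_add_eq_of_xc_eq hord (by omega) (by omega) (by omega) hn h5 with h6 | h6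
      · omega
      · -- `2 (n + 2) = p`
        have h7 : 2 ∣ p := ⟨n + 2, by omega⟩
        rcases hp.eq_one_or_self_of_dvd 2 h7 with h8 | h8
        · omega
        · exact hp2 h8.symm
  · exact absurd (pow_eq_zero_iff two_ne_zero |>.1 h3) (sub_ne_zero.2 hXne)

/-- The second step of the ladder (duplication). -/
theorem ladder_two (hdup : Stmt_dup) (hord : addOrderOf Q = p) (hp3 : 2 < p)
    (L : PeriodPair) (hg2 : L.g₂ = (W.c₄ : ℂ) / 12) (hg3 : L.g₃ = (W.c₆ : ℂ) / 216) {z₀ : ℂ}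
    (h1 : LadderAt W Q L z₀ 1) : LadderAt W Q L z₀ 2 := by
  obtain ⟨hz1, hw1⟩ := h1
  rw [Nat.cast_one, one_mul] at hz1 hw1
  rw [one_nsmul] at hw1
  have hQ2 : (2 : ℕ) • Q ≠ 0 := nsmul_ne_zero_of_lt hord (by omega) hp3
  have hQ1 : Q ≠ 0 := by
    have := nsmul_ne_zero_of_lt hord (k := 1) (by omega) (by omega)
    rwa [one_nsmul] at this
  rcases Q with _ | ⟨x, y, h⟩
  · exact absurd rfl hQ1
  have hy : y ≠ (EBar W).negY x y := by
    intro hy
    exact hQ2 ((two_smul_eq_zero_iff (EBar W) h).2 hy)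
  have hpsi : psi2sq (EBar W) x ≠ 0 := by
    rw [← psi2v_sq (EBar W) h]
    refine pow_ne_zero 2 (fun h0 => hQ2 ((psi2v_eq_zero_iff (EBar W) h).1 h0))
  have hpsiC : iotaC (psi2sq (EBar W) x) ≠ 0 := by
    intro h0
    exact hpsi (_root_.Fermat.Agent.S15.An.H87.iotaC_injective (h0.trans (_root_.map_zero iotaC).symm))
  have hE := L.derivWeierstrassP_sq z₀ hz1
  have hXx : Xs W (Affine.Point.some x y h) = iotaC x + (W.b₂ : ℂ) / 12 := rfl
  have hE' : ℘'[L] z₀ ^ 2 = iotaC (psi2sq (EBar W) x) := by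
    rw [hE, hw1, hg2, hg3, psi2sq_shift, hXx]
  have h2z : (2 : ℂ) * z₀ ∉ L.lattice := by
    intro hmem
    have h0 : ℘'[L] z₀ = -℘'[L] z₀ :=
      wp'_eq_neg_of_add_mem L (by rw [← two_mul]; exact hmem)
    have h00 : ℘'[L] z₀ = 0 := by
      have : (2 : ℂ) * ℘'[L] z₀ = 0 := by linear_combination h0
      rcases mul_eq_zero.1 this with h' | h'
      · exact absurd h' two_ne_zero
      · exact h'
    rw [h00] at hE'
    exact hpsiC (by rw [← hE']; ring)
  have hD := hdup L z₀ hz1 h2z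
  have hA := alg_dup_C W h hy
  refine ⟨by rw [Nat.cast_ofNat]; exact h2z, ?_⟩
  rw [Nat.cast_ofNat]
  rw [hw1, hE', hg2] at hD
  have hkey : (℘[L] (2 * z₀) - Xs W ((2 : ℕ) • Affine.Point.some x y h)) *
      iotaC (psi2sq (EBar W) x) = 0 := by
    linear_combination hD - hA
  rcases mul_eq_zero.1 hkey with h' | h'
  · exact sub_eq_zero.1 h'
  · exact absurd h' hpsiC

/-- (AN-LADDER) from the addition theorem, the duplication formula, injectivity and
surjectivity of `℘`. -/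
theorem stmt_ladder_of (hadd : Stmt_add) (hdup : Stmt_dup) (hinj : Stmt_inj)
    (hsurj : Stmt_surj) : Stmt_ladder := by
  intro p hp hp2 W _ Q hord L hg2 hg3
  have hp3 : 2 < p := lt_of_le_of_ne hp.two_le (Ne.symm hp2)
  obtain ⟨z₀, hz₀, hw₀⟩ := hsurj L (Xs W Q)
  have h1 : LadderAt W Q L z₀ 1 := by
    refine ⟨by rw [Nat.cast_one, one_mul]; exact hz₀, ?_⟩
    rw [Nat.cast_one, one_mul, one_nsmul]
    exact hw₀
  have h2 : LadderAt W Q L z₀ 2 := ladder_two hdup hord hp3 L hg2 hg3 h1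
  -- two-step induction
  have key : ∀ n : ℕ, (n + 1 < p → LadderAt W Q L z₀ (n + 1)) ∧
      (n + 2 < p → LadderAt W Q L z₀ (n + 2)) := by
    intro n
    induction n with
    | zero => exact ⟨fun _ => h1, fun _ => h2⟩
    | succ n ih =>
      refine ⟨fun h => ih.2 h, fun h => ?_⟩
      exact ladder_step hadd hp hp2 hord L hg2 hg3 h h1 (ih.1 (by omega)) (ih.2 (by omega))
  have hall : ∀ k : ℕ, 0 < k → k < p → LadderAt W Q L z₀ k := by
    intro k hk0 hkp
    obtain ⟨n, rfl⟩ : ∃ n, k = n + 1 := ⟨k - 1, by omega⟩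
    exact (key n).1 hkp
  refine ⟨z₀, hz₀, ?_, fun k hk0 hkp => hall k hk0 hkp⟩
  -- `p z₀ ∈ Λ`
  obtain ⟨hzm, hwm⟩ := hall (p - 1) (by omega) (by omega)
  obtain ⟨hzm2, -⟩ := hall (p - 2) (by omega) (by omega)
  have hneg : (p - 1) • Q = -Q := by
    have hpQ : p • Q = 0 := by rw [← hord]; exact addOrderOf_nsmul_eq_zero Q
    have : (p - 1) • Q + Q = 0 := by
      rw [← succ_nsmul, show p - 1 + 1 = p by omega, hpQ]
    exact eq_neg_of_add_eq_zero_left this
  have hXm : Xs W ((p - 1) • Q) = Xs W Q := by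
    rw [hneg]
    exact (Xs_eq_iff W).2 (xc_neg (EBar W) Q)
  have heq : ℘[L] (((p - 1 : ℕ) : ℂ) * z₀) = ℘[L] z₀ := by rw [hwm, hXm, hw₀]
  have e1 : ((p - 1 : ℕ) : ℂ) * z₀ - z₀ = ((p - 2 : ℕ) : ℂ) * z₀ := by
    rw [Nat.cast_sub (by omega : 1 ≤ p), Nat.cast_sub (by omega : 2 ≤ p)]
    push_cast
    ring
  have e2 : ((p - 1 : ℕ) : ℂ) * z₀ + z₀ = (p : ℂ) * z₀ := by
    rw [Nat.cast_sub (by omega : 1 ≤ p)]
    push_cast
    ring
  rcases hinj L _ _ hzm hz₀ heq with h | h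
  · rw [e1] at h
    exact absurd h hzm2
  · rw [e2] at h
    exact h

end ladder

end Fermat.Agent.S15.An.H87

end
end
-- ==== END Fermat.Agent.S15.An.H87_Ladder

-- ==== BEGIN Fermat.Agent.S15.B3.H83_Deg
section
attribute [local instance 10000] SubalgebraClass.toAlgebra
attribute [local instance 10000] HahnSeries.powerSeriesAlgebra

/-!
# S15, package B3 (helper83), part 2: the poles of `j~` on the reduced curve

`k` = residue field of a valuation ring `A ⊂ Q̄` over `ℓ ≠ p`, `F~ = k(j~, j~(q^p)) ⊂ k((q))`.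
* `finrank_jRed` : `[F~ : k(j~)] = p + 1` (helper73, GA-deg);
* `poles_jRed`   : the pole orders of `j~` sum to `p + 1`;
* `cuspRed`      : the `q`-order place of `F~`, with `ord j~ = -1`, `ord j~_p = -p`.
-/

set_option autoImplicit false
set_option synthInstance.maxHeartbeats 400000
set_option linter.unusedSectionVars false

noncomputable section

open HahnSeries IntermediateField AlgebraicCurve ModularCurve

namespace Fermat.Agent.S15.B3

open Fermat.Agent.S28.H73 (kV)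
open Fermat.Agent.RED (IsFF)
open Fermat.Agent.RED.H73 (JL JL_order transcendental_of_order_neg isAlgClosed_kV
  relfinrank_fullC_red_bar dedekindPsi_prime inv_natCast_mem_of_liesOver isFF_redField_bar
  stmt_GA)

section Gen

variable (k : Type) [Field k] (p : ℕ) [NeZero p]

/-- The reduced function field `F~_p ⊂ k((q))`. -/
abbrev FRed : Type := ↥(modularFunctionFieldFullC k p)

/-- `j~`. -/
def jRed : FRed k p := ⟨jqModC k, jqModC_mem_full k p⟩

/-- `j~_p = j~(q^p)`. -/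
def jRedN : FRed k p := ⟨qExpand k p (jqModC k), jqModCd_mem_full k p dvd_rfl⟩

theorem jRed_coe : ((jRed k p : FRed k p) : LaurentSeries k) = jqModC k := rfl

theorem jRedN_coe : ((jRedN k p : FRed k p) : LaurentSeries k) = qExpand k p (jqModC k) := rfl

theorem jqModC_order_eq : (jqModC k).order = -1 := by
  have h := JL_order k 1
  have e : JL k 1 = jqModC k := qExpand_one_apply _
  rw [e] at h
  rw [h]
  norm_num

theorem jRed_order : ((jRed k p : FRed k p) : LaurentSeries k).order = -1 :=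
  jqModC_order_eq k

theorem jRedN_order : ((jRedN k p : FRed k p) : LaurentSeries k).order = -(p : ℤ) :=
  JL_order k p

theorem jRed_ne_zero : jRed k p ≠ 0 := by
  intro h
  have h1 := jRed_order k p
  rw [h] at h1
  have : ((0 : FRed k p) : LaurentSeries k).order = 0 := HahnSeries.order_zero
  rw [this] at h1
  omega

theorem jRedN_ne_zero : jRedN k p ≠ 0 := by
  intro h
  have h1 := jRedN_order k p
  rw [h] at h1
  have : ((0 : FRed k p) : LaurentSeries k).order = 0 := HahnSeries.order_zero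
  rw [this] at h1
  have := NeZero.ne p
  omega

theorem transcendental_jRed : Transcendental k (jRed k p) := by
  have h : Transcendental k (jqModC k) :=
    transcendental_of_order_neg (by rw [jqModC_order_eq]; norm_num)
  intro halg
  apply h
  have := halg.algHom (modularFunctionFieldFullC k p).val
  exact this

/-- `[F~ : k(j~)]` as a relative rank inside `k((q))`. -/
theorem finrank_eq_relfinrank :
    Module.finrank ↥(k⟮jRed k p⟯) (FRed k p)
      = (IntermediateField.adjoin k ({jqModC k} : Set (LaurentSeries k))).relfinrank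
          (modularFunctionFieldFullC k p) := by
  rw [← relfinrank_top_right,
    ← relfinrank_map_map (A := k⟮jRed k p⟯) (B := (⊤ : IntermediateField k (FRed k p)))
      (modularFunctionFieldFullC k p).val]
  congr 1
  · rw [IntermediateField.adjoin_map, Set.image_singleton]
    rfl
  · rw [← AlgHom.fieldRange_eq_map, IntermediateField.fieldRange_val]

/-- The `q`-order place of `F~`. -/
def cuspRed : Place k (FRed k p) :=
  Fermat.Agent.RED.KD.H22.laurentPlace (modularFunctionFieldFullC k p) (jRed k p)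
    (jRed_order k p)

theorem ord_cuspRed (x : FRed k p) (hx : x ≠ 0) :
    (cuspRed k p).ord x = (x : LaurentSeries k).order :=
  Fermat.Agent.RED.KD.H22.ord_laurentPlace _ _ _ x hx

theorem ord_cuspRed_jRed : (cuspRed k p).ord (jRed k p) = -1 := by
  rw [ord_cuspRed k p _ (jRed_ne_zero k p), jRed_order]

theorem ord_cuspRed_jRedN : (cuspRed k p).ord (jRedN k p) = -(p : ℤ) := by
  rw [ord_cuspRed k p _ (jRedN_ne_zero k p), jRedN_order]

end Gen

section Bar

variable (p ℓ : ℕ) [NeZero p] (A : ValuationSubring (AlgebraicClosure ℚ))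

theorem finrank_jRed (hp : p.Prime) (hℓ : ℓ.Prime) (hℓp : ℓ ≠ p) (hA : A.LiesOverPrime ℓ) :
    Module.finrank ↥((kV A)⟮jRed (kV A) p⟯) (FRed (kV A) p) = p + 1 := by
  have hℓN : ¬ ℓ ∣ p := fun h => hℓp ((Nat.prime_dvd_prime_iff_eq hℓ hp).mp h)
  have hN := inv_natCast_mem_of_liesOver A p hℓ hℓN hA
  rw [finrank_eq_relfinrank, relfinrank_fullC_red_bar A hN, dedekindPsi_prime hp]

theorem isFF_FRed (hp : p.Prime) (hℓ : ℓ.Prime) (hℓp : ℓ ≠ p) (hA : A.LiesOverPrime ℓ) :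
    IsFF (kV A) (FRed (kV A) p) := by
  have hfin : FiniteDimensional ↥((kV A)⟮jRed (kV A) p⟯) (FRed (kV A) p) :=
    Module.finite_of_finrank_pos (by rw [finrank_jRed p ℓ A hp hℓ hℓp hA]; omega)
  exact ⟨jRed (kV A) p, transcendental_jRed (kV A) p, hfin⟩

/-- The zeros theorem on the reduced field. -/
theorem zerosStmt_FRed (hp : p.Prime) (hℓ : ℓ.Prime) (hℓp : ℓ ≠ p) (hA : A.LiesOverPrime ℓ) :
    Fermat.Agent.S24.H59.ZerosStmt (kV A) (FRed (kV A) p) := by
  have : IsAlgClosed (kV A) := isAlgClosed_kV A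
  exact Fermat.Agent.RED.H51.zerosAll (kV A) (FRed (kV A) p) (isFF_FRed p ℓ A hp hℓ hℓp hA)

theorem finiteDimensional_jRed (hp : p.Prime) (hℓ : ℓ.Prime) (hℓp : ℓ ≠ p)
    (hA : A.LiesOverPrime ℓ) :
    FiniteDimensional ↥((kV A)⟮jRed (kV A) p⟯) (FRed (kV A) p) :=
  Module.finite_of_finrank_pos (by rw [finrank_jRed p ℓ A hp hℓ hℓp hA]; omega)

/-- The poles of `j~`: finitely many, and their orders sum to `-(p + 1)`. -/
theorem poles_jRed (hp : p.Prime) (hℓ : ℓ.Prime) (hℓp : ℓ ≠ p) (hA : A.LiesOverPrime ℓ) :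
    ∃ S : Finset (Place (kV A) (FRed (kV A) p)),
      (∀ Q, Q ∈ S ↔ Q.ord (jRed (kV A) p) < 0) ∧
        ∑ Q ∈ S, Q.ord (jRed (kV A) p) = -((p : ℤ) + 1) := by
  have hfin := finiteDimensional_jRed p ℓ A hp hℓ hℓp hA
  have hz := zerosStmt_FRed p ℓ A hp hℓ hℓp hA
  obtain ⟨S, hS, hsum, -⟩ := Fermat.Agent.S24.H85.poles (K := kV A) (F := FRed (kV A) p)
    (jRed (kV A) p) (transcendental_jRed (kV A) p) (fun y hy _ => hz y hy)
  refine ⟨S, hS, ?_⟩
  rw [hsum, finrank_jRed p ℓ A hp hℓ hℓp hA]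
  push_cast
  ring

end Bar

end Fermat.Agent.S15.B3

end
end
-- ==== END Fermat.Agent.S15.B3.H83_Deg

-- ==== BEGIN Fermat.Agent.S15.Desc.Defs
section

/-!
# S15 / DESC: the leaves, as Lean statements (helper69, owner-planner of DESC)

`J = J₀(p)`, `M = ratPts p = J(ℚ)`, with the ANEMIC Hecke action `heckeInst` (`X_p` acts as `1`);
`r` a prime (`r ∣ p - 1`), `e` an Eisenstein projector
(`IsEisProj`), `W = e J[r]` (`eisW r e`), `I_A` the inertia group of a valuation subring `A` of `ℚ̄`.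

Plan: the board note "helper69 S15 DESC v2".  The assembly `H69_Wire.lean` proves
`SelBAt p r` (hence `Stmt_selB p`, the input of `S15/H40_CoreSel.lean`) from the leaves below.

| leaf | statement | source |
|---|---|---|
| FIN | `Stmt_FIN p` : `J[n]` finite | G-TOR (`GTor.stmt_TOR_uncond`) |
| DIV | `Stmt_DIV p r` : `J = r J` | S17-W2 |
| GAL | `Stmt_GALfin p` : every point is fixed by an open subgroup | `GTor.stmt_GAL` |
| GH | `Fermat.Agent.S15.Stmt_GH p` | helper2 |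
| PROJ | `Stmt_PROJ p r` : Eisenstein projectors exist | helper87 (pure algebra, from FIN) |
| ES | `Stmt_ESr p r` : Eichler–Shimura on `J[r]` | G-RED (`GTor.Stmt_TorsES`) + COMM |
| LOC-ℓ | `Stmt_LOCl p r` | helper87 (`H87.loc_l_of_redPackage`) |
| EXP | `Stmt_EXP p r` | helper87 (`H87.exp_bound`) |
| LOC-U | `Stmt_LOCU p r` : the Kummer cocycles are bounded at `r` | helper40's plan `S15_LOCr.md` |
| VT | `Stmt_VT p r` : local condition at `p` + numerics | from UNIP + CG (`stmt_VT_of_CG`), or helper63's count |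
| UNIP | `Stmt_TorsUnipAt p r` | BAD (`BAD.Stmt_TorsUnip p r`) |
| CG | `Stmt_CG p r` : component group at `p` | helper67 (with BAD) |
| NUM-∞ | `Stmt_NUMinfOdd p r` (`r` odd) | Betti (complex conjugation) |
-/

set_option autoImplicit false

noncomputable section

open ModularCurve Module

namespace Fermat.Agent.S15.Desc

open Fermat.Agent.S15

local notation "Qbar" => AlgebraicClosure ℚ

/-- The **anemic** substitution `X_p ↦ 1`, `X_ℓ ↦ X_ℓ` (`ℓ ≠ p`). -/
def anemicSubst (p : ℕ) : HeckeAlg →+* HeckeAlg :=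
  (MvPolynomial.aeval (R := ℤ)
    (fun ℓ : Nat.Primes => if (ℓ : ℕ) = p then (1 : HeckeAlg) else MvPolynomial.X ℓ)).toRingHom

theorem anemicSubst_heckeGen (p : ℕ) {ℓ : ℕ} (hℓ : ℓ.Prime) (hℓp : ℓ ≠ p) :
    anemicSubst p (heckeGen ⟨ℓ, hℓ⟩) = heckeGen ⟨ℓ, hℓ⟩ := by
  have h := MvPolynomial.aeval_X (R := ℤ)
    (fun ℓ : Nat.Primes => if (ℓ : ℕ) = p then (1 : HeckeAlg) else MvPolynomial.X ℓ)
    (⟨ℓ, hℓ⟩ : Nat.Primes)
  have h2 : anemicSubst p (heckeGen ⟨ℓ, hℓ⟩) =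
      if ((⟨ℓ, hℓ⟩ : Nat.Primes) : ℕ) = p then (1 : HeckeAlg) else MvPolynomial.X ⟨ℓ, hℓ⟩ := h
  rw [h2, if_neg hℓp]
  rfl

/-- The anemic substitution does not change the Eisenstein character. -/
theorem eisEval_anemicSubst (p : ℕ) (t : HeckeAlg) :
    eisEval p (anemicSubst p t) = eisEval p t := by
  have key : (eisEval p).comp (anemicSubst p) = eisEval p := by
    apply MvPolynomial.ringHom_ext
    · intro a
      show eisEval p (anemicSubst p (MvPolynomial.C a)) = eisEval p (MvPolynomial.C a)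
      have h1 : anemicSubst p (MvPolynomial.C a) = MvPolynomial.C a :=
        MvPolynomial.aeval_C (R := ℤ) _ a
      rw [h1]
    · intro ℓ
      show eisEval p (anemicSubst p (MvPolynomial.X ℓ)) = eisEval p (MvPolynomial.X ℓ)
      have h := MvPolynomial.aeval_X (R := ℤ)
        (fun ℓ : Nat.Primes => if (ℓ : ℕ) = p then (1 : HeckeAlg) else MvPolynomial.X ℓ) ℓ
      have h2 : anemicSubst p (MvPolynomial.X ℓ) =
          if (ℓ : ℕ) = p then (1 : HeckeAlg) else MvPolynomial.X ℓ := h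
      rw [h2]
      by_cases hℓ : (ℓ : ℕ) = p
      · rw [if_pos hℓ, map_one]
        have h3 : eisEval p (MvPolynomial.X ℓ) = eisensteinSystem p ℓ :=
          MvPolynomial.aeval_X (R := ℤ) (eisensteinSystem p) ℓ
        rw [h3, eisensteinSystem_of_dvd (hℓ ▸ dvd_rfl)]
      · rw [if_neg hℓ]
  exact congrArg (fun f : HeckeAlg →+* ℤ => f t) key

/-- The **anemic** Hecke module structure on `J₀(p)`: `X_ℓ` acts as the Hecke operator `T_ℓ` of
the prelude for `ℓ ≠ p`, and `X_p` acts as `1`; `t • z = hsmul p (anemicSubst p t) z` by `rfl`.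
(The operator `U_p` plays no role in the descent, and the Betti dictionary exists for `ℓ ≠ p`
only.) -/
@[reducible] def heckeInst (p : ℕ) [NeZero p] : Module HeckeAlg (JZero p) :=
  letI := heckeModuleBar p
  Module.compHom (JZero p) (anemicSubst p)

attribute [local instance] heckeInst

theorem smul_eq_hsmul (p : ℕ) [NeZero p] (t : HeckeAlg) (z : JZero p) :
    t • z = hsmul p (anemicSubst p t) z := rfl

theorem heckeGen_smul (p : ℕ) [NeZero p] {ℓ : ℕ} (hℓ : ℓ.Prime) (hℓp : ℓ ≠ p) (z : JZero p) :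
    heckeGen ⟨ℓ, hℓ⟩ • z = hsmul p (heckeGen ⟨ℓ, hℓ⟩) z := by
  rw [smul_eq_hsmul, anemicSubst_heckeGen p hℓ hℓp]

/-- `e` is an **Eisenstein projector** of level `k` at `r`: `ε(e) ≡ 1 mod r`, `e` is idempotent on
`J[r^(k+1)]`, and every `t` with `r ∣ ε(t)` is nilpotent on `e J[r]`. -/
def IsEisProj (p r k : ℕ) [NeZero p] (e : HeckeAlg) : Prop :=
  (r : ℤ) ∣ eisEval p e - 1 ∧
  (∀ y : JZero p, r ^ (k + 1) • y = 0 → e • (e • y) = e • y) ∧
  ∀ t : HeckeAlg, (r : ℤ) ∣ eisEval p t → ∃ N : ℕ, ∀ v : JZero p, r • v = 0 → e • v = v →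
    t ^ N • v = 0

/-- (SELB at `r`) the conclusion of the descent at the prime `r`. -/
def SelBAt (p r : ℕ) [NeZero p] : Prop :=
  ∀ z ∈ ratPts p, ∃ t : HeckeAlg, ¬ (r : ℤ) ∣ eisEval p t ∧
    ∃ h ∈ ratPts p, (∃ j : ℕ, r ^ j • h = 0) ∧ ∃ w ∈ ratPts p, hsmul p t z = h + r • w

/-- (FIN) the torsion of `J₀(p)` is finite. -/
def Stmt_FIN (p : ℕ) : Prop := ∀ n : ℕ, 0 < n → Finite (TorsR (JZero p) n)

/-- (DIV) the rational points of `J₀(p)` are `r`-divisible in `J₀(p)(ℚ̄)`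
(`= Fermat.Agent.S17.Stmt_divisible p r`). -/
def Stmt_DIV (p r : ℕ) : Prop := ∀ x : JZero p, (∀ σ : GalQ, σ • x = x) → ∃ y : JZero p, r • y = x

/-- (GAL) every point of `J₀(p)` is fixed by an open subgroup of `G_ℚ`. -/
def Stmt_GALfin (p : ℕ) : Prop :=
  ∀ y : JZero p, ∃ S : Finset Qbar, ∀ σ : GalQ, (∀ x ∈ S, σ x = x) → σ • y = y

/-- (PROJ) Eisenstein projectors of every level exist. -/
def Stmt_PROJ (p r : ℕ) [NeZero p] : Prop := ∀ k : ℕ, ∃ e : HeckeAlg, IsEisProj p r k e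

/-- (ES) the Eichler–Shimura relation on `J[r]`, for every Frobenius element at `ℓ ∤ p r`. -/
def Stmt_ESr (p r : ℕ) [NeZero p] : Prop :=
  ∀ (ℓ : ℕ) (hℓ : ℓ.Prime), ℓ ≠ p → ℓ ≠ r →
    ∀ A : ValuationSubring Qbar, A.LiesOverPrime ℓ →
      ∀ σ : GalQ, A.IsFrobeniusAt σ ℓ → ∀ x : JZero p, r • x = 0 →
        σ • σ • x - heckeGen ⟨ℓ, hℓ⟩ • (σ • x) + ℓ • x = 0

/-- (LOC-ℓ) inertia at `ℓ ∤ p r` fixes the `r`-division points of the rational points. -/
def Stmt_LOCl (p r : ℕ) : Prop :=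
  ∀ ℓ : ℕ, ℓ.Prime → ℓ ≠ p → ℓ ≠ r → ∀ A : ValuationSubring Qbar, A.LiesOverPrime ℓ →
    ∀ τ ∈ A.inertiaSubgroupIn ℚ, ∀ y : JZero p, r • y ∈ ratPts p → τ • y = y

/-- (EXP) the rational points of `r`-power order have bounded exponent. -/
def Stmt_EXP (p r : ℕ) : Prop :=
  ∃ k : ℕ, ∀ z ∈ ratPts p, (∃ n : ℕ, r ^ n • z = 0) → r ^ k • z = 0

/-- (LOC-U) there is a family `𝔅` of subgroups bounded at `r` such that the Eisenstein part of
every Kummer cocycle of a rational point vanishes on a member of `𝔅`. -/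
def Stmt_LOCU (p r : ℕ) [NeZero p] : Prop :=
  ∃ (Ar : ValuationSubring Qbar) (_ : Ar.LiesOverPrime r) (𝔅 : Set (Subgroup GalQ)),
    IsBddFamily r Ar 𝔅 ∧
    ∀ (k : ℕ) (e : HeckeAlg), IsEisProj p r k e → ∀ y : JZero p, r • y ∈ ratPts p →
      ∃ H ∈ 𝔅, ∀ σ ∈ H, e • (σ • y - y) = 0

/-- (UNIP) inertia at `p` acts unipotently (of level two) on the `r`-power torsion of `J₀(p)`. -/
def Stmt_TorsUnipAt (p r : ℕ) : Prop :=
  ∀ A : ValuationSubring Qbar, A.LiesOverPrime p →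
    ∀ σ ∈ A.inertiaSubgroupIn ℚ, ∀ τ ∈ A.inertiaSubgroupIn ℚ,
      ∀ x : JZero p, (∃ n : ℕ, r ^ n • x = 0) → σ • τ • x - σ • x - τ • x + x = 0

/-- (CG) **the component group at `p`**: there is a rational point `t₀` of `r`-power order such
that every rational point is `a t₀ + r y` with `y` fixed by the inertia group at `p`. -/
def Stmt_CG (p r : ℕ) : Prop :=
  ∀ A : ValuationSubring Qbar, A.LiesOverPrime p →
    ∃ t₀ ∈ ratPts p, (∃ n : ℕ, r ^ n • t₀ = 0) ∧
      ∀ x ∈ ratPts p, ∃ (a : ℤ) (y : JZero p),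
        (∀ σ ∈ A.inertiaSubgroupIn ℚ, σ • y = y) ∧ x = a • t₀ + r • y

/-- (VT) **the local condition at `p` with its numerics**: for every Eisenstein projector `e`
there is a subspace `Vt ≤ J[r]` containing the values on the inertia group at `p` of all the
Kummer cocycles `σ ↦ e (σ y - y)` (`r y` rational), with `2 dim (W ∩ Vt) ≤ dim W + 1`.
Two routes: `stmt_VT_of_CG` (`H69_Wire.lean`: from (UNIP) and (CG)), or the dimension count of
helper63 (from `dim K1(r) ≤ g`, `dim J[r]^I ≤ g + 1`, (B0), (B1)). -/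
def Stmt_VT (p r : ℕ) [NeZero p] [NeZero r] : Prop :=
  ∀ A : ValuationSubring Qbar, A.LiesOverPrime p →
    ∀ (k : ℕ) (e : HeckeAlg), IsEisProj p r k e →
      ∃ Vt : Submodule (ZMod r) (TorsR (JZero p) r),
        (∀ σ ∈ A.inertiaSubgroupIn ℚ, ∀ y ∈ kumDom GalQ (JZero p) r, kumCoc r e y σ ∈ Vt) ∧
        2 * finrank (ZMod r) ↥(eisW (J := JZero p) r e ⊓ Vt) ≤
          finrank (ZMod r) ↥(eisW (J := JZero p) r e) + 1

/-- The subspace of `J[r]` fixed by `c`. -/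
def fixSub {J : Type*} [AddCommGroup J] {G : Type*} [Group G] [DistribMulAction G J] (r : ℕ)
    (c : G) : Submodule (ZMod r) (TorsR J r) where
  carrier := {v | c • v = v}
  add_mem' := fun {a b} ha hb => by
    show c • (a + b) = a + b
    rw [smul_add, ha, hb]
  zero_mem' := smul_zero c
  smul_mem' := fun a v hv => by
    show c • (a • v) = a • v
    rw [smul_comm, hv]

/-- (NUM-∞, `r` odd) there is an element `c` of `G_ℚ` acting non-trivially on the `r`-th roots of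
unity (complex conjugation) whose fixed space in `W = e J[r]` has dimension at least
`dim W / 2`, for every Eisenstein projector `e` of level `≥ k₀`. -/
def Stmt_NUMinfOdd (p r : ℕ) [NeZero p] [NeZero r] : Prop :=
  ∃ (c : GalQ) (ζ : Qbar), IsPrimitiveRoot ζ r ∧ c ζ ≠ ζ ∧ ∃ k₀ : ℕ,
    ∀ (k : ℕ) (e : HeckeAlg), k₀ ≤ k → IsEisProj p r k e →
      finrank (ZMod r) ↥(eisW (J := JZero p) r e) ≤
        2 * finrank (ZMod r) ↥(eisW (J := JZero p) r e ⊓ fixSub r c)

end Fermat.Agent.S15.Desc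

end
end
-- ==== END Fermat.Agent.S15.Desc.Defs

-- ==== BEGIN Fermat.Agent.S15.Desc.H63_CoordF0
section
attribute [local instance 10000] SubalgebraClass.toAlgebra
attribute [local instance 10000] HahnSeries.powerSeriesAlgebra

/-!
# S15 DESC, leaf COORD, sub-leaf F0 (helper63): the field of inertia-fixed functions

`F0 = {f ∈ F_p · ℚ̄ | IsFrac0 A (1 * p) f ∧ IsFrac0 A (1 * p) (w_p f)}`.

* `coeffIn_*` : series with coefficients in a subring form a subring of `K((t))`;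
* `isFrac0_add`, `_mul`, `_neg`, `_inv`, `isFrac0_zero`, `isFrac0_one`, `isFrac0_const`,
  `isFrac0_jdF` : the quotients of series with coefficients in `A₀ = inertiaRing A` form a
  subfield containing the constants of `A₀` and the `j (q ^ d)`;
* `isFrac0_fixed` : they are fixed by the inertia group of `A`;
* `fieldF0` : the subfield `F0`;
* `stmt_CoordF0_of_disc : Stmt_CoordDisc → Stmt_CoordF0 p`.
-/

set_option autoImplicit false
set_option linter.style.haveILetI false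
set_option synthInstance.maxHeartbeats 400000
set_option maxHeartbeats 400000

noncomputable section

open HahnSeries IntermediateField AlgebraicCurve ModularCurve
open Fermat.Agent.S28.H73 Fermat.Agent.RED.H73 Fermat.Agent.RED Fermat.Agent.S24
open Fermat.Agent.BAD.H88

namespace Fermat.Agent.S15.Desc.H63F

open Fermat.Agent.BAD Fermat.Agent.BAD.H91 Fermat.Agent.S15.Desc.H67

/-! ## Series with coefficients in a subring -/

section CoeffIn

variable {K : Type*} [Field K] (R : Subring K)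

/-- All coefficients of the Laurent series `G` are in the subring `R`. -/
def CoeffIn (G : LaurentSeries K) : Prop := ∀ n : ℤ, G.coeff n ∈ R

variable {R}

theorem coeffIn_zero : CoeffIn R (0 : LaurentSeries K) := fun n => by
  rw [HahnSeries.coeff_zero]
  exact R.zero_mem

theorem coeffIn_single (k : ℤ) {c : K} (hc : c ∈ R) :
    CoeffIn R (HahnSeries.single k c : LaurentSeries K) := fun n => by
  rw [HahnSeries.coeff_single]
  split_ifs
  · exact hc
  · exact R.zero_mem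

theorem coeffIn_one : CoeffIn R (1 : LaurentSeries K) := fun n => by
  rw [HahnSeries.coeff_one]
  split_ifs
  · exact R.one_mem
  · exact R.zero_mem

theorem CoeffIn.add {G H : LaurentSeries K} (hG : CoeffIn R G) (hH : CoeffIn R H) :
    CoeffIn R (G + H) := fun n => by
  rw [HahnSeries.coeff_add]
  exact R.add_mem (hG n) (hH n)

theorem CoeffIn.neg {G : LaurentSeries K} (hG : CoeffIn R G) : CoeffIn R (-G) := fun n => by
  rw [HahnSeries.coeff_neg]
  exact R.neg_mem (hG n)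

theorem CoeffIn.mul {G H : LaurentSeries K} (hG : CoeffIn R G) (hH : CoeffIn R H) :
    CoeffIn R (G * H) := fun n => by
  rw [HahnSeries.coeff_mul]
  exact R.sum_mem fun ij _ => R.mul_mem (hG _) (hH _)

theorem coeffIn_algebraMap {c : K} (hc : c ∈ R) :
    CoeffIn R (algebraMap K (LaurentSeries K) c) := by
  rw [algebraMap_laurentSeries_eq_single]
  exact coeffIn_single 0 hc

theorem coeffIn_qExpand (d : ℕ) [NeZero d] {G : LaurentSeries K} (hG : CoeffIn R G) :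
    CoeffIn R (qExpand K d G) := fun n => by
  by_cases h : (d : ℤ) ∣ n
  · obtain ⟨k, rfl⟩ := h
    rw [qExpand_coeff_mul]
    exact hG k
  · rw [qExpand_coeff_of_not_dvd d G h]
    exact R.zero_mem

theorem coeffIn_jqModC : CoeffIn R (jqModC K) := fun n => by
  rw [jqModC_eq_map_intCast, HahnSeries.map_coeff]
  exact intCast_mem R _

end CoeffIn

/-! ## Quotients of series with coefficients in `A₀` -/

section Frac0

variable (A : ValuationSubring Kbar) (N : ℕ)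

theorem isFrac0_iff (f : FN N) :
    IsFrac0 A N f ↔ ∃ G H : FN N, H ≠ 0 ∧ f * H = G ∧
      CoeffIn (inertiaRing A) (G : LaurentSeries Kbar) ∧
      CoeffIn (inertiaRing A) (H : LaurentSeries Kbar) := Iff.rfl

variable {A N}

theorem isFrac0_of_coeffIn {G : FN N} (hG : CoeffIn (inertiaRing A) (G : LaurentSeries Kbar)) :
    IsFrac0 A N G :=
  ⟨G, 1, one_ne_zero, mul_one G, hG, coeffIn_one⟩

theorem isFrac0_zero : IsFrac0 A N (0 : FN N) := isFrac0_of_coeffIn coeffIn_zero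

theorem isFrac0_one : IsFrac0 A N (1 : FN N) := isFrac0_of_coeffIn coeffIn_one

theorem isFrac0_const {c : Kbar} (hc : c ∈ inertiaRing A) :
    IsFrac0 A N (algebraMap Kbar (FN N) c) :=
  isFrac0_of_coeffIn (coeffIn_algebraMap hc)

theorem isFrac0_jdF [NeZero N] (d : ℕ) [NeZero d] (hd : d ∣ N) : IsFrac0 A N (jdF N d hd) := by
  refine isFrac0_of_coeffIn ?_
  rw [Fermat.Agent.BAD.H82.coe_jdF]
  exact coeffIn_qExpand d coeffIn_jqModC

theorem isFrac0_add {f f' : FN N} (h : IsFrac0 A N f) (h' : IsFrac0 A N f') :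
    IsFrac0 A N (f + f') := by
  obtain ⟨G, H, hH, e, hG, hHc⟩ := (isFrac0_iff A N _).mp h
  obtain ⟨G', H', hH', e', hG', hHc'⟩ := (isFrac0_iff A N _).mp h'
  refine ⟨G * H' + G' * H, H * H', mul_ne_zero hH hH', ?_, ?_, ?_⟩
  · rw [← e, ← e']
    ring
  · exact (hG.mul hHc').add (hG'.mul hHc)
  · exact hHc.mul hHc'

theorem isFrac0_mul {f f' : FN N} (h : IsFrac0 A N f) (h' : IsFrac0 A N f') :
    IsFrac0 A N (f * f') := by
  obtain ⟨G, H, hH, e, hG, hHc⟩ := (isFrac0_iff A N _).mp h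
  obtain ⟨G', H', hH', e', hG', hHc'⟩ := (isFrac0_iff A N _).mp h'
  refine ⟨G * G', H * H', mul_ne_zero hH hH', ?_, ?_, ?_⟩
  · rw [← e, ← e']
    ring
  · exact hG.mul hG'
  · exact hHc.mul hHc'

theorem isFrac0_neg {f : FN N} (h : IsFrac0 A N f) : IsFrac0 A N (-f) := by
  obtain ⟨G, H, hH, e, hG, hHc⟩ := (isFrac0_iff A N _).mp h
  refine ⟨-G, H, hH, ?_, ?_, hHc⟩
  · rw [← e]
    ring
  · exact hG.neg

theorem isFrac0_inv {f : FN N} (h : IsFrac0 A N f) : IsFrac0 A N f⁻¹ := by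
  rcases eq_or_ne f 0 with rfl | hf
  · rw [inv_zero]
    exact isFrac0_zero
  obtain ⟨G, H, hH, e, hG, hHc⟩ := (isFrac0_iff A N _).mp h
  have hG0 : G ≠ 0 := by
    rw [← e]
    exact mul_ne_zero hf hH
  refine ⟨H, G, hG0, ?_, hHc, hG⟩
  rw [← e]
  field_simp

/-- A series with coefficients fixed by `σ` is fixed by `σ`. -/
theorem galF_smul_of_coeff (σ : _root_.Fermat.Agent.S15.GalQ) (G : FN N)
    (hG : ∀ n : ℤ, σ ((G : LaurentSeries Kbar).coeff n) = (G : LaurentSeries Kbar).coeff n) :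
    galF N σ • G = G := by
  apply Subtype.ext
  rw [coe_arithmeticGalois_smul]
  ext n
  rw [coeffMap_coeff]
  exact hG n

/-- The quotients of series with coefficients in `A₀` are fixed by the inertia group. -/
theorem isFrac0_fixed {f : FN N} (h : IsFrac0 A N f) (σ : _root_.Fermat.Agent.S15.GalQ)
    (hσ : σ ∈ A.inertiaSubgroupIn ℚ) : galF N σ • f = f := by
  obtain ⟨G, H, hH, e, hG, hHc⟩ := (isFrac0_iff A N _).mp h
  have e1 : galF N σ • G = G := galF_smul_of_coeff σ G fun n => (hG n).2 σ hσ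
  have e2 : galF N σ • H = H := galF_smul_of_coeff σ H fun n => (hHc n).2 σ hσ
  have e3 : galF N σ • (f * H) = galF N σ • G := by rw [e]
  rw [smul_mul', e1, e2, ← e] at e3
  exact mul_right_cancel₀ hH e3

end Frac0

/-! ## The field `F0` -/

section Field

variable (A : ValuationSubring Kbar) (p : ℕ) (a b : ℤ) (hab : a * p + b * (1 : ℕ) = 1)
  (hp : p.Prime) [NeZero (1 * p)]

/-- The field `F0` of the functions `f` such that `f` and `w_p f` are quotients of series with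
coefficients in `A₀ = inertiaRing A`. -/
def fieldF0 : Subfield (FN (1 * p)) where
  carrier := {f | IsFrac0 A (1 * p) f ∧ IsFrac0 A (1 * p) (wq p 1 a b hab hp f)}
  mul_mem' := fun hf hg => ⟨isFrac0_mul hf.1 hg.1, by
    rw [map_mul]
    exact isFrac0_mul hf.2 hg.2⟩
  one_mem' := ⟨isFrac0_one, by
    rw [map_one]
    exact isFrac0_one⟩
  add_mem' := fun hf hg => ⟨isFrac0_add hf.1 hg.1, by
    rw [map_add]
    exact isFrac0_add hf.2 hg.2⟩
  zero_mem' := ⟨isFrac0_zero, by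
    rw [map_zero]
    exact isFrac0_zero⟩
  neg_mem' := fun hf => ⟨isFrac0_neg hf.1, by
    rw [map_neg]
    exact isFrac0_neg hf.2⟩
  inv_mem' := fun f hf => ⟨isFrac0_inv hf.1, by
    rw [map_inv₀]
    exact isFrac0_inv hf.2⟩

theorem mem_fieldF0_iff (f : FN (1 * p)) :
    f ∈ fieldF0 A p a b hab hp ↔
      IsFrac0 A (1 * p) f ∧ IsFrac0 A (1 * p) (wq p 1 a b hab hp f) := Iff.rfl

theorem const_mem_fieldF0 {c : Kbar} (hc : c ∈ inertiaRing A) :
    algebraMap Kbar (FN (1 * p)) c ∈ fieldF0 A p a b hab hp := by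
  refine ⟨isFrac0_const hc, ?_⟩
  rw [AlgEquiv.commutes]
  exact isFrac0_const hc

theorem jdF_one_mem_fieldF0 :
    jdF (1 * p) 1 (one_dvd _) ∈ fieldF0 A p a b hab hp := by
  refine ⟨isFrac0_jdF 1 _, ?_⟩
  rw [wq_apply]
  have h := wqHom_jdF p 1 a b hab hp 1 (one_dvd 1)
  rw [h]
  exact isFrac0_jdF _ _

theorem jdF_p_mem_fieldF0 :
    jdF (1 * p) (1 * p) dvd_rfl ∈ fieldF0 A p a b hab hp := by
  refine ⟨isFrac0_jdF _ _, ?_⟩
  rw [wq_apply]
  have h := wqHom_jdF_mul p 1 a b hab hp 1 (one_dvd 1)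
  rw [h]
  exact isFrac0_jdF _ _

end Field

/-! ## The discreteness of the second valuation on `F0` -/

section Disc

variable (A : ValuationSubring Kbar) (p : ℕ) (a b : ℤ) (hab : a * p + b * (1 : ℕ) = 1)
  (hp : p.Prime) [NeZero (1 * p)]

/-- (DISC) for the first valuation: an element of the maximal ideal of the Gauss valuation ring
which is `p ^ m · u`, `u` a unit, is divisible by `p`. -/
theorem div_p_mem_V1 (g : FN (1 * p)) (hg : g ∈ V1 A p 1) (hred : red1 A p 1 ⟨g, hg⟩ = 0)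
    (m : ℤ) (u : ↥(V1 A p 1)) (hu : red1 A p 1 u ≠ 0) (hp0 : (p : Kbar) ≠ 0)
    (e : g = algebraMap Kbar (FN (1 * p)) ((p : Kbar) ^ m) * (u : FN (1 * p))) :
    g / algebraMap Kbar (FN (1 * p)) (p : Kbar) ∈ V1 A p 1 := by
  have hpA : ∀ k : ℕ, algebraMap Kbar (FN (1 * p)) ((p : Kbar) ^ k) ∈ V1 A p 1 := fun k =>
    (const_mem1 A p 1 _).mpr (pow_mem (natCast_mem A p) k)
  have hm : 1 ≤ m := by
    by_contra hlt
    push Not at hlt
    have hm0 : m ≤ 0 := by omega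
    obtain ⟨k, hk⟩ : ∃ k : ℕ, m = -(k : ℤ) := ⟨(-m).toNat, by omega⟩
    -- `u = p ^ k · g` is in the maximal ideal
    have hu' : (u : FN (1 * p)) = algebraMap Kbar (FN (1 * p)) ((p : Kbar) ^ k) * g := by
      rw [e, ← mul_assoc, ← map_mul, hk, zpow_neg, zpow_natCast,
        mul_inv_cancel₀ (pow_ne_zero k hp0), map_one]
      exact (one_mul _).symm
    have hu2 : u = ⟨algebraMap Kbar (FN (1 * p)) ((p : Kbar) ^ k), hpA k⟩ * ⟨g, hg⟩ :=
      Subtype.ext hu'
    apply hu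
    rw [hu2, map_mul, hred, mul_zero]
  obtain ⟨k, hk⟩ : ∃ k : ℕ, m = (k : ℤ) + 1 := ⟨(m - 1).toNat, by omega⟩
  have e2 : g / algebraMap Kbar (FN (1 * p)) (p : Kbar)
      = algebraMap Kbar (FN (1 * p)) ((p : Kbar) ^ k) * (u : FN (1 * p)) := by
    have hp1 : algebraMap Kbar (FN (1 * p)) (p : Kbar) ≠ 0 := by
      rw [Ne, map_eq_zero]
      exact hp0
    rw [div_eq_iff hp1, e, hk, zpow_add₀ hp0, zpow_natCast, zpow_one, map_mul]
    ring
  rw [e2]
  exact (V1 A p 1).mul_mem _ _ (hpA k) u.2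

end Disc

/-- **(F0)** from (DISC). -/
theorem stmt_CoordF0_of_disc (p : ℕ) (hD : Stmt_CoordDisc) : Stmt_CoordF0 p := by
  intro A a b hab hp _ _ hA
  refine ⟨fieldF0 A p a b hab hp, jdF_one_mem_fieldF0 A p a b hab hp,
    jdF_p_mem_fieldF0 A p a b hab hp, fun c hc => const_mem_fieldF0 A p a b hab hp hc,
    fun f hf σ hσ => isFrac0_fixed hf.1 σ hσ, fun f hf h hred => ?_⟩
  have hp0 : (p : Kbar) ≠ 0 := Nat.cast_ne_zero.mpr hp.ne_zero
  rcases eq_or_ne f 0 with rfl | hf0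
  · rw [zero_div]
    exact (V2 A p 1 a b hab hp).zero_mem
  have hg0 : wq p 1 a b hab hp f ≠ 0 := by
    rw [Ne, map_eq_zero]
    exact hf0
  obtain ⟨m, u, hu, e⟩ := hD p hp A hA (1 * p) (wq p 1 a b hab hp f) hf.2 hg0
  have hred' : red1 A p 1 ⟨wq p 1 a b hab hp f, h⟩ = 0 := hred
  have key := div_p_mem_V1 A p (wq p 1 a b hab hp f) h hred' m u hu hp0 e
  rw [mem_V2_iff, map_div₀, AlgEquiv.commutes]
  exact key

end Fermat.Agent.S15.Desc.H63F

end
end
-- ==== END Fermat.Agent.S15.Desc.H63_CoordF0
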