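-- GENERATED (merged mirror, NOTES/tools/trim/merge3_helper67.py): 4 modules of the originals, bodies verbatim.
import Fermat.Agent.Zm.S33_L03_000
import Fermat.Agent.Zm.S15_L01_000
import Fermat.Agent.Zm.S15_L01_001
import Fermat.Agent.Zm.S33_L04_001
import Fermat.Agent.Zm.S44_L01_002
import Fermat.Agent.Zm.S35_L01_002
import Fermat.Agent.Zm.S15_L01_002

-- ==== BEGIN Fermat.Agent.S15.Desc.H63_FixAbs
section

/-!
# S15 / DESC: (FIX), abstract part over a semistable Deuring datum (helper63)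

`S : SSD K F k F₁ F₂`, the first component `F₁` of genus `0`, `I` a set of inertial automorphisms,
`q ∈ K` a uniformiser of the fixed field of `I`, `r` a prime; at every node `s ≠ s₀` an `I`-fixed
annulus coordinate of thickness `q ^ e`, `r ∤ e`.

* `slope_congr` : for an `I`-fixed function `f` with `n ∣ div f`, the slopes
  `m_s = ord_{s.1} (rd₁ (c₁ f))` at two nodes with coordinates satisfy `e m_s ≡ e' m_{s'} mod n`
  (helper28's `nodeRad_isInertial`).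
* `dvd_slope_of_others` (sum-zero): if `n ∣ div u` and `n` divides the slopes of `u` at all nodes
  but one, then `n` divides the slopes at all nodes.
* `fix_abs` : for two `I`-fixed functions `f`, `f'` with `r ∣ div f`, `r ∣ div f'` there are
  `α`, `β`, not both divisible by `r`, and `c`, `w` with `rd₁ (c f ^ α f' ^ β w ^ r) = 1`
  (with helper28's `exists_rd₁_eq_one_of_slopes`).
-/

set_option autoImplicit false
set_option linter.style.haveILetI false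

noncomputable section

open AlgebraicCurve

attribute [local instance] Classical.propDecidable

namespace Fermat.Agent.S15.Desc.H63

open Fermat.Agent.BAD Fermat.Agent.RED.H17 Fermat.Agent.RED

section Abs

variable {K F k F₁ F₂ : Type*} [Field K] [Field F] [Algebra K F] [Field k] [Field F₁]
  [Algebra k F₁] [Field F₂] [Algebra k F₂] (S : SSD K F k F₁ F₂)

/-- **Sum-zero**: if `n ∣ div u` and `n` divides the slopes of `u` at all nodes `s ≠ s₀`, then `n`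
divides the slopes at all nodes. -/
theorem dvd_slope_of_others (hP : HasPrincipalDivisors K F) (H₁ : FFHyp k F₁) {n : ℕ} {u : F}
    (hu : S.c₁.IsGU u) (hdiv : ∀ P : Place K F, (n : ℤ) ∣ P.ord u)
    (s₀ : Place k F₁ × Place k F₂)
    (hslope : ∀ s ∈ S.nodes, s ≠ s₀ → (n : ℤ) ∣ s.1.ord (S.c₁.rd u)) :
    ∀ s ∈ S.nodes, (n : ℤ) ∣ s.1.ord (S.c₁.rd u) := by
  intro s hs
  by_cases hss : s = s₀
  swap
  · exact hslope s hs hss
  subst hss
  -- the orders at the other places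
  have hother : ∀ Q : Place k F₁, Q ≠ s.1 → (n : ℤ) ∣ Q.ord (S.c₁.rd u) := by
    intro Q hQs
    by_cases hQ : Q ∈ S.c₁.good
    · rw [S.c₁.ord_rd_eq_sum hP hu Q hQ]
      refine Finset.dvd_sum fun P _ => ?_
      split_ifs
      · exact hdiv P
      · exact dvd_zero _
    · rw [S.good₁] at hQ
      push Not at hQ
      obtain ⟨s', hs', rfl⟩ := hQ
      refine hslope s' hs' ?_
      rintro rfl
      exact hQs rfl
  -- the degree of `div (rd₁ u)` is `0`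
  have hdeg0 := degree_dv H₁.principal (S.c₁.rd u)
  rw [degree_eq_sum H₁.deg_one, Finsupp.sum] at hdeg0
  by_cases hmem : s.1 ∈ (dv H₁.principal (S.c₁.rd u)).support
  · rw [← Finset.add_sum_erase _ _ hmem] at hdeg0
    have h1 : (n : ℤ) ∣ ∑ Q ∈ (dv H₁.principal (S.c₁.rd u)).support.erase s.1,
        (dv H₁.principal (S.c₁.rd u)) Q := by
      refine Finset.dvd_sum fun Q hQ => ?_
      rw [dv_apply]
      exact hother Q (Finset.ne_of_mem_erase hQ)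
    rw [dv_apply] at hdeg0
    have h2 : s.1.ord (S.c₁.rd u) =
        - ∑ Q ∈ (dv H₁.principal (S.c₁.rd u)).support.erase s.1,
          (dv H₁.principal (S.c₁.rd u)) Q := by
      linarith
    rw [h2]
    exact (dvd_neg).mpr h1
  · rw [Finsupp.notMem_support_iff, dv_apply] at hmem
    rw [hmem]
    exact dvd_zero _

/-- **Slope congruence** between two nodes with `I`-fixed coordinates of thickness `q ^ e`,
`q ^ e'`. -/
theorem slope_congr (hP : HasPrincipalDivisors K F) (hdeg : ∀ v : Place K F, v.deg = 1)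
    (I : Set (SemilinearAut K F)) (hI : ∀ σ ∈ I, S.IsInertial σ)
    (q : K) (hq0 : q ≠ 0) (hqI : ∀ σ ∈ I, SemilinearAut.baseAut σ q = q)
    (hq : ∀ m : ℤ, S.IsCU (q ^ m) → m = 0)
    (hunr : ∀ Y : K, Y ≠ 0 → (∀ σ ∈ I, SemilinearAut.baseAut σ Y = Y) →
      ∃ m : ℤ, S.IsCU (Y / q ^ m))
    (n : ℕ) {s s' : Place k F₁ × Place k F₂} (hs : s ∈ S.nodes) (hs' : s' ∈ S.nodes)
    {t t' : F} {e e' : ℕ} (ht : S.IsAnnCoord s t (q ^ e)) (ht' : S.IsAnnCoord s' t' (q ^ e'))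
    (htI : ∀ σ ∈ I, σ • t = t) (ht'I : ∀ σ ∈ I, σ • t' = t')
    {f : F} {c₁ c₂ : K} (h₁ : S.c₁.IsGU (algebraMap K F c₁ * f))
    (h₂ : S.c₂.IsGU (algebraMap K F c₂ * f)) (hfI : ∀ σ ∈ I, σ • f = f)
    (hdiv : ∀ P : Place K F, (n : ℤ) ∣ P.ord f) :
    (n : ℤ) ∣ (e : ℤ) * s.1.ord (S.c₁.rd (algebraMap K F c₁ * f))
      - (e' : ℤ) * s'.1.ord (S.c₁.rd (algebraMap K F c₁ * f)) := by
  have hc₂ : c₂ ≠ 0 := by
    rintro rfl
    exact h₂.ne_zero (by rw [map_zero, zero_mul])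
  have hD : ∀ (s₁ : Place k F₁ × Place k F₂) (P : Place K F), S.c₁.r P = some s₁.1 →
      P.ord f = n * (P.ord f / (n : ℤ)) := fun _ P _ => (Int.mul_ediv_cancel' (hdiv P)).symm
  -- one node
  have key : ∀ (s₁ : Place k F₁ × Place k F₂) (_ : s₁ ∈ S.nodes) (t₁ : F) (e₁ : ℕ)
      (_ : S.IsAnnCoord s₁ t₁ (q ^ e₁)) (_ : ∀ σ ∈ I, σ • t₁ = t₁),
      ∃ j : ℤ, S.IsCU (c₁ / (c₂ * q ^ ((e₁ : ℤ) *
        s₁.1.ord (S.c₁.rd (algebraMap K F c₁ * f)) + n * j))) := by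
    intro s₁ hs₁ t₁ e₁ ht₁ ht₁I
    obtain ⟨Y, hY0, hYI, hCU⟩ := S.nodeRad_isInertial hP hdeg hs₁ ht₁ h₁ h₂ n
      (fun P => P.ord f / (n : ℤ)) (hD s₁) I (fun σ hσ =>
        ⟨hI σ hσ, ht₁I σ hσ, by rw [map_pow, hqI σ hσ], hfI σ hσ⟩)
    obtain ⟨j, hj⟩ := hunr Y hY0 hYI
    refine ⟨j, ?_⟩
    have h3 := hCU.mul (hj.pow n)
    have hqj : q ^ j ≠ 0 := zpow_ne_zero _ hq0
    have e3 : c₁ / (c₂ * (q ^ e₁) ^ s₁.1.ord (S.c₁.rd (algebraMap K F c₁ * f)) * Y ^ n)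
        * (Y / q ^ j) ^ n
        = c₁ / (c₂ * q ^ ((e₁ : ℤ) * s₁.1.ord (S.c₁.rd (algebraMap K F c₁ * f)) + n * j)) := by
      have e4 : (q ^ e₁) ^ s₁.1.ord (S.c₁.rd (algebraMap K F c₁ * f))
          = q ^ ((e₁ : ℤ) * s₁.1.ord (S.c₁.rd (algebraMap K F c₁ * f))) := by
        rw [← zpow_natCast q e₁, ← zpow_mul]
      have e5 : q ^ ((e₁ : ℤ) * s₁.1.ord (S.c₁.rd (algebraMap K F c₁ * f)) + n * j)
          = q ^ ((e₁ : ℤ) * s₁.1.ord (S.c₁.rd (algebraMap K F c₁ * f))) * (q ^ j) ^ n := by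
        have e5a : q ^ ((n : ℤ) * j) = (q ^ j) ^ n := by
          rw [mul_comm, zpow_mul, zpow_natCast]
        rw [zpow_add₀ hq0, e5a]
      rw [e4, e5, div_pow]
      have hYn : Y ^ n ≠ 0 := pow_ne_zero n hY0
      have hqjn : (q ^ j) ^ n ≠ 0 := pow_ne_zero n hqj
      have hqe : q ^ ((e₁ : ℤ) * s₁.1.ord (S.c₁.rd (algebraMap K F c₁ * f))) ≠ 0 :=
        zpow_ne_zero _ hq0
      field_simp
    rw [e3] at h3
    exact h3
  obtain ⟨j, hj⟩ := key s hs t e ht htI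
  obtain ⟨j', hj'⟩ := key s' hs' t' e' ht' ht'I
  have h4 := hj'.div hj
  have hc₁ : c₁ ≠ 0 := by
    rintro rfl
    exact h₁.ne_zero (by rw [map_zero, zero_mul])
  have e6 : c₁ / (c₂ * q ^ ((e' : ℤ) * s'.1.ord (S.c₁.rd (algebraMap K F c₁ * f)) + n * j'))
      / (c₁ / (c₂ * q ^ ((e : ℤ) * s.1.ord (S.c₁.rd (algebraMap K F c₁ * f)) + n * j)))
      = q ^ (((e : ℤ) * s.1.ord (S.c₁.rd (algebraMap K F c₁ * f)) + n * j)
        - ((e' : ℤ) * s'.1.ord (S.c₁.rd (algebraMap K F c₁ * f)) + n * j')) := by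
    rw [zpow_sub₀ hq0]
    have h7 : q ^ ((e' : ℤ) * s'.1.ord (S.c₁.rd (algebraMap K F c₁ * f)) + n * j') ≠ 0 :=
      zpow_ne_zero _ hq0
    have h8 : q ^ ((e : ℤ) * s.1.ord (S.c₁.rd (algebraMap K F c₁ * f)) + n * j) ≠ 0 :=
      zpow_ne_zero _ hq0
    field_simp
  rw [e6] at h4
  have h9 := hq _ h4
  refine ⟨j' - j, ?_⟩
  linarith

/-- A single `I`-fixed function: if `r` divides the slope at one node `s₁ ≠ s₀` (or if there is
no such node), then the class is toric. -/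
theorem fix_single (hP : HasPrincipalDivisors K F) (hdeg : ∀ v : Place K F, v.deg = 1)
    (H₁ : FFHyp k F₁) {c₀ : ℤ} (hg₁ : IsGenus k F₁ 0 c₀)
    (I : Set (SemilinearAut K F)) (hI : ∀ σ ∈ I, S.IsInertial σ)
    (q : K) (hq0 : q ≠ 0) (hqI : ∀ σ ∈ I, SemilinearAut.baseAut σ q = q)
    (hq : ∀ m : ℤ, S.IsCU (q ^ m) → m = 0)
    (hunr : ∀ Y : K, Y ≠ 0 → (∀ σ ∈ I, SemilinearAut.baseAut σ Y = Y) →
      ∃ m : ℤ, S.IsCU (Y / q ^ m))
    (r : ℕ) (hr : r.Prime) (s₀ : Place k F₁ × Place k F₂)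
    (hcoord : ∀ s ∈ S.nodes, s ≠ s₀ → ∃ (t : F) (e : ℕ), S.IsAnnCoord s t (q ^ e) ∧
      (∀ σ ∈ I, σ • t = t) ∧ ¬ r ∣ e)
    {G : F} {C₁ C₂ : K} (h₁ : S.c₁.IsGU (algebraMap K F C₁ * G))
    (h₂ : S.c₂.IsGU (algebraMap K F C₂ * G)) (hGI : ∀ σ ∈ I, σ • G = G)
    (hdiv : ∀ P : Place K F, (r : ℤ) ∣ P.ord G)
    (href : ∀ s₁ ∈ S.nodes, s₁ ≠ s₀ → ∃ s₂ ∈ S.nodes, s₂ ≠ s₀ ∧
      (r : ℤ) ∣ s₂.1.ord (S.c₁.rd (algebraMap K F C₁ * G))) :
    ∃ (w : F) (c : K), w ≠ 0 ∧ c ≠ 0 ∧ algebraMap K F c * G * w ^ r ∈ S.c₁.V ∧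
      S.c₁.rd (algebraMap K F c * G * w ^ r) = 1 := by
  have hC₁ : C₁ ≠ 0 := by
    rintro rfl
    exact h₁.ne_zero (by rw [map_zero, zero_mul])
  have hrZ : Prime (r : ℤ) := Nat.prime_iff_prime_int.mp hr
  have hgood : ∀ s ∈ S.nodes, s ≠ s₀ →
      (r : ℤ) ∣ s.1.ord (S.c₁.rd (algebraMap K F C₁ * G)) := by
    intro s hs hss
    obtain ⟨s₂, hs₂, hs₂0, hdvd⟩ := href s hs hss
    obtain ⟨t, e, ht, htI, hre⟩ := hcoord s hs hss
    obtain ⟨t₂, e₂, ht₂, ht₂I, -⟩ := hcoord s₂ hs₂ hs₂0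
    have hcg := slope_congr S hP hdeg I hI q hq0 hqI hq hunr r hs hs₂ ht ht₂ htI ht₂I h₁ h₂
      hGI hdiv
    have h3 : (r : ℤ) ∣ (e : ℤ) * s.1.ord (S.c₁.rd (algebraMap K F C₁ * G)) := by
      have h4 := dvd_add hcg (dvd_mul_of_dvd_right hdvd (e₂ : ℤ))
      rwa [sub_add_cancel] at h4
    rcases hrZ.dvd_or_dvd h3 with h5 | h5
    · exact absurd (Int.natCast_dvd_natCast.mp h5) hre
    · exact h5
  have hdiv' : ∀ P : Place K F, (r : ℤ) ∣ P.ord (algebraMap K F C₁ * G) := by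
    intro P
    rw [ord_algebraMap_mul P hC₁]
    exact hdiv P
  have hall := dvd_slope_of_others S hP H₁ h₁ hdiv' s₀ hgood
  exact S.exists_rd₁_eq_one_of_slopes hP H₁ hg₁ hr.ne_zero h₁ hdiv hall

/-- Two integers have a non-trivial combination divisible by `r`. -/
theorem exists_comb_dvd (r : ℕ) (hr : 1 < r) (m m' : ℤ) :
    ∃ α β : ℕ, (¬ r ∣ α ∨ ¬ r ∣ β) ∧ (r : ℤ) ∣ (α : ℤ) * m + (β : ℤ) * m' := by
  have hr' : (0 : ℤ) < r := by exact_mod_cast (by omega : 0 < r)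
  have hr0 : (r : ℤ) ≠ 0 := ne_of_gt hr'
  by_cases hm : (r : ℤ) ∣ m
  · refine ⟨1, 0, Or.inl ?_, ?_⟩
    · intro h
      have h1 := Nat.le_of_dvd Nat.one_pos h
      omega
    · rw [Nat.cast_one, one_mul, Nat.cast_zero, zero_mul, add_zero]
      exact hm
  · refine ⟨(m' % r).toNat, ((-m) % r).toNat, Or.inr ?_, ?_⟩
    · intro h
      apply hm
      have h1 : (((-m) % (r : ℤ)).toNat : ℤ) = (-m) % (r : ℤ) :=
        Int.toNat_of_nonneg (Int.emod_nonneg _ hr0)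
      have h2 : (r : ℤ) ∣ (-m) % (r : ℤ) := by
        rw [← h1]
        exact Int.natCast_dvd_natCast.mpr h
      have h3 : (r : ℤ) ∣ -m := by
        have h4 := Int.emod_add_mul_ediv (-m) (r : ℤ)
        rw [← h4]
        exact dvd_add h2 (dvd_mul_right _ _)
      exact (dvd_neg).mp h3
    · have h1 : (((m') % (r : ℤ)).toNat : ℤ) = m' % (r : ℤ) :=
        Int.toNat_of_nonneg (Int.emod_nonneg _ hr0)
      have h2 : (((-m) % (r : ℤ)).toNat : ℤ) = (-m) % (r : ℤ) :=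
        Int.toNat_of_nonneg (Int.emod_nonneg _ hr0)
      rw [h1, h2, Int.emod_def, Int.emod_def]
      refine ⟨-(m' / r * m + (-m) / r * m'), ?_⟩
      ring

/-- **(FIX), abstract form**: two `I`-fixed Kummer functions have a non-trivial combination
whose class is toric. -/
theorem fix_abs (hP : HasPrincipalDivisors K F) (hdeg : ∀ v : Place K F, v.deg = 1)
    (H₁ : FFHyp k F₁) {c₀ : ℤ} (hg₁ : IsGenus k F₁ 0 c₀)
    (I : Set (SemilinearAut K F)) (hI : ∀ σ ∈ I, S.IsInertial σ)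
    (q : K) (hq0 : q ≠ 0) (hqI : ∀ σ ∈ I, SemilinearAut.baseAut σ q = q)
    (hq : ∀ m : ℤ, S.IsCU (q ^ m) → m = 0)
    (hunr : ∀ Y : K, Y ≠ 0 → (∀ σ ∈ I, SemilinearAut.baseAut σ Y = Y) →
      ∃ m : ℤ, S.IsCU (Y / q ^ m))
    (r : ℕ) (hr : r.Prime) (s₀ : Place k F₁ × Place k F₂)
    (hcoord : ∀ s ∈ S.nodes, s ≠ s₀ → ∃ (t : F) (e : ℕ), S.IsAnnCoord s t (q ^ e) ∧
      (∀ σ ∈ I, σ • t = t) ∧ ¬ r ∣ e)
    {f f' : F} (hf : f ≠ 0) (hf' : f' ≠ 0) (hfI : ∀ σ ∈ I, σ • f = f)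
    (hf'I : ∀ σ ∈ I, σ • f' = f')
    (hdiv : ∀ P : Place K F, (r : ℤ) ∣ P.ord f) (hdiv' : ∀ P : Place K F, (r : ℤ) ∣ P.ord f') :
    ∃ α β : ℕ, (¬ r ∣ α ∨ ¬ r ∣ β) ∧ ∃ (w : F) (c : K), w ≠ 0 ∧ c ≠ 0 ∧
      algebraMap K F c * (f ^ α * f' ^ β) * w ^ r ∈ S.c₁.V ∧
      S.c₁.rd (algebraMap K F c * (f ^ α * f' ^ β) * w ^ r) = 1 := by
  obtain ⟨c₁, -, h₁⟩ := S.c₁.exists_isGU_scale hf
  obtain ⟨c₂, -, h₂⟩ := S.c₂.exists_isGU_scale hf
  obtain ⟨c₁', -, h₁'⟩ := S.c₁.exists_isGU_scale hf'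
  obtain ⟨c₂', -, h₂'⟩ := S.c₂.exists_isGU_scale hf'
  -- the combination `G = f ^ α f' ^ β`
  have hGeq : ∀ (a a' : K) (α β : ℕ), algebraMap K F (a ^ α * a' ^ β) * (f ^ α * f' ^ β)
      = (algebraMap K F a * f) ^ α * (algebraMap K F a' * f') ^ β := by
    intro a a' α β
    rw [map_mul, map_pow, map_pow, mul_pow, mul_pow]
    ring
  have hG₁ : ∀ α β : ℕ, S.c₁.IsGU (algebraMap K F (c₁ ^ α * c₁' ^ β) * (f ^ α * f' ^ β)) := by
    intro α β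
    rw [hGeq]
    exact (h₁.pow α).mul (h₁'.pow β)
  have hG₂ : ∀ α β : ℕ, S.c₂.IsGU (algebraMap K F (c₂ ^ α * c₂' ^ β) * (f ^ α * f' ^ β)) := by
    intro α β
    rw [hGeq]
    exact (h₂.pow α).mul (h₂'.pow β)
  have hGI : ∀ α β : ℕ, ∀ σ ∈ I, σ • (f ^ α * f' ^ β) = f ^ α * f' ^ β := by
    intro α β σ hσ
    rw [smul_mul', smul_pow', smul_pow', hfI σ hσ, hf'I σ hσ]
  have hGdiv : ∀ α β : ℕ, ∀ P : Place K F, (r : ℤ) ∣ P.ord (f ^ α * f' ^ β) := by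
    intro α β P
    rw [Place.ord_mul _ (pow_ne_zero α hf) (pow_ne_zero β hf'), ord_pow, ord_pow]
    exact dvd_add (dvd_mul_of_dvd_right (hdiv P) _) (dvd_mul_of_dvd_right (hdiv' P) _)
  have hGord : ∀ (α β : ℕ) (Q : Place k F₁),
      Q.ord (S.c₁.rd (algebraMap K F (c₁ ^ α * c₁' ^ β) * (f ^ α * f' ^ β)))
        = (α : ℤ) * Q.ord (S.c₁.rd (algebraMap K F c₁ * f))
          + (β : ℤ) * Q.ord (S.c₁.rd (algebraMap K F c₁' * f')) := by
    intro α β Q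
    rw [hGeq, S.c₁.rd_mul (h₁.pow α).1 (h₁'.pow β).1, S.c₁.rd_pow h₁.1, S.c₁.rd_pow h₁'.1,
      Place.ord_mul _ (pow_ne_zero α h₁.2) (pow_ne_zero β h₁'.2), ord_pow, ord_pow]
  by_cases hex : ∃ s₁ ∈ S.nodes, s₁ ≠ s₀
  · obtain ⟨s₁, hs₁, hs₁0⟩ := hex
    obtain ⟨α, β, hαβ, hdvd⟩ := exists_comb_dvd r hr.one_lt
      (s₁.1.ord (S.c₁.rd (algebraMap K F c₁ * f)))
      (s₁.1.ord (S.c₁.rd (algebraMap K F c₁' * f')))
    refine ⟨α, β, hαβ, ?_⟩
    exact fix_single S hP hdeg H₁ hg₁ I hI q hq0 hqI hq hunr r hr s₀ hcoord (hG₁ α β)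
      (hG₂ α β) (hGI α β) (hGdiv α β)
      (fun _ _ _ => ⟨s₁, hs₁, hs₁0, by rw [hGord]; exact hdvd⟩)
  · refine ⟨1, 0, Or.inl ?_, ?_⟩
    · intro h
      have h1 := Nat.le_of_dvd Nat.one_pos h
      have := hr.one_lt
      omega
    · exact fix_single S hP hdeg H₁ hg₁ I hI q hq0 hqI hq hunr r hr s₀ hcoord (hG₁ 1 0)
        (hG₂ 1 0) (hGI 1 0) (hGdiv 1 0)
        (fun s hs hss => absurd ⟨s, hs, hss⟩ hex)

end Abs

end Fermat.Agent.S15.Desc.H63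

end
end
-- ==== END Fermat.Agent.S15.Desc.H63_FixAbs

-- ==== BEGIN Fermat.Agent.S15.Desc.H63_TwoBase
section

set_option autoImplicit false

namespace Fermat.Agent.S15.Desc.H63

open Module

local notation "Qbar" => AlgebraicClosure ℚ
local notation "GQ" => (AlgebraicClosure ℚ ≃ₐ[ℚ] AlgebraicClosure ℚ)

/-- Requirements on the family `𝔅` of subgroups of `Gal(ℚ̄/ℚ)` "bounded at `2`". -/
structure IsBddFamilyTwo (𝔅 : Set (Subgroup GQ)) : Prop where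
  isOpen : ∀ H ∈ 𝔅, ∃ S : Finset Qbar, ∀ σ : GQ, (∀ x ∈ S, σ x = x) → σ ∈ H
  kum : ∀ z : GQ → Qbar, (∀ σ τ, z (σ * τ) = z σ * σ (z τ)) → (∀ σ, z σ ^ 2 = 1) →
    (∃ H ∈ 𝔅, ∀ σ ∈ H, z σ = 1) → H97.UnitClassAt 2 z

section unr

variable {r : ℕ} [hr : Fact r.Prime] {p : ℕ}
variable {A : ℕ → ValuationSubring Qbar}
variable {𝔅 : Set (Subgroup GQ)}

/-- **BASE, trivial character, unramified at `r` by the local condition.** -/
theorem base_unr (hp : p.Prime) (hpr : p ≠ r)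
    (hA : ∀ ℓ : ℕ, ℓ.Prime → (A ℓ).LiesOverPrime ℓ)
    (h𝔅 : ∀ H ∈ 𝔅, ∃ S : Finset Qbar, ∀ σ : GQ, (∀ x ∈ S, σ x = x) → σ ∈ H)
    (Lloc : ℕ → Submodule (ZMod r) (ZMod r))
    (hL : ∀ ℓ : ℕ, ℓ.Prime → ℓ ≠ p → Lloc ℓ = ⊥) :
    DimLE (ZMod r) (ZgoodLine (fun ℓ => (A ℓ).inertiaSubgroupIn ℚ) 𝔅 (fun _ => (1 : ZMod r)) Lloc)
      (finrank (ZMod r) (Lloc p)) := by
  intro T hT hfin
  have hadd : ∀ u ∈ T, ∀ σ τ : GQ, u (σ * τ) = u σ + u τ := by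
    intro u hu σ τ
    have := (hT hu).1 σ τ
    rwa [one_mul] at this
  have hopen : ∀ u ∈ T, ∃ S : Finset Qbar, ∀ σ : GQ, (∀ x ∈ S, σ x = x) → u σ = 0 := by
    intro u hu
    obtain ⟨H, hH, hvan⟩ := (hT hu).2.2
    obtain ⟨S, hS⟩ := h𝔅 H hH
    exact ⟨S, fun σ hσ => hvan σ (hS σ hσ)⟩
  have hunr : ∀ u ∈ T, ∀ ℓ : ℕ, ℓ.Prime → ℓ ≠ p → ∃ B : ValuationSubring Qbar,
      B.LiesOverPrime ℓ ∧ ∀ σ ∈ B.inertiaSubgroupIn ℚ, u σ = 0 := by
    intro u hu ℓ hℓ hℓp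
    refine ⟨A ℓ, hA ℓ hℓ, fun σ hσ => ?_⟩
    have h1 := (hT hu).2.1 ℓ σ hσ
    rw [hL ℓ hℓ hℓp, Submodule.mem_bot] at h1
    exact h1
  by_cases hLp : Lloc p = ⊥
  · have hzero : ∀ u ∈ T, u = 0 := by
      intro u hu
      funext σ
      refine H97.glob_etale_trunc u (hadd u hu) (hopen u hu) (fun ℓ hℓ => ?_) σ
      by_cases hℓp : ℓ = p
      · subst hℓp
        refine ⟨A ℓ, hA ℓ hℓ, fun σ hσ => ?_⟩
        have h1 := (hT hu).2.1 ℓ σ hσ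
        rw [hLp, Submodule.mem_bot] at h1
        exact h1
      · exact hunr u hu ℓ hℓ hℓp
    have : T = ⊥ := by
      rw [eq_bot_iff]
      intro x hx
      rw [Submodule.mem_bot]
      exact hzero x hx
    subst this
    simp
  · have h1 : 1 ≤ finrank (ZMod r) (Lloc p) := by
      rw [Nat.one_le_iff_ne_zero]
      intro h0
      exact hLp (Submodule.finrank_eq_zero.mp h0)
    refine le_trans (finrank_le_one_of_pairwise_dep T ?_) h1
    intro u₁ hu₁ u₂ hu₂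
    obtain ⟨c₁, c₂, hc, hcomb⟩ := H97.glob_etale hp hr.out hpr u₁ u₂ (hadd u₁ hu₁) (hadd u₂ hu₂)
      (hopen u₁ hu₁) (hopen u₂ hu₂) (hunr u₁ hu₁) (hunr u₂ hu₂)
    refine ⟨c₁, c₂, hc, ?_⟩
    funext σ
    exact hcomb σ

end unr

section two

variable {p : ℕ}
variable {A : ℕ → ValuationSubring Qbar}
variable {𝔅 : Set (Subgroup GQ)}

/-- The sign attached to an element of `𝔽_2`. -/
theorem neg_one_pow_val_eq_one_iff (a : ZMod 2) : (-1 : Qbar) ^ a.val = 1 ↔ a = 0 := by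
  have h : a = 0 ∨ a = 1 := by
    revert a
    decide
  rcases h with rfl | rfl
  · simp
  · simp only [ZMod.val_one, pow_one, one_ne_zero, iff_false]
    intro h
    have h2 : (2 : Qbar) = 0 := by linear_combination -h
    exact two_ne_zero h2

/-- The quadratic character of `ℚ(√-1)`, with values in `𝔽_2`. -/
noncomputable def chiFour (ι : Qbar) : GQ → ZMod 2 := by
  classical
  exact fun σ => if σ ι = ι then 0 else 1

/-- If `σ ↦ (-1)^(w σ)` is the coboundary of a fourth root of unity, `w` is a multiple of the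
character of `ℚ(√-1)`. -/
theorem eq_smul_chiFour {ι : Qbar} (hι : ι ^ 2 = -1) (w : GQ → ZMod 2) (ζ : Qbar)
    (hζ : ζ ^ 4 = 1) (h : ∀ σ : GQ, σ ζ = (-1) ^ (w σ).val * ζ) :
    ∃ j : ZMod 2, w = j • chiFour ι := by
  classical
  have hζ0 : ζ ≠ 0 := by
    rintro rfl
    rw [zero_pow (by norm_num)] at hζ
    exact zero_ne_one hζ
  have hι0 : ι ≠ 0 := by
    rintro rfl
    rw [zero_pow two_ne_zero] at hι
    have h2 : (1 : Qbar) = 0 := by linear_combination hι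
    exact one_ne_zero h2
  have hfac : (ζ ^ 2 - 1) * (ζ ^ 2 + 1) = 0 := by linear_combination hζ
  rcases mul_eq_zero.mp hfac with h1 | h1
  · -- `ζ = ± 1` is rational
    refine ⟨0, ?_⟩
    funext σ
    rw [zero_smul, Pi.zero_apply]
    have hσ : σ ζ = ζ := by
      have h2 : (ζ - 1) * (ζ + 1) = 0 := by linear_combination h1
      rcases mul_eq_zero.mp h2 with h3 | h3
      · have : ζ = 1 := by linear_combination h3
        rw [this, map_one]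
      · have : ζ = -1 := by linear_combination h3
        rw [this, map_neg, map_one]
    have h2 := h σ
    rw [hσ] at h2
    have h3 : ((-1 : Qbar) ^ (w σ).val - 1) * ζ = 0 := by linear_combination -h2
    rcases mul_eq_zero.mp h3 with h4 | h4
    · exact (neg_one_pow_val_eq_one_iff _).mp (by linear_combination h4)
    · exact absurd h4 hζ0
  · -- `ζ = ± ι`
    refine ⟨1, ?_⟩
    funext σ
    rw [one_smul]
    have h2 : (ζ - ι) * (ζ + ι) = 0 := by linear_combination h1 - hι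
    have hζι : ∃ ε : Qbar, (ε = 1 ∨ ε = -1) ∧ ζ = ε * ι := by
      rcases mul_eq_zero.mp h2 with h3 | h3
      · exact ⟨1, Or.inl rfl, by linear_combination h3⟩
      · exact ⟨-1, Or.inr rfl, by linear_combination h3⟩
    obtain ⟨ε, hε, rfl⟩ := hζι
    have hε0 : ε ≠ 0 := by
      rcases hε with rfl | rfl
      · exact one_ne_zero
      · exact neg_ne_zero.mpr one_ne_zero
    have hσε : σ ε = ε := by
      rcases hε with rfl | rfl
      · exact map_one σ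
      · rw [map_neg, map_one]
    have h3 := h σ
    rw [map_mul, hσε] at h3
    have h4 : σ ι = (-1) ^ (w σ).val * ι := by
      have : ε * (σ ι - (-1) ^ (w σ).val * ι) = 0 := by linear_combination h3
      rcases mul_eq_zero.mp this with h5 | h5
      · exact absurd h5 hε0
      · linear_combination h5
    unfold chiFour
    split_ifs with h5
    · rw [h5] at h4
      have h6 : ((-1 : Qbar) ^ (w σ).val - 1) * ι = 0 := by linear_combination -h4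
      rcases mul_eq_zero.mp h6 with h7 | h7
      · exact (neg_one_pow_val_eq_one_iff _).mp (by linear_combination h7)
      · exact absurd h7 hι0
    · by_contra h6
      have h7 : w σ = 0 := by
        have h8 : w σ = 0 ∨ w σ = 1 := by
          generalize w σ = a
          revert a
          decide
        rcases h8 with h8 | h8
        · exact h8
        · exact absurd h8 h6
      rw [h7, ZMod.val_zero, pow_zero, one_mul] at h4
      exact h5 h4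

/-- The `μ_2`-valued crossed homomorphisms attached to the good cocycles of a line over `𝔽_2`:
the inputs of `glob_mu2_trunc`, `glob_mu2_full`. -/
theorem two_line_facts
    (hA : ∀ ℓ : ℕ, ℓ.Prime → (A ℓ).LiesOverPrime ℓ)
    (h𝔅 : IsBddFamilyTwo 𝔅)
    (Lloc : ℕ → Submodule (ZMod 2) (ZMod 2))
    (hL : ∀ ℓ : ℕ, ℓ.Prime → ℓ ≠ p → ℓ ≠ 2 → Lloc ℓ = ⊥)
    {u : GQ → ZMod 2}
    (hu : u ∈ ZgoodLine (fun ℓ => (A ℓ).inertiaSubgroupIn ℚ) 𝔅 (fun _ => (1 : ZMod 2)) Lloc) :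
    (∀ σ τ : GQ, zOf (-1 : Qbar) u (σ * τ) = zOf (-1 : Qbar) u σ * σ (zOf (-1 : Qbar) u τ)) ∧
    (∀ σ : GQ, zOf (-1 : Qbar) u σ ^ 2 = 1) ∧
    (∃ S : Finset Qbar, ∀ σ : GQ, (∀ x ∈ S, σ x = x) → zOf (-1 : Qbar) u σ = 1) ∧
    H97.UnitClassAt 2 (zOf (-1 : Qbar) u) ∧
    (∀ ℓ : ℕ, ℓ.Prime → ℓ ≠ 2 → ℓ ≠ p → H97.UnramAt ℓ (zOf (-1 : Qbar) u)) ∧
    (Lloc p = ⊥ → ∀ ℓ : ℕ, ℓ.Prime → ℓ ≠ 2 → H97.UnramAt ℓ (zOf (-1 : Qbar) u)) := by
  have : Fact (Nat.Prime 2) := ⟨Nat.prime_two⟩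
  have hζ1 : (-1 : Qbar) ^ 2 = 1 := by norm_num
  have hχ : ∀ σ : GQ, σ (-1 : Qbar) = (-1 : Qbar) ^ ((fun _ : GQ => (1 : ZMod 2)) σ).val := by
    intro σ
    rw [map_neg, map_one]
    simp only [ZMod.val_one, pow_one]
  have hcr : ∀ σ τ : GQ,
      zOf (-1 : Qbar) u (σ * τ) = zOf (-1 : Qbar) u σ * σ (zOf (-1 : Qbar) u τ) :=
    zOf_crossed hζ1 hχ hu.1
  have hunr : ∀ ℓ : ℕ, ℓ.Prime → ℓ ≠ 2 → ℓ ≠ p → H97.UnramAt ℓ (zOf (-1 : Qbar) u) := by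
    intro ℓ hℓ hℓr hℓp
    refine ⟨A ℓ, hA ℓ hℓ, fun σ hσ => ?_⟩
    have h1 := hu.2.1 ℓ σ hσ
    rw [hL ℓ hℓ hℓp hℓr, Submodule.mem_bot] at h1
    show (-1 : Qbar) ^ (u σ).val = 1
    rw [h1, ZMod.val_zero, pow_zero]
  refine ⟨hcr, zOf_pow hζ1 u, ?_, ?_, hunr, ?_⟩
  · obtain ⟨H, hH, hvan⟩ := hu.2.2
    obtain ⟨S, hS⟩ := h𝔅.isOpen H hH
    refine ⟨S, fun σ hσ => ?_⟩
    show (-1 : Qbar) ^ (u σ).val = 1
    rw [hvan σ (hS σ hσ), ZMod.val_zero, pow_zero]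
  · refine h𝔅.kum _ hcr (zOf_pow hζ1 u) ?_
    obtain ⟨H, hH, hvan⟩ := hu.2.2
    refine ⟨H, hH, fun σ hσ => ?_⟩
    show (-1 : Qbar) ^ (u σ).val = 1
    rw [hvan σ hσ, ZMod.val_zero, pow_zero]
  · intro hLp ℓ hℓ hℓr
    by_cases hℓp : ℓ = p
    · subst hℓp
      refine ⟨A ℓ, hA ℓ hℓ, fun σ hσ => ?_⟩
      have h1 := hu.2.1 ℓ σ hσ
      rw [hLp, Submodule.mem_bot] at h1
      show (-1 : Qbar) ^ (u σ).val = 1
      rw [h1, ZMod.val_zero, pow_zero]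
    · exact hunr ℓ hℓ hℓr hℓp

/-- Lines over `𝔽_2`, unramified at `p`: every good cocycle is a multiple of the character of
`ℚ(√-1)`. -/
theorem two_line_trunc
    (hA : ∀ ℓ : ℕ, ℓ.Prime → (A ℓ).LiesOverPrime ℓ)
    (h𝔅 : IsBddFamilyTwo 𝔅)
    (Lloc : ℕ → Submodule (ZMod 2) (ZMod 2))
    (hL : ∀ ℓ : ℕ, ℓ.Prime → ℓ ≠ p → ℓ ≠ 2 → Lloc ℓ = ⊥) (hLp : Lloc p = ⊥)
    {ι : Qbar} (hι : ι ^ 2 = -1) {u : GQ → ZMod 2}
    (hu : u ∈ ZgoodLine (fun ℓ => (A ℓ).inertiaSubgroupIn ℚ) 𝔅 (fun _ => (1 : ZMod 2)) Lloc) :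
    ∃ j : ZMod 2, u = j • chiFour ι := by
  obtain ⟨hcr, hpow, hopen, hunit, -, hunr⟩ := two_line_facts hA h𝔅 Lloc hL hu
  obtain ⟨ζ, hζr, hcob⟩ := glob_mu2_trunc (zOf (-1 : Qbar) u) hcr hpow hopen (hunr hLp) hunit
  exact eq_smul_chiFour hι u ζ hζr hcob

/-- Lines over `𝔽_2`: two good cocycles have a nontrivial combination which is a multiple of the
character of `ℚ(√-1)`. -/
theorem two_line_full (hp : p.Prime)
    (hA : ∀ ℓ : ℕ, ℓ.Prime → (A ℓ).LiesOverPrime ℓ)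
    (h𝔅 : IsBddFamilyTwo 𝔅)
    (Lloc : ℕ → Submodule (ZMod 2) (ZMod 2))
    (hL : ∀ ℓ : ℕ, ℓ.Prime → ℓ ≠ p → ℓ ≠ 2 → Lloc ℓ = ⊥)
    {ι : Qbar} (hι : ι ^ 2 = -1) {u₁ u₂ : GQ → ZMod 2}
    (hu₁ : u₁ ∈ ZgoodLine (fun ℓ => (A ℓ).inertiaSubgroupIn ℚ) 𝔅 (fun _ => (1 : ZMod 2)) Lloc)
    (hu₂ : u₂ ∈ ZgoodLine (fun ℓ => (A ℓ).inertiaSubgroupIn ℚ) 𝔅 (fun _ => (1 : ZMod 2)) Lloc) :
    ∃ c₁ c₂ j : ZMod 2, (c₁ ≠ 0 ∨ c₂ ≠ 0) ∧ c₁ • u₁ + c₂ • u₂ = j • chiFour ι := by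
  have : Fact (Nat.Prime 2) := ⟨Nat.prime_two⟩
  have hζ1 : (-1 : Qbar) ^ 2 = 1 := by norm_num
  obtain ⟨hcr₁, hpow₁, hopen₁, hunit₁, hunr₁, -⟩ := two_line_facts hA h𝔅 Lloc hL hu₁
  obtain ⟨hcr₂, hpow₂, hopen₂, hunit₂, hunr₂, -⟩ := two_line_facts hA h𝔅 Lloc hL hu₂
  obtain ⟨c₁, c₂, ζ, hc, hζr, hcob⟩ := glob_mu2_full hp (zOf (-1 : Qbar) u₁)
    (zOf (-1 : Qbar) u₂) hcr₁ hpow₁ hcr₂ hpow₂ hopen₁ hopen₂ hunr₁ hunr₂ hunit₁ hunit₂
  set w : GQ → ZMod 2 := fun σ => (c₁ : ZMod 2) * u₁ σ + (c₂ : ZMod 2) * u₂ σ with hw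
  have hwz : ∀ σ : GQ, σ ζ = (-1 : Qbar) ^ (w σ).val * ζ := by
    intro σ
    rw [hcob σ]
    congr 1
    show ((-1 : Qbar) ^ (u₁ σ).val) ^ c₁ * ((-1 : Qbar) ^ (u₂ σ).val) ^ c₂ = _
    rw [hw]
    simp only
    rw [zpow_val_add hζ1, zpow_val_mul hζ1, zpow_val_mul hζ1, ZMod.val_natCast,
      ZMod.val_natCast, ← pow_mul, ← pow_mul, ← pow_mul, ← pow_mul]
    have e1 : (-1 : Qbar) ^ ((u₁ σ).val * (c₁ % 2)) = (-1 : Qbar) ^ ((u₁ σ).val * c₁) := by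
      rw [pow_mul, pow_mul, ← pow_eq_pow_mod c₁ (by rw [← pow_mul, mul_comm, pow_mul, hζ1,
        one_pow])]
    have e2 : (-1 : Qbar) ^ ((u₂ σ).val * (c₂ % 2)) = (-1 : Qbar) ^ ((u₂ σ).val * c₂) := by
      rw [pow_mul, pow_mul, ← pow_eq_pow_mod c₂ (by rw [← pow_mul, mul_comm, pow_mul, hζ1,
        one_pow])]
    rw [e1, e2]
  obtain ⟨j, hj⟩ := eq_smul_chiFour hι w ζ hζr hwz
  refine ⟨(c₁ : ZMod 2), (c₂ : ZMod 2), j, ?_, ?_⟩
  · rcases hc with hc | hc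
    · left
      intro h0
      exact hc ((ZMod.natCast_eq_zero_iff c₁ 2).mp h0)
    · right
      intro h0
      exact hc ((ZMod.natCast_eq_zero_iff c₂ 2).mp h0)
  · rw [← hj]
    funext σ
    rfl

/-- **BASE for `r = 2`, lines without a condition at the second place.** -/
theorem base_two_mu (hp : p.Prime)
    (hA : ∀ ℓ : ℕ, ℓ.Prime → (A ℓ).LiesOverPrime ℓ)
    (h𝔅 : IsBddFamilyTwo 𝔅)
    (Lloc : ℕ → Submodule (ZMod 2) (ZMod 2))
    (hL : ∀ ℓ : ℕ, ℓ.Prime → ℓ ≠ p → ℓ ≠ 2 → Lloc ℓ = ⊥) :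
    DimLE (ZMod 2) (ZgoodLine (fun ℓ => (A ℓ).inertiaSubgroupIn ℚ) 𝔅 (fun _ => (1 : ZMod 2)) Lloc)
      (finrank (ZMod 2) (Lloc p) + 1) := by
  classical
  intro T hT hfin
  obtain ⟨ι, hι⟩ := IsAlgClosed.exists_pow_nat_eq (-1 : Qbar) (n := 2) (by norm_num)
  by_cases hLp : Lloc p = ⊥
  · have hmul : ∀ u ∈ T, ∃ j : ZMod 2, u = j • chiFour ι :=
      fun u hu => two_line_trunc hA h𝔅 Lloc hL hLp hι (hT hu)
    have h1 : finrank (ZMod 2) T ≤ 1 := by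
      refine finrank_le_one_of_pairwise_dep T ?_
      intro u₁ hu₁ u₂ hu₂
      obtain ⟨j₁, rfl⟩ := hmul u₁ hu₁
      obtain ⟨j₂, rfl⟩ := hmul u₂ hu₂
      by_cases hj : j₁ = 0 ∧ j₂ = 0
      · refine ⟨1, 0, Or.inl one_ne_zero, ?_⟩
        rw [hj.1, zero_smul, smul_zero, zero_smul, add_zero]
      · refine ⟨j₂, -j₁, ?_, ?_⟩
        · by_contra hcon
          simp only [not_or, not_not, neg_eq_zero] at hcon
          exact hj ⟨hcon.2, hcon.1⟩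
        · rw [smul_smul, smul_smul, mul_comm j₂ j₁, neg_mul, neg_smul, add_neg_cancel]
    omega
  · have h1 : 1 ≤ finrank (ZMod 2) (Lloc p) := by
      rw [Nat.one_le_iff_ne_zero]
      intro h0
      exact hLp (Submodule.finrank_eq_zero.mp h0)
    have h2 : finrank (ZMod 2) T ≤ 2 :=
      finrank_le_two_of_pairwise_dep_mod T (chiFour ι) fun u₁ hu₁ u₂ hu₂ =>
        two_line_full hp hA h𝔅 Lloc hL hι (hT hu₁) (hT hu₂)
    omega

/-- **BASE for `r = 2`, lines whose cocycles vanish at an element `c` acting nontrivially on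
`√-1`** (complex conjugation). -/
theorem base_two_real (hp : p.Prime)
    (hA : ∀ ℓ : ℕ, ℓ.Prime → (A ℓ).LiesOverPrime ℓ)
    (h𝔅 : IsBddFamilyTwo 𝔅)
    (Lloc : ℕ → Submodule (ZMod 2) (ZMod 2))
    (hL : ∀ ℓ : ℕ, ℓ.Prime → ℓ ≠ p → ℓ ≠ 2 → Lloc ℓ = ⊥)
    {ι : Qbar} (hι : ι ^ 2 = -1) (c : GQ) (hc : c ι ≠ ι)
    (T : Submodule (ZMod 2) (GQ → ZMod 2)) [Module.Finite (ZMod 2) T]
    (hT : (T : Set (GQ → ZMod 2)) ⊆
      ZgoodLine (fun ℓ => (A ℓ).inertiaSubgroupIn ℚ) 𝔅 (fun _ => (1 : ZMod 2)) Lloc)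
    (hTc : ∀ u ∈ T, u c = 0) :
    finrank (ZMod 2) T ≤ finrank (ZMod 2) (Lloc p) := by
  classical
  have hχc : chiFour ι c = 1 := by
    unfold chiFour
    rw [if_neg hc]
  have hj0 : ∀ u ∈ T, ∀ j : ZMod 2, u = j • chiFour ι → u = 0 := by
    intro u hu j hj
    have h1 := hTc u hu
    rw [hj, Pi.smul_apply, hχc, smul_eq_mul, mul_one] at h1
    rw [hj, h1, zero_smul]
  by_cases hLp : Lloc p = ⊥
  · have hzero : ∀ u ∈ T, u = 0 := by
      intro u hu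
      obtain ⟨j, hj⟩ := two_line_trunc hA h𝔅 Lloc hL hLp hι (hT hu)
      exact hj0 u hu j hj
    have : T = ⊥ := by
      rw [eq_bot_iff]
      intro x hx
      rw [Submodule.mem_bot]
      exact hzero x hx
    subst this
    simp
  · have h1 : 1 ≤ finrank (ZMod 2) (Lloc p) := by
      rw [Nat.one_le_iff_ne_zero]
      intro h0
      exact hLp (Submodule.finrank_eq_zero.mp h0)
    refine le_trans (finrank_le_one_of_pairwise_dep T ?_) h1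
    intro u₁ hu₁ u₂ hu₂
    obtain ⟨c₁, c₂, j, hc12, hcomb⟩ := two_line_full hp hA h𝔅 Lloc hL hι (hT hu₁) (hT hu₂)
    refine ⟨c₁, c₂, hc12, ?_⟩
    exact hj0 _ (T.add_mem (T.smul_mem c₁ hu₁) (T.smul_mem c₂ hu₂)) j hcomb

end two

end Fermat.Agent.S15.Desc.H63

end
-- ==== END Fermat.Agent.S15.Desc.H63_TwoBase

-- ==== BEGIN Fermat.Agent.S15.Desc.H67_CoordCharts
section

/-!
# S15 DESC, leaf COORD (helper67): START and LIFT from two charts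

Abstract form of the modular situation at level `p`: `S` an `SSD` whose two residue fields are
rational function fields `k(j₁)`, `k(j₂)` in characteristic `p`, with two functions `x₁` (`= j`),
`x₂` (`= j_p`) integral for both valuations and

  `red₁ x₁ = j₁`, `red₁ x₂ = j₁ ^ p`, `red₂ x₁ = j₂ ^ p`, `red₂ x₂ = j₂`.

* `exists_polyLift` : lifts of polynomials over `k` to polynomials with coefficients in a ring
  `R0` of constants which surjects onto `k`;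
* `exists_start` : START, `x₀ = (x₁ - b₀) - (x₂ - b₁) ^ p`;
* `exists_lift` : LIFT, `g = N(x₂) / D(x₂)`;
* `exists_isAnnCoord_of_charts` : the coordinate.
-/

set_option autoImplicit false
set_option linter.style.haveILetI false
set_option linter.unusedSectionVars false

noncomputable section

open AlgebraicCurve IntermediateField Polynomial

attribute [local instance] Classical.propDecidable

namespace Fermat.Agent.S15.Desc.H67

open Fermat.Agent.RED.H17 Fermat.Agent.RED Fermat.Agent.BAD Fermat.Agent.S24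

variable {K F k F₁ F₂ : Type} [Field K] [Field F] [Algebra K F] [Field k] [Field F₁]
  [Algebra k F₁] [Field F₂] [Algebra k F₂] {S : SSD K F k F₁ F₂}

section PolyLift

variable (F0 : Subfield F) (R0 : Subring K) (hR0F : ∀ c ∈ R0, algebraMap K F c ∈ F0)
  (hR0V : ∀ c ∈ R0, algebraMap K F c ∈ S.c₁.V)
  (hR0lift : ∀ c' : k, ∃ c ∈ R0, S.c₁.rd (algebraMap K F c) = algebraMap k F₁ c')

include hR0V in
theorem rd₂_const_of_rd₁ {c : K} (hc : c ∈ R0) {c' : k}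
    (h : S.c₁.rd (algebraMap K F c) = algebraMap k F₁ c') :
    algebraMap K F c ∈ S.c₂.V ∧ S.c₂.rd (algebraMap K F c) = algebraMap k F₂ c' := by
  have h₁ := hR0V c hc
  have h₂ : algebraMap K F c ∈ S.c₂.V := (S.const_mem c).mp h₁
  refine ⟨h₂, ?_⟩
  rw [S.c₂.rd_of_mem h₂]
  apply S.const_red c h₁ h₂ c'
  rw [← S.c₁.rd_of_mem h₁]
  exact h

include hR0F hR0V hR0lift in
/-- Lifts of polynomials. -/
theorem exists_polyLift (P : k[X]) :
    ∃ Q : K[X], (∀ x ∈ F0, aeval x Q ∈ F0) ∧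
      (∀ x ∈ S.c₁.V, aeval x Q ∈ S.c₁.V ∧ S.c₁.rd (aeval x Q) = aeval (S.c₁.rd x) P) ∧
      (∀ x ∈ S.c₂.V, aeval x Q ∈ S.c₂.V ∧ S.c₂.rd (aeval x Q) = aeval (S.c₂.rd x) P) := by
  induction P using Polynomial.induction_on' with
  | add p q hp hq =>
    obtain ⟨Qp, hp0, hp1, hp2⟩ := hp
    obtain ⟨Qq, hq0, hq1, hq2⟩ := hq
    refine ⟨Qp + Qq, fun x hx => ?_, fun x hx => ?_, fun x hx => ?_⟩
    · rw [map_add]; exact F0.add_mem (hp0 x hx) (hq0 x hx)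
    · rw [map_add, map_add, S.c₁.rd_add (hp1 x hx).1 (hq1 x hx).1, (hp1 x hx).2, (hq1 x hx).2]
      exact ⟨S.c₁.V.add_mem _ _ (hp1 x hx).1 (hq1 x hx).1, rfl⟩
    · rw [map_add, map_add, S.c₂.rd_add (hp2 x hx).1 (hq2 x hx).1, (hp2 x hx).2, (hq2 x hx).2]
      exact ⟨S.c₂.V.add_mem _ _ (hp2 x hx).1 (hq2 x hx).1, rfl⟩
  | monomial n c' =>
    obtain ⟨c, hc, hcr⟩ := hR0lift c'
    obtain ⟨hc₂, hcr₂⟩ := rd₂_const_of_rd₁ R0 hR0V hc hcr
    have hc₁ := hR0V c hc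
    refine ⟨monomial n c, fun x hx => ?_, fun x hx => ?_, fun x hx => ?_⟩
    · rw [aeval_monomial]
      exact F0.mul_mem (hR0F c hc) (F0.pow_mem hx n)
    · rw [aeval_monomial, aeval_monomial]
      have hxn : x ^ n ∈ S.c₁.V := S.c₁.V.pow_mem hx n
      refine ⟨S.c₁.V.mul_mem _ _ hc₁ hxn, ?_⟩
      rw [S.c₁.rd_mul hc₁ hxn, S.c₁.rd_pow hx, hcr]
    · rw [aeval_monomial, aeval_monomial]
      have hxn : x ^ n ∈ S.c₂.V := S.c₂.V.pow_mem hx n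
      refine ⟨S.c₂.V.mul_mem _ _ hc₂ hxn, ?_⟩
      rw [S.c₂.rd_mul hc₂ hxn, S.c₂.rd_pow hx, hcr₂]

end PolyLift

section Charts

variable {s : Place k F₁ × Place k F₂} (hs : s ∈ S.nodes) (hP : HasPrincipalDivisors K F)
  (F0 : Subfield F) (R0 : Subring K) (hR0F : ∀ c ∈ R0, algebraMap K F c ∈ F0)
  (hR0V : ∀ c ∈ R0, algebraMap K F c ∈ S.c₁.V)
  (hR0lift : ∀ c' : k, ∃ c ∈ R0, S.c₁.rd (algebraMap K F c) = algebraMap k F₁ c')
  {x₁ x₂ : F} (hx₁F : x₁ ∈ F0) (hx₂F : x₂ ∈ F0)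
  (h₁₁ : x₁ ∈ S.c₁.V) (h₁₂ : x₁ ∈ S.c₂.V) (h₂₁ : x₂ ∈ S.c₁.V) (h₂₂ : x₂ ∈ S.c₂.V)
  (hpf₁ : PoleFree S s x₁) (hpf₂ : PoleFree S s x₂)
  {j₁ : F₁} {j₂ : F₂} (p : ℕ) [Fact p.Prime] [CharP k p]
  (hr₁₁ : S.c₁.rd x₁ = j₁) (hr₁₂ : S.c₁.rd x₂ = j₁ ^ p) (hr₂₁ : S.c₂.rd x₁ = j₂ ^ p)
  (hr₂₂ : S.c₂.rd x₂ = j₂)
  (hz₁ : H59.ZerosStmt k F₁) (hj₁ : Transcendental k j₁) (htop₁ : k⟮j₁⟯ = ⊤)
  (hz₂ : H59.ZerosStmt k F₂) (hj₂ : Transcendental k j₂) (htop₂ : k⟮j₂⟯ = ⊤)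

omit [Fact p.Prime] [CharP k p] in
include hs h₁₁ h₁₂ hpf₁ hr₁₁ hr₂₁ in
/-- The value of `j` at the node. -/
theorem exists_value₁ :
    ∃ β₀ : k, VanAt s.1 (j₁ - algebraMap k F₁ β₀) ∧ VanAt s.2 (j₂ ^ p - algebraMap k F₂ β₀) := by
  obtain ⟨β₀, h1, h2⟩ := S.glue s hs x₁ h₁₁ h₁₂ hpf₁
  rw [← S.c₁.rd_of_mem h₁₁, hr₁₁] at h1
  rw [← S.c₂.rd_of_mem h₁₂, hr₂₁] at h2
  exact ⟨β₀, h1, h2⟩

omit [Fact p.Prime] [CharP k p] in
include hs h₂₁ h₂₂ hpf₂ hr₁₂ hr₂₂ in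
/-- The value of `j_p` at the node. -/
theorem exists_value₂ :
    ∃ β₁ : k, VanAt s.1 (j₁ ^ p - algebraMap k F₁ β₁) ∧ VanAt s.2 (j₂ - algebraMap k F₂ β₁) := by
  obtain ⟨β₁, h1, h2⟩ := S.glue s hs x₂ h₂₁ h₂₂ hpf₂
  rw [← S.c₁.rd_of_mem h₂₁, hr₁₂] at h1
  rw [← S.c₂.rd_of_mem h₂₂, hr₂₂] at h2
  exact ⟨β₁, h1, h2⟩

omit [Fact p.Prime] [CharP k p] in
/-- `y ↦ y ^ p` on values. -/
theorem vanAt_pow_sub {E : Type} [Field E] [Algebra k E] (z : Place k E) {y : E} {β : k}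
    (h : VanAt z (y - algebraMap k E β)) :
    VanAt z (y ^ p - algebraMap k E (β ^ p)) := by
  have := rat_vanAt_aeval_sub h (X ^ p : k[X])
  simpa using this

include hs h₁₁ h₁₂ hpf₁ hr₁₁ hr₂₁ h₂₁ h₂₂ hpf₂ hr₁₂ hr₂₂ in
/-- The values of `j` and `j_p` at a node: `β₁ = β₀ ^ p` and `β₀ = β₁ ^ p`. -/
theorem exists_values :
    ∃ β₀ β₁ : k, VanAt s.1 (j₁ - algebraMap k F₁ β₀) ∧ VanAt s.2 (j₂ - algebraMap k F₂ β₁) ∧
      β₁ = β₀ ^ p ∧ β₀ = β₁ ^ p := by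
  obtain ⟨β₀, h1, h2⟩ := exists_value₁ hs h₁₁ h₁₂ hpf₁ p hr₁₁ hr₂₁
  obtain ⟨β₁, h3, h4⟩ := exists_value₂ hs h₂₁ h₂₂ hpf₂ p hr₁₂ hr₂₂
  refine ⟨β₀, β₁, h1, h4, ?_, ?_⟩
  · exact value_unique s.1 h3 (vanAt_pow_sub p s.1 h1)
  · exact value_unique s.2 h2 (vanAt_pow_sub p s.2 h4)

include hs hR0F hR0V hR0lift hx₁F hx₂F h₁₁ h₁₂ hpf₁ hr₁₁ hr₂₁ h₂₁ h₂₂ hpf₂ hr₁₂ hr₂₂ hz₁ hj₁
  htop₁ in
/-- **START**. -/
theorem exists_start :
    ∃ x₀ ∈ F0, x₀ ∈ S.c₁.V ∧ s.1.ord (S.c₁.rd x₀) = 1 ∧ x₀ ∈ S.c₂.V ∧ S.c₂.rd x₀ = 0 ∧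
      PoleFree S s x₀ := by
  have hp : p.Prime := Fact.out
  obtain ⟨β₀, β₁, hv₁, hv₂, e₁, e₀⟩ :=
    exists_values hs h₁₁ h₁₂ h₂₁ h₂₂ hpf₁ hpf₂ p hr₁₁ hr₁₂ hr₂₁ hr₂₂
  obtain ⟨b₀, hb₀, hb₀r⟩ := hR0lift β₀
  obtain ⟨b₁, hb₁, hb₁r⟩ := hR0lift β₁
  obtain ⟨hb₀₂, hb₀r₂⟩ := rd₂_const_of_rd₁ R0 hR0V hb₀ hb₀r
  obtain ⟨hb₁₂, hb₁r₂⟩ := rd₂_const_of_rd₁ R0 hR0V hb₁ hb₁r
  have hb₀₁ := hR0V b₀ hb₀
  have hb₁₁ := hR0V b₁ hb₁
  haveI : CharP F₁ p := (Algebra.charP_iff k F₁ p).mp inferInstance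
  haveI : CharP F₂ p := (Algebra.charP_iff k F₂ p).mp inferInstance
  refine ⟨(x₁ - algebraMap K F b₀) - (x₂ - algebraMap K F b₁) ^ p, ?_, ?_, ?_, ?_, ?_, ?_⟩
  · exact F0.sub_mem (F0.sub_mem hx₁F (hR0F b₀ hb₀))
      (F0.pow_mem (F0.sub_mem hx₂F (hR0F b₁ hb₁)) p)
  · exact sub_mem (sub_mem h₁₁ hb₀₁)
      (pow_mem (sub_mem h₂₁ hb₁₁) p)
  · have hm1 : x₁ - algebraMap K F b₀ ∈ S.c₁.V := sub_mem h₁₁ hb₀₁
    have hm2 : x₂ - algebraMap K F b₁ ∈ S.c₁.V := sub_mem h₂₁ hb₁₁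
    rw [S.c₁.rd_sub hm1 (S.c₁.V.pow_mem hm2 p), S.c₁.rd_sub h₁₁ hb₀₁, S.c₁.rd_pow hm2,
      S.c₁.rd_sub h₂₁ hb₁₁, hr₁₁, hr₁₂, hb₀r, hb₁r]
    -- `(j₁ - β₀) - (j₁ ^ p - β₁) ^ p = y - y ^ (p ^ 2)`, `y = j₁ - β₀`
    have hy1 : s.1.ord (j₁ - algebraMap k F₁ β₀) = 1 := rat_ord_sub_value hz₁ hj₁ htop₁ hv₁
    have hyne : j₁ - algebraMap k F₁ β₀ ≠ 0 := fun h0 =>
      rat_transcendental_sub hj₁ β₀ (h0 ▸ isAlgebraic_zero)
    have e : (j₁ - algebraMap k F₁ β₀) - (j₁ ^ p - algebraMap k F₁ β₁) ^ p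
        = (j₁ - algebraMap k F₁ β₀) + -((j₁ - algebraMap k F₁ β₀) ^ (p * p)) := by
      have h1 : (j₁ ^ p - algebraMap k F₁ β₁) ^ p = (j₁ - algebraMap k F₁ β₀) ^ (p * p) := by
        rw [pow_mul, sub_pow_char j₁ (algebraMap k F₁ β₀), ← map_pow, ← e₁]
      rw [h1]
      ring
    rw [e, ord_add_of_lt s.1 hyne, hy1]
    right
    rw [Fermat.Agent.RED.H51.ord_neg, ord_pow, hy1, mul_one]
    have h2 : 2 ≤ p := hp.two_le
    have : (2 : ℤ) * 2 ≤ ((p * p : ℕ) : ℤ) := by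
      have := Nat.mul_le_mul h2 h2
      exact_mod_cast this
    omega
  · exact sub_mem (sub_mem h₁₂ hb₀₂)
      (pow_mem (sub_mem h₂₂ hb₁₂) p)
  · have hm1 : x₁ - algebraMap K F b₀ ∈ S.c₂.V := sub_mem h₁₂ hb₀₂
    have hm2 : x₂ - algebraMap K F b₁ ∈ S.c₂.V := sub_mem h₂₂ hb₁₂
    rw [S.c₂.rd_sub hm1 (S.c₂.V.pow_mem hm2 p), S.c₂.rd_sub h₁₂ hb₀₂, S.c₂.rd_pow hm2,
      S.c₂.rd_sub h₂₂ hb₁₂, hr₂₁, hr₂₂, hb₀r₂, hb₁r₂, sub_pow_char j₂ (algebraMap k F₂ β₁),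
      ← map_pow, ← e₀, sub_self]
  · exact (hpf₁.sub (poleFree_const s b₀)).sub ((hpf₂.sub (poleFree_const s b₁)).pow p)

include hs hP hR0F hR0V hR0lift hx₂F h₂₁ h₂₂ hpf₂ hr₁₂ hr₂₂ hz₂ hj₂ htop₂ hj₁ in
/-- **LIFT**. -/
theorem exists_lift (ψ : F₂) (hψ : 0 ≤ s.2.ord ψ) :
    ∃ g ∈ F0, g ∈ S.c₁.V ∧ g ∈ S.c₂.V ∧ S.c₂.rd g = ψ ∧ PoleFree S s g := by
  obtain ⟨β₁, -, hv₂⟩ := exists_value₂ hs h₂₁ h₂₂ hpf₂ p hr₁₂ hr₂₂
  obtain ⟨N, D, hDβ, hfrac⟩ := rat_exists_fraction hz₂ hj₂ htop₂ hv₂ ψ hψ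
  have hD0 : D ≠ 0 := fun h0 => hDβ (by rw [h0, eval_zero])
  obtain ⟨Nt, hN0, hN1, hN2⟩ := exists_polyLift (S := S) F0 R0 hR0F hR0V hR0lift N
  obtain ⟨Dt, hD0', hD1, hD2⟩ := exists_polyLift (S := S) F0 R0 hR0F hR0V hR0lift D
  have hp : p.Prime := Fact.out
  have hj₁p : Transcendental k (j₁ ^ p) := hj₁.pow hp.pos
  -- the denominator is a unit for both valuations
  have hDG₁ : S.c₁.IsGU (aeval x₂ Dt) := by
    refine ⟨(hD1 x₂ h₂₁).1, ?_⟩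
    rw [(hD1 x₂ h₂₁).2, hr₁₂]
    exact rat_aeval_ne_zero hj₁p hD0
  have hDG₂ : S.c₂.IsGU (aeval x₂ Dt) := by
    refine ⟨(hD2 x₂ h₂₂).1, ?_⟩
    rw [(hD2 x₂ h₂₂).2, hr₂₂]
    exact rat_aeval_ne_zero hj₂ hD0
  have hregx₂ : ∀ P : Place K F, S.c₁.r P = some s.1 → RegAt P x₂ := fun P hPs =>
    regAt_of_ord_nonneg (hpf₂ P hPs)
  have hDreg : ∀ P, S.c₁.r P = some s.1 → 0 ≤ P.ord (aeval x₂ Dt) := fun P hPs =>
    (rat_regAt_aeval (hregx₂ P hPs) Dt).ord_nonneg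
  have hDzero : ∀ P, S.c₁.r P = some s.1 → P.ord (aeval x₂ Dt) = 0 := by
    have hv : VanAt s.2 (S.c₂.rd (aeval x₂ Dt) - algebraMap k F₂ (D.eval β₁)) := by
      rw [(hD2 x₂ h₂₂).2, hr₂₂]
      exact rat_vanAt_aeval_sub hv₂ D
    exact (S.ord_eq_zero_of_value₂ hP hs hDG₁.mem hDG₂.mem hDreg hDβ hv).2.2
  refine ⟨aeval x₂ Nt / aeval x₂ Dt, F0.div_mem (hN0 x₂ hx₂F) (hD0' x₂ hx₂F), ?_, ?_, ?_, ?_⟩
  · rw [div_eq_mul_inv]
    exact S.c₁.V.mul_mem _ _ (hN1 x₂ h₂₁).1 hDG₁.inv_mem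
  · rw [div_eq_mul_inv]
    exact S.c₂.V.mul_mem _ _ (hN2 x₂ h₂₂).1 hDG₂.inv_mem
  · rw [div_eq_mul_inv, S.c₂.rd_mul (hN2 x₂ h₂₂).1 hDG₂.inv_mem, hDG₂.rd_inv, (hN2 x₂ h₂₂).2,
      (hD2 x₂ h₂₂).2, hr₂₂, ← hfrac, mul_assoc,
      mul_inv_cancel₀ (rat_aeval_ne_zero hj₂ hD0), mul_one]
  · intro P hPs
    by_cases hN : aeval x₂ Nt = 0
    · rw [hN, zero_div]
      simp
    · rw [ord_div P hN hDG₁.ne_zero, hDzero P hPs, sub_zero]
      exact (rat_regAt_aeval (hregx₂ P hPs) Nt).ord_nonneg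

end Charts

section Main

variable {s : Place k F₁ × Place k F₂} {c₀ : K}

/-- **COORD from two charts.** -/
theorem exists_isAnnCoord_of_charts (hs : s ∈ S.nodes) (hP : HasPrincipalDivisors K F)
    (hc₀ : c₀ ≠ 0) (hϖ₁ : algebraMap K F c₀ ∈ S.c₁.V) (hϖ0 : S.c₁.rd (algebraMap K F c₀) = 0)
    (F0 : Subfield F) (hϖF : algebraMap K F c₀ ∈ F0)
    (R0 : Subring K) (hR0F : ∀ c ∈ R0, algebraMap K F c ∈ F0)
    (hR0V : ∀ c ∈ R0, algebraMap K F c ∈ S.c₁.V)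
    (hR0lift : ∀ c' : k, ∃ c ∈ R0, S.c₁.rd (algebraMap K F c) = algebraMap k F₁ c')
    (hdisc : ∀ f ∈ F0, f ∈ S.c₂.V → S.c₂.rd f = 0 → f / algebraMap K F c₀ ∈ S.c₂.V)
    {x₁ x₂ : F} (hx₁F : x₁ ∈ F0) (hx₂F : x₂ ∈ F0)
    (h₁₁ : x₁ ∈ S.c₁.V) (h₁₂ : x₁ ∈ S.c₂.V) (h₂₁ : x₂ ∈ S.c₁.V) (h₂₂ : x₂ ∈ S.c₂.V)
    (hpf₁ : PoleFree S s x₁) (hpf₂ : PoleFree S s x₂)
    {j₁ : F₁} {j₂ : F₂} (p : ℕ) [Fact p.Prime] [CharP k p]
    (hr₁₁ : S.c₁.rd x₁ = j₁) (hr₁₂ : S.c₁.rd x₂ = j₁ ^ p) (hr₂₁ : S.c₂.rd x₁ = j₂ ^ p)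
    (hr₂₂ : S.c₂.rd x₂ = j₂)
    (hz₁ : H59.ZerosStmt k F₁) (hj₁ : Transcendental k j₁) (htop₁ : k⟮j₁⟯ = ⊤)
    (hz₂ : H59.ZerosStmt k F₂) (hj₂ : Transcendental k j₂) (htop₂ : k⟮j₂⟯ = ⊤)
    {U : F} (hU : S.c₁.IsGU U) (hUzf : ZeroFree S s U) {w : ℕ}
    (hU₂ : S.c₂.IsGU (U / algebraMap K F c₀ ^ w)) {a : ℕ} (ha0 : 0 < a)
    (ha : s.1.ord (S.c₁.rd U) = a) :
    ∃ t ∈ F0, ∃ n : ℕ, 0 < n ∧ S.IsAnnCoord s t (c₀ ^ n) ∧ n * a = w := by
  obtain ⟨x₀, hx₀F, hx₀₁, hx₀o, hx₀₂, hx₀r, hx₀pf⟩ :=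
    exists_start hs F0 R0 hR0F hR0V hR0lift hx₁F hx₂F h₁₁ h₁₂ h₂₁ h₂₂ hpf₁ hpf₂ p hr₁₁ hr₁₂ hr₂₁
      hr₂₂ hz₁ hj₁ htop₁
  exact exists_isAnnCoord hs hP hc₀ hϖ₁ hϖ0 F0 hϖF
    (fun ψ hψ => exists_lift hs hP F0 R0 hR0F hR0V hR0lift hx₂F h₂₁ h₂₂ hpf₂ p hr₁₂ hr₂₂ hj₁
      hz₂ hj₂ htop₂ ψ hψ)
    hdisc hU hUzf hU₂ ha0 ha hx₀F hx₀₁ hx₀o hx₀₂ hx₀r hx₀pf

end Main

end Fermat.Agent.S15.Desc.H67

end
end
-- ==== END Fermat.Agent.S15.Desc.H67_CoordCharts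

-- ==== BEGIN Fermat.Agent.S15.Desc.H69_Asm
section

/-!
# S15 / DESC: the assembly ASM (pure algebra; helper69)

`J` an abelian group with commuting actions of a group `G` and a commutative ring `R`, `M = J^G`,
`r` a prime, `e ∈ R` idempotent on `J[r^(k+1)]`, `W = {v ∈ J[r] | e v = v}`.

If the good cocycles with values in `W` have dimension `≤ dim W` (the Selmer bound) and the Kummer
cocycles `σ ↦ e (σ y - y)` (`r y ∈ M`) are good (LOC), then for every `z ∈ M`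

  `e z = h + r w`   with `h, w ∈ M`, `r^k h = 0`

(`selB_abstract`).  This is the input `Stmt_selB` of the core of S15 (`S15/H40_CoreSel.lean`).
-/

set_option autoImplicit false

namespace Fermat.Agent.S15.Desc

open Module

section Asm

variable {G J R : Type*} [Group G] [AddCommGroup J] [DistribMulAction G J] [CommRing R]
  [Module R J]

/-- `H = {h ∈ M | r^k h = 0, e h = h}`. -/
def torsH (G J : Type*) {R : Type*} [Group G] [AddCommGroup J] [DistribMulAction G J]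
    [CommRing R] [Module R J] (r : ℕ) (e : R) (k : ℕ) : AddSubgroup J where
  carrier := {h | (∀ σ : G, σ • h = h) ∧ r ^ k • h = 0 ∧ e • h = h}
  zero_mem' := ⟨fun σ => smul_zero σ, smul_zero _, smul_zero e⟩
  add_mem' := fun {a b} ha hb => ⟨fun σ => by rw [smul_add, ha.1 σ, hb.1 σ],
    by rw [smul_add, ha.2.1, hb.2.1, add_zero], by rw [smul_add, ha.2.2, hb.2.2]⟩
  neg_mem' := fun {a} ha => ⟨fun σ => by rw [smul_neg, ha.1 σ],
    by rw [smul_neg, ha.2.1, neg_zero], by rw [smul_neg, ha.2.2]⟩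

/-- `S = H + {r y | e y ∈ M}`. -/
def goodSub (G J : Type*) {R : Type*} [Group G] [AddCommGroup J] [DistribMulAction G J]
    [CommRing R] [Module R J] (r : ℕ) (e : R) (k : ℕ) : AddSubgroup J where
  carrier := {z | ∃ h ∈ torsH G J r e k, ∃ y : J, (∀ σ : G, σ • (e • y) = e • y) ∧ z = h + r • y}
  zero_mem' := ⟨0, (torsH G J r e k).zero_mem, 0, fun σ => by rw [smul_zero, smul_zero],
    by rw [smul_zero, add_zero]⟩
  add_mem' := by
    rintro _ _ ⟨h, hh, y, hy, rfl⟩ ⟨h', hh', y', hy', rfl⟩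
    refine ⟨h + h', (torsH G J r e k).add_mem hh hh', y + y', fun σ => ?_, ?_⟩
    · rw [smul_add, smul_add, hy σ, hy' σ]
    · rw [smul_add]; abel
  neg_mem' := by
    rintro _ ⟨h, hh, y, hy, rfl⟩
    refine ⟨-h, (torsH G J r e k).neg_mem hh, -y, fun σ => ?_, ?_⟩
    · rw [smul_neg, smul_neg, hy σ]
    · rw [smul_neg]; abel

variable (r : ℕ) [hr : Fact r.Prime] (e : R) (k : ℕ)

omit hr in
theorem torsH_le_goodSub : torsH G J r e k ≤ goodSub G J r e k := fun h hh =>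
  ⟨h, hh, 0, fun σ => by rw [smul_zero, smul_zero], by rw [smul_zero, add_zero]⟩

variable (hGH : ∀ (σ : G) (t : R) (z : J), σ • (t • z) = t • (σ • z))

omit hr in
include hGH in
theorem nsmul_ratG_mem_goodSub {m : J} (hm : ∀ σ : G, σ • m = m) : r • m ∈ goodSub G J r e k :=
  ⟨0, (torsH G J r e k).zero_mem, m, fun σ => by rw [hGH, hm σ], by rw [zero_add]⟩

/-- The fixed points of `G` in `W`, as the `r`-torsion of `H`. -/
noncomputable def torsHEquiv [NeZero r]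
    (hexp : ∀ h : J, (∀ σ : G, σ • h = h) → (∃ j : ℕ, r ^ j • h = 0) → r ^ k • h = 0) :
    {h : ↥(torsH G J r e k) // r • h = 0} ≃
      ↥(eisW (J := J) r e ⊓ LinearMap.ker (cobMap G J r)) where
  toFun h := ⟨⟨(h.1 : J), mem_torsR.mpr (by
      have h1 : ((r • h.1 : ↥(torsH G J r e k)) : J) = ((0 : ↥(torsH G J r e k)) : J) :=
        congrArg (Subtype.val) h.2
      rw [AddSubgroup.coe_nsmul, AddSubgroup.coe_zero] at h1
      exact h1)⟩,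
    ⟨h.1.2.2.2, by
      rw [SetLike.mem_coe, LinearMap.mem_ker]
      funext σ
      apply Subtype.ext
      show σ • (h.1 : J) - (h.1 : J) = 0
      rw [h.1.2.1 σ, sub_self]⟩⟩
  invFun w := ⟨⟨((w.1 : TorsR J r) : J), by
      have hfix : ∀ σ : G, σ • ((w.1 : TorsR J r) : J) = ((w.1 : TorsR J r) : J) := by
        intro σ
        have h1 : cobMap G J r w.1 = 0 := LinearMap.mem_ker.mp w.2.2
        have h2 := congrFun h1 σ
        have h3 := congrArg Subtype.val h2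
        rw [cobMap_apply] at h3
        have h4 : σ • ((w.1 : TorsR J r) : J) - ((w.1 : TorsR J r) : J) = 0 := h3
        exact sub_eq_zero.mp h4
      exact ⟨hfix, hexp _ hfix ⟨1, by rw [pow_one]; exact mem_torsR.mp w.1.2⟩, w.2.1⟩⟩,
    Subtype.ext (by
      show r • ((w.1 : TorsR J r) : J) = 0
      exact mem_torsR.mp w.1.2)⟩
  left_inv h := rfl
  right_inv w := rfl

include hGH in
/-- **ASM.** -/
theorem selB_abstract
    (hdiv : ∀ x : J, (∀ σ : G, σ • x = x) → ∃ y : J, r • y = x)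
    (hfin : Finite (TorsR J r)) (hfinH : Finite ↥(torsH G J r e k))
    (hexp : ∀ h : J, (∀ σ : G, σ • h = h) → (∃ j : ℕ, r ^ j • h = 0) → r ^ k • h = 0)
    (hidem : ∀ y : J, r ^ (k + 1) • y = 0 → e • (e • y) = e • y)
    {ι : Type*} (I : ι → Subgroup G) (𝔅 : Set (Subgroup G))
    (Vloc : ι → Submodule (ZMod r) (TorsR J r))
    (hsel : haveI : NeZero r := ⟨hr.out.ne_zero⟩
      DimLE (ZMod r) (Zgood I 𝔅 Vloc (eisW r e)) (finrank (ZMod r) (eisW (J := J) r e)))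
    (hloc : haveI : NeZero r := ⟨hr.out.ne_zero⟩
      ∀ y ∈ kumDom G J r, kumCoc r e y ∈ Zgood I 𝔅 Vloc (eisW r e)) :
    ∀ z : J, (∀ σ : G, σ • z = z) →
      ∃ h : J, (∀ σ : G, σ • h = h) ∧ r ^ k • h = 0 ∧
        ∃ w : J, (∀ σ : G, σ • w = w) ∧ e • z = h + r • w := by
  classical
  haveI : NeZero r := ⟨hr.out.ne_zero⟩
  -- it suffices to show `M ⊆ S`
  suffices hS : ∀ z : J, (∀ σ : G, σ • z = z) → z ∈ goodSub G J r e k by
    intro z hz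
    obtain ⟨h, hh, y, hy, rfl⟩ := hS z hz
    refine ⟨h, hh.1, hh.2.1, e • y, hy, ?_⟩
    rw [smul_add, hh.2.2, smul_comm]
  intro z hz
  by_contra hzS
  -- the lifts of a basis of `H / r H`
  obtain ⟨m, hs, hcard, hindep⟩ := exists_lifts_mod_r (H := ↥(torsH G J r e k)) r
  choose ys hys using fun i : Fin m => hdiv ((hs i : ↥(torsH G J r e k)) : J) (hs i).2.1
  obtain ⟨yz, hyz⟩ := hdiv z hz
  let yfam : Option (Fin m) → J := fun i => Option.elim i yz ys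
  let xfam : Option (Fin m) → J := fun i => Option.elim i z (fun j => ((hs j : ↥(torsH G J r e k)) : J))
  have hxy : ∀ i, r • yfam i = xfam i := by
    intro i
    cases i with
    | none => exact hyz
    | some j => exact hys j
  have hxfix : ∀ i, ∀ σ : G, σ • xfam i = xfam i := by
    intro i
    cases i with
    | none => exact hz
    | some j => exact (hs j).2.1
  have hydom : ∀ i, yfam i ∈ kumDom G J r := fun i σ => by rw [hxy i, hxfix i σ]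
  set W : Submodule (ZMod r) (TorsR J r) := eisW r e with hW
  set B : Submodule (ZMod r) (G → TorsR J r) := W.map (cobMap G J r) with hB
  let u : Option (Fin m) → (G → TorsR J r) := fun i => kumCoc r e (yfam i)
  -- linear combinations of Kummer cocycles
  have hcomb : ∀ c : Option (Fin m) → ZMod r,
      ∑ i, c i • u i = kumCoc r e (∑ i, (c i).val • yfam i) ∧
        (∑ i, (c i).val • yfam i) ∈ kumDom G J r := by
    intro c
    have key : ∀ s : Finset (Option (Fin m)),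
        ∑ i ∈ s, c i • u i = kumCoc r e (∑ i ∈ s, (c i).val • yfam i) ∧
          (∑ i ∈ s, (c i).val • yfam i) ∈ kumDom G J r := by
      intro s
      induction s using Finset.induction_on with
      | empty =>
        rw [Finset.sum_empty, Finset.sum_empty]
        exact ⟨(kumCoc_zero e).symm, (kumDom G J r).zero_mem⟩
      | insert a s ha ih =>
        rw [Finset.sum_insert ha, Finset.sum_insert ha]
        have h1 : (c a).val • yfam a ∈ kumDom G J r := (kumDom G J r).nsmul_mem (hydom a) _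
        refine ⟨?_, (kumDom G J r).add_mem h1 ih.2⟩
        rw [kumCoc_add e h1 ih.2, kumCoc_nsmul e _ (hydom a), ih.1, zmod_smul_eq_nsmul]
    exact key Finset.univ
  -- elements of `B` are Kummer cocycles of torsion points
  have hBk : ∀ b ∈ B, ∃ w : TorsR J r, w ∈ W ∧ b = kumCoc r e (w : J) := by
    rintro _ ⟨w, hw, rfl⟩
    exact ⟨w, hw, (kumCoc_coe_of_mem_eisW hGH hw).symm⟩
  -- independence modulo `B`
  have hu : ∀ c : Option (Fin m) → ZMod r, ∑ i, c i • u i ∈ B → ∀ i, c i = 0 := by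
    intro c hc
    obtain ⟨hsum, hdom⟩ := hcomb c
    obtain ⟨w, hwW, hw⟩ := hBk _ hc
    set ystar : J := ∑ i, (c i).val • yfam i with hystar
    set y' : J := ystar - (w : J) with hy'
    -- `e y'` is rational
    have hey' : ∀ σ : G, σ • (e • y') = e • y' := by
      intro σ
      have h1 : kumCoc r e ystar σ = kumCoc r e (w : J) σ := by rw [← hsum, hw]
      have h2 := congrArg Subtype.val h1
      rw [coe_kumCoc e hdom, coe_kumCoc e (torsR_le_kumDom r w.2)] at h2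
      have h3 : e • (σ • y' - y') = 0 := by
        have h4 : σ • y' - y' = (σ • ystar - ystar) - (σ • (w : J) - (w : J)) := by
          rw [hy', smul_sub]
          abel
        rw [h4, smul_sub, h2, sub_self]
      rw [hGH, ← sub_eq_zero, ← smul_sub]
      exact h3
    have hry' : r • y' = ∑ i, (c i).val • xfam i := by
      rw [hy', smul_sub, mem_torsR.mp w.2, sub_zero, hystar, Finset.smul_sum]
      refine Finset.sum_congr rfl fun i _ => ?_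
      rw [smul_comm, hxy i]
    have hxS : (∑ i, (c i).val • xfam i) ∈ goodSub G J r e k :=
      ⟨0, (torsH G J r e k).zero_mem, y', hey', by rw [zero_add, hry']⟩
    rw [Fintype.sum_option] at hxS
    have hHsum : (∑ j : Fin m, (c (some j)).val • xfam (some j)) ∈ torsH G J r e k := by
      refine (torsH G J r e k).sum_mem fun j _ => (torsH G J r e k).nsmul_mem ?_ _
      exact (hs j).2
    -- the coefficient of `z`
    have hc0 : c none = 0 := by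
      by_contra hne
      apply hzS
      -- invert `c none`
      set b : ℕ := ((c none)⁻¹).val with hb
      have hb1 : ((b * (c none).val : ℕ) : ZMod r) = 1 := by
        rw [Nat.cast_mul, hb, ZMod.natCast_zmod_val, ZMod.natCast_zmod_val, inv_mul_cancel₀ hne]
      have hb2 : ∃ t : ℕ, b * (c none).val = 1 + r * t := by
        have h1 : (b * (c none).val) % r = 1 % r := by
          have := (ZMod.natCast_eq_natCast_iff' (b * (c none).val) 1 r).mp (by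
            rw [hb1, Nat.cast_one])
          exact this
        have h2 : 1 % r = 1 := Nat.mod_eq_of_lt hr.out.one_lt
        rw [h2] at h1
        refine ⟨(b * (c none).val) / r, ?_⟩
        have := Nat.mod_add_div (b * (c none).val) r
        omega
      obtain ⟨t, ht⟩ := hb2
      have h3 : b • ((c none).val • xfam none +
          ∑ j : Fin m, (c (some j)).val • xfam (some j)) ∈ goodSub G J r e k :=
        (goodSub G J r e k).nsmul_mem hxS b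
      have h4 : z = b • ((c none).val • xfam none +
          ∑ j : Fin m, (c (some j)).val • xfam (some j)) - r • (t • z) -
          b • ∑ j : Fin m, (c (some j)).val • xfam (some j) := by
        have h5 : b • (c none).val • xfam none = z + r • (t • z) := by
          rw [smul_smul, ht, add_smul, one_smul, mul_smul]
          rfl
        rw [smul_add, h5]
        abel
      rw [h4]
      refine (goodSub G J r e k).sub_mem ((goodSub G J r e k).sub_mem h3 ?_) ?_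
      · exact nsmul_ratG_mem_goodSub (J := J) r e k hGH (fun σ => by rw [← smul_comm, hz σ])
      · exact torsH_le_goodSub r e k ((torsH G J r e k).nsmul_mem hHsum b)
    -- the other coefficients
    have hrest : ∀ j : Fin m, c (some j) = 0 := by
      have h1 : r • y' = ∑ j : Fin m, (c (some j)).val • xfam (some j) := by
        rw [hry', Fintype.sum_option, hc0, ZMod.val_zero, zero_smul, zero_add]
      -- `e y'` lies in `H`
      have hk1 : r ^ (k + 1) • y' = 0 := by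
        rw [pow_succ, mul_smul, h1]
        exact hHsum.2.1
      have hey'H : e • y' ∈ torsH G J r e k := by
        refine ⟨hey', hexp _ hey' ⟨k + 1, ?_⟩, hidem y' hk1⟩
        rw [smul_comm, hk1, smul_zero]
      have h2 : (∑ j : Fin m, (c (some j)).val • hs j : ↥(torsH G J r e k)) =
          r • (⟨e • y', hey'H⟩ : ↥(torsH G J r e k)) := by
        apply Subtype.ext
        rw [AddSubgroup.coe_nsmul, AddSubmonoidClass.coe_finsetSum]
        show ∑ j : Fin m, ((c (some j)).val • hs j : ↥(torsH G J r e k)).1 = r • e • y'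
        have h3 : ∑ j : Fin m, ((c (some j)).val • hs j : ↥(torsH G J r e k)).1 =
            ∑ j : Fin m, (c (some j)).val • xfam (some j) := by
          refine Finset.sum_congr rfl fun j _ => ?_
          rw [AddSubgroup.coe_nsmul]
          rfl
        rw [h3, ← h1, smul_comm, h1]
        exact hHsum.2.2.symm
      have h4 := hindep (fun j => (c (some j)).val) ⟨_, h2⟩
      intro j
      have h5 := h4 j
      have h6 : (c (some j)).val = 0 :=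
        Nat.eq_zero_of_dvd_of_lt h5 (ZMod.val_lt _)
      exact (ZMod.val_eq_zero _).mp h6
    intro i
    cases i with
    | none => exact hc0
    | some j => exact hrest j
  -- the count
  haveI : Module.Finite (ZMod r) (TorsR J r) := Module.Finite.of_finite
  obtain ⟨hfinT, hrankT⟩ := finrank_sup_span_of_indep_mod B u hu
  have hTgood : ((B ⊔ Submodule.span (ZMod r) (Set.range u) : Submodule (ZMod r) _) : Set _) ⊆
      Zgood I 𝔅 Vloc W := by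
    intro t ht
    obtain ⟨b, hb, s, hs', rfl⟩ := Submodule.mem_sup.mp ht
    obtain ⟨c, rfl⟩ := (Submodule.mem_span_range_iff_exists_fun (ZMod r)).mp hs'
    obtain ⟨w, hwW, rfl⟩ := hBk b hb
    obtain ⟨hsum, hdom⟩ := hcomb c
    rw [hsum, ← kumCoc_add e (torsR_le_kumDom r w.2) hdom]
    exact hloc _ ((kumDom G J r).add_mem (torsR_le_kumDom r w.2) hdom)
  have h1 := hsel _ hTgood hfinT
  have h2 := finrank_eq_map_add_inf_ker W (cobMap G J r)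
  have h3 : Nat.card ↥(W ⊓ LinearMap.ker (cobMap G J r)) = r ^ m := by
    rw [hcard]
    exact (Nat.card_congr (torsHEquiv r e k hexp)).symm
  have h4 : Nat.card ↥(W ⊓ LinearMap.ker (cobMap G J r)) =
      r ^ finrank (ZMod r) ↥(W ⊓ LinearMap.ker (cobMap G J r)) := by
    rw [Module.natCard_eq_pow_finrank (K := ZMod r), Nat.card_zmod]
  have h5 : finrank (ZMod r) ↥(W ⊓ LinearMap.ker (cobMap G J r)) = m :=
    Nat.pow_right_injective hr.out.two_le (h4.symm.trans h3)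
  rw [Fintype.card_option, Fintype.card_fin] at hrankT
  rw [hrankT] at h1
  have h6 : finrank (ZMod r) ↥B = finrank (ZMod r) ↥(Submodule.map (cobMap G J r) W) := rfl
  omega

end Asm

end Fermat.Agent.S15.Desc

end
-- ==== END Fermat.Agent.S15.Desc.H69_Asm
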