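-- GENERATED (merged mirror, NOTES/tools/trim/merge3_helper67.py): 11 modules of the originals, bodies verbatim.
import Fermat.Prelude.Def_ModularCurve_ReductionModL
import Fermat.Agent.Zm.S15_L02_000
import Fermat.Agent.Zm.S35_L01_004
import Fermat.Agent.Zm.S15_L02_001
import Fermat.Agent.Zm.S35_L01_003
import Fermat.Agent.Zm.S15_L01_000
import Fermat.Agent.Zm.S15_L01_001
import Fermat.Agent.Zm.S35_L11_001
import Fermat.Agent.Zm.S15_L02_002
import Fermat.Agent.Zm.S15_L01_002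
import Fermat.Agent.Zm.S15_L02_003
import Fermat.Agent.Zm.S35_L15_002
import Fermat.Agent.Zm.S44_L01_000
import Fermat.Agent.Zm.S33_L01_001
import Fermat.Agent.Zm.S35_L08_004

-- ==== BEGIN Fermat.Agent.S15.An.H11_Unif
section

set_option autoImplicit false

noncomputable section

open UpperHalfPlane ModularForm EisensteinSeries
open scoped Real

namespace Fermat.Agent.S15.An.H11

/-- Pure algebra: if `v² = u³` with `u v ≠ 0` and `c² = u / v` then `c⁻⁴ = u` and `c⁻⁶ = v`. -/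
lemma scale_of_sq_eq_cube {u v c : ℂ} (hu : u ≠ 0) (hv : v ≠ 0) (h : v ^ 2 = u ^ 3)
    (hc : c ^ 2 = u / v) : (c ^ 4)⁻¹ = u ∧ (c ^ 6)⁻¹ = v := by
  have h4 : c ^ 4 = (c ^ 2) ^ 2 := by ring
  have h6 : c ^ 6 = (c ^ 2) ^ 3 := by ring
  rw [h4, h6, hc]
  constructor
  · rw [div_pow, inv_div, h]
    field_simp
  · rw [div_pow, inv_div, ← h]
    field_simp

/-- **(AN-UNIF)** -/
theorem stmt_unif : Stmt_unif := by
  intro g2 g3 hg2 hg3 hdisc
  have hπ : (π : ℂ) ≠ 0 := by exact_mod_cast Real.pi_ne_zero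
  obtain ⟨τ, hτ⟩ := Fermat.Agent.S24.jAn_surjective (1728 * g2 ^ 3 / (g2 ^ 3 - 27 * g3 ^ 2))
  have hΔ : ModularForm.discriminant τ ≠ 0 := ModularForm.discriminant_ne_zero τ
  have hE : (1728 : ℂ) * ModularForm.discriminant τ = E₄ τ ^ 3 - E₆ τ ^ 2 := by
    rw [ModularForm.discriminant_eq_E₄_cube_sub_E₆_sq]
    ring
  have hj : E₄ τ ^ 3 / ModularForm.discriminant τ = 1728 * g2 ^ 3 / (g2 ^ 3 - 27 * g3 ^ 2) := hτ
  rw [div_eq_div_iff hΔ hdisc] at hj
  -- the key relation
  have key : g2 ^ 3 * E₆ τ ^ 2 = 27 * g3 ^ 2 * E₄ τ ^ 3 := by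
    linear_combination hj + g2 ^ 3 * hE
  have hE4 : E₄ τ ≠ 0 := by
    intro h0
    rw [h0] at hj hE
    have h1 : (1728 : ℂ) * g2 ^ 3 * ModularForm.discriminant τ = 0 := by
      linear_combination -hj
    have : g2 ^ 3 = 0 := by
      rcases mul_eq_zero.mp h1 with h | h
      · rcases mul_eq_zero.mp h with h' | h'
        · norm_num at h'
        · exact h'
      · exact absurd h hΔ
    exact hg2 (pow_eq_zero_iff (by norm_num) |>.mp this)
  have hE6 : E₆ τ ≠ 0 := by
    intro h0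
    rw [h0] at key
    have : (27 : ℂ) * g3 ^ 2 * E₄ τ ^ 3 = 0 := by linear_combination -key
    rcases mul_eq_zero.mp this with h | h
    · rcases mul_eq_zero.mp h with h' | h'
      · norm_num at h'
      · exact hg3 (pow_eq_zero_iff (by norm_num) |>.mp h')
    · exact hE4 (pow_eq_zero_iff (by norm_num) |>.mp h)
  set u : ℂ := g2 / (4 / 3 * (π : ℂ) ^ 4 * E₄ τ) with hu
  set v : ℂ := g3 / (8 / 27 * (π : ℂ) ^ 6 * E₆ τ) with hv
  have ha : (4 / 3 * (π : ℂ) ^ 4 * E₄ τ) ≠ 0 :=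
    mul_ne_zero (mul_ne_zero (by norm_num) (pow_ne_zero _ hπ)) hE4
  have hb : (8 / 27 * (π : ℂ) ^ 6 * E₆ τ) ≠ 0 :=
    mul_ne_zero (mul_ne_zero (by norm_num) (pow_ne_zero _ hπ)) hE6
  have hu0 : u ≠ 0 := div_ne_zero hg2 ha
  have hv0 : v ≠ 0 := div_ne_zero hg3 hb
  have huv : v ^ 2 = u ^ 3 := by
    rw [hu, hv, div_pow, div_pow, div_eq_div_iff (pow_ne_zero _ hb) (pow_ne_zero _ ha)]
    linear_combination (-(64 / 729 : ℂ) * (π : ℂ) ^ 12) * key
  obtain ⟨c, hc⟩ : ∃ c : ℂ, c ^ 2 = u / v := IsAlgClosed.exists_pow_nat_eq _ (by norm_num)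
  have hc0 : c ≠ 0 := by
    intro h0
    rw [h0] at hc
    have : u / v = 0 := by rw [← hc]; ring
    exact div_ne_zero hu0 hv0 this
  obtain ⟨h4, h6⟩ := scale_of_sq_eq_cube hu0 hv0 huv hc
  refine ⟨Fermat.Agent.S20.H29.periodPair c hc0 τ, ?_, ?_⟩
  · rw [g₂_periodPair, h4, hu]
    field_simp
  · rw [g₃_periodPair, h6, hv]
    field_simp

end Fermat.Agent.S15.An.H11

end
end
-- ==== END Fermat.Agent.S15.An.H11_Unif

-- ==== BEGIN Fermat.Agent.S15.An.H34_BasisFinal
section

/-!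
# S15 / BRIDGE / BR-AN, leaf AN-BASIS, unconditional (helper34, with helper11's AN-J)
-/

set_option autoImplicit false

namespace Fermat.Agent.S15.An.H34

/-- **AN-BASIS.** -/
theorem stmt_basis : Fermat.Agent.S15.An.Stmt_basis :=
  stmt_basis_of Fermat.Agent.S15.An.H11.stmt_jL

end Fermat.Agent.S15.An.H34

end
-- ==== END Fermat.Agent.S15.An.H34_BasisFinal

-- ==== BEGIN Fermat.Agent.S15.An.H67_LiouvHalf
section

set_option autoImplicit false

noncomputable section

open scoped PeriodPair Topology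
open Filter

namespace Fermat.Agent.S15.An.H67

/-- `h` is a half period of `L`. -/
structure IsHalf (L : PeriodPair) (h : ℂ) : Prop where
  notMem : h ∉ L.lattice
  two_mul : 2 * h ∈ L.lattice

namespace IsHalf

variable {L : PeriodPair} {h : ℂ}

theorem deriv_eq_zero (H : IsHalf L h) : ℘'[L] h = 0 := by
  have h1 : ℘'[L] (h - 2 * h) = ℘'[L] h := L.derivWeierstrassP_sub_coe h ⟨2 * h, H.two_mul⟩
  have h2 : h - 2 * h = -h := by ring
  rw [h2, L.derivWeierstrassP_neg] at h1
  have h3 : (2 : ℂ) * ℘'[L] h = 0 := by linear_combination -h1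
  simpa using h3

theorem cubic (H : IsHalf L h) : 4 * ℘[L] h ^ 3 - L.g₂ * ℘[L] h - L.g₃ = 0 := by
  have := L.derivWeierstrassP_sq h H.notMem
  rw [H.deriv_eq_zero] at this
  linear_combination -this

theorem add_notMem {h' : ℂ} (H' : IsHalf L h') (hd : h - h' ∉ L.lattice) :
    h + h' ∉ L.lattice := by
  intro hmem
  apply hd
  have : h - h' = (h + h') - 2 * h' := by ring
  rw [this]
  exact L.lattice.sub_mem hmem H'.two_mul

theorem ne_of_inj (hinj : Stmt_inj) (H : IsHalf L h) {h' : ℂ} (H' : IsHalf L h')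
    (hd : h - h' ∉ L.lattice) : ℘[L] h ≠ ℘[L] h' := by
  intro heq
  rcases hinj L h h' H.notMem H'.notMem heq with h1 | h1
  · exact hd h1
  · exact IsHalf.add_notMem (h := h) H' hd h1

theorem add (H : IsHalf L h) {h' : ℂ} (H' : IsHalf L h') (hd : h - h' ∉ L.lattice) :
    IsHalf L (h + h') where
  notMem := IsHalf.add_notMem (h := h) H' hd
  two_mul := by
    have : 2 * (h + h') = 2 * h + 2 * h' := by ring
    rw [this]
    exact L.lattice.add_mem H.two_mul H'.two_mul

end IsHalf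

/-- Two distinct roots `a`, `b` of `4 x³ - g₂ x - g₃`: the cubic factors with third root
`-a - b`. -/
theorem cubic_factor {g2 g3 a b : ℂ} (ha : 4 * a ^ 3 - g2 * a - g3 = 0)
    (hb : 4 * b ^ 3 - g2 * b - g3 = 0) (hab : a ≠ b) (x : ℂ) :
    4 * x ^ 3 - g2 * x - g3 = 4 * ((x - a) * (x - b) * (x - (-a - b))) := by
  have h1 : (a - b) * (4 * (a ^ 2 + a * b + b ^ 2) - g2) = 0 := by
    linear_combination ha - hb
  have h2 : 4 * (a ^ 2 + a * b + b ^ 2) - g2 = 0 :=
    (mul_eq_zero.mp h1).resolve_left (sub_ne_zero.mpr hab)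
  have hg2 : g2 = 4 * (a ^ 2 + a * b + b ^ 2) := by linear_combination -h2
  have hg3 : g3 = 4 * a ^ 3 - g2 * a := by linear_combination -ha
  rw [hg3, hg2]
  ring

/-- Three distinct roots of `4 x³ - g₂ x - g₃` sum to zero. -/
theorem cubic_sum {g2 g3 a b c : ℂ} (ha : 4 * a ^ 3 - g2 * a - g3 = 0)
    (hb : 4 * b ^ 3 - g2 * b - g3 = 0) (hc : 4 * c ^ 3 - g2 * c - g3 = 0)
    (hab : a ≠ b) (hac : a ≠ c) (hbc : b ≠ c) : c = -a - b := by
  have h := cubic_factor ha hb hab c
  rw [hc] at h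
  have h' : (c - a) * (c - b) * (c - (-a - b)) = 0 := by
    have : (4 : ℂ) * ((c - a) * (c - b) * (c - (-a - b))) = 0 := h.symm
    simpa using this
  rcases mul_eq_zero.mp h' with h1 | h1
  · rcases mul_eq_zero.mp h1 with h2 | h2
    · exact absurd (sub_eq_zero.mp h2).symm hac
    · exact absurd (sub_eq_zero.mp h2).symm hbc
  · exact sub_eq_zero.mp h1

/-- The translation formula by a half period. -/
theorem translation (hadd : Stmt_add) {L : PeriodPair} {h : ℂ} (H : IsHalf L h)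
    {Ei El : ℂ} (hroots : ∀ x : ℂ, 4 * x ^ 3 - L.g₂ * x - L.g₃ =
      4 * ((x - Ei) * (x - ℘[L] h) * (x - El)))
    (hsum : El = -Ei - ℘[L] h)
    {u : ℂ} (hu : u ∉ L.lattice) (huh : u + h ∉ L.lattice) (hne : ℘[L] u ≠ ℘[L] h) :
    (℘[L] (u + h) - Ei) * (℘[L] u - ℘[L] h) = (℘[L] h - Ei) * (℘[L] u - El) := by
  have h1 := hadd L u h hu H.notMem huh
  rw [H.deriv_eq_zero, sub_zero, L.derivWeierstrassP_sq u hu, hroots (℘[L] u)] at h1
  have hne' : ℘[L] u - ℘[L] h ≠ 0 := sub_ne_zero.mpr hne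
  have h2 : (℘[L] u - ℘[L] h) * ((℘[L] (u + h) + ℘[L] u + ℘[L] h) * (℘[L] u - ℘[L] h)
      - (℘[L] u - Ei) * (℘[L] u - El)) = 0 := by
    linear_combination h1
  have h3 := (mul_eq_zero.mp h2).resolve_left hne'
  subst hsum
  linear_combination h3

namespace Setup

variable {L L' : PeriodPair} {p : ℕ} {z₀ : ℂ} (S : Setup L L' p z₀)
include S

theorem odd_p : Odd p := S.hp.odd_of_ne_two S.hp2

theorem two_mul_nat_mul_notMem (k : ℕ) (hk0 : 0 < k) (hkp : k < p) :
    2 * ((k : ℂ) * z₀) ∉ L.lattice := by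
  have := S.int_mul_notMem (2 * k : ℤ) (by
    intro h
    have hp' : Prime (p : ℤ) := Nat.prime_iff_prime_int.mp S.hp
    rcases hp'.dvd_or_dvd h with h2 | h2
    · have h2' : p ∣ 2 := by exact_mod_cast h2
      have := Nat.le_of_dvd (by norm_num) h2'
      have := S.hp.two_le
      have := S.hp2
      omega
    · have h2' : p ∣ k := by exact_mod_cast h2
      exact absurd (Nat.le_of_dvd hk0 h2') (by omega))
  intro hmem
  apply this
  have e : ((2 * k : ℤ) : ℂ) * z₀ = 2 * ((k : ℂ) * z₀) := by push_cast; ring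
  rw [e]
  exact hmem

theorem half_notMem' {h : ℂ} (H : IsHalf L h) : h ∉ L'.lattice := by
  intro hmem
  obtain ⟨k, hk⟩ := (S.hL' h).mp hmem
  -- p h ∈ L, p odd, 2 h ∈ L ⇒ h ∈ L
  obtain ⟨m, hm⟩ := S.odd_p
  have h1 : (p : ℂ) * (h - (k : ℂ) * z₀) ∈ L.lattice := by
    have := L.lattice.smul_mem (p : ℤ) hk
    simpa [zsmul_eq_mul] using this
  have h2 : (p : ℂ) * h ∈ L.lattice := by
    have e : (p : ℂ) * h = (p : ℂ) * (h - (k : ℂ) * z₀) + (k : ℂ) * ((p : ℂ) * z₀) := by ring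
    rw [e]
    exact L.lattice.add_mem h1 (S.int_mul_p_mem k)
  have h3 : (m : ℂ) * (2 * h) ∈ L.lattice := by
    have := L.lattice.smul_mem (m : ℤ) H.two_mul
    simpa [zsmul_eq_mul] using this
  apply H.notMem
  have e : h = (p : ℂ) * h - (m : ℂ) * (2 * h) := by
    rw [hm]; push_cast; ring
  rw [e]
  exact L.lattice.sub_mem h2 h3

theorem isHalf' {h : ℂ} (H : IsHalf L h) : IsHalf L' h :=
  ⟨S.half_notMem' H, S.sub_lattice H.two_mul⟩

/-- `℘(k z₀) ≠ ℘(h)` for a half period `h` and `0 < k < p`. -/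
theorem wp_nat_mul_ne (hinj : Stmt_inj) {h : ℂ} (H : IsHalf L h) (k : ℕ) (hk0 : 0 < k)
    (hkp : k < p) : ℘[L] ((k : ℂ) * z₀) ≠ ℘[L] h := by
  intro heq
  have hk := S.nat_mul_notMem k hk0 hkp
  have h2k := S.two_mul_nat_mul_notMem k hk0 hkp
  rcases hinj L _ _ hk H.notMem heq with h1 | h1
  · apply h2k
    have e : 2 * ((k : ℂ) * z₀) = (2 : ℤ) • ((k : ℂ) * z₀ - h) + 2 * h := by
      rw [zsmul_eq_mul]; push_cast; ring
    rw [e]
    exact L.lattice.add_mem (L.lattice.smul_mem _ h1) H.two_mul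
  · apply h2k
    have e : 2 * ((k : ℂ) * z₀) = (2 : ℤ) • ((k : ℂ) * z₀ + h) - 2 * h := by
      rw [zsmul_eq_mul]; push_cast; ring
    rw [e]
    exact L.lattice.sub_mem (L.lattice.smul_mem _ h1) H.two_mul

theorem nat_mul_add_half_notMem {h : ℂ} (H : IsHalf L h) (k : ℕ) (hk0 : 0 < k)
    (hkp : k < p) : (k : ℂ) * z₀ + h ∉ L.lattice := by
  intro h1
  apply S.two_mul_nat_mul_notMem k hk0 hkp
  have e : 2 * ((k : ℂ) * z₀) = (2 : ℤ) • ((k : ℂ) * z₀ + h) - 2 * h := by
    rw [zsmul_eq_mul]; push_cast; ring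
  rw [e]
  exact L.lattice.sub_mem (L.lattice.smul_mem _ h1) H.two_mul

theorem XiAn_ne_zero (hinj : Stmt_inj) {h : ℂ} (H : IsHalf L h) :
    XiAn L p z₀ (℘[L] h) ≠ 0 := by
  unfold XiAn
  rw [Finset.prod_ne_zero_iff]
  intro k hk
  rw [Finset.mem_Ico] at hk
  exact sub_ne_zero.mpr (S.wp_nat_mul_ne hinj H k (by omega) hk.2)

/-- `F_{e_i}(z) = Ξ(e_i) (℘_Λ'(z) - ℘_Λ'(h_i))` off `Λ'`. -/
theorem Fprod_eq_Xi_mul {h : ℂ} (H : IsHalf L h) {z : ℂ} (hz : z ∉ L'.lattice) :
    Fprod L p z₀ (℘[L] h) z = XiAn L p z₀ (℘[L] h) * (℘[L'] z - ℘[L'] h) := by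
  obtain ⟨c, hc⟩ := S.exists_const (℘[L] h)
  have h1 := hc z hz
  have h2 := hc h (S.half_notMem' H)
  have h3 : Fprod L p z₀ (℘[L] h) h = 0 := by
    rw [Fprod_eq L p S.hp.pos]
    simp
  rw [h3] at h2
  linear_combination h1 - h2

/-- The value of `F_{e_i}` at another half period. -/
theorem Fprod_half (hadd : Stmt_add) (hinj : Stmt_inj) {hi hj : ℂ} (Hi : IsHalf L hi)
    (Hj : IsHalf L hj) (hd : hi - hj ∉ L.lattice) :
    Fprod L p z₀ (℘[L] hi) hj * XiAn L p z₀ (℘[L] hj) =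
      (℘[L] hj - ℘[L] hi) ^ p * XiAn L p z₀ (℘[L] (hi + hj)) := by
  have Hl : IsHalf L (hi + hj) := Hi.add Hj hd
  have hij : ℘[L] hi ≠ ℘[L] hj := Hi.ne_of_inj hinj Hj hd
  have hil : ℘[L] hi ≠ ℘[L] (hi + hj) := by
    refine Hi.ne_of_inj hinj Hl ?_
    have e : hi - (hi + hj) = (-1 : ℤ) • hj := by simp
    rw [e]
    intro hmem
    apply Hj.notMem
    have := L.lattice.smul_mem (-1 : ℤ) hmem
    simpa using this
  have hjl : ℘[L] hj ≠ ℘[L] (hi + hj) := by
    refine Hj.ne_of_inj hinj Hl ?_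
    have e : hj - (hi + hj) = (-1 : ℤ) • hi := by simp
    rw [e]
    intro hmem
    apply Hi.notMem
    have := L.lattice.smul_mem (-1 : ℤ) hmem
    simpa using this
  have hsum : ℘[L] (hi + hj) = -℘[L] hi - ℘[L] hj :=
    cubic_sum Hi.cubic Hj.cubic Hl.cubic hij hil hjl
  have hroots : ∀ x : ℂ, 4 * x ^ 3 - L.g₂ * x - L.g₃ =
      4 * ((x - ℘[L] hi) * (x - ℘[L] hj) * (x - ℘[L] (hi + hj))) := by
    intro x
    rw [hsum]
    exact cubic_factor Hi.cubic Hj.cubic hij x
  -- each factor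
  have hfac : ∀ k ∈ Finset.Ico 1 p,
      (℘[L] (hj + (k : ℂ) * z₀) - ℘[L] hi) * (℘[L] ((k : ℂ) * z₀) - ℘[L] hj) =
        (℘[L] hj - ℘[L] hi) * (℘[L] ((k : ℂ) * z₀) - ℘[L] (hi + hj)) := by
    intro k hk
    rw [Finset.mem_Ico] at hk
    have hk0 : 0 < k := by omega
    have := translation hadd Hj hroots hsum (S.nat_mul_notMem k hk0 hk.2)
      (S.nat_mul_add_half_notMem Hj k hk0 hk.2) (S.wp_nat_mul_ne hinj Hj k hk0 hk.2)
    rw [add_comm hj]
    exact this
  rw [Fprod_eq L p S.hp.pos]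
  unfold Hprod XiAn
  rw [mul_assoc, ← Finset.prod_mul_distrib, Finset.prod_congr rfl hfac,
    Finset.prod_mul_distrib, Finset.prod_const, Nat.card_Ico, ← mul_assoc]
  have hpow : (℘[L] hj - ℘[L] hi) ^ p =
      (℘[L] hj - ℘[L] hi) * (℘[L] hj - ℘[L] hi) ^ (p - 1) := by
    rw [← pow_succ', Nat.sub_add_cancel S.hp.pos]
  rw [hpow]

/-- The difference formula `e'_j - e'_i = (e_j - e_i)^p Ξ_l / (Ξ_i Ξ_j)`. -/
theorem diff_formula (hadd : Stmt_add) (hinj : Stmt_inj) {hi hj : ℂ} (Hi : IsHalf L hi)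
    (Hj : IsHalf L hj) (hd : hi - hj ∉ L.lattice) :
    ℘[L'] hj - ℘[L'] hi =
      cdiff L p z₀ (℘[L] hi) (℘[L] hj) (℘[L] (hi + hj)) := by
  have h1 := S.Fprod_half hadd hinj Hi Hj hd
  rw [S.Fprod_eq_Xi_mul Hi (S.half_notMem' Hj)] at h1
  have hXi := S.XiAn_ne_zero hinj Hi
  have hXj := S.XiAn_ne_zero hinj Hj
  unfold cdiff
  rw [eq_div_iff (mul_ne_zero hXi hXj)]
  linear_combination h1

end Setup

end Fermat.Agent.S15.An.H67

end
end
-- ==== END Fermat.Agent.S15.An.H67_LiouvHalf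

-- ==== BEGIN Fermat.Agent.S15.An.H87_LadderFinal
section

set_option autoImplicit false

namespace Fermat.Agent.S15.An.H87

/-- (AN-LADDER). -/
theorem stmt_ladder : Stmt_ladder :=
  stmt_ladder_of Fermat.Agent.S15.An.H45.stmt_add
    (Fermat.Agent.S15.An.H11.stmt_dup_of_add Fermat.Agent.S15.An.H45.stmt_add)
    Fermat.Agent.S15.An.H45.stmt_inj Fermat.Agent.S15.An.H45.stmt_surj

end Fermat.Agent.S15.An.H87

end
-- ==== END Fermat.Agent.S15.An.H87_LadderFinal

-- ==== BEGIN Fermat.Agent.S15.B3.H83_Series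
section
attribute [local instance 10000] SubalgebraClass.toAlgebra
attribute [local instance 10000] HahnSeries.powerSeriesAlgebra

/-!
# S15, package B3 (helper83), part 3b: integral series and the conservation law

`Good A p y` : the series `y ∈ A((q))` has its generic fibre in `F_p` and its special fibre in
`F~_p`.  For a place reduction `r` (`IsPlaceReductionAlong`):
* `Good.identity`  : `r_* (div y) = div (y mod 𝔪)` if `y mod 𝔪 ≠ 0`;
* `exists_pole`    : if `c ∈ 𝔪_A` and `x` is a zero of `c X - 1` then some pole `P` of `X` has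
  `r P = r x`  (the reduction of `c X - 1` is the constant `-1`).
-/

set_option autoImplicit false
set_option synthInstance.maxHeartbeats 400000
set_option linter.unusedSectionVars false

noncomputable section

open HahnSeries IntermediateField AlgebraicCurve ModularCurve

namespace Fermat.Agent.S15.B3

open Fermat.Agent.S24 (Kbar FN)
open Fermat.Agent.S28.H73 (kV)

variable (A : ValuationSubring (AlgebraicClosure ℚ)) (p : ℕ) [NeZero p]

/-! ### Units of `R((q))` -/

theorem isUnit_jqModC (R : Type*) [CommRing R] : IsUnit (jqModC R) := by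
  rw [jqModC]
  refine IsUnit.mul ?_ ?_
  · refine ⟨⟨HahnSeries.single (-1 : ℤ) (1 : R), HahnSeries.single (1 : ℤ) (1 : R), ?_, ?_⟩, rfl⟩
    · rw [HahnSeries.single_mul_single]
      norm_num
    · rw [HahnSeries.single_mul_single]
      norm_num
  · apply IsUnit.map (HahnSeries.ofPowerSeries ℤ R)
    rw [PowerSeries.isUnit_iff_constantCoeff, ← PowerSeries.coeff_zero_eq_constantCoeff,
      PowerSeries.coeff_map, PowerSeries.coeff_zero_eq_constantCoeff, constantCoeff_jNum, map_one]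
    exact isUnit_one

/-! ### Good series -/

/-- The generic fibre of `y` lies in `F_p` and the special fibre in `F~_p`. -/
structure Good (y : LaurentSeries A) : Prop where
  memK : coeffMap A.subtype y ∈ laurentBaseChange Kbar (modularFunctionFieldFull p)
  memk : coeffMap (IsLocalRing.residue A) y ∈ modularFunctionFieldFullC (kV A) p

variable {A p}

/-- The generic fibre. -/
def Good.genK {y : LaurentSeries A} (h : Good A p y) : FN p := ⟨coeffMap A.subtype y, h.memK⟩

/-- The special fibre. -/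
def Good.redk {y : LaurentSeries A} (h : Good A p y) : FRed (kV A) p :=
  ⟨coeffMap (IsLocalRing.residue A) y, h.memk⟩

theorem Good.genK_coe {y : LaurentSeries A} (h : Good A p y) :
    (h.genK : LaurentSeries Kbar) = coeffMap A.subtype y := rfl

theorem Good.redk_coe {y : LaurentSeries A} (h : Good A p y) :
    (h.redk : LaurentSeries (kV A)) = coeffMap (IsLocalRing.residue A) y := rfl

theorem good_one : Good A p 1 :=
  ⟨by rw [map_one]; exact one_mem _, by rw [map_one]; exact one_mem _⟩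

theorem Good.add {y z : LaurentSeries A} (hy : Good A p y) (hz : Good A p z) :
    Good A p (y + z) :=
  ⟨by rw [map_add]; exact add_mem hy.memK hz.memK, by rw [map_add]; exact add_mem hy.memk hz.memk⟩

theorem Good.sub {y z : LaurentSeries A} (hy : Good A p y) (hz : Good A p z) :
    Good A p (y - z) :=
  ⟨by rw [map_sub]; exact sub_mem hy.memK hz.memK, by rw [map_sub]; exact sub_mem hy.memk hz.memk⟩

theorem Good.mul {y z : LaurentSeries A} (hy : Good A p y) (hz : Good A p z) :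
    Good A p (y * z) :=
  ⟨by rw [map_mul]; exact mul_mem hy.memK hz.memK, by rw [map_mul]; exact mul_mem hy.memk hz.memk⟩

theorem Good.pow {y : LaurentSeries A} (hy : Good A p y) (n : ℕ) : Good A p (y ^ n) :=
  ⟨by rw [map_pow]; exact pow_mem hy.memK n, by rw [map_pow]; exact pow_mem hy.memk n⟩

theorem coeffMap_C {R S : Type*} [CommRing R] [CommRing S] (f : R →+* S) (c : R) :
    coeffMap f (HahnSeries.C c : LaurentSeries R) = HahnSeries.C (f c) := by
  rw [HahnSeries.C_apply, coeffMap_single, HahnSeries.C_apply]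

theorem C_eq_algebraMap {K : Type*} [Field K] (c : K) :
    (HahnSeries.C c : LaurentSeries K) = algebraMap K (LaurentSeries K) c := by
  rw [algebraMap_laurentSeries_eq_single, HahnSeries.C_apply]

theorem good_C (c : A) : Good A p (HahnSeries.C c) :=
  ⟨by rw [coeffMap_C, C_eq_algebraMap]; exact IntermediateField.algebraMap_mem _ _,
    by rw [coeffMap_C, C_eq_algebraMap]; exact IntermediateField.algebraMap_mem _ _⟩

theorem good_J : Good A p (jqModC A) :=
  ⟨by
    rw [coeffMap_jqModC, Fermat.Agent.RED.H73.laurentBaseChange_full_eq]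
    exact jqModC_mem_full Kbar p,
   by rw [coeffMap_jqModC]; exact jqModC_mem_full (kV A) p⟩

theorem good_Jp : Good A p (qExpand A p (jqModC A)) :=
  ⟨by
    rw [coeffMap_qExpand, coeffMap_jqModC, Fermat.Agent.RED.H73.laurentBaseChange_full_eq]
    exact jqModCd_mem_full Kbar p dvd_rfl,
   by rw [coeffMap_qExpand, coeffMap_jqModC]; exact jqModCd_mem_full (kV A) p dvd_rfl⟩

/-- The inverse of a good unit is good. -/
theorem Good.of_mul_eq_one {y z : LaurentSeries A} (hy : Good A p y) (h : y * z = 1) :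
    Good A p z := by
  have h1 : coeffMap A.subtype y * coeffMap A.subtype z = 1 := by rw [← map_mul, h, map_one]
  have h2 : coeffMap (IsLocalRing.residue A) y * coeffMap (IsLocalRing.residue A) z = 1 := by
    rw [← map_mul, h, map_one]
  refine ⟨?_, ?_⟩
  · rw [eq_inv_of_mul_eq_one_right h1]
    exact inv_mem hy.memK
  · rw [eq_inv_of_mul_eq_one_right h2]
    exact inv_mem hy.memk

/-! ### The two coordinates -/

theorem genK_J : (good_J (A := A) (p := p)).genK = _root_.Fermat.Agent.S15.jBar p := by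
  apply Subtype.ext
  rw [Good.genK_coe, coeffMap_jqModC]
  show _ = coeffEmb Kbar jq
  have h := Fermat.Agent.RED.H73.coeffEmb_qExpand_jq (L := Kbar) 1
  rw [qExpand_one_apply, qExpand_one_apply] at h
  rw [h]

theorem genK_Jp : (good_Jp (A := A) (p := p)).genK = jBarN p := by
  apply Subtype.ext
  rw [Good.genK_coe, coeffMap_qExpand, coeffMap_jqModC]
  show _ = coeffEmb Kbar (qExpand ℚ p jq)
  rw [Fermat.Agent.RED.H73.coeffEmb_qExpand_jq (L := Kbar) p]

theorem redk_J : (good_J (A := A) (p := p)).redk = jRed (kV A) p := by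
  apply Subtype.ext
  rw [Good.redk_coe, coeffMap_jqModC]
  rfl

theorem redk_Jp : (good_Jp (A := A) (p := p)).redk = jRedN (kV A) p := by
  apply Subtype.ext
  rw [Good.redk_coe, coeffMap_qExpand, coeffMap_jqModC]
  rfl

theorem Good.genK_mul {y z : LaurentSeries A} (hy : Good A p y) (hz : Good A p z) :
    (hy.mul hz).genK = hy.genK * hz.genK :=
  Subtype.ext (map_mul _ _ _)

theorem Good.genK_pow {y : LaurentSeries A} (hy : Good A p y) (n : ℕ) :
    (hy.pow n).genK = hy.genK ^ n :=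
  Subtype.ext (map_pow _ _ _)

theorem Good.genK_inv {y z : LaurentSeries A} (hy : Good A p y) (h : y * z = 1) :
    (hy.of_mul_eq_one h).genK = (hy.genK)⁻¹ := by
  have h1 : hy.genK * (hy.of_mul_eq_one h).genK = 1 := by
    rw [← Good.genK_mul]
    apply Subtype.ext
    rw [Good.genK_coe, h, map_one]
    rfl
  exact eq_inv_of_mul_eq_one_right h1

/-! ### The conservation law -/

theorem coeffMap_subtype_injective :
    Function.Injective (coeffMap (A.subtype : A →+* AlgebraicClosure ℚ)) := by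
  intro y z h
  ext k
  have := congrArg (fun s => s.coeff k) h
  simp only [coeffMap_coeff] at this
  exact this

instance hasPrincipalDivisors_FN : HasPrincipalDivisors Kbar (FN p) :=
  Fermat.Agent.RED.H51.stmt_FFB_principal Kbar (FN p) (Fermat.Agent.RED.H95.isFF_FN p)

variable {r : Place Kbar (FN p) → Place (kV A) (FRed (kV A) p)}

theorem Good.genK_ne_zero {y : LaurentSeries A} (hy : Good A p y)
    (hne : coeffMap (IsLocalRing.residue A) y ≠ 0) : hy.genK ≠ 0 := by
  have hy0 : y ≠ 0 := by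
    rintro rfl
    exact hne (map_zero _)
  intro h
  apply hy0
  apply coeffMap_subtype_injective
  rw [map_zero]
  exact congrArg Subtype.val h

/-- The conservation law for a good series with non-zero reduction. -/
theorem Good.identity (hr : IsPlaceReductionAlong A (IsLocalRing.residue A) p r)
    {y : LaurentSeries A} (hy : Good A p y) (hne : coeffMap (IsLocalRing.residue A) y ≠ 0) :
    ∃ D : Divisor Kbar (FN p), (∀ P, D P = P.ord hy.genK) ∧
      ∀ Q, Finsupp.mapDomain r D Q = Q.ord hy.redk := by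
  obtain ⟨D, hD, -⟩ := HasPrincipalDivisors.exists_divisor (K := Kbar) hy.genK
    (hy.genK_ne_zero hne)
  exact ⟨D, hD, fun Q => hr.2 y hy.memK hy.memk hne D hD Q⟩

/-- The series `c X - 1`, `c ∈ 𝔪_A`: its generic fibre and its reduction `-1`. -/
theorem good_scale {X : LaurentSeries A} (hX : Good A p X) (c : A)
    (hc : IsLocalRing.residue A c = 0) :
    ∃ hy : Good A p (HahnSeries.C c * X - 1),
      hy.genK = algebraMap Kbar (FN p) (c : AlgebraicClosure ℚ) * hX.genK - 1 ∧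
      coeffMap (IsLocalRing.residue A) (HahnSeries.C c * X - 1) ≠ 0 ∧
      ∀ Q : Place (kV A) (FRed (kV A) p), Q.ord hy.redk = 0 := by
  have hy : Good A p (HahnSeries.C c * X - 1) := ((good_C c).mul hX).sub good_one
  have hgen : hy.genK = algebraMap Kbar (FN p) (c : AlgebraicClosure ℚ) * hX.genK - 1 := by
    apply Subtype.ext
    rw [Good.genK_coe, map_sub, map_mul, map_one, coeffMap_C, C_eq_algebraMap]
    rfl
  have hred : coeffMap (IsLocalRing.residue A) (HahnSeries.C c * X - 1) = -1 := by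
    rw [map_sub, map_mul, map_one, coeffMap_C, hc, map_zero, zero_mul, zero_sub]
  have hne : coeffMap (IsLocalRing.residue A) (HahnSeries.C c * X - 1) ≠ 0 := by
    rw [hred]
    exact neg_ne_zero.mpr one_ne_zero
  have hredk : hy.redk = -1 := Subtype.ext hred
  refine ⟨hy, hgen, hne, fun Q => ?_⟩
  rw [hredk]
  have h1 : (-1 : FRed (kV A) p) = algebraMap (kV A) (FRed (kV A) p) (-1) := by
    rw [map_neg, map_one]
  rw [h1]
  exact Fermat.Agent.S24.H59.ord_algebraMap_eq_zero' _ _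

/-- **The principle**: for `c ∈ 𝔪_A`, every zero `x` of `c X - 1` has a pole `P` of `X` with
`r P = r x`. -/
theorem exists_pole (hr : IsPlaceReductionAlong A (IsLocalRing.residue A) p r)
    {X : LaurentSeries A} (hX : Good A p X) (c : A) (hc : IsLocalRing.residue A c = 0)
    (x : Place Kbar (FN p))
    (hx : pv x (algebraMap Kbar (FN p) (c : AlgebraicClosure ℚ) * hX.genK - 1) < 1) :
    ∃ P : Place Kbar (FN p), r P = r x ∧ P.ord hX.genK < 0 := by
  obtain ⟨hy, hgen, hne, hord⟩ := good_scale hX c hc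
  obtain ⟨D, hD, hid⟩ := hy.identity hr hne
  have h0 : Finsupp.mapDomain r D (r x) ≤ 0 := by rw [hid, hord]
  have hxpos : 0 < D x := by
    rw [hD]
    refine (pv_lt_one_iff x (hy.genK_ne_zero hne)).mp ?_
    rw [hgen]
    exact hx
  obtain ⟨P, hP, hneg⟩ := exists_neg_of_mapDomain_le r D (r x) h0 x rfl hxpos
  refine ⟨P, hP, ?_⟩
  rw [hD, hgen] at hneg
  by_contra hcon
  rw [not_lt] at hcon
  have h1 : hX.genK ∈ P.toValuationSubring := Fermat.Agent.S24.H85.mem_of_ord_nonneg P hcon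
  have h2 : algebraMap Kbar (FN p) (c : AlgebraicClosure ℚ) * hX.genK - 1
      ∈ P.toValuationSubring :=
    sub_mem (mul_mem (P.algebraMap_mem' _) h1) (one_mem _)
  have := Fermat.Agent.S24.H85.ord_nonneg_of_mem P h2
  omega

/-- A power of a good series divided by a good unit. -/
theorem exists_good_ratio {X Y : LaurentSeries A} (hX : Good A p X) (hY : Good A p Y)
    (hu : IsUnit Y) (n : ℕ) :
    ∃ (Z : LaurentSeries A) (hZ : Good A p Z), hZ.genK = hX.genK ^ n * (hY.genK)⁻¹ := by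
  obtain ⟨u, rfl⟩ := hu
  have hinv : (u : LaurentSeries A) * ((u⁻¹ : (LaurentSeries A)ˣ) : LaurentSeries A) = 1 :=
    u.mul_inv
  refine ⟨X ^ n * ((u⁻¹ : (LaurentSeries A)ˣ) : LaurentSeries A),
    (hX.pow n).mul (hY.of_mul_eq_one hinv), ?_⟩
  rw [Good.genK_mul (hX.pow n) (hY.of_mul_eq_one hinv), Good.genK_pow hX n,
    Good.genK_inv hY hinv]

end Fermat.Agent.S15.B3

end
end
-- ==== END Fermat.Agent.S15.B3.H83_Series

-- ==== BEGIN Fermat.Agent.S15.Desc.DefsTwo
section

/-!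
# S15 / DESC: the leaves for the descent prime `r = 2` (helper69)

Same leaves as for `r` odd (`S15/Desc/Defs.lean`, with `r = 2`), except:

| leaf | statement |
|---|---|
| LOC-U at 2 | `Stmt_LOCUTwo p` : the Kummer cocycles vanish on a member of a family `𝔅` with `H63.IsBddFamilyTwo 𝔅` |
| NUM-∞ at 2 | `Stmt_NUMinfTwo p` : a complex conjugation `c` and, for every Eisenstein projector `e`, a subspace `Vinf ≤ J[2]` containing the values at `c` of the Kummer cocycles, with `2 dim (W ∩ Vinf) ≤ dim W` |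

(`Vinf = e ((c - 1) J ∩ J[2])`; `(c - 1) J` is divisible, so `Vinf ⊆ 2^(n-1) ker (c + 1 | J[2^n])`
for all `n`, and the bound follows from the Betti description of `J[2^n]` with the action of `c`.)
-/

set_option autoImplicit false

noncomputable section

open ModularCurve Module

namespace Fermat.Agent.S15.Desc

open Fermat.Agent.S15

local notation "Qbar" => AlgebraicClosure ℚ

attribute [local instance] heckeInst

/-- (LOC-U at `2`). -/
def Stmt_LOCUTwo (p : ℕ) [NeZero p] : Prop :=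
  ∃ 𝔅 : Set (Subgroup GalQ), H63.IsBddFamilyTwo 𝔅 ∧
    ∀ (k : ℕ) (e : HeckeAlg), IsEisProj p 2 k e → ∀ y : JZero p, 2 • y ∈ ratPts p →
      ∃ H ∈ 𝔅, ∀ σ ∈ H, e • (σ • y - y) = 0

/-- (NUM-∞ at `2`). -/
def Stmt_NUMinfTwo (p : ℕ) [NeZero p] : Prop :=
  ∃ (c : GalQ) (i : Qbar), i ^ 2 = -1 ∧ c i ≠ i ∧ c * c = 1 ∧ ∃ k₀ : ℕ,
    ∀ (k : ℕ) (e : HeckeAlg), k₀ ≤ k → IsEisProj p 2 k e →
      ∃ Vinf : Submodule (ZMod 2) (TorsR (JZero p) 2),
        (∀ y ∈ kumDom GalQ (JZero p) 2, kumCoc 2 e y c ∈ Vinf) ∧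
        2 * finrank (ZMod 2) ↥(eisW (J := JZero p) 2 e ⊓ Vinf) ≤
          finrank (ZMod 2) ↥(eisW (J := JZero p) 2 e)

end Fermat.Agent.S15.Desc

end
end
-- ==== END Fermat.Agent.S15.Desc.DefsTwo

-- ==== BEGIN Fermat.Agent.S15.Desc.H26_NumInfMat
section

/-!
# S15 / DESC / NUM-∞: the integer matrices of the anemic Hecke ring (helper26)

`p` a prime, `b` a universal basis of `Hom_par(Γ₀(p), ℤ)`.

* `anemicHecke hp : HeckeAlg →ₐ[ℤ] heckeAlgebra p 2 ∅`, `X_ℓ ↦ T_ℓ` (`ℓ ≠ p`), `X_p ↦ 1`;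
* `mat hp hb : HeckeAlg →+* Matrix (Fin d) (Fin d) ℤ`, the matrices of the Betti operators;
* `mat_X`, `mat_X_self`, `TB_eq_mat` (the shape consumed by `GTor.H81.theta_heckeTor`);
* `charpoly_mat_plus_minus`, `trace_mat_mul_matI`, `mat_comm_matI`.
-/

set_option autoImplicit false

open CongruenceSubgroup ModularCurve ModularCurve.Period
open scoped MatrixGroups

noncomputable section

namespace Fermat.Agent.S15.Desc.H26

open Fermat.Agent.Betti Fermat.Agent.Betti.H76

section Mat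

variable {p : ℕ} [NeZero p] (hp : p.Prime)

omit [NeZero p] in
theorem not_dvd_of_ne (hp : p.Prime) {ℓ : ℕ} (hℓ : ℓ.Prime) (h : ℓ ≠ p) : ¬ ℓ ∣ p :=
  fun hd => h ((Nat.prime_dvd_prime_iff_eq hℓ hp).mp hd)

/-- The anemic Hecke ring acting on cusp forms: `X_ℓ ↦ T_ℓ` (`ℓ ≠ p`), `X_p ↦ 1`. -/
def anemicHecke (hp : p.Prime) : HeckeAlg →ₐ[ℤ] CuspForm.heckeAlgebra p 2 (∅ : Set ℕ) :=
  MvPolynomial.aeval (fun ℓ : Nat.Primes =>
    if h : (ℓ : ℕ) = p then 1
    else CuspForm.heckeAlgebra.T ℓ.2 (not_dvd_of_ne hp ℓ.2 h) (Set.notMem_empty _))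

theorem anemicHecke_X_self (ℓ : Nat.Primes) (h : (ℓ : ℕ) = p) :
    anemicHecke hp (MvPolynomial.X ℓ) = 1 := by
  unfold anemicHecke
  rw [MvPolynomial.aeval_X, dif_pos h]

theorem anemicHecke_X (ℓ : Nat.Primes) (h : (ℓ : ℕ) ≠ p) :
    anemicHecke hp (MvPolynomial.X ℓ) =
      CuspForm.heckeAlgebra.T ℓ.2 (not_dvd_of_ne hp ℓ.2 h) (Set.notMem_empty _) := by
  unfold anemicHecke
  rw [MvPolynomial.aeval_X, dif_neg h]

variable {d : ℕ} {b : Fin d → (Additive (Gamma0 p) →+ ℤ)} (hb : IsParBasis p b)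

/-- The integer matrices of the anemic Hecke ring in a universal basis. -/
def mat (hp : p.Prime) (hb : IsParBasis p b) : HeckeAlg →+* Matrix (Fin d) (Fin d) ℤ :=
  ((LinearMap.toMatrixAlgEquiv (parBasis hb)).toAlgHom.toRingHom.comp (heckeRho p ∅)).comp
    (anemicHecke hp).toRingHom

theorem mat_apply (t : HeckeAlg) :
    mat hp hb t = LinearMap.toMatrix (parBasis hb) (parBasis hb)
      (heckeRho p ∅ (anemicHecke hp t)) := rfl

/-- Every matrix `mat t` is the matrix of a word in the Betti Hecke operators. -/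
theorem exists_word (t : HeckeAlg) :
    ∃ w : FreeAlgebra ℤ (Gen (∅ : Set ℕ)), mat hp hb t = matW ∅ hb w := by
  obtain ⟨w, hw⟩ := wordSH_surjective p ∅ (anemicHecke hp t)
  refine ⟨w, ?_⟩
  rw [mat_apply, ← hw, heckeRho_wordSH]
  rfl

theorem mat_X_self (ℓ : Nat.Primes) (h : (ℓ : ℕ) = p) : mat hp hb (MvPolynomial.X ℓ) = 1 := by
  rw [mat_apply, anemicHecke_X_self hp ℓ h, map_one]
  exact LinearMap.toMatrix_one _

/-- The shape consumed by `GTor.H81.theta_heckeTor`. -/
theorem TB_eq_mat (ℓ : Nat.Primes) (h : (ℓ : ℕ) ≠ p) (j : Fin d) :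
    TB p ℤ ℓ.2 (not_dvd_of_ne hp ℓ.2 h) (b j) =
      ∑ i, mat hp hb (MvPolynomial.X ℓ) i j • b i := by
  have h1 := heckeRho_T p ∅ ℓ.2 (not_dvd_of_ne hp ℓ.2 h) (Set.notMem_empty _) (parBasis hb j)
  rw [parBasis_apply] at h1
  rw [← h1, end_parBasis hb _ j, mat_apply, anemicHecke_X hp ℓ h]
  simp only [Submodule.coe_sum, Submodule.coe_smul, parBasis_apply]

theorem charpoly_mat_plus_minus (t : HeckeAlg) :
    (mat hp hb t * (1 + matI hb)).charpoly = (mat hp hb t * (1 - matI hb)).charpoly := by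
  obtain ⟨w, hw⟩ := exists_word hp hb t
  rw [hw]
  exact charpoly_matW_plus_minus ∅ hb w

theorem trace_mat_mul_matI (t : HeckeAlg) : (mat hp hb t * matI hb).trace = 0 := by
  obtain ⟨w, hw⟩ := exists_word hp hb t
  rw [hw]
  exact trace_matW_mul_matI ∅ hb w

theorem mat_comm_matI (t : HeckeAlg) : mat hp hb t * matI hb = matI hb * mat hp hb t := by
  obtain ⟨w, hw⟩ := exists_word hp hb t
  rw [hw]
  exact matW_comm_matI ∅ hb w

end Mat

end Fermat.Agent.S15.Desc.H26

end
end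
-- ==== END Fermat.Agent.S15.Desc.H26_NumInfMat

-- ==== BEGIN Fermat.Agent.S15.Desc.H63_CoordF0Final
section

/-!
# S15 DESC, leaf COORD, sub-leaf F0 (helper63): unconditional form

`stmt_CoordF0 p : H67.Stmt_CoordF0 p`, from `H63F.stmt_CoordF0_of_disc` and helper87's
`stmt_CoordDisc`.
-/

set_option autoImplicit false

namespace Fermat.Agent.S15.Desc.H63F

/-- **(F0)**, unconditional. -/
theorem stmt_CoordF0 (p : ℕ) : Fermat.Agent.S15.Desc.H67.Stmt_CoordF0 p :=
  stmt_CoordF0_of_disc p Fermat.Agent.S15.Desc.H87.stmt_CoordDisc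

end Fermat.Agent.S15.Desc.H63F

end
-- ==== END Fermat.Agent.S15.Desc.H63_CoordF0Final

-- ==== BEGIN Fermat.Agent.S15.Desc.H63_VtCount
section

/-!
# S15 / DESC: the local condition at the bad prime by a dimension count (helper63)

Route 2 to `Stmt_VT` (the local condition at `p` and its numerics), without the component group.

`J` an abelian group with commuting actions of `G` and of a commutative ring `R`, `r` a prime,
`e ∈ R` idempotent on `V = J[r]`, `W = e V`, `I ≤ G` (the inertia group at the bad prime `p`),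
`T ≤ V` a subspace (the toric part `K1(r)`).

Hypotheses:
* (B1) `I` acts trivially on `T`;
* (B0-div) `σ y - y ∈ T` for `σ ∈ I` and `r y` rational (in particular for `y ∈ V`);
* (CYC) `I` acts on `V` through a cyclic group (tame inertia);
* (COUNT) `dim T + dim V^I ≤ dim V + 1`
  (from `dim T ≤ g`, `dim V^I ≤ g + 1`, `dim V = 2 g`).

Conclusion (`exists_vt_of_count`): `Vt = e T` contains the values on `I` of all Kummer cocycles
`σ ↦ e (σ y - y)`, and `2 dim (W ∩ Vt) ≤ dim W + 1`.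

Proof: `N = σ₀ - 1`, `ker N = V^I`, `N V ≤ T ≤ ker N`, so `T = N V + 𝔽_r v₀` by (COUNT);
`e T = N W + 𝔽_r e v₀ ≤ W ∩ ker N`, and `dim W = dim N W + dim (W ∩ ker N)`.
-/

set_option autoImplicit false
set_option linter.style.haveILetI false

namespace Fermat.Agent.S15.Desc.H63

open Module Fermat.Agent.S15.Desc

section LinAlg

variable {K E : Type*} [Field K] [AddCommGroup E] [Module K E]

/-- A subspace of codimension at most one is complemented by a line. -/
theorem exists_sup_span_eq (A B : Submodule K E) [Module.Finite K B] (hAB : A ≤ B)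
    (hdim : finrank K B ≤ finrank K A + 1) :
    ∃ v ∈ B, B = A ⊔ Submodule.span K {v} := by
  classical
  by_cases h : B ≤ A
  · refine ⟨0, B.zero_mem, ?_⟩
    rw [Submodule.span_zero_singleton, sup_bot_eq]
    exact le_antisymm h hAB
  · obtain ⟨v, hvB, hvA⟩ := Set.not_subset.mp h
    refine ⟨v, hvB, ?_⟩
    have hle : A ⊔ Submodule.span K {v} ≤ B :=
      sup_le hAB ((Submodule.span_singleton_le_iff_mem v B).mpr hvB)
    haveI : Module.Finite K A := Submodule.finiteDimensional_of_le hAB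
    have hlt : A < A ⊔ Submodule.span K {v} := by
      refine lt_of_le_of_ne le_sup_left fun heq => hvA ?_
      have : v ∈ A ⊔ Submodule.span K {v} :=
        Submodule.mem_sup_right (Submodule.mem_span_singleton_self v)
      rw [← heq] at this
      exact this
    haveI : Module.Finite K ↥(A ⊔ Submodule.span K {v}) :=
      Submodule.finiteDimensional_of_le hle
    have h1 : finrank K A < finrank K ↥(A ⊔ Submodule.span K {v}) :=
      Submodule.finrank_lt_finrank_of_lt hlt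
    exact (Submodule.eq_of_le_of_finrank_le hle (by omega)).symm

end LinAlg

section Count

variable {G J R : Type*} [Group G] [AddCommGroup J] [DistribMulAction G J] [CommRing R]
  [Module R J]

/-- The subspace of `J[r]` fixed by the subgroup `I`. -/
def fixI (r : ℕ) (I : Subgroup G) : Submodule (ZMod r) (TorsR J r) where
  carrier := {v | ∀ σ ∈ I, σ • v = v}
  add_mem' := fun {a b} ha hb σ hσ => by
    rw [smul_add, ha σ hσ, hb σ hσ]
  zero_mem' := fun σ _ => smul_zero σ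
  smul_mem' := fun c v hv σ hσ => by
    rw [smul_comm, hv σ hσ]

theorem mem_fixI {r : ℕ} {I : Subgroup G} {v : TorsR J r} :
    v ∈ fixI (J := J) r I ↔ ∀ σ ∈ I, σ • v = v := Iff.rfl

/-- The action of `e ∈ R` on `J[r]`, as an additive map. -/
def eAdd (r : ℕ) (e : R) : TorsR J r →+ TorsR J r where
  toFun v := ⟨e • (v : J), by rw [mem_torsR, ← smul_comm, mem_torsR.mp v.2, smul_zero]⟩
  map_zero' := Subtype.ext (smul_zero e)
  map_add' a b := Subtype.ext (by
    show e • ((a + b : TorsR J r) : J) = e • (a : J) + e • (b : J)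
    rw [AddSubgroup.coe_add, smul_add])

/-- The action of `e ∈ R` on `J[r]`. -/
noncomputable def eLin (r : ℕ) (e : R) : TorsR J r →ₗ[ZMod r] TorsR J r :=
  (eAdd (J := J) r e).toZModLinearMap r

theorem coe_eLin (r : ℕ) (e : R) (v : TorsR J r) : ((eLin r e v : TorsR J r) : J) = e • (v : J) :=
  rfl

variable (r : ℕ) [hr : Fact r.Prime] (e : R)
variable (hGH : ∀ (σ : G) (t : R) (z : J), σ • (t • z) = t • (σ • z))

include hGH in
/-- **The local condition at the bad prime, by a dimension count.** -/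
theorem exists_vt_of_count (I : Subgroup G)
    (hfin : Finite (TorsR J r))
    (hidem : ∀ v : J, r • v = 0 → e • (e • v) = e • v)
    (T : Submodule (ZMod r) (TorsR J r))
    (hB1 : ∀ σ ∈ I, ∀ v ∈ T, σ • v = v)
    (hB0div : ∀ σ ∈ I, ∀ y ∈ kumDom G J r, toTors r (σ • y - y) ∈ T)
    (hcyc : ∃ σ₀ ∈ I, ∀ σ ∈ I, ∃ k : ℕ, ∀ u : J, r • u = 0 → σ • u = σ₀ ^ k • u)
    (hcount : finrank (ZMod r) ↥T + finrank (ZMod r) ↥(fixI (J := J) r I) ≤
      finrank (ZMod r) (TorsR J r) + 1) :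
    haveI : NeZero r := ⟨hr.out.ne_zero⟩
    ∃ Vt : Submodule (ZMod r) (TorsR J r),
      (∀ σ ∈ I, ∀ y ∈ kumDom G J r, kumCoc r e y σ ∈ Vt) ∧
      2 * finrank (ZMod r) ↥(eisW (J := J) r e ⊓ Vt) ≤ finrank (ZMod r) ↥(eisW (J := J) r e) + 1 := by
  classical
  haveI : NeZero r := ⟨hr.out.ne_zero⟩
  haveI : Module.Finite (ZMod r) (TorsR J r) := Module.Finite.of_finite
  obtain ⟨σ₀, hσ₀, hcyc⟩ := hcyc
  -- the operator `N = σ₀ - 1` on `J[r]`
  let N : TorsR J r →ₗ[ZMod r] TorsR J r :=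
    { toFun := fun v => σ₀ • v - v
      map_add' := fun a b => by rw [smul_add]; abel
      map_smul' := fun c v => by
        rw [RingHom.id_apply, smul_sub, smul_comm] }
  have hNapp : ∀ v : TorsR J r, N v = σ₀ • v - v := fun v => rfl
  -- `(σ - 1) V ≤ T`
  have hB0 : ∀ σ ∈ I, ∀ v : TorsR J r, σ • v - v ∈ T := by
    intro σ hσ v
    have h := hB0div σ hσ (v : J) (torsR_le_kumDom r v.2)
    have h2 : toTors r (σ • (v : J) - (v : J)) = σ • v - v := by
      apply Subtype.ext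
      rw [coe_toTors (by
        rw [smul_sub, ← smul_comm, mem_torsR.mp v.2, smul_zero, sub_self])]
      rfl
    rw [h2] at h
    exact h
  have hrange : LinearMap.range N ≤ T := by
    rintro _ ⟨v, rfl⟩
    exact hB0 σ₀ hσ₀ v
  have hker : LinearMap.ker N = fixI (J := J) r I := by
    ext v
    rw [LinearMap.mem_ker, hNapp, sub_eq_zero, mem_fixI]
    constructor
    · intro h σ hσ
      obtain ⟨k, hk⟩ := hcyc σ hσ
      apply Subtype.ext
      rw [coe_gal_smul, hk (v : J) (mem_torsR.mp v.2)]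
      have h' : σ₀ • (v : J) = v := congrArg Subtype.val h
      clear hk
      induction k with
      | zero => rw [pow_zero, one_smul]
      | succ k ih => rw [pow_succ, mul_smul, h', ih]
    · intro h
      exact h σ₀ hσ₀
  have hTker : T ≤ LinearMap.ker N := by
    intro v hv
    rw [LinearMap.mem_ker, hNapp, hB1 σ₀ hσ₀ v hv, sub_self]
  -- `T = N V + 𝔽_r v₀`
  have hrk := LinearMap.finrank_range_add_finrank_ker N
  rw [hker] at hrk
  obtain ⟨v₀, hv₀T, hTeq⟩ := exists_sup_span_eq (LinearMap.range N) T hrange (by omega)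
  set W : Submodule (ZMod r) (TorsR J r) := eisW r e with hW
  set E : TorsR J r →ₗ[ZMod r] TorsR J r := eLin r e with hE
  have hEW : ∀ v : TorsR J r, E v ∈ W := by
    intro v
    show e • ((E v : TorsR J r) : J) = ((E v : TorsR J r) : J)
    rw [hE, coe_eLin]
    exact hidem _ (mem_torsR.mp v.2)
  have hEN : ∀ v : TorsR J r, E (N v) = N (E v) := by
    intro v
    apply Subtype.ext
    show e • (σ₀ • (v : J) - (v : J)) = σ₀ • (e • (v : J)) - e • (v : J)
    rw [smul_sub, hGH]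
  refine ⟨T.map E, ?_, ?_⟩
  · intro σ hσ y hy
    refine ⟨toTors r (σ • y - y), hB0div σ hσ y hy, ?_⟩
    apply Subtype.ext
    have hy' : r • (σ • y - y) = 0 := by
      rw [smul_sub, ← smul_comm, hy σ, sub_self]
    rw [coe_kumCoc e hy σ, hE, coe_eLin, coe_toTors hy']
  · have hle1 : T.map E ≤ W.map N ⊔ Submodule.span (ZMod r) {E v₀} := by
      rintro _ ⟨t, ht, rfl⟩
      rw [hTeq] at ht
      obtain ⟨a, ⟨v, rfl⟩, b, hb, rfl⟩ := Submodule.mem_sup.mp ht
      obtain ⟨c, rfl⟩ := Submodule.mem_span_singleton.mp hb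
      rw [map_add, hEN, map_smul]
      exact Submodule.add_mem _
        (Submodule.mem_sup_left (Submodule.mem_map_of_mem (hEW v)))
        (Submodule.mem_sup_right (Submodule.smul_mem _ c (Submodule.mem_span_singleton_self _)))
    have hle2 : T.map E ≤ W ⊓ LinearMap.ker N := by
      rintro _ ⟨t, ht, rfl⟩
      refine ⟨hEW t, ?_⟩
      show N (E t) = 0
      rw [← hEN, LinearMap.mem_ker.mp (hTker ht), map_zero]
    have h1 : finrank (ZMod r) ↥(T.map E) ≤ finrank (ZMod r) ↥(W.map N) + 1 := by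
      refine (Submodule.finrank_mono hle1).trans ?_
      refine (Submodule.finrank_add_le_finrank_add_finrank _ _).trans ?_
      have h0 : finrank (ZMod r) ↥(Submodule.span (ZMod r) ({E v₀} : Set (TorsR J r))) ≤ 1 := by
        have := finrank_span_finset_le_card (R := ZMod r) ({E v₀} : Finset (TorsR J r))
        rw [Finset.card_singleton, Finset.coe_singleton] at this
        exact this
      omega
    have h2 : finrank (ZMod r) ↥(T.map E) ≤ finrank (ZMod r) ↥(W ⊓ LinearMap.ker N) :=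
      Submodule.finrank_mono hle2
    have h3 := finrank_eq_map_add_inf_ker W N
    have h4 : finrank (ZMod r) ↥(W ⊓ T.map E) ≤ finrank (ZMod r) ↥(T.map E) :=
      Submodule.finrank_mono inf_le_right
    omega

end Count

end Fermat.Agent.S15.Desc.H63

end
-- ==== END Fermat.Agent.S15.Desc.H63_VtCount

-- ==== BEGIN Fermat.Agent.S15.Desc.H67_CoordModA
section
attribute [local instance 10000] HahnSeries.powerSeriesAlgebra

/-!
# S15 DESC, leaf COORD (helper67): the modular verification at level `1 * p`, part A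

The two charts `x₁ = j`, `x₂ = j(q^p)` of `X₀(p)`: Gauss integrality, the four reductions
(`red₁ x₁ = j~`, `red₁ x₂ = j~^p`, `red₂ x₁ = j~^p`, `red₂ x₂ = j~`), the rationality of the
residue field (`k(j~) = F₁`, `j~` transcendental).
-/

set_option autoImplicit false
set_option linter.unusedSectionVars false
set_option linter.style.haveILetI false
set_option synthInstance.maxHeartbeats 400000
set_option maxHeartbeats 400000

noncomputable section

open HahnSeries IntermediateField AlgebraicCurve ModularCurve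
open Fermat.Agent.S28.H73 Fermat.Agent.RED.H73 Fermat.Agent.RED Fermat.Agent.S24
open Fermat.Agent.BAD.H88

namespace Fermat.Agent.S15.Desc.H67

open Fermat.Agent.BAD Fermat.Agent.BAD.H91

section Abs

variable {k X : Type*} [Field k] [Field X] [Algebra k X]

/-- A field generated by `y` inside `X` is generated by `y` as an abstract field. -/
theorem adjoin_eq_top_of_eq {E : IntermediateField k X} {y : X} (hE : E = k⟮y⟯) (y' : ↥E)
    (hy : (y' : X) = y) : k⟮y'⟯ = ⊤ := by
  rw [eq_top_iff]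
  intro z _
  have hz : (z : X) ∈ k⟮y⟯ := hE ▸ z.2
  have hmap : (k⟮y'⟯).map E.val = k⟮y⟯ := by
    rw [adjoin_map, Set.image_singleton]
    congr 2
  rw [← hmap] at hz
  obtain ⟨w, hw, hwz⟩ := hz
  have e : w = z := Subtype.ext hwz
  rwa [← e]

end Abs

section Series

variable (A : ValuationSubring Kbar) (p : ℕ) [NeZero (1 * p)]

/-- `j(q^d)` is Gauss integral. -/
theorem jdF_mem_V1 (d : ℕ) [NeZero d] (hd : d ∣ 1 * p) : jdF (1 * p) d hd ∈ V1 A p 1 := by
  rw [mem_gaussValSub_iff, H82.coe_jdF]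
  exact qExpand_jqModC_mem_gaussRingV A d

/-- The reduction of `j(q^d)` is `j~(q^d)`. -/
theorem coe_red1_jdF (d : ℕ) [NeZero d] (hd : d ∣ 1 * p) (h : jdF (1 * p) d hd ∈ V1 A p 1) :
    ((red1 A p 1 ⟨jdF (1 * p) d hd, h⟩ : F1 A p 1) : LaurentSeries (kV A))
      = qExpand (kV A) d (jqModC (kV A)) := by
  rw [coe_gaussResF'_eq]
  have e : (⟨((jdF (1 * p) d hd : FN (1 * p)) : LaurentSeries Kbar), h⟩ : gaussRingV A)
      = ⟨qExpand Kbar d (jqModC Kbar), qExpand_jqModC_mem_gaussRingV A d⟩ :=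
    Subtype.ext (H82.coe_jdF (1 * p) d hd)
  rw [e]
  exact gaussRedV_qExpand_jqModC A d _

end Series

section Charts

variable (A : ValuationSubring Kbar) (p : ℕ) [NeZero (1 * p)]

/-- The first chart `x₁ = j`. -/
def chartOne : FN (1 * p) := jdF (1 * p) 1 (one_dvd _)

/-- The second chart `x₂ = j(q^p)`. -/
def chartTwo : FN (1 * p) := jdF (1 * p) (1 * p) dvd_rfl

theorem chartOne_mem_V1 : chartOne p ∈ V1 A p 1 := jdF_mem_V1 A p 1 _

theorem chartTwo_mem_V1 : chartTwo p ∈ V1 A p 1 := jdF_mem_V1 A p (1 * p) _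

/-- The reduction `j~` of `j`, as an element of `F₁`. -/
def jTil : F1 A p 1 := red1 A p 1 ⟨chartOne p, chartOne_mem_V1 A p⟩

theorem coe_jTil : ((jTil A p : F1 A p 1) : LaurentSeries (kV A)) = jqModC (kV A) := by
  rw [jTil]
  have h := coe_red1_jdF A p 1 (one_dvd _) (chartOne_mem_V1 A p)
  rw [qExpand_one_apply] at h
  exact h

variable (a b : ℤ) (hab : a * p + b * (1 : ℕ) = 1) (hp : p.Prime)

theorem wq_chartOne : wq p 1 a b hab hp (chartOne p) = chartTwo p := by
  rw [wq_apply]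
  exact wqHom_jdF p 1 a b hab hp 1 (one_dvd 1)

theorem wq_chartTwo : wq p 1 a b hab hp (chartTwo p) = chartOne p := by
  rw [wq_apply]
  exact wqHom_jdF_mul p 1 a b hab hp 1 (one_dvd 1)

theorem chartOne_mem_V2 : chartOne p ∈ V2 A p 1 a b hab hp := by
  rw [mem_V2_iff, wq_chartOne]
  exact chartTwo_mem_V1 A p

theorem chartTwo_mem_V2 : chartTwo p ∈ V2 A p 1 a b hab hp := by
  rw [mem_V2_iff, wq_chartTwo]
  exact chartOne_mem_V1 A p

include hp in
/-- `red₁ x₂ = j~ ^ p` (Kronecker). -/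
theorem red1_chartTwo (hA : A.LiesOverPrime p) :
    red1 A p 1 ⟨chartTwo p, chartTwo_mem_V1 A p⟩ = jTil A p ^ p := by
  haveI : Fact p.Prime := ⟨hp⟩
  haveI : CharP (kV A) p := H82.charP_kV A hp hA
  apply Subtype.ext
  refine (coe_red1_jdF A p (1 * p) dvd_rfl (chartTwo_mem_V1 A p)).trans ?_
  show _ = ((jTil A p : F1 A p 1) : LaurentSeries (kV A)) ^ p
  rw [coe_jTil]
  have h := H82.kronX_eq_zero p (kV A)
  rw [H82.kronX, sub_eq_zero] at h
  rw [← h]
  exact qExpand_congr (one_mul p) _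

theorem red2_chartOne (hA : A.LiesOverPrime p) :
    red2 A p 1 a b hab hp ⟨chartOne p, chartOne_mem_V2 A p a b hab hp⟩ = jTil A p ^ p := by
  rw [red2_mk, ← red1_chartTwo A p hp hA]
  congr 1
  exact Subtype.ext (wq_chartOne p a b hab hp)

theorem red2_chartTwo :
    red2 A p 1 a b hab hp ⟨chartTwo p, chartTwo_mem_V2 A p a b hab hp⟩ = jTil A p := by
  rw [red2_mk, jTil]
  congr 1
  exact Subtype.ext (wq_chartTwo p a b hab hp)

end Charts

section Rational

variable (A : ValuationSubring Kbar) (p : ℕ) [NeZero (1 * p)]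

/-- The function field of level `1` in characteristic `p` is `k(j~)`. -/
theorem fullC_one (K : Type) [Field K] : modularFunctionFieldFullC K 1 = K⟮jqModC K⟯ := by
  rw [modularFunctionFieldFullC]
  congr 1
  ext x
  constructor
  · rintro ⟨d, hd, hdvd, rfl⟩
    have : d = 1 := Nat.dvd_one.mp hdvd
    subst this
    rw [qExpand_one_apply]
    exact Set.mem_singleton _
  · intro hx
    rw [Set.mem_singleton_iff.mp hx]
    exact ⟨1, inferInstance, dvd_rfl, (qExpand_one_apply (jqModC K)).symm⟩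

theorem transcendental_jTil : Transcendental (kV A) (jTil A p) := by
  apply transcendental_subtype
  rw [coe_jTil]
  exact transcendental_jqModC (kV A)

variable (a b : ℤ) (hab : a * p + b * (1 : ℕ) = 1) (hp : p.Prime)

include hab hp in
/-- **`F₁ = k(j~)`.** -/
theorem adjoin_jTil (hA : A.LiesOverPrime p) : (kV A)⟮jTil A p⟯ = ⊤ :=
  adjoin_eq_top_of_eq ((H82.redField_eq_fullC p 1 a b hab hp A hA).trans (fullC_one (kV A)))
    (jTil A p) (coe_jTil A p)

end Rational

end Fermat.Agent.S15.Desc.H67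

end
end
-- ==== END Fermat.Agent.S15.Desc.H67_CoordModA

-- ==== BEGIN Fermat.Agent.S15.Desc.H83_GlueCore
section

/-!
# S15 / DESC, leaf GLUE-dim (helper83), abstract part 1: the core

`S : BAD.SSD K F k F₁ F₂` a semistable Deuring datum (two components, nodes).

* `IsTor S n G ψ₁ ψ₂` : `G` is a unit for both valuations, without zero or pole on the fibres of
  the nodes, all its orders are divisible by `n`, and its two reductions are the `n`-th powers
  `ψ₁ ^ n`, `ψ₂ ^ n`.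
* `IsTor.mul`, `IsTor.pow`, `isTor_one`, `IsTor.prod`.
* `IsTor.ord_eq_zero` : `ψ₁`, `ψ₂` have order `0` at the branches of the nodes.
* `core` : if the values of `ψ₁` and `z ψ₂` (`z ^ n = 1`) at the two branches of every node agree,
  then `G` is an `n`-th power.  (Good lift + TI-ss-gp.)
-/

set_option autoImplicit false
set_option linter.style.haveILetI false
set_option maxHeartbeats 1000000

noncomputable section

open AlgebraicCurve

attribute [local instance] Classical.propDecidable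

namespace Fermat.Agent.S15.Desc.H83

open Fermat.Agent.RED.H17 Fermat.Agent.RED Fermat.Agent.BAD

section OneField

variable {k F : Type*} [Field k] [Field F] [Algebra k F]

/-- The value of the constant function `1`. -/
theorem vanAt_one_sub (v : Place k F) : VanAt v ((1 : F) - algebraMap k F 1) := by
  rw [map_one, sub_self]
  exact vanAt_zero v

/-- The value of a constant. -/
theorem vanAt_const_sub (v : Place k F) (a : k) :
    VanAt v (algebraMap k F a - algebraMap k F a) := by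
  rw [sub_self]
  exact vanAt_zero v

/-- The value of a finite product. -/
theorem vanAt_prod_sub {ι : Type*} (v : Place k F) (s : Finset ι) (y : ι → F) (a : ι → k)
    (h : ∀ i ∈ s, VanAt v (y i - algebraMap k F (a i))) :
    VanAt v (∏ i ∈ s, y i - algebraMap k F (∏ i ∈ s, a i)) := by
  induction s using Finset.induction_on with
  | empty =>
    rw [Finset.prod_empty, Finset.prod_empty]
    exact vanAt_one_sub v
  | insert i s hi ih =>
    rw [Finset.prod_insert hi, Finset.prod_insert hi]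
    exact Fermat.Agent.BAD.H28.vanAt_mul_sub (h i (Finset.mem_insert_self i s))
      (ih fun j hj => h j (Finset.mem_insert_of_mem hj))

end OneField

section Tor

variable {K F k F₁ F₂ : Type*} [Field K] [Field F] [Algebra K F] [Field k] [Field F₁]
  [Algebra k F₁] [Field F₂] [Algebra k F₂] (S : SSD K F k F₁ F₂)

/-- `G` is a unit for both valuations, without zero or pole on the fibres of the nodes, all its
orders are divisible by `n`, and its reductions are `ψ₁ ^ n` and `ψ₂ ^ n`. -/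
structure IsTor (n : ℕ) (G : F) (ψ₁ : F₁) (ψ₂ : F₂) : Prop where
  gu₁ : S.c₁.IsGU G
  gu₂ : S.c₂.IsGU G
  rd₁ : S.c₁.rd G = ψ₁ ^ n
  rd₂ : S.c₂.rd G = ψ₂ ^ n
  node : ∀ P : Place K F, S.IsNodeP P → P.ord G = 0
  dvd : ∀ P : Place K F, (n : ℤ) ∣ P.ord G

variable {S}

theorem isTor_one (n : ℕ) : IsTor S n (1 : F) (1 : F₁) (1 : F₂) where
  gu₁ := S.c₁.isGU_one
  gu₂ := S.c₂.isGU_one
  rd₁ := by rw [S.c₁.rd_one, one_pow]
  rd₂ := by rw [S.c₂.rd_one, one_pow]
  node := fun P _ => Place.ord_one P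
  dvd := fun P => by rw [Place.ord_one]; exact dvd_zero _

theorem IsTor.mul {n : ℕ} {G G' : F} {ψ₁ ψ₁' : F₁} {ψ₂ ψ₂' : F₂} (h : IsTor S n G ψ₁ ψ₂)
    (h' : IsTor S n G' ψ₁' ψ₂') : IsTor S n (G * G') (ψ₁ * ψ₁') (ψ₂ * ψ₂') where
  gu₁ := h.gu₁.mul h'.gu₁
  gu₂ := h.gu₂.mul h'.gu₂
  rd₁ := by rw [S.c₁.rd_mul h.gu₁.1 h'.gu₁.1, h.rd₁, h'.rd₁, mul_pow]
  rd₂ := by rw [S.c₂.rd_mul h.gu₂.1 h'.gu₂.1, h.rd₂, h'.rd₂, mul_pow]
  node := fun P hP => by
    rw [P.ord_mul h.gu₁.ne_zero h'.gu₁.ne_zero, h.node P hP, h'.node P hP, add_zero]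
  dvd := fun P => by
    rw [P.ord_mul h.gu₁.ne_zero h'.gu₁.ne_zero]
    exact dvd_add (h.dvd P) (h'.dvd P)

theorem IsTor.pow {n : ℕ} {G : F} {ψ₁ : F₁} {ψ₂ : F₂} (h : IsTor S n G ψ₁ ψ₂) (e : ℕ) :
    IsTor S n (G ^ e) (ψ₁ ^ e) (ψ₂ ^ e) := by
  induction e with
  | zero =>
    rw [pow_zero, pow_zero, pow_zero]
    exact isTor_one n
  | succ e ih =>
    rw [pow_succ, pow_succ, pow_succ]
    exact ih.mul h

theorem IsTor.prod {n : ℕ} {ι : Type*} (s : Finset ι) (G : ι → F) (ψ₁ : ι → F₁) (ψ₂ : ι → F₂)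
    (h : ∀ i ∈ s, IsTor S n (G i) (ψ₁ i) (ψ₂ i)) :
    IsTor S n (∏ i ∈ s, G i) (∏ i ∈ s, ψ₁ i) (∏ i ∈ s, ψ₂ i) := by
  induction s using Finset.induction_on with
  | empty =>
    rw [Finset.prod_empty, Finset.prod_empty, Finset.prod_empty]
    exact isTor_one n
  | insert i s hi ih =>
    rw [Finset.prod_insert hi, Finset.prod_insert hi, Finset.prod_insert hi]
    exact (h i (Finset.mem_insert_self i s)).mul (ih fun j hj => h j (Finset.mem_insert_of_mem hj))

theorem IsTor.ne₁ {n : ℕ} {G : F} {ψ₁ : F₁} {ψ₂ : F₂} (h : IsTor S n G ψ₁ ψ₂) (hn : n ≠ 0) :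
    ψ₁ ≠ 0 := by
  rintro rfl
  have := h.gu₁.2
  rw [h.rd₁, zero_pow hn] at this
  exact this rfl

theorem IsTor.ne₂ {n : ℕ} {G : F} {ψ₁ : F₁} {ψ₂ : F₂} (h : IsTor S n G ψ₁ ψ₂) (hn : n ≠ 0) :
    ψ₂ ≠ 0 := by
  rintro rfl
  have := h.gu₂.2
  rw [h.rd₂, zero_pow hn] at this
  exact this rfl

/-- The roots `ψ₁`, `ψ₂` have order `0` at the branches of the nodes. -/
theorem IsTor.ord_eq_zero {n : ℕ} {G : F} {ψ₁ : F₁} {ψ₂ : F₂} (h : IsTor S n G ψ₁ ψ₂)
    (hn : n ≠ 0) (hP : HasPrincipalDivisors K F) {s : Place k F₁ × Place k F₂}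
    (hs : s ∈ S.nodes) : s.1.ord ψ₁ = 0 ∧ s.2.ord ψ₂ = 0 := by
  obtain ⟨h1, h2⟩ := Fermat.Agent.BAD.H60.ord_rd_eq_zero_of_node S hP h.gu₁ h.gu₂ h.node hs
  rw [h.rd₁, ord_pow] at h1
  rw [h.rd₂, ord_pow] at h2
  have hnZ : (n : ℤ) ≠ 0 := by exact_mod_cast hn
  exact ⟨(mul_eq_zero.mp h1).resolve_left hnZ, (mul_eq_zero.mp h2).resolve_left hnZ⟩

/-- Change of the root on the second component by an `n`-th root of unity. -/
theorem IsTor.scale₂ {n : ℕ} {G : F} {ψ₁ : F₁} {ψ₂ : F₂} (h : IsTor S n G ψ₁ ψ₂) {z : k}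
    (hz : z ^ n = 1) : IsTor S n G ψ₁ (algebraMap k F₂ z * ψ₂) where
  gu₁ := h.gu₁
  gu₂ := h.gu₂
  rd₁ := h.rd₁
  rd₂ := by rw [h.rd₂, mul_pow, ← map_pow, hz, map_one, one_mul]
  node := h.node
  dvd := h.dvd

end Tor

section Core

variable {K F k F₁ F₂ : Type} [Field K] [Field F] [Algebra K F] [Field k] [Field F₁]
  [Algebra k F₁] [Field F₂] [Algebra k F₂]

/-- **The core**: a function `G` as in `IsTor` such that the roots `ψ₁`, `ψ₂` of its reductions
have the same value at the two branches of every node is an `n`-th power. -/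
theorem core (hGL : Stmt_GoodLift) (hTI : Stmt_TIss) [IsAlgClosed K] [Infinite k]
    (S : SSD K F k F₁ F₂) (H : FFHyp K F) (H₁ : FFHyp k F₁) (H₂ : FFHyp k F₂)
    (g g₁ g₂ : ℕ) (c c₁ c₂ : ℤ) (hR : IsGenus K F g c) (hR₁ : IsGenus k F₁ g₁ c₁)
    (hR₂ : IsGenus k F₂ g₂ c₂) (hnum : g + 1 ≤ g₁ + g₂ + S.nodes.card)
    (n : ℕ) (hn : (n : k) ≠ 0) {G : F} {ψ₁ : F₁} {ψ₂ : F₂} (hG : IsTor S n G ψ₁ ψ₂)
    (hval : ∀ s ∈ S.nodes, ∃ a : k, VanAt s.1 (ψ₁ - algebraMap k F₁ a) ∧
      VanAt s.2 (ψ₂ - algebraMap k F₂ a)) :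
    ∃ t : F, t ^ n = G := by
  have hn0 : n ≠ 0 := by
    rintro rfl
    exact hn Nat.cast_zero
  have hψ₁0 := hG.ne₁ hn0
  have hψ₂0 := hG.ne₂ hn0
  obtain ⟨u, hu1, hu2, hrdu₁, hrdu₂, -, -, hureg⟩ := hGL K F k F₁ F₂ S H H₁ H₂ g g₁ g₂ c c₁ c₂
    hR hR₁ hR₂ hnum ψ₁ ψ₂ ∅ ∅ (fun Q hQ => absurd hQ (Finset.notMem_empty Q))
    (fun Q hQ => absurd hQ (Finset.notMem_empty Q)) hval
  have huGU₁ : S.c₁.IsGU u := ⟨hu1, by rw [hrdu₁]; exact hψ₁0⟩
  have huGU₂ : S.c₂.IsGU u := ⟨hu2, by rw [hrdu₂]; exact hψ₂0⟩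
  have hu0 : u ≠ 0 := huGU₁.ne_zero
  have hunode : ∀ P, S.IsNodeP P → P.ord u = 0 :=
    Fermat.Agent.BAD.H60.ord_eq_zero_of_isNodeP S H.principal huGU₁ huGU₂ hureg
      (fun s hs => by rw [hrdu₁]; exact (hG.ord_eq_zero hn0 H.principal hs).1)
      (fun s hs => by rw [hrdu₂]; exact (hG.ord_eq_zero hn0 H.principal hs).2)
  set gg : F := G / u ^ n with hgg
  have hgg₁ : S.c₁.IsGU gg := hG.gu₁.div (huGU₁.pow n)
  have hgg₂ : S.c₂.IsGU gg := hG.gu₂.div (huGU₂.pow n)
  have hggrd₁ : S.c₁.rd gg = 1 := by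
    rw [hG.gu₁.rd_div (huGU₁.pow n), hG.rd₁, S.c₁.rd_pow hu1, hrdu₁,
      div_self (pow_ne_zero _ hψ₁0)]
  have hggrd₂ : S.c₂.rd gg = 1 := by
    rw [hG.gu₂.rd_div (huGU₂.pow n), hG.rd₂, S.c₂.rd_pow hu2, hrdu₂,
      div_self (pow_ne_zero _ hψ₂0)]
  have hordg : ∀ P : Place K F, P.ord gg = P.ord G - n * P.ord u := by
    intro P
    rw [hgg, ord_div P hG.gu₁.ne_zero (pow_ne_zero _ hu0), ord_pow]
  have hdivg : ∀ P : Place K F, (n : ℤ) ∣ P.ord gg := by
    intro P
    rw [hordg]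
    exact dvd_sub (hG.dvd P) (dvd_mul_right _ _)
  have hnodeg : ∀ P : Place K F, S.IsNodeP P → P.ord gg = 0 := by
    intro P hP
    rw [hordg, hG.node P hP, hunode P hP]
    ring
  obtain ⟨t, ht⟩ := hTI K F k F₁ F₂ S H H₁ H₂ g g₁ g₂ c c₁ c₂ hR hR₁ hR₂ hnum n hn gg
    hgg₁.1 hgg₂.1 hggrd₁ hggrd₂ hdivg hnodeg
  refine ⟨t * u, ?_⟩
  rw [mul_pow, ht, hgg, div_mul_cancel₀ _ (pow_ne_zero _ hu0)]

end Core

end Fermat.Agent.S15.Desc.H83

end
end
-- ==== END Fermat.Agent.S15.Desc.H83_GlueCore
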