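-- GENERATED (merged mirror, NOTES/tools/trim/merge3_helper67.py): 5 modules of the originals, bodies verbatim.
import Fermat.Agent.Zm.S15_L02_001
import Fermat.Agent.Zm.S15_L01_000
import Fermat.Agent.Zm.S56_L10_002
import Fermat.Agent.Zm.S15_L02_003
import Fermat.Agent.Zm.S44_L01_001
import Fermat.Agent.Zm.S35_L02_001
import Fermat.Agent.Zm.S15_L02_004
import Fermat.Agent.Zm.S35_L05_001
import Fermat.Agent.S15.H11_BRDefs
import Fermat.Agent.Zm.S44_L03_001
import Fermat.Agent.Zm.S15_L02_000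
import Fermat.Agent.S05.H14_VarChange
import Fermat.Agent.S05.H15_Val
import Fermat.Agent.Zm.S44_L01_002

-- ==== BEGIN Fermat.Agent.S15.Desc.H40_LocF
section

/-!
# S15 / DESC, ROUTE-F: the local condition at `r` from the flatness of the Kummer extension
(helper40; route of helper66's note "S15 L7 ROUTE-F")

`J = J₀(p)`, `r` a prime not dividing `p`, `y ∈ J(ℚ̄)` with `r y ∈ J(ℚ)`.

* `kumAct r y` : the action of `G_ℚ` on the group `J[r] × ℤ/r` given by
  `σ (v, k) = (σ v + k (σ y - y), k)`.  With this action `J[r] × ℤ/r` is the extension of `ℤ/r`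
  by `J[r]` whose class is the Kummer class of `r y`; as a `G_ℚ`-set it is
  `⋃_{0 ≤ k < r} (k y + J[r])` (via `(v, k) ↦ v + k y`), with the addition "with carry"
  `s ⊕ s' = s + s' - carry · (r y)`.  It is killed by `r`, and `(0, 1)` is fixed by `σ` iff
  `σ y = y`.
* `Stmt_FlatKummer` (**FL-x**, the geometric input, from the method of `NOTES/plan/G_FL.md` applied
  to the finite set of points `⋃_k (k y + J[r])`): this `G_ℚ`-module is flat at `r`.
* `FLAat r` : Fontaine's bound at the prime `r` (`= Stmt_FL_A` of cluster T for this `r`).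
* `stab_mem_bddFon` : FL-x + Fontaine's bound + (GAL) ⟹ the stabiliser of `y` belongs to the
  Fontaine family `H66.bddFon r`.
* `stmt_LOCU_of` : (LOC-U) `Stmt_LOCU p r` from FL-x, Fontaine's bound, (GAL) and
  `IsBddFamily r (padicPlace r) (bddFon r)` (BASE-F, helper66).
-/

set_option autoImplicit false

noncomputable section

namespace Fermat.Agent.S15.Desc.H40

open ModularCurve Fermat.Agent.S15 Fermat.Agent.S15.Desc Fermat.Agent.S56.FL
  Fermat.Agent.Lib.LocalGlobalDense

local notation "Qbar" => AlgebraicClosure ℚ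

attribute [local instance] heckeInst

section Model

variable {J : Type*} [AddCommGroup J] {G : Type*} [Group G] [DistribMulAction G J]

/-- The action of `G` on `J[r] × ℤ/r` attached to `y`: `σ (v, k) = (σ v + k (σ y - y), k)`. -/
def kumAct (r : ℕ) (y : J) (σ : G) (m : TorsR J r × ZMod r) : TorsR J r × ZMod r :=
  (σ • m.1 + m.2.val • toTors r (σ • y - y), m.2)

theorem kumAct_fst (r : ℕ) (y : J) (σ : G) (m : TorsR J r × ZMod r) :
    (kumAct r y σ m).1 = σ • m.1 + m.2.val • toTors r (σ • y - y) := rfl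

theorem kumAct_snd (r : ℕ) (y : J) (σ : G) (m : TorsR J r × ZMod r) :
    (kumAct r y σ m).2 = m.2 := rfl

/-- The Kummer extension is killed by `r`. -/
theorem nsmul_kumExt_eq_zero (r : ℕ) (m : TorsR J r × ZMod r) : r • m = 0 := by
  refine Prod.ext ?_ ?_
  · show r • m.1 = 0
    apply Subtype.ext
    rw [AddSubgroup.coe_nsmul]
    exact mem_torsR.mp m.1.2
  · show r • m.2 = 0
    rw [nsmul_eq_mul, ZMod.natCast_self, zero_mul]

/-- If `σ` fixes the point `(0, 1)` of the Kummer extension of `y`, then `σ y = y`. -/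
theorem smul_eq_of_kumAct_eq {r : ℕ} (hr : 1 < r) {y : J} {σ : G}
    (hy : r • (σ • y - y) = 0)
    (h : kumAct r y σ ((0 : TorsR J r), (1 : ZMod r)) = ((0 : TorsR J r), (1 : ZMod r))) :
    σ • y = y := by
  have h1 : (kumAct r y σ ((0 : TorsR J r), (1 : ZMod r))).1 = 0 := by rw [h]
  rw [kumAct_fst] at h1
  have h2 : ((1 : ZMod r)).val = 1 := by
    have : Fact (1 < r) := ⟨hr⟩
    exact ZMod.val_one r
  simp only [h2, one_smul, smul_zero, zero_add] at h1
  have h3 : ((toTors r (σ • y - y) : TorsR J r) : J) = 0 := by rw [h1]; rfl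
  rw [coe_toTors hy] at h3
  exact sub_eq_zero.mp h3

end Model

/-- **FL-x**: for `r ∤ p` and `y` with `r y` rational, the Kummer extension `J[r] × ℤ/r` (with
the action `kumAct r y`) is the group of `ℚ̄`-points of a finite flat commutative group scheme
over `ℤ_(r)`.

(True: it is the group of points of the finite flat group scheme `[r]⁻¹(ℤ x) / ℤ x`-type
extension, `x = r y ∈ J(ℤ_(r))`.  Route: `NOTES/plan/G_FL.md` for the finite `G_ℚ`-stable set of
points `⋃_{0 ≤ k < r} (k y + J[r])`, plus one translation by the rational point `- r y`.) -/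
def Stmt_FlatKummer : Prop :=
  ∀ (p : ℕ) [NeZero p] (r : ℕ) [Fact r.Prime], ¬ r ∣ p →
    ∀ y : JZero p, r • y ∈ ratPts p →
      Fermat.Agent.R.IsFlatGaloisModule r (TorsR (JZero p) r × ZMod r)
        (kumAct (G := GalQ) r y)

/-- Fontaine's bound at the prime `r` for flat Galois modules killed by `r`
(`Fermat.Agent.S56.FL.Stmt_FL_A` for the prime `r`, without the hypothesis `r ≠ 2`). -/
def FLAat (r : ℕ) [Fact r.Prime] : Prop :=
  ∀ (M : Type) [AddCommGroup M] (act : GalQ → M → M),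
    (∀ m : M, r • m = 0) → Fermat.Agent.R.IsFlatGaloisModule r M act →
    ∃ (L : IntermediateField ℚ_[r] (PadicAlgCl r)) (_ : FiniteDimensional ℚ_[r] L),
      Normal ℚ_[r] L ∧ IsBddField r L ∧
        ∀ σ : Gp r, σ ∈ L.fixingSubgroup → ∀ m : M, act (localGaloisToGlobal r σ) m = m

/-- Fontaine's bound at an odd prime, from cluster T. -/
theorem flaAt_of_FL_A (hFLA : Stmt_FL_A) (r : ℕ) [Fact r.Prime] (hr2 : r ≠ 2) : FLAat r :=
  fun M _ act hkill hflat => hFLA r hr2 M act hkill hflat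

/-- FL-x + Fontaine's bound + (GAL): the stabiliser of an `r`-division point of a rational point
belongs to the Fontaine family. -/
theorem stab_mem_bddFon (hFK : Stmt_FlatKummer) {p : ℕ} [NeZero p] {r : ℕ} [Fact r.Prime]
    (hFLA : FLAat r) (hGAL : Stmt_GALfin p) (hrp : ¬ r ∣ p)
    (y : JZero p) (hy : r • y ∈ ratPts p) :
    MulAction.stabilizer GalQ y ∈ H66.bddFon r := by
  have hr : r.Prime := Fact.out
  refine ⟨?_, ?_⟩
  · obtain ⟨S, hS⟩ := hGAL y
    exact ⟨S, fun σ hσ => MulAction.mem_stabilizer_iff.mpr (hS σ hσ)⟩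
  · obtain ⟨L, hfin, hN, hb, hL⟩ :=
      hFLA (TorsR (JZero p) r × ZMod r) (kumAct (G := GalQ) r y)
        (fun m => nsmul_kumExt_eq_zero r m) (hFK p r hrp y hy)
    refine ⟨L, hfin, hN, hb, fun τ hτ => ?_⟩
    rw [MulAction.mem_stabilizer_iff]
    refine smul_eq_of_kumAct_eq hr.one_lt ?_ (hL τ hτ _)
    rw [nsmul_sub, smul_comm r (localGaloisToGlobal r τ) y, mem_ratPts.mp hy, sub_self]

/-- **(LOC-U) by ROUTE-F.** -/
theorem stmt_LOCU_of (hFK : Stmt_FlatKummer) {p : ℕ} [NeZero p] {r : ℕ} [Fact r.Prime]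
    (hFLA : FLAat r) (hGAL : Stmt_GALfin p) (hrp : ¬ r ∣ p)
    (hBase : IsBddFamily r (padicPlace r) (H66.bddFon r)) :
    Stmt_LOCU p r := by
  refine ⟨padicPlace r, H66.padicPlace_liesOver r, H66.bddFon r, hBase, ?_⟩
  intro k e _ y hy
  refine ⟨MulAction.stabilizer GalQ y, stab_mem_bddFon hFK hFLA hGAL hrp y hy, fun σ hσ => ?_⟩
  rw [MulAction.mem_stabilizer_iff.mp hσ, sub_self, smul_zero]

end Fermat.Agent.S15.Desc.H40

end
end
-- ==== END Fermat.Agent.S15.Desc.H40_LocF

-- ==== BEGIN Fermat.Agent.S15.FG.H11_Bridge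
section
attribute [local instance 10000] SubalgebraClass.toAlgebra
attribute [local instance 10000] HahnSeries.powerSeriesAlgebra

set_option autoImplicit false
set_option linter.style.haveILetI false
set_option synthInstance.maxHeartbeats 400000
set_option maxHeartbeats 1000000

noncomputable section

open AlgebraicCurve ModularCurve Fermat.Agent.S28.H73 Fermat.Agent.RED Fermat.Agent.RED.H73

namespace Fermat.Agent.S15.FG.H11

/-- An injective coefficient map preserves the order of a Laurent series. -/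
theorem order_coeffMap_of_injective {R S : Type*} [CommRing R] [CommRing S] (f : R →+* S)
    (hf : Function.Injective f) (x : LaurentSeries R) : (coeffMap f x).order = x.order := by
  by_cases hx : x = 0
  · rw [hx, map_zero, HahnSeries.order_zero, HahnSeries.order_zero]
  have hx' : coeffMap f x ≠ 0 := by
    intro h
    apply hx
    ext n
    have := congrArg (fun y => HahnSeries.coeff y n) h
    simp only [coeffMap_coeff, HahnSeries.coeff_zero] at this
    rw [HahnSeries.coeff_zero]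
    exact hf (this.trans (map_zero f).symm)
  apply le_antisymm
  · apply HahnSeries.order_le_of_coeff_ne_zero
    rw [coeffMap_coeff]
    intro h
    exact hx (HahnSeries.coeff_order_eq_zero.mp (hf (h.trans (map_zero f).symm)))
  · apply HahnSeries.order_le_of_coeff_ne_zero
    intro h
    apply hx'
    apply HahnSeries.coeff_order_eq_zero.mp
    rw [coeffMap_coeff, h, map_zero]

theorem jqModC_order_neg_one (k : Type) [Field k] : (jqModC k).order = -1 := by
  have h := JL_order k 1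
  have e : JL k 1 = jqModC k := qExpand_one_apply _
  rw [e] at h
  rw [h]
  norm_num

section Transport

variable (N ℓ : ℕ) [NeZero N]

/-- **Transport**: for a map `r₀` of places with values in the places of a field `E` which IS the
reduced field, and with the existential form of the conservation law, there is a Frobenius `φ`
of `E` such that the reductions of Galois-stable divisor classes are `φ`-stable. -/
theorem fg_transport (hℓ : ℓ.Prime) (hℓN : ¬ ℓ ∣ N)
    (A : ValuationSubring (AlgebraicClosure ℚ)) (hA : A.LiesOverPrime ℓ)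
    (E : IntermediateField (kV A) (LaurentSeries (kV A)))
    (e : redField A (modularFunctionFieldBar N) (hasScale_laurentBaseChange A N) = E)
    (hj : jqModC (kV A) ∈ E)
    (r₀ : Place (AlgebraicClosure ℚ) ↥(modularFunctionFieldBar N) → Place (kV A) ↥E)
    (hgood : ∀ D : Divisor (AlgebraicClosure ℚ) ↥(modularFunctionFieldBar N), D.IsPrincipal →
      ∃ (x : ↥(gaussValSub A (modularFunctionFieldBar N) (hasScale_laurentBaseChange A N)))
        (xb : ↥E), IsUnit x ∧
        gaussResF A (hasScale_laurentBaseChange A N) x = (xb : LaurentSeries (kV A)) ∧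
        (∀ P, D P = P.ord (x : ↥(modularFunctionFieldBar N))) ∧
        (∀ Q, Finsupp.mapDomain r₀ D Q = Q.ord xb)) :
    IsFF (kV A) ↥E ∧
    ∃ (φ : SemilinearAut (kV A) ↥E) (P₀ : Place (kV A) ↥E) (x : ↥E),
      (∀ a : kV A, SemilinearAut.baseAut φ a = a ^ ℓ) ∧ φ • P₀ = P₀ ∧
      Transcendental (kV A) x ∧ φ • x = x ∧
      ∀ D : Divisor (AlgebraicClosure ℚ) ↥(modularFunctionFieldBar N),
        (∀ σ : AlgebraicClosure ℚ ≃ₐ[ℚ] AlgebraicClosure ℚ,
          arithmeticGalois (modularFunctionFieldFull N) σ • D - D ∈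
            Divisor.principal (K := AlgebraicClosure ℚ) (F := ↥(modularFunctionFieldBar N))) →
        φ • Finsupp.mapDomain r₀ D - Finsupp.mapDomain r₀ D ∈
          Divisor.principal (K := kV A) (F := ↥E) := by
  subst e
  haveI : IsAlgClosed (kV A) := isAlgClosed_kV A
  have hFF := H95.stmt_HKA_isFF N
  have hFt := isFF_redField_bar N ℓ hℓ hℓN A hA
  have hr₀ : IsRed A (hasScale_laurentBaseChange A N) r₀ := by
    refine H51.isRed_of_good A (hasScale_laurentBaseChange A N) hFF r₀ fun D' hD' => ?_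
    obtain ⟨x, xb, hu, hx, hE, hQ⟩ := hgood D' hD'
    refine ⟨x, hu, hE, fun Q => ?_⟩
    rw [hQ Q]
    congr 1
    exact Subtype.ext hx.symm
  obtain ⟨σ₀, hσ₀⟩ := Fermat.Agent.Lib.FrobExists.exists_isFrobeniusAt ℓ hℓ A hA
  have hdec := hσ₀.mem_decompositionSubgroup
  have hinj := H33.autkHom_injective A σ₀.toRingEquiv
    (H33.mem_iff_of_mem_decompositionSubgroup A hdec)
  have hcoe : ∀ y : ↥(redField A (modularFunctionFieldBar N) (hasScale_laurentBaseChange A N)),
      ((H33.redGalois A (modularFunctionFieldFull N) (hasScale_laurentBaseChange A N) σ₀ hdec • y :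
          ↥(redField A (modularFunctionFieldBar N) (hasScale_laurentBaseChange A N))) :
        LaurentSeries (kV A)) =
      coeffMap (H33.autkHom A σ₀.toRingEquiv (H33.mem_iff_of_mem_decompositionSubgroup A hdec))
        (y : LaurentSeries (kV A)) := fun y => rfl
  have hord : ∀ y : ↥(redField A (modularFunctionFieldBar N) (hasScale_laurentBaseChange A N)),
      ((H33.redGalois A (modularFunctionFieldFull N) (hasScale_laurentBaseChange A N) σ₀ hdec • y :
          ↥(redField A (modularFunctionFieldBar N) (hasScale_laurentBaseChange A N))) :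
        LaurentSeries (kV A)).order = (y : LaurentSeries (kV A)).order := by
    intro y
    rw [hcoe y]
    exact order_coeffMap_of_injective _ hinj _
  refine ⟨hFt, H33.redGalois A (modularFunctionFieldFull N) (hasScale_laurentBaseChange A N)
    σ₀ hdec, KD.H22.laurentPlace _ ⟨jqModC (kV A), hj⟩ (jqModC_order_neg_one (kV A)),
    ⟨jqModC (kV A), hj⟩, ?_, ?_, ?_, ?_, ?_⟩
  · intro a
    exact H33.autkHom_frobenius A hσ₀ a
  · apply Place.ext
    rw [SemilinearAut.smul_toValuationSubring]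
    ext x
    rw [ValuationSubring.mem_pointwise_smul_iff_inv_smul_mem, KD.H22.mem_laurentPlace_iff,
      KD.H22.mem_laurentPlace_iff]
    have h1 := hord ((H33.redGalois A (modularFunctionFieldFull N)
      (hasScale_laurentBaseChange A N) σ₀ hdec)⁻¹ • x)
    rw [smul_inv_smul] at h1
    rw [← h1]
    constructor
    · rintro (h | h)
      · left
        rwa [smul_eq_zero_iff_eq] at h
      · right
        exact h
    · rintro (h | h)
      · left
        rw [h, smul_zero]
      · right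
        exact h
  · intro halg
    apply transcendental_jqModC (kV A)
    have := halg.algHom
      (redField A (modularFunctionFieldBar N) (hasScale_laurentBaseChange A N)).val
    exact this
  · apply Subtype.ext
    rw [hcoe]
    exact coeffMap_jqModC _
  · intro D hD
    have hgr : ∀ P : Place (AlgebraicClosure ℚ) ↥(modularFunctionFieldBar N),
        r₀ (arithmeticGalois (modularFunctionFieldFull N) σ₀ • P)
          = H33.redGalois A (modularFunctionFieldFull N) (hasScale_laurentBaseChange A N)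
              σ₀ hdec • r₀ P := fun P =>
      H33.isRed_decomposition A (modularFunctionFieldFull N)
        (hasScale_laurentBaseChange A N) hFF hFt (H42.fracScalable_laurentBaseChange A N)
        hdec hr₀ P
    have h1 := H36.mapDomain_smul_eq A (hasScale_laurentBaseChange A N)
      (arithmeticGalois (modularFunctionFieldFull N) σ₀) _ hgr D
    rw [← h1, ← Finsupp.mapDomain_sub]
    exact H36.mapDomain_mem_principal A (hasScale_laurentBaseChange A N) hr₀ (hD σ₀)

end Transport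

/-- **FG-BRIDGE**. -/
theorem stmt_FGbridge {p : ℕ} (hp : p.Prime) : Stmt_FGbridge p := by
  intro ℓ hℓ hℓp A hA h
  haveI : NeZero p := ⟨hp.ne_zero⟩
  have hℓN : ¬ ℓ ∣ p := fun hdvd => hℓp ((Nat.prime_dvd_prime_iff_eq hℓ hp).mp hdvd)
  obtain ⟨hFF, φ, P₀, x, h1, h2, h3, h4, h5⟩ := fg_transport p ℓ hℓ hℓN A hA _
    (stmt_GA p ℓ hℓ hℓN A hA) (jqModC_mem_full (kV A) p) (placeReductionModL h)
    (fun D' hD' => Fermat.Agent.S18.goodDiv_of_mem_principal
      (isPlaceReductionModL_placeReductionModL h) h.choose_spec.2 hD')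
  refine ⟨hFF, φ, P₀, x, h1, h2, h3, h4, fun D hD => h5 _ fun σ => ?_⟩
  have hσ := hD σ
  rw [galois_smul_pic0_def, SemilinearAut.pic0_smul_mk] at hσ
  have h6 := (QuotientAddGroup.eq_iff_sub_mem).mp hσ
  rw [AddSubgroup.mem_addSubgroupOf] at h6
  exact h6

/-- **FG**: the reduction modulo `ℓ ≠ p` of the rational points of `J₀(p)` is finitely
generated (it is finite). -/
theorem stmt_redFG {p : ℕ} (hp : p.Prime) : Stmt_redFG p :=
  stmt_redFG_of_bridge (stmt_FGbridge hp)

end Fermat.Agent.S15.FG.H11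

end
end
-- ==== END Fermat.Agent.S15.FG.H11_Bridge

-- ==== BEGIN Fermat.Agent.S15.H2_GH
section

/-!
# S15, package GH (helper2): Galois commutes with the Hecke ring of `J₀(p)`

`stmt_GH p : Stmt_GH p`, unconditional, from `Fermat.Agent.GTor.H2.stmt_GalHecke`.
-/

set_option autoImplicit false

namespace Fermat.Agent.S15.H2

/-- **GH**: `σ • (t • z) = t • (σ • z)` for `t` in the Hecke ring, `z ∈ J₀(p)`. -/
theorem stmt_GH (p : ℕ) [NeZero p] : Fermat.Agent.S15.Stmt_GH p :=
  Fermat.Agent.S15.stmt_GH_of_generators p (Fermat.Agent.GTor.H2.stmt_GalHecke p)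

end Fermat.Agent.S15.H2

end
-- ==== END Fermat.Agent.S15.H2_GH

-- ==== BEGIN Fermat.Agent.S15.H87_BR2
section

set_option autoImplicit false

namespace Fermat.Agent.S15.H87

open WeierstrassCurve WeierstrassCurve.Affine WeierstrassCurve.Affine.Point
open Fermat.Agent.Lib.Torsion.H11 Fermat.Agent.S12.H11 Fermat.Agent.S15.H11

/-! ### General facts on integral points -/

section general

variable (W : WeierstrassCurve ℤ) (V : ValuationSubring QB)

/-- The equation of `W` over `Q̄` with integer coefficients. -/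
lemma equation_EB {X Y : QB} (h : (EB W).Equation X Y) :
    Y ^ 2 + ((W.a₁ : ℤ) : QB) * X * Y + ((W.a₃ : ℤ) : QB) * Y
      = X ^ 3 + ((W.a₂ : ℤ) : QB) * X ^ 2 + ((W.a₄ : ℤ) : QB) * X + ((W.a₆ : ℤ) : QB) := by
  rw [Affine.equation_iff, EB_a₁, EB_a₂, EB_a₃, EB_a₄, EB_a₆] at h
  exact h

/-- A point with integral `x`-coordinate has integral `y`-coordinate. -/
lemma val_y_le_one {X Y : QB} (h : (EB W).Equation X Y) (hX : V.valuation X ≤ 1) :
    V.valuation Y ≤ 1 := by
  by_contra hcon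
  have hy : 1 < V.valuation Y := not_le.1 hcon
  have e := equation_EB W h
  have hi : ∀ n : ℤ, V.valuation ((n : ℤ) : QB) ≤ 1 :=
    fun n => Fermat.Agent.S05.H15.valuation_intCast_le_one V n
  have hy0 : (0 : V.ValueGroup) < V.valuation Y := lt_trans zero_lt_one hy
  have hc : V.valuation (((W.a₁ : ℤ) : QB) * X + ((W.a₃ : ℤ) : QB)) ≤ 1 :=
    Valuation.map_add_le _ (by rw [map_mul]; exact mul_le_one' (hi _) hX) (hi _)
  have h1 : V.valuation ((((W.a₁ : ℤ) : QB) * X + ((W.a₃ : ℤ) : QB)) * Y) < V.valuation (Y ^ 2) := by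
    rw [map_mul, map_pow, pow_two]
    calc V.valuation (((W.a₁ : ℤ) : QB) * X + ((W.a₃ : ℤ) : QB)) * V.valuation Y
        ≤ 1 * V.valuation Y := by gcongr
      _ < V.valuation Y * V.valuation Y := mul_lt_mul_of_pos_right hy hy0
  have hL : V.valuation (Y ^ 2 + (((W.a₁ : ℤ) : QB) * X + ((W.a₃ : ℤ) : QB)) * Y)
      = V.valuation (Y ^ 2) := Valuation.map_add_eq_of_lt_left _ h1
  have hL1 : 1 < V.valuation (Y ^ 2 + (((W.a₁ : ℤ) : QB) * X + ((W.a₃ : ℤ) : QB)) * Y) := by
    rw [hL, map_pow]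
    exact one_lt_pow₀ hy (by norm_num)
  have hR : V.valuation (X ^ 3 + ((W.a₂ : ℤ) : QB) * X ^ 2 + ((W.a₄ : ℤ) : QB) * X
      + ((W.a₆ : ℤ) : QB)) ≤ 1 := by
    refine Valuation.map_add_le _ (Valuation.map_add_le _ (Valuation.map_add_le _ ?_ ?_) ?_) (hi _)
    · rw [map_pow]; exact pow_le_one₀ zero_le hX
    · rw [map_mul, map_pow]; exact mul_le_one' (hi _) (pow_le_one₀ zero_le hX)
    · rw [map_mul]; exact mul_le_one' (hi _) hX
  have e' : Y ^ 2 + (((W.a₁ : ℤ) : QB) * X + ((W.a₃ : ℤ) : QB)) * Y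
      = X ^ 3 + ((W.a₂ : ℤ) : QB) * X ^ 2 + ((W.a₄ : ℤ) : QB) * X + ((W.a₆ : ℤ) : QB) := by
    linear_combination e
  rw [e'] at hL1
  exact absurd hL1 (not_lt.2 hR)

/-- An integral point at which `F_Y = 2 Y + a₁ X + a₃` is a unit lies in the identity
component. -/
lemma inZeroComponentAt_of_unit {X Y : QB} (hns : (EB W).Nonsingular X Y)
    (hX : V.valuation X ≤ 1) (hY : V.valuation Y ≤ 1)
    (hunit : V.valuation (2 * Y + ((W.a₁ : ℤ) : QB) * X + ((W.a₃ : ℤ) : QB)) = 1) :
    W.InZeroComponentAt V (Point.some X Y hns) := by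
  right
  have hXV : X ∈ V := (V.valuation_le_one_iff X).mp hX
  have hYV : Y ∈ V := (V.valuation_le_one_iff Y).mp hY
  refine ⟨X, Y, hns, rfl, Or.inr ⟨hXV, hYV, ?_⟩⟩
  set x : V := ⟨X, hXV⟩ with hx
  set y : V := ⟨Y, hYV⟩ with hy
  have heq := equation_EB W hns.1
  have hVeq : y ^ 2 + ((W.a₁ : ℤ) : V) * x * y + ((W.a₃ : ℤ) : V) * y
      = x ^ 3 + ((W.a₂ : ℤ) : V) * x ^ 2 + ((W.a₄ : ℤ) : V) * x + ((W.a₆ : ℤ) : V) := by
    apply Subtype.ext
    push_cast
    simp only [hx, hy]
    exact heq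
  have hres := congrArg (IsLocalRing.residue V) hVeq
  simp only [map_add, map_mul, map_pow, map_intCast] at hres
  rw [Affine.nonsingular_iff', Affine.equation_iff]
  have e1 : (W.map (Int.castRingHom (IsLocalRing.ResidueField V))).toAffine.a₁ =
      (((W.a₁ : ℤ)) : IsLocalRing.ResidueField V) := by simp
  have e2 : (W.map (Int.castRingHom (IsLocalRing.ResidueField V))).toAffine.a₂ =
      (((W.a₂ : ℤ)) : IsLocalRing.ResidueField V) := by simp
  have e3 : (W.map (Int.castRingHom (IsLocalRing.ResidueField V))).toAffine.a₃ =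
      (((W.a₃ : ℤ)) : IsLocalRing.ResidueField V) := by simp
  have e4 : (W.map (Int.castRingHom (IsLocalRing.ResidueField V))).toAffine.a₄ =
      (((W.a₄ : ℤ)) : IsLocalRing.ResidueField V) := by simp
  have e6 : (W.map (Int.castRingHom (IsLocalRing.ResidueField V))).toAffine.a₆ =
      (((W.a₆ : ℤ)) : IsLocalRing.ResidueField V) := by simp
  rw [e1, e2, e3, e4, e6]
  refine ⟨hres, Or.inr ?_⟩
  have hu : IsUnit (2 * y + ((W.a₁ : ℤ) : V) * x + ((W.a₃ : ℤ) : V)) := by
    rw [V.valuation_eq_one_iff]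
    have hcoe : ((2 * y + ((W.a₁ : ℤ) : V) * x + ((W.a₃ : ℤ) : V) : V) : QB)
        = 2 * Y + ((W.a₁ : ℤ) : QB) * X + ((W.a₃ : ℤ) : QB) := by
      push_cast
      rfl
    rw [hcoe]
    exact hunit
  have := (IsLocalRing.residue_ne_zero_iff_isUnit _).mpr hu
  intro h0
  apply this
  rw [map_add, map_add, map_mul, map_mul, map_ofNat, map_intCast, map_intCast]
  exact h0

end general

/-! ### The model at `2` -/

section model

open Fermat.Agent.S05 Fermat.Agent.S13.WP3

variable {W : WeierstrassCurve ℤ} {A : ValuationSubring QB} {e₁ e₂ e₃ : QB}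

/-- `|2| < 1`. -/
lemma val_two_lt (hA : A.LiesOverPrime 2) : A.valuation (2 : QB) < 1 := by
  have h : ((2 : ℕ) : QB) ∈ A.nonunits := hA
  rw [ValuationSubring.mem_nonunits_iff] at h
  simpa using h

/-- `a₁` is a unit at `2`. -/
lemma val_a₁ (hA : A.LiesOverPrime 2) (hc : ¬ (2 : ℤ) ∣ W.c₄) :
    A.valuation ((W.a₁ : ℤ) : QB) = 1 := by
  apply Fermat.Agent.S05.H15.valuation_intCast_eq_one_of_not_dvd Nat.prime_two hA
  intro h
  apply hc
  obtain ⟨k, hk⟩ := h
  refine ⟨8 * k ^ 4 + 16 * k ^ 2 * W.a₂ + 8 * W.a₂ ^ 2 - 12 * W.b₄, ?_⟩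
  simp only [WeierstrassCurve.c₄, WeierstrassCurve.b₂]
  rw [hk]
  ring

/-- The WP3 model of `W` centred at the node over `e₁`. -/
noncomputable def model2 (W : WeierstrassCurve ℤ) (e₁ e₂ e₃ : QB) : Affine QB :=
  ⟨1, (((W.a₂ : ℤ) : QB) + 3 * e₁) / ((W.a₁ : ℤ) : QB) ^ 2, 0,
    (e₂ - e₁) * (e₃ - e₁) / ((W.a₁ : ℤ) : QB) ^ 4, 0⟩

/-- The `y`-coordinate of the `2`-torsion point over `e₁`. -/
noncomputable def t2 (W : WeierstrassCurve ℤ) (e₁ : QB) : QB :=
  -(((W.a₁ : ℤ) : QB) * e₁ + ((W.a₃ : ℤ) : QB)) / 2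

lemma varChange2 (H : TwoTors (EB W) e₁ e₂ e₃) (ha : ((W.a₁ : ℤ) : QB) ≠ 0) :
    H14.IsVarChange (model2 W e₁ e₂ e₃) (EB W) ((W.a₁ : ℤ) : QB) e₁ 0 (t2 W e₁) := by
  have hb2 := H.hb2
  have hb4 := H.hb4
  have hb6 := H.hb6
  simp only [WeierstrassCurve.b₂, WeierstrassCurve.b₄, WeierstrassCurve.b₆] at hb2 hb4 hb6
  rw [EB_a₁, EB_a₂] at hb2
  rw [EB_a₁, EB_a₃, EB_a₄] at hb4
  rw [EB_a₃, EB_a₆] at hb6
  have h2 : (2 : QB) ≠ 0 := two_ne_zero
  refine ⟨ha, ?_, ?_, ?_, ?_, ?_⟩
  · rw [EB_a₁]; simp [model2]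
  · rw [EB_a₁, EB_a₂]
    simp only [model2]
    field_simp
    ring
  · rw [EB_a₁, EB_a₃]
    simp only [model2, t2]
    field_simp
    ring
  · rw [EB_a₁, EB_a₂, EB_a₃, EB_a₄]
    simp only [model2, t2]
    field_simp
    linear_combination (-1 : QB) * hb4 - e₁ * hb2
  · rw [EB_a₁, EB_a₂, EB_a₃, EB_a₄, EB_a₆]
    simp only [model2, t2]
    field_simp
    linear_combination (-1 : QB) * hb6 - 2 * e₁ * hb4 - e₁ ^ 2 * hb2

lemma modelHyp2 (hA : A.LiesOverPrime 2) (hc : ¬ (2 : ℤ) ∣ W.c₄)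
    (hN : NodeRoots W A e₁ e₂ e₃) : ModelHyp2 A (model2 W e₁ e₂ e₃) := by
  have ha1 := val_a₁ hA hc
  have h4 : A.valuation (4 : QB) ≠ 0 := by
    rw [Valuation.ne_zero_iff]; norm_num
  have h13 : A.valuation (e₃ - e₁) * A.valuation (4 : QB) = 1 := by
    rw [← map_mul, mul_comm]; exact hN.d13
  refine ⟨rfl, rfl, rfl, ?_, ?_, ?_, val_two_lt hA⟩
  · show A.valuation ((((W.a₂ : ℤ) : QB) + 3 * e₁) / ((W.a₁ : ℤ) : QB) ^ 2) ≤ 1
    rw [map_div₀, map_pow, ha1, one_pow, div_one]
    refine Valuation.map_add_le _ (Fermat.Agent.S05.H15.valuation_intCast_le_one A _) ?_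
    rw [map_mul]
    have h3 : A.valuation (3 : QB) ≤ 1 := by
      have := Fermat.Agent.S05.H15.valuation_intCast_le_one A 3
      rwa [Int.cast_ofNat] at this
    exact mul_le_one' h3 hN.e1_le
  · show A.valuation ((e₂ - e₁) * (e₃ - e₁) / ((W.a₁ : ℤ) : QB) ^ 4) < 1
    rw [map_div₀, map_pow, ha1, one_pow, div_one, map_mul]
    calc A.valuation (e₂ - e₁) * A.valuation (e₃ - e₁)
        < A.valuation (4 : QB) * A.valuation (e₃ - e₁) := by
          apply mul_lt_mul_of_pos_right hN.d12_lt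
          rw [zero_lt_iff]
          intro h0
          rw [h0, zero_mul] at h13
          exact zero_ne_one h13
      _ = 1 := by rw [mul_comm]; exact h13
  · show (e₂ - e₁) * (e₃ - e₁) / ((W.a₁ : ℤ) : QB) ^ 4 ≠ 0
    have hne1 : ((W.a₁ : ℤ) : QB) ≠ 0 := by
      intro h0
      rw [h0, _root_.map_zero] at ha1
      exact zero_ne_one ha1
    have hne13 : e₃ - e₁ ≠ 0 := by
      intro h0
      rw [h0, _root_.map_zero, zero_mul] at h13
      exact zero_ne_one h13
    exact div_ne_zero (mul_ne_zero (sub_ne_zero.2 (Ne.symm hN.ne12)) hne13) (pow_ne_zero _ hne1)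

end model

/-! ### The statements at `2` -/

section main

open Fermat.Agent.S05 Fermat.Agent.S13.WP3

variable {W : WeierstrassCurve ℤ} {A : ValuationSubring QB} {e₁ e₂ e₃ : QB}

/-- On the model, `|x| < 1` implies `|y| < 1`. -/
lemma model_y_lt {M : Affine QB} (hyp : ModelHyp2 A M) {x y : QB} (he : M.Equation x y)
    (hx : A.valuation x < 1) : A.valuation y < 1 := by
  by_contra hcon
  have hy : 1 ≤ A.valuation y := not_lt.1 hcon
  have e := (H6P.pg_equation_iff hyp.a₁ hyp.a₃ hyp.a₆ x y).1 he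
  have hyx : A.valuation (y + x) = A.valuation y :=
    Valuation.map_add_eq_of_lt_left _ (lt_of_lt_of_le hx hy)
  have hL : 1 ≤ A.valuation (y * (y + x)) := by
    rw [map_mul, hyx]
    exact one_le_mul_of_one_le_of_one_le hy hy
  have hR : A.valuation (x * (x ^ 2 + M.a₂ * x + M.a₄)) < 1 := by
    rw [map_mul]
    have h1 : A.valuation (x ^ 2 + M.a₂ * x + M.a₄) ≤ 1 := by
      refine Valuation.map_add_le _ (Valuation.map_add_le _ ?_ ?_) hyp.b_lt.le
      · rw [map_pow]; exact pow_le_one₀ zero_le hx.le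
      · rw [map_mul]; exact mul_le_one' hyp.a_le hx.le
    calc A.valuation x * A.valuation (x ^ 2 + M.a₂ * x + M.a₄)
        ≤ A.valuation x * 1 := by gcongr
      _ = A.valuation x := mul_one _
      _ < 1 := hx
  have e' : y * (y + x) = x * (x ^ 2 + M.a₂ * x + M.a₄) := by linear_combination e
  rw [e'] at hL
  exact absurd hR (not_lt.2 hL)

/-- The identity component in the two coordinate systems. -/
lemma e0_iff {M : Affine QB} {a t : QB} (hvc : H14.IsVarChange M (EB W) a e₁ 0 t)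
    (ha : A.valuation a = 1) (P' : M.Point) :
    (hvc.addEquiv P' = 0 ∨ 1 ≤ A.valuation (xc (EB W) (hvc.addEquiv P') - e₁)) ↔
      Fermat.Agent.S13.WP3.InE0 A P' := by
  rcases P' with _ | ⟨x, y, h⟩
  · constructor
    · intro _; trivial
    · intro _; exact Or.inl rfl
  · rw [hvc.addEquiv_some h]
    have hx : xc (EB W) (Point.some (H14.fx a e₁ x) (H14.fy a 0 t x y)
        ((hvc.nonsingular_iff x y).2 h)) - e₁ = a ^ 2 * x := by
      rw [xc_some, H14.fx]; ring
    rw [hx, map_mul, map_pow, ha, one_pow, one_mul]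
    constructor
    · rintro (h0 | h1)
      · exact absurd h0 (Point.some_ne_zero _)
      · exact h1
    · intro h1; exact Or.inr h1

/-- (BR-E0 at `2`). -/
theorem stmt_BRe0_two : Stmt_BRe0 2 := by
  intro W _ _ hc A hA e₁ e₂ e₃ hN P hP n
  have ha1 := val_a₁ hA hc
  have hne1 : ((W.a₁ : ℤ) : QB) ≠ 0 := by
    intro h0
    rw [h0, _root_.map_zero] at ha1
    exact zero_ne_one ha1
  have hvc := varChange2 hN.tt hne1
  have hyp := modelHyp2 hA hc hN
  obtain ⟨P', rfl⟩ := hvc.addEquiv.surjective P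
  have h0 : Fermat.Agent.S13.WP3.InE0 A P' := (e0_iff hvc ha1 P').1 hP
  have hn : Fermat.Agent.S13.WP3.InE0 A (n • P') := H6P.pg_nsmul_InE0 H6.E0_add hyp P' h0 n
  rw [← map_nsmul]
  exact (e0_iff hvc ha1 (n • P')).2 hn

/-- (BR-ZC at `2`). -/
theorem stmt_BRzc_two : Stmt_BRzc 2 := by
  intro W _ _ hc A hA e₁ e₂ e₃ hN P hP0
  have ha1 := val_a₁ hA hc
  have hne1 : ((W.a₁ : ℤ) : QB) ≠ 0 := by
    intro h0
    rw [h0, _root_.map_zero] at ha1
    exact zero_ne_one ha1
  have hvc := varChange2 hN.tt hne1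
  have hyp := modelHyp2 hA hc hN
  have h2 := val_two_lt hA
  obtain ⟨P', rfl⟩ := hvc.addEquiv.surjective P
  rcases P' with _ | ⟨x, y, h⟩
  · exact absurd rfl hP0
  rw [hvc.addEquiv_some h]
  set X := H14.fx ((W.a₁ : ℤ) : QB) e₁ x with hXdef
  set Y := H14.fy ((W.a₁ : ℤ) : QB) 0 (t2 W e₁) x y with hYdef
  have hns : (EB W).Nonsingular X Y := (hvc.nonsingular_iff x y).2 h
  have hX : X - e₁ = ((W.a₁ : ℤ) : QB) ^ 2 * x := by
    rw [hXdef, H14.fx]; ring
  have hvX : A.valuation (X - e₁) = A.valuation x := by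
    rw [hX, map_mul, map_pow, ha1, one_pow, one_mul]
  have hFy : 2 * Y + ((W.a₁ : ℤ) : QB) * X + ((W.a₃ : ℤ) : QB)
      = ((W.a₁ : ℤ) : QB) ^ 3 * (2 * y + x) := by
    rw [hXdef, hYdef, H14.fx, H14.fy, t2]; ring
  have hFx : ((W.a₁ : ℤ) : QB) * Y
        - (3 * X ^ 2 + 2 * ((W.a₂ : ℤ) : QB) * X + ((W.a₄ : ℤ) : QB))
      = ((W.a₁ : ℤ) : QB) ^ 4 * (y - (3 * x ^ 2 + 2 * (model2 W e₁ e₂ e₃).a₂ * x
          + (model2 W e₁ e₂ e₃).a₄)) := by
    have h4 := hvc.h₄
    have h2' := hvc.h₂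
    rw [EB_a₁, EB_a₂, EB_a₃, EB_a₄] at h4
    rw [EB_a₁, EB_a₂] at h2'
    rw [hXdef, hYdef, H14.fx, H14.fy]
    linear_combination h4 + 2 * ((W.a₁ : ℤ) : QB) ^ 2 * x * h2'
  show W.InZeroComponentAt A (Point.some X Y hns) ↔ 1 ≤ A.valuation (xc (EB W) (Point.some X Y hns) - e₁)
  rw [xc_some, hvX]
  constructor
  · intro hZ
    rcases Fermat.Agent.S12.H66.zc_unpack W A X Y hns hZ with hXn | ⟨hXm, hYm, hder⟩
    · -- `X ∉ A`
      have hX1 : 1 < A.valuation X := by
        by_contra hle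
        exact hXn ((A.valuation_le_one_iff X).1 (not_lt.1 hle))
      rw [← hvX, Valuation.map_sub_eq_of_lt_left _ (lt_of_le_of_lt hN.e1_le hX1)]
      exact hX1.le
    · by_contra hlt
      rw [not_le] at hlt
      have hy := model_y_lt hyp h.1 hlt
      rcases hder with hder | hder
      · apply hder
        rw [hFx, map_mul, map_pow, ha1, one_pow, one_mul]
        refine lt_of_le_of_lt (A.valuation.map_sub _ _) (max_lt hy ?_)
        refine lt_of_le_of_lt (A.valuation.map_add _ _) (max_lt ?_ hyp.b_lt)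
        refine lt_of_le_of_lt (A.valuation.map_add _ _) (max_lt ?_ ?_)
        · rw [map_mul, map_pow]
          have h3 : A.valuation (3 : QB) ≤ 1 := by
            have := Fermat.Agent.S05.H15.valuation_intCast_le_one A 3
            rwa [Int.cast_ofNat] at this
          calc A.valuation (3 : QB) * A.valuation x ^ 2 ≤ 1 * A.valuation x ^ 2 := by gcongr
            _ = A.valuation x ^ 2 := one_mul _
            _ < 1 := pow_lt_one₀ zero_le hlt (by norm_num)
        · rw [map_mul, map_mul]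
          calc A.valuation (2 : QB) * A.valuation (model2 W e₁ e₂ e₃).a₂ * A.valuation x
              ≤ 1 * 1 * A.valuation x := by
                gcongr
                exact hyp.a_le
            _ = A.valuation x := by rw [one_mul, one_mul]
            _ < 1 := hlt
      · apply hder
        rw [hFy, map_mul, map_pow, ha1, one_pow, one_mul]
        refine lt_of_le_of_lt (A.valuation.map_add _ _) (max_lt ?_ hlt)
        rw [map_mul]
        calc A.valuation (2 : QB) * A.valuation y ≤ 1 * A.valuation y := by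
              gcongr
          _ = A.valuation y := one_mul _
          _ < 1 := hy
  · intro hge
    by_cases hXm : A.valuation X ≤ 1
    · have hx1 : A.valuation x = 1 := by
        refine le_antisymm ?_ hge
        rw [← hvX]
        exact le_trans (A.valuation.map_sub _ _) (max_le hXm hN.e1_le)
      have hy1 : A.valuation y ≤ 1 := H6P.pg_y_le hyp h.1 hx1
      have hYm : A.valuation Y ≤ 1 := val_y_le_one W A hns.1 hXm
      apply _root_.Fermat.Agent.S15.H87.inZeroComponentAt_of_unit W A hns hXm hYm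
      rw [hFy, map_mul, map_pow, ha1, one_pow, one_mul]
      rw [add_comm, Valuation.map_add_eq_of_lt_left _ ?_, hx1]
      rw [hx1, map_mul]
      calc A.valuation (2 : QB) * A.valuation y ≤ A.valuation (2 : QB) * 1 := by gcongr
        _ = A.valuation (2 : QB) := mul_one _
        _ < 1 := h2
    · right
      exact ⟨X, Y, hns, rfl, Or.inl (fun hmem => hXm ((A.valuation_le_one_iff X).2 hmem))⟩

end main

end Fermat.Agent.S15.H87

end
-- ==== END Fermat.Agent.S15.H87_BR2

-- ==== BEGIN Fermat.Agent.S15.WiringB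
section

set_option autoImplicit false
set_option synthInstance.maxHeartbeats 400000

noncomputable section

open HahnSeries IntermediateField AlgebraicCurve ModularCurve
open WeierstrassCurve WeierstrassCurve.Affine

namespace Fermat.Agent.S15

/-- All inputs of S15 at a prime level `p` (Fricke-dual bridge, abstract Hecke inputs). -/
structure InputsB (p : ℕ) [NeZero p] : Prop where
  redInputs : Stmt_redInputs p
  redFG : Stmt_redFG p
  cuspExists : Stmt_cuspExists p
  cuspGal : Stmt_cuspGal p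
  cuspTors : Stmt_cuspTors p
  eis : Stmt_eisData p
  bridge : Stmt_bridge' p

/-- **S15 from its inputs** (the statement below the hypotheses `hS18`, `hI` is the frozen
statement S15, verbatim). -/
theorem result_of_inputsB (hS18 : Stmt_S18)
    (hI : ∀ (p : ℕ) [NeZero p], p.Prime → p ∉ ({2, 3, 5, 7, 13} : Finset ℕ) → InputsB p)
    {p : ℕ} (hp : p.Prime) (hp' : p ∉ ({2, 3, 5, 7, 13} : Finset ℕ))
    (W : WeierstrassCurve ℤ) (hΔ : W.Δ ≠ 0)
    (Q : ((W.map (Int.castRingHom ℚ))⁄(AlgebraicClosure ℚ)).Point)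
    (hQfix : ∀ σ : AlgebraicClosure ℚ ≃ₐ[ℚ] AlgebraicClosure ℚ, σ • Q = Q)
    (hQord : addOrderOf Q = p)
    (h2Δ : (2 : ℤ) ∣ W.Δ) (h2c₄ : ¬ (2 : ℤ) ∣ W.c₄)
    (h2 : ∀ A : ValuationSubring (AlgebraicClosure ℚ), A.LiesOverPrime 2 →
      ¬ W.InZeroComponentAt A Q)
    (h3Δ : (3 : ℤ) ∣ W.Δ) (h3c₄ : ¬ (3 : ℤ) ∣ W.c₄)
    (h3 : ∀ A : ValuationSubring (AlgebraicClosure ℚ), A.LiesOverPrime 3 →
      ¬ W.InZeroComponentAt A Q)
    {ℓ : ℕ} (hℓ : ℓ.Prime) (hℓp : ℓ ≠ p) (hℓΔ : (ℓ : ℤ) ∣ W.Δ) (hℓc₄ : ¬ (ℓ : ℤ) ∣ W.c₄)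
    (A : ValuationSubring (AlgebraicClosure ℚ)) (hA : A.LiesOverPrime ℓ) :
    ¬ W.InZeroComponentAt A Q := by
  intro hin
  haveI : NeZero p := ⟨hp.ne_zero⟩
  have hp2 : p ≠ 2 := fun e => hp' (by simp [e])
  have hp3 : p ≠ 3 := fun e => hp' (by simp [e])
  have I := hI p hp hp'
  obtain ⟨Pinf, P0, hc⟩ := I.cuspExists
  obtain ⟨x, hx1, hxfix, hxred⟩ := I.bridge W hΔ Q hQfix hQord h2Δ h2c₄ h2 Pinf P0 hc
  -- the places over `2` and `3`
  obtain ⟨A₂, hA₂⟩ := Fermat.Agent.Lib.FrobExists.exists_liesOverPrime 2 Nat.prime_two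
  obtain ⟨A₃, hA₃⟩ := Fermat.Agent.Lib.FrobExists.exists_liesOverPrime 3 Nat.prime_three
  have h₂ := I.redInputs 2 Nat.prime_two (Ne.symm hp2) A₂ hA₂
  have h₃ := I.redInputs 3 Nat.prime_three (Ne.symm hp3) A₃ hA₃
  have h := I.redInputs ℓ hℓ hℓp A hA
  have hx₂ := (hxred 2 Nat.prime_two (Ne.symm hp2) (by exact_mod_cast h2Δ)
    (by exact_mod_cast h2c₄) A₂ hA₂ h₂).1 (h2 A₂ hA₂)
  have hx₃ := (hxred 3 Nat.prime_three (Ne.symm hp3) (by exact_mod_cast h3Δ)
    (by exact_mod_cast h3c₄) A₃ hA₃ h₃).1 (h3 A₃ hA₃)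
  have hxℓ := (hxred ℓ hℓ hℓp hℓΔ hℓc₄ A hA h).2 hin
  -- `ℓ ∤ p - 1`
  have hℓn : ¬ ℓ ∣ p - 1 :=
    H83.not_dvd_pred_of_inZero hp hp3 W hΔ Q hQfix hQord hℓ hℓp hℓΔ hℓc₄ A hA hin
  exact core'_of_eisData p hp hp2 hp3 hS18 I.redFG I.cuspGal I.cuspTors I.eis
    Pinf P0 hc x hx1 hxfix A₂ hA₂ h₂ hx₂ A₃ hA₃ h₃ hx₃ ℓ hℓ hℓp hℓn A hA h hxℓ

end Fermat.Agent.S15

end
end
-- ==== END Fermat.Agent.S15.WiringB
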