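-- GENERATED (merged mirror, NOTES/tools/trim/merge3_helper67.py): 5 modules of the originals, bodies verbatim.
import Fermat.Agent.Zm.S15_L02_002
import Fermat.Agent.Zm.S15_L03_002
import Fermat.Agent.Zm.S15_L03_000
import Fermat.Agent.Zm.S15_L01_003
import Fermat.Agent.Zm.S15_L03_001
import Fermat.Agent.Zm.S15_L02_004
import Fermat.Agent.Zm.S15_L01_004

-- ==== BEGIN Fermat.Agent.S15.Desc.H63_TwoSel
section

set_option autoImplicit false

namespace Fermat.Agent.S15.Desc.H63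

open Module

local notation "Qbar" => AlgebraicClosure ℚ
local notation "GQ" => (AlgebraicClosure ℚ ≃ₐ[ℚ] AlgebraicClosure ℚ)

theorem zmod_two_cases (a : ZMod 2) : a = 0 ∨ a = 1 := by
  revert a
  decide

section

variable {p : ℕ}
variable {V : Type*} [AddCommGroup V] [Module (ZMod 2) V] [Finite V] [DistribMulAction GQ V]
  [SMulCommClass GQ (ZMod 2) V]

/-- The local groups of design C: inertia groups at the primes, `Cinf` at the infinite place. -/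
noncomputable def iC (A : ℕ → ValuationSubring Qbar) (Cinf : Subgroup GQ) :
    Option ℕ → Subgroup GQ
  | none => Cinf
  | some ℓ => (A ℓ).inertiaSubgroupIn ℚ

/-- The local conditions of design C: `Vinf` at the infinite place, `Vt` at `p`, no condition on
the values at `2`, `0` at the other primes. -/
def vlocC (p : ℕ) (Vt Vinf : Submodule (ZMod 2) V) : Option ℕ → Submodule (ZMod 2) V
  | none => Vinf
  | some ℓ => if ℓ = p then Vt else if ℓ = 2 then ⊤ else ⊥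

/-- The local conditions of design A: `Vt` at `p`, `V0` at `2`, `0` at the other primes. -/
def vlocA (p : ℕ) (Vt V0 : Submodule (ZMod 2) V) : ℕ → Submodule (ZMod 2) V :=
  fun ℓ => if ℓ = p then Vt else if ℓ = 2 then V0 else ⊥

omit [Finite V] [DistribMulAction GQ V] [SMulCommClass GQ (ZMod 2) V] in
theorem finrank_map_le_one' (S : Submodule (ZMod 2) V) (π : V →ₗ[ZMod 2] ZMod 2) :
    finrank (ZMod 2) ↥(S.map π) ≤ 1 := by
  have h := Submodule.finrank_le (S.map π)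
  rwa [Module.finrank_self] at h

/-- Good cocycles of a line for design C are good cocycles for the inertia groups at the
primes. -/
theorem zgoodLine_some {A : ℕ → ValuationSubring Qbar} {Cinf : Subgroup GQ}
    {𝔅 : Set (Subgroup GQ)} {ψ : GQ → ZMod 2} {Lloc : Option ℕ → Submodule (ZMod 2) (ZMod 2)}
    {u : GQ → ZMod 2} (hu : u ∈ ZgoodLine (iC A Cinf) 𝔅 ψ Lloc) :
    u ∈ ZgoodLine (fun ℓ => (A ℓ).inertiaSubgroupIn ℚ) 𝔅 ψ (fun ℓ => Lloc (some ℓ)) :=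
  ⟨hu.1, fun ℓ σ hσ => hu.2.1 (some ℓ) σ hσ, hu.2.2⟩

/-- The common part of the two inductions: the eigen-functional of a nonzero stable subspace. -/
theorem exists_functional_two (χ : GQ →* (ZMod 2)ˣ)
    (W : Submodule (ZMod 2) V) (hW : W ≠ ⊥) (hstab : ∀ σ : GQ, ∀ w ∈ W, σ • w ∈ W)
    (hES : ∀ σ : GQ, ∃ N : ℕ, ∀ w ∈ W,
      (esOp (Representation.ofDistribMulAction (ZMod 2) GQ V) χ σ ^ N) w = 0) :
    ∃ π : V →ₗ[ZMod 2] ZMod 2, (∃ w ∈ W, π w ≠ 0) ∧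
      ∀ σ : GQ, ∀ w ∈ W, π (σ • w) = (fun _ : GQ => (1 : ZMod 2)) σ * π w := by
  have : Fact (Nat.Prime 2) := ⟨Nat.prime_two⟩
  obtain ⟨π, hπ1, hπeig⟩ := exists_eigen_functional
    (Representation.ofDistribMulAction (ZMod 2) GQ V) χ W hW (fun σ w hw => hstab σ w hw) hES
  refine ⟨π, hπ1, fun σ w hw => ?_⟩
  rcases hπeig with h | h
  · have := h σ w hw
    rw [one_mul]
    exact this
  · have h1 := h σ w hw
    have h2 : ((χ σ : (ZMod 2)ˣ) : ZMod 2) = 1 := by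
      rcases zmod_two_cases ((χ σ : (ZMod 2)ˣ) : ZMod 2) with h4 | h4
      · exact absurd h4 (χ σ).ne_zero
      · exact h4
    rw [h2] at h1
    exact h1

theorem sel_bound_two_aux (hp : p.Prime)
    {A : ℕ → ValuationSubring Qbar} (hA : ∀ ℓ : ℕ, ℓ.Prime → (A ℓ).LiesOverPrime ℓ)
    {𝔅 : Set (Subgroup GQ)} (h𝔅 : IsBddFamilyTwo 𝔅)
    {ι : Qbar} (hι : ι ^ 2 = -1) (Cinf : Subgroup GQ) (c : GQ) (hcC : c ∈ Cinf) (hc : c ι ≠ ι)
    (χ : GQ →* (ZMod 2)ˣ) (Vt Vinf : Submodule (ZMod 2) V) :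
    ∀ (n : ℕ) (W : Submodule (ZMod 2) V), finrank (ZMod 2) W = n →
      (∀ σ : GQ, ∀ w ∈ W, σ • w ∈ W) →
      (∀ σ : GQ, ∃ N : ℕ, ∀ w ∈ W,
        (esOp (Representation.ofDistribMulAction (ZMod 2) GQ V) χ σ ^ N) w = 0) →
      DimLE (ZMod 2) (Zgood (iC A Cinf) 𝔅 (vlocC p Vt Vinf) W)
        (finrank (ZMod 2) ↥(W ⊓ Vt) + finrank (ZMod 2) ↥(W ⊓ Vinf)) := by
  intro n
  induction n using Nat.strong_induction_on with
  | _ n ih =>
  intro W hn hstab hES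
  by_cases hW : W = ⊥
  · subst hW
    refine dimLE_zero_of_subset_zero ?_ _
    rintro z ⟨-, hzW, -, -⟩
    rw [Set.mem_singleton_iff]
    funext σ
    have := hzW σ
    rwa [Submodule.mem_bot] at this
  · obtain ⟨π, ⟨w₁, hw₁W, hw₁⟩, hsemi⟩ := exists_functional_two χ W hW hstab hES
    set W' : Submodule (ZMod 2) V := W ⊓ LinearMap.ker π with hW'
    have hle : W' ≤ W := inf_le_left
    have hπ0 : ∀ w ∈ W', π w = 0 := fun w hw => LinearMap.mem_ker.mp hw.2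
    have hker : ∀ w ∈ W, π w = 0 → w ∈ W' := fun w hw h0 => ⟨hw, LinearMap.mem_ker.mpr h0⟩
    have hcount : ∀ U : Submodule (ZMod 2) V,
        finrank (ZMod 2) ↥(W ⊓ U) =
          finrank (ZMod 2) ↥(W' ⊓ U) + finrank (ZMod 2) ↥((W ⊓ U).map π) :=
      fun U => finrank_inf_succ W' W U π hle hπ0 hker
    have hWtop : finrank (ZMod 2) ↥((W ⊓ ⊤).map π) = 1 := by
      refine le_antisymm (finrank_map_le_one' _ π) ?_
      rw [Nat.one_le_iff_ne_zero]
      intro h0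
      have hbot : (W ⊓ ⊤).map π = ⊥ := Submodule.finrank_eq_zero.mp h0
      have hmem : π w₁ ∈ (W ⊓ ⊤).map π := Submodule.mem_map_of_mem ⟨hw₁W, Submodule.mem_top⟩
      rw [hbot, Submodule.mem_bot] at hmem
      exact hw₁ hmem
    have hdW : finrank (ZMod 2) W = finrank (ZMod 2) W' + 1 := by
      have h1 := hcount ⊤
      rw [hWtop, inf_top_eq, inf_top_eq] at h1
      exact h1
    have hltW : finrank (ZMod 2) W' < n := by omega
    have hstab' : ∀ σ : GQ, ∀ w ∈ W', σ • w ∈ W' := by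
      intro σ w hw
      refine ⟨hstab σ w hw.1, LinearMap.mem_ker.mpr ?_⟩
      rw [hsemi σ w hw.1, hπ0 w hw, mul_zero]
    have hES' : ∀ σ : GQ, ∃ N : ℕ, ∀ w ∈ W',
        (esOp (Representation.ofDistribMulAction (ZMod 2) GQ V) χ σ ^ N) w = 0 := by
      intro σ
      obtain ⟨N, hN⟩ := hES σ
      exact ⟨N, fun w hw => hN w hw.1⟩
    have ih' := ih _ hltW W' rfl hstab' hES'
    -- the local conditions of the line
    set Lloc : Option ℕ → Submodule (ZMod 2) (ZMod 2) :=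
      fun v => (W ⊓ vlocC p Vt Vinf v).map π with hLloc
    have hL : ∀ ℓ : ℕ, ℓ.Prime → ℓ ≠ p → ℓ ≠ 2 → Lloc (some ℓ) = ⊥ := by
      intro ℓ _ hℓp hℓ2
      have : vlocC p Vt Vinf (some ℓ) = ⊥ := by
        show (if ℓ = p then Vt else if ℓ = 2 then ⊤ else ⊥) = ⊥
        rw [if_neg hℓp, if_neg hℓ2]
      rw [hLloc]
      simp only
      rw [this, inf_bot_eq, Submodule.map_bot]
    have hLp : Lloc (some p) = (W ⊓ Vt).map π := by
      have : vlocC p Vt Vinf (some p) = Vt := by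
        show (if p = p then Vt else if p = 2 then ⊤ else ⊥) = Vt
        rw [if_pos rfl]
      rw [hLloc]
      simp only
      rw [this]
    have hLinf : Lloc none = (W ⊓ Vinf).map π := rfl
    have hbase : DimLE (ZMod 2) (ZgoodLine (iC A Cinf) 𝔅 (fun _ : GQ => (1 : ZMod 2)) Lloc)
        (finrank (ZMod 2) ↥((W ⊓ Vt).map π) + finrank (ZMod 2) ↥((W ⊓ Vinf).map π)) := by
      intro T hT hfin
      have hT' : (T : Set (GQ → ZMod 2)) ⊆ ZgoodLine (fun ℓ => (A ℓ).inertiaSubgroupIn ℚ) 𝔅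
          (fun _ : GQ => (1 : ZMod 2)) (fun ℓ => Lloc (some ℓ)) := fun u hu => zgoodLine_some (hT hu)
      by_cases hinf : (W ⊓ Vinf).map π = ⊥
      · have hTc : ∀ u ∈ T, u c = 0 := by
          intro u hu
          have h1 := (hT hu).2.1 none c hcC
          rw [hLinf, hinf, Submodule.mem_bot] at h1
          exact h1
        have h2 := base_two_real hp hA h𝔅 (fun ℓ => Lloc (some ℓ)) hL hι c hc T hT' hTc
        beta_reduce at h2
        rw [hLp] at h2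
        omega
      · have h1 : 1 ≤ finrank (ZMod 2) ↥((W ⊓ Vinf).map π) := by
          rw [Nat.one_le_iff_ne_zero]
          intro h0
          exact hinf (Submodule.finrank_eq_zero.mp h0)
        have h2 := base_two_mu hp hA h𝔅 (fun ℓ => Lloc (some ℓ)) hL T hT' hfin
        beta_reduce at h2
        rw [hLp] at h2
        omega
    have hstep := dimLE_Zgood_step (iC A Cinf) 𝔅 (vlocC p Vt Vinf) W' W π
      (fun _ : GQ => (1 : ZMod 2)) hsemi hker ih' hbase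
    refine hstep.mono subset_rfl (le_of_eq ?_)
    have ha := hcount Vt
    have hu := hcount Vinf
    omega

/-- **The Selmer bound for `r = 2`, design C** (second local condition at the infinite place). -/
theorem sel_bound_two (hp : p.Prime)
    {A : ℕ → ValuationSubring Qbar} (hA : ∀ ℓ : ℕ, ℓ.Prime → (A ℓ).LiesOverPrime ℓ)
    {𝔅 : Set (Subgroup GQ)} (h𝔅 : IsBddFamilyTwo 𝔅)
    {ι : Qbar} (hι : ι ^ 2 = -1) (Cinf : Subgroup GQ) (c : GQ) (hcC : c ∈ Cinf) (hc : c ι ≠ ι)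
    (χ : GQ →* (ZMod 2)ˣ) (Vt Vinf : Submodule (ZMod 2) V)
    (W : Submodule (ZMod 2) V) (hstab : ∀ σ : GQ, ∀ w ∈ W, σ • w ∈ W)
    (hES : ∀ σ : GQ, ∃ N : ℕ, ∀ w ∈ W,
      (esOp (Representation.ofDistribMulAction (ZMod 2) GQ V) χ σ ^ N) w = 0)
    (hnum : finrank (ZMod 2) ↥(W ⊓ Vt) + finrank (ZMod 2) ↥(W ⊓ Vinf) ≤ finrank (ZMod 2) W) :
    DimLE (ZMod 2) (Zgood (iC A Cinf) 𝔅 (vlocC p Vt Vinf) W) (finrank (ZMod 2) W) :=
  (sel_bound_two_aux hp hA h𝔅 hι Cinf c hcC hc χ Vt Vinf _ W rfl hstab hES).mono subset_rfl hnum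

theorem sel_bound_twoA_aux (hp : p.Prime) (hp2 : p ≠ 2)
    {A : ℕ → ValuationSubring Qbar} (hA : ∀ ℓ : ℕ, ℓ.Prime → (A ℓ).LiesOverPrime ℓ)
    {𝔅 : Set (Subgroup GQ)} (h𝔅 : IsBddFamilyTwo 𝔅)
    (χ : GQ →* (ZMod 2)ˣ) (Vt V0 : Submodule (ZMod 2) V) :
    ∀ (n : ℕ) (W : Submodule (ZMod 2) V), finrank (ZMod 2) W = n →
      (∀ σ : GQ, ∀ w ∈ W, σ • w ∈ W) →
      (∀ σ : GQ, ∃ N : ℕ, ∀ w ∈ W,
        (esOp (Representation.ofDistribMulAction (ZMod 2) GQ V) χ σ ^ N) w = 0) →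
      DimLE (ZMod 2) (Zgood (fun ℓ => (A ℓ).inertiaSubgroupIn ℚ) 𝔅 (vlocA p Vt V0) W)
        (finrank (ZMod 2) ↥(W ⊓ Vt) + finrank (ZMod 2) ↥(W ⊓ V0)) := by
  have : Fact (Nat.Prime 2) := ⟨Nat.prime_two⟩
  intro n
  induction n using Nat.strong_induction_on with
  | _ n ih =>
  intro W hn hstab hES
  by_cases hW : W = ⊥
  · subst hW
    refine dimLE_zero_of_subset_zero ?_ _
    rintro z ⟨-, hzW, -, -⟩
    rw [Set.mem_singleton_iff]
    funext σ
    have := hzW σ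
    rwa [Submodule.mem_bot] at this
  · obtain ⟨π, ⟨w₁, hw₁W, hw₁⟩, hsemi⟩ := exists_functional_two χ W hW hstab hES
    set W' : Submodule (ZMod 2) V := W ⊓ LinearMap.ker π with hW'
    have hle : W' ≤ W := inf_le_left
    have hπ0 : ∀ w ∈ W', π w = 0 := fun w hw => LinearMap.mem_ker.mp hw.2
    have hker : ∀ w ∈ W, π w = 0 → w ∈ W' := fun w hw h0 => ⟨hw, LinearMap.mem_ker.mpr h0⟩
    have hcount : ∀ U : Submodule (ZMod 2) V,
        finrank (ZMod 2) ↥(W ⊓ U) =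
          finrank (ZMod 2) ↥(W' ⊓ U) + finrank (ZMod 2) ↥((W ⊓ U).map π) :=
      fun U => finrank_inf_succ W' W U π hle hπ0 hker
    have hWtop : finrank (ZMod 2) ↥((W ⊓ ⊤).map π) = 1 := by
      refine le_antisymm (finrank_map_le_one' _ π) ?_
      rw [Nat.one_le_iff_ne_zero]
      intro h0
      have hbot : (W ⊓ ⊤).map π = ⊥ := Submodule.finrank_eq_zero.mp h0
      have hmem : π w₁ ∈ (W ⊓ ⊤).map π := Submodule.mem_map_of_mem ⟨hw₁W, Submodule.mem_top⟩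
      rw [hbot, Submodule.mem_bot] at hmem
      exact hw₁ hmem
    have hdW : finrank (ZMod 2) W = finrank (ZMod 2) W' + 1 := by
      have h1 := hcount ⊤
      rw [hWtop, inf_top_eq, inf_top_eq] at h1
      exact h1
    have hltW : finrank (ZMod 2) W' < n := by omega
    have hstab' : ∀ σ : GQ, ∀ w ∈ W', σ • w ∈ W' := by
      intro σ w hw
      refine ⟨hstab σ w hw.1, LinearMap.mem_ker.mpr ?_⟩
      rw [hsemi σ w hw.1, hπ0 w hw, mul_zero]
    have hES' : ∀ σ : GQ, ∃ N : ℕ, ∀ w ∈ W',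
        (esOp (Representation.ofDistribMulAction (ZMod 2) GQ V) χ σ ^ N) w = 0 := by
      intro σ
      obtain ⟨N, hN⟩ := hES σ
      exact ⟨N, fun w hw => hN w hw.1⟩
    have ih' := ih _ hltW W' rfl hstab' hES'
    set Lloc : ℕ → Submodule (ZMod 2) (ZMod 2) :=
      fun ℓ => (W ⊓ vlocA p Vt V0 ℓ).map π with hLloc
    have hL : ∀ ℓ : ℕ, ℓ.Prime → ℓ ≠ p → ℓ ≠ 2 → Lloc ℓ = ⊥ := by
      intro ℓ _ hℓp hℓ2
      have : vlocA p Vt V0 ℓ = ⊥ := by
        unfold vlocA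
        rw [if_neg hℓp, if_neg hℓ2]
      rw [hLloc]
      simp only
      rw [this, inf_bot_eq, Submodule.map_bot]
    have hLp : Lloc p = (W ⊓ Vt).map π := by
      have : vlocA p Vt V0 p = Vt := by
        unfold vlocA
        rw [if_pos rfl]
      rw [hLloc]
      simp only
      rw [this]
    have hL2 : Lloc 2 = (W ⊓ V0).map π := by
      have : vlocA p Vt V0 2 = V0 := by
        unfold vlocA
        rw [if_neg (Ne.symm hp2), if_pos rfl]
      rw [hLloc]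
      simp only
      rw [this]
    have hbase : DimLE (ZMod 2) (ZgoodLine (fun ℓ => (A ℓ).inertiaSubgroupIn ℚ) 𝔅
        (fun _ : GQ => (1 : ZMod 2)) Lloc)
        (finrank (ZMod 2) ↥((W ⊓ Vt).map π) + finrank (ZMod 2) ↥((W ⊓ V0).map π)) := by
      by_cases h0 : (W ⊓ V0).map π = ⊥
      · have hL' : ∀ ℓ : ℕ, ℓ.Prime → ℓ ≠ p → Lloc ℓ = ⊥ := by
          intro ℓ hℓ hℓp
          by_cases hℓ2 : ℓ = 2
          · rw [hℓ2, hL2, h0]
          · exact hL ℓ hℓ hℓp hℓ2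
        have h2 := base_unr (r := 2) hp hp2 hA h𝔅.isOpen Lloc hL'
        rw [hLp] at h2
        exact h2.mono subset_rfl (Nat.le_add_right _ _)
      · have h1 : 1 ≤ finrank (ZMod 2) ↥((W ⊓ V0).map π) := by
          rw [Nat.one_le_iff_ne_zero]
          intro h0'
          exact h0 (Submodule.finrank_eq_zero.mp h0')
        have h2 := base_two_mu hp hA h𝔅 Lloc hL
        rw [hLp] at h2
        exact h2.mono subset_rfl (by omega)
    have hstep := dimLE_Zgood_step (fun ℓ => (A ℓ).inertiaSubgroupIn ℚ) 𝔅 (vlocA p Vt V0) W' W π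
      (fun _ : GQ => (1 : ZMod 2)) hsemi hker ih' hbase
    refine hstep.mono subset_rfl (le_of_eq ?_)
    have ha := hcount Vt
    have hu := hcount V0
    omega

/-- **The Selmer bound for `r = 2`, design A** (second local condition at `2`). -/
theorem sel_bound_twoA (hp : p.Prime) (hp2 : p ≠ 2)
    {A : ℕ → ValuationSubring Qbar} (hA : ∀ ℓ : ℕ, ℓ.Prime → (A ℓ).LiesOverPrime ℓ)
    {𝔅 : Set (Subgroup GQ)} (h𝔅 : IsBddFamilyTwo 𝔅)
    (χ : GQ →* (ZMod 2)ˣ) (Vt V0 : Submodule (ZMod 2) V)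
    (W : Submodule (ZMod 2) V) (hstab : ∀ σ : GQ, ∀ w ∈ W, σ • w ∈ W)
    (hES : ∀ σ : GQ, ∃ N : ℕ, ∀ w ∈ W,
      (esOp (Representation.ofDistribMulAction (ZMod 2) GQ V) χ σ ^ N) w = 0)
    (hnum : finrank (ZMod 2) ↥(W ⊓ Vt) + finrank (ZMod 2) ↥(W ⊓ V0) ≤ finrank (ZMod 2) W) :
    DimLE (ZMod 2) (Zgood (fun ℓ => (A ℓ).inertiaSubgroupIn ℚ) 𝔅 (vlocA p Vt V0) W)
      (finrank (ZMod 2) W) :=
  (sel_bound_twoA_aux hp hp2 hA h𝔅 χ Vt V0 _ W rfl hstab hES).mono subset_rfl hnum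

end

end Fermat.Agent.S15.Desc.H63

end
-- ==== END Fermat.Agent.S15.Desc.H63_TwoSel

-- ==== BEGIN Fermat.Agent.S15.Desc.H67_CoordModB
section
attribute [local instance 10000] SubalgebraClass.toAlgebra
attribute [local instance 10000] HahnSeries.powerSeriesAlgebra

/-!
# S15 DESC, leaf COORD (helper67): the modular verification at level `1 * p`, part B

`T = H91.modT` the modular total conservation datum of level `1 * p`.  From **(CUSP)**:
on the fibre of a node `z` the functions `j`, `j(q^p)` have no pole and the modular unit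
`U = Δ(τ)/Δ(p τ)` has neither zero nor pole.  The constants: `p` is in the maximal ideal, the
inertia-fixed integers lift the residue field.  The unit: `U` is a Gauss unit of `V₁`,
`U / p ^ 12` is a Gauss unit of `V₂` (UNIT-W).
-/

set_option autoImplicit false
set_option linter.unusedSectionVars false
set_option linter.style.haveILetI false
set_option synthInstance.maxHeartbeats 400000
set_option maxHeartbeats 400000

noncomputable section

open HahnSeries IntermediateField AlgebraicCurve ModularCurve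
open Fermat.Agent.S28.H73 Fermat.Agent.RED.H73 Fermat.Agent.RED Fermat.Agent.S24
open Fermat.Agent.BAD.H88

namespace Fermat.Agent.S15.Desc.H67

open Fermat.Agent.BAD Fermat.Agent.BAD.H91

section Fibre

variable {A : ValuationSubring Kbar} {p : ℕ} (a b : ℤ) (hab : a * p + b * (1 : ℕ) = 1)
  (hp : p.Prime) [NeZero (1 * p)] [NeZero p] (hA : A.LiesOverPrime p) (hqM : ¬ p ∣ 1)
  (ht : TameAt 1 p) (hTot : Stmt_TotMod) (hCusp : Stmt_CoordCusp p)

/-- The modular total conservation datum of level `1 * p`. -/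
def modTp : H79.TotData Kbar (FN (1 * p)) (kV A) (F1 A p 1) (F1 A p 1) :=
  modT a b hab hp hA hqM ht
    (H73.betaF1 A p 1 hp hA 1 (H82.redField_eq_fullC p 1 a b hab hp A hA))
    (hTot A p 1 a b hab hp hA hqM ht)

include hCusp in
/-- **(CUSP)**, used: `j~` is regular at (the image of) a node. -/
theorem ord_jRed_nonneg_of_isNode {z : Place (kV A) (F1 A p 1)}
    (hz : (modTp a b hab hp hA hqM ht hTot).IsNode z) :
    0 ≤ (kappa A p 1 a b hab hp hA z).ord (jRed A 1) := by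
  by_contra h
  have h := not_le.mp h
  have h1 := hCusp A a b hab hp hA hqM ht (hTot A p 1 a b hab hp hA hqM ht) (kappa A p 1 a b hab hp hA z) h
  rw [Equiv.symm_apply_apply] at h1
  exact h1 hz

include hCusp in
theorem ord_jRed_nonneg_of_fibre {z : Place (kV A) (F1 A p 1)}
    (hz : (modTp a b hab hp hA hqM ht hTot).IsNode z)
    {P : Place Kbar (FN (1 * p))} (hP : rhoF1 a b hab hp hA hqM ht P = z) :
    0 ≤ (rhoM hp hqM ht hA P).ord (jRed A 1) := by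
  have h := ord_jRed_nonneg_of_isNode a b hab hp hA hqM ht hTot hCusp hz
  rw [← hP, kappa_rhoF1] at h
  exact h

include hCusp in
/-- `j` has no pole on the fibre of a node. -/
theorem ord_jF_nonneg_of_fibre {z : Place (kV A) (F1 A p 1)}
    (hz : (modTp a b hab hp hA hqM ht hTot).IsNode z)
    {P : Place Kbar (FN (1 * p))} (hP : rhoF1 a b hab hp hA hqM ht P = z) :
    0 ≤ P.ord (Fermat.Agent.S24.jF (1 * p)) := by
  have h := ord_jRed_nonneg_of_fibre a b hab hp hA hqM ht hTot hCusp hz hP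
  have h1 := ord_jF_nonneg_of_rM hp hqM ht hA _ h
  have h2 : 0 ≤ P.ord (incl 1 p (RED.H73.jF (L := AlgebraicClosure ℚ) 1)) := by
    rw [Place.ord_restrictAlong (incl 1 p) (incl_isIntegral 1 p) P]
    exact mul_nonneg (Int.natCast_nonneg _) h1
  rw [incl_jF] at h2
  exact h2

include hCusp in
/-- `x₁ = j` has no pole on the fibre of a node. -/
theorem ord_chartOne_nonneg {z : Place (kV A) (F1 A p 1)}
    (hz : (modTp a b hab hp hA hqM ht hTot).IsNode z)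
    {P : Place Kbar (FN (1 * p))} (hP : rhoF1 a b hab hp hA hqM ht P = z) :
    0 ≤ P.ord (chartOne p) := by
  have h := ord_jF_nonneg_of_fibre a b hab hp hA hqM ht hTot hCusp hz hP
  rw [Fermat.Agent.S24.jF_eq_jdF] at h
  exact h

include hCusp in
/-- `x₂ = j(q^p)` has no pole on the fibre of a node. -/
theorem ord_chartTwo_nonneg {z : Place (kV A) (F1 A p 1)}
    (hz : (modTp a b hab hp hA hqM ht hTot).IsNode z)
    {P : Place Kbar (FN (1 * p))} (hP : rhoF1 a b hab hp hA hqM ht P = z) :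
    0 ≤ P.ord (chartTwo p) :=
  Fermat.Agent.S15.H26.ord_jdF_nonneg (1 * p) (1 * p) dvd_rfl P
    (ord_jF_nonneg_of_fibre a b hab hp hA hqM ht hTot hCusp hz hP)

include hCusp in
/-- The modular unit has neither zero nor pole on the fibre of a node. -/
theorem ord_unitF_eq_zero_of_fibre (hd : p ∣ 1 * p) {z : Place (kV A) (F1 A p 1)}
    (hz : (modTp a b hab hp hA hqM ht hTot).IsNode z)
    {P : Place Kbar (FN (1 * p))} (hP : rhoF1 a b hab hp hA hqM ht P = z) :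
    P.ord (Fermat.Agent.BAD.H30.unitF (1 * p) p hd) = 0 :=
  ord_unitF_eq_zero_of_rhoM hp hqM ht hA hd P
    (ord_jRed_nonneg_of_fibre a b hab hp hA hqM ht hTot hCusp hz hP)

end Fibre

section Consts

variable (A : ValuationSubring Kbar) (p : ℕ) [NeZero (1 * p)]

theorem natCast_mem_inertiaRing : (p : Kbar) ∈ inertiaRing A :=
  ⟨natCast_mem A p, fun σ _ => map_natCast σ p⟩

/-- `p` is in the maximal ideal of the Gauss valuation. -/
theorem red1_natCast (hA : A.LiesOverPrime p)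
    (h : algebraMap Kbar (FN (1 * p)) (p : Kbar) ∈ V1 A p 1) : red1 A p 1 ⟨_, h⟩ = 0 := by
  have hpA : (p : Kbar) ∈ A := natCast_mem A p
  rw [red1_const A p 1 ⟨(p : Kbar), hpA⟩ h]
  have h0 : resV A ⟨(p : Kbar), hpA⟩ = 0 := by
    have e : (⟨(p : Kbar), hpA⟩ : ↥A) = ((p : ℕ) : ↥A) := Subtype.ext (by simp)
    rw [e, map_natCast]
    exact Fermat.Agent.FL.H38.residue_prime_eq_zero A hA
  rw [h0, map_zero]

/-- Every constant of the residue field lifts to an inertia-fixed integer. -/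
theorem exists_inertiaRing_lift (hp : p.Prime) (hA : A.LiesOverPrime p) (c' : kV A) :
    ∃ c ∈ inertiaRing A, ∃ h : algebraMap Kbar (FN (1 * p)) c ∈ V1 A p 1,
      red1 A p 1 ⟨_, h⟩ = algebraMap (kV A) (F1 A p 1) c' := by
  obtain ⟨c, hc, hfix, hres⟩ := Fermat.Agent.FL.H38.exists_inertia_fixed_lift A hp hA c'
  refine ⟨c, ⟨hc, hfix⟩, (const_mem1 A p 1 c).2 hc, ?_⟩
  rw [red1_const A p 1 ⟨c, hc⟩]
  congr 1

end Consts

section Unit

variable (A : ValuationSubring Kbar) (p : ℕ) [NeZero (1 * p)] [NeZero p]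
  (a b : ℤ) (hab : a * p + b * (1 : ℕ) = 1) (hp : p.Prime) (hd : p ∣ 1 * p)

/-- **UNIT-W**, used: `w_p (U / p ^ 12) = U⁻¹`. -/
theorem wq_unit_div :
    wq p 1 a b hab hp (Fermat.Agent.BAD.H30.unitF (1 * p) p hd
        / algebraMap Kbar (FN (1 * p)) (p : Kbar) ^ 12)
      = (Fermat.Agent.BAD.H30.unitF (1 * p) p hd)⁻¹ := by
  have hp0 : algebraMap Kbar (FN (1 * p)) (p : Kbar) ≠ 0 := by
    rw [Ne, map_eq_zero_iff _ (algebraMap Kbar (FN (1 * p))).injective]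
    exact_mod_cast hp.ne_zero
  rw [map_div₀, map_pow, AlgEquiv.commutes, Fermat.Agent.BAD.H21.wq_unitF p 1 a b hab hp hd,
    map_pow]
  field_simp

/-- `U⁻¹` is Gauss integral with non-zero reduction. -/
theorem unit_inv_mem :
    ∃ h : (Fermat.Agent.BAD.H30.unitF (1 * p) p hd)⁻¹ ∈ V1 A p 1, red1 A p 1 ⟨_, h⟩ ≠ 0 := by
  obtain ⟨h, hr⟩ := H82.inv_mem_gaussV (1 * p) A
    ⟨Fermat.Agent.BAD.H30.unitF (1 * p) p hd,
      Fermat.Agent.BAD.H30.unitF_mem_gaussV A (1 * p) p hd⟩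
    (Fermat.Agent.BAD.H30.gaussRes_unitF_ne_zero A (1 * p) p hd)
  refine ⟨h, ?_⟩
  have h1 : red1 A p 1 ⟨_, h⟩ = (gaussRes A (1 * p) ⟨Fermat.Agent.BAD.H30.unitF (1 * p) p hd,
      Fermat.Agent.BAD.H30.unitF_mem_gaussV A (1 * p) p hd⟩)⁻¹ := hr
  rw [h1]
  exact inv_ne_zero (Fermat.Agent.BAD.H30.gaussRes_unitF_ne_zero A (1 * p) p hd)

/-- `U / p ^ 12` is a unit of the second valuation. -/
theorem unit_div_mem_V2 :
    ∃ h : Fermat.Agent.BAD.H30.unitF (1 * p) p hd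
        / algebraMap Kbar (FN (1 * p)) (p : Kbar) ^ 12 ∈ V2 A p 1 a b hab hp,
      red2 A p 1 a b hab hp ⟨_, h⟩ ≠ 0 := by
  obtain ⟨h, hr⟩ := unit_inv_mem A p hd
  have e := wq_unit_div p a b hab hp hd
  have hm : Fermat.Agent.BAD.H30.unitF (1 * p) p hd
      / algebraMap Kbar (FN (1 * p)) (p : Kbar) ^ 12 ∈ V2 A p 1 a b hab hp := by
    rw [mem_V2_iff, e]
    exact h
  refine ⟨hm, ?_⟩
  rw [red2_mk]
  have e2 : (⟨wq p 1 a b hab hp (Fermat.Agent.BAD.H30.unitF (1 * p) p hd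
      / algebraMap Kbar (FN (1 * p)) (p : Kbar) ^ 12), hm⟩ : ↥(V1 A p 1))
      = ⟨(Fermat.Agent.BAD.H30.unitF (1 * p) p hd)⁻¹, h⟩ := Subtype.ext e
  rw [e2]
  exact hr

end Unit

end Fermat.Agent.S15.Desc.H67

end
end
-- ==== END Fermat.Agent.S15.Desc.H67_CoordModB

-- ==== BEGIN Fermat.Agent.S15.Desc.H83_GlueRel
section

/-!
# S15 / DESC, leaf GLUE-dim (helper83), abstract part 2: the relation

* `NthPowMod k F₂ n` : every function on the second component whose divisor is divisible by `n`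
  is a constant times an `n`-th power (true if the genus of `F₂` is `0`).
* `exists_tor` : a Kummer function `f` (`f ∈ V₁`, `red₁ f = 1`, `n ∣ div f`) can be moved:
  `f h ^ n` is as in `IsTor`.
* `exists_relation_tor` : among `m ≥ δ` (`δ` = number of nodes) functions as in `IsTor` there is
  a non-trivial multiplicative relation modulo `n`-th powers (pigeonhole on the glue invariants
  `ζ_s = ψ₁(s₁) / ψ₂(s₂) ∈ μ_n`, normalised at a fixed node).
* `exists_relation` : the same for Kummer functions.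
-/

set_option autoImplicit false
set_option linter.style.haveILetI false
set_option maxHeartbeats 1000000

noncomputable section

open AlgebraicCurve

attribute [local instance] Classical.propDecidable

namespace Fermat.Agent.S15.Desc.H83

open Fermat.Agent.RED.H17 Fermat.Agent.RED Fermat.Agent.BAD

/-- Every non-zero function of `F₂` whose orders are all divisible by `n` is a constant times an
`n`-th power. -/
def NthPowMod (k F₂ : Type*) [Field k] [Field F₂] [Algebra k F₂] (n : ℕ) : Prop :=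
  ∀ γ : F₂, γ ≠ 0 → (∀ Q : Place k F₂, (n : ℤ) ∣ Q.ord γ) →
    ∃ (a : k) (φ : F₂), γ = algebraMap k F₂ a * φ ^ n

section Move

variable {K F k F₁ F₂ : Type} [Field K] [Field F] [Algebra K F] [Field k] [Field F₁]
  [Algebra k F₁] [Field F₂] [Algebra k F₂]

/-- **Moving a Kummer function into good position.** -/
theorem exists_tor (hTE : Stmt_TwistExists) (hMv : Stmt_Moving) [IsAlgClosed K] [IsAlgClosed k]
    (S : SSD K F k F₁ F₂) (H : FFHyp K F) (H₁ : FFHyp k F₁) (H₂ : FFHyp k F₂)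
    (g g₁ g₂ : ℕ) (c c₁ c₂ : ℤ) (hR : IsGenus K F g c) (hR₁ : IsGenus k F₁ g₁ c₁)
    (hR₂ : IsGenus k F₂ g₂ c₂) (hnum : g + 1 ≤ g₁ + g₂ + S.nodes.card)
    (n : ℕ) (hn : (n : k) ≠ 0) (hpow : NthPowMod k F₂ n)
    (f : F) (hf : f ∈ S.c₁.V) (hf1 : S.c₁.red ⟨f, hf⟩ = 1)
    (hdiv : ∀ P : Place K F, (n : ℤ) ∣ P.ord f) :
    ∃ (h : F) (ψ₁ : F₁) (ψ₂ : F₂), h ≠ 0 ∧ IsTor S n (f * h ^ n) ψ₁ ψ₂ := by
  have hn0 : n ≠ 0 := by
    rintro rfl
    exact hn Nat.cast_zero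
  obtain ⟨x, hxf⟩ := hTE K F k F₁ F₂ S H H₁ H₂ n hn0 f hf hf1 hdiv
  obtain ⟨h, hh₁, hh₂, hnode⟩ :=
    hMv K F k F₁ F₂ S H H₁ H₂ g g₁ g₂ c c₁ c₂ hR hR₁ hR₂ hnum n hn x
  rw [hxf] at hnode
  have hfGU₁ : S.c₁.IsGU f := ⟨hf, by rw [S.c₁.rd_of_mem hf, hf1]; exact one_ne_zero⟩
  have hrd1 : S.c₁.rd f = 1 := by rw [S.c₁.rd_of_mem hf, hf1]
  have hfGU₂ : S.c₂.IsGU (f / x.ϑ ^ n) := by
    have := x.hf₂
    rwa [hxf] at this
  have hf0 : f ≠ 0 := hfGU₁.ne_zero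
  have hh0 : h ≠ 0 := hh₁.ne_zero
  have hϑn : x.ϑ ^ n ≠ 0 := pow_ne_zero _ x.hϑ
  -- the reduction `γ` on the second component
  have hγ0 : x.γ ≠ 0 := x.hf₂.rd_ne_zero
  have hγeq : x.γ = S.c₂.rd (f / x.ϑ ^ n) := by
    unfold SSD.Twist.γ
    rw [hxf]
  obtain ⟨a, φ, haφ⟩ := hpow x.γ hγ0 (fun Q => Fermat.Agent.BAD.H60.twist_dvd_ord_γ x H.principal Q)
  obtain ⟨α, hα⟩ := IsAlgClosed.exists_pow_nat_eq a (Nat.pos_of_ne_zero hn0)
  have eFh : f * h ^ n = (f / x.ϑ ^ n) * (x.ϑ * h) ^ n := by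
    rw [mul_pow]
    field_simp
  refine ⟨h, S.c₁.rd h, algebraMap k F₂ α * φ * S.c₂.rd (x.ϑ * h), hh0, ?_⟩
  refine
    { gu₁ := hfGU₁.mul (hh₁.pow n)
      gu₂ := by
        rw [eFh]
        exact hfGU₂.mul (hh₂.pow n)
      rd₁ := by
        rw [S.c₁.rd_mul hf (hh₁.pow n).1, hrd1, one_mul, S.c₁.rd_pow hh₁.1]
      rd₂ := by
        rw [eFh, S.c₂.rd_mul hfGU₂.1 (hh₂.pow n).1, ← hγeq, S.c₂.rd_pow hh₂.1, haφ, ← hα,
          map_pow]
        ring
      node := hnode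
      dvd := fun P => by
        rw [P.ord_mul hf0 (pow_ne_zero _ hh0), ord_pow]
        exact dvd_add (hdiv P) (dvd_mul_right _ _) }

end Move

section Arith

/-- Elementary: `x + (n - 1) y` is not divisible by `n` if `x ≠ y` are `< n`. -/
theorem not_dvd_comb {n n1 x y : ℕ} (hn1 : n1 + 1 = n) (hx : x < n) (hy : y < n) (hxy : x ≠ y) :
    ¬ n ∣ x + n1 * y := by
  intro hdvd
  have h2 : x + n1 * y + y = x + n * y := by
    rw [← hn1]
    ring
  have h3 : (x + n * y) % n = x := by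
    rw [Nat.add_mul_mod_self_left, Nat.mod_eq_of_lt hx]
  have h4 : (x + n1 * y + y) % n = y := by
    rw [Nat.add_mod, Nat.mod_eq_zero_of_dvd hdvd, zero_add, Nat.mod_mod, Nat.mod_eq_of_lt hy]
  rw [h2, h3] at h4
  exact hxy h4

/-- The number of `n`-th roots of unity in a field is at most `n`. -/
theorem card_nthRootsFinset_le {k : Type*} [Field k] (n : ℕ) :
    (Polynomial.nthRootsFinset n (1 : k)).card ≤ n := by
  unfold Polynomial.nthRootsFinset
  exact (Multiset.toFinset_card_le _).trans (Polynomial.card_nthRoots n 1)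

end Arith

section Rel

variable {K F k F₁ F₂ : Type} [Field K] [Field F] [Algebra K F] [Field k] [Field F₁]
  [Algebra k F₁] [Field F₂] [Algebra k F₂]

/-- **The relation**: among `m ≥ δ` functions as in `IsTor` there is a non-trivial
multiplicative relation modulo `n`-th powers. -/
theorem exists_relation_tor (hGL : Stmt_GoodLift) (hTI : Stmt_TIss) [IsAlgClosed K] [Infinite k]
    (S : SSD K F k F₁ F₂) (H : FFHyp K F) (H₁ : FFHyp k F₁) (H₂ : FFHyp k F₂)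
    (g g₁ g₂ : ℕ) (c c₁ c₂ : ℤ) (hR : IsGenus K F g c) (hR₁ : IsGenus k F₁ g₁ c₁)
    (hR₂ : IsGenus k F₂ g₂ c₂) (hnum : g + 1 ≤ g₁ + g₂ + S.nodes.card)
    (n : ℕ) (hn2 : 2 ≤ n) (hn : (n : k) ≠ 0) (m : ℕ) (hm : S.nodes.card ≤ m)
    (G : Fin m → F) (ψ₁ : Fin m → F₁) (ψ₂ : Fin m → F₂)
    (hG : ∀ i, IsTor S n (G i) (ψ₁ i) (ψ₂ i)) :
    ∃ e : Fin m → ℕ, (∃ i, ¬ n ∣ e i) ∧ ∃ t : F, t ^ n = ∏ i, G i ^ e i := by
  have hn0 : n ≠ 0 := by omega
  have hnpos : 0 < n := by omega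
  obtain ⟨n1, hn1⟩ : ∃ n1 : ℕ, n1 + 1 = n := ⟨n - 1, by omega⟩
  haveI : NeZero n := ⟨hn0⟩
  -- the values at the branches
  have hv₁ : ∀ i, ∀ s ∈ S.nodes, ∃ a : k, a ≠ 0 ∧ VanAt s.1 (ψ₁ i - algebraMap k F₁ a) :=
    fun i s hs => Fermat.Agent.BAD.H60.exists_value_ne_zero (H₁.deg_one s.1) ((hG i).ne₁ hn0)
      ((hG i).ord_eq_zero hn0 H.principal hs).1
  have hv₂ : ∀ i, ∀ s ∈ S.nodes, ∃ a : k, a ≠ 0 ∧ VanAt s.2 (ψ₂ i - algebraMap k F₂ a) :=
    fun i s hs => Fermat.Agent.BAD.H60.exists_value_ne_zero (H₂.deg_one s.2) ((hG i).ne₂ hn0)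
      ((hG i).ord_eq_zero hn0 H.principal hs).2
  choose! a₁ ha₁0 ha₁ using hv₁
  choose! a₂ ha₂0 ha₂ using hv₂
  -- the glue invariants are roots of unity
  have hζ : ∀ i, ∀ s ∈ S.nodes, (a₁ i s / a₂ i s) ^ n = 1 := by
    intro i s hs
    obtain ⟨a, h1, h2⟩ := S.glue s hs (G i) (hG i).gu₁.1 (hG i).gu₂.1 (fun P hPs => by
      rw [(hG i).node P ⟨s, hs, hPs⟩])
    rw [← S.c₁.rd_of_mem (hG i).gu₁.1, (hG i).rd₁] at h1
    rw [← S.c₂.rd_of_mem (hG i).gu₂.1, (hG i).rd₂] at h2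
    have e1 := value_unique s.1 h1 (Fermat.Agent.BAD.H60.vanAt_pow_sub (ha₁ i s hs) n)
    have e2 := value_unique s.2 h2 (Fermat.Agent.BAD.H60.vanAt_pow_sub (ha₂ i s hs) n)
    rw [div_pow, ← e1, ← e2, div_self]
    rw [e2]
    exact pow_ne_zero _ (ha₂0 i s hs)
  have hζ0 : ∀ i, ∀ s ∈ S.nodes, a₁ i s / a₂ i s ≠ 0 := fun i s hs =>
    div_ne_zero (ha₁0 i s hs) (ha₂0 i s hs)
  -- the invariant of an exponent vector
  set Z : (Fin m → ℕ) → Place k F₁ × Place k F₂ → k :=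
    fun e s => ∏ i, (a₁ i s / a₂ i s) ^ e i with hZ
  have hZn : ∀ e, ∀ s ∈ S.nodes, Z e s ^ n = 1 := by
    intro e s hs
    rw [hZ]
    simp only
    rw [← Finset.prod_pow]
    apply Finset.prod_eq_one
    intro i _
    rw [← pow_mul, mul_comm, pow_mul, hζ i s hs, one_pow]
  have hZ0 : ∀ e, ∀ s ∈ S.nodes, Z e s ≠ 0 := by
    intro e s hs
    rw [hZ]
    simp only
    exact Finset.prod_ne_zero_iff.mpr fun i _ => pow_ne_zero _ (hζ0 i s hs)
  obtain ⟨s₀, hs₀⟩ := S.nodes_nonempty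
  -- pigeonhole
  set N' : Finset (Place k F₁ × Place k F₂) := S.nodes.erase s₀ with hN'
  have hN'card : N'.card + 1 = S.nodes.card := Finset.card_erase_add_one hs₀
  set Φ : (Fin m → Fin n) → ((s : ↥N') → k) :=
    fun cc s => Z (fun i => (cc i : ℕ)) s.1 / Z (fun i => (cc i : ℕ)) s₀ with hΦ
  set tgt : Finset ((s : ↥N') → k) :=
    Fintype.piFinset (fun _ : ↥N' => Polynomial.nthRootsFinset n (1 : k)) with htgt
  have hcard : tgt.card < (Finset.univ : Finset (Fin m → Fin n)).card := by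
    rw [Finset.card_univ, Fintype.card_fun, Fintype.card_fin, Fintype.card_fin, htgt,
      Fintype.card_piFinset, Finset.prod_const, Finset.card_univ, Fintype.card_coe]
    calc (Polynomial.nthRootsFinset n (1 : k)).card ^ N'.card ≤ n ^ N'.card :=
          Nat.pow_le_pow_left (card_nthRootsFinset_le n) _
      _ < n ^ m := Nat.pow_lt_pow_right (by omega) (by omega)
  have hmaps : Set.MapsTo Φ ↑(Finset.univ : Finset (Fin m → Fin n)) ↑tgt := by
    intro cc _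
    rw [Finset.mem_coe, htgt, Fintype.mem_piFinset]
    intro s
    rw [Polynomial.mem_nthRootsFinset hnpos]
    have hs : s.1 ∈ S.nodes := Finset.mem_of_mem_erase s.2
    rw [hΦ]
    simp only
    rw [div_pow, hZn _ _ hs, hZn _ _ hs₀, div_one]
  obtain ⟨cc, -, cc', -, hne, heq⟩ := Finset.exists_ne_map_eq_of_card_lt_of_maps_to hcard hmaps
  -- the exponents
  set e : Fin m → ℕ := fun i => (cc i : ℕ) + n1 * (cc' i : ℕ) with he
  have hZe : ∀ s, Z e s = Z (fun i => (cc i : ℕ)) s * Z (fun i => (cc' i : ℕ)) s ^ n1 := by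
    intro s
    rw [hZ]
    simp only
    rw [← Finset.prod_pow, ← Finset.prod_mul_distrib]
    apply Finset.prod_congr rfl
    intro i _
    rw [he]
    simp only
    rw [pow_add, ← pow_mul, mul_comm n1]
  have hconst : ∀ s ∈ S.nodes, Z e s = Z e s₀ := by
    intro s hs
    by_cases hss : s = s₀
    · rw [hss]
    have hsN : s ∈ N' := Finset.mem_erase.mpr ⟨hss, hs⟩
    have h1 := congrFun heq ⟨s, hsN⟩
    rw [hΦ] at h1
    simp only at h1
    set w : k := Z (fun i => (cc i : ℕ)) s / Z (fun i => (cc i : ℕ)) s₀ with hw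
    have hwn : w ^ n = 1 := by
      rw [hw, div_pow, hZn _ _ hs, hZn _ _ hs₀, div_one]
    have e1 : Z (fun i => (cc i : ℕ)) s = w * Z (fun i => (cc i : ℕ)) s₀ := by
      rw [hw, div_mul_cancel₀ _ (hZ0 _ _ hs₀)]
    have e2 : Z (fun i => (cc' i : ℕ)) s = w * Z (fun i => (cc' i : ℕ)) s₀ := by
      rw [h1, div_mul_cancel₀ _ (hZ0 _ _ hs₀)]
    rw [hZe s, hZe s₀, e1, e2, mul_pow]
    have : w * w ^ n1 = 1 := by rw [← pow_succ', hn1, hwn]
    calc w * Z (fun i => (cc i : ℕ)) s₀ * (w ^ n1 * Z (fun i => (cc' i : ℕ)) s₀ ^ n1)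
        = (w * w ^ n1) * (Z (fun i => (cc i : ℕ)) s₀ * Z (fun i => (cc' i : ℕ)) s₀ ^ n1) := by
          ring
      _ = Z (fun i => (cc i : ℕ)) s₀ * Z (fun i => (cc' i : ℕ)) s₀ ^ n1 := by
          rw [this, one_mul]
  -- the product
  set z : k := Z e s₀ with hz
  have hzn : z ^ n = 1 := hZn e s₀ hs₀
  have hTor : IsTor S n (∏ i, G i ^ e i) (∏ i, ψ₁ i ^ e i) (∏ i, ψ₂ i ^ e i) :=
    IsTor.prod Finset.univ _ _ _ (fun i _ => (hG i).pow (e i))
  have hTor' := hTor.scale₂ hzn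
  have hval : ∀ s ∈ S.nodes, ∃ a : k, VanAt s.1 (∏ i, ψ₁ i ^ e i - algebraMap k F₁ a) ∧
      VanAt s.2 (algebraMap k F₂ z * ∏ i, ψ₂ i ^ e i - algebraMap k F₂ a) := by
    intro s hs
    have hA₁ : VanAt s.1 (∏ i, ψ₁ i ^ e i - algebraMap k F₁ (∏ i, a₁ i s ^ e i)) :=
      vanAt_prod_sub s.1 Finset.univ _ _
        (fun i _ => Fermat.Agent.BAD.H60.vanAt_pow_sub (ha₁ i s hs) (e i))
    have hA₂ : VanAt s.2 (∏ i, ψ₂ i ^ e i - algebraMap k F₂ (∏ i, a₂ i s ^ e i)) :=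
      vanAt_prod_sub s.2 Finset.univ _ _
        (fun i _ => Fermat.Agent.BAD.H60.vanAt_pow_sub (ha₂ i s hs) (e i))
    have hA₂0 : ∏ i, a₂ i s ^ e i ≠ 0 :=
      Finset.prod_ne_zero_iff.mpr fun i _ => pow_ne_zero _ (ha₂0 i s hs)
    have hrat : ∏ i, a₁ i s ^ e i = z * ∏ i, a₂ i s ^ e i := by
      have h1 : Z e s = (∏ i, a₁ i s ^ e i) / ∏ i, a₂ i s ^ e i := by
        rw [hZ]
        simp only
        rw [← Finset.prod_div_distrib]
        apply Finset.prod_congr rfl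
        intro i _
        rw [div_pow]
      have hc : Z e s = Z e s₀ := hconst s hs
      show ∏ i, a₁ i s ^ e i = Z e s₀ * ∏ i, a₂ i s ^ e i
      rw [← hc, h1, div_mul_cancel₀ _ hA₂0]
    refine ⟨∏ i, a₁ i s ^ e i, hA₁, ?_⟩
    rw [hrat]
    exact Fermat.Agent.BAD.H28.vanAt_mul_sub (vanAt_const_sub s.2 z) hA₂
  obtain ⟨t, ht⟩ := _root_.Fermat.Agent.S15.Desc.H83.core hGL hTI S H H₁ H₂ g g₁ g₂ c c₁ c₂ hR hR₁ hR₂ hnum n hn hTor' hval
  refine ⟨e, ?_, t, ht⟩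
  obtain ⟨i, hi⟩ := Function.ne_iff.mp hne
  refine ⟨i, ?_⟩
  rw [he]
  simp only
  exact not_dvd_comb hn1 (cc i).isLt (cc' i).isLt (fun h => hi (Fin.ext h))

/-- **The relation for Kummer functions**: among `m ≥ δ` functions `f i ∈ V₁` with
`red₁ (f i) = 1` and `n ∣ div (f i)` there is a non-trivial multiplicative relation modulo `n`-th
powers. -/
theorem exists_relation (hTE : Stmt_TwistExists) (hMv : Stmt_Moving) (hGL : Stmt_GoodLift)
    (hTI : Stmt_TIss) [IsAlgClosed K] [IsAlgClosed k]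
    (S : SSD K F k F₁ F₂) (H : FFHyp K F) (H₁ : FFHyp k F₁) (H₂ : FFHyp k F₂)
    (g g₁ g₂ : ℕ) (c c₁ c₂ : ℤ) (hR : IsGenus K F g c) (hR₁ : IsGenus k F₁ g₁ c₁)
    (hR₂ : IsGenus k F₂ g₂ c₂) (hnum : g + 1 ≤ g₁ + g₂ + S.nodes.card)
    (n : ℕ) (hn2 : 2 ≤ n) (hn : (n : k) ≠ 0) (hpow : NthPowMod k F₂ n)
    (m : ℕ) (hm : S.nodes.card ≤ m) (f : Fin m → F) (hf : ∀ i, f i ∈ S.c₁.V)
    (hf1 : ∀ i, S.c₁.red ⟨f i, hf i⟩ = 1) (hdiv : ∀ i, ∀ P : Place K F, (n : ℤ) ∣ P.ord (f i)) :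
    ∃ e : Fin m → ℕ, (∃ i, ¬ n ∣ e i) ∧ ∃ t : F, t ^ n = ∏ i, f i ^ e i := by
  haveI : Infinite k := IsAlgClosed.instInfinite
  have hex := fun i => exists_tor hTE hMv S H H₁ H₂ g g₁ g₂ c c₁ c₂ hR hR₁ hR₂ hnum n hn hpow
    (f i) (hf i) (hf1 i) (hdiv i)
  choose h ψ₁ ψ₂ hh0 hTor using hex
  obtain ⟨e, hi, t, ht⟩ := exists_relation_tor hGL hTI S H H₁ H₂ g g₁ g₂ c c₁ c₂ hR hR₁ hR₂
    hnum n hn2 hn m hm _ ψ₁ ψ₂ hTor
  refine ⟨e, hi, t / ∏ i, h i ^ e i, ?_⟩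
  have hprod0 : ∏ i, h i ^ e i ≠ 0 :=
    Finset.prod_ne_zero_iff.mpr fun i _ => pow_ne_zero _ (hh0 i)
  have e1 : ∏ i, (f i * h i ^ n) ^ e i = (∏ i, f i ^ e i) * (∏ i, h i ^ e i) ^ n := by
    rw [← Finset.prod_pow, ← Finset.prod_mul_distrib]
    apply Finset.prod_congr rfl
    intro i _
    rw [mul_pow, ← pow_mul, ← pow_mul, mul_comm n]
  rw [div_pow, ht, e1, mul_div_assoc, div_self (pow_ne_zero _ hprod0), mul_one]

end Rel

end Fermat.Agent.S15.Desc.H83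

end
end
-- ==== END Fermat.Agent.S15.Desc.H83_GlueRel

-- ==== BEGIN Fermat.Agent.S15.H11_BRValFinal
section

set_option autoImplicit false

namespace Fermat.Agent.S15.H11

/-- (BR-ZC) at every prime. -/
theorem stmt_BRzc_all (ℓ : ℕ) (hℓ : ℓ.Prime) : Stmt_BRzc ℓ := by
  rcases eq_or_ne ℓ 2 with rfl | h2
  · exact Fermat.Agent.S15.H87.stmt_BRzc_two
  · exact Fermat.Agent.S15.H66.stmt_BRzc_odd hℓ h2

/-- (BR-E0) at every prime. -/
theorem stmt_BRe0_all (ℓ : ℕ) (hℓ : ℓ.Prime) : Stmt_BRe0 ℓ := by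
  rcases eq_or_ne ℓ 2 with rfl | h2
  · exact Fermat.Agent.S15.H87.stmt_BRe0_two
  · exact Fermat.Agent.S15.H66.stmt_BRe0_odd hℓ h2

/-- **(BR-VAL)** coarse local valuations of `β = j(E/⟨Q⟩)` at a prime of multiplicative
reduction. -/
theorem stmt_BRval : Fermat.Agent.S15.Stmt_BRval :=
  stmt_BRval_of stmt_BRzc_all stmt_BRe0_all

end Fermat.Agent.S15.H11

end
-- ==== END Fermat.Agent.S15.H11_BRValFinal

-- ==== BEGIN Fermat.Agent.S15.H40_CoreSel
section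

/-!
# S15 from the Selmer inequality (helper40, coordinator of cluster M)

The Eisenstein descent `Stmt_descent` (`M = ℤ κ + 𝔓_r M`) is replaced by the weaker

  `Stmt_selB p` : for some prime `r ∣ ord κ`, every rational point `z` of `J₀(p)` satisfies
  `t • z = h + r • w` with `r ∤ ε t`, `h` rational of `r`-power order, `w` rational,

which is the content of the single inequality `dim Sel(V) ≤ dim V^G` (`V` the Eisenstein part of
`J₀(p)[r]`): no statement on the rational torsion (TORS), no statement on the cuspidal class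
(CHEAP) and no finite generation of `J₀(p)(ℚ)` are needed, and `r = 2` is allowed.

* `core_gen_sel` : helper83's `core_gen` with `hdesc` replaced by (SELB);
* `Stmt_eisDataSel`, `stmt_eisDataSel_of_leaves`, `core_of_eisDataSel`, `core'_of_eisDataSel`;
* `InputsSel`, `result_of_inputsSel : Stmt_S18 → (∀ p, InputsSel p) → <frozen S15>`.
-/

set_option autoImplicit false
set_option synthInstance.maxHeartbeats 400000

noncomputable section

open HahnSeries IntermediateField AlgebraicCurve ModularCurve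
open WeierstrassCurve WeierstrassCurve.Affine

namespace Fermat.Agent.S15

/-- (SELB) **the Selmer form of the Eisenstein descent**: for some prime `r` dividing the order
of the cuspidal class, every rational point `z` of `J₀(p)` has `t • z = h + r • w` with `t` a
Hecke polynomial, `r ∤ ε(t)`, `h` a rational point of `r`-power order and `w` a rational point. -/
def Stmt_selB (p : ℕ) [NeZero p] : Prop :=
  ∀ (Pinf P0 : PlaceBar p) (h : IsCuspPair p Pinf P0),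
    ∃ r : ℕ, r.Prime ∧ r ∣ addOrderOf (ptClass Pinf P0 h.deg_inf h.deg_zero) ∧
      ∀ z ∈ ratPts p, ∃ t : HeckeAlg, ¬ (r : ℤ) ∣ eisEval p t ∧
        ∃ h ∈ ratPts p, (∃ j : ℕ, r ^ j • h = 0) ∧ ∃ w ∈ ratPts p, hsmul p t z = h + r • w

namespace H40

set_option maxHeartbeats 1600000 in
/-- **CORE, general form, from (SELB)**. -/
theorem core_gen_sel (p : ℕ) [NeZero p] (hp : p.Prime) (hp2 : p ≠ 2) (hp3 : p ≠ 3)
    (hS18 : Stmt_S18) (hFG : Stmt_redFG p)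
    {T : Type*} [CommRing T] [Module T (JZero p)] (ε : T →+* ℤ)
    (hsub : ∀ (t : T) (z : JZero p), z ∈ ratPts p → t • z ∈ ratPts p)
    (hHR : ∀ ℓ : ℕ, ℓ.Prime → ℓ ≠ p → ∀ A : ValuationSubring (AlgebraicClosure ℚ),
      A.LiesOverPrime ℓ → ∀ (t : T) (z : JZero p), z ∈ ratPts p → reductionModL A p z = 0 →
        reductionModL A p (t • z) = 0)
    (Ca Cb : PlaceBar p) (ha : Ca.deg = 1) (hb : Cb.deg = 1)
    (hafix : ∀ σ : GalQ, galPlace p σ Ca = Ca) (hbfix : ∀ σ : GalQ, galPlace p σ Cb = Cb)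
    (hκtors : (p - 1) • ptClass Ca Cb ha hb = 0)
    (hκE : ∀ t : T, t • ptClass Ca Cb ha hb = ε t • ptClass Ca Cb ha hb)
    (r : ℕ) (hr : r.Prime) (hrκ : r ∣ addOrderOf (ptClass Ca Cb ha hb))
    (hsel : ∀ z ∈ ratPts p, ∃ t : T, ¬ (r : ℤ) ∣ ε t ∧
      ∃ h ∈ ratPts p, (∃ j : ℕ, r ^ j • h = 0) ∧ ∃ w ∈ ratPts p, t • z = h + r • w)
    (x : PlaceBar p) (hx1 : x.deg = 1) (hxfix : ∀ σ : GalQ, galPlace p σ x = x)
    (A₂ : ValuationSubring (AlgebraicClosure ℚ)) (hA₂ : A₂.LiesOverPrime 2)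
    (h₂ : ReductionInputsModL A₂ p)
    (hx₂ : placeReductionModL h₂ x = placeReductionModL h₂ Cb)
    (A₃ : ValuationSubring (AlgebraicClosure ℚ)) (hA₃ : A₃.LiesOverPrime 3)
    (h₃ : ReductionInputsModL A₃ p)
    (hx₃ : placeReductionModL h₃ x = placeReductionModL h₃ Cb)
    (ℓ : ℕ) (hℓ : ℓ.Prime) (hℓp : ℓ ≠ p) (hℓn : ¬ ℓ ∣ p - 1)
    (A : ValuationSubring (AlgebraicClosure ℚ)) (hA : A.LiesOverPrime ℓ)
    (h : ReductionInputsModL A p)
    (hxℓ : placeReductionModL h x = placeReductionModL h Ca) : False := by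
  classical
  set κ : JZero p := ptClass Ca Cb ha hb with hκ
  set y : JZero p := ptClass x Cb hx1 hb with hy
  have hp1 : 0 < p - 1 := by
    have := hp.two_le
    omega
  have hκord : addOrderOf κ ∣ p - 1 := addOrderOf_dvd_of_nsmul_eq_zero hκtors
  have hκ0 : addOrderOf κ ≠ 0 := fun h0 => by
    rw [h0, zero_dvd_iff] at hκord
    omega
  have hrp1 : r ∣ p - 1 := hrκ.trans hκord
  have hrℓ : r ≠ ℓ := fun e => hℓn (e ▸ hrp1)
  -- the auxiliary prime `ℓ₀ ∈ {2, 3}`, `ℓ₀ ≠ r`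
  obtain ⟨ℓ₀, hℓ₀, hℓ₀p, hℓ₀r, A₀, hA₀, h₀, hx₀⟩ :
      ∃ ℓ₀ : ℕ, ℓ₀.Prime ∧ ℓ₀ ≠ p ∧ ℓ₀ ≠ r ∧ ∃ (A₀ : ValuationSubring (AlgebraicClosure ℚ))
        (_ : A₀.LiesOverPrime ℓ₀) (h₀ : ReductionInputsModL A₀ p),
        placeReductionModL h₀ x = placeReductionModL h₀ Cb := by
    by_cases hr2 : r = 2
    · exact ⟨3, Nat.prime_three, fun e => hp3 e.symm, by omega, A₃, hA₃, h₃, hx₃⟩
    · exact ⟨2, Nat.prime_two, fun e => hp2 e.symm, fun e => hr2 e.symm, A₂, hA₂, h₂, hx₂⟩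
  -- the submodule of rational points
  let M : Submodule T (JZero p) :=
    { carrier := {z | z ∈ ratPts p}
      zero_mem' := (ratPts p).zero_mem
      add_mem' := fun {a b} ha hb => (ratPts p).add_mem ha hb
      smul_mem' := fun t z hz => hsub t z hz }
  have hMrat : M.toAddSubgroup = ratPts p := by
    ext z
    rfl
  have hκM : κ ∈ M := ptClass_mem_ratPts Ca Cb ha hb hafix hbfix
  have hyM : y ∈ M := ptClass_mem_ratPts x Cb hx1 hb hxfix hbfix
  -- injectivity of the reduction at `ℓ₀` on torsion of `r`-power order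
  have hinj₁ : ∀ z : JZero p, (∃ j : ℕ, r ^ j • z = 0) → reductionModL A₀ p z = 0 → z = 0 := by
    rintro z ⟨j, hj⟩ hz
    haveI : Fact ℓ₀.Prime := ⟨hℓ₀⟩
    have hℓ₀N : ¬ ℓ₀ ∣ p := fun hd => hℓ₀p ((Nat.prime_dvd_prime_iff_eq hℓ₀ hp).mp hd)
    have hℓ₀r' : ¬ ℓ₀ ∣ r ^ j := fun hd =>
      hℓ₀r ((Nat.prime_dvd_prime_iff_eq hℓ₀ hr).mp (hℓ₀.dvd_of_dvd_pow hd))
    exact hS18 p hℓ₀N A₀ hA₀ h₀ (r ^ j) hℓ₀r' z hj hz
  -- injectivity of the reduction at `ℓ` on the multiples of `κ`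
  have hinj₂ : ∀ k : ℤ, reductionModL A p (k • κ) = 0 → (r : ℤ) ∣ k := by
    intro k hk
    haveI : Fact ℓ.Prime := ⟨hℓ⟩
    have hℓN : ¬ ℓ ∣ p := fun hd => hℓp ((Nat.prime_dvd_prime_iff_eq hℓ hp).mp hd)
    have hℓr' : ¬ ℓ ∣ r := fun hd => hrℓ ((Nat.prime_dvd_prime_iff_eq hℓ hr).mp hd).symm
    exact dvd_of_red_zsmul_eq_zero (reductionModL A p) κ r hrκ hκ0
      (fun z hz1 hz2 => hS18 p hℓN A hA h r hℓr' z hz1 hz2) k hk
  -- `y` reduces to `0` at `ℓ₀`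
  have hy0 : reductionModL A₀ p y = 0 := by
    rw [hy, red_ptClass h₀]
    rw [ptClass_congr hx₀ rfl _ _
      (by rw [(isPlaceReductionModL_placeReductionModL h₀).1, hb])
      (by rw [(isPlaceReductionModL_placeReductionModL h₀).1, hb])]
    exact ptClass_self _ _
  -- `y - κ` reduces to `0` at `ℓ`
  have hyκ : reductionModL A p (y - κ) = 0 := by
    have e1 := red_ptClass h x Cb hx1 hb
    have e2 := red_ptClass h Ca Cb ha hb
    rw [map_sub, sub_eq_zero, hy, hκ, e1, e2]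
    exact ptClass_congr hxℓ rfl _ _ _ _
  exact key_algebra_sel M (reductionModL A₀ p) (reductionModL A p)
    (fun t z hz hz0 => hHR ℓ₀ hℓ₀ hℓ₀p A₀ hA₀ t z hz hz0)
    (fun t z hz hz0 => hHR ℓ hℓ hℓp A hA t z hz hz0)
    (by rw [hMrat]; exact hFG ℓ₀ hℓ₀ hℓ₀p A₀ hA₀)
    (by rw [hMrat]; exact hFG ℓ hℓ hℓp A hA)
    ε κ hκM hκE (p - 1) hp1.ne' hκtors r hr
    (fun z hz => hsel z hz) hinj₁ hinj₂ y hyM hy0 hyκ

end H40

/-- (EIS-SEL) **abstract form of the Hecke inputs, Selmer form**: as `Stmt_eisData`, with the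
Eisenstein descent replaced by (SELB). -/
def Stmt_eisDataSel (p : ℕ) [NeZero p] : Prop :=
  ∀ (Pinf P0 : PlaceBar p) (hc : IsCuspPair p Pinf P0),
    ∃ (T : Type) (_ : CommRing T) (_ : Module T (JZero p)) (ε : T →+* ℤ) (r : ℕ),
      (∀ (t : T) (z : JZero p), z ∈ ratPts p → t • z ∈ ratPts p) ∧
      (∀ ℓ : ℕ, ℓ.Prime → ℓ ≠ p → ∀ A : ValuationSubring (AlgebraicClosure ℚ),
        A.LiesOverPrime ℓ → ∀ (t : T) (z : JZero p), z ∈ ratPts p → reductionModL A p z = 0 →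
          reductionModL A p (t • z) = 0) ∧
      (∀ t : T, t • ptClass Pinf P0 hc.deg_inf hc.deg_zero =
        ε t • ptClass Pinf P0 hc.deg_inf hc.deg_zero) ∧
      r.Prime ∧ r ∣ addOrderOf (ptClass Pinf P0 hc.deg_inf hc.deg_zero) ∧
      ∀ z ∈ ratPts p, ∃ t : T, ¬ (r : ℤ) ∣ ε t ∧
        ∃ h ∈ ratPts p, (∃ j : ℕ, r ^ j • h = 0) ∧ ∃ w ∈ ratPts p, t • z = h + r • w

namespace H40

/-- The abstract Hecke inputs (Selmer form) from the leaves on the Hecke ring of the prelude. -/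
theorem stmt_eisDataSel_of_leaves (p : ℕ) [NeZero p] (hGH : Stmt_GH p) (hHR : Stmt_HR p)
    (hcE : Stmt_cuspEis p) (hD : Stmt_selB p) : Stmt_eisDataSel p := by
  intro Pinf P0 hc
  obtain ⟨r, hr, hrκ, hsel⟩ := hD Pinf P0 hc
  refine ⟨HeckeAlg, inferInstance, heckeModuleBar p, eisEval p, r, ?_, ?_, ?_, hr, hrκ, ?_⟩
  · intro t z hz σ
    letI := heckeModuleBar p
    show σ • hsmul p t z = hsmul p t z
    rw [hGH σ t z, hz σ]
  · intro ℓ hℓ hℓp A hA t z hz hz0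
    exact hHR ℓ hℓ hℓp A hA t z hz hz0
  · intro t
    exact hcE Pinf P0 hc t
  · intro z hz
    exact hsel z hz

/-- **CORE** from the Selmer form of the Hecke inputs. -/
theorem core_of_eisDataSel (p : ℕ) [NeZero p] (hp : p.Prime) (hp2 : p ≠ 2) (hp3 : p ≠ 3)
    (hS18 : Stmt_S18) (hFG : Stmt_redFG p)
    (hcG : Stmt_cuspGal p) (hcT : Stmt_cuspTors p) (hE : Stmt_eisDataSel p)
    (Pinf P0 : PlaceBar p) (hc : IsCuspPair p Pinf P0)
    (x : PlaceBar p) (hx1 : x.deg = 1) (hxfix : ∀ σ : GalQ, galPlace p σ x = x)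
    (A₂ : ValuationSubring (AlgebraicClosure ℚ)) (hA₂ : A₂.LiesOverPrime 2)
    (h₂ : ReductionInputsModL A₂ p)
    (hx₂ : placeReductionModL h₂ x = placeReductionModL h₂ P0)
    (A₃ : ValuationSubring (AlgebraicClosure ℚ)) (hA₃ : A₃.LiesOverPrime 3)
    (h₃ : ReductionInputsModL A₃ p)
    (hx₃ : placeReductionModL h₃ x = placeReductionModL h₃ P0)
    (ℓ : ℕ) (hℓ : ℓ.Prime) (hℓp : ℓ ≠ p) (hℓn : ¬ ℓ ∣ p - 1)
    (A : ValuationSubring (AlgebraicClosure ℚ)) (hA : A.LiesOverPrime ℓ)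
    (h : ReductionInputsModL A p)
    (hxℓ : placeReductionModL h x = placeReductionModL h Pinf) : False := by
  obtain ⟨T, iR, iM, ε, r, hsub, hHR, hκE, hr, hrκ, hsel⟩ := hE Pinf P0 hc
  exact core_gen_sel p hp hp2 hp3 hS18 hFG ε hsub hHR Pinf P0 hc.deg_inf hc.deg_zero
    (fun σ => (hcG Pinf P0 hc σ).1) (fun σ => (hcG Pinf P0 hc σ).2) (hcT Pinf P0 hc) hκE r hr hrκ
    hsel x hx1 hxfix A₂ hA₂ h₂ hx₂ A₃ hA₃ h₃ hx₃ ℓ hℓ hℓp hℓn A hA h hxℓ

/-- **CORE, Fricke-dual form**, from the Selmer form of the Hecke inputs. -/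
theorem core'_of_eisDataSel (p : ℕ) [NeZero p] (hp : p.Prime) (hp2 : p ≠ 2) (hp3 : p ≠ 3)
    (hS18 : Stmt_S18) (hFG : Stmt_redFG p)
    (hcG : Stmt_cuspGal p) (hcT : Stmt_cuspTors p) (hE : Stmt_eisDataSel p)
    (Pinf P0 : PlaceBar p) (hc : IsCuspPair p Pinf P0)
    (x : PlaceBar p) (hx1 : x.deg = 1) (hxfix : ∀ σ : GalQ, galPlace p σ x = x)
    (A₂ : ValuationSubring (AlgebraicClosure ℚ)) (hA₂ : A₂.LiesOverPrime 2)
    (h₂ : ReductionInputsModL A₂ p)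
    (hx₂ : placeReductionModL h₂ x = placeReductionModL h₂ Pinf)
    (A₃ : ValuationSubring (AlgebraicClosure ℚ)) (hA₃ : A₃.LiesOverPrime 3)
    (h₃ : ReductionInputsModL A₃ p)
    (hx₃ : placeReductionModL h₃ x = placeReductionModL h₃ Pinf)
    (ℓ : ℕ) (hℓ : ℓ.Prime) (hℓp : ℓ ≠ p) (hℓn : ¬ ℓ ∣ p - 1)
    (A : ValuationSubring (AlgebraicClosure ℚ)) (hA : A.LiesOverPrime ℓ)
    (h : ReductionInputsModL A p)
    (hxℓ : placeReductionModL h x = placeReductionModL h P0) : False := by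
  obtain ⟨T, iR, iM, ε, r, hsub, hHR, hκE, hr, hrκ, hsel⟩ := hE Pinf P0 hc
  have hsw : ptClass P0 Pinf hc.deg_zero hc.deg_inf = -ptClass Pinf P0 hc.deg_inf hc.deg_zero :=
    ptClass_swap Pinf P0 hc.deg_inf hc.deg_zero
  refine core_gen_sel p hp hp2 hp3 hS18 hFG ε hsub hHR P0 Pinf hc.deg_zero hc.deg_inf
    (fun σ => (hcG Pinf P0 hc σ).2) (fun σ => (hcG Pinf P0 hc σ).1) ?_ ?_ r hr ?_ hsel
    x hx1 hxfix A₂ hA₂ h₂ hx₂ A₃ hA₃ h₃ hx₃ ℓ hℓ hℓp hℓn A hA h hxℓ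
  · rw [hsw, neg_nsmul, hcT Pinf P0 hc, neg_zero]
  · intro t
    rw [hsw, smul_neg, hκE t]
    exact (zsmul_neg _ _).symm
  · rw [hsw, addOrderOf_neg]
    exact hrκ

end H40

/-- All inputs of S15 at a prime level `p` (Fricke-dual bridge, Selmer form of the Hecke
inputs). -/
structure InputsSel (p : ℕ) [NeZero p] : Prop where
  redInputs : Stmt_redInputs p
  redFG : Stmt_redFG p
  cuspExists : Stmt_cuspExists p
  cuspGal : Stmt_cuspGal p
  cuspTors : Stmt_cuspTors p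
  eis : Stmt_eisDataSel p
  bridge : Stmt_bridge' p

namespace H40

/-- **S15 from its inputs, Selmer form** (the statement below the hypotheses `hS18`, `hI` is the
frozen statement S15, verbatim). -/
theorem result_of_inputsSel (hS18 : Stmt_S18)
    (hI : ∀ (p : ℕ) [NeZero p], p.Prime → p ∉ ({2, 3, 5, 7, 13} : Finset ℕ) → InputsSel p)
    {p : ℕ} (hp : p.Prime) (hp' : p ∉ ({2, 3, 5, 7, 13} : Finset ℕ))
    (W : WeierstrassCurve ℤ) (hΔ : W.Δ ≠ 0)
    (Q : ((W.map (Int.castRingHom ℚ))⁄(AlgebraicClosure ℚ)).Point)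
    (hQfix : ∀ σ : AlgebraicClosure ℚ ≃ₐ[ℚ] AlgebraicClosure ℚ, σ • Q = Q)
    (hQord : addOrderOf Q = p)
    (h2Δ : (2 : ℤ) ∣ W.Δ) (h2c₄ : ¬ (2 : ℤ) ∣ W.c₄)
    (h2 : ∀ A : ValuationSubring (AlgebraicClosure ℚ), A.LiesOverPrime 2 →
      ¬ W.InZeroComponentAt A Q)
    (h3Δ : (3 : ℤ) ∣ W.Δ) (h3c₄ : ¬ (3 : ℤ) ∣ W.c₄)
    (h3 : ∀ A : ValuationSubring (AlgebraicClosure ℚ), A.LiesOverPrime 3 →
      ¬ W.InZeroComponentAt A Q)
    {ℓ : ℕ} (hℓ : ℓ.Prime) (hℓp : ℓ ≠ p) (hℓΔ : (ℓ : ℤ) ∣ W.Δ) (hℓc₄ : ¬ (ℓ : ℤ) ∣ W.c₄)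
    (A : ValuationSubring (AlgebraicClosure ℚ)) (hA : A.LiesOverPrime ℓ) :
    ¬ W.InZeroComponentAt A Q := by
  haveI : NeZero p := ⟨hp.ne_zero⟩
  -- the inputs in Selmer form give a contradiction exactly as in `result_of_inputsB`:
  -- we run `result_of_inputsB`'s argument with `core'_of_eisDataSel`
  intro hin
  have hp2 : p ≠ 2 := fun e => hp' (by simp [e])
  have hp3 : p ≠ 3 := fun e => hp' (by simp [e])
  have I := hI p hp hp'
  obtain ⟨Pinf, P0, hc⟩ := I.cuspExists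
  obtain ⟨x, hx1, hxfix, hxred⟩ := I.bridge W hΔ Q hQfix hQord h2Δ h2c₄ h2 Pinf P0 hc
  obtain ⟨A₂, hA₂⟩ := Fermat.Agent.Lib.FrobExists.exists_liesOverPrime 2 Nat.prime_two
  obtain ⟨A₃, hA₃⟩ := Fermat.Agent.Lib.FrobExists.exists_liesOverPrime 3 Nat.prime_three
  have h₂ := I.redInputs 2 Nat.prime_two (Ne.symm hp2) A₂ hA₂
  have h₃ := I.redInputs 3 Nat.prime_three (Ne.symm hp3) A₃ hA₃
  have h := I.redInputs ℓ hℓ hℓp A hA
  have hx₂ := (hxred 2 Nat.prime_two (Ne.symm hp2) (by exact_mod_cast h2Δ)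
    (by exact_mod_cast h2c₄) A₂ hA₂ h₂).1 (h2 A₂ hA₂)
  have hx₃ := (hxred 3 Nat.prime_three (Ne.symm hp3) (by exact_mod_cast h3Δ)
    (by exact_mod_cast h3c₄) A₃ hA₃ h₃).1 (h3 A₃ hA₃)
  have hxℓ := (hxred ℓ hℓ hℓp hℓΔ hℓc₄ A hA h).2 hin
  have hℓn : ¬ ℓ ∣ p - 1 :=
    H83.not_dvd_pred_of_inZero hp hp3 W hΔ Q hQfix hQord hℓ hℓp hℓΔ hℓc₄ A hA hin
  exact core'_of_eisDataSel p hp hp2 hp3 hS18 I.redFG I.cuspGal I.cuspTors I.eis
    Pinf P0 hc x hx1 hxfix A₂ hA₂ h₂ hx₂ A₃ hA₃ h₃ hx₃ ℓ hℓ hℓp hℓn A hA h hxℓ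

end H40

end Fermat.Agent.S15

end
end
-- ==== END Fermat.Agent.S15.H40_CoreSel
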