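-- GENERATED (merged mirror, NOTES/tools/trim/merge3_helper67.py): 1 modules of the originals, bodies verbatim.
import Fermat.Agent.Zm.S15_L03_000
import Fermat.Agent.Zm.S15_L01_001
import Fermat.Agent.Zm.S15_L03_003
import Fermat.Agent.Zm.S15_L02_001

-- ==== BEGIN Fermat.Agent.S15.Desc.H63_VtWire
section

/-!
# S15 / DESC: `Stmt_VT p r` by the dimension count (route 2; helper63)

`J = J₀(p)`, `V = J[r]`, `A` a valuation ring of `ℚ̄` over `p`, `I = I_A`,
`T = toricSub A p r` the span of `K1(r)` (`BAD.InK1 A p r`) in `V`.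

Leaves:
* `BAD.Stmt_B1 p p` : inertia at `p` acts trivially on `K1(n)`, `p ∤ n` (BAD: `b1_of_core`);
* `Stmt_GLUEdim p r` : `2 dim T ≤ dim V` (GLUE: `T ↪ μ_r^Σ / μ_r`, `#Σ = g + 1`, `dim V = 2 g`);
* `Stmt_FIX p r` : `dim V^I ≤ dim T + 1` (slopes: the component group is cyclic).

`stmt_VT_of_count` : FIN, GAL, GH, B1, GLUE-dim, FIX ⟹ `Stmt_VT p r`.
(B0-div) is `H63.b0div` (unconditional), (CYC) is helper69's `cyc_of_unip`.
-/

set_option autoImplicit false
set_option linter.style.haveILetI false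

noncomputable section

open ModularCurve Module

namespace Fermat.Agent.S15.Desc.H63

open Fermat.Agent.S15 Fermat.Agent.S15.Desc

local notation "Qbar" => AlgebraicClosure ℚ

attribute [local instance] heckeInst

/-- The toric subspace `T ≤ J₀(p)[r]`: the span of `K1(r)`. -/
def toricSub (A : ValuationSubring Qbar) (p r : ℕ) : Submodule (ZMod r) (TorsR (JZero p) r) :=
  Submodule.span (ZMod r) {v | Fermat.Agent.BAD.InK1 A p r (v : JZero p)}

/-- (GLUE-dim) the toric part is at most half of `J₀(p)[r]`. -/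
def Stmt_GLUEdim (p r : ℕ) : Prop :=
  ∀ A : ValuationSubring Qbar, A.LiesOverPrime p →
    2 * finrank (ZMod r) ↥(toricSub A p r) ≤ finrank (ZMod r) (TorsR (JZero p) r)

/-- (FIX) the inertia-fixed part of `J₀(p)[r]` is the toric part up to one dimension. -/
def Stmt_FIX (p r : ℕ) : Prop :=
  ∀ A : ValuationSubring Qbar, A.LiesOverPrime p →
    finrank (ZMod r) ↥(fixI (J := JZero p) r (A.inertiaSubgroupIn ℚ)) ≤
      finrank (ZMod r) ↥(toricSub A p r) + 1

/-- `r (σ y - y) = 0` if `r y` is fixed by `σ`. -/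
theorem nsmul_smul_sub_eq_zero {G J : Type*} [Group G] [AddCommGroup J] [DistribMulAction G J]
    (r : ℕ) (σ : G) (y : J) (h : σ • (r • y) = r • y) : r • (σ • y - y) = 0 := by
  rw [smul_sub, ← smul_comm, h, sub_self]

variable {p : ℕ} [NeZero p]

omit [NeZero p] in
/-- (UNIP) at `p` from (B1) at `p` (and the free (B0)). -/
theorem torsUnipAt_of_B1 {r : ℕ} (hp : p.Prime) (hpr : p ≠ r) (hr : r.Prime)
    (hB1 : Fermat.Agent.BAD.Stmt_B1 p p) : Stmt_TorsUnipAt p r := by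
  rintro A hA σ hσ τ hτ x ⟨k, hk⟩
  have hK : Fermat.Agent.BAD.InK1 A p (r ^ k) (τ • x - x) :=
    Fermat.Agent.BAD.H91.stmt_B0 p A τ hτ (r ^ k) x hk
  have hprk : ¬ p ∣ r ^ k := by
    intro hd
    exact hpr ((Nat.prime_dvd_prime_iff_eq hp hr).1 (hp.dvd_of_dvd_pow hd))
  have h1 := hB1 A hA σ hσ (r ^ k) hprk (τ • x - x) hK
  rw [smul_sub] at h1
  have h2 : σ • τ • x - σ • x - τ • x + x = (σ • τ • x - σ • x) - (τ • x - x) := by abel
  rw [h2, h1, sub_self]

/-- **(VT) by the dimension count** (route 2). -/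
theorem stmt_VT_of_count {r : ℕ} (hp : p.Prime) (hr : r.Prime) (hpr : p ≠ r)
    (hFIN : Stmt_FIN p) (hGAL : Stmt_GALfin p) (hGH : Stmt_GH p)
    (hB1 : Fermat.Agent.BAD.Stmt_B1 p p) (hGLUE : Stmt_GLUEdim p r) (hFIX : Stmt_FIX p r) :
    haveI : NeZero r := ⟨hr.ne_zero⟩; Stmt_VT p r := by
  classical
  haveI hrF : Fact r.Prime := ⟨hr⟩
  haveI : NeZero r := ⟨hr.ne_zero⟩
  intro Ap hAp k e hproj
  have hGH' : ∀ (σ : GalQ) (t : HeckeAlg) (z : JZero p), σ • (t • z) = t • (σ • z) :=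
    fun σ t z => hGH σ (anemicSubst p t) z
  have he2 := hproj.2.1
  have hfinV : Finite (TorsR (JZero p) r) := hFIN r hr.pos
  have hidem1 : ∀ v : JZero p, r • v = 0 → e • (e • v) = e • v := by
    intro v hv
    refine he2 v ?_
    rw [pow_succ, mul_smul, hv, smul_zero]
  have hprn : ¬ p ∣ r := fun hd => hpr ((Nat.prime_dvd_prime_iff_eq hp hr).1 hd)
  -- (B1) on the span
  have hB1T : ∀ σ ∈ Ap.inertiaSubgroupIn ℚ, ∀ v ∈ toricSub Ap p r, σ • v = v := by
    have hle : toricSub Ap p r ≤ fixI (J := JZero p) r (Ap.inertiaSubgroupIn ℚ) := by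
      refine Submodule.span_le.mpr ?_
      intro v hv σ hσ
      apply Subtype.ext
      exact hB1 Ap hAp σ hσ r hprn (v : JZero p) hv
    intro σ hσ v hv
    exact hle hv σ hσ
  -- (B0-div)
  have hB0div : ∀ σ ∈ Ap.inertiaSubgroupIn ℚ, ∀ y ∈ kumDom GalQ (JZero p) r,
      toTors r (σ • y - y) ∈ toricSub Ap p r := by
    intro σ hσ y hy
    refine Submodule.subset_span ?_
    show Fermat.Agent.BAD.InK1 Ap p r ((toTors r (σ • y - y) : TorsR (JZero p) r) : JZero p)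
    have hy' : r • (σ • y - y) = 0 := nsmul_smul_sub_eq_zero r σ y (hy σ)
    rw [coe_toTors hy']
    exact b0div p Ap σ hσ r y (fun τ _ => hy τ)
  -- (CYC)
  have hcyc1 := cyc_of_unip (J := JZero p) p r hp hr hpr Ap hAp
    (fun m => hFIN (r ^ m) (pow_pos hr.pos m)) hGAL (torsUnipAt_of_B1 hp hpr hr hB1 Ap hAp) 1
  have hcyc : ∃ σ₀ ∈ Ap.inertiaSubgroupIn ℚ, ∀ σ ∈ Ap.inertiaSubgroupIn ℚ,
      ∃ k : ℕ, ∀ u : JZero p, r • u = 0 → σ • u = σ₀ ^ k • u := by
    obtain ⟨σ₀, hσ₀, h⟩ := hcyc1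
    refine ⟨σ₀, hσ₀, fun σ hσ => ?_⟩
    obtain ⟨k, hk⟩ := h σ hσ
    exact ⟨k, fun u hu => hk u (by rw [pow_one]; exact hu)⟩
  -- (COUNT)
  have hcount : finrank (ZMod r) ↥(toricSub Ap p r) +
      finrank (ZMod r) ↥(fixI (J := JZero p) r (Ap.inertiaSubgroupIn ℚ)) ≤
        finrank (ZMod r) (TorsR (JZero p) r) + 1 := by
    have h1 := hGLUE Ap hAp
    have h2 := hFIX Ap hAp
    omega
  exact exists_vt_of_count (G := GalQ) (J := JZero p) r e hGH'
    (Ap.inertiaSubgroupIn ℚ) hfinV hidem1 (toricSub Ap p r) hB1T hB0div hcyc hcount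

end Fermat.Agent.S15.Desc.H63

end
end
-- ==== END Fermat.Agent.S15.Desc.H63_VtWire
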