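-- GENERATED (merged mirror, NOTES/tools/trim/merge3_helper67.py): 1 modules of the originals, bodies verbatim.
import Fermat.Agent.Zm.S15_L02_003
import Fermat.Agent.Zm.S56_L01_000
import Fermat.Agent.Zm.S48_L01_002

-- ==== BEGIN Fermat.Agent.S15.Desc.H97_EsNil
section

/-!
# S15 / DESC, leaf L3 (ES-FD) in nilpotent form (helper97)

`es_nilpotent`: let `V` be an `𝔽_r[G_ℚ]`-module on which `G_ℚ` acts through a number field `L`,
`W ≤ V` a `G_ℚ`-stable subspace, `T l` operators on `V` (Hecke operators) such that for all primes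
`l` outside a finite set `S₀ ∋ r`

* (Eichler–Shimura) `τ² - T_l τ + l = 0` on `W` for every Frobenius `τ` at `l`,
* `T_l` preserves `W` and commutes with `G_ℚ` on `W`,
* (Eisenstein) `T_l - (1 + l)` is nilpotent on `W`.

Then for every `σ ∈ G_ℚ` the operator `(σ - 1)(σ - χ(σ))` is nilpotent on `W`
(`χ` the cyclotomic character mod `r`): this is the hypothesis `hES` of `sel_bound`.

The Frobenius density theorem is used in its existence form `H47.stmt_FD2` (`σ` is a *power* of a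
Frobenius on `L(ζ_r)`), which is enough because `(τ^j - 1)(τ^j - l^j)` is divisible by
`(τ - 1)(τ - l)`.
-/

set_option autoImplicit false

open Polynomial

namespace Fermat.Agent.S15.Desc.H97

open Fermat.Agent.S15.Desc

local notation "Qbar" => AlgebraicClosure ℚ
local notation "GQ" => (AlgebraicClosure ℚ ≃ₐ[ℚ] AlgebraicClosure ℚ)

section Algebra

variable {k : Type*} [Field k] {E : Type*} [Ring E] [Algebra k E]

theorem key_aux (F t z : E) (e1 : F * F = t * F - z) (hz : z * F = F * z) :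
    (F - 1) * (F - z) = (t - (1 + z)) * F := by
  have e3 : (F - 1) * (F - z) = F * F - F * z - F + z := by noncomm_ring
  have e4 : (t - (1 + z)) * F = t * F - F - z * F := by noncomm_ring
  rw [e3, e4, e1, hz]
  abel

/-- Pure algebra: if `F² - tF + c = 0`, `t` commutes with `F` and `(t - (1 + c))^M = 0`, then
`((F^j - 1)(F^j - c^j))^M = 0`. -/
theorem pow_esPoly_eq_zero (F t : E) (c : k) (M j : ℕ)
    (h1 : F * F - t * F + c • (1 : E) = 0) (h2 : Commute t F)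
    (h3 : (t - (1 + c) • (1 : E)) ^ M = 0) :
    ((F ^ j - 1) * (F ^ j - (c ^ j) • (1 : E))) ^ M = 0 := by
  have hkey : (F - 1) * (F - c • (1 : E)) = (t - (1 + c) • (1 : E)) * F := by
    have e1 : F * F = t * F - c • (1 : E) := by
      rw [eq_sub_iff_add_eq, ← sub_eq_zero]
      rw [← h1]
      abel
    have hz : c • (1 : E) * F = F * (c • (1 : E)) :=
      ((Commute.one_left F).smul_left c).eq
    have e2 : (1 + c) • (1 : E) = 1 + c • (1 : E) := by rw [add_smul, one_smul]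
    rw [e2]
    exact key_aux F t (c • (1 : E)) e1 hz
  have hcomm : Commute (t - (1 + c) • (1 : E)) F :=
    (h2.sub_left ((Commute.one_left F).smul_left _))
  have hP : ((F - 1) * (F - c • (1 : E))) ^ M = 0 := by
    rw [hkey, hcomm.mul_pow, h3, zero_mul]
  -- polynomial identities
  have hd1 : (X - 1 : k[X]) ∣ X ^ j - 1 := by
    simpa using sub_dvd_pow_sub_pow (X : k[X]) 1 j
  have hd2 : (X - C c : k[X]) ∣ X ^ j - C (c ^ j) := by
    simpa using sub_dvd_pow_sub_pow (X : k[X]) (C c) j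
  obtain ⟨Q, hQ⟩ := mul_dvd_mul hd1 hd2
  have ha1 : aeval F ((X ^ j - 1) * (X ^ j - C (c ^ j)) : k[X])
      = (F ^ j - 1) * (F ^ j - (c ^ j) • (1 : E)) := by
    simp [Algebra.algebraMap_eq_smul_one, _root_.smul_pow]
  have ha2 : aeval F ((X - 1) * (X - C c) : k[X]) = (F - 1) * (F - c • (1 : E)) := by
    simp [Algebra.algebraMap_eq_smul_one]
  rw [← ha1, hQ, ← map_pow, mul_pow, map_mul, map_pow, ha2, hP, zero_mul]

end Algebra

variable {r : ℕ} [hr : Fact r.Prime]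
variable {V : Type*} [AddCommGroup V] [Module (ZMod r) V] [DistribMulAction GQ V]
  [SMulCommClass GQ (ZMod r) V]

/-- The value of the cyclotomic character is determined by the action on `ζ₀`. -/
theorem chi_eq_of_apply_eq {ζ₀ : Qbar} (hζ : IsPrimitiveRoot ζ₀ r) (χ : GQ →* (ZMod r)ˣ)
    (hχ : ∀ σ : GQ, σ ζ₀ = ζ₀ ^ ((χ σ : (ZMod r)ˣ) : ZMod r).val)
    (g₁ g₂ : GQ) (h : g₁ ζ₀ = g₂ ζ₀) : χ g₁ = χ g₂ := by
  have : NeZero r := ⟨hr.out.ne_zero⟩
  rw [hχ g₁, hχ g₂] at h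
  have h1 := hζ.pow_inj (ZMod.val_lt _) (ZMod.val_lt _) h
  exact Units.ext (ZMod.val_injective r h1)

/-- The cyclotomic character of a Frobenius at `l ≠ r` is `l`. -/
theorem chi_frobenius {ζ₀ : Qbar} (hζ : IsPrimitiveRoot ζ₀ r) (χ : GQ →* (ZMod r)ˣ)
    (hχ : ∀ σ : GQ, σ ζ₀ = ζ₀ ^ ((χ σ : (ZMod r)ˣ) : ZMod r).val)
    {l : ℕ} (hl : l.Prime) (hlr : l ≠ r) (A : ValuationSubring Qbar) (hA : A.LiesOverPrime l)
    (τ : GQ) (hτ : A.IsFrobeniusAt τ l) : ((χ τ : (ZMod r)ˣ) : ZMod r) = (l : ZMod r) := by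
  have : NeZero r := ⟨hr.out.ne_zero⟩
  have hcop : r.Coprime l := (Nat.coprime_primes hr.out hl).2 (Ne.symm hlr)
  have h1 : τ ζ₀ = ζ₀ ^ l :=
    Fermat.Agent.R.H89.stmt_FrobCyc l hl A hA τ hτ r hcop ζ₀ hζ.pow_eq_one
  rw [hχ τ] at h1
  have hfin : IsOfFinOrder ζ₀ := hζ.isOfFinOrder hr.out.ne_zero
  have h2 := hfin.pow_eq_pow_iff_modEq.1 h1
  rw [← hζ.eq_orderOf] at h2
  have h3 := (ZMod.natCast_eq_natCast_iff _ _ _).2 h2
  rw [ZMod.natCast_zmod_val] at h3
  exact h3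

/-- **L3 (ES-FD), nilpotent form**: the hypothesis `hES` of `sel_bound`. -/
theorem es_nilpotent {ζ₀ : Qbar} (hζ : IsPrimitiveRoot ζ₀ r) (χ : GQ →* (ZMod r)ˣ)
    (hχ : ∀ σ : GQ, σ ζ₀ = ζ₀ ^ ((χ σ : (ZMod r)ˣ) : ZMod r).val)
    (W : Submodule (ZMod r) V) (hstab : ∀ σ : GQ, ∀ w ∈ W, σ • w ∈ W)
    (S₀ : Finset ℕ) (hrS : r ∈ S₀)
    (L : IntermediateField ℚ Qbar) (hLfd : FiniteDimensional ℚ L)
    (hL : ∀ σ : GQ, (∀ x ∈ L, σ x = x) → ∀ w ∈ W, σ • w = w)
    (T : ℕ → Module.End (ZMod r) V)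
    (hTW : ∀ l : ℕ, l.Prime → l ∉ S₀ → ∀ w ∈ W, T l w ∈ W)
    (hES : ∀ l : ℕ, l.Prime → l ∉ S₀ → ∀ A : ValuationSubring Qbar, A.LiesOverPrime l →
      ∀ τ : GQ, A.IsFrobeniusAt τ l → ∀ w ∈ W,
        τ • τ • w - T l (τ • w) + (l : ZMod r) • w = 0)
    (hcomm : ∀ l : ℕ, l.Prime → l ∉ S₀ → ∀ σ : GQ, ∀ w ∈ W, T l (σ • w) = σ • T l w)
    (hEis : ∀ l : ℕ, l.Prime → l ∉ S₀ → ∃ M : ℕ, ∀ w ∈ W,
      ((T l - (1 + (l : ZMod r)) • (1 : Module.End (ZMod r) V)) ^ M) w = 0) :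
    ∀ σ : GQ, ∃ N : ℕ, ∀ w ∈ W,
      (esOp (Representation.ofDistribMulAction (ZMod r) GQ V) χ σ ^ N) w = 0 := by
  classical
  intro σ
  set ρ := Representation.ofDistribMulAction (ZMod r) GQ V with hρ
  have hρapp : ∀ (g : GQ) (v : V), ρ g v = g • v := fun g v => rfl
  have hstab' : ∀ g : GQ, ∀ w ∈ W, ρ g w ∈ W := hstab
  -- the field `L(ζ₀)`
  have hint : IsIntegral ℚ ζ₀ := (hζ.isIntegral hr.out.pos).tower_top
  have hfd1 : FiniteDimensional ℚ (IntermediateField.adjoin ℚ {ζ₀}) :=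
    IntermediateField.adjoin.finiteDimensional hint
  have hfd : FiniteDimensional ℚ (L ⊔ IntermediateField.adjoin ℚ {ζ₀} :
      IntermediateField ℚ Qbar) := IntermediateField.finiteDimensional_sup _ _
  obtain ⟨l, A, τ, j, i, hl, hlS, hA, hτ, hj, -⟩ :=
    Fermat.Agent.Lib.FrobDensity.H47.stmt_FD2 S₀ _ hfd σ
  have hlr : l ≠ r := fun h => hlS (h ▸ hrS)
  have hζmem : ζ₀ ∈ (L ⊔ IntermediateField.adjoin ℚ {ζ₀} : IntermediateField ℚ Qbar) :=
    (le_sup_right : IntermediateField.adjoin ℚ {ζ₀} ≤ _)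
      (IntermediateField.mem_adjoin_simple_self ℚ ζ₀)
  -- `σ = τ ^ j` on `W`
  have hσW : ∀ w ∈ W, σ • w = (τ ^ j) • w := by
    intro w hw
    have h1 : ∀ x ∈ L, ((τ ^ j)⁻¹ * σ) x = x := by
      intro x hx
      have h2 := hj x ((le_sup_left : L ≤ _) hx)
      rw [AlgEquiv.mul_apply, ← h2]
      exact (τ ^ j).symm_apply_apply x
    have h3 := hL _ h1 w hw
    rw [mul_smul] at h3
    calc σ • w = (τ ^ j) • ((τ ^ j)⁻¹ • σ • w) := by rw [smul_inv_smul]
      _ = (τ ^ j) • w := by rw [h3]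
  -- the character
  have hχσ : χ σ = χ τ ^ j := by
    rw [← map_pow]
    exact chi_eq_of_apply_eq hζ χ hχ σ (τ ^ j) (hj ζ₀ hζmem).symm
  have hχτ := chi_frobenius hζ χ hχ hl hlr A hA τ hτ
  obtain ⟨M, hM⟩ := hEis l hl hlS
  refine ⟨M, fun w hw => ?_⟩
  -- operators on `W`
  set ρW := subRep ρ W hstab' with hρW
  set F : Module.End (ZMod r) W := ρW τ with hF
  set t : Module.End (ZMod r) W := (T l).restrict (hTW l hl hlS) with ht
  have h1 : F * F - t * F + (l : ZMod r) • (1 : Module.End (ZMod r) W) = 0 := by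
    ext w
    have := hES l hl hlS A hA τ hτ (w : V) w.2
    simpa [F, t, ρW, subRep, hρapp] using this
  have h2 : Commute t F := by
    ext w
    have := hcomm l hl hlS τ (w : V) w.2
    simpa [F, t, ρW, subRep, hρapp] using this
  have h3 : (t - (1 + (l : ZMod r)) • (1 : Module.End (ZMod r) W)) ^ M = 0 := by
    have haux : ∀ (n : ℕ) (w : W),
        (((t - (1 + (l : ZMod r)) • (1 : Module.End (ZMod r) W)) ^ n) w : V)
          = ((T l - (1 + (l : ZMod r)) • (1 : Module.End (ZMod r) V)) ^ n) (w : V) := by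
      intro n
      induction n with
      | zero => intro w; rfl
      | succ n ih =>
        intro w
        rw [pow_succ, Module.End.mul_apply, ih, pow_succ, Module.End.mul_apply]
        rfl
    ext w
    rw [haux M w, hM (w : V) w.2]
    rfl
  have hmain := pow_esPoly_eq_zero F t (l : ZMod r) M j h1 h2 h3
  have hes : esOp ρW χ σ = (F ^ j - 1) * (F ^ j - ((l : ZMod r) ^ j) • (1 : Module.End (ZMod r) W)) := by
    have e1 : ρW σ = F ^ j := by
      rw [hF, ← map_pow]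
      ext w
      exact hσW (w : V) w.2
    unfold esOp
    rw [e1, hχσ, Units.val_pow_eq_pow_val, hχτ]
  have hfin := esOp_subRep_pow ρ χ W hstab' σ M ⟨w, hw⟩
  rw [← hρW, hes, hmain] at hfin
  exact hfin.symm

end Fermat.Agent.S15.Desc.H97

end
-- ==== END Fermat.Agent.S15.Desc.H97_EsNil
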