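-- GENERATED (merged mirror, NOTES/tools/trim/merge3_helper67.py): 1 modules of the originals, bodies verbatim.
import Fermat.Agent.Zm.S15_L02_001
import Fermat.Agent.Zm.S15_L02_002
import Fermat.Agent.Zm.S15_L03_002
import Fermat.Agent.Zm.S15_L02_003
import Fermat.Agent.Zm.S15_L03_003
import Fermat.Agent.Zm.S15_L03_004
import Fermat.Agent.Zm.S35_L02_001

-- ==== BEGIN Fermat.Agent.S15.Desc.H69_Wire
section

/-!
# S15 / DESC: the assembly for `r` odd (helper69)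

`selBAt_of_leaves_odd` : the leaves of `S15/Desc/Defs.lean` imply `SelBAt p r` (`r` odd).
-/

set_option autoImplicit false
set_option maxHeartbeats 1600000
set_option synthInstance.maxHeartbeats 400000

noncomputable section

open ModularCurve Module

namespace Fermat.Agent.S15.Desc

open Fermat.Agent.S15

local notation "Qbar" => AlgebraicClosure ℚ

attribute [local instance] heckeInst

section Wire

variable (p r : ℕ) [NeZero p]

/-- The Eisenstein character on a generator. -/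
theorem eisEval_heckeGen {ℓ : ℕ} (hℓ : ℓ.Prime) (hℓp : ¬ ℓ ∣ p) :
    eisEval p (heckeGen ⟨ℓ, hℓ⟩) = 1 + (ℓ : ℤ) := by
  have h := MvPolynomial.aeval_X (R := ℤ) (eisensteinSystem p) (⟨ℓ, hℓ⟩ : Nat.Primes)
  have h2 : eisEval p (heckeGen ⟨ℓ, hℓ⟩) = eisensteinSystem p ⟨ℓ, hℓ⟩ := h
  rw [h2]
  exact eisensteinSystem_of_not_dvd (ℓ := ⟨ℓ, hℓ⟩) hℓp

variable {p}

/-- The hypothesis `hES` of `sel_bound` from the leaves. -/
theorem hES_of_leaves {r : ℕ} [hr : Fact r.Prime] (hp : p.Prime) (hpr : p ≠ r)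
    (hfinV : Finite (TorsR (JZero p) r))
    (hGAL : Stmt_GALfin p) (hGH : Stmt_GH p) (hES : Stmt_ESr p r)
    {k : ℕ} {e : HeckeAlg} (he : IsEisProj p r k e)
    {ζ₀ : Qbar} (hζ : IsPrimitiveRoot ζ₀ r) (χ : GalQ →* (ZMod r)ˣ)
    (hχ : ∀ σ : GalQ, σ ζ₀ = ζ₀ ^ ((χ σ : (ZMod r)ˣ) : ZMod r).val) :
    haveI : NeZero r := ⟨hr.out.ne_zero⟩
    ∀ σ : GalQ, ∃ N : ℕ, ∀ w ∈ eisW (J := JZero p) r e,
      (esOp (Representation.ofDistribMulAction (ZMod r) GalQ (TorsR (JZero p) r)) χ σ ^ N) w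
        = 0 := by
  classical
  haveI : NeZero r := ⟨hr.out.ne_zero⟩
  have hGH' : ∀ (σ : GalQ) (t : HeckeAlg) (z : JZero p), σ • (t • z) = t • (σ • z) :=
    fun σ t z => hGH σ (anemicSubst p t) z
  obtain ⟨he1, he2, he3⟩ := he
  set W : Submodule (ZMod r) (TorsR (JZero p) r) := eisW r e with hW
  have hstab : ∀ σ : GalQ, ∀ w ∈ W, σ • w ∈ W := by
    intro σ w hw
    show e • (σ • (w : JZero p)) = σ • (w : JZero p)
    have hw' : e • (w : JZero p) = w := hw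
    rw [← hGH', hw']
  -- the field
  choose S hS using hGAL
  haveI : Fintype (TorsR (JZero p) r) := Fintype.ofFinite _
  let S₁ : Finset Qbar := Finset.univ.biUnion fun v : TorsR (JZero p) r => S (v : JZero p)
  let L : IntermediateField ℚ Qbar := IntermediateField.adjoin ℚ (S₁ : Set Qbar)
  have hLfd : FiniteDimensional ℚ L :=
    IntermediateField.finiteDimensional_adjoin (fun x _ =>
      (H97.qbar_isAlgebraic.isAlgebraic x).isIntegral)
  have hL : ∀ σ : GalQ, (∀ x ∈ L, σ x = x) → ∀ w ∈ W, σ • w = w := by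
    intro σ hσ w _
    apply Subtype.ext
    show σ • (w : JZero p) = w
    refine hS (w : JZero p) σ fun x hx => hσ x ?_
    exact IntermediateField.subset_adjoin ℚ _
      (Finset.mem_coe.mpr (Finset.mem_biUnion.mpr ⟨w, Finset.mem_univ w, hx⟩))
  -- the Hecke operators on `J[r]`
  let T : ℕ → Module.End (ZMod r) (TorsR (JZero p) r) := fun l =>
    if hl : l.Prime then torsEnd (JZero p) r (heckeGen ⟨l, hl⟩) else 0
  have hT : ∀ (l : ℕ) (hl : l.Prime), T l = torsEnd (JZero p) r (heckeGen ⟨l, hl⟩) :=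
    fun l hl => dif_pos hl
  refine H97.es_nilpotent hζ χ hχ W hstab {p, r} (by simp) L hLfd hL T ?_ ?_ ?_ ?_
  · -- `T l` preserves `W`
    intro l hl _ w hw
    rw [hT l hl]
    show e • (heckeGen ⟨l, hl⟩ • (w : JZero p)) = heckeGen ⟨l, hl⟩ • (w : JZero p)
    have hw' : e • (w : JZero p) = w := hw
    rw [smul_comm, hw']
  · -- Eichler–Shimura
    intro l hl hlS A hA τ hτ w _
    have hlp : l ≠ p := fun h => hlS (by simp [h])
    have hlr : l ≠ r := fun h => hlS (by simp [h])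
    rw [hT l hl]
    apply Subtype.ext
    have h := hES l hl hlp hlr A hA τ hτ (w : JZero p) (mem_torsR.mp w.2)
    rw [Nat.cast_smul_eq_nsmul]
    exact h
  · -- Galois commutes with Hecke
    intro l hl _ σ w _
    rw [hT l hl]
    apply Subtype.ext
    show heckeGen ⟨l, hl⟩ • (σ • (w : JZero p)) = σ • (heckeGen ⟨l, hl⟩ • (w : JZero p))
    rw [hGH']
  · -- Eisenstein
    intro l hl hlS
    have hlp : l ≠ p := fun h => hlS (by simp [h])
    have hndvd : ¬ l ∣ p := fun hd => hlp ((Nat.prime_dvd_prime_iff_eq hl hp).mp hd)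
    set t : HeckeAlg := heckeGen ⟨l, hl⟩ - ((1 + l : ℕ) : HeckeAlg) with ht
    have hεt : eisEval p t = 0 := by
      rw [ht, map_sub, eisEval_heckeGen p hl hndvd, map_natCast]
      push_cast
      ring
    obtain ⟨N, hN⟩ := he3 t (by rw [hεt]; exact dvd_zero _)
    refine ⟨N, fun w hw => ?_⟩
    have h1 : T l - (1 + (l : ZMod r)) • (1 : Module.End (ZMod r) (TorsR (JZero p) r)) =
        torsEnd (JZero p) r t := by
      rw [hT l hl, ht, map_sub, map_natCast]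
      congr 1
      rw [Nat.cast_add, Nat.cast_one, ← Nat.cast_one (R := ZMod r), ← Nat.cast_add,
        Nat.cast_smul_eq_nsmul, nsmul_eq_mul, mul_one, Nat.cast_add, Nat.cast_one]
    rw [h1, ← map_pow]
    apply Subtype.ext
    rw [coe_torsEnd]
    exact hN (w : JZero p) (mem_torsR.mp w.2) hw

/-- `torsH` is finite. -/
theorem finite_torsH {r : ℕ} (hr : r.Prime) (hFIN : Stmt_FIN p) (e : HeckeAlg) (k : ℕ) :
    Finite ↥(torsH GalQ (JZero p) r e k) := by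
  haveI := hFIN (r ^ k) (pow_pos hr.pos k)
  refine Finite.of_injective
    (fun h : ↥(torsH GalQ (JZero p) r e k) => (⟨(h : JZero p), h.2.2.1⟩ : TorsR (JZero p) (r ^ k)))
    ?_
  intro a b hab
  apply Subtype.ext
  exact congrArg (fun v : TorsR (JZero p) (r ^ k) => (v : JZero p)) hab

/-- (VT) from (UNIP) and (CG) (route 1). -/
theorem stmt_VT_of_CG {r : ℕ} (hp : p.Prime) (hr : r.Prime) (hpr : p ≠ r)
    (hFIN : Stmt_FIN p) (hDIV : Stmt_DIV p r) (hGAL : Stmt_GALfin p) (hGH : Stmt_GH p)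
    (hTU : Stmt_TorsUnipAt p r) (hCG : Stmt_CG p r) :
    haveI : NeZero r := ⟨hr.ne_zero⟩; Stmt_VT p r := by
  classical
  haveI hrF : Fact r.Prime := ⟨hr⟩
  haveI : NeZero r := ⟨hr.ne_zero⟩
  intro Ap hAp k e hproj
  have hGH' : ∀ (σ : GalQ) (t : HeckeAlg) (z : JZero p), σ • (t • z) = t • (σ • z) :=
    fun σ t z => hGH σ (anemicSubst p t) z
  have he2 := hproj.2.1
  have hfinV : Finite (TorsR (JZero p) r) := hFIN r hr.pos
  have hidem1 : ∀ v : JZero p, r • v = 0 → e • (e • v) = e • v := by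
    intro v hv
    refine he2 v ?_
    rw [pow_succ, mul_smul, hv, smul_zero]
  have hcyc := cyc_of_unip (J := JZero p) p r hp hr hpr Ap hAp
    (fun m => hFIN (r ^ m) (pow_pos hr.pos m)) hGAL (hTU Ap hAp)
  obtain ⟨t₀, ht₀, ht₀n, hcg⟩ := hCG Ap hAp
  exact exists_vt (G := GalQ) (J := JZero p) r e hGH'
    (Ap.inertiaSubgroupIn ℚ) hfinV hidem1 hDIV (hTU Ap hAp) hcyc
    ⟨t₀, ht₀, ht₀n, fun x hx => hcg x hx⟩

/-- **The assembly for `r` odd**: the leaves imply (SELB) at `r`. -/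
theorem selBAt_of_leaves_odd {r : ℕ} (hp : p.Prime) (hr : r.Prime) (hpr : p ≠ r) (hr2 : r ≠ 2)
    (hFIN : Stmt_FIN p) (hDIV : Stmt_DIV p r) (hGAL : Stmt_GALfin p) (hGH : Stmt_GH p)
    (hPROJ : Stmt_PROJ p r) (hES : Stmt_ESr p r) (hLOCl : Stmt_LOCl p r) (hEXP : Stmt_EXP p r)
    (hLOCU : Stmt_LOCU p r) (hVT : haveI : NeZero r := ⟨hr.ne_zero⟩; Stmt_VT p r)
    (hNUM : haveI : NeZero r := ⟨hr.ne_zero⟩; Stmt_NUMinfOdd p r) : SelBAt p r := by
  classical
  haveI hrF : Fact r.Prime := ⟨hr⟩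
  haveI : NeZero r := ⟨hr.ne_zero⟩
  have hGH' : ∀ (σ : GalQ) (t : HeckeAlg) (z : JZero p), σ • (t • z) = t • (σ • z) :=
    fun σ t z => hGH σ (anemicSubst p t) z
  obtain ⟨k₁, hk₁⟩ := hEXP
  obtain ⟨c, ζ₀, hζ, hcζ, k₀, hnum⟩ := hNUM
  obtain ⟨k, hk⟩ : ∃ k : ℕ, k = max k₁ k₀ := ⟨_, rfl⟩
  have hkk₁ : k₁ ≤ k := hk ▸ le_max_left _ _
  have hkk₀ : k₀ ≤ k := hk ▸ le_max_right _ _
  obtain ⟨e, hproj⟩ := hPROJ k
  have he1 := hproj.1
  have he2 := hproj.2.1
  obtain ⟨Ar, hAr, 𝔅, h𝔅, hlocU⟩ := hLOCU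
  obtain ⟨Ap, hAp⟩ := Fermat.Agent.Lib.FrobExists.exists_liesOverPrime p hp
  -- a prime `q₀ ∉ {p, r}` and the family of places
  obtain ⟨q₀, hq₀ge, hq₀⟩ := Nat.exists_infinite_primes (p + r + 1)
  have hq₀p : q₀ ≠ p := by omega
  have hq₀r : q₀ ≠ r := by omega
  have hex : ∀ ℓ : ℕ, ∃ A : ValuationSubring Qbar, (ℓ = p → A = Ap) ∧ (ℓ = r → A = Ar) ∧
      (ℓ.Prime → A.LiesOverPrime ℓ) ∧
      (ℓ ≠ p → ℓ ≠ r → ∃ q : ℕ, q.Prime ∧ q ≠ p ∧ q ≠ r ∧ A.LiesOverPrime q) := by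
    intro ℓ
    by_cases h1 : ℓ = p
    · subst h1
      exact ⟨Ap, fun _ => rfl, fun h => absurd h hpr, fun _ => hAp, fun h => absurd rfl h⟩
    by_cases h2 : ℓ = r
    · subst h2
      exact ⟨Ar, fun h => absurd h h1, fun _ => rfl, fun _ => hAr, fun _ h => absurd rfl h⟩
    by_cases h3 : ℓ.Prime
    · obtain ⟨A, hA⟩ := Fermat.Agent.Lib.FrobExists.exists_liesOverPrime ℓ h3
      exact ⟨A, fun h => absurd h h1, fun h => absurd h h2, fun _ => hA,
        fun _ _ => ⟨ℓ, h3, h1, h2, hA⟩⟩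
    · obtain ⟨A, hA⟩ := Fermat.Agent.Lib.FrobExists.exists_liesOverPrime q₀ hq₀
      exact ⟨A, fun h => absurd h h1, fun h => absurd h h2, fun h => absurd h h3,
        fun _ _ => ⟨q₀, hq₀, hq₀p, hq₀r, hA⟩⟩
  choose A hAp' hAr' hA hAq using hex
  have hApe : A p = Ap := hAp' p rfl
  have hAre : A r = Ar := hAr' r rfl
  -- finiteness
  haveI hfinV : Finite (TorsR (JZero p) r) := hFIN r hr.pos
  have hidem1 : ∀ v : JZero p, r • v = 0 → e • (e • v) = e • v := by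
    intro v hv
    refine he2 v ?_
    rw [pow_succ, mul_smul, hv, smul_zero]
  -- the local condition at `p`
  obtain ⟨Vt, hVt1, hVt2⟩ := hVT Ap hAp k e hproj
  -- the cyclotomic character
  set χ : GalQ →* (ZMod r)ˣ := hζ.autToPow ℚ with hχdef
  have hχ : ∀ σ : GalQ, σ ζ₀ = ζ₀ ^ ((χ σ : (ZMod r)ˣ) : ZMod r).val :=
    fun σ => (hζ.autToPow_spec ℚ σ).symm
  have hσ₀ : χ c ≠ 1 := by
    intro h1
    apply hcζ
    have h2 := hχ c
    rw [h1, Units.val_one] at h2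
    haveI : Fact (1 < r) := ⟨hr.one_lt⟩
    rw [ZMod.val_one, pow_one] at h2
    exact h2
  set W : Submodule (ZMod r) (TorsR (JZero p) r) := eisW r e with hW
  have hstab : ∀ σ : GalQ, ∀ w ∈ W, σ • w ∈ W := by
    intro σ w hw
    show e • (σ • (w : JZero p)) = σ • (w : JZero p)
    have hw' : e • (w : JZero p) = w := hw
    rw [← hGH', hw']
  have hESnil := hES_of_leaves hp hpr hfinV hGAL hGH hES hproj hζ χ hχ
  have hnum' : finrank (ZMod r) ↥(W ⊓ Vt) ≤ finrank (ZMod r) ↥(W ⊓ fixSub r c) := by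
    have h1 : finrank (ZMod r) ↥W ≤ 2 * finrank (ZMod r) ↥(W ⊓ fixSub r c) :=
      hnum k e hkk₀ hproj
    omega
  have h𝔅' : IsBddFamily r (A r) 𝔅 := hAre ▸ h𝔅
  have hsel := sel_bound (V := TorsR (JZero p) r) hp hpr hr2 hA h𝔅' hζ χ hχ Vt (fixSub r c) c
    hσ₀ (fun v hv => hv) W hstab hESnil hnum'
  -- the Kummer cocycles are good
  have hloc : ∀ y ∈ kumDom GalQ (JZero p) r,
      kumCoc r e y ∈ Zgood (fun ℓ => (A ℓ).inertiaSubgroupIn ℚ) 𝔅 (vlocB p Vt) W := by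
    intro y hy
    have hyrat : r • y ∈ ratPts p := hy
    refine ⟨fun σ τ => kumCoc_cocycle hGH' e hy σ τ, fun σ => ?_, fun ℓ σ hσ => ?_, ?_⟩
    · show e • ((kumCoc r e y σ : TorsR (JZero p) r) : JZero p) = kumCoc r e y σ
      rw [coe_kumCoc e hy σ]
      refine hidem1 _ ?_
      have h1 : σ • (r • y) = r • (σ • y) := map_nsmul (DistribSMul.toAddMonoidHom (JZero p) σ) r y
      rw [nsmul_sub, ← h1, hy σ, sub_self]
    · unfold vlocB
      by_cases h1 : ℓ = p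
      · rw [if_pos h1]
        have hσ' : σ ∈ (A ℓ).inertiaSubgroupIn ℚ := hσ
        rw [h1, hApe] at hσ'
        exact hVt1 σ hσ' y hy
      rw [if_neg h1]
      by_cases h2 : ℓ = r
      · rw [if_pos h2]
        exact Submodule.mem_top
      rw [if_neg h2, Submodule.mem_bot]
      obtain ⟨q, hq, hqp, hqr, hAq'⟩ := hAq ℓ h1 h2
      have hfix := hLOCl q hq hqp hqr (A ℓ) hAq' σ hσ y hyrat
      apply Subtype.ext
      rw [coe_kumCoc e hy σ, hfix, sub_self, smul_zero]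
      rfl
    · obtain ⟨H, hH, hvan⟩ := hlocU k e hproj y hyrat
      refine ⟨H, hH, fun σ hσ => ?_⟩
      apply Subtype.ext
      rw [coe_kumCoc e hy σ, hvan σ hσ]
      rfl
  -- the exponent
  have hexp : ∀ h : JZero p, (∀ σ : GalQ, σ • h = h) → (∃ j : ℕ, r ^ j • h = 0) →
      r ^ k • h = 0 := by
    intro h hh hj
    have h1 := hk₁ h hh hj
    obtain ⟨d, hd⟩ := Nat.exists_eq_add_of_le hkk₁
    rw [hd, pow_add, mul_comm, mul_smul, h1, smul_zero]
  have hfinH := finite_torsH hr hFIN e k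
  have hmain := selB_abstract (G := GalQ) (J := JZero p) r e k hGH' hDIV hfinV hfinH hexp he2
    (fun ℓ => (A ℓ).inertiaSubgroupIn ℚ) 𝔅 (vlocB p Vt) hsel hloc
  -- conclusion
  intro z hz
  obtain ⟨h, hh, hhk, w, hw, hzw⟩ := hmain z hz
  refine ⟨anemicSubst p e, ?_, h, hh, ⟨k, hhk⟩, w, hw, hzw⟩
  rw [eisEval_anemicSubst]
  intro hdvd
  have h1 : (r : ℤ) ∣ 1 := by
    have := dvd_sub hdvd he1
    rwa [sub_sub_cancel] at this
  have h2 := Int.natAbs_dvd_natAbs.mpr h1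
  rw [Int.natAbs_natCast, Int.natAbs_one, Nat.dvd_one] at h2
  exact hr.one_lt.ne' h2

end Wire

end Fermat.Agent.S15.Desc

end
end
-- ==== END Fermat.Agent.S15.Desc.H69_Wire
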