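-- GENERATED (merged mirror, NOTES/tools/trim/merge3_helper67.py): 1 modules of the originals, bodies verbatim.
import Fermat.Agent.Zm.S15_L02_001
import Fermat.Agent.Zm.S15_L01_002
import Fermat.Agent.Zm.S35_L20_000
import Fermat.Agent.Zm.S35_L05_002
import Fermat.Agent.Zm.S44_L02_001
import Fermat.Agent.Zm.S15_L01_000
import Fermat.Agent.Zm.S35_L14_002
import Fermat.Agent.Zm.S15_L02_003
import Fermat.Agent.Zm.S15_L03_001
import Fermat.Agent.Zm.S35_L04_000
import Fermat.Agent.Zm.S44_L12_000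

-- ==== BEGIN Fermat.Agent.S15.Desc.H87_Leaves
section

set_option autoImplicit false
set_option linter.style.haveILetI false
set_option synthInstance.maxHeartbeats 400000

noncomputable section

open ModularCurve AlgebraicCurve

namespace Fermat.Agent.S15.Desc.H87

open Fermat.Agent.S15 Fermat.Agent.S15.Desc

local notation "Qbar" => AlgebraicClosure ℚ

attribute [local instance] heckeInst

/-! ### FIN -/

/-- Homomorphisms from a finitely generated group to a finite abelian group are finite in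
number. -/
theorem finite_addHom_of_fg (Γ A : Type*) [Group Γ] [Group.FG Γ] [AddCommGroup A] [Finite A] :
    Finite (Additive Γ →+ A) := by
  obtain ⟨S, hS⟩ := Group.fg_def.1 (inferInstance : Group.FG Γ)
  refine Finite.of_injective
    (fun φ : Additive Γ →+ A => fun s : (S : Set Γ) => φ (Additive.ofMul (s : Γ))) ?_
  intro φ ψ h
  ext x
  have hx : Additive.toMul x ∈ Subgroup.closure (S : Set Γ) := by rw [hS]; trivial
  have key : ∀ g ∈ Subgroup.closure (S : Set Γ),
      φ (Additive.ofMul g) = ψ (Additive.ofMul g) := by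
    intro g hg
    induction hg using Subgroup.closure_induction with
    | mem g hg => exact congrFun h ⟨g, hg⟩
    | one => rw [ofMul_one, map_zero, map_zero]
    | mul a b _ _ ha hb => rw [ofMul_mul, map_add, map_add, ha, hb]
    | inv a _ ha => rw [ofMul_inv, map_neg, map_neg, ha]
  exact key _ hx

/-- **FIN**: the torsion of `J₀(p)` is finite. -/
theorem stmt_FIN (p : ℕ) [NeZero p] : Stmt_FIN p := by
  intro n hn
  haveI : NeZero n := ⟨hn.ne'⟩
  obtain ⟨e⟩ := Fermat.Agent.GTor.H81.stmt_TOR_uncond p n hn.ne'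
  haveI : Group.FG (CongruenceSubgroup.Gamma0 p) := Fermat.Agent.Betti.fg_Gamma0 p
  haveI : Finite (Additive (CongruenceSubgroup.Gamma0 p) →+ ZMod n) :=
    finite_addHom_of_fg _ _
  haveI : Finite ↥(Fermat.Agent.GTor.homPE (CongruenceSubgroup.Gamma0 p) (ZMod n)) :=
    Finite.of_injective (fun x => (x : Additive (CongruenceSubgroup.Gamma0 p) →+ ZMod n))
      Subtype.val_injective
  haveI : Finite ↥(Pic0.torsion Qbar (modularFunctionFieldBar p) n) :=
    Finite.of_injective e e.injective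
  refine Finite.of_injective
    (fun v : TorsR (JZero p) n =>
      (⟨(v : JZero p), Pic0.mem_torsion.2 (by
        rw [natCast_zsmul]
        exact mem_torsR.1 v.2)⟩ : ↥(Pic0.torsion Qbar (modularFunctionFieldBar p) n))) ?_
  intro v w h
  exact Subtype.ext (congrArg Subtype.val h)

/-- FIN, as finiteness of a set. -/
theorem finite_tors (p : ℕ) [NeZero p] {n : ℕ} (hn : 0 < n) :
    {v : JZero p | n • v = 0}.Finite := by
  haveI := stmt_FIN p n hn
  exact Set.toFinite (torsR (JZero p) n : Set (JZero p))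

/-! ### GAL -/

/-- **GAL**: every point of `J₀(p)` is fixed by an open subgroup. -/
theorem stmt_GALfin (p : ℕ) [NeZero p] : Stmt_GALfin p := by
  classical
  intro y
  obtain ⟨L, hL, h⟩ := Fermat.Agent.GTor.H81.stmt_GAL p y
  haveI : FiniteDimensional ℚ L := hL
  obtain ⟨n, s, hs⟩ := Module.Finite.exists_fin (R := ℚ) (M := L)
  refine ⟨Finset.univ.image (fun i : Fin n => ((s i : L) : Qbar)), fun σ hσ => h σ ?_⟩
  intro x hx
  -- the two `ℚ`-linear maps `L → ℚ̄`, `x ↦ σ x` and `x ↦ x`, agree on the span of `s`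
  have hag : Set.EqOn ((σ.toLinearMap).comp L.val.toLinearMap) L.val.toLinearMap
      (Set.range s) := by
    rintro _ ⟨i, rfl⟩
    exact hσ _ (Finset.mem_image.2 ⟨i, Finset.mem_univ _, rfl⟩)
  have hmem : (⟨x, hx⟩ : L) ∈ Submodule.span ℚ (Set.range s) := by rw [hs]; trivial
  exact LinearMap.eqOn_span hag hmem

/-! ### DIV -/

/-- **DIV**: every rational point of `J₀(p)` is divisible by `r` in `J₀(p)(ℚ̄)`. -/
theorem stmt_DIV (p r : ℕ) [NeZero p] (hr : r ≠ 0) : Stmt_DIV p r :=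
  Fermat.Agent.S17.W2.H75.stmt_divisible p r hr

/-! ### PROJ -/

/-- **PROJ**: Eisenstein projectors of every level exist. -/
theorem stmt_PROJ (p r : ℕ) [NeZero p] (hr : 0 < r) : Stmt_PROJ p r := by
  intro k
  obtain ⟨e, h1, h2, h3⟩ := exists_eis_projector (R := HeckeAlg) (J := JZero p) (eisEval p) r k
    (finite_tors p (pow_pos hr (k + 1)))
  exact ⟨e, h1, h2, h3⟩

/-! ### ES, LOC-ℓ, EXP -/

/-- G-RED's reduction packages at level `p` for the prime `r`. -/
theorem allRed_level {p r : ℕ} [NeZero p] : Fermat.Agent.GTor.H81.AllRed p r := by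
  intro ℓ hℓ hndvd A hA
  haveI : NeZero ℓ := ⟨hℓ.ne_zero⟩
  exact Fermat.Agent.RED.H36.allRed p r ℓ hℓ hndvd A hA

/-- **ES**: the Eichler–Shimura relation on `J[r]`. -/
theorem stmt_ESr {p r : ℕ} [NeZero p] (hp : p.Prime) (hr : r.Prime) : Stmt_ESr p r := by
  intro ℓ hℓ hℓp hℓr A hA σ hσ x hx
  have hES := Fermat.Agent.GTor.H81.torsES_of_red hr (allRed_level (p := p) (r := r))
  have hℓN : ¬ ℓ ∣ p := fun hd => hℓp ((Nat.prime_dvd_prime_iff_eq hℓ hp).1 hd)
  have h := hES ℓ hℓ hℓN hℓr A hA σ hσ x ⟨1, by rw [pow_one]; exact hx⟩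
  have e := heckeModuleBar_heckeGen_smul
    (Fermat.Agent.Lib.HeckeComm.heckeOperatorsCommuteBar p) ⟨ℓ, hℓ⟩ (σ • x)
  have e' : heckeGen ⟨ℓ, hℓ⟩ • (σ • x) = heckeOperatorBar p ⟨ℓ, hℓ⟩ (σ • x) := by
    rw [heckeGen_smul p hℓ hℓp]
    exact e
  rw [e']
  exact h

/-- **LOC-ℓ**. -/
theorem stmt_LOCl {p r : ℕ} [NeZero p] (hp : p.Prime) (hr : r.Prime) : Stmt_LOCl p r := by
  intro ℓ hℓ hℓp hℓr A hA τ hτ y hy
  haveI : NeZero ℓ := ⟨hℓ.ne_zero⟩
  have hndvd : ¬ ℓ ∣ p * r := by
    intro hd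
    rcases (Nat.Prime.dvd_mul hℓ).1 hd with h | h
    · exact hℓp ((Nat.prime_dvd_prime_iff_eq hℓ hp).1 h)
    · exact hℓr ((Nat.prime_dvd_prime_iff_eq hℓ hr).1 h)
  exact loc_l_of_redPackage A (Fermat.Agent.RED.H36.allRed p r ℓ hℓ hndvd A hA) hτ hy

/-- The frozen statement S18, as the hypothesis `Stmt_S18` of the S15 wiring. -/
theorem stmt_S18 : Stmt_S18 := fun N _ _ _ hℓN A hA h m hm z hmz hz =>
  Fermat.Agent.S18.s18_of_DR2_KD Fermat.Agent.RED.H76.stmt_DR2 Fermat.Agent.RED.KD.H22.stmt_KD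
    N hℓN A hA h m hm z hmz hz

/-- **EXP**. -/
theorem stmt_EXP {p r : ℕ} [NeZero p] (hp : p.Prime) (hr : r.Prime) : Stmt_EXP p r :=
  exp_bound stmt_S18 (Fermat.Agent.S15.H17.stmt_redInputs_of Fermat.Agent.RED.H36.stmt_RM hp)
    (Fermat.Agent.S15.FG.H11.stmt_redFG hp) r hr

end Fermat.Agent.S15.Desc.H87

end
end
-- ==== END Fermat.Agent.S15.Desc.H87_Leaves
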