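-- GENERATED (merged mirror, NOTES/tools/trim/merge3_helper67.py): 4 modules of the originals, bodies verbatim.
import Fermat.Agent.Zm.S15_L03_000
import Fermat.Agent.Zm.S44_L01_002
import Fermat.Agent.Zm.S15_L01_001
import Fermat.Agent.Zm.S35_L11_001
import Fermat.Agent.Zm.S15_L01_003
import Fermat.Agent.Zm.S35_L07_001
import Fermat.Agent.Zm.S35_L20_000
import Fermat.Agent.Zm.S35_L16_000
import Fermat.Agent.Zm.S15_L01_000
import Fermat.Agent.Zm.S15_L03_001
import Fermat.Agent.Zm.S15_L02_000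
import Fermat.Agent.Zm.S15_L01_004

-- ==== BEGIN Fermat.Agent.S15.An.H67_LiouvFinal
section

set_option autoImplicit false

noncomputable section

open scoped PeriodPair Topology
open Filter

namespace Fermat.Agent.S15.An.H67

/-- The `j`-invariant of a lattice in terms of three distinct roots of its cubic. -/
theorem jL_eq_jOfDiff (L : PeriodPair) {a b c : ℂ}
    (ha : 4 * a ^ 3 - L.g₂ * a - L.g₃ = 0) (hb : 4 * b ^ 3 - L.g₂ * b - L.g₃ = 0)
    (hc : 4 * c ^ 3 - L.g₂ * c - L.g₃ = 0) (hab : a ≠ b) (hac : a ≠ c) (hbc : b ≠ c) :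
    jL L = jOfDiff (b - a) (c - a) (c - b) := by
  have hsum := cubic_sum ha hb hc hab hac hbc
  have h1 : (a - b) * (4 * (a ^ 2 + a * b + b ^ 2) - L.g₂) = 0 := by
    linear_combination ha - hb
  have h2 : 4 * (a ^ 2 + a * b + b ^ 2) - L.g₂ = 0 :=
    (mul_eq_zero.mp h1).resolve_left (sub_ne_zero.mpr hab)
  have hg2 : L.g₂ = 4 * (a ^ 2 + a * b + b ^ 2) := by linear_combination -h2
  have hg3 : L.g₃ = 4 * a ^ 3 - L.g₂ * a := by linear_combination -ha
  have hd12 : b - a ≠ 0 := sub_ne_zero.mpr (Ne.symm hab)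
  have hd13 : c - a ≠ 0 := sub_ne_zero.mpr (Ne.symm hac)
  have hd23 : c - b ≠ 0 := sub_ne_zero.mpr (Ne.symm hbc)
  have hD : ((b - a) * (c - a) * (c - b)) ^ 2 ≠ 0 :=
    pow_ne_zero 2 (mul_ne_zero (mul_ne_zero hd12 hd13) hd23)
  have hdisc : L.g₂ ^ 3 - 27 * L.g₃ ^ 2 = 16 * ((b - a) * (c - a) * (c - b)) ^ 2 := by
    rw [hg3, hg2, hsum]; ring
  have hdisc_ne : L.g₂ ^ 3 - 27 * L.g₃ ^ 2 ≠ 0 := by
    rw [hdisc]; exact mul_ne_zero (by norm_num) hD
  unfold jL jOfDiff
  rw [div_eq_div_iff hdisc_ne hD, hdisc, hg2, hsum]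
  ring

theorem cdiff_swap (L : PeriodPair) {p : ℕ} (hp : Odd p) (z₀ a b c : ℂ) :
    cdiff L p z₀ b a c = - cdiff L p z₀ a b c := by
  unfold cdiff
  have : (a - b) ^ p = - (b - a) ^ p := by
    rw [← hp.neg_pow, neg_sub]
  rw [this, mul_comm (XiAn L p z₀ b) (XiAn L p z₀ a)]
  ring

theorem jOfDiff_neg1 (x y z : ℂ) : jOfDiff (-x) y z = jOfDiff x y z := by
  unfold jOfDiff; ring
theorem jOfDiff_neg2 (x y z : ℂ) : jOfDiff x (-y) z = jOfDiff x y z := by
  unfold jOfDiff; ring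
theorem jOfDiff_neg3 (x y z : ℂ) : jOfDiff x y (-z) = jOfDiff x y z := by
  unfold jOfDiff; ring
theorem jOfDiff_comm12 (x y z : ℂ) : jOfDiff y x z = jOfDiff x y z := by
  unfold jOfDiff; ring
theorem jOfDiff_comm23 (x y z : ℂ) : jOfDiff x z y = jOfDiff x y z := by
  unfold jOfDiff; ring

/-- The product-formula `j`-invariant. -/
def Jq (L : PeriodPair) (p : ℕ) (z₀ a b c : ℂ) : ℂ :=
  jOfDiff (cdiff L p z₀ a b c) (cdiff L p z₀ a c b) (cdiff L p z₀ b c a)

theorem Jq_213 (L : PeriodPair) {p : ℕ} (hp : Odd p) (z₀ a b c : ℂ) :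
    Jq L p z₀ b a c = Jq L p z₀ a b c := by
  unfold Jq
  rw [cdiff_swap L hp z₀ a b c, jOfDiff_neg1, jOfDiff_comm23]

theorem Jq_132 (L : PeriodPair) {p : ℕ} (hp : Odd p) (z₀ a b c : ℂ) :
    Jq L p z₀ a c b = Jq L p z₀ a b c := by
  unfold Jq
  rw [cdiff_swap L hp z₀ b c a, jOfDiff_neg3, jOfDiff_comm12]

theorem Jq_321 (L : PeriodPair) {p : ℕ} (hp : Odd p) (z₀ a b c : ℂ) :
    Jq L p z₀ c b a = Jq L p z₀ a b c := by
  rw [Jq_213 L hp z₀ b c a, Jq_132 L hp z₀ b a c, Jq_213 L hp z₀ a b c]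

theorem Jq_231 (L : PeriodPair) {p : ℕ} (hp : Odd p) (z₀ a b c : ℂ) :
    Jq L p z₀ b c a = Jq L p z₀ a b c := by
  rw [Jq_132 L hp z₀ b a c, Jq_213 L hp z₀ a b c]

theorem Jq_312 (L : PeriodPair) {p : ℕ} (hp : Odd p) (z₀ a b c : ℂ) :
    Jq L p z₀ c a b = Jq L p z₀ a b c := by
  rw [Jq_213 L hp z₀ a c b, Jq_132 L hp z₀ a b c]

/-- The three half periods. -/
theorem isHalf_ω₁ (L : PeriodPair) : IsHalf L (L.ω₁ / 2) :=
  ⟨L.ω₁_div_two_notMem_lattice, by
    have : 2 * (L.ω₁ / 2) = L.ω₁ := by ring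
    rw [this]; exact L.ω₁_mem_lattice⟩

theorem isHalf_ω₂ (L : PeriodPair) : IsHalf L (L.ω₂ / 2) :=
  ⟨L.ω₂_div_two_notMem_lattice, by
    have : 2 * (L.ω₂ / 2) = L.ω₂ := by ring
    rw [this]; exact L.ω₂_mem_lattice⟩

theorem half_sub_notMem (L : PeriodPair) : L.ω₁ / 2 - L.ω₂ / 2 ∉ L.lattice := by
  have h := (L.mul_ω₁_add_mul_ω₂_mem_lattice (α := 1 / 2) (β := -(1 / 2))).not.mpr (by norm_num)
  have e : ((1 / 2 : ℚ) : ℂ) * L.ω₁ + ((-(1 / 2) : ℚ) : ℂ) * L.ω₂ = L.ω₁ / 2 - L.ω₂ / 2 := by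
    push_cast; ring
  rw [e] at h
  exact h

/-- The main formula with the roots numbered by the half periods. -/
theorem Setup.jL_eq_Jq {L L' : PeriodPair} {p : ℕ} {z₀ : ℂ} (S : Setup L L' p z₀)
    (hadd : Stmt_add) (hinj : Stmt_inj) :
    jL L' = Jq L p z₀ (℘[L] (L.ω₁ / 2)) (℘[L] (L.ω₂ / 2)) (℘[L] (L.ω₁ / 2 + L.ω₂ / 2)) := by
  have H1 := isHalf_ω₁ L
  have H2 := isHalf_ω₂ L
  have hd12 := half_sub_notMem L
  have H3 : IsHalf L (L.ω₁ / 2 + L.ω₂ / 2) := H1.add H2 hd12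
  have hd13 : L.ω₁ / 2 - (L.ω₁ / 2 + L.ω₂ / 2) ∉ L.lattice := by
    have e : L.ω₁ / 2 - (L.ω₁ / 2 + L.ω₂ / 2) = (-1 : ℤ) • (L.ω₂ / 2) := by simp
    rw [e]
    intro hmem
    apply H2.notMem
    have := L.lattice.smul_mem (-1 : ℤ) hmem
    simpa using this
  have hd23 : L.ω₂ / 2 - (L.ω₁ / 2 + L.ω₂ / 2) ∉ L.lattice := by
    have e : L.ω₂ / 2 - (L.ω₁ / 2 + L.ω₂ / 2) = (-1 : ℤ) • (L.ω₁ / 2) := by simp
    rw [e]
    intro hmem
    apply H1.notMem
    have := L.lattice.smul_mem (-1 : ℤ) hmem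
    simpa using this
  -- the difference formulas
  have f12 := S.diff_formula hadd hinj H1 H2 hd12
  have f13 := S.diff_formula hadd hinj H1 H3 hd13
  have f23 := S.diff_formula hadd hinj H2 H3 hd23
  have e13 : ℘[L] (L.ω₁ / 2 + (L.ω₁ / 2 + L.ω₂ / 2)) = ℘[L] (L.ω₂ / 2) := by
    have : L.ω₁ / 2 + (L.ω₁ / 2 + L.ω₂ / 2) = L.ω₂ / 2 + L.ω₁ := by ring
    rw [this, Setup.wp_add_of_mem L _ L.ω₁_mem_lattice]
  have e23 : ℘[L] (L.ω₂ / 2 + (L.ω₁ / 2 + L.ω₂ / 2)) = ℘[L] (L.ω₁ / 2) := by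
    have : L.ω₂ / 2 + (L.ω₁ / 2 + L.ω₂ / 2) = L.ω₁ / 2 + L.ω₂ := by ring
    rw [this, Setup.wp_add_of_mem L _ L.ω₂_mem_lattice]
  rw [e13] at f13
  rw [e23] at f23
  -- the lattice `L'`
  have H1' := S.isHalf' H1
  have H2' := S.isHalf' H2
  have H3' := S.isHalf' H3
  have hd12' : L.ω₁ / 2 - L.ω₂ / 2 ∉ L'.lattice := by
    have Hd : IsHalf L (L.ω₁ / 2 - L.ω₂ / 2) := by
      refine ⟨hd12, ?_⟩
      have : 2 * (L.ω₁ / 2 - L.ω₂ / 2) = L.ω₁ - L.ω₂ := by ring
      rw [this]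
      exact L.lattice.sub_mem L.ω₁_mem_lattice L.ω₂_mem_lattice
    exact S.half_notMem' Hd
  have hd13' : L.ω₁ / 2 - (L.ω₁ / 2 + L.ω₂ / 2) ∉ L'.lattice := by
    have e : L.ω₁ / 2 - (L.ω₁ / 2 + L.ω₂ / 2) = (-1 : ℤ) • (L.ω₂ / 2) := by simp
    rw [e]
    intro hmem
    apply H2'.notMem
    have := L'.lattice.smul_mem (-1 : ℤ) hmem
    simpa using this
  have hd23' : L.ω₂ / 2 - (L.ω₁ / 2 + L.ω₂ / 2) ∉ L'.lattice := by
    have e : L.ω₂ / 2 - (L.ω₁ / 2 + L.ω₂ / 2) = (-1 : ℤ) • (L.ω₁ / 2) := by simp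
    rw [e]
    intro hmem
    apply H1'.notMem
    have := L'.lattice.smul_mem (-1 : ℤ) hmem
    simpa using this
  have := jL_eq_jOfDiff L' H1'.cubic H2'.cubic H3'.cubic (H1'.ne_of_inj hinj H2' hd12')
    (H1'.ne_of_inj hinj H3' hd13') (H2'.ne_of_inj hinj H3' hd23')
  rw [this, f12, f13, f23]
  unfold Jq
  rfl

/-- Renumbering of the roots. -/
theorem Jq_perm (L : PeriodPair) {p : ℕ} (hp : Odd p) (z₀ : ℂ) {E1 E2 E3 e₁ e₂ e₃ : ℂ}
    (h12 : E1 ≠ E2) (h13 : E1 ≠ E3) (h23 : E2 ≠ E3)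
    (m1 : E1 = e₁ ∨ E1 = e₂ ∨ E1 = e₃) (m2 : E2 = e₁ ∨ E2 = e₂ ∨ E2 = e₃)
    (m3 : E3 = e₁ ∨ E3 = e₂ ∨ E3 = e₃) :
    Jq L p z₀ e₁ e₂ e₃ = Jq L p z₀ E1 E2 E3 := by
  rcases m1 with h1 | h1 | h1 <;> rcases m2 with h2 | h2 | h2 <;>
    rcases m3 with h3 | h3 | h3
  all_goals first
    | exact absurd (h1.trans h2.symm) h12
    | exact absurd (h1.trans h3.symm) h13
    | exact absurd (h2.trans h3.symm) h23
    | (rw [← h1, ← h2, ← h3]; done)
    | (rw [← h1, ← h2, ← h3]; exact Jq_213 L hp _ _ _ _)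
    | (rw [← h1, ← h2, ← h3]; exact Jq_132 L hp _ _ _ _)
    | (rw [← h1, ← h2, ← h3]; exact Jq_321 L hp _ _ _ _)
    | (rw [← h1, ← h2, ← h3]; exact Jq_231 L hp _ _ _ _)
    | (rw [← h1, ← h2, ← h3]; exact Jq_312 L hp _ _ _ _)

theorem stmt_liouv_of (hadd : Stmt_add) (hinj : Stmt_inj) : Stmt_liouv := by
  intro L L' p z₀ hp hp2 hz₀ hpz₀ hL' e₁ e₂ e₃ hroots
  have S : Setup L L' p z₀ := ⟨hp, hp2, hz₀, hpz₀, hL'⟩
  have hodd := S.odd_p
  have H1 := isHalf_ω₁ L
  have H2 := isHalf_ω₂ L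
  have hd12 := half_sub_notMem L
  have H3 : IsHalf L (L.ω₁ / 2 + L.ω₂ / 2) := H1.add H2 hd12
  have hd13 : L.ω₁ / 2 - (L.ω₁ / 2 + L.ω₂ / 2) ∉ L.lattice := by
    have e : L.ω₁ / 2 - (L.ω₁ / 2 + L.ω₂ / 2) = (-1 : ℤ) • (L.ω₂ / 2) := by simp
    rw [e]
    intro hmem
    apply H2.notMem
    have := L.lattice.smul_mem (-1 : ℤ) hmem
    simpa using this
  have hd23 : L.ω₂ / 2 - (L.ω₁ / 2 + L.ω₂ / 2) ∉ L.lattice := by
    have e : L.ω₂ / 2 - (L.ω₁ / 2 + L.ω₂ / 2) = (-1 : ℤ) • (L.ω₁ / 2) := by simp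
    rw [e]
    intro hmem
    apply H1.notMem
    have := L.lattice.smul_mem (-1 : ℤ) hmem
    simpa using this
  have hE12 : ℘[L] (L.ω₁ / 2) ≠ ℘[L] (L.ω₂ / 2) := H1.ne_of_inj hinj H2 hd12
  have hE13 : ℘[L] (L.ω₁ / 2) ≠ ℘[L] (L.ω₁ / 2 + L.ω₂ / 2) := H1.ne_of_inj hinj H3 hd13
  have hE23 : ℘[L] (L.ω₂ / 2) ≠ ℘[L] (L.ω₁ / 2 + L.ω₂ / 2) := H2.ne_of_inj hinj H3 hd23
  have hmem : ∀ x : ℂ, 4 * x ^ 3 - L.g₂ * x - L.g₃ = 0 → x = e₁ ∨ x = e₂ ∨ x = e₃ := by
    intro x hx
    have h := hroots x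
    rw [hx] at h
    have h' : (x - e₁) * (x - e₂) * (x - e₃) = 0 := by
      have : (4 : ℂ) * ((x - e₁) * (x - e₂) * (x - e₃)) = 0 := h.symm
      simpa using this
    rcases mul_eq_zero.mp h' with h1 | h1
    · rcases mul_eq_zero.mp h1 with h2 | h2
      · exact Or.inl (sub_eq_zero.mp h2)
      · exact Or.inr (Or.inl (sub_eq_zero.mp h2))
    · exact Or.inr (Or.inr (sub_eq_zero.mp h1))
  have hperm := Jq_perm L hodd z₀ hE12 hE13 hE23 (hmem _ H1.cubic) (hmem _ H2.cubic)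
    (hmem _ H3.cubic)
  have hmain := S.jL_eq_Jq hadd hinj
  rw [hmain, ← hperm]
  unfold Jq
  rfl

end Fermat.Agent.S15.An.H67

end
end
-- ==== END Fermat.Agent.S15.An.H67_LiouvFinal

-- ==== BEGIN Fermat.Agent.S15.B3.H83_Main
section
attribute [local instance 10000] SubalgebraClass.toAlgebra
attribute [local instance 10000] HahnSeries.powerSeriesAlgebra

/-!
# S15, package B3 (helper83): reduction of a place from the absolute values of its `j`-values

`stmt_B3 : Stmt_B3`.  For a place reduction `r` at a prime `ℓ ≠ p` (any map with the conservation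
law of `IsPlaceReductionAlong`), cusps `P∞`, `P0` of `X₀(p)`, and a place `x` with `j(x) = b`,
`j_p(x) = a`, `|a| > 1`:
* `|b| < |a|^p  ⟹  r x = r P∞`,     * `|a| ≤ |b|  ⟹  r x = r P0`        (`b3_strong`).

Proof.  (1) `j~` has degree `p + 1` on the reduced curve and `r_* (div j) = div j~`, so the poles
of `j~` are `r P∞ ≠ r P0`, of orders `1`, `p`, no zero of `j` reduces to them, and `r P∞` is the
`q`-order place (`deg_facts`); hence no zero of `j_p` reduces to `r P∞` (`no_zero_jN`).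
(2) For `c ∈ 𝔪_A` the series `c X - 1` reduces to `-1`, so every zero of `c X - 1` has a pole of
`X` with the same reduction (`exists_pole`).  Apply to `X = j_p` resp. `j` (so `r x ∈ {r P∞, r P0}`)
and to `X = j_p^p / j` resp. `j^p / j_p`.
-/

set_option autoImplicit false
set_option synthInstance.maxHeartbeats 400000
set_option maxHeartbeats 1000000
set_option linter.unusedSectionVars false

noncomputable section

open HahnSeries IntermediateField AlgebraicCurve ModularCurve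

namespace Fermat.Agent.S15.B3

open Fermat.Agent.S24 (Kbar FN)
open Fermat.Agent.S28.H73 (kV)

variable {A : ValuationSubring (AlgebraicClosure ℚ)} {p ℓ : ℕ} [NeZero p]
variable {r : Place Kbar (FN p) → Place (kV A) (FRed (kV A) p)}

/-- An element of `Q̄` of absolute value `< 1`, as an element of `𝔪_A`. -/
theorem exists_small (c : AlgebraicClosure ℚ) (hc : A.valuation c < 1) :
    ∃ cA : A, (cA : AlgebraicClosure ℚ) = c ∧ IsLocalRing.residue A cA = 0 := by
  have hmem : c ∈ A := (A.valuation_le_one_iff c).mp hc.le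
  refine ⟨⟨c, hmem⟩, rfl, ?_⟩
  rw [IsLocalRing.residue_eq_zero_iff, ValuationSubring.valuation_lt_one_iff]
  exact hc

/-- `exists_pole` for a constant of `Q̄` of absolute value `< 1`. -/
theorem exists_pole_of_val (hr : IsPlaceReductionAlong A (IsLocalRing.residue A) p r)
    {X : LaurentSeries A} (hX : Good A p X) (f : FN p) (hf : hX.genK = f)
    (c : AlgebraicClosure ℚ) (hc : A.valuation c < 1) (x : Place Kbar (FN p))
    (hx : pv x (algebraMap Kbar (FN p) c * f - 1) < 1) :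
    ∃ P : Place Kbar (FN p), r P = r x ∧ P.ord f < 0 := by
  obtain ⟨cA, rfl, hcA⟩ := exists_small c hc
  subst hf
  exact exists_pole hr hX cA hcA x hx

section Cusp

variable (hp : p.Prime) {Pinf P0 : PlaceBar p} (hc : IsCuspPair p Pinf P0)

include hc in
theorem jBar_ne_zero_of : _root_.Fermat.Agent.S15.jBar p ≠ 0 := by
  intro h
  have := hc.ord_j_inf
  rw [h, Place.ord_zero] at this
  omega

include hc in
theorem jBarN_ne_zero_of : jBarN p ≠ 0 := by
  intro h
  have := hc.ord_jN_zero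
  rw [h, Place.ord_zero] at this
  omega

include hp hc in
theorem ord_j_nonneg_of_ne (P : PlaceBar p) (h1 : P ≠ Pinf) (h2 : P ≠ P0) :
    0 ≤ P.ord (_root_.Fermat.Agent.S15.jBar p) := by
  by_contra hcon
  rw [not_le] at hcon
  rcases Fermat.Agent.S15.H30.pole_eq_of_isCuspPair hp hc P hcon with h | h
  · exact h1 h
  · exact h2 h

include hp hc in
theorem ord_jN_nonneg_of_ne (P : PlaceBar p) (h1 : P ≠ Pinf) (h2 : P ≠ P0) :
    0 ≤ P.ord (jBarN p) :=
  ord_jBarN_nonneg P (ord_j_nonneg_of_ne hp hc P h1 h2)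

variable (hℓ : ℓ.Prime) (hℓp : ℓ ≠ p) (hA : A.LiesOverPrime ℓ)
  (hr : IsPlaceReductionAlong A (IsLocalRing.residue A) p r)

include hp hc hℓ hℓp hA hr in
/-- The poles of `j~` are `r P∞ ≠ r P0`; `r P∞` is the `q`-order place; no zero of `j` reduces
to `r P∞` or `r P0`. -/
theorem deg_facts :
    r Pinf ≠ r P0 ∧ r Pinf = cuspRed (kV A) p ∧
      ∀ P : PlaceBar p, (r P = r Pinf ∨ r P = r P0) → P.ord (_root_.Fermat.Agent.S15.jBar p) ≤ 0 := by
  classical
  have hne : Pinf ≠ P0 := Fermat.Agent.S15.H30.isCuspPair_ne hp.two_le hc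
  have hp2 : (2 : ℤ) ≤ (p : ℤ) := by exact_mod_cast hp.two_le
  have hred_ne : coeffMap (IsLocalRing.residue A) (jqModC A) ≠ 0 := by
    rw [coeffMap_jqModC]
    exact jqModC_ne_zero_of_nontrivial (kV A)
  obtain ⟨D, hD0, hid0⟩ := (good_J (A := A) (p := p)).identity hr hred_ne
  have hD : ∀ P, D P = P.ord (_root_.Fermat.Agent.S15.jBar p) := fun P => by rw [hD0 P, genK_J]
  have hid : ∀ Q, Finsupp.mapDomain r D Q = Q.ord (jRed (kV A) p) := fun Q => by
    rw [hid0 Q, redk_J]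
  have hE : ∀ P, P ∉ ({Pinf, P0} : Finset (PlaceBar p)) → 0 ≤ D P := by
    intro P hP
    rw [Finset.mem_insert, Finset.mem_singleton, not_or] at hP
    rw [hD]
    exact ord_j_nonneg_of_ne hp hc P hP.1 hP.2
  have hsumE : ∀ Q, (∑ P ∈ ({Pinf, P0} : Finset (PlaceBar p)), if r P = Q then D P else 0)
      = (if r Pinf = Q then (-1 : ℤ) else 0) + (if r P0 = Q then -(p : ℤ) else 0) := by
    intro Q
    rw [Finset.sum_pair hne, hD, hD, hc.ord_j_inf, hc.ord_j_zero]
  have F1 : ∀ Q, (if r Pinf = Q then (-1 : ℤ) else 0) + (if r P0 = Q then -(p : ℤ) else 0)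
      ≤ Q.ord (jRed (kV A) p) := by
    intro Q
    have := (fiber_split r D Q _ hE).1
    rwa [hsumE, hid] at this
  have F2 : ∀ Q, Q.ord (jRed (kV A) p)
      ≤ (if r Pinf = Q then (-1 : ℤ) else 0) + (if r P0 = Q then -(p : ℤ) else 0) →
      ∀ P, P ∉ ({Pinf, P0} : Finset (PlaceBar p)) → r P = Q → D P = 0 := by
    intro Q h
    have := (fiber_split r D Q _ hE).2
    rw [hsumE, hid] at this
    exact this h
  obtain ⟨S, hS, hsum⟩ := poles_jRed p ℓ A hp hℓ hℓp hA
  have hcusp : (cuspRed (kV A) p).ord (jRed (kV A) p) = -1 := ord_cuspRed_jRed _ _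
  have hcuspS : cuspRed (kV A) p ∈ S := (hS _).2 (by rw [hcusp]; norm_num)
  -- the two cusps have different reductions
  have h1 : r Pinf ≠ r P0 := by
    intro heq
    have hsub : ∀ Q ∈ S, Q = r Pinf := by
      intro Q hQ
      by_contra hQne
      have h3 := F1 Q
      rw [if_neg (fun h => hQne h.symm), if_neg (fun h => hQne (by rw [← h, heq]))] at h3
      have h4 := (hS Q).1 hQ
      omega
    have hS1 : S = {cuspRed (kV A) p} := by
      rw [Finset.eq_singleton_iff_unique_mem]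
      exact ⟨hcuspS, fun Q hQ => by rw [hsub Q hQ, hsub _ hcuspS]⟩
    rw [hS1, Finset.sum_singleton, hcusp] at hsum
    omega
  have hT : ∀ Q ∈ S, Q = r Pinf ∨ Q = r P0 := by
    intro Q hQ
    by_contra hcon
    rw [not_or] at hcon
    have h3 := F1 Q
    rw [if_neg (Ne.symm hcon.1), if_neg (Ne.symm hcon.2)] at h3
    have h4 := (hS Q).1 hQ
    omega
  have hST : S ⊆ ({r Pinf, r P0} : Finset (Place (kV A) (FRed (kV A) p))) := by
    intro Q hQ
    rw [Finset.mem_insert, Finset.mem_singleton]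
    exact hT Q hQ
  have hsum2 : ∑ Q ∈ S, Q.ord (jRed (kV A) p)
      = (if r Pinf ∈ S then (r Pinf).ord (jRed (kV A) p) else 0)
        + (if r P0 ∈ S then (r P0).ord (jRed (kV A) p) else 0) := by
    rw [← Finset.sum_pair (f := fun Q => if Q ∈ S then Q.ord (jRed (kV A) p) else 0) h1,
      Finset.sum_ite_mem, Finset.inter_eq_right.mpr hST]
  have e1 := F1 (r Pinf)
  rw [if_pos rfl, if_neg (Ne.symm h1)] at e1
  have e2 := F1 (r P0)
  rw [if_neg h1, if_pos rfl] at e2
  have m1 : (r Pinf).ord (jRed (kV A) p) = -1 ∧ (r P0).ord (jRed (kV A) p) = -(p : ℤ) := by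
    rw [hsum2] at hsum
    by_cases a1 : r Pinf ∈ S <;> by_cases a2 : r P0 ∈ S
    · rw [if_pos a1, if_pos a2] at hsum
      exact ⟨by omega, by omega⟩
    · rw [if_pos a1, if_neg a2] at hsum
      exfalso; omega
    · rw [if_neg a1, if_pos a2] at hsum
      exfalso; omega
    · rw [if_neg a1, if_neg a2] at hsum
      exfalso; omega
  have hcuspeq : r Pinf = cuspRed (kV A) p := by
    rcases hT _ hcuspS with h | h
    · exact h.symm
    · exfalso
      rw [h, m1.2] at hcusp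
      omega
  refine ⟨h1, hcuspeq, ?_⟩
  intro P hP
  rw [← hD]
  by_cases hPE : P ∈ ({Pinf, P0} : Finset (PlaceBar p))
  · rw [Finset.mem_insert, Finset.mem_singleton] at hPE
    rcases hPE with rfl | rfl
    · rw [hD, hc.ord_j_inf]; norm_num
    · rw [hD, hc.ord_j_zero]; omega
  · rcases hP with hP | hP
    · have := F2 (r Pinf) (by rw [if_pos rfl, if_neg (Ne.symm h1), m1.1]; norm_num) P hPE hP
      omega
    · have := F2 (r P0) (by rw [if_neg h1, if_pos rfl, m1.2]; norm_num) P hPE hP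
      omega

include hp hc hℓ hℓp hA hr in
/-- No zero of `j_p` reduces to `r P∞`. -/
theorem no_zero_jN (P : PlaceBar p) (hP : r P = r Pinf) : P.ord (jBarN p) ≤ 0 := by
  classical
  obtain ⟨h1, hcuspeq, -⟩ := deg_facts hp hc hℓ hℓp hA hr
  have hne : Pinf ≠ P0 := Fermat.Agent.S15.H30.isCuspPair_ne hp.two_le hc
  have hp2 : (2 : ℤ) ≤ (p : ℤ) := by exact_mod_cast hp.two_le
  have hred_ne : coeffMap (IsLocalRing.residue A) (qExpand A p (jqModC A)) ≠ 0 := by
    rw [coeffMap_qExpand, coeffMap_jqModC]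
    intro h
    exact jRedN_ne_zero (kV A) p (Subtype.ext h)
  obtain ⟨D, hD0, hid0⟩ := (good_Jp (A := A) (p := p)).identity hr hred_ne
  have hD : ∀ P, D P = P.ord (jBarN p) := fun P => by rw [hD0 P, genK_Jp]
  have hid : ∀ Q, Finsupp.mapDomain r D Q = Q.ord (jRedN (kV A) p) := fun Q => by
    rw [hid0 Q, redk_Jp]
  have hE : ∀ P, P ∉ ({Pinf, P0} : Finset (PlaceBar p)) → 0 ≤ D P := by
    intro P hP
    rw [Finset.mem_insert, Finset.mem_singleton, not_or] at hP
    rw [hD]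
    exact ord_jN_nonneg_of_ne hp hc P hP.1 hP.2
  have hsumE : (∑ P ∈ ({Pinf, P0} : Finset (PlaceBar p)), if r P = r Pinf then D P else 0)
      = -(p : ℤ) := by
    rw [Finset.sum_pair hne, if_pos rfl, if_neg (Ne.symm h1), hD, hc.ord_jN_inf, add_zero]
  have hval : Finsupp.mapDomain r D (r Pinf) = -(p : ℤ) := by
    rw [hid, hcuspeq, ord_cuspRed_jRedN]
  have F2 := (fiber_split r D (r Pinf) _ hE).2 (by rw [hsumE, hval])
  rw [← hD]
  by_cases hPE : P ∈ ({Pinf, P0} : Finset (PlaceBar p))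
  · rw [Finset.mem_insert, Finset.mem_singleton] at hPE
    rcases hPE with rfl | rfl
    · rw [hD, hc.ord_jN_inf]; omega
    · exact absurd hP (Ne.symm h1)
  · rw [F2 P hPE hP]

include hp hc hℓ hℓp hA hr in
/-- **B3, strong form.** -/
theorem b3_strong (x : PlaceBar p) (b a : AlgebraicClosure ℚ) (hv : HasValues p x b a)
    (ha : 1 < A.valuation a) :
    (A.valuation b < A.valuation a ^ p → r x = r Pinf) ∧
      (A.valuation a ≤ A.valuation b → r x = r P0) := by
  obtain ⟨h1, -, hzero⟩ := deg_facts hp hc hℓ hℓp hA hr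
  have hp2 : (2 : ℤ) ≤ (p : ℤ) := by exact_mod_cast hp.two_le
  have hp0 : (0 : ℤ) < (p : ℤ) := by omega
  have hj0 : _root_.Fermat.Agent.S15.jBar p ≠ 0 := jBar_ne_zero_of hc
  have hjN0 : jBarN p ≠ 0 := jBarN_ne_zero_of hc
  have hvj : pv x (_root_.Fermat.Agent.S15.jBar p - algebraMap Kbar (FN p) b) < 1 := pv_lt_one_of_ord_pos x hv.1
  have hvjN : pv x (jBarN p - algebraMap Kbar (FN p) a) < 1 := pv_lt_one_of_ord_pos x hv.2
  have ha0 : a ≠ 0 := by
    rintro rfl
    rw [map_zero] at ha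
    exact absurd ha (not_lt.mpr zero_le_one)
  have hva0 : 0 < A.valuation a := lt_trans zero_lt_one ha
  refine ⟨fun hlt => ?_, fun hle => ?_⟩
  · -- `|b| < |a|^p`
    -- `r x` is the reduction of a pole of `j_p`
    have hx1 : r x = r Pinf ∨ r x = r P0 := by
      obtain ⟨P, hP, hneg⟩ := exists_pole_of_val hr good_Jp (jBarN p) genK_Jp a⁻¹
        (by rw [map_inv₀]; exact inv_lt_one_of_one_lt₀ ha) x
        (pv_scale_lemma x hvjN (inv_mul_cancel₀ ha0))
      rcases poleN_eq_of_isCuspPair hp hc P hneg with rfl | rfl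
      · exact Or.inl hP.symm
      · exact Or.inr hP.symm
    rcases hx1 with hx1 | hx1
    · exact hx1
    exfalso
    by_cases hb0 : b = 0
    · -- `x` is a zero of `j`
      have h3 := hv.1
      rw [hb0, map_zero, sub_zero] at h3
      have := hzero x (Or.inr hx1)
      omega
    · have hcval : A.valuation (b / a ^ p) < 1 := by
        rw [map_div₀, map_pow, div_lt_one₀ (pow_pos hva0 p)]
        exact hlt
      obtain ⟨Z, hZ, hZg⟩ := exists_good_ratio (good_Jp (A := A) (p := p)) good_J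
        (isUnit_jqModC A) p
      rw [genK_Jp, genK_J] at hZg
      obtain ⟨P, hP, hneg⟩ := exists_pole_of_val hr hZ _ hZg (b / a ^ p) hcval x
        (pv_zero_lemma x hb0 p hvjN hvj (div_mul_cancel₀ b (pow_ne_zero p ha0)))
      rw [P.ord_mul (pow_ne_zero p hjN0) (inv_ne_zero hj0), ord_pow_nat, Place.ord_inv] at hneg
      have hPinf : P ≠ Pinf := by
        rintro rfl
        exact h1 (hP.trans hx1)
      have hP0 : P ≠ P0 := by
        rintro rfl
        rw [hc.ord_jN_zero, hc.ord_j_zero] at hneg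
        omega
      have h5 := ord_j_nonneg_of_ne hp hc P hPinf hP0
      have h6 := ord_jN_nonneg_of_ne hp hc P hPinf hP0
      have h7 := hzero P (Or.inr (hP.trans hx1))
      have h8 : 0 ≤ (p : ℤ) * P.ord (jBarN p) := mul_nonneg hp0.le h6
      omega
  · -- `|a| ≤ |b|`
    have hb1 : 1 < A.valuation b := lt_of_lt_of_le ha hle
    have hb0 : b ≠ 0 := by
      rintro rfl
      rw [map_zero] at hb1
      exact absurd hb1 (not_lt.mpr zero_le_one)
    have hvb0 : 0 < A.valuation b := lt_trans zero_lt_one hb1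
    have hx1 : r x = r Pinf ∨ r x = r P0 := by
      obtain ⟨P, hP, hneg⟩ := exists_pole_of_val hr good_J (_root_.Fermat.Agent.S15.jBar p) genK_J b⁻¹
        (by rw [map_inv₀]; exact inv_lt_one_of_one_lt₀ hb1) x
        (pv_scale_lemma x hvj (inv_mul_cancel₀ hb0))
      rcases Fermat.Agent.S15.H30.pole_eq_of_isCuspPair hp hc P hneg with rfl | rfl
      · exact Or.inl hP.symm
      · exact Or.inr hP.symm
    rcases hx1 with hx1 | hx1
    swap
    · exact hx1
    exfalso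
    have hcval : A.valuation (a / b ^ p) < 1 := by
      rw [map_div₀, map_pow, div_lt_one₀ (pow_pos hvb0 p)]
      calc A.valuation a ≤ A.valuation b := hle
        _ = A.valuation b ^ 1 := (pow_one _).symm
        _ < A.valuation b ^ p := pow_lt_pow_right₀ hb1 hp.one_lt
    obtain ⟨Z, hZ, hZg⟩ := exists_good_ratio (good_J (A := A) (p := p)) good_Jp
      ((isUnit_jqModC A).map (qExpand A p)) p
    rw [genK_Jp, genK_J] at hZg
    obtain ⟨P, hP, hneg⟩ := exists_pole_of_val hr hZ _ hZg (a / b ^ p) hcval x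
      (pv_zero_lemma x ha0 p hvj hvjN (div_mul_cancel₀ a (pow_ne_zero p hb0)))
    rw [P.ord_mul (pow_ne_zero p hj0) (inv_ne_zero hjN0), ord_pow_nat, Place.ord_inv] at hneg
    have hP0 : P ≠ P0 := by
      rintro rfl
      exact h1 (hP.trans hx1).symm
    have hPinf : P ≠ Pinf := by
      rintro rfl
      rw [hc.ord_jN_inf, hc.ord_j_inf] at hneg
      omega
    have h5 := ord_j_nonneg_of_ne hp hc P hPinf hP0
    have h7 := no_zero_jN hp hc hℓ hℓp hA hr P (hP.trans hx1)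
    have h8 : 0 ≤ (p : ℤ) * P.ord (_root_.Fermat.Agent.S15.jBar p) := mul_nonneg hp0.le h5
    omega

end Cusp

end Fermat.Agent.S15.B3

namespace Fermat.Agent.S15.B3

/-- **B3**: reduction of a place from the absolute values of its `j`-values. -/
theorem stmt_B3 : Stmt_B3 := by
  intro p _ hp Pinf P0 hc x b a hv ℓ hℓ hℓp A hA h ha
  have hr := isPlaceReductionModL_placeReductionModL h
  have hs := b3_strong hp hc hℓ hℓp hA hr x b a hv ha
  have hva0 : 0 < A.valuation a := lt_trans zero_lt_one ha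
  refine ⟨fun hb => hs.1 ?_, fun hb => hs.2 ?_⟩
  · -- `|b|^p = |a|`
    have hb1 : 1 < A.valuation b := by
      by_contra hcon
      rw [not_lt] at hcon
      have : A.valuation b ^ p ≤ 1 := pow_le_one₀ zero_le hcon
      rw [hb] at this
      exact absurd ha (not_lt.mpr this)
    calc A.valuation b = A.valuation b ^ 1 := (pow_one _).symm
      _ < A.valuation b ^ p := pow_lt_pow_right₀ hb1 hp.one_lt
      _ = A.valuation a := hb
      _ = A.valuation a ^ 1 := (pow_one _).symm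
      _ < A.valuation a ^ p := pow_lt_pow_right₀ ha hp.one_lt
  · -- `|b| = |a|^p`
    rw [hb]
    calc A.valuation a = A.valuation a ^ 1 := (pow_one _).symm
      _ ≤ A.valuation a ^ p := pow_le_pow_right₀ ha.le hp.one_lt.le

end Fermat.Agent.S15.B3

end
end
-- ==== END Fermat.Agent.S15.B3.H83_Main

-- ==== BEGIN Fermat.Agent.S15.Desc.H26_NumInfDict
section

/-!
# S15 / DESC / NUM-∞: the torsion dictionary for the anemic Hecke ring and for the complex
conjugation (helper26)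

`θ : J₀(p)[m] ≃ (ℤ/m)^d` the coordinates of G-TOR (`GTor.H81.theta`).

* `theta_smul` : `θ (t • x) = (mat t mod m) θ(x)` for the anemic action of `t ∈ HeckeAlg`;
* `theta_conj` : `θ (c • x) = - (matI mod m) θ(x)` for `c` inducing the complex conjugation
  (from `H97.torChar_conj'`).
-/

set_option autoImplicit false
set_option synthInstance.maxHeartbeats 400000

open CongruenceSubgroup ModularCurve ModularCurve.Period AlgebraicCurve
open scoped MatrixGroups ComplexConjugate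

noncomputable section

namespace Fermat.Agent.S15.Desc.H26

open Fermat.Agent.Betti Fermat.Agent.Betti.H76 Fermat.Agent.GTor Fermat.Agent.GTor.H81
open Fermat.Agent.S15

attribute [local instance] heckeInst

section Coord

variable {N : ℕ} {d : ℕ} {b : Fin d → (Additive (Gamma0 N) →+ ℤ)} (m : ℕ)

theorem coordFun_neg (a : Fin d → ZMod m) : coordFun b m (-a) = -coordFun b m a := by
  refine AddMonoidHom.ext fun γ => ?_
  simp [coordFun_apply]

/-- The involution in coordinates. -/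
theorem charInvolution_coordFun (hb : IsParBasis N b) (a : Fin d → ZMod m) :
    charInvolution N ℤ (ZMod m) (coordFun b m a) =
      coordFun b m (((matI hb).map (Int.cast : ℤ → ZMod m)).mulVec a) := by
  refine AddMonoidHom.ext fun γ => ?_
  rw [charInvolution_apply, coordFun_apply, coordFun_apply]
  have h1 : ∀ j, b j (Additive.ofMul (jConjGamma0 N (Additive.toMul γ))) =
      ∑ i, matI hb i j * b i γ := by
    intro j
    have h2 := end_parBasis hb (invZ N) j
    have h3 := congrArg (fun φ : ParZ N => (φ : Additive (Gamma0 N) →+ ℤ) γ) h2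
    simp only [coe_invZ, parBasis_apply, charInvolution_apply, Submodule.coe_sum,
      Submodule.coe_smul, AddMonoidHom.coe_finsetSum, Finset.sum_apply, AddMonoidHom.coe_smul,
      Pi.smul_apply, smul_eq_mul] at h3
    exact h3
  simp only [h1, Matrix.mulVec, dotProduct, Matrix.map_apply, Finset.sum_mul]
  push_cast
  simp only [Finset.mul_sum]
  rw [Finset.sum_comm]
  refine Finset.sum_congr rfl fun i _ => Finset.sum_congr rfl fun j _ => ?_
  ring

end Coord

section Conj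

variable {N : ℕ} [NeZero N] {ι : AlgebraicClosure ℚ →+* ℂ}
  {d : ℕ} {b : Fin d → (Additive (Gamma0 N) →+ ℤ)}
  (hb : IsParBasis N b) (hL : Stmt_torsLift N) {m : ℕ} (hm : m ≠ 0) (E : TorIso N m ι)

/-- **The complex conjugation in coordinates.** -/
theorem theta_conj (c : GQ) (hc : ∀ a : AlgebraicClosure ℚ, ι (c a) = conj (ι a))
    (x y : Jtor N m) (hxy : (y : JZero N) = c • (x : JZero N)) :
    theta hb hL hm E y =
      -((matI hb).map (Int.cast : ℤ → ZMod m)).mulVec (theta hb hL hm E x) := by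
  apply theta_eq_of_torChar
  have h := H97.torChar_conj' ι c hc (torChar_theta hb hL hm E x)
  rw [charInvolution_coordFun m hb, ← coordFun_neg, ← hxy] at h
  exact h

end Conj

section Smul

variable {p : ℕ} [NeZero p]

theorem anemic_C_smul (a : ℤ) (x : JZero p) : (MvPolynomial.C a : HeckeAlg) • x = a • x := by
  have h1 : (MvPolynomial.C a : HeckeAlg) = a • (1 : HeckeAlg) := by
    rw [← MvPolynomial.algebraMap_eq, Algebra.algebraMap_eq_smul_one]
  rw [h1, smul_assoc, one_smul]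

theorem anemic_X_smul_self (ℓ : Nat.Primes) (h : (ℓ : ℕ) = p) (x : JZero p) :
    (MvPolynomial.X ℓ : HeckeAlg) • x = x := by
  have h1 : anemicSubst p (MvPolynomial.X ℓ) = 1 := by
    have h := MvPolynomial.aeval_X (R := ℤ)
      (fun ℓ : Nat.Primes => if (ℓ : ℕ) = p then (1 : HeckeAlg) else MvPolynomial.X ℓ) ℓ
    have h2 : anemicSubst p (MvPolynomial.X ℓ) =
        if (ℓ : ℕ) = p then (1 : HeckeAlg) else MvPolynomial.X ℓ := h
    rw [h2, if_pos ‹_›]
  have h3 : (MvPolynomial.X ℓ : HeckeAlg) • x = (1 : HeckeAlg) • x := by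
    rw [smul_eq_hsmul, h1, smul_eq_hsmul, map_one]
  rw [h3, one_smul]

theorem anemic_X_smul (ℓ : Nat.Primes) (h : (ℓ : ℕ) ≠ p) (x : JZero p) :
    (MvPolynomial.X ℓ : HeckeAlg) • x = heckeOperatorBar p ℓ x := by
  have h1 := heckeGen_smul p ℓ.2 h x
  have h2 := heckeModuleBar_heckeGen_smul
    (Fermat.Agent.Lib.HeckeComm.heckeOperatorsCommuteBar p) ℓ x
  exact h1.trans h2

theorem anemic_smul_mem_Jtor (m : ℕ) (t : HeckeAlg) (x : Jtor p m) :
    t • (x : JZero p) ∈ Jtor p m := by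
  rw [Pic0.mem_torsion, smul_comm, Pic0.mem_torsion.1 x.2, smul_zero]

theorem intCast_map_mulVec {d m : ℕ} (a : ℤ) (v : Fin d → ZMod m) :
    (((a : Matrix (Fin d) (Fin d) ℤ)).map (Int.cast : ℤ → ZMod m)).mulVec v = a • v := by
  funext i
  have h : ((a : Matrix (Fin d) (Fin d) ℤ)) = Matrix.diagonal (fun _ => a) := rfl
  rw [h]
  simp [Matrix.mulVec, dotProduct, Matrix.diagonal_apply, Matrix.map_apply]

variable (hp : p.Prime) {ι : AlgebraicClosure ℚ →+* ℂ}
  {d : ℕ} {b : Fin d → (Additive (Gamma0 p) →+ ℤ)}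
  (hb : IsParBasis p b) (hL : Stmt_torsLift p) {m : ℕ} (hm : m ≠ 0) (E : TorIso p m ι)

theorem theta_X_smul (ℓ : Nat.Primes) (x y : Jtor p m)
    (hxy : (y : JZero p) = (MvPolynomial.X ℓ : HeckeAlg) • (x : JZero p)) :
    theta hb hL hm E y =
      ((mat hp hb (MvPolynomial.X ℓ)).map (Int.cast : ℤ → ZMod m)).mulVec
        (theta hb hL hm E x) := by
  by_cases h : (ℓ : ℕ) = p
  · rw [anemic_X_smul_self ℓ h] at hxy
    have e : y = x := Subtype.ext hxy
    rw [e, mat_X_self hp hb ℓ h, Matrix.map_one _ Int.cast_zero Int.cast_one,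
      Matrix.one_mulVec]
  · rw [anemic_X_smul ℓ h] at hxy
    have e : y = heckeTor m ℓ x := Subtype.ext hxy
    rw [e]
    exact theta_heckeTor hb hL hm E ℓ.2 (not_dvd_of_ne hp ℓ.2 h) (Fermat.Agent.GTor.H44.stmt_HK p m)
      (mat hp hb (MvPolynomial.X ℓ)) (TB_eq_mat hp hb ℓ h) x

/-- **The anemic Hecke ring in coordinates.** -/
theorem theta_smul (t : HeckeAlg) (x y : Jtor p m)
    (hxy : (y : JZero p) = t • (x : JZero p)) :
    theta hb hL hm E y =
      ((mat hp hb t).map (Int.cast : ℤ → ZMod m)).mulVec (theta hb hL hm E x) := by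
  induction t using MvPolynomial.induction_on generalizing x y with
  | C a =>
    rw [anemic_C_smul] at hxy
    have e : y = a • x := Subtype.ext hxy
    have h1 : mat hp hb (MvPolynomial.C a) = (a : Matrix (Fin d) (Fin d) ℤ) := by
      rw [← MvPolynomial.algebraMap_eq, eq_intCast, map_intCast]
    rw [e, h1, intCast_map_mulVec, map_zsmul]
  | add s t hs ht =>
    rw [add_smul] at hxy
    have e : y = ⟨s • (x : JZero p), anemic_smul_mem_Jtor m s x⟩ +
        ⟨t • (x : JZero p), anemic_smul_mem_Jtor m t x⟩ := Subtype.ext hxy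
    rw [e, map_add, hs x ⟨s • (x : JZero p), anemic_smul_mem_Jtor m s x⟩ rfl,
      ht x ⟨t • (x : JZero p), anemic_smul_mem_Jtor m t x⟩ rfl, map_add,
      Matrix.map_add _ (fun _ _ => Int.cast_add _ _), Matrix.add_mulVec]
  | mul_X t ℓ ht =>
    rw [mul_smul] at hxy
    have h1 := ht ⟨(MvPolynomial.X ℓ : HeckeAlg) • (x : JZero p),
      anemic_smul_mem_Jtor m _ x⟩ y hxy
    have hmm : (mat hp hb t * mat hp hb (MvPolynomial.X ℓ)).map (Int.cast : ℤ → ZMod m) =
        (mat hp hb t).map (Int.cast : ℤ → ZMod m) *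
          (mat hp hb (MvPolynomial.X ℓ)).map (Int.cast : ℤ → ZMod m) :=
      Matrix.map_mul (f := Int.castRingHom (ZMod m))
    rw [h1, theta_X_smul hp hb hL hm E ℓ x ⟨(MvPolynomial.X ℓ : HeckeAlg) • (x : JZero p),
      anemic_smul_mem_Jtor m _ x⟩ rfl, map_mul, hmm, Matrix.mulVec_mulVec]

end Smul

end Fermat.Agent.S15.Desc.H26

end
end
-- ==== END Fermat.Agent.S15.Desc.H26_NumInfDict

-- ==== BEGIN Fermat.Agent.S15.Desc.H40_LocFTwo
section

/-!
# S15 / DESC, ROUTE-F at the descent prime `r = 2` (helper40)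

The Fontaine side of cluster T holds for every prime (`H50.fl_A_all`, `H85.kumbdd_core`,
`H15.isBdd_sup_all`; refactor by helper50/helper15), so ROUTE-F gives (LOC-U) at `2` as well:

* `kum_bddFon_all` : helper66's `kum_bddFon` without the hypothesis `r ≠ 2` (same proof);
* `isBddFamilyTwo_bddFon : H63.IsBddFamilyTwo (bddFon 2)`;
* `flaAt_all : FLAat r` for every prime `r`;
* `stmt_LOCU_of_flatKummer` : `Stmt_LOCU p r` for `r` odd from FL-x and (GAL);
* `stmt_LOCUTwo_of_flatKummer` : `Stmt_LOCUTwo p` from FL-x and (GAL).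

So the ONLY open input of (LOC-U), for all `r`, is FL-x = `H40.Stmt_FlatKummer`.
-/

set_option autoImplicit false
set_option linter.style.haveILetI false
set_option linter.unusedSectionVars false

noncomputable section

namespace Fermat.Agent.S15.Desc.H40

open ModularCurve Fermat.Agent.S15 Fermat.Agent.S15.Desc Fermat.Agent.S56.FL
  Fermat.Agent.Lib.LocalGlobalDense Fermat.Agent.S15.Desc.H66
open Polynomial IntermediateField

local notation "Qbar" => AlgebraicClosure ℚ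
local notation "GQ" => (AlgebraicClosure ℚ ≃ₐ[ℚ] AlgebraicClosure ℚ)

attribute [local instance] heckeInst

section Kum

variable (r : ℕ) [Fact r.Prime]

local instance towerQqPadic_h40 : IsScalarTower ℚ ℚ_[r] (PadicAlgCl r) :=
  IsScalarTower.of_algebraMap_eq' (Subsingleton.elim _ _)

/-- **(KUM) for the Fontaine family**, every prime `r`: a `μ_r`-valued crossed homomorphism
vanishing on a member of `bddFon r` has unit class at `r`.
(helper66's proof of `H66.kum_bddFon`, with `H15.isBdd_sup_all`.) -/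
theorem kum_bddFon_all (z : GQ → Qbar)
    (hH : ∃ H ∈ bddFon r, ∀ σ ∈ H, z σ = 1) : H97.UnitClassAt r z := by
  obtain ⟨H, ⟨-, L, hfin, hN, hb, hL⟩, hz1⟩ := hH
  intro a γ ha hγ hzγ
  haveI := hfin
  haveI := hN
  have hp : r.Prime := Fact.out
  have hr1 : (1 : ℝ) < r := by exact_mod_cast hp.one_lt
  have hr0 : (0 : ℝ) < r := by linarith
  -- `ι γ ∈ L`
  have hγL : padicEmbedding r γ ∈ L := by
    refine H38.mem_of_fixed_by_fixingSubgroup (fun σ hσ => ?_)
    rw [← padicEmbedding_localGaloisToGlobal, hzγ, hz1 _ (hL σ hσ), one_mul]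
  -- the compositum with the cyclotomic field
  haveI : Normal ℚ_[r] (H15.cycloField r) := H15.normal_cycloField
  have hb' : IsBddField r (L ⊔ H15.cycloField r) :=
    H15.isBdd_sup_all hN H15.normal_cycloField hb H15.isBdd_cycloField
  have hN' : Normal ℚ_[r] (L ⊔ H15.cycloField r : IntermediateField ℚ_[r] (PadicAlgCl r)) :=
    inferInstance
  obtain ⟨ζ, hζ1, hζr⟩ := H15.exists_zeta (p := r)
  obtain ⟨A, hA⟩ : ∃ A : PadicAlgCl r, A = padicEmbedding r (algebraMap ℚ Qbar a) := ⟨_, rfl⟩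
  have hAK : A ∈ H15.cycloField r := by
    rw [hA, AlgHom.commutes, IsScalarTower.algebraMap_apply ℚ ℚ_[r] (PadicAlgCl r) a]
    exact (H15.cycloField r).algebraMap_mem _
  have hA0 : A ≠ 0 := by
    rw [hA]
    intro h
    have h1 := (padicEmbedding r).toRingHom.injective (h.trans (map_zero _).symm)
    exact ha ((algebraMap ℚ Qbar).injective (h1.trans (map_zero _).symm))
  have hpow : (padicEmbedding r γ) ^ r = A := by rw [← map_pow, hγ, hA]
  obtain ⟨b, hbK, hb0, hnorm⟩ := H85.kumbdd_core (L ⊔ H15.cycloField r) (H15.cycloField r) hN'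
    le_sup_right hb' ⟨ζ, H15.mem_cycloField_of_pow_eq_one hζr, hζ1, hζr⟩ A hAK hA0
    ⟨padicEmbedding r γ, (le_sup_left : L ≤ L ⊔ H15.cycloField r) hγL, hpow⟩
  -- norms
  have hlt : ‖A * b ^ r - 1‖ < 1 :=
    lt_of_le_of_lt hnorm (inv_lt_one_of_one_lt₀ hr1)
  have hone : ‖A * b ^ r‖ = 1 := by
    have h1 : A * b ^ r = 1 + (A * b ^ r - 1) := by ring
    rw [h1, H15.norm_add_eq_left (by rw [norm_one]; exact hlt), norm_one]
  rw [norm_mul, norm_pow, hA, H66.norm_padicEmbedding_rat r ha] at hone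
  obtain ⟨k, hk⟩ := H15.norm_pow_finrank (H15.cycloField r) ⟨b, hbK⟩
    (fun h => hb0 (congrArg (fun t : H15.cycloField r => (t : PadicAlgCl r)) h))
  have hk' : ‖b‖ ^ Module.finrank ℚ_[r] (H15.cycloField r) = (r : ℝ) ^ k := hk
  obtain ⟨n, hn⟩ : ∃ n : ℕ, n = Module.finrank ℚ_[r] (H15.cycloField r) := ⟨_, rfl⟩
  rw [← hn] at hk'
  have hnr : ¬ r ∣ n := by rw [hn]; exact H15.not_dvd_finrank_cycloField
  have h2 : (r : ℝ) ^ (-padicValRat r a * n + k * r) = (r : ℝ) ^ (0 : ℤ) := by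
    rw [zpow_zero, zpow_add₀ hr0.ne', zpow_mul, zpow_mul, zpow_natCast, zpow_natCast, ← hk',
      ← pow_mul, mul_comm n r, pow_mul, ← mul_pow, hone, one_pow]
  have h3 := zpow_right_injective₀ hr0 hr1.ne' h2
  have h4 : (r : ℤ) ∣ padicValRat r a * n := ⟨k, by linarith⟩
  rcases (Nat.prime_iff_prime_int.mp hp).dvd_or_dvd h4 with h5 | h5
  · exact h5
  · exact absurd (Int.natCast_dvd_natCast.mp h5) hnr

end Kum

/-- **BASE-F at `2`**: the Fontaine family at `2` is a bounded family in the sense of the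
descent at `r = 2`. -/
theorem isBddFamilyTwo_bddFon : H63.IsBddFamilyTwo (bddFon 2) where
  isOpen := fun _ hH => hH.1
  kum := fun z _ _ hH => kum_bddFon_all 2 z hH

/-- Fontaine's bound at every prime (cluster T: `H50.fl_A_all`). -/
theorem flaAt_all (r : ℕ) [Fact r.Prime] : FLAat r :=
  fun M _ act hkill hflat => H50.fl_A_all r M act hkill hflat

/-- **(LOC-U), `r` odd, from FL-x and (GAL).** -/
theorem stmt_LOCU_of_flatKummer (hFK : Stmt_FlatKummer) {p : ℕ} [NeZero p] {r : ℕ}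
    [Fact r.Prime] (hr2 : r ≠ 2) (hGAL : Stmt_GALfin p) (hrp : ¬ r ∣ p) : Stmt_LOCU p r :=
  stmt_LOCU_of hFK (flaAt_all r) hGAL hrp (H66.isBddFamily_bddFon r hr2)

/-- **(LOC-U) at `2`, from FL-x and (GAL).** -/
theorem stmt_LOCUTwo_of_flatKummer (hFK : Stmt_FlatKummer) {p : ℕ} [NeZero p]
    (hGAL : Stmt_GALfin p) (h2p : ¬ 2 ∣ p) : Stmt_LOCUTwo p := by
  refine ⟨bddFon 2, isBddFamilyTwo_bddFon, ?_⟩
  intro k e _ y hy
  refine ⟨MulAction.stabilizer GalQ y,
    stab_mem_bddFon hFK (flaAt_all 2) hGAL h2p y hy, fun σ hσ => ?_⟩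
  rw [MulAction.mem_stabilizer_iff.mp hσ, sub_self, smul_zero]

end Fermat.Agent.S15.Desc.H40

end
end
-- ==== END Fermat.Agent.S15.Desc.H40_LocFTwo
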