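-- GENERATED (merged mirror, NOTES/tools/trim/merge3_helper67.py): 6 modules of the originals, bodies verbatim.
import Fermat.Agent.Zm.S15_L04_000
import Fermat.Agent.Zm.S15_L02_000
import Fermat.Agent.Zm.S15_L01_001
import Fermat.Agent.Zm.S15_L01_002
import Fermat.Agent.Zm.S15_L03_001
import Fermat.Agent.Zm.S35_L04_000
import Fermat.Agent.Zm.S35_L08_001
import Fermat.Agent.Zm.S15_L02_002
import Fermat.Agent.Zm.S15_L04_002
import Fermat.Agent.Zm.S56_L04_000
import Fermat.Agent.Zm.S15_L04_001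
import Fermat.Agent.Zm.S15_L02_001
import Fermat.Agent.Zm.S35_L15_000
import Fermat.Agent.Zm.S35_L14_000
import Fermat.Agent.Zm.S35_L09_000

-- ==== BEGIN Fermat.Agent.S15.An.H67_LiouvMain
section

set_option autoImplicit false

namespace Fermat.Agent.S15.An.H67

/-- AN-LIOUV: the `j`-invariant of `Λ' = Λ + ℤ z₀` is given by the product formula. -/
theorem stmt_liouv : Stmt_liouv :=
  stmt_liouv_of Fermat.Agent.S15.An.H45.stmt_add Fermat.Agent.S15.An.H45.stmt_inj

end Fermat.Agent.S15.An.H67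

end
-- ==== END Fermat.Agent.S15.An.H67_LiouvMain

-- ==== BEGIN Fermat.Agent.S15.Desc.H26_NumInfOdd
section

/-!
# S15 / DESC / NUM-∞ for `r` odd (helper26)

`stmt_NUMinfOdd : Stmt_NUMinfOdd p r` for primes `p`, `r`, `r ≠ 2`: for the complex conjugation
`c` and every Eisenstein projector `e`, `dim W ≤ 2 dim W^{c = 1}`, `W = e J₀(p)[r]`.

Proof: in the coordinates `θ : J[r] ≃ 𝔽_r^d` of G-TOR, `e` acts by `Ē = mat e mod r`
(`theta_smul`) and `c` by `-Ī`, `Ī = matI mod r` (`theta_conj`); the integer matrices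
`mat e (1 ± matI)` have the same characteristic polynomial (`charpoly_mat_plus_minus`, from
Eichler–Shimura), and `numInf_finrank_le` applies.
-/

set_option autoImplicit false
set_option synthInstance.maxHeartbeats 400000
set_option linter.unusedSectionVars false
set_option linter.style.haveILetI false

open CongruenceSubgroup ModularCurve ModularCurve.Period AlgebraicCurve Module
open scoped MatrixGroups ComplexConjugate

noncomputable section

namespace Fermat.Agent.S15.Desc.H26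

open Fermat.Agent.Betti Fermat.Agent.Betti.H76 Fermat.Agent.GTor Fermat.Agent.GTor.H81
open Fermat.Agent.S15

attribute [local instance] heckeInst

section Tors

variable {p : ℕ} [NeZero p] (r : ℕ)

theorem mem_Jtor_iff (x : JZero p) : x ∈ Jtor p r ↔ r • x = 0 := by
  rw [Pic0.mem_torsion, natCast_zsmul]

/-- `TorsR (JZero p) r` and `Jtor p r` are the same subgroup. -/
def torsEquiv : TorsR (JZero p) r ≃+ Jtor p r where
  toFun v := ⟨(v : JZero p), (mem_Jtor_iff r _).2 (mem_torsR.1 v.2)⟩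
  invFun x := ⟨(x : JZero p), mem_torsR.2 ((mem_Jtor_iff r _).1 x.2)⟩
  left_inv _ := rfl
  right_inv _ := rfl
  map_add' _ _ := rfl

@[simp] theorem coe_torsEquiv (v : TorsR (JZero p) r) :
    ((torsEquiv r v : Jtor p r) : JZero p) = (v : JZero p) := rfl

/-- An additive endomorphism of `J` induces a `ZMod r`-linear endomorphism of `J[r]`. -/
def torsEnd (f : JZero p →+ JZero p) : Module.End (ZMod r) (TorsR (JZero p) r) :=
  AddMonoidHom.toZModLinearMap r
    { toFun := fun v => ⟨f (v : JZero p), by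
        rw [mem_torsR, ← map_nsmul, mem_torsR.1 v.2, map_zero]⟩
      map_zero' := Subtype.ext (map_zero f)
      map_add' := fun v w => Subtype.ext (map_add f (v : JZero p) (w : JZero p)) }

@[simp] theorem coe_torsEnd (f : JZero p →+ JZero p) (v : TorsR (JZero p) r) :
    ((_root_.Fermat.Agent.S15.Desc.H26.torsEnd r f v : TorsR (JZero p) r) : JZero p) = f (v : JZero p) := rfl

end Tors

section Main

variable {p : ℕ} [NeZero p] (hp : p.Prime) {r : ℕ} [hrF : Fact r.Prime]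
  {ι : AlgebraicClosure ℚ →+* ℂ}
  {d : ℕ} {b : Fin d → (Additive (Gamma0 p) →+ ℤ)}
  (hb : IsParBasis p b) (hL : Stmt_torsLift p) (E : TorIso p r ι)

/-- The coordinates on `TorsR (JZero p) r`. -/
def thetaR : TorsR (JZero p) r ≃ₗ[ZMod r] (Fin d → ZMod r) :=
  { (torsEquiv r).trans (theta hb hL hrF.out.ne_zero E) with
    map_smul' := fun c x =>
      ZMod.map_smul ((torsEquiv r).trans (theta hb hL hrF.out.ne_zero E)).toAddMonoidHom c x }

theorem thetaR_apply (v : TorsR (JZero p) r) :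
    thetaR hb hL E v = theta hb hL hrF.out.ne_zero E (torsEquiv r v) := rfl

/-- The action of `t ∈ HeckeAlg` (anemic) on `J`, as an additive map. -/
def heckeAdd (p : ℕ) [NeZero p] (t : HeckeAlg) : JZero p →+ JZero p :=
  DistribSMul.toAddMonoidHom (JZero p) t

/-- The action of `σ ∈ G_ℚ` on `J`, as an additive map. -/
def galAdd (p : ℕ) [NeZero p] (σ : GQ) : JZero p →+ JZero p :=
  DistribSMul.toAddMonoidHom (JZero p) σ

theorem thetaR_hecke (t : HeckeAlg) (v : TorsR (JZero p) r) :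
    thetaR hb hL E (_root_.Fermat.Agent.S15.Desc.H26.torsEnd r (heckeAdd p t) v) =
      ((mat hp hb t).map (Int.cast : ℤ → ZMod r)).mulVec (thetaR hb hL E v) :=
  theta_smul hp hb hL hrF.out.ne_zero E t (torsEquiv r v) _ rfl

theorem thetaR_conj (c : GQ) (hc : ∀ a : AlgebraicClosure ℚ, ι (c a) = conj (ι a))
    (v : TorsR (JZero p) r) :
    thetaR hb hL E (_root_.Fermat.Agent.S15.Desc.H26.torsEnd r (galAdd p c) v) =
      -((matI hb).map (Int.cast : ℤ → ZMod r)).mulVec (thetaR hb hL E v) :=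
  theta_conj hb hL hrF.out.ne_zero E c hc (torsEquiv r v) _ rfl

include hb hL E in
theorem finite_torsR : Module.Finite (ZMod r) (TorsR (JZero p) r) :=
  Module.Finite.equiv (thetaR hb hL E).symm

/-- The characteristic polynomial of an endomorphism of `J[r]` given in coordinates by the
reduction of an integer matrix. -/
theorem charpoly_of_thetaR [Module.Finite (ZMod r) (TorsR (JZero p) r)]
    (M : Matrix (Fin d) (Fin d) ℤ)
    (F : Module.End (ZMod r) (TorsR (JZero p) r))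
    (hF : ∀ v, thetaR hb hL E (F v) =
      (M.map (Int.cast : ℤ → ZMod r)).mulVec (thetaR hb hL E v)) :
    F.charpoly = M.charpoly.map (Int.castRingHom (ZMod r)) := by
  have h1 : F = (thetaR hb hL E).symm.conj (Matrix.toLin' (M.map (Int.cast : ℤ → ZMod r))) := by
    ext1 v
    rw [LinearEquiv.conj_apply_apply, LinearEquiv.symm_symm, Matrix.toLin'_apply, ← hF,
      LinearEquiv.symm_apply_apply]
  rw [h1, LinearEquiv.charpoly_conj, Matrix.charpoly_toLin', ← Matrix.charpoly_map]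
  rfl

theorem heckeAdd_apply (t : HeckeAlg) (z : JZero p) : heckeAdd p t z = t • z := rfl

theorem galAdd_apply (σ : GQ) (z : JZero p) : galAdd p σ z = σ • z := rfl

theorem gal_anemic_smul (σ : GQ) (t : HeckeAlg) (z : JZero p) : σ • (t • z) = t • (σ • z) :=
  Fermat.Agent.S15.H2.stmt_GH p σ (anemicSubst p t) z

end Main

set_option maxHeartbeats 2000000 in
/-- **NUM-∞ for `r` odd.** -/
theorem stmt_NUMinfOdd (p r : ℕ) [NeZero p] [NeZero r] (hp : p.Prime) (hr : r.Prime)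
    (hr2 : r ≠ 2) : Stmt_NUMinfOdd p r := by
  classical
  haveI hrF : Fact r.Prime := ⟨hr⟩
  have hr3 : 2 < r := lt_of_le_of_ne hr.two_le (Ne.symm hr2)
  obtain ⟨ι, c, ζ, hc, hcc, hζ, hcζ⟩ := H97.exists_conj_root r hr3
  refine ⟨c, ζ, hζ, hcζ, 0, fun k e _ he => ?_⟩
  obtain ⟨d, b, hb⟩ := Betti.stmt_basis p
  have hL := H77.stmt_torsLift p
  obtain ⟨E⟩ := nonempty_torIso (stmt_TORc_uncond p r hr.ne_zero) ι
  haveI : Module.Finite (ZMod r) (TorsR (JZero p) r) := finite_torsR hb hL E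
  -- the endomorphisms
  obtain ⟨EV, hEV⟩ : ∃ EV : Module.End (ZMod r) (TorsR (JZero p) r),
      EV = _root_.Fermat.Agent.S15.Desc.H26.torsEnd r (heckeAdd p e) := ⟨_, rfl⟩
  obtain ⟨CV, hCV⟩ : ∃ CV : Module.End (ZMod r) (TorsR (JZero p) r),
      CV = _root_.Fermat.Agent.S15.Desc.H26.torsEnd r (galAdd p c) := ⟨_, rfl⟩
  have hEVc : ∀ v : TorsR (JZero p) r, ((EV v : TorsR (JZero p) r) : JZero p) =
      e • (v : JZero p) := fun v => by rw [hEV]; rfl
  have hCVc : ∀ v : TorsR (JZero p) r, ((CV v : TorsR (JZero p) r) : JZero p) =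
      c • (v : JZero p) := fun v => by rw [hCV]; rfl
  have h2 : (2 : ZMod r) ≠ 0 := by
    intro h
    have h' : ((2 : ℕ) : ZMod r) = 0 := by exact_mod_cast h
    rw [ZMod.natCast_eq_zero_iff] at h'
    have := Nat.le_of_dvd (by norm_num) h'
    omega
  have hE : EV * EV = EV := by
    ext1 v
    apply Subtype.ext
    rw [Module.End.mul_apply, hEVc, hEVc]
    refine he.2.1 (v : JZero p) ?_
    rw [pow_succ, mul_smul, mem_torsR.1 v.2, smul_zero]
  have hCC : CV * CV = 1 := by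
    ext1 v
    apply Subtype.ext
    rw [Module.End.mul_apply, hCVc, hCVc, ← mul_smul, hcc, one_smul]
    rfl
  have hI : (-CV) * (-CV) = 1 := by rw [neg_mul_neg, hCC]
  have hEC : EV * CV = CV * EV := by
    ext1 v
    apply Subtype.ext
    rw [Module.End.mul_apply, Module.End.mul_apply, hEVc, hCVc, hCVc, hEVc, gal_anemic_smul]
  have hEI : Commute EV (-CV) := by
    show EV * (-CV) = (-CV) * EV
    rw [mul_neg, neg_mul, hEC]
  -- coordinates
  have hθE : ∀ v, thetaR hb hL E (EV v) =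
      ((mat hp hb e).map (Int.cast : ℤ → ZMod r)).mulVec (thetaR hb hL E v) := fun v => by
    rw [hEV]; exact thetaR_hecke hp hb hL E e v
  have hθI : ∀ v, thetaR hb hL E ((-CV) v) =
      ((matI hb).map (Int.cast : ℤ → ZMod r)).mulVec (thetaR hb hL E v) := fun v => by
    rw [LinearMap.neg_apply, map_neg, hCV, thetaR_conj hb hL E c hc v, neg_neg]
  have hmapmul : ∀ A B : Matrix (Fin d) (Fin d) ℤ,
      (A * B).map (Int.cast : ℤ → ZMod r) =
        A.map (Int.cast : ℤ → ZMod r) * B.map (Int.cast : ℤ → ZMod r) := fun A B =>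
    Matrix.map_mul (f := Int.castRingHom (ZMod r))
  have hchar : (EV * (1 + -CV)).charpoly = (EV * (1 - -CV)).charpoly := by
    have hplus := charpoly_of_thetaR hb hL E (mat hp hb e * (1 + matI hb)) (EV * (1 + -CV))
      (fun v => by
        rw [Module.End.mul_apply, LinearMap.add_apply, Module.End.one_apply, hθE, map_add, hθI,
          hmapmul, Matrix.map_add _ (fun _ _ => Int.cast_add _ _),
          Matrix.map_one _ Int.cast_zero Int.cast_one, ← Matrix.mulVec_mulVec,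
          Matrix.add_mulVec, Matrix.one_mulVec])
    have hminus := charpoly_of_thetaR hb hL E (mat hp hb e * (1 - matI hb)) (EV * (1 - -CV))
      (fun v => by
        rw [Module.End.mul_apply, LinearMap.sub_apply, Module.End.one_apply, hθE, map_sub, hθI,
          hmapmul, Matrix.map_sub _ (fun _ _ => Int.cast_sub _ _),
          Matrix.map_one _ Int.cast_zero Int.cast_one, ← Matrix.mulVec_mulVec,
          Matrix.sub_mulVec, Matrix.one_mulVec])
    rw [hplus, hminus, charpoly_mat_plus_minus]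
  have key := numInf_finrank_le h2 hE hI hEI hchar
  have e1 : eisW (J := JZero p) r e = LinearMap.ker (EV - 1) := by
    ext v
    rw [mem_eisW, LinearMap.mem_ker, LinearMap.sub_apply, Module.End.one_apply, sub_eq_zero]
    constructor
    · intro h
      apply Subtype.ext
      rw [hEVc]
      exact h
    · intro h
      rw [← hEVc, h]
  have e2 : fixSub r c = LinearMap.ker (-CV + 1) := by
    ext v
    rw [LinearMap.mem_ker, LinearMap.add_apply, LinearMap.neg_apply, Module.End.one_apply,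
      neg_add_eq_zero]
    show c • v = v ↔ _
    constructor
    · intro h
      apply Subtype.ext
      rw [hCVc, ← coe_gal_smul, h]
    · intro h
      apply Subtype.ext
      rw [coe_gal_smul, ← hCVc, h]
  rw [e1, e2]
  exact key

end Fermat.Agent.S15.Desc.H26

end
end
-- ==== END Fermat.Agent.S15.Desc.H26_NumInfOdd

-- ==== BEGIN Fermat.Agent.S15.Desc.H63_FixWire
section
attribute [local instance 10000] SubalgebraClass.toAlgebra

/-!
# S15 / DESC: (FIX) for `J₀(p)` from a modular semistable datum with coordinates (helper63)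

`fix_of_data` : for `A` over `p` and a semistable Deuring datum `S` for `F_p · ℚ̄` whose first
component is the Gauss valuation (the clauses of `BAD.Stmt_ModSSD`), with first component of
genus `0`, inertial inertia, and an `I_A`-fixed annulus coordinate of thickness `p ^ e s` at
every node, such that at most one node has `r ∣ e s`:
`dim J₀(p)[r]^{I_A} ≤ dim T + 1`, `T = toricSub A p r`.

Inputs: `H63.fix_abs` (abstract), `S36.H61.stmt_NUB0` (Hilbert 90), `R.H6.stmt_UnrFix`.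
-/

set_option autoImplicit false
set_option linter.style.haveILetI false

noncomputable section

open AlgebraicCurve ModularCurve Module Fermat.Agent.S28.H73 Fermat.Agent.RED.H73

attribute [local instance] Classical.propDecidable

namespace Fermat.Agent.S15.Desc.H63

open Fermat.Agent.BAD Fermat.Agent.RED.H17 Fermat.Agent.RED Fermat.Agent.S15.Desc

local notation "Qbar" => AlgebraicClosure ℚ

section Compat

variable {K F k F' R : Type*} [Field K] [Field F] [Algebra K F] [Field k] [Field F']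
  [Algebra k F'] [Field R] (c : PRed K F k F') (V₀ : ValuationSubring F) (ρ : ↥V₀ →+* R)
  (hρ : ∀ x : ↥V₀, ρ x ≠ 0 → IsUnit x)
  (hV : ∀ f : F, f ∈ V₀ → f ∈ c.V)
  (hred : ∀ (f : ↥V₀) (hf : (f : F) ∈ c.V), ρ f = 1 → c.red ⟨(f : F), hf⟩ = 1)

include hV hred

/-- The kernel of `ρ` reduces to `0`. -/
theorem rd_eq_zero_of_res (x : ↥V₀) (hx : ρ x = 0) : c.rd (x : F) = 0 := by
  have h1 : ρ (1 + x) = 1 := by rw [map_add, map_one, hx, add_zero]
  have hmem : ((1 + x : ↥V₀) : F) ∈ c.V := hV _ (1 + x).2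
  have h2 := hred (1 + x) hmem h1
  have h3 : c.rd ((1 : F) + (x : F)) = 1 := by
    rw [c.rd_of_mem (by exact hmem)]
    exact h2
  rw [c.rd_add c.V.one_mem (hV _ x.2), c.rd_one] at h3
  exact left_eq_add.mp h3.symm

include hρ

/-- A function with reduction `1` for `c` lies in `V₀`, with residue `1`. -/
theorem mem_of_rd_eq_one {u : F} (hu : u ∈ c.V) (hu1 : c.rd u = 1) :
    ∃ hm : u ∈ V₀, ρ ⟨u, hm⟩ = 1 := by
  have hGU : c.IsGU u := ⟨hu, by rw [hu1]; exact one_ne_zero⟩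
  have hu0 : u ≠ 0 := hGU.ne_zero
  have hm : u ∈ V₀ := by
    by_contra hnot
    have hinv : u⁻¹ ∈ V₀ := (V₀.mem_or_inv_mem u).resolve_left hnot
    have hnu : ρ ⟨u⁻¹, hinv⟩ = 0 := by
      by_contra hne
      obtain ⟨v, hv⟩ := hρ _ hne
      have h1 : ((v⁻¹ : (↥V₀)ˣ) : ↥V₀) * ⟨u⁻¹, hinv⟩ = 1 := by
        rw [← hv]; exact v.inv_mul
      have h2 : (((v⁻¹ : (↥V₀)ˣ) : ↥V₀) : F) * u⁻¹ = 1 := congrArg Subtype.val h1
      have h3 : (((v⁻¹ : (↥V₀)ˣ) : ↥V₀) : F) = u := by
        have h4 := (mul_inv_eq_one₀ hu0).mp h2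
        exact h4
      apply hnot
      rw [← h3]
      exact ((v⁻¹ : (↥V₀)ˣ) : ↥V₀).2
    have h4 := rd_eq_zero_of_res c V₀ ρ hV hred ⟨u⁻¹, hinv⟩ hnu
    have h5 : c.rd u⁻¹ = (c.rd u)⁻¹ := hGU.rd_inv
    rw [hu1, inv_one] at h5
    have h6 : c.rd u⁻¹ = 0 := h4
    rw [h5] at h6
    exact one_ne_zero h6
  refine ⟨hm, ?_⟩
  by_contra hne
  have hx : ρ (⟨u, hm⟩ - 1) ≠ 0 := by
    rw [map_sub, map_one]
    exact sub_ne_zero.mpr hne
  obtain ⟨v, hv⟩ := hρ _ hx
  have h1 : ((v⁻¹ : (↥V₀)ˣ) : ↥V₀) * (⟨u, hm⟩ - 1) = 1 := by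
    rw [← hv]; exact v.inv_mul
  have h2 : (((v⁻¹ : (↥V₀)ˣ) : ↥V₀) : F) * (u - 1) = 1 := congrArg Subtype.val h1
  have h3 := congrArg c.rd h2
  rw [c.rd_mul (hV _ ((v⁻¹ : (↥V₀)ˣ) : ↥V₀).2) (c.V.sub_mem hu c.V.one_mem),
    c.rd_sub hu c.V.one_mem, hu1, c.rd_one, sub_self, mul_zero] at h3
  exact zero_ne_one h3

end Compat

section LinAlg

variable {K E : Type*} [Field K] [AddCommGroup E] [Module K E]

/-- If any two elements of `U` are linearly dependent modulo `T`, then `dim U ≤ dim T + 1`. -/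
theorem finrank_le_add_one_of_pairwise [Module.Finite K E] (U T : Submodule K E)
    (h : ∀ u₁ ∈ U, ∀ u₂ ∈ U, ∃ a b : K, (a ≠ 0 ∨ b ≠ 0) ∧ a • u₁ + b • u₂ ∈ T) :
    finrank K ↥U ≤ finrank K ↥T + 1 := by
  have h3 := finrank_eq_map_add_inf_ker U T.mkQ
  rw [Submodule.ker_mkQ] at h3
  have h4 : finrank K ↥(U ⊓ T) ≤ finrank K ↥T := Submodule.finrank_mono inf_le_right
  have h5 : finrank K ↥(U.map T.mkQ) ≤ 1 := by
    refine finrank_le_one_of_pairwise_dep _ ?_
    rintro _ ⟨u₁, hu₁, rfl⟩ _ ⟨u₂, hu₂, rfl⟩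
    obtain ⟨a, b, hab, hmem⟩ := h u₁ hu₁ u₂ hu₂
    refine ⟨a, b, hab, ?_⟩
    rw [← map_smul, ← map_smul, ← map_add]
    exact (Submodule.Quotient.mk_eq_zero T).mpr hmem
  omega

end LinAlg

section Const

variable {A : ValuationSubring Qbar} {N : ℕ} {F₁ F₂ : Type} [Field F₁] [Algebra (kV A) F₁]
  [Field F₂] [Algebra (kV A) F₂] (S : SSD Qbar ↥(FNbar N) (kV A) F₁ F₂)
  (hV : ∀ f : ↥(FNbar N), f ∈ gaussV A N → f ∈ S.c₁.V)
  (hred : ∀ (f : ↥(gaussV A N)) (hf : (f : ↥(FNbar N)) ∈ S.c₁.V), gaussRes A N f = 1 →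
    S.c₁.red ⟨(f : ↥(FNbar N)), hf⟩ = 1)

/-- Non-zero residue means unit, for the Gauss valuation ring. -/
theorem isUnit_of_gaussRes_ne_zero (x : ↥(gaussV A N)) (hx : gaussRes A N x ≠ 0) : IsUnit x :=
  (isUnit_iff_gaussResF_ne_zero A (hasScale_laurentBaseChange A N) x).2
    (fun h0 => hx (Subtype.ext h0))

include hV in
/-- A unit of `A` is a unit constant. -/
theorem isCU_of_unit {a : Qbar} (ha : a ∈ A) (ha' : a⁻¹ ∈ A) (ha0 : a ≠ 0) : S.IsCU a := by
  have h1 : algebraMap Qbar ↥(FNbar N) a ∈ S.c₁.V :=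
    hV _ ((algebraMap_mem_gaussValSub_iff A (hasScale_laurentBaseChange A N) a).2 ha)
  have h2 : algebraMap Qbar ↥(FNbar N) a⁻¹ ∈ S.c₁.V :=
    hV _ ((algebraMap_mem_gaussValSub_iff A (hasScale_laurentBaseChange A N) a⁻¹).2 ha')
  refine ⟨h1, fun h0 => ?_⟩
  have h3 := S.c₁.rd_mul h1 h2
  rw [← map_mul, mul_inv_cancel₀ ha0, map_one, S.c₁.rd_one, h0, zero_mul] at h3
  exact one_ne_zero h3

include hV hred in
/-- A non-unit of `A` reduces to `0`. -/
theorem rd_const_eq_zero {a : Qbar} (ha : a ∈ A) (ha' : a⁻¹ ∉ A) :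
    S.c₁.rd (algebraMap Qbar ↥(FNbar N) a) = 0 := by
  have hm : algebraMap Qbar ↥(FNbar N) a ∈ gaussV A N :=
    (algebraMap_mem_gaussValSub_iff A (hasScale_laurentBaseChange A N) a).2 ha
  have h0 : gaussRes A N ⟨algebraMap Qbar ↥(FNbar N) a, hm⟩ = 0 := by
    by_contra hne
    obtain ⟨v, hv⟩ := isUnit_of_gaussRes_ne_zero _ hne
    have h1 : ((v⁻¹ : (↥(gaussV A N))ˣ) : ↥(gaussV A N)) *
        ⟨algebraMap Qbar ↥(FNbar N) a, hm⟩ = 1 := by
      rw [← hv]; exact v.inv_mul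
    have h2 : (((v⁻¹ : (↥(gaussV A N))ˣ) : ↥(gaussV A N)) : ↥(FNbar N)) *
        algebraMap Qbar ↥(FNbar N) a = 1 := congrArg Subtype.val h1
    have ha0 : a ≠ 0 := by
      rintro rfl
      rw [map_zero, mul_zero] at h2
      exact zero_ne_one h2
    have h3 : (((v⁻¹ : (↥(gaussV A N))ˣ) : ↥(gaussV A N)) : ↥(FNbar N))
        = algebraMap Qbar ↥(FNbar N) a⁻¹ := by
      rw [map_inv₀]
      exact eq_inv_of_mul_eq_one_left h2
    apply ha'
    rw [← algebraMap_mem_gaussValSub_iff A (hasScale_laurentBaseChange A N) a⁻¹, ← h3]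
    exact ((v⁻¹ : (↥(gaussV A N))ˣ) : ↥(gaussV A N)).2
  exact rd_eq_zero_of_res S.c₁ (gaussV A N) (gaussRes A N) hV hred ⟨_, hm⟩ h0

include hV hred in
/-- The exponent of a non-unit is well defined. -/
theorem zpow_isCU_imp {a : Qbar} (ha : a ∈ A) (ha' : a⁻¹ ∉ A) (m : ℤ)
    (h : S.IsCU (a ^ m)) : m = 0 := by
  have hrd := rd_const_eq_zero S hV hred ha ha'
  have hmem : algebraMap Qbar ↥(FNbar N) a ∈ S.c₁.V :=
    hV _ ((algebraMap_mem_gaussValSub_iff A (hasScale_laurentBaseChange A N) a).2 ha)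
  have key : ∀ n : ℕ, 0 < n → ¬ S.IsCU (a ^ n) := by
    intro n hn hcu
    have h1 : S.c₁.rd (algebraMap Qbar ↥(FNbar N) (a ^ n)) = 0 := by
      rw [map_pow, S.c₁.rd_pow hmem, hrd, zero_pow (by omega)]
    exact hcu.2 h1
  by_contra hm
  rcases lt_or_gt_of_ne hm with hlt | hgt
  · have h2 := h.inv
    rw [← zpow_neg] at h2
    have h3 : (-m) = ((-m).toNat : ℤ) := (Int.toNat_of_nonneg (by omega)).symm
    rw [h3, zpow_natCast] at h2
    exact key _ (by omega) h2
  · have h3 : m = (m.toNat : ℤ) := (Int.toNat_of_nonneg (by omega)).symm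
    rw [h3, zpow_natCast] at h
    exact key _ (by omega) h

end Const

section Main

variable {p : ℕ} [NeZero p]

omit [NeZero p] in
/-- The class of a function with reduction `1` is toric: the combination step. -/
theorem inK1_comb (A : ValuationSubring Qbar) {r : ℕ}
    (H : FFHyp Qbar ↥(FNbar p))
    (D D' : Divisor.degZero (K := Qbar) (F := ↥(FNbar p))) (h h' : ↥(FNbar p))
    (hh0 : h ≠ 0) (hh0' : h' ≠ 0)
    (hord : ∀ P : Place Qbar ↥(FNbar p),
      (r : ℤ) * (D : Divisor Qbar ↥(FNbar p)) P = P.ord h)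
    (hord' : ∀ P : Place Qbar ↥(FNbar p),
      (r : ℤ) * (D' : Divisor Qbar ↥(FNbar p)) P = P.ord h')
    (α β : ℕ) (w : ↥(FNbar p)) (c : Qbar) (hw : w ≠ 0) (hc : c ≠ 0)
    (hm : algebraMap Qbar ↥(FNbar p) c * (h ^ α * h' ^ β) * w ^ r ∈ gaussV A p)
    (hres : gaussRes A p ⟨algebraMap Qbar ↥(FNbar p) c * (h ^ α * h' ^ β) * w ^ r, hm⟩ = 1) :
    InK1 A p r (α • (Pic0.mk D : JZero p) + β • (Pic0.mk D' : JZero p)) := by
  have hdeg : dv H.principal w ∈ Divisor.degZero (K := Qbar) (F := ↥(FNbar p)) := by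
    rw [Divisor.mem_degZero]
    exact degree_dv H.principal w
  refine ⟨α • D + β • D' + ⟨dv H.principal w, hdeg⟩,
    ⟨algebraMap Qbar ↥(FNbar p) c * (h ^ α * h' ^ β) * w ^ r, hm⟩, ?_, hres, fun P => ?_⟩
  · have hz : (Pic0.mk (⟨dv H.principal w, hdeg⟩ :
        Divisor.degZero (K := Qbar) (F := ↥(FNbar p))) : JZero p) = 0 :=
      (QuotientAddGroup.eq_zero_iff _).2
        (AddSubgroup.mem_addSubgroupOf.2 (dv_mem_principal H.principal hw))
    rw [Pic0.mk_add, Pic0.mk_add, hz, add_zero]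
    rfl
  · show (r : ℤ) * ((α • (D : Divisor Qbar ↥(FNbar p)) + β • (D' : Divisor Qbar ↥(FNbar p))
      + dv H.principal w) P) = P.ord (algebraMap Qbar ↥(FNbar p) c * (h ^ α * h' ^ β) * w ^ r)
    have h1 : h ^ α * h' ^ β ≠ 0 := mul_ne_zero (pow_ne_zero α hh0) (pow_ne_zero β hh0')
    have h2 : algebraMap Qbar ↥(FNbar p) c ≠ 0 := (map_ne_zero _).2 hc
    rw [Place.ord_mul _ (mul_ne_zero h2 h1) (pow_ne_zero r hw), Place.ord_mul _ h2 h1,
      ord_algebraMap, zero_add, Place.ord_mul _ (pow_ne_zero α hh0) (pow_ne_zero β hh0'),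
      ord_pow, ord_pow, ord_pow, ← hord P, ← hord' P, Finsupp.add_apply, Finsupp.add_apply,
      Finsupp.smul_apply, Finsupp.smul_apply, dv_apply, nsmul_eq_mul, nsmul_eq_mul]
    ring

/-- **(FIX) from the modular datum** (an SSD for `F_p · ℚ̄` over `A`, first component the Gauss
valuation of genus `0`, inertia-fixed coordinates of thickness `p ^ e s`, at most one node with
`r ∣ e s`). -/
theorem fix_of_data {r : ℕ} (hp : p.Prime) (hr : r.Prime)
    (A : ValuationSubring Qbar) (hA : A.LiesOverPrime p)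
    {F₁ F₂ : Type} [Field F₁] [Algebra (kV A) F₁] [Field F₂] [Algebra (kV A) F₂]
    (S : SSD Qbar ↥(FNbar p) (kV A) F₁ F₂)
    (H : FFHyp Qbar ↥(FNbar p)) (H₁ : FFHyp (kV A) F₁) {c₁ : ℤ}
    (hg₁ : IsGenus (kV A) F₁ 0 c₁)
    (hV : ∀ f : ↥(FNbar p), f ∈ gaussV A p → f ∈ S.c₁.V)
    (hred : ∀ (f : ↥(gaussV A p)) (hf : (f : ↥(FNbar p)) ∈ S.c₁.V), gaussRes A p f = 1 →
      S.c₁.red ⟨(f : ↥(FNbar p)), hf⟩ = 1)
    (hin : ∀ σ ∈ A.inertiaSubgroupIn ℚ, S.IsInertial (galF p σ))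
    (e : Place (kV A) F₁ × Place (kV A) F₂ → ℕ)
    (hcoord : ∀ s ∈ S.nodes, 0 < e s ∧
      ∃ t : ↥(FNbar p), S.IsAnnCoord s t ((p : Qbar) ^ e s) ∧
        ∀ σ ∈ A.inertiaSubgroupIn ℚ, galF p σ • t = t)
    (huniq : ∀ s ∈ S.nodes, ∀ s' ∈ S.nodes, r ∣ e s → r ∣ e s' → s = s')
    (hfin : Finite (TorsR (JZero p) r)) :
    finrank (ZMod r) ↥(fixI (J := JZero p) r (A.inertiaSubgroupIn ℚ)) ≤
      finrank (ZMod r) ↥(toricSub A p r) + 1 := by
  haveI hrF : Fact r.Prime := ⟨hr⟩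
  haveI : NeZero r := ⟨hr.ne_zero⟩
  haveI : Module.Finite (ZMod r) (TorsR (JZero p) r) := Module.Finite.of_finite
  -- constants
  have hpval : A.valuation (p : Qbar) < 1 := hA
  have hp0 : (p : Qbar) ≠ 0 := Nat.cast_ne_zero.mpr hp.ne_zero
  have hpA : (p : Qbar) ∈ A := (A.valuation_le_one_iff _).mp hpval.le
  have hpinv : (p : Qbar)⁻¹ ∉ A :=
    ((ValuationSubring.mem_nonunits_iff_or A).mp hA).resolve_left hp0
  -- the set of inertial automorphisms
  obtain ⟨I, hIdef⟩ : ∃ I : Set (SemilinearAut Qbar ↥(FNbar p)),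
      I = {τ | ∃ σ ∈ A.inertiaSubgroupIn ℚ, τ = galF p σ} := ⟨_, rfl⟩
  have hImem : ∀ σ ∈ A.inertiaSubgroupIn ℚ, galF p σ ∈ I := by
    intro σ hσ
    rw [hIdef]
    exact ⟨σ, hσ, rfl⟩
  have hI : ∀ τ ∈ I, S.IsInertial τ := by
    intro τ hτ
    rw [hIdef] at hτ
    obtain ⟨σ, hσ, rfl⟩ := hτ
    exact hin σ hσ
  have hbase : ∀ σ : _root_.Fermat.Agent.S15.GalQ, ∀ y : Qbar, SemilinearAut.baseAut (galF p σ) y = σ y := by
    intro σ y
    rw [baseAut_arithmeticGalois]
    rfl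
  have hqI : ∀ τ ∈ I, SemilinearAut.baseAut τ (p : Qbar) = (p : Qbar) := by
    intro τ hτ
    rw [hIdef] at hτ
    obtain ⟨σ, -, rfl⟩ := hτ
    rw [hbase]
    exact map_natCast σ p
  have hq : ∀ m : ℤ, S.IsCU ((p : Qbar) ^ m) → m = 0 :=
    fun m hm => zpow_isCU_imp S hV hred hpA hpinv m hm
  have hunr : ∀ Y : Qbar, Y ≠ 0 → (∀ τ ∈ I, SemilinearAut.baseAut τ Y = Y) →
      ∃ m : ℤ, S.IsCU (Y / (p : Qbar) ^ m) := by
    intro Y hY0 hYI
    have hfix : ∀ σ ∈ A.inertiaSubgroupIn ℚ, σ Y = Y := by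
      intro σ hσ
      have := hYI _ (hImem σ hσ)
      rwa [hbase] at this
    obtain ⟨m, hm⟩ := Fermat.Agent.R.H6.stmt_UnrFix p hp A hA Y hY0 hfix
    refine ⟨m, ?_⟩
    have hpm0 : (p : Qbar) ^ m ≠ 0 := zpow_ne_zero _ hp0
    have hv1 : A.valuation (Y / (p : Qbar) ^ m) = 1 := by
      rw [map_div₀, map_zpow₀, hm]
      exact div_self (zpow_ne_zero _ ((map_ne_zero _).mpr hp0))
    have hv2 : A.valuation (Y / (p : Qbar) ^ m)⁻¹ = 1 := by
      rw [map_inv₀, hv1, inv_one]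
    exact isCU_of_unit S hV ((A.valuation_le_one_iff _).mp hv1.le)
      ((A.valuation_le_one_iff _).mp hv2.le) (div_ne_zero hY0 hpm0)
  -- the exceptional node
  obtain ⟨s₀, hs₀⟩ : ∃ s₀ : Place (kV A) F₁ × Place (kV A) F₂,
      ∀ s ∈ S.nodes, s ≠ s₀ → ¬ r ∣ e s := by
    by_cases hex : ∃ s ∈ S.nodes, r ∣ e s
    · obtain ⟨s₀, hs₀, hre⟩ := hex
      exact ⟨s₀, fun s hs hne hrs => hne (huniq s hs s₀ hs₀ hrs hre)⟩
    · obtain ⟨s₀, -⟩ := S.nodes_nonempty
      exact ⟨s₀, fun s hs _ hrs => hex ⟨s, hs, hrs⟩⟩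
  have hcoord' : ∀ s ∈ S.nodes, s ≠ s₀ → ∃ (t : ↥(FNbar p)) (e' : ℕ),
      S.IsAnnCoord s t ((p : Qbar) ^ e') ∧ (∀ τ ∈ I, τ • t = t) ∧ ¬ r ∣ e' := by
    intro s hs hne
    obtain ⟨-, t, ht, htI⟩ := hcoord s hs
    refine ⟨t, e s, ht, fun τ hτ => ?_, hs₀ s hs hne⟩
    rw [hIdef] at hτ
    obtain ⟨σ, hσ, rfl⟩ := hτ
    exact htI σ hσ
  -- pairwise dependence modulo the toric part
  refine finrank_le_add_one_of_pairwise _ _ ?_
  intro v hv v' hv'
  obtain ⟨D, h, hh0, hvD, hord, -, hhfix, -, -⟩ :=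
    Fermat.Agent.S36.H61.stmt_NUB0 p (A.inertiaSubgroupIn ℚ) r (v : JZero p)
      (mem_torsR.mp v.2) (fun σ hσ => congrArg Subtype.val (hv σ hσ))
  obtain ⟨D', h', hh0', hvD', hord', -, hhfix', -, -⟩ :=
    Fermat.Agent.S36.H61.stmt_NUB0 p (A.inertiaSubgroupIn ℚ) r (v' : JZero p)
      (mem_torsR.mp v'.2) (fun σ hσ => congrArg Subtype.val (hv' σ hσ))
  have hfI : ∀ τ ∈ I, τ • h = h := by
    intro τ hτ
    rw [hIdef] at hτ
    obtain ⟨σ, hσ, rfl⟩ := hτ
    exact hhfix σ hσ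
  have hf'I : ∀ τ ∈ I, τ • h' = h' := by
    intro τ hτ
    rw [hIdef] at hτ
    obtain ⟨σ, hσ, rfl⟩ := hτ
    exact hhfix' σ hσ
  obtain ⟨α, β, hαβ, w, c, hw, hc, hmem, hrd⟩ := fix_abs S H.principal H.deg_one H₁ hg₁ I hI
    (p : Qbar) hp0 hqI hq hunr r hr s₀ hcoord' hh0 hh0' hfI hf'I
    (fun P => ⟨_, (hord P).symm⟩) (fun P => ⟨_, (hord' P).symm⟩)
  obtain ⟨hm, hres⟩ := mem_of_rd_eq_one S.c₁ (gaussV A p) (gaussRes A p)
    (fun x hx => isUnit_of_gaussRes_ne_zero x hx) hV hred hmem hrd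
  have hK := inK1_comb A H D D' h h' hh0 hh0' hord hord' α β w c hw hc hm hres
  refine ⟨(α : ZMod r), (β : ZMod r), ?_, ?_⟩
  · rcases hαβ with h1 | h1
    · exact Or.inl (fun h0 => h1 ((ZMod.natCast_eq_zero_iff α r).mp h0))
    · exact Or.inr (fun h0 => h1 ((ZMod.natCast_eq_zero_iff β r).mp h0))
  · refine Submodule.subset_span ?_
    show InK1 A p r (((α : ZMod r) • v + (β : ZMod r) • v' : TorsR (JZero p) r) : JZero p)
    have e1 : (((α : ZMod r) • v + (β : ZMod r) • v' : TorsR (JZero p) r) : JZero p)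
        = α • (Pic0.mk D : JZero p) + β • (Pic0.mk D' : JZero p) := by
      rw [Nat.cast_smul_eq_nsmul, Nat.cast_smul_eq_nsmul, AddSubgroup.coe_add,
        AddSubgroup.coe_nsmul, AddSubgroup.coe_nsmul, hvD, hvD']
    rw [e1]
    exact hK

/-- **(FIX) from the modular coordinates** (helper67's `Stmt_CoordMod p`). -/
theorem stmt_FIX_of_coordMod {r : ℕ} (hp : p.Prime) (hr : r.Prime)
    (hFIN : Stmt_FIN p) (hC : H67.Stmt_CoordMod p) : Stmt_FIX p r := by
  intro A hA
  obtain ⟨F₁, F₂, i₁, i₂, i₃, i₄, S, H, H₁, -, g, g₁, g₂, c, c₁, c₂, -, hg₁, -, -, hV, hred,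
    hin, hg0, e, hcoord, huniq⟩ := hC A hA
  subst hg0
  exact fix_of_data hp hr A hA S H H₁ hg₁ hV hred hin e hcoord (huniq r hr) (hFIN r hr.pos)

end Main

end Fermat.Agent.S15.Desc.H63

end
end
-- ==== END Fermat.Agent.S15.Desc.H63_FixWire

-- ==== BEGIN Fermat.Agent.S15.Desc.H67_CoordModC
section
attribute [local instance 10000] SubalgebraClass.toAlgebra
attribute [local instance 10000] HahnSeries.powerSeriesAlgebra

/-!
# S15 DESC, leaf COORD (helper67): the modular verification at level `1 * p`, part C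

The supersingular polynomial: `red₁ U = H(j~)` (helper21's (SS), helper30's UNIT), hence at a
node `z` with `j~(z) = β₀` the order of `red₁ U` is the multiplicity of the root `β₀` of `H`.
-/

set_option autoImplicit false
set_option linter.unusedSectionVars false
set_option linter.style.haveILetI false
set_option synthInstance.maxHeartbeats 400000
set_option maxHeartbeats 400000

noncomputable section

open HahnSeries IntermediateField AlgebraicCurve ModularCurve
open Fermat.Agent.S28.H73 Fermat.Agent.RED.H73 Fermat.Agent.RED Fermat.Agent.S24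
open Fermat.Agent.BAD.H88

namespace Fermat.Agent.S15.Desc.H67

open Fermat.Agent.BAD Fermat.Agent.BAD.H91 Fermat.Agent.BAD.H21 Fermat.Agent.RED.H17

section SS

variable (A : ValuationSubring Kbar) (p : ℕ) [NeZero (1 * p)] [NeZero p]
  (hp : p.Prime) (hA : A.LiesOverPrime p) (h5 : 5 ≤ p)

/-- The supersingular datum in characteristic `p ≥ 5`. -/
def ssDat : H21_SSData (kV A) (H21_ssM p) (H21_ssA p) (H21_ssB p) :=
  haveI : Fact p.Prime := ⟨hp⟩
  haveI : CharP (kV A) p := H82.charP_kV A hp hA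
  (H21_exists_ssData (F := kV A) (ℓ := p) h5).some

theorem ssDat_H_ne_zero : (ssDat A p hp hA h5).H ≠ 0 := by
  intro h
  have h1 := (ssDat A p hp hA h5).hev_H_series
  rw [h, Fermat.Agent.S16.H41.hev_zero] at h1
  exact zero_ne_one h1

/-- **UNIT + (SS)**: `red₁ U = H(j~)`. -/
theorem red1_unit_eq_aeval (hd : p ∣ 1 * p) :
    red1 A p 1 ⟨Fermat.Agent.BAD.H30.unitF (1 * p) p hd,
        Fermat.Agent.BAD.H30.unitF_mem_gaussV A (1 * p) p hd⟩
      = Polynomial.aeval (jTil A p) (ssDat A p hp hA h5).H := by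
  haveI : Fact p.Prime := ⟨hp⟩
  haveI : CharP (kV A) p := H82.charP_kV A hp hA
  apply Subtype.ext
  have h1 := Fermat.Agent.BAD.H30.gaussRes_unitF_char A (1 * p) p hA hd
  refine h1.trans ?_
  have hw := H21_ss_weight hp h5
  have h2 := H21_aeval_jqModC (F := kV A) (hw ▸ (ssDat A p hp hA h5).natDegree_H_le)
    (hw ▸ (ssDat A p hp hA h5).hev_H_series)
  rw [Fermat.Agent.BAD.H30.deltaR_eq_DL, ← h2, ← coe_jTil A p]
  exact Polynomial.aeval_algHom_apply
    (redField A (modularFunctionFieldBar (1 * p)) (hSc A p 1)).val (jTil A p)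
    (ssDat A p hp hA h5).H

end SS

section Node

variable {A : ValuationSubring Kbar} {p : ℕ} (a b : ℤ) (hab : a * p + b * (1 : ℕ) = 1)
  (hp : p.Prime) [NeZero (1 * p)] [NeZero p] (hA : A.LiesOverPrime p) (hqM : ¬ p ∣ 1)
  (ht : TameAt 1 p) (hTot : Stmt_TotMod) (hCusp : Stmt_CoordCusp p) (h5 : 5 ≤ p)

include hCusp in
/-- `j~` is regular at a node. -/
theorem ord_jTil_nonneg_of_isNode {z : Place (kV A) (F1 A p 1)}
    (hz : (modTp a b hab hp hA hqM ht hTot).IsNode z) : 0 ≤ z.ord (jTil A p) := by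
  have h := ord_jRed_nonneg_of_isNode a b hab hp hA hqM ht hTot hCusp hz
  rw [kappa_ord A p 1 a b hab hp hA z (jTil A p) (jRed A 1)
    ((coe_jTil A p).trans (red_jF A 1).symm)] at h
  exact h

include hCusp in
/-- The value `j~(z)` at a node. -/
theorem exists_jvalue {z : Place (kV A) (F1 A p 1)}
    (hz : (modTp a b hab hp hA hqM ht hTot).IsNode z) (hdeg : z.deg = 1) :
    ∃ β₀ : kV A, VanAt z (jTil A p - algebraMap (kV A) (F1 A p 1) β₀) :=
  RED.H17.exists_value z hdeg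
    (RED.H17.regAt_of_ord_nonneg (ord_jTil_nonneg_of_isNode a b hab hp hA hqM ht hTot hCusp hz))

include hab in
/-- The order of `red₁ U` at a place where `j~` has the value `β₀`. -/
theorem ord_red1_unit (hzeros : H59.ZerosStmt (kV A) (F1 A p 1)) (hd : p ∣ 1 * p)
    {z : Place (kV A) (F1 A p 1)} {β₀ : kV A}
    (h : VanAt z (jTil A p - algebraMap (kV A) (F1 A p 1) β₀)) :
    z.ord (red1 A p 1 ⟨Fermat.Agent.BAD.H30.unitF (1 * p) p hd,
        Fermat.Agent.BAD.H30.unitF_mem_gaussV A (1 * p) p hd⟩)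
      = (((ssDat A p hp hA h5).H.rootMultiplicity β₀ : ℕ) : ℤ) := by
  rw [red1_unit_eq_aeval A p hp hA h5 hd]
  exact rat_ord_aeval hzeros (transcendental_jTil A p) (adjoin_jTil A p a b hab hp hA) h
    (ssDat_H_ne_zero A p hp hA h5)

end Node

end Fermat.Agent.S15.Desc.H67

end
end
-- ==== END Fermat.Agent.S15.Desc.H67_CoordModC

-- ==== BEGIN Fermat.Agent.S15.Desc.H69_SelB
section

/-!
# S15 / DESC: `Stmt_selB p` from (SELB) at every prime `r ∣ p - 1` (helper69)

The cuspidal class `κ` is non-zero (`Stmt_cuspNe`) and killed by `p - 1` (`Stmt_cuspTors`), so its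
order has a prime factor `r ∣ p - 1`; (SELB) at this `r` is `Stmt_selB p`, the input of
`S15/H40_CoreSel.lean`.
-/

set_option autoImplicit false

noncomputable section

open ModularCurve

namespace Fermat.Agent.S15.Desc

open Fermat.Agent.S15

theorem stmt_selB_of_selBAt (p : ℕ) [NeZero p] (hp : p.Prime)
    (hne : Stmt_cuspNe p) (htors : Stmt_cuspTors p)
    (hsel : ∀ r : ℕ, r.Prime → r ∣ p - 1 → SelBAt p r) : Stmt_selB p := by
  intro Pinf P0 hc
  set κ := ptClass Pinf P0 hc.deg_inf hc.deg_zero with hκ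
  have hκ0 : κ ≠ 0 := hne Pinf P0 hc
  have hκt : (p - 1) • κ = 0 := htors Pinf P0 hc
  have hp1 : p - 1 ≠ 0 := by
    have := hp.two_le
    omega
  have hord : addOrderOf κ ∣ p - 1 := addOrderOf_dvd_of_nsmul_eq_zero hκt
  have hord1 : addOrderOf κ ≠ 1 := fun h => hκ0 (AddMonoid.addOrderOf_eq_one_iff.mp h)
  obtain ⟨r, hr, hrd⟩ := Nat.exists_prime_and_dvd hord1
  exact ⟨r, hr, hrd, hsel r hr (hrd.trans hord)⟩

end Fermat.Agent.S15.Desc

end
end
-- ==== END Fermat.Agent.S15.Desc.H69_SelB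

-- ==== BEGIN Fermat.Agent.S15.Desc.H83_GlueLin
section

/-!
# S15 / DESC, leaf GLUE-dim (helper83), abstract part 4: the dimension of the toric part

* `nthPowMod_of_genus_zero` : `NthPowMod k F₂ n` if `F₂` has genus `0`.
* `finrank_span_lt` : linear algebra over `ZMod r`: if any `δ` elements of `X` satisfy a
  non-trivial relation, then `dim span X < δ`.
* `pic0_relation` : a multiplicative relation `t ^ n = ∏ f i ^ e i` between Kummer functions
  gives the relation `∑ e i • [D i] = 0` in `Pic⁰`.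
* `finrank_span_kummer_lt` : for a semistable Deuring datum with `g₂ = 0`, the span in
  `Pic⁰(F)[r]` of the classes with a Kummer function `≡ 1` on the first component has dimension
  `< δ` (the number of nodes).
-/

set_option autoImplicit false
set_option linter.style.haveILetI false
set_option maxHeartbeats 1000000

noncomputable section

open AlgebraicCurve

attribute [local instance] Classical.propDecidable

namespace Fermat.Agent.S15.Desc.H83

open Fermat.Agent.RED.H17 Fermat.Agent.RED Fermat.Agent.BAD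

local notation "L" => riemannRochSpace

/-! ### Genus zero -/

/-- In genus `0` every function whose divisor is divisible by `n` is a constant times an `n`-th
power. -/
theorem nthPowMod_of_genus_zero {k F₂ : Type} [Field k] [Field F₂] [Algebra k F₂]
    (H₂ : FFHyp k F₂) {c₂ : ℤ} (hR₂ : IsGenus k F₂ 0 c₂) (n : ℕ) (hn : n ≠ 0) :
    NthPowMod k F₂ n := by
  intro γ hγ hdiv
  set E : Divisor k F₂ := dv H₂.principal γ with hE
  set D : Divisor k F₂ := E.mapRange (fun m : ℤ => m / (n : ℤ)) (by simp) with hD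
  have hDv : ∀ v : Place k F₂, (n : ℤ) * D v = v.ord γ := by
    intro v
    rw [hD, H60.mapRange_div_apply, hE, dv_apply]
    exact Int.mul_ediv_cancel' (hdiv v)
  have hdeg : Divisor.degree D = 0 :=
    H60.degree_mapRange_div E n hn (fun v => by rw [hE, dv_apply]; exact hdiv v)
      (degree_dv _ _)
  have hl := (hR₂ D).1
  rw [hdeg] at hl
  have hpos : 0 < Module.finrank k (L D) := by
    have : (1 : ℤ) ≤ (Module.finrank k (L D) : ℤ) := by
      simpa using hl
    exact_mod_cast this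
  haveI := H₂.finite D
  obtain ⟨φ, hφ0⟩ : ∃ φ : L D, φ ≠ 0 := Module.finrank_pos_iff_exists_ne_zero.mp hpos
  have hφne : (φ : F₂) ≠ 0 := fun h => hφ0 (Subtype.ext h)
  have hord : ∀ v : Place k F₂, -D v ≤ v.ord (φ : F₂) := ord_ge_of_mem_L φ.2 hφne
  have hreg : ∀ v : Place k F₂, 0 ≤ v.ord (γ * (φ : F₂) ^ n) := by
    intro v
    rw [v.ord_mul hγ (pow_ne_zero n hφne), Fermat.Agent.RED.H17.ord_pow, ← hDv v]
    have h1 := hord v
    have h2 : (0 : ℤ) ≤ (n : ℤ) * (D v + v.ord (φ : F₂)) :=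
      mul_nonneg (Int.natCast_nonneg n) (by omega)
    rw [mul_add] at h2
    exact h2
  obtain ⟨a, ha⟩ := H₂.const_of_regular hreg
  refine ⟨a, (φ : F₂)⁻¹, ?_⟩
  rw [← ha, inv_pow, mul_assoc, mul_inv_cancel₀ (pow_ne_zero n hφne), mul_one]

/-! ### Linear algebra -/

/-- If any `δ` distinct elements of `X` satisfy a non-trivial linear relation over `ZMod r`, then
the span of `X` has dimension `< δ`. -/
theorem finrank_span_lt {r : ℕ} [Fact r.Prime] {V : Type*} [AddCommGroup V]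
    [Module (ZMod r) V] (X : Set V) (δ : ℕ)
    (hrel : ∀ x : Fin δ → V, (∀ i, x i ∈ X) →
      ∃ e : Fin δ → ℕ, (∃ i, ¬ r ∣ e i) ∧ ∑ i, e i • x i = 0) :
    Module.finrank (ZMod r) ↥(Submodule.span (ZMod r) X) < δ := by
  by_contra hcon
  rw [not_lt] at hcon
  obtain ⟨b, hbX, hspan, hli0⟩ := exists_linearIndependent (ZMod r) X
  have hli : LinearIndepOn (ZMod r) id b := hli0
  -- a finite subset of `b` with `δ` elements
  have hex : ∃ t : Finset V, (↑t : Set V) ⊆ b ∧ t.card = δ := by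
    by_cases hfin : b.Finite
    · haveI : Fintype ↥b := hfin.fintype
      have hcard : Module.finrank (ZMod r) ↥(Submodule.span (ZMod r) b) = b.toFinset.card :=
        finrank_span_set_eq_card hli
      rw [hspan] at hcard
      rw [hcard] at hcon
      obtain ⟨t, ht, htc⟩ := Finset.exists_subset_card_eq hcon
      refine ⟨t, ?_, htc⟩
      intro v hv
      exact Set.mem_toFinset.mp (ht hv)
    · exact Set.Infinite.exists_subset_card_eq hfin δ
  obtain ⟨t, htb, htc⟩ := hex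
  have hlit : LinearIndependent (ZMod r) (Subtype.val : (↑t : Set V) → V) :=
    LinearIndepOn.mono hli htb
  let ε : Fin δ ≃ ↥t := (Finset.equivFinOfCardEq htc).symm
  have hlif : LinearIndependent (ZMod r) (fun i : Fin δ => ((ε i : ↥t) : V)) :=
    hlit.comp (fun i => (⟨(ε i : V), (ε i).2⟩ : (↑t : Set V)))
      (fun i j hij => ε.injective (Subtype.ext (congrArg Subtype.val hij)))
  obtain ⟨e, ⟨i₀, hi₀⟩, hsum⟩ := hrel (fun i => ((ε i : ↥t) : V))
    (fun i => hbX (htb (ε i).2))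
  have hsum' : ∑ i, ((e i : ℕ) : ZMod r) • ((ε i : ↥t) : V) = 0 := by
    rw [← hsum]
    refine Finset.sum_congr rfl fun i _ => ?_
    rw [Nat.cast_smul_eq_nsmul]
  have h0 := Fintype.linearIndependent_iff.mp hlif (fun i => ((e i : ℕ) : ZMod r)) hsum' i₀
  exact hi₀ ((ZMod.natCast_eq_zero_iff _ _).mp h0)

/-! ### The relation in `Pic⁰` -/

section Pic

variable {K F : Type*} [Field K] [Field F] [Algebra K F]

/-- A multiplicative relation between Kummer functions gives a linear relation between their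
classes. -/
theorem pic0_relation {n : ℕ} (hn : n ≠ 0) {m : ℕ}
    (D : Fin m → Divisor.degZero (K := K) (F := F)) (f : Fin m → F) (hf0 : ∀ i, f i ≠ 0)
    (hD : ∀ i, ∀ P : Place K F, (n : ℤ) * (D i : Divisor K F) P = P.ord (f i))
    (e : Fin m → ℕ) (t : F) (ht : t ^ n = ∏ i, f i ^ e i) :
    ∑ i, e i • Pic0.mk (D i) = 0 := by
  have hprod0 : ∏ i, f i ^ e i ≠ 0 :=
    Finset.prod_ne_zero_iff.mpr fun i _ => pow_ne_zero _ (hf0 i)
  have ht0 : t ≠ 0 := by
    rintro rfl
    rw [zero_pow hn] at ht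
    exact hprod0 ht.symm
  have hmk : ∑ i, e i • Pic0.mk (D i) = Pic0.mk (∑ i, e i • D i) := by
    show _ = (QuotientAddGroup.mk' _) (∑ i, e i • D i)
    rw [map_sum]
    refine Finset.sum_congr rfl fun i _ => ?_
    rw [map_nsmul]
    rfl
  rw [hmk]
  show (QuotientAddGroup.mk (∑ i, e i • D i) : Pic0 K F) = 0
  rw [QuotientAddGroup.eq_zero_iff, AddSubgroup.mem_addSubgroupOf, Divisor.mem_principal]
  refine ⟨t, ht0, fun P => ?_⟩
  have hn' : (n : ℤ) ≠ 0 := by exact_mod_cast hn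
  apply mul_left_cancel₀ hn'
  have h1 : (n : ℤ) * P.ord t = ∑ i, (e i : ℤ) * P.ord (f i) := by
    rw [← Fermat.Agent.RED.H17.ord_pow, ht,
      Fermat.Agent.RED.H17.ord_prod P Finset.univ (fun i => f i ^ e i)
        (fun i _ => pow_ne_zero _ (hf0 i))]
    refine Finset.sum_congr rfl fun i _ => ?_
    rw [Fermat.Agent.RED.H17.ord_pow]
  rw [h1]
  have h2 : ((∑ i, e i • D i : Divisor.degZero (K := K) (F := F)) : Divisor K F) P =
      ∑ i, (e i : ℤ) * (D i : Divisor K F) P := by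
    rw [AddSubmonoidClass.coe_finsetSum, Finsupp.finsetSum_apply]
    refine Finset.sum_congr rfl fun i _ => ?_
    rw [AddSubgroup.coe_nsmul, Finsupp.smul_apply, nsmul_eq_mul]
  rw [h2, Finset.mul_sum]
  refine Finset.sum_congr rfl fun i _ => ?_
  rw [← hD i P]
  ring

end Pic

/-! ### The dimension of the toric part, abstract form -/

section Toric

variable {K F k F₁ F₂ : Type} [Field K] [Field F] [Algebra K F] [Field k] [Field F₁]
  [Algebra k F₁] [Field F₂] [Algebra k F₂]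

/-- The classes of `Pic⁰(F)[r]` with a Kummer function `≡ 1` on the first component. -/
def kummerSet (S : SSD K F k F₁ F₂) (r : ℕ) : Set (TorsR (Pic0 K F) r) :=
  {v | ∃ (D : Divisor.degZero (K := K) (F := F)) (f : F) (hf : f ∈ S.c₁.V),
    (v : Pic0 K F) = Pic0.mk D ∧ S.c₁.red ⟨f, hf⟩ = 1 ∧
    ∀ P : Place K F, (r : ℤ) * (D : Divisor K F) P = P.ord f}

/-- **The relation between `δ` Kummer classes**, for a semistable Deuring datum whose second
component has genus `0`. -/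
theorem kummer_relation [IsAlgClosed K] [IsAlgClosed k]
    (S : SSD K F k F₁ F₂) (H : FFHyp K F) (H₁ : FFHyp k F₁) (H₂ : FFHyp k F₂)
    (g g₁ : ℕ) (c c₁ c₂ : ℤ) (hR : IsGenus K F g c) (hR₁ : IsGenus k F₁ g₁ c₁)
    (hR₂ : IsGenus k F₂ 0 c₂) (hnum : g + 1 ≤ g₁ + 0 + S.nodes.card)
    (r : ℕ) (hrp : r.Prime) (hr : (r : k) ≠ 0)
    (x : Fin S.nodes.card → TorsR (Pic0 K F) r) (hx : ∀ i, x i ∈ kummerSet S r) :
    ∃ e : Fin S.nodes.card → ℕ, (∃ i, ¬ r ∣ e i) ∧ ∑ i, e i • x i = 0 := by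
  choose D f hf hxD hf1 hDf using hx
  have hf0 : ∀ i, f i ≠ 0 := by
    intro i h0
    have h1 := hf1 i
    have h2 : S.c₁.red ⟨f i, hf i⟩ = 0 := by
      have : (⟨f i, hf i⟩ : S.c₁.V) = 0 := Subtype.ext h0
      rw [this, map_zero]
    rw [h2] at h1
    exact zero_ne_one h1
  obtain ⟨e, hi, t, ht⟩ := exists_relation H90.stmt_TwistExists stmt_Moving H28.stmt_GoodLift
    H28.stmt_TIss S H H₁ H₂ g g₁ 0 c c₁ c₂ hR hR₁ hR₂ hnum r hrp.two_le hr
    (nthPowMod_of_genus_zero H₂ hR₂ r hrp.ne_zero) S.nodes.card le_rfl f hf hf1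
    (fun i P => ⟨(D i : Divisor K F) P, (hDf i P).symm⟩)
  refine ⟨e, hi, ?_⟩
  apply Subtype.ext
  have hrel := pic0_relation hrp.ne_zero D f hf0 hDf e t ht
  have hcoe : ((∑ i, e i • x i : TorsR (Pic0 K F) r) : Pic0 K F) =
      ∑ i, e i • Pic0.mk (D i) := by
    rw [AddSubmonoidClass.coe_finsetSum]
    refine Finset.sum_congr rfl fun i _ => ?_
    rw [AddSubgroup.coe_nsmul, hxD i]
  rw [hcoe, hrel]
  rfl

/-- **The toric part has dimension `< δ`**: for a semistable Deuring datum whose second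
component has genus `0`, the span of any set of Kummer classes has dimension less than the
number of nodes. -/
theorem finrank_span_kummer_lt [IsAlgClosed K] [IsAlgClosed k]
    (S : SSD K F k F₁ F₂) (H : FFHyp K F) (H₁ : FFHyp k F₁) (H₂ : FFHyp k F₂)
    (g g₁ : ℕ) (c c₁ c₂ : ℤ) (hR : IsGenus K F g c) (hR₁ : IsGenus k F₁ g₁ c₁)
    (hR₂ : IsGenus k F₂ 0 c₂) (hnum : g + 1 ≤ g₁ + 0 + S.nodes.card)
    (r : ℕ) [Fact r.Prime] (hr : (r : k) ≠ 0)
    (X : Set (TorsR (Pic0 K F) r)) (hX : X ⊆ kummerSet S r) :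
    Module.finrank (ZMod r) ↥(Submodule.span (ZMod r) X) < S.nodes.card :=
  finrank_span_lt X S.nodes.card fun x hx =>
    kummer_relation S H H₁ H₂ g g₁ c c₁ c₂ hR hR₁ hR₂ hnum r Fact.out hr x
      (fun i => hX (hx i))

end Toric

end Fermat.Agent.S15.Desc.H83

end
end
-- ==== END Fermat.Agent.S15.Desc.H83_GlueLin
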