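-- GENERATED (merged mirror, NOTES/tools/trim/merge3_helper67.py): 1 modules of the originals, bodies verbatim.
import Fermat.Agent.Zm.S15_L03_001
import Fermat.Agent.Zm.S33_L12_000

-- ==== BEGIN Fermat.Agent.S15.Desc.H66_FlatKummer
section

/-!
# S15 / DESC, ROUTE-F: FL-x (flatness of the Kummer extension) from integral coordinates on
finite sets of points (helper66)

`J` an abelian group with an action of `G_ℚ`, `r` a prime, `y ∈ J` with `x = r y` fixed by `G_ℚ`.
The Kummer extension `M = J[r] × ℤ/r` (action `H40.kumAct r y`) is embedded as a `G_ℚ`-set in `J`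
by `emb (v, k) = v + k y` (`0 ≤ k < r`); the addition of `M` is the addition of `J` with a carry:
`emb (m + m') = emb m + emb m' - carry • x`.

* `kumSet r y` : the finite `G_ℚ`-stable set `{v + k y - c x : v ∈ J[r], k ≤ 2 r, c ≤ 1}`.
* `HasPtCoords A 𝒯` : the set `𝒯 ⊆ J` has integral coordinates at the place `A`: finitely many
  functions `h j : 𝒯 → ℚ̄` with values in `A`, equivariant for the inertia group of `A`, whose
  twists by the decomposition group lie in `genRing A h`, which separate points with torsion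
  difference, and such that the PARTIAL addition `(s, t) ↦ h j (s + t)` (where `s + t ∈ 𝒯`) is
  given by elements of `pairRing A h`.
  (This is the conclusion `FL.HasIntCoords` of the abstract main theorem of G-FL, in concrete
  terms.)
* `flat_kummer_abs` : if `kumSet r y` has integral coordinates at a place over `r`, then the
  Kummer extension is flat at `r` (`Lib.HopfOrderLoc.flat_of_local_generators` for the
  generators `h j ∘ emb` and the indicators of the classes `k + r ℤ`).
* `Stmt_PtsGen` : every finite `G_ℚ`-stable set of points of `J₀(p)` has integral coordinates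
  at some place over `r ∤ p`.
* `stmt_FlatKummer_of : Stmt_PtsGen → (∀ p, Stmt_FIN p) → (∀ p, Stmt_GALfin p) →
  H40.Stmt_FlatKummer`.
-/

set_option autoImplicit false
set_option linter.unusedSectionVars false
set_option linter.style.haveILetI false

noncomputable section

namespace Fermat.Agent.S15.Desc.H66

open ModularCurve Fermat.Agent.S15 Fermat.Agent.S15.Desc Fermat.Agent.Lib.HopfOrder
  Fermat.Agent.Lib.HopfOrderLoc

local notation "Qbar" => AlgebraicClosure ℚ

/-! ## Substitution in rings of functions -/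

/-- Substitution: if `g ∘ u ∈ T` for the generators `g`, then for all `g` in the closure. -/
theorem comp_mem_of_closure {X Y K : Type} [Field K] (u : X → Y) (T : Subring (X → K))
    (gens : Set (Y → K)) (hgen : ∀ g ∈ gens, (fun x => g (u x)) ∈ T) {g : Y → K}
    (hg : g ∈ Subring.closure gens) : (fun x => g (u x)) ∈ T := by
  induction hg using Subring.closure_induction with
  | mem g hg => exact hgen g hg
  | zero => exact T.zero_mem
  | one => exact T.one_mem
  | add g g' _ _ hg hg' => exact T.add_mem hg hg'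
  | neg g _ hg => exact T.neg_mem hg
  | mul g g' _ _ hg hg' => exact T.mul_mem hg hg'

/-- Substitution in `genRing`. -/
theorem comp_mem_genRing {X Y K ι ι' : Type} [Field K] (A : Subring K) (u : X → Y)
    (h : ι → Y → K) (H : ι' → X → K) (hh : ∀ j, (fun x => h j (u x)) ∈ genRing A H)
    {g : Y → K} (hg : g ∈ genRing A h) : (fun x => g (u x)) ∈ genRing A H := by
  refine comp_mem_of_closure u _ _ ?_ hg
  rintro g (⟨a, ha, rfl⟩ | ⟨j, rfl⟩)
  · exact Subring.subset_closure (Or.inl ⟨a, ha, rfl⟩)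
  · exact hh j

/-- Substitution in `pairRing`. -/
theorem comp_mem_pairRing {X Y K ι ι' : Type} [Field K] (A : Subring K) (u : X × X → Y × Y)
    (h : ι → Y → K) (H : ι' → X → K)
    (h1 : ∀ j, (fun q => h j (u q).1) ∈ pairRing A H)
    (h2 : ∀ j, (fun q => h j (u q).2) ∈ pairRing A H)
    {g : Y × Y → K} (hg : g ∈ pairRing A h) : (fun q => g (u q)) ∈ pairRing A H := by
  refine comp_mem_of_closure u _ _ ?_ hg
  rintro g (⟨a, ha, rfl⟩ | ⟨j, rfl⟩ | ⟨j, rfl⟩)
  · exact Subring.subset_closure (Or.inl ⟨a, ha, rfl⟩)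
  · exact h1 j
  · exact h2 j

/-- A function on `M × M` which on every pair of classes is given by an element of `pairRing`
lies in `pairRing`, if the indicators of the classes are among the generators. -/
theorem mem_pairRing_of_classes {M C ι' : Type} [Fintype C] [DecidableEq C] (A : Subring Qbar)
    (H : ι' → M → Qbar) (cls : M → C)
    (hind : ∀ c : C, ∃ j, ∀ m, H j m = if cls m = c then 1 else 0)
    (F : M × M → Qbar) (Φ : C → C → M × M → Qbar) (hΦ : ∀ c c', Φ c c' ∈ pairRing A H)
    (hF : ∀ q, F q = Φ (cls q.1) (cls q.2) q) : F ∈ pairRing A H := by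
  have e : F = ∑ c, ∑ c', (fun q : M × M => if cls q.1 = c then (1 : Qbar) else 0) *
      ((fun q : M × M => if cls q.2 = c' then (1 : Qbar) else 0) * Φ c c') := by
    funext q
    rw [Finset.sum_apply, Finset.sum_eq_single (cls q.1), Finset.sum_apply,
      Finset.sum_eq_single (cls q.2)]
    · show F q = (if cls q.1 = cls q.1 then (1 : Qbar) else 0) *
        ((if cls q.2 = cls q.2 then (1 : Qbar) else 0) * Φ _ _ q)
      rw [if_pos rfl, if_pos rfl, one_mul, one_mul]
      exact hF q
    · intro c' _ hc'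
      show (if cls q.1 = cls q.1 then (1 : Qbar) else 0) *
        ((if cls q.2 = c' then (1 : Qbar) else 0) * Φ _ _ q) = 0
      rw [if_neg (Ne.symm hc'), zero_mul, mul_zero]
    · intro hc
      exact absurd (Finset.mem_univ _) hc
    · intro c _ hc
      rw [Finset.sum_apply]
      refine Finset.sum_eq_zero fun c' _ => ?_
      show (if cls q.1 = c then (1 : Qbar) else 0) * _ = 0
      rw [if_neg (Ne.symm hc), zero_mul]
    · intro hc
      exact absurd (Finset.mem_univ _) hc
  rw [e]
  refine Subring.sum_mem _ fun c _ => Subring.sum_mem _ fun c' _ => ?_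
  refine Subring.mul_mem _ ?_ (Subring.mul_mem _ ?_ (hΦ c c'))
  · obtain ⟨j, hj⟩ := hind c
    have h1 : (fun p : M × M => H j p.1) ∈ pairRing A H :=
      Subring.subset_closure (Or.inr (Or.inl ⟨j, rfl⟩))
    have h2 : (fun p : M × M => H j p.1) = fun q : M × M => if cls q.1 = c then (1 : Qbar) else 0 :=
      funext fun q => hj q.1
    rwa [h2] at h1
  · obtain ⟨j, hj⟩ := hind c'
    have h1 : (fun p : M × M => H j p.2) ∈ pairRing A H :=
      Subring.subset_closure (Or.inr (Or.inr ⟨j, rfl⟩))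
    have h2 : (fun p : M × M => H j p.2) = fun q : M × M => if cls q.2 = c' then (1 : Qbar) else 0 :=
      funext fun q => hj q.2
    rwa [h2] at h1

/-! ## The Kummer extension as a set of points -/

section Model

variable {J : Type} [AddCommGroup J] [DistribMulAction GalQ J]

/-- The embedding `(v, k) ↦ v + k y` of the Kummer extension in `J`. -/
def kumEmb (r : ℕ) (y : J) (m : TorsR J r × ZMod r) : J := (m.1 : J) + m.2.val • y

/-- The points `v + k y - c (r y)`. -/
def kumPt (r : ℕ) (y : J) (q : TorsR J r × Fin (2 * r + 1) × Fin 2) : J :=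
  (q.1 : J) + q.2.1.val • y - q.2.2.val • (r • y)

/-- The set `{v + k y - c (r y) : v ∈ J[r], k ≤ 2 r, c ≤ 1}`. -/
def kumSet (r : ℕ) (y : J) : Set J := Set.range (kumPt r y)

theorem finite_kumSet (r : ℕ) (y : J) [Finite (TorsR J r)] : (kumSet r y).Finite :=
  Set.finite_range _

theorem mem_kumSet_of {r : ℕ} (y : J) {v : J} (hv : r • v = 0) {k c : ℕ} (hk : k ≤ 2 * r)
    (hc : c ≤ 1) : v + k • y - c • (r • y) ∈ kumSet r y :=
  ⟨(⟨v, hv⟩, ⟨k, by omega⟩, ⟨c, by omega⟩), rfl⟩

theorem mem_kumSet_iff {r : ℕ} {y z : J} :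
    z ∈ kumSet r y ↔ ∃ v : J, r • v = 0 ∧ ∃ k c : ℕ, k ≤ 2 * r ∧ c ≤ 1 ∧
      z = v + k • y - c • (r • y) := by
  constructor
  · rintro ⟨⟨v, k, c⟩, rfl⟩
    exact ⟨v, mem_torsR.mp v.2, k.val, c.val, by omega, by omega, rfl⟩
  · rintro ⟨v, hv, k, c, hk, hc, rfl⟩
    exact mem_kumSet_of y hv hk hc

theorem nsmul_gal_sub {r : ℕ} {y : J} (hy : ∀ σ : GalQ, σ • (r • y) = r • y) (σ : GalQ) :
    r • (σ • y - y) = 0 := by
  rw [nsmul_sub, smul_comm r σ y, hy σ, sub_self]

/-- `kumSet` is stable under the Galois group. -/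
theorem gal_smul_mem_kumSet {r : ℕ} {y : J} (hy : ∀ σ : GalQ, σ • (r • y) = r • y) (σ : GalQ)
    {z : J} (hz : z ∈ kumSet r y) : σ • z ∈ kumSet r y := by
  obtain ⟨v, hv, k, c, hk, hc, rfl⟩ := mem_kumSet_iff.mp hz
  have h1 : σ • (v + k • y - c • (r • y)) = (σ • v + k • (σ • y - y)) + k • y - c • (r • y) := by
    rw [smul_sub, smul_add, smul_comm σ k y, smul_comm σ c (r • y), hy σ, nsmul_sub]
    abel
  rw [h1]
  refine mem_kumSet_of y ?_ hk hc
  rw [smul_add, smul_comm r σ v, hv, smul_zero, zero_add, smul_comm r k, nsmul_gal_sub hy σ,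
    smul_zero]

theorem kumEmb_mem (r : ℕ) (y : J) (m : TorsR J r × ZMod r) [NeZero r] :
    kumEmb r y m ∈ kumSet r y := by
  have h := mem_kumSet_of y (mem_torsR.mp m.1.2) (k := m.2.val) (c := 0)
    (by have := ZMod.val_lt m.2; omega) (by omega)
  simpa [kumEmb] using h

theorem kumEmb_add_mem (r : ℕ) (y : J) (m m' : TorsR J r × ZMod r) [NeZero r] :
    kumEmb r y m + kumEmb r y m' ∈ kumSet r y := by
  have h := mem_kumSet_of y (v := (m.1 : J) + (m'.1 : J))
    (by rw [smul_add, mem_torsR.mp m.1.2, mem_torsR.mp m'.1.2, add_zero])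
    (k := m.2.val + m'.2.val) (c := 0)
    (by have := ZMod.val_lt m.2; have := ZMod.val_lt m'.2; omega) (by omega)
  have e : kumEmb r y m + kumEmb r y m'
      = (m.1 : J) + (m'.1 : J) + (m.2.val + m'.2.val) • y - 0 • (r • y) := by
    rw [kumEmb, kumEmb, add_smul, zero_smul, sub_zero]
    abel
  rw [e]
  exact h

theorem neg_mem_kumSet (r : ℕ) (y : J) : -(r • y) ∈ kumSet r y := by
  have h := mem_kumSet_of y (v := (0 : J)) (smul_zero r) (k := 0) (c := 1) (by omega) le_rfl
  simpa using h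

theorem kumEmb_add_neg_mem (r : ℕ) (y : J) (m m' : TorsR J r × ZMod r) [NeZero r] :
    kumEmb r y m + kumEmb r y m' + -(r • y) ∈ kumSet r y := by
  have h := mem_kumSet_of y (v := (m.1 : J) + (m'.1 : J))
    (by rw [smul_add, mem_torsR.mp m.1.2, mem_torsR.mp m'.1.2, add_zero])
    (k := m.2.val + m'.2.val) (c := 1)
    (by have := ZMod.val_lt m.2; have := ZMod.val_lt m'.2; omega) le_rfl
  have e : kumEmb r y m + kumEmb r y m' + -(r • y)
      = (m.1 : J) + (m'.1 : J) + (m.2.val + m'.2.val) • y - 1 • (r • y) := by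
    rw [kumEmb, kumEmb, add_smul, one_smul]
    abel
  rw [e]
  exact h

/-- The embedding is equivariant. -/
theorem kumEmb_kumAct {r : ℕ} {y : J} (hy : ∀ σ : GalQ, σ • (r • y) = r • y) (σ : GalQ)
    (m : TorsR J r × ZMod r) : kumEmb r y (H40.kumAct r y σ m) = σ • kumEmb r y m := by
  rw [kumEmb, kumEmb, H40.kumAct_fst, H40.kumAct_snd, AddSubgroup.coe_add, coe_gal_smul,
    AddSubgroup.coe_nsmul, coe_toTors (nsmul_gal_sub hy σ), smul_add, smul_comm σ m.2.val y,
    nsmul_sub]
  abel

/-- A point of the Kummer extension is determined by its class and its image. -/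
theorem kum_ext {r : ℕ} {y : J} {m m' : TorsR J r × ZMod r} (h2 : m.2 = m'.2)
    (h : kumEmb r y m = kumEmb r y m') : m = m' := by
  refine Prod.ext (Subtype.ext ?_) h2
  rw [kumEmb, kumEmb, h2] at h
  exact add_right_cancel h

theorem kumAct_one {r : ℕ} {y : J} (hy : ∀ σ : GalQ, σ • (r • y) = r • y)
    (m : TorsR J r × ZMod r) : H40.kumAct r y (1 : GalQ) m = m :=
  kum_ext (H40.kumAct_snd r y 1 m) (by rw [kumEmb_kumAct hy, one_smul])

theorem kumAct_mul {r : ℕ} {y : J} (hy : ∀ σ : GalQ, σ • (r • y) = r • y) (σ τ : GalQ)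
    (m : TorsR J r × ZMod r) :
    H40.kumAct r y (σ * τ) m = H40.kumAct r y σ (H40.kumAct r y τ m) :=
  kum_ext rfl (by rw [kumEmb_kumAct hy, kumEmb_kumAct hy, kumEmb_kumAct hy, mul_smul])

theorem kumAct_add {r : ℕ} [NeZero r] {y : J} (σ : GalQ) (m m' : TorsR J r × ZMod r) :
    H40.kumAct r y σ (m + m') = H40.kumAct r y σ m + H40.kumAct r y σ m' := by
  refine Prod.ext ?_ rfl
  show σ • (m.1 + m'.1) + (m.2 + m'.2).val • toTors r (σ • y - y)
    = (σ • m.1 + m.2.val • toTors r (σ • y - y)) + (σ • m'.1 + m'.2.val • toTors r (σ • y - y))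
  rw [← zmod_smul_eq_nsmul, ← zmod_smul_eq_nsmul, ← zmod_smul_eq_nsmul, add_smul, smul_add]
  abel

/-- The addition of the Kummer extension, without carry. -/
theorem kumEmb_add_of_lt {r : ℕ} [NeZero r] {y : J} (m m' : TorsR J r × ZMod r)
    (h : m.2.val + m'.2.val < r) : kumEmb r y (m + m') = kumEmb r y m + kumEmb r y m' := by
  have hv : (m + m').2.val = m.2.val + m'.2.val := by
    show (m.2 + m'.2).val = _
    rw [ZMod.val_add, Nat.mod_eq_of_lt h]
  rw [kumEmb, kumEmb, kumEmb, hv, add_smul]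
  show ((m.1 + m'.1 : TorsR J r) : J) + _ = _
  rw [AddSubgroup.coe_add]
  abel

/-- The addition of the Kummer extension, with carry. -/
theorem kumEmb_add_of_le {r : ℕ} [NeZero r] {y : J} (m m' : TorsR J r × ZMod r)
    (h : r ≤ m.2.val + m'.2.val) :
    kumEmb r y (m + m') = kumEmb r y m + kumEmb r y m' + -(r • y) := by
  have hv : (m + m').2.val + r = m.2.val + m'.2.val := by
    show (m.2 + m'.2).val + r = _
    have h1 := ZMod.val_lt m.2
    have h2 := ZMod.val_lt m'.2
    rw [ZMod.val_add, Nat.mod_eq_sub_mod h, Nat.mod_eq_of_lt (by omega)]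
    omega
  have e : kumEmb r y (m + m') + r • y = kumEmb r y m + kumEmb r y m' := by
    rw [kumEmb, kumEmb, kumEmb]
    show ((m.1 + m'.1 : TorsR J r) : J) + _ + _ = _
    rw [AddSubgroup.coe_add, add_assoc, ← add_smul, hv, add_smul]
    abel
  rw [← e]
  abel

/-! ## Integral coordinates on a set of points -/

/-- The set of points `𝒯 ⊆ J` has **integral coordinates** at the place `A`
(the conclusion of `FL.Stmt_FLTameC`, with separation required only for points with torsion
difference). -/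
def HasPtCoords (A : ValuationSubring Qbar) (𝒯 : Set J) : Prop :=
  ∃ (ι : Type) (_ : Finite ι) (h : ι → 𝒯 → Qbar),
    (∀ j x, h j x ∈ A) ∧
    (∀ j, ∀ σ ∈ A.inertiaSubgroupIn ℚ, ∀ (x : 𝒯) (hx : σ • (x : J) ∈ 𝒯),
      h j ⟨_, hx⟩ = σ (h j x)) ∧
    (∀ j, ∀ σ ∈ A.decompositionSubgroup ℚ, ∃ φ ∈ genRing A.toSubring h,
      ∀ (x : 𝒯) (hx : σ • (x : J) ∈ 𝒯), φ ⟨_, hx⟩ = σ (h j x)) ∧
    (∀ x y : 𝒯, (∃ n : ℕ, 0 < n ∧ n • ((x : J) - (y : J)) = 0) → x ≠ y →
      ∃ j, h j x ≠ h j y) ∧
    (∀ j, ∃ φ ∈ pairRing A.toSubring h,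
      ∀ (x y : 𝒯) (hxy : (x : J) + (y : J) ∈ 𝒯), φ (x, y) = h j ⟨_, hxy⟩)

/-- The generators of the Kummer extension: the coordinates of `emb m` and the indicators of
the classes. -/
def kumGen (r : ℕ) [NeZero r] (y : J) {ι : Type} (h : ι → kumSet r y → Qbar) :
    ι ⊕ ZMod r → TorsR J r × ZMod r → Qbar
  | Sum.inl j, m => h j ⟨kumEmb r y m, kumEmb_mem r y m⟩
  | Sum.inr k, m => if m.2 = k then 1 else 0

theorem kumGen_inl (r : ℕ) [NeZero r] (y : J) {ι : Type} (h : ι → kumSet r y → Qbar) (j : ι)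
    (m : TorsR J r × ZMod r) :
    kumGen r y h (Sum.inl j) m = h j ⟨kumEmb r y m, kumEmb_mem r y m⟩ := rfl

theorem kumGen_inr (r : ℕ) [NeZero r] (y : J) {ι : Type} (h : ι → kumSet r y → Qbar)
    (k : ZMod r) (m : TorsR J r × ZMod r) :
    kumGen r y h (Sum.inr k) m = if m.2 = k then 1 else 0 := rfl

/-- Transport of a value of `h j` along an equality of points. -/
theorem h_congr {𝒯 : Set J} {ι : Type} (h : ι → 𝒯 → Qbar) (j : ι) {a b : J} (ha : a ∈ 𝒯)
    (hb : b ∈ 𝒯) (hab : a = b) : h j ⟨a, ha⟩ = h j ⟨b, hb⟩ := by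
  subst hab
  rfl

/-- **FL-x, abstract form**: if the set of points `kumSet r y` has integral coordinates at a
place over `r`, the Kummer extension of `y` is flat at `r`. -/
theorem flat_kummer_abs (r : ℕ) [Fact r.Prime] [Finite (TorsR J r)] (y : J)
    (hy : ∀ σ : GalQ, σ • (r • y) = r • y)
    (hcont : ∃ L : IntermediateField ℚ Qbar, FiniteDimensional ℚ L ∧
      ∀ σ ∈ L.fixingSubgroup, (∀ v : J, r • v = 0 → σ • v = v) ∧ σ • y = y)
    (A : ValuationSubring Qbar) (hA : A.LiesOverPrime r)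
    (hC : HasPtCoords A (kumSet r y)) :
    Fermat.Agent.R.IsFlatGaloisModule r (TorsR J r × ZMod r) (H40.kumAct (G := GalQ) r y) := by
  have hr : r.Prime := Fact.out
  haveI : NeZero r := ⟨hr.ne_zero⟩
  obtain ⟨ι, hι, h, hint, heq, hst, hsep, hcom⟩ := hC
  haveI := hι
  -- the points
  let P1 : TorsR J r × ZMod r → kumSet r y := fun m => ⟨kumEmb r y m, kumEmb_mem r y m⟩
  let P2 : (TorsR J r × ZMod r) × (TorsR J r × ZMod r) → kumSet r y :=
    fun q => ⟨kumEmb r y q.1 + kumEmb r y q.2, kumEmb_add_mem r y q.1 q.2⟩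
  let Px : kumSet r y := ⟨-(r • y), neg_mem_kumSet r y⟩
  -- the addition without carry
  have hΦ0 : ∀ i, (fun q => h i (P2 q)) ∈ pairRing A.toSubring (kumGen r y h) := by
    intro i
    obtain ⟨φ, hφ, hφx⟩ := hcom i
    have e : (fun q => h i (P2 q)) = fun q => φ (P1 q.1, P1 q.2) := by
      funext q
      exact (hφx (P1 q.1) (P1 q.2) (kumEmb_add_mem r y q.1 q.2)).symm
    rw [e]
    exact comp_mem_pairRing A.toSubring (fun q => (P1 q.1, P1 q.2)) h (kumGen r y h)
      (fun j => Subring.subset_closure (Or.inr (Or.inl ⟨Sum.inl j, rfl⟩)))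
      (fun j => Subring.subset_closure (Or.inr (Or.inr ⟨Sum.inl j, rfl⟩))) hφ
  -- the addition with carry
  have hΦ1 : ∀ i, (fun q : (TorsR J r × ZMod r) × (TorsR J r × ZMod r) =>
      h i ⟨kumEmb r y q.1 + kumEmb r y q.2 + -(r • y), kumEmb_add_neg_mem r y q.1 q.2⟩)
        ∈ pairRing A.toSubring (kumGen r y h) := by
    intro i
    obtain ⟨φ, hφ, hφx⟩ := hcom i
    have e : (fun q : (TorsR J r × ZMod r) × (TorsR J r × ZMod r) =>
        h i ⟨kumEmb r y q.1 + kumEmb r y q.2 + -(r • y), kumEmb_add_neg_mem r y q.1 q.2⟩)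
          = fun q => φ (P2 q, Px) := by
      funext q
      exact (hφx (P2 q) Px (kumEmb_add_neg_mem r y q.1 q.2)).symm
    rw [e]
    exact comp_mem_pairRing A.toSubring (fun q => (P2 q, Px)) h (kumGen r y h)
      (fun j => hΦ0 j)
      (fun j => Subring.subset_closure (Or.inl ⟨h j Px, hint j Px, rfl⟩)) hφ
  refine flat_of_local_generators r hr A hA (H40.kumAct (G := GalQ) r y) (kumGen r y h)
    (kumAct_one hy) (kumAct_mul hy) (fun σ m m' => kumAct_add σ m m') ?_ ?_ ?_ ?_ ?_ ?_
  · -- continuity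
    obtain ⟨L, hL, hfix⟩ := hcont
    refine ⟨L, hL, fun σ hσ m => ?_⟩
    obtain ⟨h1, h2⟩ := hfix σ hσ
    refine kum_ext (y := y) rfl ?_
    rw [kumEmb_kumAct hy, kumEmb, smul_add, h1 _ (mem_torsR.mp m.1.2), smul_comm σ, h2]
  · -- integrality
    rintro (j | k) m
    · exact hint j _
    · rw [kumGen_inr]
      split_ifs
      · exact A.one_mem
      · exact A.zero_mem
  · -- equivariance for the inertia group
    rintro (j | k) σ hσ m
    · rw [kumGen_inl, kumGen_inl,
        ← heq j σ hσ (P1 m) (gal_smul_mem_kumSet hy σ (kumEmb_mem r y m))]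
      exact h_congr h j _ _ (kumEmb_kumAct hy σ m)
    · rw [kumGen_inr, kumGen_inr, H40.kumAct_snd]
      split_ifs
      · exact (map_one σ).symm
      · exact (map_zero σ).symm
  · -- stability under the decomposition group
    rintro (j | k) σ hσ
    · obtain ⟨φ, hφ, hφx⟩ := hst j σ hσ
      have e : twist (H40.kumAct (G := GalQ) r y) σ (kumGen r y h (Sum.inl j))
          = fun m => φ (P1 m) := by
        funext m
        show σ (h j (P1 (H40.kumAct (G := GalQ) r y σ⁻¹ m))) = _
        have hx : σ • kumEmb r y (H40.kumAct (G := GalQ) r y σ⁻¹ m) ∈ kumSet r y :=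
          gal_smul_mem_kumSet hy σ (kumEmb_mem r y _)
        rw [← hφx (P1 (H40.kumAct (G := GalQ) r y σ⁻¹ m)) hx]
        refine congrArg φ (Subtype.ext ?_)
        show σ • kumEmb r y (H40.kumAct (G := GalQ) r y σ⁻¹ m) = kumEmb r y m
        rw [← kumEmb_kumAct hy, ← kumAct_mul hy, mul_inv_cancel, kumAct_one hy]
      rw [e]
      exact comp_mem_genRing A.toSubring P1 h (kumGen r y h)
        (fun i => Subring.subset_closure (Or.inr ⟨Sum.inl i, rfl⟩)) hφ
    · have e : twist (H40.kumAct (G := GalQ) r y) σ (kumGen r y h (Sum.inr k))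
          = kumGen r y h (Sum.inr k) := by
        funext m
        show σ (if (H40.kumAct (G := GalQ) r y σ⁻¹ m).2 = k then 1 else 0)
          = if m.2 = k then 1 else 0
        rw [H40.kumAct_snd]
        split_ifs
        · exact map_one σ
        · exact map_zero σ
      rw [e]
      exact Subring.subset_closure (Or.inr ⟨Sum.inr k, rfl⟩)
  · -- separation
    intro m m' hmm
    by_cases h2 : m.2 = m'.2
    · have hne : P1 m ≠ P1 m' := fun he => hmm (kum_ext h2 (congrArg Subtype.val he))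
      have htors : r • (kumEmb r y m - kumEmb r y m') = 0 := by
        rw [kumEmb, kumEmb, h2, add_sub_add_right_eq_sub, nsmul_sub, mem_torsR.mp m.1.2,
          mem_torsR.mp m'.1.2, sub_zero]
      obtain ⟨j, hj⟩ := hsep (P1 m) (P1 m') ⟨r, hr.pos, htors⟩ hne
      exact ⟨Sum.inl j, hj⟩
    · refine ⟨Sum.inr m.2, ?_⟩
      rw [kumGen_inr, kumGen_inr, if_pos rfl, if_neg (fun h => h2 h.symm)]
      exact one_ne_zero
  · -- the addition
    rintro (j | k)
    · refine mem_pairRing_of_classes A.toSubring (kumGen r y h) (fun m => m.2)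
        (fun c => ⟨Sum.inr c, fun m => rfl⟩) _
        (fun c c' => if c.val + c'.val < r then (fun q => h j (P2 q)) else
          (fun q => h j ⟨kumEmb r y q.1 + kumEmb r y q.2 + -(r • y),
            kumEmb_add_neg_mem r y q.1 q.2⟩)) ?_ ?_
      · intro c c'
        split_ifs
        · exact hΦ0 j
        · exact hΦ1 j
      · intro q
        show h j ⟨kumEmb r y (q.1 + q.2), _⟩ = _
        by_cases hlt : q.1.2.val + q.2.2.val < r
        · rw [if_pos hlt]
          exact h_congr h j _ _ (kumEmb_add_of_lt q.1 q.2 hlt)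
        · rw [if_neg hlt]
          exact h_congr h j _ _ (kumEmb_add_of_le q.1 q.2 (not_lt.mp hlt))
    · refine mem_pairRing_of_classes A.toSubring (kumGen r y h) (fun m => m.2)
        (fun c => ⟨Sum.inr c, fun m => rfl⟩) _
        (fun c c' => if c + c' = k then 1 else 0) ?_ ?_
      · intro c c'
        split_ifs
        · exact Subring.one_mem _
        · exact Subring.zero_mem _
      · intro q
        show (if (q.1 + q.2).2 = k then (1 : Qbar) else 0) = _
        by_cases hk : q.1.2 + q.2.2 = k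
        · rw [if_pos hk, if_pos (show (q.1 + q.2).2 = k from hk)]
          rfl
        · rw [if_neg hk, if_neg (show ¬ (q.1 + q.2).2 = k from hk)]
          rfl

end Model

/-! ## Pull-back of integral coordinates -/

section Comap

variable {J J' : Type} [AddCommGroup J] [DistribMulAction GalQ J] [AddCommGroup J']
  [DistribMulAction GalQ J']

/-- Integral coordinates can be pulled back along an equivariant homomorphism which is injective
on torsion. -/
theorem HasPtCoords.comap (A : ValuationSubring Qbar) (π : J →+ J')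
    (hπ : ∀ (σ : GalQ) (x : J), π (σ • x) = σ • π x)
    (hinj : ∀ n : ℕ, 0 < n → ∀ x : J, n • x = 0 → π x = 0 → x = 0)
    (𝒯 : Set J) (hC : HasPtCoords A (π '' 𝒯)) : HasPtCoords A 𝒯 := by
  obtain ⟨ι, hι, h, hint, heq, hst, hsep, hcom⟩ := hC
  let P : 𝒯 → (π '' 𝒯 : Set J') := fun x => ⟨π x, Set.mem_image_of_mem π x.2⟩
  refine ⟨ι, hι, fun j x => h j (P x), fun j x => hint j _, ?_, ?_, ?_, ?_⟩
  · intro j σ hσ x hx
    have hx' : σ • ((P x : (π '' 𝒯 : Set J')) : J') ∈ π '' 𝒯 := by
      show σ • π x ∈ π '' 𝒯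
      rw [← hπ]
      exact Set.mem_image_of_mem π hx
    rw [← heq j σ hσ (P x) hx']
    exact h_congr h j _ _ (hπ σ x)
  · intro j σ hσ
    obtain ⟨φ, hφ, hφx⟩ := hst j σ hσ
    refine ⟨fun x => φ (P x), ?_, ?_⟩
    · exact comp_mem_genRing A.toSubring P h (fun j x => h j (P x))
        (fun i => Subring.subset_closure (Or.inr ⟨i, rfl⟩)) hφ
    · intro x hx
      have hx' : σ • ((P x : (π '' 𝒯 : Set J')) : J') ∈ π '' 𝒯 := by
        show σ • π x ∈ π '' 𝒯
        rw [← hπ]
        exact Set.mem_image_of_mem π hx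
      rw [← hφx (P x) hx']
      exact congrArg φ (Subtype.ext (hπ σ x))
  · rintro x y ⟨n, hn, hxy⟩ hne
    have hP : P x ≠ P y := by
      intro he
      have h1 : π ((x : J) - (y : J)) = 0 := by
        rw [map_sub, sub_eq_zero]
        exact congrArg Subtype.val he
      exact hne (Subtype.ext (sub_eq_zero.mp (hinj n hn _ hxy h1)))
    refine hsep (P x) (P y) ⟨n, hn, ?_⟩ hP
    show n • (π x - π y) = 0
    rw [← map_sub, ← map_nsmul, hxy, map_zero]
  · intro j
    obtain ⟨φ, hφ, hφx⟩ := hcom j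
    refine ⟨fun q => φ (P q.1, P q.2), ?_, ?_⟩
    · exact comp_mem_pairRing A.toSubring (fun q : 𝒯 × 𝒯 => (P q.1, P q.2)) h
        (fun j x => h j (P x))
        (fun i => Subring.subset_closure (Or.inr (Or.inl ⟨i, rfl⟩)))
        (fun i => Subring.subset_closure (Or.inr (Or.inr ⟨i, rfl⟩))) hφ
    · intro x y hxy
      have hxy' : ((P x : (π '' 𝒯 : Set J')) : J') + ((P y : (π '' 𝒯 : Set J')) : J')
          ∈ π '' 𝒯 := by
        show π x + π y ∈ π '' 𝒯
        rw [← map_add]
        exact Set.mem_image_of_mem π hxy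
      show φ (P x, P y) = _
      rw [hφx (P x) (P y) hxy']
      exact h_congr h j _ _ (map_add π _ _).symm

end Comap

end Fermat.Agent.S15.Desc.H66

end
end
-- ==== END Fermat.Agent.S15.Desc.H66_FlatKummer
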