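-- GENERATED (merged mirror, NOTES/tools/trim/merge3_helper67.py): 1 modules of the originals, bodies verbatim.
import Fermat.Agent.Zm.S15_L03_000
import Fermat.Agent.Zm.S15_L04_004
import Fermat.Agent.Zm.S15_L04_001

-- ==== BEGIN Fermat.Agent.S15.Desc.H69_WireTwo
section

/-!
# S15 / DESC: the assembly for `r = 2` (helper69)

`selBAt_of_leaves_two` : the leaves imply `SelBAt p 2` (design C of helper63's `sel_bound_two`:
the second local condition is at the infinite place).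
-/

set_option autoImplicit false
set_option maxHeartbeats 1600000
set_option synthInstance.maxHeartbeats 400000

noncomputable section

open ModularCurve Module

namespace Fermat.Agent.S15.Desc

open Fermat.Agent.S15

local notation "Qbar" => AlgebraicClosure ℚ

attribute [local instance] heckeInst

section WireTwo

variable {p : ℕ} [NeZero p]

/-- **The assembly for `r = 2`**: the leaves imply (SELB) at `2`. -/
theorem selBAt_of_leaves_two (hp : p.Prime) (hp2 : p ≠ 2)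
    (hFIN : Stmt_FIN p) (hDIV : Stmt_DIV p 2) (hGAL : Stmt_GALfin p) (hGH : Stmt_GH p)
    (hPROJ : Stmt_PROJ p 2) (hES : Stmt_ESr p 2) (hLOCl : Stmt_LOCl p 2) (hEXP : Stmt_EXP p 2)
    (hLOCU : Stmt_LOCUTwo p) (hVT : Stmt_VT p 2) (hNUM : Stmt_NUMinfTwo p) : SelBAt p 2 := by
  classical
  have hr : Nat.Prime 2 := Nat.prime_two
  haveI hrF : Fact (Nat.Prime 2) := ⟨hr⟩
  have hGH' : ∀ (σ : GalQ) (t : HeckeAlg) (z : JZero p), σ • (t • z) = t • (σ • z) :=
    fun σ t z => hGH σ (anemicSubst p t) z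
  obtain ⟨k₁, hk₁⟩ := hEXP
  obtain ⟨c, i₀, hi₀, hci, hcc, k₀, hnum⟩ := hNUM
  obtain ⟨k, hk⟩ : ∃ k : ℕ, k = max k₁ k₀ := ⟨_, rfl⟩
  have hkk₁ : k₁ ≤ k := hk ▸ le_max_left _ _
  have hkk₀ : k₀ ≤ k := hk ▸ le_max_right _ _
  obtain ⟨e, hproj⟩ := hPROJ k
  have he1 := hproj.1
  have he2 := hproj.2.1
  obtain ⟨𝔅, h𝔅, hlocU⟩ := hLOCU
  obtain ⟨Ap, hAp⟩ := Fermat.Agent.Lib.FrobExists.exists_liesOverPrime p hp
  -- a prime `q₀ ∉ {p, 2}` and the family of places
  obtain ⟨q₀, hq₀ge, hq₀⟩ := Nat.exists_infinite_primes (p + 2 + 1)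
  have hq₀p : q₀ ≠ p := by omega
  have hq₀r : q₀ ≠ 2 := by omega
  have hex : ∀ ℓ : ℕ, ∃ A : ValuationSubring Qbar, (ℓ = p → A = Ap) ∧
      (ℓ.Prime → A.LiesOverPrime ℓ) ∧
      (ℓ ≠ p → ℓ ≠ 2 → ∃ q : ℕ, q.Prime ∧ q ≠ p ∧ q ≠ 2 ∧ A.LiesOverPrime q) := by
    intro ℓ
    by_cases h1 : ℓ = p
    · subst h1
      exact ⟨Ap, fun _ => rfl, fun _ => hAp, fun h => absurd rfl h⟩
    by_cases h3 : ℓ.Prime
    · obtain ⟨A, hA⟩ := Fermat.Agent.Lib.FrobExists.exists_liesOverPrime ℓ h3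
      exact ⟨A, fun h => absurd h h1, fun _ => hA, fun _ h2 => ⟨ℓ, h3, h1, h2, hA⟩⟩
    · obtain ⟨A, hA⟩ := Fermat.Agent.Lib.FrobExists.exists_liesOverPrime q₀ hq₀
      exact ⟨A, fun h => absurd h h1, fun h => absurd h h3,
        fun _ _ => ⟨q₀, hq₀, hq₀p, hq₀r, hA⟩⟩
  choose A hAp' hA hAq using hex
  have hApe : A p = Ap := hAp' p rfl
  -- finiteness
  haveI hfinV : Finite (TorsR (JZero p) 2) := hFIN 2 hr.pos
  have hidem1 : ∀ v : JZero p, 2 • v = 0 → e • (e • v) = e • v := by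
    intro v hv
    refine he2 v ?_
    rw [pow_succ, mul_smul, hv, smul_zero]
  -- the local conditions at `p` and at the infinite place
  obtain ⟨Vt, hVt1, hVt2⟩ := hVT Ap hAp k e hproj
  obtain ⟨Vinf, hVinf1, hVinf2⟩ := hnum k e hkk₀ hproj
  -- the (trivial) cyclotomic character
  have hζ : IsPrimitiveRoot (-1 : Qbar) 2 := IsPrimitiveRoot.neg_one 0 (by decide)
  set χ : GalQ →* (ZMod 2)ˣ := hζ.autToPow ℚ with hχdef
  have hχ : ∀ σ : GalQ, σ (-1 : Qbar) = (-1 : Qbar) ^ ((χ σ : (ZMod 2)ˣ) : ZMod 2).val :=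
    fun σ => (hζ.autToPow_spec ℚ σ).symm
  set W : Submodule (ZMod 2) (TorsR (JZero p) 2) := eisW 2 e with hW
  have hstab : ∀ σ : GalQ, ∀ w ∈ W, σ • w ∈ W := by
    intro σ w hw
    show e • (σ • (w : JZero p)) = σ • (w : JZero p)
    have hw' : e • (w : JZero p) = w := hw
    rw [← hGH', hw']
  have hESnil := hES_of_leaves hp hp2 hfinV hGAL hGH hES hproj hζ χ hχ
  have hnum' : finrank (ZMod 2) ↥(W ⊓ Vt) + finrank (ZMod 2) ↥(W ⊓ Vinf) ≤
      finrank (ZMod 2) ↥W := by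
    omega
  have hsel := H63.sel_bound_two (V := TorsR (JZero p) 2) hp hA h𝔅 hi₀ (Subgroup.zpowers c) c
    (Subgroup.mem_zpowers c) hci χ Vt Vinf W hstab hESnil hnum'
  -- the Kummer cocycles are good
  have hloc : ∀ y ∈ kumDom GalQ (JZero p) 2,
      kumCoc 2 e y ∈ Zgood (H63.iC A (Subgroup.zpowers c)) 𝔅 (H63.vlocC p Vt Vinf) W := by
    intro y hy
    have hyrat : 2 • y ∈ ratPts p := hy
    have hcoc := fun σ τ => kumCoc_cocycle hGH' e hy σ τ
    have hz1 : kumCoc 2 e y (1 : GalQ) = 0 := by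
      have h := hcoc 1 1
      rw [mul_one, one_smul] at h
      have h2 : kumCoc 2 e y (1 : GalQ) + kumCoc 2 e y (1 : GalQ) = kumCoc 2 e y (1 : GalQ) + 0 := by
        rw [add_zero]; exact h.symm
      exact add_left_cancel h2
    refine ⟨hcoc, fun σ => ?_, fun v σ hσ => ?_, ?_⟩
    · show e • ((kumCoc 2 e y σ : TorsR (JZero p) 2) : JZero p) = kumCoc 2 e y σ
      rw [coe_kumCoc e hy σ]
      refine hidem1 _ ?_
      have h1 : σ • (2 • y) = 2 • (σ • y) := map_nsmul (DistribSMul.toAddMonoidHom (JZero p) σ) 2 y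
      rw [nsmul_sub, ← h1, hy σ, sub_self]
    · cases v with
      | none =>
        -- the infinite place
        have hσ' : σ ∈ Subgroup.zpowers c := hσ
        show kumCoc 2 e y σ ∈ Vinf
        obtain ⟨n, rfl⟩ := Subgroup.mem_zpowers_iff.mp hσ'
        have hc2 : c ^ (2 : ℤ) = 1 := by
          rw [zpow_ofNat, pow_two]; exact hcc
        rcases Int.emod_two_eq_zero_or_one n with h0 | h1
        · have hn : c ^ n = 1 := by
            obtain ⟨m, hm⟩ := Int.dvd_of_emod_eq_zero h0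
            rw [hm, zpow_mul, hc2, one_zpow]
          rw [hn, hz1]
          exact Vinf.zero_mem
        · have hn : c ^ n = c := by
            have hm : n = 2 * (n / 2) + 1 := by
              have := Int.mul_ediv_add_emod n 2
              omega
            rw [hm, zpow_add, zpow_mul, hc2, one_zpow, one_mul, zpow_one]
          rw [hn]
          exact hVinf1 y hy
      | some ℓ =>
        have hσ' : σ ∈ (A ℓ).inertiaSubgroupIn ℚ := hσ
        show kumCoc 2 e y σ ∈ (if ℓ = p then Vt else if ℓ = 2 then ⊤ else ⊥ :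
          Submodule (ZMod 2) (TorsR (JZero p) 2))
        by_cases h1 : ℓ = p
        · rw [if_pos h1]
          rw [h1, hApe] at hσ'
          exact hVt1 σ hσ' y hy
        rw [if_neg h1]
        by_cases h2 : ℓ = 2
        · rw [if_pos h2]
          exact Submodule.mem_top
        rw [if_neg h2, Submodule.mem_bot]
        obtain ⟨q, hq, hqp, hqr, hAq'⟩ := hAq ℓ h1 h2
        have hfix := hLOCl q hq hqp hqr (A ℓ) hAq' σ hσ' y hyrat
        apply Subtype.ext
        rw [coe_kumCoc e hy σ, hfix, sub_self, smul_zero]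
        rfl
    · obtain ⟨H, hH, hvan⟩ := hlocU k e hproj y hyrat
      refine ⟨H, hH, fun σ hσ => ?_⟩
      apply Subtype.ext
      rw [coe_kumCoc e hy σ, hvan σ hσ]
      rfl
  -- the exponent
  have hexp : ∀ h : JZero p, (∀ σ : GalQ, σ • h = h) → (∃ j : ℕ, 2 ^ j • h = 0) →
      2 ^ k • h = 0 := by
    intro h hh hj
    have h1 := hk₁ h hh hj
    obtain ⟨d, hd⟩ := Nat.exists_eq_add_of_le hkk₁
    rw [hd, pow_add, mul_comm, mul_smul, h1, smul_zero]
  have hfinH := finite_torsH hr hFIN e k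
  have hmain := selB_abstract (G := GalQ) (J := JZero p) 2 e k hGH' hDIV hfinV hfinH hexp he2
    (H63.iC A (Subgroup.zpowers c)) 𝔅 (H63.vlocC p Vt Vinf) hsel hloc
  -- conclusion
  intro z hz
  obtain ⟨h, hh, hhk, w, hw, hzw⟩ := hmain z hz
  refine ⟨anemicSubst p e, ?_, h, hh, ⟨k, hhk⟩, w, hw, hzw⟩
  rw [eisEval_anemicSubst]
  intro hdvd
  have h1 : ((2 : ℕ) : ℤ) ∣ 1 := by
    have := dvd_sub hdvd he1
    rwa [sub_sub_cancel] at this
  have h2 := Int.natAbs_dvd_natAbs.mpr h1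
  rw [Int.natAbs_natCast, Int.natAbs_one, Nat.dvd_one] at h2
  omega

end WireTwo

end Fermat.Agent.S15.Desc

end
end
-- ==== END Fermat.Agent.S15.Desc.H69_WireTwo
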