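-- GENERATED (merged mirror, NOTES/tools/trim/merge3_helper67.py): 1 modules of the originals, bodies verbatim.
import Fermat.Agent.Zm.S15_L04_006
import Fermat.Agent.Zm.S15_L04_000
import Fermat.Agent.Zm.S35_L04_000
import Fermat.Agent.Zm.S35_L08_001
import Fermat.Agent.Zm.S35_L20_000

-- ==== BEGIN Fermat.Agent.S15.Desc.H99_NumTwoFinal
section

/-!
# S15 / DESC / NUM-∞ at `r = 2`: the leaf `Stmt_NUMinfTwo p` (helper99)

`stmt_NUMinfTwo p : Stmt_NUMinfTwo p` for `p` prime, unconditional: the interface `BettiCoord`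
of `H99_NumTwoWire.lean` is filled with helper26's dictionary (`H26.mat`, `H26.matI`,
`H26.theta_smul`, `H26.theta_conj`, `H26.trace_mat_mul_matI`), the coordinates of G-TOR
(`GTor.H81.theta`, `theta_mulTor`) and helper97's complex conjugation (`H97.exists_conj`).
-/

set_option autoImplicit false
set_option synthInstance.maxHeartbeats 400000
set_option linter.unusedSectionVars false
set_option linter.style.haveILetI false

open CongruenceSubgroup ModularCurve ModularCurve.Period AlgebraicCurve Module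
open scoped MatrixGroups ComplexConjugate

noncomputable section

namespace Fermat.Agent.S15.Desc.H99

open Fermat.Agent.Betti Fermat.Agent.Betti.H76 Fermat.Agent.GTor Fermat.Agent.GTor.H81
open Fermat.Agent.S15 Fermat.Agent.S15.Desc

local notation "Qbar" => AlgebraicClosure ℚ

attribute [local instance] heckeInst

section Tors

variable {p : ℕ} [NeZero p] (m : ℕ)

theorem mem_Jtor_iff' (x : JZero p) : x ∈ Jtor p m ↔ m • x = 0 := by
  rw [Pic0.mem_torsion, natCast_zsmul]

/-- `TorsR (JZero p) m` and `Jtor p m` are the same subgroup. -/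
def torsEquiv' : TorsR (JZero p) m ≃+ Jtor p m where
  toFun v := ⟨(v : JZero p), (mem_Jtor_iff' m _).2 (mem_torsR.1 v.2)⟩
  invFun x := ⟨(x : JZero p), mem_torsR.2 ((mem_Jtor_iff' m _).1 x.2)⟩
  left_inv _ := rfl
  right_inv _ := rfl
  map_add' _ _ := rfl

@[simp] theorem coe_torsEquiv' (v : TorsR (JZero p) m) :
    ((torsEquiv' m v : Jtor p m) : JZero p) = (v : JZero p) := rfl

end Tors

/-- **The Betti coordinates** for a complex conjugation. -/
theorem bettiCoord (p : ℕ) [NeZero p] (hp : p.Prime) (ι : AlgebraicClosure ℚ →+* ℂ) (c : GalQ)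
    (hc : ∀ a : AlgebraicClosure ℚ, ι (c a) = conj (ι a)) : BettiCoord p c := by
  classical
  obtain ⟨d, b, hb⟩ := Betti.stmt_basis p
  have hL := H77.stmt_torsLift p
  have hE : ∀ m : ℕ, m ≠ 0 → Nonempty (TorIso p m ι) := fun m hm =>
    nonempty_torIso (stmt_TORc_uncond p m hm) ι
  choose E hE' using fun (m : ℕ) (hm : m ≠ 0) => (⟨(hE m hm).some, trivial⟩ :
    ∃ _ : TorIso p m ι, True)
  refine ⟨d, H26.matI hb, fun t => H26.mat hp hb t,
    fun m hm => (torsEquiv' m).trans (theta hb hL hm (E m hm)),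
    H26.matI_mul_matI hb, fun t => H26.mat_comm_matI hp hb t,
    fun t => H26.trace_mat_mul_matI hp hb t, ?_, ?_, ?_⟩
  · intro m hm t v w hvw
    exact H26.theta_smul hp hb hL hm (E m hm) t (torsEquiv' m v) (torsEquiv' m w) hvw
  · intro m hm v w hvw
    exact H26.theta_conj hb hL hm (E m hm) c hc (torsEquiv' m v) (torsEquiv' m w) hvw
  · intro a b' ha hb' hab u v huv i
    have h1 := theta_mulTor hb hL hb' ha hab (E b' hb') (E a ha) (torsEquiv' b' u)
    have h2 : torsEquiv' a v = mulTor hab (torsEquiv' b' u) := Subtype.ext huv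
    show theta hb hL ha (E a ha) (torsEquiv' a v) i = _
    rw [h2, h1]
    rfl

/-- **NUM-∞ at `2`**, unconditional. -/
theorem stmt_NUMinfTwo (p : ℕ) [NeZero p] (hp : p.Prime) : Stmt_NUMinfTwo p := by
  obtain ⟨ι, c, hc, hcc, -, hne⟩ := H97.exists_conj
  obtain ⟨ζ, hζ⟩ := H97.exists_primitiveRoot_Qbar 4 (by norm_num)
  have h2 : IsPrimitiveRoot (ζ ^ 2) 2 := hζ.pow (by norm_num) (by norm_num)
  have hi : ζ ^ 2 = -1 := h2.eq_neg_one_of_two_right
  exact stmt_NUMinfTwo_of_betti p
    ⟨c, ζ, hi, hne 4 ζ (by norm_num) hζ, hcc, bettiCoord p hp ι c hc⟩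

end Fermat.Agent.S15.Desc.H99

end
end
-- ==== END Fermat.Agent.S15.Desc.H99_NumTwoFinal
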