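-- GENERATED (merged mirror, NOTES/tools/trim/merge3_helper67.py): 15 modules of the originals, bodies verbatim.
import Fermat.Agent.Zm.S15_L05_000
import Fermat.Agent.Zm.S35_L05_000
import Fermat.Agent.Zm.S15_L04_004
import Fermat.Agent.Zm.S15_L05_002
import Fermat.Agent.Zm.S15_L04_002
import Fermat.Agent.Zm.S35_L21_000
import Fermat.Agent.Zm.S35_L05_004
import Fermat.Agent.Zm.S15_L03_000
import Fermat.Agent.Zm.S15_L02_003
import Fermat.Agent.Zm.S15_L04_005
import Fermat.Agent.Zm.S15_L04_000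
import Fermat.Agent.Zm.S15_L05_001
import Fermat.Agent.Zm.S15_L01_000
import Fermat.Agent.Zm.S15_L01_004
import Fermat.Agent.Zm.S35_L15_002
import Fermat.Agent.Zm.S15_L03_001
import Fermat.Agent.Zm.S35_L15_000
import Fermat.Agent.Zm.S35_L11_000
import Fermat.Agent.Zm.S15_L02_004
import Fermat.Agent.Zm.S44_L04_001
import Fermat.Agent.Zm.S15_L04_001
import Fermat.Agent.Zm.S44_L02_003
import Fermat.Agent.Zm.S15_L01_002
import Fermat.Agent.Zm.S15_L05_003
import Fermat.Agent.Zm.S35_L14_002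
import Fermat.Agent.Zm.S15_L02_000

-- ==== BEGIN Fermat.Agent.S15.Desc.H26_TorsRank
section

/-!
# S15 / DESC / VT: TORS-RANK (helper26, for helper83's GLUE-dim)

`finrank_torsR_ge` : `2 dim_ℂ S₂(Γ₀(N)) ≤ dim_{𝔽_r} J₀(N)[r]`.

`finrank_torsR_eq` : for a universal basis `b : Fin d → …`, `dim_{𝔽_r} J₀(N)[r] = d`.
-/

set_option autoImplicit false
set_option synthInstance.maxHeartbeats 400000

open CongruenceSubgroup ModularCurve Module

noncomputable section

namespace Fermat.Agent.S15.Desc.H26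

open Fermat.Agent.Betti Fermat.Agent.GTor Fermat.Agent.GTor.H81

/-- The rank of `J₀(N)[r]` is the rank of `Hom_par(Γ₀(N), ℤ)`. -/
theorem finrank_torsR_eq (N : ℕ) [NeZero N] (r : ℕ) [hrF : Fact r.Prime] {d : ℕ}
    {b : Fin d → (Additive (Gamma0 N) →+ ℤ)} (hb : IsParBasis N b) :
    Module.finrank (ZMod r) (TorsR (JZero N) r) = d := by
  obtain ⟨ι, -, -⟩ := H97.exists_conj
  obtain ⟨E⟩ := nonempty_torIso (stmt_TORc_uncond N r hrF.out.ne_zero) ι
  rw [(thetaR hb (H77.stmt_torsLift N) E).finrank_eq, Module.finrank_pi, Fintype.card_fin]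

/-- **TORS-RANK**: `2 dim S₂(Γ₀(N)) ≤ dim J₀(N)[r]`. -/
theorem finrank_torsR_ge (N : ℕ) [NeZero N] (r : ℕ) [Fact r.Prime] :
    2 * Module.finrank ℂ (CuspForm (CongruenceSubgroup.Gamma0 N) 2) ≤
      Module.finrank (ZMod r) (TorsR (ModularCurve.JZero N) r) := by
  obtain ⟨d, b, hb, hd⟩ := Fermat.Agent.Betti.H21.exists_basis_ge N
  rw [finrank_torsR_eq N r hb]
  exact hd

end Fermat.Agent.S15.Desc.H26

end
end
-- ==== END Fermat.Agent.S15.Desc.H26_TorsRank

-- ==== BEGIN Fermat.Agent.S15.Desc.H67_CoordModD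
section

/-!
# S15 DESC, leaf COORD (helper67): the modular verification at level `1 * p`, part D

`S = T.toSSD` the semistable Deuring datum of level `1 * p`; the hypotheses of
`exists_isAnnCoord_of_charts` at a node `s` of `S`.
-/

set_option autoImplicit false
set_option linter.unusedSectionVars false
set_option linter.style.haveILetI false
set_option synthInstance.maxHeartbeats 400000
set_option maxHeartbeats 400000

noncomputable section

open HahnSeries IntermediateField AlgebraicCurve ModularCurve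
open Fermat.Agent.S28.H73 Fermat.Agent.RED.H73 Fermat.Agent.RED Fermat.Agent.S24
open Fermat.Agent.BAD.H88

namespace Fermat.Agent.S15.Desc.H67

open Fermat.Agent.BAD Fermat.Agent.BAD.H91 Fermat.Agent.BAD.H21 Fermat.Agent.RED.H17

/-- Shortcut instance (the search for this instance is slow). -/
local instance algF1Shortcut (A : ValuationSubring Kbar) (p : ℕ) [NeZero (1 * p)] :
    Algebra (kV A) (F1 A p 1) := inferInstance

section Datum

variable {A : ValuationSubring Kbar} {p : ℕ} (a b : ℤ) (hab : a * p + b * (1 : ℕ) = 1)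
  (hp : p.Prime) [NeZero (1 * p)] [NeZero p] (hA : A.LiesOverPrime p) (hqM : ¬ p ∣ 1)
  (ht : TameAt 1 p) (hTot : Stmt_TotMod)
  (H : RED.H17.FFHyp Kbar (FN (1 * p))) (H₁ : RED.H17.FFHyp (kV A) (F1 A p 1))
  (hne : ∃ z, (modTp a b hab hp hA hqM ht hTot).IsNode z)

/-- The semistable Deuring datum of level `1 * p`. -/
def modSp : SSD Kbar (FN (1 * p)) (kV A) (F1 A p 1) (F1 A p 1) :=
  haveI : IsAlgClosed (kV A) := isAlgClosed_kV A
  (modTp a b hab hp hA hqM ht hTot).toSSD H.principal H.deg_one H₁.principal H₁.deg_one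
    H₁.deg_one hne

theorem modSp_V₁ : (modSp a b hab hp hA hqM ht hTot H H₁ hne).c₁.V = V1 A p 1 := rfl

theorem modSp_V₂ : (modSp a b hab hp hA hqM ht hTot H H₁ hne).c₂.V = V2 A p 1 a b hab hp := rfl

theorem modSp_rd₁ {f : FN (1 * p)} (h : f ∈ V1 A p 1) :
    (modSp a b hab hp hA hqM ht hTot H H₁ hne).c₁.rd f = red1 A p 1 ⟨f, h⟩ :=
  PRed.rd_of_mem _ h

theorem modSp_rd₂ {f : FN (1 * p)} (h : f ∈ V2 A p 1 a b hab hp) :
    (modSp a b hab hp hA hqM ht hTot H H₁ hne).c₂.rd f = red2 A p 1 a b hab hp ⟨f, h⟩ :=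
  PRed.rd_of_mem _ h

theorem modSp_mem_nodes {s : Place (kV A) (F1 A p 1) × Place (kV A) (F1 A p 1)}
    (hs : s ∈ (modSp a b hab hp hA hqM ht hTot H H₁ hne).nodes) :
    (modTp a b hab hp hA hqM ht hTot).IsNode s.1 := by
  haveI : IsAlgClosed (kV A) := isAlgClosed_kV A
  exact ((modTp a b hab hp hA hqM ht hTot).mem_nodes H.principal H₁.principal).mp hs |>.1

theorem modSp_fibre {s : Place (kV A) (F1 A p 1) × Place (kV A) (F1 A p 1)}
    {P : Place Kbar (FN (1 * p))}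
    (hP : (modSp a b hab hp hA hqM ht hTot H H₁ hne).c₁.r P = some s.1) :
    rhoF1 a b hab hp hA hqM ht P = s.1 :=
  ((modTp a b hab hp hA hqM ht hTot).r₁_eq_some_iff.mp hP).1

end Datum

section Node

variable {A : ValuationSubring Kbar} {p : ℕ} (a b : ℤ) (hab : a * p + b * (1 : ℕ) = 1)
  (hp : p.Prime) [NeZero (1 * p)] [NeZero p] (hA : A.LiesOverPrime p) (hqM : ¬ p ∣ 1)
  (ht : TameAt 1 p) (hTot : Stmt_TotMod) (hCusp : Stmt_CoordCusp p) (h5 : 5 ≤ p)
  (H : RED.H17.FFHyp Kbar (FN (1 * p))) (H₁ : RED.H17.FFHyp (kV A) (F1 A p 1))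
  (hne : ∃ z, (modTp a b hab hp hA hqM ht hTot).IsNode z)

include hCusp h5 in
/-- **The unit at a node**: `a = ord_{s.1} (red₁ U)` is the multiplicity of `j~(s.1)` as a root
of the supersingular polynomial, and it is positive. -/
theorem node_unit {s : Place (kV A) (F1 A p 1) × Place (kV A) (F1 A p 1)}
    (hs : s ∈ (modSp a b hab hp hA hqM ht hTot H H₁ hne).nodes) (hd : p ∣ 1 * p) :
    ∃ β₀ : kV A, VanAt s.1 (jTil A p - algebraMap (kV A) (F1 A p 1) β₀) ∧
      (modSp a b hab hp hA hqM ht hTot H H₁ hne).c₁.IsGU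
        (Fermat.Agent.BAD.H30.unitF (1 * p) p hd) ∧
      ZeroFree (modSp a b hab hp hA hqM ht hTot H H₁ hne) s
        (Fermat.Agent.BAD.H30.unitF (1 * p) p hd) ∧
      (modSp a b hab hp hA hqM ht hTot H H₁ hne).c₂.IsGU
        (Fermat.Agent.BAD.H30.unitF (1 * p) p hd
          / algebraMap Kbar (FN (1 * p)) (p : Kbar) ^ 12) ∧
      0 < (ssDat A p hp hA h5).H.rootMultiplicity β₀ ∧
      s.1.ord ((modSp a b hab hp hA hqM ht hTot H H₁ hne).c₁.rd
          (Fermat.Agent.BAD.H30.unitF (1 * p) p hd))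
        = (((ssDat A p hp hA h5).H.rootMultiplicity β₀ : ℕ) : ℤ) := by
  haveI : IsAlgClosed (kV A) := isAlgClosed_kV A
  have hnode := modSp_mem_nodes a b hab hp hA hqM ht hTot H H₁ hne hs
  have hzeros : H59.ZerosStmt (kV A) (F1 A p 1) :=
    RED.H42.zerosAll _ _ (isFF_F1 a b hab hp hA hqM ht)
  obtain ⟨β₀, hβ₀⟩ := exists_jvalue a b hab hp hA hqM ht hTot hCusp hnode (H₁.deg_one s.1)
  have hU1 : Fermat.Agent.BAD.H30.unitF (1 * p) p hd ∈ V1 A p 1 :=
    Fermat.Agent.BAD.H30.unitF_mem_gaussV A (1 * p) p hd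
  have hU : (modSp a b hab hp hA hqM ht hTot H H₁ hne).c₁.IsGU
      (Fermat.Agent.BAD.H30.unitF (1 * p) p hd) := by
    refine ⟨hU1, ?_⟩
    rw [modSp_rd₁ a b hab hp hA hqM ht hTot H H₁ hne hU1]
    exact Fermat.Agent.BAD.H30.gaussRes_unitF_ne_zero A (1 * p) p hd
  have hUzf : ZeroFree (modSp a b hab hp hA hqM ht hTot H H₁ hne) s
      (Fermat.Agent.BAD.H30.unitF (1 * p) p hd) := fun P hP =>
    ord_unitF_eq_zero_of_fibre a b hab hp hA hqM ht hTot hCusp hd hnode
      (modSp_fibre a b hab hp hA hqM ht hTot H H₁ hne hP)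
  obtain ⟨hU2m, hU2r⟩ := unit_div_mem_V2 A p a b hab hp hd
  have hU₂ : (modSp a b hab hp hA hqM ht hTot H H₁ hne).c₂.IsGU
      (Fermat.Agent.BAD.H30.unitF (1 * p) p hd
        / algebraMap Kbar (FN (1 * p)) (p : Kbar) ^ 12) := by
    refine ⟨hU2m, ?_⟩
    rw [modSp_rd₂ a b hab hp hA hqM ht hTot H H₁ hne hU2m]
    exact hU2r
  have hord : s.1.ord ((modSp a b hab hp hA hqM ht hTot H H₁ hne).c₁.rd
        (Fermat.Agent.BAD.H30.unitF (1 * p) p hd))
      = (((ssDat A p hp hA h5).H.rootMultiplicity β₀ : ℕ) : ℤ) := by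
    rw [modSp_rd₁ a b hab hp hA hqM ht hTot H H₁ hne hU1]
    exact ord_red1_unit a b hab hp hA h5 hzeros hd hβ₀
  have hpV : algebraMap Kbar (FN (1 * p)) (p : Kbar) ∈ V1 A p 1 :=
    (const_mem1 A p 1 _).2 (natCast_mem A p)
  have hp0 : (modSp a b hab hp hA hqM ht hTot H H₁ hne).c₁.rd
      (algebraMap Kbar (FN (1 * p)) (p : Kbar)) = 0 := by
    rw [modSp_rd₁ a b hab hp hA hqM ht hTot H H₁ hne hpV]
    exact red1_natCast A p hA hpV
  refine ⟨β₀, hβ₀, hU, hUzf, hU₂, ?_, hord⟩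
  rw [Nat.pos_iff_ne_zero]
  intro h0
  rw [h0, Nat.cast_zero] at hord
  have h₂' : (modSp a b hab hp hA hqM ht hTot H H₁ hne).c₂.IsGU
      (algebraMap Kbar (FN (1 * p)) (((p : Kbar) ^ 12)⁻¹)
        * Fermat.Agent.BAD.H30.unitF (1 * p) p hd) := by
    have e : algebraMap Kbar (FN (1 * p)) (((p : Kbar) ^ 12)⁻¹)
        * Fermat.Agent.BAD.H30.unitF (1 * p) p hd
        = Fermat.Agent.BAD.H30.unitF (1 * p) p hd
          / algebraMap Kbar (FN (1 * p)) (p : Kbar) ^ 12 := by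
      rw [map_inv₀, map_pow, div_eq_inv_mul]
    rw [e]
    exact hU₂
  have hcu := SSD.isCU_of_node _ H.principal hs hU h₂' hUzf hord
  have hcu' := hcu.inv
  rw [inv_inv] at hcu'
  apply hcu'.isGU₁.2
  rw [map_pow, PRed.rd_pow _ hpV, hp0, zero_pow (by norm_num)]

include hCusp h5 in
/-- **The annulus coordinate at a node** of the modular datum of level `1 * p`. -/
theorem node_coord (hF0 : Stmt_CoordF0 p) (hMult : Stmt_CoordMult)
    {s : Place (kV A) (F1 A p 1) × Place (kV A) (F1 A p 1)}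
    (hs : s ∈ (modSp a b hab hp hA hqM ht hTot H H₁ hne).nodes) :
    ∃ n : ℕ, 0 < n ∧
      (∃ t : FN (1 * p),
        (modSp a b hab hp hA hqM ht hTot H H₁ hne).IsAnnCoord s t ((p : Kbar) ^ n) ∧
          ∀ σ ∈ A.inertiaSubgroupIn ℚ, galF (1 * p) σ • t = t) ∧
      ∃ β₀ : kV A, VanAt s.1 (jTil A p - algebraMap (kV A) (F1 A p 1) β₀) ∧
        (n = 1 ∨ (n = 3 ∧ β₀ = 0) ∨ (n = 2 ∧ β₀ = 1728)) := by
  haveI : IsAlgClosed (kV A) := isAlgClosed_kV A
  haveI : Fact p.Prime := ⟨hp⟩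
  haveI : CharP (kV A) p := H82.charP_kV A hp hA
  have hd : p ∣ 1 * p := Dvd.intro_left 1 rfl
  obtain ⟨β₀, hβ₀, hU, hUzf, hU₂, ha0, hord⟩ :=
    node_unit a b hab hp hA hqM ht hTot hCusp h5 H H₁ hne hs hd
  have hnode := modSp_mem_nodes a b hab hp hA hqM ht hTot H H₁ hne hs
  have hzeros : H59.ZerosStmt (kV A) (F1 A p 1) :=
    RED.H42.zerosAll _ _ (isFF_F1 a b hab hp hA hqM ht)
  obtain ⟨F0, hj1, hj2, hR0, hfix, hdisc⟩ := hF0 A a b hab hp hA
  have hpV : algebraMap Kbar (FN (1 * p)) (p : Kbar) ∈ V1 A p 1 :=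
    (const_mem1 A p 1 _).2 (natCast_mem A p)
  have hp0 : (modSp a b hab hp hA hqM ht hTot H H₁ hne).c₁.rd
      (algebraMap Kbar (FN (1 * p)) (p : Kbar)) = 0 := by
    rw [modSp_rd₁ a b hab hp hA hqM ht hTot H H₁ hne hpV]
    exact red1_natCast A p hA hpV
  have hc₀ : (p : Kbar) ≠ 0 := by exact_mod_cast hp.ne_zero
  obtain ⟨t, htF0, n, hn0, hcoord, hna⟩ :=
    exists_isAnnCoord_of_charts (S := modSp a b hab hp hA hqM ht hTot H H₁ hne) hs H.principal
      hc₀ hpV hp0 F0 (hR0 _ (natCast_mem_inertiaRing A p)) (inertiaRing A) hR0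
      (fun c hc => (const_mem1 A p 1 c).2 hc.1)
      (fun c' => by
        obtain ⟨c, hc, h, hr⟩ := exists_inertiaRing_lift A p hp hA c'
        exact ⟨c, hc, (modSp_rd₁ a b hab hp hA hqM ht hTot H H₁ hne h).trans hr⟩)
      (fun f hf hf2 hr => hdisc f hf hf2 (by
        rw [← modSp_rd₂ a b hab hp hA hqM ht hTot H H₁ hne hf2]
        exact hr))
      hj1 hj2 (chartOne_mem_V1 A p) (chartOne_mem_V2 A p a b hab hp) (chartTwo_mem_V1 A p)
      (chartTwo_mem_V2 A p a b hab hp)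
      (fun P hP => ord_chartOne_nonneg a b hab hp hA hqM ht hTot hCusp hnode
        (modSp_fibre a b hab hp hA hqM ht hTot H H₁ hne hP))
      (fun P hP => ord_chartTwo_nonneg a b hab hp hA hqM ht hTot hCusp hnode
        (modSp_fibre a b hab hp hA hqM ht hTot H H₁ hne hP))
      p
      (modSp_rd₁ a b hab hp hA hqM ht hTot H H₁ hne (chartOne_mem_V1 A p))
      ((modSp_rd₁ a b hab hp hA hqM ht hTot H H₁ hne (chartTwo_mem_V1 A p)).trans
        (red1_chartTwo A p hp hA))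
      ((modSp_rd₂ a b hab hp hA hqM ht hTot H H₁ hne (chartOne_mem_V2 A p a b hab hp)).trans
        (red2_chartOne A p a b hab hp hA))
      ((modSp_rd₂ a b hab hp hA hqM ht hTot H H₁ hne (chartTwo_mem_V2 A p a b hab hp)).trans
        (red2_chartTwo A p a b hab hp))
      hzeros (transcendental_jTil A p) (adjoin_jTil A p a b hab hp hA)
      hzeros (transcendental_jTil A p) (adjoin_jTil A p a b hab hp hA)
      hU hUzf hU₂ ha0 hord
  refine ⟨n, hn0, ⟨t, hcoord, fun σ hσ => hfix t htF0 σ hσ⟩, β₀, hβ₀, ?_⟩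
  rcases hMult (kV A) _ _ _ (ssDat A p hp hA h5) β₀ with h | h | ⟨hb, h⟩ | ⟨hb, h⟩
  · omega
  · left
    rw [h] at hna
    omega
  · right; left
    rw [h] at hna
    exact ⟨by omega, hb⟩
  · right; right
    rw [h] at hna
    exact ⟨by omega, hb⟩

end Node

end Fermat.Agent.S15.Desc.H67

end
end
-- ==== END Fermat.Agent.S15.Desc.H67_CoordModD

-- ==== BEGIN Fermat.Agent.S15.Desc.H69_Main
section

/-!
# S15 / DESC: `Stmt_selB p` from the leaves (helper69)

`stmt_selB_of_leaves` : the leaves of `S15/Desc/Defs.lean` and `S15/Desc/DefsTwo.lean`, for every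
prime `r ∣ p - 1`, imply `Stmt_selB p`, the input of the core of S15 (`S15/H40_CoreSel.lean`).
-/

set_option autoImplicit false

noncomputable section

open ModularCurve Module

namespace Fermat.Agent.S15.Desc

open Fermat.Agent.S15

/-- The leaves of the descent at an odd prime `r`. -/
structure LeavesOdd (p r : ℕ) [NeZero p] [NeZero r] : Prop where
  div : Stmt_DIV p r
  proj : Stmt_PROJ p r
  es : Stmt_ESr p r
  locl : Stmt_LOCl p r
  exp : Stmt_EXP p r
  locu : Stmt_LOCU p r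
  vt : Stmt_VT p r
  num : Stmt_NUMinfOdd p r

/-- The leaves of the descent at the prime `2`. -/
structure LeavesTwo (p : ℕ) [NeZero p] : Prop where
  div : Stmt_DIV p 2
  proj : Stmt_PROJ p 2
  es : Stmt_ESr p 2
  locl : Stmt_LOCl p 2
  exp : Stmt_EXP p 2
  locu : Stmt_LOCUTwo p
  vt : Stmt_VT p 2
  num : Stmt_NUMinfTwo p

/-- **DESC**: the Selmer form of the Eisenstein descent from the leaves. -/
theorem stmt_selB_of_leaves (p : ℕ) [NeZero p] (hp : p.Prime)
    (hne : Stmt_cuspNe p) (htors : Stmt_cuspTors p)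
    (hFIN : Stmt_FIN p) (hGAL : Stmt_GALfin p) (hGH : Stmt_GH p)
    (hodd : ∀ (r : ℕ) (hr : r.Prime), r ∣ p - 1 → r ≠ 2 →
      haveI : NeZero r := ⟨hr.ne_zero⟩; LeavesOdd p r)
    (htwo : 2 ∣ p - 1 → p ≠ 2 → LeavesTwo p) : Stmt_selB p := by
  refine stmt_selB_of_selBAt p hp hne htors fun r hr hrd => ?_
  have hp1 : 0 < p - 1 := by
    have := hp.two_le
    rcases Nat.eq_zero_or_pos (p - 1) with h | h
    · exfalso
      have h2 : p = 1 := by omega
      exact hp.one_lt.ne' h2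
    · exact h
  have hpr : p ≠ r := by
    intro h
    have := Nat.le_of_dvd hp1 hrd
    omega
  by_cases hr2 : r = 2
  · subst hr2
    have L := htwo hrd hpr
    exact selBAt_of_leaves_two hp hpr hFIN L.div hGAL hGH L.proj L.es L.locl L.exp L.locu L.vt L.num
  · haveI : NeZero r := ⟨hr.ne_zero⟩
    have L := hodd r hr hrd hr2
    exact selBAt_of_leaves_odd hp hr hpr hr2 hFIN L.div hGAL hGH L.proj L.es L.locl L.exp L.locu
      L.vt L.num

end Fermat.Agent.S15.Desc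

end
end
-- ==== END Fermat.Agent.S15.Desc.H69_Main

-- ==== BEGIN Fermat.Agent.S15.Desc.H83_GlueMod
section
attribute [local instance 10000] SubalgebraClass.toAlgebra
attribute [local instance 10000] HahnSeries.powerSeriesAlgebra

/-!
# S15 / DESC, leaf GLUE-dim (helper83): the modular instantiation

Level `N = 1 * q`, `q ≥ 5` prime, `A` a valuation ring of `ℚ̄` over `q`.

* `modSSD_open` : the modular semistable Deuring datum of level `M q` (helper91's `modSSD_body`)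
  in TRANSPARENT form: the two residue fields are `F1 A q M`, and the number of nodes satisfies
  `genusFormula (M q) + 1 ≤ 2 genusFormula M + δ`.
* `genus_F1_one` : at `M = 1` the genus of the components is `0` and `δ = g + 1`
  (abstract genus formula `H83.genus_formula` + NUM).
* `finrank_toricSub_le` : `dim T ≤ g = dim S₂(Γ₀(q))`.
* `stmt_GLUEdim_of_rank` : `Stmt_GLUEdim p r` from the lower bound `2 dim S₂ ≤ dim J₀(p)[r]`.
-/

set_option autoImplicit false
set_option linter.style.haveILetI false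
set_option synthInstance.maxHeartbeats 400000
set_option maxHeartbeats 1000000

noncomputable section

open HahnSeries IntermediateField AlgebraicCurve ModularCurve
open Fermat.Agent.S28.H73 Fermat.Agent.RED.H73 Fermat.Agent.RED Fermat.Agent.S24
open Fermat.Agent.BAD.H88

namespace Fermat.Agent.S15.Desc.H83

open Fermat.Agent.BAD

/-- **The modular semistable Deuring datum of level `M q`, transparent form.** -/
theorem modSSD_open (A : ValuationSubring Kbar) (q M : ℕ) (a b : ℤ)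
    (hab : a * q + b * M = 1) (hq : q.Prime) [NeZero M] [NeZero (M * q)] [NeZero q]
    (hA : A.LiesOverPrime q) (hqM : ¬ q ∣ M) (ht : H91.TameAt M q) :
    ∃ (S : SSD Kbar (FN (M * q)) (kV A) (F1 A q M) (F1 A q M))
      (_ : RED.H17.FFHyp Kbar (FN (M * q))) (_ : RED.H17.FFHyp (kV A) (F1 A q M))
      (g g₁ : ℕ) (c c₁ : ℤ),
      RED.H17.IsGenus Kbar (FN (M * q)) g c ∧ RED.H17.IsGenus (kV A) (F1 A q M) g₁ c₁ ∧
      g + 1 ≤ g₁ + g₁ + S.nodes.card ∧
      genusFormula (M * q) + 1 ≤ 2 * genusFormula M + (S.nodes.card : ℚ) ∧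
      (∀ f : FN (M * q), f ∈ gaussV A (M * q) → f ∈ S.c₁.V) ∧
      (∀ (f : ↥(gaussV A (M * q))) (hf : (f : FN (M * q)) ∈ S.c₁.V),
        gaussRes A (M * q) f = 1 → S.c₁.red ⟨(f : FN (M * q)), hf⟩ = 1) := by
  haveI : IsAlgClosed (kV A) := isAlgClosed_kV A
  have hFFL : IsFF Kbar ↥(FNbar (M * q)) := H95.stmt_HKA_isFF (M * q)
  have hFF1 : IsFF (kV A) (F1 A q M) := H91.isFF_F1 a b hab hq hA hqM ht
  have H := RED.H17.ffHyp_of_isFF _ _ hFFL
  have H₁ := RED.H17.ffHyp_of_isFF _ _ hFF1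
  obtain ⟨g, c, hg⟩ := RED.H17.exists_isGenus _ _ hFFL
  obtain ⟨g₁, c₁, hg₁⟩ := RED.H17.exists_isGenus _ _ hFF1
  have hg₁' : RED.H17.IsGenus (kV A) ↥(H91.redM A M) g₁ c₁ :=
    H91.isGenus_congr (H82.redField_eq_redField q M a b hab hq A hA) hg₁
  obtain ⟨Z, hZne, hZc, hZo, hnum⟩ :=
    Fermat.Agent.BAD.H30.num_final_tame M q hq ht hqM A hA (Dvd.intro_left M rfl)
  have htot := H23.tot_mod A q M a b hab hq hA hqM ht
    (H82.redField_eq_fullC q M a b hab hq A hA)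
  have hZ' : ∀ z ∈ Z.map (H91.kappa A q M a b hab hq hA).symm.toEmbedding,
      (H91.modT a b hab hq hA hqM ht
        (H73.betaF1 A q M hq hA M (H82.redField_eq_fullC q M a b hab hq A hA)) htot).IsNode z := by
    intro z hz
    obtain ⟨z₀, hz₀, rfl⟩ := Finset.mem_map.mp hz
    exact H91.isNode_modT a b hab hq hA hqM ht _ htot _ z₀ (hZc z₀ hz₀) (hZo z₀ hz₀)
  have hne : ∃ z, (H91.modT a b hab hq hA hqM ht
      (H73.betaF1 A q M hq hA M (H82.redField_eq_fullC q M a b hab hq A hA)) htot).IsNode z := by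
    obtain ⟨z, hz⟩ := hZne.map (f := (H91.kappa A q M a b hab hq hA).symm.toEmbedding)
    exact ⟨z, hZ' z hz⟩
  have hcard := (H91.modT a b hab hq hA hqM ht
      (H73.betaF1 A q M hq hA M (H82.redField_eq_fullC q M a b hab hq A hA))
      htot).card_le_toSSD_nodes H.principal H.deg_one H₁.principal H₁.deg_one H₁.deg_one hne _ hZ'
  rw [Finset.card_map] at hcard
  have hnum' : g + 1 ≤ g₁ + g₁ + Z.card :=
    Fermat.Agent.BAD.H17.genus_ineq hq hqM ht hA hg hg₁' Z.card hnum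
  refine ⟨(H91.modT a b hab hq hA hqM ht
      (H73.betaF1 A q M hq hA M (H82.redField_eq_fullC q M a b hab hq A hA))
      htot).toSSD H.principal H.deg_one H₁.principal H₁.deg_one H₁.deg_one hne,
    H, H₁, g, g₁, c, c₁, hg, hg₁, by omega, ?_, fun f hf => hf, fun f hf h1 => h1⟩
  have hcQ : (Z.card : ℚ) ≤ (((H91.modT a b hab hq hA hqM ht
      (H73.betaF1 A q M hq hA M (H82.redField_eq_fullC q M a b hab hq A hA))
      htot).toSSD H.principal H.deg_one H₁.principal H₁.deg_one H₁.deg_one hne).nodes.card : ℚ) := by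
    exact_mod_cast hcard
  linarith

/-- **GLUE-dim at level `1 * q`**, from the lower bound for the rank of the torsion. -/
theorem gluedim_level (q r : ℕ) (hq : q.Prime) (hq5 : 5 ≤ q) (hr : r.Prime) (hqr : q ≠ r)
    (A : ValuationSubring Kbar) (hA : A.LiesOverPrime q)
    (hrank : 2 * Module.finrank ℂ (CuspForm (CongruenceSubgroup.Gamma0 (1 * q)) 2) ≤
      Module.finrank (ZMod r) (TorsR (JZero (1 * q)) r)) :
    2 * Module.finrank (ZMod r) ↥(H63.toricSub A (1 * q) r) ≤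
      Module.finrank (ZMod r) (TorsR (JZero (1 * q)) r) := by
  haveI : Fact r.Prime := ⟨hr⟩
  haveI : NeZero (1 : ℕ) := ⟨one_ne_zero⟩
  haveI : NeZero q := ⟨hq.ne_zero⟩
  haveI : NeZero (1 * q) := ⟨by rw [one_mul]; exact hq.ne_zero⟩
  haveI : IsAlgClosed (kV A) := isAlgClosed_kV A
  haveI : Infinite (kV A) := IsAlgClosed.instInfinite
  have hqM : ¬ q ∣ 1 := fun h => hq.one_lt.ne' (Nat.dvd_one.mp h)
  have hab : (0 : ℤ) * (q : ℤ) + 1 * ((1 : ℕ) : ℤ) = 1 := by simp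
  obtain ⟨S, H, H₁, g, g₁, c, c₁, hg, hg₁, hnum, hnumQ, hV, hred⟩ :=
    modSSD_open A q 1 0 1 hab hq hA hqM (Or.inl hq5)
  -- `g + 1 ≤ δ`
  have h1q : 1 < 1 * q := by rw [one_mul]; exact hq.one_lt
  have hgQ : (g : ℚ) = genusFormula (1 * q) :=
    Fermat.Agent.BAD.H17.genus_FN_eq (1 * q) h1q hg
  rw [asm_genusFormula_one, mul_zero, zero_add, ← hgQ] at hnumQ
  have hδ : g + 1 ≤ S.nodes.card := by exact_mod_cast hnumQ
  -- the genus formula
  have hgf := genus_formula H28.stmt_TwSurj H17.stmt_Pivot S H H₁ H₁ g g₁ g₁ c c₁ c₁ hg hg₁ hg₁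
    hnum
  have hg₁0 : g₁ = 0 := by omega
  subst hg₁0
  -- the toric part
  have hrq : ¬ q ∣ r := fun hd => hqr ((Nat.prime_dvd_prime_iff_eq hq hr).1 hd)
  have hlt : Module.finrank (ZMod r) ↥(H63.toricSub A (1 * q) r) < S.nodes.card := by
    unfold H63.toricSub
    refine finrank_span_kummer_lt S H H₁ H₁ g 0 c c₁ c₁ hg hg₁ hg₁ hnum r
      (H91.natCast_kV_ne_zero A hq hA hrq) _ ?_
    rintro v ⟨D, f, hxD, hres, hDf⟩
    exact ⟨D, (f : FN (1 * q)), hV _ f.2, hxD, hred f _ hres, hDf⟩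
  -- `g = dim S₂`
  have hS20 := Fermat.Agent.S20.result (1 * q)
  have hdim : g = Module.finrank ℂ (CuspForm (CongruenceSubgroup.Gamma0 (1 * q)) 2) := by
    have : (g : ℚ) = (Module.finrank ℂ (CuspForm (CongruenceSubgroup.Gamma0 (1 * q)) 2) : ℚ) :=
      hgQ.trans hS20.symm
    exact_mod_cast this
  omega

/-- **GLUE-dim at the level `N = q`** (`q ≥ 5`). -/
theorem gluedim_of_eq (N q r : ℕ) (hN : N = 1 * q) (hq : q.Prime) (hq5 : 5 ≤ q) (hr : r.Prime)
    (hqr : q ≠ r) (A : ValuationSubring Kbar) (hA : A.LiesOverPrime q)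
    (hrank : 2 * Module.finrank ℂ (CuspForm (CongruenceSubgroup.Gamma0 N) 2) ≤
      Module.finrank (ZMod r) (TorsR (JZero N) r)) :
    2 * Module.finrank (ZMod r) ↥(H63.toricSub A N r) ≤
      Module.finrank (ZMod r) (TorsR (JZero N) r) := by
  subst hN
  exact gluedim_level q r hq hq5 hr hqr A hA hrank

/-- **(GLUE-dim)** from the lower bound `2 dim S₂(Γ₀(p)) ≤ dim J₀(p)[r]`. -/
theorem stmt_GLUEdim_of_rank (p r : ℕ) (hp : p.Prime) (hp5 : 5 ≤ p) (hr : r.Prime)
    (hpr : p ≠ r)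
    (hrank : 2 * Module.finrank ℂ (CuspForm (CongruenceSubgroup.Gamma0 p) 2) ≤
      Module.finrank (ZMod r) (TorsR (JZero p) r)) :
    H63.Stmt_GLUEdim p r := fun A hA =>
  gluedim_of_eq p p r (one_mul p).symm hp hp5 hr hpr A hA hrank

end Fermat.Agent.S15.Desc.H83

end
end
-- ==== END Fermat.Agent.S15.Desc.H83_GlueMod

-- ==== BEGIN Fermat.Agent.S15.H67_BRan
section

set_option autoImplicit false
set_option synthInstance.maxHeartbeats 400000

noncomputable section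

open scoped PeriodPair
open WeierstrassCurve WeierstrassCurve.Affine Fermat.Agent.Lib.Torsion.H11

namespace Fermat.Agent.S15.H67

open Fermat.Agent.S15.An Fermat.Agent.S24

/-- The product over the nonzero elements of a cyclic group of order `p`. -/
theorem prod_nz_zmultiples {G M : Type*} [AddGroup G] [CommMonoid M] (Q : G) (p : ℕ)
    (hord : addOrderOf Q = p) (hp : 0 < p) [Fintype (AddSubgroup.zmultiples Q)]
    [DecidableEq (AddSubgroup.zmultiples Q)] (f : G → M) :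
    ∏ R ∈ (Finset.univ : Finset (AddSubgroup.zmultiples Q)).erase 0, f (R : G) =
      ∏ k ∈ Finset.Ico 1 p, f (k • Q) := by
  symm
  have hfin : IsOfFinAddOrder Q := by
    rw [← addOrderOf_pos_iff, hord]; exact hp
  refine Finset.prod_bij (fun k _ => (⟨k • Q, AddSubgroup.nsmul_mem_zmultiples Q k⟩ :
    AddSubgroup.zmultiples Q)) ?_ ?_ ?_ ?_
  · intro k hk
    rw [Finset.mem_Ico] at hk
    rw [Finset.mem_erase]
    refine ⟨?_, Finset.mem_univ _⟩
    intro h
    have h' : k • Q = 0 := congrArg Subtype.val h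
    have hdvd : addOrderOf Q ∣ k := addOrderOf_dvd_of_nsmul_eq_zero h'
    rw [hord] at hdvd
    exact absurd (Nat.le_of_dvd (by omega) hdvd) (by omega)
  · intro k hk k' hk' h
    rw [Finset.mem_Ico] at hk hk'
    have h' : k • Q = k' • Q := congrArg Subtype.val h
    have hmod := (nsmul_eq_nsmul_iff_modEq).mp h'
    rw [hord] at hmod
    exact Nat.ModEq.eq_of_lt_of_lt hmod hk.2 hk'.2
  · intro R hR
    rw [Finset.mem_erase] at hR
    have hmem := (hfin.mem_multiples_iff_mem_zmultiples (y := (R : G))).mpr R.2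
    obtain ⟨n, hn⟩ := (AddSubmonoid.mem_multiples_iff _ _).mp hmem
    refine ⟨n % p, ?_, ?_⟩
    · rw [Finset.mem_Ico]
      refine ⟨?_, Nat.mod_lt _ hp⟩
      rcases Nat.eq_zero_or_pos (n % p) with h0 | h0
      · exfalso
        apply hR.1
        apply Subtype.ext
        have : (n % p) • Q = n • Q := by rw [← hord]; exact mod_addOrderOf_nsmul Q n
        rw [← hn, ← this, h0, zero_smul]
        rfl
      · exact h0
    · apply Subtype.ext
      show (n % p) • Q = (R : G)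
      rw [← hn, ← hord]
      exact mod_addOrderOf_nsmul Q n
  · intro k _
    rfl

/-- `Ξ` of a cyclic subgroup of order `p` as a product over `0 < k < p`. -/
theorem Xi_zmultiples {K : Type*} [Field K] [DecidableEq K] (W : Affine K) (Q : W.Point)
    (p : ℕ) (hord : addOrderOf Q = p) (hp : 0 < p) [Fintype (AddSubgroup.zmultiples Q)]
    (e : K) :
    Fermat.Agent.S12.H11.Xi W (AddSubgroup.zmultiples Q) e =
      ∏ k ∈ Finset.Ico 1 p, (xc W (k • Q) - e) := by
  unfold Fermat.Agent.S12.H11.Xi Fermat.Agent.S12.H11.nz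
  exact prod_nz_zmultiples Q p hord hp (fun R => xc W R - e)

theorem iotaC_jOfDiff (a b c : Qb) :
    iotaC (jOfDiff a b c) = jOfDiff (iotaC a) (iotaC b) (iotaC c) := by
  unfold jOfDiff
  simp only [map_div₀, map_mul, map_pow, map_add, map_ofNat]

/-- `c₆ ≠ 0` when `c₄` is odd. -/
theorem c₆_ne_zero (W : WeierstrassCurve ℤ) (h2c4 : ¬ (2 : ℤ) ∣ W.c₄) : W.c₆ ≠ 0 := by
  intro h
  have hrel := W.c_relation
  rw [h] at hrel
  apply h2c4
  have h2 : (2 : ℤ) ∣ W.c₄ ^ 3 := by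
    have : W.c₄ ^ 3 = 2 * (864 * W.Δ) := by linear_combination -hrel
    rw [this]
    exact dvd_mul_right _ _
  exact Int.prime_two.dvd_of_dvd_pow h2

/-- The roots of the short cubic from a `TwoTors` triple. -/
theorem short_roots (W : WeierstrassCurve ℤ) {ε1 ε2 ε3 : Qb}
    (H : Fermat.Agent.S12.H11.TwoTors (EBar W) ε1 ε2 ε3) (x : ℂ) :
    4 * x ^ 3 - ((W.c₄ : ℂ) / 12) * x - ((W.c₆ : ℂ) / 216) =
      4 * ((x - (iotaC ε1 + (W.b₂ : ℂ) / 12)) * (x - (iotaC ε2 + (W.b₂ : ℂ) / 12)) *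
        (x - (iotaC ε3 + (W.b₂ : ℂ) / 12))) := by
  have hb2 := H.hb2
  have hb4 := H.hb4
  have hb6 := H.hb6
  rw [Fermat.Agent.S15.An.H87.EBar_b₂] at hb2
  rw [Fermat.Agent.S15.An.H87.EBar_b₄] at hb4
  rw [Fermat.Agent.S15.An.H87.EBar_b₆] at hb6
  have hb2' : (W.b₂ : ℂ) = -4 * (iotaC ε1 + iotaC ε2 + iotaC ε3) := by
    have := congrArg iotaC hb2
    simpa only [map_intCast, map_mul, map_neg, map_add, map_ofNat] using this
  have hb4' : (W.b₄ : ℂ) = 2 * (iotaC ε1 * iotaC ε2 + iotaC ε1 * iotaC ε3 +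
      iotaC ε2 * iotaC ε3) := by
    have := congrArg iotaC hb4
    simpa only [map_intCast, map_mul, map_neg, map_add, map_ofNat] using this
  have hb6' : (W.b₆ : ℂ) = -4 * (iotaC ε1 * iotaC ε2 * iotaC ε3) := by
    have := congrArg iotaC hb6
    simpa only [map_intCast, map_mul, map_neg, map_add, map_ofNat] using this
  have hc4 : (W.c₄ : ℂ) = (W.b₂ : ℂ) ^ 2 - 24 * (W.b₄ : ℂ) := by
    simp only [WeierstrassCurve.c₄]; push_cast; ring
  have hc6 : (W.c₆ : ℂ) = -(W.b₂ : ℂ) ^ 3 + 36 * (W.b₂ : ℂ) * (W.b₄ : ℂ) - 216 * (W.b₆ : ℂ) := by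
    simp only [WeierstrassCurve.c₆]; push_cast; ring
  rw [hc4, hc6, hb4', hb6', hb2']
  ring

/-- (BR-AN). -/
theorem stmt_BRan : Stmt_BRan := by
  intro p hp hp2 W hΔ _ h2c4 Q hord β hβ
  have hc4 : W.c₄ ≠ 0 := by
    intro h; apply h2c4; rw [h]; exact dvd_zero _
  have hc6 := c₆_ne_zero W h2c4
  have hc4C : (W.c₄ : ℂ) ≠ 0 := by exact_mod_cast hc4
  have hc6C : (W.c₆ : ℂ) ≠ 0 := by exact_mod_cast hc6
  have hΔC : (W.Δ : ℂ) ≠ 0 := by exact_mod_cast hΔ
  have hrelC : (1728 : ℂ) * (W.Δ : ℂ) = (W.c₄ : ℂ) ^ 3 - (W.c₆ : ℂ) ^ 2 := by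
    have := W.c_relation
    exact_mod_cast this
  have hdisc : ((W.c₄ : ℂ) / 12) ^ 3 - 27 * ((W.c₆ : ℂ) / 216) ^ 2 = (W.Δ : ℂ) := by
    linear_combination (-1 / 1728 : ℂ) * hrelC
  obtain ⟨L, hg2, hg3⟩ := Fermat.Agent.S15.An.H11.stmt_unif ((W.c₄ : ℂ) / 12)
    ((W.c₆ : ℂ) / 216) (div_ne_zero hc4C (by norm_num)) (div_ne_zero hc6C (by norm_num))
    (by rw [hdisc]; exact hΔC)
  obtain ⟨z₀, hz₀, hpz₀, hlad⟩ :=
    Fermat.Agent.S15.An.H87.stmt_ladder p hp hp2 W hΔ Q hord L hg2 hg3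
  obtain ⟨L', τ₁, τ₂, hL', hτ, hj1, hj2⟩ :=
    Fermat.Agent.S15.An.H34.stmt_basis L p z₀ hp hz₀ hpz₀
  refine ⟨τ₁, τ₂, hτ, ?_, ?_⟩
  · rw [← hj1]
    obtain ⟨ε1, ε2, ε3, Hε⟩ := Fermat.Agent.S15.H63.exists_twoTors (EBar W)
      (two_ne_zero : (2 : Qb) ≠ 0)
    have hfin : IsOfFinAddOrder Q := by
      rw [← addOrderOf_pos_iff, hord]; exact hp.pos
    have hfinite : Finite (AddSubgroup.zmultiples Q) := hfin.finite_zmultiples
    let inst : Fintype (AddSubgroup.zmultiples Q) := Fintype.ofFinite _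
    have hcard : Fintype.card (AddSubgroup.zmultiples Q) = p := by
      rw [← Nat.card_eq_fintype_card, Nat.card_zmultiples, hord]
    have hβ' := hβ ε1 ε2 ε3 inst Hε
    have hroots : ∀ x : ℂ, 4 * x ^ 3 - L.g₂ * x - L.g₃ =
        4 * ((x - (iotaC ε1 + (W.b₂ : ℂ) / 12)) * (x - (iotaC ε2 + (W.b₂ : ℂ) / 12)) *
          (x - (iotaC ε3 + (W.b₂ : ℂ) / 12))) := by
      intro x
      rw [hg2, hg3]
      exact short_roots W Hε x
    have hl := Fermat.Agent.S15.An.H67.stmt_liouv L L' p z₀ hp hp2 hz₀ hpz₀ hL' _ _ _ hroots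
    rw [hl, hβ']
    unfold quotJ
    rw [iotaC_jOfDiff]
    -- the `Ξ`'s
    have hXi : ∀ ε : Qb, iotaC (Fermat.Agent.S12.H11.Xi (EBar W) (AddSubgroup.zmultiples Q) ε) =
        XiAn L p z₀ (iotaC ε + (W.b₂ : ℂ) / 12) := by
      intro ε
      rw [Xi_zmultiples (EBar W) Q p hord hp.pos ε, map_prod]
      unfold XiAn
      refine Finset.prod_congr rfl fun k hk => ?_
      rw [Finset.mem_Ico] at hk
      rw [(hlad k (by omega) hk.2).2, map_sub]
      ring
    have hqd : ∀ a b c : Qb, iotaC (quotDiff (EBar W) (AddSubgroup.zmultiples Q) a b c) =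
        cdiff L p z₀ (iotaC a + (W.b₂ : ℂ) / 12) (iotaC b + (W.b₂ : ℂ) / 12)
          (iotaC c + (W.b₂ : ℂ) / 12) := by
      intro a b c
      unfold quotDiff cdiff
      rw [map_div₀, map_mul, map_mul, map_pow, map_sub, hXi, hXi, hXi, hcard]
      congr 2
      ring
    rw [hqd, hqd, hqd]
  · rw [← hj2]
    unfold jL jRat
    rw [hg2, hg3, hdisc, map_ratCast]
    push_cast
    field_simp
    norm_num

end Fermat.Agent.S15.H67

end
end
-- ==== END Fermat.Agent.S15.H67_BRan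

-- ==== BEGIN Fermat.Agent.S15.Desc.H67_CoordModE
section
attribute [local instance 10000] SubalgebraClass.toAlgebra
attribute [local instance 10000] HahnSeries.powerSeriesAlgebra

/-!
# S15 DESC, leaf COORD (helper67): `Stmt_CoordMod p` from its leaves

* `coordMod_level` : the body of `Stmt_CoordMod p` at `A`, at any level `N = 1 * p`;
* `stmt_CoordMod_of` : `Stmt_CoordMod p` for a prime `p ≥ 5` from TOT-MOD (helper23), CUSP
  (helper69), F0 (helper63) and MULT (helper87).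
-/

set_option autoImplicit false
set_option linter.unusedSectionVars false
set_option linter.style.haveILetI false
set_option synthInstance.maxHeartbeats 400000
set_option maxHeartbeats 800000

noncomputable section

open HahnSeries IntermediateField AlgebraicCurve ModularCurve
open Fermat.Agent.S28.H73 Fermat.Agent.RED.H73 Fermat.Agent.RED Fermat.Agent.S24
open Fermat.Agent.BAD.H88

namespace Fermat.Agent.S15.Desc.H67

open Fermat.Agent.BAD Fermat.Agent.BAD.H91 Fermat.Agent.BAD.H21 Fermat.Agent.RED.H17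

/-- **The body of `Stmt_CoordMod p`** at `A`, at the level `N = 1 * p`. -/
theorem coordMod_level (hTot : Stmt_TotMod) {p : ℕ} (hCusp : Stmt_CoordCusp p)
    (hF0 : Stmt_CoordF0 p) (hMult : Stmt_CoordMult) (hp : p.Prime) (h5 : 5 ≤ p)
    (A : ValuationSubring (AlgebraicClosure ℚ)) (hA : A.LiesOverPrime p) (N : ℕ)
    (hN : N = 1 * p) :
    ∃ (F₁ F₂ : Type) (_ : Field F₁) (_ : Algebra (kV A) F₁) (_ : Field F₂)
      (_ : Algebra (kV A) F₂)
      (S : SSD (AlgebraicClosure ℚ) ↥(FNbar N) (kV A) F₁ F₂)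
      (_ : RED.H17.FFHyp (AlgebraicClosure ℚ) ↥(FNbar N)) (_ : RED.H17.FFHyp (kV A) F₁)
      (_ : RED.H17.FFHyp (kV A) F₂) (g g₁ g₂ : ℕ) (c c₁ c₂ : ℤ),
      RED.H17.IsGenus (AlgebraicClosure ℚ) ↥(FNbar N) g c ∧
      RED.H17.IsGenus (kV A) F₁ g₁ c₁ ∧ RED.H17.IsGenus (kV A) F₂ g₂ c₂ ∧
      g + 1 ≤ g₁ + g₂ + S.nodes.card ∧
      (∀ f : ↥(FNbar N), f ∈ gaussV A N → f ∈ S.c₁.V) ∧
      (∀ (f : ↥(gaussV A N)) (hf : (f : ↥(FNbar N)) ∈ S.c₁.V), gaussRes A N f = 1 →
        S.c₁.red ⟨(f : ↥(FNbar N)), hf⟩ = 1) ∧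
      (∀ σ ∈ A.inertiaSubgroupIn ℚ, S.IsInertial (galF N σ)) ∧
      g₁ = 0 ∧
      ∃ e : Place (kV A) F₁ × Place (kV A) F₂ → ℕ,
        (∀ s ∈ S.nodes, 0 < e s ∧
          ∃ t : ↥(FNbar N), S.IsAnnCoord s t ((p : AlgebraicClosure ℚ) ^ e s) ∧
            ∀ σ ∈ A.inertiaSubgroupIn ℚ, galF N σ • t = t) ∧
        (∀ r : ℕ, r.Prime → ∀ s ∈ S.nodes, ∀ s' ∈ S.nodes, r ∣ e s → r ∣ e s' → s = s') := by
  subst hN
  haveI : NeZero p := ⟨hp.ne_zero⟩
  haveI : NeZero (1 * p) := ⟨by rw [one_mul]; exact hp.ne_zero⟩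
  haveI : IsAlgClosed (kV A) := isAlgClosed_kV A
  have hqM : ¬ p ∣ 1 := fun h => hp.one_lt.ne' (Nat.dvd_one.mp h)
  have ht : TameAt 1 p := Or.inl h5
  have hab : (0 : ℤ) * p + 1 * ((1 : ℕ) : ℤ) = 1 := by simp
  -- function fields, Riemann's theorem
  have hFFL : IsFF Kbar ↥(FNbar (1 * p)) := H95.stmt_HKA_isFF (1 * p)
  have hFF1 : IsFF (kV A) (F1 A p 1) := isFF_F1 0 1 hab hp hA hqM ht
  have H := RED.H17.ffHyp_of_isFF _ _ hFFL
  have H₁ := RED.H17.ffHyp_of_isFF _ _ hFF1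
  obtain ⟨g, c, hg⟩ := RED.H17.exists_isGenus _ _ hFFL
  obtain ⟨g₁, c₁, hg₁⟩ := RED.H17.exists_isGenus _ _ hFF1
  have hg₁' : RED.H17.IsGenus (kV A) ↥(H91.redM A 1) g₁ c₁ :=
    isGenus_congr (H82.redField_eq_redField p 1 0 1 hab hp A hA) hg₁
  -- NUM
  obtain ⟨Z, hZne, hZc, hZo, hnum⟩ :=
    Fermat.Agent.BAD.H30.num_final_tame 1 p hp ht hqM A hA (Dvd.intro_left 1 rfl)
  have hZ' : ∀ z ∈ Z.map (kappa A p 1 0 1 hab hp hA).symm.toEmbedding,
      (modTp 0 1 hab hp hA hqM ht hTot).IsNode z := by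
    intro z hz
    obtain ⟨z₀, hz₀, rfl⟩ := Finset.mem_map.mp hz
    exact isNode_modT 0 1 hab hp hA hqM ht _ _ _ z₀ (hZc z₀ hz₀) (hZo z₀ hz₀)
  have hnum' : g + 1 ≤ g₁ + g₁ + (Z.map (kappa A p 1 0 1 hab hp hA).symm.toEmbedding).card := by
    rw [Finset.card_map]
    exact Fermat.Agent.BAD.H17.genus_ineq hp hqM ht hA hg hg₁' Z.card hnum
  have hne : ∃ z, (modTp 0 1 hab hp hA hqM ht hTot).IsNode z := by
    obtain ⟨z, hz⟩ := hZne.map (f := (kappa A p 1 0 1 hab hp hA).symm.toEmbedding)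
    exact ⟨z, hZ' z hz⟩
  have hzeros : H59.ZerosStmt (kV A) (F1 A p 1) := RED.H42.zerosAll _ _ hFF1
  have hg₁0 : g₁ = 0 :=
    rat_genus_eq_zero H₁ hzeros (transcendental_jTil A p) (adjoin_jTil A p 0 1 hab hp hA) hg₁
  have key : ∀ s : Place (kV A) (F1 A p 1) × Place (kV A) (F1 A p 1),
      s ∈ (modSp 0 1 hab hp hA hqM ht hTot H H₁ hne).nodes →
      ∃ n : ℕ, 0 < n ∧
        (∃ t : FN (1 * p),
          (modSp 0 1 hab hp hA hqM ht hTot H H₁ hne).IsAnnCoord s t ((p : Kbar) ^ n) ∧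
            ∀ σ ∈ A.inertiaSubgroupIn ℚ, galF (1 * p) σ • t = t) ∧
        ∃ β₀ : kV A, VanAt s.1 (jTil A p - algebraMap (kV A) (F1 A p 1) β₀) ∧
          (n = 1 ∨ (n = 3 ∧ β₀ = 0) ∨ (n = 2 ∧ β₀ = 1728)) :=
    fun s hs => node_coord 0 1 hab hp hA hqM ht hTot hCusp h5 H H₁ hne hF0 hMult hs
  choose! e he using key
  refine ⟨F1 A p 1, F1 A p 1, inferInstance, inferInstance, inferInstance, inferInstance,
    modSp 0 1 hab hp hA hqM ht hTot H H₁ hne, H, H₁, H₁, g, g₁, g₁, c, c₁, c₁, hg, hg₁, hg₁,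
    ?_, ?_, ?_, ?_, hg₁0, e, ?_, ?_⟩
  · have h1 := (modTp 0 1 hab hp hA hqM ht hTot).card_le_toSSD_nodes H.principal H.deg_one
      H₁.principal H₁.deg_one H₁.deg_one hne _ hZ'
    have h2 : (Z.map (kappa A p 1 0 1 hab hp hA).symm.toEmbedding).card
        ≤ (modSp 0 1 hab hp hA hqM ht hTot H H₁ hne).nodes.card := h1
    omega
  · intro f hf
    exact hf
  · intro f hf h1
    exact h1
  · intro s hs
    exact (inert_totDataOf A p 1 0 1 hab hp hA _ _ _ _ hs
      (fun P => rhoF1_inertia 0 1 hab hp hA hqM ht hs P)).isInertial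
      H.principal H.deg_one H₁.principal H₁.deg_one H₁.deg_one hne
  · intro s hs
    obtain ⟨hn0, ⟨t, ht1, ht2⟩, -⟩ := he s hs
    exact ⟨hn0, t, ht1, ht2⟩
  · intro r hr s hs s' hs' hrs hrs'
    obtain ⟨-, -, β₀, hβ₀, hcase⟩ := he s hs
    obtain ⟨-, -, β₀', hβ₀', hcase'⟩ := he s' hs'
    have hr1 : ¬ r ∣ 1 := fun h => hr.one_lt.ne' (Nat.dvd_one.mp h)
    have h23 : ¬ (r ∣ 3 ∧ r ∣ 2) := fun h => hr1 (by
      have := Nat.dvd_sub h.1 h.2
      simpa using this)
    have hβ : β₀ = β₀' := by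
      rcases hcase with h | ⟨h, hb⟩ | ⟨h, hb⟩ <;> rcases hcase' with h' | ⟨h', hb'⟩ | ⟨h', hb'⟩
      · exact absurd (h ▸ hrs) hr1
      · exact absurd (h ▸ hrs) hr1
      · exact absurd (h ▸ hrs) hr1
      · exact absurd (h' ▸ hrs') hr1
      · rw [hb, hb']
      · exact absurd ⟨h ▸ hrs, h' ▸ hrs'⟩ h23
      · exact absurd (h' ▸ hrs') hr1
      · exact absurd ⟨h' ▸ hrs', h ▸ hrs⟩ h23
      · rw [hb, hb']
    rw [← hβ] at hβ₀'
    have h1 : s.1 = s'.1 :=
      rat_place_ext hzeros (transcendental_jTil A p) (adjoin_jTil A p 0 1 hab hp hA) hβ₀ hβ₀'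
    exact (modSp 0 1 hab hp hA hqM ht hTot H H₁ hne).inj₁ s hs s' hs' h1

/-- **COORD, modular form, from its leaves.** -/
theorem stmt_CoordMod_of (hTot : Stmt_TotMod) {p : ℕ} (hCusp : Stmt_CoordCusp p)
    (hF0 : Stmt_CoordF0 p) (hMult : Stmt_CoordMult) (hp : p.Prime) (h5 : 5 ≤ p) :
    Stmt_CoordMod p :=
  fun A hA => coordMod_level hTot hCusp hF0 hMult hp h5 A hA p (one_mul p).symm

end Fermat.Agent.S15.Desc.H67

end
end
-- ==== END Fermat.Agent.S15.Desc.H67_CoordModE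

-- ==== BEGIN Fermat.Agent.S15.Desc.H69_Final
section

/-!
# S15 / DESC: `Stmt_selB p` from the leaves that are still open (helper69)

Everything that is landed is plugged into `stmt_selB_of_leaves` (`H69_Main.lean`):

* (cuspNe), (cuspTors) : helper26, helper30;  (GH) : helper2;
* the bridges (FIN), (GAL), (DIV), (PROJ), (ES), (LOC-ℓ), (EXP) : helper87 (`H87_Leaves.lean`);
* (LOC-U), all `r` : G-FL (`FL.H36.stmt_FLTameC`), helper66 (FL-x), helper40 (Fontaine), here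
  `stmt_LOCU`, `stmt_LOCUTwo`;
* (B1) at `(p, p)` : the BAD chain (helper91 and the BAD team), here `stmt_B1_level`;
* (VT) by helper63's count `H63.stmt_VT_of_count`.

`stmt_selB_final` : what is left is, for the primes `r ∣ p - 1`, (GLUE-dim), (FIX) and (NUM-∞).
-/

set_option autoImplicit false
set_option linter.style.haveILetI false

noncomputable section

open ModularCurve Module

namespace Fermat.Agent.S15.Desc.H69F

open Fermat.Agent.S15 Fermat.Agent.S15.Desc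

/-- **FL-x** (helper66, from the main theorem of G-FL). -/
theorem stmt_FlatKummer : H40.Stmt_FlatKummer :=
  H66.stmt_FlatKummer_of_tameC Fermat.Agent.FL.H36.stmt_FLTameC

/-- **(LOC-U)**, `r` odd. -/
theorem stmt_LOCU {p r : ℕ} [NeZero p] (hr : r.Prime) (hr2 : r ≠ 2) (hrp : ¬ r ∣ p) :
    Stmt_LOCU p r :=
  haveI : Fact r.Prime := ⟨hr⟩
  H40.stmt_LOCU_of_flatKummer stmt_FlatKummer hr2 (H87.stmt_GALfin p) hrp

/-- **(LOC-U)** at `2`. -/
theorem stmt_LOCUTwo {p : ℕ} [NeZero p] (h2p : ¬ 2 ∣ p) : Stmt_LOCUTwo p :=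
  H40.stmt_LOCUTwo_of_flatKummer stmt_FlatKummer (H87.stmt_GALfin p) h2p

/-- The law of total conservation for the modular datum of level `M q` (helper23's `tot_mod`
at helper82's identification (D)). -/
theorem stmt_TotMod : Fermat.Agent.BAD.H91.Stmt_TotMod :=
  fun A q M a b hab hq _ _ hA hqM ht =>
    Fermat.Agent.BAD.H23.tot_mod A q M a b hab hq hA hqM ht
      (Fermat.Agent.BAD.H82.redField_eq_fullC q M a b hab hq A hA)

/-- The semistable Deuring datum of `X₀(p)` at `p ≥ 5`. -/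
theorem stmt_ModSSD_level (p : ℕ) [NeZero p] (hp : p.Prime) (h5 : 5 ≤ p) :
    Fermat.Agent.BAD.Stmt_ModSSD p p := by
  refine Fermat.Agent.BAD.H91.modSSD_tame_of stmt_TotMod p p hp dvd_rfl ?_ (Or.inl h5)
  intro h
  have h1 := Nat.le_of_dvd hp.pos h
  have h2 : p * 2 ≤ p ^ 2 := by
    rw [pow_two]
    exact Nat.mul_le_mul_left p hp.two_le
  omega

/-- **(B1)** at `(p, p)`, `p ≥ 5`: the inertia group at `p` acts trivially on the toric part
`K1(n)` of `J₀(p)[n]`. -/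
theorem stmt_B1_level (p : ℕ) [NeZero p] (hp : p.Prime) (h5 : 5 ≤ p) :
    Fermat.Agent.BAD.Stmt_B1 p p :=
  Fermat.Agent.BAD.H91.b1_of_core p
    (Fermat.Agent.BAD.H91.b1core_of_ABS p Fermat.Agent.BAD.stmt_ABS hp
      (stmt_ModSSD_level p hp h5))

/-- The geometry at `p` for the descent prime `r` (helper63's route 2). -/
structure VtLeaves (p r : ℕ) : Prop where
  glue : H63.Stmt_GLUEdim p r
  fix : H63.Stmt_FIX p r

/-- **DESC, final form**: `Stmt_selB p` from the leaves that are still open. -/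
theorem stmt_selB_final (p : ℕ) [NeZero p] (hp : p.Prime)
    (hp' : p ∉ ({2, 3, 5, 7, 13} : Finset ℕ))
    (hvt : ∀ r : ℕ, r.Prime → r ∣ p - 1 → VtLeaves p r)
    (hnum : ∀ (r : ℕ) (hr : r.Prime), r ∣ p - 1 → r ≠ 2 →
      haveI : NeZero r := ⟨hr.ne_zero⟩; Stmt_NUMinfOdd p r)
    (hnum2 : 2 ∣ p - 1 → Stmt_NUMinfTwo p) : Stmt_selB p := by
  have hFIN := H87.stmt_FIN p
  have hGAL := H87.stmt_GALfin p
  have hGH := Fermat.Agent.S15.H2.stmt_GH p
  have h5 : 5 ≤ p := by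
    have hp2 := hp.two_le
    have h4 : p ≠ 4 := by
      rintro rfl
      exact absurd hp (by decide)
    have h2 : p ≠ 2 := fun h => hp' (by simp [h])
    have h3 : p ≠ 3 := fun h => hp' (by simp [h])
    omega
  have hB1 := stmt_B1_level p hp h5
  have hne_of : ∀ r : ℕ, r ∣ p - 1 → p ≠ r := by
    intro r hrd h
    have hp2 := hp.two_le
    have := Nat.le_of_dvd (by omega) hrd
    omega
  have hndvd : ∀ r : ℕ, r.Prime → r ∣ p - 1 → ¬ r ∣ p := by
    intro r hr hrd hd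
    exact hne_of r hrd ((Nat.prime_dvd_prime_iff_eq hr hp).1 hd).symm
  refine stmt_selB_of_leaves p hp (Fermat.Agent.S15.H26.stmt_cuspNe p hp hp')
    (Fermat.Agent.S15.H30.stmt_cuspTors p hp) hFIN hGAL hGH ?_ ?_
  · intro r hr hrd hr2
    haveI : NeZero r := ⟨hr.ne_zero⟩
    have V := hvt r hr hrd
    exact
      { div := H87.stmt_DIV p r hr.ne_zero
        proj := H87.stmt_PROJ p r hr.pos
        es := H87.stmt_ESr hp hr
        locl := H87.stmt_LOCl hp hr
        exp := H87.stmt_EXP hp hr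
        locu := stmt_LOCU hr hr2 (hndvd r hr hrd)
        vt := H63.stmt_VT_of_count hp hr (hne_of r hrd) hFIN hGAL hGH hB1 V.glue V.fix
        num := hnum r hr hrd hr2 }
  · intro h2 hp2
    have V := hvt 2 Nat.prime_two h2
    exact
      { div := H87.stmt_DIV p 2 two_ne_zero
        proj := H87.stmt_PROJ p 2 two_pos
        es := H87.stmt_ESr hp Nat.prime_two
        locl := H87.stmt_LOCl hp Nat.prime_two
        exp := H87.stmt_EXP hp Nat.prime_two
        locu := stmt_LOCUTwo (hndvd 2 Nat.prime_two h2)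
        vt := H63.stmt_VT_of_count hp Nat.prime_two (hne_of 2 h2) hFIN hGAL hGH hB1 V.glue V.fix
        num := hnum2 h2 }

end Fermat.Agent.S15.Desc.H69F

end
end
-- ==== END Fermat.Agent.S15.Desc.H69_Final

-- ==== BEGIN Fermat.Agent.S15.Desc.H83_GlueFinal
section

/-!
# S15 / DESC, leaf GLUE-dim (helper83): the final statement

`stmt_GLUEdim p r : H63.Stmt_GLUEdim p r` for primes `p ≥ 5`, `r ≠ p`: the toric part
`T = span K1(r)` of `J₀(p)[r]` satisfies `2 dim T ≤ dim J₀(p)[r]`.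

Inputs: the relation between `δ` Kummer classes (`H83_GlueCore`, `H83_GlueRel`), the abstract
genus formula (`H83_GlueNodes`), the modular semistable Deuring datum of level `p` (BAD, helper91
and team) and the rank of the torsion (TORS-RANK, helper26).
-/

set_option autoImplicit false
set_option linter.style.haveILetI false

namespace Fermat.Agent.S15.Desc.H83

/-- **(GLUE-dim)**, unconditional. -/
theorem stmt_GLUEdim (p r : ℕ) (hp : p.Prime) (hp5 : 5 ≤ p) (hr : r.Prime) (hpr : p ≠ r) :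
    H63.Stmt_GLUEdim p r :=
  haveI : NeZero p := ⟨hp.ne_zero⟩
  haveI : Fact r.Prime := ⟨hr⟩
  stmt_GLUEdim_of_rank p r hp hp5 hr hpr (H26.finrank_torsR_ge p r)

end Fermat.Agent.S15.Desc.H83

end
-- ==== END Fermat.Agent.S15.Desc.H83_GlueFinal

-- ==== BEGIN Fermat.Agent.S15.H67_BridgeFinal
section

set_option autoImplicit false

namespace Fermat.Agent.S15.H67

/-- (BRIDGE) from (B3). -/
theorem bridge'_of_B3 (hB3 : Stmt_B3) (p : ℕ) [NeZero p] (hp : p.Prime) (hp2 : p ≠ 2) :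
    Stmt_bridge' p :=
  bridge'_of_inputs Fermat.Agent.S15.H63.stmt_BRdef Fermat.Agent.S15.H11.stmt_BRval stmt_BRan
    Fermat.Agent.S15.H30.stmt_BRplace
    (Fermat.Agent.S15.H63.brnewton_dich Fermat.Agent.S15.H23.stmt_modEq)
    (Fermat.Agent.S15.H63.brnewton_uniq Fermat.Agent.S15.H23.stmt_modEq)
    Fermat.Agent.S15.H63.stmt_BRgal hB3 p hp hp2

end Fermat.Agent.S15.H67

end
-- ==== END Fermat.Agent.S15.H67_BridgeFinal

-- ==== BEGIN Fermat.Agent.S15.Desc.H67_CoordModF0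
section

/-!
# S15 DESC, leaf COORD (helper67): `Stmt_CoordMod p` for every prime `p ≥ 5`, from F0

Leaves discharged: TOT-MOD (helper23), CUSP (helper69), MULT (helper87), UNIT-W (helper21).
Remaining input: F0 (helper63, from DISC of helper87).
-/

set_option autoImplicit false

namespace Fermat.Agent.S15.Desc.H67

/-- The law of total conservation for the modular datum of level `M q` (helper23). -/
theorem stmt_TotMod_h67 : Fermat.Agent.BAD.H91.Stmt_TotMod :=
  fun A q M a b hab hq _ _ hA hqM ht =>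
    Fermat.Agent.BAD.H23.tot_mod A q M a b hab hq hA hqM ht
      (Fermat.Agent.BAD.H82.redField_eq_fullC q M a b hab hq A hA)

/-- **COORD, modular form**, from (F0). -/
theorem stmt_CoordMod_of_F0 {p : ℕ} (hF0 : Stmt_CoordF0 p) (hp : p.Prime) (h5 : 5 ≤ p) :
    Stmt_CoordMod p :=
  stmt_CoordMod_of stmt_TotMod_h67 (Fermat.Agent.S15.Desc.H69C.stmt_CoordCusp p) hF0
    Fermat.Agent.S15.Desc.H87.stmt_CoordMult hp h5

end Fermat.Agent.S15.Desc.H67

end
-- ==== END Fermat.Agent.S15.Desc.H67_CoordModF0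

-- ==== BEGIN Fermat.Agent.S15.H83_Bridge
section

/-!
# S15, package BRIDGE: the unconditional statement

`stmt_bridge' p : Stmt_bridge' p` for every odd prime `p`
(helper67's assembly `bridge'_of_B3` + helper83's `stmt_B3`).
-/

set_option autoImplicit false

namespace Fermat.Agent.S15.H83

/-- **BRIDGE** (Fricke-dual form), unconditional. -/
theorem stmt_bridge' (p : ℕ) [NeZero p] (hp : p.Prime) (hp2 : p ≠ 2) : Stmt_bridge' p :=
  Fermat.Agent.S15.H67.bridge'_of_B3 Fermat.Agent.S15.B3.stmt_B3 p hp hp2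

end Fermat.Agent.S15.H83

end
-- ==== END Fermat.Agent.S15.H83_Bridge

-- ==== BEGIN Fermat.Agent.S15.Desc.H69_Final2
section

/-!
# S15 DESC: `Stmt_selB p` from the modular coordinates (helper69)

All leaves of the descent are plugged in, except (COORD) = `H67.Stmt_CoordMod p`, resp. its last
open sub-leaf (F0) = `H67.Stmt_CoordF0 p`:

* `stmt_selB_of_coordMod : H67.Stmt_CoordMod p → Stmt_selB p`;
* `stmt_selB_of_F0 : H67.Stmt_CoordF0 p → Stmt_selB p`.

Inputs: (GLUE-dim) `H83.stmt_GLUEdim`, (FIX) `H63.stmt_FIX_of_coordMod`, (NUM-∞) odd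
`H26.stmt_NUMinfOdd`, (NUM-∞) at `2` `H99.stmt_NUMinfTwo`, and `H69F.stmt_selB_final`.
-/

set_option autoImplicit false
set_option linter.style.haveILetI false
set_option linter.unusedSectionVars false
set_option linter.unusedVariables false
set_option synthInstance.maxHeartbeats 400000
set_option maxHeartbeats 1000000

namespace Fermat.Agent.S15.Desc.H69F

/-- `5 ≤ p` for a prime `p ∉ {2, 3, 5, 7, 13}`. -/
theorem five_le_of_not_mem {p : ℕ} (hp : p.Prime) (hp' : p ∉ ({2, 3, 5, 7, 13} : Finset ℕ)) :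
    5 ≤ p := by
  have hp2 := hp.two_le
  have h4 : p ≠ 4 := by
    rintro rfl
    exact absurd hp (by decide)
  have h2 : p ≠ 2 := fun h => hp' (by simp [h])
  have h3 : p ≠ 3 := fun h => hp' (by simp [h])
  omega

/-- **DESC from (COORD)**: `Stmt_selB p` from the modular coordinates at `p`. -/
theorem stmt_selB_of_coordMod (p : ℕ) [NeZero p] (hp : p.Prime)
    (hp' : p ∉ ({2, 3, 5, 7, 13} : Finset ℕ)) (hC : H67.Stmt_CoordMod p) : Stmt_selB p := by
  have h5 : 5 ≤ p := five_le_of_not_mem hp hp'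
  refine stmt_selB_final p hp hp' ?_ ?_ ?_
  · intro r hr hrd
    have hpr : p ≠ r := by
      intro h
      have hp2 := hp.two_le
      have := Nat.le_of_dvd (by omega) hrd
      omega
    exact ⟨H83.stmt_GLUEdim p r hp h5 hr hpr, H63.stmt_FIX_of_coordMod hp hr (H87.stmt_FIN p) hC⟩
  · intro r hr hrd hr2
    haveI : NeZero r := ⟨hr.ne_zero⟩
    exact H26.stmt_NUMinfOdd p r hp hr hr2
  · intro _
    exact H99.stmt_NUMinfTwo p hp

/-- **DESC from (F0)**: `Stmt_selB p` from the last open sub-leaf of (COORD). -/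
theorem stmt_selB_of_F0 (p : ℕ) [NeZero p] (hp : p.Prime)
    (hp' : p ∉ ({2, 3, 5, 7, 13} : Finset ℕ)) (hF0 : H67.Stmt_CoordF0 p) : Stmt_selB p :=
  stmt_selB_of_coordMod p hp hp' (H67.stmt_CoordMod_of_F0 hF0 hp (five_le_of_not_mem hp hp'))

end Fermat.Agent.S15.Desc.H69F

end
-- ==== END Fermat.Agent.S15.Desc.H69_Final2

-- ==== BEGIN Fermat.Agent.S15.H83_Assemble
section

/-!
# S15: assembly of everything that is proved (helper83, wiring owner)

`result_of_open` : the frozen statement S15 from the leaves that are still open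
(`OpenLeaves p` = HR, SELB), all other inputs being theorems:
S18 (`Fermat.Agent.S18.result`), RI (helper17 + G-RED `stmt_RM`), CUSP-ex (helper22),
CUSP-gal / CUSP-tors (helper30), CUSP-eis (helper26 + helper2), GH (helper2),
BRIDGE (helper67 et al. + B3), FG (helper11).
-/

set_option autoImplicit false
set_option synthInstance.maxHeartbeats 400000

open WeierstrassCurve WeierstrassCurve.Affine
open WeierstrassCurve

namespace Fermat.Agent.S15

/-- The leaves of S15 which are still open. -/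
structure OpenLeaves (p : ℕ) [NeZero p] : Prop where
  HR : Stmt_HR p
  selB : Stmt_selB p

namespace H83

theorem stmt_S18 : Stmt_S18 := @Fermat.Agent.S18.result

theorem inputsSel_of_open (p : ℕ) [NeZero p] (hp : p.Prime)
    (hp' : p ∉ ({2, 3, 5, 7, 13} : Finset ℕ)) (h : OpenLeaves p) : InputsSel p where
  redInputs := Fermat.Agent.S15.H17.stmt_redInputs_of Fermat.Agent.RED.H51.stmt_RM hp
  redFG := Fermat.Agent.S15.FG.H11.stmt_redFG hp
  cuspExists := Fermat.Agent.S15.H22.stmt_cuspExists p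
  cuspGal := Fermat.Agent.S15.H30.stmt_cuspGal p hp
  cuspTors := Fermat.Agent.S15.H30.stmt_cuspTors p hp
  eis := Fermat.Agent.S15.H40.stmt_eisDataSel_of_leaves p (Fermat.Agent.S15.H2.stmt_GH p) h.HR
    (Fermat.Agent.S15.H26.stmt_cuspEis p hp) h.selB
  bridge := stmt_bridge' p hp (fun e => hp' (by simp [e]))

/-- **S15 from the open leaves** (the statement below `hI` is the frozen statement, verbatim). -/
theorem result_of_open
    (hI : ∀ (p : ℕ) [NeZero p], p.Prime → p ∉ ({2, 3, 5, 7, 13} : Finset ℕ) → OpenLeaves p)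
    {p : ℕ} (hp : p.Prime) (hp' : p ∉ ({2, 3, 5, 7, 13} : Finset ℕ))
    (W : WeierstrassCurve ℤ) (hΔ : W.Δ ≠ 0)
    (Q : ((W.map (Int.castRingHom ℚ))⁄(AlgebraicClosure ℚ)).Point)
    (hQfix : ∀ σ : AlgebraicClosure ℚ ≃ₐ[ℚ] AlgebraicClosure ℚ, σ • Q = Q)
    (hQord : addOrderOf Q = p)
    (h2Δ : (2 : ℤ) ∣ W.Δ) (h2c₄ : ¬ (2 : ℤ) ∣ W.c₄)
    (h2 : ∀ A : ValuationSubring (AlgebraicClosure ℚ), A.LiesOverPrime 2 → ¬ W.InZeroComponentAt A Q)
    (h3Δ : (3 : ℤ) ∣ W.Δ) (h3c₄ : ¬ (3 : ℤ) ∣ W.c₄)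
    (h3 : ∀ A : ValuationSubring (AlgebraicClosure ℚ), A.LiesOverPrime 3 → ¬ W.InZeroComponentAt A Q)
    {ℓ : ℕ} (hℓ : ℓ.Prime) (hℓp : ℓ ≠ p) (hℓΔ : (ℓ : ℤ) ∣ W.Δ) (hℓc₄ : ¬ (ℓ : ℤ) ∣ W.c₄)
    (A : ValuationSubring (AlgebraicClosure ℚ)) (hA : A.LiesOverPrime ℓ) :
    ¬ W.InZeroComponentAt A Q :=
  Fermat.Agent.S15.H40.result_of_inputsSel stmt_S18
    (fun p _ hp hp' => inputsSel_of_open p hp hp' (hI p hp hp'))
    hp hp' W hΔ Q hQfix hQord h2Δ h2c₄ h2 h3Δ h3c₄ h3 hℓ hℓp hℓΔ hℓc₄ A hA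

end H83

end Fermat.Agent.S15

end
-- ==== END Fermat.Agent.S15.H83_Assemble

-- ==== BEGIN Fermat.Agent.S15.Desc.H69_SelBFinal
section

/-!
# S15 DESC: `Stmt_selB p`, unconditional (helper69)

`stmt_selB_uncond p hp hp' : Stmt_selB p` for every prime `p ∉ {2, 3, 5, 7, 13}`: all leaves of the
descent are plugged in (`H69F.stmt_selB_of_F0` and helper63's `H63F.stmt_CoordF0`).
-/

set_option autoImplicit false

namespace Fermat.Agent.S15.Desc.H69F

/-- **DESC, unconditional**: `Stmt_selB p` for every prime `p ∉ {2, 3, 5, 7, 13}`. -/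
theorem stmt_selB_uncond (p : ℕ) [NeZero p] (hp : p.Prime)
    (hp' : p ∉ ({2, 3, 5, 7, 13} : Finset ℕ)) : Stmt_selB p :=
  stmt_selB_of_F0 p hp hp' (Fermat.Agent.S15.Desc.H63F.stmt_CoordF0 p)

end Fermat.Agent.S15.Desc.H69F

end
-- ==== END Fermat.Agent.S15.Desc.H69_SelBFinal

-- ==== BEGIN Fermat.Agent.S15.H83_Final
section

/-!
# S15: the statement from the core of (HR) alone  (helper83, row owner)

Everything of S15 is proved except `RED.H51.Stmt_HRcore` (the kernel of the reduction map on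
divisors is stable under the Hecke correspondences `T_s`):

* (selB) = package DESC : `Desc.H69F.stmt_selB_uncond` (helper69 and the DESC team);
* (HR) : `RED.H51.stmt_HR_of_core` (helper51) from `Stmt_HRcore`.

`result_of_core : RED.H51.Stmt_HRcore → <frozen S15>`.
-/

set_option autoImplicit false
open WeierstrassCurve WeierstrassCurve.Affine
open WeierstrassCurve

namespace Fermat.Agent.S15.H83

/-- The two open leaves of `H83_Assemble`, from the core of (HR). -/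
theorem openLeaves_of_core (hcore : Fermat.Agent.RED.H51.Stmt_HRcore) (p : ℕ) [NeZero p]
    (hp : p.Prime) (hp' : p ∉ ({2, 3, 5, 7, 13} : Finset ℕ)) : OpenLeaves p where
  HR := Fermat.Agent.RED.H51.stmt_HR_of_core hcore p hp
  selB := Fermat.Agent.S15.Desc.H69F.stmt_selB_uncond p hp hp'

/-- **S15 from the core of (HR)** (the statement below `hcore` is the frozen statement). -/
theorem result_of_core (hcore : Fermat.Agent.RED.H51.Stmt_HRcore)
    {p : ℕ} (hp : p.Prime) (hp' : p ∉ ({2, 3, 5, 7, 13} : Finset ℕ))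
    (W : WeierstrassCurve ℤ) (hΔ : W.Δ ≠ 0)
    (Q : ((W.map (Int.castRingHom ℚ))⁄(AlgebraicClosure ℚ)).Point)
    (hQfix : ∀ σ : AlgebraicClosure ℚ ≃ₐ[ℚ] AlgebraicClosure ℚ, σ • Q = Q)
    (hQord : addOrderOf Q = p)
    (h2Δ : (2 : ℤ) ∣ W.Δ) (h2c₄ : ¬ (2 : ℤ) ∣ W.c₄)
    (h2 : ∀ A : ValuationSubring (AlgebraicClosure ℚ), A.LiesOverPrime 2 → ¬ W.InZeroComponentAt A Q)
    (h3Δ : (3 : ℤ) ∣ W.Δ) (h3c₄ : ¬ (3 : ℤ) ∣ W.c₄)
    (h3 : ∀ A : ValuationSubring (AlgebraicClosure ℚ), A.LiesOverPrime 3 → ¬ W.InZeroComponentAt A Q)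
    {ℓ : ℕ} (hℓ : ℓ.Prime) (hℓp : ℓ ≠ p) (hℓΔ : (ℓ : ℤ) ∣ W.Δ) (hℓc₄ : ¬ (ℓ : ℤ) ∣ W.c₄)
    (A : ValuationSubring (AlgebraicClosure ℚ)) (hA : A.LiesOverPrime ℓ) :
    ¬ W.InZeroComponentAt A Q :=
  result_of_open (fun p _ hp hp' => openLeaves_of_core hcore p hp hp')
    hp hp' W hΔ Q hQfix hQord h2Δ h2c₄ h2 h3Δ h3c₄ h3 hℓ hℓp hℓΔ hℓc₄ A hA

end Fermat.Agent.S15.H83

end
-- ==== END Fermat.Agent.S15.H83_Final
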