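-- GENERATED (merged mirror, NOTES/tools/trim/merge3_helper67.py): 10 modules of the originals, bodies verbatim.
import Mathlib
import Fermat.Prelude.Def_EllipticCurve_FrobeniusTrace
import Fermat.Agent.Zm.S44_L01_002
import Fermat.Agent.Zm.S35_L01_003
import Fermat.Agent.Zm.S44_L02_002
import Fermat.Agent.Zm.S44_L04_000
import Fermat.Agent.Zm.S15_L01_000
import Fermat.Agent.Zm.S15_L02_000
import Fermat.Agent.Zm.S44_L03_001
import Fermat.Agent.Zm.S44_L04_001

-- ==== BEGIN Fermat.Agent.S05.Wiring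
section

/-!
# S05: final wiring (helper37)

`Stmt_core`, `Stmt_transfer`, `Stmt_inertia`, `Stmt_arith` together give the frozen statement
`P.GaloisRepUnramifiedAt q` for every odd prime `q ≠ P.p`.
-/

set_option autoImplicit false

namespace Fermat.Agent.S05

open WeierstrassCurve WeierstrassCurve.Affine WeierstrassCurve.Affine.Point

/-- Final wiring of S05 from the four interface statements. -/
theorem wiring (hcore : Stmt_core) (htr : Stmt_transfer) (hin : Stmt_inertia)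
    (har : Stmt_arith) (P : FreyPackage) {q : ℕ} (hq : q.Prime) (hq2 : q ≠ 2) (hqp : q ≠ P.p) :
    P.GaloisRepUnramifiedAt q := by
  intro A hA σ hσ x
  obtain ⟨e, c, he, hyp, hp1, hc⟩ := har P q hq hq2 hqp A hA
  obtain ⟨Φ, hΦ⟩ := htr P.freyCurve rfl rfl rfl e he
  obtain ⟨hval, hres⟩ := hin A σ hσ
  have hx : (P.p : ℤ) • x.1 = 0 := by
    have := x.2
    rwa [Submodule.mem_torsionBy_iff] at this
  have hΦx : (P.p : ℤ) • Φ x.1 = 0 :=
    (map_zsmul Φ (P.p : ℤ) x.1).symm.trans ((congrArg Φ hx).trans (map_zero Φ))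
  have hfix : σ • Φ x.1 = Φ x.1 :=
    hcore ℚ (AlgebraicClosure ℚ) A (modelOf P.freyCurve e) hyp P.p P.hp_odd hp1 c hc
      σ hval hres (Φ x.1) hΦx
  apply Subtype.ext
  apply Φ.injective
  exact (hΦ σ x.1).trans hfix

end Fermat.Agent.S05

end
-- ==== END Fermat.Agent.S05.Wiring

-- ==== BEGIN Fermat.Agent.S12.Defs
section

set_option autoImplicit false

namespace Fermat.Agent.S12

open WeierstrassCurve WeierstrassCurve.Affine WeierstrassCurve.Affine.Point
open Fermat.Agent.S13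

/-- A Galois-stable cofixed line in `E[p]` (a witness of `HasGaloisStableCofixedLine`). -/
structure CofLine (P : FreyPackage) where
  N : Submodule (ZMod P.p) (Vp P)
  stable : IsGaloisStable ℚ N
  ne_bot : N ≠ ⊥
  ne_top : N ≠ ⊤
  cofixed : ∀ (σ : Gal) (x : Vp P), σ • x - x ∈ N

/-- The roots `e₀ = 0`, `e₁ = a^p`, `e₂ = -b^p` of the short model `y² = x (x - a^p) (x + b^p)`. -/
def eRoot (P : FreyPackage) : Fin 3 → ℤ := ![0, P.a ^ P.p, -(P.b ^ P.p)]

/-- `x_S(Q) - e_i`, where `x_S = 4 X` is the `x`-coordinate in the short model; `1` at `Q = 0`. -/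
noncomputable def xiFactor (P : FreyPackage) (i : Fin 3) : (P.freyCurve⁄Qbar).Point → Qbar
  | .zero => 1
  | .some x _ _ => 4 * x - ((eRoot P i : ℤ) : Qbar)

/-- `Ξ_i = ∏_{Q ∈ N, Q ≠ 0} (x_S(Q) - e_i)`. -/
noncomputable def Xi (P : FreyPackage) (N : Submodule (ZMod P.p) (Vp P)) (i : Fin 3) : Qbar :=
  ∏ᶠ Q : N, xiFactor P i ((Q : Vp P) : (P.freyCurve⁄Qbar).Point)

/-- All factors of the `Ξ_i` are units at `A`. -/
def UnitTypeAt (P : FreyPackage) (N : Submodule (ZMod P.p) (Vp P))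
    (A : ValuationSubring Qbar) : Prop :=
  ∀ Q : Vp P, Q ∈ N → Q ≠ 0 → ∀ i : Fin 3,
    A.valuation (xiFactor P i (Q : (P.freyCurve⁄Qbar).Point)) = 1

/-- No nonzero point of `N` reduces to the node at `A`: if the roots `e_i`, `e_j` collide
modulo `A` then `|x_S(Q) - e_i| ≥ 1`.  ("`N ⊆ E⁰` at `A`", "`N` is of `μ`-type at `A`".) -/
def NodeFreeAt (P : FreyPackage) (N : Submodule (ZMod P.p) (Vp P))
    (A : ValuationSubring Qbar) : Prop :=
  ∀ Q : Vp P, Q ∈ N → Q ≠ 0 → ∀ i j : Fin 3, i ≠ j →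
    A.valuation (((eRoot P i : ℤ) : Qbar) - ((eRoot P j : ℤ) : Qbar)) < 1 →
    1 ≤ A.valuation (xiFactor P i (Q : (P.freyCurve⁄Qbar).Point))

/-! ### Packages -/

/-- (KEY) the identity of the explicit quotient curve.  [helper11] -/
def Stmt_key : Prop :=
  ∀ (P : FreyPackage) (L : CofLine P),
    ((P.a : Qbar) ^ P.p) ^ P.p * Xi P L.N 2 ^ 2 + ((P.b : Qbar) ^ P.p) ^ P.p * Xi P L.N 1 ^ 2 =
      ((P.c : Qbar) ^ P.p) ^ P.p * Xi P L.N 0 ^ 2

/-- (RAT) the `Ξ_i` are nonzero rational numbers. -/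
def Stmt_rat : Prop :=
  ∀ (P : FreyPackage) (L : CofLine P) (i : Fin 3),
    ∃ r : ℚ, r ≠ 0 ∧ algebraMap ℚ Qbar r = Xi P L.N i

/-- (VAL-good) unit type at the odd primes of good reduction. -/
def Stmt_unit_good : Prop :=
  ∀ (P : FreyPackage) (L : CofLine P) (ℓ : ℕ), ℓ.Prime → ℓ ≠ 2 → ℓ ≠ P.p →
    ¬ (ℓ : ℤ) ∣ P.a * P.b * P.c →
    ∀ A : ValuationSubring Qbar, A.LiesOverPrime ℓ → UnitTypeAt P L.N A

/-- (VAL-mu) at an odd bad prime `ℓ ≠ p`, node-free implies unit type. -/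
def Stmt_unit_of_nodeFree : Prop :=
  ∀ (P : FreyPackage) (L : CofLine P) (ℓ : ℕ), ℓ.Prime → ℓ ≠ 2 → ℓ ≠ P.p →
    (ℓ : ℤ) ∣ P.a * P.b * P.c →
    ∀ A : ValuationSubring Qbar, A.LiesOverPrime ℓ → NodeFreeAt P L.N A → UnitTypeAt P L.N A

/-- (VAL-2) at `2`: `|x_S| = |4|`, `|x_S - A| = 1`, `|x_S + B| = |4|` on `N ∖ 0`.
(`N = E[p] ∩ E⁰` at `2` because inertia at `2` is unipotent and nontrivial.) -/
def Stmt_two : Prop :=
  ∀ (P : FreyPackage) (L : CofLine P) (A : ValuationSubring Qbar), A.LiesOverPrime 2 →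
    ∀ Q : Vp P, Q ∈ L.N → Q ≠ 0 →
      A.valuation (xiFactor P 0 (Q : (P.freyCurve⁄Qbar).Point)) = A.valuation (4 : Qbar) ∧
      A.valuation (xiFactor P 1 (Q : (P.freyCurve⁄Qbar).Point)) = 1 ∧
      A.valuation (xiFactor P 2 (Q : (P.freyCurve⁄Qbar).Point)) = A.valuation (4 : Qbar)

/-- (VAL-p) at `p`: `N ∖ 0` lies in the kernel of reduction. -/
def Stmt_p : Prop :=
  ∀ (P : FreyPackage) (L : CofLine P) (A : ValuationSubring Qbar), A.LiesOverPrime P.p →
    ∀ Q : Vp P, Q ∈ L.N → Q ≠ 0 → InE1 A (Q : (P.freyCurve⁄Qbar).Point)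

/-- (THREE) `3 ∣ abc`. -/
def Stmt_three : Prop :=
  ∀ (P : FreyPackage), 11 ≤ P.p → CofLine P → (3 : ℤ) ∣ P.a * P.b * P.c

/-- (STAR-3) node-free at `3`. -/
def Stmt_star_three : Prop :=
  ∀ (P : FreyPackage), 11 ≤ P.p → ∀ (L : CofLine P) (A : ValuationSubring Qbar),
    A.LiesOverPrime 3 → NodeFreeAt P L.N A

/-- (STAR-b) node-free at the bad primes `ℓ ≥ 5`, `ℓ ≠ p`.  This is where Mazur (S15) enters. -/
def Stmt_star : Prop :=
  ∀ (P : FreyPackage), 17 ≤ P.p → ∀ (L : CofLine P) (ℓ : ℕ), ℓ.Prime → 5 ≤ ℓ → ℓ ≠ P.p →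
    (ℓ : ℤ) ∣ P.a * P.b * P.c →
    ∀ A : ValuationSubring Qbar, A.LiesOverPrime ℓ → NodeFreeAt P L.N A

/-- (END) the final inequality. -/
def Stmt_end : Prop :=
  ∀ (A B C : ℤ) (p : ℕ), Odd p → 3 ≤ p → A + B = C → B ≠ 0 →
    16 ^ (p - 1) * (C ^ p - A ^ p) = B ^ p → False

end Fermat.Agent.S12

end
-- ==== END Fermat.Agent.S12.Defs

-- ==== BEGIN Fermat.Agent.S12.H11_Arith
section

set_option autoImplicit false

namespace Fermat.Agent.S12.H11

/-- `x = a u²` for a divisor `a` of `a₀`. -/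
def SqForm (a₀ x : ℤ) : Prop := ∃ a u : ℤ, a ∣ a₀ ∧ x = a * u ^ 2

lemma SqForm.descend {a₀ x : ℤ} {ℓ : ℤ} (hℓ : Prime ℓ) (h : SqForm a₀ x) (hx : ℓ ^ 2 ∣ x) :
    ∃ x', x = ℓ ^ 2 * x' ∧ SqForm a₀ x' := by
  obtain ⟨a, u, ha, rfl⟩ := h
  by_cases hu : ℓ ∣ u
  · obtain ⟨u', rfl⟩ := hu
    exact ⟨a * u' ^ 2, by ring, a, u', ha, rfl⟩
  · have hcop : IsCoprime (ℓ ^ 2) (u ^ 2) :=
      ((hℓ.coprime_iff_not_dvd).mpr hu).pow
    have hdvd : ℓ ^ 2 ∣ a := hcop.dvd_of_dvd_mul_right hx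
    obtain ⟨a', rfl⟩ := hdvd
    exact ⟨a' * u ^ 2, by ring, a', u, (Dvd.intro_left _ rfl).trans ha, rfl⟩

lemma SqForm.sq_dvd {a₀ x : ℤ} {ℓ : ℤ} (hℓ : Prime ℓ) (h : SqForm a₀ x) (ha : ¬ ℓ ∣ a₀)
    (hx : ℓ ∣ x) : ℓ ^ 2 ∣ x := by
  obtain ⟨a, u, hadvd, rfl⟩ := h
  have ha' : ¬ ℓ ∣ a := fun h => ha (h.trans hadvd)
  have hu : ℓ ∣ u := by
    rcases hℓ.dvd_or_dvd hx with h | h
    · exact absurd h ha'
    · exact hℓ.dvd_of_dvd_pow h
  exact Dvd.dvd.mul_left (pow_dvd_pow_of_dvd hu 2) a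

/-- The structure preserved by the descent. -/
structure SqTriple (a b c α β γ : ℤ) : Prop where
  sum : α + β = γ
  hα : SqForm a α
  hβ : SqForm b β
  hγ : SqForm c γ

lemma SqTriple.descend {a b c α β γ : ℤ} (hab : IsCoprime a b) (hac : IsCoprime a c)
    (hbc : IsCoprime b c) (T : SqTriple a b c α β γ) {ℓ : ℤ} (hℓ : Prime ℓ)
    (h1 : ℓ ∣ α) (h2 : ℓ ∣ β) :
    ∃ α' β' γ', α = ℓ ^ 2 * α' ∧ β = ℓ ^ 2 * β' ∧ SqTriple a b c α' β' γ' := by
  have h3 : ℓ ∣ γ := T.sum ▸ dvd_add h1 h2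
  have hnu : ¬ IsUnit ℓ := hℓ.not_isUnit
  -- `ℓ²` divides all three
  have hall : ℓ ^ 2 ∣ α ∧ ℓ ^ 2 ∣ β ∧ ℓ ^ 2 ∣ γ := by
    by_cases ha : ℓ ∣ a
    · have hb : ¬ ℓ ∣ b := fun hb => hnu (hab.isUnit_of_dvd' ha hb)
      have hc : ¬ ℓ ∣ c := fun hc => hnu (hac.isUnit_of_dvd' ha hc)
      have hβ2 := T.hβ.sq_dvd hℓ hb h2
      have hγ2 := T.hγ.sq_dvd hℓ hc h3
      refine ⟨?_, hβ2, hγ2⟩
      have : α = γ - β := by rw [← T.sum]; ring
      rw [this]
      exact dvd_sub hγ2 hβ2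
    · have hα2 := T.hα.sq_dvd hℓ ha h1
      by_cases hb : ℓ ∣ b
      · have hc : ¬ ℓ ∣ c := fun hc => hnu (hbc.isUnit_of_dvd' hb hc)
        have hγ2 := T.hγ.sq_dvd hℓ hc h3
        refine ⟨hα2, ?_, hγ2⟩
        have : β = γ - α := by rw [← T.sum]; ring
        rw [this]
        exact dvd_sub hγ2 hα2
      · have hβ2 := T.hβ.sq_dvd hℓ hb h2
        exact ⟨hα2, hβ2, T.sum ▸ dvd_add hα2 hβ2⟩
  obtain ⟨α', hα', Fα⟩ := T.hα.descend hℓ hall.1
  obtain ⟨β', hβ', Fβ⟩ := T.hβ.descend hℓ hall.2.1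
  obtain ⟨γ', hγ', Fγ⟩ := T.hγ.descend hℓ hall.2.2
  refine ⟨α', β', γ', hα', hβ', ?_, Fα, Fβ, Fγ⟩
  have hℓ0 : ℓ ^ 2 ≠ 0 := pow_ne_zero _ hℓ.ne_zero
  apply mul_left_cancel₀ hℓ0
  rw [mul_add, ← hα', ← hβ', ← hγ', T.sum]

/-- **Primitive part.**  A triple `(a u², b v², c w²)`, `a u² + b v² = c w²`, with pairwise coprime
`a, b, c` and `a u² ≠ 0` is `h²` times a triple `(α', β', α' + β')` with `α', β'` coprime. -/
theorem SqTriple.exists_primitive {a b c : ℤ} (hab : IsCoprime a b) (hac : IsCoprime a c)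
    (hbc : IsCoprime b c) :
    ∀ (n : ℕ) (α β γ : ℤ), α.natAbs = n → α ≠ 0 → SqTriple a b c α β γ →
      ∃ h α' β' : ℤ, h ≠ 0 ∧ α = h ^ 2 * α' ∧ β = h ^ 2 * β' ∧ IsCoprime α' β' := by
  intro n
  induction n using Nat.strong_induction_on with
  | _ n ih =>
    intro α β γ hn hα0 T
    by_cases hcop : IsCoprime α β
    · exact ⟨1, α, β, one_ne_zero, by ring, by ring, hcop⟩
    · -- a common prime divisor
      have hg : Int.gcd α β ≠ 1 := fun h => hcop (Int.isCoprime_iff_gcd_eq_one.mpr h)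
      obtain ⟨q, hq, hqg⟩ := Nat.exists_prime_and_dvd hg
      have hqα : (q : ℤ) ∣ α := (Int.natCast_dvd_natCast.mpr hqg).trans (Int.gcd_dvd_left α β)
      have hqβ : (q : ℤ) ∣ β := (Int.natCast_dvd_natCast.mpr hqg).trans (Int.gcd_dvd_right α β)
      have hqp : Prime (q : ℤ) := Nat.prime_iff_prime_int.mp hq
      obtain ⟨α', β', γ', hα', hβ', T'⟩ := T.descend hab hac hbc hqp hqα hqβ
      have hα'0 : α' ≠ 0 := by
        rintro rfl
        exact hα0 (by rw [hα', mul_zero])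
      have hlt : α'.natAbs < n := by
        rw [← hn, hα', Int.natAbs_mul, Int.natAbs_pow, Int.natAbs_natCast]
        have h1 : 1 < q ^ 2 := Nat.one_lt_pow (by norm_num) hq.one_lt
        have h2 : 0 < α'.natAbs := Int.natAbs_pos.mpr hα'0
        nlinarith
      obtain ⟨h, α'', β'', hh, e1, e2, hc⟩ := ih _ hlt α' β' γ' rfl hα'0 T'
      refine ⟨q * h, α'', β'', mul_ne_zero (by exact_mod_cast hq.ne_zero) hh, ?_, ?_, hc⟩
      · rw [hα', e1]; ring
      · rw [hβ', e2]; ring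

/-- Rational form: if `a r₂² + b r₁² = c r₀²` with `a, b, c` pairwise coprime integers and
`r_i ∈ ℚ`, then `μ² (a r₂², b r₁²)` is a pair of coprime integers for some `μ ∈ ℚˣ`. -/
theorem exists_primitive_rat {a b c : ℤ} (hab : IsCoprime a b) (hac : IsCoprime a c)
    (hbc : IsCoprime b c) (ha : a ≠ 0) (r₀ r₁ r₂ : ℚ) (hr₂ : r₂ ≠ 0)
    (hsum : (a : ℚ) * r₂ ^ 2 + (b : ℚ) * r₁ ^ 2 = (c : ℚ) * r₀ ^ 2) :
    ∃ (μ : ℚ) (A B : ℤ), μ ≠ 0 ∧ (A : ℚ) = μ ^ 2 * ((a : ℚ) * r₂ ^ 2) ∧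
      (B : ℚ) = μ ^ 2 * ((b : ℚ) * r₁ ^ 2) ∧ IsCoprime A B := by
  set D : ℤ := (r₀.den : ℤ) * r₁.den * r₂.den with hD
  have hD0 : (D : ℚ) ≠ 0 := by
    have h0 := r₀.den_ne_zero
    have h1 := r₁.den_ne_zero
    have h2 := r₂.den_ne_zero
    rw [hD]
    push_cast
    positivity
  set u : ℤ := r₂.num * r₀.den * r₁.den with hu
  set v : ℤ := r₁.num * r₀.den * r₂.den with hv
  set w : ℤ := r₀.num * r₁.den * r₂.den with hw
  have eu : (u : ℚ) = r₂ * D := by
    rw [hu, hD]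
    push_cast
    have := Rat.mul_den_eq_num r₂
    linear_combination (-(r₀.den : ℚ) * r₁.den) * this
  have ev : (v : ℚ) = r₁ * D := by
    rw [hv, hD]
    push_cast
    have := Rat.mul_den_eq_num r₁
    linear_combination (-(r₀.den : ℚ) * r₂.den) * this
  have ew : (w : ℚ) = r₀ * D := by
    rw [hw, hD]
    push_cast
    have := Rat.mul_den_eq_num r₀
    linear_combination (-(r₁.den : ℚ) * r₂.den) * this
  have hT : SqTriple a b c (a * u ^ 2) (b * v ^ 2) (c * w ^ 2) := by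
    refine ⟨?_, ⟨a, u, dvd_refl a, rfl⟩, ⟨b, v, dvd_refl b, rfl⟩, ⟨c, w, dvd_refl c, rfl⟩⟩
    have : ((a * u ^ 2 + b * v ^ 2 : ℤ) : ℚ) = ((c * w ^ 2 : ℤ) : ℚ) := by
      push_cast
      rw [eu, ev, ew]
      linear_combination (D : ℚ) ^ 2 * hsum
    exact_mod_cast this
  have hu0 : u ≠ 0 := by
    intro h0
    have : (u : ℚ) = 0 := by rw [h0]; simp
    rw [eu] at this
    rcases mul_eq_zero.mp this with h | h
    · exact hr₂ h
    · exact hD0 h
  have hα0 : a * u ^ 2 ≠ 0 := mul_ne_zero ha (pow_ne_zero _ hu0)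
  obtain ⟨h, A, B, hh, e1, e2, hcop⟩ :=
    SqTriple.exists_primitive hab hac hbc _ _ _ _ rfl hα0 hT
  have hhQ : (h : ℚ) ≠ 0 := by exact_mod_cast hh
  refine ⟨D / h, A, B, div_ne_zero hD0 hhQ, ?_, ?_, hcop⟩
  · have : ((a * u ^ 2 : ℤ) : ℚ) = ((h ^ 2 * A : ℤ) : ℚ) := by rw [e1]
    push_cast at this
    rw [eu] at this
    field_simp
    linear_combination -this
  · have : ((b * v ^ 2 : ℤ) : ℚ) = ((h ^ 2 * B : ℤ) : ℚ) := by rw [e2]
    push_cast at this
    rw [ev] at this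
    field_simp
    linear_combination -this

end Fermat.Agent.S12.H11

end
-- ==== END Fermat.Agent.S12.H11_Arith

-- ==== BEGIN Fermat.Agent.S12.H66_Frob3
section

set_option autoImplicit false

namespace Fermat.Agent.S12.H66

open Fermat.Agent.S13

/-- A Frobenius element at `A` preserves the valuation of `A`. -/
theorem frob_val (A : ValuationSubring Qbar) (σ : Gal) (q : ℕ) (hσ : A.IsFrobeniusAt σ q)
    (x : Qbar) : A.valuation (σ x) = A.valuation x := by
  have := Fermat.Agent.S05.isAlgebraic_algebraicClosure_rat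
  exact Fermat.Agent.S05.H37.valuation_apply_eq_of_mem_decomposition A
    hσ.mem_decompositionSubgroup x

/-- A Frobenius element at `A` acts as `x ↦ x ^ q` modulo the maximal ideal of `A`. -/
theorem frob_sub_pow_lt (A : ValuationSubring Qbar) (σ : Gal) (q : ℕ)
    (hσ : A.IsFrobeniusAt σ q) (x : Qbar) (hx : A.valuation x ≤ 1) :
    A.valuation (σ x - x ^ q) < 1 := by
  have hxA : x ∈ A := (A.valuation_le_one_iff x).1 hx
  have h := hσ.smul_residue_eq (IsLocalRing.residue A ⟨x, hxA⟩)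
  rw [← IsLocalRing.ResidueField.residue_smul, ← map_pow, ← sub_eq_zero, ← map_sub,
    IsLocalRing.residue_eq_zero_iff, ← ValuationSubring.coe_mem_nonunits_iff,
    A.mem_nonunits_iff] at h
  exact h

/-- The three residue classes of `𝔽₃`. -/
noncomputable def cls3 : Fin 3 → Qbar := ![0, 1, -1]

/-- An integral element fixed by a Frobenius element at `A` over `3` is congruent to
`0`, `1` or `-1`. -/
theorem frob3_classes (A : ValuationSubring Qbar) (σ : Gal) (hσ : A.IsFrobeniusAt σ 3)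
    (r : Qbar) (hr : σ r = r) (hr1 : A.valuation r ≤ 1) :
    ∃ i : Fin 3, A.valuation (r - cls3 i) < 1 := by
  have h := frob_sub_pow_lt A σ 3 hσ r hr1
  rw [hr] at h
  have hfac : r - r ^ 3 = -(r * ((r - 1) * (r + 1))) := by ring
  rw [hfac, Valuation.map_neg, map_mul, map_mul] at h
  have h1 : A.valuation (r - 1) ≤ 1 :=
    le_trans (A.valuation.map_sub r 1) (max_le hr1 (by rw [map_one]))
  have h2 : A.valuation (r + 1) ≤ 1 :=
    le_trans (A.valuation.map_add r 1) (max_le hr1 (by rw [map_one]))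
  by_cases c0 : A.valuation r < 1
  · exact ⟨0, by simpa [cls3] using c0⟩
  by_cases c1 : A.valuation (r - 1) < 1
  · exact ⟨1, by simpa [cls3] using c1⟩
  by_cases c2 : A.valuation (r + 1) < 1
  · exact ⟨2, by simpa [cls3] using c2⟩
  exfalso
  have e0 : A.valuation r = 1 := le_antisymm hr1 (not_lt.1 c0)
  have e1 : A.valuation (r - 1) = 1 := le_antisymm h1 (not_lt.1 c1)
  have e2 : A.valuation (r + 1) = 1 := le_antisymm h2 (not_lt.1 c2)
  rw [e0, e1, e2, one_mul, one_mul] at h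
  exact lt_irrefl _ h

end Fermat.Agent.S12.H66

end
-- ==== END Fermat.Agent.S12.H66_Frob3

-- ==== BEGIN Fermat.Agent.S12.H67_End
section

set_option autoImplicit false

namespace Fermat.Agent.S12.H67

/-- For `0 ≤ v ≤ u`: `(u - v)^n ≤ u^n - v^n`. -/
theorem sub_pow_le_pow_sub_pow {u v : ℤ} (hv : 0 ≤ v) (huv : v ≤ u) {n : ℕ} (hn : n ≠ 0) :
    (u - v) ^ n ≤ u ^ n - v ^ n := by
  have h := pow_add_pow_le (sub_nonneg.2 huv) hv hn
  rw [sub_add_cancel] at h
  linarith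

/-- `|u - v|^p ≤ 2^(p-1) |u^p - v^p|` for odd `p`. -/
theorem abs_sub_pow_le {u v : ℤ} {p : ℕ} (hp : Odd p) :
    |u - v| ^ p ≤ 2 ^ (p - 1) * |u ^ p - v ^ p| := by
  have hp0 : p ≠ 0 := by rintro rfl; simp at hp
  have h2 : (1 : ℤ) ≤ 2 ^ (p - 1) := one_le_pow₀ (by norm_num)
  have key : ∀ {u v : ℤ}, 0 ≤ v → v ≤ u → |u - v| ^ p ≤ 2 ^ (p - 1) * |u ^ p - v ^ p| := by
    intro u v hv huv
    have h1 := sub_pow_le_pow_sub_pow hv huv hp0
    have h3 : 0 ≤ u ^ p - v ^ p := le_trans (pow_nonneg (sub_nonneg.2 huv) p) h1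
    rw [abs_of_nonneg (sub_nonneg.2 huv), abs_of_nonneg h3]
    calc (u - v) ^ p ≤ u ^ p - v ^ p := h1
      _ = 1 * (u ^ p - v ^ p) := (one_mul _).symm
      _ ≤ 2 ^ (p - 1) * (u ^ p - v ^ p) := by gcongr
  have opp : ∀ {u v : ℤ}, 0 ≤ u → v ≤ 0 → |u - v| ^ p ≤ 2 ^ (p - 1) * |u ^ p - v ^ p| := by
    intro u v hu hv
    have hv' : 0 ≤ -v := neg_nonneg.2 hv
    have h1 := add_pow_le hu hv' p
    have h3 : u ^ p - v ^ p = u ^ p + (-v) ^ p := by
      rw [Odd.neg_pow hp]; ring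
    have h4 : 0 ≤ u ^ p + (-v) ^ p := add_nonneg (pow_nonneg hu p) (pow_nonneg hv' p)
    have h5 : u - v = u + -v := by ring
    rw [h3, abs_of_nonneg h4, h5, abs_of_nonneg (add_nonneg hu hv')]
    exact h1
  rcases le_total 0 u with hu | hu <;> rcases le_total 0 v with hv | hv
  · rcases le_total v u with h | h
    · exact key hv h
    · have := key hu h
      rwa [abs_sub_comm, abs_sub_comm (v ^ p)] at this
  · exact opp hu hv
  · have := opp hv hu
    rwa [abs_sub_comm, abs_sub_comm (v ^ p)] at this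
  · -- both nonpositive: negate
    have hu' : 0 ≤ -u := neg_nonneg.2 hu
    have hv' : 0 ≤ -v := neg_nonneg.2 hv
    have e1 : |u - v| = |(-v) - (-u)| := by
      rw [show (-v) - (-u) = u - v by ring]
    have e2 : |u ^ p - v ^ p| = |(-v) ^ p - (-u) ^ p| := by
      rw [Odd.neg_pow hp, Odd.neg_pow hp, show -v ^ p - -u ^ p = u ^ p - v ^ p by ring]
    rw [e1, e2]
    rcases le_total (-u) (-v) with h | h
    · exact key hu' h
    · have := key hv' h
      rwa [abs_sub_comm, abs_sub_comm ((-u) ^ p)] at this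

/-- (END) -/
theorem stmt_end (A B C : ℤ) (p : ℕ) (hp : Odd p) (hp3 : 3 ≤ p) (hABC : A + B = C) (hB : B ≠ 0)
    (h : 16 ^ (p - 1) * (C ^ p - A ^ p) = B ^ p) : False := by
  have hCA : C - A = B := by rw [← hABC]; ring
  have h1 : |B| ^ p ≤ 2 ^ (p - 1) * |C ^ p - A ^ p| := by
    have := abs_sub_pow_le (u := C) (v := A) hp
    rwa [hCA] at this
  have h2 : |B| ^ p = 16 ^ (p - 1) * |C ^ p - A ^ p| := by
    rw [← abs_pow, ← h, abs_mul, abs_of_nonneg (by positivity : (0 : ℤ) ≤ 16 ^ (p - 1))]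
  have hBpos : 0 < |B| ^ p := pow_pos (abs_pos.2 hB) p
  have hXpos : 0 < |C ^ p - A ^ p| := by
    by_contra hcon
    have h0 : |C ^ p - A ^ p| = 0 := le_antisymm (not_lt.1 hcon) (abs_nonneg _)
    rw [h0, mul_zero] at h2
    rw [h2] at hBpos
    exact lt_irrefl _ hBpos
  have h3 : (2 : ℤ) ^ (p - 1) < 16 ^ (p - 1) :=
    pow_lt_pow_left₀ (by norm_num) (by norm_num) (by omega)
  have h4 : 2 ^ (p - 1) * |C ^ p - A ^ p| < 16 ^ (p - 1) * |C ^ p - A ^ p| :=
    mul_lt_mul_of_pos_right h3 hXpos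
  rw [h2] at h1
  exact absurd h1 (not_le.2 h4)

end Fermat.Agent.S12.H67

end
-- ==== END Fermat.Agent.S12.H67_End

-- ==== BEGIN Fermat.Agent.S12.H87_LocalOdd
section

set_option autoImplicit false

namespace Fermat.Agent.S12.H87

open WeierstrassCurve WeierstrassCurve.Affine WeierstrassCurve.Affine.Point
open Fermat.Agent.S05

section loc

variable {L : Type*} [Field L] [DecidableEq L] {A : ValuationSubring L} {W : Affine L}

/-- Two points with `|x| = 1` and the same reduction differ by an element of `E₁`. -/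
theorem sameRed_sub_inE1 (hyp : ModelHyp A W) {x y x' y' : L} (h : W.Nonsingular x y)
    (h' : W.Nonsingular x' y') (hx : A.valuation x = 1) (hx' : A.valuation x' = 1)
    (hxx : A.valuation (x' - x) < 1) (hyy : A.valuation (y' - y) < 1) :
    S05.InE1 A (Point.some x' y' h' - Point.some x y h) := by
  rw [sub_eq_add_neg, Point.neg_some]
  have heq := H87.model_equation hyp h
  have heq' := H87.model_equation hyp h'
  by_cases hX : x' = x
  · by_cases hY : y' = W.negY x (W.negY x y)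
    · rw [Point.add_of_Y_eq hX hY]
      trivial
    · rw [Point.add_of_Y_ne hY]
      show 1 < A.valuation (W.addX x' x (W.slope x' x y' (W.negY x y)))
      rw [Affine.slope_of_Y_ne hX hY, Affine.addX, hyp.a₁, H87.model_negY hyp]
      rw [H87.model_negY hyp, H87.model_negY hyp, neg_neg] at hY
      have hsq : y' ^ 2 = y ^ 2 := by rw [heq, heq', hX]
      have hσy : y' = -y := by
        have : (y' - y) * (y' + y) = 0 := by linear_combination hsq
        rcases mul_eq_zero.mp this with h0 | h0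
        · exact absurd (sub_eq_zero.mp h0) hY
        · exact eq_neg_of_add_eq_zero_left h0
      have hy0 : y ≠ 0 := by
        rintro rfl
        apply hY
        rw [hσy, _root_.neg_zero]
      have hylt : A.valuation y < 1 := by
        have : y' - y = -(2 * y) := by rw [hσy]; ring
        rw [this, Valuation.map_neg, map_mul, hyp.two, one_mul] at hyy
        exact hyy
      have key := H87.tangent_case (v := A.valuation) hyp.a_le hyp.two hyp.disc hx hylt hy0 heq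
      rw [hX, hσy]
      convert key using 2
      ring
  · rw [Point.add_of_X_ne hX]
    show 1 < A.valuation (W.addX x' x (W.slope x' x y' (W.negY x y)))
    rw [Affine.slope_of_X_ne hX, Affine.addX, hyp.a₁, H87.model_negY hyp]
    have key := H87.secant_case (v := A.valuation) hyp.a_le hyp.b_le hyp.two hyp.disc hx hx'
      hxx hyy heq heq' hX
    convert key using 2
    ring

/-- A torsion point of order `n`, `|n| = 1`, has integral `x`-coordinate. -/
theorem val_x_le_one_of_torsion (hyp : ModelHyp A W) {x y : L} (h : W.Nonsingular x y)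
    (n : ℕ) (hn : A.valuation (n : L) = 1) (hP : n • Point.some x y h = 0) :
    A.valuation x ≤ 1 := by
  by_contra hlt
  rw [not_le] at hlt
  exact S05.H5.F1 A W hyp (Point.some x y h) hlt (Point.some_ne_zero h) n hn hP

/-- The point `T = (0,0)`. -/
noncomputable def pointT (hyp : ModelHyp A W) : W.Point :=
  Point.some 0 0 (H55.nonsingular_zero_zero hyp.a₁ hyp.a₃ hyp.a₆ hyp.b_ne)

omit [DecidableEq L] in
/-- A `2`-torsion point `(r, 0)` of the model. -/
theorem nonsingular_root (hyp : ModelHyp A W) {r : L} (hr : r ^ 2 + W.a₂ * r + W.a₄ = 0)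
    (hr0 : r ≠ 0) : W.Nonsingular r 0 := by
  rw [nonsingular_iff, equation_iff]
  refine ⟨?_, Or.inl ?_⟩
  · rw [hyp.a₁, hyp.a₃, hyp.a₆]
    linear_combination -r * hr
  · rw [hyp.a₁]
    intro h0
    -- `3 r² + 2 a r + b = 0` and `r² + a r + b = 0` give `(2 r + a)² = a² - 4 b` and `r (2 r + a) = 0`
    have h1 : r * (2 * r + W.a₂) = 0 := by linear_combination -h0 - hr
    have h2 : 2 * r + W.a₂ = 0 := by
      rcases mul_eq_zero.mp h1 with h | h
      · exact absurd h hr0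
      · exact h
    have h3 : W.a₂ ^ 2 - 4 * W.a₄ = 0 := by linear_combination (2 * r + W.a₂) * h2 - 4 * hr
    have := hyp.disc
    rw [h3, _root_.map_zero] at this
    exact zero_ne_one this

/-- `2 • (r, 0) = 0`. -/
theorem two_nsmul_root (hyp : ModelHyp A W) {r : L} (h : W.Nonsingular r 0) :
    2 • Point.some r 0 h = 0 := by
  have hneg : -Point.some r 0 h = Point.some r 0 h := by
    rw [Point.neg_some]
    congr 1
    rw [H87.model_negY hyp, _root_.neg_zero]
  rw [two_nsmul]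
  nth_rewrite 2 [← hneg]
  exact add_neg_cancel _

/-- A point killed by `2` and by an odd number is zero. -/
theorem eq_zero_of_two_of_odd {G : Type*} [AddCommGroup G] {P : G} (h2 : 2 • P = 0) {p : ℕ}
    (hodd : Odd p) (hp : p • P = 0) : P = 0 := by
  obtain ⟨k, rfl⟩ := hodd
  have : (2 * k + 1) • P = k • (2 • P) + P := by
    rw [add_smul, one_smul, mul_comm, mul_smul]
  rw [this, h2, smul_zero, zero_add] at hp
  exact hp

omit [DecidableEq L] in
/-- `|2 p| = 1`. -/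
theorem val_two_mul (hyp : ModelHyp A W) {p : ℕ} (hp : A.valuation (p : L) = 1) :
    A.valuation ((2 * p : ℕ) : L) = 1 := by
  rw [Nat.cast_mul, map_mul, hp, mul_one]
  exact_mod_cast hyp.two

/-- In the good case `|b| = 1`, a point of odd order `p`, `|p| = 1`, has `|x| = 1`. -/
theorem val_x_eq_one_good (hyp : ModelHyp A W) (hb : A.valuation W.a₄ = 1) {x y : L}
    (h : W.Nonsingular x y) (p : ℕ) (hodd : Odd p) (hp : A.valuation (p : L) = 1)
    (hP : p • Point.some x y h = 0) : A.valuation x = 1 := by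
  refine le_antisymm (val_x_le_one_of_torsion hyp h p hp hP) ?_
  by_contra hlt
  rw [not_le] at hlt
  have hT2 : 2 • pointT hyp = 0 := two_nsmul_root hyp _
  by_cases hx0 : x = 0
  · subst hx0
    have hy0 : y = 0 := H55.y_eq_zero_of_x_eq_zero hyp.a₁ hyp.a₃ hyp.a₆ h
    subst hy0
    exact Point.some_ne_zero h (eq_zero_of_two_of_odd (two_nsmul_root hyp h) hodd hP)
  · have hE1 := H55.inE1_add_T A hyp hb h hx0 hlt
    have hsum : (2 * p) • (Point.some x y h + pointT hyp) = 0 := by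
      rw [smul_add, mul_smul, mul_smul, hP, smul_zero, zero_add, smul_comm, hT2, smul_zero]
    by_cases hne : Point.some x y h + pointT hyp = 0
    · -- then `P = -T = T`, so `x = 0`
      have hPT : Point.some x y h = -pointT hyp := eq_neg_of_add_eq_zero_left hne
      rw [pointT, Point.neg_some] at hPT
      have := (Point.some.injEq _ _ _ _ _ _).mp hPT
      exact hx0 this.1
    · exact S05.H5.F1 A W hyp _ hE1 hne (2 * p) (val_two_mul hyp hp) hsum

/-- A point of odd order `p`, `|p| = 1`, with `|x| = 1` does not reduce to a `2`-torsion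
point `(r, 0)` with `|r| = 1`. -/
theorem val_x_sub_root_eq_one (hyp : ModelHyp A W) {r : L}
    (hr : r ^ 2 + W.a₂ * r + W.a₄ = 0) (hr1 : A.valuation r = 1) {x y : L}
    (h : W.Nonsingular x y) (hx : A.valuation x = 1) (p : ℕ) (hodd : Odd p)
    (hp : A.valuation (p : L) = 1) (hP : p • Point.some x y h = 0) :
    A.valuation (x - r) = 1 := by
  have hle : A.valuation (x - r) ≤ 1 := by
    refine le_trans (A.valuation.map_sub x r) ?_
    rw [hx, hr1, max_self]
  refine le_antisymm hle ?_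
  by_contra hlt
  rw [not_le] at hlt
  have hr0 : r ≠ 0 := by
    rintro rfl
    rw [_root_.map_zero] at hr1
    exact zero_ne_one hr1
  have hT := nonsingular_root hyp hr hr0
  -- `|y| < 1`
  have heq := H87.model_equation hyp h
  have hquad : x ^ 2 + W.a₂ * x + W.a₄ = (x - r) * (x + r + W.a₂) := by
    linear_combination hr
  have hfac : A.valuation (x + r + W.a₂) ≤ 1 := by
    refine le_trans (A.valuation.map_add _ _) (max_le ?_ hyp.a_le)
    refine le_trans (A.valuation.map_add _ _) (max_le hx.le hr1.le)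
  have hy2 : A.valuation (y ^ 2) < 1 := by
    have : y ^ 2 = x * ((x - r) * (x + r + W.a₂)) := by rw [← hquad, heq]; ring
    rw [this, map_mul, hx, one_mul, map_mul]
    calc A.valuation (x - r) * A.valuation (x + r + W.a₂)
        ≤ A.valuation (x - r) * 1 := mul_le_mul_right hfac _
      _ = A.valuation (x - r) := mul_one _
      _ < 1 := hlt
  have hy : A.valuation y < 1 := by
    by_contra hge
    rw [not_lt] at hge
    have : 1 ≤ A.valuation (y ^ 2) := by rw [map_pow]; exact one_le_pow₀ hge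
    exact absurd hy2 (not_lt.mpr this)
  have hyy : A.valuation (y - 0) < 1 := by rwa [sub_zero]
  have hE1 := sameRed_sub_inE1 hyp hT h hr1 hx hlt hyy
  have hT2 : 2 • Point.some r 0 hT = 0 := two_nsmul_root hyp hT
  have hsum : (2 * p) • (Point.some x y h - Point.some r 0 hT) = 0 := by
    rw [smul_sub, mul_smul, mul_smul, hP, smul_zero, zero_sub, smul_comm, hT2, smul_zero,
      _root_.neg_zero]
  by_cases hne : Point.some x y h - Point.some r 0 hT = 0
  · have hPT : Point.some x y h = Point.some r 0 hT := sub_eq_zero.mp hne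
    rw [hPT] at hP
    exact Point.some_ne_zero hT (eq_zero_of_two_of_odd hT2 hodd hP)
  · exact S05.H5.F1 A W hyp _ hE1 hne (2 * p) (val_two_mul hyp hp) hsum

end loc

end Fermat.Agent.S12.H87

end
-- ==== END Fermat.Agent.S12.H87_LocalOdd

-- ==== BEGIN Fermat.Agent.S12.H87_ValTwoDefs
section

set_option autoImplicit false

namespace Fermat.Agent.S12.H87

open Fermat.Agent.S13

/-- (UV) on a finite normal extension `K/ℚ` on which the inertia group at `A` acts trivially,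
every nonzero element has valuation an integral power of `|ℓ|`. -/
def Stmt_unramVal : Prop :=
  ∀ (ℓ : ℕ), ℓ.Prime → ∀ A : ValuationSubring Qbar, A.LiesOverPrime ℓ →
  ∀ K : IntermediateField ℚ Qbar, FiniteDimensional ℚ K → Normal ℚ K →
    (∀ σ ∈ A.inertiaSubgroupIn ℚ, ∀ x ∈ K, σ x = x) →
    ∀ x ∈ K, x ≠ 0 → ∃ k : ℤ, A.valuation x = A.valuation ((ℓ : ℕ) : Qbar) ^ k

end Fermat.Agent.S12.H87

end
-- ==== END Fermat.Agent.S12.H87_ValTwoDefs

-- ==== BEGIN Fermat.Agent.S13.WP3.H15_TorsE0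
section

/-!
# S13 / WP3 piece 2G-b: torsion points with "rational" valuation lie in `E₀` (helper15)

`Fermat.Agent.S13.WP3.H15.torsion_in_E0 : Stmt2_M1 → Stmt2_annulus → Stmt2_torsion_in_E0`.
-/

set_option autoImplicit false

namespace Fermat.Agent.S13.WP3.H15

open WeierstrassCurve WeierstrassCurve.Affine

variable {L : Type*} [Field L] [DecidableEq L]

omit [DecidableEq L] in
/-- From `n • φ Q = 0` and `φ Q = [u]` get `u ^ n = (|b|²) ^ j`, in the value group. -/
theorem exists_zpow_of_zsmul_eq_zero {A : ValuationSubring L} {W : Affine L}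
    (hyp : ModelHyp2 A W) (u : (A.ValueGroup)ˣ) (n : ℤ)
    (h : n • (Additive.ofMul (QuotientGroup.mk u : CompGroup hyp)) = 0) :
    ∃ j : ℤ, A.valuation W.a₄ ^ (2 * j) = (u : A.ValueGroup) ^ n := by
  have h1 : (QuotientGroup.mk u : CompGroup hyp) ^ n = 1 := by
    apply Additive.ofMul.injective
    rw [ofMul_zpow, h, ofMul_one]
  rw [← QuotientGroup.mk_zpow, QuotientGroup.eq_one_iff, Subgroup.mem_zpowers_iff] at h1
  obtain ⟨j, hj⟩ := h1
  refine ⟨j, ?_⟩
  have h2 := congrArg (fun w : (A.ValueGroup)ˣ => (w : A.ValueGroup)) hj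
  simp only [Units.val_zpow_eq_zpow_val, Units.val_pow_eq_pow_val] at h2
  have h3 : ((bUnit hyp : (A.ValueGroup)ˣ) : A.ValueGroup) = A.valuation W.a₄ := rfl
  rw [h3] at h2
  rw [← h2, zpow_mul]
  norm_cast

theorem torsion_in_E0 (hM1 : Stmt2_M1 (L := L)) (hann : Stmt2_annulus (L := L)) :
    Stmt2_torsion_in_E0 (L := L) := by
  intro A W hyp lam hlam p m hm hcop hb Q hQ hx
  rcases Q with _ | ⟨x, y, h⟩
  · trivial
  show 1 ≤ A.valuation x
  by_contra hlt
  rw [not_le] at hlt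
  -- notation
  set t := A.valuation (2 : L) with ht
  have hb0 : A.valuation W.a₄ ≠ 0 := by
    rw [Ne, map_eq_zero]; exact hyp.b_ne
  have ht0 : t ≠ 0 := by
    intro h0
    rw [h0, zero_pow hm.ne'] at hb
    exact hb0 hb
  have htpos : 0 < t := zero_lt_iff.2 ht0
  have ht1 : t < 1 := hyp.two
  have hbpos : 0 < A.valuation W.a₄ := zero_lt_iff.2 hb0
  have hb1 : A.valuation W.a₄ < 1 := hyp.b_lt
  have hpodd : ¬ (2 : ℤ) ∣ (p : ℤ) := by
    intro h2
    have h2' : (2 : ℕ) ∣ p := by exact_mod_cast h2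
    have h3 : (2 : ℕ) ∣ Nat.gcd (2 * m) p := Nat.dvd_gcd (dvd_mul_right 2 m) h2'
    rw [hcop] at h3
    omega
  by_cases hxb : A.valuation x ≤ A.valuation W.a₄
  · -- `Q ∈ T + E₀`
    obtain ⟨φ, -, -, hφT⟩ := hM1 A W hyp lam hlam
    have h1 : (p : ℤ) • φ (Point.some x y h) = 0 := by
      rw [← map_zsmul, hQ, map_zero]
    rw [hφT x y h hxb] at h1
    obtain ⟨j, hj⟩ := exists_zpow_of_zsmul_eq_zero hyp _ _ h1
    have h2 : A.valuation W.a₄ ^ (2 * j) = A.valuation W.a₄ ^ ((p : ℕ) : ℤ) := hj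
    have h3 := zpow_right_injective₀ hbpos hb1.ne h2
    exact hpodd ⟨j, h3.symm⟩
  · rw [not_le] at hxb
    have hx0 : x ≠ 0 := by
      rintro rfl
      rw [map_zero] at hxb
      exact not_lt_zero hxb
    -- a component homomorphism with `φ Q = [|x|]`
    obtain ⟨φ, hφ⟩ : ∃ φ : W.Point →+ Additive (CompGroup hyp),
        φ (Point.some x y h) = Additive.ofMul (QuotientGroup.mk (valUnit A x hx0)) := by
      rcases hann A W hyp lam hlam x y h hxb hlt with hC | hC
      · obtain ⟨φ, -, hφC, -⟩ := hM1 A W hyp lam hlam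
        exact ⟨φ, hφC x y h hx0 hxb hlt hC⟩
      · have hlam' : (-1 - lam) ^ 2 + (-1 - lam) = W.a₂ := by rw [← hlam]; ring
        obtain ⟨φ, -, hφC, -⟩ := hM1 A W hyp (-1 - lam) hlam'
        exact ⟨φ, hφC x y h hx0 hxb hlt hC⟩
    have h1 : (p : ℤ) • φ (Point.some x y h) = 0 := by
      rw [← map_zsmul, hQ, map_zero]
    rw [hφ] at h1
    obtain ⟨j, hj⟩ := exists_zpow_of_zsmul_eq_zero hyp _ _ h1
    obtain ⟨k, hk⟩ := hx x y h rfl hx0
    have hj2 : (t ^ m) ^ (2 * j) = (t ^ k) ^ ((p : ℕ) : ℤ) := by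
      rw [← hb, ← hk]; exact hj
    have h2 : t ^ (2 * (m : ℤ) * j) = t ^ (k * (p : ℤ)) := by
      calc t ^ (2 * (m : ℤ) * j) = (t ^ (m : ℤ)) ^ (2 * j) := by
            rw [← zpow_mul]; ring_nf
        _ = (t ^ m) ^ (2 * j) := by rw [zpow_natCast]
        _ = (t ^ k) ^ ((p : ℕ) : ℤ) := hj2
        _ = t ^ (k * (p : ℤ)) := by rw [← zpow_mul]
    have h3 : 2 * (m : ℤ) * j = k * (p : ℤ) := zpow_right_injective₀ htpos ht1.ne h2
    -- `p ∣ j`
    have hcopZ : IsCoprime ((p : ℕ) : ℤ) ((2 * m : ℕ) : ℤ) :=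
      Nat.isCoprime_iff_coprime.2 hcop.symm
    have hpj : (p : ℤ) ∣ j := by
      have : (p : ℤ) ∣ ((2 * m : ℕ) : ℤ) * j := by
        push_cast
        exact ⟨k, by rw [h3]; ring⟩
      exact hcopZ.dvd_of_dvd_mul_left this
    obtain ⟨j', rfl⟩ := hpj
    have hp0 : (p : ℤ) ≠ 0 := by
      intro h0
      have : p = 0 := by exact_mod_cast h0
      rw [this, Nat.coprime_zero_right] at hcop
      omega
    have h4 : k = 2 * (m : ℤ) * j' := by
      have : (p : ℤ) * k = (p : ℤ) * (2 * (m : ℤ) * j') := by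
        rw [mul_comm _ k, ← h3]; ring
      exact mul_left_cancel₀ hp0 this
    -- `|b| < |x| < 1` gives `0 < 2 m j' < m`
    rw [hk, h4] at hlt hxb
    rw [hb, ← zpow_natCast] at hxb
    have h5 : (0 : ℤ) < 2 * (m : ℤ) * j' := by
      have := (zpow_lt_zpow_iff_right_of_lt_one₀ htpos ht1 (m := 2 * (m : ℤ) * j') (n := 0)).1
        (by simpa using hlt)
      exact this
    have h6 : 2 * (m : ℤ) * j' < (m : ℤ) :=
      (zpow_lt_zpow_iff_right_of_lt_one₀ htpos ht1).1 hxb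
    have hm' : (0 : ℤ) < (m : ℤ) := by exact_mod_cast hm
    rcases le_or_gt j' 0 with hj' | hj'
    · nlinarith
    · nlinarith

end Fermat.Agent.S13.WP3.H15

end
-- ==== END Fermat.Agent.S13.WP3.H15_TorsE0

-- ==== BEGIN Fermat.Agent.S13.WP3.H6_PigeonholeFinal
section

set_option autoImplicit false

namespace Fermat.Agent.S13.WP3.H6P

variable {L : Type*} [Field L] [DecidableEq L]

/-- Piece (2G-c), relative to `F1` only. -/
theorem pigeonhole_of_F1 (hF1 : Stmt2_F1 (L := L)) : Stmt2_pigeonhole (L := L) :=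
  pigeonhole H6.E0_add H38.sameRed hF1

end Fermat.Agent.S13.WP3.H6P

end
-- ==== END Fermat.Agent.S13.WP3.H6_PigeonholeFinal

-- ==== BEGIN Fermat.Agent.S13.WP3.TwoUnipotent
section

set_option autoImplicit false

namespace Fermat.Agent.S13.WP3

/-- (I4) Inertia at `2` acts unipotently on `E[p]` of the Frey curve. -/
theorem two_unipotent : Fermat.Agent.S13.Stmt_two_unipotent :=
  two_unipotent_of_2B (fun _ _ _ => H5.E1_add2) (fun _ _ _ => H5.E1_neg2)
    (fun _ _ _ => H5.F1_2)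

end Fermat.Agent.S13.WP3

end
-- ==== END Fermat.Agent.S13.WP3.TwoUnipotent
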