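-- GENERATED (merged mirror, NOTES/tools/trim/merge3_helper67.py): 8 modules of the originals, bodies verbatim.
import Fermat.Statements.S05
import Fermat.Agent.Zm.S44_L04_000
import Fermat.Agent.Zm.S44_L03_001
import Fermat.Agent.Zm.S44_L02_002
import Fermat.Agent.Zm.S44_L02_001
import Fermat.Agent.Zm.S12_L01_000
import Fermat.Agent.S12.H11_Key
import Fermat.Agent.Zm.S35_L04_003
import Fermat.Agent.Zm.S35_L03_003
import Fermat.Agent.Zm.S15_L01_000
import Fermat.Agent.Zm.S44_L05_000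
import Fermat.Agent.S05.H15_Val
import Fermat.Agent.Zm.S35_L02_003
import Fermat.Agent.Zm.S35_L02_001

-- ==== BEGIN Fermat.Agent.S05
section

set_option autoImplicit false
open WeierstrassCurve WeierstrassCurve.Affine WeierstrassCurve.Affine.Point
open CuspForm ModularFormClass UpperHalfPlane
open FreyPackage

namespace Fermat.Agent.S05

theorem result (P : FreyPackage) {q : ℕ} (hq : q.Prime) (hq2 : q ≠ 2) (hqp : q ≠ P.p) : P.GaloisRepUnramifiedAt q :=
  wiring (core_of_M1 fun _ _ _ => M1.M1_of_cases H6.M1_E0E0 H6.M1_E0Cp) transfer inertia arith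
    P hq hq2 hqp

end Fermat.Agent.S05

end
-- ==== END Fermat.Agent.S05

-- ==== BEGIN Fermat.Agent.S12.H11_KeyFrey
section

set_option autoImplicit false

namespace Fermat.Agent.S12.H11

open WeierstrassCurve WeierstrassCurve.Affine WeierstrassCurve.Affine.Point
open Fermat.Agent.S13 Fermat.Agent.Lib.Torsion.H11

set_option linter.style.haveILetI false

/-- `#E[p] ≤ p²` for the Frey curve (landed in S13). -/
theorem frey_card : Fermat.Agent.S13.Stmt_card :=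
  Fermat.Agent.S13.H63.card_of_torsion_poly
    (Fermat.Agent.S13.H63.torsion_poly_of_preΨ Fermat.Agent.S13.stmt_torsion_preΨ)

/-- The 2-division polynomial of the Frey curve is `4 X (X - a^p/4) (X + b^p/4)`. -/
lemma frey_twoTors (P : FreyPackage) :
    TwoTors (P.freyCurve⁄Qbar) (0 : Qbar) ((P.a : Qbar) ^ P.p / 4) (-((P.b : Qbar) ^ P.p) / 4) := by
  refine ⟨two_ne_zero, ?_, ?_, ?_⟩
  · simp [WeierstrassCurve.b₂, FreyPackage.freyCurve]
    ring
  · simp [WeierstrassCurve.b₄, FreyPackage.freyCurve]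
    ring
  · simp [WeierstrassCurve.b₆, FreyPackage.freyCurve]

/-- A nonzero proper subspace of `E[p]` has exactly `p` elements. -/
lemma card_line (P : FreyPackage) (N : Submodule (ZMod P.p) (Vp P)) (h0 : N ≠ ⊥) (h1 : N ≠ ⊤) :
    Finite N ∧ Nat.card N = P.p := by
  haveI : Fact P.p.Prime := ⟨P.pp⟩
  obtain ⟨hfin, hcardV⟩ := frey_card P
  haveI : Finite (Vp P) := hfin
  refine ⟨inferInstance, ?_⟩
  have hle := Fermat.Agent.S13.H63.card_le_of_ne_top hcardV N h1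
  have hcardN : Nat.card N = P.p ^ Module.finrank (ZMod P.p) N := by
    rw [Module.natCard_eq_pow_finrank (K := ZMod P.p) (V := N), Nat.card_zmod]
  have hfrN : 0 < Module.finrank (ZMod P.p) N := by
    rw [Module.finrank_pos_iff]
    exact Submodule.nontrivial_iff_ne_bot.mpr h0
  apply le_antisymm hle
  rw [hcardN]
  calc P.p = P.p ^ 1 := (pow_one _).symm
    _ ≤ P.p ^ Module.finrank (ZMod P.p) N := Nat.pow_le_pow_right P.pp.pos hfrN

/-- The factor of `Ξ_i` in terms of the `X`-coordinate. -/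
lemma xiFactor_eq (P : FreyPackage) (i : Fin 3) {Q : (P.freyCurve⁄Qbar).Point} (hQ : Q ≠ 0) :
    xiFactor P i Q = 4 * (xc (P.freyCurve⁄Qbar) Q - ((eRoot P i : ℤ) : Qbar) / 4) := by
  rcases Q with _ | ⟨x, y, h⟩
  · exact absurd rfl hQ
  · simp only [xiFactor, xc_some]
    ring

/-- `Ξ_i` of `Defs.lean` in terms of the `Ξ` of `H11_Key.lean`. -/
lemma Xi_eq (P : FreyPackage) (N : Submodule (ZMod P.p) (Vp P)) (h0 : N ≠ ⊥) (h1 : N ≠ ⊤) :
    ∃ (N' : AddSubgroup (P.freyCurve⁄Qbar).Point) (_ : Fintype N'),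
      Fintype.card N' = P.p ∧
      ∀ i : Fin 3, Fermat.Agent.S12.Xi P N i =
        4 ^ (P.p - 1) * Fermat.Agent.S12.H11.Xi (P.freyCurve⁄Qbar) N'
          (((eRoot P i : ℤ) : Qbar) / 4) := by
  classical
  obtain ⟨hfin, hcard⟩ := card_line P N h0 h1
  haveI : Finite N := hfin
  letI : Fintype N := Fintype.ofFinite _
  let f : Vp P →+ (P.freyCurve⁄Qbar).Point :=
    (Submodule.torsionBy ℤ (P.freyCurve⁄Qbar).Point P.p).subtype.toAddMonoidHom
  have hf : Function.Injective f := Subtype.val_injective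
  let N' : AddSubgroup (P.freyCurve⁄Qbar).Point := N.toAddSubgroup.map f
  let eqv : N ≃ N' := (N.toAddSubgroup.equivMapOfInjective f hf).toEquiv
  letI : Fintype N' := Fintype.ofEquiv N eqv
  have hcard' : Fintype.card N' = P.p := by
    rw [← Fintype.card_congr eqv, ← Nat.card_eq_fintype_card, hcard]
  refine ⟨N', inferInstance, hcard', fun i => ?_⟩
  unfold Fermat.Agent.S12.Xi Fermat.Agent.S12.H11.Xi
  rw [finprod_eq_prod_of_fintype]
  rw [← Finset.mul_prod_erase Finset.univ _ (Finset.mem_univ (0 : N))]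
  have h00 : xiFactor P i (((0 : N) : Vp P) : (P.freyCurve⁄Qbar).Point) = 1 := rfl
  rw [h00, one_mul]
  have hne : ∀ Q ∈ (Finset.univ : Finset N).erase 0,
      (((Q : N) : Vp P) : (P.freyCurve⁄Qbar).Point) ≠ 0 := by
    intro Q hQ h
    rw [Finset.mem_erase] at hQ
    apply hQ.1
    apply Subtype.ext
    apply Subtype.ext
    exact h
  rw [Finset.prod_congr rfl (fun Q hQ => xiFactor_eq P i (hne Q hQ)), Finset.prod_mul_distrib,
    Finset.prod_const, Finset.card_erase_of_mem (Finset.mem_univ _), Finset.card_univ,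
    ← Nat.card_eq_fintype_card, hcard]
  congr 1
  apply Finset.prod_equiv eqv
  · intro Q
    simp only [Finset.mem_erase, Finset.mem_univ, and_true, ne_eq]
    rw [not_iff_not]
    constructor
    · intro h
      rw [h]
      exact _root_.map_zero (N.toAddSubgroup.equivMapOfInjective f hf)
    · intro h
      apply (N.toAddSubgroup.equivMapOfInjective f hf).injective
      rw [_root_.map_zero]
      exact h
  · intro Q _
    rfl

/-- **(KEY)** for the Frey curve: `A^p Ξ₂² + B^p Ξ₁² = C^p Ξ₀²`. -/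
theorem stmt_key : Fermat.Agent.S12.Stmt_key := by
  classical
  intro P L
  obtain ⟨N', hFin, hcard, hXi⟩ := Xi_eq P L.N L.ne_bot L.ne_top
  have hodd : Odd (Fintype.card N') := hcard ▸ P.hp_odd
  have ha : (P.a : Qbar) ≠ 0 := by exact_mod_cast P.ha0
  have hb : (P.b : Qbar) ≠ 0 := by exact_mod_cast P.hb0
  have h4 : (4 : Qbar) ≠ 0 := by norm_num
  have hne' : (0 : Qbar) ≠ (P.a : Qbar) ^ P.p / 4 :=
    (div_ne_zero (pow_ne_zero _ ha) h4).symm
  have hne'' : (0 : Qbar) ≠ -((P.b : Qbar) ^ P.p) / 4 :=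
    (div_ne_zero (neg_ne_zero.mpr (pow_ne_zero _ hb)) h4).symm
  have key := key_identity (P.freyCurve⁄Qbar) N' (frey_twoTors P)
    (Fermat.Agent.S13.H63.freyCurve_Qbar_Δ_ne_zero P) hne' hne'' hodd
  have hFLT : (P.a : Qbar) ^ P.p + (P.b : Qbar) ^ P.p = (P.c : Qbar) ^ P.p := by
    exact_mod_cast P.hFLT
  have e0 : ((eRoot P 0 : ℤ) : Qbar) / 4 = 0 := by simp [eRoot]
  have e1 : ((eRoot P 1 : ℤ) : Qbar) / 4 = (P.a : Qbar) ^ P.p / 4 := by simp [eRoot]
  have e2 : ((eRoot P 2 : ℤ) : Qbar) / 4 = -((P.b : Qbar) ^ P.p) / 4 := by simp [eRoot]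
  rw [hXi 0, hXi 1, hXi 2, e0, e1, e2]
  rw [hcard] at key
  have P1 : (-((P.b : Qbar) ^ P.p) / 4 - 0) ^ P.p = -(((P.b : Qbar) ^ P.p) ^ P.p / 4 ^ P.p) := by
    rw [sub_zero, neg_div, P.hp_odd.neg_pow, div_pow]
  have P2 : (-((P.b : Qbar) ^ P.p) / 4 - (P.a : Qbar) ^ P.p / 4) ^ P.p =
      -(((P.c : Qbar) ^ P.p) ^ P.p / 4 ^ P.p) := by
    have : -((P.b : Qbar) ^ P.p) / 4 - (P.a : Qbar) ^ P.p / 4 = -((P.c : Qbar) ^ P.p / 4) := by
      rw [← hFLT]; ring
    rw [this, P.hp_odd.neg_pow, div_pow]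
  have P3 : ((P.a : Qbar) ^ P.p / 4 - 0) ^ P.p = ((P.a : Qbar) ^ P.p) ^ P.p / 4 ^ P.p := by
    rw [sub_zero, div_pow]
  rw [P1, P2, P3] at key
  have h4p : (4 : Qbar) ^ P.p ≠ 0 := pow_ne_zero _ h4
  generalize Fermat.Agent.S12.H11.Xi (P.freyCurve⁄Qbar) N' (-((P.b : Qbar) ^ P.p) / 4) = X2
    at key ⊢
  generalize Fermat.Agent.S12.H11.Xi (P.freyCurve⁄Qbar) N' ((P.a : Qbar) ^ P.p / 4) = X1
    at key ⊢
  generalize Fermat.Agent.S12.H11.Xi (P.freyCurve⁄Qbar) N' 0 = X0 at key ⊢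
  field_simp at key
  linear_combination (-((4 : Qbar) ^ (P.p - 1)) ^ 2) * key

end Fermat.Agent.S12.H11

end
-- ==== END Fermat.Agent.S12.H11_KeyFrey

-- ==== BEGIN Fermat.Agent.S12.H66_Pigeon3
section

set_option autoImplicit false

namespace Fermat.Agent.S12.H66

open WeierstrassCurve WeierstrassCurve.Affine WeierstrassCurve.Affine.Point
open Fermat.Agent.S05

section pigeon

variable {L : Type*} [Field L] [DecidableEq L] {A : ValuationSubring L} {W : Affine L}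

/-- In a group, a nonzero element killed by a prime `p` is not killed by `0 < k < p`. -/
lemma nsmul_ne_zero_of_lt {G : Type*} [AddGroup G] {Q : G} {p : ℕ} (hp : p.Prime)
    (hpQ : p • Q = 0) (hQ : Q ≠ 0) {k : ℕ} (hk0 : 0 < k) (hkp : k < p) : k • Q ≠ 0 := by
  intro h
  have h1 : addOrderOf Q ∣ p := addOrderOf_dvd_of_nsmul_eq_zero hpQ
  have h2 : addOrderOf Q ∣ k := addOrderOf_dvd_of_nsmul_eq_zero h
  rcases (Nat.dvd_prime hp).1 h1 with h3 | h3
  · exact hQ (AddMonoid.addOrderOf_eq_one_iff.1 h3)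
  · rw [h3] at h2
    exact absurd (Nat.le_of_dvd hk0 h2) (not_le.2 hkp)

/-- The reduction data of a nonzero multiple `k • Q`, `0 < k < p`. -/
lemma pg3_data (hyp : ModelHyp A W) (R : Set L) (c : Fin 3 → L)
    (hR : ∀ r ∈ R, A.valuation r ≤ 1 → ∃ i : Fin 3, A.valuation (r - c i) < 1)
    {p : ℕ} (hp : p.Prime) (hpu : A.valuation (p : L) = 1)
    (Q : W.Point) (hpQ : p • Q = 0)
    (hRQ : ∀ (k : ℕ) (x y : L) (h : W.Nonsingular x y), k • Q = .some x y h →
      1 ≤ A.valuation x ∧ x ∈ R ∧ y ∈ R)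
    (hQ : Q ≠ 0) {k : ℕ} (hk0 : 0 < k) (hkp : k < p) :
    ∃ (x y : L) (h : W.Nonsingular x y) (i j : Fin 3), k • Q = .some x y h ∧
      A.valuation x = 1 ∧ A.valuation (x - c i) < 1 ∧ A.valuation (y - c j) < 1 := by
  have hk : k • Q ≠ 0 := nsmul_ne_zero_of_lt hp hpQ hQ hk0 hkp
  have hpk : p • (k • Q) = 0 := by
    rw [smul_comm, hpQ, smul_zero]
  have hRk := hRQ k
  generalize k • Q = P at hk hpk hRk
  rcases P with _ | ⟨x, y, h⟩
  · exact absurd rfl hk
  obtain ⟨hx1, hxR, hyR⟩ := hRk x y h rfl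
  have hx2 : A.valuation x ≤ 1 := H87.val_x_le_one_of_torsion hyp h p hpu hpk
  have hx : A.valuation x = 1 := le_antisymm hx2 hx1
  have hy : A.valuation y ≤ 1 :=
    S05.H87.val_y_le_one hyp.a_le hyp.b_le hx (S05.H87.model_equation hyp h)
  obtain ⟨i, hi⟩ := hR x hxR hx2
  obtain ⟨j, hj⟩ := hR y hyR hy
  exact ⟨x, y, h, i, j, rfl, hx, hi, hj⟩

/-- Two multiples `j • Q`, `i • Q` (`i < j < p`) with the same reduction: contradiction. -/
lemma pg3_clash (hyp : ModelHyp A W) {p : ℕ} (hp : p.Prime) (hpu : A.valuation (p : L) = 1)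
    (Q : W.Point) (hpQ : p • Q = 0) (hQ : Q ≠ 0) {i j : ℕ} (hij : i < j) (hjp : j < p)
    {x y x' y' : L} {h : W.Nonsingular x y} {h' : W.Nonsingular x' y'}
    (hj : j • Q = .some x y h) (hi : i • Q = .some x' y' h')
    (hx : A.valuation x = 1) (hx' : A.valuation x' = 1) (hxx : A.valuation (x - x') < 1)
    (hyy : A.valuation (y - y') < 1) : False := by
  have h1 : S05.InE1 A (Point.some x y h - Point.some x' y' h') :=
    H87.sameRed_sub_inE1 hyp h' h hx' hx hxx hyy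
  have h2 : Point.some x y h - Point.some x' y' h' = (j - i) • Q := by
    rw [← hj, ← hi, sub_eq_add_neg, ← sub_nsmul _ hij.le]
  rw [h2] at h1
  have h3 : (j - i) • Q ≠ 0 :=
    nsmul_ne_zero_of_lt hp hpQ hQ (Nat.sub_pos_of_lt hij) (lt_of_le_of_lt (Nat.sub_le _ _) hjp)
  have h4 : p • ((j - i) • Q) = 0 := by rw [smul_comm, hpQ, smul_zero]
  exact S05.H5.F1 A W hyp _ h1 h3 p hpu h4

omit [DecidableEq L] in
lemma pg3_sub_lt {u w c : L} (hu : A.valuation (u - c) < 1)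
    (hw : A.valuation (w - c) < 1) : A.valuation (u - w) < 1 := by
  have : u - w = (u - c) - (w - c) := by ring
  rw [this]
  exact Valuation.map_sub_lt _ hu hw

/-- **Pigeonhole at `3`.**  A point `Q` of prime order `p ≥ 11`, `|p| = 1`, all of whose affine
multiples have `|x| ≥ 1` and coordinates in `R` (a set whose integral elements fall into at most
three residue classes), is zero. -/
theorem pigeonhole3 (hyp : ModelHyp A W) (R : Set L) (c : Fin 3 → L)
    (hR : ∀ r ∈ R, A.valuation r ≤ 1 → ∃ i : Fin 3, A.valuation (r - c i) < 1)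
    {p : ℕ} (hp : p.Prime) (hp11 : 11 ≤ p) (hpu : A.valuation (p : L) = 1)
    (Q : W.Point) (hpQ : p • Q = 0)
    (hRQ : ∀ (k : ℕ) (x y : L) (h : W.Nonsingular x y), k • Q = .some x y h →
      1 ≤ A.valuation x ∧ x ∈ R ∧ y ∈ R) :
    Q = 0 := by
  by_contra hQ
  have data : ∀ k : Fin 10, ∃ (x y : L) (h : W.Nonsingular x y) (i j : Fin 3),
      (k.val + 1) • Q = .some x y h ∧
      A.valuation x = 1 ∧ A.valuation (x - c i) < 1 ∧ A.valuation (y - c j) < 1 := fun k =>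
    pg3_data hyp R c hR hp hpu Q hpQ hRQ hQ (Nat.succ_pos _) (by have := k.isLt; omega)
  choose x y h i j hk hx hxi hyj using data
  obtain ⟨k, k', hne, heq⟩ := Fintype.exists_ne_map_eq_of_card_lt
    (fun k : Fin 10 => (i k, j k)) (by simp)
  have hi : i k = i k' := congrArg Prod.fst heq
  have hj : j k = j k' := congrArg Prod.snd heq
  have key : ∀ k k' : Fin 10, k'.val < k.val → i k = i k' → j k = j k' → False := by
    intro k k' hlt hi hj
    refine pg3_clash hyp hp hpu Q hpQ hQ (i := k'.val + 1) (j := k.val + 1) (by omega)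
      (by have := k.isLt; omega) (hk k) (hk k') (hx k) (hx k') ?_ ?_
    · exact pg3_sub_lt (hxi k) (by rw [hi]; exact hxi k')
    · exact pg3_sub_lt (hyj k) (by rw [hj]; exact hyj k')
  rcases lt_or_gt_of_ne (fun hv => hne (Fin.ext hv)) with hlt | hlt
  · exact key k' k hlt hi.symm hj.symm
  · exact key k k' hlt hi hj

end pigeon

section group

/-- In a commutative group `G` in which `x ↦ x ^ p` is injective (`p` prime), the `p`-torsion of
`G / ⟨g⟩` is cyclic: if `u ^ p, w ^ p ∈ ⟨g⟩` and `u ∉ ⟨g⟩` then `w * u ^ m ∈ ⟨g⟩` for some `m`. -/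
theorem exists_mul_pow_mem_zpowers {G : Type*} [CommGroup G] {p : ℕ} (hp : p.Prime)
    (hinj : Function.Injective (fun x : G => x ^ p)) (g u w : G)
    (hu : u ^ p ∈ Subgroup.zpowers g) (hw : w ^ p ∈ Subgroup.zpowers g)
    (hu' : u ∉ Subgroup.zpowers g) : ∃ m : ℕ, w * u ^ m ∈ Subgroup.zpowers g := by
  haveI : Fact p.Prime := ⟨hp⟩
  obtain ⟨a, ha⟩ := Subgroup.mem_zpowers_iff.1 hu
  obtain ⟨b, hb⟩ := Subgroup.mem_zpowers_iff.1 hw
  -- `p ∤ a`
  have hpa : ((a : ℤ) : ZMod p) ≠ 0 := by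
    intro h0
    obtain ⟨a', rfl⟩ := (ZMod.intCast_zmod_eq_zero_iff_dvd a p).1 h0
    apply hu'
    have : u ^ p = (g ^ a') ^ p := by
      rw [← ha, ← zpow_natCast (g ^ a') p, ← zpow_mul, mul_comm]
    rw [hinj this]
    exact Subgroup.zpow_mem _ (Subgroup.mem_zpowers _) _
  -- choose `m` with `m a + b ≡ 0`
  set m : ℕ := (-(b : ZMod p) * ((a : ℤ) : ZMod p)⁻¹).val with hm
  have hmab : (((m : ℤ) * a + b : ℤ) : ZMod p) = 0 := by
    push_cast
    rw [hm, ZMod.natCast_val, ZMod.cast_id', id_eq, mul_assoc, inv_mul_cancel₀ hpa, mul_one,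
      neg_add_cancel]
  obtain ⟨t, ht⟩ := (ZMod.intCast_zmod_eq_zero_iff_dvd _ p).1 hmab
  refine ⟨m, ?_⟩
  have : (w * u ^ m) ^ p = (g ^ t) ^ p := by
    rw [mul_pow, ← pow_mul, mul_comm m p, pow_mul, ← hb, ← ha, ← zpow_natCast (g ^ a) m,
      ← zpow_mul, ← zpow_add, ← zpow_natCast (g ^ t) p, ← zpow_mul]
    congr 1
    rw [add_comm, mul_comm a, ht, mul_comm]
  rw [hinj this]
  exact Subgroup.zpow_mem _ (Subgroup.mem_zpowers _) _

end group

end Fermat.Agent.S12.H66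

end
-- ==== END Fermat.Agent.S12.H66_Pigeon3

-- ==== BEGIN Fermat.Agent.S12.H67_Rat
section

set_option autoImplicit false

namespace Fermat.Agent.S12.H67

open WeierstrassCurve WeierstrassCurve.Affine WeierstrassCurve.Affine.Point
open Fermat.Agent.S13

/-- `xiFactor` is Galois equivariant. -/
lemma xiFactor_smul (P : FreyPackage) (i : Fin 3) (σ : Gal) (Q : (P.freyCurve⁄Qbar).Point) :
    xiFactor P i (σ • Q) = σ (xiFactor P i Q) := by
  rcases Q with _ | ⟨x, y, h⟩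
  · change xiFactor P i Point.zero = σ (xiFactor P i Point.zero)
    simp only [xiFactor]
    exact (_root_.map_one σ).symm
  · rw [algEquiv_smul_def]
    simp only [Point.map_some, xiFactor]
    change 4 * σ x - _ = σ (4 * x - _)
    rw [_root_.map_sub, _root_.map_mul, map_intCast, map_ofNat]

/-- `Ξ_i` as a product over a `Fintype`. -/
lemma Xi_eq_prod (P : FreyPackage) (N : Submodule (ZMod P.p) (Vp P)) [Fintype N] (i : Fin 3) :
    Xi P N i = ∏ Q : N, xiFactor P i ((Q : Vp P) : (P.freyCurve⁄Qbar).Point) :=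
  finprod_eq_prod_of_fintype _

/-- The permutation of a stable subspace induced by a Galois automorphism. -/
noncomputable def stableEquiv (P : FreyPackage) (N : Submodule (ZMod P.p) (Vp P))
    (hN : IsGaloisStable ℚ N) (σ : Gal) : N ≃ N where
  toFun Q := ⟨σ • (Q : Vp P), hN σ Q Q.2⟩
  invFun Q := ⟨σ⁻¹ • (Q : Vp P), hN σ⁻¹ Q Q.2⟩
  left_inv Q := Subtype.ext (inv_smul_smul σ (Q : Vp P))
  right_inv Q := Subtype.ext (smul_inv_smul σ (Q : Vp P))

/-- `Ξ_i` is Galois invariant. -/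
lemma Xi_fixed (P : FreyPackage) (N : Submodule (ZMod P.p) (Vp P)) (hN : IsGaloisStable ℚ N)
    [Finite (Vp P)] (i : Fin 3) (σ : Gal) : σ (Xi P N i) = Xi P N i := by
  classical
  let _ : Fintype N := Fintype.ofFinite _
  rw [Xi_eq_prod, map_prod]
  have h : ∀ Q : N, σ (xiFactor P i ((Q : Vp P) : (P.freyCurve⁄Qbar).Point)) =
      xiFactor P i (((stableEquiv P N hN σ Q : N) : Vp P) : (P.freyCurve⁄Qbar).Point) := by
    intro Q
    rw [← xiFactor_smul]
    rfl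
  simp_rw [h]
  exact Equiv.prod_comp (stableEquiv P N hN σ)
    (fun Q : N => xiFactor P i ((Q : Vp P) : (P.freyCurve⁄Qbar).Point))

/-- `Ξ_i` is rational. -/
lemma Xi_rat (P : FreyPackage) (N : Submodule (ZMod P.p) (Vp P)) (hN : IsGaloisStable ℚ N)
    [Finite (Vp P)] (i : Fin 3) : ∃ r : ℚ, algebraMap ℚ Qbar r = Xi P N i :=
  H12.exists_rat_of_fixed _ (Xi_fixed P N hN i)

/-- The valuation of `Ξ_i` is the product of the valuations of the factors. -/
lemma val_Xi (P : FreyPackage) (N : Submodule (ZMod P.p) (Vp P)) [Fintype N] (i : Fin 3)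
    (A : ValuationSubring Qbar) :
    A.valuation (Xi P N i) =
      ∏ Q : N, A.valuation (xiFactor P i ((Q : Vp P) : (P.freyCurve⁄Qbar).Point)) := by
  rw [Xi_eq_prod, map_prod]

lemma xiFactor_zero (P : FreyPackage) (i : Fin 3) :
    xiFactor P i (((0 : Vp P) : Vp P) : (P.freyCurve⁄Qbar).Point) = 1 := rfl

/-- If all factors are units at `A`, `Ξ_i` is a unit at `A`. -/
lemma val_Xi_eq_one_of_unitType (P : FreyPackage) (N : Submodule (ZMod P.p) (Vp P))
    [Finite (Vp P)] (A : ValuationSubring Qbar) (h : UnitTypeAt P N A) (i : Fin 3) :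
    A.valuation (Xi P N i) = 1 := by
  classical
  let _ : Fintype N := Fintype.ofFinite _
  rw [val_Xi]
  apply Finset.prod_eq_one
  intro Q _
  by_cases hQ : (Q : Vp P) = 0
  · rw [hQ, xiFactor_zero, map_one]
  · exact h Q Q.2 hQ i

/-- There is a prime not dividing a given nonzero natural number. -/
lemma exists_prime_not_dvd (n : ℕ) (hn : n ≠ 0) : ∃ ℓ : ℕ, ℓ.Prime ∧ ¬ ℓ ∣ n := by
  obtain ⟨ℓ, hℓ1, hℓ2⟩ := Nat.exists_infinite_primes (n + 1)
  exact ⟨ℓ, hℓ2, fun h => absurd (Nat.le_of_dvd (Nat.pos_of_ne_zero hn) h) (by omega)⟩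

/-- (RAT) from (I0), (I1) and (VAL-good). -/
theorem stmt_rat_of_inputs (h0 : Stmt_exists_valuationSubring) (h1 : Stmt_card)
    (hgood : Stmt_unit_good) : Stmt_rat := by
  classical
  intro P L i
  obtain ⟨hfin, -⟩ := h1 P
  obtain ⟨r, hr⟩ := Xi_rat P L.N L.stable i
  refine ⟨r, ?_, hr⟩
  rintro rfl
  rw [_root_.map_zero] at hr
  -- a good odd prime `ℓ ≠ p`
  have hn : 2 * P.p * (P.a * P.b * P.c).natAbs ≠ 0 := by
    have h2 : (P.a * P.b * P.c) ≠ 0 := mul_ne_zero (mul_ne_zero P.ha0 P.hb0) P.hc0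
    have := P.pp.ne_zero
    have := Int.natAbs_ne_zero.mpr h2
    positivity
  obtain ⟨ℓ, hℓ, hℓn⟩ := exists_prime_not_dvd _ hn
  have hℓ2 : ℓ ≠ 2 := by
    rintro rfl
    exact hℓn (Dvd.dvd.mul_right (Dvd.dvd.mul_right (dvd_refl 2) _) _)
  have hℓp : ℓ ≠ P.p := by
    rintro rfl
    exact hℓn (Dvd.dvd.mul_right (Dvd.dvd.mul_left (dvd_refl _) _) _)
  have hℓabc : ¬ (ℓ : ℤ) ∣ P.a * P.b * P.c := by
    intro h
    apply hℓn
    apply Dvd.dvd.mul_left
    exact Int.natCast_dvd.mp h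
  obtain ⟨A, hA⟩ := h0 ℓ hℓ
  have hunit := hgood P L ℓ hℓ hℓ2 hℓp hℓabc A hA
  have := val_Xi_eq_one_of_unitType P L.N A hunit i
  rw [← hr, _root_.map_zero] at this
  exact zero_ne_one this

end Fermat.Agent.S12.H67

end
-- ==== END Fermat.Agent.S12.H67_Rat

-- ==== BEGIN Fermat.Agent.S12.H87_ValBLocal
section

set_option autoImplicit false

namespace Fermat.Agent.S12.H87

open WeierstrassCurve WeierstrassCurve.Affine WeierstrassCurve.Affine.Point
open Fermat.Agent.S05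

section valB

variable {L : Type*} [Field L] [DecidableEq L] {A : ValuationSubring L} {W : Affine L}

/-- The properties of the component homomorphism (the output of S05 `Stmt_M1`). -/
structure CompHom (hyp : ModelHyp A W) (β : L) (φ : W.Point →+ Additive (CompGroup hyp)) :
    Prop where
  ker : ∀ P, φ P = 0 ↔ S05.InE0 A P
  val : ∀ (x y : L) (h : W.Nonsingular x y) (hx0 : x ≠ 0),
    A.valuation W.a₄ < A.valuation x → A.valuation x < 1 →
    A.valuation (y - β * x) < A.valuation x →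
    φ (.some x y h) = Additive.ofMul (QuotientGroup.mk (valUnit A x hx0))

variable {hyp : ModelHyp A W} {β : L} {φ : W.Point →+ Additive (CompGroup hyp)}

/-- A point of odd order outside `E₀` lies in the annulus `|b| < |x| < 1`. -/
theorem torsion_annulus (hφ : CompHom hyp β φ) {x y : L} (h : W.Nonsingular x y)
    (hx : A.valuation x < 1) (p : ℕ) (hodd : Odd p) (hP : p • Point.some x y h = 0) :
    A.valuation W.a₄ < A.valuation x := by
  by_contra hle
  rw [not_lt] at hle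
  by_cases hx0 : x = 0
  · subst hx0
    have hy0 : y = 0 := H55.y_eq_zero_of_x_eq_zero hyp.a₁ hyp.a₃ hyp.a₆ h
    subst hy0
    exact Point.some_ne_zero h (eq_zero_of_two_of_odd (two_nsmul_root hyp h) hodd hP)
  · -- `P + T ∈ E₀`
    have hsum : S05.InE0 A (Point.some x y h + pointT hyp) := by
      rw [pointT, add_of_X_ne hx0]
      show 1 ≤ A.valuation (W.addX x 0 (W.slope x 0 y 0))
      rw [H55.addX_zero_zero hyp.a₁ hyp.a₃ hyp.a₆ hx0 h, map_div₀]
      have hv0 : 0 < A.valuation x := zero_lt_iff.mpr ((Valuation.ne_zero_iff _).mpr hx0)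
      rw [one_le_div₀ hv0]
      exact hle
    have h1 : φ (Point.some x y h) + φ (pointT hyp) = 0 := by
      rw [← map_add]; exact (hφ.ker _).mpr hsum
    have hT2 : 2 • φ (pointT hyp) = 0 := by
      rw [← map_nsmul, pointT, two_nsmul_root hyp, _root_.map_zero]
    have hP2 : 2 • φ (Point.some x y h) = 0 := by
      have : φ (Point.some x y h) = -φ (pointT hyp) := eq_neg_of_add_eq_zero_left h1
      rw [this, _root_.neg_nsmul, hT2, _root_.neg_zero]
    have hPp : p • φ (Point.some x y h) = 0 := by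
      rw [← map_nsmul, hP, _root_.map_zero]
    have h0 : φ (Point.some x y h) = 0 := eq_zero_of_two_of_odd hP2 hodd hPp
    have : S05.InE0 A (Point.some x y h) := (hφ.ker _).mp h0
    exact absurd hx (not_lt.mpr this)

/-- On the annulus, `φ P = ± [|x|]`. -/
theorem phi_eq_or (hφ : CompHom hyp β φ) (hb : A.valuation W.a₄ < 1) (hβ : β ^ 2 = W.a₂)
    {x y : L} (h : W.Nonsingular x y) (hx0 : x ≠ 0)
    (hxb : A.valuation W.a₄ < A.valuation x) (hx1 : A.valuation x < 1) :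
    φ (Point.some x y h) = M1.cls hyp (valUnit A x hx0) ∨
      φ (Point.some x y h) = -M1.cls hyp (valUnit A x hx0) := by
  rcases M1.mid_or hyp hb hβ h hxb hx1 with h1 | h1
  · exact Or.inl (hφ.val x y h hx0 hxb hx1 h1)
  · right
    have hns : W.Nonsingular x (-y) := by
      have := (nonsingular_neg x y).mpr h
      rwa [H87.model_negY hyp x y] at this
    have hneg : -Point.some x y h = Point.some x (-y) hns := by
      rw [Point.neg_some]
      congr 1
      exact H87.model_negY hyp x y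
    have h2 : A.valuation (-y - β * x) < A.valuation x := by
      have : -y - β * x = -(y + β * x) := by ring
      rw [this, Valuation.map_neg]
      exact h1
    have h3 := hφ.val x (-y) hns hx0 hxb hx1 h2
    rw [← hneg, map_neg] at h3
    have h4 : -φ (Point.some x y h) = M1.cls hyp (valUnit A x hx0) := h3
    rw [← h4, neg_neg]

/-! ### The value group modulo `⟨|b|²⟩` -/

omit [DecidableEq L] in
/-- Membership of `⟨|b|²⟩`, in the value group. -/
lemma mem_zpowers_val {u : (A.ValueGroup)ˣ} (hu : u ∈ Subgroup.zpowers (bUnit hyp ^ 2)) :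
    ∃ K : ℤ, (u : A.ValueGroup) = (A.valuation W.a₄ ^ 2) ^ K := by
  obtain ⟨k, rfl⟩ := Subgroup.mem_zpowers_iff.1 hu
  exact ⟨k, by rw [Units.val_zpow_eq_zpow_val, Units.val_pow_eq_pow_val, M1.val_bUnit]⟩

omit [DecidableEq L] in
lemma val_b_pos (hyp : ModelHyp A W) : (0 : A.ValueGroup) < A.valuation W.a₄ :=
  zero_lt_iff.2 (by simpa using hyp.b_ne)

omit [DecidableEq L] in
/-- Two units of the annulus with the same class are equal. -/
lemma le_of_cls_eq (hb : A.valuation W.a₄ < 1) {u u' : (A.ValueGroup)ˣ}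
    (hu : A.valuation W.a₄ < (u : A.ValueGroup)) (hu' : (u' : A.ValueGroup) < 1)
    (h : M1.cls hyp u = M1.cls hyp u') : (u' : A.ValueGroup) ≤ u := by
  have h0 : M1.cls hyp (u * u'⁻¹) = 0 := by
    rw [M1.cls_mul, M1.cls_inv, h, add_neg_cancel]
  have hu'pos : (0 : A.ValueGroup) < u' := zero_lt_iff.2 u'.ne_zero
  rcases M1.mem_zpowers_cases hyp hb ((M1.cls_eq_zero_iff hyp _).1 h0) with h1 | h1
  · rw [Units.val_mul, Units.val_inv_eq_inv_val] at h1
    rwa [le_mul_inv_iff₀ hu'pos, one_mul] at h1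
  · exfalso
    rw [Units.val_mul, Units.val_inv_eq_inv_val, mul_inv_le_iff₀ hu'pos] at h1
    have h2 : A.valuation W.a₄ ^ 2 * (u' : A.ValueGroup) ≤ A.valuation W.a₄ ^ 2 * 1 := by
      gcongr
    rw [mul_one] at h2
    exact absurd (lt_of_le_of_lt (h1.trans h2) (M1.b_sq_lt_b hyp hb)) (not_lt.2 hu.le)

omit [DecidableEq L] in
lemma eq_of_cls_eq (hb : A.valuation W.a₄ < 1) {u u' : (A.ValueGroup)ˣ}
    (hu : A.valuation W.a₄ < (u : A.ValueGroup)) (hu1 : (u : A.ValueGroup) < 1)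
    (hu' : A.valuation W.a₄ < (u' : A.ValueGroup)) (hu1' : (u' : A.ValueGroup) < 1)
    (h : M1.cls hyp u = M1.cls hyp u') : (u : A.ValueGroup) = u' :=
  le_antisymm (le_of_cls_eq hb hu' hu1 h.symm) (le_of_cls_eq hb hu hu1' h)

omit [DecidableEq L] in
lemma false_of_cls_eq_neg (hb : A.valuation W.a₄ < 1) {u u' : (A.ValueGroup)ˣ}
    (hu : A.valuation W.a₄ < (u : A.ValueGroup)) (hu1 : (u : A.ValueGroup) < 1)
    (hu' : A.valuation W.a₄ < (u' : A.ValueGroup)) (hu1' : (u' : A.ValueGroup) < 1)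
    (h : M1.cls hyp u = -M1.cls hyp u') : False := by
  have h0 : M1.cls hyp (u * u') = 0 := by
    rw [M1.cls_mul, h, neg_add_cancel]
  have hbpos := val_b_pos hyp
  have hu'pos : (0 : A.ValueGroup) < u' := zero_lt_iff.2 u'.ne_zero
  rcases M1.mem_zpowers_cases hyp hb ((M1.cls_eq_zero_iff hyp _).1 h0) with h1 | h1
  · rw [Units.val_mul] at h1
    have h2 : (u : A.ValueGroup) * u' < 1 * 1 := by
      gcongr
      exact zero_le
    rw [mul_one] at h2
    exact absurd h2 (not_lt.2 h1)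
  · rw [Units.val_mul, sq] at h1
    have h2 : A.valuation W.a₄ * A.valuation W.a₄ < (u : A.ValueGroup) * u' := by gcongr
    exact absurd h2 (not_lt.2 h1)

/-- `|x|^p ∈ ⟨|b|²⟩` for a `p`-torsion point of the annulus. -/
theorem pow_val_mem (hφ : CompHom hyp β φ) (hb : A.valuation W.a₄ < 1) (hβ : β ^ 2 = W.a₂)
    {x y : L} (h : W.Nonsingular x y) (hx0 : x ≠ 0)
    (hxb : A.valuation W.a₄ < A.valuation x) (hx1 : A.valuation x < 1) (p : ℕ)
    (hP : p • Point.some x y h = 0) :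
    ∃ K : ℤ, A.valuation x ^ p = (A.valuation W.a₄ ^ 2) ^ K := by
  have hp0 : p • φ (Point.some x y h) = 0 := by rw [← map_nsmul, hP, _root_.map_zero]
  have hcls : p • M1.cls hyp (valUnit A x hx0) = 0 := by
    rcases phi_eq_or hφ hb hβ h hx0 hxb hx1 with h1 | h1
    · rwa [h1] at hp0
    · rw [h1, _root_.neg_nsmul, neg_eq_zero] at hp0
      exact hp0
  have h0 : M1.cls hyp (valUnit A x hx0 ^ p) = 0 := hcls
  obtain ⟨K, hK⟩ := mem_zpowers_val ((M1.cls_eq_zero_iff hyp _).1 h0)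
  exact ⟨K, by rw [← hK, Units.val_pow_eq_pow_val, M1.val_valUnit]⟩

/-- On the annulus `|x|` is determined by `φ`. -/
theorem val_eq_of_phi_eq (hφ : CompHom hyp β φ) (hb : A.valuation W.a₄ < 1)
    (hβ : β ^ 2 = W.a₂) {x y x' y' : L} (h : W.Nonsingular x y) (h' : W.Nonsingular x' y')
    (hxb : A.valuation W.a₄ < A.valuation x) (hx1 : A.valuation x < 1)
    (hxb' : A.valuation W.a₄ < A.valuation x') (hx1' : A.valuation x' < 1)
    (heq : φ (Point.some x y h) = φ (Point.some x' y' h')) :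
    A.valuation x = A.valuation x' := by
  have hx0 : x ≠ 0 := by
    rintro rfl
    rw [_root_.map_zero] at hxb
    exact not_lt_zero hxb
  have hx0' : x' ≠ 0 := by
    rintro rfl
    rw [_root_.map_zero] at hxb'
    exact not_lt_zero hxb'
  rcases phi_eq_or hφ hb hβ h hx0 hxb hx1 with h1 | h1 <;>
    rcases phi_eq_or hφ hb hβ h' hx0' hxb' hx1' with h2 | h2 <;>
    rw [h1, h2] at heq
  · exact eq_of_cls_eq (u := valUnit A x hx0) (u' := valUnit A x' hx0') hb hxb hx1 hxb' hx1' heq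
  · exact (false_of_cls_eq_neg (u := valUnit A x hx0) (u' := valUnit A x' hx0') hb hxb hx1
      hxb' hx1' heq).elim
  · exact (false_of_cls_eq_neg (u := valUnit A x' hx0') (u' := valUnit A x hx0) hb hxb' hx1'
      hxb hx1 heq.symm).elim
  · exact eq_of_cls_eq (u := valUnit A x hx0) (u' := valUnit A x' hx0') hb hxb hx1 hxb' hx1'
      (neg_injective heq)

/-- Torsion-freeness of the value group: the `p`-torsion of `Γ / ⟨B²⟩` is cyclic. -/
lemma bezout_val {Γ : Type*} [LinearOrderedCommGroupWithZero Γ] {B u v : Γ} (hB0 : 0 < B)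
    (hB1 : B < 1) (hv0 : B < v) (hv1 : v < 1) {p : ℕ} (hp : p.Prime) {k l : ℤ}
    (hu : u ^ p = (B ^ 2) ^ k) (hv : v ^ p = (B ^ 2) ^ l) :
    ∃ m n : ℤ, u = v ^ m * (B ^ 2) ^ n := by
  have hB2 : (0 : Γ) < B ^ 2 := pow_pos hB0 2
  have hB21 : B ^ 2 ≤ 1 := pow_le_one₀ zero_le hB1.le
  have hl0 : 0 < l := by
    by_contra hl
    rw [not_lt] at hl
    have h1 : 1 ≤ (B ^ 2) ^ l := one_le_zpow_of_nonpos₀ hB2 hB21 hl
    rw [← hv] at h1
    exact absurd (pow_lt_one₀ zero_le hv1 hp.ne_zero) (not_lt.2 h1)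
  have hlp : 2 * l < p := by
    have h1 : B ^ p < v ^ p := pow_lt_pow_left₀ hv0 zero_le hp.ne_zero
    rw [hv, ← zpow_natCast, ← zpow_natCast B 2, ← zpow_mul] at h1
    exact (zpow_lt_zpow_iff_right_of_lt_one₀ hB0 hB1).1 h1
  have hnd : ¬ (p : ℤ) ∣ l := by
    intro hd
    have := Int.le_of_dvd hl0 hd
    omega
  obtain ⟨a, b', hab⟩ := (Prime.coprime_iff_not_dvd (Nat.prime_iff_prime_int.mp hp)).2 hnd
  refine ⟨k * b', k * a, ?_⟩
  apply (pow_left_inj₀ zero_le zero_le hp.ne_zero).1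
  rw [hu, mul_pow, ← zpow_natCast (v ^ (k * b')), ← zpow_mul, mul_comm (k * b') (p : ℤ),
    zpow_mul, zpow_natCast, hv, ← zpow_natCast ((B ^ 2) ^ (k * a)) p, ← zpow_mul, ← zpow_mul,
    ← zpow_add₀ hB2.ne']
  congr 1
  linear_combination (-k) * hab

/-- The classes of the `p`-torsion points are the multiples of the class of one `p`-torsion
point outside `E₀`. -/
theorem exists_zsmul_phi (hφ : CompHom hyp β φ) (hb : A.valuation W.a₄ < 1)
    (hβ : β ^ 2 = W.a₂) {p : ℕ} (hp : p.Prime) (hodd : Odd p) {R₀ Q : W.Point}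
    (hR₀ : p • R₀ = 0) (hR₀E : ¬ S05.InE0 A R₀) (hQ : p • Q = 0) :
    ∃ m : ℤ, φ Q = m • φ R₀ := by
  by_cases hQE : S05.InE0 A Q
  · exact ⟨0, by rw [zero_zsmul]; exact (hφ.ker Q).2 hQE⟩
  rcases Q with _ | ⟨x, y, h⟩
  · exact absurd trivial hQE
  rcases R₀ with _ | ⟨x₀, y₀, h₀⟩
  · exact absurd trivial hR₀E
  have hx1 : A.valuation x < 1 := not_le.1 hQE
  have hx1' : A.valuation x₀ < 1 := not_le.1 hR₀E
  have hxb := torsion_annulus hφ h hx1 p hodd hQ
  have hxb' := torsion_annulus hφ h₀ hx1' p hodd hR₀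
  have hx0 : x ≠ 0 := by
    rintro rfl
    rw [_root_.map_zero] at hxb
    exact not_lt_zero hxb
  have hx0' : x₀ ≠ 0 := by
    rintro rfl
    rw [_root_.map_zero] at hxb'
    exact not_lt_zero hxb'
  obtain ⟨k, hk⟩ := pow_val_mem hφ hb hβ h hx0 hxb hx1 p hQ
  obtain ⟨l, hl⟩ := pow_val_mem hφ hb hβ h₀ hx0' hxb' hx1' p hR₀
  obtain ⟨m, n, hmn⟩ := bezout_val (val_b_pos hyp) hb hxb' hx1' hp hk hl
  have hu : valUnit A x hx0 = valUnit A x₀ hx0' ^ m * (bUnit hyp ^ 2) ^ n := by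
    apply Units.ext
    rw [Units.val_mul, Units.val_zpow_eq_zpow_val, Units.val_zpow_eq_zpow_val,
      Units.val_pow_eq_pow_val, M1.val_valUnit, M1.val_valUnit, M1.val_bUnit]
    exact hmn
  have hb0 : M1.cls hyp ((bUnit hyp ^ 2) ^ n) = 0 :=
    (M1.cls_eq_zero_iff hyp _).2 (Subgroup.zpow_mem _ (Subgroup.mem_zpowers _) n)
  have hcls : M1.cls hyp (valUnit A x hx0) = m • M1.cls hyp (valUnit A x₀ hx0') := by
    rw [hu, M1.cls_mul, hb0, add_zero]
    rfl
  rcases phi_eq_or hφ hb hβ h hx0 hxb hx1 with h1 | h1 <;>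
    rcases phi_eq_or hφ hb hβ h₀ hx0' hxb' hx1' with h2 | h2
  · exact ⟨m, by rw [h1, h2, hcls]⟩
  · exact ⟨-m, by rw [h1, h2, hcls, neg_zsmul, zsmul_neg, neg_neg]⟩
  · exact ⟨-m, by rw [h1, h2, hcls, neg_zsmul]⟩
  · exact ⟨m, by rw [h1, h2, hcls, zsmul_neg]⟩

/-! ### The function `|x|` on torsion points -/

/-- `|x(P)|`, with the value `1` at infinity. -/
noncomputable def xv1 (A : ValuationSubring L) {W : Affine L} : W.Point → A.ValueGroup
  | .zero => 1
  | .some x _ _ => A.valuation x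

omit [DecidableEq L] in
lemma xv1_zero : xv1 A (0 : W.Point) = 1 := rfl

omit [DecidableEq L] in
lemma xv1_some {x y : L} (h : W.Nonsingular x y) : xv1 A (Point.some x y h) = A.valuation x :=
  rfl

/-- A torsion point of `E₀` has `|x| = 1`. -/
theorem xv1_eq_one_of_InE0 (hyp : ModelHyp A W) {p : ℕ} (hvp : A.valuation (p : L) = 1)
    {T : W.Point} (hT : p • T = 0) (hE : S05.InE0 A T) : xv1 A T = 1 := by
  rcases T with _ | ⟨x, y, h⟩
  · rfl
  · exact le_antisymm (val_x_le_one_of_torsion hyp h p hvp hT) hE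

/-- Outside `E₀`, `|x|` is determined by `φ`. -/
theorem xv1_eq_of_phi_eq (hφ : CompHom hyp β φ) (hb : A.valuation W.a₄ < 1)
    (hβ : β ^ 2 = W.a₂) {p : ℕ} (hodd : Odd p) {T T' : W.Point} (hT : p • T = 0)
    (hT' : p • T' = 0) (hE : ¬ S05.InE0 A T) (heq : φ T = φ T') : xv1 A T = xv1 A T' := by
  have hE' : ¬ S05.InE0 A T' := fun h' => hE ((hφ.ker T).1 (heq.trans ((hφ.ker T').2 h')))
  rcases T with _ | ⟨x, y, h⟩
  · exact absurd trivial hE
  rcases T' with _ | ⟨x', y', h'⟩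
  · exact absurd trivial hE'
  have hx1 : A.valuation x < 1 := not_le.1 hE
  have hx1' : A.valuation x' < 1 := not_le.1 hE'
  exact val_eq_of_phi_eq hφ hb hβ h h' (torsion_annulus hφ h hx1 p hodd hT) hx1
    (torsion_annulus hφ h' hx1' p hodd hT') hx1' heq

/-- `|x|^p ∈ ⟨|b|²⟩` for a `p`-torsion point. -/
theorem xv1_pow_mem (hφ : CompHom hyp β φ) (hb : A.valuation W.a₄ < 1)
    (hβ : β ^ 2 = W.a₂) {p : ℕ} (hodd : Odd p) (hvp : A.valuation (p : L) = 1) {T : W.Point}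
    (hT : p • T = 0) : ∃ K : ℤ, xv1 A T ^ p = (A.valuation W.a₄ ^ 2) ^ K := by
  by_cases hE : S05.InE0 A T
  · exact ⟨0, by rw [xv1_eq_one_of_InE0 hyp hvp hT hE, one_pow, zpow_zero]⟩
  rcases T with _ | ⟨x, y, h⟩
  · exact absurd trivial hE
  have hx1 : A.valuation x < 1 := not_le.1 hE
  have hxb := torsion_annulus hφ h hx1 p hodd hT
  have hx0 : x ≠ 0 := by
    rintro rfl
    rw [_root_.map_zero] at hxb
    exact not_lt_zero hxb
  exact pow_val_mem hφ hb hβ h hx0 hxb hx1 p hT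

/-- For a `p`-torsion point, `|x - r| = |x|` when `|r| ≤ |b|` (`r` the colliding root). -/
theorem val_sub_small (hφ : CompHom hyp β φ) (hb : A.valuation W.a₄ < 1) {p : ℕ}
    (hodd : Odd p) (hvp : A.valuation (p : L) = 1) {x y : L} (h : W.Nonsingular x y)
    (hP : p • Point.some x y h = 0) {r : L} (hr : A.valuation r ≤ A.valuation W.a₄) :
    A.valuation (x - r) = A.valuation x := by
  apply Valuation.map_sub_eq_of_lt_left
  rcases lt_or_eq_of_le (val_x_le_one_of_torsion hyp h p hvp hP) with hx | hx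
  · exact lt_of_le_of_lt hr (torsion_annulus hφ h hx p hodd hP)
  · rw [hx]
    exact lt_of_le_of_lt hr hb

/-- For a `p`-torsion point, `|x - s| = 1` when `s` is the unit root. -/
theorem val_sub_unit (hyp : ModelHyp A W) {p : ℕ} (hodd : Odd p)
    (hvp : A.valuation (p : L) = 1) {x y : L} (h : W.Nonsingular x y)
    (hP : p • Point.some x y h = 0) {s : L} (hs : s ^ 2 + W.a₂ * s + W.a₄ = 0)
    (hs1 : A.valuation s = 1) : A.valuation (x - s) = 1 := by
  rcases lt_or_eq_of_le (val_x_le_one_of_torsion hyp h p hvp hP) with hx | hx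
  · rw [Valuation.map_sub_eq_of_lt_right _ (by rw [hs1]; exact hx), hs1]
  · exact val_x_sub_root_eq_one hyp hs hs1 h hx p hodd hvp hP

/-! ### Products over a line -/

section coset

variable {G : Type*} [AddCommGroup G] (Φ : G →+ W.Point) (S : AddSubgroup G) [Fintype S]

/-- The product of the `|x|` over a coset `Q + S` of a line `S` with `S ∩ E₀ = 0` equals the
product over `S`. -/
theorem prod_coset_eq (hφ : CompHom hyp β φ) (hb : A.valuation W.a₄ < 1) (hβ : β ^ 2 = W.a₂)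
    {p : ℕ} (hp : p.Prime) (hodd : Odd p) (hvp : A.valuation (p : L) = 1)
    (hcard : Nat.card S = p) (hS : ∀ R ∈ S, p • R = 0)
    {R₀ : G} (hR₀ : R₀ ∈ S) (hR₀E : ¬ S05.InE0 A (Φ R₀)) {Q : G} (hQ : p • Q = 0)
    (hQS : Q ∉ S) :
    ∏ R : S, xv1 A (Φ (Q + R)) = ∏ R : S, xv1 A (Φ (R : G)) := by
  -- every nonzero point of `S` is outside `E₀`
  have hSE : ∀ R : S, R ≠ 0 → ¬ S05.InE0 A (Φ (R : G)) := by
    intro R hR0 hE
    have : Fact p.Prime := ⟨hp⟩
    have htop := zmultiples_eq_top_of_prime_card (G := S) hcard hR0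
    have hmem : (⟨R₀, hR₀⟩ : S) ∈ AddSubgroup.zmultiples R := by
      rw [htop]; trivial
    obtain ⟨m, hm⟩ := AddSubgroup.mem_zmultiples_iff.1 hmem
    have hm' : m • (R : G) = R₀ := by
      have := congrArg Subtype.val hm
      simpa using this
    apply hR₀E
    apply (hφ.ker _).1
    rw [← hm', map_zsmul, map_zsmul, (hφ.ker _).2 hE, zsmul_zero]
  have hR₀p : p • Φ R₀ = 0 := by rw [← map_nsmul, hS R₀ hR₀, _root_.map_zero]
  have hQp : p • Φ Q = 0 := by rw [← map_nsmul, hQ, _root_.map_zero]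
  obtain ⟨m, hm⟩ := exists_zsmul_phi hφ hb hβ hp hodd hR₀p hR₀E hQp
  have hcS : m • R₀ ∈ S := S.zsmul_mem hR₀ m
  have htE : S05.InE0 A (Φ (Q - m • R₀)) := by
    apply (hφ.ker _).1
    rw [map_sub, map_sub, map_zsmul, map_zsmul, hm, sub_self]
  have ht0 : Q - m • R₀ ≠ 0 := fun h => hQS (by rw [sub_eq_zero.1 h]; exact hcS)
  have htp : p • (Q - m • R₀) = 0 := by
    rw [smul_sub, hQ, smul_comm, hS R₀ hR₀, smul_zero, sub_zero]
  have hstep : ∀ R : S, xv1 A (Φ ((Q - m • R₀) + (R : G))) = xv1 A (Φ (R : G)) := by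
    intro R
    by_cases hR0 : R = 0
    · rw [hR0, AddSubgroup.coe_zero, add_zero, _root_.map_zero, xv1_zero]
      exact xv1_eq_one_of_InE0 hyp hvp (by rw [← map_nsmul, htp, _root_.map_zero]) htE
    · symm
      apply xv1_eq_of_phi_eq hφ hb hβ hodd
      · rw [← map_nsmul, hS R R.2, _root_.map_zero]
      · rw [← map_nsmul, smul_add, htp, hS R R.2, add_zero, _root_.map_zero]
      · exact hSE R hR0
      · rw [map_add, map_add, (hφ.ker _).2 htE, zero_add]
  calc ∏ R : S, xv1 A (Φ (Q + R))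
      = ∏ R : S, xv1 A (Φ ((Q - m • R₀) + ((Equiv.addLeft (⟨m • R₀, hcS⟩ : S) R : S) : G))) := by
        refine Finset.prod_congr rfl (fun R _ => ?_)
        congr 2
        simp only [Equiv.coe_addLeft, AddSubgroup.coe_add]
        abel
    _ = ∏ R : S, xv1 A (Φ ((Q - m • R₀) + (R : G))) :=
        Equiv.prod_comp (Equiv.addLeft (⟨m • R₀, hcS⟩ : S))
          (fun R : S => xv1 A (Φ ((Q - m • R₀) + (R : G))))
    _ = ∏ R : S, xv1 A (Φ (R : G)) := Finset.prod_congr rfl (fun R _ => hstep R)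

/-- The `p`-th power of the product of the `|x|` over a set of `p`-torsion points lies in
`⟨|b|²⟩`. -/
theorem prod_pow_mem (hφ : CompHom hyp β φ) (hb : A.valuation W.a₄ < 1) (hβ : β ^ 2 = W.a₂)
    {p : ℕ} (hodd : Odd p) (hvp : A.valuation (p : L) = 1) (hS : ∀ R ∈ S, p • R = 0) :
    ∃ K : ℤ, (∏ R : S, xv1 A (Φ (R : G))) ^ p = (A.valuation W.a₄ ^ 2) ^ K := by
  rw [← Finset.prod_pow]
  refine Finset.prod_induction _ (fun g => ∃ K : ℤ, g = (A.valuation W.a₄ ^ 2) ^ K) ?_ ?_ ?_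
  · rintro a b ⟨K, rfl⟩ ⟨K', rfl⟩
    exact ⟨K + K', (zpow_add₀ (pow_ne_zero 2 (val_b_pos hyp).ne') _ _).symm⟩
  · exact ⟨0, (zpow_zero _).symm⟩
  · intro R _
    exact xv1_pow_mem hφ hb hβ hodd hvp (by rw [← map_nsmul, hS R R.2, _root_.map_zero])

end coset

end valB

end Fermat.Agent.S12.H87

end
-- ==== END Fermat.Agent.S12.H87_ValBLocal

-- ==== BEGIN Fermat.Agent.S12.H87_ValOdd
section

set_option autoImplicit false

namespace Fermat.Agent.S12.H87

open WeierstrassCurve WeierstrassCurve.Affine WeierstrassCurve.Affine.Point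
open Fermat.Agent.S05 Fermat.Agent.S13

/-- The short model of the Frey curve centred at the integer root `e`; the other two roots are
`e + r` and `e + s`. -/
structure Centre (P : FreyPackage) (e r s : ℤ) : Prop where
  h2 : 3 * e + (P.b ^ P.p - P.a ^ P.p) = -(r + s)
  h4 : 3 * e ^ 2 + 2 * (P.b ^ P.p - P.a ^ P.p) * e - P.a ^ P.p * P.b ^ P.p = r * s
  he : e ^ 3 + (P.b ^ P.p - P.a ^ P.p) * e ^ 2 - P.a ^ P.p * P.b ^ P.p * e = 0
  hr : r ≠ 0
  hs : s ≠ 0

lemma centre0 (P : FreyPackage) : Centre P 0 (P.a ^ P.p) (-(P.b ^ P.p)) where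
  h2 := by ring
  h4 := by ring
  he := by ring
  hr := pow_ne_zero _ P.ha0
  hs := neg_ne_zero.2 (pow_ne_zero _ P.hb0)

lemma centre1 (P : FreyPackage) : Centre P (P.a ^ P.p) (-(P.a ^ P.p)) (-(P.c ^ P.p)) where
  h2 := by rw [← P.hFLT]; ring
  h4 := by rw [← P.hFLT]; ring
  he := by ring
  hr := neg_ne_zero.2 (pow_ne_zero _ P.ha0)
  hs := neg_ne_zero.2 (pow_ne_zero _ P.hc0)

lemma centre2 (P : FreyPackage) : Centre P (-(P.b ^ P.p)) (P.b ^ P.p) (P.c ^ P.p) where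
  h2 := by rw [← P.hFLT]; ring
  h4 := by rw [← P.hFLT]; ring
  he := by ring
  hr := pow_ne_zero _ P.hb0
  hs := pow_ne_zero _ P.hc0

section main

open Fermat.Agent.S05.H15

/-- The local statement in the model centred at `e`. -/
theorem unit_of_centre (P : FreyPackage) {e r s : ℤ} (hc : Centre P e r s) {ℓ : ℕ}
    (hℓ : ℓ.Prime) (hℓ2 : ℓ ≠ 2) (hℓp : ℓ ≠ P.p) (A : ValuationSubring Qbar)
    (hA : A.LiesOverPrime ℓ) (hdisc : ¬ (ℓ : ℤ) ∣ r - s) {X Y : Qbar}
    (h : (P.freyCurve⁄Qbar).Nonsingular X Y)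
    (hP : (P.p : ℤ) • (Point.some X Y h : (P.freyCurve⁄Qbar).Point) = 0)
    (hNF : (ℓ : ℤ) ∣ r * s → 1 ≤ A.valuation (4 * X - ((e : ℤ) : Qbar))) :
    A.valuation (4 * X - ((e : ℤ) : Qbar)) = 1 ∧
      (¬ (ℓ : ℤ) ∣ r → A.valuation (4 * X - ((e + r : ℤ) : Qbar)) = 1) ∧
      (¬ (ℓ : ℤ) ∣ s → A.valuation (4 * X - ((e + s : ℤ) : Qbar)) = 1) := by
  have hqK : ((ℓ : ℕ) : Qbar) ∈ A.nonunits := hA
  have h4 : 4 * P.freyCurve.a₂ + 1 = ((P.b ^ P.p - P.a ^ P.p : ℤ) : ℚ) := by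
    simp only [FreyPackage.freyCurve]
    push_cast
    ring
  have h16 : 16 * P.freyCurve.a₄ = ((-(P.a ^ P.p * P.b ^ P.p) : ℤ) : ℚ) := by
    simp only [FreyPackage.freyCurve]
    push_cast
    ring
  have hval2 : A.valuation (2 : Qbar) = 1 := by
    have := valuation_natCast_eq_one_of_ne (A := A) hℓ hqK Nat.prime_two (Ne.symm hℓ2)
    simpa using this
  have hvalp : A.valuation ((P.p : ℕ) : Qbar) = 1 :=
    valuation_natCast_eq_one_of_ne (A := A) hℓ hqK P.pp (Ne.symm hℓp)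
  have hcast : ∀ n : ℤ, algebraMap ℚ Qbar ((n : ℤ) : ℚ) = ((n : ℤ) : Qbar) := fun n => by simp
  have he' : ((e : ℤ) : ℚ) ^ 3 + (4 * P.freyCurve.a₂ + 1) * ((e : ℤ) : ℚ) ^ 2
      + 16 * P.freyCurve.a₄ * ((e : ℤ) : ℚ) = 0 := by
    rw [h4, h16]
    have := congrArg (Int.cast : ℤ → ℚ) hc.he
    push_cast at this ⊢
    linear_combination this
  have ha2 : (modelOf P.freyCurve ((e : ℤ) : ℚ)).a₂ = ((-(r + s) : ℤ) : ℚ) := by
    simp only [modelOf]
    rw [h4, ← hc.h2]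
    push_cast
    ring
  have ha4 : (modelOf P.freyCurve ((e : ℤ) : ℚ)).a₄ = ((r * s : ℤ) : ℚ) := by
    simp only [modelOf]
    rw [h4, h16, ← hc.h4]
    push_cast
    ring
  have ha2' : ((modelOf P.freyCurve ((e : ℤ) : ℚ))⁄Qbar).a₂ = ((-(r + s) : ℤ) : Qbar) := by
    show algebraMap ℚ Qbar _ = _
    rw [ha2, hcast]
  have ha4' : ((modelOf P.freyCurve ((e : ℤ) : ℚ))⁄Qbar).a₄ = ((r * s : ℤ) : Qbar) := by
    show algebraMap ℚ Qbar _ = _
    rw [ha4, hcast]
  have hyp : ModelHyp A ((modelOf P.freyCurve ((e : ℤ) : ℚ))⁄Qbar) := by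
    refine ⟨by simp [modelOf], by simp [modelOf], by simp [modelOf], ?_, ?_, ?_, hval2, ?_⟩
    · rw [ha2']; exact valuation_intCast_le_one A _
    · rw [ha4']; exact valuation_intCast_le_one A _
    · rw [ha4']
      have : (r * s : ℤ) ≠ 0 := mul_ne_zero hc.hr hc.hs
      exact_mod_cast this
    · rw [ha2', ha4']
      have : (((-(r + s) : ℤ) : Qbar)) ^ 2 - 4 * ((r * s : ℤ) : Qbar)
          = (((r - s) ^ 2 : ℤ) : Qbar) := by
        push_cast; ring
      rw [this]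
      exact valuation_intCast_eq_one_of_not_dvd hℓ hqK (H15.not_dvd_pow hℓ hdisc _)
  have hvc := H14.isVarChange_modelOf (L := Qbar) P.freyCurve rfl rfl rfl ((e : ℤ) : ℚ) he'
  -- the image point
  have hfx : H14.fx (2 : Qbar) (algebraMap ℚ Qbar (-((e : ℤ) : ℚ))) X = 4 * X - ((e : ℤ) : Qbar) := by
    rw [H14.fx, map_neg, hcast]
    ring
  have hns := (hvc.nonsingular_iff X Y).2 h
  have hΦ : (P.p : ℕ) • (Point.some _ _ hns :
      ((modelOf P.freyCurve ((e : ℤ) : ℚ))⁄Qbar).Point) = 0 := by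
    have h1 : (P.p : ℤ) • hvc.addEquiv (Point.some X Y h) = 0 :=
      (map_zsmul hvc.addEquiv (P.p : ℤ) _).symm.trans
        ((congrArg hvc.addEquiv hP).trans (_root_.map_zero hvc.addEquiv))
    rw [hvc.addEquiv_some, natCast_zsmul] at h1
    exact h1
  -- `|x'| = 1`
  have hx1 : A.valuation (H14.fx (2 : Qbar) (algebraMap ℚ Qbar (-((e : ℤ) : ℚ))) X) = 1 := by
    by_cases hrs : (ℓ : ℤ) ∣ r * s
    · refine le_antisymm (val_x_le_one_of_torsion hyp hns P.p hvalp hΦ) ?_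
      rw [hfx]
      exact hNF hrs
    · have hb : A.valuation ((modelOf P.freyCurve ((e : ℤ) : ℚ))⁄Qbar).a₄ = 1 := by
        rw [ha4']
        exact valuation_intCast_eq_one_of_not_dvd hℓ hqK hrs
      exact val_x_eq_one_good hyp hb hns P.p P.hp_odd hvalp hΦ
  have hroot : ∀ t : ℤ, (t = r ∨ t = s) → ¬ (ℓ : ℤ) ∣ t →
      A.valuation (4 * X - ((e + t : ℤ) : Qbar)) = 1 := by
    intro t ht hnd
    have hquad : ((t : ℤ) : Qbar) ^ 2 + ((modelOf P.freyCurve ((e : ℤ) : ℚ))⁄Qbar).a₂ * (t : Qbar)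
        + ((modelOf P.freyCurve ((e : ℤ) : ℚ))⁄Qbar).a₄ = 0 := by
      rw [ha2', ha4']
      rcases ht with rfl | rfl
      · push_cast; ring
      · push_cast; ring
    have ht1 : A.valuation ((t : ℤ) : Qbar) = 1 :=
      valuation_intCast_eq_one_of_not_dvd hℓ hqK hnd
    have := val_x_sub_root_eq_one hyp hquad ht1 hns hx1 P.p P.hp_odd hvalp hΦ
    rw [hfx] at this
    rw [← this]
    congr 1
    push_cast
    ring
  refine ⟨?_, hroot r (Or.inl rfl), hroot s (Or.inr rfl)⟩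
  rw [← hfx]
  exact hx1

/-- `ℓ` divides at most one of `a^p`, `b^p`, `c^p`. -/
lemma not_dvd_pair (P : FreyPackage) {ℓ : ℕ} (hℓ : ℓ.Prime) :
    (¬ ((ℓ : ℤ) ∣ P.a ^ P.p ∧ (ℓ : ℤ) ∣ P.b ^ P.p)) ∧
    (¬ ((ℓ : ℤ) ∣ P.a ^ P.p ∧ (ℓ : ℤ) ∣ P.c ^ P.p)) ∧
    (¬ ((ℓ : ℤ) ∣ P.b ^ P.p ∧ (ℓ : ℤ) ∣ P.c ^ P.p)) := by
  have hpr : Prime (ℓ : ℤ) := Nat.prime_iff_prime_int.mp hℓ
  refine ⟨?_, ?_, ?_⟩
  · rintro ⟨h1, h2⟩
    exact H15.not_dvd_of_gcd_eq_one hℓ P.hgcdab (hpr.dvd_of_dvd_pow h1) (hpr.dvd_of_dvd_pow h2)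
  · rintro ⟨h1, h2⟩
    exact H15.not_dvd_of_gcd_eq_one hℓ P.hgcdac (hpr.dvd_of_dvd_pow h1) (hpr.dvd_of_dvd_pow h2)
  · rintro ⟨h1, h2⟩
    exact H15.not_dvd_of_gcd_eq_one hℓ P.hgcdbc (hpr.dvd_of_dvd_pow h1) (hpr.dvd_of_dvd_pow h2)

/-- The statement for a single nonzero `p`-torsion point: if the point does not reduce to the
node at `A` (over an odd prime `ℓ ≠ p`) then all three `x_S(Q) - e_i` are units at `A`. -/
theorem unit_of_nodeFree_point (P : FreyPackage) {ℓ : ℕ} (hℓ : ℓ.Prime) (hℓ2 : ℓ ≠ 2)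
    (hℓp : ℓ ≠ P.p) (A : ValuationSubring Qbar) (hA : A.LiesOverPrime ℓ) (Q : Vp P) (hQ0 : Q ≠ 0)
    (hNF : ∀ i j : Fin 3, i ≠ j →
      A.valuation (((eRoot P i : ℤ) : Qbar) - ((eRoot P j : ℤ) : Qbar)) < 1 →
      1 ≤ A.valuation (xiFactor P i (Q : (P.freyCurve⁄Qbar).Point)))
    (i : Fin 3) : A.valuation (xiFactor P i (Q : (P.freyCurve⁄Qbar).Point)) = 1 := by
  have hqK : ((ℓ : ℕ) : Qbar) ∈ A.nonunits := hA
  have hpr : Prime (ℓ : ℤ) := Nat.prime_iff_prime_int.mp hℓ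
  obtain ⟨Q, hQmem⟩ := Q
  have hQ0' : Q ≠ 0 := fun h => hQ0 (Subtype.ext h)
  have hQtor : (P.p : ℤ) • Q = 0 := by
    rwa [Submodule.mem_torsionBy_iff] at hQmem
  rcases Q with _ | ⟨X, Y, h⟩
  · exact absurd rfl hQ0'
  obtain ⟨hab, hac, hbc⟩ := not_dvd_pair P hℓ
  -- the node-free hypothesis in terms of divisibility
  have hNF' : ∀ i j : Fin 3, i ≠ j → (ℓ : ℤ) ∣ eRoot P i - eRoot P j →
      1 ≤ A.valuation (4 * X - ((eRoot P i : ℤ) : Qbar)) := by
    intro i j hij hd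
    refine hNF i j hij ?_
    rw [← Int.cast_sub]
    exact valuation_intCast_lt_one_of_dvd hqK hd
  have e0 : eRoot P 0 = 0 := rfl
  have e1 : eRoot P 1 = P.a ^ P.p := rfl
  have e2 : eRoot P 2 = -(P.b ^ P.p) := rfl
  have hcab : P.c ^ P.p = P.a ^ P.p + P.b ^ P.p := P.hFLT.symm
  -- the three models
  have U0 := fun (hd : ¬ (ℓ : ℤ) ∣ P.a ^ P.p - -(P.b ^ P.p)) =>
    unit_of_centre P (centre0 P) hℓ hℓ2 hℓp A hA hd h hQtor
  have U1 := fun (hd : ¬ (ℓ : ℤ) ∣ -(P.a ^ P.p) - -(P.c ^ P.p)) =>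
    unit_of_centre P (centre1 P) hℓ hℓ2 hℓp A hA hd h hQtor
  have U2 := fun (hd : ¬ (ℓ : ℤ) ∣ P.b ^ P.p - P.c ^ P.p) =>
    unit_of_centre P (centre2 P) hℓ hℓ2 hℓp A hA hd h hQtor
  -- node-free hypotheses of the three models
  have N0 : (ℓ : ℤ) ∣ P.a ^ P.p * -(P.b ^ P.p) → 1 ≤ A.valuation (4 * X - ((0 : ℤ) : Qbar)) := by
    intro hd
    rcases hpr.dvd_or_dvd hd with hd | hd
    · exact hNF' 0 1 (by decide) (by rw [e0, e1, zero_sub]; exact (dvd_neg).2 hd)
    · exact hNF' 0 2 (by decide) (by rw [e0, e2, zero_sub]; exact (dvd_neg).2 hd)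
  have N1 : (ℓ : ℤ) ∣ -(P.a ^ P.p) * -(P.c ^ P.p) →
      1 ≤ A.valuation (4 * X - ((P.a ^ P.p : ℤ) : Qbar)) := by
    intro hd
    rcases hpr.dvd_or_dvd hd with hd | hd
    · exact hNF' 1 0 (by decide) (by rw [e0, e1, sub_zero]; exact (dvd_neg).1 hd)
    · refine hNF' 1 2 (by decide) ?_
      rw [e1, e2, sub_neg_eq_add, ← hcab]
      exact (dvd_neg).1 hd
  have N2 : (ℓ : ℤ) ∣ P.b ^ P.p * P.c ^ P.p →
      1 ≤ A.valuation (4 * X - ((-(P.b ^ P.p) : ℤ) : Qbar)) := by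
    intro hd
    rcases hpr.dvd_or_dvd hd with hd | hd
    · exact hNF' 2 0 (by decide) (by rw [e0, e2, sub_zero]; exact (dvd_neg).2 hd)
    · refine hNF' 2 1 (by decide) ?_
      have : -(P.b ^ P.p) - P.a ^ P.p = -(P.c ^ P.p) := by rw [hcab]; ring
      rw [e1, e2, this]
      exact (dvd_neg).2 hd
  -- discriminants of the three models
  have D0 : ¬ (ℓ : ℤ) ∣ P.c ^ P.p → ¬ (ℓ : ℤ) ∣ P.a ^ P.p - -(P.b ^ P.p) := by
    intro hc hd
    rw [sub_neg_eq_add, ← hcab] at hd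
    exact hc hd
  have D1 : ¬ (ℓ : ℤ) ∣ P.b ^ P.p → ¬ (ℓ : ℤ) ∣ -(P.a ^ P.p) - -(P.c ^ P.p) := by
    intro hb hd
    have : -(P.a ^ P.p) - -(P.c ^ P.p) = P.b ^ P.p := by rw [hcab]; ring
    rw [this] at hd
    exact hb hd
  have D2 : ¬ (ℓ : ℤ) ∣ P.a ^ P.p → ¬ (ℓ : ℤ) ∣ P.b ^ P.p - P.c ^ P.p := by
    intro ha hd
    have : P.b ^ P.p - P.c ^ P.p = -(P.a ^ P.p) := by rw [hcab]; ring
    rw [this] at hd
    exact ha ((dvd_neg).1 hd)
  show A.valuation (4 * X - ((eRoot P i : ℤ) : Qbar)) = 1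
  fin_cases i
  · -- `i = 0`
    show A.valuation (4 * X - ((eRoot P 0 : ℤ) : Qbar)) = 1
    rw [e0]
    by_cases hc : (ℓ : ℤ) ∣ P.c ^ P.p
    · -- use the model centred at `e₁ = a^p`
      have ha : ¬ (ℓ : ℤ) ∣ P.a ^ P.p := fun ha => hac ⟨ha, hc⟩
      have hb : ¬ (ℓ : ℤ) ∣ P.b ^ P.p := fun hb => hbc ⟨hb, hc⟩
      have := (U1 (D1 hb) N1).2.1 (fun hd => ha ((dvd_neg).1 hd))
      rw [add_neg_cancel] at this
      exact this
    · exact (U0 (D0 hc) N0).1
  · -- `i = 1`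
    show A.valuation (4 * X - ((eRoot P 1 : ℤ) : Qbar)) = 1
    rw [e1]
    by_cases hb : (ℓ : ℤ) ∣ P.b ^ P.p
    · -- use the model centred at `e₀ = 0`
      have ha : ¬ (ℓ : ℤ) ∣ P.a ^ P.p := fun ha => hab ⟨ha, hb⟩
      have hc : ¬ (ℓ : ℤ) ∣ P.c ^ P.p := fun hc => hbc ⟨hb, hc⟩
      have := (U0 (D0 hc) N0).2.1 ha
      rw [zero_add] at this
      exact this
    · exact (U1 (D1 hb) N1).1
  · -- `i = 2`
    show A.valuation (4 * X - ((eRoot P 2 : ℤ) : Qbar)) = 1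
    rw [e2]
    by_cases ha : (ℓ : ℤ) ∣ P.a ^ P.p
    · -- use the model centred at `e₀ = 0`
      have hb : ¬ (ℓ : ℤ) ∣ P.b ^ P.p := fun hb => hab ⟨ha, hb⟩
      have hc : ¬ (ℓ : ℤ) ∣ P.c ^ P.p := fun hc => hac ⟨ha, hc⟩
      have := (U0 (D0 hc) N0).2.2 (fun hd => hb ((dvd_neg).1 hd))
      rw [zero_add] at this
      exact this
    · exact (U2 (D2 ha) N2).1

/-- (VAL-mu) at an odd bad prime `ℓ ≠ p`, node-free implies unit type. -/
theorem stmt_unit_of_nodeFree : Stmt_unit_of_nodeFree := by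
  intro P L ℓ hℓ hℓ2 hℓp _ A hA hNF Q hQ hQ0 i
  exact unit_of_nodeFree_point P hℓ hℓ2 hℓp A hA Q hQ0 (fun i j hij hlt => hNF Q hQ hQ0 i j hij hlt) i

/-- At a prime of good reduction the roots `e_i` stay distinct. -/
lemma val_eRoot_sub_eq_one (P : FreyPackage) {ℓ : ℕ} (hℓ : ℓ.Prime)
    (hnd : ¬ (ℓ : ℤ) ∣ P.a * P.b * P.c) (A : ValuationSubring Qbar) (hA : A.LiesOverPrime ℓ)
    (i j : Fin 3) (hij : i ≠ j) :
    A.valuation (((eRoot P i : ℤ) : Qbar) - ((eRoot P j : ℤ) : Qbar)) = 1 := by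
  have hqK : ((ℓ : ℕ) : Qbar) ∈ A.nonunits := hA
  have ha : ¬ (ℓ : ℤ) ∣ P.a ^ P.p :=
    H15.not_dvd_pow hℓ (fun h => hnd (dvd_mul_of_dvd_left (dvd_mul_of_dvd_left h _) _)) _
  have hb : ¬ (ℓ : ℤ) ∣ P.b ^ P.p :=
    H15.not_dvd_pow hℓ (fun h => hnd (dvd_mul_of_dvd_left (dvd_mul_of_dvd_right h _) _)) _
  have hc : ¬ (ℓ : ℤ) ∣ P.c ^ P.p :=
    H15.not_dvd_pow hℓ (fun h => hnd (dvd_mul_of_dvd_right h _)) _
  have hcab : P.c ^ P.p = P.a ^ P.p + P.b ^ P.p := P.hFLT.symm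
  rw [← Int.cast_sub]
  apply valuation_intCast_eq_one_of_not_dvd hℓ hqK
  have e0 : eRoot P 0 = 0 := rfl
  have e1 : eRoot P 1 = P.a ^ P.p := rfl
  have e2 : eRoot P 2 = -(P.b ^ P.p) := rfl
  fin_cases i <;> fin_cases j
  · exact absurd rfl hij
  · show ¬ (ℓ : ℤ) ∣ eRoot P 0 - eRoot P 1
    rw [e0, e1, zero_sub, dvd_neg]; exact ha
  · show ¬ (ℓ : ℤ) ∣ eRoot P 0 - eRoot P 2
    rw [e0, e2, zero_sub, neg_neg]; exact hb
  · show ¬ (ℓ : ℤ) ∣ eRoot P 1 - eRoot P 0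
    rw [e0, e1, sub_zero]; exact ha
  · exact absurd rfl hij
  · show ¬ (ℓ : ℤ) ∣ eRoot P 1 - eRoot P 2
    rw [e1, e2, sub_neg_eq_add, ← hcab]; exact hc
  · show ¬ (ℓ : ℤ) ∣ eRoot P 2 - eRoot P 0
    rw [e0, e2, sub_zero, dvd_neg]; exact hb
  · show ¬ (ℓ : ℤ) ∣ eRoot P 2 - eRoot P 1
    have : -(P.b ^ P.p) - P.a ^ P.p = -(P.c ^ P.p) := by rw [hcab]; ring
    rw [e1, e2, this, dvd_neg]; exact hc
  · exact absurd rfl hij

/-- (VAL-good) unit type at the odd primes of good reduction. -/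
theorem stmt_unit_good : Stmt_unit_good := by
  intro P L ℓ hℓ hℓ2 hℓp hnd A hA Q hQ hQ0 i
  refine unit_of_nodeFree_point P hℓ hℓ2 hℓp A hA Q hQ0 (fun i j hij hlt => ?_) i
  rw [val_eRoot_sub_eq_one P hℓ hnd A hA i j hij] at hlt
  exact absurd hlt (lt_irrefl _)

end main

end Fermat.Agent.S12.H87

end
-- ==== END Fermat.Agent.S12.H87_ValOdd

-- ==== BEGIN Fermat.Agent.S12.H87_ValTwo
section

set_option autoImplicit false

namespace Fermat.Agent.S12.H87

open WeierstrassCurve WeierstrassCurve.Affine WeierstrassCurve.Affine.Point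
open Fermat.Agent.S13

/-- The `x`-coordinate of a point, with junk value `0` at the origin. -/
noncomputable def xCoord {L : Type*} [Field L] {W : Affine L} : W.Point → L
  | .zero => 0
  | .some x _ _ => x

lemma xCoord_smul (P : FreyPackage) (σ : Gal) (Q : (P.freyCurve⁄Qbar).Point) :
    xCoord (σ • Q) = σ (xCoord Q) := by
  rcases Q with _ | ⟨x, y, h⟩
  · exact (_root_.map_zero σ).symm
  · rw [algEquiv_smul_def, Point.map_some]
    rfl

/-- `#E[p](Q̄) ≤ p²`. -/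
theorem stmt_card : Stmt_card :=
  H63.card_of_torsion_poly (H63.torsion_poly_of_preΨ stmt_torsion_preΨ)

/-- Inertia at `2` fixes a cofixed line pointwise. -/
theorem inertia_two_fixes_line (P : FreyPackage) (L : CofLine P) (A : ValuationSubring Qbar)
    (hA : A.LiesOverPrime 2) (σ : Gal) (hσ : σ ∈ A.inertiaSubgroupIn ℚ) (x : Vp P)
    (hx : x ∈ L.N) : σ • x = x := by
  have : Fact P.p.Prime := ⟨P.pp⟩
  obtain ⟨hfin, hcard⟩ := stmt_card P
  obtain ⟨T, hT1, hT2⟩ := WP3.two_unipotent P A hA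
  have hst : ∀ σ : Gal, ∀ x ∈ L.N, σ • x ∈ L.N := L.stable
  exact (mem_fixSub_and_cofixSub_of_unipotent hcard L.N hst L.ne_bot L.ne_top T σ
    (hT1 σ hσ) (hT2 σ hσ)).1 x hx

/-- (UV') the form of (UV) for a finite Galois-stable set fixed by inertia
(`Lib/UnramVal.valuation_eq_zpow_of_finite`, helper6). -/
def Stmt_unramVal_finite : Prop :=
  ∀ (ℓ : ℕ), ℓ.Prime → ∀ A : ValuationSubring Qbar, A.LiesOverPrime ℓ →
  ∀ S : Set Qbar, S.Finite → (∀ σ : Gal, ∀ x ∈ S, σ x ∈ S) →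
    (∀ σ ∈ A.inertiaSubgroupIn ℚ, ∀ x ∈ S, σ x = x) →
    ∀ x ∈ S, x ≠ 0 → ∃ k : ℤ, A.valuation x = A.valuation ((ℓ : ℕ) : Qbar) ^ k

/-- The set of `x`-coordinates of the points of a line. -/
def xSet (P : FreyPackage) (N : Submodule (ZMod P.p) (Vp P)) : Set Qbar :=
  Set.range fun Q : N => xCoord ((Q : Vp P) : (P.freyCurve⁄Qbar).Point)

lemma xCoord_mem_xSet (P : FreyPackage) (N : Submodule (ZMod P.p) (Vp P)) (Q : Vp P)
    (hQ : Q ∈ N) : xCoord (Q : (P.freyCurve⁄Qbar).Point) ∈ xSet P N :=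
  ⟨⟨Q, hQ⟩, rfl⟩

lemma finite_xSet (P : FreyPackage) (N : Submodule (ZMod P.p) (Vp P)) : (xSet P N).Finite := by
  obtain ⟨hfin, -⟩ := stmt_card P
  have : Finite (Vp P) := hfin
  exact Set.finite_range _

lemma stable_xSet (P : FreyPackage) (N : Submodule (ZMod P.p) (Vp P))
    (hN : IsGaloisStable ℚ N) (σ : Gal) : ∀ x ∈ xSet P N, σ x ∈ xSet P N := by
  rintro _ ⟨Q, rfl⟩
  refine ⟨⟨σ • (Q : Vp P), hN σ _ Q.2⟩, ?_⟩
  show xCoord (σ • ((Q : Vp P) : (P.freyCurve⁄Qbar).Point)) = σ (xCoord _)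
  exact xCoord_smul P σ _

lemma fixed_xSet (P : FreyPackage) (N : Submodule (ZMod P.p) (Vp P)) (σ : Gal)
    (hσ : ∀ x ∈ N, σ • x = x) : ∀ x ∈ xSet P N, σ x = x := by
  rintro _ ⟨Q, rfl⟩
  have h1 : σ • (Q : Vp P) = Q := hσ _ Q.2
  have h2 : xCoord (σ • ((Q : Vp P) : (P.freyCurve⁄Qbar).Point))
      = xCoord ((Q : Vp P) : (P.freyCurve⁄Qbar).Point) :=
    congrArg (fun v : Vp P => xCoord (v : (P.freyCurve⁄Qbar).Point)) h1
  rw [← xCoord_smul]
  exact h2

open Fermat.Agent.S13.WP3 in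
/-- At `2`, every nonzero point of a cofixed line has `|X| = 1`. -/
theorem val_X_eq_one (hUV : Stmt_unramVal_finite) (P : FreyPackage) (L : CofLine P)
    (A : ValuationSubring Qbar) (hA : A.LiesOverPrime 2) (Q : Vp P) (hQ : Q ∈ L.N)
    {X Y : Qbar} (h : (P.freyCurve⁄Qbar).Nonsingular X Y)
    (hQe : (Q : (P.freyCurve⁄Qbar).Point) = Point.some X Y h) : A.valuation X = 1 := by
  obtain ⟨hyp, hp1, m, hm, hcop, hb⟩ := H15.arith2 P A hA
  obtain ⟨lam, hlam⟩ : ∃ lam : Qbar, lam ^ 2 + lam = (P.freyCurve⁄Qbar).a₂ := by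
    obtain ⟨z, hz⟩ := IsAlgClosed.exists_root
      (Polynomial.X ^ 2 + Polynomial.X - Polynomial.C ((P.freyCurve⁄Qbar).a₂) :
        Polynomial Qbar) (by
        have : (Polynomial.X ^ 2 + Polynomial.X - Polynomial.C ((P.freyCurve⁄Qbar).a₂) :
            Polynomial Qbar).degree = 2 := by
          compute_degree!
        rw [this]; norm_num)
    refine ⟨z, ?_⟩
    simp only [Polynomial.IsRoot.def, Polynomial.eval_sub, Polynomial.eval_add,
      Polynomial.eval_pow, Polynomial.eval_X, Polynomial.eval_C] at hz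
    linear_combination hz
  have hQt : (P.p : ℤ) • (Q : (P.freyCurve⁄Qbar).Point) = 0 := by
    have := Q.2
    rwa [Submodule.mem_torsionBy_iff] at this
  have hfix : ∀ σ ∈ A.inertiaSubgroupIn ℚ, ∀ x ∈ xSet P L.N, σ x = x := fun σ hσ =>
    fixed_xSet P L.N σ (fun x hx => inertia_two_fixes_line P L A hA σ hσ x hx)
  have hE0 : WP3.InE0 A (Q : (P.freyCurve⁄Qbar).Point) := by
    refine H15.torsion_in_E0 stmt2_M1 M1.annulus A _ hyp lam hlam P.p m hm hcop hb _ hQt ?_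
    intro u v huv hQuv hu0
    have hmem : u ∈ xSet P L.N := by
      have := xCoord_mem_xSet P L.N Q hQ
      rw [hQuv] at this
      exact this
    obtain ⟨k, hk⟩ := hUV 2 Nat.prime_two A hA (xSet P L.N) (finite_xSet P L.N)
      (stable_xSet P L.N L.stable) hfix u hmem hu0
    exact ⟨k, by rw [hk]; norm_num⟩
  rw [hQe] at hE0
  refine le_antisymm ?_ hE0
  by_contra hlt
  rw [not_le] at hlt
  have hE1 : WP3.InE1 A (Point.some X Y h : (P.freyCurve⁄Qbar).Point) := hlt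
  have hne : (Point.some X Y h : (P.freyCurve⁄Qbar).Point) ≠ 0 := Point.some_ne_zero h
  refine H5.F1_2 A _ hyp _ hE1 hne P.p hp1 ?_
  rw [hQe, natCast_zsmul] at hQt
  exact hQt

open Fermat.Agent.S13.WP3 in
/-- `|a^p| = 1` at `2`. -/
lemma val_apow_two (P : FreyPackage) (A : ValuationSubring Qbar) (hA : A.LiesOverPrime 2) :
    A.valuation (((P.a ^ P.p : ℤ)) : Qbar) = 1 := by
  apply H15.val_odd hA
  intro h
  exact H15.frey_a_odd P (Int.prime_two.dvd_of_dvd_pow h)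

open Fermat.Agent.S13.WP3 in
/-- `|b^p| < |4|` at `2`. -/
lemma val_bpow_two (P : FreyPackage) (A : ValuationSubring Qbar) (hA : A.LiesOverPrime 2) :
    A.valuation (((P.b ^ P.p : ℤ)) : Qbar) < A.valuation (4 : Qbar) := by
  obtain ⟨b', hb'⟩ := H15.frey_two_dvd_b P
  have hp5 := P.hp5
  have h2lt : A.valuation (2 : Qbar) < 1 := H15.val_two_lt hA
  have h2pos : 0 < A.valuation (2 : Qbar) := zero_lt_iff.mpr (H15.val_two_ne_zero A)
  have e1 : ((P.b ^ P.p : ℤ) : Qbar) = (2 : Qbar) ^ P.p * ((b' ^ P.p : ℤ) : Qbar) := by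
    rw [hb']; push_cast; ring
  have e4 : (4 : Qbar) = 2 ^ 2 := by norm_num
  rw [e1, e4, map_mul, map_pow, map_pow]
  calc A.valuation (2 : Qbar) ^ P.p * A.valuation ((b' ^ P.p : ℤ) : Qbar)
      ≤ A.valuation (2 : Qbar) ^ P.p * 1 :=
        mul_le_mul_right (Fermat.Agent.S05.H15.valuation_intCast_le_one A _) _
    _ = A.valuation (2 : Qbar) ^ P.p := mul_one _
    _ < A.valuation (2 : Qbar) ^ 2 :=
        pow_lt_pow_right_of_lt_one₀ h2pos h2lt (by omega)

/-- (VAL-2) from the interface (UV'). -/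
theorem stmt_two_of_unramVal_finite (hUV : Stmt_unramVal_finite) : Stmt_two := by
  intro P L A hA Q hQ hQ0
  have hQ0' : (Q : (P.freyCurve⁄Qbar).Point) ≠ 0 := fun h => hQ0 (Subtype.ext h)
  rcases hQe : (Q : (P.freyCurve⁄Qbar).Point) with _ | ⟨X, Y, h⟩
  · exact absurd hQe hQ0'
  have hX : A.valuation X = 1 := val_X_eq_one hUV P L A hA Q hQ h hQe
  have h4X : A.valuation (4 * X) = A.valuation (4 : Qbar) := by
    rw [map_mul, hX, mul_one]
  have h4lt : A.valuation (4 : Qbar) < 1 := by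
    have h2lt : A.valuation (2 : Qbar) < 1 := WP3.H15.val_two_lt hA
    have e4 : (4 : Qbar) = 2 ^ 2 := by norm_num
    rw [e4, map_pow]
    exact pow_lt_one₀ zero_le h2lt (by norm_num)
  have e0 : eRoot P 0 = 0 := rfl
  have e1 : eRoot P 1 = P.a ^ P.p := rfl
  have e2 : eRoot P 2 = -(P.b ^ P.p) := rfl
  refine ⟨?_, ?_, ?_⟩
  · show A.valuation (4 * X - ((eRoot P 0 : ℤ) : Qbar)) = _
    rw [e0, Int.cast_zero, sub_zero, h4X]
  · show A.valuation (4 * X - ((eRoot P 1 : ℤ) : Qbar)) = 1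
    rw [e1]
    have hA1 := val_apow_two P A hA
    rw [A.valuation.map_sub_eq_of_lt_right (by rw [h4X, hA1]; exact h4lt), hA1]
  · show A.valuation (4 * X - ((eRoot P 2 : ℤ) : Qbar)) = _
    rw [e2]
    have hB := val_bpow_two P A hA
    have hneg : A.valuation (((-(P.b ^ P.p) : ℤ)) : Qbar)
        = A.valuation (((P.b ^ P.p : ℤ)) : Qbar) := by
      rw [Int.cast_neg, Valuation.map_neg]
    rw [A.valuation.map_sub_eq_of_lt_left (by rw [h4X, hneg]; exact hB), h4X]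

end Fermat.Agent.S12.H87

end
-- ==== END Fermat.Agent.S12.H87_ValTwo

-- ==== BEGIN Fermat.Agent.S13.WP3.NoFixedPoint
section

set_option autoImplicit false

namespace Fermat.Agent.S13.WP3.H14

open WeierstrassCurve WeierstrassCurve.Affine WeierstrassCurve.Affine.Point

/-- The coordinates of a Galois-fixed affine point of `E(Q̄)` are rational. -/
lemma coords_rat_of_fixed (W : Affine ℚ) (x y : Qbar) (h : (W⁄Qbar).Nonsingular x y)
    (hfix : ∀ σ : Gal, σ • (Point.some x y h : (W⁄Qbar).Point) = Point.some x y h) :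
    x ∈ Set.range (algebraMap ℚ Qbar) ∧ y ∈ Set.range (algebraMap ℚ Qbar) := by
  have hxy : ∀ σ : Gal, σ x = x ∧ σ y = y := by
    intro σ
    have h1 := hfix σ
    rw [algEquiv_smul_def, Point.map_some] at h1
    injection h1 with h3 h4
    exact ⟨h3, h4⟩
  exact ⟨Fermat.Agent.S13.H12.fixed_rat x fun σ => (hxy σ).1,
    Fermat.Agent.S13.H12.fixed_rat y fun σ => (hxy σ).2⟩

/-- (I5) The Frey curve has no nonzero `G`-fixed `p`-torsion point. -/
theorem no_fixed_point : Fermat.Agent.S13.Stmt_no_fixed_point := by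
  intro P x hx
  obtain ⟨A, hA⟩ := Fermat.Agent.Lib.FrobExists.exists_liesOverPrime 2 Nat.prime_two
  obtain ⟨hyp, hp1, m, hm, hcop, hb⟩ := H15.arith2 P A hA
  obtain ⟨lam, hlam⟩ : ∃ lam : Qbar, lam ^ 2 + lam = (P.freyCurve⁄Qbar).a₂ := by
    obtain ⟨z, hz⟩ := IsAlgClosed.exists_root
      (Polynomial.X ^ 2 + Polynomial.X - Polynomial.C ((P.freyCurve⁄Qbar).a₂) :
        Polynomial Qbar) (by
        have : (Polynomial.X ^ 2 + Polynomial.X - Polynomial.C ((P.freyCurve⁄Qbar).a₂) :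
            Polynomial Qbar).degree = 2 := by
          compute_degree!
        rw [this]; norm_num)
    refine ⟨z, ?_⟩
    simp only [Polynomial.IsRoot.def, Polynomial.eval_sub, Polynomial.eval_add,
      Polynomial.eval_pow, Polynomial.eval_X, Polynomial.eval_C] at hz
    linear_combination hz
  have hQt : (P.p : ℤ) • (x : (P.freyCurve⁄Qbar).Point) = 0 := by
    have := x.2
    rwa [Submodule.mem_torsionBy_iff] at this
  have hfix : ∀ σ : Gal, σ • (x : (P.freyCurve⁄Qbar).Point) = x :=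
    fun σ => congrArg Subtype.val (hx σ)
  have hfixk : ∀ (k : ℕ) (σ : Gal),
      σ • (k • (x : (P.freyCurve⁄Qbar).Point)) = k • (x : (P.freyCurve⁄Qbar).Point) := by
    intro k σ
    rw [← natCast_zsmul, algEquiv_smul_zsmul, hfix σ]
  have hrat : ∀ (k : ℕ) (u v : Qbar) (h : (P.freyCurve⁄Qbar).Nonsingular u v),
      k • (x : (P.freyCurve⁄Qbar).Point) = .some u v h →
      u ∈ Set.range (algebraMap ℚ Qbar) ∧ v ∈ Set.range (algebraMap ℚ Qbar) := by
    intro k u v h hk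
    apply coords_rat_of_fixed P.freyCurve u v h
    intro σ
    rw [← hk]
    exact hfixk k σ
  have hE0 : InE0 A (x : (P.freyCurve⁄Qbar).Point) := by
    refine H15.torsion_in_E0 stmt2_M1 M1.annulus A _ hyp lam hlam P.p m hm hcop hb _ hQt ?_
    intro u v h hQ hu0
    obtain ⟨⟨r, hr⟩, -⟩ := hrat 1 u v h (by rw [one_smul]; exact hQ)
    have hr0 : r ≠ 0 := by
      rintro rfl
      rw [_root_.map_zero] at hr
      exact hu0 hr.symm
    obtain ⟨k, hk⟩ := H15.ratVal A hA r hr0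
    exact ⟨k, by rw [← hr]; exact hk⟩
  have hR : ∀ r ∈ Set.range (algebraMap ℚ Qbar), A.valuation r ≤ 1 →
      A.valuation r < 1 ∨ A.valuation (r - 1) < 1 := by
    rintro _ ⟨r, rfl⟩ hr
    exact H15.ratRes A hA r hr
  exact Subtype.ext (H6P.pigeonhole_of_F1 H5.F1_2 A _ hyp _ hR P.p P.pp P.hp5 hp1 _ hQt hE0 hrat)

end Fermat.Agent.S13.WP3.H14

end
-- ==== END Fermat.Agent.S13.WP3.NoFixedPoint
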