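-- GENERATED (merged mirror, NOTES/tools/trim/merge3_helper67.py): 7 modules of the originals, bodies verbatim.
import Fermat.Prelude.Def_EllipticCurve_ZeroComponentAt
import Fermat.Agent.Zm.S12_L02_000
import Fermat.Agent.S12.H11_Phi
import Fermat.Agent.Zm.S12_L01_000
import Fermat.Agent.Zm.S15_L01_000
import Fermat.Agent.Zm.S35_L02_003
import Fermat.Agent.Zm.S56_L03_000
import Fermat.Agent.Zm.S35_L04_003
import Fermat.Agent.Zm.S35_L03_003
import Fermat.Agent.Zm.S44_L06_000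
import Fermat.Agent.Zm.S35_L02_001
import Fermat.Agent.Zm.S56_L02_000
import Fermat.Agent.Zm.S44_L05_000

-- ==== BEGIN Fermat.Agent.S12.H11_PhiFrey
section

set_option autoImplicit false

namespace Fermat.Agent.S12.H11

open WeierstrassCurve WeierstrassCurve.Affine WeierstrassCurve.Affine.Point
open Fermat.Agent.S13 Fermat.Agent.Lib.Torsion.H11

set_option linter.style.haveILetI false

/-! ### Definitions (interface) -/

/-- The short `y`-coordinate `y_S = 8 Y + 4 X` (junk value `1` at infinity). -/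
noncomputable def ySfun (P : FreyPackage) : (P.freyCurve⁄Qbar).Point → Qbar
  | .zero => 1
  | .some x y _ => 8 * y + 4 * x

/-- `Θ_i(Q) = ∏_{R ∈ N} (x_S(Q + R) - e_i)`. -/
noncomputable def ThetaS (P : FreyPackage) (N : Submodule (ZMod P.p) (Vp P)) (i : Fin 3)
    (Q : (P.freyCurve⁄Qbar).Point) : Qbar :=
  ∏ᶠ R : N, xiFactor P i (Q + ((R : Vp P) : (P.freyCurve⁄Qbar).Point))

/-- `Ψ(Q) = ∏_{R ∈ N} y_S(Q + R)`. -/
noncomputable def PsiS (P : FreyPackage) (N : Submodule (ZMod P.p) (Vp P))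
    (Q : (P.freyCurve⁄Qbar).Point) : Qbar :=
  ∏ᶠ R : N, ySfun P (Q + ((R : Vp P) : (P.freyCurve⁄Qbar).Point))

/-- `A₁ = A^p Ξ₂²`. -/
noncomputable def quotA1 (P : FreyPackage) (N : Submodule (ZMod P.p) (Vp P)) : Qbar :=
  ((P.a : Qbar) ^ P.p) ^ P.p * Fermat.Agent.S12.Xi P N 2 ^ 2

/-- `B₁ = B^p Ξ₁²`. -/
noncomputable def quotB1 (P : FreyPackage) (N : Submodule (ZMod P.p) (Vp P)) : Qbar :=
  ((P.b : Qbar) ^ P.p) ^ P.p * Fermat.Agent.S12.Xi P N 1 ^ 2

/-- `C₁ = C^p Ξ₀²`. -/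
noncomputable def quotC1 (P : FreyPackage) (N : Submodule (ZMod P.p) (Vp P)) : Qbar :=
  ((P.c : Qbar) ^ P.p) ^ P.p * Fermat.Agent.S12.Xi P N 0 ^ 2

/-- `x₁(Q) = Ξ₁ Ξ₂ Θ₀(Q)`. -/
noncomputable def quotX1 (P : FreyPackage) (N : Submodule (ZMod P.p) (Vp P))
    (Q : (P.freyCurve⁄Qbar).Point) : Qbar :=
  Fermat.Agent.S12.Xi P N 1 * Fermat.Agent.S12.Xi P N 2 * ThetaS P N 0 Q

/-- `y₁(Q) = Ξ₀ Ξ₁ Ξ₂ Ψ(Q)`. -/
noncomputable def quotY1 (P : FreyPackage) (N : Submodule (ZMod P.p) (Vp P))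
    (Q : (P.freyCurve⁄Qbar).Point) : Qbar :=
  Fermat.Agent.S12.Xi P N 0 * Fermat.Agent.S12.Xi P N 1 * Fermat.Agent.S12.Xi P N 2 * PsiS P N Q

/-! ### The subgroup of points underlying a subspace of `E[p]` -/

/-- The inclusion `E[p] → E(Q̄)`. -/
noncomputable def inclHom (P : FreyPackage) : Vp P →+ (P.freyCurve⁄Qbar).Point :=
  (Submodule.torsionBy ℤ (P.freyCurve⁄Qbar).Point P.p).subtype.toAddMonoidHom

lemma inclHom_injective (P : FreyPackage) : Function.Injective (inclHom P) :=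
  Subtype.val_injective

/-- The subgroup of `E(Q̄)` underlying a subspace of `E[p]`. -/
noncomputable def lineSub (P : FreyPackage) (N : Submodule (ZMod P.p) (Vp P)) :
    AddSubgroup (P.freyCurve⁄Qbar).Point :=
  N.toAddSubgroup.map (inclHom P)

lemma mem_lineSub {P : FreyPackage} {N : Submodule (ZMod P.p) (Vp P)}
    {T : (P.freyCurve⁄Qbar).Point} :
    T ∈ lineSub P N ↔ ∃ v : Vp P, v ∈ N ∧ (v : (P.freyCurve⁄Qbar).Point) = T := by
  unfold lineSub
  rw [AddSubgroup.mem_map]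
  rfl

lemma coe_mem_lineSub {P : FreyPackage} {N : Submodule (ZMod P.p) (Vp P)} (v : Vp P) :
    (v : (P.freyCurve⁄Qbar).Point) ∈ lineSub P N ↔ v ∈ N := by
  rw [mem_lineSub]
  constructor
  · rintro ⟨w, hw, h⟩
    have : w = v := Subtype.ext h
    exact this ▸ hw
  · intro h
    exact ⟨v, h, rfl⟩

/-- `N ≃ lineSub P N`. -/
noncomputable def lineEquiv (P : FreyPackage) (N : Submodule (ZMod P.p) (Vp P)) :
    N ≃+ lineSub P N :=
  N.toAddSubgroup.equivMapOfInjective (inclHom P) (inclHom_injective P)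

@[simp] lemma coe_lineEquiv (P : FreyPackage) (N : Submodule (ZMod P.p) (Vp P)) (R : N) :
    ((lineEquiv P N R : lineSub P N) : (P.freyCurve⁄Qbar).Point) =
      ((R : Vp P) : (P.freyCurve⁄Qbar).Point) := rfl

lemma finite_lineSub (P : FreyPackage) (N : Submodule (ZMod P.p) (Vp P)) :
    Finite (lineSub P N) := by
  haveI : Finite (Vp P) := (frey_card P).1
  exact Finite.of_equiv N (lineEquiv P N).toEquiv

/-- Conversion of the products of `Defs.lean` to products over the subgroup. -/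
lemma finprod_line (P : FreyPackage) (N : Submodule (ZMod P.p) (Vp P))
    [Fintype (lineSub P N)] (f : (P.freyCurve⁄Qbar).Point → Qbar) :
    ∏ᶠ R : N, f ((R : Vp P) : (P.freyCurve⁄Qbar).Point) =
      ∏ R : lineSub P N, f (R : (P.freyCurve⁄Qbar).Point) := by
  rw [← finprod_eq_prod_of_fintype]
  exact finprod_eq_of_bijective (lineEquiv P N) (lineEquiv P N).bijective (fun R => rfl)

lemma card_lineSub (P : FreyPackage) (N : Submodule (ZMod P.p) (Vp P)) (h0 : N ≠ ⊥)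
    (h1 : N ≠ ⊤) [Fintype (lineSub P N)] : Fintype.card (lineSub P N) = P.p := by
  obtain ⟨hfin, hcard⟩ := card_line P N h0 h1
  rw [← Nat.card_eq_fintype_card, ← Nat.card_congr (lineEquiv P N).toEquiv, hcard]

/-! ### Conversion to the general set-up of `H11_Key.lean`, `H11_Phi.lean` -/

lemma frey_a₁ (P : FreyPackage) : (P.freyCurve⁄Qbar).a₁ = 1 := by
  simp [FreyPackage.freyCurve]

lemma frey_a₃ (P : FreyPackage) : (P.freyCurve⁄Qbar).a₃ = 0 := by
  simp [FreyPackage.freyCurve]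

lemma ySfun_eq (P : FreyPackage) {T : (P.freyCurve⁄Qbar).Point} (hT : T ≠ 0) :
    ySfun P T = 4 * yc (P.freyCurve⁄Qbar) T := by
  rcases T with _ | ⟨x, y, h⟩
  · exact absurd rfl hT
  · simp only [ySfun, yc_some, psi2v, frey_a₁, frey_a₃]
    ring

section conv

variable (P : FreyPackage) (N : Submodule (ZMod P.p) (Vp P)) [Fintype (lineSub P N)]

lemma Xi_eq' (h0 : N ≠ ⊥) (h1 : N ≠ ⊤) (i : Fin 3) :
    Fermat.Agent.S12.Xi P N i =
      4 ^ (P.p - 1) * Fermat.Agent.S12.H11.Xi (P.freyCurve⁄Qbar) (lineSub P N)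
        (((eRoot P i : ℤ) : Qbar) / 4) := by
  classical
  unfold Fermat.Agent.S12.Xi Fermat.Agent.S12.H11.Xi
  rw [finprod_line P N (fun T => xiFactor P i T)]
  rw [← Finset.mul_prod_erase Finset.univ _ (Finset.mem_univ (0 : lineSub P N))]
  have h00 : xiFactor P i ((0 : lineSub P N) : (P.freyCurve⁄Qbar).Point) = 1 := rfl
  rw [h00, one_mul]
  rw [Finset.prod_congr rfl (fun R hR => xiFactor_eq P i
      (coe_ne_zero_of_mem_nz (P.freyCurve⁄Qbar) (lineSub P N) hR)),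
    Finset.prod_mul_distrib, Finset.prod_const, card_nz, card_lineSub P N h0 h1]

lemma ThetaS_eq (h0 : N ≠ ⊥) (h1 : N ≠ ⊤) (i : Fin 3) {Q : (P.freyCurve⁄Qbar).Point}
    (hQ : Q ∉ lineSub P N) :
    ThetaS P N i Q =
      4 ^ P.p * theta (P.freyCurve⁄Qbar) (lineSub P N) (((eRoot P i : ℤ) : Qbar) / 4) Q := by
  classical
  unfold ThetaS theta
  rw [finprod_line P N (fun T => xiFactor P i (Q + T))]
  have hne : ∀ R : lineSub P N, Q + (R : (P.freyCurve⁄Qbar).Point) ≠ 0 := fun R h =>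
    add_not_mem (P.freyCurve⁄Qbar) (lineSub P N) hQ R (h ▸ (lineSub P N).zero_mem)
  rw [Finset.prod_congr rfl (fun R _ => xiFactor_eq P i (hne R)),
    Finset.prod_mul_distrib, Finset.prod_const, Finset.card_univ, card_lineSub P N h0 h1]

lemma PsiS_eq (h0 : N ≠ ⊥) (h1 : N ≠ ⊤) {Q : (P.freyCurve⁄Qbar).Point}
    (hQ : Q ∉ lineSub P N) :
    PsiS P N Q = 4 ^ P.p * psiN (P.freyCurve⁄Qbar) (lineSub P N) Q := by
  classical
  unfold PsiS psiN
  rw [finprod_line P N (fun T => ySfun P (Q + T))]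
  have hne : ∀ R : lineSub P N, Q + (R : (P.freyCurve⁄Qbar).Point) ≠ 0 := fun R h =>
    add_not_mem (P.freyCurve⁄Qbar) (lineSub P N) hQ R (h ▸ (lineSub P N).zero_mem)
  rw [Finset.prod_congr rfl (fun R _ => ySfun_eq P (hne R)),
    Finset.prod_mul_distrib, Finset.prod_const, Finset.card_univ, card_lineSub P N h0 h1]

end conv

/-- A point of `E[p]` outside the line `N` is generic. -/
lemma generic_of_not_mem (P : FreyPackage) (N : Submodule (ZMod P.p) (Vp P)) (Q : Vp P)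
    (hQ : Q ∉ N) :
    (Q : (P.freyCurve⁄Qbar).Point) ∉ lineSub P N ∧
      2 • (Q : (P.freyCurve⁄Qbar).Point) ∉ lineSub P N := by
  refine ⟨fun h => hQ ((coe_mem_lineSub Q).mp h), fun h => hQ ?_⟩
  have h2 : (2 • Q : Vp P) ∈ N := by
    apply (coe_mem_lineSub (2 • Q)).mp
    simpa using h
  obtain ⟨k, hk⟩ := P.hp_odd
  have hpQ : P.p • Q = 0 := by
    have := Q.2
    rw [Submodule.mem_torsionBy_iff] at this
    apply Subtype.ext
    rw [Submodule.coe_smul_of_tower, ← natCast_zsmul]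
    simp [this]
  have h3 : 2 * (k + 1) = P.p + 1 := by omega
  have : (k + 1) • (2 • Q) = Q := by
    rw [← mul_nsmul, h3, add_nsmul, hpQ, zero_add, one_nsmul]
  rw [← this]
  exact N.toAddSubgroup.nsmul_mem h2 _

/-! ### The point on the quotient curve -/

section main

variable (P : FreyPackage) (L : CofLine P)

lemma eRoot_zero (P : FreyPackage) : ((eRoot P 0 : ℤ) : Qbar) / 4 = 0 := by simp [eRoot]

lemma eRoot_one (P : FreyPackage) : ((eRoot P 1 : ℤ) : Qbar) / 4 = (P.a : Qbar) ^ P.p / 4 := by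
  simp [eRoot]

lemma eRoot_two (P : FreyPackage) :
    ((eRoot P 2 : ℤ) : Qbar) / 4 = -((P.b : Qbar) ^ P.p) / 4 := by
  simp [eRoot]

/-- `A₁ + B₁ = C₁`. -/
theorem quotA1_add_quotB1 : quotA1 P L.N + quotB1 P L.N = quotC1 P L.N :=
  stmt_key P L

/-- `x₁ - A₁ = Ξ₀ Ξ₂ Θ₁`. -/
theorem quotX1_sub_A1 (Q : Vp P) (hQ : Q ∉ L.N) :
    quotX1 P L.N Q - quotA1 P L.N =
      Fermat.Agent.S12.Xi P L.N 0 * Fermat.Agent.S12.Xi P L.N 2 * ThetaS P L.N 1 Q := by
  classical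
  haveI := finite_lineSub P L.N
  letI : Fintype (lineSub P L.N) := Fintype.ofFinite _
  obtain ⟨hg1, hg2⟩ := generic_of_not_mem P L.N Q hQ
  have hcard := card_lineSub P L.N L.ne_bot L.ne_top
  have hodd : Odd (Fintype.card (lineSub P L.N)) := hcard ▸ P.hp_odd
  have h := quotX_sub_A (P.freyCurve⁄Qbar) (lineSub P L.N) (frey_twoTors P) hodd hg1 hg2
  unfold quotX quotA at h
  unfold quotX1 quotA1
  rw [Xi_eq' P L.N L.ne_bot L.ne_top 0, Xi_eq' P L.N L.ne_bot L.ne_top 1,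
    Xi_eq' P L.N L.ne_bot L.ne_top 2, ThetaS_eq P L.N L.ne_bot L.ne_top 0 hg1,
    ThetaS_eq P L.N L.ne_bot L.ne_top 1 hg1, eRoot_zero, eRoot_one, eRoot_two]
  rw [hcard, sub_zero, div_pow] at h
  have h4 : (4 : Qbar) ≠ 0 := by norm_num
  have h4p : (4 : Qbar) ^ P.p = 4 * 4 ^ (P.p - 1) := by
    rw [← pow_succ']
    congr 1
    have := P.hppos
    omega
  have h4p0 : (4 : Qbar) ^ P.p ≠ 0 := pow_ne_zero _ h4
  generalize Fermat.Agent.S12.H11.Xi (P.freyCurve⁄Qbar) (lineSub P L.N)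
    (-((P.b : Qbar) ^ P.p) / 4) = X2 at h ⊢
  generalize Fermat.Agent.S12.H11.Xi (P.freyCurve⁄Qbar) (lineSub P L.N)
    ((P.a : Qbar) ^ P.p / 4) = X1 at h ⊢
  generalize Fermat.Agent.S12.H11.Xi (P.freyCurve⁄Qbar) (lineSub P L.N) 0 = X0 at h ⊢
  generalize theta (P.freyCurve⁄Qbar) (lineSub P L.N) 0 Q = T0 at h ⊢
  generalize theta (P.freyCurve⁄Qbar) (lineSub P L.N) ((P.a : Qbar) ^ P.p / 4) Q = T1 at h ⊢
  have h' : X1 * X2 * T0 * 4 ^ P.p - ((P.a : Qbar) ^ P.p) ^ P.p * X2 ^ 2 =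
      X0 * X2 * T1 * 4 ^ P.p := by
    field_simp at h
    linear_combination h
  rw [h4p] at h' ⊢
  linear_combination (4 ^ (P.p - 1)) ^ 2 * h'

/-- `x₁ + B₁ = Ξ₀ Ξ₁ Θ₂`. -/
theorem quotX1_add_B1 (Q : Vp P) (hQ : Q ∉ L.N) :
    quotX1 P L.N Q + quotB1 P L.N =
      Fermat.Agent.S12.Xi P L.N 0 * Fermat.Agent.S12.Xi P L.N 1 * ThetaS P L.N 2 Q := by
  classical
  haveI := finite_lineSub P L.N
  letI : Fintype (lineSub P L.N) := Fintype.ofFinite _
  obtain ⟨hg1, hg2⟩ := generic_of_not_mem P L.N Q hQ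
  have hcard := card_lineSub P L.N L.ne_bot L.ne_top
  have hodd : Odd (Fintype.card (lineSub P L.N)) := hcard ▸ P.hp_odd
  have h := quotX_add_B (P.freyCurve⁄Qbar) (lineSub P L.N) (frey_twoTors P) hodd hg1 hg2
  unfold quotX quotB at h
  unfold quotX1 quotB1
  rw [Xi_eq' P L.N L.ne_bot L.ne_top 0, Xi_eq' P L.N L.ne_bot L.ne_top 1,
    Xi_eq' P L.N L.ne_bot L.ne_top 2, ThetaS_eq P L.N L.ne_bot L.ne_top 0 hg1,
    ThetaS_eq P L.N L.ne_bot L.ne_top 2 hg1, eRoot_zero, eRoot_one, eRoot_two]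
  have hB : (0 - -((P.b : Qbar) ^ P.p) / 4) ^ Fintype.card (lineSub P L.N) =
      ((P.b : Qbar) ^ P.p) ^ P.p / 4 ^ P.p := by
    rw [hcard, ← div_pow]
    congr 1
    ring
  rw [hB] at h
  have h4 : (4 : Qbar) ≠ 0 := by norm_num
  have h4p : (4 : Qbar) ^ P.p = 4 * 4 ^ (P.p - 1) := by
    rw [← pow_succ']
    congr 1
    have := P.hppos
    omega
  have h4p0 : (4 : Qbar) ^ P.p ≠ 0 := pow_ne_zero _ h4
  generalize Fermat.Agent.S12.H11.Xi (P.freyCurve⁄Qbar) (lineSub P L.N)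
    (-((P.b : Qbar) ^ P.p) / 4) = X2 at h ⊢
  generalize Fermat.Agent.S12.H11.Xi (P.freyCurve⁄Qbar) (lineSub P L.N)
    ((P.a : Qbar) ^ P.p / 4) = X1 at h ⊢
  generalize Fermat.Agent.S12.H11.Xi (P.freyCurve⁄Qbar) (lineSub P L.N) 0 = X0 at h ⊢
  generalize theta (P.freyCurve⁄Qbar) (lineSub P L.N) 0 Q = T0 at h ⊢
  generalize theta (P.freyCurve⁄Qbar) (lineSub P L.N) (-((P.b : Qbar) ^ P.p) / 4) Q = T2 at h ⊢
  have h' : X1 * X2 * T0 * 4 ^ P.p + ((P.b : Qbar) ^ P.p) ^ P.p * X1 ^ 2 =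
      X0 * X1 * T2 * 4 ^ P.p := by
    field_simp at h
    linear_combination h
  rw [h4p] at h' ⊢
  linear_combination (4 ^ (P.p - 1)) ^ 2 * h'

/-- `Ψ² = Θ₀ Θ₁ Θ₂`. -/
theorem PsiS_sq (Q : Vp P) (hQ : Q ∉ L.N) :
    PsiS P L.N Q ^ 2 = ThetaS P L.N 0 Q * ThetaS P L.N 1 Q * ThetaS P L.N 2 Q := by
  classical
  haveI := finite_lineSub P L.N
  letI : Fintype (lineSub P L.N) := Fintype.ofFinite _
  obtain ⟨hg1, hg2⟩ := generic_of_not_mem P L.N Q hQ
  have hcard := card_lineSub P L.N L.ne_bot L.ne_top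
  have h := psiN_sq (P.freyCurve⁄Qbar) (lineSub P L.N) (frey_twoTors P) hg1
  rw [PsiS_eq P L.N L.ne_bot L.ne_top hg1, ThetaS_eq P L.N L.ne_bot L.ne_top 0 hg1,
    ThetaS_eq P L.N L.ne_bot L.ne_top 1 hg1, ThetaS_eq P L.N L.ne_bot L.ne_top 2 hg1,
    eRoot_zero, eRoot_one, eRoot_two, mul_pow, h, hcard]
  ring

/-- The point `(x₁, y₁)` lies on `y² = x (x - A₁) (x + B₁)`. -/
theorem quot1_equation (Q : Vp P) (hQ : Q ∉ L.N) :
    quotY1 P L.N Q ^ 2 =
      quotX1 P L.N Q * (quotX1 P L.N Q - quotA1 P L.N) * (quotX1 P L.N Q + quotB1 P L.N) := by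
  rw [quotX1_sub_A1 P L Q hQ, quotX1_add_B1 P L Q hQ]
  unfold quotY1 quotX1
  rw [mul_pow, PsiS_sq P L Q hQ]
  ring

end main

/-! ### Galois invariance -/

section galois

variable (P : FreyPackage)

lemma xiFactor_smul (i : Fin 3) (σ : Gal) (T : (P.freyCurve⁄Qbar).Point) :
    xiFactor P i (σ • T) = σ (xiFactor P i T) := by
  rcases T with _ | ⟨x, y, h⟩
  · change xiFactor P i (0 : (P.freyCurve⁄Qbar).Point) = σ 1
    rw [map_one]
    rfl
  · change 4 * σ x - ((eRoot P i : ℤ) : Qbar) = σ (4 * x - ((eRoot P i : ℤ) : Qbar))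
    rw [map_sub, map_mul, map_ofNat, map_intCast]

lemma ySfun_smul (σ : Gal) (T : (P.freyCurve⁄Qbar).Point) :
    ySfun P (σ • T) = σ (ySfun P T) := by
  rcases T with _ | ⟨x, y, h⟩
  · change ySfun P (0 : (P.freyCurve⁄Qbar).Point) = σ 1
    rw [map_one]
    rfl
  · change 8 * σ y + 4 * σ x = σ (8 * y + 4 * x)
    rw [map_add, map_mul, map_mul, map_ofNat, map_ofNat]

variable (L : CofLine P)

/-- Reindexing of the products over `N` under `σ`. -/
lemma finprod_galois (f : (P.freyCurve⁄Qbar).Point → Qbar)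
    (hf : ∀ (σ : Gal) (T : (P.freyCurve⁄Qbar).Point), f (σ • T) = σ (f T))
    (σ : Gal) (Q : Vp P) :
    σ (∏ᶠ R : L.N, f ((Q : (P.freyCurve⁄Qbar).Point) +
        ((R : Vp P) : (P.freyCurve⁄Qbar).Point))) =
      ∏ᶠ R : L.N, f ((Q : (P.freyCurve⁄Qbar).Point) +
        ((R : Vp P) : (P.freyCurve⁄Qbar).Point)) := by
  haveI : Finite (Vp P) := (frey_card P).1
  have h1 := MonoidHom.map_finprod_of_injective (σ : Qbar →+* Qbar).toMonoidHom
    (by exact σ.injective)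
    (fun R : L.N => f ((Q : (P.freyCurve⁄Qbar).Point) + ((R : Vp P) : (P.freyCurve⁄Qbar).Point)))
  have h1' : σ (∏ᶠ R : L.N, f ((Q : (P.freyCurve⁄Qbar).Point) +
        ((R : Vp P) : (P.freyCurve⁄Qbar).Point))) =
      ∏ᶠ R : L.N, σ (f ((Q : (P.freyCurve⁄Qbar).Point) +
        ((R : Vp P) : (P.freyCurve⁄Qbar).Point))) := h1
  rw [h1']
  -- the bijection `R ↦ σ R + (σ Q - Q)` of `N`
  let e : L.N → L.N := fun R =>
    ⟨σ • (R : Vp P) + (σ • Q - Q), L.N.add_mem (L.stable σ R R.2) (L.cofixed σ Q)⟩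
  have he_inj : Function.Injective e := by
    intro R R' h
    have h' : σ • (R : Vp P) + (σ • Q - Q) = σ • (R' : Vp P) + (σ • Q - Q) :=
      congrArg Subtype.val h
    have h'' : σ • (R : Vp P) = σ • (R' : Vp P) := add_right_cancel h'
    have h3 : (R : Vp P) = (R' : Vp P) := by
      have := congrArg (fun x => σ⁻¹ • x) h''
      simpa using this
    exact Subtype.ext h3
  have he : Function.Bijective e := Finite.injective_iff_bijective.mp he_inj
  apply finprod_eq_of_bijective e he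
  intro R
  rw [← hf]
  congr 1
  change σ • ((Q : (P.freyCurve⁄Qbar).Point) + ((R : Vp P) : (P.freyCurve⁄Qbar).Point)) =
    (Q : (P.freyCurve⁄Qbar).Point) + ((σ • (R : Vp P) + (σ • Q - Q) : Vp P) :
      (P.freyCurve⁄Qbar).Point)
  rw [_root_.smul_add σ (Q : (P.freyCurve⁄Qbar).Point)
    ((R : Vp P) : (P.freyCurve⁄Qbar).Point)]
  change σ • (Q : (P.freyCurve⁄Qbar).Point) + σ • ((R : Vp P) : (P.freyCurve⁄Qbar).Point) =
    (Q : (P.freyCurve⁄Qbar).Point) + (σ • ((R : Vp P) : (P.freyCurve⁄Qbar).Point) +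
      (σ • (Q : (P.freyCurve⁄Qbar).Point) - (Q : (P.freyCurve⁄Qbar).Point)))
  abel

/-- `Θ_i(Q)` is Galois-invariant for `Q ∈ E[p]`. -/
theorem ThetaS_fixed (i : Fin 3) (σ : Gal) (Q : Vp P) :
    σ (ThetaS P L.N i Q) = ThetaS P L.N i Q :=
  finprod_galois P L (xiFactor P i) (xiFactor_smul P i) σ Q

/-- `Ψ(Q)` is Galois-invariant for `Q ∈ E[p]`. -/
theorem PsiS_fixed (σ : Gal) (Q : Vp P) : σ (PsiS P L.N Q) = PsiS P L.N Q :=
  finprod_galois P L (ySfun P) (ySfun_smul P) σ Q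

/-- `Ξ_i` is Galois-invariant. -/
theorem Xi_fixed (i : Fin 3) (σ : Gal) :
    σ (Fermat.Agent.S12.Xi P L.N i) = Fermat.Agent.S12.Xi P L.N i := by
  have h := finprod_galois P L (xiFactor P i) (xiFactor_smul P i) σ 0
  simpa [Fermat.Agent.S12.Xi] using h

theorem quotX1_fixed (σ : Gal) (Q : Vp P) : σ (quotX1 P L.N Q) = quotX1 P L.N Q := by
  unfold quotX1
  rw [map_mul, map_mul, Xi_fixed, Xi_fixed, ThetaS_fixed]

theorem quotY1_fixed (σ : Gal) (Q : Vp P) : σ (quotY1 P L.N Q) = quotY1 P L.N Q := by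
  unfold quotY1
  rw [map_mul, map_mul, map_mul, Xi_fixed, Xi_fixed, Xi_fixed, PsiS_fixed]

theorem quotA1_fixed (σ : Gal) : σ (quotA1 P L.N) = quotA1 P L.N := by
  unfold quotA1
  rw [map_mul, map_pow, map_pow, map_pow, Xi_fixed]
  simp

theorem quotB1_fixed (σ : Gal) : σ (quotB1 P L.N) = quotB1 P L.N := by
  unfold quotB1
  rw [map_mul, map_pow, map_pow, map_pow, Xi_fixed]
  simp

end galois

/-! ### The quotient curve and the point `Q' = φ(Q)` -/

section curve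

variable (P : FreyPackage)

/-- The quotient curve `E₁ : y² = x (x - A₁) (x + B₁)` over `Q̄`. -/
noncomputable def quotCurve1 (N : Submodule (ZMod P.p) (Vp P)) : Affine Qbar :=
  ⟨0, quotB1 P N - quotA1 P N, 0, -(quotA1 P N * quotB1 P N), 0⟩

lemma quotCurve1_Δ (N : Submodule (ZMod P.p) (Vp P)) :
    (quotCurve1 P N).Δ = 16 * (quotA1 P N * quotB1 P N * (quotA1 P N + quotB1 P N)) ^ 2 := by
  simp only [quotCurve1, WeierstrassCurve.Δ, WeierstrassCurve.b₂, WeierstrassCurve.b₄,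
    WeierstrassCurve.b₆, WeierstrassCurve.b₈]
  ring

variable (L : CofLine P)

lemma Xi_ne_zero' (i : Fin 3) : Fermat.Agent.S12.Xi P L.N i ≠ 0 := by
  classical
  haveI := finite_lineSub P L.N
  letI : Fintype (lineSub P L.N) := Fintype.ofFinite _
  have hcard := card_lineSub P L.N L.ne_bot L.ne_top
  have hodd : Odd (Fintype.card (lineSub P L.N)) := hcard ▸ P.hp_odd
  rw [Xi_eq' P L.N L.ne_bot L.ne_top i]
  have h4 : (4 : Qbar) ≠ 0 := by norm_num
  refine mul_ne_zero (pow_ne_zero _ h4) ?_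
  have H := frey_twoTors P
  fin_cases i
  · simp only [Fin.zero_eta, eRoot_zero]
    exact Xi_ne_zero (P.freyCurve⁄Qbar) (lineSub P L.N) H hodd
  · simp only [Fin.mk_one, eRoot_one]
    exact Xi_ne_zero (P.freyCurve⁄Qbar) (lineSub P L.N) H.perm12 hodd
  · have : ((⟨2, by decide⟩ : Fin 3)) = 2 := rfl
    simp only [this, eRoot_two]
    exact Xi_ne_zero (P.freyCurve⁄Qbar) (lineSub P L.N) H.rot.rot hodd

lemma quotA1_ne_zero : quotA1 P L.N ≠ 0 := by
  have ha : (P.a : Qbar) ≠ 0 := by exact_mod_cast P.ha0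
  exact mul_ne_zero (pow_ne_zero _ (pow_ne_zero _ ha)) (pow_ne_zero _ (Xi_ne_zero' P L 2))

lemma quotB1_ne_zero : quotB1 P L.N ≠ 0 := by
  have hb : (P.b : Qbar) ≠ 0 := by exact_mod_cast P.hb0
  exact mul_ne_zero (pow_ne_zero _ (pow_ne_zero _ hb)) (pow_ne_zero _ (Xi_ne_zero' P L 1))

lemma quotC1_ne_zero : quotC1 P L.N ≠ 0 := by
  have hc : (P.c : Qbar) ≠ 0 := by exact_mod_cast P.hc0
  exact mul_ne_zero (pow_ne_zero _ (pow_ne_zero _ hc)) (pow_ne_zero _ (Xi_ne_zero' P L 0))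

lemma quotCurve1_Δ_ne_zero : (quotCurve1 P L.N).Δ ≠ 0 := by
  rw [quotCurve1_Δ, quotA1_add_quotB1 P L]
  have h16 : (16 : Qbar) ≠ 0 := by norm_num
  exact mul_ne_zero h16 (pow_ne_zero _ (mul_ne_zero
    (mul_ne_zero (quotA1_ne_zero P L) (quotB1_ne_zero P L)) (quotC1_ne_zero P L)))

lemma quot1_nonsingular (Q : Vp P) (hQ : Q ∉ L.N) :
    (quotCurve1 P L.N).Nonsingular (quotX1 P L.N Q) (quotY1 P L.N Q) := by
  apply (Affine.equation_iff_nonsingular_of_Δ_ne_zero (quotCurve1_Δ_ne_zero P L)).mp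
  rw [Affine.equation_iff]
  have h := quot1_equation P L Q hQ
  simp only [quotCurve1]
  linear_combination h

/-- The point `Q' = φ(Q)` on the quotient curve, for `Q ∈ E[p] ∖ N`. -/
noncomputable def quotPoint1 (Q : Vp P) (hQ : Q ∉ L.N) : (quotCurve1 P L.N).Point :=
  Affine.Point.some (quotX1 P L.N Q) (quotY1 P L.N Q) (quot1_nonsingular P L Q hQ)

end curve

end Fermat.Agent.S12.H11

end
-- ==== END Fermat.Agent.S12.H11_PhiFrey

-- ==== BEGIN Fermat.Agent.S12.H67_Wiring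
section

set_option autoImplicit false

namespace Fermat.Agent.S12.H67

open WeierstrassCurve WeierstrassCurve.Affine WeierstrassCurve.Affine.Point
open Fermat.Agent.S13

/-- A line in a space with at most `p²` elements has `p` elements. -/
lemma card_of_line {p : ℕ} [Fact p.Prime] {V : Type*} [AddCommGroup V] [Module (ZMod p) V]
    [Finite V] (hV : Nat.card V ≤ p ^ 2) (N : Submodule (ZMod p) V) (h0 : N ≠ ⊥) (h1 : N ≠ ⊤) :
    Nat.card N = p := by
  classical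
  have hp : p.Prime := Fact.out
  have hcardV : Nat.card V = p ^ Module.finrank (ZMod p) V := by
    rw [Module.natCard_eq_pow_finrank (K := ZMod p) (V := V), Nat.card_zmod]
  have hfrV : Module.finrank (ZMod p) V ≤ 2 := by
    rw [hcardV] at hV
    exact (Nat.pow_le_pow_iff_right hp.one_lt).mp hV
  have hfrN : Module.finrank (ZMod p) N < Module.finrank (ZMod p) V :=
    Submodule.finrank_lt h1
  have hfrN0 : 0 < Module.finrank (ZMod p) N := by
    rw [Module.finrank_pos_iff]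
    exact Submodule.nontrivial_iff_ne_bot.mpr h0
  have h : Module.finrank (ZMod p) N = 1 := by omega
  rw [Module.natCard_eq_pow_finrank (K := ZMod p) (V := N), Nat.card_zmod, h, pow_one]

/-- A product over a finite subspace of a function which is `1` at `0` and `c` elsewhere. -/
lemma prod_eq_pow_of_const {p : ℕ} {V : Type*} [AddCommGroup V] [Module (ZMod p) V]
    (N : Submodule (ZMod p) V) [Fintype N] {M : Type*} [CommMonoid M] (f : N → M) (c : M)
    (h0 : f 0 = 1) (h : ∀ Q : N, Q ≠ 0 → f Q = c) :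
    ∏ Q : N, f Q = c ^ (Fintype.card N - 1) := by
  classical
  rw [← Finset.mul_prod_erase Finset.univ f (Finset.mem_univ (0 : N)), h0, one_mul]
  rw [Finset.prod_congr rfl (fun Q hQ => h Q (Finset.ne_of_mem_erase hQ)),
    Finset.prod_const, Finset.card_erase_of_mem (Finset.mem_univ _), Finset.card_univ]

section Local

variable (P : FreyPackage) (N : Submodule (ZMod P.p) (Vp P))

lemma coe_zero_point : (((0 : N) : Vp P) : (P.freyCurve⁄Qbar).Point) = 0 := rfl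

/-- (at 2) the valuations of the `Ξ_i`. -/
lemma val_Xi_two [Fintype N] (A : ValuationSubring Qbar)
    (h : ∀ Q : Vp P, Q ∈ N → Q ≠ 0 →
      A.valuation (xiFactor P 0 (Q : (P.freyCurve⁄Qbar).Point)) = A.valuation (4 : Qbar) ∧
      A.valuation (xiFactor P 1 (Q : (P.freyCurve⁄Qbar).Point)) = 1 ∧
      A.valuation (xiFactor P 2 (Q : (P.freyCurve⁄Qbar).Point)) = A.valuation (4 : Qbar)) :
    A.valuation (Xi P N 0) = A.valuation (4 : Qbar) ^ (Fintype.card N - 1) ∧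
    A.valuation (Xi P N 1) = 1 ∧
    A.valuation (Xi P N 2) = A.valuation (4 : Qbar) ^ (Fintype.card N - 1) := by
  have hne : ∀ Q : N, Q ≠ 0 → (Q : Vp P) ≠ 0 := fun Q hQ h0 => hQ (Subtype.ext h0)
  have hz : ∀ i, A.valuation (xiFactor P i (((0 : N) : Vp P) : (P.freyCurve⁄Qbar).Point)) = 1 := by
    intro i
    change A.valuation (xiFactor P i Point.zero) = 1
    simp [xiFactor]
  refine ⟨?_, ?_, ?_⟩
  · rw [val_Xi]
    exact prod_eq_pow_of_const N _ _ (hz 0) (fun Q hQ => (h Q Q.2 (hne Q hQ)).1)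
  · rw [val_Xi]
    rw [prod_eq_pow_of_const N _ 1 (hz 1) (fun Q hQ => (h Q Q.2 (hne Q hQ)).2.1), one_pow]
  · rw [val_Xi]
    exact prod_eq_pow_of_const N _ _ (hz 2) (fun Q hQ => (h Q Q.2 (hne Q hQ)).2.2)

/-- (at p) a point in the kernel of reduction: the three factors have the same valuation. -/
lemma val_xiFactor_of_inE1 {A : ValuationSubring Qbar} (hA : A.LiesOverPrime P.p)
    (Q : (P.freyCurve⁄Qbar).Point) (hQ : InE1 A Q) (i j : Fin 3) :
    A.valuation (xiFactor P i Q) = A.valuation (xiFactor P j Q) := by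
  rcases Q with _ | ⟨x, y, hxy⟩
  · rfl
  · have hx : 1 < A.valuation x := by
      by_contra hle
      rw [not_lt] at hle
      exact hQ ((A.valuation_le_one_iff x).mp hle)
    have h4 : A.valuation (4 : Qbar) = 1 := by
      have h := H63.val_intCast_eq_one_of_not_dvd (L := Qbar) (A := A) P.pp hA (n := 4) (by
        intro hdvd
        have h1 : (P.p : ℤ) ∣ 2 ^ 2 := by norm_num; exact hdvd
        have h2 := (Nat.prime_iff_prime_int.mp P.pp).dvd_of_dvd_pow h1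
        have h3 : P.p ∣ 2 := by exact_mod_cast h2
        have := Nat.le_of_dvd (by norm_num) h3
        have := P.hp5
        omega)
      simpa using h
    have key : ∀ k : Fin 3, A.valuation (xiFactor P k (Point.some x y hxy)) = A.valuation x := by
      intro k
      simp only [xiFactor]
      have h1 : A.valuation (4 * x) = A.valuation x := by rw [map_mul, h4, one_mul]
      have h2 : A.valuation (((eRoot P k : ℤ) : Qbar)) < A.valuation (4 * x) := by
        rw [h1]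
        exact lt_of_le_of_lt (H63.val_intCast_le_one A _) hx
      rw [Valuation.map_sub_eq_of_lt_left _ h2, h1]
    rw [key i, key j]

/-- (at p) the three `Ξ_i` have the same valuation. -/
lemma val_Xi_p [Fintype N] {A : ValuationSubring Qbar} (hA : A.LiesOverPrime P.p)
    (h : ∀ Q : Vp P, Q ∈ N → Q ≠ 0 → InE1 A (Q : (P.freyCurve⁄Qbar).Point)) (i j : Fin 3) :
    A.valuation (Xi P N i) = A.valuation (Xi P N j) := by
  rw [val_Xi, val_Xi]
  apply Finset.prod_congr rfl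
  intro Q _
  by_cases hQ : (Q : Vp P) = 0
  · rw [hQ]; rfl
  · exact val_xiFactor_of_inE1 P hA _ (h Q Q.2 hQ) i j

end Local

/-- **S12 from its inputs.** -/
theorem result_of_inputs
    (h0 : Stmt_exists_valuationSubring) (h1 : Stmt_card)
    (hkey : Stmt_key) (hrat : Stmt_rat) (hgood : Stmt_unit_good)
    (hmu : Stmt_unit_of_nodeFree) (htwo : Stmt_two) (hpp : Stmt_p)
    (hstar3 : Stmt_star_three) (hstar : Stmt_star) (hend : Stmt_end)
    (P : FreyPackage) (hp : 17 ≤ P.p) :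
    ¬ HasGaloisStableCofixedLine (K := AlgebraicClosure ℚ) ℚ P.freyCurve P.p := by
  classical
  rintro ⟨N, hNs, hN0, hN1, hNc⟩
  let L : CofLine P := ⟨N, hNs, hN0, hN1, hNc⟩
  have : Fact P.p.Prime := ⟨P.pp⟩
  obtain ⟨hfin, hcardV⟩ := h1 P
  let _ : Fintype N := Fintype.ofFinite _
  have hcardN : Fintype.card N = P.p := by
    rw [← Nat.card_eq_fintype_card]
    exact card_of_line hcardV N hN0 hN1
  -- the rational numbers `r_i`
  obtain ⟨r0, hr0, hr0'⟩ := hrat P L 0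
  obtain ⟨r1, hr1, hr1'⟩ := hrat P L 1
  obtain ⟨r2, hr2, hr2'⟩ := hrat P L 2
  change algebraMap ℚ Qbar r0 = Xi P N 0 at hr0'
  change algebraMap ℚ Qbar r1 = Xi P N 1 at hr1'
  change algebraMap ℚ Qbar r2 = Xi P N 2 at hr2'
  -- unit type at the odd primes `≠ p`
  have hunit : ∀ ℓ : ℕ, ℓ.Prime → ℓ ≠ 2 → ℓ ≠ P.p → ∀ A : ValuationSubring Qbar,
      A.LiesOverPrime ℓ → UnitTypeAt P N A := by
    intro ℓ hℓ hℓ2 hℓp A hA
    by_cases hbad : (ℓ : ℤ) ∣ P.a * P.b * P.c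
    · refine hmu P L ℓ hℓ hℓ2 hℓp hbad A hA ?_
      by_cases hℓ3 : ℓ = 3
      · subst hℓ3
        exact hstar3 P (by omega) L A hA
      · have h5 : 5 ≤ ℓ := by
          have := hℓ.two_le
          by_contra hlt
          have h4 : ℓ = 4 := by omega
          subst h4
          exact absurd hℓ (by norm_num)
        exact hstar P hp L ℓ hℓ h5 hℓp hbad A hA
    · exact hgood P L ℓ hℓ hℓ2 hℓp hbad A hA
  -- the valuations of the ratios
  have h4ne : (4 : Qbar) ≠ 0 := by norm_num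
  have hval : ∀ i : Fin 3, i ≠ 1 → ∀ ℓ : ℕ, ℓ.Prime → ∃ A : ValuationSubring Qbar,
      (ℓ : Qbar) ∈ A.nonunits ∧
        A.valuation (Xi P N i / Xi P N 1 / (4 : Qbar) ^ (P.p - 1)) = 1 := by
    intro i hi ℓ hℓ
    obtain ⟨A, hA⟩ := h0 ℓ hℓ
    refine ⟨A, hA, ?_⟩
    have h1ne : A.valuation (Xi P N 1) ≠ 0 := by
      rw [Ne, map_eq_zero, ← hr1']
      simpa using hr1
    have h4v : A.valuation (4 : Qbar) ≠ 0 := by
      rw [Ne, map_eq_zero]; exact h4ne
    rw [map_div₀, map_div₀, map_pow]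
    by_cases hℓ2 : ℓ = 2
    · subst hℓ2
      obtain ⟨e0, e1, e2⟩ := val_Xi_two P N A (htwo P L A hA)
      rw [hcardN] at e0 e2
      have hi' : A.valuation (Xi P N i) = A.valuation (4 : Qbar) ^ (P.p - 1) := by
        fin_cases i
        · exact e0
        · exact absurd rfl hi
        · exact e2
      rw [hi', e1, div_one]
      exact div_self (pow_ne_zero _ h4v)
    · have h4one : A.valuation (4 : Qbar) = 1 := by
        have h := H63.val_intCast_eq_one_of_not_dvd (L := Qbar) (A := A) hℓ hA (n := 4) (by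
          intro hdvd
          have h1 : (ℓ : ℤ) ∣ 2 ^ 2 := by norm_num; exact hdvd
          have h2 := (Nat.prime_iff_prime_int.mp hℓ).dvd_of_dvd_pow h1
          have h3 : ℓ ∣ 2 := by exact_mod_cast h2
          exact hℓ2 ((Nat.prime_dvd_prime_iff_eq hℓ Nat.prime_two).mp h3))
        simpa using h
      rw [h4one, one_pow, div_one]
      by_cases hℓp : ℓ = P.p
      · subst hℓp
        rw [val_Xi_p P N hA (hpp P L A hA) i 1]
        exact div_self h1ne
      · have hu := hunit ℓ hℓ hℓ2 hℓp A hA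
        rw [val_Xi_eq_one_of_unitType P N A hu i, val_Xi_eq_one_of_unitType P N A hu 1, div_one]
  -- the ratios are `± 4^(p-1)`
  have hratio : ∀ (i : Fin 3) (r : ℚ), i ≠ 1 → r ≠ 0 → algebraMap ℚ Qbar r = Xi P N i →
      (r / r1) ^ 2 = 16 ^ (P.p - 1) := by
    intro i r hi hr hr'
    have hz : r / r1 / 4 ^ (P.p - 1) ≠ 0 :=
      div_ne_zero (div_ne_zero hr hr1) (pow_ne_zero _ (by norm_num))
    have hcast : ((r / r1 / 4 ^ (P.p - 1) : ℚ) : Qbar) =
        Xi P N i / Xi P N 1 / (4 : Qbar) ^ (P.p - 1) := by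
      rw [← hr', ← hr1']
      simp [eq_ratCast]
    have := rat_eq_one_or_neg_one (L := Qbar) (r / r1 / 4 ^ (P.p - 1)) hz (by
      intro ℓ hℓ
      obtain ⟨A, hA, hv⟩ := hval i hi ℓ hℓ
      exact ⟨A, hA, by rw [hcast]; exact hv⟩)
    have h4 : (4 : ℚ) ^ (P.p - 1) ≠ 0 := pow_ne_zero _ (by norm_num)
    have h16 : (16 : ℚ) ^ (P.p - 1) = (4 ^ (P.p - 1)) ^ 2 := by
      rw [← pow_mul, mul_comm, pow_mul]; norm_num
    rcases this with h | h
    · rw [div_eq_iff h4, one_mul] at h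
      rw [h, h16]
    · rw [div_eq_iff h4] at h
      rw [h, h16]; ring
  have hρ0 := hratio 0 r0 (by decide) hr0 hr0'
  have hρ2 := hratio 2 r2 (by decide) hr2 hr2'
  -- (KEY) in `ℚ`
  have hkeyQ : ((P.a : ℚ) ^ P.p) ^ P.p * r2 ^ 2 + ((P.b : ℚ) ^ P.p) ^ P.p * r1 ^ 2 =
      ((P.c : ℚ) ^ P.p) ^ P.p * r0 ^ 2 := by
    have hk := hkey P L
    change ((P.a : Qbar) ^ P.p) ^ P.p * Xi P N 2 ^ 2 + ((P.b : Qbar) ^ P.p) ^ P.p * Xi P N 1 ^ 2 =
      ((P.c : Qbar) ^ P.p) ^ P.p * Xi P N 0 ^ 2 at hk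
    rw [← hr0', ← hr1', ← hr2'] at hk
    apply (algebraMap ℚ Qbar).injective
    simpa using hk
  have hr1sq : r1 ^ 2 ≠ 0 := pow_ne_zero _ hr1
  have hQ : (16 : ℚ) ^ (P.p - 1) * (((P.c : ℚ) ^ P.p) ^ P.p - ((P.a : ℚ) ^ P.p) ^ P.p) =
      ((P.b : ℚ) ^ P.p) ^ P.p := by
    have e0 : r0 ^ 2 = 16 ^ (P.p - 1) * r1 ^ 2 := by
      rw [← hρ0, div_pow, div_mul_cancel₀ _ hr1sq]
    have e2 : r2 ^ 2 = 16 ^ (P.p - 1) * r1 ^ 2 := by
      rw [← hρ2, div_pow, div_mul_cancel₀ _ hr1sq]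
    rw [e0, e2] at hkeyQ
    have : (16 ^ (P.p - 1) * (((P.c : ℚ) ^ P.p) ^ P.p - ((P.a : ℚ) ^ P.p) ^ P.p)) * r1 ^ 2 =
        (((P.b : ℚ) ^ P.p) ^ P.p) * r1 ^ 2 := by linear_combination -hkeyQ
    exact mul_right_cancel₀ hr1sq this
  have hZ : (16 : ℤ) ^ (P.p - 1) * ((P.c ^ P.p) ^ P.p - (P.a ^ P.p) ^ P.p) = (P.b ^ P.p) ^ P.p := by
    exact_mod_cast hQ
  exact hend (P.a ^ P.p) (P.b ^ P.p) (P.c ^ P.p) P.p P.hp_odd (by omega) P.hFLT
    (pow_ne_zero _ P.hb0) hZ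

end Fermat.Agent.S12.H67

end
-- ==== END Fermat.Agent.S12.H67_Wiring

-- ==== BEGIN Fermat.Agent.S12.H87_ValTwoFinal
section

set_option autoImplicit false

namespace Fermat.Agent.S12.H87

open Fermat.Agent.S13

/-- (UV') holds. -/
theorem stmt_unramVal_finite : Stmt_unramVal_finite :=
  fun ℓ hℓ A hA S hS hstab hfix x hx hx0 =>
    Fermat.Agent.Lib.UnramVal.valuation_eq_zpow_of_finite ℓ hℓ A hA S hS hstab hfix x hx hx0

/-- (VAL-2) at `2`: `|x_S| = |4|`, `|x_S - a^p| = 1`, `|x_S + b^p| = |4|` on `N ∖ 0`. -/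
theorem stmt_two : Stmt_two :=
  stmt_two_of_unramVal_finite stmt_unramVal_finite

end Fermat.Agent.S12.H87

end
-- ==== END Fermat.Agent.S12.H87_ValTwoFinal

-- ==== BEGIN Fermat.Agent.S13.Assemble
section

set_option autoImplicit false

namespace Fermat.Agent.S13

open WeierstrassCurve WeierstrassCurve.Affine WeierstrassCurve.Affine.Point

/-- (I0) valuation subrings over every prime exist. -/
theorem stmt_exists_valuationSubring : Stmt_exists_valuationSubring :=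
  fun ℓ hℓ => Fermat.Agent.Lib.FrobExists.exists_liesOverPrime ℓ hℓ

/-- (I3) is statement S05. -/
theorem stmt_S05 : Stmt_S05 :=
  fun P _ hq hq2 hqp => Fermat.Agent.S05.result P hq hq2 hqp

/-- S13 from the torsion polynomial interface and (I5). -/
theorem result_of_TP_I5 (hTP : Stmt_torsion_poly) (h5 : Stmt_no_fixed_point)
    (P : FreyPackage)
    (hred : ¬ GaloisRepIsIrreducible (K := AlgebraicClosure ℚ) ℚ P.freyCurve P.p) :
    HasGaloisStableCofixedLine (K := AlgebraicClosure ℚ) ℚ P.freyCurve P.p :=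
  result_of_inputs stmt_exists_valuationSubring
    (H63.card_of_torsion_poly hTP) (H63.nontrivial_of_torsion_poly hTP)
    stmt_S05 WP3.two_unipotent h5 H87.p_kernel
    (H63.p_supersingular_of_torsion_poly hTP (H63.card_of_torsion_poly hTP))
    Fermat.Agent.Lib.Minkowski.stmt_minkowski P hred

/-- The torsion polynomial interface holds. -/
theorem stmt_torsion_poly : Stmt_torsion_poly :=
  H63.torsion_poly_of_preΨ stmt_torsion_preΨ

/-- S13, all inputs plugged in. -/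
theorem result_all (P : FreyPackage)
    (hred : ¬ GaloisRepIsIrreducible (K := AlgebraicClosure ℚ) ℚ P.freyCurve P.p) :
    HasGaloisStableCofixedLine (K := AlgebraicClosure ℚ) ℚ P.freyCurve P.p :=
  result_of_TP_I5 stmt_torsion_poly WP3.H14.no_fixed_point P hred

end Fermat.Agent.S13

end
-- ==== END Fermat.Agent.S13.Assemble

-- ==== BEGIN Fermat.Agent.S12.H11_StarDefs
section

set_option autoImplicit false

namespace Fermat.Agent.S12

open WeierstrassCurve WeierstrassCurve.Affine WeierstrassCurve.Affine.Point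
open Fermat.Agent.S13

/-- Statement S15 (Mazur's key step), verbatim. -/
def Stmt_S15 : Prop :=
  ∀ {p : ℕ} (_ : p.Prime) (_ : p ∉ ({2, 3, 5, 7, 13} : Finset ℕ))
    (W : WeierstrassCurve ℤ) (_ : W.Δ ≠ 0)
    (Q : ((W.map (Int.castRingHom ℚ))⁄(AlgebraicClosure ℚ)).Point)
    (_ : ∀ σ : AlgebraicClosure ℚ ≃ₐ[ℚ] AlgebraicClosure ℚ, σ • Q = Q)
    (_ : addOrderOf Q = p)
    (_ : (2 : ℤ) ∣ W.Δ) (_ : ¬ (2 : ℤ) ∣ W.c₄)
    (_ : ∀ A : ValuationSubring (AlgebraicClosure ℚ), A.LiesOverPrime 2 →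
      ¬ W.InZeroComponentAt A Q)
    (_ : (3 : ℤ) ∣ W.Δ) (_ : ¬ (3 : ℤ) ∣ W.c₄)
    (_ : ∀ A : ValuationSubring (AlgebraicClosure ℚ), A.LiesOverPrime 3 →
      ¬ W.InZeroComponentAt A Q)
    {ℓ : ℕ} (_ : ℓ.Prime) (_ : ℓ ≠ p) (_ : (ℓ : ℤ) ∣ W.Δ) (_ : ¬ (ℓ : ℤ) ∣ W.c₄)
    (A : ValuationSubring (AlgebraicClosure ℚ)) (_ : A.LiesOverPrime ℓ),
    ¬ W.InZeroComponentAt A Q

/-- The Frey-type integral model `Y² + X Y = X³ + ((B - 1 - A)/4) X² - (A B/16) X` of
`y² = x (x - A) (x + B)`  (`x = 4 X`, `y = 8 Y + 4 X`). -/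
def freyModel (A B : ℤ) : WeierstrassCurve ℤ :=
  ⟨1, (B - 1 - A) / 4, 0, -(A * B) / 16, 0⟩

/-- `(A, B, A + B)` is a primitive triple of Frey type: `A ≡ 3 mod 4`, `32 ∣ B`. -/
structure IsFreyPair (A B : ℤ) : Prop where
  hA : A % 4 = 3
  hB : (32 : ℤ) ∣ B
  hB0 : B ≠ 0
  cop : IsCoprime A B

/-- (HOM) `p • Q' = 0`.  [helper63] -/
def Stmt_hom : Prop :=
  ∀ (P : FreyPackage) (L : CofLine P) (Q : Vp P) (hQ : Q ∉ L.N),
    P.p • H11.quotPoint1 P L Q hQ = 0

/-- (ZC-small) On a Frey-type curve a rational point of prime order `p ≥ 11` does not lie in the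
identity component at `2`, nor at `3` when `3 ∣ A B (A + B)`.
(Otherwise its `p - 1 ≥ 10` nonzero multiples are rational points of `E⁰ ∖ E¹`; two of them have the
same reduction, so their difference lies in `E¹`, which has no `p`-torsion.) -/
def Stmt_zc_small : Prop :=
  ∀ (A B : ℤ), IsFreyPair A B → ∀ (p : ℕ), p.Prime → 11 ≤ p →
  ∀ (Q : (((freyModel A B).map (Int.castRingHom ℚ))⁄Qbar).Point),
    (∀ σ : Gal, σ • Q = Q) → addOrderOf Q = p →
  ∀ (ℓ : ℕ), (ℓ = 2 ∨ (ℓ = 3 ∧ (3 : ℤ) ∣ A * B * (A + B))) →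
  ∀ V : ValuationSubring Qbar, V.LiesOverPrime ℓ → ¬ (freyModel A B).InZeroComponentAt V Q

/-- (MODEL-arith) the rational triple `(A₁, B₁, C₁)` is `μ⁻²` times a primitive integral triple of
Frey type. -/
def Stmt_model_arith : Prop :=
  ∀ (P : FreyPackage) (L : CofLine P),
    ∃ (μ : ℚ) (A B : ℤ), μ ≠ 0 ∧ IsFreyPair A B ∧
      ((A : ℤ) : Qbar) = (algebraMap ℚ Qbar μ) ^ 2 * H11.quotA1 P L.N ∧
      ((B : ℤ) : Qbar) = (algebraMap ℚ Qbar μ) ^ 2 * H11.quotB1 P L.N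

/-- (VAL-B) at an odd bad prime `ℓ ≠ p` where `N` is NOT node-free (`N ∩ E⁰ = 0`), the image `Q'`
of `Q ∈ E[p] ∖ N` is a unit at all three roots after normalisation, and the quotient curve still has
bad reduction:  `|x₁| = |x₁ - A₁| = |x₁ + B₁| = max(|A₁|, |B₁|) =: M ≥ |C₁|`, `|A₁ B₁ C₁| < M³`. -/
def Stmt_val_B : Prop :=
  ∀ (P : FreyPackage) (L : CofLine P) (ℓ : ℕ), ℓ.Prime → ℓ ≠ 2 → ℓ ≠ P.p →
    (ℓ : ℤ) ∣ P.a * P.b * P.c →
  ∀ V : ValuationSubring Qbar, V.LiesOverPrime ℓ → ¬ NodeFreeAt P L.N V →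
  ∀ (Q : Vp P), Q ∉ L.N →
    ∃ M : V.ValueGroup,
      V.valuation (H11.quotA1 P L.N) ≤ M ∧ V.valuation (H11.quotB1 P L.N) ≤ M ∧
      V.valuation (H11.quotC1 P L.N) ≤ M ∧
      (V.valuation (H11.quotA1 P L.N) = M ∨ V.valuation (H11.quotB1 P L.N) = M) ∧
      V.valuation (H11.quotX1 P L.N Q) = M ∧
      V.valuation (H11.quotX1 P L.N Q - H11.quotA1 P L.N) = M ∧
      V.valuation (H11.quotX1 P L.N Q + H11.quotB1 P L.N) = M ∧
      V.valuation (H11.quotA1 P L.N * H11.quotB1 P L.N * H11.quotC1 P L.N) < M ^ 3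

end Fermat.Agent.S12

end
-- ==== END Fermat.Agent.S12.H11_StarDefs

-- ==== BEGIN Fermat.Agent.S12.H66_Three
section

set_option autoImplicit false

namespace Fermat.Agent.S12.H66

open WeierstrassCurve WeierstrassCurve.Affine WeierstrassCurve.Affine.Point
open Fermat.Agent.S05 Fermat.Agent.S13

section centre

open Fermat.Agent.S05.H15

/-- The model `y² = x (x - r) (x - s)` of the Frey curve centred at the root `e`, at a place `A`
over an odd prime `ℓ` not dividing `r - s`: hypotheses of S05, and the transfer map. -/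
theorem centre_data (P : FreyPackage) {e r s : ℤ} (hc : H87.Centre P e r s) {ℓ : ℕ}
    (hℓ : ℓ.Prime) (hℓ2 : ℓ ≠ 2) (A : ValuationSubring Qbar)
    (hA : A.LiesOverPrime ℓ) (hdisc : ¬ (ℓ : ℤ) ∣ r - s) :
    ModelHyp A ((modelOf P.freyCurve ((e : ℤ) : ℚ))⁄Qbar) ∧
    ((modelOf P.freyCurve ((e : ℤ) : ℚ))⁄Qbar).a₄ = ((r * s : ℤ) : Qbar) ∧
    ∃ Φ : (P.freyCurve⁄Qbar).Point ≃+ ((modelOf P.freyCurve ((e : ℤ) : ℚ))⁄Qbar).Point,
      (∀ (σ : Gal) (Q : (P.freyCurve⁄Qbar).Point), Φ (σ • Q) = σ • Φ Q) ∧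
      (∀ (X Y : Qbar) (h : (P.freyCurve⁄Qbar).Nonsingular X Y),
        ∃ h' : ((modelOf P.freyCurve ((e : ℤ) : ℚ))⁄Qbar).Nonsingular
            (4 * X - ((e : ℤ) : Qbar)) (8 * Y + 4 * X),
          Φ (.some X Y h) = .some (4 * X - ((e : ℤ) : Qbar)) (8 * Y + 4 * X) h') := by
  have hqK : ((ℓ : ℕ) : Qbar) ∈ A.nonunits := hA
  have h4 : 4 * P.freyCurve.a₂ + 1 = ((P.b ^ P.p - P.a ^ P.p : ℤ) : ℚ) := by
    simp only [FreyPackage.freyCurve]
    push_cast
    ring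
  have h16 : 16 * P.freyCurve.a₄ = ((-(P.a ^ P.p * P.b ^ P.p) : ℤ) : ℚ) := by
    simp only [FreyPackage.freyCurve]
    push_cast
    ring
  have hval2 : A.valuation (2 : Qbar) = 1 := by
    have := valuation_natCast_eq_one_of_ne (A := A) hℓ hqK Nat.prime_two (Ne.symm hℓ2)
    simpa using this
  have hcast : ∀ n : ℤ, algebraMap ℚ Qbar ((n : ℤ) : ℚ) = ((n : ℤ) : Qbar) := fun n => by simp
  have he' : ((e : ℤ) : ℚ) ^ 3 + (4 * P.freyCurve.a₂ + 1) * ((e : ℤ) : ℚ) ^ 2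
      + 16 * P.freyCurve.a₄ * ((e : ℤ) : ℚ) = 0 := by
    rw [h4, h16]
    have := congrArg (Int.cast : ℤ → ℚ) hc.he
    push_cast at this ⊢
    linear_combination this
  have ha2 : (modelOf P.freyCurve ((e : ℤ) : ℚ)).a₂ = ((-(r + s) : ℤ) : ℚ) := by
    simp only [modelOf]
    rw [h4, ← hc.h2]
    push_cast
    ring
  have ha4 : (modelOf P.freyCurve ((e : ℤ) : ℚ)).a₄ = ((r * s : ℤ) : ℚ) := by
    simp only [modelOf]
    rw [h4, h16, ← hc.h4]
    push_cast
    ring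
  have ha2' : ((modelOf P.freyCurve ((e : ℤ) : ℚ))⁄Qbar).a₂ = ((-(r + s) : ℤ) : Qbar) := by
    show algebraMap ℚ Qbar _ = _
    rw [ha2, hcast]
  have ha4' : ((modelOf P.freyCurve ((e : ℤ) : ℚ))⁄Qbar).a₄ = ((r * s : ℤ) : Qbar) := by
    show algebraMap ℚ Qbar _ = _
    rw [ha4, hcast]
  have hyp : ModelHyp A ((modelOf P.freyCurve ((e : ℤ) : ℚ))⁄Qbar) := by
    refine ⟨by simp [modelOf], by simp [modelOf], by simp [modelOf], ?_, ?_, ?_, hval2, ?_⟩
    · rw [ha2']; exact valuation_intCast_le_one A _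
    · rw [ha4']; exact valuation_intCast_le_one A _
    · rw [ha4']
      have : (r * s : ℤ) ≠ 0 := mul_ne_zero hc.hr hc.hs
      exact_mod_cast this
    · rw [ha2', ha4']
      have : (((-(r + s) : ℤ) : Qbar)) ^ 2 - 4 * ((r * s : ℤ) : Qbar)
          = (((r - s) ^ 2 : ℤ) : Qbar) := by
        push_cast; ring
      rw [this]
      exact valuation_intCast_eq_one_of_not_dvd hℓ hqK (H15.not_dvd_pow hℓ hdisc _)
  have hvc := H14.isVarChange_modelOf (L := Qbar) P.freyCurve rfl rfl rfl ((e : ℤ) : ℚ) he'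
  have hfx : ∀ X : Qbar, H14.fx (2 : Qbar) (algebraMap ℚ Qbar (-((e : ℤ) : ℚ))) X
      = 4 * X - ((e : ℤ) : Qbar) := by
    intro X
    rw [H14.fx, map_neg, hcast]
    ring
  have hfy : ∀ X Y : Qbar, H14.fy (2 : Qbar) (1 : Qbar) (0 : Qbar) X Y = 8 * Y + 4 * X := by
    intro X Y
    rw [H14.fy]
    ring
  refine ⟨hyp, ha4', hvc.addEquiv, ?_, ?_⟩
  · intro σ Q
    rcases Q with _ | ⟨X, Y, hXY⟩
    · rfl
    · rw [WeierstrassCurve.Affine.Point.algEquiv_smul_def, Affine.Point.map_some,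
        hvc.addEquiv_some, hvc.addEquiv_some,
        WeierstrassCurve.Affine.Point.algEquiv_smul_def, Affine.Point.map_some]
      apply H14.IsVarChange.some_congr
      · simp only [H14.fx, map_add, map_mul, map_pow, map_ofNat, AlgEquiv.coe_toAlgHom,
          AlgEquiv.commutes]
      · simp only [H14.fy, map_add, map_mul, map_pow, map_ofNat, _root_.map_zero, map_one,
          AlgEquiv.coe_toAlgHom]
  · intro X Y h
    have hns := (hvc.nonsingular_iff X Y).2 h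
    have hns' : ((modelOf P.freyCurve ((e : ℤ) : ℚ))⁄Qbar).Nonsingular
        (4 * X - ((e : ℤ) : Qbar)) (8 * Y + 4 * X) := by
      rw [← hfx, ← hfy]; exact hns
    refine ⟨hns', ?_⟩
    rw [hvc.addEquiv_some]
    exact H14.IsVarChange.some_congr (hfx X) (hfy X Y) _ _

end centre


section core

/-- `|p| = 1` at a place over `ℓ ≠ p`. -/
lemma val_p_eq_one (P : FreyPackage) {ℓ : ℕ} (hℓ : ℓ.Prime) (hℓp : ℓ ≠ P.p)
    (A : ValuationSubring Qbar) (hA : A.LiesOverPrime ℓ) :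
    A.valuation ((P.p : ℕ) : Qbar) = 1 :=
  Fermat.Agent.S05.H15.valuation_natCast_eq_one_of_ne (A := A) hℓ hA P.pp (Ne.symm hℓp)

/-- **Core of THREE and STAR-3.**  At a place `A` over `3`, in the model centred at `e`: a
`p`-torsion point (`p ≥ 11`) fixed by a Frobenius element at `A`, all of whose affine multiples
satisfy `|x_S - e| ≥ 1`, is zero. -/
theorem no_frob_fixed (P : FreyPackage) (hp11 : 11 ≤ P.p) {e r s : ℤ} (hc : H87.Centre P e r s)
    (A : ValuationSubring Qbar) (hA : A.LiesOverPrime 3) (hdisc : ¬ ((3 : ℕ) : ℤ) ∣ r - s)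
    (σ : Gal) (hσ : A.IsFrobeniusAt σ 3)
    (R : (P.freyCurve⁄Qbar).Point) (hpR : (P.p : ℤ) • R = 0) (hσR : σ • R = R)
    (hE0 : ∀ (k : ℕ) (X Y : Qbar) (h : (P.freyCurve⁄Qbar).Nonsingular X Y),
      k • R = .some X Y h → 1 ≤ A.valuation (4 * X - ((e : ℤ) : Qbar))) :
    R = 0 := by
  have h3p : (3 : ℕ) ≠ P.p := by omega
  obtain ⟨hyp, -, Φ, -, hΦ⟩ := centre_data P hc Nat.prime_three (by norm_num) A hA hdisc
  have hvalp := val_p_eq_one P Nat.prime_three h3p A hA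
  apply Φ.injective
  rw [_root_.map_zero]
  have hpΦ : P.p • Φ R = 0 := by
    rw [← map_nsmul, ← natCast_zsmul, hpR, _root_.map_zero]
  refine pigeonhole3 hyp {t : Qbar | σ t = t} cls3
    (fun t ht ht1 => frob3_classes A σ hσ t ht ht1) P.pp hp11 hvalp (Φ R) hpΦ ?_
  intro k x y h hk
  rw [← map_nsmul] at hk
  have hσk : σ • (k • R) = k • R := by
    rw [← natCast_zsmul, algEquiv_smul_zsmul, hσR]
  have hE0k := hE0 k
  generalize k • R = T at hk hσk hE0k
  rcases T with _ | ⟨X, Y, hXY⟩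
  · rw [← Affine.Point.zero_def, _root_.map_zero] at hk
    exact absurd hk.symm (Point.some_ne_zero h)
  · obtain ⟨h', hΦ'⟩ := hΦ X Y hXY
    rw [hΦ'] at hk
    have hxy := (Point.some.injEq _ _ _ _ _ _).mp hk
    obtain ⟨hx, hy⟩ := hxy
    rw [algEquiv_smul_def, Point.map_some] at hσk
    have hXY' := (Point.some.injEq _ _ _ _ _ _).mp hσk
    have hσX : σ X = X := hXY'.1
    have hσY : σ Y = Y := hXY'.2
    refine ⟨?_, ?_, ?_⟩
    · rw [← hx]; exact hE0k X Y hXY rfl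
    · show σ x = x
      rw [← hx]
      simp only [map_sub, map_mul, map_ofNat, map_intCast, hσX]
    · show σ y = y
      rw [← hy]
      simp only [map_add, map_mul, map_ofNat, hσX, hσY]

end core


section three

/-- (I1) for the Frey curve, in closed form. -/
theorem vp_card (P : FreyPackage) : Finite (Vp P) ∧ Nat.card (Vp P) ≤ P.p ^ 2 :=
  H63.card_of_torsion_poly stmt_torsion_poly P

/-- An element `σ` acting trivially on `V / N` (`N` a proper subspace of the finite space `V`)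
fixes a nonzero vector. -/
theorem exists_fixed_ne_zero (P : FreyPackage) (L : CofLine P) (σ : Gal) :
    ∃ v : Vp P, v ≠ 0 ∧ σ • v = v := by
  obtain ⟨hfin, -⟩ := vp_card P
  by_contra hno
  have hno' : ∀ v : Vp P, σ • v = v → v = 0 := fun v hv => by
    by_contra h0
    exact hno ⟨v, h0, hv⟩
  have hinj : Function.Injective (fun v : Vp P => (⟨σ • v - v, L.cofixed σ v⟩ : L.N)) := by
    intro v w hvw
    have h1 : σ • v - v = σ • w - w := congrArg Subtype.val hvw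
    have h2 : σ • (v - w) = v - w := by
      rw [smul_sub]
      have : σ • v - σ • w - (v - w) = (σ • v - v) - (σ • w - w) := by abel
      exact sub_eq_zero.mp (by rw [this, h1, sub_self])
    exact sub_eq_zero.mp (hno' _ h2)
  have h1 : Nat.card (Vp P) ≤ Nat.card L.N := Nat.card_le_card_of_injective _ hinj
  obtain ⟨x, hx⟩ : ∃ x : Vp P, x ∉ L.N := by
    by_contra hall
    exact L.ne_top (eq_top_iff.mpr fun x _ => by
      by_contra hx
      exact hall ⟨x, hx⟩)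
  have h2 : Nat.card L.N < Nat.card (Vp P) := Finite.card_subtype_lt hx
  omega

/-- (THREE) `3 ∣ a b c`. -/
theorem stmt_three : Stmt_three := by
  intro P hp11 L
  by_contra h3
  have h3' : ¬ ((3 : ℕ) : ℤ) ∣ P.a * P.b * P.c := h3
  obtain ⟨A, hA⟩ := Fermat.Agent.Lib.FrobExists.exists_liesOverPrime 3 Nat.prime_three
  obtain ⟨σ, hσ⟩ := Fermat.Agent.Lib.FrobExists.exists_isFrobeniusAt 3 Nat.prime_three A hA
  obtain ⟨v, hv0, hσv⟩ := exists_fixed_ne_zero P L σ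
  have h3p : (3 : ℕ) ≠ P.p := by omega
  have ha : ¬ ((3 : ℕ) : ℤ) ∣ P.a ^ P.p :=
    H15.not_dvd_pow Nat.prime_three
      (fun h => h3' (dvd_mul_of_dvd_left (dvd_mul_of_dvd_left h _) _)) _
  have hb : ¬ ((3 : ℕ) : ℤ) ∣ P.b ^ P.p :=
    H15.not_dvd_pow Nat.prime_three
      (fun h => h3' (dvd_mul_of_dvd_left (dvd_mul_of_dvd_right h _) _)) _
  have hc : ¬ ((3 : ℕ) : ℤ) ∣ P.c ^ P.p :=
    H15.not_dvd_pow Nat.prime_three (fun h => h3' (dvd_mul_of_dvd_right h _)) _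
  have hdisc : ¬ ((3 : ℕ) : ℤ) ∣ P.a ^ P.p - -(P.b ^ P.p) := by
    rw [sub_neg_eq_add, P.hFLT]; exact hc
  have hrs : ¬ ((3 : ℕ) : ℤ) ∣ P.a ^ P.p * -(P.b ^ P.p) := by
    intro hd
    rcases (Nat.prime_iff_prime_int.mp Nat.prime_three).dvd_or_dvd hd with hd | hd
    · exact ha hd
    · exact hb ((dvd_neg).1 hd)
  have hpv : (P.p : ℤ) • (v : (P.freyCurve⁄Qbar).Point) = 0 := by
    have := v.2
    rwa [Submodule.mem_torsionBy_iff] at this
  have hR := no_frob_fixed P hp11 (H87.centre0 P) A hA hdisc σ hσ v.1 hpv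
    (congrArg Subtype.val hσv) (by
      intro k X Y h hk
      have hpk : (P.p : ℤ) • (Point.some X Y h : (P.freyCurve⁄Qbar).Point) = 0 := by
        rw [← hk, ← natCast_zsmul, smul_comm, hpv]
        exact zsmul_zero _
      exact (H87.unit_of_centre P (H87.centre0 P) Nat.prime_three (by norm_num) h3p A hA hdisc h
        hpk (fun hd => absurd hd hrs)).1.ge)
  exact hv0 (Subtype.ext hR)

end three

end Fermat.Agent.S12.H66

end
-- ==== END Fermat.Agent.S12.H66_Three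

-- ==== BEGIN Fermat.Agent.S12.H67_ValP
section

set_option autoImplicit false

namespace Fermat.Agent.S12.H67

open WeierstrassCurve WeierstrassCurve.Affine WeierstrassCurve.Affine.Point
open Fermat.Agent.S13

/-- (I1) for the Frey curve, proven. -/
theorem stmt_card : Stmt_card := H63.card_of_torsion_poly stmt_torsion_poly

/-- (VAL-p) from the S13 inputs. -/
theorem stmt_p_of_inputs
    (h0 : Stmt_exists_valuationSubring) (h1 : Stmt_card)
    (h3 : Stmt_S05) (h4 : Stmt_two_unipotent) (h5 : Stmt_no_fixed_point)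
    (h6 : Stmt_p_kernel) (h8 : Stmt_minkowski) : Stmt_p := by
  classical
  intro P L Ap hAp Q hQN hQ0
  have : Fact P.p.Prime := ⟨P.pp⟩
  obtain ⟨hfin, hcard⟩ := h1 P
  obtain ⟨T, hT1, hT2⟩ := h6 P Ap hAp
  by_contra hQ
  have hQT : Q ∉ T := fun h => hQ ((hT1 Q).mp h)
  have hNs' : ∀ σ : Gal, ∀ x ∈ L.N, σ • x ∈ L.N := L.stable
  have hinf : ∀ z ∈ L.N, z ∈ T → z = 0 := by
    intro z hzN hzT
    by_contra hz
    exact hQT (le_of_mem_of_ne_zero hcard L.N L.ne_top T hzN hzT hz hQN)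
  -- the finite set of all coordinates
  let _ : Fintype (Vp P) := Fintype.ofFinite _
  let S : Finset Qbar := Finset.univ.biUnion fun v : Vp P =>
    coordSet (v : (P.freyCurve⁄Qbar).Point)
  have hS : ∀ σ : Gal, (∀ x ∈ S, σ x = x) → ∀ v : Vp P, σ • v = v := by
    intro σ hσ v
    apply smul_eq_of_fix_coords
    intro x hx
    exact hσ x (Finset.mem_biUnion.mpr ⟨v, Finset.mem_univ _, hx⟩)
  have hS1 : ∃ S : Finset Qbar, ∀ σ : Gal, (∀ x ∈ S, σ x = x) → σ ∈ fixSub Gal L.N :=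
    ⟨S, fun σ hσ x _ => hS σ hσ x⟩
  have hmink : fixSub Gal L.N = ⊤ := by
    refine h8 _ (fixSub_normal L.N hNs') hS1 fun ℓ hℓ => ?_
    by_cases hℓp : ℓ = P.p
    · subst hℓp
      refine ⟨Ap, hAp, fun σ hσ x hx => ?_⟩
      exact sub_eq_zero.mp (hinf _ (L.N.sub_mem (hNs' σ x hx) hx) (hT2 σ hσ x))
    · obtain ⟨A, hA⟩ := h0 ℓ hℓ
      refine ⟨A, hA, ?_⟩
      by_cases h2ℓ : ℓ = 2
      · subst h2ℓ
        obtain ⟨T', hT1', hT2'⟩ := h4 P A hA
        exact fun σ hσ =>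
          (mem_fixSub_and_cofixSub_of_unipotent hcard L.N hNs' L.ne_bot L.ne_top T' σ
            (hT1' σ hσ) (hT2' σ hσ)).1
      · have hunr := h3 P ℓ hℓ h2ℓ hℓp A hA
        exact fun σ hσ x _ => hunr σ hσ x
  apply hQ0
  apply h5 P Q
  intro σ
  have : σ ∈ fixSub Gal L.N := by rw [hmink]; exact Subgroup.mem_top σ
  exact this Q hQN

/-- (VAL-p), all inputs plugged in. -/
theorem stmt_p : Stmt_p :=
  stmt_p_of_inputs stmt_exists_valuationSubring stmt_card stmt_S05 WP3.two_unipotent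
    WP3.H14.no_fixed_point H87.p_kernel Fermat.Agent.Lib.Minkowski.stmt_minkowski

end Fermat.Agent.S12.H67

end
-- ==== END Fermat.Agent.S12.H67_ValP
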