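-- GENERATED (merged mirror, NOTES/tools/trim/merge3_helper67.py): 3 modules of the originals, bodies verbatim.
import Fermat.Agent.Zm.S12_L03_000
import Fermat.Agent.Zm.S12_L01_000
import Fermat.Agent.Zm.S12_L02_000
import Fermat.Agent.Zm.S15_L01_000
import Fermat.Agent.Zm.S35_L02_001
import Fermat.Agent.S12.H63_HomPoint

-- ==== BEGIN Fermat.Agent.S12.H11_ModelArith
section

set_option autoImplicit false

namespace Fermat.Agent.S12.H11

open WeierstrassCurve WeierstrassCurve.Affine WeierstrassCurve.Affine.Point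
open Fermat.Agent.S13

set_option linter.style.haveILetI false

section val

/-- `|n| ≤ |2|^k` implies `2^k ∣ n`. -/
lemma two_pow_dvd_of_val_le {V : ValuationSubring Qbar} (hV : V.LiesOverPrime 2) (k : ℕ) :
    ∀ n : ℤ, V.valuation (n : Qbar) ≤ V.valuation (2 : Qbar) ^ k → (2 : ℤ) ^ k ∣ n := by
  have h2lt : V.valuation (2 : Qbar) < 1 := WP3.H15.val_two_lt hV
  have h2ne : V.valuation (2 : Qbar) ≠ 0 := WP3.H15.val_two_ne_zero V
  have h2pos : 0 < V.valuation (2 : Qbar) := zero_lt_iff.mpr h2ne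
  induction k with
  | zero => intro n _; simp
  | succ k ih =>
    intro n hn
    have hlt : V.valuation (n : Qbar) < 1 := by
      refine lt_of_le_of_lt hn ?_
      exact pow_lt_one₀ zero_le h2lt (by omega)
    have h2n : (2 : ℤ) ∣ n := by
      by_contra h
      rw [WP3.H15.val_odd hV h] at hlt
      exact lt_irrefl _ hlt
    obtain ⟨m, rfl⟩ := h2n
    have hm : V.valuation (m : Qbar) ≤ V.valuation (2 : Qbar) ^ k := by
      push_cast at hn
      rw [map_mul, pow_succ'] at hn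
      exact (mul_le_mul_iff_right₀ h2pos).mp hn
    rw [pow_succ']
    exact mul_dvd_mul_left 2 (ih m hm)

/-- If all factors of `Ξ_i` have valuation `g`, then `|Ξ_i| = g^(p-1)`. -/
lemma val_Xi_pow (P : FreyPackage) (L : CofLine P) (V : ValuationSubring Qbar) (i : Fin 3)
    (g : V.ValueGroup)
    (h : ∀ Q : Vp P, Q ∈ L.N → Q ≠ 0 →
      V.valuation (xiFactor P i (Q : (P.freyCurve⁄Qbar).Point)) = g) :
    V.valuation (Fermat.Agent.S12.Xi P L.N i) = g ^ (P.p - 1) := by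
  classical
  obtain ⟨hfin, hcard⟩ := card_line P L.N L.ne_bot L.ne_top
  haveI : Finite L.N := hfin
  letI : Fintype L.N := Fintype.ofFinite _
  rw [H67.val_Xi, ← Finset.mul_prod_erase Finset.univ _ (Finset.mem_univ (0 : L.N))]
  have h0 : V.valuation (xiFactor P i (((0 : L.N) : Vp P) : (P.freyCurve⁄Qbar).Point)) = 1 := by
    have : xiFactor P i (((0 : L.N) : Vp P) : (P.freyCurve⁄Qbar).Point) = 1 := rfl
    rw [this, map_one]
  rw [h0, one_mul]
  have hfac : ∀ Q ∈ (Finset.univ : Finset L.N).erase 0,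
      V.valuation (xiFactor P i (((Q : L.N) : Vp P) : (P.freyCurve⁄Qbar).Point)) = g := by
    intro Q hQ
    refine h (Q : Vp P) Q.2 (fun h0 => ?_)
    rw [Finset.mem_erase] at hQ
    exact hQ.1 (Subtype.ext h0)
  rw [Finset.prod_congr rfl hfac]
  rw [Finset.prod_const, Finset.card_erase_of_mem (Finset.mem_univ _), Finset.card_univ,
    ← Nat.card_eq_fintype_card, hcard]

/-- The valuations of the `Ξ_i` at `2`. -/
lemma val_Xi_two (P : FreyPackage) (L : CofLine P) (V : ValuationSubring Qbar)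
    (hV : V.LiesOverPrime 2) :
    V.valuation (Fermat.Agent.S12.Xi P L.N 0) = V.valuation (4 : Qbar) ^ (P.p - 1) ∧
    V.valuation (Fermat.Agent.S12.Xi P L.N 1) = 1 ∧
    V.valuation (Fermat.Agent.S12.Xi P L.N 2) = V.valuation (4 : Qbar) ^ (P.p - 1) := by
  have h := H87.stmt_two P L V hV
  refine ⟨val_Xi_pow P L V 0 _ (fun Q hQ hQ0 => (h Q hQ hQ0).1), ?_,
    val_Xi_pow P L V 2 _ (fun Q hQ hQ0 => (h Q hQ hQ0).2.2)⟩
  have := val_Xi_pow P L V 1 1 (fun Q hQ hQ0 => (h Q hQ hQ0).2.1)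
  rwa [one_pow] at this

end val

section arith

/-- `c` is odd. -/
lemma frey_c_odd (P : FreyPackage) : ¬ (2 : ℤ) ∣ P.c := by
  intro hc
  have hb : (2 : ℤ) ∣ P.b := WP3.H15.frey_two_dvd_b P
  have ha : ¬ (2 : ℤ) ∣ P.a := WP3.H15.frey_a_odd P
  apply ha
  have h1 : (2 : ℤ) ∣ P.c ^ P.p := dvd_pow hc P.hp0
  have h2 : (2 : ℤ) ∣ P.b ^ P.p := dvd_pow hb P.hp0
  have h3 : (2 : ℤ) ∣ P.a ^ P.p := by
    have : P.a ^ P.p = P.c ^ P.p - P.b ^ P.p := by rw [← P.hFLT]; ring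
    rw [this]
    exact dvd_sub h1 h2
  exact Int.prime_two.dvd_of_dvd_pow h3

lemma isCoprime_of_gcd {x y : ℤ} (h : gcd x y = 1) : IsCoprime x y := by
  rw [Int.isCoprime_iff_gcd_eq_one]
  have : ((Int.gcd x y : ℕ) : ℤ) = 1 := h
  exact_mod_cast this

/-- The square of an odd integer is `1` modulo `4`. -/
lemma sq_modEq_one_of_odd {m : ℤ} (hm : ¬ (2 : ℤ) ∣ m) : m ^ 2 ≡ 1 [ZMOD 4] := by
  have h : m % 2 = 1 := by omega
  have := Int.sq_mod_four_eq_one_of_odd (Int.odd_iff.mpr h)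
  exact this

/-- A rational number of valuation `1` at `2` has odd numerator and denominator. -/
lemma odd_num_den_of_val_eq_one {V : ValuationSubring Qbar} (hV : V.LiesOverPrime 2) (s : ℚ)
    (hs : V.valuation (algebraMap ℚ Qbar s) = 1) :
    ¬ (2 : ℤ) ∣ s.num ∧ ¬ (2 : ℤ) ∣ (s.den : ℤ) := by
  have hden0 : ((s.den : ℤ) : Qbar) ≠ 0 := by exact_mod_cast s.den_ne_zero
  have e : algebraMap ℚ Qbar s * ((s.den : ℤ) : Qbar) = ((s.num : ℤ) : Qbar) := by
    have := Rat.mul_den_eq_num s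
    have h2 := congrArg (algebraMap ℚ Qbar) this
    rw [map_mul, map_natCast, map_intCast] at h2
    rw [Int.cast_natCast]
    exact h2
  have hv : V.valuation ((s.den : ℤ) : Qbar) = V.valuation ((s.num : ℤ) : Qbar) := by
    rw [← e, map_mul, hs, one_mul]
  have hcop : IsCoprime s.num (s.den : ℤ) := by
    rw [Int.isCoprime_iff_gcd_eq_one]
    exact s.reduced
  have hnum : ¬ (2 : ℤ) ∣ s.num := by
    intro h
    have h1 : V.valuation ((s.num : ℤ) : Qbar) < 1 := WP3.H15.val_even hV h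
    rw [← hv] at h1
    have h2 : (2 : ℤ) ∣ (s.den : ℤ) := by
      by_contra hcon
      rw [WP3.H15.val_odd hV hcon] at h1
      exact lt_irrefl _ h1
    exact Int.prime_two.not_isUnit (hcop.isUnit_of_dvd' h h2)
  refine ⟨hnum, fun h => ?_⟩
  have h1 : V.valuation ((s.den : ℤ) : Qbar) < 1 := WP3.H15.val_even hV h
  rw [hv, WP3.H15.val_odd hV hnum] at h1
  exact lt_irrefl _ h1

/-- **(MODEL-arith).** -/
theorem stmt_model_arith : Stmt_model_arith := by
  classical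
  intro P L
  -- the rational numbers `Ξ_i`
  obtain ⟨r0, hr0⟩ := H12.exists_rat_of_fixed _ (fun σ => Xi_fixed P L 0 σ)
  obtain ⟨r1, hr1⟩ := H12.exists_rat_of_fixed _ (fun σ => Xi_fixed P L 1 σ)
  obtain ⟨r2, hr2⟩ := H12.exists_rat_of_fixed _ (fun σ => Xi_fixed P L 2 σ)
  have hr1' : r1 ≠ 0 := by
    rintro rfl
    exact Xi_ne_zero' P L 1 (by rw [← hr1, _root_.map_zero])
  have hr2' : r2 ≠ 0 := by
    rintro rfl
    exact Xi_ne_zero' P L 2 (by rw [← hr2, _root_.map_zero])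
  set a : ℤ := (P.a ^ P.p) ^ P.p with ha
  set b : ℤ := (P.b ^ P.p) ^ P.p with hb
  set c : ℤ := (P.c ^ P.p) ^ P.p with hc
  have hab : IsCoprime a b := ((isCoprime_of_gcd P.hgcdab).pow).pow
  have hac : IsCoprime a c := ((isCoprime_of_gcd P.hgcdac).pow).pow
  have hbc : IsCoprime b c := ((isCoprime_of_gcd P.hgcdbc).pow).pow
  have ha0 : a ≠ 0 := pow_ne_zero _ (pow_ne_zero _ P.ha0)
  have hb0 : b ≠ 0 := pow_ne_zero _ (pow_ne_zero _ P.hb0)
  have hinj : Function.Injective (algebraMap ℚ Qbar) := (algebraMap ℚ Qbar).injective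
  have hsum : (a : ℚ) * r2 ^ 2 + (b : ℚ) * r1 ^ 2 = (c : ℚ) * r0 ^ 2 := by
    apply hinj
    rw [map_add, map_mul, map_mul, map_mul, map_pow, map_pow, map_pow, hr0, hr1, hr2,
      map_intCast, map_intCast, map_intCast, ha, hb, hc]
    push_cast
    exact stmt_key P L
  obtain ⟨μ, A, B, hμ, hA, hB, hcop⟩ :=
    exists_primitive_rat hab hac hbc ha0 r0 r1 r2 hr2' hsum
  -- the equalities in `Q̄`
  have eqA : ((A : ℤ) : Qbar) = (algebraMap ℚ Qbar μ) ^ 2 * quotA1 P L.N := by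
    have := congrArg (algebraMap ℚ Qbar) hA
    rw [map_intCast, map_mul, map_mul, map_pow, map_pow, hr2, map_intCast] at this
    rw [this, quotA1, ha]
    push_cast
    ring
  have eqB : ((B : ℤ) : Qbar) = (algebraMap ℚ Qbar μ) ^ 2 * quotB1 P L.N := by
    have := congrArg (algebraMap ℚ Qbar) hB
    rw [map_intCast, map_mul, map_mul, map_pow, map_pow, hr1, map_intCast] at this
    rw [this, quotB1, hb]
    push_cast
    ring
  have eqC : (((A + B : ℤ)) : Qbar) = (algebraMap ℚ Qbar μ) ^ 2 * quotC1 P L.N := by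
    rw [← quotA1_add_quotB1 P L, mul_add, ← eqA, ← eqB]
    push_cast
    ring
  -- 2-adic analysis
  obtain ⟨V, hV⟩ := Fermat.Agent.Lib.FrobExists.exists_liesOverPrime 2 Nat.prime_two
  obtain ⟨hv0, hv1, hv2⟩ := val_Xi_two P L V hV
  have h2lt : V.valuation (2 : Qbar) < 1 := WP3.H15.val_two_lt hV
  have h2ne : V.valuation (2 : Qbar) ≠ 0 := WP3.H15.val_two_ne_zero V
  have h2pos : 0 < V.valuation (2 : Qbar) := zero_lt_iff.mpr h2ne
  have e4 : V.valuation (4 : Qbar) = V.valuation (2 : Qbar) ^ 2 := by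
    rw [← map_pow]; norm_num
  have hva : V.valuation (((P.a : Qbar) ^ P.p) ^ P.p) = 1 := by
    have : V.valuation ((P.a : ℤ) : Qbar) = 1 := WP3.H15.val_odd hV (WP3.H15.frey_a_odd P)
    rw [map_pow, map_pow, this, one_pow, one_pow]
  have hvc : V.valuation (((P.c : Qbar) ^ P.p) ^ P.p) = 1 := by
    have : V.valuation ((P.c : ℤ) : Qbar) = 1 := WP3.H15.val_odd hV (frey_c_odd P)
    rw [map_pow, map_pow, this, one_pow, one_pow]
  set m := V.valuation (algebraMap ℚ Qbar μ) with hm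
  set t := V.valuation (4 : Qbar) ^ (P.p - 1) with ht
  have hvA : V.valuation ((A : ℤ) : Qbar) = m ^ 2 * t ^ 2 := by
    rw [eqA, quotA1, map_mul, map_mul, map_pow, hva, one_mul, map_pow, hv2]
  have hvC : V.valuation (((A + B : ℤ)) : Qbar) = m ^ 2 * t ^ 2 := by
    rw [eqC, quotC1, map_mul, map_mul, map_pow, hvc, one_mul, map_pow, hv0]
  have hvB : V.valuation ((B : ℤ) : Qbar) = m ^ 2 * V.valuation (((P.b : Qbar) ^ P.p) ^ P.p) := by
    rw [eqB, quotB1, map_mul, map_mul, map_pow, map_pow (V.valuation) (Fermat.Agent.S12.Xi P L.N 1),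
      hv1, one_pow, mul_one]
  have hAodd : ¬ (2 : ℤ) ∣ A := by
    intro h
    have h1 : V.valuation ((A : ℤ) : Qbar) < 1 := WP3.H15.val_even hV h
    have h2 : (2 : ℤ) ∣ A + B := by
      by_contra hcon
      have := WP3.H15.val_odd hV hcon
      rw [hvC, ← hvA] at this
      exact (ne_of_lt h1) this
    have h3 : (2 : ℤ) ∣ B := (dvd_add_right h).mp h2
    exact Int.prime_two.not_isUnit (hcop.isUnit_of_dvd' h h3)
  have hmt : m ^ 2 * t ^ 2 = 1 := by
    rw [← hvA]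
    exact WP3.H15.val_odd hV hAodd
  refine ⟨μ, A, B, hμ, ⟨?_, ?_, ?_, hcop⟩, eqA, eqB⟩
  · -- `A ≡ 3 mod 4`
    have hmt1 : m * t = 1 := by
      have h1 : (m * t) ^ 2 = 1 := by rw [mul_pow, hmt]
      rcases lt_trichotomy (m * t) 1 with h | h | h
      · exact absurd h1 (ne_of_lt (pow_lt_one₀ zero_le h (by norm_num)))
      · exact h
      · exact absurd h1 (ne_of_gt (one_lt_pow₀ h (by norm_num)))
    have hs : V.valuation (algebraMap ℚ Qbar (μ * r2)) = 1 := by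
      rw [map_mul, map_mul, hr2, hv2]
      exact hmt1
    obtain ⟨hnum, hden⟩ := odd_num_den_of_val_eq_one hV (μ * r2) hs
    have hint : A * ((μ * r2).den : ℤ) ^ 2 = a * (μ * r2).num ^ 2 := by
      have h1 := Rat.mul_den_eq_num (μ * r2)
      have : ((A * ((μ * r2).den : ℤ) ^ 2 : ℤ) : ℚ) = ((a * (μ * r2).num ^ 2 : ℤ) : ℚ) := by
        push_cast
        rw [hA, ← h1]
        ring
      exact_mod_cast this
    have hmod : A ≡ a [ZMOD 4] := by
      have h1 : A * ((μ * r2).den : ℤ) ^ 2 ≡ A * 1 [ZMOD 4] :=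
        Int.ModEq.mul_left A (sq_modEq_one_of_odd hden)
      have h2 : a * (μ * r2).num ^ 2 ≡ a * 1 [ZMOD 4] :=
        Int.ModEq.mul_left a (sq_modEq_one_of_odd hnum)
      rw [mul_one] at h1 h2
      rw [hint] at h1
      exact h1.symm.trans h2
    have ha4 : a ≡ -1 [ZMOD 4] := by
      have h := (WP3.H15.frey_a_pow_modEq P).pow P.p
      rwa [P.hp_odd.neg_one_pow] at h
    have := hmod.trans ha4
    have h3 : A % 4 = (-1) % 4 := this
    rw [h3]
    rfl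
  · -- `32 ∣ B`
    obtain ⟨b', hb'⟩ := WP3.H15.frey_two_dvd_b P
    have hp5 := P.hp5
    obtain ⟨k, hk⟩ : ∃ k, P.p = k + 2 := ⟨P.p - 2, by omega⟩
    have hvb : V.valuation (((P.b : Qbar) ^ P.p) ^ P.p) ≤ V.valuation (2 : Qbar) ^ (P.p * P.p) := by
      have e1 : ((P.b : Qbar) ^ P.p) ^ P.p =
          (2 : Qbar) ^ (P.p * P.p) * (((b' ^ (P.p * P.p) : ℤ)) : Qbar) := by
        rw [hb']; push_cast; ring
      rw [e1, map_mul, map_pow]
      calc V.valuation (2 : Qbar) ^ (P.p * P.p) * V.valuation (((b' ^ (P.p * P.p) : ℤ)) : Qbar)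
          ≤ V.valuation (2 : Qbar) ^ (P.p * P.p) * 1 :=
            mul_le_mul_right (Fermat.Agent.S05.H15.valuation_intCast_le_one V _) _
        _ = V.valuation (2 : Qbar) ^ (P.p * P.p) := mul_one _
    have ht2 : t ^ 2 = V.valuation (2 : Qbar) ^ (4 * k + 4) := by
      have hp1 : P.p - 1 = k + 1 := by omega
      rw [ht, e4, hp1, ← pow_mul, ← pow_mul]
      congr 1
      ring
    have hpp : P.p * P.p = (4 * k + 4) + k * k := by rw [hk]; ring
    have ht0 : 0 < t ^ 2 := by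
      rw [ht2]
      exact pow_pos h2pos _
    have hB1 : V.valuation ((B : ℤ) : Qbar) * t ^ 2 ≤ V.valuation (2 : Qbar) ^ (k * k) * t ^ 2 := by
      calc V.valuation ((B : ℤ) : Qbar) * t ^ 2
          = (m ^ 2 * t ^ 2) * V.valuation (((P.b : Qbar) ^ P.p) ^ P.p) := by
            rw [hvB, mul_right_comm]
        _ = V.valuation (((P.b : Qbar) ^ P.p) ^ P.p) := by rw [hmt, one_mul]
        _ ≤ V.valuation (2 : Qbar) ^ (P.p * P.p) := hvb
        _ = V.valuation (2 : Qbar) ^ (k * k) * t ^ 2 := by rw [ht2, hpp, pow_add, mul_comm]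
    have hB2 : V.valuation ((B : ℤ) : Qbar) ≤ V.valuation (2 : Qbar) ^ (k * k) :=
      (mul_le_mul_iff_left₀ ht0).mp hB1
    have hB3 : V.valuation ((B : ℤ) : Qbar) ≤ V.valuation (2 : Qbar) ^ 5 := by
      refine le_trans hB2 ?_
      apply pow_le_pow_of_le_one zero_le h2lt.le
      have : 3 ≤ k := by omega
      nlinarith
    have := two_pow_dvd_of_val_le hV 5 B hB3
    norm_num at this
    exact this
  · -- `B ≠ 0`
    rintro rfl
    have : (0 : ℚ) = μ ^ 2 * ((b : ℚ) * r1 ^ 2) := by exact_mod_cast hB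
    have hne : μ ^ 2 * ((b : ℚ) * r1 ^ 2) ≠ 0 :=
      mul_ne_zero (pow_ne_zero _ hμ)
        (mul_ne_zero (by exact_mod_cast hb0) (pow_ne_zero _ hr1'))
    exact hne this.symm

end arith

end Fermat.Agent.S12.H11

end
-- ==== END Fermat.Agent.S12.H11_ModelArith

-- ==== BEGIN Fermat.Agent.S12.H63_HomFrey
section

set_option autoImplicit false

namespace Fermat.Agent.S12.H63

open WeierstrassCurve WeierstrassCurve.Affine WeierstrassCurve.Affine.Point
open Fermat.Agent.S13 Fermat.Agent.Lib.Torsion.H11 Fermat.Agent.Lib.Torsion.H63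
  Fermat.Agent.S12.H11

set_option linter.style.haveILetI false

/-- The quotient curve has 2-division polynomial `4 x (x - A₁) (x + B₁)`. -/
lemma twoTors_quotCurve1 (P : FreyPackage) (N : Submodule (ZMod P.p) (Vp P)) :
    TwoTors (quotCurve1 P N) (0 : Qbar) (quotA1 P N) (-(quotB1 P N)) := by
  refine ⟨two_ne_zero, ?_, ?_, ?_⟩
  · simp only [WeierstrassCurve.b₂, quotCurve1]; ring
  · simp only [WeierstrassCurve.b₄, quotCurve1]; ring
  · simp only [WeierstrassCurve.b₆, quotCurve1]; ring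

/-- The coercion `E[p] → E(Q̄)` commutes with `k • ·`. -/
lemma coe_nsmul_Vp (P : FreyPackage) (k : ℕ) (Q : Vp P) :
    ((k • Q : Vp P) : (P.freyCurve⁄Qbar).Point) = k • (Q : (P.freyCurve⁄Qbar).Point) := by
  simp

/-- `p • Q = 0` for `Q ∈ E[p]`. -/
lemma p_nsmul_coe (P : FreyPackage) (Q : Vp P) :
    P.p • (Q : (P.freyCurve⁄Qbar).Point) = 0 := by
  have := Q.2
  rw [Submodule.mem_torsionBy_iff] at this
  rw [← natCast_zsmul]
  exact this

/-- The multiples `k • Q`, `0 < k < p`, of a point `Q ∈ E[p] ∖ N` lie outside `N`. -/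
lemma nsmul_not_mem (P : FreyPackage) (N : Submodule (ZMod P.p) (Vp P)) (Q : Vp P)
    (hQ : Q ∉ N) (k : ℕ) (hk0 : 0 < k) (hkp : k < P.p) : k • Q ∉ N := by
  intro h
  apply hQ
  haveI : Fact P.p.Prime := ⟨P.pp⟩
  have hk : ((k : ℕ) : ZMod P.p) ≠ 0 := by
    intro h0
    rw [ZMod.natCast_eq_zero_iff] at h0
    exact absurd (Nat.le_of_dvd hk0 h0) (by omega)
  have h1 : ((k : ℕ) : ZMod P.p) • Q ∈ N := by
    rw [Nat.cast_smul_eq_nsmul]
    exact h
  have h2 := N.smul_mem (((k : ℕ) : ZMod P.p)⁻¹) h1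
  rw [smul_smul, inv_mul_cancel₀ hk, one_smul] at h2
  exact h2

/-- `Θ_i(T) ≠ 0` for a generic point `T`. -/
lemma theta_ne_zero {K : Type*} [Field K] [DecidableEq K] (W : Affine K)
    (N : AddSubgroup W.Point) [Fintype N] {e e' e'' : K} (H : TwoTors W e e' e'')
    {T : W.Point} (h2T : (2 : ℕ) • T ∉ N) : theta W N e T ≠ 0 := by
  unfold theta
  rw [Finset.prod_ne_zero_iff]
  intro R _ h0
  apply h2T
  have h1 := two_nsmul_eq_zero_of_xc_eq W H (sub_eq_zero.mp h0)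
  have h2 : (2 : ℕ) • T = -((2 : ℕ) • (R : W.Point)) := by
    rw [nsmul_add] at h1
    exact eq_neg_of_add_eq_zero_left h1
  rw [h2]
  exact N.neg_mem (N.nsmul_mem R.2 2)

/-- **(HOM)** `p • Q' = 0`. -/
theorem stmt_hom : Stmt_hom := by
  classical
  intro P L Q hQ
  haveI := finite_lineSub P L.N
  letI : Fintype (lineSub P L.N) := Fintype.ofFinite _
  have hcard := card_lineSub P L.N L.ne_bot L.ne_top
  have hodd : Odd (Fintype.card (lineSub P L.N)) := hcard ▸ P.hp_odd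
  have ha : (P.a : Qbar) ≠ 0 := by exact_mod_cast P.ha0
  have hb : (P.b : Qbar) ≠ 0 := by exact_mod_cast P.hb0
  have hc : (P.c : Qbar) ≠ 0 := by exact_mod_cast P.hc0
  have h4 : (4 : Qbar) ≠ 0 := by norm_num
  have hFLT : (P.a : Qbar) ^ P.p + (P.b : Qbar) ^ P.p = (P.c : Qbar) ^ P.p := by
    exact_mod_cast P.hFLT
  have H := frey_twoTors P
  have hne01 : (0 : Qbar) ≠ (P.a : Qbar) ^ P.p / 4 :=
    (div_ne_zero (pow_ne_zero _ ha) h4).symm
  have hne02 : (0 : Qbar) ≠ -((P.b : Qbar) ^ P.p) / 4 :=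
    (div_ne_zero (neg_ne_zero.mpr (pow_ne_zero _ hb)) h4).symm
  have hne12 : (P.a : Qbar) ^ P.p / 4 ≠ -((P.b : Qbar) ^ P.p) / 4 := by
    intro h
    apply pow_ne_zero P.p hc
    rw [← hFLT]
    field_simp at h
    linear_combination h
  -- the Ξ's
  have hX0 := Xi_ne_zero' P L 0
  have hX1 := Xi_ne_zero' P L 1
  have hX2 := Xi_ne_zero' P L 2
  have h4p : (4 : Qbar) ^ P.p ≠ 0 := pow_ne_zero _ h4
  -- root data, rescaled
  have D₀ := (rootData (P.freyCurve⁄Qbar) (lineSub P L.N) H hodd hne01 hne02).rescale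
    (c' := (Fermat.Agent.S12.Xi P L.N 1 * Fermat.Agent.S12.Xi P L.N 2 * 4 ^ P.p)⁻¹)
    (inv_ne_zero (mul_ne_zero (mul_ne_zero hX1 hX2) h4p))
  have D₁ := (rootData (P.freyCurve⁄Qbar) (lineSub P L.N) H.perm12 hodd hne01.symm
    hne12).rescale
    (c' := (Fermat.Agent.S12.Xi P L.N 0 * Fermat.Agent.S12.Xi P L.N 2 * 4 ^ P.p)⁻¹)
    (inv_ne_zero (mul_ne_zero (mul_ne_zero hX0 hX2) h4p))
  have H' := twoTors_quotCurve1 P L.N
  have hpow : ∀ x : Qbar, (x / 4) ^ P.p * (4 ^ P.p) = x ^ P.p := by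
    intro x
    rw [div_pow]
    field_simp
  -- the multiples of `Q`
  have hPN : ∀ k, 0 < k → k < P.p →
      k • (Q : (P.freyCurve⁄Qbar).Point) ∉ lineSub P L.N := by
    intro k hk0 hkp h
    rw [← coe_nsmul_Vp, coe_mem_lineSub] at h
    exact nsmul_not_mem P L.N Q hQ k hk0 hkp h
  have hgen := generic_of_not_mem P L.N Q hQ
  unfold quotPoint1
  refine smul_eq_zero_of_normTheta_on (W := (P.freyCurve⁄Qbar)) (W' := quotCurve1 P L.N)
    (e₀' := 0) (e₁' := quotA1 P L.N)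
    (lineSub P L.N) D₀ D₁ ?_ ?_ ?_ (fun T => quotX1 P L.N T) P.p
    (by have := P.hp5; omega) (Q : (P.freyCurve⁄Qbar).Point) (p_nsmul_coe P Q) hPN ?_ ?_
    (quot1_nonsingular P L Q hQ) ?_
  · -- `hM₀`
    intro u v
    rw [H'.symF_root, hcard]
    congr 2
    unfold quotA1 quotB1
    have e1 := hpow ((P.a : Qbar) ^ P.p)
    have e2 := hpow ((P.b : Qbar) ^ P.p)
    have hd : ((0 - (P.a : Qbar) ^ P.p / 4) * (0 - -((P.b : Qbar) ^ P.p) / 4)) ^ P.p =
        -(((P.a : Qbar) ^ P.p / 4) ^ P.p * ((P.b : Qbar) ^ P.p / 4) ^ P.p) := by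
      have : (0 - (P.a : Qbar) ^ P.p / 4) * (0 - -((P.b : Qbar) ^ P.p) / 4) =
          -(((P.a : Qbar) ^ P.p / 4) * ((P.b : Qbar) ^ P.p / 4)) := by ring
      rw [this, P.hp_odd.neg_pow, mul_pow]
    rw [hd, inv_pow, div_inv_eq_mul]
    linear_combination (Fermat.Agent.S12.Xi P L.N 1 ^ 2 * Fermat.Agent.S12.Xi P L.N 2 ^ 2) *
      (((P.a : Qbar) ^ P.p / 4) ^ P.p * 4 ^ P.p * e2 + ((P.b : Qbar) ^ P.p) ^ P.p * e1)
  · -- `hM₁`
    intro u v
    rw [H'.perm12.symF_root, hcard]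
    congr 2
    have hC := quotA1_add_quotB1 P L
    unfold quotA1 quotB1 quotC1 at hC
    unfold quotA1 quotB1
    have e1 := hpow ((P.a : Qbar) ^ P.p)
    have e3 := hpow ((P.c : Qbar) ^ P.p)
    have hd : (((P.a : Qbar) ^ P.p / 4 - 0) *
        ((P.a : Qbar) ^ P.p / 4 - -((P.b : Qbar) ^ P.p) / 4)) ^ P.p =
        ((P.a : Qbar) ^ P.p / 4) ^ P.p * ((P.c : Qbar) ^ P.p / 4) ^ P.p := by
      have : ((P.a : Qbar) ^ P.p / 4 - 0) *
          ((P.a : Qbar) ^ P.p / 4 - -((P.b : Qbar) ^ P.p) / 4) =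
          ((P.a : Qbar) ^ P.p / 4) * ((P.c : Qbar) ^ P.p / 4) := by
        rw [← hFLT]; ring
      rw [this, mul_pow]
    rw [hd, inv_pow, div_inv_eq_mul]
    linear_combination (((P.a : Qbar) ^ P.p) ^ P.p * Fermat.Agent.S12.Xi P L.N 2 ^ 2) * hC -
      (Fermat.Agent.S12.Xi P L.N 0 ^ 2 * Fermat.Agent.S12.Xi P L.N 2 ^ 2) *
      (((P.a : Qbar) ^ P.p / 4) ^ P.p * 4 ^ P.p * e3 + ((P.c : Qbar) ^ P.p) ^ P.p * e1)
  · -- `e₀' ≠ e₁'`
    exact (quotA1_ne_zero P L).symm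
  · -- `hξ₀`
    intro k hk0 hkp
    have hk := hPN k hk0 hkp
    unfold quotX1
    rw [ThetaS_eq P L.N L.ne_bot L.ne_top 0 hk, eRoot_zero, ← theta_eq_normTheta, zero_add,
      div_inv_eq_mul]
    ring
  · -- `hξ₁`
    intro k hk0 hkp
    have hk := hPN k hk0 hkp
    have hkN : k • Q ∉ L.N := nsmul_not_mem P L.N Q hQ k hk0 hkp
    have h := quotX1_sub_A1 P L (k • Q) hkN
    rw [coe_nsmul_Vp] at h
    rw [ThetaS_eq P L.N L.ne_bot L.ne_top 1 hk, eRoot_one] at h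
    rw [← theta_eq_normTheta, div_inv_eq_mul]
    linear_combination h
  · -- `y' ≠ negY`
    have hy : quotY1 P L.N Q ≠ 0 := by
      intro h0
      have heq := quot1_equation P L Q hQ
      rw [h0, quotX1_sub_A1 P L Q hQ, quotX1_add_B1 P L Q hQ] at heq
      unfold quotX1 at heq
      rw [ThetaS_eq P L.N L.ne_bot L.ne_top 0 hgen.1, ThetaS_eq P L.N L.ne_bot L.ne_top 1 hgen.1,
        ThetaS_eq P L.N L.ne_bot L.ne_top 2 hgen.1, eRoot_zero, eRoot_one, eRoot_two] at heq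
      have t0 := theta_ne_zero (P.freyCurve⁄Qbar) (lineSub P L.N) H hgen.2
      have t1 := theta_ne_zero (P.freyCurve⁄Qbar) (lineSub P L.N) H.perm12 hgen.2
      have t2 := theta_ne_zero (P.freyCurve⁄Qbar) (lineSub P L.N) H.rot.rot hgen.2
      have : Fermat.Agent.S12.Xi P L.N 1 * Fermat.Agent.S12.Xi P L.N 2 *
          (4 ^ P.p * theta (P.freyCurve⁄Qbar) (lineSub P L.N) 0 Q) *
          (Fermat.Agent.S12.Xi P L.N 0 * Fermat.Agent.S12.Xi P L.N 2 *
          (4 ^ P.p * theta (P.freyCurve⁄Qbar) (lineSub P L.N) ((P.a : Qbar) ^ P.p / 4) Q)) *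
          (Fermat.Agent.S12.Xi P L.N 0 * Fermat.Agent.S12.Xi P L.N 1 *
          (4 ^ P.p * theta (P.freyCurve⁄Qbar) (lineSub P L.N)
            (-((P.b : Qbar) ^ P.p) / 4) Q)) ≠ 0 := by
        repeat' apply mul_ne_zero
        all_goals assumption
      apply this
      rw [← heq]
      ring
    intro h
    apply hy
    have hneg : (quotCurve1 P L.N).negY (quotX1 P L.N Q) (quotY1 P L.N Q) = -quotY1 P L.N Q := by
      simp [Affine.negY, quotCurve1]
    rw [hneg] at h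
    have h2 : (2 : Qbar) * quotY1 P L.N Q = 0 := by linear_combination h
    rcases mul_eq_zero.mp h2 with h3 | h3
    · exact absurd h3 two_ne_zero
    · exact h3

end Fermat.Agent.S12.H63

end
-- ==== END Fermat.Agent.S12.H63_HomFrey

-- ==== BEGIN Fermat.Agent.S12.H66_StarThree
section

set_option autoImplicit false

namespace Fermat.Agent.S12.H66

open WeierstrassCurve WeierstrassCurve.Affine WeierstrassCurve.Affine.Point
open Fermat.Agent.S05 Fermat.Agent.S13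

section star

/-- The local statement in the model centred at `e`. -/
theorem nodeFree_of_centre (P : FreyPackage) (hp11 : 11 ≤ P.p) (L : CofLine P) {e r s : ℤ}
    (hc : H87.Centre P e r s) (A : ValuationSubring Qbar) (hA : A.LiesOverPrime 3)
    (hdisc : ¬ ((3 : ℕ) : ℤ) ∣ r - s) (hrs : ((3 : ℕ) : ℤ) ∣ r * s)
    (Q : Vp P) (hQN : Q ∈ L.N) (X Y : Qbar) (h : (P.freyCurve⁄Qbar).Nonsingular X Y)
    (hQ : (Q : (P.freyCurve⁄Qbar).Point) = .some X Y h) :
    1 ≤ A.valuation (4 * X - ((e : ℤ) : Qbar)) := by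
  by_contra hlt
  have : Fact P.p.Prime := ⟨P.pp⟩
  obtain ⟨hfin, hcard⟩ := vp_card P
  obtain ⟨hyp, ha4, Φ, hΦσ, hΦ⟩ := centre_data P hc Nat.prime_three (by norm_num) A hA hdisc
  have hb : A.valuation ((modelOf P.freyCurve ((e : ℤ) : ℚ))⁄Qbar).a₄ < 1 := by
    rw [ha4]
    exact H15.valuation_intCast_lt_one_of_dvd hA hrs
  obtain ⟨β, hβ⟩ := IsAlgClosed.exists_pow_nat_eq
    (((modelOf P.freyCurve ((e : ℤ) : ℚ))⁄Qbar).a₂) (n := 2) (by norm_num)
  obtain ⟨φ, hker, -⟩ := S05.M1 A _ hyp hb β hβ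
  -- the component map on `V`
  let ψ : Vp P →+ Additive (CompGroup hyp) :=
    (φ.comp Φ.toAddMonoidHom).comp (Submodule.torsionBy ℤ (P.freyCurve⁄Qbar).Point P.p).subtype.toAddMonoidHom
  have hψ : ∀ v : Vp P, ψ v = 0 ↔ S05.InE0 A (Φ v.1) := fun v => hker _
  have hpV : ∀ v : Vp P, P.p • v = 0 := by
    intro v
    apply Subtype.ext
    have := v.2
    rw [Submodule.mem_torsionBy_iff, natCast_zsmul] at this
    exact this
  -- `T = E[p] ∩ E⁰`
  let T : Submodule (ZMod P.p) (Vp P) := AddSubgroup.toZModSubmodule P.p ψ.ker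
  have hT : ∀ v : Vp P, v ∈ T ↔ ψ v = 0 := fun v => by
    rw [AddSubgroup.mem_toZModSubmodule, AddMonoidHom.mem_ker]
  -- `Q ∉ T`
  have hQT : Q ∉ T := by
    rw [hT, hψ, hQ]
    obtain ⟨h', e'⟩ := hΦ X Y h
    rw [e']
    exact hlt
  -- `N ∩ T = 0`
  have hinf : ∀ z ∈ L.N, z ∈ T → z = 0 := by
    intro z hzN hzT
    by_contra hz
    exact hQT (le_of_mem_of_ne_zero hcard L.N L.ne_top T hzN hzT hz hQN)
  -- a point outside `N`
  obtain ⟨R₀, hR₀⟩ : ∃ R₀ : Vp P, R₀ ∉ L.N := by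
    by_contra hall
    exact L.ne_top (eq_top_iff.mpr fun x _ => by
      by_contra hx
      exact hall ⟨x, hx⟩)
  -- the `p`-torsion of the component group is cyclic
  obtain ⟨m, hm⟩ : ∃ m : ℕ, ψ (R₀ + m • Q) = 0 := by
    obtain ⟨u, hu⟩ := QuotientGroup.mk_surjective (Additive.toMul (ψ Q))
    obtain ⟨w, hw⟩ := QuotientGroup.mk_surjective (Additive.toMul (ψ R₀))
    have hpow : ∀ (v : Vp P) (g : (A.ValueGroup)ˣ),
        (QuotientGroup.mk g : CompGroup hyp) = Additive.toMul (ψ v) →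
        g ^ P.p ∈ Subgroup.zpowers (bUnit hyp ^ 2) := by
      intro v g hg
      rw [← QuotientGroup.eq_one_iff, QuotientGroup.mk_pow, hg, ← toMul_nsmul, ← map_nsmul,
        hpV v, _root_.map_zero, toMul_zero]
    have hu' : u ∉ Subgroup.zpowers (bUnit hyp ^ 2) := by
      rw [← QuotientGroup.eq_one_iff, hu]
      intro h1
      apply hQT
      rw [hT]
      apply Additive.toMul.injective
      rw [h1, toMul_zero]
    obtain ⟨m, hm⟩ := exists_mul_pow_mem_zpowers P.pp (pow_left_injective P.hp0)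
      (bUnit hyp ^ 2) u w (hpow Q u hu) (hpow R₀ w hw) hu'
    refine ⟨m, ?_⟩
    apply Additive.toMul.injective
    rw [map_add, map_nsmul, toMul_add, toMul_nsmul, ← hu, ← hw, toMul_zero,
      ← QuotientGroup.mk_pow, ← QuotientGroup.mk_mul, QuotientGroup.eq_one_iff]
    exact hm
  set R' : Vp P := R₀ + m • Q with hR'
  have hR'T : R' ∈ T := (hT _).2 hm
  have hR'N : R' ∉ L.N := by
    intro hmem
    apply hR₀
    have h1 : m • Q ∈ L.N := L.N.toAddSubgroup.nsmul_mem hQN m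
    have h2 := L.N.sub_mem hmem h1
    rwa [hR', add_sub_cancel_right] at h2
  -- a Frobenius element
  obtain ⟨σ, hσ⟩ := Fermat.Agent.Lib.FrobExists.exists_isFrobeniusAt 3 Nat.prime_three A hA
  -- `T` is stable under `σ`
  have hσT : ∀ v ∈ T, σ • v ∈ T := by
    intro v hv
    rw [hT, hψ] at hv ⊢
    show S05.InE0 A (Φ (σ • (v : (P.freyCurve⁄Qbar).Point)))
    rw [hΦσ]
    generalize Φ v.1 = Z at hv
    rcases Z with _ | ⟨x, y, hxy⟩
    · trivial
    · show 1 ≤ A.valuation (σ x)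
      rw [frob_val A σ 3 hσ]
      exact hv
  have hσR' : σ • R' = R' :=
    sub_eq_zero.mp (hinf _ (L.cofixed σ R') (T.sub_mem (hσT R' hR'T) hR'T))
  have hpR' : (P.p : ℤ) • (R' : (P.freyCurve⁄Qbar).Point) = 0 := by
    have := R'.2
    rwa [Submodule.mem_torsionBy_iff] at this
  have hzero := no_frob_fixed P hp11 hc A hA hdisc σ hσ R'.1 hpR' (congrArg Subtype.val hσR') (by
    intro k X' Y' h' hk
    have hkT : k • R' ∈ T := T.toAddSubgroup.nsmul_mem hR'T k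
    rw [hT, hψ] at hkT
    have hk' : ((k • R' : Vp P) : (P.freyCurve⁄Qbar).Point) = .some X' Y' h' := by
      rw [← hk]; rfl
    rw [hk'] at hkT
    obtain ⟨h'', e''⟩ := hΦ X' Y' h'
    rw [e''] at hkT
    exact hkT)
  exact hR'N (by
    have : R' = 0 := Subtype.ext hzero
    rw [this]
    exact L.N.zero_mem)

/-- (STAR-3) node-free at `3`. -/
theorem stmt_star_three : Stmt_star_three := by
  intro P hp11 L A hA Q hQN hQ0 i j hij hlt
  have hqK : ((3 : ℕ) : Qbar) ∈ A.nonunits := hA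
  have hpr : Prime ((3 : ℕ) : ℤ) := Nat.prime_iff_prime_int.mp Nat.prime_three
  -- the colliding roots
  have hdvd : ((3 : ℕ) : ℤ) ∣ eRoot P i - eRoot P j := by
    by_contra hnd
    have := H15.valuation_intCast_eq_one_of_not_dvd (A := A) Nat.prime_three hqK hnd
    rw [← Int.cast_sub, this] at hlt
    exact lt_irrefl _ hlt
  obtain ⟨hab, hac, hbc⟩ := H87.not_dvd_pair P Nat.prime_three
  have e0 : eRoot P 0 = 0 := rfl
  have e1 : eRoot P 1 = P.a ^ P.p := rfl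
  have e2 : eRoot P 2 = -(P.b ^ P.p) := rfl
  have hcab : P.c ^ P.p = P.a ^ P.p + P.b ^ P.p := P.hFLT.symm
  -- the point
  obtain ⟨Q', hQmem⟩ := Q
  have hQ0' : Q' ≠ 0 := fun h => hQ0 (Subtype.ext h)
  rcases Q' with _ | ⟨X, Y, h⟩
  · exact absurd rfl hQ0'
  show 1 ≤ A.valuation (4 * X - ((eRoot P i : ℤ) : Qbar))
  -- which of `a^p`, `b^p`, `c^p` is divisible by `3`
  have hcases : ∀ i j : Fin 3, i ≠ j → ((3 : ℕ) : ℤ) ∣ eRoot P i - eRoot P j →
      (i = 0 ∧ j = 1 ∧ ((3 : ℕ) : ℤ) ∣ P.a ^ P.p) ∨ (i = 1 ∧ j = 0 ∧ ((3 : ℕ) : ℤ) ∣ P.a ^ P.p) ∨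
      (i = 0 ∧ j = 2 ∧ ((3 : ℕ) : ℤ) ∣ P.b ^ P.p) ∨ (i = 2 ∧ j = 0 ∧ ((3 : ℕ) : ℤ) ∣ P.b ^ P.p) ∨
      (i = 1 ∧ j = 2 ∧ ((3 : ℕ) : ℤ) ∣ P.c ^ P.p) ∨ (i = 2 ∧ j = 1 ∧ ((3 : ℕ) : ℤ) ∣ P.c ^ P.p) := by
    intro i j hij hd
    fin_cases i <;> fin_cases j
    · exact absurd rfl hij
    · left
      refine ⟨rfl, rfl, ?_⟩
      have hd' : ((3 : ℕ) : ℤ) ∣ eRoot P 0 - eRoot P 1 := hd
      rw [e0, e1, zero_sub, dvd_neg] at hd'
      exact hd'
    · right; right; left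
      refine ⟨rfl, rfl, ?_⟩
      have hd' : ((3 : ℕ) : ℤ) ∣ eRoot P 0 - eRoot P 2 := hd
      rw [e0, e2, zero_sub, neg_neg] at hd'
      exact hd'
    · right; left
      refine ⟨rfl, rfl, ?_⟩
      have hd' : ((3 : ℕ) : ℤ) ∣ eRoot P 1 - eRoot P 0 := hd
      rw [e0, e1, sub_zero] at hd'
      exact hd'
    · exact absurd rfl hij
    · right; right; right; right; left
      refine ⟨rfl, rfl, ?_⟩
      have hd' : ((3 : ℕ) : ℤ) ∣ eRoot P 1 - eRoot P 2 := hd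
      rw [e1, e2, sub_neg_eq_add, ← hcab] at hd'
      exact hd'
    · right; right; right; left
      refine ⟨rfl, rfl, ?_⟩
      have hd' : ((3 : ℕ) : ℤ) ∣ eRoot P 2 - eRoot P 0 := hd
      rw [e0, e2, sub_zero, dvd_neg] at hd'
      exact hd'
    · right; right; right; right; right
      refine ⟨rfl, rfl, ?_⟩
      have hd' : ((3 : ℕ) : ℤ) ∣ eRoot P 2 - eRoot P 1 := hd
      have : -(P.b ^ P.p) - P.a ^ P.p = -(P.c ^ P.p) := by rw [hcab]; ring
      rw [e1, e2, this, dvd_neg] at hd'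
      exact hd'
    · exact absurd rfl hij
  -- the three centres
  have C0 : ((3 : ℕ) : ℤ) ∣ P.a ^ P.p ∨ ((3 : ℕ) : ℤ) ∣ P.b ^ P.p →
      1 ≤ A.valuation (4 * X - ((0 : ℤ) : Qbar)) := by
    intro hd
    refine nodeFree_of_centre P hp11 L (H87.centre0 P) A hA ?_ ?_ ⟨_, hQmem⟩ hQN X Y h rfl
    · rw [sub_neg_eq_add, ← hcab]
      intro hc
      rcases hd with hd | hd
      · exact hac ⟨hd, hc⟩
      · exact hbc ⟨hd, hc⟩
    · rcases hd with hd | hd
      · exact dvd_mul_of_dvd_left hd _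
      · exact dvd_mul_of_dvd_right ((dvd_neg).2 hd) _
  have C1 : ((3 : ℕ) : ℤ) ∣ P.a ^ P.p ∨ ((3 : ℕ) : ℤ) ∣ P.c ^ P.p →
      1 ≤ A.valuation (4 * X - ((P.a ^ P.p : ℤ) : Qbar)) := by
    intro hd
    refine nodeFree_of_centre P hp11 L (H87.centre1 P) A hA ?_ ?_ ⟨_, hQmem⟩ hQN X Y h rfl
    · have : -(P.a ^ P.p) - -(P.c ^ P.p) = P.b ^ P.p := by rw [hcab]; ring
      rw [this]
      intro hb
      rcases hd with hd | hd
      · exact hab ⟨hd, hb⟩
      · exact hbc ⟨hb, hd⟩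
    · rcases hd with hd | hd
      · exact dvd_mul_of_dvd_left ((dvd_neg).2 hd) _
      · exact dvd_mul_of_dvd_right ((dvd_neg).2 hd) _
  have C2 : ((3 : ℕ) : ℤ) ∣ P.b ^ P.p ∨ ((3 : ℕ) : ℤ) ∣ P.c ^ P.p →
      1 ≤ A.valuation (4 * X - ((-(P.b ^ P.p) : ℤ) : Qbar)) := by
    intro hd
    refine nodeFree_of_centre P hp11 L (H87.centre2 P) A hA ?_ ?_ ⟨_, hQmem⟩ hQN X Y h rfl
    · have : P.b ^ P.p - P.c ^ P.p = -(P.a ^ P.p) := by rw [hcab]; ring
      rw [this, dvd_neg]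
      intro ha
      rcases hd with hd | hd
      · exact hab ⟨ha, hd⟩
      · exact hac ⟨ha, hd⟩
    · rcases hd with hd | hd
      · exact dvd_mul_of_dvd_left hd _
      · exact dvd_mul_of_dvd_right hd _
  rcases hcases i j hij hdvd with ⟨rfl, -, hd⟩ | ⟨rfl, -, hd⟩ | ⟨rfl, -, hd⟩ | ⟨rfl, -, hd⟩ |
    ⟨rfl, -, hd⟩ | ⟨rfl, -, hd⟩
  · rw [e0]; exact C0 (Or.inl hd)
  · rw [e1]; exact C1 (Or.inl hd)
  · rw [e0]; exact C0 (Or.inr hd)
  · rw [e2]; exact C2 (Or.inl hd)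
  · rw [e1]; exact C1 (Or.inr hd)
  · rw [e2]; exact C2 (Or.inr hd)

end star

end Fermat.Agent.S12.H66

end
-- ==== END Fermat.Agent.S12.H66_StarThree
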