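-- GENERATED (merged mirror, NOTES/tools/trim/merge3_helper67.py): 4 modules of the originals, bodies verbatim.
import Mathlib

-- ==== BEGIN Fermat.Agent.Lib.Cyclo13PID
section

/-!
# `ℤ[ζ₁₃]` is a principal ideal domain

Minkowski bound (`≈ 306.4`) plus explicit generators for the primes of norm
`27, 53, 79, 131, 157` and `13`.
-/

set_option autoImplicit false

namespace Fermat.Agent.Lib.Cyclo13PID

open NumberField Polynomial Ideal IsCyclotomicExtension



theorem fact_prime_thirteen : Fact (Nat.Prime 13) := ⟨by norm_num⟩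

theorem fact_prime_fiftythree : Fact (Nat.Prime 53) := ⟨by norm_num⟩

theorem fact_prime_seventynine : Fact (Nat.Prime 79) := ⟨by norm_num⟩

theorem fact_prime_onehundredthirtyone : Fact (Nat.Prime 131) := ⟨by norm_num⟩

theorem fact_prime_onehundredfiftyseven : Fact (Nat.Prime 157) := ⟨by norm_num⟩

theorem fact_prime_three : Fact (Nat.Prime 3) := ⟨by norm_num⟩

attribute [local instance] fact_prime_thirteen fact_prime_fiftythree fact_prime_seventynine fact_prime_onehundredthirtyone fact_prime_onehundredfiftyseven fact_prime_three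

variable (K : Type*) [Field K] [NumberField K] [IsCyclotomicExtension {13} ℚ K]

/-- The chosen primitive 13-th root of unity, as an algebraic integer. -/
noncomputable def theta : 𝓞 K := (zeta_spec 13 ℚ K).toInteger

lemma theta_isPrimitiveRoot : IsPrimitiveRoot (theta K) 13 :=
  (zeta_spec 13 ℚ K).toInteger_isPrimitiveRoot

lemma theta_sum :
    1 + theta K + theta K ^ 2 + theta K ^ 3 + theta K ^ 4 + theta K ^ 5 + theta K ^ 6 +
      theta K ^ 7 + theta K ^ 8 + theta K ^ 9 + theta K ^ 10 + theta K ^ 11 + theta K ^ 12 = 0 := by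
  have h := (theta_isPrimitiveRoot K).isRoot_cyclotomic (by norm_num)
  rw [Polynomial.cyclotomic_prime, Polynomial.IsRoot.def] at h
  simpa [Finset.sum_range_succ, Polynomial.eval_finsetSum] using h

lemma minpoly_theta : minpoly ℤ (theta K) = cyclotomic 13 ℤ := by
  have h1 := Polynomial.cyclotomic_eq_minpoly (zeta_spec 13 ℚ K) (by norm_num)
  rw [h1, ← (zeta_spec 13 ℚ K).coe_toInteger, ← RingOfIntegers.minpoly_coe]
  rfl

lemma exponent_theta : RingOfIntegers.exponent (theta K) = 1 :=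
  RingOfIntegers.exponent_eq_one_iff.mpr <| Rat.adjoin_singleton_eq_top (zeta_spec 13 ℚ K)

/-- Kummer–Dedekind packaged: if `Q mod p` is a monic irreducible factor of `Φ₁₃ mod p` and
`π` generates `(p, Q(θ))`, then there is a principal prime above `p`. -/
lemma exists_principal_primesOver (p : ℕ) [Fact p.Prime] (Q : ℤ[X])
    (hirr : Irreducible (Q.map (Int.castRingHom (ZMod p))))
    (hmonic : (Q.map (Int.castRingHom (ZMod p))).Monic)
    (hdvd : Q.map (Int.castRingHom (ZMod p)) ∣ cyclotomic 13 (ZMod p))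
    (π : 𝓞 K) (h1 : π ∣ (p : 𝓞 K)) (h2 : π ∣ aeval (theta K) Q)
    (h3 : π ∈ span {(p : 𝓞 K), aeval (theta K) Q}) :
    ∃ P ∈ primesOver (span {(p : ℤ)}) (𝓞 K), Submodule.IsPrincipal P := by
  have hp : ¬ p ∣ RingOfIntegers.exponent (theta K) := by
    rw [exponent_theta]; exact (Fact.out : p.Prime).not_dvd_one
  have hQ : Q.map (Int.castRingHom (ZMod p)) ∈ RingOfIntegers.monicFactorsMod (theta K) p := by
    rw [Multiset.mem_toFinset, Polynomial.mem_normalizedFactors_iff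
      (map_monic_ne_zero (minpoly.monic (theta K).isIntegral))]
    refine ⟨hirr, hmonic, ?_⟩
    rw [minpoly_theta, map_cyclotomic]
    exact hdvd
  refine ⟨span {(p : 𝓞 K), aeval (theta K) Q}, ?_, ?_⟩
  · rw [← NumberField.Ideal.primesOverSpanEquivMonicFactorsMod_symm_apply_eq_span hp hQ]
    exact ((NumberField.Ideal.primesOverSpanEquivMonicFactorsMod hp).symm ⟨_, hQ⟩).prop
  · have : span {(p : 𝓞 K), aeval (theta K) Q} = span {π} := by
      apply le_antisymm
      · rw [Ideal.span_le]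
        intro x hx
        simp only [Set.mem_insert_iff, Set.mem_singleton_iff] at hx
        rcases hx with rfl | rfl
        · exact Ideal.mem_span_singleton.mpr h1
        · exact Ideal.mem_span_singleton.mpr h2
      · rw [Ideal.span_singleton_le_iff_mem]
        exact h3
    rw [this]
    exact ⟨⟨π, rfl⟩⟩


lemma principal_53 :
    ∃ P ∈ primesOver (span {((53 : ℕ) : ℤ)}) (𝓞 K), Submodule.IsPrincipal P := by
  have hs := theta_sum K
  have hmap : Polynomial.map (Int.castRingHom (ZMod 53)) (X - 16) = X - C (16 : ZMod 53) := by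
    rw [Polynomial.map_sub, Polynomial.map_X, Polynomial.map_ofNat, ← map_ofNat C 16]
  have haeval : aeval (theta K) (X - 16 : ℤ[X]) = theta K - 16 := by
    simp only [map_sub, aeval_X, map_ofNat]
  refine exists_principal_primesOver K 53 (X - 16) ?_ ?_ ?_
    (1 - theta K + theta K ^ 3) ?_ ?_ ?_
  · rw [hmap]
    exact irreducible_X_sub_C _
  · rw [hmap]
    exact monic_X_sub_C _
  · rw [hmap, Polynomial.dvd_iff_isRoot, cyclotomic_prime, Polynomial.IsRoot.def]
    simp only [Finset.sum_range_succ, Finset.sum_range_zero, eval_add, eval_pow, eval_X,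
      eval_zero]
    decide
  · refine ⟨25 + 10 * theta K + 19 * theta K ^ 2 + 3 * theta K ^ 3 + 2 * theta K ^ 4 - 8 * theta K ^ 5 - 2 * theta K ^ 6 + 5 * theta K ^ 7 + 22 * theta K ^ 8 + 33 * theta K ^ 9 + 37 * theta K ^ 10 + 24 * theta K ^ 11, ?_⟩
    push_cast
    linear_combination (-(-28 + 13 * theta K + 24 * theta K ^ 2)) * hs
  · rw [haeval]
    refine ⟨-8 - 3 * theta K - 6 * theta K ^ 2 - theta K ^ 3 - theta K ^ 4 + 2 * theta K ^ 5 - 2 * theta K ^ 7 - 7 * theta K ^ 8 - 10 * theta K ^ 9 - 11 * theta K ^ 10 - 7 * theta K ^ 11, ?_⟩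
    linear_combination (-(8 - 4 * theta K - 7 * theta K ^ 2)) * hs
  · rw [Ideal.mem_span_pair, haeval]
    refine ⟨77, 255 + 16 * theta K + theta K ^ 2, ?_⟩
    push_cast
    ring


lemma principal_79 :
    ∃ P ∈ primesOver (span {((79 : ℕ) : ℤ)}) (𝓞 K), Submodule.IsPrincipal P := by
  have hs := theta_sum K
  have hmap : Polynomial.map (Int.castRingHom (ZMod 79)) (X - 62) = X - C (62 : ZMod 79) := by
    rw [Polynomial.map_sub, Polynomial.map_X, Polynomial.map_ofNat, ← map_ofNat C 62]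
  have haeval : aeval (theta K) (X - 62 : ℤ[X]) = theta K - 62 := by
    simp only [map_sub, aeval_X, map_ofNat]
  refine exists_principal_primesOver K 79 (X - 62) ?_ ?_ ?_
    (1 - theta K - theta K ^ 4) ?_ ?_ ?_
  · rw [hmap]
    exact irreducible_X_sub_C _
  · rw [hmap]
    exact monic_X_sub_C _
  · rw [hmap, Polynomial.dvd_iff_isRoot, cyclotomic_prime, Polynomial.IsRoot.def]
    simp only [Finset.sum_range_succ, Finset.sum_range_zero, eval_add, eval_pow, eval_X,
      eval_zero]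
    decide
  · refine ⟨62 + 63 * theta K + 49 * theta K ^ 2 + 8 * theta K ^ 3 + 29 * theta K ^ 4 + 51 * theta K ^ 5 + 59 * theta K ^ 6 + 26 * theta K ^ 7 + 14 * theta K ^ 8 + 24 * theta K ^ 9 + 42 * theta K ^ 10 + 27 * theta K ^ 11, ?_⟩
    push_cast
    linear_combination (-(-17 + 18 * theta K - 15 * theta K ^ 2 - 27 * theta K ^ 3)) * hs
  · rw [haeval]
    refine ⟨-49 - 49 * theta K - 38 * theta K ^ 2 - 6 * theta K ^ 3 - 23 * theta K ^ 4 - 40 * theta K ^ 5 - 46 * theta K ^ 6 - 20 * theta K ^ 7 - 11 * theta K ^ 8 - 19 * theta K ^ 9 - 33 * theta K ^ 10 - 21 * theta K ^ 11, ?_⟩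
    linear_combination (-(13 - 14 * theta K + 12 * theta K ^ 2 + 21 * theta K ^ 3)) * hs
  · rw [Ideal.mem_span_pair, haeval]
    refine ⟨-187043, -238329 - 3844 * theta K - 62 * theta K ^ 2 - theta K ^ 3, ?_⟩
    push_cast
    ring


lemma principal_131 :
    ∃ P ∈ primesOver (span {((131 : ℕ) : ℤ)}) (𝓞 K), Submodule.IsPrincipal P := by
  have hs := theta_sum K
  have hmap : Polynomial.map (Int.castRingHom (ZMod 131)) (X - 80) = X - C (80 : ZMod 131) := by
    rw [Polynomial.map_sub, Polynomial.map_X, Polynomial.map_ofNat, ← map_ofNat C 80]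
  have haeval : aeval (theta K) (X - 80 : ℤ[X]) = theta K - 80 := by
    simp only [map_sub, aeval_X, map_ofNat]
  refine exists_principal_primesOver K 131 (X - 80) ?_ ?_ ?_
    (1 - theta K - theta K ^ 3) ?_ ?_ ?_
  · rw [hmap]
    exact irreducible_X_sub_C _
  · rw [hmap]
    exact monic_X_sub_C _
  · rw [hmap, Polynomial.dvd_iff_isRoot, cyclotomic_prime, Polynomial.IsRoot.def]
    simp only [Finset.sum_range_succ, Finset.sum_range_zero, eval_add, eval_pow, eval_X,
      eval_zero]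
    decide
  · refine ⟨111 + 78 * theta K + 17 * theta K ^ 2 + 67 * theta K ^ 3 + 84 * theta K ^ 4 + 40 * theta K ^ 5 + 46 * theta K ^ 6 + 69 * theta K ^ 7 + 48 * theta K ^ 8 + 33 * theta K ^ 9 + 41 * theta K ^ 10 + 28 * theta K ^ 11, ?_⟩
    push_cast
    linear_combination (-(-20 - 13 * theta K - 28 * theta K ^ 2)) * hs
  · rw [haeval]
    refine ⟨-68 - 47 * theta K - 10 * theta K ^ 2 - 41 * theta K ^ 3 - 51 * theta K ^ 4 - 24 * theta K ^ 5 - 28 * theta K ^ 6 - 42 * theta K ^ 7 - 29 * theta K ^ 8 - 20 * theta K ^ 9 - 25 * theta K ^ 10 - 17 * theta K ^ 11, ?_⟩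
    linear_combination (-(12 + 8 * theta K + 17 * theta K ^ 2)) * hs
  · rw [Ideal.mem_span_pair, haeval]
    refine ⟨-3909, -6401 - 80 * theta K - theta K ^ 2, ?_⟩
    push_cast
    ring


lemma principal_157 :
    ∃ P ∈ primesOver (span {((157 : ℕ) : ℤ)}) (𝓞 K), Submodule.IsPrincipal P := by
  have hs := theta_sum K
  have hmap : Polynomial.map (Int.castRingHom (ZMod 157)) (X - 75) = X - C (75 : ZMod 157) := by
    rw [Polynomial.map_sub, Polynomial.map_X, Polynomial.map_ofNat, ← map_ofNat C 75]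
  have haeval : aeval (theta K) (X - 75 : ℤ[X]) = theta K - 75 := by
    simp only [map_sub, aeval_X, map_ofNat]
  refine exists_principal_primesOver K 157 (X - 75) ?_ ?_ ?_
    (1 - theta K + theta K ^ 2 + theta K ^ 4) ?_ ?_ ?_
  · rw [hmap]
    exact irreducible_X_sub_C _
  · rw [hmap]
    exact monic_X_sub_C _
  · rw [hmap, Polynomial.dvd_iff_isRoot, cyclotomic_prime, Polynomial.IsRoot.def]
    simp only [Finset.sum_range_succ, Finset.sum_range_zero, eval_add, eval_pow, eval_X,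
      eval_zero]
    decide
  · refine ⟨89 + 86 * theta K + 42 * theta K ^ 2 + 77 * theta K ^ 3 + 67 * theta K ^ 4 + 25 * theta K ^ 5 + 37 * theta K ^ 6 + 56 * theta K ^ 7 + 73 * theta K ^ 8 + 113 * theta K ^ 9 + 124 * theta K ^ 10 + 76 * theta K ^ 11, ?_⟩
    push_cast
    linear_combination (-(-68 + 65 * theta K + 48 * theta K ^ 2 + 76 * theta K ^ 3)) * hs
  · rw [haeval]
    refine ⟨-43 - 41 * theta K - 20 * theta K ^ 2 - 37 * theta K ^ 3 - 32 * theta K ^ 4 - 12 * theta K ^ 5 - 18 * theta K ^ 6 - 27 * theta K ^ 7 - 35 * theta K ^ 8 - 54 * theta K ^ 9 - 59 * theta K ^ 10 - 36 * theta K ^ 11, ?_⟩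
    linear_combination (-(32 - 31 * theta K - 23 * theta K ^ 2 - 36 * theta K ^ 3)) * hs
  · rw [Ideal.mem_span_pair, haeval]
    refine ⟨201568, 421949 + 5626 * theta K + 75 * theta K ^ 2 + theta K ^ 3, ?_⟩
    push_cast
    ring


lemma principal_3 :
    ∃ P ∈ primesOver (span {((3 : ℕ) : ℤ)}) (𝓞 K), Submodule.IsPrincipal P := by
  have hs := theta_sum K
  have hmap : Polynomial.map (Int.castRingHom (ZMod 3)) (X ^ 3 - X - 1) = X ^ 3 - X - 1 := by
    simp only [Polynomial.map_sub, Polynomial.map_X, Polynomial.map_pow, Polynomial.map_one]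
  have haeval : aeval (theta K) (X ^ 3 - X - 1 : ℤ[X]) = theta K ^ 3 - theta K - 1 := by
    simp only [map_sub, aeval_X, map_pow, map_one]
  refine exists_principal_primesOver K 3 (X ^ 3 - X - 1) ?_ ?_ ?_
    (1 + theta K - theta K ^ 3) ?_ ?_ ?_
  · rw [hmap]
    apply irreducible_of_degree_le_three_of_not_isRoot
    · have : (X ^ 3 - X - 1 : (ZMod 3)[X]).natDegree = 3 := by compute_degree!
      rw [this]
      decide
    · intro x
      simp only [IsRoot.def, eval_sub, eval_pow, eval_X, eval_one]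
      revert x
      decide
  · rw [hmap]
    monicity!
  · rw [hmap, cyclotomic_prime]
    simp only [Finset.sum_range_succ, Finset.sum_range_zero]
    have h3 : (3 : (ZMod 3)[X]) = 0 := by
      rw [← map_ofNat C 3]
      have : (3 : ZMod 3) = 0 := by decide
      rw [this, map_zero]
    refine ⟨-1 - X ^ 2 - X ^ 3 + X ^ 5 - X ^ 7 + X ^ 8 + X ^ 9, ?_⟩
    linear_combination (X ^ 5 + X ^ 6 + X ^ 9 + X ^ 10) * h3
  · refine ⟨-1 - theta K ^ 2 - theta K ^ 3 - 2 * theta K ^ 5 - theta K ^ 7 - 2 * theta K ^ 8 + theta K ^ 9 - 3 * theta K ^ 10, ?_⟩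
    push_cast
    linear_combination (-(-4 + 3 * theta K)) * hs
  · rw [haeval]
    refine ⟨-1, ?_⟩
    ring
  · rw [Ideal.mem_span_pair, haeval]
    refine ⟨0, -1, ?_⟩
    ring

theorem small_cases (p f : ℕ) (hp : p.Prime) (hf : 1 ≤ f) (hle : p ^ f ≤ 312)
    (hmod : p ^ f % 13 = 1) : p = 3 ∨ p = 53 ∨ p = 79 ∨ p = 131 ∨ p = 157 := by
  have hp2 : 2 ≤ p := hp.two_le
  have hf8 : f ≤ 8 := by
    by_contra h
    have h' : 9 ≤ f := by omega
    have : 2 ^ 9 ≤ p ^ f :=
      (Nat.pow_le_pow_left hp2 9).trans (Nat.pow_le_pow_right (by omega) h')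
    omega
  have hpf : p ≤ p ^ f := Nat.le_self_pow (by omega) p
  rcases Nat.lt_or_ge 1 f with h1 | h1
  · have hsq : p ^ 2 ≤ p ^ f := Nat.pow_le_pow_right (by omega) h1
    have hp17 : p ≤ 17 := by nlinarith
    interval_cases p <;> interval_cases f <;> simp_all (config := {decide := true})
  · have hf1 : f = 1 := by omega
    subst hf1
    rw [pow_one] at hle hmod
    obtain ⟨k, rfl⟩ : ∃ k, p = 13 * k + 1 := ⟨p / 13, by omega⟩
    have hk : k ≤ 23 := by omega
    interval_cases k <;> first | omega | (exfalso; norm_num at hp)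

theorem minkowski_bound_num :
    (4 / Real.pi) ^ 6 * ((Nat.factorial 12 : ℝ) / 12 ^ 12 * √(13 ^ 11 : ℝ)) < 313 := by
  have h1 : √(13 ^ 11 : ℝ) ≤ 13 ^ 5 * 3.61 := by
    rw [Real.sqrt_le_iff]
    constructor
    · positivity
    · norm_num
  have h2 : (4 / Real.pi) ^ 6 ≤ (4 / 3.14) ^ 6 := by
    gcongr
    exact Real.pi_gt_d2.le
  have h3 : (0:ℝ) ≤ (Nat.factorial 12 : ℝ) / 12 ^ 12 := by positivity
  calc (4 / Real.pi) ^ 6 * ((Nat.factorial 12 : ℝ) / 12 ^ 12 * √(13 ^ 11 : ℝ))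
      ≤ (4 / 3.14) ^ 6 * ((Nat.factorial 12 : ℝ) / 12 ^ 12 * (13 ^ 5 * 3.61)) := by
        gcongr
    _ < 313 := by
        norm_num [Nat.factorial]

lemma finrank_eq : Module.finrank ℚ K = 12 := by
  rw [IsCyclotomicExtension.finrank (n := 13) K (cyclotomic.irreducible_rat (by norm_num))]
  rfl

lemma nrComplexPlaces_eq : InfinitePlace.nrComplexPlaces K = 6 := by
  rw [Rat.nrComplexPlaces_eq_totient_div_two 13]
  rfl

lemma discr_eq : NumberField.discr K = 13 ^ 11 := by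
  rw [Rat.discr_prime 13 K]
  norm_num

lemma floor_minkowski_le :
    ⌊(4 / Real.pi) ^ InfinitePlace.nrComplexPlaces K *
      ((Module.finrank ℚ K).factorial / (Module.finrank ℚ K) ^ (Module.finrank ℚ K) *
        √|(NumberField.discr K : ℝ)|)⌋₊ ≤ 312 := by
  rw [finrank_eq, nrComplexPlaces_eq, discr_eq]
  have h := minkowski_bound_num
  have habs : |((13 ^ 11 : ℤ) : ℝ)| = (13 ^ 11 : ℝ) := by
    rw [abs_of_pos (by positivity)]
    norm_num
  rw [habs]
  have : ⌊(4 / Real.pi) ^ 6 * ((Nat.factorial 12 : ℝ) / ((12 : ℕ) : ℝ) ^ 12 * √(13 ^ 11 : ℝ))⌋₊ < 313 := by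
    rw [Nat.floor_lt (by positivity)]
    exact_mod_cast h
  omega

/-- The ring of integers of the 13-th cyclotomic field is a principal ideal domain. -/
theorem pid : IsPrincipalIdealRing (𝓞 K) := by
  haveI : IsGalois ℚ K := IsCyclotomicExtension.isGalois {13} ℚ K
  apply RingOfIntegers.isPrincipalIdealRing_of_isPrincipal_of_lt_or_isPrincipal_of_mem_primesOver_of_mem_Icc
  intro p hp hpprime
  rw [Finset.mem_Icc] at hp
  have hM := floor_minkowski_le K
  have hp312 : p ≤ 312 := hp.2.trans hM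
  by_cases h13 : p = 13
  · subst h13
    haveI : IsCyclotomicExtension {13 ^ (0 + 1)} ℚ K := by simpa using ‹IsCyclotomicExtension {13} ℚ K›
    have hζ : IsPrimitiveRoot (zeta 13 ℚ K) (13 ^ (0 + 1)) := by simpa using zeta_spec 13 ℚ K
    refine ⟨span {hζ.toInteger - 1}, ⟨Rat.isPrime_span_zeta_sub_one 13 0 hζ,
      Rat.liesOver_span_zeta_sub_one 13 0 hζ⟩, Or.inr ⟨⟨_, rfl⟩⟩⟩
  by_cases hS : p = 3 ∨ p = 53 ∨ p = 79 ∨ p = 131 ∨ p = 157
  · rcases hS with rfl | rfl | rfl | rfl | rfl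
    · obtain ⟨P, hP, hprin⟩ := principal_3 K
      exact ⟨P, hP, Or.inr hprin⟩
    · obtain ⟨P, hP, hprin⟩ := principal_53 K
      exact ⟨P, hP, Or.inr hprin⟩
    · obtain ⟨P, hP, hprin⟩ := principal_79 K
      exact ⟨P, hP, Or.inr hprin⟩
    · obtain ⟨P, hP, hprin⟩ := principal_131 K
      exact ⟨P, hP, Or.inr hprin⟩
    · obtain ⟨P, hP, hprin⟩ := principal_157 K
      exact ⟨P, hP, Or.inr hprin⟩
  · haveI : Fact p.Prime := ⟨hpprime⟩
    obtain ⟨⟨P, hP1, hP2⟩⟩ := (span {(p : ℤ)}).nonempty_primesOver (S := 𝓞 K)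
    refine ⟨P, ⟨hP1, hP2⟩, Or.inl ?_⟩
    have hndvd : ¬ p ∣ 13 := by
      intro h
      exact h13 ((Nat.prime_dvd_prime_iff_eq hpprime (by norm_num)).mp h)
    have hf := Rat.inertiaDeg_eq_of_not_dvd (m := 13) p K P hndvd
    by_contra hcon
    have hcon' : p ^ P.inertiaDeg ℤ ≤ 312 := (not_lt.mp hcon).trans hM
    have hcop : p.Coprime 13 := (Nat.Prime.coprime_iff_not_dvd hpprime).mpr hndvd
    have hpow : ((p : ZMod 13)) ^ P.inertiaDeg ℤ = 1 := by
      rw [hf]
      exact pow_orderOf_eq_one _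
    have hmod : p ^ P.inertiaDeg ℤ % 13 = 1 := by
      have h1 : ((p ^ P.inertiaDeg ℤ : ℕ) : ZMod 13) = ((1 : ℕ) : ZMod 13) := by
        push_cast
        exact hpow
      have h2 := (ZMod.natCast_eq_natCast_iff' _ _ _).mp h1
      simpa using h2
    have hf1 : 1 ≤ P.inertiaDeg ℤ := by
      rw [hf]
      have hu : IsUnit ((p : ZMod 13)) := (ZMod.isUnit_iff_coprime p 13).mpr hcop
      exact Nat.one_le_iff_ne_zero.mpr (orderOf_pos_iff.mpr hu.isOfFinOrder).ne'
    exact hS (small_cases p _ hpprime hf1 hcon' hmod)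

end Fermat.Agent.Lib.Cyclo13PID

end
-- ==== END Fermat.Agent.Lib.Cyclo13PID

-- ==== BEGIN Fermat.Agent.Lib.CycloPID7
section

/-!
# `𝓞 (ℚ(ζ₇))` is a principal ideal domain (helper18, part A of the S10/S11 project).
-/

set_option autoImplicit false

namespace Fermat.Agent.Lib.CycloPID

open NumberField Polynomial InfinitePlace Nat Real Ideal IsCyclotomicExtension.Rat

universe u

/-- For a prime `ℓ ≠ p`, the order of `ℓ` in `ZMod p` is positive. -/
theorem orderOf_natCast_pos {p ℓ : ℕ} (hp : p.Prime) (hℓ : ℓ.Prime) (hne : ℓ ≠ p) :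
    0 < orderOf (ℓ : ZMod p) := by
  have hcop : ℓ.Coprime p := (Nat.coprime_primes hℓ hp).mpr hne
  have hcast : (ℓ : ZMod p) = ((ZMod.unitOfCoprime ℓ hcop : (ZMod p)ˣ) : ZMod p) := by simp
  have : NeZero p := ⟨hp.ne_zero⟩
  rw [hcast, orderOf_units]
  exact orderOf_pos _

/-- Lower bound for `ℓ ^ orderOf ℓ` from a finite check. -/
theorem lt_pow_orderOf {p ℓ B k : ℕ} (hp : p.Prime) (hℓ : ℓ.Prime) (hne : ℓ ≠ p)
    (hk : B < ℓ ^ k) (h : ∀ m < k, 0 < m → (ℓ : ZMod p) ^ m ≠ 1) :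
    B < ℓ ^ orderOf (ℓ : ZMod p) := by
  have hpos := orderOf_natCast_pos hp hℓ hne
  have hle : k ≤ orderOf (ℓ : ZMod p) := by
    by_contra hlt
    exact h _ (not_le.mp hlt) hpos (pow_orderOf_eq_one _)
  exact lt_of_lt_of_le hk (Nat.pow_le_pow_right hℓ.pos hle)

theorem check7_2 : ∀ m < 3, 0 < m → ((2 : ℕ) : ZMod 7) ^ m ≠ 1 := by decide
theorem check7_3 : ∀ m < 2, 0 < m → ((3 : ℕ) : ZMod 7) ^ m ≠ 1 := by decide

variable (K : Type u) [Field K] [NumberField K]

/-- Minkowski bound of `ℚ(ζ₇)` is `< 5`. -/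
theorem minkowski_seven_lt [IsCyclotomicExtension {7} ℚ K] :
    (4 / π) ^ nrComplexPlaces K *
      ((Module.finrank ℚ K)! / (Module.finrank ℚ K) ^ (Module.finrank ℚ K) * √|discr K|) < 5 := by
  have : Fact (Nat.Prime 7) := ⟨by norm_num⟩
  rw [discr_prime 7 K, IsCyclotomicExtension.finrank (n := 7) K
    (cyclotomic.irreducible_rat (by norm_num)), nrComplexPlaces_eq_totient_div_two 7,
    totient_prime (by norm_num : Nat.Prime 7)]
  norm_num
  have h1 : 4 / π ≤ 4 / 3.14 := by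
    gcongr
    exact pi_gt_d2.le
  have h2 : √(16807 : ℝ) ≤ 130 := by
    rw [Real.sqrt_le_iff]
    norm_num
  calc (4 / π) ^ 3 * (5 / 324 * √16807) ≤ (4 / 3.14) ^ 3 * (5 / 324 * 130) := by gcongr
    _ < 5 := by norm_num

theorem seven_pid [IsCyclotomicExtension {7} ℚ K] : IsPrincipalIdealRing (𝓞 K) := by
  have : Fact (Nat.Prime 7) := ⟨by norm_num⟩
  have : IsGalois ℚ K := IsCyclotomicExtension.isGalois {7} ℚ K
  have hM := minkowski_seven_lt K
  have hfl : ⌊(4 / π) ^ nrComplexPlaces K *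
      ((Module.finrank ℚ K)! / (Module.finrank ℚ K) ^ (Module.finrank ℚ K) * √|discr K|)⌋₊ < 5 := by
    rw [Nat.floor_lt (by positivity)]
    exact_mod_cast hM
  refine RingOfIntegers.isPrincipalIdealRing_of_isPrincipal_of_lt_or_isPrincipal_of_mem_primesOver_of_mem_Icc
    (fun ℓ hℓmem hℓ ↦ ?_)
  rw [Finset.mem_Icc] at hℓmem
  have hℓ5 : ℓ < 5 := lt_of_le_of_lt hℓmem.2 hfl
  have : Fact ℓ.Prime := ⟨hℓ⟩
  obtain ⟨⟨P, hP1, hP2⟩⟩ := (span {(ℓ : ℤ)}).nonempty_primesOver (S := 𝓞 K)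
  have hne7 : ℓ ≠ 7 := by omega
  have hne : ¬ ℓ ∣ 7 := fun h ↦ hne7 ((Nat.prime_dvd_prime_iff_eq hℓ (by norm_num)).mp h)
  refine ⟨P, ⟨hP1, hP2⟩, Or.inl ?_⟩
  rw [inertiaDeg_eq_of_not_dvd ℓ K P hne]
  have h7 : Nat.Prime 7 := by norm_num
  interval_cases ℓ
  · exact absurd hℓ (by norm_num)
  · exact absurd hℓ (by norm_num)
  · exact lt_of_le_of_lt (Nat.lt_succ_iff.mp hfl) (lt_pow_orderOf h7 hℓ hne7 (k := 3) (by norm_num) check7_2)
  · exact lt_of_le_of_lt (Nat.lt_succ_iff.mp hfl) (lt_pow_orderOf h7 hℓ hne7 (k := 2) (by norm_num) check7_3)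
  · exact absurd hℓ (by norm_num)

end Fermat.Agent.Lib.CycloPID

end
-- ==== END Fermat.Agent.Lib.CycloPID7

-- ==== BEGIN Fermat.Agent.Lib.CyclotomicPIDBasic
section

/-!
# Generic steps for proving that `ℤ[ζ_p]` is a principal ideal domain

Helper for the direct `FLT_p` route (Kummer) to S10/S11.
Used by `CyclotomicPIDSeven`, `CyclotomicPIDEleven`, ...
-/

open NumberField Polynomial InfinitePlace Nat Real cyclotomic Ideal Module

namespace Fermat.Agent.Lib.CyclotomicPID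

universe u

variable (K : Type u) [Field K] [NumberField K]

/-- A lower bound for `orderOf` from finitely many checks. -/
theorem le_orderOf_of_forall_lt {M : Type*} [Monoid M] (x : M) (f n : ℕ) (hn : 0 < n)
    (hxn : x ^ n = 1) (h : ∀ k < f, 0 < k → x ^ k ≠ 1) : f ≤ orderOf x := by
  by_contra hlt
  have hpos : 0 < orderOf x := orderOf_pos_iff.mpr (isOfFinOrder_iff_pow_eq_one.mpr ⟨n, hn, hxn⟩)
  exact h (orderOf x) (by omega) hpos (pow_orderOf_eq_one x)

/-- Generic step: a prime `q` not dividing `m` with `B < q ^ orderOf (q : ZMod m)` satisfies the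
left disjunct in the Minkowski-bound criterion for the `m`-th cyclotomic field. -/
theorem exists_primesOver_lt_pow {m : ℕ} [NeZero m] [IsCyclotomicExtension {m} ℚ K]
    (q : ℕ) (hq : q.Prime) (hqm : ¬ q ∣ m) (B : ℕ) (hB : B < q ^ orderOf (q : ZMod m)) :
    ∃ P ∈ (span {(q : ℤ)}).primesOver (𝓞 K), B < q ^ P.inertiaDeg ℤ ∨ Submodule.IsPrincipal P := by
  have : Fact q.Prime := ⟨hq⟩
  have : (span {(q : ℤ)}).IsPrime :=
    (Ideal.span_singleton_prime (by exact_mod_cast hq.ne_zero)).mpr (Nat.prime_iff_prime_int.mp hq)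
  obtain ⟨⟨P, hP1, hP2⟩⟩ := Ideal.nonempty_primesOver (S := 𝓞 K) (span {(q : ℤ)})
  refine ⟨P, ⟨hP1, hP2⟩, Or.inl ?_⟩
  rw [IsCyclotomicExtension.Rat.inertiaDeg_eq_of_not_dvd q K P hqm]
  exact hB

/-- Variant of `exists_primesOver_lt_pow` with finitely many checks instead of `orderOf`. -/
theorem exists_primesOver_lt_pow' {m : ℕ} [NeZero m] [IsCyclotomicExtension {m} ℚ K]
    (q : ℕ) (hq : q.Prime) (hqm : ¬ q ∣ m) (B f n : ℕ) (hB : B < q ^ f) (hn : 0 < n)
    (hxn : (q : ZMod m) ^ n = 1) (h : ∀ k < f, 0 < k → (q : ZMod m) ^ k ≠ 1) :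
    ∃ P ∈ (span {(q : ℤ)}).primesOver (𝓞 K), B < q ^ P.inertiaDeg ℤ ∨ Submodule.IsPrincipal P :=
  exists_primesOver_lt_pow K q hq hqm B <| hB.trans_le <|
    Nat.pow_le_pow_right hq.pos (le_orderOf_of_forall_lt _ f n hn hxn h)

/-- Generic step: the prime `p` itself is principal in the `p`-th cyclotomic field. -/
theorem exists_primesOver_self_isPrincipal {p : ℕ} [hp : Fact p.Prime]
    [IsCyclotomicExtension {p} ℚ K] (B : ℕ) :
    ∃ P ∈ (span {(p : ℤ)}).primesOver (𝓞 K), B < p ^ P.inertiaDeg ℤ ∨ Submodule.IsPrincipal P := by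
  have : (span {(p : ℤ)}).IsPrime :=
    (Ideal.span_singleton_prime (by exact_mod_cast hp.out.ne_zero)).mpr
      (Nat.prime_iff_prime_int.mp hp.out)
  obtain ⟨⟨P, hP1, hP2⟩⟩ := Ideal.nonempty_primesOver (S := 𝓞 K) (span {(p : ℤ)})
  refine ⟨P, ⟨hP1, hP2⟩, Or.inr ?_⟩
  have hζ := IsCyclotomicExtension.zeta_spec p ℚ K
  rw [IsCyclotomicExtension.Rat.eq_span_zeta_sub_one_of_liesOver' p K hζ P]
  exact ⟨⟨_, rfl⟩⟩

open RingOfIntegers NumberField.Ideal IsCyclotomicExtension IsCyclotomicExtension.Rat in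
/-- Generic step: an explicit principal prime above `q` in the `p`-th cyclotomic field, from
explicit cofactor data. Here `ζ` is the chosen primitive root, `r` is an integer which is a root of
the `p`-th cyclotomic polynomial modulo `q`, and `α` generates the prime `(q, ζ - r)`. -/
theorem exists_primesOver_isPrincipal_of_data {p : ℕ} [hp : Fact p.Prime]
    [IsCyclotomicExtension {p} ℚ K] (q : ℕ) [hq : Fact q.Prime] (r : ℤ)
    (hr : ∑ i ∈ Finset.range p, (r : ZMod q) ^ i = 0)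
    (ζ : 𝓞 K) (hζ : ζ = (zeta_spec p ℚ K).toInteger)
    (α β γ u v : 𝓞 K)
    (h1 : α * β = (q : 𝓞 K))
    (h2 : α * γ = ζ - (r : 𝓞 K))
    (h3 : α = (q : 𝓞 K) * u + (ζ - (r : 𝓞 K)) * v)
    (B : ℕ) :
    ∃ P ∈ (span {(q : ℤ)}).primesOver (𝓞 K), B < q ^ P.inertiaDeg ℤ ∨ Submodule.IsPrincipal P := by
  subst hζ
  have h₁ : ¬ q ∣ exponent (zeta_spec p ℚ K).toInteger := by
    rw [exponent_eq_one_iff.mpr <| adjoin_singleton_eq_top (zeta_spec p ℚ K)]
    exact hq.out.not_dvd_one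
  have hmin : minpoly ℤ (zeta_spec p ℚ K).toInteger = cyclotomic p ℤ := by
    rw [cyclotomic_eq_minpoly (zeta_spec p ℚ K) hp.out.pos]
    exact (RingOfIntegers.minpoly_coe (zeta_spec p ℚ K).toInteger).symm
  have hQ : (X - C r : ℤ[X]).map (Int.castRingHom (ZMod q)) ∈
      monicFactorsMod (zeta_spec p ℚ K).toInteger q := by
    rw [monicFactorsMod, Multiset.mem_toFinset, Polynomial.mem_normalizedFactors_iff
      (map_monic_ne_zero (minpoly.monic (zeta_spec p ℚ K).toInteger.isIntegral))]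
    have hmap : (X - C r : ℤ[X]).map (Int.castRingHom (ZMod q)) = X - C (r : ZMod q) := by
      simp
    rw [hmap]
    refine ⟨irreducible_X_sub_C _, monic_X_sub_C _, ?_⟩
    rw [dvd_iff_isRoot, hmin, map_cyclotomic_int, IsRoot.def, cyclotomic_prime, eval_finsetSum]
    simpa using hr
  have hspan := primesOverSpanEquivMonicFactorsMod_symm_apply_eq_span h₁ hQ
  refine ⟨_, ((primesOverSpanEquivMonicFactorsMod h₁).symm ⟨_, hQ⟩).prop,
    Or.inr ?_⟩
  rw [hspan]
  refine ⟨⟨α, ?_⟩⟩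
  have haeval : (aeval (zeta_spec p ℚ K).toInteger) (X - C r : ℤ[X]) =
      (zeta_spec p ℚ K).toInteger - (r : 𝓞 K) := by simp
  rw [haeval]
  apply le_antisymm
  · rw [Ideal.span_le]
    rintro x (rfl | rfl)
    · exact Ideal.mem_span_singleton'.mpr ⟨β, by rw [mul_comm]; exact h1⟩
    · exact Ideal.mem_span_singleton'.mpr ⟨γ, by rw [mul_comm]; exact h2⟩
  · show Ideal.span {α} ≤ _
    rw [Ideal.span_le, Set.singleton_subset_iff, h3]
    refine Ideal.add_mem _ (Ideal.mul_mem_right _ _ (Ideal.subset_span (by simp)))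
      (Ideal.mul_mem_right _ _ (Ideal.subset_span (by simp)))

end Fermat.Agent.Lib.CyclotomicPID

end
-- ==== END Fermat.Agent.Lib.CyclotomicPIDBasic

-- ==== BEGIN Fermat.Agent.Lib.FLTp.CaseI
section

/-!
# Case I of Fermat's Last Theorem for p = 5, 7, 11, 13 via Sophie Germain / Legendre

Generic theorem `sophieGermain`: for an odd prime `p` and an auxiliary prime `q` such that
(1) `x^p + y^p + z^p = 0` in `ZMod q` forces one of `x, y, z` to vanish and
(2) `p` is not a `p`-th power in `ZMod q`,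
any pairwise coprime integer solution of `x^p + y^p + z^p = 0` has `p ∣ x*y*z`.
-/

set_option autoImplicit false

namespace Fermat.Agent.Lib.FLTp.CaseI

open Finset

/-- `phi p y z = ∑_{i<p} y^i (-z)^(p-1-i)`; for odd `p`, `phi p y z * (y + z) = y^p + z^p`. -/
def phi (p : ℕ) (y z : ℤ) : ℤ := ∑ i ∈ range p, y ^ i * (-z) ^ (p - 1 - i)

lemma phi_mul (p : ℕ) (hp : Odd p) (y z : ℤ) : phi p y z * (y + z) = y ^ p + z ^ p := by
  have h := Commute.geom_sum₂_mul (Commute.all y (-z)) p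
  rw [sub_neg_eq_add, hp.neg_pow, sub_neg_eq_add] at h
  exact h

/-- `phi p y z ≡ p * y^(p-1)` modulo `y + z`. -/
lemma phi_modEq (p : ℕ) (y z : ℤ) : (y + z) ∣ phi p y z - p * y ^ (p - 1) := by
  have h1 : (p : ℤ) * y ^ (p - 1) = ∑ i ∈ range p, y ^ i * y ^ (p - 1 - i) := by
    rw [Finset.sum_congr rfl (g := fun _ => y ^ (p - 1))]
    · simp
    · intro i hi
      rw [← pow_add]
      congr 1
      have := Finset.mem_range.1 hi
      omega
  rw [h1, phi, ← Finset.sum_sub_distrib]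
  apply Finset.dvd_sum
  intro i _
  rw [← mul_sub]
  apply Dvd.dvd.mul_left
  have h2 : (-z) - y ∣ (-z) ^ (p - 1 - i) - y ^ (p - 1 - i) := sub_dvd_pow_sub_pow _ _ _
  have h3 : y + z ∣ (-z) - y := ⟨-1, by ring⟩
  exact h3.trans h2

/-- Coprimality of the two factors of `y^p + z^p`. -/
lemma isCoprime_add_phi {p : ℕ} (hp : p.Prime) {y z : ℤ} (hyz : IsCoprime y z)
    (hpyz : ¬ (p : ℤ) ∣ y + z) : IsCoprime (y + z) (phi p y z) := by
  apply isCoprime_of_prime_dvd
  · rintro ⟨h1, -⟩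
    exact hpyz (h1 ▸ dvd_zero _)
  · intro r hr h1 h2
    have h3 : r ∣ (p : ℤ) * y ^ (p - 1) := by
      have := (h1.trans (phi_modEq p y z))
      have h4 := dvd_sub h2 this
      simpa using h4
    rcases hr.dvd_or_dvd h3 with h | h
    · -- r ∣ p
      have hpp : Prime (p : ℤ) := Nat.prime_iff_prime_int.1 hp
      have hass : Associated r (p : ℤ) := hr.associated_of_dvd hpp h
      exact hpyz (hass.symm.dvd.trans h1)
    · have hy : r ∣ y := hr.dvd_of_dvd_pow h
      have hz : r ∣ z := (dvd_add_right hy).1 h1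
      exact hr.not_isUnit (hyz.isUnit_of_dvd' hy hz)

/-- From `x^p + y^p + z^p = 0`, `y, z` coprime and `p ∤ x`:
`y + z` and `phi p y z` are `p`-th powers. -/
lemma exists_pow_eq {p : ℕ} (hp : p.Prime) (hodd : Odd p) {x y z : ℤ}
    (h : x ^ p + y ^ p + z ^ p = 0) (hyz : IsCoprime y z) (hpx : ¬ (p : ℤ) ∣ x) :
    (∃ a : ℤ, y + z = a ^ p) ∧ ∃ α : ℤ, phi p y z = α ^ p := by
  have hprod : (y + z) * phi p y z = (-x) ^ p := by
    rw [mul_comm, phi_mul p hodd, hodd.neg_pow]; linarith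
  have hpyz : ¬ (p : ℤ) ∣ y + z := by
    intro hd
    have : (p : ℤ) ∣ (-x) ^ p := hprod ▸ hd.mul_right _
    have hpp : Prime (p : ℤ) := Nat.prime_iff_prime_int.1 hp
    exact hpx ((dvd_neg).1 (hpp.dvd_of_dvd_pow this))
  exact Int.eq_pow_of_mul_eq_pow_odd (isCoprime_add_phi hp hyz hpyz) hodd hprod

/-- Image of `phi` in `ZMod q`. -/
lemma phi_cast (p q : ℕ) (y z : ℤ) :
    ((phi p y z : ℤ) : ZMod q) = ∑ i ∈ range p, (y : ZMod q) ^ i * (-(z : ZMod q)) ^ (p - 1 - i) := by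
  simp [phi]

section main

variable {p q : ℕ}

/-- Core of Sophie Germain: the case `q ∣ x`. -/
lemma sophieGermain_aux (hp : p.Prime) (hodd : Odd p) (hq : q.Prime)
    (h1 : ∀ x y z : ZMod q, x ^ p + y ^ p + z ^ p = 0 → x = 0 ∨ y = 0 ∨ z = 0)
    (h2 : ∀ x : ZMod q, x ^ p ≠ (p : ZMod q))
    {x y z : ℤ} (h : x ^ p + y ^ p + z ^ p = 0)
    (hxy : IsCoprime x y) (hyz : IsCoprime y z) (hzx : IsCoprime z x)
    (hpx : ¬ (p : ℤ) ∣ x) (hpy : ¬ (p : ℤ) ∣ y) (hpz : ¬ (p : ℤ) ∣ z)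
    (hqx : (q : ℤ) ∣ x) : False := by
  have : Fact q.Prime := ⟨hq⟩
  have hqp : Prime (q : ℤ) := Nat.prime_iff_prime_int.1 hq
  obtain ⟨⟨a, ha⟩, ⟨α, hα⟩⟩ := exists_pow_eq hp hodd h hyz hpx
  have h' : y ^ p + z ^ p + x ^ p = 0 := by linarith
  obtain ⟨⟨b, hb⟩, -⟩ := exists_pow_eq hp hodd h' hzx hpy
  have h'' : z ^ p + x ^ p + y ^ p = 0 := by linarith
  obtain ⟨⟨c, hc⟩, ⟨γ, hγ⟩⟩ := exists_pow_eq hp hodd h'' hxy hpz
  have hx0 : (x : ZMod q) = 0 := (ZMod.intCast_zmod_eq_zero_iff_dvd x q).2 hqx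
  have hy0 : (y : ZMod q) ≠ 0 := by
    intro hy
    have : (q : ℤ) ∣ y := (ZMod.intCast_zmod_eq_zero_iff_dvd y q).1 hy
    exact hqp.not_isUnit (hxy.isUnit_of_dvd' hqx this)
  have hz0 : (z : ZMod q) ≠ 0 := by
    intro hz
    have : (q : ℤ) ∣ z := (ZMod.intCast_zmod_eq_zero_iff_dvd z q).1 hz
    exact hqp.not_isUnit (hzx.isUnit_of_dvd' this hqx)
  -- c^p + b^p + (-a)^p = 2x ≡ 0
  have hsum : (c : ZMod q) ^ p + (b : ZMod q) ^ p + (-(a : ZMod q)) ^ p = 0 := by
    have : c ^ p + b ^ p + (-a) ^ p = 2 * x := by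
      rw [hodd.neg_pow, ← ha, ← hb, ← hc]; ring
    have h3 := congrArg (Int.cast : ℤ → ZMod q) this
    push_cast at h3
    rw [h3, hx0, mul_zero]
  have hpne : p ≠ 0 := hp.ne_zero
  rcases h1 _ _ _ hsum with hc0 | hb0 | ha0
  · -- q ∣ c ⇒ q ∣ x + y ⇒ q ∣ y
    have h3 := congrArg (Int.cast : ℤ → ZMod q) hc
    push_cast at h3
    rw [hc0, zero_pow hpne, hx0, zero_add] at h3
    exact hy0 h3
  · have h3 := congrArg (Int.cast : ℤ → ZMod q) hb
    push_cast at h3
    rw [hb0, zero_pow hpne, hx0, add_zero] at h3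
    exact hz0 h3
  · have ha0' : (a : ZMod q) = 0 := neg_eq_zero.1 ha0
    have h3 := congrArg (Int.cast : ℤ → ZMod q) ha
    push_cast at h3
    rw [ha0', zero_pow hpne] at h3
    have hzy : -(z : ZMod q) = (y : ZMod q) := by
      rw [neg_eq_iff_add_eq_zero, add_comm]; exact h3
    -- α^p = p * y^(p-1)
    have hα' : (α : ZMod q) ^ p = (p : ZMod q) * (y : ZMod q) ^ (p - 1) := by
      have h4 := congrArg (Int.cast : ℤ → ZMod q) hα
      rw [phi_cast] at h4
      push_cast at h4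
      rw [← h4, hzy]
      rw [Finset.sum_congr rfl (g := fun _ => (y : ZMod q) ^ (p - 1))]
      · simp
      · intro i hi
        rw [← pow_add]
        congr 1
        have := Finset.mem_range.1 hi
        omega
    -- γ^p = y^(p-1)
    have hγ' : (γ : ZMod q) ^ p = (y : ZMod q) ^ (p - 1) := by
      have h4 := congrArg (Int.cast : ℤ → ZMod q) hγ
      rw [phi_cast] at h4
      push_cast at h4
      rw [← h4, hx0]
      rw [Finset.sum_eq_single 0]
      · simp only [pow_zero, one_mul, Nat.sub_zero]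
        have heven : Even (p - 1) := hp.even_sub_one (by
          rintro rfl; exact absurd hodd (by decide))
        exact heven.neg_pow _
      · intro i _ hi
        rw [zero_pow hi, zero_mul]
      · intro h0
        exact absurd (Finset.mem_range.2 hp.pos) h0
    have hγ0 : (γ : ZMod q) ≠ 0 := by
      intro h0
      rw [h0, zero_pow hpne] at hγ'
      exact hy0 (pow_eq_zero_iff (n := p - 1) (by
        have := hp.two_le; omega) |>.1 hγ'.symm)
    apply h2 ((α : ZMod q) / (γ : ZMod q))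
    rw [div_pow, hα', hγ', mul_div_assoc, div_self, mul_one]
    rw [← hγ']
    exact pow_ne_zero _ hγ0

/-- **Sophie Germain / Legendre**: Case I of FLT for exponent `p` with auxiliary prime `q`. -/
theorem sophieGermain (hp : p.Prime) (hodd : Odd p) (hq : q.Prime)
    (h1 : ∀ x y z : ZMod q, x ^ p + y ^ p + z ^ p = 0 → x = 0 ∨ y = 0 ∨ z = 0)
    (h2 : ∀ x : ZMod q, x ^ p ≠ (p : ZMod q))
    {x y z : ℤ} (h : x ^ p + y ^ p + z ^ p = 0)
    (hxy : IsCoprime x y) (hyz : IsCoprime y z) (hzx : IsCoprime z x) :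
    (p : ℤ) ∣ x * y * z := by
  by_contra hdiv
  have hpp : Prime (p : ℤ) := Nat.prime_iff_prime_int.1 hp
  have hpx : ¬ (p : ℤ) ∣ x := fun hd => hdiv ((hd.mul_right y).mul_right z)
  have hpy : ¬ (p : ℤ) ∣ y := fun hd => hdiv ((hd.mul_left x).mul_right z)
  have hpz : ¬ (p : ℤ) ∣ z := fun hd => hdiv (hd.mul_left (x * y))
  have : Fact q.Prime := ⟨hq⟩
  have hmod : (x : ZMod q) ^ p + (y : ZMod q) ^ p + (z : ZMod q) ^ p = 0 := by
    have h3 := congrArg (Int.cast : ℤ → ZMod q) h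
    push_cast at h3
    exact h3
  rcases h1 _ _ _ hmod with hx | hy | hz
  · exact sophieGermain_aux hp hodd hq h1 h2 h hxy hyz hzx hpx hpy hpz
      ((ZMod.intCast_zmod_eq_zero_iff_dvd x q).1 hx)
  · exact sophieGermain_aux hp hodd hq h1 h2 (x := y) (y := z) (z := x) (by linarith)
      hyz hzx hxy hpy hpz hpx ((ZMod.intCast_zmod_eq_zero_iff_dvd y q).1 hy)
  · exact sophieGermain_aux hp hodd hq h1 h2 (x := z) (y := x) (z := y) (by linarith)
      hzx hxy hyz hpz hpx hpy ((ZMod.intCast_zmod_eq_zero_iff_dvd z q).1 hz)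

end main


/-- Pairwise coprimality from `a^p + b^p = c^p` and `IsCoprime a b`. -/
lemma isCoprime_of_eq {p : ℕ} (hp0 : p ≠ 0) {a b c : ℤ} (h : a ^ p + b ^ p = c ^ p)
    (hab : IsCoprime a b) : IsCoprime b c ∧ IsCoprime c a := by
  constructor
  · apply isCoprime_of_prime_dvd
    · rintro ⟨rfl, rfl⟩
      rw [zero_pow hp0, add_zero, pow_eq_zero_iff hp0] at h
      subst h
      exact not_isCoprime_zero_zero hab
    · intro r hr hb hc
      have : r ∣ a ^ p := by
        have h3 : a ^ p = c ^ p - b ^ p := by linarith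
        rw [h3]
        exact dvd_sub (dvd_pow hc hp0) (dvd_pow hb hp0)
      exact hr.not_isUnit (hab.isUnit_of_dvd' (hr.dvd_of_dvd_pow this) hb)
  · apply isCoprime_of_prime_dvd
    · rintro ⟨rfl, rfl⟩
      rw [zero_pow hp0, zero_add, pow_eq_zero_iff hp0] at h
      subst h
      exact not_isCoprime_zero_zero hab
    · intro r hr hc ha
      have : r ∣ b ^ p := by
        have h3 : b ^ p = c ^ p - a ^ p := by linarith
        rw [h3]
        exact dvd_sub (dvd_pow hc hp0) (dvd_pow ha hp0)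
      exact hr.not_isUnit (hab.isUnit_of_dvd' ha (hr.dvd_of_dvd_pow this))

/-- Case I in the interface form, from the two auxiliary-prime conditions. -/
theorem caseI_of_aux {p q : ℕ} (hp : p.Prime) (hodd : Odd p) (hq : q.Prime)
    (h1 : ∀ x y z : ZMod q, x ^ p + y ^ p + z ^ p = 0 → x = 0 ∨ y = 0 ∨ z = 0)
    (h2 : ∀ x : ZMod q, x ^ p ≠ (p : ZMod q))
    (a b c : ℤ) (h : a ^ p + b ^ p = c ^ p) (hab : IsCoprime a b)
    (hdiv : ¬ (p : ℤ) ∣ a * b * c) : False := by
  obtain ⟨hbc, hca⟩ := isCoprime_of_eq hp.ne_zero h hab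
  have h' : a ^ p + b ^ p + (-c) ^ p = 0 := by rw [hodd.neg_pow]; linarith
  have := sophieGermain hp hodd hq h1 h2 h' hab hbc.neg_right hca.neg_left
  apply hdiv
  rw [mul_neg, dvd_neg] at this
  exact this

/-! ### The auxiliary-prime conditions for `(p, q) = (5, 11), (7, 29), (11, 23), (13, 53)` -/

/-- Condition (1) when the nonzero `p`-th powers of `ZMod q` are `±1` (`q = 2p + 1`). -/
lemma cond1_of_two {p q : ℕ}
    (hS : ∀ x : ZMod q, x = 0 ∨ x ^ p = 1 ∨ x ^ p = -1)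
    (h3 : (3 : ZMod q) ≠ 0) (h1 : (1 : ZMod q) ≠ 0) :
    ∀ x y z : ZMod q, x ^ p + y ^ p + z ^ p = 0 → x = 0 ∨ y = 0 ∨ z = 0 := by
  intro x y z h
  by_contra hne
  rw [not_or, not_or] at hne
  obtain ⟨hx, hy, hz⟩ := hne
  have hx' := (hS x).resolve_left hx
  have hy' := (hS y).resolve_left hy
  have hz' := (hS z).resolve_left hz
  rcases hx' with hx' | hx' <;> rcases hy' with hy' | hy' <;> rcases hz' with hz' | hz' <;>
    rw [hx', hy', hz'] at h
  · exact h3 (by rw [← h]; ring)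
  · exact h1 (by rw [← h]; ring)
  · exact h1 (by rw [← h]; ring)
  · exact h1 (by rw [← neg_eq_zero, ← h]; ring)
  · exact h1 (by rw [← h]; ring)
  · exact h1 (by rw [← neg_eq_zero, ← h]; ring)
  · exact h1 (by rw [← neg_eq_zero, ← h]; ring)
  · exact h3 (by rw [← neg_eq_zero, ← h]; ring)

/-- Condition (1) when the nonzero `p`-th powers of `ZMod q` are `±1, ±i` (`q = 4p + 1`). -/
lemma cond1_of_four {p q : ℕ} (i : ZMod q)
    (hS : ∀ x : ZMod q, x = 0 ∨ x ^ p = 1 ∨ x ^ p = -1 ∨ x ^ p = i ∨ x ^ p = -i)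
    (hT : ∀ u v w : Fin 4, (![1, -1, i, -i] u : ZMod q) + ![1, -1, i, -i] v + ![1, -1, i, -i] w ≠ 0) :
    ∀ x y z : ZMod q, x ^ p + y ^ p + z ^ p = 0 → x = 0 ∨ y = 0 ∨ z = 0 := by
  intro x y z h
  by_contra hne
  rw [not_or, not_or] at hne
  obtain ⟨hx, hy, hz⟩ := hne
  have key : ∀ t : ZMod q, t ≠ 0 → ∃ u : Fin 4, t ^ p = ![1, -1, i, -i] u := by
    intro t ht
    rcases (hS t).resolve_left ht with h | h | h | h
    · exact ⟨0, by simp [h]⟩
    · exact ⟨1, by simp [h]⟩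
    · exact ⟨2, by simp [h]⟩
    · exact ⟨3, by simp [h]⟩
  obtain ⟨u, hu⟩ := key x hx
  obtain ⟨v, hv⟩ := key y hy
  obtain ⟨w, hw⟩ := key z hz
  rw [hu, hv, hw] at h
  exact hT u v w h

instance fact_prime_eleven : Fact (Nat.Prime 11) := ⟨by norm_num⟩
instance fact_prime_twentythree : Fact (Nat.Prime 23) := ⟨by norm_num⟩
instance fact_prime_twentynine : Fact (Nat.Prime 29) := ⟨by norm_num⟩
instance fact_prime_fiftythree : Fact (Nat.Prime 53) := ⟨by norm_num⟩

theorem caseI_five (a b c : ℤ) (h : a ^ 5 + b ^ 5 = c ^ 5) (hab : IsCoprime a b)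
    (hdiv : ¬ ((5 : ℕ) : ℤ) ∣ a * b * c) : False := by
  refine caseI_of_aux (p := 5) (q := 11) (by norm_num) (by decide) (by norm_num) ?_ ?_
    a b c h hab hdiv
  · exact cond1_of_two (by decide) (by decide) (by decide)
  · decide

theorem caseI_eleven (a b c : ℤ) (h : a ^ 11 + b ^ 11 = c ^ 11) (hab : IsCoprime a b)
    (hdiv : ¬ ((11 : ℕ) : ℤ) ∣ a * b * c) : False := by
  refine caseI_of_aux (p := 11) (q := 23) (by norm_num) (by decide) (by norm_num) ?_ ?_
    a b c h hab hdiv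
  · exact cond1_of_two (by decide) (by decide) (by decide)
  · decide

theorem caseI_seven (a b c : ℤ) (h : a ^ 7 + b ^ 7 = c ^ 7) (hab : IsCoprime a b)
    (hdiv : ¬ ((7 : ℕ) : ℤ) ∣ a * b * c) : False := by
  refine caseI_of_aux (p := 7) (q := 29) (by norm_num) (by decide) (by norm_num) ?_ ?_
    a b c h hab hdiv
  · exact cond1_of_four 12 (by decide) (by decide)
  · decide

theorem caseI_thirteen (a b c : ℤ) (h : a ^ 13 + b ^ 13 = c ^ 13) (hab : IsCoprime a b)
    (hdiv : ¬ ((13 : ℕ) : ℤ) ∣ a * b * c) : False := by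
  refine caseI_of_aux (p := 13) (q := 53) (by norm_num) (by decide) (by norm_num) ?_ ?_
    a b c h hab hdiv
  · exact cond1_of_four 23 (by decide) (by decide)
  · decide

end Fermat.Agent.Lib.FLTp.CaseI

end
-- ==== END Fermat.Agent.Lib.FLTp.CaseI
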