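-- GENERATED (merged mirror, NOTES/tools/trim/merge3_helper67.py): 5 modules of the originals, bodies verbatim.
import Mathlib
import Fermat.Prelude.Def_FLTPrelim_FreyPackage

-- ==== BEGIN Fermat.Agent.Lib.FLTp.CaseIICore
section

/-!
# Generic Kummer descent for the second case of Fermat's Last Theorem (abstract core)

`R` is a principal ideal domain containing a primitive `p`-th root of unity `ζ` (`p` an odd prime)
such that `ζ - 1` is prime with residue ring of cardinality `p`, `p ∣ (ζ - 1) ^ p`, `p`-th powers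
are congruent to rational integers modulo `p`, and Kummer's lemma holds.  Then the equation
`x ^ p + y ^ p = ε * z ^ p` has no solution with `ε` a unit, `x`, `y` coprime and prime to `ζ - 1`,
and `z ≠ 0` divisible by `ζ - 1`.
-/

set_option autoImplicit false

namespace Fermat.Agent.Lib.FLTp.CaseII

open Finset Polynomial

/-- The hypotheses needed for the descent. -/
structure CycloData (R : Type*) [CommRing R] (p : ℕ) (ζ : R) : Prop where
  prime_p : p.Prime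
  ne_two : p ≠ 2
  prim : IsPrimitiveRoot ζ p
  prime_lam : Prime (ζ - 1)
  card_quot : Nat.card (R ⧸ Ideal.span {ζ - 1}) = p
  p_dvd_lam_pow : (p : R) ∣ (ζ - 1) ^ p
  pow_congr_int : ∀ x : R, ∃ n : ℤ, (p : R) ∣ x ^ p - n
  kummer : ∀ u : Rˣ, (∃ n : ℤ, (p : R) ∣ (u : R) - n) → ∃ v : Rˣ, u = v ^ p

variable {R : Type*} [CommRing R] [IsDomain R] {p : ℕ} {ζ : R}

namespace CycloData

variable (D : CycloData R p ζ)
include D

lemma odd : Odd p := D.prime_p.odd_of_ne_two D.ne_two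

lemma three_le : 3 ≤ p := by
  have := D.prime_p.two_le
  have := D.ne_two
  omega

lemma one_mem : (1 : R) ∈ nthRootsFinset p (1 : R) := by
  rw [mem_nthRootsFinset D.prime_p.pos]; simp

lemma zeta_mem : ζ ∈ nthRootsFinset p (1 : R) := by
  rw [mem_nthRootsFinset D.prime_p.pos]; exact D.prim.pow_eq_one

lemma zeta_pow_mem (k : ℕ) : ζ ^ k ∈ nthRootsFinset p (1 : R) := by
  rw [mem_nthRootsFinset D.prime_p.pos, ← pow_mul, mul_comm, pow_mul, D.prim.pow_eq_one, one_pow]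

lemma lam_dvd_sub {μ ν : R} (hμ : μ ∈ nthRootsFinset p (1 : R))
    (hν : ν ∈ nthRootsFinset p (1 : R)) : ζ - 1 ∣ μ - ν :=
  D.prim.sub_one_dvd_sub D.prime_p hμ hν

lemma assoc_sub {μ ν : R} (hμ : μ ∈ nthRootsFinset p (1 : R))
    (hν : ν ∈ nthRootsFinset p (1 : R)) (h : μ ≠ ν) : Associated (ζ - 1) (μ - ν) :=
  D.prim.nthRootsFinset_pairwise_associated_sub_one_sub_of_prime D.prime_p hμ hν h

lemma lam_dvd_p : ζ - 1 ∣ (p : R) :=
  sub_one_dvd_natCast_of_pow_eq_one D.prim.pow_eq_one (D.prim.ne_one D.prime_p.one_lt)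

lemma isUnit_mem {μ : R} (hμ : μ ∈ nthRootsFinset p (1 : R)) : IsUnit μ := by
  rw [mem_nthRootsFinset D.prime_p.pos] at hμ
  exact IsUnit.of_pow_eq_one hμ D.prime_p.ne_zero

lemma isUnit_one_add_zeta : IsUnit (1 + ζ) := by
  have h := D.prim.geom_sum_isUnit D.prime_p.two_le (j := 2)
    ((Nat.coprime_primes Nat.prime_two D.prime_p).2 (Ne.symm D.ne_two))
  simpa [Finset.sum_range_succ] using h

lemma factorization (x y : R) :
    x ^ p + y ^ p = ∏ μ ∈ nthRootsFinset p (1 : R), (x + μ * y) :=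
  D.prim.pow_add_pow_eq_prod_add_mul x y D.odd

lemma lam_dvd_all {x y z : R} {ε : Rˣ} (H : x ^ p + y ^ p = ε * z ^ p) (hz : ζ - 1 ∣ z) :
    ∀ μ ∈ nthRootsFinset p (1 : R), ζ - 1 ∣ x + μ * y := by
  have h1 : ζ - 1 ∣ ∏ μ ∈ nthRootsFinset p (1 : R), (x + μ * y) := by
    rw [← D.factorization, H]
    exact Dvd.dvd.mul_left (dvd_pow hz D.prime_p.ne_zero) _
  obtain ⟨μ0, hμ0, h0⟩ := (D.prime_lam.dvd_finsetProd_iff _).1 h1
  intro μ hμ
  have : x + μ * y = (x + μ0 * y) + (μ - μ0) * y := by ring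
  rw [this]
  exact dvd_add h0 (Dvd.dvd.mul_right (D.lam_dvd_sub hμ hμ0) _)

/-- Pigeonhole: one of the factors `x + μ * y` is divisible by `(ζ - 1) ^ 2`. -/
lemma exists_sq_dvd {x y z : R} {ε : Rˣ} (H : x ^ p + y ^ p = ε * z ^ p) (hz : ζ - 1 ∣ z)
    (hy : ¬ ζ - 1 ∣ y) :
    ∃ μ0 ∈ nthRootsFinset p (1 : R), (ζ - 1) ^ 2 ∣ x + μ0 * y := by
  have hall := D.lam_dvd_all H hz
  have hex : ∀ μ : R, ∃ a : R, μ ∈ nthRootsFinset p (1 : R) → x + μ * y = (ζ - 1) * a := by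
    intro μ
    by_cases hμ : μ ∈ nthRootsFinset p (1 : R)
    · obtain ⟨a, ha⟩ := hall μ hμ
      exact ⟨a, fun _ => ha⟩
    · exact ⟨0, fun h => absurd h hμ⟩
  choose a ha using hex
  let f : (nthRootsFinset p (1 : R)) → R ⧸ Ideal.span {ζ - 1} :=
    fun μ => Ideal.Quotient.mk _ (a μ)
  have hinj : Function.Injective f := by
    intro μ ν hμν
    by_contra hne
    have hne' : (μ : R) ≠ ν := fun h => hne (Subtype.ext h)
    rw [Ideal.Quotient.eq, Ideal.mem_span_singleton] at hμν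
    obtain ⟨u, hu⟩ := D.assoc_sub μ.2 ν.2 hne'
    have h1 : (ζ - 1) * (a μ - a ν) = (ζ - 1) * (u * y) := by
      rw [mul_sub, ← ha μ μ.2, ← ha ν ν.2, ← mul_assoc, hu]; ring
    have h2 := mul_left_cancel₀ D.prime_lam.ne_zero h1
    rw [h2] at hμν
    exact hy ((Units.dvd_mul_left).1 hμν)
  have hfin : Finite (R ⧸ Ideal.span {ζ - 1}) :=
    Nat.finite_of_card_ne_zero (by rw [D.card_quot]; exact D.prime_p.ne_zero)
  have hcard : Nat.card (R ⧸ Ideal.span {ζ - 1}) ≤ Nat.card (nthRootsFinset p (1 : R)) := by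
    rw [D.card_quot, Nat.card_eq_fintype_card, Fintype.card_coe, D.prim.card_nthRootsFinset]
  have hbij := hinj.bijective_of_nat_card_le hcard
  obtain ⟨μ0, h0⟩ := hbij.2 0
  refine ⟨μ0, μ0.2, ?_⟩
  rw [ha μ0 μ0.2, pow_two]
  apply mul_dvd_mul_left
  rwa [Ideal.Quotient.eq_zero_iff_mem, Ideal.mem_span_singleton] at h0

variable [IsPrincipalIdealRing R]

/-- The descent step for a normalised solution (`(ζ - 1) ^ 2 ∣ x + y`). -/
lemma descent_normalised {x y z : R} {ε : Rˣ} (H : x ^ p + y ^ p = ε * z ^ p)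
    (hy : ¬ ζ - 1 ∣ y) (hz0 : z ≠ 0) (hz : ζ - 1 ∣ z) (hcop : IsCoprime x y)
    (hxy : (ζ - 1) ^ 2 ∣ x + y) :
    ∃ (x' y' z' : R) (ε' : Rˣ), x' ^ p + y' ^ p = ε' * z' ^ p ∧ ¬ ζ - 1 ∣ x' ∧ ¬ ζ - 1 ∣ y' ∧
      z' ≠ 0 ∧ ζ - 1 ∣ z' ∧ IsCoprime x' y' ∧ (ζ - 1) * z' ∣ z := by
  classical
  have hp0 : p ≠ 0 := D.prime_p.ne_zero
  have hlam0 : ζ - 1 ≠ 0 := D.prime_lam.ne_zero
  have hall := D.lam_dvd_all H hz
  have hex : ∀ μ : R, ∃ a : R, μ ∈ nthRootsFinset p (1 : R) → x + μ * y = (ζ - 1) * a := by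
    intro μ
    by_cases hμ : μ ∈ nthRootsFinset p (1 : R)
    · obtain ⟨a, ha⟩ := hall μ hμ
      exact ⟨a, fun _ => ha⟩
    · exact ⟨0, fun h => absurd h hμ⟩
  choose a ha using hex
  obtain ⟨z1, hz1⟩ := hz
  have hz10 : z1 ≠ 0 := by
    rintro rfl
    exact hz0 (by rw [hz1, mul_zero])
  -- the product of the `a μ`
  have hprod : ∏ μ ∈ nthRootsFinset p (1 : R), a μ = ε * z1 ^ p := by
    have h1 : (ζ - 1) ^ p * ∏ μ ∈ nthRootsFinset p (1 : R), a μ = (ζ - 1) ^ p * (ε * z1 ^ p) := by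
      calc (ζ - 1) ^ p * ∏ μ ∈ nthRootsFinset p (1 : R), a μ
          = ∏ μ ∈ nthRootsFinset p (1 : R), ((ζ - 1) * a μ) := by
            rw [Finset.prod_mul_distrib, Finset.prod_const, D.prim.card_nthRootsFinset]
        _ = ∏ μ ∈ nthRootsFinset p (1 : R), (x + μ * y) :=
            Finset.prod_congr rfl (fun μ hμ => (ha μ hμ).symm)
        _ = (ζ - 1) ^ p * (ε * z1 ^ p) := by
            rw [← D.factorization, H, hz1, mul_pow]; ring
    exact mul_left_cancel₀ (pow_ne_zero _ hlam0) h1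
  -- differences
  have hdiff : ∀ μ ∈ nthRootsFinset p (1 : R), ∀ ν ∈ nthRootsFinset p (1 : R), μ ≠ ν →
      ∃ u : Rˣ, a μ - a ν = u * y ∧ ν * a μ - μ * a ν = -(u * x) := by
    intro μ hμ ν hν hne
    obtain ⟨u, hu⟩ := D.assoc_sub hμ hν hne
    refine ⟨u, ?_, ?_⟩
    · apply mul_left_cancel₀ hlam0
      rw [mul_sub, ← ha μ hμ, ← ha ν hν, ← mul_assoc, hu]; ring
    · apply mul_left_cancel₀ hlam0
      have e1 : (ζ - 1) * (ν * a μ - μ * a ν) = ν * ((ζ - 1) * a μ) - μ * ((ζ - 1) * a ν) := by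
        ring
      rw [e1, ← ha μ hμ, ← ha ν hν]
      have e2 : (ζ - 1) * -(↑u * x) = -((ζ - 1) * u) * x := by ring
      rw [e2, hu]; ring
  -- coprimality
  have hcopa : ∀ μ ∈ nthRootsFinset p (1 : R), ∀ ν ∈ nthRootsFinset p (1 : R), μ ≠ ν →
      IsCoprime (a μ) (a ν) := by
    intro μ hμ ν hν hne
    obtain ⟨u, h1, h2⟩ := hdiff μ hμ ν hν hne
    obtain ⟨s, t, hst⟩ := hcop
    refine ⟨↑u⁻¹ * (t - s * ν), ↑u⁻¹ * (s * μ - t), ?_⟩
    have e : ↑u⁻¹ * (t - s * ν) * a μ + ↑u⁻¹ * (s * μ - t) * a ν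
        = ↑u⁻¹ * (t * (a μ - a ν) - s * (ν * a μ - μ * a ν)) := by ring
    rw [e, h1, h2]
    have e' : (↑u⁻¹ : R) * (t * (↑u * y) - s * -(↑u * x)) = (↑u⁻¹ * ↑u) * (s * x + t * y) := by
      ring
    rw [e', hst, Units.inv_mul, one_mul]
  -- `ζ - 1` divides `a 1` and no other `a μ`
  have ha1 : ζ - 1 ∣ a 1 := by
    have h := ha 1 D.one_mem
    rw [one_mul] at h
    rw [h, pow_two] at hxy
    exact (mul_dvd_mul_iff_left hlam0).1 hxy
  have hnot : ∀ μ ∈ nthRootsFinset p (1 : R), μ ≠ 1 → ¬ ζ - 1 ∣ a μ := by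
    intro μ hμ hne hdvd
    obtain ⟨u, h1, -⟩ := hdiff μ hμ 1 D.one_mem hne
    have : ζ - 1 ∣ ↑u * y := h1 ▸ dvd_sub hdvd ha1
    exact hy ((Units.dvd_mul_left).1 this)
  -- each `a μ` is a unit times a `p`-th power
  have hpow : ∀ μ ∈ nthRootsFinset p (1 : R), ∃ d : R, Associated (d ^ p) (a μ) := by
    intro μ hμ
    have hc : IsCoprime (a μ) (↑ε⁻¹ * ∏ ν ∈ (nthRootsFinset p (1 : R)).erase μ, a ν) := by
      rw [isCoprime_mul_unit_left_right (Units.isUnit _)]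
      apply IsCoprime.prod_right
      intro ν hν
      exact hcopa μ hμ ν (Finset.mem_of_mem_erase hν) (Finset.ne_of_mem_erase hν).symm
    have he : a μ * (↑ε⁻¹ * ∏ ν ∈ (nthRootsFinset p (1 : R)).erase μ, a ν) = z1 ^ p := by
      have : a μ * ∏ ν ∈ (nthRootsFinset p (1 : R)).erase μ, a ν = ε * z1 ^ p := by
        rw [Finset.mul_prod_erase _ _ hμ, hprod]
      calc a μ * (↑ε⁻¹ * ∏ ν ∈ (nthRootsFinset p (1 : R)).erase μ, a ν)
          = ↑ε⁻¹ * (a μ * ∏ ν ∈ (nthRootsFinset p (1 : R)).erase μ, a ν) := by ring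
        _ = z1 ^ p := by rw [this, ← mul_assoc, Units.inv_mul, one_mul]
    exact exists_associated_pow_of_mul_eq_pow' hc he
  -- the three roots `1`, `ζ`, `ζ ^ (p - 1)`
  have h3 := D.three_le
  have hζ1 : ζ ≠ 1 := D.prim.ne_one D.prime_p.one_lt
  have hζi1 : ζ ^ (p - 1) ≠ 1 := D.prim.pow_ne_one_of_pos_of_lt (by omega) (by omega)
  have hζζi : ζ ≠ ζ ^ (p - 1) := by
    intro h
    have h2 : ζ ^ (p - 2) ≠ 1 := D.prim.pow_ne_one_of_pos_of_lt (by omega) (by omega)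
    apply h2
    have hu : IsUnit ζ := D.isUnit_mem D.zeta_mem
    have e : ζ * ζ ^ (p - 2) = ζ * 1 := by
      rw [mul_one, ← pow_succ', show p - 2 + 1 = p - 1 by omega]
      exact h.symm
    exact hu.mul_left_cancel e
  have hζmul : ζ * ζ ^ (p - 1) = 1 := by
    rw [← pow_succ', show p - 1 + 1 = p by omega, D.prim.pow_eq_one]
  have hmζ := D.zeta_mem
  have hmζi := D.zeta_pow_mem (p - 1)
  -- the relation
  have hrel : a ζ + ζ * a (ζ ^ (p - 1)) = (1 + ζ) * a 1 := by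
    apply mul_left_cancel₀ hlam0
    have e1 : (ζ - 1) * (a ζ + ζ * a (ζ ^ (p - 1)))
        = (ζ - 1) * a ζ + ζ * ((ζ - 1) * a (ζ ^ (p - 1))) := by ring
    have e2 : (ζ - 1) * ((1 + ζ) * a 1) = (1 + ζ) * ((ζ - 1) * a 1) := by ring
    rw [e1, e2, ← ha ζ hmζ, ← ha _ hmζi, ← ha 1 D.one_mem]
    have e3 : ζ * (x + ζ ^ (p - 1) * y) = ζ * x + (ζ * ζ ^ (p - 1)) * y := by ring
    rw [e3, hζmul]; ring
  obtain ⟨ρ0, ε0, hρ0⟩ := hpow 1 D.one_mem
  obtain ⟨ρ1, ε1, hρ1⟩ := hpow ζ hmζ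
  obtain ⟨ρ2, ε2, hρ2⟩ := hpow _ hmζi
  -- divisibility properties of the ρ's
  have hρ0dvd : ζ - 1 ∣ ρ0 := by
    have : ζ - 1 ∣ ρ0 ^ p * ε0 := hρ0 ▸ ha1
    exact D.prime_lam.dvd_of_dvd_pow ((Units.dvd_mul_right).1 this)
  have hρ1not : ¬ ζ - 1 ∣ ρ1 := by
    intro h
    apply hnot ζ hmζ hζ1
    rw [← hρ1]
    exact Dvd.dvd.mul_right (dvd_pow h hp0) _
  have hρ2not : ¬ ζ - 1 ∣ ρ2 := by
    intro h
    apply hnot _ hmζi hζi1
    rw [← hρ2]
    exact Dvd.dvd.mul_right (dvd_pow h hp0) _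
  have ha0 : ∀ μ ∈ nthRootsFinset p (1 : R), a μ ≠ 0 := by
    intro μ hμ h0
    have : ∏ ν ∈ nthRootsFinset p (1 : R), a ν = 0 := Finset.prod_eq_zero hμ h0
    rw [hprod] at this
    exact (mul_ne_zero (Units.ne_zero ε) (pow_ne_zero _ hz10)) this
  have hρ00 : ρ0 ≠ 0 := by
    rintro rfl
    apply ha0 1 D.one_mem
    rw [← hρ0, zero_pow hp0, zero_mul]
  -- `ρ0 ∣ z1`
  have hρ0z1 : ρ0 ∣ z1 := by
    have h1 : ρ0 ^ p ∣ z1 ^ p := by
      have h2 : a 1 ∣ ε * z1 ^ p := by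
        rw [← hprod]
        exact Finset.dvd_prod_of_mem _ D.one_mem
      have h3 : ρ0 ^ p ∣ ε * z1 ^ p := Dvd.dvd.trans ⟨ε0, hρ0.symm⟩ h2
      exact (Units.dvd_mul_left).1 h3
    exact (UniqueFactorizationMonoid.pow_dvd_pow_iff_dvd hp0).1 h1
  -- Kummer's lemma applied to the unit `η' = ε1⁻¹ * ζ * ε2`
  obtain ⟨uζ, huζ⟩ := D.isUnit_mem hmζ
  obtain ⟨u1ζ, hu1ζ⟩ := D.isUnit_one_add_zeta
  have hmain : ρ1 ^ p + ↑(ε1⁻¹ * uζ * ε2) * ρ2 ^ p = ↑(ε1⁻¹ * u1ζ * ε0) * ρ0 ^ p := by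
    have e1 : ρ1 ^ p + ↑(ε1⁻¹ * uζ * ε2) * ρ2 ^ p
        = ↑ε1⁻¹ * (ρ1 ^ p * ε1 + ζ * (ρ2 ^ p * ε2)) := by
      push_cast
      rw [huζ]
      have : (↑ε1⁻¹ : R) * (ρ1 ^ p * ε1 + ζ * (ρ2 ^ p * ε2))
          = (↑ε1⁻¹ * ↑ε1) * ρ1 ^ p + ↑ε1⁻¹ * ζ * ↑ε2 * ρ2 ^ p := by ring
      rw [this, Units.inv_mul, one_mul]
    rw [e1, hρ1, hρ2, hrel, ← hρ0]
    push_cast
    rw [hu1ζ]; ring
  have hpdvd : (p : R) ∣ ρ0 ^ p :=
    D.p_dvd_lam_pow.trans (pow_dvd_pow_of_dvd hρ0dvd p)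
  obtain ⟨n1, hn1⟩ := D.pow_congr_int ρ1
  obtain ⟨n2, hn2⟩ := D.pow_congr_int ρ2
  have hn2p : ¬ (p : ℤ) ∣ n2 := by
    intro h
    have h1 : (p : R) ∣ (n2 : R) := by
      obtain ⟨k, hk⟩ := h
      exact ⟨(k : R), by rw [hk]; push_cast; ring⟩
    have h2 : (p : R) ∣ ρ2 ^ p := (dvd_sub_left h1).1 hn2
    exact hρ2not (D.prime_lam.dvd_of_dvd_pow (D.lam_dvd_p.trans h2))
  have hcopn : IsCoprime (n2 : ℤ) (p : ℤ) := by
    rw [isCoprime_comm]
    exact (Nat.prime_iff_prime_int.1 D.prime_p).coprime_iff_not_dvd.2 hn2p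
  obtain ⟨k, l, hkl⟩ := hcopn
  have hkum : ∃ n : ℤ, (p : R) ∣ ((ε1⁻¹ * uζ * ε2 : Rˣ) : R) - n := by
    refine ⟨-(k * n1), ?_⟩
    set η : R := ((ε1⁻¹ * uζ * ε2 : Rˣ) : R) with hη
    have hsum : (p : R) ∣ ρ1 ^ p + η * ρ2 ^ p := by
      rw [hmain]; exact Dvd.dvd.mul_left hpdvd _
    have hkl' : (k : R) * n2 + l * p = 1 := by exact_mod_cast congrArg (Int.cast : ℤ → R) hkl
    have e : η - ((-(k * n1) : ℤ) : R)
        = k * (ρ1 ^ p + η * ρ2 ^ p) - k * (ρ1 ^ p - n1) - k * η * (ρ2 ^ p - n2)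
          + (p : R) * (l * η) := by
      have : η = η * ((k : R) * n2 + l * p) := by rw [hkl', mul_one]
      push_cast
      nth_rewrite 1 [this]
      ring
    rw [e]
    exact dvd_add (dvd_sub (dvd_sub (Dvd.dvd.mul_left hsum _) (Dvd.dvd.mul_left hn1 _))
      (Dvd.dvd.mul_left hn2 _)) (dvd_mul_right _ _)
  obtain ⟨v, hv⟩ := D.kummer _ hkum
  refine ⟨ρ1, v * ρ2, ρ0, ε1⁻¹ * u1ζ * ε0, ?_, hρ1not, ?_, hρ00, hρ0dvd, ?_, ?_⟩
  · rw [mul_pow, ← hmain, hv]; push_cast; ring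
  · intro h
    exact hρ2not ((Units.dvd_mul_left).1 h)
  · have hc := hcopa ζ hmζ _ hmζi hζζi
    rw [← hρ1, ← hρ2] at hc
    have hc' : IsCoprime (ρ1 ^ p) (ρ2 ^ p) :=
      (isCoprime_mul_unit_right_left (Units.isUnit ε1) _ _).1
        ((isCoprime_mul_unit_right_right (Units.isUnit ε2) _ _).1 hc)
    have hc'' : IsCoprime ρ1 ρ2 := (IsCoprime.pow_iff D.prime_p.pos D.prime_p.pos).1 hc'
    exact (isCoprime_mul_unit_left_right (Units.isUnit v) _ _).2 hc''
  · rw [hz1]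
    exact mul_dvd_mul_left _ hρ0z1

/-- Every solution has `z` divisible by arbitrarily large powers of `ζ - 1`. -/
lemma pow_dvd_of_solution (n : ℕ) : ∀ {x y z : R} {ε : Rˣ}, x ^ p + y ^ p = ε * z ^ p →
    ¬ ζ - 1 ∣ y → z ≠ 0 → ζ - 1 ∣ z → IsCoprime x y → (ζ - 1) ^ n ∣ z := by
  induction n with
  | zero => intros; simp
  | succ n ih =>
    intro x y z ε H hy hz0 hz hcop
    obtain ⟨μ0, hμ0, hsq⟩ := D.exists_sq_dvd H hz hy
    have hu := D.isUnit_mem hμ0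
    have hμ0p : μ0 ^ p = 1 := (mem_nthRootsFinset D.prime_p.pos 1).1 hμ0
    have H' : x ^ p + (μ0 * y) ^ p = ε * z ^ p := by rw [mul_pow, hμ0p, one_mul, H]
    have hy' : ¬ ζ - 1 ∣ μ0 * y := fun h => hy ((hu.dvd_mul_left).1 h)
    have hcop' : IsCoprime x (μ0 * y) := (isCoprime_mul_unit_left_right hu _ _).2 hcop
    obtain ⟨x', y', z', ε', H'', -, hy'', hz0', hz', hcop'', hdvd⟩ :=
      D.descent_normalised H' hy' hz0 hz hcop' hsq
    have := ih H'' hy'' hz0' hz' hcop''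
    rw [pow_succ']
    exact (mul_dvd_mul_left _ this).trans hdvd

/-- **Second case of Fermat's Last Theorem, generalized equation**: no solutions. -/
theorem no_solution {x y z : R} {ε : Rˣ} (hy : ¬ ζ - 1 ∣ y) (hz0 : z ≠ 0) (hz : ζ - 1 ∣ z)
    (hcop : IsCoprime x y) : x ^ p + y ^ p ≠ ε * z ^ p := by
  intro H
  have hfin : FiniteMultiplicity (ζ - 1) z :=
    FiniteMultiplicity.of_not_isUnit D.prime_lam.not_isUnit hz0
  obtain ⟨n, hn⟩ := hfin
  exact hn (D.pow_dvd_of_solution (n + 1) H hy hz0 hz hcop)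

end CycloData

end Fermat.Agent.Lib.FLTp.CaseII

end
-- ==== END Fermat.Agent.Lib.FLTp.CaseIICore

-- ==== BEGIN Fermat.Agent.Lib.FLTp.Glue
section

/-!
# Glue: a Frey package with exponent `p` contradicts FLT for exponent `p`

`frey_false` reduces the emptiness of `FreyPackage` with `P.p = p` to Case I and Case II of
Fermat's Last Theorem for the exponent `p`, in the interface form used by the `FLTp` library.
-/

set_option autoImplicit false

namespace Fermat.Agent.Lib.FLTp.Glue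

/-- Interface form of Case I for exponent `p`. -/
def CaseIStatement (p : ℕ) : Prop :=
  ∀ a b c : ℤ, a ^ p + b ^ p = c ^ p → IsCoprime a b → ¬ ((p : ℕ) : ℤ) ∣ a * b * c → False

/-- Interface form of Case II for exponent `p`. -/
def CaseIIStatement (p : ℕ) : Prop :=
  ∀ a b c : ℤ, a ^ p + b ^ p = c ^ p → IsCoprime a b → ((p : ℕ) : ℤ) ∣ a * b * c →
    a * b * c ≠ 0 → False

theorem frey_false (P : FreyPackage) (p : ℕ) (hp : P.p = p)
    (hI : CaseIStatement p) (hII : CaseIIStatement p) : False := by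
  have hFLT : P.a ^ p + P.b ^ p = P.c ^ p := hp ▸ P.hFLT
  have hcop : IsCoprime P.a P.b := by
    rw [Int.isCoprime_iff_gcd_eq_one]
    have h := P.hgcdab
    have h2 : ((Int.gcd P.a P.b : ℕ) : ℤ) = 1 := h
    exact_mod_cast h2
  by_cases hdiv : ((p : ℕ) : ℤ) ∣ P.a * P.b * P.c
  · exact hII _ _ _ hFLT hcop hdiv P.habc0
  · exact hI _ _ _ hFLT hcop hdiv

/-- The cyclotomic field `CyclotomicField n ℚ` is a cyclotomic extension of `ℚ` with respect to the
canonical `ℚ`-algebra structure of a characteristic-zero field (the Mathlib instance is stated for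
`CyclotomicField.algebra`). -/
theorem isCyclotomicExtension_cyclotomicField (n : ℕ) [NeZero n] :
    IsCyclotomicExtension {n} ℚ (CyclotomicField n ℚ) := by
  have h := CyclotomicField.isCyclotomicExtension n ℚ
  have e : (DivisionRing.toRatAlgebra : Algebra ℚ (CyclotomicField n ℚ)) =
      CyclotomicField.algebra n ℚ := Subsingleton.elim _ _
  rw [e]
  exact h

end Fermat.Agent.Lib.FLTp.Glue

end
-- ==== END Fermat.Agent.Lib.FLTp.Glue

-- ==== BEGIN Fermat.Agent.Lib.KummerCount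
section

set_option autoImplicit false

namespace Fermat.Agent.Lib.KummerCount

open NumberField

section GroupTheory

variable {G : Type*} [CommGroup G]

/-- The subgroup of `p`-th powers of a commutative group. -/
def powSubgroup (G : Type*) [CommGroup G] (p : ℕ) : Subgroup G := (powMonoidHom p : G →* G).range

lemma mem_powSubgroup_iff {p : ℕ} {x : G} : x ∈ powSubgroup G p ↔ ∃ v : G, v ^ p = x := by
  simp [powSubgroup, MonoidHom.mem_range]

/-- `x ^ (k : ℤ)` and `x ^ ((k : ZMod p).val)` agree modulo `p`-th powers. -/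
lemma zpow_div_pow_val_mem (p : ℕ) [NeZero p] (x : G) (k : ℤ) :
    x ^ k / x ^ ((k : ZMod p).val) ∈ powSubgroup G p := by
  rw [mem_powSubgroup_iff]
  have hdvd : (p : ℤ) ∣ k - ((k : ZMod p).val : ℤ) := by
    rw [← ZMod.intCast_zmod_eq_zero_iff_dvd]
    simp
  obtain ⟨c, hc⟩ := hdvd
  refine ⟨x ^ c, ?_⟩
  rw [div_eq_mul_inv, ← zpow_natCast, ← zpow_mul, mul_comm, ← hc, zpow_sub, zpow_natCast]

/-- the class of `∏ g j ^ (e j).val` in `G / G^p`. -/
noncomputable def classMap (p : ℕ) {κ : Type*} [Fintype κ] (g : κ → G) (e : κ → ZMod p) :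
    G ⧸ powSubgroup G p :=
  QuotientGroup.mk (∏ j, g j ^ (e j).val)

lemma classMap_surjective (p : ℕ) [NeZero p] {κ : Type*} [Fintype κ] (g : κ → G)
    (hg : ∀ x : G, ∃ k : κ → ℤ, x = ∏ j, g j ^ k j) :
    Function.Surjective (classMap p g) := by
  intro q
  obtain ⟨x, rfl⟩ := QuotientGroup.mk_surjective q
  obtain ⟨k, rfl⟩ := hg x
  refine ⟨fun j => (k j : ZMod p), ?_⟩
  unfold classMap
  rw [QuotientGroup.eq, ← Finset.prod_inv_distrib, ← Finset.prod_mul_distrib]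
  refine Subgroup.prod_mem _ fun j _ => ?_
  have := zpow_div_pow_val_mem p (g j) (k j)
  rwa [div_eq_mul_inv, mul_comm] at this

lemma classMap_injective (p : ℕ) [Fact p.Prime] {ι : Type*} [Fintype ι] (u : ι → G)
    (P : Subgroup G) (hP : ∀ v : G, v ^ p ∈ P)
    (hind : ∀ e : ι → ℤ, ∏ i, u i ^ e i ∈ P → ∀ i, (p : ℤ) ∣ e i) :
    Function.Injective (classMap p u) := by
  intro e e' h
  unfold classMap at h
  rw [QuotientGroup.eq, mem_powSubgroup_iff] at h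
  obtain ⟨v, hv⟩ := h
  have hmem : ∏ i, u i ^ (((e' i).val : ℤ) - ((e i).val : ℤ)) ∈ P := by
    have : ∏ i, u i ^ (((e' i).val : ℤ) - ((e i).val : ℤ)) = v ^ p := by
      rw [hv, ← Finset.prod_inv_distrib, ← Finset.prod_mul_distrib]
      refine Finset.prod_congr rfl fun i _ => ?_
      rw [zpow_sub, zpow_natCast, zpow_natCast, mul_comm]
    rw [this]
    exact hP v
  funext i
  have hdvd := hind _ hmem i
  have h0 : (((((e' i).val : ℤ) - ((e i).val : ℤ)) : ℤ) : ZMod p) = 0 :=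
    (ZMod.intCast_zmod_eq_zero_iff_dvd _ p).mpr hdvd
  have : NeZero p := ⟨(Fact.out : p.Prime).ne_zero⟩
  simp only [Int.cast_sub, Int.cast_natCast, ZMod.natCast_zmod_val] at h0
  exact (sub_eq_zero.mp h0).symm

/-- **Counting lemma.** If a commutative group `G` is generated by a family `g` indexed by `κ`,
and `u : ι → G` is a family with `card κ ≤ card ι` that is independent modulo a subgroup `P`
containing all `p`-th powers, then `P` consists exactly of `p`-th powers. -/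
theorem mem_pow_of_mem_of_independent (p : ℕ) [Fact p.Prime] {ι κ : Type*} [Fintype ι]
    [Fintype κ] (g : κ → G) (hg : ∀ x : G, ∃ k : κ → ℤ, x = ∏ j, g j ^ k j)
    (hcard : Fintype.card κ ≤ Fintype.card ι) (u : ι → G)
    (P : Subgroup G) (hP : ∀ v : G, v ^ p ∈ P)
    (hind : ∀ e : ι → ℤ, ∏ i, u i ^ e i ∈ P → ∀ i, (p : ℤ) ∣ e i) :
    ∀ w ∈ P, ∃ v : G, w = v ^ p := by
  classical
  have : NeZero p := ⟨(Fact.out : p.Prime).ne_zero⟩
  have hsurj := classMap_surjective p g hg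
  have hinj := classMap_injective p u P hP hind
  have : Finite (G ⧸ powSubgroup G p) := Finite.of_surjective _ hsurj
  have hc1 : Nat.card (G ⧸ powSubgroup G p) ≤ Nat.card (κ → ZMod p) :=
    Nat.card_le_card_of_surjective _ hsurj
  have hc2 : Nat.card (κ → ZMod p) ≤ Nat.card (ι → ZMod p) := by
    simp only [Nat.card_eq_fintype_card, Fintype.card_fun, ZMod.card]
    exact Nat.pow_le_pow_right (Fact.out : p.Prime).pos hcard
  have hbij := hinj.bijective_of_nat_card_le (hc1.trans hc2)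
  intro w hw
  obtain ⟨e, he⟩ := hbij.2 (QuotientGroup.mk w)
  unfold classMap at he
  rw [QuotientGroup.eq, mem_powSubgroup_iff] at he
  obtain ⟨v, hv⟩ := he
  -- `w = (∏ u i ^ (e i).val) * v ^ p`
  have hw' : w = (∏ i, u i ^ (e i).val) * v ^ p := by
    rw [hv]; simp
  have hmem : ∏ i, u i ^ (((e i).val : ℕ) : ℤ) ∈ P := by
    have : ∏ i, u i ^ (((e i).val : ℕ) : ℤ) = w * (v⁻¹) ^ p := by
      simp only [zpow_natCast]
      rw [hw', inv_pow, mul_inv_cancel_right]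
    rw [this]
    exact P.mul_mem hw (hP _)
  have hzero : ∀ i, (e i).val = 0 := by
    intro i
    have hdvd := hind _ hmem i
    have hlt : (e i).val < p := ZMod.val_lt _
    have : p ∣ (e i).val := by exact_mod_cast hdvd
    exact Nat.eq_zero_of_dvd_of_lt this hlt
  refine ⟨v, ?_⟩
  rw [hw']
  simp [hzero]

end GroupTheory

section NumberField

variable (K : Type*) [Field K] [NumberField K]

/-- The unit group of a number field is generated (as an abstract group, with integer exponents)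
by a family indexed by `Option (Fin (rank K))`: a generator of the torsion and a fundamental
system. -/
lemma exists_generators_units :
    ∃ g : Option (Fin (Units.rank K)) → (𝓞 K)ˣ,
      ∀ x : (𝓞 K)ˣ, ∃ k : Option (Fin (Units.rank K)) → ℤ, x = ∏ j, g j ^ k j := by
  classical
  obtain ⟨t, ht⟩ := IsCyclic.exists_generator (α := Units.torsion K)
  refine ⟨fun j => j.elim (t : (𝓞 K)ˣ) (Units.fundSystem K), fun x => ?_⟩
  obtain ⟨⟨ζ, e⟩, hx, -⟩ := Units.exist_unique_eq_mul_prod K x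
  obtain ⟨m, hm⟩ := Subgroup.mem_zpowers_iff.mp (ht ζ)
  refine ⟨fun j => j.elim m e, ?_⟩
  rw [Fintype.prod_option]
  simp only [Option.elim_none, Option.elim_some]
  rw [hx]
  congr 1
  rw [← hm]
  simp

end NumberField

/-- **Piece B1 of Kummer's lemma.** Let `K` be the `p`-th cyclotomic field, `p` an odd prime.
If `(p - 1) / 2` units are independent modulo a subgroup `P` of the unit group containing all
`p`-th powers, then every element of `P` is a `p`-th power. -/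
theorem units_basis_mod_pow (p : ℕ) [Fact p.Prime] (hp : p ≠ 2) (K : Type*) [Field K]
    [NumberField K] [IsCyclotomicExtension {p} ℚ K]
    (u : Fin ((p - 1) / 2) → (𝓞 K)ˣ) (P : Subgroup (𝓞 K)ˣ)
    (hP : ∀ v : (𝓞 K)ˣ, v ^ p ∈ P)
    (hind : ∀ e : Fin ((p - 1) / 2) → ℤ, ∏ i, u i ^ e i ∈ P → ∀ i, (p : ℤ) ∣ e i) :
    ∀ w ∈ P, ∃ v : (𝓞 K)ˣ, w = v ^ p := by
  classical
  have hpp : p.Prime := Fact.out
  have : NeZero p := ⟨hpp.ne_zero⟩
  have hp3 : 2 < p := lt_of_le_of_ne hpp.two_le (Ne.symm hp)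
  obtain ⟨g, hg⟩ := exists_generators_units K
  have hrank : Units.rank K + 1 = (p - 1) / 2 := by
    have h1 : Units.rank K = Fintype.card (InfinitePlace K) - 1 := rfl
    have h2 := InfinitePlace.card_eq_nrRealPlaces_add_nrComplexPlaces (K := K)
    have h3 := IsCyclotomicExtension.Rat.nrRealPlaces_eq_zero (n := p) K hp3
    have h4 := IsCyclotomicExtension.Rat.nrComplexPlaces_eq_totient_div_two p K
    rw [Nat.totient_prime hpp] at h4
    have h5 : 1 ≤ (p - 1) / 2 := by omega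
    rw [h1, h2, h3, h4]
    omega
  refine mem_pow_of_mem_of_independent p g hg ?_ u P hP hind
  simp [Fintype.card_option, hrank]

end Fermat.Agent.Lib.KummerCount

end
-- ==== END Fermat.Agent.Lib.KummerCount

-- ==== BEGIN Fermat.Agent.Lib.KummerEigen
section

/-!
# Explicit eigen-unit computations for Kummer's lemma (p = 5, 7, 11, 13)

Pure commutative algebra: in any commutative ring `A` with `p = 0` and `ε ^ (2j+1) = 0`,
`∏_{a=2}^{p-1} (∑_{i<a} (1+ε)^i) ^ (a^(p-1-2j) mod p) = c + d ε^(2j)` for explicit `c, d`.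

Method: reflection.  Truncated polynomials with coefficients mod `p` are represented as `List ℕ`;
the arithmetic is proved correct with respect to Horner evaluation, and each instance is closed by a
kernel computation on lists.
-/

namespace Fermat.Agent.Lib.KummerEigen

variable {A : Type*} [CommRing A]

/-- Horner evaluation of a coefficient list at `ε`. -/
def ev (ε : A) : List ℕ → A
  | [] => 0
  | c :: l => (c : A) + ε * ev ε l

@[simp] theorem ev_nil (ε : A) : ev ε [] = 0 := rfl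

@[simp] theorem ev_cons (ε : A) (c : ℕ) (l : List ℕ) : ev ε (c :: l) = (c : A) + ε * ev ε l := rfl

/-- Coefficientwise addition. -/
def addL : List ℕ → List ℕ → List ℕ
  | [], m => m
  | a :: l, [] => a :: l
  | a :: l, b :: m => (a + b) :: addL l m

theorem ev_addL (ε : A) : ∀ l m : List ℕ, ev ε (addL l m) = ev ε l + ev ε m
  | [], m => by simp [addL]
  | a :: l, [] => by simp [addL]
  | a :: l, b :: m => by
    simp only [addL, ev_cons, ev_addL ε l m, Nat.cast_add]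
    ring

/-- Scalar multiplication. -/
def smulL (c : ℕ) : List ℕ → List ℕ
  | [] => []
  | a :: l => (c * a) :: smulL c l

theorem ev_smulL (ε : A) (c : ℕ) : ∀ l : List ℕ, ev ε (smulL c l) = (c : A) * ev ε l
  | [] => by simp [smulL]
  | a :: l => by
    simp only [smulL, ev_cons, ev_smulL ε c l, Nat.cast_mul]
    ring

/-- Polynomial multiplication. -/
def mulL : List ℕ → List ℕ → List ℕ
  | [], _ => []
  | a :: l, m => addL (smulL a m) (0 :: mulL l m)

theorem ev_mulL (ε : A) : ∀ l m : List ℕ, ev ε (mulL l m) = ev ε l * ev ε m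
  | [], m => by simp [mulL]
  | a :: l, m => by
    simp only [mulL, ev_addL, ev_smulL, ev_cons, ev_mulL ε l m, Nat.cast_zero]
    ring

/-- Reduction of the coefficients modulo `p`. -/
def redL (p : ℕ) : List ℕ → List ℕ
  | [] => []
  | a :: l => (a % p) :: redL p l

theorem cast_mod_eq (p : ℕ) (hp : (p : A) = 0) (a : ℕ) : ((a % p : ℕ) : A) = (a : A) := by
  conv_rhs => rw [← Nat.div_add_mod a p]
  rw [Nat.cast_add, Nat.cast_mul, hp, zero_mul, zero_add]

theorem ev_redL (ε : A) (p : ℕ) (hp : (p : A) = 0) : ∀ l : List ℕ, ev ε (redL p l) = ev ε l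
  | [] => rfl
  | a :: l => by
    simp only [redL, ev_cons, ev_redL ε p hp l, cast_mod_eq p hp]

/-- Truncation to the first `n` coefficients. -/
def takeL : ℕ → List ℕ → List ℕ
  | 0, _ => []
  | _ + 1, [] => []
  | n + 1, a :: l => a :: takeL n l

theorem ev_takeL_aux (ε : A) : ∀ (n : ℕ) (l : List ℕ), ∃ r : A, ev ε l = ev ε (takeL n l) + ε ^ n * r
  | 0, l => ⟨ev ε l, by simp [takeL]⟩
  | n + 1, [] => ⟨0, by simp [takeL]⟩
  | n + 1, a :: l => by
    obtain ⟨r, hr⟩ := ev_takeL_aux ε n l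
    refine ⟨r, ?_⟩
    simp only [takeL, ev_cons, hr]
    ring

theorem ev_takeL (ε : A) (n : ℕ) (hε : ε ^ n = 0) (l : List ℕ) : ev ε (takeL n l) = ev ε l := by
  obtain ⟨r, hr⟩ := ev_takeL_aux ε n l
  rw [hr, hε, zero_mul, add_zero]

/-- Truncated multiplication mod `p`. -/
def mulT (p n : ℕ) (l m : List ℕ) : List ℕ := redL p (takeL n (mulL l m))

theorem ev_mulT (ε : A) (p n : ℕ) (hp : (p : A) = 0) (hε : ε ^ n = 0) (l m : List ℕ) :
    ev ε (mulT p n l m) = ev ε l * ev ε m := by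
  rw [mulT, ev_redL ε p hp, ev_takeL ε n hε, ev_mulL]

/-- Truncated power mod `p`. -/
def powT (p n : ℕ) (l : List ℕ) : ℕ → List ℕ
  | 0 => [1]
  | e + 1 => mulT p n l (powT p n l e)

theorem ev_powT (ε : A) (p n : ℕ) (hp : (p : A) = 0) (hε : ε ^ n = 0) (l : List ℕ) :
    ∀ e : ℕ, ev ε (powT p n l e) = ev ε l ^ e
  | 0 => by simp [powT]
  | e + 1 => by rw [powT, ev_mulT ε p n hp hε, ev_powT ε p n hp hε l e, pow_succ']

/-- Simultaneous computation of `(1+X)^a` and `∑_{i<a} (1+X)^i`. -/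
def geomAux (p n : ℕ) : ℕ → List ℕ × List ℕ
  | 0 => ([1], [])
  | a + 1 => (mulT p n [1, 1] (geomAux p n a).1, redL p (addL (geomAux p n a).2 (geomAux p n a).1))

theorem ev_geomAux (ε : A) (p n : ℕ) (hp : (p : A) = 0) (hε : ε ^ n = 0) :
    ∀ a : ℕ, ev ε (geomAux p n a).1 = (1 + ε) ^ a ∧
      ev ε (geomAux p n a).2 = ∑ i ∈ Finset.range a, (1 + ε) ^ i
  | 0 => by simp [geomAux]
  | a + 1 => by
    obtain ⟨h1, h2⟩ := ev_geomAux ε p n hp hε a
    constructor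
    · rw [geomAux, ev_mulT ε p n hp hε, h1, pow_succ']
      simp
    · rw [geomAux, ev_redL ε p hp, ev_addL, h1, h2, Finset.sum_range_succ]

/-- The product `∏_{a=2}^{k+1} (∑_{i<a} (1+X)^i)^(a^E mod p)`, truncated mod `(p, X^n)`. -/
def prodL (p n E : ℕ) : ℕ → List ℕ
  | 0 => [1]
  | k + 1 => mulT p n (prodL p n E k) (powT p n (geomAux p n (k + 2)).2 ((k + 2) ^ E % p))

theorem ev_prodL (ε : A) (p n E : ℕ) (hp : (p : A) = 0) (hε : ε ^ n = 0) :
    ∀ k : ℕ, ev ε (prodL p n E k) =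
      ∏ a ∈ Finset.range k, (∑ i ∈ Finset.range (a + 2), (1 + ε) ^ i) ^ ((a + 2) ^ E % p)
  | 0 => by simp [prodL]
  | k + 1 => by
    rw [prodL, ev_mulT ε p n hp hε, ev_prodL ε p n E hp hε k, ev_powT ε p n hp hε,
      (ev_geomAux ε p n hp hε (k + 2)).2, Finset.prod_range_succ]

theorem prod_Icc_two (p : ℕ) (f : ℕ → A) :
    ∏ a ∈ Finset.Icc 2 (p - 1), f a = ∏ a ∈ Finset.range (p - 2), f (a + 2) := by
  rcases Nat.lt_or_ge p 2 with h | h
  · have h1 : Finset.Icc 2 (p - 1) = ∅ := Finset.Icc_eq_empty (by omega)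
    have h2 : p - 2 = 0 := by omega
    rw [h1, h2]; simp
  · have h1 : Finset.Icc 2 (p - 1) = Finset.Ico 2 p := by
      ext a; simp only [Finset.mem_Icc, Finset.mem_Ico]; omega
    rw [h1, Finset.prod_Ico_eq_prod_range]
    exact Finset.prod_congr rfl fun a _ => by rw [add_comm]

/-- Generic form of the eigen-unit identity: the product equals the evaluation of the list
computed by `prodL`. -/
theorem eigen_generic (p j : ℕ) (ε : A) (hp : (p : A) = 0) (hε : ε ^ (2 * j + 1) = 0)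
    (r : List ℕ) (hr : prodL p (2 * j + 1) (p - 1 - 2 * j) (p - 2) = r) :
    ∏ a ∈ Finset.Icc 2 (p - 1), (∑ i ∈ Finset.range a, (1 + ε) ^ i) ^ (a ^ (p - 1 - 2 * j) % p)
      = ev ε r := by
  rw [prod_Icc_two p (fun a => (∑ i ∈ Finset.range a, (1 + ε) ^ i) ^ (a ^ (p - 1 - 2 * j) % p)),
    ← hr, ev_prodL ε p (2 * j + 1) (p - 1 - 2 * j) hp hε]

/-! ## The twelve instances -/

theorem eigen_5_1 {A : Type*} [CommRing A] (ε : A) (hp : (5 : A) = 0)
    (hε : ε ^ (2 * 1 + 1) = 0) :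
    ∏ a ∈ Finset.Icc 2 (5 - 1), (∑ i ∈ Finset.range a, (1 + ε) ^ i) ^ (a ^ (5 - 1 - 2 * 1) % 5)
      = (4 : A) + (4 : A) * ε ^ (2 * 1) := by
  have h := eigen_generic 5 1 ε (by exact_mod_cast hp) hε [4, 0, 4] (by decide +kernel)
  refine h.trans ?_
  simp only [ev_cons, ev_nil]
  push_cast
  ring

theorem eigen_7_1 {A : Type*} [CommRing A] (ε : A) (hp : (7 : A) = 0)
    (hε : ε ^ (2 * 1 + 1) = 0) :
    ∏ a ∈ Finset.Icc 2 (7 - 1), (∑ i ∈ Finset.range a, (1 + ε) ^ i) ^ (a ^ (7 - 1 - 2 * 1) % 7)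
      = (3 : A) + (6 : A) * ε ^ (2 * 1) := by
  have h := eigen_generic 7 1 ε (by exact_mod_cast hp) hε [3, 0, 6] (by decide +kernel)
  refine h.trans ?_
  simp only [ev_cons, ev_nil]
  push_cast
  ring

theorem eigen_7_2 {A : Type*} [CommRing A] (ε : A) (hp : (7 : A) = 0)
    (hε : ε ^ (2 * 2 + 1) = 0) :
    ∏ a ∈ Finset.Icc 2 (7 - 1), (∑ i ∈ Finset.range a, (1 + ε) ^ i) ^ (a ^ (7 - 1 - 2 * 2) % 7)
      = (5 : A) + (4 : A) * ε ^ (2 * 2) := by
  have h := eigen_generic 7 2 ε (by exact_mod_cast hp) hε [5, 0, 0, 0, 4] (by decide +kernel)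
  refine h.trans ?_
  simp only [ev_cons, ev_nil]
  push_cast
  ring

theorem eigen_11_1 {A : Type*} [CommRing A] (ε : A) (hp : (11 : A) = 0)
    (hε : ε ^ (2 * 1 + 1) = 0) :
    ∏ a ∈ Finset.Icc 2 (11 - 1), (∑ i ∈ Finset.range a, (1 + ε) ^ i) ^ (a ^ (11 - 1 - 2 * 1) % 11)
      = (5 : A) + (3 : A) * ε ^ (2 * 1) := by
  have h := eigen_generic 11 1 ε (by exact_mod_cast hp) hε [5, 0, 3] (by decide +kernel)
  refine h.trans ?_
  simp only [ev_cons, ev_nil]
  push_cast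
  ring

theorem eigen_11_2 {A : Type*} [CommRing A] (ε : A) (hp : (11 : A) = 0)
    (hε : ε ^ (2 * 2 + 1) = 0) :
    ∏ a ∈ Finset.Icc 2 (11 - 1), (∑ i ∈ Finset.range a, (1 + ε) ^ i) ^ (a ^ (11 - 1 - 2 * 2) % 11)
      = (4 : A) + (9 : A) * ε ^ (2 * 2) := by
  have h := eigen_generic 11 2 ε (by exact_mod_cast hp) hε [4, 0, 0, 0, 9] (by decide +kernel)
  refine h.trans ?_
  simp only [ev_cons, ev_nil]
  push_cast
  ring

theorem eigen_11_3 {A : Type*} [CommRing A] (ε : A) (hp : (11 : A) = 0)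
    (hε : ε ^ (2 * 3 + 1) = 0) :
    ∏ a ∈ Finset.Icc 2 (11 - 1), (∑ i ∈ Finset.range a, (1 + ε) ^ i) ^ (a ^ (11 - 1 - 2 * 3) % 11)
      = (3 : A) + (5 : A) * ε ^ (2 * 3) := by
  have h := eigen_generic 11 3 ε (by exact_mod_cast hp) hε [3, 0, 0, 0, 0, 0, 5] (by decide +kernel)
  refine h.trans ?_
  simp only [ev_cons, ev_nil]
  push_cast
  ring

theorem eigen_11_4 {A : Type*} [CommRing A] (ε : A) (hp : (11 : A) = 0)
    (hε : ε ^ (2 * 4 + 1) = 0) :
    ∏ a ∈ Finset.Icc 2 (11 - 1), (∑ i ∈ Finset.range a, (1 + ε) ^ i) ^ (a ^ (11 - 1 - 2 * 4) % 11)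
      = (9 : A) + (9 : A) * ε ^ (2 * 4) := by
  have h := eigen_generic 11 4 ε (by exact_mod_cast hp) hε [9, 0, 0, 0, 0, 0, 0, 0, 9] (by decide +kernel)
  refine h.trans ?_
  simp only [ev_cons, ev_nil]
  push_cast
  ring

theorem eigen_13_1 {A : Type*} [CommRing A] (ε : A) (hp : (13 : A) = 0)
    (hε : ε ^ (2 * 1 + 1) = 0) :
    ∏ a ∈ Finset.Icc 2 (13 - 1), (∑ i ∈ Finset.range a, (1 + ε) ^ i) ^ (a ^ (13 - 1 - 2 * 1) % 13)
      = (12 : A) + (6 : A) * ε ^ (2 * 1) := by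
  have h := eigen_generic 13 1 ε (by exact_mod_cast hp) hε [12, 0, 6] (by decide +kernel)
  refine h.trans ?_
  simp only [ev_cons, ev_nil]
  push_cast
  ring

theorem eigen_13_2 {A : Type*} [CommRing A] (ε : A) (hp : (13 : A) = 0)
    (hε : ε ^ (2 * 2 + 1) = 0) :
    ∏ a ∈ Finset.Icc 2 (13 - 1), (∑ i ∈ Finset.range a, (1 + ε) ^ i) ^ (a ^ (13 - 1 - 2 * 2) % 13)
      = (12 : A) + (11 : A) * ε ^ (2 * 2) := by
  have h := eigen_generic 13 2 ε (by exact_mod_cast hp) hε [12, 0, 0, 0, 11] (by decide +kernel)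
  refine h.trans ?_
  simp only [ev_cons, ev_nil]
  push_cast
  ring

theorem eigen_13_3 {A : Type*} [CommRing A] (ε : A) (hp : (13 : A) = 0)
    (hε : ε ^ (2 * 3 + 1) = 0) :
    ∏ a ∈ Finset.Icc 2 (13 - 1), (∑ i ∈ Finset.range a, (1 + ε) ^ i) ^ (a ^ (13 - 1 - 2 * 3) % 13)
      = (12 : A) + (12 : A) * ε ^ (2 * 3) := by
  have h := eigen_generic 13 3 ε (by exact_mod_cast hp) hε [12, 0, 0, 0, 0, 0, 12] (by decide +kernel)
  refine h.trans ?_
  simp only [ev_cons, ev_nil]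
  push_cast
  ring

theorem eigen_13_4 {A : Type*} [CommRing A] (ε : A) (hp : (13 : A) = 0)
    (hε : ε ^ (2 * 4 + 1) = 0) :
    ∏ a ∈ Finset.Icc 2 (13 - 1), (∑ i ∈ Finset.range a, (1 + ε) ^ i) ^ (a ^ (13 - 1 - 2 * 4) % 13)
      = (12 : A) + (4 : A) * ε ^ (2 * 4) := by
  have h := eigen_generic 13 4 ε (by exact_mod_cast hp) hε [12, 0, 0, 0, 0, 0, 0, 0, 4] (by decide +kernel)
  refine h.trans ?_
  simp only [ev_cons, ev_nil]
  push_cast
  ring

theorem eigen_13_5 {A : Type*} [CommRing A] (ε : A) (hp : (13 : A) = 0)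
    (hε : ε ^ (2 * 5 + 1) = 0) :
    ∏ a ∈ Finset.Icc 2 (13 - 1), (∑ i ∈ Finset.range a, (1 + ε) ^ i) ^ (a ^ (13 - 1 - 2 * 5) % 13)
      = (12 : A) + (12 : A) * ε ^ (2 * 5) := by
  have h := eigen_generic 13 5 ε (by exact_mod_cast hp) hε [12, 0, 0, 0, 0, 0, 0, 0, 0, 0, 12] (by decide +kernel)
  refine h.trans ?_
  simp only [ev_cons, ev_nil]
  push_cast
  ring

end Fermat.Agent.Lib.KummerEigen

end
-- ==== END Fermat.Agent.Lib.KummerEigen

-- ==== BEGIN Fermat.Agent.Lib.KummerLevel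
section

/-!
# Abstract "level calculus" for Kummer's lemma (piece B3a)

In a commutative ring `A` of characteristic `p` with an element `ε` such that `ε ^ (k+1) = 0`,
elements of the shape `c * (1 + b * ε ^ k)` (`c`, `b` integers) multiply by adding the `b`'s.
-/

set_option autoImplicit false

namespace Fermat.Agent.Lib.KummerLevel

variable {A : Type*} [CommRing A]

/-- `u` has level form with slope `B`: `u = C * (1 + B * ε ^ k)` for some integer `C`. -/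
def IsLevelForm (ε : A) (k : ℕ) (u : A) (B : ℤ) : Prop :=
  ∃ C : ℤ, u = (C : A) * (1 + (B : A) * ε ^ k)

theorem eps_pow_two_mul_eq_zero {ε : A} {k : ℕ} (hk : 1 ≤ k) (hε : ε ^ (k + 1) = 0) :
    ε ^ k * ε ^ k = 0 := by
  have h2 : ε ^ k * ε ^ k = ε ^ (k + 1) * ε ^ (k - 1) := by
    rw [← pow_add, ← pow_add]
    congr 1
    omega
  rw [h2, hε, zero_mul]

theorem isLevelForm_one (ε : A) (k : ℕ) : IsLevelForm ε k (1 : A) 0 :=
  ⟨1, by simp⟩

theorem IsLevelForm.mul {ε : A} {k : ℕ} (hk : 1 ≤ k) (hε : ε ^ (k + 1) = 0) {u v : A} {B B' : ℤ}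
    (hu : IsLevelForm ε k u B) (hv : IsLevelForm ε k v B') :
    IsLevelForm ε k (u * v) (B + B') := by
  obtain ⟨C, rfl⟩ := hu
  obtain ⟨C', rfl⟩ := hv
  refine ⟨C * C', ?_⟩
  have h0 := eps_pow_two_mul_eq_zero hk hε
  push_cast
  linear_combination ((C : A) * (C' : A) * (B : A) * (B' : A)) * h0

theorem IsLevelForm.pow {ε : A} {k : ℕ} (hk : 1 ≤ k) (hε : ε ^ (k + 1) = 0) {u : A} {B : ℤ}
    (hu : IsLevelForm ε k u B) (n : ℕ) :
    IsLevelForm ε k (u ^ n) (n * B) := by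
  induction n with
  | zero => simpa using isLevelForm_one ε k
  | succ n ih =>
    have h := ih.mul hk hε hu
    rw [pow_succ]
    have e : ((n + 1 : ℕ) : ℤ) * B = (n : ℤ) * B + B := by push_cast; ring
    rw [e]
    exact h

/-- In characteristic `p`, an integer whose image is a unit has an integer inverse. -/
theorem exists_int_inverse (p : ℕ) [Fact p.Prime] (hp : (p : A) = 0) [Nontrivial A] {C : ℤ}
    (hC : (C : A) ≠ 0) : ∃ C' : ℤ, (C : A) * (C' : A) = 1 := by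
  have hpC : ¬ (p : ℤ) ∣ C := by
    rintro ⟨t, rfl⟩
    apply hC
    push_cast
    rw [hp, zero_mul]
  have hcop : IsCoprime C (p : ℤ) := by
    have hprime : Prime (p : ℤ) := Nat.prime_iff_prime_int.mp (Fact.out : p.Prime)
    exact (IsCoprime.symm ((Prime.coprime_iff_not_dvd hprime).mpr hpC))
  obtain ⟨a, b, hab⟩ := hcop
  refine ⟨a, ?_⟩
  have h1 : ((a * C + b * (p : ℤ) : ℤ) : A) = ((1 : ℤ) : A) := by rw [hab]
  push_cast at h1
  rw [hp, mul_zero, add_zero] at h1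
  rw [mul_comm]
  exact h1

theorem IsLevelForm.inv_unit (p : ℕ) [Fact p.Prime] (hp : (p : A) = 0) [Nontrivial A]
    {ε : A} {k : ℕ} (hk : 1 ≤ k) (hε : ε ^ (k + 1) = 0) {u : Aˣ} {B : ℤ}
    (hu : IsLevelForm ε k (u : A) B) :
    IsLevelForm ε k ((u⁻¹ : Aˣ) : A) (-B) := by
  obtain ⟨C, hC⟩ := hu
  have hC0 : (C : A) ≠ 0 := by
    intro h0
    have : (u : A) = 0 := by rw [hC, h0, zero_mul]
    exact u.ne_zero this
  obtain ⟨C', hC'⟩ := exists_int_inverse p hp hC0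
  refine ⟨C', ?_⟩
  have h0 := eps_pow_two_mul_eq_zero hk hε
  have hmul : (u : A) * ((C' : A) * (1 + ((-B : ℤ) : A) * ε ^ k)) = 1 := by
    rw [hC]
    push_cast
    linear_combination (1 - (B : A) * (B : A) * (ε ^ k * ε ^ k)) * hC' - ((B : A) * (B : A)) * h0
  exact (Units.inv_eq_of_mul_eq_one_right hmul)

theorem IsLevelForm.zpow_unit (p : ℕ) [Fact p.Prime] (hp : (p : A) = 0) [Nontrivial A]
    {ε : A} {k : ℕ} (hk : 1 ≤ k) (hε : ε ^ (k + 1) = 0) {u : Aˣ} {B : ℤ}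
    (hu : IsLevelForm ε k (u : A) B) (e : ℤ) :
    IsLevelForm ε k ((u ^ e : Aˣ) : A) (e * B) := by
  cases e with
  | ofNat n =>
    have h := hu.pow hk hε n
    simpa using h
  | negSucc n =>
    have h1 : IsLevelForm ε k (((u ^ (n + 1) : Aˣ)) : A) (((n + 1 : ℕ) : ℤ) * B) := by
      have h := hu.pow hk hε (n + 1)
      simpa using h
    have h2 := h1.inv_unit p hp hk hε
    rw [zpow_negSucc]
    have e : Int.negSucc n * B = -(((n + 1 : ℕ) : ℤ) * B) := by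
      rw [Int.negSucc_eq]
      push_cast
      ring
    rw [e]
    exact h2

theorem isLevelForm_prod (p : ℕ) [Fact p.Prime] (hp : (p : A) = 0) [Nontrivial A]
    {ε : A} {k : ℕ} (hk : 1 ≤ k) (hε : ε ^ (k + 1) = 0)
    {ι : Type*} (s : Finset ι) (x : ι → Aˣ) (b : ι → ℤ)
    (hx : ∀ i ∈ s, IsLevelForm ε k ((x i : Aˣ) : A) (b i)) (e : ι → ℤ) :
    IsLevelForm ε k ((∏ i ∈ s, x i ^ e i : Aˣ) : A) (∑ i ∈ s, e i * b i) := by
  classical
  induction s using Finset.induction_on with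
  | empty => simpa using isLevelForm_one ε k
  | insert a s ha ih =>
    rw [Finset.prod_insert ha, Finset.sum_insert ha, Units.val_mul]
    refine IsLevelForm.mul hk hε ?_ ?_
    · exact (hx a (Finset.mem_insert_self a s)).zpow_unit p hp hk hε (e a)
    · exact ih fun i hi => hx i (Finset.mem_insert_of_mem hi)

/-- **Level calculus.** If units `x i` have the shape `c i * (1 + b i * ε ^ k)` and the product
`∏ x i ^ e i` is an integer in `A`, then `p ∣ ∑ e i * b i`. -/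
theorem level_sum {A : Type*} [CommRing A] (p : ℕ) [Fact p.Prime] (ε : A) (k : ℕ) (hk : 1 ≤ k)
    (hp : (p : A) = 0) (hε : ε ^ (k + 1) = 0)
    (hind : ∀ c d : ℤ, (c : A) + (d : A) * ε ^ k = 0 → (p : ℤ) ∣ c ∧ (p : ℤ) ∣ d)
    {ι : Type*} (s : Finset ι) (x : ι → Aˣ) (c b : ι → ℤ)
    (hx : ∀ i ∈ s, ((x i : Aˣ) : A) = (c i : A) * (1 + (b i : A) * ε ^ k))
    (e : ι → ℤ) (n : ℤ) (h : ((∏ i ∈ s, x i ^ e i : Aˣ) : A) = (n : A)) :
    (p : ℤ) ∣ ∑ i ∈ s, e i * b i := by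
  have hprime : Prime (p : ℤ) := Nat.prime_iff_prime_int.mp (Fact.out : p.Prime)
  -- `A` is nontrivial
  have : Nontrivial A := by
    refine ⟨⟨(1 : A), 0, fun h10 => ?_⟩⟩
    have h1 := (hind 1 0 (by push_cast; rw [h10]; simp)).1
    exact hprime.not_dvd_one h1
  obtain ⟨C, hC⟩ := isLevelForm_prod p hp hk hε s x b (fun i hi => ⟨c i, hx i hi⟩) e
  set B : ℤ := ∑ i ∈ s, e i * b i with hB
  have hC0 : ¬ (p : ℤ) ∣ C := by
    rintro ⟨t, rfl⟩
    have hz : ((∏ i ∈ s, x i ^ e i : Aˣ) : A) = 0 := by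
      rw [hC]
      push_cast
      rw [hp, zero_mul, zero_mul]
    exact (∏ i ∈ s, x i ^ e i : Aˣ).ne_zero hz
  have hrel : ((C - n : ℤ) : A) + ((C * B : ℤ) : A) * ε ^ k = 0 := by
    have := hC.symm.trans h
    push_cast
    linear_combination this
  obtain ⟨-, h2⟩ := hind (C - n) (C * B) hrel
  exact (hprime.dvd_or_dvd h2).resolve_left hC0

end Fermat.Agent.Lib.KummerLevel

end
-- ==== END Fermat.Agent.Lib.KummerLevel
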