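-- GENERATED (merged mirror, NOTES/tools/trim/merge3_helper67.py): 10 modules of the originals, bodies verbatim.
import Mathlib
import Fermat.Statements.S10
import Fermat.Statements.S11
import Fermat.Agent.Zm.S09_L01_000
import Fermat.Agent.Zm.S09_L01_001
import Fermat.Agent.Lib.KummerFrob

-- ==== BEGIN Fermat.Agent.Lib.CyclotomicPIDEleven
section

/-!
# `ℤ[ζ_11]` is a principal ideal domain (p = 11)

Helper for the direct `FLT_p` route (Kummer) to S10/S11.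
Main result: `Fermat.Agent.Lib.CyclotomicPID.eleven_pid`.
-/

open NumberField Polynomial InfinitePlace Nat Real cyclotomic Ideal Module

namespace Fermat.Agent.Lib.CyclotomicPID

universe u

variable (K : Type u) [Field K] [NumberField K]

theorem eleven_minkowski_lt [IsCyclotomicExtension {11} ℚ K] :
    (4 / π) ^ nrComplexPlaces K *
      (((finrank ℚ K)! : ℝ) / (finrank ℚ K : ℝ) ^ finrank ℚ K * √|(NumberField.discr K : ℝ)|)
        < 59 := by
  have : Fact (Nat.Prime 11) := ⟨by norm_num⟩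
  rw [IsCyclotomicExtension.Rat.discr_prime 11 K, IsCyclotomicExtension.finrank (n := 11) K
    (irreducible_rat (by simp)), IsCyclotomicExtension.Rat.nrComplexPlaces_eq_totient_div_two 11,
    totient_prime (by norm_num : Nat.Prime 11)]
  have hfact : (10 : ℕ)! = 3628800 := by decide
  have hpi : (4 / π) < 1.27325 := by
    rw [div_lt_iff₀ Real.pi_pos]
    have := Real.pi_gt_d6
    linarith
  have hpi0 : (0:ℝ) < 4 / π := by positivity
  have hsq : √|(((-1 : ℤ) ^ ((11 - 1) / 2) * (11 : ℤ) ^ (11 - 2) : ℤ) : ℝ)| < 48558.71 := by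
    rw [show |(((-1 : ℤ) ^ ((11 - 1) / 2) * (11 : ℤ) ^ (11 - 2) : ℤ) : ℝ)| = 2357947691 by
      norm_num [abs_of_pos]]
    rw [Real.sqrt_lt' (by norm_num)]
    norm_num
  have hpow : (4 / π) ^ ((11 - 1) / 2) < 1.27325 ^ 5 := by
    show (4 / π) ^ 5 < 1.27325 ^ 5
    gcongr
  simp only [show (11 - 1 : ℕ) = 10 by norm_num, hfact]
  calc (4 / π) ^ (10 / 2) * (((3628800 : ℕ) : ℝ) / ((10 : ℕ) : ℝ) ^ 10 *
        √|(((-1 : ℤ) ^ (10 / 2) * (11 : ℤ) ^ (11 - 2) : ℤ) : ℝ)|)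
      ≤ 1.27325 ^ 5 * (((3628800 : ℕ) : ℝ) / ((10 : ℕ) : ℝ) ^ 10 * 48558.71) := by
        gcongr
    _ < 59 := by norm_num

theorem eleven_zeta_relation [IsCyclotomicExtension {11} ℚ K] :
    ∀ ζ : 𝓞 K, ζ = (IsCyclotomicExtension.zeta_spec 11 ℚ K).toInteger →
      1 + ζ + ζ ^ 2 + ζ ^ 3 + ζ ^ 4 + ζ ^ 5 + ζ ^ 6 + ζ ^ 7 + ζ ^ 8 + ζ ^ 9 + ζ ^ 10 = 0 := by
  intro ζ hζ
  have h := (IsCyclotomicExtension.zeta_spec 11 ℚ K).toInteger_isPrimitiveRoot.geom_sum_eq_zero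
    (by norm_num)
  rw [← hζ] at h
  simpa [Finset.sum_range_succ] using h

theorem eleven_exists_isPrincipal_23 [IsCyclotomicExtension {11} ℚ K] (B : ℕ) :
    ∃ P ∈ (span {((23 : ℕ) : ℤ)}).primesOver (𝓞 K),
      B < 23 ^ P.inertiaDeg ℤ ∨ Submodule.IsPrincipal P := by
  have hr : ∑ i ∈ Finset.range 11, (((4 : ℤ)) : ZMod 23) ^ i = 0 := by decide
  have : Fact (Nat.Prime 11) := ⟨by norm_num⟩
  have : Fact (Nat.Prime 23) := ⟨by norm_num⟩
  obtain ⟨ζ, hζ⟩ : ∃ ζ : 𝓞 K, ζ = (IsCyclotomicExtension.zeta_spec 11 ℚ K).toInteger := ⟨_, rfl⟩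
  have hΦ := eleven_zeta_relation K ζ hζ
  refine exists_primesOver_isPrincipal_of_data K (p := 11) 23 4 hr ζ hζ
    (1 + ζ + ζ ^ 3)
    (-2 - 14 * ζ - 17 * ζ ^ 2 - 12 * ζ ^ 3 - 5 * ζ ^ 4 - 9 * ζ ^ 5 - 10 * ζ ^ 6 - 16 * ζ ^ 7 - 6 * ζ ^ 8 - 15 * ζ ^ 9)
    (1 + 3 * ζ + 3 * ζ ^ 2 + 2 * ζ ^ 3 + ζ ^ 4 + 2 * ζ ^ 5 + 2 * ζ ^ 6 + 3 * ζ ^ 7 + ζ ^ 8 + 3 * ζ ^ 9)
    (3)
    (17 + 4 * ζ + ζ ^ 2) ?_ ?_ ?_ B
  · push_cast
    linear_combination (-25 + 9 * ζ - 15 * ζ ^ 2) * hΦ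
  · push_cast
    linear_combination (5 - 2 * ζ + 3 * ζ ^ 2) * hΦ
  · push_cast
    ring

/-- If `IsCyclotomicExtension {11} ℚ K` then `𝓞 K` is a principal ideal domain. -/
theorem eleven_pid [IsCyclotomicExtension {11} ℚ K] : IsPrincipalIdealRing (𝓞 K) := by
  have : Fact (Nat.Prime 11) := ⟨by norm_num⟩
  have : IsGalois ℚ K := IsCyclotomicExtension.isGalois {11} ℚ K
  have hM := eleven_minkowski_lt K
  have hfloor : ⌊(4 / π) ^ nrComplexPlaces K *
      (((finrank ℚ K)! : ℝ) / (finrank ℚ K : ℝ) ^ finrank ℚ K * √|(NumberField.discr K : ℝ)|)⌋₊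
        ≤ 58 := by
    rw [← Nat.lt_succ_iff]
    exact (Nat.floor_lt (by positivity)).mpr (by exact_mod_cast hM)
  apply RingOfIntegers.isPrincipalIdealRing_of_isPrincipal_of_lt_or_isPrincipal_of_mem_primesOver_of_mem_Icc
  intro q hq hqp
  rw [Finset.mem_Icc] at hq
  have hqB : q ≤ 58 := hq.2.trans hfloor
  have hq2 := hqp.two_le
  have hfl : ∀ n : ℕ, 58 < n → ⌊(4 / π) ^ nrComplexPlaces K *
      (((finrank ℚ K)! : ℝ) / (finrank ℚ K : ℝ) ^ finrank ℚ K * √|(NumberField.discr K : ℝ)|)⌋₊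
        < n := fun n hn => hfloor.trans_lt hn
  clear hq
  interval_cases q
  · exact exists_primesOver_lt_pow' (m := 11) K 2 hqp (by norm_num) _ 6 10
      (hfl _ (by norm_num)) (by norm_num) (by decide) (by decide)
  · exact exists_primesOver_lt_pow' (m := 11) K 3 hqp (by norm_num) _ 4 10
      (hfl _ (by norm_num)) (by norm_num) (by decide) (by decide)
  · exact absurd hqp (by norm_num)
  · exact exists_primesOver_lt_pow' (m := 11) K 5 hqp (by norm_num) _ 3 10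
      (hfl _ (by norm_num)) (by norm_num) (by decide) (by decide)
  · exact absurd hqp (by norm_num)
  · exact exists_primesOver_lt_pow' (m := 11) K 7 hqp (by norm_num) _ 3 10
      (hfl _ (by norm_num)) (by norm_num) (by decide) (by decide)
  · exact absurd hqp (by norm_num)
  · exact absurd hqp (by norm_num)
  · exact absurd hqp (by norm_num)
  · exact exists_primesOver_self_isPrincipal K (p := 11) _
  · exact absurd hqp (by norm_num)
  · exact exists_primesOver_lt_pow' (m := 11) K 13 hqp (by norm_num) _ 2 10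
      (hfl _ (by norm_num)) (by norm_num) (by decide) (by decide)
  · exact absurd hqp (by norm_num)
  · exact absurd hqp (by norm_num)
  · exact absurd hqp (by norm_num)
  · exact exists_primesOver_lt_pow' (m := 11) K 17 hqp (by norm_num) _ 2 10
      (hfl _ (by norm_num)) (by norm_num) (by decide) (by decide)
  · exact absurd hqp (by norm_num)
  · exact exists_primesOver_lt_pow' (m := 11) K 19 hqp (by norm_num) _ 2 10
      (hfl _ (by norm_num)) (by norm_num) (by decide) (by decide)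
  · exact absurd hqp (by norm_num)
  · exact absurd hqp (by norm_num)
  · exact absurd hqp (by norm_num)
  · exact eleven_exists_isPrincipal_23 K _
  · exact absurd hqp (by norm_num)
  · exact absurd hqp (by norm_num)
  · exact absurd hqp (by norm_num)
  · exact absurd hqp (by norm_num)
  · exact absurd hqp (by norm_num)
  · exact exists_primesOver_lt_pow' (m := 11) K 29 hqp (by norm_num) _ 2 10
      (hfl _ (by norm_num)) (by norm_num) (by decide) (by decide)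
  · exact absurd hqp (by norm_num)
  · exact exists_primesOver_lt_pow' (m := 11) K 31 hqp (by norm_num) _ 2 10
      (hfl _ (by norm_num)) (by norm_num) (by decide) (by decide)
  · exact absurd hqp (by norm_num)
  · exact absurd hqp (by norm_num)
  · exact absurd hqp (by norm_num)
  · exact absurd hqp (by norm_num)
  · exact absurd hqp (by norm_num)
  · exact exists_primesOver_lt_pow' (m := 11) K 37 hqp (by norm_num) _ 2 10
      (hfl _ (by norm_num)) (by norm_num) (by decide) (by decide)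
  · exact absurd hqp (by norm_num)
  · exact absurd hqp (by norm_num)
  · exact absurd hqp (by norm_num)
  · exact exists_primesOver_lt_pow' (m := 11) K 41 hqp (by norm_num) _ 2 10
      (hfl _ (by norm_num)) (by norm_num) (by decide) (by decide)
  · exact absurd hqp (by norm_num)
  · exact exists_primesOver_lt_pow' (m := 11) K 43 hqp (by norm_num) _ 2 10
      (hfl _ (by norm_num)) (by norm_num) (by decide) (by decide)
  · exact absurd hqp (by norm_num)
  · exact absurd hqp (by norm_num)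
  · exact absurd hqp (by norm_num)
  · exact exists_primesOver_lt_pow' (m := 11) K 47 hqp (by norm_num) _ 2 10
      (hfl _ (by norm_num)) (by norm_num) (by decide) (by decide)
  · exact absurd hqp (by norm_num)
  · exact absurd hqp (by norm_num)
  · exact absurd hqp (by norm_num)
  · exact absurd hqp (by norm_num)
  · exact absurd hqp (by norm_num)
  · exact exists_primesOver_lt_pow' (m := 11) K 53 hqp (by norm_num) _ 2 10
      (hfl _ (by norm_num)) (by norm_num) (by decide) (by decide)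
  · exact absurd hqp (by norm_num)
  · exact absurd hqp (by norm_num)
  · exact absurd hqp (by norm_num)
  · exact absurd hqp (by norm_num)
  · exact absurd hqp (by norm_num)

end Fermat.Agent.Lib.CyclotomicPID


end
-- ==== END Fermat.Agent.Lib.CyclotomicPIDEleven

-- ==== BEGIN Fermat.Agent.Lib.FLTp.CaseII
section

/-!
# Second case of Fermat's Last Theorem for a prime `p` such that `ℤ[ζ_p]` is a PID and
Kummer's lemma holds.
-/

set_option autoImplicit false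

namespace Fermat.Agent.Lib.FLTp.CaseII

open NumberField Polynomial

section

variable {p : ℕ} [hp : Fact p.Prime] {K : Type*} [Field K] [NumberField K]
  [hK : IsCyclotomicExtension {p} ℚ K] {ζ : K} (hζ : IsPrimitiveRoot ζ p)

include hζ in
lemma pow_congr_int_aux (x : 𝓞 K) : ∃ n : ℤ, (p : 𝓞 K) ∣ x ^ p - n := by
  have htop : Algebra.adjoin ℤ {hζ.toInteger} = ⊤ := by
    rw [← hζ.integralPowerBasis_gen]
    exact hζ.integralPowerBasis.adjoin_gen_eq_top
  have hx : x ∈ Algebra.adjoin ℤ {hζ.toInteger} := by rw [htop]; trivial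
  induction hx using Algebra.adjoin_induction with
  | mem y hy =>
    rw [Set.mem_singleton_iff] at hy
    refine ⟨1, ?_⟩
    rw [hy, hζ.toInteger_isPrimitiveRoot.pow_eq_one]
    simp
  | algebraMap r =>
    refine ⟨r ^ p, ?_⟩
    simp
  | add y z _ _ hy hz =>
    obtain ⟨n, hn⟩ := hy
    obtain ⟨m, hm⟩ := hz
    obtain ⟨r, hr⟩ := exists_add_pow_prime_eq hp.out y z
    refine ⟨n + m, ?_⟩
    have : (y + z) ^ p - ((n + m : ℤ) : 𝓞 K) = (y ^ p - n) + (z ^ p - m) + p * (y * z * r) := by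
      rw [hr]; push_cast; ring
    rw [this]
    exact dvd_add (dvd_add hn hm) (dvd_mul_right _ _)
  | mul y z _ _ hy hz =>
    obtain ⟨n, hn⟩ := hy
    obtain ⟨m, hm⟩ := hz
    refine ⟨n * m, ?_⟩
    have : (y * z) ^ p - ((n * m : ℤ) : 𝓞 K) = (y ^ p - n) * z ^ p + n * (z ^ p - m) := by
      rw [mul_pow]; push_cast; ring
    rw [this]
    exact dvd_add (Dvd.dvd.mul_right hn _) (Dvd.dvd.mul_left hm _)

/-- The cyclotomic ring of integers satisfies the hypotheses of the descent, provided it is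
a PID (not needed here) and Kummer's lemma holds. -/
theorem cycloData (hp2 : p ≠ 2)
    (hKum : ∀ u : (𝓞 K)ˣ, (∃ n : ℤ, (p : 𝓞 K) ∣ (u : 𝓞 K) - n) → ∃ v : (𝓞 K)ˣ, u = v ^ p) :
    CycloData (𝓞 K) p hζ.toInteger where
  prime_p := hp.out
  ne_two := hp2
  prim := hζ.toInteger_isPrimitiveRoot
  prime_lam := hζ.zeta_sub_one_prime'
  card_quot := by
    have hK' : IsCyclotomicExtension {p ^ (0 + 1)} ℚ K := by simpa using hK
    have hζ' : IsPrimitiveRoot ζ (p ^ (0 + 1)) := by simpa using hζ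
    have h := IsCyclotomicExtension.Rat.absNorm_span_zeta_sub_one p 0 hζ'
    have h2 : Nat.card (𝓞 K ⧸ Ideal.span {hζ.toInteger - 1})
        = Ideal.absNorm (Ideal.span {hζ'.toInteger - 1}) := by
      rw [Ideal.absNorm_apply, Submodule.cardQuot_apply]
    rw [h2, h]
  p_dvd_lam_pow := by
    have h := IsCyclotomicExtension.Rat.associated_zeta_sub_one_pow_prime p hζ
    exact h.symm.dvd.trans (pow_dvd_pow _ (Nat.sub_le p 1))
  pow_congr_int := pow_congr_int_aux hζ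
  kummer := hKum

variable (K) in
include hK in
/-- Second case, with `p ∣ z`. -/
theorem caseII_of_dvd_z (hp2 : p ≠ 2) (hPID : IsPrincipalIdealRing (𝓞 K))
    (hKum : ∀ u : (𝓞 K)ˣ, (∃ n : ℤ, (p : 𝓞 K) ∣ (u : 𝓞 K) - n) → ∃ v : (𝓞 K)ˣ, u = v ^ p)
    {x y z : ℤ} (H : x ^ p + y ^ p = z ^ p) (hcop : IsCoprime x y) (hz : (p : ℤ) ∣ z)
    (hz0 : z ≠ 0) : False := by
  have hζ := IsCyclotomicExtension.zeta_spec p ℚ K
  have D := cycloData hζ hp2 hKum
  have hpZ : Prime (p : ℤ) := Nat.prime_iff_prime_int.1 hp.out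
  have hK' : IsCyclotomicExtension {p ^ (0 + 1)} ℚ K := by simpa using hK
  have hζ' : IsPrimitiveRoot (IsCyclotomicExtension.zeta p ℚ K) (p ^ (0 + 1)) := by
    rw [zero_add, pow_one]; exact hζ
  have hiff : ∀ n : ℤ, hζ.toInteger - 1 ∣ (n : 𝓞 K) ↔ (p : ℤ) ∣ n := fun n =>
    IsCyclotomicExtension.Rat.zeta_sub_one_dvd_intCast_iff p 0 hζ'
  have hy : ¬ (p : ℤ) ∣ y := by
    intro hy
    have hx : (p : ℤ) ∣ x ^ p := by
      have : x ^ p = z ^ p - y ^ p := by rw [← H]; ring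
      rw [this]
      exact dvd_sub (dvd_pow hz hp.out.ne_zero) (dvd_pow hy hp.out.ne_zero)
    have hx' := hpZ.dvd_of_dvd_pow hx
    exact hpZ.not_isUnit (hcop.isUnit_of_dvd' hx' hy)
  refine D.no_solution (x := (x : 𝓞 K)) (y := (y : 𝓞 K)) (z := (z : 𝓞 K)) (ε := 1)
    ?_ ?_ ?_ ?_ ?_
  · rwa [hiff]
  · exact_mod_cast hz0
  · rwa [hiff]
  · exact hcop.intCast
  · rw [Units.val_one, one_mul]
    exact_mod_cast congrArg (Int.cast : ℤ → 𝓞 K) H

variable (K) in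
include hK in
/-- **Second case of Fermat's Last Theorem** for a prime `p` such that the ring of integers of the
`p`-th cyclotomic field is a PID and Kummer's lemma holds. -/
theorem caseII (hp2 : p ≠ 2) (hPID : IsPrincipalIdealRing (𝓞 K))
    (hKum : ∀ u : (𝓞 K)ˣ, (∃ n : ℤ, (p : 𝓞 K) ∣ (u : 𝓞 K) - n) → ∃ v : (𝓞 K)ˣ, u = v ^ p)
    (a b c : ℤ) (H : a ^ p + b ^ p = c ^ p) (hab : IsCoprime a b) (hdvd : (p : ℤ) ∣ a * b * c)
    (h0 : a * b * c ≠ 0) : False := by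
  have hpZ : Prime (p : ℤ) := Nat.prime_iff_prime_int.1 hp.out
  have hodd : Odd p := hp.out.odd_of_ne_two hp2
  have hp0 : p ≠ 0 := hp.out.ne_zero
  have ha0 : a ≠ 0 := fun h => h0 (by simp [h])
  have hb0 : b ≠ 0 := fun h => h0 (by simp [h])
  have hc0 : c ≠ 0 := fun h => h0 (by simp [h])
  have hpos : 0 < p := hp.out.pos
  have hac : IsCoprime a c := by
    have h1 : IsCoprime a (c ^ p) := by
      rw [← H]
      have : IsCoprime a (b ^ p) := hab.pow_right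
      have h2 : a ^ p + b ^ p = b ^ p + a * a ^ (p - 1) := by
        rw [← pow_succ', Nat.sub_add_cancel hpos]; ring
      rw [h2]
      exact this.add_mul_left_right _
    exact (IsCoprime.pow_right_iff hpos).1 h1
  have hbc : IsCoprime b c := by
    have h1 : IsCoprime b (c ^ p) := by
      rw [← H]
      have : IsCoprime b (a ^ p) := hab.symm.pow_right
      have h2 : a ^ p + b ^ p = a ^ p + b * b ^ (p - 1) := by
        rw [← pow_succ', Nat.sub_add_cancel hpos]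
      rw [h2]
      exact this.add_mul_left_right _
    exact (IsCoprime.pow_right_iff hpos).1 h1
  rcases hpZ.dvd_or_dvd hdvd with h | hc
  · rcases hpZ.dvd_or_dvd h with ha | hb
    · -- `p ∣ a`: `b ^ p + (-c) ^ p = (-a) ^ p`
      refine caseII_of_dvd_z K hp2 hPID hKum (x := b) (y := -c) (z := -a) ?_ hbc.neg_right
        ((dvd_neg).2 ha) (neg_ne_zero.2 ha0)
      rw [hodd.neg_pow, hodd.neg_pow, ← H]; ring
    · -- `p ∣ b`: `a ^ p + (-c) ^ p = (-b) ^ p`
      refine caseII_of_dvd_z K hp2 hPID hKum (x := a) (y := -c) (z := -b) ?_ hac.neg_right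
        ((dvd_neg).2 hb) (neg_ne_zero.2 hb0)
      rw [hodd.neg_pow, hodd.neg_pow, ← H]; ring
  · exact caseII_of_dvd_z K hp2 hPID hKum H hab hc hc0

end

end Fermat.Agent.Lib.FLTp.CaseII

end
-- ==== END Fermat.Agent.Lib.FLTp.CaseII

-- ==== BEGIN Fermat.Agent.Lib.KummerAsm
section

/-!
# Kummer's lemma from explicit units with prescribed levels (assembly)

`K = ℚ(ζ_p)`, `λ = ζ - 1`. If units `u_0, …, u_r` (`r + 1 = (p-1)/2`) satisfy
`u_i ≡ c_i (1 + b_i λ^{k_i}) mod λ^{k_i+1}` with `1 ≤ k_0 < k_1 < … ≤ p - 2` and `p ∤ b_i`,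
then every unit congruent to a rational integer modulo `p` is a `p`-th power.
-/

open NumberField

namespace Fermat.Agent.Lib.KummerAsm

variable {p : ℕ} [hp : Fact p.Prime] {K : Type*} [Field K] [NumberField K]
  [hK : IsCyclotomicExtension {p} ℚ K] {ζ : K}

/-- an integer congruent mod `p` to a unit is prime to `p`. -/
lemma not_dvd_of_unit_congr (hζ : IsPrimitiveRoot ζ p) (u : (𝓞 K)ˣ) (n : ℤ)
    (h : (p : 𝓞 K) ∣ (u : 𝓞 K) - n) :
    ¬ (p : ℤ) ∣ n := by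
  intro hn
  have h1 : hζ.toInteger - 1 ∣ (p : 𝓞 K) := hζ.toInteger_sub_one_dvd_prime'
  have h2 : hζ.toInteger - 1 ∣ (n : 𝓞 K) :=
    (IsCyclotomicExtension.Rat.zeta_sub_one_dvd_intCast_iff' p hζ).2 hn
  have h3 : hζ.toInteger - 1 ∣ (u : 𝓞 K) := by
    have := dvd_add (h1.trans h) h2
    simpa using this
  exact hζ.zeta_sub_one_prime'.not_isUnit (isUnit_of_dvd_unit h3 u.isUnit)

variable (p K) in
/-- The subgroup of units congruent to a rational integer modulo `p`. -/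
def intModSubgroup (hζ : IsPrimitiveRoot ζ p) : Subgroup (𝓞 K)ˣ where
  carrier := {u | ∃ n : ℤ, (p : 𝓞 K) ∣ (u : 𝓞 K) - n}
  one_mem' := ⟨1, by simp⟩
  mul_mem' := by
    rintro a b ⟨n, hn⟩ ⟨m, hm⟩
    refine ⟨n * m, ?_⟩
    have : ((a * b : (𝓞 K)ˣ) : 𝓞 K) - ((n * m : ℤ) : 𝓞 K)
        = ((a : 𝓞 K) - n) * b + n * ((b : 𝓞 K) - m) := by push_cast; ring
    rw [this]
    exact dvd_add (hn.mul_right _) (hm.mul_left _)
  inv_mem' := by
    rintro a ⟨n, hn⟩
    have hpn : ¬ (p : ℤ) ∣ n := not_dvd_of_unit_congr hζ a n hn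
    have hcop : IsCoprime (p : ℤ) n :=
      (Nat.prime_iff_prime_int.mp hp.out).irreducible.coprime_iff_not_dvd.2 hpn
    obtain ⟨s, t, hst⟩ := hcop
    refine ⟨t, ?_⟩
    have h1 : (((a⁻¹ : (𝓞 K)ˣ) : 𝓞 K)) - (t : 𝓞 K)
        = ((a⁻¹ : (𝓞 K)ˣ) : 𝓞 K) * ((s : 𝓞 K) * p - t * ((a : 𝓞 K) - n)) := by
      have e1 : ((s * p + t * n : ℤ) : 𝓞 K) = 1 := by rw [hst]; simp
      push_cast at e1
      have e2 : ((a⁻¹ : (𝓞 K)ˣ) : 𝓞 K) * (a : 𝓞 K) = 1 := by simp
      linear_combination (t : 𝓞 K) * e2 - ((a⁻¹ : (𝓞 K)ˣ) : 𝓞 K) * e1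
    rw [h1]
    exact Dvd.dvd.mul_left (dvd_sub (dvd_mul_left _ _) (hn.mul_left _)) _

lemma mem_intModSubgroup (hζ : IsPrimitiveRoot ζ p) (u : (𝓞 K)ˣ) :
    u ∈ intModSubgroup p K hζ ↔ ∃ n : ℤ, (p : 𝓞 K) ∣ (u : 𝓞 K) - n := Iff.rfl

omit [NumberField K] hK in
/-- `λ^m ∣ p` for `m ≤ p - 1`. -/
lemma lam_pow_dvd_p (hζ : IsPrimitiveRoot ζ p) {m : ℕ} (hm : m ≤ p - 1) :
    (hζ.toInteger - 1) ^ m ∣ (p : 𝓞 K) :=
  (pow_dvd_pow _ hm).trans (IsCyclotomicExtension.Rat.associated_zeta_sub_one_pow_prime p hζ).dvd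

lemma lam_ne_zero (hζ : IsPrimitiveRoot ζ p) : (hζ.toInteger - 1 : 𝓞 K) ≠ 0 :=
  hζ.zeta_sub_one_prime'.ne_zero

/-- linear independence of `1, λ^k` modulo `λ^(k+1)` over `𝔽_p`. -/
lemma indep_mod_lam_pow (hζ : IsPrimitiveRoot ζ p) {k : ℕ} (hk1 : 1 ≤ k) (hkp : k + 1 ≤ p - 1)
    (c d : ℤ)
    (h : (hζ.toInteger - 1) ^ (k + 1) ∣ (c : 𝓞 K) + (d : 𝓞 K) * (hζ.toInteger - 1) ^ k) :
    (p : ℤ) ∣ c ∧ (p : ℤ) ∣ d := by
  set l : 𝓞 K := hζ.toInteger - 1 with hl
  have hl0 : l ≠ 0 := lam_ne_zero hζ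
  have h1 : l ∣ (c : 𝓞 K) := by
    have ha : l ∣ (c : 𝓞 K) + (d : 𝓞 K) * l ^ k := (dvd_pow_self l (by omega)).trans h
    have hb : l ∣ (d : 𝓞 K) * l ^ k := Dvd.dvd.mul_left (dvd_pow_self l (by omega)) _
    simpa using dvd_sub ha hb
  have hc : (p : ℤ) ∣ c := (IsCyclotomicExtension.Rat.zeta_sub_one_dvd_intCast_iff' p hζ).1 h1
  refine ⟨hc, ?_⟩
  have h2 : l ^ (k + 1) ∣ (c : 𝓞 K) := by
    obtain ⟨c', rfl⟩ := hc
    push_cast
    exact Dvd.dvd.mul_right (lam_pow_dvd_p hζ hkp) _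
  have h3 : l ^ (k + 1) ∣ (d : 𝓞 K) * l ^ k := by
    simpa using dvd_sub h h2
  have h4 : l ∣ (d : 𝓞 K) := by
    rw [pow_succ, mul_comm (d : 𝓞 K)] at h3
    exact (mul_dvd_mul_iff_left (pow_ne_zero k hl0)).1 h3
  exact (IsCyclotomicExtension.Rat.zeta_sub_one_dvd_intCast_iff' p hζ).1 h4

/-- **Kummer's lemma from levels.** -/
theorem kummer_of_levels (hp2 : p ≠ 2) (hζ : IsPrimitiveRoot ζ p)
    (hfrob : ∀ x : 𝓞 K, ∃ n : ℤ, (p : 𝓞 K) ∣ x ^ p - (n : 𝓞 K))
    (u : Fin ((p - 1) / 2) → (𝓞 K)ˣ) (k : Fin ((p - 1) / 2) → ℕ)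
    (hk : StrictMono k) (hk1 : ∀ i, 1 ≤ k i) (hkp : ∀ i, k i + 1 ≤ p - 1)
    (c b : Fin ((p - 1) / 2) → ℤ) (hb : ∀ i, ¬ (p : ℤ) ∣ b i)
    (hlev : ∀ i, (hζ.toInteger - 1) ^ (k i + 1) ∣
        (u i : 𝓞 K) - (c i : 𝓞 K) * (1 + (b i : 𝓞 K) * (hζ.toInteger - 1) ^ (k i)))
    (w : (𝓞 K)ˣ) (n : ℤ) (hw : (p : 𝓞 K) ∣ (w : 𝓞 K) - n) :
    ∃ v : (𝓞 K)ˣ, w = v ^ p := by
  classical
  refine Fermat.Agent.Lib.KummerCount.units_basis_mod_pow p hp2 K u (intModSubgroup p K hζ)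
    ?_ ?_ w ⟨n, hw⟩
  · intro v
    obtain ⟨m, hm⟩ := hfrob (v : 𝓞 K)
    exact ⟨m, by simpa using hm⟩
  · intro e he
    suffices H : ∀ m : ℕ, ∀ i : Fin ((p - 1) / 2), i.val = m → (p : ℤ) ∣ e i from
      fun i => H i.val i rfl
    intro m
    induction m using Nat.strong_induction_on with
    | _ m ih =>
      intro j hj
      have ih' : ∀ i : Fin ((p - 1) / 2), i < j → (p : ℤ) ∣ e i := fun i hij =>
        ih i.val (by rw [← hj]; exact hij) i rfl
      obtain ⟨n', hn'⟩ := he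
      set l : 𝓞 K := hζ.toInteger - 1 with hl
      set I : Ideal (𝓞 K) := Ideal.span {l ^ (k j + 1)} with hI
      let π : 𝓞 K →+* (𝓞 K ⧸ I) := Ideal.Quotient.mk I
      have hπ : ∀ x y : 𝓞 K, l ^ (k j + 1) ∣ x - y → π x = π y := fun x y h =>
        (Ideal.Quotient.eq).2 (Ideal.mem_span_singleton.2 h)
      have hπ0 : ∀ x : 𝓞 K, π x = 0 → l ^ (k j + 1) ∣ x := fun x h =>
        Ideal.mem_span_singleton.1 ((Ideal.Quotient.eq_zero_iff_mem).1 h)
      have hpdvd : l ^ (k j + 1) ∣ (p : 𝓞 K) := lam_pow_dvd_p hζ (hkp j)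
      have hpA : ((p : ℕ) : 𝓞 K ⧸ I) = 0 := by
        have : π (p : 𝓞 K) = 0 := by
          rw [← map_zero π]; exact hπ _ _ (by simpa using hpdvd)
        simpa using this
      have hεA : (π l) ^ (k j + 1) = 0 := by
        rw [← map_pow, ← map_zero π]; exact hπ _ _ (by simp)
      have hindA : ∀ c d : ℤ, ((c : ℤ) : 𝓞 K ⧸ I) + ((d : ℤ) : 𝓞 K ⧸ I) * (π l) ^ (k j) = 0 →
          (p : ℤ) ∣ c ∧ (p : ℤ) ∣ d := by
        intro c d h
        have : π ((c : 𝓞 K) + (d : 𝓞 K) * l ^ (k j)) = 0 := by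
          simpa using h
        exact indep_mod_lam_pow hζ (hk1 j) (hkp j) c d (hπ0 _ this)
      -- the `p`-th power parts
      have hlow : ∀ i : Fin ((p - 1) / 2), i < j → ∃ m : ℤ, π ((u i ^ e i : (𝓞 K)ˣ) : 𝓞 K) = m := by
        intro i hij
        obtain ⟨q, hq⟩ := ih' i hij
        obtain ⟨m, hm⟩ := hfrob ((u i ^ q : (𝓞 K)ˣ) : 𝓞 K)
        refine ⟨m, ?_⟩
        have e1 : ((u i ^ e i : (𝓞 K)ˣ) : 𝓞 K) = ((u i ^ q : (𝓞 K)ˣ) : 𝓞 K) ^ p := by
          rw [hq, mul_comm, zpow_mul, zpow_natCast, Units.val_pow_eq_pow_val]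
        rw [e1, ← map_intCast π]
        exact hπ _ _ (hpdvd.trans hm)
      choose! mlow hmlow using hlow
      let x : Fin ((p - 1) / 2) → (𝓞 K ⧸ I)ˣ := fun i =>
        if i < j then Units.map (π : 𝓞 K →* 𝓞 K ⧸ I) (u i ^ e i)
        else Units.map (π : 𝓞 K →* 𝓞 K ⧸ I) (u i)
      let e' : Fin ((p - 1) / 2) → ℤ := fun i => if i < j then 1 else e i
      let b' : Fin ((p - 1) / 2) → ℤ := fun i => if i = j then b j else 0
      let c' : Fin ((p - 1) / 2) → ℤ := fun i => if i < j then mlow i else c i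
      have hx : ∀ i ∈ (Finset.univ : Finset (Fin ((p - 1) / 2))),
          ((x i : (𝓞 K ⧸ I)ˣ) : 𝓞 K ⧸ I) = (c' i : 𝓞 K ⧸ I) * (1 + (b' i : 𝓞 K ⧸ I) * (π l) ^ (k j)) := by
        intro i _
        rcases lt_trichotomy i j with hij | hij | hij
        · have hne : i ≠ j := ne_of_lt hij
          simp only [x, c', b', if_pos hij, if_neg hne]
          simp only [Units.coe_map, MonoidHom.coe_coe, Int.cast_zero, zero_mul, add_zero, mul_one]
          exact hmlow i hij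
        · subst hij
          have hnlt : ¬ i < i := lt_irrefl _
          simp only [x, c', b', if_neg hnlt, if_true]
          simp only [Units.coe_map, MonoidHom.coe_coe]
          have := hπ _ _ (hlev i)
          simpa using this
        · have hnlt : ¬ i < j := not_lt.2 hij.le
          have hne : i ≠ j := ne_of_gt hij
          simp only [x, c', b', if_neg hnlt, if_neg hne]
          simp only [Units.coe_map, MonoidHom.coe_coe, Int.cast_zero, zero_mul, add_zero, mul_one]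
          have hkk : k j + 1 ≤ k i := hk hij
          have h1 : l ^ (k j + 1) ∣ (u i : 𝓞 K) - (c i : 𝓞 K) := by
            have h2 : l ^ (k j + 1) ∣ (u i : 𝓞 K) - (c i : 𝓞 K) * (1 + (b i : 𝓞 K) * l ^ (k i)) :=
              (pow_dvd_pow l (by omega)).trans (hlev i)
            have h3 : l ^ (k j + 1) ∣ (c i : 𝓞 K) * (b i : 𝓞 K) * l ^ (k i) :=
              Dvd.dvd.mul_left (pow_dvd_pow l hkk) _
            have := dvd_add h2 h3
            have e2 : (u i : 𝓞 K) - (c i : 𝓞 K) * (1 + (b i : 𝓞 K) * l ^ (k i))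
                + (c i : 𝓞 K) * (b i : 𝓞 K) * l ^ (k i) = (u i : 𝓞 K) - (c i : 𝓞 K) := by ring
            rwa [e2] at this
          have := hπ _ _ h1
          simpa using this
      have hprod : ((∏ i ∈ (Finset.univ : Finset (Fin ((p - 1) / 2))), x i ^ e' i : (𝓞 K ⧸ I)ˣ) : 𝓞 K ⧸ I)
          = ((n' : ℤ) : 𝓞 K ⧸ I) := by
        have e1 : (∏ i ∈ (Finset.univ : Finset (Fin ((p - 1) / 2))), x i ^ e' i : (𝓞 K ⧸ I)ˣ)
            = Units.map (π : 𝓞 K →* 𝓞 K ⧸ I) (∏ i, u i ^ e i) := by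
          rw [map_prod]
          refine Finset.prod_congr rfl fun i _ => ?_
          by_cases hij : i < j
          · simp only [x, e', if_pos hij, zpow_one]
          · simp only [x, e', if_neg hij, map_zpow]
        rw [e1, Units.coe_map, MonoidHom.coe_coe, ← map_intCast π]
        exact hπ _ _ (hpdvd.trans hn')
      have hsum := Fermat.Agent.Lib.KummerLevel.level_sum p (π l) (k j) (hk1 j) hpA hεA hindA
        Finset.univ x c' b' hx e' n' hprod
      have hs : ∑ i ∈ (Finset.univ : Finset (Fin ((p - 1) / 2))), e' i * b' i = e j * b j := by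
        rw [Finset.sum_eq_single j]
        · simp [e', b']
        · intro i _ hij
          simp [b', hij]
        · intro h; exact absurd (Finset.mem_univ j) h
      rw [hs] at hsum
      exact ((Nat.prime_iff_prime_int.mp hp.out).dvd_or_dvd hsum).resolve_right (hb j)

end Fermat.Agent.Lib.KummerAsm

end
-- ==== END Fermat.Agent.Lib.KummerAsm

-- ==== BEGIN Fermat.Agent.Lib.KummerUnits
section

/-!
# Cyclotomic units and Kummer's lemma from additive level data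
-/

open NumberField

namespace Fermat.Agent.Lib.KummerUnits

open Fermat.Agent.Lib.KummerAsm

variable {p : ℕ} [hp : Fact p.Prime] {K : Type*} [Field K] [NumberField K]
  [hK : IsCyclotomicExtension {p} ℚ K] {ζ : K}

/-- from the additive form `u ≡ c + d λ^k` to the multiplicative form `u ≡ c (1 + b λ^k)`. -/
lemma mul_form_of_add_form (hζ : IsPrimitiveRoot ζ p) {k : ℕ} (hk1 : 1 ≤ k)
    (hkp : k + 1 ≤ p - 1) (u : (𝓞 K)ˣ) (c d : ℤ) (hd : ¬ (p : ℤ) ∣ d)
    (h : (hζ.toInteger - 1) ^ (k + 1) ∣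
      (u : 𝓞 K) - ((c : 𝓞 K) + (d : 𝓞 K) * (hζ.toInteger - 1) ^ k)) :
    ∃ b : ℤ, ¬ (p : ℤ) ∣ b ∧ (hζ.toInteger - 1) ^ (k + 1) ∣
      (u : 𝓞 K) - (c : 𝓞 K) * (1 + (b : 𝓞 K) * (hζ.toInteger - 1) ^ k) := by
  set l : 𝓞 K := hζ.toInteger - 1 with hl
  have hprime : Prime (p : ℤ) := Nat.prime_iff_prime_int.mp hp.out
  have hc : ¬ (p : ℤ) ∣ c := by
    intro hc
    have h1 : l ∣ (c : 𝓞 K) := (IsCyclotomicExtension.Rat.zeta_sub_one_dvd_intCast_iff' p hζ).2 hc
    have h2 : l ∣ (d : 𝓞 K) * l ^ k := Dvd.dvd.mul_left (dvd_pow_self l (by omega)) _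
    have h3 : l ∣ (u : 𝓞 K) - ((c : 𝓞 K) + (d : 𝓞 K) * l ^ k) :=
      (dvd_pow_self l (by omega)).trans h
    have h4 : l ∣ (u : 𝓞 K) := by
      have := dvd_add h3 (dvd_add h1 h2)
      simpa using this
    exact hζ.zeta_sub_one_prime'.not_isUnit (isUnit_of_dvd_unit h4 u.isUnit)
  have hcop : IsCoprime (p : ℤ) c := hprime.irreducible.coprime_iff_not_dvd.2 hc
  obtain ⟨s, t, hst⟩ := hcop
  -- `t * c ≡ 1 mod p`
  have ht : ¬ (p : ℤ) ∣ t := by
    intro ht
    have : (p : ℤ) ∣ s * p + t * c := dvd_add (dvd_mul_left _ _) (ht.mul_right _)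
    rw [hst] at this
    exact hprime.not_dvd_one this
  refine ⟨t * d, fun hb => (hprime.dvd_or_dvd hb).elim ht hd, ?_⟩
  have hpd : l ^ (k + 1) ∣ (p : 𝓞 K) := lam_pow_dvd_p hζ hkp
  have e1 : ((s * p + t * c : ℤ) : 𝓞 K) = 1 := by rw [hst]; simp
  push_cast at e1
  have e2 : (u : 𝓞 K) - (c : 𝓞 K) * (1 + ((t * d : ℤ) : 𝓞 K) * l ^ k)
      = ((u : 𝓞 K) - ((c : 𝓞 K) + (d : 𝓞 K) * l ^ k)) + (p : 𝓞 K) * ((s : 𝓞 K) * d * l ^ k) := by
    push_cast
    linear_combination (-(d : 𝓞 K) * l ^ k) * e1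
  rw [e2]
  exact dvd_add h (Dvd.dvd.mul_right hpd _)

/-- **Kummer's lemma from additive level data**, indexed by `Fin r` with `r = (p-1)/2`. -/
theorem kummer_of_add_levels (hp2 : p ≠ 2) (hζ : IsPrimitiveRoot ζ p)
    (hfrob : ∀ x : 𝓞 K, ∃ n : ℤ, (p : 𝓞 K) ∣ x ^ p - (n : 𝓞 K))
    {r : ℕ} (hr : r = (p - 1) / 2)
    (u : Fin r → (𝓞 K)ˣ) (k : Fin r → ℕ)
    (hk : StrictMono k) (hk1 : ∀ i, 1 ≤ k i) (hkp : ∀ i, k i + 1 ≤ p - 1)
    (c d : Fin r → ℤ) (hd : ∀ i, ¬ (p : ℤ) ∣ d i)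
    (hlev : ∀ i, (hζ.toInteger - 1) ^ (k i + 1) ∣
        (u i : 𝓞 K) - ((c i : 𝓞 K) + (d i : 𝓞 K) * (hζ.toInteger - 1) ^ (k i)))
    (w : (𝓞 K)ˣ) (n : ℤ) (hw : (p : 𝓞 K) ∣ (w : 𝓞 K) - n) :
    ∃ v : (𝓞 K)ˣ, w = v ^ p := by
  subst hr
  have H : ∀ i, ∃ b : ℤ, ¬ (p : ℤ) ∣ b ∧ (hζ.toInteger - 1) ^ (k i + 1) ∣
      (u i : 𝓞 K) - (c i : 𝓞 K) * (1 + (b : 𝓞 K) * (hζ.toInteger - 1) ^ (k i)) := fun i =>
    mul_form_of_add_form hζ (hk1 i) (hkp i) (u i) (c i) (d i) (hd i) (hlev i)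
  choose b hb hlev' using H
  exact kummer_of_levels hp2 hζ hfrob u k hk hk1 hkp c b hb hlev' w n hw

/-- The cyclotomic unit `1 + ζ + ⋯ + ζ^(a-1)` (and `1` if `a` is not prime to `p`). -/
noncomputable def cycUnit (hζ : IsPrimitiveRoot ζ p) (a : ℕ) : (𝓞 K)ˣ :=
  if h : a.Coprime p then
    (hζ.toInteger_isPrimitiveRoot.geom_sum_isUnit hp.out.two_le h).unit
  else 1

omit [NumberField K] hK in
lemma cycUnit_val (hζ : IsPrimitiveRoot ζ p) {a : ℕ} (h : a.Coprime p) :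
    ((cycUnit hζ a : (𝓞 K)ˣ) : 𝓞 K) = ∑ i ∈ Finset.range a, hζ.toInteger ^ i := by
  unfold cycUnit
  rw [dif_pos h]
  rfl

/-- `ζ` as a unit. -/
noncomputable def zetaUnit (hζ : IsPrimitiveRoot ζ p) : (𝓞 K)ˣ :=
  (hζ.toInteger_isPrimitiveRoot.isUnit hp.out.ne_zero).unit

omit [NumberField K] hK in
lemma zetaUnit_val (hζ : IsPrimitiveRoot ζ p) :
    ((zetaUnit hζ : (𝓞 K)ˣ) : 𝓞 K) = hζ.toInteger := rfl

/-- product of powers of cyclotomic units. -/
noncomputable def eigUnit (hζ : IsPrimitiveRoot ζ p) (m : ℕ → ℕ) : (𝓞 K)ˣ :=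
  ∏ a ∈ Finset.Icc 2 (p - 1), cycUnit hζ a ^ m a

omit [NumberField K] hK in
lemma eigUnit_val (hζ : IsPrimitiveRoot ζ p) (m : ℕ → ℕ) :
    ((eigUnit hζ m : (𝓞 K)ˣ) : 𝓞 K)
      = ∏ a ∈ Finset.Icc 2 (p - 1), (∑ i ∈ Finset.range a, hζ.toInteger ^ i) ^ m a := by
  unfold eigUnit
  rw [Units.coe_prod]
  refine Finset.prod_congr rfl fun a ha => ?_
  rw [Finset.mem_Icc] at ha
  have hpos : 0 < p := hp.out.pos
  have hcop : a.Coprime p :=
    Nat.Coprime.symm ((Nat.Prime.coprime_iff_not_dvd hp.out).2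
      (Nat.not_dvd_of_pos_of_lt (by omega) (by omega)))
  rw [Units.val_pow_eq_pow_val, cycUnit_val hζ hcop]

omit [NumberField K] hK in
/-- level of a product of cyclotomic units, from a truncated polynomial identity. -/
lemma eigUnit_level (hζ : IsPrimitiveRoot ζ p) (m : ℕ → ℕ) {k : ℕ} (hkp : k + 1 ≤ p - 1)
    (c d : ℤ)
    (H : ∀ ε : 𝓞 K ⧸ Ideal.span {(hζ.toInteger - 1) ^ (k + 1)},
      ((p : ℕ) : 𝓞 K ⧸ Ideal.span {(hζ.toInteger - 1) ^ (k + 1)}) = 0 → ε ^ (k + 1) = 0 →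
      ∏ a ∈ Finset.Icc 2 (p - 1), (∑ i ∈ Finset.range a, (1 + ε) ^ i) ^ m a
        = (c : 𝓞 K ⧸ Ideal.span {(hζ.toInteger - 1) ^ (k + 1)}) + (d : 𝓞 K ⧸ _) * ε ^ k) :
    (hζ.toInteger - 1) ^ (k + 1) ∣
      ((eigUnit hζ m : (𝓞 K)ˣ) : 𝓞 K) - ((c : 𝓞 K) + (d : 𝓞 K) * (hζ.toInteger - 1) ^ k) := by
  set l : 𝓞 K := hζ.toInteger - 1 with hl
  set I : Ideal (𝓞 K) := Ideal.span {l ^ (k + 1)} with hI
  let π : 𝓞 K →+* (𝓞 K ⧸ I) := Ideal.Quotient.mk I
  have hpA : ((p : ℕ) : 𝓞 K ⧸ I) = 0 := by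
    have : π (p : 𝓞 K) = 0 :=
      (Ideal.Quotient.eq_zero_iff_mem).2 (Ideal.mem_span_singleton.2 (lam_pow_dvd_p hζ hkp))
    simpa using this
  have hεA : (π l) ^ (k + 1) = 0 := by
    rw [← map_pow]
    exact (Ideal.Quotient.eq_zero_iff_mem).2 (Ideal.mem_span_singleton.2 dvd_rfl)
  have h1 := H (π l) hpA hεA
  have hz : π hζ.toInteger = 1 + π l := by
    rw [hl, map_sub, map_one]; ring
  have h2 : π ((eigUnit hζ m : (𝓞 K)ˣ) : 𝓞 K) = π ((c : 𝓞 K) + (d : 𝓞 K) * l ^ k) := by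
    rw [eigUnit_val, map_prod]
    simp only [map_pow, map_sum, hz, map_add, map_mul, map_intCast]
    exact h1
  exact Ideal.mem_span_singleton.1 ((Ideal.Quotient.eq).1 h2)

end Fermat.Agent.Lib.KummerUnits

end
-- ==== END Fermat.Agent.Lib.KummerUnits

-- ==== BEGIN Fermat.Agent.Lib.KummerLemma11
section

/-!
# Kummer's lemma for `p = 11`
-/

open NumberField

namespace Fermat.Agent.Lib.KummerLemma11

open Fermat.Agent.Lib.KummerAsm Fermat.Agent.Lib.KummerUnits Fermat.Agent.Lib.KummerEigen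

/-- **Kummer's lemma for `p = 11`**: a unit of `ℤ[ζ_11]` congruent to a rational integer
modulo `11` is a eleventh power. -/
theorem kummer_lemma_eleven (K : Type*) [Field K] [NumberField K]
    [IsCyclotomicExtension {11} ℚ K]
    (w : (𝓞 K)ˣ) (n : ℤ) (hw : ((11 : ℕ) : 𝓞 K) ∣ (w : 𝓞 K) - n) :
    ∃ v : (𝓞 K)ˣ, w = v ^ 11 := by
  have : Fact (Nat.Prime 11) := ⟨by norm_num⟩
  have hζ := IsCyclotomicExtension.zeta_spec 11 ℚ K
  refine kummer_of_add_levels (p := 11) (by norm_num) hζ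
    (Fermat.Agent.Lib.KummerFrob.exists_int_dvd_pow_sub 11 K) (r := 5) (by norm_num)
    (fun i => if i.val = 0 then zetaUnit hζ else eigUnit hζ (fun a => a ^ (11 - 1 - 2 * i.val) % 11))
    (fun i => if i.val = 0 then 1 else 2 * i.val)
    ?_ ?_ ?_ ![1, 5, 4, 3, 9] ![1, 3, 9, 5, 9] ?_ ?_ w n hw
  · intro i j hij
    fin_cases i <;> fin_cases j <;> simp_all
  · intro i; fin_cases i <;> simp
  · intro i; fin_cases i <;> simp
  · intro i; fin_cases i <;> simp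
  · intro i
    fin_cases i
    · simp [zetaUnit_val]
    · show (hζ.toInteger - 1) ^ (2 * 1 + 1) ∣
        ((eigUnit hζ (fun a => a ^ (11 - 1 - 2 * 1) % 11) : (𝓞 K)ˣ) : 𝓞 K)
          - (((5 : ℤ) : 𝓞 K) + ((3 : ℤ) : 𝓞 K) * (hζ.toInteger - 1) ^ (2 * 1))
      refine eigUnit_level hζ _ (by norm_num) 5 3 ?_
      intro ε hp hε
      have := eigen_11_1 ε (by exact_mod_cast hp) hε
      simpa using this
    · show (hζ.toInteger - 1) ^ (2 * 2 + 1) ∣
        ((eigUnit hζ (fun a => a ^ (11 - 1 - 2 * 2) % 11) : (𝓞 K)ˣ) : 𝓞 K)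
          - (((4 : ℤ) : 𝓞 K) + ((9 : ℤ) : 𝓞 K) * (hζ.toInteger - 1) ^ (2 * 2))
      refine eigUnit_level hζ _ (by norm_num) 4 9 ?_
      intro ε hp hε
      have := eigen_11_2 ε (by exact_mod_cast hp) hε
      simpa using this
    · show (hζ.toInteger - 1) ^ (2 * 3 + 1) ∣
        ((eigUnit hζ (fun a => a ^ (11 - 1 - 2 * 3) % 11) : (𝓞 K)ˣ) : 𝓞 K)
          - (((3 : ℤ) : 𝓞 K) + ((5 : ℤ) : 𝓞 K) * (hζ.toInteger - 1) ^ (2 * 3))
      refine eigUnit_level hζ _ (by norm_num) 3 5 ?_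
      intro ε hp hε
      have := eigen_11_3 ε (by exact_mod_cast hp) hε
      simpa using this
    · show (hζ.toInteger - 1) ^ (2 * 4 + 1) ∣
        ((eigUnit hζ (fun a => a ^ (11 - 1 - 2 * 4) % 11) : (𝓞 K)ˣ) : 𝓞 K)
          - (((9 : ℤ) : 𝓞 K) + ((9 : ℤ) : 𝓞 K) * (hζ.toInteger - 1) ^ (2 * 4))
      refine eigUnit_level hζ _ (by norm_num) 9 9 ?_
      intro ε hp hε
      have := eigen_11_4 ε (by exact_mod_cast hp) hε
      simpa using this

end Fermat.Agent.Lib.KummerLemma11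

end
-- ==== END Fermat.Agent.Lib.KummerLemma11

-- ==== BEGIN Fermat.Agent.Lib.KummerLemma13
section

/-!
# Kummer's lemma for `p = 13`
-/

open NumberField

namespace Fermat.Agent.Lib.KummerLemma13

open Fermat.Agent.Lib.KummerAsm Fermat.Agent.Lib.KummerUnits Fermat.Agent.Lib.KummerEigen

/-- **Kummer's lemma for `p = 13`**: a unit of `ℤ[ζ_13]` congruent to a rational integer
modulo `13` is a thirteenth power. -/
theorem kummer_lemma_thirteen (K : Type*) [Field K] [NumberField K]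
    [IsCyclotomicExtension {13} ℚ K]
    (w : (𝓞 K)ˣ) (n : ℤ) (hw : ((13 : ℕ) : 𝓞 K) ∣ (w : 𝓞 K) - n) :
    ∃ v : (𝓞 K)ˣ, w = v ^ 13 := by
  have : Fact (Nat.Prime 13) := ⟨by norm_num⟩
  have hζ := IsCyclotomicExtension.zeta_spec 13 ℚ K
  refine kummer_of_add_levels (p := 13) (by norm_num) hζ
    (Fermat.Agent.Lib.KummerFrob.exists_int_dvd_pow_sub 13 K) (r := 6) (by norm_num)
    (fun i => if i.val = 0 then zetaUnit hζ else eigUnit hζ (fun a => a ^ (13 - 1 - 2 * i.val) % 13))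
    (fun i => if i.val = 0 then 1 else 2 * i.val)
    ?_ ?_ ?_ ![1, 12, 12, 12, 12, 12] ![1, 6, 11, 12, 4, 12] ?_ ?_ w n hw
  · intro i j hij
    fin_cases i <;> fin_cases j <;> simp_all
  · intro i; fin_cases i <;> simp
  · intro i; fin_cases i <;> simp
  · intro i; fin_cases i <;> simp
  · intro i
    fin_cases i
    · simp [zetaUnit_val]
    · show (hζ.toInteger - 1) ^ (2 * 1 + 1) ∣
        ((eigUnit hζ (fun a => a ^ (13 - 1 - 2 * 1) % 13) : (𝓞 K)ˣ) : 𝓞 K)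
          - (((12 : ℤ) : 𝓞 K) + ((6 : ℤ) : 𝓞 K) * (hζ.toInteger - 1) ^ (2 * 1))
      refine eigUnit_level hζ _ (by norm_num) 12 6 ?_
      intro ε hp hε
      have := eigen_13_1 ε (by exact_mod_cast hp) hε
      simpa using this
    · show (hζ.toInteger - 1) ^ (2 * 2 + 1) ∣
        ((eigUnit hζ (fun a => a ^ (13 - 1 - 2 * 2) % 13) : (𝓞 K)ˣ) : 𝓞 K)
          - (((12 : ℤ) : 𝓞 K) + ((11 : ℤ) : 𝓞 K) * (hζ.toInteger - 1) ^ (2 * 2))
      refine eigUnit_level hζ _ (by norm_num) 12 11 ?_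
      intro ε hp hε
      have := eigen_13_2 ε (by exact_mod_cast hp) hε
      simpa using this
    · show (hζ.toInteger - 1) ^ (2 * 3 + 1) ∣
        ((eigUnit hζ (fun a => a ^ (13 - 1 - 2 * 3) % 13) : (𝓞 K)ˣ) : 𝓞 K)
          - (((12 : ℤ) : 𝓞 K) + ((12 : ℤ) : 𝓞 K) * (hζ.toInteger - 1) ^ (2 * 3))
      refine eigUnit_level hζ _ (by norm_num) 12 12 ?_
      intro ε hp hε
      have := eigen_13_3 ε (by exact_mod_cast hp) hε
      simpa using this
    · show (hζ.toInteger - 1) ^ (2 * 4 + 1) ∣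
        ((eigUnit hζ (fun a => a ^ (13 - 1 - 2 * 4) % 13) : (𝓞 K)ˣ) : 𝓞 K)
          - (((12 : ℤ) : 𝓞 K) + ((4 : ℤ) : 𝓞 K) * (hζ.toInteger - 1) ^ (2 * 4))
      refine eigUnit_level hζ _ (by norm_num) 12 4 ?_
      intro ε hp hε
      have := eigen_13_4 ε (by exact_mod_cast hp) hε
      simpa using this
    · show (hζ.toInteger - 1) ^ (2 * 5 + 1) ∣
        ((eigUnit hζ (fun a => a ^ (13 - 1 - 2 * 5) % 13) : (𝓞 K)ˣ) : 𝓞 K)
          - (((12 : ℤ) : 𝓞 K) + ((12 : ℤ) : 𝓞 K) * (hζ.toInteger - 1) ^ (2 * 5))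
      refine eigUnit_level hζ _ (by norm_num) 12 12 ?_
      intro ε hp hε
      have := eigen_13_5 ε (by exact_mod_cast hp) hε
      simpa using this

end Fermat.Agent.Lib.KummerLemma13

end
-- ==== END Fermat.Agent.Lib.KummerLemma13

-- ==== BEGIN Fermat.Agent.Lib.KummerLemma5
section

/-!
# Kummer's lemma for `p = 5`
-/

open NumberField

namespace Fermat.Agent.Lib.KummerLemma5

open Fermat.Agent.Lib.KummerAsm Fermat.Agent.Lib.KummerUnits Fermat.Agent.Lib.KummerEigen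

/-- **Kummer's lemma for `p = 5`**: a unit of `ℤ[ζ_5]` congruent to a rational integer
modulo `5` is a fifth power. -/
theorem kummer_lemma_five (K : Type*) [Field K] [NumberField K]
    [IsCyclotomicExtension {5} ℚ K]
    (w : (𝓞 K)ˣ) (n : ℤ) (hw : ((5 : ℕ) : 𝓞 K) ∣ (w : 𝓞 K) - n) :
    ∃ v : (𝓞 K)ˣ, w = v ^ 5 := by
  have : Fact (Nat.Prime 5) := ⟨by norm_num⟩
  have hζ := IsCyclotomicExtension.zeta_spec 5 ℚ K
  refine kummer_of_add_levels (p := 5) (by norm_num) hζ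
    (Fermat.Agent.Lib.KummerFrob.exists_int_dvd_pow_sub 5 K) (r := 2) (by norm_num)
    (fun i => if i.val = 0 then zetaUnit hζ else eigUnit hζ (fun a => a ^ (5 - 1 - 2 * i.val) % 5))
    (fun i => if i.val = 0 then 1 else 2 * i.val)
    ?_ ?_ ?_ ![1, 4] ![1, 4] ?_ ?_ w n hw
  · intro i j hij
    fin_cases i <;> fin_cases j <;> simp_all
  · intro i; fin_cases i <;> simp
  · intro i; fin_cases i <;> simp
  · intro i; fin_cases i <;> simp
  · intro i
    fin_cases i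
    · simp [zetaUnit_val]
    · show (hζ.toInteger - 1) ^ (2 * 1 + 1) ∣
        ((eigUnit hζ (fun a => a ^ (5 - 1 - 2 * 1) % 5) : (𝓞 K)ˣ) : 𝓞 K)
          - (((4 : ℤ) : 𝓞 K) + ((4 : ℤ) : 𝓞 K) * (hζ.toInteger - 1) ^ (2 * 1))
      refine eigUnit_level hζ _ (by norm_num) 4 4 ?_
      intro ε hp hε
      have := eigen_5_1 ε (by exact_mod_cast hp) hε
      simpa using this

end Fermat.Agent.Lib.KummerLemma5

end
-- ==== END Fermat.Agent.Lib.KummerLemma5

-- ==== BEGIN Fermat.Agent.Lib.KummerLemma7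
section

/-!
# Kummer's lemma for `p = 7`
-/

open NumberField

namespace Fermat.Agent.Lib.KummerLemma7

open Fermat.Agent.Lib.KummerAsm Fermat.Agent.Lib.KummerUnits Fermat.Agent.Lib.KummerEigen

/-- **Kummer's lemma for `p = 7`**: a unit of `ℤ[ζ_7]` congruent to a rational integer
modulo `7` is a seventh power. -/
theorem kummer_lemma_seven (K : Type*) [Field K] [NumberField K]
    [IsCyclotomicExtension {7} ℚ K]
    (w : (𝓞 K)ˣ) (n : ℤ) (hw : ((7 : ℕ) : 𝓞 K) ∣ (w : 𝓞 K) - n) :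
    ∃ v : (𝓞 K)ˣ, w = v ^ 7 := by
  have : Fact (Nat.Prime 7) := ⟨by norm_num⟩
  have hζ := IsCyclotomicExtension.zeta_spec 7 ℚ K
  refine kummer_of_add_levels (p := 7) (by norm_num) hζ
    (Fermat.Agent.Lib.KummerFrob.exists_int_dvd_pow_sub 7 K) (r := 3) (by norm_num)
    (fun i => if i.val = 0 then zetaUnit hζ else eigUnit hζ (fun a => a ^ (7 - 1 - 2 * i.val) % 7))
    (fun i => if i.val = 0 then 1 else 2 * i.val)
    ?_ ?_ ?_ ![1, 3, 5] ![1, 6, 4] ?_ ?_ w n hw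
  · intro i j hij
    fin_cases i <;> fin_cases j <;> simp_all
  · intro i; fin_cases i <;> simp
  · intro i; fin_cases i <;> simp
  · intro i; fin_cases i <;> simp
  · intro i
    fin_cases i
    · simp [zetaUnit_val]
    · show (hζ.toInteger - 1) ^ (2 * 1 + 1) ∣
        ((eigUnit hζ (fun a => a ^ (7 - 1 - 2 * 1) % 7) : (𝓞 K)ˣ) : 𝓞 K)
          - (((3 : ℤ) : 𝓞 K) + ((6 : ℤ) : 𝓞 K) * (hζ.toInteger - 1) ^ (2 * 1))
      refine eigUnit_level hζ _ (by norm_num) 3 6 ?_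
      intro ε hp hε
      have := eigen_7_1 ε (by exact_mod_cast hp) hε
      simpa using this
    · show (hζ.toInteger - 1) ^ (2 * 2 + 1) ∣
        ((eigUnit hζ (fun a => a ^ (7 - 1 - 2 * 2) % 7) : (𝓞 K)ˣ) : 𝓞 K)
          - (((5 : ℤ) : 𝓞 K) + ((4 : ℤ) : 𝓞 K) * (hζ.toInteger - 1) ^ (2 * 2))
      refine eigUnit_level hζ _ (by norm_num) 5 4 ?_
      intro ε hp hε
      have := eigen_7_2 ε (by exact_mod_cast hp) hε
      simpa using this

end Fermat.Agent.Lib.KummerLemma7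

end
-- ==== END Fermat.Agent.Lib.KummerLemma7

-- ==== BEGIN Fermat.Agent.S10
section

set_option autoImplicit false
open WeierstrassCurve WeierstrassCurve.Affine WeierstrassCurve.Affine.Point
open CuspForm ModularFormClass UpperHalfPlane
open FreyPackage

namespace Fermat.Agent.S10

open Fermat.Agent.Lib.FLTp

/-- No Frey package has exponent `5`. -/
theorem no_frey_five (P : FreyPackage) (hp : P.p = 5) : False := by
  have : Fact (Nat.Prime 5) := ⟨by norm_num⟩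
  have := Glue.isCyclotomicExtension_cyclotomicField 5
  refine Glue.frey_false P 5 hp CaseI.caseI_five ?_
  exact CaseII.caseII (p := 5) (CyclotomicField 5 ℚ) (by norm_num)
    (IsCyclotomicExtension.Rat.five_pid (CyclotomicField 5 ℚ))
    (fun u ⟨n, hn⟩ => Fermat.Agent.Lib.KummerLemma5.kummer_lemma_five (CyclotomicField 5 ℚ) u n hn)

/-- No Frey package has exponent `7`. -/
theorem no_frey_seven (P : FreyPackage) (hp : P.p = 7) : False := by
  have : Fact (Nat.Prime 7) := ⟨by norm_num⟩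
  have := Glue.isCyclotomicExtension_cyclotomicField 7
  refine Glue.frey_false P 7 hp CaseI.caseI_seven ?_
  exact CaseII.caseII (p := 7) (CyclotomicField 7 ℚ) (by norm_num)
    (Fermat.Agent.Lib.CycloPID.seven_pid (CyclotomicField 7 ℚ))
    (fun u ⟨n, hn⟩ => Fermat.Agent.Lib.KummerLemma7.kummer_lemma_seven (CyclotomicField 7 ℚ) u n hn)

/-- No Frey package has exponent `13`. -/
theorem no_frey_thirteen (P : FreyPackage) (hp : P.p = 13) : False := by
  have : Fact (Nat.Prime 13) := ⟨by norm_num⟩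
  have := Glue.isCyclotomicExtension_cyclotomicField 13
  refine Glue.frey_false P 13 hp CaseI.caseI_thirteen ?_
  exact CaseII.caseII (p := 13) (CyclotomicField 13 ℚ) (by norm_num)
    (Fermat.Agent.Lib.Cyclo13PID.pid (K := CyclotomicField 13 ℚ))
    (fun u ⟨n, hn⟩ =>
      Fermat.Agent.Lib.KummerLemma13.kummer_lemma_thirteen (CyclotomicField 13 ℚ) u n hn)

theorem result (P : FreyPackage) (hp : P.p = 5 ∨ P.p = 7 ∨ P.p = 13) : ¬ HasGaloisStableCofixedLine (K := AlgebraicClosure ℚ) ℚ P.freyCurve P.p := by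
  intro _
  rcases hp with hp | hp | hp
  · exact no_frey_five P hp
  · exact no_frey_seven P hp
  · exact no_frey_thirteen P hp

end Fermat.Agent.S10

end
-- ==== END Fermat.Agent.S10

-- ==== BEGIN Fermat.Agent.S11
section

set_option autoImplicit false
open WeierstrassCurve WeierstrassCurve.Affine WeierstrassCurve.Affine.Point
open CuspForm ModularFormClass UpperHalfPlane
open FreyPackage

namespace Fermat.Agent.S11

/-- Fermat's Last Theorem for exponent `11` (coprime form over `ℤ`). -/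
theorem flt_eleven_coprime (a b c : ℤ) (h : a ^ 11 + b ^ 11 = c ^ 11) (hab : IsCoprime a b)
    (h0 : a * b * c ≠ 0) : False := by
  have : Fact (Nat.Prime 11) := ⟨by norm_num⟩
  have : IsCyclotomicExtension {11} ℚ (CyclotomicField 11 ℚ) :=
    CyclotomicField.isCyclotomicExtension 11 ℚ
  by_cases hdvd : ((11 : ℕ) : ℤ) ∣ a * b * c
  · exact Fermat.Agent.Lib.FLTp.CaseII.caseII (p := 11) (CyclotomicField 11 ℚ) (by norm_num)
      (Fermat.Agent.Lib.CyclotomicPID.eleven_pid _)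
      (fun u ⟨n, hn⟩ => Fermat.Agent.Lib.KummerLemma11.kummer_lemma_eleven _ u n hn)
      a b c h hab hdvd h0
  · exact Fermat.Agent.Lib.FLTp.CaseI.caseI_eleven a b c h hab hdvd

theorem result (P : FreyPackage) (hp : P.p = 11) : ¬ HasGaloisStableCofixedLine (K := AlgebraicClosure ℚ) ℚ P.freyCurve P.p := by
  intro _
  have hFLT := P.hFLT
  rw [hp] at hFLT
  have hab : IsCoprime P.a P.b := by
    rw [Int.isCoprime_iff_gcd_eq_one]
    have h := P.hgcdab
    rw [← Int.coe_gcd] at h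
    exact_mod_cast h
  exact flt_eleven_coprime P.a P.b P.c hFLT hab P.habc0

end Fermat.Agent.S11

end
-- ==== END Fermat.Agent.S11
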