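-- GENERATED (merged mirror, NOTES/tools/trim/merge3_helper67.py): 9 modules of the originals, bodies verbatim.
import Fermat.Agent.Zm.S35_L21_000
import Fermat.Agent.Zm.S35_L06_003
import Fermat.Agent.Zm.S35_L10_003
import Fermat.Agent.Zm.S35_L05_001
import Fermat.Agent.Zm.S35_L16_000
import Fermat.Agent.Zm.S35_L09_001
import Fermat.Agent.Zm.S35_L17_000
import Fermat.Agent.Zm.S35_L15_000
import Fermat.Agent.Zm.S35_L18_000
import Fermat.Agent.Zm.S35_L15_002
import Fermat.Agent.Zm.S35_L05_005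
import Fermat.Agent.Zm.S35_L04_002

-- ==== BEGIN Fermat.Agent.GTor.H81_TX
section

/-!
# G-TOR, T-X: the enriched Tate pieces of S35 / S36  (helper81)

* `tatePieceSt_of` : `Stmt_TorsSt` (all levels) + `Stmt_Y1` + `R.Stmt_S30` + G-RED
  ⟹ `S35.Stmt_TatePieceSt`.
* `tatePieceNU_of` : `Stmt_TorsNU` (all levels) + `Stmt_Y1` + `R.Stmt_S30` + G-RED
  ⟹ `S35.Stmt_TatePieceNU`.

The piece is the eigenspace of `χ = iota ∘ chig` in the limit of the coordinatised Tate system of
`J₀(M)`; at a prime `q ∣ M` write `M = M₀ q`, choose an old-killer `w` (`H81_OldKiller`) and use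
`piece_St` / `piece_NU` (`H81_StNU`).
-/

set_option autoImplicit false
set_option linter.unusedSectionVars false

noncomputable section

namespace Fermat.Agent.GTor.H81

open AlgebraicCurve ModularCurve Fermat.Agent.GTor Fermat.Agent.GTor.H58T1
open Fermat.Agent.Betti.H76 Fermat.Agent.S35.H89

/-- the product form of `X⁴ - (q² + 1) X² + q² = 0`. -/
theorem list_prod_eq_zero {R : Type} [CommRing R] {d : ℕ} (X : Matrix (Fin d) (Fin d) R) (q : ℕ)
    (h : X * X * X * X - ((q ^ 2 + 1 : ℕ) : R) • (X * X)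
      + ((q ^ 2 : ℕ) : R) • (1 : Matrix (Fin d) (Fin d) R) = 0) :
    (([1, -1, (q : R), -(q : R)] : List R).map
      (fun c => X - c • (1 : Matrix (Fin d) (Fin d) R))).prod = 0 := by
  have key : ((Polynomial.X : Polynomial R) - Polynomial.C 1) *
      ((Polynomial.X - Polynomial.C (-1)) *
        ((Polynomial.X - Polynomial.C (q : R)) * (Polynomial.X - Polynomial.C (-(q : R))))) =
      Polynomial.X * Polynomial.X * Polynomial.X * Polynomial.X
        - Polynomial.C (((q ^ 2 + 1 : ℕ) : R)) * (Polynomial.X * Polynomial.X)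
        + Polynomial.C (((q ^ 2 : ℕ) : R)) := by
    simp only [map_neg, map_one, Nat.cast_add, Nat.cast_pow, Nat.cast_one, map_add, map_pow]
    ring
  have h2 := congrArg (Polynomial.aeval X) key
  simp only [map_mul, map_sub, map_add, Polynomial.aeval_X, Polynomial.aeval_C,
    Algebra.algebraMap_eq_smul_one] at h2
  simp only [List.map_cons, List.map_nil, List.prod_cons, List.prod_nil, mul_one]
  rw [h2, ← h, Matrix.smul_mul, Matrix.one_mul]

/-- a ring homomorphism from the ring of eigenvalues to a domain of characteristic zero does not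
kill nonzero eigenvalues. -/
theorem iota_comp_ne_zero {N : ℕ} [NeZero N] {S : Set ℕ} {O' : Type} [CommRing O'] [IsDomain O']
    [CharZero O'] (chig : CuspForm.heckeAlgebra N 2 S →+* ℂ) (iota : chig.range →+* O')
    (t : CuspForm.heckeAlgebra N 2 S) (ht : chig t ≠ 0) :
    (iota.comp chig.rangeRestrict) t ≠ 0 := by
  intro h0
  have hfin : Module.Finite ℤ (CuspForm.heckeAlgebra N 2 S) := Fermat.Agent.S22.result N 2 S
  have hint : IsIntegral ℤ t := Algebra.IsIntegral.isIntegral t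
  have hint' : IsIntegral ℤ (chig.rangeRestrict t) := map_isIntegral_int chig.rangeRestrict hint
  have hnz := Fermat.Agent.S59.not_mem_nonZeroDivisors_of_mem_ker iota hint' h0
  apply hnz
  apply mem_nonZeroDivisors_of_ne_zero
  intro h1
  exact ht (congrArg Subtype.val h1)

section Clauses

variable {M q p : ℕ} [NeZero M] [NeZero q] [Fact p.Prime]

/-- **the Steinberg clause** at level `M * q`. -/
theorem st_clause (hSt : Stmt_TorsSt M q p) (hY : Stmt_Y1 M q)
    (hS30 : Fermat.Agent.R.Stmt_S30)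
    {g : CuspForm (CongruenceSubgroup.Gamma0 (M * q)) 2} (hg : g.IsNewform) (S : Finset ℕ)
    (hS : ∀ l : ℕ, l.Prime → l ∣ M * q → l ∈ S)
    (O' : Type) [CommRing O'] [IsDomain O'] [IsDiscreteValuationRing O']
    [IsAdicComplete (IsLocalRing.maximalIdeal O') O'] [CharZero O']
    (hpO' : (p : O') ∈ IsLocalRing.maximalIdeal O')
    (chig : CuspForm.heckeAlgebra (M * q) 2 (↑S : Set ℕ) →+* ℂ)
    (hchig : ∀ (ℓ : ℕ) (hℓ : ℓ.Prime) (hℓM : ¬ ℓ ∣ M * q) (hℓS : ℓ ∉ (↑S : Set ℕ)),
      chig (CuspForm.heckeAlgebra.T hℓ hℓM hℓS) = ModularFormClass.qCoeff g ℓ)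
    (iota : chig.range →+* O')
    {C : TateCoords (M * q) p (↑S : Set ℕ)} (L : TateLimit C O' hpO') (Pc : SubPiece L.ρL)
    (hPc : ∀ t, Mc O' C.M t * Pc.P = (iota.comp chig.rangeRestrict) t • Pc.P)
    (hq : q.Prime) (hqp : q ≠ p) (hqM : ¬ q ∣ M)
    (A : ValuationSubring (AlgebraicClosure ℚ)) (hA : A.LiesOverPrime q) (σ : GQ)
    (hσ : A.IsFrobeniusAt σ q) :
    (([1, -1, (q : O'), -(q : O')] : List O').map
      (fun c => Pc.rep σ - c • (1 : Matrix (Fin Pc.d) (Fin Pc.d) O'))).prod = 0 := by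
  have hpp : p.Prime := Fact.out
  obtain ⟨c, hc⟩ := hSt hq hqM hpp hqp
  obtain ⟨w, hw0, hw1⟩ := exists_oldKiller hS30 hq.ne_one hg S chig hchig
  have hS' : ∀ l : ℕ, l.Prime → l ∣ M * q → l ∈ (↑S : Set ℕ) := fun l hl h =>
    Finset.mem_coe.2 (hS l hl h)
  have ha0 := iota_comp_ne_zero chig iota _ hw1
  have hp0 : (p : O') ≠ 0 := Nat.cast_ne_zero.2 hpp.ne_zero
  exact list_prod_eq_zero _ q
    (piece_St L Pc hY hS' (hc A hA σ hσ) hw0 _ (hPc _) ha0 hp0)

/-- **the Carayol clause** at level `M * q`. -/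
theorem nu_clause (hNU : Stmt_TorsNU M q p) (hY : Stmt_Y1 M q)
    (hS30 : Fermat.Agent.R.Stmt_S30)
    {g : CuspForm (CongruenceSubgroup.Gamma0 (M * q)) 2} (hg : g.IsNewform) (S : Finset ℕ)
    (hS : ∀ l : ℕ, l.Prime → l ∣ M * q → l ∈ S)
    (O' : Type) [CommRing O'] [IsDomain O'] [IsDiscreteValuationRing O']
    [IsAdicComplete (IsLocalRing.maximalIdeal O') O'] [CharZero O']
    (hpO' : (p : O') ∈ IsLocalRing.maximalIdeal O')
    (chig : CuspForm.heckeAlgebra (M * q) 2 (↑S : Set ℕ) →+* ℂ)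
    (hchig : ∀ (ℓ : ℕ) (hℓ : ℓ.Prime) (hℓM : ¬ ℓ ∣ M * q) (hℓS : ℓ ∉ (↑S : Set ℕ)),
      chig (CuspForm.heckeAlgebra.T hℓ hℓM hℓS) = ModularFormClass.qCoeff g ℓ)
    (iota : chig.range →+* O')
    {C : TateCoords (M * q) p (↑S : Set ℕ)} (L : TateLimit C O' hpO') (Pc : SubPiece L.ρL)
    (hPc : ∀ t, Mc O' C.M t * Pc.P = (iota.comp chig.rangeRestrict) t • Pc.P)
    (hq : q.Prime) (hqp : q ≠ p) (hqM : q ∣ M) (hq2 : ¬ q ^ 2 ∣ M) :
    ∃ P : ValuationSubring (AlgebraicClosure ℚ), P.LiesOverPrime q ∧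
      ∀ v : Fin Pc.d → O', (∀ σ ∈ P.inertiaSubgroupIn ℚ, (Pc.rep σ).mulVec v = v) → v = 0 := by
  have hpp : p.Prime := Fact.out
  obtain ⟨A, hA, c, hc⟩ := hNU hq hqM hq2 hpp hqp
  obtain ⟨w, hw0, hw1⟩ := exists_oldKiller hS30 hq.ne_one hg S chig hchig
  have hS' : ∀ l : ℕ, l.Prime → l ∣ M * q → l ∈ (↑S : Set ℕ) := fun l hl h =>
    Finset.mem_coe.2 (hS l hl h)
  have ha0 := iota_comp_ne_zero chig iota _ hw1
  have hp0 : (p : O') ≠ 0 := Nat.cast_ne_zero.2 hpp.ne_zero
  exact ⟨A, hA, fun v hv => piece_NU L Pc hY hS' hc hw0 _ (hPc _) ha0 hp0 v hv⟩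

end Clauses

/-- **T-St**: the Steinberg Tate piece of S35. -/
theorem tatePieceSt_of
    (hSt : ∀ (M q p : ℕ) [NeZero M] [NeZero q], Stmt_TorsSt M q p)
    (hY : ∀ (M q : ℕ) [NeZero M] [NeZero q], Stmt_Y1 M q)
    (hS30 : Fermat.Agent.R.Stmt_S30)
    (hRed : ∀ (N : ℕ) [NeZero N] (p : ℕ), p.Prime → AllRed N p) :
    Fermat.Agent.S35.Stmt_TatePieceSt := by
  intro M _ g hg lam hlam S O' _ _ _ _ _ _ hlamO' chig hchig iota hlamS hMS
  have hpp : lam.Prime := hlam.out
  obtain ⟨C⟩ := tateCoords M lam (↑S : Set ℕ) hpp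
    (fun q hq hqM => Finset.mem_coe.2 (hMS q hq hqM))
  obtain ⟨L⟩ := exists_tateLimit C O' hlamO'
  obtain ⟨Pc, hPc⟩ := exists_piece_eig L (iota.comp chig.rangeRestrict)
  refine ⟨Pc.d, Pc.rep, Pc.pos, L.cont_piece Pc, ?_, ?_⟩
  · intro ℓ hℓ hℓN hℓS A hA σ hσ
    have hℓp : ℓ ≠ lam := by
      rintro rfl
      exact hℓS (Finset.mem_coe.2 hlamS)
    exact piece_ES L Pc (torsES_of_red hpp (hRed M lam hpp)) hℓ hℓN hℓp hℓS _ (hPc _) A hA σ hσ
  · intro q hq hqlam hqM hq2 A hA σ hσ
    obtain ⟨M₀, hM⟩ : ∃ M₀, M = M₀ * q := ⟨M / q, (Nat.div_mul_cancel hqM).symm⟩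
    subst hM
    have : NeZero q := ⟨hq.ne_zero⟩
    have : NeZero M₀ := ⟨fun h => NeZero.ne (M₀ * q) (by rw [h, zero_mul])⟩
    have hqM₀ : ¬ q ∣ M₀ := fun h => hq2 (by
      rw [pow_two]
      exact Nat.mul_dvd_mul h (dvd_refl q))
    exact st_clause (hSt M₀ q lam) (hY M₀ q) hS30 hg S hMS O' hlamO' chig hchig iota L Pc
      hPc hq hqlam hqM₀ A hA σ hσ

/-- **T-NU**: the Carayol Tate piece of S36. -/
theorem tatePieceNU_of
    (hNU : ∀ (M q p : ℕ) [NeZero M] [NeZero q], Stmt_TorsNU M q p)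
    (hY : ∀ (M q : ℕ) [NeZero M] [NeZero q], Stmt_Y1 M q)
    (hS30 : Fermat.Agent.R.Stmt_S30)
    (hRed : ∀ (N : ℕ) [NeZero N] (p : ℕ), p.Prime → AllRed N p) :
    Fermat.Agent.S35.Stmt_TatePieceNU := by
  intro M _ g hg lam hlam S O' _ _ _ _ _ _ hlamO' chig hchig iota hlamS hMS
  have hpp : lam.Prime := hlam.out
  obtain ⟨C⟩ := tateCoords M lam (↑S : Set ℕ) hpp
    (fun q hq hqM => Finset.mem_coe.2 (hMS q hq hqM))
  obtain ⟨L⟩ := exists_tateLimit C O' hlamO'
  obtain ⟨Pc, hPc⟩ := exists_piece_eig L (iota.comp chig.rangeRestrict)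
  refine ⟨Pc.d, Pc.rep, Pc.pos, L.cont_piece Pc, ?_, ?_⟩
  · intro ℓ hℓ hℓN hℓS A hA σ hσ
    have hℓp : ℓ ≠ lam := by
      rintro rfl
      exact hℓS (Finset.mem_coe.2 hlamS)
    exact piece_ES L Pc (torsES_of_red hpp (hRed M lam hpp)) hℓ hℓN hℓp hℓS _ (hPc _) A hA σ hσ
  · intro q hq hqlam hfac
    have hM0 : M ≠ 0 := NeZero.ne M
    have h2 : q ^ 2 ∣ M := (hq.pow_dvd_iff_le_factorization hM0).2 (by rw [hfac])
    have h3 : ¬ q ^ 3 ∣ M := fun h => by
      have := (hq.pow_dvd_iff_le_factorization hM0).1 h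
      omega
    obtain ⟨t, ht⟩ := h2
    obtain ⟨M₀, hM, hqM₀, hq2M₀⟩ : ∃ M₀, M = M₀ * q ∧ q ∣ M₀ ∧ ¬ q ^ 2 ∣ M₀ := by
      refine ⟨q * t, by rw [ht]; ring, Dvd.intro t rfl, fun h => h3 ?_⟩
      have h4 : q ∣ t := by
        rw [pow_two] at h
        exact Nat.dvd_of_mul_dvd_mul_left hq.pos h
      obtain ⟨s, rfl⟩ := h4
      exact ⟨s, by rw [ht]; ring⟩
    subst hM
    have : NeZero q := ⟨hq.ne_zero⟩
    have : NeZero M₀ := ⟨fun h => NeZero.ne (M₀ * q) (by rw [h, zero_mul])⟩
    exact nu_clause (hNU M₀ q lam) (hY M₀ q) hS30 hg S hMS O' hlamO' chig hchig iota L Pc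
      hPc hq hqlam hqM₀ hq2M₀

end Fermat.Agent.GTor.H81

end
end
-- ==== END Fermat.Agent.GTor.H81_TX

-- ==== BEGIN Fermat.Agent.S35.H30_SigmaFix
section
attribute [local instance 10000] HahnSeries.powerSeriesAlgebra

/-!
# S35, SIGMA package, leaf Σ-fix (helper30): the nodes are fixed by `β²`

`sigmaFix_of : Stmt_FrobRho → Stmt_SigmaFix`.

Let `z∞ = ρ (∞)`.  The cusp `∞` is Galois-invariant, so (F-b) gives `β z∞ = z∞`.  For a node
`z ≠ z∞`, helper94's separating lift gives a function `x₀` of level `M`, Gauss-integral, with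
its only pole at `∞`, whose reduction separates `κ (β⁻¹ z)` from `κ (β z)`.  The test function
`f = β_q^* x₀` lies in `R_z` (a pole `P` of `f` has `P|β = ∞`, hence `P|α = ∞` by Σ1 and
`ρ P = z∞ ≠ z`), with `rd₁ f = Fr x`, `rd₂ f = x`; helper89's `sigma_fix_of_sep` concludes.
-/

set_option autoImplicit false
set_option linter.style.haveILetI false
set_option synthInstance.maxHeartbeats 400000
set_option maxHeartbeats 1000000
set_option linter.unusedSectionVars false

noncomputable section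

open HahnSeries IntermediateField AlgebraicCurve ModularCurve
open Fermat.Agent.S28.H73 Fermat.Agent.RED.H73 Fermat.Agent.RED Fermat.Agent.S24
open Fermat.Agent.BAD.H88 Fermat.Agent.BAD
open Fermat.Agent.RED.KD.H22 (cuspInf mem_laurentPlace_iff)

namespace Fermat.Agent.S35.H30

open Fermat.Agent.S35.H89

section Cusp

theorem sigmaFix_coeffMap_eq_zero_iff {R S : Type*} [CommRing R] [CommRing S] (f : R →+* S)
    (hf : Function.Injective f) (x : LaurentSeries R) : coeffMap f x = 0 ↔ x = 0 := by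
  constructor
  · intro h
    ext k
    have := congrArg (fun y : LaurentSeries S => y.coeff k) h
    simp only [coeffMap_coeff, HahnSeries.coeff_zero] at this
    rw [HahnSeries.coeff_zero]
    exact hf (by rw [this, map_zero])
  · rintro rfl
    exact map_zero _

theorem sigmaFix_order_coeffMap {R S : Type*} [CommRing R] [CommRing S] (f : R →+* S)
    (hf : Function.Injective f) (x : LaurentSeries R) : (coeffMap f x).order = x.order := by
  by_cases hx : x = 0
  · rw [hx, map_zero, order_zero, order_zero]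
  have hx' : coeffMap f x ≠ 0 := fun h => hx ((sigmaFix_coeffMap_eq_zero_iff f hf x).mp h)
  apply le_antisymm
  · apply HahnSeries.order_le_of_coeff_ne_zero
    rw [coeffMap_coeff]
    intro h
    have h1 : x.coeff x.order = 0 := hf (by rw [h, map_zero])
    exact hx (HahnSeries.coeff_order_eq_zero.mp h1)
  · apply HahnSeries.order_le_of_coeff_ne_zero
    intro h
    have h1 := HahnSeries.coeff_order_eq_zero.not.mpr hx'
    rw [coeffMap_coeff] at h1
    exact h1 (by rw [h, map_zero])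

/-- The cusp `∞` is fixed by the coefficientwise Galois action. -/
theorem sigmaFix_smul_cuspInf (N : ℕ) [NeZero N] (σ : GalQ) :
    galF N σ • cuspInf N = cuspInf N := by
  apply Place.ext
  rw [SemilinearAut.smul_toValuationSubring]
  ext x
  rw [ValuationSubring.mem_pointwise_smul_iff_inv_smul_mem]
  unfold cuspInf
  rw [mem_laurentPlace_iff, mem_laurentPlace_iff]
  have h1 : (((galF N σ)⁻¹ • x : FN N) : LaurentSeries Kbar)
      = coeffMap ((σ⁻¹ : GalQ) : Kbar →+* Kbar) (x : LaurentSeries Kbar) := by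
    show (((arithmeticGalois (modularFunctionFieldFull N) σ)⁻¹ • x : FN N) : LaurentSeries Kbar)
      = _
    rw [← map_inv]
    rfl
  have h2 : ((galF N σ)⁻¹ • x : FN N) = 0 ↔ x = 0 := smul_eq_zero_iff_eq _
  rw [h2, h1, sigmaFix_order_coeffMap _ (RingHom.injective _)]

/-- The cusp `∞` of level `M q` lies over the cusp `∞` of level `M`. -/
theorem sigmaFix_restrict_cuspInf (M q : ℕ) [NeZero M] [NeZero (M * q)] :
    (cuspInf (M * q)).restrictAlong (H91.incl M q) (H91.incl_isIntegral M q) = cuspInf M := by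
  apply Place.ext
  ext x
  rw [H91.mem_restrictAlong_iff]
  unfold cuspInf
  rw [mem_laurentPlace_iff, mem_laurentPlace_iff, H91.coe_incl]
  constructor
  · rintro (h | h)
    · left
      exact (map_eq_zero_iff _ (H91.incl M q).toRingHom.injective).mp h
    · exact Or.inr h
  · rintro (h | h)
    · left
      rw [h, map_zero]
    · exact Or.inr h

end Cusp

section Gen

variable {k X : Type*} [Field k] [Field X] [Algebra k X]

theorem sigmaFix_coe_sub_const {E₁ E₂ : IntermediateField k X} (y₁ : ↥E₁) (y₂ : ↥E₂)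
    (hy : (y₁ : X) = (y₂ : X)) (a : k) :
    ((y₁ - algebraMap k ↥E₁ a : ↥E₁) : X) = ((y₂ - algebraMap k ↥E₂ a : ↥E₂) : X) := by
  rw [AddSubgroupClass.coe_sub, AddSubgroupClass.coe_sub, hy]
  rfl

/-- `VanAt` is transported by `placeCongr`. -/
theorem sigmaFix_vanAt_placeCongr {E₁ E₂ : IntermediateField k X} (h : E₁ = E₂)
    (w : Place k ↥E₁) (y₁ : ↥E₁) (y₂ : ↥E₂) (hy : (y₁ : X) = (y₂ : X)) :
    RED.H17.VanAt w y₁ ↔ RED.H17.VanAt (H91.placeCongr h w) y₂ := by
  subst h
  have e : y₁ = y₂ := Subtype.ext hy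
  rw [e]
  rfl

end Gen

section Main

/-- **(Σ-fix)** from (F-b). -/
theorem sigmaFix_of (hFb : Stmt_FrobRho) : Stmt_SigmaFix := by
  intro A q M a b hab hq _ _ _ hA hqM ht σ hσ z hz
  haveI : IsAlgClosed (kV A) := isAlgClosed_kV A
  -- the point `z∞`
  set zinf : Place (kV A) (F1 A q M) := H91.rhoF1 a b hab hq hA hqM ht (cuspInf (M * q))
    with hzinf
  have hβinf : (betaMod A q M a b hab hq hA).symm zinf = zinf := by
    have h := hFb A q M a b hab hq hA hqM ht σ hσ (cuspInf (M * q))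
    rw [sigmaFix_smul_cuspInf] at h
    exact h.symm
  have hβinf' : betaMod A q M a b hab hq hA zinf = zinf := by
    conv_lhs => rw [← hβinf]
    exact Equiv.apply_symm_apply _ _
  have hκinf : H91.kappa A q M a b hab hq hA zinf = H91.rM hq hqM ht hA (cuspInf M) := by
    rw [hzinf, H91.kappa_rhoF1]
    unfold H91.rhoM
    rw [sigmaFix_restrict_cuspInf]
  by_cases hzz : z = zinf
  · rw [hzz, hβinf', hβinf']
  -- the general case
  refine sigma_fix_of_sep (modTot A q M a b hab hq hA hqM ht) (FrMod A q M a b hab hq hA)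
    hq.pos (fun z g => BAD.H73.betaF1_ord_Fr A q M hq hA M
      (H82.redField_eq_fullC q M a b hab hq A hA) z g) hz ?_
  intro hne
  have hne' : (betaMod A q M a b hab hq hA).symm z ≠ betaMod A q M a b hab hq hA z := hne
  have hFF : IsFF Kbar ↥(FNbar M) := H95.stmt_HKA_isFF M
  have hFF' : IsFF (kV A) ↥(H91.redM A M) := H91.isFF_redM hq hqM ht hA
  have H := RED.H17.ffHyp_of_isFF _ _ hFF
  have H' := RED.H17.ffHyp_of_isFF _ _ hFF'
  obtain ⟨g', c', hg⟩ := RED.H17.exists_isGenus _ _ hFF'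
  have h12 : H91.kappa A q M a b hab hq hA ((betaMod A q M a b hab hq hA).symm z)
      ≠ H91.kappa A q M a b hab hq hA (betaMod A q M a b hab hq hA z) :=
    fun h => hne' ((H91.kappa A q M a b hab hq hA).injective h)
  have h1 : H91.kappa A q M a b hab hq hA ((betaMod A q M a b hab hq hA).symm z)
      ≠ (H91.seM hq hqM ht hA).r (cuspInf M) := by
    intro h
    have h' := (H91.kappa A q M a b hab hq hA).injective (h.trans hκinf.symm)
    apply hzz
    rw [Equiv.symm_apply_eq] at h'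
    rw [h', hβinf']
  have h2 : H91.kappa A q M a b hab hq hA (betaMod A q M a b hab hq hA z)
      ≠ (H91.seM hq hqM ht hA).r (cuspInf M) := by
    intro h
    have h' := (H91.kappa A q M a b hab hq hA).injective (h.trans hκinf.symm)
    apply hzz
    rw [← Equiv.eq_symm_apply] at h'
    rw [h', hβinf]
  obtain ⟨x₀, a₀, hx₀V, hx₀reg, hv1, hv2⟩ :=
    H94.exists_sep_lift_val (H91.seM hq hqM ht hA) H H' (H91.seM_genusLE' hq hqM ht hA) hg
      (cuspInf M) h12 h1 h2
  have hxM : x₀ ∈ VM A M := hx₀V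
  have hf1 : heckeBetaBar Kbar M q x₀ ∈ V1 A q M := (beta_mem_V1_iff A q M x₀).mpr hxM
  have hf2 : heckeBetaBar Kbar M q x₀ ∈ V2 A q M a b hab hq :=
    (beta_mem_V2_iff A q M a b hab hq x₀).mpr hxM
  -- the series of the three reductions
  have e2 : ((red2 A q M a b hab hq ⟨_, hf2⟩ : F1 A q M) : LaurentSeries (kV A))
      = (((H91.seM hq hqM ht hA).rd x₀ : ↥(H91.redM A M)) : LaurentSeries (kV A)) := by
    rw [(H91.seM hq hqM ht hA).rd_of_mem hx₀V]
    exact red2_beta A q M a b hab hq x₀ hxM hf2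
  -- transfer of `VanAt` through `κ`
  have hvan : ∀ w : Place (kV A) (F1 A q M),
      RED.H17.VanAt w (red2 A q M a b hab hq ⟨_, hf2⟩ - algebraMap (kV A) (F1 A q M) a₀) ↔
      RED.H17.VanAt (H91.kappa A q M a b hab hq hA w)
        ((H91.seM hq hqM ht hA).rd x₀ - algebraMap (kV A) ↥(H91.redM A M) a₀) := fun w =>
    sigmaFix_vanAt_placeCongr (H82.redField_eq_redField q M a b hab hq A hA) w _ _
      (sigmaFix_coe_sub_const _ _ e2 a₀)
  refine ⟨heckeBetaBar Kbar M q x₀, red2 A q M a b hab hq ⟨_, hf2⟩, a₀, ⟨hf1, hf2, ?_⟩,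
    ?_, ?_, ?_, ?_⟩
  · -- regular on the fibre of `z`
    intro P hP
    obtain ⟨hα, hβ, hS1⟩ := BAD.H30.sigma1_exists M q hq hqM
    by_cases hc : P.restrictAlong (heckeBetaBar Kbar M q) hβ = cuspInf M
    · exfalso
      have h3 := hS1 P hc
      apply hzz
      have hP' : H91.rhoF1 a b hab hq hA hqM ht P = z := hP
      rw [← hP']
      apply (H91.kappa A q M a b hab hq hA).injective
      rw [hκinf, H91.kappa_rhoF1]
      unfold H91.rhoM
      exact congrArg (H91.rM hq hqM ht hA) h3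
    · have h3 := hx₀reg _ hc
      have h4 : x₀ ∈ (P.restrictAlong (heckeBetaBar Kbar M q) hβ).toValuationSubring :=
        (RED.H17.regAt_iff_mem _ _).mp (RED.H17.regAt_of_ord_nonneg h3)
      rw [RED.H17.regAt_iff_mem]
      exact (H91.mem_restrictAlong_iff (heckeBetaBar Kbar M q) hβ P x₀).mp h4
  · -- `rd₁ f = Fr x`
    rw [(modTot A q M a b hab hq hA hqM ht).p₁.rd_of_mem hf1]
    apply Subtype.ext
    rw [BAD.H73.coe_FrF1]
    exact (red1_beta A q M x₀ hxM hf1).trans
      (congrArg (qExpand (kV A) q) (red2_beta A q M a b hab hq x₀ hxM hf2).symm)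
  · -- `rd₂ f = x`
    exact (modTot A q M a b hab hq hA hqM ht).p₂.rd_of_mem hf2
  · exact (hvan _).mpr hv1
  · exact fun h => hv2 ((hvan _).mp h)

end Main

end Fermat.Agent.S35.H30

end
end
-- ==== END Fermat.Agent.S35.H30_SigmaFix

-- ==== BEGIN Fermat.Agent.S35.H44_FrobRed
section

/-!
# S35, SIGMA package, leaf F-d (helper44): `Stmt_FrobRed`

A Frobenius element `σ` at `A` (over `q`) preserves the two Gauss valuation rings `V₁`, `V₂` of
`F_{Mq}` and acts on the reductions by the coefficientwise Frobenius `φ`.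

* `V₁`: the coefficientwise action of an element of the decomposition group preserves the Gauss
  ring and reduces to the coefficientwise action of its residue automorphism
  (`RED.H33.coeffMap_mem_gaussRingV`, `gaussRedV_coeffMap`), which for a Frobenius element is
  `a ↦ a ^ q` (`RED.H33.autkHom_frobenius`).
* `V₂ = V₁ ∘ w_q`, `red₂ = red₁ ∘ w_q`, and `w_q` commutes with the coefficientwise Galois action
  (`BAD.H88.wq_arith`).
-/

set_option autoImplicit false
set_option linter.style.haveILetI false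
set_option synthInstance.maxHeartbeats 400000
set_option maxHeartbeats 400000
set_option linter.unusedSectionVars false

noncomputable section

open HahnSeries IntermediateField AlgebraicCurve ModularCurve
open Fermat.Agent.S28.H73 Fermat.Agent.RED.H73 Fermat.Agent.RED Fermat.Agent.S24
open Fermat.Agent.BAD.H88 Fermat.Agent.BAD Fermat.Agent.S35.H89

namespace Fermat.Agent.S35.H44

section FrobRed

variable (A : ValuationSubring Kbar) (q M : ℕ) (a b : ℤ) (hab : a * q + b * M = 1)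
  (hq : q.Prime) [NeZero M] [NeZero (M * q)] (hA : A.LiesOverPrime q)

/-- The decomposition group preserves the first Gauss valuation ring. -/
theorem galF_mem_V1 {σ : GalQ} (hσ : σ ∈ A.decompositionSubgroup ℚ) {f : FN (M * q)}
    (hf : f ∈ V1 A q M) : galF (M * q) σ • f ∈ V1 A q M := by
  show ((galF (M * q) σ • f : FN (M * q)) : LaurentSeries Kbar) ∈ gaussRingV A
  rw [coe_arithmeticGalois_smul]
  exact H33.coeffMap_mem_gaussRingV A σ.toRingEquiv
    (H33.mem_iff_of_mem_decompositionSubgroup A hσ) hf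

/-- The series of the first reduction of `σ f`, for `σ` in the decomposition group. -/
theorem coe_red1_galF {σ : GalQ} (hσ : σ ∈ A.decompositionSubgroup ℚ) (f : FN (M * q))
    (h : f ∈ V1 A q M) (h' : galF (M * q) σ • f ∈ V1 A q M) :
    ((red1 A q M ⟨_, h'⟩ : F1 A q M) : LaurentSeries (kV A))
      = coeffMap (H33.autkHom A σ.toRingEquiv (H33.mem_iff_of_mem_decompositionSubgroup A hσ))
          ((red1 A q M ⟨f, h⟩ : F1 A q M) : LaurentSeries (kV A)) := by
  rw [coe_gaussResF'_eq, coe_gaussResF'_eq]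
  exact H33.gaussRedV_coeffMap A σ.toRingEquiv (H33.mem_iff_of_mem_decompositionSubgroup A hσ) h

/-- A Frobenius element acts on the first reduction by `φ`. -/
theorem red1_galF {σ : GalQ} (hσ : A.IsFrobeniusAt σ q) (f : FN (M * q))
    (h : f ∈ V1 A q M) (h' : galF (M * q) σ • f ∈ V1 A q M) :
    red1 A q M ⟨_, h'⟩ = phiMod A q M a b hab hq hA (red1 A q M ⟨f, h⟩) := by
  apply Subtype.ext
  rw [coe_red1_galF A q M hσ.mem_decompositionSubgroup f h h']
  ext n
  rw [coeffMap_coeff, BAD.H73.coe_phiF1_coeff, H33.autkHom_frobenius A hσ]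

/-- `w_q` commutes with the coefficientwise Galois action (in the `galF` vocabulary). -/
theorem wq_galF (σ : GalQ) (f : FN (M * q)) :
    wq q M a b hab hq (galF (M * q) σ • f) = galF (M * q) σ • wq q M a b hab hq f :=
  wq_arith q M a b hab hq σ f

/-- **(F-d)** -/
theorem stmt_FrobRed : Stmt_FrobRed := by
  intro A q M a b hab hq _ _ hA σ hσ
  have hdec := hσ.mem_decompositionSubgroup
  refine ⟨fun f hf => galF_mem_V1 A q M hdec hf, ?_, ?_, ?_⟩
  · intro f hf
    rw [mem_V2_iff, wq_galF]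
    exact galF_mem_V1 A q M hdec hf
  · intro f h h'
    exact red1_galF A q M a b hab hq hA hσ f h h'
  · intro f h h'
    have e := wq_galF q M a b hab hq σ f
    have hm : galF (M * q) σ • wq q M a b hab hq f ∈ V1 A q M := e ▸ h'
    have key : red1 A q M ⟨wq q M a b hab hq (galF (M * q) σ • f), h'⟩
        = red1 A q M ⟨_, hm⟩ := by
      congr 1
      exact Subtype.ext e
    show red1 A q M ⟨wq q M a b hab hq (galF (M * q) σ • f), h'⟩
      = phiMod A q M a b hab hq hA (red1 A q M ⟨wq q M a b hab hq f, h⟩)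
    exact key.trans (red1_galF A q M a b hab hq hA hσ _ h hm)

end FrobRed

end Fermat.Agent.S35.H44

end
end
-- ==== END Fermat.Agent.S35.H44_FrobRed

-- ==== BEGIN Fermat.Agent.S35.H52_FrobRho
section

/-!
# S35, SIGMA package, leaf (F-b) (helper52): `ρ (σ P) = β⁻¹ (ρ P)` for a Frobenius element `σ`

`ρ = rhoF1 = κ⁻¹ ∘ rM ∘ (restriction to level M)`.  Restriction commutes with the coefficientwise
Galois action (`H91.restrictAlong_galF`), the Deuring reduction map of level `M` is equivariant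
for the decomposition group (`RED.H33.isRed_decomposition`), the induced automorphism of the
reduced field is the coefficientwise `a ↦ a ^ q` for a Frobenius element
(`RED.H33.autkHom_frobenius`), which is `φ`; and `κ` (transport along an equality of subfields of
`k((t))`) commutes with semilinear automorphisms given by the same formula on `k((t))`.

* `placeCongr_symm_smul` : the abstract transport statement;
* `stmt_FrobRho : H89.Stmt_FrobRho`.
-/

set_option autoImplicit false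
set_option linter.style.haveILetI false
set_option synthInstance.maxHeartbeats 400000
set_option maxHeartbeats 400000
set_option linter.unusedSectionVars false

noncomputable section

open HahnSeries IntermediateField AlgebraicCurve ModularCurve
open Fermat.Agent.S28.H73 Fermat.Agent.RED.H73 Fermat.Agent.RED Fermat.Agent.S24
open Fermat.Agent.BAD.H88 Fermat.Agent.BAD

namespace Fermat.Agent.S35.H52

section Abs

variable {k X : Type*} [Field k] [Field X] [Algebra k X]

/-- Two semilinear automorphisms with the same action on elements act in the same way on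
places. -/
theorem smul_place_congr {E : Type*} [Field E] [Algebra k E] (s₁ s₂ : SemilinearAut k E)
    (e : ∀ y : E, s₁ • y = s₂ • y) (z : Place k E) : s₁ • z = s₂ • z := by
  apply Place.ext
  ext x
  rw [SemilinearAut.smul_toValuationSubring, SemilinearAut.smul_toValuationSubring,
    ValuationSubring.mem_pointwise_smul_iff_inv_smul_mem,
    ValuationSubring.mem_pointwise_smul_iff_inv_smul_mem]
  have h : s₂⁻¹ • x = s₁⁻¹ • x := by
    have h1 := e (s₁⁻¹ • x)
    rw [smul_inv_smul] at h1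
    exact inv_smul_eq_iff.mpr h1
  rw [h]

/-- Transport of places along an equality of intermediate fields commutes with semilinear
automorphisms given by the same formula on the ambient field. -/
theorem placeCongr_symm_smul {E₁ E₂ : IntermediateField k X} (h : E₁ = E₂)
    (s₁ : SemilinearAut k ↥E₁) (s₂ : SemilinearAut k ↥E₂)
    (hs : ∀ (y₁ : ↥E₁) (y₂ : ↥E₂), (y₁ : X) = (y₂ : X) →
      ((s₁ • y₁ : ↥E₁) : X) = ((s₂ • y₂ : ↥E₂) : X))
    (z : Place k ↥E₂) :
    (H91.placeCongr h).symm (s₂ • z) = s₁ • (H91.placeCongr h).symm z := by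
  subst h
  have e : ∀ y : ↥E₁, s₂ • y = s₁ • y := fun y => Subtype.ext (hs y y rfl).symm
  exact smul_place_congr s₂ s₁ e z

end Abs

/-- **(F-b)**: the reduction map is Frobenius-equivariant, `ρ (σ P) = β⁻¹ (ρ P)`. -/
theorem stmt_FrobRho : H89.Stmt_FrobRho := by
  intro A q M a b hab hq _ _ hA hqM ht σ hσ P
  haveI : IsAlgClosed (kV A) := isAlgClosed_kV A
  have hdec : σ ∈ A.decompositionSubgroup ℚ := hσ.mem_decompositionSubgroup
  rw [H89.betaMod_symm_apply]
  unfold H91.rhoF1 H91.rhoM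
  rw [H91.restrictAlong_galF]
  have h1 := RED.H33.isRed_decomposition A (modularFunctionFieldFull M)
    (hasScale_laurentBaseChange A M) (H95.stmt_HKA_isFF M) (H91.isFF_redM hq hqM ht hA)
    (H42.fracScalable_laurentBaseChange A M) hdec (H91.rM_isRed hq hqM ht hA)
    (P.restrictAlong (H91.incl M q) (H91.incl_isIntegral M q))
  refine (congrArg (H91.kappa A q M a b hab hq hA).symm h1).trans ?_
  refine placeCongr_symm_smul _ (H89.phiSemiMod A q M a b hab hq hA)
    (RED.H33.redGalois A (modularFunctionFieldFull M) (hasScale_laurentBaseChange A M) σ hdec)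
    ?_ _
  intro y₁ y₂ hy
  rw [H89.phiSemiMod_smul, RED.H33.coe_redGalois_smul, ← hy]
  ext n
  rw [coeffMap_coeff, RED.H33.autkHom_frobenius A hσ]
  exact H73.coe_phiF1_coeff A q M hq hA M (H82.redField_eq_fullC q M a b hab hq A hA) y₁ n

end Fermat.Agent.S35.H52

end
end
-- ==== END Fermat.Agent.S35.H52_FrobRho

-- ==== BEGIN Fermat.Agent.S35.H89_ModStFinal
section
attribute [local instance 10000] SubalgebraClass.toAlgebra
attribute [local instance 10000] HahnSeries.powerSeriesAlgebra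

/-!
# S35, the modular side `Stmt_ModSt M q` at all tame `(M, q)` (helper89)

Assembly of the modular semistable Deuring datum with a Frobenius-like automorphism:

* `frobRed_sq`, `frobRho_sq` : the squares of (F-d), (F-b);
* `modTotFrob` : `TotFrob (modTot ..) (galF (σ σ)) (φ ∘ φ) (q ^ 2)`;
* `cons_alpha`, `cons_beta` : conservation at level `M` (helper79's (E4));
* `modSt_tame_of : Stmt_FrobRed → Stmt_FrobRho → Stmt_SigmaFix → ∀ tame (M, q), Stmt_ModSt M q`.
-/

set_option autoImplicit false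
set_option linter.style.haveILetI false
set_option linter.unusedSectionVars false
set_option synthInstance.maxHeartbeats 400000
set_option maxHeartbeats 1000000

noncomputable section

open HahnSeries IntermediateField AlgebraicCurve ModularCurve
open Fermat.Agent.S28.H73 Fermat.Agent.RED.H73 Fermat.Agent.RED Fermat.Agent.S24
open Fermat.Agent.BAD.H88 Fermat.Agent.BAD

namespace Fermat.Agent.S35.H89

section Pieces

variable (A : ValuationSubring Kbar) (q M : ℕ) (a b : ℤ) (hab : a * q + b * M = 1)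
  (hq : q.Prime) [NeZero M] [NeZero (M * q)] [NeZero q] (hA : A.LiesOverPrime q)

/-- `τb = φ ∘ φ`. -/
def tauMod : F1 A q M →+* F1 A q M :=
  ((phiMod A q M a b hab hq hA : F1 A q M →+* F1 A q M)).comp
    (phiMod A q M a b hab hq hA : F1 A q M →+* F1 A q M)

theorem tauMod_apply (ψ : F1 A q M) :
    tauMod A q M a b hab hq hA ψ
      = phiSemiMod A q M a b hab hq hA • (phiSemiMod A q M a b hab hq hA • ψ) := rfl

theorem galF_sq_smul (σ : GalQ) (f : FN (M * q)) :
    galF (M * q) (σ * σ) • f = galF (M * q) σ • (galF (M * q) σ • f) := by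
  show arithmeticGalois (modularFunctionFieldFull (M * q)) (σ * σ) • f = _
  rw [map_mul, mul_smul]

theorem galF_sq_inv_smul (σ : GalQ) (P : Place Kbar (FN (M * q))) :
    (galF (M * q) (σ * σ))⁻¹ • P = (galF (M * q) σ)⁻¹ • ((galF (M * q) σ)⁻¹ • P) := by
  show (arithmeticGalois (modularFunctionFieldFull (M * q)) (σ * σ))⁻¹ • P = _
  rw [map_mul, mul_inv_rev, mul_smul]

variable (hRed : Stmt_FrobRed) (hRho : Stmt_FrobRho)

include hRed in
/-- The square of (F-d). -/
theorem frobRed_sq (σ : GalQ) (hσ : A.IsFrobeniusAt σ q) :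
    (∀ f : FN (M * q), f ∈ V1 A q M → galF (M * q) (σ * σ) • f ∈ V1 A q M) ∧
    (∀ f : FN (M * q), f ∈ V2 A q M a b hab hq →
      galF (M * q) (σ * σ) • f ∈ V2 A q M a b hab hq) ∧
    (∀ (f : FN (M * q)) (h : f ∈ V1 A q M) (h' : galF (M * q) (σ * σ) • f ∈ V1 A q M),
      red1 A q M ⟨_, h'⟩ = tauMod A q M a b hab hq hA (red1 A q M ⟨f, h⟩)) ∧
    (∀ (f : FN (M * q)) (h : f ∈ V2 A q M a b hab hq)
      (h' : galF (M * q) (σ * σ) • f ∈ V2 A q M a b hab hq),
      red2 A q M a b hab hq ⟨_, h'⟩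
        = tauMod A q M a b hab hq hA (red2 A q M a b hab hq ⟨f, h⟩)) := by
  obtain ⟨m1, m2, r1, r2⟩ := hRed A q M a b hab hq hA σ hσ
  refine ⟨fun f hf => ?_, fun f hf => ?_, fun f h h' => ?_, fun f h h' => ?_⟩
  · rw [galF_sq_smul]
    exact m1 _ (m1 _ hf)
  · rw [galF_sq_smul]
    exact m2 _ (m2 _ hf)
  · have e := galF_sq_smul q M σ f
    have h1 : galF (M * q) σ • f ∈ V1 A q M := m1 _ h
    have h2 : galF (M * q) σ • (galF (M * q) σ • f) ∈ V1 A q M := m1 _ h1
    have e' : (⟨galF (M * q) (σ * σ) • f, h'⟩ : ↥(V1 A q M))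
        = ⟨galF (M * q) σ • (galF (M * q) σ • f), h2⟩ := Subtype.ext e
    rw [e', r1 _ h1 h2, r1 _ h h1]
    rfl
  · have e := galF_sq_smul q M σ f
    have h1 : galF (M * q) σ • f ∈ V2 A q M a b hab hq := m2 _ h
    have h2 : galF (M * q) σ • (galF (M * q) σ • f) ∈ V2 A q M a b hab hq := m2 _ h1
    have e' : (⟨galF (M * q) (σ * σ) • f, h'⟩ : ↥(V2 A q M a b hab hq))
        = ⟨galF (M * q) σ • (galF (M * q) σ • f), h2⟩ := Subtype.ext e
    rw [e', r2 _ h1 h2, r2 _ h h1]
    rfl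

variable (hqM : ¬ q ∣ M) (ht : H91.TameAt M q)

include hRho in
/-- (F-b) for the inverse. -/
theorem frobRho_inv (σ : GalQ) (hσ : A.IsFrobeniusAt σ q) (P : Place Kbar (FN (M * q))) :
    H91.rhoF1 a b hab hq hA hqM ht ((galF (M * q) σ)⁻¹ • P)
      = betaMod A q M a b hab hq hA (H91.rhoF1 a b hab hq hA hqM ht P) := by
  have h := hRho A q M a b hab hq hA hqM ht σ hσ ((galF (M * q) σ)⁻¹ • P)
  rw [smul_inv_smul] at h
  rw [h, Equiv.apply_symm_apply]

include hRho in
/-- The square of (F-b). -/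
theorem frobRho_sq (σ : GalQ) (hσ : A.IsFrobeniusAt σ q) (P : Place Kbar (FN (M * q))) :
    H91.rhoF1 a b hab hq hA hqM ht ((galF (M * q) (σ * σ))⁻¹ • P)
      = betaMod A q M a b hab hq hA
          (betaMod A q M a b hab hq hA (H91.rhoF1 a b hab hq hA hqM ht P)) := by
  rw [galF_sq_inv_smul, frobRho_inv A q M a b hab hq hA hRho hqM ht σ hσ,
    frobRho_inv A q M a b hab hq hA hRho hqM ht σ hσ]

variable (hFix : Stmt_SigmaFix)

include hRed hRho hFix in
/-- **The Frobenius-like conditions for the modular total conservation datum.** -/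
theorem modTotFrob (σ : GalQ) (hσ : A.IsFrobeniusAt σ q) :
    TotFrob (modTot A q M a b hab hq hA hqM ht) (galF (M * q) (σ * σ))
      (tauMod A q M a b hab hq hA) (q ^ 2) := by
  obtain ⟨m1, m2, r1, r2⟩ := frobRed_sq A q M a b hab hq hA hRed σ hσ
  refine totFrob_of (T := modTot A q M a b hab hq hA hqM ht)
    (phiSemiMod A q M a b hab hq hA) (tauMod_apply A q M a b hab hq hA) ?_ ?_ ?_ ?_
    m1 m2 r1 r2
  · intro c
    exact BAD.H73.phiF1_algebraMap A q M hq hA M (H82.redField_eq_fullC q M a b hab hq A hA) c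
  · intro z ψ
    exact BAD.H73.betaF1_ord A q M hq hA M (H82.redField_eq_fullC q M a b hab hq A hA) z ψ
  · intro z hz
    exact hFix A q M a b hab hq hA hqM ht σ hσ z hz
  · intro P
    exact frobRho_sq A q M a b hab hq hA hRho hqM ht σ hσ P

/-- Transport of a function of the reduced field of level `M` to `F₁`. -/
def toF1 : ↥(H91.redM A M) →ₐ[kV A] F1 A q M :=
  IntermediateField.inclusion (le_of_eq (H82.redField_eq_redField q M a b hab hq A hA).symm)

theorem coe_toF1 (y : ↥(H91.redM A M)) :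
    ((toF1 A q M a b hab hq hA y : F1 A q M) : LaurentSeries (kV A))
      = (y : LaurentSeries (kV A)) :=
  IntermediateField.coe_inclusion _ y

theorem toF1_ne_zero {y : ↥(H91.redM A M)} (hy : y ≠ 0) : toF1 A q M a b hab hq hA y ≠ 0 :=
  (map_ne_zero_iff _ (toF1 A q M a b hab hq hA).toRingHom.injective).2 hy

theorem kappa_ord_toF1 (z : Place (kV A) (F1 A q M)) (y : ↥(H91.redM A M)) :
    (H91.kappa A q M a b hab hq hA z).ord y = z.ord (toF1 A q M a b hab hq hA y) :=
  H91.kappa_ord A q M a b hab hq hA z (toF1 A q M a b hab hq hA y) y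
    (coe_toF1 A q M a b hab hq hA y)

/-- **(E4)** for `α` and `ρ`. -/
theorem cons_alpha (hα : HeckeAlphaBarIntegral Kbar M q) (D : Divisor Kbar (FN (M * q)))
    (hD : (Divisor.pushforwardAlong (heckeAlphaBar Kbar M q) hα D).IsPrincipal) :
    ∃ h : F1 A q M, h ≠ 0 ∧ ∀ z : Place (kV A) (F1 A q M),
      Finsupp.mapDomain (H91.rhoF1 a b hab hq hA hqM ht) D z = z.ord h := by
  obtain ⟨h, h0, hh⟩ := H79.conserve_along (heckeAlphaBar Kbar M q) hα (H91.seM hq hqM ht hA)
    (fun w => BAD.H30.sigma1_inertiaDegAlong_eq_one (heckeAlphaBar Kbar M q) hα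
      (fun v => S15.H22.place_deg_eq_one M v) (fun v => S15.H22.place_deg_eq_one (M * q) v) w)
    (H91.rhoF1 a b hab hq hA hqM ht) (H91.kappa A q M a b hab hq hA)
    (H91.kappa A q M a b hab hq hA).injective
    (fun P => H91.kappa_rhoF1 a b hab hq hA hqM ht P) D hD
  refine ⟨toF1 A q M a b hab hq hA h, toF1_ne_zero A q M a b hab hq hA h0, fun z => ?_⟩
  rw [hh z, kappa_ord_toF1]

/-- **(E4)** for `β` and the mirrored reduction map `ρ' = ρ ∘ w_q`. -/
theorem cons_beta (hβ : HeckeBetaBarIntegral Kbar M q) (D : Divisor Kbar (FN (M * q)))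
    (hD : (Divisor.pushforwardAlong (heckeBetaBar Kbar M q) hβ D).IsPrincipal) :
    ∃ h : F1 A q M, h ≠ 0 ∧ ∀ z : Place (kV A) (F1 A q M),
      Finsupp.mapDomain
        (fun P => H91.rhoF1 a b hab hq hA hqM ht (wq q M a b hab hq • P)) D z = z.ord h := by
  obtain ⟨h, h0, hh⟩ := H79.conserve_along_mirror (heckeAlphaBar Kbar M q)
    (H91.incl_isIntegral M q) (wq q M a b hab hq) (wq_wq q M a b hab hq)
    (heckeBetaBar Kbar M q) hβ (fun x => (wq_alpha q M a b hab hq x).symm)
    (H91.seM hq hqM ht hA)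
    (fun w => BAD.H30.sigma1_inertiaDegAlong_eq_one (heckeBetaBar Kbar M q) hβ
      (fun v => S15.H22.place_deg_eq_one M v) (fun v => S15.H22.place_deg_eq_one (M * q) v) w)
    (H91.rhoF1 a b hab hq hA hqM ht) (H91.kappa A q M a b hab hq hA)
    (H91.kappa A q M a b hab hq hA).injective
    (fun P => H91.kappa_rhoF1 a b hab hq hA hqM ht P) D hD
  refine ⟨toF1 A q M a b hab hq hA h, toF1_ne_zero A q M a b hab hq hA h0, fun z => ?_⟩
  rw [hh z, kappa_ord_toF1]

end Pieces

end Fermat.Agent.S35.H89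

end
end
-- ==== END Fermat.Agent.S35.H89_ModStFinal

-- ==== BEGIN Fermat.Agent.GTor.H81_TXFinal
section

/-!
# G-TOR, T-X: the enriched Tate pieces from the torsion-level statements alone  (helper81)

With G-RED (`R.H33.allRed`), S30 (`R.H33.stmt_S30`) and the degeneracy pushforwards
(`S36.H44.stmt_Y1`, helper44) plugged in:

* `tatePieceSt_final : (∀ M q p, Stmt_TorsSt M q p) → S35.Stmt_TatePieceSt`
* `tatePieceNU_final : (∀ M q p, Stmt_TorsNU M q p) → S35.Stmt_TatePieceNU`
* `tatePieceU_final  : (∀ N p, p.Prime → BAD.Stmt_TorsUnip N p) → S34.H91.Stmt_TatePieceU`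
-/

set_option autoImplicit false

noncomputable section

namespace Fermat.Agent.GTor.H81

open Fermat.Agent.S35.H89

/-- **T-St**, final form. -/
theorem tatePieceSt_final
    (hSt : ∀ (M q p : ℕ) [NeZero M] [NeZero q], Stmt_TorsSt M q p) :
    Fermat.Agent.S35.Stmt_TatePieceSt :=
  tatePieceSt_of hSt (fun M q _ _ => Fermat.Agent.S36.H44.stmt_Y1 M q)
    Fermat.Agent.R.H33.stmt_S30 (fun N _ p _ => Fermat.Agent.R.H33.allRed N p)

/-- **T-NU**, final form. -/
theorem tatePieceNU_final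
    (hNU : ∀ (M q p : ℕ) [NeZero M] [NeZero q], Stmt_TorsNU M q p) :
    Fermat.Agent.S35.Stmt_TatePieceNU :=
  tatePieceNU_of hNU (fun M q _ _ => Fermat.Agent.S36.H44.stmt_Y1 M q)
    Fermat.Agent.R.H33.stmt_S30 (fun N _ p _ => Fermat.Agent.R.H33.allRed N p)

/-- **T-U**, final form. -/
theorem tatePieceU_final
    (hU : ∀ (N : ℕ) [NeZero N] (p : ℕ), p.Prime → Fermat.Agent.BAD.Stmt_TorsUnip N p) :
    Fermat.Agent.S34.H91.Stmt_TatePieceU :=
  tatePieceU_of hU (fun N _ p _ => Fermat.Agent.R.H33.allRed N p)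

end Fermat.Agent.GTor.H81

end
end
-- ==== END Fermat.Agent.GTor.H81_TXFinal

-- ==== BEGIN Fermat.Agent.S35.H89_ModStBody
section
attribute [local instance 10000] SubalgebraClass.toAlgebra
attribute [local instance 10000] HahnSeries.powerSeriesAlgebra

/-!
# S35, the modular side `Stmt_ModSt M q` at all tame `(M, q)`: the body (helper89)

* `modSt_body` : the body of `Stmt_ModSt M q` at `A`, `σ` from the three leaves (F-d), (F-b),
  (Σ-fix);
* `modSt_tame_of : Stmt_FrobRed → Stmt_FrobRho → Stmt_SigmaFix → ∀ tame (M, q), Stmt_ModSt M q`.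
-/

set_option autoImplicit false
set_option linter.style.haveILetI false
set_option linter.unusedSectionVars false
set_option synthInstance.maxHeartbeats 400000
set_option maxHeartbeats 1000000

noncomputable section

open HahnSeries IntermediateField AlgebraicCurve ModularCurve
open Fermat.Agent.S28.H73 Fermat.Agent.RED.H73 Fermat.Agent.RED Fermat.Agent.S24
open Fermat.Agent.BAD.H88 Fermat.Agent.BAD

namespace Fermat.Agent.S35.H89

section Body

variable (hRed : Stmt_FrobRed) (hRho : Stmt_FrobRho) (hFix : Stmt_SigmaFix)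

include hRed hRho hFix in
/-- The body of `Stmt_ModSt M q` at `A`, `σ`, for `q ∤ M` tame. -/
theorem modSt_body (A : ValuationSubring Kbar) (q M : ℕ) (a b : ℤ)
    (hab : a * q + b * M = 1) (hq : q.Prime) [NeZero M] [NeZero (M * q)] [NeZero q]
    (hA : A.LiesOverPrime q) (hqM : ¬ q ∣ M) (ht : H91.TameAt M q)
    (σ : GalQ) (hσ : A.IsFrobeniusAt σ q) :
    ∃ (E : Type) (_ : Field E) (_ : Algebra (kV A) E)
      (S : SSD (AlgebraicClosure ℚ) ↥(FNbar (M * q)) (kV A) E E)
      (_ : RED.H17.FFHyp (AlgebraicClosure ℚ) ↥(FNbar (M * q))) (_ : RED.H17.FFHyp (kV A) E)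
      (g g₁ : ℕ) (c c₁ : ℤ) (φb : SemilinearAut (kV A) E) (τb : E →+* E)
      (ρ ρ' : Place (AlgebraicClosure ℚ) ↥(FNbar (M * q)) → Place (kV A) E)
      (β : Place (kV A) E → Place (kV A) E),
      RED.H17.IsGenus (AlgebraicClosure ℚ) ↥(FNbar (M * q)) g c ∧
      RED.H17.IsGenus (kV A) E g₁ c₁ ∧
      g + 1 ≤ g₁ + g₁ + S.nodes.card ∧
      (∀ ψ : E, τb ψ = φb • (φb • ψ)) ∧
      S.IsFrobLike (galF (M * q) (σ * σ)) τb τb (q ^ 2) ∧
      (∀ (u₁ : S.c₁.V) (u₂ : S.c₂.V), S.c₁.red u₁ ≠ 0 → S.c₂.red u₂ ≠ 0 →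
        (∃ a : AlgebraicClosure ℚ, (u₂ : ↥(FNbar (M * q))) =
          algebraMap (AlgebraicClosure ℚ) ↥(FNbar (M * q)) a * (u₁ : ↥(FNbar (M * q)))) →
        ∀ D : Divisor (AlgebraicClosure ℚ) ↥(FNbar (M * q)),
          (∀ P, D P = P.ord (u₁ : ↥(FNbar (M * q)))) → ∀ z : Place (kV A) E,
          Finsupp.mapDomain ρ D z = z.ord (S.c₁.red u₁) + (β z).ord (S.c₂.red u₂)) ∧
      (∀ (u₁ : S.c₁.V) (u₂ : S.c₂.V), S.c₁.red u₁ ≠ 0 → S.c₂.red u₂ ≠ 0 →
        (∃ a : AlgebraicClosure ℚ, (u₂ : ↥(FNbar (M * q))) =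
          algebraMap (AlgebraicClosure ℚ) ↥(FNbar (M * q)) a * (u₁ : ↥(FNbar (M * q)))) →
        ∀ D : Divisor (AlgebraicClosure ℚ) ↥(FNbar (M * q)),
          (∀ P, D P = P.ord (u₁ : ↥(FNbar (M * q)))) → ∀ z : Place (kV A) E,
          Finsupp.mapDomain ρ' D z = z.ord (S.c₂.red u₂) + (β z).ord (S.c₁.red u₁)) ∧
      (∀ (z : Place (kV A) E) (ψ : E), (β z).ord ψ = z.ord (φb • ψ)) ∧
      (∀ (hα : HeckeAlphaBarIntegral (AlgebraicClosure ℚ) M q)
        (D : Divisor (AlgebraicClosure ℚ) ↥(FNbar (M * q))),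
        (Divisor.pushforwardAlong (heckeAlphaBar (AlgebraicClosure ℚ) M q) hα D).IsPrincipal →
        ∃ h : E, h ≠ 0 ∧ ∀ z : Place (kV A) E, Finsupp.mapDomain ρ D z = z.ord h) ∧
      (∀ (hβ : HeckeBetaBarIntegral (AlgebraicClosure ℚ) M q)
        (D : Divisor (AlgebraicClosure ℚ) ↥(FNbar (M * q))),
        (Divisor.pushforwardAlong (heckeBetaBar (AlgebraicClosure ℚ) M q) hβ D).IsPrincipal →
        ∃ h : E, h ≠ 0 ∧ ∀ z : Place (kV A) E, Finsupp.mapDomain ρ' D z = z.ord h) := by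
  haveI : IsAlgClosed (kV A) := isAlgClosed_kV A
  -- function fields, Riemann's theorem
  have hFFL : IsFF Kbar ↥(FNbar (M * q)) := H95.stmt_HKA_isFF (M * q)
  have hFF1 : IsFF (kV A) (F1 A q M) := H91.isFF_F1 a b hab hq hA hqM ht
  have H := RED.H17.ffHyp_of_isFF _ _ hFFL
  have H₁ := RED.H17.ffHyp_of_isFF _ _ hFF1
  obtain ⟨g, c, hg⟩ := RED.H17.exists_isGenus _ _ hFFL
  obtain ⟨g₁, c₁, hg₁⟩ := RED.H17.exists_isGenus _ _ hFF1
  have hg₁' : RED.H17.IsGenus (kV A) ↥(H91.redM A M) g₁ c₁ :=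
    H91.isGenus_congr (H82.redField_eq_redField q M a b hab hq A hA) hg₁
  -- NUM
  obtain ⟨Z, hZne, hZc, hZo, hnum⟩ :=
    Fermat.Agent.BAD.H30.num_final_tame M q hq ht hqM A hA (Dvd.intro_left M rfl)
  -- the nodes
  have hZ' : ∀ z ∈ Z.map (H91.kappa A q M a b hab hq hA).symm.toEmbedding,
      (modTot A q M a b hab hq hA hqM ht).IsNode z := by
    intro z hz
    obtain ⟨z₀, hz₀, rfl⟩ := Finset.mem_map.mp hz
    exact H91.isNode_modT a b hab hq hA hqM ht _ _ _ z₀ (hZc z₀ hz₀) (hZo z₀ hz₀)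
  have hnum' : g + 1 ≤ g₁ + g₁
      + (Z.map (H91.kappa A q M a b hab hq hA).symm.toEmbedding).card := by
    rw [Finset.card_map]
    exact Fermat.Agent.BAD.H17.genus_ineq hq hqM ht hA hg hg₁' Z.card hnum
  have hne : ∃ z, (modTot A q M a b hab hq hA hqM ht).IsNode z := by
    obtain ⟨z, hz⟩ := hZne.map (f := (H91.kappa A q M a b hab hq hA).symm.toEmbedding)
    exact ⟨z, hZ' z hz⟩
  have hcard := (modTot A q M a b hab hq hA hqM ht).card_le_toSSD_nodes H.principal H.deg_one
    H₁.principal H₁.deg_one H₁.deg_one hne _ hZ'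
  refine ⟨F1 A q M, inferInstance, inferInstance,
    (modTot A q M a b hab hq hA hqM ht).toSSD H.principal H.deg_one H₁.principal H₁.deg_one
      H₁.deg_one hne, H, H₁, g, g₁, c, c₁, phiSemiMod A q M a b hab hq hA,
    tauMod A q M a b hab hq hA, H91.rhoF1 a b hab hq hA hqM ht,
    fun P => H91.rhoF1 a b hab hq hA hqM ht (wq q M a b hab hq • P),
    betaMod A q M a b hab hq hA, hg, hg₁, ?_, tauMod_apply A q M a b hab hq hA, ?_, ?_, ?_,
    ?_, ?_, ?_⟩
  · omega
  · exact (modTotFrob A q M a b hab hq hA hRed hRho hqM ht hFix σ hσ).isFrobLike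
      H.principal H.deg_one H₁.principal H₁.deg_one hne
  · exact (modTot A q M a b hab hq hA hqM ht).toSSD_tot H.principal H.deg_one H₁.principal
      H₁.deg_one H₁.deg_one hne
  · exact (modTot A q M a b hab hq hA hqM ht).toSSD_mirror H.principal H.deg_one H₁.principal
      H₁.deg_one H₁.deg_one hne (wq q M a b hab hq) (fun P => wq q M a b hab hq • P)
      (wq_wq q M a b hab hq) (fun c x => by rw [map_mul, AlgEquiv.commutes])
      (fun P f => by
        have h := Place.ord_smul (wq q M a b hab hq) P (wq q M a b hab hq f)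
        rw [wq_wq] at h
        exact h)
      (fun x => Iff.rfl) (fun x h₂ h₁ => rfl)
  · intro z ψ
    exact BAD.H73.betaF1_ord A q M hq hA M (H82.redField_eq_fullC q M a b hab hq A hA) z ψ
  · intro hα D hD
    exact cons_alpha A q M a b hab hq hA hqM ht hα D hD
  · intro hβ D hD
    exact cons_beta A q M a b hab hq hA hqM ht hβ D hD

include hRed hRho hFix in
/-- **The modular side of S35 at all tame `(M, q)`.** -/
theorem modSt_tame_of (M q : ℕ) [NeZero M] [NeZero q] (hq : q.Prime) (hqM : ¬ q ∣ M)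
    (ht : H91.TameAt M q) : Stmt_ModSt M q := by
  intro A hA σ hσ
  haveI : NeZero (M * q) := ⟨Nat.mul_ne_zero (NeZero.ne M) (NeZero.ne q)⟩
  obtain ⟨a, b, hab⟩ : ∃ a b : ℤ, a * q + b * M = 1 := by
    have hcop : Nat.Coprime q M := (Nat.Prime.coprime_iff_not_dvd hq).2 hqM
    obtain ⟨a, b, h⟩ := Nat.isCoprime_iff_coprime.2 hcop
    exact ⟨a, b, h⟩
  exact modSt_body hRed hRho hFix A q M a b hab hq hA hqM ht σ hσ

end Body

end Fermat.Agent.S35.H89

end
end
-- ==== END Fermat.Agent.S35.H89_ModStBody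

-- ==== BEGIN Fermat.Agent.S35.H81_Chain
section

/-!
# S35 (helper81): the chain from the modular datum at the tame levels to the frozen statement

* `glueFrobGen_final : Stmt_GlueFrobGen` (GLUE, from package ABS);
* `torsSt_of_modSt_tame` : `Stmt_ModSt M q` at the tame `(M, q)` gives `Stmt_TorsSt M q p`
  at every `(M, q, p)`;
* `tatePieceSt_of_modSt_tame` : ... gives `S35.Stmt_TatePieceSt`;
* `s35_of_modSt_tame` : ... gives the frozen type of S35.
-/

set_option autoImplicit false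

open Polynomial
open CuspForm CuspForm.IsNewform

namespace Fermat.Agent.S35.H81

open Fermat.Agent.S35.H89

/-- The hypothesis: the modular datum of S35 at the tame levels
(`BAD.H91.TameAt M q`, unfolded). -/
def Stmt_ModStTame : Prop :=
  ∀ (M q : ℕ) [NeZero M] [NeZero q], q.Prime → ¬ q ∣ M →
    (5 ≤ q ∨ (q = 3 ∧ 2 ∣ M) ∨ (q = 2 ∧ 3 ∣ M)) → Stmt_ModSt M q

/-- GLUE for Frobenius-like automorphisms, unconditional. -/
theorem glueFrobGen_final : Stmt_GlueFrobGen :=
  glueFrobGen_of Fermat.Agent.BAD.stmt_Moving Fermat.Agent.BAD.H28.stmt_GoodLift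
    Fermat.Agent.BAD.H28.stmt_TIss

/-- `(St)` at every `(M, q, p)` from the modular datum at the tame levels. -/
theorem torsSt_of_modSt_tame (h : Stmt_ModStTame) (M q p : ℕ) [NeZero M] [NeZero q] :
    Stmt_TorsSt M q p := by
  intro hq hqM hp hqp
  exact torsSt_of_stCore M q p
    (Fermat.Agent.S35.H44.stCore_all
      (fun M' q' _ _ hq' hqM' ht => stCore_of_modSt glueFrobGen_final M' q' hq'
        (h M' q' hq' hqM' ht)) M q hq hqM) hq hqM hp hqp

/-- The Steinberg Tate piece from the modular datum at the tame levels. -/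
theorem tatePieceSt_of_modSt_tame (h : Stmt_ModStTame) : Fermat.Agent.S35.Stmt_TatePieceSt :=
  Fermat.Agent.GTor.H81.tatePieceSt_final (fun M q p _ _ => torsSt_of_modSt_tame h M q p)

/-- **S35 from the modular datum at the tame levels.** -/
theorem s35_of_modSt_tame (h : Stmt_ModStTame)
    {M : ℕ} [NeZero M] {g : CuspForm (CongruenceSubgroup.Gamma0 M) 2} (hg : g.IsNewform)
    (lam : ℕ) [Fact lam.Prime]
    (S : Finset ℕ)
    (O' : Type) [CommRing O'] [IsDomain O'] [IsDiscreteValuationRing O']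
    [IsAdicComplete (IsLocalRing.maximalIdeal O') O'] [Finite (IsLocalRing.ResidueField O')]
    [CharZero O'] (hlamO' : (lam : O') ∈ IsLocalRing.maximalIdeal O')
    (chig : CuspForm.heckeAlgebra M 2 (↑S : Set ℕ) →+* ℂ)
    (hchig : ∀ (ℓ : ℕ) (hℓ : ℓ.Prime) (hℓM : ¬ ℓ ∣ M) (hℓS : ℓ ∉ (↑S : Set ℕ)),
      chig (CuspForm.heckeAlgebra.T hℓ hℓM hℓS) = ModularFormClass.qCoeff g ℓ)
    (iota : chig.range →+* O')
    (hlamS : lam ∈ S) (hMS : ∀ q : ℕ, q.Prime → q ∣ M → q ∈ S)
    :
    ∃ (O'' : Type) (_ : CommRing O'') (_ : IsDomain O'') (_ : IsDiscreteValuationRing O'')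
      (_ : IsAdicComplete (IsLocalRing.maximalIdeal O'') O'') (_ : Finite (IsLocalRing.ResidueField O''))
      (_ : CharZero O'') (_ : Algebra O' O'') (_ : Module.Finite O' O'') (_ : IsLocalHom (algebraMap O' O'')),
      Function.Injective (algebraMap O' O'') ∧
      ∃ ρ : GaloisRepAdic O'',
        (∀ (ℓ : ℕ) (hℓ : ℓ.Prime) (hℓM : ¬ ℓ ∣ M) (hℓS : ℓ ∉ (↑S : Set ℕ)),
          ∀ A : ValuationSubring (AlgebraicClosure ℚ), A.LiesOverPrime ℓ →
            ∀ σ : AlgebraicClosure ℚ ≃ₐ[ℚ] AlgebraicClosure ℚ, A.IsFrobeniusAt σ ℓ →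
              LinearMap.charpoly (ρ.ρ σ) =
                X ^ 2 - C (algebraMap O' O'' ((iota.comp chig.rangeRestrict) (CuspForm.heckeAlgebra.T hℓ hℓM hℓS))) * X
                  + C ((ℓ : O''))) ∧
        (∀ q : ℕ, q.Prime → q ≠ lam → q ∣ M → ¬ q ^ 2 ∣ M →
          ∀ A : ValuationSubring (AlgebraicClosure ℚ), A.LiesOverPrime q →
            ∀ σ : AlgebraicClosure ℚ ≃ₐ[ℚ] AlgebraicClosure ℚ, A.IsFrobeniusAt σ q →
              LinearMap.charpoly (ρ.ρ σ) = X ^ 2 - C ((q : O'') + 1) * X + C ((q : O'')) ∨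
              LinearMap.charpoly (ρ.ρ σ) = X ^ 2 + C ((q : O'') + 1) * X + C ((q : O''))) :=
  Fermat.Agent.S35.s35_of
    (Fermat.Agent.S30.H29.assembleS_of_FD Fermat.Agent.Lib.FrobDensity.stmt_FD)
    (tatePieceSt_of_modSt_tame h) hg lam S O' hlamO' chig hchig iota hlamS hMS

end Fermat.Agent.S35.H81

end
-- ==== END Fermat.Agent.S35.H81_Chain

-- ==== BEGIN Fermat.Agent.S35.H89_ModStAll
section

/-!
# S35: the modular side `Stmt_ModSt M q` at all tame `(M, q)`, unconditionally (helper89)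

`stmt_ModSt_tame` from the assembly `modSt_tame_of` and the three leaves
(F-d) helper44, (F-b) helper52, (Σ-fix) helper30.
-/

set_option autoImplicit false

namespace Fermat.Agent.S35.H89

open Fermat.Agent.BAD

/-- **The modular side of S35 at all tame `(M, q)`.** -/
theorem stmt_ModSt_tame (M q : ℕ) [NeZero M] [NeZero q] (hq : q.Prime) (hqM : ¬ q ∣ M)
    (ht : H91.TameAt M q) : Stmt_ModSt M q :=
  modSt_tame_of Fermat.Agent.S35.H44.stmt_FrobRed Fermat.Agent.S35.H52.stmt_FrobRho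
    (Fermat.Agent.S35.H30.sigmaFix_of Fermat.Agent.S35.H52.stmt_FrobRho) M q hq hqM ht

end Fermat.Agent.S35.H89

end
-- ==== END Fermat.Agent.S35.H89_ModStAll
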