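-- GENERATED (merged mirror, NOTES/tools/trim/merge3_helper67.py): 6 modules of the originals, bodies verbatim.
import Fermat.Agent.Zm.S48_L04_000
import Fermat.Agent.Zm.S35_L01_001
import Fermat.Agent.Zm.S48_L01_001
import Fermat.Agent.Zm.S48_L01_000
import Fermat.Agent.Zm.S35_L11_001
import Fermat.Agent.Zm.S35_L06_002
import Fermat.Agent.Zm.S35_L02_001

-- ==== BEGIN Fermat.Agent.NEB.EIG.H39_Mat
section

/-!
# NEB / EIG (helper39): explicit matrices for Betti twisting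

* `alphaGL q n = [[1, n/q], [0, 1]]`; it conjugates `Gam1 L₂ c` into itself when `q ∣ c`, `c q ∣ L₂`;
* `nuSL y = [[1, 0], [y, 1]]`;
* elements `g` of `Γ₀(L₂)` normalise `Gam1 L₂ c`;
* `gam0_alpha` : `g α_n = γ' α_{n a²} g` with `γ' ∈ Gam1 L₂ c`;
* `word_exists` : an element of `Gam1 (M q) c₁` with upper-left entry `≡ T mod q` which is a word in
  `α` and `ν`.
-/

set_option autoImplicit false

namespace Fermat.Agent.NEB.EIG.H39

open CongruenceSubgroup Matrix.SpecialLinearGroup ModularForm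
open scoped MatrixGroups

/-- `α_n = [[1, n/q], [0, 1]]`. -/
noncomputable def alphaGL (q : ℕ) (n : ℤ) : GL (Fin 2) ℝ :=
  upperTriangularGL 1 ((n : ℝ) / q) 1 (by simp)

@[simp] theorem val_alphaGL (q : ℕ) (n : ℤ) :
    ((alphaGL q n : GL (Fin 2) ℝ) : Matrix (Fin 2) (Fin 2) ℝ) = !![1, (n : ℝ) / q; 0, 1] := rfl

theorem alphaGL_add (q : ℕ) (n m : ℤ) : alphaGL q n * alphaGL q m = alphaGL q (n + m) := by
  apply Units.ext
  ext i j
  fin_cases i <;> fin_cases j <;>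
    simp [Matrix.mul_apply, Fin.sum_univ_two] <;> ring

theorem alphaGL_zero (q : ℕ) : alphaGL q 0 = 1 := by
  apply Units.ext
  ext i j
  fin_cases i <;> fin_cases j <;> simp

/-- `[[1, k], [0, 1]]`. -/
def tauSL (k : ℤ) : SL(2, ℤ) := mkSL 1 k 0 1 (by ring)

/-- `[[1, 0], [y, 1]]`. -/
def nuSL (y : ℤ) : SL(2, ℤ) := mkSL 1 0 y 1 (by ring)

theorem alphaGL_mul_q {q : ℕ} (hq : q ≠ 0) (k : ℤ) : alphaGL q (q * k) = mapGL ℝ (tauSL k) := by
  have hq' : (q : ℝ) ≠ 0 := by exact_mod_cast hq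
  apply Units.ext
  ext i j
  fin_cases i <;> fin_cases j <;>
    simp [tauSL] <;> field_simp

theorem tauSL_mem_Gam1 (L₂ c : ℕ) (k : ℤ) : tauSL k ∈ Gam1 L₂ c := by
  refine ⟨?_, ?_, ?_⟩ <;> simp [tauSL]

/-- `δ α_n = α_{ℓ n} δ` for `δ = diag(ℓ, 1)`. -/
theorem heckeDiag_mul_alpha {ℓ : ℕ} (hℓ : ℓ ≠ 0) (q : ℕ) (n : ℤ) :
    heckeDiagMatrix ℓ * alphaGL q n = alphaGL q (ℓ * n) * heckeDiagMatrix ℓ := by
  apply Units.ext
  ext i j
  fin_cases i <;> fin_cases j <;>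
    simp [Matrix.mul_apply, Fin.sum_univ_two, hℓ] <;> ring

/-- `α_n` conjugates `Gam1 L₂ c` into itself. -/
theorem alphaGL_mem_Nrm {L₂ c q : ℕ} (hq0 : q ≠ 0) (hq : q ∣ c) (hcq : c * q ∣ L₂) (n : ℤ) :
    alphaGL q n ∈ Nrm (inc (Gam1 L₂ c)) := by
  apply mem_Nrm_of_comm
  rintro ⟨γ, hγ⟩
  obtain ⟨c', rfl⟩ := hq
  obtain ⟨C₃, hC⟩ : ((q * c' * q : ℕ) : ℤ) ∣ γ 1 0 :=
    (Int.natCast_dvd_natCast.mpr hcq).trans hγ.1
  have h00 := hγ.2.2
  have h11 := Gam1_dvd_11 hγ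
  obtain ⟨e, he⟩ : (q : ℤ) ∣ γ 1 1 - γ 0 0 := by
    have h : ((q * c' : ℕ) : ℤ) ∣ γ 1 1 - γ 0 0 := by
      have := dvd_sub h11 h00
      simpa using this
    exact (Int.natCast_dvd_natCast.mpr (Dvd.intro c' rfl)).trans h
  have hdet := sl_det γ
  push_cast at hC
  let γ' : SL(2, ℤ) := mkSL (γ 0 0 + n * (q * c') * C₃) (γ 0 1 + n * e - n ^ 2 * c' * C₃) (γ 1 0)
    (γ 1 1 - n * (q * c') * C₃) (by
      have he' : γ 1 1 = γ 0 0 + q * e := by linarith
      rw [he'] at hdet ⊢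
      rw [hC] at hdet ⊢
      linear_combination hdet)
  have hγ' : γ' ∈ Gam1 L₂ (q * c') := by
    refine ⟨hγ.1, hγ.2.1, ?_⟩
    show ((q * c' : ℕ) : ℤ) ∣ γ 0 0 + n * (q * c') * C₃ - 1
    have : γ 0 0 + n * (q * c') * C₃ - 1 = (γ 0 0 - 1) + ((q * c' : ℕ) : ℤ) * (n * C₃) := by
      push_cast; ring
    rw [this]
    exact dvd_add h00 (Dvd.intro _ rfl)
  refine ⟨⟨γ', hγ'⟩, ?_⟩
  have hq' : (q : ℝ) ≠ 0 := by exact_mod_cast hq0
  have hC' : ((γ 1 0 : ℤ) : ℝ) = q * c' * q * C₃ := by exact_mod_cast hC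
  have he' : ((γ 1 1 : ℤ) : ℝ) = γ 0 0 + q * e := by
    have := congrArg (Int.cast : ℤ → ℝ) he
    push_cast at this
    linarith
  apply Units.ext
  ext i j
  fin_cases i <;> fin_cases j <;>
    simp [γ', Matrix.mul_apply, Fin.sum_univ_two, hC', he'] <;>
    field_simp <;> ring

/-- Elements of `Γ₀(L₂)` normalise `Gam1 L₂ c` (`c ∣ L₂`). -/
theorem gam0_conj_mem {L₂ c : ℕ} (hc : c ∣ L₂) {g : SL(2, ℤ)} (hg : (L₂ : ℤ) ∣ g 1 0)
    {γ : SL(2, ℤ)} (hγ : γ ∈ Gam1 L₂ c) : g * γ * g⁻¹ ∈ Gam1 L₂ c := by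
  have hgc : (c : ℤ) ∣ g 1 0 := (Int.natCast_dvd_natCast.mpr hc).trans hg
  obtain ⟨G, hG⟩ := hg
  obtain ⟨G', hG'⟩ := hgc
  obtain ⟨Z, hZ⟩ := hγ.1
  obtain ⟨Z', hZ'⟩ := hγ.2.1
  obtain ⟨A, hA⟩ := hγ.2.2
  have hdet := sl_det g
  refine ⟨?_, ?_, ?_⟩
  · rw [sl_mul_10, sl_mul_10, sl_mul_11, sl_inv_00, sl_inv_10]
    refine ⟨(G * γ 0 0 + g 1 1 * Z) * g 1 1 - (g 1 0 * γ 0 1 + g 1 1 * γ 1 1) * G, ?_⟩
    linear_combination (γ 0 0 * g 1 1 - (g 1 0 * γ 0 1 + g 1 1 * γ 1 1)) * hG + (g 1 1) ^ 2 * hZ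
  · rw [sl_mul_10, sl_mul_10, sl_mul_11, sl_inv_00, sl_inv_10]
    refine ⟨(G' * γ 0 0 + g 1 1 * Z') * g 1 1 - (g 1 0 * γ 0 1 + g 1 1 * γ 1 1) * G', ?_⟩
    linear_combination (γ 0 0 * g 1 1 - (g 1 0 * γ 0 1 + g 1 1 * γ 1 1)) * hG' + (g 1 1) ^ 2 * hZ'
  · rw [sl_mul_00, sl_mul_00, sl_mul_01, sl_inv_00, sl_inv_10]
    refine ⟨g 0 0 * g 1 1 * A + g 0 1 * G' + g 0 1 * Z' * g 1 1
      - (g 0 0 * γ 0 1 + g 0 1 * γ 1 1) * G', ?_⟩
    linear_combination (g 0 0 * g 1 1) * hA + hdet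
      + (g 0 1 - (g 0 0 * γ 0 1 + g 0 1 * γ 1 1)) * hG' + (g 0 1 * g 1 1) * hZ'

theorem gam0_mem_Nrm {L₂ c : ℕ} (hc : c ∣ L₂) {g : SL(2, ℤ)} (hg : (L₂ : ℤ) ∣ g 1 0) :
    mapGL ℝ g ∈ Nrm (inc (Gam1 L₂ c)) :=
  mapGL_mem_Nrm fun _ hγ => gam0_conj_mem hc hg hγ

/-- `ν = [[1,0],[y,1]]` normalises `Gam1 L₂ c` when `c ∣ y`, `L₂ ∣ y c`, `L₂ ∣ y²`. -/
theorem nu_conj_mem {L₂ c : ℕ} {y : ℤ} (h1 : (c : ℤ) ∣ y) (h2 : (L₂ : ℤ) ∣ y * c)
    (h3 : (L₂ : ℤ) ∣ y * y) {γ : SL(2, ℤ)} (hγ : γ ∈ Gam1 L₂ c) :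
    nuSL y * γ * (nuSL y)⁻¹ ∈ Gam1 L₂ c := by
  obtain ⟨Y, hY⟩ := h1
  obtain ⟨Y₂, hY₂⟩ := h2
  obtain ⟨Y₃, hY₃⟩ := h3
  obtain ⟨Z, hZ⟩ := hγ.1
  obtain ⟨Z', hZ'⟩ := hγ.2.1
  obtain ⟨A, hA⟩ := hγ.2.2
  obtain ⟨D, hD⟩ := Gam1_dvd_11 hγ
  have e10 : (nuSL y * γ * (nuSL y)⁻¹) 1 0 = γ 1 0 + y * (γ 0 0 - γ 1 1) - y * y * γ 0 1 := by
    rw [sl_mul_10, sl_mul_10, sl_mul_11, sl_inv_00, sl_inv_10]
    simp [nuSL]
    ring
  have e00 : (nuSL y * γ * (nuSL y)⁻¹) 0 0 = γ 0 0 - y * γ 0 1 := by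
    rw [sl_mul_00, sl_mul_00, sl_mul_01, sl_inv_00, sl_inv_10]
    simp [nuSL]
    ring
  have hAD : γ 0 0 - γ 1 1 = c * (A - D) := by linear_combination hA - hD
  refine ⟨?_, ?_, ?_⟩
  · rw [e10, hAD]
    refine ⟨Z + Y₂ * (A - D) - Y₃ * γ 0 1, ?_⟩
    rw [hZ]
    linear_combination (A - D) * hY₂ - (γ 0 1) * hY₃
  · rw [e10, hAD]
    refine ⟨Z' + y * (A - D) - Y * y * γ 0 1, ?_⟩
    rw [hZ']
    linear_combination (- y * γ 0 1) * hY
  · rw [e00]
    refine ⟨A - Y * γ 0 1, ?_⟩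
    linear_combination hA - (γ 0 1) * hY

theorem nu_mem_Nrm {L₂ c : ℕ} {y : ℤ} (h1 : (c : ℤ) ∣ y) (h2 : (L₂ : ℤ) ∣ y * c)
    (h3 : (L₂ : ℤ) ∣ y * y) : mapGL ℝ (nuSL y) ∈ Nrm (inc (Gam1 L₂ c)) :=
  mapGL_mem_Nrm fun _ hγ => nu_conj_mem h1 h2 h3 hγ

end Fermat.Agent.NEB.EIG.H39

end
-- ==== END Fermat.Agent.NEB.EIG.H39_Mat

-- ==== BEGIN Fermat.Agent.NEB.H2_GalSquare
section

/-!
# NEB, package JH, leaf GAL-SQUARE (helper2): norms in a Galois square

```
F₁ --a'--> L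
^          ^
b          b'
F  --a---> F₂
```
`L / b'(F₂)` Galois with group `G`, `a'(F₁)` is `G`-stable, `G` acts faithfully on it with fixed
field `b(F)`, `F₂ / F` finite.  Then `[L : F₁] = [F₂ : F]` and the norms commute with the maps.

* `actF1`, `mulSemiringActionF1` : the action of `G` on `F₁`.
* `linearIndependent_square` : an `F`-basis of `F₂` stays linearly independent over `F₁`
  (Dedekind's independence of characters).
* `stmt_GalSquare : H14.Stmt_GalSquare`.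
-/

set_option autoImplicit false
set_option linter.style.haveILetI false
set_option linter.unusedSectionVars false
set_option maxHeartbeats 1000000

noncomputable section

namespace Fermat.Agent.NEB.H2

open AlgebraicCurve Fermat.Agent.NEB.H14 Fermat.Agent.Lib.HeckeComm

variable {K F F₁ F₂ L : Type} [Field K] [Field F] [Field F₁] [Field F₂] [Field L]
  [Algebra K F] [Algebra K F₁] [Algebra K F₂] [Algebra K L]

section Action

variable (a' : F₁ →ₐ[K] L) (G : Subgroup (L ≃ₐ[K] L))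
  (h3 : ∀ (g : L ≃ₐ[K] L) (y : F₁), g ∈ G → g (a' y) ∈ Set.range a')

/-- The action of `g ∈ G` on `F₁`. -/
def actF1 (g : G) (y : F₁) : F₁ := Classical.choose (h3 g y g.2)

theorem map_actF1 (g : G) (y : F₁) : a' (actF1 a' G h3 g y) = (g : L ≃ₐ[K] L) (a' y) :=
  Classical.choose_spec (h3 g y g.2)

/-- `G` acts on `F₁` by ring automorphisms. -/
@[reducible] def mulSemiringActionF1 : MulSemiringAction G F₁ :=
  letI : MulAction G F₁ :=
    { smul := actF1 a' G h3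
      one_smul := fun y => a'.toRingHom.injective (by
        show a' (actF1 a' G h3 1 y) = a' y
        rw [map_actF1]; rfl)
      mul_smul := fun g g' y => a'.toRingHom.injective (by
        show a' (actF1 a' G h3 (g * g') y) = a' (actF1 a' G h3 g (actF1 a' G h3 g' y))
        rw [map_actF1, map_actF1, map_actF1]; rfl) }
  letI : DistribMulAction G F₁ :=
    { smul_zero := fun g => a'.toRingHom.injective (by
        show a' (actF1 a' G h3 g 0) = a' 0
        rw [map_actF1, map_zero, map_zero])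
      smul_add := fun g x y => a'.toRingHom.injective (by
        show a' (actF1 a' G h3 g (x + y)) = a' (actF1 a' G h3 g x + actF1 a' G h3 g y)
        rw [map_add, map_actF1, map_actF1, map_actF1, map_add, map_add]) }
  { smul_one := fun g => a'.toRingHom.injective (by
      show a' (actF1 a' G h3 g 1) = a' 1
      rw [map_actF1, map_one, map_one])
    smul_mul := fun g x y => a'.toRingHom.injective (by
      show a' (actF1 a' G h3 g (x * y)) = a' (actF1 a' G h3 g x * actF1 a' G h3 g y)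
      rw [map_mul, map_actF1, map_actF1, map_actF1, map_mul, map_mul]) }

end Action

/-- The Galois group instance on `F₁ / F`. -/
theorem isGaloisGroup_F1 (b : F →ₐ[K] F₁) (a' : F₁ →ₐ[K] L) (G : Subgroup (L ≃ₐ[K] L))
    (h3 : ∀ (g : L ≃ₐ[K] L) (y : F₁), g ∈ G → g (a' y) ∈ Set.range a')
    (hfix : ∀ (g : L ≃ₐ[K] L) (t : F), g ∈ G → g (a' (b t)) = a' (b t))
    (h4 : ∀ g ∈ G, (∀ y : F₁, g (a' y) = a' y) → g = 1)
    (h5 : ∀ y : F₁, (∀ g ∈ G, g (a' y) = a' y) → y ∈ Set.range b) :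
    letI := algebraAlong b
    letI := mulSemiringActionF1 a' G h3
    IsGaloisGroup G F F₁ := by
  letI := algebraAlong b
  letI := mulSemiringActionF1 a' G h3
  have hact : ∀ (g : G) (y : F₁), a' (g • y) = (g : L ≃ₐ[K] L) (a' y) := map_actF1 a' G h3
  exact
    { faithful := ⟨fun {g g'} h => by
        have h1 : (g'⁻¹ * g : G) = 1 := by
          apply Subtype.ext
          apply h4 _ (g'⁻¹ * g).2
          intro y
          have h2 : (g : L ≃ₐ[K] L) (a' y) = (g' : L ≃ₐ[K] L) (a' y) := by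
            rw [← hact, ← hact, h y]
          show ((g' : L ≃ₐ[K] L)⁻¹ * (g : L ≃ₐ[K] L)) (a' y) = a' y
          rw [AlgEquiv.mul_apply, h2]
          exact (g' : L ≃ₐ[K] L).symm_apply_apply _
        calc g = g' * (g'⁻¹ * g) := by group
          _ = g' := by rw [h1, mul_one]⟩
      commutes := ⟨fun g t y => a'.toRingHom.injective (by
        show a' (g • (t • y)) = a' (t • (g • y))
        rw [hact, Algebra.smul_def, Algebra.smul_def, map_mul, map_mul, map_mul, hact]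
        congr 1
        exact hfix _ t g.2)⟩
      isInvariant := ⟨fun y hy => by
        obtain ⟨t, ht⟩ := h5 y (fun g hg => by
          have h6 := hact ⟨g, hg⟩ y
          rw [hy ⟨g, hg⟩] at h6
          exact h6.symm)
        exact ⟨t, ht⟩⟩ }

/-- An `F`-basis of `F₂` stays linearly independent over `F₁`. -/
theorem linearIndependent_square (a : F →ₐ[K] F₂) (b : F →ₐ[K] F₁) (a' : F₁ →ₐ[K] L)
    (b' : F₂ →ₐ[K] L) (hsq : a'.comp b = b'.comp a) (G : Subgroup (L ≃ₐ[K] L)) [Fintype G]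
    (h2 : ∀ (g : L ≃ₐ[K] L) (y : F₂), g ∈ G → g (b' y) = b' y)
    (h3 : ∀ (g : L ≃ₐ[K] L) (y : F₁), g ∈ G → g (a' y) ∈ Set.range a')
    (h4 : ∀ g ∈ G, (∀ y : F₁, g (a' y) = a' y) → g = 1)
    (h5 : ∀ y : F₁, (∀ g ∈ G, g (a' y) = a' y) → y ∈ Set.range b)
    {ι : Type} [Fintype ι]
    (x : ι → F₂) (hx : letI := algebraAlong a; LinearIndependent F x) :
    letI := algebraAlong a'
    LinearIndependent F₁ (fun i => b' (x i)) := by
  letI algA := algebraAlong a
  letI algA' := algebraAlong a'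
  letI algB := algebraAlong b
  letI actG := mulSemiringActionF1 a' G h3
  have hsq' : ∀ t : F, a' (b t) = b' (a t) := fun t => congrArg (fun f => f t) hsq
  have hfix : ∀ (g : L ≃ₐ[K] L) (t : F), g ∈ G → g (a' (b t)) = a' (b t) := by
    intro g t hg
    rw [hsq', h2 g _ hg]
  haveI : IsGaloisGroup G F F₁ := isGaloisGroup_F1 b a' G h3 hfix h4 h5
  have hact : ∀ (g : G) (y : F₁), a' (g • y) = (g : L ≃ₐ[K] L) (a' y) := map_actF1 a' G h3
  -- the trace
  have htr : ∀ z : F₁, ∃ t : F, b t = ∑ g : G, g • z := by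
    intro z
    obtain ⟨t, ht⟩ := Algebra.IsInvariant.isInvariant (A := F) (G := G) (∑ g : G, g • z)
      (fun g₀ => by
        rw [Finset.smul_sum]
        refine Fintype.sum_equiv (Equiv.mulLeft g₀) _ _ (fun g => ?_)
        rw [Equiv.coe_mulLeft, mul_smul])
    exact ⟨t, ht⟩
  -- Dedekind
  have hded : ∀ c : F₁, (∀ y : F₁, ∑ g : G, g • (y * c) = 0) → c = 0 := by
    intro c hc
    have li := linearIndependent_monoidHom F₁ F₁
    let ψ : G → (F₁ →* F₁) := fun g => (MulSemiringAction.toRingHom G F₁ g : F₁ →+* F₁)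
    have hψ : Function.Injective ψ := by
      intro g g' h
      apply (IsGaloisGroup.faithful (G := G) (A := F) (B := F₁)).eq_of_smul_eq_smul
      intro y
      exact congrArg (fun f : F₁ →* F₁ => f y) h
    have li' := li.comp ψ hψ
    have h0 := Fintype.linearIndependent_iff.mp li' (fun g => g • c) (by
      funext y
      simp only [Function.comp_apply, Finset.sum_apply, Pi.smul_apply, smul_eq_mul, Pi.zero_apply]
      rw [← hc y]
      refine Finset.sum_congr rfl fun g _ => ?_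
      rw [smul_mul', mul_comm]
      rfl) 1
    simpa using h0
  rw [Fintype.linearIndependent_iff]
  intro c hc i
  apply hded
  intro y
  -- choose the traces
  choose t ht using fun j => htr (y * c j)
  have hsum : ∑ j, t j • x j = 0 := by
    apply b'.toRingHom.injective
    show b' (∑ j, t j • x j) = b' 0
    rw [map_zero, map_sum]
    have h1 : ∀ j, b' (t j • x j) = ∑ g : G, (g : L ≃ₐ[K] L) (a' y * (c j • b' (x j))) := by
      intro j
      rw [Algebra.smul_def, map_mul]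
      show b' (a (t j)) * b' (x j) = _
      rw [← hsq', ht j, map_sum, Finset.sum_mul]
      refine Finset.sum_congr rfl fun g _ => ?_
      rw [hact, Algebra.smul_def, map_mul, map_mul, map_mul, map_mul, h2 _ (x j) g.2]
      show _ = (g : L ≃ₐ[K] L) (a' y) * ((g : L ≃ₐ[K] L) (a' (c j)) * b' (x j))
      ring
    rw [Finset.sum_congr rfl (fun j _ => h1 j), Finset.sum_comm]
    refine Finset.sum_eq_zero fun g _ => ?_
    rw [← map_sum, ← Finset.mul_sum, hc, mul_zero, map_zero]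
  have ht0 := Fintype.linearIndependent_iff.mp hx t hsum i
  rw [← ht i, ht0, map_zero]

/-- **GAL-SQUARE**, generic form. -/
theorem galSquare (a : F →ₐ[K] F₂) (b : F →ₐ[K] F₁) (a' : F₁ →ₐ[K] L)
    (b' : F₂ →ₐ[K] L) (hsq : a'.comp b = b'.comp a) (hfin : FiniteAlong K a)
    (G : Subgroup (L ≃ₐ[K] L)) [Fintype G]
    (h1 : ∀ x : L, (∀ g ∈ G, g x = x) → x ∈ Set.range b')
    (h2 : ∀ (g : L ≃ₐ[K] L) (y : F₂), g ∈ G → g (b' y) = b' y)
    (h3 : ∀ (g : L ≃ₐ[K] L) (y : F₁), g ∈ G → g (a' y) ∈ Set.range a')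
    (h4 : ∀ g ∈ G, (∀ y : F₁, g (a' y) = a' y) → g = 1)
    (h5 : ∀ y : F₁, (∀ g ∈ G, g (a' y) = a' y) → y ∈ Set.range b) :
    FiniteAlong K a' ∧ finrankAlong K a' = finrankAlong K a ∧
    (∀ x : F₂, b (normFn a x) = normFn a' (b' x)) ∧
    (∀ y : F₁, a (normFn b y) = normFn b' (a' y)) := by
  letI algA := algebraAlong a
  letI algA' := algebraAlong a'
  letI algB := algebraAlong b
  letI algB' := algebraAlong b'
  letI algFL : Algebra F L := (a'.toRingHom.comp b.toRingHom).toAlgebra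
  letI actG := mulSemiringActionF1 a' G h3
  have hsq' : ∀ t : F, a' (b t) = b' (a t) := fun t => congrArg (fun f => f t) hsq
  have hfix : ∀ (g : L ≃ₐ[K] L) (t : F), g ∈ G → g (a' (b t)) = a' (b t) := by
    intro g t hg
    rw [hsq', h2 g _ hg]
  haveI : IsScalarTower F F₁ L := IsScalarTower.of_algebraMap_eq fun _ => rfl
  haveI : IsScalarTower F F₂ L := IsScalarTower.of_algebraMap_eq fun t => hsq' t
  haveI hG1 : IsGaloisGroup G F F₁ := isGaloisGroup_F1 b a' G h3 hfix h4 h5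
  have hact : ∀ (g : G) (y : F₁), a' (g • y) = (g : L ≃ₐ[K] L) (a' y) := map_actF1 a' G h3
  haveI : Module.Finite F F₂ := hfin
  obtain ⟨hfinb', hdegb', hnormb'⟩ := galNorm b' G h1 h2
  haveI : Module.Finite F₂ L := hfinb'
  haveI : Module.Finite F L := Module.Finite.trans F₂ L
  haveI hfinL : Module.Finite F₁ L := Module.Finite.of_restrictScalars_finite F F₁ L
  haveI : FiniteDimensional F F₁ := IsGaloisGroup.finiteDimensional G F F₁
  haveI : IsGalois F F₁ := IsGaloisGroup.isGalois G F F₁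
  have hm : Module.finrank F F₁ = Fintype.card G := by
    rw [← IsGaloisGroup.card_eq_finrank G F F₁, Nat.card_eq_fintype_card]
  have hdeg : Module.finrank F₁ L = Module.finrank F F₂ := by
    have e1 := Module.finrank_mul_finrank F F₁ L
    have e2 := Module.finrank_mul_finrank F F₂ L
    have e3 : Module.finrank F₂ L = Fintype.card G := hdegb'
    rw [hm] at e1
    rw [e3, ← e1, mul_comm] at e2
    have hpos : 0 < Fintype.card G := Fintype.card_pos
    exact (Nat.eq_of_mul_eq_mul_left hpos e2).symm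
  refine ⟨hfinL, hdeg, ?_, ?_⟩
  · -- base change of the norm
    intro x
    classical
    let bx := Module.finBasis F F₂
    have hpos : 0 < Module.finrank F F₂ := Module.finrank_pos
    haveI : Nonempty (Fin (Module.finrank F F₂)) := ⟨⟨0, hpos⟩⟩
    have li : LinearIndependent F₁ (fun i => b' (bx i)) :=
      linearIndependent_square a b a' b' hsq G h2 h3 h4 h5 (fun i => bx i) bx.linearIndependent
    let bL : Module.Basis (Fin (Module.finrank F F₂)) F₁ L :=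
      basisOfLinearIndependentOfCardEqFinrank li (by rw [Fintype.card_fin, hdeg])
    exact norm_map_of_basis (b : F →+* F₁) (b' : F₂ →+* L) (fun t => (hsq' t).symm) bx bL
      (fun i => by
        simp only [bL, coe_basisOfLinearIndependentOfCardEqFinrank]
        rfl) x
  · -- norms as products
    intro y
    apply b'.toRingHom.injective
    show b' (a (normFn b y)) = b' (normFn b' (a' y))
    rw [hnormb', ← hsq']
    have h6 : b (normFn b y) = ∏ g : G, g • y := by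
      show algebraMap F F₁ (Algebra.norm F y) = _
      rw [Algebra.norm_eq_prod_automorphisms]
      symm
      refine Fintype.prod_equiv (IsGaloisGroup.mulEquivAlgEquiv G F F₁).toEquiv _ _ (fun g => ?_)
      exact (IsGaloisGroup.mulEquivAlgEquiv_apply_apply G F F₁ g y).symm
    rw [h6, map_prod]
    exact Finset.prod_congr rfl fun g _ => hact g y

/-- **GAL-SQUARE**. -/
theorem stmt_GalSquare : Stmt_GalSquare := by
  intro K F F₁ F₂ L _ _ _ _ _ _ _ _ _ a b a' b' hsq hfin G _ h1 h2 h3 h4 h5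
  exact galSquare a b a' b' hsq hfin G h1 h2 h3 h4 h5

end Fermat.Agent.NEB.H2

end
end
-- ==== END Fermat.Agent.NEB.H2_GalSquare

-- ==== BEGIN Fermat.Agent.NEB.H34_UnrAn
section

set_option autoImplicit false
set_option linter.unusedSectionVars false
set_option linter.unusedVariables false

open UpperHalfPlane ModularForm CongruenceSubgroup ModularCurve
open scoped MatrixGroups ModularForm Manifold

noncomputable section

namespace Fermat.Agent.NEB.H34

open Fermat.Agent.S23.H22 (Nice)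
open Fermat.Agent.GTor (qLaurent)
open Fermat.Agent.GTor.H56 (qLaurent_mul qLaurent_injective qLaurent_eq_zero_iff qLaurent_zero)
open Fermat.Agent.NEB.H84

local notation "ofPS" => HahnSeries.ofPowerSeries ℤ ℂ

variable {M c : ℕ} [NeZero c] (H : Subgroup (ZMod c)ˣ)

/-- `d_γ mod c` as a unit, for `γ ∈ Γ₀(M)`, `c ∣ M`. -/
def dUnit (hc : c ∣ M) : Gamma0 M →* (ZMod c)ˣ :=
  MonoidHom.toHomUnits ((ZMod.castHom hc (ZMod c)).toMonoidHom.comp (Gamma0Map M))

theorem coe_dUnit (hc : c ∣ M) (γ : Gamma0 M) :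
    ((_root_.Fermat.Agent.NEB.H34.dUnit hc γ : (ZMod c)ˣ) : ZMod c) = (((γ : SL(2, ℤ)) 1 1 : ℤ) : ZMod c) := by
  simp [_root_.Fermat.Agent.NEB.H34.dUnit, MonoidHom.toHomUnits, Gamma0Map]

theorem zero_notMem_cosetSet [Fact (1 < c)] (a : (ZMod c)ˣ) : (0 : ZMod c) ∉ cosetSet c H a := by
  rintro ⟨h, -, h1 | h1⟩
  · exact (a * h).ne_zero h1.symm
  · exact (a * h).ne_zero (neg_eq_zero.mp h1.symm)

theorem neg_mem_cosetSet (a : (ZMod c)ˣ) (x : ZMod c) (hx : x ∈ cosetSet c H a) :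
    -x ∈ cosetSet c H a := by
  obtain ⟨h, hh, h1 | h1⟩ := hx
  · exact ⟨h, hh, Or.inr (by rw [h1])⟩
  · exact ⟨h, hh, Or.inl (by rw [h1, neg_neg])⟩

theorem cosetSet_smul (d a : (ZMod c)ˣ) :
    {x : ZMod c | (d : ZMod c) * x ∈ cosetSet c H a} = cosetSet c H (d⁻¹ * a) := by
  ext x
  constructor
  · rintro ⟨h, hh, h1 | h1⟩
    · refine ⟨h, hh, Or.inl ?_⟩
      have : x = ((d⁻¹ : (ZMod c)ˣ) : ZMod c) * ((d : ZMod c) * x) := by
        rw [← mul_assoc, ← Units.val_mul, inv_mul_cancel, Units.val_one, one_mul]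
      rw [this, h1, ← Units.val_mul, mul_assoc]
    · refine ⟨h, hh, Or.inr ?_⟩
      have : x = ((d⁻¹ : (ZMod c)ˣ) : ZMod c) * ((d : ZMod c) * x) := by
        rw [← mul_assoc, ← Units.val_mul, inv_mul_cancel, Units.val_one, one_mul]
      rw [this, h1, mul_neg, ← Units.val_mul, mul_assoc]
  · rintro ⟨h, hh, h1 | h1⟩
    · refine ⟨h, hh, Or.inl ?_⟩
      rw [h1, ← Units.val_mul, ← mul_assoc, ← mul_assoc, mul_inv_cancel, one_mul]
    · refine ⟨h, hh, Or.inr ?_⟩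
      rw [h1, mul_neg, ← Units.val_mul, ← mul_assoc, ← mul_assoc, mul_inv_cancel, one_mul]

/-- The twisted Eisenstein series `∑_a ψ(a)⁻¹ E_{±aH}`. -/
def RAn (ψ : (ZMod c)ˣ →* ℂˣ) : ℍ → ℂ :=
  ∑ a : (ZMod c)ˣ, ((ψ a⁻¹ : ℂˣ) : ℂ) • eisAn c (cosetSet c H a)

theorem isW_smul {k : ℤ} {R : ℍ → ℂ} (h : IsW M k R) (z : ℂ) : IsW M k (z • R) := by
  have h1 := (IsW.const M z).mul h
  have e : (fun _ : ℍ => z) * R = z • R := by
    funext τ
    simp
  rw [e, zero_add] at h1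
  exact h1

theorem isW_zero (M : ℕ) (k : ℤ) : IsW M k (0 : ℍ → ℂ) where
  mdiff := mdifferentiable_const
  slash γ _ := SlashAction.zero_slash _ _
  bdd σ := by
    rw [SlashAction.zero_slash]
    exact Filter.const_boundedAtFilter _ (0 : ℂ)

theorem isW_sum {ι : Type*} (s : Finset ι) {k : ℤ} (R : ι → ℍ → ℂ) (h : ∀ i ∈ s, IsW M k (R i)) :
    IsW M k (∑ i ∈ s, R i) := by
  classical
  induction s using Finset.induction_on with
  | empty => simpa using isW_zero M k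
  | insert a s ha ih =>
    rw [Finset.sum_insert ha]
    exact (h a (Finset.mem_insert_self a s)).add (ih fun i hi => h i (Finset.mem_insert_of_mem hi))

theorem isW_RAn (hc : c ∣ M) (ψ : (ZMod c)ˣ →* ℂˣ) : IsW M 4 (RAn H ψ) :=
  isW_sum _ _ fun a _ => isW_smul (isW_eisAn hc _) _


/-- **The multiplier of the twisted Eisenstein series.** -/
theorem RAn_slash (hc : c ∣ M) (ψ : (ZMod c)ˣ →* ℂˣ) (γ : Gamma0 M) :
    RAn H ψ ∣[(4 : ℤ)] (γ : SL(2, ℤ)) = ((ψ (_root_.Fermat.Agent.NEB.H34.dUnit hc γ)⁻¹ : ℂˣ) : ℂ) • RAn H ψ := by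
  set d : (ZMod c)ˣ := _root_.Fermat.Agent.NEB.H34.dUnit hc γ with hd
  have hγc : (γ : SL(2, ℤ)) ∈ Gamma0 c := mem_Gamma0_of_dvd hc γ.2
  unfold RAn
  rw [SlashAction.sum_slash, Finset.smul_sum]
  have h1 : ∀ a : (ZMod c)ˣ, (((ψ a⁻¹ : ℂˣ) : ℂ) • eisAn c (cosetSet c H a)) ∣[(4 : ℤ)]
      (γ : SL(2, ℤ)) = ((ψ a⁻¹ : ℂˣ) : ℂ) • eisAn c (cosetSet c H (d⁻¹ * a)) := by
    intro a
    rw [ModularForm.SL_smul_slash,
      Fermat.Agent.NEB.H29.eisAn_slash_Gamma0 c _ ⟨(γ : SL(2, ℤ)), hγc⟩]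
    congr 2
    rw [← cosetSet_smul H d a, hd, _root_.Fermat.Agent.NEB.H34.coe_dUnit]
  rw [Finset.sum_congr rfl fun a _ => h1 a]
  refine Fintype.sum_equiv (Equiv.mulLeft d⁻¹) _ _ fun a => ?_
  simp only [Equiv.coe_mulLeft]
  rw [smul_smul, ← Units.val_mul, ← map_mul, mul_inv_rev, inv_inv]
  congr 3
  rw [mul_comm a⁻¹ d, inv_mul_cancel_left]


/-- The algebraic counterpart of `RAn` over `ℂ`: `∑_a ψ(a)⁻¹ e_{±aH}`. -/
def yC (ψ : (ZMod c)ˣ →* ℂˣ) : LaurentSeries ℂ :=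
  ∑ a : (ZMod c)ˣ, ((ψ a⁻¹ : ℂˣ) : ℂ) • coeffEmb ℂ (eisGen c (cosetSet c H a))

theorem qLaurent_smul {F : ℍ → ℂ} (hF : Nice 1 F) (z : ℂ) :
    qLaurent (z • F) = z • qLaurent F := by
  rw [qLaurent, qLaurent, hF.qExpansion_smul one_pos]
  ext n
  rcases lt_or_ge n 0 with hn | hn
  · rw [HahnSeries.coeff_smul, ModularCurve.ofPowerSeries_coeff_of_neg _ hn,
      ModularCurve.ofPowerSeries_coeff_of_neg _ hn, smul_zero]
  · lift n to ℕ using hn
    rw [HahnSeries.coeff_smul, HahnSeries.ofPowerSeries_apply_coeff,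
      HahnSeries.ofPowerSeries_apply_coeff]
    simp

theorem qLaurent_sum_smul {ι : Type*} (s : Finset ι) (z : ι → ℂ) (F : ι → ℍ → ℂ)
    (hF : ∀ i, Nice 1 (F i)) :
    qLaurent (∑ i ∈ s, z i • F i) = ∑ i ∈ s, z i • qLaurent (F i) := by
  classical
  induction s using Finset.induction_on with
  | empty => simpa using qLaurent_zero
  | insert a s ha ih =>
    rw [Finset.sum_insert ha, Finset.sum_insert ha,
      qLaurent_add ((hF a).smul _) (Nice.sum _ fun i _ => (hF i).smul _), ih,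
      qLaurent_smul (hF a)]

theorem qLaurent_E4 : qLaurent ((E₄ : ModularForm 𝒮ℒ 4) : ℍ → ℂ) =
    ofPS (eisenstein4.map (Int.castRingHom ℂ)) := by
  rw [qLaurent, Fermat.Agent.S28.H76.qExpansion_E4_eq_eisenstein4]

/-- **The `q`-expansion of the twisted Eisenstein series.** -/
theorem qLaurent_RAn [Fact (1 < c)] (hc : c ∣ M) (ψ : (ZMod c)ˣ →* ℂˣ) :
    qLaurent (RAn H ψ) = yC H ψ *
      (Fermat.Agent.NEB.H29.eisConst • qLaurent ((E₄ : ModularForm 𝒮ℒ 4) : ℍ → ℂ)) := by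
  unfold RAn yC
  rw [qLaurent_sum_smul _ _ _ (fun a => (isW_eisAn (M := M) hc _).nice), Finset.sum_mul]
  refine Finset.sum_congr rfl fun a _ => ?_
  rw [Fermat.Agent.NEB.H29.qLaurent_eisAn c _ (zero_notMem_cosetSet H a) (_root_.Fermat.Agent.NEB.H34.neg_mem_cosetSet H a),
    qLaurent_E4, ← coeffEmb_eisGen_mul]
  simp only [← HahnSeries.C_mul_eq_smul]
  ring

end Fermat.Agent.NEB.H34

end
end
-- ==== END Fermat.Agent.NEB.H34_UnrAn

-- ==== BEGIN Fermat.Agent.NEB.H84_Act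
section

/-!
# NEB, package FH-GAL, part 4 (helper84): `Γ₀(M)` acts on `F_H(M)·ℚ̄` by `ℚ̄`-algebra automorphisms

For `γ ∈ Γ₀(M)` and an embedding `ι : ℚ̄ → ℂ`: `actHom γ : F_H →ₐ[ℚ̄] F_H` with graph `RelK γ`
(the slash action on ratios of forms, transported by `ι`).
-/

set_option autoImplicit false
set_option linter.unusedSectionVars false

open UpperHalfPlane ModularForm CongruenceSubgroup ModularCurve
open scoped MatrixGroups ModularForm Manifold

noncomputable section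

namespace Fermat.Agent.NEB.H84

open Fermat.Agent.GTor (qLaurent)

/-! ### Coset sets -/

section CosetSet

variable {c : ℕ} (H : Subgroup (ZMod c)ˣ)

theorem zero_not_mem_cosetSet (hc : 2 ≤ c) (a : (ZMod c)ˣ) : (0 : ZMod c) ∉ cosetSet c H a := by
  have : Fact (1 < c) := ⟨hc⟩
  rintro ⟨h, -, h1 | h1⟩
  · exact (Units.ne_zero _) h1.symm
  · exact (Units.ne_zero _) (neg_eq_zero.mp h1.symm)

theorem neg_mem_cosetSet (a : (ZMod c)ˣ) (x : ZMod c) (hx : x ∈ cosetSet c H a) :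
    -x ∈ cosetSet c H a := by
  obtain ⟨h, hh, h1 | h1⟩ := hx
  · exact ⟨h, hh, Or.inr (by rw [h1])⟩
  · exact ⟨h, hh, Or.inl (by rw [h1, neg_neg])⟩

theorem cosetSet_translate (a u : (ZMod c)ˣ) :
    {x : ZMod c | (u : ZMod c) * x ∈ cosetSet c H a} = cosetSet c H (u⁻¹ * a) := by
  ext x
  constructor
  · rintro ⟨h, hh, h1 | h1⟩
    · refine ⟨h, hh, Or.inl ?_⟩
      have : x = ((u⁻¹ : (ZMod c)ˣ) : ZMod c) * ((u : ZMod c) * x) := by
        rw [← mul_assoc, ← Units.val_mul, inv_mul_cancel, Units.val_one, one_mul]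
      rw [this, h1]
      push_cast
      ring
    · refine ⟨h, hh, Or.inr ?_⟩
      have : x = ((u⁻¹ : (ZMod c)ˣ) : ZMod c) * ((u : ZMod c) * x) := by
        rw [← mul_assoc, ← Units.val_mul, inv_mul_cancel, Units.val_one, one_mul]
      rw [this, h1]
      push_cast
      ring
  · rintro ⟨h, hh, h1 | h1⟩
    · refine ⟨h, hh, Or.inl ?_⟩
      rw [h1]
      push_cast
      rw [← mul_assoc, ← mul_assoc, ← Units.val_mul, mul_inv_cancel, Units.val_one, one_mul]
    · refine ⟨h, hh, Or.inr ?_⟩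
      rw [h1]
      push_cast
      rw [mul_neg, ← mul_assoc, ← mul_assoc, ← Units.val_mul, mul_inv_cancel, Units.val_one,
        one_mul]

end CosetSet

/-! ### An induction principle for `F_H(M)·ℚ̄` -/

section Induction

variable (M c : ℕ) (H : Subgroup (ZMod c)ˣ)

theorem FHQ_induction {P : LaurentSeries ℚ → Prop}
    (hconst : ∀ r : ℚ, P (algebraMap ℚ (LaurentSeries ℚ) r))
    (hj : ∀ (d : ℕ) (_ : NeZero d), d ∣ M → P (qExpand ℚ d jq))
    (hgen : ∀ a : (ZMod c)ˣ, P (eisGen c (cosetSet c H a)))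
    (hone : P 1) (hadd : ∀ x y, P x → P y → P (x + y)) (hneg : ∀ x, P x → P (-x))
    (hinv : ∀ x, P x → P x⁻¹) (hmul : ∀ x y, P x → P y → P (x * y))
    {z : LaurentSeries ℚ} (hz : z ∈ FHQ M c H) : P z := by
  have hz' : z ∈ Subfield.closure
      (Set.range (algebraMap ℚ (LaurentSeries ℚ)) ∪ (divisorExpansions M ∪ genSet c H)) := hz
  clear hz
  induction hz' using Subfield.closure_induction with
  | mem w hw =>
    rcases hw with ⟨r, rfl⟩ | ⟨d, hd0, hd, rfl⟩ | ⟨a, rfl⟩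
    · exact hconst r
    · exact hj d hd0 hd
    · exact hgen a
  | one => exact hone
  | add x y _ _ hx hy => exact hadd x y hx hy
  | neg x _ hx => exact hneg x hx
  | inv x _ hx => exact hinv x hx
  | mul x y _ _ hx hy => exact hmul x y hx hy

theorem FHbar_induction {P : LaurentSeries Kbar → Prop}
    (hconst : ∀ a : Kbar, P (algebraMap Kbar (LaurentSeries Kbar) a))
    (hj : ∀ (d : ℕ) (_ : NeZero d), d ∣ M → P (coeffEmb Kbar (qExpand ℚ d jq)))
    (hgen : ∀ a : (ZMod c)ˣ, P (coeffEmb Kbar (eisGen c (cosetSet c H a))))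
    (hone : P 1) (hadd : ∀ x y, P x → P y → P (x + y)) (hneg : ∀ x, P x → P (-x))
    (hinv : ∀ x, P x → P x⁻¹) (hmul : ∀ x y, P x → P y → P (x * y))
    {x : LaurentSeries Kbar} (hx : x ∈ FHbar M c H) : P x := by
  have hx' := mem_laurentBaseChange_iff.mp hx
  clear hx
  induction hx' using Subfield.closure_induction with
  | mem w hw =>
    rcases hw with ⟨a, rfl⟩ | ⟨z, hz, rfl⟩
    · exact hconst a
    · refine FHQ_induction M c H (P := fun z => P (coeffEmb Kbar z)) ?_ hj hgen ?_ ?_ ?_ ?_ ?_ hz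
      · intro r
        have : coeffEmb Kbar (algebraMap ℚ (LaurentSeries ℚ) r) =
            algebraMap Kbar (LaurentSeries Kbar) (algebraMap ℚ Kbar r) := by
          rw [algebraMap_laurentSeries_eq_single, coeffEmb, coeffMap_single,
            ← algebraMap_laurentSeries_eq_single]
        rw [this]
        exact hconst _
      · rw [map_one]; exact hone
      · intro x y hx hy; rw [map_add]; exact hadd _ _ hx hy
      · intro x hx; rw [map_neg]; exact hneg _ hx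
      · intro x hx; rw [map_inv₀]; exact hinv _ hx
      · intro x y hx hy; rw [map_mul]; exact hmul _ _ hx hy
  | one => exact hone
  | add x y _ _ hx hy => exact hadd x y hx hy
  | neg x _ hx => exact hneg x hx
  | inv x _ hx => exact hinv x hx
  | mul x y _ _ hx hy => exact hmul x y hx hy

end Induction

/-! ### Transport to `ℂ` -/

section Transport

variable (ι : Kbar →+* ℂ)

theorem coeffMap_const (a : Kbar) :
    coeffMap ι (algebraMap Kbar (LaurentSeries Kbar) a) = HahnSeries.C (ι a) := by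
  rw [algebraMap_laurentSeries_eq_single, coeffMap_single]
  rfl

theorem coeffMap_inj : Function.Injective (coeffMap ι) := by
  intro x y h
  ext n
  have := congrArg (fun z => z.coeff n) h
  simp only [coeffMap_coeff] at this
  exact ι.injective this

theorem coeffMap_coeffEmb_C (z : LaurentSeries ℚ) :
    coeffMap ι (coeffEmb Kbar z) = coeffEmb ℂ z :=
  Fermat.Agent.NEB.H30.coeffMap_coeffEmb_eq ι z

end Transport

/-! ### The unit `d_γ mod c` -/

section DUnit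

variable {M c : ℕ}

/-- The lower right entry of `γ ∈ Γ₀(M)` as a unit mod `c`, `c ∣ M`. -/
def dUnit (hc : c ∣ M) (γ : SL(2, ℤ)) (hγ : γ ∈ Gamma0 M) : (ZMod c)ˣ :=
  Units.mkOfMulEqOne ((γ 1 1 : ℤ) : ZMod c) ((γ 0 0 : ℤ) : ZMod c) (by
    have h0 : ((γ 1 0 : ℤ) : ZMod c) = 0 := Gamma0_mem.mp (mem_Gamma0_of_dvd hc hγ)
    have hdet : (γ 0 0 : ℤ) * γ 1 1 - γ 0 1 * γ 1 0 = 1 := by
      have := γ.2
      rwa [Matrix.det_fin_two] at this
    have := congrArg (fun z : ℤ => (z : ZMod c)) hdet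
    simp only [Int.cast_sub, Int.cast_mul, Int.cast_one, h0, mul_zero, sub_zero] at this
    rw [mul_comm]
    exact this)

@[simp]
theorem coe_dUnit (hc : c ∣ M) (γ : SL(2, ℤ)) (hγ : γ ∈ Gamma0 M) :
    ((dUnit hc γ hγ : (ZMod c)ˣ) : ZMod c) = ((γ 1 1 : ℤ) : ZMod c) := rfl

end DUnit

/-! ### The graph of the action on `F_H(M)·ℚ̄` -/

section Exists

variable {M c : ℕ} [NeZero M] (H : Subgroup (ZMod c)ˣ) (ι : Kbar →+* ℂ)

theorem relK_gen (hc2 : 2 ≤ c) (hc : c ∣ M) {γ : SL(2, ℤ)} (hγ : γ ∈ Gamma0 M) (a : (ZMod c)ˣ) :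
    Rel M γ (coeffMap ι (coeffEmb Kbar (eisGen c (cosetSet c H a))))
      (coeffMap ι (coeffEmb Kbar (eisGen c (cosetSet c H ((dUnit hc γ hγ)⁻¹ * a))))) := by
  rw [coeffMap_coeffEmb_C, coeffMap_coeffEmb_C]
  have := rel_eisGen hc hγ (cosetSet c H a) (zero_not_mem_cosetSet H hc2 a)
    (neg_mem_cosetSet H a)
  rw [← coe_dUnit hc γ hγ, cosetSet_translate] at this
  exact this

theorem exists_relK (hc2 : 2 ≤ c) (hc : c ∣ M) {γ : SL(2, ℤ)} (hγ : γ ∈ Gamma0 M)
    {x : LaurentSeries Kbar} (hx : x ∈ FHbar M c H) :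
    ∃ y ∈ FHbar M c H, Rel M γ (coeffMap ι x) (coeffMap ι y) := by
  refine FHbar_induction M c H (P := fun x => ∃ y ∈ FHbar M c H,
    Rel M γ (coeffMap ι x) (coeffMap ι y)) ?_ ?_ ?_ ?_ ?_ ?_ ?_ ?_ hx
  · intro a
    refine ⟨_, (FHbar M c H).algebraMap_mem a, ?_⟩
    rw [coeffMap_const]
    exact rel_C M γ _
  · intro d hd0 hd
    have hmem : qExpand ℚ d jq ∈ modularFunctionFieldFull M :=
      IntermediateField.subset_adjoin ℚ _ ⟨d, hd0, hd, rfl⟩
    refine ⟨_, coeffEmb_mem_laurentBaseChange Kbar (full_le_FHQ M c H hmem), ?_⟩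
    rw [coeffMap_coeffEmb_C]
    exact rel_coeffEmb_full hγ hmem
  · intro a
    exact ⟨_, coeffEmb_mem_laurentBaseChange Kbar (eisGen_mem_FHQ M c H _),
      relK_gen H ι hc2 hc hγ a⟩
  · refine ⟨1, one_mem _, ?_⟩
    rw [map_one]
    have := rel_C M γ 1
    rwa [map_one] at this
  · rintro x y ⟨x', hx', h1⟩ ⟨y', hy', h2⟩
    refine ⟨x' + y', add_mem hx' hy', ?_⟩
    rw [map_add, map_add]
    exact rel_add hγ h1 h2
  · rintro x ⟨x', hx', h1⟩
    refine ⟨-x', neg_mem hx', ?_⟩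
    rw [map_neg, map_neg]
    exact rel_neg hγ h1
  · rintro x ⟨x', hx', h1⟩
    by_cases hx0 : x = 0
    · refine ⟨0, zero_mem _, ?_⟩
      rw [hx0, inv_zero, map_zero]
      have := rel_C M γ 0
      rwa [map_zero] at this
    · refine ⟨x'⁻¹, inv_mem hx', ?_⟩
      rw [map_inv₀, map_inv₀]
      exact rel_inv hγ h1 (fun h => hx0 ((map_eq_zero_iff _ (coeffMap_inj ι)).mp h))
  · rintro x y ⟨x', hx', h1⟩ ⟨y', hy', h2⟩
    refine ⟨x' * y', mul_mem hx' hy', ?_⟩
    rw [map_mul, map_mul]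
    exact rel_mul hγ h1 h2

end Exists

end Fermat.Agent.NEB.H84

end
end
-- ==== END Fermat.Agent.NEB.H84_Act

-- ==== BEGIN Fermat.Agent.NEB.H94_FF
section
attribute [local instance 10000] SubalgebraClass.toAlgebra
attribute [local instance 10000] HahnSeries.powerSeriesAlgebra

/-!
# Item 72 (LG-NEB), package FH-FF (helper94)

* `laurentBaseChange_adjoin` : `laurentBaseChange L (adjoin ℚ S) = adjoin L (coeffEmb L '' S)`;
* `hasScale_FHbar` : `F_H(M) · ℚ̄` has the scaling property for every valuation ring of `ℚ̄`;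
* `isFF_of_finiteAlong` : a finite extension (along `φ`) of a function field is a function field;
* `pmSubgroup c H` : the subgroup `±H`;
* `finiteAlong_inclBar`, `finrankAlong_inclBar`, `isFF_FHbar` : from `Stmt_FH_gal`.
-/

set_option autoImplicit false
set_option linter.style.haveILetI false
set_option linter.unusedSectionVars false

noncomputable section

namespace Fermat.Agent.NEB.H94

open AlgebraicCurve ModularCurve IntermediateField Fermat.Agent.RED Fermat.Agent.RED.H73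
  Fermat.Agent.S28 Fermat.Agent.S28.H73

/-! ## (b) scaling -/

section Scale

variable {L : Type} [Field L] [Algebra ℚ L]

theorem coeffEmb_algebraMap (r : ℚ) :
    coeffEmb L (algebraMap ℚ (LaurentSeries ℚ) r)
      = algebraMap L (LaurentSeries L) (algebraMap ℚ L r) := by
  rw [algebraMap_laurentSeries_eq_single, coeffEmb, coeffMap_single,
    ← algebraMap_laurentSeries_eq_single]

/-- The base change of the field generated by `S` is generated by the image of `S`. -/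
theorem laurentBaseChange_adjoin (S : Set (LaurentSeries ℚ)) :
    laurentBaseChange L (IntermediateField.adjoin ℚ S)
      = IntermediateField.adjoin L (⇑(coeffEmb L) '' S) := by
  apply le_antisymm
  · rw [laurentBaseChange, IntermediateField.adjoin_le_iff]
    rintro x ⟨y, hy, rfl⟩
    let T : Subfield (LaurentSeries ℚ) :=
      (IntermediateField.adjoin L (⇑(coeffEmb L) '' S)).toSubfield.comap (coeffEmb L)
    have hT : ∀ r : ℚ, algebraMap ℚ (LaurentSeries ℚ) r ∈ T := by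
      intro r
      show coeffEmb L (algebraMap ℚ (LaurentSeries ℚ) r) ∈
        IntermediateField.adjoin L (⇑(coeffEmb L) '' S)
      rw [coeffEmb_algebraMap]
      exact (IntermediateField.adjoin L (⇑(coeffEmb L) '' S)).algebraMap_mem _
    let T' : IntermediateField ℚ (LaurentSeries ℚ) := T.toIntermediateField hT
    have hle : IntermediateField.adjoin ℚ S ≤ T' := by
      rw [IntermediateField.adjoin_le_iff]
      intro z hz
      show coeffEmb L z ∈ IntermediateField.adjoin L (⇑(coeffEmb L) '' S)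
      exact IntermediateField.subset_adjoin L _ ⟨z, hz, rfl⟩
    exact hle hy
  · rw [IntermediateField.adjoin_le_iff]
    rintro x ⟨y, hy, rfl⟩
    exact coeffEmb_mem_laurentBaseChange L (IntermediateField.subset_adjoin ℚ _ hy)

theorem coeffEmb_ofPowerSeries_int (P : PowerSeries ℤ) :
    coeffEmb L (HahnSeries.ofPowerSeries ℤ ℚ (P.map (Int.castRingHom ℚ)))
      = coeffMap (Int.castRingHom L) (HahnSeries.ofPowerSeries ℤ ℤ P) := by
  ext k
  rw [coeffEmb_coeff, coeffMap_coeff]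
  by_cases hk : 0 ≤ k
  · obtain ⟨n, rfl⟩ := Int.eq_ofNat_of_zero_le hk
    rw [HahnSeries.ofPowerSeries_apply_coeff, HahnSeries.ofPowerSeries_apply_coeff,
      PowerSeries.coeff_map]
    simp
  · have h1 : (HahnSeries.ofPowerSeries ℤ ℚ (P.map (Int.castRingHom ℚ))).coeff k = 0 := by
      rw [HahnSeries.ofPowerSeries_apply, HahnSeries.embDomain_of_notMem_range]
      rintro ⟨n, hn⟩
      apply hk
      rw [← hn]
      exact Int.natCast_nonneg n
    have h2 : (HahnSeries.ofPowerSeries ℤ ℤ P).coeff k = 0 := by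
      rw [HahnSeries.ofPowerSeries_apply, HahnSeries.embDomain_of_notMem_range]
      rintro ⟨n, hn⟩
      apply hk
      rw [← hn]
      exact Int.natCast_nonneg n
    rw [h1, h2, map_zero, map_zero]

theorem coeffEmb_eisGen_mem_intSpan (c : ℕ) (S : Set (ZMod c)) :
    coeffEmb L (eisGen c S) ∈ IntSpan L := by
  unfold eisGen
  rw [coeffEmb_ofPowerSeries_int]
  exact coeffMap_int_mem_intSpan _

theorem coeffEmb_divisorExpansions_mem_intSpan (M : ℕ) {x : LaurentSeries ℚ}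
    (hx : x ∈ divisorExpansions M) : coeffEmb L x ∈ IntSpan L := by
  obtain ⟨d, hd0, hd, rfl⟩ := hx
  rw [coeffEmb_qExpand_jq]
  exact intSeries_le_intSpan (qExpand_jqModC_mem_intSeries d)

/-- **FH-FF (b)**: `F_H(M) · L` has the scaling property for every valuation subring of `L`. -/
theorem hasScale_FH (A : ValuationSubring L) (M c : ℕ) (H : Subgroup (ZMod c)ˣ) :
    HasScale A (laurentBaseChange L (FHQ M c H)) := by
  unfold FHQ
  rw [laurentBaseChange_adjoin]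
  refine hasScale_adjoin A ?_
  rintro x ⟨y, hy, rfl⟩
  rcases hy with hy | ⟨a, rfl⟩
  · exact coeffEmb_divisorExpansions_mem_intSpan M hy
  · exact coeffEmb_eisGen_mem_intSpan c _

/-- **FH-FF (b)** over `ℚ̄`. -/
theorem hasScale_FHbar (A : ValuationSubring Kbar) (M c : ℕ) (H : Subgroup (ZMod c)ˣ) :
    HasScale A (FHbar M c H) :=
  hasScale_FH A M c H

end Scale

/-! ## (a) finiteness -/

section FF

variable {K F F' : Type} [Field K] [Field F] [Field F'] [Algebra K F] [Algebra K F']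

/-- A finite extension (along `φ`) of a function field of one variable is a function field of
one variable. -/
theorem isFF_of_finiteAlong (hF : IsFF K F) (φ : F →ₐ[K] F') (hφ : FiniteAlong K φ) :
    IsFF K F' := by
  obtain ⟨x, hx, hfin⟩ := hF
  refine ⟨φ x, ?_, ?_⟩
  · intro h
    exact hx ((isAlgebraic_algHom_iff φ φ.toRingHom.injective).mp h)
  · letI := algebraAlong φ
    haveI := isScalarTower_along φ
    haveI : Module.Finite F F' := hφ
    haveI : Module.Finite ↥K⟮x⟯ F := hfin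
    letI : Algebra ↥K⟮x⟯ F' := ((algebraMap F F').comp (algebraMap ↥K⟮x⟯ F)).toAlgebra
    haveI : IsScalarTower ↥K⟮x⟯ F F' := IsScalarTower.of_algebraMap_eq fun _ => rfl
    haveI : Module.Finite ↥K⟮x⟯ F' := Module.Finite.trans F F'
    have hmem : ∀ y : ↥K⟮x⟯, φ (y : F) ∈ K⟮φ x⟯ := by
      intro y
      have h1 : (K⟮x⟯).map φ = K⟮φ x⟯ := by
        rw [IntermediateField.adjoin_map, Set.image_singleton]
      rw [← h1]
      exact ⟨(y : F), y.2, rfl⟩
    let e : ↥K⟮x⟯ →+* ↥K⟮φ x⟯ :=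
      { toFun := fun y => ⟨φ (y : F), hmem y⟩
        map_one' := Subtype.ext (by simp)
        map_mul' := fun a b => Subtype.ext (by simp)
        map_zero' := Subtype.ext (by simp)
        map_add' := fun a b => Subtype.ext (by simp) }
    letI : Algebra ↥K⟮x⟯ ↥K⟮φ x⟯ := e.toAlgebra
    haveI : IsScalarTower ↥K⟮x⟯ ↥K⟮φ x⟯ F' := IsScalarTower.of_algebraMap_eq fun _ => rfl
    exact Module.Finite.of_restrictScalars_finite ↥K⟮x⟯ ↥K⟮φ x⟯ F'

end FF

/-! ## The subgroup `±H` -/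

/-- The subgroup `±H` of `(ℤ/c)ˣ`. -/
def pmSubgroup (c : ℕ) (H : Subgroup (ZMod c)ˣ) : Subgroup (ZMod c)ˣ where
  carrier := {d | d ∈ H ∨ -d ∈ H}
  one_mem' := Or.inl H.one_mem
  mul_mem' := by
    rintro a b (ha | ha) (hb | hb)
    · exact Or.inl (H.mul_mem ha hb)
    · right
      have := H.mul_mem ha hb
      rwa [mul_neg] at this
    · right
      have := H.mul_mem ha hb
      rwa [neg_mul] at this
    · left
      have := H.mul_mem ha hb
      rwa [neg_mul_neg] at this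
  inv_mem' := by
    rintro a (ha | ha)
    · exact Or.inl (H.inv_mem ha)
    · right
      have := H.inv_mem ha
      rwa [inv_neg] at this

theorem mem_pmSubgroup {c : ℕ} {H : Subgroup (ZMod c)ˣ} {d : (ZMod c)ˣ} :
    d ∈ pmSubgroup c H ↔ d ∈ H ∨ -d ∈ H := Iff.rfl

theorem le_pmSubgroup (c : ℕ) (H : Subgroup (ZMod c)ˣ) : H ≤ pmSubgroup c H :=
  fun _ hd => Or.inl hd

/-! ## (a) for `F_H` -/

section FH

variable (M c : ℕ) (H : Subgroup (ZMod c)ˣ)

/-- **FH-FF (a)**: `F_H(M) / F₀(M)` is finite of degree `[(ℤ/c)ˣ : ±H]`. -/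
theorem galNorm_inclBar (hc : 2 ≤ c) (hcM : c ∣ M) (hM : M ≠ 0) (hgal : Stmt_FH_gal M c H) :
    FiniteAlong Kbar (inclBar M c H) ∧
      finrankAlong Kbar (inclBar M c H) = (pmSubgroup c H).index := by
  obtain ⟨ρ, -, hfix, hinv, hker, -⟩ := hgal hc hcM hM
  haveI : NeZero c := ⟨by omega⟩
  haveI : Finite ρ.range := Finite.of_surjective ρ.rangeRestrict ρ.rangeRestrict_surjective
  letI : Fintype ρ.range := Fintype.ofFinite _
  obtain ⟨h1, h2, -⟩ := H2.galNorm (inclBar M c H) ρ.range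
    (fun x hx => by
      obtain ⟨x₀, h⟩ := hinv x (fun d => hx _ ⟨d, rfl⟩)
      exact ⟨x₀, h⟩)
    (by
      rintro g y ⟨d, rfl⟩
      exact hfix d y)
  refine ⟨h1, ?_⟩
  rw [h2, ← Nat.card_eq_fintype_card, ← Subgroup.index_ker]
  congr 1
  ext d
  rw [MonoidHom.mem_ker, mem_pmSubgroup]
  exact hker d

theorem finiteAlong_inclBar (hc : 2 ≤ c) (hcM : c ∣ M) (hM : M ≠ 0)
    (hgal : Stmt_FH_gal M c H) : FiniteAlong Kbar (inclBar M c H) :=
  (galNorm_inclBar M c H hc hcM hM hgal).1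

theorem finrankAlong_inclBar (hc : 2 ≤ c) (hcM : c ∣ M) (hM : M ≠ 0)
    (hgal : Stmt_FH_gal M c H) :
    finrankAlong Kbar (inclBar M c H) = (pmSubgroup c H).index :=
  (galNorm_inclBar M c H hc hcM hM hgal).2

/-- **FH-FF (a)**: `F_H(M) · ℚ̄` is a function field of one variable over `ℚ̄`. -/
theorem isFF_FHbar [NeZero M] (hc : 2 ≤ c) (hcM : c ∣ M) (hgal : Stmt_FH_gal M c H) :
    IsFF Kbar ↥(FHbar M c H) :=
  isFF_of_finiteAlong (Fermat.Agent.RED.H95.isFF_FN M) (inclBar M c H)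
    (finiteAlong_inclBar M c H hc hcM (NeZero.ne M) hgal)

end FH

end Fermat.Agent.NEB.H94

end
end
-- ==== END Fermat.Agent.NEB.H94_FF

-- ==== BEGIN Fermat.Agent.S48.Asm.H43_Away
section

/-!
# S48 assembly, step 5 (exactness): `Stmt_Away` (helper43)

`away_of : Stmt_Int → Stmt_ModLift → Stmt_InjFin → Stmt_TraceSet → Stmt_DegOne → Stmt_Away`.
-/

set_option autoImplicit false
set_option linter.unusedSectionVars false
set_option linter.style.haveILetI false

open CongruenceSubgroup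
open scoped MatrixGroups

namespace Fermat.Agent.S48.Asm.H43

local notation "Γℚ" => (AlgebraicClosure ℚ ≃ₐ[ℚ] AlgebraicClosure ℚ)

/-- Every value of a homomorphism with range of order `≤ B` has order `≤ B`. -/
lemma exists_pow_eq_one_le {M : Type} [Group M] (ρ : Γℚ →* M) [Finite ρ.range] (B : ℕ)
    (hB : Nat.card ρ.range ≤ B) (σ : Γℚ) : ∃ n : ℕ, 0 < n ∧ n ≤ B ∧ ρ σ ^ n = 1 := by
  refine ⟨orderOf (ρ.rangeRestrict σ), orderOf_pos _, ?_, ?_⟩
  · exact (Nat.le_of_dvd Nat.card_pos (orderOf_dvd_natCard _)).trans hB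
  · have h1 := pow_orderOf_eq_one (ρ.rangeRestrict σ)
    have h2 : ((ρ.rangeRestrict σ ^ orderOf (ρ.rangeRestrict σ) : ρ.range) : M) =
        ((1 : ρ.range) : M) := congrArg Subtype.val h1
    rw [Subgroup.coe_pow, Subgroup.coe_one] at h2
    exact h2

theorem away_of (hInt : Stmt_Int) (hML : Stmt_ModLift) (hIF : Stmt_InjFin)
    (hTS : Stmt_TraceSet) (hDO : Stmt_DegOne) : Stmt_Away := by
  intro N _ ε f hf B₀
  classical
  obtain ⟨B, ℓ₀, hML'⟩ := hML N ε f hf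
  obtain ⟨Z, hZ⟩ := hTS B
  have hbot : FiniteDimensional ℚ (⊥ : IntermediateField ℚ ℂ) := inferInstance
  -- a representation for every large `ℓ` given by DegOne
  have hrep : ∀ B' : ℕ, ∃ (ℓ : ℕ) (k : Type) (_ : Field k) (_ : CharP k ℓ)
      (φ : integralClosure ℤ ℂ →+* k) (ρ : Γℚ →* GL (Fin 2) ℂ), ℓ.Prime ∧ B' ≤ ℓ ∧
      GaloisFactorsThroughFiniteLevel ρ ∧ Nat.card ρ.range ≤ B ∧
      ∀ p : ℕ, p.Prime → ¬ p ∣ N * ℓ →
        ∀ A : ValuationSubring (AlgebraicClosure ℚ), A.LiesOverPrime p →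
          (∀ σ ∈ A.inertiaSubgroupIn ℚ, ρ σ = 1) ∧
          ∀ σ : Γℚ, A.IsFrobeniusAt σ p → ∀ t d a e : integralClosure ℤ ℂ,
            (t : ℂ) = ((ρ σ : GL (Fin 2) ℂ) : Matrix (Fin 2) (Fin 2) ℂ).trace →
            (d : ℂ) = ((ρ σ : GL (Fin 2) ℂ) : Matrix (Fin 2) (Fin 2) ℂ).det →
            (a : ℂ) = ModularFormClass.qCoeff f p → (e : ℂ) = ε (p : ZMod N) →
              φ t = φ a ∧ φ d = φ e := by
    intro B'
    obtain ⟨ℓ, hℓ, hℓge, hφ⟩ := hDO ⊥ hbot (max B' ℓ₀)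
    haveI : Fact ℓ.Prime := ⟨hℓ⟩
    obtain ⟨φ, -⟩ := hφ (AlgebraicClosure (ZMod ℓ))
    obtain ⟨ρ, hfl, hcard, hρ⟩ := hML' ℓ hℓ (le_trans (le_max_right _ _) hℓge)
      (AlgebraicClosure (ZMod ℓ)) φ
    exact ⟨ℓ, AlgebraicClosure (ZMod ℓ), inferInstance, inferInstance, φ, ρ, hℓ,
      le_trans (le_max_left _ _) hℓge, hfl, hcard, hρ⟩
  -- Claim A: `a_p` and `ε(p)` are values of elements of `Z`
  have claimA : ∀ p : ℕ, p.Prime → ¬ p ∣ N →
      (∃ z ∈ Z, (z : ℂ) = ModularFormClass.qCoeff f p) ∧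
      (∃ z ∈ Z, (z : ℂ) = ε (p : ZMod N)) := by
    intro p hp hpN
    have hai := (hInt N ε f hf).1 p hp hpN
    have hei := isIntegral_dirichlet N ε (p : ZMod N)
    set a : integralClosure ℤ ℂ := ⟨_, hai⟩ with ha
    set e : integralClosure ℤ ℂ := ⟨_, hei⟩ with he
    by_contra hcon
    set D : Finset (integralClosure ℤ ℂ) :=
      ((Z.image (fun z => z - a)) ∪ (Z.image (fun z => z - e))).erase 0 with hD
    obtain ⟨ℓ₁, hℓ₁⟩ := hIF D (Finset.notMem_erase 0 _)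
    obtain ⟨ℓ, k, _, _, φ, ρ, hℓ, hℓge, hfl, hcard, hρ⟩ := hrep (max ℓ₁ (p + 1))
    have hpℓ : p ≠ ℓ := by
      have : p + 1 ≤ ℓ := le_trans (le_max_right _ _) hℓge
      omega
    have hpNℓ : ¬ p ∣ N * ℓ := by
      intro hd
      rcases (Nat.Prime.dvd_mul hp).mp hd with h | h
      · exact hpN h
      · exact hpℓ ((Nat.prime_dvd_prime_iff_eq hp hℓ).mp h)
    obtain ⟨A, σ, hA, hσ⟩ := Fermat.Agent.Lib.FrobExists.exists_place_and_frobenius p hp
    haveI : Finite ρ.range := Fermat.Agent.S48.H55.finite_range_of_finiteLevel ρ hfl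
    obtain ⟨n, hn, hnB, hpow⟩ := exists_pow_eq_one_le ρ B hcard σ
    obtain ⟨⟨zt, hzt, hzt'⟩, ⟨zd, hzd, hzd'⟩⟩ := hZ (ρ σ) n hn hnB hpow
    obtain ⟨h1, h2⟩ := (hρ p hp hpNℓ A hA).2 σ hσ zt zd a e hzt' hzd' rfl rfl
    apply hcon
    constructor
    · refine ⟨zt, hzt, ?_⟩
      by_contra hne
      have hne' : zt - a ≠ 0 := fun h => hne (by rw [sub_eq_zero.mp h])
      have hmem : zt - a ∈ D := Finset.mem_erase.mpr ⟨hne',
        Finset.mem_union_left _ (Finset.mem_image.mpr ⟨zt, hzt, rfl⟩)⟩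
      exact hℓ₁ ℓ hℓ (le_trans (le_max_left _ _) hℓge) k φ _ hmem (by rw [map_sub, h1, sub_self])
    · refine ⟨zd, hzd, ?_⟩
      by_contra hne
      have hne' : zd - e ≠ 0 := fun h => hne (by rw [sub_eq_zero.mp h])
      have hmem : zd - e ∈ D := Finset.mem_erase.mpr ⟨hne',
        Finset.mem_union_right _ (Finset.mem_image.mpr ⟨zd, hzd, rfl⟩)⟩
      exact hℓ₁ ℓ hℓ (le_trans (le_max_left _ _) hℓge) k φ _ hmem (by rw [map_sub, h2, sub_self])
  -- exactness for large `ℓ`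
  set D' : Finset (integralClosure ℤ ℂ) :=
    ((Z ×ˢ Z).image (fun x => x.1 - x.2)).erase 0 with hD'
  obtain ⟨ℓ₂, hℓ₂⟩ := hIF D' (Finset.notMem_erase 0 _)
  obtain ⟨ℓ, k, _, _, φ, ρ, hℓ, hℓge, hfl, hcard, hρ⟩ := hrep (max B₀ ℓ₂)
  haveI : Finite ρ.range := Fermat.Agent.S48.H55.finite_range_of_finiteLevel ρ hfl
  refine ⟨ℓ, hℓ, le_trans (le_max_left _ _) hℓge, ρ, hfl, fun p hp hpNℓ A hA =>
    ⟨(hρ p hp hpNℓ A hA).1, fun σ hσ => ?_⟩⟩
  have hpN : ¬ p ∣ N := fun h => hpNℓ (Dvd.dvd.mul_right h ℓ)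
  obtain ⟨⟨za, hza, hza'⟩, ⟨ze, hze, hze'⟩⟩ := claimA p hp hpN
  obtain ⟨n, hn, hnB, hpow⟩ := exists_pow_eq_one_le ρ B hcard σ
  obtain ⟨⟨zt, hzt, hzt'⟩, ⟨zd, hzd, hzd'⟩⟩ := hZ (ρ σ) n hn hnB hpow
  obtain ⟨h1, h2⟩ := (hρ p hp hpNℓ A hA).2 σ hσ zt zd za ze hzt' hzd' hza' hze'
  have key : ∀ x y : integralClosure ℤ ℂ, x ∈ Z → y ∈ Z → φ x = φ y → x = y := by
    intro x y hx hy hxy
    by_contra hne
    have hmem : x - y ∈ D' := Finset.mem_erase.mpr ⟨sub_ne_zero.mpr hne,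
      Finset.mem_image.mpr ⟨(x, y), Finset.mem_product.mpr ⟨hx, hy⟩, rfl⟩⟩
    exact hℓ₂ ℓ hℓ (le_trans (le_max_right _ _) hℓge) k φ _ hmem (by rw [map_sub, hxy, sub_self])
  constructor
  · rw [← hzt', ← hza', key zt za hzt hza h1]
  · rw [← hzd', ← hze', key zd ze hzd hze h2]

end Fermat.Agent.S48.Asm.H43

end
-- ==== END Fermat.Agent.S48.Asm.H43_Away
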