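-- GENERATED (merged mirror, NOTES/tools/trim/merge3_helper67.py): 5 modules of the originals, bodies verbatim.
import Mathlib
import Fermat.Agent.Zm.S48_L05_000
import Fermat.Agent.Zm.S48_L04_000
import Fermat.Agent.Zm.S35_L11_001
import Fermat.Agent.Zm.S35_L04_001
import Fermat.Agent.Zm.S35_L17_000
import Fermat.Agent.Zm.S35_L03_000
import Fermat.Agent.Zm.S35_L03_001
import Fermat.Agent.Zm.S35_L06_001
import Fermat.Agent.Zm.S35_L07_001
import Fermat.Agent.Zm.S35_L02_001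
import Fermat.Agent.Zm.S35_L01_002

-- ==== BEGIN Fermat.Agent.NEB.EIG.H39_FamDefs
section

/-!
# NEB / EIG (helper39): the Hecke family of the double coset `Γ diag(ℓ,1) Γ` for `Γ = Gam1 M c`

`repD M ℓ : OnePoint (ZMod ℓ) → GL₂(ℝ)`, `∞ ↦ diag(ℓ, 1)`, `j ↦ κ · [[1, j], [0, ℓ]]` with
`κ = [[ℓ, t], [M, s]] ∈ Γ₀(M)`, `s ℓ - t M = 1`.  (For `Γ₀(M)` itself this is the same set of cosets
as the prelude's `heckeRep`; for `Γ₀(M) ∩ Γ₁(c)` the factor `κ` is needed: all representatives have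
upper-left entry `ℓ`.)

Leaf **TW-FAM** = the four statements `Stmt_FAM_*` below (owner proves
`theorem stmt_FAM_hecke : Stmt_FAM_hecke` etc. in `NEB/EIG/H<seat>_Fam.lean`).  No `sorry` here.
-/

set_option autoImplicit false

namespace Fermat.Agent.NEB.EIG.H39

open CongruenceSubgroup Matrix.SpecialLinearGroup ModularForm
open scoped MatrixGroups
open P2MW.S_ModularForm_heckeT_slash_eq_self_of_mem_Gamma0.ModularForm.HeckeSlashInvariance
open Fermat.Agent.Betti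
open scoped OnePoint

/-- Bezout coefficient `s` with `s ℓ - t M = 1`. -/
noncomputable def bezS (M ℓ : ℕ) : ℤ := Int.gcdA ℓ M

/-- Bezout coefficient `t` with `s ℓ - t M = 1`. -/
noncomputable def bezT (M ℓ : ℕ) : ℤ := - Int.gcdB ℓ M

theorem bez_eq {M ℓ : ℕ} (h : Nat.Coprime ℓ M) : (ℓ : ℤ) * bezS M ℓ - bezT M ℓ * M = 1 := by
  have := Int.gcd_eq_gcd_ab ℓ M
  rw [Int.gcd_natCast_natCast, h] at this
  unfold bezS bezT
  push_cast at this
  linear_combination -this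

open Classical in
/-- `κ = [[ℓ, t], [M, s]]`, an element of `Γ₀(M)` with upper-left entry `ℓ`. -/
noncomputable def kappaSL (M ℓ : ℕ) : SL(2, ℤ) :=
  if h : Nat.Coprime ℓ M then mkSL ℓ (bezT M ℓ) M (bezS M ℓ) (bez_eq h) else 1

theorem kappaSL_eq {M ℓ : ℕ} (h : Nat.Coprime ℓ M) :
    kappaSL M ℓ = mkSL ℓ (bezT M ℓ) M (bezS M ℓ) (bez_eq h) := by
  unfold kappaSL
  rw [dif_pos h]

/-- The representatives of `Γ \ Γ diag(ℓ,1) Γ`. -/
noncomputable def repD (M ℓ : ℕ) (x : OnePoint (ZMod ℓ)) : GL (Fin 2) ℝ :=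
  x.elim (heckeDiagMatrix ℓ) (fun j => mapGL ℝ (kappaSL M ℓ) * heckeMatrix ℓ j.val)

@[simp] theorem repD_infty (M ℓ : ℕ) : repD M ℓ ∞ = heckeDiagMatrix ℓ := rfl

@[simp] theorem repD_coe (M ℓ : ℕ) (j : ZMod ℓ) :
    repD M ℓ (j : OnePoint (ZMod ℓ)) = mapGL ℝ (kappaSL M ℓ) * heckeMatrix ℓ j.val := rfl

/-- **TW-FAM (a)**: `repD M ℓ` is a Hecke family for `Gam1 M c`, `c ∣ M`, `ℓ ∤ M` prime. -/
def Stmt_FAM_hecke : Prop :=
  ∀ (M c ℓ : ℕ), c ∣ M → ℓ.Prime → ¬ ℓ ∣ M → IsHeckeFamily (inc (Gam1 M c)) (repD M ℓ)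

/-- **TW-FAM (b)**: change of level: for `M ∣ M'` the representatives of level `M` and `M'` differ by
elements of `Gam1 M c` (any `c ∣ M`). -/
def Stmt_FAM_level : Prop :=
  ∀ (M M' c ℓ : ℕ), c ∣ M → M ∣ M' → ℓ.Prime → ¬ ℓ ∣ M' →
    ∀ x : OnePoint (ZMod ℓ), ∃ ε ∈ Gam1 M c, repD M ℓ x = mapGL ℝ ε * repD M' ℓ x

/-- **TW-FAM (c)**: comparison with the prelude's representatives. -/
def Stmt_FAM_std : Prop :=
  ∀ (M ℓ : ℕ), ℓ.Prime → ¬ ℓ ∣ M →
    ∀ x : OnePoint (ZMod ℓ), ∃ ε ∈ Gamma0 M, repD M ℓ x = mapGL ℝ ε * heckeRep ℓ x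

/-- **TW-FAM (d)**: transitive form: every representative is `diag(ℓ,1) · δ` with `δ ∈ Gam1 M c`. -/
def Stmt_FAM_trans : Prop :=
  ∀ (M c ℓ : ℕ), c ∣ M → ℓ.Prime → ¬ ℓ ∣ M →
    ∀ x : OnePoint (ZMod ℓ), ∃ δ ∈ Gam1 M c, repD M ℓ x = heckeDiagMatrix ℓ * mapGL ℝ δ

end Fermat.Agent.NEB.EIG.H39

end
-- ==== END Fermat.Agent.NEB.EIG.H39_FamDefs

-- ==== BEGIN Fermat.Agent.NEB.EIG.H39_Mat2
section

/-!
# NEB / EIG (helper39): explicit matrices for Betti twisting, part 2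

* `gam0_alpha` : for `g ∈ Γ₀(L₂)`: `g α_n = γ' α_{n a²} g` with `γ' ∈ Gam1 L₂ c`, `a = g 0 0`;
* `word_exists` : an element of `Gam1 (q m q) c₁` with upper-left entry `≡ T mod q` which is the word
  `α_{-T} ν^{k₁} α_1 ν^{k₂}`.
-/

set_option autoImplicit false

namespace Fermat.Agent.NEB.EIG.H39

open CongruenceSubgroup Matrix.SpecialLinearGroup ModularForm
open scoped MatrixGroups

theorem val_mapGL_mkSL (a b c d : ℤ) (h : a * d - b * c = 1) :
    ((mapGL ℝ (mkSL a b c d h) : GL (Fin 2) ℝ) : Matrix (Fin 2) (Fin 2) ℝ)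
      = !![(a : ℝ), (b : ℝ); (c : ℝ), (d : ℝ)] := by
  ext i j
  fin_cases i <;> fin_cases j <;> simp

/-- `g α_n = γ' α_{n a²} g`. -/
theorem gam0_alpha {L₂ c q : ℕ} (hq0 : q ≠ 0) (hq : q ∣ c) (hcq : c * q ∣ L₂) {g : SL(2, ℤ)}
    (hg : (L₂ : ℤ) ∣ g 1 0) (n : ℤ) :
    ∃ γ' ∈ Gam1 L₂ c,
      mapGL ℝ g * alphaGL q n = mapGL ℝ γ' * alphaGL q (n * g 0 0 ^ 2) * mapGL ℝ g := by
  obtain ⟨c', rfl⟩ := hq
  obtain ⟨C₃, hC⟩ : ((q * c' * q : ℕ) : ℤ) ∣ g 1 0 :=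
    (Int.natCast_dvd_natCast.mpr hcq).trans hg
  obtain ⟨G, hG⟩ := hg
  push_cast at hC
  have hdet := sl_det g
  let γ' : SL(2, ℤ) := mkSL (1 - n * g 0 0 * (q * c') * C₃) (n ^ 2 * g 0 0 ^ 3 * c' * C₃)
    (-(n * (q * c') ^ 2 * q * C₃ ^ 2)) (1 + n * g 0 0 * (q * c') * C₃
      + n ^ 2 * g 0 0 ^ 2 * (q * c') ^ 2 * C₃ ^ 2) (by ring)
  have hγ' : γ' ∈ Gam1 L₂ (q * c') := by
    refine ⟨?_, ?_, ?_⟩
    · show (L₂ : ℤ) ∣ -(n * (q * c') ^ 2 * q * C₃ ^ 2)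
      refine ⟨-(n * (q * c') * C₃ * G), ?_⟩
      have : -(n * ((q : ℤ) * c') ^ 2 * q * C₃ ^ 2) = -(n * (q * c') * C₃) * g 1 0 := by
        rw [hC]; ring
      rw [this, hG]; ring
    · show ((q * c' : ℕ) : ℤ) ∣ -(n * (q * c') ^ 2 * q * C₃ ^ 2)
      refine ⟨-(n * (q * c') * q * C₃ ^ 2), ?_⟩
      push_cast; ring
    · show ((q * c' : ℕ) : ℤ) ∣ 1 - n * g 0 0 * (q * c') * C₃ - 1
      refine ⟨-(n * g 0 0 * C₃), ?_⟩
      push_cast; ring
  refine ⟨γ', hγ', ?_⟩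
  have hq' : (q : ℝ) ≠ 0 := by exact_mod_cast hq0
  have hC' : ((g 1 0 : ℤ) : ℝ) = q * c' * q * C₃ := by exact_mod_cast hC
  have hdet' : ((g 0 0 : ℤ) : ℝ) * (g 1 1 : ℤ) - (g 0 1 : ℤ) * (q * c' * q * C₃) = 1 := by
    rw [← hC']; exact_mod_cast hdet
  apply Units.ext
  ext i j
  fin_cases i <;> fin_cases j
  · simp [γ', Matrix.mul_apply, Fin.sum_univ_two, hC']
    field_simp
    ring
  · simp [γ', Matrix.mul_apply, Fin.sum_univ_two, hC']
    field_simp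
    linear_combination (-(n : ℝ) * (g 0 0 : ℤ)) * hdet'
  · simp [γ', Matrix.mul_apply, Fin.sum_univ_two, hC']
    field_simp
    ring
  · simp [γ', Matrix.mul_apply, Fin.sum_univ_two, hC']
    field_simp
    linear_combination (-(n : ℝ) * q * c' * C₃) * hdet'

/-- The word `α_{-T} ν^{k₁} α_1 ν^{k₂}` is an element of `Γ₀(q m q) ∩ Γ₁(c₁)` with upper-left entry
`≡ T mod q`. -/
theorem word_exists {q m c₁ : ℕ} (hq : q.Prime) (hqm : ¬ q ∣ m) (hc₁ : c₁ ∣ m) (T : ℤ)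
    (hT : ¬ (q : ℤ) ∣ T) :
    ∃ (g : SL(2, ℤ)) (k₁ k₂ : ℤ), g ∈ Gam1 (q * m * q) c₁ ∧ (q : ℤ) ∣ g 0 0 - T ∧
      mapGL ℝ g = alphaGL q (-T) * mapGL ℝ (nuSL (k₁ * (q * m))) * alphaGL q 1
        * mapGL ℝ (nuSL (k₂ * (q * m))) := by
  haveI : Fact q.Prime := ⟨hq⟩
  have hT' : (T : ZMod q) ≠ 0 := by
    rwa [Ne, ZMod.intCast_zmod_eq_zero_iff_dvd]
  have hm' : (m : ZMod q) ≠ 0 := by
    rwa [Ne, ZMod.natCast_eq_zero_iff]
  -- `k₁`, `k₂`
  set k₁ : ℤ := ((((T : ZMod q)⁻¹ - 1) * (m : ZMod q)⁻¹).val : ℤ) with hk₁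
  set k₂ : ℤ := ((((T : ZMod q) - 1) * (m : ZMod q)⁻¹).val : ℤ) with hk₂
  have h1 : ((1 - T * (1 + k₁ * m) : ℤ) : ZMod q) = 0 := by
    push_cast
    rw [hk₁]
    push_cast
    rw [ZMod.natCast_zmod_val]
    field_simp
    ring
  have h2 : ((1 + k₂ * m - T : ℤ) : ZMod q) = 0 := by
    push_cast
    rw [hk₂]
    push_cast
    rw [ZMod.natCast_zmod_val]
    field_simp
    ring
  obtain ⟨e₁, he₁⟩ := (ZMod.intCast_zmod_eq_zero_iff_dvd _ _).mp h1
  obtain ⟨e₂, he₂⟩ := (ZMod.intCast_zmod_eq_zero_iff_dvd _ _).mp h2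
  -- `E = k₁ + k₂ + m k₁ k₂` is divisible by `q`
  have h3 : ((k₁ + k₂ + m * k₁ * k₂ : ℤ) : ZMod q) = 0 := by
    have h1' : (T : ZMod q) * (1 + (k₁ : ZMod q) * m) = 1 := by
      have := h1; push_cast at this; linear_combination -this
    have h2' : (1 + (k₂ : ZMod q) * m) = T := by
      have := h2; push_cast at this; linear_combination this
    have h4 : (m : ZMod q) * ((k₁ : ZMod q) + k₂ + m * k₁ * k₂) = 0 := by
      have : (1 + (k₂ : ZMod q) * m) * (1 + (k₁ : ZMod q) * m) = 1 := by rw [h2', h1']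
      linear_combination this
    push_cast
    rcases mul_eq_zero.mp h4 with h | h
    · exact absurd h hm'
    · exact h
  obtain ⟨E', hE'⟩ := (ZMod.intCast_zmod_eq_zero_iff_dvd _ _).mp h3
  obtain ⟨m', hm'c⟩ := hc₁
  let g : SL(2, ℤ) := mkSL (1 + k₂ * m - T * m * (k₁ + k₂ + m * k₁ * k₂)) e₁
    (q * m * (k₁ + k₂ + m * k₁ * k₂)) (1 + k₁ * m) (by linear_combination ((m : ℤ) * (k₁ + k₂ + m * k₁ * k₂)) * he₁)
  refine ⟨g, k₁, k₂, ⟨?_, ?_, ?_⟩, ?_, ?_⟩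
  · show ((q * m * q : ℕ) : ℤ) ∣ q * m * (k₁ + k₂ + m * k₁ * k₂)
    refine ⟨E', ?_⟩
    rw [hE']; push_cast; ring
  · show (c₁ : ℤ) ∣ q * m * (k₁ + k₂ + m * k₁ * k₂)
    refine ⟨q * m' * (k₁ + k₂ + m * k₁ * k₂), ?_⟩
    rw [hm'c]; push_cast; ring
  · show (c₁ : ℤ) ∣ 1 + k₂ * m - T * m * (k₁ + k₂ + m * k₁ * k₂) - 1
    refine ⟨m' * (k₂ - T * (k₁ + k₂ + m * k₁ * k₂)), ?_⟩
    rw [hm'c]; push_cast; ring
  · show (q : ℤ) ∣ 1 + k₂ * m - T * m * (k₁ + k₂ + m * k₁ * k₂) - T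
    refine ⟨e₂ - T * m * E', ?_⟩
    linear_combination he₂ - (T * m) * hE'
  · have hq' : (q : ℝ) ≠ 0 := by exact_mod_cast hq.ne_zero
    have he₁' : (q : ℝ) * e₁ = 1 - T * (1 + k₁ * m) := by exact_mod_cast he₁.symm
    apply Units.ext
    simp only [g, nuSL, Matrix.GeneralLinearGroup.coe_mul, val_mapGL_mkSL, val_alphaGL,
      Matrix.mul_fin_two]
    ext i j
    fin_cases i <;> fin_cases j
    · simp
      field_simp
      ring
    · simp
      field_simp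
      linear_combination he₁'
    · simp
      field_simp
      ring
    · simp
      field_simp
      ring

end Fermat.Agent.NEB.EIG.H39

end
-- ==== END Fermat.Agent.NEB.EIG.H39_Mat2

-- ==== BEGIN Fermat.Agent.NEB.H14_JHRules
section
attribute [local instance 10000] SubalgebraClass.toAlgebra
attribute [local instance 10000] HahnSeries.powerSeriesAlgebra

/-!
# NEB, package JH (helper14): the rules of `J_H`

Notation of `H14_JHDefs`.  `hFF : IsFF ℚ̄ (FHbar M c H)` is FH-FF (helper84).  The two field-theoretic leaves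
`Stmt_GalNorm`, `Stmt_GalSquare` are proved by helper2 (`NEB/H2_GalNorm`, `NEB/H2_GalSquare`).

* `T0_eq` : `T0 M ℓ` is the prelude's `heckeOperatorAlong ℚ̄ M ℓ`.
* `piDown_piUp` : `π_* π^* = [F_H : F₀]`;  `finrank_inclBar` : `[F_H : F₀] = |ρ(Δ)|`;
  `piUp_piDown` : `π^* π_* = ∑_{g ∈ ρ(Δ)} g`.
* `diamond_piUp`, `piDown_diamond`, `TH_diamond`, `UH_diamond`.
* `piUp_T0`, `piDown_TH`, `piUp_U0`, `piDown_UH` : `π^* T₀ = T^H π^*`, `π_* T^H = T₀ π_*`, …
* Galois equivariance: `piUp_galois`, `piDown_galois`, `TH_galois`, `UH_galois`.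
* Kummer forms: `TH_kummer`, `UH_kummer`, `piUp_kummer`, `piDown_kummer`.
-/

set_option autoImplicit false
set_option linter.unusedSectionVars false
set_option linter.style.haveILetI false
set_option linter.dupNamespace false

noncomputable section

namespace Fermat.Agent.NEB.JH

open AlgebraicCurve AlgebraicCurve.SemilinearAut ModularCurve IntermediateField HahnSeries
open Fermat.Agent.NEB Fermat.Agent.NEB.H14 Fermat.Agent.RED

theorem isFF0 (M : ℕ) [NeZero M] : IsFF Kbar ↥(modularFunctionFieldBar M) :=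
  Fermat.Agent.RED.H95.stmt_HKA_isFF M

theorem finite_units_zmod (c : ℕ) : Finite (ZMod c)ˣ := by
  rcases Nat.eq_zero_or_pos c with rfl | hc
  · exact inferInstanceAs (Finite ℤˣ)
  · haveI : NeZero c := ⟨hc.ne'⟩
    infer_instance

theorem finite_range_rho {M c : ℕ} {H : Subgroup (ZMod c)ˣ} (dd : DiamondData M c H) :
    Finite dd.ρ.range := by
  haveI := finite_units_zmod c
  exact Finite.of_surjective dd.ρ.rangeRestrict dd.ρ.rangeRestrict_surjective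

theorem neZero_mul (M ℓ : ℕ) [NeZero M] [NeZero ℓ] : NeZero (M * ℓ) :=
  ⟨Nat.mul_ne_zero (NeZero.ne M) (NeZero.ne ℓ)⟩

section T0

variable (M ℓ : ℕ) [NeZero M] [NeZero ℓ]

/-- `T₀` is the prelude's Hecke operator. -/
theorem T0_eq : heckeOperatorAlong Kbar M ℓ = T0 M ℓ := by
  haveI := neZero_mul M ℓ
  have hF := isFF0 M
  have hF' := isFF0 (M * ℓ)
  haveI : HasPrincipalDivisors Kbar
      ↥(laurentBaseChange Kbar (modularFunctionFieldFull (M * ℓ))) := hasPD hF'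
  rw [heckeOperatorAlong_eq (isIntegral_hom hF hF' (heckeAlphaBar Kbar M ℓ))
    (isIntegral_hom hF hF' (heckeBetaBar Kbar M ℓ))
    (Fermat.Agent.RED.H51.stmt_FFB_fundamental _ _ _ hF hF' _ _ _)
    (finiteAlong_hom hF hF' (heckeAlphaBar Kbar M ℓ))
    (Fermat.Agent.RED.H51.stmt_FFB_norm _ _ _ hF hF' _ _)]
  exact correspondence_eq hF hF' _ _ _ _ _ _ _

end T0

section Pi

variable {M c : ℕ} [NeZero M] {H : Subgroup (ZMod c)ˣ}

/-- `π_* π^* = [F_H : F₀]`. -/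
theorem piDown_piUp (hFF : IsFF Kbar ↥(FHbar M c H)) (x : JZero M) :
    piDown M c H (piUp M c H x) = finrankAlong Kbar (inclBar M c H) • x :=
  pushP_pullP (isFF0 M) hFF _ x

theorem galNorm_inclBar (dd : DiamondData M c H)
    (G : Subgroup (↥(FHbar M c H) ≃ₐ[Kbar] ↥(FHbar M c H))) [Fintype G]
    (hG : G = dd.ρ.range) :
    FiniteAlong Kbar (inclBar M c H) ∧ finrankAlong Kbar (inclBar M c H) = Fintype.card G ∧
    ∀ x : ↥(FHbar M c H), inclBar M c H (normFn (inclBar M c H) x)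
      = ∏ g : G, (g : ↥(FHbar M c H) ≃ₐ[Kbar] ↥(FHbar M c H)) x := by
  refine Fermat.Agent.NEB.H2.stmt_GalNorm Kbar _ _ (inclBar M c H) G ?_ ?_
  · intro x hx
    obtain ⟨x₀, hx₀⟩ := dd.fixed x (fun d => hx _ (hG ▸ ⟨d, rfl⟩))
    exact ⟨x₀, hx₀⟩
  · intro g y hg
    rw [hG] at hg
    obtain ⟨d, rfl⟩ := hg
    exact dd.fix d y

/-- `[F_H : F₀] = |ρ(Δ)|`. -/
theorem finrank_inclBar (dd : DiamondData M c H)
    (G : Subgroup (↥(FHbar M c H) ≃ₐ[Kbar] ↥(FHbar M c H))) [Fintype G]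
    (hG : G = dd.ρ.range) : finrankAlong Kbar (inclBar M c H) = Fintype.card G :=
  (galNorm_inclBar dd G hG).2.1

/-- `π^* π_* = ∑_{g ∈ ρ(Δ)} g`. -/
theorem piUp_piDown (hFF : IsFF Kbar ↥(FHbar M c H))
    (dd : DiamondData M c H)
    (G : Subgroup (↥(FHbar M c H) ≃ₐ[Kbar] ↥(FHbar M c H))) [Fintype G]
    (hG : G = dd.ρ.range) (y : JH M c H) :
    piUp M c H (piDown M c H y)
      = ∑ g : G, (g : ↥(FHbar M c H) ≃ₐ[Kbar] ↥(FHbar M c H)) • y := by
  have hn := (galNorm_inclBar dd G hG).2.2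
  have h := pullP_pushP_of_norm (isFF0 M) hFF (inclBar M c H)
    (fun g : G => (g : ↥(FHbar M c H) ≃ₐ[Kbar] ↥(FHbar M c H))) (fun x _ => hn x) y
  rw [piUp, piDown]
  exact h

/-- Classes coming from `J₀` are fixed by the diamond operators. -/
theorem diamond_piUp (hFF : IsFF Kbar ↥(FHbar M c H)) (dd : DiamondData M c H)
    (d : (ZMod c)ˣ) (x : JZero M) : dd.ρ d • piUp M c H x = piUp M c H x := by
  have h := pullP_algEquiv (isFF0 M) hFF (inclBar M c H) 1 (dd.ρ d)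
    (fun x => (dd.fix d x).symm) x
  rw [one_smul] at h
  exact h.symm

/-- `π_*` kills the diamond operators. -/
theorem piDown_diamond (hFF : IsFF Kbar ↥(FHbar M c H)) (dd : DiamondData M c H)
    (d : (ZMod c)ˣ) (y : JH M c H) : piDown M c H (dd.ρ d • y) = piDown M c H y := by
  have h := pushP_algEquiv (isFF0 M) hFF (inclBar M c H) 1 (dd.ρ d)
    (fun x => (dd.fix d x).symm) y
  rw [one_smul] at h
  exact h

end Pi

section Hecke

variable {M c ℓ : ℕ} [NeZero M] [NeZero ℓ] {H : Subgroup (ZMod c)ˣ}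

/-- `T^H` commutes with the diamond operators. -/
theorem TH_diamond (hd : HeckeData M c ℓ H) (d : (ZMod c)ˣ) (x : JH M c H) :
    TH hd.hβ (hd.dd.ρ d • x) = hd.dd.ρ d • TH hd.hβ x := by
  rw [TH, AddMonoidHom.comp_apply, AddMonoidHom.comp_apply,
    pullP_algEquiv hd.isFF hd.isFF' (betaBar hd.hβ) (hd.dd.ρ d) (hd.dd'.ρ d)
      (fun x => (hd.betaGal d x).symm),
    pushP_algEquiv hd.isFF hd.isFF' (alphaH M c ℓ H) (hd.dd.ρ d) (hd.dd'.ρ d)
      (fun x => (hd.alphaGal d x).symm)]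

/-- `U^H` commutes with the diamond operators. -/
theorem UH_diamond (hd : HeckeData M c ℓ H) (d : (ZMod c)ˣ) (x : JH M c H) :
    UH hd.hβ (hd.dd.ρ d • x) = hd.dd.ρ d • UH hd.hβ x := by
  rw [UH, AddMonoidHom.comp_apply, AddMonoidHom.comp_apply,
    pullP_algEquiv hd.isFF hd.isFF' (alphaH M c ℓ H) (hd.dd.ρ d) (hd.dd'.ρ d)
      (fun x => (hd.alphaGal d x).symm),
    pushP_algEquiv hd.isFF hd.isFF' (betaBar hd.hβ) (hd.dd.ρ d) (hd.dd'.ρ d)
      (fun x => (hd.betaGal d x).symm)]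

/-! ### Commutative squares -/

theorem inclBar_comp_alpha :
    (inclBar (M * ℓ) c H).comp (heckeAlphaBar Kbar M ℓ)
      = (alphaH M c ℓ H).comp (inclBar M c H) := by
  refine AlgHom.ext fun x => Subtype.ext ?_
  simp only [AlgHom.comp_apply, coe_inclBar, coe_alphaH, coe_heckeAlphaBar]

theorem inclBar_comp_beta (hβ : BetaOK M c ℓ H) :
    (inclBar (M * ℓ) c H).comp (heckeBetaBar Kbar M ℓ)
      = (betaBar hβ).comp (inclBar M c H) := by
  refine AlgHom.ext fun x => Subtype.ext ?_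
  simp only [AlgHom.comp_apply, coe_inclBar, coe_betaBar, coe_heckeBetaBar]

/-- The Galois square of `α`. -/
theorem galSquare_alpha (hd : HeckeData M c ℓ H) :
    (∀ x : ↥(modularFunctionFieldBar (M * ℓ)),
      inclBar M c H (normFn (heckeAlphaBar Kbar M ℓ) x)
        = normFn (alphaH M c ℓ H) (inclBar (M * ℓ) c H x)) ∧
    (∀ y : ↥(FHbar M c H),
      heckeAlphaBar Kbar M ℓ (normFn (inclBar M c H) y)
        = normFn (inclBar (M * ℓ) c H) (alphaH M c ℓ H y)) := by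
  haveI := neZero_mul M ℓ
  haveI := finite_range_rho hd.dd'
  haveI : Fintype hd.dd'.ρ.range := Fintype.ofFinite _
  have h := Fermat.Agent.NEB.H2.stmt_GalSquare Kbar _ _ _ _ (heckeAlphaBar Kbar M ℓ) (inclBar M c H) (alphaH M c ℓ H)
    (inclBar (M * ℓ) c H) inclBar_comp_alpha.symm
    (finiteAlong_hom (isFF0 M) (isFF0 (M * ℓ)) _) hd.dd'.ρ.range ?_ ?_ ?_ ?_ ?_
  · exact ⟨h.2.2.1, h.2.2.2⟩
  · intro x hx
    obtain ⟨x₀, hx₀⟩ := hd.dd'.fixed x (fun d => hx _ ⟨d, rfl⟩)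
    exact ⟨x₀, hx₀⟩
  · rintro g y ⟨d, rfl⟩
    exact hd.dd'.fix d y
  · rintro g y ⟨d, rfl⟩
    exact ⟨hd.dd.ρ d y, (hd.alphaGal d y).symm⟩
  · rintro g ⟨d, rfl⟩ hg
    have h1 : hd.dd.ρ d = 1 := by
      refine AlgEquiv.ext fun y => ?_
      have h2 := hg y
      rw [hd.alphaGal d y] at h2
      exact (alphaH M c ℓ H).toRingHom.injective h2
    exact (hd.dd'.ker d).mpr ((hd.dd.ker d).mp h1)
  · intro y hy
    obtain ⟨x₀, hx₀⟩ := hd.dd.fixed y (fun d => by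
      have h2 := hy _ ⟨d, rfl⟩
      rw [hd.alphaGal d y] at h2
      exact (alphaH M c ℓ H).toRingHom.injective h2)
    exact ⟨x₀, hx₀⟩

/-- The Galois square of `β`. -/
theorem galSquare_beta (hd : HeckeData M c ℓ H) :
    (∀ x : ↥(modularFunctionFieldBar (M * ℓ)),
      inclBar M c H (normFn (heckeBetaBar Kbar M ℓ) x)
        = normFn (betaBar hd.hβ) (inclBar (M * ℓ) c H x)) ∧
    (∀ y : ↥(FHbar M c H),
      heckeBetaBar Kbar M ℓ (normFn (inclBar M c H) y)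
        = normFn (inclBar (M * ℓ) c H) (betaBar hd.hβ y)) := by
  haveI := neZero_mul M ℓ
  haveI := finite_range_rho hd.dd'
  haveI : Fintype hd.dd'.ρ.range := Fintype.ofFinite _
  have h := Fermat.Agent.NEB.H2.stmt_GalSquare Kbar _ _ _ _ (heckeBetaBar Kbar M ℓ) (inclBar M c H) (betaBar hd.hβ)
    (inclBar (M * ℓ) c H) (inclBar_comp_beta hd.hβ).symm
    (finiteAlong_hom (isFF0 M) (isFF0 (M * ℓ)) _) hd.dd'.ρ.range ?_ ?_ ?_ ?_ ?_
  · exact ⟨h.2.2.1, h.2.2.2⟩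
  · intro x hx
    obtain ⟨x₀, hx₀⟩ := hd.dd'.fixed x (fun d => hx _ ⟨d, rfl⟩)
    exact ⟨x₀, hx₀⟩
  · rintro g y ⟨d, rfl⟩
    exact hd.dd'.fix d y
  · rintro g y ⟨d, rfl⟩
    exact ⟨hd.dd.ρ d y, (hd.betaGal d y).symm⟩
  · rintro g ⟨d, rfl⟩ hg
    have h1 : hd.dd.ρ d = 1 := by
      refine AlgEquiv.ext fun y => ?_
      have h2 := hg y
      rw [hd.betaGal d y] at h2
      exact (betaBar hd.hβ).toRingHom.injective h2
    exact (hd.dd'.ker d).mpr ((hd.dd.ker d).mp h1)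
  · intro y hy
    obtain ⟨x₀, hx₀⟩ := hd.dd.fixed y (fun d => by
      have h2 := hy _ ⟨d, rfl⟩
      rw [hd.betaGal d y] at h2
      exact (betaBar hd.hβ).toRingHom.injective h2)
    exact ⟨x₀, hx₀⟩

/-- `π^* T₀ = T^H π^*`. -/
theorem piUp_T0 (hd : HeckeData M c ℓ H) (x : JZero M) :
    piUp M c H (T0 M ℓ x) = TH hd.hβ (piUp M c H x) := by
  haveI := neZero_mul M ℓ
  have hF := isFF0 M
  have hF' := isFF0 (M * ℓ)
  have hsq := square_of_norm_pic hF hd.isFF hF' hd.isFF' (heckeAlphaBar Kbar M ℓ)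
    (inclBar M c H) (alphaH M c ℓ H) (inclBar (M * ℓ) c H)
    (fun x _ => (galSquare_alpha hd).1 x)
  have h1 := DFunLike.congr_fun hsq (pullP (heckeBetaBar Kbar M ℓ) x)
  simp only [AddMonoidHom.comp_apply] at h1
  have h2 := DFunLike.congr_fun (pullP_comp hF hF' hd.isFF' (heckeBetaBar Kbar M ℓ)
    (inclBar (M * ℓ) c H)) x
  have h3 := DFunLike.congr_fun (pullP_comp hF hd.isFF hd.isFF' (inclBar M c H)
    (betaBar hd.hβ)) x
  rw [inclBar_comp_beta hd.hβ] at h2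
  simp only [AddMonoidHom.comp_apply] at h2 h3
  rw [piUp, T0, TH, AddMonoidHom.comp_apply, AddMonoidHom.comp_apply, h1, ← h2, h3]

/-- `π_* T^H = T₀ π_*`. -/
theorem piDown_TH (hd : HeckeData M c ℓ H) (y : JH M c H) :
    piDown M c H (TH hd.hβ y) = T0 M ℓ (piDown M c H y) := by
  haveI := neZero_mul M ℓ
  have hF := isFF0 M
  have hF' := isFF0 (M * ℓ)
  have hsq := square_of_norm_pic hF hF' hd.isFF hd.isFF' (inclBar M c H)
    (heckeBetaBar Kbar M ℓ) (inclBar (M * ℓ) c H) (betaBar hd.hβ)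
    (fun y _ => (galSquare_beta hd).2 y)
  have h1 := DFunLike.congr_fun hsq y
  simp only [AddMonoidHom.comp_apply] at h1
  have h2 := DFunLike.congr_fun (pushP_comp hF hF' hd.isFF' (heckeAlphaBar Kbar M ℓ)
    (inclBar (M * ℓ) c H)) (pullP (betaBar hd.hβ) y)
  have h3 := DFunLike.congr_fun (pushP_comp hF hd.isFF hd.isFF' (inclBar M c H)
    (alphaH M c ℓ H)) (pullP (betaBar hd.hβ) y)
  rw [inclBar_comp_alpha] at h2
  simp only [AddMonoidHom.comp_apply] at h2 h3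
  rw [piDown, T0, TH, AddMonoidHom.comp_apply, AddMonoidHom.comp_apply, h1, ← h2, h3]

/-- `π^* U₀ = U^H π^*`. -/
theorem piUp_U0 (hd : HeckeData M c ℓ H) (x : JZero M) :
    piUp M c H (U0 M ℓ x) = UH hd.hβ (piUp M c H x) := by
  haveI := neZero_mul M ℓ
  have hF := isFF0 M
  have hF' := isFF0 (M * ℓ)
  have hsq := square_of_norm_pic hF hd.isFF hF' hd.isFF' (heckeBetaBar Kbar M ℓ)
    (inclBar M c H) (betaBar hd.hβ) (inclBar (M * ℓ) c H)
    (fun x _ => (galSquare_beta hd).1 x)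
  have h1 := DFunLike.congr_fun hsq (pullP (heckeAlphaBar Kbar M ℓ) x)
  simp only [AddMonoidHom.comp_apply] at h1
  have h2 := DFunLike.congr_fun (pullP_comp hF hF' hd.isFF' (heckeAlphaBar Kbar M ℓ)
    (inclBar (M * ℓ) c H)) x
  have h3 := DFunLike.congr_fun (pullP_comp hF hd.isFF hd.isFF' (inclBar M c H)
    (alphaH M c ℓ H)) x
  rw [inclBar_comp_alpha] at h2
  simp only [AddMonoidHom.comp_apply] at h2 h3
  rw [piUp, U0, UH, AddMonoidHom.comp_apply, AddMonoidHom.comp_apply, h1, ← h2, h3]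

/-- `π_* U^H = U₀ π_*`. -/
theorem piDown_UH (hd : HeckeData M c ℓ H) (y : JH M c H) :
    piDown M c H (UH hd.hβ y) = U0 M ℓ (piDown M c H y) := by
  haveI := neZero_mul M ℓ
  have hF := isFF0 M
  have hF' := isFF0 (M * ℓ)
  have hsq := square_of_norm_pic hF hF' hd.isFF hd.isFF' (inclBar M c H)
    (heckeAlphaBar Kbar M ℓ) (inclBar (M * ℓ) c H) (alphaH M c ℓ H)
    (fun y _ => (galSquare_alpha hd).2 y)
  have h1 := DFunLike.congr_fun hsq y
  simp only [AddMonoidHom.comp_apply] at h1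
  have h2 := DFunLike.congr_fun (pushP_comp hF hF' hd.isFF' (heckeBetaBar Kbar M ℓ)
    (inclBar (M * ℓ) c H)) (pullP (alphaH M c ℓ H) y)
  have h3 := DFunLike.congr_fun (pushP_comp hF hd.isFF hd.isFF' (inclBar M c H)
    (betaBar hd.hβ)) (pullP (alphaH M c ℓ H) y)
  rw [inclBar_comp_beta hd.hβ] at h2
  simp only [AddMonoidHom.comp_apply] at h2 h3
  rw [piDown, U0, UH, AddMonoidHom.comp_apply, AddMonoidHom.comp_apply, h1, ← h2, h3]

end Hecke

/-! ### Galois equivariance -/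

section Galois

variable {M c ℓ : ℕ} [NeZero M] [NeZero ℓ] {H : Subgroup (ZMod c)ˣ}

theorem intertwines_inclBar (σ : Kbar ≃ₐ[ℚ] Kbar) :
    IntertwinesAlong ((inclBar M c H : _ →ₐ[Kbar] _) : _ →+* _)
      (arithmeticGalois (modularFunctionFieldFull M) σ) (arithmeticGalois (FHQ M c H) σ) := by
  intro x
  apply Subtype.ext
  rw [coe_arithmeticGalois_smul]
  show coeffMap (σ : Kbar →+* Kbar) ((inclBar M c H x : _) : LaurentSeries Kbar) =
    ((inclBar M c H (arithmeticGalois (modularFunctionFieldFull M) σ • x) : _) :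
      LaurentSeries Kbar)
  rw [coe_inclBar, coe_inclBar, coe_arithmeticGalois_smul]

theorem intertwines_alphaH (σ : Kbar ≃ₐ[ℚ] Kbar) :
    IntertwinesAlong ((alphaH M c ℓ H : _ →ₐ[Kbar] _) : _ →+* _)
      (arithmeticGalois (FHQ M c H) σ) (arithmeticGalois (FHQ (M * ℓ) c H) σ) := by
  intro x
  apply Subtype.ext
  rw [coe_arithmeticGalois_smul]
  show coeffMap (σ : Kbar →+* Kbar) ((alphaH M c ℓ H x : _) : LaurentSeries Kbar) =
    ((alphaH M c ℓ H (arithmeticGalois (FHQ M c H) σ • x) : _) : LaurentSeries Kbar)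
  rw [coe_alphaH, coe_alphaH, coe_arithmeticGalois_smul]

theorem intertwines_betaBar (hβ : BetaOK M c ℓ H) (σ : Kbar ≃ₐ[ℚ] Kbar) :
    IntertwinesAlong ((betaBar hβ : _ →ₐ[Kbar] _) : _ →+* _)
      (arithmeticGalois (FHQ M c H) σ) (arithmeticGalois (FHQ (M * ℓ) c H) σ) := by
  intro x
  apply Subtype.ext
  rw [coe_arithmeticGalois_smul]
  show coeffMap (σ : Kbar →+* Kbar) ((betaBar hβ x : _) : LaurentSeries Kbar) =
    ((betaBar hβ (arithmeticGalois (FHQ M c H) σ • x) : _) : LaurentSeries Kbar)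
  rw [coe_betaBar, coe_betaBar, coe_arithmeticGalois_smul, coeffMap_qExpand_jh]

/-- `π^*` commutes with the Galois action. -/
theorem piUp_galois (hFF : IsFF Kbar ↥(FHbar M c H)) (σ : Kbar ≃ₐ[ℚ] Kbar) (x : JZero M) :
    piUp M c H (σ • x) = σ • piUp M c H x := by
  rw [galois_smul_pic0_def, galois_smul_pic0_def]
  exact pullP_semilinear (isFF0 M) hFF _ _ _ (intertwines_inclBar σ) x

/-- `π_*` commutes with the Galois action. -/
theorem piDown_galois (hFF : IsFF Kbar ↥(FHbar M c H)) (σ : Kbar ≃ₐ[ℚ] Kbar) (y : JH M c H) :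
    piDown M c H (σ • y) = σ • piDown M c H y := by
  rw [galois_smul_pic0_def, galois_smul_pic0_def]
  exact pushP_semilinear (isFF0 M) hFF _ _ _ (intertwines_inclBar σ) y

/-- `T^H` commutes with the Galois action. -/
theorem TH_galois (hFF : IsFF Kbar ↥(FHbar M c H)) (hFF' : IsFF Kbar ↥(FHbar (M * ℓ) c H))
    (hβ : BetaOK M c ℓ H) (σ : Kbar ≃ₐ[ℚ] Kbar) (x : JH M c H) :
    TH hβ (σ • x) = σ • TH hβ x := by
  rw [galois_smul_pic0_def, galois_smul_pic0_def, TH, AddMonoidHom.comp_apply,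
    AddMonoidHom.comp_apply,
    pullP_semilinear hFF hFF' _ _ _ (intertwines_betaBar hβ σ) x,
    pushP_semilinear hFF hFF' _ _ _ (intertwines_alphaH σ)]

/-- `U^H` commutes with the Galois action. -/
theorem UH_galois (hFF : IsFF Kbar ↥(FHbar M c H)) (hFF' : IsFF Kbar ↥(FHbar (M * ℓ) c H))
    (hβ : BetaOK M c ℓ H) (σ : Kbar ≃ₐ[ℚ] Kbar) (x : JH M c H) :
    UH hβ (σ • x) = σ • UH hβ x := by
  rw [galois_smul_pic0_def, galois_smul_pic0_def, UH, AddMonoidHom.comp_apply,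
    AddMonoidHom.comp_apply,
    pullP_semilinear hFF hFF' _ _ _ (intertwines_alphaH σ) x,
    pushP_semilinear hFF hFF' _ _ _ (intertwines_betaBar hβ σ)]

/-- The diamond operators commute with the Galois action. -/
theorem diamond_galois (hFF : IsFF Kbar ↥(FHbar M c H)) (dd : DiamondData M c H)
    (d : (ZMod c)ˣ) (σ : Kbar ≃ₐ[ℚ] Kbar) (x : JH M c H) :
    dd.ρ d • (σ • x) = σ • (dd.ρ d • x) := by
  rw [← pullP_smul hFF (dd.ρ d), ← pullP_smul hFF (dd.ρ d), galois_smul_pic0_def,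
    galois_smul_pic0_def]
  refine pullP_semilinear hFF hFF _ _ _ (fun y => ?_) x
  exact (dd.gal d σ y).symm

end Galois

/-! ### The operators as correspondences (Kummer forms) -/

section Kummer

variable {M c ℓ : ℕ} [NeZero M] [NeZero ℓ] {H : Subgroup (ZMod c)ˣ}

/-- `T^H` on divisors. -/
def THdiv (hβ : BetaOK M c ℓ H) : Divisor Kbar ↥(FHbar M c H) →+ Divisor Kbar ↥(FHbar M c H) :=
  (pushD (alphaH M c ℓ H)).comp (pullD (betaBar hβ))

/-- `U^H` on divisors. -/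
def UHdiv (hβ : BetaOK M c ℓ H) : Divisor Kbar ↥(FHbar M c H) →+ Divisor Kbar ↥(FHbar M c H) :=
  (pushD (betaBar hβ)).comp (pullD (alphaH M c ℓ H))

theorem isCorr_THdiv (hFF : IsFF Kbar ↥(FHbar M c H)) (hFF' : IsFF Kbar ↥(FHbar (M * ℓ) c H))
    (hβ : BetaOK M c ℓ H) :
    IsCorr (THdiv hβ) (THfn hβ) (1 * finrankAlong Kbar (betaBar hβ)) :=
  (isCorr_pushD hFF hFF' (alphaH M c ℓ H)).comp (isCorr_pullD hFF hFF' (betaBar hβ))

theorem isCorr_UHdiv (hFF : IsFF Kbar ↥(FHbar M c H)) (hFF' : IsFF Kbar ↥(FHbar (M * ℓ) c H))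
    (hβ : BetaOK M c ℓ H) :
    IsCorr (UHdiv hβ) (UHfn hβ) (1 * finrankAlong Kbar (alphaH M c ℓ H)) :=
  (isCorr_pushD hFF hFF' (betaBar hβ)).comp (isCorr_pullD hFF hFF' (alphaH M c ℓ H))

theorem TH_eq_picMap (hFF : IsFF Kbar ↥(FHbar M c H)) (hFF' : IsFF Kbar ↥(FHbar (M * ℓ) c H))
    (hβ : BetaOK M c ℓ H) : TH hβ = picMap (THdiv hβ) :=
  (picMap_comp (isCorr_pushD hFF hFF' (alphaH M c ℓ H)).isGood
    (isCorr_pullD hFF hFF' (betaBar hβ)).isGood).symm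

theorem UH_eq_picMap (hFF : IsFF Kbar ↥(FHbar M c H)) (hFF' : IsFF Kbar ↥(FHbar (M * ℓ) c H))
    (hβ : BetaOK M c ℓ H) : UH hβ = picMap (UHdiv hβ) :=
  (picMap_comp (isCorr_pushD hFF hFF' (betaBar hβ)).isGood
    (isCorr_pullD hFF hFF' (alphaH M c ℓ H)).isGood).symm

/-- **Kummer form of `T^H`**: if `x = [D]` and `n D = div f`, then `T^H x = [E]` with
`n E = div (Norm_α (β f))`. -/
theorem TH_kummer (hFF : IsFF Kbar ↥(FHbar M c H)) (hFF' : IsFF Kbar ↥(FHbar (M * ℓ) c H))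
    (hβ : BetaOK M c ℓ H) (n : ℤ) (D : Divisor.degZero (K := Kbar) (F := ↥(FHbar M c H)))
    {f : ↥(FHbar M c H)} (hf : f ≠ 0)
    (hD : ∀ v, n * (D : Divisor Kbar ↥(FHbar M c H)) v = v.ord f) :
    ∃ E : Divisor.degZero (K := Kbar) (F := ↥(FHbar M c H)),
      TH hβ (Pic0.mk D) = Pic0.mk E ∧ THfn hβ f ≠ 0 ∧
      ∀ v, n * (E : Divisor Kbar ↥(FHbar M c H)) v = v.ord (THfn hβ f) := by
  have hc := isCorr_THdiv hFF hFF' hβ
  refine ⟨degZeroMap (THdiv hβ) hc.isGood D, ?_, (hc.hasFn f hf).1, fun v => ?_⟩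
  · rw [TH_eq_picMap hFF hFF', picMap_mk hc.isGood]
  · exact hc.hasFn.kummer n _ hf hD v

/-- **Kummer form of `U^H`**. -/
theorem UH_kummer (hFF : IsFF Kbar ↥(FHbar M c H)) (hFF' : IsFF Kbar ↥(FHbar (M * ℓ) c H))
    (hβ : BetaOK M c ℓ H) (n : ℤ) (D : Divisor.degZero (K := Kbar) (F := ↥(FHbar M c H)))
    {f : ↥(FHbar M c H)} (hf : f ≠ 0)
    (hD : ∀ v, n * (D : Divisor Kbar ↥(FHbar M c H)) v = v.ord f) :
    ∃ E : Divisor.degZero (K := Kbar) (F := ↥(FHbar M c H)),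
      UH hβ (Pic0.mk D) = Pic0.mk E ∧ UHfn hβ f ≠ 0 ∧
      ∀ v, n * (E : Divisor Kbar ↥(FHbar M c H)) v = v.ord (UHfn hβ f) := by
  have hc := isCorr_UHdiv hFF hFF' hβ
  refine ⟨degZeroMap (UHdiv hβ) hc.isGood D, ?_, (hc.hasFn f hf).1, fun v => ?_⟩
  · rw [UH_eq_picMap hFF hFF', picMap_mk hc.isGood]
  · exact hc.hasFn.kummer n _ hf hD v

/-- **Kummer form of `π^*`**. -/
theorem piUp_kummer (hFF : IsFF Kbar ↥(FHbar M c H)) (n : ℤ)
    (D : Divisor.degZero (K := Kbar) (F := ↥(modularFunctionFieldBar M)))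
    {f : ↥(modularFunctionFieldBar M)} (hf : f ≠ 0)
    (hD : ∀ v, n * (D : Divisor Kbar ↥(modularFunctionFieldBar M)) v = v.ord f) :
    ∃ E : Divisor.degZero (K := Kbar) (F := ↥(FHbar M c H)),
      piUp M c H (Pic0.mk D) = Pic0.mk E ∧ inclBar M c H f ≠ 0 ∧
      ∀ w, n * (E : Divisor Kbar ↥(FHbar M c H)) w = w.ord (inclBar M c H f) := by
  have hc := isCorr_pullD (isFF0 M) hFF (inclBar M c H)
  refine ⟨degZeroMap _ hc.isGood D, ?_, (hc.hasFn f hf).1, fun v => ?_⟩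
  · rw [piUp, pullP, picMap_mk hc.isGood]
  · exact hc.hasFn.kummer n _ hf hD v

/-- **Kummer form of `π_*`**. -/
theorem piDown_kummer (hFF : IsFF Kbar ↥(FHbar M c H)) (n : ℤ)
    (D : Divisor.degZero (K := Kbar) (F := ↥(FHbar M c H)))
    {f : ↥(FHbar M c H)} (hf : f ≠ 0)
    (hD : ∀ w, n * (D : Divisor Kbar ↥(FHbar M c H)) w = w.ord f) :
    ∃ E : Divisor.degZero (K := Kbar) (F := ↥(modularFunctionFieldBar M)),
      piDown M c H (Pic0.mk D) = Pic0.mk E ∧ normFn (inclBar M c H) f ≠ 0 ∧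
      ∀ v, n * (E : Divisor Kbar ↥(modularFunctionFieldBar M)) v
        = v.ord (normFn (inclBar M c H) f) := by
  have hc := isCorr_pushD (isFF0 M) hFF (inclBar M c H)
  refine ⟨degZeroMap _ hc.isGood D, ?_, (hc.hasFn f hf).1, fun v => ?_⟩
  · rw [piDown, pushP, picMap_mk hc.isGood]
  · exact hc.hasFn.kummer n _ hf hD v

/-- **Kummer form of the diamond operators**. -/
theorem diamond_kummer (dd : DiamondData M c H) (d : (ZMod c)ˣ) (n : ℤ)
    (D : Divisor.degZero (K := Kbar) (F := ↥(FHbar M c H)))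
    {f : ↥(FHbar M c H)} (hf : f ≠ 0)
    (hD : ∀ w, n * (D : Divisor Kbar ↥(FHbar M c H)) w = w.ord f) :
    ∃ E : Divisor.degZero (K := Kbar) (F := ↥(FHbar M c H)),
      dd.ρ d • (Pic0.mk D) = Pic0.mk E ∧ dd.ρ d f ≠ 0 ∧
      ∀ w, n * (E : Divisor Kbar ↥(FHbar M c H)) w = w.ord (dd.ρ d f) := by
  have hc := isCorr_smulD (dd.ρ d)
  refine ⟨degZeroMap _ hc.isGood D, ?_, (hc.hasFn f hf).1, fun v => ?_⟩
  · rw [← picMap_smulD, picMap_mk hc.isGood]
  · exact hc.hasFn.kummer n _ hf hD v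

end Kummer

end Fermat.Agent.NEB.JH

end
end
-- ==== END Fermat.Agent.NEB.H14_JHRules

-- ==== BEGIN Fermat.Agent.NEB.H34_UnrChar
section

/-!
# NEB, package FH-UNR (helper34), part 3: the character of the twisted Eisenstein series

For `ψ : (ℤ/c)ˣ → ℂˣ` trivial on `±H`, with `ψ^m = 1`, the function `y_ψ^m` (`y_ψ = ∑ ψ(a)⁻¹ e_a`)
lies in `F₀(M)_ℂ`, has character `γ ↦ ψ(d_γ)⁻¹`, which under `UnrCond` is trivial on parabolic and
elliptic elements; hence (EXIST + INJ) all orders of `y_ψ^m` are divisible by `m`.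
-/

set_option autoImplicit false
set_option linter.unusedSectionVars false
set_option linter.unusedVariables false
set_option linter.style.haveILetI false

open UpperHalfPlane ModularForm CongruenceSubgroup ModularCurve AlgebraicCurve
open scoped MatrixGroups ModularForm Manifold

noncomputable section

namespace Fermat.Agent.NEB.H34

open Fermat.Agent.S23.H22 (Nice)
open Fermat.Agent.GTor
open Fermat.Agent.GTor.H56 (qLaurent_mul qLaurent_injective qLaurent_eq_zero_iff qLaurent_zero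
  qLaurent_pow nice_of_gamma0 toModularForm isTwistedForm_of_modularForm zetaPow_zero
  zetaPow_injective)
open Fermat.Agent.NEB.H84

variable {M c : ℕ} [NeZero c] [NeZero M] (H : Subgroup (ZMod c)ˣ)

/-- `a_γ d_γ ≡ 1 mod c` for `γ ∈ Γ₀(M)`, `c ∣ M`. -/
theorem a_mul_dUnit (hc : c ∣ M) (γ : Gamma0 M) :
    ((((γ : SL(2, ℤ)) 0 0 : ℤ) : ZMod c)) * ((_root_.Fermat.Agent.NEB.H34.dUnit hc γ : (ZMod c)ˣ) : ZMod c) = 1 := by
  rw [_root_.Fermat.Agent.NEB.H34.coe_dUnit]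
  have hγc : (γ : SL(2, ℤ)) ∈ Gamma0 c := mem_Gamma0_of_dvd hc γ.2
  rw [Gamma0_mem] at hγc
  have hdet := Matrix.SpecialLinearGroup.det_coe (γ : SL(2, ℤ))
  rw [Matrix.det_fin_two] at hdet
  have h2 : ((((γ : SL(2, ℤ)) 0 0 * (γ : SL(2, ℤ)) 1 1 - (γ : SL(2, ℤ)) 0 1 * (γ : SL(2, ℤ)) 1 0
      : ℤ)) : ZMod c) = 1 := by
    have := congrArg (fun x : ℤ => (x : ZMod c)) hdet
    simpa using this
  push_cast at h2
  rw [hγc, mul_zero, sub_zero] at h2
  exact h2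

/-- Under `UnrCond`, `d_γ ∈ ±H` for parabolic and elliptic `γ`. -/
theorem dUnit_mem_of_unrCond (hc : c ∣ M) (hU : UnrCond M c H) (γ : Gamma0 M)
    (hγ : IsOfFinOrder γ ∨ ((γ : SL(2, ℤ)) 0 0 + (γ : SL(2, ℤ)) 1 1) ^ 2 = 4) :
    _root_.Fermat.Agent.NEB.H34.dUnit hc γ ∈ H ∨ -_root_.Fermat.Agent.NEB.H34.dUnit hc γ ∈ H := by
  obtain ⟨h, hh, h1 | h1⟩ := hU γ hγ
  · left
    have h2 := a_mul_dUnit hc γ
    rw [h1, one_mul, ← Units.val_mul, ← Units.val_one, Units.val_inj] at h2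
    have : _root_.Fermat.Agent.NEB.H34.dUnit hc γ = h⁻¹ := eq_inv_of_mul_eq_one_right h2
    rw [this]
    exact H.inv_mem hh
  · right
    have h2 := a_mul_dUnit hc γ
    rw [h1, one_mul, neg_mul, ← mul_neg, ← Units.val_neg, ← Units.val_mul, ← Units.val_one,
      Units.val_inj] at h2
    have : -_root_.Fermat.Agent.NEB.H34.dUnit hc γ = h⁻¹ := eq_inv_of_mul_eq_one_right h2
    rw [this]
    exact H.inv_mem hh

/-- The multiplier character `γ ↦ ψ(d_γ)⁻¹` of the twisted Eisenstein series. -/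
def multChar (hc : c ∣ M) (ψ : (ZMod c)ˣ →* ℂˣ) : Gamma0 M →* ℂˣ :=
  ψ.comp ((invMonoidHom : (ZMod c)ˣ →* (ZMod c)ˣ).comp (_root_.Fermat.Agent.NEB.H34.dUnit hc))

theorem multChar_apply (hc : c ∣ M) (ψ : (ZMod c)ˣ →* ℂˣ) (γ : Gamma0 M) :
    multChar hc ψ γ = ψ (_root_.Fermat.Agent.NEB.H34.dUnit hc γ)⁻¹ := rfl

/-- The twisted Eisenstein series is a twisted form. -/
theorem isTwistedForm_RAn (hc : c ∣ M) (ψ : (ZMod c)ˣ →* ℂˣ) {m : ℕ}
    (φ : Additive (Gamma0 M) →+ ZMod m)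
    (hφ : ∀ γ : Gamma0 M, zetaPow m (φ (Additive.ofMul γ)) = ((multChar hc ψ γ : ℂˣ) : ℂ)) :
    IsTwistedForm M m 4 φ (RAn H ψ) where
  mdiff := (isW_RAn H hc ψ).mdiff
  slash γ := by rw [RAn_slash H hc ψ γ, hφ γ, multChar_apply]
  bdd := (isW_RAn H hc ψ).bdd

/-- The denominator `C • E₄` as a modular form on `Γ₀(M)`. -/
def denForm (M : ℕ) [NeZero M] : ModularForm (Gamma0 M) 4 :=
  toModularForm0 (isW_smul (isW_levelOne M (E₄ : ModularForm 𝒮ℒ 4)) Fermat.Agent.NEB.H29.eisConst)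
    (fun γ _ => by
      rw [ModularForm.SL_smul_slash, slash_levelOne'])

theorem denForm_coe (M : ℕ) [NeZero M] :
    (denForm M : ℍ → ℂ) = Fermat.Agent.NEB.H29.eisConst • ((E₄ : ModularForm 𝒮ℒ 4) : ℍ → ℂ) := rfl

theorem denForm_ne_zero (M : ℕ) [NeZero M] : denForm M ≠ 0 := by
  intro h
  have h1 : (denForm M : ℍ → ℂ) = 0 := by rw [h]; rfl
  rw [denForm_coe] at h1
  rcases smul_eq_zero.mp h1 with h2 | h2
  · exact Fermat.Agent.NEB.H29.eisConst_ne_zero h2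
  · exact E4_fun_ne_zero h2

theorem qLaurent_denForm (M : ℕ) [NeZero M] :
    qLaurent (denForm M : ℍ → ℂ) = Fermat.Agent.NEB.H29.eisConst •
      qLaurent ((E₄ : ModularForm 𝒮ℒ 4) : ℍ → ℂ) := by
  rw [denForm_coe, qLaurent_smul (isW_levelOne M (E₄ : ModularForm 𝒮ℒ 4)).nice]

theorem qLaurent_denForm_ne_zero (M : ℕ) [NeZero M] : qLaurent (denForm M : ℍ → ℂ) ≠ 0 := by
  rw [Ne, qLaurent_eq_zero_iff (nice_of_gamma0 (denForm M))]
  intro h
  exact denForm_ne_zero M (DFunLike.coe_injective h)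

/-- The key identity `q(Rᵐ) = y_ψᵐ · q(Bᵐ)`. -/
theorem qLaurent_RAn_pow [Fact (1 < c)] (hc : c ∣ M) (ψ : (ZMod c)ˣ →* ℂˣ) (m : ℕ) :
    qLaurent (fun z => RAn H ψ z ^ m) =
      yC H ψ ^ m * qLaurent (fun z => (denForm M) z ^ m) := by
  rw [qLaurent_pow (isW_RAn H hc ψ).nice, qLaurent_pow (nice_of_gamma0 (denForm M)),
    qLaurent_RAn H hc ψ, qLaurent_denForm, mul_pow]

/-- `y_ψᵐ ∈ F₀(M)_ℂ` if `ψᵐ = 1`. -/
theorem exists_FNL_yC_pow [Fact (1 < c)] (hc : c ∣ M) (ψ : (ZMod c)ˣ →* ℂˣ) {m : ℕ} (hm : m ≠ 0)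
    (hψm : ∀ a, ψ a ^ m = 1) :
    ∃ (φ : Additive (Gamma0 M) →+ ZMod m) (f : FNL ℂ M),
      (∀ γ : Gamma0 M, zetaPow m (φ (Additive.ofMul γ)) = ((multChar hc ψ γ : ℂˣ) : ℂ)) ∧
      (f : LaurentSeries ℂ) = yC H ψ ^ m ∧ HasChar M m f φ := by
  obtain ⟨φ, hφ⟩ := Fermat.Agent.GTor.H96.exists_additive_of_character (G := Gamma0 M) hm
    (multChar hc ψ) (fun γ => by rw [multChar_apply]; exact hψm _)
  have hR := isTwistedForm_RAn H hc ψ φ hφ
  have hB := isTwistedForm_of_modularForm m (denForm M)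
  have hBne : toModularForm hB.pow ≠ 0 := by
    intro h
    have h1 : (fun z => (denForm M) z ^ m) = (0 : ℍ → ℂ) := by
      have := congrArg (fun F : ModularForm (Gamma0 M) ((m : ℤ) * 4) => (F : ℍ → ℂ)) h
      exact this
    have h2 : qLaurent (fun z => (denForm M) z ^ m) = 0 := by rw [h1, qLaurent_zero]
    rw [qLaurent_pow (nice_of_gamma0 (denForm M))] at h2
    exact qLaurent_denForm_ne_zero M (pow_eq_zero_iff hm |>.mp h2)
  obtain ⟨f, -, hf⟩ := Fermat.Agent.GTor.H58.stmt_A2 (N := M) _ (toModularForm hR.pow)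
    (toModularForm hB.pow) hBne
  have hf' : qLaurent (fun z => RAn H ψ z ^ m)
      = (f : LaurentSeries ℂ) * qLaurent (fun z => (denForm M) z ^ m) := hf
  have hne : qLaurent (fun z => (denForm M) z ^ m) ≠ 0 := by
    rw [qLaurent_pow (nice_of_gamma0 (denForm M))]
    exact pow_ne_zero _ (qLaurent_denForm_ne_zero M)
  have hfy : (f : LaurentSeries ℂ) = yC H ψ ^ m := by
    have := hf'.symm.trans (qLaurent_RAn_pow H hc ψ m)
    exact mul_right_cancel₀ hne this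
  exact ⟨φ, f, hφ, hfy, 4, RAn H ψ, denForm M, hR, denForm_ne_zero M, hf'⟩

/-- Powers of a function with a character. -/
theorem hasChar_npow {N n : ℕ} [NeZero N] {g : FNL ℂ N}
    {φ : Additive (Gamma0 N) →+ ZMod n} (hg : HasChar N n g φ) (j : ℕ) :
    HasChar N n (g ^ j) (j • φ) := by
  induction j with
  | zero =>
    have := Fermat.Agent.GTor.H56.hasChar_pow (n := n) (Fermat.Agent.GTor.H58.stmt_A1 N)
      (1 : FNL ℂ N)
    simpa using this
  | succ j ih =>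
    rw [pow_succ, succ_nsmul]
    exact Fermat.Agent.GTor.H56.hasChar_mul ih hg

/-- **A function whose character is trivial on parabolic and elliptic elements is unramified.** -/
theorem dvd_ord_of_hasChar {N n : ℕ} [NeZero N] (hn : n ≠ 0) {f : FNL ℂ N} (hf0 : f ≠ 0)
    {φ : Additive (Gamma0 N) →+ ZMod n} (hφ : φ ∈ homPE (Gamma0 N) (ZMod n))
    (hf : HasChar N n f φ) (v : Place ℂ (FNL ℂ N)) : (n : ℤ) ∣ v.ord f := by
  obtain ⟨g, hg⟩ := Fermat.Agent.GTor.H98.exist hn (Fermat.Agent.GTor.H58.stmt_A2 N)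
    (Fermat.Agent.GTor.Clo.stmt_A5 N) φ hφ
  have hg0 : ((g : (FNL ℂ N)ˣ) : FNL ℂ N) ≠ 0 := Units.ne_zero _
  have h1 := Fermat.Agent.GTor.H56.hasChar_mul hf (hasChar_npow hg (n - 1))
  have h2 : φ + (n - 1) • φ = 0 := by
    have : φ + (n - 1) • φ = n • φ := by
      rw [← succ_nsmul', Nat.sub_add_cancel (Nat.one_le_iff_ne_zero.mpr hn)]
    rw [this]
    ext γ
    simp
  rw [h2] at h1
  have hfg : f * ((g : (FNL ℂ N)ˣ) : FNL ℂ N) ^ (n - 1) ≠ 0 :=
    mul_ne_zero hf0 (pow_ne_zero _ hg0)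
  obtain ⟨h, hh⟩ := Fermat.Agent.GTor.H56.stmt_INJ (n := n) (Fermat.Agent.GTor.H58.stmt_A2 N) _ hfg h1
  have hh0 : h ≠ 0 := by
    intro h0
    rw [h0, zero_pow hn] at hh
    exact hfg hh
  have e1 : v.ord (f * ((g : (FNL ℂ N)ˣ) : FNL ℂ N) ^ (n - 1)) = v.ord (h ^ n) := by rw [hh]
  rw [v.ord_mul hf0 (pow_ne_zero _ hg0), Fermat.Agent.RED.H51.ord_pow v,
    Fermat.Agent.RED.H51.ord_pow v] at e1
  obtain ⟨t, ht⟩ := (mem_unrSubgroup ℂ (FNL ℂ N)).mp g.2 v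
  rw [ht] at e1
  exact ⟨v.ord h - ((n - 1 : ℕ) : ℤ) * t, by linear_combination e1⟩

/-- **FH-UNR over `ℂ`**: under `UnrCond`, for `ψ` trivial on `±H` with `ψᵐ = 1`, all orders of
`y_ψᵐ ∈ F₀(M)_ℂ` are divisible by `m`. -/
theorem dvd_ord_yC_pow [Fact (1 < c)] (hc : c ∣ M) (hU : UnrCond M c H) (ψ : (ZMod c)ˣ →* ℂˣ)
    {m : ℕ} (hm : m ≠ 0) (hψm : ∀ a, ψ a ^ m = 1)
    (hψH : ∀ d : (ZMod c)ˣ, (d ∈ H ∨ -d ∈ H) → ψ d = 1) :
    ∃ f : FNL ℂ M, (f : LaurentSeries ℂ) = yC H ψ ^ m ∧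
      (f ≠ 0 → ∀ v : Place ℂ (FNL ℂ M), (m : ℤ) ∣ v.ord f) := by
  obtain ⟨φ, f, hφ, hfy, hchar⟩ := exists_FNL_yC_pow H hc ψ hm hψm
  refine ⟨f, hfy, fun hf0 v => dvd_ord_of_hasChar hm hf0 ?_ hchar v⟩
  have key : ∀ γ : Gamma0 M,
      (IsOfFinOrder γ ∨ ((γ : SL(2, ℤ)) 0 0 + (γ : SL(2, ℤ)) 1 1) ^ 2 = 4) →
      φ (Additive.ofMul γ) = 0 := by
    intro γ hγ
    apply zetaPow_injective hm
    rw [hφ γ, multChar_apply, zetaPow_zero]
    have h1 := dUnit_mem_of_unrCond H hc hU γ hγ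
    have h2 : ψ (_root_.Fermat.Agent.NEB.H34.dUnit hc γ) = 1 := hψH _ h1
    rw [map_inv, h2, inv_one, Units.val_one]
  refine ⟨fun γ hγ => key γ (Or.inr ?_), fun γ hγ => key γ (Or.inl hγ)⟩
  rw [Matrix.trace_fin_two] at hγ
  exact hγ

end Fermat.Agent.NEB.H34

end
end
-- ==== END Fermat.Agent.NEB.H34_UnrChar

-- ==== BEGIN Fermat.Agent.NEB.H84_Hom
section

/-!
# NEB, package FH-GAL, part 5 (helper84): the action of `Γ₀(M)` on `F_H(M)·ℚ̄` as algebra maps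

* `actHom γ : F_H →ₐ[ℚ̄] F_H` with graph `Rel M γ` (after `ι : ℚ̄ → ℂ`);
* `actHom_gen`, `actHom_incl` : values on the generators and on `F₀`;
* `ringHom_ext_FHbar` : ring homomorphisms on `F_H` are determined by their values on the constants,
  on `F₀` and on the generators.
-/

set_option autoImplicit false
set_option linter.unusedSectionVars false

open UpperHalfPlane ModularForm CongruenceSubgroup ModularCurve
open scoped MatrixGroups ModularForm Manifold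

noncomputable section

namespace Fermat.Agent.NEB.H84

open Fermat.Agent.GTor (qLaurent)

section BC

variable (ι : Kbar →+* ℂ) {F₀ : IntermediateField ℚ (LaurentSeries ℚ)}

theorem coeffMap_mem_bcC {x : LaurentSeries Kbar} (hx : x ∈ laurentBaseChange Kbar F₀) :
    coeffMap ι x ∈ laurentBaseChange ℂ F₀ := by
  rw [mem_laurentBaseChange_iff] at hx
  induction hx using Subfield.closure_induction with
  | mem y hy =>
      rcases hy with ⟨a, rfl⟩ | ⟨z, hz, rfl⟩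
      · rw [coeffMap_const]
        have : (HahnSeries.C (ι a) : LaurentSeries ℂ) =
            algebraMap ℂ (LaurentSeries ℂ) (ι a) := by
          rw [algebraMap_laurentSeries_eq_single]
          rfl
        rw [this]
        exact (laurentBaseChange ℂ F₀).algebraMap_mem _
      · rw [coeffMap_coeffEmb_C]
        exact coeffEmb_mem_laurentBaseChange ℂ hz
  | one => simp
  | add x y _ _ hx hy => simpa using add_mem hx hy
  | neg x _ hx => simpa using neg_mem hx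
  | inv x _ hx => simpa using inv_mem hx
  | mul x y _ _ hx hy => simpa using mul_mem hx hy

end BC

section Hom

variable {M c : ℕ} [NeZero M] (H : Subgroup (ZMod c)ˣ) (ι : Kbar →+* ℂ)
  (hc2 : 2 ≤ c) (hc : c ∣ M)

/-- The action of `γ ∈ Γ₀(M)` on `F_H(M)·ℚ̄`, as a function. -/
def actFun (γ : Gamma0 M) (x : ↥(FHbar M c H)) : ↥(FHbar M c H) :=
  ⟨Classical.choose (exists_relK H ι hc2 hc γ.2 x.2),
    (Classical.choose_spec (exists_relK H ι hc2 hc γ.2 x.2)).1⟩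

theorem actFun_rel (γ : Gamma0 M) (x : ↥(FHbar M c H)) :
    Rel M γ (coeffMap ι (x : LaurentSeries Kbar))
      (coeffMap ι (actFun H ι hc2 hc γ x : LaurentSeries Kbar)) :=
  (Classical.choose_spec (exists_relK H ι hc2 hc γ.2 x.2)).2

theorem actFun_eq {γ : Gamma0 M} {x y : ↥(FHbar M c H)}
    (h : Rel M γ (coeffMap ι (x : LaurentSeries Kbar)) (coeffMap ι (y : LaurentSeries Kbar))) :
    actFun H ι hc2 hc γ x = y :=
  Subtype.ext (coeffMap_inj ι (rel_unique γ.2 (actFun_rel H ι hc2 hc γ x) h))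

/-- The action of `γ ∈ Γ₀(M)` on `F_H(M)·ℚ̄`, as a `ℚ̄`-algebra homomorphism. -/
def actHom (γ : Gamma0 M) : ↥(FHbar M c H) →ₐ[Kbar] ↥(FHbar M c H) where
  toFun := actFun H ι hc2 hc γ
  map_one' := by
    apply actFun_eq
    have := rel_C M γ 1
    simpa using this
  map_mul' x y := by
    apply actFun_eq
    have := rel_mul γ.2 (actFun_rel H ι hc2 hc γ x) (actFun_rel H ι hc2 hc γ y)
    simpa using this
  map_zero' := by
    apply actFun_eq
    have := rel_C M γ 0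
    simpa using this
  map_add' x y := by
    apply actFun_eq
    have := rel_add γ.2 (actFun_rel H ι hc2 hc γ x) (actFun_rel H ι hc2 hc γ y)
    simpa using this
  commutes' a := by
    apply actFun_eq
    have := rel_C M γ (ι a)
    rw [← coeffMap_const] at this
    exact this

theorem actHom_rel (γ : Gamma0 M) (x : ↥(FHbar M c H)) :
    Rel M γ (coeffMap ι (x : LaurentSeries Kbar))
      (coeffMap ι (actHom H ι hc2 hc γ x : LaurentSeries Kbar)) :=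
  actFun_rel H ι hc2 hc γ x

theorem actHom_eq {γ : Gamma0 M} {x y : ↥(FHbar M c H)}
    (h : Rel M γ (coeffMap ι (x : LaurentSeries Kbar)) (coeffMap ι (y : LaurentSeries Kbar))) :
    actHom H ι hc2 hc γ x = y :=
  actFun_eq H ι hc2 hc h

theorem actHom_gen (γ : Gamma0 M) (a : (ZMod c)ˣ) :
    actHom H ι hc2 hc γ (genBar M c H a) = genBar M c H ((dUnit hc γ γ.2)⁻¹ * a) :=
  actHom_eq H ι hc2 hc (relK_gen H ι hc2 hc γ.2 a)

theorem actHom_incl (γ : Gamma0 M) (x : ↥(modularFunctionFieldBar M)) :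
    actHom H ι hc2 hc γ (inclBar M c H x) = inclBar M c H x := by
  apply actHom_eq
  rw [coe_inclBar]
  exact rel_of_mem_FNL γ.2 ⟨coeffMap ι (x : LaurentSeries Kbar), coeffMap_mem_bcC ι x.2⟩

end Hom

/-! ### Extensionality -/

section Ext

variable {M c : ℕ} (H : Subgroup (ZMod c)ˣ) {R : Type*} [DivisionRing R]

theorem ringHom_ext_FHbar (f g : ↥(FHbar M c H) →+* R)
    (hconst : ∀ a : Kbar, f (algebraMap Kbar _ a) = g (algebraMap Kbar _ a))
    (hincl : ∀ x : ↥(modularFunctionFieldBar M), f (inclBar M c H x) = g (inclBar M c H x))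
    (hgen : ∀ a : (ZMod c)ˣ, f (genBar M c H a) = g (genBar M c H a)) : f = g := by
  ext ⟨x, hx⟩
  have key : ∃ hx' : x ∈ FHbar M c H, f ⟨x, hx'⟩ = g ⟨x, hx'⟩ := by
    refine FHbar_induction M c H (P := fun x => ∃ hx' : x ∈ FHbar M c H,
      f ⟨x, hx'⟩ = g ⟨x, hx'⟩) ?_ ?_ ?_ ?_ ?_ ?_ ?_ ?_ hx
    · intro a
      exact ⟨(FHbar M c H).algebraMap_mem a, hconst a⟩
    · intro d hd0 hd
      have hmem : qExpand ℚ d jq ∈ modularFunctionFieldFull M :=
        IntermediateField.subset_adjoin ℚ _ ⟨d, hd0, hd, rfl⟩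
      exact ⟨coeffEmb_mem_laurentBaseChange Kbar (full_le_FHQ M c H hmem),
        hincl ⟨_, coeffEmb_mem_laurentBaseChange Kbar hmem⟩⟩
    · intro a
      exact ⟨_, hgen a⟩
    · exact ⟨one_mem _, by
        have : (⟨1, one_mem _⟩ : ↥(FHbar M c H)) = 1 := rfl
        rw [this, map_one, map_one]⟩
    · rintro x y ⟨hx, ex⟩ ⟨hy, ey⟩
      refine ⟨add_mem hx hy, ?_⟩
      have : (⟨x + y, add_mem hx hy⟩ : ↥(FHbar M c H)) = ⟨x, hx⟩ + ⟨y, hy⟩ := rfl
      rw [this, map_add, map_add, ex, ey]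
    · rintro x ⟨hx, ex⟩
      refine ⟨neg_mem hx, ?_⟩
      have : (⟨-x, neg_mem hx⟩ : ↥(FHbar M c H)) = -⟨x, hx⟩ := rfl
      rw [this, map_neg, map_neg, ex]
    · rintro x ⟨hx, ex⟩
      refine ⟨inv_mem hx, ?_⟩
      have : (⟨x⁻¹, inv_mem hx⟩ : ↥(FHbar M c H)) = (⟨x, hx⟩ : ↥(FHbar M c H))⁻¹ := rfl
      rw [this, map_inv₀, map_inv₀, ex]
    · rintro x y ⟨hx, ex⟩ ⟨hy, ey⟩
      refine ⟨mul_mem hx hy, ?_⟩
      have : (⟨x * y, mul_mem hx hy⟩ : ↥(FHbar M c H)) = ⟨x, hx⟩ * ⟨y, hy⟩ := rfl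
      rw [this, map_mul, map_mul, ex, ey]
  exact key.2

theorem algHom_ext_FHbar (f g : ↥(FHbar M c H) →ₐ[Kbar] ↥(FHbar M c H))
    (hincl : ∀ x : ↥(modularFunctionFieldBar M), f (inclBar M c H x) = g (inclBar M c H x))
    (hgen : ∀ a : (ZMod c)ˣ, f (genBar M c H a) = g (genBar M c H a)) : f = g := by
  have := ringHom_ext_FHbar H (f : ↥(FHbar M c H) →+* ↥(FHbar M c H)) g
    (fun a => by simp) hincl hgen
  apply AlgHom.ext
  intro x
  exact congrArg (fun h : ↥(FHbar M c H) →+* ↥(FHbar M c H) => h x) this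

end Ext

end Fermat.Agent.NEB.H84

end
end
-- ==== END Fermat.Agent.NEB.H84_Hom
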