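-- GENERATED (merged mirror, NOTES/tools/trim/merge3_helper67.py): 7 modules of the originals, bodies verbatim.
import Mathlib
import Fermat.Agent.Zm.S35_L20_000
import Fermat.Agent.Zm.S35_L15_000
import Fermat.Agent.Zm.S35_L03_000
import Fermat.Agent.Zm.S35_L05_001
import Fermat.Agent.Zm.S48_L06_000
import Fermat.Agent.RED.H17_Place

-- ==== BEGIN Fermat.Agent.BAD.H17_GenusF1
section
attribute [local instance 10000] HahnSeries.powerSeriesAlgebra

/-!
# BAD_q, leaf GENUS on `F₁` (helper17)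

Transport of `BAD/H17_Genus.lean` along (D) (`H82.redField_eq_redField`): the residue field
`F₁` of the Gauss valuation of level `M q` is the residue field of level `M`.

* `isGenus_congr`, `ffHyp_congr` : transport along an equality of intermediate fields;
* `ffHyp_F1`, `exists_isGenus_F1`, `genusFormula_le_F1`;
* `genus_ineq_F1` : `g + 1 ≤ g₁ + g₁ + n` from NUM, in the form of `H91.modSSD_of_totData`.
-/

set_option autoImplicit false
set_option linter.style.haveILetI false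
set_option synthInstance.maxHeartbeats 400000
set_option maxHeartbeats 1000000

noncomputable section

open AlgebraicCurve ModularCurve IntermediateField
open Fermat.Agent.S28.H73 Fermat.Agent.RED.H73 Fermat.Agent.RED Fermat.Agent.S24
open Fermat.Agent.BAD.H88

namespace Fermat.Agent.BAD.H17

section Abs

variable {k X : Type} [Field k] [Field X] [Algebra k X]

/-- Transport of Riemann's theorem along an equality of intermediate fields. -/
theorem isGenus_congr {E₁ E₂ : IntermediateField k X} (h : E₁ = E₂) {g : ℕ} {c : ℤ}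
    (hg : RED.H17.IsGenus k ↥E₁ g c) : RED.H17.IsGenus k ↥E₂ g c := by
  subst h
  exact hg

/-- Transport of FF-B along an equality of intermediate fields. -/
theorem ffHyp_congr {E₁ E₂ : IntermediateField k X} (h : E₁ = E₂)
    (H : RED.H17.FFHyp k ↥E₁) : RED.H17.FFHyp k ↥E₂ := by
  subst h
  exact H

end Abs

section Mod

variable {A : ValuationSubring Kbar} {q M : ℕ} (a b : ℤ) (hab : a * q + b * M = 1)
  (hq : q.Prime) [NeZero M] [NeZero (M * q)] (hA : A.LiesOverPrime q)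
  (hqM : ¬ q ∣ M) (ht : H91.TameAt M q)

include hab hq hA hqM ht

/-- FF-B for the residue field `F₁` of level `M q`. -/
theorem ffHyp_F1 : RED.H17.FFHyp (kV A) (F1 A q M) :=
  ffHyp_congr (H82.redField_eq_redField q M a b hab hq A hA).symm (ffHyp_redM hq hqM ht hA)

/-- Riemann's theorem for `F₁`. -/
theorem exists_isGenus_F1 : ∃ (g₁ : ℕ) (c₁ : ℤ), RED.H17.IsGenus (kV A) (F1 A q M) g₁ c₁ := by
  obtain ⟨g₁, c₁, h⟩ := exists_isGenus_redM (A := A) hq hqM ht hA
  exact ⟨g₁, c₁, isGenus_congr (H82.redField_eq_redField q M a b hab hq A hA).symm h⟩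

/-- The Riemann genus of `F₁` is at least `genusFormula M`. -/
theorem genusFormula_le_F1 {g₁ : ℕ} {c₁ : ℤ}
    (hg₁ : RED.H17.IsGenus (kV A) (F1 A q M) g₁ c₁) : genusFormula M ≤ (g₁ : ℚ) :=
  genusFormula_le_redM hq hqM ht hA
    (isGenus_congr (H82.redField_eq_redField q M a b hab hq A hA) hg₁)

/-- **GENUS** in the form consumed by `H91.modSSD_of_totData`. -/
theorem genus_ineq_F1 {g : ℕ} {c : ℤ} (hg : RED.H17.IsGenus Kbar (FN (M * q)) g c)
    {g₁ : ℕ} {c₁ : ℤ} (hg₁ : RED.H17.IsGenus (kV A) (F1 A q M) g₁ c₁) (n : ℕ)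
    (hnum : genusFormula (M * q) + 1 ≤ 2 * genusFormula M + (n : ℚ)) :
    g + 1 ≤ g₁ + g₁ + n :=
  genus_ineq hq hqM ht hA hg
    (isGenus_congr (H82.redField_eq_redField q M a b hab hq A hA) hg₁) n hnum

end Mod

end Fermat.Agent.BAD.H17

end
end
-- ==== END Fermat.Agent.BAD.H17_GenusF1

-- ==== BEGIN Fermat.Agent.BAD.H42_ApproxR
section

/-!
# Approximation for finitely many valuation rings of rank one (helper42)

`V : ι → ValuationSubring L`, pairwise incomparable, all of rank one (`IsArch`), all non-trivial.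

* `exists_pow_lt` : a common exponent for finitely many valuations;
* `exists_gt_lt` : `z` with `v_i z > 1` and `v_j z < 1` for `j ∈ s`, `i ∉ s`;
* `exists_one_small` : `E` with `v_i (E - 1) < 1` and `v_j E < v_j (c j)` for `j ∈ s`;
* `exists_approx_small` : for `y ∈ V_i`: `b` with `v_i (b - y) < 1` and `v_j b < v_j (c j)`.

This file contains no `sorry`.
-/

set_option autoImplicit false

noncomputable section

namespace Fermat.Agent.BAD.H42

section ApproxR

variable {L : Type} [Field L] {ι : Type} [DecidableEq ι]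

/-- A common exponent: if `v_j z < 1` for `j ∈ s` there is `N ≥ 1` with `v_j (z ^ N) < v_j (c j)`
for all `j ∈ s`. -/
theorem exists_pow_lt (V : ι → ValuationSubring L) (hA : ∀ i, IsArch (V i)) (s : Finset ι)
    (z : L) (hz : ∀ j ∈ s, (V j).valuation z < 1) (c : ι → L) (hc : ∀ j ∈ s, c j ≠ 0) :
    ∃ N : ℕ, 0 < N ∧ ∀ j ∈ s, (V j).valuation (z ^ N) < (V j).valuation (c j) := by
  induction s using Finset.induction_on with
  | empty => exact ⟨1, Nat.one_pos, fun j hj => absurd hj (Finset.notMem_empty j)⟩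
  | insert k s hk ih =>
    obtain ⟨N, hN0, hN⟩ := ih (fun j hj => hz j (Finset.mem_insert_of_mem hj))
      (fun j hj => hc j (Finset.mem_insert_of_mem hj))
    obtain ⟨n, hn⟩ := hA k z (c k) (hz k (Finset.mem_insert_self k s))
      (hc k (Finset.mem_insert_self k s))
    refine ⟨N + n, by omega, fun j hj => ?_⟩
    rcases Finset.mem_insert.1 hj with rfl | hjs
    · rw [pow_add, map_mul]
      refine lt_of_le_of_lt ?_ hn
      refine mul_le_of_le_one_left zero_le ?_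
      rw [map_pow]
      exact pow_le_one₀ zero_le (hz j hj).le
    · rw [pow_add, map_mul]
      refine lt_of_le_of_lt ?_ (hN j hjs)
      refine mul_le_of_le_one_right zero_le ?_
      rw [map_pow]
      exact pow_le_one₀ zero_le (hz j hj).le

theorem val_one_add_pow_of_lt (W : ValuationSubring L) {z : L} (hz : W.valuation z < 1)
    {N : ℕ} (hN : 0 < N) : W.valuation (1 + z ^ N) = 1 := by
  apply Valuation.map_one_add_of_lt
  rw [map_pow]
  exact pow_lt_one₀ zero_le hz hN.ne'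

theorem val_one_add_pow_of_gt (W : ValuationSubring L) {z : L} (hz : 1 < W.valuation z)
    {N : ℕ} (hN : 0 < N) : W.valuation (1 + z ^ N) = W.valuation (z ^ N) := by
  apply Valuation.map_add_eq_of_lt_right
  rw [map_one, map_pow]
  exact one_lt_pow₀ hz hN.ne'

/-- `z ^ N / (1 + z ^ N)` has valuation `1` where `v z > 1`. -/
theorem val_quot_of_gt (W : ValuationSubring L) {z : L} (hz : 1 < W.valuation z)
    {N : ℕ} (hN : 0 < N) : W.valuation (z ^ N / (1 + z ^ N)) = 1 := by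
  rw [map_div₀, val_one_add_pow_of_gt W hz hN]
  refine div_self ?_
  rw [map_pow]
  exact pow_ne_zero _ (ne_of_gt (lt_trans zero_lt_one hz))

/-- `z ^ N / (1 + z ^ N)` has the valuation of `z ^ N` where `v z < 1`. -/
theorem val_quot_of_lt (W : ValuationSubring L) {z : L} (hz : W.valuation z < 1)
    {N : ℕ} (hN : 0 < N) : W.valuation (z ^ N / (1 + z ^ N)) = W.valuation (z ^ N) := by
  rw [map_div₀, val_one_add_pow_of_lt W hz hN, div_one]

/-- `z ^ N / (1 + z ^ N) ≡ 1` where `v z > 1`. -/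
theorem val_quot_sub_one_of_gt (W : ValuationSubring L) {z : L} (hz : 1 < W.valuation z)
    {N : ℕ} (hN : 0 < N) : W.valuation (z ^ N / (1 + z ^ N) - 1) < 1 := by
  have h0 : W.valuation (1 + z ^ N) = W.valuation (z ^ N) := val_one_add_pow_of_gt W hz hN
  have hne : (1 + z ^ N) ≠ 0 := by
    intro h
    rw [h, map_zero, map_pow] at h0
    exact (pow_ne_zero _ (ne_of_gt (lt_trans zero_lt_one hz))) h0.symm
  have h1 : z ^ N / (1 + z ^ N) - 1 = - (1 + z ^ N)⁻¹ := by
    field_simp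
    ring
  rw [h1, Valuation.map_neg, map_inv₀, h0, map_pow]
  exact inv_lt_one_of_one_lt₀ (one_lt_pow₀ hz hN.ne')

/-- **Separation**: `z` with `v_i z > 1` and `v_j z < 1` for all `j ∈ s` (`i ∉ s`). -/
theorem exists_gt_lt (V : ι → ValuationSubring L) (hA : ∀ i, IsArch (V i))
    (hinc : ∀ i j, i ≠ j → ¬ V i ≤ V j) (hnt : ∀ i, V i ≠ ⊤) (i : ι) (s : Finset ι)
    (his : i ∉ s) :
    ∃ z : L, 1 < (V i).valuation z ∧ ∀ j ∈ s, (V j).valuation z < 1 := by
  induction s using Finset.induction_on with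
  | empty =>
    obtain ⟨z, hz⟩ : ∃ z : L, z ∉ V i := by
      by_contra hall
      push Not at hall
      exact hnt i (eq_top_iff.2 fun z _ => hall z)
    refine ⟨z, ?_, fun j hj => absurd hj (Finset.notMem_empty j)⟩
    rw [← ValuationSubring.valuation_le_one_iff] at hz
    exact not_le.1 hz
  | insert k s hk ih =>
    have hik : i ≠ k := fun h => his (h ▸ Finset.mem_insert_self _ s)
    obtain ⟨z, hzi, hzs⟩ := ih (fun h => his (Finset.mem_insert_of_mem h))
    -- `y` with `v_i y > 1`, `v_k y < 1`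
    obtain ⟨t, htk, hti⟩ := exists_unit_lt (V k) (V i) (hinc k i (Ne.symm hik))
    obtain ⟨u, hui, huk⟩ := exists_unit_lt (V i) (V k) (hinc i k hik)
    have ht0 : t ≠ 0 := by
      rintro rfl
      rw [map_zero] at htk
      exact zero_ne_one htk
    have hti0 : (V i).valuation t ≠ 0 := (Valuation.ne_zero_iff _).2 ht0
    set y := u / t with hy
    have hyi : 1 < (V i).valuation y := by
      rw [hy, map_div₀, hui, one_div]
      exact (one_lt_inv₀ (zero_lt_iff.2 hti0)).2 hti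
    have hyk : (V k).valuation y < 1 := by
      rw [hy, map_div₀, htk, div_one]
      exact huk
    have hy0 : y ≠ 0 := by
      rintro h0
      rw [h0, map_zero] at hyi
      exact not_lt_zero hyi
    obtain ⟨N, hN0, hN⟩ := exists_pow_lt V hA s z hzs (fun _ => y⁻¹) (fun _ _ => inv_ne_zero hy0)
    have hsmall : ∀ j ∈ s, (V j).valuation (z ^ N) * (V j).valuation y < 1 := by
      intro j hj
      have h1 := hN j hj
      rw [map_inv₀] at h1
      have hyj : (V j).valuation y ≠ 0 := (Valuation.ne_zero_iff _).2 hy0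
      calc (V j).valuation (z ^ N) * (V j).valuation y
          < ((V j).valuation y)⁻¹ * (V j).valuation y :=
            mul_lt_mul_of_pos_right h1 (zero_lt_iff.2 hyj)
        _ = 1 := inv_mul_cancel₀ hyj
    by_cases hzk : (V k).valuation z ≤ 1
    · refine ⟨z ^ N * y, ?_, ?_⟩
      · rw [map_mul, map_pow]
        exact one_lt_mul_of_le_of_lt (one_le_pow₀ hzi.le) hyi
      · intro j hj
        rcases Finset.mem_insert.1 hj with rfl | hjs
        · rw [map_mul, map_pow]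
          exact mul_lt_one_of_nonneg_of_lt_one_right (pow_le_one₀ zero_le hzk) zero_le hyk
        · rw [map_mul]
          exact hsmall j hjs
    · push Not at hzk
      refine ⟨z ^ N / (1 + z ^ N) * y, ?_, ?_⟩
      · rw [map_mul, val_quot_of_gt (V i) hzi hN0, one_mul]
        exact hyi
      · intro j hj
        rcases Finset.mem_insert.1 hj with rfl | hjs
        · rw [map_mul, val_quot_of_gt (V j) hzk hN0, one_mul]
          exact hyk
        · rw [map_mul, val_quot_of_lt (V j) (hzs j hjs) hN0]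
          exact hsmall j hjs

/-- **Approximation of `1`**: `E ≡ 1 mod m_i`, arbitrarily small at the `j ∈ s`. -/
theorem exists_one_small (V : ι → ValuationSubring L) (hA : ∀ i, IsArch (V i))
    (hinc : ∀ i j, i ≠ j → ¬ V i ≤ V j) (hnt : ∀ i, V i ≠ ⊤) (i : ι) (s : Finset ι)
    (his : i ∉ s) (c : ι → L) (hc : ∀ j ∈ s, c j ≠ 0) :
    ∃ E : L, (V i).valuation (E - 1) < 1 ∧ ∀ j ∈ s, (V j).valuation E < (V j).valuation (c j) := by
  obtain ⟨z, hzi, hzs⟩ := exists_gt_lt V hA hinc hnt i s his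
  obtain ⟨N, hN0, hN⟩ := exists_pow_lt V hA s z hzs c hc
  refine ⟨z ^ N / (1 + z ^ N), val_quot_sub_one_of_gt (V i) hzi hN0, fun j hj => ?_⟩
  rw [val_quot_of_lt (V j) (hzs j hj) hN0]
  exact hN j hj

/-- **Approximation**: for `y ∈ V_i` there is `b ≡ y mod m_i`, arbitrarily small at the
`j ∈ s`. -/
theorem exists_approx_small (V : ι → ValuationSubring L) (hA : ∀ i, IsArch (V i))
    (hinc : ∀ i j, i ≠ j → ¬ V i ≤ V j) (hnt : ∀ i, V i ≠ ⊤) (i : ι) (s : Finset ι)
    (his : i ∉ s) (c : ι → L) (hc : ∀ j ∈ s, c j ≠ 0) (y : L) (hy : y ∈ V i) :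
    ∃ b : L, (V i).valuation (b - y) < 1 ∧ (V i).valuation b = (V i).valuation y ∧
      ∀ j ∈ s, (V j).valuation b < (V j).valuation (c j) := by
  rcases eq_or_ne y 0 with rfl | hy0
  · refine ⟨0, by simp, rfl, fun j hj => ?_⟩
    rw [map_zero]
    exact zero_lt_iff.2 ((Valuation.ne_zero_iff _).2 (hc j hj))
  obtain ⟨E, hEi, hEs⟩ := exists_one_small V hA hinc hnt i s his (fun j => c j / y)
    (fun j hj => div_ne_zero (hc j hj) hy0)
  have hyv : (V i).valuation y ≤ 1 := (ValuationSubring.valuation_le_one_iff _ _).2 hy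
  have hE1 : (V i).valuation E = 1 := by
    have : E = 1 + (E - 1) := by ring
    rw [this]
    exact Valuation.map_one_add_of_lt _ hEi
  refine ⟨y * E, ?_, by rw [map_mul, hE1, mul_one], fun j hj => ?_⟩
  · have : y * E - y = y * (E - 1) := by ring
    rw [this, map_mul]
    exact Right.mul_lt_one_of_le_of_lt hyv hEi
  · have h1 := hEs j hj
    rw [map_div₀] at h1
    have hyj : (V j).valuation y ≠ 0 := (Valuation.ne_zero_iff _).2 hy0
    rw [map_mul]
    calc (V j).valuation y * (V j).valuation E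
        < (V j).valuation y * ((V j).valuation (c j) / (V j).valuation y) :=
          mul_lt_mul_of_pos_left h1 (zero_lt_iff.2 hyj)
      _ = (V j).valuation (c j) := by
        field_simp

end ApproxR

end Fermat.Agent.BAD.H42

end
end
-- ==== END Fermat.Agent.BAD.H42_ApproxR

-- ==== BEGIN Fermat.Agent.BAD.H73_FundIneq
section

/-!
# Item 65 (BAD_q), leaf (D), abstract part (helper73): the fundamental inequality for two
valuations

`E ⊆ L` finite, `V_E` a valuation ring of `E` with residue map to `Et`, `V₁`, `V₂` two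
incomparable valuation rings of `L` over `V_E` with residue maps onto `L₁`, `L₂` (algebras over
`Et`, compatibly).  Then lifts of `Et`-independent families of `L₁` and of `L₂` are jointly
`E`-independent; in particular `r + s ≤ [L : E]` for independent families of `r` and `s` elements.
-/

set_option autoImplicit false

noncomputable section

namespace Fermat.Agent.BAD.H73

open Fermat.Agent.BAD.H42

section FundIneq

variable {E L Et L₁ L₂ : Type} [Field E] [Field L] [Field Et] [Field L₁] [Field L₂]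
  [Algebra E L] [Algebra Et L₁] [Algebra Et L₂]

/-- **Fundamental inequality** (two valuations): `r + s ≤ [L : E]`. -/
theorem card_add_card_le_finrank [Module.Finite E L]
    (VE : ValuationSubring E) (V₁ V₂ : ValuationSubring L)
    (redE : ↥VE →+* Et) (red₁ : ↥V₁ →+* L₁) (red₂ : ↥V₂ →+* L₂)
    (hV₁ : ∀ a : E, a ∈ VE → algebraMap E L a ∈ V₁)
    (hV₂ : ∀ a : E, a ∈ VE → algebraMap E L a ∈ V₂)
    (hsurj₁ : Function.Surjective red₁) (hsurj₂ : Function.Surjective red₂)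
    (hker₁ : ∀ a : ↥V₁, ¬ IsUnit a → red₁ a = 0) (hker₂ : ∀ a : ↥V₂, ¬ IsUnit a → red₂ a = 0)
    (hcompat₁ : ∀ (a : ↥VE) (ha : algebraMap E L (a : E) ∈ V₁),
      red₁ ⟨algebraMap E L (a : E), ha⟩ = algebraMap Et L₁ (redE a))
    (hcompat₂ : ∀ (a : ↥VE) (ha : algebraMap E L (a : E) ∈ V₂),
      red₂ ⟨algebraMap E L (a : E), ha⟩ = algebraMap Et L₂ (redE a))
    (h₁₂ : ¬ V₁ ≤ V₂) (h₂₁ : ¬ V₂ ≤ V₁)
    {ι₁ ι₂ : Type} [Fintype ι₁] [Fintype ι₂] (B₁ : ι₁ → L₁) (B₂ : ι₂ → L₂)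
    (hB₁ : LinearIndependent Et B₁) (hB₂ : LinearIndependent Et B₂) :
    Fintype.card ι₁ + Fintype.card ι₂ ≤ Module.finrank E L := by
  classical
  let R : Subring L := V₁.toSubring ⊓ V₂.toSubring
  have hRmk : ∀ g : L, g ∈ V₁ → g ∈ V₂ → g ∈ R := fun g h1 h2 => Subring.mem_inf.2 ⟨h1, h2⟩
  have hR1 : ∀ g : L, g ∈ R → g ∈ V₁ := fun g hg => (Subring.mem_inf.1 hg).1
  have hR2 : ∀ g : L, g ∈ R → g ∈ V₂ := fun g hg => (Subring.mem_inf.1 hg).2
  have hVR : ∀ a : E, a ∈ VE → algebraMap E L a ∈ R := fun a ha =>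
    hRmk _ (hV₁ a ha) (hV₂ a ha)
  let ρ₁ : ↥R →+* L₁ := red₁.comp (Subring.inclusion (inf_le_left : R ≤ V₁.toSubring))
  let ρ₂ : ↥R →+* L₂ := red₂.comp (Subring.inclusion (inf_le_right : R ≤ V₂.toSubring))
  let ρ : ↥R →+* L₁ × L₂ := ρ₁.prod ρ₂
  have hρ₁ : ∀ (g : L) (hg : g ∈ R), ρ₁ ⟨g, hg⟩ = red₁ ⟨g, hR1 g hg⟩ := fun g hg => rfl
  have hρ₂ : ∀ (g : L) (hg : g ∈ R), ρ₂ ⟨g, hg⟩ = red₂ ⟨g, hR2 g hg⟩ := fun g hg => rfl
  have hcompat : ∀ a : ↥VE, ρ (incR hVR a) = algebraMap Et (L₁ × L₂) (redE a) := by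
    intro a
    refine Prod.ext ?_ ?_
    · exact hcompat₁ a _
    · exact hcompat₂ a _
  -- the lifts
  have hL₁ : ∀ α, ∃ b : ↥R, ρ₁ b = B₁ α ∧ ρ₂ b = 0 := by
    intro α
    obtain ⟨y, hy⟩ := hsurj₁ (B₁ α)
    obtain ⟨b, hb₂, hb₁⟩ := exists_lift_plain V₂ V₁ h₂₁ h₁₂ (y : L) y.2
    have hbV₁ : b ∈ V₁ := mem_of_val_sub_lt V₁ y.2 hb₁
    have hbV₂ : b ∈ V₂ := (ValuationSubring.valuation_le_one_iff V₂ _).1 hb₂.le
    refine ⟨⟨b, hRmk b hbV₁ hbV₂⟩, ?_, ?_⟩
    · rw [hρ₁, ← hy]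
      exact red_eq_of_val_sub_lt hker₁ ⟨b, hbV₁⟩ y hb₁
    · rw [hρ₂]
      exact red_eq_zero_of_val_lt hker₂ ⟨b, hbV₂⟩ hb₂
  have hL₂ : ∀ β, ∃ b : ↥R, ρ₁ b = 0 ∧ ρ₂ b = B₂ β := by
    intro β
    obtain ⟨y, hy⟩ := hsurj₂ (B₂ β)
    obtain ⟨b, hb₁, hb₂⟩ := exists_lift_plain V₁ V₂ h₁₂ h₂₁ (y : L) y.2
    have hbV₂ : b ∈ V₂ := mem_of_val_sub_lt V₂ y.2 hb₂
    have hbV₁ : b ∈ V₁ := (ValuationSubring.valuation_le_one_iff V₁ _).1 hb₁.le
    refine ⟨⟨b, hRmk b hbV₁ hbV₂⟩, ?_, ?_⟩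
    · rw [hρ₁]
      exact red_eq_zero_of_val_lt hker₁ ⟨b, hbV₁⟩ hb₁
    · rw [hρ₂, ← hy]
      exact red_eq_of_val_sub_lt hker₂ ⟨b, hbV₂⟩ y hb₂
  choose b₁ hb₁₁ hb₁₂ using hL₁
  choose b₂ hb₂₁ hb₂₂ using hL₂
  let B : ι₁ ⊕ ι₂ → ↥R := Sum.elim b₁ b₂
  have hρB : (fun i => ρ (B i))
      = Sum.elim (LinearMap.inl Et L₁ L₂ ∘ B₁) (LinearMap.inr Et L₁ L₂ ∘ B₂) := by
    funext i
    rcases i with α | β
    · exact Prod.ext (hb₁₁ α) (hb₁₂ α)
    · exact Prod.ext (hb₂₁ β) (hb₂₂ β)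
  have hli : LinearIndependent Et (fun i => ρ (B i)) := by
    rw [hρB]
    exact linearIndependent_inl_union_inr' hB₁ hB₂
  have hliL : LinearIndependent E (fun i => ((B i : ↥R) : L)) := lat_li hVR hcompat B hli
  have := hliL.fintype_card_le_finrank
  rwa [Fintype.card_sum] at this

end FundIneq

end Fermat.Agent.BAD.H73

end
end
-- ==== END Fermat.Agent.BAD.H73_FundIneq

-- ==== BEGIN Fermat.Agent.BAD.H91_WRhoAbs
section

/-!
# S43 (helper91), leaf MOD-W, abstract part: the reduction of `w⁻¹ P` over a node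

`T : TotData K L k E E` (modular: the datum of level `M q`), `SE` a reduction datum of the lower
level `E₀` (modular: `F_M` with its Gauss valuation), `φ : E₀ → L` the SECOND degeneracy map
(`β`), `ρ' P` the reduction of `P | φ` (modular: `ρ' P = ρ (w_q⁻¹ P)`).

* `LowerBeta` : the compatibilities between `T`, `SE`, `φ`, `ρ'`.
* `LowerBeta.cuspW` : **CUSP-W**: for a Gauss unit `J` of the lower level whose zeros reduce to
  zeros of `rd J` and such that `φ J` is regular over the places `z` with `J~` regular at `z`: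
  if `J~` is regular at `ρ P` then `J~` is regular at `ρ' P`.
* `LowerBeta.rho'_eq_beta` : **over a node, `ρ' P = β (ρ P)`** (test functions `φ x`, `x` with
  one pole, which separate the places of the reduced field: helper94's `exists_sep_lift_val`).
-/

set_option autoImplicit false
set_option linter.style.haveILetI false

noncomputable section

open AlgebraicCurve

attribute [local instance] Classical.propDecidable

namespace Fermat.Agent.BAD.H91

open Fermat.Agent.RED.H17 Fermat.Agent.RED Fermat.Agent.BAD Fermat.Agent.BAD.H79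

section Restrict

variable {K F F' : Type*} [Field K] [Field F] [Field F'] [Algebra K F] [Algebra K F']

/-- A zero of `φ g` at `P` is a zero of `g` at `P | φ`. -/
theorem vanAt_restrictAlong (φ : F →ₐ[K] F') (hφ : φ.toRingHom.IsIntegral) (P : Place K F')
    {g : F} (h : VanAt P (φ g)) : VanAt (P.restrictAlong φ hφ) g := by
  rw [vanAt_iff_ord] at h ⊢
  rcases h with h | h
  · left
    exact (map_eq_zero_iff φ φ.toRingHom.injective).mp h
  · right
    rw [Place.ord_restrictAlong φ hφ] at h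
    by_contra hle
    have h1 : (P.restrictAlong φ hφ).ord g ≤ 0 := not_lt.mp hle
    have h2 : (Place.ramificationIndexAlong φ P : ℤ) * (P.restrictAlong φ hφ).ord g ≤ 0 :=
      mul_nonpos_of_nonneg_of_nonpos (Int.natCast_nonneg _) h1
    omega

/-- `φ x` is regular at `P` if `x` is regular at `P | φ`. -/
theorem regAt_of_restrictAlong (φ : F →ₐ[K] F') (hφ : φ.toRingHom.IsIntegral) (P : Place K F')
    {x : F} (h : 0 ≤ (P.restrictAlong φ hφ).ord x) : RegAt P (φ x) := by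
  apply regAt_of_ord_nonneg
  rw [Place.ord_restrictAlong φ hφ]
  exact mul_nonneg (Int.natCast_nonneg _) h

end Restrict

section Abs

variable {K L k E E₀ E' : Type*} [Field K] [Field L] [Algebra K L] [Field k] [Field E]
  [Algebra k E] [Field E₀] [Algebra K E₀] [Field E'] [Algebra k E']

/-- The compatibilities of the datum `T` of the upper level with the reduction datum `SE` of the
lower level along the second degeneracy map `φ`. -/
structure LowerBeta (T : TotData K L k E E) (SE : RedSetup K E₀ k E') (φ : E₀ →ₐ[K] L)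
    (hφ : φ.toRingHom.IsIntegral) (ρ' : Place K L → Place k E) (κ : Place k E → Place k E')
    (ι : E' →ₐ[k] E) : Prop where
  kappa_inj : Function.Injective κ
  kappa_ord : ∀ (z : Place k E) (y : E'), (κ z).ord y = z.ord (ι y)
  rho' : ∀ P : Place K L, κ (ρ' P) = SE.r (P.restrictAlong φ hφ)
  mem₁ : ∀ x : E₀, x ∈ SE.V → φ x ∈ T.b₁.V
  mem₂ : ∀ x : E₀, x ∈ SE.V → φ x ∈ T.b₂.V
  rd₂ : ∀ x : E₀, x ∈ SE.V → T.p₂.rd (φ x) = ι (SE.rd x)

namespace LowerBeta

variable {T : TotData K L k E E} {SE : RedSetup K E₀ k E'} {φ : E₀ →ₐ[K] L}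
  {hφ : φ.toRingHom.IsIntegral} {ρ' : Place K L → Place k E} {κ : Place k E → Place k E'}
  {ι : E' →ₐ[k] E}

theorem vanAt_kappa (h : LowerBeta T SE φ hφ ρ' κ ι) (z : Place k E) (y : E') :
    VanAt (κ z) y ↔ VanAt z (ι y) := by
  rw [vanAt_iff_ord, vanAt_iff_ord, h.kappa_ord, map_eq_zero_iff ι ι.toRingHom.injective]

/-- The second reduction of a constant. -/
theorem rd₂_const (h : LowerBeta T SE φ hφ ρ' κ ι) {a : K}
    (ha : algebraMap K E₀ a ∈ SE.V) :
    T.p₂.rd (algebraMap K L a) = ι (SE.rd (algebraMap K E₀ a)) := by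
  rw [← h.rd₂ _ ha, AlgHom.commutes]

/-- **CUSP-W.** -/
theorem cuspW (h : LowerBeta T SE φ hφ ρ' κ ι) (hP : HasPrincipalDivisors K L)
    (hd : ∀ v : Place K L, v.deg = 1) (hP₀ : HasPrincipalDivisors K E₀)
    {J : E₀} (hJ : SE.IsGU J)
    (hzero : ∀ Q : Place K E₀, 0 < Q.ord J → 0 < (SE.r Q).ord (SE.rd J))
    (hreg : ∀ P : Place K L, 0 ≤ (T.ρ P).ord (ι (SE.rd J)) → 0 ≤ P.ord (φ J))
    (P : Place K L) (hPz : 0 ≤ (T.ρ P).ord (ι (SE.rd J))) :
    0 ≤ (ρ' P).ord (ι (SE.rd J)) := by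
  have hf : T.InR (T.ρ P) (φ J) :=
    ⟨h.mem₁ J hJ.mem, h.mem₂ J hJ.mem, fun P' hP' =>
      regAt_of_ord_nonneg (hreg P' (by rw [hP']; exact hPz))⟩
  obtain ⟨b, hb⟩ := exists_value P (hd P) (hf.2.2 P rfl)
  have hbV : algebraMap K L b ∈ T.b₁.V := hf.const_mem hP rfl hb
  by_contra hneg
  have hneg' : (ρ' P).ord (ι (SE.rd J)) < 0 := not_le.mp hneg
  set Q := P.restrictAlong φ hφ with hQdef
  have hQ : VanAt Q (J - algebraMap K E₀ b) := by
    apply vanAt_restrictAlong φ hφ P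
    rw [map_sub, AlgHom.commutes]
    exact hb
  have hy : (SE.r Q).ord (SE.rd J) < 0 := by
    rw [← h.rho', h.kappa_ord]
    exact hneg'
  have hJ0 : J ≠ 0 := hJ.ne_zero
  have hb0 : b ≠ 0 := by
    rintro rfl
    rw [map_zero, sub_zero] at hQ
    have := hzero Q (hQ.ord_pos hJ0)
    omega
  have hordJ : Q.ord J = 0 := by
    have h1 : 0 ≤ Q.ord J := (RegAt.of_vanAt_sub hQ).ord_nonneg
    by_contra hne
    have h2 : VanAt Q J := vanAt_of_ord_pos (by omega)
    have h3 : VanAt Q (algebraMap K E₀ b) := by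
      have := h2.sub hQ
      rwa [sub_sub_cancel] at this
    exact not_vanAt_algebraMap Q hb0 h3
  have hw : J⁻¹ ∈ SE.V := hJ.inv_mem
  have hwreg : ∀ Q', SE.r Q' = SE.r Q → 0 ≤ Q'.ord J⁻¹ := by
    intro Q' hQ'
    rw [Place.ord_inv]
    by_contra hlt
    have h1 : 0 < Q'.ord J := by omega
    have h2 := hzero Q' h1
    rw [hQ'] at h2
    omega
  have he : VanAt Q (J⁻¹ - algebraMap K E₀ b⁻¹) := by
    have e : J⁻¹ - algebraMap K E₀ b⁻¹
        = (-(J⁻¹ * algebraMap K E₀ b⁻¹)) * (J - algebraMap K E₀ b) := by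
      rw [map_inv₀]
      have hb' : algebraMap K E₀ b ≠ 0 := by
        rw [Ne, map_eq_zero_iff _ (algebraMap K E₀).injective]
        exact hb0
      field_simp
      ring
    rw [e]
    exact (((regAt_inv_of_ord_eq_zero hordJ).mul (regAt_algebraMap Q b⁻¹)).neg).mul_vanAt hQ
  obtain ⟨hm, hv⟩ := SE.const_of_vanAt hP₀ hw hwreg rfl he
  have hvan : VanAt (SE.r Q) (SE.rd J⁻¹) := by
    rw [hJ.rd_inv]
    apply vanAt_of_ord_pos
    rw [Place.ord_inv]
    omega
  obtain ⟨c', hc'⟩ := SE.rd_const_eq b⁻¹ hm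
  have hvc : VanAt (SE.r Q) (algebraMap k E' c') := by
    have := hvan.sub hv
    rwa [sub_sub_cancel, hc'] at this
  have hc0 : c' = 0 := const_eq_zero_of_vanAt hvc
  have h2 : T.p₂.rd (algebraMap K L b⁻¹) = 0 := by
    rw [h.rd₂_const hm, hc', hc0, map_zero, map_zero]
  have hb2 : algebraMap K L b ∈ T.p₂.V := T.const_mem₂ hbV
  have hbi2 : algebraMap K L b⁻¹ ∈ T.p₂.V := by
    have := h.mem₂ _ hm
    rwa [AlgHom.commutes] at this
  have h3 := T.p₂.rd_mul hb2 hbi2
  rw [← map_mul, mul_inv_cancel₀ hb0, map_one, T.p₂.rd_one, h2, mul_zero] at h3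
  exact one_ne_zero h3

/-- **Over a node, `ρ' P = β (ρ P)`.** -/
theorem rho'_eq_beta [Infinite k] (h : LowerBeta T SE φ hφ ρ' κ ι)
    (hP : HasPrincipalDivisors K L) (hd : ∀ v : Place K L, v.deg = 1)
    (H₀ : FFHyp K E₀) (H' : FFHyp k E') (hG : SE.GenusLE') {g' : ℕ} {c' : ℤ}
    (hg : IsGenus k E' g' c') (Jt : E)
    (hCW : ∀ P : Place K L, 0 ≤ (ρ' P).ord Jt ↔ 0 ≤ (T.ρ P).ord Jt)
    (hCβ : ∀ z : Place k E, 0 ≤ (T.β z).ord Jt ↔ 0 ≤ z.ord Jt)
    (hC₁ : ∃ P₀ : Place K E₀, ∀ z : Place k E, κ z = SE.r P₀ → z.ord Jt < 0)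
    (hC₂ : ∃ P₀ : Place K E₀, ∀ z : Place k E, κ z = SE.r P₀ → 0 ≤ z.ord Jt)
    {P : Place K L} (hz : T.IsNode (T.ρ P)) : ρ' P = T.β (T.ρ P) := by
  by_contra hne
  -- the pole `P₀` of the test function
  have hP₀ : ∃ P₀ : Place K E₀, ∀ z : Place k E, κ z = SE.r P₀ →
      (0 ≤ z.ord Jt ↔ ¬ 0 ≤ (T.ρ P).ord Jt) := by
    by_cases hc : 0 ≤ (T.ρ P).ord Jt
    · obtain ⟨P₀, h₀⟩ := hC₁
      refine ⟨P₀, fun z hz => ?_⟩
      have := h₀ z hz
      constructor
      · intro h1; omega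
      · intro h1; exact absurd hc h1
    · obtain ⟨P₀, h₀⟩ := hC₂
      refine ⟨P₀, fun z hz => ?_⟩
      have := h₀ z hz
      constructor
      · intro _; exact hc
      · intro _; exact this
  obtain ⟨P₀, hP₀⟩ := hP₀
  have h12 : κ (ρ' P) ≠ κ (T.β (T.ρ P)) := fun e => hne (h.kappa_inj e)
  have h1 : κ (ρ' P) ≠ SE.r P₀ := by
    intro e
    have h2 := hP₀ _ e
    have h3 := hCW P
    tauto
  have h2 : κ (T.β (T.ρ P)) ≠ SE.r P₀ := by
    intro e
    have h2 := hP₀ _ e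
    have h3 := hCβ (T.ρ P)
    tauto
  obtain ⟨x, c, hxV, hxreg, hv1, hv2⟩ :=
    Fermat.Agent.BAD.H94.exists_sep_lift_val SE H₀ H' hG hg P₀ h12 h1 h2
  -- `φ x ∈ R_z`
  have hf : T.InR (T.ρ P) (φ x) := by
    refine ⟨h.mem₁ x hxV, h.mem₂ x hxV, fun P' hP' => ?_⟩
    apply regAt_of_restrictAlong φ hφ P'
    apply hxreg
    intro e
    have h4 : κ (ρ' P') = SE.r P₀ := by rw [h.rho', e]
    have h5 := hP₀ _ h4
    have h6 := hCW P'
    rw [hP'] at h6
    tauto
  obtain ⟨a, ha⟩ := exists_value P (hd P) (hf.2.2 P rfl)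
  have hside := TotData.IsNode.onSide₂ hP hz (φ x) hf a ha
  -- the value at the lower level
  have hQ : VanAt (P.restrictAlong φ hφ) (x - algebraMap K E₀ a) := by
    apply vanAt_restrictAlong φ hφ P
    rw [map_sub, AlgHom.commutes]
    exact ha
  have hreg' : ∀ Q', SE.r Q' = κ (ρ' P) → 0 ≤ Q'.ord x := by
    intro Q' hQ'
    apply hxreg
    rintro rfl
    exact h1 hQ'.symm
  obtain ⟨hm, hv⟩ := SE.const_of_vanAt H₀.principal hxV hreg' (h.rho' P).symm hQ
  obtain ⟨c₀, hc₀⟩ := SE.rd_const_eq a hm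
  rw [hc₀] at hv
  have hcc : c = c₀ := value_unique _ hv1 hv
  rw [h.rd₂ x hxV, h.rd₂_const hm, hc₀, ← hcc, ← map_sub, ← h.vanAt_kappa] at hside
  exact hv2 hside

end LowerBeta

end Abs

end Fermat.Agent.BAD.H91

end
end
-- ==== END Fermat.Agent.BAD.H91_WRhoAbs

-- ==== BEGIN Fermat.Agent.NEB.OLD.Defs
section

/-!
# NEB, package OLDNEW (helper14): `J₀(Mq)_{(𝔪, U_q - a)} ≅ J₀(M)_𝔪` — interface and leaves

Levels `M` and `Mq` (`q ∤ M` prime), `α, β : F₀(M) → F₀(Mq)`, `α', β' : F₀(Mq) → F₀(Mq²)`,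
`w = w_q` the Atkin–Lehner involution of `F₀(Mq)` (`BAD/H88_Wq`).  On `Pic⁰`:
`a^* = pullP α`, `b^* = pullP β`, `a_* = pushP α`, `b_* = pushP β`, `T = a_* b^* = b_* a^*`,
`U = β'_* α'^*` (`= U0 (M q) q`), `W = w^*`.  Relations (package OLDNEW-GEO, helper14):
`a_* a^* = q + 1 = b_* b^*`, `U = a^* b_* - W`, `W a^* = b^*`, `W b^* = a^*`, `W² = 1`,
`a_* W = b_*`, `b_* W = a_*`.

Leaves (generic, Mathlib only):
* `Stmt_SquareW`  : `α (Norm_β x) = Norm_{β'} (α' x) · w x` (non-Galois square with an involution).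
* `Stmt_DegBeta`  : `[F₀(Mq²) : β' F₀(Mq)] = q` for `q ∤ M`.
* `Stmt_OldNewAbs`: the algebra: `a_*` restricted to the generalised `a`-eigenspace of `U` is a
  bijection onto `A`, and that eigenspace consists of old classes.
-/

set_option autoImplicit false

noncomputable section

namespace Fermat.Agent.NEB.OLD

open AlgebraicCurve ModularCurve
open Fermat.Agent.NEB Fermat.Agent.NEB.H14 Fermat.Agent.RED

/-- **SQUARE-W**: a commutative square `β' ∘ α = α' ∘ β`

```
F' --α'--> F''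
^           ^
β           β'
F  --α--->  F'
```
with `[F' : βF] = [F'' : β'F'] + 1`, `[F'' : β'F'] ≥ 2`, `F'' = α'(F')·β'(F')` and an
automorphism `w` of `F'` with `w ∘ β = α`.  Then `F' ⊗_{β,F,α} F' ≅ F'' × F'`
(`x ⊗ y ↦ (α'(x) β'(y), w(x) y)`), hence `α (Norm_β x) = Norm_{β'} (α' x) · w x`. -/
def Stmt_SquareW : Prop :=
  ∀ (K F F' F'' : Type) [Field K] [Field F] [Field F'] [Field F'']
    [Algebra K F] [Algebra K F'] [Algebra K F'']
    (α β : F →ₐ[K] F') (α' β' : F' →ₐ[K] F'') (w : F' ≃ₐ[K] F'),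
    β'.comp α = α'.comp β →
    (∀ x, w (β x) = α x) →
    FiniteAlong K β → FiniteAlong K β' →
    finrankAlong K β = finrankAlong K β' + 1 →
    2 ≤ finrankAlong K β' →
    Subfield.closure (Set.range α' ∪ Set.range β') = ⊤ →
    ∀ x : F', α (normFn β x) = normFn β' (α' x) * w x

/-- **DEG-BETA**: `[F₀(Mq²) : β' F₀(Mq)] = q` for a prime `q ∤ M` (`β' : f(τ) ↦ f(qτ)`).
Tower law: with `j_q = β j = j(qτ) ∈ F₀(Mq)`, `β' j = α' j_q`, so
`[F₀(Mq²) : β'F₀(Mq)] · ψ(Mq) = [F₀(Mq²) : ℚ̄(β' j)] = [F₀(Mq²) : α'F₀(Mq)] · [F₀(Mq) : ℚ̄(j_q)]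
 = q · (q + 1) · ψ(M)` (`RED.H95.finrankAlong_beta`, `S36.NU.H82.relfinrank_FM_FN_of_dvd`,
`BAD.H82.relfinrank_bar`). -/
def Stmt_DegBeta : Prop :=
  ∀ (M q : ℕ) [NeZero M] [NeZero q] [NeZero (M * q)], q.Prime → ¬ q ∣ M →
    finrankAlong (AlgebraicClosure ℚ) (heckeBetaBar (AlgebraicClosure ℚ) (M * q) q) = q

/-- **OLDNEW-ABS**: the algebra of old and new classes at one prime.
`as = a^*`, `bs = b^*`, `ad = a_*`, `bd = b_*`. -/
def Stmt_OldNewAbs : Prop :=
  ∀ (𝒪 : Type) [CommRing 𝒪] (A B : Type) [AddCommGroup A] [Module 𝒪 A] [AddCommGroup B]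
    [Module 𝒪 B]
    (as bs : A →ₗ[𝒪] B) (ad bd : B →ₗ[𝒪] A) (T : Module.End 𝒪 A) (U W : Module.End 𝒪 B)
    (q : ℕ) (a a' : 𝒪),
    (∀ x, ad (as x) = (q + 1) • x) → (∀ x, bd (bs x) = (q + 1) • x) →
    (∀ x, ad (bs x) = T x) → (∀ x, bd (as x) = T x) →
    (∀ y, U y = as (bd y) - W y) →
    (∀ x, W (as x) = bs x) → (∀ x, W (bs x) = as x) → (∀ y, W (W y) = y) →
    (∀ y, ad (W y) = bd y) → (∀ y, bd (W y) = ad y) →
    IsUnit (a - a') → IsUnit (a * a - 1) → IsUnit (a' * a' - 1) → IsUnit (q : 𝒪) →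
    (∀ x : A, ∃ n : ℕ, ((T - (a + a') • (1 : Module.End 𝒪 A)) ^ n) x = 0) →
    (∀ x : A, ∃ n : ℕ, ((q : 𝒪) - a * a') ^ n • x = 0) →
    (∀ y : B, ∃ n : ℕ, ((q : 𝒪) - a * a') ^ n • y = 0) →
    (∀ x : A, ∃ v : B, (∃ n : ℕ, ((U - a • (1 : Module.End 𝒪 B)) ^ n) v = 0) ∧ ad v = x) ∧
    (∀ v : B, (∃ n : ℕ, ((U - a • (1 : Module.End 𝒪 B)) ^ n) v = 0) → ad v = 0 → v = 0) ∧
    (∀ v : B, (∃ n : ℕ, ((U - a • (1 : Module.End 𝒪 B)) ^ n) v = 0) →
      ∃ x y : A, v = as x + bs y)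

end Fermat.Agent.NEB.OLD

end
end
-- ==== END Fermat.Agent.NEB.OLD.Defs

-- ==== BEGIN Fermat.Agent.S36.NU.H10_CA1
section

/-!
# S36 / NU-B, leaf CA1 (helper10): local generators by commutative algebra

`B` a noetherian ring, `x` in its Jacobson radical, `B ⧸ (x)` a principal ideal ring.

* `ca1_isPrincipal` : every finitely generated prime ideal `𝔭` with `x ∉ 𝔭` is principal,
  generated by any `f ∈ 𝔭` whose image generates the image of `𝔭` in `B ⧸ (x)`
  (`𝔭 = (f) + x 𝔭` and Nakayama).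
* `ca1_ufm` : if moreover `B` is a domain and `(x)` is a prime ideal, `x ≠ 0`, then `B` is a
  unique factorization domain (Kaplansky's criterion).
* `exists_unit_mul_pow_of_multiplicity` : in a UFD, an element all of whose prime multiplicities
  are divisible by `n` is a unit times an `n`-th power.
* `exists_unit_mul_pow` : `B` a UFD with fraction field `F`, `h ∈ F` nonzero such that for every
  prime element `π` of `B` there is an additive "valuation" `w : F → ℤ` with `w π = e`,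
  `e` prime to `n`, `w b = 0` for `b ∈ B` not divisible by `π`, and `n ∣ w h`.  Then
  `h = u * s ^ n` with `u` a unit of `B`.

Modular use (level `q² M'`, `z` a closed point of the special fibre, `B = (B₀)_{𝔪_z}`,
`x` a local equation at `z` of a component `C_i` through `z` which is smooth at `z`):
`B ⧸ (x)` is the local ring of `C_i` at `z`, a discrete valuation ring.  So the divisor of `h`
(`div h = n D`) is locally principal at `z`: `h = (unit at z) * s ^ n`.
-/

set_option autoImplicit false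

namespace Fermat.Agent.S36.NU.H10

open Ideal

/-- **CA1**: `x` in the Jacobson radical, `B ⧸ (x)` a principal ideal ring, `𝔭` a finitely
generated prime ideal with `x ∉ 𝔭`: then `𝔭` is principal. -/
theorem ca1_isPrincipal {B : Type*} [CommRing B] (x : B)
    (hx : x ∈ Ideal.jacobson (⊥ : Ideal B))
    [IsPrincipalIdealRing (B ⧸ Ideal.span {x})]
    (𝔭 : Ideal B) [h𝔭 : 𝔭.IsPrime] (hfg : 𝔭.FG) (hx𝔭 : x ∉ 𝔭) :
    ∃ f ∈ 𝔭, 𝔭 = Ideal.span {f} := by
  have hsurj : Function.Surjective (Ideal.Quotient.mk (Ideal.span {x})) :=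
    Ideal.Quotient.mk_surjective
  obtain ⟨y, hy⟩ :=
    (IsPrincipalIdealRing.principal (Ideal.map (Ideal.Quotient.mk (Ideal.span {x})) 𝔭)).principal
  have hy' : Ideal.map (Ideal.Quotient.mk (Ideal.span {x})) 𝔭 = Ideal.span {y} := hy
  have hy_mem : y ∈ Ideal.map (Ideal.Quotient.mk (Ideal.span {x})) 𝔭 := by
    rw [hy']; exact Ideal.subset_span rfl
  obtain ⟨f, hf𝔭, hfy⟩ := (Ideal.mem_map_iff_of_surjective _ hsurj).1 hy_mem
  refine ⟨f, hf𝔭, le_antisymm ?_ ((Ideal.span_singleton_le_iff_mem _).2 hf𝔭)⟩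
  refine Submodule.le_of_le_smul_of_le_jacobson_bot (I := Ideal.span {x}) hfg
    ((Ideal.span_singleton_le_iff_mem _).2 hx) ?_
  intro g hg
  have hg' : Ideal.Quotient.mk (Ideal.span {x}) g ∈ Ideal.span {y} := by
    rw [← hy']; exact Ideal.mem_map_of_mem _ hg
  obtain ⟨a', ha'⟩ := Ideal.mem_span_singleton'.1 hg'
  obtain ⟨a, rfl⟩ := hsurj a'
  have hmem : g - a * f ∈ Ideal.span {x} := by
    rw [← Ideal.Quotient.eq_zero_iff_mem, map_sub, map_mul, hfy, ha', sub_self]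
  obtain ⟨g₁, hg₁⟩ := Ideal.mem_span_singleton'.1 hmem
  have hxg : g₁ * x ∈ 𝔭 := by
    rw [hg₁]; exact 𝔭.sub_mem hg (𝔭.mul_mem_left a hf𝔭)
  have hg₁𝔭 : g₁ ∈ 𝔭 := (h𝔭.mem_or_mem hxg).resolve_right hx𝔭
  have hgeq : g = a * f + x • g₁ := by
    rw [smul_eq_mul, mul_comm x g₁, hg₁]; ring
  rw [hgeq]
  exact Submodule.add_mem_sup (Ideal.mul_mem_left _ _ (Ideal.subset_span rfl))
    (Submodule.smul_mem_smul (Ideal.subset_span rfl) hg₁𝔭)

/-- **CA1, UFD form**: a noetherian domain `B` with a prime element `x` in the Jacobson radical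
such that `B ⧸ (x)` is a principal ideal ring is a unique factorization domain. -/
theorem ca1_ufm {B : Type*} [CommRing B] [IsDomain B] [IsNoetherianRing B] (x : B)
    (hx0 : x ≠ 0) (hx : x ∈ Ideal.jacobson (⊥ : Ideal B))
    (hprime : (Ideal.span {x}).IsPrime)
    [IsPrincipalIdealRing (B ⧸ Ideal.span {x})] : UniqueFactorizationMonoid B := by
  rw [UniqueFactorizationMonoid.iff_exists_prime_mem_of_isPrime]
  intro I hI hIp
  by_cases hxI : x ∈ I
  · exact ⟨x, hxI, (Ideal.span_singleton_prime hx0).1 hprime⟩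
  · obtain ⟨f, hf, hIf⟩ := ca1_isPrincipal x hx I (IsNoetherian.noetherian I) hxI
    have hf0 : f ≠ 0 := by
      rintro rfl
      apply hI
      rw [hIf]
      simp
    exact ⟨f, hf, (Ideal.span_singleton_prime hf0).1 (hIf ▸ hIp)⟩

/-- The local form: a noetherian local domain `B` with a prime element `x` of the maximal ideal
such that `B ⧸ (x)` is a principal ideal ring is a unique factorization domain. -/
theorem ca1_ufm_local {B : Type*} [CommRing B] [IsDomain B] [IsNoetherianRing B]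
    [IsLocalRing B] (x : B) (hx0 : x ≠ 0) (hx : x ∈ IsLocalRing.maximalIdeal B)
    (hprime : (Ideal.span {x}).IsPrime)
    [IsPrincipalIdealRing (B ⧸ Ideal.span {x})] : UniqueFactorizationMonoid B :=
  ca1_ufm x hx0 (by rwa [IsLocalRing.jacobson_eq_maximalIdeal ⊥ bot_ne_top]) hprime

/-- In a UFD, a nonzero element all of whose prime multiplicities are divisible by `n` is a
unit times an `n`-th power. -/
theorem exists_unit_mul_pow_of_multiplicity {B : Type*} [CommRing B] [IsDomain B]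
    [UniqueFactorizationMonoid B] (n : ℕ) (a : B) (ha : a ≠ 0)
    (H : ∀ π : B, Prime π → n ∣ multiplicity π a) :
    ∃ u s : B, IsUnit u ∧ a = u * s ^ n := by
  induction a using UniqueFactorizationMonoid.induction_on_coprime with
  | h0 => exact absurd rfl ha
  | h1 hxu => exact ⟨_, 1, hxu, by rw [one_pow, mul_one]⟩
  | hpr i hp =>
    rename_i p
    obtain ⟨k, hk⟩ := H p hp
    rw [multiplicity_pow_self_of_prime hp] at hk
    exact ⟨1, p ^ k, isUnit_one, by rw [one_mul, ← pow_mul, mul_comm k n, ← hk]⟩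
  | hcp hxy hPx hPy =>
    rename_i x y
    have hx0 : x ≠ 0 := left_ne_zero_of_mul ha
    have hy0 : y ≠ 0 := right_ne_zero_of_mul ha
    have hmul : ∀ π : B, Prime π → multiplicity π (x * y) = multiplicity π x + multiplicity π y :=
      fun π hπ => multiplicity_mul hπ (FiniteMultiplicity.of_prime_left hπ ha)
    have hnd : ∀ π : B, Prime π → π ∣ x → ¬ π ∣ y := fun π hπ h1 h2 =>
      hπ.not_isUnit (hxy h1 h2)
    have Hx : ∀ π : B, Prime π → n ∣ multiplicity π x := by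
      intro π hπ
      by_cases hd : π ∣ x
      · have h0 : multiplicity π y = 0 := multiplicity_eq_zero.2 (hnd π hπ hd)
        have := H π hπ
        rwa [hmul π hπ, h0, add_zero] at this
      · rw [multiplicity_eq_zero.2 hd]; exact dvd_zero n
    have Hy : ∀ π : B, Prime π → n ∣ multiplicity π y := by
      intro π hπ
      by_cases hd : π ∣ x
      · rw [multiplicity_eq_zero.2 (hnd π hπ hd)]; exact dvd_zero n
      · have h0 : multiplicity π x = 0 := multiplicity_eq_zero.2 hd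
        have := H π hπ
        rwa [hmul π hπ, h0, zero_add] at this
    obtain ⟨u₁, s₁, hu₁, e₁⟩ := hPx hx0 Hx
    obtain ⟨u₂, s₂, hu₂, e₂⟩ := hPy hy0 Hy
    exact ⟨u₁ * u₂, s₁ * s₂, hu₁.mul hu₂, by rw [e₁, e₂, mul_pow]; ring⟩

/-- An additive function on the nonzero elements of the fraction field which vanishes on the
elements of `B` prime to `π` computes the `π`-multiplicity. -/
theorem w_eq_multiplicity_mul {B F : Type*} [CommRing B] [IsDomain B]
    [UniqueFactorizationMonoid B] [Field F] [Algebra B F] [IsFractionRing B F]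
    (π : B) (hπ : Prime π) (w : F → ℤ)
    (hw : ∀ a b : F, a ≠ 0 → b ≠ 0 → w (a * b) = w a + w b)
    (hwu : ∀ b : B, b ≠ 0 → ¬ π ∣ b → w (algebraMap B F b) = 0)
    (a : B) (ha : a ≠ 0) :
    w (algebraMap B F a) = (multiplicity π a : ℤ) * w (algebraMap B F π) := by
  have hinj : Function.Injective (algebraMap B F) := IsFractionRing.injective B F
  have hne : ∀ b : B, b ≠ 0 → algebraMap B F b ≠ 0 := fun b hb =>
    (map_ne_zero_iff _ hinj).2 hb
  obtain ⟨c, hc, hπc⟩ :=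
    (FiniteMultiplicity.of_prime_left hπ ha).exists_eq_pow_mul_and_not_dvd
  have hc0 : c ≠ 0 := by
    rintro rfl
    exact hπc (dvd_zero π)
  have hpow : ∀ m : ℕ, w (algebraMap B F π ^ m * algebraMap B F c)
      = (m : ℤ) * w (algebraMap B F π) := by
    intro m
    induction m with
    | zero => rw [pow_zero, one_mul, hwu c hc0 hπc]; simp
    | succ m ih =>
      rw [pow_succ, mul_assoc, mul_comm (algebraMap B F π) (algebraMap B F c), ← mul_assoc,
        hw _ _ (mul_ne_zero (pow_ne_zero _ (hne π hπ.ne_zero)) (hne c hc0)) (hne π hπ.ne_zero),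
        ih]
      push_cast; ring
  conv_lhs => rw [hc]
  rw [map_mul, map_pow, hpow]

/-- **Local generator**: `B` a UFD with fraction field `F`, `h ∈ F` nonzero.  Assume that for
every prime element `π` of `B` there is an additive function `w` on `F ∖ {0}` (a multiple of the
`π`-adic valuation: `w π = e` prime to `n`, `w = 0` on the elements of `B` prime to `π`) with
`n ∣ w h`.  Then `h = u * s ^ n` with `u` a unit of `B`. -/
theorem exists_unit_mul_pow {B F : Type*} [CommRing B] [IsDomain B]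
    [UniqueFactorizationMonoid B] [Field F] [Algebra B F] [IsFractionRing B F]
    (n : ℕ) (h : F) (h0 : h ≠ 0)
    (H : ∀ π : B, Prime π → ∃ w : F → ℤ,
      (∀ a b : F, a ≠ 0 → b ≠ 0 → w (a * b) = w a + w b) ∧
      (∀ b : B, b ≠ 0 → ¬ π ∣ b → w (algebraMap B F b) = 0) ∧
      IsCoprime (w (algebraMap B F π)) (n : ℤ) ∧ (n : ℤ) ∣ w h) :
    ∃ (u : B) (s : F), IsUnit u ∧ h = algebraMap B F u * s ^ n := by
  have hinj : Function.Injective (algebraMap B F) := IsFractionRing.injective B F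
  obtain ⟨a, ⟨b, hb⟩, hab, hmk⟩ := IsFractionRing.exists_reduced_fraction B h
  have hb0 : b ≠ 0 := nonZeroDivisors.ne_zero hb
  have hbF : algebraMap B F b ≠ 0 := (map_ne_zero_iff _ hinj).2 hb0
  have heq : h * algebraMap B F b = algebraMap B F a := by
    rw [← hmk]; exact IsLocalization.mk'_spec F a ⟨b, hb⟩
  have ha0 : a ≠ 0 := by
    rintro rfl
    rw [map_zero] at heq
    exact (mul_ne_zero h0 hbF) heq
  have key : ∀ π : B, Prime π → n ∣ multiplicity π a ∧ n ∣ multiplicity π b := by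
    intro π hπ
    obtain ⟨w, hw, hwu, hcop, hdvd⟩ := H π hπ
    have e1 := w_eq_multiplicity_mul π hπ w hw hwu a ha0
    have e2 := w_eq_multiplicity_mul π hπ w hw hwu b hb0
    have e3 : w h + w (algebraMap B F b) = w (algebraMap B F a) := by
      rw [← hw h _ h0 hbF, heq]
    have hnd : ¬ (π ∣ a ∧ π ∣ b) := fun hh => hπ.not_isUnit (hab hh.1 hh.2)
    have hdiff : (n : ℤ) ∣ ((multiplicity π a : ℤ) - multiplicity π b) := by
      have h4 : (n : ℤ) ∣ ((multiplicity π a : ℤ) - multiplicity π b) * w (algebraMap B F π) := by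
        have : ((multiplicity π a : ℤ) - multiplicity π b) * w (algebraMap B F π) = w h := by
          rw [sub_mul, ← e1, ← e2]; linarith
        rw [this]; exact hdvd
      exact hcop.symm.dvd_of_dvd_mul_right h4
    by_cases hda : π ∣ a
    · have hb' : multiplicity π b = 0 := multiplicity_eq_zero.2 fun hdb => hnd ⟨hda, hdb⟩
      rw [hb', Nat.cast_zero, sub_zero] at hdiff
      exact ⟨Int.natCast_dvd_natCast.1 hdiff, by rw [hb']; exact dvd_zero n⟩
    · have ha' : multiplicity π a = 0 := multiplicity_eq_zero.2 hda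
      rw [ha', Nat.cast_zero, zero_sub, dvd_neg] at hdiff
      exact ⟨by rw [ha']; exact dvd_zero n, Int.natCast_dvd_natCast.1 hdiff⟩
  obtain ⟨u₁, s₁, hu₁, e₁⟩ :=
    exists_unit_mul_pow_of_multiplicity n a ha0 fun π hπ => (key π hπ).1
  obtain ⟨u₂, s₂, hu₂, e₂⟩ :=
    exists_unit_mul_pow_of_multiplicity n b hb0 fun π hπ => (key π hπ).2
  obtain ⟨v₂, hv₂⟩ := hu₂.exists_right_inv
  have hu₂F : algebraMap B F u₂ * algebraMap B F v₂ = 1 := by
    rw [← map_mul, hv₂, map_one]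
  have hu₂0 : algebraMap B F u₂ ≠ 0 := left_ne_zero_of_mul_eq_one hu₂F
  have hbeq : algebraMap B F b = algebraMap B F u₂ * algebraMap B F s₂ ^ n := by
    rw [e₂, map_mul, map_pow]
  have haeq : algebraMap B F a = algebraMap B F u₁ * algebraMap B F s₁ ^ n := by
    rw [e₁, map_mul, map_pow]
  have hh : h = algebraMap B F a / algebraMap B F b := by
    rw [eq_div_iff hbF]; exact heq
  have hpow : algebraMap B F s₂ ^ n ≠ 0 := by
    intro h1
    rw [h1, mul_zero] at hbeq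
    exact hbF hbeq
  refine ⟨u₁ * v₂, algebraMap B F s₁ / algebraMap B F s₂, hu₁.mul ?_, ?_⟩
  · exact IsUnit.of_mul_eq_one u₂ (by rw [mul_comm]; exact hv₂)
  · rw [hh, haeq, hbeq, map_mul, div_pow, div_eq_iff (mul_ne_zero hu₂0 hpow)]
    field_simp
    linear_combination (-(algebraMap B F u₁ * algebraMap B F s₁ ^ n)) * hu₂F

/-- **CA1 for a reduction map**: `B` a noetherian local domain, `φ : B → V` a surjective ring
homomorphism onto a principal ideal domain `V` (the local ring of a smooth point of a component)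
whose kernel is generated by one element `x ≠ 0` of the maximal ideal (the local equation of the
component).  Then `B` is a unique factorization domain. -/
theorem ca1_ufm_of_surjective {B V : Type*} [CommRing B] [IsDomain B] [IsNoetherianRing B]
    [IsLocalRing B] [CommRing V] [IsDomain V] [IsPrincipalIdealRing V] (φ : B →+* V)
    (hφ : Function.Surjective φ) (x : B) (hx0 : x ≠ 0) (hx : x ∈ IsLocalRing.maximalIdeal B)
    (hker : RingHom.ker φ = Ideal.span {x}) : UniqueFactorizationMonoid B := by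
  have hprime : (Ideal.span {x}).IsPrime := hker ▸ RingHom.ker_isPrime φ
  let e : (B ⧸ Ideal.span {x}) ≃+* V :=
    (Ideal.quotEquivOfEq hker.symm).trans (RingHom.quotientKerEquivOfSurjective hφ)
  haveI : IsPrincipalIdealRing (B ⧸ Ideal.span {x}) :=
    IsPrincipalIdealRing.of_surjective e.symm.toRingHom e.symm.surjective
  exact ca1_ufm_local x hx0 hx hprime

/-- **Local generator, final form** (`CA1` + `exists_unit_mul_pow`). -/
theorem local_generator {B V F : Type*} [CommRing B] [IsDomain B] [IsNoetherianRing B]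
    [IsLocalRing B] [CommRing V] [IsDomain V] [IsPrincipalIdealRing V] [Field F] [Algebra B F]
    [IsFractionRing B F] (φ : B →+* V)
    (hφ : Function.Surjective φ) (x : B) (hx0 : x ≠ 0) (hx : x ∈ IsLocalRing.maximalIdeal B)
    (hker : RingHom.ker φ = Ideal.span {x})
    (n : ℕ) (h : F) (h0 : h ≠ 0)
    (H : ∀ π : B, Prime π → ∃ w : F → ℤ,
      (∀ a b : F, a ≠ 0 → b ≠ 0 → w (a * b) = w a + w b) ∧
      (∀ b : B, b ≠ 0 → ¬ π ∣ b → w (algebraMap B F b) = 0) ∧
      IsCoprime (w (algebraMap B F π)) (n : ℤ) ∧ (n : ℤ) ∣ w h) :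
    ∃ (u : B) (s : F), IsUnit u ∧ h = algebraMap B F u * s ^ n := by
  haveI : UniqueFactorizationMonoid B := ca1_ufm_of_surjective φ hφ x hx0 hx hker
  exact exists_unit_mul_pow n h h0 H

end Fermat.Agent.S36.NU.H10

end
-- ==== END Fermat.Agent.S36.NU.H10_CA1

-- ==== BEGIN Fermat.Agent.S36.NU.H10_Eis
section

/-!
# S36 / NU-B, leaf EIS-ALG (helper10): the algebra of N5

N5 = "the local equation of `X₀(q² M')` at a supersingular point is Eisenstein"
(Katz–Mazur regularity), proved from Kronecker's congruences.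

Notation: `u` a function of level `M'`, `u' = u(qτ)`, `u'' = u(q²τ)`,
`Φ  = (Y - u^q)(Y^q - u) + q Ψ`                       (level `q`,  `Φ(u') = 0`),
`Φ₂ = (Y - u^{q²})(Y - u)^{q-1}(Y^{q²} - u) + q Ψ₂`     (level `q²`, `Φ₂(u'') = 0`),
`u' = u^q - q δ`, `u'' = u'^q - q δ'` (in the valuation ring of the component of `∞`).

* `eis_L1` : `Ψ(u') = δ (u'^q - u)`.
* `eis_frob_sq`, `eis_d2` : `u'' = u^{q²} - q (δ' + q e)`.
* `eis_L2` : `Ψ₂(u'') = d₂ (u'' - u)^{q-1} (u''^{q²} - u)` for `u'' = u^{q²} - q d₂`.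
* `eis_red_L1`, `eis_red_L2` : the same after a reduction `red : V →+* κ` with
  `red u' = (red u)^q`, `red u'' = (red u)^{q²}`:
  `Ψ̄(ū^q) = db (ū^{q²} - ū)`,  `Ψ̄₂(ū^{q²}) = db' (ū^{q²} - ū)^{q-1} (ū^{q⁴} - ū)`.
* `ord_frob_sub` : if `ū - c` is a local coordinate at `z` and `c^{q^m} = c` then
  `ū^{q^m} - ū` has a simple zero at `z`.
* `eis_ord` : if moreover `db'` has a pole of order `q` at `z` (`db' = db^q`, `db` simple pole)
  then the right-hand side of (L2) is a unit at `z`: **N5**.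
* `eis_pole_le_one` : by (L1), a pole of `db` at `z` is simple and forces `c^{q²} = c`.
-/

set_option autoImplicit false

open Polynomial AlgebraicCurve

namespace Fermat.Agent.S36.NU.H10

section Ring

variable {V : Type*} [CommRing V]

/-- **(L1)**, exact form: `q (Ψ(u') - δ (u'^q - u)) = 0`. -/
theorem eis_L1_mul (q : ℕ) (u u' δ : V) (Φ Ψ : V[X])
    (hΦ : Φ = (X - C (u ^ q)) * (X ^ q - C u) + C (q : V) * Ψ)
    (hroot : Φ.eval u' = 0) (hδ : u' = u ^ q - q * δ) :
    (q : V) * (Ψ.eval u' - δ * (u' ^ q - u)) = 0 := by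
  have h := hroot
  rw [hΦ] at h
  simp only [eval_add, eval_mul, eval_sub, eval_X, eval_C, eval_pow] at h
  have h1 : u' - u ^ q = -(q * δ) := by rw [hδ]; ring
  rw [h1] at h
  linear_combination h

/-- **(L1)** when `q` is not a zero divisor. -/
theorem eis_L1 (q : ℕ) (hq : ∀ x : V, (q : V) * x = 0 → x = 0) (u u' δ : V) (Φ Ψ : V[X])
    (hΦ : Φ = (X - C (u ^ q)) * (X ^ q - C u) + C (q : V) * Ψ)
    (hroot : Φ.eval u' = 0) (hδ : u' = u ^ q - q * δ) :
    Ψ.eval u' = δ * (u' ^ q - u) :=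
  sub_eq_zero.mp (hq _ (eis_L1_mul q u u' δ Φ Ψ hΦ hroot hδ))

/-- `(a - q b)^q = a^q - q² e`. -/
theorem eis_frob_sq (q : ℕ) (a b : V) : ∃ e : V, (a - q * b) ^ q = a ^ q - (q : V) ^ 2 * e := by
  have h : (q : V) ∣ a - (a - q * b) := ⟨b, by ring⟩
  have h2 := dvd_sub_pow_of_dvd_sub h 1
  rw [pow_one] at h2
  obtain ⟨e, he⟩ := h2
  exact ⟨e, by linear_combination -he⟩

/-- `u' = u^q - q δ`, `u'' = u'^q - q δ'`  ⟹  `u'' = u^{q²} - q (δ' + q e)`. -/
theorem eis_d2 (q : ℕ) (u u' u'' δ δ' : V) (hδ : u' = u ^ q - q * δ)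
    (hδ' : u'' = u' ^ q - q * δ') :
    ∃ e : V, u'' = u ^ q ^ 2 - q * (δ' + q * e) := by
  obtain ⟨e, he⟩ := eis_frob_sq q (u ^ q) δ
  refine ⟨e, ?_⟩
  rw [hδ', hδ, he, ← pow_mul, ← pow_two]
  ring

/-- **(L2)**, exact form. -/
theorem eis_L2_mul (q : ℕ) (u u'' d₂ : V) (Φ₂ Ψ₂ : V[X])
    (hΦ : Φ₂ = (X - C (u ^ q ^ 2)) * (X - C u) ^ (q - 1) * (X ^ q ^ 2 - C u) + C (q : V) * Ψ₂)
    (hroot : Φ₂.eval u'' = 0) (hd : u'' = u ^ q ^ 2 - q * d₂) :
    (q : V) * (Ψ₂.eval u'' - d₂ * (u'' - u) ^ (q - 1) * (u'' ^ q ^ 2 - u)) = 0 := by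
  have h := hroot
  rw [hΦ] at h
  simp only [eval_add, eval_mul, eval_sub, eval_X, eval_C, eval_pow] at h
  have h1 : u'' - u ^ q ^ 2 = -(q * d₂) := by rw [hd]; ring
  rw [h1] at h
  linear_combination h

/-- **(L2)** when `q` is not a zero divisor. -/
theorem eis_L2 (q : ℕ) (hq : ∀ x : V, (q : V) * x = 0 → x = 0) (u u'' d₂ : V) (Φ₂ Ψ₂ : V[X])
    (hΦ : Φ₂ = (X - C (u ^ q ^ 2)) * (X - C u) ^ (q - 1) * (X ^ q ^ 2 - C u) + C (q : V) * Ψ₂)
    (hroot : Φ₂.eval u'' = 0) (hd : u'' = u ^ q ^ 2 - q * d₂) :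
    Ψ₂.eval u'' = d₂ * (u'' - u) ^ (q - 1) * (u'' ^ q ^ 2 - u) :=
  sub_eq_zero.mp (hq _ (eis_L2_mul q u u'' d₂ Φ₂ Ψ₂ hΦ hroot hd))

/-- The exact identity `t₂₀ t₁₁^{q-1} t₀₂ = q W`, `W = Ψ₂(u'')`
(`t₂₀ = u^{q²} - u''`, `t₁₁ = u'' - u`, `t₀₂ = u''^{q²} - u`). -/
theorem eis_factor (q : ℕ) (u u'' : V) (Φ₂ Ψ₂ : V[X])
    (hΦ : Φ₂ = (X - C (u ^ q ^ 2)) * (X - C u) ^ (q - 1) * (X ^ q ^ 2 - C u) + C (q : V) * Ψ₂)
    (hroot : Φ₂.eval u'' = 0) :
    (u ^ q ^ 2 - u'') * (u'' - u) ^ (q - 1) * (u'' ^ q ^ 2 - u) = q * Ψ₂.eval u'' := by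
  have h := hroot
  rw [hΦ] at h
  simp only [eval_add, eval_mul, eval_sub, eval_X, eval_C, eval_pow] at h
  linear_combination -h

variable {κ : Type*} [CommRing κ]

/-- (L1) after reduction: `Ψ̄(ū^q) = db (ū^{q²} - ū)`. -/
theorem eis_red_L1 (q : ℕ) (hq : ∀ x : V, (q : V) * x = 0 → x = 0) (red : V →+* κ)
    (u u' δ : V) (Φ Ψ : V[X])
    (hΦ : Φ = (X - C (u ^ q)) * (X ^ q - C u) + C (q : V) * Ψ)
    (hroot : Φ.eval u' = 0) (hδ : u' = u ^ q - q * δ) (hred : red u' = red u ^ q) :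
    (Ψ.map red).eval (red u ^ q) = red δ * (red u ^ q ^ 2 - red u) := by
  have h := congrArg red (eis_L1 q hq u u' δ Φ Ψ hΦ hroot hδ)
  rw [← hred, eval_map_apply, h, map_mul, map_sub, map_pow, hred, ← pow_mul, ← pow_two]

/-- (L2) after reduction: `Ψ̄₂(ū^{q²}) = db' (ū^{q²} - ū)^{q-1} (ū^{q⁴} - ū)`, where
`u' = u^q - q δ`, `u'' = u'^q - q δ'`, `red q = 0`, `red u'' = (red u)^{q²}`. -/
theorem eis_red_L2 (q : ℕ) (hq : ∀ x : V, (q : V) * x = 0 → x = 0) (red : V →+* κ)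
    (hq0 : red (q : V) = 0)
    (u u' u'' δ δ' : V) (Φ₂ Ψ₂ : V[X])
    (hΦ : Φ₂ = (X - C (u ^ q ^ 2)) * (X - C u) ^ (q - 1) * (X ^ q ^ 2 - C u) + C (q : V) * Ψ₂)
    (hroot : Φ₂.eval u'' = 0) (hδ : u' = u ^ q - q * δ) (hδ' : u'' = u' ^ q - q * δ')
    (hred : red u'' = red u ^ q ^ 2) :
    (Ψ₂.map red).eval (red u ^ q ^ 2) =
      red δ' * (red u ^ q ^ 2 - red u) ^ (q - 1) * (red u ^ q ^ 4 - red u) := by
  obtain ⟨e, he⟩ := eis_d2 q u u' u'' δ δ' hδ hδ'
  have h := congrArg red (eis_L2 q hq u u'' (δ' + q * e) Φ₂ Ψ₂ hΦ hroot he)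
  rw [← hred, eval_map_apply, h]
  simp only [map_mul, map_sub, map_pow, map_add, hq0, zero_mul, add_zero, hred]
  rw [← pow_mul, ← pow_add]

end Ring

section Ord

variable {k κ : Type*} [Field k] [Field κ] [Algebra k κ]

open Fermat.Agent.RED.H17

/-- If `ū - c` has a simple zero at `z`, `c^{q^m} = c` in characteristic `q` (`m ≥ 1`), then
`ū^{q^m} - ū` has a simple zero at `z`. -/
theorem ord_frob_sub (q : ℕ) [hqp : Fact q.Prime] [CharP κ q] (z : Place k κ) (ū : κ) (c : k)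
    (hu : z.ord (ū - algebraMap k κ c) = 1) {m : ℕ} (hm : 0 < m) (hc : c ^ q ^ m = c) :
    z.ord (ū ^ q ^ m - ū) = 1 := by
  set t := ū - algebraMap k κ c with ht
  have ht0 : t ≠ 0 := by
    intro h
    rw [h, Place.ord_zero] at hu
    exact absurd hu (by norm_num)
  have hkey : ū ^ q ^ m - ū = -t + t ^ q ^ m := by
    have h1 : t ^ q ^ m = ū ^ q ^ m - (algebraMap k κ c) ^ q ^ m := sub_pow_char_pow ū _ m
    rw [h1, ← map_pow, hc, ht]
    ring
  have hq2 : 2 ≤ q ^ m := by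
    calc 2 ≤ q := hqp.out.two_le
      _ = q ^ 1 := (pow_one q).symm
      _ ≤ q ^ m := Nat.pow_le_pow_right hqp.out.pos hm
  have hneg : z.ord (-t) = 1 := by
    have h0 : (-t) = (-1 : κ) * t := by ring
    have h1 : z.ord (-1 : κ) = 0 := by
      have := ord_algebraMap z (-1 : k)
      simpa using this
    have h2 : z.ord ((-1 : κ) * t) = z.ord (-1 : κ) + z.ord t :=
      Place.ord_mul z (neg_ne_zero.mpr one_ne_zero) ht0
    rw [h0, h2, h1, zero_add, hu]
  rw [hkey, ord_add_of_lt z (neg_ne_zero.mpr ht0)]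
  · exact hneg
  · right
    rw [hneg, ord_pow, hu, mul_one]
    exact_mod_cast hq2

/-- **N5, order count.**  `ū - c` a local coordinate at `z`, `c ∈ 𝔽_{q²}`, and `d'` with a pole
of order `q` at `z` (`d' = db^q` with `db` a simple pole): then
`d' (ū^{q²} - ū)^{q-1} (ū^{q⁴} - ū)` is a unit at `z`. -/
theorem eis_ord (q : ℕ) [hqp : Fact q.Prime] [CharP κ q] (z : Place k κ) (ū d' : κ) (c : k)
    (hu : z.ord (ū - algebraMap k κ c) = 1) (hc : c ^ q ^ 2 = c) (hd : z.ord d' = -(q : ℤ)) :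
    z.ord (d' * (ū ^ q ^ 2 - ū) ^ (q - 1) * (ū ^ q ^ 4 - ū)) = 0 := by
  have h2 : z.ord (ū ^ q ^ 2 - ū) = 1 := ord_frob_sub q z ū c hu (by norm_num) hc
  have hc4 : c ^ q ^ 4 = c := by
    have : q ^ 4 = q ^ 2 * q ^ 2 := by ring
    rw [this, pow_mul, hc, hc]
  have h4 : z.ord (ū ^ q ^ 4 - ū) = 1 := ord_frob_sub q z ū c hu (by norm_num) hc4
  have hq1 : 1 ≤ q := hqp.out.pos
  have hd0 : d' ≠ 0 := by
    intro h
    rw [h, Place.ord_zero] at hd
    have : (0 : ℤ) < q := by exact_mod_cast hqp.out.pos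
    omega
  have h20 : ū ^ q ^ 2 - ū ≠ 0 := by
    intro h
    rw [h, Place.ord_zero] at h2
    exact absurd h2 (by norm_num)
  have h40 : ū ^ q ^ 4 - ū ≠ 0 := by
    intro h
    rw [h, Place.ord_zero] at h4
    exact absurd h4 (by norm_num)
  rw [Place.ord_mul z (mul_ne_zero hd0 (pow_ne_zero _ h20)) h40,
    Place.ord_mul z hd0 (pow_ne_zero _ h20), ord_pow, hd, h2, h4]
  push_cast [Nat.cast_sub hq1]
  ring

/-- The same with `d' = db^q`, `db` a simple pole. -/
theorem eis_ord' (q : ℕ) [Fact q.Prime] [CharP κ q] (z : Place k κ) (ū db : κ) (c : k)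
    (hu : z.ord (ū - algebraMap k κ c) = 1) (hc : c ^ q ^ 2 = c) (hd : z.ord db = -1) :
    z.ord (db ^ q * (ū ^ q ^ 2 - ū) ^ (q - 1) * (ū ^ q ^ 4 - ū)) = 0 := by
  refine eis_ord q z ū (db ^ q) c hu hc ?_
  rw [ord_pow, hd]
  ring

/-- By (L1): if `Ψ̄(ū^q)` is regular at `z` and `ū - c` is a local coordinate at `z`, then a pole of
`db` at `z` is simple. -/
theorem eis_pole_le_one (q : ℕ) (z : Place k κ) (ū db P : κ)
    (hL1 : P = db * (ū ^ q ^ 2 - ū)) (hP : RegAt z P)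
    (h2 : z.ord (ū ^ q ^ 2 - ū) ≤ 1) (hne : ū ^ q ^ 2 - ū ≠ 0) :
    -1 ≤ z.ord db := by
  by_cases hd0 : db = 0
  · rw [hd0, Place.ord_zero]; norm_num
  have hP0 : P ≠ 0 := by rw [hL1]; exact mul_ne_zero hd0 hne
  have h := hP.ord_nonneg
  rw [hL1, Place.ord_mul z hd0 hne] at h
  omega

/-- **N5** (abstract form): in the situation of `eis_red_L2`, with `κ` a function field over `k`
of characteristic `q`, `z` a place at which `red u - c` is a local coordinate, `c ∈ 𝔽_{q²}`,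
and `red δ'` with a pole of order `q` at `z`: the function `Ψ₂~(u~^{q²})` (= the reduction of
`W = Ψ₂(u'')` on the component of `∞`) is a unit at `z`. -/
theorem eis_N5 {V : Type*} [CommRing V] (q : ℕ) [Fact q.Prime] [CharP κ q]
    (hq : ∀ x : V, (q : V) * x = 0 → x = 0) (red : V →+* κ)
    (u u' u'' δ δ' : V) (Φ₂ Ψ₂ : V[X])
    (hΦ : Φ₂ = (X - C (u ^ q ^ 2)) * (X - C u) ^ (q - 1) * (X ^ q ^ 2 - C u) + C (q : V) * Ψ₂)
    (hroot : Φ₂.eval u'' = 0) (hδ : u' = u ^ q - q * δ) (hδ' : u'' = u' ^ q - q * δ')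
    (hred : red u'' = red u ^ q ^ 2)
    (z : Place k κ) (c : k) (hu : z.ord (red u - algebraMap k κ c) = 1) (hc : c ^ q ^ 2 = c)
    (hd : z.ord (red δ') = -(q : ℤ)) :
    z.ord ((Ψ₂.map red).eval (red u ^ q ^ 2)) = 0 := by
  have hq0 : red (q : V) = 0 := by
    rw [map_natCast]
    exact CharP.cast_eq_zero κ q
  rw [eis_red_L2 q hq red hq0 u u' u'' δ δ' Φ₂ Ψ₂ hΦ hroot hδ hδ' hred]
  exact eis_ord q z (red u) (red δ') c hu hc hd

end Ord

end Fermat.Agent.S36.NU.H10

end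
-- ==== END Fermat.Agent.S36.NU.H10_Eis
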