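-- GENERATED (merged mirror, NOTES/tools/trim/merge3_helper67.py): 5 modules of the originals, bodies verbatim.
import Mathlib
import Fermat.Agent.Zm.S35_L02_001

-- ==== BEGIN Fermat.Agent.S36.NU.H16_ValVec
section

/-!
# S36 / NU-B, leaf VALVEC-ABS (helper16): normalisation of the valuation vector

Level `q² M'`: three discrete valuations `V₂₀`, `V₁₁`, `V₀₂` of `L₀` with uniformizers
`π₂₀`, `π₁₁`, `π₀₂`; the constant `q₀` has valuation vector `(1, q - 1, 1)`, and `t₁₁`, `t₀₂` have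
valuation vectors `(0, 1, 0)`, `(0, 0, 1)`.  Level `q M'`: two discrete valuations `V'₁`, `V'₂` of
`L'` with uniformizers `ϖ₁`, `ϖ₂`.  The norms `Nα`, `Nβ : L₀ → L'` along the two degeneracy maps
satisfy (NORM-VAL, with `ν = (k₁, k₂, k₃)` the valuation vector of `x ≠ 0`)

  `v'₁ (Nα x) = k₁ + k₂`, `v'₂ (Nα x) = q k₃`, `v'₁ (Nβ x) = q k₁`, `v'₂ (Nβ x) = k₂ + k₃`.

* `valvec_arith` : the linear algebra modulo `n`;
* `valvec_explicit`, `valvec` : if `Nα f = cα gα ^ n`, `Nβ f = cβ gβ ^ n` with constants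
  `cα`, `cβ` (same valuation for `V'₁` and `V'₂`), then `(q + 1) ν(f) ≡ b (1, q - 1, 1) mod n`,
  and `h = f ^ (q + 1) * q₀ ^ (-b) * w ^ n` is a unit for the three valuations, for a suitable
  integer `b` and `w = t₁₁ ^ (-c₂) * t₀₂ ^ (-c₃)`;
* `valvec_norm` : the norm of `h` is again a constant times an `n`-th power;
* `uniformizer_val_unique` : two uniformizers have the same valuation (to compare the
  uniformizers of different norm data);
* `mem_and_inv_mem_of_val_eq_one` : a function of valuation `1` is a unit of the valuation ring.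
-/

set_option autoImplicit false

namespace Fermat.Agent.S36.NU.H16

/-- A multiplicative map between fields commutes with inverses. -/
theorem monoidHom_inv {L₀ L' : Type*} [Field L₀] [Field L'] (N : L₀ →* L') (x : L₀)
    (hx : x ≠ 0) : N x⁻¹ = (N x)⁻¹ := by
  have h1 : N x * N x⁻¹ = 1 := by rw [← map_mul, mul_inv_cancel₀ hx, map_one]
  exact eq_inv_of_mul_eq_one_right h1

/-- A multiplicative map between fields commutes with integral powers. -/
theorem monoidHom_zpow {L₀ L' : Type*} [Field L₀] [Field L'] (N : L₀ →* L') (x : L₀)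
    (hx : x ≠ 0) (m : ℤ) : N (x ^ m) = (N x) ^ m := by
  cases m with
  | ofNat k => simp [map_pow]
  | negSucc k =>
    rw [zpow_negSucc, zpow_negSucc, monoidHom_inv N _ (pow_ne_zero _ hx), map_pow]

/-- Arithmetic of VALVEC. -/
theorem valvec_arith (q n x y z mα mβ a₁ a₂ b₁ b₂ : ℤ)
    (h1 : x + y = mα + n * a₁) (h2 : q * z = mα + n * a₂)
    (h3 : q * x = mβ + n * b₁) (h4 : y + z = mβ + n * b₂) :
    ∃ c₂ c₃ : ℤ, (q + 1) * y = (q - 1) * ((q + 1) * x) + n * c₂ ∧
      (q + 1) * z = (q + 1) * x + n * c₃ := by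
  refine ⟨(q + 1) * (b₂ - b₁) + (a₁ - a₂ - b₂ + b₁), -(a₁ - a₂ - b₂ + b₁), ?_, ?_⟩
  · linear_combination q * (h4 - h3) + (h1 - h2)
  · linear_combination h4 - h3 - h1 + h2

/-- A function of valuation `1` is a unit of the valuation ring. -/
theorem mem_and_inv_mem_of_val_eq_one {F : Type*} [Field F] (V : ValuationSubring F) {h : F}
    (hh : V.valuation h = 1) : h ∈ V ∧ h⁻¹ ∈ V := by
  refine ⟨(V.valuation_le_one_iff h).1 hh.le, (V.valuation_le_one_iff h⁻¹).1 ?_⟩
  rw [map_inv₀, hh, inv_one]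

/-- A non-zero unit of the valuation ring has valuation `1`. -/
theorem valuation_eq_one_of_mem_inv_mem {F : Type*} [Field F] (V : ValuationSubring F) {h : F}
    (h0 : h ≠ 0) (h1 : h ∈ V) (h2 : h⁻¹ ∈ V) : V.valuation h = 1 := by
  have e1 : V.valuation h ≤ 1 := (V.valuation_le_one_iff h).2 h1
  have e2 : V.valuation h⁻¹ ≤ 1 := (V.valuation_le_one_iff h⁻¹).2 h2
  have hv0 : V.valuation h ≠ 0 := (Valuation.ne_zero_iff _).2 h0
  rw [map_inv₀] at e2
  have e3 : 1 ≤ V.valuation h := (inv_le_one₀ (zero_lt_iff.2 hv0)).1 e2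
  exact le_antisymm e1 e3

/-- Two uniformizers have the same valuation. -/
theorem uniformizer_val_unique {F : Type*} [Field F] (V : ValuationSubring F) {π π' : F}
    (hπ : V.valuation π < 1) (hπ' : V.valuation π' < 1) (hπ0 : π ≠ 0) (hπ'0 : π' ≠ 0)
    (hD : ∀ x : F, x ≠ 0 → ∃ m : ℤ, V.valuation x = V.valuation π ^ m)
    (hD' : ∀ x : F, x ≠ 0 → ∃ m : ℤ, V.valuation x = V.valuation π' ^ m) :
    V.valuation π = V.valuation π' := by
  have ha0 : V.valuation π ≠ 0 := (Valuation.ne_zero_iff _).2 hπ0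
  obtain ⟨m, hm⟩ := hD π' hπ'0
  obtain ⟨m', hm'⟩ := hD' π hπ0
  have hinj : Function.Injective fun m : ℤ => V.valuation π ^ m :=
    zpow_right_injective₀ (zero_lt_iff.2 ha0) hπ.ne
  have e : V.valuation π ^ (m * m') = V.valuation π ^ (1 : ℤ) := by
    rw [zpow_mul, ← hm, ← hm', zpow_one]
  have e1 : m * m' = 1 := hinj e
  rcases Int.eq_one_or_neg_one_of_mul_eq_one e1 with h1 | h1
  · rw [hm, h1, zpow_one]
  · exfalso
    rw [h1, zpow_neg, zpow_one] at hm
    have : (1 : V.ValueGroup) < V.valuation π' := by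
      rw [hm]
      exact (one_lt_inv₀ (zero_lt_iff.2 ha0)).2 hπ
    exact absurd hπ' (not_lt.2 this.le)

section ValVec

variable {L₀ L' : Type*} [Field L₀] [Field L']

/-- **VALVEC**, explicit form. -/
theorem valvec_explicit (V₂₀ V₁₁ V₀₂ : ValuationSubring L₀) (V'₁ V'₂ : ValuationSubring L')
    (π₂₀ π₁₁ π₀₂ q₀ t₁₁ t₀₂ : L₀) (ϖ₁ ϖ₂ : L') (q n : ℕ) (hq : 1 ≤ q) (hn : n ≠ 0)
    (hπ₂₀0 : π₂₀ ≠ 0) (hπ₁₁0 : π₁₁ ≠ 0) (hπ₀₂0 : π₀₂ ≠ 0)
    (hD₂₀ : ∀ x : L₀, x ≠ 0 → ∃ m : ℤ, V₂₀.valuation x = V₂₀.valuation π₂₀ ^ m)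
    (hD₁₁ : ∀ x : L₀, x ≠ 0 → ∃ m : ℤ, V₁₁.valuation x = V₁₁.valuation π₁₁ ^ m)
    (hD₀₂ : ∀ x : L₀, x ≠ 0 → ∃ m : ℤ, V₀₂.valuation x = V₀₂.valuation π₀₂ ^ m)
    (hq₂₀ : V₂₀.valuation q₀ = V₂₀.valuation π₂₀)
    (hq₁₁ : V₁₁.valuation q₀ = V₁₁.valuation π₁₁ ^ (q - 1))
    (hq₀₂ : V₀₂.valuation q₀ = V₀₂.valuation π₀₂)
    (ht₁₁ : V₂₀.valuation t₁₁ = 1 ∧ V₁₁.valuation t₁₁ = V₁₁.valuation π₁₁ ∧
      V₀₂.valuation t₁₁ = 1)
    (ht₀₂ : V₂₀.valuation t₀₂ = 1 ∧ V₁₁.valuation t₀₂ = 1 ∧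
      V₀₂.valuation t₀₂ = V₀₂.valuation π₀₂)
    (hϖ₁ : V'₁.valuation ϖ₁ < 1) (hϖ₂ : V'₂.valuation ϖ₂ < 1) (hϖ₁0 : ϖ₁ ≠ 0) (hϖ₂0 : ϖ₂ ≠ 0)
    (hD'₁ : ∀ y : L', y ≠ 0 → ∃ m : ℤ, V'₁.valuation y = V'₁.valuation ϖ₁ ^ m)
    (hD'₂ : ∀ y : L', y ≠ 0 → ∃ m : ℤ, V'₂.valuation y = V'₂.valuation ϖ₂ ^ m)
    (Nα Nβ : L₀ → L')
    (hNα₁ : ∀ x : L₀, x ≠ 0 → ∀ k₁ k₂ : ℤ, V₂₀.valuation x = V₂₀.valuation π₂₀ ^ k₁ →
      V₁₁.valuation x = V₁₁.valuation π₁₁ ^ k₂ →
      V'₁.valuation (Nα x) = V'₁.valuation ϖ₁ ^ (k₁ + k₂))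
    (hNα₂ : ∀ x : L₀, x ≠ 0 → ∀ k₃ : ℤ, V₀₂.valuation x = V₀₂.valuation π₀₂ ^ k₃ →
      V'₂.valuation (Nα x) = V'₂.valuation ϖ₂ ^ ((q : ℤ) * k₃))
    (hNβ₁ : ∀ x : L₀, x ≠ 0 → ∀ k₁ : ℤ, V₂₀.valuation x = V₂₀.valuation π₂₀ ^ k₁ →
      V'₁.valuation (Nβ x) = V'₁.valuation ϖ₁ ^ ((q : ℤ) * k₁))
    (hNβ₂ : ∀ x : L₀, x ≠ 0 → ∀ k₂ k₃ : ℤ, V₁₁.valuation x = V₁₁.valuation π₁₁ ^ k₂ →
      V₀₂.valuation x = V₀₂.valuation π₀₂ ^ k₃ →
      V'₂.valuation (Nβ x) = V'₂.valuation ϖ₂ ^ (k₂ + k₃))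
    (f : L₀) (hf : f ≠ 0) (cα gα cβ gβ : L') (hα : Nα f = cα * gα ^ n)
    (hβ : Nβ f = cβ * gβ ^ n)
    (hcα : ∃ m : ℤ, V'₁.valuation cα = V'₁.valuation ϖ₁ ^ m ∧
      V'₂.valuation cα = V'₂.valuation ϖ₂ ^ m)
    (hcβ : ∃ m : ℤ, V'₁.valuation cβ = V'₁.valuation ϖ₁ ^ m ∧
      V'₂.valuation cβ = V'₂.valuation ϖ₂ ^ m) :
    ∃ b c₂ c₃ : ℤ,
      V₂₀.valuation (f ^ (q + 1) * q₀ ^ (-b) * (t₁₁ ^ (-c₂) * t₀₂ ^ (-c₃)) ^ n) = 1 ∧
      V₁₁.valuation (f ^ (q + 1) * q₀ ^ (-b) * (t₁₁ ^ (-c₂) * t₀₂ ^ (-c₃)) ^ n) = 1 ∧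
      V₀₂.valuation (f ^ (q + 1) * q₀ ^ (-b) * (t₁₁ ^ (-c₂) * t₀₂ ^ (-c₃)) ^ n) = 1 := by
  -- notation
  set a₂₀ := V₂₀.valuation π₂₀ with ha₂₀
  set a₁₁ := V₁₁.valuation π₁₁ with ha₁₁
  set a₀₂ := V₀₂.valuation π₀₂ with ha₀₂
  set p₁ := V'₁.valuation ϖ₁ with hp₁
  set p₂ := V'₂.valuation ϖ₂ with hp₂
  have ha₂₀0 : a₂₀ ≠ 0 := (Valuation.ne_zero_iff _).2 hπ₂₀0
  have ha₁₁0 : a₁₁ ≠ 0 := (Valuation.ne_zero_iff _).2 hπ₁₁0
  have ha₀₂0 : a₀₂ ≠ 0 := (Valuation.ne_zero_iff _).2 hπ₀₂0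
  have hp₁0 : p₁ ≠ 0 := (Valuation.ne_zero_iff _).2 hϖ₁0
  have hp₂0 : p₂ ≠ 0 := (Valuation.ne_zero_iff _).2 hϖ₂0
  have hinj₁ : Function.Injective fun m : ℤ => p₁ ^ m :=
    zpow_right_injective₀ (zero_lt_iff.2 hp₁0) hϖ₁.ne
  have hinj₂ : Function.Injective fun m : ℤ => p₂ ^ m :=
    zpow_right_injective₀ (zero_lt_iff.2 hp₂0) hϖ₂.ne
  -- the valuation vector of `f`
  obtain ⟨x, hx⟩ := hD₂₀ f hf
  obtain ⟨y, hy⟩ := hD₁₁ f hf
  obtain ⟨z, hz⟩ := hD₀₂ f hf
  -- the norms of `f`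
  have hNα1 : V'₁.valuation (Nα f) = p₁ ^ (x + y) := hNα₁ f hf x y hx hy
  have hNα2 : V'₂.valuation (Nα f) = p₂ ^ ((q : ℤ) * z) := hNα₂ f hf z hz
  have hNβ1 : V'₁.valuation (Nβ f) = p₁ ^ ((q : ℤ) * x) := hNβ₁ f hf x hx
  have hNβ2 : V'₂.valuation (Nβ f) = p₂ ^ (y + z) := hNβ₂ f hf y z hy hz
  -- `gα`, `gβ` are nonzero
  have hgα0 : gα ≠ 0 := by
    rintro rfl
    rw [hα, zero_pow hn, mul_zero, map_zero] at hNα1
    exact zpow_ne_zero _ hp₁0 hNα1.symm
  have hgβ0 : gβ ≠ 0 := by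
    rintro rfl
    rw [hβ, zero_pow hn, mul_zero, map_zero] at hNβ1
    exact zpow_ne_zero _ hp₁0 hNβ1.symm
  obtain ⟨a₁, ha₁⟩ := hD'₁ gα hgα0
  obtain ⟨a₂, ha₂⟩ := hD'₂ gα hgα0
  obtain ⟨b₁, hb₁⟩ := hD'₁ gβ hgβ0
  obtain ⟨b₂, hb₂⟩ := hD'₂ gβ hgβ0
  obtain ⟨mα, hmα₁, hmα₂⟩ := hcα
  obtain ⟨mβ, hmβ₁, hmβ₂⟩ := hcβ
  -- the four equations
  have h1 : x + y = mα + (n : ℤ) * a₁ := by
    apply hinj₁
    change p₁ ^ (x + y) = p₁ ^ (mα + (n : ℤ) * a₁)
    rw [← hNα1, hα, map_mul, map_pow, hmα₁, ha₁, ← zpow_natCast, ← zpow_mul, ← zpow_add₀ hp₁0,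
      mul_comm a₁]
  have h2 : (q : ℤ) * z = mα + (n : ℤ) * a₂ := by
    apply hinj₂
    change p₂ ^ ((q : ℤ) * z) = p₂ ^ (mα + (n : ℤ) * a₂)
    rw [← hNα2, hα, map_mul, map_pow, hmα₂, ha₂, ← zpow_natCast, ← zpow_mul, ← zpow_add₀ hp₂0,
      mul_comm a₂]
  have h3 : (q : ℤ) * x = mβ + (n : ℤ) * b₁ := by
    apply hinj₁
    change p₁ ^ ((q : ℤ) * x) = p₁ ^ (mβ + (n : ℤ) * b₁)
    rw [← hNβ1, hβ, map_mul, map_pow, hmβ₁, hb₁, ← zpow_natCast, ← zpow_mul, ← zpow_add₀ hp₁0,
      mul_comm b₁]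
  have h4 : y + z = mβ + (n : ℤ) * b₂ := by
    apply hinj₂
    change p₂ ^ (y + z) = p₂ ^ (mβ + (n : ℤ) * b₂)
    rw [← hNβ2, hβ, map_mul, map_pow, hmβ₂, hb₂, ← zpow_natCast, ← zpow_mul, ← zpow_add₀ hp₂0,
      mul_comm b₂]
  obtain ⟨c₂, c₃, hc₂, hc₃⟩ := valvec_arith q n x y z mα mβ a₁ a₂ b₁ b₂ h1 h2 h3 h4
  have hq1 : ((q - 1 : ℕ) : ℤ) = (q : ℤ) - 1 := by
    rw [Nat.cast_sub hq, Nat.cast_one]
  refine ⟨((q : ℤ) + 1) * x, c₂, c₃, ?_, ?_, ?_⟩
  · rw [map_mul, map_mul, map_pow, map_pow, map_mul, map_zpow₀, map_zpow₀, map_zpow₀, hx, hq₂₀,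
      ht₁₁.1, ht₀₂.1, one_zpow, one_zpow, mul_one, one_pow, mul_one, ← zpow_natCast,
      ← zpow_mul, ← zpow_add₀ ha₂₀0]
    have e : x * ((q + 1 : ℕ) : ℤ) + -(((q : ℤ) + 1) * x) = 0 := by push_cast; ring
    rw [e, zpow_zero]
  · rw [map_mul, map_mul, map_pow, map_pow, map_mul, map_zpow₀, map_zpow₀, map_zpow₀, hy, hq₁₁,
      ht₁₁.2.1, ht₀₂.2.1, one_zpow, mul_one, ← zpow_natCast, ← zpow_natCast, ← zpow_natCast,
      ← zpow_mul, ← zpow_mul, ← zpow_mul, ← zpow_add₀ ha₁₁0, ← zpow_add₀ ha₁₁0]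
    have e : y * ((q + 1 : ℕ) : ℤ) + ((q - 1 : ℕ) : ℤ) * -(((q : ℤ) + 1) * x) + -c₂ * (n : ℤ)
        = 0 := by
      rw [hq1]; push_cast; linear_combination hc₂
    rw [e, zpow_zero]
  · rw [map_mul, map_mul, map_pow, map_pow, map_mul, map_zpow₀, map_zpow₀, map_zpow₀, hz, hq₀₂,
      ht₁₁.2.2, ht₀₂.2.2, one_zpow, one_mul, ← zpow_natCast, ← zpow_natCast,
      ← zpow_mul, ← zpow_mul, ← zpow_add₀ ha₀₂0, ← zpow_add₀ ha₀₂0]
    have e : z * ((q + 1 : ℕ) : ℤ) + -(((q : ℤ) + 1) * x) + -c₃ * (n : ℤ) = 0 := by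
      push_cast; linear_combination hc₃
    rw [e, zpow_zero]

/-- **VALVEC**: `h = f ^ (q + 1) * q₀ ^ (-b) * w ^ n` is a unit for the three valuations. -/
theorem valvec (V₂₀ V₁₁ V₀₂ : ValuationSubring L₀) (V'₁ V'₂ : ValuationSubring L')
    (π₂₀ π₁₁ π₀₂ q₀ t₁₁ t₀₂ : L₀) (ϖ₁ ϖ₂ : L') (q n : ℕ) (hq : 1 ≤ q) (hn : n ≠ 0)
    (hπ₂₀0 : π₂₀ ≠ 0) (hπ₁₁0 : π₁₁ ≠ 0) (hπ₀₂0 : π₀₂ ≠ 0)
    (hD₂₀ : ∀ x : L₀, x ≠ 0 → ∃ m : ℤ, V₂₀.valuation x = V₂₀.valuation π₂₀ ^ m)
    (hD₁₁ : ∀ x : L₀, x ≠ 0 → ∃ m : ℤ, V₁₁.valuation x = V₁₁.valuation π₁₁ ^ m)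
    (hD₀₂ : ∀ x : L₀, x ≠ 0 → ∃ m : ℤ, V₀₂.valuation x = V₀₂.valuation π₀₂ ^ m)
    (hq₂₀ : V₂₀.valuation q₀ = V₂₀.valuation π₂₀)
    (hq₁₁ : V₁₁.valuation q₀ = V₁₁.valuation π₁₁ ^ (q - 1))
    (hq₀₂ : V₀₂.valuation q₀ = V₀₂.valuation π₀₂)
    (ht₁₁ : V₂₀.valuation t₁₁ = 1 ∧ V₁₁.valuation t₁₁ = V₁₁.valuation π₁₁ ∧
      V₀₂.valuation t₁₁ = 1)
    (ht₀₂ : V₂₀.valuation t₀₂ = 1 ∧ V₁₁.valuation t₀₂ = 1 ∧
      V₀₂.valuation t₀₂ = V₀₂.valuation π₀₂)
    (hϖ₁ : V'₁.valuation ϖ₁ < 1) (hϖ₂ : V'₂.valuation ϖ₂ < 1) (hϖ₁0 : ϖ₁ ≠ 0) (hϖ₂0 : ϖ₂ ≠ 0)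
    (hD'₁ : ∀ y : L', y ≠ 0 → ∃ m : ℤ, V'₁.valuation y = V'₁.valuation ϖ₁ ^ m)
    (hD'₂ : ∀ y : L', y ≠ 0 → ∃ m : ℤ, V'₂.valuation y = V'₂.valuation ϖ₂ ^ m)
    (Nα Nβ : L₀ → L')
    (hNα₁ : ∀ x : L₀, x ≠ 0 → ∀ k₁ k₂ : ℤ, V₂₀.valuation x = V₂₀.valuation π₂₀ ^ k₁ →
      V₁₁.valuation x = V₁₁.valuation π₁₁ ^ k₂ →
      V'₁.valuation (Nα x) = V'₁.valuation ϖ₁ ^ (k₁ + k₂))
    (hNα₂ : ∀ x : L₀, x ≠ 0 → ∀ k₃ : ℤ, V₀₂.valuation x = V₀₂.valuation π₀₂ ^ k₃ →
      V'₂.valuation (Nα x) = V'₂.valuation ϖ₂ ^ ((q : ℤ) * k₃))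
    (hNβ₁ : ∀ x : L₀, x ≠ 0 → ∀ k₁ : ℤ, V₂₀.valuation x = V₂₀.valuation π₂₀ ^ k₁ →
      V'₁.valuation (Nβ x) = V'₁.valuation ϖ₁ ^ ((q : ℤ) * k₁))
    (hNβ₂ : ∀ x : L₀, x ≠ 0 → ∀ k₂ k₃ : ℤ, V₁₁.valuation x = V₁₁.valuation π₁₁ ^ k₂ →
      V₀₂.valuation x = V₀₂.valuation π₀₂ ^ k₃ →
      V'₂.valuation (Nβ x) = V'₂.valuation ϖ₂ ^ (k₂ + k₃))
    (f : L₀) (hf : f ≠ 0) (cα gα cβ gβ : L') (hα : Nα f = cα * gα ^ n)
    (hβ : Nβ f = cβ * gβ ^ n)
    (hcα : ∃ m : ℤ, V'₁.valuation cα = V'₁.valuation ϖ₁ ^ m ∧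
      V'₂.valuation cα = V'₂.valuation ϖ₂ ^ m)
    (hcβ : ∃ m : ℤ, V'₁.valuation cβ = V'₁.valuation ϖ₁ ^ m ∧
      V'₂.valuation cβ = V'₂.valuation ϖ₂ ^ m) :
    ∃ (b : ℤ) (w : L₀), w ≠ 0 ∧
      (f ^ (q + 1) * q₀ ^ (-b) * w ^ n ∈ V₂₀ ∧ (f ^ (q + 1) * q₀ ^ (-b) * w ^ n)⁻¹ ∈ V₂₀) ∧
      (f ^ (q + 1) * q₀ ^ (-b) * w ^ n ∈ V₁₁ ∧ (f ^ (q + 1) * q₀ ^ (-b) * w ^ n)⁻¹ ∈ V₁₁) ∧
      (f ^ (q + 1) * q₀ ^ (-b) * w ^ n ∈ V₀₂ ∧ (f ^ (q + 1) * q₀ ^ (-b) * w ^ n)⁻¹ ∈ V₀₂) := by
  obtain ⟨b, c₂, c₃, h1, h2, h3⟩ := valvec_explicit V₂₀ V₁₁ V₀₂ V'₁ V'₂ π₂₀ π₁₁ π₀₂ q₀ t₁₁ t₀₂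
    ϖ₁ ϖ₂ q n hq hn hπ₂₀0 hπ₁₁0 hπ₀₂0 hD₂₀ hD₁₁ hD₀₂ hq₂₀ hq₁₁ hq₀₂ ht₁₁ ht₀₂ hϖ₁ hϖ₂ hϖ₁0 hϖ₂0
    hD'₁ hD'₂ Nα Nβ hNα₁ hNα₂ hNβ₁ hNβ₂ f hf cα gα cβ gβ hα hβ hcα hcβ
  have ht₁₁0 : t₁₁ ≠ 0 := by
    rintro rfl
    have := ht₁₁.1
    rw [map_zero] at this
    exact zero_ne_one this
  have ht₀₂0 : t₀₂ ≠ 0 := by
    rintro rfl
    have := ht₀₂.1
    rw [map_zero] at this
    exact zero_ne_one this
  exact ⟨b, t₁₁ ^ (-c₂) * t₀₂ ^ (-c₃),
    mul_ne_zero (zpow_ne_zero _ ht₁₁0) (zpow_ne_zero _ ht₀₂0),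
    mem_and_inv_mem_of_val_eq_one _ h1, mem_and_inv_mem_of_val_eq_one _ h2,
    mem_and_inv_mem_of_val_eq_one _ h3⟩

/-- The norm of `h = f ^ (q + 1) * q₀ ^ (-b) * w ^ n` is again a constant times an `n`-th power. -/
theorem valvec_norm {K' : Type*} [Field K'] [Algebra K' L'] (N : L₀ →* L') (n : ℕ) (E : ℕ)
    (f q₀ w : L₀) (hq₀ : q₀ ≠ 0) (b : ℤ) (c d : K') (g : L')
    (hN : N f = algebraMap K' L' c * g ^ n) (hNq : N q₀ = algebraMap K' L' d) :
    N (f ^ E * q₀ ^ (-b) * w ^ n)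
      = algebraMap K' L' (c ^ E * d ^ (-b)) * (g ^ E * N w) ^ n := by
  rw [map_mul, map_mul, map_pow, map_pow, monoidHom_zpow N _ hq₀, hN, hNq, map_mul, map_pow,
    map_zpow₀, mul_pow, mul_pow, ← pow_mul, ← pow_mul, mul_comm n E]
  ring

/-- **Valuations of constants**: if every non-zero constant is a unit times a power of `q`, then
the valuation of a non-zero constant is the same power of the valuation of `q` for all
valuation rings containing the integral constants. -/
theorem const_val {R Kf : Type*} [CommRing R] [Field Kf] [Algebra R Kf] [Algebra Kf L']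
    [Algebra R L'] [IsScalarTower R Kf L'] (q : R)
    (hdvr : ∀ c : Kf, c ≠ 0 → ∃ (u : Rˣ) (m : ℤ),
      c = algebraMap R Kf (u : R) * algebraMap R Kf q ^ m)
    (V'₁ V'₂ : ValuationSubring L') (h₁ : ∀ r : R, algebraMap R L' r ∈ V'₁)
    (h₂ : ∀ r : R, algebraMap R L' r ∈ V'₂) (c : Kf) (hc : c ≠ 0) :
    ∃ m : ℤ, V'₁.valuation (algebraMap Kf L' c) = V'₁.valuation (algebraMap R L' q) ^ m ∧
      V'₂.valuation (algebraMap Kf L' c) = V'₂.valuation (algebraMap R L' q) ^ m := by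
  obtain ⟨u, m, rfl⟩ := hdvr c hc
  have key : ∀ V' : ValuationSubring L', (∀ r : R, algebraMap R L' r ∈ V') →
      V'.valuation (algebraMap Kf L' (algebraMap R Kf (u : R) * algebraMap R Kf q ^ m))
        = V'.valuation (algebraMap R L' q) ^ m := by
    intro V' hV'
    have hu0 : algebraMap R L' (u : R) ≠ 0 := by
      intro h0
      have h1 : algebraMap R L' (u : R) * algebraMap R L' ((u⁻¹ : Rˣ) : R) = 1 := by
        rw [← map_mul, Units.mul_inv, map_one]
      rw [h0, zero_mul] at h1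
      exact zero_ne_one h1
    have hinv : (algebraMap R L' (u : R))⁻¹ = algebraMap R L' ((u⁻¹ : Rˣ) : R) := by
      rw [inv_eq_iff_eq_inv]
      refine eq_inv_of_mul_eq_one_left ?_
      rw [← map_mul, Units.mul_inv, map_one]
    have hu1 : V'.valuation (algebraMap R L' (u : R)) = 1 :=
      valuation_eq_one_of_mem_inv_mem V' hu0 (hV' _) (by rw [hinv]; exact hV' _)
    rw [map_mul, map_zpow₀, ← IsScalarTower.algebraMap_apply, ← IsScalarTower.algebraMap_apply,
      map_mul, map_zpow₀, hu1, one_mul]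
  exact ⟨m, key V'₁ h₁, key V'₂ h₂⟩

end ValVec

end Fermat.Agent.S36.NU.H16

end
-- ==== END Fermat.Agent.S36.NU.H16_ValVec

-- ==== BEGIN Fermat.Agent.S36.NU.H17_Descent
section

/-!
# S36 / NU-B, leaf (L2-i) NORMAL-IMG, part 1 (helper17): Galois descent of decompositions

`G` a group acting on a field `C`, `K = C^G` the fixed field.

* `eq_zero_of_forall_sum_smul_eq_zero` (Artin): if `c₁, …, cₙ ∈ C` are linearly independent over
  `K`, no nonzero `l ∈ Cⁿ` satisfies `∑ lᵢ σ(cᵢ) = 0` for all `σ ∈ G`;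
* `span_conj_eq_top` : the conjugate vectors `(σ c₁, …, σ cₙ)` span `Cⁿ`;
* `exists_indep_decomp` : an element of the `C`-span of a `K`-subspace `S` is `∑ cᵢ gᵢ` with
  `gᵢ ∈ S` and `cᵢ` linearly independent over `K`;
* `mem_of_conj_mem` : if `f = ∑ cᵢ uᵢ` with `cᵢ` linearly independent over `K`, and `U` is a
  `C`-subspace containing all `∑ σ(cᵢ) uᵢ`, then `uᵢ ∈ U`.
-/

set_option autoImplicit false
set_option linter.unusedSectionVars false
set_option linter.style.haveILetI false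
set_option linter.unusedSimpArgs false

namespace Fermat.Agent.S36.NU.H17

section Artin

variable (G : Type*) [Group G] (C : Type*) [Field C] [MulSemiringAction G C]

/-- **Artin**: if the `cᵢ` are linearly independent over the fixed field, no nonzero `l`
kills all the conjugate vectors. -/
theorem eq_zero_of_forall_sum_smul_eq_zero {n : ℕ} (c : Fin n → C)
    (hc : LinearIndependent (FixedPoints.subfield G C) c) (l : Fin n → C)
    (h : ∀ σ : G, ∑ i, l i * σ • c i = 0) : l = 0 := by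
  classical
  have hinj : Function.Injective c := hc.injective
  have h1 : LinearIndepOn (FixedPoints.subfield G C) id
      ((Finset.univ.image c : Finset C) : Set C) := by
    have := hc.linearIndepOn_id
    rwa [Finset.coe_image, Finset.coe_univ, Set.image_univ]
  have h2 := FixedPoints.linearIndependent_smul_of_linearIndependent G C h1
  have h3 : LinearIndependent C (fun i : Fin n => MulAction.toFun G C (c i)) := by
    have h2' : LinearIndependent C
        (fun x : ((Finset.univ.image c : Finset C) : Set C) => MulAction.toFun G C (x : C)) := h2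
    let e : Fin n → ((Finset.univ.image c : Finset C) : Set C) :=
      fun i => ⟨c i, by simp⟩
    have he : Function.Injective e := fun i j hij => hinj (congrArg Subtype.val hij)
    exact h2'.comp e he
  refine Fintype.linearIndependent_iff.1 h3 l ?_ |> funext
  funext σ
  rw [Finset.sum_apply]
  simpa [MulAction.toFun_apply] using h σ

/-- The conjugate vectors `(σ c₁, …, σ cₙ)`, `σ ∈ G`, span `Cⁿ`. -/
theorem span_conj_eq_top {n : ℕ} (c : Fin n → C)
    (hc : LinearIndependent (FixedPoints.subfield G C) c) :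
    Submodule.span C (Set.range fun σ : G => (fun i => σ • c i : Fin n → C)) = ⊤ := by
  classical
  by_contra hne
  obtain ⟨φ, hφ0, hφ⟩ := Submodule.exists_le_ker_of_lt_top _ (lt_top_iff_ne_top.2 hne)
  have hφv : ∀ v : Fin n → C, φ v = ∑ i, φ (Pi.single i 1) * v i := by
    intro v
    have := LinearMap.pi_apply_eq_sum_univ φ v
    rw [this]
    refine Finset.sum_congr rfl fun i _ => ?_
    rw [smul_eq_mul, mul_comm]
    congr 2
    funext j
    by_cases hij : j = i
    · subst hij; simp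
    · simp [hij, Ne.symm hij]
  have hl : (fun i => φ (Pi.single i 1)) = 0 := by
    refine eq_zero_of_forall_sum_smul_eq_zero G C c hc _ fun σ => ?_
    have : (fun i => σ • c i : Fin n → C) ∈ LinearMap.ker φ :=
      hφ (Submodule.subset_span ⟨σ, rfl⟩)
    rw [LinearMap.mem_ker, hφv] at this
    exact this
  apply hφ0
  refine LinearMap.ext fun v => ?_
  rw [hφv]
  simp only [LinearMap.zero_apply]
  refine Finset.sum_eq_zero fun i _ => ?_
  have := congrFun hl i
  simp only [Pi.zero_apply] at this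
  rw [this, zero_mul]

end Artin

section Decomp

variable {K C M : Type*} [Field K] [Field C] [Algebra K C] [AddCommGroup M]
  [Module C M] [Module K M] [IsScalarTower K C M]

/-- One step of the reduction: a decomposition with `k + 1` terms whose coefficients are
linearly dependent over `K` can be shortened. -/
theorem shorten_decomp (S : Submodule K M) {f : M} {k : ℕ} (c : Fin (k + 1) → C)
    (g : Fin (k + 1) → M) (hg : ∀ i, g i ∈ S) (hf : f = ∑ i, c i • g i)
    (hdep : ¬ LinearIndependent K c) :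
    ∃ (c' : Fin k → C) (g' : Fin k → M), (∀ i, g' i ∈ S) ∧ f = ∑ i, c' i • g' i := by
  obtain ⟨a, ha, i0, hi0⟩ := Fintype.not_linearIndependent_iff.1 hdep
  refine ⟨fun i => c (i0.succAbove i),
    fun i => g (i0.succAbove i) - (a (i0.succAbove i) / a i0) • g i0, fun i => ?_, ?_⟩
  · exact S.sub_mem (hg _) (S.smul_mem _ (hg _))
  · -- `c i0 = - ∑ (a_i / a_i0) c_i`
    have h1 : a i0 • c i0 + ∑ i, a (i0.succAbove i) • c (i0.succAbove i) = 0 := by
      rw [← Fin.sum_univ_succAbove (fun i => a i • c i) i0]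
      exact ha
    have h2 : c i0 = - ∑ i, (a (i0.succAbove i) / a i0) • c (i0.succAbove i) := by
      have h3 : (a i0)⁻¹ • (a i0 • c i0 + ∑ i, a (i0.succAbove i) • c (i0.succAbove i)) = 0 := by
        rw [h1, smul_zero]
      rw [smul_add, smul_smul, inv_mul_cancel₀ hi0, one_smul, Finset.smul_sum] at h3
      rw [eq_neg_iff_add_eq_zero, ← h3]
      congr 1
      refine Finset.sum_congr rfl fun i _ => ?_
      rw [smul_smul, div_eq_inv_mul]
    rw [hf, Fin.sum_univ_succAbove (fun i => c i • g i) i0]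
    simp only [smul_sub, Finset.sum_sub_distrib]
    have h4 : ∑ i, c (i0.succAbove i) • (a (i0.succAbove i) / a i0) • g i0
        = (∑ i, (a (i0.succAbove i) / a i0) • c (i0.succAbove i)) • g i0 := by
      rw [Finset.sum_smul]
      refine Finset.sum_congr rfl fun i _ => ?_
      rw [smul_comm, smul_assoc]
    rw [h4, h2, neg_smul]
    abel

/-- **Decomposition with independent coefficients**: an element of the `C`-span of a
`K`-subspace `S` is `∑ cᵢ gᵢ` with `gᵢ ∈ S` and the `cᵢ` linearly independent over `K`. -/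
theorem exists_indep_decomp (S : Submodule K M) {f : M}
    (hf : f ∈ Submodule.span C (S : Set M)) :
    ∃ (n : ℕ) (c : Fin n → C) (g : Fin n → M), (∀ i, g i ∈ S) ∧ f = ∑ i, c i • g i ∧
      LinearIndependent K c := by
  obtain ⟨n, c, g, hfg⟩ := Submodule.mem_span_set'.1 hf
  have key : ∀ (n : ℕ) (c : Fin n → C) (g : Fin n → M), (∀ i, g i ∈ S) → f = ∑ i, c i • g i →
      ∃ (m : ℕ) (c' : Fin m → C) (g' : Fin m → M), (∀ i, g' i ∈ S) ∧ f = ∑ i, c' i • g' i ∧
        LinearIndependent K c' := by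
    intro n
    induction n with
    | zero =>
      intro c g hg hf
      exact ⟨0, c, g, hg, hf, linearIndependent_empty_type⟩
    | succ k ih =>
      intro c g hg hf
      by_cases hli : LinearIndependent K c
      · exact ⟨k + 1, c, g, hg, hf, hli⟩
      · obtain ⟨c', g', hg', hf'⟩ := shorten_decomp S c g hg hf hli
        exact ih c' g' hg' hf'
  exact key n c (fun i => (g i : M)) (fun i => (g i).2) hfg.symm

end Decomp

section Conj

variable (G : Type*) [Group G] {C M : Type*} [Field C] [MulSemiringAction G C]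
  [AddCommGroup M] [Module C M]

/-- If `f = ∑ cᵢ uᵢ` with the `cᵢ` linearly independent over the fixed field, and `U` is a
`C`-subspace containing all the conjugates `∑ σ(cᵢ) uᵢ`, then every `uᵢ` lies in `U`. -/
theorem mem_of_conj_mem {n : ℕ} (c : Fin n → C)
    (hc : LinearIndependent (FixedPoints.subfield G C) c) (u : Fin n → M) (U : Submodule C M)
    (hU : ∀ σ : G, ∑ i, (σ • c i) • u i ∈ U) (i : Fin n) : u i ∈ U := by
  classical
  let Φ : (Fin n → C) →ₗ[C] M :=
    { toFun := fun w => ∑ i, w i • u i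
      map_add' := fun w w' => by
        simp only [Pi.add_apply, add_smul, Finset.sum_add_distrib]
      map_smul' := fun a w => by
        simp only [Pi.smul_apply, smul_eq_mul, mul_smul, RingHom.id_apply, Finset.smul_sum] }
  have hle : Submodule.span C (Set.range fun σ : G => (fun i => σ • c i : Fin n → C))
      ≤ U.comap Φ := by
    rw [Submodule.span_le]
    rintro _ ⟨σ, rfl⟩
    exact hU σ
  rw [span_conj_eq_top G C c hc] at hle
  have h1 : (Pi.single i 1 : Fin n → C) ∈ U.comap Φ := hle Submodule.mem_top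
  have h2 : Φ (Pi.single i 1) = u i := by
    show ∑ j, (Pi.single i 1 : Fin n → C) j • u j = u i
    rw [Finset.sum_eq_single i]
    · simp
    · intro j _ hji
      simp [Pi.single_apply, hji]
    · intro h
      exact absurd (Finset.mem_univ i) h
  rw [← h2]
  exact h1

end Conj

section Elementary

variable {K C M : Type*} [Field K] [Field C] [AddCommGroup M] [Module C M]

/-- Instance-free form of `exists_indep_decomp`: `K → C` a ring homomorphism, `S` an additive
subgroup of the `C`-module `M` stable under the scalars from `K`. -/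
theorem exists_indep_decomp_of_ringHom (ι : K →+* C) (S : AddSubgroup M)
    (hS : ∀ (k : K) (x : M), x ∈ S → ι k • x ∈ S) {f : M}
    (hf : f ∈ Submodule.span C (S : Set M)) :
    ∃ (n : ℕ) (c : Fin n → C) (g : Fin n → M), (∀ i, g i ∈ S) ∧ f = ∑ i, c i • g i ∧
      ∀ a : Fin n → K, ∑ i, ι (a i) * c i = 0 → ∀ i, a i = 0 := by
  letI : Algebra K C := ι.toAlgebra
  letI : Module K M := Module.compHom M ι
  haveI : IsScalarTower K C M := ⟨fun k c x => by
    show (ι k * c) • x = ι k • (c • x)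
    rw [mul_smul]⟩
  let S' : Submodule K M :=
    { carrier := S
      add_mem' := S.add_mem
      zero_mem' := S.zero_mem
      smul_mem' := fun k x hx => hS k x hx }
  obtain ⟨n, c, g, hg, hfg, hli⟩ := exists_indep_decomp (K := K) (C := C) S' hf
  refine ⟨n, c, g, hg, hfg, fun a ha => ?_⟩
  exact Fintype.linearIndependent_iff.1 hli a ha

/-- Linear independence over `K` (through `ι`) gives linear independence over the fixed field,
if the fixed field is contained in the image of `ι`. -/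
theorem linearIndependent_fixedPoints_of_ringHom (G : Type*) [Group G] [MulSemiringAction G C]
    (ι : K →+* C) (hfix : ∀ c : C, (∀ σ : G, σ • c = c) → c ∈ ι.range) {n : ℕ}
    (c : Fin n → C) (hc : ∀ a : Fin n → K, ∑ i, ι (a i) * c i = 0 → ∀ i, a i = 0) :
    LinearIndependent (FixedPoints.subfield G C) c := by
  rw [Fintype.linearIndependent_iff]
  intro a ha i
  have h1 : ∀ i, ∃ k : K, ι k = (a i : C) := fun i => hfix (a i) (fun σ => (a i).2 σ)
  choose k hk using h1
  have h0 := hc k (by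
    simp_rw [hk]
    exact ha) i
  apply Subtype.ext
  rw [← hk i, h0, map_zero]
  rfl

end Elementary

end Fermat.Agent.S36.NU.H17

end
-- ==== END Fermat.Agent.S36.NU.H17_Descent

-- ==== BEGIN Fermat.Agent.S36.NU.H17_NormalGen
section

/-!
# S36 / NU-B, leaf (L2-i) NORMAL-IMG, part 3 (helper17): generation `F_C = C · F_K`

`ι : K → C` fields with `C` integral over `K`, `F₀` a field of rational `q`-expansions,
`ψ = coeffMap ι`.

* `mem_span_coeffMap_of_mem_laurentBaseChange` : every element of `laurentBaseChange C F₀` is a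
  `C`-linear combination of elements `ψ g`, `g ∈ laurentBaseChange K F₀`.
-/

set_option autoImplicit false
set_option linter.style.haveILetI false
set_option linter.unusedSectionVars false

noncomputable section

open ModularCurve Polynomial

namespace Fermat.Agent.S36.NU.H17

section Gen

variable {K C : Type} [Field K] [Field C] [Algebra ℚ K] [Algebra ℚ C] (ι : K →+* C)
  (F₀ : IntermediateField ℚ (LaurentSeries ℚ))

/-- The `C`-span of a multiplicatively closed set is multiplicatively closed. -/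
theorem mul_mem_span_of_mul_mem {S : Set (LaurentSeries C)}
    (hS : ∀ x ∈ S, ∀ y ∈ S, x * y ∈ S) {x y : LaurentSeries C}
    (hx : x ∈ Submodule.span C S) (hy : y ∈ Submodule.span C S) :
    x * y ∈ Submodule.span C S := by
  induction hx using Submodule.span_induction with
  | mem x hx =>
    induction hy using Submodule.span_induction with
    | mem y hy => exact Submodule.subset_span (hS x hx y hy)
    | zero => rw [mul_zero]; exact Submodule.zero_mem _
    | add y z _ _ hy hz => rw [mul_add]; exact Submodule.add_mem _ hy hz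
    | smul a y _ hy =>
      rw [← HahnSeries.C_mul_eq_smul, mul_left_comm, HahnSeries.C_mul_eq_smul]
      exact Submodule.smul_mem _ _ hy
  | zero => rw [zero_mul]; exact Submodule.zero_mem _
  | add x z _ _ hx hz => rw [add_mul]; exact Submodule.add_mem _ hx hz
  | smul a x _ hx =>
    rw [← HahnSeries.C_mul_eq_smul, mul_assoc, HahnSeries.C_mul_eq_smul]
    exact Submodule.smul_mem _ _ hx

/-- **(GEN)**: if `C` is integral over `K`, the function field over `C` is spanned over `C` by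
the function field over `K`. -/
theorem mem_span_coeffMap_of_mem_laurentBaseChange
    (halg : ∀ c : C, ι.IsIntegralElem c) {x : LaurentSeries C}
    (hx : x ∈ laurentBaseChange C F₀) :
    x ∈ Submodule.span C (⇑(coeffMap ι) '' (laurentBaseChange K F₀ : Set (LaurentSeries K))) := by
  set F' := laurentBaseChange K F₀ with hF'
  set T : Submodule C (LaurentSeries C) :=
    Submodule.span C (⇑(coeffMap ι) '' (F' : Set (LaurentSeries K))) with hT
  letI : Algebra ↥F' (LaurentSeries C) :=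
    ((coeffMap ι).comp (algebraMap ↥F' (LaurentSeries K))).toAlgebra
  have hmap : ∀ g : ↥F', algebraMap ↥F' (LaurentSeries C) g = coeffMap ι (g : LaurentSeries K) :=
    fun g => rfl
  have hψT : ∀ g : LaurentSeries K, g ∈ F' → coeffMap ι g ∈ T := fun g hg =>
    Submodule.subset_span ⟨g, hg, rfl⟩
  have hmulS : ∀ x ∈ ⇑(coeffMap ι) '' (F' : Set (LaurentSeries K)),
      ∀ y ∈ ⇑(coeffMap ι) '' (F' : Set (LaurentSeries K)),
      x * y ∈ ⇑(coeffMap ι) '' (F' : Set (LaurentSeries K)) := by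
    rintro _ ⟨g, hg, rfl⟩ _ ⟨g', hg', rfl⟩
    exact ⟨g * g', F'.mul_mem hg hg', map_mul _ _ _⟩
  have hconstT : ∀ c : C, algebraMap C (LaurentSeries C) c ∈ T := fun c => by
    have h1 : algebraMap C (LaurentSeries C) c = c • (coeffMap ι (1 : LaurentSeries K)) := by
      rw [map_one, ← HahnSeries.C_mul_eq_smul, mul_one, algebraMap_laurentSeries_eq_single]
      rfl
    rw [h1]
    exact Submodule.smul_mem _ _ (hψT 1 F'.one_mem)
  -- the subalgebra generated over `F'` by the constants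
  set T' : Subalgebra ↥F' (LaurentSeries C) :=
    Algebra.adjoin ↥F' (Set.range (algebraMap C (LaurentSeries C))) with hT'
  have hT'T : ∀ b ∈ T', b ∈ T := by
    intro b hb
    induction hb using Algebra.adjoin_induction with
    | mem b hb =>
      obtain ⟨c, rfl⟩ := hb
      exact hconstT c
    | algebraMap g => rw [hmap]; exact hψT _ g.2
    | add b b' _ _ hb hb' => exact T.add_mem hb hb'
    | mul b b' _ _ hb hb' => exact mul_mem_span_of_mul_mem hmulS hb hb'
  -- constants are integral over `F'`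
  have hcomp : (algebraMap ↥F' (LaurentSeries C)).comp (algebraMap K ↥F')
      = (algebraMap C (LaurentSeries C)).comp ι := by
    refine RingHom.ext fun k => ?_
    show coeffMap ι (algebraMap K (LaurentSeries K) k) = algebraMap C (LaurentSeries C) (ι k)
    exact Fermat.Agent.GTor.H75.coeffMap_algebraMap' ι k
  have hconstInt : ∀ c : C, IsIntegral ↥F' (algebraMap C (LaurentSeries C) c) := by
    intro c
    obtain ⟨p, hp, hpc⟩ := halg c
    refine ⟨p.map (algebraMap K ↥F'), hp.map _, ?_⟩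
    rw [eval₂_map, hcomp, ← hom_eval₂, hpc, map_zero]
  have hint : ∀ b ∈ T', IsIntegral ↥F' b := by
    intro b hb
    have hle : T' ≤ integralClosure ↥F' (LaurentSeries C) := by
      apply Algebra.adjoin_le
      rintro _ ⟨c, rfl⟩
      exact hconstInt c
    exact hle hb
  -- `T'` contains the function field over `C`
  have key : ∀ z ∈ laurentBaseChange C F₀, z ∈ T' := by
    intro z hz
    rw [mem_laurentBaseChange_iff] at hz
    induction hz using Subfield.closure_induction with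
    | mem y hy =>
      rcases hy with ⟨a, rfl⟩ | ⟨w, hw, rfl⟩
      · exact Algebra.subset_adjoin ⟨a, rfl⟩
      · have h1 : coeffEmb C w
            = algebraMap ↥F' (LaurentSeries C) ⟨coeffEmb K w, coeffEmb_mem_laurentBaseChange K hw⟩ := by
          rw [hmap]
          exact (Fermat.Agent.GTor.H75.coeffMap_coeffEmb' ι w).symm
        rw [h1]
        exact T'.algebraMap_mem _
    | one => exact T'.one_mem
    | add y z _ _ hy hz => exact T'.add_mem hy hz
    | neg y _ hy => exact T'.neg_mem hy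
    | inv y _ hy => exact (hint y hy).inv_mem hy
    | mul y z _ _ hy hz => exact T'.mul_mem hy hz
  exact hT'T x (key x hx)

end Gen

end Fermat.Agent.S36.NU.H17

end
end
-- ==== END Fermat.Agent.S36.NU.H17_NormalGen

-- ==== BEGIN Fermat.Agent.S36.NU.H17_TIFin
section

/-!
# S36 / NU-B, leaf TI3-FIN (helper17): the two charts `R[j]`, `R[1/j]` and the modules `M₀`, `M_∞`

`R` a domain, `F` a field containing `R`, `j ∈ F`, `h ∈ F`, `n ≥ 1`.

* `isIntegral_of_monic_coeff_mem` : integrality over a subalgebra from a monic polynomial of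
  `F[X]` with coefficients in the subalgebra;
* `exists_pow_inv_mul_isIntegral` : **change of chart**: if `f` is integral over `R[j]` then
  `j⁻ᵉ f` is integral over `R[1/j]` for all large `e`;
* `MInt R j h n hn` : the `R[j]`-submodule `M₀ = {s | h sⁿ integral over R[j]}` of `F`;
  `mul_mem_MInt` : it is a module over the integral closure of `R[j]`;
* `exists_pow_inv_mul_mem_MInt` : `M₀ ⊆ ⋃ jᵉ M_∞` (and, with `j⁻¹` for `j`, `M_∞ ⊆ ⋃ j⁻ᵉ M₀`);
* `MInt_fg` : `M₀` is a finitely generated `R[j]`-module (`R[j]` noetherian and integrally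
  closed, `F` finite separable over `Frac R[j]`).
-/

set_option autoImplicit false
set_option linter.style.haveILetI false
set_option linter.unusedSectionVars false

noncomputable section

open Polynomial

namespace Fermat.Agent.S36.NU.H17

section Generic

variable {R F : Type*} [CommRing R] [Field F] [Algebra R F]

/-- Integrality over a subalgebra from a monic polynomial with coefficients in it. -/
theorem isIntegral_of_monic_coeff_mem (A : Subalgebra R F) (x : F) (P : F[X]) (hP : P.Monic)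
    (hc : ∀ i, P.coeff i ∈ A) (hx : P.eval x = 0) : IsIntegral A x := by
  have hl : P ∈ Polynomial.lifts (algebraMap A F) := by
    rw [Polynomial.lifts_iff_coeff_lifts]
    intro i
    exact ⟨⟨P.coeff i, hc i⟩, rfl⟩
  obtain ⟨Q, hQ, -, hQm⟩ := Polynomial.lifts_and_degree_eq_and_monic hl hP
  refine ⟨Q, hQm, ?_⟩
  rw [← Polynomial.eval_map, hQ, hx]

/-- Conversely. -/
theorem exists_monic_coeff_mem (A : Subalgebra R F) {x : F} (hx : IsIntegral A x) :
    ∃ P : F[X], P.Monic ∧ (∀ i, P.coeff i ∈ A) ∧ P.eval x = 0 := by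
  obtain ⟨Q, hQm, hQ⟩ := hx
  refine ⟨Q.map (algebraMap A F), hQm.map _, fun i => ?_, ?_⟩
  · rw [Polynomial.coeff_map]
    exact (Q.coeff i).2
  · rw [Polynomial.eval_map]
    exact hQ

/-- `P(j) j⁻ᵐ ∈ R[1/j]` for `m ≥ deg P`. -/
theorem aeval_mul_inv_pow_mem {j : F} (hj : j ≠ 0) (Q : R[X]) {m : ℕ} (hm : Q.natDegree ≤ m) :
    aeval j Q * j⁻¹ ^ m ∈ Algebra.adjoin R {j⁻¹} := by
  letI : Invertible j := invertibleOfNonzero hj
  have h := Polynomial.eval₂_reflect_mul_pow (algebraMap R F) j m Q hm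
  have e : aeval j Q * j⁻¹ ^ m = aeval j⁻¹ (Polynomial.reflect m Q) := by
    rw [aeval_def, aeval_def, ← h, invOf_eq_inv, mul_assoc, ← mul_pow, mul_inv_cancel₀ hj,
      one_pow, mul_one]
  rw [e, Algebra.adjoin_singleton_eq_range_aeval]
  exact ⟨_, rfl⟩

/-- Elements of `R[j]` times `j⁻ᵐ`, `m` large, lie in `R[1/j]`. -/
theorem exists_mul_inv_pow_mem {j : F} (hj : j ≠ 0) {a : F} (ha : a ∈ Algebra.adjoin R {j}) :
    ∃ m₀ : ℕ, ∀ m ≥ m₀, a * j⁻¹ ^ m ∈ Algebra.adjoin R {j⁻¹} := by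
  rw [Algebra.adjoin_singleton_eq_range_aeval] at ha
  obtain ⟨Q, rfl⟩ := ha
  exact ⟨Q.natDegree, fun m hm => aeval_mul_inv_pow_mem hj Q hm⟩

/-- **Change of chart**: if `f` is integral over `R[j]` then `j⁻ᵉ f` is integral over
`R[1/j]` for all large `e`. -/
theorem exists_pow_inv_mul_isIntegral {j : F} (hj : j ≠ 0) {f : F}
    (hf : IsIntegral (Algebra.adjoin R {j}) f) :
    ∃ e₀ : ℕ, ∀ e ≥ e₀, IsIntegral (Algebra.adjoin R {j⁻¹}) (j⁻¹ ^ e * f) := by
  classical
  obtain ⟨P, hPm, hPc, hPx⟩ := exists_monic_coeff_mem _ hf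
  -- a common bound for the coefficients
  have hex : ∀ i, ∃ m₀ : ℕ, ∀ m ≥ m₀, P.coeff i * j⁻¹ ^ m ∈ Algebra.adjoin R {j⁻¹} :=
    fun i => exists_mul_inv_pow_mem hj (hPc i)
  choose m₀ hm₀ using hex
  refine ⟨(Finset.range (P.natDegree + 1)).sup m₀, fun e he => ?_⟩
  refine isIntegral_of_monic_coeff_mem _ _ (P.scaleRoots (j⁻¹ ^ e))
    ((Polynomial.monic_scaleRoots_iff _).mpr hPm) (fun i => ?_) ?_
  · rw [Polynomial.coeff_scaleRoots]
    by_cases hi : i < P.natDegree
    · rw [← pow_mul]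
      apply hm₀
      have h1 : m₀ i ≤ (Finset.range (P.natDegree + 1)).sup m₀ :=
        Finset.le_sup (f := m₀) (Finset.mem_range.mpr (by omega))
      have h2 : e ≤ e * (P.natDegree - i) := Nat.le_mul_of_pos_right _ (by omega)
      omega
    · rcases Nat.lt_or_ge P.natDegree i with h | h
      · rw [Polynomial.coeff_eq_zero_of_natDegree_lt h, zero_mul]
        exact zero_mem _
      · have hi' : i = P.natDegree := by omega
        subst hi'
        rw [Nat.sub_self, pow_zero, mul_one, Polynomial.coeff_natDegree, hPm.leadingCoeff]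
        exact one_mem _
  · have := Polynomial.scaleRoots_eval_mul P f (j⁻¹ ^ e)
    rw [this, hPx, mul_zero]

end Generic

section Module

variable (R : Type*) {F : Type*} [CommRing R] [Field F] [Algebra R F] (j h : F) (n : ℕ)
  (hn : 0 < n)

/-- `M₀ = {s | h sⁿ integral over R[j]}`, an `R[j]`-submodule of `F`. -/
def MInt : Submodule ↥(Algebra.adjoin R {j}) F where
  carrier := {s | IsIntegral ↥(Algebra.adjoin R {j}) (h * s ^ n)}
  zero_mem' := by
    show IsIntegral ↥(Algebra.adjoin R {j}) (h * 0 ^ n)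
    rw [zero_pow hn.ne', mul_zero]
    exact isIntegral_zero
  add_mem' := by
    intro s s' hs hs'
    show IsIntegral ↥(Algebra.adjoin R {j}) (h * (s + s') ^ n)
    rw [add_pow, Finset.mul_sum]
    refine IsIntegral.sum _ fun m hm => ?_
    have hmn : m ≤ n := Nat.lt_succ_iff.mp (Finset.mem_range.mp hm)
    have e : h * (s ^ m * s' ^ (n - m) * (n.choose m : F))
        = (h * s ^ m * s' ^ (n - m)) * (n.choose m : F) := by ring
    rw [e]
    refine IsIntegral.mul ?_ (isIntegral_natCast _)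
    refine IsIntegral.of_pow hn ?_
    have e2 : (h * s ^ m * s' ^ (n - m)) ^ n = (h * s ^ n) ^ m * (h * s' ^ n) ^ (n - m) := by
      have : h ^ n = h ^ m * h ^ (n - m) := by rw [← pow_add, Nat.add_sub_cancel' hmn]
      rw [mul_pow, mul_pow, mul_pow, mul_pow, this, ← pow_mul, ← pow_mul, ← pow_mul, ← pow_mul,
        mul_comm m n, mul_comm (n - m) n]
      ring
    rw [e2]
    exact (hs.pow m).mul (hs'.pow (n - m))
  smul_mem' := by
    intro a s hs
    show IsIntegral ↥(Algebra.adjoin R {j}) (h * (a • s) ^ n)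
    have e : h * (a • s) ^ n = (algebraMap ↥(Algebra.adjoin R {j}) F a) ^ n * (h * s ^ n) := by
      rw [Algebra.smul_def, mul_pow]
      ring
    rw [e]
    exact (isIntegral_algebraMap.pow n).mul hs

theorem mem_MInt {s : F} :
    s ∈ MInt R j h n hn ↔ IsIntegral ↥(Algebra.adjoin R {j}) (h * s ^ n) := Iff.rfl

/-- `M₀` is a module over the integral closure of `R[j]`. -/
theorem mul_mem_MInt {b s : F} (hb : IsIntegral ↥(Algebra.adjoin R {j}) b)
    (hs : s ∈ MInt R j h n hn) : b * s ∈ MInt R j h n hn := by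
  rw [mem_MInt] at hs ⊢
  have e : h * (b * s) ^ n = b ^ n * (h * s ^ n) := by
    rw [mul_pow]
    ring
  rw [e]
  exact (hb.pow n).mul hs

/-- `j M₀ ⊆ M₀`. -/
theorem gen_mul_mem_MInt {s : F} (hs : s ∈ MInt R j h n hn) : j * s ∈ MInt R j h n hn := by
  refine mul_mem_MInt R j h n hn ?_ hs
  exact isIntegral_algebraMap (R := ↥(Algebra.adjoin R {j})) (A := F)
    (x := ⟨j, Algebra.self_mem_adjoin_singleton R j⟩)

/-- Elements of `M₀` are not `0`-divisible in the wrong way: if `h sⁿ` is integral over `R[j]`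
then `s ∈ M₀` (restatement), and `s ∈ M₀` iff `sⁿ ∈ h⁻¹ B₀`. -/
theorem mem_MInt_of_pow {s : F} (hh : h ≠ 0) {b : F}
    (hb : IsIntegral ↥(Algebra.adjoin R {j}) b) (hs : s ^ n = h⁻¹ * b) :
    s ∈ MInt R j h n hn := by
  rw [mem_MInt, hs, ← mul_assoc, mul_inv_cancel₀ hh, one_mul]
  exact hb

/-- **Change of chart** for `M₀`: `M₀ ⊆ ⋃ jᵉ M_∞`. -/
theorem exists_pow_inv_mul_mem_MInt (hj : j ≠ 0) {s : F} (hs : s ∈ MInt R j h n hn) :
    ∃ e₀ : ℕ, ∀ e ≥ e₀, j⁻¹ ^ e * s ∈ MInt R j⁻¹ h n hn := by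
  obtain ⟨e₀, he₀⟩ := exists_pow_inv_mul_isIntegral hj hs
  refine ⟨e₀, fun e he => ?_⟩
  rw [mem_MInt]
  have e1 : h * (j⁻¹ ^ e * s) ^ n = j⁻¹ ^ (e * n) * (h * s ^ n) := by
    rw [mul_pow, ← pow_mul]
    ring
  rw [e1]
  apply he₀
  have : e ≤ e * n := Nat.le_mul_of_pos_right _ hn
  omega

/-- **Change of chart**, other direction: `M_∞ ⊆ ⋃ j⁻ᵉ M₀`. -/
theorem exists_pow_mul_mem_MInt (hj : j ≠ 0) {s : F} (hs : s ∈ MInt R j⁻¹ h n hn) :
    ∃ e₀ : ℕ, ∀ e ≥ e₀, j ^ e * s ∈ MInt R j h n hn := by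
  obtain ⟨e₀, he₀⟩ := exists_pow_inv_mul_mem_MInt R j⁻¹ h n hn (inv_ne_zero hj) hs
  refine ⟨e₀, fun e he => ?_⟩
  have := he₀ e he
  rw [inv_inv] at this
  exact this

end Module

section Finite

variable (R : Type*) {F : Type*} [CommRing R] [Field F] [Algebra R F] (j h : F) (n : ℕ)
  (hn : 0 < n)

/-- **Finiteness**: `M₀` is a finitely generated `R[j]`-module, when `R[j]` is noetherian and
integrally closed and `F` is a finite separable extension of `L = Frac R[j]`. -/
theorem MInt_fg [IsNoetherianRing ↥(Algebra.adjoin R {j})]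
    [IsIntegrallyClosed ↥(Algebra.adjoin R {j})]
    (L : Type*) [Field L] [Algebra ↥(Algebra.adjoin R {j}) L]
    [IsFractionRing ↥(Algebra.adjoin R {j}) L] [Algebra L F]
    [IsScalarTower ↥(Algebra.adjoin R {j}) L F] [FiniteDimensional L F]
    [Algebra.IsSeparable L F] (hh : h ≠ 0) :
    (MInt R j h n hn).FG := by
  have hfin : Module.Finite ↥(Algebra.adjoin R {j})
      ↥(integralClosure ↥(Algebra.adjoin R {j}) F) :=
    IsIntegralClosure.finite ↥(Algebra.adjoin R {j}) L F _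
  have hnoeth : IsNoetherian ↥(Algebra.adjoin R {j})
      ↥(integralClosure ↥(Algebra.adjoin R {j}) F) :=
    isNoetherian_of_isNoetherianRing_of_finite _ _
  -- a denominator
  obtain ⟨a, ha0, ha⟩ := exists_integral_multiples ↥(Algebra.adjoin R {j}) L
    ({h⁻¹} : Finset F)
  have hah : IsIntegral ↥(Algebra.adjoin R {j}) (a • h⁻¹) := ha _ (Finset.mem_singleton_self _)
  have haF : algebraMap ↥(Algebra.adjoin R {j}) F a ≠ 0 := by
    intro h0
    apply ha0
    have hinj : Function.Injective (algebraMap ↥(Algebra.adjoin R {j}) F) :=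
      Subtype.val_injective
    exact hinj (by rw [h0, map_zero])
  have hint : ∀ s ∈ MInt R j h n hn,
      IsIntegral ↥(Algebra.adjoin R {j}) (algebraMap ↥(Algebra.adjoin R {j}) F a * s) := by
    intro s hs
    refine IsIntegral.of_pow hn ?_
    have e : (algebraMap ↥(Algebra.adjoin R {j}) F a * s) ^ n
        = (algebraMap ↥(Algebra.adjoin R {j}) F a) ^ (n - 1) * (a • h⁻¹) * (h * s ^ n) := by
      rw [Algebra.smul_def, mul_pow]
      have : (algebraMap ↥(Algebra.adjoin R {j}) F a) ^ n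
          = (algebraMap ↥(Algebra.adjoin R {j}) F a) ^ (n - 1)
            * algebraMap ↥(Algebra.adjoin R {j}) F a := by
        rw [← pow_succ, Nat.sub_add_cancel hn]
      rw [this]
      field_simp
    rw [e]
    exact ((isIntegral_algebraMap.pow _).mul hah).mul hs
  let φ : ↥(MInt R j h n hn) →ₗ[↥(Algebra.adjoin R {j})]
      ↥(integralClosure ↥(Algebra.adjoin R {j}) F) :=
    { toFun := fun s => ⟨algebraMap ↥(Algebra.adjoin R {j}) F a * (s : F), hint _ s.2⟩
      map_add' := fun s s' => by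
        apply Subtype.ext
        show algebraMap ↥(Algebra.adjoin R {j}) F a * ((s : F) + (s' : F)) = _
        rw [mul_add]
        rfl
      map_smul' := fun c s => by
        apply Subtype.ext
        show algebraMap ↥(Algebra.adjoin R {j}) F a * (c • (s : F)) = c • (_ : F)
        rw [Algebra.smul_def, Algebra.smul_def]
        ring }
  have hφ : Function.Injective φ := by
    intro s s' hss
    have h1 : algebraMap ↥(Algebra.adjoin R {j}) F a * (s : F)
        = algebraMap ↥(Algebra.adjoin R {j}) F a * (s' : F) := congrArg Subtype.val hss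
    exact Subtype.ext (mul_left_cancel₀ haF h1)
  have hN : IsNoetherian ↥(Algebra.adjoin R {j}) ↥(MInt R j h n hn) :=
    isNoetherian_of_injective φ hφ
  exact (Submodule.fg_top _).mp (hN.noetherian ⊤)

/-- `R[j]` is noetherian when `R` is and `j` is transcendental. -/
theorem isNoetherianRing_adjoin [IsNoetherianRing R] (hj : Transcendental R j) :
    IsNoetherianRing ↥(Algebra.adjoin R {j}) :=
  isNoetherianRing_of_ringEquiv R[X] (Polynomial.algEquivOfTranscendental R j hj).toRingEquiv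

/-- `R[j]` is integrally closed when `R` is and `j` is transcendental. -/
theorem isIntegrallyClosed_adjoin [IsDomain R] [IsIntegrallyClosed R]
    (hj : Transcendental R j) : IsIntegrallyClosed ↥(Algebra.adjoin R {j}) :=
  IsIntegrallyClosed.of_equiv (Polynomial.algEquivOfTranscendental R j hj).toRingEquiv

end Finite

section Bridge

open IntermediateField

variable (R K : Type*) {F : Type*} [CommRing R] [IsDomain R] [Field K] [Field F] [Algebra R K]
  [IsFractionRing R K] [Algebra K F] [Algebra R F] [IsScalarTower R K F] (j : F)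

omit [IsDomain R] [IsFractionRing R K] in
theorem adjoin_le_adjoinField {x : F} (hx : x ∈ Algebra.adjoin R {j}) : x ∈ K⟮j⟯ := by
  induction hx using Algebra.adjoin_induction with
  | mem y hy =>
    rw [Set.mem_singleton_iff] at hy
    subst hy
    exact mem_adjoin_simple_self K _
  | algebraMap r =>
    rw [IsScalarTower.algebraMap_apply R K F]
    exact K⟮j⟯.algebraMap_mem _
  | add _ _ _ _ h1 h2 => exact add_mem h1 h2
  | mul _ _ _ _ h1 h2 => exact mul_mem h1 h2

/-- The inclusion of `R[j]` into `K(j)`. -/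
def toAdjoinField : ↥(Algebra.adjoin R {j}) →+* ↥K⟮j⟯ :=
  (algebraMap ↥(Algebra.adjoin R {j}) F).codRestrict K⟮j⟯
    (fun x => adjoin_le_adjoinField R K j x.2)

theorem coe_toAdjoinField (x : ↥(Algebra.adjoin R {j})) :
    ((toAdjoinField R K j x : ↥K⟮j⟯) : F) = (x : F) := rfl

theorem toAdjoinField_injective : Function.Injective (toAdjoinField R K j) := by
  intro x y hxy
  apply Subtype.ext
  have := congrArg (Subtype.val : ↥K⟮j⟯ → F) hxy
  exact this

/-- `K(j)` is the fraction field of `R[j]`. -/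
theorem isFractionRing_adjoin :
    letI : Algebra ↥(Algebra.adjoin R {j}) ↥K⟮j⟯ := (toAdjoinField R K j).toAlgebra
    IsFractionRing ↥(Algebra.adjoin R {j}) ↥K⟮j⟯ := by
  letI : Algebra ↥(Algebra.adjoin R {j}) ↥K⟮j⟯ := (toAdjoinField R K j).toAlgebra
  haveI : FaithfulSMul ↥(Algebra.adjoin R {j}) ↥K⟮j⟯ :=
    (faithfulSMul_iff_algebraMap_injective _ _).mpr (toAdjoinField_injective R K j)
  refine IsFractionRing.of_field _ _ ?_
  rintro ⟨z, hz⟩
  obtain ⟨r, s, hrs⟩ := (mem_adjoin_simple_iff K z).mp hz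
  obtain ⟨b, hb, hbr⟩ := IsLocalization.integerNormalization_spec (nonZeroDivisors R) r
  obtain ⟨c, hc, hcs⟩ := IsLocalization.integerNormalization_spec (nonZeroDivisors R) s
  have hb0 : algebraMap R F b ≠ 0 := by
    rw [IsScalarTower.algebraMap_apply R K F]
    exact (_root_.map_ne_zero _).mpr
      ((map_ne_zero_iff _ (IsFractionRing.injective R K)).mpr (nonZeroDivisors.ne_zero hb))
  have hc0 : algebraMap R F c ≠ 0 := by
    rw [IsScalarTower.algebraMap_apply R K F]
    exact (_root_.map_ne_zero _).mpr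
      ((map_ne_zero_iff _ (IsFractionRing.injective R K)).mpr (nonZeroDivisors.ne_zero hc))
  have er : aeval j (IsLocalization.integerNormalization (nonZeroDivisors R) r)
      = algebraMap R F b * aeval j r := by
    rw [← Polynomial.aeval_map_algebraMap K, hbr, ← algebraMap_smul K b r, map_smul,
      Algebra.smul_def, ← IsScalarTower.algebraMap_apply]
  have es : aeval j (IsLocalization.integerNormalization (nonZeroDivisors R) s)
      = algebraMap R F c * aeval j s := by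
    rw [← Polynomial.aeval_map_algebraMap K, hcs, ← algebraMap_smul K c s, map_smul,
      Algebra.smul_def, ← IsScalarTower.algebraMap_apply]
  have hmem : ∀ (a : R) (Q : R[X]), algebraMap R F a * aeval j Q ∈ Algebra.adjoin R {j} := by
    intro a Q
    refine mul_mem (Subalgebra.algebraMap_mem _ a) ?_
    rw [Algebra.adjoin_singleton_eq_range_aeval]
    exact ⟨Q, rfl⟩
  refine ⟨⟨_, hmem c (IsLocalization.integerNormalization (nonZeroDivisors R) r)⟩,
    ⟨_, hmem b (IsLocalization.integerNormalization (nonZeroDivisors R) s)⟩, ?_⟩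
  apply Subtype.ext
  show z = (algebraMap R F c * aeval j _) / (algebraMap R F b * aeval j _)
  rw [er, es, hrs]
  by_cases hs0 : aeval j s = 0
  · rw [hs0, mul_zero, mul_zero, div_zero, div_zero]
  · field_simp

/-- **Finiteness** in terms of `K = Frac R`: `M₀` is a finitely generated `R[j]`-module. -/
theorem MInt_fg_of_finite [IsNoetherianRing R] [IsIntegrallyClosed R]
    (hj : Transcendental K j) [FiniteDimensional K⟮j⟯ F] [Algebra.IsSeparable K⟮j⟯ F]
    (h : F) (n : ℕ) (hn : 0 < n) (hh : h ≠ 0) : (MInt R j h n hn).FG := by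
  have hjR : Transcendental R j :=
    Transcendental.restrictScalars (IsFractionRing.injective R K) hj
  haveI := isNoetherianRing_adjoin R j hjR
  haveI := isIntegrallyClosed_adjoin R j hjR
  letI : Algebra ↥(Algebra.adjoin R {j}) ↥K⟮j⟯ := (toAdjoinField R K j).toAlgebra
  haveI := isFractionRing_adjoin R K j
  haveI : IsScalarTower ↥(Algebra.adjoin R {j}) ↥K⟮j⟯ F :=
    IsScalarTower.of_algebraMap_eq fun _ => rfl
  exact MInt_fg R j h n hn ↥K⟮j⟯ hh

/-- `K(j⁻¹) = K(j)`. -/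
theorem adjoin_inv_eq : K⟮j⁻¹⟯ = K⟮j⟯ := by
  apply le_antisymm
  · rw [adjoin_simple_le_iff]
    exact inv_mem (mem_adjoin_simple_self K j)
  · rw [adjoin_simple_le_iff]
    have := inv_mem (mem_adjoin_simple_self K j⁻¹)
    rwa [inv_inv] at this

/-- **Finiteness** for the chart at infinity. -/
theorem MInt_inv_fg_of_finite [IsNoetherianRing R] [IsIntegrallyClosed R]
    (hj : Transcendental K j) [hfd : FiniteDimensional K⟮j⟯ F]
    [hsep : Algebra.IsSeparable K⟮j⟯ F]
    (h : F) (n : ℕ) (hn : 0 < n) (hh : h ≠ 0) : (MInt R j⁻¹ h n hn).FG := by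
  have hj' : Transcendental K j⁻¹ := fun halg => hj (IsAlgebraic.inv_iff.mp halg)
  haveI : FiniteDimensional K⟮j⁻¹⟯ F := by
    rw [adjoin_inv_eq]; exact hfd
  haveI : Algebra.IsSeparable K⟮j⁻¹⟯ F := by
    rw [adjoin_inv_eq]; exact hsep
  exact MInt_fg_of_finite R K j⁻¹ hj' h n hn hh

end Bridge

end Fermat.Agent.S36.NU.H17

end
end
-- ==== END Fermat.Agent.S36.NU.H17_TIFin

-- ==== BEGIN Fermat.Agent.S36.NU.H23_Fix
section

/-!
# S36 / NU-B, leaf TOT3-MOD, step 2a (helper23): descent to fixed fields (abstract)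

`E ⊆ L` a finite extension of fields, a family of pairs of ring homomorphisms
`(sE g, sL g)` (modular: the action of the inertia group on the coefficients of
`q`-expansions), `E₀ ⊆ E`, `L₀ ⊆ L` the fixed fields.

* `linearIndependent_of_fixed` (Artin): a family of `L₀` which is linearly independent over `E₀`
  is linearly independent over `E`;
* `finite_of_fixed` : `L₀ / E₀` is finite;
* if `L` is generated over `E` by `L₀`: `finrank_of_fixed : [L₀ : E₀] = [L : E]` and
  `norm_of_fixed : N_{L/E} g = N_{L₀/E₀} g` for `g ∈ L₀`.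
-/

set_option autoImplicit false
set_option linter.style.haveILetI false

noncomputable section

namespace Fermat.Agent.S36.NU.H23

open Module

section Descent

variable {E L E₀ L₀ : Type*} [Field E] [Field L] [Field E₀] [Field L₀]
  [Algebra E L] [Algebra E₀ L₀] [Algebra E₀ E] [Algebra L₀ L] [Algebra E₀ L]
  [IsScalarTower E₀ L₀ L] [IsScalarTower E₀ E L]
  {G : Type*} (sE : G → E →+* E) (sL : G → L →+* L)
  (hs : ∀ g x, sL g (algebraMap E L x) = algebraMap E L (sE g x))
  (hL₀ : ∀ g (x : L₀), sL g (algebraMap L₀ L x) = algebraMap L₀ L x)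
  (hE₀ : ∀ x : E, (∀ g, sE g x = x) → ∃ y : E₀, algebraMap E₀ E y = x)

include hs hL₀ hE₀ in
/-- **Artin's lemma**: a family of fixed elements which is linearly independent over the fixed
field of `E` is linearly independent over `E`. -/
theorem linearIndependent_of_fixed {ι : Type*} (b : ι → L₀) (hb : LinearIndependent E₀ b) :
    LinearIndependent E (fun i => algebraMap L₀ L (b i)) := by
  classical
  rw [linearIndependent_iff']
  intro s
  induction s using Finset.induction_on with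
  | empty => intro c _ i hi; simp at hi
  | insert a s ha ih =>
    intro c hc
    by_cases hca : c a = 0
    · have h1 : ∑ i ∈ s, c i • algebraMap L₀ L (b i) = 0 := by
        rw [Finset.sum_insert ha, hca, zero_smul, zero_add] at hc
        exact hc
      intro i hi
      rcases Finset.mem_insert.mp hi with rfl | hi'
      · exact hca
      · exact ih c h1 i hi'
    · exfalso
      -- normalise
      set d : ι → E := fun i => c i / c a with hd
      have hda : d a = 1 := div_self hca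
      have hrel : ∑ i ∈ insert a s, d i • algebraMap L₀ L (b i) = 0 := by
        have : ∑ i ∈ insert a s, d i • algebraMap L₀ L (b i)
            = (c a)⁻¹ • ∑ i ∈ insert a s, c i • algebraMap L₀ L (b i) := by
          rw [Finset.smul_sum]
          refine Finset.sum_congr rfl fun i _ => ?_
          rw [smul_smul]
          congr 1
          show c i / c a = _
          rw [div_eq_mul_inv, mul_comm]
        rw [this, hc, smul_zero]
      -- the coefficients are fixed
      have hfix : ∀ g, ∀ i ∈ s, sE g (d i) - d i = 0 := by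
        intro g
        apply ih
        have h1 : ∑ i ∈ insert a s, sE g (d i) • algebraMap L₀ L (b i) = 0 := by
          have := congrArg (sL g) hrel
          rw [map_sum, map_zero] at this
          rw [← this]
          refine Finset.sum_congr rfl fun i _ => ?_
          rw [Algebra.smul_def, Algebra.smul_def, map_mul, hs, hL₀]
        have h2 : ∑ i ∈ insert a s, (sE g (d i) - d i) • algebraMap L₀ L (b i) = 0 := by
          simp only [sub_smul, Finset.sum_sub_distrib]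
          rw [h1, hrel, sub_zero]
        rw [Finset.sum_insert ha, hda, map_one, sub_self, zero_smul, zero_add] at h2
        exact h2
      have hfix' : ∀ i ∈ insert a s, ∃ y : E₀, algebraMap E₀ E y = d i := by
        intro i hi
        apply hE₀
        intro g
        rcases Finset.mem_insert.mp hi with rfl | hi'
        · rw [hda, map_one]
        · exact sub_eq_zero.mp (hfix g i hi')
      choose! y hy using hfix'
      have hrel₀ : ∑ i ∈ insert a s, y i • b i = 0 := by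
        apply (algebraMap L₀ L).injective
        rw [map_sum, map_zero, ← hrel]
        refine Finset.sum_congr rfl fun i hi => ?_
        rw [Algebra.smul_def, map_mul, ← IsScalarTower.algebraMap_apply E₀ L₀ L,
          IsScalarTower.algebraMap_apply E₀ E L, hy i hi, Algebra.smul_def]
      have h0 := linearIndependent_iff'.mp hb (insert a s) y hrel₀ a (Finset.mem_insert_self a s)
      have h1 := hy a (Finset.mem_insert_self a s)
      rw [h0, map_zero, hda] at h1
      exact zero_ne_one h1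

include hs hL₀ hE₀ in
/-- The fixed field of `L` is finite over the fixed field of `E`. -/
theorem finite_of_fixed [Module.Finite E L] : Module.Finite E₀ L₀ := by
  classical
  let b := Basis.ofVectorSpace E₀ L₀
  have hli := linearIndependent_of_fixed sE sL hs hL₀ hE₀ b b.linearIndependent
  haveI : Finite (Basis.ofVectorSpaceIndex E₀ L₀) := hli.finite
  exact Module.Finite.of_basis b

variable (hgen : ∀ S : Subalgebra E L, IsField S → (∀ x : L₀, algebraMap L₀ L x ∈ S) → S = ⊤)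

include hgen in
/-- If `L` is generated over `E` by the fixed elements, they span `L` over `E`. -/
theorem span_range_of_fixed [Module.Finite E L] :
    Submodule.span E (Set.range (algebraMap L₀ L)) = ⊤ := by
  have hfield : IsField (Algebra.adjoin E (Set.range (algebraMap L₀ L))) :=
    Subalgebra.isField_of_algebraic _
  have htop := hgen _ hfield (fun x => Algebra.subset_adjoin ⟨x, rfl⟩)
  have h1 : Submonoid.closure (Set.range (algebraMap L₀ L))
      = (algebraMap L₀ L).range.toSubmonoid := by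
    apply le_antisymm
    · rw [Submonoid.closure_le]
      rintro _ ⟨x, rfl⟩
      exact ⟨x, rfl⟩
    · rintro _ ⟨x, rfl⟩
      exact Submonoid.subset_closure ⟨x, rfl⟩
  have h2 := Algebra.adjoin_eq_span E (Set.range (algebraMap L₀ L))
  rw [htop, h1] at h2
  rw [show (Set.range (algebraMap L₀ L)) = ((algebraMap L₀ L).range.toSubmonoid : Set L) from rfl,
    ← h2]
  rfl

include hgen in
/-- A basis of `L₀ / E₀` is a basis of `L / E`. -/
theorem span_basis_of_fixed [Module.Finite E L] {ι : Type*} (b : Basis ι E₀ L₀) :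
    Submodule.span E (Set.range fun i => algebraMap L₀ L (b i)) = ⊤ := by
  rw [eq_top_iff, ← span_range_of_fixed hgen, Submodule.span_le]
  rintro _ ⟨x, rfl⟩
  have hx : x ∈ Submodule.span E₀ (Set.range b) := by rw [b.span_eq]; trivial
  induction hx using Submodule.span_induction with
  | mem y hy =>
    obtain ⟨i, rfl⟩ := hy
    exact Submodule.subset_span ⟨i, rfl⟩
  | zero => rw [map_zero]; exact Submodule.zero_mem _
  | add y z _ _ hy hz => rw [map_add]; exact Submodule.add_mem _ hy hz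
  | smul c y _ hy =>
    rw [Algebra.smul_def, map_mul, ← IsScalarTower.algebraMap_apply E₀ L₀ L,
      IsScalarTower.algebraMap_apply E₀ E L, ← Algebra.smul_def]
    exact Submodule.smul_mem _ _ hy

/-- The basis of `L / E` given by a basis of `L₀ / E₀`. -/
def basisOfFixed [Module.Finite E L] {ι : Type*} (b : Basis ι E₀ L₀)
    (hs : ∀ g x, sL g (algebraMap E L x) = algebraMap E L (sE g x))
    (hL₀ : ∀ g (x : L₀), sL g (algebraMap L₀ L x) = algebraMap L₀ L x)
    (hE₀ : ∀ x : E, (∀ g, sE g x = x) → ∃ y : E₀, algebraMap E₀ E y = x)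
    (hgen : ∀ S : Subalgebra E L, IsField S → (∀ x : L₀, algebraMap L₀ L x ∈ S) → S = ⊤) :
    Basis ι E L :=
  Basis.mk (linearIndependent_of_fixed sE sL hs hL₀ hE₀ b b.linearIndependent)
    (span_basis_of_fixed hgen b).ge

theorem basisOfFixed_apply [Module.Finite E L] {ι : Type*} (b : Basis ι E₀ L₀) (i : ι) :
    basisOfFixed sE sL b hs hL₀ hE₀ hgen i = algebraMap L₀ L (b i) := by
  unfold basisOfFixed
  rw [Basis.mk_apply]

include hs hL₀ hE₀ hgen in
/-- `[L₀ : E₀] = [L : E]`. -/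
theorem finrank_of_fixed [Module.Finite E L] : finrank E₀ L₀ = finrank E L := by
  haveI := finite_of_fixed sE sL hs hL₀ hE₀
  let b := Module.finBasis E₀ L₀
  rw [finrank_eq_card_basis b, finrank_eq_card_basis (basisOfFixed sE sL b hs hL₀ hE₀ hgen)]

include hs hL₀ hE₀ hgen in
/-- The norm of `L / E` of a fixed element is its norm for `L₀ / E₀`. -/
theorem norm_of_fixed [Module.Finite E L] (g : L₀) :
    Algebra.norm E (algebraMap L₀ L g) = algebraMap E₀ E (Algebra.norm E₀ g) := by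
  classical
  haveI := finite_of_fixed sE sL hs hL₀ hE₀
  let b := Module.finBasis E₀ L₀
  let bE := basisOfFixed sE sL b hs hL₀ hE₀ hgen
  rw [Algebra.norm_eq_matrix_det bE, Algebra.norm_eq_matrix_det b, RingHom.map_det]
  congr 1
  ext i j
  rw [RingHom.mapMatrix_apply, Matrix.map_apply, Algebra.leftMulMatrix_eq_repr_mul,
    Algebra.leftMulMatrix_eq_repr_mul]
  -- coordinates
  have h1 : algebraMap L₀ L g * bE j = ∑ l, algebraMap E₀ E (b.repr (g * b j) l) • bE l := by
    have h2 : g * b j = ∑ l, b.repr (g * b j) l • b l := (b.sum_repr (g * b j)).symm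
    have h3 : bE j = algebraMap L₀ L (b j) := basisOfFixed_apply sE sL hs hL₀ hE₀ hgen b j
    rw [h3, ← map_mul, h2, map_sum]
    refine Finset.sum_congr rfl fun l _ => ?_
    rw [Algebra.smul_def, map_mul, ← IsScalarTower.algebraMap_apply E₀ L₀ L,
      IsScalarTower.algebraMap_apply E₀ E L, ← Algebra.smul_def,
      basisOfFixed_apply sE sL hs hL₀ hE₀ hgen b l, ← h2]
  rw [h1, bE.repr_sum_self]

end Descent

end Fermat.Agent.S36.NU.H23

end
end
-- ==== END Fermat.Agent.S36.NU.H23_Fix
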