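-- GENERATED (merged mirror, NOTES/tools/trim/merge3_helper67.py): 3 modules of the originals, bodies verbatim.
import Mathlib
import Mathlib.RingTheory.PowerSeries.Expand
import Fermat.Agent.Zm.S35_L04_002
import Fermat.Agent.BAD.H21_RamSeries
import Fermat.Agent.Zm.S35_L02_000

-- ==== BEGIN Fermat.Agent.S36.NU.H65_TIAlg
section

/-!
# S36 / NU-B, leaf TI3-ALG (helper65): the abstract trivialisation theorem

Pure commutative algebra, no Riemann-Roch, no genus, no count.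

Setting: `R` noetherian, `q : R`, `F` a field over `R`, `j : F` nonzero, `h : F`, `n` invertible in `R`.
`B0`, `Boo`, `B0oo` are the coordinate rings of the charts `j ≠ ∞`, `j ≠ 0` and of the overlap,
`M0 = {s : h sⁿ ∈ B0}` (`rootMod`), `Moo` likewise.

* `ar_core` : Artin-Rees for an injective map into a finite module.
* `ti3_alg` : (Cech + Artin-Rees) `Moo` finitely generated over `R[1/j]` by `μ`, `j ^ m μ ⊂ M0`,
  and for every `N` a pair `a ∈ M0`, `b ∈ Moo` with `a - b ∈ q ^ N M0oo`, `a ∉ q M0`.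
  Then `M0 ∩ Moo ≠ 0`.  No saturation hypothesis is needed.
* `rootMod`, `mem_rootMod`, `mixed_mem`, `mul_mem_rootMod` : `{s : h sⁿ ∈ B}` is a module over `B` when `B`
  is closed under `n`-th roots.
* `newton_step`, `newton_iter`, `newton_qadic` : Newton iteration for `n`-th roots.
* `IsRadQ S q x` : `x` is nilpotent modulo `q S`; `isRadQ_iff` : link with `Ideal.radical`.
* `overlap` : `h aⁿ ≡ 1 ≡ h bⁿ mod q ^ N`, `h a bⁿ⁻¹ ≡ 1 mod rad (q)`  ⟹  `a - b ∈ q ^ N M0oo`.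
* `ti3_of_pair` : the combined theorem: ONE pair `(a, b)` with `h aⁿ ≡ 1 mod rad (q B0)`,
  `h bⁿ ≡ 1 mod rad (q Boo)`, `h a bⁿ⁻¹ ≡ 1 mod rad (q B0oo)` gives `s ≠ 0` with `h sⁿ ∈ B0 ∩ Boo`.
-/

set_option autoImplicit false

namespace Fermat.Agent.S36.NU.H65

open scoped Pointwise

/-- Artin–Rees core: an injective linear map into a finite module over a noetherian ring
reflects divisibility by `q` up to a bounded loss. -/
theorem ar_core {R P W : Type*} [CommRing R] [IsNoetherianRing R]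
    [AddCommGroup P] [Module R P] [Module.Finite R P]
    [AddCommGroup W] [Module R W] (q : R) (d : W →ₗ[R] P) (hd : Function.Injective d) :
    ∃ N0 : ℕ, ∀ N : ℕ, N0 ≤ N → ∀ w : W, (∃ p : P, d w = q ^ N • p) → ∃ w' : W, w = q • w' := by
  obtain ⟨k, hk⟩ := Ideal.exists_pow_inf_eq_pow_smul (Ideal.span {q}) (LinearMap.range d)
  refine ⟨k + 1, fun N hN w ⟨p, hp⟩ => ?_⟩
  obtain ⟨c, rfl⟩ := Nat.exists_eq_add_of_le hN
  have h1 : d w ∈ (Ideal.span {q}) ^ (k + 1) • (⊤ : Submodule R P) ⊓ LinearMap.range d := by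
    refine ⟨?_, LinearMap.mem_range_self d w⟩
    have hpp : q ^ (k + 1 + c) • p = q ^ (k + 1) • (q ^ c • p) := by rw [pow_add, mul_smul]
    rw [hp, hpp]
    exact Submodule.smul_mem_smul (Ideal.pow_mem_pow (Ideal.mem_span_singleton_self q) (k + 1))
      Submodule.mem_top
  rw [hk (k + 1) (by omega)] at h1
  have h2 : d w ∈ (Ideal.span {q}) • LinearMap.range d := by
    have : k + 1 - k = 1 := by omega
    rw [this, pow_one] at h1
    exact Submodule.smul_mono le_rfl inf_le_right h1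
  rw [Submodule.ideal_span_singleton_smul] at h2
  obtain ⟨y, hy, hyw⟩ := (Submodule.mem_smul_pointwise_iff_exists _ _ _).1 h2
  obtain ⟨w', rfl⟩ := hy
  refine ⟨w', hd ?_⟩
  rw [map_smul]
  exact hyw.symm

section TIAlg

variable {R F : Type*} [CommRing R] [IsNoetherianRing R] [Field F] [Algebra R F]

/-- **TI3-ALG** (abstract trivialisation, Čech + Artin–Rees form).
`M0`, `Moo` are the sections of a rank one module over the two charts `j ≠ ∞`, `j ≠ 0`;
`Moo` is finitely generated over `R[1/j]` by `μ`, and `j ^ m • μ ⊂ M0`.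
If for every `N` there are `a ∈ M0`, `b ∈ Moo`, congruent modulo `q ^ N` on the overlap, with `a ∉ q M0`,
then `M0 ∩ Moo ≠ 0`. -/
theorem ti3_alg (q : R) (j : F) (hj : j ≠ 0) (M0 Moo : Submodule R F)
    (hM0 : ∀ x ∈ M0, j * x ∈ M0) (hMoo : ∀ x ∈ Moo, j⁻¹ * x ∈ Moo)
    (μ : Finset F) (hμ : ∀ u ∈ μ, u ∈ Moo)
    (hgen : ∀ x ∈ Moo, x ∈ Submodule.span R {y : F | ∃ e : ℕ, ∃ u ∈ μ, y = j⁻¹ ^ e * u})
    (m : ℕ) (hm : ∀ u ∈ μ, j ^ m * u ∈ M0)
    (hseq : ∀ N : ℕ, ∃ a ∈ M0, ∃ b ∈ Moo, ∃ x : F, (∃ k : ℕ, j⁻¹ ^ k * x ∈ Moo) ∧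
        a - b = q ^ N • x ∧ ¬ ∃ a' ∈ M0, a = q • a') :
    ∃ s : F, s ≠ 0 ∧ s ∈ M0 ∧ s ∈ Moo := by
  classical
  by_contra hcon
  have hzero : ∀ s : F, s ∈ M0 → s ∈ Moo → s = 0 := by
    intro s h0 h1
    by_contra hs
    exact hcon ⟨s, hs, h0, h1⟩
  have hMoo_pow : ∀ (e : ℕ) (x : F), x ∈ Moo → j⁻¹ ^ e * x ∈ Moo := by
    intro e
    induction e with
    | zero => intro x hx; simpa using hx
    | succ e ih => intro x hx; rw [pow_succ, mul_assoc]; exact ih _ (hMoo _ hx)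
  have hM0_pow : ∀ (e : ℕ) (x : F), x ∈ M0 → j ^ e * x ∈ M0 := by
    intro e
    induction e with
    | zero => intro x hx; simpa using hx
    | succ e ih => intro x hx; rw [pow_succ, mul_assoc]; exact ih _ (hM0 _ hx)
  set jmMoo : Submodule R F := Moo.map (LinearMap.mulLeft R (j ^ m)) with hjmMoo
  have hmem_jm : ∀ y : F, y ∈ jmMoo ↔ ∃ x ∈ Moo, j ^ m * x = y := by
    intro y
    rw [hjmMoo, Submodule.mem_map]
    rfl
  have hMoo_le : Moo ≤ jmMoo := by
    intro x hx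
    rw [hmem_jm]
    refine ⟨j⁻¹ ^ m * x, hMoo_pow m x hx, ?_⟩
    rw [← mul_assoc, ← mul_pow, mul_inv_cancel₀ hj, one_pow, one_mul]
  -- (V) integral vanishing
  have hV : ∀ x : F, (∃ k : ℕ, j⁻¹ ^ k * x ∈ Moo) →
      ∃ c0 ∈ M0, ∃ c1 ∈ Moo, x = c0 + j ^ m * c1 := by
    rintro x ⟨k, hk⟩
    have key : Submodule.span R {y : F | ∃ e : ℕ, ∃ u ∈ μ, y = j⁻¹ ^ e * u} ≤
        (M0 ⊔ jmMoo).comap (LinearMap.mulLeft R (j ^ k)) := by
      rw [Submodule.span_le]
      rintro y ⟨e, u, hu, rfl⟩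
      show j ^ k * (j⁻¹ ^ e * u) ∈ M0 ⊔ jmMoo
      rcases le_or_gt (e + m) k with h | h
      · refine Submodule.mem_sup_left ?_
        obtain ⟨d, rfl⟩ := Nat.exists_eq_add_of_le h
        have : j ^ (e + m + d) * (j⁻¹ ^ e * u) = j ^ d * (j ^ m * u) := by
          rw [pow_add, pow_add, inv_pow]
          field_simp
        rw [this]
        exact hM0_pow _ _ (hm u hu)
      · refine Submodule.mem_sup_right ?_
        rw [hmem_jm]
        refine ⟨j⁻¹ ^ (e + m - k) * u, hMoo_pow _ _ (hμ u hu), ?_⟩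
        obtain ⟨d, hd⟩ := Nat.exists_eq_add_of_lt h
        have h1 : e + m - k = d + 1 := by omega
        have h2 : e + m = k + (d + 1) := by omega
        rw [h1]
        have h3 : j ^ e * j ^ m = j ^ k * j ^ (d + 1) := by rw [← pow_add, ← pow_add, h2]
        simp only [inv_pow]
        field_simp
        linear_combination u * h3
    have h5 := key (hgen _ hk)
    have h6 : j ^ k * (j⁻¹ ^ k * x) = x := by
      rw [← mul_assoc, ← mul_pow, mul_inv_cancel₀ hj, one_pow, one_mul]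
    have h7 : x ∈ M0 ⊔ jmMoo := by
      have : j ^ k * (j⁻¹ ^ k * x) ∈ M0 ⊔ jmMoo := h5
      rwa [h6] at this
    obtain ⟨c0, hc0, y, hy, rfl⟩ := Submodule.mem_sup.1 h7
    obtain ⟨c1, hc1, rfl⟩ := (hmem_jm y).1 hy
    exact ⟨c0, hc0, c1, hc1, rfl⟩
  -- the finite module `P = j^m Moo / Moo`
  set P : Submodule R (F ⧸ Moo) := jmMoo.map Moo.mkQ with hP
  set G : Finset F := ((Finset.range (m + 1)) ×ˢ μ).image (fun eu => j ^ eu.1 * eu.2) with hG
  have hG_mem : ∀ (e : ℕ) (u : F), e ≤ m → u ∈ μ → j ^ e * u ∈ (G : Set F) := by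
    intro e u he hu
    rw [hG, Finset.coe_image]
    refine ⟨(e, u), ?_, rfl⟩
    simp only [Finset.coe_product, Finset.coe_range, Set.mem_prod, Set.mem_Iio, Finset.mem_coe]
    exact ⟨by omega, hu⟩
  have hjm_le : jmMoo ≤ Moo ⊔ Submodule.span R (G : Set F) := by
    intro y hy
    obtain ⟨x, hx, rfl⟩ := (hmem_jm y).1 hy
    have key : Submodule.span R {y : F | ∃ e : ℕ, ∃ u ∈ μ, y = j⁻¹ ^ e * u} ≤
        (Moo ⊔ Submodule.span R (G : Set F)).comap (LinearMap.mulLeft R (j ^ m)) := by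
      rw [Submodule.span_le]
      rintro y ⟨e, u, hu, rfl⟩
      show j ^ m * (j⁻¹ ^ e * u) ∈ Moo ⊔ Submodule.span R (G : Set F)
      rcases le_or_gt m e with h | h
      · refine Submodule.mem_sup_left ?_
        obtain ⟨d, rfl⟩ := Nat.exists_eq_add_of_le h
        have : j ^ m * (j⁻¹ ^ (m + d) * u) = j⁻¹ ^ d * u := by
          rw [pow_add, inv_pow, inv_pow]
          field_simp
        rw [this]
        exact hMoo_pow _ _ (hμ u hu)
      · refine Submodule.mem_sup_right (Submodule.subset_span ?_)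
        obtain ⟨d, hd⟩ := Nat.exists_eq_add_of_lt h
        have : j ^ m * (j⁻¹ ^ e * u) = j ^ (d + 1) * u := by
          have h2 : m = e + (d + 1) := by omega
          rw [h2, pow_add, inv_pow]
          field_simp
        rw [this]
        exact hG_mem _ _ (by omega) hu
    exact key (hgen _ hx)
  have hG_le : Submodule.span R (G : Set F) ≤ jmMoo := by
    rw [Submodule.span_le]
    intro y hy
    rw [hG, Finset.coe_image] at hy
    obtain ⟨⟨e, u⟩, heu, rfl⟩ := hy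
    simp only [Finset.coe_product, Finset.coe_range, Set.mem_prod, Set.mem_Iio,
      Finset.mem_coe] at heu
    show j ^ e * u ∈ jmMoo
    rw [hmem_jm]
    refine ⟨j⁻¹ ^ (m - e) * u, hMoo_pow _ _ (hμ u heu.2), ?_⟩
    have h2 : m = e + (m - e) := by omega
    rw [inv_pow]
    nth_rewrite 1 [h2]
    rw [pow_add]
    field_simp
  have hPeq : P = (Submodule.span R (G : Set F)).map Moo.mkQ := by
    apply le_antisymm
    · rw [hP]
      refine (Submodule.map_mono hjm_le).trans ?_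
      rw [Submodule.map_sup]
      refine sup_le ?_ le_rfl
      rintro y ⟨x, hx, rfl⟩
      have : Moo.mkQ x = 0 := by
        rw [Submodule.mkQ_apply, Submodule.Quotient.mk_eq_zero]
        exact hx
      rw [this]
      exact Submodule.zero_mem _
    · exact Submodule.map_mono hG_le
  have hPfg : P.FG := by
    rw [hPeq]
    exact (Submodule.fg_span (Finset.finite_toSet G)).map _
  have hPfin : Module.Finite R P := Module.Finite.iff_fg.2 hPfg
  -- the boundary map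
  set W : Submodule R F := M0 ⊓ jmMoo with hW
  let d : W →ₗ[R] P := (Moo.mkQ.comp W.subtype).codRestrict P
    (fun w => Submodule.mem_map_of_mem w.2.2)
  have hd : Function.Injective d := by
    rw [← LinearMap.ker_eq_bot, LinearMap.ker_eq_bot']
    intro w hw
    have h1 : Moo.mkQ (w : F) = 0 := congrArg Subtype.val hw
    rw [Submodule.mkQ_apply, Submodule.Quotient.mk_eq_zero] at h1
    exact Subtype.ext (hzero _ w.2.1 h1)
  obtain ⟨N0, hN0⟩ := ar_core q d hd
  obtain ⟨a, ha, b, hb, x, hx, hab, hna⟩ := hseq (N0 + 1)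
  obtain ⟨c0, hc0, c1, hc1, rfl⟩ := hV x hx
  have hw0 : a - q ^ (N0 + 1) • c0 ∈ M0 := M0.sub_mem ha (M0.smul_mem _ hc0)
  have hweq : a - q ^ (N0 + 1) • c0 = b + q ^ (N0 + 1) • (j ^ m * c1) := by
    have : a = b + q ^ (N0 + 1) • (c0 + j ^ m * c1) := by rw [← hab]; ring
    rw [this, smul_add]; ring
  have hjc1 : j ^ m * c1 ∈ jmMoo := (hmem_jm _).2 ⟨c1, hc1, rfl⟩
  have hw1 : a - q ^ (N0 + 1) • c0 ∈ jmMoo := by
    rw [hweq]
    exact jmMoo.add_mem (hMoo_le hb) (jmMoo.smul_mem _ hjc1)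
  obtain ⟨w', hw'⟩ := hN0 (N0 + 1) (by omega) ⟨a - q ^ (N0 + 1) • c0, hw0, hw1⟩
    ⟨⟨Moo.mkQ (j ^ m * c1), Submodule.mem_map_of_mem hjc1⟩, by
      apply Subtype.ext
      show Moo.mkQ (a - q ^ (N0 + 1) • c0) = q ^ (N0 + 1) • Moo.mkQ (j ^ m * c1)
      rw [hweq, map_add, map_smul]
      have : Moo.mkQ b = 0 := by
        rw [Submodule.mkQ_apply, Submodule.Quotient.mk_eq_zero]
        exact hb
      rw [this, zero_add]⟩
  apply hna
  refine ⟨(w' : F) + q ^ N0 • c0, M0.add_mem w'.2.1 (M0.smul_mem _ hc0), ?_⟩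
  have h1 : a - q ^ (N0 + 1) • c0 = q • (w' : F) := congrArg Subtype.val hw'
  rw [smul_add, ← h1, smul_smul, ← pow_succ']
  ring

end TIAlg
section RootMod

variable {R F : Type*} [CommRing R] [Field F] [Algebra R F]

/-- Mixed products: if `h sⁿ, h s'ⁿ ∈ B` and `B` is closed under `n`-th roots then
`h sⁱ s'ᵈ ∈ B` for `i + d = n`. -/
theorem mixed_mem (B : Subalgebra R F) (h : F) (n : ℕ)
    (hB : ∀ x : F, x ^ n ∈ B → x ∈ B) {s s' : F} (hs : h * s ^ n ∈ B) (hs' : h * s' ^ n ∈ B)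
    (i d : ℕ) (hid : i + d = n) : h * s ^ i * s' ^ d ∈ B := by
  apply hB
  have : (h * s ^ i * s' ^ d) ^ n = (h * s ^ n) ^ i * (h * s' ^ n) ^ d := by
    subst hid
    ring
  rw [this]
  exact B.mul_mem (B.pow_mem hs _) (B.pow_mem hs' _)

/-- `{s : h sⁿ ∈ B}` as an `R`-submodule, for `B` closed under `n`-th roots. -/
def rootMod (B : Subalgebra R F) (h : F) (n : ℕ) (hn : 0 < n)
    (hB : ∀ x : F, x ^ n ∈ B → x ∈ B) : Submodule R F where
  carrier := {s | h * s ^ n ∈ B}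
  zero_mem' := by
    show h * 0 ^ n ∈ B
    rw [zero_pow hn.ne', mul_zero]
    exact B.zero_mem
  add_mem' := by
    intro s s' hs hs'
    show h * (s + s') ^ n ∈ B
    rw [add_pow, Finset.mul_sum]
    refine B.sum_mem (fun i hi => ?_)
    have hi' : i + (n - i) = n := by
      have := Finset.mem_range.1 hi
      omega
    have := mixed_mem B h n hB hs hs' i (n - i) hi'
    have h2 : h * (s ^ i * s' ^ (n - i) * (n.choose i : F)) =
        (h * s ^ i * s' ^ (n - i)) * (n.choose i : F) := by ring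
    rw [h2]
    exact B.mul_mem this (natCast_mem B _)
  smul_mem' := by
    intro c s hs
    show h * (c • s) ^ n ∈ B
    have : h * (c • s) ^ n = (c ^ n) • (h * s ^ n) := by
      rw [smul_pow, mul_smul_comm]
    rw [this]
    exact B.smul_mem hs _

@[simp]
theorem mem_rootMod (B : Subalgebra R F) (h : F) (n : ℕ) (hn : 0 < n)
    (hB : ∀ x : F, x ^ n ∈ B → x ∈ B) (s : F) :
    s ∈ rootMod B h n hn hB ↔ h * s ^ n ∈ B := Iff.rfl

/-- `rootMod B` is stable under multiplication by `B`. -/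
theorem mul_mem_rootMod (B : Subalgebra R F) (h : F) (n : ℕ) (hn : 0 < n)
    (hB : ∀ x : F, x ^ n ∈ B → x ∈ B) {β s : F} (hβ : β ∈ B)
    (hs : s ∈ rootMod B h n hn hB) : β * s ∈ rootMod B h n hn hB := by
  rw [mem_rootMod] at hs ⊢
  have : h * (β * s) ^ n = β ^ n * (h * s ^ n) := by ring
  rw [this]
  exact B.mul_mem (B.pow_mem hβ _) hs

end RootMod

section Newton

variable {R F : Type*} [CommRing R] [Field F] [Algebra R F]

/-- `(1 - y)ⁿ = 1 - n y + y² c` with `c ∈ B`. -/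
theorem one_sub_pow_expand (B : Subalgebra R F) {y : F} (hy : y ∈ B) (n : ℕ) :
    ∃ c ∈ B, (1 - y) ^ n = 1 - (n : F) * y + y ^ 2 * c := by
  induction n with
  | zero => exact ⟨0, B.zero_mem, by simp⟩
  | succ n ih =>
    obtain ⟨c, hc, h⟩ := ih
    refine ⟨c + (n : F) - y * c, B.sub_mem (B.add_mem hc (natCast_mem B n)) (B.mul_mem hy hc), ?_⟩
    rw [pow_succ, h]
    push_cast
    ring

/-- **Newton step** for `n`-th roots: if `h aⁿ = 1 + ν` with `ν ∈ B` and `n` is invertible in `B`,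
then `a' = a (1 - ν / n)` satisfies `h a'ⁿ = 1 + ν² c`, `c ∈ B`. -/
theorem newton_step (B : Subalgebra R F) (n : ℕ) (n' : F) (hn' : n' ∈ B) (hnn : (n : F) * n' = 1)
    (h a ν : F) (hν : h * a ^ n = 1 + ν) (hνB : ν ∈ B) :
    ∃ c ∈ B, h * (a * (1 - ν * n')) ^ n = 1 + ν ^ 2 * c := by
  obtain ⟨c, hc, hexp⟩ := one_sub_pow_expand B (B.mul_mem hνB hn') n
  refine ⟨n' ^ 2 * c * (1 + ν) - 1, B.sub_mem (B.mul_mem (B.mul_mem (B.pow_mem hn' 2) hc)
    (B.add_mem B.one_mem hνB)) B.one_mem, ?_⟩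
  have h1 : h * (a * (1 - ν * n')) ^ n = (h * a ^ n) * (1 - ν * n') ^ n := by
    rw [mul_pow, mul_assoc]
  rw [h1, hν, hexp]
  have h2 : (n : F) * (ν * n') = ν := by
    rw [mul_comm ν n', ← mul_assoc, hnn, one_mul]
  rw [h2]
  ring

/-- **Newton iteration**: from `h aⁿ = 1 + ν₀`, `ν₀ ∈ B`, get for every `k` some
`a_k = a (1 + ν₀ v)`, `v ∈ B`, with `h a_kⁿ = 1 + ν₀ ^ (2 ^ k) c`, `c ∈ B`. -/
theorem newton_iter (B : Subalgebra R F) (n : ℕ) (n' : F) (hn' : n' ∈ B) (hnn : (n : F) * n' = 1)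
    (h a ν₀ : F) (hν : h * a ^ n = 1 + ν₀) (hνB : ν₀ ∈ B) (k : ℕ) :
    ∃ v ∈ B, ∃ c ∈ B, h * (a * (1 + ν₀ * v)) ^ n = 1 + ν₀ ^ (2 ^ k) * c := by
  induction k with
  | zero => exact ⟨0, B.zero_mem, 1, B.one_mem, by simp [hν]⟩
  | succ k ih =>
    obtain ⟨v, hv, c, hc, h1⟩ := ih
    have hνk : ν₀ ^ (2 ^ k) * c ∈ B := B.mul_mem (B.pow_mem hνB _) hc
    obtain ⟨c', hc', h2⟩ := newton_step B n n' hn' hnn h (a * (1 + ν₀ * v)) _ h1 hνk
    have hk1 : 1 ≤ 2 ^ k := Nat.one_le_two_pow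
    obtain ⟨r, hr⟩ := Nat.exists_eq_add_of_le hk1
    refine ⟨v - ν₀ ^ r * c * n' * (1 + ν₀ * v), ?_, c ^ 2 * c', B.mul_mem (B.pow_mem hc 2) hc', ?_⟩
    · exact B.sub_mem hv (B.mul_mem (B.mul_mem (B.mul_mem (B.pow_mem hνB _) hc) hn')
        (B.add_mem B.one_mem (B.mul_mem hνB hv)))
    · have h3 : a * (1 + ν₀ * (v - ν₀ ^ r * c * n' * (1 + ν₀ * v))) =
          a * (1 + ν₀ * v) * (1 - ν₀ ^ (2 ^ k) * c * n') := by
        rw [hr, pow_add, pow_one]
        ring
      rw [h3, h2, pow_succ 2 k]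
      ring

/-- Newton iteration, `q`-adic form: if moreover `ν₀ ^ e = q z` with `z ∈ B`, then for every `N`
there is `a_N = a (1 + ν₀ v)` with `h a_Nⁿ = 1 + q ^ N c`. -/
theorem newton_qadic (B : Subalgebra R F) (q : R) (n : ℕ) (n' : F) (hn' : n' ∈ B)
    (hnn : (n : F) * n' = 1)
    (h a ν₀ : F) (hν : h * a ^ n = 1 + ν₀) (hνB : ν₀ ∈ B) (e : ℕ) (z : F) (hz : z ∈ B)
    (hez : ν₀ ^ e = q • z) (N : ℕ) :
    ∃ v ∈ B, ∃ c ∈ B, h * (a * (1 + ν₀ * v)) ^ n = 1 + q ^ N • c := by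
  obtain ⟨v, hv, c, hc, h1⟩ := newton_iter B n n' hn' hnn h a ν₀ hν hνB (e * N)
  have hlt : e * N ≤ 2 ^ (e * N) := Nat.lt_two_pow_self.le
  obtain ⟨r, hr⟩ := Nat.exists_eq_add_of_le hlt
  refine ⟨v, hv, z ^ N * ν₀ ^ r * c, B.mul_mem (B.mul_mem (B.pow_mem hz _) (B.pow_mem hνB _)) hc, ?_⟩
  rw [h1, hr, pow_add, pow_mul, hez, smul_pow]
  simp only [Algebra.smul_def, map_pow]
  ring

end Newton
section Overlap

/-- If `u` is a unit and `η` lies in the radical of `(q)`, then `(u + η) ^ L` is coprime to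
`q ^ K`. -/
theorem isCoprime_unit_add_rad {A : Type*} [CommRing A] (q u η : A) (hu : IsUnit u)
    (hη : η ∈ (Ideal.span {q}).radical) (L K : ℕ) : IsCoprime ((u + η) ^ L) (q ^ K) := by
  obtain ⟨e, he⟩ := Ideal.mem_radical_iff.1 hη
  obtain ⟨z, hz⟩ := Ideal.mem_span_singleton'.1 he
  obtain ⟨v, hv⟩ := hu.exists_left_inv
  have h1 : IsCoprime u η := ⟨v, 0, by rw [hv, zero_mul, add_zero]⟩
  have h2 : IsCoprime (u + η) η := by simpa using h1.add_mul_left_left 1
  have h3 : IsCoprime (u + η) (η ^ e) := h2.pow_right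
  have h4 : IsCoprime (u + η) (q * z) := by rw [mul_comm, hz]; exact h3
  exact (h4.of_mul_right_left).pow

variable {R F : Type*} [CommRing R] [Field F] [Algebra R F]

/-- `x` is nilpotent modulo `q S`. -/
def IsRadQ (S : Subalgebra R F) (q : R) (x : F) : Prop := ∃ e : ℕ, ∃ z ∈ S, x ^ e = q • z

theorem isRadQ_iff (S : Subalgebra R F) (q : R) (x : S) :
    IsRadQ S q (x : F) ↔ x ∈ (Ideal.span {algebraMap R S q}).radical := by
  rw [Ideal.mem_radical_iff]
  constructor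
  · rintro ⟨e, z, hz, h⟩
    refine ⟨e, Ideal.mem_span_singleton'.2 ⟨⟨z, hz⟩, ?_⟩⟩
    apply Subtype.ext
    push_cast
    rw [h, Algebra.smul_def, mul_comm]
  · rintro ⟨e, he⟩
    obtain ⟨z, hz⟩ := Ideal.mem_span_singleton'.1 he
    refine ⟨e, z, z.2, ?_⟩
    have := congrArg (Subtype.val) hz
    push_cast at this
    rw [← this, Algebra.smul_def, mul_comm]

theorem IsRadQ.mono {S S' : Subalgebra R F} (hSS : S ≤ S') {q : R} {x : F}
    (h : IsRadQ S q x) : IsRadQ S' q x := by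
  obtain ⟨e, z, hz, h⟩ := h
  exact ⟨e, z, hSS hz, h⟩

/-- **Overlap lemma.**  If `h aⁿ ≡ 1 ≡ h bⁿ mod q ^ N` in `S` and `h a bⁿ⁻¹ ≡ 1` modulo the radical of
`q S`, then `a - b = q ^ N y` with `h yⁿ ∈ S`. -/
theorem overlap (S : Subalgebra R F) (q : R) (hq : algebraMap R F q ≠ 0) (n : ℕ) (hn : 0 < n)
    (n' : F) (hn' : n' ∈ S) (hnn : (n : F) * n' = 1)
    (hS : ∀ x : F, x ^ n ∈ S → x ∈ S)
    (h a b : F) (N : ℕ) (hN : 0 < N) (α β : F) (hα : α ∈ S) (hβ : β ∈ S)
    (ha : h * a ^ n = 1 + q ^ N • α) (hb : h * b ^ n = 1 + q ^ N • β)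
    (hab : IsRadQ S q (h * a * b ^ (n - 1) - 1)) :
    ∃ y : F, a - b = q ^ N • y ∧ h * y ^ n ∈ S := by
  classical
  have haS : h * a ^ n ∈ S := by
    rw [ha]; exact S.add_mem S.one_mem (S.smul_mem hα _)
  have hbS : h * b ^ n ∈ S := by
    rw [hb]; exact S.add_mem S.one_mem (S.smul_mem hβ _)
  have htS : ∀ i : ℕ, i < n → h * a ^ (i + 1) * b ^ (n - 1 - i) ∈ S := fun i hi =>
    mixed_mem S h n hS haS hbS (i + 1) (n - 1 - i) (by omega)
  set qS : S := algebraMap R S q with hqS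
  set I : Ideal S := (Ideal.span {qS}).radical with hI
  -- `T0 = h bⁿ ≡ 1`
  have hT0 : (⟨h * b ^ n, hbS⟩ : S) - 1 ∈ I := by
    apply Ideal.le_radical
    rw [Ideal.mem_span_singleton']
    obtain ⟨r, hr⟩ := Nat.exists_eq_add_of_le (Nat.succ_le_of_lt hN)
    refine ⟨qS ^ r * ⟨β, hβ⟩, ?_⟩
    apply Subtype.ext
    push_cast
    rw [hb, hr, Algebra.smul_def, hqS]
    simp only [pow_add, pow_one, Nat.succ_eq_add_one, zero_add, map_mul, map_pow]
    have : ((algebraMap R S q : S) : F) = algebraMap R F q := rfl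
    rw [this]
    ring
  have h1n : h * a * b ^ (n - 1) ∈ S := by
    have := htS 0 hn
    simpa using this
  have hT1 : (⟨h * a * b ^ (n - 1), h1n⟩ : S) - 1 ∈ I := by
    rw [hI, ← isRadQ_iff]
    exact hab
  have hTi : ∀ i : ℕ, ∀ hi : i < n, (⟨h * a ^ (i + 1) * b ^ (n - 1 - i), htS i hi⟩ : S) - 1 ∈ I := by
    intro i hi
    have hrel : (⟨h * a ^ (i + 1) * b ^ (n - 1 - i), htS i hi⟩ : S) * (⟨h * b ^ n, hbS⟩ : S) ^ i =
        (⟨h * a * b ^ (n - 1), h1n⟩ : S) ^ (i + 1) := by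
      apply Subtype.ext
      push_cast
      obtain ⟨d, hd⟩ := Nat.exists_eq_add_of_lt hi
      have h1 : n - 1 - i = d := by omega
      have h2 : n - 1 = i + d := by omega
      have h3 : n = i + d + 1 := by omega
      rw [h1, h2]
      nth_rewrite 1 [h3]
      ring
    have e0 : Ideal.Quotient.mk I (⟨h * b ^ n, hbS⟩ : S) = 1 := by
      rw [← map_one (Ideal.Quotient.mk I), Ideal.Quotient.eq]; exact hT0
    have e1 : Ideal.Quotient.mk I (⟨h * a * b ^ (n - 1), h1n⟩ : S) = 1 := by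
      rw [← map_one (Ideal.Quotient.mk I), Ideal.Quotient.eq]; exact hT1
    have := congrArg (Ideal.Quotient.mk I) hrel
    rw [map_mul, map_pow, map_pow, e0, e1, one_pow, one_pow, mul_one] at this
    rw [← Ideal.Quotient.eq, map_one]
    exact this
  -- the sum `x = c a`
  set x : S := ∑ i : Fin n, (⟨h * a ^ ((i : ℕ) + 1) * b ^ (n - 1 - (i : ℕ)), htS i i.2⟩ : S) with hx
  have hxη : x - (n : S) ∈ I := by
    have : x - (n : S) = ∑ i : Fin n,
        ((⟨h * a ^ ((i : ℕ) + 1) * b ^ (n - 1 - (i : ℕ)), htS i i.2⟩ : S) - 1) := by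
      rw [Finset.sum_sub_distrib, hx]
      simp
    rw [this]
    exact I.sum_mem (fun i _ => hTi i i.2)
  have hnS : IsUnit ((n : ℕ) : S) := by
    refine IsUnit.of_mul_eq_one (⟨n', hn'⟩ : S) ?_
    apply Subtype.ext
    push_cast
    exact hnn
  have hcop : IsCoprime (x ^ n) (qS ^ (n * N)) := by
    have := isCoprime_unit_add_rad qS (n : S) (x - (n : S)) hnS hxη n (n * N)
    simpa using this
  obtain ⟨γ, δ, hγδ⟩ := hcop
  have hγδF : (γ : F) * (x : F) ^ n + (δ : F) * (algebraMap R F q) ^ (n * N) = 1 := by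
    have := congrArg Subtype.val hγδ
    push_cast at this
    exact this
  have hxF : (x : F) = ∑ i ∈ Finset.range n, h * a ^ (i + 1) * b ^ (n - 1 - i) := by
    rw [hx]
    push_cast
    rw [Finset.sum_range (fun i => h * a ^ (i + 1) * b ^ (n - 1 - i))]
  have hxab : (x : F) * (a - b) = a * ((algebraMap R F q) ^ N * (α - β)) := by
    have h1 : (x : F) = h * a * ∑ i ∈ Finset.range n, a ^ i * b ^ (n - 1 - i) := by
      rw [hxF, Finset.mul_sum]
      refine Finset.sum_congr rfl (fun i _ => ?_)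
      ring
    rw [h1, mul_assoc, (Commute.all a b).geom_sum₂_mul n]
    have h2 : h * a * (a ^ n - b ^ n) = a * (h * a ^ n - h * b ^ n) := by ring
    rw [h2, ha, hb, Algebra.smul_def, Algebra.smul_def, map_pow]
    ring
  have hqN : (algebraMap R F q) ^ N ≠ 0 := pow_ne_zero _ hq
  refine ⟨(a - b) / (algebraMap R F q) ^ N, ?_, ?_⟩
  · rw [Algebra.smul_def, map_pow]
    field_simp
  · set y := (a - b) / (algebraMap R F q) ^ N with hy
    have hxy : (x : F) * y = a * (α - β) := by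
      rw [hy, ← mul_div_assoc, hxab]
      field_simp
    have hX : h * y ^ n * (x : F) ^ n ∈ S := by
      have : h * y ^ n * (x : F) ^ n = (h * a ^ n) * (α - β) ^ n := by
        have : h * y ^ n * (x : F) ^ n = h * ((x : F) * y) ^ n := by rw [mul_pow]; ring
        rw [this, hxy, mul_pow]; ring
      rw [this]
      exact S.mul_mem haS (S.pow_mem (S.sub_mem hα hβ) _)
    have hY : h * y ^ n * (algebraMap R F q) ^ (n * N) ∈ S := by
      have : h * y ^ n * (algebraMap R F q) ^ (n * N) = h * (a - b) ^ n := by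
        have hyq : y * (algebraMap R F q) ^ N = a - b := by
          rw [hy]; field_simp
        rw [← hyq, mul_pow, ← pow_mul, mul_comm N n]; ring
      rw [this]
      -- `h (a - b)ⁿ ∈ S`
      rw [sub_eq_add_neg, add_pow, Finset.mul_sum]
      refine S.sum_mem (fun i hi => ?_)
      have hi' : i + (n - i) = n := by
        have := Finset.mem_range.1 hi
        omega
      have := mixed_mem S h n hS haS hbS i (n - i) hi'
      have h2 : h * (a ^ i * (-b) ^ (n - i) * (n.choose i : F)) =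
          (h * a ^ i * b ^ (n - i)) * ((-1) ^ (n - i) * (n.choose i : F)) := by
        rw [neg_pow]; ring
      rw [h2]
      exact S.mul_mem this (S.mul_mem (S.pow_mem (S.neg_mem S.one_mem) _) (natCast_mem S _))
    have : h * y ^ n = (γ : F) * (h * y ^ n * (x : F) ^ n) +
        (δ : F) * (h * y ^ n * (algebraMap R F q) ^ (n * N)) := by
      have : h * y ^ n = h * y ^ n * ((γ : F) * (x : F) ^ n +
          (δ : F) * (algebraMap R F q) ^ (n * N)) := by rw [hγδF, mul_one]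
      nth_rewrite 1 [this]
      ring
    rw [this]
    exact S.add_mem (S.mul_mem γ.2 hX) (S.mul_mem δ.2 hY)

end Overlap

section Pair

/-- In a commutative ring: `t ≡ 1`, `x ≡ 0 ≡ y` mod `I` imply `t (1 + x v) (1 + y w) ^ k ≡ 1`. -/
theorem mul_one_add_mem {A : Type*} [CommRing A] (I : Ideal A) {t x y : A} (v w : A) (k : ℕ)
    (ht : t - 1 ∈ I) (hx : x ∈ I) (hy : y ∈ I) :
    t * (1 + x * v) * (1 + y * w) ^ k - 1 ∈ I := by
  have e0 : Ideal.Quotient.mk I t = 1 := by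
    rw [← map_one (Ideal.Quotient.mk I), Ideal.Quotient.eq]; exact ht
  have e1 : Ideal.Quotient.mk I x = 0 := Ideal.Quotient.eq_zero_iff_mem.2 hx
  have e2 : Ideal.Quotient.mk I y = 0 := Ideal.Quotient.eq_zero_iff_mem.2 hy
  rw [← Ideal.Quotient.eq, map_one, map_mul, map_mul, map_pow, map_add, map_add, map_mul, map_mul,
    map_one, e0, e1, e2]
  simp

variable {R F : Type*} [CommRing R] [IsNoetherianRing R] [Field F] [Algebra R F]

/-- **TI3 from one pair** (Newton + overlap + `ti3_alg`).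
`B0`, `Boo`, `B0oo` are the coordinate rings of the charts `j ≠ ∞`, `j ≠ 0` and of their overlap.
If there are `a`, `b` with `h aⁿ ∈ B0`, `h bⁿ ∈ Boo`, both `≡ 1` modulo the radical of `q`, and
`h a bⁿ⁻¹ ≡ 1` modulo the radical of `q B0oo`, then there is `s ≠ 0` with `h sⁿ ∈ B0 ∩ Boo`. -/
theorem ti3_of_pair (q : R) (hq : algebraMap R F q ≠ 0) (n : ℕ) (hn : 0 < n) (n' : R)
    (hnn : (n : R) * n' = 1) (j : F) (hj : j ≠ 0) (h : F)
    (B0 Boo B0oo : Subalgebra R F) (hjB0 : j ∈ B0) (hjBoo : j⁻¹ ∈ Boo)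
    (h0le : B0 ≤ B0oo) (hoole : Boo ≤ B0oo)
    (hloc0 : ∀ β ∈ B0oo, ∃ k : ℕ, j ^ k * β ∈ B0)
    (hlocoo : ∀ β ∈ B0oo, ∃ k : ℕ, j⁻¹ ^ k * β ∈ Boo)
    (hroot0 : ∀ x : F, x ^ n ∈ B0 → x ∈ B0)
    (hrootoo : ∀ x : F, x ^ n ∈ Boo → x ∈ Boo)
    (hroot0oo : ∀ x : F, x ^ n ∈ B0oo → x ∈ B0oo)
    (μ : Finset F) (hμ : ∀ u ∈ μ, h * u ^ n ∈ Boo)
    (hgen : ∀ x : F, h * x ^ n ∈ Boo →
      x ∈ Submodule.span R {y : F | ∃ e : ℕ, ∃ u ∈ μ, y = j⁻¹ ^ e * u})
    (hunit : ¬ ∃ z ∈ B0, (1 : F) = q • z)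
    (a b : F) (ha : h * a ^ n ∈ B0) (hb : h * b ^ n ∈ Boo)
    (hra : IsRadQ B0 q (h * a ^ n - 1)) (hrb : IsRadQ Boo q (h * b ^ n - 1))
    (hrab : IsRadQ B0oo q (h * a * b ^ (n - 1) - 1)) :
    ∃ s : F, s ≠ 0 ∧ h * s ^ n ∈ B0 ∧ h * s ^ n ∈ Boo := by
  classical
  have hnnF : ((n : ℕ) : F) * algebraMap R F n' = 1 := by
    have := congrArg (algebraMap R F) hnn
    simpa using this
  have hpowoo : ∀ k : ℕ, j⁻¹ ^ k ∈ Boo := fun k => Boo.pow_mem hjBoo k
  have hpow0 : ∀ k : ℕ, j ^ k ∈ B0 := fun k => B0.pow_mem hjB0 k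
  -- the exponent `m`
  have hm : ∃ m : ℕ, ∀ u ∈ μ, j ^ m * u ∈ rootMod B0 h n hn hroot0 := by
    have key : ∀ u : F, h * u ^ n ∈ Boo → ∃ k : ℕ, ∀ m : ℕ, k ≤ m →
        j ^ m * u ∈ rootMod B0 h n hn hroot0 := by
      intro u hu
      obtain ⟨k, hk⟩ := hloc0 _ (hoole hu)
      refine ⟨k, fun m hkm => ?_⟩
      rw [mem_rootMod]
      obtain ⟨d, rfl⟩ := Nat.exists_eq_add_of_le hkm
      obtain ⟨n1, rfl⟩ := Nat.exists_eq_add_of_le (Nat.succ_le_of_lt hn)
      have : h * (j ^ (k + d) * u) ^ (Nat.succ 0 + n1) =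
          j ^ (d * (Nat.succ 0 + n1) + k * n1) * (j ^ k * (h * u ^ (Nat.succ 0 + n1))) := by
        ring
      rw [this]
      exact B0.mul_mem (hpow0 _) hk
    have : ∀ s : Finset F, (∀ u ∈ s, h * u ^ n ∈ Boo) →
        ∃ k : ℕ, ∀ u ∈ s, ∀ m : ℕ, k ≤ m → j ^ m * u ∈ rootMod B0 h n hn hroot0 := by
      intro s
      induction s using Finset.induction_on with
      | empty => intro _; exact ⟨0, fun u hu => absurd hu (Finset.notMem_empty u)⟩
      | insert u s hus ih =>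
        intro hs
        obtain ⟨k1, hk1⟩ := ih (fun v hv => hs v (Finset.mem_insert_of_mem hv))
        obtain ⟨k2, hk2⟩ := key u (hs u (Finset.mem_insert_self u s))
        refine ⟨max k1 k2, fun v hv m hm => ?_⟩
        rcases Finset.mem_insert.1 hv with rfl | hv
        · exact hk2 m (le_trans (le_max_right _ _) hm)
        · exact hk1 v hv m (le_trans (le_max_left _ _) hm)
    obtain ⟨k, hk⟩ := this μ hμ
    exact ⟨k, fun u hu => hk u hu k le_rfl⟩
  obtain ⟨m, hm⟩ := hm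
  obtain ⟨s, hs0, hs1, hs2⟩ := ti3_alg q j hj (rootMod B0 h n hn hroot0)
    (rootMod Boo h n hn hrootoo)
    (fun x hx => mul_mem_rootMod B0 h n hn hroot0 hjB0 hx)
    (fun x hx => mul_mem_rootMod Boo h n hn hrootoo hjBoo hx)
    μ hμ (fun x hx => hgen x hx) m hm (by
      intro N
      obtain ⟨ea, za, hza, hea⟩ := hra
      obtain ⟨eb, zb, hzb, heb⟩ := hrb
      have hνa : h * a ^ n - 1 ∈ B0 := B0.sub_mem ha B0.one_mem
      have hνb : h * b ^ n - 1 ∈ Boo := Boo.sub_mem hb Boo.one_mem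
      obtain ⟨va, hva, ca, hca, hA⟩ := newton_qadic B0 q n (algebraMap R F n')
        (B0.algebraMap_mem n') hnnF h a (h * a ^ n - 1) (by ring) hνa ea za hza hea (N + 1)
      obtain ⟨vb, hvb, cb, hcb, hB⟩ := newton_qadic Boo q n (algebraMap R F n')
        (Boo.algebraMap_mem n') hnnF h b (h * b ^ n - 1) (by ring) hνb eb zb hzb heb (N + 1)
      set a1 := a * (1 + (h * a ^ n - 1) * va) with ha1
      set b1 := b * (1 + (h * b ^ n - 1) * vb) with hb1
      have ha1M : h * a1 ^ n ∈ B0 := by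
        rw [hA]; exact B0.add_mem B0.one_mem (B0.smul_mem hca _)
      have hb1M : h * b1 ^ n ∈ Boo := by
        rw [hB]; exact Boo.add_mem Boo.one_mem (Boo.smul_mem hcb _)
      -- the `t₁`-condition for the new pair
      have h1n : h * a * b ^ (n - 1) ∈ B0oo := by
        have := mixed_mem B0oo h n hroot0oo (h0le ha) (hoole hb) 1 (n - 1) (by omega)
        simpa using this
      have hrab1 : IsRadQ B0oo q (h * a1 * b1 ^ (n - 1) - 1) := by
        have e : h * a1 * b1 ^ (n - 1) - 1 =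
            ((⟨h * a * b ^ (n - 1), h1n⟩ : B0oo) *
              (1 + (⟨h * a ^ n - 1, h0le hνa⟩ : B0oo) * ⟨va, h0le hva⟩) *
              (1 + (⟨h * b ^ n - 1, hoole hνb⟩ : B0oo) * ⟨vb, hoole hvb⟩) ^ (n - 1) - 1 : B0oo) := by
          push_cast
          rw [ha1, hb1, mul_pow]
          ring
        rw [e, isRadQ_iff]
        apply mul_one_add_mem
        · rw [← isRadQ_iff]; exact hrab
        · rw [← isRadQ_iff]; exact IsRadQ.mono h0le ⟨ea, za, hza, hea⟩
        · rw [← isRadQ_iff]; exact IsRadQ.mono hoole ⟨eb, zb, hzb, heb⟩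
      obtain ⟨y, hy, hyS⟩ := overlap B0oo q hq n hn (algebraMap R F n') (B0oo.algebraMap_mem n')
        hnnF hroot0oo h a1 b1 (N + 1) (Nat.succ_pos N) ca cb (h0le hca) (hoole hcb) hA hB hrab1
      refine ⟨a1, ha1M, b1, hb1M, q • y, ?_, ?_, ?_⟩
      · obtain ⟨k, hk⟩ := hlocoo _ hyS
        refine ⟨k, ?_⟩
        rw [mem_rootMod]
        obtain ⟨n1, rfl⟩ := Nat.exists_eq_add_of_le (Nat.succ_le_of_lt hn)
        have : h * (j⁻¹ ^ k * q • y) ^ (Nat.succ 0 + n1) =
            (q ^ (Nat.succ 0 + n1)) • (j⁻¹ ^ (k * n1) * (j⁻¹ ^ k * (h * y ^ (Nat.succ 0 + n1)))) := by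
          simp only [Algebra.smul_def, map_pow]
          ring
        rw [this]
        exact Boo.smul_mem (Boo.mul_mem (hpowoo _) hk) _
      · rw [hy, pow_succ, mul_smul]
      · rintro ⟨a', ha', haa'⟩
        rw [mem_rootMod] at ha'
        apply hunit
        obtain ⟨n1, hn1⟩ := Nat.exists_eq_add_of_le (Nat.succ_le_of_lt hn)
        refine ⟨q ^ n1 • (h * a' ^ n) - q ^ N • ca, B0.sub_mem (B0.smul_mem ha' _)
          (B0.smul_mem hca _), ?_⟩
        have h1 : h * a1 ^ n = q ^ n • (h * a' ^ n) := by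
          rw [haa', smul_pow, mul_smul_comm]
        rw [hA] at h1
        have h2 : (1 : F) = q ^ n • (h * a' ^ n) - q ^ (N + 1) • ca := by
          rw [← h1]; ring
        rw [h2, smul_sub, smul_smul, smul_smul]
        congr 2
        · rw [hn1]; simp only [Nat.succ_eq_add_one, zero_add]; ring
        · ring)
  exact ⟨s, hs0, hs1, hs2⟩

end Pair

end Fermat.Agent.S36.NU.H65

end
-- ==== END Fermat.Agent.S36.NU.H65_TIAlg

-- ==== BEGIN Fermat.Agent.S36.NU.H73_Lev4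
section

/-!
# A weight-4 identity on `Γ₀(4)` (S36 / NU-B / COORD, step 1; helper73)

With `P = E₂`, `Q = E₄` (integral `q`-expansions) and `f_d = f(q^d)`:

  `Q - 16 Q₄ = 5 (P - 4 P₄) (P - 4 P₂ + 4 P₄)`     (`lev4_identity`).

Proof: `4 E₄ - 64 E₄(4z) + 20 g₄ (g₄ - 2 g₂)`, `g_N = N E₂(Nz) - E₂(z)`, is a modular form of weight
`4` on `Γ₀(4)` (index `6`) whose first three coefficients vanish (Sturm bound `= 2`).

This is the input for `θ u = u (P - 4 P₄)`-calculus: `F = P - 4 P₄` satisfies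
`3 θ F = F (5 P₂ - P - 4 P₄)`, whence `F¹² Δ⁴ Δ₄⁴ = 3¹² Δ₂¹⁰` (`H73_UnitTheta.lean`).
-/

set_option autoImplicit false

open UpperHalfPlane ModularForm EisensteinSeries CongruenceSubgroup
open scoped MatrixGroups ModularForm Manifold

noncomputable section

namespace Fermat.Agent.S36.NU.H73

open Fermat.Agent.S23.H22 Fermat.Agent.S23 PowerSeries Fermat.Agent.RED.H29 Fermat.Agent.BAD.H21
  Fermat.Agent.S23.H96

/-! ### Tools -/

/-- The Sturm bound for `Γ₀(4)`: a form of weight `k` whose first `k / 2 + 1` coefficients vanish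
is zero. -/
theorem sturm4 {k : ℤ} (f : ModularForm (Gamma0 4) k)
    (h : ∀ n : ℕ, n ≤ (k * 6).toNat / 12 → (qExpansion 1 f).coeff n = 0) : f = 0 := by
  have hidx : (Gamma0 4).index = 6 := by
    rw [Fermat.Agent.S20.H19.G1]
    unfold ModularCurve.dedekindPsi
    have hd : Nat.divisors 4 = {1, 2, 4} := by decide +kernel
    rw [hd, Finset.sum_filter]
    have h2 : Squarefree 2 := Nat.prime_two.squarefree
    have h4 : ¬ Squarefree 4 := by
      intro h
      have := h 2 ⟨1, by norm_num⟩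
      simp at this
    simp [h2, h4]
  refine ModularForm.sturm_bound_Gamma0 4 f fun n hn => h n ?_
  rw [hidx] at hn
  exact hn

/-- Truncation at order `3`. -/
theorem X_pow_three_dvd_sub (P : PowerSeries ℂ) (c0 c1 c2 : ℂ) (h0 : P.coeff 0 = c0)
    (h1 : P.coeff 1 = c1) (h2 : P.coeff 2 = c2) :
    (X : PowerSeries ℂ) ^ 3 ∣ P - (C c0 + C c1 * X + C c2 * X ^ 2) := by
  rw [PowerSeries.X_pow_dvd_iff]
  intro m hm
  have h0' : PowerSeries.constantCoeff P = c0 := by
    rw [← PowerSeries.coeff_zero_eq_constantCoeff_apply]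
    exact h0
  interval_cases m
  · simp [h0']
  · simp [h1, PowerSeries.coeff_X_pow]
  · simp [h2, PowerSeries.coeff_X_pow]

/-- The quotient map modulo `X ^ 3`. -/
abbrev pi3 : PowerSeries ℂ →+* PowerSeries ℂ ⧸ Ideal.span {(X : PowerSeries ℂ) ^ 3} :=
  Ideal.Quotient.mk _

theorem pi3_eq_of_dvd {P Q : PowerSeries ℂ} (h : (X : PowerSeries ℂ) ^ 3 ∣ P - Q) :
    pi3 P = pi3 Q := by
  rw [Ideal.Quotient.eq, Ideal.mem_span_singleton]
  exact h

theorem coeff_eq_zero_of_pi3 {P : PowerSeries ℂ} (h : pi3 P = 0) (n : ℕ) (hn : n ≤ 2) :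
    P.coeff n = 0 := by
  rw [Ideal.Quotient.eq_zero_iff_mem, Ideal.mem_span_singleton, PowerSeries.X_pow_dvd_iff] at h
  exact h n (by omega)

theorem pi3_eq_zero_of_eq_mul {P : PowerSeries ℂ} (s : PowerSeries ℂ) (h : P = X ^ 3 * s) :
    pi3 P = 0 := by
  rw [Ideal.Quotient.eq_zero_iff_mem, Ideal.mem_span_singleton]
  exact ⟨s, h⟩

/-! ### The forms -/

theorem G0_four_le_two : G0 4 ≤ G0 2 := by
  rintro _ ⟨γ, hγ, rfl⟩
  refine ⟨γ, ?_, rfl⟩
  rw [SetLike.mem_coe, Gamma0_mem] at hγ ⊢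
  have h4 : ((4 : ℕ) : ℤ) ∣ γ.1 1 0 := (ZMod.intCast_zmod_eq_zero_iff_dvd _ 4).mp hγ
  exact (ZMod.intCast_zmod_eq_zero_iff_dvd _ 2).mpr (dvd_trans ⟨2, by norm_num⟩ h4)

/-- `E₄` on `Γ₀(4)`. -/
def E4r4 : ModularForm (Gamma0 4) 4 := Fermat.Agent.S20.H29.restrictLevel (G0_le_SL 4) E₄

/-- `g₄ = 4 E₂(4z) - E₂(z)`. -/
def g4 : ModularForm (Gamma0 4) 2 := Fermat.Agent.S16.H6.eisForm 4

/-- `g₂ = 2 E₂(2z) - E₂(z)` on `Γ₀(2)`. -/
def g2 : ModularForm (Gamma0 2) 2 := Fermat.Agent.S16.H6.eisForm 2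

/-- `g₂` on `Γ₀(4)`. -/
def g2r : ModularForm (Gamma0 4) 2 := Fermat.Agent.S20.H29.restrictLevel G0_four_le_two g2

/-- `64 E₄(4z)`. -/
def E4t4 : ModularForm (Gamma0 4) 4 := levelRaise 4 E₄

theorem coeff_qExp_g4 (m : ℕ) : (qExpansion 1 g4).coeff m = Fermat.Agent.S16.H6.eisCoeff 4 m := by
  have hsum : ∀ τ : ℍ, HasSum (fun m : ℕ ↦ Fermat.Agent.S16.H6.eisCoeff 4 m
      • Function.Periodic.qParam 1 (τ : ℂ) ^ m) (g4 τ) := fun τ =>
    Fermat.Agent.S16.H6.hasSum_eisFun 4 (by norm_num) τ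
  exact (ModularFormClass.qExpansion_coeff_unique (f := g4) one_pos
    (CongruenceSubgroup.one_mem_strictPeriods_Gamma0 4) hsum m).symm

theorem coeff_qExp_g2 (m : ℕ) : (qExpansion 1 g2).coeff m = Fermat.Agent.S16.H6.eisCoeff 2 m := by
  have hsum : ∀ τ : ℍ, HasSum (fun m : ℕ ↦ Fermat.Agent.S16.H6.eisCoeff 2 m
      • Function.Periodic.qParam 1 (τ : ℂ) ^ m) (g2 τ) := fun τ =>
    Fermat.Agent.S16.H6.hasSum_eisFun 2 (by norm_num) τ
  exact (ModularFormClass.qExpansion_coeff_unique (f := g2) one_pos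
    (CongruenceSubgroup.one_mem_strictPeriods_Gamma0 2) hsum m).symm

theorem coeff_qExp_E4t4 (n : ℕ) : (qExpansion 1 E4t4).coeff n
    = if 4 ∣ n then 64 * (qExpansion 1 E₄).coeff (n / 4) else 0 := by
  have h := qExpansion_levelRaise_coeff 4 (k := 4) E₄ n
  rw [show ((4 : ℕ) : ℂ) ^ ((4 : ℤ) - 1) = 64 by norm_num] at h
  exact h

/-! ### Truncations -/

theorem trunc3_E4 : (X : PowerSeries ℂ) ^ 3 ∣ qExpansion 1 E₄ -
    (C 1 + C 240 * X + C 2160 * X ^ 2) := by
  apply X_pow_three_dvd_sub <;> rw [coeff_qExp_E4]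
  · simp
  · have : ArithmeticFunction.sigma 3 1 = 1 := by decide +kernel
    simp [this]
  · have : ArithmeticFunction.sigma 3 2 = 9 := by decide +kernel
    simp [this]; norm_num

theorem trunc3_g4 : (X : PowerSeries ℂ) ^ 3 ∣ qExpansion 1 g4 -
    (C 3 + C 24 * X + C 72 * X ^ 2) := by
  apply X_pow_three_dvd_sub <;> rw [coeff_qExp_g4] <;>
    simp only [Fermat.Agent.S16.H6.eisCoeff, Fermat.Agent.S20.H70.E2coeff]
  · norm_num
  · have : ArithmeticFunction.sigma 1 1 = 1 := by decide +kernel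
    simp [this]
  · have : ArithmeticFunction.sigma 1 2 = 3 := by decide +kernel
    simp [this]; norm_num

theorem trunc3_g2 : (X : PowerSeries ℂ) ^ 3 ∣ qExpansion 1 g2 -
    (C 1 + C 24 * X + C 24 * X ^ 2) := by
  apply X_pow_three_dvd_sub <;> rw [coeff_qExp_g2] <;>
    simp only [Fermat.Agent.S16.H6.eisCoeff, Fermat.Agent.S20.H70.E2coeff]
  · norm_num
  · have : ArithmeticFunction.sigma 1 1 = 1 := by decide +kernel
    simp [this]
  · have : ArithmeticFunction.sigma 1 2 = 3 := by decide +kernel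
    have h1 : ArithmeticFunction.sigma 1 1 = 1 := by decide +kernel
    simp [this, h1]; norm_num

theorem trunc3_E4t4 : (X : PowerSeries ℂ) ^ 3 ∣ qExpansion 1 E4t4 -
    (C 64 + C 0 * X + C 0 * X ^ 2) := by
  apply X_pow_three_dvd_sub <;> rw [coeff_qExp_E4t4, coeff_qExp_E4]
  · simp
  · norm_num
  · norm_num

/-! ### The form `D = 4 E₄ - 64 E₄(4z) + 20 g₄ (g₄ - 2 g₂)` -/

/-- `4 E₄ - 64 E₄(4z) + 20 g₄ (g₄ - 2 g₂)`. -/
def D44 : ModularForm (Gamma0 4) 4 :=
  (4 : ℂ) • E4r4 - E4t4 + (20 : ℂ) • ModularForm.mcast (by norm_num) (g4.mul (g4 - (2 : ℂ) • g2r))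

theorem nice_g4 : Nice 1 (g4 : ℍ → ℂ) := nice_G0 4 g4
theorem nice_g2 : Nice 1 (g2 : ℍ → ℂ) := nice_G0 2 g2
theorem nice_E4t4 : Nice 1 (E4t4 : ℍ → ℂ) := nice_G0 4 E4t4

theorem coe_D44 : (D44 : ℍ → ℂ) = (4 : ℂ) • (E₄ : ℍ → ℂ) - (E4t4 : ℍ → ℂ)
    + (20 : ℂ) • ((g4 : ℍ → ℂ) * ((g4 : ℍ → ℂ) - (2 : ℂ) • (g2 : ℍ → ℂ))) := by
  ext z
  simp [D44, E4r4, g2r]
  rfl

/-- The `q`-expansion of `g₄`. -/
abbrev g4S : PowerSeries ℂ := qExpansion 1 (g4 : ℍ → ℂ)

/-- The `q`-expansion of `g₂`. -/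
abbrev g2S : PowerSeries ℂ := qExpansion 1 (g2 : ℍ → ℂ)

/-- The `q`-expansion of `64 E₄(4z)`. -/
abbrev e4t4S : PowerSeries ℂ := qExpansion 1 (E4t4 : ℍ → ℂ)

theorem qExp_D44 : qExpansion 1 (D44 : ℍ → ℂ)
    = 4 * e4S - e4t4S + 20 * (g4S * (g4S - 2 * g2S)) := by
  rw [coe_D44]
  have n1 := nice_g4.sub (nice_g2.smul 2)
  have n2 := nice_g4.mul n1
  rw [Nice.qExpansion_add one_pos ((nice_E4.smul 4).sub nice_E4t4) (n2.smul 20),
    Nice.qExpansion_sub one_pos (nice_E4.smul 4) nice_E4t4,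
    Nice.qExpansion_smul one_pos nice_E4,
    Nice.qExpansion_smul one_pos n2,
    Nice.qExpansion_mul one_pos nice_g4 n1,
    Nice.qExpansion_sub one_pos nice_g4 (nice_g2.smul 2),
    Nice.qExpansion_smul one_pos nice_g2]
  simp only [PowerSeries.smul_eq_C_mul, map_ofNat]

theorem pi3_g4S : pi3 g4S = pi3 (3 + 24 * X + 72 * X ^ 2) := by
  rw [pi3_eq_of_dvd trunc3_g4]
  simp only [map_ofNat]

theorem pi3_g2S : pi3 g2S = pi3 (1 + 24 * X + 24 * X ^ 2) := by
  rw [pi3_eq_of_dvd trunc3_g2]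
  simp only [map_ofNat, map_one]

theorem pi3_e4S : pi3 e4S = pi3 (1 + 240 * X + 2160 * X ^ 2) := by
  rw [pi3_eq_of_dvd trunc3_E4]
  simp only [map_ofNat, map_one]

theorem pi3_e4t4S : pi3 e4t4S = pi3 64 := by
  rw [pi3_eq_of_dvd trunc3_E4t4]
  congr 1
  simp only [map_ofNat, map_zero]
  ring

theorem check44 : pi3 (4 * e4S - e4t4S + 20 * (g4S * (g4S - 2 * g2S))) = 0 := by
  simp only [map_sub, map_add, map_mul, pi3_g4S, pi3_g2S, pi3_e4S, pi3_e4t4S]
  simp only [← map_mul, ← map_sub, ← map_add]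
  apply pi3_eq_zero_of_eq_mul (-23040 + 34560 * X)
  ring

/-- `4 E₄ - 64 E₄(4z) + 20 g₄ (g₄ - 2 g₂) = 0` on `q`-expansions. -/
theorem series44 : 4 * e4S - e4t4S + 20 * (g4S * (g4S - 2 * g2S)) = 0 := by
  have h0 : D44 = 0 := sturm4 D44 fun n hn => by
    have hq : qExpansion 1 D44 = _ := qExp_D44
    rw [hq]
    exact coeff_eq_zero_of_pi3 check44 n (hn.trans (by decide))
  have hq := qExp_D44
  rw [h0] at hq
  rw [← hq]
  exact qExpansion_zero 1

/-! ### Bridges to the integral series -/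

/-- `E₂` over `ℂ`. -/
abbrev pC : PowerSeries ℂ := H21_e2Series.map (Int.castRingHom ℂ)

theorem E2coeff_eq_cast (m : ℕ) :
    Fermat.Agent.S20.H70.E2coeff m = ((H21_e2Series.coeff m : ℤ) : ℂ) := by
  rw [H21_coeff_e2Series, Fermat.Agent.S20.H70.E2coeff]
  split_ifs <;> simp

theorem g4S_eq : g4S = 4 * PowerSeries.expand 4 four_ne_zero pC - pC := by
  ext n
  have h := coeff_qExp_g4 n
  rw [show (qExpansion 1 g4).coeff n = g4S.coeff n from rfl] at h
  rw [h, Fermat.Agent.S16.H6.eisCoeff, map_sub,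
    show (4 : PowerSeries ℂ) = C (4 : ℂ) by rw [map_ofNat], PowerSeries.coeff_C_mul,
    PowerSeries.coeff_expand]
  split_ifs <;> simp [E2coeff_eq_cast]

theorem g2S_eq : g2S = 2 * PowerSeries.expand 2 two_ne_zero pC - pC := by
  ext n
  have h := coeff_qExp_g2 n
  rw [show (qExpansion 1 g2).coeff n = g2S.coeff n from rfl] at h
  rw [h, Fermat.Agent.S16.H6.eisCoeff, map_sub,
    show (2 : PowerSeries ℂ) = C (2 : ℂ) by rw [map_ofNat], PowerSeries.coeff_C_mul,
    PowerSeries.coeff_expand]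
  split_ifs <;> simp [E2coeff_eq_cast]

theorem e4t4S_eq : e4t4S = 64 * PowerSeries.expand 4 four_ne_zero e4S := by
  have h : e4t4S = C (64 : ℂ) * PowerSeries.expand 4 four_ne_zero e4S := by
    ext n
    rw [PowerSeries.coeff_C_mul, PowerSeries.coeff_expand]
    have := coeff_qExp_E4t4 n
    rw [this]
    split_ifs <;> simp
  rw [h, map_ofNat]

/-- The identity over `ℂ`. -/
theorem lev4_identityC : e4S - 16 * PowerSeries.expand 4 four_ne_zero e4S
    = 5 * ((pC - 4 * PowerSeries.expand 4 four_ne_zero pC)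
      * (pC - 4 * PowerSeries.expand 2 two_ne_zero pC + 4 * PowerSeries.expand 4 four_ne_zero pC)) := by
  have h := series44
  rw [e4t4S_eq, g4S_eq, g2S_eq] at h
  have h4 : (4 : PowerSeries ℂ) ≠ 0 := by
    intro h0
    have := congrArg constantCoeff h0
    rw [map_ofNat, map_zero] at this
    norm_num at this
  apply mul_left_cancel₀ h4
  linear_combination h

/-- **The level-4 identity** `Q - 16 Q₄ = 5 (P - 4 P₄) (P - 4 P₂ + 4 P₄)` in `ℤ⟦q⟧`. -/
theorem lev4_identity : e4Series - 16 * PowerSeries.expand 4 four_ne_zero e4Series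
    = 5 * ((H21_e2Series - 4 * PowerSeries.expand 4 four_ne_zero H21_e2Series)
      * (H21_e2Series - 4 * PowerSeries.expand 2 two_ne_zero H21_e2Series
        + 4 * PowerSeries.expand 4 four_ne_zero H21_e2Series)) := by
  apply PowerSeries.map_injective (Int.castRingHom ℂ) Int.cast_injective
  simp only [map_mul, map_sub, map_add, map_ofNat, PowerSeries.map_expand]
  rw [← H96.qExpansion_E₄_eq]
  exact lev4_identityC

end Fermat.Agent.S36.NU.H73

end
end
-- ==== END Fermat.Agent.S36.NU.H73_Lev4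

-- ==== BEGIN Fermat.Agent.S36.NU.H73_Theta
section

/-!
# The operator `θ = t d/dt` on Laurent series and the `θ`-identity (S36 / NU-B / THETA; helper73)

* `thetaL : Derivation R (LaurentSeries R) (LaurentSeries R)`, `(θ f)_n = n f_n`.
* `thetaL_qExpand : θ (f(t^N)) = N • (θ f)(t^N)`, `thetaL_coeffMap`, `thetaL_pow`,
  `thetaL_pow_char : θ (f ^ q) = 0` in characteristic `q`.
* `deltaZ q u = (u ^ q - u(t^q)) / q` for `u ∈ ℤ((t))` and
  `thetaL_deltaZ : θ δ = u^{q-1} θ u - (θ u)(t^q)`.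
* `thetaL_dbar : θ δ̄ = ū^{q-1} θ ū - (θ ū)^q` in `k((t))`, `char k = q`.
-/

set_option autoImplicit false

noncomputable section

open ModularCurve

namespace Fermat.Agent.S36.NU.H73

open Fermat.Agent.BAD.H73

section Theta

variable {R : Type*} [CommRing R]

/-- The series `θ f = ∑ n f_n t^n`. -/
def thetaFun (f : LaurentSeries R) : LaurentSeries R :=
  ⟨fun n => (n : R) * f.coeff n, f.isPWO_support.mono (fun n hn => by
      simp only [Function.mem_support, ne_eq] at hn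
      rw [HahnSeries.mem_support]
      intro h
      exact hn (by rw [h, mul_zero]))⟩

@[simp]
theorem thetaFun_coeff (f : LaurentSeries R) (n : ℤ) :
    (thetaFun f).coeff n = (n : R) * f.coeff n := rfl

theorem thetaFun_support (f : LaurentSeries R) : (thetaFun f).support ⊆ f.support := by
  intro n hn
  rw [HahnSeries.mem_support] at hn ⊢
  intro h
  exact hn (by rw [thetaFun_coeff, h, mul_zero])

theorem thetaFun_mul (f g : LaurentSeries R) :
    thetaFun (f * g) = f * thetaFun g + g * thetaFun f := by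
  ext n
  rw [HahnSeries.coeff_add, thetaFun_coeff, HahnSeries.coeff_mul,
    HahnSeries.coeff_mul_right' g.isPWO_support (thetaFun_support g),
    mul_comm g (thetaFun f),
    HahnSeries.coeff_mul_left' f.isPWO_support (thetaFun_support f),
    Finset.mul_sum, ← Finset.sum_add_distrib]
  refine Finset.sum_congr rfl fun ij hij => ?_
  rw [Finset.mem_antidiagonal] at hij
  rw [thetaFun_coeff, thetaFun_coeff, ← hij.2.2]
  push_cast
  ring

theorem algebraMap_eq_C (r : R) : algebraMap R (LaurentSeries R) r = HahnSeries.C r := by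
  have h1 : algebraMap R (PowerSeries R) r = PowerSeries.C r := by simp
  rw [HahnSeries.algebraMap_apply', h1, HahnSeries.ofPowerSeries_C]

theorem coeff_algebra_smul (r : R) (f : LaurentSeries R) (n : ℤ) :
    ((algebraMap R (LaurentSeries R) r) * f).coeff n = r * f.coeff n := by
  rw [algebraMap_eq_C, HahnSeries.C_mul_eq_smul, HahnSeries.coeff_smul, smul_eq_mul]

/-- **The derivation `θ = t d/dt`** of `R((t))`. -/
def thetaL : Derivation R (LaurentSeries R) (LaurentSeries R) where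
  toFun := thetaFun
  map_add' f g := by
    ext n
    simp only [thetaFun_coeff, HahnSeries.coeff_add]
    ring
  map_smul' r f := by
    ext n
    rw [RingHom.id_apply, HahnSeries.coeff_smul, thetaFun_coeff, thetaFun_coeff,
      Algebra.smul_def, coeff_algebra_smul, smul_eq_mul]
    ring
  map_one_eq_zero' := by
    ext n
    show (thetaFun (1 : LaurentSeries R)).coeff n = 0
    rw [thetaFun_coeff, HahnSeries.coeff_one]
    split_ifs with h
    · rw [h]; simp
    · simp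
  leibniz' f g := by
    show thetaFun (f * g) = f • thetaFun g + g • thetaFun f
    rw [smul_eq_mul, smul_eq_mul, thetaFun_mul]

@[simp]
theorem thetaL_coeff (f : LaurentSeries R) (n : ℤ) :
    (thetaL f).coeff n = (n : R) * f.coeff n := rfl

theorem thetaL_mul (f g : LaurentSeries R) :
    thetaL (f * g) = f * thetaL g + g * thetaL f := thetaFun_mul f g

theorem thetaL_pow (f : LaurentSeries R) (n : ℕ) :
    thetaL (f ^ n) = (n : LaurentSeries R) * f ^ (n - 1) * thetaL f := by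
  rw [Derivation.leibniz_pow, nsmul_eq_mul, smul_eq_mul, mul_assoc]

theorem thetaL_qExpand (N : ℕ) [NeZero N] (f : LaurentSeries R) :
    thetaL (qExpand R N f) = (N : LaurentSeries R) * qExpand R N (thetaL f) := by
  have hN : (N : LaurentSeries R) = HahnSeries.C (N : R) := by
    rw [map_natCast]
  ext n
  rw [thetaL_coeff, hN, HahnSeries.C_mul_eq_smul, HahnSeries.coeff_smul, smul_eq_mul]
  by_cases h : (N : ℤ) ∣ n
  · obtain ⟨m, rfl⟩ := h
    rw [qExpand_coeff_mul, qExpand_coeff_mul, thetaL_coeff]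
    push_cast
    ring
  · rw [qExpand_coeff_of_not_dvd N _ h, qExpand_coeff_of_not_dvd N _ h, mul_zero, mul_zero]

theorem thetaL_coeffMap {S : Type*} [CommRing S] (φ : R →+* S) (f : LaurentSeries R) :
    thetaL (coeffMap φ f) = coeffMap φ (thetaL f) := by
  ext n
  rw [thetaL_coeff, coeffMap_coeff, coeffMap_coeff, thetaL_coeff, map_mul, map_intCast]

theorem thetaL_single (n : ℤ) (r : R) :
    thetaL (HahnSeries.single n r) = HahnSeries.single n ((n : R) * r) := by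
  ext m
  rw [thetaL_coeff, HahnSeries.coeff_single, HahnSeries.coeff_single]
  split_ifs with h
  · rw [h]
  · rw [mul_zero]

theorem thetaL_C (r : R) : thetaL (HahnSeries.C r) = 0 := by
  rw [HahnSeries.C_apply, thetaL_single]
  simp

theorem thetaL_ofPowerSeries (P : PowerSeries R) :
    thetaL (HahnSeries.ofPowerSeries ℤ R P) =
      HahnSeries.ofPowerSeries ℤ R (PowerSeries.X * PowerSeries.derivative R P) := by
  ext n
  rw [thetaL_coeff]
  rcases le_or_gt 0 n with hn | hn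
  · lift n to ℕ using hn
    rw [HahnSeries.ofPowerSeries_apply_coeff, HahnSeries.ofPowerSeries_apply_coeff]
    rcases n with _ | n
    · simp
    · rw [mul_comm PowerSeries.X, PowerSeries.coeff_succ_mul_X, PowerSeries.coeff_derivative]
      push_cast
      ring
  · rw [ofPowerSeries_coeff_of_neg _ hn, ofPowerSeries_coeff_of_neg _ hn, mul_zero]

/-- `θ f = 0` iff `f` is a series in `t ^ q`-free coefficients: coefficientwise criterion. -/
theorem thetaL_eq_zero_iff (f : LaurentSeries R) :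
    thetaL f = 0 ↔ ∀ n : ℤ, (n : R) * f.coeff n = 0 := by
  constructor
  · intro h n
    rw [← thetaL_coeff, h, HahnSeries.coeff_zero]
  · intro h
    ext n
    rw [thetaL_coeff, h, HahnSeries.coeff_zero]

end Theta

section Delta

variable (q : ℕ) [Fact q.Prime]

/-- **Frobenius congruence** for integral Laurent series: `u ^ q ≡ u(t^q) mod q`. -/
theorem frob_congr (u : LaurentSeries ℤ) (n : ℤ) :
    (q : ℤ) ∣ (u ^ q - qExpand ℤ q u).coeff n := by
  have h : coeffMap (Int.castRingHom (ZMod q)) (u ^ q - qExpand ℤ q u) = 0 := by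
    rw [map_sub, map_pow, coeffMap_qExpand, Fermat.Agent.RED.H10.pow_char_eq q,
      ZMod.frobenius_zmod, coeffMap_id, sub_self]
  have h2 := congrArg (fun x => x.coeff n) h
  simp only [coeffMap_coeff, HahnSeries.coeff_zero, eq_intCast] at h2
  exact (ZMod.intCast_zmod_eq_zero_iff_dvd _ q).mp h2

/-- `δ = (u ^ q - u(t^q)) / q ∈ ℤ((t))`. -/
def deltaZ (u : LaurentSeries ℤ) : LaurentSeries ℤ :=
  ⟨fun n => (u ^ q - qExpand ℤ q u).coeff n / (q : ℤ),
    (u ^ q - qExpand ℤ q u).isPWO_support.mono (fun n hn => by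
      simp only [Function.mem_support, ne_eq] at hn
      rw [HahnSeries.mem_support]
      intro h
      exact hn (by rw [h, Int.zero_ediv]))⟩

theorem deltaZ_coeff (u : LaurentSeries ℤ) (n : ℤ) :
    (deltaZ q u).coeff n = (u ^ q - qExpand ℤ q u).coeff n / (q : ℤ) := rfl

theorem natCast_mul_coeff {R : Type*} [CommRing R] (N : ℕ) (f : LaurentSeries R) (n : ℤ) :
    ((N : LaurentSeries R) * f).coeff n = (N : R) * f.coeff n := by
  have hN : (N : LaurentSeries R) = HahnSeries.C (N : R) := by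
    rw [map_natCast]
  rw [hN, HahnSeries.C_mul_eq_smul, HahnSeries.coeff_smul, smul_eq_mul]

/-- `q δ = u ^ q - u(t^q)`. -/
theorem deltaZ_spec (u : LaurentSeries ℤ) :
    (q : LaurentSeries ℤ) * deltaZ q u = u ^ q - qExpand ℤ q u := by
  ext n
  rw [natCast_mul_coeff, deltaZ_coeff]
  exact Int.mul_ediv_cancel' (frob_congr q u n)

theorem qExpand_eq_sub (u : LaurentSeries ℤ) :
    qExpand ℤ q u = u ^ q - (q : LaurentSeries ℤ) * deltaZ q u := by
  rw [deltaZ_spec]; ring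

/-- **The `θ`-identity**, general coefficients: if `q δ = u ^ q - u(t^q)` in `R((t))`, `R` without
`q`-torsion, then `θ δ = u^{q-1} θ u - (θ u)(t^q)`. -/
theorem thetaL_of_spec {R : Type*} [CommRing R] (hq : ∀ x : R, (q : R) * x = 0 → x = 0)
    (u δ : LaurentSeries R) (h : (q : LaurentSeries R) * δ = u ^ q - qExpand R q u) :
    thetaL δ = u ^ (q - 1) * thetaL u - qExpand R q (thetaL u) := by
  have h := congrArg thetaL h
  rw [thetaL_mul, Derivation.map_natCast, mul_zero, add_zero, map_sub, thetaL_pow,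
    thetaL_qExpand, mul_assoc, ← mul_sub] at h
  ext n
  have hn := congrArg (fun x => x.coeff n) h
  simp only [natCast_mul_coeff] at hn
  rw [← sub_eq_zero, ← mul_sub] at hn
  exact sub_eq_zero.mp (hq _ hn)

/-- **The `θ`-identity over `ℤ`**: `θ δ = u^{q-1} θ u - (θ u)(t^q)`. -/
theorem thetaL_deltaZ (u : LaurentSeries ℤ) :
    thetaL (deltaZ q u) = u ^ (q - 1) * thetaL u - qExpand ℤ q (thetaL u) := by
  refine thetaL_of_spec q (fun x hx => ?_) u _ (deltaZ_spec q u)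
  have hq0 : ((q : ℕ) : ℤ) ≠ 0 := by
    exact_mod_cast (Fact.out : q.Prime).ne_zero
  exact (mul_eq_zero.mp hx).resolve_left hq0

variable {k : Type*} [CommRing k] [CharP k q]

omit [Fact q.Prime] in
/-- In characteristic `q`, `θ` kills `q`-th powers. -/
theorem thetaL_pow_char (f : LaurentSeries k) : thetaL (f ^ q) = 0 := by
  rw [thetaL_pow]
  have : ((q : ℕ) : LaurentSeries k) = 0 := by
    rw [← map_natCast (HahnSeries.C (Γ := ℤ) (R := k)), CharP.cast_eq_zero k q, map_zero]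
  rw [this, zero_mul, zero_mul]

/-- In characteristic `q`, `θ` kills series in `t ^ q`. -/
theorem thetaL_qExpand_char (f : LaurentSeries k) : thetaL (qExpand k q f) = 0 := by
  rw [thetaL_qExpand]
  have : ((q : ℕ) : LaurentSeries k) = 0 := by
    rw [← map_natCast (HahnSeries.C (Γ := ℤ) (R := k)), CharP.cast_eq_zero k q, map_zero]
  rw [this, zero_mul]

/-- For a series with coefficients in the prime field, `x ^ q = x(t^q)`. -/
theorem pow_eq_qExpand_of_int (x : LaurentSeries ℤ) :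
    (coeffMap (Int.castRingHom k) x) ^ q = qExpand k q (coeffMap (Int.castRingHom k) x) := by
  rw [Fermat.Agent.RED.H10.pow_char_eq q, coeffMap_coeffMap]
  congr 1
  exact coeffMap_congr (RingHom.ext_int _ _) x

omit [CharP k q] in
/-- **The `θ`-identity mod `q`** (general coefficients): for `φ : R →+* k`, `char k = q`,
`R` without `q`-torsion and `q δ = u ^ q - u(t^q)`:
`θ δ̄ = ū^{q-1} θ ū - (θ ū)(t^q)`. -/
theorem thetaL_dbar_of_spec {R : Type*} [CommRing R] (hq : ∀ x : R, (q : R) * x = 0 → x = 0)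
    (φ : R →+* k) (u δ : LaurentSeries R)
    (h : (q : LaurentSeries R) * δ = u ^ q - qExpand R q u) :
    thetaL (coeffMap φ δ) =
      (coeffMap φ u) ^ (q - 1) * thetaL (coeffMap φ u) - qExpand k q (thetaL (coeffMap φ u)) := by
  rw [thetaL_coeffMap, thetaL_of_spec q hq u δ h, map_sub, map_mul, map_pow, coeffMap_qExpand,
    ← thetaL_coeffMap]

/-- **THETA**: for `u ∈ ℤ((t))`, `δ = (u ^ q - u(t^q)) / q` and `ū, δ̄` their reductions in
`k((t))`, `char k = q`:  `θ δ̄ = ū^{q-1} θ ū - (θ ū)^q`. -/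
theorem thetaL_dbar (u : LaurentSeries ℤ) :
    thetaL (coeffMap (Int.castRingHom k) (deltaZ q u)) =
      (coeffMap (Int.castRingHom k) u) ^ (q - 1) * thetaL (coeffMap (Int.castRingHom k) u)
        - (thetaL (coeffMap (Int.castRingHom k) u)) ^ q := by
  rw [thetaL_coeffMap, thetaL_deltaZ, map_sub, map_mul, map_pow, coeffMap_qExpand,
    ← thetaL_coeffMap, thetaL_coeffMap (Int.castRingHom k) u,
    pow_eq_qExpand_of_int q (thetaL u)]

end Delta

end Fermat.Agent.S36.NU.H73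

end
end
-- ==== END Fermat.Agent.S36.NU.H73_Theta
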