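-- GENERATED (merged mirror, NOTES/tools/trim/merge3_helper67.py): 7 modules of the originals, bodies verbatim.
import Fermat.Agent.Zm.S35_L09_000
import Fermat.Agent.Zm.S35_L18_000
import Fermat.Agent.Zm.S44_L01_003
import Fermat.Agent.Zm.S35_L15_000
import Fermat.Agent.Zm.S35_L08_004
import Fermat.Agent.Zm.S35_L10_001
import Fermat.Agent.Zm.S35_L12_000
import Fermat.Agent.Zm.S35_L03_002
import Fermat.Agent.Zm.S35_L01_002
import Fermat.Agent.Zm.S35_L03_005

-- ==== BEGIN Fermat.Agent.S36.NU.H79_Tot3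
section

/-!
# S36 / NU-B, leaf LOC3-ABS (helper79): conservation for several valuations with multiplicities

Abstract setting (modular: level `q² M'`, the three Gauss-type valuations `v₂₀`, `v₁₁`, `v₀₂`
with multiplicities `1`, `q - 1`, `1`):

* `L / K` a function field with its places (modular: `L = F_N · ℚ̄`);
* `L₀` a field with a homomorphism to `L` (`Algebra L₀ L`; modular: the functions with
  coefficients in `K^ur = ℚ̄^I`; `L₀ = L` is allowed);
* valuation rings `V i` of `L₀` (`i : ι`) with residue maps `red i : V i → E i`;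
* multiplicities `m i > 0`, a set of points `Z` (the points of the curve of lower level), the
  reduction `ρ : Place K L → Z` and the point `pt i z` of the `i`-th component over `z`;
* the law of TOTAL conservation `tot` for functions which become units of `V i` after
  multiplication by constants `c i`:
  `∑_{ρ P = z} ord_P g = ∑ i, m i * ord_{pt i z} (red i (c i * g))`.

Results (from `tot` alone), for `f` integral for all valuations:
* `TotN.regAt` (REG): no pole of `f` on the fibre of `z` ⟹ all reductions are regular at `z`;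
* `TotN.ord_eq_zero` (UNIT): `f` a unit for all valuations without zero or pole on the fibre of
  `z` ⟹ all reductions have order `0` at `z`;
* `TotN.ord_eq_zero_of_not_vanAt` (NOZERO): no pole on the fibre and no reduction vanishes at `z`
  ⟹ `f` has no zero on the fibre;
* `TotN.fsum_pos_of_vanAt`, `TotN.exists_vanAt` (VAL, first form).
-/

set_option autoImplicit false
set_option linter.style.haveILetI false

noncomputable section

open AlgebraicCurve

attribute [local instance] Classical.propDecidable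

namespace Fermat.Agent.S36.NU.H79

open Fermat.Agent.RED.H17 Fermat.Agent.RED Fermat.Agent.BAD.H79

/-- **Total conservation datum with several components and multiplicities.** -/
structure TotN (K L₀ L k ι Z : Type*) (E : ι → Type*) [Field K] [Field L₀] [Field L]
    [Algebra K L] [Algebra L₀ L] [Field k] [Fintype ι] [∀ i, Field (E i)]
    [∀ i, Algebra k (E i)] where
  /-- the valuation rings -/
  V : ι → ValuationSubring L₀
  /-- the residue maps -/
  red : ∀ i, V i →+* E i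
  red_eq_zero_iff : ∀ (i : ι) (u : V i), red i u = 0 ↔ u ∈ IsLocalRing.maximalIdeal (V i)
  /-- the multiplicities of the components -/
  m : ι → ℕ
  m_pos : ∀ i, 0 < m i
  /-- the reduction map to the points of the curve of lower level -/
  ρ : Place K L → Z
  /-- the point of the `i`-th component over a point of the curve of lower level -/
  pt : ∀ i, Z → Place k (E i)
  /-- constants of the residue field lift to constants of `L₀` -/
  const_lift : ∀ a : k, ∃ c : L₀, (∃ c' : K, algebraMap L₀ L c = algebraMap K L c') ∧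
    ∀ i, ∃ h : c ∈ V i, red i ⟨c, h⟩ = algebraMap k (E i) a
  /-- TOTAL conservation -/
  tot : ∀ (g : L₀) (c : ι → L₀),
    (∀ i, ∃ c' : K, c' ≠ 0 ∧ algebraMap L₀ L (c i) = algebraMap K L c') →
    ∀ h : ∀ i, c i * g ∈ V i, (∀ i, red i ⟨_, h i⟩ ≠ 0) →
    ∀ D : Divisor K L, (∀ P, D P = P.ord (algebraMap L₀ L g)) → ∀ z : Z,
      Finsupp.mapDomain ρ D z = ∑ i, (m i : ℤ) * (pt i z).ord (red i ⟨_, h i⟩)

namespace TotN

variable {K L₀ L k ι Z : Type*} {E : ι → Type*} [Field K] [Field L₀] [Field L]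
  [Algebra K L] [Algebra L₀ L] [Field k] [Fintype ι] [∀ i, Field (E i)]
  [∀ i, Algebra k (E i)] (T : TotN K L₀ L k ι Z E)

/-- The fibre of `ρ` over `z`. -/
def fib (z : Z) : Set (Place K L) := {P | T.ρ P = z}

/-- Total conservation for a function which is a unit for all valuations. -/
theorem tot_unit (hP : HasPrincipalDivisors K L) {g : L₀} (h : ∀ i, g ∈ T.V i)
    (h0 : ∀ i, T.red i ⟨g, h i⟩ ≠ 0) (z : Z) :
    fsum (T.fib z) (dv hP (algebraMap L₀ L g))
      = ∑ i, (T.m i : ℤ) * (T.pt i z).ord (T.red i ⟨g, h i⟩) := by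
  have h1 : ∀ i, (fun _ : ι => (1 : L₀)) i * g ∈ T.V i := fun i => by
    rw [one_mul]; exact h i
  have h2 : ∀ i, T.red i ⟨_, h1 i⟩ ≠ 0 := fun i => by
    have e : (⟨(fun _ : ι => (1 : L₀)) i * g, h1 i⟩ : T.V i) = ⟨g, h i⟩ :=
      Subtype.ext (one_mul g)
    rw [e]; exact h0 i
  have key := T.tot g (fun _ => 1)
    (fun _ => ⟨1, one_ne_zero, by rw [map_one, map_one]⟩) h1 h2
    (dv hP (algebraMap L₀ L g)) (fun P => dv_apply hP _ P) z
  rw [mapDomain_eq_fsum] at key
  rw [show fib T z = {P | T.ρ P = z} from rfl, key]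
  refine Finset.sum_congr rfl fun i _ => ?_
  have e : (⟨(fun _ : ι => (1 : L₀)) i * g, h1 i⟩ : T.V i) = ⟨g, h i⟩ :=
    Subtype.ext (one_mul g)
  rw [e]

/-- A subsingleton set of "bad constants". -/
private theorem finite_bad' {F' : Type*} [Field F'] [Algebra k F'] (Q : Place k F') (h : F') :
    ({a : k | h = algebraMap k F' a} ∪ {a : k | VanAt Q (h - algebraMap k F' a)}).Finite := by
  refine Set.Finite.union (Set.Subsingleton.finite ?_) (Set.Subsingleton.finite ?_)
  · intro a ha b hb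
    rw [Set.mem_ofPred_eq] at ha hb
    exact (algebraMap k F').injective (ha.symm.trans hb)
  · intro a ha b hb
    exact value_unique Q ha hb

/-- A constant `a` of the residue field which is not a value of any reduction of `f`, with a
lift `c`: then `f - c` is a unit for all valuations whose reductions do not vanish at `z`. -/
theorem exists_generic [Infinite k] (z : Z) {f : L₀} (hf : ∀ i, f ∈ T.V i) :
    ∃ (a : k) (c : L₀) (_ : ∃ c' : K, algebraMap L₀ L c = algebraMap K L c')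
      (hc : ∀ i, c ∈ T.V i),
      (∀ i, T.red i ⟨c, hc i⟩ = algebraMap k (E i) a) ∧
      (∀ i, T.red i ⟨f, hf i⟩ ≠ algebraMap k (E i) a) ∧
      ∀ i, ¬ VanAt (T.pt i z) (T.red i ⟨f, hf i⟩ - algebraMap k (E i) a) := by
  have hfin : (⋃ i : ι, ({a : k | T.red i ⟨f, hf i⟩ = algebraMap k (E i) a} ∪
      {a : k | VanAt (T.pt i z) (T.red i ⟨f, hf i⟩ - algebraMap k (E i) a)})).Finite :=
    Set.finite_iUnion fun i => finite_bad' (T.pt i z) (T.red i ⟨f, hf i⟩)
  obtain ⟨a, ha⟩ := hfin.exists_notMem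
  simp only [Set.mem_iUnion, Set.mem_union, Set.mem_ofPred_eq, not_exists, not_or] at ha
  obtain ⟨c, hcK, hc⟩ := T.const_lift a
  refine ⟨a, c, hcK, fun i => (hc i).choose, fun i => (hc i).choose_spec,
    fun i => (ha i).1, fun i => (ha i).2⟩

/-- **REG**: if `f` is integral for all valuations and has no pole on the fibre of `z`, then
all reductions of `f` are regular at `z`. -/
theorem regAt [Infinite k] (hP : HasPrincipalDivisors K L) {z : Z} {f : L₀}
    (hf : ∀ i, f ∈ T.V i) (hreg : ∀ P, T.ρ P = z → RegAt P (algebraMap L₀ L f)) (i : ι) :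
    RegAt (T.pt i z) (T.red i ⟨f, hf i⟩) := by
  obtain ⟨a, c, ⟨c', hc'⟩, hc, hcr, hne, hnv⟩ := T.exists_generic z hf
  have hg : ∀ j, f - c ∈ T.V j := fun j => (T.V j).sub_mem (hf j) (hc j)
  have hgr : ∀ j, T.red j ⟨f - c, hg j⟩ = T.red j ⟨f, hf j⟩ - algebraMap k (E j) a := by
    intro j
    have e : (⟨f - c, hg j⟩ : T.V j) = ⟨f, hf j⟩ - ⟨c, hc j⟩ := rfl
    rw [e, map_sub, hcr]
  have hg0 : ∀ j, T.red j ⟨f - c, hg j⟩ ≠ 0 := fun j => by
    rw [hgr]; exact sub_ne_zero.mpr (hne j)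
  have htot := T.tot_unit hP hg hg0 z
  have hnn : 0 ≤ fsum (T.fib z) (dv hP (algebraMap L₀ L (f - c))) := by
    refine fsum_nonneg fun P hPz => ?_
    rw [dv_apply, map_sub, hc']
    exact ((hreg P hPz).sub (regAt_algebraMap P c')).ord_nonneg
  have hle : ∀ j, (T.pt j z).ord (T.red j ⟨f - c, hg j⟩) ≤ 0 := by
    intro j
    by_contra hcon
    push Not at hcon
    exact hnv j (by rw [← hgr]; exact vanAt_of_ord_pos hcon)
  have hterm : ∀ j ∈ Finset.univ,
      (T.m j : ℤ) * (T.pt j z).ord (T.red j ⟨f - c, hg j⟩) ≤ 0 := fun j _ =>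
    mul_nonpos_of_nonneg_of_nonpos (Int.natCast_nonneg _) (hle j)
  have hsum : ∑ j, (T.m j : ℤ) * (T.pt j z).ord (T.red j ⟨f - c, hg j⟩) = 0 :=
    le_antisymm (Finset.sum_nonpos hterm) (by rw [← htot]; exact hnn)
  have hz := (Finset.sum_eq_zero_iff_of_nonpos hterm).mp hsum i (Finset.mem_univ i)
  have hmi : (T.m i : ℤ) ≠ 0 := by exact_mod_cast (T.m_pos i).ne'
  have hoi : (T.pt i z).ord (T.red i ⟨f - c, hg i⟩) = 0 :=
    (mul_eq_zero.mp hz).resolve_left hmi
  have e : T.red i ⟨f, hf i⟩ = T.red i ⟨f - c, hg i⟩ + algebraMap k (E i) a := by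
    rw [hgr]; ring
  rw [e]
  exact (regAt_of_ord_nonneg (by omega)).add (regAt_algebraMap _ a)

/-- For `f` integral without pole on the fibre: the orders of the non-zero reductions at `z`
are non-negative. -/
theorem ord_nonneg [Infinite k] (hP : HasPrincipalDivisors K L) {z : Z} {f : L₀}
    (hf : ∀ i, f ∈ T.V i) (hreg : ∀ P, T.ρ P = z → RegAt P (algebraMap L₀ L f)) (i : ι) :
    0 ≤ (T.pt i z).ord (T.red i ⟨f, hf i⟩) :=
  (T.regAt hP hf hreg i).ord_nonneg

/-- **UNIT**: a unit for all valuations without zero or pole on the fibre of `z` has reductions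
of order `0` at `z`. -/
theorem ord_eq_zero [Infinite k] (hP : HasPrincipalDivisors K L) {z : Z} {f : L₀}
    (hf : ∀ i, f ∈ T.V i) (hf0 : ∀ i, T.red i ⟨f, hf i⟩ ≠ 0)
    (hord : ∀ P, T.ρ P = z → P.ord (algebraMap L₀ L f) = 0) (i : ι) :
    (T.pt i z).ord (T.red i ⟨f, hf i⟩) = 0 := by
  have hreg : ∀ P, T.ρ P = z → RegAt P (algebraMap L₀ L f) := fun P hPz =>
    regAt_of_ord_nonneg (by rw [hord P hPz])
  have htot := T.tot_unit hP hf hf0 z
  have h0 : fsum (T.fib z) (dv hP (algebraMap L₀ L f)) = 0 :=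
    fsum_eq_zero fun P hPz => by rw [dv_apply]; exact hord P hPz
  rw [h0] at htot
  have hterm : ∀ j ∈ Finset.univ,
      0 ≤ (T.m j : ℤ) * (T.pt j z).ord (T.red j ⟨f, hf j⟩) := fun j _ =>
    mul_nonneg (Int.natCast_nonneg _) (T.ord_nonneg hP hf hreg j)
  have hz := (Finset.sum_eq_zero_iff_of_nonneg hterm).mp htot.symm i (Finset.mem_univ i)
  have hmi : (T.m i : ℤ) ≠ 0 := by exact_mod_cast (T.m_pos i).ne'
  exact (mul_eq_zero.mp hz).resolve_left hmi

/-- **NOZERO**: if `f` is integral for all valuations, has no pole on the fibre of `z` and no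
reduction of `f` vanishes at `z`, then `f` has no zero on the fibre of `z`. -/
theorem ord_eq_zero_of_not_vanAt (hP : HasPrincipalDivisors K L) {z : Z} {f : L₀}
    (hf : ∀ i, f ∈ T.V i) (hreg : ∀ P, T.ρ P = z → RegAt P (algebraMap L₀ L f))
    (hnv : ∀ i, ¬ VanAt (T.pt i z) (T.red i ⟨f, hf i⟩)) {P : Place K L} (hPz : T.ρ P = z) :
    P.ord (algebraMap L₀ L f) = 0 := by
  have hf0 : ∀ i, T.red i ⟨f, hf i⟩ ≠ 0 := fun i h0 => hnv i (by rw [h0]; exact vanAt_zero _)
  have htot := T.tot_unit hP hf hf0 z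
  have hle : ∀ j, (T.pt j z).ord (T.red j ⟨f, hf j⟩) ≤ 0 := by
    intro j
    by_contra hcon
    push Not at hcon
    exact hnv j (vanAt_of_ord_pos hcon)
  have hterm : ∀ j ∈ Finset.univ,
      (T.m j : ℤ) * (T.pt j z).ord (T.red j ⟨f, hf j⟩) ≤ 0 := fun j _ =>
    mul_nonpos_of_nonneg_of_nonpos (Int.natCast_nonneg _) (hle j)
  have h0 : fsum (T.fib z) (dv hP (algebraMap L₀ L f)) ≤ 0 := by
    rw [htot]; exact Finset.sum_nonpos hterm
  have := eq_zero_of_fsum_eq_zero (A := T.fib z) (D := dv hP (algebraMap L₀ L f))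
    (fun P' hP' => by rw [dv_apply]; exact (hreg P' hP').ord_nonneg) h0 hPz
  rwa [dv_apply] at this

/-- If `f` (integral, without pole on the fibre, unit for all valuations) vanishes at a place
of the fibre of `z`, then one of its reductions vanishes at `z`. -/
theorem exists_vanAt (hP : HasPrincipalDivisors K L) {z : Z} {f : L₀}
    (hf : ∀ i, f ∈ T.V i) (hreg : ∀ P, T.ρ P = z → RegAt P (algebraMap L₀ L f))
    {P : Place K L} (hPz : T.ρ P = z) (hfP : VanAt P (algebraMap L₀ L f))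
    (hne : algebraMap L₀ L f ≠ 0) : ∃ i, VanAt (T.pt i z) (T.red i ⟨f, hf i⟩) := by
  by_contra hcon
  push Not at hcon
  have := T.ord_eq_zero_of_not_vanAt hP hf hreg hcon hPz
  have hpos := hfP.ord_pos hne
  omega

end TotN

end Fermat.Agent.S36.NU.H79

end
end
-- ==== END Fermat.Agent.S36.NU.H79_Tot3

-- ==== BEGIN Fermat.Agent.S36.NU.H81_NUCore
section
attribute [local instance 10000] SubalgebraClass.toAlgebra
attribute [local instance 10000] HahnSeries.powerSeriesAlgebra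

/-!
# S36 / NU-B, leaf KD-NU (helper81): the Kummer form `Stmt_NUCore` of (NU) and its level descent

`Stmt_NUCore M q p` (`q ∥ M`, `p ≠ q` primes): there are a valuation ring `A` of `ℚ̄` over `q` and
`c` such that for every `m` and every function `f ≠ 0` of level `M q` with

* `p ^ m ∣ div f`,
* `f` fixed by the inertia group of `A` (coefficientwise action `galF`), leading coefficient `1`,
* the push-forwards of `div f` along the two degeneracy maps to level `M` are `p ^ m · div g`,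
  `p ^ m · div g'`,

the function `f ^ (p ^ c)` is a `p ^ m`-th power in `F_{M q} · ℚ̄`.

* `torsNU_of_nuCore : Stmt_NUCore M q p → Stmt_TorsNU M q p` (Hilbert 90 descent `stmt_NUB0`);
* `nuCore_of_K : Stmt_NUCoreK M q → Stmt_NUCore M q p`: the same with a fixed exponent `K ≠ 0`
  (for instance `K = (q² - 1)²`) and every `n` prime to `q`;
* `nuCore_descend_gen : Stmt_NUCore (r * M) q p → Stmt_NUCore M q p` for `r ∣ 36`, `q ∤ r`, given
  the base change of the norms `Stmt_NormUpNU` (helper44: `S36/NU/H44_NormBCNU.lean`);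
* `nuCore_all`, `torsNU_all`: from the tame levels (`4 ∣ M` for `q` odd, `9 ∣ M` for `q = 2`:
  then `X₀(M / q)` has no elliptic points).
-/

set_option autoImplicit false
set_option linter.style.haveILetI false
set_option linter.unusedSectionVars false
set_option maxHeartbeats 1000000

noncomputable section

namespace Fermat.Agent.S36.NU.H81

open AlgebraicCurve ModularCurve Fermat.Agent.S24 Fermat.Agent.Lib.HeckeComm
  Fermat.Agent.S36.H44 Fermat.Agent.BAD Fermat.Agent.S35.H89 Fermat.Agent.S35.H44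

local notation "Kb" => AlgebraicClosure ℚ

/-- **Kummer form of (NU)** at `(M, q, p)`. -/
def Stmt_NUCore (M q p : ℕ) [NeZero M] [NeZero q] : Prop :=
  q.Prime → q ∣ M → ¬ q ^ 2 ∣ M → p.Prime → q ≠ p →
  ∃ A : ValuationSubring Kb, A.LiesOverPrime q ∧ ∃ c : ℕ,
    ∀ (m : ℕ) (f : ↥(FNbar (M * q))), f ≠ 0 →
      (∀ P : Place Kb ↥(FNbar (M * q)), ((p ^ m : ℕ) : ℤ) ∣ P.ord f) →
      (∀ σ ∈ A.inertiaSubgroupIn ℚ, galF (M * q) σ • f = f) →
      (f : LaurentSeries Kb).leadingCoeff = 1 →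
    ∀ (hα : HeckeAlphaBarIntegral Kb M q) (hβ : HeckeBetaBarIntegral Kb M q)
      (D : Divisor Kb ↥(FNbar (M * q))), (∀ P, D P = P.ord f) →
      (∃ g : ↥(FNbar M), g ≠ 0 ∧ ∀ Q : Place Kb ↥(FNbar M),
        Divisor.pushforwardAlong (heckeAlphaBar Kb M q) hα D Q = (p ^ m : ℕ) * Q.ord g) →
      (∃ g : ↥(FNbar M), g ≠ 0 ∧ ∀ Q : Place Kb ↥(FNbar M),
        Divisor.pushforwardAlong (heckeBetaBar Kb M q) hβ D Q = (p ^ m : ℕ) * Q.ord g) →
      ∃ t : ↥(FNbar (M * q)), t ^ (p ^ m) = f ^ (p ^ c)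

/-- **Kummer form of (NU) with a fixed exponent** `K ≠ 0`, for every `n` prime to `q`. -/
def Stmt_NUCoreK (M q : ℕ) [NeZero M] [NeZero q] : Prop :=
  q.Prime → q ∣ M → ¬ q ^ 2 ∣ M →
  ∃ A : ValuationSubring Kb, A.LiesOverPrime q ∧ ∃ K : ℕ, K ≠ 0 ∧
    ∀ (n : ℕ), ¬ q ∣ n → ∀ (f : ↥(FNbar (M * q))), f ≠ 0 →
      (∀ P : Place Kb ↥(FNbar (M * q)), (n : ℤ) ∣ P.ord f) →
      (∀ σ ∈ A.inertiaSubgroupIn ℚ, galF (M * q) σ • f = f) →
      (f : LaurentSeries Kb).leadingCoeff = 1 →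
    ∀ (hα : HeckeAlphaBarIntegral Kb M q) (hβ : HeckeBetaBarIntegral Kb M q)
      (D : Divisor Kb ↥(FNbar (M * q))), (∀ P, D P = P.ord f) →
      (∃ g : ↥(FNbar M), g ≠ 0 ∧ ∀ Q : Place Kb ↥(FNbar M),
        Divisor.pushforwardAlong (heckeAlphaBar Kb M q) hα D Q = n * Q.ord g) →
      (∃ g : ↥(FNbar M), g ≠ 0 ∧ ∀ Q : Place Kb ↥(FNbar M),
        Divisor.pushforwardAlong (heckeBetaBar Kb M q) hβ D Q = n * Q.ord g) →
      ∃ t : ↥(FNbar (M * q)), t ^ n = f ^ K

/-- In a field: if `f ^ (a * b)` is an `n`-th power and `b` is prime to `n`, then `f ^ a` is an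
`n`-th power. -/
theorem exists_pow_eq_of_coprime {F : Type*} [Field F] (f t : F) (hf : f ≠ 0) (n a b : ℕ)
    (hco : Nat.Coprime b n) (h : t ^ n = f ^ (a * b)) : ∃ s : F, s ^ n = f ^ a := by
  obtain ⟨u, v, huv⟩ : IsCoprime (b : ℤ) (n : ℤ) := Nat.isCoprime_iff_coprime.mpr hco
  refine ⟨t ^ u * f ^ ((a : ℤ) * v), ?_⟩
  have h' : t ^ (n : ℤ) = f ^ ((a : ℤ) * b) := by
    rw [zpow_natCast, h, ← zpow_natCast]
    push_cast
    rfl
  calc (t ^ u * f ^ ((a : ℤ) * v)) ^ n
      = (t ^ (n : ℤ)) ^ u * f ^ ((a : ℤ) * v * n) := by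
        rw [mul_pow, ← zpow_natCast (t ^ u), ← zpow_mul, ← zpow_natCast (f ^ ((a : ℤ) * v)),
          ← zpow_mul, mul_comm u, zpow_mul]
    _ = f ^ ((a : ℤ) * b * u + a * v * n) := by rw [h', ← zpow_mul, ← zpow_add₀ hf]
    _ = f ^ (a : ℤ) := by
        congr 1
        linear_combination (a : ℤ) * huv
    _ = f ^ a := zpow_natCast f a

/-- **The Kummer form with a fixed exponent implies the `p`-primary Kummer form.** -/
theorem nuCore_of_K (M q p : ℕ) [NeZero M] [NeZero q] (h : Stmt_NUCoreK M q) :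
    Stmt_NUCore M q p := by
  intro hq hqM hq2 hp hqp
  obtain ⟨A, hA, K, hK0, hK⟩ := h hq hqM hq2
  -- `K = p ^ c * K'`, `p ∤ K'`
  obtain ⟨c, K', hK', hKeq⟩ := Nat.exists_eq_pow_mul_and_not_dvd hK0 p hp.ne_one
  refine ⟨A, hA, c, ?_⟩
  intro m f hf0 hdiv hI hlc hα hβ D hD hDα hDβ
  have hqn : ¬ q ∣ p ^ m := by
    intro hd
    have := hq.dvd_of_dvd_pow hd
    exact hqp ((Nat.prime_dvd_prime_iff_eq hq hp).mp this)
  obtain ⟨t, ht⟩ := hK (p ^ m) hqn f hf0 hdiv hI hlc hα hβ D hD hDα hDβ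
  rw [hKeq] at ht
  refine exists_pow_eq_of_coprime f t hf0 (p ^ m) (p ^ c) K' ?_ ht
  exact Nat.Coprime.pow_right m ((Nat.Prime.coprime_iff_not_dvd hp).mpr hK').symm

/-- **`Stmt_TorsNU` from the Kummer form** (Hilbert 90 descent B0 of helper61). -/
theorem torsNU_of_nuCore (M q p : ℕ) [NeZero M] [NeZero q] (hS : Stmt_NUCore M q p) :
    Stmt_TorsNU M q p := by
  intro hq hqM hq2 hp hqp
  obtain ⟨A, hA, c, hc⟩ := hS hq hqM hq2 hp hqp
  refine ⟨A, hA, c, ?_⟩
  intro x hx hnew hI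
  obtain ⟨m, hm⟩ := hx
  obtain ⟨D, h, hh0, rfl, hDh, -, hhI, hlc, -⟩ :=
    Fermat.Agent.S36.H61.stmt_NUB0 (M * q) (A.inertiaSubgroupIn ℚ) (p ^ m) x hm hI
  obtain ⟨hpa, hpb⟩ := (isQNew_iff M q _).mp hnew
  have hDα := (pic0Push_mk_eq_zero_iff _ _ _ _ D).mp hpa
  have hDβ := (pic0Push_mk_eq_zero_iff _ _ _ _ D).mp hpb
  set n : ℕ := p ^ m with hn
  have hn0 : n ≠ 0 := pow_ne_zero _ hp.ne_zero
  have hnZ : (n : ℤ) ≠ 0 := by exact_mod_cast hn0
  -- the divisor of `h`
  set Df : Divisor Kb ↥(FNbar (M * q)) := (n : ℤ) • (D : Divisor Kb ↥(FNbar (M * q))) with hDf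
  have hDf' : ∀ P, Df P = P.ord h := by
    intro P
    rw [← hDh P, hDf]
    simp
  have hdiv : ∀ P : Place Kb ↥(FNbar (M * q)), (n : ℤ) ∣ P.ord h :=
    fun P => ⟨_, (hDh P).symm⟩
  have hpush : ∀ (φ : ↥(FNbar M) →ₐ[Kb] ↥(FNbar (M * q))) (hφ : φ.toRingHom.IsIntegral),
      (Divisor.pushforwardAlong φ hφ (D : Divisor Kb ↥(FNbar (M * q)))).IsPrincipal →
      ∃ g : ↥(FNbar M), g ≠ 0 ∧ ∀ Q : Place Kb ↥(FNbar M),
        Divisor.pushforwardAlong φ hφ Df Q = n * Q.ord g := by
    rintro φ hφ ⟨g, hg0, hg⟩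
    refine ⟨g, hg0, fun Q => ?_⟩
    rw [hDf, map_zsmul, Finsupp.smul_apply, smul_eq_mul, hg Q]
  obtain ⟨t, ht⟩ := hc m h hh0 hdiv hhI hlc (alpha_integral M q) (beta_integral M q) Df hDf'
    (hpush _ _ hDα) (hpush _ _ hDβ)
  have ht0 : t ≠ 0 := by
    rintro rfl
    rw [zero_pow hn0] at ht
    exact pow_ne_zero _ hh0 ht.symm
  rw [← pic0_mk_nsmul, Fermat.Agent.S36.H44.pic0_mk_eq_zero_iff]
  refine ⟨t, ht0, fun P => ?_⟩
  have h1 : (n : ℤ) * P.ord t = (p ^ c : ℕ) * P.ord h := by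
    rw [← Fermat.Agent.RED.H17.ord_pow, ← Fermat.Agent.RED.H17.ord_pow, ht]
  rw [← hDh P] at h1
  apply mul_left_cancel₀ hnZ
  rw [h1]
  simp only [AddSubgroup.coe_nsmul, Finsupp.smul_apply, nsmul_eq_mul]
  push_cast
  ring

/-- **Base change of the norms** along `α` and `β` in the squares `F_M → F_{Mq}`,
`F_{rM} → F_{rMq}` for `q ∣ M`, `q ∤ r` (both degrees are `q`).  Leaf NORM-BC-NU (helper44). -/
def Stmt_NormUpNU : Prop :=
  ∀ (M q r : ℕ) [NeZero M] [NeZero q] [NeZero r], q.Prime → q ∣ M → ¬ q ∣ r →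
    (∀ x : FN (M * q), inclLo M r (normAlongHom (heckeAlphaBar Kb M q).toRingHom x)
      = normAlongHom (heckeAlphaBar Kb (r * M) q).toRingHom (inclUp M q r x)) ∧
    (∀ x : FN (M * q), inclLo M r (normAlongHom (heckeBetaBar Kb M q).toRingHom x)
      = normAlongHom (heckeBetaBar Kb (r * M) q).toRingHom (inclUp M q r x))

/-- **KD-NU**: the Kummer form of (NU) descends from level `r M q` to level `M q`
(`r ∣ 36`, `q ∤ r`). -/
theorem nuCore_descend_gen (hBC : Stmt_NormUpNU) (M q p r : ℕ) [NeZero M] [NeZero q] [NeZero r]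
    (hr36 : r ∣ 36) (hqr : ¬ q ∣ r) (h : Stmt_NUCore (r * M) q p) : Stmt_NUCore M q p := by
  intro hq hqM hq2 hp hqp
  have hqrM : q ∣ r * M := Dvd.dvd.mul_left hqM r
  have hq2rM : ¬ q ^ 2 ∣ r * M := by
    intro hd
    have hco : Nat.Coprime (q ^ 2) r :=
      Nat.Coprime.pow_left 2 ((Nat.Prime.coprime_iff_not_dvd hq).mpr hqr)
    exact hq2 (hco.dvd_of_dvd_mul_left hd)
  obtain ⟨A, hA, c, hc⟩ := h hq hqrM hq2rM hp hqp
  obtain ⟨hbα, hbβ⟩ := hBC M q r hq hqM hqr
  refine ⟨A, hA, c, ?_⟩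
  intro m f hf0 hdiv hI hlc hαI hβI D hD hDα hDβ
  obtain ⟨g, hg0, hg⟩ := hDα
  obtain ⟨g', hg'0, hg'⟩ := hDβ
  set n : ℕ := p ^ m with hn
  have hn0 : 0 < n := pow_pos hp.pos m
  -- the function at the upper level
  have hf'0 : inclUp M q r f ≠ 0 := fun h0 =>
    hf0 ((inclUp M q r).toRingHom.injective (by simpa using h0))
  set f' : FN (r * M * q) := inclUp M q r f with hf'
  have hdiv' : ∀ P' : Place Kb (FN (r * M * q)), (n : ℤ) ∣ P'.ord f' := by
    intro P'
    rw [hf', Place.ord_restrictAlong (inclUp M q r) (inclUp_integral M q r)]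
    exact Dvd.dvd.mul_left (hdiv _) _
  have hI' : ∀ σ ∈ A.inertiaSubgroupIn ℚ, galF (r * M * q) σ • f' = f' := by
    intro σ hσ
    rw [hf', ← inclUp_galF, hI σ hσ]
  have hlc' : (f' : LaurentSeries Kb).leadingCoeff = 1 := by
    rw [hf', coe_inclUp]
    exact hlc
  haveI := hasPrincipalDivisors_FN (r * M * q)
  obtain ⟨D', hD', -⟩ := HasPrincipalDivisors.exists_divisor (K := Kb) f' hf'0
  have hinj : ∀ x : FN M, x ≠ 0 → inclLo M r x ≠ 0 := fun x hx h0 =>
    hx ((inclLo M r).toRingHom.injective (by simpa using h0))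
  obtain ⟨t', ht'⟩ := hc m f' hf'0 hdiv' hI' hlc' (alpha_integral (r * M) q)
    (beta_integral (r * M) q) D' hD'
    ⟨inclLo M r g, hinj g hg0, fun Q' =>
      push_up M q r (heckeAlphaBar Kb M q) (heckeAlphaBar Kb (r * M) q) hαI
        (alpha_integral (r * M) q) hbα n f hf0 D hD g hg D' hD' Q'⟩
    ⟨inclLo M r g', hinj g' hg'0, fun Q' =>
      push_up M q r (heckeBetaBar Kb M q) (heckeBetaBar Kb (r * M) q) hβI
        (beta_integral (r * M) q) hbβ n f hf0 D hD g' hg' D' hD' Q'⟩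
  -- the right hand side at level `M q`
  have hdivR : ∀ P : Place Kb (FN (M * q)), (n : ℤ) ∣ P.ord (f ^ (p ^ c)) := by
    intro P
    rw [Fermat.Agent.RED.H17.ord_pow]
    exact Dvd.dvd.mul_left (hdiv P) _
  have hM36 : r * M * q ∣ 36 * (M * q) := by
    obtain ⟨c, hc⟩ := hr36
    exact ⟨c, by rw [hc]; ring⟩
  refine Fermat.Agent.RED.KD.H22.stmt_KD (M * q) (r * M * q) n (dvd_up M q r) hM36 hn0
    (f ^ (p ^ c)) hdivR ⟨(t' : LaurentSeries Kb), t'.2, ?_⟩
  have h3 := congrArg (Subtype.val : FN (r * M * q) → LaurentSeries Kb) ht'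
  have h4 : ((t' : FN (r * M * q)) : LaurentSeries Kb) ^ n
      = ((f' ^ (p ^ c) : FN (r * M * q)) : LaurentSeries Kb) := h3
  rw [h4, hf', ← map_pow, coe_inclUp]

/-- The **tame levels** for (NU): `4 ∣ M` if `q` is odd, `9 ∣ M` if `q = 2`.  For `M = M' q`,
`q ∤ M'`, the curve `X₀(M')` then has no elliptic points (and at least three cusps). -/
def TameNU (M q : ℕ) : Prop := (q ≠ 2 ∧ 4 ∣ M) ∨ (q = 2 ∧ 9 ∣ M)

/-- **The Kummer form of (NU) at every `(M, q, p)` from the tame levels.** -/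
theorem nuCore_all (hBC : Stmt_NormUpNU) (p : ℕ)
    (h : ∀ (M q : ℕ) [NeZero M] [NeZero q], TameNU M q → Stmt_NUCore M q p)
    (M q : ℕ) [NeZero M] [NeZero q] : Stmt_NUCore M q p := by
  intro hq hqM hq2 hp hqp
  by_cases h2 : q = 2
  · -- auxiliary level `9 M`
    haveI : NeZero 9 := ⟨by norm_num⟩
    refine nuCore_descend_gen hBC M q p 9 (by norm_num) ?_
      (h (9 * M) q (Or.inr ⟨h2, dvd_mul_right 9 M⟩)) hq hqM hq2 hp hqp
    subst h2
    norm_num
  · -- auxiliary level `4 M`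
    haveI : NeZero 4 := ⟨by norm_num⟩
    refine nuCore_descend_gen hBC M q p 4 (by norm_num) ?_
      (h (4 * M) q (Or.inl ⟨h2, dvd_mul_right 4 M⟩)) hq hqM hq2 hp hqp
    intro hd
    have h22 : q ∣ 2 ^ 2 := by simpa using hd
    exact h2 ((Nat.prime_dvd_prime_iff_eq hq Nat.prime_two).mp (hq.dvd_of_dvd_pow h22))

/-- **`Stmt_TorsNU` at every level from the Kummer form at the tame levels.** -/
theorem torsNU_all (hBC : Stmt_NormUpNU) (p : ℕ)
    (h : ∀ (M q : ℕ) [NeZero M] [NeZero q], TameNU M q → Stmt_NUCore M q p)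
    (M q : ℕ) [NeZero M] [NeZero q] : Stmt_TorsNU M q p :=
  torsNU_of_nuCore M q p (nuCore_all hBC p h M q)

end Fermat.Agent.S36.NU.H81

end
end
-- ==== END Fermat.Agent.S36.NU.H81_NUCore

-- ==== BEGIN Fermat.Agent.S36.NU.H82_Deg2
section

/-!
# S36, NU-B (helper82): degrees in the tower `F_M ⊆ F_{Mq}` when `q ∣ M`

* `dedekindPsi_mul_of_dvd` : `ψ(M q) = q ψ(M)` for a prime `q ∣ M`;
* `relfinrank_FM_FN_of_dvd` : `[F_{Mq} · Q̄ : F_M · Q̄] = q` for a prime `q ∣ M`;
* `relfinrank_sq` : `[F_{M q²} · Q̄ : F_M · Q̄] = q (q + 1)` for a prime `q ∤ M`.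
-/

set_option autoImplicit false

noncomputable section

open ModularCurve Fermat.Agent.S24 Fermat.Agent.S28 Fermat.Agent.S28.H73 Fermat.Agent.RED.H73
open Fermat.Agent.BAD.H88 Fermat.Agent.BAD.H82

namespace Fermat.Agent.S36.NU.H82

/-- `ψ(M q) = q ψ(M)` for a prime `q` dividing `M ≠ 0`. -/
theorem dedekindPsi_mul_of_dvd {q M : ℕ} (hq : q.Prime) (hM : M ≠ 0) (hqM : q ∣ M) :
    dedekindPsi (M * q) = q * dedekindPsi M := by
  obtain ⟨n, M', hM', rfl⟩ := Nat.exists_eq_pow_mul_and_not_dvd hM q hq.ne_one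
  have hn : 0 < n := by
    rcases Nat.eq_zero_or_pos n with h0 | h0
    · exfalso
      rw [h0, pow_zero, one_mul] at hqM
      exact hM' hqM
    · exact h0
  have hcop : ∀ m : ℕ, Nat.Coprime (q ^ m) M' := fun m =>
    Nat.Coprime.pow_left m ((Nat.Prime.coprime_iff_not_dvd hq).mpr hM')
  have e : q ^ n * M' * q = q ^ (n + 1) * M' := by ring
  rw [e, Fermat.Agent.S20.H19.dedekindPsi_mul (hcop (n + 1)),
    Fermat.Agent.S20.H19.dedekindPsi_mul (hcop n),
    Fermat.Agent.S20.H19.dedekindPsi_prime_pow hq (show 0 < n + 1 by omega),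
    Fermat.Agent.S20.H19.dedekindPsi_prime_pow hq hn]
  obtain ⟨m, rfl⟩ : ∃ m, n = m + 1 := ⟨n - 1, by omega⟩
  have e1 : m + 1 + 1 - 1 = m + 1 := by omega
  have e2 : m + 1 - 1 = m := by omega
  rw [e1, e2]
  ring

section Degree

variable (q M : ℕ) [NeZero (M * q)]

/-- `[F_{Mq} · Q̄ : F_M · Q̄] = q` for a prime `q ∣ M`. -/
theorem relfinrank_FM_FN_of_dvd (hq : q.Prime) (hqM : q ∣ M) :
    (modularFunctionFieldBar M).relfinrank (modularFunctionFieldBar (M * q)) = q := by
  have : NeZero M := neZero_of_mul_left q M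
  have h1 := relfinrank_bar M
  have h2 := relfinrank_bar (M * q)
  rw [dedekindPsi_mul_of_dvd hq (NeZero.ne M) hqM] at h2
  have h3 := IntermediateField.relfinrank_mul_relfinrank (adjoin_j_le M) (FM_le q M)
  rw [h1, h2, mul_comm q] at h3
  exact Nat.eq_of_mul_eq_mul_left (Nat.pos_of_ne_zero (dedekindPsi_ne_zero' M)) h3

end Degree

end Fermat.Agent.S36.NU.H82

end
end
-- ==== END Fermat.Agent.S36.NU.H82_Deg2

-- ==== BEGIN Fermat.Agent.S36.NU.H86_CuspRedAlg
section

/-!
# S36 / NU-B, leaf CUSPS, reduction half, part 1 (helper86): the supersingular polynomial is monic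

`K` a field of characteristic `q`, `j~ = jqModC K`, `Δ~ = deltaR K`.

* `hasse_monic` : a polynomial `H` with `H(j~) = (Δ~ ^ n)⁻¹` is monic of degree `n` (orders in `t`);
* `exists_hasse_poly` : the supersingular polynomial `H` (`H(j~) = Δ~^{1-q}`), monic of degree
  `q - 1`, for every prime `q` (`q ≥ 5`: helper21's `H21_supersingular_jq`; `q = 2, 3`:
  `H = X ^ (q - 1)`);
* `exists_rev_poly` : `P = ` the reverse of `H`: `P(0) = 1`, `P(1/j~) = Δ~^{1-q} (1/j~)^{q-1}`;
* `aeval_pow_iterateFrobenius` : `P(x) ^ (q ^ n) = P^{(φⁿ)}(x ^ (q ^ n))`.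
-/

set_option autoImplicit false
set_option linter.style.haveILetI false
set_option linter.unusedSectionVars false

noncomputable section

open Polynomial ModularCurve

namespace Fermat.Agent.S36.NU.H86

open Fermat.Agent.BAD.H30 Fermat.Agent.BAD.H21

section Alg

variable (K : Type) [Field K]

theorem coeff_smul_laurent (c : K) (x : LaurentSeries K) (m : ℤ) :
    (algebraMap K (LaurentSeries K) c * x).coeff m = c * x.coeff m := by
  have h1 : algebraMap K (PowerSeries K) c = PowerSeries.C c := by simp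
  rw [HahnSeries.algebraMap_apply', h1, HahnSeries.ofPowerSeries_C,
    HahnSeries.C_mul_eq_smul, HahnSeries.coeff_smul, smul_eq_mul]

/-- The coefficients of `H(j~)` below `- deg H` vanish. -/
theorem coeff_aeval_jqModC_of_lt (H : K[X]) {m : ℤ} (hm : m < -(H.natDegree : ℤ)) :
    (aeval (jqModC K) H).coeff m = 0 := by
  rw [aeval_eq_sum_range, HahnSeries.coeff_sum]
  apply Finset.sum_eq_zero
  intro i hi
  have hi' := Finset.mem_range.1 hi
  rw [Algebra.smul_def, coeff_smul_laurent,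
    P2MW.S_ModularCurve_coeff_jqModC_neg_one.ModularCurve.CharLRows.coeff_jqModC_pow_of_lt K
      (by omega), mul_zero]

/-- The coefficient of `H(j~)` at `- deg H` is the leading coefficient of `H`. -/
theorem coeff_aeval_jqModC_natDegree (H : K[X]) :
    (aeval (jqModC K) H).coeff (-(H.natDegree : ℤ)) = H.leadingCoeff := by
  rw [aeval_eq_sum_range, HahnSeries.coeff_sum, Finset.sum_eq_single H.natDegree]
  · rw [Algebra.smul_def, coeff_smul_laurent,
      P2MW.S_ModularCurve_coeff_jqModC_neg_one.ModularCurve.CharLRows.coeff_jqModC_pow_self,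
      mul_one]
    rfl
  · intro i hi hne
    have hi' := Finset.mem_range.1 hi
    rw [Algebra.smul_def, coeff_smul_laurent,
      P2MW.S_ModularCurve_coeff_jqModC_neg_one.ModularCurve.CharLRows.coeff_jqModC_pow_of_lt K
        (by omega), mul_zero]
  · intro h
    exact absurd (Finset.mem_range.2 (Nat.lt_succ_self _)) h

/-- A series is monic of order `m`. -/
def MonicOrd (f : LaurentSeries K) (m : ℤ) : Prop :=
  f.coeff m = 1 ∧ ∀ k : ℤ, k < m → f.coeff k = 0

variable {K}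

theorem MonicOrd.ne_zero {f : LaurentSeries K} {m : ℤ} (h : MonicOrd K f m) : f ≠ 0 := by
  intro h0
  have := h.1
  rw [h0, HahnSeries.coeff_zero] at this
  exact zero_ne_one this

theorem MonicOrd.order_eq {f : LaurentSeries K} {m : ℤ} (h : MonicOrd K f m) : f.order = m := by
  have hne : f.coeff m ≠ 0 := by rw [h.1]; exact one_ne_zero
  refine le_antisymm (HahnSeries.order_le_of_coeff_ne_zero hne) ?_
  by_contra hlt
  rw [not_le] at hlt
  exact h.ne_zero (HahnSeries.coeff_order_eq_zero.mp (h.2 _ hlt))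

theorem MonicOrd.leadingCoeff_eq {f : LaurentSeries K} {m : ℤ} (h : MonicOrd K f m) :
    f.leadingCoeff = 1 := by
  rw [HahnSeries.leadingCoeff_eq, h.order_eq, h.1]

theorem monicOrd_of_order {f : LaurentSeries K} {m : ℤ} (ho : f.order = m)
    (hl : f.leadingCoeff = 1) : MonicOrd K f m := by
  refine ⟨?_, fun k hk => HahnSeries.coeff_eq_zero_of_lt_order (ho ▸ hk)⟩
  rw [HahnSeries.leadingCoeff_eq, ho] at hl
  exact hl

theorem MonicOrd.mul {f g : LaurentSeries K} {m n : ℤ} (hf : MonicOrd K f m)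
    (hg : MonicOrd K g n) : MonicOrd K (f * g) (m + n) := by
  have h1 : f.leadingCoeff * g.leadingCoeff ≠ 0 := by
    rw [hf.leadingCoeff_eq, hg.leadingCoeff_eq, one_mul]
    exact one_ne_zero
  apply monicOrd_of_order
  · rw [HahnSeries.order_mul_of_ne_zero h1, hf.order_eq, hg.order_eq]
  · rw [HahnSeries.leadingCoeff_mul_of_ne_zero h1, hf.leadingCoeff_eq, hg.leadingCoeff_eq,
      one_mul]

theorem monicOrd_one : MonicOrd K (1 : LaurentSeries K) 0 :=
  monicOrd_of_order HahnSeries.order_one HahnSeries.leadingCoeff_one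

theorem MonicOrd.pow {f : LaurentSeries K} {m : ℤ} (hf : MonicOrd K f m) (n : ℕ) :
    MonicOrd K (f ^ n) ((n : ℤ) * m) := by
  induction n with
  | zero =>
    rw [pow_zero, Nat.cast_zero, zero_mul]
    exact monicOrd_one
  | succ n ih =>
    rw [pow_succ]
    have := ih.mul hf
    have e : (n : ℤ) * m + m = ((n + 1 : ℕ) : ℤ) * m := by push_cast; ring
    rw [e] at this
    exact this

theorem MonicOrd.of_mul_right {f g : LaurentSeries K} {k n : ℤ} (hfg : MonicOrd K (f * g) k)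
    (hg : MonicOrd K g n) : MonicOrd K f (k - n) := by
  have hlc : f.leadingCoeff = 1 := by
    have h := HahnSeries.leadingCoeff_mul f g
    rw [hfg.leadingCoeff_eq, hg.leadingCoeff_eq, mul_one] at h
    exact h.symm
  have h1 : f.leadingCoeff * g.leadingCoeff ≠ 0 := by
    rw [hlc, hg.leadingCoeff_eq, one_mul]
    exact one_ne_zero
  apply monicOrd_of_order _ hlc
  have h := HahnSeries.order_mul_of_ne_zero h1
  rw [hfg.order_eq, hg.order_eq] at h
  omega

variable (K)

/-- `Δ~` is monic of order `1`. -/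
theorem monicOrd_deltaR : MonicOrd K (deltaR K) 1 := by
  refine ⟨deltaR_coeff_one K, fun k hk => ?_⟩
  rw [deltaR, HahnSeries.coeff_single_mul, one_mul]
  exact ofPowerSeries_coeff_of_neg _ (by omega)

/-- `(Δ~ ^ n)⁻¹` is monic of order `- n`. -/
theorem monicOrd_inv_deltaR_pow (n : ℕ) : MonicOrd K ((deltaR K ^ n)⁻¹) (-(n : ℤ)) := by
  have hp := (monicOrd_deltaR K).pow n
  rw [mul_one] at hp
  have h1 : MonicOrd K ((deltaR K ^ n)⁻¹ * deltaR K ^ n) 0 := by
    rw [inv_mul_cancel₀ hp.ne_zero]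
    exact monicOrd_one
  have := h1.of_mul_right hp
  rwa [zero_sub] at this

/-- **A polynomial `H` with `H(j~) = (Δ~ ^ n)⁻¹` is monic of degree `n`.** -/
theorem hasse_monic (n : ℕ) (H : K[X]) (hH : aeval (jqModC K) H = (deltaR K ^ n)⁻¹) :
    H.natDegree = n ∧ H.Monic := by
  have hD := monicOrd_inv_deltaR_pow K n
  have hH0 : H ≠ 0 := by
    rintro rfl
    rw [map_zero] at hH
    exact hD.ne_zero hH.symm
  have hlc : H.leadingCoeff ≠ 0 := leadingCoeff_ne_zero.2 hH0
  have hdeg : H.natDegree = n := by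
    rcases lt_trichotomy H.natDegree n with h | h | h
    · exfalso
      have h1 := hD.1
      rw [← hH, coeff_aeval_jqModC_of_lt K H (by omega)] at h1
      exact zero_ne_one h1
    · exact h
    · exfalso
      have h1 := hD.2 (-(H.natDegree : ℤ)) (by omega)
      rw [← hH, coeff_aeval_jqModC_natDegree] at h1
      exact hlc h1
  refine ⟨hdeg, ?_⟩
  have h1 := hD.1
  rw [← hH, ← hdeg, coeff_aeval_jqModC_natDegree] at h1
  exact h1

/-- **The supersingular polynomial**, monic of degree `q - 1`, for every prime `q`. -/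
theorem exists_hasse_poly (q : ℕ) [hq : Fact q.Prime] [CharP K q] [IsAlgClosed K] :
    ∃ H : K[X], H.natDegree = q - 1 ∧ H.Monic ∧
      aeval (jqModC K) H = (deltaR K ^ (q - 1))⁻¹ := by
  have key : ∃ H : K[X], aeval (jqModC K) H = (deltaR K ^ (q - 1))⁻¹ := by
    by_cases h5 : 5 ≤ q
    · obtain ⟨H, S, -, hH, -⟩ := H21_supersingular_jq (F := K) (ℓ := q) h5
      exact ⟨H, by rw [hH, deltaR_eq_DL]⟩
    · have h23 : q = 2 ∨ q = 3 := by
        have h2 := hq.out.two_le
        have h4 : q ≠ 4 := by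
          rintro rfl
          exact absurd hq.out (by norm_num)
        omega
      refine ⟨X ^ (q - 1), ?_⟩
      rw [map_pow, aeval_X, H21_supersingular_jq_small (F := K) (ℓ := q) h23, deltaR_eq_DL]
  obtain ⟨H, hH⟩ := key
  obtain ⟨h1, h2⟩ := hasse_monic K (q - 1) H hH
  exact ⟨H, h1, h2, hH⟩

/-- **The reverse of the supersingular polynomial**: `P(0) = 1` and
`P(1/j~) = Δ~^{1-q} · (1/j~)^{q-1}`. -/
theorem exists_rev_poly (q : ℕ) [hq : Fact q.Prime] [CharP K q] [IsAlgClosed K] :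
    ∃ P : K[X], P.eval 0 = 1 ∧
      aeval (jqModC K)⁻¹ P = (deltaR K ^ (q - 1))⁻¹ * ((jqModC K)⁻¹) ^ (q - 1) := by
  obtain ⟨H, hdeg, hmon, hH⟩ := exists_hasse_poly K q
  have hj0 : jqModC K ≠ 0 := by
    intro h0
    have := coeff_jqModC_neg_one K
    rw [h0, HahnSeries.coeff_zero] at this
    exact zero_ne_one this
  refine ⟨H.reverse, ?_, ?_⟩
  · rw [← coeff_zero_eq_eval_zero, coeff_zero_reverse]
    exact hmon
  · letI : Invertible (jqModC K) := invertibleOfNonzero hj0
    have h := eval₂_reverse_mul_pow (algebraMap K (LaurentSeries K)) (jqModC K) H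
    rw [invOf_eq_inv, hdeg] at h
    rw [aeval_def, ← hH, aeval_def, ← h, mul_assoc, ← mul_pow, mul_inv_cancel₀ hj0, one_pow,
      mul_one]

end Alg

section Frob

variable {K : Type} [Field K] (q : ℕ) [hq : Fact q.Prime] [CharP K q]
variable {S : Type*} [CommRing S] [Algebra K S]

/-- `P(x) ^ (q ^ n) = P^{(φⁿ)}(x ^ (q ^ n))` in characteristic `q`. -/
theorem aeval_pow_iterateFrobenius (P : K[X]) (x : S) (n : ℕ) :
    aeval x P ^ (q ^ n) = aeval (x ^ (q ^ n)) (P.map (iterateFrobenius K q n)) := by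
  rw [← expand_aeval, ← map_expand, map_iterateFrobenius_expand, map_pow]

theorem eval_zero_map_iterateFrobenius (P : K[X]) (hP : P.eval 0 = 1) (n : ℕ) :
    (P.map (iterateFrobenius K q n)).eval 0 = 1 := by
  rw [← coeff_zero_eq_eval_zero, coeff_map, coeff_zero_eq_eval_zero, hP, map_one]

end Frob

end Fermat.Agent.S36.NU.H86

end
end
-- ==== END Fermat.Agent.S36.NU.H86_CuspRedAlg

-- ==== BEGIN Fermat.Agent.S36.NU.H88_Cusp
section

/-!
# S36, NU-B1 (helper88): expansions of `F_N · Q̄` at an arbitrary cusp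

For `γ ∈ SL₂(ℤ)` the `u`-expansion (`u = q^(1/N)`) at the cusp `γ⁻¹ ∞`:
`cuspU N γ : F_N →ₐ[Q̄] Q̄((u))`, `f ↦ expansion of f ∘ γ⁻¹`.
* `cuspU_jdF`   : `cuspU N γ (j (q^D)) = uExp N (γ • j(D τ))`;
* `cuspU_upper` : if `diag(D,1) γ⁻¹ = δ !![a, b; 0, d]`, `δ ∈ SL₂(ℤ)`, `d ∣ N`, then
  `cuspU N γ (j (q^D)) = (twist (ζ_d^b) j)(u^(N/d * a))`.
-/

set_option autoImplicit false
set_option synthInstance.maxHeartbeats 400000
set_option maxHeartbeats 1000000
set_option linter.unusedSectionVars false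
set_option linter.style.haveILetI false

noncomputable section

namespace Fermat.Agent.S36.NU.H88

open Fermat.Agent.S24 Fermat.Agent.BAD.H88 ModularCurve UpperHalfPlane
open scoped MatrixGroups Manifold

/-- The action of `γ` on the Galois closure, as a `Q̄`-algebra homomorphism. -/
def piK (N : ℕ) [NeZero N] (γ : SL(2, ℤ)) : LN N →ₐ[Kbar] LN N :=
  ((piN N γ).restrictScalars Kbar).toAlgHom

theorem piK_apply (N : ℕ) [NeZero N] (γ : SL(2, ℤ)) (x : LN N) : piK N γ x = piN N γ x := rfl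

/-- **The `u`-expansion at the cusp `γ⁻¹ ∞`.** -/
def cuspU (N : ℕ) [NeZero N] (γ : SL(2, ℤ)) : FN N →ₐ[Kbar] LaurentSeries Kbar :=
  (UL N).comp ((piK N γ).comp (phi N))

theorem cuspU_apply (N : ℕ) [NeZero N] (γ : SL(2, ℤ)) (x : FN N) :
    cuspU N γ x = UL N (piN N γ (phi N x)) := rfl

theorem cuspU_injective (N : ℕ) [NeZero N] (γ : SL(2, ℤ)) : Function.Injective (cuspU N γ) :=
  (cuspU N γ).toRingHom.injective

/-- `cuspU N γ (j (q^D)) = uExp N (γ • j (D τ))`. -/
theorem cuspU_jdF (N : ℕ) [NeZero N] (γ : SL(2, ℤ)) (D : ℕ) [NeZero D] (hD : D ∣ N) :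
    cuspU N γ (jdF N D hD) = uExp N (γ • jdA N D) := by
  rw [cuspU_apply, phi_jdF, piN_algebraMap, UL_algebraMap]
  rfl

/-- The expansion at `∞`. -/
theorem cuspU_one (N : ℕ) [NeZero N] (x : FN N) :
    cuspU N 1 x = qExpand Kbar N (x : LaurentSeries Kbar) := by
  rw [cuspU_apply, map_one, AlgEquiv.one_apply, UL_phi, qN_apply]

/-- The series `(twist z j)(u^m)` from its coefficients. -/
theorem eq_qExpand_twist (m : ℕ) [NeZero m] (z : Kbar) (c : LaurentSeries Kbar)
    (h1 : ∀ n : ℤ, c.coeff ((m : ℤ) * n) = z ^ n * jBar.coeff n)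
    (h2 : ∀ k : ℤ, ¬ ((m : ℤ) ∣ k) → c.coeff k = 0) :
    c = qExpand Kbar m (twist z jBar) := by
  ext k
  by_cases hk : (m : ℤ) ∣ k
  · obtain ⟨n, rfl⟩ := hk
    rw [h1, qExpand_coeff_mul, twist_coeff]
  · rw [h2 k hk, qExpand_coeff_of_not_dvd _ _ hk]

/-- If `diag(D,1) γ⁻¹ = δ !![a, b; 0, d]` then the expansion of `j (q^D)` at the cusp `γ⁻¹ ∞`
is `(twist (ζ_d^b) j)(u^(N/d * a))`. -/
theorem cuspU_upper (N : ℕ) [NeZero N] (γ δ : SL(2, ℤ)) (D : ℕ) [NeZero D] (hD : D ∣ N)
    (a d : ℕ) (b : ℤ) (ha : 0 < a) (hd : 0 < d) (hdN : d ∣ N) [NeZero d] [NeZero (N / d * a)]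
    (h : (!![(D : ℤ), 0; 0, 1] : Matrix (Fin 2) (Fin 2) ℤ) * (γ⁻¹ : SL(2, ℤ)).1
      = δ.1 * !![(a : ℤ), b; 0, (d : ℤ)]) :
    cuspU N γ (jdF N D hD) = qExpand Kbar (N / d * a) (twist (zetaK d ^ b) jBar) := by
  rw [cuspU_jdF]
  have hD0 : 0 < D := Nat.pos_of_ne_zero (NeZero.ne D)
  have hdet : 0 < (!![(a : ℤ), b; 0, (d : ℤ)] : Matrix (Fin 2) (Fin 2) ℤ).det :=
    det_upper_pos a d b ha hd
  obtain ⟨c, hc, hc1, hc2⟩ := hasUExp_JA_upper N a d b ha hd hdN
  have e : uExp N (γ • jdA N D) = c := by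
    apply uExp_eq
    rw [coe_smul_Atil, jdA_coe N D hD0 hD, smul_JA γ _ (diag_det_pos D hD0), h,
      JA_mul_left δ _ hdet]
    exact hc
  rw [e]
  apply eq_qExpand_twist
  · intro n
    rw [hc1, zpow_mul]
  · exact hc2

end Fermat.Agent.S36.NU.H88

end
end
-- ==== END Fermat.Agent.S36.NU.H88_Cusp

-- ==== BEGIN Fermat.Agent.S36.NU.H88_TransportE
section

/-!
# S36, NU-B1 (helper88): transport of a valuation ring with residue map along an isomorphism

`w : F ≃ₐ[K] F₁`, `V` a valuation ring of `F₁` with residue map `red : V →+* R`.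
`comapVE V w = w⁻¹ V` is a valuation ring of `F` with residue map `red ∘ w`.
(The case `F₁ = F` is `BAD.H88.comapV`.)
-/

set_option autoImplicit false
set_option linter.unusedSectionVars false
set_option linter.style.haveILetI false

noncomputable section

namespace Fermat.Agent.S36.NU.H88

open Fermat.Agent.BAD.H88

section TransportE

variable {K F F₁ R : Type*} [Field K] [Field F] [Algebra K F] [Field F₁] [Algebra K F₁] [Field R]
variable (V : ValuationSubring F₁) (red : V →+* R) (w : F ≃ₐ[K] F₁)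

/-- The valuation ring `w⁻¹ V` of `F`. -/
def comapVE : ValuationSubring F := V.comap (w.toAlgHom.toRingHom)

theorem mem_comapVE_iff (x : F) : x ∈ comapVE V w ↔ w x ∈ V := Iff.rfl

/-- `w : w⁻¹ V → V`. -/
def comapRestrictE : ↥(comapVE V w) →+* ↥V where
  toFun x := ⟨w (x : F), x.2⟩
  map_one' := Subtype.ext (map_one w)
  map_mul' x y := Subtype.ext (map_mul w (x : F) (y : F))
  map_zero' := Subtype.ext (map_zero w)
  map_add' x y := Subtype.ext (map_add w (x : F) (y : F))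

theorem coe_comapRestrictE (x : ↥(comapVE V w)) :
    ((comapRestrictE V w x : ↥V) : F₁) = w (x : F) := rfl

/-- The residue map of `w⁻¹ V`: `red ∘ w`. -/
def comapRedE : ↥(comapVE V w) →+* R := red.comp (comapRestrictE V w)

theorem comapRedE_mk (x : F) (h : x ∈ comapVE V w) :
    comapRedE V red w ⟨x, h⟩ = red ⟨w x, h⟩ := rfl

theorem comapRedE_surjective (hs : Function.Surjective red) :
    Function.Surjective (comapRedE V red w) := by
  intro y
  obtain ⟨v, rfl⟩ := hs y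
  have hm : w.symm (v : F₁) ∈ comapVE V w := by
    rw [mem_comapVE_iff, AlgEquiv.apply_symm_apply]; exact v.2
  refine ⟨⟨w.symm (v : F₁), hm⟩, ?_⟩
  rw [comapRedE_mk]
  congr 1
  exact Subtype.ext (w.apply_symm_apply _)

theorem comapRedE_eq_zero_iff
    (hz : ∀ u : ↥V, red u = 0 ↔ u ∈ IsLocalRing.maximalIdeal ↥V) (u : ↥(comapVE V w)) :
    comapRedE V red w u = 0 ↔ u ∈ IsLocalRing.maximalIdeal ↥(comapVE V w) := by
  show red (comapRestrictE V w u) = 0 ↔ _
  rw [hz, mem_maximalIdeal_iff', mem_maximalIdeal_iff', coe_comapRestrictE, mem_comapVE_iff,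
    map_inv₀]
  constructor
  · rintro (h | h)
    · left
      exact (map_eq_zero_iff w w.injective).mp h
    · exact Or.inr h
  · rintro (h | h)
    · left
      rw [h, map_zero]
    · exact Or.inr h

theorem comapE_exists_scale
    (hsc : ∀ f : F₁, f ≠ 0 → ∃ c : K, c ≠ 0 ∧
      ∃ h : algebraMap K F₁ c * f ∈ V, red ⟨_, h⟩ ≠ 0) (f : F) (hf : f ≠ 0) :
    ∃ c : K, c ≠ 0 ∧ ∃ h : algebraMap K F c * f ∈ comapVE V w, comapRedE V red w ⟨_, h⟩ ≠ 0 := by
  have hwf : w f ≠ 0 := fun h => hf ((map_eq_zero_iff w w.injective).mp h)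
  obtain ⟨c, hc, h, hr⟩ := hsc (w f) hwf
  have e : w (algebraMap K F c * f) = algebraMap K F₁ c * w f := by
    rw [map_mul, AlgEquiv.commutes]
  have hm : algebraMap K F c * f ∈ comapVE V w := by
    rw [mem_comapVE_iff, e]; exact h
  refine ⟨c, hc, hm, ?_⟩
  rw [comapRedE_mk]
  have e2 : (⟨w (algebraMap K F c * f), hm⟩ : ↥V) = ⟨algebraMap K F₁ c * w f, h⟩ :=
    Subtype.ext e
  rw [e2]
  exact hr

theorem comapE_const_mem (c : K) :
    algebraMap K F c ∈ comapVE V w ↔ algebraMap K F₁ c ∈ V := by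
  rw [mem_comapVE_iff, AlgEquiv.commutes]

theorem comapE_const_red (c : K) (h₁ : algebraMap K F₁ c ∈ V)
    (h₂ : algebraMap K F c ∈ comapVE V w) :
    comapRedE V red w ⟨_, h₂⟩ = red ⟨_, h₁⟩ := by
  rw [comapRedE_mk]
  congr 1
  exact Subtype.ext (w.commutes c)

end TransportE

end Fermat.Agent.S36.NU.H88

end
end
-- ==== END Fermat.Agent.S36.NU.H88_TransportE

-- ==== BEGIN Fermat.Agent.S36.NU.H88_Twist
section

/-!
# S36, NU-B1 (helper88): the twist `q ↦ z q` and the Gauss ring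

`O` a valuation subring of `C`, `u` a unit of `O`, `z = u`.
* `twistAlg z hz` : the twist as a `C`-algebra homomorphism of `C((q))`;
* `twist_mem_gaussRingV` : the twist by a unit of `O` preserves the Gauss ring;
* `gaussRedV_twist`      : and commutes with the Gauss reduction (twist by the residue of `u`);
* `gaussRedV_twist_of_res_eq_one` : if `u ≡ 1` then the reduction does not change.
-/

set_option autoImplicit false
set_option linter.unusedSectionVars false
set_option linter.style.haveILetI false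

noncomputable section

namespace Fermat.Agent.S36.NU.H88

open Fermat.Agent.S24 ModularCurve Fermat.Agent.S28 Fermat.Agent.S28.H73
open Fermat.Agent.RED.H95 Fermat.Agent.RED.H10

section TwistAlg

variable {C : Type} [Field C]

/-- The twist `q ↦ z q`, as an algebra homomorphism. -/
def twistAlg (z : C) (hz : z ≠ 0) : LaurentSeries C →ₐ[C] LaurentSeries C :=
  { twistHom z hz with
    commutes' := fun c => by
      show twist z (algebraMap C (LaurentSeries C) c) = algebraMap C (LaurentSeries C) c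
      rw [algebraMap_laurentSeries_eq_single]
      exact twist_C z c }

@[simp] theorem twistAlg_apply (z : C) (hz : z ≠ 0) (x : LaurentSeries C) :
    twistAlg z hz x = twist z x := rfl

variable (O : ValuationSubring C)

theorem iotaV_rot (u : (↥O)ˣ) (g : LaurentSeries ↥O) :
    iotaV O (rot u g) = twist ((u : ↥O) : C) (iotaV O g) := by
  ext n
  rw [iotaV, coeffMap_coeff, rot_coeff, twist_coeff, coeffMap_coeff, map_mul]
  congr 1
  have h1 : ((Units.map (O.subtype : ↥O →* C) (u ^ n) : Cˣ) : C)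
      = O.subtype ((u ^ n : (↥O)ˣ) : ↥O) := rfl
  rw [← h1, map_zpow, Units.val_zpow_eq_zpow_val]
  rfl

theorem redV_rot (u : (↥O)ˣ) (g : LaurentSeries ↥O) :
    redV O (rot u g) = rot (Units.map (resV O : ↥O →* kV O) u) (redV O g) := by
  ext n
  rw [redV, coeffMap_coeff, rot_coeff, rot_coeff, coeffMap_coeff, map_mul]
  congr 1
  rw [← map_zpow]
  rfl

theorem rot_ne_zero {R : Type*} [CommRing R] (u : Rˣ) {x : LaurentSeries R} (hx : x ≠ 0) :
    rot u x ≠ 0 := by
  intro h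
  apply hx
  ext n
  have := congrArg (fun s : LaurentSeries R => s.coeff n) h
  simp only [rot_coeff, HahnSeries.coeff_zero] at this
  rw [HahnSeries.coeff_zero]
  exact (Units.mul_right_eq_zero _).mp this

/-- The twist by a unit of `O` preserves the Gauss ring. -/
theorem twist_mem_gaussRingV (u : (↥O)ˣ) {x : LaurentSeries C} (hx : x ∈ gaussRingV O) :
    twist ((u : ↥O) : C) x ∈ gaussRingV O := by
  obtain ⟨g, h, hg, hgx⟩ := hx
  have hu0 : ((u : ↥O) : C) ≠ 0 := by
    intro h0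
    have : (u : ↥O) = 0 := Subtype.ext h0
    exact u.ne_zero this
  refine ⟨rot u g, rot u h, ?_, ?_⟩
  · rw [redV_rot]
    exact rot_ne_zero _ hg
  · rw [iotaV_rot, iotaV_rot, ← twist_mul _ hu0, hgx]

/-- The twist by a unit of `O` commutes with the Gauss reduction. -/
theorem gaussRedV_twist (u : (↥O)ˣ) (x : gaussRingV O)
    (h' : twist ((u : ↥O) : C) (x : LaurentSeries C) ∈ gaussRingV O) :
    gaussRedV O ⟨_, h'⟩ = rot (Units.map (resV O : ↥O →* kV O) u) (gaussRedV O x) := by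
  obtain ⟨g, h, hg, hgx⟩ := x.2
  have hu0 : ((u : ↥O) : C) ≠ 0 := by
    intro h0
    have : (u : ↥O) = 0 := Subtype.ext h0
    exact u.ne_zero this
  have hg' : redV O (rot u g) ≠ 0 := by
    rw [redV_rot]
    exact rot_ne_zero _ hg
  have hgx' : iotaV O (rot u g) * twist ((u : ↥O) : C) (x : LaurentSeries C)
      = iotaV O (rot u h) := by
    rw [iotaV_rot, iotaV_rot, ← twist_mul _ hu0, hgx]
  rw [gaussRedV_eq O x hg hgx, gaussRedV_eq O ⟨_, h'⟩ hg' hgx', map_div₀, redV_rot, redV_rot]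

/-- If `u ≡ 1` modulo the maximal ideal, the twist by `u` does not change the reduction. -/
theorem gaussRedV_twist_of_res_eq_one (u : (↥O)ˣ) (hu : resV O (u : ↥O) = 1) (x : gaussRingV O)
    (h' : twist ((u : ↥O) : C) (x : LaurentSeries C) ∈ gaussRingV O) :
    gaussRedV O ⟨_, h'⟩ = gaussRedV O x := by
  rw [gaussRedV_twist O u x h']
  have h1 : Units.map (resV O : ↥O →* kV O) u = 1 := Units.ext hu
  rw [h1, rot_one]

end TwistAlg

end Fermat.Agent.S36.NU.H88

end
end
-- ==== END Fermat.Agent.S36.NU.H88_Twist
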