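-- GENERATED (merged mirror, NOTES/tools/trim/merge3_helper67.py): 6 modules of the originals, bodies verbatim.
import Fermat.Agent.Zm.S36_L01_000
import Fermat.Agent.Zm.S35_L21_000
import Fermat.Agent.Zm.S35_L15_002
import Fermat.Agent.Zm.S36_L01_004
import Fermat.Agent.Zm.S35_L02_005
import Fermat.Agent.Zm.S35_L13_001
import Fermat.Agent.Zm.S35_L14_001
import Fermat.Agent.RED.HR.H51_FinrankAlong
import Fermat.Agent.Zm.S35_L18_000
import Fermat.Agent.Zm.S36_L01_003
import Fermat.Agent.Zm.S35_L07_002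
import Fermat.Agent.Zm.S36_L01_001

-- ==== BEGIN Fermat.Agent.BAD.H91_WRho
section
attribute [local instance 10000] SubalgebraClass.toAlgebra
attribute [local instance 10000] HahnSeries.powerSeriesAlgebra

/-!
# S43 (helper91), leaf MOD-W, modular part: `ρ (w_q⁻¹ P) = β (ρ P)` over a node

`q ∤ M` tame, `A` over `q`, `T = modT` the modular total conservation datum of level `M q`
(`ρ = rhoF1`, any `β` with `ord_{β z} y = ord_z (φ y)`).

* `restrictAlong_inv_smul` : `(w⁻¹ P) | φ = P | ψ` if `w ∘ φ = ψ`.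
* `zero_of_zero_of_finrank` : zeros of a Gauss unit with non-dropping degree reduce to zeros.
* `lowerBeta_mod` : helper91's `LowerBeta` for the modular datum (second degeneracy map
  `heckeBetaBar`, `ρ' P = ρ (w_q⁻¹ P)`).
* `rhoW_eq_beta_mod` : **over a node, `ρ (w_q⁻¹ P) = β (ρ P)`.**
-/

set_option autoImplicit false
set_option linter.style.haveILetI false
set_option synthInstance.maxHeartbeats 400000
set_option maxHeartbeats 400000
set_option linter.unusedSectionVars false

noncomputable section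

open HahnSeries IntermediateField AlgebraicCurve ModularCurve
open Fermat.Agent.S28.H73 Fermat.Agent.RED.H73 Fermat.Agent.RED Fermat.Agent.S24
open Fermat.Agent.BAD.H88

namespace Fermat.Agent.BAD.H91

open Fermat.Agent.BAD Fermat.Agent.RED.H17

section AbsW

variable {K F F' : Type*} [Field K] [Field F] [Field F'] [Algebra K F] [Algebra K F']

/-- `(w⁻¹ P) | φ = P | ψ` if `w ∘ φ = ψ`. -/
theorem restrictAlong_inv_smul (φ ψ : F →ₐ[K] F') (hφ : φ.toRingHom.IsIntegral)
    (hψ : ψ.toRingHom.IsIntegral) (w : SemilinearAut K F') (hw : ∀ x : F, w • φ x = ψ x)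
    (P : Place K F') :
    (w⁻¹ • P).restrictAlong φ hφ = P.restrictAlong ψ hψ := by
  apply Place.ext
  ext x
  rw [mem_restrictAlong_iff, mem_restrictAlong_iff, ← regAt_iff_mem, ← regAt_iff_mem, ← hw,
    ← H79.regAt_smul_iff w (w⁻¹ • P) (φ x), smul_inv_smul]

end AbsW

section AbsZero

variable {K F k F' : Type*} [Field K] [Field F] [Algebra K F] [Field k] [Field F']
  [Algebra k F'] (S : RedSetup K F k F')

/-- **Zeros reduce to zeros**: if `[F : K(x)] ≤ [F' : k(rd x)]`, zeros of the Gauss unit `x`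
reduce to zeros of `rd x`. -/
theorem zero_of_zero_of_finrank (hP : HasPrincipalDivisors K F)
    (hP' : HasPrincipalDivisors k F') (hz : S24.H59.ZerosStmt K F)
    (hz' : S24.H59.ZerosStmt k F')
    {x : F} (hx : S.IsGU x) (hxt : Transcendental K x) (hxt' : Transcendental k (S.rd x))
    [FiniteDimensional K⟮x⟯ F] [FiniteDimensional k⟮S.rd x⟯ F']
    (hdeg : Module.finrank K⟮x⟯ F ≤ Module.finrank k⟮S.rd x⟯ F')
    (P : Place K F) (hPx : 0 < P.ord x) : 0 < (S.r P).ord (S.rd x) := by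
  have hxi : S.IsGU x⁻¹ := hx.inv
  have hxit : Transcendental K x⁻¹ := fun h => hxt (IsAlgebraic.inv_iff.mp h)
  have hyit : Transcendental k (S.rd x)⁻¹ := fun h => hxt' (IsAlgebraic.inv_iff.mp h)
  haveI : FiniteDimensional K⟮x⁻¹⟯ F := S24.ff_finite_of_transcendental x hxt x⁻¹ hxit
  haveI : FiniteDimensional k⟮(S.rd x)⁻¹⟯ F' :=
    S24.ff_finite_of_transcendental (S.rd x) hxt' (S.rd x)⁻¹ hyit
  have key : ∀ y : F', S.rd x⁻¹ = y → Transcendental k y → FiniteDimensional k⟮y⟯ F' →
      Module.finrank K⟮x⁻¹⟯ F ≤ Module.finrank k⟮y⟯ F' → (S.r P).ord y < 0 := by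
    intro y hy hyt hfd hd
    subst hy
    exact Fermat.Agent.BAD.H42.pole_of_pole_of_finrank S hP hP' hz hz' hxi hxit hyt hd P
      (by rw [Place.ord_inv]; omega)
  have h := key _ hx.rd_inv hyit inferInstance (by
    rw [S24.H59.finrank_adjoin_inv, S24.H59.finrank_adjoin_inv]
    exact hdeg)
  rw [Place.ord_inv] at h
  omega

end AbsZero

section Mod

variable {A : ValuationSubring Kbar} {q M : ℕ} (a b : ℤ) (hab : a * q + b * M = 1)
  (hq : q.Prime) [NeZero M] [NeZero (M * q)] [NeZero q] (hA : A.LiesOverPrime q)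
  (hqM : ¬ q ∣ M) (ht : TameAt M q)

/-- The second degeneracy map is integral. -/
theorem beta_isIntegral (M q : ℕ) [NeZero M] [NeZero (M * q)] [NeZero q] :
    (heckeBetaBar Kbar M q).toRingHom.IsIntegral :=
  (H51.stmt_FFB_finite _ _ _ (H95.stmt_HKA_isFF M) (H95.stmt_HKA_isFF (M * q)) _).1

/-- `w_q` as a semilinear automorphism of `F_{M q} · ℚ̄`. -/
def wSemi : SemilinearAut Kbar (FN (M * q)) := SemilinearAut.ofAlgAut (wq q M a b hab hq)

omit [NeZero M] [NeZero q] in
theorem wSemi_smul (x : FN (M * q)) : wSemi a b hab hq • x = wq q M a b hab hq x := rfl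

omit [NeZero M] [NeZero q] in
theorem wSemi_mul_self : wSemi a b hab hq * wSemi a b hab hq = 1 := by
  unfold wSemi
  rw [← map_mul]
  have h : wq q M a b hab hq * wq q M a b hab hq = 1 :=
    AlgEquiv.ext fun x => wq_wq q M a b hab hq x
  rw [h, map_one]

omit [NeZero M] [NeZero q] in
theorem wSemi_inv : (wSemi a b hab hq)⁻¹ = wSemi a b hab hq :=
  inv_eq_of_mul_eq_one_left (wSemi_mul_self a b hab hq)

/-- `(w_q⁻¹ P) | α = P | β`. -/
theorem restrictAlong_wSemi (P : Place Kbar (FN (M * q))) :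
    ((wSemi a b hab hq)⁻¹ • P).restrictAlong (incl M q) (incl_isIntegral M q)
      = P.restrictAlong (heckeBetaBar Kbar M q) (beta_isIntegral M q) :=
  restrictAlong_inv_smul (incl M q) (heckeBetaBar Kbar M q) (incl_isIntegral M q)
    (beta_isIntegral M q) (wSemi a b hab hq) (fun x => wq_alpha q M a b hab hq x) P

omit [NeZero (M * q)] [NeZero q] in
/-- **Zeros of `j` reduce to zeros of `j~`, abstract helper** (as `ord_jF_nonneg_aux`). -/
theorem ord_jRed_pos_aux (hq : q.Prime) (hqM : ¬ q ∣ M) (hA : A.LiesOverPrime q)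
    (SE : RED.H17.RedSetup (AlgebraicClosure ℚ)
      ↥(laurentBaseChange (AlgebraicClosure ℚ) (modularFunctionFieldFull M)) (kV A)
      ↥(redField A (laurentBaseChange (AlgebraicClosure ℚ) (modularFunctionFieldFull M))
        (hasScale_laurentBaseChange A M)))
    (hmem : RED.H73.jF (L := AlgebraicClosure ℚ) M ∈ SE.V)
    (hred : SE.red ⟨RED.H73.jF (L := AlgebraicClosure ℚ) M, hmem⟩ = jRed A M)
    (hFF' : IsFF (kV A)
      ↥(redField A (laurentBaseChange (AlgebraicClosure ℚ) (modularFunctionFieldFull M))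
        (hasScale_laurentBaseChange A M)))
    (P : Place (AlgebraicClosure ℚ)
      ↥(laurentBaseChange (AlgebraicClosure ℚ) (modularFunctionFieldFull M)))
    (h : 0 < P.ord (RED.H73.jF (L := AlgebraicClosure ℚ) M)) :
    0 < (SE.r P).ord (jRed A M) := by
  haveI : IsAlgClosed (kV A) := isAlgClosed_kV A
  have hFF : IsFF (AlgebraicClosure ℚ)
      ↥(laurentBaseChange (AlgebraicClosure ℚ) (modularFunctionFieldFull M)) :=
    H95.stmt_HKA_isFF M
  obtain ⟨hxt', hfd, -, hdeg, -⟩ := goodChart_pre M q hq hqM A hA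
  haveI := hfd
  have H := RED.H17.ffHyp_of_isFF _ _ hFF
  have H' := RED.H17.ffHyp_of_isFF _ _ hFF'
  have hrd : SE.rd (RED.H73.jF (L := AlgebraicClosure ℚ) M) = jRed A M :=
    (SE.rd_of_mem hmem).trans hred
  have hxt : Transcendental (AlgebraicClosure ℚ) (RED.H73.jF (L := AlgebraicClosure ℚ) M) :=
    RED.H34.RedSetting.transcendental_x (S := redSetting A (hasScale_laurentBaseChange A M))
      (jF_mem A M) hxt'
  have hz := RED.H42.zerosAll _ _ hFF
  have hz' := RED.H42.zerosAll _ _ hFF'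
  have key : ∀ y : ↥(redField A (laurentBaseChange (AlgebraicClosure ℚ)
      (modularFunctionFieldFull M)) (hasScale_laurentBaseChange A M)),
      SE.rd (RED.H73.jF (L := AlgebraicClosure ℚ) M) = y → Transcendental (kV A) y →
      Module.finrank ↥((kV A)⟮y⟯)
        ↥(redField A (laurentBaseChange (AlgebraicClosure ℚ) (modularFunctionFieldFull M))
          (hasScale_laurentBaseChange A M))
        = Module.finrank ↥((AlgebraicClosure ℚ)⟮RED.H73.jF (L := AlgebraicClosure ℚ) M⟯)
          ↥(laurentBaseChange (AlgebraicClosure ℚ) (modularFunctionFieldFull M)) →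
      0 < (SE.r P).ord y := by
    intro y hy hyt hyd
    subst hy
    have hx : SE.IsGU (RED.H73.jF (L := AlgebraicClosure ℚ) M) :=
      ⟨hmem, fun h0 => hyt (h0 ▸ isAlgebraic_zero)⟩
    haveI hfd' : FiniteDimensional
        ↥((kV A)⟮SE.rd (RED.H73.jF (L := AlgebraicClosure ℚ) M)⟯)
        ↥(redField A (laurentBaseChange (AlgebraicClosure ℚ) (modularFunctionFieldFull M))
          (hasScale_laurentBaseChange A M)) := by
      apply Module.finite_of_finrank_pos
      rw [hyd]
      exact Module.finrank_pos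
    exact zero_of_zero_of_finrank SE H.principal H'.principal hz hz' hx hxt hyt hyd.ge P h
  exact key _ hrd hxt' hdeg

omit [NeZero (M * q)] [NeZero q] in
/-- **Zeros of `j` reduce to zeros of `j~`** (level `M`). -/
theorem ord_jRed_pos_of_rM (P : Place (AlgebraicClosure ℚ) ↥(FNbar M))
    (h : 0 < P.ord (RED.H73.jF (L := AlgebraicClosure ℚ) M)) :
    0 < (rM hq hqM ht hA P).ord (jRed A M) :=
  ord_jRed_pos_aux hq hqM hA (seM hq hqM ht hA) (jF_mem A M) rfl (isFF_redM hq hqM ht hA) P h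

omit [NeZero (M * q)] [NeZero q] in
/-- **Poles of `j` reduce to poles of `j~`** (level `M`). -/
theorem ord_jRed_neg_of_rM (P : Place (AlgebraicClosure ℚ) ↥(FNbar M))
    (h : P.ord (RED.H73.jF (L := AlgebraicClosure ℚ) M) < 0) :
    (rM hq hqM ht hA P).ord (jRed A M) < 0 := by
  by_contra hc
  have := ord_jF_nonneg_of_rM hq hqM ht hA P (not_lt.mp hc)
  omega

omit [NeZero (M * q)] [NeZero q] in
/-- `j` of level `M` is a Gauss unit. -/
theorem isGU_jF : (seM hq hqM ht hA).IsGU (RED.H73.jF (L := AlgebraicClosure ℚ) M) := by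
  refine ⟨jF_mem A M, ?_⟩
  rw [(seM hq hqM ht hA).rd_of_mem (jF_mem A M)]
  intro h0
  have h1 : ((jRed A M : ↥(_root_.Fermat.Agent.BAD.H91.redM A M)) : LaurentSeries (kV A)) = 0 := by
    have h2 : jRed A M = 0 := h0
    rw [h2]
    rfl
  rw [show ((jRed A M : ↥(_root_.Fermat.Agent.BAD.H91.redM A M)) : LaurentSeries (kV A)) = jqModC (kV A) from
    RED.H73.red_jF A M] at h1
  exact (RED.H73.transcendental_red_jF A M) (by
    have h2 : jRed A M = 0 := h0
    rw [show (redSetting A (hasScale_laurentBaseChange A M)).red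
      ⟨RED.H73.jF (L := AlgebraicClosure ℚ) M, jF_mem A M⟩ = 0 from h2]
    exact isAlgebraic_zero)

omit [NeZero (M * q)] [NeZero q] in
theorem rd_jF : (seM hq hqM ht hA).rd (RED.H73.jF (L := AlgebraicClosure ℚ) M) = jRed A M :=
  (seM hq hqM ht hA).rd_of_mem (jF_mem A M)

/-- `β j = j (q z)`. -/
theorem beta_jF (hd : q ∣ M * q) :
    heckeBetaBar Kbar M q (RED.H73.jF (L := AlgebraicClosure ℚ) M) = S24.jdF (M * q) q hd := by
  apply Subtype.ext
  rw [coe_heckeBetaBar]
  exact (RED.H73.coeffEmb_qExpand_jq (L := AlgebraicClosure ℚ) q).symm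

section T

variable (β : Place (kV A) (F1 A q M) ≃ Place (kV A) (F1 A q M))
  (htot : ∀ (u₁ : ↥(V1 A q M)) (u₂ : ↥(V2 A q M a b hab hq)), red1 A q M u₁ ≠ 0 →
    red2 A q M a b hab hq u₂ ≠ 0 →
    (∃ c : Kbar, (u₂ : FN (M * q)) = algebraMap Kbar (FN (M * q)) c * (u₁ : FN (M * q))) →
    ∀ D : Divisor Kbar (FN (M * q)), (∀ P, D P = P.ord (u₁ : FN (M * q))) →
      ∀ z : Place (kV A) (F1 A q M),
        Finsupp.mapDomain (rhoF1 a b hab hq hA hqM ht) D z
          = z.ord (red1 A q M u₁) + (β z).ord (red2 A q M a b hab hq u₂))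

/-- **The compatibilities of the modular datum of level `M q` with the reduction datum of level
`M` along the second degeneracy map.** -/
theorem lowerBeta_mod :
    LowerBeta (modT a b hab hq hA hqM ht β htot) (seM hq hqM ht hA) (heckeBetaBar Kbar M q)
      (beta_isIntegral M q)
      (fun P => rhoF1 a b hab hq hA hqM ht ((wSemi a b hab hq)⁻¹ • P))
      (kappa A q M a b hab hq hA) (H23.eRed A q M a b hab hq hA).toAlgHom where
  kappa_inj := (kappa A q M a b hab hq hA).injective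
  kappa_ord := fun z y =>
    kappa_ord A q M a b hab hq hA z _ y (H23.coe_eRed A q M a b hab hq hA y)
  rho' := fun P => by
    show kappa A q M a b hab hq hA (rhoF1 a b hab hq hA hqM ht ((wSemi a b hab hq)⁻¹ • P)) = _
    rw [kappa_rhoF1]
    unfold rhoM
    rw [restrictAlong_wSemi]
    rfl
  mem₁ := fun x hx => (beta_mem_V1_iff A q M x).2 hx
  mem₂ := fun x hx => (beta_mem_V2_iff A q M a b hab hq x).2 hx
  rd₂ := fun x hx => by
    have h' : heckeBetaBar Kbar M q x ∈ V2 A q M a b hab hq :=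
      (beta_mem_V2_iff A q M a b hab hq x).2 hx
    rw [(modT a b hab hq hA hqM ht β htot).p₂.rd_of_mem h', (seM hq hqM ht hA).rd_of_mem hx]
    apply Subtype.ext
    show ((red2 A q M a b hab hq ⟨_, h'⟩ : F1 A q M) : LaurentSeries (kV A)) = _
    rw [red2_beta A q M a b hab hq x hx h']
    exact (H23.coe_eRed A q M a b hab hq hA _).symm

include β htot in
/-- **CUSP-W, modular form**: if `ρ P` is not a cusp, then `ρ (w_q⁻¹ P)` is not a cusp. -/
theorem cuspW_mod (P : Place Kbar (FN (M * q)))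
    (hPz : 0 ≤ (rhoF1 a b hab hq hA hqM ht P).ord (H23.eRed A q M a b hab hq hA (jRed A M))) :
    0 ≤ (rhoF1 a b hab hq hA hqM ht ((wSemi a b hab hq)⁻¹ • P)).ord
      (H23.eRed A q M a b hab hq hA (jRed A M)) := by
  haveI : IsAlgClosed (kV A) := isAlgClosed_kV A
  have hFFL : IsFF Kbar ↥(FNbar (M * q)) := H95.stmt_HKA_isFF (M * q)
  have hFF0 : IsFF Kbar ↥(FNbar M) := H95.stmt_HKA_isFF M
  have H := RED.H17.ffHyp_of_isFF _ _ hFFL
  have H₀ := RED.H17.ffHyp_of_isFF _ _ hFF0
  have hd : q ∣ M * q := Dvd.intro_left M rfl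
  have hLB := lowerBeta_mod a b hab hq hA hqM ht β htot
  have hJ := isGU_jF hq hA hqM ht
  have hrd := rd_jF hq hA hqM ht
  have key : ∀ y : ↥(_root_.Fermat.Agent.BAD.H91.redM A M),
      (seM hq hqM ht hA).rd (RED.H73.jF (L := AlgebraicClosure ℚ) M) = y → y = jRed A M →
      0 ≤ (rhoF1 a b hab hq hA hqM ht P).ord (H23.eRed A q M a b hab hq hA y) →
      0 ≤ (rhoF1 a b hab hq hA hqM ht ((wSemi a b hab hq)⁻¹ • P)).ord
        (H23.eRed A q M a b hab hq hA y) := by
    intro y hy hy' hPy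
    subst hy
    refine hLB.cuspW H.principal H.deg_one H₀.principal hJ ?_ ?_ P hPy
    · intro Q hQ
      rw [hy']
      exact ord_jRed_pos_of_rM hq hA hqM ht Q hQ
    · intro P' hP'
      have h1 : 0 ≤ (rhoM hq hqM ht hA P').ord (jRed A M) := by
        rw [← kappa_rhoF1 a b hab hq hA hqM ht P',
          kappa_ord A q M a b hab hq hA _ (H23.eRed A q M a b hab hq hA (jRed A M))
            (jRed A M) (H23.coe_eRed A q M a b hab hq hA _)]
        have h2 : 0 ≤ (rhoF1 a b hab hq hA hqM ht P').ord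
            (H23.eRed A q M a b hab hq hA
              ((seM hq hqM ht hA).rd (RED.H73.jF (L := AlgebraicClosure ℚ) M))) := hP'
        rwa [hy'] at h2
      have h2 := ord_jF_nonneg_of_rM hq hqM ht hA _ h1
      have h3 : 0 ≤ P'.ord (incl M q (RED.H73.jF (L := AlgebraicClosure ℚ) M)) := by
        rw [Place.ord_restrictAlong (incl M q) (incl_isIntegral M q) P']
        exact mul_nonneg (Int.natCast_nonneg _) h2
      rw [incl_jF] at h3
      rw [beta_jF hd]
      exact Fermat.Agent.S15.H26.ord_jdF_nonneg (M * q) q hd P' h3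
  have hPz' : 0 ≤ (rhoF1 a b hab hq hA hqM ht P).ord (H23.eRed A q M a b hab hq hA
      ((seM hq hqM ht hA).rd (RED.H73.jF (L := AlgebraicClosure ℚ) M))) := by
    rw [hrd]
    exact hPz
  have h := key _ rfl hrd hPz'
  rwa [hrd] at h

omit [NeZero (M * q)] [NeZero q] in
include hq hA hqM ht in
/-- `j` of level `M` has a pole and a zero. -/
theorem exists_pole_zero_jF :
    (∃ P₀ : Place Kbar (FN M), P₀.ord (RED.H73.jF (L := AlgebraicClosure ℚ) M) < 0) ∧
    (∃ P₀ : Place Kbar (FN M), 0 < P₀.ord (RED.H73.jF (L := AlgebraicClosure ℚ) M)) := by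
  have hFF0 : IsFF Kbar ↥(FNbar M) := H95.stmt_HKA_isFF M
  have H₀ := RED.H17.ffHyp_of_isFF _ _ hFF0
  have hxt : Transcendental (AlgebraicClosure ℚ) (RED.H73.jF (L := AlgebraicClosure ℚ) M) :=
    RED.H34.RedSetting.transcendental_x (S := redSetting A (hasScale_laurentBaseChange A M))
      (jF_mem A M) (RED.H73.transcendental_red_jF A M)
  have hxit : Transcendental (AlgebraicClosure ℚ) (RED.H73.jF (L := AlgebraicClosure ℚ) M)⁻¹ :=
    fun h => hxt (IsAlgebraic.inv_iff.mp h)
  constructor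
  · obtain ⟨v, hv⟩ := H₀.exists_zero (f := (RED.H73.jF (L := AlgebraicClosure ℚ) M)⁻¹) (by
      rintro ⟨c, hc⟩
      exact hxit (hc ▸ isAlgebraic_algebraMap c))
    refine ⟨v, ?_⟩
    rw [Place.ord_inv] at hv
    omega
  · exact H₀.exists_zero (by
      rintro ⟨c, hc⟩
      exact hxt (hc ▸ isAlgebraic_algebraMap c))

/-- **Over a node, `ρ (w_q⁻¹ P) = β (ρ P)`.** -/
theorem rhoW_eq_beta_mod
    (hβJ : ∀ z : Place (kV A) (F1 A q M),
      (β z).ord (H23.eRed A q M a b hab hq hA (jRed A M))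
        = z.ord (H23.eRed A q M a b hab hq hA (jRed A M)))
    {P : Place Kbar (FN (M * q))}
    (hz : (modT a b hab hq hA hqM ht β htot).IsNode (rhoF1 a b hab hq hA hqM ht P)) :
    rhoF1 a b hab hq hA hqM ht ((wSemi a b hab hq)⁻¹ • P)
      = β (rhoF1 a b hab hq hA hqM ht P) := by
  haveI : IsAlgClosed (kV A) := isAlgClosed_kV A
  haveI : Infinite (kV A) := IsAlgClosed.instInfinite
  have hFFL : IsFF Kbar ↥(FNbar (M * q)) := H95.stmt_HKA_isFF (M * q)
  have hFF0 : IsFF Kbar ↥(FNbar M) := H95.stmt_HKA_isFF M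
  have hFF' : IsFF (kV A) ↥(_root_.Fermat.Agent.BAD.H91.redM A M) := isFF_redM hq hqM ht hA
  have H := RED.H17.ffHyp_of_isFF _ _ hFFL
  have H₀ := RED.H17.ffHyp_of_isFF _ _ hFF0
  have H' := RED.H17.ffHyp_of_isFF _ _ hFF'
  obtain ⟨g', c', hg⟩ := RED.H17.exists_isGenus _ _ hFF'
  have hLB := lowerBeta_mod a b hab hq hA hqM ht β htot
  have hWW : ∀ P' : Place Kbar (FN (M * q)),
      (wSemi a b hab hq)⁻¹ • ((wSemi a b hab hq)⁻¹ • P') = P' := by
    intro P'
    rw [wSemi_inv, ← mul_smul, wSemi_mul_self, one_smul]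
  obtain ⟨⟨Pp, hPp⟩, ⟨Pz, hPz⟩⟩ := exists_pole_zero_jF hq hA hqM ht
  have hord : ∀ (z : Place (kV A) (F1 A q M)) (Q : Place Kbar (FN M)),
      kappa A q M a b hab hq hA z = rM hq hqM ht hA Q →
      z.ord (H23.eRed A q M a b hab hq hA (jRed A M)) = (rM hq hqM ht hA Q).ord (jRed A M) := by
    intro z Q hzQ
    rw [← hzQ]
    exact (kappa_ord A q M a b hab hq hA z _ (jRed A M)
      (H23.coe_eRed A q M a b hab hq hA _)).symm
  refine hLB.rho'_eq_beta H.principal H.deg_one H₀ H' (seM_genusLE' hq hqM ht hA) hg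
    (H23.eRed A q M a b hab hq hA (jRed A M)) ?_ ?_ ?_ ?_ hz
  · intro P'
    constructor
    · intro h
      have h1 := cuspW_mod a b hab hq hA hqM ht β htot _ h
      rwa [hWW] at h1
    · intro h
      exact cuspW_mod a b hab hq hA hqM ht β htot _ h
  · intro z
    show 0 ≤ (β z).ord _ ↔ _
    rw [hβJ]
  · refine ⟨Pp, fun z hzp => ?_⟩
    rw [hord z Pp hzp]
    exact ord_jRed_neg_of_rM hq hA hqM ht Pp hPp
  · refine ⟨Pz, fun z hzp => ?_⟩
    rw [hord z Pz hzp]
    exact (ord_jRed_pos_of_rM hq hA hqM ht Pz hPz).le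

end T

end Mod

end Fermat.Agent.BAD.H91

end
end
-- ==== END Fermat.Agent.BAD.H91_WRho

-- ==== BEGIN Fermat.Agent.NEB.OLD.H6_DegBeta
section

/-!
# NEB, package OLDNEW, leaf OLD-DEG (helper6): `[F₀(Mq²) : β' F₀(Mq)] = q` for a prime `q ∤ M`

Tower law in the commutative square `β' ∘ α = α' ∘ β`
```
F_{Mq} --β'--> F_{Mq²}
  ^               ^
  α               α'
 F_M  ---β--->  F_{Mq}
```
with `[F_{Mq} : α F_M] = q + 1 = [F_{Mq} : β F_M]` (`RED.H95.finrankAlong_alpha`,
`finrankAlong_beta`, `q ∤ M`) and `[F_{Mq²} : α' F_{Mq}] = q` (`S36.NU.H82.relfinrank_FM_FN_of_dvd`,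
`q ∣ M q`).
-/

set_option autoImplicit false
set_option linter.style.haveILetI false

noncomputable section

namespace Fermat.Agent.NEB.OLD.H6

open AlgebraicCurve ModularCurve Fermat.Agent.S36.H44

local notation "Kb" => AlgebraicClosure ℚ

/-- `finrankHom` of the underlying ring homomorphism is `finrankAlong`. -/
theorem rlfHomAlong {K F F' : Type*} [Field K] [Field F] [Field F'] [Algebra K F]
    [Algebra K F'] (φ : F →ₐ[K] F') : finrankHom φ.toRingHom = finrankAlong K φ := rfl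

/-- `[F_{Nq} : α F_N] = q` for a prime `q ∣ N`, in the vocabulary of the prelude. -/
theorem finrankAlong_alpha_of_dvd (N q : ℕ) [NeZero N] [NeZero q] (hq : q.Prime)
    (hqN : q ∣ N) : finrankAlong Kb (heckeAlphaBar Kb N q) = q := by
  haveI : NeZero (N * q) := ⟨Nat.mul_ne_zero (NeZero.ne N) (NeZero.ne q)⟩
  have h1 := Fermat.Agent.RED.H51.finrankAlong_eq_relfinrank_map
    (laurentBaseChange Kb (modularFunctionFieldFull N))
    (laurentBaseChange Kb (modularFunctionFieldFull (N * q)))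
    (AlgHom.id Kb (LaurentSeries Kb)) (heckeAlphaBar Kb N q)
    (fun x => coe_heckeAlphaBar N q x)
  rw [h1, IntermediateField.map_id]
  exact Fermat.Agent.S36.NU.H82.relfinrank_FM_FN_of_dvd q N hq hqN

/-- **OLD-DEG**. -/
theorem stmt_DegBeta : Stmt_DegBeta := by
  intro M q _ _ _ hq hqM
  have hsq : (heckeBetaBar Kb (M * q) q).toRingHom.comp (heckeAlphaBar Kb M q).toRingHom
      = (heckeAlphaBar Kb (M * q) q).toRingHom.comp (heckeBetaBar Kb M q).toRingHom := by
    ext x
    simp only [RingHom.comp_apply, AlgHom.toRingHom_eq_coe, RingHom.coe_coe, coe_heckeBetaBar,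
      coe_heckeAlphaBar]
  have h1 := finrank_comp_h44 (heckeAlphaBar Kb M q).toRingHom
    (heckeBetaBar Kb (M * q) q).toRingHom
  have h2 := finrank_comp_h44 (heckeBetaBar Kb M q).toRingHom
    (heckeAlphaBar Kb (M * q) q).toRingHom
  have ha : finrankHom (heckeAlphaBar Kb M q).toRingHom = q + 1 :=
    (rlfHomAlong _).trans (Fermat.Agent.RED.H95.finrankAlong_alpha hq hqM)
  have hb : finrankHom (heckeBetaBar Kb M q).toRingHom = q + 1 :=
    (rlfHomAlong _).trans (Fermat.Agent.RED.H95.finrankAlong_beta hq hqM)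
  have ha' : finrankHom (heckeAlphaBar Kb (M * q) q).toRingHom = q :=
    (rlfHomAlong _).trans
      (finrankAlong_alpha_of_dvd (M * q) q hq (dvd_mul_left q M))
  rw [hsq, h2, ha, hb, ha'] at h1
  have h3 : finrankHom (heckeBetaBar Kb (M * q) q).toRingHom = q :=
    (Nat.eq_of_mul_eq_mul_left (Nat.succ_pos q) h1).symm
  exact (rlfHomAlong _).symm.trans h3

end Fermat.Agent.NEB.OLD.H6

end
end
-- ==== END Fermat.Agent.NEB.OLD.H6_DegBeta

-- ==== BEGIN Fermat.Agent.S36.NU.H10_Tame
section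

/-!
# S36 / NU-B (helper10): the tameness hypotheses of the leaves from `TameNU (M q) q`

For `q` prime, `q ∤ M`: `H81.TameNU (M * q) q` (`4 ∣ M q` if `q ≠ 2`, `9 ∣ M q` if `q = 2`) gives
* `four_dvd_of_tameNU` : `q ≠ 2 → 4 ∣ M`;
* `nine_dvd_of_tameNU` : `q = 2 → 9 ∣ M`;
* `tameAt_of_tameNU` : `BAD.H91.TameAt M q` (`5 ≤ q ∨ (q = 3 ∧ 2 ∣ M) ∨ (q = 2 ∧ 3 ∣ M)`);
* `cases_of_tameNU` : `(5 ≤ q ∧ 4 ∣ M) ∨ (q = 3 ∧ 4 ∣ M) ∨ (q = 2 ∧ 9 ∣ M)`.
-/

set_option autoImplicit false

namespace Fermat.Agent.S36.NU.H10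

open Fermat.Agent.S36.NU.H81

theorem four_dvd_of_tameNU {q M : ℕ} (hq : q.Prime) (ht : TameNU (M * q) q) (h2 : q ≠ 2) :
    4 ∣ M := by
  rcases ht with ⟨-, h4⟩ | ⟨h, -⟩
  · have hodd : Nat.Coprime 4 q := by
      have h2q : Nat.Coprime 2 q :=
        (Nat.coprime_primes Nat.prime_two hq).2 (fun h => h2 h.symm)
      have : Nat.Coprime (2 ^ 2) q := Nat.Coprime.pow_left 2 h2q
      simpa using this
    exact hodd.dvd_of_dvd_mul_right h4
  · exact absurd h h2

theorem nine_dvd_of_tameNU {q M : ℕ} (ht : TameNU (M * q) q) (h2 : q = 2) : 9 ∣ M := by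
  rcases ht with ⟨h, -⟩ | ⟨-, h9⟩
  · exact absurd h2 h
  · subst h2
    have hc : Nat.Coprime 9 2 := by decide
    exact hc.dvd_of_dvd_mul_right h9

theorem cases_of_tameNU {q M : ℕ} (hq : q.Prime) (ht : TameNU (M * q) q) :
    (5 ≤ q ∧ 4 ∣ M) ∨ (q = 3 ∧ 4 ∣ M) ∨ (q = 2 ∧ 9 ∣ M) := by
  by_cases h2 : q = 2
  · exact Or.inr (Or.inr ⟨h2, nine_dvd_of_tameNU ht h2⟩)
  · have h4 := four_dvd_of_tameNU hq ht h2
    by_cases h3 : q = 3
    · exact Or.inr (Or.inl ⟨h3, h4⟩)
    · refine Or.inl ⟨?_, h4⟩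
      have h2' := hq.two_le
      by_contra hlt
      have hq4 : q = 4 := by omega
      subst hq4
      exact absurd hq (by decide)

theorem tameAt_of_tameNU {q M : ℕ} (hq : q.Prime) (ht : TameNU (M * q) q) :
    Fermat.Agent.BAD.H91.TameAt M q := by
  rcases cases_of_tameNU hq ht with ⟨h5, -⟩ | ⟨h3, h4⟩ | ⟨h2, h9⟩
  · exact Or.inl h5
  · exact Or.inr (Or.inl ⟨h3, Dvd.dvd.trans (by decide) h4⟩)
  · exact Or.inr (Or.inr ⟨h2, Dvd.dvd.trans (by decide) h9⟩)

end Fermat.Agent.S36.NU.H10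

end
-- ==== END Fermat.Agent.S36.NU.H10_Tame

-- ==== BEGIN Fermat.Agent.S36.NU.H16_LocalDefs
section

/-!
# S36 / NU-B, local side of TI3 (helper16): definitions

Ring language for ONE chart of the arithmetic surface (used twice: `j` and `j⁻¹`).

* `Chart R F k ι κ` : the coordinate ring `B` (a subalgebra of the function field `F`), the
  valuation rings `V i` of the components of the special fibre (`B ⊆ V i`), their residue maps
  `red i : V i → κ i` and the residue map `res : R → k` on constants.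
* `Chart.rd i : F → κ i` : the total residue map (`0` outside `V i`).
* `Chart.rdB i : B →+* κ i`, `Chart.Icomp i = ker (rdB i)` : the prime ideal of the component `i`.
* `Branch C 𝔪 i` : the branch of the component `i` through the closed point `𝔪` of the chart:
  a valuation ring `O` of `κ i` (the place of the point on the component) with
  `reg`, `van` (`β ∈ 𝔪 ↔ rd β` vanishes at the place), `normal` (the component is normal at the
  point: `(B / I_i)_𝔪 = O`), `arch` (rank one) and `value` (residue field `k`).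
* `Chart.Good h n g β` : `β ∈ J`, i.e. there is `s` with `h sⁿ ∈ B` and `rd i s = rd i β * g i`.
-/

set_option autoImplicit false

noncomputable section

namespace Fermat.Agent.S36.NU.H16

/-- **A chart** of the arithmetic surface with the components of its special fibre. -/
structure Chart (R F k ι : Type*) (κ : ι → Type*) [CommRing R] [Field F] [Algebra R F]
    [Field k] [∀ i, Field (κ i)] [∀ i, Algebra k (κ i)] where
  /-- the coordinate ring of the chart -/
  B : Subalgebra R F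
  /-- the valuation rings of the components of the special fibre -/
  V : ι → ValuationSubring F
  B_le : ∀ (i : ι) (x : F), x ∈ B → x ∈ V i
  /-- the residue maps -/
  red : ∀ i, V i →+* κ i
  red_eq_zero_iff : ∀ (i : ι) (u : V i), red i u = 0 ↔ u ∈ IsLocalRing.maximalIdeal (V i)
  /-- the residue map on constants -/
  res : R →+* k
  res_surj : Function.Surjective res
  red_const : ∀ (i : ι) (r : R) (hr : algebraMap R F r ∈ V i),
    red i ⟨algebraMap R F r, hr⟩ = algebraMap k (κ i) (res r)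

namespace Chart

variable {R F k ι : Type*} {κ : ι → Type*} [CommRing R] [Field F] [Algebra R F]
  [Field k] [∀ i, Field (κ i)] [∀ i, Algebra k (κ i)] (C : Chart R F k ι κ)

open Classical in
/-- The total residue map: `red i` on `V i`, zero elsewhere. -/
def rd (i : ι) (x : F) : κ i := if hx : x ∈ C.V i then C.red i ⟨x, hx⟩ else 0

theorem rd_of_mem (i : ι) {x : F} (hx : x ∈ C.V i) : C.rd i x = C.red i ⟨x, hx⟩ := by
  simp [rd, hx]

theorem rd_of_not_mem (i : ι) {x : F} (hx : x ∉ C.V i) : C.rd i x = 0 := by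
  simp [rd, hx]

@[simp] theorem rd_zero (i : ι) : C.rd i 0 = 0 := by
  rw [C.rd_of_mem i (zero_mem _)]
  exact map_zero (C.red i)

@[simp] theorem rd_one (i : ι) : C.rd i 1 = 1 := by
  rw [C.rd_of_mem i (one_mem _)]
  exact map_one (C.red i)

theorem rd_add (i : ι) {x y : F} (hx : x ∈ C.V i) (hy : y ∈ C.V i) :
    C.rd i (x + y) = C.rd i x + C.rd i y := by
  rw [C.rd_of_mem i hx, C.rd_of_mem i hy, C.rd_of_mem i (add_mem hx hy),
    ← map_add]
  rfl

theorem rd_mul (i : ι) {x y : F} (hx : x ∈ C.V i) (hy : y ∈ C.V i) :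
    C.rd i (x * y) = C.rd i x * C.rd i y := by
  rw [C.rd_of_mem i hx, C.rd_of_mem i hy, C.rd_of_mem i (mul_mem hx hy),
    ← map_mul]
  rfl

theorem rd_neg (i : ι) {x : F} (hx : x ∈ C.V i) : C.rd i (-x) = -C.rd i x := by
  rw [C.rd_of_mem i hx, C.rd_of_mem i (neg_mem hx), ← map_neg]
  rfl

theorem rd_sub (i : ι) {x y : F} (hx : x ∈ C.V i) (hy : y ∈ C.V i) :
    C.rd i (x - y) = C.rd i x - C.rd i y := by
  rw [sub_eq_add_neg, C.rd_add i hx (neg_mem hy), C.rd_neg i hy, sub_eq_add_neg]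

theorem rd_pow (i : ι) {x : F} (hx : x ∈ C.V i) (n : ℕ) : C.rd i (x ^ n) = C.rd i x ^ n := by
  rw [C.rd_of_mem i hx, C.rd_of_mem i (pow_mem hx n), ← map_pow]
  rfl

theorem rd_eq_zero_iff (i : ι) {x : F} (hx : x ∈ C.V i) :
    C.rd i x = 0 ↔ x ∈ (C.V i).nonunits := by
  rw [C.rd_of_mem i hx, C.red_eq_zero_iff, ValuationSubring.mem_nonunits_iff_exists_mem_maximalIdeal]
  constructor
  · intro h
    exact ⟨hx, h⟩
  · rintro ⟨_, h⟩
    exact h

theorem mem_of_rd_ne_zero (i : ι) {x : F} (hx : C.rd i x ≠ 0) : x ∈ C.V i := by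
  by_contra h
  exact hx (C.rd_of_not_mem i h)

/-- If `x ∈ V i` has nonzero residue then `x⁻¹ ∈ V i`. -/
theorem inv_mem_of_rd_ne_zero (i : ι) {x : F} (hx : C.rd i x ≠ 0) : x⁻¹ ∈ C.V i := by
  have hxV := C.mem_of_rd_ne_zero i hx
  by_contra h
  apply hx
  rw [C.rd_eq_zero_iff i hxV, ValuationSubring.mem_nonunits_iff, ← not_le]
  intro h1
  have hx0 : x ≠ 0 := by
    rintro rfl
    exact hx (C.rd_zero i)
  have h2 : (C.V i).valuation x = 1 :=
    le_antisymm ((C.V i).valuation_le_one_iff x |>.2 hxV) h1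
  apply h
  rw [← ValuationSubring.valuation_le_one_iff, map_inv₀, h2, inv_one]

theorem rd_inv (i : ι) {x : F} (hx : C.rd i x ≠ 0) : C.rd i x⁻¹ = (C.rd i x)⁻¹ := by
  have hxV := C.mem_of_rd_ne_zero i hx
  have hiV := C.inv_mem_of_rd_ne_zero i hx
  have hx0 : x ≠ 0 := by
    rintro rfl
    exact hx (C.rd_zero i)
  have h1 : C.rd i x * C.rd i x⁻¹ = 1 := by
    rw [← C.rd_mul i hxV hiV, mul_inv_cancel₀ hx0, C.rd_one]
  exact eq_inv_of_mul_eq_one_right h1

theorem rd_algebraMap (i : ι) (r : R) : C.rd i (algebraMap R F r) = algebraMap k (κ i) (C.res r) := by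
  have h : algebraMap R F r ∈ C.V i := C.B_le i _ (C.B.algebraMap_mem r)
  rw [C.rd_of_mem i h, C.red_const]

/-- `n`-th roots: if `xⁿ ∈ V i` then `x ∈ V i`. -/
theorem mem_of_pow_mem (i : ι) {x : F} {n : ℕ} (hn : 0 < n) (hx : x ^ n ∈ C.V i) : x ∈ C.V i := by
  rw [← ValuationSubring.valuation_le_one_iff] at hx ⊢
  rw [map_pow] at hx
  exact (pow_le_one_iff_of_nonneg zero_le hn.ne').1 hx

/-- The residue map of the component `i` on the coordinate ring. -/
def rdB (i : ι) : C.B →+* κ i where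
  toFun β := C.red i ⟨β.1, C.B_le i _ β.2⟩
  map_one' := map_one (C.red i)
  map_mul' x y := by
    rw [← map_mul]
    rfl
  map_zero' := map_zero (C.red i)
  map_add' x y := by
    rw [← map_add]
    rfl

theorem rd_coe (i : ι) (β : C.B) : C.rd i (β : F) = C.rdB i β :=
  C.rd_of_mem i (C.B_le i _ β.2)

/-- The prime ideal of the component `i`. -/
def Icomp (i : ι) : Ideal C.B := RingHom.ker (C.rdB i)

theorem mem_Icomp (i : ι) (β : C.B) : β ∈ C.Icomp i ↔ C.rdB i β = 0 := RingHom.mem_ker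

instance Icomp_isPrime (i : ι) : (C.Icomp i).IsPrime := RingHom.ker_isPrime _

/-- `β ∈ J`: there is a section `s` (`h sⁿ ∈ B`) whose residues are `rd β * g`. -/
def Good (h : F) (n : ℕ) (g : ∀ i, κ i) (β : C.B) : Prop :=
  ∃ s : F, h * s ^ n ∈ C.B ∧ ∀ i, C.rd i s = C.rdB i β * g i

end Chart

variable {R F k ι : Type*} {κ : ι → Type*} [CommRing R] [Field F] [Algebra R F]
  [Field k] [∀ i, Field (κ i)] [∀ i, Algebra k (κ i)]

/-- **The branch of the component `i` through the closed point `𝔪`.** -/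
structure Branch (C : Chart R F k ι κ) (𝔪 : Ideal C.B) (i : ι) where
  /-- the valuation ring of the point on the component -/
  O : ValuationSubring (κ i)
  reg : ∀ β : C.B, C.rdB i β ∈ O
  van : ∀ β : C.B, β ∈ 𝔪 ↔ C.rdB i β ∈ O.nonunits
  /-- the component is normal at the point -/
  normal : ∀ y ∈ O, ∃ b β : C.B, β ∉ 𝔪 ∧ C.rdB i b = y * C.rdB i β
  /-- rank one -/
  arch : ∀ x ∈ O.nonunits, ∀ y : κ i, y ≠ 0 → ∃ N : ℕ, ∀ M : ℕ, N ≤ M → x ^ M * y⁻¹ ∈ O
  /-- the residue field of the point is `k` -/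
  value : ∀ y ∈ O, ∃ c : k, y - algebraMap k (κ i) c ∈ O.nonunits

/-- Hypotheses on the chart and on `h`, `n`, `g` shared by all statements. -/
structure Setup (C : Chart R F k ι κ) (q n : ℕ) (h : F) (g : ∀ i, κ i) : Prop where
  q_prime : q.Prime
  charq : ∀ i, CharP (κ i) q
  n_pos : 0 < n
  coprime : Nat.Coprime n q
  /-- `B` is closed under `n`-th roots -/
  root : ∀ x : F, x ^ n ∈ C.B → x ∈ C.B
  /-- the components are pairwise distinct -/
  inc : ∀ i i' : ι, i ≠ i' → ∃ τ : C.B, C.rdB i' τ = 0 ∧ C.rdB i τ ≠ 0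
  /-- `h` is a unit at the components and `g` is an `n`-th root of `1 / red h` -/
  root_g : ∀ i, g i ^ n * C.rd i h = 1

/-- **(LL)** the local lemma at a closed point `𝔪` of the chart.
`REG`: `s` is a local generator at `𝔪` (`h sⁿ ∈ B ∖ 𝔪`);
`EQV`: the values of `g i / rd i s` at the point agree on all branches through `𝔪`
(automatic if there is one branch only). -/
def Stmt_LL : Prop :=
  ∀ {R F k ι : Type} {κ : ι → Type} [CommRing R] [Field F] [Algebra R F]
    [Field k] [∀ i, Field (κ i)] [∀ i, Algebra k (κ i)] [Fintype ι]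
    (C : Chart R F k ι κ) (q n : ℕ) (h : F) (g : ∀ i, κ i) (_ : Setup C q n h g)
    (𝔪 : Ideal C.B) (_ : 𝔪.IsMaximal) (br : ∀ i, C.Icomp i ≤ 𝔪 → Branch C 𝔪 i)
    (s : F) (hs : h * s ^ n ∈ C.B) (_ : (⟨h * s ^ n, hs⟩ : C.B) ∉ 𝔪)
    (c : k) (_ : ∀ (i : ι) (hi : C.Icomp i ≤ 𝔪),
      g i * (C.rd i s)⁻¹ - algebraMap k (κ i) c ∈ (br i hi).O.nonunits),
    ∃ β : C.B, β ∉ 𝔪 ∧ C.Good h n g β

/-- **(PATCH)** local sections with the prescribed residues patch to a global one. -/
def Stmt_Patch : Prop :=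
  ∀ {R F k ι : Type} {κ : ι → Type} [CommRing R] [Field F] [Algebra R F]
    [Field k] [∀ i, Field (κ i)] [∀ i, Algebra k (κ i)] [Fintype ι]
    (C : Chart R F k ι κ) (q n : ℕ) (h : F) (g : ∀ i, κ i) (_ : Setup C q n h g)
    (_ : ∀ 𝔪 : Ideal C.B, 𝔪.IsMaximal → (∃ i, C.Icomp i ≤ 𝔪) → ∃ β : C.B, β ∉ 𝔪 ∧ C.Good h n g β),
    ∃ a : F, h * a ^ n ∈ C.B ∧ ∀ i, C.rd i a = g i

/-- **(SEMI)** finitely many closed points have a common local generator
(used to put `h` in good position at the triple points: replace `h` by `h wⁿ`). -/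
def Stmt_Semi : Prop :=
  ∀ {R F : Type} [CommRing R] [Field F] [Algebra R F] (B : Subalgebra R F) (n : ℕ) (_ : 0 < n)
    (_ : ∀ x : F, x ^ n ∈ B → x ∈ B) (h : F) (T : Finset (Ideal B)) (_ : ∀ 𝔪 ∈ T, 𝔪.IsMaximal)
    (_ : ∀ 𝔪 ∈ T, ∃ (s : F) (hs : h * s ^ n ∈ B), (⟨h * s ^ n, hs⟩ : B) ∉ 𝔪),
    ∃ (w : F) (hw : h * w ^ n ∈ B), ∀ 𝔪 ∈ T, (⟨h * w ^ n, hw⟩ : B) ∉ 𝔪

end Fermat.Agent.S36.NU.H16

end
end
-- ==== END Fermat.Agent.S36.NU.H16_LocalDefs

-- ==== BEGIN Fermat.Agent.S36.NU.H16_Ufd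
section

/-!
# S36 / NU-B, local side of TI3 (helper16): prime elements of a UFD and local `n`-th powers

* `primeVal π hπ : ValuationSubring F` : the valuation ring of the prime element `π` of the UFD
  `B'` in its fraction field `F` (`f = a / b` with `π ∤ b`).
* `ufd_unit_mul_pow` : if for every prime element `π` some `h sⁿ` is a `π`-unit
  (`h sⁿ b = a`, `π ∤ a`, `π ∤ b`) then `h = u sⁿ` with `u` a unit of `B'`.
* `ufd_unit_mul_pow_of_val` : the same with `h sⁿ` a unit of `primeVal π`.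
-/

set_option autoImplicit false

noncomputable section

namespace Fermat.Agent.S36.NU.H16

variable {B' F : Type*} [CommRing B'] [IsDomain B'] [Field F] [Algebra B' F] [IsFractionRing B' F]

/-- The valuation ring of a prime element of a UFD. -/
def primeVal [UniqueFactorizationMonoid B'] (π : B') (hπ : Prime π) : ValuationSubring F where
  carrier := {f | ∃ a b : B', ¬ π ∣ b ∧ f * algebraMap B' F b = algebraMap B' F a}
  mul_mem' := by
    rintro f g ⟨a, b, hb, hf⟩ ⟨a', b', hb', hg⟩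
    refine ⟨a * a', b * b', fun h => ?_, ?_⟩
    · rcases hπ.dvd_or_dvd h with h1 | h1
      · exact hb h1
      · exact hb' h1
    · rw [map_mul, map_mul, ← hf, ← hg]
      ring
  one_mem' := ⟨1, 1, hπ.not_dvd_one, by rw [one_mul]⟩
  add_mem' := by
    rintro f g ⟨a, b, hb, hf⟩ ⟨a', b', hb', hg⟩
    refine ⟨a * b' + a' * b, b * b', fun h => ?_, ?_⟩
    · rcases hπ.dvd_or_dvd h with h1 | h1
      · exact hb h1
      · exact hb' h1
    · rw [map_add, map_mul, map_mul, map_mul, ← hf, ← hg]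
      ring
  zero_mem' := ⟨0, 1, hπ.not_dvd_one, by rw [zero_mul, map_zero]⟩
  neg_mem' := by
    rintro f ⟨a, b, hb, hf⟩
    exact ⟨-a, b, hb, by rw [map_neg, ← hf]; ring⟩
  mem_or_inv_mem' := by
    intro x
    have hinj : Function.Injective (algebraMap B' F) := IsFractionRing.injective B' F
    rcases eq_or_ne x 0 with rfl | hx
    · exact Or.inl ⟨0, 1, hπ.not_dvd_one, by rw [zero_mul, map_zero]⟩
    obtain ⟨a, ⟨b, hb⟩, hab, hmk⟩ := IsFractionRing.exists_reduced_fraction B' x
    have hb0 : b ≠ 0 := nonZeroDivisors.ne_zero hb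
    have hbF : algebraMap B' F b ≠ 0 := (map_ne_zero_iff _ hinj).2 hb0
    have heq : x * algebraMap B' F b = algebraMap B' F a := by
      rw [← hmk]
      exact IsLocalization.mk'_spec F a ⟨b, hb⟩
    by_cases hd : π ∣ b
    · right
      have hda : ¬ π ∣ a := fun h => hπ.not_isUnit (hab h hd)
      refine ⟨b, a, hda, ?_⟩
      rw [← heq]
      field_simp
    · exact Or.inl ⟨a, b, hd, heq⟩

theorem mem_primeVal [UniqueFactorizationMonoid B'] (π : B') (hπ : Prime π) (f : F) :
    f ∈ primeVal (F := F) π hπ ↔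
      ∃ a b : B', ¬ π ∣ b ∧ f * algebraMap B' F b = algebraMap B' F a := Iff.rfl

theorem algebraMap_mem_primeVal [UniqueFactorizationMonoid B'] (π : B') (hπ : Prime π) (a : B') :
    algebraMap B' F a ∈ primeVal (F := F) π hπ :=
  ⟨a, 1, hπ.not_dvd_one, by rw [map_one, mul_one]⟩

theorem inv_mem_primeVal [UniqueFactorizationMonoid B'] (π : B') (hπ : Prime π) {a : B'}
    (ha : ¬ π ∣ a) : (algebraMap B' F a)⁻¹ ∈ primeVal (F := F) π hπ := by
  have hinj : Function.Injective (algebraMap B' F) := IsFractionRing.injective B' F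
  have ha0 : a ≠ 0 := by
    rintro rfl
    exact ha (dvd_zero π)
  have haF : algebraMap B' F a ≠ 0 := (map_ne_zero_iff _ hinj).2 ha0
  exact ⟨1, a, ha, by rw [inv_mul_cancel₀ haF, map_one]⟩

theorem primeVal_ne_top [UniqueFactorizationMonoid B'] (π : B') (hπ : Prime π) :
    primeVal (F := F) π hπ ≠ ⊤ := by
  have hinj : Function.Injective (algebraMap B' F) := IsFractionRing.injective B' F
  intro htop
  have h1 : (algebraMap B' F π)⁻¹ ∈ primeVal (F := F) π hπ := by
    rw [htop]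
    exact ValuationSubring.mem_top _
  obtain ⟨a, b, hb, hf⟩ := h1
  apply hb
  have hπF : algebraMap B' F π ≠ 0 := (map_ne_zero_iff _ hinj).2 hπ.ne_zero
  have h2 : algebraMap B' F b = algebraMap B' F (π * a) := by
    rw [map_mul, ← hf]
    field_simp
  exact ⟨a, hinj h2⟩

/-- A unit of `primeVal π` is a quotient of two elements prime to `π`. -/
theorem exists_of_unit_primeVal [UniqueFactorizationMonoid B'] (π : B') (hπ : Prime π) {f : F}
    (hf : f ∈ primeVal (F := F) π hπ) (hf' : f⁻¹ ∈ primeVal (F := F) π hπ) (hf0 : f ≠ 0) :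
    ∃ a b : B', ¬ π ∣ a ∧ ¬ π ∣ b ∧ f * algebraMap B' F b = algebraMap B' F a := by
  have hinj : Function.Injective (algebraMap B' F) := IsFractionRing.injective B' F
  obtain ⟨a, b, hb, h1⟩ := hf
  obtain ⟨a', b', hb', h2⟩ := hf'
  refine ⟨a, b, fun hda => ?_, hb, h1⟩
  have h3 : algebraMap B' F (a * a') = algebraMap B' F (b * b') := by
    rw [map_mul, map_mul, ← h1, ← h2]
    field_simp
  have h4 : a * a' = b * b' := hinj h3
  have h5 : π ∣ b * b' := h4 ▸ Dvd.dvd.mul_right hda a'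
  rcases hπ.dvd_or_dvd h5 with h6 | h6
  · exact hb h6
  · exact hb' h6

/-- **Local `n`-th powers in a UFD.**  If for every prime element `π` there is `s` such that
`h sⁿ` is a `π`-unit, then `h` is a unit of `B'` times an `n`-th power. -/
theorem ufd_unit_mul_pow [UniqueFactorizationMonoid B'] (n : ℕ) (h : F) (h0 : h ≠ 0)
    (H : ∀ π : B', Prime π → ∃ s : F, s ≠ 0 ∧ ∃ a b : B', ¬ π ∣ a ∧ ¬ π ∣ b ∧
      h * s ^ n * algebraMap B' F b = algebraMap B' F a) :
    ∃ (u : B') (s : F), IsUnit u ∧ h = algebraMap B' F u * s ^ n := by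
  have hinj : Function.Injective (algebraMap B' F) := IsFractionRing.injective B' F
  obtain ⟨a₀, ⟨b₀, hb₀⟩, hab, hmk⟩ := IsFractionRing.exists_reduced_fraction B' h
  have hb0 : b₀ ≠ 0 := nonZeroDivisors.ne_zero hb₀
  have hbF : algebraMap B' F b₀ ≠ 0 := (map_ne_zero_iff _ hinj).2 hb0
  have heq : h * algebraMap B' F b₀ = algebraMap B' F a₀ := by
    rw [← hmk]
    exact IsLocalization.mk'_spec F a₀ ⟨b₀, hb₀⟩
  have ha0 : a₀ ≠ 0 := by
    rintro rfl
    rw [map_zero] at heq
    exact (mul_ne_zero h0 hbF) heq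
  have key : ∀ π : B', Prime π → n ∣ multiplicity π a₀ ∧ n ∣ multiplicity π b₀ := by
    intro π hπ
    obtain ⟨s, hs0, a, b, hda, hdb, hs⟩ := H π hπ
    obtain ⟨c, d, hd, hcd⟩ := IsFractionRing.div_surjective (A := B') s
    have hd0 : d ≠ 0 := nonZeroDivisors.ne_zero hd
    have hdF : algebraMap B' F d ≠ 0 := (map_ne_zero_iff _ hinj).2 hd0
    have hc0 : c ≠ 0 := by
      rintro rfl
      rw [map_zero, zero_div] at hcd
      exact hs0 hcd.symm
    have ha0' : a ≠ 0 := by
      rintro rfl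
      exact hda (dvd_zero π)
    have hb0' : b ≠ 0 := by
      rintro rfl
      exact hdb (dvd_zero π)
    -- `a₀ cⁿ b = a b₀ dⁿ`
    have e1 : a₀ * c ^ n * b = a * b₀ * d ^ n := by
      apply hinj
      rw [map_mul, map_mul, map_pow, map_mul, map_mul, map_pow, ← heq, ← hs, ← hcd, div_pow]
      field_simp
    have hfin : ∀ z : B', z ≠ 0 → FiniteMultiplicity π z := fun z hz =>
      FiniteMultiplicity.of_prime_left hπ hz
    have m1 : multiplicity π (a₀ * c ^ n * b) =
        multiplicity π a₀ + n * multiplicity π c := by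
      rw [multiplicity_mul hπ (hfin _ (mul_ne_zero (mul_ne_zero ha0 (pow_ne_zero _ hc0)) hb0')),
        multiplicity_mul hπ (hfin _ (mul_ne_zero ha0 (pow_ne_zero _ hc0))),
        (hfin c hc0).multiplicity_pow hπ, multiplicity_eq_zero.2 hdb, add_zero]
    have m2 : multiplicity π (a * b₀ * d ^ n) =
        multiplicity π b₀ + n * multiplicity π d := by
      rw [multiplicity_mul hπ (hfin _ (mul_ne_zero (mul_ne_zero ha0' hb0) (pow_ne_zero _ hd0))),
        multiplicity_mul hπ (hfin _ (mul_ne_zero ha0' hb0)),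
        (hfin d hd0).multiplicity_pow hπ, multiplicity_eq_zero.2 hda, zero_add]
    have m3 : multiplicity π a₀ + n * multiplicity π c =
        multiplicity π b₀ + n * multiplicity π d := by
      rw [← m1, ← m2, e1]
    have hnd : ¬ (π ∣ a₀ ∧ π ∣ b₀) := fun hh => hπ.not_isUnit (hab hh.1 hh.2)
    by_cases hda₀ : π ∣ a₀
    · have hb' : multiplicity π b₀ = 0 := multiplicity_eq_zero.2 fun hdb₀ => hnd ⟨hda₀, hdb₀⟩
      rw [hb', zero_add] at m3
      refine ⟨?_, by rw [hb']; exact dvd_zero n⟩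
      have h1 : n ∣ multiplicity π a₀ + n * multiplicity π c := m3 ▸ dvd_mul_right n _
      exact (Nat.dvd_add_left (dvd_mul_right n _)).1 h1
    · have ha' : multiplicity π a₀ = 0 := multiplicity_eq_zero.2 hda₀
      rw [ha', zero_add] at m3
      refine ⟨by rw [ha']; exact dvd_zero n, ?_⟩
      have h1 : n ∣ multiplicity π b₀ + n * multiplicity π d := m3 ▸ dvd_mul_right n _
      exact (Nat.dvd_add_left (dvd_mul_right n _)).1 h1
  obtain ⟨u₁, s₁, hu₁, e₁⟩ :=
    H10.exists_unit_mul_pow_of_multiplicity n a₀ ha0 fun π hπ => (key π hπ).1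
  obtain ⟨u₂, s₂, hu₂, e₂⟩ :=
    H10.exists_unit_mul_pow_of_multiplicity n b₀ hb0 fun π hπ => (key π hπ).2
  obtain ⟨v₂, hv₂⟩ := hu₂.exists_right_inv
  have hu₂F : algebraMap B' F u₂ * algebraMap B' F v₂ = 1 := by
    rw [← map_mul, hv₂, map_one]
  have hu₂0 : algebraMap B' F u₂ ≠ 0 := left_ne_zero_of_mul_eq_one hu₂F
  have hbeq : algebraMap B' F b₀ = algebraMap B' F u₂ * algebraMap B' F s₂ ^ n := by
    rw [e₂, map_mul, map_pow]
  have haeq : algebraMap B' F a₀ = algebraMap B' F u₁ * algebraMap B' F s₁ ^ n := by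
    rw [e₁, map_mul, map_pow]
  have hh : h = algebraMap B' F a₀ / algebraMap B' F b₀ := by
    rw [eq_div_iff hbF]
    exact heq
  have hpow : algebraMap B' F s₂ ^ n ≠ 0 := by
    intro h1
    rw [h1, mul_zero] at hbeq
    exact hbF hbeq
  refine ⟨u₁ * v₂, algebraMap B' F s₁ / algebraMap B' F s₂, hu₁.mul ?_, ?_⟩
  · exact IsUnit.of_mul_eq_one u₂ (by rw [mul_comm]; exact hv₂)
  · rw [hh, haeq, hbeq, map_mul, div_pow, div_eq_iff (mul_ne_zero hu₂0 hpow)]
    field_simp
    linear_combination (-(algebraMap B' F u₁ * algebraMap B' F s₁ ^ n)) * hu₂F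

/-- The same with units of the valuation rings `primeVal π`. -/
theorem ufd_unit_mul_pow_of_val [UniqueFactorizationMonoid B'] (n : ℕ) (h : F) (h0 : h ≠ 0)
    (H : ∀ (π : B') (hπ : Prime π), ∃ s : F, s ≠ 0 ∧ h * s ^ n ∈ primeVal (F := F) π hπ ∧
      (h * s ^ n)⁻¹ ∈ primeVal (F := F) π hπ) :
    ∃ (u : B') (s : F), IsUnit u ∧ h = algebraMap B' F u * s ^ n := by
  refine ufd_unit_mul_pow n h h0 (fun π hπ => ?_)
  obtain ⟨s, hs0, h1, h2⟩ := H π hπ
  exact ⟨s, hs0, exists_of_unit_primeVal π hπ h1 h2 (mul_ne_zero h0 (pow_ne_zero _ hs0))⟩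

end Fermat.Agent.S36.NU.H16

end
end
-- ==== END Fermat.Agent.S36.NU.H16_Ufd

-- ==== BEGIN Fermat.Agent.S36.NU.H17_Normal
section

/-!
# S36 / NU-B, leaf (L2-i) NORMAL-IMG, part 2 (helper17): rational lifts of reductions

`ι : K → C` fields, `O` a valuation ring of `C`, `O_K = O ∩ K`, `ψ = coeffMap ι : K((t)) → C((t))`.

* `coeffMap_mem_gaussRingV` : `ψ` maps the Gauss ring of `O_K` into the Gauss ring of `O`;
* `gaussRedV_coeffMap_ne_zero` : and units to units;
* `linearIndependent_coeffMap` : orthonormal families stay orthonormal (if every residue of `O`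
  comes from `K`);
* `coeff_mem_of_sum_mem` : orthonormality for elements of the Gauss ring;
* `exists_rational_lift` : **descent of lifts**: if `K = C^G`, every residue of `O` comes from
  `K`, and `f ∈ C((t))` is a `C`-combination of elements of `ψ(F')`, lies in the Gauss ring and in
  a `C`-subspace `U` stable under `G`, then there is `f' ∈ F'` with `ψ f'` in the Gauss ring and
  in `U`, with the same reduction as `f`.
-/

set_option autoImplicit false
set_option linter.style.haveILetI false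
set_option linter.unusedSectionVars false
set_option linter.unusedSimpArgs false

noncomputable section

open ModularCurve Fermat.Agent.S28 Fermat.Agent.S28.H73 Fermat.Agent.RED.H73
  Fermat.Agent.RED.H42

namespace Fermat.Agent.S36.NU.H17

section Transport

variable {C K : Type} [Field C] [Field K] (ι : K →+* C) (O : ValuationSubring C)

/-- The inclusion `O_K → O`. -/
def inclO : ↥(O.comap ι) →+* ↥O :=
  (ι.comp (O.comap ι).subtype).codRestrict O.toSubring (fun a => a.2)

@[simp] theorem coe_inclO (a : ↥(O.comap ι)) : ((inclO ι O a : ↥O) : C) = ι (a : K) := rfl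

theorem iotaV_coeffMap_inclO (g : LaurentSeries ↥(O.comap ι)) :
    iotaV O (coeffMap (inclO ι O) g) = coeffMap ι (iotaV (O.comap ι) g) := by
  ext p
  rfl

/-- A unit of `O_K` maps to a unit of `O`. -/
theorem isUnit_inclO {a : ↥(O.comap ι)} (ha : IsUnit a) : IsUnit (inclO ι O a) :=
  ha.map (inclO ι O)

theorem redV_coeffMap_inclO_ne_zero {g : LaurentSeries ↥(O.comap ι)}
    (hg : redV (O.comap ι) g ≠ 0) : redV O (coeffMap (inclO ι O) g) ≠ 0 := by
  obtain ⟨p, hp⟩ : ∃ p, (redV (O.comap ι) g).coeff p ≠ 0 := by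
    by_contra hcon
    push Not at hcon
    exact hg (HahnSeries.ext (funext hcon))
  rw [redV_coeff] at hp
  have hu : IsUnit (g.coeff p) := (IsLocalRing.residue_ne_zero_iff_isUnit _).1 hp
  intro h0
  have h1 := congrArg (fun y : LaurentSeries (kV O) => y.coeff p) h0
  simp only [redV_coeff, coeffMap_coeff, HahnSeries.coeff_zero] at h1
  exact (IsLocalRing.residue_ne_zero_iff_isUnit _).2 (isUnit_inclO ι O hu) h1

/-- `ψ` maps the Gauss ring of `O_K` into the Gauss ring of `O`. -/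
theorem coeffMap_mem_gaussRingV {x : LaurentSeries K} (hx : x ∈ gaussRingV (O.comap ι)) :
    coeffMap ι x ∈ gaussRingV O := by
  obtain ⟨g, h, hg, hgx⟩ := hx
  refine ⟨coeffMap (inclO ι O) g, coeffMap (inclO ι O) h,
    redV_coeffMap_inclO_ne_zero ι O hg, ?_⟩
  rw [iotaV_coeffMap_inclO, iotaV_coeffMap_inclO, ← map_mul, hgx]

/-- `ψ` maps units of the Gauss ring to units. -/
theorem gaussRedV_coeffMap_ne_zero {x : LaurentSeries K} (hx : x ∈ gaussRingV (O.comap ι))
    (h : gaussRedV (O.comap ι) ⟨x, hx⟩ ≠ 0) :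
    gaussRedV O ⟨coeffMap ι x, coeffMap_mem_gaussRingV ι O hx⟩ ≠ 0 := by
  have hinv : x⁻¹ ∈ gaussRingV (O.comap ι) := inv_mem_gaussRingV (O.comap ι) hx h
  have hx0 : x ≠ 0 := by
    rintro rfl
    apply h
    have : (⟨0, hx⟩ : gaussRingV (O.comap ι)) = 0 := rfl
    rw [this, map_zero]
  have h1 : (⟨coeffMap ι x, coeffMap_mem_gaussRingV ι O hx⟩ : gaussRingV O)
      * ⟨coeffMap ι x⁻¹, coeffMap_mem_gaussRingV ι O hinv⟩ = 1 := by
    apply Subtype.ext
    show coeffMap ι x * coeffMap ι x⁻¹ = 1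
    rw [← map_mul, mul_inv_cancel₀ hx0, map_one]
  have h2 := congrArg (gaussRedV O) h1
  rw [map_mul, map_one] at h2
  exact left_ne_zero_of_mul_eq_one h2

theorem coeffMap_smul (k : K) (x : LaurentSeries K) :
    coeffMap ι (k • x) = ι k • coeffMap ι x := by
  ext p
  simp

theorem coeffMap_sum_smul {m : ℕ} (r : Fin m → K) (e : Fin m → LaurentSeries K) :
    coeffMap ι (∑ i, r i • e i) = ∑ i, ι (r i) • coeffMap ι (e i) := by
  rw [map_sum]
  exact Finset.sum_congr rfl fun i _ => coeffMap_smul ι _ _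

theorem sum_smul_mem_gaussRingV {m : ℕ} (E : Fin m → gaussRingV O) (d : Fin m → ↥O) :
    ∑ i, ((d i : ↥O) : C) • ((E i : gaussRingV O) : LaurentSeries C) ∈ gaussRingV O := by
  refine Subalgebra.sum_mem _ fun i _ => ?_
  rw [← HahnSeries.C_mul_eq_smul]
  exact C_mul_mem_gaussRingV O (d i) (E i).2

/-- A non-unit of `O_K` maps to a non-unit of `O`. -/
theorem not_isUnit_inclO {a : ↥(O.comap ι)} (ha : ¬ IsUnit a) : ¬ IsUnit (inclO ι O a) := by
  intro hu
  apply ha
  rw [isUnit_iff_inv_mem] at hu ⊢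
  obtain ⟨h0, hinv⟩ := hu
  have h0' : (a : K) ≠ 0 := by
    intro h
    apply h0
    rw [coe_inclO, h, map_zero]
  refine ⟨h0', ?_⟩
  show ι ((a : K))⁻¹ ∈ O
  rw [map_inv₀]
  exact hinv

/-- **Orthonormality** for elements of the Gauss ring: if the reductions of the `E i` are
linearly independent and `∑ a_i E_i` lies in the Gauss ring, then all `a_i ∈ O`. -/
theorem coeff_mem_of_sum_mem {m : ℕ} (E : Fin m → gaussRingV O)
    (hE : LinearIndependent (kV O) fun i => gaussRedV O (E i)) (a : Fin m → C)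
    (hx : ∑ i, a i • ((E i : gaussRingV O) : LaurentSeries C) ∈ gaussRingV O) :
    ∀ i, a i ∈ O := by
  by_contra hcon
  push Not at hcon
  obtain ⟨j, hj⟩ := hcon
  have ha0 : a ≠ 0 := by
    intro h
    apply hj
    rw [h]
    exact O.zero_mem
  obtain ⟨m0, ham, hmax⟩ := exists_max_coeff O a ha0
  have hamO : a m0 ∉ O := by
    intro hmem
    apply hj
    have := O.mul_mem _ _ (hmax j) hmem
    rwa [mul_assoc, inv_mul_cancel₀ ham, mul_one] at this
  have hinv : (a m0)⁻¹ ∈ O := (O.mem_or_inv_mem (a m0)).resolve_left hamO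
  have hnu : ¬ IsUnit (⟨(a m0)⁻¹, hinv⟩ : ↥O) := by
    intro hu
    rw [isUnit_iff_inv_mem] at hu
    apply hamO
    have := hu.2
    simpa using this
  let d : Fin m → ↥O := fun i => ⟨a i * (a m0)⁻¹, hmax i⟩
  have e1 : ∑ i, ((d i : ↥O) : C) • ((E i : gaussRingV O) : LaurentSeries C)
      = HahnSeries.C (a m0)⁻¹ * ∑ i, a i • ((E i : gaussRingV O) : LaurentSeries C) := by
    rw [HahnSeries.C_mul_eq_smul, Finset.smul_sum]
    refine Finset.sum_congr rfl fun i _ => ?_
    rw [smul_smul, mul_comm]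
  have hmem : HahnSeries.C (a m0)⁻¹ * ∑ i, a i • ((E i : gaussRingV O) : LaurentSeries C)
      ∈ gaussRingV O := C_mul_mem_gaussRingV O ⟨_, hinv⟩ hx
  have h2 := gaussRedV_C_mul_eq_zero O hinv hnu hx hmem
  have hmem' := sum_smul_mem_gaussRingV O E d
  have h3 := gaussRedV_sum' O E d hmem'
  have h4 : gaussRedV O ⟨_, hmem'⟩ = 0 := by
    have : (⟨_, hmem'⟩ : gaussRingV O) = ⟨_, hmem⟩ := Subtype.ext e1
    rw [this]
    exact h2
  rw [h3] at h4
  have h5 := Fintype.linearIndependent_iff.1 hE _ h4 m0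
  have hd1 : d m0 = 1 := Subtype.ext (mul_inv_cancel₀ ham)
  rw [hd1, map_one] at h5
  exact one_ne_zero h5

/-- Orthonormal families stay orthonormal under `ψ`, if every residue of `O` comes from `K`. -/
theorem linearIndependent_coeffMap {m : ℕ} (e : Fin m → gaussRingV (O.comap ι))
    (he : LinearIndependent (kV (O.comap ι)) fun i => gaussRedV (O.comap ι) (e i))
    (hres : ∀ a : ↥O, ∃ r : ↥(O.comap ι), resV O (inclO ι O r) = resV O a) :
    LinearIndependent (kV O) fun i =>
      gaussRedV O ⟨coeffMap ι (e i), coeffMap_mem_gaussRingV ι O (e i).2⟩ := by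
  rw [Fintype.linearIndependent_iff]
  intro l hl i0
  choose a ha using fun i => IsLocalRing.residue_surjective (l i)
  choose r hr using fun i => hres (a i)
  set E : Fin m → gaussRingV O :=
    fun i => ⟨coeffMap ι (e i), coeffMap_mem_gaussRingV ι O (e i).2⟩ with hEdef
  have hy' := sum_smul_mem_gaussRingV (O.comap ι) e r
  have h1 := gaussRedV_sum' (O.comap ι) e r hy'
  have hψ := sum_smul_mem_gaussRingV O E (fun i => inclO ι O (r i))
  have h2 := gaussRedV_sum' O E (fun i => inclO ι O (r i)) hψ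
  have e2 : coeffMap ι (∑ i, ((r i : ↥(O.comap ι)) : K) • ((e i : gaussRingV (O.comap ι)) :
      LaurentSeries K))
      = ∑ i, ((inclO ι O (r i) : ↥O) : C) • ((E i : gaussRingV O) : LaurentSeries C) :=
    coeffMap_sum_smul ι _ _
  have h3 : gaussRedV O ⟨_, hψ⟩ = 0 := by
    rw [h2, ← hl]
    refine Finset.sum_congr rfl fun i _ => ?_
    rw [hr i]
    have : resV O (a i) = l i := ha i
    rw [this]
  have h4 : gaussRedV (O.comap ι) ⟨_, hy'⟩ = 0 := by
    by_contra hne
    apply gaussRedV_coeffMap_ne_zero ι O hy' hne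
    have : (⟨_, coeffMap_mem_gaussRingV ι O hy'⟩ : gaussRingV O) = ⟨_, hψ⟩ := Subtype.ext e2
    rw [this]
    exact h3
  rw [h1] at h4
  have h5 := Fintype.linearIndependent_iff.1 he _ h4 i0
  have h6 : ¬ IsUnit (r i0) := fun hu => (IsLocalRing.residue_ne_zero_iff_isUnit _).2 hu h5
  have h7 : resV O (inclO ι O (r i0)) = 0 := by
    by_contra hne
    exact not_isUnit_inclO ι O h6 ((IsLocalRing.residue_ne_zero_iff_isUnit _).1 hne)
  have h8 : resV O (a i0) = l i0 := ha i0
  rw [← h8, ← hr i0, h7]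

end Transport

section Main

variable {C K : Type} [Field C] [Field K] (ι : K →+* C) (O : ValuationSubring C)

/-- Elements of the Gauss ring with linearly independent reductions are linearly independent. -/
theorem linearIndependent_of_gaussRedV {m : ℕ} (E : Fin m → gaussRingV O)
    (hE : LinearIndependent (kV O) fun i => gaussRedV O (E i)) :
    LinearIndependent C fun i => ((E i : gaussRingV O) : LaurentSeries C) := by
  rw [Fintype.linearIndependent_iff]
  intro a ha
  by_contra hcon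
  push Not at hcon
  obtain ⟨j, hj⟩ := hcon
  have ha0 : a ≠ 0 := fun h => hj (by rw [h]; rfl)
  obtain ⟨m0, ham, hmax⟩ := exists_max_coeff O a ha0
  let d : Fin m → ↥O := fun i => ⟨a i * (a m0)⁻¹, hmax i⟩
  have e1 : ∑ i, ((d i : ↥O) : C) • ((E i : gaussRingV O) : LaurentSeries C) = 0 := by
    have e2 : ∑ i, ((d i : ↥O) : C) • ((E i : gaussRingV O) : LaurentSeries C)
        = (a m0)⁻¹ • ∑ i, a i • ((E i : gaussRingV O) : LaurentSeries C) := by
      rw [Finset.smul_sum]
      refine Finset.sum_congr rfl fun i _ => ?_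
      rw [smul_smul, mul_comm]
    rw [e2, ha, smul_zero]
  have hmem' := sum_smul_mem_gaussRingV O E d
  have h3 := gaussRedV_sum' O E d hmem'
  have h4 : gaussRedV O ⟨_, hmem'⟩ = 0 := by
    have : (⟨_, hmem'⟩ : gaussRingV O) = 0 := Subtype.ext e1
    rw [this, map_zero]
  rw [h3] at h4
  have h5 := Fintype.linearIndependent_iff.1 hE _ h4 m0
  have hd1 : d m0 = 1 := Subtype.ext (mul_inv_cancel₀ ham)
  rw [hd1, map_one] at h5
  exact one_ne_zero h5

/-- An orthonormal basis of `W` with `dim W` elements spans `W`. -/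
theorem IsOrthonormal.span_eq {W : Submodule C (LaurentSeries C)} [FiniteDimensional C W]
    {e : Fin (Module.finrank C W) → gaussRingV O} (he : IsOrthonormal O W e) :
    Submodule.span C (Set.range fun i => ((e i : gaussRingV O) : LaurentSeries C)) = W := by
  apply Submodule.eq_of_le_of_finrank_eq
  · rw [Submodule.span_le]
    rintro _ ⟨i, rfl⟩
    exact he.mem i
  · rw [finrank_span_eq_card (linearIndependent_of_gaussRedV O e he.indep), Fintype.card_fin]

theorem smul_mem_intermediateField (F' : IntermediateField K (LaurentSeries K)) (k : K)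
    {x : LaurentSeries K} (hx : x ∈ F') : k • x ∈ F' := by
  rw [← HahnSeries.C_mul_eq_smul, C_eq_algebraMap]
  exact F'.mul_mem (F'.algebraMap_mem k) hx

theorem span_le_intermediateField (F' : IntermediateField K (LaurentSeries K))
    {s : Set (LaurentSeries K)} (hs : s ⊆ (F' : Set (LaurentSeries K)))
    {x : LaurentSeries K} (hx : x ∈ Submodule.span K s) : x ∈ F' := by
  induction hx using Submodule.span_induction with
  | mem x hx => exact hs hx
  | zero => exact F'.zero_mem
  | add x y _ _ hx hy => exact F'.add_mem hx hy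
  | smul a x _ hx => exact smul_mem_intermediateField F' a hx

/-- **Descent of lifts.**  `K = C^G` (through `ι`), every residue of `O` comes from `K`,
`F'` a field of fractions of a scalable algebra over `K`.  If `f ∈ C((t))` is a `C`-combination
of elements of `ψ(F')`, lies in the Gauss ring of `O` and in a `C`-subspace `U` stable under
`G`, then there is `f' ∈ F'` in the Gauss ring of `O_K` with `ψ f' ∈ U` and with the same
reduction as `f`. -/
theorem exists_rational_lift (G : Type*) [Group G] [MulSemiringAction G C]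
    (hfix : ∀ c : C, (∀ σ : G, σ • c = c) → c ∈ ι.range)
    (hι : ∀ (σ : G) (k : K), σ • ι k = ι k)
    (hres : ∀ a : ↥O, ∃ r : ↥(O.comap ι), resV O (inclO ι O r) = resV O a)
    (F' : IntermediateField K (LaurentSeries K)) (hF' : FracScalable (O.comap ι) F')
    (U : Submodule C (LaurentSeries C))
    (hU : ∀ (σ : G) (x : LaurentSeries C), x ∈ U →
      coeffMap (MulSemiringAction.toRingHom G C σ) x ∈ U)
    (f : LaurentSeries C) (hfU : f ∈ U) (hfO : f ∈ gaussRingV O)
    (hfspan : f ∈ Submodule.span C (⇑(coeffMap ι) '' (F' : Set (LaurentSeries K)))) :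
    ∃ f' : LaurentSeries K, f' ∈ F' ∧ f' ∈ gaussRingV (O.comap ι) ∧ coeffMap ι f' ∈ U ∧
      ∃ h' : coeffMap ι f' ∈ gaussRingV O, gaussRedV O ⟨_, h'⟩ = gaussRedV O ⟨f, hfO⟩ := by
  classical
  -- Step 1: a decomposition with independent coefficients
  let S : AddSubgroup (LaurentSeries C) :=
    { carrier := ⇑(coeffMap ι) '' (F' : Set (LaurentSeries K))
      add_mem' := by
        rintro _ _ ⟨x, hx, rfl⟩ ⟨y, hy, rfl⟩
        exact ⟨x + y, F'.add_mem hx hy, map_add _ _ _⟩
      zero_mem' := ⟨0, F'.zero_mem, map_zero _⟩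
      neg_mem' := by
        rintro _ ⟨x, hx, rfl⟩
        exact ⟨-x, F'.neg_mem hx, map_neg _ _⟩ }
  have hS : ∀ (k : K) (x : LaurentSeries C), x ∈ S → ι k • x ∈ S := by
    rintro k _ ⟨x, hx, rfl⟩
    exact ⟨k • x, smul_mem_intermediateField F' k hx, coeffMap_smul ι k x⟩
  obtain ⟨n, c, u, hu, hfu, hli⟩ := exists_indep_decomp_of_ringHom ι S hS hfspan
  choose g' hg'F hg' using hu
  have hc := linearIndependent_fixedPoints_of_ringHom G ι hfix c hli
  -- Step 2: the `u i` lie in `U`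
  have hσι : ∀ σ : G, (MulSemiringAction.toRingHom G C σ).comp ι = ι := fun σ =>
    RingHom.ext fun k => hι σ k
  have huU : ∀ i, u i ∈ U := by
    refine mem_of_conj_mem G c hc u U fun σ => ?_
    have h1 := hU σ f hfU
    rw [hfu, map_sum] at h1
    have h2 : ∑ i, coeffMap (MulSemiringAction.toRingHom G C σ) (c i • u i)
        = ∑ i, (σ • c i) • u i := by
      refine Finset.sum_congr rfl fun i _ => ?_
      rw [coeffMap_smul, ← hg' i, _root_.ModularCurve.coeffMap_coeffMap, hσι σ]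
      rfl
    rwa [h2] at h1
  -- Step 3: an orthonormal basis of the span of the `g' i`
  let W : Submodule K (LaurentSeries K) := Submodule.span K (Set.range g')
  haveI : FiniteDimensional K W := FiniteDimensional.span_of_finite K (Set.finite_range g')
  have hWF : ∀ x ∈ W, x ∈ F' := fun x hx =>
    span_le_intermediateField F' (by rintro _ ⟨i, rfl⟩; exact hg'F i) hx
  obtain ⟨R, hR, hF⟩ := hF'
  obtain ⟨e, he⟩ := exists_isOrthonormal_of_fractions (O.comap ι) hR W
    (fun x hx => hF x (hWF x hx))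
  have hspan := IsOrthonormal.span_eq (O.comap ι) he
  have hWU : ∀ x ∈ W, coeffMap ι x ∈ U := by
    intro x hx
    induction hx using Submodule.span_induction with
    | mem x hx =>
      obtain ⟨i, rfl⟩ := hx
      rw [hg' i]
      exact huU i
    | zero => rw [map_zero]; exact U.zero_mem
    | add x y _ _ hx hy => rw [map_add]; exact U.add_mem hx hy
    | smul a x _ hx => rw [coeffMap_smul]; exact U.smul_mem _ hx
  -- Step 4: coordinates of `f` in the basis `ψ(e j)`
  have hgW : ∀ i, g' i ∈ Submodule.span K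
      (Set.range fun j => ((e j : gaussRingV (O.comap ι)) : LaurentSeries K)) := fun i => by
    rw [hspan]
    exact Submodule.subset_span ⟨i, rfl⟩
  choose b hb using fun i => (Submodule.mem_span_range_iff_exists_fun K).1 (hgW i)
  set E : Fin (Module.finrank K W) → gaussRingV O :=
    fun j => ⟨coeffMap ι (e j), coeffMap_mem_gaussRingV ι O (e j).2⟩ with hEdef
  let a : Fin (Module.finrank K W) → C := fun j => ∑ i, c i * ι (b i j)
  have hfa : f = ∑ j, a j • ((E j : gaussRingV O) : LaurentSeries C) := by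
    rw [hfu]
    have h1 : ∀ i, u i = ∑ j, ι (b i j) • ((E j : gaussRingV O) : LaurentSeries C) := fun i => by
      rw [← hg' i, ← hb i]
      exact coeffMap_sum_smul ι _ _
    simp_rw [h1, Finset.smul_sum, smul_smul]
    rw [Finset.sum_comm]
    refine Finset.sum_congr rfl fun j _ => ?_
    rw [← Finset.sum_smul]
  have hEli := linearIndependent_coeffMap ι O e he.indep hres
  have haO : ∀ j, a j ∈ O := coeff_mem_of_sum_mem O E hEli a (by rw [← hfa]; exact hfO)
  choose ρ hρ using fun j => hres ⟨a j, haO j⟩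
  -- the lift
  have hf'O := sum_smul_mem_gaussRingV (O.comap ι) e ρ
  have hf'W : ∑ j, ((ρ j : ↥(O.comap ι)) : K) • ((e j : gaussRingV (O.comap ι)) :
      LaurentSeries K) ∈ W :=
    Submodule.sum_mem _ fun j _ => Submodule.smul_mem _ _ (he.mem j)
  refine ⟨_, hWF _ hf'W, hf'O, hWU _ hf'W, coeffMap_mem_gaussRingV ι O hf'O, ?_⟩
  have hψ := sum_smul_mem_gaussRingV O E (fun j => inclO ι O (ρ j))
  have e2 : coeffMap ι (∑ j, ((ρ j : ↥(O.comap ι)) : K) • ((e j : gaussRingV (O.comap ι)) :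
      LaurentSeries K))
      = ∑ j, ((inclO ι O (ρ j) : ↥O) : C) • ((E j : gaussRingV O) : LaurentSeries C) :=
    coeffMap_sum_smul ι _ _
  have e3 : (⟨_, coeffMap_mem_gaussRingV ι O hf'O⟩ : gaussRingV O) = ⟨_, hψ⟩ := Subtype.ext e2
  have hfa' := sum_smul_mem_gaussRingV O E (fun j => (⟨a j, haO j⟩ : ↥O))
  have e4 : (⟨f, hfO⟩ : gaussRingV O) = ⟨_, hfa'⟩ := Subtype.ext hfa
  rw [e3, e4, gaussRedV_sum' O E _ hψ, gaussRedV_sum' O E _ hfa']
  exact Finset.sum_congr rfl fun j _ => by rw [hρ j]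

end Main

end Fermat.Agent.S36.NU.H17

end
end
-- ==== END Fermat.Agent.S36.NU.H17_Normal
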