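-- GENERATED (merged mirror, NOTES/tools/trim/merge3_helper67.py): 2 modules of the originals, bodies verbatim.
import Fermat.Agent.Zm.S36_L01_000
import Fermat.Agent.Zm.S35_L13_000
import Fermat.Agent.Zm.S35_L14_000
import Fermat.Agent.Zm.S35_L14_002

-- ==== BEGIN Fermat.Agent.BAD.H42_NormRedR
section

/-!
# NORM-RED with ramification, finitely many valuations (helper42; for S36 NU-B2)

Abstract setting (`NRData E L Et ι κ`): `E ⊆ L` a finite extension of fields, `V_E` a discrete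
valuation ring of `E` with uniformiser `ϖ` and residue map `red_E : V_E → Et`; finitely many
valuation rings `V i` of `L` over `V_E`, of rank one (`IsArch`), pairwise incomparable, with
elements `π i`, `v_i (π i) < 1`, ramification indices `e i` (`v_i ϖ = v_i (π i) ^ e i`; the `π i`
are then uniformisers by the degree hypothesis) and residue maps
`red i : V i → κ i` onto fields `κ i ⊇ Et`, with `∑ e i [κ i : Et] = [L : E]`.

* `NRData.normRed` : for `h ∈ ⋂ V i`: `N_{L/E} h = δ ∈ V_E`,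
  `red_E δ = ∏ N_{κ i / Et} (red_i h) ^ e i`;
* `NRData.normRed_scaled` : for `g : L`, `c i : E` non-zero with `c i * g ∈ V i`:
  `(∏ c_i ^ (e i [κ i : Et])) · N_{L/E} g = δ ∈ V_E`,
  `red_E δ = ∏ N_{κ i / Et} (red_i (c_i g)) ^ e i`;
* `NRData.normRed_d` : the common source (`h = d_i u_i`, `d_i ∈ V_E`);
* `val_sum_pow` : the order lemma; `NRLift` : adapted lifts of bases of the residue fields;
  `NRLift.linearIndependent_B`, `NRLift.coord_mem` : the family `b_{i,α} P_i ^ j` is an
  `E`-basis of `L` and a `V_E`-basis of `⋂ V i`;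
* `det_sigma_blockTriangular` : determinant of a block triangular matrix indexed by triples.

This file contains no `sorry`.
-/

set_option autoImplicit false

noncomputable section

namespace Fermat.Agent.BAD.H42

section Order

variable {L : Type} [Field L]

/-- **Order lemma**: if `x = ∑_{j < e} P ^ j u_j` where every `u_j` is a unit or divisible by
`P ^ e`, and `x` is divisible by `P ^ k`, `k ≤ e`, then `u_j` is divisible by `P ^ e` for
`j < k`. -/
theorem val_sum_pow (W : ValuationSubring L) (P : L) (hP : W.valuation P < 1) (hP0 : P ≠ 0)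
    (e k : ℕ) (hk : k ≤ e) (u : ℕ → L)
    (hu : ∀ j < e, W.valuation (u j) = 1 ∨ W.valuation (u j) ≤ W.valuation P ^ e)
    (hx : W.valuation (∑ j ∈ Finset.range e, P ^ j * u j) ≤ W.valuation P ^ k) :
    ∀ j < k, W.valuation (u j) ≤ W.valuation P ^ e := by
  classical
  by_contra hcon
  push Not at hcon
  have hex : ∃ j, j < k ∧ W.valuation (u j) = 1 := by
    obtain ⟨j, hjk, hj⟩ := hcon
    refine ⟨j, hjk, ?_⟩
    rcases hu j (lt_of_lt_of_le hjk hk) with h1 | h1
    · exact h1
    · exact absurd h1 (not_le.2 hj)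
  set j₀ := Nat.find hex with hj₀
  have hj₀k : j₀ < k := (Nat.find_spec hex).1
  have hj₀u : W.valuation (u j₀) = 1 := (Nat.find_spec hex).2
  have hj₀e : j₀ < e := lt_of_lt_of_le hj₀k hk
  have hvP0 : W.valuation P ≠ 0 := (Valuation.ne_zero_iff _).2 hP0
  have hvPpos : 0 < W.valuation P := zero_lt_iff.2 hvP0
  have hle1 : ∀ j < e, W.valuation (u j) ≤ 1 := by
    intro j hj
    rcases hu j hj with h1 | h1
    · exact h1.le
    · exact h1.trans (pow_le_one₀ zero_le hP.le)
  have hsmall : ∀ j ∈ (Finset.range e).erase j₀,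
      W.valuation (P ^ j * u j) < W.valuation P ^ j₀ := by
    intro j hj
    rw [Finset.mem_erase, Finset.mem_range] at hj
    obtain ⟨hne, hje⟩ := hj
    rw [map_mul, map_pow]
    rcases lt_or_gt_of_ne hne with hlt | hgt
    · have hnu : ¬ W.valuation (u j) = 1 := fun h1 =>
        Nat.find_min hex hlt ⟨lt_trans hlt hj₀k, h1⟩
      have h2 : W.valuation (u j) ≤ W.valuation P ^ e := (hu j hje).resolve_left hnu
      calc W.valuation P ^ j * W.valuation (u j)
          ≤ 1 * W.valuation P ^ e := mul_le_mul' (pow_le_one₀ zero_le hP.le) h2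
        _ = W.valuation P ^ e := one_mul _
        _ < W.valuation P ^ j₀ := pow_lt_pow_right_of_lt_one₀ hvPpos hP hj₀e
    · calc W.valuation P ^ j * W.valuation (u j)
          ≤ W.valuation P ^ j * 1 := mul_le_mul' le_rfl (hle1 j hje)
        _ = W.valuation P ^ j := mul_one _
        _ < W.valuation P ^ j₀ := pow_lt_pow_right_of_lt_one₀ hvPpos hP hgt
  have hrest : W.valuation (∑ j ∈ (Finset.range e).erase j₀, P ^ j * u j) <
      W.valuation P ^ j₀ :=
    Valuation.map_sum_lt _ (pow_ne_zero _ hvP0) hsmall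
  have hterm : W.valuation (P ^ j₀ * u j₀) = W.valuation P ^ j₀ := by
    rw [map_mul, map_pow, hj₀u, mul_one]
  have hsplit : ∑ j ∈ Finset.range e, P ^ j * u j =
      P ^ j₀ * u j₀ + ∑ j ∈ (Finset.range e).erase j₀, P ^ j * u j :=
    (Finset.add_sum_erase _ _ (Finset.mem_range.2 hj₀e)).symm
  have hval : W.valuation (∑ j ∈ Finset.range e, P ^ j * u j) = W.valuation P ^ j₀ := by
    rw [hsplit, Valuation.map_add_eq_of_lt_left, hterm]
    rw [hterm]
    exact hrest
  rw [hval] at hx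
  exact absurd hx (not_le.2 (pow_lt_pow_right_of_lt_one₀ hvPpos hP hj₀k))

/-- The order lemma with `Fin e` as index set. -/
theorem val_sum_pow_fin (W : ValuationSubring L) (P : L) (hP : W.valuation P < 1) (hP0 : P ≠ 0)
    (e k : ℕ) (hk : k ≤ e) (u : Fin e → L)
    (hu : ∀ j, W.valuation (u j) = 1 ∨ W.valuation (u j) ≤ W.valuation P ^ e)
    (hx : W.valuation (∑ j : Fin e, P ^ (j : ℕ) * u j) ≤ W.valuation P ^ k) :
    ∀ j : Fin e, (j : ℕ) < k → W.valuation (u j) ≤ W.valuation P ^ e := by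
  classical
  let u' : ℕ → L := fun j => if h : j < e then u ⟨j, h⟩ else 0
  have hu' : ∀ j : Fin e, u' j = u j := fun j => by simp [u', j.2]
  have hsum : ∑ j ∈ Finset.range e, P ^ j * u' j = ∑ j : Fin e, P ^ (j : ℕ) * u j := by
    rw [Finset.sum_range]
    exact Finset.sum_congr rfl fun j _ => by rw [hu']
  have h := val_sum_pow W P hP hP0 e k hk u'
    (fun j hj => by simpa [u', hj] using hu ⟨j, hj⟩) (by rw [hsum]; exact hx)
  intro j hj
  have := h j hj
  rwa [hu'] at this

/-- In the trivial valuation ring every non-zero element has valuation `1`. -/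
theorem val_eq_one_of_top (W : ValuationSubring L) (hW : W = ⊤) (x : L) (hx : x ≠ 0) :
    W.valuation x = 1 := by
  have h1 : W.valuation x ≤ 1 := by
    rw [ValuationSubring.valuation_le_one_iff, hW]; exact ValuationSubring.mem_top _
  have h2 : W.valuation x⁻¹ ≤ 1 := by
    rw [ValuationSubring.valuation_le_one_iff, hW]; exact ValuationSubring.mem_top _
  rw [map_inv₀] at h2
  have h3 : W.valuation x ≠ 0 := (Valuation.ne_zero_iff _).2 hx
  exact le_antisymm h1 ((inv_le_one₀ (zero_lt_iff.2 h3)).1 h2)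

end Order

/-- The data of the norm reduction with ramification: a discrete valuation ring `V_E` of `E`
with uniformiser `ϖ`, finitely many valuation rings `V i` of `L` over `V_E`, of rank one, pairwise
incomparable, with uniformisers `π i`, ramification indices `e i` and residue maps `red i` onto
fields `κ i` over `Et`. -/
structure NRData (E L Et : Type) [Field E] [Field L] [Field Et] [Algebra E L]
    (ι : Type) (κ : ι → Type) [∀ i, Field (κ i)] [∀ i, Algebra Et (κ i)] where
  /-- the valuation ring of the base field -/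
  VE : ValuationSubring E
  /-- the valuation rings of `L` over `VE` -/
  V : ι → ValuationSubring L
  /-- the residue map of `VE` -/
  redE : ↥VE →+* Et
  /-- the residue maps of the `V i` -/
  red : ∀ i, ↥(V i) →+* κ i
  /-- the uniformiser of `VE` -/
  ϖ : E
  /-- uniformisers of the `V i` -/
  π : ι → L
  /-- the ramification indices -/
  e : ι → ℕ
  hϖ0 : ϖ ≠ 0
  hE : ∀ a : E, VE.valuation a < 1 → VE.valuation a ≤ VE.valuation ϖ
  hVE : ∀ (i : ι) (a : E), a ∈ VE → algebraMap E L a ∈ V i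
  hkerE : ∀ a : ↥VE, ¬ IsUnit a → redE a = 0
  hsurj : ∀ i, Function.Surjective (red i)
  hker : ∀ (i : ι) (a : ↥(V i)), ¬ IsUnit a → red i a = 0
  hcompat : ∀ (i : ι) (a : ↥VE) (ha : algebraMap E L (a : E) ∈ V i),
    red i ⟨algebraMap E L (a : E), ha⟩ = algebraMap Et (κ i) (redE a)
  hinc : ∀ i j, i ≠ j → ¬ V i ≤ V j
  hA : ∀ i, IsArch (V i)
  hπ : ∀ i, (V i).valuation (π i) < 1
  he : ∀ i, 0 < e i
  hram : ∀ i, (V i).valuation (algebraMap E L ϖ) = (V i).valuation (π i) ^ e i

namespace NRData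

variable {E L Et : Type} [Field E] [Field L] [Field Et] [Algebra E L]
  {ι : Type} {κ : ι → Type} [∀ i, Field (κ i)] [∀ i, Algebra Et (κ i)]
  (D : NRData E L Et ι κ)

theorem ϖL_ne_zero : algebraMap E L D.ϖ ≠ 0 := by
  rw [Ne, map_eq_zero]; exact D.hϖ0

theorem val_π_ne_zero (i : ι) : (D.V i).valuation (D.π i) ≠ 0 := by
  intro h0
  have h := D.hram i
  rw [h0, zero_pow (D.he i).ne'] at h
  exact (Valuation.ne_zero_iff _).2 D.ϖL_ne_zero h

theorem π_ne_zero (i : ι) : D.π i ≠ 0 :=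
  (Valuation.ne_zero_iff _).1 (D.val_π_ne_zero i)

theorem V_ne_top (i : ι) : D.V i ≠ ⊤ := by
  intro h
  have h1 := val_eq_one_of_top (D.V i) h (D.π i) (D.π_ne_zero i)
  exact (D.hπ i).ne h1

theorem val_ϖ_lt_one (i : ι) : (D.V i).valuation (algebraMap E L D.ϖ) < 1 := by
  rw [D.hram i]
  exact pow_lt_one₀ zero_le (D.hπ i) (D.he i).ne'

/-- The valuation `v_i` of an element of `V_E`. -/
theorem val_le_one (i : ι) (a : ↥D.VE) : (D.V i).valuation (algebraMap E L (a : E)) ≤ 1 :=
  (ValuationSubring.valuation_le_one_iff _ _).2 (D.hVE i _ a.2)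

/-- A unit of `V_E` has non-zero reduction. -/
theorem redE_ne_zero_of_isUnit (a : ↥D.VE) (ha : IsUnit a) : D.redE a ≠ 0 :=
  (ha.map D.redE).ne_zero

/-- An element of `V_E` with zero reduction is divisible by `ϖ` in every `V i`. -/
theorem val_le_of_redE_eq_zero (i : ι) (a : ↥D.VE) (ha : D.redE a = 0) :
    (D.V i).valuation (algebraMap E L (a : E)) ≤ (D.V i).valuation (algebraMap E L D.ϖ) := by
  have hnu : ¬ IsUnit a := fun h => D.redE_ne_zero_of_isUnit a h ha
  have h1 : D.VE.valuation (a : E) < 1 := by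
    rw [ValuationSubring.valuation_eq_one_iff] at hnu
    exact lt_of_le_of_ne ((ValuationSubring.valuation_le_one_iff _ _).2 a.2) hnu
  have h2 := D.hE _ h1
  have h3 : (a : E) / D.ϖ ∈ D.VE := by
    rw [← ValuationSubring.valuation_le_one_iff, map_div₀]
    exact (div_le_one₀ (zero_lt_iff.2 ((Valuation.ne_zero_iff _).2 D.hϖ0))).2 h2
  have h4 := D.hVE i _ h3
  rw [← ValuationSubring.valuation_le_one_iff, map_div₀, map_div₀] at h4
  exact (div_le_one₀ (zero_lt_iff.2 ((Valuation.ne_zero_iff _).2 D.ϖL_ne_zero))).1 h4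

/-- Index type of the pairs `(i, j)`, `j < e i`. -/
abbrev J : Type := Σ i : ι, Fin (D.e i)

/-- Index type of the basis: triples `(i, j, α)`, `j < e i`, `α < f i`. -/
abbrev I : Type := Σ k : D.J, Fin (Module.finrank Et (κ k.1))

theorem val_eq_one_of_red_ne_zero (i : ι) (a : ↥(D.V i)) (h : D.red i a ≠ 0) :
    (D.V i).valuation (a : L) = 1 := by
  by_contra hne
  apply h
  apply D.hker
  rw [ValuationSubring.valuation_eq_one_iff]
  exact hne

theorem red_eq_zero_of_val_lt_one (i : ι) (a : ↥(D.V i)) (h : (D.V i).valuation (a : L) < 1) :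
    D.red i a = 0 :=
  red_eq_zero_of_val_lt (D.hker i) a h

end NRData

/-- Lifts of bases of the residue fields and good uniformisers. -/
structure NRLift {E L Et : Type} [Field E] [Field L] [Field Et] [Algebra E L]
    {ι : Type} {κ : ι → Type} [∀ i, Field (κ i)] [∀ i, Algebra Et (κ i)]
    [∀ i, Module.Finite Et (κ i)] (D : NRData E L Et ι κ) (d : ι → E) where
  /-- uniformisers of `V i` which are integral at the other `V j` -/
  P : ι → L
  /-- lifts of the bases of the residue fields, divisible by `ϖ d_i` at the other `V j` -/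
  b : ∀ i, Fin (Module.finrank Et (κ i)) → L
  hd : ∀ i, d i ∈ D.VE
  hP : ∀ i, (D.V i).valuation (P i) = (D.V i).valuation (D.π i)
  hP' : ∀ i j, i ≠ j → (D.V j).valuation (P i) ≤ 1
  hb : ∀ i α, b i α ∈ D.V i
  hbred : ∀ i α, D.red i ⟨b i α, hb i α⟩ = Module.finBasis Et (κ i) α
  hbd : ∀ i j α, i ≠ j →
    (D.V j).valuation (b i α) <
      (D.V j).valuation (algebraMap E L D.ϖ) * (D.V j).valuation (algebraMap E L (d i))

namespace NRLift

variable {E L Et : Type} [Field E] [Field L] [Field Et] [Algebra E L]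
  {ι : Type} {κ : ι → Type} [∀ i, Field (κ i)] [∀ i, Algebra Et (κ i)]
  [∀ i, Module.Finite Et (κ i)] {D : NRData E L Et ι κ} {d : ι → E} (T : NRLift D d)

/-- The family `b_{i,α} P_i ^ j`. -/
def B (x : D.I) : L := T.P x.1.1 ^ (x.1.2 : ℕ) * T.b x.1.1 x.2

theorem hb' (i j : ι) (α : Fin (Module.finrank Et (κ i))) (hij : i ≠ j) :
    (D.V j).valuation (T.b i α) < (D.V j).valuation (algebraMap E L D.ϖ) :=
  (T.hbd i j α hij).trans_le
    (mul_le_of_le_one_right zero_le
      ((ValuationSubring.valuation_le_one_iff _ _).2 (D.hVE j _ (T.hd i))))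

theorem P_ne_zero (i : ι) : T.P i ≠ 0 := by
  rw [← Valuation.ne_zero_iff (D.V i).valuation, T.hP i]
  exact D.val_π_ne_zero i

theorem val_P_lt_one (i : ι) : (D.V i).valuation (T.P i) < 1 := by
  rw [T.hP i]; exact D.hπ i

theorem val_P_le_one (i j : ι) : (D.V j).valuation (T.P i) ≤ 1 := by
  rcases eq_or_ne i j with rfl | h
  · exact (T.val_P_lt_one i).le
  · exact T.hP' i j h

theorem val_b_le_one (i j : ι) (α : Fin (Module.finrank Et (κ i))) :
    (D.V j).valuation (T.b i α) ≤ 1 := by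
  rcases eq_or_ne i j with rfl | h
  · exact (ValuationSubring.valuation_le_one_iff _ _).2 (T.hb i α)
  · exact ((T.hb' i j α h).trans (D.val_ϖ_lt_one j)).le

theorem val_ϖ_eq (i : ι) :
    (D.V i).valuation (algebraMap E L D.ϖ) = (D.V i).valuation (T.P i) ^ D.e i := by
  rw [D.hram i, T.hP i]

/-- The reduction of `∑_α c_α b_{i,α}`. -/
theorem red_U (i : ι) (c : Fin (Module.finrank Et (κ i)) → ↥D.VE) :
    ∃ h : (∑ α, algebraMap E L (c α : E) * T.b i α) ∈ D.V i,
      D.red i ⟨_, h⟩ = ∑ α, D.redE (c α) • Module.finBasis Et (κ i) α := by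
  let a : Fin (Module.finrank Et (κ i)) → ↥(D.V i) := fun α =>
    ⟨algebraMap E L (c α : E), D.hVE i _ (c α).2⟩ * ⟨T.b i α, T.hb i α⟩
  have hcoe : ((∑ α, a α : ↥(D.V i)) : L) = ∑ α, algebraMap E L (c α : E) * T.b i α := by
    simp only [AddSubmonoidClass.coe_finsetSum]
    rfl
  have hmem : (∑ α, algebraMap E L (c α : E) * T.b i α) ∈ D.V i := by
    rw [← hcoe]; exact SetLike.coe_mem _
  refine ⟨hmem, ?_⟩
  have heq : (⟨_, hmem⟩ : ↥(D.V i)) = ∑ α, a α := Subtype.ext hcoe.symm
  rw [heq, map_sum]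
  refine Finset.sum_congr rfl fun α _ => ?_
  simp only [a]
  rw [map_mul, D.hcompat, T.hbred, Algebra.smul_def]

/-- `∑_α c_α b_{i,α}` is a unit of `V i` or divisible by `ϖ`. -/
theorem val_U (i : ι) (c : Fin (Module.finrank Et (κ i)) → ↥D.VE) :
    ((D.V i).valuation (∑ α, algebraMap E L (c α : E) * T.b i α) = 1 ∧
        ∃ α, D.redE (c α) ≠ 0) ∨
      ((D.V i).valuation (∑ α, algebraMap E L (c α : E) * T.b i α) ≤
        (D.V i).valuation (algebraMap E L D.ϖ) ∧ ∀ α, D.redE (c α) = 0) := by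
  by_cases h : ∀ α, D.redE (c α) = 0
  · right
    refine ⟨Valuation.map_sum_le _ fun α _ => ?_, h⟩
    rw [map_mul]
    calc (D.V i).valuation (algebraMap E L (c α : E)) * (D.V i).valuation (T.b i α)
        ≤ (D.V i).valuation (algebraMap E L D.ϖ) * 1 :=
          mul_le_mul' (D.val_le_of_redE_eq_zero i _ (h α)) (T.val_b_le_one i i α)
      _ = _ := mul_one _
  · left
    push Not at h
    refine ⟨?_, h⟩
    obtain ⟨hmem, hred⟩ := T.red_U i c
    refine D.val_eq_one_of_red_ne_zero i ⟨_, hmem⟩ ?_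
    rw [hred]
    intro h0
    obtain ⟨α, hα⟩ := h
    exact hα (Fintype.linearIndependent_iff.1 (Module.finBasis Et (κ i)).linearIndependent _ h0 α)

/-- The decomposition of a combination of the `B x`. -/
theorem sum_B [Fintype ι] (c : D.I → L) :
    ∑ x, c x * T.B x =
      ∑ i, ∑ j : Fin (D.e i), T.P i ^ (j : ℕ) * ∑ α, c ⟨⟨i, j⟩, α⟩ * T.b i α := by
  rw [Fintype.sum_sigma, Fintype.sum_sigma]
  refine Finset.sum_congr rfl fun i _ => Finset.sum_congr rfl fun j _ => ?_
  rw [Finset.mul_sum]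
  refine Finset.sum_congr rfl fun α _ => ?_
  simp only [B]; ring

/-- **Key valuation computation**: if `∑ c_x B_x` (with `c_x ∈ V_E`) is divisible by `P_i ^ k` in
`V i`, `k ≤ e i`, then the `c_{(i,j,α)}` with `j < k` are non-units. -/
theorem redE_eq_zero [Fintype ι] (c : D.I → ↥D.VE) (i₀ : ι) (k : ℕ) (hk : k ≤ D.e i₀)
    (hx : (D.V i₀).valuation (∑ x, algebraMap E L (c x : E) * T.B x) ≤
      (D.V i₀).valuation (T.P i₀) ^ k)
    (j : Fin (D.e i₀)) (hj : (j : ℕ) < k) (α : Fin (Module.finrank Et (κ i₀))) :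
    D.redE (c ⟨⟨i₀, j⟩, α⟩) = 0 := by
  classical
  let U : ∀ i, Fin (D.e i) → L := fun i j =>
    ∑ α, algebraMap E L (c ⟨⟨i, j⟩, α⟩ : E) * T.b i α
  let S : ι → L := fun i => ∑ j : Fin (D.e i), T.P i ^ (j : ℕ) * U i j
  have htot : ∑ x, algebraMap E L (c x : E) * T.B x = ∑ i, S i :=
    T.sum_B (fun x => algebraMap E L (c x : E))
  have hvϖ0 : (D.V i₀).valuation (algebraMap E L D.ϖ) ≠ 0 :=
    (Valuation.ne_zero_iff _).2 D.ϖL_ne_zero
  have hsmall : ∀ i ∈ Finset.univ.erase i₀,
      (D.V i₀).valuation (S i) < (D.V i₀).valuation (algebraMap E L D.ϖ) := by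
    intro i hi
    have hne : i ≠ i₀ := (Finset.mem_erase.1 hi).1
    refine Valuation.map_sum_lt _ hvϖ0 fun j _ => ?_
    rw [map_mul, map_pow]
    have h1 : (D.V i₀).valuation (U i j) < (D.V i₀).valuation (algebraMap E L D.ϖ) := by
      refine Valuation.map_sum_lt _ hvϖ0 fun α _ => ?_
      rw [map_mul]
      exact mul_lt_of_le_one_of_lt (D.val_le_one i₀ _) (T.hb' i i₀ α hne)
    exact mul_lt_of_le_one_of_lt (pow_le_one₀ zero_le (T.val_P_le_one i i₀)) h1
  have hrest : (D.V i₀).valuation (∑ i ∈ Finset.univ.erase i₀, S i) <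
      (D.V i₀).valuation (algebraMap E L D.ϖ) :=
    Valuation.map_sum_lt _ hvϖ0 hsmall
  have hsplit : ∑ i, S i = S i₀ + ∑ i ∈ Finset.univ.erase i₀, S i :=
    (Finset.add_sum_erase _ _ (Finset.mem_univ i₀)).symm
  have hϖk : (D.V i₀).valuation (algebraMap E L D.ϖ) ≤ (D.V i₀).valuation (T.P i₀) ^ k := by
    rw [T.val_ϖ_eq i₀]
    exact pow_le_pow_of_le_one zero_le (T.val_P_lt_one i₀).le hk
  have hS : (D.V i₀).valuation (S i₀) ≤ (D.V i₀).valuation (T.P i₀) ^ k := by
    have : S i₀ = (∑ i, S i) - ∑ i ∈ Finset.univ.erase i₀, S i := by rw [hsplit]; ring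
    rw [this]
    refine (Valuation.map_sub _ _ _).trans (max_le ?_ (hrest.le.trans hϖk))
    rw [← htot]; exact hx
  have hu : ∀ j, (D.V i₀).valuation (U i₀ j) = 1 ∨
      (D.V i₀).valuation (U i₀ j) ≤ (D.V i₀).valuation (T.P i₀) ^ D.e i₀ := by
    intro j
    rcases T.val_U i₀ (fun α => c ⟨⟨i₀, j⟩, α⟩) with h | h
    · exact Or.inl h.1
    · right; rw [← T.val_ϖ_eq i₀]; exact h.1
  have h := val_sum_pow_fin (D.V i₀) (T.P i₀) (T.val_P_lt_one i₀) (T.P_ne_zero i₀) (D.e i₀) k hk
    (U i₀) hu hS j hj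
  rcases T.val_U i₀ (fun α => c ⟨⟨i₀, j⟩, α⟩) with h1 | h1
  · exfalso
    have : (D.V i₀).valuation (U i₀ j) < 1 :=
      h.trans_lt (by rw [← T.val_ϖ_eq]; exact D.val_ϖ_lt_one i₀)
    exact this.ne h1.1
  · exact h1.2 α

/-- The scaling argument: a combination `∑ c_x B_x`, divided by its largest coefficient, is not
divisible by `ϖ` at the place of this coefficient. -/
theorem scale_aux [Fintype ι] (c : D.I → E) (x₀ : D.I) (hx₀ : c x₀ ≠ 0)
    (hmax : ∀ x, D.VE.valuation (c x) ≤ D.VE.valuation (c x₀))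
    (hg : (D.V x₀.1.1).valuation
        ((algebraMap E L (c x₀))⁻¹ * ∑ x, algebraMap E L (c x) * T.B x) ≤
      (D.V x₀.1.1).valuation (algebraMap E L D.ϖ)) : False := by
  have hv0 : D.VE.valuation (c x₀) ≠ 0 := (Valuation.ne_zero_iff _).2 hx₀
  have hmem : ∀ x, c x / c x₀ ∈ D.VE := by
    intro x
    rw [← ValuationSubring.valuation_le_one_iff, map_div₀]
    exact (div_le_one₀ (zero_lt_iff.2 hv0)).2 (hmax x)
  let c' : D.I → ↥D.VE := fun x => ⟨c x / c x₀, hmem x⟩
  have hsum : ∑ x, algebraMap E L (c' x : E) * T.B x =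
      (algebraMap E L (c x₀))⁻¹ * ∑ x, algebraMap E L (c x) * T.B x := by
    rw [Finset.mul_sum]
    refine Finset.sum_congr rfl fun x _ => ?_
    simp only [c', map_div₀]
    field_simp
  obtain ⟨⟨i₀, j₀⟩, α₀⟩ := x₀
  have h := T.redE_eq_zero c' i₀ (D.e i₀) le_rfl
    (by rw [hsum, ← T.val_ϖ_eq]; exact hg) j₀ j₀.2 α₀
  have h1 : c' ⟨⟨i₀, j₀⟩, α₀⟩ = 1 := Subtype.ext (div_self hx₀)
  rw [h1, map_one] at h
  exact one_ne_zero h

/-- The family `B` is linearly independent over `E`. -/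
theorem linearIndependent_B [Fintype ι] : LinearIndependent E T.B := by
  rw [Fintype.linearIndependent_iff]
  intro c hc
  by_contra hne
  push Not at hne
  obtain ⟨x₁, hx₁⟩ := hne
  have : Nonempty D.I := ⟨x₁⟩
  obtain ⟨x₀, hx₀⟩ := Fermat.Agent.RED.H10.exists_max_val D.VE c
  have hc0 : c x₀ ≠ 0 := by
    intro h0
    have := hx₀ x₁
    rw [h0, map_zero, le_zero_iff, Valuation.zero_iff] at this
    exact hx₁ this
  refine T.scale_aux c x₀ hc0 hx₀ ?_
  have h0 : ∑ x, algebraMap E L (c x) * T.B x = 0 := by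
    rw [← hc]
    exact Finset.sum_congr rfl fun x _ => (Algebra.smul_def _ _).symm
  rw [h0, mul_zero, map_zero]
  exact zero_le

/-- The coordinates of an element of `⋂ V i` in the family `B` are in `V_E`. -/
theorem coord_mem [Fintype ι] (c : D.I → E) (g : L) (hg : ∀ i, g ∈ D.V i)
    (hsum : ∑ x, c x • T.B x = g) (x : D.I) : c x ∈ D.VE := by
  by_contra hne
  have : Nonempty D.I := ⟨x⟩
  obtain ⟨x₀, hx₀⟩ := Fermat.Agent.RED.H10.exists_max_val D.VE c
  have hcV : c x₀ ∉ D.VE := by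
    intro hmem
    apply hne
    rw [← ValuationSubring.valuation_le_one_iff] at hmem ⊢
    exact (hx₀ x).trans hmem
  have hc0 : c x₀ ≠ 0 := fun h0 => hcV (h0 ▸ zero_mem _)
  have hinv : (c x₀)⁻¹ ∈ D.VE := (D.VE.mem_or_inv_mem (c x₀)).resolve_left hcV
  have hinv1 : D.VE.valuation (c x₀)⁻¹ < 1 := by
    refine lt_of_le_of_ne ((ValuationSubring.valuation_le_one_iff _ _).2 hinv) ?_
    intro h1
    apply hcV
    rw [← ValuationSubring.valuation_le_one_iff]
    rw [map_inv₀, inv_eq_one] at h1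
    exact h1.le
  have h2 := D.hE _ hinv1
  have h3 : (c x₀)⁻¹ / D.ϖ ∈ D.VE := by
    rw [← ValuationSubring.valuation_le_one_iff, map_div₀]
    exact (div_le_one₀ (zero_lt_iff.2 ((Valuation.ne_zero_iff _).2 D.hϖ0))).2 h2
  have h4 := D.hVE x₀.1.1 _ h3
  rw [← ValuationSubring.valuation_le_one_iff, map_div₀, map_div₀] at h4
  have h5 : (D.V x₀.1.1).valuation (algebraMap E L (c x₀)⁻¹) ≤
      (D.V x₀.1.1).valuation (algebraMap E L D.ϖ) :=
    (div_le_one₀ (zero_lt_iff.2 ((Valuation.ne_zero_iff _).2 D.ϖL_ne_zero))).1 h4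
  refine T.scale_aux c x₀ hc0 hx₀ ?_
  have h0 : ∑ x, algebraMap E L (c x) * T.B x = g := by
    rw [← hsum]
    exact Finset.sum_congr rfl fun x _ => (Algebra.smul_def _ _).symm
  rw [h0, map_mul, ← map_inv₀ (algebraMap E L)]
  calc (D.V x₀.1.1).valuation (algebraMap E L (c x₀)⁻¹) * (D.V x₀.1.1).valuation g
      ≤ (D.V x₀.1.1).valuation (algebraMap E L D.ϖ) * 1 :=
        mul_le_mul' h5 ((ValuationSubring.valuation_le_one_iff _ _).2 (hg _))
    _ = _ := mul_one _

theorem val_B_lt_of_ne (y : D.I) (i₀ : ι) (h : y.1.1 ≠ i₀) :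
    (D.V i₀).valuation (T.B y) < (D.V i₀).valuation (algebraMap E L D.ϖ) := by
  rw [B, map_mul, map_pow]
  exact mul_lt_of_le_one_of_lt (pow_le_one₀ zero_le (T.val_P_le_one _ _)) (T.hb' _ _ _ h)

theorem val_B_lt_of_ne_d (y : D.I) (i₀ : ι) (h : y.1.1 ≠ i₀) :
    (D.V i₀).valuation (T.B y) <
      (D.V i₀).valuation (algebraMap E L D.ϖ) *
        (D.V i₀).valuation (algebraMap E L (d y.1.1)) := by
  rw [B, map_mul, map_pow]
  exact mul_lt_of_le_one_of_lt (pow_le_one₀ zero_le (T.val_P_le_one _ _)) (T.hbd _ _ _ h)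

theorem val_B_le (y : D.I) :
    (D.V y.1.1).valuation (T.B y) ≤ (D.V y.1.1).valuation (T.P y.1.1) ^ (y.1.2 : ℕ) := by
  rw [B, map_mul, map_pow]
  exact mul_le_of_le_one_right zero_le (T.val_b_le_one _ _ _)

theorem val_B_le_one (y : D.I) (i : ι) : (D.V i).valuation (T.B y) ≤ 1 := by
  rw [B, map_mul, map_pow]
  exact mul_le_one' (pow_le_one₀ zero_le (T.val_P_le_one _ _)) (T.val_b_le_one _ _ _)

theorem B_mem (y : D.I) (i : ι) : T.B y ∈ D.V i :=
  (ValuationSubring.valuation_le_one_iff _ _).1 (T.val_B_le_one y i)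

theorem val_S_lt (c : D.I → ↥D.VE) (i i₀ : ι) (hne : i ≠ i₀) :
    (D.V i₀).valuation (∑ j : Fin (D.e i), T.P i ^ (j : ℕ) *
        ∑ α, algebraMap E L (c ⟨⟨i, j⟩, α⟩ : E) * T.b i α) <
      (D.V i₀).valuation (algebraMap E L D.ϖ) := by
  have hvϖ0 : (D.V i₀).valuation (algebraMap E L D.ϖ) ≠ 0 :=
    (Valuation.ne_zero_iff _).2 D.ϖL_ne_zero
  refine Valuation.map_sum_lt _ hvϖ0 fun j _ => ?_
  rw [map_mul, map_pow]
  have h1 : (D.V i₀).valuation (∑ α, algebraMap E L (c ⟨⟨i, j⟩, α⟩ : E) * T.b i α) <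
      (D.V i₀).valuation (algebraMap E L D.ϖ) := by
    refine Valuation.map_sum_lt _ hvϖ0 fun α _ => ?_
    rw [map_mul]
    exact mul_lt_of_le_one_of_lt (D.val_le_one i₀ _) (T.hb' i i₀ α hne)
  exact mul_lt_of_le_one_of_lt (pow_le_one₀ zero_le (T.val_P_le_one i i₀)) h1

/-- **The zero blocks**: in the column of `h B_y` (`h ∈ ⋂ V i`) the coefficients of the `B_x` with
`x.i ≠ y.i`, or `x.i = y.i` and `x.j < y.j`, are non-units. -/
theorem col_redE_eq_zero [Fintype ι] (c : D.I → ↥D.VE) (h : L) (y : D.I)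
    (hh : h ∈ D.V y.1.1)
    (hsmall : ∀ i₀, i₀ ≠ y.1.1 →
      (D.V i₀).valuation (h * T.B y) < (D.V i₀).valuation (algebraMap E L D.ϖ))
    (hsum : ∑ x, algebraMap E L (c x : E) * T.B x = h * T.B y) (x : D.I)
    (hxy : x.1.1 ≠ y.1.1 ∨ (x.1.1 = y.1.1 ∧ (x.1.2 : ℕ) < (y.1.2 : ℕ))) :
    D.redE (c x) = 0 := by
  obtain ⟨⟨i₀, j⟩, α⟩ := x
  obtain ⟨⟨i₁, j₁⟩, α₁⟩ := y
  rcases hxy with hne | ⟨heq, hlt⟩
  · refine T.redE_eq_zero c i₀ (D.e i₀) le_rfl ?_ j j.2 α
    rw [hsum, ← T.val_ϖ_eq]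
    exact (hsmall i₀ hne).le
  · simp only at heq hlt
    subst heq
    refine T.redE_eq_zero c i₀ (j₁ : ℕ) j₁.2.le ?_ j hlt α
    rw [hsum, map_mul]
    exact (mul_le_of_le_one_left zero_le
      ((ValuationSubring.valuation_le_one_iff _ _).2 hh)).trans (T.val_B_le ⟨⟨i₀, j₁⟩, α₁⟩)

/-- **The diagonal blocks**: in the column of `h B_{(i,j,α₁)}` the reductions of the coefficients
of the `B_{(i,j,α)}` are the entries of the matrix of the multiplication by `red_i h`. -/
theorem col_redE_diag [Fintype ι] (c : D.I → ↥D.VE) (h : L) (i : ι) (hh : h ∈ D.V i)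
    (j₁ : Fin (D.e i)) (α₁ : Fin (Module.finrank Et (κ i)))
    (hsmall : ∀ i₀, i₀ ≠ i →
      (D.V i₀).valuation (h * T.B ⟨⟨i, j₁⟩, α₁⟩) < (D.V i₀).valuation (algebraMap E L D.ϖ))
    (hsum : ∑ x, algebraMap E L (c x : E) * T.B x = h * T.B ⟨⟨i, j₁⟩, α₁⟩) :
    D.red i ⟨h, hh⟩ * Module.finBasis Et (κ i) α₁ =
      ∑ α, D.redE (c ⟨⟨i, j₁⟩, α⟩) • Module.finBasis Et (κ i) α := by
  classical
  let U : ∀ i', Fin (D.e i') → L := fun i' j =>
    ∑ α, algebraMap E L (c ⟨⟨i', j⟩, α⟩ : E) * T.b i' α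
  let S : ι → L := fun i' => ∑ j : Fin (D.e i'), T.P i' ^ (j : ℕ) * U i' j
  have htot : ∑ x, algebraMap E L (c x : E) * T.B x = ∑ i', S i' :=
    T.sum_B (fun x => algebraMap E L (c x : E))
  have hvP0 : (D.V i).valuation (T.P i) ≠ 0 := (Valuation.ne_zero_iff _).2 (T.P_ne_zero i)
  have hvPpos : 0 < (D.V i).valuation (T.P i) := zero_lt_iff.2 hvP0
  have hPj0 : (D.V i).valuation (T.P i) ^ (j₁ : ℕ) ≠ 0 := pow_ne_zero _ hvP0
  have hϖj : (D.V i).valuation (algebraMap E L D.ϖ) < (D.V i).valuation (T.P i) ^ (j₁ : ℕ) := by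
    rw [T.val_ϖ_eq i]
    exact pow_lt_pow_right_of_lt_one₀ hvPpos (T.val_P_lt_one i) j₁.2
  have hrest : (D.V i).valuation (∑ i' ∈ Finset.univ.erase i, S i') <
      (D.V i).valuation (T.P i) ^ (j₁ : ℕ) :=
    Valuation.map_sum_lt _ hPj0 fun i' hi' =>
      (T.val_S_lt c i' i (Finset.mem_erase.1 hi').1).trans hϖj
  have hsplit : ∑ i', S i' = S i + ∑ i' ∈ Finset.univ.erase i, S i' :=
    (Finset.add_sum_erase _ _ (Finset.mem_univ i)).symm
  have hsplit2 : S i = T.P i ^ (j₁ : ℕ) * U i j₁ +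
      ∑ j ∈ Finset.univ.erase j₁, T.P i ^ (j : ℕ) * U i j :=
    (Finset.add_sum_erase _ _ (Finset.mem_univ j₁)).symm
  have hrest2 : (D.V i).valuation (∑ j ∈ Finset.univ.erase j₁, T.P i ^ (j : ℕ) * U i j) <
      (D.V i).valuation (T.P i) ^ (j₁ : ℕ) := by
    refine Valuation.map_sum_lt _ hPj0 fun j hj => ?_
    have hne : j ≠ j₁ := (Finset.mem_erase.1 hj).1
    rw [map_mul, map_pow]
    rcases lt_or_gt_of_ne (fun h => hne (Fin.ext h) : (j : ℕ) ≠ (j₁ : ℕ)) with hlt | hgt
    · have hz : ∀ α, D.redE (c ⟨⟨i, j⟩, α⟩) = 0 := fun α =>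
        T.col_redE_eq_zero c h ⟨⟨i, j₁⟩, α₁⟩ hh hsmall hsum ⟨⟨i, j⟩, α⟩ (Or.inr ⟨rfl, hlt⟩)
      have hU : (D.V i).valuation (U i j) ≤ (D.V i).valuation (algebraMap E L D.ϖ) := by
        rcases T.val_U i (fun α => c ⟨⟨i, j⟩, α⟩) with h1 | h1
        · obtain ⟨α, hα⟩ := h1.2
          exact absurd (hz α) hα
        · exact h1.1
      exact (mul_le_of_le_one_left zero_le (pow_le_one₀ zero_le (T.val_P_lt_one i).le)).trans_lt
        (hU.trans_lt hϖj)
    · have hU : (D.V i).valuation (U i j) ≤ 1 := by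
        rcases T.val_U i (fun α => c ⟨⟨i, j⟩, α⟩) with h1 | h1
        · exact h1.1.le
        · exact h1.1.trans (D.val_ϖ_lt_one i).le
      exact (mul_le_of_le_one_right zero_le hU).trans_lt
        (pow_lt_pow_right_of_lt_one₀ hvPpos (T.val_P_lt_one i) hgt)
  have hdiff : T.P i ^ (j₁ : ℕ) * (h * T.b i α₁ - U i j₁) =
      ∑ j ∈ Finset.univ.erase j₁, T.P i ^ (j : ℕ) * U i j +
        ∑ i' ∈ Finset.univ.erase i, S i' := by
    have h1 : h * T.B ⟨⟨i, j₁⟩, α₁⟩ = T.P i ^ (j₁ : ℕ) * (h * T.b i α₁) := by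
      simp only [B]; ring
    have h2 : T.P i ^ (j₁ : ℕ) * (h * T.b i α₁) = T.P i ^ (j₁ : ℕ) * U i j₁ +
        ∑ j ∈ Finset.univ.erase j₁, T.P i ^ (j : ℕ) * U i j +
          ∑ i' ∈ Finset.univ.erase i, S i' := by
      rw [← h1, ← hsum, htot, hsplit, hsplit2]
    rw [mul_sub, h2]; ring
  have hval : (D.V i).valuation (h * T.b i α₁ - U i j₁) < 1 := by
    have h1 : (D.V i).valuation (T.P i ^ (j₁ : ℕ) * (h * T.b i α₁ - U i j₁)) <
        (D.V i).valuation (T.P i) ^ (j₁ : ℕ) := by
      rw [hdiff]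
      exact lt_of_le_of_lt (Valuation.map_add _ _ _) (max_lt hrest2 hrest)
    rw [map_mul, map_pow] at h1
    by_contra hcon
    push Not at hcon
    exact absurd h1 (not_lt.2 (le_mul_of_one_le_right zero_le hcon))
  obtain ⟨hmem, hred⟩ := T.red_U i (fun α => c ⟨⟨i, j₁⟩, α⟩)
  have hfin := red_eq_of_val_sub_lt (D.hker i) (⟨h, hh⟩ * ⟨T.b i α₁, T.hb i α₁⟩) ⟨_, hmem⟩ hval
  rw [map_mul, T.hbred, hred] at hfin
  exact hfin

end NRLift

section BlockDet

/-- Determinant of a block triangular matrix indexed by triples `(i, j, α)`, `j < e i`,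
`α < f i`, with diagonal blocks `A i`. -/
theorem det_sigma_blockTriangular {R : Type} [CommRing R] {ι : Type} [Fintype ι] [DecidableEq ι]
    (e f : ι → ℕ)
    (M : Matrix (Σ k : (Σ i : ι, Fin (e i)), Fin (f k.1))
      (Σ k : (Σ i : ι, Fin (e i)), Fin (f k.1)) R)
    (A : ∀ i, Matrix (Fin (f i)) (Fin (f i)) R)
    (hzero : ∀ x y : (Σ k : (Σ i : ι, Fin (e i)), Fin (f k.1)),
      (x.1.1 ≠ y.1.1 ∨ (x.1.1 = y.1.1 ∧ (x.1.2 : ℕ) < (y.1.2 : ℕ))) → M x y = 0)
    (hdiag : ∀ (k : Σ i : ι, Fin (e i)) (α α₁ : Fin (f k.1)), M ⟨k, α⟩ ⟨k, α₁⟩ = A k.1 α α₁) :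
    M.det = ∏ i, (A i).det ^ e i := by
  classical
  let φ : (Σ i : ι, Fin (e i)) → Fin (Fintype.card ι) ×ₗ ℕᵒᵈ := fun k =>
    toLex (Fintype.equivFin ι k.1, OrderDual.toDual (k.2 : ℕ))
  have hφ : Function.Injective φ := by
    rintro ⟨i, j⟩ ⟨i', j'⟩ h
    have h1 : (Fintype.equivFin ι i, OrderDual.toDual (j : ℕ)) =
        (Fintype.equivFin ι i', OrderDual.toDual (j' : ℕ)) := toLex.injective h
    have h2 : i = i' := (Fintype.equivFin ι).injective (Prod.ext_iff.1 h1).1
    subst h2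
    have h3 : (j : ℕ) = (j' : ℕ) := OrderDual.toDual.injective (Prod.ext_iff.1 h1).2
    rw [Fin.ext h3]
  let inst : LinearOrder (Σ i : ι, Fin (e i)) := LinearOrder.lift' φ hφ
  have hBT : @Matrix.BlockTriangular _ _ _ inst.toLT _ M Sigma.fst := by
    intro x y hxy
    apply hzero
    have hxy' : φ y.1 < φ x.1 := hxy
    rcases (Prod.Lex.toLex_lt_toLex).1 hxy' with h | ⟨h1, h2⟩
    · left
      intro heq
      have : (Fintype.equivFin ι) y.1.1 = (Fintype.equivFin ι) x.1.1 := by rw [heq]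
      exact absurd this h.ne
    · right
      have h3 : y.1.1 = x.1.1 := (Fintype.equivFin ι).injective h1
      refine ⟨h3.symm, ?_⟩
      exact OrderDual.toDual_lt_toDual.1 h2
  rw [@Matrix.BlockTriangular.det_fintype _ _ _ _ _ _ _ _ _ _ inst hBT]
  have hblock : ∀ k : (Σ i : ι, Fin (e i)), M.toSquareBlock Sigma.fst k =
      (A k.1).submatrix (Equiv.sigmaSubtype k) (Equiv.sigmaSubtype k) := by
    intro k
    ext ⟨⟨k₁, α⟩, h₁⟩ ⟨⟨k₂, α₁⟩, h₂⟩
    simp only at h₁ h₂
    subst h₁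
    subst h₂
    simp [Matrix.toSquareBlock_def, hdiag]
  have hdet : ∀ k : (Σ i : ι, Fin (e i)), (M.toSquareBlock Sigma.fst k).det = (A k.1).det := by
    intro k
    rw [hblock, Matrix.det_submatrix_equiv_self]
  simp only [hdet]
  rw [Fintype.prod_sigma]
  refine Finset.prod_congr rfl fun i _ => ?_
  change ∏ _y : Fin (e i), (A i).det = _
  rw [Finset.prod_const, Finset.card_univ, Fintype.card_fin]

end BlockDet

namespace NRData

variable {E L Et : Type} [Field E] [Field L] [Field Et] [Algebra E L]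
  {ι : Type} {κ : ι → Type} [∀ i, Field (κ i)] [∀ i, Algebra Et (κ i)]
  [∀ i, Module.Finite Et (κ i)] (D : NRData E L Et ι κ)

/-- Lifts exist (approximation). -/
theorem exists_lift [Fintype ι] [DecidableEq ι] (d : ι → E) (hd : ∀ i, d i ∈ D.VE)
    (hd0 : ∀ i, d i ≠ 0) : Nonempty (NRLift D d) := by
  have hP : ∀ i, ∃ P : L, (D.V i).valuation P = (D.V i).valuation (D.π i) ∧
      ∀ j, i ≠ j → (D.V j).valuation P ≤ 1 := by
    intro i
    obtain ⟨b, -, hb, hb'⟩ := exists_approx_small D.V D.hA D.hinc D.V_ne_top i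
      (Finset.univ.erase i) (Finset.notMem_erase _ _) (fun _ => 1) (fun _ _ => one_ne_zero)
      (D.π i) ((ValuationSubring.valuation_le_one_iff _ _).1 (D.hπ i).le)
    refine ⟨b, hb, fun j hij => ?_⟩
    have := hb' j (Finset.mem_erase.2 ⟨hij.symm, Finset.mem_univ _⟩)
    rw [map_one] at this
    exact this.le
  have hb : ∀ (i : ι) (α : Fin (Module.finrank Et (κ i))), ∃ b : L, ∃ hb : b ∈ D.V i,
      D.red i ⟨b, hb⟩ = Module.finBasis Et (κ i) α ∧
      ∀ j, i ≠ j → (D.V j).valuation b <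
        (D.V j).valuation (algebraMap E L D.ϖ) * (D.V j).valuation (algebraMap E L (d i)) := by
    intro i α
    obtain ⟨y, hy⟩ := D.hsurj i (Module.finBasis Et (κ i) α)
    obtain ⟨b, hb1, -, hb'⟩ := exists_approx_small D.V D.hA D.hinc D.V_ne_top i
      (Finset.univ.erase i) (Finset.notMem_erase _ _)
      (fun _ => algebraMap E L D.ϖ * algebraMap E L (d i))
      (fun _ _ => mul_ne_zero D.ϖL_ne_zero (by rw [Ne, map_eq_zero]; exact hd0 i)) (y : L) y.2
    have hbV : b ∈ D.V i := mem_of_val_sub_lt (D.V i) y.2 hb1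
    refine ⟨b, hbV, ?_, fun j hij => ?_⟩
    · rw [← hy]
      exact red_eq_of_val_sub_lt (D.hker i) ⟨b, hbV⟩ y hb1
    · have := hb' j (Finset.mem_erase.2 ⟨hij.symm, Finset.mem_univ _⟩)
      rwa [map_mul] at this
  choose P hP1 hP2 using hP
  choose b hbV hbred hb' using hb
  exact ⟨{ P := P, b := b, hd := hd, hP := hP1, hP' := hP2, hb := hbV, hbred := hbred,
           hbd := fun i j α hij => hb' i α j hij }⟩

omit [∀ i, Module.Finite Et (κ i)] in
theorem card_I [Fintype ι] :
    Fintype.card D.I = ∑ i, D.e i * Module.finrank Et (κ i) := by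
  rw [Fintype.card_sigma, Fintype.sum_sigma]
  refine Finset.sum_congr rfl fun i _ => ?_
  simp only [Fintype.card_fin]
  change ∑ _j : Fin (D.e i), Module.finrank Et (κ i) = _
  rw [Finset.sum_const, Finset.card_univ, Fintype.card_fin, smul_eq_mul]

/-- **NORM-RED with ramification, scaled form.**  `V_E` a discrete valuation ring of `E` with
uniformiser `ϖ`; `V i` (`i : ι`, finitely many) pairwise incomparable valuation rings of rank one
of `L` over `V_E` with uniformisers `π i`, ramification indices `e i` and residue fields `κ i`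
over `Et`, with `∑ e i [κ i : Et] = [L : E]`.  If `h = d_i u_i` with `d_i ∈ V_E`, `d_i ≠ 0`,
`u_i ∈ V i` for all `i`, then `N_{L/E} h = ∏ d_i ^ (e i [κ i : Et]) · δ` with `δ ∈ V_E` and
`red_E δ = ∏ N_{κ i / Et} (red_i u_i) ^ e i`. -/
theorem normRed_d [Fintype ι] [DecidableEq ι] [Module.Finite E L]
    (hdeg : ∑ i, D.e i * Module.finrank Et (κ i) = Module.finrank E L)
    (d : ι → E) (hd : ∀ i, d i ∈ D.VE) (hd0 : ∀ i, d i ≠ 0)
    (h : L) (u : ι → L) (hu : ∀ i, u i ∈ D.V i) (hhu : ∀ i, h = algebraMap E L (d i) * u i) :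
    ∃ δ : ↥D.VE,
      Algebra.norm E h = (∏ i, d i ^ (D.e i * Module.finrank Et (κ i))) * (δ : E) ∧
      D.redE δ = ∏ i, Algebra.norm Et (D.red i ⟨u i, hu i⟩) ^ D.e i := by
  classical
  obtain ⟨T⟩ := D.exists_lift d hd hd0
  have hli := T.linearIndependent_B
  have hcard : Fintype.card D.I = Module.finrank E L := by rw [D.card_I, hdeg]
  have hne : Nonempty D.I := by
    rw [← Fintype.card_pos_iff, hcard]
    exact Module.finrank_pos
  let bE : Module.Basis D.I E L := basisOfLinearIndependentOfCardEqFinrank hli hcard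
  have hbE : ∀ x, bE x = T.B x := fun x => by simp [bE]
  have hcoord : ∀ g : L, (∀ i, g ∈ D.V i) → ∀ x, bE.repr g x ∈ D.VE := by
    intro g hg x
    refine T.coord_mem (fun x => bE.repr g x) g hg ?_ x
    have := bE.sum_repr g
    simpa only [hbE] using this
  have hdL : ∀ i, algebraMap E L (d i) ≠ 0 := fun i => by
    rw [Ne, map_eq_zero]; exact hd0 i
  have hvd : ∀ i j, (D.V j).valuation (algebraMap E L (d i)) ≠ 0 := fun i j =>
    (Valuation.ne_zero_iff _).2 (hdL i)
  have hvh : ∀ j, (D.V j).valuation h ≤ 1 := by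
    intro j
    rw [hhu j, map_mul]
    exact mul_le_one' ((ValuationSubring.valuation_le_one_iff _ _).2 (D.hVE j _ (hd j)))
      ((ValuationSubring.valuation_le_one_iff _ _).2 (hu j))
  have hui : ∀ i, u i = h * (algebraMap E L (d i))⁻¹ := by
    intro i
    rw [hhu i]
    field_simp [hdL i]
  -- the columns
  have hsmall : ∀ (y : D.I) (i₀ : ι), i₀ ≠ y.1.1 →
      (D.V i₀).valuation (u y.1.1 * T.B y) < (D.V i₀).valuation (algebraMap E L D.ϖ) := by
    intro y i₀ hne
    have h1 := T.val_B_lt_of_ne_d y i₀ (Ne.symm hne)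
    rw [hui y.1.1, map_mul, map_mul, map_inv₀]
    calc (D.V i₀).valuation h * ((D.V i₀).valuation (algebraMap E L (d y.1.1)))⁻¹ *
          (D.V i₀).valuation (T.B y)
        ≤ 1 * ((D.V i₀).valuation (algebraMap E L (d y.1.1)))⁻¹ *
          (D.V i₀).valuation (T.B y) := by
          gcongr
          exact hvh i₀
      _ = (D.V i₀).valuation (T.B y) / (D.V i₀).valuation (algebraMap E L (d y.1.1)) := by
          rw [one_mul, div_eq_mul_inv, mul_comm]
      _ < (D.V i₀).valuation (algebraMap E L D.ϖ) :=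
          (div_lt_iff₀ (zero_lt_iff.2 (hvd _ _))).2 h1
  have hG : ∀ (y : D.I) (i : ι), u y.1.1 * T.B y ∈ D.V i := by
    intro y i
    rcases eq_or_ne i y.1.1 with rfl | hne
    · exact mul_mem (hu _) (T.B_mem y _)
    · exact (ValuationSubring.valuation_le_one_iff _ _).1
        ((hsmall y i hne).le.trans (D.val_ϖ_lt_one i).le)
  let M₀ : Matrix D.I D.I ↥D.VE :=
    Matrix.of fun x y => ⟨bE.repr (u y.1.1 * T.B y) x, hcoord _ (hG y) x⟩
  let γ : D.I → E := fun y => d y.1.1
  have hM : Algebra.leftMulMatrix bE h = D.VE.subtype.mapMatrix M₀ * Matrix.diagonal γ := by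
    refine Matrix.ext fun x y => ?_
    have h1 : h * bE y = γ y • (u y.1.1 * T.B y) := by
      rw [hbE, Algebra.smul_def, ← mul_assoc, ← hhu]
    rw [Algebra.leftMulMatrix_eq_repr_mul, h1, map_smul, Matrix.mul_diagonal]
    simp [M₀, mul_comm]
  have hcol : ∀ y, ∑ x, algebraMap E L ((M₀ x y : ↥D.VE) : E) * T.B x = u y.1.1 * T.B y := by
    intro y
    have := bE.sum_repr (u y.1.1 * T.B y)
    simp only [hbE, Algebra.smul_def] at this
    exact this
  let A : ∀ i, Matrix (Fin (Module.finrank Et (κ i))) (Fin (Module.finrank Et (κ i))) Et :=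
    fun i => Algebra.leftMulMatrix (Module.finBasis Et (κ i)) (D.red i ⟨u i, hu i⟩)
  have hdet : (D.redE.mapMatrix M₀).det = ∏ i, (A i).det ^ D.e i := by
    refine det_sigma_blockTriangular D.e (fun i => Module.finrank Et (κ i)) _ A ?_ ?_
    · intro x y hxy
      exact T.col_redE_eq_zero (fun x => M₀ x y) (u y.1.1) y (hu _) (hsmall y) (hcol y) x hxy
    · rintro ⟨i, j⟩ α α₁
      have h1 := T.col_redE_diag (fun x => M₀ x ⟨⟨i, j⟩, α₁⟩) (u i) i (hu i) j α₁
        (hsmall ⟨⟨i, j⟩, α₁⟩) (hcol _)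
      simp only [A]
      rw [Algebra.leftMulMatrix_eq_repr_mul, h1, Module.Basis.repr_sum_self]
      rfl
  have hγ : ∏ y : D.I, γ y = ∏ i, d i ^ (D.e i * Module.finrank Et (κ i)) := by
    rw [Fintype.prod_sigma, Fintype.prod_sigma]
    refine Finset.prod_congr rfl fun i _ => ?_
    change ∏ _j : Fin (D.e i), ∏ _α : Fin (Module.finrank Et (κ i)), d i = _
    simp only [Finset.prod_const, Finset.card_univ, Fintype.card_fin]
    rw [← pow_mul, mul_comm]
  refine ⟨M₀.det, ?_, ?_⟩
  · rw [Algebra.norm_eq_matrix_det bE, hM, Matrix.det_mul, Matrix.det_diagonal, hγ,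
      ← RingHom.map_det, mul_comm]
    rfl
  · rw [RingHom.map_det, hdet]
    refine Finset.prod_congr rfl fun i _ => ?_
    rw [Algebra.norm_eq_matrix_det (Module.finBasis Et (κ i))]

/-- **NORM-RED with ramification**: for `h ∈ ⋂ V i`: `N_{L/E} h = δ ∈ V_E` and
`red_E δ = ∏ N_{κ i / Et} (red_i h) ^ e i`. -/
theorem normRed [Fintype ι] [DecidableEq ι] [Module.Finite E L]
    (hdeg : ∑ i, D.e i * Module.finrank Et (κ i) = Module.finrank E L)
    (h : L) (hh : ∀ i, h ∈ D.V i) :
    ∃ δ : ↥D.VE, Algebra.norm E h = (δ : E) ∧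
      D.redE δ = ∏ i, Algebra.norm Et (D.red i ⟨h, hh i⟩) ^ D.e i := by
  obtain ⟨δ, h1, h2⟩ := D.normRed_d hdeg (fun _ => 1) (fun _ => one_mem _)
    (fun _ => one_ne_zero) h (fun _ => h) hh (fun _ => by rw [map_one, one_mul])
  refine ⟨δ, ?_, h2⟩
  rw [h1]
  simp

/-- **NORM-RED with ramification, general form.**  If `g : L` and `c i : E`, `c i ≠ 0`, are
such that `c i * g ∈ V i` for all `i`, then
`(∏ c_i ^ (e i [κ i : Et])) · N_{L/E} g = δ ∈ V_E` and
`red_E δ = ∏ N_{κ i / Et} (red_i (c_i g)) ^ e i`. -/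
theorem normRed_scaled [Fintype ι] [DecidableEq ι] [Module.Finite E L]
    (hdeg : ∑ i, D.e i * Module.finrank Et (κ i) = Module.finrank E L)
    (g : L) (c : ι → E) (hc : ∀ i, c i ≠ 0) (hu : ∀ i, algebraMap E L (c i) * g ∈ D.V i) :
    ∃ δ : ↥D.VE,
      (∏ i, c i ^ (D.e i * Module.finrank Et (κ i))) * Algebra.norm E g = (δ : E) ∧
      D.redE δ = ∏ i, Algebra.norm Et (D.red i ⟨algebraMap E L (c i) * g, hu i⟩) ^ D.e i := by
  classical
  have hne : Nonempty ι := by
    by_contra hemp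
    rw [not_nonempty_iff] at hemp
    have : Module.finrank E L = 0 := by rw [← hdeg]; simp
    exact (Module.finrank_pos (R := E) (M := L)).ne' this
  obtain ⟨i₀, -, hi₀⟩ := Finset.exists_min_image Finset.univ
    (fun i => D.VE.valuation (c i)) Finset.univ_nonempty
  have hv0 : ∀ i, D.VE.valuation (c i) ≠ 0 := fun i => (Valuation.ne_zero_iff _).2 (hc i)
  have hd : ∀ i, c i₀ / c i ∈ D.VE := by
    intro i
    rw [← ValuationSubring.valuation_le_one_iff, map_div₀]
    exact (div_le_one₀ (zero_lt_iff.2 (hv0 i))).2 (hi₀ i (Finset.mem_univ i))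
  have hcL : ∀ i, algebraMap E L (c i) ≠ 0 := fun i => by
    rw [Ne, map_eq_zero]; exact hc i
  obtain ⟨δ, h1, h2⟩ := D.normRed_d hdeg (fun i => c i₀ / c i) hd
    (fun i => div_ne_zero (hc i₀) (hc i)) (algebraMap E L (c i₀) * g)
    (fun i => algebraMap E L (c i) * g) hu (fun i => by
      rw [map_div₀]; field_simp [hcL i])
  refine ⟨δ, ?_, h2⟩
  rw [map_mul, Algebra.norm_algebraMap, ← hdeg] at h1
  have h3 : c i₀ ^ (∑ i, D.e i * Module.finrank Et (κ i)) =
      ∏ i, c i₀ ^ (D.e i * Module.finrank Et (κ i)) := (Finset.prod_pow_eq_pow_sum _ _ _).symm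
  have h4 : ∏ i, (c i₀ / c i) ^ (D.e i * Module.finrank Et (κ i)) =
      (∏ i, c i₀ ^ (D.e i * Module.finrank Et (κ i))) /
        ∏ i, c i ^ (D.e i * Module.finrank Et (κ i)) := by
    rw [← Finset.prod_div_distrib]
    exact Finset.prod_congr rfl fun i _ => div_pow _ _ _
  rw [h3, h4] at h1
  have h5 : (∏ i, c i₀ ^ (D.e i * Module.finrank Et (κ i))) ≠ 0 :=
    Finset.prod_ne_zero_iff.2 fun i _ => pow_ne_zero _ (hc i₀)
  have h6 : (∏ i, c i ^ (D.e i * Module.finrank Et (κ i))) ≠ 0 :=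
    Finset.prod_ne_zero_iff.2 fun i _ => pow_ne_zero _ (hc i)
  field_simp at h1
  rw [mul_comm]
  exact h1

end NRData

end Fermat.Agent.BAD.H42

end
end
-- ==== END Fermat.Agent.BAD.H42_NormRedR

-- ==== BEGIN Fermat.Agent.BAD.H73_D
section
attribute [local instance 10000] SubalgebraClass.toAlgebra
attribute [local instance 10000] HahnSeries.powerSeriesAlgebra

/-!
# Item 65 (BAD_q), leaf (D) (helper73): `redField A (F_{Mq} ℚ̄) = fullC k M`

`N = M q`, `q ∤ M`, `A` over `q`.  The residue field `F₁` of the Gauss valuation of `F_N ℚ̄`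
is the function field of level `M` in characteristic `q`.

Proof: `F₁ ⊇ E~ := fullC k M` (GA at level `M`).  If `y ∈ F₁ ∖ E~`, then `1, y` are
`E~`-independent in the residue field of `V₁`, and `1, j, …, j^(q-1)` are `E~`-independent in the
residue field of `V₂` (where `E~` acts through `Fr`); by the fundamental inequality for the two
valuations `V₁ ≠ V₂` over the Gauss valuation of `F_M ℚ̄`: `2 + q ≤ [F_N : F_M] = q + 1`.
-/

set_option autoImplicit false
set_option synthInstance.maxHeartbeats 400000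
set_option maxHeartbeats 1000000

noncomputable section

open ModularCurve AlgebraicCurve Fermat.Agent.S28.H73 Fermat.Agent.RED.H73 Fermat.Agent.BAD.H88
  Fermat.Agent.BAD.H82 Fermat.Agent.S24 Fermat.Agent.RED.H17

namespace Fermat.Agent.BAD.H73

section Series

variable {k : Type} [Field k]

theorem order_qExpand (n : ℕ) [NeZero n] {x : LaurentSeries k} (hx : x ≠ 0) :
    (qExpand k n x).order = (n : ℤ) * x.order := by
  have hne : qExpand k n x ≠ 0 := fun h => hx (qExpand_injective n (by rw [h, map_zero]))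
  have hn : (0 : ℤ) < n := by exact_mod_cast Nat.pos_of_ne_zero (NeZero.ne n)
  apply le_antisymm
  · apply HahnSeries.order_le_of_coeff_ne_zero
    rw [qExpand_coeff_mul]
    exact fun h0 => hx (HahnSeries.coeff_order_eq_zero.1 h0)
  · rw [HahnSeries.le_order_iff_forall hne]
    intro m hm
    by_cases hd : (n : ℤ) ∣ m
    · obtain ⟨m', rfl⟩ := hd
      rw [qExpand_coeff_mul]
      apply HahnSeries.coeff_eq_zero_of_lt_order
      exact lt_of_mul_lt_mul_left hm hn.le
    · exact qExpand_coeff_of_not_dvd n x hd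

/-- `1, J, …, J^(q-1)` are linearly independent over the series in `t ^ q`, if `J` has a simple
pole. -/
theorem pow_indep_qExpand (q : ℕ) [NeZero q] (J : LaurentSeries k) (hJ : J.order = -1)
    (c : Fin q → LaurentSeries k) (hsum : ∑ i, qExpand k q (c i) * J ^ (i : ℕ) = 0) :
    ∀ i, c i = 0 := by
  have hJ0 : J ≠ 0 := by
    rintro rfl
    rw [HahnSeries.order_zero] at hJ
    omega
  have hg : (1 : WithZero (Multiplicative ℤ)) < WithZero.exp (1 : ℤ) := by
    rw [← WithZero.exp_zero, WithZero.exp_lt_exp]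
    exact zero_lt_one
  have hj : tVal k J = WithZero.exp (1 : ℤ) := by
    rw [tVal_eq_exp_neg_order k hJ0, hJ]
    rfl
  have key := orthogonality (tVal k) hg hj (fun i => qExpand k q (c i)) ?_ hsum
  · intro i
    exact qExpand_injective q (by rw [key i, map_zero])
  · intro i
    by_cases hc : c i = 0
    · left
      rw [hc, map_zero]
    · right
      have hne : qExpand k q (c i) ≠ 0 := fun h => hc (qExpand_injective q (by rw [h, map_zero]))
      refine ⟨-(c i).order, ?_⟩
      rw [tVal_eq_exp_neg_order k hne, order_qExpand q hc, ← WithZero.exp_zsmul]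
      congr 1
      simp

end Series

section Indep

/-- `1, y` are independent over `Et` if `y` is not in the image of `Et`. -/
theorem linearIndependent_one_of_not_mem {Et F : Type} [Field Et] [Field F] [Algebra Et F]
    (y : F) (hy : y ∉ (algebraMap Et F).range) : LinearIndependent Et ![(1 : F), y] := by
  rw [LinearIndependent.pair_iff]
  intro s t hst
  have ht : t = 0 := by
    by_contra ht
    apply hy
    refine ⟨-(s / t), ?_⟩
    have h1 : algebraMap Et F s + algebraMap Et F t * y = 0 := by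
      rw [Algebra.smul_def, Algebra.smul_def, mul_one] at hst
      exact hst
    have ht' : algebraMap Et F t ≠ 0 := fun h0 => ht ((map_eq_zero _).1 h0)
    rw [map_neg, map_div₀]
    field_simp
    linear_combination -h1
  refine ⟨?_, ht⟩
  rw [ht, zero_smul, add_zero, Algebra.smul_def, mul_one] at hst
  exact (map_eq_zero _).1 hst

/-- `1, J, …, J^(q-1)` are independent over `Et` if `Et` acts through series in `t ^ q` and `J`
has a simple pole. -/
theorem linearIndependent_pow_of_qExpand {k : Type} [Field k] (q : ℕ) [NeZero q]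
    (E : IntermediateField k (LaurentSeries k)) {Et : Type} [Field Et] [Algebra Et ↥E]
    (hfr : ∀ a : Et, ∃ c : LaurentSeries k,
      ((algebraMap Et ↥E a : ↥E) : LaurentSeries k) = qExpand k q c)
    (J : ↥E) (hJ : (J : LaurentSeries k).order = -1) :
    LinearIndependent Et (fun i : Fin q => J ^ (i : ℕ)) := by
  rw [Fintype.linearIndependent_iff]
  intro g hg
  choose c hc using hfr
  have hsum : ∑ i, qExpand k q (c (g i)) * (J : LaurentSeries k) ^ (i : ℕ) = 0 := by
    have h1 := congrArg (fun z : ↥E => (z : LaurentSeries k)) hg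
    simp only [Algebra.smul_def] at h1
    rw [show ((0 : ↥E) : LaurentSeries k) = 0 from rfl] at h1
    rw [← h1]
    rw [show ((∑ i, algebraMap Et ↥E (g i) * J ^ (i : ℕ) : ↥E) : LaurentSeries k)
      = ∑ i, ((algebraMap Et ↥E (g i) * J ^ (i : ℕ) : ↥E) : LaurentSeries k) from
        map_sum E.val _ _]
    refine Finset.sum_congr rfl fun i _ => ?_
    rw [← hc (g i)]
    rfl
  have key := pow_indep_qExpand q (J : LaurentSeries k) hJ (fun i => c (g i)) hsum
  intro i
  have h2 : algebraMap Et ↥E (g i) = 0 := by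
    apply Subtype.ext
    rw [hc (g i), key i, map_zero]
    rfl
  exact (map_eq_zero _).1 h2

end Indep

section Mono

variable {C : Type} [Field C] (O : ValuationSubring C)

/-- The residue field of the Gauss valuation is monotone in the field. -/
theorem redField_mono {F F' : IntermediateField C (LaurentSeries C)} (hle : F ≤ F')
    (h : HasScale O F) (h' : HasScale O F') : redField O F h ≤ redField O F' h' := by
  rintro y ⟨x, rfl⟩
  exact ⟨⟨⟨((x : ↥F) : LaurentSeries C), hle (x : ↥F).2⟩, x.2⟩, rfl⟩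

end Mono

section AbstractD

variable {C : Type} [Field C] (O : ValuationSubring C)
variable (F F' : IntermediateField C (LaurentSeries C)) (hle : F ≤ F')
variable (h : HasScale O F) (h' : HasScale O F')
variable (q : ℕ) [NeZero q]
variable (V₂ : ValuationSubring ↥F') (red₂ : ↥V₂ →+* ↥(redField O F' h'))

include hle in
/-- **(D), abstract form.**  `F ⊆ F'` with `[F' : F] ≤ q + 1`; `V₂` a second valuation ring of
`F'`, incomparable with the Gauss valuation ring, with residue map `red₂` onto the residue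
field of the Gauss valuation, equal to `Fr ∘ red` on `F`.  If the residue field of `F` is stable
under `Fr` and contains an element with a simple pole, then `F'` and `F` have the same residue
field. -/
theorem redField_eq_of_two [Algebra ↥F ↥F'] [Module.Finite ↥F ↥F']
    (hcoe : ∀ x : ↥F, ((algebraMap ↥F ↥F' x : ↥F') : LaurentSeries C) = (x : LaurentSeries C))
    (hdeg : Module.finrank ↥F ↥F' ≤ q + 1)
    (hsurj₂ : Function.Surjective red₂)
    (hker₂ : ∀ u : ↥V₂, ¬ IsUnit u → red₂ u = 0)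
    (h₁₂ : ¬ gaussValSub O F' h' ≤ V₂) (h₂₁ : ¬ V₂ ≤ gaussValSub O F' h')
    (hV₂ : ∀ x : ↥F, x ∈ gaussValSub O F h → algebraMap ↥F ↥F' x ∈ V₂)
    (hc₂ : ∀ (x : ↥F) (hx : x ∈ gaussValSub O F h) (hx' : algebraMap ↥F ↥F' x ∈ V₂),
      ((red₂ ⟨_, hx'⟩ : ↥(redField O F' h')) : LaurentSeries (kV O))
        = qExpand (kV O) q (gaussRedV O ⟨(x : LaurentSeries C), hx⟩))
    (hFr : ∀ x ∈ redField O F h, qExpand (kV O) q x ∈ redField O F h)
    (J : LaurentSeries (kV O)) (hJ : J ∈ redField O F h) (hJo : J.order = -1) :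
    redField O F' h' = redField O F h := by
  have hle₁ : redField O F h ≤ redField O F' h' := redField_mono O hle h h'
  refine le_antisymm ?_ hle₁
  intro y hy
  by_contra hyn
  -- the two structure maps `Et → F₁`
  let ι₁ : ↥(redField O F h) →+* ↥(redField O F' h') :=
    (IntermediateField.inclusion hle₁).toRingHom
  let ι₂ : ↥(redField O F h) →+* ↥(redField O F' h') :=
    { toFun := fun x => ⟨qExpand (kV O) q (x : LaurentSeries (kV O)), hle₁ (hFr _ x.2)⟩
      map_one' := Subtype.ext (map_one (qExpand (kV O) q))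
      map_mul' := fun x y => Subtype.ext (map_mul (qExpand (kV O) q) _ _)
      map_zero' := Subtype.ext (map_zero (qExpand (kV O) q))
      map_add' := fun x y => Subtype.ext (map_add (qExpand (kV O) q) _ _) }
  have hV₁ : ∀ x : ↥F, x ∈ gaussValSub O F h → algebraMap ↥F ↥F' x ∈ gaussValSub O F' h' := by
    intro x hx
    rw [mem_gaussValSub_iff, hcoe]
    exact (mem_gaussValSub_iff O h x).1 hx
  have hker₁ : ∀ u : ↥(gaussValSub O F' h'), ¬ IsUnit u → gaussResF' O h' u = 0 :=
    fun u hu => (gaussResF'_eq_zero_iff O h' u).2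
      (by rwa [IsLocalRing.mem_maximalIdeal, mem_nonunits_iff])
  have hc₁ : ∀ (x : ↥(gaussValSub O F h))
      (hx : algebraMap ↥F ↥F' (x : ↥F) ∈ gaussValSub O F' h'),
      gaussResF' O h' ⟨_, hx⟩ = ι₁ (gaussResF' O h x) := by
    intro x hx
    apply Subtype.ext
    have e1 : ((gaussResF' O h' ⟨_, hx⟩ : ↥(redField O F' h')) : LaurentSeries (kV O))
        = gaussRedV O ⟨((algebraMap ↥F ↥F' (x : ↥F) : ↥F') : LaurentSeries C), hx⟩ := rfl
    have e2 : ((ι₁ (gaussResF' O h x) : ↥(redField O F' h')) : LaurentSeries (kV O))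
        = gaussRedV O ⟨((x : ↥F) : LaurentSeries C), x.2⟩ := rfl
    rw [e1, e2]
    congr 1
    exact Subtype.ext (hcoe _)
  have hc₂' : ∀ (x : ↥(gaussValSub O F h)) (hx : algebraMap ↥F ↥F' (x : ↥F) ∈ V₂),
      red₂ ⟨_, hx⟩ = ι₂ (gaussResF' O h x) := by
    intro x hx
    apply Subtype.ext
    rw [hc₂ (x : ↥F) x.2 hx]
    rfl
  -- the two independent families
  have hB₁ : @LinearIndependent (Fin 2) _ ↥(redField O F' h')
      ![(1 : ↥(redField O F' h')), ⟨y, hy⟩] _ _ (@Algebra.toModule _ _ _ _ ι₁.toAlgebra) := by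
    apply @linearIndependent_one_of_not_mem _ ↥(redField O F' h') _ _ ι₁.toAlgebra
    rintro ⟨x, hx⟩
    apply hyn
    have e : (x : LaurentSeries (kV O)) = y :=
      congrArg (fun z : ↥(redField O F' h') => (z : LaurentSeries (kV O))) hx
    rw [← e]
    exact x.2
  have hB₂ : @LinearIndependent (Fin q) _ ↥(redField O F' h')
      (fun i : Fin q => (⟨J, hle₁ hJ⟩ : ↥(redField O F' h')) ^ (i : ℕ)) _ _
      (@Algebra.toModule _ _ _ _ ι₂.toAlgebra) := by
    apply @linearIndependent_pow_of_qExpand (kV O) _ q _ _ _ _ ι₂.toAlgebra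
    · intro x
      exact ⟨(x : LaurentSeries (kV O)), rfl⟩
    · exact hJo
  have key := @card_add_card_le_finrank ↥F ↥F' ↥(redField O F h) ↥(redField O F' h')
    ↥(redField O F' h') _ _ _ _ _ _ ι₁.toAlgebra ι₂.toAlgebra _ (gaussValSub O F h)
    (gaussValSub O F' h') V₂ (gaussResF' O h) (gaussResF' O h') red₂ hV₁ hV₂
    (gaussResF'_surjective O h') hsurj₂ hker₁ hker₂ hc₁ hc₂' h₁₂ h₂₁
    (Fin 2) (Fin q) _ _ _ _ hB₁ hB₂
  rw [Fintype.card_fin, Fintype.card_fin] at key
  omega

end AbstractD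

section Concrete

variable (A : ValuationSubring Kbar)
variable (q M : ℕ) (a b : ℤ) (hab : a * q + b * M = 1) (hq : q.Prime) [NeZero (M * q)]
variable (hA : A.LiesOverPrime q) (hM : ¬ q ∣ M)

include hq hA hM in
/-- The residue field of level `M` is `fullC k M` (GA). -/
theorem redField_M_eq :
    redField A (modularFunctionFieldBar M) (hasScale_laurentBaseChange A M)
      = modularFunctionFieldFullC (kV A) M := by
  have : NeZero M := neZero_of_mul_left' q M
  exact redField_laurentBaseChange_eq A (inv_natCast_mem_of_liesOver A M hq hM hA) (caDataBar M)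

omit [NeZero (M * q)] in
/-- `j~` has a simple pole. -/
theorem jqModC_order_eq : (jqModC (kV A)).order = -1 := by
  have h := JL_order (kV A) 1
  have e : JL (kV A) 1 = jqModC (kV A) := qExpand_one_apply _
  rw [e] at h
  rw [h]
  norm_num

include hq hA hM in
/-- The residue field of level `M` is stable under `Fr`. -/
theorem qExpand_mem_redField_M (x : LaurentSeries (kV A))
    (hx : x ∈ redField A (modularFunctionFieldBar M) (hasScale_laurentBaseChange A M)) :
    letI : NeZero q := neZero_of_mul_right q M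
    qExpand (kV A) q x
      ∈ redField A (modularFunctionFieldBar M) (hasScale_laurentBaseChange A M) := by
  have hFq : Fact q.Prime := ⟨hq⟩
  have hCP : CharP (kV A) q := charP_kV A hq hA
  have hPR : PerfectRing (kV A) q := perfectRing_kV A q
  rw [redField_M_eq A q M hq hA hM] at hx ⊢
  exact (frobStable_fullC q M).qExpand_mem hx

include hab hq hA hM in
/-- **(D)**: `redField A (F_{Mq} ℚ̄) = redField A (F_M ℚ̄)`, from `[F_{Mq} : F_M] ≤ q + 1`. -/
theorem redField_Mq_eq_M [Algebra (FN M) (FN (M * q))] [Module.Finite (FN M) (FN (M * q))]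
    (hcoe : ∀ x : FN M, ((algebraMap (FN M) (FN (M * q)) x : FN (M * q)) : LaurentSeries Kbar)
      = (x : LaurentSeries Kbar))
    (hdeg : Module.finrank (FN M) (FN (M * q)) ≤ q + 1) :
    redField A (modularFunctionFieldBar (M * q)) (hSc A q M)
      = redField A (modularFunctionFieldBar M) (hasScale_laurentBaseChange A M) := by
  have hNZq : NeZero q := neZero_of_mul_right q M
  have hlev : ∀ x : FN M, ((algebraMap (FN M) (FN (M * q)) x : FN (M * q)) :
      LaurentSeries Kbar) ∈ modularFunctionFieldBar M := fun x => by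
    rw [hcoe]; exact x.2
  have hV₁ : ∀ x : FN M, x ∈ gaussValSub A (modularFunctionFieldBar M)
      (hasScale_laurentBaseChange A M) → algebraMap (FN M) (FN (M * q)) x ∈ V1 A q M := by
    intro x hx
    rw [mem_gaussValSub_iff, hcoe]
    exact (mem_gaussValSub_iff A _ x).1 hx
  refine redField_eq_of_two A (modularFunctionFieldBar M) (modularFunctionFieldBar (M * q))
    (barM_le_bar q M) (hasScale_laurentBaseChange A M) (hSc A q M) q (V2 A q M a b hab hq)
    (red2 A q M a b hab hq) hcoe hdeg (red2_surjective A q M a b hab hq) ?_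
    (not_V1_le_V2 A q M a b hab hq hA) (not_V2_le_V1 A q M a b hab hq hA) ?_ ?_ ?_
    (jqModC (kV A)) ?_ (jqModC_order_eq A)
  · intro u hu
    exact (red2_eq_zero_iff A q M a b hab hq u).2
      (by rwa [IsLocalRing.mem_maximalIdeal, mem_nonunits_iff])
  · intro x hx
    exact mem_V2_of_level A q M a b hab hq _ (hlev x) (hV₁ x hx)
  · intro x hx hx'
    rw [coe_red2_of_level A q M a b hab hq _ (hlev x) (hV₁ x hx) hx']
    have e1 : ((red1 A q M ⟨_, hV₁ x hx⟩ : F1 A q M) : LaurentSeries (kV A))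
        = gaussRedV A ⟨((algebraMap (FN M) (FN (M * q)) x : FN (M * q)) :
            LaurentSeries Kbar), hV₁ x hx⟩ := rfl
    rw [e1]
    congr 2
    exact Subtype.ext (hcoe _)
  · exact qExpand_mem_redField_M A q M hq hA hM
  · rw [redField_M_eq A q M hq hA hM]
    exact jqModC_mem_full (kV A) M

include hab hq hA hM in
/-- **(D)**: `redField A (F_{Mq} ℚ̄) = fullC k M`, from `[F_{Mq} : F_M] ≤ q + 1`. -/
theorem redField_Mq_eq [Algebra (FN M) (FN (M * q))] [Module.Finite (FN M) (FN (M * q))]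
    (hcoe : ∀ x : FN M, ((algebraMap (FN M) (FN (M * q)) x : FN (M * q)) : LaurentSeries Kbar)
      = (x : LaurentSeries Kbar))
    (hdeg : Module.finrank (FN M) (FN (M * q)) ≤ q + 1) :
    redField A (modularFunctionFieldBar (M * q)) (hSc A q M)
      = modularFunctionFieldFullC (kV A) M := by
  rw [redField_Mq_eq_M A q M a b hab hq hA hM hcoe hdeg]
  exact redField_M_eq A q M hq hA hM

end Concrete

end Fermat.Agent.BAD.H73

end
end
-- ==== END Fermat.Agent.BAD.H73_D
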