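-- GENERATED (merged mirror, NOTES/tools/trim/merge3_helper67.py): 8 modules of the originals, bodies verbatim.
import Mathlib
import Fermat.Agent.Zm.S35_L03_000
import Fermat.Agent.RED.H17_Red
import Fermat.Agent.Zm.S35_L06_002
import Fermat.Agent.Zm.S56_L01_000
import Fermat.Agent.S36.NU.H41_DvrUrA
import Fermat.Agent.S36.NU.H41_DvrUrB
import Fermat.Agent.Zm.S35_L10_003
import Fermat.Agent.Zm.S35_L11_001
import Fermat.Agent.Zm.S35_L02_003
import Fermat.Agent.Zm.S35_L08_003
import Fermat.Agent.Zm.S35_L01_002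
import Fermat.Agent.Zm.S35_L03_005

-- ==== BEGIN Fermat.Agent.S36.NU.H23_Fr2
section

/-!
# S36 / NU-B, leaf TOT3-MOD, T3-g (helper23): the `Fr²`-twisted structure

`E ⊂ k((t))` a `φ`-stable field over the perfect field `k` of characteristic `q`, `E''` a field with
an isomorphism `e : E'' ≃+* E`, and `E` an `E''`-algebra through `Fr ∘ Fr ∘ e` (`Fr : t ↦ t ^ q`).
(Modular: the residue field of `V₀₂` at level `q² M'` over the residue field of level `M'`.)

* `isPurelyInseparable_of_Fr2`;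
* `finrank_of_Fr2 : [E : E''] = q ^ 2`;
* `norm_of_Fr2 : N_{E/E''} g = e⁻¹ (φ (φ g))`;
* `ord_norm_of_Fr2 : ord_z (e (N g)) = ord_{β (β z)} g`.
-/

set_option autoImplicit false
set_option synthInstance.maxHeartbeats 400000
set_option maxHeartbeats 1000000
set_option linter.style.haveILetI false
set_option linter.unusedSectionVars false

noncomputable section

open ModularCurve AlgebraicCurve Polynomial IntermediateField

namespace Fermat.Agent.S36.NU.H23

open Fermat.Agent.BAD.H73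

section Twist2

variable {k : Type*} [Field k] {q : ℕ} [Fact q.Prime] [CharP k q] [PerfectRing k q]
variable {E : IntermediateField k (LaurentSeries k)} (h : FrobStable q E)

/-- A copy of `E`, the middle of the tower `E'' → E → E`. -/
def MidE (_h : FrobStable q E) : Type _ := ↥E

instance : Field (MidE h) := inferInstanceAs (Field ↥E)

/-- the identification -/
def midEquiv : MidE h ≃+* ↥E := RingEquiv.refl ↥E

/-- `E` over the middle copy, through `Fr`. -/
@[reducible] def algMidTop : Algebra (MidE h) ↥E :=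
  ((FrE h).toRingHom.comp (midEquiv h).toRingHom).toAlgebra

variable {E'' : Type*} [Field E''] [Algebra E'' ↥E] (e : E'' ≃+* ↥E)
variable (he : ∀ a : E'', algebraMap E'' ↥E a = FrE h (FrE h (e a)))

/-- The middle copy over `E''`, through `Fr ∘ e`. -/
@[reducible] def algBotMid : Algebra E'' (MidE h) :=
  ((midEquiv h).symm.toRingHom.comp ((FrE h).toRingHom.comp e.toRingHom)).toAlgebra

include he in
theorem tower_Fr2 :
    @IsScalarTower E'' (MidE h) ↥E (algBotMid h e).toSMul (algMidTop h).toSMul Algebra.toSMul := by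
  letI := algBotMid h e
  letI := algMidTop h
  refine IsScalarTower.of_algebraMap_eq fun a => ?_
  rw [he]
  rfl

include he in
/-- `x ^ (q ^ 2)` is in the image of `E''`. -/
theorem pow_sq_eq_algebraMap (x : ↥E) :
    x ^ (q ^ 2) = algebraMap E'' ↥E (e.symm (frobE h (frobE h x))) := by
  rw [he, e.apply_symm_apply, FrE_frobE, map_pow, FrE_frobE, ← pow_mul, pow_two]

include e he in
/-- `E` is purely inseparable over `E''` (structure map `Fr ∘ Fr ∘ e`). -/
theorem isPurelyInseparable_of_Fr2 : IsPurelyInseparable E'' ↥E := by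
  have : CharP E'' q := charP_of_equiv e
  rw [isPurelyInseparable_iff_pow_mem E'' q]
  intro x
  exact ⟨2, e.symm (frobE h (frobE h x)), (pow_sq_eq_algebraMap h e he x).symm⟩

include e he in
/-- **`[E : E''] = q ^ 2`** for the structure map `Fr ∘ Fr ∘ e`. -/
theorem finrank_of_Fr2 (x : ↥E) {n : ℤ} (hn : ¬ (q : ℤ) ∣ n)
    (hx : (x : LaurentSeries k).coeff n ≠ 0)
    (hsep : ∀ y ∈ E, IsSeparable ↥(IntermediateField.adjoin k {(x : LaurentSeries k)}) y) :
    Module.finrank E'' ↥E = q ^ 2 := by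
  letI := algBotMid h e
  letI := algMidTop h
  haveI := tower_Fr2 h e he
  -- the upper step
  have h2 : Module.finrank (MidE h) ↥E = q :=
    finrank_of_Fr h (midEquiv h) (fun _ => rfl) x hn hx hsep
  -- the lower step
  have h1 : Module.finrank E'' (MidE h) = q := by
    letI a1 : Algebra E'' ↥E := ((FrE h).toRingHom.comp e.toRingHom).toAlgebra
    have h3 : @Module.finrank E'' ↥E _ _ a1.toModule = q :=
      @finrank_of_Fr k _ q _ _ _ E h E'' _ a1 e (fun _ => rfl) x n hn hx hsep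
    exact h3
  haveI : Module.Free (MidE h) ↥E := Module.Free.of_divisionRing _ _
  haveI : Module.Free E'' (MidE h) := Module.Free.of_divisionRing _ _
  rw [← Module.finrank_mul_finrank E'' (MidE h) ↥E, h1, h2, pow_two]

include e he in
/-- **`N_{E/E''} g = e⁻¹ (φ (φ g))`** for the structure map `Fr ∘ Fr ∘ e`. -/
theorem norm_of_Fr2 (x : ↥E) {n : ℤ} (hn : ¬ (q : ℤ) ∣ n)
    (hx : (x : LaurentSeries k).coeff n ≠ 0)
    (hsep : ∀ y ∈ E, IsSeparable ↥(IntermediateField.adjoin k {(x : LaurentSeries k)}) y)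
    (g : ↥E) : Algebra.norm E'' g = e.symm (frobE h (frobE h g)) := by
  have : CharP E'' q := charP_of_equiv e
  have : IsPurelyInseparable E'' ↥E := isPurelyInseparable_of_Fr2 h e he
  apply (algebraMap E'' ↥E).injective
  rw [algebraMap_norm_of_isPurelyInseparable q g, finrank_of_Fr2 h e he x hn hx hsep,
    pow_sq_eq_algebraMap h e he]

include e he in
/-- **`ord_z (e (N_{E/E''} g)) = ord_{β (β z)} g`**. -/
theorem ord_norm_of_Fr2 (x : ↥E) {n : ℤ} (hn : ¬ (q : ℤ) ∣ n)
    (hx : (x : LaurentSeries k).coeff n ≠ 0)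
    (hsep : ∀ y ∈ E, IsSeparable ↥(IntermediateField.adjoin k {(x : LaurentSeries k)}) y)
    (z : Place k ↥E) (g : ↥E) :
    z.ord (e (Algebra.norm E'' g)) = (beta h (beta h z)).ord g := by
  rw [norm_of_Fr2 h e he x hn hx hsep, e.apply_symm_apply, beta_ord, beta_ord]

end Twist2

end Fermat.Agent.S36.NU.H23

end
end
-- ==== END Fermat.Agent.S36.NU.H23_Fr2

-- ==== BEGIN Fermat.Agent.S36.NU.H23_Res
section

/-!
# S36 / NU-B, leaf TOT3-MOD, step 2c (helper23): restriction of a valuation ring to a subfield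

`F` a field, `L₀` a subfield, `V` a valuation ring of `F` with residue map `red : V → R`.
* `resV0 L₀ V : ValuationSubring L₀`, `resIncl : resV0 → V`, `resRed red : resV0 → R`;
* units, kernel of `resRed`, comparison of the valuations, `isArch_resV0`.
-/

set_option autoImplicit false

noncomputable section

namespace Fermat.Agent.S36.NU.H23

open Fermat.Agent.BAD

section Generic

variable {F : Type} [Field F] (L₀ : Subfield F) (V : ValuationSubring F)

/-- The restriction of a valuation ring to a subfield. -/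
def resV0 : ValuationSubring ↥L₀ := V.comap L₀.subtype

theorem mem_resV0_iff (x : ↥L₀) : x ∈ resV0 L₀ V ↔ (x : F) ∈ V := Iff.rfl

/-- The inclusion of the restricted valuation ring. -/
def resIncl : ↥(resV0 L₀ V) →+* ↥V :=
  (L₀.subtype.comp (resV0 L₀ V).subtype).codRestrict V (fun x => x.2)

theorem coe_resIncl (x : ↥(resV0 L₀ V)) : ((resIncl L₀ V x : ↥V) : F) = ((x : ↥L₀) : F) := rfl

theorem resIncl_mk (x : ↥L₀) (h : x ∈ resV0 L₀ V) :
    resIncl L₀ V ⟨x, h⟩ = ⟨(x : F), h⟩ := rfl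

theorem resIncl_injective : Function.Injective (resIncl L₀ V) := fun _ _ h =>
  Subtype.ext (Subtype.ext (congrArg (fun z : ↥V => (z : F)) h))

theorem isUnit_resV0_iff (x : ↥(resV0 L₀ V)) : IsUnit x ↔ IsUnit (resIncl L₀ V x) := by
  constructor
  · exact fun h => h.map (resIncl L₀ V)
  · intro h
    by_cases hx : (x : ↥L₀) = 0
    · exfalso
      have h0 : resIncl L₀ V x = 0 := by
        apply Subtype.ext
        rw [coe_resIncl, hx]; rfl
      rw [h0] at h
      exact not_isUnit_zero h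
    · obtain ⟨u, hu⟩ := h
      have hinv : ((x : ↥L₀)⁻¹ : ↥L₀) ∈ resV0 L₀ V := by
        rw [mem_resV0_iff]
        have h1 : (((u⁻¹ : (↥V)ˣ) : ↥V) : F) * ((x : ↥L₀) : F) = 1 := by
          have h2 : ((u⁻¹ : (↥V)ˣ) : ↥V) * resIncl L₀ V x = 1 := by rw [← hu]; exact u.inv_mul
          have h3 := congrArg (fun z : ↥V => (z : F)) h2
          simpa [coe_resIncl] using h3
        have h4 : (((x : ↥L₀)⁻¹ : ↥L₀) : F) = (((u⁻¹ : (↥V)ˣ) : ↥V) : F) := by
          have hxF : ((x : ↥L₀) : F) ≠ 0 := fun h0 => hx (Subtype.ext h0)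
          rw [Subfield.coe_inv]
          exact (eq_inv_of_mul_eq_one_left h1).symm
        rw [h4]
        exact ((u⁻¹ : (↥V)ˣ) : ↥V).2
      refine ⟨⟨x, ⟨_, hinv⟩, ?_, ?_⟩, rfl⟩
      · exact Subtype.ext (mul_inv_cancel₀ hx)
      · exact Subtype.ext (inv_mul_cancel₀ hx)

variable {R : Type*} [Field R] (red : ↥V →+* R)

/-- The residue map of the restricted valuation ring. -/
def resRed : ↥(resV0 L₀ V) →+* R := red.comp (resIncl L₀ V)

theorem resRed_apply (x : ↥(resV0 L₀ V)) : resRed L₀ V red x = red (resIncl L₀ V x) := rfl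

theorem resRed_mk (x : ↥L₀) (h : x ∈ resV0 L₀ V) :
    resRed L₀ V red ⟨x, h⟩ = red ⟨(x : F), h⟩ := rfl

theorem resRed_eq_zero_of_not_isUnit
    (hred : ∀ u : ↥V, red u = 0 ↔ u ∈ IsLocalRing.maximalIdeal ↥V)
    (x : ↥(resV0 L₀ V)) (hx : ¬ IsUnit x) : resRed L₀ V red x = 0 := by
  rw [resRed_apply, hred, IsLocalRing.mem_maximalIdeal, mem_nonunits_iff, ← isUnit_resV0_iff]
  exact hx

theorem resRed_eq_zero_iff
    (hred : ∀ u : ↥V, red u = 0 ↔ u ∈ IsLocalRing.maximalIdeal ↥V)
    (x : ↥(resV0 L₀ V)) :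
    resRed L₀ V red x = 0 ↔ x ∈ IsLocalRing.maximalIdeal ↥(resV0 L₀ V) := by
  rw [resRed_apply, hred, IsLocalRing.mem_maximalIdeal, mem_nonunits_iff,
    IsLocalRing.mem_maximalIdeal, mem_nonunits_iff, ← isUnit_resV0_iff]

/-! ### Valuations -/

theorem valuation_resV0_le_one_iff (x : ↥L₀) :
    (resV0 L₀ V).valuation x ≤ 1 ↔ V.valuation (x : F) ≤ 1 := by
  rw [ValuationSubring.valuation_le_one_iff, ValuationSubring.valuation_le_one_iff]
  exact Iff.rfl

theorem valuation_resV0_le_iff (x y : ↥L₀) :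
    (resV0 L₀ V).valuation x ≤ (resV0 L₀ V).valuation y
      ↔ V.valuation (x : F) ≤ V.valuation (y : F) := by
  by_cases hy : y = 0
  · subst hy
    simp only [map_zero, le_zero_iff, map_eq_zero, Subfield.coe_zero]
    exact ⟨fun h => by rw [h]; rfl, fun h => Subtype.ext h⟩
  · have hyF : (y : F) ≠ 0 := fun h0 => hy (Subtype.ext h0)
    have h1 : (resV0 L₀ V).valuation x ≤ (resV0 L₀ V).valuation y
        ↔ (resV0 L₀ V).valuation (x / y) ≤ 1 := by
      rw [map_div₀, div_le_one₀ (zero_lt_iff.2 ((Valuation.ne_zero_iff _).2 hy))]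
    have h2 : V.valuation (x : F) ≤ V.valuation (y : F)
        ↔ V.valuation ((x : F) / (y : F)) ≤ 1 := by
      rw [map_div₀, div_le_one₀ (zero_lt_iff.2 ((Valuation.ne_zero_iff _).2 hyF))]
    rw [h1, h2, valuation_resV0_le_one_iff]
    rfl

theorem valuation_resV0_lt_iff (x y : ↥L₀) :
    (resV0 L₀ V).valuation x < (resV0 L₀ V).valuation y
      ↔ V.valuation (x : F) < V.valuation (y : F) := by
  rw [lt_iff_not_ge, lt_iff_not_ge, valuation_resV0_le_iff]

theorem valuation_resV0_eq_iff (x y : ↥L₀) :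
    (resV0 L₀ V).valuation x = (resV0 L₀ V).valuation y
      ↔ V.valuation (x : F) = V.valuation (y : F) := by
  rw [le_antisymm_iff, le_antisymm_iff, valuation_resV0_le_iff, valuation_resV0_le_iff]

theorem valuation_resV0_lt_one_iff (x : ↥L₀) :
    (resV0 L₀ V).valuation x < 1 ↔ V.valuation (x : F) < 1 := by
  have := valuation_resV0_lt_iff L₀ V x 1
  simpa using this

/-- The restriction of a valuation ring of rank one is of rank one. -/
theorem isArch_resV0 (h : H42.IsArch V) : H42.IsArch (resV0 L₀ V) := by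
  intro x y hx hy
  have hyF : (y : F) ≠ 0 := fun h0 => hy (Subtype.ext h0)
  obtain ⟨n, hn⟩ := h (x : F) (y : F) ((valuation_resV0_lt_one_iff L₀ V x).1 hx) hyF
  exact ⟨n, (valuation_resV0_lt_iff L₀ V (x ^ n) y).2 (by simpa using hn)⟩

/-- Incomparability from a separating element of the subfield. -/
theorem not_resV0_le {V W : ValuationSubring F} (x : ↥L₀) (hV : (x : F) ∈ V) (hW : (x : F) ∉ W) :
    ¬ resV0 L₀ V ≤ resV0 L₀ W := fun h => hW (h hV)

end Generic

end Fermat.Agent.S36.NU.H23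

end
end
-- ==== END Fermat.Agent.S36.NU.H23_Res

-- ==== BEGIN Fermat.Agent.S36.NU.H30_RamAbs
section

/-!
# S36 / NU-B, leaf RAM (helper30): abstract part

* `ram_comb` : combinatorial core.  `r : α → β`, `d` a function on a finite set `s` all of whose
  positive values are equal to `e`, `Z₁` a finite set of points of `β` over which `d` has no
  negative value and at which the push-forward `∑_{r a = b} d a` is positive.  If
  `#{a ∈ s : d a > 0} ≤ #Z₁` then the push-forward is `e` at every point of `Z₁`.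
* `ram_abs_ge` : for a reduction setup `S` (helper17's `RedSetup`, with the divisor identity), a
  Gauss unit `f`: if the zeros of `f` all have order `e` and the poles of `f` do not reduce to
  zeros of `rd f`, then every zero of `rd f` has order `≥ e`.
* `ram_abs` : if moreover `rd f` has at least as many zeros as `f`, then every zero of `rd f`
  has order exactly `e`.
-/

set_option autoImplicit false
set_option linter.style.haveILetI false
set_option linter.unusedSectionVars false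

noncomputable section

open AlgebraicCurve

namespace Fermat.Agent.S36.NU.H30

section Comb

variable {α β : Type*}

open Classical in
/-- **Combinatorial core of RAM.** -/
theorem ram_comb (r : α → β) (s : Finset α) (d : α → ℤ) (e : ℤ) (Z₁ : Finset β)
    (hD : ∀ a ∈ s, 0 < d a → d a = e)
    (hnn : ∀ a ∈ s, r a ∈ Z₁ → 0 ≤ d a)
    (hpos : ∀ b ∈ Z₁, 0 < ∑ a ∈ s, if r a = b then d a else 0)
    (hcard : (s.filter (fun a => 0 < d a)).card ≤ Z₁.card) :
    ∀ b ∈ Z₁, (∑ a ∈ s, if r a = b then d a else 0) = e := by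
  -- the value of the push-forward at a point of `Z₁`
  have hval : ∀ b ∈ Z₁, (∑ a ∈ s, if r a = b then d a else 0)
      = ((s.filter (fun a => r a = b ∧ 0 < d a)).card : ℤ) * e := by
    intro b hb
    rw [← nsmul_eq_mul, ← Finset.sum_const, Finset.sum_filter]
    refine Finset.sum_congr rfl fun a ha => ?_
    by_cases h1 : r a = b
    · have h2 := hnn a ha (h1 ▸ hb)
      by_cases h3 : 0 < d a
      · rw [if_pos h1, if_pos ⟨h1, h3⟩, hD a ha h3]
      · rw [if_pos h1, if_neg (fun h => h3 h.2)]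
        omega
    · rw [if_neg h1, if_neg (fun h => h1 h.1)]
  -- every fibre is nonempty
  have hn1 : ∀ b ∈ Z₁, 1 ≤ (s.filter (fun a => r a = b ∧ 0 < d a)).card := by
    intro b hb
    have h1 := hpos b hb
    rw [hval b hb] at h1
    rcases Nat.eq_zero_or_pos (s.filter (fun a => r a = b ∧ 0 < d a)).card with h0 | h0
    · rw [h0] at h1
      simp at h1
    · exact h0
  -- the sum of the fibre cardinalities
  have hsum : ∑ b ∈ Z₁, (s.filter (fun a => r a = b ∧ 0 < d a)).card
      = (s.filter (fun a => r a ∈ Z₁ ∧ 0 < d a)).card := by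
    rw [Finset.card_eq_sum_card_fiberwise (f := r) (t := Z₁)
      (s := s.filter (fun a => r a ∈ Z₁ ∧ 0 < d a))
      (fun a ha => (Finset.mem_filter.1 ha).2.1)]
    refine Finset.sum_congr rfl fun b hb => ?_
    congr 1
    ext a
    simp only [Finset.mem_filter]
    constructor
    · rintro ⟨h1, h2, h3⟩
      exact ⟨⟨h1, h2 ▸ hb, h3⟩, h2⟩
    · rintro ⟨⟨h1, -, h3⟩, h2⟩
      exact ⟨h1, h2, h3⟩
  have hle : (s.filter (fun a => r a ∈ Z₁ ∧ 0 < d a)).card
      ≤ (s.filter (fun a => 0 < d a)).card := by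
    apply Finset.card_le_card
    intro a ha
    rw [Finset.mem_filter] at ha ⊢
    exact ⟨ha.1, ha.2.2⟩
  have htot : ∑ b ∈ Z₁, (s.filter (fun a => r a = b ∧ 0 < d a)).card = ∑ _b ∈ Z₁, 1 := by
    apply le_antisymm
    · rw [hsum, Finset.sum_const, smul_eq_mul, mul_one]
      exact le_trans hle hcard
    · exact Finset.sum_le_sum hn1
  have hall := (Finset.sum_eq_sum_iff_of_le hn1).1 htot.symm
  intro b hb
  rw [hval b hb, ← hall b hb, Nat.cast_one, one_mul]

end Comb

section Abs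

variable {K F k F' : Type*} [Field K] [Field F] [Algebra K F] [Field k] [Field F'] [Algebra k F']

open Fermat.Agent.RED.H17

/-- **RAM, abstract, lower bound**: the zeros of the reduction of `f` have order `≥ e` if all
zeros of `f` have order `e` (and no pole of `f` reduces to a zero of `rd f`). -/
theorem ram_abs_ge (S : RedSetup K F k F') (hP : HasPrincipalDivisors K F) {f : F}
    (hf : S.IsGU f) (e : ℤ)
    (he : ∀ P : Place K F, 0 < P.ord f → P.ord f = e)
    (hreg : ∀ P : Place K F, 0 < (S.r P).ord (S.rd f) → 0 ≤ P.ord f)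
    (Q : Place k F') (hQ : 0 < Q.ord (S.rd f)) : e ≤ Q.ord (S.rd f) := by
  obtain ⟨P, hPQ, hpos⟩ := S.exists_zero_of_ord_rd_pos hP hf Q hQ
  have h1 := S.ord_le_ord_rd hP hf Q (fun P' hP' => hreg P' (by rw [hP']; exact hQ)) hPQ
  rw [he P hpos] at h1
  exact h1

open Classical in
/-- **RAM, abstract**: the zeros of the reduction of `f` have order exactly `e` if all zeros of
`f` have order `e`, no pole of `f` reduces to a zero of `rd f`, and `rd f` has at least as many
zeros as `f`. -/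
theorem ram_abs (S : RedSetup K F k F') (hP : HasPrincipalDivisors K F) {f : F}
    (hf : S.IsGU f) (e : ℤ)
    (he : ∀ P : Place K F, 0 < P.ord f → P.ord f = e)
    (hreg : ∀ P : Place K F, 0 < (S.r P).ord (S.rd f) → 0 ≤ P.ord f)
    (hfin : {Q : Place k F' | 0 < Q.ord (S.rd f)}.Finite)
    (hcard : Nat.card {P : Place K F // 0 < P.ord f}
      ≤ Nat.card {Q : Place k F' // 0 < Q.ord (S.rd f)})
    (Q : Place k F') (hQ : 0 < Q.ord (S.rd f)) : Q.ord (S.rd f) = e := by
  have hsupp : ∀ P : Place K F, 0 < P.ord f ↔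
      P ∈ (dv hP f).support.filter (fun P => 0 < P.ord f) := by
    intro P
    rw [Finset.mem_filter, Finsupp.mem_support_iff, dv_apply]
    constructor
    · intro h
      exact ⟨by omega, h⟩
    · intro h
      exact h.2
  have hc0 : Nat.card {P : Place K F // 0 < P.ord f}
      = ((dv hP f).support.filter (fun P => 0 < P.ord f)).card := by
    rw [← Nat.card_eq_finsetCard]
    exact Nat.card_congr (Equiv.subtypeEquivRight hsupp)
  have hc1 : Nat.card {Q : Place k F' // 0 < Q.ord (S.rd f)} = hfin.toFinset.card := by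
    rw [← Nat.card_eq_finsetCard]
    exact Nat.card_congr (Equiv.subtypeEquivRight fun Q => by
      rw [Set.Finite.mem_toFinset, Set.mem_ofPred_eq])
  have key := ram_comb S.r (dv hP f).support (fun P => P.ord f) e hfin.toFinset
    (fun P _ h => he P h)
    (fun P _ h => hreg P (by
      rw [Set.Finite.mem_toFinset, Set.mem_ofPred_eq] at h
      exact h))
    (fun Q' hQ' => by
      rw [Set.Finite.mem_toFinset, Set.mem_ofPred_eq] at hQ'
      rw [← S.ord_rd_eq_sum hP hf Q']
      exact hQ')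
    (by rw [← hc0, ← hc1]; exact hcard)
    Q (by rw [Set.Finite.mem_toFinset, Set.mem_ofPred_eq]; exact hQ)
  rw [S.ord_rd_eq_sum hP hf Q]
  exact key

end Abs

end Fermat.Agent.S36.NU.H30

end
end
-- ==== END Fermat.Agent.S36.NU.H30_RamAbs

-- ==== BEGIN Fermat.Agent.S36.NU.H41_DvrUrC
section

/-!
# S36 NU-B, leaf DVR-UR, part C (helper41): elements fixed by inertia have unramified valuation

`A` a valuation subring of `ℚ̄` over the prime `ℓ`.  If `x ∈ ℚ̄`, `x ≠ 0`, is fixed by the inertia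
group of `A`, then `|x|_A = |ℓ|_A ^ k` for some integer `k`.  (No normality assumption on the
field generated by `x`: the inertia field of a finite Galois extension is unramified.)
-/

set_option autoImplicit false

open MulAction Pointwise Ideal
open scoped NumberField

namespace Fermat.Agent.S36.NU.H41

open Fermat.Agent.Lib.Minkowski IsDedekindDomain

attribute [local instance] qbar_isAlgebraic qbar_isAlgClosure qbar_isGalois qbar_normal

/-- Elements of the inertia group of `primeBelow L A` in `Gal(L/ℚ)` lift to the inertia group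
of `A`. -/
theorem exists_lift_of_mem_inertia (L : IntermediateField ℚ (AlgebraicClosure ℚ)) [Normal ℚ L]
    (A : ValuationSubring (AlgebraicClosure ℚ)) (ℓ : ℕ) (hℓ : ℓ.Prime) (hA : A.LiesOverPrime ℓ)
    (τ : L ≃ₐ[ℚ] L) (hτ : τ ∈ (primeBelow L A).inertia (L ≃ₐ[ℚ] L)) :
    ∃ σ ∈ A.inertiaSubgroupIn ℚ, ∀ x : L, ((τ x : L) : AlgebraicClosure ℚ) = σ x := by
  obtain ⟨σ₀, hσ₀⟩ := AlgEquiv.restrictNormalHom_surjective (F := ℚ) (K₁ := L)
    (AlgebraicClosure ℚ) τ
  have hcomm : ∀ x : L, ((τ x : L) : AlgebraicClosure ℚ) = σ₀ (x : AlgebraicClosure ℚ) := by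
    intro x
    rw [← hσ₀]
    exact AlgEquiv.restrictNormal_commutes σ₀ L x
  have key : ∀ x : AlgebraicClosure ℚ, x ∈ L → IsIntegral ℤ x → σ₀ x - x ∈ A.nonunits := by
    intro x hxL hxint
    have hxint' : IsIntegral ℤ (⟨x, hxL⟩ : L) := by
      rw [← isIntegral_algebraMap_iff (FaithfulSMul.algebraMap_injective L (AlgebraicClosure ℚ))]
      exact hxint
    let b : 𝓞 L := ⟨⟨x, hxL⟩, hxint'⟩
    have h1 : τ • b - b ∈ primeBelow L A := hτ b
    rw [mem_primeBelow, map_sub] at h1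
    have h2 : algebraMap (𝓞 L) (AlgebraicClosure ℚ) (τ • b) = σ₀ x := by
      have h3 : algebraMap (𝓞 L) (AlgebraicClosure ℚ) (τ • b)
          = ((τ (⟨x, hxL⟩ : L) : L) : AlgebraicClosure ℚ) := rfl
      rw [h3, hcomm]
    have h4 : algebraMap (𝓞 L) (AlgebraicClosure ℚ) b = x := rfl
    rw [h2, h4] at h1
    exact A.mem_nonunits_iff.mpr h1
  obtain ⟨σ, hσ, hσeq⟩ :=
    Fermat.Agent.Lib.InertiaLift.exists_mem_inertiaSubgroupIn_eqOn ℓ hℓ A hA L σ₀ key
  exact ⟨σ, hσ, fun x => by rw [hcomm, hσeq x x.2]⟩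

/-- The valuation of an inertia-fixed element of a finite normal extension. -/
theorem valuation_eq_zpow_of_mem (L : IntermediateField ℚ (AlgebraicClosure ℚ))
    [FiniteDimensional ℚ L] [Normal ℚ L]
    (A : ValuationSubring (AlgebraicClosure ℚ)) (ℓ : ℕ) (hℓ : ℓ.Prime) (hA : A.LiesOverPrime ℓ)
    (x : AlgebraicClosure ℚ) (hxL : x ∈ L)
    (hfix : ∀ σ ∈ A.inertiaSubgroupIn ℚ, σ x = x) (hx0 : x ≠ 0) :
    ∃ k : ℤ, A.valuation x = A.valuation (ℓ : AlgebraicClosure ℚ) ^ k := by
  have : NumberField L := ⟨⟩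
  have : IsGalois ℚ L := ⟨⟩
  have := primeBelow_isPrime L A
  set P : Ideal (𝓞 L) := primeBelow L A with hP
  let E : IntermediateField ℚ L := FixedPoints.intermediateField (inertia Gal(L/ℚ) P)
  have : NumberField E := ⟨⟩
  have : IsInertiaField ℚ L P E := inferInstance
  have hmem : (ℓ : 𝓞 L) ∈ P := natCast_mem_primeBelow L A ℓ hA
  have hP0 : P ≠ ⊥ := by
    intro h
    rw [h, Ideal.mem_bot] at hmem
    exact hℓ.ne_zero (by exact_mod_cast hmem)
  have : P.IsMaximal := Ring.DimensionLEOne.maximalOfPrime hP0 inferInstance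
  have hp0 : P.under ℤ ≠ ⊥ := by
    intro h
    have : (ℓ : ℤ) ∈ P.under ℤ := by
      rw [Ideal.mem_comap]
      simpa using hmem
    rw [h, Ideal.mem_bot] at this
    exact hℓ.ne_zero (by exact_mod_cast this)
  set 𝓟E : Ideal (𝓞 E) := P.under (𝓞 E) with h𝓟E
  have : 𝓟E.LiesOver (P.under ℤ) := inferInstance
  have h𝓟E0 : 𝓟E ≠ ⊥ := Ideal.ne_bot_of_liesOver_of_ne_bot hp0 𝓟E
  have : 𝓟E.IsMaximal := Ring.DimensionLEOne.maximalOfPrime h𝓟E0 inferInstance
  have he : 𝓟E.ramificationIdx ℤ = 1 :=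
    inertiaField_ramificationIdx_eq ℤ ℚ L P E (𝓞 E) 𝓟E hp0
  -- `ℓ ∈ 𝓟E`, `ℓ ∉ 𝓟E ^ 2`
  have hmemE : (ℓ : 𝓞 E) ∈ 𝓟E := by
    rw [h𝓟E, Ideal.under_def, Ideal.mem_comap, map_natCast]
    exact hmem
  have hspan : (P.under ℤ) ≠ ⊥ := hp0
  have he' : (P.under ℤ).ramificationIdx' 𝓟E = 1 := by
    rw [Ideal.ramificationIdx'_eq_ramificationIdx _ _ hspan, he]
  have hℓp : (ℓ : ℤ) ∈ P.under ℤ := by
    rw [Ideal.mem_comap]
    simpa using hmem
  have hle : (P.under ℤ).map (algebraMap ℤ (𝓞 E)) ≤ 𝓟E := by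
    rw [Ideal.map_le_iff_le_comap]
    exact (Ideal.over_def 𝓟E (P.under ℤ)).le
  have hpeq : P.under ℤ = Ideal.span {(ℓ : ℤ)} := by
    have hmax : (Ideal.span {(ℓ : ℤ)}).IsMaximal :=
      PrincipalIdealRing.isMaximal_of_irreducible
        (Nat.prime_iff_prime_int.mp hℓ).irreducible
    symm
    refine hmax.eq_of_le ?_ ?_
    · exact (Ideal.IsPrime.under ℤ P).ne_top
    · rw [Ideal.span_le]
      rintro _ rfl
      exact hℓp
  have hnot : (ℓ : 𝓞 E) ∉ 𝓟E ^ 2 := by
    intro h2
    have := (Ideal.ramificationIdx'_ne_one_iff hle).mpr (by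
      rw [hpeq, Ideal.map_span, Ideal.span_le]
      rintro _ ⟨_, rfl, rfl⟩
      simpa using h2)
    exact this he'
  -- the height one prime
  set v : HeightOneSpectrum (𝓞 E) := ⟨𝓟E, inferInstance, h𝓟E0⟩ with hv
  have hvℓ : v.valuation E (ℓ : E) = WithZero.exp (-1 : ℤ) := by
    have h0 : v.intValuation (ℓ : 𝓞 E) ≠ 0 := by
      apply HeightOneSpectrum.intValuation_ne_zero
      exact_mod_cast hℓ.ne_zero
    have h1 : v.intValuation (ℓ : 𝓞 E) ≤ WithZero.exp (-((1 : ℕ) : ℤ)) := by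
      rw [HeightOneSpectrum.intValuation_le_pow_iff_mem, pow_one]
      exact hmemE
    have h2 : ¬ v.intValuation (ℓ : 𝓞 E) ≤ WithZero.exp (-((2 : ℕ) : ℤ)) := by
      rw [HeightOneSpectrum.intValuation_le_pow_iff_mem]
      exact hnot
    have hcast : ((ℓ : E)) = algebraMap (𝓞 E) E (ℓ : 𝓞 E) := by simp
    rw [hcast, HeightOneSpectrum.valuation_of_algebraMap]
    rw [← WithZero.exp_log h0] at h1 h2 ⊢
    rw [WithZero.exp_le_exp] at h1 h2
    congr 1
    push_cast at h1 h2
    omega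
  -- the embedding
  let φ : E →+* AlgebraicClosure ℚ := (algebraMap L (AlgebraicClosure ℚ)).comp (algebraMap E L)
  have hunits : ∀ b : 𝓞 E, b ∉ v.asIdeal →
      A.valuation (φ (algebraMap (𝓞 E) E b)) = 1 := by
    intro b hb
    have hb' : algebraMap (𝓞 E) (𝓞 L) b ∉ P := fun h => hb h
    have h1 : φ (algebraMap (𝓞 E) E b)
        = algebraMap (𝓞 L) (AlgebraicClosure ℚ) (algebraMap (𝓞 E) (𝓞 L) b) := rfl
    rw [h1]
    exact le_antisymm (val_algebraMap_le_one L A _) (not_lt.mp hb')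
  -- `x` lies in the inertia field
  have hyE : (⟨x, hxL⟩ : L) ∈ E := by
    rintro ⟨τ, hτ⟩
    obtain ⟨σ, hσ, hστ⟩ := exists_lift_of_mem_inertia L A ℓ hℓ hA τ hτ
    apply Subtype.ext
    show ((τ (⟨x, hxL⟩ : L) : L) : AlgebraicClosure ℚ) = x
    rw [hστ]
    exact hfix σ hσ
  have hy0 : (⟨⟨x, hxL⟩, hyE⟩ : E) ≠ 0 := by
    intro h
    exact hx0 (congrArg (fun z : E => ((z : L) : AlgebraicClosure ℚ)) h)
  obtain ⟨k, hk⟩ := val_eq_zpow_of_adic φ A v hunits (ℓ : E) hvℓ ⟨⟨x, hxL⟩, hyE⟩ hy0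
  refine ⟨k, ?_⟩
  have h1 : φ (⟨⟨x, hxL⟩, hyE⟩ : E) = x := rfl
  have h2 : φ (ℓ : E) = (ℓ : AlgebraicClosure ℚ) := map_natCast φ ℓ
  rw [h1, h2] at hk
  exact hk

end Fermat.Agent.S36.NU.H41

end
-- ==== END Fermat.Agent.S36.NU.H41_DvrUrC

-- ==== BEGIN Fermat.Agent.S36.NU.H44_GalFix
section

/-!
# S36, NU-B, leaf NORM-BC-NU (helper44), part 1: `j (q ^ d) ∉ F_X` unless `d ∣ X`

In the Galois closure `LN N / Q̄(j)` of `F_N` (S24), for `d ∣ N`:

* `smul_jdA_of_mem_Gamma0_d` : `Γ₀(d)` fixes `j (d τ)`;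
* `mem_Gamma0_of_smul_jdA_d` : if `γ` fixes `j (d τ)` then `γ ∈ Γ₀(d)`;
* `piN_phi_incl_of_mem_Gamma0` : `Γ₀(X)` fixes the image of `F_X`, `X ∣ N`;
* `jdF_not_mem_range_incl` : for `X, d ∣ N` with `d ∤ X`, `j (q ^ d) ∉ F_X` (inside `F_N`).
-/

set_option autoImplicit false
set_option linter.style.haveILetI false
set_option linter.unusedSectionVars false

noncomputable section

namespace Fermat.Agent.S36.NU.H44

open ModularCurve UpperHalfPlane Fermat.Agent.S24 Fermat.Agent.Lib.HeckeComm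
open scoped MatrixGroups

local notation "Kb" => AlgebraicClosure ℚ

/-- `Γ₀(d) ≤ Γ₀(d')` for `d' ∣ d`. -/
theorem mem_Gamma0_of_dvd {d d' : ℕ} (h : d' ∣ d) {γ : SL(2, ℤ)}
    (hγ : γ ∈ CongruenceSubgroup.Gamma0 d) : γ ∈ CongruenceSubgroup.Gamma0 d' := by
  rw [CongruenceSubgroup.Gamma0_mem] at hγ ⊢
  rw [ZMod.intCast_zmod_eq_zero_iff_dvd] at hγ ⊢
  exact dvd_trans (Int.natCast_dvd_natCast.mpr h) hγ

/-- `Γ₀(d)` fixes `j (d τ)`, `d ∣ N`. -/
theorem smul_jdA_of_mem_Gamma0_d (N d : ℕ) (hd : 0 < d) (hdN : d ∣ N) (γ : SL(2, ℤ))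
    (hγ : γ ∈ CongruenceSubgroup.Gamma0 d) : γ • jdA N d = jdA N d := by
  apply Subtype.ext
  rw [coe_smul_Atil, jdA_coe N d hd hdN]
  have hdet : 0 < (!![(d : ℤ), 0; 0, 1] : Matrix (Fin 2) (Fin 2) ℤ).det := by
    simpa [Matrix.det_fin_two] using hd
  have hγ' : γ⁻¹ ∈ CongruenceSubgroup.Gamma0 d := inv_mem hγ
  rw [CongruenceSubgroup.Gamma0_mem] at hγ'
  obtain ⟨c, hc⟩ : (d : ℤ) ∣ (γ⁻¹ : SL(2, ℤ)).1 1 0 :=
    (ZMod.intCast_zmod_eq_zero_iff_dvd _ d).mp hγ'
  obtain ⟨γ', hγ'⟩ := exists_diag_mul_eq (d : ℤ) γ⁻¹ c hc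
  exact smul_JA_eq_of_mul_eq γ γ' _ hdet hγ'

/-- If `γ` fixes `j (d τ)`, `d ∣ N`, then `γ ∈ Γ₀(d)` (pole orders at `∞`). -/
theorem mem_Gamma0_of_smul_jdA_d (N d : ℕ) [NeZero N] (hdpos : 0 < d) (hdN : d ∣ N)
    (γ : SL(2, ℤ)) (h : γ • jdA N d = jdA N d) : γ ∈ CongruenceSubgroup.Gamma0 d := by
  have hNpos : 0 < N := NeZero.pos N
  set D : Matrix (Fin 2) (Fin 2) ℤ := !![(d : ℤ), 0; 0, 1] with hD
  have hDdet : D.det = d := by simp [hD, Matrix.det_fin_two]
  have hDpos : 0 < D.det := by rw [hDdet]; exact_mod_cast hdpos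
  have hDN : D.det ∣ (N : ℤ) := by rw [hDdet]; exact Int.natCast_dvd_natCast.mpr hdN
  have h1 : γ • JA D = JA D := by
    have := congrArg (fun f : Atil N => (f : Hol)) h
    simpa only [coe_smul_Atil, jdA_coe N d hdpos hdN] using this
  set A : Matrix (Fin 2) (Fin 2) ℤ := D * (γ⁻¹ : SL(2, ℤ)).1 with hA
  have hAdet : A.det = d := by rw [hA, Matrix.det_mul, (γ⁻¹ : SL(2, ℤ)).2, mul_one, hDdet]
  have hApos : 0 < A.det := by rw [hAdet]; exact_mod_cast hdpos
  have hAN : A.det ∣ (N : ℤ) := by rw [hAdet]; exact Int.natCast_dvd_natCast.mpr hdN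
  have h2 : JA A = JA D := by rw [← h1, smul_JA γ D hDpos]
  obtain ⟨δ, a, e, b, ha, he, hae, hAδ⟩ := hermite_general A hApos
  have ho1 := uExp_JA_order N A hApos hAN δ a e b ha he hAδ
  have hD1 : D = (1 : SL(2, ℤ)).1 * !![((d : ℕ) : ℤ), (0 : ℤ); 0, ((1 : ℕ) : ℤ)] := by
    rw [Matrix.SpecialLinearGroup.coe_one, one_mul, hD, Nat.cast_one]
  have ho2 := uExp_JA_order N D hDpos hDN 1 d 1 0 hdpos one_pos hD1
  have heq : (⟨JA A, JA_mem_Atil N A hApos hAN⟩ : Atil N) = ⟨JA D, JA_mem_Atil N D hDpos hDN⟩ :=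
    Subtype.ext h2
  rw [heq, ho2] at ho1
  have h3 : N / 1 * d = N / e * a := by
    have := neg_injective ho1
    exact_mod_cast this
  rw [Nat.div_one] at h3
  have hae' : a * e = d := by
    have : ((a * e : ℕ) : ℤ) = (d : ℤ) := by rw [← hAdet, ← hae]; push_cast; ring
    exact_mod_cast this
  have heN : e ∣ N := (Dvd.intro_left a hae').trans hdN
  obtain ⟨n, hn⟩ := heN
  have hn0 : 0 < n := by
    rcases Nat.eq_zero_or_pos n with h0 | h0
    · rw [h0, mul_zero] at hn; omega
    · exact h0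
  have hdiv : N / e = n := by rw [hn]; exact Nat.mul_div_cancel_left n he
  rw [hdiv, hn, ← hae'] at h3
  -- `e * n * (a * e) = n * a`, so `e * e = 1`
  have h4 : (n * a) * (e * e) = (n * a) * 1 := by
    have e1 : (n * a) * (e * e) = e * n * (a * e) := by ring
    rw [e1, h3, mul_one]
  have h5 : e * e = 1 := Nat.eq_of_mul_eq_mul_left (Nat.mul_pos hn0 ha) h4
  have he1 : e = 1 := by
    rcases Nat.lt_or_ge e 2 with hlt | hge
    · omega
    · exfalso
      have : 2 * 2 ≤ e * e := Nat.mul_le_mul hge hge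
      omega
  have haD : a = d := by rw [← hae', he1, mul_one]
  -- read off the lower left entry
  have h10 : A 1 0 = (γ⁻¹ : SL(2, ℤ)).1 1 0 := by
    rw [hA, hD]
    simp [Matrix.mul_apply, Fin.sum_univ_two]
  have h10' : A 1 0 = δ.1 1 0 * d := by
    rw [hAδ, haD]
    simp [Matrix.mul_apply, Fin.sum_univ_two]
  have hmem : γ⁻¹ ∈ CongruenceSubgroup.Gamma0 d := by
    rw [CongruenceSubgroup.Gamma0_mem]
    rw [(ZMod.intCast_zmod_eq_zero_iff_dvd _ d)]
    rw [← h10, h10']
    exact Dvd.intro_left _ rfl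
  have := inv_mem hmem
  rwa [inv_inv] at this

/-- `Γ₀(X)` fixes the image of `F_X` in the Galois closure of `F_N`, `X ∣ N`. -/
theorem piN_phi_incl_of_mem_Gamma0 (N X : ℕ) [NeZero N] [NeZero X] (hXN : X ∣ N)
    (γ : SL(2, ℤ)) (hγ : γ ∈ CongruenceSubgroup.Gamma0 X) (y : FN X) :
    piN N γ (phi N (inclFN X N hXN y)) = phi N (inclFN X N hXN y) := by
  have hy : y ∈ IntermediateField.adjoin Kb
      {x : FN X | ∃ (d : ℕ) (_ : NeZero d) (hd : d ∣ X), x = jdF X d hd} := by
    rw [adjoin_jdF]; exact IntermediateField.mem_top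
  induction hy using IntermediateField.adjoin_induction with
  | mem z hz =>
    obtain ⟨d, hd0, hd, rfl⟩ := hz
    rw [inclFN_jdF, piN_phi_jdF,
      smul_jdA_of_mem_Gamma0_d N d (Nat.pos_of_ne_zero (NeZero.ne d)) (hd.trans hXN) γ
        (mem_Gamma0_of_dvd hd hγ), phi_jdF]
  | algebraMap c =>
    rw [AlgHom.commutes, AlgHom.commutes, IsScalarTower.algebraMap_apply Kb EN (LN N)]
    exact (piN N γ).commutes _
  | add y z _ _ hy hz =>
    have e1 : inclFN X N hXN (y + z) = inclFN X N hXN y + inclFN X N hXN z :=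
      (inclFN X N hXN).toRingHom.map_add y z
    have e2 : ∀ u v : FN N, phi N (u + v) = phi N u + phi N v :=
      fun u v => (phi N).toRingHom.map_add u v
    rw [e1, e2, map_add, hy, hz]
  | inv y _ hy => rw [map_inv₀, map_inv₀, map_inv₀, hy]
  | mul y z _ _ hy hz => rw [map_mul, map_mul, map_mul, hy, hz]

/-- The matrix `[1, 0; X, 1] ∈ Γ₀(X)`. -/
def lowerX (X : ℕ) : SL(2, ℤ) :=
  ⟨!![1, 0; (X : ℤ), 1], by simp [Matrix.det_fin_two]⟩

theorem lowerX_mem (X : ℕ) : lowerX X ∈ CongruenceSubgroup.Gamma0 X := by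
  rw [CongruenceSubgroup.Gamma0_mem]
  simp [lowerX]

theorem lowerX_mem_iff (X d : ℕ) : lowerX X ∈ CongruenceSubgroup.Gamma0 d ↔ d ∣ X := by
  rw [CongruenceSubgroup.Gamma0_mem, ZMod.intCast_zmod_eq_zero_iff_dvd]
  simp [lowerX, Int.natCast_dvd_natCast]

/-- **`j (q ^ d) ∉ F_X`** inside `F_N`, for `X, d ∣ N`, `d ∤ X`. -/
theorem jdF_not_mem_range_incl (N X d : ℕ) [NeZero N] [NeZero X] [NeZero d] (hXN : X ∣ N)
    (hdN : d ∣ N) (hdX : ¬ d ∣ X) (y : FN X) : inclFN X N hXN y ≠ jdF N d hdN := by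
  intro hy
  have h1 := piN_phi_incl_of_mem_Gamma0 N X hXN (lowerX X) (lowerX_mem X) y
  rw [hy, piN_phi_jdF, phi_jdF] at h1
  have h2 := IsFractionRing.injective (AT N) (LN N) h1
  have h3 : lowerX X • jdA N d = jdA N d := (toAT N).injective h2
  exact hdX ((lowerX_mem_iff X d).mp
    (mem_Gamma0_of_smul_jdA_d N d (Nat.pos_of_ne_zero (NeZero.ne d)) hdN _ h3))

end Fermat.Agent.S36.NU.H44

end
end
-- ==== END Fermat.Agent.S36.NU.H44_GalFix

-- ==== BEGIN Fermat.Agent.S36.NU.H44_HorAbs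
section

/-!
# S36, NU-B, TI3 leaf (M3) HOR (helper44), abstract part

* `exists_valuationSubring_extension` : a valuation ring `W` of a subfield `F₀ ⊂ L` is the trace
  `W' ∩ F₀` of a valuation ring `W'` of `L` (Chevalley + maximality of valuation rings for
  domination);
* `algebraMap_mem_of_rat_mem` : a valuation ring containing the rational constants contains all
  the constants algebraic over `ℚ`;
* `ord_le_finrank_of_adjoin_eq` : `ord_v x ≤ [F : K(j)]` at a zero `v` of `x`, if `K(x) = K(j)`;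
* `ord_sub_const_of_ne` : `ord_v (j - c') = 0` if `ord_v (j - c) > 0`, `c' ≠ c`.
-/

set_option autoImplicit false
set_option linter.style.haveILetI false
set_option linter.unusedSectionVars false

noncomputable section

open AlgebraicCurve IntermediateField Polynomial

namespace Fermat.Agent.S36.NU.H44

section Ext

variable {L : Type*} [Field L]

/-- A valuation ring of a subfield is the trace of a valuation ring of the field. -/
theorem exists_valuationSubring_extension (F₀ : Subfield L) (W : ValuationSubring ↥F₀) :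
    ∃ W' : ValuationSubring L, ∀ x : ↥F₀, (x : L) ∈ W' ↔ x ∈ W := by
  obtain ⟨B, hle, hloc⟩ := LocalSubring.exists_le_valuationSubring
    (LocalSubring.map F₀.subtype W.toLocalSubring)
  have hmem : ∀ x : ↥F₀, x ∈ W →
      (x : L) ∈ (LocalSubring.map F₀.subtype W.toLocalSubring).toSubring :=
    fun x hx => ⟨x, hx, rfl⟩
  refine ⟨B, fun x => ⟨fun hx => ?_, fun hx => hle (hmem x hx)⟩⟩
  by_contra hxW
  have hx0 : x ≠ 0 := fun h => hxW (h ▸ W.zero_mem)
  have hxL0 : (x : L) ≠ 0 := fun h => hx0 (Subtype.ext h)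
  have hxi : x⁻¹ ∈ W := (W.mem_or_inv_mem x).resolve_left hxW
  have hy := hmem x⁻¹ hxi
  have hunit : IsUnit (Subring.inclusion hle ⟨((x⁻¹ : ↥F₀) : L), hy⟩) := by
    rw [isUnit_iff_exists_inv]
    refine ⟨⟨(x : L), hx⟩, Subtype.ext ?_⟩
    show ((x⁻¹ : ↥F₀) : L) * (x : L) = 1
    rw [Subfield.coe_inv, inv_mul_cancel₀ hxL0]
  have hunit' : IsUnit (⟨((x⁻¹ : ↥F₀) : L), hy⟩ :
      ↥(LocalSubring.map F₀.subtype W.toLocalSubring).toSubring) :=
    hloc.map_nonunit _ hunit
  obtain ⟨⟨z, hz⟩, hzz⟩ := isUnit_iff_exists_inv.mp hunit'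
  obtain ⟨w, hw, rfl⟩ := hz
  have h1 : ((x⁻¹ : ↥F₀) : L) * (F₀.subtype w) = 1 := congrArg Subtype.val hzz
  have h2 : (x : L) = F₀.subtype w := by
    rw [Subfield.coe_inv] at h1
    have := eq_inv_of_mul_eq_one_right h1
    rw [inv_inv] at this
    exact this.symm
  have h3 : x = w := Subtype.ext h2
  exact hxW (h3 ▸ hw)

end Ext

section Const

variable {K F : Type*} [Field K] [Field F] [Algebra K F] [CharZero K]

/-- A valuation ring containing the rational constants contains all the constants, if the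
constant field is algebraic over `ℚ`. -/
theorem algebraMap_mem_of_rat_mem [Algebra.IsAlgebraic ℚ K] (W' : ValuationSubring F)
    (hQ : ∀ r : ℚ, algebraMap K F (r : K) ∈ W') (c : K) : algebraMap K F c ∈ W' := by
  haveI : CharZero F := charZero_of_injective_algebraMap (algebraMap K F).injective
  have hQ' : ∀ r : ℚ, algebraMap ℚ F r ∈ W' := by
    intro r
    have e : algebraMap ℚ F r = algebraMap K F (r : K) := by
      rw [eq_ratCast, map_ratCast]
    rw [e]
    exact hQ r
  obtain ⟨p, hpm, hp⟩ := (Algebra.IsIntegral.isIntegral (R := ℚ) c : IsIntegral ℚ c)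
  let φ : ℚ →+* ↥W' := (algebraMap ℚ F).codRestrict W' hQ'
  have hint : IsIntegral ↥W' (algebraMap K F c) := by
    refine ⟨p.map φ, hpm.map φ, ?_⟩
    rw [eval₂_map]
    have e1 : (algebraMap ↥W' F).comp φ = (algebraMap K F).comp (algebraMap ℚ K) :=
      RingHom.ext fun r => by
        show algebraMap ℚ F r = algebraMap K F (algebraMap ℚ K r)
        rw [eq_ratCast, eq_ratCast, map_ratCast]
    rw [e1, ← hom_eval₂, hp, map_zero]
  obtain ⟨y, hy⟩ := IsIntegrallyClosed.algebraMap_eq_of_integral hint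
  rw [← hy]
  exact y.2

end Const

section Ord

variable {K F : Type*} [Field K] [Field F] [Algebra K F]

/-- `ord_v x ≤ [F : K(j)]` at a zero `v` of `x`, if `K(x) = K(j)`. -/
theorem ord_le_finrank_of_adjoin_eq (j x : F) [FiniteDimensional K⟮j⟯ F] (hx : K⟮x⟯ = K⟮j⟯)
    (v : Place K F) (hv : 0 < v.ord x) : v.ord x ≤ (Module.finrank K⟮j⟯ F : ℤ) := by
  have key : ∀ (E : IntermediateField K F), E = K⟮x⟯ → FiniteDimensional E F →
      v.ord x ≤ (Module.finrank E F : ℤ) := by
    intro E hE hfin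
    subst hE
    have h := Fermat.Agent.RED.H51.sum_ord_le_finrank x {v} (fun w hw => by
      rw [Finset.mem_singleton] at hw
      rw [hw]
      exact hv)
    rwa [Finset.sum_singleton] at h
  exact key K⟮j⟯ hx.symm inferInstance

theorem adjoin_sub_const (j : F) (c : K) : K⟮j - algebraMap K F c⟯ = K⟮j⟯ := by
  apply le_antisymm
  · rw [adjoin_simple_le_iff]
    exact sub_mem (mem_adjoin_simple_self K j) (IntermediateField.algebraMap_mem _ c)
  · rw [adjoin_simple_le_iff]
    have h2 : (j - algebraMap K F c) + algebraMap K F c ∈ K⟮j - algebraMap K F c⟯ :=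
      add_mem (mem_adjoin_simple_self K _) (IntermediateField.algebraMap_mem _ c)
    rwa [sub_add_cancel] at h2

theorem adjoin_inv_eq (j : F) : K⟮j⁻¹⟯ = K⟮j⟯ := by
  apply le_antisymm
  · rw [adjoin_simple_le_iff]
    exact inv_mem (mem_adjoin_simple_self K j)
  · rw [adjoin_simple_le_iff]
    have h2 : (j⁻¹)⁻¹ ∈ K⟮j⁻¹⟯ := inv_mem (mem_adjoin_simple_self K j⁻¹)
    rwa [inv_inv] at h2

/-- `ord_v (j - c') = 0` if `ord_v (j - c) > 0` and `c' ≠ c`. -/
theorem ord_sub_const_of_ne (v : Place K F) (j : F) {c c' : K} (hcc : c' ≠ c)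
    (hv : 0 < v.ord (j - algebraMap K F c)) : v.ord (j - algebraMap K F c') = 0 := by
  have hc0 : algebraMap K F (c - c') ≠ 0 :=
    (map_ne_zero (algebraMap K F)).mpr (sub_ne_zero.mpr (Ne.symm hcc))
  have h := Fermat.Agent.RED.H51.ord_add_eq v hc0 (g := j - algebraMap K F c) (by
    rw [Fermat.Agent.RED.H51.ord_algebraMap]
    exact Or.inr (by omega))
  have e : algebraMap K F (c - c') + (j - algebraMap K F c) = j - algebraMap K F c' := by
    rw [map_sub]; ring
  rw [e] at h
  rw [h.2, Fermat.Agent.RED.H51.ord_algebraMap]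

end Ord

end Fermat.Agent.S36.NU.H44

end
end
-- ==== END Fermat.Agent.S36.NU.H44_HorAbs

-- ==== BEGIN Fermat.Agent.S36.NU.H51_NormUniq
section

/-!
# S36 / NU-B, leaf VALVEC-MOD (helper51): the norm for a unique extension of a valuation

`L / E` finite, `V` a valuation ring of `E` of rank one, `W` the only valuation ring `≠ L` of `L`
containing `V`.  Then `W` is the integral closure of `V`, the norm maps `W` into `V`, and
`v (N x) = v (ϖ) ^ ([L : E] m)` if `w (x) = w (ϖ) ^ m`, `ϖ ∈ E`.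
-/

set_option autoImplicit false
set_option linter.style.haveILetI false
set_option linter.unusedSectionVars false

noncomputable section

namespace Fermat.Agent.S36.NU.H51

section Uniq

variable {E L : Type} [Field E] [Field L] [Algebra E L]
  (V : ValuationSubring E) (W : ValuationSubring L)

/-- The elements of `W` are integral over `V`, if `W` is the only valuation ring `≠ L`
containing `V`. -/
theorem isIntegral_of_unique
    (huniq : ∀ W' : ValuationSubring L, (∀ a : E, a ∈ V → algebraMap E L a ∈ W') → W' ≠ ⊤ →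
      W' = W) (u : L) (hu : u ∈ W) : IsIntegral ↥V u := by
  set s : Set L := Set.range (fun a : ↥V => algebraMap E L (a : E)) with hs
  have h1 : u ∈ (⨅ V' : {V' : ValuationSubring L // s ⊆ V'.toSubring}, V'.1.toSubring) := by
    rw [Subring.mem_iInf]
    rintro ⟨W', hW'⟩
    by_cases htop : W' = ⊤
    · show u ∈ W'
      rw [htop]; trivial
    · have e := huniq W' (fun a ha => hW' ⟨⟨a, ha⟩, rfl⟩) htop
      show u ∈ W'
      rw [e]; exact hu
  rw [iInf_valuationSubring_superset] at h1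
  have h2 : IsIntegral ↥(Subring.closure s) u := h1
  obtain ⟨p, hp, hpu⟩ := h2
  -- the subring generated by `s` is the image of `V`
  let f : ↥V →+* L := (algebraMap E L).comp V.subtype
  have hcl : Subring.closure s = f.range := by
    apply le_antisymm
    · rw [Subring.closure_le]
      rintro _ ⟨a, rfl⟩
      exact ⟨a, rfl⟩
    · rintro _ ⟨a, rfl⟩
      exact Subring.subset_closure ⟨a, rfl⟩
  -- lift the polynomial
  have hlift : p.map (Subring.closure s).subtype ∈ Polynomial.lifts f := by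
    rw [Polynomial.lifts_iff_coeff_lifts]
    intro n
    rw [Polynomial.coeff_map]
    have : ((p.coeff n : ↥(Subring.closure s)) : L) ∈ f.range := by
      rw [← hcl]; exact (p.coeff n).2
    exact this
  have hmon : (p.map (Subring.closure s).subtype).Monic := hp.map _
  obtain ⟨r, hr, -, hrm⟩ := Polynomial.lifts_and_degree_eq_and_monic hlift hmon
  refine ⟨r, hrm, ?_⟩
  have h3 : Polynomial.eval₂ f u r = Polynomial.eval₂ (Subring.closure s).subtype u p := by
    rw [← Polynomial.eval_map, hr, Polynomial.eval_map]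
  have h4 : Polynomial.eval₂ (algebraMap ↥V L) u r = Polynomial.eval₂ f u r := rfl
  rw [h4, h3]
  exact hpu

variable [Module.Finite E L]

/-- The norm maps `W` into `V`. -/
theorem norm_mem_of_unique
    (huniq : ∀ W' : ValuationSubring L, (∀ a : E, a ∈ V → algebraMap E L a ∈ W') → W' ≠ ⊤ →
      W' = W) (u : L) (hu : u ∈ W) : Algebra.norm E u ∈ V := by
  have h1 : IsIntegral ↥V u := isIntegral_of_unique V W huniq u hu
  have h2 : IsIntegral ↥V (Algebra.norm E u) := Algebra.isIntegral_norm E h1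
  obtain ⟨y, hy⟩ := (IsIntegrallyClosed.isIntegral_iff (R := ↥V) (K := E)).1 h2
  rw [← hy]
  exact y.2

/-- **NORM-VAL for a unique unramified extension.** -/
theorem val_norm_of_unique
    (huniq : ∀ W' : ValuationSubring L, (∀ a : E, a ∈ V → algebraMap E L a ∈ W') → W' ≠ ⊤ →
      W' = W) (ϖ : E) (hϖ : ϖ ≠ 0) (x : L) (hx : x ≠ 0) (m : ℤ)
    (hm : W.valuation x = W.valuation (algebraMap E L ϖ) ^ m) :
    V.valuation (Algebra.norm E x) = V.valuation ϖ ^ ((Module.finrank E L : ℤ) * m) := by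
  set c : E := ϖ ^ m with hc
  have hc0 : c ≠ 0 := zpow_ne_zero _ hϖ
  have hcL : algebraMap E L c ≠ 0 := (map_ne_zero _).2 hc0
  have hcval : W.valuation (algebraMap E L c) = W.valuation (algebraMap E L ϖ) ^ m := by
    rw [hc, map_zpow₀, map_zpow₀]
  set u : L := x * (algebraMap E L c)⁻¹ with hu
  have hu0 : u ≠ 0 := mul_ne_zero hx (inv_ne_zero hcL)
  have hval : W.valuation u = 1 := by
    rw [hu, map_mul, map_inv₀, hcval, hm]
    exact mul_inv_cancel₀ (zpow_ne_zero _
      ((Valuation.ne_zero_iff _).2 ((map_ne_zero _).2 hϖ)))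
  have hu1 : u ∈ W := (ValuationSubring.valuation_le_one_iff _ _).1 hval.le
  have hu2 : u⁻¹ ∈ W := by
    rw [← ValuationSubring.valuation_le_one_iff, map_inv₀, hval, inv_one]
  have hN1 := (ValuationSubring.valuation_le_one_iff _ _).2 (norm_mem_of_unique V W huniq u hu1)
  have hN2 := (ValuationSubring.valuation_le_one_iff _ _).2
    (norm_mem_of_unique V W huniq u⁻¹ hu2)
  have hmul : Algebra.norm E u * Algebra.norm E u⁻¹ = 1 := by
    rw [← map_mul, mul_inv_cancel₀ hu0, map_one]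
  have hNval : V.valuation (Algebra.norm E u) = 1 := by
    apply le_antisymm hN1
    have h3 : V.valuation (Algebra.norm E u) * V.valuation (Algebra.norm E u⁻¹) = 1 := by
      rw [← map_mul, hmul, map_one]
    calc (1 : _) = V.valuation (Algebra.norm E u) * V.valuation (Algebra.norm E u⁻¹) := h3.symm
      _ ≤ V.valuation (Algebra.norm E u) * 1 := by gcongr
      _ = V.valuation (Algebra.norm E u) := mul_one _
  have hx' : x = u * algebraMap E L c := by
    rw [hu, mul_assoc, inv_mul_cancel₀ hcL, mul_one]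
  have hNx : Algebra.norm E x = Algebra.norm E u * c ^ Module.finrank E L := by
    conv_lhs => rw [hx']
    rw [map_mul, Algebra.norm_algebraMap]
  rw [hNx, map_mul, hNval, one_mul, map_pow, hc, map_zpow₀, ← zpow_natCast, ← zpow_mul,
    mul_comm]

end Uniq

end Fermat.Agent.S36.NU.H51

end
end
-- ==== END Fermat.Agent.S36.NU.H51_NormUniq

-- ==== BEGIN Fermat.Agent.S36.NU.H65_Series
section

/-!
# S36 / NU-B, leaf NU-LOC (helper65), SERIES level

Kronecker's congruence at level `q²` for a GENERAL `u ∈ ℤ((t))` (not only `j`), as statements about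
Laurent series.  `φ = qExpand q` is `t ↦ t ^ q`.

* `kdel q u` : the series `δ = (u ^ q - u(t ^ q)) / q ∈ ℤ((t))` (`kdel_spec`);
* `sq_sub_eq` : `u ^ (q²) - u(t ^ (q²)) = q (δ(t ^ q) + q h)`;
* `kdel2 q u` : `(u ^ (q²) - u(t ^ (q²))) / q`, with `kdel2 ≡ δ(t ^ q) mod q` (`coeffMap_kdel2`).
-/

set_option autoImplicit false
set_option linter.unusedSectionVars false

noncomputable section

open ModularCurve HahnSeries

namespace Fermat.Agent.S36.NU.H65

section DivQ

variable (q : ℕ)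

/-- Coefficientwise division by `q` (exact when all coefficients are divisible by `q`). -/
def divQ (x : LaurentSeries ℤ) : LaurentSeries ℤ :=
  HahnSeries.ofSuppBddBelow (fun n : ℤ => x.coeff n / (q : ℤ)) (by
    refine ⟨x.order, fun n hn => ?_⟩
    by_contra h
    exact hn (by
      show x.coeff n / (q : ℤ) = 0
      rw [HahnSeries.coeff_eq_zero_of_lt_order (not_le.mp h), Int.zero_ediv]))

@[simp] theorem divQ_coeff (x : LaurentSeries ℤ) (n : ℤ) :
    (divQ q x).coeff n = x.coeff n / (q : ℤ) := rfl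

theorem natCast_mul_coeff {R : Type*} [CommRing R] (x : LaurentSeries R) (n : ℤ) :
    (((q : ℕ) : LaurentSeries R) * x).coeff n = (q : R) * x.coeff n := by
  rw [← map_natCast (HahnSeries.C : R →+* LaurentSeries R) q, HahnSeries.C_mul_eq_smul,
    HahnSeries.coeff_smul, smul_eq_mul]

theorem natCast_mul_divQ (x : LaurentSeries ℤ) (h : ∀ n, (q : ℤ) ∣ x.coeff n) :
    ((q : ℕ) : LaurentSeries ℤ) * divQ q x = x := by
  ext n
  rw [natCast_mul_coeff, divQ_coeff, Int.mul_ediv_cancel' (h n)]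

theorem coeffMap_natCast_mul {R S : Type*} [CommRing R] [CommRing S] (f : R →+* S)
    (x : LaurentSeries R) :
    coeffMap f (((q : ℕ) : LaurentSeries R) * x) = ((q : ℕ) : LaurentSeries S) * coeffMap f x := by
  rw [map_mul, map_natCast]

end DivQ

section Kron

variable (q : ℕ) [NeZero q] [Fact q.Prime]

/-- A series over `ℤ` whose reduction mod `q` vanishes has all coefficients divisible by `q`. -/
theorem dvd_coeff_of_coeffMap_eq_zero (x : LaurentSeries ℤ)
    (h : coeffMap (Int.castRingHom (ZMod q)) x = 0) (n : ℤ) : (q : ℤ) ∣ x.coeff n := by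
  have h1 := congrArg (fun y : LaurentSeries (ZMod q) => y.coeff n) h
  simp only [coeffMap_coeff, HahnSeries.coeff_zero] at h1
  exact (ZMod.intCast_zmod_eq_zero_iff_dvd _ q).1 h1

/-- In characteristic `q`, for a series with coefficients in the prime field:
`x ^ q = x (t ^ q)`. -/
theorem pow_eq_qExpand_zmod (x : LaurentSeries (ZMod q)) : x ^ q = qExpand (ZMod q) q x := by
  rw [Fermat.Agent.RED.H10.pow_char_eq q x, ZMod.frobenius_zmod, coeffMap_id]

theorem coeffMap_pow_sub_qExpand (u : LaurentSeries ℤ) :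
    coeffMap (Int.castRingHom (ZMod q)) (u ^ q - qExpand ℤ q u) = 0 := by
  rw [map_sub, map_pow, coeffMap_qExpand, pow_eq_qExpand_zmod, sub_self]

/-- `δ = (u ^ q - u (t ^ q)) / q`. -/
def kdel (u : LaurentSeries ℤ) : LaurentSeries ℤ := divQ q (u ^ q - qExpand ℤ q u)

/-- **Kronecker** for `u ∈ ℤ((t))`: `u ^ q = u (t ^ q) + q δ`. -/
theorem kdel_spec (u : LaurentSeries ℤ) :
    ((q : ℕ) : LaurentSeries ℤ) * kdel q u = u ^ q - qExpand ℤ q u :=
  natCast_mul_divQ q _ (dvd_coeff_of_coeffMap_eq_zero q _ (coeffMap_pow_sub_qExpand q u))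

theorem pow_eq (u : LaurentSeries ℤ) :
    u ^ q = qExpand ℤ q u + ((q : ℕ) : LaurentSeries ℤ) * kdel q u := by
  rw [kdel_spec]; ring

/-- `u ^ (q²) - u (t ^ (q²))` is divisible by `q`, and the quotient is `δ (t ^ q)` modulo `q`:
there is `h` with `u ^ (q²) = u (t ^ (q²)) + q (δ (t ^ q) + q h)`. -/
theorem sq_sub_eq (u : LaurentSeries ℤ) :
    ∃ h : LaurentSeries ℤ, u ^ (q ^ 2) - qExpand ℤ q (qExpand ℤ q u)
      = ((q : ℕ) : LaurentSeries ℤ) *
          (qExpand ℤ q (kdel q u) + ((q : ℕ) : LaurentSeries ℤ) * h) := by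
  -- `q² ∣ (u^q)^q - (φ u)^q` because `q ∣ u^q - φ u`
  have h1 : ((q : ℕ) : LaurentSeries ℤ) ∣ u ^ q - qExpand ℤ q u :=
    ⟨kdel q u, (kdel_spec q u).symm⟩
  have h2 := dvd_sub_pow_of_dvd_sub h1 1
  obtain ⟨h, hh⟩ := h2
  refine ⟨h, ?_⟩
  have h3 : qExpand ℤ q u ^ q = qExpand ℤ q (qExpand ℤ q u)
      + ((q : ℕ) : LaurentSeries ℤ) * qExpand ℤ q (kdel q u) := by
    rw [← map_pow, pow_eq q u, map_add, map_mul, map_natCast]
  have h4 : u ^ (q ^ 2) = (u ^ q) ^ q ^ 1 := by rw [pow_one, ← pow_mul, pow_two]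
  rw [pow_one] at hh
  rw [h4, pow_one]
  linear_combination hh + h3

/-- `(u ^ (q²) - u (t ^ (q²))) / q`. -/
def kdel2 (u : LaurentSeries ℤ) : LaurentSeries ℤ :=
  divQ q (u ^ (q ^ 2) - qExpand ℤ q (qExpand ℤ q u))

theorem kdel2_spec (u : LaurentSeries ℤ) :
    ((q : ℕ) : LaurentSeries ℤ) * kdel2 q u = u ^ (q ^ 2) - qExpand ℤ q (qExpand ℤ q u) := by
  obtain ⟨h, hh⟩ := sq_sub_eq q u
  refine natCast_mul_divQ q _ fun n => ?_
  rw [hh, natCast_mul_coeff]
  exact dvd_mul_right _ _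

theorem natCast_mul_left_cancel_int {x y : LaurentSeries ℤ}
    (h : ((q : ℕ) : LaurentSeries ℤ) * x = ((q : ℕ) : LaurentSeries ℤ) * y) : x = y := by
  ext n
  have h1 := congrArg (fun z : LaurentSeries ℤ => z.coeff n) h
  simp only [natCast_mul_coeff] at h1
  have hq : ((q : ℕ) : ℤ) ≠ 0 := by exact_mod_cast (Fact.out : q.Prime).ne_zero
  exact mul_left_cancel₀ hq h1

/-- `(u ^ (q²) - u (t ^ (q²))) / q ≡ δ (t ^ q) = δ ^ q` modulo `q`. -/
theorem coeffMap_kdel2 (u : LaurentSeries ℤ) :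
    coeffMap (Int.castRingHom (ZMod q)) (kdel2 q u)
      = qExpand (ZMod q) q (coeffMap (Int.castRingHom (ZMod q)) (kdel q u)) := by
  obtain ⟨h, hh⟩ := sq_sub_eq q u
  have e : kdel2 q u = qExpand ℤ q (kdel q u) + ((q : ℕ) : LaurentSeries ℤ) * h :=
    natCast_mul_left_cancel_int q (by rw [kdel2_spec, hh])
  rw [e, map_add, coeffMap_natCast_mul, coeffMap_qExpand]
  have : ((q : ℕ) : LaurentSeries (ZMod q)) = 0 := by
    rw [← map_natCast (HahnSeries.C : ZMod q →+* LaurentSeries (ZMod q)) q, ZMod.natCast_self,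
      map_zero]
  rw [this, zero_mul, add_zero]

theorem coeffMap_kdel2_eq_pow (u : LaurentSeries ℤ) :
    coeffMap (Int.castRingHom (ZMod q)) (kdel2 q u)
      = coeffMap (Int.castRingHom (ZMod q)) (kdel q u) ^ q := by
  rw [coeffMap_kdel2, pow_eq_qExpand_zmod]

end Kron

/-! ## Series with integer coefficients in the Gauss ring -/

section GaussInt

open Fermat.Agent.S28.H73

variable {C : Type} [Field C] (O : ValuationSubring C)

/-- The image of `x ∈ ℤ((t))` in `C((t))`. -/
def intSer (C : Type) [Field C] (x : LaurentSeries ℤ) : LaurentSeries C :=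
  coeffMap (Int.castRingHom C) x

theorem intSer_eq_iotaV (x : LaurentSeries ℤ) :
    intSer C x = iotaV O (coeffMap (Int.castRingHom ↥O) x) := by
  rw [intSer, iotaV, coeffMap_coeffMap]
  exact coeffMap_congr (RingHom.ext_int _ _) x

theorem intSer_mem (x : LaurentSeries ℤ) : intSer C x ∈ gaussRingV O := by
  rw [intSer_eq_iotaV O]
  exact iotaV_mem_gaussRingV O _

/-- The Gauss reduction of a series with integer coefficients is its reduction modulo the
residue characteristic. -/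
theorem gaussRedV_intSer (x : LaurentSeries ℤ) (h : intSer C x ∈ gaussRingV O) :
    gaussRedV O ⟨intSer C x, h⟩ = coeffMap (Int.castRingHom (kV O)) x := by
  have e : (⟨intSer C x, h⟩ : gaussRingV O)
      = ⟨iotaV O (coeffMap (Int.castRingHom ↥O) x), iotaV_mem_gaussRingV O _⟩ :=
    Subtype.ext (intSer_eq_iotaV O x)
  rw [e, gaussRedV_iotaV, redV, coeffMap_coeffMap]
  exact coeffMap_congr (RingHom.ext_int _ _) x

theorem intSer_qExpand (n : ℕ) [NeZero n] (x : LaurentSeries ℤ) :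
    intSer C (qExpand ℤ n x) = qExpand C n (intSer C x) := coeffMap_qExpand _ _ _

/-- Reduction modulo `q` through `ZMod q`, when the residue field has characteristic `q`. -/
theorem coeffMap_kV_eq (q : ℕ) [CharP (kV O) q] (x : LaurentSeries ℤ) :
    coeffMap (Int.castRingHom (kV O)) x
      = coeffMap (ZMod.castHom (dvd_refl q) (kV O))
          (coeffMap (Int.castRingHom (ZMod q)) x) := by
  rw [coeffMap_coeffMap]
  exact coeffMap_congr (RingHom.ext_int _ _) x

end GaussInt

/-! ## The cusp `∞` (valuation `V_20`): `t_20 = u(t^(q²)) - u^(q²)` has valuation `v(q)` -/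

section T20

open Fermat.Agent.S28.H73

variable {C : Type} [Field C] (O : ValuationSubring C) (q : ℕ) [NeZero q] [Fact q.Prime]

/-- `t_20 = u (t ^ (q²)) - u ^ (q²)`, as a series over `C`. -/
def T20 (C : Type) [Field C] (q : ℕ) [NeZero q] (u : LaurentSeries ℤ) : LaurentSeries C :=
  qExpand C q (qExpand C q (intSer C u)) - intSer C u ^ (q ^ 2)

/-- `t_20 = q · (-(u^(q²) - u(t^(q²)))/q)`. -/
theorem T20_eq (u : LaurentSeries ℤ) :
    T20 C q u = ((q : ℕ) : LaurentSeries C) * intSer C (-kdel2 q u) := by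
  have h := congrArg (coeffMap (Int.castRingHom C)) (kdel2_spec q u)
  rw [coeffMap_natCast_mul, map_sub, map_pow, coeffMap_qExpand, coeffMap_qExpand] at h
  rw [T20, intSer, intSer, map_neg, mul_neg, h]
  ring

/-- The reduction of `t_20 / q` at the Gauss valuation is `- δ~ ^ q`, `δ = (u^q - u(t^q))/q`. -/
theorem gaussRedV_T20_div [CharP (kV O) q] (u : LaurentSeries ℤ)
    (h : intSer C (-kdel2 q u) ∈ gaussRingV O) :
    gaussRedV O ⟨intSer C (-kdel2 q u), h⟩
      = - coeffMap (Int.castRingHom (kV O)) (kdel q u) ^ q := by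
  rw [gaussRedV_intSer, map_neg, coeffMap_kV_eq O q (kdel2 q u), coeffMap_kdel2_eq_pow, map_pow,
    ← coeffMap_kV_eq O q]

end T20

/-! ## Rotation `t ↦ ζ t` (the middle cusp, valuation `V_11`) -/

section Rot

open Fermat.Agent.RED.H10

variable {R : Type*} [CommRing R]

/-- `(ζ ^ n - 1) / (ζ - 1)` for `n ∈ ℤ`. -/
def gsum (ζ : Rˣ) (n : ℤ) : R :=
  if 0 ≤ n then ∑ i ∈ Finset.range n.toNat, (ζ : R) ^ i
  else - (((ζ ^ n : Rˣ) : R) * ∑ i ∈ Finset.range (-n).toNat, (ζ : R) ^ i)

theorem gsum_spec (ζ : Rˣ) (n : ℤ) : ((ζ : R) - 1) * gsum ζ n = ((ζ ^ n : Rˣ) : R) - 1 := by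
  unfold gsum
  split_ifs with h
  · lift n to ℕ using h
    rw [Int.toNat_natCast, mul_geom_sum, zpow_natCast, Units.val_pow_eq_pow_val]
  · push Not at h
    obtain ⟨m, rfl⟩ : ∃ m : ℕ, n = -(m : ℤ) := ⟨(-n).toNat, by omega⟩
    rw [neg_neg, Int.toNat_natCast, mul_neg, mul_left_comm, mul_geom_sum,
      ← Units.val_pow_eq_pow_val, mul_sub, mul_one, ← Units.val_mul, zpow_neg, zpow_natCast,
      inv_mul_cancel, Units.val_one]
    ring

theorem map_gsum {S : Type*} [CommRing S] (f : R →+* S) (ζ : Rˣ) (hζ : f ζ = 1) (n : ℤ) :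
    f (gsum ζ n) = (n : S) := by
  have hz : ∀ k : ℤ, f ((ζ ^ k : Rˣ) : R) = 1 := by
    intro k
    have h1 : Units.map (f : R →* S) ζ = 1 := Units.ext hζ
    have h2 : f ((ζ ^ k : Rˣ) : R) = ((Units.map (f : R →* S) (ζ ^ k) : Sˣ) : S) := rfl
    rw [h2, map_zpow, h1, one_zpow, Units.val_one]
  unfold gsum
  split_ifs with h
  · lift n to ℕ using h
    rw [Int.toNat_natCast, map_sum]
    simp [hζ]
  · push Not at h
    obtain ⟨m, rfl⟩ : ∃ m : ℕ, n = -(m : ℤ) := ⟨(-n).toNat, by omega⟩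
    rw [neg_neg, Int.toNat_natCast, map_neg, map_mul, hz, one_mul, map_sum]
    simp [hζ]

/-- The series `(u (ζ t) - u (t)) / (ζ - 1)`, coefficientwise. -/
def rotQuot (ζ : Rˣ) (x : LaurentSeries R) : LaurentSeries R :=
  HahnSeries.ofSuppBddBelow (fun n : ℤ => gsum ζ n * x.coeff n) (by
    refine ⟨x.order, fun n hn => ?_⟩
    by_contra h
    exact hn (by
      show gsum ζ n * x.coeff n = 0
      rw [HahnSeries.coeff_eq_zero_of_lt_order (not_le.mp h), mul_zero]))

@[simp] theorem rotQuot_coeff (ζ : Rˣ) (x : LaurentSeries R) (n : ℤ) :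
    (rotQuot ζ x).coeff n = gsum ζ n * x.coeff n := rfl

/-- `u (ζ t) - u (t) = (ζ - 1) · rotQuot`. -/
theorem rot_sub_self (ζ : Rˣ) (x : LaurentSeries R) :
    rot ζ x - x = HahnSeries.C ((ζ : R) - 1) * rotQuot ζ x := by
  ext n
  rw [HahnSeries.coeff_sub, rot_coeff, HahnSeries.C_mul_eq_smul, HahnSeries.coeff_smul,
    rotQuot_coeff, smul_eq_mul, ← mul_assoc, gsum_spec]
  ring

/-- If `ζ ≡ 1`, then `(u (ζ t) - u (t)) / (ζ - 1) ≡ θ u`, `θ = t d/dt`. -/
theorem coeffMap_rotQuot {S : Type*} [CommRing S] (f : R →+* S) (ζ : Rˣ) (hζ : f ζ = 1)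
    (x : LaurentSeries R) (n : ℤ) :
    (coeffMap f (rotQuot ζ x)).coeff n = (n : S) * (coeffMap f x).coeff n := by
  rw [coeffMap_coeff, rotQuot_coeff, map_mul, map_gsum f ζ hζ, coeffMap_coeff]

end Rot

/-! ## Non-vanishing: series with `θ u ≠ 0` -/

section NonVanish

variable {k : Type*} [CommRing k]

/-- `θ u ≠ 0` modulo `q`: some coefficient of index prime to `q` is not `0`. -/
def ThetaNZ (q : ℕ) (x : LaurentSeries k) : Prop := ∃ n : ℤ, ¬ (q : ℤ) ∣ n ∧ x.coeff n ≠ 0

theorem qExpand_ne_self (q m : ℕ) [NeZero m] (hm : q ∣ m) (x : LaurentSeries k)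
    (hx : ThetaNZ q x) : qExpand k m x ≠ x := by
  obtain ⟨n, hn, hc⟩ := hx
  intro h
  apply hc
  rw [← h]
  refine qExpand_coeff_of_not_dvd m x fun hmn => hn ?_
  exact dvd_trans (by exact_mod_cast hm) hmn

theorem qExpand_sub_self_ne_zero (q m : ℕ) [NeZero m] (hm : q ∣ m) (x : LaurentSeries k)
    (hx : ThetaNZ q x) : qExpand k m x - x ≠ 0 :=
  sub_ne_zero.2 (qExpand_ne_self q m hm x hx)

theorem self_sub_qExpand_ne_zero (q m : ℕ) [NeZero m] (hm : q ∣ m) (x : LaurentSeries k)
    (hx : ThetaNZ q x) : x - qExpand k m x ≠ 0 :=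
  sub_ne_zero.2 (qExpand_ne_self q m hm x hx).symm

variable (q : ℕ) [NeZero q] [Fact q.Prime] [CharP k q]

/-- Frobenius on the reduction of a series with integer coefficients. -/
theorem intRed_pow (u : LaurentSeries ℤ) :
    coeffMap (Int.castRingHom k) u ^ q = qExpand k q (coeffMap (Int.castRingHom k) u) := by
  rw [Fermat.Agent.RED.H10.pow_char_eq q, coeffMap_coeffMap]
  congr 1
  exact coeffMap_congr (RingHom.ext_int _ _) u

theorem intRed_pow_sq (u : LaurentSeries ℤ) :
    coeffMap (Int.castRingHom k) u ^ (q ^ 2)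
      = qExpand k q (qExpand k q (coeffMap (Int.castRingHom k) u)) := by
  rw [pow_two, pow_mul, intRed_pow, ← map_pow, intRed_pow]

end NonVanish

end Fermat.Agent.S36.NU.H65

end
end
-- ==== END Fermat.Agent.S36.NU.H65_Series
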