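-- GENERATED (merged mirror, NOTES/tools/trim/merge3_helper67.py): 5 modules of the originals, bodies verbatim.
import Fermat.Prelude.Def_FLTPrelim_Ramification
import Fermat.Prelude.Def_AlgebraicCurve_Correspondence
import Mathlib
import Fermat.Agent.Zm.S36_L01_001
import Fermat.Agent.Zm.S35_L11_000
import Fermat.Agent.Zm.S36_L01_002
import Fermat.Agent.Zm.S35_L20_000
import Fermat.Agent.Zm.S35_L17_000
import Fermat.Agent.Zm.S35_L14_002
import Fermat.Agent.Zm.S35_L18_000
import Fermat.Agent.Zm.S36_L01_004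

-- ==== BEGIN Fermat.Agent.S36.NU.H17_TIVal
section

/-!
# S36 / NU-B, leaf TI3-VAL (helper17): integrality over `R[j]` from valuations

`R` a domain, `K = Frac R`, `E = K(j)`, `F` a field over `E`.

* `isIntegral_coeff_minpoly` : the coefficients of the minimal polynomial over `E` of an element
  which is integral over `A` are integral over `A`;
* `isIntegral_of_two` : if `A₁`, `A₂` are integrally closed in `E` and `f` is integral over both,
  then `f` is integral over every `B` whose image contains the intersection of the images;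
* `isIntegral_adjoin_of_gauss` : **TI3-VAL**: `f` integral over `K[j]` (no pole at the horizontal
  places with `j ≠ ∞`) and integral over a Gauss-type subring `V_E` of `E = K(j)` (nonnegative at
  the vertical valuations) is integral over `R[j]`;
* `mem_of_isIntegral_adjoin` : the converse for valuation rings.
-/

set_option autoImplicit false
set_option linter.style.haveILetI false
set_option linter.unusedSectionVars false

noncomputable section

open Polynomial

namespace Fermat.Agent.S36.NU.H17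

section Core

variable {A E F : Type*} [CommRing A] [Field E] [Field F] [Algebra A E] [Algebra E F]
  [Algebra A F] [IsScalarTower A E F]

/-- The coefficients of the minimal polynomial over `E` of an `A`-integral element are
`A`-integral. -/
theorem isIntegral_coeff_minpoly {f : F} (hf : IsIntegral A f) (i : ℕ) :
    IsIntegral A ((minpoly E f).coeff i) := by
  obtain ⟨p, hp, hpf⟩ := hf
  have hfE : IsIntegral E f := ⟨p.map (algebraMap A E), hp.map _, by
    rw [eval₂_map, ← IsScalarTower.algebraMap_eq]; exact hpf⟩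
  have hd : minpoly E f ∣ p.map (algebraMap A E) := by
    apply minpoly.dvd
    rw [aeval_def, eval₂_map, ← IsScalarTower.algebraMap_eq]
    exact hpf
  have hl := integralClosure.mem_lifts_of_monic_of_dvd_map E hp (minpoly.monic hfE) hd
  rw [lifts_iff_coeff_lifts] at hl
  obtain ⟨c, hc⟩ := hl i
  rw [← hc]
  exact c.2

/-- If `A` is integrally closed in `E`, the coefficients of the minimal polynomial over `E` of an
`A`-integral element come from `A`. -/
theorem coeff_minpoly_mem_range (hA : ∀ x : E, IsIntegral A x → x ∈ (algebraMap A E).range)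
    {f : F} (hf : IsIntegral A f) (i : ℕ) :
    (minpoly E f).coeff i ∈ (algebraMap A E).range :=
  hA _ (isIntegral_coeff_minpoly hf i)

end Core

section Two

variable {A₁ A₂ B E F : Type*} [CommRing A₁] [CommRing A₂] [CommRing B] [Field E] [Field F]
  [Algebra A₁ E] [Algebra A₂ E] [Algebra B E] [Algebra E F]
  [Algebra A₁ F] [Algebra A₂ F] [Algebra B F]
  [IsScalarTower A₁ E F] [IsScalarTower A₂ E F] [IsScalarTower B E F]

/-- **Two charts of integrality**: `A₁`, `A₂` integrally closed in `E`, the image of `B` contains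
the intersection of their images; an element of `F ⊇ E` which is integral over `A₁` and over `A₂`
is integral over `B`. -/
theorem isIntegral_of_two
    (h₁ : ∀ x : E, IsIntegral A₁ x → x ∈ (algebraMap A₁ E).range)
    (h₂ : ∀ x : E, IsIntegral A₂ x → x ∈ (algebraMap A₂ E).range)
    (hB : ∀ x : E, x ∈ (algebraMap A₁ E).range → x ∈ (algebraMap A₂ E).range →
      x ∈ (algebraMap B E).range)
    {f : F} (hf₁ : IsIntegral A₁ f) (hf₂ : IsIntegral A₂ f) : IsIntegral B f := by
  obtain ⟨p, hp, hpf⟩ := hf₁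
  have hfE : IsIntegral E f := ⟨p.map (algebraMap A₁ E), hp.map _, by
    rw [eval₂_map, ← IsScalarTower.algebraMap_eq]; exact hpf⟩
  have hf₁ : IsIntegral A₁ f := ⟨p, hp, hpf⟩
  have hl : minpoly E f ∈ Polynomial.lifts (algebraMap B E) := by
    rw [lifts_iff_coeff_lifts]
    intro i
    exact hB _ (coeff_minpoly_mem_range h₁ hf₁ i) (coeff_minpoly_mem_range h₂ hf₂ i)
  obtain ⟨Q, hQ, -, hQm⟩ := Polynomial.lifts_and_degree_eq_and_monic hl (minpoly.monic hfE)
  refine ⟨Q, hQm, ?_⟩
  have : eval₂ (algebraMap B F) f Q = aeval f (Q.map (algebraMap B E)) := by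
    rw [aeval_def, eval₂_map, ← IsScalarTower.algebraMap_eq]
  rw [this, hQ, minpoly.aeval]

end Two

section Generic

/-- A valuation ring is integrally closed in its field. -/
theorem mem_valuationSubring_of_isIntegral {F : Type*} [Field F] (V : ValuationSubring F) {x : F}
    (hx : IsIntegral ↥V x) : x ∈ V := by
  obtain ⟨y, rfl⟩ := IsIntegrallyClosed.isIntegral_iff.mp hx
  exact y.2

/-- Integrality along an inclusion of subrings of `F`, instance-free. -/
theorem isIntegral_of_le {A B F : Type*} [CommRing A] [CommRing B] [Field F] [Algebra A F]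
    [Algebra B F]
    (hAB : ∀ a : A, ∃ b : B, algebraMap B F b = algebraMap A F a) {x : F}
    (hx : IsIntegral A x) : IsIntegral B x := by
  obtain ⟨Q, hQ, hQx⟩ := hx
  have hl : Q.map (algebraMap A F) ∈ Polynomial.lifts (algebraMap B F) := by
    rw [lifts_iff_coeff_lifts]
    intro i
    rw [Polynomial.coeff_map]
    obtain ⟨b, hb⟩ := hAB (Q.coeff i)
    exact ⟨b, hb⟩
  obtain ⟨Q', hQ', -, hQm⟩ := Polynomial.lifts_and_degree_eq_and_monic hl (hQ.map _)
  refine ⟨Q', hQm, ?_⟩
  rw [← Polynomial.eval_map, hQ', Polynomial.eval_map]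
  exact hQx

end Generic

section Gauss

open IntermediateField

variable (R K : Type*) {F : Type*} [CommRing R] [Field K] [Field F] [Algebra R K]
  [Algebra K F] [Algebra R F] [IsScalarTower R K F] (j : F)

/-- `K[j]` is integrally closed in `K(j)`. -/
theorem mem_adjoin_of_isIntegral (hj : Transcendental K j) {x : F} (hx : x ∈ K⟮j⟯)
    (hint : IsIntegral ↥(Algebra.adjoin K {j}) x) : x ∈ Algebra.adjoin K {j} := by
  letI : Algebra ↥(Algebra.adjoin K {j}) ↥K⟮j⟯ := (toAdjoinField K K j).toAlgebra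
  haveI : IsFractionRing ↥(Algebra.adjoin K {j}) ↥K⟮j⟯ := isFractionRing_adjoin K K j
  haveI : IsIntegrallyClosed ↥(Algebra.adjoin K {j}) := isIntegrallyClosed_adjoin K j hj
  have h1 : IsIntegral ↥(Algebra.adjoin K {j}) (⟨x, hx⟩ : ↥K⟮j⟯) := by
    obtain ⟨Q, hQ, hQx⟩ := hint
    refine ⟨Q, hQ, ?_⟩
    apply Subtype.ext
    have e : ((eval₂ (algebraMap ↥(Algebra.adjoin K {j}) ↥K⟮j⟯) (⟨x, hx⟩ : ↥K⟮j⟯) Q : ↥K⟮j⟯) : F)
        = eval₂ (algebraMap ↥(Algebra.adjoin K {j}) F) x Q := by
      have := Polynomial.hom_eval₂ Q (algebraMap ↥(Algebra.adjoin K {j}) ↥K⟮j⟯)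
        (algebraMap ↥K⟮j⟯ F) (⟨x, hx⟩ : ↥K⟮j⟯)
      exact this
    rw [e, hQx]
    rfl
  obtain ⟨y, hy⟩ := IsIntegrallyClosed.isIntegral_iff.mp h1
  have : (y : F) = x := congrArg Subtype.val hy
  rw [← this]
  exact y.2

/-- The elements of `K[j]` lying in a Gauss-type subring `V` are in `R[j]`. -/
theorem mem_adjoin_of_gauss (V : Set F)
    (hG : ∀ p : K[X], aeval j p ∈ V → ∀ i, p.coeff i ∈ (algebraMap R K).range)
    {x : F} (hx : x ∈ Algebra.adjoin K {j}) (hxV : x ∈ V) : x ∈ Algebra.adjoin R {j} := by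
  rw [Algebra.adjoin_singleton_eq_range_aeval] at hx
  obtain ⟨p, hp⟩ := hx
  have hp' : aeval j p = x := hp
  subst hp'
  have hl : p ∈ Polynomial.lifts (algebraMap R K) := by
    rw [lifts_iff_coeff_lifts]
    exact hG p hxV
  obtain ⟨p', rfl⟩ := (Polynomial.mem_lifts p).mp hl
  rw [Polynomial.aeval_map_algebraMap]
  rw [Algebra.adjoin_singleton_eq_range_aeval]
  exact ⟨p', rfl⟩

/-- **TI3-VAL** (abstract form).  `V` a subring of `F`, integrally closed in `F` (a valuation
ring, or an intersection of valuation rings), of Gauss type on `K[j]`.  If `f` is integral over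
`K[j]` and is a root of a monic polynomial with coefficients in `V ∩ K(j)`, then `f` is integral
over `R[j]`. -/
theorem isIntegral_adjoin_of_gauss (hj : Transcendental K j)
    (V : Subring F) (hV : ∀ x : F, IsIntegral V x → x ∈ V)
    (hG : ∀ p : K[X], aeval j p ∈ V → ∀ i, p.coeff i ∈ (algebraMap R K).range)
    {f : F} (hf₁ : IsIntegral ↥(Algebra.adjoin K {j}) f)
    (hf₂ : ∃ P : F[X], P.Monic ∧ (∀ i, P.coeff i ∈ V ∧ P.coeff i ∈ K⟮j⟯) ∧ P.eval f = 0) :
    IsIntegral ↥(Algebra.adjoin R {j}) f := by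
  -- the two rings
  letI : Algebra ↥(Algebra.adjoin K {j}) ↥K⟮j⟯ := (toAdjoinField K K j).toAlgebra
  haveI : IsScalarTower ↥(Algebra.adjoin K {j}) ↥K⟮j⟯ F :=
    IsScalarTower.of_algebraMap_eq fun _ => rfl
  set S : Subring ↥K⟮j⟯ := V.comap (algebraMap ↥K⟮j⟯ F) with hS
  haveI : IsScalarTower ↥S ↥K⟮j⟯ F := IsScalarTower.of_algebraMap_eq fun _ => rfl
  -- `f` is integral over `S`
  obtain ⟨P, hP, hPc, hPf⟩ := hf₂
  have hfS : IsIntegral ↥S f := by
    have hl : P ∈ Polynomial.lifts (algebraMap ↥S F) := by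
      rw [lifts_iff_coeff_lifts]
      intro i
      exact ⟨⟨⟨P.coeff i, (hPc i).2⟩, (hPc i).1⟩, rfl⟩
    obtain ⟨Q, hQ, -, hQm⟩ := Polynomial.lifts_and_degree_eq_and_monic hl hP
    refine ⟨Q, hQm, ?_⟩
    rw [← Polynomial.eval_map, hQ, hPf]
  have hfE : IsIntegral ↥K⟮j⟯ f := hf₁.tower_top
  -- the coefficients of the minimal polynomial
  have hc1 : ∀ i, ((minpoly ↥K⟮j⟯ f).coeff i : F) ∈ Algebra.adjoin K {j} := by
    intro i
    have h1 : IsIntegral ↥(Algebra.adjoin K {j}) ((minpoly ↥K⟮j⟯ f).coeff i) :=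
      isIntegral_coeff_minpoly hf₁ i
    have h2 : IsIntegral ↥(Algebra.adjoin K {j}) (((minpoly ↥K⟮j⟯ f).coeff i : ↥K⟮j⟯) : F) :=
      h1.algebraMap (B := F)
    exact mem_adjoin_of_isIntegral K j hj ((minpoly ↥K⟮j⟯ f).coeff i).2 h2
  have hc2 : ∀ i, ((minpoly ↥K⟮j⟯ f).coeff i : F) ∈ V := by
    intro i
    have h1 : IsIntegral ↥S ((minpoly ↥K⟮j⟯ f).coeff i) := isIntegral_coeff_minpoly hfS i
    obtain ⟨Q, hQ, hQx⟩ := h1
    apply hV
    let φ : ↥S →+* ↥V := ((algebraMap ↥K⟮j⟯ F).comp S.subtype).codRestrict V (fun x => x.2)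
    refine ⟨Q.map φ, hQ.map φ, ?_⟩
    rw [eval₂_map]
    have e : (algebraMap ↥V F).comp φ = (algebraMap ↥K⟮j⟯ F).comp (algebraMap ↥S ↥K⟮j⟯) := rfl
    have h3 := Polynomial.hom_eval₂ Q (algebraMap ↥S ↥K⟮j⟯) (algebraMap ↥K⟮j⟯ F)
      ((minpoly ↥K⟮j⟯ f).coeff i)
    rw [e]
    rw [hQx, map_zero] at h3
    exact h3.symm
  have hc : ∀ i, ((minpoly ↥K⟮j⟯ f).map (algebraMap ↥K⟮j⟯ F)).coeff i ∈ Algebra.adjoin R {j} := by
    intro i
    rw [Polynomial.coeff_map]
    exact mem_adjoin_of_gauss R K j V hG (hc1 i) (hc2 i)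
  refine isIntegral_of_monic_coeff_mem (Algebra.adjoin R {j}) f _
    ((minpoly.monic hfE).map _) hc ?_
  rw [Polynomial.eval_map, ← aeval_def, minpoly.aeval]

theorem adjoin_le_adjoin_field {x : F}
    (hx : x ∈ Algebra.adjoin R {j}) : x ∈ Algebra.adjoin K {j} := by
  induction hx using Algebra.adjoin_induction with
  | mem y hy => exact Algebra.subset_adjoin hy
  | algebraMap r =>
    rw [IsScalarTower.algebraMap_apply R K F]
    exact Subalgebra.algebraMap_mem _ _
  | add _ _ _ _ h1 h2 => exact add_mem h1 h2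
  | mul _ _ _ _ h1 h2 => exact mul_mem h1 h2

/-- **TI3-VAL** for a family of valuation rings: `f` integral over `K[j]`, `f ∈ V i` for all `i`;
`V i₀` is of Gauss type on `K[j]`; every element of `⋂ V i` is integral over `V i₀ ∩ K(j)`
(leaf THREE: the `V i` are all the extensions of the Gauss valuation of `K(j)`).
Then `f` is integral over `R[j]`. -/
theorem isIntegral_adjoin_of_forall_mem (hj : Transcendental K j) {ι : Type*}
    (V : ι → ValuationSubring F) (i₀ : ι)
    (hG : ∀ p : K[X], aeval j p ∈ V i₀ → ∀ i, p.coeff i ∈ (algebraMap R K).range)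
    (hthree : ∀ f : F, (∀ i, f ∈ V i) →
      ∃ P : F[X], P.Monic ∧ (∀ k, P.coeff k ∈ V i₀ ∧ P.coeff k ∈ K⟮j⟯) ∧ P.eval f = 0)
    {f : F} (hf₁ : IsIntegral ↥(Algebra.adjoin K {j}) f) (hf₂ : ∀ i, f ∈ V i) :
    IsIntegral ↥(Algebra.adjoin R {j}) f := by
  refine isIntegral_adjoin_of_gauss R K j hj (V i₀).toSubring ?_ hG hf₁ (hthree f hf₂)
  intro x hx
  have h1 : IsIntegral ↥(V i₀) x := hx
  exact mem_valuationSubring_of_isIntegral (V i₀) h1

/-- Conversely: an element integral over `R[j]` lies in every valuation ring of `F` containing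
`R` and `j`. -/
theorem mem_of_isIntegral_adjoin (V : ValuationSubring F) (hR : ∀ r : R, algebraMap R F r ∈ V)
    (hjV : j ∈ V) {f : F} (hf : IsIntegral ↥(Algebra.adjoin R {j}) f) : f ∈ V := by
  apply mem_valuationSubring_of_isIntegral V
  refine isIntegral_of_le (A := ↥(Algebra.adjoin R {j})) (B := ↥V) ?_ hf
  rintro ⟨a, ha⟩
  have haV : a ∈ V := by
    induction ha using Algebra.adjoin_induction with
    | mem y hy =>
      rw [Set.mem_singleton_iff] at hy
      subst hy
      exact hjV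
    | algebraMap r => exact hR r
    | add _ _ _ _ h1 h2 => exact add_mem h1 h2
    | mul _ _ _ _ h1 h2 => exact mul_mem h1 h2
  exact ⟨⟨a, haV⟩, rfl⟩

/-- An element integral over `R[j]` is integral over `K[j]`. -/
theorem isIntegral_adjoin_field {f : F} (hf : IsIntegral ↥(Algebra.adjoin R {j}) f) :
    IsIntegral ↥(Algebra.adjoin K {j}) f := by
  refine isIntegral_of_le (A := ↥(Algebra.adjoin R {j})) (B := ↥(Algebra.adjoin K {j})) ?_ hf
  rintro ⟨a, ha⟩
  exact ⟨⟨a, adjoin_le_adjoin_field R K j ha⟩, rfl⟩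

end Gauss

end Fermat.Agent.S36.NU.H17


end
end
-- ==== END Fermat.Agent.S36.NU.H17_TIVal

-- ==== BEGIN Fermat.Agent.S36.NU.H23_L0
section

/-!
# S36 / NU-B, leaf TOT3-MOD, step 2b (helper23): the inertia-fixed functions `L₀ = F_N^I`

`A` a valuation ring of `ℚ̄`, `I = A.inertiaSubgroupIn ℚ` acting on the coefficients of
`q`-expansions (`arithmeticRingAut`).

* `L0 A N : Subfield (FN N)`, the functions of level `N` fixed by `I` (= with coefficients in
  `K^ur`); `mem_L0_iff`, `mem_L0_iff_coeff`, `jdF_mem_L0`, `const_mem_L0_iff`;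
* for `F_M ≤ F_N`: `inclL0 : L0 A M →+* L0 A N`, the algebra structures `algL0` etc.;
* `finite_L0`, `finrank_L0 : [L0 N : L0 M] = [F_N : F_M]`,
  `norm_L0 : N_{F_N / F_M} g = N_{L0 N / L0 M} g` for `g ∈ L0 N`;
* `const_L0` : the constants of `L0 N` come from `L0 M`.
-/

set_option autoImplicit false
set_option synthInstance.maxHeartbeats 400000
set_option maxHeartbeats 1000000
set_option linter.style.haveILetI false
set_option linter.unusedSectionVars false

noncomputable section

open ModularCurve AlgebraicCurve Fermat.Agent.S24 Fermat.Agent.BAD.H88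

namespace Fermat.Agent.S36.NU.H23

variable (A : ValuationSubring Kbar)

/-- The functions of level `N` fixed by the inertia group of `A`. -/
def L0 (N : ℕ) : Subfield (FN N) where
  carrier := {x | ∀ σ ∈ A.inertiaSubgroupIn ℚ,
    arithmeticRingAut (modularFunctionFieldFull N) σ x = x}
  mul_mem' := fun {x y} hx hy σ hσ => by rw [map_mul, hx σ hσ, hy σ hσ]
  one_mem' := fun σ _ => map_one _
  add_mem' := fun {x y} hx hy σ hσ => by rw [map_add, hx σ hσ, hy σ hσ]
  zero_mem' := fun σ _ => map_zero _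
  neg_mem' := fun {x} hx σ hσ => by rw [map_neg, hx σ hσ]
  inv_mem' := fun x hx σ hσ => by rw [map_inv₀, hx σ hσ]

theorem mem_L0_iff {N : ℕ} (x : FN N) :
    x ∈ L0 A N ↔ ∀ σ ∈ A.inertiaSubgroupIn ℚ,
      arithmeticRingAut (modularFunctionFieldFull N) σ x = x := Iff.rfl

theorem mem_L0_iff_coeffMap {N : ℕ} (x : FN N) :
    x ∈ L0 A N ↔ ∀ σ ∈ A.inertiaSubgroupIn ℚ,
      coeffMap (σ : Kbar →+* Kbar) (x : LaurentSeries Kbar) = (x : LaurentSeries Kbar) := by
  rw [mem_L0_iff]
  refine forall₂_congr fun σ _ => ?_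
  rw [Subtype.ext_iff, coe_arithmeticRingAut_apply]

theorem jdF_mem_L0 (N : ℕ) [NeZero N] (d : ℕ) [NeZero d] (hd : d ∣ N) :
    jdF N d hd ∈ L0 A N := fun σ _ => arith_jdF N d hd σ

theorem const_mem_L0_iff {N : ℕ} (c : Kbar) :
    algebraMap Kbar (FN N) c ∈ L0 A N ↔ ∀ σ ∈ A.inertiaSubgroupIn ℚ, σ c = c := by
  rw [mem_L0_iff]
  refine forall₂_congr fun σ _ => ?_
  rw [arithmeticRingAut_algebraMap]
  exact (algebraMap Kbar (FN N)).injective.eq_iff

/-! ## The tower -/

section Tower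

variable {M N : ℕ} (hle : modularFunctionFieldBar M ≤ modularFunctionFieldBar N)

theorem inclusion_arith (σ : Kbar ≃ₐ[ℚ] Kbar) (x : FN M) :
    IntermediateField.inclusion hle (arithmeticRingAut (modularFunctionFieldFull M) σ x)
      = arithmeticRingAut (modularFunctionFieldFull N) σ (IntermediateField.inclusion hle x) := by
  apply Subtype.ext
  rw [coe_arithmeticRingAut_apply, IntermediateField.coe_inclusion,
    IntermediateField.coe_inclusion, coe_arithmeticRingAut_apply]

theorem inclusion_mem_L0 (x : FN M) (hx : x ∈ L0 A M) :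
    IntermediateField.inclusion hle x ∈ L0 A N := fun σ hσ => by
  rw [← inclusion_arith, hx σ hσ]

/-- The inclusion `L0 M → L0 N`. -/
def inclL0 : ↥(L0 A M) →+* ↥(L0 A N) :=
  ((IntermediateField.inclusion hle).toRingHom.comp (L0 A M).subtype).codRestrict (L0 A N)
    (fun x => inclusion_mem_L0 A hle x.1 x.2)

theorem coe_inclL0 (x : ↥(L0 A M)) :
    ((inclL0 A hle x : ↥(L0 A N)) : FN N) = IntermediateField.inclusion hle (x : FN M) := rfl

/-- `L0 N` as an algebra over `L0 M`. -/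
@[reducible] def algL0 : Algebra ↥(L0 A M) ↥(L0 A N) := (inclL0 A hle).toAlgebra

/-- `F_N` as an algebra over `F_M`. -/
@[reducible] def algF : Algebra (FN M) (FN N) := algebraAlong (IntermediateField.inclusion hle)

/-- `F_N` as an algebra over `L0 M`. -/
@[reducible] def algL0F : Algebra ↥(L0 A M) (FN N) :=
  ((IntermediateField.inclusion hle).toRingHom.comp (L0 A M).subtype).toAlgebra

theorem tower_L0_L0_F :
    @IsScalarTower ↥(L0 A M) ↥(L0 A N) (FN N) (algL0 A hle).toSMul Algebra.toSMul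
      (algL0F A hle).toSMul := by
  letI := algL0 A hle
  letI := algL0F A hle
  exact IsScalarTower.of_algebraMap_eq fun x => rfl

theorem tower_L0_F_F :
    @IsScalarTower ↥(L0 A M) (FN M) (FN N) Algebra.toSMul (algF hle).toSMul
      (algL0F A hle).toSMul := by
  letI := algF hle
  letI := algL0F A hle
  exact IsScalarTower.of_algebraMap_eq fun x => rfl

/-- A subalgebra of `F_N / F_M` which is a field and contains `L0 N` is everything. -/
theorem gen_L0 [NeZero N] :
    letI := algF hle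
    ∀ S : Subalgebra (FN M) (FN N), IsField S →
      (∀ x : ↥(L0 A N), algebraMap ↥(L0 A N) (FN N) x ∈ S) → S = ⊤ := by
  letI := algF hle
  haveI := isScalarTower_along (IntermediateField.inclusion hle)
  intro S hS hL
  have key : ∀ y : FN N, y ∈ IntermediateField.adjoin Kbar
      {x : FN N | ∃ (d : ℕ) (_ : NeZero d) (hd : d ∣ N), x = jdF N d hd} → y ∈ S := by
    intro y hy
    induction hy using IntermediateField.adjoin_induction with
    | mem z hz =>
      obtain ⟨d, hd0, hd, rfl⟩ := hz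
      exact hL ⟨jdF N d hd, jdF_mem_L0 A N d hd⟩
    | algebraMap c =>
      rw [IsScalarTower.algebraMap_apply Kbar (FN M) (FN N)]
      exact S.algebraMap_mem _
    | add y z _ _ hy hz => exact S.add_mem hy hz
    | inv y _ hy =>
      by_cases hy0 : y = 0
      · rw [hy0, inv_zero]; exact S.zero_mem
      · obtain ⟨z, hz⟩ := hS.mul_inv_cancel (a := ⟨y, hy⟩)
          (fun h => hy0 (congrArg Subtype.val h))
        have hz' : y * (z : FN N) = 1 := congrArg Subtype.val hz
        have : y⁻¹ = (z : FN N) := (eq_inv_of_mul_eq_one_right hz').symm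
        rw [this]
        exact z.2
    | mul y z _ _ hy hz => exact S.mul_mem hy hz
  rw [eq_top_iff]
  intro y _
  exact key y (by rw [adjoin_jdF]; exact IntermediateField.mem_top)

variable (hfin : letI := algF hle; Module.Finite (FN M) (FN N))

include hfin in
/-- `L0 N / L0 M` is finite. -/
theorem finite_L0 :
    letI := algL0 A hle
    Module.Finite ↥(L0 A M) ↥(L0 A N) := by
  letI := algL0 A hle
  letI := algF hle
  letI := algL0F A hle
  haveI := tower_L0_L0_F A hle
  haveI := tower_L0_F_F A hle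
  haveI : Module.Finite (FN M) (FN N) := hfin
  exact finite_of_fixed (E := FN M) (L := FN N) (E₀ := ↥(L0 A M)) (L₀ := ↥(L0 A N))
    (G := ↥(A.inertiaSubgroupIn ℚ))
    (fun σ => (arithmeticRingAut (modularFunctionFieldFull M) (σ : Kbar ≃ₐ[ℚ] Kbar)).toRingHom)
    (fun σ => (arithmeticRingAut (modularFunctionFieldFull N) (σ : Kbar ≃ₐ[ℚ] Kbar)).toRingHom)
    (fun σ x => (inclusion_arith hle σ x).symm)
    (fun σ x => x.2 σ σ.2)
    (fun x hx => ⟨⟨x, fun σ hσ => hx ⟨σ, hσ⟩⟩, rfl⟩)

include hfin in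
/-- `[L0 N : L0 M] = [F_N : F_M]`. -/
theorem finrank_L0 [NeZero N] :
    (letI := algL0 A hle; Module.finrank ↥(L0 A M) ↥(L0 A N))
      = (letI := algF hle; Module.finrank (FN M) (FN N)) := by
  letI := algL0 A hle
  letI := algF hle
  letI := algL0F A hle
  haveI := tower_L0_L0_F A hle
  haveI := tower_L0_F_F A hle
  haveI : Module.Finite (FN M) (FN N) := hfin
  exact finrank_of_fixed (E := FN M) (L := FN N) (E₀ := ↥(L0 A M)) (L₀ := ↥(L0 A N))
    (G := ↥(A.inertiaSubgroupIn ℚ))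
    (fun σ => (arithmeticRingAut (modularFunctionFieldFull M) (σ : Kbar ≃ₐ[ℚ] Kbar)).toRingHom)
    (fun σ => (arithmeticRingAut (modularFunctionFieldFull N) (σ : Kbar ≃ₐ[ℚ] Kbar)).toRingHom)
    (fun σ x => (inclusion_arith hle σ x).symm)
    (fun σ x => x.2 σ σ.2)
    (fun x hx => ⟨⟨x, fun σ hσ => hx ⟨σ, hσ⟩⟩, rfl⟩)
    (gen_L0 A hle)

include hfin in
/-- The norm of `F_N / F_M` of an inertia-fixed function is its norm for `L0 N / L0 M`. -/
theorem norm_L0 [NeZero N] (g : ↥(L0 A N)) :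
    (letI := algF hle; Algebra.norm (FN M) (g : FN N))
      = ((letI := algL0 A hle; Algebra.norm ↥(L0 A M) g : ↥(L0 A M)) : FN M) := by
  letI := algL0 A hle
  letI := algF hle
  letI := algL0F A hle
  haveI := tower_L0_L0_F A hle
  haveI := tower_L0_F_F A hle
  haveI : Module.Finite (FN M) (FN N) := hfin
  exact norm_of_fixed (E := FN M) (L := FN N) (E₀ := ↥(L0 A M)) (L₀ := ↥(L0 A N))
    (G := ↥(A.inertiaSubgroupIn ℚ))
    (fun σ => (arithmeticRingAut (modularFunctionFieldFull M) (σ : Kbar ≃ₐ[ℚ] Kbar)).toRingHom)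
    (fun σ => (arithmeticRingAut (modularFunctionFieldFull N) (σ : Kbar ≃ₐ[ℚ] Kbar)).toRingHom)
    (fun σ x => (inclusion_arith hle σ x).symm)
    (fun σ x => x.2 σ σ.2)
    (fun x hx => ⟨⟨x, fun σ hσ => hx ⟨σ, hσ⟩⟩, rfl⟩)
    (gen_L0 A hle) g

/-- The constants of `L0 N` come from `L0 M`. -/
theorem const_L0 (c : ↥(L0 A N))
    (hc : ∃ c' : Kbar, (c : FN N) = algebraMap Kbar (FN N) c') :
    ∃ c₀ : ↥(L0 A M), inclL0 A hle c₀ = c := by
  obtain ⟨c', hc'⟩ := hc
  have h1 : algebraMap Kbar (FN N) c' ∈ L0 A N := hc' ▸ c.2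
  have h2 : algebraMap Kbar (FN M) c' ∈ L0 A M :=
    (const_mem_L0_iff A c').mpr ((const_mem_L0_iff A c').mp h1)
  refine ⟨⟨_, h2⟩, Subtype.ext ?_⟩
  rw [coe_inclL0, hc']
  exact (IntermediateField.inclusion hle).commutes c'

end Tower

end Fermat.Agent.S36.NU.H23

end
end
-- ==== END Fermat.Agent.S36.NU.H23_L0

-- ==== BEGIN Fermat.Agent.S36.NU.H30_Ram
section
attribute [local instance 10000] SubalgebraClass.toAlgebra
attribute [local instance 10000] HahnSeries.powerSeriesAlgebra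

/-!
# S36 / NU-B, leaf RAM (helper30): the ramification of `j~` at the non-cuspidal points

`q ∤ M` tame, `A` over `q`, `κ = redM A M` the reduced function field of level `M`, `j~ = jRed`.

Characteristic `0`:
* `ram_exact_of_count` : if all zeros of `x - a` have order `≤ e` and `e · #zeros = [F : K(x)]`,
  then all zeros have order `e`;
* `ram_char0_zero` : `ν₃(M) = 0` ⟹ every zero of `j` has order `3`;
* `ram_char0_1728` : `ν₂(M) = 0` ⟹ every zero of `j - 1728` has order `2`.

Reduction (helper17's `RedSetup` of level `M`, `ram_abs`, `ram_abs_ge`):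
* `ram_red_ge` : if the zeros of `j - ρ` have order `e`, the zeros of `j~ - ρ~` have order `≥ e`
  (all tame `(M, q)`);
* `ram_red_eq` : if moreover `ρ` is the only branch value in its residue class, they have order
  exactly `e`;
* `ram_zero_ge`, `ram_1728_ge` : `3 ≤ ord_z j~`, `2 ≤ ord_z (j~ - 1728)` at the zeros
  (all tame `(M, q)`, `ν₃ = 0` resp. `ν₂ = 0`);
* `ram_zero_eq`, `ram_1728_eq`, `ram_generic_eq` : for `q ≥ 5`: `ord_z j~ = 3`,
  `ord_z (j~ - 1728) = 2`, `ord_z (j~ - γ) = 1` (`γ ≠ 0, 1728`) at the zeros.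
-/

set_option autoImplicit false
set_option linter.style.haveILetI false
set_option linter.unusedSectionVars false
set_option synthInstance.maxHeartbeats 400000
set_option maxHeartbeats 1000000

noncomputable section

open AlgebraicCurve IntermediateField ModularCurve

namespace Fermat.Agent.S36.NU.H30

open Fermat.Agent.S28.H73 Fermat.Agent.RED.H73 Fermat.Agent.RED Fermat.Agent.RED.H34
  Fermat.Agent.BAD
open Fermat.Agent.S24 (Kbar FN)

section Char0Abs

variable {K F : Type*} [Field K] [Field F] [Algebra K F]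

/-- If all zeros of `x - a` have order `≤ e` and `e · #zeros = [F : K(x)]`, then all zeros have
order `e`. -/
theorem ram_exact_of_count [IsAlgClosed K] [CharZero K] (x : F) (hx : Transcendental K x)
    [FiniteDimensional K⟮x⟯ F] (a : K) (e : ℕ)
    (hle : ∀ v : Place K F, v.ord (x - algebraMap K F a) ≤ e)
    (hcount : e * Nat.card {v : Place K F // 0 < v.ord (x - algebraMap K F a)}
      = Module.finrank K⟮x⟯ F) :
    ∀ v : Place K F, 0 < v.ord (x - algebraMap K F a) → v.ord (x - algebraMap K F a) = e := by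
  obtain ⟨Z, hZ, hsum, hcard⟩ := Fermat.Agent.S24.H85.zeros_sub x hx
    (fun y hy hfd => by
      haveI := hfd
      exact Fermat.Agent.S24.ff_zeros y hy) a
  have h1 : ∑ v ∈ Z, v.ord (x - algebraMap K F a) = ∑ _v ∈ Z, (e : ℤ) := by
    rw [hsum, Finset.sum_const, nsmul_eq_mul, hcard, ← hcount]
    push_cast
    ring
  have h2 := (Finset.sum_eq_sum_iff_of_le (fun v _ => hle v)).1 h1
  intro v hv
  exact h2 v ((hZ v).2 hv)

end Char0Abs

section Char0Mod

variable (M : ℕ) [NeZero M]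

theorem ram_one_lt_of_nuThree (h : nuThree M = 0) : 1 < M := by
  by_contra hcon
  have hM1 : M = 1 := le_antisymm (not_lt.mp hcon) (Nat.pos_of_ne_zero (NeZero.ne M))
  rw [hM1, Fermat.Agent.S24.asm_nuThree_one] at h
  exact one_ne_zero h

theorem ram_one_lt_of_nuTwo (h : nuTwo M = 0) : 1 < M := by
  by_contra hcon
  have hM1 : M = 1 := le_antisymm (not_lt.mp hcon) (Nat.pos_of_ne_zero (NeZero.ne M))
  rw [hM1, Fermat.Agent.S24.asm_nuTwo_one] at h
  exact one_ne_zero h

/-- **Characteristic `0`, `j = 0`**: without elliptic points of order `3` every zero of `j` has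
order `3`. -/
theorem ram_char0_zero (h3 : nuThree M = 0) (v : Place Kbar (FN M))
    (hv : 0 < v.ord (_root_.Fermat.Agent.RED.H73.jF (L := Kbar) M - algebraMap Kbar (FN M) 0)) :
    v.ord (_root_.Fermat.Agent.RED.H73.jF (L := Kbar) M - algebraMap Kbar (FN M) 0) = 3 := by
  have hM := ram_one_lt_of_nuThree M h3
  haveI := Fermat.Agent.RED.H76.finiteDimensional_jF M
  have key := ram_exact_of_count (_root_.Fermat.Agent.RED.H73.jF (L := Kbar) M) (Fermat.Agent.RED.H76.transcendental_jF M)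
    0 3 (fun v => by
      rw [map_zero, sub_zero]
      exact_mod_cast Fermat.Agent.RED.H76.ord_jF_le_three' M v) (by
      have h1 := Fermat.Agent.S24.asm_card_zeros_zero (Fermat.Agent.S24.modClosure M) hM
      rw [Fermat.Agent.RED.H76.jF_eq] at h1
      rw [h1, Fermat.Agent.RED.H76.finrank_jF, Fermat.Agent.S24.asm_orb_ST, h3, mul_zero, add_zero])
  exact_mod_cast key v hv

/-- **Characteristic `0`, `j = 1728`**: without elliptic points of order `2` every zero of
`j - 1728` has order `2`. -/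
theorem ram_char0_1728 (h2 : nuTwo M = 0) (v : Place Kbar (FN M))
    (hv : 0 < v.ord (_root_.Fermat.Agent.RED.H73.jF (L := Kbar) M - algebraMap Kbar (FN M) 1728)) :
    v.ord (_root_.Fermat.Agent.RED.H73.jF (L := Kbar) M - algebraMap Kbar (FN M) 1728) = 2 := by
  have hM := ram_one_lt_of_nuTwo M h2
  haveI := Fermat.Agent.RED.H76.finiteDimensional_jF M
  have key := ram_exact_of_count (_root_.Fermat.Agent.RED.H73.jF (L := Kbar) M) (Fermat.Agent.RED.H76.transcendental_jF M)
    1728 2 (fun v => by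
      exact_mod_cast Fermat.Agent.RED.H76.ord_jF_sub_1728_le_two' M v) (by
      have h1 := Fermat.Agent.S24.asm_card_zeros_1728 (Fermat.Agent.S24.modClosure M) hM
      rw [Fermat.Agent.RED.H76.jF_eq] at h1
      rw [h1, Fermat.Agent.RED.H76.finrank_jF, Fermat.Agent.S24.asm_orb_S, h2, add_zero])
  exact_mod_cast key v hv

/-- **Characteristic `0`, generic value**. -/
theorem ram_char0_generic (a : Kbar) (h0 : a ≠ 0) (h1728 : a ≠ 1728) (v : Place Kbar (FN M))
    (hv : 0 < v.ord (_root_.Fermat.Agent.RED.H73.jF (L := Kbar) M - algebraMap Kbar (FN M) a)) :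
    v.ord (_root_.Fermat.Agent.RED.H73.jF (L := Kbar) M - algebraMap Kbar (FN M) a) = 1 := by
  have := Fermat.Agent.RED.H76.ord_jF_sub_le_one' M a h0 h1728 v
  omega

end Char0Mod

section Red

variable {A : ValuationSubring Kbar} {M q : ℕ} [NeZero M]

/-- The reduction of `j - ρ` is `j~ - ρ~`. -/
theorem ram_rd_sub (hq : q.Prime) (hqM : ¬ q ∣ M) (ht : H91.TameAt M q)
    (hA : A.LiesOverPrime q) (ρ : ↥(redSetting A (hasScale_laurentBaseChange A M)).O) :
    _root_.Fermat.Agent.RED.H73.jF (L := Kbar) M - algebraMap Kbar (FN M) (ρ : Kbar) ∈ (H91.seM hq hqM ht hA).V ∧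
    (H91.seM hq hqM ht hA).rd (_root_.Fermat.Agent.RED.H73.jF (L := Kbar) M - algebraMap Kbar (FN M) (ρ : Kbar))
      = H91.jRed A M - algebraMap (kV A) ↥(H91.redM A M)
          ((redSetting A (hasScale_laurentBaseChange A M)).resO ρ) := by
  have hj : _root_.Fermat.Agent.RED.H73.jF (L := Kbar) M ∈ (H91.seM hq hqM ht hA).V := jF_mem A M
  have hρ : algebraMap Kbar (FN M) (ρ : Kbar) ∈ (H91.seM hq hqM ht hA).V := ρ.2
  refine ⟨(H91.seM hq hqM ht hA).V.sub_mem hj hρ, ?_⟩
  rw [(H91.seM hq hqM ht hA).rd_sub hj hρ, (H91.seM hq hqM ht hA).rd_of_mem hj,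
    (H91.seM hq hqM ht hA).rd_of_mem hρ]
  congr 1
  exact (redSetting A (hasScale_laurentBaseChange A M)).red_algebraMap ρ

/-- `j - ρ` is a Gauss unit. -/
theorem ram_isGU (hq : q.Prime) (hqM : ¬ q ∣ M) (ht : H91.TameAt M q)
    (hA : A.LiesOverPrime q) (ρ : ↥(redSetting A (hasScale_laurentBaseChange A M)).O) :
    (H91.seM hq hqM ht hA).IsGU (_root_.Fermat.Agent.RED.H73.jF (L := Kbar) M - algebraMap Kbar (FN M) (ρ : Kbar)) := by
  obtain ⟨h1, h2⟩ := ram_rd_sub hq hqM ht hA ρ
  refine ⟨h1, ?_⟩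
  rw [h2]
  intro h0
  obtain ⟨htr, -⟩ := goodChart_pre M q hq hqM A hA
  apply htr
  have e : H91.jRed A M = algebraMap (kV A) ↥(H91.redM A M)
      ((redSetting A (hasScale_laurentBaseChange A M)).resO ρ) := sub_eq_zero.mp h0
  have e' : (redSetting A (hasScale_laurentBaseChange A M)).red ⟨_root_.Fermat.Agent.RED.H73.jF M, jF_mem A M⟩
      = algebraMap (kV A) ↥(H91.redM A M)
        ((redSetting A (hasScale_laurentBaseChange A M)).resO ρ) := e
  rw [e']
  exact isAlgebraic_algebraMap _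

/-- No pole of `j - ρ` reduces to a zero of `j~ - ρ~`. -/
theorem ram_reg (hq : q.Prime) (hqM : ¬ q ∣ M) (ht : H91.TameAt M q)
    (hA : A.LiesOverPrime q) (ρ : ↥(redSetting A (hasScale_laurentBaseChange A M)).O)
    (P : Place Kbar (FN M))
    (hP : 0 < ((H91.seM hq hqM ht hA).r P).ord
      ((H91.seM hq hqM ht hA).rd (_root_.Fermat.Agent.RED.H73.jF (L := Kbar) M - algebraMap Kbar (FN M) (ρ : Kbar)))) :
    0 ≤ P.ord (_root_.Fermat.Agent.RED.H73.jF (L := Kbar) M - algebraMap Kbar (FN M) (ρ : Kbar)) := by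
  rw [(ram_rd_sub hq hqM ht hA ρ).2] at hP
  have h1 : RED.H17.RegAt ((H91.seM hq hqM ht hA).r P) (H91.jRed A M) := by
    have h2 := (RED.H17.regAt_of_ord_nonneg hP.le).add
      (RED.H17.regAt_algebraMap ((H91.seM hq hqM ht hA).r P)
        ((redSetting A (hasScale_laurentBaseChange A M)).resO ρ))
    rwa [sub_add_cancel] at h2
  have h3 : 0 ≤ (H91.rM hq hqM ht hA P).ord (H91.jRed A M) := h1.ord_nonneg
  have h4 := H91.ord_jF_nonneg_of_rM hq hqM ht hA P h3
  exact ((RED.H17.regAt_of_ord_nonneg h4).sub (RED.H17.regAt_algebraMap P (ρ : Kbar))).ord_nonneg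

/-- **RAM, lower bound** (all tame `(M, q)`): if the zeros of `j - ρ` have order `e`, the zeros
of `j~ - ρ~` have order `≥ e`. -/
theorem ram_red_ge (hq : q.Prime) (hqM : ¬ q ∣ M) (ht : H91.TameAt M q)
    (hA : A.LiesOverPrime q) (ρ : ↥(redSetting A (hasScale_laurentBaseChange A M)).O) (e : ℤ)
    (he : ∀ P : Place Kbar (FN M),
      0 < P.ord (_root_.Fermat.Agent.RED.H73.jF (L := Kbar) M - algebraMap Kbar (FN M) (ρ : Kbar)) →
      P.ord (_root_.Fermat.Agent.RED.H73.jF (L := Kbar) M - algebraMap Kbar (FN M) (ρ : Kbar)) = e)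
    (z : Place (kV A) ↥(H91.redM A M))
    (hz : 0 < z.ord (H91.jRed A M - algebraMap (kV A) ↥(H91.redM A M)
      ((redSetting A (hasScale_laurentBaseChange A M)).resO ρ))) :
    e ≤ z.ord (H91.jRed A M - algebraMap (kV A) ↥(H91.redM A M)
      ((redSetting A (hasScale_laurentBaseChange A M)).resO ρ)) := by
  haveI : IsAlgClosed (kV A) := isAlgClosed_kV A
  have hFF : IsFF Kbar ↥(FNbar M) := H95.stmt_HKA_isFF M
  have H := RED.H17.ffHyp_of_isFF _ _ hFF
  rw [← (ram_rd_sub hq hqM ht hA ρ).2] at hz ⊢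
  exact ram_abs_ge (H91.seM hq hqM ht hA) H.principal (ram_isGU hq hqM ht hA ρ) e he
    (ram_reg hq hqM ht hA ρ) z hz

/-- **RAM** : if the zeros of `j - ρ` have order `e` and `ρ` is the only branch value of `j` in
its residue class, the zeros of `j~ - ρ~` have order exactly `e`. -/
theorem ram_red_eq (hq : q.Prime) (hqM : ¬ q ∣ M) (ht : H91.TameAt M q)
    (hA : A.LiesOverPrime q) (ρ : ↥(redSetting A (hasScale_laurentBaseChange A M)).O) (e : ℤ)
    (he : ∀ P : Place Kbar (FN M),
      0 < P.ord (_root_.Fermat.Agent.RED.H73.jF (L := Kbar) M - algebraMap Kbar (FN M) (ρ : Kbar)) →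
      P.ord (_root_.Fermat.Agent.RED.H73.jF (L := Kbar) M - algebraMap Kbar (FN M) (ρ : Kbar)) = e)
    (hρ : ∀ ρ' : ↥(redSetting A (hasScale_laurentBaseChange A M)).O,
      IsBranchValue (_root_.Fermat.Agent.RED.H73.jF (L := Kbar) M) (ρ' : Kbar) →
      (redSetting A (hasScale_laurentBaseChange A M)).resO ρ'
        = (redSetting A (hasScale_laurentBaseChange A M)).resO ρ → ρ' = ρ)
    (z : Place (kV A) ↥(H91.redM A M))
    (hz : 0 < z.ord (H91.jRed A M - algebraMap (kV A) ↥(H91.redM A M)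
      ((redSetting A (hasScale_laurentBaseChange A M)).resO ρ))) :
    z.ord (H91.jRed A M - algebraMap (kV A) ↥(H91.redM A M)
      ((redSetting A (hasScale_laurentBaseChange A M)).resO ρ)) = e := by
  haveI : IsAlgClosed (kV A) := isAlgClosed_kV A
  have hFF : IsFF Kbar ↥(FNbar M) := H95.stmt_HKA_isFF M
  have hFF' : IsFF (kV A) ↥(H91.redM A M) := H91.isFF_redM hq hqM ht hA
  have H := RED.H17.ffHyp_of_isFF _ _ hFF
  have H' := RED.H17.ffHyp_of_isFF _ _ hFF'
  have hcard := Fermat.Agent.BAD.H21.H21_fibre_ge M hq hqM A hA ρ hρ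
  have hGU := ram_isGU hq hqM ht hA ρ
  have hfin : {Q : Place (kV A) ↥(H91.redM A M) | 0 < Q.ord
      ((H91.seM hq hqM ht hA).rd (_root_.Fermat.Agent.RED.H73.jF (L := Kbar) M - algebraMap Kbar (FN M) (ρ : Kbar)))}.Finite :=
    (RED.H17.finite_ord_ne_zero H'.principal _).subset (fun Q hQ => by
      have hQ' : 0 < Q.ord ((H91.seM hq hqM ht hA).rd
        (_root_.Fermat.Agent.RED.H73.jF (L := Kbar) M - algebraMap Kbar (FN M) (ρ : Kbar))) := hQ
      exact hQ'.ne')
  rw [← (ram_rd_sub hq hqM ht hA ρ).2] at hz ⊢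
  refine ram_abs (H91.seM hq hqM ht hA) H.principal hGU e he (ram_reg hq hqM ht hA ρ) hfin ?_ z hz
  rw [(ram_rd_sub hq hqM ht hA ρ).2]
  exact hcard

end Red

section Final

variable {A : ValuationSubring Kbar} {M q : ℕ} [NeZero M]

/-- **RAM at `j = 0`, lower bound** (all tame `(M, q)`, `ν₃(M) = 0`). -/
theorem ram_zero_ge (hq : q.Prime) (hqM : ¬ q ∣ M) (ht : H91.TameAt M q)
    (hA : A.LiesOverPrime q) (h3 : nuThree M = 0) (z : Place (kV A) ↥(H91.redM A M))
    (hz : 0 < z.ord (H91.jRed A M)) : 3 ≤ z.ord (H91.jRed A M) := by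
  have key := ram_red_ge hq hqM ht hA 0 3 (fun P hP => ram_char0_zero M h3 P hP) z
  rw [map_zero, map_zero, sub_zero] at key
  exact key hz

/-- **RAM at `j = 1728`, lower bound** (all tame `(M, q)`, `ν₂(M) = 0`). -/
theorem ram_1728_ge (hq : q.Prime) (hqM : ¬ q ∣ M) (ht : H91.TameAt M q)
    (hA : A.LiesOverPrime q) (h2 : nuTwo M = 0) (z : Place (kV A) ↥(H91.redM A M))
    (hz : 0 < z.ord (H91.jRed A M - algebraMap (kV A) ↥(H91.redM A M) 1728)) :
    2 ≤ z.ord (H91.jRed A M - algebraMap (kV A) ↥(H91.redM A M) 1728) := by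
  have key := ram_red_ge hq hqM ht hA 1728 2 (fun P hP => ram_char0_1728 M h2 P hP) z
  rw [map_ofNat] at key
  exact key hz

/-- **RAM at `j = 0`** (`q ≥ 5`, `ν₃(M) = 0`): every zero of `j~` has order `3`. -/
theorem ram_zero_eq (hq : q.Prime) (h5 : 5 ≤ q) (hqM : ¬ q ∣ M) (hA : A.LiesOverPrime q)
    (h3 : nuThree M = 0) (z : Place (kV A) ↥(H91.redM A M))
    (hz : 0 < z.ord (H91.jRed A M)) : z.ord (H91.jRed A M) = 3 := by
  have key := ram_red_eq hq hqM (Or.inl h5) hA 0 3 (fun P hP => ram_char0_zero M h3 P hP) (by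
    intro ρ' hb hres
    rcases Fermat.Agent.RED.H76.isBranchValue_jF M hb with h | h
    · exact Subtype.ext h
    · exfalso
      have : ρ' = 1728 := Subtype.ext h
      rw [this, map_ofNat, map_zero] at hres
      exact Fermat.Agent.BAD.H21.H21_resO_1728_ne_zero hq A hA h5 hres) z
  rw [map_zero, map_zero, sub_zero] at key
  exact key hz

/-- **RAM at `j = 1728`** (`q ≥ 5`, `ν₂(M) = 0`): every zero of `j~ - 1728` has order `2`. -/
theorem ram_1728_eq (hq : q.Prime) (h5 : 5 ≤ q) (hqM : ¬ q ∣ M) (hA : A.LiesOverPrime q)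
    (h2 : nuTwo M = 0) (z : Place (kV A) ↥(H91.redM A M))
    (hz : 0 < z.ord (H91.jRed A M - algebraMap (kV A) ↥(H91.redM A M) 1728)) :
    z.ord (H91.jRed A M - algebraMap (kV A) ↥(H91.redM A M) 1728) = 2 := by
  have key := ram_red_eq hq hqM (Or.inl h5) hA 1728 2 (fun P hP => ram_char0_1728 M h2 P hP) (by
    intro ρ' hb hres
    rcases Fermat.Agent.RED.H76.isBranchValue_jF M hb with h | h
    · exfalso
      have : ρ' = 0 := Subtype.ext h
      rw [this, map_ofNat, map_zero] at hres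
      exact Fermat.Agent.BAD.H21.H21_resO_1728_ne_zero hq A hA h5 hres.symm
    · exact Subtype.ext h) z
  rw [map_ofNat] at key
  exact key hz

/-- **RAM at a generic value** (`q ≥ 5`): every zero of `j~ - γ`, `γ ≠ 0, 1728`, is simple. -/
theorem ram_generic_eq (hq : q.Prime) (h5 : 5 ≤ q) (hqM : ¬ q ∣ M) (hA : A.LiesOverPrime q)
    (γ : kV A) (h0 : γ ≠ 0) (h1728 : γ ≠ 1728) (z : Place (kV A) ↥(H91.redM A M))
    (hz : 0 < z.ord (H91.jRed A M - algebraMap (kV A) ↥(H91.redM A M) γ)) :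
    z.ord (H91.jRed A M - algebraMap (kV A) ↥(H91.redM A M) γ) = 1 := by
  obtain ⟨ρ, rfl⟩ := (redSetting A (hasScale_laurentBaseChange A M)).resO_surj γ
  have hρ0 : (ρ : Kbar) ≠ 0 := by
    intro h
    apply h0
    have : ρ = 0 := Subtype.ext h
    rw [this, map_zero]
  have hρ1 : (ρ : Kbar) ≠ 1728 := by
    intro h
    apply h1728
    have : ρ = 1728 := Subtype.ext h
    rw [this, map_ofNat]
  refine ram_red_eq hq hqM (Or.inl h5) hA ρ 1
    (fun P hP => ram_char0_generic M (ρ : Kbar) hρ0 hρ1 P hP) ?_ z hz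
  intro ρ' hb hres
  exfalso
  rcases Fermat.Agent.RED.H76.isBranchValue_jF M hb with h | h
  · apply h0
    rw [← hres]
    have : ρ' = 0 := Subtype.ext h
    rw [this, map_zero]
  · apply h1728
    rw [← hres]
    have : ρ' = 1728 := Subtype.ext h
    rw [this, map_ofNat]

end Final

section Transport

variable {A : ValuationSubring Kbar} {M q : ℕ} [NeZero M]

/-- Transport: an element of `E = redM A M` with the series of `j` is `j~`. -/
theorem ram_transport (E : IntermediateField (kV A) (LaurentSeries (kV A)))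
    (hE : H91.redM A M = E) (jE : ↥E) (hj : (jE : LaurentSeries (kV A)) = jqModC (kV A))
    (γ : kV A) (e : ℤ)
    (h : ∀ z : Place (kV A) ↥(H91.redM A M),
      0 < z.ord (H91.jRed A M - algebraMap (kV A) ↥(H91.redM A M) γ) →
      e ≤ z.ord (H91.jRed A M - algebraMap (kV A) ↥(H91.redM A M) γ))
    (z : Place (kV A) ↥E) (hz : 0 < z.ord (jE - algebraMap (kV A) ↥E γ)) :
    e ≤ z.ord (jE - algebraMap (kV A) ↥E γ) := by
  subst hE
  have e1 : jE = H91.jRed A M := Subtype.ext (hj.trans (red_jF (A := A) (N := M)).symm)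
  rw [e1] at hz ⊢
  exact h z hz

theorem ram_transport_eq (E : IntermediateField (kV A) (LaurentSeries (kV A)))
    (hE : H91.redM A M = E) (jE : ↥E) (hj : (jE : LaurentSeries (kV A)) = jqModC (kV A))
    (γ : kV A) (e : ℤ)
    (h : ∀ z : Place (kV A) ↥(H91.redM A M),
      0 < z.ord (H91.jRed A M - algebraMap (kV A) ↥(H91.redM A M) γ) →
      z.ord (H91.jRed A M - algebraMap (kV A) ↥(H91.redM A M) γ) = e)
    (z : Place (kV A) ↥E) (hz : 0 < z.ord (jE - algebraMap (kV A) ↥E γ)) :
    z.ord (jE - algebraMap (kV A) ↥E γ) = e := by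
  subst hE
  have e1 : jE = H91.jRed A M := Subtype.ext (hj.trans (red_jF (A := A) (N := M)).symm)
  rw [e1] at hz ⊢
  exact h z hz

/-! ### The statements on `κ = modularFunctionFieldFullC (kV A) M` -/

/-- **RAM at `j = 0`, lower bound**, on `κ` (all tame `(M, q)`, `ν₃(M) = 0`). -/
theorem ram_full_zero_ge (hq : q.Prime) (hqM : ¬ q ∣ M) (ht : H91.TameAt M q)
    (hA : A.LiesOverPrime q) (h3 : nuThree M = 0)
    (jE : ↥(modularFunctionFieldFullC (kV A) M))
    (hj : (jE : LaurentSeries (kV A)) = jqModC (kV A))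
    (z : Place (kV A) ↥(modularFunctionFieldFullC (kV A) M)) (hz : 0 < z.ord jE) :
    3 ≤ z.ord jE := by
  have key := ram_transport (modularFunctionFieldFullC (kV A) M) (stmt_GA M q hq hqM A hA) jE hj
    0 3 (fun z hz => by
      rw [map_zero, sub_zero] at hz ⊢
      exact ram_zero_ge hq hqM ht hA h3 z hz) z
  rw [map_zero, sub_zero] at key
  exact key hz

/-- **RAM at `j = 1728`, lower bound**, on `κ` (all tame `(M, q)`, `ν₂(M) = 0`). -/
theorem ram_full_1728_ge (hq : q.Prime) (hqM : ¬ q ∣ M) (ht : H91.TameAt M q)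
    (hA : A.LiesOverPrime q) (h2 : nuTwo M = 0)
    (jE : ↥(modularFunctionFieldFullC (kV A) M))
    (hj : (jE : LaurentSeries (kV A)) = jqModC (kV A))
    (z : Place (kV A) ↥(modularFunctionFieldFullC (kV A) M))
    (hz : 0 < z.ord (jE - algebraMap (kV A) ↥(modularFunctionFieldFullC (kV A) M) 1728)) :
    2 ≤ z.ord (jE - algebraMap (kV A) ↥(modularFunctionFieldFullC (kV A) M) 1728) :=
  ram_transport (modularFunctionFieldFullC (kV A) M) (stmt_GA M q hq hqM A hA) jE hj
    1728 2 (fun z hz => ram_1728_ge hq hqM ht hA h2 z hz) z hz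

/-- **RAM at `j = 0`**, on `κ` (`q ≥ 5`, `ν₃(M) = 0`): every zero of `j~` has order `3`. -/
theorem ram_full_zero_eq (hq : q.Prime) (h5 : 5 ≤ q) (hqM : ¬ q ∣ M) (hA : A.LiesOverPrime q)
    (h3 : nuThree M = 0) (jE : ↥(modularFunctionFieldFullC (kV A) M))
    (hj : (jE : LaurentSeries (kV A)) = jqModC (kV A))
    (z : Place (kV A) ↥(modularFunctionFieldFullC (kV A) M)) (hz : 0 < z.ord jE) :
    z.ord jE = 3 := by
  have key := ram_transport_eq (modularFunctionFieldFullC (kV A) M) (stmt_GA M q hq hqM A hA)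
    jE hj 0 3 (fun z hz => by
      rw [map_zero, sub_zero] at hz ⊢
      exact ram_zero_eq hq h5 hqM hA h3 z hz) z
  rw [map_zero, sub_zero] at key
  exact key hz

/-- **RAM at `j = 1728`**, on `κ` (`q ≥ 5`, `ν₂(M) = 0`): every zero of `j~ - 1728` has order
`2`. -/
theorem ram_full_1728_eq (hq : q.Prime) (h5 : 5 ≤ q) (hqM : ¬ q ∣ M) (hA : A.LiesOverPrime q)
    (h2 : nuTwo M = 0) (jE : ↥(modularFunctionFieldFullC (kV A) M))
    (hj : (jE : LaurentSeries (kV A)) = jqModC (kV A))
    (z : Place (kV A) ↥(modularFunctionFieldFullC (kV A) M))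
    (hz : 0 < z.ord (jE - algebraMap (kV A) ↥(modularFunctionFieldFullC (kV A) M) 1728)) :
    z.ord (jE - algebraMap (kV A) ↥(modularFunctionFieldFullC (kV A) M) 1728) = 2 :=
  ram_transport_eq (modularFunctionFieldFullC (kV A) M) (stmt_GA M q hq hqM A hA) jE hj
    1728 2 (fun z hz => ram_1728_eq hq h5 hqM hA h2 z hz) z hz

/-- **RAM at a generic value**, on `κ` (`q ≥ 5`): every zero of `j~ - γ`, `γ ≠ 0, 1728`, is
simple. -/
theorem ram_full_generic_eq (hq : q.Prime) (h5 : 5 ≤ q) (hqM : ¬ q ∣ M)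
    (hA : A.LiesOverPrime q) (γ : kV A) (h0 : γ ≠ 0) (h1728 : γ ≠ 1728)
    (jE : ↥(modularFunctionFieldFullC (kV A) M))
    (hj : (jE : LaurentSeries (kV A)) = jqModC (kV A))
    (z : Place (kV A) ↥(modularFunctionFieldFullC (kV A) M))
    (hz : 0 < z.ord (jE - algebraMap (kV A) ↥(modularFunctionFieldFullC (kV A) M) γ)) :
    z.ord (jE - algebraMap (kV A) ↥(modularFunctionFieldFullC (kV A) M) γ) = 1 :=
  ram_transport_eq (modularFunctionFieldFullC (kV A) M) (stmt_GA M q hq hqM A hA) jE hj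
    γ 1 (fun z hz => ram_generic_eq hq h5 hqM hA γ h0 h1728 z hz) z hz

end Transport

end Fermat.Agent.S36.NU.H30

end
end
-- ==== END Fermat.Agent.S36.NU.H30_Ram

-- ==== BEGIN Fermat.Agent.S36.NU.H41_DvrUr
section

/-!
# S36 NU-B, leaf DVR-UR (helper41): the valuation ring of the inertia field is a DVR with
uniformiser `ℓ`

`A` a valuation subring of `ℚ̄` over the prime `ℓ`, `Kur A` the fixed field of the inertia group
`A.inertiaSubgroupIn ℚ`, `Rur A = A ∩ Kur A` (a valuation subring of `Kur A`).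

* `valuation_eq_zpow_of_fixed` : `x ≠ 0` fixed by inertia ⟹ `|x|_A = |ℓ|_A ^ k`, `k : ℤ`.
* `exists_unit_mul_pow` : every nonzero `x ∈ Rur A` is `u * ℓ ^ n` with `u` a unit of `Rur A`.
* `irreducible_natCast` : `ℓ` is irreducible in `Rur A`.
* `isDiscreteValuationRing_Rur` : `Rur A` is a discrete valuation ring.
* `maximalIdeal_Rur` : its maximal ideal is generated by `ℓ`.
-/

set_option autoImplicit false

open scoped NumberField

namespace Fermat.Agent.S36.NU.H41

open Fermat.Agent.Lib.Minkowski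

attribute [local instance] qbar_isAlgebraic qbar_isAlgClosure qbar_isGalois qbar_normal

/-- **DVR-UR, valuation form**: the valuation of a nonzero element of `ℚ̄` fixed by the inertia
group of `A` is an integral power of the valuation of `ℓ`. -/
theorem valuation_eq_zpow_of_fixed (A : ValuationSubring (AlgebraicClosure ℚ)) (ℓ : ℕ)
    (hℓ : ℓ.Prime) (hA : A.LiesOverPrime ℓ) (x : AlgebraicClosure ℚ)
    (hfix : ∀ σ ∈ A.inertiaSubgroupIn ℚ, σ x = x) (hx0 : x ≠ 0) :
    ∃ k : ℤ, A.valuation x = A.valuation (ℓ : AlgebraicClosure ℚ) ^ k := by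
  classical
  set S : Set (AlgebraicClosure ℚ) := (minpoly ℚ x).rootSet (AlgebraicClosure ℚ) with hS
  have hSfin : S.Finite := Polynomial.rootSet_finite _ _
  have hxint : IsIntegral ℚ x := Algebra.IsIntegral.isIntegral x
  have hxS : x ∈ S := by
    rw [hS, Polynomial.mem_rootSet]
    exact ⟨minpoly.ne_zero hxint, minpoly.aeval ℚ x⟩
  have hstab : ∀ σ : AlgebraicClosure ℚ ≃ₐ[ℚ] AlgebraicClosure ℚ, ∀ y ∈ S, σ y ∈ S := by
    intro σ y hy
    rw [hS, Polynomial.mem_rootSet] at hy ⊢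
    refine ⟨hy.1, ?_⟩
    rw [Polynomial.aeval_algEquiv, AlgHom.coe_comp, Function.comp_apply, hy.2]
    exact map_zero _
  let L : IntermediateField ℚ (AlgebraicClosure ℚ) := IntermediateField.adjoin ℚ S
  have hfin : FiniteDimensional ℚ L := by
    have : Finite S := hSfin
    exact IntermediateField.finiteDimensional_adjoin
      (fun x _ => Algebra.IsIntegral.isIntegral x)
  have hnorm' : @Normal ℚ L _ _ (IntermediateField.algebra' L) := by
    rw [IntermediateField.normal_iff_forall_map_le']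
    intro σ
    rw [IntermediateField.adjoin_map, IntermediateField.adjoin_le_iff]
    rintro _ ⟨y, hy, rfl⟩
    exact IntermediateField.subset_adjoin ℚ S (hstab σ y hy)
  have hnorm : Normal ℚ L := by
    convert hnorm'
    exact Subsingleton.elim _ _
  exact valuation_eq_zpow_of_mem L A ℓ hℓ hA x (IntermediateField.subset_adjoin ℚ S hxS)
    hfix hx0

/-- The inertia field of `A`. -/
noncomputable def Kur (A : ValuationSubring (AlgebraicClosure ℚ)) :
    IntermediateField ℚ (AlgebraicClosure ℚ) :=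
  IntermediateField.fixedField (A.inertiaSubgroupIn ℚ)

theorem mem_Kur {A : ValuationSubring (AlgebraicClosure ℚ)} {x : AlgebraicClosure ℚ} :
    x ∈ Kur A ↔ ∀ σ ∈ A.inertiaSubgroupIn ℚ, σ x = x := by
  rw [Kur, IntermediateField.mem_fixedField_iff]

/-- The valuation ring of the inertia field. -/
noncomputable def Rur (A : ValuationSubring (AlgebraicClosure ℚ)) : ValuationSubring (Kur A) :=
  A.comap (algebraMap (Kur A) (AlgebraicClosure ℚ))

theorem mem_Rur {A : ValuationSubring (AlgebraicClosure ℚ)} {y : Kur A} :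
    y ∈ Rur A ↔ A.valuation (y : AlgebraicClosure ℚ) ≤ 1 := by
  rw [Rur, ValuationSubring.mem_comap, ← A.valuation_le_one_iff]
  rfl

/-- Valuation of elements of the inertia field. -/
theorem valuation_eq_zpow_of_Kur (A : ValuationSubring (AlgebraicClosure ℚ)) (ℓ : ℕ)
    (hℓ : ℓ.Prime) (hA : A.LiesOverPrime ℓ) (y : Kur A) (hy0 : y ≠ 0) :
    ∃ k : ℤ, A.valuation (y : AlgebraicClosure ℚ) = A.valuation (ℓ : AlgebraicClosure ℚ) ^ k :=
  valuation_eq_zpow_of_fixed A ℓ hℓ hA y (mem_Kur.1 y.2)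
    (fun h => hy0 (Subtype.ext h))

theorem val_natCast_lt_one (A : ValuationSubring (AlgebraicClosure ℚ)) (ℓ : ℕ)
    (hA : A.LiesOverPrime ℓ) : A.valuation (ℓ : AlgebraicClosure ℚ) < 1 :=
  A.mem_nonunits_iff.mp hA

theorem val_natCast_ne_zero (A : ValuationSubring (AlgebraicClosure ℚ)) (ℓ : ℕ)
    (hℓ : ℓ.Prime) : A.valuation (ℓ : AlgebraicClosure ℚ) ≠ 0 :=
  (Valuation.ne_zero_iff _).mpr (by exact_mod_cast hℓ.ne_zero)

/-- Units of `Rur A`. -/
theorem isUnit_Rur_iff {A : ValuationSubring (AlgebraicClosure ℚ)} (y : Rur A) :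
    IsUnit y ↔ A.valuation (((y : Kur A)) : AlgebraicClosure ℚ) = 1 := by
  constructor
  · rintro ⟨u, rfl⟩
    have h1 : A.valuation ((((u : Rur A) : Kur A)) : AlgebraicClosure ℚ) ≤ 1 :=
      mem_Rur.1 (u : Rur A).2
    have h2 : A.valuation (((((u⁻¹ : (Rur A)ˣ) : Rur A) : Kur A)) : AlgebraicClosure ℚ) ≤ 1 :=
      mem_Rur.1 ((u⁻¹ : (Rur A)ˣ) : Rur A).2
    have h3 : ((((u : Rur A) : Kur A)) : AlgebraicClosure ℚ)
        * (((((u⁻¹ : (Rur A)ˣ) : Rur A) : Kur A)) : AlgebraicClosure ℚ) = 1 := by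
      have h := u.mul_inv
      exact congrArg (fun z : Rur A => (((z : Kur A)) : AlgebraicClosure ℚ)) h
    have h4 := congrArg A.valuation h3
    rw [map_mul, map_one] at h4
    refine le_antisymm h1 ?_
    by_contra hlt
    rw [not_le] at hlt
    have : A.valuation ((((u : Rur A) : Kur A)) : AlgebraicClosure ℚ)
        * A.valuation (((((u⁻¹ : (Rur A)ˣ) : Rur A) : Kur A)) : AlgebraicClosure ℚ) < 1 :=
      mul_lt_one_of_lt_of_le hlt h2
    rw [h4] at this
    exact lt_irrefl _ this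
  · intro h
    have hy0 : (y : Kur A) ≠ 0 := by
      intro h0
      rw [h0] at h
      simp at h
    have hinv : ((y : Kur A))⁻¹ ∈ Rur A := by
      rw [mem_Rur]
      push_cast
      rw [map_inv₀, h, inv_one]
    refine ⟨⟨y, ⟨_, hinv⟩, ?_, ?_⟩, rfl⟩
    · apply Subtype.ext
      show (y : Kur A) * ((y : Kur A))⁻¹ = 1
      exact mul_inv_cancel₀ hy0
    · apply Subtype.ext
      show ((y : Kur A))⁻¹ * (y : Kur A) = 1
      exact inv_mul_cancel₀ hy0

/-- Every nonzero element of `Rur A` is a unit times a power of `ℓ`. -/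
theorem exists_unit_mul_pow (A : ValuationSubring (AlgebraicClosure ℚ)) (ℓ : ℕ)
    (hℓ : ℓ.Prime) (hA : A.LiesOverPrime ℓ) (x : Rur A) (hx : x ≠ 0) :
    ∃ (n : ℕ) (u : (Rur A)ˣ), x = u * (ℓ : Rur A) ^ n := by
  have hx0 : (x : Kur A) ≠ 0 := fun h => hx (Subtype.ext h)
  obtain ⟨k, hk⟩ := valuation_eq_zpow_of_Kur A ℓ hℓ hA (x : Kur A) hx0
  have hlt := val_natCast_lt_one A ℓ hA
  have hne := val_natCast_ne_zero A ℓ hℓ
  have hxle : A.valuation (((x : Kur A)) : AlgebraicClosure ℚ) ≤ 1 := mem_Rur.1 x.2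
  have hk0 : 0 ≤ k := by
    by_contra hneg
    rw [not_le] at hneg
    have h1 : 1 < A.valuation (ℓ : AlgebraicClosure ℚ) ^ k := by
      obtain ⟨m, rfl⟩ : ∃ m : ℕ, k = -((m : ℤ) + 1) := ⟨(-k - 1).toNat, by omega⟩
      rw [zpow_neg, ← Nat.cast_succ, zpow_natCast]
      rw [one_lt_inv₀ (pow_pos (zero_lt_iff.mpr hne) _)]
      exact pow_lt_one₀ zero_le hlt (Nat.succ_ne_zero m)
    rw [← hk] at h1
    exact absurd hxle (not_le.mpr h1)
  obtain ⟨n, rfl⟩ := Int.eq_ofNat_of_zero_le hk0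
  rw [zpow_natCast] at hk
  have hℓK : ((ℓ : Kur A)) ≠ 0 := by exact_mod_cast hℓ.ne_zero
  set u₀ : Kur A := (x : Kur A) * ((ℓ : Kur A) ^ n)⁻¹ with hu₀
  have hu₀v : A.valuation ((u₀ : Kur A) : AlgebraicClosure ℚ) = 1 := by
    rw [hu₀]
    push_cast
    rw [map_mul, map_inv₀, map_pow, hk]
    exact mul_inv_cancel₀ (pow_ne_zero _ hne)
  have hu₀R : u₀ ∈ Rur A := mem_Rur.2 hu₀v.le
  have hunit : IsUnit (⟨u₀, hu₀R⟩ : Rur A) := (isUnit_Rur_iff _).2 hu₀v
  refine ⟨n, hunit.unit, ?_⟩
  apply Subtype.ext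
  show (x : Kur A) = u₀ * (ℓ : Kur A) ^ n
  rw [hu₀, mul_assoc, inv_mul_cancel₀ (pow_ne_zero _ hℓK), mul_one]

/-- `ℓ` is irreducible in `Rur A`. -/
theorem irreducible_natCast (A : ValuationSubring (AlgebraicClosure ℚ)) (ℓ : ℕ)
    (hℓ : ℓ.Prime) (hA : A.LiesOverPrime ℓ) : Irreducible (ℓ : Rur A) := by
  have hlt := val_natCast_lt_one A ℓ hA
  have hne := val_natCast_ne_zero A ℓ hℓ
  have hℓR : ((ℓ : Rur A)) ≠ 0 := by exact_mod_cast hℓ.ne_zero
  have hval : A.valuation ((((ℓ : Rur A) : Kur A)) : AlgebraicClosure ℚ)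
      = A.valuation (ℓ : AlgebraicClosure ℚ) := by
    push_cast
    rfl
  refine ⟨?_, ?_⟩
  · rw [isUnit_Rur_iff, hval]
    exact hlt.ne
  · intro a b hab
    have ha0 : a ≠ 0 := by
      rintro rfl
      rw [zero_mul] at hab
      exact hℓR hab
    have hb0 : b ≠ 0 := by
      rintro rfl
      rw [mul_zero] at hab
      exact hℓR hab
    obtain ⟨i, u, rfl⟩ := exists_unit_mul_pow A ℓ hℓ hA a ha0
    obtain ⟨j, w, rfl⟩ := exists_unit_mul_pow A ℓ hℓ hA b hb0
    have h1 : A.valuation ((((ℓ : Rur A) : Kur A)) : AlgebraicClosure ℚ)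
        = A.valuation (((((u : Rur A) * (ℓ : Rur A) ^ i * ((w : Rur A) * (ℓ : Rur A) ^ j)
            : Rur A) : Kur A)) : AlgebraicClosure ℚ) :=
      congrArg (fun z : Rur A => A.valuation (((z : Kur A)) : AlgebraicClosure ℚ)) hab
    have hu : A.valuation ((((u : Rur A) : Kur A)) : AlgebraicClosure ℚ) = 1 :=
      (isUnit_Rur_iff _).1 u.isUnit
    have hw : A.valuation ((((w : Rur A) : Kur A)) : AlgebraicClosure ℚ) = 1 :=
      (isUnit_Rur_iff _).1 w.isUnit
    have h2 : (((((u : Rur A) * (ℓ : Rur A) ^ i * ((w : Rur A) * (ℓ : Rur A) ^ j)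
            : Rur A) : Kur A)) : AlgebraicClosure ℚ)
        = ((((u : Rur A) : Kur A)) : AlgebraicClosure ℚ) * (ℓ : AlgebraicClosure ℚ) ^ i
          * (((((w : Rur A) : Kur A)) : AlgebraicClosure ℚ) * (ℓ : AlgebraicClosure ℚ) ^ j) := by
      push_cast
      rfl
    rw [hval, h2, map_mul, map_mul, map_mul, map_pow, map_pow, hu, hw, one_mul, one_mul,
      ← pow_add] at h1
    have hpos : 0 < A.valuation (ℓ : AlgebraicClosure ℚ) := zero_lt_iff.mpr hne
    have hij : i + j = 1 := by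
      rcases Nat.lt_trichotomy (i + j) 1 with h | h | h
      · have h0 : i + j = 0 := by omega
        rw [h0, pow_zero] at h1
        exact absurd h1 hlt.ne
      · exact h
      · exfalso
        have h3 : A.valuation (ℓ : AlgebraicClosure ℚ) ^ (i + j)
            < A.valuation (ℓ : AlgebraicClosure ℚ) ^ 1 :=
          pow_lt_pow_right_of_lt_one₀ hpos hlt h
        rw [pow_one, ← h1] at h3
        exact lt_irrefl _ h3
    rcases Nat.eq_zero_or_pos i with hi | hi
    · left
      rw [hi, pow_zero, mul_one]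
      exact u.isUnit
    · right
      have hj : j = 0 := by omega
      rw [hj, pow_zero, mul_one]
      exact w.isUnit

/-- `Rur A` has the unit-times-power-of-`ℓ` factorisation property. -/
theorem hasUnitMulPow_Rur (A : ValuationSubring (AlgebraicClosure ℚ)) (ℓ : ℕ)
    (hℓ : ℓ.Prime) (hA : A.LiesOverPrime ℓ) :
    IsDiscreteValuationRing.HasUnitMulPowIrreducibleFactorization (Rur A) := by
  refine ⟨(ℓ : Rur A), irreducible_natCast A ℓ hℓ hA, ?_⟩
  intro x hx
  obtain ⟨n, u, rfl⟩ := exists_unit_mul_pow A ℓ hℓ hA x hx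
  refine ⟨n, ?_⟩
  rw [mul_comm]
  exact ⟨u, rfl⟩

/-- **DVR-UR**: the valuation ring of the inertia field is a discrete valuation ring. -/
theorem isDiscreteValuationRing_Rur (A : ValuationSubring (AlgebraicClosure ℚ)) (ℓ : ℕ)
    (hℓ : ℓ.Prime) (hA : A.LiesOverPrime ℓ) : IsDiscreteValuationRing (Rur A) :=
  IsDiscreteValuationRing.ofHasUnitMulPowIrreducibleFactorization (hasUnitMulPow_Rur A ℓ hℓ hA)

/-- **DVR-UR**: the maximal ideal of the valuation ring of the inertia field is generated by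
`ℓ`. -/
theorem maximalIdeal_Rur (A : ValuationSubring (AlgebraicClosure ℚ)) (ℓ : ℕ)
    (hℓ : ℓ.Prime) (hA : A.LiesOverPrime ℓ) :
    IsLocalRing.maximalIdeal (Rur A) = Ideal.span {(ℓ : Rur A)} := by
  have := isDiscreteValuationRing_Rur A ℓ hℓ hA
  exact (IsDiscreteValuationRing.irreducible_iff_uniformizer _).1 (irreducible_natCast A ℓ hℓ hA)

end Fermat.Agent.S36.NU.H41

namespace Fermat.Agent.S36.NU.H41

/-- Membership in the maximal ideal of `Rur A`. -/
theorem mem_maximalIdeal_Rur {A : ValuationSubring (AlgebraicClosure ℚ)} (y : Rur A) :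
    y ∈ IsLocalRing.maximalIdeal (Rur A) ↔
      A.valuation (((y : Kur A)) : AlgebraicClosure ℚ) < 1 := by
  rw [IsLocalRing.mem_maximalIdeal, mem_nonunits_iff, isUnit_Rur_iff]
  have hle : A.valuation (((y : Kur A)) : AlgebraicClosure ℚ) ≤ 1 := mem_Rur.1 y.2
  exact ⟨fun h => lt_of_le_of_ne hle h, fun h => h.ne⟩

/-- An element of the inertia field is `ℓ ^ k` times a unit of `Rur A`. -/
theorem exists_unit_mul_zpow (A : ValuationSubring (AlgebraicClosure ℚ)) (ℓ : ℕ)
    (hℓ : ℓ.Prime) (hA : A.LiesOverPrime ℓ) (y : Kur A) (hy0 : y ≠ 0) :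
    ∃ (k : ℤ) (u : (Rur A)ˣ), y = ((u : Rur A) : Kur A) * (ℓ : Kur A) ^ k := by
  obtain ⟨k, hk⟩ := valuation_eq_zpow_of_Kur A ℓ hℓ hA y hy0
  have hne := val_natCast_ne_zero A ℓ hℓ
  have hℓK : ((ℓ : Kur A)) ≠ 0 := by exact_mod_cast hℓ.ne_zero
  set u₀ : Kur A := y * ((ℓ : Kur A) ^ k)⁻¹ with hu₀
  have hcoe : ((((ℓ : Kur A) ^ k : Kur A)) : AlgebraicClosure ℚ)
      = (ℓ : AlgebraicClosure ℚ) ^ k := by
    have h := map_zpow₀ (algebraMap (Kur A) (AlgebraicClosure ℚ)) (ℓ : Kur A) k
    rw [map_natCast] at h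
    exact h
  have hu₀v : A.valuation ((u₀ : Kur A) : AlgebraicClosure ℚ) = 1 := by
    rw [hu₀]
    push_cast
    rw [map_mul, map_inv₀, hcoe, map_zpow₀, hk]
    exact mul_inv_cancel₀ (zpow_ne_zero _ hne)
  have hu₀R : u₀ ∈ Rur A := mem_Rur.2 hu₀v.le
  have hunit : IsUnit (⟨u₀, hu₀R⟩ : Rur A) := (isUnit_Rur_iff _).2 hu₀v
  refine ⟨k, hunit.unit, ?_⟩
  show y = u₀ * (ℓ : Kur A) ^ k
  rw [hu₀, mul_assoc, inv_mul_cancel₀ (zpow_ne_zero _ hℓK), mul_one]

end Fermat.Agent.S36.NU.H41

end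
-- ==== END Fermat.Agent.S36.NU.H41_DvrUr

-- ==== BEGIN Fermat.Agent.S36.NU.H44_NormBCNU
section
attribute [local instance 10000] SubalgebraClass.toAlgebra
attribute [local instance 10000] HahnSeries.powerSeriesAlgebra

/-!
# S36, NU-B, leaf NORM-BC-NU (helper44), part 2: base change of the norms along `α`, `β`
from level `M` to level `r M`, for a prime `q ∣ M`, `q ∤ r`

The squares `F_M → F_{Mq}` (`α` or `β`), `F_{rM} → F_{rMq}`:

* `finrank_alpha_dvd` : `[F_{Mq} : α F_M] = q` for `q ∣ M`;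
* `adjoin_alpha_up_dvd` : `F_{rMq} = F_{rM} (j (q ^ (M q)))` (prime degree and
  `jdF_not_mem_range_incl`);
* `norm_alpha_up_dvd`, `norm_beta_up_dvd` : the base change of the norms
  (same shape as `S35.H44.norm_alpha_up`, `norm_beta_up`, which need `q ∤ M`);
* `norm_alpha_up_all`, `norm_beta_up_all` : the same for every `M` (`q` prime, `q ∤ r`).
-/

set_option autoImplicit false
set_option linter.style.haveILetI false
set_option linter.unusedSectionVars false

noncomputable section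

namespace Fermat.Agent.S36.NU.H44

open AlgebraicCurve ModularCurve Fermat.Agent.S24 Fermat.Agent.Lib.HeckeComm
  Fermat.Agent.S36.H44 Fermat.Agent.S35.H44

local notation "Kb" => AlgebraicClosure ℚ

section Square

variable (M q r : ℕ) [NeZero M] [NeZero q] [NeZero r]

/-- `[F_{Mq} : F_M] = q` for a prime `q ∣ M`. -/
theorem finrank_alpha_dvd (hq : q.Prime) (hqM : q ∣ M) :
    finrankHom (heckeAlphaBar Kb M q).toRingHom = q := by
  have h := stmt_Deg M (M * q) (dvd_mul_right M q)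
  unfold Stmt_Deg at h
  rw [Fermat.Agent.S36.NU.H82.dedekindPsi_mul_of_dvd hq (NeZero.ne M) hqM] at h
  exact Nat.eq_of_mul_eq_mul_right (dedekindPsi_pos_h2 M) h

/-- The degree of `F_{rM} / F_M` is the degree of `F_{rMq} / F_{Mq}` for a prime `q ∣ M`. -/
theorem finrank_inclUp_dvd (hq : q.Prime) (hqM : q ∣ M) :
    finrankHom (inclUp M q r).toRingHom = finrankHom (inclLo M r).toRingHom := by
  have h1 := stmt_Deg M (r * M) (dvd_lo M r)
  have h2 := stmt_Deg (M * q) (r * M * q) (dvd_up M q r)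
  unfold Stmt_Deg at h1 h2
  rw [Fermat.Agent.S36.NU.H82.dedekindPsi_mul_of_dvd hq (NeZero.ne M) hqM,
    Fermat.Agent.S36.NU.H82.dedekindPsi_mul_of_dvd hq (NeZero.ne (r * M))
      (dvd_mul_of_dvd_right hqM r), ← h1] at h2
  have hq0 : 0 < q * dedekindPsi M := Nat.mul_pos hq.pos (dedekindPsi_pos_h2 M)
  have h3 : finrankHom (inclUp M q r).toRingHom * (q * dedekindPsi M)
      = finrankHom (inclLo M r).toRingHom * (q * dedekindPsi M) := by
    rw [show finrankHom (inclLo M r).toRingHom * (q * dedekindPsi M)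
      = q * (finrankHom (inclLo M r).toRingHom * dedekindPsi M) by ring]
    exact h2
  exact Nat.eq_of_mul_eq_mul_right hq0 h3

theorem finrank_inclLo_ne_zero : finrankHom (inclLo M r).toRingHom ≠ 0 :=
  (finrank_FN_pos M (r * M) (dvd_lo M r)).ne'

/-- `F_{rMq}` is generated over `F_{rM}` by `j (q ^ (M q))`, for a prime `q ∣ M`, `q ∤ r`. -/
theorem adjoin_alpha_up_dvd (hq : q.Prime) (hqM : q ∣ M) (hqr : ¬ q ∣ r) :
    letI := (heckeAlphaBar Kb (r * M) q).toRingHom.toAlgebra
    IntermediateField.adjoin (FN (r * M)) {jdF (r * M * q) (M * q) (dvd_up M q r)} = ⊤ := by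
  letI := (heckeAlphaBar Kb (r * M) q).toRingHom.toAlgebra
  have hdeg : Module.finrank (FN (r * M)) (FN (r * M * q)) = q :=
    finrank_alpha_dvd (r * M) q hq (dvd_mul_of_dvd_right hqM r)
  haveI : IsSimpleOrder (IntermediateField (FN (r * M)) (FN (r * M * q))) :=
    IntermediateField.isSimpleOrder_of_finrank_prime _ _ (by rw [hdeg]; exact hq)
  rcases eq_bot_or_eq_top (IntermediateField.adjoin (FN (r * M))
    {jdF (r * M * q) (M * q) (dvd_up M q r)}) with h | h
  · exfalso
    have hmem : jdF (r * M * q) (M * q) (dvd_up M q r)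
        ∈ (⊥ : IntermediateField (FN (r * M)) (FN (r * M * q))) :=
      h ▸ IntermediateField.mem_adjoin_simple_self _ _
    rw [IntermediateField.mem_bot] at hmem
    obtain ⟨y, hy⟩ := hmem
    refine jdF_not_mem_range_incl (r * M * q) (r * M) (M * q) (dvd_mul_right (r * M) q)
      (dvd_up M q r) ?_ y hy
    intro hd
    apply hqr
    have hd' : M * q ∣ M * r := by rwa [mul_comm M r]
    exact Nat.dvd_of_mul_dvd_mul_left (Nat.pos_of_ne_zero (NeZero.ne M)) hd'
  · exact h

/-- Base change of the norm along `α` from level `M` to level `r M`, `q ∣ M`. -/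
theorem norm_alpha_up_dvd (hq : q.Prime) (hqM : q ∣ M) (hqr : ¬ q ∣ r) (x : FN (M * q)) :
    inclLo M r (normAlongHom (heckeAlphaBar Kb M q).toRingHom x)
      = normAlongHom (heckeAlphaBar Kb (r * M) q).toRingHom (inclUp M q r x) := by
  refine normAlongHom_baseChange (heckeAlphaBar Kb M q).toRingHom
    (heckeAlphaBar Kb (r * M) q).toRingHom (inclLo M r).toRingHom (inclUp M q r).toRingHom
    ?_ (alpha_finite M q) (alpha_finite (r * M) q) (jdF (M * q) (M * q) dvd_rfl)
    (stmt_GenJ M (M * q) (dvd_mul_right M q)) ?_ ?_ x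
  · intro a
    apply Subtype.ext
    simp only [AlgHom.toRingHom_eq_coe, RingHom.coe_coe, coe_heckeAlphaBar, coe_inclUp,
      coe_inclLo]
  · have e : (inclUp M q r).toRingHom (jdF (M * q) (M * q) dvd_rfl)
        = jdF (r * M * q) (M * q) (dvd_up M q r) :=
      inclFN_jdF _ _ _ _ _
    rw [e]
    exact adjoin_alpha_up_dvd M q r hq hqM hqr
  · exact (finrank_alpha_dvd M q hq hqM).trans
      (finrank_alpha_dvd (r * M) q hq (dvd_mul_of_dvd_right hqM r)).symm

theorem beta_up_square :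
    (inclUp M q r).toRingHom.comp (heckeBetaBar Kb M q).toRingHom
      = (heckeBetaBar Kb (r * M) q).toRingHom.comp (inclLo M r).toRingHom := by
  ext a
  simp only [RingHom.comp_apply, AlgHom.toRingHom_eq_coe, RingHom.coe_coe, coe_heckeBetaBar,
    coe_inclUp, coe_inclLo]

/-- Base change of the norm along `β` from level `M` to level `r M`, `q ∣ M`. -/
theorem norm_beta_up_dvd (hq : q.Prime) (hqM : q ∣ M) (_hqr : ¬ q ∣ r) (x : FN (M * q)) :
    inclLo M r (normAlongHom (heckeBetaBar Kb M q).toRingHom x)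
      = normAlongHom (heckeBetaBar Kb (r * M) q).toRingHom (inclUp M q r x) := by
  refine normAlongHom_baseChange (heckeBetaBar Kb M q).toRingHom
    (heckeBetaBar Kb (r * M) q).toRingHom (inclLo M r).toRingHom (inclUp M q r).toRingHom
    ?_ (beta_finite M q) (beta_finite (r * M) q) (jF (M * q))
    (adjoin_beta_jF M q) ?_ ?_ x
  · intro a
    apply Subtype.ext
    simp only [AlgHom.toRingHom_eq_coe, RingHom.coe_coe, coe_heckeBetaBar, coe_inclUp,
      coe_inclLo]
  · have e : (inclUp M q r).toRingHom (jF (M * q)) = jF (r * M * q) :=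
      inclFN_jF _ _ _
    rw [e]
    exact adjoin_beta_jF (r * M) q
  · exact finrank_eq_of_square (heckeBetaBar Kb M q).toRingHom (inclLo M r).toRingHom
      (inclUp M q r).toRingHom (heckeBetaBar Kb (r * M) q).toRingHom (beta_up_square M q r)
      (finrankHom (inclLo M r).toRingHom) (finrank_inclLo_ne_zero M r) rfl
      (finrank_inclUp_dvd M q r hq hqM)

/-- Base change of the norm along `α` from level `M` to level `r M`: every `M`. -/
theorem norm_alpha_up_all (hq : q.Prime) (hqr : ¬ q ∣ r) (x : FN (M * q)) :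
    inclLo M r (normAlongHom (heckeAlphaBar Kb M q).toRingHom x)
      = normAlongHom (heckeAlphaBar Kb (r * M) q).toRingHom (inclUp M q r x) := by
  by_cases hqM : q ∣ M
  · exact norm_alpha_up_dvd M q r hq hqM hqr x
  · exact norm_alpha_up M q r hq hqM hqr x

/-- Base change of the norm along `β` from level `M` to level `r M`: every `M`. -/
theorem norm_beta_up_all (hq : q.Prime) (hqr : ¬ q ∣ r) (x : FN (M * q)) :
    inclLo M r (normAlongHom (heckeBetaBar Kb M q).toRingHom x)
      = normAlongHom (heckeBetaBar Kb (r * M) q).toRingHom (inclUp M q r x) := by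
  by_cases hqM : q ∣ M
  · exact norm_beta_up_dvd M q r hq hqM hqr x
  · exact norm_beta_up M q r hq hqM hqr x

end Square

end Fermat.Agent.S36.NU.H44

end
end
-- ==== END Fermat.Agent.S36.NU.H44_NormBCNU
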