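-- GENERATED (merged mirror, NOTES/tools/trim/merge3_helper67.py): 5 modules of the originals, bodies verbatim.
import Fermat.Prelude.Sol.S_UpperHalfPlane_qCoeff_heckeT
import Fermat.Prelude.Thm_CuspFormClass_isZeroAt_heckeT
import Fermat.Prelude.Thm_CuspFormClass_isZeroAt_heckeU
import Mathlib
import Fermat.Prelude.Thm_UpperHalfPlane_qCoeff_heckeT
import Fermat.Prelude.Thm_UpperHalfPlane_qCoeff_heckeU
import Fermat.Prelude.Thm_ModularForm_mdifferentiable_heckeT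
import Fermat.Prelude.Thm_ModularForm_mdifferentiable_heckeU
import Fermat.Prelude.Thm_ModularForm_isBoundedAtImInfty_heckeT
import Fermat.Prelude.Thm_ModularForm_isBoundedAtImInfty_heckeU
import Fermat.Prelude.Thm_ModularForm_periodic_heckeT_comp_ofComplex
import Fermat.Prelude.Thm_ModularForm_periodic_heckeU_comp_ofComplex
import Fermat.Prelude.Thm_ModularForm_sturm_bound_Gamma0
import Fermat.Agent.Zm.S48_L03_001
import Fermat.Agent.S48.B1.H31_NoOld
import Fermat.Agent.Zm.S48_L03_002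

-- ==== BEGIN Fermat.Agent.S48.B1.H19_HeckeNeb
section

/-!
# S48, mountain B1, leaf HeckeNeb (helper19)

The Hecke operator `T_p`, `p ∤ M`, on cusp forms of weight `k` on `Γ₁(M)` with nebentypus `χ`:
`T_p g = heckeU k p g + χ(p) • g ∣[k] heckeDiagMatrix p`.

* `hm_mul_of_eq`, `hm_mul_of_eq'`, `hd_mul_of_eq`, `hd_mul_of_eq'` : the four commutation rules
  `a_x * g = g' * a_{x'}` with BOTH lower entries of `g'`;
* `rep_mul_chi` : for `g ∈ Γ₀(M)` and `x ∈ ℙ¹(𝔽_p)`: `a_x * g = g' * a_{g x}`, `g' ∈ Γ₀(M)`,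
  `w(x) χ(d_{g'}) = χ(d_g) w(g x)`  (`w(∞) = χ(p)`, `w(j) = 1`);
* `TChi_slash` : `T_p g ∣[k] γ = χ(d_γ) • T_p g` for `γ ∈ Γ₀(M)`;
* `stmt_HeckeNeb : Stmt_HeckeNeb`.
-/

set_option autoImplicit false
set_option linter.unusedSectionVars false

noncomputable section

open Matrix.SpecialLinearGroup UpperHalfPlane ModularForm CongruenceSubgroup
open scoped MatrixGroups ModularForm OnePoint Manifold

namespace Fermat.Agent.S48.B1.H19

open Fermat.Agent.S48.Int (HasNeb)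

@[local simp] theorem mapGL_apply' (g : SL(2, ℤ)) (i j : Fin 2) :
    (mapGL ℝ g : GL (Fin 2) ℝ) i j = ((g i j : ℤ) : ℝ) := by
  simp

theorem det_eq (g : SL(2, ℤ)) : g 0 0 * g 1 1 - g 0 1 * g 1 0 = 1 := by
  have h := g.det_coe
  rwa [Matrix.det_fin_two] at h

section commutation

variable {p : ℕ} (hp : p ≠ 0)
include hp

theorem hm_mul_of_eq (g : SL(2, ℤ)) (j j' : ℕ) (e : ℤ)
    (he : g 0 1 + j * g 1 1 = j' * (g 0 0 + j * g 1 0) + p * e) :
    ∃ g' : SL(2, ℤ), g' 1 0 = p * g 1 0 ∧ g' 1 1 = g 1 1 - g 1 0 * j' ∧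
      heckeMatrix p j * mapGL ℝ g = mapGL ℝ g' * heckeMatrix p j' := by
  have hdet := det_eq g
  refine ⟨⟨!![g 0 0 + j * g 1 0, e; p * g 1 0, g 1 1 - g 1 0 * j'], ?_⟩, rfl, rfl, ?_⟩
  · rw [Matrix.det_fin_two_of]
    linear_combination hdet + (g 1 0) * he
  · ext i j
    fin_cases i <;> fin_cases j <;>
      simp [hp, Matrix.mul_apply, Fin.sum_univ_two]
    all_goals first
      | (have := congrArg (Int.cast : ℤ → ℝ) he; push_cast at this ⊢; linear_combination this)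
      | (have := congrArg (Int.cast : ℤ → ℝ) he; push_cast at this ⊢; linear_combination -this)
      | ring1

theorem hm_mul_of_eq' (g : SL(2, ℤ)) (j : ℕ) (e : ℤ)
    (he : g 0 0 + j * g 1 0 = p * e) :
    ∃ g' : SL(2, ℤ), g' 1 0 = g 1 0 ∧ g' 1 1 = p * g 1 1 ∧
      heckeMatrix p j * mapGL ℝ g = mapGL ℝ g' * heckeDiagMatrix p := by
  have hdet := det_eq g
  refine ⟨⟨!![e, g 0 1 + j * g 1 1; g 1 0, p * g 1 1], ?_⟩, rfl, rfl, ?_⟩
  · rw [Matrix.det_fin_two_of]
    linear_combination hdet - (g 1 1) * he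
  · ext i j
    fin_cases i <;> fin_cases j <;>
      simp [hp, Matrix.mul_apply, Fin.sum_univ_two]
    all_goals first
      | (have := congrArg (Int.cast : ℤ → ℝ) he; push_cast at this ⊢; linear_combination this)
      | (have := congrArg (Int.cast : ℤ → ℝ) he; push_cast at this ⊢; linear_combination -this)
      | ring1

theorem hd_mul_of_eq (g : SL(2, ℤ)) (j' : ℕ) (e : ℤ)
    (he : g 1 1 = g 1 0 * j' + p * e) :
    ∃ g' : SL(2, ℤ), g' 1 0 = g 1 0 ∧ g' 1 1 = e ∧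
      heckeDiagMatrix p * mapGL ℝ g = mapGL ℝ g' * heckeMatrix p j' := by
  have hdet := det_eq g
  refine ⟨⟨!![p * g 0 0, g 0 1 - g 0 0 * j'; g 1 0, e], ?_⟩, rfl, rfl, ?_⟩
  · rw [Matrix.det_fin_two_of]
    linear_combination hdet - (g 0 0) * he
  · ext i j
    fin_cases i <;> fin_cases j <;>
      simp [hp, Matrix.mul_apply, Fin.sum_univ_two]
    all_goals first
      | (have := congrArg (Int.cast : ℤ → ℝ) he; push_cast at this ⊢; linear_combination this)
      | (have := congrArg (Int.cast : ℤ → ℝ) he; push_cast at this ⊢; linear_combination -this)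
      | ring1

theorem hd_mul_of_eq' (g : SL(2, ℤ)) (e : ℤ) (he : g 1 0 = p * e) :
    ∃ g' : SL(2, ℤ), g' 1 0 = e ∧ g' 1 1 = g 1 1 ∧
      heckeDiagMatrix p * mapGL ℝ g = mapGL ℝ g' * heckeDiagMatrix p := by
  have hdet := det_eq g
  refine ⟨⟨!![g 0 0, p * g 0 1; e, g 1 1], ?_⟩, rfl, rfl, ?_⟩
  · rw [Matrix.det_fin_two_of]
    linear_combination hdet + (g 0 1) * he
  · ext i j
    fin_cases i <;> fin_cases j <;>
      simp [hp, Matrix.mul_apply, Fin.sum_univ_two]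
    all_goals first
      | (have := congrArg (Int.cast : ℤ → ℝ) he; push_cast at this ⊢; linear_combination this)
      | (have := congrArg (Int.cast : ℤ → ℝ) he; push_cast at this ⊢; linear_combination -this)
      | ring1

end commutation

section reindex

variable {p : ℕ} [NeZero p]

theorem sum_range_eq_sum_zmod' {M : Type*} [AddCommMonoid M] (F : ℕ → M) :
    ∑ j ∈ Finset.range p, F j = ∑ x : ZMod p, F x.val := by
  refine Finset.sum_nbij' (fun j : ℕ ↦ (j : ZMod p)) (fun x : ZMod p ↦ x.val)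
    (fun _ _ ↦ Finset.mem_univ _)
    (fun x _ ↦ Finset.mem_range.mpr x.val_lt) (fun j hj ↦ ?_) (fun x _ ↦ ?_) (fun j hj ↦ ?_)
  · exact ZMod.val_cast_of_lt (Finset.mem_range.mp hj)
  · exact ZMod.natCast_zmod_val x
  · rw [ZMod.val_cast_of_lt (Finset.mem_range.mp hj)]

end reindex

section rep

variable {p : ℕ}

/-- The representatives `a_x`, `x ∈ ℙ¹(𝔽_p)`. -/
def rep (p : ℕ) (x : OnePoint (ZMod p)) : GL (Fin 2) ℝ :=
  x.elim (heckeDiagMatrix p) (fun j ↦ heckeMatrix p j.val)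

theorem rep_infty : rep p ∞ = heckeDiagMatrix p := rfl

theorem rep_coe (j : ZMod p) : rep p j = heckeMatrix p j.val := rfl

/-- The weights: `c` at `∞`, `1` at the finite points. -/
def wt (c : ℂ) (x : OnePoint (ZMod p)) : ℂ :=
  x.elim c (fun _ ↦ 1)

theorem wt_infty (c : ℂ) : wt (p := p) c ∞ = c := rfl

theorem wt_coe (c : ℂ) (j : ZMod p) : wt c (j : OnePoint (ZMod p)) = 1 := rfl

/-- The twisted Hecke operator as a function. -/
def TChi (k : ℤ) (p : ℕ) (c : ℂ) (f : ℍ → ℂ) : ℍ → ℂ :=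
  heckeU k p f + c • (f ∣[k] heckeDiagMatrix p)

theorem TChi_eq_sum [NeZero p] (k : ℤ) (c : ℂ) (f : ℍ → ℂ) :
    TChi k p c f = ∑ x : OnePoint (ZMod p), wt c x • (f ∣[k] rep p x) := by
  have h := Fintype.sum_option (fun x : OnePoint (ZMod p) ↦ wt c x • (f ∣[k] rep p x))
  refine Eq.trans ?_ h.symm
  rw [TChi, heckeU_def, sum_range_eq_sum_zmod', add_comm]
  congr 1
  refine Finset.sum_congr rfl fun x _ ↦ ?_
  change f ∣[k] heckeMatrix p x.val = (1 : ℂ) • (f ∣[k] heckeMatrix p x.val)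
  rw [one_smul]

end rep

section red

variable {p : ℕ} [Fact p.Prime]

/-- The matrix `[[d, b], [c, a]]` mod `p` of `g = [[a, b], [c, d]]`. -/
def redM (p : ℕ) [Fact p.Prime] (g : SL(2, ℤ)) : GL (Fin 2) (ZMod p) :=
  Matrix.GeneralLinearGroup.mkOfDetNeZero
    !![((g 1 1 : ℤ) : ZMod p), ((g 0 1 : ℤ) : ZMod p);
      ((g 1 0 : ℤ) : ZMod p), ((g 0 0 : ℤ) : ZMod p)]
    (by
      have := congrArg (Int.cast : ℤ → ZMod p) (det_eq g)
      push_cast at this
      rw [Matrix.det_fin_two_of,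
        show ((g 1 1 : ℤ) : ZMod p) * ((g 0 0 : ℤ) : ZMod p) -
            ((g 0 1 : ℤ) : ZMod p) * ((g 1 0 : ℤ) : ZMod p) = 1 by linear_combination this]
      exact one_ne_zero)

theorem redM_00 (g : SL(2, ℤ)) : redM p g 0 0 = ((g 1 1 : ℤ) : ZMod p) := by
  simp [redM]

theorem redM_01 (g : SL(2, ℤ)) : redM p g 0 1 = ((g 0 1 : ℤ) : ZMod p) := by
  simp [redM]

theorem redM_10 (g : SL(2, ℤ)) : redM p g 1 0 = ((g 1 0 : ℤ) : ZMod p) := by
  simp [redM]

theorem redM_11 (g : SL(2, ℤ)) : redM p g 1 1 = ((g 0 0 : ℤ) : ZMod p) := by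
  simp [redM]

end red

section repmul

variable {p : ℕ} [Fact p.Prime]

theorem rep_mul_chi {M : ℕ} (χ : DirichletCharacter ℂ M) (hpM : ¬ p ∣ M) (g : SL(2, ℤ))
    (hg : (M : ℤ) ∣ g 1 0) (x : OnePoint (ZMod p)) :
    ∃ g' : SL(2, ℤ), (M : ℤ) ∣ g' 1 0 ∧
      rep p x * mapGL ℝ g = mapGL ℝ g' * rep p (redM p g • x) ∧
      wt (χ (p : ZMod M)) x * χ (((g' 1 1 : ℤ)) : ZMod M) =
        χ (((g 1 1 : ℤ)) : ZMod M) * wt (χ (p : ZMod M)) (redM p g • x) := by
  have hp : p ≠ 0 := (Fact.out : p.Prime).ne_zero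
  have : NeZero p := ⟨hp⟩
  have hc0 : (((g 1 0 : ℤ)) : ZMod M) = 0 := (ZMod.intCast_zmod_eq_zero_iff_dvd _ _).mpr hg
  induction x using OnePoint.rec with
  | infty =>
    rw [OnePoint.smul_infty_eq_ite]
    by_cases hc : ((g 1 0 : ℤ) : ZMod p) = 0
    · rw [if_pos (by simpa [redM_10] using hc), rep_infty]
      obtain ⟨e, he⟩ := (ZMod.intCast_zmod_eq_zero_iff_dvd _ _).mp hc
      obtain ⟨g', hg', hg'', hmul⟩ := hd_mul_of_eq' hp g e he
      refine ⟨g', ?_, hmul, ?_⟩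
      · rw [hg']
        have hcop : IsCoprime (M : ℤ) (p : ℤ) :=
          Nat.isCoprime_iff_coprime.mpr
            ((Nat.Prime.coprime_iff_not_dvd Fact.out).mpr hpM).symm
        exact hcop.dvd_of_dvd_mul_left (he ▸ hg)
      · rw [hg'', mul_comm]
    · rw [if_neg (by simpa [redM_10] using hc), rep_infty, rep_coe]
      set y : ZMod p := redM p g 0 0 / redM p g 1 0 with hy
      obtain ⟨e, he⟩ : (p : ℤ) ∣ g 1 1 - g 1 0 * y.val := by
        rw [← ZMod.intCast_zmod_eq_zero_iff_dvd]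
        push_cast
        rw [ZMod.natCast_zmod_val, hy, redM_00, redM_10, mul_div_cancel₀ _ hc, sub_self]
      obtain ⟨g', hg', hg'', hmul⟩ := hd_mul_of_eq hp g y.val e (by linear_combination he)
      refine ⟨g', hg' ▸ hg, hmul, ?_⟩
      rw [wt_infty, wt_coe, mul_one, hg'', ← map_mul]
      congr 1
      have h1 := congrArg (Int.cast : ℤ → ZMod M) he
      push_cast at h1
      rw [hc0, zero_mul, sub_zero] at h1
      exact h1.symm
  | coe j =>
    rw [OnePoint.smul_some_eq_ite]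
    by_cases h : redM p g 1 0 * j + redM p g 1 1 = 0
    · rw [if_pos h, rep_infty, rep_coe]
      rw [redM_10, redM_11] at h
      obtain ⟨e, he⟩ : (p : ℤ) ∣ g 0 0 + j.val * g 1 0 := by
        rw [← ZMod.intCast_zmod_eq_zero_iff_dvd]
        push_cast
        rw [ZMod.natCast_zmod_val]
        linear_combination h
      obtain ⟨g', hg', hg'', hmul⟩ := hm_mul_of_eq' hp g j.val e he
      refine ⟨g', hg' ▸ hg, hmul, ?_⟩
      rw [wt_infty, wt_coe, one_mul, hg'']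
      push_cast
      rw [map_mul, mul_comm]
    · rw [if_neg h, rep_coe, rep_coe]
      set y : ZMod p := (redM p g 0 0 * j + redM p g 0 1) /
        (redM p g 1 0 * j + redM p g 1 1) with hy
      obtain ⟨e, he⟩ : (p : ℤ) ∣ g 0 1 + j.val * g 1 1 - y.val * (g 0 0 + j.val * g 1 0) := by
        rw [← ZMod.intCast_zmod_eq_zero_iff_dvd]
        push_cast
        rw [ZMod.natCast_zmod_val, ZMod.natCast_zmod_val,
          show ((g 0 0 : ℤ) : ZMod p) + j * ((g 1 0 : ℤ) : ZMod p)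
            = redM p g 1 0 * j + redM p g 1 1 by
              rw [redM_10, redM_11]; ring,
          hy, div_mul_cancel₀ _ h, redM_00, redM_01]
        ring
      obtain ⟨g', hg', hg'', hmul⟩ := hm_mul_of_eq hp g j.val y.val e (by linear_combination he)
      refine ⟨g', hg' ▸ dvd_mul_of_dvd_right hg _, hmul, ?_⟩
      rw [wt_coe, wt_coe, one_mul, mul_one, hg'']
      congr 1
      push_cast
      rw [hc0, zero_mul, sub_zero]

end repmul

section slash

variable {p : ℕ}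

theorem σ_rep (x : OnePoint (ZMod p)) : UpperHalfPlane.σ (rep p x) = .refl ℝ ℂ := by
  induction x using OnePoint.rec with
  | infty => exact σ_heckeDiagMatrix p
  | coe j => exact σ_heckeMatrix p j.val

theorem smul_slash_rep (k : ℤ) (c : ℂ) (f : ℍ → ℂ) (x : OnePoint (ZMod p)) :
    (c • f) ∣[k] rep p x = c • (f ∣[k] rep p x) := by
  rw [ModularForm.smul_slash, σ_rep, ContinuousAlgEquiv.refl_apply]

variable [Fact p.Prime] {M : ℕ}

theorem TChi_slash (χ : DirichletCharacter ℂ M) (k : ℤ) (hpM : ¬ p ∣ M) (f : ℍ → ℂ)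
    (hf : HasNeb M χ k f) (g : SL(2, ℤ)) (hg : g ∈ Gamma0 M) :
    TChi k p (χ (p : ZMod M)) f ∣[k] g =
      χ (((g 1 1 : ℤ)) : ZMod M) • TChi k p (χ (p : ZMod M)) f := by
  have : NeZero p := ⟨(Fact.out : p.Prime).ne_zero⟩
  have hcM : (M : ℤ) ∣ g 1 0 :=
    (ZMod.intCast_zmod_eq_zero_iff_dvd _ _).mp (Gamma0_mem.mp hg)
  rw [TChi_eq_sum, SlashAction.sum_slash, Finset.smul_sum]
  calc ∑ x : OnePoint (ZMod p), (wt (χ (p : ZMod M)) x • (f ∣[k] rep p x)) ∣[k] g
      = ∑ x : OnePoint (ZMod p), χ (((g 1 1 : ℤ)) : ZMod M) •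
          (wt (χ (p : ZMod M)) (redM p g • x) • (f ∣[k] rep p (redM p g • x))) := by
        refine Finset.sum_congr rfl fun x _ ↦ ?_
        obtain ⟨g', hg', hmul, hw⟩ := rep_mul_chi χ hpM g hcM x
        have hg'M : g' ∈ Gamma0 M :=
          Gamma0_mem.mpr ((ZMod.intCast_zmod_eq_zero_iff_dvd _ _).mpr hg')
        have h1 : (f ∣[k] rep p x) ∣[k] g = (f ∣[k] g') ∣[k] rep p (redM p g • x) := by
          change (f ∣[k] rep p x) ∣[k] (mapGL ℝ g) =
            (f ∣[k] (mapGL ℝ g')) ∣[k] rep p (redM p g • x)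
          rw [← SlashAction.slash_mul, hmul, SlashAction.slash_mul]
        rw [SL_smul_slash, h1, hf g' hg'M, smul_slash_rep, smul_smul, smul_smul, hw]
    _ = ∑ x : OnePoint (ZMod p), χ (((g 1 1 : ℤ)) : ZMod M) •
          (wt (χ (p : ZMod M)) x • (f ∣[k] rep p x)) :=
        Equiv.sum_comp (MulAction.toPerm (redM p g))
          (fun x ↦ χ (((g 1 1 : ℤ)) : ZMod M) • (wt (χ (p : ZMod M)) x • (f ∣[k] rep p x)))

end slash

section form

theorem isZeroAt_const_smul {c : OnePoint ℝ} {f : ℍ → ℂ} {k : ℤ} (a : ℂ)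
    (hf : c.IsZeroAt f k) : c.IsZeroAt (a • f) k := by
  intro g hg
  rw [ModularForm.smul_slash]
  exact Filter.ZeroAtFilter.smul _ (hf g hg)

variable {M : ℕ} [NeZero M] {k : ℤ}

theorem isZeroAt_diag (g : CuspForm (Gamma1 M) k) (p : ℕ) {c : OnePoint ℝ}
    (hc : IsCusp c (Gamma1 M : Subgroup (GL (Fin 2) ℝ))) :
    c.IsZeroAt ((g : ℍ → ℂ) ∣[k] heckeDiagMatrix p) k := by
  obtain ⟨γ, hγ⟩ :=
    P2MW.S_CuspFormClass_isZeroAt_heckeT.ModularForm.S06W2.exists_heckeDiagMatrix_eq_map p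
  rw [hγ]
  exact P2MW.S_CuspFormClass_isZeroAt_heckeT.ModularForm.S06W2.isZeroAt_slash_ratCast g γ hc

theorem isZeroAt_TChi (g : CuspForm (Gamma1 M) k) (p : ℕ) (a : ℂ) {c : OnePoint ℝ}
    (hc : IsCusp c (Gamma1 M : Subgroup (GL (Fin 2) ℝ))) :
    c.IsZeroAt (TChi k p a g) k :=
  (CuspFormClass.isZeroAt_heckeU g p hc).add (isZeroAt_const_smul a (isZeroAt_diag g p hc))

theorem mdiff_TChi (g : CuspForm (Gamma1 M) k) (p : ℕ) (a : ℂ) :
    MDiff (TChi k p a g) := by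
  have h1 : MDiff (heckeU k p (g : ℍ → ℂ)) :=
    P2MW.S_UpperHalfPlane_qCoeff_heckeT.M4cP1W2.mdifferentiable_heckeU k p (ModularFormClass.holo g)
  have h2 : MDiff ((g : ℍ → ℂ) ∣[k] heckeDiagMatrix p) := (ModularFormClass.holo g).slash k _
  have h3 : MDiff (a • ((g : ℍ → ℂ) ∣[k] heckeDiagMatrix p)) := by
    have : MDiff (fun _ : ℍ ↦ a) := mdifferentiable_const
    exact this.mul h2
  exact h1.add h3

end form

section final

open P2MW.S_UpperHalfPlane_qCoeff_heckeT.M4cP1W2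

variable {M : ℕ} [NeZero M] {k : ℤ}

theorem one_mem_strictPeriods_Gamma1' (N : ℕ) :
    (1 : ℝ) ∈ ((Gamma1 N : Subgroup (GL (Fin 2) ℝ))).strictPeriods := by
  rw [CongruenceSubgroup.strictPeriods_Gamma1]
  exact AddSubgroup.mem_zmultiples 1

/-- The Hecke operator `T_p` with character as a cusp form. -/
def TChiForm (χ : DirichletCharacter ℂ M) (g : CuspForm (Gamma1 M) k) (hg : HasNeb M χ k g)
    (p : ℕ) (hp : p.Prime) (hpM : ¬ p ∣ M) : CuspForm (Gamma1 M) k where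
  toFun := TChi k p (χ (p : ZMod M)) g
  slash_action_eq' := by
    intro γ hγ
    have : Fact p.Prime := ⟨hp⟩
    obtain ⟨γ₀, hγ₀, rfl⟩ := hγ
    have h0 : γ₀ ∈ Gamma0 M := Gamma1_in_Gamma0 M hγ₀
    have h1 := TChi_slash χ k hpM g hg γ₀ h0
    have h2 : (((γ₀ 1 1 : ℤ)) : ZMod M) = 1 := ((Gamma1_mem M γ₀).1 hγ₀).2.1
    rw [h2, map_one, one_smul] at h1
    exact h1
  holo' := mdiff_TChi g p _
  zero_at_cusps' := fun hc => isZeroAt_TChi g p _ hc

theorem TChiForm_coe (χ : DirichletCharacter ℂ M) (g : CuspForm (Gamma1 M) k)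
    (hg : HasNeb M χ k g) (p : ℕ) (hp : p.Prime) (hpM : ¬ p ∣ M) :
    ((TChiForm χ g hg p hp hpM : CuspForm (Gamma1 M) k) : ℍ → ℂ) =
      TChi k p (χ (p : ZMod M)) g := rfl

theorem hasSum_TChi (g : CuspForm (Gamma1 M) k) {p : ℕ} (hp : p ≠ 0) (a : ℂ) (τ : ℍ) :
    HasSum (fun n : ℕ ↦ (ModularFormClass.qCoeff g (p * n) + a * (p : ℂ) ^ (k - 1) *
        (if p ∣ n then ModularFormClass.qCoeff g (n / p) else 0)) • Function.Periodic.qParam 1 τ ^ n)
      (TChi k p a g τ) := by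
  have : Fact (IsCusp OnePoint.infty (Gamma1 M : Subgroup (GL (Fin 2) ℝ))) :=
    ⟨Subgroup.isCusp_of_mem_strictPeriods one_pos (one_mem_strictPeriods_Gamma1' M)⟩
  have hper := SlashInvariantFormClass.periodic_comp_ofComplex g (one_mem_strictPeriods_Gamma1' M)
  have hhol := ModularFormClass.holo g
  have hbdd := ModularFormClass.bdd_at_infty g
  have h1 := hasSum_average hp hper hhol hbdd τ
  have h2 := (hasSum_diag hp hper hhol hbdd k τ).mul_left a
  have h3 := h1.add h2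
  have hval : TChi k p a g τ = (p : ℂ)⁻¹ * ∑ j ∈ Finset.range p, g (heckeMatrix p j • τ) +
      a * ((p : ℂ) ^ (k - 1) * g (heckeDiagMatrix p • τ)) := by
    rw [TChi, Pi.add_apply, heckeU_apply k hp, Pi.smul_apply, slash_heckeDiagMatrix_apply k hp,
      smul_eq_mul]
  rw [hval]
  convert h3 using 1
  funext n
  rw [smul_eq_mul, mul_comm p n]
  split_ifs <;> ring

theorem qCoeff_TChiForm (χ : DirichletCharacter ℂ M) (g : CuspForm (Gamma1 M) k)
    (hg : HasNeb M χ k g) (p : ℕ) (hp : p.Prime) (hpM : ¬ p ∣ M) (n : ℕ) :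
    ModularFormClass.qCoeff (TChiForm χ g hg p hp hpM) n =
      ModularFormClass.qCoeff g (p * n) + χ (p : ZMod M) * (p : ℂ) ^ (k - 1) *
        (if p ∣ n then ModularFormClass.qCoeff g (n / p) else 0) := by
  have : Fact (IsCusp OnePoint.infty (Gamma1 M : Subgroup (GL (Fin 2) ℝ))) :=
    ⟨Subgroup.isCusp_of_mem_strictPeriods one_pos (one_mem_strictPeriods_Gamma1' M)⟩
  set G := TChiForm χ g hg p hp hpM with hG
  have hper := SlashInvariantFormClass.periodic_comp_ofComplex G (one_mem_strictPeriods_Gamma1' M)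
  have hhol := ModularFormClass.holo G
  have hbdd := ModularFormClass.bdd_at_infty G
  exact (qExpansion_coeff_unique' hhol.continuous
    (analyticAt_cuspFunction_zero one_pos hper hhol hbdd)
    (fun τ => hasSum_TChi g hp.ne_zero (χ (p : ZMod M)) τ) n).symm

theorem hasNeb_TChiForm (χ : DirichletCharacter ℂ M) (g : CuspForm (Gamma1 M) k)
    (hg : HasNeb M χ k g) (p : ℕ) (hp : p.Prime) (hpM : ¬ p ∣ M) :
    HasNeb M χ k (TChiForm χ g hg p hp hpM) := by
  intro γ hγ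
  have : Fact p.Prime := ⟨hp⟩
  exact TChi_slash χ k hpM g hg γ hγ

end final

/-- **HeckeNeb**. -/
theorem stmt_HeckeNeb : Stmt_HeckeNeb := by
  intro M _ χ k g hg p hp hpM
  exact ⟨TChiForm χ g hg p hp hpM, hasNeb_TChiForm χ g hg p hp hpM,
    fun n => qCoeff_TChiForm χ g hg p hp hpM n⟩

end Fermat.Agent.S48.B1.H19

end
end
-- ==== END Fermat.Agent.S48.B1.H19_HeckeNeb

-- ==== BEGIN Fermat.Agent.S48.B1.H22_Eis1Phi
section

/-!
# S48 B1 (a): weight one Eisenstein series, part 4 — the division values `Φ_u` (helper22)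

`Φ_{N,u}(τ) = Zc ((u₀ τ + u₁)/N) τ + 2 π i u₀ / N` for `u ∈ ℤ² ∖ N ℤ²`:
* depends only on `u` mod `N`;
* `Φ_u ∣[1] γ = Φ_{u γ}` for `γ ∈ SL(2, ℤ)`;
* holomorphic on `ℍ` and bounded at `i∞`.
-/

set_option autoImplicit false

open UpperHalfPlane hiding I
open Complex Filter Topology EisensteinSeries Matrix ModularForm
open scoped Real MatrixGroups Manifold

noncomputable section

namespace Fermat.Agent.S48.B1.H22

/-! ### Quasi-periodicity in the direction `τ` -/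

theorem lam_one_zero (τ : ℍ) : lam τ ![1, 0] = (τ : ℂ) := by
  simp [lam]

theorem Zc_add_tau {z : ℂ} {τ : ℍ} (h : NotLat z τ) :
    Zc (z + (τ : ℂ)) τ = Zc z τ - 2 * π * I := by
  have hτ : (τ : ℂ) ≠ 0 := ne_zero τ
  have h' : NotLat (z + (τ : ℂ)) τ := by
    have := h.add_lam ![1, 0]
    rwa [lam_one_zero] at this
  have e1 := Zc_smul ModularGroup.S h
  have e2 := Zc_smul ModularGroup.S h'
  rw [ModularGroup.denom_S] at e1 e2
  have hS : ((ModularGroup.S 1 0 : ℤ) : ℂ) = 1 := by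
    simp [ModularGroup.S]
  rw [hS] at e1 e2
  have e3 : (z + (τ : ℂ)) / (τ : ℂ) = z / (τ : ℂ) + 1 := by
    field_simp
  rw [e3, Zc_add_one, e1] at e2
  have key : (τ : ℂ) * (Zc (z + (τ : ℂ)) τ - (Zc z τ - 2 * π * I)) = 0 := by
    linear_combination -e2
  have := (mul_eq_zero.1 key).resolve_left hτ
  exact sub_eq_zero.1 this

theorem Zc_add_int_mul_tau {z : ℂ} {τ : ℍ} (h : NotLat z τ) (k : ℤ) :
    Zc (z + (k : ℂ) * (τ : ℂ)) τ = Zc z τ - 2 * π * I * k := by
  have hk : ∀ j : ℤ, NotLat (z + (j : ℂ) * (τ : ℂ)) τ := by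
    intro j
    have := h.add_lam ![j, 0]
    rwa [lam_cons, Int.cast_zero, add_zero] at this
  induction k using Int.induction_on with
  | zero => simp
  | succ k ih =>
    have e : z + (((k : ℤ) + 1 : ℤ) : ℂ) * (τ : ℂ) = (z + ((k : ℤ) : ℂ) * (τ : ℂ)) + (τ : ℂ) := by
      push_cast
      ring
    rw [e, Zc_add_tau (hk k), ih]
    push_cast
    ring
  | pred k ih =>
    have e : z + ((-(k : ℤ) : ℤ) : ℂ) * (τ : ℂ)
        = (z + ((-(k : ℤ) - 1 : ℤ) : ℂ) * (τ : ℂ)) + (τ : ℂ) := by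
      push_cast
      ring
    have := Zc_add_tau (hk (-(k : ℤ) - 1))
    rw [← e, ih] at this
    rw [eq_sub_iff_add_eq] at this
    rw [← this]
    push_cast
    ring

theorem Zc_add_lam {z : ℂ} {τ : ℍ} (h : NotLat z τ) (b : Fin 2 → ℤ) :
    Zc (z + lam τ b) τ = Zc z τ - 2 * π * I * (b 0 : ℂ) := by
  rw [lam, ← add_assoc, Zc_add_int, Zc_add_int_mul_tau h]

/-! ### The division values -/

/-- The `N`-division point attached to `u`. -/
def zOf (N : ℕ) (u : Fin 2 → ℤ) (τ : ℍ) : ℂ := lam τ u / N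

/-- The weight one division value `Φ_{N,u}`. -/
def Phi (N : ℕ) (u : Fin 2 → ℤ) (τ : ℍ) : ℂ :=
  Zc (zOf N u τ) τ + 2 * π * I * (u 0 : ℂ) / N

/-- `u` is not divisible by `N`. -/
def NZ (N : ℕ) (u : Fin 2 → ℤ) : Prop := ¬ ((N : ℤ) ∣ u 0 ∧ (N : ℤ) ∣ u 1)

theorem lam_add (τ : ℍ) (u v : Fin 2 → ℤ) : lam τ (u + v) = lam τ u + lam τ v := by
  simp only [lam, Pi.add_apply, Int.cast_add]
  ring

theorem lam_sub (τ : ℍ) (u v : Fin 2 → ℤ) : lam τ (u - v) = lam τ u - lam τ v := by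
  simp only [lam, Pi.sub_apply, Int.cast_sub]
  ring

theorem lam_nsmul (τ : ℍ) (N : ℕ) (v : Fin 2 → ℤ) : lam τ ((N : ℤ) • v) = N * lam τ v := by
  simp only [lam, Pi.smul_apply, smul_eq_mul, Int.cast_mul, Int.cast_natCast]
  ring

theorem lam_injective (τ : ℍ) {u v : Fin 2 → ℤ} (h : lam τ u = lam τ v) : u = v := by
  by_contra hne
  have h1 : u - v ≠ 0 := sub_ne_zero.2 hne
  exact lam_ne_zero τ h1 (by rw [lam_sub, h, sub_self])

theorem notLat_zOf {N : ℕ} (hN : N ≠ 0) {u : Fin 2 → ℤ} (hu : NZ N u) (τ : ℍ) :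
    NotLat (zOf N u τ) τ := by
  intro v hv
  have hN' : (N : ℂ) ≠ 0 := by exact_mod_cast hN
  rw [zOf, div_eq_iff hN', mul_comm, ← lam_nsmul] at hv
  have := lam_injective τ hv
  apply hu
  constructor
  · exact ⟨v 0, by rw [this]; simp⟩
  · exact ⟨v 1, by rw [this]; simp⟩

theorem NZ.add_smul {N : ℕ} {u : Fin 2 → ℤ} (hu : NZ N u) (b : Fin 2 → ℤ) :
    NZ N (u + (N : ℤ) • b) := by
  intro h
  apply hu
  simp only [Pi.add_apply, Pi.smul_apply, smul_eq_mul] at h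
  exact ⟨(Int.dvd_add_left (dvd_mul_right _ _)).1 h.1, (Int.dvd_add_left (dvd_mul_right _ _)).1 h.2⟩

/-- `Φ_u` only depends on `u` modulo `N`. -/
theorem Phi_add_smul {N : ℕ} (hN : N ≠ 0) {u : Fin 2 → ℤ} (hu : NZ N u) (b : Fin 2 → ℤ)
    (τ : ℍ) : Phi N (u + (N : ℤ) • b) τ = Phi N u τ := by
  have hN' : (N : ℂ) ≠ 0 := by exact_mod_cast hN
  have e : zOf N (u + (N : ℤ) • b) τ = zOf N u τ + lam τ b := by
    rw [zOf, zOf, lam_add, lam_nsmul]
    field_simp
  rw [Phi, Phi, e, Zc_add_lam (notLat_zOf hN hu τ)]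
  simp only [Pi.add_apply, Pi.smul_apply, smul_eq_mul, Int.cast_add, Int.cast_mul,
    Int.cast_natCast]
  field_simp
  ring

theorem NZ.vecMul {N : ℕ} {u : Fin 2 → ℤ} (hu : NZ N u) (γ : SL(2, ℤ)) :
    NZ N (u ᵥ* (γ : Matrix (Fin 2) (Fin 2) ℤ)) := by
  intro h
  apply hu
  have e := Fermat.Agent.Lib.TwistedEisenstein.vecMul_vecMul_inv γ u
  set w := u ᵥ* (γ : Matrix (Fin 2) (Fin 2) ℤ) with hw
  have h0 : ∀ j, (N : ℤ) ∣ (w ᵥ* ((γ⁻¹ : SL(2, ℤ)) : Matrix (Fin 2) (Fin 2) ℤ)) j := by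
    intro j
    simp only [Matrix.vecMul, dotProduct, Fin.sum_univ_two]
    exact dvd_add (Dvd.dvd.mul_right h.1 _) (Dvd.dvd.mul_right h.2 _)
  rw [e] at h0
  exact ⟨h0 0, h0 1⟩

/-- The transformation law of the division values. -/
theorem Phi_smul {N : ℕ} (hN : N ≠ 0) {u : Fin 2 → ℤ} (hu : NZ N u) (γ : SL(2, ℤ)) (τ : ℍ) :
    Phi N u (γ • τ) = denom γ τ * Phi N (u ᵥ* (γ : Matrix (Fin 2) (Fin 2) ℤ)) τ := by
  have hN' : (N : ℂ) ≠ 0 := by exact_mod_cast hN
  have hD := denom_ne_zero γ τ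
  have e : zOf N u (γ • τ) = zOf N (u ᵥ* (γ : Matrix (Fin 2) (Fin 2) ℤ)) τ / denom γ τ := by
    rw [zOf, zOf, lam_smul]
    field_simp
  rw [Phi, Phi, e, Zc_smul γ (notLat_zOf hN (hu.vecMul γ) τ)]
  have hdet : (γ 0 0 : ℂ) * (γ 1 1 : ℂ) - (γ 0 1 : ℂ) * (γ 1 0 : ℂ) = 1 := by
    have := γ.det_coe
    rw [Matrix.det_fin_two] at this
    exact_mod_cast this
  have hden : denom γ τ = (γ 1 0 : ℂ) * (τ : ℂ) + (γ 1 1 : ℂ) := by
    rw [ModularGroup.denom_apply]
  rw [hden, zOf, lam]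
  simp only [Matrix.vecMul, dotProduct, Fin.sum_univ_two, Int.cast_add, Int.cast_mul]
  field_simp
  linear_combination (-(2 * π * I * (u 0 : ℂ))) * hdet

theorem Phi_slash {N : ℕ} (hN : N ≠ 0) {u : Fin 2 → ℤ} (hu : NZ N u) (γ : SL(2, ℤ)) :
    (Phi N u) ∣[(1 : ℤ)] γ = Phi N (u ᵥ* (γ : Matrix (Fin 2) (Fin 2) ℤ)) := by
  ext τ
  rw [SL_slash_apply, Phi_smul hN hu, _root_.zpow_neg, zpow_one, mul_comm, ← mul_assoc,
    inv_mul_cancel₀ (denom_ne_zero γ τ), one_mul]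

end Fermat.Agent.S48.B1.H22

end
end
-- ==== END Fermat.Agent.S48.B1.H22_Eis1Phi

-- ==== BEGIN Fermat.Agent.S48.B1.H31_NebV
section

/-!
# S48, B1, leaf NebOfRel, part 1 (helper31): coefficient map, `h(p z)`, uniqueness of the
decomposition into nebentypus components

* `coeffMap M k` : the `q`-coefficients as a linear map on `S_k(Γ₁(M))`, injective;
* `vFun k p f = f ∣[k] diag(p, 1)` : `Nice`, coefficients `seqV p (p^(k-1))`, and it transforms
  under `Γ₀(M p)` with the character of `f`;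
* `eq_zero_of_sum_eq_zero` : functions transforming under `Γ₀(M p)` with pairwise different
  characters mod `M` are linearly independent.
-/

set_option autoImplicit false

open CongruenceSubgroup UpperHalfPlane ModularForm
open scoped MatrixGroups ModularForm Manifold

noncomputable section

namespace Fermat.Agent.S48.B1.H31

open Fermat.Agent.S48.Int (HasNeb)
open Fermat.Agent.S23.H22 (Nice)
open Fermat.Agent.S48.Int.H22 (nice_cusp1 one_mem_strictPeriods_Gamma1)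
open Fermat.Agent.S48.Int.H31 (lr gam gam_mem lr_gam)

/-! ### The coefficient map -/

/-- The `q`-coefficients of a cusp form on `Γ₁(M)`, as a linear map. -/
def coeffMap (M : ℕ) (k : ℤ) : CuspForm (Gamma1 M) k →ₗ[ℂ] (ℕ → ℂ) where
  toFun f n := ModularFormClass.qCoeff f n
  map_add' f g := by
    funext n
    simp only [Pi.add_apply]
    unfold ModularFormClass.qCoeff
    rw [FunLike.coe_add, Nice.qExpansion_add one_pos (nice_cusp1 f) (nice_cusp1 g), map_add]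
  map_smul' c f := by
    funext n
    simp only [Pi.smul_apply, RingHom.id_apply, smul_eq_mul]
    unfold ModularFormClass.qCoeff
    have hcoe : ((c • f : CuspForm (Gamma1 M) k) : ℍ → ℂ) = c • (f : ℍ → ℂ) := rfl
    rw [hcoe, Nice.qExpansion_smul one_pos (nice_cusp1 f) c]
    simp

theorem coeffMap_apply (M : ℕ) (k : ℤ) (f : CuspForm (Gamma1 M) k) (n : ℕ) :
    coeffMap M k f n = ModularFormClass.qCoeff f n := rfl

theorem coeffMap_zero_coeff (M : ℕ) (k : ℤ) (f : CuspForm (Gamma1 M) k) :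
    coeffMap M k f 0 = 0 :=
  CuspFormClass.qExpansion_coeff_zero f one_pos (one_mem_strictPeriods_Gamma1 M)

theorem eq_of_qCoeff_eq {F G : ℍ → ℂ} (hF : Nice 1 F) (hG : Nice 1 G)
    (h : ∀ n, ModularFormClass.qCoeff F n = ModularFormClass.qCoeff G n) : F = G :=
  Nice.eq_of_qExpansion_eq one_pos hF hG (PowerSeries.ext h)

theorem coeffMap_injective (M : ℕ) (k : ℤ) : Function.Injective (coeffMap M k) := by
  intro f g h
  have h1 : (f : ℍ → ℂ) = g :=
    eq_of_qCoeff_eq (nice_cusp1 f) (nice_cusp1 g) (fun n => congrFun h n)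
  exact DFunLike.coe_injective h1

/-! ### The function `h(p z)` -/

/-- `f ∣[k] diag(p, 1)`, i.e. `z ↦ p^(k-1) f(p z)`. -/
def vFun (k : ℤ) (p : ℕ) (f : ℍ → ℂ) : ℍ → ℂ := f ∣[k] ModularForm.heckeDiagMatrix p

theorem vFun_eq (k : ℤ) (p : ℕ) (f : ℍ → ℂ) :
    vFun k p f = ModularForm.heckeT k p f - ModularForm.heckeU k p f := by
  rw [ModularForm.heckeT_eq_heckeU_add, add_sub_cancel_left]
  rfl

theorem nice_heckeT {f : ℍ → ℂ} (hf : Nice 1 f) (k : ℤ) (p : ℕ) :
    Nice 1 (ModularForm.heckeT k p f) :=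
  ⟨ModularForm.periodic_heckeT_comp_ofComplex hf.per k p,
    ModularForm.mdifferentiable_heckeT hf.hol k p,
    ModularForm.isBoundedAtImInfty_heckeT hf.bdd k p⟩

theorem nice_heckeU {f : ℍ → ℂ} (hf : Nice 1 f) (k : ℤ) (p : ℕ) :
    Nice 1 (ModularForm.heckeU k p f) :=
  ⟨ModularForm.periodic_heckeU_comp_ofComplex hf.per k p,
    ModularForm.mdifferentiable_heckeU hf.hol k p,
    ModularForm.isBoundedAtImInfty_heckeU hf.bdd k p⟩

theorem nice_vFun {f : ℍ → ℂ} (hf : Nice 1 f) (k : ℤ) (p : ℕ) : Nice 1 (vFun k p f) := by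
  rw [vFun_eq]
  exact (nice_heckeT hf k p).sub (nice_heckeU hf k p)

theorem qCoeff_vFun {f : ℍ → ℂ} (hf : Nice 1 f) (k : ℤ) {p : ℕ} (hp : p ≠ 0) (n : ℕ) :
    ModularFormClass.qCoeff (vFun k p f) n =
      seqV p ((p : ℂ) ^ (k - 1)) (fun m => ModularFormClass.qCoeff f m) n := by
  have h1 := UpperHalfPlane.qCoeff_heckeT hf.per hf.hol hf.bdd k hp n
  have h2 := UpperHalfPlane.qCoeff_heckeU hf.per hf.hol hf.bdd k hp n
  have h3 : ModularFormClass.qCoeff (vFun k p f) n =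
      ModularFormClass.qCoeff (ModularForm.heckeT k p f) n -
        ModularFormClass.qCoeff (ModularForm.heckeU k p f) n := by
    unfold ModularFormClass.qCoeff
    rw [vFun_eq, Nice.qExpansion_sub one_pos (nice_heckeT hf k p) (nice_heckeU hf k p), map_sub]
  rw [h3, h1, h2, ModularForm.coeffHeckeT_eq_coeffHeckeU_add, add_sub_cancel_left, seqV_apply]

/-! ### Transformation of `h(p z)` under `Γ₀(M p)` -/

theorem det_eq_one (g : SL(2, ℤ)) : g 0 0 * g 1 1 - g 0 1 * g 1 0 = 1 := by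
  have h := g.det_coe
  rwa [Matrix.det_fin_two] at h

/-- `diag(p, 1) γ = γ' diag(p, 1)` with `γ' = [a, p b; c / p, d]`. -/
theorem diag_mul_eq {p : ℕ} (hp : p ≠ 0) (g : SL(2, ℤ)) (e : ℤ) (he : g 1 0 = p * e) :
    ∃ g' : SL(2, ℤ), g' 1 0 = e ∧ g' 1 1 = g 1 1 ∧
      ModularForm.heckeDiagMatrix p * Matrix.SpecialLinearGroup.mapGL ℝ g =
        Matrix.SpecialLinearGroup.mapGL ℝ g' * ModularForm.heckeDiagMatrix p := by
  have hdet := det_eq_one g
  obtain ⟨g', h00, h01, h10, h11⟩ : ∃ g' : SL(2, ℤ), g' 0 0 = g 0 0 ∧ g' 0 1 = p * g 0 1 ∧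
      g' 1 0 = e ∧ g' 1 1 = g 1 1 := by
    refine ⟨⟨!![g 0 0, p * g 0 1; e, g 1 1], ?_⟩, rfl, rfl, rfl, rfl⟩
    rw [Matrix.det_fin_two_of]
    linear_combination hdet + (g 0 1) * he
  refine ⟨g', h10, h11, ?_⟩
  ext i j
  fin_cases i <;> fin_cases j <;>
    simp [hp, Matrix.mul_apply, Fin.sum_univ_two, h00, h01, h10, h11]
  all_goals first
    | ring1
    | (have := congrArg (Int.cast : ℤ → ℝ) he; push_cast at this ⊢; linear_combination this)

theorem vFun_slash {M p : ℕ} (hp : p ≠ 0) {ψ : DirichletCharacter ℂ M} {k : ℤ} {f : ℍ → ℂ}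
    (hf : HasNeb M ψ k f) (γ : SL(2, ℤ)) (hγ : γ ∈ Gamma0 (M * p)) :
    vFun k p f ∣[k] γ = ψ (((γ 1 1 : ℤ) : ZMod M)) • vFun k p f := by
  have hc : ((γ 1 0 : ℤ) : ZMod (M * p)) = 0 := Gamma0_mem.mp hγ
  rw [ZMod.intCast_zmod_eq_zero_iff_dvd] at hc
  obtain ⟨e', he'⟩ := hc
  have he : γ 1 0 = p * ((M : ℤ) * e') := by rw [he']; push_cast; ring
  obtain ⟨γ', h10, h11, hmat⟩ := diag_mul_eq hp γ _ he
  have hγ' : γ' ∈ Gamma0 M := by
    rw [Gamma0_mem, h10]
    push_cast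
    simp
  have h1 := hf γ' hγ'
  rw [h11] at h1
  unfold vFun
  rw [ModularForm.SL_slash, ← SlashAction.slash_mul]
  change f ∣[k] (ModularForm.heckeDiagMatrix p * Matrix.SpecialLinearGroup.mapGL ℝ γ) = _
  rw [hmat, SlashAction.slash_mul]
  have h2 : f ∣[k] (Matrix.SpecialLinearGroup.mapGL ℝ γ') = f ∣[k] γ' := rfl
  rw [h2, h1, ModularForm.smul_slash, ModularForm.σ_heckeDiagMatrix,
    ContinuousAlgEquiv.refl_apply]

end Fermat.Agent.S48.B1.H31

end
end
-- ==== END Fermat.Agent.S48.B1.H31_NebV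

-- ==== BEGIN Fermat.Agent.S48.B1.H32_Teich
section

/-!
# S48, mountain B1, leaf Teich (helper32): the inverse Teichmüller character

`stmt_Teich : Stmt_Teich`: for an odd prime `ℓ` and a ring homomorphism `φ : ℤ̄ → k` into a field
of characteristic `ℓ` there is an odd Dirichlet character `ψ` mod `ℓ` with `φ (ψ a) · a = 1` for
all units `a` of `ℤ / ℓ`.

Proof: `φ` maps the `(ℓ-1)`-th roots of unity of `ℂ` injectively (geometric sum: `ℓ - 1 ≠ 0` in
`k`) into the `(ℓ-1)`-th roots of unity of `k`, which are the `ℓ - 1` units of the prime field; so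
both `μ_{ℓ-1}(ℂ) → μ_{ℓ-1}(k)` and `(ℤ/ℓ)ˣ → μ_{ℓ-1}(k)` are bijective.
-/

set_option autoImplicit false
set_option linter.style.haveILetI false

namespace Fermat.Agent.S48.B1.H32

open Fermat.Agent.S48.B1

/-- A root of unity of `ℂ` is an algebraic integer. -/
lemma isIntegral_rootOfUnity (n : ℕ) (hn : n ≠ 0) (ζ : rootsOfUnity n ℂ) :
    IsIntegral ℤ ((ζ : ℂˣ) : ℂ) := by
  have h : ((ζ : ℂˣ) : ℂ) ^ n = 1 := by
    have := (mem_rootsOfUnity n (ζ : ℂˣ)).mp ζ.2
    rw [← Units.val_pow_eq_pow_val, this, Units.val_one]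
  exact IsIntegral.of_pow (Nat.pos_of_ne_zero hn) (by rw [h]; exact isIntegral_one)

/-- The roots of unity of `ℂ` as algebraic integers. -/
noncomputable def rootToInt (n : ℕ) (hn : n ≠ 0) : rootsOfUnity n ℂ →* integralClosure ℤ ℂ where
  toFun ζ := ⟨((ζ : ℂˣ) : ℂ), isIntegral_rootOfUnity n hn ζ⟩
  map_one' := Subtype.ext (by simp)
  map_mul' a b := Subtype.ext (by simp)

@[simp]
lemma coe_rootToInt (n : ℕ) (hn : n ≠ 0) (ζ : rootsOfUnity n ℂ) :
    ((rootToInt n hn ζ : integralClosure ℤ ℂ) : ℂ) = ((ζ : ℂˣ) : ℂ) := rfl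

/-- **Teich**: the inverse Teichmüller character with respect to `φ`. -/
theorem stmt_Teich : Stmt_Teich := by
  intro ℓ _ hℓ hℓ2 k _ _ φ
  haveI : Fact ℓ.Prime := ⟨hℓ⟩
  obtain ⟨n, hn⟩ : ∃ n, n = ℓ - 1 := ⟨_, rfl⟩
  have hℓ2' := hℓ.two_le
  have hn0 : n ≠ 0 := by omega
  haveI : NeZero n := ⟨hn0⟩
  have hnk : (n : k) = -1 := by
    have h1 : ((n + 1 : ℕ) : k) = 0 := by
      have : n + 1 = ℓ := by omega
      rw [this]
      exact CharP.cast_eq_zero k ℓ
    have h2 : (n : k) + 1 = 0 := by exact_mod_cast h1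
    exact eq_neg_of_add_eq_zero_left h2
  -- the map `μ_n(ℂ) → kˣ`
  set f0 : rootsOfUnity n ℂ →* k := (φ : integralClosure ℤ ℂ →* k).comp (rootToInt n hn0) with hf0
  set f : rootsOfUnity n ℂ →* kˣ := f0.toHomUnits with hf
  have hf_coe : ∀ ζ, ((f ζ : kˣ) : k) = φ (rootToInt n hn0 ζ) := fun ζ => rfl
  have hf_mem : ∀ ζ, f ζ ∈ rootsOfUnity n k := by
    intro ζ
    rw [mem_rootsOfUnity, ← map_pow]
    have : ζ ^ n = 1 := by
      apply Subtype.ext
      have := (mem_rootsOfUnity n (ζ : ℂˣ)).mp ζ.2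
      simpa using this
    rw [this, map_one]
  set fC : rootsOfUnity n ℂ →* rootsOfUnity n k := f.codRestrict _ hf_mem with hfC
  -- injectivity
  have hf_inj : Function.Injective fC := by
    rw [injective_iff_map_eq_one]
    intro ζ hζ
    by_contra hne
    have h1 : ((f ζ : kˣ) : k) = 1 := by
      have h0 : ((fC ζ : rootsOfUnity n k) : kˣ) = f ζ := rfl
      rw [← h0, hζ]
      rfl
    have hz1 : ((ζ : ℂˣ) : ℂ) ≠ 1 := by
      intro h
      apply hne
      apply Subtype.ext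
      apply Units.ext
      simpa using h
    have hzn : ((ζ : ℂˣ) : ℂ) ^ n = 1 := by
      have := (mem_rootsOfUnity n (ζ : ℂˣ)).mp ζ.2
      rw [← Units.val_pow_eq_pow_val, this, Units.val_one]
    have hsum : ∑ i ∈ Finset.range n, ((ζ : ℂˣ) : ℂ) ^ i = 0 := by
      have := mul_geom_sum ((ζ : ℂˣ) : ℂ) n
      rw [hzn, sub_self] at this
      rcases mul_eq_zero.mp this with h | h
      · exact absurd (sub_eq_zero.mp h) hz1
      · exact h
    have hsum' : ∑ i ∈ Finset.range n, (rootToInt n hn0 ζ) ^ i = 0 := by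
      apply Subtype.ext
      rw [AddSubmonoidClass.coe_finsetSum]
      simpa using hsum
    have h2 := congrArg φ hsum'
    rw [map_sum, map_zero] at h2
    simp only [map_pow] at h2
    rw [← hf_coe ζ, h1] at h2
    simp only [one_pow, Finset.sum_const, Finset.card_range, nsmul_eq_mul, mul_one] at h2
    rw [hnk] at h2
    exact one_ne_zero (neg_eq_zero.mp h2)
  have hcardC : Nat.card (rootsOfUnity n k) ≤ n := card_rootsOfUnity k n
  have hf_bij : Function.Bijective fC :=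
    hf_inj.bijective_of_nat_card_le (by rw [Complex.card_rootsOfUnity]; exact hcardC)
  -- the map `(ℤ/ℓ)ˣ → kˣ`
  set g : (ZMod ℓ)ˣ →* kˣ := Units.map ((ZMod.castHom (dvd_refl ℓ) k : ZMod ℓ →+* k) : ZMod ℓ →* k)
    with hg
  have hg_coe : ∀ a : (ZMod ℓ)ˣ, ((g a : kˣ) : k) = ZMod.castHom (dvd_refl ℓ) k (a : ZMod ℓ) :=
    fun a => rfl
  have hg_mem : ∀ a, g a ∈ rootsOfUnity n k := by
    intro a
    rw [mem_rootsOfUnity, ← map_pow, hn, ZMod.units_pow_card_sub_one_eq_one, map_one]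
  set gC : (ZMod ℓ)ˣ →* rootsOfUnity n k := g.codRestrict _ hg_mem with hgC
  -- the Teichmüller character
  set e : rootsOfUnity n ℂ ≃* rootsOfUnity n k := MulEquiv.ofBijective fC hf_bij with he
  set ω : (ZMod ℓ)ˣ →* rootsOfUnity n ℂ := (e.symm : rootsOfUnity n k →* rootsOfUnity n ℂ).comp gC
    with hω
  have hωf : ∀ a, φ (rootToInt n hn0 (ω a)) = ZMod.castHom (dvd_refl ℓ) k (a : ZMod ℓ) := by
    intro a
    have h1 : fC (ω a) = gC a := by
      show e (e.symm (gC a)) = gC a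
      exact e.apply_symm_apply _
    have h2 := congrArg (fun x : rootsOfUnity n k => ((x : kˣ) : k)) h1
    exact h2
  set ψhom : (ZMod ℓ)ˣ →* ℂˣ := ((rootsOfUnity n ℂ).subtype.comp ω)⁻¹ with hψhom
  have hψ : ∀ a : (ZMod ℓ)ˣ, (MulChar.ofUnitHom ψhom) (a : ZMod ℓ) * ((ω a : ℂˣ) : ℂ) = 1 := by
    intro a
    rw [MulChar.ofUnitHom_coe]
    show (((((rootsOfUnity n ℂ).subtype.comp ω) a)⁻¹ : ℂˣ) : ℂ) * ((ω a : ℂˣ) : ℂ) = 1
    rw [← Units.val_mul]
    simp
  have key : ∀ (a : (ZMod ℓ)ˣ) (x : integralClosure ℤ ℂ),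
      (x : ℂ) = (MulChar.ofUnitHom ψhom) (a : ZMod ℓ) →
        φ x * (ZMod.castHom (dvd_refl ℓ) k (a : ZMod ℓ)) = 1 := by
    intro a x hx
    have h1 : x * rootToInt n hn0 (ω a) = 1 := by
      apply Subtype.ext
      rw [MulMemClass.coe_mul, hx, coe_rootToInt, hψ a]
      rfl
    rw [← hωf a, ← map_mul, h1, map_one]
  refine ⟨MulChar.ofUnitHom ψhom, ?_, key⟩
  -- oddness
  have hm1 : (-1 : ZMod ℓ) = (((-1 : (ZMod ℓ)ˣ) : (ZMod ℓ)ˣ) : ZMod ℓ) := by simp
  have hsq : (MulChar.ofUnitHom ψhom) (-1 : ZMod ℓ) ^ 2 = 1 := by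
    rw [← map_pow]
    simp
  have hpm : (MulChar.ofUnitHom ψhom) (-1 : ZMod ℓ) = 1 ∨
      (MulChar.ofUnitHom ψhom) (-1 : ZMod ℓ) = -1 := sq_eq_one_iff.mp hsq
  rcases hpm with h | h
  · exfalso
    have h1 := key (-1) 1 (by rw [← hm1, h]; rfl)
    rw [map_one, one_mul, ← hm1, map_neg, map_one] at h1
    -- `-1 = 1` in `k`, so `2 = 0`, so `ℓ ∣ 2`
    have h2 : ((2 : ℕ) : k) = 0 := by
      have : (1 : k) + 1 = 0 := by
        nth_rewrite 1 [← h1]
        exact neg_add_cancel 1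
      push_cast
      rw [← one_add_one_eq_two]
      exact this
    have h3 := (CharP.cast_eq_zero_iff k ℓ 2).mp h2
    have h4 := Nat.le_of_dvd (by norm_num) h3
    omega
  · exact h

end Fermat.Agent.S48.B1.H32
end
-- ==== END Fermat.Agent.S48.B1.H32_Teich

-- ==== BEGIN Fermat.Agent.S48.B1.H34_FinDimNeb
section

/-!
# S48, B1, leaf FinDimNeb (helper34): `S_k(M, χ)` is finite dimensional

Power trick: if `χ ^ m = 1` then `g ^ m ∈ S_{km}(Γ₀(M))` (helper22's `stmt_Pow`), so the Sturm bound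
of the prelude for `Γ₀(M)` in weight `k m` shows that `g ↦ (a_n(g))_{n ≤ B}` is injective on
`S_k(M, χ)`, `B = k m [SL₂(ℤ) : Γ₀(M)] / 12`.  Works for every weight `k`.
-/

set_option autoImplicit false
set_option linter.unusedSectionVars false
set_option linter.style.haveILetI false

open CongruenceSubgroup UpperHalfPlane ModularForm
open scoped MatrixGroups ModularForm Manifold

noncomputable section

namespace Fermat.Agent.S48.B1.H34

open Fermat.Agent.S48.Int (HasNeb)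
open Fermat.Agent.S48.Int.H22 (nice_cusp1 stmt_Pow)
open Fermat.Agent.S23.H22 (Nice)

/-- If the coefficients of `P` of index `≤ B` vanish, so do those of `P ^ m`, `m > 0`. -/
theorem coeff_pow_eq_zero {P : PowerSeries ℂ} {B m : ℕ} (hm : 0 < m)
    (hP : ∀ i ≤ B, P.coeff i = 0) {n : ℕ} (hn : n ≤ B) : (P ^ m).coeff n = 0 := by
  have h1 : (PowerSeries.X : PowerSeries ℂ) ^ (B + 1) ∣ P :=
    PowerSeries.X_pow_dvd_iff.mpr fun i hi => hP i (Nat.lt_succ_iff.mp hi)
  have h2 : (PowerSeries.X : PowerSeries ℂ) ^ (B + 1) ∣ P ^ m := dvd_pow h1 hm.ne'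
  exact PowerSeries.X_pow_dvd_iff.mp h2 n (Nat.lt_succ_of_le hn)

variable (M : ℕ) [NeZero M] (χ : DirichletCharacter ℂ M) (k : ℤ)

/-- The Sturm bound used for `S_k(M, χ)`. -/
def nebBound : ℕ := ((k * (orderOf χ : ℕ)) * (Gamma0 M).index).toNat / 12

/-- Truncation of the `q`-expansion. -/
def nebTrunc : nebSubmodule M χ k →ₗ[ℂ] (Fin (nebBound M χ k + 1) → ℂ) where
  toFun g i := (qExpansion 1 ((g : CuspForm (Gamma1 M) k) : ℍ → ℂ)).coeff i
  map_add' g g' := by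
    funext i
    have h : (((g + g' : nebSubmodule M χ k) : CuspForm (Gamma1 M) k) : ℍ → ℂ) =
        ((g : CuspForm (Gamma1 M) k) : ℍ → ℂ) + ((g' : CuspForm (Gamma1 M) k) : ℍ → ℂ) := rfl
    simp only [Pi.add_apply]
    rw [h, Nice.qExpansion_add one_pos (nice_cusp1 _) (nice_cusp1 _), map_add]
  map_smul' c g := by
    funext i
    have h : (((c • g : nebSubmodule M χ k) : CuspForm (Gamma1 M) k) : ℍ → ℂ) =
        c • ((g : CuspForm (Gamma1 M) k) : ℍ → ℂ) := rfl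
    simp only [Pi.smul_apply, RingHom.id_apply]
    rw [h, Nice.qExpansion_smul one_pos (nice_cusp1 _)]
    simp

theorem nebTrunc_injective : Function.Injective (nebTrunc M χ k) := by
  rw [← LinearMap.ker_eq_bot, LinearMap.ker_eq_bot']
  rintro ⟨g, hg⟩ h0
  have hm : 0 < orderOf χ := orderOf_pos χ
  obtain ⟨G, hG, hGq⟩ := stmt_Pow M χ k g (orderOf χ) hm (pow_orderOf_eq_one χ) hg
  have hcoeff : ∀ i ≤ nebBound M χ k, (qExpansion 1 (g : ℍ → ℂ)).coeff i = 0 := by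
    intro i hi
    exact congrFun h0 ⟨i, Nat.lt_succ_of_le hi⟩
  have hmf : (ModularFormClass.modularForm G : ModularForm (Gamma0 M) (k * (orderOf χ : ℕ))) = 0 := by
    refine ModularForm.sturm_bound_Gamma0 M _ fun n hn => ?_
    have h1 : (qExpansion 1 (ModularFormClass.modularForm G :
        ModularForm (Gamma0 M) (k * (orderOf χ : ℕ)))) = qExpansion 1 G := rfl
    rw [h1, hGq]
    exact coeff_pow_eq_zero hm hcoeff hn
  have hG0 : ∀ z, G z = 0 := by
    intro z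
    have := congrArg (fun F : ModularForm (Gamma0 M) (k * (orderOf χ : ℕ)) => F z) hmf
    exact this
  apply Subtype.ext
  apply DFunLike.ext
  intro z
  have h2 := hG z
  rw [hG0 z] at h2
  exact pow_eq_zero_iff hm.ne' |>.mp h2.symm

/-- `S_k(M, χ)` is finite dimensional, for every weight `k`. -/
theorem finiteDimensional_neb : FiniteDimensional ℂ (nebSubmodule M χ k) :=
  FiniteDimensional.of_injective (nebTrunc M χ k) (nebTrunc_injective M χ k)

/-- **FinDimNeb.** -/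
theorem stmt_FinDimNeb : Stmt_FinDimNeb := fun M _ χ k _ => finiteDimensional_neb M χ k

end Fermat.Agent.S48.B1.H34

end
end
-- ==== END Fermat.Agent.S48.B1.H34_FinDimNeb
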