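-- GENERATED (merged mirror, NOTES/tools/trim/merge3_helper67.py): 7 modules of the originals, bodies verbatim.
import Mathlib
import Fermat.Agent.Zm.S48_L01_004
import Fermat.Agent.Zm.S48_L01_001
import Fermat.Agent.Zm.S48_L02_002
import Fermat.Agent.Zm.S48_L01_005
import Fermat.Agent.Zm.S48_L02_003
import Fermat.Agent.Zm.S35_L04_004
import Fermat.Agent.Zm.S35_L06_003
import Fermat.Agent.Lib.TwistedEisensteinChar
import Fermat.Agent.S23.H22_Nice

-- ==== BEGIN Fermat.Agent.S48.H55_Irr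
section

/-!
# S48, leaf Irr (helper55): `Stmt_Rankin → Stmt_Cheb → Stmt_Irr`

If the attached representation `ρ` had a stable line `ℂ v`, with character `χ₁` on the line and
`χ₂ = det ρ / χ₁`, then `a_p = χ₁(Frob_p) + χ₂(Frob_p)` and `|a_p|² = |1 + ψ(Frob_p)|²` with
`ψ = χ₁ / χ₂`, a character with finite cyclic image `H`. Chebotarev (lower bound form, loss
`η = 1/4`) for `ψ`, summed over `H`, gives
`∑ |a_p|² p^{-s} ≥ (3/4) (1/#H) (∑_{z ∈ H} |1 + z|²) log (1/(s-1)) - C ≥ (3/2) log (1/(s-1)) - C`,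
against Rankin's `≤ log (1/(s-1)) + C`.
-/

set_option autoImplicit false
set_option linter.style.haveILetI false

open CongruenceSubgroup
open scoped MatrixGroups

namespace Fermat.Agent.S48.H55

local notation "Γℚ" => (AlgebraicClosure ℚ ≃ₐ[ℚ] AlgebraicClosure ℚ)

/-- Finite level passes to homomorphisms which are trivial where the given one is. -/
theorem finiteLevel_of_imp {M M' : Type} [MulOneClass M] [MulOneClass M'] (ρ : Γℚ →* M)
    (θ : Γℚ →* M') (h : ∀ σ, ρ σ = 1 → θ σ = 1) (hρ : GaloisFactorsThroughFiniteLevel ρ) :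
    GaloisFactorsThroughFiniteLevel θ := by
  obtain ⟨L, hL, hL'⟩ := hρ
  exact ⟨L, hL, fun σ hσ => h σ (hL' σ hσ)⟩

/-- The values of a character of finite level have norm one. -/
theorem norm_eq_one_of_finiteLevel (θ : Γℚ →* ℂˣ) (h : GaloisFactorsThroughFiniteLevel θ)
    (σ : Γℚ) : ‖((θ σ : ℂˣ) : ℂ)‖ = 1 := by
  obtain ⟨n, hn, hpow⟩ := exists_pow_eq_one_of_finiteLevel θ h σ
  have h1 : ((θ σ : ℂˣ) : ℂ) ^ n = 1 := by
    rw [← Units.val_pow_eq_pow_val, hpow, Units.val_one]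
  exact Complex.norm_eq_one_of_pow_eq_one h1 hn.ne'

/-- `‖c + d / c‖² = ‖1 + c * c * d⁻¹‖²` for `c`, `d` of norm one. -/
theorem sq_norm_add_div (c d : ℂ) (hc : ‖c‖ = 1) (hd : ‖d‖ = 1) :
    ‖c + d / c‖ ^ 2 = ‖1 + c * c * d⁻¹‖ ^ 2 := by
  have hc0 : c ≠ 0 := by
    intro h
    rw [h, norm_zero] at hc
    exact zero_ne_one hc
  have hd0 : d ≠ 0 := by
    intro h
    rw [h, norm_zero] at hd
    exact zero_ne_one hd
  have h1 : c + d / c = d / c * (1 + c * c * d⁻¹) := by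
    field_simp
    ring
  rw [h1, norm_mul, norm_div, hc, hd, div_one, one_mul]

/-- In a commutative group the conjugacy classes are singletons. -/
theorem card_isConj_eq_one {G : Type} [CommGroup G] (g : G) :
    Nat.card {h : G // IsConj g h} = 1 := by
  haveI : Unique {h : G // IsConj g h} :=
    { default := ⟨g, IsConj.refl g⟩
      uniq := fun x => Subtype.ext (isConj_iff_eq.mp x.2).symm }
  exact Nat.card_unique

/-- **Irr** from **Rankin** and **Chebotarev**. -/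
theorem stmt_Irr_of (hR : Stmt_Rankin) (hCh : Stmt_Cheb) : Stmt_Irr := by
  classical
  intro N _ ε f hf ρ hρ
  apply irr_of_no_line
  rintro ⟨v, hv0, hv⟩
  obtain ⟨hlevel, hfrob⟩ := hρ
  choose χ hχ using hv
  -- `χ` is a character
  have hχone : ∀ σ : Γℚ, ρ σ = 1 → χ σ = 1 := by
    intro σ hσ
    have h1 := hχ σ
    rw [hσ, Units.val_one, Matrix.one_mulVec] at h1
    have h2 : (1 : ℂ) • v = χ σ • v := by rw [one_smul]; exact h1
    exact (smul_left_injective ℂ hv0 h2).symm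
  have hχmul : ∀ σ τ : Γℚ, χ (σ * τ) = χ σ * χ τ := by
    intro σ τ
    have h1 := hχ (σ * τ)
    rw [map_mul, Units.val_mul, ← Matrix.mulVec_mulVec, hχ τ, Matrix.mulVec_smul, hχ σ,
      smul_smul] at h1
    have h2 := smul_left_injective ℂ hv0 h1
    rw [← h2]
    ring
  have hχne : ∀ σ : Γℚ, χ σ ≠ 0 := by
    intro σ h0
    have h1 := hχmul σ σ⁻¹
    rw [mul_inv_cancel, hχone 1 (map_one ρ), h0, zero_mul] at h1
    exact one_ne_zero h1
  let χu : Γℚ →* ℂˣ := MonoidHom.mk' (fun σ => Units.mk0 (χ σ) (hχne σ)) (fun σ τ => by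
    apply Units.ext
    simp only [Units.val_mk0, Units.val_mul]
    exact hχmul σ τ)
  have hχu : ∀ σ, ((χu σ : ℂˣ) : ℂ) = χ σ := fun σ => rfl
  let dρ : Γℚ →* ℂˣ := Matrix.GeneralLinearGroup.det.comp ρ
  have hdρ : ∀ σ, ((dρ σ : ℂˣ) : ℂ) = ((ρ σ : GL (Fin 2) ℂ) : Matrix (Fin 2) (Fin 2) ℂ).det :=
    fun σ => rfl
  let ψ : Γℚ →* ℂˣ := χu * χu * dρ⁻¹
  have hψ : ∀ σ, ((ψ σ : ℂˣ) : ℂ) = χ σ * χ σ *
      (((ρ σ : GL (Fin 2) ℂ) : Matrix (Fin 2) (Fin 2) ℂ).det)⁻¹ := by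
    intro σ
    show (((χu σ * χu σ * (dρ σ)⁻¹ : ℂˣ)) : ℂ) = _
    rw [Units.val_mul, Units.val_mul, Units.val_inv_eq_inv_val, hχu, hdρ]
  have hχu1 : ∀ σ : Γℚ, ρ σ = 1 → χu σ = 1 := fun σ hσ =>
    Units.ext (by rw [hχu, hχone σ hσ, Units.val_one])
  have hdρ1 : ∀ σ : Γℚ, ρ σ = 1 → dρ σ = 1 := fun σ hσ => by
    show Matrix.GeneralLinearGroup.det (ρ σ) = 1
    rw [hσ, map_one]
  have hψ1 : ∀ σ : Γℚ, ρ σ = 1 → ψ σ = 1 := fun σ hσ => by
    show χu σ * χu σ * (dρ σ)⁻¹ = 1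
    rw [hχu1 σ hσ, hdρ1 σ hσ]
    simp
  have hχlevel := finiteLevel_of_imp ρ χu hχu1 hlevel
  have hdlevel := finiteLevel_of_imp ρ dρ hdρ1 hlevel
  have hψlevel := finiteLevel_of_imp ρ ψ hψ1 hlevel
  -- the group `H` and the surjection `r`
  haveI : Finite ψ.range := finite_range_of_finiteLevel ψ hψlevel
  letI : Fintype ψ.range := Fintype.ofFinite _
  let r : Γℚ →* ψ.range := ψ.rangeRestrict
  have hr : ∀ σ, ((r σ : ψ.range) : ℂˣ) = ψ σ := fun σ => rfl
  have hrlevel : GaloisFactorsThroughFiniteLevel r :=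
    finiteLevel_of_imp ρ r (fun σ hσ => Subtype.ext (by rw [hr, hψ1 σ hσ]; rfl)) hlevel
  have hrsurj : Function.Surjective r := ψ.rangeRestrict_surjective
  -- the key identity at Frobenius elements
  have hkey : ∀ (p : ℕ), p.Prime → ¬ p ∣ N → ∀ (A : ValuationSubring (AlgebraicClosure ℚ))
      (σ : Γℚ), A.LiesOverPrime p → A.IsFrobeniusAt σ p →
      ‖ModularFormClass.qCoeff f p‖ ^ 2 = ‖1 + ((ψ σ : ℂˣ) : ℂ)‖ ^ 2 := by
    intro p hp hpN A σ hA hσ
    have h1 := ((hfrob p hp hpN A hA).2 σ hσ).1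
    have h2 := trace_eq_of_eigen _ v hv0 (χ σ) (hχne σ) (hχ σ)
    rw [← h1, h2, hψ]
    apply sq_norm_add_div
    · rw [← hχu]
      exact norm_eq_one_of_finiteLevel χu hχlevel σ
    · rw [← hdρ]
      exact norm_eq_one_of_finiteLevel dρ hdlevel σ
  have hmemN : ∀ p : ℕ, p.Prime → p ∉ N.primeFactors → ¬ p ∣ N := by
    intro p hp hpS hpN
    exact hpS (Nat.mem_primeFactors.mpr ⟨hp, hpN, NeZero.ne N⟩)
  refine rankin_cheb_absurd (H := ψ.range) (fun z => ‖1 + ((z : ℂˣ) : ℂ)‖ ^ 2)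
    (sum_sq_norm_one_add ψ.range) (fun z => by positivity)
    (fun p => ‖ModularFormClass.qCoeff f p‖ ^ 2)
    (fun z => {p | p ∈ frobPrimes r z ∧ p ∉ N.primeFactors}) ?_ ?_ ?_ ?_
  · rintro z p ⟨⟨hp, A, σ, hA, hσ, hrz⟩, hpS⟩
    show ‖ModularFormClass.qCoeff f p‖ ^ 2 = ‖1 + ((z : ℂˣ) : ℂ)‖ ^ 2
    rw [hkey p hp (hmemN p hp hpS) A σ hA hσ, ← hrz, hr]
  · rintro z z' p ⟨⟨hp, A, σ, hA, hσ, hrz⟩, hpS⟩ ⟨⟨_, A', σ', hA', hσ', hrz'⟩, _⟩
    have hpN := hmemN p hp hpS
    have h1 := frob_value_unique ψ p hp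
      (fun B hB τ hτ => hψ1 τ ((hfrob p hp hpN B hB).1 τ hτ)) A A' hA hA' σ σ' hσ hσ'
    apply Subtype.ext
    rw [← hrz, ← hrz', hr, hr, h1]
  · intro z
    obtain ⟨C, hC⟩ := hCh ψ.range r hrlevel hrsurj N.primeFactors z (1 / 4) (by norm_num)
    refine ⟨C, fun s hs1 hs2 => ?_⟩
    obtain ⟨T, hT1, hT2⟩ := hC s hs1 hs2
    refine ⟨T, fun p hp => hT1 p hp, ?_⟩
    rw [card_isConj_eq_one, Nat.card_eq_fintype_card] at hT2
    simpa using hT2
  · obtain ⟨C, hC⟩ := hR N ε f hf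
    refine ⟨C, fun s hs1 hs2 T hT => hC s hs1 hs2 T ?_⟩
    intro p hp
    obtain ⟨z, ⟨hp1, _⟩, hpS⟩ := hT p hp
    exact ⟨hp1, hmemN p hp1 hpS⟩

end Fermat.Agent.S48.H55

end
-- ==== END Fermat.Agent.S48.H55_Irr

-- ==== BEGIN Fermat.Agent.S48.H78_LiftCore
section

/-!
# S48 leaf F (`Stmt_Lift`), part 4: the core lifting theorem

`lift_core`: let `φ : ℤ̄ →+* k` (`k` a field), `G` a finite group with `|G| ≠ 0` in `k`, and
`r : G →* Matrix m m k` a representation with the Schur property and `|m| ≠ 0` in `k`.  Then one of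
the Wedderburn components `R i` of `ℂ[G]` has degree `|m|` and its character reduces (under `φ`)
to the character of `r`.
-/

set_option autoImplicit false

open Matrix

namespace Fermat.Agent.S48.H78

local notation "Zbar" => integralClosure ℤ ℂ

variable {G : Type} [Group G] [Fintype G]

/-- The inclusion `ℤ̄ → ℂ`. -/
noncomputable def iotaS : Zbar →+* ℂ := (integralClosure ℤ ℂ).val.toRingHom

lemma iotaS_apply (x : Zbar) : iotaS x = (x : ℂ) := rfl

lemma iotaS_injective : Function.Injective iotaS := Subtype.val_injective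

/-- Character values as algebraic integers. -/
noncomputable def WeddData.chiS (D : WeddData G) (i : Fin D.s) (g : G) : Zbar :=
  ⟨chr (D.R i) g, isIntegral_chr (D.R i) g⟩

lemma WeddData.coe_chiS (D : WeddData G) (i : Fin D.s) (g : G) :
    ((D.chiS i g : Zbar) : ℂ) = chr (D.R i) g := rfl

lemma WeddData.chiS_conj (D : WeddData G) (i : Fin D.s) (h x : G) :
    D.chiS i (h * x * h⁻¹) = D.chiS i x :=
  Subtype.ext (chr_conj (D.R i) h x)

lemma WeddData.regularS (D : WeddData G) [DecidableEq G] (g : G) :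
    ∑ i, (D.d i : Zbar) * D.chiS i g = if g = 1 then (Fintype.card G : Zbar) else 0 := by
  apply iotaS_injective
  have := D.regular g
  rw [map_sum]
  simp only [map_mul, map_natCast, iotaS_apply, D.coe_chiS]
  rw [this]
  split_ifs <;> simp

lemma WeddData.feS (D : WeddData G) (i : Fin D.s) (g x : G) :
    (D.d i : Zbar) * ∑ h, D.chiS i (h * g * h⁻¹ * x) =
      (Fintype.card G : Zbar) * D.chiS i g * D.chiS i x := by
  apply iotaS_injective
  have := schur_fe (D.R i) (D.schur i) g x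
  rw [Fintype.card_fin] at this
  simp only [map_mul, map_sum, map_natCast, iotaS_apply, D.coe_chiS]
  exact this

/-- The integral scaled idempotent matrix of the block `i`. -/
noncomputable def WeddData.MS (D : WeddData G) (i : Fin D.s) : Matrix G G Zbar :=
  fun g h => (D.d i : Zbar) * D.chiS i (g⁻¹ * h)

lemma WeddData.MS_map_iota (D : WeddData G) (i : Fin D.s) :
    (D.MS i).map iotaS = (D.d i : ℂ) • charMat (D.R i) := by
  ext g h
  simp [WeddData.MS, Matrix.map_apply, iotaS_apply, D.coe_chiS, charMat]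

lemma WeddData.MS_sq (D : WeddData G) [DecidableEq G] (i : Fin D.s) :
    D.MS i * D.MS i = (Fintype.card G : Zbar) • D.MS i := by
  apply Matrix.map_injective iotaS_injective
  show (D.MS i * D.MS i).map iotaS = ((Fintype.card G : Zbar) • D.MS i).map iotaS
  rw [Matrix.map_mul, D.MS_map_iota]
  have h1 : ((Fintype.card G : Zbar) • D.MS i).map iotaS =
      (Fintype.card G : ℂ) • ((D.d i : ℂ) • charMat (D.R i)) := by
    rw [← D.MS_map_iota]
    ext g h
    simp [Matrix.map_apply, iotaS_apply]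
  rw [h1]
  have h2 := matV_mul_matU (D.R i) (D.schur i)
  rw [Fintype.card_fin] at h2
  have hCC : (D.d i : ℂ) • (charMat (D.R i) * charMat (D.R i)) =
      (Fintype.card G : ℂ) • charMat (D.R i) := by
    rw [← matU_mul_matV]
    calc (D.d i : ℂ) • (matU (D.R i) * matV (D.R i) * (matU (D.R i) * matV (D.R i)))
        = matU (D.R i) * ((D.d i : ℂ) • (matV (D.R i) * matU (D.R i))) * matV (D.R i) := by
          simp only [Matrix.mul_assoc, Matrix.mul_smul, Matrix.smul_mul]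
      _ = (Fintype.card G : ℂ) • (matU (D.R i) * matV (D.R i)) := by
          rw [h2]; simp only [Matrix.mul_smul, Matrix.smul_mul, Matrix.mul_one]
  rw [Matrix.smul_mul, Matrix.mul_smul, hCC, smul_comm]

section kside

variable {k : Type} [Field k] (φ : Zbar →+* k)
  {m : Type} [Fintype m] [DecidableEq m] (r : G →* Matrix m m k)

/-- The reduced character values. -/
noncomputable def WeddData.chib (D : WeddData G) (i : Fin D.s) (g : G) : k :=
  φ (D.chiS i g)

lemma WeddData.chib_conj (D : WeddData G) (i : Fin D.s) (h x : G) :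
    D.chib φ i (h * x * h⁻¹) = D.chib φ i x := by
  unfold WeddData.chib; rw [D.chiS_conj]

lemma WeddData.regular_k (D : WeddData G) [DecidableEq G] (g : G) :
    ∑ i, (D.d i : k) * D.chib φ i g = if g = 1 then (Fintype.card G : k) else 0 := by
  have := congrArg φ (D.regularS g)
  rw [map_sum] at this
  simp only [map_mul, map_natCast] at this
  simp only [WeddData.chib]
  rw [this]
  split_ifs <;> simp

lemma WeddData.fe_k (D : WeddData G) (i : Fin D.s) (g x : G) :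
    (D.d i : k) * ∑ h, D.chib φ i (h * g * h⁻¹ * x) =
      (Fintype.card G : k) * D.chib φ i g * D.chib φ i x := by
  have := congrArg φ (D.feS i g x)
  simp only [map_mul, map_sum, map_natCast] at this
  exact this

/-- The matrix `T_i = ∑ g, χ̄_i(g⁻¹) r(g)`. -/
noncomputable def WeddData.Tmat (D : WeddData G) (i : Fin D.s) : Matrix m m k :=
  ∑ g, D.chib φ i g⁻¹ • r g

lemma WeddData.Tmat_comm (D : WeddData G) (i : Fin D.s) (h : G) :
    D.Tmat φ r i * r h = r h * D.Tmat φ r i := by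
  unfold WeddData.Tmat
  rw [Matrix.sum_mul, Matrix.mul_sum]
  refine Fintype.sum_equiv (MulAut.conj h⁻¹).toEquiv _ _ (fun g => ?_)
  simp only [MulEquiv.toEquiv_eq_coe, EquivLike.coe_coe, MulAut.conj_apply]
  rw [Matrix.smul_mul, Matrix.mul_smul, ← map_mul, ← map_mul]
  have e1 : (h⁻¹ * g * h⁻¹⁻¹)⁻¹ = h⁻¹ * g⁻¹ * h⁻¹⁻¹ := by group
  rw [e1, D.chib_conj]
  congr 2
  group

lemma WeddData.sum_Tmat (D : WeddData G) :
    ∑ i, (D.d i : k) • D.Tmat φ r i = (Fintype.card G : k) • (1 : Matrix m m k) := by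
  classical
  unfold WeddData.Tmat
  simp only [Finset.smul_sum, smul_smul]
  rw [Finset.sum_comm]
  simp only [← Finset.sum_smul]
  simp only [D.regular_k φ, inv_eq_one, ite_smul, zero_smul]
  rw [Finset.sum_ite_eq' Finset.univ (1 : G)]
  simp

/-- Key identity: `d_i t_i ψ(g) = t_i |m| χ̄_i(g)`, where `T_i = t_i`. -/
lemma WeddData.key (D : WeddData G) (hn : (Fintype.card G : k) ≠ 0)
    (i : Fin D.s) (t : k) (ht : D.Tmat φ r i = t • (1 : Matrix m m k)) (g : G) :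
    (D.d i : k) * (t * chr r g) = t * ((Fintype.card m : k) * D.chib φ i g) := by
  -- the double sum
  set Q : Matrix m m k := ∑ h, ∑ x, D.chib φ i (h * g * h⁻¹ * x⁻¹) • r x with hQ
  -- (a) via the functional equation
  have ha : (D.d i : k) • Q = ((Fintype.card G : k) * D.chib φ i g * t) • (1 : Matrix m m k) := by
    rw [hQ, Finset.sum_comm, Finset.smul_sum]
    have : ∀ x : G, (D.d i : k) • ∑ h, D.chib φ i (h * g * h⁻¹ * x⁻¹) • r x =
        ((Fintype.card G : k) * D.chib φ i g) • (D.chib φ i x⁻¹ • r x) := by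
      intro x
      rw [← Finset.sum_smul, smul_smul, D.fe_k φ i g x⁻¹, smul_smul]
    simp only [this]
    rw [← Finset.smul_sum]
    have hT : ∑ x, D.chib φ i x⁻¹ • r x = D.Tmat φ r i := rfl
    rw [hT, ht, smul_smul]
  -- (b) via the substitution
  have hb : Q = ∑ h : G, t • r (h * g * h⁻¹) := by
    rw [hQ]
    refine Finset.sum_congr rfl (fun h _ => ?_)
    have : ∑ x, D.chib φ i (h * g * h⁻¹ * x⁻¹) • r x =
        ∑ y, D.chib φ i y⁻¹ • r (y * (h * g * h⁻¹)) := by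
      refine Fintype.sum_equiv (Equiv.mulRight (h * g * h⁻¹)⁻¹) _ _ (fun x => ?_)
      simp only [Equiv.coe_mulRight]
      congr 2
      · group
      · group
    rw [this]
    simp only [map_mul r _ (h * g * h⁻¹)]
    simp only [← Matrix.smul_mul]
    rw [← Matrix.sum_mul]
    have hT : ∑ x, D.chib φ i x⁻¹ • r x = D.Tmat φ r i := rfl
    rw [hT, ht, Matrix.smul_mul, Matrix.one_mul, map_mul]
  have htr1 : ((D.d i : k) • Q).trace =
      (Fintype.card G : k) * D.chib φ i g * t * (Fintype.card m : k) := by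
    rw [ha, Matrix.trace_smul, Matrix.trace_one, smul_eq_mul]
  have htr2 : Q.trace = (Fintype.card G : k) * (t * chr r g) := by
    rw [hb, Matrix.trace_sum]
    have : ∀ h : G, (t • r (h * g * h⁻¹)).trace = t * chr r g := by
      intro h
      rw [Matrix.trace_smul, smul_eq_mul]
      congr 1
      exact chr_conj r h g
    simp only [this, Finset.sum_const, Finset.card_univ, nsmul_eq_mul]
  rw [Matrix.trace_smul, smul_eq_mul, htr2] at htr1
  have : (Fintype.card G : k) * ((D.d i : k) * (t * chr r g)) =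
      (Fintype.card G : k) * (t * ((Fintype.card m : k) * D.chib φ i g)) := by
    rw [← mul_assoc, mul_comm (Fintype.card G : k) (D.d i : k), mul_assoc, htr1]
    ring
  exact mul_left_cancel₀ hn this

/-- **Core lifting theorem.** -/
theorem lift_core (D : WeddData G) (hS : SchurProp r) (hm : (Fintype.card m : k) ≠ 0)
    (hn : (Fintype.card G : k) ≠ 0) :
    ∃ i : Fin D.s, D.d i = Fintype.card m ∧ ∀ g, φ (D.chiS i g) = chr r g := by
  classical
  -- scalars t_i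
  have hT : ∀ i, ∃ t : k, D.Tmat φ r i = t • (1 : Matrix m m k) :=
    fun i => hS _ (D.Tmat_comm φ r i)
  choose t ht using hT
  -- some `d_i t_i ≠ 0`
  have hex : ∃ i, (D.d i : k) * t i ≠ 0 := by
    by_contra hcon
    push Not at hcon
    have := D.sum_Tmat φ r
    have h0 : ∑ i, (D.d i : k) • D.Tmat φ r i = 0 := by
      refine Finset.sum_eq_zero (fun i _ => ?_)
      rw [ht i, smul_smul, hcon i, zero_smul]
    rw [h0] at this
    have h1 := congrArg Matrix.trace this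
    rw [Matrix.trace_zero, Matrix.trace_smul, Matrix.trace_one, smul_eq_mul] at h1
    exact (mul_ne_zero hn hm) h1.symm
  obtain ⟨i, hi⟩ := hex
  have hdi : (D.d i : k) ≠ 0 := left_ne_zero_of_mul hi
  have hti : t i ≠ 0 := right_ne_zero_of_mul hi
  -- key identity
  have hkey : ∀ g, (D.d i : k) * chr r g = (Fintype.card m : k) * D.chib φ i g := by
    intro g
    have := D.key φ r hn i (t i) (ht i) g
    have h2 : t i * ((D.d i : k) * chr r g) = t i * ((Fintype.card m : k) * D.chib φ i g) := by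
      rw [← this]; ring
    exact mul_left_cancel₀ hti h2
  -- ranks
  have hrankC : ((D.MS i).map iotaS).rank = D.d i * D.d i := by
    rw [D.MS_map_iota]
    have hd0 : (D.d i : ℂ) ≠ 0 := by exact_mod_cast (D.d_pos i).ne'
    have hn0 : (Fintype.card G : ℂ) ≠ 0 := by exact_mod_cast Fintype.card_ne_zero
    have h1 := rank_charMat (D.R i) (D.schur i) (by rwa [Fintype.card_fin]) hn0
    rw [Fintype.card_fin] at h1
    rw [← h1]
    have : (D.d i : ℂ) • charMat (D.R i) =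
        charMat (D.R i) * ((D.d i : ℂ) • (1 : Matrix G G ℂ)) := by
      rw [Matrix.mul_smul, Matrix.mul_one]
    rw [this]
    apply Matrix.rank_mul_eq_left_of_isUnit_det
    rw [Matrix.det_smul, Matrix.det_one, mul_one]
    exact (IsUnit.mk0 _ hd0).pow _
  have hrankk : ((D.MS i).map φ).rank = Fintype.card m * Fintype.card m := by
    have h1 := rank_charMat r hS hm hn
    rw [← h1]
    have : (D.MS i).map φ =
        charMat r * (((D.d i : k) * (D.d i : k) * (Fintype.card m : k)⁻¹) • (1 : Matrix G G k)) := by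
      rw [Matrix.mul_smul, Matrix.mul_one]
      ext g h
      simp only [WeddData.MS, Matrix.map_apply, map_mul, map_natCast, Matrix.smul_apply, charMat,
        smul_eq_mul]
      have := hkey (g⁻¹ * h)
      have e : φ (D.chiS i (g⁻¹ * h)) = D.chib φ i (g⁻¹ * h) := rfl
      rw [e]
      field_simp
      linear_combination -this
    rw [this]
    apply Matrix.rank_mul_eq_left_of_isUnit_det
    rw [Matrix.det_smul, Matrix.det_one, mul_one]
    exact (IsUnit.mk0 _ (mul_ne_zero (mul_ne_zero hdi hdi) (inv_ne_zero hm))).pow _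
  have hRP := rank_map_eq_of_sq (D.MS i) (Fintype.card G : Zbar) (D.MS_sq i) iotaS
    iotaS_injective φ
    (by rw [map_natCast]; exact_mod_cast Fintype.card_ne_zero)
    (by rw [map_natCast]; exact hn)
  rw [hrankC, hrankk] at hRP
  have hdm : D.d i = Fintype.card m := by
    have := Nat.mul_self_inj.mp hRP
    exact this
  refine ⟨i, hdm, fun g => ?_⟩
  have := hkey g
  rw [hdm] at this
  exact (mul_left_cancel₀ hm this).symm

end kside

end Fermat.Agent.S48.H78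

end
-- ==== END Fermat.Agent.S48.H78_LiftCore

-- ==== BEGIN Fermat.Agent.S48.Int.H01_CoeffFG
section

/-!
# S48, leaf A, sub-leaf A-CoeffFG (helper1)

The `q`-coefficients of a cusp form `F` of weight `k ≥ 1` on `Γ₀(N)` lie in a finitely generated
subgroup of `ℂ`: `a_n(F) = a_1(T_n F)` with `T_n` in the Hecke algebra, which is a finitely
generated `ℤ`-module (S22).
-/

set_option autoImplicit false

namespace Fermat.Agent.S48.Int.H01

open ModularFormClass CuspForm UpperHalfPlane ModularForm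
open Fermat.Agent.S23.H77

local notation "Γ₀(" N ")" => CongruenceSubgroup.Gamma0 N

variable {N : ℕ}

/-- For every `n ≥ 1` there is `T_n` in the Hecke algebra of weight `k = m + 1` with
`a₁ (T_n g) = a_n g`. -/
theorem exists_hecke_coeff_wt [NeZero N] (k : ℤ) (m : ℕ) (hk : k - 1 = m) (n : ℕ) (hn : 0 < n) :
    ∃ T ∈ CuspForm.heckeAlgebra N k ∅, ∀ g : CuspForm Γ₀(N) k,
      coeffLin N k 1 (T g) = coeffLin N k n g := by
  induction n using Nat.strong_induction_on with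
  | _ n ih =>
    by_cases h1 : n = 1
    · subst h1
      exact ⟨1, Subalgebra.one_mem _, fun g => rfl⟩
    · have hp : (n.minFac).Prime := Nat.minFac_prime h1
      obtain ⟨r, hr⟩ : n.minFac ∣ n := Nat.minFac_dvd n
      set p := n.minFac with hpdef
      have hp0 : 0 < p := hp.pos
      have hr0 : 0 < r := by
        rcases Nat.eq_zero_or_pos r with h | h
        · rw [h, mul_zero] at hr; omega
        · exact h
      have hrn : r < n := by
        rw [hr]
        have : 2 ≤ p := hp.two_le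
        nlinarith
      obtain ⟨Tr, hTr, hTr'⟩ := ih r hrn hr0
      by_cases hpN : p ∣ N
      · refine ⟨Tr * CuspForm.heckeULin k hpN,
          mul_mem hTr (CuspForm.heckeULin_mem_heckeAlgebra hp hpN (by simp)), fun g => ?_⟩
        rw [Module.End.mul_apply, hTr', coeffLin_heckeULin hp hpN, ModularForm.coeffHeckeU_apply,
          hr, mul_comm]
      · by_cases hpr : p ∣ r
        · have hrp0 : 0 < r / p := Nat.div_pos (Nat.le_of_dvd hr0 hpr) hp0
          have hrpn : r / p < n := lt_of_le_of_lt (Nat.div_le_self r p) hrn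
          obtain ⟨Tr', hTr'mem, hTr'spec⟩ := ih (r / p) hrpn hrp0
          refine ⟨Tr * CuspForm.heckeTLin k hp hpN - ((p : ℤ) ^ m) • Tr',
            sub_mem (mul_mem hTr (CuspForm.heckeTLin_mem_heckeAlgebra hp hpN (by simp)))
              (Subalgebra.zsmul_mem _ hTr'mem _), fun g => ?_⟩
          rw [LinearMap.sub_apply, LinearMap.smul_apply, Module.End.mul_apply, map_sub, hTr',
            coeffLin_heckeTLin hp hpN, ModularForm.coeffHeckeT_of_dvd k hpr]
          have hz : (((p : ℤ) ^ m) • Tr' g) = ((p : ℂ) ^ m) • Tr' g := by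
            rw [← Int.cast_smul_eq_zsmul ℂ]
            push_cast
            rfl
          rw [hz, map_smul, hTr'spec, hr, mul_comm p r, hk, zpow_natCast]
          simp only [smul_eq_mul]
          ring
        · refine ⟨Tr * CuspForm.heckeTLin k hp hpN,
            mul_mem hTr (CuspForm.heckeTLin_mem_heckeAlgebra hp hpN (by simp)), fun g => ?_⟩
          rw [Module.End.mul_apply, hTr', coeffLin_heckeTLin hp hpN,
            ModularForm.coeffHeckeT_of_not_dvd k hpr, hr, mul_comm]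

/-- The `q`-coefficients of a cusp form of weight `k = m + 1` on `Γ₀(N)` lie in a finitely
generated subgroup of `ℂ`. -/
theorem coeff_mem_fg [NeZero N] (k : ℤ) (m : ℕ) (hk : k - 1 = m) (F : CuspForm Γ₀(N) k) :
    ∃ Λ : Submodule ℤ ℂ, Λ.FG ∧ ∀ n : ℕ, (qExpansion 1 F).coeff n ∈ Λ := by
  classical
  have hfin : Module.Finite ℤ (CuspForm.heckeAlgebra N k ∅) := Fermat.Agent.S22.result N k ∅
  let Φ : CuspForm.heckeAlgebra N k ∅ →ₗ[ℤ] ℂ :=
    { toFun := fun T => coeffLin N k 1 ((T : Module.End ℂ (CuspForm Γ₀(N) k)) F)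
      map_add' := fun T T' => by
        simp only [Subalgebra.coe_add, LinearMap.add_apply, map_add]
      map_smul' := fun c T => by
        simp only [Subalgebra.coe_smul, LinearMap.smul_apply, eq_intCast, Int.cast_id]
        have hz : (c • ((T : Module.End ℂ (CuspForm Γ₀(N) k)) F))
            = ((c : ℂ)) • ((T : Module.End ℂ (CuspForm Γ₀(N) k)) F) := by
          rw [Int.cast_smul_eq_zsmul]
        rw [hz, map_smul, smul_eq_mul, zsmul_eq_mul] }
  refine ⟨LinearMap.range Φ, ?_, fun n => ?_⟩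
  · rw [LinearMap.range_eq_map]
    exact (Module.Finite.fg_top).map Φ
  · rcases Nat.eq_zero_or_pos n with h0 | hn
    · subst h0
      have : (qExpansion 1 F).coeff 0 = 0 := coeffLin_zero_eq_zero F
      rw [this]
      exact Submodule.zero_mem _
    · obtain ⟨T, hT, hTspec⟩ := exists_hecke_coeff_wt (N := N) k m hk n hn
      exact ⟨⟨T, hT⟩, hTspec F⟩

/-- **A-CoeffFG.** -/
theorem stmt_CoeffFG : Stmt_CoeffFG := by
  intro N _ F
  exact coeff_mem_fg (4 : ℤ) 3 (by norm_num) F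

end Fermat.Agent.S48.Int.H01

end
-- ==== END Fermat.Agent.S48.Int.H01_CoeffFG

-- ==== BEGIN Fermat.Agent.S48.Int.H01_Eis
section

/-!
# S48, leaf A, sub-leaf A-Eis (helper1): the weight 3 Eisenstein series of an odd character

`E_ψ = C⁻¹ · ∑_{(c,d)} ψ(c) (c z + d)⁻³`, `C = 2 (-2πi)³ / 2!`.  Holomorphy, boundedness at the
cusps and the slash rule come from `Lib/TwistedEisenstein.lean` (helper96), the `q`-expansion from
`NEB.H34.wEis_cWeight_eq` (helper34).  Pattern: `NEB/H29_EisAn.lean` (helper29).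
-/

set_option autoImplicit false

open UpperHalfPlane hiding I
open ModularForm EisensteinSeries Filter Topology Complex Set
open scoped MatrixGroups Manifold Real Nat

noncomputable section

namespace Fermat.Agent.S48.Int.H01

open Fermat.Agent.Lib.TwistedEisenstein Fermat.Agent.NEB.H34

variable (N : ℕ) (ψ : DirichletCharacter ℂ N)

/-- The function `c ↦ ψ(c mod N)` on `ℤ`. -/
def chiOf (c : ℤ) : ℂ := ψ ((c : ZMod N))

theorem norm_chiOf_le (c : ℤ) : ‖chiOf N ψ c‖ ≤ 1 := DirichletCharacter.norm_le_one ψ _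

theorem chiOf_zero (hN : 1 < N) : chiOf N ψ 0 = 0 := by
  have : Fact (1 < N) := ⟨hN⟩
  unfold chiOf
  rw [Int.cast_zero]
  exact MulChar.map_zero ψ

theorem chiOf_neg (hodd : ψ (-1) = -1) (c : ℤ) : chiOf N ψ (-c) = (-1) ^ 3 * chiOf N ψ c := by
  unfold chiOf
  rw [Int.cast_neg, ← neg_one_mul, map_mul, hodd]
  norm_num

theorem chiOf_mul (a b : ZMod N) (c : ℤ) (h : ((c : ℤ) : ZMod N) = a * b) :
    chiOf N ψ c = ψ a * ψ b := by
  unfold chiOf
  rw [h, map_mul]

theorem norm_cWeight_chiOf_le (v : Fin 2 → ℤ) : ‖cWeight (chiOf N ψ) v‖ ≤ 1 :=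
  norm_chiOf_le N ψ _

/-- The constant `2 (-2πi)³ / 2!`. -/
def eisC3 : ℂ := 2 * ((-2 * π * I) ^ 3 / ((3 - 1)! : ℕ))

theorem eisC3_ne_zero : eisC3 ≠ 0 := by
  unfold eisC3
  have hpi : (π : ℂ) ≠ 0 := by exact_mod_cast Real.pi_ne_zero
  have : (-2 * (π : ℂ) * I) ≠ 0 := by
    simp [hpi, Complex.I_ne_zero]
  have h3 : (((3 - 1)! : ℕ) : ℂ) ≠ 0 := by
    exact_mod_cast Nat.factorial_ne_zero (3 - 1)
  exact mul_ne_zero two_ne_zero (div_ne_zero (pow_ne_zero 3 this) h3)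

/-- The Eisenstein series `E_ψ` of weight 3. -/
def eis3 : ℍ → ℂ := fun z => eisC3⁻¹ * wEis 3 (cWeight (chiOf N ψ)) z

theorem eis3_mdifferentiable : MDiff (eis3 N ψ) := by
  have h := wEis_mdifferentiable (k := 3) (by norm_num) (norm_cWeight_chiOf_le N ψ)
  exact (mdifferentiable_const (c := eisC3⁻¹)).mul h

theorem eis3_slash (A : SL(2, ℤ)) :
    eis3 N ψ ∣[(3 : ℤ)] A = fun z => eisC3⁻¹ * wEis 3 (wSlash (cWeight (chiOf N ψ)) A) z := by
  unfold eis3
  rw [smul_slash_SL, wEis_slash]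

theorem eis3_isBoundedAtImInfty_slash (A : SL(2, ℤ)) :
    IsBoundedAtImInfty (eis3 N ψ ∣[(3 : ℤ)] A) := by
  rw [eis3_slash]
  have h := isBoundedAtImInfty_wEis (k := 3) (by norm_num)
    (norm_wSlash_le (norm_cWeight_chiOf_le N ψ) A)
  exact (Filter.const_boundedAtFilter atImInfty (eisC3⁻¹)).mul h

/-! ### The slash rule for `Γ₀(N)` -/

open Matrix in
theorem cast_vecMul_inv_zero' (γ : SL(2, ℤ)) (hγ : γ ∈ CongruenceSubgroup.Gamma0 N)
    (v : Fin 2 → ℤ) :
    ((((v ᵥ* ((γ⁻¹ : SL(2, ℤ)) : Matrix (Fin 2) (Fin 2) ℤ)) 0 : ℤ)) : ZMod N)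
      = (((γ 1 1 : ℤ)) : ZMod N) * ((v 0 : ℤ) : ZMod N) := by
  set w := v ᵥ* ((γ⁻¹ : SL(2, ℤ)) : Matrix (Fin 2) (Fin 2) ℤ) with hw
  have hv : v = w ᵥ* (γ : Matrix (Fin 2) (Fin 2) ℤ) := (vecMul_inv_vecMul γ v).symm
  have hv0 : v 0 = w 0 * γ 0 0 + w 1 * γ 1 0 := by
    rw [hv]
    simp [Matrix.vecMul, Matrix.vec2_dotProduct]
  have hc : ((γ 1 0 : ℤ) : ZMod N) = 0 := CongruenceSubgroup.Gamma0_mem.mp hγ
  have hdet : γ 0 0 * γ 1 1 - γ 0 1 * γ 1 0 = 1 := by
    have := γ.det_coe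
    rwa [Matrix.det_fin_two] at this
  have hdet' : ((γ 0 0 : ℤ) : ZMod N) * ((γ 1 1 : ℤ) : ZMod N) = 1 := by
    have := congrArg (fun x : ℤ => (x : ZMod N)) hdet
    simp only [Int.cast_sub, Int.cast_mul, Int.cast_one, hc, mul_zero, sub_zero] at this
    exact this
  rw [hv0]
  push_cast
  rw [hc, mul_zero, add_zero]
  calc ((w 0 : ℤ) : ZMod N)
      = (w 0 : ZMod N) * (((γ 0 0 : ℤ) : ZMod N) * ((γ 1 1 : ℤ) : ZMod N)) := by
        rw [hdet', mul_one]
    _ = ((γ 1 1 : ℤ) : ZMod N) * ((w 0 : ZMod N) * ((γ 0 0 : ℤ) : ZMod N)) := by ring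

theorem eis3_hasNeb : HasNeb N ψ 3 (eis3 N ψ) := by
  intro γ hγ
  rw [eis3_slash]
  have hw : wSlash (cWeight (chiOf N ψ)) γ =
      fun v => ψ (((γ 1 1 : ℤ) : ZMod N)) * cWeight (chiOf N ψ) v := by
    funext v
    rw [wSlash_apply]
    simp only [cWeight]
    exact chiOf_mul N ψ _ _ _ (cast_vecMul_inv_zero' N γ hγ v)
  rw [hw]
  funext z
  rw [wEis_const_mul, Pi.smul_apply, smul_eq_mul, eis3]
  ring

/-! ### The `q`-expansion -/

theorem sigmaChi_zero (χ : ℤ → ℂ) (k : ℕ) : sigmaChi χ k 0 = 0 := by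
  simp [sigmaChi]

theorem norm_sigmaChi_le (n : ℕ) : ‖sigmaChi (chiOf N ψ) 2 n‖ ≤ (n : ℝ) ^ 3 := by
  unfold sigmaChi
  refine (norm_sum_le _ _).trans ?_
  have h1 : ∀ x ∈ n.divisorsAntidiagonal,
      ‖chiOf N ψ (x.1 : ℤ) * ((x.2 : ℕ) : ℂ) ^ 2‖ ≤ ((x.2 : ℕ) : ℝ) ^ 2 := by
    intro x _
    rw [norm_mul, norm_pow, Complex.norm_natCast]
    exact mul_le_of_le_one_left (by positivity) (norm_chiOf_le N ψ _)
  refine (Finset.sum_le_sum h1).trans ?_
  have h2 : ∑ x ∈ n.divisorsAntidiagonal, ((x.2 : ℕ) : ℝ) ^ 2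
      = ((ArithmeticFunction.sigma 2 n : ℕ) : ℝ) := by
    rw [ArithmeticFunction.sigma_apply, ← Nat.sum_div_divisors n (fun d => d ^ 2),
      Nat.sum_divisorsAntidiagonal (fun _ b => ((b : ℕ) : ℝ) ^ 2)]
    push_cast
    rfl
  rw [h2]
  exact_mod_cast ArithmeticFunction.sigma_le_pow_succ 2 n

theorem summable_sigmaChi (τ : ℍ) :
    Summable fun n : ℕ => sigmaChi (chiOf N ψ) 2 n * cexp (2 * π * I * τ) ^ n := by
  apply Summable.of_norm_bounded
    (summable_norm_pow_mul_geometric_of_norm_lt_one 3 (norm_exp_two_pi_I_lt_one τ))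
  intro n
  simp only [norm_mul, Complex.norm_natCast, norm_pow]
  gcongr
  have := norm_sigmaChi_le N ψ n
  simpa using this

theorem eis3_eq_tsum (hN : 1 < N) (hodd : ψ (-1) = -1) (τ : ℍ) :
    eis3 N ψ τ = ∑' n : ℕ, sigmaChi (chiOf N ψ) 2 n * cexp (2 * π * I * τ) ^ n := by
  have h := wEis_cWeight_eq (k := 3) (by norm_num) (chiOf N ψ) (norm_chiOf_le N ψ)
    (chiOf_neg N ψ hodd) (chiOf_zero N ψ hN) τ
  have e3 : ((3 : ℕ) : ℤ) = (3 : ℤ) := by norm_num
  rw [e3] at h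
  unfold eis3
  rw [h, ← tsum_zero_pnat_eq_tsum_nat (summable_sigmaChi N ψ τ), sigmaChi_zero]
  simp only [zero_mul, zero_add]
  have hC : (2 * ((-2 * (π : ℂ) * I) ^ 3 / ((3 - 1)! : ℕ)) : ℂ) = eisC3 := rfl
  rw [hC, ← mul_assoc, inv_mul_cancel₀ eisC3_ne_zero, one_mul]

theorem hasSum_eis3 (hN : 1 < N) (hodd : ψ (-1) = -1) (τ : ℍ) :
    HasSum (fun m : ℕ => sigmaChi (chiOf N ψ) 2 m • Function.Periodic.qParam 1 τ ^ m)
      (eis3 N ψ τ) := by
  rw [eis3_eq_tsum N ψ hN hodd τ]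
  have h1 := (summable_sigmaChi N ψ τ).hasSum
  have hf : (fun m : ℕ => sigmaChi (chiOf N ψ) 2 m • Function.Periodic.qParam 1 τ ^ m)
      = fun i : ℕ => sigmaChi (chiOf N ψ) 2 i * cexp (2 * π * I * τ) ^ i := by
    funext m
    simp only [smul_eq_mul, Function.Periodic.qParam, ofReal_one, div_one]
  rw [hf]
  exact h1

open Matrix in
theorem tInvariant_cWeight' (χ : ℤ → ℂ) : TInvariant (cWeight χ) := by
  intro v
  unfold cWeight
  congr 1
  simp [Matrix.vecMul, ModularGroup.T]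
  rfl

theorem periodic_eis3 : Function.Periodic ((eis3 N ψ) ∘ ofComplex) (1 : ℝ) := by
  have h := periodic_wEis (k := 3) (tInvariant_cWeight' (chiOf N ψ))
  intro x
  have := h x
  simp only [Function.comp_apply, eis3] at this ⊢
  rw [this]

theorem eis3_isBoundedAtImInfty : IsBoundedAtImInfty (eis3 N ψ) := by
  have h := eis3_isBoundedAtImInfty_slash N ψ 1
  rwa [SlashAction.slash_one] at h

theorem analyticAt_cuspFunction_eis3 : AnalyticAt ℂ (cuspFunction 1 (eis3 N ψ)) 0 :=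
  analyticAt_cuspFunction_zero one_pos (periodic_eis3 N ψ) (eis3_mdifferentiable N ψ)
    (eis3_isBoundedAtImInfty N ψ)

theorem qExpansion_eis3_coeff (hN : 1 < N) (hodd : ψ (-1) = -1) (m : ℕ) :
    (qExpansion 1 (eis3 N ψ)).coeff m = sigmaChi (chiOf N ψ) 2 m :=
  (UpperHalfPlane.qExpansion_coeff_unique
    (ContinuousMap.mk (eis3 N ψ) (eis3_mdifferentiable N ψ).continuous) one_pos
    (analyticAt_cuspFunction_eis3 N ψ) (hasSum_eis3 N ψ hN hodd) m).symm

theorem qExpansion_eis3 (hN : 1 < N) (hodd : ψ (-1) = -1) :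
    qExpansion 1 (eis3 N ψ) = eisSeries N ψ := by
  ext m
  rw [qExpansion_eis3_coeff N ψ hN hodd m, eisSeries, PowerSeries.coeff_mk]
  rfl

/-- **A-Eis.** -/
theorem stmt_Eis : Stmt_Eis := by
  intro N _ hN ψ hodd
  exact ⟨eis3 N ψ, eis3_mdifferentiable N ψ, eis3_isBoundedAtImInfty_slash N ψ,
    eis3_hasNeb N ψ, qExpansion_eis3 N ψ (by omega) hodd⟩

end Fermat.Agent.S48.Int.H01

end
end
-- ==== END Fermat.Agent.S48.Int.H01_Eis

-- ==== BEGIN Fermat.Agent.S48.Int.H22_ProdPow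
section

/-!
# S48, leaf A, sub-leaves A-Prod and A-Pow (helper22)

* `stmt_Prod : Stmt_Prod`: the product of a cusp form on `Γ₁(N)` with character `χ` and a
  holomorphic function bounded at all cusps with character `χ⁻¹` is a cusp form on `Γ₀(N)`;
* `stmt_Pow : Stmt_Pow`: the `m`-th power of a cusp form with character `χ`, `χ ^ m = 1`, is a
  cusp form on `Γ₀(N)`.
-/

set_option autoImplicit false

open CongruenceSubgroup UpperHalfPlane ModularForm
open scoped MatrixGroups ModularForm Manifold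

noncomputable section

namespace Fermat.Agent.S48.Int.H22

open Fermat.Agent.S23.H22

variable {N : ℕ}

/-- The lower right entry of an element of `Γ₀(N)` is a unit modulo `N`. -/
theorem isUnit_lowerRight {γ : SL(2, ℤ)} (hγ : γ ∈ Gamma0 N) :
    IsUnit (((γ 1 1 : ℤ) : ZMod N)) := by
  have hc : ((γ 1 0 : ℤ) : ZMod N) = 0 := Gamma0_mem.mp hγ
  have hdet : γ 0 0 * γ 1 1 - γ 0 1 * γ 1 0 = 1 := by
    have := γ.det_coe
    rwa [Matrix.det_fin_two] at this
  have h1 : ((γ 0 0 : ℤ) : ZMod N) * ((γ 1 1 : ℤ) : ZMod N) = 1 := by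
    have := congrArg (Int.cast : ℤ → ZMod N) hdet
    push_cast at this
    rw [hc, mul_zero, sub_zero] at this
    exact this
  exact IsUnit.of_mul_eq_one _ (by rw [mul_comm]; exact h1)

theorem T_mem_Gamma1 (N : ℕ) : ModularGroup.T ∈ Gamma1 N := by
  rw [Gamma1_mem]
  simp [ModularGroup.T]

theorem one_mem_strictPeriods_Gamma1 (N : ℕ) :
    (1 : ℝ) ∈ ((Gamma1 N : Subgroup (GL (Fin 2) ℝ))).strictPeriods := by
  rw [Subgroup.strictPeriods_eq_zmultiples_one_of_T_mem (T_mem_Gamma1 N)]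
  exact AddSubgroup.mem_zmultiples 1

/-- A function with nebentypus is invariant under `Γ₁(N)`. -/
theorem slash_eq_of_hasNeb {χ : DirichletCharacter ℂ N} {k : ℤ} {F : ℍ → ℂ}
    (hF : HasNeb N χ k F) {γ : SL(2, ℤ)} (hγ : γ ∈ Gamma1 N) : F ∣[k] γ = F := by
  rw [hF γ (Gamma1_in_Gamma0 N hγ)]
  have hd : ((γ 1 1 : ℤ) : ZMod N) = 1 := ((Gamma1_mem N γ).mp hγ).2.1
  rw [hd, map_one, one_smul]

/-- A cusp form vanishes at all cusps, in terms of `SL(2, ℤ)`-translates. -/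
theorem isZeroAtImInfty_slash {Γ : Subgroup SL(2, ℤ)} [Γ.FiniteIndex] {k : ℤ}
    (f : CuspForm (Γ : Subgroup (GL (Fin 2) ℝ)) k) (A : SL(2, ℤ)) :
    IsZeroAtImInfty ((f : ℍ → ℂ) ∣[k] A) := by
  have hc : IsCusp (Matrix.SpecialLinearGroup.mapGL ℝ A • OnePoint.infty) 𝒮ℒ :=
    isCusp_SL2Z_iff'.mpr ⟨A, rfl⟩
  have hc' : IsCusp (Matrix.SpecialLinearGroup.mapGL ℝ A • OnePoint.infty)
      (Γ : Subgroup (GL (Fin 2) ℝ)) := by
    rw [Subgroup.IsArithmetic.isCusp_iff_isCusp_SL2Z]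
    exact hc
  have h := f.zero_at_cusps' hc'
  rw [OnePoint.isZeroAt_iff_forall_SL2Z hc] at h
  exact h A rfl

/-- Build a cusp form on `Γ₀(N)`. -/
def mkCusp0 (N : ℕ) [NeZero N] (k : ℤ) (g : ℍ → ℂ) (hg : MDiff g)
    (hinv : ∀ γ : SL(2, ℤ), γ ∈ Gamma0 N → g ∣[k] γ = g)
    (hzero : ∀ A : SL(2, ℤ), IsZeroAtImInfty (g ∣[k] A)) : CuspForm (Gamma0 N) k where
  toFun := g
  slash_action_eq' := by
    intro A hA
    obtain ⟨γ, hγ, rfl⟩ := hA
    exact hinv γ hγ
  holo' := hg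
  zero_at_cusps' := by
    intro c hc
    rw [Subgroup.IsArithmetic.isCusp_iff_isCusp_SL2Z] at hc
    rw [OnePoint.isZeroAt_iff_forall_SL2Z hc]
    intro γ _
    exact hzero γ

@[simp] theorem mkCusp0_apply (N : ℕ) [NeZero N] (k : ℤ) (g : ℍ → ℂ) (hg : MDiff g)
    (hinv : ∀ γ : SL(2, ℤ), γ ∈ Gamma0 N → g ∣[k] γ = g)
    (hzero : ∀ A : SL(2, ℤ), IsZeroAtImInfty (g ∣[k] A)) (z : ℍ) :
    mkCusp0 N k g hg hinv hzero z = g z := rfl

/-- Build a modular form on `Γ₁(N)`. -/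
def mkMod1 (N : ℕ) [NeZero N] (k : ℤ) (g : ℍ → ℂ) (hg : MDiff g)
    (hinv : ∀ γ : SL(2, ℤ), γ ∈ Gamma1 N → g ∣[k] γ = g)
    (hbdd : ∀ A : SL(2, ℤ), IsBoundedAtImInfty (g ∣[k] A)) : ModularForm (Gamma1 N) k where
  toFun := g
  slash_action_eq' := by
    intro A hA
    obtain ⟨γ, hγ, rfl⟩ := hA
    exact hinv γ hγ
  holo' := hg
  bdd_at_cusps' := by
    intro c hc
    rw [Subgroup.IsArithmetic.isCusp_iff_isCusp_SL2Z] at hc
    rw [OnePoint.isBoundedAt_iff_forall_SL2Z hc]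
    intro γ _
    exact hbdd γ

/-- A holomorphic function with nebentypus, bounded at all cusps, is nice. -/
theorem nice_of_hasNeb [NeZero N] {χ : DirichletCharacter ℂ N} {k : ℤ} {E : ℍ → ℂ}
    (hE : HasNeb N χ k E) (hol : MDiff E)
    (hbdd : ∀ A : SL(2, ℤ), IsBoundedAtImInfty (E ∣[k] A)) : Nice 1 E :=
  nice_of_modularForm (mkMod1 N k E hol (fun _ hγ => slash_eq_of_hasNeb hE hγ) hbdd) one_pos
    (one_mem_strictPeriods_Gamma1 N)

theorem nice_cusp1 {k : ℤ} (f : CuspForm (Gamma1 N) k) : Nice 1 (f : ℍ → ℂ) :=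
  nice_of_modularForm f one_pos (one_mem_strictPeriods_Gamma1 N)

theorem isBoundedAtImInfty_pow {F : ℍ → ℂ} (hF : IsBoundedAtImInfty F) (n : ℕ) :
    IsBoundedAtImInfty (F ^ n) := by
  induction n with
  | zero =>
    rw [pow_zero]
    exact Filter.const_boundedAtFilter _ (1 : ℂ)
  | succ n ih =>
    rw [pow_succ]
    exact ih.mul hF

theorem pow_slash_SL (f : ℍ → ℂ) (k : ℤ) (n : ℕ) (A : SL(2, ℤ)) :
    (f ^ n) ∣[k * n] A = (f ∣[k] A) ^ n := by
  funext z
  simp only [SL_slash_apply, Pi.pow_apply]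
  rw [mul_pow, ← zpow_natCast (denom _ _ ^ (-k)) n, ← zpow_mul]
  congr 2
  ring

/-- **A-Prod.** -/
theorem stmt_Prod : Stmt_Prod := by
  intro N _ χ k₁ k₂ f E hf hol hbdd hE
  have hinv : ∀ γ : SL(2, ℤ), γ ∈ Gamma0 N →
      ((f : ℍ → ℂ) * E) ∣[k₁ + k₂] γ = (f : ℍ → ℂ) * E := by
    intro γ hγ
    rw [mul_slash_SL2, hf γ hγ, hE γ hγ]
    have hu := isUnit_lowerRight hγ
    have h1 : χ (((γ 1 1 : ℤ) : ZMod N)) * χ⁻¹ (((γ 1 1 : ℤ) : ZMod N)) = 1 := by
      rw [← MulChar.mul_apply, mul_inv_cancel, MulChar.one_apply hu]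
    funext z
    simp only [Pi.mul_apply, Pi.smul_apply, smul_eq_mul]
    calc χ (((γ 1 1 : ℤ) : ZMod N)) * f z * (χ⁻¹ (((γ 1 1 : ℤ) : ZMod N)) * E z)
        = (χ (((γ 1 1 : ℤ) : ZMod N)) * χ⁻¹ (((γ 1 1 : ℤ) : ZMod N))) * (f z * E z) := by ring
      _ = f z * E z := by rw [h1, one_mul]
  have hzero : ∀ A : SL(2, ℤ), IsZeroAtImInfty (((f : ℍ → ℂ) * E) ∣[k₁ + k₂] A) := by
    intro A
    rw [mul_slash_SL2]
    exact (isZeroAtImInfty_slash f A).mul_boundedAtFilter (hbdd A)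
  refine ⟨mkCusp0 N (k₁ + k₂) ((f : ℍ → ℂ) * E) (f.holo'.mul hol) hinv hzero,
    fun z => rfl, ?_⟩
  have h2 : ((mkCusp0 N (k₁ + k₂) ((f : ℍ → ℂ) * E) (f.holo'.mul hol) hinv hzero :
      CuspForm (Gamma0 N) (k₁ + k₂)) : ℍ → ℂ) = (f : ℍ → ℂ) * E := rfl
  rw [h2]
  exact Nice.qExpansion_mul one_pos (nice_cusp1 f) (nice_of_hasNeb hE hol hbdd)

/-- **A-Pow.** -/
theorem stmt_Pow : Stmt_Pow := by
  intro N _ χ k f m hm hχ hf
  have hinv : ∀ γ : SL(2, ℤ), γ ∈ Gamma0 N →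
      ((f : ℍ → ℂ) ^ m) ∣[k * m] γ = (f : ℍ → ℂ) ^ m := by
    intro γ hγ
    rw [pow_slash_SL, hf γ hγ]
    have hu := isUnit_lowerRight hγ
    have h1 : χ (((γ 1 1 : ℤ) : ZMod N)) ^ m = 1 := by
      rw [← MulChar.pow_apply' χ hm.ne', hχ, MulChar.one_apply hu]
    funext z
    simp only [Pi.pow_apply, Pi.smul_apply, smul_eq_mul]
    rw [mul_pow, h1, one_mul]
  have hzero : ∀ A : SL(2, ℤ), IsZeroAtImInfty (((f : ℍ → ℂ) ^ m) ∣[k * m] A) := by
    intro A
    rw [pow_slash_SL]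
    obtain ⟨n, rfl⟩ : ∃ n, m = n + 1 := ⟨m - 1, by omega⟩
    rw [pow_succ]
    have hb : IsBoundedAtImInfty (((f : ℍ → ℂ) ∣[k] A) ^ n) :=
      isBoundedAtImInfty_pow (isZeroAtImInfty_slash f A).boundedAtFilter n
    exact hb.mul_zeroAtFilter (isZeroAtImInfty_slash f A)
  refine ⟨mkCusp0 N (k * m) ((f : ℍ → ℂ) ^ m) (by
      have := f.holo'
      exact MDifferentiable.pow this m) hinv hzero, fun z => rfl, ?_⟩
  exact Nice.qExpansion_pow one_pos (nice_cusp1 f) m

end Fermat.Agent.S48.Int.H22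

end
end
-- ==== END Fermat.Agent.S48.Int.H22_ProdPow

-- ==== BEGIN Fermat.Agent.S48.Int.H31_Decomp
section

/-!
# S48, leaf A, sub-leaf A-Decomp (helper31)

`stmt_Decomp : Stmt_Decomp`: every cusp form `f` of weight one on `Γ₁(N)` is the sum of its
nebentypus components
`F χ = φ(N)⁻¹ ∑_{d ∈ (ℤ/N)ˣ} χ(d)⁻¹ • f ∣ γ_d`, `γ_d ∈ Γ₀(N)` with lower right entry `≡ d mod N`.

* `lr N γ` : the lower right entry mod `N`; multiplicative on `Γ₀(N)`, `Γ₁(N) = {lr = 1}`;
* `slash_eq_of_lr_eq` : for `γ, γ' ∈ Γ₀(N)`, `f ∣ γ` only depends on `lr N γ`;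
* `diamFun N f d = f ∣ γ_d`, `diamForm N f d` the cusp form; `diamFun_slash`;
* orthogonality of characters (Mathlib) gives the decomposition.
-/

set_option autoImplicit false

open CongruenceSubgroup UpperHalfPlane ModularForm
open scoped MatrixGroups ModularForm Manifold

noncomputable section

namespace Fermat.Agent.S48.Int.H31

variable (N : ℕ) [NeZero N]

/-- The lower right entry mod `N`. -/
def lr (γ : SL(2, ℤ)) : ZMod N := ((γ 1 1 : ℤ) : ZMod N)

omit [NeZero N] in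
lemma lr_one : lr N 1 = 1 := by
  simp [lr]

omit [NeZero N] in
lemma lr_mul {γ γ' : SL(2, ℤ)} (hγ : γ ∈ Gamma0 N) : lr N (γ * γ') = lr N γ * lr N γ' := by
  have h0 : ((γ 1 0 : ℤ) : ZMod N) = 0 := Gamma0_mem.mp hγ
  simp only [lr, Matrix.SpecialLinearGroup.coe_mul, Matrix.mul_apply, Fin.sum_univ_two,
    Int.cast_add, Int.cast_mul, h0, zero_mul, zero_add]

omit [NeZero N] in
lemma lr_mul_lr_inv {γ : SL(2, ℤ)} (hγ : γ ∈ Gamma0 N) : lr N γ * lr N γ⁻¹ = 1 := by
  rw [← lr_mul N hγ, mul_inv_cancel, lr_one]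

omit [NeZero N] in
lemma mem_Gamma1_iff {γ : SL(2, ℤ)} (hγ : γ ∈ Gamma0 N) : γ ∈ Gamma1 N ↔ lr N γ = 1 := by
  have h0 : ((γ 1 0 : ℤ) : ZMod N) = 0 := Gamma0_mem.mp hγ
  rw [Gamma1_mem]
  constructor
  · rintro ⟨-, h, -⟩
    exact h
  · intro h
    refine ⟨?_, h, h0⟩
    have hdet := Matrix.SpecialLinearGroup.det_coe γ
    rw [Matrix.det_fin_two] at hdet
    have h2 := congrArg (fun x : ℤ => (x : ZMod N)) hdet
    simp only [Int.cast_sub, Int.cast_mul, Int.cast_one, h0, mul_zero, sub_zero] at h2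
    have h3 : ((γ 1 1 : ℤ) : ZMod N) = 1 := h
    rw [h3, mul_one] at h2
    exact h2

/-- Every unit mod `N` is the lower right entry of an element of `Γ₀(N)`. -/
lemma exists_gamma (d : (ZMod N)ˣ) : ∃ γ : SL(2, ℤ), γ ∈ Gamma0 N ∧ lr N γ = (d : ZMod N) := by
  have hcop : Nat.Coprime (d : ZMod N).val N := ZMod.val_coe_unit_coprime d
  have hcop' : IsCoprime (((d : ZMod N).val : ℤ)) (N : ℤ) := Nat.isCoprime_iff_coprime.mpr hcop
  obtain ⟨a, b, hab⟩ := hcop'
  have hdet : (!![a, -b; (N : ℤ), ((d : ZMod N).val : ℤ)]).det = 1 := by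
    rw [Matrix.det_fin_two_of]
    linarith
  set γ : SL(2, ℤ) := ⟨!![a, -b; (N : ℤ), ((d : ZMod N).val : ℤ)], hdet⟩ with hγ
  refine ⟨γ, ?_, ?_⟩
  · rw [Gamma0_mem]
    simp [hγ]
  · simp [lr, hγ]

/-- The chosen element of `Γ₀(N)` with lower right entry `d`. -/
def gam (d : (ZMod N)ˣ) : SL(2, ℤ) := Classical.choose (exists_gamma N d)

lemma gam_mem (d : (ZMod N)ˣ) : gam N d ∈ Gamma0 N := (Classical.choose_spec (exists_gamma N d)).1

lemma lr_gam (d : (ZMod N)ˣ) : lr N (gam N d) = (d : ZMod N) :=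
  (Classical.choose_spec (exists_gamma N d)).2

variable {N}

omit [NeZero N] in
/-- On `Γ₀(N)` the slash of a form on `Γ₁(N)` only depends on the lower right entry. -/
lemma slash_eq_of_lr_eq {k : ℤ} (f : CuspForm (Gamma1 N) k) {γ γ' : SL(2, ℤ)}
    (hγ : γ ∈ Gamma0 N) (hγ' : γ' ∈ Gamma0 N) (h : lr N γ = lr N γ') :
    (f : ℍ → ℂ) ∣[k] γ = (f : ℍ → ℂ) ∣[k] γ' := by
  have h1 : γ' * γ⁻¹ ∈ Gamma0 N := (Gamma0 N).mul_mem hγ' ((Gamma0 N).inv_mem hγ)
  have h2 : γ' * γ⁻¹ ∈ Gamma1 N := by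
    rw [mem_Gamma1_iff N h1, lr_mul N hγ', ← h, lr_mul_lr_inv N hγ]
  have h3 : (f : ℍ → ℂ) ∣[k] (γ' * γ⁻¹) = f :=
    SlashInvariantForm.slash_action_eqn f (Matrix.SpecialLinearGroup.mapGL ℝ (γ' * γ⁻¹))
      ⟨_, h2, rfl⟩
  have h4 : γ' = (γ' * γ⁻¹) * γ := by group
  conv_rhs => rw [h4, SlashAction.slash_mul, h3]

/-- The unit `lr N γ` for `γ ∈ Γ₀(N)`. -/
def lrUnit {γ : SL(2, ℤ)} (hγ : γ ∈ Gamma0 N) : (ZMod N)ˣ :=
  ⟨lr N γ, lr N γ⁻¹, lr_mul_lr_inv N hγ, by rw [mul_comm]; exact lr_mul_lr_inv N hγ⟩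

omit [NeZero N] in
lemma coe_lrUnit {γ : SL(2, ℤ)} (hγ : γ ∈ Gamma0 N) : ((lrUnit hγ : (ZMod N)ˣ) : ZMod N) = lr N γ :=
  rfl

/-- `f ∣ γ_d`, the diamond operator `⟨d⟩` applied to `f`. -/
def diamFun {k : ℤ} (f : CuspForm (Gamma1 N) k) (d : (ZMod N)ˣ) : ℍ → ℂ :=
  (f : ℍ → ℂ) ∣[k] gam N d

lemma slash_eq_diamFun {k : ℤ} (f : CuspForm (Gamma1 N) k) {γ : SL(2, ℤ)} (hγ : γ ∈ Gamma0 N) :
    (f : ℍ → ℂ) ∣[k] γ = diamFun f (lrUnit hγ) :=
  slash_eq_of_lr_eq f hγ (gam_mem N _) ((lr_gam N _).trans (coe_lrUnit hγ)).symm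

lemma diamFun_slash {k : ℤ} (f : CuspForm (Gamma1 N) k) (d : (ZMod N)ˣ) {γ : SL(2, ℤ)}
    (hγ : γ ∈ Gamma0 N) : diamFun f d ∣[k] γ = diamFun f (d * lrUnit hγ) := by
  unfold diamFun
  rw [← SlashAction.slash_mul]
  refine slash_eq_of_lr_eq f ((Gamma0 N).mul_mem (gam_mem N d) hγ) (gam_mem N _) ?_
  rw [lr_mul N (gam_mem N d), lr_gam, lr_gam, Units.val_mul, coe_lrUnit]

lemma diamFun_one {k : ℤ} (f : CuspForm (Gamma1 N) k) : diamFun f 1 = f := by
  have h1 : (1 : SL(2, ℤ)) ∈ Gamma0 N := (Gamma0 N).one_mem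
  have h2 := slash_eq_diamFun f h1
  have h3 : lrUnit h1 = (1 : (ZMod N)ˣ) := Units.ext (lr_one N)
  rw [h3, SlashAction.slash_one] at h2
  exact h2.symm

omit [NeZero N] in
lemma lrUnit_eq_one_of_mem_Gamma1 {γ : SL(2, ℤ)} (hγ : γ ∈ Gamma1 N) :
    lrUnit (Gamma1_in_Gamma0 N hγ) = 1 :=
  Units.ext ((mem_Gamma1_iff N (Gamma1_in_Gamma0 N hγ)).mp hγ)

/-- `⟨d⟩ f` as a cusp form on `Γ₁(N)`. -/
def diamForm {k : ℤ} (f : CuspForm (Gamma1 N) k) (d : (ZMod N)ˣ) : CuspForm (Gamma1 N) k where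
  toFun := diamFun f d
  slash_action_eq' := by
    intro A hA
    obtain ⟨γ, hγ, rfl⟩ := hA
    have h := diamFun_slash f d (Gamma1_in_Gamma0 N hγ)
    rw [lrUnit_eq_one_of_mem_Gamma1 hγ, mul_one] at h
    exact h
  holo' := (CuspFormClass.holo f).slash k _
  zero_at_cusps' := by
    intro c hc
    rw [Subgroup.IsArithmetic.isCusp_iff_isCusp_SL2Z] at hc
    rw [OnePoint.isZeroAt_iff_forall_SL2Z hc]
    intro γ _
    change IsZeroAtImInfty (((f : ℍ → ℂ) ∣[k] gam N d) ∣[k] γ)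
    rw [← SlashAction.slash_mul]
    exact CuspFormClass.zero_at_infty_slash f (gam N d * γ)

lemma coe_diamForm {k : ℤ} (f : CuspForm (Gamma1 N) k) (d : (ZMod N)ˣ) :
    (diamForm f d : ℍ → ℂ) = diamFun f d := rfl

omit [NeZero N] in
lemma cuspForm_sum_apply {ι : Type} (s : Finset ι) {k : ℤ} (g : ι → CuspForm (Gamma1 N) k)
    (z : ℍ) : (∑ i ∈ s, g i) z = ∑ i ∈ s, g i z := by
  classical
  induction s using Finset.induction_on with
  | empty => simp
  | insert a s ha ih => rw [Finset.sum_insert ha, Finset.sum_insert ha, add_apply, ih]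

/-- The `χ`-component of `f`. -/
def neb {k : ℤ} (f : CuspForm (Gamma1 N) k) (χ : DirichletCharacter ℂ N) :
    CuspForm (Gamma1 N) k :=
  ((N.totient : ℂ)⁻¹) • ∑ d : (ZMod N)ˣ, χ ((d⁻¹ : (ZMod N)ˣ) : ZMod N) • diamForm f d

lemma neb_apply {k : ℤ} (f : CuspForm (Gamma1 N) k) (χ : DirichletCharacter ℂ N) (z : ℍ) :
    neb f χ z =
      (N.totient : ℂ)⁻¹ * ∑ d : (ZMod N)ˣ, χ ((d⁻¹ : (ZMod N)ˣ) : ZMod N) * diamFun f d z := by
  unfold neb
  rw [smul_apply, cuspForm_sum_apply, smul_eq_mul]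
  congr 1

/-- The `χ`-component has nebentypus `χ`. -/
theorem hasNeb_neb {k : ℤ} (f : CuspForm (Gamma1 N) k) (χ : DirichletCharacter ℂ N) :
    HasNeb N χ k (neb f χ) := by
  intro γ hγ
  funext z
  have hslash : ∀ d : (ZMod N)ˣ, diamFun f d (γ • z) * denom γ z ^ (-k) =
      diamFun f (d * lrUnit hγ) z := by
    intro d
    rw [← diamFun_slash f d hγ, SL_slash_apply]
  have hχ : ∀ d : (ZMod N)ˣ, χ ((d⁻¹ : (ZMod N)ˣ) : ZMod N) =
      χ (lr N γ) * χ (((d * lrUnit hγ)⁻¹ : (ZMod N)ˣ) : ZMod N) := by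
    intro d
    rw [← coe_lrUnit hγ, ← map_mul, ← Units.val_mul]
    congr 2
    rw [mul_inv_rev, ← mul_assoc, mul_inv_cancel, one_mul]
  have hsum : ∑ d : (ZMod N)ˣ, χ ((d⁻¹ : (ZMod N)ˣ) : ZMod N) * diamFun f (d * lrUnit hγ) z =
      ∑ d : (ZMod N)ˣ, χ (lr N γ) * (χ ((d⁻¹ : (ZMod N)ˣ) : ZMod N) * diamFun f d z) := by
    rw [← Equiv.sum_comp (Equiv.mulRight (lrUnit hγ))
      (fun d : (ZMod N)ˣ => χ (lr N γ) * (χ ((d⁻¹ : (ZMod N)ˣ) : ZMod N) * diamFun f d z))]
    refine Finset.sum_congr rfl (fun d _ => ?_)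
    rw [Equiv.coe_mulRight, hχ d, mul_assoc]
  calc (⇑(neb f χ) ∣[k] γ) z
      = neb f χ (γ • z) * denom γ z ^ (-k) := SL_slash_apply _ _ _
    _ = (N.totient : ℂ)⁻¹ *
          ∑ d : (ZMod N)ˣ, χ ((d⁻¹ : (ZMod N)ˣ) : ZMod N) * diamFun f (d * lrUnit hγ) z := by
        rw [neb_apply, mul_assoc, Finset.sum_mul]
        congr 1
        refine Finset.sum_congr rfl (fun d _ => ?_)
        rw [mul_assoc, hslash d]
    _ = χ (lr N γ) * neb f χ z := by
        rw [hsum, neb_apply, ← Finset.mul_sum]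
        ring
    _ = (χ (((γ 1 1 : ℤ) : ZMod N)) • (neb f χ : ℍ → ℂ)) z := rfl

/-- `f` is the sum of its nebentypus components. -/
theorem sum_neb {k : ℤ} (f : CuspForm (Gamma1 N) k) (z : ℍ) :
    f z = ∑ χ : DirichletCharacter ℂ N, neb f χ z := by
  classical
  have hφ : (N.totient : ℂ) ≠ 0 := by
    have := Nat.totient_pos.mpr (Nat.pos_of_ne_zero (NeZero.ne N))
    exact_mod_cast this.ne'
  have h1 : ∀ d : (ZMod N)ˣ, ∑ χ : DirichletCharacter ℂ N, χ ((d⁻¹ : (ZMod N)ˣ) : ZMod N) =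
      if d = 1 then (N.totient : ℂ) else 0 := by
    intro d
    rw [DirichletCharacter.sum_characters_eq ℂ]
    congr 1
    rw [← Units.val_one, Units.val_inj, inv_eq_one]
  calc f z = diamFun f 1 z := by rw [diamFun_one]
    _ = (N.totient : ℂ)⁻¹ * ∑ d : (ZMod N)ˣ,
          (∑ χ : DirichletCharacter ℂ N, χ ((d⁻¹ : (ZMod N)ˣ) : ZMod N)) * diamFun f d z := by
        simp only [h1, ite_mul, zero_mul, Finset.sum_ite_eq', Finset.mem_univ, if_true]
        rw [← mul_assoc, inv_mul_cancel₀ hφ, one_mul]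
    _ = ∑ χ : DirichletCharacter ℂ N, neb f χ z := by
        simp only [neb_apply, ← Finset.mul_sum, Finset.sum_mul]
        rw [Finset.sum_comm]

/-- **A-Decomp**. -/
theorem stmt_Decomp : Stmt_Decomp := by
  intro N _ f
  exact ⟨fun χ => neb f χ, fun χ => hasNeb_neb f χ, fun z => sum_neb f z⟩

end Fermat.Agent.S48.Int.H31

end
end
-- ==== END Fermat.Agent.S48.Int.H31_Decomp

-- ==== BEGIN Fermat.Agent.S48.Int.H55_IntCoeff
section

/-!
# S48, leaf A: the ring of character values and division by the Eisenstein series (helper55)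
-/

set_option autoImplicit false

open scoped MatrixGroups

namespace Fermat.Agent.S48.Int.H55

open Fermat.Agent.NEB.H34 (sigmaChi)

/-- The values of the Dirichlet characters mod `N`. -/
def charVals (N : ℕ) : Set ℂ := {x | ∃ (χ : DirichletCharacter ℂ N) (a : ZMod N), x = χ a}

/-- The ring generated by the values of the Dirichlet characters mod `N`. -/
def charRing (N : ℕ) : Subalgebra ℤ ℂ := Algebra.adjoin ℤ (charVals N)

theorem charVals_finite (N : ℕ) [NeZero N] : (charVals N).Finite := by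
  have h : charVals N = Set.range fun x : DirichletCharacter ℂ N × ZMod N => x.1 x.2 := by
    ext x
    constructor
    · rintro ⟨χ, a, rfl⟩
      exact ⟨(χ, a), rfl⟩
    · rintro ⟨⟨χ, a⟩, rfl⟩
      exact ⟨χ, a, rfl⟩
  rw [h]
  exact Set.finite_range _

theorem isIntegral_charVal {N : ℕ} [NeZero N] (χ : DirichletCharacter ℂ N) (a : ZMod N) :
    IsIntegral ℤ (χ a) := by
  by_cases ha : IsUnit a
  · obtain ⟨u, rfl⟩ := ha
    have hpos : 0 < orderOf u := orderOf_pos u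
    refine IsIntegral.of_pow hpos ?_
    have : χ (u : ZMod N) ^ orderOf u = 1 := by
      rw [← map_pow, ← Units.val_pow_eq_pow_val, pow_orderOf_eq_one, Units.val_one, map_one]
    rw [this]
    exact isIntegral_one
  · rw [MulChar.map_nonunit χ ha]
    exact isIntegral_zero

theorem charRing_fg (N : ℕ) [NeZero N] : (charRing N).toSubmodule.FG := by
  refine fg_adjoin_of_finite (charVals_finite N) ?_
  rintro x ⟨χ, a, rfl⟩
  exact isIntegral_charVal χ a

theorem charVal_mem {N : ℕ} (χ : DirichletCharacter ℂ N) (a : ZMod N) : χ a ∈ charRing N :=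
  Algebra.subset_adjoin ⟨χ, a, rfl⟩

theorem sigmaChi_mem {N : ℕ} (ψ : DirichletCharacter ℂ N) (n : ℕ) :
    sigmaChi (fun c : ℤ => ψ ((c : ZMod N))) 2 n ∈ charRing N := by
  unfold sigmaChi
  refine Subalgebra.sum_mem _ fun x _ => ?_
  refine Subalgebra.mul_mem _ (charVal_mem ψ _) ?_
  exact Subalgebra.pow_mem _ (natCast_mem _ _) _

theorem sigmaChi_zero {N : ℕ} (ψ : DirichletCharacter ℂ N) :
    sigmaChi (fun c : ℤ => ψ ((c : ZMod N))) 2 0 = 0 := by
  simp [sigmaChi]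

theorem sigmaChi_one {N : ℕ} (ψ : DirichletCharacter ℂ N) :
    sigmaChi (fun c : ℤ => ψ ((c : ZMod N))) 2 1 = 1 := by
  simp [sigmaChi]

/-- The unit part of the Eisenstein coefficient series, over the ring of character values. -/
noncomputable def eisUnit (N : ℕ) (ψ : DirichletCharacter ℂ N) : PowerSeries (charRing N) :=
  PowerSeries.mk fun n => ⟨sigmaChi (fun c : ℤ => ψ ((c : ZMod N))) 2 (n + 1), sigmaChi_mem ψ _⟩

theorem eisSeries_eq (N : ℕ) (ψ : DirichletCharacter ℂ N) :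
    eisSeries N ψ = PowerSeries.X * (eisUnit N ψ).map (algebraMap (charRing N) ℂ) := by
  ext n
  rcases n with _ | n
  · simp [eisSeries, sigmaChi_zero]
  · rw [PowerSeries.coeff_succ_X_mul]
    simp [eisSeries, eisUnit]

theorem isUnit_eisUnit (N : ℕ) (ψ : DirichletCharacter ℂ N) : IsUnit (eisUnit N ψ) := by
  rw [PowerSeries.isUnit_iff_constantCoeff]
  have : PowerSeries.constantCoeff (eisUnit N ψ) = 1 := by
    rw [← PowerSeries.coeff_zero_eq_constantCoeff_apply]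
    apply Subtype.ext
    simp [eisUnit, sigmaChi_one]
  rw [this]
  exact isUnit_one

/-- **Division by the Eisenstein series**: if the coefficients of `φ * eisSeries N ψ` lie in `Λ`, then
the coefficients of `φ` lie in `Λ * charRing N`. -/
theorem coeff_mem_of_mul_eisSeries (N : ℕ) (ψ : DirichletCharacter ℂ N) (φ : PowerSeries ℂ)
    (Λ : Submodule ℤ ℂ) (h : ∀ n, PowerSeries.coeff n (φ * eisSeries N ψ) ∈ Λ) (n : ℕ) :
    PowerSeries.coeff n φ ∈ Λ * (charRing N).toSubmodule := by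
  obtain ⟨V, hV⟩ := (isUnit_eisUnit N ψ).exists_right_inv
  set U' : PowerSeries ℂ := (eisUnit N ψ).map (algebraMap (charRing N) ℂ) with hU'
  set V' : PowerSeries ℂ := V.map (algebraMap (charRing N) ℂ) with hV'
  have hUV : U' * V' = 1 := by
    rw [hU', hV', ← map_mul, hV, map_one]
  have h1 : φ * PowerSeries.X = (φ * eisSeries N ψ) * V' := by
    rw [eisSeries_eq, ← hU', mul_assoc, mul_assoc, hUV, mul_one]
  have h2 : PowerSeries.coeff n φ = PowerSeries.coeff (n + 1) (φ * PowerSeries.X) := by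
    rw [PowerSeries.coeff_succ_mul_X]
  rw [h2, h1, PowerSeries.coeff_mul]
  refine Submodule.sum_mem _ fun x _ => ?_
  refine Submodule.mul_mem_mul (h _) ?_
  rw [hV', PowerSeries.coeff_map]
  exact (PowerSeries.coeff x.2 V).2

end Fermat.Agent.S48.Int.H55

end
-- ==== END Fermat.Agent.S48.Int.H55_IntCoeff
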