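-- GENERATED (merged mirror, NOTES/tools/trim/merge3_helper67.py): 7 modules of the originals, bodies verbatim.
import Mathlib
import Fermat.Agent.S48.Cheb.H31_LogBound
import Fermat.Agent.Zm.S48_L03_000
import Fermat.Agent.Zm.S48_L02_002
import Fermat.Agent.Zm.S48_L03_001
import Fermat.Agent.Zm.S48_L01_004
import Fermat.Agent.Zm.S48_L03_002
import Fermat.Agent.Zm.S48_L01_005
import Fermat.Agent.S23.H22_Nice

-- ==== BEGIN Fermat.Agent.S48.Cheb.H31_RayWt
section

/-!
# S48 leaf D1: the prime sums over the fibres of a ray class map (set-up)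

`rayCls`, `rayWt`: class and weight of a prime of `F` (trivial class, weight `0` at the primes
dividing `𝔪`); upper and lower bounds for `∑ rayWt`; the lower bound for the trivial fibre;
orthogonality of characters.
-/

namespace Fermat.Agent.S48.Cheb.H31

open NumberField IsDedekindDomain Filter Topology Ideal
open Fermat.Agent.Lib.ZetaPrimes Fermat.Agent.Lib.SecondIneq Fermat.Agent.Lib.SecondIneq.H31
open Fermat.Agent.S14.H66
open scoped BigOperators

section Defs

variable (F : Type) [Field F] [NumberField F] (𝔪 : Ideal (𝓞 F)) {A : Type} [CommGroup A]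
  (ψ : Ideal (𝓞 F) → A)

open Classical in
/-- The class of a prime (`1` at the primes dividing `𝔪`). -/
noncomputable def rayCls (v : HeightOneSpectrum (𝓞 F)) : A :=
  if IsCoprime v.asIdeal 𝔪 then ψ v.asIdeal else 1

open Classical in
/-- The weight `N v ^ (-s)` of a prime (`0` at the primes dividing `𝔪`). -/
noncomputable def rayWt (s : ℝ) (v : HeightOneSpectrum (𝓞 F)) : ℝ :=
  if IsCoprime v.asIdeal 𝔪 then primeTerm F s v else 0

lemma rayWt_nonneg (s : ℝ) (v : HeightOneSpectrum (𝓞 F)) : 0 ≤ rayWt F 𝔪 s v := by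
  unfold rayWt
  split_ifs
  · exact primeTerm_nonneg' F s v
  · exact le_rfl

lemma rayWt_le (s : ℝ) (v : HeightOneSpectrum (𝓞 F)) : rayWt F 𝔪 s v ≤ primeTerm F s v := by
  unfold rayWt
  split_ifs
  · exact le_rfl
  · exact primeTerm_nonneg' F s v

lemma summable_rayWt {s : ℝ} (hs : 1 < s) : Summable (rayWt F 𝔪 s) :=
  Summable.of_nonneg_of_le (rayWt_nonneg F 𝔪 s) (rayWt_le F 𝔪 s) (summable_primeTerm F s hs)

variable {F 𝔪 ψ}

lemma char_mul_rayWt (hψ : IsRayMap 𝔪 ψ) (χ : A →* ℂˣ) (s : ℝ) (v : HeightOneSpectrum (𝓞 F)) :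
    ((χ (rayCls F 𝔪 ψ v) : ℂˣ) : ℂ) * ((rayWt F 𝔪 s v : ℝ) : ℂ) =
      fPrimeTerm (rayChar hψ χ) s v := by
  classical
  rw [fPrimeTerm, rayChar_apply]
  by_cases hv : IsCoprime v.asIdeal 𝔪
  · simp [rayCls, rayWt, hv, v.ne_bot]
  · simp [rayCls, rayWt, hv]

lemma primeSumF_rayChar (hψ : IsRayMap 𝔪 ψ) (χ : A →* ℂˣ) (s : ℝ) :
    primeSumF (rayChar hψ χ) s =
      ∑' v, ((χ (rayCls F 𝔪 ψ v) : ℂˣ) : ℂ) * ((rayWt F 𝔪 s v : ℝ) : ℂ) := by
  rw [primeSumF]
  congr 1
  funext v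
  exact (char_mul_rayWt hψ χ s v).symm

lemma primeSumF_rayChar_one (hψ : IsRayMap 𝔪 ψ) (s : ℝ) :
    primeSumF (rayChar hψ (1 : A →* ℂˣ)) s = ((∑' v, rayWt F 𝔪 s v : ℝ) : ℂ) := by
  rw [primeSumF_rayChar, Complex.ofReal_tsum]
  congr 1
  funext v
  simp

end Defs

section Bounds

variable (F : Type) [Field F] [NumberField F] (𝔪 : Ideal (𝓞 F))

/-- `∑_{v ∤ 𝔪} N v^{-s} ≤ log (1/(s-1)) + C` near `1⁺`. -/
lemma exists_tsum_rayWt_le :
    ∃ C : ℝ, ∀ᶠ s in 𝓝[>] (1 : ℝ), ∑' v, rayWt F 𝔪 s v ≤ Real.log (1 / (s - 1)) + C := by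
  obtain ⟨C, hC⟩ := primeSum_le F
  refine ⟨C, ?_⟩
  filter_upwards [hC, self_mem_nhdsWithin] with s hs hs1
  exact ((summable_rayWt F 𝔪 hs1).tsum_le_tsum (rayWt_le F 𝔪 s)
    (summable_primeTerm F s hs1)).trans hs

/-- The primes dividing `𝔪`: a finite set. -/
lemma finite_not_isCoprime {𝔪 : Ideal (𝓞 F)} (h𝔪 : 𝔪 ≠ ⊥) :
    {v : HeightOneSpectrum (𝓞 F) | ¬ IsCoprime v.asIdeal 𝔪}.Finite := by
  refine (Ideal.finite_factors h𝔪).subset fun v hv => ?_
  rw [Set.mem_ofPred_eq] at hv ⊢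
  rw [Ideal.dvd_iff_le]
  by_contra hle
  apply hv
  rw [Ideal.isCoprime_iff_sup_eq]
  by_contra htop
  have h := v.isMaximal.eq_of_le htop le_sup_left
  apply hle
  rw [h]
  exact le_sup_right

set_option linter.deprecated false in
/-- `∑_{v ∤ 𝔪} N v^{-s} ≥ log (1/(s-1)) - C` on `(1, 2]`. -/
lemma exists_tsum_rayWt_ge {𝔪 : Ideal (𝓞 F)} (h𝔪 : 𝔪 ≠ ⊥) :
    ∃ C : ℝ, ∀ s : ℝ, 1 < s → s ≤ 2 → Real.log (1 / (s - 1)) - C ≤ ∑' v, rayWt F 𝔪 s v := by
  classical
  obtain ⟨C, hC⟩ := primeSum_ge F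
  obtain ⟨u, hu1, hu⟩ := mem_nhdsGT_iff_exists_Ioo_subset.mp hC
  have hu1' : (1 : ℝ) < u := hu1
  set B : Set (HeightOneSpectrum (𝓞 F)) := {v | ¬ IsCoprime v.asIdeal 𝔪} with hB
  have hBfin : B.Finite := finite_not_isCoprime F h𝔪
  refine ⟨max (C + B.ncard) (Real.log (1 / (u - 1))), fun s hs1 hs2 => ?_⟩
  have hSF := summable_primeTerm F s hs1
  have hSW := summable_rayWt F 𝔪 hs1
  by_cases hsu : s < u
  · have h1 : Real.log (1 / (s - 1)) - C ≤ ∑' v, primeTerm F s v := hu ⟨hs1, hsu⟩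
    have hBle : ∑' v : B, primeTerm F s v ≤ B.ncard :=
      NumberField.Set.primeIdealZetaSum_le_card_of_finite hBfin (by linarith)
    have h2 : ∑' v, primeTerm F s v ≤ ∑' v, rayWt F 𝔪 s v + ∑' v : B, primeTerm F s v := by
      rw [tsum_subtype B (primeTerm F s), ← hSW.tsum_add (hSF.indicator B)]
      refine hSF.tsum_le_tsum (fun v => ?_) (hSW.add (hSF.indicator B))
      by_cases hv : IsCoprime v.asIdeal 𝔪
      · have hvB : v ∉ B := fun h => h hv
        rw [Set.indicator_of_notMem hvB, add_zero, rayWt, if_pos hv]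
      · have hvB : v ∈ B := hv
        rw [Set.indicator_of_mem hvB, rayWt, if_neg hv, zero_add]
    have := le_max_left (C + B.ncard) (Real.log (1 / (u - 1)))
    linarith
  · have hsu' : u ≤ s := not_lt.mp hsu
    have h1 : Real.log (1 / (s - 1)) ≤ Real.log (1 / (u - 1)) := by
      have hs0 : 0 < s - 1 := by linarith
      refine Real.log_le_log (one_div_pos.mpr hs0) ?_
      have hu0 : 0 < u - 1 := by linarith
      exact one_div_le_one_div_of_le hu0 (by linarith)
    have h2 : 0 ≤ ∑' v, rayWt F 𝔪 s v := tsum_nonneg (rayWt_nonneg F 𝔪 s)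
    have := le_max_right (C + B.ncard) (Real.log (1 / (u - 1)))
    linarith

end Bounds

end Fermat.Agent.S48.Cheb.H31

end
-- ==== END Fermat.Agent.S48.Cheb.H31_RayWt

-- ==== BEGIN Fermat.Agent.S48.Cheb.H43_BridgeCount
section

/-!
# S48 leaf D4, counting lemmas (helper43)

* `card_preimage_mul`: fibres of a surjective homomorphism of finite groups have equal size;
* `under_int_eq_span`: the prime of `ℤ` below `w` is `(p_w)`;
* `sum_decompCard_le`: `∑ |D_w| ≤ |Gal(L/ℚ)|` over distinct primes above one rational prime;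
* `sum_wt_le`: `∑_{w ∈ W} |D_w| p_w^{-s} ≤ |Gal(L/ℚ)| ∑_{p ∈ image} p^{-s}`;
* `exists_conj_frob`: conjugating an unramified prime and its Frobenius.
-/

set_option autoImplicit false
set_option linter.unusedSectionVars false
set_option linter.style.haveILetI false

namespace Fermat.Agent.S48.Cheb.H43

open NumberField IsDedekindDomain Ideal
open Fermat.Agent.Lib Fermat.Agent.Lib.FrobDensity Fermat.Agent.Lib.ZetaPrimes
open scoped Pointwise

section Group

variable {H G : Type} [Group H] [Group G]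

/-- The preimage of a subset under a surjective homomorphism is a product with the kernel. -/
noncomputable def fibreEquivKer (ρ : H →* G) (hρ : Function.Surjective ρ) (Q : G → Prop) :
    {τ : H // Q (ρ τ)} ≃ {h : G // Q h} × ρ.ker where
  toFun τ := (⟨ρ τ.1, τ.2⟩, ⟨(Function.surjInv hρ (ρ τ.1))⁻¹ * τ.1, by
    rw [MonoidHom.mem_ker, map_mul, map_inv, Function.surjInv_eq hρ, inv_mul_cancel]⟩)
  invFun x := ⟨Function.surjInv hρ x.1.1 * x.2.1, by
    have h2 : ρ x.2.1 = 1 := x.2.2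
    rw [map_mul, Function.surjInv_eq hρ, h2, mul_one]
    exact x.1.2⟩
  left_inv τ := by
    apply Subtype.ext
    simp
  right_inv x := by
    have h2 : ρ x.2.1 = 1 := x.2.2
    have h3 : ρ (Function.surjInv hρ x.1.1 * x.2.1) = x.1.1 := by
      rw [map_mul, Function.surjInv_eq hρ, h2, mul_one]
    apply Prod.ext
    · apply Subtype.ext
      exact h3
    · apply Subtype.ext
      show (Function.surjInv hρ (ρ (Function.surjInv hρ x.1.1 * x.2.1)))⁻¹ *
        (Function.surjInv hρ x.1.1 * x.2.1) = x.2.1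
      rw [h3, inv_mul_cancel_left]

lemma card_preimage_mul [Finite H] [Finite G] (ρ : H →* G) (hρ : Function.Surjective ρ)
    (Q : G → Prop) :
    Nat.card {τ : H // Q (ρ τ)} * Nat.card G = Nat.card {h : G // Q h} * Nat.card H := by
  have h1 : Nat.card {τ : H // Q (ρ τ)} = Nat.card {h : G // Q h} * Nat.card ρ.ker := by
    rw [Nat.card_congr (fibreEquivKer ρ hρ Q), Nat.card_prod]
  have h2 : Nat.card {τ : H // True} = Nat.card {h : G // True} * Nat.card ρ.ker := by
    rw [Nat.card_congr (fibreEquivKer ρ hρ (fun _ => True)), Nat.card_prod]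
  rw [Nat.card_congr (Equiv.subtypeUnivEquiv (fun _ => trivial)),
    Nat.card_congr (Equiv.subtypeUnivEquiv (fun _ => trivial))] at h2
  rw [h1, h2]
  ring

end Group

section Fibre

variable (L : Type) [Field L] [NumberField L] [IsGalois ℚ L]

omit [IsGalois ℚ L] in
/-- The prime of `ℤ` below `w`. -/
lemma under_int_eq_span (w : HeightOneSpectrum (𝓞 L)) :
    w.asIdeal.under ℤ = Ideal.span {((ratPrime L w : ℕ) : ℤ)} := by
  haveI := w.isPrime
  have hp := ratPrime_prime L w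
  have h1 : Ideal.span {((ratPrime L w : ℕ) : ℤ)} ≤ w.asIdeal.under ℤ := by
    rw [Ideal.span_singleton_le_iff_mem, Ideal.under, Ideal.mem_comap]
    simpa using ratPrime_mem L w
  have hmax : (Ideal.span {((ratPrime L w : ℕ) : ℤ)}).IsMaximal :=
    PrincipalIdealRing.isMaximal_of_irreducible
      (Nat.prime_iff_prime_int.mp hp).irreducible
  have hne : w.asIdeal.under ℤ ≠ ⊤ := (inferInstance : (w.asIdeal.under ℤ).IsPrime).ne_top
  exact (hmax.eq_of_le hne h1).symm

/-- Two primes above the same rational prime are conjugate. -/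
lemma exists_smul_eq_of_ratPrime_eq {w w' : HeightOneSpectrum (𝓞 L)}
    (h : ratPrime L w' = ratPrime L w) : ∃ σ : L ≃ₐ[ℚ] L, w'.asIdeal = σ • w.asIdeal := by
  have hG : IsGaloisGroup (L ≃ₐ[ℚ] L) ℤ (𝓞 L) := IsGaloisGroup.of_isFractionRing _ _ _ ℚ L
  haveI := w.isPrime
  haveI := w'.isPrime
  refine Algebra.IsInvariant.exists_smul_of_under_eq ℤ (𝓞 L) (L ≃ₐ[ℚ] L) w.asIdeal w'.asIdeal ?_
  rw [under_int_eq_span, under_int_eq_span, h]

omit [IsGalois ℚ L] in
lemma decompCard_eq_of_smul {w w' : HeightOneSpectrum (𝓞 L)} {σ : L ≃ₐ[ℚ] L}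
    (h : w'.asIdeal = σ • w.asIdeal) : decompCard L w' = decompCard L w := by
  unfold decompCard
  exact (Nat.card_congr (MulAction.stabilizerEquivStabilizer h).toEquiv).symm

/-- `∑ |D_w| ≤ |Gal(L/ℚ)|` over distinct primes above one rational prime. -/
lemma sum_decompCard_le (W : Finset (HeightOneSpectrum (𝓞 L))) (p : ℕ)
    (hW : ∀ w ∈ W, ratPrime L w = p) :
    ∑ w ∈ W, decompCard L w ≤ Nat.card (L ≃ₐ[ℚ] L) := by
  classical
  rcases W.eq_empty_or_nonempty with rfl | ⟨w₀, hw₀⟩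
  · simp
  have horb : ∀ w ∈ W, w.asIdeal ∈ MulAction.orbit (L ≃ₐ[ℚ] L) w₀.asIdeal := by
    intro w hw
    obtain ⟨σ, hσ⟩ := exists_smul_eq_of_ratPrime_eq L (w := w₀) (w' := w)
      ((hW w hw).trans (hW w₀ hw₀).symm)
    exact ⟨σ, hσ.symm⟩
  have hdc : ∀ w ∈ W, decompCard L w = decompCard L w₀ := by
    intro w hw
    obtain ⟨σ, hσ⟩ := exists_smul_eq_of_ratPrime_eq L (w := w₀) (w' := w)
      ((hW w hw).trans (hW w₀ hw₀).symm)
    exact decompCard_eq_of_smul L hσ
  rw [Finset.sum_congr rfl hdc, Finset.sum_const, smul_eq_mul]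
  have hcard : W.card ≤ Nat.card (MulAction.orbit (L ≃ₐ[ℚ] L) w₀.asIdeal) := by
    have hfin : Finite (MulAction.orbit (L ≃ₐ[ℚ] L) w₀.asIdeal) := Set.finite_range _
    let f : W → MulAction.orbit (L ≃ₐ[ℚ] L) w₀.asIdeal := fun w => ⟨w.1.asIdeal, horb w.1 w.2⟩
    have hf : Function.Injective f := by
      intro a b hab
      have h1 : a.1.asIdeal = b.1.asIdeal := congrArg Subtype.val hab
      exact Subtype.ext (HeightOneSpectrum.ext h1)
    have := Nat.card_le_card_of_injective f hf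
    rwa [Nat.card_eq_fintype_card, Fintype.card_coe] at this
  have hos := Nat.card_congr (MulAction.orbitProdStabilizerEquivGroup (L ≃ₐ[ℚ] L) w₀.asIdeal)
  rw [Nat.card_prod] at hos
  rw [← hos]
  exact Nat.mul_le_mul_right _ hcard

/-- `∑_{w ∈ W} |D_w| p_w^{-s} ≤ |Gal(L/ℚ)| ∑_{p ∈ image} p^{-s}`. -/
lemma sum_wt_le (W : Finset (HeightOneSpectrum (𝓞 L))) (s : ℝ) :
    ∑ w ∈ W, FrobDensity.wt L s w ≤
      (Nat.card (L ≃ₐ[ℚ] L) : ℝ) * ∑ p ∈ W.image (ratPrime L), (p : ℝ) ^ (-s) := by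
  classical
  rw [← Finset.sum_fiberwise_of_maps_to (g := ratPrime L) (t := W.image (ratPrime L))
    (fun w hw => Finset.mem_image_of_mem _ hw), Finset.mul_sum]
  refine Finset.sum_le_sum (fun p _ => ?_)
  have h1 : ∑ w ∈ W with ratPrime L w = p, FrobDensity.wt L s w =
      ((∑ w ∈ W with ratPrime L w = p, decompCard L w : ℕ) : ℝ) * (p : ℝ) ^ (-s) := by
    rw [Nat.cast_sum, Finset.sum_mul]
    refine Finset.sum_congr rfl (fun w hw => ?_)
    rw [Finset.mem_filter] at hw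
    unfold FrobDensity.wt
    rw [hw.2]
  rw [h1]
  refine mul_le_mul_of_nonneg_right ?_ (by positivity)
  exact_mod_cast sum_decompCard_le L _ p (fun w hw => (Finset.mem_filter.mp hw).2)

/-- Conjugating an unramified prime and its Frobenius. -/
lemma exists_conj_frob (w : HeightOneSpectrum (𝓞 L)) (hw : Unram L w) {τ : L ≃ₐ[ℚ] L}
    (hτ : IsArithFrobAt ℤ τ w.asIdeal) (ξ : L ≃ₐ[ℚ] L) :
    ∃ w' : HeightOneSpectrum (𝓞 L), Unram L w' ∧ IsArithFrobAt ℤ (ξ * τ * ξ⁻¹) w'.asIdeal ∧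
      ratPrime L w' = ratPrime L w := by
  haveI := w.isPrime
  have hprime : (ξ • w.asIdeal).IsPrime := inferInstance
  have hne : ξ • w.asIdeal ≠ ⊥ := by
    intro h
    apply w.ne_bot
    have h2 : ξ⁻¹ • (ξ • w.asIdeal) = ξ⁻¹ • (⊥ : Ideal (𝓞 L)) := by rw [h]
    rw [inv_smul_smul] at h2
    rw [h2]
    exact Ideal.smul_bot _
  let w' : HeightOneSpectrum (𝓞 L) := ⟨ξ • w.asIdeal, hprime, hne⟩
  have hmem : ((ratPrime L w : ℕ) : 𝓞 L) ∈ w'.asIdeal := by
    show ((ratPrime L w : ℕ) : 𝓞 L) ∈ ξ • w.asIdeal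
    rw [Ideal.mem_pointwise_smul_iff_inv_smul_mem]
    have : ξ⁻¹ • ((ratPrime L w : ℕ) : 𝓞 L) = ((ratPrime L w : ℕ) : 𝓞 L) :=
      map_natCast (MulSemiringAction.toRingHom (L ≃ₐ[ℚ] L) (𝓞 L) ξ⁻¹) _
    rw [this]
    exact ratPrime_mem L w
  have hrat : ratPrime L w' = ratPrime L w :=
    (H12.eq_ratPrime_of_mem L w' (ratPrime_prime L w) hmem).symm
  refine ⟨w', ?_, hτ.conj ξ, hrat⟩
  refine H31.unram_of_under_eq L (w := w) (w' := w') ?_ hw
  rw [under_int_eq_span, under_int_eq_span, hrat]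

end Fibre

end Fermat.Agent.S48.Cheb.H43

end
-- ==== END Fermat.Agent.S48.Cheb.H43_BridgeCount

-- ==== BEGIN Fermat.Agent.S48.Cheb.H43_RayMap
section

/-!
# S48 leaf D2: `rayNorm` is a ray map mod `m` onto `⟨a⟩` (helper43)
-/

set_option autoImplicit false
set_option linter.unusedSectionVars false
set_option linter.style.haveILetI false

namespace Fermat.Agent.S48.Cheb.H43

open NumberField IsDedekindDomain Ideal
open Fermat.Agent.Lib
open scoped IsMulCommutative

variable {N : Type} [Field N] [NumberField N] [IsGalois ℚ N] {m : ℕ} {ζ : N} {a : N ≃ₐ[ℚ] N}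

/-- If `σ ζ = ζ ^ t` then `σ ^ j ζ = ζ ^ (t ^ j)`. -/
lemma pow_apply_eq {σ : N ≃ₐ[ℚ] N} {t : ℕ} (h : σ ζ = ζ ^ t) (j : ℕ) :
    (σ ^ j) ζ = ζ ^ (t ^ j) := by
  induction j with
  | zero => simp
  | succ j ih =>
    rw [pow_succ, AlgEquiv.mul_apply, h, map_pow, ih, ← pow_mul, pow_succ]

theorem rayNorm_map_mul (hm : m ≠ 0) (hζ : IsPrimitiveRoot ζ m)
    (hinj : ∀ k : ℕ, (a ^ k) ζ = ζ → a ^ k = 1) (𝔞 𝔟 : Ideal (𝓞 (fixE a)))
    (h𝔞 : 𝔞 ≠ ⊥) (h𝔟 : 𝔟 ≠ ⊥) (hc𝔞 : IsCoprime 𝔞 (modE a m)) (hc𝔟 : IsCoprime 𝔟 (modE a m)) :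
    rayNorm a ζ (𝔞 * 𝔟) = rayNorm a ζ 𝔞 * rayNorm a ζ 𝔟 := by
  obtain ⟨σ₁, hσ₁, h₁⟩ := exists_sym hm hζ 𝔞 h𝔞 hc𝔞
  obtain ⟨σ₂, hσ₂, h₂⟩ := exists_sym hm hζ 𝔟 h𝔟 hc𝔟
  have h₁₂ : (σ₁ * σ₂) ζ = ζ ^ Ideal.absNorm (𝔞 * 𝔟) := by
    rw [AlgEquiv.mul_apply, h₂, map_pow, h₁, ← pow_mul, map_mul]
  rw [rayNorm_eq hinj hσ₁ h₁, rayNorm_eq hinj hσ₂ h₂,
    rayNorm_eq hinj ((Subgroup.zpowers a).mul_mem hσ₁ hσ₂) h₁₂]
  rfl

theorem rayNorm_map_ray (hm : m ≠ 0) (hζ : IsPrimitiveRoot ζ m)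
    (hinj : ∀ k : ℕ, (a ^ k) ζ = ζ → a ^ k = 1) (hneg : ∀ k : ℕ, (a ^ k) ζ ≠ ζ⁻¹)
    (x : 𝓞 (fixE a)) (hx0 : x ≠ 0) (hx : x - 1 ∈ modE a m) :
    rayNorm a ζ (Ideal.span {x}) = 1 := by
  have hcop : IsCoprime (Ideal.span {x}) (modE a m) := by
    rw [Ideal.isCoprime_iff_exists]
    exact ⟨x, Ideal.mem_span_singleton_self x, -(x - 1), neg_mem hx, by ring⟩
  have hspan0 : Ideal.span {x} ≠ ⊥ := by
    rw [Ne, Ideal.span_singleton_eq_bot]; exact hx0
  obtain ⟨σ, hσ, h⟩ := exists_sym hm hζ (Ideal.span {x}) hspan0 hcop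
  rw [Ideal.absNorm_span_singleton] at h
  have hnorm := norm_intCast_zmod_eq_one (S := 𝓞 (fixE a)) m hx
  set n : ℤ := Algebra.norm ℤ x with hn
  have hn0 : n ≠ 0 := by
    rw [hn, Ne, Algebra.norm_eq_zero_iff]; exact hx0
  rcases lt_or_gt_of_ne hn0 with hlt | hgt
  · -- negative norm: `σ` inverts `ζ`
    exfalso
    have h1 : ((n.natAbs + 1 : ℕ) : ZMod m) = 0 := by
      have : ((n.natAbs : ℕ) : ℤ) = -n := by omega
      have h2 : ((n.natAbs : ℕ) : ZMod m) = -1 := by
        calc ((n.natAbs : ℕ) : ZMod m) = (((n.natAbs : ℕ) : ℤ) : ZMod m) :=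
              (Int.cast_natCast _).symm
          _ = ((-n : ℤ) : ZMod m) := by rw [this]
          _ = -1 := by rw [Int.cast_neg, hnorm]
      rw [Nat.cast_add, h2, Nat.cast_one]; ring
    have h3 : m ∣ n.natAbs + 1 := (ZMod.natCast_eq_zero_iff _ _).mp h1
    have h4 : ζ ^ n.natAbs * ζ = 1 := by
      rw [← pow_succ]
      exact (hζ.pow_eq_one_iff_dvd _).mpr h3
    have h5 : σ ζ = ζ⁻¹ := by
      rw [h]; exact eq_inv_of_mul_eq_one_left h4
    obtain ⟨k, hk⟩ := exists_pow_of_mem_zpowers hσ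
    exact hneg k (by rw [hk]; exact h5)
  · have h1 : ((n.natAbs : ℕ) : ZMod m) = ((1 : ℕ) : ZMod m) := by
      have : ((n.natAbs : ℕ) : ℤ) = n := by omega
      calc ((n.natAbs : ℕ) : ZMod m) = (((n.natAbs : ℕ) : ℤ) : ZMod m) :=
            (Int.cast_natCast _).symm
        _ = ((n : ℤ) : ZMod m) := by rw [this]
        _ = ((1 : ℕ) : ZMod m) := by rw [hnorm, Nat.cast_one]
    have h3 : n.natAbs ≡ 1 [MOD m] := (ZMod.natCast_eq_natCast_iff _ _ _).mp h1
    have h4 : ζ ^ n.natAbs = ζ ^ 1 := (prim_pow_eq_iff hζ hm _ _).mpr h3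
    have h5 : σ ζ = (1 : N ≃ₐ[ℚ] N) ζ := by
      rw [h, h4, pow_one]; rfl
    have h6 : σ = 1 := eq_of_apply_eq hinj hσ (one_mem _) h5
    subst h6
    have h7 : (1 : N ≃ₐ[ℚ] N) ζ = ζ ^ Ideal.absNorm (Ideal.span {x}) := by
      rw [Ideal.absNorm_span_singleton]; exact h
    rw [rayNorm_eq hinj (one_mem _) h7]
    rfl

/-- A Frobenius element at a prime `w ∌ m` raises `ζ` to the power `p_w`. -/
lemma frob_apply_zeta (hm : m ≠ 0) (hζ : IsPrimitiveRoot ζ m) (w : HeightOneSpectrum (𝓞 N))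
    (hmw : (m : 𝓞 N) ∉ w.asIdeal) {φ : N ≃ₐ[ℚ] N} (hφ : IsArithFrobAt ℤ φ w.asIdeal) :
    φ ζ = ζ ^ ZetaPrimes.ratPrime N w := by
  obtain ⟨j, hj⟩ := exists_apply_eq_pow hm hζ φ
  have hcong := (FrobDensity.H12.isArithFrobAt_int_iff N w φ).mp hφ (zetaInt hm hζ)
  have h2 : φ • zetaInt hm hζ = zetaInt hm hζ ^ j := by
    apply RingOfIntegers.ext
    exact hj
  rw [h2] at hcong
  haveI := w.isPrime
  have h3 := pow_eq_of_sub_mem hm (zetaInt_prim hm hζ) w.asIdeal hmw hcong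
  have h4 := congrArg (algebraMap (𝓞 N) N) h3
  rw [hj]
  simpa [zetaInt] using h4

/-- The prime of `E` under `w` does not contain `m`. -/
lemma natCast_notMem_underK (w : HeightOneSpectrum (𝓞 N)) (hmw : (m : 𝓞 N) ∉ w.asIdeal) :
    (m : 𝓞 (fixE a)) ∉ (FrobDensity.underK N (fixE a) w).asIdeal := by
  intro h
  apply hmw
  change (m : 𝓞 (fixE a)) ∈ w.asIdeal.under (𝓞 (fixE a)) at h
  rw [Ideal.under_def, Ideal.mem_comap, map_natCast] at h
  exact h

/-- A nonzero prime not containing `m` is coprime to `m 𝓞_E`. -/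
lemma isCoprime_of_natCast_notMem (u : HeightOneSpectrum (𝓞 (fixE a)))
    (h : (m : 𝓞 (fixE a)) ∉ u.asIdeal) : IsCoprime u.asIdeal (modE a m) := by
  rw [Ideal.isCoprime_iff_sup_eq]
  have hmax : u.asIdeal.IsMaximal := u.isMaximal
  by_contra hne
  have hle : u.asIdeal ⊔ modE a m = u.asIdeal := by
    rcases hmax.eq_of_le hne le_sup_left with h1
    exact h1.symm
  apply h
  have : modE a m ≤ u.asIdeal := by
    rw [← hle]; exact le_sup_right
  exact this (Ideal.mem_span_singleton_self _)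

/-- **Key lemma**: for an unramified prime `w ∌ m` of `N` with Frobenius `φ ∈ ⟨a⟩`, the prime `u`
of `E` under `w` has norm `p_w` and `rayNorm u = φ`. -/
theorem rayNorm_underK (hm : m ≠ 0) (hζ : IsPrimitiveRoot ζ m)
    (hinj : ∀ k : ℕ, (a ^ k) ζ = ζ → a ^ k = 1) (w : HeightOneSpectrum (𝓞 N))
    (hw : FrobDensity.Unram N w) (hmw : (m : 𝓞 N) ∉ w.asIdeal) {φ : N ≃ₐ[ℚ] N}
    (hφ : IsArithFrobAt ℤ φ w.asIdeal) (hφa : φ ∈ Subgroup.zpowers a) :
    Ideal.absNorm (FrobDensity.underK N (fixE a) w).asIdeal = ZetaPrimes.ratPrime N w ∧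
      rayNorm a ζ (FrobDensity.underK N (fixE a) w).asIdeal = ⟨φ, hφa⟩ := by
  have hprime := (FrobDensity.H12.stmt_Split N (Subgroup.zpowers a) w φ hw hφ).mp hφa
  have hnorm := FrobDensity.H12.stmt_NormUnder N (fixE a) w hprime
  refine ⟨hnorm, rayNorm_eq hinj hφa ?_⟩
  rw [hnorm]
  exact frob_apply_zeta hm hζ w hmw hφ

/-- Two natural numbers in a proper ideal are not coprime. -/
lemma natCast_notMem_of_coprime {R : Type*} [CommRing R] (Q : Ideal R) (hQ : Q ≠ ⊤) {m ℓ : ℕ}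
    (hℓ : (ℓ : R) ∈ Q) (hcop : Nat.Coprime m ℓ) : (m : R) ∉ Q := by
  intro hmQ
  apply hQ
  rw [Ideal.eq_top_iff_one]
  have h1 : ((Nat.gcd m ℓ : ℤ) : R) ∈ Q := by
    rw [Nat.gcd_eq_gcd_ab]
    push_cast
    exact Ideal.add_mem _ (Ideal.mul_mem_right _ _ hmQ) (Ideal.mul_mem_right _ _ hℓ)
  rw [hcop] at h1
  simpa using h1

theorem rayNorm_surj (hm : m ≠ 0) (hζ : IsPrimitiveRoot ζ m)
    (hinj : ∀ k : ℕ, (a ^ k) ζ = ζ → a ^ k = 1) (x : ↥(Subgroup.zpowers a)) :
    ∃ 𝔞 : Ideal (𝓞 (fixE a)), 𝔞 ≠ ⊥ ∧ IsCoprime 𝔞 (modE a m) ∧ rayNorm a ζ 𝔞 = x := by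
  obtain ⟨Q, φ, ℓ, hQp, hℓ, hℓS, hℓQ, hQin, hφ, hφa⟩ :=
    FrobDensity.stmt_FD_NF N a m.primeFactors
  have hQ0 : Q ≠ ⊥ := by
    rintro rfl
    have : (ℓ : 𝓞 N) = 0 := by simpa using hℓQ
    exact hℓ.ne_zero (by exact_mod_cast this)
  let w : HeightOneSpectrum (𝓞 N) := ⟨Q, hQp, hQ0⟩
  have hw : FrobDensity.Unram N w := hQin
  have hcop : Nat.Coprime m ℓ := by
    rw [Nat.coprime_comm, Nat.Prime.coprime_iff_not_dvd hℓ]
    intro hdvd
    exact hℓS (Nat.mem_primeFactors.mpr ⟨hℓ, hdvd, hm⟩)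
  have hmw : (m : 𝓞 N) ∉ w.asIdeal := natCast_notMem_of_coprime Q hQp.ne_top hℓQ hcop
  have hφH : φ ∈ Subgroup.zpowers a := by
    rw [← hφa]; exact Subgroup.mem_zpowers φ
  obtain ⟨hnorm, hray⟩ := rayNorm_underK hm hζ hinj w hw hmw hφ hφH
  set u := FrobDensity.underK N (fixE a) w with hu
  have hxφ : (x : N ≃ₐ[ℚ] N) ∈ Subgroup.zpowers φ := by rw [hφa]; exact x.2
  obtain ⟨j, hj⟩ := exists_pow_of_mem_zpowers hxφ
  have hφζ : φ ζ = ζ ^ Ideal.absNorm u.asIdeal := by
    rw [hnorm]; exact frob_apply_zeta hm hζ w hmw hφ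
  refine ⟨u.asIdeal ^ j, pow_ne_zero j u.ne_bot,
    (isCoprime_of_natCast_notMem u (natCast_notMem_underK w hmw)).pow_left, ?_⟩
  have h1 : (φ ^ j) ζ = ζ ^ Ideal.absNorm (u.asIdeal ^ j) := by
    rw [map_pow]; exact pow_apply_eq hφζ j
  rw [rayNorm_eq hinj ((Subgroup.zpowers a).pow_mem hφH j) h1]
  exact Subtype.ext hj

/-- **`rayNorm` is a ray map mod `m 𝓞_E` onto `⟨a⟩`.** -/
theorem isRayMap_rayNorm (hm : m ≠ 0) (hζ : IsPrimitiveRoot ζ m)
    (hinj : ∀ k : ℕ, (a ^ k) ζ = ζ → a ^ k = 1) (hneg : ∀ k : ℕ, (a ^ k) ζ ≠ ζ⁻¹) :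
    SecondIneq.IsRayMap (modE a m) (rayNorm a ζ) where
  map_mul := rayNorm_map_mul hm hζ hinj
  map_ray := rayNorm_map_ray hm hζ hinj hneg
  surj := rayNorm_surj hm hζ hinj

end Fermat.Agent.S48.Cheb.H43

end
-- ==== END Fermat.Agent.S48.Cheb.H43_RayMap

-- ==== BEGIN Fermat.Agent.S48.Cheb.H78_Cross
section

/-!
# S48 leaf D3: `chebNF_of : Stmt_ChebCyc → Stmt_ChebNF`

Chebotarev's crossing argument: `N = L(ζ_m)` with `m` from `H55.exists_modulus`, the good
extensions `R` of `g` to `N` (`H78.exists_good_set`), the cyclotomic case for each `a ∈ R`, and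
`H31.sum_tsum_frobEq_le`.
-/

set_option autoImplicit false
set_option linter.style.haveILetI false

open NumberField

namespace Fermat.Agent.S48.Cheb.H78

open Fermat.Agent.Lib

/-- **D3**: Chebotarev for number fields with loss, from the cyclotomic case. -/
theorem chebNF_of (hCyc : Stmt_ChebCyc) : Stmt_ChebNF := by
  classical
  intro L _ _ _ g η hη
  set D : ℕ := Module.finrank ℚ L with hD
  have hDpos : 0 < D := Module.finrank_pos
  have hDR : (0 : ℝ) < D := by exact_mod_cast hDpos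
  obtain ⟨m, hm, Bad, hBad, hgood⟩ :=
    H55.exists_modulus (orderOf g) (orderOf_pos g) (η / D) (div_pos hη hDR)
  haveI : NeZero m := ⟨hm⟩
  haveI : IsGalois ℚ (CyclotomicField m L) := isGalois_cyclotomicField L m
  have hζ : IsPrimitiveRoot (IsCyclotomicExtension.zeta m L (CyclotomicField m L)) m :=
    IsCyclotomicExtension.zeta_spec m L (CyclotomicField m L)
  obtain ⟨R, hRres, hRgood, hRcard⟩ :=
    exists_good_set L (CyclotomicField m L) m _ hζ g Bad hgood
  have htot := totient_le_finrank_mul L (CyclotomicField m L) m _ hζ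
  set d : ℕ := Module.finrank L (CyclotomicField m L) with hd
  have hdpos : 0 < d := Module.finrank_pos
  have hdR : (0 : ℝ) < d := by exact_mod_cast hdpos
  -- `#R ≥ (1 - η) d`
  have hRbig : (1 - η) * (d : ℝ) ≤ (R.card : ℝ) := by
    have h1 : (d : ℝ) ≤ (R.card : ℝ) + (Bad.card : ℝ) := by exact_mod_cast hRcard
    have h2 : (Nat.totient m : ℝ) ≤ (D : ℝ) * (d : ℝ) := by exact_mod_cast htot
    have h3 : (Bad.card : ℝ) ≤ η * (d : ℝ) := by
      calc (Bad.card : ℝ) ≤ η / D * (Nat.totient m) := hBad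
        _ ≤ η / D * ((D : ℝ) * (d : ℝ)) :=
            mul_le_mul_of_nonneg_left h2 (div_pos hη hDR).le
        _ = η * (d : ℝ) := by field_simp
    linarith
  -- constants of the cyclotomic case
  have hex : ∀ a : CyclotomicField m L ≃ₐ[ℚ] CyclotomicField m L, ∃ C : ℝ, a ∈ R →
      ∀ s : ℝ, 1 < s → s ≤ 2 →
        Real.log (1 / (s - 1)) - C ≤
          ∑' w : frobEq (CyclotomicField m L) a, FrobDensity.wt (CyclotomicField m L) s w.1 := by
    intro a
    by_cases ha : a ∈ R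
    · obtain ⟨C, hC⟩ := hCyc (CyclotomicField m L) m _ a hm hζ (hRgood a ha).1 (hRgood a ha).2
      exact ⟨C, fun _ => hC⟩
    · exact ⟨0, fun h => absurd h ha⟩
  choose C hC using hex
  refine ⟨(∑ a ∈ R, |C a|) / (d : ℝ), fun s hs1 hs2 => ?_⟩
  have hcross := H31.sum_tsum_frobEq_le L (CyclotomicField m L) g R hRres s hs1
  have hlog : 0 ≤ Real.log (1 / (s - 1)) := by
    apply Real.log_nonneg
    rw [le_div_iff₀ (by linarith)]
    linarith
  have hsum : (R.card : ℝ) * Real.log (1 / (s - 1)) - ∑ a ∈ R, |C a| ≤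
      ∑ a ∈ R, ∑' w : frobEq (CyclotomicField m L) a,
        FrobDensity.wt (CyclotomicField m L) s w.1 := by
    have : ∑ a ∈ R, (Real.log (1 / (s - 1)) - |C a|) ≤
        ∑ a ∈ R, ∑' w : frobEq (CyclotomicField m L) a,
          FrobDensity.wt (CyclotomicField m L) s w.1 := by
      refine Finset.sum_le_sum (fun a ha => ?_)
      have h1 := hC a ha s hs1 hs2
      have h2 : C a ≤ |C a| := le_abs_self _
      linarith
    rw [Finset.sum_sub_distrib, Finset.sum_const, nsmul_eq_mul] at this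
    exact this
  have hmain : (R.card : ℝ) * Real.log (1 / (s - 1)) - ∑ a ∈ R, |C a| ≤
      (d : ℝ) * ∑' w : frobEq L g, FrobDensity.wt L s w.1 := hsum.trans hcross
  have hkey : (1 - η) * (d : ℝ) * Real.log (1 / (s - 1)) - ∑ a ∈ R, |C a| ≤
      (d : ℝ) * ∑' w : frobEq L g, FrobDensity.wt L s w.1 := by
    have := mul_le_mul_of_nonneg_right hRbig hlog
    linarith
  have hfinal : ((1 - η) * Real.log (1 / (s - 1)) - (∑ a ∈ R, |C a|) / (d : ℝ)) * (d : ℝ) ≤
      (∑' w : frobEq L g, FrobDensity.wt L s w.1) * (d : ℝ) := by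
    have e : ((1 - η) * Real.log (1 / (s - 1)) - (∑ a ∈ R, |C a|) / (d : ℝ)) * (d : ℝ) =
        (1 - η) * (d : ℝ) * Real.log (1 / (s - 1)) - ∑ a ∈ R, |C a| := by
      field_simp
    rw [e, mul_comm (∑' w : frobEq L g, FrobDensity.wt L s w.1) (d : ℝ)]
    exact hkey
  exact le_of_mul_le_mul_right hfinal hdR

end Fermat.Agent.S48.Cheb.H78

end
-- ==== END Fermat.Agent.S48.Cheb.H78_Cross

-- ==== BEGIN Fermat.Agent.S48.H55_IrrCheb
section

/-!
# S48, leaf Irr (helper55): `Stmt_Cheb → Stmt_Irr`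

`Stmt_Rankin` is proved (`H55.stmt_Rankin`), so irreducibility only depends on Chebotarev.
-/

set_option autoImplicit false

namespace Fermat.Agent.S48.H55

/-- **Irr** from **Chebotarev** alone. -/
theorem stmt_Irr_of_cheb (hCh : Stmt_Cheb) : Stmt_Irr :=
  stmt_Irr_of stmt_Rankin hCh

end Fermat.Agent.S48.H55

end
-- ==== END Fermat.Agent.S48.H55_IrrCheb

-- ==== BEGIN Fermat.Agent.S48.H78_Lift
section

/-!
# S48 leaf F: `Stmt_Lift`

A two-dimensional representation `r` over an algebraically closed field `k` of characteristic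
`ℓ ≠ 2` of a finite group of order prime to `ℓ` lifts to `ℂ` (on traces and determinants,
compatibly with any given residue map `φ : ℤ̄ →+* k`).

* irreducible case: `lift_core` with `m = Fin 2` (Schur property from irreducibility);
* reducible case: `lift_core` with `m = Fin 1` for the two characters on the diagonal.
-/

set_option autoImplicit false

open Matrix

namespace Fermat.Agent.S48.H78

local notation "Zbar" => integralClosure ℤ ℂ

section linalg

variable {F : Type*} [Field F]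

/-- `2 det A = (tr A)² - tr (A²)` for `2 × 2` matrices. -/
lemma two_mul_det_fin_two {S : Type*} [CommRing S] (A : Matrix (Fin 2) (Fin 2) S) :
    2 * A.det = A.trace ^ 2 - (A * A).trace := by
  simp only [Matrix.det_fin_two, Matrix.trace_fin_two, Matrix.mul_apply, Fin.sum_univ_two]
  ring

/-- Two vectors in the kernel of a nonzero `2 × 2` matrix are proportional. -/
lemma ker_line (B : Matrix (Fin 2) (Fin 2) F) (hB : B ≠ 0) (v w : Fin 2 → F) (hv : v ≠ 0)
    (hBv : B *ᵥ v = 0) (hBw : B *ᵥ w = 0) : ∃ c : F, w = c • v := by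
  have hdet : v 0 * w 1 - v 1 * w 0 = 0 := by
    by_contra hne
    apply hB
    have h1 := congrFun hBv 0
    have h2 := congrFun hBv 1
    have h3 := congrFun hBw 0
    have h4 := congrFun hBw 1
    simp only [Matrix.mulVec, dotProduct, Fin.sum_univ_two, Pi.zero_apply] at h1 h2 h3 h4
    have e00 : B 0 0 * (v 0 * w 1 - v 1 * w 0) = 0 := by linear_combination w 1 * h1 - v 1 * h3
    have e01 : B 0 1 * (v 0 * w 1 - v 1 * w 0) = 0 := by linear_combination v 0 * h3 - w 0 * h1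
    have e10 : B 1 0 * (v 0 * w 1 - v 1 * w 0) = 0 := by linear_combination w 1 * h2 - v 1 * h4
    have e11 : B 1 1 * (v 0 * w 1 - v 1 * w 0) = 0 := by linear_combination v 0 * h4 - w 0 * h2
    ext i j
    fin_cases i <;> fin_cases j
    · exact (mul_eq_zero.mp e00).resolve_right hne
    · exact (mul_eq_zero.mp e01).resolve_right hne
    · exact (mul_eq_zero.mp e10).resolve_right hne
    · exact (mul_eq_zero.mp e11).resolve_right hne
  by_cases hv0 : v 0 = 0
  · have hv1 : v 1 ≠ 0 := by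
      intro h1
      apply hv
      ext i
      fin_cases i
      · exact hv0
      · exact h1
    refine ⟨w 1 / v 1, ?_⟩
    rw [hv0] at hdet
    have hw0 : w 0 = 0 := by
      have : v 1 * w 0 = 0 := by linear_combination -hdet
      exact (mul_eq_zero.mp this).resolve_left hv1
    ext i
    fin_cases i
    · simp [hv0, hw0]
    · simp only [Fin.mk_one, Fin.isValue, Pi.smul_apply, smul_eq_mul]
      field_simp
  · refine ⟨w 0 / v 0, ?_⟩
    ext i
    fin_cases i
    · simp only [Fin.zero_eta, Fin.isValue, Pi.smul_apply, smul_eq_mul]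
      field_simp
    · simp only [Fin.mk_one, Fin.isValue, Pi.smul_apply, smul_eq_mul]
      rw [div_mul_eq_mul_div, eq_div_iff hv0]
      linear_combination hdet

/-- An eigenvalue of a `2 × 2` matrix is a root of `X² - tr X + det`. -/
lemma eig_quadratic (A : Matrix (Fin 2) (Fin 2) F) (v : Fin 2 → F) (hv : v ≠ 0) (c : F)
    (hAv : A *ᵥ v = c • v) : c * c - A.trace * c + A.det = 0 := by
  have hker : (A - c • (1 : Matrix (Fin 2) (Fin 2) F)) *ᵥ v = 0 := by
    rw [Matrix.sub_mulVec, hAv, Matrix.smul_mulVec, Matrix.one_mulVec, sub_self]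
  have hdet : (A - c • (1 : Matrix (Fin 2) (Fin 2) F)).det = 0 :=
    Matrix.exists_mulVec_eq_zero_iff.mp ⟨v, hv, hker⟩
  rw [Matrix.det_fin_two] at hdet
  simp only [Matrix.sub_apply, Matrix.smul_apply, Matrix.one_apply_eq, smul_eq_mul, mul_one,
    Matrix.one_apply_ne (show (0 : Fin 2) ≠ 1 by decide),
    Matrix.one_apply_ne (show (1 : Fin 2) ≠ 0 by decide), mul_zero, sub_zero] at hdet
  rw [Matrix.trace_fin_two, Matrix.det_fin_two]
  linear_combination hdet

end linalg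

section reducible

variable {G : Type} [Group G] {k : Type} [Field k]

/-- `r` has a common eigenvector. -/
def HasLine (r : G →* Matrix (Fin 2) (Fin 2) k) : Prop :=
  ∃ v : Fin 2 → k, v ≠ 0 ∧ ∀ g, ∃ c : k, r g *ᵥ v = c • v

/-- Without a common eigenvector, the Schur property holds (over an algebraically closed
field). -/
theorem schurProp_of_not_hasLine [IsAlgClosed k] (r : G →* Matrix (Fin 2) (Fin 2) k)
    (h : ¬ HasLine r) : SchurProp r := by
  intro A hA
  -- an eigenvalue of `A`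
  obtain ⟨lam, hlam⟩ := IsAlgClosed.exists_root A.charpoly (by
    rw [Matrix.charpoly_degree_eq_dim]; simp)
  have hdet : (lam • (1 : Matrix (Fin 2) (Fin 2) k) - A).det = 0 := by
    have := Matrix.eval_charpoly A lam
    rw [Polynomial.IsRoot.def] at hlam
    rw [hlam] at this
    have e : (Matrix.scalar (Fin 2)) lam = lam • (1 : Matrix (Fin 2) (Fin 2) k) := by
      rw [Matrix.scalar_apply, Matrix.smul_one_eq_diagonal]
    rw [← e, ← this]
  obtain ⟨v, hv, hBv⟩ := Matrix.exists_mulVec_eq_zero_iff.mpr hdet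
  set B : Matrix (Fin 2) (Fin 2) k := lam • (1 : Matrix (Fin 2) (Fin 2) k) - A with hBdef
  by_cases hB : B = 0
  · refine ⟨lam, ?_⟩
    rw [hBdef, sub_eq_zero] at hB
    exact hB.symm
  · exfalso
    apply h
    refine ⟨v, hv, fun g => ?_⟩
    have hcomm : B * r g = r g * B := by
      rw [hBdef, Matrix.sub_mul, Matrix.mul_sub, hA g]
      simp
    have hker : B *ᵥ (r g *ᵥ v) = 0 := by
      rw [Matrix.mulVec_mulVec, hcomm, ← Matrix.mulVec_mulVec, hBv, Matrix.mulVec_zero]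
    exact ker_line B hB v (r g *ᵥ v) hv hBv hker

/-- A representation with a common eigenvector has trace `ψ₁ + ψ₂` and determinant `ψ₁ ψ₂` for
two characters `ψ₁, ψ₂ : G →* k`. -/
theorem exists_chars_of_hasLine (r : G →* Matrix (Fin 2) (Fin 2) k) (h : HasLine r) :
    ∃ ψ₁ ψ₂ : G →* k, ∀ g, (r g).trace = ψ₁ g + ψ₂ g ∧ (r g).det = ψ₁ g * ψ₂ g := by
  classical
  obtain ⟨v, hv, hc⟩ := h
  choose c hc using hc
  have huniq : ∀ a b : k, a • v = b • v → a = b := by
    intro a b hab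
    have : (a - b) • v = 0 := by rw [sub_smul, hab, sub_self]
    rcases smul_eq_zero.mp this with h0 | h0
    · exact sub_eq_zero.mp h0
    · exact absurd h0 hv
  have hc1 : c 1 = 1 := by
    apply huniq
    rw [← hc 1, map_one, Matrix.one_mulVec, one_smul]
  have hcmul : ∀ g h, c (g * h) = c g * c h := by
    intro g h
    apply huniq
    rw [← hc (g * h), map_mul, ← Matrix.mulVec_mulVec, hc h, Matrix.mulVec_smul, hc g, smul_smul,
      mul_comm]
  have hcne : ∀ g, c g ≠ 0 := by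
    intro g h0
    have := hcmul g g⁻¹
    rw [mul_inv_cancel, hc1, h0, zero_mul] at this
    exact one_ne_zero this
  let ψ₁ : G →* k := { toFun := c, map_one' := hc1, map_mul' := hcmul }
  let ψ₂ : G →* k :=
    { toFun := fun g => (r g).det / c g
      map_one' := by simp [hc1]
      map_mul' := by
        intro g h
        rw [map_mul, Matrix.det_mul, hcmul]
        field_simp [hcne g, hcne h] }
  refine ⟨ψ₁, ψ₂, fun g => ?_⟩
  have hq := eig_quadratic (r g) v hv (c g) (hc g)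
  have hne := hcne g
  constructor
  · show (r g).trace = c g + (r g).det / c g
    field_simp
    linear_combination -hq
  · show (r g).det = c g * ((r g).det / c g)
    field_simp

end reducible

section assemble

variable {G : Type} [Group G] [Fintype G]

/-- Reindexing a matrix representation along an equivalence of index types. -/
def reindexRep {F : Type*} [Field F] {ι κ : Type*} [Fintype ι] [DecidableEq ι] [Fintype κ]
    [DecidableEq κ] (e : κ ≃ ι) (ρ : G →* Matrix ι ι F) : G →* Matrix κ κ F where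
  toFun g := (ρ g).submatrix e e
  map_one' := by rw [map_one, Matrix.submatrix_one_equiv]
  map_mul' g h := by rw [map_mul, Matrix.submatrix_mul_equiv]

lemma reindexRep_trace {F : Type*} [Field F] {ι κ : Type*} [Fintype ι] [DecidableEq ι]
    [Fintype κ] [DecidableEq κ] (e : κ ≃ ι) (ρ : G →* Matrix ι ι F) (g : G) :
    (reindexRep e ρ g).trace = (ρ g).trace := by
  show ((ρ g).submatrix e e).trace = (ρ g).trace
  simp only [Matrix.trace, Matrix.diag_apply, Matrix.submatrix_apply]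
  exact Fintype.sum_equiv e _ _ (fun _ => rfl)

lemma reindexRep_det {F : Type*} [Field F] {ι κ : Type*} [Fintype ι] [DecidableEq ι]
    [Fintype κ] [DecidableEq κ] (e : κ ≃ ι) (ρ : G →* Matrix ι ι F) (g : G) :
    (reindexRep e ρ g).det = (ρ g).det :=
  Matrix.det_submatrix_equiv_self e (ρ g)

/-- The character of a one-dimensional Wedderburn component, as a monoid homomorphism. -/
noncomputable def WeddData.linChar (D : WeddData G) (i : Fin D.s) (hi : D.d i = 1) : G →* Zbar where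
  toFun g := D.chiS i g
  map_one' := by
    apply Subtype.ext
    show chr (D.R i) 1 = 1
    rw [chr_one, Fintype.card_fin, hi, Nat.cast_one]
  map_mul' g h := by
    apply Subtype.ext
    show chr (D.R i) (g * h) = chr (D.R i) g * chr (D.R i) h
    unfold chr
    rw [map_mul]
    have hcard : Fintype.card (Fin (D.d i)) = 1 := by rw [Fintype.card_fin, hi]
    obtain ⟨a, ha⟩ := Fintype.card_eq_one_iff.mp hcard
    have hs : ∀ f : Fin (D.d i) → ℂ, ∑ x, f x = f a := by
      intro f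
      rw [Finset.sum_eq_single a (fun b _ hb => absurd (ha b) hb)
        (fun h => absurd (Finset.mem_univ a) h)]
    simp only [Matrix.trace, Matrix.diag_apply, Matrix.mul_apply, hs]

lemma schurProp_fin_one {k : Type} [Field k] (ρ : G →* Matrix (Fin 1) (Fin 1) k) :
    SchurProp ρ := by
  intro A _
  refine ⟨A 0 0, ?_⟩
  ext i j
  have hi : i = 0 := Subsingleton.elim _ _
  have hj : j = 0 := Subsingleton.elim _ _
  subst hi; subst hj
  simp

/-- The one-dimensional matrix representation attached to a character. -/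
def charRep {k : Type} [Field k] (ψ : G →* k) : G →* Matrix (Fin 1) (Fin 1) k :=
  (Matrix.scalar (Fin 1)).toMonoidHom.comp ψ

lemma chr_charRep {k : Type} [Field k] (ψ : G →* k) (g : G) : chr (charRep ψ) g = ψ g := by
  unfold chr charRep
  simp [Matrix.trace_fin_one]

end assemble

/-- **S48 leaf F.** -/
theorem stmt_Lift : Fermat.Agent.S48.Stmt_Lift := by
  classical
  intro ℓ k _ _ _ φ G _ _ r hℓ hℓ2 hcard
  haveI : Fintype G := Fintype.ofFinite G
  obtain ⟨D⟩ := exists_weddData G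
  have hn : (Fintype.card G : k) ≠ 0 := by
    rw [← Nat.card_eq_fintype_card]
    intro h0
    exact hcard ((CharP.cast_eq_zero_iff k ℓ _).mp h0)
  have h2 : (2 : k) ≠ 0 := by
    intro h0
    have h0' : ((2 : ℕ) : k) = 0 := by exact_mod_cast h0
    have hdvd := (CharP.cast_eq_zero_iff k ℓ 2).mp h0'
    exact hℓ2 ((Nat.prime_dvd_prime_iff_eq hℓ Nat.prime_two).mp hdvd)
  set rm : G →* Matrix (Fin 2) (Fin 2) k := (Units.coeHom _).comp r with hrm
  have hrm_apply : ∀ g, rm g = ((r g : GL (Fin 2) k) : Matrix (Fin 2) (Fin 2) k) := fun g => rfl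
  by_cases hline : HasLine rm
  · -- reducible case
    obtain ⟨ψ₁, ψ₂, hψ⟩ := exists_chars_of_hasLine rm hline
    have hone : (Fintype.card (Fin 1) : k) ≠ 0 := by simp
    obtain ⟨i₁, hd₁, hχ₁⟩ := lift_core φ (charRep ψ₁) D (schurProp_fin_one _) hone hn
    obtain ⟨i₂, hd₂, hχ₂⟩ := lift_core φ (charRep ψ₂) D (schurProp_fin_one _) hone hn
    rw [Fintype.card_fin] at hd₁ hd₂
    let χ₁ : G →* ℂ := (iotaS : Zbar →* ℂ).comp (D.linChar i₁ hd₁)
    let χ₂ : G →* ℂ := (iotaS : Zbar →* ℂ).comp (D.linChar i₂ hd₂)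
    let Rm : G →* Matrix (Fin 2) (Fin 2) ℂ :=
      { toFun := fun g => Matrix.diagonal ![χ₁ g, χ₂ g]
        map_one' := by
          rw [map_one, map_one]
          ext i j
          fin_cases i <;> fin_cases j <;> simp
        map_mul' := by
          intro g h
          rw [Matrix.diagonal_mul_diagonal, map_mul, map_mul]
          congr 1
          ext i
          fin_cases i <;> simp }
    refine ⟨Rm.toHomUnits, fun g => ?_⟩
    refine ⟨D.chiS i₁ g + D.chiS i₂ g, D.chiS i₁ g * D.chiS i₂ g, ?_, ?_, ?_, ?_⟩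
    · rw [MonoidHom.coe_toHomUnits]
      show _ = (Matrix.diagonal ![χ₁ g, χ₂ g]).trace
      rw [Matrix.trace_diagonal, Fin.sum_univ_two]
      rfl
    · rw [MonoidHom.coe_toHomUnits]
      show _ = (Matrix.diagonal ![χ₁ g, χ₂ g]).det
      rw [Matrix.det_diagonal, Fin.prod_univ_two]
      rfl
    · rw [map_add, hχ₁, hχ₂, chr_charRep, chr_charRep, ← hrm_apply, (hψ g).1]
    · rw [map_mul, hχ₁, hχ₂, chr_charRep, chr_charRep, ← hrm_apply, (hψ g).2]
  · -- irreducible case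
    have hS := schurProp_of_not_hasLine rm hline
    have htwo : (Fintype.card (Fin 2) : k) ≠ 0 := by
      rw [Fintype.card_fin]; exact_mod_cast h2
    obtain ⟨i, hd, hχ⟩ := lift_core φ rm D hS htwo hn
    rw [Fintype.card_fin] at hd
    let R2 : G →* Matrix (Fin 2) (Fin 2) ℂ := reindexRep (finCongr hd.symm) (D.R i)
    have htr : ∀ g, (R2 g).trace = chr (D.R i) g := fun g => reindexRep_trace _ _ g
    have hdetint : ∀ g, IsIntegral ℤ (R2 g).det := fun g =>
      isIntegral_det_of_pow_eq_one (R2 g) (Fintype.card G) Fintype.card_pos (rho_pow_card R2 g)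
    refine ⟨R2.toHomUnits, fun g => ?_⟩
    refine ⟨D.chiS i g, ⟨(R2 g).det, hdetint g⟩, ?_, ?_, ?_, ?_⟩
    · rw [MonoidHom.coe_toHomUnits, htr]; rfl
    · rw [MonoidHom.coe_toHomUnits]
    · rw [hχ, ← hrm_apply]; rfl
    · -- determinant
      have hS2 : (2 : Zbar) * (⟨(R2 g).det, hdetint g⟩ : Zbar) =
          D.chiS i g ^ 2 - D.chiS i (g * g) := by
        apply Subtype.ext
        have := two_mul_det_fin_two (R2 g)
        rw [← map_mul, htr, htr] at this
        push_cast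
        rw [D.coe_chiS, D.coe_chiS]
        exact this
      have hk := congrArg φ hS2
      rw [map_mul, map_sub, map_pow, hχ, hχ, map_ofNat] at hk
      have hk2 := two_mul_det_fin_two (rm g)
      rw [← map_mul] at hk2
      have : (2 : k) * φ ⟨(R2 g).det, hdetint g⟩ = 2 * (rm g).det := by
        rw [hk, hk2]; rfl
      rw [← hrm_apply]
      exact mul_left_cancel₀ h2 this

end Fermat.Agent.S48.H78

end
-- ==== END Fermat.Agent.S48.H78_Lift

-- ==== BEGIN Fermat.Agent.S48.Int.H55_Int12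
section

/-!
# S48, leaf A: claims (i), (ii) from the sub-leaves (helper55)
-/

set_option autoImplicit false

open CongruenceSubgroup UpperHalfPlane ModularForm
open scoped MatrixGroups ModularForm Manifold

namespace Fermat.Agent.S48.Int.H55

open Fermat.Agent.S23.H22 (Nice nice_of_modularForm)

/-- Cusp forms on `Γ₁(N)` are nice. -/
theorem nice_G1 {N : ℕ} {k : ℤ} (f : CuspForm (Gamma1 N) k) : Nice 1 (f : ℍ → ℂ) :=
  nice_of_modularForm f one_pos (by simp)

/-- Slash by `-1` in weight one. -/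
theorem slash_neg_one_weight_one (g : ℍ → ℂ) : g ∣[(1 : ℤ)] (-1 : SL(2, ℤ)) = -g := by
  ext z
  rw [SL_slash_apply]
  have h1 : (-1 : SL(2, ℤ)) • z = z := by
    have := ModularGroup.SL_neg_smul (1 : SL(2, ℤ)) z
    rw [this, one_smul]
  rw [h1, ModularGroup.denom_apply]
  simp

/-- A function of weight one with an even character vanishes. -/
theorem eq_zero_of_hasNeb_of_ne {N : ℕ} {χ : DirichletCharacter ℂ N} {g : ℍ → ℂ}
    (hg : HasNeb N χ 1 g) (hχ : χ (-1) ≠ -1) : g = 0 := by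
  have hmem : (-1 : SL(2, ℤ)) ∈ Gamma0 N := by
    rw [Gamma0_mem]
    simp
  have h := hg (-1) hmem
  rw [slash_neg_one_weight_one] at h
  have hval : (((-1 : SL(2, ℤ)) 1 1 : ℤ) : ZMod N) = -1 := by simp
  rw [hval] at h
  ext z
  have hz := congrFun h z
  simp only [Pi.neg_apply, Pi.smul_apply, smul_eq_mul, Pi.zero_apply] at hz ⊢
  have h3 : (χ (-1) + 1) * g z = 0 := by
    rw [add_mul, one_mul, ← hz]; ring
  rcases mul_eq_zero.1 h3 with h4 | h4
  · exact absurd (eq_neg_of_add_eq_zero_left h4) hχ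
  · exact h4

end Fermat.Agent.S48.Int.H55

namespace Fermat.Agent.S48.Int.H55

open Fermat.Agent.S23.H22 (Nice nice_of_modularForm)

/-- `Λ * charRing N` is stable under multiplication by character values. -/
theorem charVal_mul_mem {N : ℕ} (M : Submodule ℤ ℂ) (χ : DirichletCharacter ℂ N) (a : ZMod N)
    (x : ℂ) (hx : x ∈ M * (charRing N).toSubmodule) :
    χ a * x ∈ M * (charRing N).toSubmodule := by
  have h1 : x * χ a ∈ (M * (charRing N).toSubmodule) * (charRing N).toSubmodule :=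
    Submodule.mul_mem_mul hx (charVal_mem χ a)
  rw [mul_assoc, (Subalgebra.isIdempotentElem_toSubmodule (charRing N)).eq] at h1
  rw [mul_comm (χ a) x]
  exact h1

/-- The coefficients of a nebentypus component lie in a finitely generated subgroup. -/
theorem exists_fg_coeff_neb (hEis : Stmt_Eis) (hProd : Stmt_Prod) (hFG : Stmt_CoeffFG)
    (N : ℕ) [NeZero N] (χ : DirichletCharacter ℂ N) (g : CuspForm (Gamma1 N) 1)
    (hg : HasNeb N χ 1 g) :
    ∃ Λ : Submodule ℤ ℂ, Λ.FG ∧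
      ∀ n, (qExpansion 1 g).coeff n ∈ Λ * (charRing N).toSubmodule := by
  by_cases hχ : χ (-1) = -1
  · -- odd character: `3 ≤ N`
    have hN : 3 ≤ N := by
      by_contra hlt
      have hN0 : N ≠ 0 := NeZero.ne N
      have h12 : N = 1 ∨ N = 2 := by omega
      have hneg : (-1 : ZMod N) = 1 := by
        rcases h12 with rfl | rfl
        · exact Subsingleton.elim _ _
        · decide
      rw [hneg, map_one] at hχ
      norm_num at hχ
    have hψ : χ⁻¹ (-1) = -1 := by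
      have hu : IsUnit (-1 : ZMod N) := isUnit_one.neg
      rw [MulChar.inv_apply_eq_inv' , hχ]
      norm_num
    obtain ⟨E, hEd, hEb, hEn, hEq⟩ := hEis N hN χ⁻¹ hψ
    obtain ⟨G, _, hGq⟩ := hProd N χ 1 3 g E hg hEd hEb hEn
    obtain ⟨Λ, hΛ, hΛc⟩ := hFG N G
    refine ⟨Λ, hΛ, fun n => ?_⟩
    refine coeff_mem_of_mul_eisSeries N χ⁻¹ (qExpansion 1 g) Λ (fun m => ?_) n
    rw [← hEq, ← hGq]
    exact hΛc m
  · have h0 : (g : ℍ → ℂ) = 0 := eq_zero_of_hasNeb_of_ne hg hχ
    refine ⟨⊥, Submodule.fg_bot, fun n => ?_⟩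
    have hq : qExpansion 1 (g : ℍ → ℂ) = 0 := by
      have h1 := Nice.qExpansion_smul (h := 1) one_pos (nice_G1 g) (0 : ℂ)
      rw [h0] at h1 ⊢
      simpa using h1
    rw [hq]
    simp

/-- The coefficients of a cusp form on `Γ₁(N)` lie in a finitely generated subgroup of `ℂ` which is
stable under multiplication by character values. -/
theorem exists_fg_coeff (hDec : Stmt_Decomp) (hEis : Stmt_Eis) (hProd : Stmt_Prod)
    (hFG : Stmt_CoeffFG) (N : ℕ) [NeZero N] (f : CuspForm (Gamma1 N) 1) :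
    ∃ Λ : Submodule ℤ ℂ, Λ.FG ∧ (∀ n, (qExpansion 1 f).coeff n ∈ Λ) ∧
      ∀ (χ : DirichletCharacter ℂ N) (a : ZMod N), ∀ x ∈ Λ, χ a * x ∈ Λ := by
  classical
  obtain ⟨F, hF, hsum⟩ := hDec N f
  choose L hL hLc using fun χ => exists_fg_coeff_neb hEis hProd hFG N χ (F χ) (hF χ)
  refine ⟨(⨆ χ, L χ) * (charRing N).toSubmodule, ?_, ?_, ?_⟩
  · exact (Submodule.fg_iSup L hL).mul (charRing_fg N)
  · intro n
    have hfun : (f : ℍ → ℂ) = ∑ χ, (F χ : ℍ → ℂ) := by
      ext z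
      rw [hsum z, Finset.sum_apply]
    have hq : qExpansion 1 (f : ℍ → ℂ) = ∑ χ, qExpansion 1 (F χ : ℍ → ℂ) := by
      rw [hfun]
      exact Nice.qExpansion_sum one_pos Finset.univ fun χ _ => nice_G1 (F χ)
    rw [hq, map_sum]
    refine Submodule.sum_mem _ fun χ _ => ?_
    exact (mul_le_mul' (le_iSup L χ) le_rfl) (hLc χ n)
  · intro χ a x hx
    exact charVal_mul_mem _ χ a x hx

/-- **A-I12**: claims (i), (ii) of `Stmt_Int` from the sub-leaves. -/
theorem stmt_Int12_of (hDec : Stmt_Decomp) (hEis : Stmt_Eis) (hProd : Stmt_Prod)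
    (hFG : Stmt_CoeffFG) : Stmt_Int12 := by
  intro N _ ε f hf
  obtain ⟨Λ, hΛ, hc, hst⟩ := exists_fg_coeff hDec hEis hProd hFG N f
  set P : Set ℕ := {p | p.Prime ∧ ¬ p ∣ N} with hP
  have hrel : ∀ p ∈ P, ∀ n : ℕ,
      ModularFormClass.qCoeff f (p * n) + ε (p : ZMod N) *
          (if p ∣ n then ModularFormClass.qCoeff f (n / p) else 0) =
        ModularFormClass.qCoeff f p * ModularFormClass.qCoeff f n :=
    fun p hp n => hf.hecke p hp.1 hp.2 n
  have hset : {x : ℂ | ∃ p : ℕ, p.Prime ∧ ¬ p ∣ N ∧ x = ModularFormClass.qCoeff f p} =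
      {x : ℂ | ∃ p ∈ P, x = (fun n => ModularFormClass.qCoeff f n) p} := by
    ext x
    constructor
    · rintro ⟨p, h1, h2, h3⟩
      exact ⟨p, ⟨h1, h2⟩, h3⟩
    · rintro ⟨p, ⟨h1, h2⟩, h3⟩
      exact ⟨p, h1, h2, h3⟩
  refine ⟨fun p hp hpN => ?_, ?_⟩
  · exact isIntegral_of_rel Λ hΛ (fun n => ModularFormClass.qCoeff f n)
      (fun p => ε (p : ZMod N)) P hf.one hc (fun p _ x hx => hst ε _ x hx) hrel p ⟨hp, hpN⟩
  · rw [hset]
    exact finiteDimensional_of_rel Λ hΛ (fun n => ModularFormClass.qCoeff f n)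
      (fun p => ε (p : ZMod N)) P hf.one hc (fun p _ x hx => hst ε _ x hx) hrel

end Fermat.Agent.S48.Int.H55

end
-- ==== END Fermat.Agent.S48.Int.H55_Int12
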