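-- GENERATED (merged mirror, NOTES/tools/trim/merge3_helper67.py): 5 modules of the originals, bodies verbatim.
import Mathlib
import Mathlib.NumberTheory.LSeries.PrimesInAP
import Fermat.Agent.Zm.S48_L04_000
import Fermat.Agent.Zm.S48_L02_001
import Fermat.Agent.Zm.S48_L04_002
import Fermat.Agent.Zm.S48_L04_001
import Fermat.Agent.Zm.S48_L03_001
import Fermat.Agent.Zm.S48_L03_002

-- ==== BEGIN Fermat.Agent.S48.Asm.H43_Core
section

/-!
# S48 assembly, steps 6–7: `Stmt_Core` (helper43)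

`core_of : Stmt_Away → Stmt_ChebSet → Stmt_TraceTwo → Stmt_Core`.

Two representations attached to `(f, ε)` away from `ℓ ≠ ℓ'` have the same traces and determinants
at all Frobenius elements outside `N ℓ ℓ'`, hence everywhere (Chebotarev), hence the same kernel
(an element of finite order of `GL₂(ℂ)` with trace `2` is `1`); so the first one is unramified at
`ℓ` as well, with the right Frobenius there.
-/

set_option autoImplicit false
set_option linter.unusedSectionVars false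
set_option linter.style.haveILetI false

open CongruenceSubgroup
open scoped MatrixGroups

namespace Fermat.Agent.S48.Asm.H43

local notation "Γℚ" => (AlgebraicClosure ℚ ≃ₐ[ℚ] AlgebraicClosure ℚ)

/-- The product of two homomorphisms of finite level has finite level. -/
lemma finiteLevel_prod {M M' : Type} [Group M] [Group M'] (ρ : Γℚ →* M) (ρ' : Γℚ →* M')
    (h : GaloisFactorsThroughFiniteLevel ρ) (h' : GaloisFactorsThroughFiniteLevel ρ') :
    GaloisFactorsThroughFiniteLevel (ρ.prod ρ') := by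
  obtain ⟨L, hL, hρ⟩ := h
  obtain ⟨L', hL', hρ'⟩ := h'
  haveI := hL
  haveI := hL'
  refine ⟨L ⊔ L', IntermediateField.finiteDimensional_sup L L', fun σ hσ => ?_⟩
  have h1 : ρ σ = 1 := hρ σ (fun x hx => hσ x ((le_sup_left : L ≤ L ⊔ L') hx))
  have h2 : ρ' σ = 1 := hρ' σ (fun x hx => hσ x ((le_sup_right : L' ≤ L ⊔ L') hx))
  rw [MonoidHom.prod_apply, h1, h2]
  rfl

/-- Two representations attached away from `ℓ`, `ℓ'` agree, up to conjugation of values, on a
Frobenius element outside `N ℓ ℓ'`: every `τ` has the same image under both as some such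
Frobenius. -/
theorem exists_frob_same (hCS : Stmt_ChebSet) (ρ ρ' : Γℚ →* GL (Fin 2) ℂ)
    (hfl : GaloisFactorsThroughFiniteLevel ρ) (hfl' : GaloisFactorsThroughFiniteLevel ρ')
    (S : Finset ℕ) (τ : Γℚ) :
    ∃ (p : ℕ) (A : ValuationSubring (AlgebraicClosure ℚ)) (σ : Γℚ), p.Prime ∧ p ∉ S ∧
      A.LiesOverPrime p ∧ A.IsFrobeniusAt σ p ∧ ρ σ = ρ τ ∧ ρ' σ = ρ' τ := by
  set r₀ : Γℚ →* GL (Fin 2) ℂ × GL (Fin 2) ℂ := ρ.prod ρ' with hr₀
  have hfl₀ : GaloisFactorsThroughFiniteLevel r₀ := finiteLevel_prod ρ ρ' hfl hfl'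
  haveI : Finite r₀.range := Fermat.Agent.S48.H55.finite_range_of_finiteLevel r₀ hfl₀
  set r : Γℚ →* r₀.range := r₀.rangeRestrict with hr
  have hrs : Function.Surjective r := r₀.rangeRestrict_surjective
  have hrfl : GaloisFactorsThroughFiniteLevel r := by
    refine finiteLevel_of_imp r₀ r (fun σ hσ => ?_) hfl₀
    apply Subtype.ext
    exact hσ
  obtain ⟨p, hpS, hpr, A, σ, hA, hσ, hrσ⟩ := exists_frobPrime hCS r hrfl hrs S (r τ)
  have h1 : r₀ σ = r₀ τ := congrArg Subtype.val hrσ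
  rw [hr₀, MonoidHom.prod_apply, MonoidHom.prod_apply, Prod.mk.injEq] at h1
  exact ⟨p, A, σ, hpr, hpS, hA, hσ, h1.1, h1.2⟩

theorem core_of (hAway : Stmt_Away) (hCS : Stmt_ChebSet) (hT2 : Stmt_TraceTwo) : Stmt_Core := by
  intro N _ ε f hf
  obtain ⟨ℓ, hℓ, -, ρ, hfl, hρ⟩ := hAway N ε f hf 0
  obtain ⟨ℓ', hℓ', hℓ'ge, ρ', hfl', hρ'⟩ := hAway N ε f hf (ℓ + 1)
  have hne : ℓ ≠ ℓ' := by omega
  have hN0 : N * ℓ * ℓ' ≠ 0 :=
    Nat.mul_ne_zero (Nat.mul_ne_zero (NeZero.ne N) hℓ.ne_zero) hℓ'.ne_zero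
  -- traces and determinants agree everywhere
  have hsame : ∀ τ : Γℚ,
      ((ρ τ : GL (Fin 2) ℂ) : Matrix (Fin 2) (Fin 2) ℂ).trace =
        ((ρ' τ : GL (Fin 2) ℂ) : Matrix (Fin 2) (Fin 2) ℂ).trace ∧
      ((ρ τ : GL (Fin 2) ℂ) : Matrix (Fin 2) (Fin 2) ℂ).det =
        ((ρ' τ : GL (Fin 2) ℂ) : Matrix (Fin 2) (Fin 2) ℂ).det := by
    intro τ
    obtain ⟨p, A, σ, hp, hpS, hA, hσ, h1, h2⟩ :=
      exists_frob_same hCS ρ ρ' hfl hfl' (N * ℓ * ℓ').primeFactors τ
    have hpd : ¬ p ∣ N * ℓ * ℓ' := fun hd => hpS (Nat.mem_primeFactors.mpr ⟨hp, hd, hN0⟩)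
    have hp1 : ¬ p ∣ N * ℓ := fun h => hpd (Dvd.dvd.mul_right h ℓ')
    have hp2 : ¬ p ∣ N * ℓ' := by
      intro h
      apply hpd
      have : N * ℓ * ℓ' = N * ℓ' * ℓ := by ring
      rw [this]
      exact Dvd.dvd.mul_right h ℓ
    obtain ⟨ht, hd⟩ := (hρ p hp hp1 A hA).2 σ hσ
    obtain ⟨ht', hd'⟩ := (hρ' p hp hp2 A hA).2 σ hσ
    rw [← h1, ← h2, ht, ht', hd, hd']
    exact ⟨rfl, rfl⟩
  -- the kernels agree
  have hker : ∀ τ : Γℚ, ρ' τ = 1 → ρ τ = 1 := by
    intro τ hτ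
    obtain ⟨n, hn, hpow⟩ := Fermat.Agent.S48.H55.exists_pow_eq_one_of_finiteLevel ρ hfl τ
    refine hT2 (ρ τ) n hn hpow ?_
    rw [(hsame τ).1, hτ]
    simp
  refine ⟨ρ, hfl, fun p hp hpN A hA => ?_⟩
  by_cases hpℓ : p = ℓ
  · have hp2 : ¬ p ∣ N * ℓ' := by
      intro hd
      rcases (Nat.Prime.dvd_mul hp).mp hd with h | h
      · exact hpN h
      · exact hne (hpℓ ▸ (Nat.prime_dvd_prime_iff_eq hp hℓ').mp h)
    obtain ⟨hin, hfr⟩ := hρ' p hp hp2 A hA
    refine ⟨fun σ hσ => hker σ (hin σ hσ), fun σ hσ => ?_⟩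
    obtain ⟨ht', hd'⟩ := hfr σ hσ
    exact ⟨(hsame σ).1.trans ht', (hsame σ).2.trans hd'⟩
  · have hp1 : ¬ p ∣ N * ℓ := by
      intro hd
      rcases (Nat.Prime.dvd_mul hp).mp hd with h | h
      · exact hpN h
      · exact hpℓ ((Nat.prime_dvd_prime_iff_eq hp hℓ).mp h)
    exact hρ p hp hp1 A hA

end Fermat.Agent.S48.Asm.H43

end
-- ==== END Fermat.Agent.S48.Asm.H43_Core

-- ==== BEGIN Fermat.Agent.S48.Asm.H78_SS2
section

/-!
# S48 assembly leaf G-SS2: semisimplification in dimension two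

If `ρ` has a stable line, `ρ' := diag(ψ₁, ψ₂)` for the two characters of
`H78.exists_chars_of_hasLine` (the range of `ρ'` is a diagonal group, so it is semisimple);
otherwise `ρ' := ρ` (no stable line at all).
-/

set_option autoImplicit false
set_option linter.style.haveILetI false

open Matrix

namespace Fermat.Agent.S48.Asm.H78

open Fermat.Agent.S48 Fermat.Agent.S48.H78

/-- A group of diagonal matrices is semisimple. -/
theorem isSemisimple2_of_diagonal {k : Type} [Field k] (G : Subgroup (GL (Fin 2) k))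
    (hG : ∀ g ∈ G, ∃ a b : k, ((g : GL (Fin 2) k) : Matrix (Fin 2) (Fin 2) k) =
      Matrix.diagonal ![a, b]) : IsSemisimple2 G := by
  intro v hv hstab
  have hmul : ∀ (a b : k) (u : Fin 2 → k), (Matrix.diagonal ![a, b]) *ᵥ u = ![a * u 0, b * u 1] := by
    intro a b u
    ext i
    fin_cases i <;> simp [Matrix.mulVec_diagonal]
  have hind : ∀ w : Fin 2 → k, v 0 * w 1 - v 1 * w 0 ≠ 0 → LinearIndependent k ![v, w] := by
    intro w hdet
    rw [LinearIndependent.pair_iff]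
    intro s t hst
    have h0 := congrFun hst 0
    have h1 := congrFun hst 1
    simp only [Pi.add_apply, Pi.smul_apply, smul_eq_mul, Pi.zero_apply] at h0 h1
    have hs : s * (v 0 * w 1 - v 1 * w 0) = 0 := by linear_combination w 1 * h0 - w 0 * h1
    have ht : t * (v 0 * w 1 - v 1 * w 0) = 0 := by linear_combination v 0 * h1 - v 1 * h0
    exact ⟨(mul_eq_zero.mp hs).resolve_right hdet, (mul_eq_zero.mp ht).resolve_right hdet⟩
  by_cases hv1 : v 1 = 0
  · -- `v` is on the first axis: complement = second axis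
    have hv0 : v 0 ≠ 0 := by
      intro h0
      apply hv
      ext i
      fin_cases i
      · exact h0
      · exact hv1
    refine ⟨![0, 1], hind _ (by simp [hv0]), fun g hg => ?_⟩
    obtain ⟨a, b, hab⟩ := hG g hg
    refine ⟨b, ?_⟩
    rw [hab, hmul]
    ext i
    fin_cases i <;> simp
  · by_cases hv0 : v 0 = 0
    · -- `v` is on the second axis: complement = first axis
      refine ⟨![1, 0], hind _ (by simp [hv1]), fun g hg => ?_⟩
      obtain ⟨a, b, hab⟩ := hG g hg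
      refine ⟨a, ?_⟩
      rw [hab, hmul]
      ext i
      fin_cases i <;> simp
    · -- `v` is off the axes: all elements are scalar
      refine ⟨![1, 0], hind _ (by simp [hv1]), fun g hg => ?_⟩
      obtain ⟨a, b, hab⟩ := hG g hg
      refine ⟨a, ?_⟩
      rw [hab, hmul]
      ext i
      fin_cases i <;> simp

/-- **G-SS2.** -/
theorem stmt_SS2 : Stmt_SS2 := by
  classical
  intro k _ Γ _ ρ
  set rm : Γ →* Matrix (Fin 2) (Fin 2) k := (Units.coeHom _).comp ρ with hrm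
  have hrm_apply : ∀ σ, rm σ = ((ρ σ : GL (Fin 2) k) : Matrix (Fin 2) (Fin 2) k) := fun σ => rfl
  by_cases hline : HasLine rm
  · obtain ⟨ψ₁, ψ₂, hψ⟩ := exists_chars_of_hasLine rm hline
    let Dm : Γ →* Matrix (Fin 2) (Fin 2) k :=
      { toFun := fun σ => Matrix.diagonal ![ψ₁ σ, ψ₂ σ]
        map_one' := by
          rw [map_one, map_one]
          ext i j
          fin_cases i <;> fin_cases j <;> simp
        map_mul' := by
          intro g h
          rw [Matrix.diagonal_mul_diagonal, map_mul, map_mul]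
          congr 1
          ext i
          fin_cases i <;> simp }
    have hD : ∀ σ, ((Dm.toHomUnits σ : GL (Fin 2) k) : Matrix (Fin 2) (Fin 2) k) =
        Matrix.diagonal ![ψ₁ σ, ψ₂ σ] := fun σ => rfl
    refine ⟨Dm.toHomUnits, ?_, ?_, ?_⟩
    · apply isSemisimple2_of_diagonal
      rintro g ⟨σ, rfl⟩
      exact ⟨ψ₁ σ, ψ₂ σ, hD σ⟩
    · intro σ hσ
      have h1 : rm σ = 1 := by rw [hrm_apply, hσ]; rfl
      have htr : ψ₁ σ + ψ₂ σ = 2 := by
        rw [← (hψ σ).1, h1, Matrix.trace_one]; simp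
      have hdet : ψ₁ σ * ψ₂ σ = 1 := by
        rw [← (hψ σ).2, h1, Matrix.det_one]
      have hsq : (ψ₁ σ - 1) * (ψ₁ σ - 1) = 0 := by
        linear_combination (ψ₁ σ) * htr - hdet
      have e1 : ψ₁ σ = 1 := sub_eq_zero.mp (mul_self_eq_zero.mp hsq)
      have e2 : ψ₂ σ = 1 := by rw [e1, one_mul] at hdet; exact hdet
      apply Units.ext
      rw [hD, e1, e2]
      ext i j
      fin_cases i <;> fin_cases j <;> simp
    · intro σ
      rw [hD, Matrix.trace_diagonal, Matrix.det_diagonal, Fin.sum_univ_two, Fin.prod_univ_two,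
        ← hrm_apply, (hψ σ).1, (hψ σ).2]
      exact ⟨rfl, rfl⟩
  · refine ⟨ρ, ?_, fun σ h => h, fun σ => ⟨rfl, rfl⟩⟩
    intro v hv hstab
    exfalso
    apply hline
    refine ⟨v, hv, fun σ => ?_⟩
    exact hstab (ρ σ) ⟨σ, rfl⟩

end Fermat.Agent.S48.Asm.H78

end
-- ==== END Fermat.Agent.S48.Asm.H78_SS2

-- ==== BEGIN Fermat.Agent.S48.B1.H22_Eis1Ana
section

/-!
# S48 B1 (a): weight one Eisenstein series, part 5 — holomorphy and cusps of `Φ_u` (helper22)
-/

set_option autoImplicit false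

open UpperHalfPlane hiding I
open Complex Filter Topology EisensteinSeries Matrix ModularForm
open scoped Real MatrixGroups Manifold

noncomputable section

namespace Fermat.Agent.S48.B1.H22

theorem nome_ne_one' {w : ℂ} (hw : w.im ≠ 0) : nome w ≠ 1 := by
  intro h
  have h1 := norm_nome w
  rw [h, norm_one] at h1
  have h2 : -2 * π * w.im = 0 := by
    have := congrArg Real.log h1
    rwa [Real.log_one, Real.log_exp, eq_comm] at this
  have hpi := Real.pi_pos
  rcases mul_eq_zero.1 h2 with h3 | h3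
  · linarith
  · exact hw h3

theorem differentiableAt_cotP {w : ℂ} (hw : w.im ≠ 0) : DifferentiableAt ℂ cotP w := by
  have e : cotP = fun w : ℂ =>
      π * ((cexp (2 * π * I * w) + 1) / (I * (1 - cexp (2 * π * I * w)))) :=
    funext cotP_eq_exp_ratio
  rw [e]
  have h1 : (1 : ℂ) - cexp (2 * π * I * w) ≠ 0 := sub_ne_zero.2 (nome_ne_one' hw).symm
  refine DifferentiableAt.const_mul (DifferentiableAt.div ?_ ?_ ?_) _
  · fun_prop
  · fun_prop
  · exact mul_ne_zero I_ne_zero h1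

/-! ### The complex-variable form -/

/-- The division point as a function of a complex variable. -/
def zC (N : ℕ) (u : Fin 2 → ℤ) (w : ℂ) : ℂ := ((u 0 : ℂ) * w + (u 1 : ℂ)) / N

/-- The `m`-th term as a function of a complex variable. -/
def termC (N : ℕ) (u : Fin 2 → ℤ) (m : ℕ) (w : ℂ) : ℂ :=
  cotP (zC N u w + (m : ℂ) * w) + cotP (zC N u w - (m : ℂ) * w)

/-- `Φ_u` as a function of a complex variable. -/
def PhiC (N : ℕ) (u : Fin 2 → ℤ) (w : ℂ) : ℂ :=
  cotP (zC N u w) + ∑' m : ℕ, termC N u (m + 1) w + 2 * π * I * (u 0 : ℂ) / N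

theorem zOf_eq_zC (N : ℕ) (u : Fin 2 → ℤ) (τ : ℍ) : zOf N u τ = zC N u (τ : ℂ) := rfl

theorem zcTerm_eq_termC (N : ℕ) (u : Fin 2 → ℤ) (τ : ℍ) (m : ℕ) :
    zcTerm (zOf N u τ) τ m = termC N u m (τ : ℂ) := rfl

theorem Phi_eq_PhiC (N : ℕ) (u : Fin 2 → ℤ) (τ : ℍ) : Phi N u τ = PhiC N u (τ : ℂ) := rfl

theorem zC_im (N : ℕ) (u : Fin 2 → ℤ) (w : ℂ) : (zC N u w).im = (u 0 : ℝ) * w.im / N := by
  rw [zC, Complex.div_natCast_im]
  simp

/-! ### Bounds in the box `0 ≤ u₀ < N` -/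

theorem geom_bound {ρ : ℝ} (h0 : 0 < ρ) (h1 : ρ < 1) (m : ℕ) :
    ρ ^ (m + 1) / (1 - ρ ^ (m + 1)) ≤ ρ ^ (m + 1) / (1 - ρ) := by
  have hp : ρ ^ (m + 1) ≤ ρ := by
    calc ρ ^ (m + 1) = ρ ^ m * ρ := pow_succ ρ m
      _ ≤ 1 * ρ := by
        apply mul_le_mul_of_nonneg_right _ h0.le
        exact pow_le_one₀ h0.le h1.le
      _ = ρ := one_mul ρ
  apply div_le_div_of_nonneg_left (by positivity) (by linarith) (by linarith)

theorem norm_termC_box_le {N : ℕ} (hN : 0 < N) {u : Fin 2 → ℤ} (h0 : 0 ≤ u 0) (h1 : u 0 < N)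
    {y0 : ℝ} (hy0 : 0 < y0) {w : ℂ} (hw : y0 ≤ w.im) (m : ℕ) :
    ‖termC N u (m + 1) w‖
      ≤ 4 * π / (1 - Real.exp (-2 * π * y0 / N)) * Real.exp (-2 * π * y0 / N) ^ (m + 1) := by
  have hwpos : 0 < w.im := lt_of_lt_of_le hy0 hw
  set τ : ℍ := ⟨w, hwpos⟩ with hτ
  have hNr : (0 : ℝ) < N := by exact_mod_cast hN
  have hu0 : (0 : ℝ) ≤ (u 0 : ℝ) := by exact_mod_cast h0
  have hu1 : (u 0 : ℝ) ≤ (N : ℝ) - 1 := by
    have : u 0 + 1 ≤ (N : ℤ) := h1
    have h2 : ((u 0 + 1 : ℤ) : ℝ) ≤ ((N : ℤ) : ℝ) := by exact_mod_cast this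
    push_cast at h2
    linarith
  set t : ℝ := ((m : ℝ) + 1) * y0 / N with ht
  have ht0 : 0 < t := by positivity
  have hz : (zC N u w).im = (u 0 : ℝ) * w.im / N := zC_im N u w
  have hzn : 0 ≤ (zC N u w).im := by
    rw [hz]
    positivity
  have hmw : (((m + 1 : ℕ) : ℂ) * w).im = ((m : ℝ) + 1) * w.im := by
    simp
  have hN1 : (1 : ℝ) ≤ N := by exact_mod_cast hN
  have hty : t ≤ ((m : ℝ) + 1) * w.im / N := by
    rw [ht]
    apply div_le_div_of_nonneg_right _ hNr.le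
    apply mul_le_mul_of_nonneg_left hw (by positivity)
  have hle : ((m : ℝ) + 1) * w.im / N ≤ ((m : ℝ) + 1) * w.im := by
    apply div_le_self (by positivity) hN1
  have him1 : t ≤ (zC N u w + ((m + 1 : ℕ) : ℂ) * w).im := by
    rw [add_im, hmw]
    linarith
  have him2 : t ≤ (((m + 1 : ℕ) : ℂ) * w - zC N u w).im := by
    rw [sub_im, hmw, hz]
    have e1 : ((m : ℝ) + 1) * w.im - (u 0 : ℝ) * w.im / N
        = (((m : ℝ) + 1) * N - (u 0 : ℝ)) * w.im / N := by
      field_simp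
    rw [e1]
    refine hty.trans ?_
    apply div_le_div_of_nonneg_right _ hNr.le
    apply mul_le_mul_of_nonneg_right _ hwpos.le
    have : (0 : ℝ) ≤ m := Nat.cast_nonneg m
    nlinarith
  have key := norm_zcTerm_le (zC N u w) τ (m + 1) ht0 him1 him2
  have e2 : zcTerm (zC N u w) τ (m + 1) = termC N u (m + 1) w := rfl
  rw [e2] at key
  refine key.trans ?_
  set ρ : ℝ := Real.exp (-2 * π * y0 / N) with hρ
  have hρ0 : 0 < ρ := Real.exp_pos _
  have hρ1 : ρ < 1 := by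
    rw [hρ, Real.exp_lt_one_iff]
    have hpi := Real.pi_pos
    have : 0 < 2 * π * y0 / N := by positivity
    have e3 : -2 * π * y0 / N = -(2 * π * y0 / N) := by ring
    rw [e3]
    linarith
  have hx : Real.exp (-2 * π * t) = ρ ^ (m + 1) := by
    rw [hρ, ← Real.exp_nat_mul]
    congr 1
    rw [ht]
    push_cast
    field_simp
  rw [hx]
  have := geom_bound hρ0 hρ1 m
  have hpi := Real.pi_pos
  calc 4 * π * (ρ ^ (m + 1) / (1 - ρ ^ (m + 1))) ≤ 4 * π * (ρ ^ (m + 1) / (1 - ρ)) := by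
        apply mul_le_mul_of_nonneg_left this (by positivity)
    _ = 4 * π / (1 - ρ) * ρ ^ (m + 1) := by ring

theorem summable_geom_bound {N : ℕ} (hN : 0 < N) {y0 : ℝ} (hy0 : 0 < y0) :
    Summable fun m : ℕ =>
      4 * π / (1 - Real.exp (-2 * π * y0 / N)) * Real.exp (-2 * π * y0 / N) ^ (m + 1) := by
  apply Summable.mul_left
  have hNr : (0 : ℝ) < N := by exact_mod_cast hN
  have h : Summable fun m : ℕ => Real.exp (-2 * π * y0 / N) ^ m := by
    apply summable_geometric_of_lt_one (Real.exp_pos _).le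
    rw [Real.exp_lt_one_iff]
    have hpi := Real.pi_pos
    have : 0 < 2 * π * y0 / N := by positivity
    have e3 : -2 * π * y0 / N = -(2 * π * y0 / N) := by ring
    rw [e3]
    linarith
  exact (summable_nat_add_iff 1).2 h

/-! ### Holomorphy -/

theorem differentiableAt_termC {N : ℕ} (hN : 0 < N) {u : Fin 2 → ℤ} (h0 : 0 ≤ u 0)
    (h1 : u 0 < N) (m : ℕ) {w : ℂ} (hw : 0 < w.im) :
    DifferentiableAt ℂ (termC N u (m + 1)) w := by
  have hNr : (0 : ℝ) < N := by exact_mod_cast hN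
  have hu0 : (0 : ℝ) ≤ (u 0 : ℝ) := by exact_mod_cast h0
  have hu1 : (u 0 : ℝ) < (N : ℝ) := by exact_mod_cast h1
  have hz : (zC N u w).im = (u 0 : ℝ) * w.im / N := zC_im N u w
  have hmw : (((m + 1 : ℕ) : ℂ) * w).im = ((m : ℝ) + 1) * w.im := by
    simp
  have hzC : DifferentiableAt ℂ (zC N u) w := by
    unfold zC
    fun_prop
  unfold termC
  apply DifferentiableAt.add
  · have him : (zC N u w + ((m + 1 : ℕ) : ℂ) * w).im ≠ 0 := by
      rw [add_im, hmw, hz]
      have : 0 ≤ (u 0 : ℝ) * w.im / N := by positivity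
      have : 0 < ((m : ℝ) + 1) * w.im := by positivity
      linarith
    have hd : DifferentiableAt ℂ (fun w : ℂ => zC N u w + ((m + 1 : ℕ) : ℂ) * w) w := by
      fun_prop
    exact DifferentiableAt.comp (g := cotP) (f := fun w : ℂ => zC N u w + ((m + 1 : ℕ) : ℂ) * w) w
      (differentiableAt_cotP him) hd
  · have him : (zC N u w - ((m + 1 : ℕ) : ℂ) * w).im ≠ 0 := by
      rw [sub_im, hmw, hz]
      have h2 : (u 0 : ℝ) * w.im / N < w.im := by
        rw [div_lt_iff₀ hNr]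
        nlinarith
      have : (0 : ℝ) ≤ m := Nat.cast_nonneg m
      nlinarith
    have hd : DifferentiableAt ℂ (fun w : ℂ => zC N u w - ((m + 1 : ℕ) : ℂ) * w) w := by
      fun_prop
    exact DifferentiableAt.comp (g := cotP) (f := fun w : ℂ => zC N u w - ((m + 1 : ℕ) : ℂ) * w) w
      (differentiableAt_cotP him) hd

theorem differentiableAt_cotP_zC {N : ℕ} (hN : 0 < N) {u : Fin 2 → ℤ} (h0 : 0 ≤ u 0)
    {w : ℂ} (hw : 0 < w.im) : DifferentiableAt ℂ (fun w : ℂ => cotP (zC N u w)) w := by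
  have hNr : (0 : ℝ) < N := by exact_mod_cast hN
  rcases eq_or_lt_of_le h0 with h | h
  · have e : (fun w : ℂ => cotP (zC N u w)) = fun _ : ℂ => cotP ((u 1 : ℂ) / N) := by
      funext w
      rw [zC, ← h]
      simp
    rw [e]
    exact differentiableAt_const _
  · have hu0 : (0 : ℝ) < (u 0 : ℝ) := by exact_mod_cast h
    have him : (zC N u w).im ≠ 0 := by
      rw [zC_im]
      have : 0 < (u 0 : ℝ) * w.im / N := by positivity
      exact this.ne'
    have hzC : DifferentiableAt ℂ (zC N u) w := by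
      unfold zC
      fun_prop
    exact DifferentiableAt.comp (g := cotP) (f := zC N u) w (differentiableAt_cotP him) hzC

theorem differentiableOn_PhiC {N : ℕ} (hN : 0 < N) {u : Fin 2 → ℤ} (h0 : 0 ≤ u 0)
    (h1 : u 0 < N) : DifferentiableOn ℂ (PhiC N u) {w : ℂ | 0 < w.im} := by
  intro w0 hw0
  have hw0' : 0 < w0.im := hw0
  set y0 : ℝ := w0.im / 2 with hy0
  have hy0pos : 0 < y0 := by positivity
  set V : Set ℂ := {w : ℂ | y0 < w.im} with hV
  have hVopen : IsOpen V := isOpen_lt continuous_const Complex.continuous_im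
  have hw0V : w0 ∈ V := by
    change y0 < w0.im
    rw [hy0]
    linarith
  have hsum : DifferentiableOn ℂ (fun w : ℂ => ∑' m : ℕ, termC N u (m + 1) w) V := by
    apply differentiableOn_tsum_of_summable_norm (summable_geom_bound hN hy0pos) _ hVopen
    · intro m w hw
      exact norm_termC_box_le hN h0 h1 hy0pos (le_of_lt hw) m
    · intro m w hw
      exact (differentiableAt_termC hN h0 h1 m (lt_trans hy0pos hw)).differentiableWithinAt
  have hd : DifferentiableAt ℂ (PhiC N u) w0 := by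
    unfold PhiC
    apply DifferentiableAt.add
    · apply DifferentiableAt.add
      · exact differentiableAt_cotP_zC hN h0 hw0'
      · exact (hsum w0 hw0V).differentiableAt (hVopen.mem_nhds hw0V)
    · exact differentiableAt_const _
  exact hd.differentiableWithinAt

theorem mdifferentiable_Phi_box {N : ℕ} (hN : 0 < N) {u : Fin 2 → ℤ} (h0 : 0 ≤ u 0)
    (h1 : u 0 < N) : MDifferentiable 𝓘(ℂ) 𝓘(ℂ) (Phi N u) := by
  rw [UpperHalfPlane.mdifferentiable_iff]
  refine (differentiableOn_PhiC hN h0 h1).congr fun w hw => ?_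
  rw [Function.comp_apply, ofComplex_apply_of_im_pos hw, Phi_eq_PhiC]

/-! ### Boundedness at `i∞` -/

theorem bounded_Phi_box {N : ℕ} (hN : 0 < N) {u : Fin 2 → ℤ} (h0 : 0 ≤ u 0) (h1 : u 0 < N) :
    ∃ M : ℝ, ∀ τ : ℍ, 1 ≤ τ.im → ‖Phi N u τ‖ ≤ M := by
  have hNr : (0 : ℝ) < N := by exact_mod_cast hN
  set ρ : ℝ := Real.exp (-2 * π * 1 / N) with hρ
  have hρ0 : 0 < ρ := Real.exp_pos _
  have hρ1 : ρ < 1 := by
    rw [hρ, Real.exp_lt_one_iff]
    have hpi := Real.pi_pos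
    have : 0 < 2 * π * 1 / N := by positivity
    have e3 : -2 * π * 1 / N = -(2 * π * 1 / N) := by ring
    rw [e3]
    linarith
  have hS := summable_geom_bound hN (y0 := 1) one_pos
  refine ⟨(‖cotP ((u 1 : ℂ) / N)‖ + (π + 2 * π * (ρ / (1 - ρ))))
    + (∑' m : ℕ, 4 * π / (1 - ρ) * ρ ^ (m + 1)) + ‖2 * π * I * (u 0 : ℂ) / N‖, ?_⟩
  intro τ hτ
  rw [Phi_eq_PhiC, PhiC]
  refine (norm_add_le _ _).trans (add_le_add_left ?_ _)
  refine (norm_add_le _ _).trans (add_le_add ?_ ?_)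
  · -- the term `m = 0`
    rcases eq_or_lt_of_le h0 with h | h
    · have e : zC N u (τ : ℂ) = (u 1 : ℂ) / N := by
        rw [zC, ← h]
        simp
      rw [e]
      have : 0 ≤ π + 2 * π * (ρ / (1 - ρ)) := by
        have hpi := Real.pi_pos
        have : 0 ≤ ρ / (1 - ρ) := div_nonneg hρ0.le (by linarith)
        positivity
      linarith
    · have hu0 : (1 : ℝ) ≤ (u 0 : ℝ) := by
        have : (1 : ℤ) ≤ u 0 := h
        exact_mod_cast this
      have him : 1 / (N : ℝ) ≤ (zC N u (τ : ℂ)).im := by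
        rw [zC_im]
        apply div_le_div_of_nonneg_right _ hNr.le
        have : (1 : ℝ) ≤ (τ : ℂ).im := hτ
        nlinarith
      have hb := norm_cotP_add_pi_I_le (t := 1 / (N : ℝ)) (by positivity) him
      have e4 : Real.exp (-2 * π * (1 / (N : ℝ))) = ρ := by
        rw [hρ]
        congr 1
        ring
      rw [e4] at hb
      have h5 : ‖cotP (zC N u (τ : ℂ))‖ ≤ ‖cotP (zC N u (τ : ℂ)) + π * I‖ + ‖(π : ℂ) * I‖ := by
        have := norm_sub_le (cotP (zC N u (τ : ℂ)) + π * I) ((π : ℂ) * I)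
        rwa [add_sub_cancel_right] at this
      have h6 : ‖(π : ℂ) * I‖ = π := by
        simp [abs_of_pos Real.pi_pos]
      have := norm_nonneg (cotP ((u 1 : ℂ) / N))
      linarith
  · -- the series
    refine tsum_of_norm_bounded hS.hasSum fun m => ?_
    have := norm_termC_box_le hN h0 h1 (y0 := 1) one_pos (w := (τ : ℂ)) hτ m
    simpa using this

/-! ### General `u` -/

theorem exists_box {N : ℕ} (hN : 0 < N) (u : Fin 2 → ℤ) :
    ∃ u' b : Fin 2 → ℤ, u = u' + (N : ℤ) • b ∧ 0 ≤ u' 0 ∧ u' 0 < N := by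
  have hN' : (N : ℤ) ≠ 0 := by exact_mod_cast hN.ne'
  refine ⟨![u 0 % N, u 1], ![u 0 / N, 0], ?_, ?_, ?_⟩
  · funext i
    fin_cases i
    · simp only [Fin.zero_eta, Fin.isValue, Pi.add_apply, Matrix.cons_val_zero, Pi.smul_apply,
        smul_eq_mul]
      exact (Int.emod_add_mul_ediv (u 0) N).symm
    · simp
  · simpa using Int.emod_nonneg (u 0) hN'
  · simpa using Int.emod_lt_of_pos (u 0) (by exact_mod_cast hN : (0 : ℤ) < N)

theorem Phi_eq_box {N : ℕ} (hN : 0 < N) {u : Fin 2 → ℤ} (hu : NZ N u) :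
    ∃ u' : Fin 2 → ℤ, 0 ≤ u' 0 ∧ u' 0 < N ∧ Phi N u = Phi N u' := by
  obtain ⟨u', b, hub, h0, h1⟩ := exists_box hN u
  refine ⟨u', h0, h1, ?_⟩
  have hu' : NZ N u' := by
    have := hu.add_smul (-b)
    have e : u + (N : ℤ) • (-b) = u' := by
      rw [hub]
      simp
    rwa [e] at this
  funext τ
  rw [hub, Phi_add_smul hN.ne' hu']

theorem mdifferentiable_Phi {N : ℕ} (hN : 0 < N) {u : Fin 2 → ℤ} (hu : NZ N u) :
    MDifferentiable 𝓘(ℂ) 𝓘(ℂ) (Phi N u) := by
  obtain ⟨u', h0, h1, e⟩ := Phi_eq_box hN hu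
  rw [e]
  exact mdifferentiable_Phi_box hN h0 h1

theorem isBoundedAtImInfty_Phi {N : ℕ} (hN : 0 < N) {u : Fin 2 → ℤ} (hu : NZ N u) :
    IsBoundedAtImInfty (Phi N u) := by
  obtain ⟨u', h0, h1, e⟩ := Phi_eq_box hN hu
  rw [e, UpperHalfPlane.isBoundedAtImInfty_iff]
  obtain ⟨M, hM⟩ := bounded_Phi_box hN h0 h1
  exact ⟨M, 1, hM⟩

end Fermat.Agent.S48.B1.H22

end
end
-- ==== END Fermat.Agent.S48.B1.H22_Eis1Ana

-- ==== BEGIN Fermat.Agent.S48.B1.H31_NebOfRel
section

/-!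
# S48, B1, leaf NebOfRel (helper31): the Hecke relations force the nebentypus

`stmt_NebOfRel_of : Stmt_HeckeNeb → Stmt_FinDimNeb → Stmt_NebOfRel`.

Let `g = ∑_ψ g_ψ` (`Int.H31.neb`).  For `ψ ≠ χ` choose a prime `p ∤ M` with `ψ(p) ≠ χ(p)`
(Dirichlet).  The functions
`F_ψ' = T_p g_ψ' - b_p g_ψ' + (χ(p) - ψ'(p)) g_ψ' ∣ diag(p, 1)` transform under `Γ₀(M p)` with the
character `ψ'` and their sum has `q`-expansion `0` by the relations, so every `F_ψ'` vanishes
(`eq_zero_of_sum_eq_zero`).  Hence `g_ψ ∣ diag(p, 1) ∈ S_k(M, ψ)` and `g_ψ = 0` by `seq_noOld`.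
-/

set_option autoImplicit false

open CongruenceSubgroup UpperHalfPlane ModularForm
open scoped MatrixGroups ModularForm Manifold

noncomputable section

namespace Fermat.Agent.S48.B1.H31

open Fermat.Agent.S48.Int (HasNeb)
open Fermat.Agent.S23.H22 (Nice)
open Fermat.Agent.S48.Int.H22 (nice_cusp1 one_mem_strictPeriods_Gamma1)
open Fermat.Agent.S48.Int.H31 (lr gam gam_mem lr_gam neb hasNeb_neb sum_neb cuspForm_sum_apply)

/-! ### Uniqueness of the decomposition -/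

theorem sum_slash_SL {ι : Type} (s : Finset ι) (k : ℤ) (F : ι → ℍ → ℂ) (γ : SL(2, ℤ)) :
    (∑ i ∈ s, F i) ∣[k] γ = ∑ i ∈ s, F i ∣[k] γ := by
  classical
  induction s using Finset.induction_on with
  | empty => simp
  | insert a s ha ih => rw [Finset.sum_insert ha, Finset.sum_insert ha, SlashAction.add_slash, ih]

/-- Every unit mod `M` is the lower right entry of an element of `Γ₀(M p)`. -/
theorem exists_gamma_unit {M p : ℕ} [NeZero M] (hp : p ≠ 0) (d : (ZMod M)ˣ) :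
    ∃ γ : SL(2, ℤ), γ ∈ Gamma0 (M * p) ∧ (((γ 1 1 : ℤ) : ZMod M)) = d := by
  haveI : NeZero (M * p) := ⟨mul_ne_zero (NeZero.ne M) hp⟩
  have hdvd : M ∣ M * p := Dvd.intro p rfl
  obtain ⟨d', hd'⟩ := ZMod.unitsMap_surjective hdvd d
  refine ⟨gam (M * p) d', gam_mem (M * p) d', ?_⟩
  have h1 : lr (M * p) (gam (M * p) d') = (d' : ZMod (M * p)) := lr_gam (M * p) d'
  have h2 : (ZMod.castHom hdvd (ZMod M)) (lr (M * p) (gam (M * p) d')) = (d : ZMod M) := by
    rw [h1, ← hd']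
    rfl
  rw [← h2]
  unfold lr
  rw [map_intCast]

/-- Functions transforming under `Γ₀(M p)` with different characters mod `M` are linearly
independent. -/
theorem eq_zero_of_sum_eq_zero {M p : ℕ} [NeZero M] (hp : p ≠ 0) (k : ℤ)
    (F : DirichletCharacter ℂ M → ℍ → ℂ)
    (hF : ∀ ψ, ∀ γ : SL(2, ℤ), γ ∈ Gamma0 (M * p) →
      F ψ ∣[k] γ = ψ (((γ 1 1 : ℤ) : ZMod M)) • F ψ)
    (hsum : ∑ ψ, F ψ = 0) (ψ : DirichletCharacter ℂ M) : F ψ = 0 := by
  classical
  have h1 : ∀ d : (ZMod M)ˣ, ∑ ψ' : DirichletCharacter ℂ M, ψ' (d : ZMod M) • F ψ' = 0 := by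
    intro d
    obtain ⟨γ, hγ, hd⟩ := exists_gamma_unit hp d
    have h2 : (∑ ψ', F ψ') ∣[k] γ = 0 := by rw [hsum, SlashAction.zero_slash]
    rw [sum_slash_SL] at h2
    rw [← h2]
    refine Finset.sum_congr rfl (fun ψ' _ => ?_)
    rw [hF ψ' γ hγ, hd]
  funext z
  have h3 : ∀ a : ZMod M, ψ⁻¹ a * ∑ ψ' : DirichletCharacter ℂ M, ψ' a * F ψ' z = 0 := by
    intro a
    by_cases ha : IsUnit a
    · obtain ⟨d, rfl⟩ := ha
      have := congrFun (h1 d) z
      simp only [Finset.sum_apply, Pi.smul_apply, smul_eq_mul, Pi.zero_apply] at this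
      rw [this, mul_zero]
    · rw [MulChar.map_nonunit _ ha, zero_mul]
  have h4 : ∑ a : ZMod M, ψ⁻¹ a * ∑ ψ' : DirichletCharacter ℂ M, ψ' a * F ψ' z = 0 :=
    Finset.sum_eq_zero (fun a _ => h3 a)
  have h5 : ∑ a : ZMod M, ψ⁻¹ a * ∑ ψ' : DirichletCharacter ℂ M, ψ' a * F ψ' z
      = ∑ ψ' : DirichletCharacter ℂ M, (∑ a : ZMod M, (ψ⁻¹ * ψ') a) * F ψ' z := by
    simp only [Finset.mul_sum, Finset.sum_mul]
    rw [Finset.sum_comm]
    refine Finset.sum_congr rfl (fun ψ' _ => Finset.sum_congr rfl (fun a _ => ?_))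
    rw [MulChar.mul_apply]
    ring
  rw [h5, Finset.sum_eq_single ψ] at h4
  · rw [inv_mul_cancel, MulChar.sum_one_eq_card_units] at h4
    have hcard : ((Fintype.card (ZMod M)ˣ : ℕ) : ℂ) ≠ 0 := by
      exact_mod_cast Fintype.card_ne_zero
    exact (mul_eq_zero.mp h4).resolve_left hcard
  · intro ψ' _ hne
    rw [MulChar.sum_eq_zero_of_ne_one, zero_mul]
    intro h
    apply hne
    calc ψ' = ψ * (ψ⁻¹ * ψ') := by rw [← mul_assoc, mul_inv_cancel, one_mul]
      _ = ψ := by rw [h, mul_one]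
  · intro h
    exact absurd (Finset.mem_univ _) h

/-! ### The main theorem -/

/-- The space of coefficient sequences of `S_k(M, ψ)`. -/
def nebSeq (M : ℕ) (ψ : DirichletCharacter ℂ M) (k : ℤ) : Submodule ℂ (ℕ → ℂ) :=
  (nebSubmodule M ψ k).map (coeffMap M k)

theorem mem_nebSeq {M : ℕ} {ψ : DirichletCharacter ℂ M} {k : ℤ} {f : CuspForm (Gamma1 M) k}
    (hf : HasNeb M ψ k f) : coeffMap M k f ∈ nebSeq M ψ k :=
  Submodule.mem_map.mpr ⟨f, hf, rfl⟩

theorem cusp_eq_sum_neb {M : ℕ} [NeZero M] {k : ℤ} (g : CuspForm (Gamma1 M) k) :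
    g = ∑ ψ : DirichletCharacter ℂ M, neb g ψ := by
  apply DFunLike.ext
  intro z
  rw [cuspForm_sum_apply]
  exact sum_neb g z

/-- **NoOld**: if `h` and `h ∣ diag(p, 1)` are both in `S_k(M, ψ)`, then `h = 0`. -/
theorem noOld (hH : Stmt_HeckeNeb) {M : ℕ} [NeZero M] (ψ : DirichletCharacter ℂ M) (k : ℤ)
    [FiniteDimensional ℂ (nebSubmodule M ψ k)] {p : ℕ} (hp : p.Prime) (hpM : ¬ p ∣ M)
    (hψp : ψ (p : ZMod M) ≠ 0)
    (h : CuspForm (Gamma1 M) k) (hh : HasNeb M ψ k h)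
    (G : CuspForm (Gamma1 M) k) (hG : HasNeb M ψ k G) (hGh : (G : ℍ → ℂ) = vFun k p h) :
    h = 0 := by
  haveI : FiniteDimensional ℂ (nebSeq M ψ k) := by
    unfold nebSeq
    infer_instance
  have hp0 : p ≠ 0 := hp.ne_zero
  have hc : ((p : ℂ) ^ (k - 1)) ≠ 0 := zpow_ne_zero _ (by exact_mod_cast hp0)
  have hT : ∀ a ∈ nebSeq M ψ k,
      (fun n => a (p * n) + ψ (p : ZMod M) * seqV p ((p : ℂ) ^ (k - 1)) a n) ∈ nebSeq M ψ k := by
    intro a ha
    obtain ⟨f, hf, rfl⟩ := Submodule.mem_map.mp ha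
    obtain ⟨g', hg', hcoef⟩ := hH M ψ k f hf p hp hpM
    have : (fun n => coeffMap M k f (p * n) +
        ψ (p : ZMod M) * seqV p ((p : ℂ) ^ (k - 1)) (coeffMap M k f) n) = coeffMap M k g' := by
      funext n
      simp only [coeffMap_apply, seqV_apply]
      rw [hcoef n]
      split_ifs <;> ring
    rw [this]
    exact mem_nebSeq hg'
  have h0 : ∀ a ∈ nebSeq M ψ k, a 0 = 0 := by
    intro a ha
    obtain ⟨f, -, rfl⟩ := Submodule.mem_map.mp ha
    exact coeffMap_zero_coeff M k f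
  have hVa : seqV p ((p : ℂ) ^ (k - 1)) (coeffMap M k h) ∈ nebSeq M ψ k := by
    have : seqV p ((p : ℂ) ^ (k - 1)) (coeffMap M k h) = coeffMap M k G := by
      funext n
      rw [coeffMap_apply, hGh, qCoeff_vFun (nice_cusp1 h) k hp0 n]
      rfl
    rw [this]
    exact mem_nebSeq hG
  have hzero := seq_noOld p hp.one_lt _ _ hc hψp (nebSeq M ψ k) hT h0 _ (mem_nebSeq hh) hVa
  apply coeffMap_injective M k
  rw [hzero, map_zero]

/-- **A3 NebOfRel**, from HeckeNeb and FinDimNeb. -/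
theorem stmt_NebOfRel_of (hH : Stmt_HeckeNeb) (hFin : Stmt_FinDimNeb) : Stmt_NebOfRel := by
  intro M _ χ k hk g b hrel
  classical
  have key : ∀ ψ : DirichletCharacter ℂ M, ψ ≠ χ → neb g ψ = 0 := by
    intro ψ hψ
    obtain ⟨a, ha⟩ : ∃ a : (ZMod M)ˣ, ψ a ≠ χ a := by
      by_contra hcon
      push Not at hcon
      exact hψ (MulChar.ext hcon)
    obtain ⟨p, -, hpp, hpa⟩ := Nat.forall_exists_prime_gt_and_eq_mod a.isUnit 0
    have hp0 : p ≠ 0 := hpp.ne_zero
    have hpM : ¬ p ∣ M := by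
      intro hdvd
      have hu : IsUnit ((p : ℕ) : ZMod M) := by rw [hpa]; exact a.isUnit
      rw [ZMod.isUnit_iff_coprime] at hu
      exact hpp.one_lt.ne' (Nat.Coprime.eq_one_of_dvd hu hdvd)
    have hψp : ψ (p : ZMod M) ≠ 0 := by
      rw [hpa]
      exact (a.isUnit.map ψ).ne_zero
    have hdiff : χ (p : ZMod M) - ψ (p : ZMod M) ≠ 0 := by
      rw [hpa]
      exact sub_ne_zero.mpr (Ne.symm ha)
    haveI : FiniteDimensional ℂ (nebSubmodule M ψ k) := hFin M ψ k hk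
    -- the Hecke images of the components
    choose T hTneb hTcoeff using fun ψ' : DirichletCharacter ℂ M =>
      hH M ψ' k (neb g ψ') (hasNeb_neb g ψ') p hpp hpM
    set F : DirichletCharacter ℂ M → ℍ → ℂ := fun ψ' =>
      ((T ψ' : ℍ → ℂ) - b p • (neb g ψ' : ℍ → ℂ)) +
        (χ (p : ZMod M) - ψ' (p : ZMod M)) • vFun k p (neb g ψ') with hFdef
    have hnice1 : ∀ ψ', Nice 1 ((T ψ' : ℍ → ℂ) - b p • (neb g ψ' : ℍ → ℂ)) := fun ψ' =>
      (nice_cusp1 (T ψ')).sub ((nice_cusp1 (neb g ψ')).smul _)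
    have hnice2 : ∀ ψ', Nice 1 ((χ (p : ZMod M) - ψ' (p : ZMod M)) • vFun k p (neb g ψ')) :=
      fun ψ' => (nice_vFun (nice_cusp1 (neb g ψ')) k p).smul _
    have hFnice : ∀ ψ', Nice 1 (F ψ') := fun ψ' => (hnice1 ψ').add (hnice2 ψ')
    have hFslash : ∀ ψ', ∀ γ : SL(2, ℤ), γ ∈ Gamma0 (M * p) →
        F ψ' ∣[k] γ = ψ' (((γ 1 1 : ℤ) : ZMod M)) • F ψ' := by
      intro ψ' γ hγ
      have hγM : γ ∈ Gamma0 M := by
        rw [Gamma0_mem] at hγ ⊢
        have h1 := congrArg (ZMod.castHom (Dvd.intro p rfl : M ∣ M * p) (ZMod M)) hγ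
        rwa [map_intCast, map_zero] at h1
      have h1 := hTneb ψ' γ hγM
      have h2 := hasNeb_neb g ψ' γ hγM
      have h3 := vFun_slash hp0 (hasNeb_neb g ψ') γ hγ
      simp only [hFdef, SlashAction.add_slash, ModularForm.SL_smul_slash, h1, h2, h3,
        sub_eq_add_neg, SlashAction.neg_slash, smul_add, smul_neg]
      congr 1
      · congr 1
        rw [smul_comm]
      · rw [smul_comm]
    have hFcoeff : ∀ ψ' n, ModularFormClass.qCoeff (F ψ') n =
        coeffMap M k (neb g ψ') (p * n) + χ (p : ZMod M) * (p : ℂ) ^ (k - 1) *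
          (if p ∣ n then coeffMap M k (neb g ψ') (n / p) else 0) -
        b p * coeffMap M k (neb g ψ') n := by
      intro ψ' n
      unfold ModularFormClass.qCoeff
      rw [hFdef]
      simp only
      rw [Nice.qExpansion_add one_pos (hnice1 ψ') (hnice2 ψ'),
        Nice.qExpansion_sub one_pos (nice_cusp1 (T ψ')) ((nice_cusp1 (neb g ψ')).smul _),
        Nice.qExpansion_smul one_pos (nice_cusp1 (neb g ψ')),
        Nice.qExpansion_smul one_pos (nice_vFun (nice_cusp1 (neb g ψ')) k p)]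
      simp only [map_add, map_sub, PowerSeries.coeff_smul, smul_eq_mul]
      have h1 := hTcoeff ψ' n
      have h2 := qCoeff_vFun (nice_cusp1 (neb g ψ')) k hp0 n
      unfold ModularFormClass.qCoeff at h1 h2
      rw [h1, h2, seqV_apply]
      simp only [coeffMap_apply]
      unfold ModularFormClass.qCoeff
      split_ifs <;> ring
    have hgsum : ∀ m, coeffMap M k g m =
        ∑ ψ' : DirichletCharacter ℂ M, coeffMap M k (neb g ψ') m := by
      intro m
      conv_lhs => rw [cusp_eq_sum_neb g]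
      rw [map_sum, Finset.sum_apply]
    have hsum : ∑ ψ', F ψ' = 0 := by
      have hn : Nice 1 (∑ ψ', F ψ') := Nice.sum Finset.univ (fun ψ' _ => hFnice ψ')
      refine eq_of_qCoeff_eq hn (Nice.zero 1) (fun n => ?_)
      unfold ModularFormClass.qCoeff
      rw [Nice.qExpansion_sum one_pos Finset.univ (fun ψ' _ => hFnice ψ'), map_sum,
        UpperHalfPlane.qExpansion_zero, map_zero]
      have h1 : ∀ ψ', (PowerSeries.coeff n) (qExpansion 1 (F ψ')) =
          coeffMap M k (neb g ψ') (p * n) + χ (p : ZMod M) * (p : ℂ) ^ (k - 1) *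
            (if p ∣ n then coeffMap M k (neb g ψ') (n / p) else 0) -
          b p * coeffMap M k (neb g ψ') n := fun ψ' => hFcoeff ψ' n
      simp only [h1]
      rw [Finset.sum_sub_distrib, Finset.sum_add_distrib, ← Finset.mul_sum, ← Finset.mul_sum,
        ← hgsum, ← hgsum]
      have h2 : (∑ ψ' : DirichletCharacter ℂ M,
          (if p ∣ n then coeffMap M k (neb g ψ') (n / p) else 0)) =
          if p ∣ n then coeffMap M k g (n / p) else 0 := by
        split_ifs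
        · rw [← hgsum]
        · simp
      rw [h2]
      have h3 := hrel p hpp hpM n
      simp only [coeffMap_apply]
      rw [h3, sub_self]
    have hFψ := eq_zero_of_sum_eq_zero hp0 k F hFslash hsum ψ
    -- `g_ψ ∣ diag(p, 1)` is a cusp form in `S_k(M, ψ)`
    set c : ℂ := χ (p : ZMod M) - ψ (p : ZMod M) with hcdef
    have hG : HasNeb M ψ k (c⁻¹ • (b p • neb g ψ - T ψ) : CuspForm (Gamma1 M) k) :=
      (nebSubmodule M ψ k).smul_mem _
        ((nebSubmodule M ψ k).sub_mem ((nebSubmodule M ψ k).smul_mem _ (hasNeb_neb g ψ))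
          (hTneb ψ))
    have hGv : ((c⁻¹ • (b p • neb g ψ - T ψ) : CuspForm (Gamma1 M) k) : ℍ → ℂ) =
        vFun k p (neb g ψ) := by
      have h1 : ((c⁻¹ • (b p • neb g ψ - T ψ) : CuspForm (Gamma1 M) k) : ℍ → ℂ) =
          c⁻¹ • (b p • (neb g ψ : ℍ → ℂ) - (T ψ : ℍ → ℂ)) := rfl
      rw [h1]
      have h2 : c • vFun k p (neb g ψ) = b p • (neb g ψ : ℍ → ℂ) - (T ψ : ℍ → ℂ) := by
        have h3 : ((T ψ : ℍ → ℂ) - b p • (neb g ψ : ℍ → ℂ)) + c • vFun k p (neb g ψ) = 0 := hFψ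
        rw [eq_neg_of_add_eq_zero_right h3, neg_sub]
      rw [← h2, smul_smul, inv_mul_cancel₀ hdiff, one_smul]
    exact noOld hH ψ k hpp hpM hψp (neb g ψ) (hasNeb_neb g ψ) _ hG hGv
  -- conclusion
  have hgχ : (g : ℍ → ℂ) = neb g χ := by
    funext z
    rw [sum_neb g z, Finset.sum_eq_single χ]
    · intro ψ _ hψ
      rw [key ψ hψ]
      rfl
    · intro h
      exact absurd (Finset.mem_univ _) h
  intro γ hγ
  rw [hgχ]
  exact hasNeb_neb g χ γ hγ

end Fermat.Agent.S48.B1.H31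

end
end
-- ==== END Fermat.Agent.S48.B1.H31_NebOfRel

-- ==== BEGIN Fermat.Agent.S48.B1.H61_EigInt
section

/-!
# S48, mountain B, part B1, leaf EigInt (helper61)

`stmt_EigInt : Stmt_EigInt`: an eigenvalue of `T_p` on `S₂(M, χ)` is an algebraic integer.

Route: the `q`-coefficients of `g ∈ S₂(M, χ)` lie in a finitely generated subgroup `Λ` of `ℂ`
stable under the values of the characters (multiply `g` by two Eisenstein series of weight `3`
with odd characters `θ`, `(χ θ)⁻¹` to land in `S₈(Γ₀(M))`; for `M ≤ 2` multiply by `1`).  The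
eigen-relation gives `μ ^ r a_n ∈ Λ` for all `r`, so `μ` is integral.

No `sorry`.
-/

set_option autoImplicit false

open CongruenceSubgroup UpperHalfPlane ModularForm
open scoped MatrixGroups ModularForm Manifold

namespace Fermat.Agent.S48.B1.H61

open Fermat.Agent.S48.B1 Fermat.Agent.S48.Int

/-- **Algebraic core**: an eigenvalue of the formal Hecke operator on sequences with values in a
finitely generated group is integral. -/
theorem isIntegral_of_eigen (Λ : Submodule ℤ ℂ) (hΛ : Λ.FG) (a : ℕ → ℂ) (c μ : ℂ) (p : ℕ)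
    (ha : ∀ n, a n ∈ Λ) (hc : ∀ x ∈ Λ, c * x ∈ Λ)
    (hrel : ∀ n, a (p * n) + c * (if p ∣ n then a (n / p) else 0) = μ * a n)
    (hne : ∃ n, a n ≠ 0) : IsIntegral ℤ μ := by
  have hpow : ∀ r n, μ ^ r * a n ∈ Λ := by
    intro r
    induction r with
    | zero =>
      intro n
      simpa using ha n
    | succ r ih =>
      intro n
      have h1 : μ ^ (r + 1) * a n =
          μ ^ r * a (p * n) + c * (if p ∣ n then μ ^ r * a (n / p) else 0) := by
        rw [pow_succ, mul_assoc, ← hrel n]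
        split_ifs <;> ring
      rw [h1]
      refine Λ.add_mem (ih _) (hc _ ?_)
      split_ifs
      · exact ih _
      · exact Λ.zero_mem
  obtain ⟨n₀, hn₀⟩ := hne
  have hNle : Submodule.span ℤ (Set.range fun r : ℕ => μ ^ r * a n₀) ≤ Λ :=
    Submodule.span_le.mpr (by rintro _ ⟨r, rfl⟩; exact hpow r n₀)
  have hNfg : (Submodule.span ℤ (Set.range fun r : ℕ => μ ^ r * a n₀)).FG := hΛ.of_le hNle
  have hNne : Submodule.span ℤ (Set.range fun r : ℕ => μ ^ r * a n₀) ≠ ⊥ := by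
    intro h
    have h1 : a n₀ ∈ Submodule.span ℤ (Set.range fun r : ℕ => μ ^ r * a n₀) :=
      Submodule.subset_span ⟨0, by simp⟩
    rw [h] at h1
    exact hn₀ ((Submodule.mem_bot ℤ).mp h1)
  refine isIntegral_of_smul_mem_submodule _ hNne hNfg μ ?_
  intro x hx
  induction hx using Submodule.span_induction with
  | mem x hx =>
    obtain ⟨r, rfl⟩ := hx
    refine Submodule.subset_span ⟨r + 1, ?_⟩
    simp only [smul_eq_mul]
    ring
  | zero => simp
  | add x y _ _ hx hy =>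
    rw [smul_add]
    exact Submodule.add_mem _ hx hy
  | smul t x _ hx =>
    rw [smul_comm]
    exact Submodule.smul_mem _ t hx


/-- Slash by `-1` in weight two. -/
theorem slash_neg_one_weight_two (g : ℍ → ℂ) : g ∣[(2 : ℤ)] (-1 : SL(2, ℤ)) = g := by
  ext z
  rw [SL_slash_apply]
  have h1 : (-1 : SL(2, ℤ)) • z = z := by
    have := ModularGroup.SL_neg_smul (1 : SL(2, ℤ)) z
    rw [this, one_smul]
  rw [h1, ModularGroup.denom_apply]
  simp

/-- The character of a nonzero function of weight two is even. -/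
theorem even_of_hasNeb_two {M : ℕ} {χ : DirichletCharacter ℂ M} {g : ℍ → ℂ}
    (hg : HasNeb M χ 2 g) (hne : g ≠ 0) : χ (-1) = 1 := by
  have hmem : (-1 : SL(2, ℤ)) ∈ Gamma0 M := by
    rw [Gamma0_mem]
    simp
  have h := hg (-1) hmem
  rw [slash_neg_one_weight_two] at h
  have hval : (((-1 : SL(2, ℤ)) 1 1 : ℤ) : ZMod M) = -1 := by simp
  rw [hval] at h
  by_contra hχ
  apply hne
  ext z
  have hz := congrFun h z
  simp only [Pi.smul_apply, smul_eq_mul, Pi.zero_apply] at hz ⊢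
  have h3 : (χ (-1) - 1) * g z = 0 := by
    rw [sub_mul, one_mul, ← hz, sub_self]
  rcases mul_eq_zero.1 h3 with h4 | h4
  · exact absurd (sub_eq_zero.mp h4) hχ
  · exact h4

/-- There is an odd character modulo `M ≥ 3`. -/
theorem exists_odd_char (M : ℕ) [NeZero M] (hM : 3 ≤ M) :
    ∃ θ : DirichletCharacter ℂ M, θ (-1) = -1 := by
  have : Fact (2 < M) := ⟨by omega⟩
  have hne : (-1 : ZMod M) ≠ 1 := ZMod.neg_one_ne_one
  obtain ⟨θ, hθ⟩ := DirichletCharacter.exists_apply_ne_one_of_hasEnoughRootsOfUnity ℂ hne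
  refine ⟨θ, ?_⟩
  have hsq : θ (-1) * θ (-1) = 1 := by
    rw [← map_mul]
    simp
  rcases mul_self_eq_one_iff.mp hsq with h1 | h1
  · exact absurd h1 hθ
  · exact h1

/-- For `M ≤ 2` every unit of `ZMod M` is `1`. -/
theorem unit_eq_one_of_le_two {M : ℕ} (hM : M ≠ 0) (hM2 : M ≤ 2) {d : ZMod M} (hd : IsUnit d) :
    d = 1 := by
  have h12 : M = 1 ∨ M = 2 := by omega
  rcases h12 with rfl | rfl
  · exact Subsingleton.elim _ _
  · revert hd
    revert d
    decide

/-- The coefficients of a nonzero cusp form of weight two with nebentypus lie in a finitely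
generated subgroup of `ℂ`. -/
theorem exists_fg_coeff_neb2 (M : ℕ) [NeZero M] (χ : DirichletCharacter ℂ M)
    (g : CuspForm (Gamma1 M) 2) (hg : HasNeb M χ 2 g) (hne : (g : ℍ → ℂ) ≠ 0) :
    ∃ Λ : Submodule ℤ ℂ, Λ.FG ∧
      ∀ n, (qExpansion 1 g).coeff n ∈ Λ * (H55.charRing M).toSubmodule := by
  have hχ : χ (-1) = 1 := even_of_hasNeb_two hg hne
  by_cases hM : 3 ≤ M
  · obtain ⟨θ, hθ⟩ := exists_odd_char M hM
    have hψ : (χ * θ)⁻¹ (-1) = -1 := by
      rw [MulChar.inv_apply_eq_inv', MulChar.mul_apply, hχ, hθ]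
      norm_num
    obtain ⟨E₁, hd₁, hb₁, hn₁, hq₁⟩ := H01.stmt_Eis M hM θ hθ
    obtain ⟨E₂, hd₂, hb₂, hn₂, hq₂⟩ := H01.stmt_Eis M hM (χ * θ)⁻¹ hψ
    have hchar : θ * (χ * θ)⁻¹ = χ⁻¹ := by
      rw [mul_inv, mul_comm χ⁻¹ θ⁻¹, mul_inv_cancel_left]
    have hbdd : ∀ A : SL(2, ℤ), IsBoundedAtImInfty ((E₁ * E₂) ∣[(3 + 3 : ℤ)] A) := by
      intro A
      rw [mul_slash_SL2]
      exact (hb₁ A).mul (hb₂ A)
    have hneb : HasNeb M χ⁻¹ (3 + 3) (E₁ * E₂) := by
      intro γ hγ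
      rw [mul_slash_SL2, hn₁ γ hγ, hn₂ γ hγ, ← hchar, MulChar.mul_apply]
      funext z
      simp only [Pi.mul_apply, Pi.smul_apply, smul_eq_mul]
      ring
    obtain ⟨G, -, hGq⟩ := H22.stmt_Prod M χ 2 (3 + 3) g (E₁ * E₂) hg (hd₁.mul hd₂) hbdd hneb
    obtain ⟨Λ, hΛ, hΛc⟩ := H01.coeff_mem_fg (N := M) (2 + (3 + 3)) 7 (by norm_num) G
    have hqE : qExpansion 1 (E₁ * E₂) = eisSeries M θ * eisSeries M (χ * θ)⁻¹ := by
      rw [Fermat.Agent.S23.H22.Nice.qExpansion_mul one_pos (H22.nice_of_hasNeb hn₁ hd₁ hb₁)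
        (H22.nice_of_hasNeb hn₂ hd₂ hb₂), hq₁, hq₂]
    refine ⟨Λ, hΛ, fun n => ?_⟩
    have h1 : ∀ m, PowerSeries.coeff m (qExpansion 1 g * eisSeries M θ) ∈
        Λ * (H55.charRing M).toSubmodule := by
      intro m
      refine H55.coeff_mem_of_mul_eisSeries M (χ * θ)⁻¹ _ Λ (fun j => ?_) m
      rw [mul_assoc, ← hqE, ← hGq]
      exact hΛc j
    have h2 := H55.coeff_mem_of_mul_eisSeries M θ (qExpansion 1 g) _ h1 n
    rwa [mul_assoc, (Subalgebra.isIdempotentElem_toSubmodule (H55.charRing M)).eq] at h2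
  · have hM2 : M ≤ 2 := by omega
    have hneb : HasNeb M χ⁻¹ 0 (1 : ℍ → ℂ) := by
      intro γ hγ
      have hu := H22.isUnit_lowerRight hγ
      rw [unit_eq_one_of_le_two (NeZero.ne M) hM2 hu, map_one, one_smul]
      funext z
      simp [SL_slash_apply]
    have hbdd : ∀ A : SL(2, ℤ), IsBoundedAtImInfty ((1 : ℍ → ℂ) ∣[(0 : ℤ)] A) := by
      intro A
      have h1 : (1 : ℍ → ℂ) ∣[(0 : ℤ)] A = 1 := by
        funext z
        simp [SL_slash_apply]
      rw [h1]
      exact Filter.const_boundedAtFilter _ (1 : ℂ)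
    obtain ⟨G, hG, -⟩ := H22.stmt_Prod M χ 2 0 g (1 : ℍ → ℂ) hg mdifferentiable_const hbdd hneb
    obtain ⟨Λ, hΛ, hΛc⟩ := H01.coeff_mem_fg (N := M) (2 + 0) 1 (by norm_num) G
    have hfun : (G : ℍ → ℂ) = (g : ℍ → ℂ) := by
      funext z
      rw [hG z]
      simp
    refine ⟨Λ, hΛ, fun n => ?_⟩
    have h1 : (qExpansion 1 g).coeff n ∈ Λ := by
      rw [← hfun]
      exact hΛc n
    have h2 : (qExpansion 1 g).coeff n * 1 ∈ Λ * (H55.charRing M).toSubmodule :=
      Submodule.mul_mem_mul h1 (Subalgebra.one_mem _)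
    rwa [mul_one] at h2

/-- **EigInt**. -/
theorem stmt_EigInt : Stmt_EigInt := by
  intro M _ χ g hg hne p hp hpM μ hrel
  have hne' : (g : ℍ → ℂ) ≠ 0 := by
    intro h
    apply hne
    ext z
    rw [h]
    rfl
  obtain ⟨Λ, hΛ, hc⟩ := exists_fg_coeff_neb2 M χ g hg hne'
  refine isIntegral_of_eigen (Λ * (H55.charRing M).toSubmodule) (hΛ.mul (H55.charRing_fg M))
    (fun n => ModularFormClass.qCoeff g n) (χ (p : ZMod M) * (p : ℂ)) μ p hc ?_ hrel ?_
  · intro x hx
    rw [mul_assoc]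
    refine H55.charVal_mul_mem _ χ _ _ ?_
    have h1 : (p : ℂ) * x = (p : ℤ) • x := by
      rw [zsmul_eq_mul]
      norm_cast
    rw [h1]
    exact Submodule.smul_mem _ _ hx
  · by_contra hall
    apply hne'
    refine Fermat.Agent.S23.H22.Nice.eq_zero_of_qExpansion_eq_zero one_pos (H22.nice_cusp1 g) ?_
    ext n
    have := not_exists.mp hall n
    simp only [ne_eq, not_not] at this
    rw [map_zero]
    exact this

end Fermat.Agent.S48.B1.H61

end
-- ==== END Fermat.Agent.S48.B1.H61_EigInt
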