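-- GENERATED (merged mirror, NOTES/tools/trim/merge3_helper67.py): 4 modules of the originals, bodies verbatim.
import Fermat.Agent.Zm.S48_L04_000
import Fermat.Agent.Zm.S48_L04_002
import Fermat.Agent.Zm.S35_L05_004
import Fermat.Agent.S23.H96_DhatNeZero
import Fermat.Agent.Zm.S48_L03_002

-- ==== BEGIN Fermat.Agent.S48.Asm.H43_ModLift
section

/-!
# S48 assembly, steps 3–5: `Stmt_ModLift` (helper43)

`modLift_of : Stmt_Int → Stmt_ResRep → Stmt_Thin → Stmt_ChebSet → Stmt_SS2 → Stmt_Lift →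
  Stmt_ModLift`.
-/

set_option autoImplicit false
set_option linter.unusedSectionVars false
set_option linter.style.haveILetI false

open CongruenceSubgroup
open scoped MatrixGroups

namespace Fermat.Agent.S48.Asm.H43

local notation "Γℚ" => (AlgebraicClosure ℚ ≃ₐ[ℚ] AlgebraicClosure ℚ)

/-- A prime outside the prime factors of `n ≠ 0` does not divide `n`. -/
lemma not_dvd_of_notMem_primeFactors {p n : ℕ} (hp : p.Prime) (hn : n ≠ 0)
    (h : p ∉ n.primeFactors) : ¬ p ∣ n := fun hd =>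
  h (Nat.mem_primeFactors.mpr ⟨hp, hd, hn⟩)

/-- The density step: the elements of the image outside `H` have density at most `1/120`. -/
theorem card_bad_le (hInt : Stmt_Int) (hCS : Stmt_ChebSet)
    (N : ℕ) [NeZero N] (ε : DirichletCharacter ℂ N) (f : CuspForm (Gamma1 N) 1)
    (hf : IsDSForm N ε f) (Y : Finset ℂ) (C₀ : ℝ)
    (hY : ∀ s : ℝ, 1 < s → s ≤ 2 → ∀ T : Finset ℕ,
        (∀ p ∈ T, p.Prime ∧ ¬ p ∣ N ∧ ModularFormClass.qCoeff f p ∉ Y) →
          ∑ p ∈ T, (p : ℝ) ^ (-s) ≤ (1 / 240) * Real.log (1 / (s - 1)) + C₀)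
    (ℓ : ℕ) (hℓ : ℓ.Prime) (k : Type) [Field k] (φ : integralClosure ℤ ℂ →+* k)
    (ρ' : Γℚ →* GL (Fin 2) k) (hfl : GaloisFactorsThroughFiniteLevel ρ')
    (hfrob : ∀ p : ℕ, p.Prime → ¬ p ∣ N * ℓ →
      ∀ a e : integralClosure ℤ ℂ, (a : ℂ) = ModularFormClass.qCoeff f p →
        (e : ℂ) = ε (p : ZMod N) →
        ∀ A : ValuationSubring (AlgebraicClosure ℚ), A.LiesOverPrime p →
          ∀ σ : Γℚ, A.IsFrobeniusAt σ p →
            ((ρ' σ : GL (Fin 2) k) : Matrix (Fin 2) (Fin 2) k).trace = φ a ∧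
            ((ρ' σ : GL (Fin 2) k) : Matrix (Fin 2) (Fin 2) k).det = φ e)
    (H : Set (GL (Fin 2) k))
    (hH : ∀ a e : integralClosure ℤ ℂ, (a : ℂ) ∈ Y → ∀ g : GL (Fin 2) k,
      (g : Matrix (Fin 2) (Fin 2) k).trace = φ a → (g : Matrix (Fin 2) (Fin 2) k).det = φ e →
      (∃ x : ZMod N, (e : ℂ) = ε x) → g ∈ H) :
    120 * Nat.card {g : GL (Fin 2) k // g ∈ ρ'.range ∧ g ∉ H} ≤ Nat.card ρ'.range := by
  classical
  haveI : Finite ρ'.range := Fermat.Agent.S48.H55.finite_range_of_finiteLevel ρ' hfl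
  have hNℓ : N * ℓ ≠ 0 := Nat.mul_ne_zero (NeZero.ne N) hℓ.ne_zero
  set r : Γℚ →* ρ'.range := ρ'.rangeRestrict with hr
  have hrs : Function.Surjective r := ρ'.rangeRestrict_surjective
  have hrfl : GaloisFactorsThroughFiniteLevel r := by
    refine finiteLevel_of_imp ρ' r (fun σ hσ => ?_) hfl
    apply Subtype.ext
    exact hσ
  obtain ⟨C₁, hC₁⟩ := hCS ρ'.range r hrfl hrs (N * ℓ).primeFactors
    (fun z => (z : GL (Fin 2) k) ∉ H) (1 / 2) (by norm_num)
  have hcardeq : Nat.card {z : ρ'.range // (z : GL (Fin 2) k) ∉ H} =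
      Nat.card {g : GL (Fin 2) k // g ∈ ρ'.range ∧ g ∉ H} :=
    Nat.card_congr (Equiv.subtypeSubtypeEquivSubtypeInter (fun g => g ∈ ρ'.range)
      (fun g => g ∉ H))
  rw [← hcardeq]
  set nZ : ℝ := (Nat.card {z : ρ'.range // (z : GL (Fin 2) k) ∉ H} : ℝ) with hnZ
  set nG : ℝ := (Nat.card ρ'.range : ℝ) with hnG
  have hGpos : 0 < nG := by
    rw [hnG]
    exact_mod_cast Nat.card_pos
  have key : ∀ s : ℝ, 1 < s → s ≤ 2 →
      ((1 - 1 / 2) * (nZ / nG) - 1 / 240) * Real.log (1 / (s - 1)) ≤ C₀ + C₁ := by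
    intro s hs1 hs2
    obtain ⟨T, hT, hle⟩ := hC₁ s hs1 hs2
    have hT' : ∀ p ∈ T, p.Prime ∧ ¬ p ∣ N ∧ ModularFormClass.qCoeff f p ∉ Y := by
      intro p hp
      obtain ⟨hpS, z, hz, hpr, A, σ, hA, hσ, hrσ⟩ := hT p hp
      have hpNℓ : ¬ p ∣ N * ℓ := not_dvd_of_notMem_primeFactors hpr hNℓ hpS
      have hpN : ¬ p ∣ N := fun h => hpNℓ (Dvd.dvd.mul_right h ℓ)
      refine ⟨hpr, hpN, fun hmem => hz ?_⟩
      have hai := (hInt N ε f hf).1 p hpr hpN
      have hei := isIntegral_dirichlet N ε (p : ZMod N)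
      obtain ⟨h1, h2⟩ := hfrob p hpr hpNℓ ⟨_, hai⟩ ⟨_, hei⟩ rfl rfl A hA σ hσ
      have hz' : (z : GL (Fin 2) k) = ρ' σ := by
        rw [← hrσ]
        rfl
      rw [hz']
      exact hH ⟨_, hai⟩ ⟨_, hei⟩ hmem (ρ' σ) h1 h2 ⟨_, rfl⟩
    have h2 := hY s hs1 hs2 T hT'
    have h3 : (1 - 1 / 2) * (nZ / nG) * Real.log (1 / (s - 1)) - C₁ ≤
        (1 / 240) * Real.log (1 / (s - 1)) + C₀ := hle.trans h2
    linarith
  have hle := le_zero_of_mul_log_le _ _ key
  have h4 : nZ / nG ≤ 1 / 120 := by linarith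
  rw [div_le_iff₀ hGpos] at h4
  have h5 : 120 * nZ ≤ nG := by linarith
  rw [hnZ, hnG] at h5
  exact_mod_cast h5

theorem modLift_of (hInt : Stmt_Int) (hRes : Stmt_ResRep) (hThin : Stmt_Thin)
    (hCS : Stmt_ChebSet) (hSS : Stmt_SS2) (hLift : Stmt_Lift) : Stmt_ModLift := by
  intro N _ ε f hf
  classical
  obtain ⟨Y, C₀, hY⟩ := hThin N ε f hf (1 / 240) (by norm_num)
  set E : Finset ℂ := Finset.univ.image (fun x : ZMod N => ε x) with hE
  obtain ⟨B, hB⟩ := groupBound' (Y.card * E.card)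
  obtain ⟨ℓ₀, hℓ₀⟩ := hRes N ε f hf
  refine ⟨B, max ℓ₀ (max (B + 1) 3), fun ℓ hℓ hℓge k _ _ _ φ => ?_⟩
  have hℓ1 : ℓ₀ ≤ ℓ := le_trans (le_max_left _ _) hℓge
  have hℓ2 : B + 1 ≤ ℓ := le_trans (le_trans (le_max_left _ _) (le_max_right _ _)) hℓge
  have hℓ3 : 3 ≤ ℓ := le_trans (le_trans (le_max_right _ _) (le_max_right _ _)) hℓge
  obtain ⟨ρ₀, hfl₀, hρ₀⟩ := hℓ₀ ℓ hℓ hℓ1 k φ
  obtain ⟨ρ', hss, hker, htd⟩ := hSS k Γℚ ρ₀
  have hfl' : GaloisFactorsThroughFiniteLevel ρ' :=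
    finiteLevel_of_imp ρ₀ ρ' hker hfl₀
  haveI : Finite ρ'.range := Fermat.Agent.S48.H55.finite_range_of_finiteLevel ρ' hfl'
  -- the finite set of characteristic polynomials
  set Yint : Finset (integralClosure ℤ ℂ) :=
    Y.preimage Subtype.val Subtype.val_injective.injOn with hYint
  set Eint : Finset (integralClosure ℤ ℂ) :=
    E.preimage Subtype.val Subtype.val_injective.injOn with hEint
  set Yφ : Finset (k × k) := (Yint ×ˢ Eint).image (fun x => (φ x.1, φ x.2)) with hYφ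
  have hYφcard : Yφ.card ≤ Y.card * E.card := by
    refine (Finset.card_image_le).trans ?_
    rw [Finset.card_product]
    refine Nat.mul_le_mul ?_ ?_
    · rw [← Finset.card_image_of_injective Yint Subtype.val_injective]
      exact Finset.card_le_card (by
        intro x hx
        obtain ⟨y, hy, rfl⟩ := Finset.mem_image.mp hx
        exact Finset.mem_preimage.mp hy)
    · rw [← Finset.card_image_of_injective Eint Subtype.val_injective]
      exact Finset.card_le_card (by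
        intro x hx
        obtain ⟨y, hy, rfl⟩ := Finset.mem_image.mp hx
        exact Finset.mem_preimage.mp hy)
  set H : Set (GL (Fin 2) k) :=
    {g | ((g : Matrix (Fin 2) (Fin 2) k).trace, (g : Matrix (Fin 2) (Fin 2) k).det) ∈ Yφ}
    with hHdef
  have hHY : ∀ h ∈ H,
      ((h : Matrix (Fin 2) (Fin 2) k).trace, (h : Matrix (Fin 2) (Fin 2) k).det) ∈ Yφ :=
    fun h hh => hh
  have hfrob : ∀ p : ℕ, p.Prime → ¬ p ∣ N * ℓ →
      ∀ a e : integralClosure ℤ ℂ, (a : ℂ) = ModularFormClass.qCoeff f p →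
        (e : ℂ) = ε (p : ZMod N) →
        ∀ A : ValuationSubring (AlgebraicClosure ℚ), A.LiesOverPrime p →
          ∀ σ : Γℚ, A.IsFrobeniusAt σ p →
            ((ρ' σ : GL (Fin 2) k) : Matrix (Fin 2) (Fin 2) k).trace = φ a ∧
            ((ρ' σ : GL (Fin 2) k) : Matrix (Fin 2) (Fin 2) k).det = φ e := by
    intro p hp hpNℓ a e ha he A hA σ hσ
    obtain ⟨h1, h2⟩ := (hρ₀ p hp hpNℓ a e ha he A hA).2 σ hσ
    exact ⟨(htd σ).1.trans h1, (htd σ).2.trans h2⟩
  have hH : ∀ a e : integralClosure ℤ ℂ, (a : ℂ) ∈ Y → ∀ g : GL (Fin 2) k,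
      (g : Matrix (Fin 2) (Fin 2) k).trace = φ a → (g : Matrix (Fin 2) (Fin 2) k).det = φ e →
      (∃ x : ZMod N, (e : ℂ) = ε x) → g ∈ H := by
    intro a e ha g h1 h2 ⟨x, hx⟩
    show ((g : Matrix (Fin 2) (Fin 2) k).trace, (g : Matrix (Fin 2) (Fin 2) k).det) ∈ Yφ
    rw [hYφ, Finset.mem_image]
    refine ⟨(a, e), Finset.mem_product.mpr ⟨Finset.mem_preimage.mpr ha,
      Finset.mem_preimage.mpr ?_⟩, by rw [h1, h2]⟩
    rw [hE, Finset.mem_image]
    exact ⟨x, Finset.mem_univ _, hx.symm⟩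
  have hbad := card_bad_le hInt hCS N ε f hf Y C₀ hY ℓ hℓ k φ ρ' hfl' hfrob H hH
  have hcardG : Nat.card ρ'.range ≤ B :=
    hB k ρ'.range H Yφ inferInstance hss hHY hYφcard hbad
  -- the lift
  have hndvd : ¬ ℓ ∣ Nat.card ρ'.range := by
    intro hd
    have h1 := Nat.le_of_dvd Nat.card_pos hd
    omega
  obtain ⟨R, hR⟩ := hLift ℓ k φ ρ'.range ρ'.range.subtype hℓ (by omega) hndvd
  refine ⟨R.comp ρ'.rangeRestrict, ?_, ?_, ?_⟩
  · refine finiteLevel_of_imp ρ' _ (fun σ hσ => ?_) hfl'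
    have h1 : ρ'.rangeRestrict σ = 1 := Subtype.ext hσ
    rw [MonoidHom.comp_apply, h1, map_one]
  · have h1 : Nat.card (R.comp ρ'.rangeRestrict).range ≤ Nat.card ρ'.range := by
      let g : ρ'.range → (R.comp ρ'.rangeRestrict).range := fun z =>
        ⟨R z, by
          obtain ⟨σ, hσ⟩ := ρ'.rangeRestrict_surjective z
          exact ⟨σ, by rw [MonoidHom.comp_apply, hσ]⟩⟩
      have hg : Function.Surjective g := by
        rintro ⟨y, σ, rfl⟩
        exact ⟨ρ'.rangeRestrict σ, rfl⟩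
      exact Nat.card_le_card_of_surjective g hg
    exact h1.trans hcardG
  · intro p hp hpNℓ A hA
    have hpN : ¬ p ∣ N := fun h => hpNℓ (Dvd.dvd.mul_right h ℓ)
    have hai := (hInt N ε f hf).1 p hp hpN
    have hei := isIntegral_dirichlet N ε (p : ZMod N)
    refine ⟨fun σ hσ => ?_, fun σ hσ t d a e ht hd ha he => ?_⟩
    · have h0 := (hρ₀ p hp hpNℓ ⟨_, hai⟩ ⟨_, hei⟩ rfl rfl A hA).1 σ hσ
      have h1 : ρ'.rangeRestrict σ = 1 := Subtype.ext (hker σ h0)
      rw [MonoidHom.comp_apply, h1, map_one]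
    · obtain ⟨t', d', ht', hd', hφt, hφd⟩ := hR (ρ'.rangeRestrict σ)
      obtain ⟨h1, h2⟩ := hfrob p hp hpNℓ a e ha he A hA σ hσ
      have htt : t = t' := Subtype.ext (ht.trans ht'.symm)
      have hdd : d = d' := Subtype.ext (hd.trans hd'.symm)
      rw [htt, hdd, hφt, hφd]
      exact ⟨h1, h2⟩

end Fermat.Agent.S48.Asm.H43

end
-- ==== END Fermat.Agent.S48.Asm.H43_ModLift

-- ==== BEGIN Fermat.Agent.S48.Cheb.H31_RayDensity
section

/-!
# S48 leaf D1: `Cheb.Stmt_RayDensity`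

Equality case of the second inequality `⟹` every fibre of the ray class map has Dirichlet density
`≥ 1/|A|` (degree one primes, `O(1)` error).
-/

namespace Fermat.Agent.S48.Cheb.H31

open NumberField IsDedekindDomain Filter Topology Ideal
open Fermat.Agent.Lib.ZetaPrimes Fermat.Agent.Lib.SecondIneq Fermat.Agent.Lib.SecondIneq.H31
open Fermat.Agent.S14.H66
open scoped BigOperators

section Orth

variable {F : Type} [Field F] [NumberField F] {𝔪 : Ideal (𝓞 F)} {A : Type} [CommGroup A]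
  [Finite A] {ψ : Ideal (𝓞 F) → A}

open Classical in
/-- Orthogonality of characters: the sum over a fibre. -/
lemma sum_char_mul_primeSumF [Fintype (A →* ℂˣ)] (hψ : IsRayMap 𝔪 ψ) (x : A) {s : ℝ}
    (hs : 1 < s) :
    ∑ χ : A →* ℂˣ, ((χ x⁻¹ : ℂˣ) : ℂ) * primeSumF (rayChar hψ χ) s =
      (Nat.card A : ℂ) * ((∑' v : {v // rayCls F 𝔪 ψ v = x}, rayWt F 𝔪 s v : ℝ) : ℂ) := by
  have hsum := summable_rayWt F 𝔪 hs
  have hsumχ : ∀ χ : A →* ℂˣ, Summable
      (fun v => ((χ (x⁻¹ * rayCls F 𝔪 ψ v) : ℂˣ) : ℂ) * ((rayWt F 𝔪 s v : ℝ) : ℂ)) := fun χ =>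
    summable_char_mul χ (fun v => x⁻¹ * rayCls F 𝔪 ψ v) (rayWt F 𝔪 s) (rayWt_nonneg F 𝔪 s) hsum
  have h0 : ∀ χ : A →* ℂˣ, ((χ x⁻¹ : ℂˣ) : ℂ) * primeSumF (rayChar hψ χ) s =
      ∑' v, ((χ (x⁻¹ * rayCls F 𝔪 ψ v) : ℂˣ) : ℂ) * ((rayWt F 𝔪 s v : ℝ) : ℂ) := by
    intro χ
    rw [primeSumF_rayChar, ← tsum_mul_left]
    congr 1
    funext v
    rw [map_mul, Units.val_mul, mul_assoc]
  simp_rw [h0]
  rw [← Summable.tsum_finsetSum (fun χ _ => hsumχ χ)]
  have h1 : ∀ v, ∑ χ : A →* ℂˣ,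
      ((χ (x⁻¹ * rayCls F 𝔪 ψ v) : ℂˣ) : ℂ) * ((rayWt F 𝔪 s v : ℝ) : ℂ) =
      (Nat.card A : ℂ) * (({v | rayCls F 𝔪 ψ v = x} : Set (HeightOneSpectrum (𝓞 F))).indicator
        (fun v => ((rayWt F 𝔪 s v : ℝ) : ℂ)) v) := by
    intro v
    rw [← Finset.sum_mul, sum_char_apply]
    by_cases hv : rayCls F 𝔪 ψ v = x
    · have h2 : x⁻¹ * rayCls F 𝔪 ψ v = 1 := by rw [hv, inv_mul_cancel]
      rw [if_pos h2, Set.indicator_of_mem (by exact hv)]
    · have h2 : x⁻¹ * rayCls F 𝔪 ψ v ≠ 1 := by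
        intro h
        apply hv
        rw [inv_mul_eq_one] at h
        exact h.symm
      rw [if_neg h2, Set.indicator_of_notMem (by exact hv)]
      simp
  simp_rw [h1]
  rw [tsum_mul_left]
  congr 1
  rw [Complex.ofReal_tsum]
  exact (tsum_subtype ({v | rayCls F 𝔪 ψ v = x} : Set (HeightOneSpectrum (𝓞 F)))
    (fun v => ((rayWt F 𝔪 s v : ℝ) : ℂ))).symm

end Orth

section Lower

open Classical in
set_option linter.deprecated false in
/-- The lower bound for the trivial fibre. -/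
lemma exists_tsum_fibre_one_ge (F L : Type) [Field F] [NumberField F] [Field L] [NumberField L]
    [Algebra F L] {𝔪 : Ideal (𝓞 F)} {A : Type} [CommGroup A] {ψ : Ideal (𝓞 F) → A}
    (T : Finset ℕ) (h𝔪 : 𝔪 ≠ ⊥)
    (hU : ∀ Q : Ideal (𝓞 L), Q.IsPrime → (Ideal.absNorm Q).Prime → Ideal.absNorm Q ∉ T →
      IsCoprime (Q.under (𝓞 F)) 𝔪 → ψ (Q.under (𝓞 F)) = 1) :
    ∃ C : ℝ, ∀ᶠ s in 𝓝[>] (1 : ℝ), Real.log (1 / (s - 1)) - C
      ≤ (Module.finrank F L : ℝ) * ∑' v : {v // rayCls F 𝔪 ψ v = 1}, rayWt F 𝔪 s v := by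
  have hsF := summable_primeTerm F
  have hsL := summable_primeTerm L
  obtain ⟨C1, hC1⟩ := primeSum_ge L
  obtain ⟨C2, hC2⟩ := notPrimeNorm_le L
  set B : Set (HeightOneSpectrum (𝓞 L)) :=
    {w | absNorm w.asIdeal ∈ T} ∪ {w | ¬ IsCoprime (w.asIdeal.under (𝓞 F)) 𝔪} with hB
  set NP : Set (HeightOneSpectrum (𝓞 L)) := {w | ¬ (absNorm w.asIdeal).Prime} with hNP
  set D : Set (HeightOneSpectrum (𝓞 L)) :=
    {w | (absNorm w.asIdeal).Prime ∧ absNorm w.asIdeal ∉ T ∧
      IsCoprime (w.asIdeal.under (𝓞 F)) 𝔪} with hD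
  set V : Set (HeightOneSpectrum (𝓞 F)) :=
    {v | IsCoprime v.asIdeal 𝔪 ∧ ψ v.asIdeal = 1} with hV
  have hBfin : B.Finite := (finite_absNorm_mem L T).union (finite_not_isCoprime_under F L h𝔪)
  refine ⟨C1 + C2 + B.ncard, ?_⟩
  filter_upwards [hC1, self_mem_nhdsWithin] with s hs hs1
  have hs1' : (1 : ℝ) < s := hs1
  have hSL := hsL s hs1'
  have hSF := hsF s hs1'
  have hsplit := hSL.tsum_subtype_add_tsum_subtype_compl D
  have hcompl : ∑' w : (Dᶜ : Set _), primeTerm L s w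
      ≤ ∑' w : NP, primeTerm L s w + ∑' w : B, primeTerm L s w := by
    rw [tsum_subtype (Dᶜ) (primeTerm L s), tsum_subtype NP (primeTerm L s),
      tsum_subtype B (primeTerm L s), ← (hSL.indicator NP).tsum_add (hSL.indicator B)]
    refine (hSL.indicator _).tsum_le_tsum (fun w => ?_)
      ((hSL.indicator NP).add (hSL.indicator B))
    by_cases hw : w ∈ Dᶜ
    · rw [Set.indicator_of_mem hw]
      by_cases hw1 : w ∈ NP
      · rw [Set.indicator_of_mem hw1]
        have := Set.indicator_nonneg (s := B) (f := primeTerm L s)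
          (fun w _ => primeTerm_nonneg' L s w) w
        linarith
      · have hw2 : w ∈ B := by
          by_contra hw2
          apply hw
          have h1 : absNorm w.asIdeal ∉ T := fun h => hw2 (Or.inl h)
          have h2 : IsCoprime (w.asIdeal.under (𝓞 F)) 𝔪 := by
            by_contra h
            exact hw2 (Or.inr h)
          exact ⟨not_not.mp hw1, h1, h2⟩
        rw [Set.indicator_of_mem hw2]
        have := Set.indicator_nonneg (s := NP) (f := primeTerm L s)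
          (fun w _ => primeTerm_nonneg' L s w) w
        linarith
    · rw [Set.indicator_of_notMem hw]
      exact add_nonneg
        (Set.indicator_nonneg (fun w _ => primeTerm_nonneg' L s w) w)
        (Set.indicator_nonneg (fun w _ => primeTerm_nonneg' L s w) w)
  have hNPle : ∑' w : NP, primeTerm L s w ≤ C2 := hC2 s hs1'
  have hBle : ∑' w : B, primeTerm L s w ≤ B.ncard :=
    NumberField.Set.primeIdealZetaSum_le_card_of_finite hBfin (by linarith)
  have hDle := tsum_le_finrank_mul_set F L V D (fun w hw =>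
    ⟨hw.1, hw.2.2, hU w.asIdeal w.isPrime hw.1 hw.2.1 hw.2.2⟩) s hSF hSL
  have hVle : ∑' v : V, primeTerm F s v ≤ ∑' v : {v // rayCls F 𝔪 ψ v = 1}, rayWt F 𝔪 s v := by
    have e1 := tsum_subtype V (primeTerm F s)
    have e2 : ∑' v : {v // rayCls F 𝔪 ψ v = 1}, rayWt F 𝔪 s v =
        ∑' v, ({v | rayCls F 𝔪 ψ v = 1} : Set (HeightOneSpectrum (𝓞 F))).indicator
          (rayWt F 𝔪 s) v :=
      tsum_subtype ({v | rayCls F 𝔪 ψ v = 1} : Set (HeightOneSpectrum (𝓞 F))) (rayWt F 𝔪 s)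
    rw [e1, e2]
    refine (hSF.indicator V).tsum_le_tsum (fun v => ?_) ((summable_rayWt F 𝔪 hs1').indicator _)
    by_cases hv : v ∈ V
    · have hcv : rayCls F 𝔪 ψ v = 1 := by
        rw [rayCls, if_pos hv.1]
        exact hv.2
      have hv' : v ∈ ({v | rayCls F 𝔪 ψ v = 1} : Set (HeightOneSpectrum (𝓞 F))) := hcv
      rw [Set.indicator_of_mem hv, Set.indicator_of_mem hv', rayWt, if_pos hv.1]
    · rw [Set.indicator_of_notMem hv]
      exact Set.indicator_nonneg (fun v _ => rayWt_nonneg F 𝔪 s v) v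
  have hfin0 : (0 : ℝ) ≤ (Module.finrank F L : ℝ) := Nat.cast_nonneg _
  have hfinal := mul_le_mul_of_nonneg_left hVle hfin0
  linarith

end Lower

section Main

variable (F L : Type) [Field F] [NumberField F] [Field L] [NumberField L] [Algebra F L]

set_option linter.deprecated false in
set_option maxHeartbeats 800000 in
/-- **D1** for a fixed pair `F ⊆ L`. -/
theorem rayDensity_of (𝔪 : Ideal (𝓞 F)) (A : Type) [CommGroup A] [Finite A]
    (ψ : Ideal (𝓞 F) → A) (T : Finset ℕ) (h𝔪 : 𝔪 ≠ ⊥) (hψ : IsRayMap 𝔪 ψ)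
    (hU : ∀ Q : Ideal (𝓞 L), Q.IsPrime → (Ideal.absNorm Q).Prime → Ideal.absNorm Q ∉ T →
      IsCoprime (Q.under (𝓞 F)) 𝔪 → ψ (Q.under (𝓞 F)) = 1)
    (hdeg : Module.finrank F L ≤ Nat.card A) (x : A) :
    ∃ C : ℝ, ∀ s : ℝ, 1 < s → s ≤ 2 →
      Real.log (1 / (s - 1)) / (Nat.card A : ℝ) - C ≤
        ∑' v : {v : HeightOneSpectrum (𝓞 F) //
            IsCoprime v.asIdeal 𝔪 ∧ ψ v.asIdeal = x ∧ (Ideal.absNorm v.asIdeal).Prime},
          primeTerm F s v.1 := by
  classical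
  have hfinχ : Finite (A →* ℂˣ) := finite_monoidHom_units A
  letI : Fintype (A →* ℂˣ) := Fintype.ofFinite _
  have hcard : Module.finrank F L = Nat.card A :=
    le_antisymm hdeg (T2m_of F L stmt_RayCount stmt_MultSum 𝔪 A ψ T h𝔪 hψ hU)
  set a : ℝ := (Nat.card A : ℝ) with ha_def
  have ha : 0 < a := Nat.cast_pos.mpr Nat.card_pos
  -- upper bounds for the real parts, `χ ≠ 1`
  have hup : ∀ χ : A →* ℂˣ, ∃ C : ℝ, 0 ≤ C ∧ (χ ≠ 1 → ∀ s : ℝ, 1 < s → s ≤ 2 →
      (primeSumF (rayChar hψ χ) s).re ≤ C) := by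
    intro χ
    by_cases hχ : χ = 1
    · exact ⟨0, le_rfl, fun h => absurd hχ h⟩
    · obtain ⟨C, hC⟩ := exists_re_tsum_rayChar_le stmt_RayCount stmt_MultSum h𝔪 hψ χ hχ
      exact ⟨max C 0, le_max_right _ _, fun _ s hs1 hs2 =>
        (hC s hs1 hs2).trans (le_max_left _ _)⟩
  choose Cup hCup0 hCup using hup
  obtain ⟨C1, hC1⟩ := exists_tsum_rayWt_le F 𝔪
  obtain ⟨C2, hC2⟩ := exists_tsum_fibre_one_ge F L T h𝔪 hU
  have h12 : ∀ᶠ s in 𝓝[>] (1 : ℝ), 1 < s ∧ s ≤ 2 := by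
    have : Set.Ioc (1 : ℝ) 2 ∈ 𝓝[>] (1 : ℝ) := Ioc_mem_nhdsGT (by norm_num)
    filter_upwards [this] with s hs using hs
  have hRe : ∀ (y : A) (s : ℝ), ((Nat.card A : ℂ) *
      ((∑' v : {v // rayCls F 𝔪 ψ v = y}, rayWt F 𝔪 s v : ℝ) : ℂ)).re =
      a * ∑' v : {v // rayCls F 𝔪 ψ v = y}, rayWt F 𝔪 s v := by
    intro y s
    rw [← Complex.ofReal_natCast, ← Complex.ofReal_mul, Complex.ofReal_re]
  -- Step A: lower bounds for the real parts
  have hA : ∀ χ₀ : A →* ℂˣ, χ₀ ≠ 1 → ∃ C₀ : ℝ, ∀ᶠ s in 𝓝[>] (1 : ℝ),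
      -C₀ ≤ (primeSumF (rayChar hψ χ₀) s).re := by
    intro χ₀ hχ₀
    refine ⟨C2 + C1 + ∑ χ, Cup χ, ?_⟩
    filter_upwards [hC1, hC2, h12] with s h1 h2 hs
    obtain ⟨hs1, hs2⟩ := hs
    have horth := sum_char_mul_primeSumF hψ (1 : A) hs1
    simp only [inv_one, map_one, Units.val_one, one_mul] at horth
    have hre := congrArg Complex.re horth
    rw [Complex.re_sum, hRe] at hre
    have hterm : ∀ χ : A →* ℂˣ, (primeSumF (rayChar hψ χ) s).re ≤
        (if χ = χ₀ then (primeSumF (rayChar hψ χ₀) s).re else 0) +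
        (if χ = 1 then Real.log (1 / (s - 1)) + C1 else 0) + Cup χ := by
      intro χ
      by_cases h0 : χ = χ₀
      · subst h0
        rw [if_pos rfl, if_neg hχ₀]
        have := hCup0 χ
        linarith
      · rw [if_neg h0]
        by_cases h1' : χ = 1
        · subst h1'
          rw [if_pos rfl, primeSumF_rayChar_one, Complex.ofReal_re]
          have := hCup0 (1 : A →* ℂˣ)
          linarith
        · rw [if_neg h1']
          have := hCup χ h1' s hs1 hs2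
          linarith
    have hsum : ∑ χ : A →* ℂˣ, (primeSumF (rayChar hψ χ) s).re ≤
        (primeSumF (rayChar hψ χ₀) s).re + (Real.log (1 / (s - 1)) + C1) + ∑ χ, Cup χ := by
      refine (Finset.sum_le_sum fun χ _ => hterm χ).trans ?_
      rw [Finset.sum_add_distrib, Finset.sum_add_distrib,
        Finset.sum_ite_eq' Finset.univ χ₀, Finset.sum_ite_eq' Finset.univ (1 : A →* ℂˣ),
        if_pos (Finset.mem_univ _), if_pos (Finset.mem_univ _)]
    have h2' : Real.log (1 / (s - 1)) - C2 ≤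
        a * ∑' v : {v // rayCls F 𝔪 ψ v = 1}, rayWt F 𝔪 s v := by
      have : (Module.finrank F L : ℝ) = a := by rw [ha_def, hcard]
      rw [← this]
      exact h2
    linarith
  -- Step B: bounds for the norms
  have hδ : (0 : ℝ) < (Module.finrank ℚ F : ℝ)⁻¹ := by
    have : 0 < Module.finrank ℚ F := Module.finrank_pos
    positivity
  have hB : ∀ χ : A →* ℂˣ, ∃ B : ℝ, 0 ≤ B ∧ (χ ≠ 1 → ∀ s : ℝ, 1 < s → s ≤ 2 →
      ‖primeSumF (rayChar hψ χ) s‖ ≤ B) := by
    intro χ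
    by_cases hχ : χ = 1
    · exact ⟨0, le_rfl, fun h => absurd hχ h⟩
    · obtain ⟨M, hM⟩ := exists_partial_sum_rayChar_le stmt_RayCount h𝔪 hψ χ hχ
      have hpart : ∀ n : ℕ, 1 ≤ n → ‖∑ I ∈ idealsLe F n, rayChar hψ χ I‖ ≤
          M * (n : ℝ) ^ (1 - (Module.finrank ℚ F : ℝ)⁻¹) := by
        intro n hn
        refine hM n hn (idealsLe F n) (fun I => ?_)
        rw [mem_idealsLe]
        tauto
      obtain ⟨B, hB⟩ := exists_norm_primeSumF_le (rayChar hψ χ) (norm_rayChar_le hψ χ) hδ hpart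
        (hA χ hχ)
      exact ⟨max B 0, le_max_right _ _, fun _ s hs1 hs2 =>
        (hB s hs1 hs2).trans (le_max_left _ _)⟩
  choose Bχ hB0 hBχ using hB
  -- Step C: the fibre over `x`
  obtain ⟨C3, hC3⟩ := exists_tsum_rayWt_ge F h𝔪
  obtain ⟨Cnp, hCnp⟩ := notPrimeNorm_le F
  refine ⟨(C3 + ∑ χ, Bχ χ) / a + Cnp, fun s hs1 hs2 => ?_⟩
  have horth := sum_char_mul_primeSumF hψ x hs1
  have hre := congrArg Complex.re horth
  rw [Complex.re_sum, hRe] at hre
  have hterm : ∀ χ : A →* ℂˣ, (if χ = 1 then ∑' v, rayWt F 𝔪 s v else 0) - Bχ χ ≤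
      (((χ x⁻¹ : ℂˣ) : ℂ) * primeSumF (rayChar hψ χ) s).re := by
    intro χ
    by_cases h1 : χ = 1
    · subst h1
      rw [if_pos rfl, primeSumF_rayChar_one]
      simp only [MonoidHom.one_apply, Units.val_one, one_mul, Complex.ofReal_re]
      have := hB0 (1 : A →* ℂˣ)
      linarith
    · rw [if_neg h1, zero_sub]
      have h2 : |(((χ x⁻¹ : ℂˣ) : ℂ) * primeSumF (rayChar hψ χ) s).re| ≤
          ‖((χ x⁻¹ : ℂˣ) : ℂ) * primeSumF (rayChar hψ χ) s‖ := Complex.abs_re_le_norm _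
      rw [norm_mul, norm_unitChar_eq_one, one_mul] at h2
      have h3 := hBχ χ h1 s hs1 hs2
      have h4 := (abs_le.mp (h2.trans h3)).1
      exact h4
  have hsum : ∑' v, rayWt F 𝔪 s v - ∑ χ, Bχ χ ≤
      a * ∑' v : {v // rayCls F 𝔪 ψ v = x}, rayWt F 𝔪 s v := by
    rw [← hre]
    refine le_trans (le_of_eq ?_) (Finset.sum_le_sum fun χ _ => hterm χ)
    rw [Finset.sum_sub_distrib, Finset.sum_ite_eq' Finset.univ (1 : A →* ℂˣ),
      if_pos (Finset.mem_univ _)]
  have hC3s := hC3 s hs1 hs2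
  -- Step D: degree one primes
  have hSF := summable_primeTerm F s hs1
  have hSW := summable_rayWt F 𝔪 hs1
  set D1 : Set (HeightOneSpectrum (𝓞 F)) :=
    {v | IsCoprime v.asIdeal 𝔪 ∧ ψ v.asIdeal = x ∧ (Ideal.absNorm v.asIdeal).Prime} with hD1
  set NP : Set (HeightOneSpectrum (𝓞 F)) := {v | ¬ (absNorm v.asIdeal).Prime} with hNP
  have hNPle : ∑' v : NP, primeTerm F s v ≤ Cnp := hCnp s hs1
  have hD : ∑' v : {v // rayCls F 𝔪 ψ v = x}, rayWt F 𝔪 s v ≤
      ∑' v : D1, primeTerm F s v + ∑' v : NP, primeTerm F s v := by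
    have e0 : ∑' v : {v // rayCls F 𝔪 ψ v = x}, rayWt F 𝔪 s v =
        ∑' v, ({v | rayCls F 𝔪 ψ v = x} : Set (HeightOneSpectrum (𝓞 F))).indicator
          (rayWt F 𝔪 s) v :=
      tsum_subtype ({v | rayCls F 𝔪 ψ v = x} : Set (HeightOneSpectrum (𝓞 F))) (rayWt F 𝔪 s)
    rw [e0, tsum_subtype D1 (primeTerm F s), tsum_subtype NP (primeTerm F s),
      ← (hSF.indicator D1).tsum_add (hSF.indicator NP)]
    refine (hSW.indicator _).tsum_le_tsum (fun v => ?_)
      ((hSF.indicator D1).add (hSF.indicator NP))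
    have hnn : 0 ≤ D1.indicator (primeTerm F s) v + NP.indicator (primeTerm F s) v :=
      add_nonneg (Set.indicator_nonneg (fun v _ => primeTerm_nonneg' F s v) v)
        (Set.indicator_nonneg (fun v _ => primeTerm_nonneg' F s v) v)
    by_cases hv : rayCls F 𝔪 ψ v = x
    · rw [Set.indicator_of_mem (by exact hv)]
      by_cases hc : IsCoprime v.asIdeal 𝔪
      · have hψv : ψ v.asIdeal = x := by
          rw [rayCls, if_pos hc] at hv
          exact hv
        rw [rayWt, if_pos hc]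
        by_cases hp : (absNorm v.asIdeal).Prime
        · have hvD : v ∈ D1 := ⟨hc, hψv, hp⟩
          rw [Set.indicator_of_mem hvD]
          have := Set.indicator_nonneg (s := NP) (f := primeTerm F s)
            (fun v _ => primeTerm_nonneg' F s v) v
          linarith
        · have hvN : v ∈ NP := hp
          rw [Set.indicator_of_mem hvN]
          have := Set.indicator_nonneg (s := D1) (f := primeTerm F s)
            (fun v _ => primeTerm_nonneg' F s v) v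
          linarith
      · rw [rayWt, if_neg hc]
        exact hnn
    · rw [Set.indicator_of_notMem (by exact hv)]
      exact hnn
  -- conclusion
  have hfin : Real.log (1 / (s - 1)) / a - ((C3 + ∑ χ, Bχ χ) / a) ≤
      ∑' v : {v // rayCls F 𝔪 ψ v = x}, rayWt F 𝔪 s v := by
    rw [← sub_div, div_le_iff₀ ha]
    linarith
  have hgoal : ∑' v : D1, primeTerm F s v =
      ∑' v : {v : HeightOneSpectrum (𝓞 F) //
            IsCoprime v.asIdeal 𝔪 ∧ ψ v.asIdeal = x ∧ (Ideal.absNorm v.asIdeal).Prime},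
          primeTerm F s v.1 := rfl
  rw [← hgoal]
  linarith

end Main

/-- **S48 leaf D1**: `Cheb.Stmt_RayDensity`. -/
theorem stmt_RayDensity : Fermat.Agent.S48.Cheb.Stmt_RayDensity := by
  intro F L _ _ _ _ _ 𝔪 A _ _ ψ T h𝔪 hψ hU hdeg x
  exact rayDensity_of F L 𝔪 A ψ T h𝔪 hψ hU hdeg x

end Fermat.Agent.S48.Cheb.H31

end
-- ==== END Fermat.Agent.S48.Cheb.H31_RayDensity

-- ==== BEGIN Fermat.Agent.S48.Cheb.H43_Cyc
section

/-!
# S48 leaf D2: the cyclotomic case of Chebotarev, from `Stmt_RayDensity` (helper43)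

`chebCyc_of : Stmt_RayDensity → Stmt_ChebCyc`.
-/

set_option autoImplicit false
set_option linter.unusedSectionVars false
set_option linter.style.haveILetI false

namespace Fermat.Agent.S48.Cheb.H43

open NumberField IsDedekindDomain Ideal
open Fermat.Agent.Lib Fermat.Agent.Lib.FrobDensity Fermat.Agent.Lib.ZetaPrimes
open scoped IsMulCommutative

variable {N : Type} [Field N] [NumberField N] [IsGalois ℚ N] {m : ℕ} {ζ : N} {a : N ≃ₐ[ℚ] N}

variable (N) in
/-- The rational primes with a ramified prime above them form a finite set. -/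
lemma exists_ramPrimes :
    ∃ R : Finset ℕ, ∀ w : HeightOneSpectrum (𝓞 N), ¬ Unram N w → ratPrime N w ∈ R := by
  classical
  have hfin : {w : HeightOneSpectrum (𝓞 N) | ¬ Unram N w}.Finite := H31.stmt_RamFinite N
  refine ⟨(hfin.image (ratPrime N)).toFinset, fun w hw => ?_⟩
  rw [Set.Finite.mem_toFinset]
  exact ⟨w, hw, rfl⟩

/-- A prime of degree one: its norm is the rational prime below it and the identity is a
Frobenius element. -/
lemma isArithFrobAt_one_of_prime_norm (w : HeightOneSpectrum (𝓞 N))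
    (hp : (absNorm w.asIdeal).Prime) :
    absNorm w.asIdeal = ratPrime N w ∧ IsArithFrobAt ℤ (1 : N ≃ₐ[ℚ] N) w.asIdeal := by
  classical
  have hnorm : absNorm w.asIdeal = ratPrime N w := by
    obtain ⟨f, hf1, hf⟩ := exists_absNorm_eq_pow N w
    have hdvd : ratPrime N w ∣ absNorm w.asIdeal := by
      rw [hf]; exact dvd_pow_self _ (by omega)
    rcases (Nat.dvd_prime hp).mp hdvd with h1 | h1
    · exact absurd h1 (ratPrime_prime N w).one_lt.ne'
    · exact h1.symm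
  refine ⟨hnorm, (H12.isArithFrobAt_int_iff N w 1).mpr fun y => ?_⟩
  rw [one_smul, ← hnorm]
  haveI := w.isPrime
  have hmax : w.asIdeal.IsMaximal := w.isMaximal
  letI := Ideal.Quotient.field w.asIdeal
  haveI : Finite (𝓞 N ⧸ w.asIdeal) := Ideal.finiteQuotientOfFreeOfNeBot _ w.ne_bot
  letI := Fintype.ofFinite (𝓞 N ⧸ w.asIdeal)
  have hcard : Fintype.card (𝓞 N ⧸ w.asIdeal) = absNorm w.asIdeal := by
    rw [Ideal.absNorm_apply, Submodule.cardQuot_apply, Nat.card_eq_fintype_card]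
  have h1 := FiniteField.pow_card (Ideal.Quotient.mk w.asIdeal y)
  rw [hcard, ← map_pow] at h1
  rw [← Ideal.Quotient.eq]
  exact h1.symm

/-- The splitting hypothesis of D1: the prime of `E` under a prime of `N` of degree one (over an
unramified rational prime not dividing `m`) has trivial norm residue symbol. -/
lemma rayNorm_under_of_prime_norm (hm : m ≠ 0) (hζ : IsPrimitiveRoot ζ m)
    (hinj : ∀ k : ℕ, (a ^ k) ζ = ζ → a ^ k = 1) (R : Finset ℕ)
    (hR : ∀ w : HeightOneSpectrum (𝓞 N), ¬ Unram N w → ratPrime N w ∈ R)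
    (Q : Ideal (𝓞 N)) (hQ : Q.IsPrime) (hp : (absNorm Q).Prime) (hT : absNorm Q ∉ R)
    (hc : IsCoprime (Q.under (𝓞 (fixE a))) (modE a m)) :
    rayNorm a ζ (Q.under (𝓞 (fixE a))) = 1 := by
  have hQ0 : Q ≠ ⊥ := by
    rintro rfl
    rw [Ideal.absNorm_bot] at hp
    exact Nat.not_prime_zero hp
  let w : HeightOneSpectrum (𝓞 N) := ⟨Q, hQ, hQ0⟩
  obtain ⟨hnorm, hfrob⟩ := isArithFrobAt_one_of_prime_norm w hp
  have hw : Unram N w := by
    by_contra h
    exact hT (hnorm ▸ hR w h)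
  have hmw : (m : 𝓞 N) ∉ w.asIdeal := by
    intro h
    have hup : (Q.under (𝓞 (fixE a))).IsPrime := Ideal.IsPrime.under (𝓞 (fixE a)) Q
    apply natCast_notMem_of_isCoprime hup hc
    rw [Ideal.under_def, Ideal.mem_comap, map_natCast]
    exact h
  exact (rayNorm_underK hm hζ hinj w hw hmw hfrob (one_mem _)).2

/-- **D2**: the cyclotomic case of Chebotarev, from D1. -/
theorem chebCyc_of (hD1 : Stmt_RayDensity) : Stmt_ChebCyc := by
  classical
  intro N _ _ _ m ζ a hm hζ hinj hneg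
  obtain ⟨R, hR⟩ := exists_ramPrimes N
  have hray := isRayMap_rayNorm hm hζ hinj hneg
  have hfin : Module.finrank (fixE a) N ≤ Nat.card (Subgroup.zpowers a) :=
    le_of_eq (IntermediateField.finrank_fixedField_eq_card (Subgroup.zpowers a))
  obtain ⟨C₁, hC₁⟩ := hD1 (fixE a) N (modE a m) (Subgroup.zpowers a) (rayNorm a ζ) R
    (modE_ne_bot hm) hray
    (fun Q hQ hp hT hc => rayNorm_under_of_prime_norm hm hζ hinj R hR Q hQ hp hT hc) hfin
    ⟨a, Subgroup.mem_zpowers a⟩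
  have hBad : (badSet N (fixE a)).Finite := H31.badSet_finite N (fixE a)
  have hHpos : (0 : ℝ) < (Nat.card (Subgroup.zpowers a) : ℝ) := by exact_mod_cast Nat.card_pos
  refine ⟨(Nat.card (Subgroup.zpowers a) : ℝ) * (C₁ + hBad.toFinset.card), fun s hs1 hs2 => ?_⟩
  have hD := hC₁ s hs1 hs2
  set x : ↥(Subgroup.zpowers a) := ⟨a, Subgroup.mem_zpowers a⟩ with hx
  set PV : HeightOneSpectrum (𝓞 (fixE a)) → Prop := fun v =>
    IsCoprime v.asIdeal (modE a m) ∧ rayNorm a ζ v.asIdeal = x ∧ (absNorm v.asIdeal).Prime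
    with hPV
  have hsumE : Summable (primeTerm (fixE a) s) := summable_primeTerm (fixE a) s hs1
  -- (i) removing the bad primes costs at most `#bad`
  have h_i : ∑' v : {v // PV v}, primeTerm (fixE a) s v.1 ≤
      ∑' v : {v // PV v ∧ v ∉ badSet N (fixE a)}, primeTerm (fixE a) s v.1 +
        hBad.toFinset.card := by
    have e1 : ∑' v : {v // PV v}, primeTerm (fixE a) s v.1 =
        ∑' v, ({v | PV v} : Set _).indicator (primeTerm (fixE a) s) v :=
      tsum_subtype {v | PV v} (primeTerm (fixE a) s)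
    have e2 : ∑' v : {v // PV v ∧ v ∉ badSet N (fixE a)}, primeTerm (fixE a) s v.1 =
        ∑' v, ({v | PV v ∧ v ∉ badSet N (fixE a)} : Set _).indicator (primeTerm (fixE a) s) v :=
      tsum_subtype {v | PV v ∧ v ∉ badSet N (fixE a)} (primeTerm (fixE a) s)
    have e3 : ∑' v, ((hBad.toFinset : Set (HeightOneSpectrum (𝓞 (fixE a)))).indicator
        (fun _ => (1 : ℝ))) v = hBad.toFinset.card := by
      rw [← tsum_subtype, tsum_fintype]
      simp
    have hs3 : Summable ((hBad.toFinset : Set (HeightOneSpectrum (𝓞 (fixE a)))).indicator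
        (fun _ => (1 : ℝ))) := by
      refine summable_of_ne_finset_zero (s := hBad.toFinset) fun v hv => ?_
      exact Set.indicator_of_notMem (by simpa using hv) _
    rw [e1, e2, ← e3, ← (hsumE.indicator _).tsum_add hs3]
    refine (hsumE.indicator _).tsum_le_tsum (fun v => ?_) ((hsumE.indicator _).add hs3)
    by_cases hv : PV v
    · by_cases hb : v ∈ badSet N (fixE a)
      · rw [Set.indicator_of_mem (show v ∈ {v | PV v} from hv),
          Set.indicator_of_notMem (show v ∉ {v | PV v ∧ v ∉ badSet N (fixE a)} from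
            fun h => h.2 hb),
          Set.indicator_of_mem (show v ∈ (hBad.toFinset : Set _) by simpa using hb), zero_add]
        exact H31.primeTerm_le_one' (fixE a) hs1 v
      · rw [Set.indicator_of_mem (show v ∈ {v | PV v} from hv),
          Set.indicator_of_mem (show v ∈ {v | PV v ∧ v ∉ badSet N (fixE a)} from ⟨hv, hb⟩),
          Set.indicator_of_notMem (show v ∉ (hBad.toFinset : Set _) by simpa using hb),
          add_zero]
    · rw [Set.indicator_of_notMem (show v ∉ {v | PV v} from hv),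
        Set.indicator_of_notMem (show v ∉ {v | PV v ∧ v ∉ badSet N (fixE a)} from
          fun h => hv h.1)]
      exact add_nonneg le_rfl (Set.indicator_nonneg (fun _ _ => zero_le_one) v)
  -- (ii) the fibres of `w ↦ w ∩ E`
  have h_ii : (Nat.card (Subgroup.zpowers a) : ℝ) *
      ∑' v : {v // PV v ∧ v ∉ badSet N (fixE a)}, primeTerm (fixE a) s v.1 ≤
        ∑' w : frobEq N a, FrobDensity.wt N s w.1 := by
    set PW : HeightOneSpectrum (𝓞 N) → Prop := fun w =>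
      w ∈ frobEq N a ∧ (m : 𝓞 N) ∉ w.asIdeal with hPW
    have hπ : ∀ w : {w // PW w}, PV (underK N (fixE a) w.1) ∧
        underK N (fixE a) w.1 ∉ badSet N (fixE a) := by
      rintro ⟨w, ⟨hwU, hwF⟩, hmw⟩
      obtain ⟨hnorm, hr⟩ := rayNorm_underK hm hζ hinj w hwU hmw hwF (Subgroup.mem_zpowers a)
      refine ⟨⟨isCoprime_of_natCast_notMem _ (natCast_notMem_underK w hmw), hr, ?_⟩,
        H31.underK_notMem_badSet N (fixE a) w hwU⟩
      rw [hnorm]
      exact ratPrime_prime N w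
    let π : {w // PW w} → {v // PV v ∧ v ∉ badSet N (fixE a)} :=
      fun w => ⟨underK N (fixE a) w.1, hπ w⟩
    let c : {w // PW w} → ℝ :=
      fun w => (decompCard N w.1 : ℝ) / (Nat.card (Subgroup.zpowers a) : ℝ)
    let u : {v // PV v ∧ v ∉ badSet N (fixE a)} → ℝ :=
      fun v => (Nat.card (Subgroup.zpowers a) : ℝ) * primeTerm (fixE a) s v.1
    have hu : Summable u := (hsumE.subtype _).mul_left _
    have hc0 : ∀ w, 0 ≤ c w := fun w => by positivity
    have hu0 : ∀ v, 0 ≤ u v := fun v => by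
      have : 0 ≤ primeTerm (fixE a) s v.1 := primeTerm_nonneg (fixE a) s v.1
      positivity
    have hfib : ∀ y, HasSum (fun w : {w // π w = y} ↦ c w) 1 := by
      rintro ⟨v, ⟨hvc, hvr, hvP⟩, hvB⟩
      obtain ⟨F, hFmem, hFsum⟩ := H84.stmt_FibreCard N (Subgroup.zpowers a) v hvP hvB
      have hFW : ∀ w ∈ F, PW w := by
        intro w hw
        have hwv : underK N (fixE a) w = v := (hFmem w).mp hw
        have hwU : Unram N w := H31.unram_of_underK_notMem_badSet N (fixE a) w (hwv ▸ hvB)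
        have hmw : (m : 𝓞 N) ∉ w.asIdeal := by
          intro h
          have h1 : (m : 𝓞 (fixE a)) ∈ (underK N (fixE a) w).asIdeal := by
            change (m : 𝓞 (fixE a)) ∈ w.asIdeal.under (𝓞 (fixE a))
            rw [Ideal.under_def, Ideal.mem_comap, map_natCast]
            exact h
          rw [hwv] at h1
          exact natCast_notMem_of_isCoprime v.isPrime hvc h1
        have hφ := H31.isArithFrobAt_frobU N ⟨w, hwU⟩
        have hφH : H31.frobU N ⟨w, hwU⟩ ∈ Subgroup.zpowers a := by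
          rw [H12.stmt_Split N _ w _ hwU hφ, hwv]
          exact hvP
        obtain ⟨-, hr⟩ := rayNorm_underK hm hζ hinj w hwU hmw hφ hφH
        rw [hwv, hvr] at hr
        have hfa : a = H31.frobU N ⟨w, hwU⟩ := congrArg Subtype.val hr
        exact ⟨⟨hwU, hfa ▸ hφ⟩, hmw⟩
      let e : (F : Set (HeightOneSpectrum (𝓞 N))) ≃
          {w : {w // PW w} // π w = ⟨v, ⟨hvc, hvr, hvP⟩, hvB⟩} :=
        { toFun := fun w ↦ ⟨⟨w.1, hFW w.1 w.2⟩, Subtype.ext ((hFmem w.1).mp w.2)⟩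
          invFun := fun w ↦ ⟨w.1.1, (hFmem w.1.1).mpr (congrArg Subtype.val w.2)⟩
          left_inv := fun _ ↦ rfl
          right_inv := fun _ ↦ rfl }
      have h1 : HasSum (fun w : (F : Set (HeightOneSpectrum (𝓞 N))) ↦
          (decompCard N w.1 : ℝ) / (Nat.card (Subgroup.zpowers a) : ℝ))
          (∑ w ∈ F, (decompCard N w : ℝ) / (Nat.card (Subgroup.zpowers a) : ℝ)) :=
        F.hasSum (fun w ↦ (decompCard N w : ℝ) / (Nat.card (Subgroup.zpowers a) : ℝ))
      have h2 : ∑ w ∈ F, (decompCard N w : ℝ) / (Nat.card (Subgroup.zpowers a) : ℝ) = 1 := by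
        rw [← Finset.sum_div, ← Nat.cast_sum, hFsum]
        exact div_self hHpos.ne'
      rw [h2] at h1
      exact (e.hasSum_iff (f := fun w : {w : {w // PW w} //
        π w = ⟨v, ⟨hvc, hvr, hvP⟩, hvB⟩} ↦ c w.1)).mp h1
    have hmain := H31.tsum_fibres π c u hc0 hu0 hu hfib
    have hterm : ∀ w : {w // PW w}, c w * u (π w) = FrobDensity.wt N s w.1 := by
      rintro ⟨w, ⟨hwU, hwF⟩, hmw⟩
      obtain ⟨hnorm, -⟩ := rayNorm_underK hm hζ hinj w hwU hmw hwF (Subgroup.mem_zpowers a)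
      change (decompCard N w : ℝ) / (Nat.card (Subgroup.zpowers a) : ℝ) *
        ((Nat.card (Subgroup.zpowers a) : ℝ) * primeTerm (fixE a) s (underK N (fixE a) w)) =
          FrobDensity.wt N s w
      unfold FrobDensity.wt primeTerm
      rw [hnorm]
      field_simp
    have hsumW : ∑' w : {w // PW w}, FrobDensity.wt N s w.1 =
        (Nat.card (Subgroup.zpowers a) : ℝ) *
          ∑' v : {v // PV v ∧ v ∉ badSet N (fixE a)}, primeTerm (fixE a) s v.1 := by
      rw [← tsum_mul_left, ← hmain.tsum_eq]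
      exact tsum_congr (fun w ↦ (hterm w).symm)
    rw [← hsumW]
    have hsN : Summable (fun w : HeightOneSpectrum (𝓞 N) ↦ FrobDensity.wt N s w) :=
      H31.summable_wt N hs1
    have hsW : Summable (fun w : {w // PW w} ↦ FrobDensity.wt N s w.1) := hsN.subtype _
    have hsF : Summable (fun w : frobEq N a ↦ FrobDensity.wt N s w.1) := hsN.subtype _
    refine hsW.tsum_le_tsum_of_inj (fun w : {w // PW w} => (⟨w.1, w.2.1⟩ : frobEq N a)) ?_
      (fun w _ => H31.wt_nonneg' N s w.1) (fun _ => le_rfl) hsF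
    intro w₁ w₂ h
    exact Subtype.ext (congrArg (fun w : frobEq N a => w.1) h)
  calc Real.log (1 / (s - 1)) - (Nat.card (Subgroup.zpowers a) : ℝ) * (C₁ + hBad.toFinset.card)
      = (Nat.card (Subgroup.zpowers a) : ℝ) *
          (Real.log (1 / (s - 1)) / (Nat.card (Subgroup.zpowers a) : ℝ) - C₁
            - hBad.toFinset.card) := by
        field_simp
        ring
    _ ≤ (Nat.card (Subgroup.zpowers a) : ℝ) *
          ∑' v : {v // PV v ∧ v ∉ badSet N (fixE a)}, primeTerm (fixE a) s v.1 := by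
        apply mul_le_mul_of_nonneg_left _ hHpos.le
        linarith
    _ ≤ _ := h_ii

end Fermat.Agent.S48.Cheb.H43

end
-- ==== END Fermat.Agent.S48.Cheb.H43_Cyc

-- ==== BEGIN Fermat.Agent.S48.Int.H55_NebGS
section

/-!
# S48, leaf A: Galois stability for cusp forms of weight one with nebentypus (helper55)

`f ∈ S₁(N, χ)`, `χ` odd, `E = E_{χ⁻¹}` of weight 3: `G = f E ∈ S₄(Γ₀(N))`, `P = f ^ m ∈ S_m(Γ₀(N))`.
Conjugates `G'`, `P'` (S23), `E' = E_{(σ ∘ χ)⁻¹}`; `G' ^ m = P' E' ^ m`, so `h = G' / E'` is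
holomorphic, `h ^ m = P'`, and `h` is the conjugate of `f`.
-/

set_option autoImplicit false

open CongruenceSubgroup UpperHalfPlane ModularForm
open scoped MatrixGroups ModularForm Manifold

namespace Fermat.Agent.S48.Int.H55

open Fermat.Agent.S23.H22 (Nice nice_of_modularForm)
open Fermat.Agent.NEB.H34 (sigmaChi)

/-- Conjugating the Eisenstein coefficient series conjugates the character. -/
theorem eisSeries_map (N : ℕ) (ψ : DirichletCharacter ℂ N) (σ : ℂ →+* ℂ) :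
    (eisSeries N ψ).map σ = eisSeries N (ψ.ringHomComp σ) := by
  ext n
  simp only [eisSeries, PowerSeries.coeff_map, PowerSeries.coeff_mk, sigmaChi, map_sum, map_mul,
    map_pow, map_natCast, MulChar.ringHomComp_apply]

/-- Cusp forms on `Γ₀(N)` vanish at `i∞` after any `SL(2, ℤ)`-translate. -/
theorem isZeroAtImInfty_slash_G0 {N : ℕ} [NeZero N] {k : ℤ} (P : CuspForm (Gamma0 N) k)
    (A : SL(2, ℤ)) : IsZeroAtImInfty ((P : ℍ → ℂ) ∣[k] A) := by
  have hc : IsCusp (Matrix.SpecialLinearGroup.mapGL ℝ A • OnePoint.infty) 𝒮ℒ :=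
    isCusp_SL2Z_iff'.mpr ⟨A, rfl⟩
  have hc' : IsCusp (Matrix.SpecialLinearGroup.mapGL ℝ A • OnePoint.infty)
      ((Gamma0 N : Subgroup SL(2, ℤ)) : Subgroup (GL (Fin 2) ℝ)) :=
    (Subgroup.IsArithmetic.isCusp_iff_isCusp_SL2Z _).mpr hc
  have hz := P.zero_at_cusps' hc'
  rw [OnePoint.isZeroAt_iff_forall_SL2Z hc] at hz
  exact hz A rfl

/-- The slash action on powers. -/
theorem pow_slash_SL2 (h : ℍ → ℂ) (m : ℕ) (k : ℤ) (A : SL(2, ℤ)) :
    (h ^ m) ∣[k * m] A = (h ∣[k] A) ^ m := by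
  induction m with
  | zero =>
    ext z
    simp [SL_slash_apply]
  | succ m ih =>
    have h1 : k * ((m + 1 : ℕ) : ℤ) = k * m + k := by push_cast; ring
    rw [h1, pow_succ, mul_slash_SL2, ih, pow_succ]

/-- Division with a root relation. -/
theorem exists_root_div (m : ℕ) (hm : 0 < m) (G D P : ℍ → ℂ) (hG : MDiff G) (hD : MDiff D)
    (hP : MDiff P) (hD0 : D ≠ 0) (hrel : ∀ z, G z ^ m = P z * D z ^ m) :
    ∃ h : ℍ → ℂ, MDiff h ∧ (∀ z, h z * D z = G z) ∧ ∀ z, h z ^ m = P z := by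
  obtain ⟨μ, rfl⟩ : ∃ μ, m = μ + 1 := ⟨m - 1, by omega⟩
  let c : ℕ → ℍ → ℂ := fun j => if j = μ then fun z => -P z else 0
  have hc : ∀ j, MDiff (c j) := by
    intro j
    simp only [c]
    split_ifs
    · exact hP.neg
    · exact mdifferentiable_const
  have hrel' : ∀ z, G z ^ (μ + 1) +
      ∑ j ∈ Finset.range (μ + 1), c j z * D z ^ (j + 1) * G z ^ (μ - j) = 0 := by
    intro z
    rw [Finset.sum_eq_single μ]
    · simp only [c, if_true, Nat.sub_self, pow_zero, mul_one]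
      rw [hrel z]; ring
    · intro j _ hj
      simp [c, hj]
    · intro h
      exact absurd (Finset.mem_range.2 (Nat.lt_succ_self μ)) h
  obtain ⟨h, hh, hhD⟩ := Fermat.Agent.S23.H96.exists_mdiff_div μ G D hG hD hD0 c hc hrel'
  refine ⟨h, hh, hhD, ?_⟩
  have hDm : MDiff (D ^ (μ + 1)) := hD.pow _
  have hDm0 : D ^ (μ + 1) ≠ 0 := by
    intro h0
    apply hD0
    ext z
    have := congrFun h0 z
    simpa using this
  have hF : MDiff (h ^ (μ + 1) - P) := (hh.pow _).sub hP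
  have hzero := Fermat.Agent.S23.H96.mdiff_eq_zero_of_mul_eq_zero (h ^ (μ + 1) - P) (D ^ (μ + 1))
    hF hDm hDm0 (fun z => by
      simp only [Pi.sub_apply, Pi.pow_apply]
      rw [sub_mul, ← mul_pow, hhD z, hrel z, sub_self])
  intro z
  have := congrFun hzero z
  simpa [sub_eq_zero] using this

/-- A function whose `m`-th power vanishes at `i∞` vanishes at `i∞`. -/
theorem isZeroAtImInfty_of_pow (m : ℕ) (hm : 0 < m) (g P : ℍ → ℂ) (hP : IsZeroAtImInfty P)
    (hrel : ∀ z, g z ^ m = P z) : IsZeroAtImInfty g := by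
  obtain ⟨μ, rfl⟩ : ∃ μ, m = μ + 1 := ⟨m - 1, by omega⟩
  let c : ℕ → ℍ → ℂ := fun j => if j = μ then fun z => -P z else 0
  refine Fermat.Agent.S23.H96.isZeroAtImInfty_of_monic_rel μ g c (fun j => ?_) (fun z => ?_)
  · simp only [c]
    split_ifs
    · exact hP.neg
    · exact Filter.zero_zeroAtFilter _
  · rw [Finset.sum_eq_single μ]
    · simp only [c, if_true, Nat.sub_self, pow_zero, mul_one]
      rw [hrel z]; ring
    · intro j _ hj
      simp [c, hj]
    · intro h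
      exact absurd (Finset.mem_range.2 (Nat.lt_succ_self μ)) h


/-- Build a cusp form on `Γ₁(N)`. -/
def mkCusp1 (N : ℕ) [NeZero N] (k : ℤ) (g : ℍ → ℂ) (hg : MDiff g)
    (hinv : ∀ γ : SL(2, ℤ), γ ∈ Gamma1 N → g ∣[k] γ = g)
    (hzero : ∀ A : SL(2, ℤ), IsZeroAtImInfty (g ∣[k] A)) : CuspForm (Gamma1 N) k where
  toFun := g
  slash_action_eq' := by
    intro A hA
    obtain ⟨γ, hγ, rfl⟩ := hA
    exact hinv γ hγ
  holo' := hg
  zero_at_cusps' := by
    intro c hc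
    rw [Subgroup.IsArithmetic.isCusp_iff_isCusp_SL2Z] at hc
    rw [OnePoint.isZeroAt_iff_forall_SL2Z hc]
    intro γ _
    exact hzero γ

theorem mkCusp1_coe (N : ℕ) [NeZero N] (k : ℤ) (g : ℍ → ℂ) (hg : MDiff g)
    (hinv : ∀ γ : SL(2, ℤ), γ ∈ Gamma1 N → g ∣[k] γ = g)
    (hzero : ∀ A : SL(2, ℤ), IsZeroAtImInfty (g ∣[k] A)) :
    ((mkCusp1 N k g hg hinv hzero : CuspForm (Gamma1 N) k) : ℍ → ℂ) = g := rfl

theorem eisSeries_ne_zero (N : ℕ) (ψ : DirichletCharacter ℂ N) : eisSeries N ψ ≠ 0 := by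
  intro h
  have h1 := congrArg (PowerSeries.coeff 1) h
  simp [eisSeries, sigmaChi_one] at h1

theorem slash_eq_G0 {N : ℕ} [NeZero N] {k : ℤ} (G : CuspForm (Gamma0 N) k) {γ : SL(2, ℤ)}
    (hγ : γ ∈ Gamma0 N) : (G : ℍ → ℂ) ∣[k] γ = G :=
  SlashInvariantFormClass.slash_action_eq G (Matrix.SpecialLinearGroup.mapGL ℝ γ) ⟨γ, hγ, rfl⟩

/-- **A-NebGS** from the sub-leaves. -/
theorem stmt_NebGS_of (hEis : Stmt_Eis) (hProd : Stmt_Prod) (hPow : Stmt_Pow) : Stmt_NebGS := by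
  intro N _ hN χ f hf σ
  by_cases hχ : χ (-1) = -1
  swap
  · have h0 : (f : ℍ → ℂ) = 0 := eq_zero_of_hasNeb_of_ne hf hχ
    refine ⟨0, ?_⟩
    have hq : qExpansion 1 (f : ℍ → ℂ) = 0 := by
      have h1 := Nice.qExpansion_smul (h := 1) one_pos (nice_G1 f) (0 : ℂ)
      rw [h0] at h1 ⊢
      simpa using h1
    have hq0 : qExpansion 1 ((0 : CuspForm (Gamma1 N) 1) : ℍ → ℂ) = 0 := by
      have h1 := Nice.qExpansion_smul (h := 1) one_pos (nice_G1 (0 : CuspForm (Gamma1 N) 1)) (0 : ℂ)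
      simpa using h1
    rw [hq, hq0, map_zero]
  -- the odd case
  have hψ : χ⁻¹ (-1) = -1 := by
    rw [MulChar.inv_apply_eq_inv', hχ]
    norm_num
  have hψ' : (χ⁻¹.ringHomComp σ) (-1) = -1 := by
    rw [MulChar.ringHomComp_apply, hψ, map_neg, map_one]
  obtain ⟨E, hEd, hEb, hEn, hEq⟩ := hEis N hN χ⁻¹ hψ
  obtain ⟨E', hE'd, hE'b, hE'n, hE'q⟩ := hEis N hN (χ⁻¹.ringHomComp σ) hψ'
  obtain ⟨G, hGf, hGq⟩ := hProd N χ 1 3 f E hf hEd hEb hEn
  obtain ⟨m, hm, hχm⟩ : ∃ m : ℕ, 0 < m ∧ χ ^ m = 1 :=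
    ⟨orderOf χ, orderOf_pos χ, pow_orderOf_eq_one χ⟩
  obtain ⟨P, hPf, hPq⟩ := hPow N χ 1 f m hm hχm hf
  obtain ⟨G', hG'q⟩ := Fermat.Agent.S23.H22.galois_stable_of_Dhat N
    (Fermat.Agent.S23.H96.Dhat_ne_zero N) σ G
  obtain ⟨P', hP'q⟩ := Fermat.Agent.S23.H22.galois_stable_of_Dhat N
    (Fermat.Agent.S23.H96.Dhat_ne_zero N) σ P
  have hE'nice : Nice 1 E' := Fermat.Agent.S48.Int.H22.nice_of_hasNeb hE'n hE'd hE'b
  have hG'nice : Nice 1 (G' : ℍ → ℂ) := Fermat.Agent.S23.H22.nice_G0 N G'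
  have hP'nice : Nice 1 (P' : ℍ → ℂ) := Fermat.Agent.S23.H22.nice_G0 N P'
  -- the root relation
  have hrelfun : (G' : ℍ → ℂ) ^ m = (P' : ℍ → ℂ) * E' ^ m := by
    apply Nice.eq_of_qExpansion_eq one_pos (hG'nice.pow m) (hP'nice.mul (hE'nice.pow m))
    rw [Nice.qExpansion_pow one_pos hG'nice, Nice.qExpansion_mul one_pos hP'nice (hE'nice.pow m),
      Nice.qExpansion_pow one_pos hE'nice, hG'q, hP'q, hGq, hPq, hE'q, hEq, map_mul, map_pow,
      eisSeries_map, mul_pow]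
  have hE'0 : E' ≠ 0 := by
    intro h0
    have h1 := Nice.qExpansion_smul (h := 1) one_pos hE'nice (0 : ℂ)
    rw [h0] at hE'q
    have h2 : qExpansion 1 (0 : ℍ → ℂ) = 0 := by
      rw [h0] at h1
      simpa using h1
    rw [h2] at hE'q
    exact eisSeries_ne_zero N _ hE'q.symm
  obtain ⟨h, hh, hhE, hhP⟩ := exists_root_div m hm (G' : ℍ → ℂ) E' (P' : ℍ → ℂ)
    (CuspFormClass.holo G') hE'd (CuspFormClass.holo P') hE'0
    (fun z => by
      have := congrFun hrelfun z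
      simpa using this)
  have hhEfun : h * E' = (G' : ℍ → ℂ) := funext hhE
  have hhPfun : h ^ m = (P' : ℍ → ℂ) := funext hhP
  -- invariance under `Γ₁(N)`
  have hinv : ∀ γ : SL(2, ℤ), γ ∈ Gamma1 N → h ∣[(1 : ℤ)] γ = h := by
    intro γ hγ
    have hγ0 : γ ∈ Gamma0 N := Gamma1_in_Gamma0 N hγ
    have hE'γ : E' ∣[(3 : ℤ)] γ = E' := Fermat.Agent.S48.Int.H22.slash_eq_of_hasNeb hE'n hγ
    have hG'γ : (G' : ℍ → ℂ) ∣[(1 + 3 : ℤ)] γ = G' := slash_eq_G0 G' hγ0
    have h1 : (h ∣[(1 : ℤ)] γ) * E' = h * E' := by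
      calc (h ∣[(1 : ℤ)] γ) * E' = (h ∣[(1 : ℤ)] γ) * (E' ∣[(3 : ℤ)] γ) := by rw [hE'γ]
        _ = (h * E') ∣[(1 + 3 : ℤ)] γ := (mul_slash_SL2 1 3 γ h E').symm
        _ = h * E' := by rw [hhEfun, hG'γ]
    have hF : MDiff (h ∣[(1 : ℤ)] γ - h) := (hh.slash 1 _).sub hh
    have hzero := Fermat.Agent.S23.H96.mdiff_eq_zero_of_mul_eq_zero (h ∣[(1 : ℤ)] γ - h) E'
      hF hE'd hE'0 (fun z => by
        have := congrFun h1 z
        simp only [Pi.mul_apply] at this
        simp only [Pi.sub_apply, sub_mul, this, sub_self])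
    exact sub_eq_zero.1 hzero
  -- vanishing at the cusps
  have hzero : ∀ A : SL(2, ℤ), IsZeroAtImInfty (h ∣[(1 : ℤ)] A) := by
    intro A
    refine isZeroAtImInfty_of_pow m hm (h ∣[(1 : ℤ)] A) ((P' : ℍ → ℂ) ∣[(1 * m : ℤ)] A)
      (isZeroAtImInfty_slash_G0 P' A) (fun z => ?_)
    have := congrFun (pow_slash_SL2 h m 1 A) z
    rw [hhPfun] at this
    rw [this]
    rfl
  refine ⟨mkCusp1 N 1 h hh hinv hzero, ?_⟩
  rw [mkCusp1_coe]
  have hhnice : Nice 1 h := by
    have := nice_G1 (mkCusp1 N 1 h hh hinv hzero)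
    rwa [mkCusp1_coe] at this
  have hmul : qExpansion 1 h * qExpansion 1 E' =
      (qExpansion 1 (f : ℍ → ℂ)).map σ * qExpansion 1 E' := by
    rw [← Nice.qExpansion_mul one_pos hhnice hE'nice, hhEfun, hG'q, hGq, map_mul, hE'q, hEq,
      eisSeries_map]
  have hne : qExpansion 1 E' ≠ 0 := by
    rw [hE'q]
    exact eisSeries_ne_zero N _
  exact mul_right_cancel₀ hne hmul

end Fermat.Agent.S48.Int.H55

end
-- ==== END Fermat.Agent.S48.Int.H55_NebGS
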