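-- GENERATED (merged mirror, NOTES/tools/trim/merge3_helper67.py): 1 modules of the originals, bodies verbatim.
import Fermat.Agent.Zm.S48_L04_002

-- ==== BEGIN Fermat.Agent.S48.Cheb.H43_BridgeMain
section

/-!
# S48 leaf D4: `Stmt_ChebNF → S48.Stmt_Cheb` (helper43)

`cheb_galois`: for a finite Galois `L ⊆ ℚ̄` through which `r` factors; `cheb_of_nf`: the bridge.
-/

set_option autoImplicit false
set_option linter.unusedSectionVars false
set_option linter.style.haveILetI false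

namespace Fermat.Agent.S48.Cheb.H43

open NumberField IsDedekindDomain Ideal
open Fermat.Agent.Lib Fermat.Agent.Lib.FrobDensity Fermat.Agent.Lib.ZetaPrimes
open scoped Pointwise

local notation "Γℚ" => (AlgebraicClosure ℚ ≃ₐ[ℚ] AlgebraicClosure ℚ)

attribute [local instance] Fermat.Agent.Lib.FrobIntegers.qbar_isAlgebraic
  Fermat.Agent.Lib.FrobIntegers.qbar_isAlgClosure Fermat.Agent.Lib.FrobIntegers.qbar_isGalois

section

variable (L : IntermediateField ℚ (AlgebraicClosure ℚ)) [NumberField L] [IsGalois ℚ L]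
variable {G : Type} [Group G] (r : Γℚ →* G)

/-- A prime with Frobenius in the preimage of the conjugacy class of `g` is in `frobPrimes r g`. -/
theorem mem_frobPrimes_of_isConj (hL : ∀ σ : Γℚ, (∀ x ∈ L, σ x = x) → r σ = 1)
    (hr : Function.Surjective r)
    (w : HeightOneSpectrum (𝓞 L)) (hw : Unram L w) {τ : L ≃ₐ[ℚ] L}
    (hτ : IsArithFrobAt ℤ τ w.asIdeal) {g : G} (hg : IsConj g (rbar L r hL τ)) :
    ratPrime L w ∈ Fermat.Agent.S48.frobPrimes r g := by
  obtain ⟨c, hc⟩ := isConj_iff.mp hg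
  obtain ⟨ξ, hξ⟩ := rbar_surjective L r hL hr c⁻¹
  obtain ⟨w', hw', hfr, hrat⟩ := exists_conj_frob L w hw hτ ξ
  rw [← hrat]
  refine mem_frobPrimes L r hL w' hw' hfr ?_
  rw [map_mul, map_mul, map_inv, hξ, ← hc]
  group

/-- Finite partial sums approximate the sum of a nonnegative summable family. -/
lemma exists_finset_sum_ge {X : Type*} {f : X → ℝ} (hf : Summable f) :
    ∃ W : Finset X, ∑' x, f x - 1 ≤ ∑ x ∈ W, f x := by
  by_contra hcon
  push Not at hcon
  have h1 : ∑' x, f x ≤ ∑' x, f x - 1 :=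
    hf.tsum_le_of_sum_le (fun W => (hcon W).le)
  linarith

theorem cheb_galois (hNF : Stmt_ChebNF) [Finite G]
    (hL : ∀ σ : Γℚ, (∀ x ∈ L, σ x = x) → r σ = 1) (hr : Function.Surjective r)
    (S : Finset ℕ) (g : G) (η : ℝ) (hη : 0 < η) :
    ∃ C : ℝ, ∀ s : ℝ, 1 < s → s ≤ 2 →
      ∃ T : Finset ℕ, (∀ p ∈ T, p ∈ Fermat.Agent.S48.frobPrimes r g ∧ p ∉ S) ∧
        (1 - η) * ((Nat.card {h : G // IsConj g h} : ℝ) / (Nat.card G : ℝ)) *
            Real.log (1 / (s - 1)) - C ≤ ∑ p ∈ T, (p : ℝ) ^ (-s) := by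
  classical
  have hρ := rbar_surjective L r hL hr
  haveI : Fintype (L ≃ₐ[ℚ] L) := Fintype.ofFinite _
  let P : Finset (L ≃ₐ[ℚ] L) := Finset.univ.filter (fun τ => IsConj g (rbar L r hL τ))
  choose Cτ hCτ using fun τ : (L ≃ₐ[ℚ] L) => hNF L τ η hη
  set n : ℝ := (Nat.card (L ≃ₐ[ℚ] L) : ℝ) with hn_def
  have hn : 0 < n := by
    rw [hn_def]
    exact_mod_cast Nat.card_pos
  have hGpos : (0 : ℝ) < (Nat.card G : ℝ) := by exact_mod_cast Nat.card_pos
  -- the counting identity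
  have hcount : (P.card : ℝ) / n =
      (Nat.card {h : G // IsConj g h} : ℝ) / (Nat.card G : ℝ) := by
    have h1 := card_preimage_mul (rbar L r hL) hρ (fun h => IsConj g h)
    have h2 : Nat.card {τ : L ≃ₐ[ℚ] L // IsConj g (rbar L r hL τ)} = P.card := by
      rw [Nat.card_eq_fintype_card, Fintype.card_subtype]
    rw [h2] at h1
    rw [div_eq_div_iff hn.ne' hGpos.ne', hn_def]
    exact_mod_cast h1
  refine ⟨(∑ τ ∈ P, Cτ τ + 1 + n * S.card) / n, fun s hs1 hs2 => ?_⟩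
  set f : HeightOneSpectrum (𝓞 L) → ℝ := fun w => FrobDensity.wt L s w with hf_def
  have hf0 : ∀ w, 0 ≤ f w := fun w => H31.wt_nonneg' L s w
  have hfsum : Summable f := H31.summable_wt L hs1
  let U : Set (HeightOneSpectrum (𝓞 L)) :=
    {w | Unram L w ∧ ∃ τ ∈ P, IsArithFrobAt ℤ τ w.asIdeal}
  -- step 1
  have hstep1 : ∑ τ ∈ P, ∑' w : frobEq L τ, f w ≤ ∑' w, U.indicator f w := by
    have h1 : ∀ τ : L ≃ₐ[ℚ] L, ∑' w : frobEq L τ, f w = ∑' w, (frobEq L τ).indicator f w :=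
      fun τ => tsum_subtype _ _
    simp_rw [h1]
    rw [← Summable.tsum_finsetSum (fun τ _ => hfsum.indicator _)]
    refine Summable.tsum_le_tsum (fun w => ?_) (summable_sum fun τ _ => hfsum.indicator _)
      (hfsum.indicator _)
    by_cases hwU : w ∈ U
    · obtain ⟨hun, τ₀, hτ₀P, hτ₀⟩ := hwU
      rw [Set.indicator_of_mem (show w ∈ U from ⟨hun, τ₀, hτ₀P, hτ₀⟩)]
      rw [Finset.sum_eq_single τ₀]
      · exact Set.indicator_le_self' (fun _ _ => hf0 w) w
      · intro τ _ hne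
        apply Set.indicator_of_notMem
        rintro ⟨-, hτ⟩
        apply hne
        rw [H31.eq_frobU L ⟨w, hun⟩ hτ, H31.eq_frobU L ⟨w, hun⟩ hτ₀]
      · intro h
        exact absurd hτ₀P h
    · rw [Set.indicator_of_notMem hwU]
      apply le_of_eq
      apply Finset.sum_eq_zero
      intro τ hτ
      apply Set.indicator_of_notMem
      rintro ⟨hun, hfr⟩
      exact hwU ⟨hun, τ, hτ, hfr⟩
  -- step 2
  obtain ⟨W₀, hW₀⟩ := exists_finset_sum_ge (hfsum.indicator U)
  -- step 3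
  let W₁ : Finset (HeightOneSpectrum (𝓞 L)) := W₀.filter (fun w => w ∈ U ∧ ratPrime L w ∉ S)
  let W₂ : Finset (HeightOneSpectrum (𝓞 L)) := W₀.filter (fun w => w ∈ U ∧ ratPrime L w ∈ S)
  have hsplit : ∑ w ∈ W₀, U.indicator f w = ∑ w ∈ W₁, f w + ∑ w ∈ W₂, f w := by
    rw [Finset.sum_indicator_eq_sum_filter,
      ← Finset.sum_filter_add_sum_filter_not (W₀.filter (fun w => w ∈ U))
        (fun w => ratPrime L w ∉ S)]
    congr 1
    · refine Finset.sum_congr ?_ (fun _ _ => rfl)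
      ext w
      simp only [Finset.mem_filter, W₁]
      tauto
    · refine Finset.sum_congr ?_ (fun _ _ => rfl)
      ext w
      simp only [Finset.mem_filter, W₂, not_not]
      tauto
  have hW₂ : ∑ w ∈ W₂, f w ≤ n * S.card := by
    refine (sum_wt_le L W₂ s).trans ?_
    refine mul_le_mul_of_nonneg_left ?_ hn.le
    have hsub : W₂.image (ratPrime L) ⊆ S := by
      intro p hp
      obtain ⟨w, hw, rfl⟩ := Finset.mem_image.mp hp
      exact (Finset.mem_filter.mp hw).2.2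
    calc ∑ p ∈ W₂.image (ratPrime L), (p : ℝ) ^ (-s)
        ≤ ∑ p ∈ W₂.image (ratPrime L), (1 : ℝ) := by
          refine Finset.sum_le_sum (fun p hp => ?_)
          obtain ⟨w, -, rfl⟩ := Finset.mem_image.mp hp
          exact H31.ratPrime_rpow_le_one L hs1 w
      _ = ((W₂.image (ratPrime L)).card : ℝ) := by simp
      _ ≤ (S.card : ℝ) := by exact_mod_cast Finset.card_le_card hsub
  have hW₁ := sum_wt_le L W₁ s
  -- step 4
  have hsumτ : (P.card : ℝ) * ((1 - η) * Real.log (1 / (s - 1))) - ∑ τ ∈ P, Cτ τ ≤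
      ∑ τ ∈ P, ∑' w : frobEq L τ, f w := by
    have : ∑ τ ∈ P, ((1 - η) * Real.log (1 / (s - 1)) - Cτ τ) ≤
        ∑ τ ∈ P, ∑' w : frobEq L τ, f w :=
      Finset.sum_le_sum (fun τ _ => hCτ τ s hs1 hs2)
    rw [Finset.sum_sub_distrib, Finset.sum_const, nsmul_eq_mul] at this
    exact this
  refine ⟨W₁.image (ratPrime L), ?_, ?_⟩
  · intro p hp
    obtain ⟨w, hw, rfl⟩ := Finset.mem_image.mp hp
    obtain ⟨-, ⟨hun, τ, hτP, hτ⟩, hS⟩ := Finset.mem_filter.mp hw
    refine ⟨?_, hS⟩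
    exact mem_frobPrimes_of_isConj L r hL hr w hun hτ (Finset.mem_filter.mp hτP).2
  · rw [← hcount]
    have hkey : (P.card : ℝ) * ((1 - η) * Real.log (1 / (s - 1))) -
        (∑ τ ∈ P, Cτ τ + 1 + n * S.card) ≤ n * ∑ p ∈ W₁.image (ratPrime L), (p : ℝ) ^ (-s) := by
      linarith
    rw [← sub_nonneg] at hkey ⊢
    have hrw : ∑ p ∈ W₁.image (ratPrime L), (p : ℝ) ^ (-s) -
        ((1 - η) * ((P.card : ℝ) / n) * Real.log (1 / (s - 1)) -
          (∑ τ ∈ P, Cτ τ + 1 + n * S.card) / n) =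
        (n * ∑ p ∈ W₁.image (ratPrime L), (p : ℝ) ^ (-s) -
          ((P.card : ℝ) * ((1 - η) * Real.log (1 / (s - 1))) -
            (∑ τ ∈ P, Cτ τ + 1 + n * S.card))) / n := by
      field_simp
    rw [hrw]
    exact div_nonneg hkey hn.le

end

/-- **D4**: Chebotarev for number fields gives Chebotarev for `Γℚ`. -/
theorem cheb_of_nf (hNF : Stmt_ChebNF) : Fermat.Agent.S48.Stmt_Cheb := by
  intro G _ _ r hfl hr S g η hη
  obtain ⟨L₀, hfd, hL₀⟩ := hfl
  have : FiniteDimensional ℚ L₀ := hfd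
  set L : IntermediateField ℚ (AlgebraicClosure ℚ) :=
    IntermediateField.normalClosure ℚ L₀ (AlgebraicClosure ℚ) with hL
  have hfdL : FiniteDimensional ℚ L := inferInstance
  have hnQ : Normal ℚ (AlgebraicClosure ℚ) := IsGalois.to_normal
  have hnorm : Normal ℚ L := normalClosure.normal ℚ L₀ (AlgebraicClosure ℚ)
  have hnf : NumberField L := { to_charZero := inferInstance, to_finiteDimensional := hfdL }
  have hgal : IsGalois ℚ L := { to_isSeparable := inferInstance, to_normal := hnorm }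
  exact cheb_galois L r hNF (fun σ hσ => hL₀ σ (fun x hx => hσ x (L₀.le_normalClosure hx)))
    hr S g η hη

end Fermat.Agent.S48.Cheb.H43

end
-- ==== END Fermat.Agent.S48.Cheb.H43_BridgeMain
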