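-- GENERATED (merged mirror, NOTES/tools/trim/merge3_helper67.py): 7 modules of the originals, bodies verbatim.
import Mathlib
import Fermat.Agent.Zm.S48_L05_000
import Fermat.Agent.Zm.S48_L02_003
import Fermat.Agent.Zm.S48_L05_001
import Fermat.Agent.Zm.S48_L02_001
import Fermat.Agent.Zm.S48_L03_001
import Fermat.Agent.Zm.S48_L05_002
import Fermat.Agent.Zm.S48_L01_002
import Fermat.Agent.Zm.S48_L05_004

-- ==== BEGIN Fermat.Agent.NEB.H94_Mono
section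

/-!
# Item 72 (LG-NEB), package FH-FF (c) (helper94): `F_{H'} ⊆ F_H` for `H ≤ H'`

`FHQ_mono_sub : H ≤ H' → FHQ M c H' ≤ FHQ M c H`, because
`e_{±aH'} = ∑_{κ ∈ ±H' / ±H} e_{± a r_κ H}`.
-/

set_option autoImplicit false
set_option linter.style.haveILetI false
set_option linter.unusedSectionVars false

noncomputable section

namespace Fermat.Agent.NEB.H94

open AlgebraicCurve ModularCurve IntermediateField

variable {c : ℕ}

/-- `cosetSet c H a` is the image of the coset `a (±H)`. -/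
theorem mem_cosetSet_iff (H : Subgroup (ZMod c)ˣ) (a : (ZMod c)ˣ) (x : ZMod c) :
    x ∈ cosetSet c H a ↔ ∃ d ∈ pmSubgroup c H, x = ((a * d : (ZMod c)ˣ) : ZMod c) := by
  constructor
  · rintro ⟨h, hh, rfl | rfl⟩
    · exact ⟨h, Or.inl hh, rfl⟩
    · refine ⟨-h, Or.inr (by rwa [neg_neg]), ?_⟩
      rw [mul_neg, Units.val_neg]
  · rintro ⟨d, hd | hd, rfl⟩
    · exact ⟨d, hd, Or.inl rfl⟩
    · refine ⟨-d, hd, Or.inr ?_⟩
      rw [mul_neg, Units.val_neg, neg_neg]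

theorem pmSubgroup_mono {H H' : Subgroup (ZMod c)ˣ} (h : H ≤ H') :
    pmSubgroup c H ≤ pmSubgroup c H' := by
  rintro d (hd | hd)
  · exact Or.inl (h hd)
  · exact Or.inr (h hd)

section Decomp

variable [NeZero c] {H H' : Subgroup (ZMod c)ˣ}

open scoped Classical in
/-- The indicator of `±aH'` is the sum of the indicators of the `±a r H`, `r` running through
representatives of `±H' / ±H`. -/
theorem indicator_cosetSet (hH : H ≤ H') (a : (ZMod c)ˣ) (x : ZMod c) :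
    (if x ∈ cosetSet c H' a then (1 : ℤ) else 0)
      = ∑ κ : ↥(pmSubgroup c H') ⧸ (pmSubgroup c H).subgroupOf (pmSubgroup c H'),
          if x ∈ cosetSet c H (a * ((Quotient.out κ : ↥(pmSubgroup c H')) : (ZMod c)ˣ))
            then (1 : ℤ) else 0 := by
  have hP := pmSubgroup_mono hH
  by_cases hx : x ∈ cosetSet c H' a
  · rw [if_pos hx]
    obtain ⟨d', hd', rfl⟩ := (mem_cosetSet_iff H' a x).1 hx
    set κ₀ : ↥(pmSubgroup c H') ⧸ (pmSubgroup c H).subgroupOf (pmSubgroup c H') :=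
      QuotientGroup.mk (⟨d', hd'⟩ : ↥(pmSubgroup c H')) with hκ₀
    have key : ∀ κ : ↥(pmSubgroup c H') ⧸ (pmSubgroup c H).subgroupOf (pmSubgroup c H'),
        ((a * d' : (ZMod c)ˣ) : ZMod c)
          ∈ cosetSet c H (a * ((Quotient.out κ : ↥(pmSubgroup c H')) : (ZMod c)ˣ)) ↔ κ = κ₀ := by
      intro κ
      rw [mem_cosetSet_iff]
      constructor
      · rintro ⟨d, hd, he⟩
        have he' : a * d' = a * ((Quotient.out κ : ↥(pmSubgroup c H')) : (ZMod c)ˣ) * d :=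
          Units.ext he
        have hd'eq : d' = ((Quotient.out κ : ↥(pmSubgroup c H')) : (ZMod c)ˣ) * d := by
          rw [mul_assoc] at he'
          exact mul_left_cancel he'
        rw [← QuotientGroup.out_eq' κ, hκ₀, QuotientGroup.eq, Subgroup.mem_subgroupOf]
        show ((Quotient.out κ : ↥(pmSubgroup c H')) : (ZMod c)ˣ)⁻¹ * d' ∈ pmSubgroup c H
        rw [hd'eq, inv_mul_cancel_left]
        exact hd
      · intro hκ
        have h1 : (QuotientGroup.mk (Quotient.out κ : ↥(pmSubgroup c H')) :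
            ↥(pmSubgroup c H') ⧸ (pmSubgroup c H).subgroupOf (pmSubgroup c H')) = κ₀ := by
          rw [QuotientGroup.out_eq', hκ]
        rw [hκ₀, QuotientGroup.eq, Subgroup.mem_subgroupOf] at h1
        have h2 : ((Quotient.out κ : ↥(pmSubgroup c H')) : (ZMod c)ˣ)⁻¹ * d'
            ∈ pmSubgroup c H := h1
        refine ⟨_, h2, ?_⟩
        rw [mul_assoc, mul_inv_cancel_left]
    rw [Finset.sum_eq_single κ₀]
    · rw [if_pos ((key κ₀).2 rfl)]
    · intro κ _ hκ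
      rw [if_neg (fun h => hκ ((key κ).1 h))]
    · intro h
      exact absurd (Finset.mem_univ _) h
  · rw [if_neg hx]
    symm
    refine Finset.sum_eq_zero fun κ _ => ?_
    rw [if_neg]
    intro h
    apply hx
    obtain ⟨d, hd, rfl⟩ := (mem_cosetSet_iff H _ x).1 h
    rw [mem_cosetSet_iff]
    refine ⟨((Quotient.out κ : ↥(pmSubgroup c H')) : (ZMod c)ˣ) * d,
      (pmSubgroup c H').mul_mem (Quotient.out κ).2 (hP hd), ?_⟩
    rw [mul_assoc]

open scoped Classical in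
theorem eisCoeff_cosetSet (hH : H ≤ H') (a : (ZMod c)ˣ) (n : ℕ) :
    eisCoeff c (cosetSet c H' a) n
      = ∑ κ : ↥(pmSubgroup c H') ⧸ (pmSubgroup c H).subgroupOf (pmSubgroup c H'),
          eisCoeff c (cosetSet c H
            (a * ((Quotient.out κ : ↥(pmSubgroup c H')) : (ZMod c)ˣ))) n := by
  unfold eisCoeff
  rw [Finset.sum_comm]
  refine Finset.sum_congr rfl fun m _ => ?_
  have h1 : ∀ (p : Prop) [Decidable p] (v : ℤ),
      (if p then v else 0) = (if p then (1 : ℤ) else 0) * v := by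
    intro p _ v
    split_ifs <;> simp
  rw [h1, indicator_cosetSet hH a, Finset.sum_mul]
  refine Finset.sum_congr rfl fun κ _ => ?_
  rw [← h1]

open scoped Classical in
theorem eisNum_cosetSet (hH : H ≤ H') (a : (ZMod c)ˣ) :
    eisNum c (cosetSet c H' a)
      = ∑ κ : ↥(pmSubgroup c H') ⧸ (pmSubgroup c H).subgroupOf (pmSubgroup c H'),
          eisNum c (cosetSet c H
            (a * ((Quotient.out κ : ↥(pmSubgroup c H')) : (ZMod c)ˣ))) := by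
  ext n
  unfold eisNum
  rw [PowerSeries.coeff_mk, map_sum, eisCoeff_cosetSet hH a n]
  refine Finset.sum_congr rfl fun κ _ => ?_
  rw [PowerSeries.coeff_mk]

open scoped Classical in
theorem eisGen_cosetSet (hH : H ≤ H') (a : (ZMod c)ˣ) :
    eisGen c (cosetSet c H' a)
      = ∑ κ : ↥(pmSubgroup c H') ⧸ (pmSubgroup c H).subgroupOf (pmSubgroup c H'),
          eisGen c (cosetSet c H
            (a * ((Quotient.out κ : ↥(pmSubgroup c H')) : (ZMod c)ˣ))) := by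
  unfold eisGen eisQuot
  rw [eisNum_cosetSet hH a, Finset.sum_mul, map_sum, map_sum]

end Decomp

/-- **FH-FF (c)**: `F_{H'}(M) ⊆ F_H(M)` for `H ≤ H'`. -/
theorem FHQ_mono_sub (M : ℕ) [NeZero c] {H H' : Subgroup (ZMod c)ˣ} (hH : H ≤ H') :
    FHQ M c H' ≤ FHQ M c H := by
  classical
  unfold FHQ
  rw [IntermediateField.adjoin_le_iff]
  rintro x (hx | ⟨a, rfl⟩)
  · exact IntermediateField.subset_adjoin ℚ _ (Set.mem_union_left _ hx)
  · rw [eisGen_cosetSet hH a]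
    exact sum_mem fun κ _ => eisGen_mem_FHQ M c H _

/-- The same over `ℚ̄`. -/
theorem FHbar_mono_sub (M : ℕ) [NeZero c] {H H' : Subgroup (ZMod c)ˣ} (hH : H ≤ H') :
    FHbar M c H' ≤ FHbar M c H :=
  laurentBaseChange_mono (FHQ_mono_sub M hH)

end Fermat.Agent.NEB.H94

end
end
-- ==== END Fermat.Agent.NEB.H94_Mono

-- ==== BEGIN Fermat.Agent.S48.B1.H22_Eis1Def
section

/-!
# S48 B1 (a): weight one Eisenstein series, part 9 — the series `E_{1,ψ}` (helper22)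

`E1 ℓ ψ = (2 π i)⁻¹ ∑_{v ∈ (ℤ/ℓ)²} ψ(v₀) Φ_{ℓ, ṽ}`, its slash rule under `SL(2, ℤ)`, holomorphy,
boundedness at the cusps and the nebentypus.
-/

set_option autoImplicit false

open UpperHalfPlane hiding I
open Complex Filter Topology CongruenceSubgroup ModularForm
open scoped Real MatrixGroups ModularForm Manifold

noncomputable section

namespace Fermat.Agent.S48.B1.H22

open Matrix
open Fermat.Agent.S48.Int (HasNeb)

variable {ℓ : ℕ}

/-- The standard lift of a vector modulo `ℓ`. -/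
def liftV (v : Fin 2 → ZMod ℓ) : Fin 2 → ℤ := fun i => ((v i).val : ℤ)

/-- Reduction of an integral vector modulo `ℓ`. -/
def redV (ℓ : ℕ) (u : Fin 2 → ℤ) : Fin 2 → ZMod ℓ := fun i => ((u i : ℤ) : ZMod ℓ)

theorem redV_liftV [NeZero ℓ] (v : Fin 2 → ZMod ℓ) : redV ℓ (liftV v) = v := by
  funext i
  simp only [redV, liftV, Int.cast_natCast, ZMod.natCast_zmod_val]

theorem NZ_iff_redV {u : Fin 2 → ℤ} : NZ ℓ u ↔ redV ℓ u ≠ 0 := by
  unfold NZ
  rw [not_iff_not]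
  constructor
  · rintro ⟨h0, h1⟩
    funext i
    fin_cases i
    · exact (ZMod.intCast_zmod_eq_zero_iff_dvd _ _).2 h0
    · exact (ZMod.intCast_zmod_eq_zero_iff_dvd _ _).2 h1
  · intro h
    exact ⟨(ZMod.intCast_zmod_eq_zero_iff_dvd _ _).1 (congrFun h 0),
      (ZMod.intCast_zmod_eq_zero_iff_dvd _ _).1 (congrFun h 1)⟩

theorem NZ_liftV [NeZero ℓ] {v : Fin 2 → ZMod ℓ} (hv : v ≠ 0) : NZ ℓ (liftV v) := by
  rw [NZ_iff_redV, redV_liftV]
  exact hv

theorem exists_eq_liftV_add [NeZero ℓ] (u : Fin 2 → ℤ) :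
    ∃ b : Fin 2 → ℤ, u = liftV (redV ℓ u) + (ℓ : ℤ) • b := by
  refine ⟨fun i => u i / (ℓ : ℤ), ?_⟩
  funext i
  simp only [liftV, redV, Pi.add_apply, Pi.smul_apply, smul_eq_mul, ZMod.val_intCast]
  exact (Int.emod_add_mul_ediv (u i) ℓ).symm

theorem Phi_eq_liftV_redV [NeZero ℓ] {u : Fin 2 → ℤ} (hu : NZ ℓ u) (τ : ℍ) :
    Phi ℓ u τ = Phi ℓ (liftV (redV ℓ u)) τ := by
  obtain ⟨b, hb⟩ := exists_eq_liftV_add (ℓ := ℓ) u
  have h1 : NZ ℓ (liftV (redV ℓ u)) := by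
    rw [NZ_iff_redV, redV_liftV]
    exact NZ_iff_redV.1 hu
  conv_lhs => rw [hb]
  exact Phi_add_smul (NeZero.ne ℓ) h1 b τ

/-- Reduction of a matrix in `SL(2, ℤ)` modulo `ℓ`. -/
def redM (ℓ : ℕ) (γ : SL(2, ℤ)) : SL(2, ZMod ℓ) :=
  Matrix.SpecialLinearGroup.map (Int.castRingHom (ZMod ℓ)) γ

theorem redM_apply (γ : SL(2, ℤ)) (i j : Fin 2) :
    (redM ℓ γ : Matrix (Fin 2) (Fin 2) (ZMod ℓ)) i j = ((γ i j : ℤ) : ZMod ℓ) := rfl

theorem redV_vecMul (u : Fin 2 → ℤ) (γ : SL(2, ℤ)) :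
    redV ℓ (u ᵥ* (γ : Matrix (Fin 2) (Fin 2) ℤ))
      = redV ℓ u ᵥ* (redM ℓ γ : Matrix (Fin 2) (Fin 2) (ZMod ℓ)) := by
  funext j
  simp only [redV, Matrix.vecMul, dotProduct, Fin.sum_univ_two, redM_apply]
  push_cast
  rfl

/-- Right multiplication by an element of `SL(2, ZMod ℓ)` as a permutation of `(ZMod ℓ)²`. -/
def vecMulEquivZMod (g : SL(2, ZMod ℓ)) : (Fin 2 → ZMod ℓ) ≃ (Fin 2 → ZMod ℓ) where
  toFun v := v ᵥ* (g : Matrix (Fin 2) (Fin 2) (ZMod ℓ))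
  invFun v := v ᵥ* ((g⁻¹ : SL(2, ZMod ℓ)) : Matrix (Fin 2) (Fin 2) (ZMod ℓ))
  left_inv v := by
    simp only [Matrix.vecMul_vecMul]
    rw [← Matrix.SpecialLinearGroup.coe_mul, mul_inv_cancel, Matrix.SpecialLinearGroup.coe_one,
      Matrix.vecMul_one]
  right_inv v := by
    simp only [Matrix.vecMul_vecMul]
    rw [← Matrix.SpecialLinearGroup.coe_mul, inv_mul_cancel, Matrix.SpecialLinearGroup.coe_one,
      Matrix.vecMul_one]

theorem vecMulEquivZMod_apply (g : SL(2, ZMod ℓ)) (v : Fin 2 → ZMod ℓ) :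
    vecMulEquivZMod g v = v ᵥ* (g : Matrix (Fin 2) (Fin 2) (ZMod ℓ)) := rfl

/-- The weight one Eisenstein series `(-2ℓ) E_{1,ψ}`. -/
def E1 (ℓ : ℕ) [NeZero ℓ] (ψ : DirichletCharacter ℂ ℓ) (τ : ℍ) : ℂ :=
  (2 * π * I)⁻¹ * ∑ v : Fin 2 → ZMod ℓ, ψ (v 0) * Phi ℓ (liftV v) τ

theorem two_pi_I_ne_zero' : (2 * (π : ℂ) * I) ≠ 0 := by
  have hpi : (π : ℂ) ≠ 0 := by exact_mod_cast Real.pi_ne_zero
  simp [hpi, Complex.I_ne_zero]

section prime

variable [NeZero ℓ] (ψ : DirichletCharacter ℂ ℓ)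

omit [NeZero ℓ] in
theorem psi_zero (hℓ : 1 < ℓ) : ψ 0 = 0 := by
  have : Fact (1 < ℓ) := ⟨hℓ⟩
  exact MulChar.map_zero ψ

omit [NeZero ℓ] in
theorem ne_zero_of_psi_ne_zero (hℓ : 1 < ℓ) {v : Fin 2 → ZMod ℓ} (h : ψ (v 0) ≠ 0) : v ≠ 0 := by
  intro hv
  apply h
  rw [hv, Pi.zero_apply, psi_zero ψ hℓ]

/-- One term of the slash rule. -/
theorem term_smul (hℓ : 1 < ℓ) (v : Fin 2 → ZMod ℓ) (A : SL(2, ℤ)) (τ : ℍ) :
    ψ (v 0) * Phi ℓ (liftV v) (A • τ)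
      = denom A τ * (ψ (v 0) * Phi ℓ (liftV (v ᵥ* (redM ℓ A : Matrix (Fin 2) (Fin 2) (ZMod ℓ)))) τ) := by
  by_cases h : ψ (v 0) = 0
  · rw [h, zero_mul, zero_mul, mul_zero]
  · have hv := ne_zero_of_psi_ne_zero ψ hℓ h
    have hNZ := NZ_liftV hv
    rw [Phi_smul (NeZero.ne ℓ) hNZ, Phi_eq_liftV_redV (hNZ.vecMul A), redV_vecMul, redV_liftV]
    ring

theorem E1_smul (hℓ : 1 < ℓ) (A : SL(2, ℤ)) (τ : ℍ) :
    E1 ℓ ψ (A • τ) = denom A τ * ((2 * π * I)⁻¹ * ∑ v : Fin 2 → ZMod ℓ,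
      ψ (v 0) * Phi ℓ (liftV (v ᵥ* (redM ℓ A : Matrix (Fin 2) (Fin 2) (ZMod ℓ)))) τ) := by
  rw [E1, Finset.sum_congr rfl (fun v _ => term_smul ψ hℓ v A τ), ← Finset.mul_sum]
  ring

theorem E1_slash (hℓ : 1 < ℓ) (A : SL(2, ℤ)) :
    (E1 ℓ ψ) ∣[(1 : ℤ)] A = fun τ => (2 * π * I)⁻¹ * ∑ v : Fin 2 → ZMod ℓ,
      ψ (v 0) * Phi ℓ (liftV (v ᵥ* (redM ℓ A : Matrix (Fin 2) (Fin 2) (ZMod ℓ)))) τ := by
  funext τ
  rw [SL_slash_apply, E1_smul ψ hℓ, _root_.zpow_neg, zpow_one, mul_comm, ← mul_assoc,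
    inv_mul_cancel₀ (denom_ne_zero A τ), one_mul]

/-- A summand, with the terms `ψ(v₀) = 0` made harmless. -/
def sTerm (v w : Fin 2 → ZMod ℓ) : ℍ → ℂ :=
  fun τ => if ψ (v 0) = 0 then 0 else ψ (v 0) * Phi ℓ (liftV w) τ

omit [NeZero ℓ] in
theorem sTerm_eq (v w : Fin 2 → ZMod ℓ) (τ : ℍ) :
    ψ (v 0) * Phi ℓ (liftV w) τ = sTerm ψ v w τ := by
  unfold sTerm
  split_ifs with h
  · rw [h, zero_mul]
  · rfl

theorem mdifferentiable_sTerm (v w : Fin 2 → ZMod ℓ) (hw : ψ (v 0) ≠ 0 → w ≠ 0) :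
    MDifferentiable 𝓘(ℂ) 𝓘(ℂ) (sTerm ψ v w) := by
  unfold sTerm
  split_ifs with h
  · exact mdifferentiable_const
  · exact mdifferentiable_const.mul
      (mdifferentiable_Phi (Nat.pos_of_ne_zero (NeZero.ne ℓ)) (NZ_liftV (hw h)))

theorem isBoundedAtImInfty_sTerm (v w : Fin 2 → ZMod ℓ) (hw : ψ (v 0) ≠ 0 → w ≠ 0) :
    IsBoundedAtImInfty (sTerm ψ v w) := by
  unfold sTerm
  split_ifs with h
  · exact Filter.const_boundedAtFilter atImInfty (0 : ℂ)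
  · exact (Filter.const_boundedAtFilter atImInfty (ψ (v 0))).mul
      (isBoundedAtImInfty_Phi (Nat.pos_of_ne_zero (NeZero.ne ℓ)) (NZ_liftV (hw h)))

omit [NeZero ℓ] in
theorem mdifferentiable_finsum {ι : Type*} (s : Finset ι) (f : ι → ℍ → ℂ)
    (h : ∀ i ∈ s, MDifferentiable 𝓘(ℂ) 𝓘(ℂ) (f i)) :
    MDifferentiable 𝓘(ℂ) 𝓘(ℂ) (fun τ => ∑ i ∈ s, f i τ) := by
  classical
  induction s using Finset.induction_on with
  | empty =>
    simp only [Finset.sum_empty]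
    exact mdifferentiable_const
  | insert a s ha ih =>
    simp only [Finset.sum_insert ha]
    exact (h a (Finset.mem_insert_self a s)).add
      (ih (fun i hi => h i (Finset.mem_insert_of_mem hi)))

omit [NeZero ℓ] in
theorem isBoundedAtImInfty_finsum {ι : Type*} (s : Finset ι) (f : ι → ℍ → ℂ)
    (h : ∀ i ∈ s, IsBoundedAtImInfty (f i)) :
    IsBoundedAtImInfty (fun τ => ∑ i ∈ s, f i τ) := by
  classical
  induction s using Finset.induction_on with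
  | empty =>
    simp only [Finset.sum_empty]
    exact Filter.const_boundedAtFilter atImInfty (0 : ℂ)
  | insert a s ha ih =>
    simp only [Finset.sum_insert ha]
    exact (h a (Finset.mem_insert_self a s)).add
      (ih (fun i hi => h i (Finset.mem_insert_of_mem hi)))

omit [NeZero ℓ] in
theorem vecMul_redM_ne_zero (A : SL(2, ℤ)) {v : Fin 2 → ZMod ℓ} (hv : v ≠ 0) :
    v ᵥ* (redM ℓ A : Matrix (Fin 2) (Fin 2) (ZMod ℓ)) ≠ 0 := by
  intro h
  apply hv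
  have h0 : vecMulEquivZMod (redM ℓ A) v = vecMulEquivZMod (redM ℓ A) 0 := by
    rw [vecMulEquivZMod_apply, vecMulEquivZMod_apply, h, Matrix.zero_vecMul]
  exact (vecMulEquivZMod (redM ℓ A)).injective h0

theorem E1_eq_sTerm : E1 ℓ ψ = fun τ => (2 * π * I)⁻¹ * ∑ v : Fin 2 → ZMod ℓ, sTerm ψ v v τ := by
  funext τ
  rw [E1, Finset.sum_congr rfl (fun v _ => sTerm_eq ψ v v τ)]

theorem E1_slash_sTerm (hℓ : 1 < ℓ) (A : SL(2, ℤ)) :
    (E1 ℓ ψ) ∣[(1 : ℤ)] A = fun τ => (2 * π * I)⁻¹ * ∑ v : Fin 2 → ZMod ℓ,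
      sTerm ψ v (v ᵥ* (redM ℓ A : Matrix (Fin 2) (Fin 2) (ZMod ℓ))) τ := by
  rw [E1_slash ψ hℓ A]
  funext τ
  rw [Finset.sum_congr rfl (fun v _ => sTerm_eq ψ v _ τ)]

/-- `E_{1,ψ}` is holomorphic. -/
theorem mdifferentiable_E1 (hℓ : 1 < ℓ) : MDifferentiable 𝓘(ℂ) 𝓘(ℂ) (E1 ℓ ψ) := by
  rw [E1_eq_sTerm]
  exact mdifferentiable_const.mul (mdifferentiable_finsum _ _
    (fun v _ => mdifferentiable_sTerm ψ v v (ne_zero_of_psi_ne_zero ψ hℓ)))

/-- `E_{1,ψ}` is bounded at all cusps. -/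
theorem isBoundedAtImInfty_E1_slash (hℓ : 1 < ℓ) (A : SL(2, ℤ)) :
    IsBoundedAtImInfty ((E1 ℓ ψ) ∣[(1 : ℤ)] A) := by
  rw [E1_slash_sTerm ψ hℓ A]
  exact (Filter.const_boundedAtFilter atImInfty ((2 * π * I)⁻¹ : ℂ)).mul
    (isBoundedAtImInfty_finsum _ _ (fun v _ => isBoundedAtImInfty_sTerm ψ v _
      (fun h => vecMul_redM_ne_zero A (ne_zero_of_psi_ne_zero ψ hℓ h))))

/-- `E_{1,ψ}` has nebentypus `ψ`. -/
theorem hasNeb_E1 (hℓ : 1 < ℓ) : HasNeb ℓ ψ 1 (E1 ℓ ψ) := by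
  intro γ hγ
  rw [E1_slash ψ hℓ γ]
  funext τ
  rw [Pi.smul_apply, smul_eq_mul, E1]
  have hc : ((γ 1 0 : ℤ) : ZMod ℓ) = 0 := Gamma0_mem.mp hγ
  have hdet : γ 0 0 * γ 1 1 - γ 0 1 * γ 1 0 = 1 := by
    have := γ.det_coe
    rwa [Matrix.det_fin_two] at this
  have h1 : ((γ 0 0 : ℤ) : ZMod ℓ) * ((γ 1 1 : ℤ) : ZMod ℓ) = 1 := by
    have := congrArg (Int.cast : ℤ → ZMod ℓ) hdet
    push_cast at this
    rw [hc, mul_zero, sub_zero] at this
    exact this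
  have key : ∀ v : Fin 2 → ZMod ℓ,
      ψ (v 0) = ψ ((γ 1 1 : ℤ) : ZMod ℓ) *
        ψ ((v ᵥ* (redM ℓ γ : Matrix (Fin 2) (Fin 2) (ZMod ℓ))) 0) := by
    intro v
    rw [← map_mul]
    congr 1
    simp only [Matrix.vecMul, dotProduct, Fin.sum_univ_two, redM_apply, hc, mul_zero, add_zero]
    calc v 0 = v 0 * (((γ 0 0 : ℤ) : ZMod ℓ) * ((γ 1 1 : ℤ) : ZMod ℓ)) := by rw [h1, mul_one]
      _ = _ := by ring
  have e : ∑ v : Fin 2 → ZMod ℓ,
      ψ (v 0) * Phi ℓ (liftV (v ᵥ* (redM ℓ γ : Matrix (Fin 2) (Fin 2) (ZMod ℓ)))) τ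
      = ψ ((γ 1 1 : ℤ) : ZMod ℓ) * ∑ v : Fin 2 → ZMod ℓ, ψ (v 0) * Phi ℓ (liftV v) τ := by
    rw [Finset.mul_sum]
    rw [← Equiv.sum_comp (vecMulEquivZMod (redM ℓ γ))
      (fun v => ψ ((γ 1 1 : ℤ) : ZMod ℓ) * (ψ (v 0) * Phi ℓ (liftV v) τ))]
    refine Finset.sum_congr rfl fun v _ => ?_
    rw [vecMulEquivZMod_apply, key v]
    ring
  rw [e]
  ring

end prime

end Fermat.Agent.S48.B1.H22

end
end
-- ==== END Fermat.Agent.S48.B1.H22_Eis1Def

-- ==== BEGIN Fermat.Agent.S48.B1.H22_Eis1Sum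
section

/-!
# S48 B1 (a): weight one Eisenstein series, part 7 — summing over the second coordinate (helper22)

`∑_{s < ℓ} Φ_{ℓ,(r,s)}(τ) = ℓ · Zc (r τ) (ℓ τ) + 2 π i r` for `0 < r < ℓ` (distribution relation).
-/

set_option autoImplicit false

open UpperHalfPlane hiding I
open Complex Filter Topology
open scoped Real

noncomputable section

namespace Fermat.Agent.S48.B1.H22

/-- The point `ℓ τ` of the upper half plane. -/
def ellTau (ℓ : ℕ) (hℓ : 0 < ℓ) (τ : ℍ) : ℍ :=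
  ⟨(ℓ : ℂ) * (τ : ℂ), by
    rw [mul_im, natCast_re, natCast_im, zero_mul, add_zero]
    have : (0 : ℝ) < ℓ := by exact_mod_cast hℓ
    exact mul_pos this τ.im_pos⟩

theorem coe_ellTau (ℓ : ℕ) (hℓ : 0 < ℓ) (τ : ℍ) :
    ((ellTau ℓ hℓ τ : ℍ) : ℂ) = (ℓ : ℂ) * (τ : ℂ) := rfl

theorem zC_cons (ℓ : ℕ) (r s : ℕ) (w : ℂ) :
    zC ℓ ![(r : ℤ), (s : ℤ)] w = (r : ℂ) * w / ℓ + (s : ℂ) / ℓ := by
  simp only [zC, Matrix.cons_val_zero, Matrix.cons_val_one, Int.cast_natCast]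
  ring

theorem sum_termC {ℓ : ℕ} (hℓ : 0 < ℓ) {r : ℕ} (hr0 : 0 < r) (hr : r < ℓ) (τ : ℍ) (m : ℕ) :
    ∑ s ∈ Finset.range ℓ, termC ℓ ![(r : ℤ), (s : ℤ)] (m + 1) (τ : ℂ)
      = ℓ * zcTerm ((r : ℂ) * (τ : ℂ)) (ellTau ℓ hℓ τ) (m + 1) := by
  have hℓ' : (ℓ : ℂ) ≠ 0 := by exact_mod_cast hℓ.ne'
  have hℓr : (0 : ℝ) < ℓ := by exact_mod_cast hℓ
  have hr0' : (0 : ℝ) < r := by exact_mod_cast hr0
  have hrl : (r : ℝ) < ℓ := by exact_mod_cast hr
  have hy := τ.im_pos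
  have hm : (0 : ℝ) ≤ m := Nat.cast_nonneg m
  simp only [termC, zC_cons, Finset.sum_add_distrib]
  have e1 : ∀ s ∈ Finset.range ℓ,
      cotP ((r : ℂ) * (τ : ℂ) / ℓ + (s : ℂ) / ℓ + ((m + 1 : ℕ) : ℂ) * (τ : ℂ))
        = cotP (((r : ℂ) * (τ : ℂ) / ℓ + ((m + 1 : ℕ) : ℂ) * (τ : ℂ)) + (s : ℂ) / ℓ) := by
    intro s _
    congr 1
    ring
  have e2 : ∀ s ∈ Finset.range ℓ,
      cotP ((r : ℂ) * (τ : ℂ) / ℓ + (s : ℂ) / ℓ - ((m + 1 : ℕ) : ℂ) * (τ : ℂ))
        = cotP (((r : ℂ) * (τ : ℂ) / ℓ - ((m + 1 : ℕ) : ℂ) * (τ : ℂ)) + (s : ℂ) / ℓ) := by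
    intro s _
    congr 1
    ring
  have him1 : ((r : ℂ) * (τ : ℂ) / ℓ + ((m + 1 : ℕ) : ℂ) * (τ : ℂ)).im ≠ 0 := by
    rw [add_im, Complex.div_natCast_im, natCast_mul_coe_im, natCast_mul_coe_im]
    have : 0 < (r : ℝ) * τ.im / ℓ := by positivity
    have : 0 < ((m + 1 : ℕ) : ℝ) * τ.im := by positivity
    linarith
  have him2 : ((r : ℂ) * (τ : ℂ) / ℓ - ((m + 1 : ℕ) : ℂ) * (τ : ℂ)).im ≠ 0 := by
    rw [sub_im, Complex.div_natCast_im, natCast_mul_coe_im, natCast_mul_coe_im]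
    have h1 : (r : ℝ) * τ.im / ℓ < τ.im := by
      rw [div_lt_iff₀ hℓr]
      nlinarith
    have h2 : τ.im ≤ ((m + 1 : ℕ) : ℝ) * τ.im := by
      push_cast
      nlinarith
    linarith
  rw [Finset.sum_congr rfl e1, Finset.sum_congr rfl e2, sum_cotP hℓ.ne' him1,
    sum_cotP hℓ.ne' him2, zcTerm, coe_ellTau]
  have e3 : (ℓ : ℂ) * ((r : ℂ) * (τ : ℂ) / ℓ + ((m + 1 : ℕ) : ℂ) * (τ : ℂ))
      = (r : ℂ) * (τ : ℂ) + ((m + 1 : ℕ) : ℂ) * ((ℓ : ℂ) * (τ : ℂ)) := by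
    field_simp
  have e4 : (ℓ : ℂ) * ((r : ℂ) * (τ : ℂ) / ℓ - ((m + 1 : ℕ) : ℂ) * (τ : ℂ))
      = (r : ℂ) * (τ : ℂ) - ((m + 1 : ℕ) : ℂ) * ((ℓ : ℂ) * (τ : ℂ)) := by
    field_simp
  rw [e3, e4]
  ring

/-- **Distribution relation for the division values.** -/
theorem sum_Phi {ℓ : ℕ} (hℓ : 0 < ℓ) {r : ℕ} (hr0 : 0 < r) (hr : r < ℓ) (τ : ℍ) :
    ∑ s ∈ Finset.range ℓ, Phi ℓ ![(r : ℤ), (s : ℤ)] τ
      = ℓ * Zc ((r : ℂ) * (τ : ℂ)) (ellTau ℓ hℓ τ) + 2 * π * I * r := by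
  have hℓ' : (ℓ : ℂ) ≠ 0 := by exact_mod_cast hℓ.ne'
  have hℓr : (0 : ℝ) < ℓ := by exact_mod_cast hℓ
  have hr0' : (0 : ℝ) < r := by exact_mod_cast hr0
  simp only [Phi_eq_PhiC, PhiC, Finset.sum_add_distrib]
  have hsum : ∀ s ∈ Finset.range ℓ,
      Summable fun m : ℕ => termC ℓ ![(r : ℤ), (s : ℤ)] (m + 1) (τ : ℂ) := by
    intro s _
    exact summable_zcTerm (zOf ℓ ![(r : ℤ), (s : ℤ)] τ) τ
  rw [← Summable.tsum_finsetSum hsum]
  simp_rw [sum_termC hℓ hr0 hr τ]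
  rw [tsum_mul_left]
  have e1 : ∀ s ∈ Finset.range ℓ, cotP (zC ℓ ![(r : ℤ), (s : ℤ)] (τ : ℂ))
      = cotP ((r : ℂ) * (τ : ℂ) / ℓ + (s : ℂ) / ℓ) := by
    intro s _
    rw [zC_cons]
  have him : ((r : ℂ) * (τ : ℂ) / ℓ).im ≠ 0 := by
    rw [Complex.div_natCast_im, natCast_mul_coe_im]
    have : 0 < (r : ℝ) * τ.im / ℓ := by
      have := τ.im_pos
      positivity
    exact this.ne'
  rw [Finset.sum_congr rfl e1, sum_cotP hℓ.ne' him]
  simp only [Matrix.cons_val_zero, Int.cast_natCast, Finset.sum_const, Finset.card_range,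
    nsmul_eq_mul]
  rw [Zc]
  field_simp

end Fermat.Agent.S48.B1.H22

end
end
-- ==== END Fermat.Agent.S48.B1.H22_Eis1Sum

-- ==== BEGIN Fermat.Agent.S48.B1.H55_Asm1
section

/-!
# S48, B1 assembly, part 1 (helper55): the product `f · E ∈ S₂(N ℓ, ε ψ)`

* `prodChar N ℓ ε ψ`: the character `ε ψ` mod `N ℓ`;
* `prodNeb`: the product of a cusp form of weight one with character `ε` mod `N` and a holomorphic
  function of weight one, bounded at the cusps, with character `ψ` mod `ℓ`, is a cusp form of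
  weight two on `Γ₁(N ℓ)` with character `ε ψ`; the `q`-expansions multiply.
-/

set_option autoImplicit false

open CongruenceSubgroup UpperHalfPlane ModularForm
open scoped MatrixGroups ModularForm Manifold

noncomputable section

namespace Fermat.Agent.S48.B1.H55

open Fermat.Agent.S48.Int (HasNeb)
open Fermat.Agent.S23.H22 (Nice nice_of_modularForm)

/-- The character `ε ψ` modulo `N ℓ`. -/
def prodChar (N ℓ : ℕ) (ε : DirichletCharacter ℂ N) (ψ : DirichletCharacter ℂ ℓ) :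
    DirichletCharacter ℂ (N * ℓ) :=
  DirichletCharacter.changeLevel (Dvd.intro ℓ rfl) ε *
    DirichletCharacter.changeLevel (Dvd.intro_left N rfl) ψ

/-- Value of `ε ψ` on an integer which is a unit modulo `N ℓ`. -/
theorem prodChar_intCast {N ℓ : ℕ} (ε : DirichletCharacter ℂ N) (ψ : DirichletCharacter ℂ ℓ)
    (d : ℤ) (hd : IsUnit ((d : ZMod (N * ℓ)))) :
    prodChar N ℓ ε ψ ((d : ZMod (N * ℓ))) = ε ((d : ZMod N)) * ψ ((d : ZMod ℓ)) := by
  obtain ⟨u, hu⟩ := hd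
  have h1 := DirichletCharacter.changeLevel_eq_cast_of_dvd ε (Dvd.intro ℓ rfl : N ∣ N * ℓ) u
  have h2 := DirichletCharacter.changeLevel_eq_cast_of_dvd ψ (Dvd.intro_left N rfl : ℓ ∣ N * ℓ) u
  rw [hu] at h1 h2
  have hN : (N : ℕ) ∣ N * ℓ := Dvd.intro ℓ rfl
  have hℓ : (ℓ : ℕ) ∣ N * ℓ := Dvd.intro_left N rfl
  have c1 : ZMod.cast ((d : ZMod (N * ℓ))) = ((d : ZMod N)) := ZMod.cast_intCast hN d
  have c2 : ZMod.cast ((d : ZMod (N * ℓ))) = ((d : ZMod ℓ)) := ZMod.cast_intCast hℓ d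
  rw [c1] at h1
  rw [c2] at h2
  rw [prodChar, MulChar.mul_apply, h1, h2]

/-- Value of `ε ψ` on a natural number prime to `N ℓ`. -/
theorem prodChar_natCast {N ℓ : ℕ} (ε : DirichletCharacter ℂ N) (ψ : DirichletCharacter ℂ ℓ)
    (p : ℕ) (hp : p.Coprime (N * ℓ)) :
    prodChar N ℓ ε ψ ((p : ZMod (N * ℓ))) = ε ((p : ZMod N)) * ψ ((p : ZMod ℓ)) := by
  have h := prodChar_intCast ε ψ (p : ℤ) (by
    rw [Int.cast_natCast]
    exact (ZMod.isUnit_iff_coprime p (N * ℓ)).2 hp)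
  simpa using h

theorem Gamma0_mul_le_left (N ℓ : ℕ) {γ : SL(2, ℤ)} (hγ : γ ∈ Gamma0 (N * ℓ)) :
    γ ∈ Gamma0 N := by
  rw [Gamma0_mem] at hγ ⊢
  rw [ZMod.intCast_zmod_eq_zero_iff_dvd] at hγ ⊢
  exact dvd_trans (by exact_mod_cast (Dvd.intro ℓ rfl : N ∣ N * ℓ)) hγ

theorem Gamma0_mul_le_right (N ℓ : ℕ) {γ : SL(2, ℤ)} (hγ : γ ∈ Gamma0 (N * ℓ)) :
    γ ∈ Gamma0 ℓ := by
  rw [Gamma0_mem] at hγ ⊢
  rw [ZMod.intCast_zmod_eq_zero_iff_dvd] at hγ ⊢
  exact dvd_trans (by exact_mod_cast (Dvd.intro_left N rfl : ℓ ∣ N * ℓ)) hγ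

/-- Nebentypus of a product. -/
theorem hasNeb_mul {N ℓ : ℕ} {ε : DirichletCharacter ℂ N} {ψ : DirichletCharacter ℂ ℓ}
    {k₁ k₂ : ℤ} {f E : ℍ → ℂ} (hf : HasNeb N ε k₁ f) (hE : HasNeb ℓ ψ k₂ E) :
    HasNeb (N * ℓ) (prodChar N ℓ ε ψ) (k₁ + k₂) (f * E) := by
  intro γ hγ
  rw [mul_slash_SL2, hf γ (Gamma0_mul_le_left N ℓ hγ), hE γ (Gamma0_mul_le_right N ℓ hγ),
    prodChar_intCast ε ψ _ (Fermat.Agent.S48.Int.H22.isUnit_lowerRight hγ)]
  funext z
  simp only [Pi.mul_apply, Pi.smul_apply, smul_eq_mul]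
  ring

/-- **ProdNeb**: `f · E ∈ S₂(N ℓ, ε ψ)`. -/
theorem prodNeb (N ℓ : ℕ) [NeZero N] [NeZero ℓ] [NeZero (N * ℓ)] (ε : DirichletCharacter ℂ N)
    (ψ : DirichletCharacter ℂ ℓ) (f : CuspForm (Gamma1 N) 1) (E : ℍ → ℂ)
    (hf : HasNeb N ε 1 f) (hEd : MDifferentiable 𝓘(ℂ) 𝓘(ℂ) E)
    (hEb : ∀ A : SL(2, ℤ), IsBoundedAtImInfty (E ∣[(1 : ℤ)] A)) (hE : HasNeb ℓ ψ 1 E) :
    ∃ G : CuspForm (Gamma1 (N * ℓ)) 2, HasNeb (N * ℓ) (prodChar N ℓ ε ψ) 2 G ∧
      qExpansion 1 G = qExpansion 1 f * qExpansion 1 E := by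
  have hneb : HasNeb (N * ℓ) (prodChar N ℓ ε ψ) 2 ((f : ℍ → ℂ) * E) := hasNeb_mul hf hE
  have hinv : ∀ γ : SL(2, ℤ), γ ∈ Gamma1 (N * ℓ) →
      ((f : ℍ → ℂ) * E) ∣[(2 : ℤ)] γ = (f : ℍ → ℂ) * E :=
    fun γ hγ => Fermat.Agent.S48.Int.H22.slash_eq_of_hasNeb hneb hγ
  have hzero : ∀ A : SL(2, ℤ), IsZeroAtImInfty (((f : ℍ → ℂ) * E) ∣[(2 : ℤ)] A) := by
    intro A
    have h := mul_slash_SL2 1 1 A (f : ℍ → ℂ) E
    have h' : ((f : ℍ → ℂ) * E) ∣[(2 : ℤ)] A = ((f : ℍ → ℂ) ∣[(1 : ℤ)] A) * (E ∣[(1 : ℤ)] A) := h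
    rw [h']
    exact (Fermat.Agent.S48.Int.H22.isZeroAtImInfty_slash f A).mul_boundedAtFilter (hEb A)
  refine ⟨Fermat.Agent.S48.Int.H55.mkCusp1 (N * ℓ) 2 ((f : ℍ → ℂ) * E) (f.holo'.mul hEd) hinv hzero,
    ?_, ?_⟩
  · rw [Fermat.Agent.S48.Int.H55.mkCusp1_coe]
    exact hneb
  · rw [Fermat.Agent.S48.Int.H55.mkCusp1_coe]
    exact Nice.qExpansion_mul one_pos (Fermat.Agent.S48.Int.H22.nice_cusp1 f)
      (Fermat.Agent.S48.Int.H22.nice_of_hasNeb hE hEd hEb)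

end Fermat.Agent.S48.B1.H55

end
end
-- ==== END Fermat.Agent.S48.B1.H55_Asm1

-- ==== BEGIN Fermat.Agent.S48.B2.R.H25_RedOps
section

set_option autoImplicit false
set_option linter.unusedSectionVars false
set_option linter.style.haveILetI false
set_option linter.unusedVariables false

noncomputable section

open ModularCurve Fermat.Agent.S28 Fermat.Agent.S28.H73 Fermat.Agent.RED.H73 Fermat.Agent.GTor
open Fermat.Agent.NEB Fermat.Agent.NEB.H70

namespace Fermat.Agent.S48.B2.R.H25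

/-! ## 1. `RedTo` is additive -/

section Add

variable {C : Type} [Field C] {O : ValuationSubring C}

theorem redTo_zero : RedTo O (0 : LaurentSeries C) 0 :=
  ⟨(gaussRingV O).zero_mem, map_zero (gaussRedV O)⟩

theorem redTo_add {x x' : LaurentSeries C} {y y' : LaurentSeries (kV O)} (h : RedTo O x y)
    (h' : RedTo O x' y') : RedTo O (x + x') (y + y') := by
  obtain ⟨hx, rfl⟩ := h
  obtain ⟨hx', rfl⟩ := h'
  refine ⟨(gaussRingV O).add_mem hx hx', ?_⟩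
  have e : (⟨x + x', (gaussRingV O).add_mem hx hx'⟩ : gaussRingV O)
      = (⟨x, hx⟩ : gaussRingV O) + ⟨x', hx'⟩ := Subtype.ext rfl
  rw [e, map_add]

theorem redTo_neg {x : LaurentSeries C} {y : LaurentSeries (kV O)} (h : RedTo O x y) :
    RedTo O (-x) (-y) := by
  obtain ⟨hx, rfl⟩ := h
  have hm : -x ∈ gaussRingV O := (gaussRingV O).toSubring.neg_mem hx
  refine ⟨hm, ?_⟩
  have e : (⟨-x, hm⟩ : gaussRingV O) = -(⟨x, hx⟩ : gaussRingV O) := Subtype.ext rfl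
  rw [e, map_neg]

theorem redTo_sub {x x' : LaurentSeries C} {y y' : LaurentSeries (kV O)} (h : RedTo O x y)
    (h' : RedTo O x' y') : RedTo O (x - x') (y - y') := by
  rw [sub_eq_add_neg, sub_eq_add_neg]
  exact redTo_add h (redTo_neg h')

theorem redTo_sum {ι : Type*} (s : Finset ι) (x : ι → LaurentSeries C)
    (y : ι → LaurentSeries (kV O)) (h : ∀ i ∈ s, RedTo O (x i) (y i)) :
    RedTo O (∑ i ∈ s, x i) (∑ i ∈ s, y i) := by
  classical
  induction s using Finset.induction_on with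
  | empty => simpa using redTo_zero
  | insert i s hi ih =>
    rw [Finset.sum_insert hi, Finset.sum_insert hi]
    exact redTo_add (h i (Finset.mem_insert_self _ _))
      (ih (fun j hj => h j (Finset.mem_insert_of_mem hj)))

end Add

/-! ## 2. The sum of the twists -/

section SumTwist

theorem coeff_sum_twistBy {K : Type*} [CommRing K] (ℓ : ℕ) (ζ : Kˣ) (s : LaurentSeries K)
    (m : ℤ) :
    (∑ b ∈ Finset.range ℓ, H44.twistBy (ζ ^ b) s).coeff m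
      = (∑ b ∈ Finset.range ℓ, (((ζ ^ m : Kˣ) : K)) ^ b) * s.coeff m := by
  rw [HahnSeries.coeff_sum, Finset.sum_mul]
  refine Finset.sum_congr rfl fun b _ => ?_
  rw [H44.twistBy_coeff]
  congr 1
  rw [← Units.val_pow_eq_pow_val, ← zpow_natCast (ζ ^ m), ← zpow_mul, ← zpow_natCast ζ,
    ← zpow_mul, mul_comm]

/-- `∑_{b < ℓ} s(ζ^b q)` is a series in `q^ℓ`. -/
theorem isSupp_sum_twistBy {K : Type*} [Field K] {ℓ : ℕ} [NeZero ℓ] {ζ : Kˣ}
    (hζ : IsPrimitiveRoot ζ ℓ) (s : LaurentSeries K) :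
    H44.IsSupp ℓ (∑ b ∈ Finset.range ℓ, H44.twistBy (ζ ^ b) s) := by
  intro m hm
  rw [coeff_sum_twistBy]
  have h1 : ζ ^ m ≠ 1 := fun h => hm ((hζ.zpow_eq_one_iff_dvd m).mp h)
  have h2 : ((ζ ^ m : Kˣ) : K) ≠ 1 := fun h => h1 (Units.ext h)
  have h3 : ((ζ ^ m : Kˣ) : K) ^ ℓ = 1 := by
    rw [← Units.val_pow_eq_pow_val, ← zpow_natCast (ζ ^ m), ← zpow_mul, mul_comm, zpow_mul,
      zpow_natCast, hζ.pow_eq_one, one_zpow, Units.val_one]
  have h4 := geom_sum_mul ((ζ ^ m : Kˣ) : K) ℓ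
  rw [h3, sub_self] at h4
  have h5 : ∑ i ∈ Finset.range ℓ, ((ζ ^ m : Kˣ) : K) ^ i = 0 := by
    rcases mul_eq_zero.mp h4 with h | h
    · exact h
    · exact absurd (sub_eq_zero.mp h) h2
  rw [h5, zero_mul]

/-- `U_ℓ (∑_{b < ℓ} s(ζ^b q)) = ℓ · U_ℓ s` if `ζ^ℓ = 1`. -/
theorem descend_sum_twistBy {K : Type*} [CommRing K] {ℓ : ℕ} [NeZero ℓ] {ζ : Kˣ}
    (hζ : ζ ^ ℓ = 1) (s : LaurentSeries K) :
    H44.descend ℓ (∑ b ∈ Finset.range ℓ, H44.twistBy (ζ ^ b) s) = (ℓ : K) • H44.descend ℓ s := by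
  ext m
  rw [H44.descend_coeff, coeff_sum_twistBy, HahnSeries.coeff_smul, H44.descend_coeff,
    smul_eq_mul]
  have h1 : ζ ^ ((ℓ : ℤ) * m) = 1 := by rw [zpow_mul, zpow_natCast, hζ, one_zpow]
  rw [h1]
  simp

/-- `∑_{b < ℓ} s(ζ^b q) = ℓ · (U_ℓ s)(q^ℓ)`. -/
theorem sum_twistBy_pow {K : Type*} [Field K] {ℓ : ℕ} [NeZero ℓ] {ζ : Kˣ}
    (hζ : IsPrimitiveRoot ζ ℓ) (s : LaurentSeries K) :
    ∑ b ∈ Finset.range ℓ, H44.twistBy (ζ ^ b) s
      = qExpand K ℓ ((ℓ : K) • H44.descend ℓ s) := by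
  rw [← descend_sum_twistBy hζ.pow_eq_one, H44.qExpand_descend (isSupp_sum_twistBy hζ s)]

end SumTwist

/-! ## 3. Reduction commutes with `ℓ · U_ℓ` -/

section Descend

variable {C : Type} [Field C] {O : ValuationSubring C}

/-- **Reduction commutes with `ℓ · U_ℓ`** on the whole Gauss ring. -/
theorem redTo_smul_descend {ℓ : ℕ} [NeZero ℓ] {ζ₀ : Cˣ} (hζ : IsPrimitiveRoot ζ₀ ℓ)
    {x : LaurentSeries C} {y : LaurentSeries (kV O)} (h : RedTo O x y) :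
    RedTo O ((ℓ : C) • H44.descend ℓ x) ((ℓ : kV O) • H44.descend ℓ y) := by
  have hℓ0 : ℓ ≠ 0 := NeZero.ne ℓ
  have hpow : (ζ₀ : C) ^ ℓ = 1 := by
    rw [← Units.val_pow_eq_pow_val, hζ.pow_eq_one, Units.val_one]
  have hpow' : ((ζ₀⁻¹ : Cˣ) : C) ^ ℓ = 1 := by
    rw [← Units.val_pow_eq_pow_val, inv_pow, hζ.pow_eq_one, inv_one, Units.val_one]
  have mem_of_pow : ∀ z : C, z ^ ℓ = 1 → z ∈ O := by
    intro z hz
    rcases O.mem_or_inv_mem z with hm | hm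
    · exact hm
    · have hz0 : z ≠ 0 := by
        rintro rfl
        rw [zero_pow hℓ0] at hz
        exact zero_ne_one hz
      have h1 : z * z ^ (ℓ - 1) = 1 := by
        rw [← pow_succ', Nat.sub_add_cancel (Nat.pos_of_ne_zero hℓ0), hz]
      have h2 : z = z⁻¹ ^ (ℓ - 1) := by
        rw [inv_pow]
        exact eq_inv_of_mul_eq_one_left h1
      rw [h2]
      exact pow_mem hm _
  set u : (↥O)ˣ := unitO ζ₀ (mem_of_pow _ hpow) (mem_of_pow _ hpow') with hu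
  have hmap : Units.map ((O.subtype : ↥O →+* C) : ↥O →* C) u = ζ₀ := map_unitO _ _ _
  have huℓ : u ^ ℓ = 1 := by
    apply Units.ext
    apply Subtype.ext
    show (((u ^ ℓ : (↥O)ˣ) : ↥O) : C) = 1
    rw [Units.val_pow_eq_pow_val]
    exact hpow
  have hrℓ : resUnit u ^ ℓ = 1 := by
    show Units.map ((resV O : ↥O →+* kV O) : ↥O →* kV O) u ^ ℓ = 1
    rw [← map_pow, huℓ, map_one]
  have hP : RedTo O (∑ b ∈ Finset.range ℓ, H44.twistBy (ζ₀ ^ b) x)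
      (∑ b ∈ Finset.range ℓ, H44.twistBy (resUnit u ^ b) y) := by
    refine redTo_sum _ _ _ fun b _ => ?_
    have h1 := RedTo.twist (u ^ b) h
    have e1 : Units.map ((O.subtype : ↥O →+* C) : ↥O →* C) (u ^ b) = ζ₀ ^ b := by
      rw [map_pow, hmap]
    have e2 : resUnit (u ^ b) = resUnit u ^ b := by
      show Units.map ((resV O : ↥O →+* kV O) : ↥O →* kV O) (u ^ b) = _
      rw [map_pow]
      rfl
    rwa [e1, e2] at h1
  have h2 := RedTo.desc hζ hP (isSupp_sum_twistBy hζ x)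
  rwa [descend_sum_twistBy hζ.pow_eq_one, descend_sum_twistBy hrℓ] at h2

/-- `v(g - t) < 1` in the Gauss valuation ring: `t` has the reduction of `g`. -/
theorem redTo_of_val_lt {F : IntermediateField C (LaurentSeries C)} (h : HasScale O F)
    {g t : ↥F} {y : LaurentSeries (kV O)} (hg : RedTo O (g : LaurentSeries C) y)
    (hlt : (gaussValSub O F h).valuation (g - t) < 1) : RedTo O (t : LaurentSeries C) y := by
  have h1 : g - t ∈ gaussValSub O F h :=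
    ((gaussValSub O F h).valuation_le_one_iff _).mp hlt.le
  have h2 : (⟨g - t, h1⟩ : ↥(gaussValSub O F h)) ∈
      IsLocalRing.maximalIdeal ↥(gaussValSub O F h) :=
    ((gaussValSub O F h).valuation_lt_one_iff _).mpr hlt
  rw [← gaussResF_eq_zero_iff O h] at h2
  have h3 : RedTo O ((g - t : ↥F) : LaurentSeries C) 0 := ⟨h1, h2⟩
  have h4 := redTo_sub hg h3
  have e : (g : LaurentSeries C) - ((g - t : ↥F) : LaurentSeries C) = (t : LaurentSeries C) := by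
    push_cast
    ring
  rwa [e, sub_zero] at h4

/-- Membership in the Gauss valuation ring and `RedTo`. -/
theorem redTo_gaussResF {F : IntermediateField C (LaurentSeries C)} (h : HasScale O F)
    (x : ↥F) (hx : x ∈ gaussValSub O F h) :
    RedTo O (x : LaurentSeries C) (gaussResF O h ⟨x, hx⟩) := ⟨hx, rfl⟩

/-- The reduced field consists of the reductions of the Gauss-integral elements. -/
theorem mem_redField_of_redTo {F : IntermediateField C (LaurentSeries C)} (h : HasScale O F)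
    {x : LaurentSeries C} (hxF : x ∈ F) {y : LaurentSeries (kV O)} (hx : RedTo O x y) :
    y ∈ redField O F h := by
  obtain ⟨hm, rfl⟩ := hx
  exact ⟨⟨⟨x, hxF⟩, hm⟩, rfl⟩

end Descend

/-! ## 4. The generators `e_{aH}` -/

section Gen

open scoped Classical in
theorem eisCoeff_zero' (c : ℕ) (S : Set (ZMod c)) : eisCoeff c S 0 = 0 := by
  simp [eisCoeff]

open scoped Classical in
theorem eisCoeff_one' (c : ℕ) (S : Set (ZMod c)) :
    eisCoeff c S 1 = if (1 : ZMod c) ∈ S then 1 else 0 := by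
  simp [eisCoeff]

open scoped Classical in
/-- The `q¹`-coefficient of `e_S` is `[1 ∈ S]`. -/
theorem eisQuot_coeff_one (c : ℕ) (S : Set (ZMod c)) :
    PowerSeries.coeff 1 (eisQuot c S) = if (1 : ZMod c) ∈ S then 1 else 0 := by
  unfold eisQuot eisNum
  rw [PowerSeries.coeff_mul]
  have h : (Finset.HasAntidiagonal.antidiagonal (1 : ℕ) : Finset (ℕ × ℕ)) = {(0, 1), (1, 0)} := by
    decide
  rw [h, Finset.sum_insert (by decide), Finset.sum_singleton]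
  simp only [PowerSeries.coeff_mk, eisCoeff_zero', eisCoeff_one', zero_mul, zero_add]
  rw [PowerSeries.coeff_zero_eq_constantCoeff_apply, PowerSeries.constantCoeff_invOfUnit]
  simp

/-- `1 ∈ ±aH ↔ a ∈ ±H`. -/
theorem one_mem_cosetSet_iff (c : ℕ) (H : Subgroup (ZMod c)ˣ) (a : (ZMod c)ˣ) :
    (1 : ZMod c) ∈ cosetSet c H a ↔ (a ∈ H ∨ -a ∈ H) := by
  constructor
  · rintro ⟨h, hh, h1 | h1⟩
    · left
      have e : a * h = 1 := Units.ext h1.symm
      have : a = h⁻¹ := eq_inv_of_mul_eq_one_left e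
      rw [this]
      exact H.inv_mem hh
    · right
      have e : (-a) * h = 1 := by
        apply Units.ext
        rw [neg_mul, Units.val_neg, ← h1, Units.val_one]
      have : -a = h⁻¹ := eq_inv_of_mul_eq_one_left e
      rw [this]
      exact H.inv_mem hh
  · rintro (h | h)
    · refine ⟨a⁻¹, H.inv_mem h, Or.inl ?_⟩
      rw [mul_inv_cancel, Units.val_one]
    · refine ⟨(-a)⁻¹, H.inv_mem h, Or.inr ?_⟩
      have e : a * (-a)⁻¹ = -1 := by
        rw [inv_neg, mul_neg, mul_inv_cancel]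
      rw [e, Units.val_neg, neg_neg, Units.val_one]

open scoped Classical in
/-- **The generators of `F_H` are Gauss-integral**, and the `q¹`-coefficient of the reduction of
`e_{aH}` is `1` if `a ∈ ±H` and `0` otherwise. -/
theorem redTo_genBar (A : ValuationSubring Kbar) (M c : ℕ) (H : Subgroup (ZMod c)ˣ)
    (a : (ZMod c)ˣ) :
    ∃ y : LaurentSeries (kV A),
      RedTo A ((genBar M c H a : ↥(FHbar M c H)) : LaurentSeries Kbar) y ∧
      y.coeff 1 = if (a ∈ H ∨ -a ∈ H) then 1 else 0 := by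
  have hcoe : ((genBar M c H a : ↥(FHbar M c H)) : LaurentSeries Kbar)
      = iotaV A (coeffMap (Int.castRingHom ↥A)
          (HahnSeries.ofPowerSeries ℤ ℤ (eisQuot c (cosetSet c H a)))) := by
    show coeffEmb Kbar (eisGen c (cosetSet c H a)) = _
    unfold eisGen
    rw [Fermat.Agent.NEB.H94.coeffEmb_ofPowerSeries_int]
    ext k
    rw [coeffMap_coeff, iotaV_coeff, coeffMap_coeff]
    simp
  refine ⟨redV A (coeffMap (Int.castRingHom ↥A)
    (HahnSeries.ofPowerSeries ℤ ℤ (eisQuot c (cosetSet c H a)))), ?_, ?_⟩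
  · rw [hcoe]
    exact ⟨iotaV_mem_gaussRingV A _, gaussRedV_iotaV A _⟩
  · rw [redV_coeff, coeffMap_coeff]
    have h1 : (HahnSeries.ofPowerSeries ℤ ℤ (eisQuot c (cosetSet c H a))).coeff 1
        = PowerSeries.coeff 1 (eisQuot c (cosetSet c H a)) := by
      have := HahnSeries.ofPowerSeries_apply_coeff (Γ := ℤ) (eisQuot c (cosetSet c H a)) 1
      simpa using this
    rw [h1, eisQuot_coeff_one]
    by_cases hmem : (1 : ZMod c) ∈ cosetSet c H a
    · rw [if_pos hmem, if_pos ((one_mem_cosetSet_iff c H a).mp hmem)]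
      simp
    · rw [if_neg hmem, if_neg (fun h => hmem ((one_mem_cosetSet_iff c H a).mpr h))]
      simp

end Gen

end Fermat.Agent.S48.B2.R.H25

end
end
-- ==== END Fermat.Agent.S48.B2.R.H25_RedOps

-- ==== BEGIN Fermat.Agent.S48.Cheb.H43_BridgeSet
section

/-!
# S48: Chebotarev for subsets, `Stmt_ChebNF → Asm.Stmt_ChebSet` (helper43)

Same proof as `cheb_galois` (`H43_BridgeMain.lean`), with the conjugacy class replaced by an
arbitrary subset of `G`.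
-/

set_option autoImplicit false
set_option linter.unusedSectionVars false
set_option linter.style.haveILetI false

namespace Fermat.Agent.S48.Cheb.H43

open NumberField IsDedekindDomain Ideal
open Fermat.Agent.Lib Fermat.Agent.Lib.FrobDensity Fermat.Agent.Lib.ZetaPrimes
open scoped Pointwise

local notation "Γℚ" => (AlgebraicClosure ℚ ≃ₐ[ℚ] AlgebraicClosure ℚ)

attribute [local instance] Fermat.Agent.Lib.FrobIntegers.qbar_isAlgebraic
  Fermat.Agent.Lib.FrobIntegers.qbar_isAlgClosure Fermat.Agent.Lib.FrobIntegers.qbar_isGalois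

section

variable (L : IntermediateField ℚ (AlgebraicClosure ℚ)) [NumberField L] [IsGalois ℚ L]
variable {G : Type} [Group G] (r : Γℚ →* G)

theorem chebSet_galois (hNF : Stmt_ChebNF) [Finite G]
    (hL : ∀ σ : Γℚ, (∀ x ∈ L, σ x = x) → r σ = 1) (hr : Function.Surjective r)
    (S : Finset ℕ) (Q : G → Prop) (η : ℝ) (hη : 0 < η) :
    ∃ C : ℝ, ∀ s : ℝ, 1 < s → s ≤ 2 →
      ∃ T : Finset ℕ, (∀ p ∈ T, p ∉ S ∧ ∃ g : G, Q g ∧ p ∈ Fermat.Agent.S48.frobPrimes r g) ∧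
        (1 - η) * ((Nat.card {h : G // Q h} : ℝ) / (Nat.card G : ℝ)) *
            Real.log (1 / (s - 1)) - C ≤ ∑ p ∈ T, (p : ℝ) ^ (-s) := by
  classical
  have hρ := rbar_surjective L r hL hr
  haveI : Fintype (L ≃ₐ[ℚ] L) := Fintype.ofFinite _
  let P : Finset (L ≃ₐ[ℚ] L) := Finset.univ.filter (fun τ => Q (rbar L r hL τ))
  choose Cτ hCτ using fun τ : (L ≃ₐ[ℚ] L) => hNF L τ η hη
  set n : ℝ := (Nat.card (L ≃ₐ[ℚ] L) : ℝ) with hn_def
  have hn : 0 < n := by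
    rw [hn_def]
    exact_mod_cast Nat.card_pos
  have hGpos : (0 : ℝ) < (Nat.card G : ℝ) := by exact_mod_cast Nat.card_pos
  -- the counting identity
  have hcount : (P.card : ℝ) / n =
      (Nat.card {h : G // Q h} : ℝ) / (Nat.card G : ℝ) := by
    have h1 := card_preimage_mul (rbar L r hL) hρ Q
    have h2 : Nat.card {τ : L ≃ₐ[ℚ] L // Q (rbar L r hL τ)} = P.card := by
      rw [Nat.card_eq_fintype_card, Fintype.card_subtype]
    rw [h2] at h1
    rw [div_eq_div_iff hn.ne' hGpos.ne', hn_def]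
    exact_mod_cast h1
  refine ⟨(∑ τ ∈ P, Cτ τ + 1 + n * S.card) / n, fun s hs1 hs2 => ?_⟩
  set f : HeightOneSpectrum (𝓞 L) → ℝ := fun w => FrobDensity.wt L s w with hf_def
  have hf0 : ∀ w, 0 ≤ f w := fun w => H31.wt_nonneg' L s w
  have hfsum : Summable f := H31.summable_wt L hs1
  let U : Set (HeightOneSpectrum (𝓞 L)) :=
    {w | Unram L w ∧ ∃ τ ∈ P, IsArithFrobAt ℤ τ w.asIdeal}
  -- step 1
  have hstep1 : ∑ τ ∈ P, ∑' w : frobEq L τ, f w ≤ ∑' w, U.indicator f w := by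
    have h1 : ∀ τ : L ≃ₐ[ℚ] L, ∑' w : frobEq L τ, f w = ∑' w, (frobEq L τ).indicator f w :=
      fun τ => tsum_subtype _ _
    simp_rw [h1]
    rw [← Summable.tsum_finsetSum (fun τ _ => hfsum.indicator _)]
    refine Summable.tsum_le_tsum (fun w => ?_) (summable_sum fun τ _ => hfsum.indicator _)
      (hfsum.indicator _)
    by_cases hwU : w ∈ U
    · obtain ⟨hun, τ₀, hτ₀P, hτ₀⟩ := hwU
      rw [Set.indicator_of_mem (show w ∈ U from ⟨hun, τ₀, hτ₀P, hτ₀⟩)]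
      rw [Finset.sum_eq_single τ₀]
      · exact Set.indicator_le_self' (fun _ _ => hf0 w) w
      · intro τ _ hne
        apply Set.indicator_of_notMem
        rintro ⟨-, hτ⟩
        apply hne
        rw [H31.eq_frobU L ⟨w, hun⟩ hτ, H31.eq_frobU L ⟨w, hun⟩ hτ₀]
      · intro h
        exact absurd hτ₀P h
    · rw [Set.indicator_of_notMem hwU]
      apply le_of_eq
      apply Finset.sum_eq_zero
      intro τ hτ
      apply Set.indicator_of_notMem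
      rintro ⟨hun, hfr⟩
      exact hwU ⟨hun, τ, hτ, hfr⟩
  -- step 2
  obtain ⟨W₀, hW₀⟩ := exists_finset_sum_ge (hfsum.indicator U)
  -- step 3
  let W₁ : Finset (HeightOneSpectrum (𝓞 L)) := W₀.filter (fun w => w ∈ U ∧ ratPrime L w ∉ S)
  let W₂ : Finset (HeightOneSpectrum (𝓞 L)) := W₀.filter (fun w => w ∈ U ∧ ratPrime L w ∈ S)
  have hsplit : ∑ w ∈ W₀, U.indicator f w = ∑ w ∈ W₁, f w + ∑ w ∈ W₂, f w := by
    rw [Finset.sum_indicator_eq_sum_filter,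
      ← Finset.sum_filter_add_sum_filter_not (W₀.filter (fun w => w ∈ U))
        (fun w => ratPrime L w ∉ S)]
    congr 1
    · refine Finset.sum_congr ?_ (fun _ _ => rfl)
      ext w
      simp only [Finset.mem_filter, W₁]
      tauto
    · refine Finset.sum_congr ?_ (fun _ _ => rfl)
      ext w
      simp only [Finset.mem_filter, W₂, not_not]
      tauto
  have hW₂ : ∑ w ∈ W₂, f w ≤ n * S.card := by
    refine (sum_wt_le L W₂ s).trans ?_
    refine mul_le_mul_of_nonneg_left ?_ hn.le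
    have hsub : W₂.image (ratPrime L) ⊆ S := by
      intro p hp
      obtain ⟨w, hw, rfl⟩ := Finset.mem_image.mp hp
      exact (Finset.mem_filter.mp hw).2.2
    calc ∑ p ∈ W₂.image (ratPrime L), (p : ℝ) ^ (-s)
        ≤ ∑ p ∈ W₂.image (ratPrime L), (1 : ℝ) := by
          refine Finset.sum_le_sum (fun p hp => ?_)
          obtain ⟨w, -, rfl⟩ := Finset.mem_image.mp hp
          exact H31.ratPrime_rpow_le_one L hs1 w
      _ = ((W₂.image (ratPrime L)).card : ℝ) := by simp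
      _ ≤ (S.card : ℝ) := by exact_mod_cast Finset.card_le_card hsub
  have hW₁ := sum_wt_le L W₁ s
  -- step 4
  have hsumτ : (P.card : ℝ) * ((1 - η) * Real.log (1 / (s - 1))) - ∑ τ ∈ P, Cτ τ ≤
      ∑ τ ∈ P, ∑' w : frobEq L τ, f w := by
    have : ∑ τ ∈ P, ((1 - η) * Real.log (1 / (s - 1)) - Cτ τ) ≤
        ∑ τ ∈ P, ∑' w : frobEq L τ, f w :=
      Finset.sum_le_sum (fun τ _ => hCτ τ s hs1 hs2)
    rw [Finset.sum_sub_distrib, Finset.sum_const, nsmul_eq_mul] at this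
    exact this
  refine ⟨W₁.image (ratPrime L), ?_, ?_⟩
  · intro p hp
    obtain ⟨w, hw, rfl⟩ := Finset.mem_image.mp hp
    obtain ⟨-, ⟨hun, τ, hτP, hτ⟩, hS⟩ := Finset.mem_filter.mp hw
    refine ⟨hS, rbar L r hL τ, (Finset.mem_filter.mp hτP).2, ?_⟩
    exact mem_frobPrimes L r hL w hun hτ rfl
  · rw [← hcount]
    have hkey : (P.card : ℝ) * ((1 - η) * Real.log (1 / (s - 1))) -
        (∑ τ ∈ P, Cτ τ + 1 + n * S.card) ≤ n * ∑ p ∈ W₁.image (ratPrime L), (p : ℝ) ^ (-s) := by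
      linarith
    rw [← sub_nonneg] at hkey ⊢
    have hrw : ∑ p ∈ W₁.image (ratPrime L), (p : ℝ) ^ (-s) -
        ((1 - η) * ((P.card : ℝ) / n) * Real.log (1 / (s - 1)) -
          (∑ τ ∈ P, Cτ τ + 1 + n * S.card) / n) =
        (n * ∑ p ∈ W₁.image (ratPrime L), (p : ℝ) ^ (-s) -
          ((P.card : ℝ) * ((1 - η) * Real.log (1 / (s - 1))) -
            (∑ τ ∈ P, Cτ τ + 1 + n * S.card))) / n := by
      field_simp
    rw [hrw]
    exact div_nonneg hkey hn.le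

end

/-- Chebotarev for number fields gives Chebotarev for subsets of a finite quotient of `Γℚ`. -/
theorem chebSet_of_nf (hNF : Stmt_ChebNF) : Fermat.Agent.S48.Asm.Stmt_ChebSet := by
  intro G _ _ r hfl hr S Q η hη
  obtain ⟨L₀, hfd, hL₀⟩ := hfl
  have : FiniteDimensional ℚ L₀ := hfd
  set L : IntermediateField ℚ (AlgebraicClosure ℚ) :=
    IntermediateField.normalClosure ℚ L₀ (AlgebraicClosure ℚ) with hL
  have hfdL : FiniteDimensional ℚ L := inferInstance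
  have hnQ : Normal ℚ (AlgebraicClosure ℚ) := IsGalois.to_normal
  have hnorm : Normal ℚ L := normalClosure.normal ℚ L₀ (AlgebraicClosure ℚ)
  have hnf : NumberField L := { to_charZero := inferInstance, to_finiteDimensional := hfdL }
  have hgal : IsGalois ℚ L := { to_isSeparable := inferInstance, to_normal := hnorm }
  exact chebSet_galois L r hNF (fun σ hσ => hL₀ σ (fun x hx => hσ x (L₀.le_normalClosure hx)))
    hr S Q η hη

end Fermat.Agent.S48.Cheb.H43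

end
-- ==== END Fermat.Agent.S48.Cheb.H43_BridgeSet

-- ==== BEGIN Fermat.Agent.S48.Cheb.H43_ChebCyc
section

/-!
# S48 leaf D2: the cyclotomic case of Chebotarev, unconditional (helper43, on helper31's D1)
-/

namespace Fermat.Agent.S48.Cheb.H43

/-- **D2**: the cyclotomic case of Chebotarev. -/
theorem stmt_ChebCyc : Stmt_ChebCyc :=
  chebCyc_of Fermat.Agent.S48.Cheb.H31.stmt_RayDensity

end Fermat.Agent.S48.Cheb.H43

end
-- ==== END Fermat.Agent.S48.Cheb.H43_ChebCyc
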