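-- GENERATED (merged mirror, NOTES/tools/trim/merge3_helper67.py): 5 modules of the originals, bodies verbatim.
import Fermat.Prelude.Def_ModularCurve_PeriodMap
import Mathlib
import Fermat.Agent.Zm.S48_L06_000
import Fermat.Agent.Zm.S48_L01_000
import Fermat.Agent.Zm.S48_L04_000
import Fermat.Agent.Zm.S35_L14_001
import Fermat.Agent.Zm.S48_L01_001
import Fermat.Agent.Zm.S48_L05_000
import Fermat.Agent.Zm.S35_L18_000
import Fermat.Agent.Zm.S35_L03_002

-- ==== BEGIN Fermat.Agent.NEB.EIG.H39_FamDefs2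
section

/-!
# NEB / EIG (helper39): TW-FAM (e), the Hecke family and the diamond operators

`Stmt_FAM_diam` generalises `Stmt_FAM_hecke` from `γ ∈ Gam1 M c` to `g ∈ Γ₀(M)`:
`repD x · g = ε · g · repD y` with `ε ∈ Gam1 M c` (same proof: compare the `(0,0)` entries mod `c`).
It gives: the Hecke operator of `Gam1 M c` commutes with the diamond operators.  No `sorry` here.
-/

set_option autoImplicit false

namespace Fermat.Agent.NEB.EIG.H39

open CongruenceSubgroup Matrix.SpecialLinearGroup ModularForm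
open scoped MatrixGroups

/-- **TW-FAM (e)**: for `g ∈ Γ₀(M)`: `repD x · g = ε · g · repD y` with `ε ∈ Gam1 M c`. -/
def Stmt_FAM_diam : Prop :=
  ∀ (M c ℓ : ℕ), c ∣ M → ℓ.Prime → ¬ ℓ ∣ M → ∀ g : SL(2, ℤ), (M : ℤ) ∣ g 1 0 →
    ∀ x : OnePoint (ZMod ℓ), ∃ ε ∈ Gam1 M c, ∃ y : OnePoint (ZMod ℓ),
      repD M ℓ x * mapGL ℝ g = mapGL ℝ ε * mapGL ℝ g * repD M ℓ y

end Fermat.Agent.NEB.EIG.H39

end
-- ==== END Fermat.Agent.NEB.EIG.H39_FamDefs2

-- ==== BEGIN Fermat.Agent.NEB.EIG.H39_Res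
section

/-!
# NEB / EIG (helper39): restriction, operators `A_n`, compatibility lemmas

* `heckeOp_intertwine'` : the intertwining lemma with a function `π` (bijectivity is automatic);
* `resK` : restriction of homomorphisms to a smaller subgroup of `SL(2, ℤ)`; injective on
  torsion-free coefficients when the subgroup contains a principal congruence subgroup;
* `resK_tw` : restriction commutes with conjugation;
* `twLin`, `Aop`, `Bop` : the operators `φ ↦ φ ∘ conj(α_n)` on `Hom(Gam1 L₂ c, L)`.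
-/

set_option autoImplicit false

namespace Fermat.Agent.NEB.EIG.H39

open CongruenceSubgroup Matrix.SpecialLinearGroup ModularForm Finset
open scoped MatrixGroups
open Fermat.Agent.Betti

section Intertwine'

variable {Γ G : Type*} [Group Γ] [Group G] {e : Γ →* G}
  {ι : Type*} [Fintype ι] {rep : ι → G} (H : IsHeckeFamily e rep)
  {A : Type*} [AddCommGroup A]

/-- The intertwining lemma for one group and one family; `π` is any function. -/
theorem heckeOp_intertwine' (he : Function.Injective e)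
    (a b : G) (θa θb : Γ →* Γ)
    (hθa : ∀ γ, e (θa γ) * a = a * e γ)
    (hθb : ∀ γ, e (θb γ) * b = b * e γ)
    (π : ι → ι) (ε : ι → Γ)
    (hrep : ∀ i, rep i * b = e (ε i) * a * rep (π i))
    (φ : Additive Γ →+ A) :
    (H.heckeOp he φ).comp (MonoidHom.toAdditive θb) =
      H.heckeOp he (φ.comp (MonoidHom.toAdditive θa)) := by
  have hinj : Function.Injective π := by
    intro i j hij
    have h1 := hrep i
    have h2 := hrep j
    rw [hij] at h1
    have h3 : rep i = e (ε i * (ε j)⁻¹) * rep j := by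
      have e1 : rep i = e (ε i) * a * rep (π j) * b⁻¹ := by rw [← h1]; group
      have e2 : a * rep (π j) * b⁻¹ = (e (ε j))⁻¹ * rep j := by
        have : rep j = e (ε j) * a * rep (π j) * b⁻¹ := by rw [← h2]; group
        rw [this]; group
      rw [e1, map_mul, map_inv]
      calc e (ε i) * a * rep (π j) * b⁻¹ = e (ε i) * (a * rep (π j) * b⁻¹) := by group
        _ = e (ε i) * ((e (ε j))⁻¹ * rep j) := by rw [e2]
        _ = e (ε i) * (e (ε j))⁻¹ * rep j := by group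
    exact H.inj _ _ _ h3
  have hbij : Function.Bijective π := Finite.injective_iff_bijective.mp hinj
  exact heckeOp_intertwine H H he he a b θa θb hθa hθb (Equiv.ofBijective π hbij) ε hrep φ

end Intertwine'

/-! ## Restriction -/

section Res

variable {A : Type*} [AddCommGroup A]

/-- Restriction of a homomorphism to a smaller subgroup. -/
def resK {K' K : Subgroup SL(2, ℤ)} (h : K' ≤ K) (φ : Additive K →+ A) : Additive K' →+ A :=
  φ.comp (MonoidHom.toAdditive (Subgroup.inclusion h))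

@[simp] theorem resK_apply {K' K : Subgroup SL(2, ℤ)} (h : K' ≤ K) (φ : Additive K →+ A) (γ : K') :
    resK h φ (Additive.ofMul γ) = φ (Additive.ofMul (Subgroup.inclusion h γ)) := rfl

theorem resK_add {K' K : Subgroup SL(2, ℤ)} (h : K' ≤ K) (φ ψ : Additive K →+ A) :
    resK h (φ + ψ) = resK h φ + resK h ψ := rfl

theorem resK_smul {R : Type*} [Semiring R] [Module R A] {K' K : Subgroup SL(2, ℤ)} (h : K' ≤ K)
    (r : R) (φ : Additive K →+ A) : resK h (r • φ) = r • resK h φ := rfl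

theorem Gamma_le_Gam1 {N M c : ℕ} (hM : M ∣ N) (hc : c ∣ N) : Gamma N ≤ Gam1 M c := by
  intro γ hγ
  rw [Gamma_mem] at hγ
  obtain ⟨h00, -, h10, -⟩ := hγ
  have h10' : (N : ℤ) ∣ γ 1 0 := (ZMod.intCast_zmod_eq_zero_iff_dvd _ _).mp h10
  have h00' : (N : ℤ) ∣ γ 0 0 - 1 := by
    rw [← ZMod.intCast_zmod_eq_zero_iff_dvd]
    push_cast
    rw [h00, sub_self]
  exact ⟨(Int.natCast_dvd_natCast.mpr hM).trans h10', (Int.natCast_dvd_natCast.mpr hc).trans h10',
    (Int.natCast_dvd_natCast.mpr hc).trans h00'⟩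

/-- Restriction to a subgroup containing a principal congruence subgroup is injective on
homomorphisms to a torsion-free group. -/
theorem resK_injective {K' K : Subgroup SL(2, ℤ)} (h : K' ≤ K) {N : ℕ} [NeZero N]
    (hN : Gamma N ≤ K') (htf : ∀ (n : ℕ) (a : A), n ≠ 0 → n • a = 0 → a = 0)
    (φ : Additive K →+ A) (hφ : resK h φ = 0) : φ = 0 := by
  refine AddMonoidHom.ext fun γ => ?_
  obtain ⟨γ, rfl⟩ : ∃ g : K, Additive.ofMul g = γ := ⟨Additive.toMul γ, rfl⟩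
  have := Gamma_normal N
  have hidx : (Gamma N).index ≠ 0 := Subgroup.FiniteIndex.index_ne_zero
  have hmem : (γ : SL(2, ℤ)) ^ (Gamma N).index ∈ K' := hN (Subgroup.pow_index_mem _ _)
  have h1 : φ (Additive.ofMul (γ ^ (Gamma N).index)) = 0 := by
    have := congrArg (fun ψ : Additive K' →+ A => ψ (Additive.ofMul ⟨_, hmem⟩)) hφ
    simp only [resK_apply, AddMonoidHom.zero_apply] at this
    have e : γ ^ (Gamma N).index = Subgroup.inclusion h ⟨_, hmem⟩ := Subtype.ext (by simp)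
    rw [e]
    exact this
  rw [ofMul_pow, map_nsmul] at h1
  exact htf _ _ hidx h1

/-- Restriction commutes with conjugation. -/
theorem resK_tw {K' K : Subgroup SL(2, ℤ)} (h : K' ≤ K) (a : GL (Fin 2) ℝ)
    (ha : a ∈ Nrm (inc K)) (ha' : a ∈ Nrm (inc K')) (φ : Additive K →+ A) :
    resK h (tw (inc_injective K) ⟨a, ha⟩ φ) = tw (inc_injective K') ⟨a, ha'⟩ (resK h φ) := by
  refine AddMonoidHom.ext fun γ => ?_
  obtain ⟨γ, rfl⟩ : ∃ g : K', Additive.ofMul g = γ := ⟨Additive.toMul γ, rfl⟩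
  rw [resK_apply, tw_apply, tw_apply, resK_apply]
  congr 2
  apply inc_injective K
  rw [e_conjEnd]
  have := e_conjEnd (inc_injective K') ⟨a, ha'⟩ γ
  simp only [inc_apply] at this ⊢
  rw [Subgroup.coe_inclusion, Subgroup.coe_inclusion, this]

end Res

end Fermat.Agent.NEB.EIG.H39

end
-- ==== END Fermat.Agent.NEB.EIG.H39_Res

-- ==== BEGIN Fermat.Agent.NEB.EIG.H98_Fam
section

/-!
# NEB / EIG, leaf TW-FAM (helper98): the Hecke family `repD M ℓ` for `Gam1 M c`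

* `stmt_FAM_std`   : `repD M ℓ x = ε · heckeRep ℓ x`, `ε ∈ Γ₀(M)`;
* `stmt_FAM_trans` : `repD M ℓ x = diag(ℓ, 1) · δ`, `δ ∈ Gam1 M c`;
* `stmt_FAM_level` : `repD M ℓ x = ε · repD M' ℓ x`, `ε ∈ Gam1 M c`, for `M ∣ M'`;
* `stmt_FAM_hecke` : `repD M ℓ` is a Hecke family for `Gam1 M c`.
-/

set_option autoImplicit false

namespace Fermat.Agent.NEB.EIG.H98

open CongruenceSubgroup Matrix.SpecialLinearGroup ModularForm
open scoped MatrixGroups
open P2MW.S_ModularForm_heckeT_slash_eq_self_of_mem_Gamma0.ModularForm.HeckeSlashInvariance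
open Fermat.Agent.Betti Fermat.Agent.NEB.EIG.H39
open scoped OnePoint

theorem coprime_of_prime_not_dvd {M ℓ : ℕ} (hℓ : ℓ.Prime) (hℓM : ¬ ℓ ∣ M) : Nat.Coprime ℓ M :=
  (Nat.Prime.coprime_iff_not_dvd hℓ).mpr hℓM

theorem kappaSL_00 {M ℓ : ℕ} (h : Nat.Coprime ℓ M) : kappaSL M ℓ 0 0 = ℓ := by
  rw [kappaSL_eq h]; rfl

theorem kappaSL_01 {M ℓ : ℕ} (h : Nat.Coprime ℓ M) : kappaSL M ℓ 0 1 = bezT M ℓ := by
  rw [kappaSL_eq h]; rfl

theorem kappaSL_10 {M ℓ : ℕ} (h : Nat.Coprime ℓ M) : kappaSL M ℓ 1 0 = M := by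
  rw [kappaSL_eq h]; rfl

theorem kappaSL_11 {M ℓ : ℕ} (h : Nat.Coprime ℓ M) : kappaSL M ℓ 1 1 = bezS M ℓ := by
  rw [kappaSL_eq h]; rfl

theorem kappaSL_mem_Gamma0 {M ℓ : ℕ} (h : Nat.Coprime ℓ M) : kappaSL M ℓ ∈ Gamma0 M :=
  mem_Gamma0_of_dvd (by rw [kappaSL_10 h])

/-- **TW-FAM (c)**. -/
theorem stmt_FAM_std : Stmt_FAM_std := by
  intro M ℓ hℓ hℓM x
  have hcop := coprime_of_prime_not_dvd hℓ hℓM
  induction x using OnePoint.rec with
  | infty => exact ⟨1, (Gamma0 M).one_mem, by simp [heckeRep]⟩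
  | coe j => exact ⟨kappaSL M ℓ, kappaSL_mem_Gamma0 hcop, rfl⟩

/-- The element `δ_j = [[1, j + t], [M, 1 + (j + t) M]]`. -/
noncomputable def deltaSL (M ℓ : ℕ) (j : ℤ) : SL(2, ℤ) :=
  mkSL 1 (j + bezT M ℓ) M (1 + (j + bezT M ℓ) * M) (by ring)

theorem deltaSL_mem (M c ℓ : ℕ) (hc : c ∣ M) (j : ℤ) : deltaSL M ℓ j ∈ Gam1 M c := by
  refine ⟨?_, ?_, ?_⟩
  · show (M : ℤ) ∣ (M : ℤ)
    exact dvd_rfl
  · show (c : ℤ) ∣ (M : ℤ)
    exact Int.natCast_dvd_natCast.mpr hc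
  · show (c : ℤ) ∣ (1 : ℤ) - 1
    simp

/-- **TW-FAM (d)**. -/
theorem stmt_FAM_trans : Stmt_FAM_trans := by
  intro M c ℓ hc hℓ hℓM x
  have hcop := coprime_of_prime_not_dvd hℓ hℓM
  have hℓ0 : ℓ ≠ 0 := hℓ.ne_zero
  induction x using OnePoint.rec with
  | infty => exact ⟨1, (Gam1 M c).one_mem, by simp⟩
  | coe j =>
    refine ⟨deltaSL M ℓ j.val, deltaSL_mem M c ℓ hc _, ?_⟩
    have hb : ((ℓ : ℤ) : ℝ) * ((bezS M ℓ : ℤ) : ℝ) - ((bezT M ℓ : ℤ) : ℝ) * ((M : ℤ) : ℝ) = 1 := by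
      exact_mod_cast bez_eq hcop
    push_cast at hb
    rw [repD_coe, kappaSL_eq hcop]
    apply Units.ext
    ext a b
    fin_cases a <;> fin_cases b <;>
      simp [deltaSL, hℓ0, Matrix.mul_apply, Fin.sum_univ_two] <;>
      first | ring1 | linear_combination hb

/-- **TW-FAM (b)**. -/
theorem stmt_FAM_level : Stmt_FAM_level := by
  intro M M' c ℓ hc hMM' hℓ hℓM' x
  have hℓM : ¬ ℓ ∣ M := fun h => hℓM' (h.trans hMM')
  have hcop := coprime_of_prime_not_dvd hℓ hℓM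
  have hcop' := coprime_of_prime_not_dvd hℓ hℓM'
  induction x using OnePoint.rec with
  | infty => exact ⟨1, (Gam1 M c).one_mem, by simp⟩
  | coe j =>
    refine ⟨kappaSL M ℓ * (kappaSL M' ℓ)⁻¹, ?_, ?_⟩
    · obtain ⟨m, hm⟩ := hMM'
      have hcM : (c : ℤ) ∣ (M : ℤ) := Int.natCast_dvd_natCast.mpr hc
      have h10 : (kappaSL M ℓ * (kappaSL M' ℓ)⁻¹) 1 0
          = (M : ℤ) * (bezS M' ℓ - bezS M ℓ * m) := by
        rw [sl_mul_10, sl_inv_00, sl_inv_10, kappaSL_10 hcop, kappaSL_11 hcop, kappaSL_10 hcop',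
          kappaSL_11 hcop', hm]
        push_cast
        ring
      have h00 : (kappaSL M ℓ * (kappaSL M' ℓ)⁻¹) 0 0 - 1
          = (M : ℤ) * (m * (bezT M' ℓ - bezT M ℓ)) := by
        rw [sl_mul_00, sl_inv_00, sl_inv_10, kappaSL_00 hcop, kappaSL_01 hcop, kappaSL_10 hcop',
          kappaSL_11 hcop']
        have := bez_eq hcop'
        rw [hm] at this ⊢
        push_cast at this ⊢
        linear_combination this
      refine ⟨?_, ?_, ?_⟩
      · rw [h10]; exact Dvd.intro _ rfl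
      · rw [h10]; exact Dvd.dvd.mul_right hcM _
      · rw [h00]; exact Dvd.dvd.mul_right hcM _
    · rw [repD_coe, repD_coe, map_mul, map_inv, mul_assoc, inv_mul_cancel_left]

/-- If `diag(ℓ, 1) · g = κ · diag(ℓ, 1)` then `κ` and `g` have the same upper-left entry. -/
theorem diag_comm_00 {ℓ : ℕ} (hℓ0 : ℓ ≠ 0) {g κ : SL(2, ℤ)}
    (h : heckeDiagMatrix ℓ * mapGL ℝ g = mapGL ℝ κ * heckeDiagMatrix ℓ) : κ 0 0 = g 0 0 := by
  have h00 := congrArg (fun A : GL (Fin 2) ℝ => (A : Matrix (Fin 2) (Fin 2) ℝ) 0 0) h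
  simp [hℓ0, Matrix.mul_apply, Fin.sum_univ_two] at h00
  have hℓ' : (ℓ : ℝ) ≠ 0 := by exact_mod_cast hℓ0
  have : ((κ 0 0 : ℤ) : ℝ) = ((g 0 0 : ℤ) : ℝ) := by
    apply mul_left_cancel₀ hℓ'
    first | linear_combination h00 | linear_combination -h00
  exact_mod_cast this

/-- **TW-FAM (a)**. -/
theorem stmt_FAM_hecke : Stmt_FAM_hecke := by
  intro M c ℓ hc hℓ hℓM
  have : Fact ℓ.Prime := ⟨hℓ⟩
  have hℓ0 : ℓ ≠ 0 := hℓ.ne_zero
  have hT := isHeckeFamily_T M hℓM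
  refine ⟨?_, ?_⟩
  · rintro ⟨γ, hγ⟩ x
    obtain ⟨εx, hεx, hx⟩ := stmt_FAM_std M ℓ hℓ hℓM x
    obtain ⟨y, g', hg'⟩ := hT.exists_mul ⟨γ, Gam1_le_Gamma0 M c hγ⟩ x
    obtain ⟨εy, hεy, hy⟩ := stmt_FAM_std M ℓ hℓ hℓM y
    obtain ⟨δx, hδx, hx'⟩ := stmt_FAM_trans M c ℓ hc hℓ hℓM x
    obtain ⟨δy, hδy, hy'⟩ := stmt_FAM_trans M c ℓ hc hℓ hℓM y
    have hg'' : heckeRep ℓ x * mapGL ℝ γ = mapGL ℝ (g' : SL(2, ℤ)) * heckeRep ℓ y := hg'
    have hrepy : heckeRep ℓ y = mapGL ℝ εy⁻¹ * repD M ℓ y := by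
      rw [hy, ← mul_assoc, ← map_mul, inv_mul_cancel, map_one, one_mul]
    -- the equation for `repD`
    have E : repD M ℓ x * mapGL ℝ γ = mapGL ℝ (εx * (g' : SL(2, ℤ)) * εy⁻¹) * repD M ℓ y := by
      rw [hx, mul_assoc, hg'', hrepy, map_mul, map_mul]
      simp only [mul_assoc]
    -- the element lies in `Gam1 M c`
    have hΓ0 : εx * (g' : SL(2, ℤ)) * εy⁻¹ ∈ Gamma0 M :=
      (Gamma0 M).mul_mem ((Gamma0 M).mul_mem hεx g'.2) ((Gamma0 M).inv_mem hεy)
    have hM10 : (M : ℤ) ∣ (εx * (g' : SL(2, ℤ)) * εy⁻¹) 1 0 := dvd_of_mem_Gamma0 hΓ0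
    have hcomm : heckeDiagMatrix ℓ * mapGL ℝ (δx * γ * δy⁻¹)
        = mapGL ℝ (εx * (g' : SL(2, ℤ)) * εy⁻¹) * heckeDiagMatrix ℓ := by
      have h1 : heckeDiagMatrix ℓ * mapGL ℝ δx * mapGL ℝ γ
          = mapGL ℝ (εx * (g' : SL(2, ℤ)) * εy⁻¹) * (heckeDiagMatrix ℓ * mapGL ℝ δy) := by
        rw [← hx', ← hy']
        exact E
      calc heckeDiagMatrix ℓ * mapGL ℝ (δx * γ * δy⁻¹)
          = heckeDiagMatrix ℓ * mapGL ℝ δx * mapGL ℝ γ * (mapGL ℝ δy)⁻¹ := by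
            rw [map_mul, map_mul, map_inv]
            simp only [mul_assoc]
        _ = mapGL ℝ (εx * (g' : SL(2, ℤ)) * εy⁻¹) * (heckeDiagMatrix ℓ * mapGL ℝ δy) * (mapGL ℝ δy)⁻¹ := by
            rw [h1]
        _ = mapGL ℝ (εx * (g' : SL(2, ℤ)) * εy⁻¹) * heckeDiagMatrix ℓ := by
            rw [mul_assoc, mul_inv_cancel_right]
    have h00 := diag_comm_00 hℓ0 hcomm
    have hgmem : δx * γ * δy⁻¹ ∈ Gam1 M c :=
      (Gam1 M c).mul_mem ((Gam1 M c).mul_mem hδx hγ) ((Gam1 M c).inv_mem hδy)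
    have hmem : εx * (g' : SL(2, ℤ)) * εy⁻¹ ∈ Gam1 M c := by
      refine ⟨hM10, (Int.natCast_dvd_natCast.mpr hc).trans hM10, ?_⟩
      rw [h00]
      exact hgmem.2.2
    exact ⟨y, ⟨_, hmem⟩, E⟩
  · rintro x y ⟨ε, hε⟩ h
    obtain ⟨εx, hεx, hx⟩ := stmt_FAM_std M ℓ hℓ hℓM x
    obtain ⟨εy, hεy, hy⟩ := stmt_FAM_std M ℓ hℓ hℓM y
    have h' : repD M ℓ x = mapGL ℝ ε * repD M ℓ y := h
    have hmem : εx⁻¹ * ε * εy ∈ Gamma0 M :=
      (Gamma0 M).mul_mem ((Gamma0 M).mul_mem ((Gamma0 M).inv_mem hεx) (Gam1_le_Gamma0 M c hε)) hεy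
    refine hT.inj x y ⟨_, hmem⟩ ?_
    show heckeRep ℓ x = mapGL ℝ (εx⁻¹ * ε * εy) * heckeRep ℓ y
    have h2 : mapGL ℝ εx * heckeRep ℓ x = mapGL ℝ ε * (mapGL ℝ εy * heckeRep ℓ y) := by
      rw [← hx, ← hy]
      exact h'
    calc heckeRep ℓ x = (mapGL ℝ εx)⁻¹ * (mapGL ℝ εx * heckeRep ℓ x) := by
          rw [inv_mul_cancel_left]
      _ = (mapGL ℝ εx)⁻¹ * (mapGL ℝ ε * (mapGL ℝ εy * heckeRep ℓ y)) := by rw [h2]
      _ = mapGL ℝ (εx⁻¹ * ε * εy) * heckeRep ℓ y := by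
          rw [map_mul, map_mul, map_inv]
          simp only [mul_assoc]

end Fermat.Agent.NEB.EIG.H98

end
-- ==== END Fermat.Agent.NEB.EIG.H98_Fam

-- ==== BEGIN Fermat.Agent.NEB.H29_InvJH
section

/-!
# LG-NEB, package INV at the level of `J_H` (helper29)

Instantiation of `stmt_INV_FF`, `stmt_SIGMA_FF` at helper14's interface (`NEB/H14_JHDefs.lean`,
`H14_JHRules.lean`): for `hd : HeckeData M c ℓ H` and `n = [F_H(Mℓ) : α F_H(M)]` (`= ℓ + 1`):

* `stmt_INV_JH` : `y ∈ J_H[m]` fixed by the diamond operators, `F_H / F₀` unramified (FH-UNR)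
  `⟹ T^H y - n y = π^* y₀`, `y₀ ∈ J₀(M)[m]`;
* `stmt_SIGMA_JH` : `y₀ ∈ J₀(M)[m]`, `π^* y₀ = 0 ⟹ T₀ y₀ - n y₀ = 0`.
-/

set_option autoImplicit false
set_option linter.style.haveILetI false

noncomputable section

namespace Fermat.Agent.NEB.H29

open AlgebraicCurve ModularCurve
open Fermat.Agent.NEB Fermat.Agent.NEB.H14 Fermat.Agent.NEB.JH Fermat.Agent.RED

section NormEquiv

variable {K F F' : Type} [Field K] [Field F] [Field F'] [Algebra K F] [Algebra K F']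

/-- The norm commutes with compatible automorphisms. -/
theorem normFn_algEquiv (φ : F →ₐ[K] F') (g : F ≃ₐ[K] F) (g' : F' ≃ₐ[K] F')
    (h : ∀ x, g' (φ x) = φ (g x)) (z : F') : g (normFn φ z) = normFn φ (g' z) := by
  letI := algebraAlong φ
  have h1 := Algebra.norm_eq_of_equiv_equiv (A₁ := F) (B₁ := F') (A₂ := F) (B₂ := F')
    (g : F ≃+* F) (g' : F' ≃+* F') (by
      ext x
      exact (h x).symm) z
  show g (Algebra.norm F z) = Algebra.norm F (g' z)
  rw [h1]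
  exact (g : F ≃+* F).apply_symm_apply _

theorem normFn_mul (φ : F →ₐ[K] F') (x y : F') :
    normFn φ (x * y) = normFn φ x * normFn φ y := by
  letI := algebraAlong φ
  show Algebra.norm F (x * y) = Algebra.norm F x * Algebra.norm F y
  exact map_mul _ x y

end NormEquiv

section JH

variable {M c ℓ : ℕ} [NeZero M] [NeZero ℓ] {H : Subgroup (ZMod c)ˣ}

/-- The Kummer function of `T^H` satisfies `OpHyp` with `n = [F_H(Mℓ) : α F_H(M)]`. -/
theorem opHyp_THfn (hd : HeckeData M c ℓ H) (m : ℕ) :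
    OpHyp hd.dd.ρ (THfn hd.hβ) m (finrankAlong Kbar (alphaH M c ℓ H)) where
  ne_zero x hx := ((isCorr_THdiv hd.isFF hd.isFF' hd.hβ).hasFn x hx).1
  mul x y := by
    show normFn (alphaH M c ℓ H) (betaBar hd.hβ (x * y)) = _
    rw [map_mul, normFn_mul]
    rfl
  equiv d x := by
    show hd.dd.ρ d (normFn (alphaH M c ℓ H) (betaBar hd.hβ x))
      = normFn (alphaH M c ℓ H) (betaBar hd.hβ (hd.dd.ρ d x))
    rw [← hd.betaGal d x]
    exact normFn_algEquiv (alphaH M c ℓ H) (hd.dd.ρ d) (hd.dd'.ρ d) (hd.alphaGal d) _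
  const ζ _ := by
    show normFn (alphaH M c ℓ H) (betaBar hd.hβ (algebraMap Kbar _ ζ)) = _
    rw [AlgHom.commutes, ← (alphaH M c ℓ H).commutes ζ, normFn_apply_self, map_pow]

/-- **INV** for `J_H`. -/
theorem stmt_INV_JH (hd : HeckeData M c ℓ H)
    (hunr : ∀ w : Place Kbar ↥(FHbar M c H),
      ∃ x : ↥(modularFunctionFieldBar M), w.ord (inclBar M c H x) = 1)
    (m : ℕ) (hm : m ≠ 0) (y : JH M c H) (hy : (m : ℤ) • y = 0)
    (hyG : ∀ d, hd.dd.ρ d • y = y) :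
    ∃ y₀ : JZero M, (m : ℤ) • y₀ = 0 ∧
      piUp M c H y₀ = TH hd.hβ y - finrankAlong Kbar (alphaH M c ℓ H) • y := by
  haveI := finite_units_zmod c
  rw [TH_eq_picMap hd.isFF hd.isFF' hd.hβ]
  exact stmt_INV_FF (isFF0 M) hd.isFF (inclBar M c H) hd.dd.ρ hd.dd.fixed hunr m _ hm
    (isCorr_THdiv hd.isFF hd.isFF' hd.hβ) (opHyp_THfn hd m) y hy hyG

/-- **SIGMA** for `J_H`: the kernel of `π^*` on `J₀(M)[m]` is killed by `T₀ - n`. -/
theorem stmt_SIGMA_JH (hd : HeckeData M c ℓ H)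
    (m : ℕ) (hm : m ≠ 0) (y₀ : JZero M) (hy : (m : ℤ) • y₀ = 0)
    (hker : piUp M c H y₀ = 0) :
    T0 M ℓ y₀ - finrankAlong Kbar (alphaH M c ℓ H) • y₀ = 0 := by
  haveI := finite_units_zmod c
  haveI := neZero_mul M ℓ
  have hF := isFF0 M
  have hF' := isFF0 (M * ℓ)
  have hcorr : IsCorr ((pushD (heckeAlphaBar Kbar M ℓ)).comp (pullD (heckeBetaBar Kbar M ℓ)))
      (normFn (heckeAlphaBar Kbar M ℓ) ∘ heckeBetaBar Kbar M ℓ)
      (1 * finrankAlong Kbar (heckeBetaBar Kbar M ℓ)) :=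
    (isCorr_pushD hF hF' (heckeAlphaBar Kbar M ℓ)).comp (isCorr_pullD hF hF' (heckeBetaBar Kbar M ℓ))
  have hT0 : T0 M ℓ
      = picMap ((pushD (heckeAlphaBar Kbar M ℓ)).comp (pullD (heckeBetaBar Kbar M ℓ))) :=
    (picMap_comp (isCorr_pushD hF hF' (heckeAlphaBar Kbar M ℓ)).isGood
      (isCorr_pullD hF hF' (heckeBetaBar Kbar M ℓ)).isGood).symm
  rw [hT0]
  refine stmt_SIGMA_FF hF hd.isFF (inclBar M c H) hd.dd.ρ hd.dd.fix hd.dd.fixed m _ hm
    hcorr (opHyp_THfn hd m) (fun x => ?_) y₀ hy hker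
  show inclBar M c H (normFn (heckeAlphaBar Kbar M ℓ) (heckeBetaBar Kbar M ℓ x))
    = normFn (alphaH M c ℓ H) (betaBar hd.hβ (inclBar M c H x))
  rw [(galSquare_alpha hd).1]
  have h2 := congrArg (fun f => f x) (inclBar_comp_beta (M := M) (c := c) (H := H) hd.hβ)
  simp only [AlgHom.comp_apply] at h2
  rw [h2]

/-- `[F_H(Mℓ) : α F_H(M)] = [F₀(Mℓ) : α F₀(M)]` (Galois square). -/
theorem finrankAlong_alphaH_eq (hd : HeckeData M c ℓ H) :
    finrankAlong Kbar (alphaH M c ℓ H) = finrankAlong Kbar (heckeAlphaBar Kbar M ℓ) := by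
  haveI := neZero_mul M ℓ
  haveI := finite_range_rho hd.dd'
  haveI : Fintype hd.dd'.ρ.range := Fintype.ofFinite _
  have h := Fermat.Agent.NEB.H2.stmt_GalSquare Kbar _ _ _ _ (heckeAlphaBar Kbar M ℓ)
    (inclBar M c H) (alphaH M c ℓ H)
    (inclBar (M * ℓ) c H) inclBar_comp_alpha.symm
    (finiteAlong_hom (isFF0 M) (isFF0 (M * ℓ)) _) hd.dd'.ρ.range ?_ ?_ ?_ ?_ ?_
  · exact h.2.1
  · intro x hx
    obtain ⟨x₀, hx₀⟩ := hd.dd'.fixed x (fun d => hx _ ⟨d, rfl⟩)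
    exact ⟨x₀, hx₀⟩
  · rintro g y ⟨d, rfl⟩
    exact hd.dd'.fix d y
  · rintro g y ⟨d, rfl⟩
    exact ⟨hd.dd.ρ d y, (hd.alphaGal d y).symm⟩
  · rintro g ⟨d, rfl⟩ hg
    have h1 : hd.dd.ρ d = 1 := by
      refine AlgEquiv.ext fun y => ?_
      have h2 := hg y
      rw [hd.alphaGal d y] at h2
      exact (alphaH M c ℓ H).toRingHom.injective h2
    exact (hd.dd'.ker d).mpr ((hd.dd.ker d).mp h1)
  · intro y hy
    obtain ⟨x₀, hx₀⟩ := hd.dd.fixed y (fun d => by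
      have h2 := hy _ ⟨d, rfl⟩
      rw [hd.alphaGal d y] at h2
      exact (alphaH M c ℓ H).toRingHom.injective h2)
    exact ⟨x₀, hx₀⟩

/-- `[F_H(Mℓ) : α F_H(M)] = ℓ + 1` for a prime `ℓ ∤ M`. -/
theorem finrankAlong_alphaH (hd : HeckeData M c ℓ H) (hℓ : ℓ.Prime) (hM : ¬ ℓ ∣ M) :
    finrankAlong Kbar (alphaH M c ℓ H) = ℓ + 1 := by
  rw [finrankAlong_alphaH_eq hd]
  exact Fermat.Agent.RED.H95.finrankAlong_alpha hℓ hM

/-- **INV** for `J_H`, `ℓ ∤ M` prime: `(T^H_ℓ - (ℓ + 1)) y ∈ π^* J₀(M)[m]`. -/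
theorem stmt_INV_JH' (hd : HeckeData M c ℓ H) (hℓ : ℓ.Prime) (hM : ¬ ℓ ∣ M)
    (hunr : ∀ w : Place Kbar ↥(FHbar M c H),
      ∃ x : ↥(modularFunctionFieldBar M), w.ord (inclBar M c H x) = 1)
    (m : ℕ) (hm : m ≠ 0) (y : JH M c H) (hy : (m : ℤ) • y = 0)
    (hyG : ∀ d, hd.dd.ρ d • y = y) :
    ∃ y₀ : JZero M, (m : ℤ) • y₀ = 0 ∧ piUp M c H y₀ = TH hd.hβ y - (ℓ + 1) • y := by
  have h := stmt_INV_JH hd hunr m hm y hy hyG
  rwa [finrankAlong_alphaH hd hℓ hM] at h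

/-- **SIGMA** for `J_H`, `ℓ ∤ M` prime: `(T_ℓ - (ℓ + 1)) ker π^* = 0` on `J₀(M)[m]`. -/
theorem stmt_SIGMA_JH' (hd : HeckeData M c ℓ H) (hℓ : ℓ.Prime) (hM : ¬ ℓ ∣ M)
    (m : ℕ) (hm : m ≠ 0) (y₀ : JZero M) (hy : (m : ℤ) • y₀ = 0)
    (hker : piUp M c H y₀ = 0) :
    T0 M ℓ y₀ - (ℓ + 1) • y₀ = 0 := by
  have h := stmt_SIGMA_JH hd m hm y₀ hy hker
  rwa [finrankAlong_alphaH hd hℓ hM] at h

end JH

end Fermat.Agent.NEB.H29

end
end
-- ==== END Fermat.Agent.NEB.H29_InvJH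

-- ==== BEGIN Fermat.Agent.NEB.H34_Unr
section
attribute [local instance 10000] SubalgebraClass.toAlgebra
attribute [local instance 10000] HahnSeries.powerSeriesAlgebra

/-!
# NEB, package FH-UNR (helper34), part 4: Kummer generators of `F_H / F₀` over `ℚ̄`
-/

set_option autoImplicit false
set_option linter.unusedSectionVars false
set_option linter.unusedVariables false
set_option linter.style.haveILetI false

open UpperHalfPlane ModularForm CongruenceSubgroup ModularCurve AlgebraicCurve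
open scoped MatrixGroups ModularForm Manifold

noncomputable section

namespace Fermat.Agent.NEB.H34

open Fermat.Agent.GTor

variable {c : ℕ} [NeZero c] (H : Subgroup (ZMod c)ˣ) (M : ℕ)

/-! ## The Kummer generators -/

/-- `y_χ = ∑_a χ(a)⁻¹ e_{±aH}`, an element of `F_H(M)·ℚ̄`. -/
def yBar (χ : (ZMod c)ˣ →* Kbarˣ) : ↥(FHbar M c H) :=
  ∑ a : (ZMod c)ˣ, ((χ a⁻¹ : Kbarˣ) : Kbar) • genBar M c H a

theorem cosetSet_mul_of_mem (a d : (ZMod c)ˣ) (hd : d ∈ H ∨ -d ∈ H) :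
    cosetSet c H (a * d) = cosetSet c H a := by
  ext x
  constructor
  · rintro ⟨h, hh, h1⟩
    rcases hd with hd | hd
    · refine ⟨d * h, H.mul_mem hd hh, ?_⟩
      rw [← mul_assoc]
      exact h1
    · refine ⟨-d * h, H.mul_mem hd hh, ?_⟩
      have e : ((a * (-d * h) : (ZMod c)ˣ) : ZMod c) = -((a * d * h : (ZMod c)ˣ) : ZMod c) := by
        push_cast
        ring
      rw [e, neg_neg]
      exact h1.symm
  · rintro ⟨h, hh, h1⟩
    rcases hd with hd | hd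
    · refine ⟨d⁻¹ * h, H.mul_mem (H.inv_mem hd) hh, ?_⟩
      have e : a * d * (d⁻¹ * h) = a * h := by
        rw [mul_assoc, mul_inv_cancel_left]
      rw [e]
      exact h1
    · refine ⟨(-d)⁻¹ * h, H.mul_mem (H.inv_mem hd) hh, ?_⟩
      have e : ((a * d * ((-d)⁻¹ * h) : (ZMod c)ˣ) : ZMod c) = -((a * h : (ZMod c)ˣ) : ZMod c) := by
        have e1 : a * d * ((-d)⁻¹ * h) = -(a * h) := by
          rw [inv_neg, neg_mul, mul_neg, mul_assoc, mul_inv_cancel_left]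
        rw [e1, Units.val_neg]
      rw [e, neg_neg]
      exact h1.symm

theorem genBar_mul_of_mem (a d : (ZMod c)ˣ) (hd : d ∈ H ∨ -d ∈ H) :
    genBar M c H (a * d) = genBar M c H a := by
  apply Subtype.ext
  show coeffEmb Kbar (eisGen c (cosetSet c H (a * d))) = coeffEmb Kbar (eisGen c (cosetSet c H a))
  rw [cosetSet_mul_of_mem H a d hd]

/-- `y_χ = χ(d)⁻¹ y_χ` for `d ∈ ±H`. -/
theorem yBar_eq_smul (χ : (ZMod c)ˣ →* Kbarˣ) (d : (ZMod c)ˣ) (hd : d ∈ H ∨ -d ∈ H) :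
    yBar H M χ = ((χ d⁻¹ : Kbarˣ) : Kbar) • yBar H M χ := by
  unfold yBar
  rw [Finset.smul_sum]
  refine Fintype.sum_equiv (Equiv.mulRight d⁻¹) _ _ fun a => ?_
  simp only [Equiv.coe_mulRight]
  rw [smul_smul, ← Units.val_mul, ← map_mul]
  have e1 : d⁻¹ * (a * d⁻¹)⁻¹ = a⁻¹ := by
    rw [mul_inv_rev, inv_inv, inv_mul_cancel_left]
  rw [e1]
  congr 1
  have := genBar_mul_of_mem H M (a * d⁻¹) d hd
  rw [inv_mul_cancel_right] at this
  exact this

/-- A nonzero `y_χ` forces `χ` to be trivial on `±H`. -/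
theorem triv_of_yBar_ne_zero (χ : (ZMod c)ˣ →* Kbarˣ) (h0 : yBar H M χ ≠ 0) (d : (ZMod c)ˣ)
    (hd : d ∈ H ∨ -d ∈ H) : χ d = 1 := by
  have h1 := yBar_eq_smul H M χ d hd
  rw [Algebra.smul_def] at h1
  have h2 : (algebraMap Kbar ↥(FHbar M c H) ((1 : Kbar) - ((χ d⁻¹ : Kbarˣ) : Kbar))) *
      yBar H M χ = 0 := by
    rw [map_sub, map_one, sub_mul, one_mul, ← h1, sub_self]
  rcases mul_eq_zero.mp h2 with h3 | h3
  · have h3' := (map_eq_zero (algebraMap Kbar ↥(FHbar M c H))).mp h3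
    have h4 : χ d⁻¹ = 1 := by
      apply Units.ext
      rw [Units.val_one]
      exact (sub_eq_zero.mp h3').symm
    rw [map_inv, inv_eq_one] at h4
    exact h4
  · exact absurd h3 h0

/-- **Fourier inversion**: `φ(c) e_b = ∑_χ χ(b) y_χ`. -/
theorem totient_smul_genBar (b : (ZMod c)ˣ) :
    (c.totient : Kbar) • genBar M c H b =
      ∑ χ : DirichletCharacter Kbar c, (χ (b : ZMod c)) • yBar H M χ.toUnitHom := by
  unfold yBar
  simp only [Finset.smul_sum, smul_smul]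
  rw [Finset.sum_comm]
  simp only [← Finset.sum_smul]
  have key : ∀ a : (ZMod c)ˣ, (∑ χ : DirichletCharacter Kbar c,
      χ (b : ZMod c) * ((χ.toUnitHom a⁻¹ : Kbarˣ) : Kbar)) =
      if a = b then (c.totient : Kbar) else 0 := by
    intro a
    have h1 := DirichletCharacter.sum_char_inv_mul_char_eq Kbar a.isUnit (b : ZMod c)
    have h2 : ∀ χ : DirichletCharacter Kbar c,
        χ (b : ZMod c) * ((χ.toUnitHom a⁻¹ : Kbarˣ) : Kbar) = χ (a : ZMod c)⁻¹ * χ (b : ZMod c) := by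
      intro χ
      rw [MulChar.coe_toUnitHom, mul_comm, ZMod.inv_coe_unit]
    rw [Finset.sum_congr rfl fun χ _ => h2 χ, h1]
    simp only [Units.val_inj]
  simp only [key]
  rw [Finset.sum_eq_single b]
  · rw [if_pos rfl]
  · intro a _ hab
    rw [if_neg hab, zero_smul]
  · intro h
    exact absurd (Finset.mem_univ b) h

/-! ## Base change to `ℂ` -/

variable (ι : Kbar →+* ℂ)

/-- The complex character attached to `χ`. -/
def psiOf (χ : (ZMod c)ˣ →* Kbarˣ) : (ZMod c)ˣ →* ℂˣ :=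
  (Units.map (ι : Kbar →* ℂ)).comp χ

theorem coe_psiOf (χ : (ZMod c)ˣ →* Kbarˣ) (a : (ZMod c)ˣ) :
    ((psiOf ι χ a : ℂˣ) : ℂ) = ι ((χ a : Kbarˣ) : Kbar) := rfl

theorem coe_yBar (χ : (ZMod c)ˣ →* Kbarˣ) :
    ((yBar H M χ : ↥(FHbar M c H)) : LaurentSeries Kbar) =
      ∑ a : (ZMod c)ˣ, ((χ a⁻¹ : Kbarˣ) : Kbar) • coeffEmb Kbar (eisGen c (cosetSet c H a)) := by
  unfold yBar
  rw [AddSubmonoidClass.coe_finsetSum]
  refine Finset.sum_congr rfl fun a _ => ?_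
  rw [IntermediateField.coe_smul, Algebra.smul_def,
    Fermat.Agent.GTor.H56.smul_eq_algebraMap_mul]
  rfl

theorem coeffMap_yBar (χ : (ZMod c)ˣ →* Kbarˣ) :
    coeffMap ι ((yBar H M χ : ↥(FHbar M c H)) : LaurentSeries Kbar) = yC H (psiOf ι χ) := by
  rw [coe_yBar, map_sum]
  unfold yC
  refine Finset.sum_congr rfl fun a _ => ?_
  rw [Fermat.Agent.GTor.H56.coeffMap_smul', Fermat.Agent.GTor.H75.coeffMap_coeffEmb', coe_psiOf]

theorem psiOf_pow (χ : (ZMod c)ˣ →* Kbarˣ) (a : (ZMod c)ˣ) :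
    psiOf ι χ a ^ c.totient = 1 := by
  rw [← map_pow, ← ZMod.card_units_eq_totient, pow_card_eq_one, map_one]


/-! ## Descent -/

section Descent

variable {c : ℕ} [NeZero c] (H : Subgroup (ZMod c)ˣ) (M : ℕ) [NeZero M]

/-- **The Kummer generators are roots of unramified functions.** -/
theorem exists_kummer_yBar (hc2 : 2 ≤ c) (hc : c ∣ M) (hU : UnrCond M c H)
    (χ : (ZMod c)ˣ →* Kbarˣ) (hχ : ∀ d : (ZMod c)ˣ, (d ∈ H ∨ -d ∈ H) → χ d = 1) :
    ∃ u : ↥(modularFunctionFieldBar M), yBar H M χ ^ c.totient = inclBar M c H u ∧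
      (u ≠ 0 → ∀ v : Place Kbar ↥(modularFunctionFieldBar M), (c.totient : ℤ) ∣ v.ord u) := by
  haveI : Fact (1 < c) := ⟨hc2⟩
  have hm : c.totient ≠ 0 := (Nat.totient_pos.mpr (NeZero.pos c)).ne'
  haveI : Algebra.IsAlgebraic ℚ Kbar := AlgebraicClosure.isAlgebraic ℚ
  let ι : Kbar →+* ℂ := (IsAlgClosed.lift : Kbar →ₐ[ℚ] ℂ).toRingHom
  have hψH : ∀ d : (ZMod c)ˣ, (d ∈ H ∨ -d ∈ H) → psiOf ι χ d = 1 := by
    intro d hd
    show (Units.map (ι : Kbar →* ℂ)) (χ d) = 1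
    rw [hχ d hd, map_one]
  obtain ⟨f, hfy, hford⟩ := dvd_ord_yC_pow H hc hU (psiOf ι χ) hm (psiOf_pow ι χ) hψH
  have hmem : coeffMap ι (((yBar H M χ : ↥(FHbar M c H)) : LaurentSeries Kbar) ^ c.totient) ∈
      laurentBaseChange ℂ (modularFunctionFieldFull M) := by
    rw [map_pow, coeffMap_yBar, ← hfy]
    exact f.2
  have hu := Fermat.Agent.NEB.H30.descent ι (modularFunctionFieldFull M) _ hmem
  refine ⟨⟨_, hu⟩, ?_, ?_⟩
  · apply Subtype.ext
    rw [coe_inclBar]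
    rfl
  · intro hu0 v
    obtain ⟨bc, hbc, hiff, -, -⟩ := Fermat.Agent.GTor.H75.stmt_DESC M c.totient hm ι
    have hbcu : bc ⟨_, hu⟩ = f := by
      apply Subtype.ext
      ext n
      rw [hbc ⟨_, hu⟩ n, hfy, ← coeffMap_yBar H M ι χ, ← map_pow, coeffMap_coeff]
    have hf0 : f ≠ 0 := by
      rw [← hbcu]
      exact (map_ne_zero bc).mpr hu0
    have h1 := (hiff ⟨_, hu⟩ hu0).mpr (by
      intro v'
      rw [hbcu]
      exact hford hf0 v')
    exact h1 v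

end Descent


/-! ## Generation -/

section Abstract

variable {F L : Type*} [Field F] [Field L] [Algebra F L]

/-- A field generated by finitely many integral elements: finiteness, integrality, and ring
generation. -/
theorem adjoin_top_consequences (S : Set L) (hfin : S.Finite) (hint : ∀ z ∈ S, IsIntegral F z)
    (htop : IntermediateField.adjoin F S = ⊤) :
    Module.Finite F L ∧ (∀ y : L, IsIntegral F y) ∧
      ∀ y : L, y ∈ Subring.closure (Set.range (algebraMap F L) ∪ S) := by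
  haveI : Finite S := hfin
  have h1 : FiniteDimensional F (IntermediateField.adjoin F S) :=
    IntermediateField.finiteDimensional_adjoin hint
  rw [htop] at h1
  have h2 : Module.Finite F L :=
    Module.Finite.equiv (IntermediateField.topEquiv (F := F) (E := L)).toLinearEquiv
  refine ⟨h2, fun y => IsIntegral.of_finite F y, fun y => ?_⟩
  have h3 : (IntermediateField.adjoin F S).toSubalgebra = Algebra.adjoin F S :=
    IntermediateField.adjoin_toSubalgebra_of_isAlgebraic fun x hx => (hint x hx).isAlgebraic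
  have h4 : y ∈ (IntermediateField.adjoin F S).toSubalgebra := by
    rw [htop]
    trivial
  rw [h3] at h4
  have h5 : y ∈ (Algebra.adjoin F S).toSubring := h4
  rw [Algebra.adjoin_eq_ring_closure] at h5
  exact h5

end Abstract

section Final

variable {c : ℕ} [NeZero c] (H : Subgroup (ZMod c)ˣ) (M : ℕ) [NeZero M]

/-- The set of Kummer generators of `F_H / F₀`. -/
def kumSet : Set ↥(FHbar M c H) :=
  Set.range fun χ : DirichletCharacter Kbar c => yBar H M χ.toUnitHom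

theorem kumSet_finite : (kumSet H M).Finite := Set.finite_range _

/-- `F_H = F₀(y_χ : χ)`. -/
theorem adjoin_kumSet_eq_top :
    letI := algebraAlong (inclBar M c H)
    IntermediateField.adjoin ↥(modularFunctionFieldBar M) (kumSet H M) = ⊤ := by
  letI := algebraAlong (inclBar M c H)
  rw [eq_top_iff]
  rintro ⟨y, hy⟩ -
  set E := IntermediateField.adjoin ↥(modularFunctionFieldBar M) (kumSet H M) with hE
  have hincl : ∀ x : ↥(modularFunctionFieldBar M), inclBar M c H x ∈ E := fun x =>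
    E.algebraMap_mem x
  have hconst : ∀ a : Kbar, algebraMap Kbar ↥(FHbar M c H) a ∈ E := by
    intro a
    have : algebraMap Kbar ↥(FHbar M c H) a =
        inclBar M c H (algebraMap Kbar ↥(modularFunctionFieldBar M) a) :=
      ((inclBar M c H).commutes a).symm
    rw [this]
    exact hincl _
  have hsmul : ∀ (a : Kbar) (z : ↥(FHbar M c H)), z ∈ E → a • z ∈ E := by
    intro a z hz
    rw [Algebra.smul_def]
    exact E.mul_mem (hconst a) hz
  have key : ∃ z : ↥(FHbar M c H), (z : LaurentSeries Kbar) = y ∧ z ∈ E := by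
    refine Fermat.Agent.NEB.H84.FHbar_induction M c H
      (P := fun y => ∃ z : ↥(FHbar M c H), (z : LaurentSeries Kbar) = y ∧ z ∈ E)
      ?_ ?_ ?_ ?_ ?_ ?_ ?_ ?_ hy
    · intro a
      exact ⟨algebraMap Kbar ↥(FHbar M c H) a, rfl, hconst a⟩
    · intro d _ hd
      have h1 : coeffEmb Kbar (qExpand ℚ d jq) ∈ modularFunctionFieldBar M :=
        coeffEmb_mem_laurentBaseChange Kbar (jqd_mem_full M hd)
      exact ⟨inclBar M c H ⟨_, h1⟩, coe_inclBar M c H _, hincl ⟨_, h1⟩⟩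
    · intro a
      refine ⟨genBar M c H a, rfl, ?_⟩
      have h1 := totient_smul_genBar H M a
      have h0 : (c.totient : Kbar) ≠ 0 :=
        Nat.cast_ne_zero.mpr (Nat.totient_pos.mpr (NeZero.pos c)).ne'
      have h2 : genBar M c H a = (c.totient : Kbar)⁻¹ •
          ∑ χ : DirichletCharacter Kbar c, (χ (a : ZMod c)) • yBar H M χ.toUnitHom := by
        rw [← h1, smul_smul, inv_mul_cancel₀ h0, one_smul]
      rw [h2]
      refine hsmul _ _ (E.sum_mem fun χ _ => hsmul _ _ ?_)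
      exact IntermediateField.subset_adjoin _ _ ⟨χ, rfl⟩
    · exact ⟨1, rfl, E.one_mem⟩
    · rintro x y ⟨zx, rfl, hx'⟩ ⟨zy, rfl, hy'⟩
      exact ⟨zx + zy, rfl, E.add_mem hx' hy'⟩
    · rintro x ⟨zx, rfl, hx'⟩
      exact ⟨-zx, rfl, E.neg_mem hx'⟩
    · rintro x ⟨zx, rfl, hx'⟩
      exact ⟨zx⁻¹, IntermediateField.coe_inv _ _, E.inv_mem hx'⟩
    · rintro x y ⟨zx, rfl, hx'⟩ ⟨zy, rfl, hy'⟩
      exact ⟨zx * zy, rfl, E.mul_mem hx' hy'⟩
  obtain ⟨z, hz, h⟩ := key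
  have : z = ⟨y, hy⟩ := Subtype.ext hz
  rw [← this]
  exact h

/-- **FH-UNR** (helper34): under `UnrCond`, `F_H(M) / F₀(M)` is unramified. -/
theorem fh_unr (c M : ℕ) (H : Subgroup (ZMod c)ˣ) : Stmt_FH_unr M c H := by
  intro hc2 hc hM hU w
  haveI : NeZero c := ⟨by omega⟩
  haveI : NeZero M := ⟨hM⟩
  have hm0 : c.totient ≠ 0 := (Nat.totient_pos.mpr (NeZero.pos c)).ne'
  -- the Kummer data
  have hS : ∀ z ∈ kumSet H M, z = 0 ∨ ∃ u : ↥(modularFunctionFieldBar M), u ≠ 0 ∧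
      z ^ c.totient = inclBar M c H u ∧
      ∀ v : Place Kbar ↥(modularFunctionFieldBar M), (c.totient : ℤ) ∣ v.ord u := by
    rintro z ⟨χ, rfl⟩
    by_cases h0 : yBar H M χ.toUnitHom = 0
    · exact Or.inl h0
    · right
      obtain ⟨u, hu, hord⟩ := exists_kummer_yBar H M hc2 hc hU χ.toUnitHom
        (triv_of_yBar_ne_zero H M _ h0)
      have hu0 : u ≠ 0 := by
        rintro rfl
        rw [map_zero] at hu
        exact h0 (pow_eq_zero_iff hm0 |>.mp hu)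
      exact ⟨u, hu0, hu, hord hu0⟩
  letI := algebraAlong (inclBar M c H)
  have hint : ∀ z ∈ kumSet H M, IsIntegral ↥(modularFunctionFieldBar M) z := by
    intro z hz
    rcases hS z hz with rfl | ⟨u, -, hu, -⟩
    · exact isIntegral_zero
    · refine IsIntegral.of_pow (Nat.pos_of_ne_zero hm0) ?_
      rw [hu]
      exact isIntegral_algebraMap
  obtain ⟨hfin, hall, hgen⟩ := adjoin_top_consequences (kumSet H M) (kumSet_finite H M) hint
    (adjoin_kumSet_eq_top H M)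
  have hφ : (inclBar M c H).toRingHom.IsIntegral := fun y => hall y
  have hFF : Fermat.Agent.RED.IsFF Kbar ↥(FHbar M c H) :=
    Fermat.Agent.NEB.H94.isFF_of_finiteAlong (Fermat.Agent.RED.H95.isFF_FN M) (inclBar M c H) hfin
  have hdeg : w.deg = 1 := Fermat.Agent.RED.H51.stmt_FFB_deg Kbar ↥(FHbar M c H) hFF w
  exact exists_uniformizer_along (m := c.totient) (Nat.cast_ne_zero.mpr hm0) (inclBar M c H) hφ w
    hdeg (kumSet H M)
    (fun z hz => (hS z hz).imp id fun ⟨u, hu0, hu, hord⟩ => ⟨u, hu0, hu, hord _⟩) hgen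

end Final

end Fermat.Agent.NEB.H34

end
end
-- ==== END Fermat.Agent.NEB.H34_Unr
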