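-- GENERATED (merged mirror, NOTES/tools/trim/merge3_helper67.py): 7 modules of the originals, bodies verbatim.
import Fermat.Prelude.Def_ModularCurve_ArithmeticGalois
import Mathlib
import Fermat.Agent.Zm.S48_L06_000
import Fermat.Agent.Zm.S48_L04_000
import Fermat.Agent.NEB.H34_TwSum
import Fermat.Agent.Zm.S48_L06_001
import Fermat.Agent.Zm.S48_L02_000
import Fermat.Agent.Zm.S48_L02_003
import Fermat.Agent.Zm.S48_L04_002
import Fermat.Agent.Zm.S48_L05_004
import Fermat.Agent.Zm.S48_L06_002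
import Fermat.Agent.Zm.S48_L03_002

-- ==== BEGIN Fermat.Agent.NEB.H84_Rho
section
attribute [local instance 10000] SubalgebraClass.toAlgebra
attribute [local instance 10000] HahnSeries.powerSeriesAlgebra

/-!
# NEB, package FH-GAL, part 6 (helper84): the diamond operators `ρ : (ℤ/c)ˣ → Aut_{ℚ̄}(F_H)`

* `exists_gamma` : `Γ₀(M) → (ℤ/c)ˣ`, `γ ↦ d_γ`, is onto;
* `rho` : the diamond operators, a monoid homomorphism into the `ℚ̄`-automorphisms;
* `rho_gen`, `rho_incl`, `rho_eq_one_iff`, `rho_arith`;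
* `actHom_eq_rho` : the action of `γ ∈ Γ₀(M)` is the diamond operator of `d_γ⁻¹`.
-/

set_option autoImplicit false
set_option linter.unusedSectionVars false

open UpperHalfPlane ModularForm CongruenceSubgroup ModularCurve
open scoped MatrixGroups ModularForm Manifold

noncomputable section

namespace Fermat.Agent.NEB.H84

section Onto

variable {M c : ℕ} [NeZero M]

theorem exists_gamma (hc : c ∣ M) (u : (ZMod c)ˣ) : ∃ γ : Gamma0 M, dUnit hc γ γ.2 = u := by
  obtain ⟨v, hv⟩ := ZMod.unitsMap_surjective hc u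
  have hcop : IsCoprime (M : ℤ) (((v : ZMod M).val : ℕ) : ℤ) := by
    rw [Nat.isCoprime_iff_coprime]
    exact (ZMod.val_coe_unit_coprime v).symm
  obtain ⟨g, h10, h11⟩ := hcop.exists_SL2_row 1
  have hg : g ∈ Gamma0 M := by
    rw [Gamma0_mem, h10]
    simp
  refine ⟨⟨g, hg⟩, ?_⟩
  apply Units.ext
  rw [coe_dUnit, ← hv]
  show ((g 1 1 : ℤ) : ZMod c) = _
  rw [h11]
  simp [ZMod.unitsMap]

end Onto

section Rho

variable {M c : ℕ} [NeZero M] (H : Subgroup (ZMod c)ˣ) (ι : Kbar →+* ℂ)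
  (hc2 : 2 ≤ c) (hc : c ∣ M)

/-- A matrix `γ ∈ Γ₀(M)` with `d_γ = d⁻¹ mod c`. -/
def gam (d : (ZMod c)ˣ) : Gamma0 M := Classical.choose (exists_gamma (M := M) hc d⁻¹)

theorem dUnit_gam (d : (ZMod c)ˣ) : dUnit hc (gam hc d : Gamma0 M) (gam hc d).2 = d⁻¹ :=
  Classical.choose_spec (exists_gamma (M := M) hc d⁻¹)

/-- The diamond operator, as an algebra homomorphism. -/
def rhoHom (d : (ZMod c)ˣ) : ↥(FHbar M c H) →ₐ[Kbar] ↥(FHbar M c H) :=
  actHom H ι hc2 hc (gam hc d)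

theorem rhoHom_gen (d a : (ZMod c)ˣ) :
    rhoHom H ι hc2 hc d (genBar M c H a) = genBar M c H (a * d) := by
  rw [rhoHom, actHom_gen, dUnit_gam, inv_inv, mul_comm]

theorem rhoHom_incl (d : (ZMod c)ˣ) (x : ↥(modularFunctionFieldBar M)) :
    rhoHom H ι hc2 hc d (inclBar M c H x) = inclBar M c H x :=
  actHom_incl H ι hc2 hc _ x

theorem rhoHom_comp (d d' : (ZMod c)ˣ) :
    (rhoHom H ι hc2 hc d).comp (rhoHom H ι hc2 hc d') = rhoHom H ι hc2 hc (d * d') := by
  apply algHom_ext_FHbar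
  · intro x
    rw [AlgHom.comp_apply, rhoHom_incl, rhoHom_incl, rhoHom_incl]
  · intro a
    rw [AlgHom.comp_apply, rhoHom_gen, rhoHom_gen, rhoHom_gen, mul_assoc, mul_comm d' d]

theorem rhoHom_one : rhoHom H ι hc2 hc 1 = AlgHom.id Kbar ↥(FHbar M c H) := by
  apply algHom_ext_FHbar
  · intro x
    rw [rhoHom_incl, AlgHom.id_apply]
  · intro a
    rw [rhoHom_gen, mul_one, AlgHom.id_apply]

/-- **The diamond operators.** -/
def rho : (ZMod c)ˣ →* (↥(FHbar M c H) ≃ₐ[Kbar] ↥(FHbar M c H)) where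
  toFun d := AlgEquiv.ofAlgHom (rhoHom H ι hc2 hc d) (rhoHom H ι hc2 hc d⁻¹)
    (by rw [rhoHom_comp, mul_inv_cancel, rhoHom_one])
    (by rw [rhoHom_comp, inv_mul_cancel, rhoHom_one])
  map_one' := by
    apply AlgEquiv.ext
    intro x
    show rhoHom H ι hc2 hc 1 x = x
    rw [rhoHom_one, AlgHom.id_apply]
  map_mul' d d' := by
    apply AlgEquiv.ext
    intro x
    show rhoHom H ι hc2 hc (d * d') x = rhoHom H ι hc2 hc d (rhoHom H ι hc2 hc d' x)
    rw [← rhoHom_comp, AlgHom.comp_apply]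

theorem rho_apply (d : (ZMod c)ˣ) (x : ↥(FHbar M c H)) :
    rho H ι hc2 hc d x = rhoHom H ι hc2 hc d x := rfl

theorem rho_gen (d a : (ZMod c)ˣ) :
    rho H ι hc2 hc d (genBar M c H a) = genBar M c H (a * d) :=
  rhoHom_gen H ι hc2 hc d a

theorem rho_incl (d : (ZMod c)ˣ) (x : ↥(modularFunctionFieldBar M)) :
    rho H ι hc2 hc d (inclBar M c H x) = inclBar M c H x :=
  rhoHom_incl H ι hc2 hc d x

/-- The action of `γ ∈ Γ₀(M)` is the diamond operator of `d_γ⁻¹`. -/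
theorem actHom_eq_rho (γ : Gamma0 M) :
    actHom H ι hc2 hc γ = rhoHom H ι hc2 hc (dUnit hc γ γ.2)⁻¹ := by
  apply algHom_ext_FHbar
  · intro x
    rw [rhoHom_incl, actHom_incl]
  · intro a
    rw [rhoHom_gen, actHom_gen, mul_comm]

theorem coe_genBar' (a : (ZMod c)ˣ) :
    ((genBar M c H a : ↥(FHbar M c H)) : LaurentSeries Kbar) =
      coeffEmb Kbar (eisGen c (cosetSet c H a)) := rfl

theorem arith_incl (σ : Kbar ≃ₐ[ℚ] Kbar) (x₀ : ↥(modularFunctionFieldBar M)) :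
    arithmeticRingAut (FHQ M c H) σ (inclBar M c H x₀) =
      inclBar M c H (arithmeticRingAut (modularFunctionFieldFull M) σ x₀) := by
  apply Subtype.ext
  rw [coe_inclBar, coe_arithmeticRingAut_apply, coe_arithmeticRingAut_apply, coe_inclBar]

theorem arith_gen (σ : Kbar ≃ₐ[ℚ] Kbar) (b : (ZMod c)ˣ) :
    arithmeticRingAut (FHQ M c H) σ (genBar M c H b) = genBar M c H b := by
  apply Subtype.ext
  rw [coe_arithmeticRingAut_apply, coe_genBar', coeffMap_coeffEmb]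

/-- The composite `ρ_d ∘ σ` as a ring homomorphism. -/
def rhoArith (d : (ZMod c)ˣ) (σ : Kbar ≃ₐ[ℚ] Kbar) : ↥(FHbar M c H) →+* ↥(FHbar M c H) :=
  (rhoHom H ι hc2 hc d).toRingHom.comp (arithmeticRingAut (FHQ M c H) σ).toRingHom

/-- The composite `σ ∘ ρ_d` as a ring homomorphism. -/
def arithRho (d : (ZMod c)ˣ) (σ : Kbar ≃ₐ[ℚ] Kbar) : ↥(FHbar M c H) →+* ↥(FHbar M c H) :=
  (arithmeticRingAut (FHQ M c H) σ).toRingHom.comp (rhoHom H ι hc2 hc d).toRingHom

theorem rhoArith_apply (d : (ZMod c)ˣ) (σ : Kbar ≃ₐ[ℚ] Kbar) (x : ↥(FHbar M c H)) :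
    rhoArith H ι hc2 hc d σ x = rhoHom H ι hc2 hc d (arithmeticRingAut (FHQ M c H) σ x) := rfl

theorem arithRho_apply (d : (ZMod c)ˣ) (σ : Kbar ≃ₐ[ℚ] Kbar) (x : ↥(FHbar M c H)) :
    arithRho H ι hc2 hc d σ x = arithmeticRingAut (FHQ M c H) σ (rhoHom H ι hc2 hc d x) := rfl

theorem rhoArith_eq (d : (ZMod c)ˣ) (σ : Kbar ≃ₐ[ℚ] Kbar) :
    rhoArith H ι hc2 hc d σ = arithRho H ι hc2 hc d σ := by
  apply ringHom_ext_FHbar H
  · intro a
    rw [rhoArith_apply, arithRho_apply, arithmeticRingAut_algebraMap, AlgHom.commutes,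
      AlgHom.commutes, arithmeticRingAut_algebraMap]
  · intro x₀
    rw [rhoArith_apply, arithRho_apply, arith_incl, rhoHom_incl, rhoHom_incl, arith_incl]
  · intro a
    rw [rhoArith_apply, arithRho_apply, arith_gen, rhoHom_gen, arith_gen]

/-- The diamond operators commute with the Galois action on the coefficients. -/
theorem rho_arith (d : (ZMod c)ˣ) (σ : Kbar ≃ₐ[ℚ] Kbar) (x : ↥(FHbar M c H)) :
    rho H ι hc2 hc d (arithmeticRingAut (FHQ M c H) σ x) =
      arithmeticRingAut (FHQ M c H) σ (rho H ι hc2 hc d x) := by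
  rw [rho_apply, rho_apply, ← rhoArith_apply, ← arithRho_apply, rhoArith_eq]

end Rho

end Fermat.Agent.NEB.H84

end
end
-- ==== END Fermat.Agent.NEB.H84_Rho

-- ==== BEGIN Fermat.Agent.NEB.H94_AlphaGal
section

/-!
# Item 72 (LG-NEB), leaf FH-ALPHAGAL (helper94)

`stmt_FH_alphaGal M c ℓ H : JH.Stmt_FH_alphaGal M c ℓ H`: the degeneracy map `α` (inclusion
`F_H(M) ⊆ F_H(Mℓ)`) intertwines the diamond operators of levels `M` and `Mℓ`.  Formal: both sides
are ring homomorphisms `F_H(M) → F_H(Mℓ)` which agree on the constants, on `F₀(M)` and on the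
generators `e_{±aH}` (helper84's `ringHom_ext_FHbar`).
-/

set_option autoImplicit false
set_option linter.style.haveILetI false

noncomputable section

namespace Fermat.Agent.NEB.H94

open AlgebraicCurve ModularCurve IntermediateField
open Fermat.Agent.NEB Fermat.Agent.NEB.JH

theorem alphaGal_full_mono {N M : ℕ} (h : N ∣ M) :
    modularFunctionFieldFull N ≤ modularFunctionFieldFull M := by
  apply IntermediateField.adjoin.mono
  rintro x ⟨d, hd0, hd, hx⟩
  exact ⟨d, hd0, hd.trans h, hx⟩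

theorem alphaGal_bar_mono {N M : ℕ} (h : N ∣ M) :
    modularFunctionFieldBar N ≤ modularFunctionFieldBar M :=
  laurentBaseChange_mono (alphaGal_full_mono h)

variable (M c ℓ : ℕ) (H : Subgroup (ZMod c)ˣ)

theorem alphaGal_coe_alphaH (x : ↥(FHbar M c H)) :
    ((alphaH M c ℓ H x : ↥(FHbar (M * ℓ) c H)) : LaurentSeries Kbar) = (x : LaurentSeries Kbar) :=
  IntermediateField.coe_inclusion _ x

/-- `α (e_{±aH}) = e_{±aH}`. -/
theorem alphaH_genBar (a : (ZMod c)ˣ) :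
    alphaH M c ℓ H (genBar M c H a) = genBar (M * ℓ) c H a :=
  Subtype.ext (by rw [alphaGal_coe_alphaH]; rfl)

/-- `α` restricted to `F₀(M)` is the inclusion `F₀(M) ⊆ F₀(Mℓ)`. -/
theorem alphaH_inclBar (x : ↥(modularFunctionFieldBar M)) :
    alphaH M c ℓ H (inclBar M c H x)
      = inclBar (M * ℓ) c H
          (IntermediateField.inclusion (alphaGal_bar_mono (dvd_mul_right M ℓ)) x) :=
  Subtype.ext (by
    rw [alphaGal_coe_alphaH, coe_inclBar, coe_inclBar, IntermediateField.coe_inclusion])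

/-- **FH-ALPHAGAL**. -/
theorem stmt_FH_alphaGal : Stmt_FH_alphaGal M c ℓ H := by
  intro dd dd' d x
  have key := H84.ringHom_ext_FHbar H
    (((dd'.ρ d : ↥(FHbar (M * ℓ) c H) ≃ₐ[Kbar] ↥(FHbar (M * ℓ) c H)) :
        ↥(FHbar (M * ℓ) c H) →+* ↥(FHbar (M * ℓ) c H)).comp
      (alphaH M c ℓ H : ↥(FHbar M c H) →+* ↥(FHbar (M * ℓ) c H)))
    ((alphaH M c ℓ H : ↥(FHbar M c H) →+* ↥(FHbar (M * ℓ) c H)).comp
      ((dd.ρ d : ↥(FHbar M c H) ≃ₐ[Kbar] ↥(FHbar M c H)) :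
        ↥(FHbar M c H) →+* ↥(FHbar M c H)))
    ?_ ?_ ?_
  · exact congrArg (fun f : ↥(FHbar M c H) →+* ↥(FHbar (M * ℓ) c H) => f x) key
  · intro a
    simp only [RingHom.comp_apply, RingHom.coe_coe, AlgHom.commutes, AlgEquiv.commutes]
  · intro y
    simp only [RingHom.comp_apply, RingHom.coe_coe]
    rw [dd.fix, alphaH_inclBar, dd'.fix]
  · intro a
    simp only [RingHom.comp_apply, RingHom.coe_coe]
    rw [dd.gen, alphaH_genBar, alphaH_genBar, dd'.gen]

end Fermat.Agent.NEB.H94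

end
end
-- ==== END Fermat.Agent.NEB.H94_AlphaGal

-- ==== BEGIN Fermat.Agent.S48.B1.H22_Eis1Q
section

/-!
# S48 B1 (a): weight one Eisenstein series, part 8 — the `q`-expansion (helper22)

`K c = π cot (π c τ) + π i = -2 π i ∑_{e ≥ 1} q^{c e}` for `c ≥ 1`, and
`Zc (r τ) (ℓ τ) = -π i + ∑_m K (r + ℓ m) - ∑_m K ((ℓ - r) + ℓ m)`.
-/

set_option autoImplicit false

open UpperHalfPlane hiding I
open Complex Filter Topology
open scoped Real

noncomputable section

namespace Fermat.Agent.S48.B1.H22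

/-- `K c = π cot (π c τ) + π i` for `c ≥ 1`, and `K 0 = 0`. -/
def K (τ : ℍ) (c : ℕ) : ℂ := if c = 0 then 0 else cotP ((c : ℂ) * (τ : ℂ)) + π * I

theorem K_zero (τ : ℍ) : K τ 0 = 0 := if_pos rfl

theorem K_succ (τ : ℍ) (m : ℕ) :
    K τ (m + 1) = cotP (((m + 1 : ℕ) : ℂ) * (τ : ℂ)) + π * I := if_neg (Nat.succ_ne_zero m)

theorem K_of_pos (τ : ℍ) {c : ℕ} (hc : 0 < c) : K τ c = cotP ((c : ℂ) * (τ : ℂ)) + π * I :=
  if_neg hc.ne'

theorem cotP_eq_K (τ : ℍ) {c : ℕ} (hc : 0 < c) : cotP ((c : ℂ) * (τ : ℂ)) = K τ c - π * I := by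
  rw [K_of_pos τ hc]
  ring

theorem im_natCast_mul_pos (τ : ℍ) {c : ℕ} (hc : 0 < c) : 0 < ((c : ℂ) * (τ : ℂ)).im := by
  rw [natCast_mul_coe_im]
  have : (0 : ℝ) < c := by exact_mod_cast hc
  exact mul_pos this τ.im_pos

theorem norm_K_succ_le (τ : ℍ) (m : ℕ) :
    ‖K τ (m + 1)‖ ≤ 2 * π / (1 - Real.exp (-2 * π * τ.im)) * Real.exp (-2 * π * τ.im) ^ (m + 1) := by
  rw [K_succ]
  have ht : 0 < ((m : ℝ) + 1) * τ.im := mul_pos (by positivity) τ.im_pos
  have him : ((m : ℝ) + 1) * τ.im ≤ (((m + 1 : ℕ) : ℂ) * (τ : ℂ)).im := by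
    rw [natCast_mul_coe_im]
    push_cast
    exact le_refl _
  refine (norm_cotP_add_pi_I_le ht him).trans ?_
  set ρ : ℝ := Real.exp (-2 * π * τ.im) with hρ
  have hρ0 : 0 < ρ := Real.exp_pos _
  have hρ1 : ρ < 1 := by
    rw [hρ, Real.exp_lt_one_iff]
    have hpi := Real.pi_pos
    have := τ.im_pos
    nlinarith
  have hx : Real.exp (-2 * π * (((m : ℝ) + 1) * τ.im)) = ρ ^ (m + 1) := by
    rw [hρ, ← Real.exp_nat_mul]
    congr 1
    push_cast
    ring
  rw [hx]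
  have := geom_bound hρ0 hρ1 m
  have hpi := Real.pi_pos
  calc 2 * π * (ρ ^ (m + 1) / (1 - ρ ^ (m + 1))) ≤ 2 * π * (ρ ^ (m + 1) / (1 - ρ)) := by
        apply mul_le_mul_of_nonneg_left this (by positivity)
    _ = 2 * π / (1 - ρ) * ρ ^ (m + 1) := by ring

theorem summable_K (τ : ℍ) : Summable (K τ) := by
  rw [← summable_nat_add_iff 1]
  have hρ1 : Real.exp (-2 * π * τ.im) < 1 := by
    rw [Real.exp_lt_one_iff]
    have hpi := Real.pi_pos
    have := τ.im_pos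
    nlinarith
  have h : Summable fun m : ℕ =>
      2 * π / (1 - Real.exp (-2 * π * τ.im)) * Real.exp (-2 * π * τ.im) ^ (m + 1) := by
    apply Summable.mul_left
    exact (summable_nat_add_iff 1).2 (summable_geometric_of_lt_one (Real.exp_pos _).le hρ1)
  exact Summable.of_norm_bounded h (fun m => norm_K_succ_le τ m)

theorem summable_K_comp (τ : ℍ) {ℓ : ℕ} (hℓ : 0 < ℓ) (r : ℕ) :
    Summable fun m : ℕ => K τ (r + ℓ * m) := by
  apply (summable_K τ).comp_injective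
  intro a b h
  have : ℓ * a = ℓ * b := by
    have h' : r + ℓ * a = r + ℓ * b := h
    omega
  exact Nat.eq_of_mul_eq_mul_left hℓ this

/-- `Zc (r τ) (ℓ τ)` in terms of `K`. -/
theorem Zc_eq_K {ℓ : ℕ} (hℓ : 0 < ℓ) {r : ℕ} (hr0 : 0 < r) (hr : r < ℓ) (τ : ℍ) :
    Zc ((r : ℂ) * (τ : ℂ)) (ellTau ℓ hℓ τ)
      = -(π * I) + ∑' m : ℕ, K τ (r + ℓ * m) - ∑' m : ℕ, K τ ((ℓ - r) + ℓ * m) := by
  have hterm : ∀ m : ℕ, zcTerm ((r : ℂ) * (τ : ℂ)) (ellTau ℓ hℓ τ) (m + 1)
      = K τ (r + ℓ * (m + 1)) - K τ ((ℓ - r) + ℓ * m) := by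
    intro m
    rw [zcTerm, coe_ellTau]
    have h1 : 0 < r + ℓ * (m + 1) := by positivity
    have h2 : 0 < (ℓ - r) + ℓ * m := by omega
    have e1 : (r : ℂ) * (τ : ℂ) + ((m + 1 : ℕ) : ℂ) * ((ℓ : ℂ) * (τ : ℂ))
        = ((r + ℓ * (m + 1) : ℕ) : ℂ) * (τ : ℂ) := by
      push_cast
      ring
    have e3 : ((((ℓ - r) + ℓ * m : ℕ)) : ℂ) = (ℓ : ℂ) - (r : ℂ) + (ℓ : ℂ) * (m : ℂ) := by
      rw [Nat.cast_add, Nat.cast_sub hr.le, Nat.cast_mul]
    have e2 : (r : ℂ) * (τ : ℂ) - ((m + 1 : ℕ) : ℂ) * ((ℓ : ℂ) * (τ : ℂ))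
        = -((((ℓ - r) + ℓ * m : ℕ) : ℂ) * (τ : ℂ)) := by
      rw [e3]
      push_cast
      ring
    rw [e1, e2, cotP_neg, cotP_eq_K τ h1, cotP_eq_K τ h2]
    ring
  rw [Zc, tsum_congr hterm]
  have s1 : Summable fun m : ℕ => K τ (r + ℓ * (m + 1)) := by
    apply (summable_K τ).comp_injective
    intro a b h
    have h' : r + ℓ * (a + 1) = r + ℓ * (b + 1) := h
    have : ℓ * (a + 1) = ℓ * (b + 1) := by omega
    have := Nat.eq_of_mul_eq_mul_left hℓ this
    omega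
  have s2 := summable_K_comp τ hℓ (ℓ - r)
  rw [s1.tsum_sub s2, (summable_K_comp τ hℓ r).tsum_eq_zero_add, mul_zero, add_zero,
    cotP_eq_K τ hr0]
  ring

/-- `K c = -2 π i ∑_{e ≥ 1} q^{c e}`. -/
theorem K_eq_tsum (τ : ℍ) (c : ℕ+) :
    K τ c = -2 * π * I * ∑' e : ℕ+, cexp (2 * π * I * τ) ^ ((c : ℕ) * (e : ℕ)) := by
  have hc : 0 < (c : ℕ) := c.pos
  rw [K_of_pos τ hc, cotP_add_pi_I (im_natCast_mul_pos τ hc), nome_nat_mul]
  congr 1
  set x : ℂ := nome (τ : ℂ) ^ (c : ℕ) with hx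
  have hxn : ‖x‖ < 1 := by
    rw [hx, norm_pow]
    exact pow_lt_one₀ (norm_nonneg _) (norm_nome_lt_one τ.im_pos) hc.ne'
  have e1 : ∀ e : ℕ+, cexp (2 * π * I * τ) ^ ((c : ℕ) * (e : ℕ)) = x ^ (e : ℕ) := by
    intro e
    rw [hx, ← pow_mul]
    rfl
  simp_rw [e1]
  rw [tsum_pnat_eq_tsum_succ (f := fun n => x ^ n)]
  simp_rw [pow_succ]
  rw [tsum_mul_right, tsum_geometric_of_norm_lt_one hxn]
  rw [div_eq_mul_inv, mul_comm]

end Fermat.Agent.S48.B1.H22

end
end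
-- ==== END Fermat.Agent.S48.B1.H22_Eis1Q

-- ==== BEGIN Fermat.Agent.S48.B1.H55_Asm2
section

/-!
# S48, B1 assembly, part 2 (helper55): the Hecke operators on `S_k(M, χ)` as commuting
endomorphisms, through the coefficient sequences

* `coeffOp p c a n = a (p n) + c · [p ∣ n] a (n / p)`: the formal operator; `coeffOp_comm`;
* `coeffSeq g`: the sequence of `q`-coefficients, additive, homogeneous, injective;
* `heckeOp hH M χ k p`: the operator `T_p` on `nebSubmodule M χ k`, from `Stmt_HeckeNeb`;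
  `coeffSeq_heckeOp`, `heckeOp_commute`.
-/

set_option autoImplicit false

open CongruenceSubgroup UpperHalfPlane ModularForm
open scoped MatrixGroups ModularForm Manifold

noncomputable section

namespace Fermat.Agent.S48.B1.H55

open Fermat.Agent.S48.Int (HasNeb)
open Fermat.Agent.S23.H22 (Nice nice_of_modularForm)

/-- The formal Hecke operator on coefficient sequences. -/
def coeffOp (p : ℕ) (c : ℂ) (a : ℕ → ℂ) : ℕ → ℂ :=
  fun n => a (p * n) + c * (if p ∣ n then a (n / p) else 0)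

theorem coeffOp_apply (p : ℕ) (c : ℂ) (a : ℕ → ℂ) (n : ℕ) :
    coeffOp p c a n = a (p * n) + c * (if p ∣ n then a (n / p) else 0) := rfl

theorem coeffOp_add (p : ℕ) (c : ℂ) (a b : ℕ → ℂ) :
    coeffOp p c (a + b) = coeffOp p c a + coeffOp p c b := by
  funext n
  simp only [coeffOp, Pi.add_apply]
  split_ifs <;> ring

theorem coeffOp_smul (p : ℕ) (c : ℂ) (t : ℂ) (a : ℕ → ℂ) :
    coeffOp p c (t • a) = t • coeffOp p c a := by
  funext n
  simp only [coeffOp, Pi.smul_apply, smul_eq_mul]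
  split_ifs <;> ring

/-- The formal Hecke operators at distinct primes commute. -/
theorem coeffOp_comm {p q : ℕ} (hp : p.Prime) (hq : q.Prime) (hpq : p ≠ q) (c d : ℂ)
    (a : ℕ → ℂ) : coeffOp p c (coeffOp q d a) = coeffOp q d (coeffOp p c a) := by
  funext n
  have h1 : q ∣ p * n ↔ q ∣ n := by
    rw [hq.dvd_mul]
    constructor
    · rintro (h | h)
      · exact absurd ((Nat.prime_dvd_prime_iff_eq hq hp).1 h).symm hpq
      · exact h
    · exact Or.inr
  have h2 : p ∣ q * n ↔ p ∣ n := by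
    rw [hp.dvd_mul]
    constructor
    · rintro (h | h)
      · exact absurd ((Nat.prime_dvd_prime_iff_eq hp hq).1 h) hpq
      · exact h
    · exact Or.inr
  have hcomm : q * (p * n) = p * (q * n) := by ring
  simp only [coeffOp, h1, h2, hcomm]
  by_cases hpn : p ∣ n
  · by_cases hqn : q ∣ n
    · -- both divide
      have e1 : p * n / q = p * (n / q) := Nat.mul_div_assoc p hqn
      have e2 : q * n / p = q * (n / p) := Nat.mul_div_assoc q hpn
      have hqnp : q ∣ n / p := by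
        obtain ⟨m, rfl⟩ := hpn
        rw [Nat.mul_div_cancel_left m hp.pos]
        rcases hq.dvd_mul.1 hqn with h | h
        · exact absurd ((Nat.prime_dvd_prime_iff_eq hq hp).1 h).symm hpq
        · exact h
      have hpnq : p ∣ n / q := by
        obtain ⟨m, rfl⟩ := hqn
        rw [Nat.mul_div_cancel_left m hq.pos]
        rcases hp.dvd_mul.1 hpn with h | h
        · exact absurd ((Nat.prime_dvd_prime_iff_eq hp hq).1 h) hpq
        · exact h
      have e3 : n / p / q = n / q / p := by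
        rw [Nat.div_div_eq_div_mul, Nat.div_div_eq_div_mul, mul_comm]
      simp only [hpn, hqn, hqnp, hpnq, if_true, e1, e2, e3]
      ring
    · have hqnp : ¬ q ∣ n / p := fun h => hqn (dvd_trans h (Nat.div_dvd_of_dvd hpn))
      have e2 : q * n / p = q * (n / p) := Nat.mul_div_assoc q hpn
      simp only [hpn, hqn, hqnp, if_true, if_false, e2]
      ring
  · by_cases hqn : q ∣ n
    · have hpnq : ¬ p ∣ n / q := fun h => hpn (dvd_trans h (Nat.div_dvd_of_dvd hqn))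
      have e1 : p * n / q = p * (n / q) := Nat.mul_div_assoc p hqn
      simp only [hpn, hqn, hpnq, if_true, if_false, e1]
      ring
    · simp only [hpn, hqn, if_false]
      ring

/-- The sequence of `q`-coefficients of a cusp form. -/
def coeffSeq {M : ℕ} {k : ℤ} (g : CuspForm (Gamma1 M) k) : ℕ → ℂ :=
  fun n => ModularFormClass.qCoeff g n

theorem coeffSeq_apply {M : ℕ} {k : ℤ} (g : CuspForm (Gamma1 M) k) (n : ℕ) :
    coeffSeq g n = ModularFormClass.qCoeff g n := rfl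

theorem coeffSeq_eq {M : ℕ} {k : ℤ} (g : CuspForm (Gamma1 M) k) (n : ℕ) :
    coeffSeq g n = (qExpansion 1 (g : ℍ → ℂ)).coeff n := rfl

theorem coeffSeq_add {M : ℕ} {k : ℤ} (g h : CuspForm (Gamma1 M) k) :
    coeffSeq (g + h) = coeffSeq g + coeffSeq h := by
  funext n
  have hcoe : ((g + h : CuspForm (Gamma1 M) k) : ℍ → ℂ) = (g : ℍ → ℂ) + (h : ℍ → ℂ) := rfl
  rw [Pi.add_apply, coeffSeq_eq, coeffSeq_eq, coeffSeq_eq, hcoe,
    Nice.qExpansion_add one_pos (Fermat.Agent.S48.Int.H22.nice_cusp1 g)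
      (Fermat.Agent.S48.Int.H22.nice_cusp1 h), map_add]

theorem coeffSeq_smul {M : ℕ} {k : ℤ} (t : ℂ) (g : CuspForm (Gamma1 M) k) :
    coeffSeq (t • g) = t • coeffSeq g := by
  funext n
  have hcoe : ((t • g : CuspForm (Gamma1 M) k) : ℍ → ℂ) = t • (g : ℍ → ℂ) := rfl
  rw [Pi.smul_apply, coeffSeq_eq, coeffSeq_eq, hcoe,
    Nice.qExpansion_smul one_pos (Fermat.Agent.S48.Int.H22.nice_cusp1 g), smul_eq_mul]
  simp

theorem coeffSeq_injective {M : ℕ} {k : ℤ} :
    Function.Injective (coeffSeq : CuspForm (Gamma1 M) k → ℕ → ℂ) := by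
  intro g h hgh
  have hq : qExpansion 1 (g : ℍ → ℂ) = qExpansion 1 (h : ℍ → ℂ) := by
    ext n
    exact congrFun hgh n
  have hfun : (g : ℍ → ℂ) = (h : ℍ → ℂ) :=
    Nice.eq_of_qExpansion_eq one_pos (Fermat.Agent.S48.Int.H22.nice_cusp1 g)
      (Fermat.Agent.S48.Int.H22.nice_cusp1 h) hq
  exact DFunLike.coe_injective hfun

/-- The eigenvalue factor `χ(p) p^{k-1}`. -/
def heckeFactor {M : ℕ} (χ : DirichletCharacter ℂ M) (k : ℤ) (p : ℕ) : ℂ :=
  χ (p : ZMod M) * (p : ℂ) ^ (k - 1)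

theorem exists_hecke (hH : Stmt_HeckeNeb) (M : ℕ) [NeZero M] (χ : DirichletCharacter ℂ M)
    (k : ℤ) (p : ℕ) (hp : p.Prime) (hpM : ¬ p ∣ M) (g : nebSubmodule M χ k) :
    ∃ g' : nebSubmodule M χ k,
      coeffSeq (g' : CuspForm (Gamma1 M) k) =
        coeffOp p (heckeFactor χ k p) (coeffSeq (g : CuspForm (Gamma1 M) k)) := by
  obtain ⟨g', hg', hc⟩ := hH M χ k g.1 g.2 p hp hpM
  refine ⟨⟨g', hg'⟩, ?_⟩
  funext n
  exact hc n

/-- The Hecke operator `T_p` on `S_k(M, χ)`. -/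
def heckeOp (hH : Stmt_HeckeNeb) (M : ℕ) [NeZero M] (χ : DirichletCharacter ℂ M)
    (k : ℤ) (p : ℕ) (hp : p.Prime) (hpM : ¬ p ∣ M) : Module.End ℂ (nebSubmodule M χ k) where
  toFun g := Classical.choose (exists_hecke hH M χ k p hp hpM g)
  map_add' g h := by
    apply Subtype.ext
    apply coeffSeq_injective
    have h1 := Classical.choose_spec (exists_hecke hH M χ k p hp hpM (g + h))
    have h2 := Classical.choose_spec (exists_hecke hH M χ k p hp hpM g)
    have h3 := Classical.choose_spec (exists_hecke hH M χ k p hp hpM h)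
    have e1 : coeffSeq ((g + h : nebSubmodule M χ k) : CuspForm (Gamma1 M) k) =
        coeffSeq (g : CuspForm (Gamma1 M) k) + coeffSeq (h : CuspForm (Gamma1 M) k) :=
      coeffSeq_add _ _
    refine h1.trans ?_
    refine Eq.trans ?_ (coeffSeq_add _ _).symm
    rw [h2, h3, e1, coeffOp_add]
  map_smul' t g := by
    apply Subtype.ext
    apply coeffSeq_injective
    have h1 := Classical.choose_spec (exists_hecke hH M χ k p hp hpM (t • g))
    have h2 := Classical.choose_spec (exists_hecke hH M χ k p hp hpM g)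
    have e1 : coeffSeq ((t • g : nebSubmodule M χ k) : CuspForm (Gamma1 M) k) =
        t • coeffSeq (g : CuspForm (Gamma1 M) k) := coeffSeq_smul _ _
    refine h1.trans ?_
    refine Eq.trans ?_ (coeffSeq_smul _ _).symm
    rw [h2, e1, coeffOp_smul]
    rfl

theorem coeffSeq_heckeOp (hH : Stmt_HeckeNeb) (M : ℕ) [NeZero M] (χ : DirichletCharacter ℂ M)
    (k : ℤ) (p : ℕ) (hp : p.Prime) (hpM : ¬ p ∣ M) (g : nebSubmodule M χ k) :
    coeffSeq ((heckeOp hH M χ k p hp hpM g : nebSubmodule M χ k) : CuspForm (Gamma1 M) k) =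
      coeffOp p (heckeFactor χ k p) (coeffSeq (g : CuspForm (Gamma1 M) k)) :=
  Classical.choose_spec (exists_hecke hH M χ k p hp hpM g)

theorem heckeOp_commute (hH : Stmt_HeckeNeb) (M : ℕ) [NeZero M] (χ : DirichletCharacter ℂ M)
    (k : ℤ) (p q : ℕ) (hp : p.Prime) (hpM : ¬ p ∣ M) (hq : q.Prime) (hqM : ¬ q ∣ M) :
    Commute (heckeOp hH M χ k p hp hpM) (heckeOp hH M χ k q hq hqM) := by
  by_cases hpq : p = q
  · subst hpq
    exact Commute.refl _
  · apply LinearMap.ext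
    intro g
    apply Subtype.ext
    apply coeffSeq_injective
    rw [Module.End.mul_apply, Module.End.mul_apply, coeffSeq_heckeOp, coeffSeq_heckeOp,
      coeffSeq_heckeOp, coeffSeq_heckeOp, coeffOp_comm hp hq hpq]

end Fermat.Agent.S48.B1.H55

end
end
-- ==== END Fermat.Agent.S48.B1.H55_Asm2

-- ==== BEGIN Fermat.Agent.S48.B2.Defs
section

/-!
# S48, mountain B2 (`B.Stmt_TatePieceH`): top level interfaces (helper43)

Plan: `NOTES/plan/W_S48_B.md`.  Everything is built on item 72's `J_H = Pic⁰(F_H)`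
(`Fermat.Agent.NEB.JH`: `JH M c H`, `TH hβ`, `DiamondData`, Galois action on coefficients) with
`c = M` and `H = ker χ`.

Slices (each slice owner refines his slice in his own `Defs` file):

* **T** `Stmt_EigBot s s'` (`H = ⊥`; or `Stmt_EigH s s'`, `H = ker χ`) : the eigensystem of a weight two eigenvector with nebentypus occurs in
  `J_H[ℓ] ⊗ k` (Betti cohomology of `Γ_H`, period map, torsion dictionary `J_H[ℓ] ≃ homPE(Γ_H, ℤ/ℓ)`).
* **R** `Stmt_TorsUnramH`, `Stmt_TorsESH` : good reduction of `X_H` at `q ∤ M`: inertia acts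
  trivially on prime-to-`q` torsion, Eichler–Shimura with the diamond operator.
* **G** `Stmt_GALH` : every point of `J_H` is fixed by an open subgroup.
* **ASM** (helper55): `s' = 2 * s + 1` and the slices give `B.Stmt_TatePieceH'`.

The exponents `s, s' ∈ {0, 1, -1}` record the conventions (which power of the nebentypus the
operators `T^H = α_* β^*` and `ρ(d)` of NEB see on the eigenvector of `G`; expected: `s = s' = -1`);
the owner of slice T proves `Stmt_EigH s s'` for the TRUE values and ASM twists by the Galois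
character of `χ ^ s`.  Eichler–Shimura has the shape `ρ(q) σ² - T^H_q σ + q = 0`, so on the eigenspace
`σ² - φ(b_q χ(q)^(s - s')) σ + q φ(χ(q)^(-s')) = 0`, and `θ σ` with `θ(Frob_q) = φ(χ(q))^(s' - s)`
satisfies `X² - φ(b_q) X + q φ(χ(q))^(s' - 2 s) = 0`.  No `sorry`.
-/

set_option autoImplicit false

noncomputable section

namespace Fermat.Agent.S48.B2

open AlgebraicCurve ModularCurve CongruenceSubgroup
open Fermat.Agent.NEB Fermat.Agent.NEB.JH
open scoped MatrixGroups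

/-- The absolute Galois group of `ℚ`. -/
abbrev GQ : Type := Kbar ≃ₐ[ℚ] Kbar

/-- `H = ker χ ≤ (ℤ/M)ˣ`. -/
def kerH (M : ℕ) (χ : DirichletCharacter ℂ M) : Subgroup (ZMod M)ˣ := χ.toUnitHom.ker

/-- The `n`-torsion of `J_H`. -/
abbrev torsH (M c : ℕ) (H : Subgroup (ZMod c)ˣ) (n : ℕ) : AddSubgroup (JH M c H) :=
  (nsmulAddMonoidHom (α := JH M c H) n).ker

/-! ## Slice R: good reduction -/

/-- **R-unr**: inertia at `q ∤ M n` acts trivially on `J_H[n]` (`n` prime to `6`, and (SQ): no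
prime `r ∣ n` has `r² ∣ c`). -/
def Stmt_TorsUnramH : Prop :=
  ∀ (M c : ℕ) (H : Subgroup (ZMod c)ˣ), 2 ≤ c → c ∣ M → M ≠ 0 →
    ∀ n q : ℕ, q.Prime → ¬ q ∣ M → ¬ q ∣ n → Nat.Coprime n 6 →
      (∀ r : ℕ, r.Prime → r ∣ n → ¬ r ^ 2 ∣ c) →
      ∀ P : ValuationSubring Kbar, P.LiesOverPrime q →
        ∀ σ ∈ P.inertiaSubgroupIn ℚ, ∀ x : JH M c H, n • x = 0 → σ • x = x

/-- **R-es**: the Eichler–Shimura relation on `J_H[n]` at `q ∤ M n`, in the TRUE shape for the
operators of NEB (helper70's `isRedOneC_ES` with `coe_THfn`):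
`ρ(q) σ² - T^H_q σ + q = 0` for every Frobenius element `σ` at `q`. -/
def Stmt_TorsESH : Prop :=
  ∀ (M c : ℕ) (H : Subgroup (ZMod c)ˣ), 2 ≤ c → c ∣ M → M ≠ 0 →
    ∀ (n q : ℕ) [NeZero q], q.Prime → ¬ q ∣ M → ¬ q ∣ n → Nat.Coprime n 6 →
      (∀ r : ℕ, r.Prime → r ∣ n → ¬ r ^ 2 ∣ c) →
      ∀ (hβ : BetaOK M c q H) (dd : DiamondData M c H) (qu : (ZMod c)ˣ),
        ((qu : (ZMod c)ˣ) : ZMod c) = (q : ZMod c) →
        ∀ A : ValuationSubring Kbar, A.LiesOverPrime q →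
          ∀ σ : GQ, A.IsFrobeniusAt σ q → ∀ x : JH M c H, n • x = 0 →
            dd.ρ qu • (σ • σ • x) - TH hβ (σ • x) + q • x = 0

/-! ## Slice G: continuity -/

/-- **G**: every point of `J_H` is fixed by the Galois group of a number field. -/
def Stmt_GALH : Prop :=
  ∀ (M c : ℕ) (H : Subgroup (ZMod c)ˣ), 2 ≤ c → c ∣ M → M ≠ 0 →
    ∀ y : JH M c H, ∃ L : IntermediateField ℚ Kbar, FiniteDimensional ℚ L ∧
      ∀ σ : GQ, (∀ x ∈ L, σ x = x) → σ • y = y

/-! ## Slice T: the eigensystem occurs in `J_H[ℓ] ⊗ k` -/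

/-- The matrix of an additive endomorphism `X` of `J_H[ℓ]` in the coordinates `θ`, applied to a
vector with entries in `k`: `(A_X v)_i = ∑_j (θ (X (θ⁻¹ e_j)))_i v_j`. -/
def applyMat {J : Type*} [AddCommGroup J] {T : AddSubgroup J} {ℓ r : ℕ} {k : Type} [Field k]
    (θ : ↥T ≃+ (Fin r → ZMod ℓ)) (X : ↥T → ↥T) (v : Fin r → k) : Fin r → k :=
  fun i => ∑ j, ((ZMod.cast (θ (X (θ.symm (Pi.single j 1))) i) : k)) * v j

/-- **T**: for a weight two eigenvector `G` with nebentypus `χ` (so `χ` is even) and eigenvalues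
`b_q`, every prime `ℓ ≥ 5` and every residue map `φ`, the space `J_H[ℓ] ⊗ k` (`H = ker χ`,
in coordinates `θ`) contains a nonzero vector `v` with
`T^H_q v = φ(b_q χ(q)^s) v` (`q ∤ M ℓ`) and `ρ(d) v = φ(χ(d)^s') v`.
Hypothesis `ℓ ∤ φ(M)`: then `ℓ ∤ |H|` and `NEB.EIG.H98.stmt_MonoH` is injective on `J_H[ℓ]`. -/
def Stmt_EigH (s s' : ℤ) : Prop :=
  ∀ (M : ℕ) [NeZero M] (χ : DirichletCharacter ℂ M) (G : CuspForm (Gamma1 M) 2) (b : ℕ → ℂ),
    2 ≤ M → B.IsEigenvec2 M χ G b → Int.HasNeb M χ 2 G →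
      ∀ ℓ : ℕ, ℓ.Prime → 5 ≤ ℓ → ¬ ℓ ∣ Nat.totient M →
        ∀ (k : Type) [Field k] [CharP k ℓ] [IsAlgClosed k] (φ : integralClosure ℤ ℂ →+* k)
          (dd : DiamondData M M (kerH M χ)),
          ∃ (r : ℕ) (θ : ↥(torsH M M (kerH M χ) ℓ) ≃+ (Fin r → ZMod ℓ)) (v : Fin r → k),
            v ≠ 0 ∧
            (∀ (q : ℕ) [NeZero q] (hβ : BetaOK M M q (kerH M χ)), q.Prime → ¬ q ∣ M * ℓ →
              ∀ (X : ↥(torsH M M (kerH M χ) ℓ) → ↥(torsH M M (kerH M χ) ℓ)),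
                (∀ x, ((X x : ↥(torsH M M (kerH M χ) ℓ)) : JH M M (kerH M χ)) =
                  TH hβ (x : JH M M (kerH M χ))) →
                ∀ t : integralClosure ℤ ℂ,
                  (t : ℂ) = b q * ((χ (q : ZMod M) : ℂ)) ^ s →
                  applyMat θ X v = φ t • v) ∧
            (∀ (d : (ZMod M)ˣ)
              (X : ↥(torsH M M (kerH M χ) ℓ) → ↥(torsH M M (kerH M χ) ℓ)),
                (∀ x, ((X x : ↥(torsH M M (kerH M χ) ℓ)) : JH M M (kerH M χ)) =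
                  dd.ρ d • (x : JH M M (kerH M χ))) →
                ∀ t : integralClosure ℤ ℂ,
                  (t : ℂ) = ((χ (d : ZMod M) : ℂ)) ^ s' →
                  applyMat θ X v = φ t • v)

/-- **T for `H = ⊥`** (the form slice T proves, decision of helper1, owner of slice T):
`Stmt_EigH` with `⊥` in place of `ker χ`, so on `J_1(M)[ℓ] ⊗ k`.  For `H = ⊥` the map
`NEB.EIG.H98.stmt_MonoH` is injective; `ℓ ∤ φ(M)` is used for the existence part of the torsion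
dictionary.  TRUE exponents: `s = s' = -1`. -/
def Stmt_EigBot (s s' : ℤ) : Prop :=
  ∀ (M : ℕ) [NeZero M] (χ : DirichletCharacter ℂ M) (G : CuspForm (Gamma1 M) 2) (b : ℕ → ℂ),
    2 ≤ M → B.IsEigenvec2 M χ G b → Int.HasNeb M χ 2 G →
      ∀ ℓ : ℕ, ℓ.Prime → 5 ≤ ℓ → ¬ ℓ ∣ Nat.totient M →
        ∀ (k : Type) [Field k] [CharP k ℓ] [IsAlgClosed k] (φ : integralClosure ℤ ℂ →+* k)
          (dd : DiamondData M M (⊥ : Subgroup (ZMod M)ˣ)),
          ∃ (r : ℕ) (θ : ↥(torsH M M (⊥ : Subgroup (ZMod M)ˣ) ℓ) ≃+ (Fin r → ZMod ℓ))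
            (v : Fin r → k),
            v ≠ 0 ∧
            (∀ (q : ℕ) [NeZero q] (hβ : BetaOK M M q (⊥ : Subgroup (ZMod M)ˣ)), q.Prime →
              ¬ q ∣ M * ℓ →
              ∀ (X : ↥(torsH M M (⊥ : Subgroup (ZMod M)ˣ) ℓ) →
                  ↥(torsH M M (⊥ : Subgroup (ZMod M)ˣ) ℓ)),
                (∀ x, ((X x : ↥(torsH M M (⊥ : Subgroup (ZMod M)ˣ) ℓ)) :
                    JH M M (⊥ : Subgroup (ZMod M)ˣ)) =
                  TH hβ (x : JH M M (⊥ : Subgroup (ZMod M)ˣ))) →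
                ∀ t : integralClosure ℤ ℂ,
                  (t : ℂ) = b q * ((χ (q : ZMod M) : ℂ)) ^ s →
                  applyMat θ X v = φ t • v) ∧
            (∀ (d : (ZMod M)ˣ)
              (X : ↥(torsH M M (⊥ : Subgroup (ZMod M)ˣ) ℓ) →
                  ↥(torsH M M (⊥ : Subgroup (ZMod M)ˣ) ℓ)),
                (∀ x, ((X x : ↥(torsH M M (⊥ : Subgroup (ZMod M)ˣ) ℓ)) :
                    JH M M (⊥ : Subgroup (ZMod M)ˣ)) =
                  dd.ρ d • (x : JH M M (⊥ : Subgroup (ZMod M)ˣ))) →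
                ∀ t : integralClosure ℤ ℂ,
                  (t : ℂ) = ((χ (d : ZMod M) : ℂ)) ^ s' →
                  applyMat θ X v = φ t • v)

/-! ## The target -/

/-- `B.Stmt_TatePieceH` with the hypotheses the assembly of `Stmt_ResRep` can supply:
`G` has nebentypus `χ`, `2 ≤ M`, `5 ≤ ℓ`, `ℓ² ∤ M`, `ℓ ∤ φ(M)`. -/
def Stmt_TatePieceH' : Prop :=
  ∀ (M : ℕ) [NeZero M] (χ : DirichletCharacter ℂ M) (G : CuspForm (Gamma1 M) 2) (b : ℕ → ℂ),
    2 ≤ M → B.IsEigenvec2 M χ G b → Int.HasNeb M χ 2 G →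
      ∀ ℓ : ℕ, ℓ.Prime → 5 ≤ ℓ → ¬ ℓ ^ 2 ∣ M → ¬ ℓ ∣ Nat.totient M →
        ∀ (k : Type) [Field k] [CharP k ℓ] [IsAlgClosed k] (φ : integralClosure ℤ ℂ →+* k),
          ∃ (r : ℕ) (ρ : GQ →* GL (Fin r) k), 0 < r ∧ GaloisFactorsThroughFiniteLevel ρ ∧
            ∀ p : ℕ, p.Prime → ¬ p ∣ M * ℓ →
              ∀ A : ValuationSubring Kbar, A.LiesOverPrime p →
                (∀ σ ∈ A.inertiaSubgroupIn ℚ, ρ σ = 1) ∧
                ∀ σ : GQ, A.IsFrobeniusAt σ p → ∀ β c : integralClosure ℤ ℂ,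
                  (β : ℂ) = b p → (c : ℂ) = χ (p : ZMod M) * (p : ℂ) →
                    ((ρ σ : GL (Fin r) k) : Matrix (Fin r) (Fin r) k) *
                        ((ρ σ : GL (Fin r) k) : Matrix (Fin r) (Fin r) k) -
                      φ β • ((ρ σ : GL (Fin r) k) : Matrix (Fin r) (Fin r) k) +
                      φ c • (1 : Matrix (Fin r) (Fin r) k) = 0

end Fermat.Agent.S48.B2

end
end
-- ==== END Fermat.Agent.S48.B2.Defs

-- ==== BEGIN Fermat.Agent.S48.Cheb.H78_Cheb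
section

/-!
# S48 leaf D: Chebotarev (lower bound form with loss), unconditional

`stmt_ChebNF : Stmt_ChebNF` (D3 on D2) and `stmt_Cheb : S48.Stmt_Cheb` (D4 on D3).
-/

set_option autoImplicit false

namespace Fermat.Agent.S48.Cheb.H78

/-- **D3**, unconditional. -/
theorem stmt_ChebNF : Stmt_ChebNF :=
  chebNF_of Fermat.Agent.S48.Cheb.H43.stmt_ChebCyc

/-- **D** (Chebotarev for `Γℚ`), unconditional. -/
theorem stmt_Cheb : Fermat.Agent.S48.Stmt_Cheb :=
  Fermat.Agent.S48.Cheb.H43.cheb_of_nf stmt_ChebNF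

end Fermat.Agent.S48.Cheb.H78

end
-- ==== END Fermat.Agent.S48.Cheb.H78_Cheb

-- ==== BEGIN Fermat.Agent.S48.Int.H55_Main
section

/-!
# S48, leaf A: `Stmt_Int` (assembly; helper55 with helper1, helper22, helper31)
-/

set_option autoImplicit false

namespace Fermat.Agent.S48.Int.H55

/-- **Leaf A of S48**: integrality of the `a_p`, finiteness of the coefficient field, conjugate
forms. -/
theorem stmt_Int : Stmt_Int :=
  stmt_Int_of
    (stmt_Int12_of Fermat.Agent.S48.Int.H31.stmt_Decomp Fermat.Agent.S48.Int.H01.stmt_Eis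
      Fermat.Agent.S48.Int.H22.stmt_Prod Fermat.Agent.S48.Int.H01.stmt_CoeffFG)
    (stmt_Int3_of Fermat.Agent.S48.Int.H31.stmt_Decomp
      (stmt_NebGS_of Fermat.Agent.S48.Int.H01.stmt_Eis Fermat.Agent.S48.Int.H22.stmt_Prod
        Fermat.Agent.S48.Int.H22.stmt_Pow))

end Fermat.Agent.S48.Int.H55

end
-- ==== END Fermat.Agent.S48.Int.H55_Main
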