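-- GENERATED (merged mirror, NOTES/tools/trim/merge3_helper67.py): 6 modules of the originals, bodies verbatim.
import Mathlib
import Fermat.Agent.Zm.S48_L07_000
import Fermat.Agent.Zm.S48_L04_000
import Fermat.Agent.Zm.S48_L02_000
import Fermat.Agent.Zm.S48_L07_001
import Fermat.Agent.Zm.S48_L02_003
import Fermat.Agent.Zm.S48_L05_002
import Fermat.Agent.Zm.S48_L05_000
import Fermat.Agent.Zm.S48_L05_001
import Fermat.Agent.Zm.S48_L03_000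
import Fermat.Agent.Zm.S48_L03_001
import Fermat.Agent.Zm.S48_L06_001
import Fermat.Agent.Zm.S48_L04_002
import Fermat.Agent.Zm.S48_L02_002
import Fermat.Agent.Zm.S48_L03_002

-- ==== BEGIN Fermat.Agent.NEB.EIG.H39_Step1
section

/-!
# NEB / EIG (helper39): the operators `A_n`, `B_u`, `D_g`, `T_ℓ` on `Hom(Gam1 L₂ c, L)` and their
commutation rules

* `Aop n φ = φ ∘ conj(α_n)`, `α_n = [[1, n/q], [0, 1]]`; `Bop u = Aop u.val` for `u : ZMod q`;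
* `Dop g φ = φ ∘ conj(g)` for `g ∈ Γ₀(L₂)`;
* `TD` : the Hecke operator of the double coset of `diag(ℓ, 1)`;
* `Aop_Dop` : `A_n D_g = D_g A_{n a²}`, `a = g₀₀`;  `twOp_Dop` : `Tw_χ D_g = χ(a)² D_g Tw_χ`;
* `Aop_TD` : `A_n T_ℓ = T_ℓ A_{ℓ n}`;  `TD_twOp` : `T_ℓ Tw_χ = χ(ℓ)⁻¹ Tw_χ T_ℓ`.
-/

set_option autoImplicit false

namespace Fermat.Agent.NEB.EIG.H39

open CongruenceSubgroup Matrix.SpecialLinearGroup ModularForm Finset
open scoped MatrixGroups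
open P2MW.S_ModularForm_heckeT_slash_eq_self_of_mem_Gamma0.ModularForm.HeckeSlashInvariance
open Fermat.Agent.Betti
open scoped OnePoint

section TwLin

variable {Γ G : Type*} [Group Γ] [Group G] {e : Γ →* G} (he : Function.Injective e)
  {L : Type*} [Field L]

/-- `tw` as a linear map. -/
noncomputable def twLin (a : G) (ha : a ∈ Nrm e) : (Additive Γ →+ L) →ₗ[L] (Additive Γ →+ L) where
  toFun := tw he ⟨a, ha⟩
  map_add' := tw_add he _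
  map_smul' := fun r φ => tw_smul he _ r φ

@[simp] theorem twLin_apply (a : G) (ha : a ∈ Nrm e) (φ : Additive Γ →+ L) :
    twLin he a ha φ = tw he ⟨a, ha⟩ φ := rfl

theorem twLin_mul (a b : G) (ha : a ∈ Nrm e) (hb : b ∈ Nrm e) (hab : a * b ∈ Nrm e) :
    twLin (L := L) he (a * b) hab = (twLin he b hb).comp (twLin he a ha) := by
  refine LinearMap.ext fun φ => ?_
  show tw he ⟨a * b, hab⟩ φ = tw he ⟨b, hb⟩ (tw he ⟨a, ha⟩ φ)
  rw [← tw_mul]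
  exact tw_congr he rfl φ

theorem twLin_range (g : Γ) (ha : e g ∈ Nrm e) : twLin (L := L) he (e g) ha = LinearMap.id := by
  refine LinearMap.ext fun φ => ?_
  exact tw_of_range he _ g rfl φ

theorem twLin_congr {a b : G} (h : a = b) (ha : a ∈ Nrm e) (hb : b ∈ Nrm e) :
    twLin (L := L) he a ha = twLin he b hb := by
  subst h; rfl

end TwLin

section Ops

variable {L₂ c q : ℕ} (hq0 : q ≠ 0) (hq : q ∣ c) (hcq : c * q ∣ L₂) {L : Type*} [Field L]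

/-- `A_n φ = φ ∘ conj(α_n)`. -/
noncomputable def Aop (n : ℤ) :
    (Additive (Gam1 L₂ c) →+ L) →ₗ[L] (Additive (Gam1 L₂ c) →+ L) :=
  twLin (inc_injective _) (alphaGL q n) (alphaGL_mem_Nrm hq0 hq hcq n)

theorem Aop_apply (n : ℤ) (φ : Additive (Gam1 L₂ c) →+ L) :
    Aop hq0 hq hcq n φ
      = tw (inc_injective _) ⟨alphaGL q n, alphaGL_mem_Nrm hq0 hq hcq n⟩ φ := rfl

theorem Aop_add (n m : ℤ) :
    Aop (L := L) hq0 hq hcq (n + m) = (Aop hq0 hq hcq n).comp (Aop hq0 hq hcq m) := by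
  unfold Aop
  rw [← twLin_mul (inc_injective _) (alphaGL q m) (alphaGL q n) _ _
    (by rw [alphaGL_add]; exact alphaGL_mem_Nrm hq0 hq hcq _)]
  exact twLin_congr _ (by rw [alphaGL_add, add_comm]) _ _

theorem Aop_zero : Aop (L := L) hq0 hq hcq 0 = LinearMap.id := by
  unfold Aop
  have h1 : alphaGL q 0 = inc (Gam1 L₂ c) 1 := by rw [alphaGL_zero, map_one]
  rw [twLin_congr (inc_injective _) h1 _ (range_le_Nrm 1)]
  exact twLin_range _ 1 _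

theorem Aop_q_mul (k : ℤ) : Aop (L := L) hq0 hq hcq (q * k) = LinearMap.id := by
  unfold Aop
  have h1 : alphaGL q (q * k) = inc (Gam1 L₂ c) ⟨tauSL k, tauSL_mem_Gam1 L₂ c k⟩ := by
    rw [alphaGL_mul_q hq0]; rfl
  rw [twLin_congr (inc_injective _) h1 _ (range_le_Nrm _)]
  exact twLin_range _ _ _

theorem Aop_congr {n m : ℤ} (h : (q : ℤ) ∣ n - m) :
    Aop (L := L) hq0 hq hcq n = Aop hq0 hq hcq m := by
  obtain ⟨k, hk⟩ := h
  have : n = q * k + m := by linarith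
  rw [this, Aop_add, Aop_q_mul]
  rfl

/-- `B_u = A_{u.val}` for `u : ZMod q`. -/
noncomputable def Bop (u : ZMod q) :
    (Additive (Gam1 L₂ c) →+ L) →ₗ[L] (Additive (Gam1 L₂ c) →+ L) :=
  Aop hq0 hq hcq (u.val : ℤ)

theorem Bop_intCast (n : ℤ) : Bop (L := L) hq0 hq hcq (n : ZMod q) = Aop hq0 hq hcq n := by
  haveI : NeZero q := ⟨hq0⟩
  unfold Bop
  apply Aop_congr
  rw [← ZMod.intCast_zmod_eq_zero_iff_dvd]
  push_cast
  simp

theorem Bop_zero : Bop (L := L) hq0 hq hcq 0 = LinearMap.id := by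
  have := Bop_intCast (L := L) hq0 hq hcq 0
  rw [Int.cast_zero] at this
  rw [this, Aop_zero]

theorem Bop_add (u v : ZMod q) :
    Bop (L := L) hq0 hq hcq (u + v) = (Bop hq0 hq hcq u).comp (Bop hq0 hq hcq v) := by
  haveI : NeZero q := ⟨hq0⟩
  have h1 : u + v = (((u.val : ℤ) + (v.val : ℤ) : ℤ) : ZMod q) := by
    push_cast
    simp
  rw [h1, Bop_intCast, Aop_add]
  rfl

/-- `D_g φ = φ ∘ conj(g)` for `g ∈ Γ₀(L₂)`. -/
noncomputable def Dop (hc : c ∣ L₂) (g : SL(2, ℤ)) (hg : (L₂ : ℤ) ∣ g 1 0) :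
    (Additive (Gam1 L₂ c) →+ L) →ₗ[L] (Additive (Gam1 L₂ c) →+ L) :=
  twLin (inc_injective _) (mapGL ℝ g) (gam0_mem_Nrm hc hg)

theorem Dop_apply (hc : c ∣ L₂) (g : SL(2, ℤ)) (hg : (L₂ : ℤ) ∣ g 1 0)
    (φ : Additive (Gam1 L₂ c) →+ L) :
    Dop hc g hg φ = tw (inc_injective _) ⟨mapGL ℝ g, gam0_mem_Nrm hc hg⟩ φ := rfl

/-- `A_n D_g = D_g A_{n a²}`. -/
theorem Aop_Dop (hc : c ∣ L₂) (g : SL(2, ℤ)) (hg : (L₂ : ℤ) ∣ g 1 0) (n : ℤ) :
    (Aop (L := L) hq0 hq hcq n).comp (Dop hc g hg)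
      = (Dop hc g hg).comp (Aop hq0 hq hcq (n * g 0 0 ^ 2)) := by
  obtain ⟨γ', hγ', hrel⟩ := gam0_alpha hq0 hq hcq hg n
  have hN1 : mapGL ℝ g * alphaGL q n ∈ Nrm (inc (Gam1 L₂ c)) :=
    (Nrm _).mul_mem (gam0_mem_Nrm hc hg) (alphaGL_mem_Nrm hq0 hq hcq n)
  have hNγ : mapGL ℝ γ' ∈ Nrm (inc (Gam1 L₂ c)) := range_le_Nrm (e := inc (Gam1 L₂ c)) ⟨γ', hγ'⟩
  have hN2 : mapGL ℝ γ' * alphaGL q (n * g 0 0 ^ 2) ∈ Nrm (inc (Gam1 L₂ c)) :=
    (Nrm _).mul_mem hNγ (alphaGL_mem_Nrm hq0 hq hcq _)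
  have hN3 : mapGL ℝ γ' * alphaGL q (n * g 0 0 ^ 2) * mapGL ℝ g ∈ Nrm (inc (Gam1 L₂ c)) :=
    (Nrm _).mul_mem hN2 (gam0_mem_Nrm hc hg)
  have e1 : (Aop (L := L) hq0 hq hcq n).comp (Dop hc g hg)
      = twLin (inc_injective _) (mapGL ℝ g * alphaGL q n) hN1 :=
    (twLin_mul _ _ _ _ _ _).symm
  have e2 : twLin (L := L) (inc_injective _) (mapGL ℝ γ' * alphaGL q (n * g 0 0 ^ 2) * mapGL ℝ g) hN3
      = (Dop hc g hg).comp (twLin (inc_injective _) (mapGL ℝ γ' * alphaGL q (n * g 0 0 ^ 2)) hN2) :=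
    twLin_mul _ _ _ _ _ _
  have e3 : twLin (L := L) (inc_injective _) (mapGL ℝ γ' * alphaGL q (n * g 0 0 ^ 2)) hN2
      = (Aop hq0 hq hcq (n * g 0 0 ^ 2)).comp (twLin (inc_injective _) (mapGL ℝ γ') hNγ) :=
    twLin_mul _ _ _ _ _ _
  have e4 : twLin (L := L) (inc_injective _) (mapGL ℝ γ') hNγ = LinearMap.id :=
    twLin_range (inc_injective _) (⟨γ', hγ'⟩ : Gam1 L₂ c) hNγ
  rw [e1, twLin_congr (inc_injective _) hrel hN1 hN3, e2, e3, e4, LinearMap.comp_id]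

/-- The upper-left entry of `g ∈ Γ₀(L₂)` as a unit mod `q` (`q ∣ L₂`). -/
theorem entry_mul_eq_one {g : SL(2, ℤ)} (hg : (q : ℤ) ∣ g 1 0) :
    ((g 0 0 : ℤ) : ZMod q) * ((g 1 1 : ℤ) : ZMod q) = 1 := by
  have hdet := sl_det g
  have h10 : ((g 1 0 : ℤ) : ZMod q) = 0 := (ZMod.intCast_zmod_eq_zero_iff_dvd _ _).mpr hg
  have := congrArg (Int.cast : ℤ → ZMod q) hdet
  push_cast at this
  rw [h10, mul_zero, sub_zero] at this
  exact this

/-- `Tw_χ D_g = χ(a)² D_g Tw_χ`, `a = g₀₀`. -/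
theorem twOp_Dop [Fact q.Prime] (hc : c ∣ L₂) (χ : MulChar (ZMod q) L) (g : SL(2, ℤ))
    (hg : (L₂ : ℤ) ∣ g 1 0) (φ : Additive (Gam1 L₂ c) →+ L) :
    twOp (Bop hq0 hq hcq) χ (Dop hc g hg φ)
      = χ ((g 0 0 : ℤ) : ZMod q) ^ 2 • Dop hc g hg (twOp (Bop hq0 hq hcq) χ φ) := by
  have hqg : (q : ℤ) ∣ g 1 0 :=
    (Int.natCast_dvd_natCast.mpr (hq.trans hc)).trans hg
  let a : (ZMod q)ˣ := Units.mkOfMulEqOne _ _ (entry_mul_eq_one hqg)
  have ha : (a : ZMod q) = ((g 0 0 : ℤ) : ZMod q) := rfl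
  have h1 : ∀ u : ZMod q, Bop hq0 hq hcq u (Dop hc g hg φ)
      = Dop hc g hg (Bop hq0 hq hcq (u * ((a ^ 2 : (ZMod q)ˣ) : ZMod q)) φ) := by
    intro u
    have e1 : u * ((a ^ 2 : (ZMod q)ˣ) : ZMod q) = (((u.val : ℤ) * g 0 0 ^ 2 : ℤ) : ZMod q) := by
      haveI : NeZero q := ⟨hq0⟩
      rw [Units.val_pow_eq_pow_val, ha]
      push_cast
      simp
    rw [e1, Bop_intCast]
    have := congrArg (fun F => F φ) (Aop_Dop (L := L) hq0 hq hcq hc g hg (u.val : ℤ))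
    exact this
  rw [twOp_apply]
  simp only [h1]
  have h2 : χ ((g 0 0 : ℤ) : ZMod q) ^ 2 = χ ((a ^ 2 : (ZMod q)ˣ) : ZMod q) := by
    rw [Units.val_pow_eq_pow_val, ha, map_pow]
  rw [h2, ← map_smul, ← twOp_comp_mul (Bop hq0 hq hcq) χ (a ^ 2) φ, map_sum]
  refine Finset.sum_congr rfl fun u _ => ?_
  rw [map_smul]

end Ops

section Hecke

variable {L : Type*} [Field L]

/-- The Hecke operator of the double coset of `diag(ℓ, 1)` on `Hom(Gam1 M c, L)`. -/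
noncomputable def TD (M c : ℕ) (hc : c ∣ M) {ℓ : ℕ} (hℓ : ℓ.Prime) (hℓM : ¬ ℓ ∣ M) :
    (Additive (Gam1 M c) →+ L) →ₗ[L] (Additive (Gam1 M c) →+ L) :=
  haveI : Fact ℓ.Prime := ⟨hℓ⟩
  (H98.stmt_FAM_hecke M c ℓ hc hℓ hℓM).heckeOpLin (inc_injective _) L

theorem TD_apply (M c : ℕ) (hc : c ∣ M) {ℓ : ℕ} (hℓ : ℓ.Prime) (hℓM : ¬ ℓ ∣ M)
    (φ : Additive (Gam1 M c) →+ L) :
    haveI : Fact ℓ.Prime := ⟨hℓ⟩
    TD M c hc hℓ hℓM φ = (H98.stmt_FAM_hecke M c ℓ hc hℓ hℓM).heckeOp (inc_injective _) φ := rfl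

variable {L₂ c q : ℕ} (hq0 : q ≠ 0) (hq : q ∣ c) (hcq : c * q ∣ L₂)

/-- `A_n T_ℓ = T_ℓ A_{ℓ n}`. -/
theorem Aop_TD (hc : c ∣ L₂) {ℓ : ℕ} (hℓ : ℓ.Prime) (hℓM : ¬ ℓ ∣ L₂) (n : ℤ)
    (φ : Additive (Gam1 L₂ c) →+ L) :
    Aop hq0 hq hcq n (TD L₂ c hc hℓ hℓM φ) = TD L₂ c hc hℓ hℓM (Aop hq0 hq hcq (ℓ * n) φ) := by
  haveI : Fact ℓ.Prime := ⟨hℓ⟩
  have H := H98.stmt_FAM_hecke L₂ c ℓ hc hℓ hℓM
  have he := inc_injective (Gam1 L₂ c)
  have hex : ∀ i : OnePoint (ZMod ℓ), ∃ (j : OnePoint (ZMod ℓ)) (ε : Gam1 L₂ c),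
      repD L₂ ℓ i * alphaGL q n = inc (Gam1 L₂ c) ε * alphaGL q (ℓ * n) * repD L₂ ℓ j := by
    intro i
    obtain ⟨d, hd, hrep⟩ := H98.stmt_FAM_trans L₂ c ℓ hc hℓ hℓM i
    -- move `α_n` past `d`
    obtain ⟨d', hd'⟩ := alphaGL_mem_Nrm hq0 hq hcq (-n) (⟨d, hd⟩ : Gam1 L₂ c)
    have hinv : alphaGL q (-n) = (alphaGL q n)⁻¹ := by
      rw [eq_inv_iff_mul_eq_one, alphaGL_add]
      simp [alphaGL_zero]
    have h1 : mapGL ℝ d * alphaGL q n = alphaGL q n * inc (Gam1 L₂ c) d' := by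
      rw [hd', hinv]
      simp only [inc_apply, inv_inv]
      group
    obtain ⟨j, κ, hκ⟩ := H.exists_mul d' (∞ : OnePoint (ZMod ℓ))
    rw [repD_infty] at hκ
    obtain ⟨κ', hκ'⟩ := alphaGL_mem_Nrm hq0 hq hcq (ℓ * n) κ
    refine ⟨j, κ', ?_⟩
    rw [hrep, hκ']
    calc heckeDiagMatrix ℓ * mapGL ℝ d * alphaGL q n
        = heckeDiagMatrix ℓ * (mapGL ℝ d * alphaGL q n) := by group
      _ = heckeDiagMatrix ℓ * alphaGL q n * inc (Gam1 L₂ c) d' := by rw [h1]; group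
      _ = alphaGL q (ℓ * n) * (heckeDiagMatrix ℓ * inc (Gam1 L₂ c) d') := by
          rw [heckeDiag_mul_alpha hℓ.ne_zero]; group
      _ = alphaGL q (ℓ * n) * (inc (Gam1 L₂ c) κ * repD L₂ ℓ j) := by rw [hκ]
      _ = alphaGL q (ℓ * n) * inc (Gam1 L₂ c) κ * (alphaGL q (ℓ * n))⁻¹ * alphaGL q (ℓ * n)
            * repD L₂ ℓ j := by group
  choose π ε hπ using hex
  have := heckeOp_intertwine' (A := L) H he (alphaGL q (ℓ * n)) (alphaGL q n)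
    (conjEnd he ⟨alphaGL q (ℓ * n), alphaGL_mem_Nrm hq0 hq hcq _⟩)
    (conjEnd he ⟨alphaGL q n, alphaGL_mem_Nrm hq0 hq hcq _⟩)
    (fun γ => e_conjEnd_mul he _ γ) (fun γ => e_conjEnd_mul he _ γ) π ε hπ φ
  exact this

/-- `T_ℓ Tw_χ = χ(ℓ)⁻¹ Tw_χ T_ℓ`. -/
theorem TD_twOp [Fact q.Prime] (hc : c ∣ L₂) (χ : MulChar (ZMod q) L) {ℓ : ℕ} (hℓ : ℓ.Prime)
    (hℓM : ¬ ℓ ∣ L₂) (φ : Additive (Gam1 L₂ c) →+ L) :
    TD L₂ c hc hℓ hℓM (twOp (Bop hq0 hq hcq) χ φ)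
      = (χ (ℓ : ZMod q))⁻¹ • twOp (Bop hq0 hq hcq) χ (TD L₂ c hc hℓ hℓM φ) := by
  have hqL : q ∣ L₂ := hq.trans hc
  have hℓq : ℓ ≠ q := fun h => hℓM (h ▸ hqL)
  have hunit : IsUnit ((ℓ : ZMod q)) := by
    rw [ZMod.isUnit_iff_coprime]
    exact (Nat.coprime_primes hℓ (Fact.out : q.Prime)).mpr hℓq
  obtain ⟨a, ha⟩ := hunit
  have hχ0 : χ (ℓ : ZMod q) ≠ 0 := by
    rw [← ha]
    exact (IsUnit.map χ a.isUnit).ne_zero
  have h1 : ∀ u : ZMod q, Bop hq0 hq hcq u (TD L₂ c hc hℓ hℓM φ)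
      = TD L₂ c hc hℓ hℓM (Bop hq0 hq hcq (u * (a : ZMod q)) φ) := by
    intro u
    have e1 : u * (a : ZMod q) = (((ℓ : ℤ) * (u.val : ℤ) : ℤ) : ZMod q) := by
      haveI : NeZero q := ⟨hq0⟩
      push_cast
      rw [ha]
      simp [mul_comm]
    rw [e1, Bop_intCast]
    exact Aop_TD hq0 hq hcq hc hℓ hℓM _ φ
  have h2 : twOp (Bop hq0 hq hcq) χ (TD L₂ c hc hℓ hℓM φ)
      = χ (ℓ : ZMod q) • TD L₂ c hc hℓ hℓM (twOp (Bop hq0 hq hcq) χ φ) := by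
    rw [twOp_apply]
    simp only [h1]
    rw [← map_smul, ← ha, ← twOp_comp_mul (Bop hq0 hq hcq) χ a φ, map_sum]
    refine Finset.sum_congr rfl fun u _ => ?_
    rw [map_smul]
  rw [h2, smul_smul, inv_mul_cancel₀ hχ0, one_smul]

end Hecke

end Fermat.Agent.NEB.EIG.H39

end
-- ==== END Fermat.Agent.NEB.EIG.H39_Step1

-- ==== BEGIN Fermat.Agent.NEB.EIG.H98_FamDiam
section

/-!
# NEB / EIG, leaf TW-FAM (e) (helper98): the Hecke family and the diamond operators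

* `stmt_FAM_diam : Stmt_FAM_diam` : for `g ∈ Γ₀(M)`, `repD x · g = ε · g · repD y`, `ε ∈ Gam1 M c`.
-/

set_option autoImplicit false

namespace Fermat.Agent.NEB.EIG.H98

open CongruenceSubgroup Matrix.SpecialLinearGroup ModularForm
open scoped MatrixGroups
open P2MW.S_ModularForm_heckeT_slash_eq_self_of_mem_Gamma0.ModularForm.HeckeSlashInvariance
open Fermat.Agent.Betti Fermat.Agent.NEB.EIG.H39
open scoped OnePoint

section Mod

variable {c : ℕ}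

theorem cast_eq_zero_of_dvd {a : ℤ} (h : (c : ℤ) ∣ a) : ((a : ℤ) : ZMod c) = 0 :=
  (ZMod.intCast_zmod_eq_zero_iff_dvd a c).mpr h

theorem cast00_mul (h k : SL(2, ℤ)) (hk : ((k 1 0 : ℤ) : ZMod c) = 0) :
    (((h * k) 0 0 : ℤ) : ZMod c) = ((h 0 0 : ℤ) : ZMod c) * ((k 0 0 : ℤ) : ZMod c) := by
  rw [sl_mul_00]
  push_cast
  rw [hk]
  ring

theorem cast10_mul (h k : SL(2, ℤ)) (hh : ((h 1 0 : ℤ) : ZMod c) = 0)
    (hk : ((k 1 0 : ℤ) : ZMod c) = 0) : (((h * k) 1 0 : ℤ) : ZMod c) = 0 := by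
  rw [sl_mul_10]
  push_cast
  rw [hh, hk]
  ring

theorem cast00_mul_cast11 (g : SL(2, ℤ)) (hg : ((g 1 0 : ℤ) : ZMod c) = 0) :
    ((g 0 0 : ℤ) : ZMod c) * ((g 1 1 : ℤ) : ZMod c) = 1 := by
  have := congrArg (Int.cast : ℤ → ZMod c) (sl_det g)
  push_cast at this
  rw [hg] at this
  linear_combination this

theorem Gam1_cast00 {M : ℕ} {δ : SL(2, ℤ)} (h : δ ∈ Gam1 M c) : ((δ 0 0 : ℤ) : ZMod c) = 1 := by
  have := cast_eq_zero_of_dvd h.2.2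
  push_cast at this
  linear_combination this

theorem Gam1_cast10 {M : ℕ} {δ : SL(2, ℤ)} (h : δ ∈ Gam1 M c) : ((δ 1 0 : ℤ) : ZMod c) = 0 :=
  cast_eq_zero_of_dvd h.2.1

end Mod

/-- **TW-FAM (e)**. -/
theorem stmt_FAM_diam : Stmt_FAM_diam := by
  intro M c ℓ hc hℓ hℓM g hg x
  have : Fact ℓ.Prime := ⟨hℓ⟩
  have hℓ0 : ℓ ≠ 0 := hℓ.ne_zero
  have hT := isHeckeFamily_T M hℓM
  have hcM : (c : ℤ) ∣ (M : ℤ) := Int.natCast_dvd_natCast.mpr hc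
  obtain ⟨εx, hεx, hx⟩ := stmt_FAM_std M ℓ hℓ hℓM x
  obtain ⟨y, g', hg'⟩ := hT.exists_mul ⟨g, mem_Gamma0_of_dvd hg⟩ x
  obtain ⟨εy, hεy, hy⟩ := stmt_FAM_std M ℓ hℓ hℓM y
  obtain ⟨δx, hδx, hx'⟩ := stmt_FAM_trans M c ℓ hc hℓ hℓM x
  obtain ⟨δy, hδy, hy'⟩ := stmt_FAM_trans M c ℓ hc hℓ hℓM y
  have hg'' : heckeRep ℓ x * mapGL ℝ g = mapGL ℝ (g' : SL(2, ℤ)) * heckeRep ℓ y := hg'
  have hrepy : heckeRep ℓ y = mapGL ℝ εy⁻¹ * repD M ℓ y := by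
    rw [hy, ← mul_assoc, ← map_mul, inv_mul_cancel, map_one, one_mul]
  set κ : SL(2, ℤ) := εx * (g' : SL(2, ℤ)) * εy⁻¹ with hκ
  have E : repD M ℓ x * mapGL ℝ g = mapGL ℝ κ * repD M ℓ y := by
    rw [hx, mul_assoc, hg'', hrepy, hκ, map_mul, map_mul]
    simp only [mul_assoc]
  have hΓ0 : κ ∈ Gamma0 M :=
    (Gamma0 M).mul_mem ((Gamma0 M).mul_mem hεx g'.2) ((Gamma0 M).inv_mem hεy)
  have hM10 : (M : ℤ) ∣ κ 1 0 := dvd_of_mem_Gamma0 hΓ0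
  have hcomm : heckeDiagMatrix ℓ * mapGL ℝ (δx * g * δy⁻¹) = mapGL ℝ κ * heckeDiagMatrix ℓ := by
    have h1 : heckeDiagMatrix ℓ * mapGL ℝ δx * mapGL ℝ g
        = mapGL ℝ κ * (heckeDiagMatrix ℓ * mapGL ℝ δy) := by
      rw [← hx', ← hy']
      exact E
    calc heckeDiagMatrix ℓ * mapGL ℝ (δx * g * δy⁻¹)
        = heckeDiagMatrix ℓ * mapGL ℝ δx * mapGL ℝ g * (mapGL ℝ δy)⁻¹ := by
          rw [map_mul, map_mul, map_inv]
          simp only [mul_assoc]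
      _ = mapGL ℝ κ * (heckeDiagMatrix ℓ * mapGL ℝ δy) * (mapGL ℝ δy)⁻¹ := by rw [h1]
      _ = mapGL ℝ κ * heckeDiagMatrix ℓ := by rw [mul_assoc, mul_inv_cancel_right]
  have h00 := diag_comm_00 hℓ0 hcomm
  -- congruences modulo `c`
  have hg10 : ((g 1 0 : ℤ) : ZMod c) = 0 := cast_eq_zero_of_dvd (hcM.trans hg)
  have hκ10 : ((κ 1 0 : ℤ) : ZMod c) = 0 := cast_eq_zero_of_dvd (hcM.trans hM10)
  have hδy' : δy⁻¹ ∈ Gam1 M c := (Gam1 M c).inv_mem hδy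
  have hκ00 : ((κ 0 0 : ℤ) : ZMod c) = ((g 0 0 : ℤ) : ZMod c) := by
    rw [h00, cast00_mul _ _ (Gam1_cast10 hδy'), cast00_mul _ _ hg10, Gam1_cast00 hδx,
      Gam1_cast00 hδy', one_mul, mul_one]
  have hginv10 : (((g⁻¹) 1 0 : ℤ) : ZMod c) = 0 := by
    rw [sl_inv_10]
    push_cast
    rw [hg10, neg_zero]
  refine ⟨κ * g⁻¹, ⟨?_, ?_, ?_⟩, y, ?_⟩
  · have : κ * g⁻¹ ∈ Gamma0 M :=
      (Gamma0 M).mul_mem hΓ0 ((Gamma0 M).inv_mem (mem_Gamma0_of_dvd hg))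
    exact dvd_of_mem_Gamma0 this
  · have : κ * g⁻¹ ∈ Gamma0 M :=
      (Gamma0 M).mul_mem hΓ0 ((Gamma0 M).inv_mem (mem_Gamma0_of_dvd hg))
    exact hcM.trans (dvd_of_mem_Gamma0 this)
  · rw [← ZMod.intCast_zmod_eq_zero_iff_dvd]
    push_cast
    rw [cast00_mul _ _ hginv10, hκ00, sl_inv_00, cast00_mul_cast11 g hg10, sub_self]
  · rw [E, ← map_mul, inv_mul_cancel_right]

end Fermat.Agent.NEB.EIG.H98

end
-- ==== END Fermat.Agent.NEB.EIG.H98_FamDiam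

-- ==== BEGIN Fermat.Agent.NEB.EIG.H98_MonoDefs
section

/-!
# NEB / EIG, leaf EIG-MONO (owner helper98): interface

`J_H[n] → Hom(Gam1 M c, ℤ/n)`, `x = [D]`, `n D = div f` `↦` the character of the `n`-th root of
`f` on the upper half plane (GTor pattern `TorChar`, `HasChar`), for the function field
`F_H = FHbar M c H` (over `ℚ̄`, embedded in `ℂ((q))` by `coeffMap ι`).  All characters are
characters of `Gam1 M c = Γ₀(M) ∩ Γ₁(c)` (helper39's group).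

* `HasChar1 M c H n ι f φ` : `ι f = (R / B)ⁿ`, `R` holomorphic on `ℍ` of weight `k`, bounded at
  the cusps, with `R ∣ γ = ζ^{φ γ} R` for `γ ∈ Gam1 M c`, and `B ≠ 0` a modular form of weight `k`
  on `Γ₀(M)`.
* `TorChar1 M c H n ι x φ` : `x = [D]`, `n D = div f`, `HasChar1 f φ`.
* leaves `Stmt_A1H`, `Stmt_A2H`, `Stmt_MONO1`, `Stmt_CHAR1`, `Stmt_INJ1`, `Stmt_HK1`,
  `Stmt_DIAM1`, `Stmt_KCOMP1`, `Stmt_KUM1`;
* the goal `Stmt_MonoH` (what EIG-LIN / EIG-OP consume).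

Everything here is a definition or a `Prop`; no proofs are missing in this file.
-/

set_option autoImplicit false

noncomputable section

namespace Fermat.Agent.NEB.EIG.H98

open AlgebraicCurve ModularCurve UpperHalfPlane CongruenceSubgroup Matrix.SpecialLinearGroup
open Fermat.Agent.NEB Fermat.Agent.NEB.JH Fermat.Agent.NEB.EIG.H39 Fermat.Agent.GTor
open Fermat.Agent.Betti
open scoped MatrixGroups ModularForm Manifold

/-! ## 1. The character of a function -/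

/-- `f ∈ F_H` (over `ℚ̄`) **has character** `φ` on `Gam1 M c`: the `q`-expansion of `f`, mapped
to `ℂ((q))` by `ι`, is `(R / B)ⁿ` with `R` holomorphic of weight `k`, bounded at all cusps, with
multiplier `ζ^φ` under `Gam1 M c`, and `B ≠ 0` a modular form of weight `k` on `Γ₀(M)`. -/
def HasChar1 (M c : ℕ) (H : Subgroup (ZMod c)ˣ) (n : ℕ) (ι : Kbar →+* ℂ) (f : ↥(FHbar M c H))
    (φ : Additive (Gam1 M c) →+ ZMod n) : Prop :=
  ∃ (k : ℤ) (R : ℍ → ℂ) (B : ModularForm (Gamma0 M) k),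
    MDifferentiable 𝓘(ℂ) 𝓘(ℂ) R ∧
    (∀ σ : SL(2, ℤ), IsBoundedAtImInfty (R ∣[k] σ)) ∧
    (∀ γ : Gam1 M c, R ∣[k] (γ : SL(2, ℤ)) = zetaPow n (φ (Additive.ofMul γ)) • R) ∧
    B ≠ 0 ∧
    qLaurent (fun z => R z ^ n)
      = coeffMap ι (f : LaurentSeries Kbar) * qLaurent (fun z => B z ^ n)

/-- `φ` is the character of the class `x ∈ J_H` (which is then killed by `n`). -/
def TorChar1 (M c : ℕ) (H : Subgroup (ZMod c)ˣ) (n : ℕ) (ι : Kbar →+* ℂ) (x : JH M c H)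
    (φ : Additive (Gam1 M c) →+ ZMod n) : Prop :=
  ∃ (D : Divisor.degZero (K := Kbar) (F := ↥(FHbar M c H))) (f : ↥(FHbar M c H)),
    f ≠ 0 ∧ x = Pic0.mk D ∧
    (∀ v : Place Kbar ↥(FHbar M c H),
      (n : ℤ) * (D : Divisor Kbar ↥(FHbar M c H)) v = v.ord f) ∧
    HasChar1 M c H n ι f φ

/-! ## 2. The operators on characters -/

/-- The Betti Hecke operator of the double coset of `diag(ℓ, 1)` on `Hom(Gam1 M c, A)`
(family `repD`; helper39's `TD` without the linear structure). -/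
def TDadd (M c : ℕ) (hc : c ∣ M) {ℓ : ℕ} (hℓ : ℓ.Prime) (hℓM : ¬ ℓ ∣ M) {A : Type*}
    [AddCommGroup A] (φ : Additive (Gam1 M c) →+ A) : Additive (Gam1 M c) →+ A :=
  haveI : Fact ℓ.Prime := ⟨hℓ⟩
  (stmt_FAM_hecke M c ℓ hc hℓ hℓM).heckeOp (inc_injective _) φ

/-- The diamond operator `φ ↦ φ ∘ conj_g`, `g ∈ Γ₀(M)`, on `Hom(Gam1 M c, A)`
(helper39's `Dop` without the linear structure). -/
def Dadd {M c : ℕ} (hc : c ∣ M) (g : SL(2, ℤ)) (hg : (M : ℤ) ∣ g 1 0) {A : Type*}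
    [AddCommGroup A] (φ : Additive (Gam1 M c) →+ A) : Additive (Gam1 M c) →+ A :=
  tw (inc_injective _) ⟨mapGL ℝ g, gam0_mem_Nrm hc hg⟩ φ

/-- Reduction `ℤ/p^(k+1) → ℤ/p^k` on characters. -/
def redChar (p k : ℕ) {Γ : Type*} [Group Γ] (φ : Additive Γ →+ ZMod (p ^ (k + 1))) :
    Additive Γ →+ ZMod (p ^ k) :=
  (ZMod.castHom (pow_dvd_pow p (Nat.le_succ k)) (ZMod (p ^ k))).toAddMonoidHom.comp φ

/-! ## 3. The leaves -/

/-- **A1-H**: every element of `F_H` is `A / B` with `B ≠ 0` a modular form on `Γ₀(M)` and `A` a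
form of the same weight on `Γ₁(M)` which is invariant under `Γ_H = {γ ∈ Γ₀(M) : a_γ ∈ ±H}`. -/
def Stmt_A1H (M c : ℕ) (H : Subgroup (ZMod c)ˣ) : Prop :=
  2 ≤ c → c ∣ M → M ≠ 0 → ∀ (ι : Kbar →+* ℂ) (f : ↥(FHbar M c H)),
    ∃ (k : ℤ) (A : ℍ → ℂ) (B : ModularForm (Gamma0 M) k),
      Fermat.Agent.NEB.H84.IsW M k A ∧ B ≠ 0 ∧
      (∀ γ : SL(2, ℤ), γ ∈ Gamma0 M → ((γ 0 0 : ℤ) : ZMod c) ∈ cosetSet c H 1 →
        A ∣[k] γ = A) ∧
      qLaurent A = coeffMap ι (f : LaurentSeries Kbar) * qLaurent (B : ℍ → ℂ)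

/-- **A2-H**: a ratio of two forms of the same weight on `Γ₁(M)` which is invariant under `Γ_H`
lies in `F_H · ℂ`. -/
def Stmt_A2H (M c : ℕ) (H : Subgroup (ZMod c)ˣ) : Prop :=
  2 ≤ c → c ∣ M → M ≠ 0 → ∀ (k : ℤ) (A B : ℍ → ℂ),
    Fermat.Agent.NEB.H84.IsW M k A → Fermat.Agent.NEB.H84.IsW M k B → B ≠ 0 →
    (∀ γ : SL(2, ℤ), γ ∈ Gamma0 M → ((γ 0 0 : ℤ) : ZMod c) ∈ cosetSet c H 1 →
      (A ∣[k] γ) * B = A * (B ∣[k] γ)) →
    ∃ x ∈ laurentBaseChange ℂ (FHQ M c H), qLaurent A = x * qLaurent B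

/-- **MONO1**: an unramified function has a character, trivial on the parabolic and on the
elliptic elements of `Gam1 M c`. -/
def Stmt_MONO1 (M c : ℕ) (H : Subgroup (ZMod c)ˣ) (n : ℕ) : Prop :=
  2 ≤ c → c ∣ M → M ≠ 0 → n ≠ 0 → ∀ (ι : Kbar →+* ℂ) (f : ↥(FHbar M c H)), f ≠ 0 →
    (∀ v : Place Kbar ↥(FHbar M c H), (n : ℤ) ∣ v.ord f) →
    ∃ φ ∈ homPE (Gam1 M c) (ZMod n), HasChar1 M c H n ι f φ

/-- **CHAR1**: the character is unique, additive in `f`, and trivial on `n`-th powers. -/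
def Stmt_CHAR1 (M c : ℕ) (H : Subgroup (ZMod c)ˣ) (n : ℕ) : Prop :=
  2 ≤ c → c ∣ M → M ≠ 0 → n ≠ 0 → ∀ ι : Kbar →+* ℂ,
  (∀ (f : ↥(FHbar M c H)) (φ ψ : Additive (Gam1 M c) →+ ZMod n), f ≠ 0 →
      HasChar1 M c H n ι f φ → HasChar1 M c H n ι f ψ → φ = ψ) ∧
  (∀ (f g : ↥(FHbar M c H)) (φ ψ : Additive (Gam1 M c) →+ ZMod n), f ≠ 0 → g ≠ 0 →
      HasChar1 M c H n ι f φ → HasChar1 M c H n ι g ψ → HasChar1 M c H n ι (f * g) (φ + ψ)) ∧
  (∀ h : ↥(FHbar M c H), h ≠ 0 → HasChar1 M c H n ι (h ^ n) 0)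

/-- **INJ1**: if the character of `f` is trivial on `Gam1 M c`, then `f ^ |H|` is an `n`-th power
in `F_H` (the character of the root on `Γ_H` factors through `Γ_H / ± Gam1`, a quotient of `H`). -/
def Stmt_INJ1 (M c : ℕ) (H : Subgroup (ZMod c)ˣ) (n : ℕ) : Prop :=
  2 ≤ c → c ∣ M → M ≠ 0 → n ≠ 0 → ∀ (ι : Kbar →+* ℂ) (f : ↥(FHbar M c H)), f ≠ 0 →
    HasChar1 M c H n ι f 0 → ∃ h : ↥(FHbar M c H), f ^ Nat.card H = h ^ n

/-- **HK1**: the Kummer function `Norm_α (β f)` of `T_ℓ^H x` has character `T_ℓ^D φ`. -/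
def Stmt_HK1 (M c : ℕ) (H : Subgroup (ZMod c)ˣ) (n : ℕ) : Prop :=
  2 ≤ c → ∀ (hc : c ∣ M), M ≠ 0 → n ≠ 0 → ∀ (ι : Kbar →+* ℂ) (ℓ : ℕ) (hℓ : ℓ.Prime)
    (hℓM : ¬ ℓ ∣ M),
    haveI : NeZero ℓ := ⟨hℓ.ne_zero⟩
    ∀ (hβ : BetaOK M c ℓ H) (f : ↥(FHbar M c H)) (φ : Additive (Gam1 M c) →+ ZMod n), f ≠ 0 →
      HasChar1 M c H n ι f φ → HasChar1 M c H n ι (THfn hβ f) (TDadd M c hc hℓ hℓM φ)

/-- **DIAM1**: the function `⟨d⟩ f` has character `φ ∘ conj_g`, `g ∈ Γ₀(M)`, `a_g ≡ d mod c`. -/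
def Stmt_DIAM1 (M c : ℕ) (H : Subgroup (ZMod c)ˣ) (n : ℕ) : Prop :=
  2 ≤ c → ∀ (hc : c ∣ M), M ≠ 0 → n ≠ 0 → ∀ (ι : Kbar →+* ℂ) (dd : DiamondData M c H)
    (d : (ZMod c)ˣ) (g : SL(2, ℤ)) (hg : (M : ℤ) ∣ g 1 0), ((g 0 0 : ℤ) : ZMod c) = (d : ZMod c) →
    ∀ (f : ↥(FHbar M c H)) (φ : Additive (Gam1 M c) →+ ZMod n), f ≠ 0 →
      HasChar1 M c H n ι f φ → HasChar1 M c H n ι (dd.ρ d f) (Dadd hc g hg φ)

/-- **KCOMP1**: compatibility in `k`: the same function, `R ↦ R^p`. -/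
def Stmt_KCOMP1 (M c : ℕ) (H : Subgroup (ZMod c)ˣ) (p : ℕ) : Prop :=
  p ≠ 0 → ∀ (ι : Kbar →+* ℂ) (k : ℕ) (f : ↥(FHbar M c H))
    (φ : Additive (Gam1 M c) →+ ZMod (p ^ (k + 1))), f ≠ 0 →
      HasChar1 M c H (p ^ (k + 1)) ι f φ → HasChar1 M c H (p ^ k) ι f (redChar p k φ)

/-- **KUM1**: every `n`-torsion class is `[D]` with `n D = div f`; and `[D] = 0` if
`m D = div h` for some `m ≠ 0`, `h ≠ 0` ... in the form used by the assembly: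
a class `[D]` with `n D = div f` and `f ^ m = h ^ n` is killed by `m`. -/
def Stmt_KUM1 (M c : ℕ) (H : Subgroup (ZMod c)ˣ) (n : ℕ) : Prop :=
  2 ≤ c → c ∣ M → M ≠ 0 → n ≠ 0 →
  (∀ x : JH M c H, (n : ℤ) • x = 0 →
    ∃ (D : Divisor.degZero (K := Kbar) (F := ↥(FHbar M c H))) (f : ↥(FHbar M c H)),
      f ≠ 0 ∧ x = Pic0.mk D ∧
      ∀ v : Place Kbar ↥(FHbar M c H),
        (n : ℤ) * (D : Divisor Kbar ↥(FHbar M c H)) v = v.ord f) ∧
  (∀ (D : Divisor.degZero (K := Kbar) (F := ↥(FHbar M c H))) (f h : ↥(FHbar M c H)) (m : ℕ),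
      f ≠ 0 →
      (∀ v : Place Kbar ↥(FHbar M c H),
        (n : ℤ) * (D : Divisor Kbar ↥(FHbar M c H)) v = v.ord f) →
      f ^ m = h ^ n → (m : ℤ) • (Pic0.mk D : JH M c H) = 0)

/-! ## 4. The goal -/

/-- **EIG-MONO** (the interface consumed by EIG-LIN / EIG-OP): for every `k` a homomorphism
`mono k : J_H[p^k] → Hom(Gam1 M c, ℤ/p^k)`, characterised by `TorChar1`, with

* kernel killed by `|H|` (so: injective if `p ∤ |H|`, and injective in the limit over `k`),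
* values trivial on parabolic and elliptic elements,
* `mono (T_ℓ^H x) = T_ℓ^D (mono x)`, `mono (⟨d⟩ x) = (mono x) ∘ conj_g`,
* `mono_k (p x) = (mono_{k+1} x) mod p^k`. -/
def Stmt_MonoH (M c : ℕ) (H : Subgroup (ZMod c)ˣ) (p : ℕ) (ι : Kbar →+* ℂ) : Prop :=
  ∃ mono : ∀ k : ℕ, Pic0.torsion Kbar ↥(FHbar M c H) (p ^ k) →+
      (Additive (Gam1 M c) →+ ZMod (p ^ k)),
    (∀ (k : ℕ) (x : Pic0.torsion Kbar ↥(FHbar M c H) (p ^ k)),
      TorChar1 M c H (p ^ k) ι (x : JH M c H) (mono k x)) ∧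
    (∀ (k : ℕ) (x : Pic0.torsion Kbar ↥(FHbar M c H) (p ^ k)),
      mono k x = 0 → Nat.card H • (x : JH M c H) = 0) ∧
    (∀ (k : ℕ) (x : Pic0.torsion Kbar ↥(FHbar M c H) (p ^ k)),
      mono k x ∈ homPE (Gam1 M c) (ZMod (p ^ k))) ∧
    (∀ (hc : c ∣ M) (ℓ : ℕ) (hℓ : ℓ.Prime) (hℓM : ¬ ℓ ∣ M),
      haveI : NeZero ℓ := ⟨hℓ.ne_zero⟩
      ∀ (hβ : BetaOK M c ℓ H) (k : ℕ) (x y : Pic0.torsion Kbar ↥(FHbar M c H) (p ^ k)),
        (y : JH M c H) = TH hβ (x : JH M c H) →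
          mono k y = TDadd M c hc hℓ hℓM (mono k x)) ∧
    (∀ (hc : c ∣ M) (dd : DiamondData M c H) (d : (ZMod c)ˣ) (g : SL(2, ℤ))
      (hg : (M : ℤ) ∣ g 1 0), ((g 0 0 : ℤ) : ZMod c) = (d : ZMod c) →
      ∀ (k : ℕ) (x y : Pic0.torsion Kbar ↥(FHbar M c H) (p ^ k)),
        (y : JH M c H) = diamond dd d (x : JH M c H) →
          mono k y = Dadd hc g hg (mono k x)) ∧
    (∀ (k : ℕ) (x : Pic0.torsion Kbar ↥(FHbar M c H) (p ^ (k + 1)))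
      (y : Pic0.torsion Kbar ↥(FHbar M c H) (p ^ k)),
        (y : JH M c H) = p • (x : JH M c H) →
          mono k y = redChar p k (mono (k + 1) x))

end Fermat.Agent.NEB.EIG.H98

end
end
-- ==== END Fermat.Agent.NEB.EIG.H98_MonoDefs

-- ==== BEGIN Fermat.Agent.NEB.H84_Ker
section

/-!
# NEB, package FH-GAL, part 7 (helper84): the kernel of the diamond operators is `±H`

* `eisGen_inj` : `e_S = e_{S'}` implies `1 ∈ S ↔ 1 ∈ S'` (coefficient of `q¹`);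
* `rho_eq_one_iff` : `ρ d = 1 ↔ d ∈ H ∨ -d ∈ H`.
-/

set_option autoImplicit false
set_option linter.unusedSectionVars false

open UpperHalfPlane ModularForm CongruenceSubgroup ModularCurve
open scoped MatrixGroups ModularForm Manifold

noncomputable section

namespace Fermat.Agent.NEB.H84

section Inj

variable {c : ℕ}

theorem eisNum_eq_of_eisGen_eq {S S' : Set (ZMod c)} (h : eisGen c S = eisGen c S') :
    eisNum c S = eisNum c S' := by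
  have h1 : (eisQuot c S).map (Int.castRingHom ℚ) = (eisQuot c S').map (Int.castRingHom ℚ) :=
    HahnSeries.ofPowerSeries_injective h
  have h2 : eisQuot c S = eisQuot c S' :=
    PowerSeries.map_injective (Int.castRingHom ℚ) Int.cast_injective h1
  have h3 : eisenstein4.invOfUnit 1 * eisenstein4 = 1 := by
    rw [mul_comm]
    exact PowerSeries.mul_invOfUnit _ _ (by simp)
  have e : ∀ T : Set (ZMod c), eisNum c T = eisQuot c T * eisenstein4 := by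
    intro T
    rw [eisQuot, mul_assoc, h3, mul_one]
  rw [e, e, h2]

open scoped Classical in
theorem eisCoeff_one (S : Set (ZMod c)) :
    eisCoeff c S 1 = if (1 : ZMod c) ∈ S then 1 else 0 := by
  rw [eisCoeff]
  simp

theorem one_mem_iff_of_eisGen_eq {S S' : Set (ZMod c)} (h : eisGen c S = eisGen c S') :
    (1 : ZMod c) ∈ S ↔ (1 : ZMod c) ∈ S' := by
  classical
  have h1 := congrArg (PowerSeries.coeff 1) (eisNum_eq_of_eisGen_eq h)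
  rw [eisNum, eisNum, PowerSeries.coeff_mk, PowerSeries.coeff_mk, eisCoeff_one, eisCoeff_one] at h1
  by_cases hS : (1 : ZMod c) ∈ S <;> by_cases hS' : (1 : ZMod c) ∈ S' <;>
    simp [hS, hS'] at h1 ⊢

theorem coeffEmb_Kbar_injective : Function.Injective (coeffEmb Kbar) := by
  intro x y h
  ext n
  have := congrArg (fun z => z.coeff n) h
  simp only [coeffEmb_coeff] at this
  exact (algebraMap ℚ Kbar).injective this

end Inj

section Coset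

variable {c : ℕ} (H : Subgroup (ZMod c)ˣ)

omit H in
theorem mul_neg_inv_unit (d : (ZMod c)ˣ) : d * (-d)⁻¹ = -1 := by
  have h1 : (-d) * (-d)⁻¹ = 1 := mul_inv_cancel _
  rw [neg_mul] at h1
  rw [← h1, neg_neg]

theorem one_mem_cosetSet_iff (d : (ZMod c)ˣ) :
    (1 : ZMod c) ∈ cosetSet c H d ↔ (d ∈ H ∨ -d ∈ H) := by
  constructor
  · rintro ⟨h, hh, h1 | h1⟩
    · left
      have : d * h = 1 := by
        apply Units.ext
        rw [← h1, Units.val_one]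
      have hd : d = h⁻¹ := eq_inv_of_mul_eq_one_left this
      rw [hd]
      exact H.inv_mem hh
    · right
      have : (-d) * h = 1 := by
        apply Units.ext
        rw [Units.val_mul, Units.val_neg, neg_mul, ← Units.val_mul, ← h1, Units.val_one]
      have hd : -d = h⁻¹ := eq_inv_of_mul_eq_one_left this
      rw [hd]
      exact H.inv_mem hh
  · rintro (hd | hd)
    · refine ⟨d⁻¹, H.inv_mem hd, Or.inl ?_⟩
      rw [mul_inv_cancel, Units.val_one]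
    · refine ⟨(-d)⁻¹, H.inv_mem hd, Or.inr ?_⟩
      have : d * (-d)⁻¹ = -1 := mul_neg_inv_unit d
      rw [this, Units.val_neg, Units.val_one, neg_neg]

theorem cosetSet_mul_of_mem (a d : (ZMod c)ˣ) (hd : d ∈ H ∨ -d ∈ H) :
    cosetSet c H (a * d) = cosetSet c H a := by
  ext x
  constructor
  · rintro ⟨h, hh, h1 | h1⟩
    · rcases hd with hd | hd
      · exact ⟨d * h, H.mul_mem hd hh, Or.inl (by rw [h1, mul_assoc])⟩
      · refine ⟨(-d) * h, H.mul_mem hd hh, Or.inr ?_⟩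
        rw [h1]
        simp only [Units.val_mul, Units.val_neg]
        ring
    · rcases hd with hd | hd
      · exact ⟨d * h, H.mul_mem hd hh, Or.inr (by rw [h1, mul_assoc])⟩
      · refine ⟨(-d) * h, H.mul_mem hd hh, Or.inl ?_⟩
        rw [h1]
        simp only [Units.val_mul, Units.val_neg]
        ring
  · rintro ⟨h, hh, h1 | h1⟩
    · rcases hd with hd | hd
      · refine ⟨d⁻¹ * h, H.mul_mem (H.inv_mem hd) hh, Or.inl ?_⟩
        rw [h1]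
        congr 1
        rw [mul_assoc, mul_inv_cancel_left]
      · refine ⟨(-d)⁻¹ * h, H.mul_mem (H.inv_mem hd) hh, Or.inr ?_⟩
        rw [h1]
        have : a * d * ((-d)⁻¹ * h) = -(a * h) := by
          have h2 : d * (-d)⁻¹ = -1 := mul_neg_inv_unit d
          rw [mul_assoc, ← mul_assoc d, h2]
          simp
        rw [this, Units.val_neg, neg_neg]
    · rcases hd with hd | hd
      · refine ⟨d⁻¹ * h, H.mul_mem (H.inv_mem hd) hh, Or.inr ?_⟩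
        rw [h1]
        congr 2
        rw [mul_assoc, mul_inv_cancel_left]
      · refine ⟨(-d)⁻¹ * h, H.mul_mem (H.inv_mem hd) hh, Or.inl ?_⟩
        rw [h1]
        have : a * d * ((-d)⁻¹ * h) = -(a * h) := by
          have h2 : d * (-d)⁻¹ = -1 := mul_neg_inv_unit d
          rw [mul_assoc, ← mul_assoc d, h2]
          simp
        rw [this, Units.val_neg]

end Coset

section Kernel

variable {M c : ℕ} [NeZero M] (H : Subgroup (ZMod c)ˣ) (ι : Kbar →+* ℂ)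
  (hc2 : 2 ≤ c) (hc : c ∣ M)

theorem rho_eq_one_iff (d : (ZMod c)ˣ) :
    rho H ι hc2 hc d = 1 ↔ (d ∈ H ∨ -d ∈ H) := by
  constructor
  · intro h
    have h1 : rho H ι hc2 hc d (genBar M c H 1) = genBar M c H 1 := by
      rw [h]
      rfl
    rw [rho_gen, one_mul] at h1
    have h2 : coeffEmb Kbar (eisGen c (cosetSet c H d)) =
        coeffEmb Kbar (eisGen c (cosetSet c H 1)) := congrArg Subtype.val h1
    have h3 := one_mem_iff_of_eisGen_eq (coeffEmb_Kbar_injective h2)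
    rw [one_mem_cosetSet_iff, one_mem_cosetSet_iff] at h3
    exact h3.mpr (Or.inl H.one_mem)
  · intro hd
    apply AlgEquiv.ext
    intro x
    rw [rho_apply]
    have : rhoHom H ι hc2 hc d = AlgHom.id Kbar _ := by
      apply algHom_ext_FHbar
      · intro x₀
        rw [rhoHom_incl, AlgHom.id_apply]
      · intro a
        rw [rhoHom_gen, AlgHom.id_apply]
        apply Subtype.ext
        show coeffEmb Kbar (eisGen c (cosetSet c H (a * d))) =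
          coeffEmb Kbar (eisGen c (cosetSet c H a))
        rw [cosetSet_mul_of_mem H a d hd]
    rw [this]
    rfl

end Kernel

end Fermat.Agent.NEB.H84

end
end
-- ==== END Fermat.Agent.NEB.H84_Ker

-- ==== BEGIN Fermat.Agent.S48.Asm.Main
section

/-!
# S48: the assembly (helper43)

`S48_of_int_resRep : Stmt_Int → Stmt_ResRep → (frozen statement of S48)`.

Everything else is proved: Rankin (helper55), Chebotarev with loss (helper31, helper43, helper55,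
helper78), GroupBound (helper55), Lift, DegOne, SS2, Thin (helper78), TraceSet, TraceTwo, InjFin
(helper1), Irr (helper55).
-/

set_option autoImplicit false

open CongruenceSubgroup
open scoped MatrixGroups

namespace Fermat.Agent.S48.Asm

local notation "Γℚ" => (AlgebraicClosure ℚ ≃ₐ[ℚ] AlgebraicClosure ℚ)

/-- Chebotarev for subsets, unconditional. -/
theorem stmt_ChebSet : Stmt_ChebSet :=
  Fermat.Agent.S48.Cheb.H43.chebSet_of_nf Fermat.Agent.S48.Cheb.H78.stmt_ChebNF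

/-- `Stmt_Irr`, unconditional. -/
theorem stmt_Irr : Fermat.Agent.S48.Stmt_Irr :=
  Fermat.Agent.S48.H55.stmt_Irr_of_cheb Fermat.Agent.S48.Cheb.H78.stmt_Cheb

/-- `Stmt_Thin` from `Stmt_Int`. -/
theorem stmt_Thin_of_int (hInt : Stmt_Int) : Stmt_Thin :=
  H78.thin_of hInt Fermat.Agent.S48.H55.stmt_Rankin

/-- `Stmt_ModLift` from `Stmt_Int` and `Stmt_ResRep`. -/
theorem stmt_ModLift_of (hInt : Stmt_Int) (hRes : Stmt_ResRep) : Stmt_ModLift :=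
  H43.modLift_of hInt hRes (stmt_Thin_of_int hInt) stmt_ChebSet H78.stmt_SS2
    Fermat.Agent.S48.H78.stmt_Lift

/-- `Stmt_Away` from `Stmt_Int` and `Stmt_ResRep`. -/
theorem stmt_Away_of (hInt : Stmt_Int) (hRes : Stmt_ResRep) : Stmt_Away :=
  H43.away_of hInt (stmt_ModLift_of hInt hRes) H01.stmt_InjFin H01.stmt_TraceSet
    Fermat.Agent.S48.H78.stmt_DegOne

/-- **`Stmt_Core` from `Stmt_Int` and `Stmt_ResRep`.** -/
theorem stmt_Core_of (hInt : Stmt_Int) (hRes : Stmt_ResRep) : Stmt_Core :=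
  H43.core_of (stmt_Away_of hInt hRes) stmt_ChebSet H01.stmt_TraceTwo

/-- **The frozen statement of S48 from `Stmt_Int` and `Stmt_ResRep`.** -/
theorem S48_of_int_resRep (hInt : Stmt_Int) (hRes : Stmt_ResRep)
    (N : ℕ) [NeZero N] (ε : DirichletCharacter ℂ N) (f : CuspForm (Gamma1 N) 1)
    (hf₁ : ModularFormClass.qCoeff f 1 = 1)
    (hT : ∀ p : ℕ, p.Prime → ¬ p ∣ N → ∀ n : ℕ,
        ModularFormClass.qCoeff f (p * n) +
            ε (p : ZMod N) * (if p ∣ n then ModularFormClass.qCoeff f (n / p) else 0) =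
          ModularFormClass.qCoeff f p * ModularFormClass.qCoeff f n) :
    ∃ ρ : Γℚ →* GL (Fin 2) ℂ, GaloisFactorsThroughFiniteLevel ρ ∧
      (Deformation.matrixRepresentation ρ).IsIrreducible ∧
      ∀ p : ℕ, p.Prime → ¬ p ∣ N →
        ∀ A : ValuationSubring (AlgebraicClosure ℚ), A.LiesOverPrime p →
          (∀ σ ∈ A.inertiaSubgroupIn ℚ, ρ σ = 1) ∧
          ∀ σ : Γℚ, A.IsFrobeniusAt σ p →
            ((ρ σ : GL (Fin 2) ℂ) : Matrix (Fin 2) (Fin 2) ℂ).trace = ModularFormClass.qCoeff f p ∧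
            ((ρ σ : GL (Fin 2) ℂ) : Matrix (Fin 2) (Fin 2) ℂ).det = ε (p : ZMod N) :=
  Fermat.Agent.S48.S48_of_core_irr (stmt_Core_of hInt hRes) stmt_Irr N ε f hf₁ hT

end Fermat.Agent.S48.Asm

end
-- ==== END Fermat.Agent.S48.Asm.Main

-- ==== BEGIN Fermat.Agent.S48.B1.H22_Eis1
section

/-!
# S48 B1 (a): `Stmt_Eis1`, the weight one Eisenstein series of an odd character (helper22)

`E1 ℓ ψ = ∑_{a < ℓ} ψ(a) a - 2 ℓ ∑_{n ≥ 1} (∑_{d ∣ n} ψ(d)) qⁿ`.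
-/

set_option autoImplicit false

open UpperHalfPlane hiding I
open Complex Filter Topology CongruenceSubgroup ModularForm
open scoped Real MatrixGroups ModularForm Manifold

noncomputable section

namespace Fermat.Agent.S48.B1.H22

open Fermat.Agent.S48.Int (HasNeb)

variable {ℓ : ℕ} [NeZero ℓ] (ψ : DirichletCharacter ℂ ℓ)

omit [NeZero ℓ] in
theorem liftV_cons (j b : ZMod ℓ) : liftV ![j, b] = ![(j.val : ℤ), (b.val : ℤ)] := by
  funext i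
  fin_cases i <;> rfl

theorem sum_zmod_val (f : ℕ → ℂ) : ∑ b : ZMod ℓ, f b.val = ∑ s ∈ Finset.range ℓ, f s := by
  obtain ⟨k, rfl⟩ := Nat.exists_eq_succ_of_ne_zero (NeZero.ne ℓ)
  exact Fin.sum_univ_eq_sum_range f (k + 1)

theorem sum_zmod_psi (f : ℕ → ℂ) :
    ∑ j : ZMod ℓ, ψ j * f j.val = ∑ a ∈ Finset.range ℓ, ψ (a : ZMod ℓ) * f a := by
  rw [← sum_zmod_val (fun a => ψ (a : ZMod ℓ) * f a)]
  refine Finset.sum_congr rfl fun j _ => ?_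
  rw [ZMod.natCast_zmod_val]

theorem sum_vec_eq (τ : ℍ) :
    ∑ v : Fin 2 → ZMod ℓ, ψ (v 0) * Phi ℓ (liftV v) τ
      = ∑ j : ZMod ℓ, ψ j * ∑ s ∈ Finset.range ℓ, Phi ℓ ![(j.val : ℤ), (s : ℤ)] τ := by
  rw [← (finTwoArrowEquiv (ZMod ℓ)).symm.sum_comp, Fintype.sum_prod_type]
  refine Finset.sum_congr rfl fun j _ => ?_
  rw [Finset.mul_sum, ← sum_zmod_val (fun s => ψ j * Phi ℓ ![(j.val : ℤ), (s : ℤ)] τ)]
  refine Finset.sum_congr rfl fun b _ => ?_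
  simp only [finTwoArrowEquiv_symm_apply, Matrix.cons_val_zero, liftV_cons]

/-- The sum of `K` over a residue class. -/
def KA (ℓ : ℕ) [NeZero ℓ] (τ : ℍ) (j : ZMod ℓ) : ℂ := ∑' m : ℕ, K τ (j.val + ℓ * m)

theorem sum_Phi_eq_KA {j : ZMod ℓ} (hj : j ≠ 0) (τ : ℍ) :
    ∑ s ∈ Finset.range ℓ, Phi ℓ ![(j.val : ℤ), (s : ℤ)] τ
      = ℓ * (-(π * I) + KA ℓ τ j - KA ℓ τ (-j)) + 2 * π * I * (j.val : ℂ) := by
  have hℓ : 0 < ℓ := Nat.pos_of_ne_zero (NeZero.ne ℓ)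
  have h0 : 0 < j.val := (ZMod.val_pos).2 hj
  have h1 : j.val < ℓ := ZMod.val_lt j
  rw [sum_Phi hℓ h0 h1, Zc_eq_K hℓ h0 h1, KA, KA, ZMod.neg_val, if_neg hj]

/-- The function `c ↦ ψ(c) K(c)`. -/
def FK (τ : ℍ) (c : ℕ) : ℂ := ψ (c : ZMod ℓ) * K τ c

omit [NeZero ℓ] in
theorem summable_FK (τ : ℍ) : Summable (FK ψ τ) := by
  refine Summable.of_norm_bounded (summable_K τ).norm fun c => ?_
  rw [FK, norm_mul]
  exact mul_le_of_le_one_left (norm_nonneg _) (DirichletCharacter.norm_le_one ψ _)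

theorem sum_psi_KA (τ : ℍ) : ∑ j : ZMod ℓ, ψ j * KA ℓ τ j = ∑' c : ℕ, FK ψ τ c := by
  rw [Nat.sumByResidueClasses (summable_FK ψ τ) ℓ]
  refine Finset.sum_congr rfl fun j _ => ?_
  rw [KA, ← tsum_mul_left]
  refine tsum_congr fun m => ?_
  rw [FK]
  congr 2
  push_cast
  rw [ZMod.natCast_zmod_val, ZMod.natCast_self, zero_mul, add_zero]

theorem sum_psi_KA_neg (hodd : ψ (-1) = -1) (τ : ℍ) :
    ∑ j : ZMod ℓ, ψ j * KA ℓ τ (-j) = -∑' c : ℕ, FK ψ τ c := by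
  rw [← sum_psi_KA, ← Finset.sum_neg_distrib]
  refine Fintype.sum_equiv (Equiv.neg (ZMod ℓ)) _ _ fun j => ?_
  simp only [Equiv.neg_apply]
  rw [← neg_one_mul j, map_mul, hodd, neg_one_mul j]
  ring

theorem sum_psi_eq_zero (hodd : ψ (-1) = -1) : ∑ j : ZMod ℓ, ψ j = 0 := by
  apply MulChar.sum_eq_zero_of_ne_one
  intro h
  rw [h, MulChar.one_apply (isUnit_one.neg)] at hodd
  norm_num at hodd


theorem sum_all (hℓ : 1 < ℓ) (hodd : ψ (-1) = -1) (τ : ℍ) :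
    ∑ v : Fin 2 → ZMod ℓ, ψ (v 0) * Phi ℓ (liftV v) τ
      = 2 * ℓ * ∑' c : ℕ, FK ψ τ c
        + 2 * π * I * ∑ a ∈ Finset.range ℓ, ψ (a : ZMod ℓ) * (a : ℂ) := by
  rw [sum_vec_eq]
  have e : ∀ j : ZMod ℓ, ψ j * ∑ s ∈ Finset.range ℓ, Phi ℓ ![(j.val : ℤ), (s : ℤ)] τ
      = -(ℓ * (π * I)) * ψ j + ℓ * (ψ j * KA ℓ τ j) - ℓ * (ψ j * KA ℓ τ (-j))
        + 2 * π * I * (ψ j * (j.val : ℂ)) := by
    intro j
    by_cases hj : j = 0
    · rw [hj, psi_zero ψ hℓ]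
      ring
    · rw [sum_Phi_eq_KA hj]
      ring
  rw [Finset.sum_congr rfl (fun j _ => e j), Finset.sum_add_distrib, Finset.sum_sub_distrib,
    Finset.sum_add_distrib, ← Finset.mul_sum, ← Finset.mul_sum, ← Finset.mul_sum,
    ← Finset.mul_sum, sum_psi_eq_zero ψ hodd, sum_psi_KA, sum_psi_KA_neg ψ hodd,
    sum_zmod_psi ψ (fun a => (a : ℂ))]
  ring

/-- `c ↦ ψ(c mod ℓ)` on `ℤ`. -/
def chiZ (c : ℤ) : ℂ := ψ ((c : ZMod ℓ))

omit [NeZero ℓ] in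
theorem norm_chiZ_le (c : ℤ) : ‖chiZ ψ c‖ ≤ 1 := DirichletCharacter.norm_le_one ψ _

/-- The divisor sum `∑_{d ∣ n} ψ(d)`. -/
def sigPsi (n : ℕ) : ℂ := ∑ d ∈ n.divisors, ψ (d : ZMod ℓ)

omit [NeZero ℓ] in
theorem sigmaChi_eq_sigPsi (n : ℕ) :
    Fermat.Agent.NEB.H34.sigmaChi (chiZ ψ) 0 n = sigPsi ψ n := by
  unfold Fermat.Agent.NEB.H34.sigmaChi sigPsi chiZ
  simp only [pow_zero, mul_one]
  rw [Nat.sum_divisorsAntidiagonal (fun a _ => ψ (((a : ℕ) : ℤ) : ZMod ℓ))]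
  simp

omit [NeZero ℓ] in
theorem norm_sigPsi_le (n : ℕ) : ‖sigPsi ψ n‖ ≤ (n : ℝ) := by
  unfold sigPsi
  refine (norm_sum_le _ _).trans ?_
  refine (Finset.sum_le_card_nsmul _ _ 1 (fun d _ => DirichletCharacter.norm_le_one ψ _)).trans ?_
  rw [nsmul_eq_mul, mul_one]
  exact_mod_cast Nat.card_divisors_le_self n

omit [NeZero ℓ] in
theorem summable_sigPsi (τ : ℍ) :
    Summable fun n : ℕ => sigPsi ψ n * cexp (2 * π * I * τ) ^ n := by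
  apply Summable.of_norm_bounded
    (summable_norm_pow_mul_geometric_of_norm_lt_one 1 (UpperHalfPlane.norm_exp_two_pi_I_lt_one τ))
  intro n
  simp only [norm_mul, Complex.norm_natCast, norm_pow, pow_one]
  gcongr
  exact norm_sigPsi_le ψ n

omit [NeZero ℓ] in
theorem tsum_FK (τ : ℍ) :
    ∑' c : ℕ, FK ψ τ c
      = -2 * π * I * ∑' n : ℕ+, sigPsi ψ n * cexp (2 * π * I * τ) ^ (n : ℕ) := by
  have hq : ‖cexp (2 * π * I * τ)‖ < 1 := UpperHalfPlane.norm_exp_two_pi_I_lt_one τ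
  rw [← tsum_zero_pnat_eq_tsum_nat (summable_FK ψ τ), FK, K_zero, mul_zero, zero_add]
  have e0 : ∀ n : ℕ+, sigPsi ψ n * cexp (2 * π * I * τ) ^ (n : ℕ)
      = Fermat.Agent.NEB.H34.sigmaChi (chiZ ψ) 0 n * cexp (2 * π * I * τ) ^ (n : ℕ) := by
    intro n
    rw [sigmaChi_eq_sigPsi]
  rw [tsum_congr e0, ← Fermat.Agent.NEB.H34.tsum_twisted_prod (chiZ ψ) (norm_chiZ_le ψ) 0 hq,
    Summable.tsum_prod (Fermat.Agent.NEB.H34.summable_twisted_prod (chiZ ψ) (norm_chiZ_le ψ) 0 hq),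
    ← tsum_mul_left]
  refine tsum_congr fun c => ?_
  rw [FK, K_eq_tsum, ← tsum_mul_left, ← tsum_mul_left, ← tsum_mul_left]
  refine tsum_congr fun e => ?_
  simp only [chiZ, pow_zero, mul_one, Int.cast_natCast]
  ring

/-- **The `q`-expansion of `E_{1,ψ}`**, as a sum over `ℕ+`. -/
theorem E1_eq_tsum_pnat (hℓ : 1 < ℓ) (hodd : ψ (-1) = -1) (τ : ℍ) :
    E1 ℓ ψ τ = ∑ a ∈ Finset.range ℓ, ψ (a : ZMod ℓ) * (a : ℂ)
      + -2 * ℓ * ∑' n : ℕ+, sigPsi ψ n * cexp (2 * π * I * τ) ^ (n : ℕ) := by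
  rw [E1, sum_all ψ hℓ hodd, tsum_FK]
  have h := two_pi_I_ne_zero'
  field_simp
  ring

/-- The coefficients of `eis1Series`. -/
def eis1Coeff (n : ℕ) : ℂ :=
  if n = 0 then ∑ a ∈ Finset.range ℓ, ψ (a : ZMod ℓ) * (a : ℂ)
  else -2 * (ℓ : ℂ) * ∑ d ∈ n.divisors, ψ (d : ZMod ℓ)

omit [NeZero ℓ] in
theorem eis1Series_eq : eis1Series ℓ ψ = PowerSeries.mk (eis1Coeff ψ) := rfl

omit [NeZero ℓ] in
theorem eis1Coeff_zero : eis1Coeff ψ 0 = ∑ a ∈ Finset.range ℓ, ψ (a : ZMod ℓ) * (a : ℂ) :=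
  if_pos rfl

omit [NeZero ℓ] in
theorem eis1Coeff_of_ne_zero {n : ℕ} (hn : n ≠ 0) :
    eis1Coeff ψ n = -2 * (ℓ : ℂ) * sigPsi ψ n := if_neg hn

omit [NeZero ℓ] in
theorem summable_eis1Coeff (τ : ℍ) :
    Summable fun n : ℕ => eis1Coeff ψ n * cexp (2 * π * I * τ) ^ n := by
  rw [← summable_nat_add_iff 1]
  have h := ((summable_nat_add_iff 1).2 (summable_sigPsi ψ τ)).mul_left (-2 * (ℓ : ℂ))
  refine h.congr fun n => ?_
  rw [eis1Coeff_of_ne_zero ψ (Nat.succ_ne_zero n)]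
  ring

theorem E1_eq_tsum (hℓ : 1 < ℓ) (hodd : ψ (-1) = -1) (τ : ℍ) :
    E1 ℓ ψ τ = ∑' n : ℕ, eis1Coeff ψ n * cexp (2 * π * I * τ) ^ n := by
  rw [E1_eq_tsum_pnat ψ hℓ hodd, ← tsum_zero_pnat_eq_tsum_nat (summable_eis1Coeff ψ τ),
    eis1Coeff_zero, pow_zero, mul_one, ← tsum_mul_left]
  congr 1
  refine tsum_congr fun n => ?_
  rw [eis1Coeff_of_ne_zero ψ n.ne_zero]
  ring

theorem hasSum_E1 (hℓ : 1 < ℓ) (hodd : ψ (-1) = -1) (τ : ℍ) :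
    HasSum (fun m : ℕ => eis1Coeff ψ m • Function.Periodic.qParam 1 τ ^ m) (E1 ℓ ψ τ) := by
  rw [E1_eq_tsum ψ hℓ hodd τ]
  have h1 := (summable_eis1Coeff ψ τ).hasSum
  have hf : (fun m : ℕ => eis1Coeff ψ m • Function.Periodic.qParam 1 τ ^ m)
      = fun i : ℕ => eis1Coeff ψ i * cexp (2 * π * I * τ) ^ i := by
    funext m
    simp only [smul_eq_mul, Function.Periodic.qParam, ofReal_one, div_one]
  rw [hf]
  exact h1

theorem qExpansion_E1 (hℓ : 1 < ℓ) (hodd : ψ (-1) = -1) :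
    qExpansion 1 (E1 ℓ ψ) = eis1Series ℓ ψ := by
  have hnice := Fermat.Agent.S48.Int.H22.nice_of_hasNeb (hasNeb_E1 ψ hℓ)
    (mdifferentiable_E1 ψ hℓ) (isBoundedAtImInfty_E1_slash ψ hℓ)
  ext m
  rw [eis1Series_eq, PowerSeries.coeff_mk]
  exact (UpperHalfPlane.qExpansion_coeff_unique
    (ContinuousMap.mk (E1 ℓ ψ) (mdifferentiable_E1 ψ hℓ).continuous) one_pos
    (hnice.analyticAt one_pos) (hasSum_E1 ψ hℓ hodd) m).symm

/-- **B1(a) Eis1.** -/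
theorem stmt_Eis1 : Stmt_Eis1 := by
  intro ℓ _ hp ψ hodd
  exact ⟨E1 ℓ ψ, mdifferentiable_E1 ψ hp.one_lt, isBoundedAtImInfty_E1_slash ψ hp.one_lt,
    hasNeb_E1 ψ hp.one_lt, qExpansion_E1 ψ hp.one_lt hodd⟩

end Fermat.Agent.S48.B1.H22

end
end
-- ==== END Fermat.Agent.S48.B1.H22_Eis1
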