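-- GENERATED (merged mirror, NOTES/tools/trim/merge3_helper67.py): 5 modules of the originals, bodies verbatim.
import Fermat.Agent.Zm.S48_L07_001
import Fermat.Agent.Zm.S48_L03_002
import Fermat.Agent.Zm.S48_L03_001
import Fermat.Agent.Zm.S48_L01_003
import Fermat.Agent.Zm.S48_L05_000
import Fermat.Agent.Zm.S35_L07_002
import Fermat.Agent.Zm.S35_L01_002
import Fermat.Agent.Zm.S35_L07_003
import Fermat.Agent.Zm.S35_L13_002

-- ==== BEGIN Fermat.Agent.S48.B1.H55_Asm3
section

/-!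
# S48, B1 assembly, part 3 (helper55): reduction of algebraic integers and the congruences
of the coefficient sequences

* `red φ x`: the image under `φ : ℤ̄ → k` of an algebraic integer `x : ℂ` (`0` otherwise);
* `red_conv`: if `e₀ ≡ -1` and `e_j ≡ 0` (`j ≥ 1`) then the convolution `u * e ≡ -u`;
* `red_hecke_rel`: the approximate eigenvector property;
* `eis1_integral`, `red_eis1_zero`, `red_eis1_pos`: the coefficients of `eis1Series`.
-/

set_option autoImplicit false

open CongruenceSubgroup UpperHalfPlane ModularForm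
open scoped MatrixGroups ModularForm Manifold

noncomputable section

namespace Fermat.Agent.S48.B1.H55

open Fermat.Agent.S48.Int (HasNeb)

variable {k : Type} [Field k]

/-- Reduction of an algebraic integer under `φ` (junk value `0` on the other numbers). -/
def red (φ : integralClosure ℤ ℂ →+* k) (x : ℂ) : k :=
  open Classical in if h : IsIntegral ℤ x then φ ⟨x, h⟩ else 0

theorem red_coe (φ : integralClosure ℤ ℂ →+* k) (y : integralClosure ℤ ℂ) :
    red φ (y : ℂ) = φ y := by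
  have hy : IsIntegral ℤ (y : ℂ) := y.2
  unfold red
  rw [dif_pos hy]

theorem exists_lift_of_isIntegral {x : ℂ} (hx : IsIntegral ℤ x) :
    ∃ y : integralClosure ℤ ℂ, (y : ℂ) = x := ⟨⟨x, hx⟩, rfl⟩

theorem red_zero (φ : integralClosure ℤ ℂ →+* k) : red φ 0 = 0 := by
  have := red_coe φ 0
  simpa using this

theorem red_one (φ : integralClosure ℤ ℂ →+* k) : red φ 1 = 1 := by
  have := red_coe φ 1
  simpa using this

theorem red_add (φ : integralClosure ℤ ℂ →+* k) {x y : ℂ} (hx : IsIntegral ℤ x)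
    (hy : IsIntegral ℤ y) : red φ (x + y) = red φ x + red φ y := by
  obtain ⟨a, rfl⟩ := exists_lift_of_isIntegral hx
  obtain ⟨b, rfl⟩ := exists_lift_of_isIntegral hy
  have h : ((a + b : integralClosure ℤ ℂ) : ℂ) = (a : ℂ) + (b : ℂ) := rfl
  rw [← h, red_coe, red_coe, red_coe, map_add]

theorem red_mul (φ : integralClosure ℤ ℂ →+* k) {x y : ℂ} (hx : IsIntegral ℤ x)
    (hy : IsIntegral ℤ y) : red φ (x * y) = red φ x * red φ y := by
  obtain ⟨a, rfl⟩ := exists_lift_of_isIntegral hx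
  obtain ⟨b, rfl⟩ := exists_lift_of_isIntegral hy
  have h : ((a * b : integralClosure ℤ ℂ) : ℂ) = (a : ℂ) * (b : ℂ) := rfl
  rw [← h, red_coe, red_coe, red_coe, map_mul]

theorem red_neg (φ : integralClosure ℤ ℂ →+* k) {x : ℂ} (hx : IsIntegral ℤ x) :
    red φ (-x) = -red φ x := by
  obtain ⟨a, rfl⟩ := exists_lift_of_isIntegral hx
  have h : ((-a : integralClosure ℤ ℂ) : ℂ) = -(a : ℂ) := rfl
  rw [← h, red_coe, red_coe, map_neg]

theorem red_sub (φ : integralClosure ℤ ℂ →+* k) {x y : ℂ} (hx : IsIntegral ℤ x)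
    (hy : IsIntegral ℤ y) : red φ (x - y) = red φ x - red φ y := by
  rw [sub_eq_add_neg, red_add φ hx hy.neg, red_neg φ hy, sub_eq_add_neg]

theorem red_natCast (φ : integralClosure ℤ ℂ →+* k) (n : ℕ) : red φ (n : ℂ) = (n : k) := by
  have h : (((n : ℕ) : integralClosure ℤ ℂ) : ℂ) = (n : ℂ) := by
    simp
  rw [← h, red_coe, map_natCast]

theorem red_sum (φ : integralClosure ℤ ℂ →+* k) {ι : Type*} (s : Finset ι) (F : ι → ℂ)
    (hF : ∀ i ∈ s, IsIntegral ℤ (F i)) : red φ (∑ i ∈ s, F i) = ∑ i ∈ s, red φ (F i) := by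
  classical
  induction s using Finset.induction_on with
  | empty => simp [red_zero]
  | insert a s ha ih =>
    rw [Finset.sum_insert ha, Finset.sum_insert ha,
      red_add φ (hF a (Finset.mem_insert_self a s))
        (IsIntegral.sum _ fun i hi => hF i (Finset.mem_insert_of_mem hi)),
      ih fun i hi => hF i (Finset.mem_insert_of_mem hi)]

/-- The convolution with a sequence `e`, `e₀ ≡ -1`, `e_j ≡ 0` for `j ≥ 1`. -/
theorem red_conv (φ : integralClosure ℤ ℂ →+* k) (u e : ℕ → ℂ)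
    (hu : ∀ n, IsIntegral ℤ (u n)) (he : ∀ n, IsIntegral ℤ (e n))
    (he0 : red φ (e 0) = -1) (hej : ∀ j, j ≠ 0 → red φ (e j) = 0) (n : ℕ) :
    IsIntegral ℤ (∑ x ∈ Finset.HasAntidiagonal.antidiagonal n, u x.1 * e x.2) ∧
      red φ (∑ x ∈ Finset.HasAntidiagonal.antidiagonal n, u x.1 * e x.2) = -red φ (u n) := by
  refine ⟨IsIntegral.sum _ fun x _ => (hu _).mul (he _), ?_⟩
  rw [red_sum φ _ _ fun x _ => (hu x.1).mul (he x.2)]
  rw [Finset.sum_eq_single (n, 0)]
  · rw [red_mul φ (hu _) (he _), he0]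
    ring
  · rintro ⟨i, j⟩ hx hne
    have hj : j ≠ 0 := by
      rintro rfl
      apply hne
      rw [Finset.HasAntidiagonal.mem_antidiagonal] at hx
      simp only [add_zero] at hx
      rw [hx]
    rw [red_mul φ (hu _) (he _), hej j hj, mul_zero]
  · intro h
    exact absurd (Finset.HasAntidiagonal.mem_antidiagonal.2 (add_zero n)) h

/-- The approximate eigenvector property. -/
theorem red_hecke_rel (φ : integralClosure ℤ ℂ →+* k) (u w : ℕ → ℂ)
    (hu : ∀ n, IsIntegral ℤ (u n)) (hw : ∀ n, IsIntegral ℤ (w n))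
    (hwu : ∀ n, red φ (w n) = -red φ (u n)) (p : ℕ) (c α e : ℂ)
    (hc : IsIntegral ℤ c) (hα : IsIntegral ℤ α) (he : IsIntegral ℤ e)
    (hce : red φ c = red φ e)
    (hrel : ∀ n, u (p * n) + e * (if p ∣ n then u (n / p) else 0) = α * u n) (n : ℕ) :
    IsIntegral ℤ (coeffOp p c w n - α * w n) ∧ red φ (coeffOp p c w n - α * w n) = 0 := by
  have hif : ∀ v : ℕ → ℂ, (∀ m, IsIntegral ℤ (v m)) →
      IsIntegral ℤ (if p ∣ n then v (n / p) else 0) := by
    intro v hv
    split_ifs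
    · exact hv _
    · exact isIntegral_zero
  have hifred : ∀ v : ℕ → ℂ, red φ (if p ∣ n then v (n / p) else 0) =
      if p ∣ n then red φ (v (n / p)) else 0 := by
    intro v
    split_ifs
    · rfl
    · exact red_zero φ
  have h1 : IsIntegral ℤ (coeffOp p c w n) := (hw _).add (hc.mul (hif w hw))
  refine ⟨h1.sub (hα.mul (hw _)), ?_⟩
  have hr := congrArg (red φ) (hrel n)
  rw [red_add φ (hu _) (he.mul (hif u hu)), red_mul φ he (hif u hu), red_mul φ hα (hu _),
    hifred] at hr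
  rw [red_sub φ h1 (hα.mul (hw _)), coeffOp_apply, red_add φ (hw _) (hc.mul (hif w hw)),
    red_mul φ hc (hif w hw), red_mul φ hα (hw _), hifred, hce]
  simp only [hwu]
  by_cases hpn : p ∣ n
  · simp only [hpn, if_true] at hr ⊢
    linear_combination -hr
  · simp only [hpn, if_false] at hr ⊢
    linear_combination -hr

end Fermat.Agent.S48.B1.H55

end
end
-- ==== END Fermat.Agent.S48.B1.H55_Asm3

-- ==== BEGIN Fermat.Agent.S48.B1.H96_AlgForm
section

set_option autoImplicit false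

open CongruenceSubgroup UpperHalfPlane ModularForm
open scoped MatrixGroups ModularForm Manifold

namespace Fermat.Agent.S48.B1.H96

open Fermat.Agent.S48.Int (HasNeb Stmt_Decomp Stmt_Int3)
open Fermat.Agent.S48.Int.H55 (nice_G1)
open Fermat.Agent.S23.H22 (Nice)

variable (N : ℕ)

theorem qCoeff_add' (f g : CuspForm (Gamma1 N) 1) (n : ℕ) :
    ModularFormClass.qCoeff (⇑(f + g)) n =
      ModularFormClass.qCoeff (⇑f) n + ModularFormClass.qCoeff (⇑g) n := by
  unfold ModularFormClass.qCoeff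
  rw [FunLike.coe_add, Nice.qExpansion_add one_pos (nice_G1 f) (nice_G1 g), map_add]

theorem qCoeff_smul' (c : ℂ) (f : CuspForm (Gamma1 N) 1) (n : ℕ) :
    ModularFormClass.qCoeff (⇑(c • f)) n = c * ModularFormClass.qCoeff (⇑f) n := by
  unfold ModularFormClass.qCoeff
  have h1 : (⇑(c • f) : ℍ → ℂ) = c • (⇑f : ℍ → ℂ) := rfl
  rw [h1, Nice.qExpansion_smul one_pos (nice_G1 f) c]
  simp

/-- The coefficient map of `S₁(Γ₁(N))`. -/
noncomputable def coeffMap : CuspForm (Gamma1 N) 1 →ₗ[ℂ] (ℕ → ℂ) where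
  toFun f n := ModularFormClass.qCoeff (⇑f) n
  map_add' f g := by
    funext n
    exact qCoeff_add' N f g n
  map_smul' c f := by
    funext n
    exact qCoeff_smul' N c f n

theorem coeffMap_apply (f : CuspForm (Gamma1 N) 1) (n : ℕ) :
    coeffMap N f n = ModularFormClass.qCoeff (⇑f) n := rfl

section findim

variable [NeZero N]

/-- `S₁(Γ₁(N))` is finite dimensional, from the finite dimensionality of the nebentypus
components. -/
theorem finiteDimensional_of_neb (hfd : Stmt_FinDimNeb) :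
    FiniteDimensional ℂ (CuspForm (Gamma1 N) 1) := by
  classical
  have hdec := Fermat.Agent.S48.Int.H31.stmt_Decomp
  have hall : ∀ χ : DirichletCharacter ℂ N, FiniteDimensional ℂ (nebSubmodule N χ 1) :=
    fun χ => hfd N χ 1 (Or.inl rfl)
  have hsup : FiniteDimensional ℂ (⨆ χ : DirichletCharacter ℂ N, nebSubmodule N χ 1 :
      Submodule ℂ (CuspForm (Gamma1 N) 1)) := Submodule.finiteDimensional_iSup _
  have htop : (⨆ χ : DirichletCharacter ℂ N, nebSubmodule N χ 1 :
      Submodule ℂ (CuspForm (Gamma1 N) 1)) = ⊤ := by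
    rw [eq_top_iff]
    intro f _
    obtain ⟨F, hF, hsum⟩ := hdec N f
    have hf : f = ∑ χ, F χ := by
      apply DFunLike.ext
      intro z
      rw [hsum z]
      exact (map_sum (⟨⟨fun G : CuspForm (Gamma1 N) 1 => G z, rfl⟩, fun _ _ => rfl⟩ :
        CuspForm (Gamma1 N) 1 →+ ℂ) F Finset.univ).symm
    rw [hf]
    refine Submodule.sum_mem _ (fun χ _ => ?_)
    exact (le_iSup (fun χ : DirichletCharacter ℂ N => nebSubmodule N χ 1) χ) (hF χ)
  rw [htop] at hsup
  exact Module.finite_def.mpr ((Submodule.fg_iff_finiteDimensional _).mpr hsup)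

end findim

section main

variable [NeZero N]

/-- The space of the cusp forms satisfying the Hecke relations of `f`. -/
def relSub (ε : DirichletCharacter ℂ N) (f : CuspForm (Gamma1 N) 1) :
    Submodule ℂ (CuspForm (Gamma1 N) 1) where
  carrier := {g | ∀ p : ℕ, p.Prime → ¬ p ∣ N → ∀ n : ℕ,
    coeffMap N g (p * n) + ε (p : ZMod N) * (if p ∣ n then coeffMap N g (n / p) else 0) =
      ModularFormClass.qCoeff (⇑f) p * coeffMap N g n}
  add_mem' := by
    intro a b ha hb p hp hpN n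
    have h1 := ha p hp hpN n
    have h2 := hb p hp hpN n
    simp only [map_add, Pi.add_apply]
    split_ifs at h1 h2 ⊢ <;> linear_combination h1 + h2
  zero_mem' := by
    intro p hp hpN n
    simp
  smul_mem' := by
    intro c a ha p hp hpN n
    have h1 := ha p hp hpN n
    simp only [map_smul, Pi.smul_apply, smul_eq_mul]
    split_ifs at h1 ⊢ <;> linear_combination c * h1

/-- The ring endomorphisms of `ℂ` fixing the algebraic numbers. -/
def fixAlg : Set (ℂ →+* ℂ) := {σ | ∀ y : ℂ, IsAlgebraic ℚ y → σ y = y}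

/-- **AlgForm**, modulo the finite dimensionality of the nebentypus components. -/
theorem stmt_AlgForm_of (hfd : Stmt_FinDimNeb) : Stmt_AlgForm := by
  intro N _ ε f hf
  classical
  have hfin : FiniteDimensional ℂ (CuspForm (Gamma1 N) 1) := finiteDimensional_of_neb N hfd
  have hInt := Fermat.Agent.S48.Int.H55.stmt_Int N ε f hf
  have hint := hInt.1
  have hInt3 : Stmt_Int3 :=
    Fermat.Agent.S48.Int.H55.stmt_Int3_of Fermat.Agent.S48.Int.H31.stmt_Decomp
      (Fermat.Agent.S48.Int.H55.stmt_NebGS_of Fermat.Agent.S48.Int.H01.stmt_Eis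
        Fermat.Agent.S48.Int.H22.stmt_Prod Fermat.Agent.S48.Int.H22.stmt_Pow)
  have hεalg : ∀ a : ZMod N, IsAlgebraic ℚ (ε a) := fun a =>
    ((Fermat.Agent.S48.Int.H55.isIntegral_charVal ε a).isAlgebraic).extendScalars
      (algebraMap ℤ ℚ).injective_int
  have hapalg : ∀ p : ℕ, p.Prime → ¬ p ∣ N → IsAlgebraic ℚ (ModularFormClass.qCoeff (⇑f) p) :=
    fun p hp hpN => ((hint p hp hpN).isAlgebraic).extendScalars (algebraMap ℤ ℚ).injective_int
  -- stability of the relation space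
  have hW : ∀ σ ∈ fixAlg, ∀ v ∈ relSub N ε f, ∃ v' ∈ relSub N ε f,
      ∀ n, coeffMap N v' n = σ (coeffMap N v n) := by
    intro σ hσ v hv
    obtain ⟨v', hv'⟩ := hInt3 N v σ
    refine ⟨v', ?_, hv'⟩
    intro p hp hpN n
    have h1 := congrArg σ (hv p hp hpN n)
    rw [map_add, map_mul, map_mul, hσ _ (hεalg _), hσ _ (hapalg p hp hpN)] at h1
    simp only [coeffMap_apply] at h1 ⊢
    rw [hv' (p * n), hv' n]
    split_ifs at h1 ⊢ with hdvd
    · rw [hv' (n / p)]
      exact h1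
    · rw [map_zero] at h1
      exact h1
  have hfW : f ∈ relSub N ε f := fun p hp hpN n => hf.hecke p hp hpN n
  obtain ⟨f', hf'W, hf'1, hfix⟩ :=
    exists_fixed_of_stable (coeffMap N) fixAlg (relSub N ε f) hW 1 f hfW hf.one
  have hcoef : ∀ p : ℕ, p.Prime → ¬ p ∣ N →
      ModularFormClass.qCoeff (⇑f') p = ModularFormClass.qCoeff (⇑f) p := by
    intro p hp hpN
    have h1 := hf'W p hp hpN 1
    have hnd : ¬ p ∣ 1 := fun h => hp.one_lt.ne' (Nat.dvd_one.mp h)
    rw [if_neg hnd, mul_zero, add_zero, mul_one, hf'1, mul_one] at h1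
    exact h1
  refine ⟨f', ⟨hf'1, fun p hp hpN n => ?_⟩, hcoef, ?_⟩
  · rw [hcoef p hp hpN]
    exact hf'W p hp hpN n
  · have halg : ∀ n, IsAlgebraic ℚ (ModularFormClass.qCoeff (⇑f') n) := fun n =>
      isAlgebraic_of_forall_fixed _ (fun σ hσ => hfix σ hσ n)
    obtain ⟨Λ, hΛ, hc, -⟩ := Fermat.Agent.S48.Int.H55.exists_fg_coeff
      Fermat.Agent.S48.Int.H31.stmt_Decomp Fermat.Agent.S48.Int.H01.stmt_Eis
      Fermat.Agent.S48.Int.H22.stmt_Prod Fermat.Agent.S48.Int.H01.stmt_CoeffFG N f'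
    exact exists_common_denominator Λ hΛ (fun n => ModularFormClass.qCoeff (⇑f') n) hc halg

end main

end Fermat.Agent.S48.B1.H96

end
-- ==== END Fermat.Agent.S48.B1.H96_AlgForm

-- ==== BEGIN Fermat.Agent.S48.B2.H55_AsmLin
section

/-!
# S48, B2 assembly, part 1 (helper55): matrices of additive endomorphisms of `J[ℓ]`

`T ≃+ (Fin r → ZMod ℓ)` coordinates `θ`, `k` a field of characteristic `ℓ`.

* `matOf θ g`: the matrix over `k` of an additive endomorphism `g` of `T`;
  `applyMat_eq_mulVec`, `matOf_comp`, `matOf_one`, `matOf_add`, `matOf_neg`, `matOf_natCast_smul`.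
-/

set_option autoImplicit false

noncomputable section

namespace Fermat.Agent.S48.B2.H55

open Fermat.Agent.S48.B2

variable {T : Type*} [AddCommGroup T] {ℓ r : ℕ} {k : Type} [Field k] [CharP k ℓ]

/-- The endomorphism of `(ZMod ℓ)^r` corresponding to `g` under `θ`. -/
def conjHom (θ : T ≃+ (Fin r → ZMod ℓ)) (g : T →+ T) :
    (Fin r → ZMod ℓ) →+ (Fin r → ZMod ℓ) :=
  (θ.toAddMonoidHom.comp g).comp θ.symm.toAddMonoidHom

theorem conjHom_apply (θ : T ≃+ (Fin r → ZMod ℓ)) (g : T →+ T) (u : Fin r → ZMod ℓ) :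
    conjHom θ g u = θ (g (θ.symm u)) := rfl

theorem conjHom_comp (θ : T ≃+ (Fin r → ZMod ℓ)) (g h : T →+ T) :
    conjHom θ (g.comp h) = (conjHom θ g).comp (conjHom θ h) := by
  ext u i
  simp only [conjHom_apply, AddMonoidHom.comp_apply, AddEquiv.symm_apply_apply]

/-- The matrix over `ZMod ℓ` of an additive endomorphism. -/
def matZ (θ : T ≃+ (Fin r → ZMod ℓ)) (g : T →+ T) : Matrix (Fin r) (Fin r) (ZMod ℓ) :=
  LinearMap.toMatrix' ((conjHom θ g).toZModLinearMap ℓ)

theorem matZ_apply (θ : T ≃+ (Fin r → ZMod ℓ)) (g : T →+ T) (i j : Fin r) :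
    matZ θ g i j = θ (g (θ.symm (Pi.single j 1))) i := by
  unfold matZ
  rw [LinearMap.toMatrix'_apply]
  rfl

theorem matZ_comp (θ : T ≃+ (Fin r → ZMod ℓ)) (g h : T →+ T) :
    matZ θ (g.comp h) = matZ θ g * matZ θ h := by
  unfold matZ
  rw [conjHom_comp, ← LinearMap.toMatrix'_comp]
  rfl

theorem matZ_id (θ : T ≃+ (Fin r → ZMod ℓ)) : matZ θ (AddMonoidHom.id T) = 1 := by
  unfold matZ
  rw [← LinearMap.toMatrix'_id]
  congr 1
  ext u i
  simp [conjHom_apply]

theorem matZ_add (θ : T ≃+ (Fin r → ZMod ℓ)) (g h : T →+ T) :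
    matZ θ (g + h) = matZ θ g + matZ θ h := by
  ext i j
  rw [Matrix.add_apply, matZ_apply, matZ_apply, matZ_apply, AddMonoidHom.add_apply, map_add,
    Pi.add_apply]

theorem matZ_neg (θ : T ≃+ (Fin r → ZMod ℓ)) (g : T →+ T) :
    matZ θ (-g) = -matZ θ g := by
  ext i j
  rw [Matrix.neg_apply, matZ_apply, matZ_apply, AddMonoidHom.neg_apply, map_neg, Pi.neg_apply]

theorem matZ_zero (θ : T ≃+ (Fin r → ZMod ℓ)) : matZ θ (0 : T →+ T) = 0 := by
  ext i j
  rw [Matrix.zero_apply, matZ_apply, AddMonoidHom.zero_apply, map_zero, Pi.zero_apply]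

theorem matZ_nsmul (θ : T ≃+ (Fin r → ZMod ℓ)) (n : ℕ) (g : T →+ T) :
    matZ θ (n • g) = n • matZ θ g := by
  induction n with
  | zero => rw [zero_smul, zero_smul, matZ_zero]
  | succ n ih => rw [succ_nsmul, succ_nsmul, matZ_add, ih]

/-- The matrix over `k` of an additive endomorphism. -/
def matOf (k : Type) [Field k] [CharP k ℓ] (θ : T ≃+ (Fin r → ZMod ℓ)) (g : T →+ T) :
    Matrix (Fin r) (Fin r) k :=
  (matZ θ g).map (ZMod.castHom (dvd_refl ℓ) k)

theorem matOf_apply (θ : T ≃+ (Fin r → ZMod ℓ)) (g : T →+ T) (i j : Fin r) :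
    matOf k θ g i j = (ZMod.cast (θ (g (θ.symm (Pi.single j 1))) i) : k) := by
  unfold matOf
  rw [Matrix.map_apply, matZ_apply, ZMod.castHom_apply]

theorem matOf_comp (θ : T ≃+ (Fin r → ZMod ℓ)) (g h : T →+ T) :
    matOf k θ (g.comp h) = matOf k θ g * matOf k θ h := by
  unfold matOf
  rw [matZ_comp, Matrix.map_mul]

theorem matOf_id (θ : T ≃+ (Fin r → ZMod ℓ)) : matOf k θ (AddMonoidHom.id T) = 1 := by
  unfold matOf
  rw [matZ_id, Matrix.map_one _ (map_zero _) (map_one _)]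

theorem matOf_add (θ : T ≃+ (Fin r → ZMod ℓ)) (g h : T →+ T) :
    matOf k θ (g + h) = matOf k θ g + matOf k θ h := by
  unfold matOf
  rw [matZ_add, Matrix.map_add _ (fun a b => map_add _ a b)]

theorem matOf_neg (θ : T ≃+ (Fin r → ZMod ℓ)) (g : T →+ T) :
    matOf k θ (-g) = -matOf k θ g := by
  unfold matOf
  rw [matZ_neg]
  ext i j
  simp

theorem matOf_sub (θ : T ≃+ (Fin r → ZMod ℓ)) (g h : T →+ T) :
    matOf k θ (g - h) = matOf k θ g - matOf k θ h := by
  rw [sub_eq_add_neg, matOf_add, matOf_neg, sub_eq_add_neg]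

theorem matOf_zero (θ : T ≃+ (Fin r → ZMod ℓ)) : matOf k θ (0 : T →+ T) = 0 := by
  unfold matOf
  rw [matZ_zero]
  ext i j
  simp

theorem matOf_nsmul (θ : T ≃+ (Fin r → ZMod ℓ)) (n : ℕ) (g : T →+ T) :
    matOf k θ (n • g) = (n : k) • matOf k θ g := by
  induction n with
  | zero => rw [zero_smul, Nat.cast_zero, zero_smul, matOf_zero]
  | succ n ih => rw [succ_nsmul, matOf_add, ih, Nat.cast_succ, add_smul, one_smul]

/-- `applyMat` is multiplication by `matOf`. -/
theorem applyMat_eq_mulVec {J : Type*} [AddCommGroup J] {S : AddSubgroup J}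
    (θ : ↥S ≃+ (Fin r → ZMod ℓ)) (g : ↥S →+ ↥S) (v : Fin r → k) :
    applyMat θ (⇑g) v = (matOf k θ g).mulVec v := by
  funext i
  unfold applyMat
  rw [Matrix.mulVec, dotProduct]
  refine Finset.sum_congr rfl fun j _ => ?_
  rw [matOf_apply]

/-- `applyMat` for a function which agrees with an additive map. -/
theorem applyMat_eq_mulVec' {J : Type*} [AddCommGroup J] {S : AddSubgroup J}
    (θ : ↥S ≃+ (Fin r → ZMod ℓ)) (g : ↥S →+ ↥S) (X : ↥S → ↥S) (hX : ∀ x, X x = g x)
    (v : Fin r → k) : applyMat θ X v = (matOf k θ g).mulVec v := by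
  have h : X = ⇑g := funext hX
  rw [h, applyMat_eq_mulVec]

end Fermat.Agent.S48.B2.H55

end
end
-- ==== END Fermat.Agent.S48.B2.H55_AsmLin

-- ==== BEGIN Fermat.Agent.S48.B2.R.Defs
section
attribute [local instance 10000] SubalgebraClass.toAlgebra
attribute [local instance 10000] HahnSeries.powerSeriesAlgebra

/-!
# S48, mountain B2, slice R (good reduction of `X_H`): interfaces (helper32)

Plan: `NOTES/plan/W_S48_B2R.md`.  Target: `B2.Stmt_TorsUnramH`, `B2.Stmt_TorsESH`.

Route ("TIcore-centred", no reduction map on points):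

* `Stmt_TIcoreH` : the Kummer form of torsion injectivity for `F_H(M)` at `A ∣ q`, `q ∤ M n`,
  `gcd(n, 6) = 1`, (SQ).  Proved at a level `M''` where `UnrCond` holds (`H22.exists_level`,
  `NEB.H34.fh_unr`, `H34.brup`) by the abstract machine of G-RED (`RED.H79.hasDR_of_goodCharts`,
  `RED.H17.ticoreFor_of_hasDR`), then descended to `M` by the norm (`Stmt_Desc`).
* OUT : `Stmt_TIcoreH → B2.Stmt_TorsUnramH`, `Stmt_TIcoreH → B2.Stmt_TorsESH` with helper70's
  series lemmas (`NEB/Geom/H70_KU.lean` : `inKU_inertia`, `inKU_ES` are the patterns).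

Definitions and `Prop`-valued statements only.
-/

set_option autoImplicit false
set_option synthInstance.maxHeartbeats 400000
set_option maxHeartbeats 1000000

noncomputable section

namespace Fermat.Agent.S48.B2.R

open AlgebraicCurve ModularCurve IntermediateField
open Fermat.Agent.NEB Fermat.Agent.NEB.JH Fermat.Agent.RED
open Fermat.Agent.S28.H73 Fermat.Agent.RED.H73 Fermat.Agent.RED.H34

/-- The levels with a tame chart at the residue characteristic `q` (as in `RED.Stmt_DR2`). -/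
def Tame (q M : ℕ) : Prop := 5 ≤ q ∨ (q = 3 ∧ 2 ∣ M) ∨ (q = 2 ∧ 3 ∣ M)

/-- The Gauss valuation ring of `F_H(M)` at `A`. -/
abbrev VH (A : ValuationSubring Kbar) (M c : ℕ) (H : Subgroup (ZMod c)ˣ) :
    ValuationSubring ↥(FHbar M c H) :=
  gaussValSub A (FHbar M c H) (H94.hasScale_FHbar A M c H)

/-- The reduced field `κ_H` of `F_H(M)` at `A`. -/
abbrev kH (A : ValuationSubring Kbar) (M c : ℕ) (H : Subgroup (ZMod c)ˣ) :
    IntermediateField (kV A) (LaurentSeries (kV A)) :=
  redField A (FHbar M c H) (H94.hasScale_FHbar A M c H)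

/-- The reduced field `κ₀` of `F₀(M)` at `A`. -/
abbrev k0 (A : ValuationSubring Kbar) (M : ℕ) :
    IntermediateField (kV A) (LaurentSeries (kV A)) :=
  redField A (modularFunctionFieldBar M) (hasScale_laurentBaseChange A M)

/-! ## The leaves -/

/-- **R-IRR** (helper43's proof; IRR-1 helper25, IRR-2 helper31, IRR-3 helper96, VAL-U helper66;
assembly helper25): the diamond operators preserve the Gauss valuation ring. -/
def Stmt_IrrH : Prop :=
  ∀ (M c : ℕ) (H : Subgroup (ZMod c)ˣ), 2 ≤ c → c ∣ M → M ≠ 0 →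
    ∀ q : ℕ, q.Prime → ¬ q ∣ M → ∀ A : ValuationSubring Kbar, A.LiesOverPrime q →
      ∀ (dd : DiamondData M c H) (d : (ZMod c)ˣ) (f : ↥(FHbar M c H)),
        f ∈ VH A M c H → dd.ρ d f ∈ VH A M c H

/-- **R-DEG** (helper31): `[κ_H : κ₀] = [(ℤ/c)ˣ : ±H]` and `κ_H / κ₀` is separable. -/
def Stmt_RDeg : Prop :=
  ∀ (M c : ℕ) (H : Subgroup (ZMod c)ˣ), 2 ≤ c → c ∣ M → M ≠ 0 →
    ∀ q : ℕ, q.Prime → ¬ q ∣ M → ∀ A : ValuationSubring Kbar, A.LiesOverPrime q →
      (k0 A M).relfinrank (kH A M c H) = (H94.pmSubgroup c H).index ∧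
      ∀ y ∈ kH A M c H, IsSeparable ↥(k0 A M) y

/-- **R-FF** (helper31, DONE `H31.stmt_RFF`): the reduced field is a function field. -/
def Stmt_RFF : Prop :=
  ∀ (M c : ℕ) (H : Subgroup (ZMod c)ˣ), 2 ≤ c → c ∣ M → M ≠ 0 →
    ∀ q : ℕ, q.Prime → ¬ q ∣ M → ∀ A : ValuationSubring Kbar, A.LiesOverPrime q →
      IsFF (kV A) ↥(kH A M c H)

/-- **R-BR** (helper34: `NEB.H34.fh_unr` + `H34.brup`): under `UnrCond` the branch values of a
function of `F₀(M)` on `F_H(M)` are branch values on `F₀(M)`. -/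
def Stmt_BRH : Prop :=
  ∀ (M c : ℕ) (H : Subgroup (ZMod c)ˣ), 2 ≤ c → c ∣ M → M ≠ 0 → UnrCond M c H →
    ∀ (x : ↥(modularFunctionFieldBar M)), Transcendental Kbar x → ∀ ρ : Kbar,
      IsBranchValue (inclBar M c H x) ρ → IsBranchValue x ρ

/-- **CHART** (chart transfer): the five "pre" fields of `RED.H76.goodChart_of` for the chart
`inclBar x` of `F_H(M)` from those of the chart `x` of `F₀(M)` and R-DEG. -/
def Stmt_Chart : Prop :=
  Stmt_RDeg →
  ∀ (M c : ℕ) (H : Subgroup (ZMod c)ˣ), 2 ≤ c → c ∣ M → M ≠ 0 →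
    ∀ q : ℕ, q.Prime → ¬ q ∣ M → ∀ A : ValuationSubring Kbar, A.LiesOverPrime q →
      ∀ (x : ↥(modularFunctionFieldBar M))
        (hx : x ∈ (redSetting A (hasScale_laurentBaseChange A M)).V),
        Transcendental (kV A) ((redSetting A (hasScale_laurentBaseChange A M)).red ⟨x, hx⟩) →
        FiniteDimensional Kbar⟮x⟯ ↥(modularFunctionFieldBar M) →
        Module.finrank (kV A)⟮(redSetting A (hasScale_laurentBaseChange A M)).red ⟨x, hx⟩⟯
            ↥(k0 A M) = Module.finrank Kbar⟮x⟯ ↥(modularFunctionFieldBar M) →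
        Algebra.IsSeparable
          (kV A)⟮(redSetting A (hasScale_laurentBaseChange A M)).red ⟨x, hx⟩⟯ ↥(k0 A M) →
        ∃ hx' : inclBar M c H x ∈ (redSetting A (H94.hasScale_FHbar A M c H)).V,
          Transcendental (kV A)
            ((redSetting A (H94.hasScale_FHbar A M c H)).red ⟨inclBar M c H x, hx'⟩) ∧
          FiniteDimensional Kbar⟮inclBar M c H x⟯ ↥(FHbar M c H) ∧
          Algebra.IsSeparable Kbar⟮inclBar M c H x⟯ ↥(FHbar M c H) ∧
          Module.finrank
              (kV A)⟮(redSetting A (H94.hasScale_FHbar A M c H)).red ⟨inclBar M c H x, hx'⟩⟯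
              ↥(kH A M c H) = Module.finrank Kbar⟮inclBar M c H x⟯ ↥(FHbar M c H) ∧
          Algebra.IsSeparable
            (kV A)⟮(redSetting A (H94.hasScale_FHbar A M c H)).red ⟨inclBar M c H x, hx'⟩⟯
            ↥(kH A M c H)

/-- Chart data of `F₀(M)` at `A`: a chart `x` with `x`, `x⁻¹` Gauss-integral, the five "pre"
fields, and distinct branch values modulo the maximal ideal for `x` and for `x⁻¹`. -/
def ChartData0 (A : ValuationSubring Kbar) (M : ℕ) : Prop :=
  ∃ (x : ↥(modularFunctionFieldBar M))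
    (hx : x ∈ (redSetting A (hasScale_laurentBaseChange A M)).V)
    (_ : x⁻¹ ∈ (redSetting A (hasScale_laurentBaseChange A M)).V),
    ChartPre (redSetting A (hasScale_laurentBaseChange A M)) x hx ∧
    (∀ ρ ρ' : ↥((redSetting A (hasScale_laurentBaseChange A M)).V.comap
        (algebraMap Kbar ↥(modularFunctionFieldBar M))),
      IsBranchValue x (ρ : Kbar) → IsBranchValue x (ρ' : Kbar) →
      (redSetting A (hasScale_laurentBaseChange A M)).resO ρ
        = (redSetting A (hasScale_laurentBaseChange A M)).resO ρ' → ρ = ρ') ∧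
    (∀ ρ ρ' : ↥((redSetting A (hasScale_laurentBaseChange A M)).V.comap
        (algebraMap Kbar ↥(modularFunctionFieldBar M))),
      IsBranchValue x⁻¹ (ρ : Kbar) → IsBranchValue x⁻¹ (ρ' : Kbar) →
      (redSetting A (hasScale_laurentBaseChange A M)).resO ρ
        = (redSetting A (hasScale_laurentBaseChange A M)).resO ρ' → ρ = ρ')

/-- **CHART0** : the chart data of `F₀(M)` at the tame levels (`j` for `q ≥ 5`: `goodChart_pre`,
`branch_distinct_jF`, `branch_distinct_jF_inv`; `h₂`, `h₃` for `q = 3, 2`: the first half of the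
proof of `RED.H76.hasDR_of_haupt_int` with the inputs of `RED/H76_DR2.lean`). -/
def Stmt_Chart0 : Prop :=
  ∀ (M q : ℕ) [NeZero M], q.Prime → ¬ q ∣ M → Tame q M →
    ∀ A : ValuationSubring Kbar, A.LiesOverPrime q → ChartData0 A M

/-- **R-DR** : the Deuring reduction datum for `F_H(M)` at the levels with `UnrCond` and a tame
chart. -/
def Stmt_DRH : Prop :=
  ∀ (M c : ℕ) (H : Subgroup (ZMod c)ˣ), 2 ≤ c → c ∣ M → M ≠ 0 → UnrCond M c H →
    ∀ q : ℕ, q.Prime → ¬ q ∣ M → Tame q M →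
      ∀ A : ValuationSubring Kbar, A.LiesOverPrime q →
        HasDR A (H94.hasScale_FHbar A M c H)

/-- **R-TI** : the Kummer form of torsion injectivity at the levels with `UnrCond` and a tame
chart. -/
def Stmt_TIH : Prop :=
  ∀ (M c : ℕ) (H : Subgroup (ZMod c)ˣ), 2 ≤ c → c ∣ M → M ≠ 0 → UnrCond M c H →
    ∀ q : ℕ, q.Prime → ¬ q ∣ M → Tame q M →
      ∀ A : ValuationSubring Kbar, A.LiesOverPrime q →
        TIcoreFor A (H94.hasScale_FHbar A M c H) q

/-- The conclusion of the Kummer form for one exponent `n`. -/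
def TIcoreAt (A : ValuationSubring Kbar) (M c : ℕ) (H : Subgroup (ZMod c)ˣ) (n : ℕ) : Prop :=
  ∀ f : ↥(VH A M c H), gaussResF' A (H94.hasScale_FHbar A M c H) f = 1 →
    (∀ P : Place Kbar ↥(FHbar M c H), (n : ℤ) ∣ P.ord (f : ↥(FHbar M c H))) →
    ∃ t : ↥(FHbar M c H), t ^ n = (f : ↥(FHbar M c H))

/-- **DESC** (norm descent `M'' → M`): `[F_H(M'') : F_H(M)] = ψ(M'')/ψ(M) = d` is prime to `n`,
so an `n`-th root at level `M''` gives one at level `M`:  `f = (f^a N(t)^b)^n`, `a n + b d = 1`. -/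
def Stmt_Desc : Prop :=
  ∀ (M M'' c : ℕ) (H : Subgroup (ZMod c)ˣ), 2 ≤ c → c ∣ M → M ∣ M'' → M'' ≠ 0 →
    ∀ d n : ℕ, dedekindPsi M'' = dedekindPsi M * d → Nat.Coprime d n →
      ∀ q : ℕ, q.Prime → ¬ q ∣ M'' → ¬ q ∣ n →
        ∀ A : ValuationSubring Kbar, A.LiesOverPrime q →
          TIcoreFor A (H94.hasScale_FHbar A M'' c H) q → TIcoreAt A M c H n

/-- **TIcore-H** : the Kummer form of torsion injectivity for `F_H(M)`, every level `M`. -/
def Stmt_TIcoreH : Prop :=
  ∀ (M c : ℕ) (H : Subgroup (ZMod c)ˣ), 2 ≤ c → c ∣ M → M ≠ 0 →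
    ∀ n q : ℕ, q.Prime → ¬ q ∣ M → ¬ q ∣ n → Nat.Coprime n 6 →
      (∀ r : ℕ, r.Prime → r ∣ n → ¬ r ^ 2 ∣ c) →
      ∀ A : ValuationSubring Kbar, A.LiesOverPrime q → TIcoreAt A M c H n

/-- **OUT-U**. -/
def Stmt_OutU : Prop := Stmt_TIcoreH → Stmt_TorsUnramH

/-- **OUT-ES**. -/
def Stmt_OutES : Prop := Stmt_TIcoreH → Stmt_TorsESH

end Fermat.Agent.S48.B2.R

end
end
-- ==== END Fermat.Agent.S48.B2.R.Defs

-- ==== BEGIN Fermat.Agent.S48.B2.T.H01_AsmCore
section

/-!
# S48 / B2 / slice T, leaf T-ASM (helper1): the abstract core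

Pure algebra.  `C : J → P → Prop` is the graph of an injective additive map
`J[ℓ] → P` (`P` finite); `β i ∈ P` are `ℤ/ℓ`-independent characters of points `pts i`;
`w ∈ k^{r'}` is a nonzero vector.  Then there are coordinates `θ` of `J[ℓ]` and a nonzero vector
`v` such that every operator `(X_J, X_P)` compatible with `C`, whose matrix `A` on `β` has `w` as an
eigenvector, has `v` as an eigenvector (for `applyMat θ`), with the same eigenvalue.
-/

set_option autoImplicit false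
set_option linter.unusedVariables false
set_option linter.unusedSectionVars false
set_option linter.style.haveILetI false

noncomputable section

namespace Fermat.Agent.S48.B2.T.H01

open Fermat.Agent.S48.B2

variable {J : Type*} [AddCommGroup J] {P : Type*} [AddCommGroup P]

/-- The graph of the relation `C`, as a subgroup of `J × P`. -/
def graphSub (C : J → P → Prop) (h0 : C 0 0)
    (hadd : ∀ x y φ ψ, C x φ → C y ψ → C (x + y) (φ + ψ))
    (hneg : ∀ x φ, C x φ → C (-x) (-φ)) : AddSubgroup (J × P) where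
  carrier := {p | C p.1 p.2}
  zero_mem' := h0
  add_mem' := fun {a b} ha hb => hadd _ _ _ _ ha hb
  neg_mem' := fun {a} ha => hneg _ _ ha

section Rel

variable (ℓ : ℕ) (C : J → P → Prop)
  (c1 : ∀ x, ℓ • x = 0 → ∃ φ, C x φ) (c2 : ∀ x φ, C x φ → ℓ • x = 0)
  (c4 : ∀ x φ ψ, C x φ → C x ψ → φ = ψ)
  (c5 : ∀ x y φ ψ, C x φ → C y ψ → C (x + y) (φ + ψ))

include c1 c4 c5 in
theorem rel_zero : C 0 0 := by
  obtain ⟨φ, hφ⟩ := c1 0 (smul_zero _)
  have h2 := c5 _ _ _ _ hφ hφ
  rw [add_zero] at h2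
  have h3 := c4 _ _ _ h2 hφ
  have : φ = 0 := by simpa using h3
  rwa [this] at hφ

include c1 c2 c4 c5 in
theorem rel_neg (x : J) (φ : P) (h : C x φ) : C (-x) (-φ) := by
  have hx : ℓ • (-x) = 0 := by rw [smul_neg, c2 x φ h, neg_zero]
  obtain ⟨ψ, hψ⟩ := c1 (-x) hx
  have h2 := c5 _ _ _ _ h hψ
  rw [add_neg_cancel] at h2
  have h3 := c4 _ _ _ h2 (rel_zero ℓ C c1 c4 c5)
  have : ψ = -φ := by
    rw [eq_neg_iff_add_eq_zero, add_comm]; exact h3
  rwa [this] at hψ

include c1 c2 c4 c5 in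
theorem rel_sum {ι : Type*} (s : Finset ι) (n : ι → ℤ) (x : ι → J) (φ : ι → P)
    (h : ∀ i, C (x i) (φ i)) : C (∑ i ∈ s, n i • x i) (∑ i ∈ s, n i • φ i) := by
  let G := graphSub C (rel_zero ℓ C c1 c4 c5) c5 (rel_neg ℓ C c1 c2 c4 c5)
  have h1 : ∑ i ∈ s, n i • ((x i, φ i) : J × P) ∈ G :=
    G.sum_mem fun i _ => G.zsmul_mem (h i) (n i)
  have h2 : ∑ i ∈ s, n i • ((x i, φ i) : J × P)
      = (∑ i ∈ s, n i • x i, ∑ i ∈ s, n i • φ i) := by
    refine Prod.ext ?_ ?_
    · rw [Prod.fst_sum]; simp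
    · rw [Prod.snd_sum]; simp
  rw [h2] at h1
  exact h1

end Rel

section Basis

open Module

/-- Coordinates of a finite `ℤ/ℓ`-vector space in which a given independent family consists of
standard basis vectors. -/
theorem basis_core {T : Type*} [AddCommGroup T] [Finite T] (ℓ : ℕ) [Fact ℓ.Prime]
    [Module (ZMod ℓ) T] {r' : ℕ} (e : Fin r' → T) (hli : LinearIndependent (ZMod ℓ) e) :
    ∃ (r : ℕ) (θ : T ≃+ (Fin r → ZMod ℓ)) (σ : Fin r' → Fin r),
      Function.Injective σ ∧ ∀ i, θ (e i) = Pi.single (σ i) 1 := by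
  classical
  obtain ⟨b, B0, hmem, hB0⟩ : ∃ (b : Set T) (B0 : Basis ↥b (ZMod ℓ) T),
      (∀ i, e i ∈ b) ∧ ∀ x : ↥b, B0 x = (x : T) :=
    ⟨_, Basis.extend hli.linearIndepOn_id,
      fun i => hli.linearIndepOn_id.subset_extend _ (Set.mem_range_self i),
      fun x => Basis.extend_apply_self _ x⟩
  letI : Fintype ↥b := Fintype.ofFinite _
  let ε : ↥b ≃ Fin (Fintype.card ↥b) := Fintype.equivFin ↥b
  let B : Basis (Fin (Fintype.card ↥b)) (ZMod ℓ) T := B0.reindex ε
  let σ : Fin r' → Fin (Fintype.card ↥b) := fun i => ε ⟨e i, hmem i⟩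
  have hσ : Function.Injective σ := by
    intro i j h
    have h1 := ε.injective h
    have h2 : e i = e j := congrArg Subtype.val h1
    exact hli.injective h2
  have hBσ : ∀ i, B (σ i) = e i := by
    intro i
    show (B0.reindex ε) (ε ⟨e i, hmem i⟩) = e i
    rw [Basis.reindex_apply, Equiv.symm_apply_apply]
    exact hB0 _
  refine ⟨_, B.equivFun.toAddEquiv, σ, hσ, fun i => ?_⟩
  show B.equivFun (e i) = Pi.single (σ i) 1
  rw [← hBσ i]
  funext j
  rw [B.equivFun_self (σ i) j, Pi.single_apply]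
  by_cases h : σ i = j
  · rw [if_pos h, if_pos h.symm]
  · rw [if_neg h, if_neg (fun h' => h h'.symm)]

end Basis

section Core

open Module

/-- **T-ASM, abstract core.** -/
theorem asm_core (ℓ : ℕ) (hℓ : ℓ.Prime) [Finite P] (C : J → P → Prop)
    (c1 : ∀ x, ℓ • x = 0 → ∃ φ, C x φ) (c2 : ∀ x φ, C x φ → ℓ • x = 0)
    (c3 : ∀ x y φ, C x φ → C y φ → x = y) (c4 : ∀ x φ ψ, C x φ → C x ψ → φ = ψ)
    (c5 : ∀ x y φ ψ, C x φ → C y ψ → C (x + y) (φ + ψ))
    {r' : ℕ} (β : Fin r' → P) (pts : Fin r' → J) (hpts : ∀ i, C (pts i) (β i))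
    (hβ : ∀ n : Fin r' → ℤ, ∑ i, n i • β i = 0 → ∀ i, (ℓ : ℤ) ∣ n i)
    (k : Type) [Field k] [CharP k ℓ] (w : Fin r' → k) (hw : w ≠ 0) :
    ∃ (r : ℕ) (θ : ↥((nsmulAddMonoidHom (α := J) ℓ).ker) ≃+ (Fin r → ZMod ℓ)) (v : Fin r → k),
      v ≠ 0 ∧
      ∀ (XJ : J → J) (XP : P → P) (A : Matrix (Fin r') (Fin r') ℤ) (μ : k),
        (∀ x φ, C x φ → C (XJ x) (XP φ)) →
        (∀ i, XP (β i) = ∑ m, A m i • β m) →
        (A.map (Int.cast : ℤ → k)).mulVec w = μ • w →
        ∀ X : ↥((nsmulAddMonoidHom (α := J) ℓ).ker) → ↥((nsmulAddMonoidHom (α := J) ℓ).ker),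
          (∀ x, ((X x : ↥((nsmulAddMonoidHom (α := J) ℓ).ker)) : J) = XJ x) →
          applyMat θ X v = μ • v := by
  classical
  haveI : Fact ℓ.Prime := ⟨hℓ⟩
  haveI : NeZero ℓ := ⟨hℓ.ne_zero⟩
  have hTmem : ∀ x : J, x ∈ (nsmulAddMonoidHom (α := J) ℓ).ker ↔ ℓ • x = 0 := fun x => by
    rw [AddMonoidHom.mem_ker, nsmulAddMonoidHom_apply]
  have hkill : ∀ x : ↥((nsmulAddMonoidHom (α := J) ℓ).ker), ℓ • x = 0 := fun x =>
    Subtype.ext (by simpa using (hTmem x).1 x.2)
  letI : Module (ZMod ℓ) ↥((nsmulAddMonoidHom (α := J) ℓ).ker) := AddCommGroup.zmodModule hkill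
  -- finiteness
  haveI hfin : Finite ↥((nsmulAddMonoidHom (α := J) ℓ).ker) := by
    choose f hf using fun x : ↥((nsmulAddMonoidHom (α := J) ℓ).ker) => c1 x ((hTmem x).1 x.2)
    exact Finite.of_injective f (fun x y h => Subtype.ext (c3 _ _ _ (hf x) (h ▸ hf y)))
  -- the points
  let e : Fin r' → ↥((nsmulAddMonoidHom (α := J) ℓ).ker) :=
    fun i => ⟨pts i, (hTmem _).2 (c2 _ _ (hpts i))⟩
  have hrel0 := rel_zero ℓ C c1 c4 c5
  have hli : LinearIndependent (ZMod ℓ) e := by
    rw [Fintype.linearIndependent_iff]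
    intro g hg i
    have h1 : ∀ i, g i • e i = ((g i).val : ℤ) • e i := by
      intro i
      conv_lhs => rw [← ZMod.natCast_zmod_val (g i)]
      rw [Nat.cast_smul_eq_nsmul, natCast_zsmul]
    have h2 : ∑ i, ((g i).val : ℤ) • pts i = 0 := by
      have := congrArg (fun x : ↥((nsmulAddMonoidHom (α := J) ℓ).ker) => (x : J)) hg
      simp only [h1] at this
      simpa using this
    have h3 := rel_sum ℓ C c1 c2 c4 c5 Finset.univ (fun i => ((g i).val : ℤ)) pts β hpts
    rw [h2] at h3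
    have h4 := c4 _ _ _ h3 hrel0
    have h5 := hβ _ h4 i
    have h6 : ℓ ∣ (g i).val := by exact_mod_cast h5
    have h7 : (g i).val = 0 := Nat.eq_zero_of_dvd_of_lt h6 (ZMod.val_lt _)
    exact (ZMod.val_eq_zero _).1 h7
  -- coordinates
  obtain ⟨r, θ, σ, hσ, hθ⟩ := basis_core ℓ e hli
  have hθsymm : ∀ i, θ.symm (Pi.single (σ i) 1) = e i := by
    intro i
    rw [← hθ i, AddEquiv.symm_apply_apply]
  let v : Fin r → k := fun a => ∑ i, if a = σ i then w i else 0
  have hvσ : ∀ i, v (σ i) = w i := by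
    intro i
    show (∑ j, if σ i = σ j then w j else 0) = w i
    rw [Finset.sum_eq_single i]
    · simp
    · intro j _ hj
      rw [if_neg]
      exact fun h => hj (hσ h).symm
    · intro h; exact absurd (Finset.mem_univ i) h
  refine ⟨_, θ, v, ?_, ?_⟩
  · intro hv
    apply hw
    funext i
    rw [← hvσ i, hv]; rfl
  intro XJ XP A μ hX hA hμ X hXJ
  -- the action of `X` on the points
  have hXe : ∀ i, X (e i) = ∑ m, A m i • e m := by
    intro i
    apply Subtype.ext
    rw [hXJ]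
    have h1 : C (XJ (pts i)) (XP (β i)) := hX _ _ (hpts i)
    rw [hA i] at h1
    have h2 := rel_sum ℓ C c1 c2 c4 c5 Finset.univ (fun m => A m i) pts β hpts
    have h3 := c3 _ _ _ h1 h2
    show XJ (pts i) = _
    rw [h3]
    simp [e]
  have hθX : ∀ i a, θ (X (e i)) a = ∑ m, if a = σ m then ((A m i : ℤ) : ZMod ℓ) else 0 := by
    intro i a
    rw [hXe i, map_sum, Finset.sum_apply]
    refine Finset.sum_congr rfl fun m _ => ?_
    rw [map_zsmul, hθ m, Pi.smul_apply, Pi.single_apply]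
    by_cases h : a = σ m
    · rw [if_pos h, if_pos h]; simp
    · rw [if_neg h, if_neg h]; simp
  funext a
  unfold applyMat
  have hcast : ∀ z : ZMod ℓ, (ZMod.cast z : k) = ZMod.castHom (dvd_refl ℓ) k z := fun z => rfl
  -- only the indices `σ i` contribute
  have h1 : ∀ j, (ZMod.cast (θ (X (θ.symm (Pi.single j 1))) a) : k) * v j
      = ∑ i, if j = σ i then (ZMod.cast (θ (X (e i)) a) : k) * w i else 0 := by
    intro j
    show _ * (∑ i, if j = σ i then w i else 0) = _
    rw [Finset.mul_sum]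
    refine Finset.sum_congr rfl fun i _ => ?_
    by_cases h : j = σ i
    · rw [if_pos h, if_pos h, h, hθsymm i]
    · rw [if_neg h, if_neg h, mul_zero]
  have hL : (∑ j, (ZMod.cast (θ (X (θ.symm (Pi.single j 1))) a) : k) * v j)
      = ∑ i, (ZMod.cast (θ (X (e i)) a) : k) * w i := by
    simp only [h1]
    rw [Finset.sum_comm]
    refine Finset.sum_congr rfl fun i _ => ?_
    rw [Finset.sum_ite_eq' Finset.univ (σ i)]
    simp
  rw [hL]
  have hc : ∀ i, (ZMod.cast (θ (X (e i)) a) : k)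
      = ∑ m, if a = σ m then ((A m i : ℤ) : k) else 0 := by
    intro i
    rw [hθX i a, hcast, map_sum]
    refine Finset.sum_congr rfl fun m _ => ?_
    by_cases h : a = σ m
    · rw [if_pos h, if_pos h, map_intCast]
    · rw [if_neg h, if_neg h, map_zero]
  simp only [hc]
  -- now pure bookkeeping
  rw [Pi.smul_apply, smul_eq_mul]
  show _ = μ * ∑ i, if a = σ i then w i else 0
  simp only [Finset.sum_mul]
  rw [Finset.sum_comm, Finset.mul_sum]
  refine Finset.sum_congr rfl fun m _ => ?_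
  by_cases h : a = σ m
  · simp only [if_pos h]
    have := congrFun hμ m
    simp only [Matrix.mulVec, dotProduct, Matrix.map_apply, Pi.smul_apply, smul_eq_mul] at this
    exact this
  · simp [if_neg h]

end Core

end Fermat.Agent.S48.B2.T.H01

end
end
-- ==== END Fermat.Agent.S48.B2.T.H01_AsmCore
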