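-- GENERATED (merged mirror, NOTES/tools/trim/merge3_helper67.py): 8 modules of the originals, bodies verbatim.
import Fermat.Agent.Zm.S48_L08_000
import Fermat.Agent.Zm.S35_L02_000
import Fermat.Agent.Zm.S35_L03_000
import Fermat.Agent.Zm.S35_L05_001
import Fermat.Agent.Zm.S35_L02_001
import Fermat.Agent.Zm.S48_L08_001
import Fermat.Agent.Zm.S48_L02_003
import Fermat.Agent.Zm.S48_L04_001
import Fermat.Agent.Zm.S48_L05_000
import Fermat.Agent.Zm.S35_L16_001
import Fermat.Agent.Zm.S35_L18_000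

-- ==== BEGIN Fermat.Agent.NEB.EIG.H12_Kum1
section

/-!
# NEB / EIG, leaf MONO-KUM1 (helper12)

Every `n`-torsion class of `J_H` is `[D]` with `n D = div f`; and a class `[D]` with
`n D = div f`, `f ^ m = h ^ n`, is killed by `m` (`m D = div h`).
-/

set_option autoImplicit false

noncomputable section

namespace Fermat.Agent.NEB.EIG.H12

open AlgebraicCurve Fermat.Agent.GTor

/-- the general Kummer statement, for any function field. -/
theorem kum1_general {K F : Type*} [Field K] [Field F] [Algebra K F] {n : ℕ} (hn : n ≠ 0) :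
    (∀ x : Pic0 K F, (n : ℤ) • x = 0 →
      ∃ (D : Divisor.degZero (K := K) (F := F)) (f : F),
        f ≠ 0 ∧ x = Pic0.mk D ∧
        ∀ v : Place K F, (n : ℤ) * (D : Divisor K F) v = v.ord f) ∧
    (∀ (D : Divisor.degZero (K := K) (F := F)) (f h : F) (m : ℕ),
        f ≠ 0 →
        (∀ v : Place K F, (n : ℤ) * (D : Divisor K F) v = v.ord f) →
        f ^ m = h ^ n → (m : ℤ) • (Pic0.mk D : Pic0 K F) = 0) := by
  constructor
  · intro x hx
    obtain ⟨D, rfl⟩ := Pic0.mk_surjective x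
    have h : (n : ℤ) • Pic0.mk D = Pic0.mk ((n : ℤ) • D) := rfl
    rw [h, H33.mk_eq_zero_iff] at hx
    obtain ⟨f, hf0, hf⟩ := hx
    refine ⟨D, f, hf0, rfl, fun v => ?_⟩
    rw [← hf v]
    show _ = ((n : ℤ) • (D : Divisor K F)) v
    rw [Finsupp.smul_apply, smul_eq_mul]
  · intro D f h m hf0 hD hfh
    have hh0 : h ≠ 0 := by
      rintro rfl
      rw [zero_pow hn] at hfh
      exact hf0 (eq_zero_of_pow_eq_zero hfh)
    have h1 : (m : ℤ) • Pic0.mk D = Pic0.mk ((m : ℤ) • D) := rfl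
    rw [h1, H33.mk_eq_zero_iff]
    refine ⟨h, hh0, fun v => ?_⟩
    show ((m : ℤ) • (D : Divisor K F)) v = _
    rw [Finsupp.smul_apply, smul_eq_mul]
    have h2 : (n : ℤ) * ((m : ℤ) * (D : Divisor K F) v) = (n : ℤ) * v.ord h := by
      have h3 : v.ord (f ^ m) = v.ord (h ^ n) := by rw [hfh]
      rw [← zpow_natCast, ← zpow_natCast, v.ord_zpow, v.ord_zpow] at h3
      rw [← h3, ← hD v]
      ring
    exact mul_left_cancel₀ (Int.natCast_ne_zero.mpr hn) h2

/-- **MONO-KUM1**. -/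
theorem stmt_KUM1 (M c : ℕ) (H : Subgroup (ZMod c)ˣ) (n : ℕ) : H98.Stmt_KUM1 M c H n := by
  intro _ _ _ hn
  exact kum1_general hn

end Fermat.Agent.NEB.EIG.H12

end
end
-- ==== END Fermat.Agent.NEB.EIG.H12_Kum1

-- ==== BEGIN Fermat.Agent.NEB.EIG.H34_Char1
section

/-!
# NEB / EIG-MONO, leaves CHAR1 and KCOMP1 (helper34)

Port of `GTor/H56_Char.lean` (helper56) and `GTor/H81_T2a.lean` (helper81) to characters of
`Gam1 M c = Γ₀(M) ∩ Γ₁(c)` and functions in `F_H`.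

* `hasChar1_unique`, `hasChar1_mul`, `hasChar1_pow`;
* `stmt_CHAR1_of : Stmt_A1H M c H → Stmt_CHAR1 M c H n`;
* `hasChar1_reduce` (change of modulus `m ∣ n`), `stmt_KCOMP1 : Stmt_KCOMP1 M c H p`.
-/

set_option autoImplicit false
set_option linter.unusedSectionVars false
set_option linter.unusedVariables false
set_option linter.style.haveILetI false

open UpperHalfPlane ModularForm CongruenceSubgroup ModularCurve AlgebraicCurve
open scoped MatrixGroups ModularForm Manifold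

noncomputable section

namespace Fermat.Agent.NEB.EIG.H34

open Fermat.Agent.S23.H22 (Nice)
open Fermat.Agent.GTor
open Fermat.Agent.GTor.H56 (qLaurent_mul qLaurent_injective qLaurent_eq_zero_iff qLaurent_zero
  qLaurent_pow nice_of_gamma0 zetaPow_zero zetaPow_add zetaPow_pow zetaPow_injective)
open Fermat.Agent.NEB Fermat.Agent.NEB.H84 Fermat.Agent.NEB.EIG.H39 Fermat.Agent.NEB.EIG.H98

variable {M c n : ℕ} {H : Subgroup (ZMod c)ˣ}

/-- A holomorphic function of weight `k`, bounded at the cusps, with multiplier `ζ^φ` under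
`Gam1 M c`. -/
structure IsTw1 (M c n : ℕ) (k : ℤ) (φ : Additive (Gam1 M c) →+ ZMod n) (R : ℍ → ℂ) : Prop where
  mdiff : MDifferentiable 𝓘(ℂ) 𝓘(ℂ) R
  bdd : ∀ σ : SL(2, ℤ), IsBoundedAtImInfty (R ∣[k] σ)
  slash : ∀ γ : Gam1 M c, R ∣[k] (γ : SL(2, ℤ)) = zetaPow n (φ (Additive.ofMul γ)) • R

theorem hasChar1_iff {ι : Kbar →+* ℂ} {f : ↥(FHbar M c H)}
    {φ : Additive (Gam1 M c) →+ ZMod n} :
    HasChar1 M c H n ι f φ ↔ ∃ (k : ℤ) (R : ℍ → ℂ) (B : ModularForm (Gamma0 M) k),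
      IsTw1 M c n k φ R ∧ B ≠ 0 ∧
      qLaurent (fun z => R z ^ n)
        = coeffMap ι (f : LaurentSeries Kbar) * qLaurent (fun z => B z ^ n) := by
  constructor
  · rintro ⟨k, R, B, h1, h2, h3, h4, h5⟩
    exact ⟨k, R, B, ⟨h1, h2, h3⟩, h4, h5⟩
  · rintro ⟨k, R, B, ⟨h1, h2, h3⟩, h4, h5⟩
    exact ⟨k, R, B, h1, h2, h3, h4, h5⟩

theorem Gamma1_le_Gam1 (hc : c ∣ M) : Gamma1 M ≤ Gam1 M c := by
  intro γ hγ
  rw [Gamma1_mem] at hγ
  obtain ⟨h1, h2, h3⟩ := hγ
  have e1 : (M : ℤ) ∣ γ 1 0 := (ZMod.intCast_zmod_eq_zero_iff_dvd _ _).mp h3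
  have e2 : (M : ℤ) ∣ γ 0 0 - 1 := by
    rw [← ZMod.intCast_zmod_eq_zero_iff_dvd]
    push_cast
    rw [h1, sub_self]
  have hcM : (c : ℤ) ∣ (M : ℤ) := Int.natCast_dvd_natCast.mpr hc
  exact ⟨e1, hcM.trans e1, hcM.trans e2⟩

namespace IsTw1

variable {k k₁ k₂ : ℤ} {φ ψ : Additive (Gam1 M c) →+ ZMod n} {R R₁ R₂ : ℍ → ℂ}

theorem mul (h₁ : IsTw1 M c n k₁ φ R₁) (h₂ : IsTw1 M c n k₂ ψ R₂) :
    IsTw1 M c n (k₁ + k₂) (φ + ψ) (R₁ * R₂) where
  mdiff := h₁.mdiff.mul h₂.mdiff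
  bdd σ := by
    rw [mul_slash_SL2]
    exact (h₁.bdd σ).mul (h₂.bdd σ)
  slash γ := by
    rw [mul_slash_SL2, h₁.slash γ, h₂.slash γ]
    funext z
    simp only [Pi.mul_apply, Pi.smul_apply, smul_eq_mul, AddMonoidHom.add_apply]
    rw [zetaPow_add]
    ring

/-- The `n`-th power of a twisted form is a form on `Γ₁(M)`. -/
theorem isW_pow (hc : c ∣ M) (h : IsTw1 M c n k φ R) :
    IsW M ((n : ℤ) * k) (fun z => R z ^ n) where
  mdiff := by
    have := h.mdiff.pow n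
    exact this
  slash γ hγ := by
    rw [Fermat.Agent.GTor.H56.slash_pow_SL, h.slash ⟨γ, Gamma1_le_Gam1 hc hγ⟩]
    funext z
    simp only [Pi.smul_apply, smul_eq_mul, mul_pow]
    rw [zetaPow_pow, one_mul]
  bdd σ := by
    rw [Fermat.Agent.GTor.H56.slash_pow_SL]
    exact Fermat.Agent.GTor.H56.isBoundedAtImInfty_pow (h.bdd σ) n

theorem nice_pow (hc : c ∣ M) (h : IsTw1 M c n k φ R) : Nice 1 (fun z => R z ^ n) :=
  (h.isW_pow hc).nice

end IsTw1

theorem isTw1_of_isW {k : ℤ} {A : ℍ → ℂ} (hA : IsW M k A)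
    (hinv : ∀ γ : Gam1 M c, A ∣[k] (γ : SL(2, ℤ)) = A) : IsTw1 M c n k 0 A where
  mdiff := hA.mdiff
  bdd := hA.bdd
  slash γ := by
    rw [AddMonoidHom.zero_apply, zetaPow_zero, one_smul]
    exact hinv γ

theorem isTw1_of_modularForm [NeZero M] {k : ℤ} (B : ModularForm (Gamma0 M) k) :
    IsTw1 M c n k 0 (B : ℍ → ℂ) :=
  isTw1_of_isW (isW_of_modularForm B) fun γ =>
    slash_modularForm B (Gam1_le_Gamma0 M c γ.2)

section Char

variable [NeZero M] {ι : Kbar →+* ℂ}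

theorem coeffMap_ne_zero {f : ↥(FHbar M c H)} (hf : f ≠ 0) :
    coeffMap ι (f : LaurentSeries Kbar) ≠ 0 := by
  intro h
  apply hf
  apply Subtype.ext
  exact (map_eq_zero_iff (coeffMap ι) (Fermat.Agent.GTor.H75.coeffMap_injective ι)).mp h

theorem qLaurent_modularForm_pow_ne_zero {k : ℤ} {B : ModularForm (Gamma0 M) k} (hB : B ≠ 0)
    (hn : n ≠ 0) : qLaurent (fun z => B z ^ n) ≠ 0 := by
  rw [qLaurent_pow (nice_of_gamma0 B)]
  apply pow_ne_zero
  rw [Ne, qLaurent_eq_zero_iff (nice_of_gamma0 B)]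
  intro h
  exact hB (DFunLike.coe_injective h)

/-- **CHAR1 (1)**: uniqueness of the character. -/
theorem hasChar1_unique (hc : c ∣ M) (hn : n ≠ 0) {f : ↥(FHbar M c H)}
    {φ ψ : Additive (Gam1 M c) →+ ZMod n} (hf : f ≠ 0)
    (h₁ : HasChar1 M c H n ι f φ) (h₂ : HasChar1 M c H n ι f ψ) : φ = ψ := by
  obtain ⟨k₁, R₁, B₁, hR₁, hB₁, e₁⟩ := hasChar1_iff.mp h₁
  obtain ⟨k₂, R₂, B₂, hR₂, hB₂, e₂⟩ := hasChar1_iff.mp h₂
  have nR₁ := hR₁.nice_pow hc
  have nR₂ := hR₂.nice_pow hc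
  have nB₁ : Nice 1 (fun z => B₁ z ^ n) := (nice_of_gamma0 B₁).pow n
  have nB₂ : Nice 1 (fun z => B₂ z ^ n) := (nice_of_gamma0 B₂).pow n
  have hfun : (fun z => R₁ z ^ n) * (fun z => B₂ z ^ n)
      = (fun z => R₂ z ^ n) * (fun z => B₁ z ^ n) := by
    apply qLaurent_injective (nR₁.mul nB₂) (nR₂.mul nB₁)
    rw [qLaurent_mul nR₁ nB₂, qLaurent_mul nR₂ nB₁, e₁, e₂]
    ring
  have hpow : ∀ τ : ℍ, (R₁ τ * B₂ τ) ^ n = (R₂ τ * B₁ τ) ^ n := by
    intro τ
    have := congrFun hfun τ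
    simp only [Pi.mul_apply] at this
    rw [mul_pow, mul_pow, this]
  obtain ⟨ζ, hζ, hζeq⟩ := Fermat.Agent.Lib.NthRoot.exists_root_of_unity_of_pow_eq_uhp hn
    (G₁ := fun τ => R₂ τ * B₁ τ) (G₂ := fun τ => R₁ τ * B₂ τ)
    (hR₂.mdiff.mul B₁.holo') (hR₁.mdiff.mul B₂.holo') hpow
  have hne : ∃ τ₀ : ℍ, R₁ τ₀ * B₂ τ₀ ≠ 0 := by
    by_contra hcon
    have hcon : ∀ τ : ℍ, R₁ τ * B₂ τ = 0 := fun τ => by
      by_contra h
      exact hcon ⟨τ, h⟩
    have h0 : (fun z => R₁ z ^ n) * (fun z => B₂ z ^ n) = 0 := by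
      funext τ
      simp only [Pi.mul_apply, Pi.zero_apply]
      rw [← mul_pow, hcon τ, zero_pow hn]
    have h1 : qLaurent ((fun z => R₁ z ^ n) * (fun z => B₂ z ^ n)) = 0 := by
      rw [h0, qLaurent_zero]
    rw [qLaurent_mul nR₁ nB₂, e₁] at h1
    rcases mul_eq_zero.mp h1 with h2 | h2
    · rcases mul_eq_zero.mp h2 with h3 | h3
      · exact coeffMap_ne_zero hf h3
      · exact qLaurent_modularForm_pow_ne_zero hB₁ hn h3
    · exact qLaurent_modularForm_pow_ne_zero hB₂ hn h2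
  obtain ⟨τ₀, hτ₀⟩ := hne
  apply AddMonoidHom.ext
  intro x
  obtain ⟨γ, rfl⟩ : ∃ γ : Gam1 M c, Additive.ofMul γ = x := ⟨x.toMul, rfl⟩
  apply zetaPow_injective hn
  have s₁ := (hR₁.mul (isTw1_of_modularForm (c := c) (n := n) B₂)).slash γ
  have s₂ := (hR₂.mul (isTw1_of_modularForm (c := c) (n := n) B₁)).slash γ
  rw [add_zero] at s₁ s₂
  have hFG : (R₁ * (B₂ : ℍ → ℂ)) = fun τ => ζ * (R₂ τ * B₁ τ) := funext hζeq
  have hFG' : (R₁ * (B₂ : ℍ → ℂ)) ∣[k₁ + k₂] (γ : SL(2, ℤ))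
      = fun τ => ζ * ((R₂ * (B₁ : ℍ → ℂ)) ∣[k₂ + k₁] (γ : SL(2, ℤ))) τ := by
    rw [hFG, add_comm k₁ k₂]
    exact Fermat.Agent.Lib.NthRoot.const_mul_slash_SL ζ _ _ _
  rw [s₁, s₂] at hFG'
  have := congrFun hFG' τ₀
  simp only [Pi.smul_apply, Pi.mul_apply, smul_eq_mul] at this
  have hζτ := hζeq τ₀
  have key : (zetaPow n (φ (Additive.ofMul γ)) - zetaPow n (ψ (Additive.ofMul γ)))
      * (R₁ τ₀ * B₂ τ₀) = 0 := by
    rw [sub_mul, this, hζτ]
    ring
  rcases mul_eq_zero.mp key with h | h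
  · exact sub_eq_zero.mp h
  · exact absurd h hτ₀

/-- **CHAR1 (2)**: additivity of the character. -/
theorem hasChar1_mul (hc : c ∣ M) {f g : ↥(FHbar M c H)}
    {φ ψ : Additive (Gam1 M c) →+ ZMod n}
    (h₁ : HasChar1 M c H n ι f φ) (h₂ : HasChar1 M c H n ι g ψ) :
    HasChar1 M c H n ι (f * g) (φ + ψ) := by
  obtain ⟨k₁, R₁, B₁, hR₁, hB₁, e₁⟩ := hasChar1_iff.mp h₁
  obtain ⟨k₂, R₂, B₂, hR₂, hB₂, e₂⟩ := hasChar1_iff.mp h₂
  have nR₁ := hR₁.nice_pow hc
  have nR₂ := hR₂.nice_pow hc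
  have nB₁ : Nice 1 (fun z => B₁ z ^ n) := (nice_of_gamma0 B₁).pow n
  have nB₂ : Nice 1 (fun z => B₂ z ^ n) := (nice_of_gamma0 B₂).pow n
  refine hasChar1_iff.mpr ⟨k₁ + k₂, R₁ * R₂, B₁.mul B₂, hR₁.mul hR₂, ?_, ?_⟩
  · intro h
    have h' : ((B₁.mul B₂ : ModularForm _ _) : ℍ → ℂ) = 0 := by rw [h]; rfl
    have h1 : qLaurent ((B₁ : ℍ → ℂ) * (B₂ : ℍ → ℂ)) = 0 := by
      have : ((B₁.mul B₂ : ModularForm _ _) : ℍ → ℂ) = (B₁ : ℍ → ℂ) * (B₂ : ℍ → ℂ) := rfl
      rw [← this, h', qLaurent_zero]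
    rw [qLaurent_mul (nice_of_gamma0 B₁) (nice_of_gamma0 B₂)] at h1
    rcases mul_eq_zero.mp h1 with h2 | h2
    · rw [qLaurent_eq_zero_iff (nice_of_gamma0 B₁)] at h2
      exact hB₁ (DFunLike.coe_injective h2)
    · rw [qLaurent_eq_zero_iff (nice_of_gamma0 B₂)] at h2
      exact hB₂ (DFunLike.coe_injective h2)
  · have hRR : (fun z => (R₁ * R₂) z ^ n) = (fun z => R₁ z ^ n) * (fun z => R₂ z ^ n) := by
      funext z
      simp only [Pi.mul_apply, mul_pow]
    have hBB : (fun z => (B₁.mul B₂) z ^ n) = (fun z => B₁ z ^ n) * (fun z => B₂ z ^ n) := by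
      funext z
      simp only [Pi.mul_apply, ← mul_pow]
      rfl
    have hfg : (((f * g : ↥(FHbar M c H)) : LaurentSeries Kbar)) =
        (f : LaurentSeries Kbar) * (g : LaurentSeries Kbar) := rfl
    rw [hRR, hBB, qLaurent_mul nR₁ nR₂, qLaurent_mul nB₁ nB₂, e₁, e₂, hfg, map_mul]
    ring

/-- **CHAR1 (3)**: `n`-th powers have trivial character (uses A1-H). -/
theorem hasChar1_pow (hc2 : 2 ≤ c) (hc : c ∣ M) (hA1 : Stmt_A1H M c H)
    (h : ↥(FHbar M c H)) : HasChar1 M c H n ι (h ^ n) 0 := by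
  obtain ⟨k, A, B, hA, hB, hinv, e⟩ := hA1 hc2 hc (NeZero.ne M) ι h
  have hA' : IsTw1 M c n k 0 A := isTw1_of_isW hA fun γ => by
    apply hinv (γ : SL(2, ℤ)) (Gam1_le_Gamma0 M c γ.2)
    have h3 : (c : ℤ) ∣ (γ : SL(2, ℤ)) 0 0 - 1 := γ.2.2.2
    have h4 : ((((γ : SL(2, ℤ)) 0 0 : ℤ)) : ZMod c) = 1 := by
      have := (ZMod.intCast_zmod_eq_zero_iff_dvd _ _).mpr h3
      push_cast at this
      exact sub_eq_zero.mp this
    rw [h4]
    exact ⟨1, H.one_mem, Or.inl (by simp)⟩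
  refine hasChar1_iff.mpr ⟨k, A, B, hA', hB, ?_⟩
  have hpow : (((h ^ n : ↥(FHbar M c H)) : LaurentSeries Kbar)) =
      (h : LaurentSeries Kbar) ^ n := rfl
  rw [qLaurent_pow hA.nice, qLaurent_pow (nice_of_gamma0 B), e, hpow, map_pow, mul_pow]

/-- **CHAR1**, from A1-H. -/
theorem stmt_CHAR1_of (hA1 : Stmt_A1H M c H) : Stmt_CHAR1 M c H n := by
  intro hc2 hc hM hn ι
  haveI : NeZero M := ⟨hM⟩
  exact ⟨fun _ _ _ hf h₁ h₂ => hasChar1_unique hc hn hf h₁ h₂,
    fun _ _ _ _ _ _ h₁ h₂ => hasChar1_mul hc h₁ h₂,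
    fun h _ => hasChar1_pow hc2 hc hA1 h⟩

end Char

/-! ## Change of modulus -/

/-- Reduction of a character modulo `m ∣ n`. -/
theorem hasChar1_reduce {m : ℕ} (hmn : m ∣ n) (hn : n ≠ 0) {ι : Kbar →+* ℂ}
    {f : ↥(FHbar M c H)} {φ : Additive (Gam1 M c) →+ ZMod n} (h : HasChar1 M c H n ι f φ) :
    HasChar1 M c H m ι f ((ZMod.castHom hmn (ZMod m)).toAddMonoidHom.comp φ) := by
  obtain ⟨k, R, B, hmd, hbd, hsl, hB, hq⟩ := h
  have hm : m ≠ 0 := by
    rintro rfl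
    exact hn (Nat.eq_zero_of_zero_dvd hmn)
  have hd : n / m ≠ 0 :=
    (Nat.div_pos (Nat.le_of_dvd (Nat.pos_of_ne_zero hn) hmn) (Nat.pos_of_ne_zero hm)).ne'
  have hpow : ∀ F : ℍ → ℂ, (fun z => (F z ^ (n / m)) ^ m) = fun z => F z ^ n := by
    intro F
    funext z
    rw [← pow_mul, Nat.div_mul_cancel hmn]
  refine ⟨((n / m : ℕ) : ℤ) * k, fun z => R z ^ (n / m), B.pow (n / m), ?_, ?_, ?_, ?_, ?_⟩
  · have := hmd.pow (n / m)
    exact this
  · intro σ
    rw [Fermat.Agent.GTor.H56.slash_pow_SL]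
    exact Fermat.Agent.GTor.H56.isBoundedAtImInfty_pow (hbd σ) (n / m)
  · intro γ
    rw [Fermat.Agent.GTor.H56.slash_pow_SL, hsl γ]
    funext z
    simp only [Pi.smul_apply, smul_eq_mul, mul_pow, AddMonoidHom.coe_comp, Function.comp_apply,
      RingHom.toAddMonoidHom_eq_coe, AddMonoidHom.coe_coe]
    rw [Fermat.Agent.GTor.H81.zetaPow_pow_div hmn hn]
  · intro h0
    apply hB
    have h1 : ∀ z, (B : ℍ → ℂ) z ^ (n / m) = 0 := fun z => by
      have h2 := congrArg (fun F : ModularForm (Gamma0 M) _ => (F : ℍ → ℂ) z) h0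
      have h3 : (B.pow (n / m) : ℍ → ℂ) z = (B : ℍ → ℂ) z ^ (n / m) := by
        rw [ModularForm.coe_pow]
        rfl
      rw [← h3]
      exact h2
    ext z
    exact pow_eq_zero_iff hd |>.1 (h1 z)
  · have e1 : (fun z => (B.pow (n / m) : ℍ → ℂ) z ^ m) = fun z => (B : ℍ → ℂ) z ^ n := by
      rw [← hpow B]
      funext z
      rw [ModularForm.coe_pow]
      rfl
    rw [hpow R, e1]
    exact hq

/-- **KCOMP1.** -/
theorem stmt_KCOMP1 (M c : ℕ) (H : Subgroup (ZMod c)ˣ) (p : ℕ) : Stmt_KCOMP1 M c H p := by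
  intro hp ι k f φ _ h
  exact hasChar1_reduce (pow_dvd_pow p (Nat.le_succ k)) (pow_ne_zero _ hp) h

end Fermat.Agent.NEB.EIG.H34

end
end
-- ==== END Fermat.Agent.NEB.EIG.H34_Char1

-- ==== BEGIN Fermat.Agent.NEB.EIG.H39_Step2
section

/-!
# NEB / EIG (helper39): diamond eigenspaces, restriction, corestriction, parabolic homomorphisms

* `Dop_TD` : the Hecke operator commutes with the diamond operators `D_g`, `g ∈ Γ₀(M)`;
* `IsEig M c hc ω φ` : `D_g φ = ω(g) φ` for all `g ∈ Γ₀(M)`;  `IsEig.TD`;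
* `resK_TD` : restriction to `Gam1 M' c' ≤ Gam1 M c` commutes with the Hecke operators;
* `resK_corAlong` : `res (cor w) = index • w` for an invariant `w` on a normal subgroup;
* parabolic homomorphisms: `isPar_resK`, `isPar_tw`, `isPar_twOp`, `isPar_corAlong`.
-/

set_option autoImplicit false

namespace Fermat.Agent.NEB.EIG.H39

open CongruenceSubgroup Matrix.SpecialLinearGroup ModularForm Finset
open scoped MatrixGroups
open P2MW.S_ModularForm_heckeT_slash_eq_self_of_mem_Gamma0.ModularForm.HeckeSlashInvariance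
open Fermat.Agent.Betti ModularCurve.Period
open scoped OnePoint

section Diamond

variable {L : Type*} [Field L] {M c : ℕ}

/-- The Hecke operator commutes with the diamond operators. -/
theorem Dop_TD (hc : c ∣ M) {ℓ : ℕ} (hℓ : ℓ.Prime) (hℓM : ¬ ℓ ∣ M) (g : SL(2, ℤ))
    (hg : (M : ℤ) ∣ g 1 0) (φ : Additive (Gam1 M c) →+ L) :
    Dop hc g hg (TD M c hc hℓ hℓM φ) = TD M c hc hℓ hℓM (Dop hc g hg φ) := by
  haveI : Fact ℓ.Prime := ⟨hℓ⟩
  have H := H98.stmt_FAM_hecke M c ℓ hc hℓ hℓM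
  have he := inc_injective (Gam1 M c)
  have hex : ∀ i : OnePoint (ZMod ℓ), ∃ (j : OnePoint (ZMod ℓ)) (ε : Gam1 M c),
      repD M ℓ i * mapGL ℝ g = inc (Gam1 M c) ε * mapGL ℝ g * repD M ℓ j := by
    intro i
    obtain ⟨ε, hε, y, hy⟩ := H98.stmt_FAM_diam M c ℓ hc hℓ hℓM g hg i
    exact ⟨y, ⟨ε, hε⟩, hy⟩
  choose π ε hπ using hex
  exact heckeOp_intertwine' (A := L) H he (mapGL ℝ g) (mapGL ℝ g)
    (conjEnd he ⟨mapGL ℝ g, gam0_mem_Nrm hc hg⟩) (conjEnd he ⟨mapGL ℝ g, gam0_mem_Nrm hc hg⟩)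
    (fun γ => e_conjEnd_mul he _ γ) (fun γ => e_conjEnd_mul he _ γ) π ε hπ φ

/-- `φ` is an eigenvector of the diamond operators with weight `ω`. -/
def IsEig (M c : ℕ) (hc : c ∣ M) (ω : SL(2, ℤ) → L) (φ : Additive (Gam1 M c) →+ L) : Prop :=
  ∀ (g : SL(2, ℤ)) (hg : (M : ℤ) ∣ g 1 0), Dop hc g hg φ = ω g • φ

theorem IsEig.TD {hc : c ∣ M} {ω : SL(2, ℤ) → L} {φ : Additive (Gam1 M c) →+ L}
    (h : IsEig M c hc ω φ) {ℓ : ℕ} (hℓ : ℓ.Prime) (hℓM : ¬ ℓ ∣ M) :
    IsEig M c hc ω (_root_.Fermat.Agent.NEB.EIG.H39.TD M c hc hℓ hℓM φ) := by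
  intro g hg
  rw [Dop_TD, h g hg, map_smul]

theorem IsEig.congr {hc : c ∣ M} {ω ω' : SL(2, ℤ) → L} {φ : Additive (Gam1 M c) →+ L}
    (h : IsEig M c hc ω φ) (hω : ∀ g : SL(2, ℤ), (M : ℤ) ∣ g 1 0 → ω g = ω' g) :
    IsEig M c hc ω' φ := by
  intro g hg
  rw [h g hg, hω g hg]

end Diamond

section ResLin

variable {L : Type*} [Field L]

/-- `resK` as a linear map. -/
def resLin {K' K : Subgroup SL(2, ℤ)} (h : K' ≤ K) :
    (Additive K →+ L) →ₗ[L] (Additive K' →+ L) where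
  toFun := resK h
  map_add' := resK_add h
  map_smul' := fun r φ => resK_smul h r φ

@[simp] theorem resLin_apply {K' K : Subgroup SL(2, ℤ)} (h : K' ≤ K) (φ : Additive K →+ L) :
    resLin h φ = resK h φ := rfl

/-- Restriction commutes with the diamond operators. -/
theorem resK_Dop {M M' c c' : ℕ} (hc : c ∣ M) (hc' : c' ∣ M') (hle : Gam1 M' c' ≤ Gam1 M c)
    (g : SL(2, ℤ)) (hg : (M : ℤ) ∣ g 1 0) (hg' : (M' : ℤ) ∣ g 1 0)
    (φ : Additive (Gam1 M c) →+ L) :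
    resK hle (Dop hc g hg φ) = Dop hc' g hg' (resK hle φ) :=
  resK_tw hle (mapGL ℝ g) _ _ φ

/-- Restriction commutes with the Hecke operators. -/
theorem resK_TD {M M' c c' : ℕ} (hc : c ∣ M) (hc' : c' ∣ M') (hM : M ∣ M') (hcc : c ∣ c')
    {ℓ : ℕ} (hℓ : ℓ.Prime) (hℓM : ¬ ℓ ∣ M) (hℓM' : ¬ ℓ ∣ M') (φ : Additive (Gam1 M c) →+ L) :
    resK (Gam1_mono hM hcc) (TD M c hc hℓ hℓM φ) = TD M' c' hc' hℓ hℓM' (resK (Gam1_mono hM hcc) φ) := by
  haveI : Fact ℓ.Prime := ⟨hℓ⟩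
  have H₁ := H98.stmt_FAM_hecke M c ℓ hc hℓ hℓM
  have H₂ := H98.stmt_FAM_hecke M' c' ℓ hc' hℓ hℓM'
  have hex : ∀ i : OnePoint (ZMod ℓ), ∃ ε : Gam1 M c,
      repD M ℓ i * 1 = inc (Gam1 M c) ε * 1 * repD M' ℓ i := by
    intro i
    obtain ⟨ε, hε, h⟩ := H98.stmt_FAM_level M M' c ℓ hc hM hℓ hℓM' i
    exact ⟨⟨ε, hε⟩, by rw [mul_one, mul_one, h]; rfl⟩
  choose ε hε using hex
  exact heckeOp_intertwine (A := L) H₁ H₂ (inc_injective _) (inc_injective _) 1 1
    (Subgroup.inclusion (Gam1_mono hM hcc)) (Subgroup.inclusion (Gam1_mono hM hcc))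
    (fun γ => by simp) (fun γ => by simp) (Equiv.refl _) ε hε φ

end ResLin

section Cor

open Fermat.Agent.S41 Fermat.Agent.S41.H19

variable {A : Type*} [AddCommGroup A]

theorem finiteIndex_inclusion {K' K : Subgroup SL(2, ℤ)} (hle : K' ≤ K) {N : ℕ} [NeZero N]
    (hN : Gamma N ≤ K') : (Subgroup.inclusion hle).range.FiniteIndex := by
  rw [Subgroup.inclusion_range]
  haveI : K'.FiniteIndex := Subgroup.finiteIndex_of_le hN
  infer_instance

/-- `res (cor w) = index • w` for an invariant homomorphism `w` on a normal subgroup of finite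
index. -/
theorem resK_corAlong {K' K : Subgroup SL(2, ℤ)} (hle : K' ≤ K) {N : ℕ} [NeZero N]
    (hN : Gamma N ≤ K')
    (hnorm : ∀ g ∈ K, ∀ h ∈ K', g⁻¹ * h * g ∈ K')
    (w : Additive K' →+ A)
    (hinv : ∀ (g : SL(2, ℤ)) (_ : g ∈ K) (h : K') (hh : g⁻¹ * (h : SL(2, ℤ)) * g ∈ K'),
      w (Additive.ofMul ⟨_, hh⟩) = w (Additive.ofMul h)) :
    resK hle (corAlong A (Subgroup.inclusion hle) w)
      = (Subgroup.inclusion hle).range.index • w := by
  classical
  haveI := finiteIndex_inclusion hle hN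
  let _ : Fintype (K ⧸ (Subgroup.inclusion hle).range) :=
    (Subgroup.inclusion hle).range.fintypeQuotientOfFiniteIndex
  refine AddMonoidHom.ext fun h => ?_
  obtain ⟨h, rfl⟩ : ∃ g : K', Additive.ofMul g = h := ⟨Additive.toMul h, rfl⟩
  rw [resK_apply, AddMonoidHom.smul_apply]
  have hι : Function.Injective (Subgroup.inclusion hle) := Subgroup.inclusion_injective hle
  let k : K ⧸ (Subgroup.inclusion hle).range → K' := fun r =>
    ⟨(r.out : SL(2, ℤ))⁻¹ * (h : SL(2, ℤ)) * (r.out : SL(2, ℤ)), hnorm _ r.out.2 _ h.2⟩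
  rw [corAlong_eq_sum (Subgroup.inclusion hle) hι _ (isReps_out _) w
    (Subgroup.inclusion hle h) id k (fun r => by
      apply Subtype.ext
      simp only [id, Subgroup.coe_mul, Subgroup.coe_inclusion, k]
      group)]
  rw [Finset.sum_congr rfl (fun r _ => hinv r.out r.out.2 h (hnorm _ r.out.2 _ h.2)),
    Finset.sum_const, Finset.card_univ, Subgroup.index_eq_card, Nat.card_eq_fintype_card]

end Cor

section Parabolic

variable {A : Type*} [AddCommGroup A]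

theorem isPar_resK {K' K : Subgroup SL(2, ℤ)} (h : K' ≤ K) {φ : Additive K →+ A}
    (hφ : IsParabolicHom K φ) : IsParabolicHom K' (resK h φ) := by
  intro γ hγ
  rw [resK_apply]
  exact hφ _ (by simpa using hγ)

theorem isPar_tw {K : Subgroup SL(2, ℤ)} (a : Nrm (inc K)) {φ : Additive K →+ A}
    (hφ : IsParabolicHom K φ) : IsParabolicHom K (tw (inc_injective K) a φ) := by
  intro γ hγ
  rw [tw_apply]
  apply hφ
  have h1 := e_conjEnd (inc_injective K) a γ
  have h2 : ((inc K (conjEnd (inc_injective K) a γ) : GL (Fin 2) ℝ) :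
      Matrix (Fin 2) (Fin 2) ℝ).trace
      = ((inc K γ : GL (Fin 2) ℝ) : Matrix (Fin 2) (Fin 2) ℝ).trace := by
    rw [h1]
    exact Matrix.trace_units_conj (a : GL (Fin 2) ℝ) _
  rw [inc_apply, inc_apply, trace_mapGL, trace_mapGL] at h2
  have h3 : ((conjEnd (inc_injective K) a γ : SL(2, ℤ)) : Matrix (Fin 2) (Fin 2) ℤ).trace
      = ((γ : SL(2, ℤ)) : Matrix (Fin 2) (Fin 2) ℤ).trace := by
    exact_mod_cast h2
  rw [h3]
  exact hγ

theorem isPar_add {K : Subgroup SL(2, ℤ)} {φ ψ : Additive K →+ A}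
    (hφ : IsParabolicHom K φ) (hψ : IsParabolicHom K ψ) : IsParabolicHom K (φ + ψ) := by
  intro γ hγ
  rw [AddMonoidHom.add_apply, hφ γ hγ, hψ γ hγ, add_zero]

theorem isPar_zero {K : Subgroup SL(2, ℤ)} : IsParabolicHom K (0 : Additive K →+ A) :=
  fun _ _ => rfl

theorem isPar_smul {R : Type*} [Semiring R] [Module R A] {K : Subgroup SL(2, ℤ)} (r : R)
    {φ : Additive K →+ A} (hφ : IsParabolicHom K φ) : IsParabolicHom K (r • φ) := by
  intro γ hγ
  rw [AddMonoidHom.smul_apply, hφ γ hγ, smul_zero]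

theorem isPar_sum {K : Subgroup SL(2, ℤ)} {ι : Type*} (s : Finset ι)
    (f : ι → (Additive K →+ A)) (hf : ∀ i ∈ s, IsParabolicHom K (f i)) :
    IsParabolicHom K (∑ i ∈ s, f i) := by
  classical
  induction s using Finset.induction_on with
  | empty => simpa using isPar_zero
  | insert i s hi ih =>
    rw [Finset.sum_insert hi]
    exact isPar_add (hf i (Finset.mem_insert_self i s))
      (ih fun j hj => hf j (Finset.mem_insert_of_mem hj))

/-- A homomorphism to a torsion-free group whose restriction to a subgroup containing `Γ(N)` is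
parabolic is parabolic. -/
theorem isPar_of_resK {K' K : Subgroup SL(2, ℤ)} (h : K' ≤ K) {N : ℕ} [NeZero N]
    (hN : Gamma N ≤ K') (htf : ∀ (n : ℕ) (a : A), n ≠ 0 → n • a = 0 → a = 0)
    {φ : Additive K →+ A} (hφ : IsParabolicHom K' (resK h φ)) : IsParabolicHom K φ := by
  intro γ hγ
  have := Gamma_normal N
  have hidx : (Gamma N).index ≠ 0 := Subgroup.FiniteIndex.index_ne_zero
  have hmem : (γ : SL(2, ℤ)) ^ (Gamma N).index ∈ K' := hN (Subgroup.pow_index_mem _ _)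
  have h1 := hφ ⟨_, hmem⟩ (trace_pow_sq_eq_four _ hγ _)
  rw [resK_apply] at h1
  have e : Subgroup.inclusion h ⟨_, hmem⟩ = γ ^ (Gamma N).index := Subtype.ext (by simp)
  rw [e, ofMul_pow, map_nsmul] at h1
  exact htf _ _ hidx h1

end Parabolic

end Fermat.Agent.NEB.EIG.H39

end
-- ==== END Fermat.Agent.NEB.EIG.H39_Step2

-- ==== BEGIN Fermat.Agent.NEB.H84_Fix
section

/-!
# NEB, package FH-GAL, part 8 (helper84): the fixed field of the diamond operators is `F₀(M)`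

* `exists_norm` : for a form `B ≠ 0` on `Γ₁(M)` there is a form `C ≠ 0` on `Γ₁(M)` such that `B C`
  is invariant under `Γ₀(M)` (the norm over `Γ₁(M) \ Γ₀(M)`);
* `mem_bar_of_fixed` : an element of `F_H(M)·ℚ̄` fixed by all diamond operators lies in `F₀(M)·ℚ̄`;
* `stmt_FH_gal : Stmt_FH_gal M c H`.
-/

set_option autoImplicit false
set_option linter.unusedSectionVars false

open UpperHalfPlane ModularForm CongruenceSubgroup ModularCurve
open scoped MatrixGroups ModularForm Manifold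

noncomputable section

namespace Fermat.Agent.NEB.H84

open Fermat.Agent.S23.H22 (Nice)
open Fermat.Agent.GTor (qLaurent)
open Fermat.Agent.GTor.H56 (qLaurent_mul qLaurent_injective qLaurent_eq_zero_iff qLaurent_zero)

/-! ### Products of forms -/

section Prod

variable {M : ℕ} {k : ℤ} {U : Type*}

theorem isW_mul_ne_zero {k₁ k₂ : ℤ} {A B : ℍ → ℂ} (hA : IsW M k₁ A) (hB : IsW M k₂ B)
    (hA0 : A ≠ 0) (hB0 : B ≠ 0) : A * B ≠ 0 := by
  intro h0
  have := congrArg qLaurent h0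
  rw [qLaurent_mul hA.nice hB.nice, qLaurent_zero] at this
  rcases mul_eq_zero.mp this with h5 | h5
  · exact qLaurent_ne_zero hA.nice hA0 h5
  · exact qLaurent_ne_zero hB.nice hB0 h5

theorem one_fun_ne_zero : (1 : ℍ → ℂ) ≠ 0 := by
  intro h
  have := congrFun h UpperHalfPlane.I
  simp at this

theorem isW_one (M : ℕ) : IsW M 0 (1 : ℍ → ℂ) := IsW.const M 1

theorem prod_isW [DecidableEq U] (s : Finset U) (f : U → ℍ → ℂ)
    (hf : ∀ u ∈ s, IsW M k (f u) ∧ f u ≠ 0) :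
    IsW M ((s.card : ℤ) * k) (∏ u ∈ s, f u) ∧ (∏ u ∈ s, f u) ≠ 0 := by
  induction s using Finset.induction_on with
  | empty =>
    rw [Finset.prod_empty, Finset.card_empty, Nat.cast_zero, zero_mul]
    exact ⟨isW_one M, one_fun_ne_zero⟩
  | insert a s ha ih =>
    have h1 := ih (fun u hu => hf u (Finset.mem_insert_of_mem hu))
    have h2 := hf a (Finset.mem_insert_self a s)
    rw [Finset.prod_insert ha, Finset.card_insert_of_notMem ha]
    have hw : ((s.card + 1 : ℕ) : ℤ) * k = k + (s.card : ℤ) * k := by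
      push_cast
      ring
    rw [hw]
    exact ⟨h2.1.mul h1.1, isW_mul_ne_zero h2.1 h1.1 h2.2 h1.2⟩

theorem prod_slash [DecidableEq U] (s : Finset U) (f : U → ℍ → ℂ) (k : ℤ) (γ : SL(2, ℤ)) :
    (∏ u ∈ s, f u) ∣[(s.card : ℤ) * k] γ = ∏ u ∈ s, (f u ∣[k] γ) := by
  induction s using Finset.induction_on with
  | empty =>
    rw [Finset.prod_empty, Finset.prod_empty, Finset.card_empty, Nat.cast_zero, zero_mul]
    exact const_slash_zero 1 γ
  | insert a s ha ih =>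
    rw [Finset.prod_insert ha, Finset.prod_insert ha, Finset.card_insert_of_notMem ha]
    have hw : ((s.card + 1 : ℕ) : ℤ) * k = k + (s.card : ℤ) * k := by
      push_cast
      ring
    rw [hw, mul_slash_SL2, ih]

end Prod

/-! ### The norm over `Γ₁(M) \\ Γ₀(M)` -/

section Norm

variable {M : ℕ} {k : ℤ} {B : ℍ → ℂ}

theorem mem_Gamma1_of_map_eq_one (g : Gamma0 M) (hg : Gamma0Map M g = 1) :
    (g : SL(2, ℤ)) ∈ Gamma1 M :=
  (Gamma1_mem M _).mpr ((Gamma1_to_Gamma0_mem g).mp (Gamma1_mem'.mpr hg))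

theorem slash_eq_of_map_eq (hB : IsW M k B) (γ₁ γ₂ : Gamma0 M)
    (h : Gamma0Map M γ₁ = Gamma0Map M γ₂) :
    B ∣[k] (γ₁ : SL(2, ℤ)) = B ∣[k] (γ₂ : SL(2, ℤ)) := by
  have hg : Gamma0Map M (γ₁ * γ₂⁻¹) = 1 := by
    rw [map_mul, h, ← map_mul, mul_inv_cancel, map_one]
  have h1 : (γ₁ : SL(2, ℤ)) = ((γ₁ * γ₂⁻¹ : Gamma0 M) : SL(2, ℤ)) * (γ₂ : SL(2, ℤ)) := by
    rw [← Subgroup.coe_mul, inv_mul_cancel_right]
  rw [h1, SlashAction.slash_mul, hB.slash _ (mem_Gamma1_of_map_eq_one _ hg)]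

/-- The image of `Γ₀(M) → ℤ/M`, `γ ↦ d_γ`. -/
def RangeU (M : ℕ) : Type := {u : ZMod M // ∃ γ : Gamma0 M, Gamma0Map M γ = u}

/-- Right multiplication by `d_δ` on the image. -/
def shiftEquiv (δ : Gamma0 M) : RangeU M ≃ RangeU M where
  toFun u := ⟨u.1 * Gamma0Map M δ, by
    obtain ⟨γ, hγ⟩ := u.2
    exact ⟨γ * δ, by rw [map_mul, hγ]⟩⟩
  invFun u := ⟨u.1 * Gamma0Map M δ⁻¹, by
    obtain ⟨γ, hγ⟩ := u.2
    exact ⟨γ * δ⁻¹, by rw [map_mul, hγ]⟩⟩
  left_inv u := Subtype.ext (by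
    show u.1 * Gamma0Map M δ * Gamma0Map M δ⁻¹ = u.1
    rw [mul_assoc, ← map_mul, mul_inv_cancel, map_one, mul_one])
  right_inv u := Subtype.ext (by
    show u.1 * Gamma0Map M δ⁻¹ * Gamma0Map M δ = u.1
    rw [mul_assoc, ← map_mul, inv_mul_cancel, map_one, mul_one])

theorem shiftEquiv_val (δ : Gamma0 M) (u : RangeU M) :
    (shiftEquiv δ u).1 = u.1 * Gamma0Map M δ := rfl

theorem exists_norm [NeZero M] (hB : IsW M k B) (hB0 : B ≠ 0) :
    ∃ (k' : ℤ) (C : ℍ → ℂ), IsW M k' C ∧ C ≠ 0 ∧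
      ∀ δ : SL(2, ℤ), δ ∈ Gamma0 M → (B * C) ∣[k + k'] δ = B * C := by
  classical
  have : Finite (RangeU M) := Subtype.finite
  let _ : Fintype (RangeU M) := Fintype.ofFinite _
  let rep : RangeU M → Gamma0 M := fun u => Classical.choose u.2
  have hrep : ∀ u, Gamma0Map M (rep u) = u.1 := fun u => Classical.choose_spec u.2
  let u₁ : RangeU M := ⟨1, 1, map_one _⟩
  let f : RangeU M → ℍ → ℂ := fun u => B ∣[k] (rep u : SL(2, ℤ))
  have hf : ∀ u, IsW M k (f u) ∧ f u ≠ 0 := fun u =>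
    ⟨hB.slash_Gamma0 (rep u).2, slash_ne_zero k _ hB0⟩
  have hf1 : f u₁ = B := by
    have h1 := slash_eq_of_map_eq hB (rep u₁) 1 (by rw [hrep, map_one])
    rw [Subgroup.coe_one, SlashAction.slash_one] at h1
    exact h1
  set s := (Finset.univ : Finset (RangeU M)).erase u₁ with hs
  have hP := prod_isW (M := M) (k := k) s f (fun u _ => hf u)
  refine ⟨(s.card : ℤ) * k, ∏ u ∈ s, f u, hP.1, hP.2, ?_⟩
  intro δ hδ
  have hprod : B * ∏ u ∈ s, f u = ∏ u, f u := by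
    conv_lhs => rw [← hf1]
    exact Finset.mul_prod_erase _ _ (Finset.mem_univ _)
  have hcard : k + (s.card : ℤ) * k = ((Finset.univ : Finset (RangeU M)).card : ℤ) * k := by
    have h1 : 1 ≤ (Finset.univ : Finset (RangeU M)).card :=
      Finset.card_pos.mpr ⟨u₁, Finset.mem_univ _⟩
    rw [hs, Finset.card_erase_of_mem (Finset.mem_univ _), Nat.cast_sub h1]
    push_cast
    ring
  rw [hprod, hcard, prod_slash]
  rw [← Equiv.prod_comp (shiftEquiv ⟨δ, hδ⟩) (fun u => f u)]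
  apply Finset.prod_congr rfl
  intro u _
  show (B ∣[k] (rep u : SL(2, ℤ))) ∣[k] δ = B ∣[k] (rep (shiftEquiv ⟨δ, hδ⟩ u) : SL(2, ℤ))
  rw [← SlashAction.slash_mul]
  exact slash_eq_of_map_eq hB (rep u * ⟨δ, hδ⟩) (rep (shiftEquiv ⟨δ, hδ⟩ u))
    (by rw [map_mul, hrep, hrep, shiftEquiv_val])

end Norm

/-! ### Fixed elements -/

section Fixed

variable {M : ℕ} [NeZero M]

/-- A Laurent series which is, for every `γ ∈ Γ₀(M)`, related to itself is a ratio of two forms on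
`Γ₀(M)`, hence lies in `F₀(M)·ℂ`. -/
theorem mem_FNL_of_rel {x : LaurentSeries ℂ}
    (h : ∀ γ : SL(2, ℤ), γ ∈ Gamma0 M → Rel M γ x x) :
    x ∈ laurentBaseChange ℂ (modularFunctionFieldFull M) := by
  obtain ⟨k, A, B, hA, hB, hB0, hx, -⟩ := h 1 (Gamma0 M).one_mem
  -- the slash action on this particular pair
  have hfix : ∀ γ : SL(2, ℤ), γ ∈ Gamma0 M → qLaurent (A ∣[k] γ) = x * qLaurent (B ∣[k] γ) := by
    intro γ hγ
    have nBγ : qLaurent (B ∣[k] γ) ≠ 0 :=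
      qLaurent_ne_zero (hB.slash_Gamma0 hγ).nice (slash_ne_zero k γ hB0)
    have h2 : Rel M γ x (qLaurent (A ∣[k] γ) / qLaurent (B ∣[k] γ)) :=
      ⟨k, A, B, hA, hB, hB0, hx, by field_simp⟩
    have h3 := rel_unique hγ (h γ hγ) h2
    rw [h3]
    field_simp
  obtain ⟨k', C, hC, hC0, hnorm⟩ := exists_norm hB hB0
  have hAC : IsW M (k + k') (A * C) := hA.mul hC
  have hBC : IsW M (k + k') (B * C) := hB.mul hC
  have hBC0 : B * C ≠ 0 := isW_mul_ne_zero hB hC hB0 hC0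
  have hxBC : qLaurent (A * C) = x * qLaurent (B * C) := by
    rw [qLaurent_mul hA.nice hC.nice, qLaurent_mul hB.nice hC.nice, hx]
    ring
  have hfixA : ∀ δ : SL(2, ℤ), δ ∈ Gamma0 M → (A * C) ∣[k + k'] δ = A * C := by
    intro δ hδ
    apply qLaurent_injective (hAC.slash_Gamma0 hδ).nice hAC.nice
    have h1 : qLaurent ((A * C) ∣[k + k'] δ) = x * qLaurent ((B * C) ∣[k + k'] δ) := by
      rw [mul_slash_SL2, mul_slash_SL2,
        qLaurent_mul (hA.slash_Gamma0 hδ).nice (hC.slash_Gamma0 hδ).nice,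
        qLaurent_mul (hB.slash_Gamma0 hδ).nice (hC.slash_Gamma0 hδ).nice, hfix δ hδ]
      ring
    rw [h1, hnorm δ hδ, hxBC]
  set A₀ := toModularForm0 hAC hfixA with hA₀
  set B₀ := toModularForm0 hBC hnorm with hB₀
  have hB₀0 : B₀ ≠ 0 := by
    intro h0
    apply hBC0
    have : (B₀ : ℍ → ℂ) = 0 := by rw [h0]; rfl
    rwa [hB₀, toModularForm0_coe] at this
  obtain ⟨f, -, hf⟩ := Fermat.Agent.GTor.H58.stmt_A2 M (k + k') A₀ B₀ hB₀0
  have e1 : qLaurent (A₀ : ℍ → ℂ) = qLaurent (A * C) := rfl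
  have e2 : qLaurent (B₀ : ℍ → ℂ) = qLaurent (B * C) := rfl
  rw [e1, e2, hxBC] at hf
  have n0 : qLaurent (B * C) ≠ 0 := qLaurent_ne_zero hBC.nice hBC0
  have : x = (f : LaurentSeries ℂ) := mul_right_cancel₀ n0 hf
  rw [this]
  exact f.2

variable {c : ℕ} (H : Subgroup (ZMod c)ˣ) (ι : Kbar →+* ℂ) (hc2 : 2 ≤ c) (hc : c ∣ M)

theorem mem_bar_of_fixed (x : ↥(FHbar M c H)) (hx : ∀ d, rho H ι hc2 hc d x = x) :
    (x : LaurentSeries Kbar) ∈ modularFunctionFieldBar M := by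
  apply Fermat.Agent.NEB.H30.descent ι (modularFunctionFieldFull M)
  apply mem_FNL_of_rel
  intro γ hγ
  have h1 := actHom_rel H ι hc2 hc ⟨γ, hγ⟩ x
  have h2 : actHom H ι hc2 hc ⟨γ, hγ⟩ x = x := by
    rw [actHom_eq_rho, ← rho_apply]
    exact hx _
  rwa [h2] at h1

/-- **FH-GAL.** -/
theorem stmt_FH_gal (M c : ℕ) (H : Subgroup (ZMod c)ˣ) : Stmt_FH_gal M c H := by
  intro hc2 hc hM
  have : NeZero M := ⟨hM⟩
  have halg : Algebra.IsAlgebraic ℚ (AlgebraicClosure ℚ) := AlgebraicClosure.isAlgebraic ℚ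
  have ι : Kbar →+* ℂ := (IsAlgClosed.lift : AlgebraicClosure ℚ →ₐ[ℚ] ℂ).toRingHom
  refine ⟨rho H ι hc2 hc, rho_gen H ι hc2 hc, rho_incl H ι hc2 hc, ?_, rho_eq_one_iff H ι hc2 hc,
    rho_arith H ι hc2 hc⟩
  intro x hx
  exact ⟨⟨x, mem_bar_of_fixed H ι hc2 hc x hx⟩, Subtype.ext (by rw [coe_inclBar])⟩

end Fixed

end Fermat.Agent.NEB.H84

end
end
-- ==== END Fermat.Agent.NEB.H84_Fix

-- ==== BEGIN Fermat.Agent.S48.B1.H55_Asm4
section

/-!
# S48, B1 assembly, part 4 (helper55): the lattices and the coefficients of `eis1Series`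

* `coeffLin`: the coefficient sequence as a linear map;
* `latA M χ k`, `latI φ M χ k`: forms with integral coefficients / coefficients in `ker φ`;
  stability under `ℤ̄` and the Hecke operators;
* `eis1_integral`, `red_eis1_zero`, `red_eis1_pos`: the coefficients of `eis1Series`.
-/

set_option autoImplicit false

open CongruenceSubgroup UpperHalfPlane ModularForm
open scoped MatrixGroups ModularForm Manifold

noncomputable section

namespace Fermat.Agent.S48.B1.H55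

open Fermat.Agent.S48.Int (HasNeb)

variable {k : Type} [Field k]

/-- The coefficient sequence as a linear map. -/
def coeffLin (M : ℕ) (w : ℤ) : CuspForm (Gamma1 M) w →ₗ[ℂ] (ℕ → ℂ) where
  toFun := coeffSeq
  map_add' := coeffSeq_add
  map_smul' := coeffSeq_smul

theorem coeffLin_apply (M : ℕ) (w : ℤ) (g : CuspForm (Gamma1 M) w) :
    coeffLin M w g = coeffSeq g := rfl

theorem coeffSeq_zero (M : ℕ) (w : ℤ) : coeffSeq (0 : CuspForm (Gamma1 M) w) = 0 :=
  (coeffLin M w).map_zero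

theorem coeffSeq_neg {M : ℕ} {w : ℤ} (g : CuspForm (Gamma1 M) w) :
    coeffSeq (-g) = -coeffSeq g :=
  (coeffLin M w).map_neg g

theorem coeffSeq_sub {M : ℕ} {w : ℤ} (g h : CuspForm (Gamma1 M) w) :
    coeffSeq (g - h) = coeffSeq g - coeffSeq h :=
  (coeffLin M w).map_sub g h

/-- Forms with integral coefficients. -/
def latA (M : ℕ) (χ : DirichletCharacter ℂ M) (w : ℤ) : AddSubgroup (nebSubmodule M χ w) where
  carrier := {g | ∀ n, IsIntegral ℤ (coeffSeq (g : CuspForm (Gamma1 M) w) n)}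
  zero_mem' := by
    intro n
    have h : coeffSeq (((0 : nebSubmodule M χ w)) : CuspForm (Gamma1 M) w) = 0 :=
      coeffSeq_zero M w
    rw [h]
    exact isIntegral_zero
  add_mem' := by
    intro a b ha hb n
    have h : coeffSeq (((a + b : nebSubmodule M χ w)) : CuspForm (Gamma1 M) w) =
        coeffSeq (a : CuspForm (Gamma1 M) w) + coeffSeq (b : CuspForm (Gamma1 M) w) :=
      coeffSeq_add _ _
    rw [h]
    exact (ha n).add (hb n)
  neg_mem' := by
    intro a ha n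
    have h : coeffSeq (((-a : nebSubmodule M χ w)) : CuspForm (Gamma1 M) w) =
        -coeffSeq (a : CuspForm (Gamma1 M) w) := coeffSeq_neg _
    rw [h]
    exact (ha n).neg

/-- Forms with coefficients in `ker φ`. -/
def latI (φ : integralClosure ℤ ℂ →+* k) (M : ℕ) (χ : DirichletCharacter ℂ M) (w : ℤ) :
    AddSubgroup (nebSubmodule M χ w) where
  carrier := {g | ∀ n, IsIntegral ℤ (coeffSeq (g : CuspForm (Gamma1 M) w) n) ∧
    red φ (coeffSeq (g : CuspForm (Gamma1 M) w) n) = 0}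
  zero_mem' := by
    intro n
    have h : coeffSeq (((0 : nebSubmodule M χ w)) : CuspForm (Gamma1 M) w) = 0 :=
      coeffSeq_zero M w
    rw [h]
    exact ⟨isIntegral_zero, red_zero φ⟩
  add_mem' := by
    intro a b ha hb n
    have h : coeffSeq (((a + b : nebSubmodule M χ w)) : CuspForm (Gamma1 M) w) =
        coeffSeq (a : CuspForm (Gamma1 M) w) + coeffSeq (b : CuspForm (Gamma1 M) w) :=
      coeffSeq_add _ _
    rw [h]
    refine ⟨(ha n).1.add (hb n).1, ?_⟩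
    rw [Pi.add_apply, red_add φ (ha n).1 (hb n).1, (ha n).2, (hb n).2, add_zero]
  neg_mem' := by
    intro a ha n
    have h : coeffSeq (((-a : nebSubmodule M χ w)) : CuspForm (Gamma1 M) w) =
        -coeffSeq (a : CuspForm (Gamma1 M) w) := coeffSeq_neg _
    rw [h]
    refine ⟨(ha n).1.neg, ?_⟩
    rw [Pi.neg_apply, red_neg φ (ha n).1, (ha n).2, neg_zero]

theorem mem_latA {M : ℕ} {χ : DirichletCharacter ℂ M} {w : ℤ} {g : nebSubmodule M χ w} :
    g ∈ latA M χ w ↔ ∀ n, IsIntegral ℤ (coeffSeq (g : CuspForm (Gamma1 M) w) n) := Iff.rfl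

theorem mem_latI {φ : integralClosure ℤ ℂ →+* k} {M : ℕ} {χ : DirichletCharacter ℂ M} {w : ℤ}
    {g : nebSubmodule M χ w} :
    g ∈ latI φ M χ w ↔ ∀ n, IsIntegral ℤ (coeffSeq (g : CuspForm (Gamma1 M) w) n) ∧
      red φ (coeffSeq (g : CuspForm (Gamma1 M) w) n) = 0 := Iff.rfl

theorem coeffSeq_smul_sub {M : ℕ} {χ : DirichletCharacter ℂ M} {w : ℤ} (t : ℂ)
    (g : nebSubmodule M χ w) (n : ℕ) :
    coeffSeq (((t • g : nebSubmodule M χ w)) : CuspForm (Gamma1 M) w) n =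
      t * coeffSeq (g : CuspForm (Gamma1 M) w) n := by
  have h : coeffSeq (((t • g : nebSubmodule M χ w)) : CuspForm (Gamma1 M) w) =
      t • coeffSeq (g : CuspForm (Gamma1 M) w) := coeffSeq_smul _ _
  rw [h]
  rfl

theorem smul_mem_latA {M : ℕ} {χ : DirichletCharacter ℂ M} {w : ℤ}
    (a : integralClosure ℤ ℂ) (g : nebSubmodule M χ w) (hg : g ∈ latA M χ w) :
    (algebraMap (integralClosure ℤ ℂ) ℂ a) • g ∈ latA M χ w := by
  intro n
  rw [coeffSeq_smul_sub]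
  exact (show IsIntegral ℤ (a : ℂ) from a.2).mul (hg n)

theorem smul_mem_latI (φ : integralClosure ℤ ℂ →+* k) {M : ℕ} {χ : DirichletCharacter ℂ M}
    {w : ℤ} (a : integralClosure ℤ ℂ) (g : nebSubmodule M χ w) (hg : g ∈ latI φ M χ w) :
    (algebraMap (integralClosure ℤ ℂ) ℂ a) • g ∈ latI φ M χ w := by
  intro n
  rw [coeffSeq_smul_sub]
  have ha : IsIntegral ℤ (a : ℂ) := a.2
  refine ⟨ha.mul (hg n).1, ?_⟩
  have h1 : red φ ((a : ℂ) * coeffSeq (g : CuspForm (Gamma1 M) w) n) =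
      red φ (a : ℂ) * red φ (coeffSeq (g : CuspForm (Gamma1 M) w) n) := red_mul φ ha (hg n).1
  exact h1.trans (by rw [(hg n).2, mul_zero])

theorem isIntegral_coeffOp {p : ℕ} {c : ℂ} (hc : IsIntegral ℤ c) {a : ℕ → ℂ}
    (ha : ∀ n, IsIntegral ℤ (a n)) (n : ℕ) : IsIntegral ℤ (coeffOp p c a n) := by
  rw [coeffOp_apply]
  refine (ha _).add (hc.mul ?_)
  split_ifs
  · exact ha _
  · exact isIntegral_zero

theorem red_coeffOp (φ : integralClosure ℤ ℂ →+* k) {p : ℕ} {c : ℂ} (hc : IsIntegral ℤ c)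
    {a : ℕ → ℂ} (ha : ∀ n, IsIntegral ℤ (a n)) (ha0 : ∀ n, red φ (a n) = 0) (n : ℕ) :
    red φ (coeffOp p c a n) = 0 := by
  have hif : IsIntegral ℤ (if p ∣ n then a (n / p) else 0) := by
    split_ifs
    · exact ha _
    · exact isIntegral_zero
  have hif0 : red φ (if p ∣ n then a (n / p) else 0) = 0 := by
    split_ifs
    · exact ha0 _
    · exact red_zero φ
  rw [coeffOp_apply, red_add φ (ha _) (hc.mul hif), red_mul φ hc hif, ha0, hif0, mul_zero,
    add_zero]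

theorem heckeOp_mem_latA (hH : Stmt_HeckeNeb) {M : ℕ} [NeZero M] {χ : DirichletCharacter ℂ M}
    {w : ℤ} {p : ℕ} (hp : p.Prime) (hpM : ¬ p ∣ M) (hc : IsIntegral ℤ (heckeFactor χ w p))
    (g : nebSubmodule M χ w) (hg : g ∈ latA M χ w) :
    heckeOp hH M χ w p hp hpM g ∈ latA M χ w := by
  intro n
  rw [coeffSeq_heckeOp]
  exact isIntegral_coeffOp hc hg n

theorem heckeOp_mem_latI (hH : Stmt_HeckeNeb) (φ : integralClosure ℤ ℂ →+* k) {M : ℕ} [NeZero M]
    {χ : DirichletCharacter ℂ M}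
    {w : ℤ} {p : ℕ} (hp : p.Prime) (hpM : ¬ p ∣ M) (hc : IsIntegral ℤ (heckeFactor χ w p))
    (g : nebSubmodule M χ w) (hg : g ∈ latI φ M χ w) :
    heckeOp hH M χ w p hp hpM g ∈ latI φ M χ w := by
  intro n
  rw [coeffSeq_heckeOp]
  exact ⟨isIntegral_coeffOp hc (fun m => (hg m).1) n,
    red_coeffOp φ hc (fun m => (hg m).1) (fun m => (hg m).2) n⟩

theorem isIntegral_natC (n : ℕ) : IsIntegral ℤ (n : ℂ) := by
  have h := isIntegral_algebraMap (R := ℤ) (A := ℂ) (x := (n : ℤ))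
  simpa using h

theorem isIntegral_neg_two : IsIntegral ℤ (-2 : ℂ) := by
  have h := isIntegral_algebraMap (R := ℤ) (A := ℂ) (x := (-2 : ℤ))
  simpa using h

theorem heckeFactor_two {M : ℕ} (χ : DirichletCharacter ℂ M) (p : ℕ) :
    heckeFactor χ 2 p = χ (p : ZMod M) * (p : ℂ) := by
  unfold heckeFactor
  norm_num

theorem heckeFactor_one {M : ℕ} (χ : DirichletCharacter ℂ M) (p : ℕ) :
    heckeFactor χ 1 p = χ (p : ZMod M) := by
  unfold heckeFactor
  norm_num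

theorem isIntegral_heckeFactor_two {M : ℕ} [NeZero M] (χ : DirichletCharacter ℂ M) (p : ℕ) :
    IsIntegral ℤ (heckeFactor χ 2 p) := by
  rw [heckeFactor_two]
  exact (Fermat.Agent.S48.Int.H55.isIntegral_charVal χ _).mul (isIntegral_natC p)

/-- Eigenvalues of `T_p` on `S₂(M, χ)` are algebraic integers. -/
theorem heckeOp_eigenvalue_integral (hH : Stmt_HeckeNeb) (hEig : Stmt_EigInt) {M : ℕ} [NeZero M]
    {χ : DirichletCharacter ℂ M} {p : ℕ} (hp : p.Prime) (hpM : ¬ p ∣ M) (μ : ℂ)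
    (hμ : (heckeOp hH M χ 2 p hp hpM).HasEigenvalue μ) :
    ∃ x : integralClosure ℤ ℂ, algebraMap (integralClosure ℤ ℂ) ℂ x = μ := by
  obtain ⟨g, hg⟩ := hμ.exists_hasEigenvector
  have hg0 : g ≠ 0 := hg.2
  have happ : heckeOp hH M χ 2 p hp hpM g = μ • g := hg.apply_eq_smul
  have hint : IsIntegral ℤ μ := by
    refine hEig M χ (g : CuspForm (Gamma1 M) 2) g.2 (fun h => hg0 (Subtype.ext h)) p hp hpM μ ?_
    intro n
    have h1 := congrFun (coeffSeq_heckeOp hH M χ 2 p hp hpM g) n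
    rw [happ, coeffSeq_smul_sub, coeffOp_apply, heckeFactor_two] at h1
    exact h1.symm
  exact ⟨⟨μ, hint⟩, rfl⟩

/-! ### The coefficients of `eis1Series` -/

theorem coeff_eis1_zero (ℓ : ℕ) (ψ : DirichletCharacter ℂ ℓ) :
    (eis1Series ℓ ψ).coeff 0 = ∑ a ∈ Finset.range ℓ, ψ (a : ZMod ℓ) * (a : ℂ) := by
  simp [eis1Series, PowerSeries.coeff_mk]

theorem coeff_eis1_pos (ℓ : ℕ) (ψ : DirichletCharacter ℂ ℓ) {n : ℕ} (hn : n ≠ 0) :
    (eis1Series ℓ ψ).coeff n = (ℓ : ℂ) * (-2 * ∑ d ∈ n.divisors, ψ (d : ZMod ℓ)) := by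
  simp only [eis1Series, PowerSeries.coeff_mk, if_neg hn]
  ring

theorem eis1_integral (ℓ : ℕ) [NeZero ℓ] (ψ : DirichletCharacter ℂ ℓ) (n : ℕ) :
    IsIntegral ℤ ((eis1Series ℓ ψ).coeff n) := by
  by_cases hn : n = 0
  · subst hn
    rw [coeff_eis1_zero]
    exact IsIntegral.sum _ fun a _ =>
      (Fermat.Agent.S48.Int.H55.isIntegral_charVal ψ _).mul (isIntegral_natC a)
  · rw [coeff_eis1_pos ℓ ψ hn]
    refine (isIntegral_natC ℓ).mul (IsIntegral.mul isIntegral_neg_two ?_)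
    exact IsIntegral.sum _ fun a _ => Fermat.Agent.S48.Int.H55.isIntegral_charVal ψ _

end Fermat.Agent.S48.B1.H55

end
end
-- ==== END Fermat.Agent.S48.B1.H55_Asm4

-- ==== BEGIN Fermat.Agent.S48.B1.H96_AlgFormFinal
section

set_option autoImplicit false

namespace Fermat.Agent.S48.B1.H96

/-- **AlgForm**: a form with the same Hecke relations and eigenvalues as `f`, all of whose
coefficients are algebraic with a common denominator. -/
theorem stmt_AlgForm : Stmt_AlgForm :=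
  stmt_AlgForm_of Fermat.Agent.S48.B1.H34.stmt_FinDimNeb

end Fermat.Agent.S48.B1.H96

end
-- ==== END Fermat.Agent.S48.B1.H96_AlgFormFinal

-- ==== BEGIN Fermat.Agent.S48.B2.R.H31_GenCoeff
section

/-!
# S48 B2, slice R (helper31): the reduction of the generators `e_{±aH}` of `F_H(M)`

For every valuation ring `A` of `ℚ̄` (any residue characteristic):

* `genBar_mem_gaussValSub` : `e_{±aH}` lies in the Gauss valuation ring of `F_H(M)`;
* `gaussResF_genBar`       : its reduction is the integral series `e_{±aH}` mod `A`;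
* `coeff_zero_red_genBar`  : the constant term of the reduction is `0`;
* `coeff_one_red_genBar`   : the `q¹`-coefficient of the reduction is `1` if `a ∈ ±H`, else `0`;
* `one_mem_cosetSet_iff`   : `1 ∈ ±aH ↔ a ∈ H ∨ -a ∈ H`.
-/

set_option autoImplicit false
set_option linter.unusedSectionVars false
set_option linter.style.haveILetI false
set_option synthInstance.maxHeartbeats 400000
set_option maxHeartbeats 1000000

open ModularCurve AlgebraicCurve IntermediateField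

noncomputable section

namespace Fermat.Agent.S48.B2.R.H31

open Fermat.Agent.NEB Fermat.Agent.RED Fermat.Agent.RED.H73 Fermat.Agent.S28.H73

section Coeff

variable {c : ℕ}

theorem eisCoeff_zero_jh (S : Set (ZMod c)) : eisCoeff c S 0 = 0 := by
  classical
  rw [eisCoeff]
  simp

theorem coeff_zero_eisQuot (S : Set (ZMod c)) : PowerSeries.coeff 0 (eisQuot c S) = 0 := by
  rw [eisQuot, PowerSeries.coeff_zero_eq_constantCoeff, map_mul]
  have : PowerSeries.constantCoeff (eisNum c S) = 0 := by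
    rw [← PowerSeries.coeff_zero_eq_constantCoeff_apply, eisNum, PowerSeries.coeff_mk,
      eisCoeff_zero_jh]
  rw [this, zero_mul]

open scoped Classical in
theorem coeff_one_eisQuot (S : Set (ZMod c)) :
    PowerSeries.coeff 1 (eisQuot c S) = if (1 : ZMod c) ∈ S then 1 else 0 := by
  rw [eisQuot, PowerSeries.coeff_mul, Finset.Nat.antidiagonal_succ]
  simp only [Finset.Nat.antidiagonal_zero, Finset.map_singleton, Function.Embedding.coe_prodMap,
    Function.Embedding.coeFn_mk, Prod.map_apply, Nat.succ_eq_add_one, zero_add,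
    Function.Embedding.refl_apply, Finset.sum_cons, Finset.sum_singleton]
  have h0 : PowerSeries.coeff 0 (eisNum c S) = 0 := by
    rw [eisNum, PowerSeries.coeff_mk, eisCoeff_zero_jh]
  have h1 : PowerSeries.coeff 1 (eisNum c S) = if (1 : ZMod c) ∈ S then 1 else 0 := by
    rw [eisNum, PowerSeries.coeff_mk, Fermat.Agent.NEB.H84.eisCoeff_one]
  have h2 : PowerSeries.coeff 0 (eisenstein4.invOfUnit 1) = 1 := by
    rw [PowerSeries.coeff_zero_eq_constantCoeff_apply, PowerSeries.constantCoeff_invOfUnit]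
    simp
  rw [h0, h1, h2, zero_mul, zero_add, mul_one]

theorem one_mem_cosetSet_iff (H : Subgroup (ZMod c)ˣ) (a : (ZMod c)ˣ) :
    (1 : ZMod c) ∈ cosetSet c H a ↔ (a ∈ H ∨ -a ∈ H) := by
  constructor
  · rintro ⟨h, hh, h1 | h1⟩
    · left
      have e : a * h = 1 := Units.ext h1.symm
      have : a = h⁻¹ := eq_inv_of_mul_eq_one_left e
      rw [this]
      exact H.inv_mem hh
    · right
      have e : -a * h = 1 := by
        apply Units.ext
        rw [neg_mul, Units.val_neg, Units.val_one]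
        exact h1.symm
      have : -a = h⁻¹ := eq_inv_of_mul_eq_one_left e
      rw [this]
      exact H.inv_mem hh
  · rintro (ha | ha)
    · refine ⟨a⁻¹, H.inv_mem ha, Or.inl ?_⟩
      rw [mul_inv_cancel, Units.val_one]
    · refine ⟨(-a)⁻¹, H.inv_mem ha, Or.inr ?_⟩
      rw [inv_neg, mul_neg, mul_inv_cancel, Units.val_neg, Units.val_one, neg_neg]

end Coeff

section Red

variable (M c : ℕ) (H : Subgroup (ZMod c)ˣ) (A : ValuationSubring Kbar)

theorem coe_genBar_eq (a : (ZMod c)ˣ) :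
    ((genBar M c H a : ↥(FHbar M c H)) : LaurentSeries Kbar)
      = coeffMap (Int.castRingHom Kbar)
          (HahnSeries.ofPowerSeries ℤ ℤ (eisQuot c (cosetSet c H a))) :=
  Fermat.Agent.NEB.H94.coeffEmb_ofPowerSeries_int _

/-- The generators are Gauss-integral. -/
theorem genBar_mem_gaussValSub (a : (ZMod c)ˣ) :
    genBar M c H a ∈ gaussValSub A (FHbar M c H) (Fermat.Agent.NEB.H94.hasScale_FHbar A M c H) := by
  show ((genBar M c H a : ↥(FHbar M c H)) : LaurentSeries Kbar) ∈ gaussRingV A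
  rw [coe_genBar_eq]
  exact (coeffMap_int_mem_gaussRingV A _).1

/-- The reduction of a generator is the same integral series, mod `A`. -/
theorem gaussResF_genBar (a : (ZMod c)ˣ) :
    gaussResF A (Fermat.Agent.NEB.H94.hasScale_FHbar A M c H)
        ⟨genBar M c H a, genBar_mem_gaussValSub M c H A a⟩
      = coeffMap (Int.castRingHom (kV A))
          (HahnSeries.ofPowerSeries ℤ ℤ (eisQuot c (cosetSet c H a))) := by
  rw [gaussResF_apply]
  obtain ⟨hx, hred⟩ := coeffMap_int_mem_gaussRingV A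
    (HahnSeries.ofPowerSeries ℤ ℤ (eisQuot c (cosetSet c H a)))
  rw [← hred]
  congr 1
  exact Subtype.ext (coe_genBar_eq M c H a)

theorem coeff_zero_red_genBar (a : (ZMod c)ˣ) :
    (gaussResF A (Fermat.Agent.NEB.H94.hasScale_FHbar A M c H)
        ⟨genBar M c H a, genBar_mem_gaussValSub M c H A a⟩).coeff 0 = 0 := by
  rw [gaussResF_genBar, coeffMap_coeff]
  have h := HahnSeries.ofPowerSeries_apply_coeff (Γ := ℤ) (R := ℤ)
    (eisQuot c (cosetSet c H a)) 0
  rw [Nat.cast_zero] at h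
  rw [h, coeff_zero_eisQuot, map_zero]

open scoped Classical in
/-- The `q¹`-coefficient of the reduction of `e_{±aH}` is `1` if `a ∈ ±H` and `0` otherwise. -/
theorem coeff_one_red_genBar (a : (ZMod c)ˣ) :
    (gaussResF A (Fermat.Agent.NEB.H94.hasScale_FHbar A M c H)
        ⟨genBar M c H a, genBar_mem_gaussValSub M c H A a⟩).coeff 1
      = if (a ∈ H ∨ -a ∈ H) then 1 else 0 := by
  rw [gaussResF_genBar, coeffMap_coeff]
  have h := HahnSeries.ofPowerSeries_apply_coeff (Γ := ℤ) (R := ℤ)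
    (eisQuot c (cosetSet c H a)) 1
  rw [Nat.cast_one] at h
  rw [h, coeff_one_eisQuot]
  by_cases ha : (a ∈ H ∨ -a ∈ H)
  · rw [if_pos ha, if_pos ((one_mem_cosetSet_iff H a).mpr ha)]
    simp
  · rw [if_neg ha, if_neg (fun h1 => ha ((one_mem_cosetSet_iff H a).mp h1))]
    simp

end Red

end Fermat.Agent.S48.B2.R.H31

end
end
-- ==== END Fermat.Agent.S48.B2.R.H31_GenCoeff

-- ==== BEGIN Fermat.Agent.S48.B2.R.H96_Chart0
section
attribute [local instance 10000] SubalgebraClass.toAlgebra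
attribute [local instance 10000] HahnSeries.powerSeriesAlgebra

/-!
# S48 B2, slice R, leaf CHART0 (helper96): the chart data of `F₀(M)` at the tame levels

`Stmt_Chart0` : for `q ∤ M` and `(q, M)` tame (`q ≥ 5`, or `q = 3 ∧ 2 ∣ M`, or `q = 2 ∧ 3 ∣ M`),
at every place `A ∣ q` there is a chart `x ∈ F₀(M)` with `x, x⁻¹` Gauss-integral, the five "pre"
fields, and branch values of `x` and of `x⁻¹` pairwise distinct modulo the maximal ideal.

* `q ≥ 5` : `x = j` (`RED.H73.goodChart_pre`, `RED.H76.branch_distinct_jF`, `_inv`);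
* `q = 3`, `2 ∣ M` : `x = h₂`;  `q = 2`, `3 ∣ M` : `x = h₃` — the first half of the proof of
  `RED.H76.hasDR_of_haupt_int` (helper76), with the `q`-series inputs `stmt_Haupt2`, `stmt_Haupt3`.
-/

set_option autoImplicit false
set_option linter.style.haveILetI false
set_option synthInstance.maxHeartbeats 400000
set_option maxHeartbeats 1000000

noncomputable section

open AlgebraicCurve IntermediateField Polynomial

namespace Fermat.Agent.S48.B2.R.H96C

open Fermat.Agent.NEB Fermat.Agent.RED Fermat.Agent.RED.H34 Fermat.Agent.RED.H79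
open ModularCurve Fermat.Agent.S28.H73 Fermat.Agent.RED.H73 Fermat.Agent.RED.H76
open Fermat.Agent.S48.B2.R

/-- The case `q ≥ 5`: the chart `j`. -/
theorem chartData0_five_le {M q : ℕ} [NeZero M] (hq : q.Prime) (hqM : ¬ q ∣ M) (h5 : 5 ≤ q)
    (A : ValuationSubring Kbar) (hA : A.LiesOverPrime q) : ChartData0 A M := by
  obtain ⟨h1, h2, h3, h4, h5'⟩ := goodChart_pre M q hq hqM A hA
  exact ⟨Fermat.Agent.RED.H73.jF (L := Kbar) M, jF_mem A M, _root_.Fermat.Agent.RED.H76.jF_inv_mem M hq hqM A hA,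
    ⟨h1, h2, h3, h4, h5'⟩, branch_distinct_jF M hq h5 A hA, branch_distinct_jF_inv M A⟩

/-- **Generic assembly** (first half of `RED.H76.hasDR_of_haupt_int`): the chart data at level
`M` from a Hauptmodul of the sublevel `p ∣ M` given by identities over `ℤ`, when the candidate
branch values are `0` and a unit `c`. -/
theorem chartData0_of_haupt_int {p ℓ : ℕ} [NeZero p] (hp : p.Prime) {M : ℕ} [NeZero M]
    (hpM : p ∣ M) (hℓ : ℓ.Prime) (hℓM : ¬ ℓ ∣ M)
    (A : ValuationSubring Kbar) (hA : A.LiesOverPrime ℓ)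
    (hZ : LaurentSeries ℤ) (hord : hZ.order < 0) (hlead : hZ.leadingCoeff = 1)
    (P Q P' Q' : ℤ[X]) (hP : P.Monic) (hPd : P.natDegree = p + 1)
    (hQ : Q.Monic) (hQd : Q.natDegree < p + 1) (hQ' : Q'.Monic)
    (hPQ : aeval hZ P = jqModC ℤ * aeval hZ Q)
    (hPQ' : aeval hZ P' = qExpand ℤ p (jqModC ℤ) * aeval hZ Q')
    (c : Kbar) (hc : c ≠ 0) (hcA : c ∈ A) (hcinvA : c⁻¹ ∈ A)
    (hQroot : ∀ ρ : Kbar, (Q.map (Int.castRingHom Kbar)).eval ρ = 0 → ρ = 0)
    (hbr : ∀ ρ : Kbar, ρ ≠ 0 →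
      (((P.map (Int.castRingHom Kbar)).eval ρ = 0 ∧
          ¬ (X - C ρ) ^ 2 ∣ P.map (Int.castRingHom Kbar)) ∨
        ((P.map (Int.castRingHom Kbar)).eval ρ = 1728 * (Q.map (Int.castRingHom Kbar)).eval ρ ∧
          ¬ (X - C ρ) ^ 2 ∣
            P.map (Int.castRingHom Kbar) - C 1728 * Q.map (Int.castRingHom Kbar))) →
      ρ = c) :
    ChartData0 A M := by
  haveI : IsAlgClosed (kV A) := isAlgClosed_kV A
  have hM : ((M : Kbar))⁻¹ ∈ A := inv_natCast_mem_of_liesOver A M hℓ hℓM hA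
  obtain ⟨x, hx, hx', hxcoe, -, G, G'⟩ :=
    chartPre_haupt_int hp hpM A hM hZ hord hlead P Q P' Q' hP hPd hQ hQd hQ' hPQ hPQ'
  obtain ⟨i1, -⟩ := haupt_identities_map (p := p) Kbar hZ P Q P' Q' hPQ hPQ'
  -- the identity in `F_M`
  have hid : aeval x (P.map (Int.castRingHom Kbar))
      = Fermat.Agent.RED.H73.jF (L := Kbar) M * aeval x (Q.map (Int.castRingHom Kbar)) := by
    apply Subtype.ext
    have e : ∀ q : Kbar[X], ((aeval x q : ↥(laurentBaseChange Kbar (modularFunctionFieldFull M)))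
        : LaurentSeries Kbar) = aeval (x : LaurentSeries Kbar) q := fun q =>
      (Polynomial.aeval_algHom_apply
        (laurentBaseChange Kbar (modularFunctionFieldFull M)).val x q).symm
    rw [MulMemClass.coe_mul, e, e, hxcoe]
    exact i1
  have hxt : Transcendental Kbar x :=
    Fermat.Agent.RED.H34.RedSetting.transcendental_x hx G.transc
  haveI := G.fin
  -- `P - a Q ≠ 0`
  have hne : ∀ a : Kbar, P.map (Int.castRingHom Kbar) - C a * Q.map (Int.castRingHom Kbar)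
      ≠ 0 := by
    intro a
    have hPm : (P.map (Int.castRingHom Kbar)).Monic := hP.map _
    have hdeg : (C a * Q.map (Int.castRingHom Kbar)).degree
        < (P.map (Int.castRingHom Kbar)).degree := by
      refine degree_lt_degree (lt_of_le_of_lt (natDegree_C_mul_le a _) ?_)
      rw [hQ.natDegree_map, hP.natDegree_map, hPd]
      exact hQd
    exact (hPm.sub_of_left hdeg).ne_zero
  -- branch values of `x`
  have hbrx : ∀ ρ : Kbar, IsBranchValue x ρ → ρ = 0 ∨ ρ = c := by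
    intro ρ hρ
    by_cases h0 : ρ = 0
    · exact Or.inl h0
    · right
      have hQρ : (Q.map (Int.castRingHom Kbar)).eval ρ ≠ 0 := fun h => h0 (hQroot ρ h)
      exact hbr ρ h0 (branch_haupt M x hxt _ _ hid hne hQρ hρ)
  -- branch values of `1/x`
  have hbrx' : ∀ σ : Kbar, IsBranchValue x⁻¹ σ → σ = 0 ∨ σ = c⁻¹ := by
    intro σ hσ
    by_cases h0 : σ = 0
    · exact Or.inl h0
    · right
      have h1 := (isBranchValue_inv_iff x hxt h0).mp hσ
      rcases hbrx σ⁻¹ h1 with h2 | h2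
      · exact absurd h2 (inv_ne_zero h0)
      · rw [← h2, inv_inv]
  exact ⟨x, hx, hx', G,
    fun ρ ρ' hρ hρ' hres =>
      eq_of_resO_eq_of_mem_pair A _ c hc hcinvA ρ ρ' (hbrx _ hρ) (hbrx _ hρ') hres,
    fun ρ ρ' hρ hρ' hres =>
      eq_of_resO_eq_of_mem_pair A _ c⁻¹ (inv_ne_zero hc) (by rw [inv_inv]; exact hcA) ρ ρ'
        (hbrx' _ hρ) (hbrx' _ hρ') hres⟩

/-- The case `q = 3`, `2 ∣ M`: the chart `h₂`. -/
theorem chartData0_haupt2 {M : ℕ} [NeZero M] (h2M : 2 ∣ M) (h3M : ¬ 3 ∣ M)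
    (A : ValuationSubring Kbar) (hA : A.LiesOverPrime 3) : ChartData0 A M := by
  obtain ⟨hZ, P', Q', hord, hlead, hQ', hPQ, hPQ'⟩ := stmt_Haupt2
  have hPmap : ((X + C 256) ^ 3 : ℤ[X]).map (Int.castRingHom Kbar) = (X + C 256) ^ 3 := by
    simp only [Polynomial.map_pow, Polynomial.map_add, Polynomial.map_X, Polynomial.map_C]
    simp only [eq_intCast, Int.cast_ofNat]
  have hQmap : ((X ^ 2 : ℤ[X])).map (Int.castRingHom Kbar) = X ^ 2 := by
    simp [Polynomial.map_pow]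
  refine chartData0_of_haupt_int (p := 2) Nat.prime_two h2M Nat.prime_three h3M A hA hZ hord
    hlead ((X + C 256) ^ 3) (X ^ 2) P' Q' ((monic_X_add_C 256).pow 3) ?_ (monic_X_pow 2) ?_ hQ'
    hPQ hPQ' (-64) (by norm_num) ?_ ?_ ?_ ?_
  · rw [(monic_X_add_C (256 : ℤ)).natDegree_pow, natDegree_X_add_C]
  · rw [natDegree_X_pow]
    norm_num
  · have : ((64 : ℕ) : Kbar) ∈ A := natCast_mem A 64
    have h2 := A.neg_mem _ this
    exact_mod_cast h2
  · have := neg_natCast_inv_mem Nat.prime_three A hA 64 (by decide)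
    exact_mod_cast this
  · intro ρ hρ
    rw [hQmap] at hρ
    simpa using hρ
  · intro ρ _ h
    rw [hPmap, hQmap] at h
    simp only [eval_pow, eval_add, eval_X, eval_C] at h
    rcases h with ⟨h0, hd⟩ | ⟨h1, hd⟩
    · exact (haupt2_case0 ρ h0 hd).elim
    · exact haupt2_case1728 ρ h1 hd

/-- The case `q = 2`, `3 ∣ M`: the chart `h₃`. -/
theorem chartData0_haupt3 {M : ℕ} [NeZero M] (h3M : 3 ∣ M) (h2M : ¬ 2 ∣ M)
    (A : ValuationSubring Kbar) (hA : A.LiesOverPrime 2) : ChartData0 A M := by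
  obtain ⟨hZ, P', Q', hord, hlead, hQ', hPQ, hPQ'⟩ := stmt_Haupt3
  have hPmap : ((X + C 27) * (X + C 243) ^ 3 : ℤ[X]).map (Int.castRingHom Kbar)
      = (X + C 27) * (X + C 243) ^ 3 := by
    simp only [Polynomial.map_pow, Polynomial.map_add, Polynomial.map_mul, Polynomial.map_X,
      Polynomial.map_C]
    simp only [eq_intCast, Int.cast_ofNat]
  have hQmap : ((X ^ 3 : ℤ[X])).map (Int.castRingHom Kbar) = X ^ 3 := by
    simp [Polynomial.map_pow]
  refine chartData0_of_haupt_int (p := 3) Nat.prime_three h3M Nat.prime_two h2M A hA hZ hord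
    hlead ((X + C 27) * (X + C 243) ^ 3) (X ^ 3) P' Q'
    ((monic_X_add_C 27).mul ((monic_X_add_C 243).pow 3)) ?_ (monic_X_pow 3) ?_ hQ'
    hPQ hPQ' (-27) (by norm_num) ?_ ?_ ?_ ?_
  · rw [(monic_X_add_C (27 : ℤ)).natDegree_mul ((monic_X_add_C (243 : ℤ)).pow 3),
      (monic_X_add_C (243 : ℤ)).natDegree_pow, natDegree_X_add_C, natDegree_X_add_C]
  · rw [natDegree_X_pow]
    norm_num
  · have : ((27 : ℕ) : Kbar) ∈ A := natCast_mem A 27
    have h2 := A.neg_mem _ this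
    exact_mod_cast h2
  · have := neg_natCast_inv_mem Nat.prime_two A hA 27 (by decide)
    exact_mod_cast this
  · intro ρ hρ
    rw [hQmap] at hρ
    simpa using hρ
  · intro ρ _ h
    rw [hPmap, hQmap] at h
    simp only [eval_pow, eval_add, eval_mul, eval_X, eval_C] at h
    rcases h with ⟨h0, hd⟩ | ⟨h1, hd⟩
    · exact haupt3_case0 ρ h0 hd
    · exact (haupt3_case1728 ρ h1 hd).elim

/-- **CHART0.** -/
theorem stmt_Chart0 : Stmt_Chart0 := by
  intro M q _ hq hqM htame A hA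
  rcases htame with h5 | ⟨rfl, h2M⟩ | ⟨rfl, h3M⟩
  · exact chartData0_five_le hq hqM h5 A hA
  · exact chartData0_haupt2 h2M hqM A hA
  · exact chartData0_haupt3 h3M hqM A hA

end Fermat.Agent.S48.B2.R.H96C

end
end
-- ==== END Fermat.Agent.S48.B2.R.H96_Chart0
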