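-- GENERATED (merged mirror, NOTES/tools/trim/merge3_helper67.py): 5 modules of the originals, bodies verbatim.
import Mathlib.NumberTheory.DirichletCharacter.Orthogonality
import Fermat.Agent.Zm.S48_L09_000
import Fermat.Agent.Zm.S35_L03_001
import Fermat.Agent.Zm.S48_L08_000
import Fermat.Agent.Zm.S48_L06_000
import Fermat.Agent.Zm.S35_L01_004

-- ==== BEGIN Fermat.Agent.NEB.EIG.H34_HK1a
section

/-!
# NEB / EIG-MONO, leaf HK1, part (a) (helper34): the Hecke product of a twisted form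

`heckeProdD k M ℓ R = ∏_{x ∈ P¹(𝔽_ℓ)} R ∣[k] repD M ℓ x` (representatives of helper39's family).

* `heckeProdD_eq`      : `= (∏_{j<ℓ} (R ∣[k] κ) ∣[k] [1,j;0,ℓ]) * R ∣[k] [ℓ,0;0,1]`, `κ = kappaSL M ℓ`;
* `isTw1_heckeProdD`   : multiplier `ζ^(TDadd φ)` under `Gam1 M c`, weight `k (ℓ + 1)`;
* `heckeProdD_of_invariant` : for `Γ₀(M)`-invariant `B` it is GTor's `heckeProd k ℓ B`
  (so `B' = GTor.H76.heckeProdForm hℓ hℓM B`);
* `heckeProdD_pow`     : `heckeProdD (n k) (Rⁿ) = ℓ^((n-1)(ℓ+1)) • (heckeProdD k R)ⁿ`;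
* `hasChar1_heckeProdD`: packaging for `HasChar1`.
-/

set_option autoImplicit false
set_option linter.unusedSectionVars false
set_option linter.unusedVariables false
set_option linter.style.haveILetI false

open UpperHalfPlane ModularForm CongruenceSubgroup ModularCurve AlgebraicCurve
  Matrix.SpecialLinearGroup
open scoped MatrixGroups ModularForm Manifold OnePoint
open P2MW.S_ModularForm_heckeT_slash_eq_self_of_mem_Gamma0.ModularForm.HeckeSlashInvariance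

noncomputable section

namespace Fermat.Agent.NEB.EIG.H34

open Fermat.Agent.S23.H22 (Nice)
open Fermat.Agent.GTor Fermat.Agent.Betti
open Fermat.Agent.GTor.H76 (heckeProd heckeProd_eq_prod_onePoint heckeRep_apply_one_zero
  smul_slash_heckeRep slash_mapGL prod_slash_mapGL zetaPow_sum prod_smul_fun card_onePoint_zmod
  prod_range_eq_prod_zmod)
open Fermat.Agent.NEB Fermat.Agent.NEB.H84 Fermat.Agent.NEB.EIG.H39 Fermat.Agent.NEB.EIG.H98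

/-- The product of the slashes of `R` by the representatives `repD M ℓ x`. -/
def heckeProdD (k : ℤ) (M ℓ : ℕ) [NeZero ℓ] (R : ℍ → ℂ) : ℍ → ℂ :=
  ∏ x : OnePoint (ZMod ℓ), R ∣[k] repD M ℓ x

/-- The two-function Hecke product `(∏_{j<ℓ} R' ∣[k] [1,j;0,ℓ]) * R ∣[k] [ℓ,0;0,1]`. -/
def heckeProd2 (k : ℤ) (ℓ : ℕ) (R' R : ℍ → ℂ) : ℍ → ℂ :=
  (∏ j ∈ Finset.range ℓ, R' ∣[k] heckeMatrix ℓ j) * R ∣[k] heckeDiagMatrix ℓ

theorem heckeProd2_self (k : ℤ) (ℓ : ℕ) (R : ℍ → ℂ) : heckeProd2 k ℓ R R = heckeProd k ℓ R := rfl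

theorem heckeProdD_eq (k : ℤ) (M ℓ : ℕ) [NeZero ℓ] (R : ℍ → ℂ) :
    heckeProdD k M ℓ R = heckeProd2 k ℓ (R ∣[k] kappaSL M ℓ) R := by
  rw [heckeProdD, heckeProd2, prod_range_eq_prod_zmod, mul_comm]
  refine (Fintype.prod_option (fun x : OnePoint (ZMod ℓ) ↦ R ∣[k] repD M ℓ x)).trans ?_
  congr 1
  refine Finset.prod_congr rfl fun j _ => ?_
  show R ∣[k] (mapGL ℝ (kappaSL M ℓ) * heckeMatrix ℓ j.val) = _
  rw [SlashAction.slash_mul]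
  rfl

theorem heckeProd2_apply (k : ℤ) {ℓ : ℕ} (hℓ : ℓ ≠ 0) (R' R : ℍ → ℂ) (τ : ℍ) :
    heckeProd2 k ℓ R' R τ = (∏ j ∈ Finset.range ℓ, ((ℓ : ℂ)⁻¹ * R' (heckeMatrix ℓ j • τ)))
      * ((ℓ : ℂ) ^ (k - 1) * R (heckeDiagMatrix ℓ • τ)) := by
  simp only [heckeProd2, Pi.mul_apply, Finset.prod_apply, slash_heckeMatrix_apply k hℓ,
    slash_heckeDiagMatrix_apply k hℓ]

theorem heckeProd2_pow (k : ℤ) {ℓ : ℕ} (hℓ : ℓ ≠ 0) (n : ℕ) (R' R : ℍ → ℂ) :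
    heckeProd2 ((n : ℤ) * k) ℓ (fun z => R' z ^ n) (fun z => R z ^ n)
      = (((ℓ : ℂ) ^ ((n : ℤ) - 1)) ^ (ℓ + 1)) • fun z => heckeProd2 k ℓ R' R z ^ n := by
  have hℓ' : (ℓ : ℂ) ≠ 0 := by exact_mod_cast hℓ
  funext τ
  rw [Pi.smul_apply, heckeProd2_apply _ hℓ, heckeProd2_apply _ hℓ, smul_eq_mul]
  have hA : ∏ j ∈ Finset.range ℓ, ((ℓ : ℂ)⁻¹ * R' (heckeMatrix ℓ j • τ) ^ n)
      = ((ℓ : ℂ)⁻¹) ^ ℓ * (∏ j ∈ Finset.range ℓ, R' (heckeMatrix ℓ j • τ)) ^ n := by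
    rw [Finset.prod_mul_distrib, Finset.prod_const, Finset.card_range, Finset.prod_pow]
  have hB : ∏ j ∈ Finset.range ℓ, ((ℓ : ℂ)⁻¹ * R' (heckeMatrix ℓ j • τ))
      = ((ℓ : ℂ)⁻¹) ^ ℓ * ∏ j ∈ Finset.range ℓ, R' (heckeMatrix ℓ j • τ) := by
    rw [Finset.prod_mul_distrib, Finset.prod_const, Finset.card_range]
  rw [hA, hB]
  exact Fermat.Agent.GTor.H76.heckeProd_pow_aux _ hℓ' _ _ _ _ _

/-- `heckeProdD (n k) (Rⁿ) = ℓ^((n-1)(ℓ+1)) • (heckeProdD k R)ⁿ`. -/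
theorem heckeProdD_pow (k : ℤ) (M ℓ : ℕ) [NeZero ℓ] (n : ℕ) (R : ℍ → ℂ) :
    heckeProdD ((n : ℤ) * k) M ℓ (fun z => R z ^ n)
      = (((ℓ : ℂ) ^ ((n : ℤ) - 1)) ^ (ℓ + 1)) • fun z => heckeProdD k M ℓ R z ^ n := by
  rw [heckeProdD_eq, heckeProdD_eq, Fermat.Agent.GTor.H56.slash_pow_SL,
    heckeProd2_pow k (NeZero.ne ℓ)]

/-- The slash of `heckeProdD` by an element of `SL₂(ℤ)`. -/
theorem heckeProdD_slash (k : ℤ) (M ℓ : ℕ) [NeZero ℓ] (R : ℍ → ℂ) (γ : SL(2, ℤ)) :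
    (heckeProdD k M ℓ R) ∣[k * ((ℓ : ℤ) + 1)] γ
      = ∏ x : OnePoint (ZMod ℓ), R ∣[k] (repD M ℓ x * mapGL ℝ γ) := by
  rw [heckeProdD, ← slash_mapGL, ← card_onePoint_zmod, prod_slash_mapGL]
  refine Finset.prod_congr rfl fun x _ => ?_
  rw [SlashAction.slash_mul]

theorem mdifferentiable_heckeProdD (k : ℤ) (M ℓ : ℕ) [NeZero ℓ] {R : ℍ → ℂ}
    (hR : MDifferentiable 𝓘(ℂ) 𝓘(ℂ) R) : MDifferentiable 𝓘(ℂ) 𝓘(ℂ) (heckeProdD k M ℓ R) := by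
  rw [heckeProdD]
  exact MDifferentiable.prod fun j _ => hR.slash k _

theorem smul_slash_repD (k : ℤ) {M ℓ : ℕ} (hℓ : ℓ.Prime) (hℓM : ¬ ℓ ∣ M)
    (x : OnePoint (ZMod ℓ)) (a : ℂ) (F : ℍ → ℂ) :
    (a • F) ∣[k] repD M ℓ x = a • (F ∣[k] repD M ℓ x) := by
  obtain ⟨ε, -, hx⟩ := stmt_FAM_std M ℓ hℓ hℓM x
  rw [hx, SlashAction.slash_mul, SlashAction.slash_mul, slash_mapGL, slash_mapGL,
    ModularForm.SL_smul_slash, smul_slash_heckeRep]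

section Twisted

variable {M c n : ℕ} {k : ℤ} {φ : Additive (Gam1 M c) →+ ZMod n} {R : ℍ → ℂ}

/-- **HK1 (a)**: the Hecke product of a twisted form is a twisted form with multiplier
`ζ^(T_ℓ^D φ)`. -/
theorem isTw1_heckeProdD (hc : c ∣ M) {ℓ : ℕ} (hℓ : ℓ.Prime) (hℓM : ¬ ℓ ∣ M)
    (h : IsTw1 M c n k φ R) :
    haveI : NeZero ℓ := ⟨hℓ.ne_zero⟩
    IsTw1 M c n (k * ((ℓ : ℤ) + 1)) (TDadd M c hc hℓ hℓM φ) (heckeProdD k M ℓ R) := by
  haveI : Fact ℓ.Prime := ⟨hℓ⟩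
  haveI : NeZero ℓ := ⟨hℓ.ne_zero⟩
  refine ⟨mdifferentiable_heckeProdD k M ℓ h.mdiff, fun σ => ?_, fun γ => ?_⟩
  · -- bounded at the cusps
    rw [heckeProdD_slash]
    have hb : ∀ x : OnePoint (ZMod ℓ),
        IsBoundedAtImInfty (R ∣[k] (repD M ℓ x * mapGL ℝ σ)) := by
      intro x
      obtain ⟨ε, -, hx⟩ := stmt_FAM_std M ℓ hℓ hℓM x
      obtain ⟨g', -, hg'⟩ := heckeRep_mul (N := 1) (p := ℓ) hℓ.not_dvd_one σ (by simp) x
      rw [hx, mul_assoc, hg', ← mul_assoc, ← map_mul, SlashAction.slash_mul, slash_mapGL]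
      exact (h.bdd (ε * g')).slash k (heckeRep_apply_one_zero ℓ _)
    rw [IsBoundedAtImInfty]
    exact Filter.BoundedAtFilter.prod _ fun x _ => hb x
  · -- the multiplier
    set HF := stmt_FAM_hecke M c ℓ hc hℓ hℓM with hHF
    rw [heckeProdD_slash]
    have hT : (TDadd M c hc hℓ hℓM φ) (Additive.ofMul γ)
        = ∑ x : OnePoint (ZMod ℓ), φ (Additive.ofMul (HF.kap γ x)) := rfl
    rw [hT, zetaPow_sum]
    have hterm : ∀ x : OnePoint (ZMod ℓ),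
        R ∣[k] (repD M ℓ x * mapGL ℝ (γ : SL(2, ℤ)))
          = zetaPow n (φ (Additive.ofMul (HF.kap γ x))) • (R ∣[k] repD M ℓ (HF.perm γ x)) := by
      intro x
      have h1 := HF.rep_mul γ x
      rw [inc_apply, inc_apply] at h1
      have h2 : R ∣[k] mapGL ℝ ((HF.kap γ x : Gam1 M c) : SL(2, ℤ))
          = zetaPow n (φ (Additive.ofMul (HF.kap γ x))) • R := h.slash (HF.kap γ x)
      rw [h1, SlashAction.slash_mul, h2, smul_slash_repD k hℓ hℓM]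
    rw [Finset.prod_congr rfl fun x _ => hterm x, prod_smul_fun, heckeProdD]
    congr 1
    exact Equiv.prod_comp (HF.permEquiv (inc_injective _) γ)
      (fun x => R ∣[k] repD M ℓ x)

end Twisted

section Form

variable {M : ℕ} [NeZero M] {k : ℤ} {ℓ : ℕ}

/-- For a `Γ₀(M)`-invariant function the product over `repD` is GTor's `heckeProd`. -/
theorem heckeProdD_of_invariant [NeZero ℓ] (hℓ : ℓ.Prime) (hℓM : ¬ ℓ ∣ M) {B : ℍ → ℂ}
    (hB : ∀ ε : SL(2, ℤ), ε ∈ Gamma0 M → B ∣[k] ε = B) :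
    heckeProdD k M ℓ B = heckeProd k ℓ B := by
  rw [heckeProdD, heckeProd_eq_prod_onePoint]
  refine Finset.prod_congr rfl fun x _ => ?_
  obtain ⟨ε, hε, hx⟩ := stmt_FAM_std M ℓ hℓ hℓM x
  rw [hx, SlashAction.slash_mul, slash_mapGL, hB ε hε]

theorem heckeProdD_modularForm [NeZero ℓ] (hℓ : ℓ.Prime) (hℓM : ¬ ℓ ∣ M)
    (B : ModularForm (Gamma0 M) k) :
    heckeProdD k M ℓ (B : ℍ → ℂ) = (Fermat.Agent.GTor.H76.heckeProdForm hℓ hℓM B : ℍ → ℂ) := by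
  rw [Fermat.Agent.GTor.H76.coe_heckeProdForm]
  exact heckeProdD_of_invariant hℓ hℓM fun ε hε => slash_modularForm B hε

end Form

/-- **Packaging for `HasChar1`**: if `ι f = (R / B)ⁿ` and `g` is the ratio of the `q`-expansions of
`(heckeProdD R)ⁿ` and `(heckeProdD B)ⁿ`, then `g` has character `T_ℓ^D φ`. -/
theorem hasChar1_heckeProdD {M c n : ℕ} [NeZero M] {H : Subgroup (ZMod c)ˣ} (hc : c ∣ M) {k : ℤ}
    {ℓ : ℕ} (hℓ : ℓ.Prime) (hℓM : ¬ ℓ ∣ M) {ι : Kbar →+* ℂ}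
    {φ : Additive (Gam1 M c) →+ ZMod n} {R : ℍ → ℂ} (hR : IsTw1 M c n k φ R)
    {B : ModularForm (Gamma0 M) k} (hB : B ≠ 0) (g : ↥(FHbar M c H))
    (hq : haveI : NeZero ℓ := ⟨hℓ.ne_zero⟩
      qLaurent (fun z => heckeProdD k M ℓ R z ^ n)
        = coeffMap ι (g : LaurentSeries Kbar) *
          qLaurent (fun z => heckeProdD k M ℓ (B : ℍ → ℂ) z ^ n)) :
    HasChar1 M c H n ι g (TDadd M c hc hℓ hℓM φ) := by
  haveI : NeZero ℓ := ⟨hℓ.ne_zero⟩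
  refine hasChar1_iff.mpr ⟨k * ((ℓ : ℤ) + 1), heckeProdD k M ℓ R,
    Fermat.Agent.GTor.H76.heckeProdForm hℓ hℓM B, isTw1_heckeProdD hc hℓ hℓM hR,
    Fermat.Agent.GTor.H76.heckeProdForm_ne_zero hℓ hℓM hB, ?_⟩
  rw [← heckeProdD_modularForm hℓ hℓM B]
  exact hq

end Fermat.Agent.NEB.EIG.H34

end
end
-- ==== END Fermat.Agent.NEB.EIG.H34_HK1a

-- ==== BEGIN Fermat.Agent.NEB.EIG.H39_Step3
section

/-!
# NEB / EIG (helper39): the twisting step at one prime `q`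

`q` prime, `q ∤ m`, `c₁ ∣ m`.  `K₁ = Gam1 (q m) (q c₁) ⊇ Γ' = Gam1 (q m q) (q c₁) ⊆ K₂ = Gam1 (q m q) c₁`.
`stepMap χ φ = cor_{Γ' → K₂} (Tw_χ (res_{K₁ → Γ'} φ))` (`Tw_χ = id` if `χ = 1`).
For `φ` with `D_g φ = χ(a_g)² ω(g) φ` (`g ∈ Γ₀(q m)`), `ω = 1` on `K₂`:
* `stepMap_isEig`  : `D_g (S φ) = ω(g) S φ` for `g ∈ Γ₀(q m q)`;
* `stepMap_inj`    : `S φ = 0 → φ = 0` (if `χ = 1` or `χ(T)² ≠ 1` for some `T`);
* `stepMap_TD`     : `T_ℓ (S φ) = χ(ℓ)⁻¹ S (T_ℓ φ)`;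
* `stepMap_isPar`  : `S φ` is parabolic if `φ` is.
-/

set_option autoImplicit false

namespace Fermat.Agent.NEB.EIG.H39

open CongruenceSubgroup Matrix.SpecialLinearGroup ModularForm Finset
open scoped MatrixGroups
open P2MW.S_ModularForm_heckeT_slash_eq_self_of_mem_Gamma0.ModularForm.HeckeSlashInvariance
open Fermat.Agent.Betti ModularCurve.Period
open scoped OnePoint

section CorLin

open Fermat.Agent.S41 Fermat.Agent.S41.H19

variable {L : Type*} [Field L]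

/-- Corestriction as a linear map. -/
noncomputable def corLin {K' K : Subgroup SL(2, ℤ)} (h : K' ≤ K) :
    (Additive K' →+ L) →ₗ[L] (Additive K →+ L) where
  toFun := corAlong L (Subgroup.inclusion h)
  map_add' := corAlong_add _
  map_smul' := fun r φ => corAlong_smul _ r φ

theorem corLin_apply {K' K : Subgroup SL(2, ℤ)} (h : K' ≤ K) (w : Additive K' →+ L) :
    corLin h w = corAlong L (Subgroup.inclusion h) w := rfl

theorem resK_sub {A : Type*} [AddCommGroup A] {K' K : Subgroup SL(2, ℤ)} (h : K' ≤ K)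
    (φ ψ : Additive K →+ A) : resK h (φ - ψ) = resK h φ - resK h ψ := rfl

theorem resK_inj [CharZero L] {K' K : Subgroup SL(2, ℤ)} (h : K' ≤ K) {N : ℕ} [NeZero N]
    (hN : Gamma N ≤ K') {φ ψ : Additive K →+ L} (hφ : resK h φ = resK h ψ) : φ = ψ := by
  have h1 : resK h (φ - ψ) = 0 := by rw [resK_sub, hφ, sub_self]
  have h2 := resK_injective h hN (fun n a hn ha => by
    rw [nsmul_eq_mul] at ha
    rcases mul_eq_zero.mp ha with h' | h'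
    · exact absurd (Nat.cast_eq_zero.mp h') hn
    · exact h') (φ - ψ) h1
  exact sub_eq_zero.mp h2

end CorLin

section Step

variable {q m c₁ : ℕ} {L : Type*} [Field L]

theorem step_hcK1 (hc₁ : c₁ ∣ m) : q * c₁ ∣ q * m := Nat.mul_dvd_mul_left q hc₁
theorem step_hcG (hc₁ : c₁ ∣ m) : q * c₁ ∣ q * m * q := (step_hcK1 hc₁).trans (dvd_mul_right _ _)
theorem step_hcK2 (hc₁ : c₁ ∣ m) : c₁ ∣ q * m * q :=
  (hc₁.trans (dvd_mul_left m q)).trans (dvd_mul_right _ _)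
theorem step_hcq (hc₁ : c₁ ∣ m) : q * c₁ * q ∣ q * m * q := Nat.mul_dvd_mul_right (step_hcK1 hc₁) q
theorem step_hle1 (q m c₁ : ℕ) : Gam1 (q * m * q) (q * c₁) ≤ Gam1 (q * m) (q * c₁) :=
  Gam1_mono (dvd_mul_right _ _) dvd_rfl
theorem step_hle2 (q m c₁ : ℕ) : Gam1 (q * m * q) (q * c₁) ≤ Gam1 (q * m * q) c₁ :=
  Gam1_mono dvd_rfl (dvd_mul_left _ _)
theorem step_hN (hc₁ : c₁ ∣ m) : Gamma (q * m * q) ≤ Gam1 (q * m * q) (q * c₁) :=
  Gamma_le_Gam1 dvd_rfl (step_hcG hc₁)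

theorem step_neZero (hq : q.Prime) (hqm : ¬ q ∣ m) : NeZero (q * m * q) := by
  refine ⟨?_⟩
  have hm : m ≠ 0 := fun h => hqm (h ▸ dvd_zero q)
  exact Nat.mul_ne_zero (Nat.mul_ne_zero hq.ne_zero hm) hq.ne_zero

open Classical in
/-- The twisting operator at `q` (the identity if `χ = 1`). -/
noncomputable def tqOp (hq : q.Prime) (hc₁ : c₁ ∣ m) (χ : MulChar (ZMod q) L) :
    (Additive (Gam1 (q * m * q) (q * c₁)) →+ L) →ₗ[L]
      (Additive (Gam1 (q * m * q) (q * c₁)) →+ L) :=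
  haveI : Fact q.Prime := ⟨hq⟩
  if χ = 1 then LinearMap.id
  else twOp (Bop hq.ne_zero (dvd_mul_right q c₁) (step_hcq hc₁)) χ

theorem tqOp_one (hq : q.Prime) (hc₁ : c₁ ∣ m) {χ : MulChar (ZMod q) L} (hχ : χ = 1) :
    tqOp (m := m) hq hc₁ χ = LinearMap.id := by
  unfold tqOp
  rw [if_pos hχ]

theorem tqOp_ne (hq : q.Prime) (hc₁ : c₁ ∣ m) {χ : MulChar (ZMod q) L} (hχ : χ ≠ 1) :
    haveI : Fact q.Prime := ⟨hq⟩
    tqOp (m := m) hq hc₁ χ = twOp (Bop hq.ne_zero (dvd_mul_right q c₁) (step_hcq hc₁)) χ := by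
  unfold tqOp
  rw [if_neg hχ]

/-- The step map `Hom(K₁, L) → Hom(K₂, L)`. -/
noncomputable def stepMap (hq : q.Prime) (hc₁ : c₁ ∣ m) (χ : MulChar (ZMod q) L) :
    (Additive (Gam1 (q * m) (q * c₁)) →+ L) →ₗ[L] (Additive (Gam1 (q * m * q) c₁) →+ L) :=
  (corLin (step_hle2 q m c₁)).comp ((tqOp hq hc₁ χ).comp (resLin (step_hle1 q m c₁)))

/-- The intermediate homomorphism `w = Tw_χ (res φ)` on `Γ'`. -/
noncomputable def stepW (hq : q.Prime) (hc₁ : c₁ ∣ m) (χ : MulChar (ZMod q) L)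
    (φ : Additive (Gam1 (q * m) (q * c₁)) →+ L) : Additive (Gam1 (q * m * q) (q * c₁)) →+ L :=
  tqOp hq hc₁ χ (resK (step_hle1 q m c₁) φ)

theorem stepMap_eq (hq : q.Prime) (hc₁ : c₁ ∣ m) (χ : MulChar (ZMod q) L)
    (φ : Additive (Gam1 (q * m) (q * c₁)) →+ L) :
    stepMap hq hc₁ χ φ
      = Fermat.Agent.S41.corAlong L (Subgroup.inclusion (step_hle2 q m c₁)) (stepW hq hc₁ χ φ) :=
  rfl

/-- The value of a character at the upper-left entry of `g ∈ Γ₀(q ·)` is not zero. -/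
theorem chi_entry_ne_zero (χ : MulChar (ZMod q) L) {g : SL(2, ℤ)} (hg : (q : ℤ) ∣ g 1 0) :
    χ ((g 0 0 : ℤ) : ZMod q) ≠ 0 := by
  have hu : IsUnit (((g 0 0 : ℤ) : ZMod q)) :=
    IsUnit.of_mul_eq_one _ (entry_mul_eq_one hg)
  exact (IsUnit.map χ hu).ne_zero

theorem chi_entry_one {χ : MulChar (ZMod q) L} (hχ : χ = 1) {g : SL(2, ℤ)}
    (hg : (q : ℤ) ∣ g 1 0) : χ ((g 0 0 : ℤ) : ZMod q) = 1 := by
  have hu : IsUnit (((g 0 0 : ℤ) : ZMod q)) :=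
    IsUnit.of_mul_eq_one _ (entry_mul_eq_one hg)
  rw [hχ, MulChar.one_apply hu]

theorem dvd10_of_dvd {g : SL(2, ℤ)} (hg : ((q * m * q : ℕ) : ℤ) ∣ g 1 0) :
    ((q * m : ℕ) : ℤ) ∣ g 1 0 :=
  (Int.natCast_dvd_natCast.mpr (dvd_mul_right _ _)).trans hg

theorem q_dvd10_of_dvd {g : SL(2, ℤ)} (hg : ((q * m * q : ℕ) : ℤ) ∣ g 1 0) : (q : ℤ) ∣ g 1 0 :=
  (Int.natCast_dvd_natCast.mpr (dvd_mul_left _ _)).trans hg

variable (hq : q.Prime) (hc₁ : c₁ ∣ m) (χ : MulChar (ZMod q) L) (ω : SL(2, ℤ) → L)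

/-- (L1) `w = Tw_χ (res φ)` is an eigenvector of the diamond operators of `Γ₀(q m q)` with
weight `ω`. -/
theorem stepW_isEig {φ : Additive (Gam1 (q * m) (q * c₁)) →+ L}
    (hφ : IsEig (q * m) (q * c₁) (step_hcK1 hc₁)
      (fun g => χ ((g 0 0 : ℤ) : ZMod q) ^ 2 * ω g) φ) :
    IsEig (q * m * q) (q * c₁) (step_hcG hc₁) ω (stepW hq hc₁ χ φ) := by
  haveI : Fact q.Prime := ⟨hq⟩
  intro g hg
  have hg1 := dvd10_of_dvd hg
  have hgq := q_dvd10_of_dvd hg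
  have hres : Dop (step_hcG hc₁) g hg (resK (step_hle1 q m c₁) φ)
      = (χ ((g 0 0 : ℤ) : ZMod q) ^ 2 * ω g) • resK (step_hle1 q m c₁) φ := by
    rw [← resK_Dop (step_hcK1 hc₁) (step_hcG hc₁) (step_hle1 q m c₁) g hg1 hg, hφ g hg1, resK_smul]
  unfold stepW
  by_cases hχ : χ = 1
  · rw [tqOp_one hq hc₁ hχ, LinearMap.id_apply, hres, chi_entry_one hχ hgq, one_pow, one_mul]
  · rw [tqOp_ne hq hc₁ hχ]
    have h1 := twOp_Dop hq.ne_zero (dvd_mul_right q c₁) (step_hcq hc₁) (step_hcG hc₁) χ g hg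
      (resK (step_hle1 q m c₁) φ)
    rw [hres, map_smul] at h1
    have h0 : χ ((g 0 0 : ℤ) : ZMod q) ^ 2 ≠ 0 := pow_ne_zero _ (chi_entry_ne_zero χ hgq)
    have h2 := congrArg (fun x => (χ ((g 0 0 : ℤ) : ZMod q) ^ 2)⁻¹ • x) h1
    simp only [smul_smul] at h2
    rw [inv_mul_cancel₀ h0, one_smul, ← mul_assoc, inv_mul_cancel₀ h0, one_mul] at h2
    exact h2.symm

end Step

end Fermat.Agent.NEB.EIG.H39

end
-- ==== END Fermat.Agent.NEB.EIG.H39_Step3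

-- ==== BEGIN Fermat.Agent.NEB.EIG.H46_A2H
section

/-!
# NEB / EIG-MONO, leaf A2-H (helper46): `Γ_H`-invariant ratios of forms on `Γ₁(M)` lie in `F_H · ℂ`

Plan: `NOTES/plan/NEB_EIG_MONO.md`.  For `A, B` forms of weight `k` on `Γ₁(M)` with
`(A ∣ γ) B = A (B ∣ γ)` for all `γ ∈ Γ_H = {γ ∈ Γ₀(M) : a_γ ∈ ±H}`, the ratio `x₀ = A / B` of
`q`-expansions lies in `laurentBaseChange ℂ (FHQ M c H)`.

Proof.  `X u := (A ∣ γ) / (B ∣ γ)` depends only on `u = d_γ mod c`, and on `u` mod `±H`.  For a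
character `ψ` of `(ℤ/c)ˣ` put `G_ψ := ∑_u ψ(u) X u`.  Then `γ` maps `G_ψ` to `ψ(d_γ)⁻¹ G_ψ`, as it
does for `y_ψ = ∑_a ψ(a)⁻¹ e_{±aH}` (helper34's `yC`).  If `ψ` is trivial on `±H` then `y_ψ ≠ 0`
(its `q¹`-coefficient is `|±H|`) and `G_ψ / y_ψ` is `Γ₀(M)`-invariant, hence in `F₀ · ℂ`
(`H84.mem_FNL_of_rel`); otherwise `G_ψ = 0`.  Finally `φ(c) x₀ = ∑_ψ G_ψ` (orthogonality).
-/

set_option autoImplicit false

open UpperHalfPlane ModularForm CongruenceSubgroup ModularCurve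
open scoped MatrixGroups ModularForm Manifold

noncomputable section

namespace Fermat.Agent.NEB.EIG.H46

open Fermat.Agent.S23.H22 (Nice)
open Fermat.Agent.GTor (qLaurent)
open Fermat.Agent.GTor.H56 (qLaurent_mul qLaurent_injective qLaurent_eq_zero_iff qLaurent_zero)
open Fermat.Agent.NEB Fermat.Agent.NEB.H84 Fermat.Agent.NEB.H34

variable {M c : ℕ}

/-! ### Sums of related series -/

theorem rel_zero (M : ℕ) (γ : SL(2, ℤ)) : Rel M γ 0 0 := by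
  have := rel_C M γ 0
  rwa [map_zero] at this

theorem rel_sum {ι : Type*} (s : Finset ι) {γ : SL(2, ℤ)} (hγ : γ ∈ Gamma0 M)
    (f g : ι → LaurentSeries ℂ) (h : ∀ i ∈ s, Rel M γ (f i) (g i)) :
    Rel M γ (∑ i ∈ s, f i) (∑ i ∈ s, g i) := by
  classical
  induction s using Finset.induction_on with
  | empty => simpa using _root_.Fermat.Agent.NEB.EIG.H46.rel_zero M γ
  | insert a s ha ih =>
    rw [Finset.sum_insert ha, Finset.sum_insert ha]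
    exact rel_add hγ (h a (Finset.mem_insert_self a s))
      (ih fun i hi => h i (Finset.mem_insert_of_mem hi))

/-! ### The twisted generators `y_ψ` -/

section YC

variable [NeZero c] (H : Subgroup (ZMod c)ˣ)

theorem smul_eq_C_mul (z : ℂ) (x : LaurentSeries ℂ) : z • x = HahnSeries.C z * x :=
  (HahnSeries.C_mul_eq_smul).symm

theorem C_mem_bc (F₀ : IntermediateField ℚ (LaurentSeries ℚ)) (z : ℂ) :
    (HahnSeries.C z : LaurentSeries ℂ) ∈ laurentBaseChange ℂ F₀ := by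
  have : (HahnSeries.C z : LaurentSeries ℂ) = algebraMap ℂ (LaurentSeries ℂ) z := by
    rw [algebraMap_laurentSeries_eq_single]
    rfl
  rw [this]
  exact (laurentBaseChange ℂ F₀).algebraMap_mem _

theorem yC_mem (M : ℕ) (ψ : (ZMod c)ˣ →* ℂˣ) :
    yC H ψ ∈ laurentBaseChange ℂ (FHQ M c H) := by
  unfold yC
  refine sum_mem fun a _ => ?_
  rw [smul_eq_C_mul]
  exact mul_mem (C_mem_bc _ _) (coeffEmb_mem_laurentBaseChange ℂ (eisGen_mem_FHQ M c H a))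

/-- The denominator `C · E₄` of `RAn`. -/
def den4 : ℍ → ℂ := Fermat.Agent.NEB.H29.eisConst • ((E₄ : ModularForm 𝒮ℒ 4) : ℍ → ℂ)

theorem isW_den4 (M : ℕ) : IsW M 4 den4 := isW_smul (isW_levelOne M _) _

theorem den4_ne_zero : den4 ≠ 0 := by
  intro h
  apply E4_fun_ne_zero
  funext z
  have := congrFun h z
  simp only [den4, Pi.smul_apply, smul_eq_mul, Pi.zero_apply, mul_eq_zero] at this
  rcases this with h1 | h1
  · exact absurd h1 Fermat.Agent.NEB.H29.eisConst_ne_zero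
  · exact h1

theorem den4_slash (γ : SL(2, ℤ)) : den4 ∣[(4 : ℤ)] γ = den4 := by
  unfold den4
  rw [ModularForm.SL_smul_slash, slash_levelOne']

theorem qLaurent_den4 : qLaurent den4 =
    Fermat.Agent.NEB.H29.eisConst • qLaurent ((E₄ : ModularForm 𝒮ℒ 4) : ℍ → ℂ) := by
  unfold den4
  rw [qLaurent_smul (isW_levelOne 1 _).nice]

/-- `γ ∈ Γ₀(M)` maps `y_ψ` to `ψ(d_γ)⁻¹ y_ψ`. -/
theorem rel_yC [NeZero M] [Fact (1 < c)] (hc : c ∣ M) (ψ : (ZMod c)ˣ →* ℂˣ) (γ : Gamma0 M) :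
    Rel M (γ : SL(2, ℤ)) (yC H ψ)
      (HahnSeries.C ((ψ (_root_.Fermat.Agent.NEB.H34.dUnit hc γ)⁻¹ : ℂˣ) : ℂ) * yC H ψ) := by
  refine ⟨4, RAn H ψ, den4, isW_RAn H hc ψ, isW_den4 M, den4_ne_zero, ?_, ?_⟩
  · rw [qLaurent_RAn H hc ψ, qLaurent_den4]
  · rw [RAn_slash H hc ψ γ, den4_slash, qLaurent_smul (isW_RAn H hc ψ).nice,
      qLaurent_RAn H hc ψ, qLaurent_den4, smul_eq_C_mul, mul_assoc]

end YC

/-! ### Nonvanishing of `y_ψ` for `ψ` trivial on `±H` -/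

section YNe

variable [NeZero c] (H : Subgroup (ZMod c)ˣ)

open scoped Classical in
theorem coeff_one_eisGen (S : Set (ZMod c)) :
    (coeffEmb ℂ (eisGen c S)).coeff 1 = if (1 : ZMod c) ∈ S then 1 else 0 := by
  rw [coeffEmb_coeff, eisGen]
  have h1 : ((1 : ℕ) : ℤ) = 1 := Nat.cast_one
  rw [← h1, HahnSeries.ofPowerSeries_apply_coeff, PowerSeries.coeff_map, eisQuot,
    PowerSeries.coeff_mul]
  have h2 : ∀ f : ℕ × ℕ → ℤ, ∑ p ∈ Finset.HasAntidiagonal.antidiagonal (1 : ℕ), f p = f (0, 1) + f (1, 0) := by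
    intro f
    rw [Finset.Nat.sum_antidiagonal_succ, Finset.Nat.antidiagonal_zero, Finset.sum_singleton]
  rw [h2]
  have h3 : PowerSeries.coeff 0 (eisNum c S) = 0 := by
    rw [eisNum, PowerSeries.coeff_mk, eisCoeff]
    simp
  have h4 : PowerSeries.coeff 0 (eisenstein4.invOfUnit 1) = 1 := by
    rw [PowerSeries.coeff_zero_eq_constantCoeff_apply, PowerSeries.constantCoeff_invOfUnit]
    simp
  have h5 : PowerSeries.coeff 1 (eisNum c S) = if (1 : ZMod c) ∈ S then 1 else 0 := by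
    rw [eisNum, PowerSeries.coeff_mk, eisCoeff_one]
  rw [h3, h4, h5, zero_mul, zero_add, mul_one]
  split_ifs <;> simp

open scoped Classical in
theorem coeff_one_yC (ψ : (ZMod c)ˣ →* ℂˣ) :
    (yC H ψ).coeff 1 =
      ∑ a : (ZMod c)ˣ, if (a ∈ H ∨ -a ∈ H) then ((ψ a⁻¹ : ℂˣ) : ℂ) else 0 := by
  unfold yC
  rw [HahnSeries.coeff_sum]
  refine Finset.sum_congr rfl fun a _ => ?_
  rw [HahnSeries.coeff_smul, coeff_one_eisGen]
  by_cases h : (a ∈ H ∨ -a ∈ H)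
  · rw [if_pos h, if_pos ((one_mem_cosetSet_iff H a).mpr h), smul_eq_mul, mul_one]
  · rw [if_neg h, if_neg (fun h' => h ((one_mem_cosetSet_iff H a).mp h')), smul_zero]

theorem pm_inv {a : (ZMod c)ˣ} (h : a ∈ H ∨ -a ∈ H) : a⁻¹ ∈ H ∨ -a⁻¹ ∈ H := by
  rcases h with h | h
  · exact Or.inl (H.inv_mem h)
  · right
    have : -a⁻¹ = (-a)⁻¹ := by
      rw [eq_comm, inv_eq_iff_eq_inv, inv_neg, inv_inv]
    rw [this]
    exact H.inv_mem h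

theorem pm_mul {a b : (ZMod c)ˣ} (ha : a ∈ H ∨ -a ∈ H) (hb : b ∈ H ∨ -b ∈ H) :
    a * b ∈ H ∨ -(a * b) ∈ H := by
  rcases ha with ha | ha <;> rcases hb with hb | hb
  · exact Or.inl (H.mul_mem ha hb)
  · right
    have : -(a * b) = a * -b := by rw [mul_neg]
    rw [this]
    exact H.mul_mem ha hb
  · right
    have : -(a * b) = -a * b := by rw [neg_mul]
    rw [this]
    exact H.mul_mem ha hb
  · left
    have : a * b = -a * -b := by rw [neg_mul_neg]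
    rw [this]
    exact H.mul_mem ha hb

theorem pm_one : (1 : (ZMod c)ˣ) ∈ H ∨ -(1 : (ZMod c)ˣ) ∈ H := Or.inl H.one_mem

theorem yC_ne_zero (ψ : (ZMod c)ˣ →* ℂˣ)
    (hψ : ∀ u : (ZMod c)ˣ, (u ∈ H ∨ -u ∈ H) → ψ u = 1) : yC H ψ ≠ 0 := by
  classical
  intro h0
  have h1 := coeff_one_yC H ψ
  rw [h0, HahnSeries.coeff_zero] at h1
  have h2 : ∀ a : (ZMod c)ˣ, (if (a ∈ H ∨ -a ∈ H) then ((ψ a⁻¹ : ℂˣ) : ℂ) else 0)
      = if (a ∈ H ∨ -a ∈ H) then 1 else 0 := by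
    intro a
    by_cases h : (a ∈ H ∨ -a ∈ H)
    · rw [if_pos h, if_pos h, hψ _ (pm_inv H h), Units.val_one]
    · rw [if_neg h, if_neg h]
  rw [Finset.sum_congr rfl fun a _ => h2 a, Finset.sum_boole] at h1
  have h3 : (Finset.univ.filter fun a : (ZMod c)ˣ => (a ∈ H ∨ -a ∈ H)).card ≠ 0 := by
    rw [Finset.card_ne_zero]
    exact ⟨1, Finset.mem_filter.mpr ⟨Finset.mem_univ _, pm_one H⟩⟩
  exact h3 (Nat.cast_eq_zero.mp h1.symm)

end YNe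

/-! ### The ratios `(A ∣ γ) / (B ∣ γ)` -/

section XG

variable {k : ℤ} {A B : ℍ → ℂ}

/-- The ratio `(A ∣ γ) / (B ∣ γ)` of `q`-expansions. -/
def xg (k : ℤ) (A B : ℍ → ℂ) (γ : SL(2, ℤ)) : LaurentSeries ℂ :=
  qLaurent (A ∣[k] γ) / qLaurent (B ∣[k] γ)

theorem xg_one (k : ℤ) (A B : ℍ → ℂ) : xg k A B 1 = qLaurent A / qLaurent B := by
  unfold xg
  rw [SlashAction.slash_one, SlashAction.slash_one]

theorem xg_rel (hA : IsW M k A) (hB : IsW M k B) (hB0 : B ≠ 0) {γ γ' : SL(2, ℤ)}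
    (hγ : γ ∈ Gamma0 M) (hγ' : γ' ∈ Gamma0 M) :
    Rel M γ' (xg k A B γ) (xg k A B (γ * γ')) := by
  have hAγ := hA.slash_Gamma0 hγ
  have hBγ := hB.slash_Gamma0 hγ
  have n1 : qLaurent (B ∣[k] γ) ≠ 0 := qLaurent_ne_zero hBγ.nice (slash_ne_zero k γ hB0)
  have n2 : qLaurent (B ∣[k] (γ * γ')) ≠ 0 :=
    qLaurent_ne_zero (hB.slash_Gamma0 ((Gamma0 M).mul_mem hγ hγ')).nice (slash_ne_zero k _ hB0)
  refine ⟨k, A ∣[k] γ, B ∣[k] γ, hAγ, hBγ, slash_ne_zero k γ hB0, ?_, ?_⟩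
  · unfold xg
    field_simp
  · rw [← SlashAction.slash_mul, ← SlashAction.slash_mul]
    unfold xg
    field_simp

variable [NeZero M] [NeZero c] (H : Subgroup (ZMod c)ˣ) (hc : c ∣ M)

theorem a_mem_cosetSet (γ : Gamma0 M) (h : H34.dUnit hc γ ∈ H ∨ -H34.dUnit hc γ ∈ H) :
    ((((γ : SL(2, ℤ)) 0 0 : ℤ)) : ZMod c) ∈ cosetSet c H 1 := by
  have h1 := a_mul_dUnit hc γ
  have h2 : ((((γ : SL(2, ℤ)) 0 0 : ℤ)) : ZMod c) = (((H34.dUnit hc γ)⁻¹ : (ZMod c)ˣ) : ZMod c) := by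
    have h3 : (((H34.dUnit hc γ) : (ZMod c)ˣ) : ZMod c) * (((H34.dUnit hc γ)⁻¹ : (ZMod c)ˣ) : ZMod c)
        = 1 := by
      rw [← Units.val_mul, mul_inv_cancel, Units.val_one]
    calc ((((γ : SL(2, ℤ)) 0 0 : ℤ)) : ZMod c)
        = ((((γ : SL(2, ℤ)) 0 0 : ℤ)) : ZMod c) * ((((H34.dUnit hc γ) : (ZMod c)ˣ) : ZMod c)
            * (((H34.dUnit hc γ)⁻¹ : (ZMod c)ˣ) : ZMod c)) := by rw [h3, mul_one]
      _ = (((H34.dUnit hc γ)⁻¹ : (ZMod c)ˣ) : ZMod c) := by rw [← mul_assoc, h1, one_mul]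
  rw [h2]
  rcases h with h | h
  · exact ⟨(H34.dUnit hc γ)⁻¹, H.inv_mem h, Or.inl (by rw [one_mul])⟩
  · refine ⟨(-H34.dUnit hc γ)⁻¹, H.inv_mem h, Or.inr ?_⟩
    rw [one_mul, inv_neg, Units.val_neg, neg_neg]

variable (hA : IsW M k A) (hB : IsW M k B) (hB0 : B ≠ 0)
  (hinv : ∀ γ : SL(2, ℤ), γ ∈ Gamma0 M → ((γ 0 0 : ℤ) : ZMod c) ∈ cosetSet c H 1 →
      (A ∣[k] γ) * B = A * (B ∣[k] γ))

include hA hB hB0 hinv

theorem xg_fix (h : Gamma0 M) (hh : H34.dUnit hc h ∈ H ∨ -H34.dUnit hc h ∈ H) :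
    xg k A B (h : SL(2, ℤ)) = xg k A B 1 := by
  have h1 := hinv (h : SL(2, ℤ)) h.2 (a_mem_cosetSet H hc h hh)
  have hAh := hA.slash_Gamma0 h.2
  have hBh := hB.slash_Gamma0 h.2
  have h2 := congrArg qLaurent h1
  rw [qLaurent_mul hAh.nice hB.nice, qLaurent_mul hA.nice hBh.nice] at h2
  have n1 : qLaurent (B ∣[k] (h : SL(2, ℤ))) ≠ 0 :=
    qLaurent_ne_zero hBh.nice (slash_ne_zero k _ hB0)
  have n2 : qLaurent B ≠ 0 := qLaurent_ne_zero hB.nice hB0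
  rw [xg_one]
  unfold xg
  rw [div_eq_div_iff n1 n2]
  exact h2

theorem xg_mul_left (h γ : Gamma0 M) (hh : H34.dUnit hc h ∈ H ∨ -H34.dUnit hc h ∈ H) :
    xg k A B ((h * γ : Gamma0 M) : SL(2, ℤ)) = xg k A B (γ : SL(2, ℤ)) := by
  have h1 : Rel M (γ : SL(2, ℤ)) (xg k A B (h : SL(2, ℤ)))
      (xg k A B ((h : SL(2, ℤ)) * (γ : SL(2, ℤ)))) := xg_rel hA hB hB0 h.2 γ.2
  have h2 : Rel M (γ : SL(2, ℤ)) (xg k A B 1) (xg k A B (1 * (γ : SL(2, ℤ)))) :=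
    xg_rel hA hB hB0 (Gamma0 M).one_mem γ.2
  rw [xg_fix H hc hA hB hB0 hinv h hh] at h1
  rw [one_mul] at h2
  exact rel_unique γ.2 h1 h2

theorem xg_eq_of (γ₁ γ₂ : Gamma0 M)
    (h : H34.dUnit hc γ₁ * (H34.dUnit hc γ₂)⁻¹ ∈ H ∨ -(H34.dUnit hc γ₁ * (H34.dUnit hc γ₂)⁻¹) ∈ H) :
    xg k A B (γ₁ : SL(2, ℤ)) = xg k A B (γ₂ : SL(2, ℤ)) := by
  have h1 := xg_mul_left H hc hA hB hB0 hinv (γ₁ * γ₂⁻¹) γ₂ (by
    rw [map_mul, map_inv]
    exact h)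
  rw [inv_mul_cancel_right] at h1
  exact h1

end XG

/-! ### The functions `X u`, `u ∈ (ℤ/c)ˣ`, and their character sums -/

section XU

variable {k : ℤ} {A B : ℍ → ℂ}
variable [NeZero M] [NeZero c] (H : Subgroup (ZMod c)ˣ) (hc : c ∣ M)

theorem exists_rep (u : (ZMod c)ˣ) : ∃ γ : Gamma0 M, H34.dUnit hc γ = u := by
  obtain ⟨γ, hγ⟩ := H84.exists_gamma hc u
  refine ⟨γ, ?_⟩
  apply Units.ext
  rw [H34.coe_dUnit, ← hγ, H84.coe_dUnit]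

/-- A matrix in `Γ₀(M)` with `d ≡ u mod c`. -/
def rep (u : (ZMod c)ˣ) : Gamma0 M := (exists_rep hc u).choose

theorem dUnit_rep (u : (ZMod c)ˣ) : H34.dUnit hc (rep hc u) = u := (exists_rep hc u).choose_spec

/-- `X u = (A ∣ γ) / (B ∣ γ)` for any `γ ∈ Γ₀(M)` with `d_γ ≡ u mod c`. -/
def XU (k : ℤ) (A B : ℍ → ℂ) (u : (ZMod c)ˣ) : LaurentSeries ℂ :=
  xg k A B (rep hc u : SL(2, ℤ))

/-- The character sum `G_ψ = ∑_u ψ(u) X u`. -/
def GS (k : ℤ) (A B : ℍ → ℂ) (ψ : (ZMod c)ˣ →* ℂˣ) : LaurentSeries ℂ :=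
  ∑ u : (ZMod c)ˣ, HahnSeries.C ((ψ u : ℂˣ) : ℂ) * XU hc k A B u

variable (hA : IsW M k A) (hB : IsW M k B) (hB0 : B ≠ 0)
  (hinv : ∀ γ : SL(2, ℤ), γ ∈ Gamma0 M → ((γ 0 0 : ℤ) : ZMod c) ∈ cosetSet c H 1 →
      (A ∣[k] γ) * B = A * (B ∣[k] γ))

include hA hB hB0 hinv

theorem xg_eq_XU (γ : Gamma0 M) :
    xg k A B (γ : SL(2, ℤ)) = XU hc k A B (H34.dUnit hc γ) := by
  unfold XU
  refine xg_eq_of H hc hA hB hB0 hinv _ _ ?_
  rw [dUnit_rep, mul_inv_cancel]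
  exact pm_one H

theorem XU_mul (u p : (ZMod c)ˣ) (hp : p ∈ H ∨ -p ∈ H) :
    XU hc k A B (u * p) = XU hc k A B u := by
  unfold XU
  refine xg_eq_of H hc hA hB hB0 hinv _ _ ?_
  rw [dUnit_rep, dUnit_rep, mul_comm u p, mul_inv_cancel_right]
  exact hp

theorem XU_rel (u : (ZMod c)ˣ) (γ : Gamma0 M) :
    Rel M (γ : SL(2, ℤ)) (XU hc k A B u) (XU hc k A B (u * H34.dUnit hc γ)) := by
  have h1 : Rel M (γ : SL(2, ℤ)) (xg k A B (rep hc u : SL(2, ℤ)))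
      (xg k A B ((rep hc u : SL(2, ℤ)) * (γ : SL(2, ℤ)))) :=
    xg_rel hA hB hB0 (rep hc u).2 γ.2
  have h2 := xg_eq_XU H hc hA hB hB0 hinv (rep hc u * γ)
  rw [map_mul, dUnit_rep] at h2
  have h3 : ((rep hc u * γ : Gamma0 M) : SL(2, ℤ)) = (rep hc u : SL(2, ℤ)) * (γ : SL(2, ℤ)) :=
    rfl
  rw [h3] at h2
  rw [h2] at h1
  exact h1

theorem GS_rel (ψ : (ZMod c)ˣ →* ℂˣ) (γ : Gamma0 M) :
    Rel M (γ : SL(2, ℤ)) (GS hc k A B ψ)
      (HahnSeries.C ((ψ (H34.dUnit hc γ)⁻¹ : ℂˣ) : ℂ) * GS hc k A B ψ) := by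
  have h1 : Rel M (γ : SL(2, ℤ)) (GS hc k A B ψ)
      (∑ u : (ZMod c)ˣ, HahnSeries.C ((ψ u : ℂˣ) : ℂ) * XU hc k A B (u * H34.dUnit hc γ)) := by
    unfold GS
    exact _root_.Fermat.Agent.NEB.EIG.H46.rel_sum Finset.univ γ.2 _ _ fun u _ =>
      rel_mul γ.2 (rel_C M _ _) (XU_rel H hc hA hB hB0 hinv u γ)
  have h2 : (∑ u : (ZMod c)ˣ, HahnSeries.C ((ψ u : ℂˣ) : ℂ)
        * XU hc k A B (u * H34.dUnit hc γ))
      = HahnSeries.C ((ψ (H34.dUnit hc γ)⁻¹ : ℂˣ) : ℂ) * GS hc k A B ψ := by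
    unfold GS
    rw [Finset.mul_sum]
    refine Fintype.sum_equiv (Equiv.mulRight (H34.dUnit hc γ)) _ _ fun u => ?_
    simp only [Equiv.coe_mulRight]
    have e : (H34.dUnit hc γ)⁻¹ * (u * H34.dUnit hc γ) = u := by
      rw [mul_comm u, inv_mul_cancel_left]
    rw [← mul_assoc, ← map_mul, ← Units.val_mul, ← map_mul, e]
  rw [h2] at h1
  exact h1

/-- `G_ψ = 0` if `ψ` is not trivial on `±H`. -/
theorem GS_eq_zero (ψ : (ZMod c)ˣ →* ℂˣ) (p : (ZMod c)ˣ) (hp : p ∈ H ∨ -p ∈ H)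
    (hψ : ψ p ≠ 1) : GS hc k A B ψ = 0 := by
  have h1 : GS hc k A B ψ = HahnSeries.C ((ψ p : ℂˣ) : ℂ) * GS hc k A B ψ := by
    unfold GS
    rw [Finset.mul_sum]
    refine Fintype.sum_equiv (Equiv.mulRight p⁻¹) _ _ fun u => ?_
    simp only [Equiv.coe_mulRight]
    have e : p * (u * p⁻¹) = u := by
      rw [mul_comm u, mul_inv_cancel_left]
    rw [XU_mul H hc hA hB hB0 hinv u p⁻¹ (pm_inv H hp), ← mul_assoc, ← map_mul,
      ← Units.val_mul, ← map_mul, e]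
  have h2 : (1 - HahnSeries.C ((ψ p : ℂˣ) : ℂ)) * GS hc k A B ψ = 0 := by
    rw [sub_mul, one_mul, ← h1, sub_self]
  rcases mul_eq_zero.mp h2 with h3 | h3
  · exfalso
    apply hψ
    have h4 : (HahnSeries.C ((ψ p : ℂˣ) : ℂ) : LaurentSeries ℂ) = HahnSeries.C (1 : ℂ) := by
      rw [map_one]
      exact (sub_eq_zero.mp h3).symm
    exact Units.ext (HahnSeries.C_injective h4)
  · exact h3

/-- `G_ψ ∈ F_H · ℂ` if `ψ` is trivial on `±H`. -/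
theorem GS_mem_of_trivial [Fact (1 < c)] (ψ : (ZMod c)ˣ →* ℂˣ)
    (hψ : ∀ u : (ZMod c)ˣ, (u ∈ H ∨ -u ∈ H) → ψ u = 1) :
    GS hc k A B ψ ∈ laurentBaseChange ℂ (FHQ M c H) := by
  have hy := yC_ne_zero H ψ hψ
  have h1 : ∀ γ : SL(2, ℤ), γ ∈ Gamma0 M →
      Rel M γ (GS hc k A B ψ * (yC H ψ)⁻¹) (GS hc k A B ψ * (yC H ψ)⁻¹) := by
    intro γ hγ
    have h2 := rel_mul hγ (GS_rel H hc hA hB hB0 hinv ψ ⟨γ, hγ⟩)
      (rel_inv hγ (rel_yC H hc ψ ⟨γ, hγ⟩) hy)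
    have h3 : HahnSeries.C ((ψ (H34.dUnit hc ⟨γ, hγ⟩)⁻¹ : ℂˣ) : ℂ) ≠ (0 : LaurentSeries ℂ) := by
      intro h0
      have : (HahnSeries.C ((ψ (H34.dUnit hc ⟨γ, hγ⟩)⁻¹ : ℂˣ) : ℂ) : LaurentSeries ℂ)
          = HahnSeries.C (0 : ℂ) := by
        rw [map_zero]
        exact h0
      exact (ψ (H34.dUnit hc ⟨γ, hγ⟩)⁻¹).ne_zero (HahnSeries.C_injective this)
    have h4 : HahnSeries.C ((ψ (H34.dUnit hc ⟨γ, hγ⟩)⁻¹ : ℂˣ) : ℂ) * GS hc k A B ψ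
        * (HahnSeries.C ((ψ (H34.dUnit hc ⟨γ, hγ⟩)⁻¹ : ℂˣ) : ℂ) * yC H ψ)⁻¹
        = GS hc k A B ψ * (yC H ψ)⁻¹ := by
      rw [mul_inv, mul_mul_mul_comm, mul_inv_cancel₀ h3, one_mul]
    rw [h4] at h2
    exact h2
  have h5 := laurentBaseChange_mono (L := ℂ) (full_le_FHQ M c H) (mem_FNL_of_rel h1)
  have h6 : GS hc k A B ψ = GS hc k A B ψ * (yC H ψ)⁻¹ * yC H ψ := by
    rw [inv_mul_cancel_right₀ hy]
  rw [h6]
  exact mul_mem h5 (yC_mem H M ψ)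

theorem GS_mem [Fact (1 < c)] (ψ : (ZMod c)ˣ →* ℂˣ) :
    GS hc k A B ψ ∈ laurentBaseChange ℂ (FHQ M c H) := by
  by_cases hψ : ∀ u : (ZMod c)ˣ, (u ∈ H ∨ -u ∈ H) → ψ u = 1
  · exact GS_mem_of_trivial H hc hA hB hB0 hinv ψ hψ
  · push_neg at hψ
    obtain ⟨p, hp, hp1⟩ := hψ
    rw [GS_eq_zero H hc hA hB hB0 hinv ψ p hp hp1]
    exact zero_mem _

end XU

/-! ### Orthogonality and the statement -/

section Final

variable [NeZero M] [NeZero c] (hc : c ∣ M)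

theorem sum_GS (k : ℤ) (A B : ℍ → ℂ) :
    ∑ χ : DirichletCharacter ℂ c, GS hc k A B χ.toUnitHom
      = HahnSeries.C ((c.totient : ℂ)) * XU hc k A B 1 := by
  classical
  unfold GS
  rw [Finset.sum_comm]
  have h1 : ∀ u : (ZMod c)ˣ,
      ∑ χ : DirichletCharacter ℂ c, HahnSeries.C ((χ.toUnitHom u : ℂˣ) : ℂ) * XU hc k A B u
      = HahnSeries.C (if u = 1 then (c.totient : ℂ) else 0) * XU hc k A B u := by
    intro u
    rw [← Finset.sum_mul, ← map_sum]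
    congr 2
    simp only [MulChar.coe_toUnitHom]
    rw [DirichletCharacter.sum_characters_eq ℂ]
    simp only [Units.val_eq_one]
  rw [Finset.sum_congr rfl fun u _ => h1 u, Finset.sum_eq_single 1]
  · rw [if_pos rfl]
  · intro u _ hu
    rw [if_neg hu, map_zero, zero_mul]
  · intro h
    exact absurd (Finset.mem_univ _) h

end Final

/-- **A2-H**: a ratio of two forms of the same weight on `Γ₁(M)` which is invariant under `Γ_H`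
lies in `F_H · ℂ`. -/
theorem stmt_A2H (M c : ℕ) (H : Subgroup (ZMod c)ˣ) : H98.Stmt_A2H M c H := by
  intro hc2 hc hM k A B hA hB hB0 hinv
  haveI : NeZero M := ⟨hM⟩
  haveI : NeZero c := ⟨by omega⟩
  haveI : Fact (1 < c) := ⟨by omega⟩
  have n2 : qLaurent B ≠ 0 := qLaurent_ne_zero hB.nice hB0
  refine ⟨qLaurent A / qLaurent B, ?_, (div_mul_cancel₀ _ n2).symm⟩
  have h1 := sum_GS hc k A B
  have h2 : XU hc k A B 1 = qLaurent A / qLaurent B := by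
    have h := xg_eq_XU H hc hA hB hB0 hinv 1
    rw [map_one] at h
    rw [← h]
    exact xg_one k A B
  have h3 : (∑ χ : DirichletCharacter ℂ c, GS hc k A B χ.toUnitHom)
      ∈ laurentBaseChange ℂ (FHQ M c H) :=
    sum_mem fun χ _ => GS_mem H hc hA hB hB0 hinv _
  rw [h1, h2] at h3
  have hφ : (c.totient : ℂ) ≠ 0 :=
    Nat.cast_ne_zero.mpr (Nat.totient_pos.mpr (by omega)).ne'
  have hC : (HahnSeries.C (c.totient : ℂ) : LaurentSeries ℂ) ≠ 0 := by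
    intro h0
    have : (HahnSeries.C (c.totient : ℂ) : LaurentSeries ℂ) = HahnSeries.C (0 : ℂ) := by
      rw [map_zero]
      exact h0
    exact hφ (HahnSeries.C_injective this)
  have h4 : qLaurent A / qLaurent B = (HahnSeries.C (c.totient : ℂ) : LaurentSeries ℂ)⁻¹
      * (HahnSeries.C (c.totient : ℂ) * (qLaurent A / qLaurent B)) := by
    rw [inv_mul_cancel_left₀ hC]
  rw [h4]
  exact mul_mem (inv_mem (C_mem_bc _ _)) h3

end Fermat.Agent.NEB.EIG.H46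

end
end
-- ==== END Fermat.Agent.NEB.EIG.H46_A2H

-- ==== BEGIN Fermat.Agent.NEB.EIG.H98_A1H
section

/-!
# NEB / EIG, leaf EIG-MONO, part A1-H (helper98)

`stmt_A1H : Stmt_A1H M c H`: every `f ∈ F_H` (over `ℚ̄`) is a ratio `A / B` with `B ≠ 0` a modular
form on `Γ₀(M)` and `A` a form of the same weight on `Γ₁(M)`, invariant under
`Γ_H = {γ ∈ Γ₀(M) : a_γ ∈ ±H}`.

Also `slash_rep`: for any such representation and any `γ ∈ Γ₀(M)`, the ratio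
`(A ∣ γ) / B` represents `actHom γ f = ρ(a_γ) f`.
-/

set_option autoImplicit false
set_option linter.unusedSectionVars false

noncomputable section

namespace Fermat.Agent.NEB.EIG.H98

open AlgebraicCurve ModularCurve UpperHalfPlane CongruenceSubgroup Matrix.SpecialLinearGroup
open Fermat.Agent.NEB Fermat.Agent.NEB.JH Fermat.Agent.NEB.H84 Fermat.Agent.GTor
open Fermat.Agent.S23.H22 (Nice)
open Fermat.Agent.GTor.H56 (qLaurent_mul qLaurent_injective qLaurent_eq_zero_iff qLaurent_zero)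
open scoped MatrixGroups ModularForm Manifold

variable {M c : ℕ} [NeZero M] (H : Subgroup (ZMod c)ˣ) (ι : Kbar →+* ℂ)
  (hc2 : 2 ≤ c) (hc : c ∣ M)

/-- For a fixed representation `x = A / B` the action of `γ ∈ Γ₀(M)` is computed by slashing
`A` and `B`. -/
theorem rel_slash_of_rep {γ : SL(2, ℤ)} (hγ : γ ∈ Gamma0 M) {x y : LaurentSeries ℂ}
    (h : Rel M γ x y) {k : ℤ} {A B : ℍ → ℂ} (hA : IsW M k A) (hB : IsW M k B) (hB0 : B ≠ 0)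
    (hx : qLaurent A = x * qLaurent B) :
    qLaurent (A ∣[k] γ) = y * qLaurent (B ∣[k] γ) := by
  have nBγ : qLaurent (B ∣[k] γ) ≠ 0 :=
    qLaurent_ne_zero (hB.slash_Gamma0 hγ).nice (slash_ne_zero k γ hB0)
  have h2 : Rel M γ x (qLaurent (A ∣[k] γ) / qLaurent (B ∣[k] γ)) :=
    ⟨k, A, B, hA, hB, hB0, hx, by field_simp⟩
  have h3 := rel_unique hγ h h2
  rw [h3]
  field_simp

/-- `γ ∈ Γ₀(M)` with `a_γ ∈ ±H` acts trivially on `F_H`. -/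
theorem actHom_eq_id_of_mem {γ : SL(2, ℤ)} (hγ : γ ∈ Gamma0 M)
    (ha : ((γ 0 0 : ℤ) : ZMod c) ∈ cosetSet c H 1) (f : ↥(FHbar M c H)) :
    actHom H ι hc2 hc ⟨γ, hγ⟩ f = f := by
  rw [actHom_eq_rho, ← rho_apply]
  have hd : (dUnit hc γ hγ)⁻¹ ∈ H ∨ -(dUnit hc γ hγ)⁻¹ ∈ H := by
    obtain ⟨h, hh, h1 | h1⟩ := ha
    · left
      have : (dUnit hc γ hγ)⁻¹ = h := by
        apply Units.ext
        rw [one_mul] at h1
        rw [← h1]
        rfl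
      rw [this]
      exact hh
    · right
      have : -(dUnit hc γ hγ)⁻¹ = h := by
        apply Units.ext
        rw [one_mul] at h1
        rw [Units.val_neg]
        have h2 : (((dUnit hc γ hγ)⁻¹ : (ZMod c)ˣ) : ZMod c) = ((γ 0 0 : ℤ) : ZMod c) := rfl
        rw [h2, h1, neg_neg]
      rw [this]
      exact hh
  rw [(rho_eq_one_iff H ι hc2 hc _).mpr hd]
  rfl

/-- **A1-H**. -/
theorem stmt_A1H (M c : ℕ) (H : Subgroup (ZMod c)ˣ) : Stmt_A1H M c H := by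
  intro hc2 hc hM ι f
  have : NeZero M := ⟨hM⟩
  obtain ⟨y, hy, hrel⟩ := exists_relK H ι hc2 hc (Gamma0 M).one_mem f.2
  obtain ⟨k, A, B, hA, hB, hB0, hx, -⟩ := hrel
  obtain ⟨k', C, hC, hC0, hnorm⟩ := exists_norm hB hB0
  have hAC : IsW M (k + k') (A * C) := hA.mul hC
  have hBC : IsW M (k + k') (B * C) := hB.mul hC
  have hBC0 : B * C ≠ 0 := isW_mul_ne_zero hB hC hB0 hC0
  have hxBC : qLaurent (A * C) = coeffMap ι (f : LaurentSeries Kbar) * qLaurent (B * C) := by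
    rw [qLaurent_mul hA.nice hC.nice, qLaurent_mul hB.nice hC.nice, hx]
    ring
  set B₀ := toModularForm0 hBC hnorm with hB₀
  have hB₀0 : B₀ ≠ 0 := by
    intro h0
    apply hBC0
    have : (B₀ : ℍ → ℂ) = 0 := by rw [h0]; rfl
    rwa [hB₀, toModularForm0_coe] at this
  refine ⟨k + k', A * C, B₀, hAC, hB₀0, ?_, ?_⟩
  · intro γ hγ ha
    have hrelγ := actHom_rel H ι hc2 hc ⟨γ, hγ⟩ f
    rw [actHom_eq_id_of_mem H ι hc2 hc hγ ha f] at hrelγ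
    have h1 := rel_slash_of_rep hγ hrelγ hAC hBC hBC0 hxBC
    apply qLaurent_injective (hAC.slash_Gamma0 hγ).nice hAC.nice
    rw [h1, hnorm γ hγ, hxBC]
  · exact hxBC

end Fermat.Agent.NEB.EIG.H98

end
end
-- ==== END Fermat.Agent.NEB.EIG.H98_A1H

-- ==== BEGIN Fermat.Agent.NEB.H84_VRaise
section

/-!
# NEB, package FH-BETA, part 1 (helper84): the operator `V_ℓ` on forms on `Γ₁(M)`

For `A` a form on `Γ₁(M)`: `A ∣[k] diag(ℓ, 1)` (`= ℓ^(k-1) A(ℓ z)`) is a form on `Γ₁(M ℓ)`, with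
`q`-expansion `ℓ^(k-1) · (qLaurent A)(q^ℓ)`, and for `γ ∈ Γ₀(M ℓ)`:
`(A ∣ diag(ℓ,1)) ∣ γ = (A ∣ γ') ∣ diag(ℓ,1)`, `γ' = diag(ℓ,1) γ diag(ℓ,1)⁻¹ ∈ Γ₀(M)` (same diagonal).
Consequence `rel_beta` : `Rel M γ' x y → Rel (M ℓ) γ (x(q^ℓ)) (y(q^ℓ))`.
-/

set_option autoImplicit false
set_option linter.unusedSectionVars false

open UpperHalfPlane ModularForm CongruenceSubgroup ModularCurve
open scoped MatrixGroups ModularForm Manifold Pointwise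

noncomputable section

namespace Fermat.Agent.NEB.H84

open Fermat.Agent.S23.H22 (Nice conjGamma0 coe_conjGamma0 heckeDiag_mul_mapGL)
open Fermat.Agent.GTor (qLaurent)
open Fermat.Agent.GTor.H56 (qLaurent_mul qLaurent_injective qLaurent_eq_zero_iff qLaurent_zero)

local notation "ofPS" => HahnSeries.ofPowerSeries ℤ ℂ

/-! ### The `q`-expansion of `f ∣ diag(ℓ, 1)` -/

section QExp

variable (ℓ : ℕ) [NeZero ℓ] {k : ℤ} {f : ℍ → ℂ}

theorem nice_slash_diag (hf : Nice 1 f) : Nice 1 (f ∣[k] heckeDiagMatrix ℓ) := by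
  have hT : Nice 1 (heckeT k ℓ f) :=
    ⟨periodic_heckeT_comp_ofComplex hf.per k ℓ, mdifferentiable_heckeT hf.hol k ℓ,
      isBoundedAtImInfty_heckeT hf.bdd k ℓ⟩
  have hU : Nice 1 (heckeU k ℓ f) :=
    ⟨periodic_heckeU_comp_ofComplex hf.per k ℓ, mdifferentiable_heckeU hf.hol k ℓ,
      isBoundedAtImInfty_heckeU hf.bdd k ℓ⟩
  have heq : f ∣[k] heckeDiagMatrix ℓ = heckeT k ℓ f - heckeU k ℓ f := by
    rw [heckeT_eq_heckeU_add]; simp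
  rw [heq]
  exact hT.sub hU

theorem qExpansion_slash_diag_coeff (hf : Nice 1 f) (n : ℕ) :
    (qExpansion 1 (f ∣[k] heckeDiagMatrix ℓ)).coeff n =
      if ℓ ∣ n then (ℓ : ℂ) ^ (k - 1) * (qExpansion 1 f).coeff (n / ℓ) else 0 := by
  have hN : ℓ ≠ 0 := NeZero.ne ℓ
  have hT : Nice 1 (heckeT k ℓ f) :=
    ⟨periodic_heckeT_comp_ofComplex hf.per k ℓ, mdifferentiable_heckeT hf.hol k ℓ,
      isBoundedAtImInfty_heckeT hf.bdd k ℓ⟩
  have hU : Nice 1 (heckeU k ℓ f) :=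
    ⟨periodic_heckeU_comp_ofComplex hf.per k ℓ, mdifferentiable_heckeU hf.hol k ℓ,
      isBoundedAtImInfty_heckeU hf.bdd k ℓ⟩
  have heq : f ∣[k] heckeDiagMatrix ℓ = heckeT k ℓ f - heckeU k ℓ f := by
    rw [heckeT_eq_heckeU_add]; simp
  rw [heq, Nice.qExpansion_sub one_pos hT hU, map_sub]
  have h1 := UpperHalfPlane.qCoeff_heckeT hf.per hf.hol hf.bdd k hN n
  have h2 := UpperHalfPlane.qCoeff_heckeU hf.per hf.hol hf.bdd k hN n
  unfold ModularFormClass.qCoeff at h1 h2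
  rw [h1, h2, coeffHeckeT_eq_coeffHeckeU_add]
  simp

/-- The `q`-expansion of `f ∣[k] diag(ℓ, 1)`, as a Laurent series. -/
theorem qLaurent_slash_diag (hf : Nice 1 f) :
    qLaurent (f ∣[k] heckeDiagMatrix ℓ) =
      HahnSeries.C ((ℓ : ℂ) ^ (k - 1)) * qExpand ℂ ℓ (qLaurent f) := by
  have hd : 0 < ℓ := NeZero.pos ℓ
  rw [qLaurent, qLaurent]
  ext n
  rw [HahnSeries.C_mul_eq_smul, HahnSeries.coeff_smul, smul_eq_mul]
  rcases lt_or_ge n 0 with hn | hn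
  · rw [ModularCurve.ofPowerSeries_coeff_of_neg _ hn]
    by_cases hdn : (ℓ : ℤ) ∣ n
    · obtain ⟨m, rfl⟩ := hdn
      rw [qExpand_coeff_mul]
      have hm : m < 0 := by
        by_contra hm
        rw [not_lt] at hm
        have : (0 : ℤ) ≤ (ℓ : ℤ) * m := mul_nonneg (by positivity) hm
        omega
      rw [ModularCurve.ofPowerSeries_coeff_of_neg _ hm, mul_zero]
    · rw [qExpand_coeff_of_not_dvd _ _ hdn, mul_zero]
  · obtain ⟨m, rfl⟩ := Int.eq_ofNat_of_zero_le hn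
    rw [HahnSeries.ofPowerSeries_apply_coeff, qExpansion_slash_diag_coeff ℓ hf m]
    by_cases hdm : ℓ ∣ m
    · rw [if_pos hdm]
      obtain ⟨l, rfl⟩ := hdm
      rw [Nat.mul_div_cancel_left _ hd]
      push_cast
      rw [qExpand_coeff_mul, HahnSeries.ofPowerSeries_apply_coeff]
    · rw [if_neg hdm, qExpand_coeff_of_not_dvd, mul_zero]
      exact_mod_cast hdm

end QExp

/-! ### Conjugation by `diag(ℓ, 1)` -/

section Conj

variable {M : ℕ} (ℓ : ℕ) [NeZero ℓ]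

theorem mem_Gamma0_left {γ : SL(2, ℤ)} (hγ : γ ∈ Gamma0 (M * ℓ)) : γ ∈ Gamma0 ℓ :=
  mem_Gamma0_of_dvd (Dvd.intro_left M rfl) hγ

theorem conjGamma0_apply_11 (γ : SL(2, ℤ)) (hγ : γ ∈ Gamma0 ℓ) :
    (conjGamma0 ℓ γ hγ) 1 1 = γ 1 1 := by
  show (conjGamma0 ℓ γ hγ : Matrix (Fin 2) (Fin 2) ℤ) 1 1 = _
  rw [coe_conjGamma0]
  simp

theorem conjGamma0_apply_00 (γ : SL(2, ℤ)) (hγ : γ ∈ Gamma0 ℓ) :
    (conjGamma0 ℓ γ hγ) 0 0 = γ 0 0 := by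
  show (conjGamma0 ℓ γ hγ : Matrix (Fin 2) (Fin 2) ℤ) 0 0 = _
  rw [coe_conjGamma0]
  simp

theorem conjGamma0_apply_10 (γ : SL(2, ℤ)) (hγ : γ ∈ Gamma0 ℓ) :
    (conjGamma0 ℓ γ hγ) 1 0 = γ 1 0 / ℓ := by
  show (conjGamma0 ℓ γ hγ : Matrix (Fin 2) (Fin 2) ℤ) 1 0 = _
  rw [coe_conjGamma0]
  simp

theorem conjGamma0_mem_Gamma0 {γ : SL(2, ℤ)} (hγ : γ ∈ Gamma0 (M * ℓ)) :
    conjGamma0 ℓ γ (mem_Gamma0_left ℓ hγ) ∈ Gamma0 M := by
  rw [Gamma0_mem, conjGamma0_apply_10]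
  rw [Gamma0_mem, ZMod.intCast_zmod_eq_zero_iff_dvd] at hγ
  rw [ZMod.intCast_zmod_eq_zero_iff_dvd]
  obtain ⟨t, ht⟩ := hγ
  have hℓ : (ℓ : ℤ) ≠ 0 := by exact_mod_cast NeZero.ne ℓ
  refine ⟨t, ?_⟩
  rw [ht]
  push_cast
  rw [mul_comm (M : ℤ) (ℓ : ℤ), mul_assoc, Int.mul_ediv_cancel_left _ hℓ]

theorem conjGamma0_mem_Gamma1 {γ : SL(2, ℤ)} (hγ : γ ∈ Gamma1 (M * ℓ)) :
    conjGamma0 ℓ γ (mem_Gamma0_left ℓ (Gamma1_in_Gamma0 _ hγ)) ∈ Gamma1 M := by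
  have h0 := conjGamma0_mem_Gamma0 ℓ (Gamma1_in_Gamma0 _ hγ)
  rw [Gamma1_mem] at hγ ⊢
  have hdvd : M ∣ M * ℓ := Dvd.intro ℓ rfl
  have e : ∀ z : ℤ, (z : ZMod M) = ZMod.castHom hdvd (ZMod M) (z : ZMod (M * ℓ)) := by
    intro z
    simp
  refine ⟨?_, ?_, Gamma0_mem.mp h0⟩
  · rw [conjGamma0_apply_00, e, hγ.1, map_one]
  · rw [conjGamma0_apply_11, e, hγ.2.1, map_one]

theorem slash_diag_slash {k : ℤ} (A : ℍ → ℂ) (γ : SL(2, ℤ)) (hγ : γ ∈ Gamma0 ℓ) :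
    (A ∣[k] heckeDiagMatrix ℓ) ∣[k] γ = (A ∣[k] conjGamma0 ℓ γ hγ) ∣[k] heckeDiagMatrix ℓ := by
  have h : heckeDiagMatrix ℓ * Matrix.SpecialLinearGroup.toGL
        ((Matrix.SpecialLinearGroup.map (Int.castRingHom ℝ)) γ) =
      Matrix.SpecialLinearGroup.toGL
        ((Matrix.SpecialLinearGroup.map (Int.castRingHom ℝ)) (conjGamma0 ℓ γ hγ)) *
        heckeDiagMatrix ℓ := heckeDiag_mul_mapGL ℓ γ hγ
  rw [SL_slash, SL_slash, ← SlashAction.slash_mul, ← SlashAction.slash_mul, h]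

end Conj

/-! ### `V_ℓ` preserves forms on `Γ₁` -/

section VRaise

variable {M : ℕ} [NeZero M] (ℓ : ℕ) [NeZero ℓ] {k : ℤ} {A : ℍ → ℂ}

/-- A form on `Γ₁(M)` as a bundled modular form. -/
def toMF1 (hA : IsW M k A) : ModularForm ((Gamma1 M : Subgroup SL(2, ℤ)) : Subgroup (GL (Fin 2) ℝ)) k where
  toFun := A
  slash_action_eq' g hg := by
    obtain ⟨γ, hγ, rfl⟩ := hg
    have := hA.slash γ hγ
    rw [SL_slash] at this
    exact this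
  holo' := hA.mdiff
  bdd_at_cusps' {c} hc := by
    rw [Subgroup.IsArithmetic.isCusp_iff_isCusp_SL2Z] at hc
    rw [OnePoint.isBoundedAt_iff_forall_SL2Z hc]
    intro γ _
    exact hA.bdd γ

theorem G1_le_conj :
    ((Gamma1 (M * ℓ) : Subgroup SL(2, ℤ)) : Subgroup (GL (Fin 2) ℝ)) ≤
      ConjAct.toConjAct (heckeDiagMatrix ℓ)⁻¹ •
        ((Gamma1 M : Subgroup SL(2, ℤ)) : Subgroup (GL (Fin 2) ℝ)) := by
  intro h hh
  obtain ⟨γ, hγ, rfl⟩ := hh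
  rw [Subgroup.mem_pointwise_smul_iff_inv_smul_mem, ← map_inv, inv_inv, ConjAct.smul_def,
    ConjAct.ofConjAct_toConjAct]
  refine ⟨conjGamma0 ℓ γ (mem_Gamma0_left ℓ (Gamma1_in_Gamma0 _ hγ)),
    conjGamma0_mem_Gamma1 ℓ hγ, ?_⟩
  rw [eq_mul_inv_iff_mul_eq]
  exact (heckeDiag_mul_mapGL ℓ γ _).symm

/-- `A ∣ diag(ℓ,1)` as a bundled modular form on `Γ₁(M ℓ)`. -/
def vRaiseMF (hA : IsW M k A) :
    ModularForm ((Gamma1 (M * ℓ) : Subgroup SL(2, ℤ)) : Subgroup (GL (Fin 2) ℝ)) k where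
  toFun := A ∣[k] heckeDiagMatrix ℓ
  slash_action_eq' h hh := (ModularForm.translate (toMF1 hA) (heckeDiagMatrix ℓ)).slash_action_eq' h
    (G1_le_conj ℓ hh)
  holo' := (ModularForm.translate (toMF1 hA) (heckeDiagMatrix ℓ)).holo'
  bdd_at_cusps' hc := (ModularForm.translate (toMF1 hA) (heckeDiagMatrix ℓ)).bdd_at_cusps'
    (hc.mono (G1_le_conj ℓ))

theorem IsW.vRaise (hA : IsW M k A) : IsW (M * ℓ) k (A ∣[k] heckeDiagMatrix ℓ) where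
  mdiff := (vRaiseMF ℓ hA).holo'
  slash γ hγ := by
    rw [SL_slash]
    exact SlashInvariantFormClass.slash_action_eq (vRaiseMF ℓ hA) _ ⟨γ, hγ, rfl⟩
  bdd σ := ModularFormClass.bdd_at_infty_slash (vRaiseMF ℓ hA) σ

theorem slash_diag_ne_zero (hA : IsW M k A) (hA0 : A ≠ 0) : A ∣[k] heckeDiagMatrix ℓ ≠ 0 := by
  intro h0
  have h1 := congrArg qLaurent h0
  rw [qLaurent_slash_diag ℓ hA.nice, qLaurent_zero] at h1
  rcases mul_eq_zero.mp h1 with h2 | h2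
  · have hℓ : (ℓ : ℂ) ≠ 0 := by exact_mod_cast NeZero.ne ℓ
    have : (ℓ : ℂ) ^ (k - 1) = 0 :=
      (map_eq_zero (HahnSeries.C : ℂ →+* LaurentSeries ℂ)).mp h2
    exact zpow_ne_zero _ hℓ this
  · have : qLaurent A = 0 := by
      apply qExpand_injective (R := ℂ) ℓ
      rw [h2, map_zero]
    exact qLaurent_ne_zero hA.nice hA0 this

/-- **`β` intertwines the slash actions.** -/
theorem rel_beta {γ : SL(2, ℤ)} (hγ : γ ∈ Gamma0 (M * ℓ)) {x y : LaurentSeries ℂ}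
    (h : Rel M (conjGamma0 ℓ γ (mem_Gamma0_left ℓ hγ)) x y) :
    Rel (M * ℓ) γ (qExpand ℂ ℓ x) (qExpand ℂ ℓ y) := by
  obtain ⟨k, A, B, hA, hB, hB0, hx, hy⟩ := h
  have hγ' := conjGamma0_mem_Gamma0 (M := M) ℓ hγ
  refine ⟨k, A ∣[k] heckeDiagMatrix ℓ, B ∣[k] heckeDiagMatrix ℓ, hA.vRaise ℓ, hB.vRaise ℓ,
    slash_diag_ne_zero ℓ hB hB0, ?_, ?_⟩
  · rw [qLaurent_slash_diag ℓ hA.nice, qLaurent_slash_diag ℓ hB.nice, hx, map_mul]
    ring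
  · rw [slash_diag_slash ℓ A γ (mem_Gamma0_left ℓ hγ),
      slash_diag_slash ℓ B γ (mem_Gamma0_left ℓ hγ),
      qLaurent_slash_diag ℓ (hA.slash_Gamma0 hγ').nice,
      qLaurent_slash_diag ℓ (hB.slash_Gamma0 hγ').nice, hy, map_mul]
    ring

end VRaise

end Fermat.Agent.NEB.H84

end
end
-- ==== END Fermat.Agent.NEB.H84_VRaise
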