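-- GENERATED (merged mirror, NOTES/tools/trim/merge3_helper67.py): 5 modules of the originals, bodies verbatim.
import Fermat.Agent.Zm.S48_L08_000
import Fermat.Agent.Zm.S48_L10_000
import Fermat.Agent.Zm.S48_L09_000
import Fermat.Agent.Zm.S35_L04_001
import Fermat.Agent.Zm.S35_L02_000
import Fermat.Agent.Zm.S48_L06_001
import Fermat.Agent.Zm.S35_L01_000

-- ==== BEGIN Fermat.Agent.NEB.EIG.H12_Diam1
section

/-!
# NEB / EIG, leaf MONO-DIAM1 (helper12)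

If `f ∈ F_H` has character `φ` (root `R`, `ι f = (R / B)ⁿ`), then `⟨d⟩ f = ρ(d) f` has character
`φ ∘ conj_g` for `g ∈ Γ₀(M)` with `a_g ≡ d mod c`: the root is `R ∣ g`.

* `rho_eq_actHom` : `dd.ρ d = actHom ⟨g, _⟩` (any `DiamondData`);
* `isTw1_slash` : `R ∣ g` has multiplier `ζ^(φ ∘ conj_g)`;
* `stmt_DIAM1 : Stmt_DIAM1 M c H n`.
-/

set_option autoImplicit false
set_option linter.unusedSectionVars false
set_option linter.unusedVariables false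
set_option linter.style.haveILetI false

open UpperHalfPlane ModularForm CongruenceSubgroup ModularCurve AlgebraicCurve
open Matrix.SpecialLinearGroup
open scoped MatrixGroups ModularForm Manifold

noncomputable section

namespace Fermat.Agent.NEB.EIG.H12

open Fermat.Agent.S23.H22 (Nice)
open Fermat.Agent.GTor
open Fermat.Agent.GTor.H56 (qLaurent_mul qLaurent_injective qLaurent_eq_zero_iff qLaurent_zero
  qLaurent_pow nice_of_gamma0 zetaPow_zero zetaPow_add zetaPow_pow zetaPow_injective)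
open Fermat.Agent.NEB Fermat.Agent.NEB.JH Fermat.Agent.NEB.H84 Fermat.Agent.NEB.EIG.H39
  Fermat.Agent.NEB.EIG.H98 Fermat.Agent.NEB.EIG.H34

variable {M c n : ℕ} {H : Subgroup (ZMod c)ˣ}

/-- Any diamond datum is the analytic action: `dd.ρ d = actHom g` for `g ∈ Γ₀(M)`,
`a_g ≡ d mod c`. -/
theorem rho_eq_actHom [NeZero M] (ι : Kbar →+* ℂ) (hc2 : 2 ≤ c) (hc : c ∣ M)
    (dd : DiamondData M c H) (d : (ZMod c)ˣ) {g : SL(2, ℤ)} (hg : g ∈ Gamma0 M)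
    (hgd : ((g 0 0 : ℤ) : ZMod c) = (d : ZMod c)) (x : ↥(FHbar M c H)) :
    dd.ρ d x = actHom H ι hc2 hc ⟨g, hg⟩ x := by
  have hd : (dUnit hc g hg)⁻¹ = d := by
    apply Units.ext
    rw [← hgd]
    rfl
  rw [actHom_eq_rho]
  show dd.ρ d x = rhoHom H ι hc2 hc (dUnit hc g hg)⁻¹ x
  rw [hd]
  have key := Fermat.Agent.NEB.H84.ringHom_ext_FHbar H
    ((dd.ρ d : ↥(FHbar M c H) ≃ₐ[Kbar] ↥(FHbar M c H)) : ↥(FHbar M c H) →+* ↥(FHbar M c H))
    ((rhoHom H ι hc2 hc d : ↥(FHbar M c H) →ₐ[Kbar] ↥(FHbar M c H)) :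
      ↥(FHbar M c H) →+* ↥(FHbar M c H))
    ?_ ?_ ?_
  · exact congrArg (fun f : ↥(FHbar M c H) →+* ↥(FHbar M c H) => f x) key
  · intro a
    simp only [RingHom.coe_coe, AlgEquiv.commutes, AlgHom.commutes]
  · intro y
    simp only [RingHom.coe_coe]
    rw [dd.fix, rhoHom_incl]
  · intro a
    simp only [RingHom.coe_coe]
    rw [dd.gen, rhoHom_gen]

/-- `conjEnd` of `g ∈ Γ₀(M)` on `Gam1 M c` is conjugation by `g` in `SL(2, ℤ)`. -/
theorem coe_conjEnd_gam0 (hc : c ∣ M) {g : SL(2, ℤ)} (hg : (M : ℤ) ∣ g 1 0) (γ : Gam1 M c) :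
    ((conjEnd (inc_injective (Gam1 M c)) ⟨mapGL ℝ g, gam0_mem_Nrm hc hg⟩ γ : Gam1 M c) :
      SL(2, ℤ)) = g * (γ : SL(2, ℤ)) * g⁻¹ := by
  apply Betti.mapGL_real_injective
  have h := e_conjEnd (inc_injective (Gam1 M c)) ⟨mapGL ℝ g, gam0_mem_Nrm hc hg⟩ γ
  rw [inc_apply, inc_apply] at h
  rw [h, map_mul, map_mul, map_inv]

/-- the root `R ∣ g` has multiplier `ζ^(φ ∘ conj_g)`. -/
theorem isTw1_slash (hc : c ∣ M) {k : ℤ} {φ : Additive (Gam1 M c) →+ ZMod n} {R : ℍ → ℂ}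
    (hR : IsTw1 M c n k φ R) {g : SL(2, ℤ)} (hg : (M : ℤ) ∣ g 1 0) :
    IsTw1 M c n k (Dadd hc g hg φ) (R ∣[k] g) where
  mdiff := by
    rw [SL_slash]
    exact hR.mdiff.slash k _
  bdd σ := by
    rw [← SlashAction.slash_mul]
    exact hR.bdd (g * σ)
  slash γ := by
    have h1 : g * (γ : SL(2, ℤ)) = (g * (γ : SL(2, ℤ)) * g⁻¹) * g := by group
    have h2 : Dadd hc g hg φ (Additive.ofMul γ)
        = φ (Additive.ofMul (conjEnd (inc_injective (Gam1 M c))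
            ⟨mapGL ℝ g, gam0_mem_Nrm hc hg⟩ γ)) := rfl
    rw [← SlashAction.slash_mul, h1, SlashAction.slash_mul, ← coe_conjEnd_gam0 hc hg γ,
      hR.slash, h2]
    funext z
    simp only [SL_slash_apply, Pi.smul_apply, smul_eq_mul]
    ring

/-- **MONO-DIAM1**. -/
theorem stmt_DIAM1 (M c : ℕ) (H : Subgroup (ZMod c)ˣ) (n : ℕ) : Stmt_DIAM1 M c H n := by
  intro hc2 hc hM hn ι dd d g hg hgd f φ hf hchar
  haveI : NeZero M := ⟨hM⟩
  have hg0 : g ∈ Gamma0 M := Betti.mem_Gamma0_of_dvd hg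
  obtain ⟨k, R, B, hR, hB0, e⟩ := hasChar1_iff.mp hchar
  have hA : IsW M ((n : ℤ) * k) (fun z => R z ^ n) := hR.isW_pow hc
  have hBtw : IsTw1 M c n k 0 (B : ℍ → ℂ) := isTw1_of_modularForm B
  have hB : IsW M ((n : ℤ) * k) (fun z => B z ^ n) := hBtw.isW_pow hc
  have hBne : (fun z => B z ^ n) ≠ 0 := by
    intro h0
    have h1 := qLaurent_modularForm_pow_ne_zero (M := M) (n := n) hB0 hn
    rw [h0] at h1
    exact h1 qLaurent_zero
  have hrel := actHom_rel H ι hc2 hc ⟨g, hg0⟩ f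
  have h2 := rel_slash_of_rep hg0 hrel hA hB hBne e
  rw [Fermat.Agent.GTor.H56.slash_pow_SL, Fermat.Agent.GTor.H56.slash_pow_SL,
    slash_modularForm B hg0] at h2
  rw [rho_eq_actHom ι hc2 hc dd d hg0 hgd f]
  exact hasChar1_iff.mpr ⟨k, R ∣[k] g, B, isTw1_slash hc hR hg, hB0, h2⟩

end Fermat.Agent.NEB.EIG.H12

end
end
-- ==== END Fermat.Agent.NEB.EIG.H12_Diam1

-- ==== BEGIN Fermat.Agent.NEB.EIG.H39_Step4
section

/-!
# NEB / EIG (helper39): the twisting step at one prime `q`, properties of `stepMap`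

* `resK_stepMap`   : `res_{K₂ → Γ'} (S φ) = [K₂ : Γ'] • Tw_χ (res φ)`;
* `stepMap_isEig`  : `D_g (S φ) = ω(g) S φ` for `g ∈ Γ₀(q m q)`;
* `stepMap_TD`     : `T_ℓ (S φ) = χ(ℓ)⁻¹ S (T_ℓ φ)`;
* `stepMap_isPar`  : `S φ` is parabolic if `φ` is.
-/

set_option autoImplicit false

namespace Fermat.Agent.NEB.EIG.H39

open CongruenceSubgroup Matrix.SpecialLinearGroup ModularForm Finset
open scoped MatrixGroups
open P2MW.S_ModularForm_heckeT_slash_eq_self_of_mem_Gamma0.ModularForm.HeckeSlashInvariance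
open Fermat.Agent.Betti ModularCurve.Period
open scoped OnePoint

section DopApply

variable {L₂ c : ℕ} {L : Type*} [Field L]

theorem Dop_inv_apply_apply (hc : c ∣ L₂) (g : SL(2, ℤ)) (hg : (L₂ : ℤ) ∣ (g⁻¹ : SL(2, ℤ)) 1 0)
    (φ : Additive (Gam1 L₂ c) →+ L) (h : Gam1 L₂ c)
    (hh : g⁻¹ * (h : SL(2, ℤ)) * g ∈ Gam1 L₂ c) :
    Dop hc g⁻¹ hg φ (Additive.ofMul h) = φ (Additive.ofMul ⟨g⁻¹ * (h : SL(2, ℤ)) * g, hh⟩) := by
  rw [Dop_apply, tw_apply]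
  congr 2
  apply inc_injective
  rw [e_conjEnd]
  simp only [inc_apply, map_mul, map_inv, inv_inv]

theorem dvd_inv10 {g : SL(2, ℤ)} (hg : (L₂ : ℤ) ∣ g 1 0) : (L₂ : ℤ) ∣ (g⁻¹ : SL(2, ℤ)) 1 0 := by
  rw [sl_inv_10]
  exact (dvd_neg).mpr hg

end DopApply

section Step

variable {q m c₁ : ℕ} {L : Type*} [Field L] [CharZero L]
variable (hq : q.Prime) (hqm : ¬ q ∣ m) (hc₁ : c₁ ∣ m) (χ : MulChar (ZMod q) L)
  (ω : SL(2, ℤ) → L)

/-- The index of `Γ'` in `K₂`. -/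
noncomputable def stepIdx (q m c₁ : ℕ) : ℕ :=
  (Subgroup.inclusion (step_hle2 q m c₁)).range.index

include hq hqm hc₁ in
theorem stepIdx_ne_zero : stepIdx q m c₁ ≠ 0 := by
  haveI := step_neZero hq hqm
  haveI := finiteIndex_inclusion (step_hle2 q m c₁) (step_hN hc₁)
  exact Subgroup.FiniteIndex.index_ne_zero

omit [CharZero L] in
include hqm in
/-- (L2) `res (S φ) = index • w`. -/
theorem resK_stepMap (hω : ∀ g ∈ Gam1 (q * m * q) c₁, ω g = 1)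
    {φ : Additive (Gam1 (q * m) (q * c₁)) →+ L}
    (hφ : IsEig (q * m) (q * c₁) (step_hcK1 hc₁)
      (fun g => χ ((g 0 0 : ℤ) : ZMod q) ^ 2 * ω g) φ) :
    resK (step_hle2 q m c₁) (stepMap hq hc₁ χ φ) = stepIdx q m c₁ • stepW hq hc₁ χ φ := by
  haveI := step_neZero hq hqm
  rw [stepMap_eq]
  refine resK_corAlong (step_hle2 q m c₁) (step_hN hc₁) ?_ _ ?_
  · intro g hg h hh
    have := gam0_conj_mem (step_hcG hc₁) (dvd_inv10 hg.1) hh
    rwa [inv_inv] at this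
  · intro g hg h hh
    have h1 := stepW_isEig hq hc₁ χ ω hφ g⁻¹ (dvd_inv10 hg.1)
    have h2 := congrArg (fun ψ : Additive (Gam1 (q * m * q) (q * c₁)) →+ L =>
      ψ (Additive.ofMul h)) h1
    simp only [AddMonoidHom.smul_apply] at h2
    rw [Dop_inv_apply_apply (step_hcG hc₁) g _ _ h hh, hω _ (Subgroup.inv_mem _ hg), one_smul] at h2
    exact h2

include hqm in
/-- (L3) `S φ` is an eigenvector of the diamond operators with weight `ω`. -/
theorem stepMap_isEig (hω : ∀ g ∈ Gam1 (q * m * q) c₁, ω g = 1)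
    {φ : Additive (Gam1 (q * m) (q * c₁)) →+ L}
    (hφ : IsEig (q * m) (q * c₁) (step_hcK1 hc₁)
      (fun g => χ ((g 0 0 : ℤ) : ZMod q) ^ 2 * ω g) φ) :
    IsEig (q * m * q) c₁ (step_hcK2 hc₁) ω (stepMap hq hc₁ χ φ) := by
  haveI := step_neZero hq hqm
  intro g hg
  apply resK_inj (step_hle2 q m c₁) (step_hN hc₁)
  rw [resK_Dop (step_hcK2 hc₁) (step_hcG hc₁) (step_hle2 q m c₁) g hg hg, resK_smul,
    resK_stepMap hq hqm hc₁ χ ω hω hφ]
  have h1 := stepW_isEig hq hc₁ χ ω hφ g hg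
  rw [map_nsmul, h1, smul_comm]

include hqm in
/-- (L6) `S φ` is parabolic if `φ` is. -/
theorem stepMap_isPar (hω : ∀ g ∈ Gam1 (q * m * q) c₁, ω g = 1)
    {φ : Additive (Gam1 (q * m) (q * c₁)) →+ L}
    (hφ : IsEig (q * m) (q * c₁) (step_hcK1 hc₁)
      (fun g => χ ((g 0 0 : ℤ) : ZMod q) ^ 2 * ω g) φ)
    (hpar : IsParabolicHom (Gam1 (q * m) (q * c₁)) φ) :
    IsParabolicHom (Gam1 (q * m * q) c₁) (stepMap hq hc₁ χ φ) := by
  haveI := step_neZero hq hqm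
  haveI : Fact q.Prime := ⟨hq⟩
  refine isPar_of_resK (step_hle2 q m c₁) (step_hN hc₁) (fun n a hn ha => ?_) ?_
  · rw [nsmul_eq_mul] at ha
    rcases mul_eq_zero.mp ha with h' | h'
    · exact absurd (Nat.cast_eq_zero.mp h') hn
    · exact h'
  rw [resK_stepMap hq hqm hc₁ χ ω hω hφ]
  apply isPar_smul
  have h0 := isPar_resK (step_hle1 q m c₁) hpar
  unfold stepW
  by_cases hχ : χ = 1
  · rw [tqOp_one hq hc₁ hχ]
    exact h0
  · rw [tqOp_ne hq hc₁ hχ, twOp_apply]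
    refine isPar_sum _ _ fun u _ => isPar_smul _ ?_
    exact isPar_tw _ h0

include hqm in
/-- (L5) `T_ℓ (S φ) = χ(ℓ)⁻¹ S (T_ℓ φ)`. -/
theorem stepMap_TD (hω : ∀ g ∈ Gam1 (q * m * q) c₁, ω g = 1)
    {φ : Additive (Gam1 (q * m) (q * c₁)) →+ L}
    (hφ : IsEig (q * m) (q * c₁) (step_hcK1 hc₁)
      (fun g => χ ((g 0 0 : ℤ) : ZMod q) ^ 2 * ω g) φ)
    {ℓ : ℕ} (hℓ : ℓ.Prime) (hℓ1 : ¬ ℓ ∣ q * m) (hℓ2 : ¬ ℓ ∣ q * m * q) :
    TD (q * m * q) c₁ (step_hcK2 hc₁) hℓ hℓ2 (stepMap hq hc₁ χ φ)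
      = (χ (ℓ : ZMod q))⁻¹ • stepMap hq hc₁ χ (TD (q * m) (q * c₁) (step_hcK1 hc₁) hℓ hℓ1 φ) := by
  haveI := step_neZero hq hqm
  haveI : Fact q.Prime := ⟨hq⟩
  apply resK_inj (step_hle2 q m c₁) (step_hN hc₁)
  have hT := hφ.TD hℓ hℓ1
  have e1 := resK_TD (L := L) (step_hcK2 hc₁) (step_hcG hc₁) (dvd_refl (q * m * q))
    (dvd_mul_left c₁ q) hℓ hℓ2 hℓ2 (stepMap hq hc₁ χ φ)
  have e2 := resK_TD (L := L) (step_hcK1 hc₁) (step_hcG hc₁) (dvd_mul_right (q * m) q)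
    (dvd_refl (q * c₁)) hℓ hℓ1 hℓ2 φ
  change resK (step_hle2 q m c₁) _ = _ at e1
  change resK (step_hle1 q m c₁) _ = _ at e2
  rw [e1, resK_smul, resK_stepMap hq hqm hc₁ χ ω hω hφ, resK_stepMap hq hqm hc₁ χ ω hω hT,
    map_nsmul, smul_comm]
  congr 1
  unfold stepW
  rw [e2]
  by_cases hχ : χ = 1
  · rw [tqOp_one hq hc₁ hχ, LinearMap.id_apply, LinearMap.id_apply]
    have hℓq : ℓ ≠ q := fun h => hℓ1 (h ▸ dvd_mul_right q m)
    have hunit : IsUnit ((ℓ : ZMod q)) := by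
      rw [ZMod.isUnit_iff_coprime]
      exact (Nat.coprime_primes hℓ hq).mpr hℓq
    rw [hχ, MulChar.one_apply hunit, inv_one, one_smul]
  · rw [tqOp_ne hq hc₁ hχ]
    exact TD_twOp hq.ne_zero (dvd_mul_right q c₁) (step_hcq hc₁) (step_hcG hc₁) χ hℓ hℓ2 _

end Step

end Fermat.Agent.NEB.EIG.H39

end
-- ==== END Fermat.Agent.NEB.EIG.H39_Step4

-- ==== BEGIN Fermat.Agent.NEB.EIG.H46_Inj1
section

/-!
# NEB / EIG-MONO, leaf INJ1 (helper46): a function with trivial character on `Gam1 M c` has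
`f ^ |H|` an `n`-th power in `F_H`

Plan: `NOTES/plan/NEB_EIG_MONO.md`.  Let `ι f = (R / B)ⁿ`, `R` of weight `k` invariant under
`Gam1 M c = Γ₀(M) ∩ Γ₁(c)`.  For `γ ∈ Γ_H` (`a_γ ∈ ±H`), `ι f` is `γ`-invariant (A1-H), so
`(R ∣ γ)ⁿ = Rⁿ`, i.e. `R ∣ γ = ζ R` for an `n`-th root of unity `ζ`.  As `γ^|H|` or `(-γ)^|H|` lies
in `Gam1 M c` and `-1` acts trivially (`B ≠ 0` lives on `Γ₀(M) ∋ -1`), `ζ^|H| = 1`.  Hence
`R^|H| / B^|H|` is `Γ_H`-invariant and lies in `F_H · ℂ` (A2-H); it is an `n`-th root of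
`ι (f^|H|)`, which descends to `F_H` over `ℚ̄` (DESC-ROOT).
-/

set_option autoImplicit false

open UpperHalfPlane ModularForm CongruenceSubgroup ModularCurve
open scoped MatrixGroups ModularForm Manifold

noncomputable section

namespace Fermat.Agent.NEB.EIG.H46

open Fermat.Agent.S23.H22 (Nice)
open Fermat.Agent.GTor (qLaurent zetaPow)
open Fermat.Agent.GTor.H56 (qLaurent_mul qLaurent_injective qLaurent_eq_zero_iff qLaurent_zero
  qLaurent_pow)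
open Fermat.Agent.NEB Fermat.Agent.NEB.H84 Fermat.Agent.NEB.H34 Fermat.Agent.NEB.EIG.H39

variable {M c : ℕ}

/-! ### Generalities -/

theorem slash_neg_one_eq (k : ℤ) (f : ℍ → ℂ) :
    f ∣[k] (-1 : SL(2, ℤ)) = (-1 : ℂ) ^ (-k) • f := by
  funext z
  rw [SL_slash_apply]
  have h2 : denom ((-1 : SL(2, ℤ))) z = -1 := by
    rw [ModularGroup.denom_apply]
    simp
  have h3 : ((-1 : SL(2, ℤ))) • z = z := by
    rw [ModularGroup.SL_neg_smul, one_smul]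
  rw [h2, h3, Pi.smul_apply, smul_eq_mul, mul_comm]

theorem neg_one_mem_Gamma0_h46 (M : ℕ) : (-1 : SL(2, ℤ)) ∈ Gamma0 M := by
  rw [Gamma0_mem]
  simp

/-- The `n`-th roots of unity of `ℂ((q))` are constants. -/
theorem exists_C_of_pow_eq_one {n : ℕ} (hn : n ≠ 0) (u : LaurentSeries ℂ) (hu : u ^ n = 1) :
    ∃ ζ : ℂ, ζ ^ n = 1 ∧ u = HahnSeries.C ζ := by
  obtain ⟨ζ₀, hprim⟩ : ∃ ζ₀ : ℂ, IsPrimitiveRoot ζ₀ n := ⟨_, Complex.isPrimitiveRoot_exp n hn⟩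
  have hprim' : IsPrimitiveRoot ((HahnSeries.C : ℂ →+* LaurentSeries ℂ) ζ₀) n :=
    hprim.map_of_injective HahnSeries.C_injective
  haveI : NeZero n := ⟨hn⟩
  obtain ⟨i, -, hi⟩ := hprim'.eq_pow_of_pow_eq_one hu
  refine ⟨ζ₀ ^ i, ?_, ?_⟩
  · rw [← pow_mul, mul_comm, pow_mul, hprim.pow_eq_one, one_pow]
  · rw [← hi, map_pow]

theorem isW_pow_h46 {k : ℤ} {B : ℍ → ℂ} (hB : IsW M k B) (m : ℕ) :
    IsW M (m * k) (fun z => B z ^ m) := by
  show IsW M (m * k) (B ^ m)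
  induction m with
  | zero => simpa using isW_one M
  | succ m ih =>
    have := ih.mul hB
    have e : ((m + 1 : ℕ) : ℤ) * k = m * k + k := by push_cast; ring
    rw [e, pow_succ]
    exact this

theorem Gamma1_le_Gam1_h46 (hc : c ∣ M) : Gamma1 M ≤ Gam1 M c := by
  intro γ hγ
  rw [Gamma1_mem] at hγ
  obtain ⟨h1, h2, h3⟩ := hγ
  have e1 : (M : ℤ) ∣ γ 1 0 := (ZMod.intCast_zmod_eq_zero_iff_dvd _ _).mp h3
  have e2 : (M : ℤ) ∣ γ 0 0 - 1 := by
    rw [← ZMod.intCast_zmod_eq_zero_iff_dvd]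
    push_cast
    rw [h1, sub_self]
  have hcM : (c : ℤ) ∣ (M : ℤ) := Int.natCast_dvd_natCast.mpr hc
  exact ⟨e1, hcM.trans e1, hcM.trans e2⟩

/-! ### Multipliers -/

section Mult

variable {k : ℤ} {R : ℍ → ℂ}

theorem mult_mul {γ γ' : SL(2, ℤ)} {ζ ζ' : ℂ} (h : R ∣[k] γ = ζ • R) (h' : R ∣[k] γ' = ζ' • R) :
    R ∣[k] (γ * γ') = (ζ * ζ') • R := by
  rw [SlashAction.slash_mul, h, ModularForm.SL_smul_slash, h', smul_smul]

theorem mult_pow {γ : SL(2, ℤ)} {ζ : ℂ} (h : R ∣[k] γ = ζ • R) (m : ℕ) :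
    R ∣[k] (γ ^ m) = ζ ^ m • R := by
  induction m with
  | zero => rw [pow_zero, pow_zero, SlashAction.slash_one, one_smul]
  | succ m ih =>
    rw [pow_succ, pow_succ]
    exact mult_mul ih h

theorem eq_one_of_smul_eq {ζ : ℂ} (hR0 : R ≠ 0) (h : ζ • R = R) : ζ = 1 := by
  by_contra hζ
  apply hR0
  funext z
  have h1 := congrFun h z
  simp only [Pi.smul_apply, smul_eq_mul] at h1
  have h2 : (ζ - 1) * R z = 0 := by linear_combination h1
  rcases mul_eq_zero.mp h2 with h3 | h3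
  · exact absurd (sub_eq_zero.mp h3) hζ
  · exact h3

end Mult

/-! ### The entries mod `c` -/

section Entries

variable [NeZero M] [NeZero c] (H : Subgroup (ZMod c)ˣ) (hc : c ∣ M)

theorem coe_a_eq (γ : Gamma0 M) :
    ((((γ : SL(2, ℤ)) 0 0 : ℤ)) : ZMod c) = (((H34.dUnit hc γ)⁻¹ : (ZMod c)ˣ) : ZMod c) := by
  have h1 := a_mul_dUnit hc γ
  have h3 : (((H34.dUnit hc γ) : (ZMod c)ˣ) : ZMod c) * (((H34.dUnit hc γ)⁻¹ : (ZMod c)ˣ) : ZMod c)
      = 1 := by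
    rw [← Units.val_mul, mul_inv_cancel, Units.val_one]
  calc ((((γ : SL(2, ℤ)) 0 0 : ℤ)) : ZMod c)
      = ((((γ : SL(2, ℤ)) 0 0 : ℤ)) : ZMod c) * ((((H34.dUnit hc γ) : (ZMod c)ˣ) : ZMod c)
          * (((H34.dUnit hc γ)⁻¹ : (ZMod c)ˣ) : ZMod c)) := by rw [h3, mul_one]
    _ = (((H34.dUnit hc γ)⁻¹ : (ZMod c)ˣ) : ZMod c) := by rw [← mul_assoc, h1, one_mul]

theorem dUnit_mem_of_a_mem (γ : Gamma0 M)
    (ha : ((((γ : SL(2, ℤ)) 0 0 : ℤ)) : ZMod c) ∈ cosetSet c H 1) :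
    H34.dUnit hc γ ∈ H ∨ -H34.dUnit hc γ ∈ H := by
  rw [coe_a_eq hc γ] at ha
  obtain ⟨h, hh, h1 | h1⟩ := ha
  · left
    rw [one_mul] at h1
    have h2 : (H34.dUnit hc γ)⁻¹ = h := Units.ext h1
    have h3 : H34.dUnit hc γ = h⁻¹ := by rw [← h2, inv_inv]
    rw [h3]
    exact H.inv_mem hh
  · right
    rw [one_mul] at h1
    have h2 : (H34.dUnit hc γ)⁻¹ = -h := Units.ext (by rw [h1, Units.val_neg])
    have h3 : -H34.dUnit hc γ = h⁻¹ := by
      rw [← inv_inv (H34.dUnit hc γ), h2, inv_neg, neg_neg]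
    rw [h3]
    exact H.inv_mem hh

theorem mem_Gam1_of_dUnit_eq_one (γ : Gamma0 M) (h : H34.dUnit hc γ = 1) :
    (γ : SL(2, ℤ)) ∈ Gam1 M c := by
  have e1 : (M : ℤ) ∣ (γ : SL(2, ℤ)) 1 0 :=
    (ZMod.intCast_zmod_eq_zero_iff_dvd _ _).mp (Gamma0_mem.mp γ.2)
  have hcM : (c : ℤ) ∣ (M : ℤ) := Int.natCast_dvd_natCast.mpr hc
  refine ⟨e1, hcM.trans e1, ?_⟩
  rw [← ZMod.intCast_zmod_eq_zero_iff_dvd]
  push_cast
  rw [coe_a_eq hc γ, h, inv_one, Units.val_one, sub_self]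

theorem pow_card_mem_Gam1 (γ : Gamma0 M) (h : H34.dUnit hc γ ∈ H) :
    ((γ : SL(2, ℤ)) ^ Nat.card H) ∈ Gam1 M c := by
  have h1 : (⟨H34.dUnit hc γ, h⟩ : H) ^ Nat.card H = 1 := pow_card_eq_one'
  have h2 : (H34.dUnit hc γ) ^ Nat.card H = 1 := by
    have := congrArg Subtype.val h1
    rwa [Subgroup.coe_pow, Subgroup.coe_one] at this
  have h3 : H34.dUnit hc (γ ^ Nat.card H) = 1 := by rw [map_pow, h2]
  exact mem_Gam1_of_dUnit_eq_one hc (γ ^ Nat.card H) h3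

theorem dUnit_neg (γ : Gamma0 M) :
    H34.dUnit hc ⟨-1 * (γ : SL(2, ℤ)), (Gamma0 M).mul_mem (neg_one_mem_Gamma0_h46 M) γ.2⟩
      = -H34.dUnit hc γ := by
  apply Units.ext
  rw [H34.coe_dUnit, Units.val_neg, H34.coe_dUnit]
  simp

end Entries

/-! ### The multiplier of `R` on `Γ_H` -/

section Key

variable [NeZero M] [NeZero c] (H : Subgroup (ZMod c)ˣ) (hc2 : 2 ≤ c) (hc : c ∣ M)
variable {n : ℕ} {k : ℤ} {R : ℍ → ℂ} (ι : Kbar →+* ℂ)

theorem coeffMap_ne_zero_h46 {f : ↥(FHbar M c H)} (hf : f ≠ 0) :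
    coeffMap ι (f : LaurentSeries Kbar) ≠ 0 := by
  intro h
  apply hf
  apply Subtype.ext
  exact (map_eq_zero_iff (coeffMap ι) (Fermat.Agent.GTor.H75.coeffMap_injective ι)).mp h

variable (hn : n ≠ 0) (f : ↥(FHbar M c H)) (hf : f ≠ 0) (hR : IsW M k R)
  (B : ModularForm (Gamma0 M) k) (hB : B ≠ 0)
  (e : qLaurent (fun z => R z ^ n)
    = coeffMap ι (f : LaurentSeries Kbar) * qLaurent (fun z => (B : ℍ → ℂ) z ^ n))

include hn hf hR hB e

theorem qLaurent_R_ne_zero : qLaurent R ≠ 0 := by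
  have hBfun : (B : ℍ → ℂ) ≠ 0 := fun h => hB (DFunLike.coe_injective h)
  have hBW := isW_of_modularForm B
  have nB : qLaurent (B : ℍ → ℂ) ≠ 0 := qLaurent_ne_zero hBW.nice hBfun
  have nBn : qLaurent (fun z => (B : ℍ → ℂ) z ^ n) ≠ 0 := by
    rw [qLaurent_pow hBW.nice]
    exact pow_ne_zero n nB
  intro h0
  have h1 : qLaurent (fun z => R z ^ n) = 0 := by
    rw [qLaurent_pow hR.nice, h0, zero_pow hn]
  rw [e] at h1
  exact (mul_ne_zero (coeffMap_ne_zero_h46 H ι hf) nBn) h1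

theorem R_ne_zero : R ≠ 0 := by
  intro h0
  apply qLaurent_R_ne_zero H ι hn f hf hR B hB e
  rw [h0]
  exact qLaurent_zero

include hc2 hc

/-- For `γ ∈ Γ_H`, `R ∣ γ = ζ R` with `ζⁿ = 1`. -/
theorem exists_mult {γ : SL(2, ℤ)} (hγ : γ ∈ Gamma0 M)
    (ha : ((γ 0 0 : ℤ) : ZMod c) ∈ cosetSet c H 1) :
    ∃ ζ : ℂ, ζ ^ n = 1 ∧ R ∣[k] γ = ζ • R := by
  obtain ⟨k', A', B', hA', hB'0, hA'inv, hq'⟩ := H98.stmt_A1H M c H hc2 hc (NeZero.ne M) ι f
  have hB'fun : (B' : ℍ → ℂ) ≠ 0 := fun h => hB'0 (DFunLike.coe_injective h)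
  have hBfun : (B : ℍ → ℂ) ≠ 0 := fun h => hB (DFunLike.coe_injective h)
  have hrel : _root_.Fermat.Agent.NEB.H84.Rel M γ (coeffMap ι (f : LaurentSeries Kbar))
      (coeffMap ι (f : LaurentSeries Kbar)) :=
    ⟨k', A', B', hA', isW_of_modularForm B', hB'fun, hq', by
      rw [hA'inv γ hγ ha, slash_modularForm B' hγ, hq']⟩
  have hBW := isW_of_modularForm B
  have hRn := isW_pow_h46 hR n
  have hBn := isW_pow_h46 hBW n
  have nB : qLaurent (B : ℍ → ℂ) ≠ 0 := qLaurent_ne_zero hBW.nice hBfun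
  have nBn : qLaurent (fun z => (B : ℍ → ℂ) z ^ n) ≠ 0 := by
    rw [qLaurent_pow hBW.nice]
    exact pow_ne_zero n nB
  have hBn0 : (fun z => (B : ℍ → ℂ) z ^ n) ≠ 0 := by
    intro h0
    apply nBn
    rw [h0]
    exact qLaurent_zero
  have h1 := H98.rel_slash_of_rep hγ hrel hRn hBn hBn0 e
  rw [Fermat.Agent.GTor.H56.slash_pow_SL, Fermat.Agent.GTor.H56.slash_pow_SL,
    slash_modularForm B hγ, ← e] at h1
  have hRγ := hR.slash_Gamma0 hγ
  rw [qLaurent_pow hRγ.nice, qLaurent_pow hR.nice] at h1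
  have nR : qLaurent R ≠ 0 := qLaurent_R_ne_zero H ι hn f hf hR B hB e
  obtain ⟨ζ, hζ, hu⟩ := exists_C_of_pow_eq_one hn (qLaurent (R ∣[k] γ) / qLaurent R)
    (by rw [div_pow, h1, div_self (pow_ne_zero n nR)])
  refine ⟨ζ, hζ, ?_⟩
  apply qLaurent_injective hRγ.nice (hR.nice.smul ζ)
  rw [qLaurent_smul hR.nice, smul_eq_C_mul, ← hu, div_mul_cancel₀ _ nR]

/-- For `γ ∈ Γ_H`, `(R ∣ γ)^|H| = R^|H|`. -/
theorem slash_pow_card (hRinv : ∀ γ : Gam1 M c, R ∣[k] (γ : SL(2, ℤ)) = R)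
    {γ : SL(2, ℤ)} (hγ : γ ∈ Gamma0 M)
    (ha : ((γ 0 0 : ℤ) : ZMod c) ∈ cosetSet c H 1) :
    (fun z => (R ∣[k] γ) z ^ Nat.card H) = fun z => R z ^ Nat.card H := by
  obtain ⟨ζ, -, hζR⟩ := exists_mult H hc2 hc ι hn f hf hR B hB e hγ ha
  have hR0 : R ≠ 0 := R_ne_zero H ι hn f hf hR B hB e
  have hBfun : (B : ℍ → ℂ) ≠ 0 := fun h => hB (DFunLike.coe_injective h)
  have key : ζ ^ Nat.card H = 1 := by
    rcases dUnit_mem_of_a_mem H hc ⟨γ, hγ⟩ ha with hd | hd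
    · have h1 := pow_card_mem_Gam1 H hc ⟨γ, hγ⟩ hd
      have h2 := hRinv ⟨_, h1⟩
      have h3 := mult_pow hζR (Nat.card H)
      apply eq_one_of_smul_eq hR0
      rw [← h3]
      exact h2
    · have hneg : R ∣[k] (-1 : SL(2, ℤ)) = (1 : ℂ) • R := by
        have h4 : ((B : ℍ → ℂ)) ∣[k] (-1 : SL(2, ℤ)) = (B : ℍ → ℂ) :=
          slash_modularForm B (neg_one_mem_Gamma0_h46 M)
        rw [slash_neg_one_eq] at h4
        rw [slash_neg_one_eq, eq_one_of_smul_eq hBfun h4]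
      have hζ' := mult_mul hneg hζR
      rw [one_mul] at hζ'
      have hd' : H34.dUnit hc ⟨-1 * γ, (Gamma0 M).mul_mem (neg_one_mem_Gamma0_h46 M) hγ⟩ ∈ H := by
        rw [dUnit_neg hc ⟨γ, hγ⟩]
        exact hd
      have h1 := pow_card_mem_Gam1 H hc _ hd'
      have h2 := hRinv ⟨_, h1⟩
      have h3 := mult_pow hζ' (Nat.card H)
      apply eq_one_of_smul_eq hR0
      rw [← h3]
      exact h2
  funext z
  rw [hζR, Pi.smul_apply, smul_eq_mul, mul_pow, key, one_mul]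

end Key

/-- **INJ1**: if the character of `f` is trivial on `Gam1 M c`, then `f ^ |H|` is an `n`-th power
in `F_H`. -/
theorem stmt_INJ1 (M c : ℕ) (H : Subgroup (ZMod c)ˣ) (n : ℕ) : H98.Stmt_INJ1 M c H n := by
  rintro hc2 hc hM hn ι f hf ⟨k, R, B, hmd, hbd, hsl, hB0, e⟩
  haveI : NeZero M := ⟨hM⟩
  haveI : NeZero c := ⟨by omega⟩
  have hRinv : ∀ γ : Gam1 M c, R ∣[k] (γ : SL(2, ℤ)) = R := by
    intro γ
    rw [hsl γ, AddMonoidHom.zero_apply, Fermat.Agent.GTor.H56.zetaPow_zero, one_smul]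
  have hR : IsW M k R := ⟨hmd, fun γ hγ => hRinv ⟨γ, Gamma1_le_Gam1_h46 hc hγ⟩, hbd⟩
  have hBW := isW_of_modularForm B
  have hBfun : (B : ℍ → ℂ) ≠ 0 := fun h => hB0 (DFunLike.coe_injective h)
  have nB : qLaurent (B : ℍ → ℂ) ≠ 0 := qLaurent_ne_zero hBW.nice hBfun
  set m := Nat.card H with hm
  have nBm : qLaurent (fun z => (B : ℍ → ℂ) z ^ m) ≠ 0 := by
    rw [qLaurent_pow hBW.nice]
    exact pow_ne_zero m nB
  have hBm0 : (fun z => (B : ℍ → ℂ) z ^ m) ≠ 0 := by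
    intro h0
    apply nBm
    rw [h0]
    exact qLaurent_zero
  obtain ⟨y, hy, hyq⟩ := stmt_A2H M c H hc2 hc hM (m * k) (fun z => R z ^ m)
    (fun z => (B : ℍ → ℂ) z ^ m) (isW_pow_h46 hR m) (isW_pow_h46 hBW m) hBm0 (by
      intro γ hγ ha
      rw [Fermat.Agent.GTor.H56.slash_pow_SL, Fermat.Agent.GTor.H56.slash_pow_SL,
        slash_modularForm B hγ, slash_pow_card H hc2 hc ι hn f hf hR B hB0 e hRinv hγ ha])
  rw [qLaurent_pow hR.nice, qLaurent_pow hBW.nice] at hyq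
  -- `y ^ n = ι (f ^ m)`
  have e' := e
  rw [qLaurent_pow hR.nice, qLaurent_pow hBW.nice] at e'
  have hyn : coeffMap ι ((f ^ m : ↥(FHbar M c H)) : LaurentSeries Kbar) = y ^ n := by
    have h1 : (y ^ n) * (qLaurent (B : ℍ → ℂ) ^ m) ^ n
        = coeffMap ι (f : LaurentSeries Kbar) ^ m * (qLaurent (B : ℍ → ℂ) ^ m) ^ n := by
      rw [← mul_pow, ← hyq, ← pow_mul, mul_comm m n, pow_mul, e', mul_pow, ← pow_mul,
        ← pow_mul, mul_comm n m]
    have h2 := mul_right_cancel₀ (pow_ne_zero n (pow_ne_zero m nB)) h1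
    rw [h2]
    simp
  obtain ⟨h₀, hh₀⟩ := Fermat.Agent.GTor.H56.stmt_DescRoot Kbar ℂ (FHQ M c H) ι n
    (Nat.pos_of_ne_zero hn) (f ^ m) (pow_ne_zero m hf) ⟨⟨y, hy⟩, Subtype.ext hyn⟩
  exact ⟨h₀, hh₀⟩

end Fermat.Agent.NEB.EIG.H46

end
end
-- ==== END Fermat.Agent.NEB.EIG.H46_Inj1

-- ==== BEGIN Fermat.Agent.NEB.EIG.H98_GamH
section

/-!
# NEB / EIG, leaf EIG-MONO (helper98): the group `Γ_H`

`GamH M c H = {γ ∈ Γ₀(M) : c ∣ γ₁₀, a_γ mod c ∈ ±H}`, a subgroup of `SL(2, ℤ)` containing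
`Gam1 M c` and `-1`.
-/

set_option autoImplicit false
set_option linter.unusedSectionVars false

noncomputable section

namespace Fermat.Agent.NEB.EIG.H98

open CongruenceSubgroup Matrix.SpecialLinearGroup
open Fermat.Agent.NEB Fermat.Agent.NEB.H94 Fermat.Agent.NEB.EIG.H39
open scoped MatrixGroups

/-- `Γ_H`: lower left entry divisible by `M` and by `c`, upper left entry in `±H` mod `c`. -/
def GamH (M c : ℕ) (H : Subgroup (ZMod c)ˣ) : Subgroup SL(2, ℤ) where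
  carrier := {γ | (M : ℤ) ∣ γ 1 0 ∧ (c : ℤ) ∣ γ 1 0 ∧
    ∃ d ∈ pmSubgroup c H, ((γ 0 0 : ℤ) : ZMod c) = (d : ZMod c)}
  one_mem' := by
    refine ⟨by simp, by simp, 1, (pmSubgroup c H).one_mem, by simp⟩
  mul_mem' := by
    rintro g h ⟨g1, g2, dg, hdg, eg⟩ ⟨h1, h2, dh, hdh, eh⟩
    refine ⟨?_, ?_, dg * dh, (pmSubgroup c H).mul_mem hdg hdh, ?_⟩
    · rw [sl_mul_10]
      exact dvd_add (Dvd.dvd.mul_right g1 _) (Dvd.dvd.mul_left h1 _)
    · rw [sl_mul_10]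
      exact dvd_add (Dvd.dvd.mul_right g2 _) (Dvd.dvd.mul_left h2 _)
    · rw [sl_mul_00]
      have h0 : ((h 1 0 : ℤ) : ZMod c) = 0 := (ZMod.intCast_zmod_eq_zero_iff_dvd _ _).mpr h2
      push_cast
      rw [eg, eh, h0, mul_zero, add_zero]
  inv_mem' := by
    rintro g ⟨g1, g2, dg, hdg, eg⟩
    refine ⟨?_, ?_, dg⁻¹, (pmSubgroup c H).inv_mem hdg, ?_⟩
    · rw [sl_inv_10]; exact (dvd_neg).mpr g1
    · rw [sl_inv_10]; exact (dvd_neg).mpr g2
    · rw [sl_inv_00]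
      have hd := sl_det g
      have h0 : ((g 1 0 : ℤ) : ZMod c) = 0 := (ZMod.intCast_zmod_eq_zero_iff_dvd _ _).mpr g2
      have h1 := congrArg (fun z : ℤ => (z : ZMod c)) hd
      simp only [Int.cast_sub, Int.cast_mul, Int.cast_one, h0, mul_zero, sub_zero, eg] at h1
      -- `dg * g11 = 1`
      have h2 : ((g 1 1 : ℤ) : ZMod c) = ((dg⁻¹ : (ZMod c)ˣ) : ZMod c) * ((dg : ZMod c) *
          ((g 1 1 : ℤ) : ZMod c)) := by
        rw [← mul_assoc, Units.inv_mul, one_mul]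
      rw [h2, h1, mul_one]

variable {M c : ℕ} {H : Subgroup (ZMod c)ˣ}

theorem mem_GamH {γ : SL(2, ℤ)} :
    γ ∈ GamH M c H ↔ (M : ℤ) ∣ γ 1 0 ∧ (c : ℤ) ∣ γ 1 0 ∧
      ∃ d ∈ pmSubgroup c H, ((γ 0 0 : ℤ) : ZMod c) = (d : ZMod c) := Iff.rfl

theorem GamH_le_Gamma0 : GamH M c H ≤ Gamma0 M := fun _ h =>
  Fermat.Agent.Betti.mem_Gamma0_of_dvd h.1

theorem Gam1_le_GamH : Gam1 M c ≤ GamH M c H := by
  rintro γ ⟨h1, h2, h3⟩
  refine ⟨h1, h2, 1, (pmSubgroup c H).one_mem, ?_⟩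
  have : ((γ 0 0 - 1 : ℤ) : ZMod c) = 0 := (ZMod.intCast_zmod_eq_zero_iff_dvd _ _).mpr h3
  push_cast at this
  rw [Units.val_one]
  linear_combination this

theorem neg_one_mem_GamH : (-1 : SL(2, ℤ)) ∈ GamH M c H := by
  refine ⟨by simp, by simp, -1, ?_, by simp⟩
  right
  rw [neg_neg]
  exact H.one_mem

/-- The upper left entry of an element of `Γ_H` lies in `cosetSet c H 1`. -/
theorem mem_cosetSet_of_mem_GamH {γ : SL(2, ℤ)} (h : γ ∈ GamH M c H) :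
    ((γ 0 0 : ℤ) : ZMod c) ∈ cosetSet c H 1 := by
  obtain ⟨-, -, d, hd, e⟩ := h
  rw [mem_cosetSet_iff]
  exact ⟨d, hd, by rw [one_mul, e]⟩

end Fermat.Agent.NEB.EIG.H98

end
end
-- ==== END Fermat.Agent.NEB.EIG.H98_GamH

-- ==== BEGIN Fermat.Agent.NEB.H70_RelN
section

/-!
# LG-NEB, package RED-q (helper70), part 2a: the graph `RelN g` of "slash by `g`" on ratios of
`q`-expansions, for `g ∈ GL₂(ℝ)⁺`

`RelN g x y` : `x = qL A / qL B`, `y = qL (A ∣ g) / qL (B ∣ g)` for two functions `A`, `B` on `ℍ`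
which are `Nice 1` (holomorphic, `1`-periodic, bounded at `i∞`) together with their slashes.
This is the graph of a partially defined field homomorphism of `ℂ((q))`; it is used to construct
the conjugates of `F_H(Mℓ)` over `α F_H(M)` and over `β F_H(M)`.

* `Expands D E` : slash by `D` maps `Nice 1` functions to `Nice 1` functions and acts on
  `q`-expansions by the ring homomorphism `E`, up to a nonzero constant depending on the weight;
  `expands_diag` (`E = qExpand ℓ`), `expands_trans` (`D = [1 b; 0 ℓ]·diag(ℓ,1)`, `E = ` twist by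
  `exp (2πi b/ℓ)`), `Expands.mul`.
* `relN_of_rel` : if `D₀ g = δ D`, `δ ∈ Γ₀(M)`, then `Rel M δ x₀ y₀ → RelN g (E₀ x₀) (E y₀)`.
-/

set_option autoImplicit false
set_option linter.unusedSectionVars false

open UpperHalfPlane ModularForm CongruenceSubgroup ModularCurve
open scoped MatrixGroups ModularForm Manifold

noncomputable section

namespace Fermat.Agent.NEB.H70

open Fermat.Agent.S23.H22 (Nice)
open Fermat.Agent.GTor (qLaurent)
open Fermat.Agent.GTor.H56 (qLaurent_mul qLaurent_injective qLaurent_eq_zero_iff qLaurent_zero)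
open Fermat.Agent.NEB.H84

/-! ## 1. Translations -/

section Translate

/-- `τ ↦ G (τ + r)`. -/
def translate (r : ℝ) (G : ℍ → ℂ) : ℍ → ℂ := fun τ => G (r +ᵥ τ)

theorem translate_apply (r : ℝ) (G : ℍ → ℂ) (τ : ℍ) : translate r G τ = G (r +ᵥ τ) := rfl

theorem slash_hM_diag_apply (ℓ : ℕ) [NeZero ℓ] (b : ℕ) (k : ℤ) (G : ℍ → ℂ) (τ : ℍ) :
    ((G ∣[k] heckeMatrix ℓ b) ∣[k] heckeDiagMatrix ℓ) τ
      = (ℓ : ℂ) ^ (k - 2) * translate ((b : ℝ) / ℓ) G τ := by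
  have hℓ : ℓ ≠ 0 := NeZero.ne ℓ
  have hℓ' : (ℓ : ℂ) ≠ 0 := by exact_mod_cast hℓ
  rw [slash_heckeDiagMatrix_apply k hℓ, slash_heckeMatrix_apply k hℓ, translate_apply]
  have hpt : heckeMatrix ℓ b • (heckeDiagMatrix ℓ • τ) = ((b : ℝ) / ℓ) +ᵥ τ := by
    apply UpperHalfPlane.ext
    rw [coe_heckeMatrix_smul hℓ, coe_heckeDiagMatrix_smul hℓ, UpperHalfPlane.coe_vadd]
    push_cast
    field_simp
    ring
  rw [hpt, ← mul_assoc]
  congr 1
  rw [show k - 2 = k - 1 + -1 by ring, zpow_add₀ hℓ', zpow_neg_one]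

/-- The translation matrix `[1 r; 0 1]`. -/
def transGL (r : ℝ) : GL (Fin 2) ℝ := upperTriangularGL 1 r 1 (by norm_num)

theorem det_transGL (r : ℝ) : ((transGL r).det : ℝ) = 1 := by
  rw [Matrix.GeneralLinearGroup.val_det_apply, transGL, val_upperTriangularGL,
    Matrix.det_fin_two_of]
  ring

theorem det_transGL_pos (r : ℝ) : 0 < ((transGL r).det : ℝ) := by
  rw [det_transGL]; exact one_pos

theorem translate_eq_slash (r : ℝ) (G : ℍ → ℂ) : translate r G = G ∣[(0 : ℤ)] transGL r := by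
  funext τ
  rw [ModularForm.slash_apply, translate_apply]
  have hσ : UpperHalfPlane.σ (transGL r) = .refl ℝ ℂ := by
    rw [UpperHalfPlane.σ, if_pos (det_transGL_pos r)]
  have hden : UpperHalfPlane.denom (transGL r) τ = 1 := by
    simp [UpperHalfPlane.denom, transGL, val_upperTriangularGL]
  have hpt : transGL r • τ = r +ᵥ τ := by
    apply UpperHalfPlane.ext
    rw [UpperHalfPlane.coe_smul_of_det_pos (det_transGL_pos r), UpperHalfPlane.coe_vadd]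
    simp [UpperHalfPlane.num, UpperHalfPlane.denom, transGL, val_upperTriangularGL]
    ring
  rw [hσ, hden, hpt, det_transGL]
  simp

theorem nice_translate (r : ℝ) {G : ℍ → ℂ} (hG : Nice 1 G) : Nice 1 (translate r G) where
  per := by
    intro w
    by_cases hw : 0 < w.im
    · have h1 : 0 < (w + (1 : ℝ)).im := by simpa using hw
      have h2 : 0 < ((r : ℂ) + w).im := by simpa using hw
      have h3 : 0 < ((r : ℂ) + w + (1 : ℝ)).im := by simpa using hw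
      simp only [Function.comp_apply, translate_apply, ofComplex_apply_of_im_pos hw,
        ofComplex_apply_of_im_pos h1]
      have e1 : r +ᵥ (⟨w + (1 : ℝ), h1⟩ : ℍ) = ofComplex ((r : ℂ) + w + (1 : ℝ)) := by
        rw [ofComplex_apply_of_im_pos h3]
        apply UpperHalfPlane.ext
        rw [UpperHalfPlane.coe_vadd]
        show (r : ℂ) + (w + (1 : ℝ)) = (r : ℂ) + w + (1 : ℝ)
        ring
      have e2 : r +ᵥ (⟨w, hw⟩ : ℍ) = ofComplex ((r : ℂ) + w) := by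
        rw [ofComplex_apply_of_im_pos h2]
        apply UpperHalfPlane.ext
        rw [UpperHalfPlane.coe_vadd]
      rw [e1, e2]
      exact hG.per ((r : ℂ) + w)
    · have h1 : ¬ 0 < (w + (1 : ℝ)).im := by simpa using hw
      simp only [Function.comp_apply]
      rw [ofComplex_apply_of_im_nonpos (not_lt.mp hw),
        ofComplex_apply_of_im_nonpos (not_lt.mp h1)]
  hol := by
    rw [translate_eq_slash]
    exact hG.hol.slash 0 _
  bdd := by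
    have h := hG.bdd
    rw [UpperHalfPlane.isBoundedAtImInfty_iff] at h ⊢
    obtain ⟨C, A, hCA⟩ := h
    refine ⟨C, A, fun z hz => ?_⟩
    rw [translate_apply]
    apply hCA
    rw [UpperHalfPlane.vadd_im]
    exact hz

/-- `exp (2πi r)` as a unit. -/
def expUnit (r : ℝ) : ℂˣ :=
  Units.mk0 (Complex.exp (2 * Real.pi * Complex.I * r)) (Complex.exp_ne_zero _)

@[simp] theorem coe_expUnit (r : ℝ) :
    ((expUnit r : ℂˣ) : ℂ) = Complex.exp (2 * Real.pi * Complex.I * r) := rfl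

theorem qParam_vadd (r : ℝ) (τ : ℍ) :
    Function.Periodic.qParam 1 ((r +ᵥ τ : ℍ) : ℂ)
      = Complex.exp (2 * Real.pi * Complex.I * r) * Function.Periodic.qParam 1 (τ : ℂ) := by
  rw [UpperHalfPlane.coe_vadd, Function.Periodic.qParam, Function.Periodic.qParam,
    ← Complex.exp_add]
  congr 1
  push_cast
  ring

/-- Uniqueness of the expansion, for plain functions. -/
theorem qExp_unique_nice {F : ℍ → ℂ} (hF : Nice 1 F) {c : ℕ → ℂ}
    (hsum : ∀ τ : ℍ, HasSum (fun m : ℕ => c m • Function.Periodic.qParam 1 (τ : ℂ) ^ m) (F τ))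
    (m : ℕ) : c m = (qExpansion 1 F).coeff m :=
  UpperHalfPlane.qExpansion_coeff_unique (ContinuousMap.mk F hF.hol.continuous) one_pos
    (hF.analyticAt one_pos) hsum m

theorem qExpansion_translate_coeff (r : ℝ) {G : ℍ → ℂ} (hG : Nice 1 G) (m : ℕ) :
    (qExpansion 1 (translate r G)).coeff m
      = Complex.exp (2 * Real.pi * Complex.I * r) ^ m * (qExpansion 1 G).coeff m := by
  symm
  refine qExp_unique_nice (nice_translate r hG)
    (c := fun m => Complex.exp (2 * Real.pi * Complex.I * r) ^ m * (qExpansion 1 G).coeff m)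
    (fun τ => ?_) m
  have h := UpperHalfPlane.hasSum_qExpansion one_pos hG.per hG.hol hG.bdd (r +ᵥ τ)
  rw [translate_apply]
  have e : (fun n : ℕ => (Complex.exp (2 * Real.pi * Complex.I * r) ^ n
        * (qExpansion 1 G).coeff n) • Function.Periodic.qParam 1 (τ : ℂ) ^ n)
      = fun n : ℕ => (qExpansion 1 G).coeff n
        • Function.Periodic.qParam 1 ((r +ᵥ τ : ℍ) : ℂ) ^ n := by
    funext n
    rw [qParam_vadd, mul_pow, smul_eq_mul, smul_eq_mul]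
    ring
  rw [e]
  exact h

theorem qLaurent_translate (r : ℝ) {G : ℍ → ℂ} (hG : Nice 1 G) :
    qLaurent (translate r G) = Fermat.Agent.GTor.H44.twistBy (expUnit r) (qLaurent G) := by
  rw [qLaurent, qLaurent]
  ext n
  rw [Fermat.Agent.GTor.H44.twistBy_coeff]
  rcases lt_or_ge n 0 with hn | hn
  · rw [ModularCurve.ofPowerSeries_coeff_of_neg _ hn, ModularCurve.ofPowerSeries_coeff_of_neg _ hn,
      mul_zero]
  · obtain ⟨m, rfl⟩ := Int.eq_ofNat_of_zero_le hn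
    rw [HahnSeries.ofPowerSeries_apply_coeff, HahnSeries.ofPowerSeries_apply_coeff,
      qExpansion_translate_coeff r hG m]
    rw [zpow_natCast, Units.val_pow_eq_pow_val, coe_expUnit]

end Translate

/-! ## 2. Slashes with a known effect on `q`-expansions -/

section Expands

/-- Slash by `D` maps `Nice 1` functions to `Nice 1` functions and acts on `q`-expansions by the
ring homomorphism `E`, up to a nonzero constant depending only on the weight. -/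
def Expands (D : GL (Fin 2) ℝ) (E : LaurentSeries ℂ →+* LaurentSeries ℂ) : Prop :=
  (∀ c : ℂ, E (HahnSeries.C c) = HahnSeries.C c) ∧
  ∀ k : ℤ, ∃ c : ℂ, c ≠ 0 ∧ ∀ G : ℍ → ℂ, Nice 1 G →
    Nice 1 (G ∣[k] D) ∧ qLaurent (G ∣[k] D) = HahnSeries.C c * E (qLaurent G)

theorem expands_one : Expands 1 (RingHom.id _) := by
  refine ⟨fun c => rfl, fun k => ⟨1, one_ne_zero, fun G hG => ?_⟩⟩
  rw [SlashAction.slash_one, map_one, one_mul]
  exact ⟨hG, rfl⟩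

theorem expands_diag (ℓ : ℕ) [NeZero ℓ] : Expands (heckeDiagMatrix ℓ) (qExpand ℂ ℓ) := by
  have hℓ : (ℓ : ℂ) ≠ 0 := by exact_mod_cast NeZero.ne ℓ
  refine ⟨fun c => qExpand_C ℓ c, fun k => ⟨(ℓ : ℂ) ^ (k - 1), zpow_ne_zero _ hℓ, fun G hG => ?_⟩⟩
  exact ⟨nice_slash_diag ℓ hG, qLaurent_slash_diag ℓ hG⟩

theorem Expands.mul {D D' : GL (Fin 2) ℝ} {E E' : LaurentSeries ℂ →+* LaurentSeries ℂ}
    (h : Expands D E) (h' : Expands D' E') : Expands (D * D') (E'.comp E) := by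
  refine ⟨fun c => ?_, fun k => ?_⟩
  · rw [RingHom.comp_apply, h.1, h'.1]
  · obtain ⟨c, hc, hD⟩ := h.2 k
    obtain ⟨c', hc', hD'⟩ := h'.2 k
    refine ⟨c' * c, mul_ne_zero hc' hc, fun G hG => ?_⟩
    obtain ⟨h1, h2⟩ := hD G hG
    obtain ⟨h3, h4⟩ := hD' _ h1
    rw [SlashAction.slash_mul]
    refine ⟨h3, ?_⟩
    rw [h4, h2, map_mul, h'.1, RingHom.comp_apply, map_mul, mul_assoc]

theorem smul_nice {c : ℂ} {G : ℍ → ℂ} (hG : Nice 1 G) : Nice 1 (c • G) := hG.smul c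

theorem qLaurent_smul' {G : ℍ → ℂ} (hG : Nice 1 G) (c : ℂ) :
    qLaurent (c • G) = HahnSeries.C c * qLaurent G := by
  rw [qLaurent, qLaurent, hG.qExpansion_smul one_pos, HahnSeries.C_mul_eq_smul]
  ext n
  rcases lt_or_ge n 0 with hn | hn
  · rw [HahnSeries.coeff_smul, ModularCurve.ofPowerSeries_coeff_of_neg _ hn,
      ModularCurve.ofPowerSeries_coeff_of_neg _ hn, smul_zero]
  · obtain ⟨m, rfl⟩ := Int.eq_ofNat_of_zero_le hn
    rw [HahnSeries.coeff_smul, HahnSeries.ofPowerSeries_apply_coeff,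
      HahnSeries.ofPowerSeries_apply_coeff]
    simp

theorem expands_trans (ℓ : ℕ) [NeZero ℓ] (b : ℕ) :
    Expands (heckeMatrix ℓ b * heckeDiagMatrix ℓ)
      (Fermat.Agent.GTor.H44.twistBy (expUnit ((b : ℝ) / ℓ))) := by
  have hℓ : (ℓ : ℂ) ≠ 0 := by exact_mod_cast NeZero.ne ℓ
  refine ⟨fun c => Fermat.Agent.GTor.H44.twistBy_C _ c,
    fun k => ⟨(ℓ : ℂ) ^ (k - 2), zpow_ne_zero _ hℓ, fun G hG => ?_⟩⟩
  have e : G ∣[k] (heckeMatrix ℓ b * heckeDiagMatrix ℓ)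
      = ((ℓ : ℂ) ^ (k - 2)) • translate ((b : ℝ) / ℓ) G := by
    funext τ
    rw [SlashAction.slash_mul, slash_hM_diag_apply]
    rfl
  rw [e]
  exact ⟨(nice_translate _ hG).smul _,
    by rw [qLaurent_smul' (nice_translate _ hG), qLaurent_translate _ hG]⟩

end Expands

/-! ## 3. The relation `RelN g` -/

section RelN

/-- The graph of "slash by `g`" on ratios of `q`-expansions of nice functions. -/
def RelN (g : GL (Fin 2) ℝ) (x y : LaurentSeries ℂ) : Prop :=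
  ∃ (k : ℤ) (A B : ℍ → ℂ), Nice 1 A ∧ Nice 1 B ∧ B ≠ 0 ∧ Nice 1 (A ∣[k] g) ∧ Nice 1 (B ∣[k] g) ∧
    qLaurent A = x * qLaurent B ∧ qLaurent (A ∣[k] g) = y * qLaurent (B ∣[k] g)

variable {g : GL (Fin 2) ℝ} {x y x' y' : LaurentSeries ℂ}

theorem slashGL_ne_zero {R : ℍ → ℂ} (k : ℤ) (g : GL (Fin 2) ℝ) (hR : R ≠ 0) : R ∣[k] g ≠ 0 := by
  intro h0
  apply hR
  have : (R ∣[k] g) ∣[k] g⁻¹ = 0 := by rw [h0, SlashAction.zero_slash]
  rwa [← SlashAction.slash_mul, mul_inv_cancel, SlashAction.slash_one] at this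

theorem abs_det_ne_zero (g : GL (Fin 2) ℝ) : |(g.det : ℝ)| ≠ 0 :=
  abs_ne_zero.mpr (Units.ne_zero _)

theorem mul_slashGL_eq {k k' : ℤ} {A B A' B' : ℍ → ℂ} (g : GL (Fin 2) ℝ)
    (h : A * B' = A' * B) :
    (A ∣[k] g) * (B' ∣[k'] g) = (A' ∣[k'] g) * (B ∣[k] g) := by
  have h1 := ModularForm.mul_slash k k' g A B'
  have h2 := ModularForm.mul_slash k' k g A' B
  rw [h, add_comm k k', h2] at h1
  have h3 : (|(g.det : ℝ)|⁻¹ • (|(g.det : ℝ)| • ((A' ∣[k'] g) * (B ∣[k] g))))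
      = (|(g.det : ℝ)|⁻¹ • (|(g.det : ℝ)| • ((A ∣[k] g) * (B' ∣[k'] g)))) := by rw [h1]
  rw [smul_smul, smul_smul, inv_mul_cancel₀ (abs_det_ne_zero g), one_smul, one_smul] at h3
  exact h3.symm

theorem relN_unique (h : RelN g x y) (h' : RelN g x y') : y = y' := by
  obtain ⟨k, A, B, hA, hB, hB0, hAg, hBg, hx, hy⟩ := h
  obtain ⟨k', A', B', hA', hB', hB0', hAg', hBg', hx', hy'⟩ := h'
  have h1 : A * B' = A' * B := by
    apply qLaurent_injective (hA.mul hB') (hA'.mul hB)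
    rw [qLaurent_mul hA hB', qLaurent_mul hA' hB, hx, hx']
    ring
  have h2 := mul_slashGL_eq (k := k) (k' := k') g h1
  have h3 := congrArg qLaurent h2
  rw [qLaurent_mul hAg hBg', qLaurent_mul hAg' hBg, hy, hy'] at h3
  have n1 : qLaurent (B ∣[k] g) ≠ 0 := qLaurent_ne_zero hBg (slashGL_ne_zero k g hB0)
  have n2 : qLaurent (B' ∣[k'] g) ≠ 0 := qLaurent_ne_zero hBg' (slashGL_ne_zero k' g hB0')
  have h4 : (y - y') * (qLaurent (B ∣[k] g) * qLaurent (B' ∣[k'] g)) = 0 := by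
    linear_combination h3
  rcases mul_eq_zero.mp h4 with h5 | h5
  · exact sub_eq_zero.mp h5
  · exact absurd h5 (mul_ne_zero n1 n2)

theorem mul_ne_zero_fun {B B' : ℍ → ℂ} (hB : Nice 1 B) (hB' : Nice 1 B') (hB0 : B ≠ 0)
    (hB0' : B' ≠ 0) : B * B' ≠ 0 := by
  intro h0
  have := congrArg qLaurent h0
  rw [qLaurent_mul hB hB', qLaurent_zero] at this
  rcases mul_eq_zero.mp this with h5 | h5
  · exact qLaurent_ne_zero hB hB0 h5
  · exact qLaurent_ne_zero hB' hB0' h5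

theorem nice_real_smul (c : ℝ) {G : ℍ → ℂ} (hG : Nice 1 G) : Nice 1 (c • G) := by
  have : c • G = (c : ℂ) • G := by
    funext τ
    simp
  rw [this]
  exact hG.smul _

theorem mul_slashGL_nice {k k' : ℤ} {A B : ℍ → ℂ} (hA : Nice 1 (A ∣[k] g))
    (hB : Nice 1 (B ∣[k'] g)) : Nice 1 ((A * B) ∣[k + k'] g) := by
  rw [ModularForm.mul_slash]
  exact nice_real_smul _ (hA.mul hB)

theorem qLaurent_mul_slashGL {k k' : ℤ} {A B : ℍ → ℂ} (hA : Nice 1 (A ∣[k] g))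
    (hB : Nice 1 (B ∣[k'] g)) :
    qLaurent ((A * B) ∣[k + k'] g)
      = HahnSeries.C ((|(g.det : ℝ)| : ℝ) : ℂ) * (qLaurent (A ∣[k] g) * qLaurent (B ∣[k'] g)) := by
  rw [ModularForm.mul_slash]
  have : |(g.det : ℝ)| • ((A ∣[k] g) * (B ∣[k'] g))
      = ((|(g.det : ℝ)| : ℝ) : ℂ) • ((A ∣[k] g) * (B ∣[k'] g)) := by
    funext τ
    simp
  rw [this, qLaurent_smul' (hA.mul hB), qLaurent_mul hA hB]

theorem relN_mul (h : RelN g x y) (h' : RelN g x' y') : RelN g (x * x') (y * y') := by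
  obtain ⟨k, A, B, hA, hB, hB0, hAg, hBg, hx, hy⟩ := h
  obtain ⟨k', A', B', hA', hB', hB0', hAg', hBg', hx', hy'⟩ := h'
  refine ⟨k + k', A * A', B * B', hA.mul hA', hB.mul hB', mul_ne_zero_fun hB hB' hB0 hB0',
    mul_slashGL_nice hAg hAg', mul_slashGL_nice hBg hBg', ?_, ?_⟩
  · rw [qLaurent_mul hA hA', qLaurent_mul hB hB', hx, hx']
    ring
  · rw [qLaurent_mul_slashGL hAg hAg', qLaurent_mul_slashGL hBg hBg', hy, hy']
    ring

theorem relN_add (h : RelN g x y) (h' : RelN g x' y') : RelN g (x + x') (y + y') := by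
  obtain ⟨k, A, B, hA, hB, hB0, hAg, hBg, hx, hy⟩ := h
  obtain ⟨k', A', B', hA', hB', hB0', hAg', hBg', hx', hy'⟩ := h'
  refine ⟨k + k', A * B' + B * A', B * B', (hA.mul hB').add (hB.mul hA'), hB.mul hB',
    mul_ne_zero_fun hB hB' hB0 hB0', ?_, mul_slashGL_nice hBg hBg', ?_, ?_⟩
  · rw [SlashAction.add_slash]
    exact (mul_slashGL_nice hAg hBg').add (mul_slashGL_nice hBg hAg')
  · rw [qLaurent_add (hA.mul hB') (hB.mul hA'), qLaurent_mul hA hB', qLaurent_mul hB hA',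
      qLaurent_mul hB hB', hx, hx']
    ring
  · rw [SlashAction.add_slash,
      qLaurent_add (mul_slashGL_nice hAg hBg') (mul_slashGL_nice hBg hAg'),
      qLaurent_mul_slashGL hAg hBg', qLaurent_mul_slashGL hBg hAg',
      qLaurent_mul_slashGL hBg hBg', hy, hy']
    ring

theorem relN_neg (h : RelN g x y) : RelN g (-x) (-y) := by
  obtain ⟨k, A, B, hA, hB, hB0, hAg, hBg, hx, hy⟩ := h
  refine ⟨k, -A, B, hA.neg, hB, hB0, ?_, hBg, ?_, ?_⟩
  · rw [SlashAction.neg_slash]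
    exact hAg.neg
  · rw [qLaurent_neg hA, hx]
    ring
  · rw [SlashAction.neg_slash, qLaurent_neg hAg, hy]
    ring

theorem relN_inv (h : RelN g x y) (hx0 : x ≠ 0) : RelN g x⁻¹ y⁻¹ := by
  obtain ⟨k, A, B, hA, hB, hB0, hAg, hBg, hx, hy⟩ := h
  have nB : qLaurent B ≠ 0 := qLaurent_ne_zero hB hB0
  have hA0 : A ≠ 0 := by
    rintro rfl
    rw [qLaurent_zero] at hx
    rcases mul_eq_zero.mp hx.symm with h5 | h5
    · exact hx0 h5
    · exact nB h5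
  have nA : qLaurent A ≠ 0 := qLaurent_ne_zero hA hA0
  have nAg : qLaurent (A ∣[k] g) ≠ 0 := qLaurent_ne_zero hAg (slashGL_ne_zero k g hA0)
  have nBg : qLaurent (B ∣[k] g) ≠ 0 := qLaurent_ne_zero hBg (slashGL_ne_zero k g hB0)
  have hy0 : y ≠ 0 := by
    rintro rfl
    rw [zero_mul] at hy
    exact nAg hy
  refine ⟨k, B, A, hB, hA, hA0, hBg, hAg, ?_, ?_⟩
  · rw [hx]
    field_simp
  · rw [hy]
    field_simp

theorem const_slashGL (g : GL (Fin 2) ℝ) (hg : 0 < (g.det : ℝ)) (c : ℂ) :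
    (fun _ : ℍ => c) ∣[(0 : ℤ)] g = fun _ => c * ((|(g.det : ℝ)| : ℝ) : ℂ)⁻¹ := by
  funext τ
  rw [ModularForm.slash_apply]
  have hσ : UpperHalfPlane.σ g = .refl ℝ ℂ := by
    rw [UpperHalfPlane.σ, if_pos hg]
  rw [hσ]
  simp

theorem relN_C (hg : 0 < (g.det : ℝ)) (c : ℂ) : RelN g (HahnSeries.C c) (HahnSeries.C c) := by
  have h1 : ((fun _ => 1 : ℍ → ℂ)) ≠ 0 := by
    intro h
    have := congrFun h UpperHalfPlane.I
    simp at this
  have hd : (((|(g.det : ℝ)| : ℝ) : ℂ))⁻¹ ≠ 0 :=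
    inv_ne_zero (by exact_mod_cast abs_det_ne_zero g)
  refine ⟨0, fun _ => c, fun _ => 1, Nice.const 1 c, Nice.const 1 1, h1, ?_, ?_, ?_, ?_⟩
  · rw [const_slashGL g hg]
    exact Nice.const 1 _
  · rw [const_slashGL g hg]
    exact Nice.const 1 _
  · rw [qLaurent_const', qLaurent_const', map_one, mul_one]
  · rw [const_slashGL g hg, const_slashGL g hg, qLaurent_const', qLaurent_const', ← map_mul,
      one_mul]

theorem relN_zero (hg : 0 < (g.det : ℝ)) : RelN g 0 0 := by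
  have := relN_C hg 0
  rwa [map_zero] at this

theorem relN_one (hg : 0 < (g.det : ℝ)) : RelN g 1 1 := by
  have := relN_C hg 1
  rwa [map_one] at this

/-- **The main source of `RelN`.**  If `D₀ g = δ D` with `δ ∈ Γ₀(M)`, then the slash action of `δ`
on ratios of forms on `Γ₁(M)` gives `RelN g (E₀ x₀) (E y₀)`. -/
theorem relN_of_rel {M : ℕ} {δ : SL(2, ℤ)} (hδ : δ ∈ Gamma0 M) {D₀ D : GL (Fin 2) ℝ}
    {E₀ E : LaurentSeries ℂ →+* LaurentSeries ℂ} (hD₀ : Expands D₀ E₀) (hD : Expands D E)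
    (hmat : D₀ * g = Matrix.SpecialLinearGroup.mapGL ℝ δ * D) {x₀ y₀ : LaurentSeries ℂ}
    (h : Rel M δ x₀ y₀) : RelN g (E₀ x₀) (E y₀) := by
  obtain ⟨k, A, B, hA, hB, hB0, hx, hy⟩ := h
  obtain ⟨c₀, hc₀, h₀⟩ := hD₀.2 k
  obtain ⟨c, hc, h₁⟩ := hD.2 k
  have hAδ := (hA.slash_Gamma0 hδ).nice
  have hBδ := (hB.slash_Gamma0 hδ).nice
  have eA : (A ∣[k] D₀) ∣[k] g = (A ∣[k] δ) ∣[k] D := by
    rw [← SlashAction.slash_mul, hmat, SlashAction.slash_mul]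
    rfl
  have eB : (B ∣[k] D₀) ∣[k] g = (B ∣[k] δ) ∣[k] D := by
    rw [← SlashAction.slash_mul, hmat, SlashAction.slash_mul]
    rfl
  refine ⟨k, A ∣[k] D₀, B ∣[k] D₀, (h₀ A hA.nice).1, (h₀ B hB.nice).1,
    slashGL_ne_zero k D₀ hB0, ?_, ?_, ?_, ?_⟩
  · rw [eA]
    exact (h₁ _ hAδ).1
  · rw [eB]
    exact (h₁ _ hBδ).1
  · rw [(h₀ A hA.nice).2, (h₀ B hB.nice).2, hx, map_mul]
    ring
  · rw [eA, eB, (h₁ _ hAδ).2, (h₁ _ hBδ).2, hy, map_mul]
    ring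

end RelN

end Fermat.Agent.NEB.H70

end
end
-- ==== END Fermat.Agent.NEB.H70_RelN
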