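-- GENERATED (merged mirror, NOTES/tools/trim/merge3_helper67.py): 6 modules of the originals, bodies verbatim.
import Fermat.Agent.Zm.S48_L09_000
import Fermat.Agent.Zm.S48_L07_001
import Fermat.Agent.S17.OpenStab
import Fermat.Agent.Zm.S48_L05_000
import Fermat.Agent.Zm.S35_L08_000
import Fermat.Agent.Zm.S35_L15_001
import Fermat.Agent.Zm.S35_L13_002
import Fermat.Agent.Zm.S48_L01_003
import Fermat.Agent.Zm.S48_L07_000
import Fermat.Agent.Zm.S48_L08_001
import Fermat.Agent.Zm.S35_L14_002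
import Fermat.Agent.RED.HR.H51_FinrankAlong

-- ==== BEGIN Fermat.Agent.S48.B1.H55_Asm5
section

/-!
# S48, B1 assembly, part 5 (helper55): `Stmt_EisLift` from the leaves

`stmt_EisLiftNeb_of`: Teich + Eis1 + HeckeNeb + FinDimNeb + NebOfRel + EigInt + AlgForm + Int
`⟹ Stmt_EisLiftNeb` (= `B.Stmt_EisLift` together with the nebentypus of `G`).
-/

set_option autoImplicit false

open CongruenceSubgroup UpperHalfPlane ModularForm
open scoped MatrixGroups ModularForm Manifold

noncomputable section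

namespace Fermat.Agent.S48.B1.H55

open Fermat.Agent.S48.Int (HasNeb)

variable {k : Type} [Field k]

/-- The conclusion of `Stmt_Teich`. -/
def IsTeich (ℓ : ℕ) [NeZero ℓ] (k : Type) [Field k] [CharP k ℓ]
    (φ : integralClosure ℤ ℂ →+* k) (ψ : DirichletCharacter ℂ ℓ) : Prop :=
  ∀ (a : (ZMod ℓ)ˣ) (e : integralClosure ℤ ℂ), (e : ℂ) = ψ (a : ZMod ℓ) →
    φ e * (ZMod.castHom (dvd_refl ℓ) k (a : ZMod ℓ)) = 1

theorem red_teich {ℓ : ℕ} [NeZero ℓ] [CharP k ℓ] {φ : integralClosure ℤ ℂ →+* k}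
    {ψ : DirichletCharacter ℂ ℓ} (hT : IsTeich ℓ k φ ψ) (a : ℕ) (ha : a.Coprime ℓ) :
    red φ (ψ (a : ZMod ℓ)) * (a : k) = 1 := by
  have hint : IsIntegral ℤ (ψ (a : ZMod ℓ)) := Fermat.Agent.S48.Int.H55.isIntegral_charVal ψ _
  have h := hT (ZMod.unitOfCoprime a ha) ⟨ψ (a : ZMod ℓ), hint⟩ (by
    rw [ZMod.coe_unitOfCoprime])
  have hc : (ZMod.castHom (dvd_refl ℓ) k) ((ZMod.unitOfCoprime a ha : (ZMod ℓ)ˣ) : ZMod ℓ) =
      (a : k) := by
    rw [ZMod.coe_unitOfCoprime]
    exact map_natCast _ a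
  rw [hc] at h
  have hr : red φ (ψ (a : ZMod ℓ)) = φ ⟨ψ (a : ZMod ℓ), hint⟩ :=
    red_coe φ ⟨ψ (a : ZMod ℓ), hint⟩
  rw [hr]
  exact h

theorem red_eis1_pos {ℓ : ℕ} [NeZero ℓ] [CharP k ℓ] (φ : integralClosure ℤ ℂ →+* k)
    (ψ : DirichletCharacter ℂ ℓ) {n : ℕ} (hn : n ≠ 0) :
    red φ ((eis1Series ℓ ψ).coeff n) = 0 := by
  rw [coeff_eis1_pos ℓ ψ hn]
  have h2 : IsIntegral ℤ (-2 * ∑ d ∈ n.divisors, ψ (d : ZMod ℓ)) :=
    isIntegral_neg_two.mul
      (IsIntegral.sum _ fun a _ => Fermat.Agent.S48.Int.H55.isIntegral_charVal ψ _)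
  rw [red_mul φ (isIntegral_natC ℓ) h2, red_natCast, CharP.cast_eq_zero, zero_mul]

theorem red_eis1_zero {ℓ : ℕ} [NeZero ℓ] [CharP k ℓ] (hℓ : ℓ.Prime)
    {φ : integralClosure ℤ ℂ →+* k} {ψ : DirichletCharacter ℂ ℓ} (hT : IsTeich ℓ k φ ψ) :
    red φ ((eis1Series ℓ ψ).coeff 0) = -1 := by
  rw [coeff_eis1_zero, red_sum φ _ _ fun a _ =>
    (Fermat.Agent.S48.Int.H55.isIntegral_charVal ψ _).mul (isIntegral_natC a)]
  have hterm : ∀ a ∈ Finset.range ℓ,
      red φ (ψ (a : ZMod ℓ) * (a : ℂ)) = if a = 0 then (0 : k) else 1 := by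
    intro a ha
    rw [red_mul φ (Fermat.Agent.S48.Int.H55.isIntegral_charVal ψ _) (isIntegral_natC a),
      red_natCast]
    split_ifs with h0
    · subst h0
      simp
    · have hlt : a < ℓ := Finset.mem_range.1 ha
      have hcop : a.Coprime ℓ :=
        Nat.Coprime.symm ((Nat.Prime.coprime_iff_not_dvd hℓ).2
          (Nat.not_dvd_of_pos_of_lt (Nat.pos_of_ne_zero h0) hlt))
      exact red_teich hT a hcop
  rw [Finset.sum_congr rfl hterm]
  obtain ⟨m, rfl⟩ : ∃ m, ℓ = m + 1 := ⟨ℓ - 1, by have := hℓ.pos; omega⟩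
  rw [Finset.sum_range_succ']
  simp only [Nat.succ_ne_zero, if_false, if_true, add_zero, Finset.sum_const, Finset.card_range,
    nsmul_eq_mul, mul_one]
  have h0 : ((m + 1 : ℕ) : k) = 0 := CharP.cast_eq_zero k (m + 1)
  rw [Nat.cast_add, Nat.cast_one] at h0
  exact eq_neg_of_add_eq_zero_left h0

/-- `Stmt_EisLift` together with the nebentypus of `G`. -/
def Stmt_EisLiftNeb : Prop :=
  ∀ (N : ℕ) [NeZero N] (ε : DirichletCharacter ℂ N) (f : CuspForm (Gamma1 N) 1),
    IsDSForm N ε f →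
      ∃ ℓ₀ : ℕ, ∀ (ℓ : ℕ) [NeZero (N * ℓ)], ℓ.Prime → ℓ₀ ≤ ℓ →
        ∀ (k : Type) [Field k] [CharP k ℓ] [IsAlgClosed k] (φ : integralClosure ℤ ℂ →+* k),
          ∃ (χ : DirichletCharacter ℂ (N * ℓ)) (G : CuspForm (Gamma1 (N * ℓ)) 2) (b : ℕ → ℂ),
            B.IsEigenvec2 (N * ℓ) χ G b ∧ HasNeb (N * ℓ) χ 2 G ∧
            ∀ p : ℕ, p.Prime → ¬ p ∣ N * ℓ →
              ∃ β c : integralClosure ℤ ℂ, (β : ℂ) = b p ∧
                (c : ℂ) = χ (p : ZMod (N * ℓ)) * (p : ℂ) ∧
                (∀ a : integralClosure ℤ ℂ, (a : ℂ) = ModularFormClass.qCoeff f p → φ β = φ a) ∧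
                (∀ e : integralClosure ℤ ℂ, (e : ℂ) = ε (p : ZMod N) → φ c = φ e)

theorem stmt_EisLift_of_neb (h : Stmt_EisLiftNeb) : B.Stmt_EisLift := by
  intro N _ ε f hf
  obtain ⟨ℓ₀, h0⟩ := h N ε f hf
  refine ⟨ℓ₀, ?_⟩
  intro ℓ _ hℓ hℓ₀ k _ _ _ φ
  obtain ⟨χ, G, b, h1, -, h2⟩ := h0 ℓ hℓ hℓ₀ k φ
  exact ⟨χ, G, b, h1, h2⟩

/-- The core of the assembly, with all the data fixed. -/
theorem eisLift_core (hH : Stmt_HeckeNeb) (hFin : Stmt_FinDimNeb) (hEig : Stmt_EigInt)
    (N : ℕ) [NeZero N] (ε : DirichletCharacter ℂ N) (f f' : CuspForm (Gamma1 N) 1)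
    (hf' : IsDSForm N ε f')
    (hpp : ∀ p : ℕ, p.Prime → ¬ p ∣ N →
      ModularFormClass.qCoeff f' p = ModularFormClass.qCoeff f p)
    (hint : ∀ p : ℕ, p.Prime → ¬ p ∣ N → IsIntegral ℤ (ModularFormClass.qCoeff f p))
    (D : ℕ) (hD0 : D ≠ 0) (hDint : ∀ n : ℕ, IsIntegral ℤ ((D : ℂ) * ModularFormClass.qCoeff f' n))
    (ℓ : ℕ) [NeZero ℓ] [NeZero (N * ℓ)] (hℓ : ℓ.Prime) (hDℓ : D < ℓ)
    (k : Type) [Field k] [CharP k ℓ] [IsAlgClosed k] (φ : integralClosure ℤ ℂ →+* k)
    (ψ : DirichletCharacter ℂ ℓ) (hT : IsTeich ℓ k φ ψ)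
    (G0 : CuspForm (Gamma1 (N * ℓ)) 2) (hG0n : HasNeb (N * ℓ) (prodChar N ℓ ε ψ) 2 G0)
    (hG0q : qExpansion 1 G0 = qExpansion 1 f' * eis1Series ℓ ψ) :
    ∃ (G : CuspForm (Gamma1 (N * ℓ)) 2) (b : ℕ → ℂ),
      B.IsEigenvec2 (N * ℓ) (prodChar N ℓ ε ψ) G b ∧ HasNeb (N * ℓ) (prodChar N ℓ ε ψ) 2 G ∧
      ∀ p : ℕ, p.Prime → ¬ p ∣ N * ℓ →
        ∃ β c : integralClosure ℤ ℂ, (β : ℂ) = b p ∧
          (c : ℂ) = prodChar N ℓ ε ψ (p : ZMod (N * ℓ)) * (p : ℂ) ∧
          (∀ a : integralClosure ℤ ℂ, (a : ℂ) = ModularFormClass.qCoeff f p → φ β = φ a) ∧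
          (∀ e : integralClosure ℤ ℂ, (e : ℂ) = ε (p : ZMod N) → φ c = φ e) := by
  classical
  set χ : DirichletCharacter ℂ (N * ℓ) := prodChar N ℓ ε ψ with hχ
  haveI : FiniteDimensional ℂ (nebSubmodule (N * ℓ) χ 2) := hFin (N * ℓ) χ 2 (Or.inr rfl)
  -- divisibility facts
  have hN_of : ∀ p : ℕ, ¬ p ∣ N * ℓ → ¬ p ∣ N := fun p h h' => h (dvd_mul_of_dvd_left h' ℓ)
  have hℓ_of : ∀ p : ℕ, ¬ p ∣ N * ℓ → ¬ p ∣ ℓ := fun p h h' => h (dvd_mul_of_dvd_right h' N)
  have hcopℓ : ∀ p : ℕ, p.Prime → ¬ p ∣ N * ℓ → p.Coprime ℓ := by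
    intro p hp h
    exact (Nat.Prime.coprime_iff_not_dvd hp).2 (hℓ_of p h)
  have hcop : ∀ p : ℕ, p.Prime → ¬ p ∣ N * ℓ → p.Coprime (N * ℓ) := by
    intro p hp h
    exact (Nat.Prime.coprime_iff_not_dvd hp).2 h
  -- the sequences
  set u : ℕ → ℂ := fun n => (D : ℂ) * ModularFormClass.qCoeff f' n with hu
  set e : ℕ → ℂ := fun n => (eis1Series ℓ ψ).coeff n with he
  have huint : ∀ n, IsIntegral ℤ (u n) := hDint
  have heint : ∀ n, IsIntegral ℤ (e n) := eis1_integral ℓ ψ
  have he0 : red φ (e 0) = -1 := red_eis1_zero hℓ hT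
  have hej : ∀ j, j ≠ 0 → red φ (e j) = 0 := fun j hj => red_eis1_pos φ ψ hj
  -- the approximate eigenvector
  let v0 : nebSubmodule (N * ℓ) χ 2 := (D : ℂ) • (⟨G0, hG0n⟩ : nebSubmodule (N * ℓ) χ 2)
  have hv0seq : ∀ n, coeffSeq (v0 : CuspForm (Gamma1 (N * ℓ)) 2) n =
      ∑ x ∈ Finset.HasAntidiagonal.antidiagonal n, u x.1 * e x.2 := by
    intro n
    have h1 : coeffSeq (v0 : CuspForm (Gamma1 (N * ℓ)) 2) n =
        (D : ℂ) * coeffSeq (G0 : CuspForm (Gamma1 (N * ℓ)) 2) n :=
      coeffSeq_smul_sub (D : ℂ) (⟨G0, hG0n⟩ : nebSubmodule (N * ℓ) χ 2) n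
    rw [h1, coeffSeq_eq, hG0q, PowerSeries.coeff_mul, Finset.mul_sum]
    refine Finset.sum_congr rfl fun x _ => ?_
    simp only [hu, he, ModularFormClass.qCoeff]
    ring
  have hconv := red_conv φ u e huint heint he0 hej
  have hwint : ∀ n, IsIntegral ℤ (coeffSeq (v0 : CuspForm (Gamma1 (N * ℓ)) 2) n) := by
    intro n
    rw [hv0seq]
    exact (hconv n).1
  have hwu : ∀ n, red φ (coeffSeq (v0 : CuspForm (Gamma1 (N * ℓ)) 2) n) = -red φ (u n) := by
    intro n
    rw [hv0seq]
    exact (hconv n).2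
  -- the character values
  have hχp : ∀ p : ℕ, p.Prime → ¬ p ∣ N * ℓ →
      red φ (heckeFactor χ 2 p) = red φ (ε (p : ZMod N)) := by
    intro p hp hpM
    rw [heckeFactor_two, hχ, prodChar_natCast ε ψ p (hcop p hp hpM)]
    have i1 : IsIntegral ℤ (ε (p : ZMod N)) := Fermat.Agent.S48.Int.H55.isIntegral_charVal ε _
    have i2 : IsIntegral ℤ (ψ (p : ZMod ℓ)) := Fermat.Agent.S48.Int.H55.isIntegral_charVal ψ _
    rw [red_mul φ (i1.mul i2) (isIntegral_natC p), red_mul φ i1 i2, red_natCast, mul_assoc,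
      red_teich hT p (hcopℓ p hp hpM), mul_one]
  -- the index type and the operators
  let ι : Type := {p : ℕ // p.Prime ∧ ¬ p ∣ N * ℓ}
  let T : ι → Module.End ℂ (nebSubmodule (N * ℓ) χ 2) :=
    fun i => heckeOp hH (N * ℓ) χ 2 i.1 i.2.1 i.2.2
  let a : ι → integralClosure ℤ ℂ :=
    fun i => ⟨ModularFormClass.qCoeff f i.1, hint i.1 i.2.1 (hN_of i.1 i.2.2)⟩
  have hDk : (D : k) ≠ 0 := by
    intro h0
    rw [CharP.cast_eq_zero_iff k ℓ] at h0
    exact absurd (Nat.le_of_dvd (Nat.pos_of_ne_zero hD0) h0) (not_le.2 hDℓ)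
  have hu1 : u 1 = (D : ℂ) := by
    simp only [hu, hf'.one, mul_one]
  obtain ⟨b', v, hv0, hveig, hcong⟩ := Fermat.Agent.S49.H44.abstract_lifting (K := ℂ)
    (V := nebSubmodule (N * ℓ) χ 2) (ι := ι) T
    (fun i j => heckeOp_commute hH (N * ℓ) χ 2 i.1 j.1 i.2.1 i.2.2 j.2.1 j.2.2)
    (A := integralClosure ℤ ℂ) (RingHom.ker φ) (RingHom.ker_isPrime φ)
    (latA (N * ℓ) χ 2) (latI φ (N * ℓ) χ 2)
    (fun x g hg => smul_mem_latA x g hg)
    (fun x g hg => smul_mem_latI φ x g hg)
    (fun i g hg => heckeOp_mem_latA hH i.2.1 i.2.2 (isIntegral_heckeFactor_two χ i.1) g hg)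
    (fun i g hg => heckeOp_mem_latI hH φ i.2.1 i.2.2 (isIntegral_heckeFactor_two χ i.1) g hg)
    (fun i μ hμ => heckeOp_eigenvalue_integral hH hEig i.2.1 i.2.2 μ hμ)
    a v0 hwint
    (by
      intro i n
      have hseq : coeffSeq (((T i v0 - (algebraMap (integralClosure ℤ ℂ) ℂ (a i)) • v0 :
          nebSubmodule (N * ℓ) χ 2)) : CuspForm (Gamma1 (N * ℓ)) 2) n =
          coeffOp i.1 (heckeFactor χ 2 i.1) (coeffSeq (v0 : CuspForm (Gamma1 (N * ℓ)) 2)) n -
            ModularFormClass.qCoeff f i.1 * coeffSeq (v0 : CuspForm (Gamma1 (N * ℓ)) 2) n := by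
        have h1 : coeffSeq (((T i v0 - (algebraMap (integralClosure ℤ ℂ) ℂ (a i)) • v0 :
          nebSubmodule (N * ℓ) χ 2)) : CuspForm (Gamma1 (N * ℓ)) 2) =
            coeffSeq ((T i v0 : nebSubmodule (N * ℓ) χ 2) : CuspForm (Gamma1 (N * ℓ)) 2) -
            coeffSeq ((((algebraMap (integralClosure ℤ ℂ) ℂ (a i)) • v0 :
              nebSubmodule (N * ℓ) χ 2)) : CuspForm (Gamma1 (N * ℓ)) 2) := coeffSeq_sub _ _
        rw [h1, Pi.sub_apply, coeffSeq_smul_sub]
        have h2 : coeffSeq ((T i v0 : nebSubmodule (N * ℓ) χ 2) : CuspForm (Gamma1 (N * ℓ)) 2) =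
            coeffOp i.1 (heckeFactor χ 2 i.1) (coeffSeq (v0 : CuspForm (Gamma1 (N * ℓ)) 2)) :=
          coeffSeq_heckeOp hH (N * ℓ) χ 2 i.1 i.2.1 i.2.2 v0
        rw [h2]
        rfl
      rw [hseq]
      refine red_hecke_rel φ u _ huint hwint hwu i.1 (heckeFactor χ 2 i.1)
        (ModularFormClass.qCoeff f i.1) (ε (i.1 : ZMod N)) (isIntegral_heckeFactor_two χ i.1)
        (hint i.1 i.2.1 (hN_of i.1 i.2.2)) (Fermat.Agent.S48.Int.H55.isIntegral_charVal ε _)
        (hχp i.1 i.2.1 i.2.2) ?_ n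
      intro m
      have hrel := hf'.hecke i.1 i.2.1 (hN_of i.1 i.2.2) m
      rw [hpp i.1 i.2.1 (hN_of i.1 i.2.2)] at hrel
      simp only [hu]
      split_ifs with hd
      · rw [if_pos hd] at hrel
        linear_combination (D : ℂ) * hrel
      · rw [if_neg hd] at hrel
        linear_combination (D : ℂ) * hrel)
    (by
      intro c hc
      have h1 := hc 1
      rw [coeffSeq_smul_sub] at h1
      have hcint : IsIntegral ℤ (c : ℂ) := c.2
      have h2 : red φ ((c : ℂ) * coeffSeq (v0 : CuspForm (Gamma1 (N * ℓ)) 2) 1) = 0 := h1.2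
      rw [red_mul φ hcint (hwint 1), hwu 1, hu1, red_natCast, red_coe] at h2
      rw [RingHom.mem_ker]
      rcases mul_eq_zero.1 h2 with h3 | h3
      · exact h3
      · exact absurd (neg_eq_zero.1 h3) hDk)
  -- the output
  refine ⟨(v : CuspForm (Gamma1 (N * ℓ)) 2),
    fun p => if h : p.Prime ∧ ¬ p ∣ N * ℓ then ((b' ⟨p, h⟩ : integralClosure ℤ ℂ) : ℂ) else 0,
    ⟨fun h => hv0 (Subtype.ext h), ?_⟩, v.2, ?_⟩
  · intro p hp hpM n
    have hb : (if h : p.Prime ∧ ¬ p ∣ N * ℓ then ((b' ⟨p, h⟩ : integralClosure ℤ ℂ) : ℂ) else 0) =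
        ((b' ⟨p, hp, hpM⟩ : integralClosure ℤ ℂ) : ℂ) := dif_pos ⟨hp, hpM⟩
    show _ = (if h : p.Prime ∧ ¬ p ∣ N * ℓ then ((b' ⟨p, h⟩ : integralClosure ℤ ℂ) : ℂ) else 0) * _
    rw [hb]
    have h1 := congrFun (coeffSeq_heckeOp hH (N * ℓ) χ 2 p hp hpM v) n
    have h2 : heckeOp hH (N * ℓ) χ 2 p hp hpM v =
        (algebraMap (integralClosure ℤ ℂ) ℂ (b' ⟨p, hp, hpM⟩)) • v := hveig ⟨p, hp, hpM⟩
    rw [h2, coeffSeq_smul_sub, coeffOp_apply, heckeFactor_two] at h1
    exact h1.symm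
  · intro p hp hpM
    refine ⟨b' ⟨p, hp, hpM⟩, ⟨heckeFactor χ 2 p, isIntegral_heckeFactor_two χ p⟩, ?_, ?_, ?_, ?_⟩
    · beta_reduce
      rw [dif_pos (⟨hp, hpM⟩ : p.Prime ∧ ¬ p ∣ N * ℓ)]
    · exact heckeFactor_two χ p
    · intro x hx
      have hmem := hcong ⟨p, hp, hpM⟩
      rw [RingHom.mem_ker, map_sub, sub_eq_zero] at hmem
      rw [hmem]
      congr 1
      exact Subtype.ext hx.symm
    · intro x hx
      have h1 := hχp p hp hpM
      have h2 : red φ (heckeFactor χ 2 p) =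
          φ ⟨heckeFactor χ 2 p, isIntegral_heckeFactor_two χ p⟩ :=
        red_coe φ ⟨heckeFactor χ 2 p, isIntegral_heckeFactor_two χ p⟩
      rw [← h2, h1, ← hx, red_coe]

/-- **B1 assembly**: `Stmt_EisLiftNeb` from the leaves. -/
theorem stmt_EisLiftNeb_of (hTeich : Stmt_Teich) (hEis1 : Stmt_Eis1) (hH : Stmt_HeckeNeb)
    (hFin : Stmt_FinDimNeb) (hNeb : Stmt_NebOfRel) (hEig : Stmt_EigInt) (hAlg : Stmt_AlgForm)
    (hInt : Stmt_Int) : Stmt_EisLiftNeb := by
  intro N _ ε f hf
  obtain ⟨f', hf', hpp, D, hD0, hDint⟩ := hAlg N ε f hf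
  have hnebf' : HasNeb N ε 1 f' := by
    refine hNeb N ε 1 (Or.inl rfl) f' (fun p => ModularFormClass.qCoeff f' p) ?_
    intro p hp hpN n
    have h := hf'.hecke p hp hpN n
    have h1 : ((p : ℂ) ^ ((1 : ℤ) - 1)) = 1 := by norm_num
    rw [h1, mul_one]
    exact h
  obtain ⟨hint, -, -⟩ := hInt N ε f hf
  refine ⟨max D 2 + 1, ?_⟩
  intro ℓ _ hℓ hℓ₀ k _ _ _ φ
  haveI : NeZero ℓ := ⟨hℓ.ne_zero⟩
  have hDℓ : D < ℓ := by
    have := le_max_left D 2
    omega
  have hℓ2 : ℓ ≠ 2 := by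
    have := le_max_right D 2
    omega
  obtain ⟨ψ, hψodd, hψT⟩ := hTeich ℓ hℓ hℓ2 k φ
  obtain ⟨E, hEd, hEb, hEn, hEq⟩ := hEis1 ℓ hℓ ψ hψodd
  obtain ⟨G0, hG0n, hG0q⟩ := prodNeb N ℓ ε ψ f' E hnebf' hEd hEb hEn
  rw [hEq] at hG0q
  obtain ⟨G, b, h1, h2, h3⟩ := eisLift_core hH hFin hEig N ε f f' hf' hpp hint D hD0 hDint ℓ hℓ
    hDℓ k φ ψ hψT G0 hG0n hG0q
  exact ⟨prodChar N ℓ ε ψ, G, b, h1, h2, h3⟩

end Fermat.Agent.S48.B1.H55

end
end
-- ==== END Fermat.Agent.S48.B1.H55_Asm5

-- ==== BEGIN Fermat.Agent.S48.B2.H19_GALH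
section

/-!
# S48, mountain B2, slice G (helper19): `Stmt_GALH`

Every point of `J_H = Pic⁰(F_H)` is fixed by the Galois group of a number field.

`S17.exists_field_fixing_class` is generic in the `ℚ`-model `F₀ ⊂ ℚ((q))`; the finiteness of the
zeros of a function of `F_H · ℚ̄` follows from the principal divisors of the function field
`F_H · ℚ̄` (`NEB.H94.isFF_FHbar`, with `NEB.H84.stmt_FH_gal`).  The Galois action on `J_H` is the
prelude's coefficientwise action (`arithmeticGalois (FHQ M c H)`), by definition.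
-/

set_option autoImplicit false
set_option linter.style.haveILetI false

noncomputable section

namespace Fermat.Agent.S48.B2.H19

open AlgebraicCurve ModularCurve
open Fermat.Agent.NEB Fermat.Agent.NEB.JH

/-- Finiteness of the zeros of a function of `F_H · ℚ̄`. -/
theorem zerosFinite_FHQ (M c : ℕ) (H : Subgroup (ZMod c)ˣ) (hc : 2 ≤ c) (hcM : c ∣ M)
    (hM : M ≠ 0) : Fermat.Agent.S17.ZerosFinite (FHQ M c H) := by
  haveI : NeZero M := ⟨hM⟩
  have hFF : Fermat.Agent.RED.IsFF Kbar ↥(FHbar M c H) :=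
    Fermat.Agent.NEB.H94.isFF_FHbar M c H hc hcM (Fermat.Agent.NEB.H84.stmt_FH_gal M c H)
  haveI : HasPrincipalDivisors Kbar ↥(FHbar M c H) := Fermat.Agent.NEB.H14.hasPD hFF
  intro x hx
  obtain ⟨D, hD, -⟩ := HasPrincipalDivisors.exists_divisor (K := Kbar) x hx
  refine D.support.finite_toSet.subset fun v hv => ?_
  have h0 : 0 < v.ord x := hv
  rw [Finset.mem_coe, Finsupp.mem_support_iff, hD v]
  exact h0.ne'

/-- **Slice G**: every point of `J_H` is fixed by the Galois group of a number field. -/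
theorem stmt_GALH : Stmt_GALH := by
  intro M c H hc hcM hM y
  obtain ⟨F, hF, h⟩ :=
    Fermat.Agent.S17.exists_field_fixing_class (FHQ M c H) (zerosFinite_FHQ M c H hc hcM hM) y
  exact ⟨F, hF, fun σ hσ => h σ ((IntermediateField.mem_fixingSubgroup_iff F σ).2 hσ)⟩

end Fermat.Agent.S48.B2.H19

end
end
-- ==== END Fermat.Agent.S48.B2.H19_GALH

-- ==== BEGIN Fermat.Agent.S48.B2.R.H31_RFF
section
attribute [local instance 10000] SubalgebraClass.toAlgebra
attribute [local instance 10000] HahnSeries.powerSeriesAlgebra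

/-!
# S48 B2, slice R, leaf R-FF (helper31): the residue field of the Gauss valuation of `F_H(M)`
is a function field of one variable

Exact statement of the leaf (`Stmt_RFF`, proved by `stmt_RFF`): for `2 ≤ c`, `c ∣ M`, `M ≠ 0`,
a prime `p ∤ M` and a valuation ring `A` of `ℚ̄` over `p`,

  `IsFF (kV A) (redField A (FHbar M c H) (hasScale_FHbar A M c H))`,

together with the inequality `f ≤ n` (`relfinrank_red_FH_le`):

  `[κ_H : κ_0] ≤ [F_H(M) : F₀(M)]`, `κ_H/κ_0` finite.

Generic part (`finiteAlong_redField`): for fields of series `F ≤ F'` over any valued field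
`(C, O)` with the scaling property and `F'/F` finite, the residue field of the Gauss valuation
of `F'` is finite over the one of `F`, of degree `≤ [F' : F]`.
-/

set_option autoImplicit false
set_option linter.unusedSectionVars false
set_option linter.style.haveILetI false
set_option synthInstance.maxHeartbeats 400000
set_option maxHeartbeats 1000000

open ModularCurve AlgebraicCurve IntermediateField

noncomputable section

namespace Fermat.Agent.S48.B2.R.H31

open Fermat.Agent.NEB Fermat.Agent.RED Fermat.Agent.RED.H73 Fermat.Agent.S28.H73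

/-! ## 1. Generic: `f ≤ n` for the Gauss valuation -/

section Generic

variable {C : Type} [Field C] (O : ValuationSubring C)
variable {F F' : IntermediateField C (LaurentSeries C)} (hle : F ≤ F')
variable (h : HasScale O F) (h' : HasScale O F')

/-- A finite family of elements of `F~'`, linearly independent over `F~`, has at most `[F' : F]`
elements. -/
theorem card_le_of_linearIndependent_red
    (hfin : FiniteAlong C (IntermediateField.inclusion hle))
    (s : Finset ↥(redField O F' h'))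
    (hs : letI := algebraAlong (IntermediateField.inclusion (H51.redField_mono O hle h h'))
      LinearIndependent ↥(redField O F h) (fun i : s => (i : ↥(redField O F' h')))) :
    s.card ≤ F.relfinrank F' := by
  classical
  letI a1 := algebraAlong (IntermediateField.inclusion hle)
  letI a2 := algebraAlong (IntermediateField.inclusion (H51.redField_mono O hle h h'))
  haveI : Module.Finite ↥F ↥F' := hfin
  -- lifts
  have hex : ∀ i : s, ∃ x : ↥(gaussValSub O F' h'),
      gaussResF O h' x = ((i : ↥(redField O F' h')) : LaurentSeries (kV O)) :=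
    fun i => (i : ↥(redField O F' h')).2
  choose u hu using hex
  let E : Subfield ↥F' := F.toSubfield.comap (algebraMap ↥F' (LaurentSeries C))
  have hE : ∀ (α : ↥F') (_ : α ∈ E) (hV : α ∈ gaussValSub O F' h'),
      gaussResF O h' ⟨α, hV⟩ ∈ (redField O F h).toSubfield := by
    intro α hα hV
    exact ⟨⟨⟨(α : LaurentSeries C), hα⟩, hV⟩, rfl⟩
  have hli1 : LinearIndependent ↥(redField O F h).toSubfield
      (fun i => gaussResF O h' (u i)) := by
    rw [Fintype.linearIndependent_iff] at hs ⊢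
    intro g hg i
    have h1 := hs (fun i => (⟨((g i : ↥(redField O F h).toSubfield) : LaurentSeries (kV O)),
      (g i).2⟩ : ↥(redField O F h))) (by
        apply Subtype.ext
        have h2 : ((∑ i : s, (⟨((g i : ↥(redField O F h).toSubfield) : LaurentSeries (kV O)),
            (g i).2⟩ : ↥(redField O F h)) • ((i : ↥(redField O F' h'))) : ↥(redField O F' h'))
              : LaurentSeries (kV O))
            = ∑ i : s, ((g i : ↥(redField O F h).toSubfield) : LaurentSeries (kV O))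
                * gaussResF O h' (u i) := by
          rw [← IntermediateField.coe_val, map_sum]
          refine Finset.sum_congr rfl fun i _ => ?_
          rw [hu i]
          rfl
        rw [h2]
        exact hg) i
    exact Subtype.ext (congrArg Subtype.val h1)
  have hli2 := Fermat.Agent.BAD.H82.linearIndependent_of_red E (gaussValSub O F' h')
    (gaussResF O h') (redField O F h).toSubfield hE u hli1
  have hli3 : LinearIndependent ↥F (fun i => ((u i : ↥(gaussValSub O F' h')) : ↥F')) := by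
    rw [Fintype.linearIndependent_iff] at hli2 ⊢
    intro g hg i
    have h1 := hli2 (fun i => (⟨IntermediateField.inclusion hle (g i), (g i).2⟩ : ↥E)) hg i
    apply Subtype.ext
    exact congrArg (fun z : ↥E => ((z : ↥F') : LaurentSeries C)) h1
  have h4 := hli3.fintype_card_le_finrank
  rw [Fintype.card_coe] at h4
  rwa [H51.finrank_along_inclusion hle] at h4

/-- **`f ≤ n` for the Gauss valuation**: if `F'/F` is finite, then `F~'/F~` is finite and
`[F~' : F~] ≤ [F' : F]`. -/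
theorem finiteAlong_redField (hfin : FiniteAlong C (IntermediateField.inclusion hle)) :
    FiniteAlong (kV O) (IntermediateField.inclusion (H51.redField_mono O hle h h')) ∧
      (redField O F h).relfinrank (redField O F' h') ≤ F.relfinrank F' := by
  letI a2 := algebraAlong (IntermediateField.inclusion (H51.redField_mono O hle h h'))
  have hrank : Module.rank ↥(redField O F h) ↥(redField O F' h')
      ≤ ((F.relfinrank F' : ℕ) : Cardinal) :=
    rank_le fun s hs => card_le_of_linearIndependent_red O hle h h' hfin s hs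
  have hfinκ : Module.Finite ↥(redField O F h) ↥(redField O F' h') :=
    Module.rank_lt_aleph0_iff.mp (lt_of_le_of_lt hrank (Cardinal.natCast_lt_aleph0))
  refine ⟨hfinκ, ?_⟩
  rw [← H51.finrank_along_inclusion (H51.redField_mono O hle h h')]
  exact Module.finrank_le_of_rank_le hrank

/-- If `F'/F` is finite and `F~` is a function field of one variable, so is `F~'`. -/
theorem isFF_redField_of_le (hfin : FiniteAlong C (IntermediateField.inclusion hle))
    (hFF : IsFF (kV O) ↥(redField O F h)) : IsFF (kV O) ↥(redField O F' h') :=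
  Fermat.Agent.NEB.H94.isFF_of_finiteAlong hFF
    (IntermediateField.inclusion (H51.redField_mono O hle h h'))
    (finiteAlong_redField O hle h h' hfin).1

end Generic

/-! ## 2. The field `F_H(M)` -/

section FH

variable (M c : ℕ) (H : Subgroup (ZMod c)ˣ)

/-- `[κ_H : κ_0] ≤ [F_H(M) : F₀(M)] = [(ℤ/c)ˣ : ±H]`, and `κ_H/κ_0` is finite. -/
theorem relfinrank_red_FH_le (hc2 : 2 ≤ c) (hc : c ∣ M) (hM : M ≠ 0)
    (A : ValuationSubring Kbar) :
    FiniteAlong (kV A) (IntermediateField.inclusion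
      (H51.redField_mono A (bar_le_FHbar M c H) (hasScale_laurentBaseChange A M)
        (Fermat.Agent.NEB.H94.hasScale_FHbar A M c H))) ∧
    (redField A (modularFunctionFieldBar M) (hasScale_laurentBaseChange A M)).relfinrank
        (redField A (FHbar M c H) (Fermat.Agent.NEB.H94.hasScale_FHbar A M c H))
      ≤ (Fermat.Agent.NEB.H94.pmSubgroup c H).index := by
  have hfin : FiniteAlong Kbar (IntermediateField.inclusion (bar_le_FHbar M c H)) :=
    Fermat.Agent.NEB.H94.finiteAlong_inclBar M c H hc2 hc hM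
      (Fermat.Agent.NEB.H84.stmt_FH_gal M c H)
  have h1 := finiteAlong_redField A (bar_le_FHbar M c H) (hasScale_laurentBaseChange A M)
    (Fermat.Agent.NEB.H94.hasScale_FHbar A M c H) hfin
  refine ⟨h1.1, h1.2.trans (le_of_eq ?_)⟩
  rw [← H51.finrank_along_inclusion (bar_le_FHbar M c H)]
  exact Fermat.Agent.NEB.H94.finrankAlong_inclBar M c H hc2 hc hM
    (Fermat.Agent.NEB.H84.stmt_FH_gal M c H)

/-- **R-FF**: the residue field of the Gauss valuation of `F_H(M)` at `A | p`, `p ∤ M`, is a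
function field of one variable over the residue field of `A`. -/
theorem isFF_red_FH [NeZero M] (hc2 : 2 ≤ c) (hc : c ∣ M) {p : ℕ} (hp : p.Prime)
    (hpM : ¬ p ∣ M) (A : ValuationSubring Kbar) (hA : A.LiesOverPrime p) :
    IsFF (kV A) ↥(redField A (FHbar M c H) (Fermat.Agent.NEB.H94.hasScale_FHbar A M c H)) :=
  isFF_redField_of_le A (bar_le_FHbar M c H) (hasScale_laurentBaseChange A M)
    (Fermat.Agent.NEB.H94.hasScale_FHbar A M c H)
    (Fermat.Agent.NEB.H94.finiteAlong_inclBar M c H hc2 hc (NeZero.ne M)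
      (Fermat.Agent.NEB.H84.stmt_FH_gal M c H))
    (isFF_redField_bar M p hp hpM A hA)

end FH

/-! ## 3. The statement of the leaf -/

/-- **R-FF**. -/
def Stmt_RFF : Prop :=
  ∀ (M c : ℕ) (H : Subgroup (ZMod c)ˣ), 2 ≤ c → c ∣ M → M ≠ 0 →
    ∀ p : ℕ, p.Prime → ¬ p ∣ M → ∀ A : ValuationSubring Kbar, A.LiesOverPrime p →
      IsFF (kV A) ↥(redField A (FHbar M c H) (Fermat.Agent.NEB.H94.hasScale_FHbar A M c H))

theorem stmt_RFF : _root_.Fermat.Agent.S48.B2.R.H31.Stmt_RFF := by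
  intro M c H hc2 hc hM p hp hpM A hA
  haveI : NeZero M := ⟨hM⟩
  exact isFF_red_FH M c H hc2 hc hp hpM A hA

end Fermat.Agent.S48.B2.R.H31

end
end
-- ==== END Fermat.Agent.S48.B2.R.H31_RFF

-- ==== BEGIN Fermat.Agent.S48.B2.R.H34_BranchH
section

/-!
# S48, B2, slice R, leaf R-BR for the chart `j` (helper34)

Under `NEB.UnrCond M c H` the branch values of `j` (and of `1/j`) on `F_H(M) · ℚ̄` are those on
`F₀(M) · ℚ̄`: `0` and `1728` (resp. `0`, `1/1728`).

* `finite_adjoin_map` : `F'` is finite over `K(φ x)` if `F'/φ F` and `F / K(x)` are finite.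
* `isBranchValue_map_jF` : a branch value of `φ j` on ANY unramified finite extension of
  `F₀(M) · ℚ̄` is `0` or `1728`; `isBranchValue_map_jF_inv`.
* `isBranchValue_jFH`, `isBranchValue_jFH_inv` : the case `F' = F_H(M)`.
-/

set_option autoImplicit false
set_option linter.style.haveILetI false
set_option synthInstance.maxHeartbeats 400000
set_option maxHeartbeats 1000000

noncomputable section

open AlgebraicCurve IntermediateField

namespace Fermat.Agent.S48.B2.R.H34

open Fermat.Agent.RED.H34 Fermat.Agent.RED.H51 Fermat.Agent.RED.H76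
open Fermat.Agent.S24 (Kbar FN)
open ModularCurve

section Generic

variable {K F F' : Type} [Field K] [Field F] [Field F'] [Algebra K F] [Algebra K F']

/-- Finiteness over `K(φ x)`. -/
theorem finite_adjoin_map (φ : F →ₐ[K] F') (hφ : FiniteAlong K φ) (x : F)
    [hfin : Module.Finite ↥K⟮x⟯ F] : Module.Finite ↥K⟮φ x⟯ F' := by
  letI := algebraAlong φ
  haveI := isScalarTower_along φ
  haveI : Module.Finite F F' := hφ
  letI : Algebra ↥K⟮x⟯ F' := ((algebraMap F F').comp (algebraMap ↥K⟮x⟯ F)).toAlgebra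
  haveI : IsScalarTower ↥K⟮x⟯ F F' := IsScalarTower.of_algebraMap_eq fun _ => rfl
  haveI : Module.Finite ↥K⟮x⟯ F' := Module.Finite.trans F F'
  have hmem : ∀ y : ↥K⟮x⟯, φ (y : F) ∈ K⟮φ x⟯ := by
    intro y
    have h1 : (K⟮x⟯).map φ = K⟮φ x⟯ := by
      rw [IntermediateField.adjoin_map, Set.image_singleton]
    rw [← h1]
    exact ⟨(y : F), y.2, rfl⟩
  let e : ↥K⟮x⟯ →+* ↥K⟮φ x⟯ :=
    { toFun := fun y => ⟨φ (y : F), hmem y⟩
      map_one' := Subtype.ext (by simp)
      map_mul' := fun a b => Subtype.ext (by simp)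
      map_zero' := Subtype.ext (by simp)
      map_add' := fun a b => Subtype.ext (by simp) }
  letI : Algebra ↥K⟮x⟯ ↥K⟮φ x⟯ := e.toAlgebra
  haveI : IsScalarTower ↥K⟮x⟯ ↥K⟮φ x⟯ F' := IsScalarTower.of_algebraMap_eq fun _ => rfl
  exact Module.Finite.of_restrictScalars_finite ↥K⟮x⟯ ↥K⟮φ x⟯ F'

theorem isIntegral_of_finiteAlong (φ : F →ₐ[K] F') (hφ : FiniteAlong K φ) :
    φ.toRingHom.IsIntegral := by
  letI := algebraAlong φ
  haveI : Module.Finite F F' := hφ
  intro y
  exact IsIntegral.of_finite F y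

end Generic

section Modular

variable (N : ℕ) [NeZero N] {F' : Type} [Field F'] [Algebra _root_.Fermat.Agent.S24.Kbar F']

/-- The branch values of `j` on an unramified finite extension of `F₀(N) · ℚ̄`. -/
theorem isBranchValue_map_jF (φ : ↥(modularFunctionFieldBar N) →ₐ[_root_.Fermat.Agent.S24.Kbar] F')
    (hφ : FiniteAlong _root_.Fermat.Agent.S24.Kbar φ)
    (hunr : ∀ w : Place _root_.Fermat.Agent.S24.Kbar F', ∃ t : ↥(modularFunctionFieldBar N), w.ord (φ t) = 1)
    {ρ : _root_.Fermat.Agent.S24.Kbar} (h : IsBranchValue (φ (Fermat.Agent.RED.H73.jF (L := _root_.Fermat.Agent.S24.Kbar) N)) ρ) :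
    ρ = 0 ∨ ρ = 1728 := by
  haveI := finiteDimensional_jF N
  haveI : FiniteDimensional ↥_root_.Fermat.Agent.S24.Kbar⟮φ (Fermat.Agent.RED.H73.jF (L := _root_.Fermat.Agent.S24.Kbar) N)⟯ F' :=
    finite_adjoin_map φ hφ _
  exact isBranchValue_jF N
    (brup φ (isIntegral_of_finiteAlong φ hφ) hunr _ (transcendental_jF N) ρ h)

/-- The branch values of `1/j` on an unramified finite extension of `F₀(N) · ℚ̄`. -/
theorem isBranchValue_map_jF_inv (φ : ↥(modularFunctionFieldBar N) →ₐ[_root_.Fermat.Agent.S24.Kbar] F')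
    (hφ : FiniteAlong _root_.Fermat.Agent.S24.Kbar φ)
    (hunr : ∀ w : Place _root_.Fermat.Agent.S24.Kbar F', ∃ t : ↥(modularFunctionFieldBar N), w.ord (φ t) = 1)
    {ρ : _root_.Fermat.Agent.S24.Kbar} (h : IsBranchValue (φ (Fermat.Agent.RED.H73.jF (L := _root_.Fermat.Agent.S24.Kbar) N))⁻¹ ρ) :
    ρ = 0 ∨ ρ = (1728 : _root_.Fermat.Agent.S24.Kbar)⁻¹ := by
  haveI := finiteDimensional_jF N
  haveI := finiteDimensional_adjoin_simple_inv (K := _root_.Fermat.Agent.S24.Kbar) (Fermat.Agent.RED.H73.jF (L := _root_.Fermat.Agent.S24.Kbar) N)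
  haveI : FiniteDimensional ↥_root_.Fermat.Agent.S24.Kbar⟮φ (Fermat.Agent.RED.H73.jF (L := _root_.Fermat.Agent.S24.Kbar) N)⁻¹⟯ F' :=
    finite_adjoin_map φ hφ _
  rw [← map_inv₀] at h
  exact isBranchValue_jF_inv N
    (brup φ (isIntegral_of_finiteAlong φ hφ) hunr _
      (transcendental_inv (transcendental_jF N)) ρ h)

end Modular

section FH

open Fermat.Agent.NEB (UnrCond inclBar)

variable (M c : ℕ) [NeZero M] (H : Subgroup (ZMod c)ˣ)

/-- **R-BR, chart `j`**: under `UnrCond`, the branch values of `j` on `F_H(M) · ℚ̄` are among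
`0`, `1728`. -/
theorem isBranchValue_jFH (hc2 : 2 ≤ c) (hcM : c ∣ M) (hU : UnrCond M c H) {ρ : _root_.Fermat.Agent.S24.Kbar}
    (h : IsBranchValue (inclBar M c H (Fermat.Agent.RED.H73.jF (L := _root_.Fermat.Agent.S24.Kbar) M)) ρ) :
    ρ = 0 ∨ ρ = 1728 :=
  isBranchValue_map_jF M (inclBar M c H)
    (Fermat.Agent.NEB.H94.finiteAlong_inclBar M c H hc2 hcM (NeZero.ne M)
      (Fermat.Agent.NEB.H84.stmt_FH_gal M c H))
    (Fermat.Agent.NEB.H34.fh_unr c M H hc2 hcM (NeZero.ne M) hU) h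

/-- **R-BR, chart `1/j`**. -/
theorem isBranchValue_jFH_inv (hc2 : 2 ≤ c) (hcM : c ∣ M) (hU : UnrCond M c H) {ρ : _root_.Fermat.Agent.S24.Kbar}
    (h : IsBranchValue (inclBar M c H (Fermat.Agent.RED.H73.jF (L := _root_.Fermat.Agent.S24.Kbar) M))⁻¹ ρ) :
    ρ = 0 ∨ ρ = (1728 : _root_.Fermat.Agent.S24.Kbar)⁻¹ :=
  isBranchValue_map_jF_inv M (inclBar M c H)
    (Fermat.Agent.NEB.H94.finiteAlong_inclBar M c H hc2 hcM (NeZero.ne M)
      (Fermat.Agent.NEB.H84.stmt_FH_gal M c H))
    (Fermat.Agent.NEB.H34.fh_unr c M H hc2 hcM (NeZero.ne M) hU) h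

end FH

end Fermat.Agent.S48.B2.R.H34

end
end
-- ==== END Fermat.Agent.S48.B2.R.H34_BranchH

-- ==== BEGIN Fermat.Agent.S48.B2.R.H34_DescDeg
section

/-!
# S48, B2, slice R, leaf DESC (helper34): `stmt_Desc : Stmt_Desc`

* `finrankAlong_inclusion` : the degree along an inclusion of intermediate fields is the relative
  degree.
* `relfinrank_FH_level` : `ψ(M) · [F_H(M'') : F_H(M)] = ψ(M'')` for `M ∣ M''`.
* `stmt_Desc` : norm descent of the Kummer form of torsion injectivity from level `M''` to `M`.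
-/

set_option autoImplicit false
set_option linter.style.haveILetI false
set_option synthInstance.maxHeartbeats 400000
set_option maxHeartbeats 1000000

noncomputable section

open AlgebraicCurve IntermediateField ModularCurve

namespace Fermat.Agent.S48.B2.R.H34

open Fermat.Agent.NEB (FHbar inclBar alphaBar bar_le_FHbar laurentBaseChange_mono FHQ_mono_level)
open Fermat.Agent.RED Fermat.Agent.RED.H73 Fermat.Agent.S28.H73

local notation "Kb" => AlgebraicClosure ℚ

section Generic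

variable {κ L : Type} [Field κ] [Field L] [Algebra κ L]

/-- The degree along an inclusion is the relative degree. -/
theorem finrankAlong_inclusion {A B : IntermediateField κ L} (h : A ≤ B) :
    finrankAlong κ (IntermediateField.inclusion h) = A.relfinrank B := by
  have h1 := Fermat.Agent.RED.H51.finrankAlong_eq_relfinrank_map A B (AlgHom.id κ L)
    (IntermediateField.inclusion h) (fun x => rfl)
  rw [h1, IntermediateField.map_id]

theorem finiteAlong_of_finrankAlong_pos {F F' : Type} [Field F] [Field F'] [Algebra κ F]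
    [Algebra κ F'] (φ : F →ₐ[κ] F') (h : 0 < finrankAlong κ φ) : FiniteAlong κ φ := by
  letI := algebraAlong φ
  show Module.Finite F F'
  exact Module.finite_of_finrank_pos h

end Generic

section Level

variable (M c : ℕ) (H : Subgroup (ZMod c)ˣ)

/-- `ℚ̄(j)` inside `ℚ̄((q))`. -/
def Ej : IntermediateField Kb (LaurentSeries Kb) :=
  IntermediateField.adjoin Kb ({jqModC Kb} : Set (LaurentSeries Kb))

theorem Ej_le_bar : Ej ≤ modularFunctionFieldBar M := by
  unfold Ej
  rw [IntermediateField.adjoin_le_iff, Set.singleton_subset_iff]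
  show jqModC Kb ∈ laurentBaseChange Kb (modularFunctionFieldFull M)
  rw [laurentBaseChange_full_eq]
  exact jqModC_mem_full Kb M

theorem relfinrank_Ej_bar [NeZero M] : Ej.relfinrank (modularFunctionFieldBar M) = dedekindPsi M := by
  have h := relfinrank_fullC_bar M
  rw [← laurentBaseChange_full_eq] at h
  exact h

theorem relfinrank_bar_FH (hc2 : 2 ≤ c) (hcM : c ∣ M) (hM : M ≠ 0) :
    (modularFunctionFieldBar M).relfinrank (FHbar M c H)
      = (Fermat.Agent.NEB.H94.pmSubgroup c H).index := by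
  rw [← Fermat.Agent.NEB.H94.finrankAlong_inclBar M c H hc2 hcM hM
    (Fermat.Agent.NEB.H84.stmt_FH_gal M c H)]
  exact (finrankAlong_inclusion (bar_le_FHbar M c H)).symm

theorem bar_le_bar {M M'' : ℕ} (h : M ∣ M'') :
    modularFunctionFieldBar M ≤ modularFunctionFieldBar M'' := by
  have h1 : modularFunctionFieldFull M ≤ modularFunctionFieldFull M'' := by
    refine IntermediateField.adjoin.mono ℚ _ _ ?_
    rintro x ⟨d, hd0, hd, rfl⟩
    exact ⟨d, hd0, hd.trans h, rfl⟩
  exact laurentBaseChange_mono h1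

/-- `ψ(M) · [F_H(M'') : F_H(M)] = ψ(M'')`. -/
theorem relfinrank_FH_level {M M'' : ℕ} (hc2 : 2 ≤ c) (hcM : c ∣ M) (hMM : M ∣ M'')
    (hM'' : M'' ≠ 0) :
    dedekindPsi M * (FHbar M c H).relfinrank (FHbar M'' c H) = dedekindPsi M'' := by
  have hM : M ≠ 0 := by
    rintro rfl
    exact hM'' (zero_dvd_iff.mp hMM)
  haveI : NeZero M := ⟨hM⟩
  haveI : NeZero M'' := ⟨hM''⟩
  haveI : NeZero c := ⟨by omega⟩
  have hle1 : FHbar M c H ≤ FHbar M'' c H := laurentBaseChange_mono (FHQ_mono_level hMM c H)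
  have e1 := relfinrank_mul_relfinrank (Ej_le_bar M) (bar_le_FHbar M c H)
  have e2 := relfinrank_mul_relfinrank ((Ej_le_bar M).trans (bar_le_FHbar M c H)) hle1
  have e3 := relfinrank_mul_relfinrank (Ej_le_bar M'') (bar_le_FHbar M'' c H)
  rw [relfinrank_Ej_bar, relfinrank_bar_FH M c H hc2 hcM hM] at e1
  rw [relfinrank_Ej_bar, relfinrank_bar_FH M'' c H hc2 (hcM.trans hMM) hM''] at e3
  rw [← e1, ← e3] at e2
  have hidx : (Fermat.Agent.NEB.H94.pmSubgroup c H).index ≠ 0 :=
    Subgroup.index_ne_zero_of_finite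
  have e4 : (Fermat.Agent.NEB.H94.pmSubgroup c H).index *
      (dedekindPsi M * (FHbar M c H).relfinrank (FHbar M'' c H))
      = (Fermat.Agent.NEB.H94.pmSubgroup c H).index * dedekindPsi M'' := by
    rw [mul_comm _ (dedekindPsi M''), ← e2]
    ring
  exact Nat.eq_of_mul_eq_mul_left (Nat.pos_of_ne_zero hidx) e4

end Level

theorem dedekindPsi_pos34 (N : ℕ) [NeZero N] : 0 < dedekindPsi N := by
  rw [← Fermat.Agent.S20.H19.G1]
  exact Nat.pos_of_ne_zero Subgroup.FiniteIndex.index_ne_zero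

/-- **DESC**. -/
theorem stmt_Desc : Fermat.Agent.S48.B2.R.Stmt_Desc := by
  intro M M'' c H hc2 hcM hMM hM'' d n hψ hcop q hq hqM hqn A hA hTI
  have hM : M ≠ 0 := by
    rintro rfl
    exact hM'' (zero_dvd_iff.mp hMM)
  haveI : NeZero M := ⟨hM⟩
  haveI : NeZero M'' := ⟨hM''⟩
  have hle : FHbar M c H ≤ FHbar M'' c H := laurentBaseChange_mono (FHQ_mono_level hMM c H)
  have hdeg := relfinrank_FH_level c H hc2 hcM hMM hM''
  have hψM : 0 < dedekindPsi M := dedekindPsi_pos34 M
  have hψM'' : 0 < dedekindPsi M'' := dedekindPsi_pos34 M''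
  have hd : (FHbar M c H).relfinrank (FHbar M'' c H) = d := by
    rw [hψ] at hdeg
    exact Nat.eq_of_mul_eq_mul_left hψM hdeg
  have hd0 : 0 < d := by
    rcases Nat.eq_zero_or_pos d with h0 | h0
    · rw [h0, mul_zero] at hψ
      omega
    · exact h0
  have hfr : finrankAlong Kb (IntermediateField.inclusion hle) = d := by
    rw [finrankAlong_inclusion hle, hd]
  have hfin : FiniteAlong Kb (IntermediateField.inclusion hle) :=
    finiteAlong_of_finrankAlong_pos _ (by rw [hfr]; exact hd0)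
  exact ticoreAt_descent A (Fermat.Agent.NEB.H94.hasScale_FHbar A M c H)
    (Fermat.Agent.NEB.H94.hasScale_FHbar A M'' c H) hle hfin n (by rw [hfr]; exact hcop.symm)
    (ticoreAt_of_ticoreFor A _ q n hqn hTI)

end Fermat.Agent.S48.B2.R.H34

end
end
-- ==== END Fermat.Agent.S48.B2.R.H34_DescDeg

-- ==== BEGIN Fermat.Agent.S48.B2.R.H66_Chart
section
attribute [local instance 10000] HahnSeries.powerSeriesAlgebra

/-!
# S48 B2, slice R, leaf CHART (helper66): chart transfer from `F₀(M)` to `F_H(M)`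

`stmt_Chart : Stmt_Chart`.

Generic part (`Along`): for `φ : F →ₐ[k] F'` and `x : F`,

* `finrank_adjoin_along` : `[F' : k(φ x)] = [F : k(x)] · [F' : F]`;
* `isSeparable_adjoin_along` : `F / k(x)` and `F' / F` separable `⇒` `F' / k(φ x)` separable.

The chart `inclBar x` has the same `q`-expansion as `x`, hence the same reduction; the degrees
`[F_H : F₀] = [(ℤ/c)ˣ : ±H]` (`H94.finrankAlong_inclBar`, `H84.stmt_FH_gal`) and
`[κ_H : κ₀] = [(ℤ/c)ˣ : ±H]` (R-DEG) agree.
-/

set_option autoImplicit false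
set_option linter.style.haveILetI false
set_option linter.unusedSectionVars false
set_option synthInstance.maxHeartbeats 400000
set_option maxHeartbeats 1000000

noncomputable section

namespace Fermat.Agent.S48.B2.R.H66C

open AlgebraicCurve ModularCurve IntermediateField
open Fermat.Agent.NEB Fermat.Agent.RED
open Fermat.Agent.S28.H73 Fermat.Agent.RED.H73 Fermat.Agent.RED.H34

/-! ## 1. Generic: the simple subextension along a homomorphism -/

section Along

variable {k F F' : Type} [Field k] [Field F] [Field F'] [Algebra k F] [Algebra k F']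

/-- The image of `k(x)` under `φ` is `k(φ x)`. -/
theorem map_adjoin_simple (φ : F →ₐ[k] F') (x : F) : (k⟮x⟯).map φ = k⟮φ x⟯ := by
  rw [IntermediateField.adjoin_map, Set.image_singleton]

/-- The isomorphism `k(x) ≃ k(φ x)`. -/
def adjoinEquivAlong (φ : F →ₐ[k] F') (x : F) : ↥k⟮x⟯ ≃ₐ[k] ↥k⟮φ x⟯ :=
  ((k⟮x⟯).equivMap φ).trans (IntermediateField.equivOfEq (map_adjoin_simple φ x))

theorem coe_adjoinEquivAlong (φ : F →ₐ[k] F') (x : F) (a : ↥k⟮x⟯) :
    ((adjoinEquivAlong φ x a : ↥k⟮φ x⟯) : F') = φ (a : F) := rfl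

/-- `[F' : k(φ x)] = [F : k(x)] · [F' : F]`. -/
theorem finrank_adjoin_along (φ : F →ₐ[k] F') (x : F) :
    Module.finrank ↥k⟮φ x⟯ F' = Module.finrank ↥k⟮x⟯ F * finrankAlong k φ := by
  letI := algebraAlong φ
  letI a1 : Algebra ↥k⟮x⟯ F' := ((algebraMap F F').comp (algebraMap ↥k⟮x⟯ F)).toAlgebra
  haveI : IsScalarTower ↥k⟮x⟯ F F' := IsScalarTower.of_algebraMap_eq fun _ => rfl
  have h1 : Module.finrank ↥k⟮x⟯ F * Module.finrank F F' = Module.finrank ↥k⟮x⟯ F' :=
    Module.finrank_mul_finrank ↥k⟮x⟯ F F'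
  have h2 : Module.finrank ↥k⟮x⟯ F' = Module.finrank ↥k⟮φ x⟯ F' :=
    Algebra.finrank_eq_of_equiv_equiv (adjoinEquivAlong φ x).toRingEquiv (RingEquiv.refl F')
      (by ext a; rfl)
  rw [← h2, ← h1]
  rfl

/-- Separability of `F' / k(φ x)` from that of `F / k(x)` and of `F' / F`. -/
theorem isSeparable_adjoin_along (φ : F →ₐ[k] F') (x : F)
    (h1 : Algebra.IsSeparable ↥k⟮x⟯ F)
    (h2 : letI := algebraAlong φ; Algebra.IsSeparable F F') :
    Algebra.IsSeparable ↥k⟮φ x⟯ F' := by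
  letI a0 : Algebra F F' := algebraAlong φ
  letI a1 : Algebra ↥k⟮x⟯ F' := ((algebraMap F F').comp (algebraMap ↥k⟮x⟯ F)).toAlgebra
  haveI i1 : IsScalarTower ↥k⟮x⟯ F F' := IsScalarTower.of_algebraMap_eq fun _ => rfl
  haveI i2 : Algebra.IsSeparable F F' := h2
  haveI h3 : Algebra.IsSeparable ↥k⟮x⟯ F' :=
    @Algebra.IsSeparable.trans ↥k⟮x⟯ F _ _ _ F' _ a1 a0 i1 h1 i2
  exact Algebra.IsSeparable.of_equiv_equiv (adjoinEquivAlong φ x).toRingEquiv
    (RingEquiv.refl F') (by ext a; rfl)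

/-- Finiteness of `F' / k(φ x)` from that of `F / k(x)` and of `F' / F`. -/
theorem finite_adjoin_along (φ : F →ₐ[k] F') (x : F)
    (h1 : FiniteDimensional ↥k⟮x⟯ F) (h2 : finrankAlong k φ ≠ 0) :
    FiniteDimensional ↥k⟮φ x⟯ F' := by
  apply Module.finite_of_finrank_pos
  rw [finrank_adjoin_along]
  exact Nat.mul_pos Module.finrank_pos (Nat.pos_of_ne_zero h2)

end Along

/-! ## 2. Generic chart transfer for the Gauss valuation -/

section Gauss

variable {C : Type} [Field C] (O : ValuationSubring C)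
variable {F F' : IntermediateField C (LaurentSeries C)} (hle : F ≤ F')
variable (h : HasScale O F) (h' : HasScale O F')

/-- The underlying series of the reduction. -/
theorem coe_red (x : ↥(redSetting O h).V) :
    (((redSetting O h).red x : ↥(redField O F h)) : LaurentSeries (kV O))
      = gaussRedV O ⟨((x : ↥F) : LaurentSeries C), x.2⟩ := rfl

theorem mem_V_inclusion (x : ↥F) (hx : x ∈ (redSetting O h).V) :
    IntermediateField.inclusion hle x ∈ (redSetting O h').V := hx

theorem inclusion_red (x : ↥F) (hx : x ∈ (redSetting O h).V)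
    (hx' : IntermediateField.inclusion hle x ∈ (redSetting O h').V) :
    IntermediateField.inclusion (H51.redField_mono O hle h h') ((redSetting O h).red ⟨x, hx⟩)
      = (redSetting O h').red ⟨IntermediateField.inclusion hle x, hx'⟩ := by
  apply Subtype.ext
  rw [IntermediateField.coe_inclusion, coe_red, coe_red]
  rfl

/-- **Chart transfer** (generic): if `[F' : F] = [F~' : F~] = n ≠ 0`, `F~' / F~` is separable and
the characteristic of `C` is zero, the "pre" fields of a chart `x` of `F` pass to the chart `x`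
of `F'`. -/
theorem chart_transfer [CharZero C] (n : ℕ) (hn0 : n ≠ 0) (hn : F.relfinrank F' = n)
    (hnκ : (redField O F h).relfinrank (redField O F' h') = n)
    (hsepκ : ∀ y ∈ redField O F' h', IsSeparable ↥(redField O F h) y)
    (x : ↥F) (hx : x ∈ (redSetting O h).V)
    (htr : Transcendental (kV O) ((redSetting O h).red ⟨x, hx⟩))
    (hfin : FiniteDimensional ↥C⟮x⟯ ↥F)
    (hfr : Module.finrank ↥(kV O)⟮(redSetting O h).red ⟨x, hx⟩⟯ ↥(redField O F h)
      = Module.finrank ↥C⟮x⟯ ↥F)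
    (hsep : Algebra.IsSeparable ↥(kV O)⟮(redSetting O h).red ⟨x, hx⟩⟯ ↥(redField O F h)) :
    ∃ hx' : IntermediateField.inclusion hle x ∈ (redSetting O h').V,
      Transcendental (kV O) ((redSetting O h').red ⟨IntermediateField.inclusion hle x, hx'⟩) ∧
      FiniteDimensional ↥C⟮IntermediateField.inclusion hle x⟯ ↥F' ∧
      Algebra.IsSeparable ↥C⟮IntermediateField.inclusion hle x⟯ ↥F' ∧
      Module.finrank
          ↥(kV O)⟮(redSetting O h').red ⟨IntermediateField.inclusion hle x, hx'⟩⟯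
          ↥(redField O F' h') = Module.finrank ↥C⟮IntermediateField.inclusion hle x⟯ ↥F' ∧
      Algebra.IsSeparable
        ↥(kV O)⟮(redSetting O h').red ⟨IntermediateField.inclusion hle x, hx'⟩⟯
        ↥(redField O F' h') := by
  have hleκ : redField O F h ≤ redField O F' h' := H51.redField_mono O hle h h'
  have hx' : IntermediateField.inclusion hle x ∈ (redSetting O h').V :=
    mem_V_inclusion O hle h h' x hx
  have hincl := inclusion_red O hle h h' x hx hx'
  -- the two degrees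
  have hN : finrankAlong C (IntermediateField.inclusion hle) = n := by
    rw [← hn]
    exact H51.finrank_along_inclusion hle
  have hNκ : finrankAlong (kV O) (IntermediateField.inclusion hleκ) = n := by
    rw [← hnκ]
    exact H51.finrank_along_inclusion hleκ
  -- separability of `F~' / F~`
  have hκsep : letI := algebraAlong (IntermediateField.inclusion hleκ)
      Algebra.IsSeparable ↥(redField O F h) ↥(redField O F' h') := by
    letI a0 : Algebra ↥(redField O F h) ↥(redField O F' h') :=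
      algebraAlong (IntermediateField.inclusion hleκ)
    haveI : IsScalarTower ↥(redField O F h) ↥(redField O F' h') (LaurentSeries (kV O)) :=
      IsScalarTower.of_algebraMap_eq fun _ => rfl
    refine ⟨fun z => ?_⟩
    have h1 := hsepκ (z : LaurentSeries (kV O)) z.2
    unfold IsSeparable at h1 ⊢
    have h2 : minpoly ↥(redField O F h)
        (algebraMap ↥(redField O F' h') (LaurentSeries (kV O)) z)
        = minpoly ↥(redField O F h) z :=
      minpoly.algebraMap_eq (algebraMap ↥(redField O F' h') (LaurentSeries (kV O))).injective z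
    rw [← h2]
    exact h1
  have hfinH : FiniteDimensional ↥C⟮IntermediateField.inclusion hle x⟯ ↥F' :=
    finite_adjoin_along (IntermediateField.inclusion hle) x hfin (by rw [hN]; exact hn0)
  refine ⟨hx', ?_, hfinH, ?_, ?_, ?_⟩
  · -- transcendence
    rw [← hincl]
    intro hal
    exact htr ((isAlgebraic_algHom_iff (IntermediateField.inclusion hleκ)
      (RingHom.injective _)).mp hal)
  · -- characteristic zero
    haveI : CharZero ↥C⟮IntermediateField.inclusion hle x⟯ :=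
      charZero_of_injective_algebraMap
        (algebraMap C ↥C⟮IntermediateField.inclusion hle x⟯).injective
    exact Algebra.IsAlgebraic.isSeparable_of_perfectField
  · -- the degree
    have e1 := finrank_adjoin_along (IntermediateField.inclusion hle) x
    have e2 := finrank_adjoin_along (IntermediateField.inclusion hleκ)
      ((redSetting O h).red ⟨x, hx⟩)
    rw [hincl] at e2
    rw [e1, e2, hN, hNκ, hfr]
  · -- separability of the residue extension
    have e3 := isSeparable_adjoin_along (IntermediateField.inclusion hleκ)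
      ((redSetting O h).red ⟨x, hx⟩) hsep hκsep
    rw [hincl] at e3
    exact e3

end Gauss

/-! ## 3. The leaf -/

/-- `[F_H(M) : F₀(M)] = [(ℤ/c)ˣ : ±H]`. -/
theorem relfinrank_bar_FHbar (M c : ℕ) (H : Subgroup (ZMod c)ˣ) (hc2 : 2 ≤ c) (hc : c ∣ M)
    (hM : M ≠ 0) :
    (modularFunctionFieldBar M).relfinrank (FHbar M c H) = (H94.pmSubgroup c H).index := by
  rw [← H51.finrank_along_inclusion (bar_le_FHbar M c H)]
  exact H94.finrankAlong_inclBar M c H hc2 hc hM (H84.stmt_FH_gal M c H)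

/-- **CHART**. -/
theorem stmt_Chart : Stmt_Chart := by
  intro hdeg M c H hc2 hc hM q hq hqM A hA x hx htr hfin hfr hsep
  obtain ⟨hd1, hd2⟩ := hdeg M c H hc2 hc hM q hq hqM A hA
  haveI : NeZero c := ⟨by omega⟩
  have hidx : (H94.pmSubgroup c H).index ≠ 0 := Subgroup.index_ne_zero_of_finite
  exact chart_transfer A (bar_le_FHbar M c H) (hasScale_laurentBaseChange A M)
    (H94.hasScale_FHbar A M c H) (H94.pmSubgroup c H).index hidx
    (relfinrank_bar_FHbar M c H hc2 hc hM) hd1 hd2 x hx htr hfin hfr hsep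

end Fermat.Agent.S48.B2.R.H66C

end
end
-- ==== END Fermat.Agent.S48.B2.R.H66_Chart
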