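-- GENERATED (merged mirror, NOTES/tools/trim/merge3_helper67.py): 5 modules of the originals, bodies verbatim.
import Fermat.Agent.Zm.S48_L10_000
import Fermat.Agent.Zm.S35_L05_004
import Fermat.Agent.Zm.S48_L05_003
import Fermat.Agent.Zm.S48_L10_001
import Fermat.Agent.Zm.S48_L07_001
import Fermat.Agent.Zm.S48_L04_001
import Fermat.Agent.Zm.S48_L05_001
import Fermat.Agent.Zm.S48_L09_000
import Fermat.Agent.Zm.S48_L04_000
import Fermat.Agent.Zm.S48_L08_001

-- ==== BEGIN Fermat.Agent.NEB.H84_Beta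
section

/-!
# NEB, package FH-BETA, part 2 (helper84): `f(q) ↦ f(q^ℓ)` maps `F_H(M)` into `F_H(M ℓ)`

* `mem_of_power_sums` (pure algebra, Lagrange interpolation): if `t_d ∈ E`, `y_d` depends only on
  `t_d` and all power sums `∑_d t_d^i y_d` lie in the subfield `E`, then every `y_d` lies in `E`;
* `powerSum_mem_full` : the power sums `∑_d e_{±dH}^i · e_{±dH}(q^ℓ)` lie in `F₀(M ℓ)`
  (they are `Γ₀(M ℓ)`-invariant);
* `stmt_FH_beta : Stmt_FH_beta M c ℓ H`.
-/

set_option autoImplicit false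
set_option linter.unusedSectionVars false

open UpperHalfPlane ModularForm CongruenceSubgroup ModularCurve
open scoped MatrixGroups ModularForm Manifold

noncomputable section

namespace Fermat.Agent.NEB.H84

open Fermat.Agent.S23.H22 (Nice conjGamma0)
open Fermat.Agent.GTor (qLaurent)

/-! ### Lagrange interpolation -/

section PowerSums

theorem mem_of_power_sums {L : Type*} [Field L] [CharZero L] (E : Subfield L) {D : Type*}
    [Fintype D] (t y : D → L) (ht : ∀ d, t d ∈ E) (hy : ∀ d d', t d = t d' → y d = y d')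
    (hs : ∀ i : ℕ, ∑ d, t d ^ i * y d ∈ E) (a : D) : y a ∈ E := by
  classical
  set Zc := (Finset.univ : Finset D).filter (fun d => ¬ t d = t a) with hZc
  set Z := (Finset.univ : Finset D).filter (fun d => t d = t a) with hZ
  set PE : Polynomial E := ∏ d ∈ Zc, (Polynomial.X - Polynomial.C ⟨t d, ht d⟩) with hPE
  set P : Polynomial L := PE.map E.subtype with hP
  have hPeval : ∀ x : L, P.eval x = ∏ d ∈ Zc, (x - t d) := by
    intro x
    rw [hP, hPE, Polynomial.eval_map, Polynomial.eval₂_finsetProd]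
    apply Finset.prod_congr rfl
    intro d _
    simp
  have hcoeff : ∀ i, P.coeff i ∈ E := by
    intro i
    rw [hP, Polynomial.coeff_map]
    exact (PE.coeff i).2
  have h1 : ∑ i ∈ Finset.range (P.natDegree + 1), P.coeff i * ∑ d, t d ^ i * y d =
      ∑ d, P.eval (t d) * y d := by
    simp_rw [Polynomial.eval_eq_sum_range, Finset.mul_sum, Finset.sum_mul]
    rw [Finset.sum_comm]
    apply Finset.sum_congr rfl
    intro d _
    apply Finset.sum_congr rfl
    intro i _
    ring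
  have h2 : ∑ d, P.eval (t d) * y d = ((Z.card : ℕ) : L) * (P.eval (t a) * y a) := by
    rw [← Finset.sum_filter_add_sum_filter_not Finset.univ (fun d => t d = t a)]
    have hz : ∑ d ∈ Zc, P.eval (t d) * y d = 0 := by
      apply Finset.sum_eq_zero
      intro d hd
      rw [hPeval, Finset.prod_eq_zero (i := d) hd (sub_self _), zero_mul]
    rw [hz, add_zero]
    rw [Finset.sum_congr rfl (g := fun _ => P.eval (t a) * y a)]
    · rw [Finset.sum_const, nsmul_eq_mul]
    · intro d hd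
      have : t d = t a := (Finset.mem_filter.mp hd).2
      rw [this, hy d a this]
  have h3 : P.eval (t a) ≠ 0 := by
    rw [hPeval, Finset.prod_ne_zero_iff]
    intro d hd
    have : ¬ t d = t a := (Finset.mem_filter.mp hd).2
    exact sub_ne_zero.mpr (Ne.symm this)
  have h4 : ((Z.card : ℕ) : L) ≠ 0 := by
    have : 0 < Z.card := Finset.card_pos.mpr ⟨a, by simp [hZ]⟩
    exact_mod_cast this.ne'
  have h5 : P.eval (t a) ∈ E := by
    rw [hPeval]
    exact Subfield.prod_mem _ (fun d _ => E.sub_mem (ht a) (ht d))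
  have h6 : ∑ i ∈ Finset.range (P.natDegree + 1), P.coeff i * ∑ d, t d ^ i * y d ∈ E :=
    Subfield.sum_mem _ (fun i _ => E.mul_mem (hcoeff i) (hs i))
  have h7 : y a = (∑ i ∈ Finset.range (P.natDegree + 1), P.coeff i * ∑ d, t d ^ i * y d) /
      (((Z.card : ℕ) : L) * P.eval (t a)) := by
    rw [h1, h2]
    field_simp
  rw [h7]
  exact E.div_mem h6 (E.mul_mem (natCast_mem E _) h5)

end PowerSums

/-! ### Finite sums and powers in `Rel` -/

section RelSum

variable {M : ℕ} {γ : SL(2, ℤ)}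

theorem rel_zero (M : ℕ) (γ : SL(2, ℤ)) : Rel M γ 0 0 := by
  have := rel_C M γ 0
  rwa [map_zero] at this

theorem rel_one (M : ℕ) (γ : SL(2, ℤ)) : Rel M γ 1 1 := by
  have := rel_C M γ 1
  rwa [map_one] at this

theorem rel_pow (hγ : γ ∈ Gamma0 M) {x y : LaurentSeries ℂ} (h : Rel M γ x y) (n : ℕ) :
    Rel M γ (x ^ n) (y ^ n) := by
  induction n with
  | zero =>
    rw [pow_zero, pow_zero]
    exact rel_one M γ
  | succ n ih =>
    rw [pow_succ, pow_succ]
    exact rel_mul hγ ih h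

theorem rel_sum (hγ : γ ∈ Gamma0 M) {D : Type*} (s : Finset D) (f g : D → LaurentSeries ℂ)
    (h : ∀ d ∈ s, Rel M γ (f d) (g d)) : Rel M γ (∑ d ∈ s, f d) (∑ d ∈ s, g d) := by
  classical
  induction s using Finset.induction_on with
  | empty =>
    rw [Finset.sum_empty, Finset.sum_empty]
    exact rel_zero M γ
  | insert a s ha ih =>
    rw [Finset.sum_insert ha, Finset.sum_insert ha]
    exact rel_add hγ (h a (Finset.mem_insert_self a s))
      (ih (fun d hd => h d (Finset.mem_insert_of_mem hd)))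

end RelSum

/-! ### The generators over `ℂ` -/

section GenC

variable {M c : ℕ} (H : Subgroup (ZMod c)ˣ)

theorem relC_gen (hc2 : 2 ≤ c) (hc : c ∣ M) {γ : SL(2, ℤ)} (hγ : γ ∈ Gamma0 M) (a : (ZMod c)ˣ) :
    Rel M γ (coeffEmb ℂ (eisGen c (cosetSet c H a)))
      (coeffEmb ℂ (eisGen c (cosetSet c H ((dUnit hc γ hγ)⁻¹ * a)))) := by
  have := rel_eisGen hc hγ (cosetSet c H a) (zero_not_mem_cosetSet H hc2 a)
    (neg_mem_cosetSet H a)
  rw [← coe_dUnit hc γ hγ, cosetSet_translate] at this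
  exact this

variable (ℓ : ℕ) [NeZero ℓ] [NeZero M]

theorem dUnit_conj (hc : c ∣ M) {γ : SL(2, ℤ)} (hγ : γ ∈ Gamma0 (M * ℓ)) :
    dUnit hc (conjGamma0 ℓ γ (mem_Gamma0_left ℓ hγ)) (conjGamma0_mem_Gamma0 ℓ hγ) =
      dUnit (hc.trans (dvd_mul_right M ℓ)) γ hγ := by
  apply Units.ext
  rw [coe_dUnit, coe_dUnit, conjGamma0_apply_11]

theorem relC_gen_beta (hc2 : 2 ≤ c) (hc : c ∣ M) {γ : SL(2, ℤ)} (hγ : γ ∈ Gamma0 (M * ℓ))
    (a : (ZMod c)ˣ) :
    Rel (M * ℓ) γ (qExpand ℂ ℓ (coeffEmb ℂ (eisGen c (cosetSet c H a))))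
      (qExpand ℂ ℓ (coeffEmb ℂ (eisGen c (cosetSet c H
        ((dUnit (hc.trans (dvd_mul_right M ℓ)) γ hγ)⁻¹ * a))))) := by
  apply rel_beta ℓ hγ
  have := relC_gen H hc2 hc (conjGamma0_mem_Gamma0 (M := M) ℓ hγ) a
  rwa [dUnit_conj ℓ hc hγ] at this

end GenC

/-! ### The power sums -/

section Main

variable {M c : ℕ} [NeZero M] (H : Subgroup (ZMod c)ˣ) (ℓ : ℕ) [NeZero ℓ]

theorem powerSum_mem_full [NeZero c] (hc2 : 2 ≤ c) (hc : c ∣ M) (i : ℕ) :
    ∑ d : (ZMod c)ˣ, eisGen c (cosetSet c H d) ^ i * qExpand ℚ ℓ (eisGen c (cosetSet c H d)) ∈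
      modularFunctionFieldFull (M * ℓ) := by
  have hMℓ : NeZero (M * ℓ) := ⟨mul_ne_zero (NeZero.ne M) (NeZero.ne ℓ)⟩
  apply Fermat.Agent.NEB.H30.descent_rat (L := ℂ) (modularFunctionFieldFull (M * ℓ))
  apply mem_FNL_of_rel
  intro γ hγ
  have hcMℓ : c ∣ M * ℓ := hc.trans (dvd_mul_right M ℓ)
  set u := dUnit hcMℓ γ hγ with hu
  have e1 : coeffEmb ℂ (∑ d : (ZMod c)ˣ, eisGen c (cosetSet c H d) ^ i *
      qExpand ℚ ℓ (eisGen c (cosetSet c H d))) =
      ∑ d : (ZMod c)ˣ, coeffEmb ℂ (eisGen c (cosetSet c H d)) ^ i *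
        qExpand ℂ ℓ (coeffEmb ℂ (eisGen c (cosetSet c H d))) := by
    rw [map_sum]
    apply Finset.sum_congr rfl
    intro d _
    rw [map_mul, map_pow]
    congr 1
    exact Fermat.Agent.S28.H10.coeffMap_qExpand ℓ _
  rw [e1]
  have key := rel_sum hγ (Finset.univ : Finset (ZMod c)ˣ)
    (fun d => coeffEmb ℂ (eisGen c (cosetSet c H d)) ^ i *
        qExpand ℂ ℓ (coeffEmb ℂ (eisGen c (cosetSet c H d))))
    (fun d => coeffEmb ℂ (eisGen c (cosetSet c H (u⁻¹ * d))) ^ i *
        qExpand ℂ ℓ (coeffEmb ℂ (eisGen c (cosetSet c H (u⁻¹ * d)))))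
    (fun d _ => rel_mul hγ (rel_pow hγ (relC_gen H hc2 hcMℓ hγ d) i)
      (relC_gen_beta H ℓ hc2 hc hγ d))
  have e2 : ∑ d : (ZMod c)ˣ, coeffEmb ℂ (eisGen c (cosetSet c H (u⁻¹ * d))) ^ i *
        qExpand ℂ ℓ (coeffEmb ℂ (eisGen c (cosetSet c H (u⁻¹ * d)))) =
      ∑ d : (ZMod c)ˣ, coeffEmb ℂ (eisGen c (cosetSet c H d)) ^ i *
        qExpand ℂ ℓ (coeffEmb ℂ (eisGen c (cosetSet c H d))) :=
    Equiv.sum_comp (Equiv.mulLeft u⁻¹) (fun d => coeffEmb ℂ (eisGen c (cosetSet c H d)) ^ i *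
        qExpand ℂ ℓ (coeffEmb ℂ (eisGen c (cosetSet c H d))))
  rwa [e2] at key

theorem qExpand_gen_mem [NeZero c] (hc2 : 2 ≤ c) (hc : c ∣ M) (a : (ZMod c)ˣ) :
    qExpand ℚ ℓ (eisGen c (cosetSet c H a)) ∈ FHQ (M * ℓ) c H := by
  have hchar : CharZero (LaurentSeries ℚ) :=
    charZero_of_injective_ringHom
      (f := (HahnSeries.C : ℚ →+* LaurentSeries ℚ)) HahnSeries.C_injective
  have := mem_of_power_sums
    (@IntermediateField.toSubfield ℚ (LaurentSeries ℚ) _ _ (HahnSeries.powerSeriesAlgebra ℤ ℚ)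
      (FHQ (M * ℓ) c H))
    (fun d : (ZMod c)ˣ => eisGen c (cosetSet c H d))
    (fun d : (ZMod c)ˣ => qExpand ℚ ℓ (eisGen c (cosetSet c H d)))
    (fun d => eisGen_mem_FHQ (M * ℓ) c H d)
    (fun d d' h => by
      show qExpand ℚ ℓ (eisGen c (cosetSet c H d)) = qExpand ℚ ℓ (eisGen c (cosetSet c H d'))
      have h' : eisGen c (cosetSet c H d) = eisGen c (cosetSet c H d') := h
      rw [h'])
    (fun i => full_le_FHQ (M * ℓ) c H (powerSum_mem_full H ℓ hc2 hc i)) a
  exact this

/-- **FH-BETA.** -/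
theorem stmt_FH_beta (M c ℓ : ℕ) [NeZero ℓ] (H : Subgroup (ZMod c)ˣ) : Stmt_FH_beta M c ℓ H := by
  intro hc2 hc hM x hx
  have : NeZero M := ⟨hM⟩
  have : NeZero c := ⟨by omega⟩
  refine FHQ_induction M c H (P := fun x => qExpand ℚ ℓ x ∈ FHQ (M * ℓ) c H)
    ?_ ?_ ?_ ?_ ?_ ?_ ?_ ?_ hx
  · intro r
    rw [algebraMap_laurentSeries_eq_single, qExpand_single, mul_zero,
      ← algebraMap_laurentSeries_eq_single]
    exact (FHQ (M * ℓ) c H).algebraMap_mem r
  · intro d hd0 hd
    rw [qExpand_qExpand]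
    have : NeZero (ℓ * d) := ⟨mul_ne_zero (NeZero.ne ℓ) (NeZero.ne d)⟩
    exact full_le_FHQ (M * ℓ) c H (IntermediateField.subset_adjoin ℚ _
      ⟨ℓ * d, this, by rw [mul_comm]; exact mul_dvd_mul_right hd ℓ, rfl⟩)
  · intro a
    exact qExpand_gen_mem H ℓ hc2 hc a
  · rw [map_one]
    exact one_mem _
  · intro x y hx hy
    rw [map_add]
    exact add_mem hx hy
  · intro x hx
    rw [map_neg]
    exact neg_mem hx
  · intro x hx
    rw [map_inv₀]
    exact inv_mem hx
  · intro x y hx hy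
    rw [map_mul]
    exact mul_mem hx hy

end Main

end Fermat.Agent.NEB.H84

end
end
-- ==== END Fermat.Agent.NEB.H84_Beta

-- ==== BEGIN Fermat.Agent.S48.B.H43_Wiring2
section

/-!
# S48, mountain B: wiring, second form (helper43)

`resRep_of' : B1.H55.Stmt_EisLiftNeb → B2.Stmt_TatePieceH' → Stmt_SmallPieceL → Stmt_DirCharL →
  Stmt_ChebSet → Stmt_ResRep`: the same assembly as `resRep_of`, but the Eichler–Shimura piece is
only asked for eigenvectors WITH nebentypus, at levels `M ≥ 2` and primes `ℓ ≥ 5`, `ℓ² ∤ M`.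
-/

set_option autoImplicit false
set_option linter.unusedSectionVars false
set_option linter.style.haveILetI false

open CongruenceSubgroup
open scoped MatrixGroups

namespace Fermat.Agent.S48.B.H43

open Fermat.Agent.S48.Asm Fermat.Agent.S48.Asm.H43

local notation "Γℚ" => (AlgebraicClosure ℚ ≃ₐ[ℚ] AlgebraicClosure ℚ)

theorem resRep_of' (hE : Fermat.Agent.S48.B1.H55.Stmt_EisLiftNeb)
    (hT : Fermat.Agent.S48.B2.Stmt_TatePieceH') (hS : Stmt_SmallPieceL)
    (hD : Stmt_DirCharL) (hCS : Stmt_ChebSet) : Stmt_ResRep := by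
  intro N _ ε f hf
  obtain ⟨ℓ₀, hℓ₀⟩ := hE N ε f hf
  refine ⟨max ℓ₀ (max 5 (N + 1)), fun ℓ hℓ hge k _ _ _ φ => ?_⟩
  have hNℓ0 : N * ℓ ≠ 0 := Nat.mul_ne_zero (NeZero.ne N) hℓ.ne_zero
  haveI : NeZero (N * ℓ) := ⟨hNℓ0⟩
  have hℓ5 : 5 ≤ ℓ := le_trans (le_trans (le_max_left _ _) (le_max_right _ _)) hge
  have hℓN : N + 1 ≤ ℓ := le_trans (le_trans (le_max_right _ _) (le_max_right _ _)) hge
  have hsq : ¬ ℓ ^ 2 ∣ N * ℓ := by
    intro hd
    rw [pow_two] at hd
    have h1 : ℓ ∣ N := (Nat.mul_dvd_mul_iff_right hℓ.pos).mp (by rwa [Nat.mul_comm N ℓ] at hd ⊢)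
    have h2 := Nat.le_of_dvd (Nat.pos_of_ne_zero (NeZero.ne N)) h1
    omega
  have htot : ¬ ℓ ∣ Nat.totient (N * ℓ) := by
    have hNpos : 0 < N := Nat.pos_of_ne_zero (NeZero.ne N)
    have hcop : Nat.Coprime N ℓ := by
      rw [Nat.coprime_comm]
      exact (Nat.Prime.coprime_iff_not_dvd hℓ).2 fun h1 =>
        absurd (Nat.le_of_dvd hNpos h1) (by omega)
    rw [Nat.totient_mul hcop, Nat.totient_prime hℓ]
    intro hd
    rcases (Nat.Prime.dvd_mul hℓ).1 hd with h1 | h1
    · have h2 := Nat.le_of_dvd (Nat.totient_pos.2 hNpos) h1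
      have h3 := Nat.totient_le N
      omega
    · have h2 := Nat.le_of_dvd (by omega) h1
      omega
  have hM2 : 2 ≤ N * ℓ :=
    le_trans (by omega : 2 ≤ ℓ) (Nat.le_mul_of_pos_left ℓ (Nat.pos_of_ne_zero (NeZero.ne N)))
  obtain ⟨χ, G, b, hG, hNeb, hcong⟩ := hℓ₀ ℓ hℓ (le_trans (le_max_left _ _) hge) k φ
  obtain ⟨r, ρ, hr, hfl, hρ⟩ := hT (N * ℓ) χ G b hM2 hG hNeb ℓ hℓ hℓ5 hsq htot k φ
  obtain ⟨θ, hθfl, hθ⟩ := hD N ε k φ
  have h2 : (2 : k) ≠ 0 := by
    intro h
    have h' : ((2 : ℕ) : k) = 0 := by exact_mod_cast h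
    have hd := (CharP.cast_eq_zero_iff k ℓ 2).mp h'
    have := Nat.le_of_dvd (by norm_num) hd
    omega
  -- the quadratic relation at Frobenius elements
  have hfrob : ∀ p : ℕ, p.Prime → ¬ p ∣ N * ℓ →
      ∀ A : ValuationSubring (AlgebraicClosure ℚ), A.LiesOverPrime p →
        ∀ σ : Γℚ, A.IsFrobeniusAt σ p →
          ∃ x : k, (∀ a : integralClosure ℤ ℂ, (a : ℂ) = ModularFormClass.qCoeff f p → x = φ a) ∧
            (∀ e : integralClosure ℤ ℂ, (e : ℂ) = ε (p : ZMod N) → ((θ σ : kˣ) : k) = φ e) ∧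
            ((ρ σ : GL (Fin r) k) : Matrix (Fin r) (Fin r) k) *
                ((ρ σ : GL (Fin r) k) : Matrix (Fin r) (Fin r) k) -
              x • ((ρ σ : GL (Fin r) k) : Matrix (Fin r) (Fin r) k) +
              ((θ σ : kˣ) : k) • (1 : Matrix (Fin r) (Fin r) k) = 0 := by
    intro p hp hpNℓ A hA σ hσ
    have hpN : ¬ p ∣ N := fun h => hpNℓ (Dvd.dvd.mul_right h ℓ)
    have hpNℓℓ : ¬ p ∣ N * ℓ * ℓ := by
      intro hd
      rcases (Nat.Prime.dvd_mul hp).mp hd with h | h
      · exact hpNℓ h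
      · exact hpNℓ (Dvd.dvd.mul_left h N)
    obtain ⟨β, c, hβ, hc, hβa, hce⟩ := hcong p hp hpNℓ
    have hrel := (hρ p hp hpNℓℓ A hA).2 σ hσ β c hβ hc
    have hθe := (hθ p hp hpN A hA).2 σ hσ
    have hei := isIntegral_dirichlet N ε (p : ZMod N)
    have hθc : ((θ σ : kˣ) : k) = φ c := by
      rw [hθe ⟨_, hei⟩ rfl, hce ⟨_, hei⟩ rfl]
    refine ⟨φ β, fun a ha => hβa a ha, hθe, ?_⟩
    rw [hθc]
    exact hrel
  -- every element satisfies a quadratic relation
  have hquad : ∀ g : Γℚ, ∃ x : k,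
      ((ρ g : GL (Fin r) k) : Matrix (Fin r) (Fin r) k) *
          ((ρ g : GL (Fin r) k) : Matrix (Fin r) (Fin r) k) -
        x • ((ρ g : GL (Fin r) k) : Matrix (Fin r) (Fin r) k) +
        ((θ g : kˣ) : k) • (1 : Matrix (Fin r) (Fin r) k) = 0 := by
    intro g
    obtain ⟨p, A, σ, hp, hpS, hA, hσ, h1, h2'⟩ :=
      exists_frob_same_gen hCS ρ θ hfl hθfl (N * ℓ).primeFactors g
    have hpNℓ : ¬ p ∣ N * ℓ := fun hd => hpS (Nat.mem_primeFactors.mpr ⟨hp, hd, hNℓ0⟩)
    obtain ⟨x, -, -, hx⟩ := hfrob p hp hpNℓ A hA σ hσ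
    refine ⟨x, ?_⟩
    rw [← h1, ← h2']
    exact hx
  choose a ha using hquad
  obtain ⟨ρ₂, hker, htd⟩ := hS k h2 Γℚ r hr ρ θ a ha
  refine ⟨ρ₂, ?_, fun p hp hpNℓ a' e' ha' he' A hA => ⟨fun σ hσ => ?_, fun σ hσ => ?_⟩⟩
  · -- finite level
    have hfl₀ := finiteLevel_prod' ρ θ hfl hθfl
    refine finiteLevel_of_imp (ρ.prod θ) ρ₂ (fun σ hσ => ?_) hfl₀
    rw [MonoidHom.prod_apply] at hσ
    have h1 : ρ σ = 1 := congrArg Prod.fst hσ
    have h2' : θ σ = 1 := congrArg Prod.snd hσ
    exact hker σ h1 h2'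
  · have hpN : ¬ p ∣ N := fun h => hpNℓ (Dvd.dvd.mul_right h ℓ)
    have hpNℓℓ : ¬ p ∣ N * ℓ * ℓ := by
      intro hd
      rcases (Nat.Prime.dvd_mul hp).mp hd with h | h
      · exact hpNℓ h
      · exact hpNℓ (Dvd.dvd.mul_left h N)
    exact hker σ ((hρ p hp hpNℓℓ A hA).1 σ hσ) ((hθ p hp hpN A hA).1 σ hσ)
  · obtain ⟨x, hxa, hθe, hx⟩ := hfrob p hp hpNℓ A hA σ hσ
    have hax : a σ = x := quad_coeff_unique hr (ρ σ) (ha σ) hx
    obtain ⟨h1, h2'⟩ := htd σ
    exact ⟨by rw [h1, hax, hxa a' ha'], by rw [h2', hθe e' he']⟩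

end Fermat.Agent.S48.B.H43

end
-- ==== END Fermat.Agent.S48.B.H43_Wiring2

-- ==== BEGIN Fermat.Agent.S48.B1.H55_B1Main
section

/-!
# S48, B1 (helper55): `B.Stmt_EisLift` from `Stmt_Eis1` alone

All the other leaves are proved: Teich (helper32), HeckeNeb (helper19), FinDimNeb (helper34),
NebOfRel (helper31), EigInt (helper61), AlgForm (helper96), Int (leaf A).
-/

set_option autoImplicit false

namespace Fermat.Agent.S48.B1.H55

theorem stmt_EisLiftNeb_of_eis1 (hEis1 : Stmt_Eis1) : Stmt_EisLiftNeb :=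
  stmt_EisLiftNeb_of Fermat.Agent.S48.B1.H32.stmt_Teich hEis1
    Fermat.Agent.S48.B1.H19.stmt_HeckeNeb Fermat.Agent.S48.B1.H34.stmt_FinDimNeb
    (Fermat.Agent.S48.B1.H31.stmt_NebOfRel_of Fermat.Agent.S48.B1.H19.stmt_HeckeNeb
      Fermat.Agent.S48.B1.H34.stmt_FinDimNeb)
    Fermat.Agent.S48.B1.H61.stmt_EigInt Fermat.Agent.S48.B1.H96.stmt_AlgForm
    Fermat.Agent.S48.Int.H55.stmt_Int

theorem stmt_EisLift_of_eis1 (hEis1 : Stmt_Eis1) : B.Stmt_EisLift :=
  stmt_EisLift_of_neb (stmt_EisLiftNeb_of_eis1 hEis1)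

end Fermat.Agent.S48.B1.H55

end
-- ==== END Fermat.Agent.S48.B1.H55_B1Main

-- ==== BEGIN Fermat.Agent.S48.B2.R.H31_RDeg
section

/-!
# S48 B2, slice R, leaf R-DEG (helper31): the residue degree of the Gauss valuation of `F_H(M)`

Hypothesis **IRR** (`IrrAt M c H dd A`): the Gauss valuation ring `V_H` of `F_H(M)` at `A` is stable
under the diamond operators `dd.ρ d`.

Exact statement of the leaf (`Stmt_RDeg`, proved by `stmt_RDeg`): for `2 ≤ c`, `c ∣ M`, `M ≠ 0`,
`A` a valuation ring of `ℚ̄`, `dd : DiamondData M c H` with `IrrAt M c H dd A`: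

* `[κ_H : κ_0] = [(ℤ/c)ˣ : ±H] = [F_H(M) : F₀(M)]`   (`κ` = `redField`);
* `κ_H / κ_0` is Galois (in particular separable), for the algebra structure along the inclusion.

Proof: the diamond operators act on `κ_H` (`resAction`), trivially on `κ_0`; the action of
`(ℤ/c)ˣ / ±H` is faithful because the reductions of the generators `e_{±aH}` have `q¹`-coefficient
`[a ∈ ±H]` (`H31_GenCoeff`); so `|Δ| ≤ |Aut(κ_H/κ_0)| ≤ [κ_H : κ_0] ≤ [F_H : F₀] = |Δ|`
(the last inequality is `f ≤ n`, `H31_RFF`).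
-/

set_option autoImplicit false
set_option linter.unusedSectionVars false
set_option linter.style.haveILetI false
set_option synthInstance.maxHeartbeats 400000
set_option maxHeartbeats 1000000

open ModularCurve AlgebraicCurve IntermediateField

noncomputable section

namespace Fermat.Agent.S48.B2.R.H31

open Fermat.Agent.NEB Fermat.Agent.NEB.JH Fermat.Agent.RED Fermat.Agent.RED.H73
  Fermat.Agent.S28.H73

/-! ## 1. Abstract: the action on the residue field -/

section Abstract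

variable {K0 L κ : Type*} [Field K0] [Field L] [Algebra K0 L] [Field κ]
  (V : ValuationSubring L) (red : ↥V →+* κ)
  {G : Type*} [Group G] (ρ : G →* (L ≃ₐ[K0] L))
  (hV : ∀ g (x : L), x ∈ V → ρ g x ∈ V)

/-- The restriction of `ρ g` to the stable valuation ring `V`. -/
def resV (g : G) : ↥V →+* ↥V where
  toFun x := ⟨ρ g x, hV g x x.2⟩
  map_one' := Subtype.ext (map_one (ρ g))
  map_mul' x y := Subtype.ext (map_mul (ρ g) (x : L) (y : L))
  map_zero' := Subtype.ext (map_zero (ρ g))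
  map_add' x y := Subtype.ext (map_add (ρ g) (x : L) (y : L))

theorem coe_resV (g : G) (x : ↥V) : ((resV V ρ hV g x : ↥V) : L) = ρ g x := rfl

theorem resV_one (x : ↥V) : resV V ρ hV 1 x = x := by
  apply Subtype.ext
  rw [coe_resV, map_one]
  rfl

theorem resV_mul (g g' : G) (x : ↥V) :
    resV V ρ hV (g * g') x = resV V ρ hV g (resV V ρ hV g' x) := by
  apply Subtype.ext
  rw [coe_resV, coe_resV, coe_resV, map_mul]
  rfl

theorem resV_inv (g : G) (x : ↥V) : resV V ρ hV g⁻¹ (resV V ρ hV g x) = x := by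
  rw [← resV_mul, inv_mul_cancel, resV_one]

variable (hsurj : Function.Surjective red) (hker : ∀ x : ↥V, red x = 0 ↔ ¬ IsUnit x)

include hker in
theorem red_resV_eq_zero (g : G) (x : ↥V) (hx : red x = 0) : red (resV V ρ hV g x) = 0 := by
  rw [hker] at hx ⊢
  intro hu
  apply hx
  have := hu.map (resV V ρ hV g⁻¹)
  rwa [resV_inv] at this

/-- The endomorphism of the residue field induced by `ρ g`. -/
def resHom (g : G) : κ →+* κ :=
  RingHom.liftOfRightInverse red (Function.surjInv hsurj) (Function.rightInverse_surjInv hsurj)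
    ⟨red.comp (resV V ρ hV g), fun x hx => by
      rw [RingHom.mem_ker] at hx ⊢
      exact red_resV_eq_zero V red ρ hV hker g x hx⟩

theorem resHom_red (g : G) (x : ↥V) :
    resHom V red ρ hV hsurj hker g (red x) = red (resV V ρ hV g x) :=
  RingHom.liftOfRightInverse_comp_apply _ _ _ _ x

theorem resHom_comp_inv (g : G) :
    (resHom V red ρ hV hsurj hker g).comp (resHom V red ρ hV hsurj hker g⁻¹) = RingHom.id κ := by
  ext y
  obtain ⟨x, rfl⟩ := hsurj y
  rw [RingHom.comp_apply, resHom_red, resHom_red, RingHom.id_apply]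
  have := resV_inv V ρ hV g⁻¹ x
  rw [inv_inv] at this
  rw [this]

/-- The automorphism of the residue field induced by `ρ g`. -/
def resAut (g : G) : κ ≃+* κ :=
  RingEquiv.ofRingHom (resHom V red ρ hV hsurj hker g) (resHom V red ρ hV hsurj hker g⁻¹)
    (resHom_comp_inv V red ρ hV hsurj hker g)
    (by
      have := resHom_comp_inv V red ρ hV hsurj hker g⁻¹
      rwa [inv_inv] at this)

theorem resAut_red (g : G) (x : ↥V) :
    resAut V red ρ hV hsurj hker g (red x) = red (resV V ρ hV g x) :=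
  resHom_red V red ρ hV hsurj hker g x

/-- **The action on the residue field** of a group acting on a field and stabilising a valuation
ring. -/
def resAction : G →* (κ ≃+* κ) where
  toFun := resAut V red ρ hV hsurj hker
  map_one' := by
    ext y
    obtain ⟨x, rfl⟩ := hsurj y
    rw [resAut_red, resV_one]
    rfl
  map_mul' g g' := by
    ext y
    obtain ⟨x, rfl⟩ := hsurj y
    rw [resAut_red, resV_mul]
    show _ = resAut V red ρ hV hsurj hker g (resAut V red ρ hV hsurj hker g' (red x))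
    rw [resAut_red, resAut_red]

theorem resAction_red (g : G) (x : ↥V) :
    resAction V red ρ hV hsurj hker g (red x) = red (resV V ρ hV g x) :=
  resAut_red V red ρ hV hsurj hker g x

end Abstract

/-! ## 2. Abstract: counting -/

section Count

/-- If a group acts on `K` by `k₀`-automorphisms through a quotient of order `≥ n ≥ [K : k₀]`, then
`[K : k₀] = n` and `K / k₀` is Galois. -/
theorem galois_of_ringAction {k0 K : Type*} [Field k0] [Field K] [Algebra k0 K]
    [FiniteDimensional k0 K] {G : Type*} [Group G] (r : G →* (K ≃+* K))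
    (hfix : ∀ g (a : k0), r g (algebraMap k0 K a) = algebraMap k0 K a)
    (n : ℕ) (hn : Module.finrank k0 K ≤ n) (hidx : n ≤ r.ker.index) :
    Module.finrank k0 K = n ∧ IsGalois k0 K := by
  let r' : G →* (K ≃ₐ[k0] K) :=
    { toFun := fun g => AlgEquiv.ofRingEquiv (f := r g) (hfix g)
      map_one' := by
        ext y
        show r 1 y = y
        rw [map_one]
        rfl
      map_mul' := fun g g' => by
        ext y
        show r (g * g') y = r g (r g' y)
        rw [map_mul]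
        rfl }
  have hker : r'.ker = r.ker := by
    ext g
    rw [MonoidHom.mem_ker, MonoidHom.mem_ker]
    constructor
    · intro h
      ext y
      exact congrArg (fun f : K ≃ₐ[k0] K => f y) h
    · intro h
      ext y
      exact congrArg (fun f : K ≃+* K => f y) h
  have h1 : r.ker.index = Nat.card r'.range := by
    rw [← hker]
    exact Subgroup.index_ker r'
  have h2 : Nat.card r'.range ≤ Nat.card (K ≃ₐ[k0] K) := Subgroup.card_le_card_group r'.range
  have h3 : Nat.card (K ≃ₐ[k0] K) ≤ Module.finrank k0 K := by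
    rw [Nat.card_eq_fintype_card]
    exact AlgEquiv.card_le
  have h4 : Module.finrank k0 K = n := by omega
  refine ⟨h4, IsGalois.of_card_aut_eq_finrank k0 K ?_⟩
  omega

end Count

/-! ## 3. The field `F_H(M)` -/

section FH

variable (M c : ℕ) (H : Subgroup (ZMod c)ˣ) (A : ValuationSubring Kbar)

/-- **IRR**: the Gauss valuation ring of `F_H(M)` at `A` is stable under the diamond operators. -/
def IrrAt (dd : DiamondData M c H) : Prop :=
  ∀ (d : (ZMod c)ˣ) (f : ↥(FHbar M c H)),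
    f ∈ gaussValSub A (FHbar M c H) (Fermat.Agent.NEB.H94.hasScale_FHbar A M c H) →
      dd.ρ d f ∈ gaussValSub A (FHbar M c H) (Fermat.Agent.NEB.H94.hasScale_FHbar A M c H)

variable {M c H A}

theorem gaussResF'_eq_zero_iff (x : ↥(gaussValSub A (FHbar M c H)
    (Fermat.Agent.NEB.H94.hasScale_FHbar A M c H))) :
    gaussResF' A (Fermat.Agent.NEB.H94.hasScale_FHbar A M c H) x = 0 ↔ ¬ IsUnit x := by
  rw [isUnit_iff_gaussResF_ne_zero A (Fermat.Agent.NEB.H94.hasScale_FHbar A M c H), not_not]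
  constructor
  · intro h0
    exact congrArg Subtype.val h0
  · intro h0
    exact Subtype.ext h0

/-- The diamond operators on the residue field `κ_H` of the Gauss valuation. -/
def diamondRed (dd : DiamondData M c H) (hirr : IrrAt M c H A dd) :
    (ZMod c)ˣ →* (↥(redField A (FHbar M c H) (Fermat.Agent.NEB.H94.hasScale_FHbar A M c H))
      ≃+* ↥(redField A (FHbar M c H) (Fermat.Agent.NEB.H94.hasScale_FHbar A M c H))) :=
  resAction (gaussValSub A (FHbar M c H) (Fermat.Agent.NEB.H94.hasScale_FHbar A M c H))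
    (gaussResF' A (Fermat.Agent.NEB.H94.hasScale_FHbar A M c H)) dd.ρ hirr
    (gaussResF'_surjective A _) gaussResF'_eq_zero_iff

/-- `⟨d⟩~ (red x) = red (⟨d⟩ x)`. -/
theorem diamondRed_red (dd : DiamondData M c H) (hirr : IrrAt M c H A dd) (d : (ZMod c)ˣ)
    (x : ↥(gaussValSub A (FHbar M c H) (Fermat.Agent.NEB.H94.hasScale_FHbar A M c H))) :
    diamondRed dd hirr d (gaussResF' A _ x) = gaussResF' A _ ⟨dd.ρ d x, hirr d x x.2⟩ :=
  resAction_red _ _ _ _ _ _ d x

theorem coe_gaussResF'_jh {C : Type} [Field C] (O : ValuationSubring C)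
    {F : IntermediateField C (LaurentSeries C)} (h : HasScale O F) (x : ↥(gaussValSub O F h)) :
    ((gaussResF' O h x : ↥(redField O F h)) : LaurentSeries (kV O)) = gaussResF O h x := rfl

theorem inclBar_mem_gaussValSub (x : ↥(modularFunctionFieldBar M))
    (hx : x ∈ gaussValSub A (modularFunctionFieldBar M) (hasScale_laurentBaseChange A M)) :
    inclBar M c H x ∈ gaussValSub A (FHbar M c H)
      (Fermat.Agent.NEB.H94.hasScale_FHbar A M c H) := by
  rw [mem_gaussValSub_iff, coe_inclBar]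
  exact (mem_gaussValSub_iff A _ x).1 hx

/-- Reduction is compatible with the inclusion `F₀(M) ⊆ F_H(M)`. -/
theorem incl_gaussResF' (x : ↥(gaussValSub A (modularFunctionFieldBar M)
    (hasScale_laurentBaseChange A M))) :
    IntermediateField.inclusion
      (H51.redField_mono A (bar_le_FHbar M c H) (hasScale_laurentBaseChange A M)
        (Fermat.Agent.NEB.H94.hasScale_FHbar A M c H))
        (gaussResF' A (hasScale_laurentBaseChange A M) x)
      = gaussResF' A (Fermat.Agent.NEB.H94.hasScale_FHbar A M c H)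
          ⟨inclBar M c H (x : ↥(modularFunctionFieldBar M)),
            inclBar_mem_gaussValSub (x : ↥(modularFunctionFieldBar M)) x.2⟩ := by
  apply Subtype.ext
  rw [IntermediateField.coe_inclusion, coe_gaussResF'_jh, coe_gaussResF'_jh, gaussResF_apply,
    gaussResF_apply]
  exact congrArg (gaussRedV A) (Subtype.ext (coe_inclBar M c H _).symm)

/-- The diamond operators on `κ_H` fix `κ_0`. -/
theorem diamondRed_incl (dd : DiamondData M c H) (hirr : IrrAt M c H A dd) (d : (ZMod c)ˣ)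
    (y : ↥(redField A (modularFunctionFieldBar M) (hasScale_laurentBaseChange A M))) :
    diamondRed dd hirr d (IntermediateField.inclusion
      (H51.redField_mono A (bar_le_FHbar M c H) (hasScale_laurentBaseChange A M)
        (Fermat.Agent.NEB.H94.hasScale_FHbar A M c H)) y)
      = IntermediateField.inclusion
      (H51.redField_mono A (bar_le_FHbar M c H) (hasScale_laurentBaseChange A M)
        (Fermat.Agent.NEB.H94.hasScale_FHbar A M c H)) y := by
  obtain ⟨x, rfl⟩ := gaussResF'_surjective A (hasScale_laurentBaseChange A M) y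
  rw [incl_gaussResF', diamondRed_red]
  exact congrArg (gaussResF' A (Fermat.Agent.NEB.H94.hasScale_FHbar A M c H))
    (Subtype.ext (dd.fix d (x : ↥(modularFunctionFieldBar M))))

/-- The action of the diamond operators on `κ_H` is faithful modulo `±H`. -/
theorem diamondRed_ker_le (dd : DiamondData M c H) (hirr : IrrAt M c H A dd) :
    (diamondRed dd hirr).ker ≤ Fermat.Agent.NEB.H94.pmSubgroup c H := by
  classical
  intro d hd
  rw [MonoidHom.mem_ker] at hd
  have h1 := congrArg (fun f : (↥(redField A (FHbar M c H)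
      (Fermat.Agent.NEB.H94.hasScale_FHbar A M c H)) ≃+* _) =>
      f (gaussResF' A _ ⟨genBar M c H 1, genBar_mem_gaussValSub M c H A 1⟩)) hd
  simp only [diamondRed_red] at h1
  have h2 := congrArg (fun y : ↥(redField A (FHbar M c H)
      (Fermat.Agent.NEB.H94.hasScale_FHbar A M c H)) =>
      ((y : LaurentSeries (kV A))).coeff 1) h1
  have e1 : (⟨dd.ρ d (genBar M c H 1), hirr d _ (genBar_mem_gaussValSub M c H A 1)⟩ :
      ↥(gaussValSub A (FHbar M c H) (Fermat.Agent.NEB.H94.hasScale_FHbar A M c H)))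
      = ⟨genBar M c H d, genBar_mem_gaussValSub M c H A d⟩ := by
    apply Subtype.ext
    show dd.ρ d (genBar M c H 1) = genBar M c H d
    rw [dd.gen, one_mul]
  rw [e1] at h2
  have h3 := coeff_one_red_genBar M c H A d
  have h4 := coeff_one_red_genBar M c H A 1
  rw [if_pos (Or.inl H.one_mem)] at h4
  have h5 : (gaussResF A (Fermat.Agent.NEB.H94.hasScale_FHbar A M c H)
        ⟨genBar M c H d, genBar_mem_gaussValSub M c H A d⟩).coeff 1 = 1 := by
    rw [← h4]
    exact h2
  rw [h3] at h5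
  by_contra hcon
  rw [if_neg (fun h => hcon (Fermat.Agent.NEB.H94.mem_pmSubgroup.mpr h))] at h5
  exact zero_ne_one h5

/-- **R-DEG**: under IRR, `[κ_H : κ_0] = [(ℤ/c)ˣ : ±H] = [F_H : F₀]` and `κ_H/κ_0` is Galois. -/
theorem rdeg (hc2 : 2 ≤ c) (hc : c ∣ M) (hM : M ≠ 0) (dd : DiamondData M c H)
    (hirr : IrrAt M c H A dd) :
    (redField A (modularFunctionFieldBar M) (hasScale_laurentBaseChange A M)).relfinrank
        (redField A (FHbar M c H) (Fermat.Agent.NEB.H94.hasScale_FHbar A M c H))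
      = (Fermat.Agent.NEB.H94.pmSubgroup c H).index ∧
    (redField A (modularFunctionFieldBar M) (hasScale_laurentBaseChange A M)).relfinrank
        (redField A (FHbar M c H) (Fermat.Agent.NEB.H94.hasScale_FHbar A M c H))
      = (modularFunctionFieldBar M).relfinrank (FHbar M c H) ∧
    (letI := algebraAlong (IntermediateField.inclusion
      (H51.redField_mono A (bar_le_FHbar M c H) (hasScale_laurentBaseChange A M)
        (Fermat.Agent.NEB.H94.hasScale_FHbar A M c H)))
     IsGalois ↥(redField A (modularFunctionFieldBar M) (hasScale_laurentBaseChange A M))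
      ↥(redField A (FHbar M c H) (Fermat.Agent.NEB.H94.hasScale_FHbar A M c H))) := by
  letI a2 := algebraAlong (IntermediateField.inclusion
      (H51.redField_mono A (bar_le_FHbar M c H) (hasScale_laurentBaseChange A M)
        (Fermat.Agent.NEB.H94.hasScale_FHbar A M c H)))
  obtain ⟨hfin, hle⟩ := relfinrank_red_FH_le M c H hc2 hc hM A
  haveI : FiniteDimensional
      ↥(redField A (modularFunctionFieldBar M) (hasScale_laurentBaseChange A M))
      ↥(redField A (FHbar M c H) (Fermat.Agent.NEB.H94.hasScale_FHbar A M c H)) := hfin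
  haveI : NeZero c := ⟨by omega⟩
  have hidx : (Fermat.Agent.NEB.H94.pmSubgroup c H).index ≤ (diamondRed dd hirr).ker.index := by
    have h1 := Subgroup.index_dvd_of_le (diamondRed_ker_le dd hirr)
    exact Nat.le_of_dvd (Nat.pos_of_ne_zero Subgroup.index_ne_zero_of_finite) h1
  have hn : Module.finrank
      ↥(redField A (modularFunctionFieldBar M) (hasScale_laurentBaseChange A M))
      ↥(redField A (FHbar M c H) (Fermat.Agent.NEB.H94.hasScale_FHbar A M c H))
      ≤ (Fermat.Agent.NEB.H94.pmSubgroup c H).index := by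
    rw [H51.finrank_along_inclusion]
    exact hle
  obtain ⟨h1, h2⟩ := galois_of_ringAction (diamondRed dd hirr)
    (fun d a => diamondRed_incl dd hirr d a) _ hn hidx
  rw [H51.finrank_along_inclusion] at h1
  refine ⟨h1, ?_, h2⟩
  rw [h1, ← H51.finrank_along_inclusion (bar_le_FHbar M c H)]
  exact (Fermat.Agent.NEB.H94.finrankAlong_inclBar M c H hc2 hc hM
    (Fermat.Agent.NEB.H84.stmt_FH_gal M c H)).symm

end FH

/-! ## 4. The statement of the leaf -/

/-- **R-DEG**. -/
def Stmt_RDeg : Prop :=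
  ∀ (M c : ℕ) (H : Subgroup (ZMod c)ˣ), 2 ≤ c → c ∣ M → M ≠ 0 →
    ∀ (A : ValuationSubring Kbar) (dd : DiamondData M c H), IrrAt M c H A dd →
    (redField A (modularFunctionFieldBar M) (hasScale_laurentBaseChange A M)).relfinrank
        (redField A (FHbar M c H) (Fermat.Agent.NEB.H94.hasScale_FHbar A M c H))
      = (modularFunctionFieldBar M).relfinrank (FHbar M c H) ∧
    (letI := algebraAlong (IntermediateField.inclusion
      (H51.redField_mono A (bar_le_FHbar M c H) (hasScale_laurentBaseChange A M)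
        (Fermat.Agent.NEB.H94.hasScale_FHbar A M c H)))
     IsGalois ↥(redField A (modularFunctionFieldBar M) (hasScale_laurentBaseChange A M))
      ↥(redField A (FHbar M c H) (Fermat.Agent.NEB.H94.hasScale_FHbar A M c H)))

theorem stmt_RDeg : _root_.Fermat.Agent.S48.B2.R.H31.Stmt_RDeg := by
  intro M c H hc2 hc hM A dd hirr
  obtain ⟨-, h2, h3⟩ := rdeg hc2 hc hM dd hirr
  exact ⟨h2, h3⟩

end Fermat.Agent.S48.B2.R.H31

end
end
-- ==== END Fermat.Agent.S48.B2.R.H31_RDeg

-- ==== BEGIN Fermat.Agent.S48.B2.R.H34_BRH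
section

/-!
# S48, B2, slice R, leaf R-BR (helper34): `stmt_BRH : Stmt_BRH`

Under `UnrCond` the branch values of a function of `F₀(M)` on `F_H(M)` are branch values on
`F₀(M)` (`NEB.H34.fh_unr` + `H34.brup`).
-/

set_option autoImplicit false
set_option linter.style.haveILetI false
set_option synthInstance.maxHeartbeats 400000
set_option maxHeartbeats 1000000

noncomputable section

open AlgebraicCurve IntermediateField ModularCurve

namespace Fermat.Agent.S48.B2.R.H34

open Fermat.Agent.RED.H34 Fermat.Agent.RED.H76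

/-- **R-BR**. -/
theorem stmt_BRH : Fermat.Agent.S48.B2.R.Stmt_BRH := by
  intro M c H hc2 hcM hM hU x hx ρ h
  haveI : NeZero M := ⟨hM⟩
  have hfinφ := Fermat.Agent.NEB.H94.finiteAlong_inclBar M c H hc2 hcM hM
    (Fermat.Agent.NEB.H84.stmt_FH_gal M c H)
  haveI := finiteDimensional_jF M
  haveI : FiniteDimensional ↥(Fermat.Agent.S24.Kbar)⟮x⟯ ↥(modularFunctionFieldBar M) :=
    Fermat.Agent.S24.ff_finite_of_transcendental _ (transcendental_jF M) x hx
  haveI : FiniteDimensional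
      ↥(Fermat.Agent.S24.Kbar)⟮Fermat.Agent.NEB.inclBar M c H x⟯
      ↥(Fermat.Agent.NEB.FHbar M c H) :=
    finite_adjoin_map (Fermat.Agent.NEB.inclBar M c H) hfinφ x
  exact brup (Fermat.Agent.NEB.inclBar M c H) (isIntegral_of_finiteAlong _ hfinφ)
    (Fermat.Agent.NEB.H34.fh_unr c M H hc2 hcM hM hU) x hx ρ h

end Fermat.Agent.S48.B2.R.H34

end
end
-- ==== END Fermat.Agent.S48.B2.R.H34_BRH
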