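-- GENERATED (merged mirror, NOTES/tools/trim/merge3_helper67.py): 3 modules of the originals, bodies verbatim.
import Fermat.Agent.Zm.S48_L11_000
import Fermat.Agent.Zm.S48_L01_001
import Fermat.Agent.Zm.S48_L04_000
import Fermat.Agent.Zm.S48_L11_001

-- ==== BEGIN Fermat.Agent.NEB.EIG.H39_Step5
section

/-!
# NEB / EIG (helper39): the twisting step at one prime `q` is injective on the eigenspace

`stepMap_inj` : `S φ = 0 → φ = 0` if `χ = 1` or `χ(T)² ≠ 1` for some `T` prime to `q`.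
(If `Tw_χ w = 0`, `w = res φ`, then `w` is invariant under `α_1` by the Jacobi sum identity, and under
`ν = [[1,0],[k q m,1]] ∈ K₁`; the word `α_{-T} ν^{k₁} α_1 ν^{k₂}` is an element `g` of `Γ₀(q m q)` with
`a_g ≡ T mod q`, so `w = D_g w = χ(T)² w`.)
-/

set_option autoImplicit false

namespace Fermat.Agent.NEB.EIG.H39

open CongruenceSubgroup Matrix.SpecialLinearGroup ModularForm Finset
open scoped MatrixGroups
open P2MW.S_ModularForm_heckeT_slash_eq_self_of_mem_Gamma0.ModularForm.HeckeSlashInvariance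
open Fermat.Agent.Betti ModularCurve.Period
open scoped OnePoint

section Step

variable {q m c₁ : ℕ} {L : Type*} [Field L] [CharZero L]
variable (hq : q.Prime) (hqm : ¬ q ∣ m) (hc₁ : c₁ ∣ m) (χ : MulChar (ZMod q) L)
  (ω : SL(2, ℤ) → L)

omit [CharZero L] in
theorem nu_step_mem_Nrm (hc₁ : c₁ ∣ m) (k : ℤ) :
    mapGL ℝ (nuSL (k * ((q : ℤ) * (m : ℤ)))) ∈ Nrm (inc (Gam1 (q * m * q) (q * c₁))) := by
  obtain ⟨d, rfl⟩ := hc₁
  refine nu_mem_Nrm ?_ ?_ ?_
  · push_cast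
    exact ⟨k * d, by ring⟩
  · push_cast
    exact ⟨k * c₁, by ring⟩
  · push_cast
    exact ⟨k * k * c₁ * d, by ring⟩

theorem nu_step_mem_K1 (hc₁ : c₁ ∣ m) (k : ℤ) :
    nuSL (k * ((q : ℤ) * (m : ℤ))) ∈ Gam1 (q * m) (q * c₁) := by
  obtain ⟨d, rfl⟩ := hc₁
  refine ⟨?_, ?_, ?_⟩
  · show ((q * (c₁ * d) : ℕ) : ℤ) ∣ k * ((q : ℤ) * ((c₁ * d : ℕ) : ℤ))
    push_cast
    exact ⟨k, by ring⟩
  · show ((q * c₁ : ℕ) : ℤ) ∣ k * ((q : ℤ) * ((c₁ * d : ℕ) : ℤ))
    push_cast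
    exact ⟨k * d, by ring⟩
  · show ((q * c₁ : ℕ) : ℤ) ∣ (1 : ℤ) - 1
    simp

omit [CharZero L] in
/-- `res φ` is invariant under conjugation by `ν ∈ K₁`. -/
theorem twLin_nu_res (hc₁ : c₁ ∣ m) (k : ℤ) (φ : Additive (Gam1 (q * m) (q * c₁)) →+ L) :
    twLin (inc_injective _) (mapGL ℝ (nuSL (k * ((q : ℤ) * (m : ℤ))))) (nu_step_mem_Nrm hc₁ k)
      (resK (step_hle1 q m c₁) φ) = resK (step_hle1 q m c₁) φ := by
  have hmem := nu_step_mem_K1 (q := q) hc₁ k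
  have ha : mapGL ℝ (nuSL (k * ((q : ℤ) * (m : ℤ)))) ∈ Nrm (inc (Gam1 (q * m) (q * c₁))) :=
    range_le_Nrm (e := inc (Gam1 (q * m) (q * c₁))) ⟨_, hmem⟩
  rw [twLin_apply, ← resK_tw (step_hle1 q m c₁) _ ha (nu_step_mem_Nrm hc₁ k) φ]
  congr 1
  exact tw_of_range (inc_injective _) _ ⟨_, hmem⟩ rfl φ

include hqm in
/-- (L4) the step map is injective on the eigenspace. -/
theorem stepMap_inj (hω : ∀ g ∈ Gam1 (q * m * q) c₁, ω g = 1)
    (hχ : χ = 1 ∨ ∃ T : ℤ, ¬ (q : ℤ) ∣ T ∧ χ ((T : ℤ) : ZMod q) ^ 2 ≠ 1)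
    {φ : Additive (Gam1 (q * m) (q * c₁)) →+ L}
    (hφ : IsEig (q * m) (q * c₁) (step_hcK1 hc₁)
      (fun g => χ ((g 0 0 : ℤ) : ZMod q) ^ 2 * ω g) φ)
    (h0 : stepMap hq hc₁ χ φ = 0) : φ = 0 := by
  haveI := step_neZero hq hqm
  haveI : Fact q.Prime := ⟨hq⟩
  have hN1 : Gamma (q * m * q) ≤ Gam1 (q * m * q) (q * c₁) := step_hN hc₁
  -- `w = 0`
  have hw : stepW hq hc₁ χ φ = 0 := by
    have h1 := resK_stepMap hq hqm hc₁ χ ω hω hφ
    rw [h0] at h1
    have h2 : ((stepIdx q m c₁ : ℕ) : L) • stepW hq hc₁ χ φ = 0 := by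
      rw [Nat.cast_smul_eq_nsmul, ← h1]; rfl
    rcases smul_eq_zero.mp h2 with h3 | h3
    · exact absurd (Nat.cast_eq_zero.mp h3) (stepIdx_ne_zero hq hqm hc₁)
    · exact h3
  -- it suffices that `res φ = 0`
  suffices hres : resK (step_hle1 q m c₁) φ = 0 by
    have hz : resK (step_hle1 q m c₁) (0 : Additive (Gam1 (q * m) (q * c₁)) →+ L) = 0 :=
      AddMonoidHom.zero_comp _
    have h5 : resK (step_hle1 q m c₁) φ
        = resK (step_hle1 q m c₁) (0 : Additive (Gam1 (q * m) (q * c₁)) →+ L) := hres.trans hz.symm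
    exact resK_inj (step_hle1 q m c₁) hN1 h5
  unfold stepW at hw
  by_cases hχ1 : χ = 1
  · rw [tqOp_one hq hc₁ hχ1] at hw
    exact hw
  · rw [tqOp_ne hq hc₁ hχ1] at hw
    obtain ⟨T, hT, hχT⟩ := hχ.resolve_left hχ1
    set w₀ := resK (step_hle1 q m c₁) φ with hw₀
    have hq0 := hq.ne_zero
    have hqc : q ∣ q * c₁ := dvd_mul_right q c₁
    have hcq := step_hcq (q := q) hc₁
    -- invariance under `B 1`
    have hw' : twOp (Bop hq0 hqc hcq) χ w₀ = 0 := hw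
    have hB0 := Bop_zero (L := L) (L₂ := q * m * q) hq0 hqc hcq
    have hBadd := Bop_add (L := L) (L₂ := q * m * q) hq0 hqc hcq
    have hfix : Bop hq0 hqc hcq 1 w₀ = w₀ :=
      @fixed_of_twOp_eq_zero q _ L _ (Additive (Gam1 (q * m * q) (q * c₁)) →+ L) _ _
        (Bop hq0 hqc hcq) hB0 hBadd _ χ hχ1 w₀ hw'
    have hB : ∀ k : ℕ, Bop hq0 hqc hcq (k : ZMod q) w₀ = w₀ := by
      intro k
      induction k with
      | zero => rw [Nat.cast_zero, Bop_zero]; rfl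
      | succ k ih =>
        rw [Nat.cast_succ, Bop_add, LinearMap.comp_apply, hfix, ih]
    have hA : ∀ n : ℤ, Aop hq0 hqc hcq n w₀ = w₀ := by
      intro n
      rw [← Bop_intCast, ← ZMod.natCast_zmod_val ((n : ℤ) : ZMod q)]
      exact hB _
    -- the word
    obtain ⟨g, k₁, k₂, hgmem, hgT, hgw⟩ := word_exists hq hqm hc₁ T hT
    have hg : ((q * m * q : ℕ) : ℤ) ∣ g 1 0 := hgmem.1
    have hg1 := dvd10_of_dvd hg
    -- `D_g w₀ = w₀`
    have hNα1 := alphaGL_mem_Nrm (L₂ := q * m * q) hq0 hqc hcq (-T)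
    have hNα2 := alphaGL_mem_Nrm (L₂ := q * m * q) hq0 hqc hcq 1
    have hNν1 := nu_step_mem_Nrm (q := q) hc₁ k₁
    have hNν2 := nu_step_mem_Nrm (q := q) hc₁ k₂
    have hN12 := (Nrm _).mul_mem hNα1 hNν1
    have hN123 := (Nrm _).mul_mem hN12 hNα2
    have hN1234 := (Nrm _).mul_mem hN123 hNν2
    have hD1 : Dop (step_hcG hc₁) g hg w₀ = w₀ := by
      unfold Dop
      rw [twLin_congr (L := L) (inc_injective _) hgw (gam0_mem_Nrm (step_hcG hc₁) hg) hN1234,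
        twLin_mul (inc_injective _) _ _ hN123 hNν2, twLin_mul (inc_injective _) _ _ hN12 hNα2,
        twLin_mul (inc_injective _) _ _ hNα1 hNν1]
      simp only [LinearMap.comp_apply]
      have e1 : twLin (L := L) (inc_injective _) (alphaGL q (-T)) hNα1 w₀ = w₀ := hA (-T)
      have e2 : twLin (L := L) (inc_injective _) (alphaGL q 1) hNα2 w₀ = w₀ := hA 1
      rw [e1, twLin_nu_res hc₁ k₁ φ, e2, twLin_nu_res hc₁ k₂ φ]
    -- `D_g w₀ = χ(T)² w₀`
    have hD2 : Dop (step_hcG hc₁) g hg w₀ = χ ((T : ℤ) : ZMod q) ^ 2 • w₀ := by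
      rw [hw₀, ← resK_Dop (step_hcK1 hc₁) (step_hcG hc₁) (step_hle1 q m c₁) g hg1 hg, hφ g hg1,
        resK_smul]
      beta_reduce
      rw [hω g hgmem, mul_one]
      congr 3
      rw [← sub_eq_zero, ← Int.cast_sub]
      exact (ZMod.intCast_zmod_eq_zero_iff_dvd _ _).mpr hgT
    rw [hD1] at hD2
    have h3 : (χ ((T : ℤ) : ZMod q) ^ 2 - 1) • w₀ = 0 := by
      rw [sub_smul, one_smul, ← hD2, sub_self]
    rcases smul_eq_zero.mp h3 with h4 | h4
    · exact absurd (sub_eq_zero.mp h4) hχT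
    · exact h4

end Step

end Fermat.Agent.NEB.EIG.H39

end
-- ==== END Fermat.Agent.NEB.EIG.H39_Step5

-- ==== BEGIN Fermat.Agent.NEB.EIG.H98_OrdRep
section

/-!
# NEB / EIG, leaf EIG-MONO (helper98): order functions on ratios of forms

`IsOrdW M ord` : `ord : ℤ → (ℍ → ℂ) → ℤ` is an "order function" on the nonzero forms on `Γ₁(M)`
(additive on products, `min ≤` on sums, `0` on constants).  It induces an order function on
`F_H` (`ord k A - ord k B` for `f = A / B`), hence by `exists_mul_of_dvd_ord`: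

`ord_rep_eq`: if all orders of `f ∈ F_H` at the places of `F_H` are divisible by `n`, then for
every representation `f = A / B`: `ord k A - ord k B = n * t * (ord k' A' - ord k' B')`, where
`A' / B'` is an A1-H representation of some `g ∈ F_H` (`B'` on `Γ₀(M)`, `A'` invariant under
`Γ_H`).
-/

set_option autoImplicit false
set_option linter.unusedSectionVars false

noncomputable section

namespace Fermat.Agent.NEB.EIG.H98

open AlgebraicCurve ModularCurve UpperHalfPlane CongruenceSubgroup Matrix.SpecialLinearGroup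
open Fermat.Agent.NEB Fermat.Agent.NEB.JH Fermat.Agent.NEB.H84 Fermat.Agent.GTor
open Fermat.Agent.S23.H22 (Nice)
open Fermat.Agent.GTor.H56 (qLaurent_mul qLaurent_injective qLaurent_eq_zero_iff qLaurent_zero)
open scoped MatrixGroups ModularForm Manifold

/-- An order function on the nonzero forms on `Γ₁(M)`. -/
structure IsOrdW (M : ℕ) (ord : ℤ → (ℍ → ℂ) → ℤ) : Prop where
  mul : ∀ {k₁ k₂ : ℤ} {A₁ A₂ : ℍ → ℂ}, IsW M k₁ A₁ → IsW M k₂ A₂ → A₁ ≠ 0 → A₂ ≠ 0 →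
    ord (k₁ + k₂) (A₁ * A₂) = ord k₁ A₁ + ord k₂ A₂
  add : ∀ {k : ℤ} {A₁ A₂ : ℍ → ℂ}, IsW M k A₁ → IsW M k A₂ → A₁ ≠ 0 → A₂ ≠ 0 → A₁ + A₂ ≠ 0 →
    min (ord k A₁) (ord k A₂) ≤ ord k (A₁ + A₂)
  const : ∀ c : ℂ, c ≠ 0 → ord 0 (fun _ => c) = 0

variable {M c : ℕ} {H : Subgroup (ZMod c)ˣ} (ι : Kbar →+* ℂ)

/-- `x = A / B` with forms `A`, `B ≠ 0` of weight `k` on `Γ₁(M)`. -/
def IsRep (M : ℕ) (x : LaurentSeries ℂ) (k : ℤ) (A B : ℍ → ℂ) : Prop :=
  IsW M k A ∧ IsW M k B ∧ B ≠ 0 ∧ qLaurent A = x * qLaurent B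

theorem IsRep.num_ne_zero {x : LaurentSeries ℂ} {k : ℤ} {A B : ℍ → ℂ} (h : IsRep M x k A B)
    (hx : x ≠ 0) : A ≠ 0 := by
  rintro rfl
  obtain ⟨-, hB, hB0, e⟩ := h
  rw [qLaurent_zero] at e
  rcases mul_eq_zero.mp e.symm with h1 | h1
  · exact hx h1
  · exact hB0 ((qLaurent_eq_zero_iff hB.nice).mp h1)

theorem IsRep.cross {x : LaurentSeries ℂ} {k k' : ℤ} {A B A' B' : ℍ → ℂ}
    (h : IsRep M x k A B) (h' : IsRep M x k' A' B') : A * B' = A' * B := by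
  obtain ⟨hA, hB, -, e⟩ := h
  obtain ⟨hA', hB', -, e'⟩ := h'
  apply qLaurent_injective (hA.nice.mul hB'.nice) (hA'.nice.mul hB.nice)
  rw [qLaurent_mul hA.nice hB'.nice, qLaurent_mul hA'.nice hB.nice, e, e']
  ring

theorem IsRep.mul {x y : LaurentSeries ℂ} {k k' : ℤ} {A B A' B' : ℍ → ℂ}
    (h : IsRep M x k A B) (h' : IsRep M y k' A' B') :
    IsRep M (x * y) (k + k') (A * A') (B * B') := by
  obtain ⟨hA, hB, hB0, e⟩ := h
  obtain ⟨hA', hB', hB0', e'⟩ := h'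
  refine ⟨hA.mul hA', hB.mul hB', isW_mul_ne_zero hB hB' hB0 hB0', ?_⟩
  rw [qLaurent_mul hA.nice hA'.nice, qLaurent_mul hB.nice hB'.nice, e, e']
  ring

theorem IsRep.add {x y : LaurentSeries ℂ} {k k' : ℤ} {A B A' B' : ℍ → ℂ}
    (h : IsRep M x k A B) (h' : IsRep M y k' A' B') :
    IsRep M (x + y) (k + k') (A * B' + B * A') (B * B') := by
  obtain ⟨hA, hB, hB0, e⟩ := h
  obtain ⟨hA', hB', hB0', e'⟩ := h'
  refine ⟨(hA.mul hB').add (hB.mul hA'), hB.mul hB', isW_mul_ne_zero hB hB' hB0 hB0', ?_⟩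
  rw [qLaurent_add (hA.nice.mul hB'.nice) (hB.nice.mul hA'.nice),
    qLaurent_mul hA.nice hB'.nice, qLaurent_mul hB.nice hA'.nice,
    qLaurent_mul hB.nice hB'.nice, e, e']
  ring

theorem isRep_const (M : ℕ) (a : ℂ) : IsRep M (HahnSeries.C a) 0 (fun _ => a) (fun _ => 1) := by
  refine ⟨IsW.const M a, IsW.const M 1, ?_, ?_⟩
  · intro h
    have := congrFun h UpperHalfPlane.I
    simp at this
  · rw [qLaurent_const', qLaurent_const']
    simp

section Ord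

variable {ord : ℤ → (ℍ → ℂ) → ℤ} (hord : IsOrdW M ord)

include hord

/-- The value `ord k A - ord k B` only depends on `x = A / B`. -/
theorem IsOrdW.ratio_eq {x : LaurentSeries ℂ} (hx : x ≠ 0) {k k' : ℤ} {A B A' B' : ℍ → ℂ}
    (h : IsRep M x k A B) (h' : IsRep M x k' A' B') :
    ord k A - ord k B = ord k' A' - ord k' B' := by
  have hA0 := h.num_ne_zero hx
  have hA0' := h'.num_ne_zero hx
  have e := h.cross h'
  have h1 := hord.mul h.1 h'.2.1 hA0 h'.2.2.1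
  have h2 := hord.mul h'.1 h.2.1 hA0' h.2.2.1
  rw [e, add_comm k k'] at h1
  rw [h1] at h2
  omega

end Ord

/-- Every element of `F_H` has a representation. -/
theorem exists_isRep [NeZero M] (hc2 : 2 ≤ c) (hc : c ∣ M) (f : ↥(FHbar M c H)) :
    ∃ (k : ℤ) (A B : ℍ → ℂ), IsRep M (coeffMap ι (f : LaurentSeries Kbar)) k A B := by
  obtain ⟨y, -, k, A, B, hA, hB, hB0, hx, -⟩ :=
    exists_relK H ι hc2 hc (Gamma0 M).one_mem f.2
  exact ⟨k, A, B, hA, hB, hB0, hx⟩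

/-- The order function on `F_H` induced by an order function on forms. -/
def nuOrd [NeZero M] (hc2 : 2 ≤ c) (hc : c ∣ M) (ord : ℤ → (ℍ → ℂ) → ℤ) (f : ↥(FHbar M c H)) :
    ℤ :=
  ord (Classical.choose (exists_isRep ι hc2 hc f))
      (Classical.choose (Classical.choose_spec (exists_isRep ι hc2 hc f)))
    - ord (Classical.choose (exists_isRep ι hc2 hc f))
      (Classical.choose (Classical.choose_spec (Classical.choose_spec
        (exists_isRep ι hc2 hc f))))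

theorem nuOrd_eq [NeZero M] (hc2 : 2 ≤ c) (hc : c ∣ M) {ord : ℤ → (ℍ → ℂ) → ℤ}
    (hord : IsOrdW M ord) {f : ↥(FHbar M c H)} (hf : f ≠ 0) {k : ℤ} {A B : ℍ → ℂ}
    (h : IsRep M (coeffMap ι (f : LaurentSeries Kbar)) k A B) :
    nuOrd ι hc2 hc ord f = ord k A - ord k B := by
  have hx : coeffMap ι (f : LaurentSeries Kbar) ≠ 0 := by
    intro h0
    apply hf
    have h1 : coeffMap ι (f : LaurentSeries Kbar) = coeffMap ι 0 := by rw [h0, map_zero]
    exact Subtype.ext (by rw [_root_.Fermat.Agent.NEB.H84.coeffMap_inj ι h1]; rfl)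
  exact hord.ratio_eq hx
    (Classical.choose_spec (Classical.choose_spec (Classical.choose_spec
      (exists_isRep ι hc2 hc f)))) h

theorem coeffMap_FHbar_ne_zero {f : ↥(FHbar M c H)} (hf : f ≠ 0) :
    coeffMap ι (f : LaurentSeries Kbar) ≠ 0 := by
  intro h0
  apply hf
  have h1 : coeffMap ι (f : LaurentSeries Kbar) = coeffMap ι 0 := by rw [h0, map_zero]
  exact Subtype.ext (by rw [_root_.Fermat.Agent.NEB.H84.coeffMap_inj ι h1]; rfl)

theorem isOrdFun_nuOrd [NeZero M] (hc2 : 2 ≤ c) (hc : c ∣ M) {ord : ℤ → (ℍ → ℂ) → ℤ}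
    (hord : IsOrdW M ord) : IsOrdFun Kbar (nuOrd (H := H) ι hc2 hc ord) where
  mul := by
    intro g h hg hh
    obtain ⟨k, A, B, r⟩ := exists_isRep ι hc2 hc g
    obtain ⟨k', A', B', r'⟩ := exists_isRep ι hc2 hc h
    have rr : IsRep M (coeffMap ι ((g * h : ↥(FHbar M c H)) : LaurentSeries Kbar)) (k + k')
        (A * A') (B * B') := by
      have := r.mul r'
      rwa [← map_mul] at this
    rw [nuOrd_eq ι hc2 hc hord (mul_ne_zero hg hh) rr, nuOrd_eq ι hc2 hc hord hg r,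
      nuOrd_eq ι hc2 hc hord hh r']
    have hA0 := r.num_ne_zero (coeffMap_FHbar_ne_zero ι hg)
    have hA0' := r'.num_ne_zero (coeffMap_FHbar_ne_zero ι hh)
    rw [hord.mul r.1 r'.1 hA0 hA0', hord.mul r.2.1 r'.2.1 r.2.2.1 r'.2.2.1]
    ring
  add := by
    intro g h hg hh hgh
    obtain ⟨k, A, B, r⟩ := exists_isRep ι hc2 hc g
    obtain ⟨k', A', B', r'⟩ := exists_isRep ι hc2 hc h
    have rr : IsRep M (coeffMap ι ((g + h : ↥(FHbar M c H)) : LaurentSeries Kbar)) (k + k')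
        (A * B' + B * A') (B * B') := by
      have := r.add r'
      rwa [← map_add] at this
    rw [nuOrd_eq ι hc2 hc hord hgh rr, nuOrd_eq ι hc2 hc hord hg r,
      nuOrd_eq ι hc2 hc hord hh r']
    have hA0 := r.num_ne_zero (coeffMap_FHbar_ne_zero ι hg)
    have hA0' := r'.num_ne_zero (coeffMap_FHbar_ne_zero ι hh)
    have hN0 := rr.num_ne_zero (coeffMap_FHbar_ne_zero ι hgh)
    have h1 : A * B' ≠ 0 := isW_mul_ne_zero r.1 r'.2.1 hA0 r'.2.2.1
    have h2 : B * A' ≠ 0 := isW_mul_ne_zero r.2.1 r'.1 r.2.2.1 hA0'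
    have h3 := hord.add (r.1.mul r'.2.1) (r.2.1.mul r'.1) h1 h2 hN0
    rw [hord.mul r.1 r'.2.1 hA0 r'.2.2.1] at h3
    have h4 : ord (k + k') (B * A') = ord k B + ord k' A' := hord.mul r.2.1 r'.1 r.2.2.1 hA0'
    rw [h4] at h3
    rw [hord.mul r.2.1 r'.2.1 r.2.2.1 r'.2.2.1]
    rcases min_le_iff.mp h3 with h5 | h5
    · exact min_le_iff.mpr (Or.inl (by omega))
    · exact min_le_iff.mpr (Or.inr (by omega))
  const := by
    intro a ha
    have h0 : (algebraMap Kbar ↥(FHbar M c H) a) ≠ 0 := (map_ne_zero _).mpr ha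
    have r : IsRep M (coeffMap ι ((algebraMap Kbar ↥(FHbar M c H) a : ↥(FHbar M c H)) :
        LaurentSeries Kbar)) 0 (fun _ => ι a) (fun _ => 1) := by
      have := isRep_const M (ι a)
      rw [← coeffMap_const] at this
      exact this
    rw [nuOrd_eq ι hc2 hc hord h0 r, hord.const (ι a) ((map_ne_zero ι).mpr ha),
      hord.const 1 one_ne_zero, sub_zero]

/-- **Key lemma.**  If all orders of `f` are divisible by `n`, the value of an order function on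
`f` is `n * t` times its value on some `g ∈ F_H`, given by an A1-H representation. -/
theorem ord_rep_eq [NeZero M] (hc2 : 2 ≤ c) (hc : c ∣ M) {ord : ℤ → (ℍ → ℂ) → ℤ}
    (hord : IsOrdW M ord) (n : ℕ) {f : ↥(FHbar M c H)} (hf : f ≠ 0)
    (hunr : ∀ v : Place Kbar ↥(FHbar M c H), (n : ℤ) ∣ v.ord f) {k : ℤ} {A B : ℍ → ℂ}
    (h : IsRep M (coeffMap ι (f : LaurentSeries Kbar)) k A B) :
    ∃ (t : ℤ) (k' : ℤ) (A' : ℍ → ℂ) (B' : ModularForm (Gamma0 M) k'),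
      IsW M k' A' ∧ A' ≠ 0 ∧ B' ≠ 0 ∧ (∀ γ ∈ GamH M c H, A' ∣[k'] γ = A') ∧
      ord k A - ord k B = n * t * (ord k' A' - ord k' (B' : ℍ → ℂ)) := by
  obtain ⟨g, t, hg, e⟩ := exists_mul_of_dvd_ord (isOrdFun_nuOrd (H := H) ι hc2 hc hord) n f hf hunr
  obtain ⟨k', A', B', hA', hB', hinv, hq⟩ := stmt_A1H M c H hc2 hc (NeZero.ne M) ι g
  have r : IsRep M (coeffMap ι (g : LaurentSeries Kbar)) k' A' (B' : ℍ → ℂ) :=
    ⟨hA', isW_of_modularForm B', fun h0 => hB' (DFunLike.coe_injective h0), hq⟩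
  refine ⟨t, k', A', B', hA', r.num_ne_zero (coeffMap_FHbar_ne_zero ι hg), hB', ?_, ?_⟩
  · intro γ hγ
    exact hinv γ (GamH_le_Gamma0 hγ) (mem_cosetSet_of_mem_GamH hγ)
  · rw [← nuOrd_eq ι hc2 hc hord hf h, ← nuOrd_eq ι hc2 hc hord hg r, e]

end Fermat.Agent.NEB.EIG.H98

end
end
-- ==== END Fermat.Agent.NEB.EIG.H98_OrdRep

-- ==== BEGIN Fermat.Agent.NEB.H84_BetaGal
section

/-!
# NEB, package FH-BETA, part 3 (helper84): `β` intertwines the diamond operators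

* `diamondData_unique` : the diamond operators of a `DiamondData` are the ones of `H84.rho`
  (`F_H` is generated by `F₀` and the `genBar a`);
* `stmt_FH_betaGal : JH.Stmt_FH_betaGal M c ℓ H`;
* `diamondData M c H` : the `DiamondData` of `stmt_FH_gal`, `betaOK` : `BetaOK`.
-/

set_option autoImplicit false
set_option linter.unusedSectionVars false
set_option linter.style.haveILetI false

open UpperHalfPlane ModularForm CongruenceSubgroup ModularCurve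
open scoped MatrixGroups ModularForm Manifold

noncomputable section

namespace Fermat.Agent.NEB.H84

open Fermat.Agent.NEB.JH

section Unique

variable {M c : ℕ} [NeZero M] (H : Subgroup (ZMod c)ˣ) (ι : Kbar →+* ℂ)
  (hc2 : 2 ≤ c) (hc : c ∣ M)

theorem diamondData_unique (dd : DiamondData M c H) (d : (ZMod c)ˣ) (x : ↥(FHbar M c H)) :
    dd.ρ d x = rhoHom H ι hc2 hc d x := by
  have : ((dd.ρ d : ↥(FHbar M c H) ≃ₐ[Kbar] ↥(FHbar M c H)) :
      ↥(FHbar M c H) →ₐ[Kbar] ↥(FHbar M c H)) = rhoHom H ι hc2 hc d := by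
    apply algHom_ext_FHbar
    · intro x₀
      rw [rhoHom_incl]
      exact dd.fix d x₀
    · intro a
      rw [rhoHom_gen]
      exact dd.gen d a
  exact congrArg (fun f : ↥(FHbar M c H) →ₐ[Kbar] ↥(FHbar M c H) => f x) this

end Unique

section BetaGal

variable {M c : ℕ} [NeZero M] (ℓ : ℕ) [NeZero ℓ] (H : Subgroup (ZMod c)ˣ) (ι : Kbar →+* ℂ)

theorem betaBar_inclBar (hβ : BetaOK M c ℓ H) (x₀ : ↥(modularFunctionFieldBar M)) :
    betaBar hβ (inclBar M c H x₀) = inclBar (M * ℓ) c H (heckeBetaBar Kbar M ℓ x₀) := by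
  apply Subtype.ext
  rw [coe_betaBar, coe_inclBar, coe_inclBar, coe_heckeBetaBar]

theorem coe_betaBar_genBar (hβ : BetaOK M c ℓ H) (a : (ZMod c)ˣ) :
    ((betaBar hβ (genBar M c H a) : ↥(FHbar (M * ℓ) c H)) : LaurentSeries Kbar) =
      qExpand Kbar ℓ (coeffEmb Kbar (eisGen c (cosetSet c H a))) := rfl

theorem coeffMap_betaBar_genBar (hβ : BetaOK M c ℓ H) (a : (ZMod c)ˣ) :
    coeffMap ι ((betaBar hβ (genBar M c H a) : ↥(FHbar (M * ℓ) c H)) : LaurentSeries Kbar) =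
      qExpand ℂ ℓ (coeffEmb ℂ (eisGen c (cosetSet c H a))) := by
  rw [coe_betaBar_genBar, coeffMap_qExpand_jh, coeffMap_coeffEmb_C]

theorem actHom_betaBar_genBar (hc2 : 2 ≤ c) (hc : c ∣ M) (hβ : BetaOK M c ℓ H)
    (γ : Gamma0 (M * ℓ)) (a : (ZMod c)ˣ) :
    haveI : NeZero (M * ℓ) := ⟨mul_ne_zero (NeZero.ne M) (NeZero.ne ℓ)⟩
    actHom H ι hc2 (hc.trans (dvd_mul_right M ℓ)) γ (betaBar hβ (genBar M c H a)) =
      betaBar hβ (genBar M c H ((dUnit (hc.trans (dvd_mul_right M ℓ)) γ γ.2)⁻¹ * a)) := by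
  haveI : NeZero (M * ℓ) := ⟨mul_ne_zero (NeZero.ne M) (NeZero.ne ℓ)⟩
  apply actHom_eq
  rw [coeffMap_betaBar_genBar, coeffMap_betaBar_genBar]
  exact relC_gen_beta H ℓ hc2 hc γ.2 a

/-- **FH-BETAGAL.** -/
theorem stmt_FH_betaGal (M c ℓ : ℕ) [NeZero ℓ] (H : Subgroup (ZMod c)ˣ) :
    Stmt_FH_betaGal M c ℓ H := by
  intro hc2 hc hM hβ dd dd' d x
  haveI : NeZero M := ⟨hM⟩
  haveI : NeZero (M * ℓ) := ⟨mul_ne_zero hM (NeZero.ne ℓ)⟩
  have halg : Algebra.IsAlgebraic ℚ (AlgebraicClosure ℚ) := AlgebraicClosure.isAlgebraic ℚ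
  have ι : Kbar →+* ℂ := (IsAlgClosed.lift : AlgebraicClosure ℚ →ₐ[ℚ] ℂ).toRingHom
  have hc' : c ∣ M * ℓ := hc.trans (dvd_mul_right M ℓ)
  have key := ringHom_ext_FHbar H
    (((dd'.ρ d : ↥(FHbar (M * ℓ) c H) ≃ₐ[Kbar] ↥(FHbar (M * ℓ) c H)) :
        ↥(FHbar (M * ℓ) c H) →+* ↥(FHbar (M * ℓ) c H)).comp
      (betaBar hβ : ↥(FHbar M c H) →+* ↥(FHbar (M * ℓ) c H)))
    ((betaBar hβ : ↥(FHbar M c H) →+* ↥(FHbar (M * ℓ) c H)).comp
      ((dd.ρ d : ↥(FHbar M c H) ≃ₐ[Kbar] ↥(FHbar M c H)) :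
        ↥(FHbar M c H) →+* ↥(FHbar M c H))) ?_ ?_ ?_
  · exact congrArg (fun h : ↥(FHbar M c H) →+* ↥(FHbar (M * ℓ) c H) => h x) key
  · intro a
    simp only [RingHom.comp_apply, RingHom.coe_coe, AlgHom.commutes, AlgEquiv.commutes]
  · intro x₀
    simp only [RingHom.comp_apply, RingHom.coe_coe]
    rw [dd.fix, betaBar_inclBar, dd'.fix]
  · intro a
    simp only [RingHom.comp_apply, RingHom.coe_coe]
    rw [dd.gen, diamondData_unique H ι hc2 hc' dd' d, rhoHom, actHom_betaBar_genBar ℓ H ι hc2 hc hβ,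
      dUnit_gam, inv_inv, mul_comm d a]

end BetaGal

/-! ### Packaged outputs for the `J_H` interface -/

section Package

/-- The diamond operators as `DiamondData`. -/
theorem nonempty_diamondData' (M c : ℕ) (H : Subgroup (ZMod c)ˣ) (hc2 : 2 ≤ c) (hc : c ∣ M)
    (hM : M ≠ 0) : Nonempty (DiamondData M c H) :=
  nonempty_diamondData (stmt_FH_gal M c H) hc2 hc hM

theorem betaOK (M c ℓ : ℕ) [NeZero ℓ] (H : Subgroup (ZMod c)ˣ) (hc2 : 2 ≤ c) (hc : c ∣ M)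
    (hM : M ≠ 0) : BetaOK M c ℓ H :=
  stmt_FH_beta M c ℓ H hc2 hc hM

end Package

end Fermat.Agent.NEB.H84

end
end
-- ==== END Fermat.Agent.NEB.H84_BetaGal
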