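-- GENERATED (merged mirror, NOTES/tools/trim/merge3_helper67.py): 4 modules of the originals, bodies verbatim.
import Mathlib
import Fermat.Agent.Zm.S48_L12_000
import Fermat.Agent.Zm.S35_L04_001
import Fermat.Agent.Zm.S35_L01_004
import Fermat.Agent.Zm.S48_L06_000
import Fermat.Agent.Zm.S48_L07_001
import Fermat.Agent.Zm.S48_L05_000
import Fermat.Agent.Zm.S48_L11_000
import Fermat.Agent.Zm.S48_L01_002
import Fermat.Agent.Zm.S48_L07_000

-- ==== BEGIN Fermat.Agent.NEB.EIG.H39_TW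
section

/-!
# NEB / EIG (helper39): Betti twisting, induction over the primes of `c`  (leaf EIG-TW)

`qs` a list of distinct primes not dividing `N₀`, `c = ∏ qs`, `χ_q` characters mod `q ∈ qs` with values
in a field `L` of characteristic zero, `χ_q = 1` or `χ_q² ≠ 1`.  `Om χ qs g = ∏_q χ_q(a_g)²`,
`chiProd χ qs ℓ = ∏_q χ_q(ℓ)`.

* `tw_exists` : a linear map `Tw : Hom(Gam1 (N₀ c) c, L) → Hom(Gam1 (N₀ c²) 1, L)` which on the
  `Om`-eigenspace of the diamond operators is injective, preserves parabolic homomorphisms and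
  satisfies `T_ℓ (Tw φ) = (∏ χ_q(ℓ))⁻¹ Tw (T_ℓ φ)`.
* `stmt_TW` : the same with target `Hom(Γ₀(N c²), L)` and the Betti Hecke operators `TB_ℓ`.
-/

set_option autoImplicit false

namespace Fermat.Agent.NEB.EIG.H39

open CongruenceSubgroup Matrix.SpecialLinearGroup ModularForm Finset
open scoped MatrixGroups
open P2MW.S_ModularForm_heckeT_slash_eq_self_of_mem_Gamma0.ModularForm.HeckeSlashInvariance
open Fermat.Agent.Betti ModularCurve.Period
open scoped OnePoint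

section Weights

variable {L : Type*} [Field L]

/-- The weight `g ↦ ∏_q χ_q(a_g)²`. -/
noncomputable def Om (χ : (q : ℕ) → MulChar (ZMod q) L) (qs : List ℕ) (g : SL(2, ℤ)) : L :=
  (qs.map fun q => χ q ((g 0 0 : ℤ) : ZMod q) ^ 2).prod

/-- The factor `∏_q χ_q(ℓ)`. -/
noncomputable def chiProd (χ : (q : ℕ) → MulChar (ZMod q) L) (qs : List ℕ) (ℓ : ℕ) : L :=
  (qs.map fun q => χ q (ℓ : ZMod q)).prod

theorem Om_nil (χ : (q : ℕ) → MulChar (ZMod q) L) (g : SL(2, ℤ)) : Om χ [] g = 1 := rfl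

theorem Om_cons (χ : (q : ℕ) → MulChar (ZMod q) L) (q : ℕ) (qs : List ℕ) (g : SL(2, ℤ)) :
    Om χ (q :: qs) g = χ q ((g 0 0 : ℤ) : ZMod q) ^ 2 * Om χ qs g := by
  unfold Om
  rw [List.map_cons, List.prod_cons]

theorem chiProd_nil (χ : (q : ℕ) → MulChar (ZMod q) L) (ℓ : ℕ) : chiProd χ [] ℓ = 1 := rfl

theorem chiProd_cons (χ : (q : ℕ) → MulChar (ZMod q) L) (q : ℕ) (qs : List ℕ) (ℓ : ℕ) :
    chiProd χ (q :: qs) ℓ = χ q (ℓ : ZMod q) * chiProd χ qs ℓ := by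
  unfold chiProd
  rw [List.map_cons, List.prod_cons]

/-- `Om χ qs g = 1` if `a_g ≡ 1 mod ∏ qs`. -/
theorem Om_eq_one (χ : (q : ℕ) → MulChar (ZMod q) L) (qs : List ℕ) {g : SL(2, ℤ)}
    (hg : ((qs.prod : ℕ) : ℤ) ∣ g 0 0 - 1) : Om χ qs g = 1 := by
  unfold Om
  apply List.prod_eq_one
  intro x hx
  rw [List.mem_map] at hx
  obtain ⟨q, hq, rfl⟩ := hx
  have h1 : (q : ℤ) ∣ g 0 0 - 1 :=
    (Int.natCast_dvd_natCast.mpr (List.dvd_prod hq)).trans hg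
  have h2 : ((g 0 0 : ℤ) : ZMod q) = 1 := by
    have := (ZMod.intCast_zmod_eq_zero_iff_dvd _ _).mpr h1
    push_cast at this
    exact sub_eq_zero.mp this
  rw [h2, map_one, one_pow]

end Weights

section Base

variable {L : Type*} [Field L]

theorem Gamma_le_Gamma0' (N : ℕ) : Gamma N ≤ Gamma0 N :=
  (Gamma_le_Gam1 (dvd_refl N) (one_dvd N)).trans (Gam1_le_Gamma0 N 1)

/-- Restriction from `Gam1 M 1` to `Γ₀(M)` intertwines `TD` and the Betti Hecke operator `TB`. -/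
theorem resK_TD_TB (M : ℕ) {ℓ : ℕ} (hℓ : ℓ.Prime) (hℓM : ¬ ℓ ∣ M)
    (ψ : Additive (Gam1 M 1) →+ L) :
    resK (Gamma0_le_Gam1_one M) (TD M 1 (one_dvd M) hℓ hℓM ψ)
      = TB M L hℓ hℓM (resK (Gamma0_le_Gam1_one M) ψ) := by
  haveI : Fact ℓ.Prime := ⟨hℓ⟩
  have H₁ := H98.stmt_FAM_hecke M 1 ℓ (one_dvd M) hℓ hℓM
  have H₂ := isHeckeFamily_T M hℓM
  have hex : ∀ i : OnePoint (ZMod ℓ), ∃ ε : Gam1 M 1,
      repD M ℓ i * 1 = inc (Gam1 M 1) ε * 1 * repT ℓ i := by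
    intro i
    obtain ⟨ε, hε, h⟩ := H98.stmt_FAM_std M ℓ hℓ hℓM i
    exact ⟨⟨ε, Gamma0_le_Gam1_one M hε⟩, by rw [mul_one, mul_one, h]; rfl⟩
  choose ε hε using hex
  exact heckeOp_intertwine (A := L) H₁ H₂ (inc_injective _) (incl_injective M) 1 1
    (Subgroup.inclusion (Gamma0_le_Gam1_one M)) (Subgroup.inclusion (Gamma0_le_Gam1_one M))
    (fun γ => by simp) (fun γ => by simp) (Equiv.refl _) ε hε ψ

end Base

section Induction

variable {L : Type*} [Field L] [CharZero L]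

/-- The properties of the twisting map on the `Om χ qs`-eigenspace. -/
def IsTwMap (χ : (q : ℕ) → MulChar (ZMod q) L) (qs : List ℕ) (M M' c : ℕ) (hc : c ∣ M)
    (Tw : (Additive (Gam1 M c) →+ L) →ₗ[L] (Additive (Gam1 M' 1) →+ L)) : Prop :=
  ∀ φ, IsEig M c hc (Om χ qs) φ →
    (Tw φ = 0 → φ = 0) ∧
    (∀ (ℓ : ℕ) (hℓ : ℓ.Prime) (hℓM : ¬ ℓ ∣ M) (hℓM' : ¬ ℓ ∣ M'),
      TD M' 1 (one_dvd M') hℓ hℓM' (Tw φ) = (chiProd χ qs ℓ)⁻¹ • Tw (TD M c hc hℓ hℓM φ)) ∧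
    (IsParabolicHom (Gam1 M c) φ → IsParabolicHom (Gam1 M' 1) (Tw φ))

/-- **Betti twisting**, by induction over the primes. -/
theorem tw_exists (χ : (q : ℕ) → MulChar (ZMod q) L) :
    ∀ (qs : List ℕ), qs.Nodup → (∀ q ∈ qs, q.Prime) →
      (∀ q ∈ qs, χ q = 1 ∨ ∃ T : ℤ, ¬ (q : ℤ) ∣ T ∧ χ q ((T : ℤ) : ZMod q) ^ 2 ≠ 1) →
      ∀ (N₀ M M' c : ℕ), N₀ ≠ 0 → (∀ q ∈ qs, ¬ q ∣ N₀) → c = qs.prod → M = N₀ * c →
        M' = M * c → ∀ hc : c ∣ M,
          ∃ Tw : (Additive (Gam1 M c) →+ L) →ₗ[L] (Additive (Gam1 M' 1) →+ L),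
            IsTwMap χ qs M M' c hc Tw := by
  intro qs
  induction qs with
  | nil =>
    intro _ _ _ N₀ M M' c hN₀ _ hcp hM hM' hc
    simp only [List.prod_nil] at hcp
    subst hcp
    have hMM' : M' = M := by rw [hM', mul_one]
    subst hMM'
    refine ⟨LinearMap.id, fun φ _ => ⟨fun h => h, ?_, fun h => h⟩⟩
    intro ℓ hℓ hℓM hℓM'
    rw [chiProd_nil, inv_one, one_smul]
    rfl
  | cons q qs' ih =>
    intro hnd hpr hχ N₀ M M' c hN₀ hqN hcp hM hM' hc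
    have hq : q.Prime := hpr q List.mem_cons_self
    have hnd' : qs'.Nodup := (List.nodup_cons.mp hnd).2
    have hq_notin : q ∉ qs' := (List.nodup_cons.mp hnd).1
    have hpr' : ∀ q' ∈ qs', q'.Prime := fun q' h => hpr q' (List.mem_cons_of_mem _ h)
    have hχ' : ∀ q' ∈ qs', χ q' = 1 ∨ ∃ T : ℤ, ¬ (q' : ℤ) ∣ T ∧ χ q' ((T : ℤ) : ZMod q') ^ 2 ≠ 1 :=
      fun q' h => hχ q' (List.mem_cons_of_mem _ h)
    obtain ⟨c₁, hc₁def⟩ : ∃ c₁ : ℕ, c₁ = qs'.prod := ⟨_, rfl⟩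
    rw [List.prod_cons, ← hc₁def] at hcp
    subst hcp
    have hM2 : M = q * (N₀ * c₁) := by rw [hM]; ring
    subst hM2
    have hc₁ : c₁ ∣ N₀ * c₁ := dvd_mul_left _ _
    have hq_c₁ : ¬ q ∣ c₁ := by
      intro h
      rw [hc₁def] at h
      obtain ⟨a, ha, hqa⟩ := (Prime.dvd_prod_iff (Nat.Prime.prime hq)).mp h
      have : q = a := (Nat.prime_dvd_prime_iff_eq hq (hpr' a ha)).mp hqa
      exact hq_notin (this ▸ ha)
    have hqm : ¬ q ∣ N₀ * c₁ := by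
      intro h
      rcases (Nat.Prime.dvd_mul hq).mp h with h | h
      · exact hqN q List.mem_cons_self h
      · exact hq_c₁ h
    have hω : ∀ g ∈ Gam1 (q * (N₀ * c₁) * q) c₁, Om χ qs' g = 1 := fun g hg =>
      Om_eq_one χ qs' (hc₁def ▸ hg.2.2)
    have hN₀' : N₀ * q * q ≠ 0 :=
      Nat.mul_ne_zero (Nat.mul_ne_zero hN₀ hq.ne_zero) hq.ne_zero
    have hqN' : ∀ q' ∈ qs', ¬ q' ∣ N₀ * q * q := by
      intro q' hq' h
      have hq'p := hpr' q' hq'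
      have hne : q' ≠ q := fun e => hq_notin (e ▸ hq')
      have h1 : ¬ q' ∣ q := fun h' => hne ((Nat.prime_dvd_prime_iff_eq hq'p hq).mp h')
      rcases (Nat.Prime.dvd_mul hq'p).mp h with h | h
      · rcases (Nat.Prime.dvd_mul hq'p).mp h with h | h
        · exact hqN q' (List.mem_cons_of_mem _ hq') h
        · exact h1 h
      · exact h1 h
    have hM₂ : q * (N₀ * c₁) * q = N₀ * q * q * c₁ := by ring
    have hM'₂ : M' = q * (N₀ * c₁) * q * c₁ := by rw [hM']; ring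
    obtain ⟨Tw', hTw'⟩ := ih hnd' hpr' hχ' (N₀ * q * q) (q * (N₀ * c₁) * q) M' c₁ hN₀' hqN'
      hc₁def hM₂ hM'₂ (step_hcK2 hc₁)
    refine ⟨Tw'.comp (stepMap hq hc₁ (χ q)), fun φ hφ => ?_⟩
    have hφ' : IsEig (q * (N₀ * c₁)) (q * c₁) (step_hcK1 hc₁)
        (fun g => χ q ((g 0 0 : ℤ) : ZMod q) ^ 2 * Om χ qs' g) φ :=
      hφ.congr (fun g _ => Om_cons χ q qs' g)
    have hS := stepMap_isEig hq hqm hc₁ (χ q) (Om χ qs') hω hφ'
    obtain ⟨h1, h2, h3⟩ := hTw' _ hS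
    refine ⟨?_, ?_, ?_⟩
    · intro h
      exact stepMap_inj hq hqm hc₁ (χ q) (Om χ qs') hω (hχ q List.mem_cons_self) hφ' (h1 h)
    · intro ℓ hℓ hℓM hℓM'
      have hℓ2 : ¬ ℓ ∣ q * (N₀ * c₁) * q := fun h => hℓM' (h.trans ⟨c₁, hM'₂⟩)
      rw [LinearMap.comp_apply, h2 ℓ hℓ hℓ2 hℓM',
        stepMap_TD hq hqm hc₁ (χ q) (Om χ qs') hω hφ' hℓ hℓM hℓ2, map_smul, smul_smul,
        chiProd_cons, mul_inv, mul_comm]
      rfl
    · intro hpar
      exact h3 (stepMap_isPar hq hqm hc₁ (χ q) (Om χ qs') hω hφ' hpar)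

/-- The product of a list of primes is not zero. -/
theorem prod_primes_ne_zero {qs : List ℕ} (hpr : ∀ q ∈ qs, q.Prime) : qs.prod ≠ 0 := by
  apply List.prod_ne_zero
  intro h
  exact Nat.not_prime_zero (hpr 0 h)

/-- **EIG-TW** (Betti twisting): for a list `qs` of distinct primes not dividing `N`, `c = ∏ qs`,
and characters `χ_q` mod `q` (`χ_q = 1` or `χ_q² ≠ 1`) there is a linear map
`Tw : Hom(Γ₀(N c) ∩ Γ₁(c), L) → Hom(Γ₀(N c²), L)` which, on the eigenspace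
`D_g φ = ∏ χ_q(a_g)² φ` of the diamond operators, is injective, preserves parabolic homomorphisms
and satisfies `TB_ℓ (Tw φ) = (∏ χ_q(ℓ))⁻¹ Tw (T_ℓ φ)`. -/
theorem stmt_TW (N : ℕ) (hN : N ≠ 0) (qs : List ℕ) (hnd : qs.Nodup) (hpr : ∀ q ∈ qs, q.Prime)
    (hqN : ∀ q ∈ qs, ¬ q ∣ N) (χ : (q : ℕ) → MulChar (ZMod q) L)
    (hχ : ∀ q ∈ qs, χ q = 1 ∨ ∃ T : ℤ, ¬ (q : ℤ) ∣ T ∧ χ q ((T : ℤ) : ZMod q) ^ 2 ≠ 1) :
    ∃ Tw : (Additive (Gam1 (N * qs.prod) qs.prod) →+ L) →ₗ[L]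
        (Additive (Gamma0 (N * qs.prod * qs.prod)) →+ L),
      ∀ φ, IsEig (N * qs.prod) qs.prod (dvd_mul_left _ _) (Om χ qs) φ →
        (Tw φ = 0 → φ = 0) ∧
        (∀ (ℓ : ℕ) (hℓ : ℓ.Prime) (hℓM : ¬ ℓ ∣ N * qs.prod)
          (hℓM' : ¬ ℓ ∣ N * qs.prod * qs.prod),
          TB (N * qs.prod * qs.prod) L hℓ hℓM' (Tw φ)
            = (chiProd χ qs ℓ)⁻¹ •
              Tw (TD (N * qs.prod) qs.prod (dvd_mul_left _ _) hℓ hℓM φ)) ∧
        (IsParabolicHom (Gam1 (N * qs.prod) qs.prod) φ →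
          IsParabolicHom (Gamma0 (N * qs.prod * qs.prod)) (Tw φ)) := by
  have hc0 : qs.prod ≠ 0 := prod_primes_ne_zero hpr
  haveI : NeZero (N * qs.prod * qs.prod) := ⟨Nat.mul_ne_zero (Nat.mul_ne_zero hN hc0) hc0⟩
  obtain ⟨Tw, hTw⟩ := tw_exists χ qs hnd hpr hχ N (N * qs.prod) (N * qs.prod * qs.prod) qs.prod
    hN hqN rfl rfl rfl (dvd_mul_left _ _)
  refine ⟨(resLin (Gamma0_le_Gam1_one _)).comp Tw, fun φ hφ => ?_⟩
  obtain ⟨h1, h2, h3⟩ := hTw φ hφ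
  refine ⟨?_, ?_, ?_⟩
  · intro h
    apply h1
    have hz : resK (Gamma0_le_Gam1_one (N * qs.prod * qs.prod))
        (0 : Additive (Gam1 (N * qs.prod * qs.prod) 1) →+ L) = 0 := AddMonoidHom.zero_comp _
    exact resK_inj (Gamma0_le_Gam1_one _) (Gamma_le_Gamma0' _) (h.trans hz.symm)
  · intro ℓ hℓ hℓM hℓM'
    rw [LinearMap.comp_apply, LinearMap.comp_apply, resLin_apply, resLin_apply,
      ← resK_TD_TB _ hℓ hℓM', h2 ℓ hℓ hℓM hℓM', resK_smul]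
  · intro hpar
    exact isPar_resK _ (h3 hpar)

end Induction

end Fermat.Agent.NEB.EIG.H39

end
-- ==== END Fermat.Agent.NEB.EIG.H39_TW

-- ==== BEGIN Fermat.Agent.NEB.EIG.H98_OrdInst
section

/-!
# NEB / EIG, leaf EIG-MONO (helper98): the two order functions

* `ordPt z` : order of vanishing at a point `z` of the upper half plane;
* `ordCu M σ` : order of the `q_M`-expansion of `A ∣[k] σ` (the cusp `σ ∞`).
-/

set_option autoImplicit false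
set_option linter.unusedSectionVars false

noncomputable section

namespace Fermat.Agent.NEB.EIG.H98

open UpperHalfPlane CongruenceSubgroup Matrix.SpecialLinearGroup ModularForm
open Fermat.Agent.NEB Fermat.Agent.NEB.H84 Fermat.Agent.GTor Fermat.Agent.GTor.H96
open Fermat.Agent.S24
open Fermat.Agent.S23.H22 (Nice)
open scoped MatrixGroups ModularForm Manifold

/-! ## Points -/

/-- The order of vanishing at `z`. -/
def ordPt (z : ℍ) (_k : ℤ) (A : ℍ → ℂ) : ℤ :=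
  (analyticOrderNatAt (A ∘ UpperHalfPlane.ofComplex) (z : ℂ) : ℤ)

theorem ordPt_eq_ordNat (z : ℍ) (k : ℤ) {A : ℍ → ℂ} (hA : MDifferentiable 𝓘(ℂ) 𝓘(ℂ) A) :
    ordPt z k A = (Hol.ordNat z (⟨A, hA⟩ : Hol) : ℤ) := rfl

theorem hol_ne_zero {A : ℍ → ℂ} (hA : MDifferentiable 𝓘(ℂ) 𝓘(ℂ) A) (h0 : A ≠ 0) :
    (⟨A, hA⟩ : Hol) ≠ 0 := fun h => h0 (congrArg Subtype.val h)

theorem isOrdW_ordPt (M : ℕ) (z : ℍ) : IsOrdW M (ordPt z) where
  mul := by
    intro k₁ k₂ A₁ A₂ h₁ h₂ n₁ n₂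
    rw [ordPt_eq_ordNat z _ (h₁.mdiff.mul h₂.mdiff), ordPt_eq_ordNat z _ h₁.mdiff,
      ordPt_eq_ordNat z _ h₂.mdiff]
    have := Hol.ordNat_mul z (hol_ne_zero h₁.mdiff n₁) (hol_ne_zero h₂.mdiff n₂)
    exact_mod_cast this
  add := by
    intro k A₁ A₂ h₁ h₂ n₁ n₂ n₃
    rw [ordPt_eq_ordNat z _ (h₁.mdiff.add h₂.mdiff), ordPt_eq_ordNat z _ h₁.mdiff,
      ordPt_eq_ordNat z _ h₂.mdiff]
    have := Hol.ordNat_add_ge z (hol_ne_zero h₁.mdiff n₁) (hol_ne_zero h₂.mdiff n₂)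
      (f := ⟨A₁, h₁.mdiff⟩) (g := ⟨A₂, h₂.mdiff⟩) (fun h => n₃ (congrArg Subtype.val h))
    exact_mod_cast this
  const := by
    intro a ha
    have hmd : MDifferentiable 𝓘(ℂ) 𝓘(ℂ) (fun _ : ℍ => a) := mdifferentiable_const
    rw [ordPt_eq_ordNat z _ hmd]
    have hne : (⟨fun _ => a, hmd⟩ : Hol) ≠ 0 := by
      intro h
      have := congrFun (congrArg Subtype.val h) z
      exact ha this
    have := (Hol.ordNat_eq_zero_iff z hne).mpr ha
    exact_mod_cast this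

/-! ## Cusps -/

theorem conj_T_pow_mem_Gamma1 (M : ℕ) (σ : SL(2, ℤ)) :
    σ * ModularGroup.T ^ M * σ⁻¹ ∈ Gamma1 M := by
  have h1 : ModularGroup.T ^ M ∈ CongruenceSubgroup.Gamma M := by
    have := CongruenceSubgroup.ModularGroup_T_pow_mem_Gamma M M (dvd_refl _)
    exact_mod_cast this
  have h2 : σ * ModularGroup.T ^ M * σ⁻¹ ∈ CongruenceSubgroup.Gamma M :=
    (CongruenceSubgroup.Gamma_normal M).conj_mem _ h1 σ
  rw [CongruenceSubgroup.Gamma_mem] at h2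
  rw [Gamma1_mem]
  exact ⟨h2.1, h2.2.2.2, h2.2.2.1⟩

/-- The slash of a form on `Γ₁(M)` by an element of `SL(2, ℤ)` is cusp-regular for the period
`M`. -/
theorem isCuspRegular_slash_of_isW {M : ℕ} {k : ℤ} {A : ℍ → ℂ} (hA : IsW M k A) (σ : SL(2, ℤ)) :
    IsCuspRegular (M : ℝ) (A ∣[k] σ) where
  per := by
    refine periodic_of_vadd fun z => ?_
    have hmem := conj_T_pow_mem_Gamma1 M σ
    have h1 := slash_vadd_of_conj (R := A) (k := k) (σ := σ)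
      (δ := σ * ModularGroup.T ^ M * σ⁻¹) (j := (M : ℤ)) (c := 1) (by rw [zpow_natCast])
      (by
        have := hA.slash _ hmem
        simp only [one_mul]
        exact this) z
    rw [one_mul] at h1
    exact_mod_cast h1
  hol := by
    have := hA.mdiff.slash k (σ : GL (Fin 2) ℝ)
    exact this
  bdd := hA.bdd σ

theorem nice_of_isCuspRegular {h : ℝ} {X : ℍ → ℂ} (hX : IsCuspRegular h X) : Nice h X :=
  ⟨hX.per, hX.hol, hX.bdd⟩

/-- The order of the `q_M`-expansion at the cusp `σ ∞`. -/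
def ordCu (M : ℕ) (σ : SL(2, ℤ)) (k : ℤ) (A : ℍ → ℂ) : ℤ :=
  (((qExpansion (M : ℝ) (A ∣[k] σ)).order.toNat : ℕ) : ℤ)

theorem isOrdW_ordCu (M : ℕ) [NeZero M] (σ : SL(2, ℤ)) : IsOrdW M (ordCu M σ) where
  mul := by
    intro k₁ k₂ A₁ A₂ h₁ h₂ n₁ n₂
    have hM : (0 : ℝ) < (M : ℝ) := by exact_mod_cast Nat.pos_of_ne_zero (NeZero.ne M)
    unfold ordCu
    rw [ModularForm.mul_slash_SL2,
      IsCuspRegular.order_toNat_qExpansion_mul hM (isCuspRegular_slash_of_isW h₁ σ)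
        (isCuspRegular_slash_of_isW h₂ σ) (H96.slash_ne_zero n₁ k₁ σ) (H96.slash_ne_zero n₂ k₂ σ)]
    push_cast
    ring
  add := by
    intro k A₁ A₂ h₁ h₂ n₁ n₂ n₃
    have hM : (0 : ℝ) < (M : ℝ) := by exact_mod_cast Nat.pos_of_ne_zero (NeZero.ne M)
    unfold ordCu
    have c₁ := isCuspRegular_slash_of_isW h₁ σ
    have c₂ := isCuspRegular_slash_of_isW h₂ σ
    have c₃ := isCuspRegular_slash_of_isW (h₁.add h₂) σ
    have e : (A₁ + A₂) ∣[k] σ = A₁ ∣[k] σ + A₂ ∣[k] σ := SlashAction.add_slash k σ A₁ A₂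
    have q1 := c₁.qExpansion_ne_zero hM (H96.slash_ne_zero n₁ k σ)
    have q2 := c₂.qExpansion_ne_zero hM (H96.slash_ne_zero n₂ k σ)
    have q3 := c₃.qExpansion_ne_zero hM (H96.slash_ne_zero n₃ k σ)
    have hadd : qExpansion (M : ℝ) ((A₁ + A₂) ∣[k] σ)
        = qExpansion (M : ℝ) (A₁ ∣[k] σ) + qExpansion (M : ℝ) (A₂ ∣[k] σ) := by
      rw [e]
      exact Nice.qExpansion_add hM (nice_of_isCuspRegular c₁) (nice_of_isCuspRegular c₂)
    have hmin := PowerSeries.min_order_le_order_add (qExpansion (M : ℝ) (A₁ ∣[k] σ))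
      (qExpansion (M : ℝ) (A₂ ∣[k] σ))
    rw [← hadd, ← PowerSeries.coe_toNat_order q1, ← PowerSeries.coe_toNat_order q2,
      ← PowerSeries.coe_toNat_order q3] at hmin
    rcases min_le_iff.mp hmin with h5 | h5
    · exact min_le_iff.mpr (Or.inl (by exact_mod_cast h5))
    · exact min_le_iff.mpr (Or.inr (by exact_mod_cast h5))
  const := by
    intro a ha
    have hM : (0 : ℝ) < (M : ℝ) := by exact_mod_cast Nat.pos_of_ne_zero (NeZero.ne M)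
    unfold ordCu
    rw [const_slash_zero]
    have h2 : (fun _ : ℍ => a) = a • (1 : ℍ → ℂ) := by
      funext z
      simp
    rw [h2, (Nice.one (M : ℝ)).qExpansion_smul hM, UpperHalfPlane.qExpansion_one]
    have h3 : (a • (1 : PowerSeries ℂ)) = PowerSeries.C a := by
      ext n
      simp [PowerSeries.coeff_C, PowerSeries.coeff_one]
    rw [h3]
    have : (PowerSeries.C a : PowerSeries ℂ).order = ((0 : ℕ) : ℕ∞) := by
      rw [PowerSeries.order_eq_nat]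
      constructor
      · simpa using ha
      · intro i hi
        omega
    rw [this]
    simp

end Fermat.Agent.NEB.EIG.H98

end
end
-- ==== END Fermat.Agent.NEB.EIG.H98_OrdInst

-- ==== BEGIN Fermat.Agent.NEB.H14_JHData
section

/-!
# NEB, package JH (helper14): the data `HeckeData M c ℓ H`, unconditionally

All inputs of the rules of `H14_JHRules` are now theorems (FH-GAL, FH-BETA, FH-betaGal: helper84;
FH-FF, FH-alphaGal: helper94), so for `2 ≤ c`, `c ∣ M`, `M ≠ 0`: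

* `diamondData M c H h2 hc : DiamondData M c H`;
* `heckeData M c ℓ H h2 hc : HeckeData M c ℓ H`;
* `isFF_JH`, `betaOK'`.
-/

set_option autoImplicit false
set_option linter.unusedSectionVars false
set_option linter.style.haveILetI false
set_option linter.dupNamespace false

noncomputable section

namespace Fermat.Agent.NEB.JH

open AlgebraicCurve ModularCurve IntermediateField HahnSeries
open Fermat.Agent.NEB Fermat.Agent.NEB.H14 Fermat.Agent.RED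

/-- FH-FF, unconditionally. -/
theorem isFF_JH (M c : ℕ) [NeZero M] (H : Subgroup (ZMod c)ˣ) (h2 : 2 ≤ c) (hc : c ∣ M) :
    IsFF Kbar ↥(FHbar M c H) :=
  Fermat.Agent.NEB.H94.isFF_FHbar M c H h2 hc (Fermat.Agent.NEB.H84.stmt_FH_gal M c H)

/-- The diamond operators of `F_H(M)`. -/
def diamondData (M c : ℕ) [NeZero M] (H : Subgroup (ZMod c)ˣ) (h2 : 2 ≤ c) (hc : c ∣ M) :
    DiamondData M c H :=
  (Fermat.Agent.NEB.H84.nonempty_diamondData' M c H h2 hc (NeZero.ne M)).some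

/-- Two `DiamondData` have the same `ρ`. -/
theorem diamondData_rho_eq {M c : ℕ} {H : Subgroup (ZMod c)ˣ} (dd dd₁ : DiamondData M c H)
    (d : (ZMod c)ˣ) (x : ↥(FHbar M c H)) : dd.ρ d x = dd₁.ρ d x := by
  have key := Fermat.Agent.NEB.H84.ringHom_ext_FHbar H
    ((dd.ρ d : ↥(FHbar M c H) ≃ₐ[Kbar] ↥(FHbar M c H)) : ↥(FHbar M c H) →+* ↥(FHbar M c H))
    ((dd₁.ρ d : ↥(FHbar M c H) ≃ₐ[Kbar] ↥(FHbar M c H)) : ↥(FHbar M c H) →+* ↥(FHbar M c H))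
    ?_ ?_ ?_
  · exact congrArg (fun f : ↥(FHbar M c H) →+* ↥(FHbar M c H) => f x) key
  · intro a
    simp only [RingHom.coe_coe, AlgEquiv.commutes]
  · intro y
    simp only [RingHom.coe_coe]
    rw [dd.fix, dd₁.fix]
  · intro a
    simp only [RingHom.coe_coe]
    rw [dd.gen, dd₁.gen]

/-- FH-BETA, unconditionally. -/
theorem betaOK' (M c ℓ : ℕ) [NeZero M] [NeZero ℓ] (H : Subgroup (ZMod c)ˣ) (h2 : 2 ≤ c)
    (hc : c ∣ M) : BetaOK M c ℓ H :=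
  Fermat.Agent.NEB.H84.betaOK M c ℓ H h2 hc (NeZero.ne M)

/-- The data of the rules of `J_H` at the levels `M`, `Mℓ`. -/
def heckeData (M c ℓ : ℕ) [NeZero M] [NeZero ℓ] (H : Subgroup (ZMod c)ˣ) (h2 : 2 ≤ c)
    (hc : c ∣ M) : HeckeData M c ℓ H :=
  haveI : NeZero (M * ℓ) := neZero_mul M ℓ
  { isFF := isFF_JH M c H h2 hc
    isFF' := isFF_JH (M * ℓ) c H h2 (hc.trans (dvd_mul_right M ℓ))
    dd := diamondData M c H h2 hc
    dd' := diamondData (M * ℓ) c H h2 (hc.trans (dvd_mul_right M ℓ))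
    hβ := betaOK' M c ℓ H h2 hc
    alphaGal := Fermat.Agent.NEB.H94.stmt_FH_alphaGal M c ℓ H _ _
    betaGal := Fermat.Agent.NEB.H84.stmt_FH_betaGal M c ℓ H h2 hc (NeZero.ne M) _ _ _ }

end Fermat.Agent.NEB.JH

end
end
-- ==== END Fermat.Agent.NEB.H14_JHData

-- ==== BEGIN Fermat.Agent.NEB.H70_NormQ
section
attribute [local instance 10000] SubalgebraClass.toAlgebra
attribute [local instance 10000] HahnSeries.powerSeriesAlgebra

/-!
# LG-NEB, package RED-q (helper70), part 2b: the `q`-expansion of the Kummer functions of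
`T^H_ℓ`, `U^H_ℓ`

For a prime `ℓ ∤ M` and `f ∈ F_H(M)`:

* `coe_THfn` : `THfn f = f (q^ℓ) · ∏_{ζ^ℓ=1} (⟨ℓ⟩ f) (ζ q^{1/ℓ}) = twNorm ℓ f (ρ(ℓ) f)`;
* `coe_UHfn` : `UHfn f = (⟨ℓ⟩⁻¹ f) (q^ℓ) · ∏_{ζ^ℓ=1} f (ζ q^{1/ℓ}) = twNorm ℓ (ρ(ℓ⁻¹) f) f`.

Method: the `ℓ + 1` conjugates of `F_H(Mℓ)` over `α F_H(M)` (resp. `β F_H(M)`) are constructed as
ring homomorphisms `F_H(Mℓ) → ℂ((q))` from the relation `RelN g` (`H70_RelN`), and the norm is the
product of the conjugates (`H95.norm_eq_prod_of_injective`).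
-/

set_option autoImplicit false
set_option linter.unusedSectionVars false
set_option linter.style.haveILetI false

open UpperHalfPlane ModularForm CongruenceSubgroup ModularCurve
open scoped MatrixGroups ModularForm Manifold

noncomputable section

namespace Fermat.Agent.NEB.H70

open Fermat.Agent.S23.H22 (Nice)
open Fermat.Agent.GTor (qLaurent)
open Fermat.Agent.NEB.H84 Fermat.Agent.NEB.JH Fermat.Agent.GTor

/-! ## 1. Embeddings of `F_H(Mℓ)` from `RelN` -/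

/-- The data describing the embedding "slash by `g`" of `F_H(Mℓ)` on `α F_H(M)` and on
`β F_H(M)`. -/
structure EmbData (M ℓ : ℕ) [NeZero ℓ] (g : GL (Fin 2) ℝ) where
  pos : 0 < (g.det : ℝ)
  /-- the element of `Γ₀(M)` acting on `α F_H(M)` -/
  δα : Gamma0 M
  Dα : GL (Fin 2) ℝ
  Eα : LaurentSeries ℂ →+* LaurentSeries ℂ
  hα : Expands Dα Eα
  mα : g = Matrix.SpecialLinearGroup.mapGL ℝ (δα : SL(2, ℤ)) * Dα
  /-- the element of `Γ₀(M)` acting on `β F_H(M)` -/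
  δβ : Gamma0 M
  Dβ : GL (Fin 2) ℝ
  Eβ : LaurentSeries ℂ →+* LaurentSeries ℂ
  hβ : Expands Dβ Eβ
  mβ : heckeDiagMatrix ℓ * g = Matrix.SpecialLinearGroup.mapGL ℝ (δβ : SL(2, ℤ)) * Dβ

section Emb

variable {M c ℓ : ℕ} [NeZero M] [NeZero ℓ] (H : Subgroup (ZMod c)ˣ) (ι : Kbar →+* ℂ)
  (hc2 : 2 ≤ c) (hc : c ∣ M) {g : GL (Fin 2) ℝ} (e : EmbData M ℓ g)

theorem relN_alpha (x : ↥(FHbar M c H)) :
    RelN g (coeffMap ι (x : LaurentSeries Kbar))
      (e.Eα (coeffMap ι (actHom H ι hc2 hc e.δα x : LaurentSeries Kbar))) := by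
  have h := relN_of_rel (g := g) e.δα.2 expands_one e.hα (by rw [one_mul]; exact e.mα)
    (actHom_rel H ι hc2 hc e.δα x)
  exact h

theorem relN_beta (x : ↥(FHbar M c H)) :
    RelN g (qExpand ℂ ℓ (coeffMap ι (x : LaurentSeries Kbar)))
      (e.Eβ (coeffMap ι (actHom H ι hc2 hc e.δβ x : LaurentSeries Kbar))) :=
  relN_of_rel (g := g) e.δβ.2 (expands_diag ℓ) e.hβ e.mβ (actHom_rel H ι hc2 hc e.δβ x)

include hc2 hc e in
theorem exists_relN (hℓ : ℓ.Prime) {x : LaurentSeries Kbar} (hx : x ∈ FHbar (M * ℓ) c H) :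
    ∃ y, RelN g (coeffMap ι x) y := by
  refine FHbar_induction (M * ℓ) c H (P := fun x => ∃ y, RelN g (coeffMap ι x) y)
    ?_ ?_ ?_ ?_ ?_ ?_ ?_ ?_ hx
  · intro a
    rw [coeffMap_const]
    exact ⟨_, relN_C e.pos _⟩
  · intro d hd0 hd
    rcases Fermat.Agent.RED.H95.dvd_mul_prime_cases hℓ hd with hdM | ⟨d', hd'M, rfl⟩
    · have hmem : coeffEmb Kbar (qExpand ℚ d jq) ∈ FHbar M c H :=
        coeffEmb_mem_laurentBaseChange Kbar (full_le_FHQ M c H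
          (IntermediateField.subset_adjoin ℚ _ ⟨d, hd0, hdM, rfl⟩))
      exact ⟨_, relN_alpha H ι hc2 hc e ⟨_, hmem⟩⟩
    · have hd'0 : NeZero d' := ⟨fun h => by
        rw [h, mul_zero] at hd0
        exact hd0.out rfl⟩
      have hmem : coeffEmb Kbar (qExpand ℚ d' jq) ∈ FHbar M c H :=
        coeffEmb_mem_laurentBaseChange Kbar (full_le_FHQ M c H
          (IntermediateField.subset_adjoin ℚ _ ⟨d', hd'0, hd'M, rfl⟩))
      have h := relN_beta H ι hc2 hc e ⟨_, hmem⟩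
      have e1 : coeffMap ι (coeffEmb Kbar (qExpand ℚ (ℓ * d') jq))
          = qExpand ℂ ℓ (coeffMap ι (coeffEmb Kbar (qExpand ℚ d' jq))) := by
        rw [← qExpand_qExpand, coeffMap_coeffEmb_C, coeffMap_coeffEmb_C]
        exact Fermat.Agent.S28.H10.coeffMap_qExpand ℓ _
      rw [e1]
      exact ⟨_, h⟩
  · intro a
    exact ⟨_, relN_alpha H ι hc2 hc e (genBar M c H a)⟩
  · rw [map_one]
    exact ⟨_, relN_one e.pos⟩
  · rintro x y ⟨x', h1⟩ ⟨y', h2⟩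
    rw [map_add]
    exact ⟨_, relN_add h1 h2⟩
  · rintro x ⟨x', h1⟩
    rw [map_neg]
    exact ⟨_, relN_neg h1⟩
  · rintro x ⟨x', h1⟩
    by_cases hx0 : x = 0
    · rw [hx0, inv_zero, map_zero]
      exact ⟨_, relN_zero e.pos⟩
    · rw [map_inv₀]
      exact ⟨_, relN_inv h1 (fun h => hx0 ((map_eq_zero_iff _ (coeffMap_inj ι)).mp h))⟩
  · rintro x y ⟨x', h1⟩ ⟨y', h2⟩
    rw [map_mul]
    exact ⟨_, relN_mul h1 h2⟩

/-- The embedding "slash by `g`" of `F_H(Mℓ)` into `ℂ((q))`, as a function. -/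
def embFun (hℓ : ℓ.Prime) (x : ↥(FHbar (M * ℓ) c H)) : LaurentSeries ℂ :=
  Classical.choose (exists_relN H ι hc2 hc e hℓ x.2)

theorem embFun_rel (hℓ : ℓ.Prime) (x : ↥(FHbar (M * ℓ) c H)) :
    RelN g (coeffMap ι (x : LaurentSeries Kbar)) (embFun H ι hc2 hc e hℓ x) :=
  Classical.choose_spec (exists_relN H ι hc2 hc e hℓ x.2)

theorem embFun_eq (hℓ : ℓ.Prime) {x : ↥(FHbar (M * ℓ) c H)} {y : LaurentSeries ℂ}
    (h : RelN g (coeffMap ι (x : LaurentSeries Kbar)) y) : embFun H ι hc2 hc e hℓ x = y :=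
  relN_unique (embFun_rel H ι hc2 hc e hℓ x) h

/-- The embedding "slash by `g`" of `F_H(Mℓ)` into `ℂ((q))`. -/
def embHom (hℓ : ℓ.Prime) : ↥(FHbar (M * ℓ) c H) →+* LaurentSeries ℂ where
  toFun := embFun H ι hc2 hc e hℓ
  map_one' := by
    apply embFun_eq
    have := relN_one e.pos
    simpa using this
  map_mul' x y := by
    apply embFun_eq
    have := relN_mul (embFun_rel H ι hc2 hc e hℓ x) (embFun_rel H ι hc2 hc e hℓ y)
    simpa using this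
  map_zero' := by
    apply embFun_eq
    have := relN_zero e.pos
    simpa using this
  map_add' x y := by
    apply embFun_eq
    have := relN_add (embFun_rel H ι hc2 hc e hℓ x) (embFun_rel H ι hc2 hc e hℓ y)
    simpa using this

theorem embHom_eq (hℓ : ℓ.Prime) {x : ↥(FHbar (M * ℓ) c H)} {y : LaurentSeries ℂ}
    (h : RelN g (coeffMap ι (x : LaurentSeries Kbar)) y) : embHom H ι hc2 hc e hℓ x = y :=
  embFun_eq H ι hc2 hc e hℓ h

theorem embHom_alpha (hℓ : ℓ.Prime) (f : ↥(FHbar M c H)) :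
    embHom H ι hc2 hc e hℓ (alphaH M c ℓ H f)
      = e.Eα (coeffMap ι (actHom H ι hc2 hc e.δα f : LaurentSeries Kbar)) := by
  apply embHom_eq
  rw [coe_alphaH]
  exact relN_alpha H ι hc2 hc e f

theorem embHom_beta (hℓ : ℓ.Prime) (hβ : BetaOK M c ℓ H) (f : ↥(FHbar M c H)) :
    embHom H ι hc2 hc e hℓ (betaBar hβ f)
      = e.Eβ (coeffMap ι (actHom H ι hc2 hc e.δβ f : LaurentSeries Kbar)) := by
  apply embHom_eq
  rw [coe_betaBar, coeffMap_qExpand_jh]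
  exact relN_beta H ι hc2 hc e f

end Emb

/-! ## 2. The matrices -/

section Matrices

/-- The matrix `[a b; c d]` of determinant `1`. -/
def mkSL (a b c d : ℤ) (h : a * d - b * c = 1) : SL(2, ℤ) :=
  ⟨!![a, b; c, d], by rw [Matrix.det_fin_two_of]; exact h⟩

theorem coe_mkSL (a b c d : ℤ) (h : a * d - b * c = 1) :
    (mkSL a b c d h : Matrix (Fin 2) (Fin 2) ℤ) = !![a, b; c, d] := rfl

theorem mkSL_mem_Gamma0 {M : ℕ} (a b c d : ℤ) (h : a * d - b * c = 1) (hM : (M : ℤ) ∣ c) :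
    mkSL a b c d h ∈ Gamma0 M := by
  rw [Gamma0_mem]
  show (((mkSL a b c d h : Matrix (Fin 2) (Fin 2) ℤ) 1 0 : ℤ) : ZMod M) = 0
  rw [coe_mkSL]
  simpa using (ZMod.intCast_zmod_eq_zero_iff_dvd c M).mpr hM

/-- `diag(ℓ,1) · [a, b'+aj; c, cj+d'ℓ] = [ℓa, b'; c, d'] · [1 j; 0 ℓ]`. -/
theorem hecke_mat_id (ℓ : ℕ) [NeZero ℓ] (a b' c d' : ℤ) (j : ℕ)
    (h₁ : a * (c * j + d' * ℓ) - (b' + a * j) * c = 1) (h₂ : (ℓ * a) * d' - b' * c = 1) :
    heckeDiagMatrix ℓ * Matrix.SpecialLinearGroup.mapGL ℝ (mkSL a (b' + a * j) c (c * j + d' * ℓ) h₁)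
      = Matrix.SpecialLinearGroup.mapGL ℝ (mkSL (ℓ * a) b' c d' h₂) * heckeMatrix ℓ j := by
  have hℓ : ℓ ≠ 0 := NeZero.ne ℓ
  apply Matrix.GeneralLinearGroup.ext
  intro i k
  simp only [Matrix.GeneralLinearGroup.coe_mul, val_heckeDiagMatrix hℓ, val_heckeMatrix hℓ,
    Matrix.SpecialLinearGroup.mapGL_coe_matrix]
  fin_cases i <;> fin_cases k <;>
    simp [Matrix.mul_apply, Fin.sum_univ_two, coe_mkSL,
      Matrix.SpecialLinearGroup.map_apply_coe, RingHom.mapMatrix_apply, Matrix.map_apply]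
  ring

theorem det_mapGL_mul_pos (γ : SL(2, ℤ)) (D : GL (Fin 2) ℝ) (hD : 0 < (D.det : ℝ)) :
    0 < ((Matrix.SpecialLinearGroup.mapGL ℝ γ * D).det : ℝ) := by
  have h1 : ((Matrix.SpecialLinearGroup.mapGL ℝ γ).det : ℝ) = 1 := by
    rw [Matrix.GeneralLinearGroup.val_det_apply, Matrix.SpecialLinearGroup.mapGL_coe_matrix]
    exact (Matrix.SpecialLinearGroup.map (algebraMap ℤ ℝ) γ).det_coe
  rw [map_mul, Units.val_mul, h1, one_mul]
  exact hD

theorem det_mul_pos' (D D' : GL (Fin 2) ℝ) (hD : 0 < (D.det : ℝ)) (hD' : 0 < (D'.det : ℝ)) :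
    0 < ((D * D').det : ℝ) := by
  rw [map_mul, Units.val_mul]
  exact mul_pos hD hD'

variable (M ℓ : ℕ) [NeZero ℓ] (s q : ℤ) (hdet : (ℓ : ℤ) * s - q * M = 1)

/-- The embedding data of the conjugate `h ↦ h ∘ γ_b` of `F_H(Mℓ)` over `α F_H(M)`:
`γ_b = [1, q+b; M, Mb+sℓ] ∈ Γ₁(M)`, `diag(ℓ,1) γ_b = δ [1 b; 0 ℓ]`, `δ = [ℓ q; M s]`. -/
def embT (b : ℕ) :
    EmbData M ℓ (Matrix.SpecialLinearGroup.mapGL ℝ
      (mkSL 1 (q + 1 * b) M (M * b + s * ℓ) (by linear_combination hdet)) * heckeDiagMatrix ℓ) where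
  pos := det_mapGL_mul_pos _ _ (det_heckeDiagMatrix_pos ℓ)
  δα := ⟨mkSL 1 (q + 1 * b) M (M * b + s * ℓ) (by linear_combination hdet),
    mkSL_mem_Gamma0 _ _ _ _ _ dvd_rfl⟩
  Dα := heckeDiagMatrix ℓ
  Eα := qExpand ℂ ℓ
  hα := expands_diag ℓ
  mα := rfl
  δβ := ⟨mkSL (ℓ * 1) q M s (by linear_combination hdet), mkSL_mem_Gamma0 _ _ _ _ _ dvd_rfl⟩
  Dβ := heckeMatrix ℓ b * heckeDiagMatrix ℓ
  Eβ := H44.twistBy (expUnit ((b : ℝ) / ℓ))
  hβ := expands_trans ℓ b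
  mβ := by
    rw [← mul_assoc, hecke_mat_id ℓ 1 q M s b _ (by linear_combination hdet), mul_assoc]

/-- The embedding data of the conjugate of `F_H(Mℓ)` over `β F_H(M)` which is not a twist:
`δ' = [s q; M ℓ]`, `diag(ℓ,1) δ' = γ' [1 0; 0 ℓ]`, `γ' = [ℓs, q; M, 1] ∈ Γ₁(M)`. -/
def embU :
    EmbData M ℓ (Matrix.SpecialLinearGroup.mapGL ℝ
      (mkSL s (q + s * (0 : ℕ)) M (M * (0 : ℕ) + 1 * ℓ) (by push_cast; linear_combination hdet))
        * (heckeDiagMatrix ℓ * heckeDiagMatrix ℓ)) where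
  pos := det_mapGL_mul_pos _ _
    (det_mul_pos' _ _ (det_heckeDiagMatrix_pos ℓ) (det_heckeDiagMatrix_pos ℓ))
  δα := ⟨mkSL s (q + s * (0 : ℕ)) M (M * (0 : ℕ) + 1 * ℓ) (by push_cast; linear_combination hdet),
    mkSL_mem_Gamma0 _ _ _ _ _ dvd_rfl⟩
  Dα := heckeDiagMatrix ℓ * heckeDiagMatrix ℓ
  Eα := (qExpand ℂ ℓ).comp (qExpand ℂ ℓ)
  hα := (expands_diag ℓ).mul (expands_diag ℓ)
  mα := rfl
  δβ := ⟨mkSL (ℓ * s) q M 1 (by linear_combination hdet), mkSL_mem_Gamma0 _ _ _ _ _ dvd_rfl⟩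
  Dβ := heckeMatrix ℓ 0 * heckeDiagMatrix ℓ * heckeDiagMatrix ℓ
  Eβ := (qExpand ℂ ℓ).comp (H44.twistBy (expUnit (((0 : ℕ) : ℝ) / ℓ)))
  hβ := (expands_trans ℓ 0).mul (expands_diag ℓ)
  mβ := by
    rw [← mul_assoc, hecke_mat_id ℓ s q M 1 0 _ (by linear_combination hdet)]
    simp only [mul_assoc]

end Matrices

/-! ## 3. Norms through embeddings -/

section Abstract

open AlgebraicCurve Fermat.Agent.NEB.H14

/-- The norm along `φ` is the product of the conjugates. -/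
theorem norm_via_emb {K₀ F F' : Type} [Field K₀] [Field F] [Field F'] [Algebra K₀ F]
    [Algebra K₀ F'] {L : Type} [Field L] (φ : F →ₐ[K₀] F') (hfin : FiniteAlong K₀ φ)
    (ψ : F →+* L) {ι : Type} [Fintype ι] (σ : ι → (F' →+* L))
    (hσφ : ∀ i x, σ i (φ x) = ψ x) (hinj : Function.Injective σ)
    (hcard : Fintype.card ι = finrankAlong K₀ φ) (y : F') :
    ψ (normFn φ y) = ∏ i, σ i y := by
  letI := algebraAlong φ
  letI : Algebra F L := ψ.toAlgebra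
  haveI : FiniteDimensional F F' := hfin
  let σ' : ι → (F' →ₐ[F] L) := fun i => { σ i with commutes' := fun x => hσφ i x }
  have hinj' : Function.Injective σ' := by
    intro i j h
    apply hinj
    ext z
    exact congrArg (fun f : F' →ₐ[F] L => f z) h
  exact Fermat.Agent.RED.H95.norm_eq_prod_of_injective σ' hinj' hcard y

end Abstract

/-! ## 4. Roots of unity -/

section Roots

variable (ℓ : ℕ) [NeZero ℓ]

theorem expUnit_div (b : ℕ) : expUnit ((b : ℝ) / ℓ) = expUnit (1 / (ℓ : ℝ)) ^ b := by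
  apply Units.ext
  rw [Units.val_pow_eq_pow_val, coe_expUnit, coe_expUnit, ← Complex.exp_nat_mul]
  congr 1
  push_cast
  ring

theorem isPrimitiveRoot_expUnit : IsPrimitiveRoot (expUnit (1 / (ℓ : ℝ))) ℓ := by
  rw [← IsPrimitiveRoot.coe_units_iff, coe_expUnit]
  have h := Complex.isPrimitiveRoot_exp ℓ (NeZero.ne ℓ)
  convert h using 2
  push_cast
  ring

theorem prod_twistBy_expUnit (s : LaurentSeries ℂ) :
    ∏ b : Fin ℓ, H44.twistBy (expUnit (((b : ℕ) : ℝ) / ℓ)) s = H44.twistProd ℂ ℓ s := by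
  rw [H44.twistProd_eq_prod_range (isPrimitiveRoot_expUnit ℓ), ← Fin.prod_univ_eq_prod_range]
  refine Finset.prod_congr rfl fun b _ => ?_
  rw [expUnit_div]

theorem expUnit_zero : expUnit (((0 : ℕ) : ℝ) / ℓ) = 1 := by
  apply Units.ext
  rw [coe_expUnit]
  simp

/-- `coeffMap ι` commutes with `uSeries`. -/
theorem coeffMap_uSeries (ι : Kbar →+* ℂ) (s : LaurentSeries Kbar) :
    coeffMap ι (uSeries ℓ s) = uSeries ℓ (coeffMap ι s) := by
  obtain ⟨z, hz⟩ := HasEnoughRootsOfUnity.exists_primitiveRoot Kbar ℓ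
  have hz0 : z ≠ 0 := hz.ne_zero (NeZero.ne ℓ)
  have hζ : IsPrimitiveRoot (Units.mk0 z hz0) ℓ :=
    IsPrimitiveRoot.coe_units_iff.mp (by simpa using hz)
  have hζ' : IsPrimitiveRoot (Units.map (ι : Kbar →* ℂ) (Units.mk0 z hz0)) ℓ :=
    hζ.map_of_injective (Units.map_injective (f := (ι : Kbar →* ℂ)) ι.injective)
  unfold uSeries
  rw [coeffMap_descend, H44.twistProd_eq_prod_range hζ, H44.twistProd_eq_prod_range hζ', map_prod]
  congr 1
  refine Finset.prod_congr rfl fun j _ => ?_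
  rw [coeffMap_twistBy, map_pow]

theorem coeffMap_twNorm (ι : Kbar →+* ℂ) (y s : LaurentSeries Kbar) :
    coeffMap ι (twNorm ℓ y s) = twNorm ℓ (coeffMap ι y) (coeffMap ι s) := by
  unfold twNorm
  rw [map_mul, coeffMap_uSeries, coeffMap_qExpand_jh]

theorem qExpand_uSeries (s : LaurentSeries ℂ) :
    qExpand ℂ ℓ (uSeries ℓ s) = H44.twistProd ℂ ℓ s := by
  unfold uSeries
  exact H44.qExpand_descend (H44.isSupp_twistProd (isPrimitiveRoot_expUnit ℓ) s)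

end Roots

/-! ## 5. Values of the embeddings -/

section Values

variable {M c ℓ : ℕ} [NeZero M] [NeZero ℓ] (H : Subgroup (ZMod c)ˣ) (ι : Kbar →+* ℂ)
  (hc2 : 2 ≤ c) (hc : c ∣ M)

/-- `x ↦ coeffMap ι x` on `F_H(M)`. -/
def iotaHom (M c : ℕ) (H : Subgroup (ZMod c)ˣ) (ι : Kbar →+* ℂ) :
    ↥(FHbar M c H) →+* LaurentSeries ℂ :=
  (coeffMap ι).comp (algebraMap ↥(FHbar M c H) (LaurentSeries Kbar))

theorem iotaHom_apply (x : ↥(FHbar M c H)) :
    iotaHom M c H ι x = coeffMap ι (x : LaurentSeries Kbar) := rfl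

/-- The action of `γ ∈ Γ₀(M)` is the diamond operator of `a_γ`. -/
theorem actHom_of_a (γ : Gamma0 M) (u : (ZMod c)ˣ)
    (hu : (u : ZMod c) = ((((γ : SL(2, ℤ)) 0 0 : ℤ)) : ZMod c)) :
    actHom H ι hc2 hc γ = rhoHom H ι hc2 hc u := by
  rw [actHom_eq_rho]
  congr 1
  apply Units.ext
  rw [hu]
  rfl

theorem actHom_of_a_one (γ : Gamma0 M)
    (hu : ((((γ : SL(2, ℤ)) 0 0 : ℤ)) : ZMod c) = 1) (f : ↥(FHbar M c H)) :
    actHom H ι hc2 hc γ f = f := by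
  rw [actHom_of_a H ι hc2 hc γ 1 (by rw [hu]; rfl), rhoHom_one]
  rfl

/-- The `j`-function in `F_H(M)`. -/
def jH (M c : ℕ) [NeZero M] (H : Subgroup (ZMod c)ˣ) : ↥(FHbar M c H) :=
  inclBar M c H ⟨Fermat.Agent.S24.jBar, Fermat.Agent.S24.jBar_mem M⟩

theorem coeffMap_jH : coeffMap ι ((jH M c H : ↥(FHbar M c H)) : LaurentSeries Kbar)
    = coeffEmb ℂ jq := by
  rw [jH, coe_inclBar]
  exact coeffMap_coeffEmb_C ι jq

theorem coeffMap_jH_coeff :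
    (coeffMap ι ((jH M c H : ↥(FHbar M c H)) : LaurentSeries Kbar)).coeff (-1 : ℤ) = 1 := by
  rw [coeffMap_jH, coeffEmb_coeff, coeff_jq_neg_one, map_one]

theorem actHom_jH (γ : Gamma0 M) : actHom H ι hc2 hc γ (jH M c H) = jH M c H :=
  actHom_incl H ι hc2 hc γ _

end Values

/-! ## 6. The Kummer function of `T^H_ℓ` -/

section TH

open AlgebraicCurve Fermat.Agent.NEB.H14

variable {M c ℓ : ℕ} [NeZero M] [NeZero ℓ] (H : Subgroup (ZMod c)ˣ) (ι : Kbar →+* ℂ)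
  (hc2 : 2 ≤ c) (hc : c ∣ M) (s q : ℤ) (hdet : (ℓ : ℤ) * s - q * M = 1) (hℓ : ℓ.Prime)

/-- The `ℓ + 1` conjugates of `F_H(Mℓ)` over `α F_H(M)`. -/
def sigmaT : Option (Fin ℓ) → (↥(FHbar (M * ℓ) c H) →+* LaurentSeries ℂ)
  | none => (qExpand ℂ ℓ).comp (iotaHom (M * ℓ) c H ι)
  | some b => embHom H ι hc2 hc (embT M ℓ s q hdet b) hℓ

theorem sigmaT_alpha (i : Option (Fin ℓ)) (f : ↥(FHbar M c H)) :
    sigmaT H ι hc2 hc s q hdet hℓ i (alphaH M c ℓ H f)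
      = ((qExpand ℂ ℓ).comp (iotaHom M c H ι)) f := by
  cases i with
  | none =>
    show qExpand ℂ ℓ (coeffMap ι ((alphaH M c ℓ H f : ↥(FHbar (M * ℓ) c H)) : LaurentSeries Kbar))
      = qExpand ℂ ℓ (coeffMap ι (f : LaurentSeries Kbar))
    rw [coe_alphaH]
  | some b =>
    show embHom H ι hc2 hc (embT M ℓ s q hdet b) hℓ (alphaH M c ℓ H f) = _
    rw [embHom_alpha, actHom_of_a_one]
    · rfl
    · have : (((embT M ℓ s q hdet b).δα : SL(2, ℤ)) 0 0 : ℤ) = 1 := rfl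
      rw [this, Int.cast_one]

theorem sigmaT_none_beta (hβ : BetaOK M c ℓ H) (f : ↥(FHbar M c H)) :
    sigmaT H ι hc2 hc s q hdet hℓ none (betaBar hβ f)
      = qExpand ℂ ℓ (qExpand ℂ ℓ (coeffMap ι (f : LaurentSeries Kbar))) := by
  show qExpand ℂ ℓ (coeffMap ι ((betaBar hβ f : ↥(FHbar (M * ℓ) c H)) : LaurentSeries Kbar)) = _
  rw [coe_betaBar, coeffMap_qExpand_jh]

theorem sigmaT_some_beta (hβ : BetaOK M c ℓ H) (u : (ZMod c)ˣ) (hu : (u : ZMod c) = (ℓ : ZMod c))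
    (b : Fin ℓ) (f : ↥(FHbar M c H)) :
    sigmaT H ι hc2 hc s q hdet hℓ (some b) (betaBar hβ f)
      = H44.twistBy (expUnit (((b : ℕ) : ℝ) / ℓ))
          (coeffMap ι (rhoHom H ι hc2 hc u f : LaurentSeries Kbar)) := by
  show embHom H ι hc2 hc (embT M ℓ s q hdet b) hℓ (betaBar hβ f) = _
  rw [embHom_beta, actHom_of_a H ι hc2 hc _ u]
  · rfl
  · have : (((embT M ℓ s q hdet b).δβ : SL(2, ℤ)) 0 0 : ℤ) = (ℓ : ℤ) * 1 := rfl
    rw [hu, this]
    push_cast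
    rw [mul_one]

theorem sigmaT_injective (hβ : BetaOK M c ℓ H) :
    Function.Injective (sigmaT H ι hc2 hc s q hdet hℓ) := by
  have hℓ2 : 2 ≤ ℓ := hℓ.two_le
  obtain ⟨u, hu⟩ : ∃ u : (ZMod c)ˣ, (u : ZMod c) = (ℓ : ZMod c) := by
    refine ⟨Units.mkOfMulEqOne (ℓ : ZMod c) ((s : ℤ) : ZMod c) ?_, rfl⟩
    have h1 := congrArg (fun z : ℤ => (z : ZMod c)) hdet
    simp only [Int.cast_sub, Int.cast_mul, Int.cast_natCast, Int.cast_one] at h1
    have h2 : ((M : ℕ) : ZMod c) = 0 := (ZMod.natCast_eq_zero_iff M c).mpr hc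
    rw [h2, mul_zero, sub_zero] at h1
    exact h1
  -- values at `β j`
  have v0 : (sigmaT H ι hc2 hc s q hdet hℓ none (betaBar hβ (jH M c H))).coeff (-1 : ℤ) = 0 := by
    rw [sigmaT_none_beta]
    apply qExpand_coeff_of_not_dvd
    intro hdvd
    have : (ℓ : ℤ) ∣ 1 := (dvd_neg (a := (ℓ : ℤ)) (b := 1)).mp hdvd
    have h3 := Int.le_of_dvd one_pos this
    omega
  have v1 : ∀ b : Fin ℓ,
      (sigmaT H ι hc2 hc s q hdet hℓ (some b) (betaBar hβ (jH M c H))).coeff (-1 : ℤ)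
        = (((expUnit (1 / (ℓ : ℝ)) ^ (b : ℕ)) ^ (-1 : ℤ) : ℂˣ) : ℂ) := by
    intro b
    rw [sigmaT_some_beta H ι hc2 hc s q hdet hℓ hβ u hu, H44.twistBy_coeff]
    have e : rhoHom H ι hc2 hc u (jH M c H) = jH M c H := rhoHom_incl H ι hc2 hc u _
    rw [e, coeffMap_jH_coeff, mul_one, expUnit_div]
  intro i j hij
  have hval := congrArg (fun σ : ↥(FHbar (M * ℓ) c H) →+* LaurentSeries ℂ =>
    (σ (betaBar hβ (jH M c H))).coeff (-1 : ℤ)) hij
  beta_reduce at hval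
  cases i with
  | none =>
    cases j with
    | none => rfl
    | some b =>
      rw [v0, v1] at hval
      exact absurd hval.symm (Units.ne_zero _)
  | some a =>
    cases j with
    | none =>
      rw [v0, v1] at hval
      exact absurd hval (Units.ne_zero _)
    | some b =>
      rw [v1, v1] at hval
      have h1 : (expUnit (1 / (ℓ : ℝ)) ^ (a : ℕ)) ^ (-1 : ℤ)
          = (expUnit (1 / (ℓ : ℝ)) ^ (b : ℕ)) ^ (-1 : ℤ) := Units.ext hval
      rw [zpow_neg_one, zpow_neg_one, inv_inj] at h1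
      have h2 := (isPrimitiveRoot_expUnit ℓ).pow_inj a.2 b.2 h1
      exact congrArg some (Fin.ext h2)

end TH

section MainT

open AlgebraicCurve Fermat.Agent.NEB.H14

variable {M c ℓ : ℕ} [NeZero M] [NeZero ℓ] {H : Subgroup (ZMod c)ˣ}

theorem exists_bezout' (hℓ : ℓ.Prime) (hℓM : ¬ ℓ ∣ M) :
    ∃ s q : ℤ, (ℓ : ℤ) * s - q * M = 1 := by
  have hco : Nat.Coprime ℓ M := (Nat.Prime.coprime_iff_not_dvd hℓ).mpr hℓM
  obtain ⟨a, b, hab⟩ := Nat.isCoprime_iff_coprime.mpr hco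
  exact ⟨a, -b, by linear_combination hab⟩

/-- An embedding `ℚ̄ → ℂ`. -/
def iotaC : Kbar →+* ℂ :=
  haveI : Algebra.IsAlgebraic ℚ (AlgebraicClosure ℚ) := AlgebraicClosure.isAlgebraic ℚ
  (IsAlgClosed.lift : AlgebraicClosure ℚ →ₐ[ℚ] ℂ).toRingHom

/-- **The `q`-expansion of the Kummer function of `T^H_ℓ`**, `ℓ ∤ M` prime:
`THfn f = f (q^ℓ) · ∏_{ζ^ℓ = 1} (⟨ℓ⟩ f) (ζ q^{1/ℓ})`. -/
theorem coe_THfn (hd : HeckeData M c ℓ H) (hc2 : 2 ≤ c) (hc : c ∣ M) (hℓ : ℓ.Prime)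
    (hℓM : ¬ ℓ ∣ M) (u : (ZMod c)ˣ) (hu : (u : ZMod c) = (ℓ : ZMod c)) (f : ↥(FHbar M c H)) :
    ((THfn hd.hβ f : ↥(FHbar M c H)) : LaurentSeries Kbar)
      = twNorm ℓ (f : LaurentSeries Kbar) ((hd.dd.ρ u f : ↥(FHbar M c H)) : LaurentSeries Kbar) := by
  obtain ⟨s, q, hdet⟩ := exists_bezout' hℓ hℓM
  have key := norm_via_emb (alphaH M c ℓ H) (finiteAlong_hom hd.isFF hd.isFF' _)
    ((qExpand ℂ ℓ).comp (iotaHom M c H iotaC)) (sigmaT H iotaC hc2 hc s q hdet hℓ)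
    (fun i x => sigmaT_alpha H iotaC hc2 hc s q hdet hℓ i x)
    (sigmaT_injective H iotaC hc2 hc s q hdet hℓ hd.hβ)
    (by rw [Fintype.card_option, Fintype.card_fin]
        exact (Fermat.Agent.NEB.H29.finrankAlong_alphaH hd hℓ hℓM).symm)
    (betaBar hd.hβ f)
  rw [Fintype.prod_option, sigmaT_none_beta] at key
  simp only [sigmaT_some_beta H iotaC hc2 hc s q hdet hℓ hd.hβ u hu] at key
  rw [prod_twistBy_expUnit, ← qExpand_uSeries, ← map_mul] at key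
  have key2 := qExpand_injective (R := ℂ) ℓ key
  apply coeffMap_inj iotaC
  rw [coeffMap_twNorm, diamondData_unique H iotaC hc2 hc hd.dd u f]
  exact key2

end MainT

/-! ## 7. The Kummer function of `U^H_ℓ` -/

section UH

open AlgebraicCurve Fermat.Agent.NEB.H14

variable {M c ℓ : ℕ} [NeZero M] [NeZero ℓ] (H : Subgroup (ZMod c)ˣ) (ι : Kbar →+* ℂ)
  (hc2 : 2 ≤ c) (hc : c ∣ M) (s q : ℤ) (hdet : (ℓ : ℤ) * s - q * M = 1) (hℓ : ℓ.Prime)

/-- Twisting by an `ℓ`-th root of unity fixes the series in `q^ℓ`. -/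
theorem twistBy_qExpand_of_pow_eq_one {K : Type} [Field K] {ζ : Kˣ} (hζ : ζ ^ ℓ = 1)
    (x : LaurentSeries K) : H44.twistBy ζ (qExpand K ℓ x) = qExpand K ℓ x := by
  ext m
  rw [H44.twistBy_coeff]
  by_cases hm : (ℓ : ℤ) ∣ m
  · obtain ⟨k, rfl⟩ := hm
    have : ζ ^ ((ℓ : ℤ) * k) = 1 := by
      rw [zpow_mul, zpow_natCast, hζ, one_zpow]
    rw [this, Units.val_one, one_mul]
  · rw [qExpand_coeff_of_not_dvd ℓ _ hm, mul_zero]

theorem expUnit_div_pow (b : ℕ) : expUnit ((b : ℝ) / ℓ) ^ ℓ = 1 := by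
  rw [expUnit_div, ← pow_mul, mul_comm, pow_mul, (isPrimitiveRoot_expUnit ℓ).pow_eq_one, one_pow]

/-- The twist conjugates of `F_H(Mℓ)` over `β F_H(M)`. -/
def sigmaTw (b : ℕ) : ↥(FHbar (M * ℓ) c H) →+* LaurentSeries ℂ :=
  (H44.twistBy (expUnit ((b : ℝ) / ℓ))).comp (iotaHom (M * ℓ) c H ι)

theorem sigmaTw_beta (hβ : BetaOK M c ℓ H) (b : ℕ) (f : ↥(FHbar M c H)) :
    sigmaTw (ℓ := ℓ) H ι b (betaBar hβ f) = ((qExpand ℂ ℓ).comp (iotaHom M c H ι)) f := by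
  show H44.twistBy _ (coeffMap ι ((betaBar hβ f : ↥(FHbar (M * ℓ) c H)) : LaurentSeries Kbar))
    = qExpand ℂ ℓ (coeffMap ι (f : LaurentSeries Kbar))
  rw [coe_betaBar, coeffMap_qExpand_jh, twistBy_qExpand_of_pow_eq_one (expUnit_div_pow b)]

theorem sigmaTw_alpha (b : ℕ) (f : ↥(FHbar M c H)) :
    sigmaTw (ℓ := ℓ) H ι b (alphaH M c ℓ H f)
      = H44.twistBy (expUnit ((b : ℝ) / ℓ)) (coeffMap ι (f : LaurentSeries Kbar)) := by
  show H44.twistBy _ (coeffMap ι ((alphaH M c ℓ H f : ↥(FHbar (M * ℓ) c H)) : LaurentSeries Kbar))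
    = _
  rw [coe_alphaH]

theorem sigmaTw_alpha_jH_coeff (b : ℕ) :
    (sigmaTw (ℓ := ℓ) H ι b (alphaH M c ℓ H (jH M c H))).coeff (-1 : ℤ)
      = (((expUnit (1 / (ℓ : ℝ)) ^ b) ^ (-1 : ℤ) : ℂˣ) : ℂ) := by
  rw [sigmaTw_alpha, H44.twistBy_coeff, coeffMap_jH_coeff, mul_one, expUnit_div]

theorem sigmaTw_injOn {a b : ℕ} (ha : a < ℓ) (hb : b < ℓ)
    (h : sigmaTw (ℓ := ℓ) (M := M) H ι a = sigmaTw (ℓ := ℓ) H ι b) : a = b := by
  have hval := congrArg (fun σ : ↥(FHbar (M * ℓ) c H) →+* LaurentSeries ℂ =>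
    (σ (alphaH M c ℓ H (jH M c H))).coeff (-1 : ℤ)) h
  beta_reduce at hval
  rw [sigmaTw_alpha_jH_coeff, sigmaTw_alpha_jH_coeff] at hval
  have h1 : (expUnit (1 / (ℓ : ℝ)) ^ a) ^ (-1 : ℤ)
      = (expUnit (1 / (ℓ : ℝ)) ^ b) ^ (-1 : ℤ) := Units.ext hval
  rw [zpow_neg_one, zpow_neg_one, inv_inj] at h1
  exact (isPrimitiveRoot_expUnit ℓ).pow_inj ha hb h1

/-- The `ℓ + 1` conjugates of `F_H(Mℓ)` over `β F_H(M)`. -/
def sigmaU : Option (Fin ℓ) → (↥(FHbar (M * ℓ) c H) →+* LaurentSeries ℂ)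
  | none => embHom H ι hc2 hc (embU M ℓ s q hdet) hℓ
  | some b => sigmaTw H ι (b : ℕ)

include hc hdet in
theorem cast_ls_eq_one : (((ℓ : ℤ) * s : ℤ) : ZMod c) = 1 := by
  have h1 := congrArg (fun z : ℤ => (z : ZMod c)) hdet
  simp only [Int.cast_sub, Int.cast_mul, Int.cast_natCast, Int.cast_one] at h1
  have h2 : ((M : ℕ) : ZMod c) = 0 := (ZMod.natCast_eq_zero_iff M c).mpr hc
  rw [h2, mul_zero, sub_zero] at h1
  push_cast
  exact h1

theorem sigmaU_beta (hβ : BetaOK M c ℓ H) (i : Option (Fin ℓ)) (f : ↥(FHbar M c H)) :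
    sigmaU H ι hc2 hc s q hdet hℓ i (betaBar hβ f)
      = ((qExpand ℂ ℓ).comp (iotaHom M c H ι)) f := by
  cases i with
  | some b => exact sigmaTw_beta H ι hβ b f
  | none =>
    show embHom H ι hc2 hc (embU M ℓ s q hdet) hℓ (betaBar hβ f) = _
    rw [embHom_beta, actHom_of_a_one]
    · show qExpand ℂ ℓ (H44.twistBy (expUnit (((0 : ℕ) : ℝ) / ℓ))
        (coeffMap ι (f : LaurentSeries Kbar))) = _
      rw [expUnit_zero, H44.twistBy_one]
      rfl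
    · have : (((embU M ℓ s q hdet).δβ : SL(2, ℤ)) 0 0 : ℤ) = (ℓ : ℤ) * s := rfl
      rw [this]
      exact cast_ls_eq_one hc s q hdet

theorem sigmaU_none_alpha (u : (ZMod c)ˣ) (hu : (u : ZMod c) = (ℓ : ZMod c))
    (f : ↥(FHbar M c H)) :
    sigmaU H ι hc2 hc s q hdet hℓ none (alphaH M c ℓ H f)
      = qExpand ℂ ℓ (qExpand ℂ ℓ (coeffMap ι (rhoHom H ι hc2 hc u⁻¹ f : LaurentSeries Kbar))) := by
  show embHom H ι hc2 hc (embU M ℓ s q hdet) hℓ (alphaH M c ℓ H f) = _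
  rw [embHom_alpha, actHom_of_a H ι hc2 hc _ u⁻¹]
  · rfl
  · have : (((embU M ℓ s q hdet).δα : SL(2, ℤ)) 0 0 : ℤ) = s := rfl
    rw [this]
    apply Units.inv_eq_of_mul_eq_one_right
    rw [hu]
    have := cast_ls_eq_one hc s q hdet
    push_cast at this
    exact this

theorem sigmaU_injective (u : (ZMod c)ˣ) (hu : (u : ZMod c) = (ℓ : ZMod c)) :
    Function.Injective (sigmaU (M := M) H ι hc2 hc s q hdet hℓ) := by
  have hℓ2 : 2 ≤ ℓ := hℓ.two_le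
  have v0 : (sigmaU H ι hc2 hc s q hdet hℓ none (alphaH M c ℓ H (jH M c H))).coeff (-1 : ℤ)
      = 0 := by
    rw [sigmaU_none_alpha H ι hc2 hc s q hdet hℓ u hu]
    apply qExpand_coeff_of_not_dvd
    intro hdvd
    have : (ℓ : ℤ) ∣ 1 := (dvd_neg (a := (ℓ : ℤ)) (b := 1)).mp hdvd
    have h3 := Int.le_of_dvd one_pos this
    omega
  have v1 : ∀ b : Fin ℓ,
      (sigmaU H ι hc2 hc s q hdet hℓ (some b) (alphaH M c ℓ H (jH M c H))).coeff (-1 : ℤ)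
        = (((expUnit (1 / (ℓ : ℝ)) ^ (b : ℕ)) ^ (-1 : ℤ) : ℂˣ) : ℂ) :=
    fun b => sigmaTw_alpha_jH_coeff H ι b
  intro i j hij
  have hval := congrArg (fun σ : ↥(FHbar (M * ℓ) c H) →+* LaurentSeries ℂ =>
    (σ (alphaH M c ℓ H (jH M c H))).coeff (-1 : ℤ)) hij
  beta_reduce at hval
  cases i with
  | none =>
    cases j with
    | none => rfl
    | some b =>
      rw [v0, v1] at hval
      exact absurd hval.symm (Units.ne_zero _)
  | some a =>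
    cases j with
    | none =>
      rw [v0, v1] at hval
      exact absurd hval (Units.ne_zero _)
    | some b =>
      have h2 : (a : ℕ) = b := sigmaTw_injOn H ι a.2 b.2 hij
      exact congrArg some (Fin.ext h2)

end UH

section MainU

open AlgebraicCurve Fermat.Agent.NEB.H14

variable {M c ℓ : ℕ} [NeZero M] [NeZero ℓ] {H : Subgroup (ZMod c)ˣ}

/-- `[F_H(Mℓ) : β F_H(M)] = [F₀(Mℓ) : β F₀(M)]` (Galois square). -/
theorem finrankAlong_betaH_eq (hd : HeckeData M c ℓ H) :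
    finrankAlong Kbar (betaBar hd.hβ) = finrankAlong Kbar (heckeBetaBar Kbar M ℓ) := by
  haveI := neZero_mul M ℓ
  haveI := finite_range_rho hd.dd'
  haveI : Fintype hd.dd'.ρ.range := Fintype.ofFinite _
  have h := Fermat.Agent.NEB.H2.stmt_GalSquare Kbar _ _ _ _ (heckeBetaBar Kbar M ℓ)
    (inclBar M c H) (betaBar hd.hβ)
    (inclBar (M * ℓ) c H) (inclBar_comp_beta hd.hβ).symm
    (finiteAlong_hom (isFF0 M) (isFF0 (M * ℓ)) _) hd.dd'.ρ.range ?_ ?_ ?_ ?_ ?_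
  · exact h.2.1
  · intro x hx
    obtain ⟨x₀, hx₀⟩ := hd.dd'.fixed x (fun d => hx _ ⟨d, rfl⟩)
    exact ⟨x₀, hx₀⟩
  · rintro g y ⟨d, rfl⟩
    exact hd.dd'.fix d y
  · rintro g y ⟨d, rfl⟩
    exact ⟨hd.dd.ρ d y, (hd.betaGal d y).symm⟩
  · rintro g ⟨d, rfl⟩ hg
    have h1 : hd.dd.ρ d = 1 := by
      refine AlgEquiv.ext fun y => ?_
      have h2 := hg y
      rw [hd.betaGal d y] at h2
      exact (betaBar hd.hβ).toRingHom.injective h2
    exact (hd.dd'.ker d).mpr ((hd.dd.ker d).mp h1)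
  · intro y hy
    obtain ⟨x₀, hx₀⟩ := hd.dd.fixed y (fun d => by
      have h2 := hy _ ⟨d, rfl⟩
      rw [hd.betaGal d y] at h2
      exact (betaBar hd.hβ).toRingHom.injective h2)
    exact ⟨x₀, hx₀⟩

/-- `[F_H(Mℓ) : β F_H(M)] = ℓ + 1` for a prime `ℓ ∤ M`. -/
theorem finrankAlong_betaH (hd : HeckeData M c ℓ H) (hℓ : ℓ.Prime) (hM : ¬ ℓ ∣ M) :
    finrankAlong Kbar (betaBar hd.hβ) = ℓ + 1 := by
  rw [finrankAlong_betaH_eq hd]
  exact Fermat.Agent.RED.H95.finrankAlong_beta hℓ hM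

/-- **The `q`-expansion of the Kummer function of `U^H_ℓ`**, `ℓ ∤ M` prime:
`UHfn f = (⟨ℓ⟩⁻¹ f) (q^ℓ) · ∏_{ζ^ℓ = 1} f (ζ q^{1/ℓ})`. -/
theorem coe_UHfn (hd : HeckeData M c ℓ H) (hc2 : 2 ≤ c) (hc : c ∣ M) (hℓ : ℓ.Prime)
    (hℓM : ¬ ℓ ∣ M) (u : (ZMod c)ˣ) (hu : (u : ZMod c) = (ℓ : ZMod c)) (f : ↥(FHbar M c H)) :
    ((UHfn hd.hβ f : ↥(FHbar M c H)) : LaurentSeries Kbar)
      = twNorm ℓ ((hd.dd.ρ u⁻¹ f : ↥(FHbar M c H)) : LaurentSeries Kbar)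
          (f : LaurentSeries Kbar) := by
  obtain ⟨s, q, hdet⟩ := exists_bezout' hℓ hℓM
  have key := norm_via_emb (betaBar hd.hβ) (finiteAlong_hom hd.isFF hd.isFF' _)
    ((qExpand ℂ ℓ).comp (iotaHom M c H iotaC)) (sigmaU H iotaC hc2 hc s q hdet hℓ)
    (fun i x => sigmaU_beta H iotaC hc2 hc s q hdet hℓ hd.hβ i x)
    (sigmaU_injective H iotaC hc2 hc s q hdet hℓ u hu)
    (by rw [Fintype.card_option, Fintype.card_fin]
        exact (finrankAlong_betaH hd hℓ hℓM).symm)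
    (alphaH M c ℓ H f)
  rw [Fintype.prod_option, sigmaU_none_alpha H iotaC hc2 hc s q hdet hℓ u hu] at key
  have e : ∀ b : Fin ℓ, sigmaU H iotaC hc2 hc s q hdet hℓ (some b) (alphaH M c ℓ H f)
      = H44.twistBy (expUnit (((b : ℕ) : ℝ) / ℓ)) (coeffMap iotaC (f : LaurentSeries Kbar)) :=
    fun b => sigmaTw_alpha H iotaC b f
  simp only [e] at key
  rw [prod_twistBy_expUnit, ← qExpand_uSeries, ← map_mul] at key
  have key2 := qExpand_injective (R := ℂ) ℓ key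
  apply coeffMap_inj iotaC
  rw [coeffMap_twNorm, diamondData_unique H iotaC hc2 hc hd.dd u⁻¹ f]
  exact key2

/-- **The `q`-expansion of the Kummer function of `U^H_ℓ`** when `[F_H(Mℓ) : β F_H(M)] = ℓ`
(the case `ℓ ∣ M`): `UHfn f = ∏_{ζ^ℓ = 1} f (ζ q^{1/ℓ})`. -/
theorem coe_UHfn_of_finrank (hd : HeckeData M c ℓ H)
    (hdeg : finrankAlong Kbar (betaBar hd.hβ) = ℓ) (f : ↥(FHbar M c H)) :
    ((UHfn hd.hβ f : ↥(FHbar M c H)) : LaurentSeries Kbar)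
      = uSeries ℓ (f : LaurentSeries Kbar) := by
  have key := norm_via_emb (betaBar hd.hβ) (finiteAlong_hom hd.isFF hd.isFF' _)
    ((qExpand ℂ ℓ).comp (iotaHom M c H iotaC))
    (fun b : Fin ℓ => sigmaTw (ℓ := ℓ) H iotaC (b : ℕ))
    (fun i x => sigmaTw_beta H iotaC hd.hβ i x)
    (fun a b hab => Fin.ext (sigmaTw_injOn H iotaC a.2 b.2 hab))
    (by rw [Fintype.card_fin]; exact hdeg.symm)
    (alphaH M c ℓ H f)
  have e : ∀ b : Fin ℓ, sigmaTw (ℓ := ℓ) H iotaC (b : ℕ) (alphaH M c ℓ H f)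
      = H44.twistBy (expUnit (((b : ℕ) : ℝ) / ℓ)) (coeffMap iotaC (f : LaurentSeries Kbar)) :=
    fun b => sigmaTw_alpha H iotaC b f
  simp only [e] at key
  rw [prod_twistBy_expUnit, ← qExpand_uSeries] at key
  have key2 := qExpand_injective (R := ℂ) ℓ key
  apply coeffMap_inj iotaC
  rw [coeffMap_uSeries]
  exact key2

end MainU

end Fermat.Agent.NEB.H70

end
end
-- ==== END Fermat.Agent.NEB.H70_NormQ
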