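-- GENERATED (merged mirror, NOTES/tools/trim/merge3_helper67.py): 3 modules of the originals, bodies verbatim.
import Fermat.Agent.Zm.S48_L13_000
import Fermat.Agent.Zm.S48_L02_000
import Fermat.Agent.Zm.S48_L01_000
import Fermat.Agent.Zm.S48_L10_000
import Fermat.Agent.Zm.S35_L08_001

-- ==== BEGIN Fermat.Agent.NEB.EIG.H39_OP
section

/-!
# NEB / EIG (helper39): the operator form (leaf EIG-OP)

INPUT: an `L`-vector space `V` (`L` a field of characteristic zero with enough roots of unity) with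
* an injective linear map `μ : V → Hom(Γ₀(N c) ∩ Γ₁(c), L)` with parabolic values,
* operators `TV ℓ` with `μ (TV ℓ v) = T_ℓ (μ v)` (`ℓ ∤ N c` prime),
* diamond operators `dia : (ZMod c)ˣ →* End V` with `μ (dia d v) = D_g (μ v)` for `g ∈ Γ₀(N c)`,
  `a_g ≡ d mod c`, commuting with the `TV ℓ`, and `dia d ^ n = 1` with `n = 2 j + 1` odd.
OUTPUT: a ring homomorphism `η : heckeAlgebra (N c²) 2 S → End_L V` with
`η (T_ℓ) = TV ℓ ∘ dia(ℓ) ^ j`  (`= T_ℓ ⟨ℓ⟩^(-1/2)`).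
-/

set_option autoImplicit false

namespace Fermat.Agent.NEB.EIG.H39

open CongruenceSubgroup Matrix.SpecialLinearGroup ModularForm Finset
open scoped MatrixGroups
open Fermat.Agent.Betti ModularCurve.Period

section Lemmas

variable {c : ℕ} {L : Type*} [Field L] {V : Type*} [AddCommGroup V] [Module L V]

theorem eigSp_pow {dia : (ZMod c)ˣ →* Module.End L V} {ψ : MulChar (ZMod c) L} {v : V}
    (hv : v ∈ eigSp dia ψ) (d : (ZMod c)ˣ) (k : ℕ) :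
    (dia d ^ k) v = ψ (d : ZMod c) ^ k • v := by
  induction k with
  | zero => simp
  | succ k ih =>
    rw [pow_succ, Module.End.mul_apply, hv d, map_smul, ih, smul_smul, pow_succ, mul_comm]

theorem psi_pow_eq_one {dia : (ZMod c)ˣ →* Module.End L V} {ψ : MulChar (ZMod c) L} {v : V}
    (hv : v ∈ eigSp dia ψ) (hv0 : v ≠ 0) {n : ℕ} (hdn : ∀ d, dia d ^ n = 1) (d : (ZMod c)ˣ) :
    ψ (d : ZMod c) ^ n = 1 := by
  have h1 := eigSp_pow hv d n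
  rw [hdn d, Module.End.one_apply] at h1
  have h2 : (ψ (d : ZMod c) ^ n - 1) • v = 0 := by
    rw [sub_smul, one_smul, ← h1, sub_self]
  rcases smul_eq_zero.mp h2 with h3 | h3
  · exact sub_eq_zero.mp h3
  · exact absurd h3 hv0

theorem list_prod_map_pow {M : Type*} [CommMonoid M] {α : Type*} (l : List α) (f : α → M)
    (k : ℕ) : (l.map fun x => f x ^ k).prod = (l.map f).prod ^ k := by
  induction l with
  | nil => simp
  | cons a l ih => rw [List.map_cons, List.prod_cons, List.map_cons, List.prod_cons, ih, mul_pow]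

end Lemmas

section Weights

variable {L : Type*} [Field L]

/-- The weight of the twisted characters is `ψ`. -/
theorem Om_pow_eq (qs : List ℕ) (ψ : MulChar (ZMod qs.prod) L)
    (χ : (q : ℕ) → MulChar (ZMod q) L)
    (hχ1 : ∀ a : ℤ, IsUnit ((a : ℤ) : ZMod qs.prod) →
      ψ ((a : ℤ) : ZMod qs.prod) = (qs.map fun q => χ q ((a : ℤ) : ZMod q)).prod)
    (j : ℕ) (hχn : ∀ q ∈ qs, ∀ x : (ZMod q)ˣ, χ q (x : ZMod q) ^ (2 * j + 1) = 1)
    (g : SL(2, ℤ)) (hg : ((qs.prod : ℕ) : ℤ) ∣ g 1 0) :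
    Om (fun q => χ q ^ (j + 1)) qs g = ψ ((g 0 0 : ℤ) : ZMod qs.prod) := by
  have hu : IsUnit (((g 0 0 : ℤ) : ZMod qs.prod)) :=
    IsUnit.of_mul_eq_one _ (entry_mul_eq_one hg)
  rw [hχ1 _ hu]
  unfold Om
  congr 1
  refine List.map_congr_left fun q hq => ?_
  have hqg : (q : ℤ) ∣ g 1 0 := (Int.natCast_dvd_natCast.mpr (List.dvd_prod hq)).trans hg
  have huq : IsUnit (((g 0 0 : ℤ) : ZMod q)) := IsUnit.of_mul_eq_one _ (entry_mul_eq_one hqg)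
  obtain ⟨x, hx⟩ := huq
  rw [MulChar.pow_apply' _ (Nat.succ_ne_zero j), ← pow_mul, ← hx]
  have e : (j + 1) * 2 = (2 * j + 1) + 1 := by ring
  rw [e, pow_succ, hχn q hq x, one_mul]

/-- The eigenvalue factor of the twisted characters is `ψ(ℓ)^(j+1)`. -/
theorem chiProd_pow_eq (qs : List ℕ) (ψ : MulChar (ZMod qs.prod) L)
    (χ : (q : ℕ) → MulChar (ZMod q) L)
    (hχ1 : ∀ a : ℤ, IsUnit ((a : ℤ) : ZMod qs.prod) →
      ψ ((a : ℤ) : ZMod qs.prod) = (qs.map fun q => χ q ((a : ℤ) : ZMod q)).prod)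
    (j : ℕ) (ℓ : ℕ) (hℓ : IsUnit ((ℓ : ℕ) : ZMod qs.prod)) :
    chiProd (fun q => χ q ^ (j + 1)) qs ℓ = ψ ((ℓ : ℕ) : ZMod qs.prod) ^ (j + 1) := by
  have h1 := hχ1 (ℓ : ℤ) (by simpa using hℓ)
  simp only [Int.cast_natCast] at h1
  rw [h1, ← list_prod_map_pow]
  unfold chiProd
  congr 1
  refine List.map_congr_left fun q _ => ?_
  rw [MulChar.pow_apply' _ (Nat.succ_ne_zero j)]

end Weights

section Main

variable {L : Type} [Field L] [CharZero L] {V : Type*} [AddCommGroup V] [Module L V]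

open Classical in
/-- The unit of `ZMod c` attached to `ℓ` (`1` if `ℓ` is not prime to `c`). -/
noncomputable def unitOf (c ℓ : ℕ) : (ZMod c)ˣ :=
  if h : Nat.Coprime ℓ c then ZMod.unitOfCoprime ℓ h else 1

theorem unitOf_coe {c ℓ : ℕ} (h : Nat.Coprime ℓ c) :
    ((unitOf c ℓ : (ZMod c)ˣ) : ZMod c) = (ℓ : ZMod c) := by
  unfold unitOf
  rw [dif_pos h, ZMod.coe_unitOfCoprime]

/-- The twisted Hecke operator `T_ℓ ⟨ℓ⟩^j` (`= T_ℓ ⟨ℓ⟩^(-1/2)` if `⟨ℓ⟩^(2j+1) = 1`). -/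
noncomputable def tOp {c : ℕ} (TV : ℕ → Module.End L V) (dia : (ZMod c)ˣ →* Module.End L V)
    (j : ℕ) (ℓ : ℕ) : Module.End L V :=
  TV ℓ * dia (unitOf c ℓ) ^ j

omit [CharZero L] in
theorem tOp_apply_of_mem {c : ℕ} (TV : ℕ → Module.End L V) (dia : (ZMod c)ˣ →* Module.End L V)
    (j : ℕ) (ℓ : ℕ) {ψ : MulChar (ZMod c) L} {v : V} (hv : v ∈ eigSp dia ψ) :
    tOp TV dia j ℓ v = ψ ((unitOf c ℓ : (ZMod c)ˣ) : ZMod c) ^ j • TV ℓ v := by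
  unfold tOp
  rw [Module.End.mul_apply, eigSp_pow hv, map_smul]

omit [CharZero L] in
theorem tOp_mem {c : ℕ} (TV : ℕ → Module.End L V) (dia : (ZMod c)ˣ →* Module.End L V)
    (hcomm : ∀ ℓ d, Commute (TV ℓ) (dia d))
    (j : ℕ) (ℓ : ℕ) {ψ : MulChar (ZMod c) L} {v : V} (hv : v ∈ eigSp dia ψ) :
    tOp TV dia j ℓ v ∈ eigSp dia ψ := by
  intro d
  rw [tOp_apply_of_mem TV dia j ℓ hv, map_smul]
  have h1 : dia d (TV ℓ v) = TV ℓ (dia d v) := by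
    have := congrArg (fun F : Module.End L V => F v) (hcomm ℓ d).eq
    simp only [Module.End.mul_apply] at this
    exact this.symm
  rw [h1, hv d, map_smul, smul_comm]

/-- The intertwiner on the `ψ`-eigenspace. -/
theorem exists_Theta (N : ℕ) (hN : N ≠ 0) (qs : List ℕ) (hnd : qs.Nodup)
    (hpr : ∀ q ∈ qs, q.Prime) (hqN : ∀ q ∈ qs, ¬ q ∣ N)
    (μ : V →ₗ[L] (Additive (Gam1 (N * qs.prod) qs.prod) →+ L)) (hμ : Function.Injective μ)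
    (hμpar : ∀ v, IsParabolicHom (Gam1 (N * qs.prod) qs.prod) (μ v))
    (TV : ℕ → Module.End L V)
    (hTV : ∀ (ℓ : ℕ) (hℓ : ℓ.Prime) (hℓM : ¬ ℓ ∣ N * qs.prod) (v : V),
      μ (TV ℓ v) = TD (N * qs.prod) qs.prod (dvd_mul_left _ _) hℓ hℓM (μ v))
    (dia : (ZMod qs.prod)ˣ →* Module.End L V)
    (hdia : ∀ (g : SL(2, ℤ)) (hg : ((N * qs.prod : ℕ) : ℤ) ∣ g 1 0) (d : (ZMod qs.prod)ˣ),
      (d : ZMod qs.prod) = ((g 0 0 : ℤ) : ZMod qs.prod) →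
      ∀ v, μ (dia d v) = Dop (dvd_mul_left _ _) g hg (μ v))
    (j : ℕ) (hdn : ∀ d, dia d ^ (2 * j + 1) = 1) (ψ : MulChar (ZMod qs.prod) L) :
    ∃ Θ : V →ₗ[L] (Additive (Gamma0 (N * qs.prod * qs.prod)) →+ L),
      (∀ v ∈ eigSp dia ψ, IsParabolicHom (Gamma0 (N * qs.prod * qs.prod)) (Θ v)) ∧
      (∀ v ∈ eigSp dia ψ, Θ v = 0 → v = 0) ∧
      (∀ (ℓ : ℕ) (hℓ : ℓ.Prime) (hℓN : ¬ ℓ ∣ N * qs.prod * qs.prod), ∀ v ∈ eigSp dia ψ,
        Θ (tOp TV dia j ℓ v) = TB (N * qs.prod * qs.prod) L hℓ hℓN (Θ v)) := by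
  by_cases hbot : eigSp dia ψ = ⊥
  · refine ⟨0, fun v _ => ?_, fun v hv _ => ?_, fun ℓ hℓ hℓN v _ => ?_⟩
    · intro γ _
      rfl
    · rw [hbot] at hv
      exact (Submodule.mem_bot L).mp hv
    · rw [LinearMap.zero_apply, LinearMap.zero_apply, map_zero]
  · obtain ⟨v₀, hv₀, hv0⟩ := Submodule.exists_mem_ne_zero_of_ne_bot hbot
    have hψn : ∀ d : (ZMod qs.prod)ˣ, ψ (d : ZMod qs.prod) ^ (2 * j + 1) = 1 :=
      psi_pow_eq_one hv₀ hv0 hdn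
    obtain ⟨χ, hχ1, hχ2⟩ := char_dec qs hnd hpr qs.prod rfl ψ
    have hχn : ∀ q ∈ qs, ∀ x : (ZMod q)ˣ, χ q (x : ZMod q) ^ (2 * j + 1) = 1 := by
      intro q hq x
      obtain ⟨y, hy⟩ := hχ2 q hq x
      rw [hy]
      exact hψn y
    have hχ'' : ∀ q ∈ qs, (χ q ^ (j + 1) = 1) ∨
        ∃ T : ℤ, ¬ (q : ℤ) ∣ T ∧ (χ q ^ (j + 1)) ((T : ℤ) : ZMod q) ^ 2 ≠ 1 := by
      intro q hq
      by_cases h : χ q = 1
      · left
        rw [h, one_pow]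
      · right
        obtain ⟨x, hx⟩ := MulChar.ne_one_iff.mp h
        have hqp := hpr q hq
        haveI : Fact q.Prime := ⟨hqp⟩
        refine ⟨(((x : ZMod q).val : ℕ) : ℤ), ?_, ?_⟩
        · intro hdvd
          have h0 : (((((x : ZMod q).val : ℕ) : ℤ) : ℤ) : ZMod q) = 0 :=
            (ZMod.intCast_zmod_eq_zero_iff_dvd _ _).mpr hdvd
          rw [Int.cast_natCast, ZMod.natCast_zmod_val] at h0
          exact x.ne_zero h0
        · rw [Int.cast_natCast, ZMod.natCast_zmod_val,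
            MulChar.pow_apply' _ (Nat.succ_ne_zero j), ← pow_mul]
          have e : (j + 1) * 2 = (2 * j + 1) + 1 := by ring
          rw [e, pow_succ, hχn q hq x, one_mul]
          exact hx
    obtain ⟨Tw, hTw⟩ := stmt_TW N hN qs hnd hpr hqN (fun q => χ q ^ (j + 1)) hχ''
    have hEig : ∀ v ∈ eigSp dia ψ, IsEig (N * qs.prod) qs.prod (dvd_mul_left _ _)
        (Om (fun q => χ q ^ (j + 1)) qs) (μ v) := by
      intro v hv g hg
      have hgc : ((qs.prod : ℕ) : ℤ) ∣ g 1 0 :=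
        (Int.natCast_dvd_natCast.mpr (dvd_mul_left qs.prod N)).trans hg
      have hu : IsUnit (((g 0 0 : ℤ) : ZMod qs.prod)) :=
        IsUnit.of_mul_eq_one _ (entry_mul_eq_one hgc)
      have h1 := hdia g hg hu.unit rfl v
      rw [hv hu.unit, map_smul] at h1
      rw [← h1, Om_pow_eq qs ψ χ hχ1 j hχn g hgc]
      rfl
    refine ⟨Tw.comp μ, fun v hv => ?_, fun v hv h0 => ?_, fun ℓ hℓ hℓN v hv => ?_⟩
    · exact (hTw (μ v) (hEig v hv)).2.2 (hμpar v)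
    · have := (hTw (μ v) (hEig v hv)).1 h0
      exact hμ (by rw [this, map_zero])
    · have hℓM : ¬ ℓ ∣ N * qs.prod := fun h => hℓN (h.trans (dvd_mul_right _ _))
      have hℓc : ¬ ℓ ∣ qs.prod := fun h => hℓM (h.trans (dvd_mul_left _ _))
      have hcop : Nat.Coprime ℓ qs.prod := (Nat.Prime.coprime_iff_not_dvd hℓ).mpr hℓc
      have hunit : IsUnit ((ℓ : ℕ) : ZMod qs.prod) := by
        rw [← unitOf_coe hcop]
        exact Units.isUnit _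
      rw [tOp_apply_of_mem TV dia j ℓ hv, LinearMap.comp_apply, LinearMap.comp_apply, map_smul,
        map_smul, hTV ℓ hℓ hℓM v, (hTw (μ v) (hEig v hv)).2.1 ℓ hℓ hℓM hℓN,
        chiProd_pow_eq qs ψ χ hχ1 j ℓ hunit, unitOf_coe hcop]
      congr 1
      have h2 := hψn (unitOf qs.prod ℓ)
      rw [unitOf_coe hcop] at h2
      have e : 2 * j + 1 = j + (j + 1) := by ring
      rw [e, pow_add] at h2
      exact (inv_eq_of_mul_eq_one_left h2).symm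

/-- **EIG-OP**: the Hecke algebra of level `N c²` acts on `V` through the twisted operators
`T_ℓ ⟨ℓ⟩^j`. -/
theorem stmt_OP (N : ℕ) (hN : N ≠ 0) (qs : List ℕ) (hnd : qs.Nodup)
    (hpr : ∀ q ∈ qs, q.Prime) (hqN : ∀ q ∈ qs, ¬ q ∣ N)
    (c N' : ℕ) (hc : c = qs.prod) (hN' : N' = N * c * c) [NeZero N'] (S : Set ℕ)
    (hS : ∀ q : ℕ, q.Prime → q ∣ N' → q ∈ S)
    [HasEnoughRootsOfUnity L (Monoid.exponent (ZMod c)ˣ)]
    (μ : V →ₗ[L] (Additive (Gam1 (N * c) c) →+ L)) (hμ : Function.Injective μ)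
    (hμpar : ∀ v, IsParabolicHom (Gam1 (N * c) c) (μ v))
    (TV : ℕ → Module.End L V)
    (hTV : ∀ (ℓ : ℕ) (hℓ : ℓ.Prime) (hℓM : ¬ ℓ ∣ N * c) (v : V),
      μ (TV ℓ v) = TD (N * c) c (dvd_mul_left _ _) hℓ hℓM (μ v))
    (dia : (ZMod c)ˣ →* Module.End L V)
    (hdia : ∀ (g : SL(2, ℤ)) (hg : ((N * c : ℕ) : ℤ) ∣ g 1 0) (d : (ZMod c)ˣ),
      (d : ZMod c) = ((g 0 0 : ℤ) : ZMod c) →
      ∀ v, μ (dia d v) = Dop (dvd_mul_left _ _) g hg (μ v))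
    (hcomm : ∀ ℓ d, Commute (TV ℓ) (dia d))
    (j : ℕ) (hdn : ∀ d, dia d ^ (2 * j + 1) = 1) :
    ∃ eta : CuspForm.heckeAlgebra N' 2 S →+* Module.End L V,
      ∀ (ℓ : ℕ) (hℓ : ℓ.Prime) (hℓN : ¬ ℓ ∣ N') (hℓS : ℓ ∉ S),
        eta (CuspForm.heckeAlgebra.T hℓ hℓN hℓS) = TV ℓ * dia (unitOf c ℓ) ^ j := by
  subst hc
  subst hN'
  haveI : NeZero qs.prod := ⟨prod_primes_ne_zero hpr⟩
  have hΘ := exists_Theta N hN qs hnd hpr hqN μ hμ hμpar TV hTV dia hdia j hdn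
  choose Θ hΘ1 hΘ2 hΘ3 using hΘ
  exact transport hS (fun ψ : DirichletCharacter L qs.prod => eigSp dia ψ) (iSup_eigSp dia) Θ
    (fun ψ v hv => hΘ1 ψ v hv) (fun ψ v hv => hΘ2 ψ v hv) (tOp TV dia j)
    (fun ψ ℓ _ _ _ v hv => tOp_mem TV dia hcomm j ℓ hv)
    (fun ψ ℓ hℓ hℓN _ v hv => hΘ3 ψ ℓ hℓ hℓN v hv)

end Main

end Fermat.Agent.NEB.EIG.H39

end
-- ==== END Fermat.Agent.NEB.EIG.H39_OP

-- ==== BEGIN Fermat.Agent.NEB.EIG.H94_HK1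
section
attribute [local instance 10000] SubalgebraClass.toAlgebra
attribute [local instance 10000] HahnSeries.powerSeriesAlgebra

/-!
# NEB / EIG-MONO, leaf HK1 (helper94): the `q`-expansion of the Hecke product, and `Stmt_HK1`

* `qLaurent_heckeProd2` : for `A₁`, `A₂` nice of period one such that the two-function Hecke
  product `heckeProd2 K ℓ A₁ A₂ = (∏_j A₁ ∣ [1,j;0,ℓ]) * A₂ ∣ [ℓ,0;0,1]` is again of period one,
  `qLaurent (heckeProd2 K ℓ A₁ A₂) = C c * twNorm ℓ (qLaurent A₂) (qLaurent A₁)`.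
* `qLaurent_pow_slash_kappa` : `ι f = (R / B)ⁿ ⟹ ι (⟨ℓ⟩ f) = ((R ∣ κ) / B)ⁿ`.
* `qLaurent_heckeProdD` : part (b) of HK1: the ratio of the `q`-expansions of `(heckeProdD R)ⁿ` and
  `(heckeProdD B)ⁿ` is `ι (THfn f)`.
* `stmt_HK1 : Stmt_HK1 M c H n`.
-/

set_option autoImplicit false
set_option linter.unusedSectionVars false
set_option linter.unusedVariables false
set_option linter.style.haveILetI false

open UpperHalfPlane ModularForm CongruenceSubgroup ModularCurve AlgebraicCurve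
  Matrix.SpecialLinearGroup
open scoped MatrixGroups ModularForm Manifold OnePoint

noncomputable section

namespace Fermat.Agent.NEB.EIG.H94

open Fermat.Agent.S23.H22 (Nice)
open Fermat.Agent.S28.H30 (pexp BPH)
open Fermat.Agent.GTor Fermat.Agent.Betti
open Fermat.Agent.GTor.H76 (heckeProd bph_comp_heckeMatrix bph_comp_heckeDiagMatrix
  pexp_comp_heckeMatrix pexp_comp_heckeDiagMatrix)
open Fermat.Agent.GTor.H44 (heckeConst heckeConst_ne_zero twistBy zetaUnit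
  isPrimitiveRoot_zetaUnit twistProd descend)
open Fermat.Agent.NEB Fermat.Agent.NEB.JH Fermat.Agent.NEB.H84 Fermat.Agent.NEB.EIG.H39
  Fermat.Agent.NEB.EIG.H98 Fermat.Agent.NEB.EIG.H34
open Fermat.Agent.NEB.H70 (twNorm uSeries)

/-! ## 1. The `q`-expansion of the two-function Hecke product -/

theorem heckeProd2_eq_smul (K : ℤ) {ℓ : ℕ} (hℓ : ℓ ≠ 0) (A₁ A₂ : ℍ → ℂ) :
    heckeProd2 K ℓ A₁ A₂ = heckeConst K ℓ •
      ((∏ j ∈ Finset.range ℓ, fun z => A₁ (heckeMatrix ℓ j • z)) *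
        fun z => A₂ (heckeDiagMatrix ℓ • z)) := by
  funext τ
  rw [heckeProd2_apply K hℓ, Pi.smul_apply, Pi.mul_apply, Finset.prod_apply, smul_eq_mul,
    Finset.prod_mul_distrib, Finset.prod_const, Finset.card_range, heckeConst]
  ring

theorem pexp_heckeProd2 (K : ℤ) (ℓ : ℕ) [NeZero ℓ] {A₁ A₂ : ℍ → ℂ} (hA₁ : Nice 1 A₁)
    (hA₂ : Nice 1 A₂) :
    pexp ℓ (heckeProd2 K ℓ A₁ A₂) = HahnSeries.C (heckeConst K ℓ) *
      ((∏ j ∈ Finset.range ℓ, twistBy (zetaUnit ℓ ^ j) (qLaurent A₁)) *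
        qExpand ℂ ℓ (qExpand ℂ ℓ (qLaurent A₂))) := by
  have h1 : ∀ j ∈ Finset.range ℓ, BPH ℓ (fun z => A₁ (heckeMatrix ℓ j • z)) :=
    fun j _ => bph_comp_heckeMatrix ℓ hA₁ j
  have h2 : BPH ℓ (fun z => A₂ (heckeDiagMatrix ℓ • z)) := bph_comp_heckeDiagMatrix ℓ hA₂
  rw [heckeProd2_eq_smul K (NeZero.ne ℓ),
    Fermat.Agent.S28.H30.pexp_smul _ ((BPH.prod _ _ h1).mul h2),
    Fermat.Agent.S28.H30.pexp_mul (BPH.prod _ _ h1) h2,
    Fermat.Agent.S28.H30.pexp_prod _ _ h1, pexp_comp_heckeDiagMatrix ℓ hA₂]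
  congr 2
  exact Finset.prod_congr rfl fun j _ => pexp_comp_heckeMatrix ℓ hA₁ j

/-- The `q`-expansion of the two-function Hecke product. -/
theorem qLaurent_heckeProd2 (K : ℤ) (ℓ : ℕ) [NeZero ℓ] {A₁ A₂ : ℍ → ℂ} (hA₁ : Nice 1 A₁)
    (hA₂ : Nice 1 A₂) (hP : Nice 1 (heckeProd2 K ℓ A₁ A₂)) :
    qLaurent (heckeProd2 K ℓ A₁ A₂)
      = HahnSeries.C (heckeConst K ℓ) * twNorm ℓ (qLaurent A₂) (qLaurent A₁) := by
  have h1 : pexp ℓ (heckeProd2 K ℓ A₁ A₂) = qExpand ℂ ℓ (qLaurent (heckeProd2 K ℓ A₁ A₂)) :=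
    Fermat.Agent.S28.H76.ofPS_qExpansion_natCast ℓ hP
  apply H44.qExpand_injective (K := ℂ) (ℓ := ℓ)
  rw [← h1, pexp_heckeProd2 K ℓ hA₁ hA₂, map_mul, qExpand_C, twNorm, uSeries, map_mul,
    H44.qExpand_descend (H44.isSupp_twistProd (isPrimitiveRoot_zetaUnit ℓ) _),
    H44.twistProd_eq_prod_range (isPrimitiveRoot_zetaUnit ℓ), mul_comm (qExpand ℂ ℓ _)]

/-! ## 2. The action of `κ` -/

section Kappa

variable {M c n : ℕ} [NeZero M] {H : Subgroup (ZMod c)ˣ} {k : ℤ} {ℓ : ℕ}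

/-- `d_κ⁻¹ = ℓ` in `(ℤ/c)ˣ`. -/
theorem dUnit_kappa_inv (hc : c ∣ M) (hcop : Nat.Coprime ℓ M) (u : (ZMod c)ˣ)
    (hu : (u : ZMod c) = (ℓ : ZMod c)) :
    (dUnit hc (kappaSL M ℓ) (kappaSL_mem_Gamma0 hcop))⁻¹ = u := by
  rw [inv_eq_iff_eq_inv, eq_inv_iff_mul_eq_one]
  apply Units.ext
  rw [Units.val_mul, coe_dUnit, Units.val_one, kappaSL_11 hcop, hu]
  have h := bez_eq hcop
  have h2 := congrArg (fun z : ℤ => (z : ZMod c)) h
  simp only [Int.cast_sub, Int.cast_mul, Int.cast_natCast, Int.cast_one] at h2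
  have hM0 : ((M : ℕ) : ZMod c) = 0 := (ZMod.natCast_eq_zero_iff M c).mpr hc
  rw [hM0, mul_zero, sub_zero] at h2
  rw [mul_comm]
  exact h2

/-- Any diamond datum is `H84.rhoHom`. -/
theorem rho_eq_rhoHom (ι : Kbar →+* ℂ) (hc2 : 2 ≤ c) (hc : c ∣ M) (dd : DiamondData M c H)
    (d : (ZMod c)ˣ) (x : ↥(FHbar M c H)) : dd.ρ d x = rhoHom H ι hc2 hc d x := by
  have key := algHom_ext_FHbar H ((dd.ρ d : ↥(FHbar M c H) ≃ₐ[Kbar] ↥(FHbar M c H)) :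
    ↥(FHbar M c H) →ₐ[Kbar] ↥(FHbar M c H)) (rhoHom H ι hc2 hc d) ?_ ?_
  · exact congrArg (fun f : ↥(FHbar M c H) →ₐ[Kbar] ↥(FHbar M c H) => f x) key
  · intro y
    rw [rhoHom_incl]
    exact dd.fix d y
  · intro a
    rw [rhoHom_gen]
    exact dd.gen d a

/-- `ι f = (R / B)ⁿ ⟹ ι (⟨ℓ⟩ f) = ((R ∣ κ) / B)ⁿ`. -/
theorem qLaurent_pow_slash_kappa (hc2 : 2 ≤ c) (hc : c ∣ M) (ι : Kbar →+* ℂ)
    (hcop : Nat.Coprime ℓ M) (dd : DiamondData M c H) (u : (ZMod c)ˣ)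
    (hu : (u : ZMod c) = (ℓ : ZMod c)) (f : ↥(FHbar M c H))
    {φ : Additive (Gam1 M c) →+ ZMod n} {R : ℍ → ℂ} (hR : IsTw1 M c n k φ R)
    {B : ModularForm (Gamma0 M) k} (hB : B ≠ 0) (hn : n ≠ 0)
    (hq : qLaurent (fun z => R z ^ n)
      = coeffMap ι (f : LaurentSeries Kbar) * qLaurent (fun z => B z ^ n)) :
    qLaurent (fun z => (R ∣[k] kappaSL M ℓ) z ^ n)
      = coeffMap ι ((dd.ρ u f : ↥(FHbar M c H)) : LaurentSeries Kbar)
        * qLaurent (fun z => B z ^ n) := by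
  have hκ : kappaSL M ℓ ∈ Gamma0 M := kappaSL_mem_Gamma0 hcop
  have hA : IsW M ((n : ℤ) * k) (fun z => R z ^ n) := hR.isW_pow hc
  have hBn : IsW M ((n : ℤ) * k) (fun z => B z ^ n) :=
    (isTw1_of_modularForm (c := c) (n := n) B).isW_pow hc
  have hBκ : (fun z => B z ^ n) ∣[(n : ℤ) * k] kappaSL M ℓ = fun z => B z ^ n := by
    rw [Fermat.Agent.GTor.H56.slash_pow_SL, slash_modularForm B hκ]
  have hAκ : (fun z => R z ^ n) ∣[(n : ℤ) * k] kappaSL M ℓ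
      = fun z => (R ∣[k] kappaSL M ℓ) z ^ n :=
    Fermat.Agent.GTor.H56.slash_pow_SL k n _ R
  have hBn0 : (fun z => B z ^ n) ≠ 0 := by
    intro h0
    have h1 := qLaurent_modularForm_pow_ne_zero (M := M) hB hn
    rw [h0] at h1
    exact h1 Fermat.Agent.GTor.H56.qLaurent_zero
  have nB : qLaurent (fun z => B z ^ n) ≠ 0 := qLaurent_modularForm_pow_ne_zero hB hn
  -- the relation given by `R ^ n`, `B ^ n`
  have hrel : _root_.Fermat.Agent.NEB.H84.Rel M (kappaSL M ℓ) (coeffMap ι (f : LaurentSeries Kbar))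
      (qLaurent (fun z => (R ∣[k] kappaSL M ℓ) z ^ n) * (qLaurent (fun z => B z ^ n))⁻¹) := by
    refine ⟨(n : ℤ) * k, fun z => R z ^ n, fun z => B z ^ n, hA, hBn, hBn0, hq, ?_⟩
    rw [hAκ, hBκ, mul_assoc, inv_mul_cancel₀ nB, mul_one]
  have hrel' := actHom_rel H ι hc2 hc ⟨kappaSL M ℓ, hκ⟩ f
  have hy := rel_unique hκ hrel hrel'
  have hact : actHom H ι hc2 hc ⟨kappaSL M ℓ, hκ⟩ f = dd.ρ u f := by
    rw [actHom_eq_rho, rho_eq_rhoHom ι hc2 hc dd u f]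
    congr 2
    exact dUnit_kappa_inv hc hcop u hu
  rw [← hact, ← hy, mul_assoc, inv_mul_cancel₀ nB, mul_one]

end Kappa

/-! ## 3. The `q`-expansion of `(heckeProdD R)ⁿ` -/

section Main

variable {M c n : ℕ} [NeZero M] {H : Subgroup (ZMod c)ˣ} {k : ℤ} {ℓ : ℕ}

theorem coeffMap_twNorm (ι : Kbar →+* ℂ) (ℓ : ℕ) [NeZero ℓ] (y s : LaurentSeries Kbar) :
    coeffMap ι (twNorm ℓ y s) = twNorm ℓ (coeffMap ι y) (coeffMap ι s) := by
  obtain ⟨ζ, hζ⟩ := Fermat.Agent.GTor.H2.exists_primitiveRoot_Qbar ℓ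
  unfold Fermat.Agent.NEB.H70.twNorm Fermat.Agent.NEB.H70.uSeries
  rw [map_mul, ModularCurve.coeffMap_qExpand, H44.coeffMap_descend, H44.coeffMap_twistProd ι hζ]

/-- The `q`-expansion of `(heckeProdD R)ⁿ` in terms of those of `Rⁿ` and `(R ∣ κ)ⁿ`. -/
theorem qLaurent_heckeProdD_pow (hc : c ∣ M) (hℓ : ℓ.Prime) (hℓM : ¬ ℓ ∣ M)
    {φ : Additive (Gam1 M c) →+ ZMod n} {R : ℍ → ℂ} (hR : IsTw1 M c n k φ R) :
    haveI : NeZero ℓ := ⟨hℓ.ne_zero⟩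
    HahnSeries.C (((ℓ : ℂ) ^ ((n : ℤ) - 1)) ^ (ℓ + 1))
        * qLaurent (fun z => heckeProdD k M ℓ R z ^ n)
      = HahnSeries.C (heckeConst ((n : ℤ) * k) ℓ) *
        twNorm ℓ (qLaurent (fun z => R z ^ n))
          (qLaurent (fun z => (R ∣[k] kappaSL M ℓ) z ^ n)) := by
  haveI : NeZero ℓ := ⟨hℓ.ne_zero⟩
  have hcop : Nat.Coprime ℓ M := coprime_of_prime_not_dvd hℓ hℓM
  have hκ : kappaSL M ℓ ∈ Gamma0 M := kappaSL_mem_Gamma0 hcop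
  have nR : Nice 1 (fun z => R z ^ n) := hR.nice_pow hc
  have hAκ : (fun z => R z ^ n) ∣[(n : ℤ) * k] kappaSL M ℓ
      = fun z => (R ∣[k] kappaSL M ℓ) z ^ n :=
    Fermat.Agent.GTor.H56.slash_pow_SL k n _ R
  have nRκ : Nice 1 (fun z => (R ∣[k] kappaSL M ℓ) z ^ n) := by
    rw [← hAκ]
    exact ((hR.isW_pow hc).slash_Gamma0 hκ).nice
  have nPR : Nice 1 (fun z => heckeProdD k M ℓ R z ^ n) :=
    (isTw1_heckeProdD hc hℓ hℓM hR).nice_pow hc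
  have e1 : heckeProd2 ((n : ℤ) * k) ℓ (fun z => (R ∣[k] kappaSL M ℓ) z ^ n) (fun z => R z ^ n)
      = (((ℓ : ℂ) ^ ((n : ℤ) - 1)) ^ (ℓ + 1)) • fun z => heckeProdD k M ℓ R z ^ n := by
    rw [← heckeProdD_pow, heckeProdD_eq, hAκ]
  have hP : Nice 1 (heckeProd2 ((n : ℤ) * k) ℓ (fun z => (R ∣[k] kappaSL M ℓ) z ^ n)
      (fun z => R z ^ n)) := by
    rw [e1]
    exact nPR.smul _
  rw [← H44.qLaurent_smul _ nPR, ← e1]
  exact qLaurent_heckeProd2 _ ℓ nRκ nR hP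

/-- **HK1 (b)**: the ratio of the `q`-expansions of `(heckeProdD R)ⁿ` and `(heckeProdD B)ⁿ` is
`ι (THfn f)`. -/
theorem qLaurent_heckeProdD (hc2 : 2 ≤ c) (hc : c ∣ M) (ι : Kbar →+* ℂ) (hℓ : ℓ.Prime)
    (hℓM : ¬ ℓ ∣ M) (hn : n ≠ 0)
    (hβ : haveI : NeZero ℓ := ⟨hℓ.ne_zero⟩; BetaOK M c ℓ H) (f : ↥(FHbar M c H))
    {φ : Additive (Gam1 M c) →+ ZMod n} {R : ℍ → ℂ} (hR : IsTw1 M c n k φ R)
    {B : ModularForm (Gamma0 M) k} (hB : B ≠ 0)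
    (hq : qLaurent (fun z => R z ^ n)
      = coeffMap ι (f : LaurentSeries Kbar) * qLaurent (fun z => B z ^ n)) :
    haveI : NeZero ℓ := ⟨hℓ.ne_zero⟩
    qLaurent (fun z => heckeProdD k M ℓ R z ^ n)
      = coeffMap ι ((THfn hβ f : ↥(FHbar M c H)) : LaurentSeries Kbar)
        * qLaurent (fun z => heckeProdD k M ℓ (B : ℍ → ℂ) z ^ n) := by
  haveI : NeZero ℓ := ⟨hℓ.ne_zero⟩
  have hcop : Nat.Coprime ℓ M := coprime_of_prime_not_dvd hℓ hℓM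
  have hκ : kappaSL M ℓ ∈ Gamma0 M := kappaSL_mem_Gamma0 hcop
  have hcopc : Nat.Coprime ℓ c := Nat.Coprime.coprime_dvd_right hc hcop
  set u : (ZMod c)ˣ := ZMod.unitOfCoprime ℓ hcopc with hudef
  have hu : (u : ZMod c) = (ℓ : ZMod c) := ZMod.coe_unitOfCoprime ℓ hcopc
  set hd : HeckeData M c ℓ H := heckeData M c ℓ H hc2 hc with hddef
  have hTH : ((THfn hβ f : ↥(FHbar M c H)) : LaurentSeries Kbar)
      = twNorm ℓ (f : LaurentSeries Kbar)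
        ((hd.dd.ρ u f : ↥(FHbar M c H)) : LaurentSeries Kbar) :=
    Fermat.Agent.NEB.H70.coe_THfn hd hc2 hc hℓ hℓM u hu f
  have hκq := qLaurent_pow_slash_kappa hc2 hc ι hcop hd.dd u hu f hR hB hn hq
  have hBt : IsTw1 M c n k 0 (B : ℍ → ℂ) := isTw1_of_modularForm B
  have eR := qLaurent_heckeProdD_pow hc hℓ hℓM hR
  have eB := qLaurent_heckeProdD_pow hc hℓ hℓM hBt
  rw [slash_modularForm B hκ] at eB
  have hc2' : (((ℓ : ℂ) ^ ((n : ℤ) - 1)) ^ (ℓ + 1)) ≠ 0 :=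
    Fermat.Agent.GTor.H76.heckeProd_pow_const_ne_zero hℓ.ne_zero n
  have hC : (HahnSeries.C (((ℓ : ℂ) ^ ((n : ℤ) - 1)) ^ (ℓ + 1)) : LaurentSeries ℂ) ≠ 0 := by
    intro h0
    apply hc2'
    have := congrArg (fun s : LaurentSeries ℂ => s.coeff 0) h0
    simpa using this
  apply mul_left_cancel₀ hC
  rw [eR, hq, hκq, Fermat.Agent.NEB.H70.twNorm_mul (isPrimitiveRoot_zetaUnit ℓ), hTH,
    _root_.Fermat.Agent.NEB.EIG.H94.coeffMap_twNorm, mul_left_comm, ← eB]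
  ring

/-- **HK1**. -/
theorem stmt_HK1 (M c : ℕ) (H : Subgroup (ZMod c)ˣ) (n : ℕ) : Stmt_HK1 M c H n := by
  intro hc2 hc hM hn ι ℓ hℓ hℓM hβ f φ hf hch
  haveI : NeZero M := ⟨hM⟩
  haveI : NeZero ℓ := ⟨hℓ.ne_zero⟩
  obtain ⟨k, R, B, hR, hB, hq⟩ := hasChar1_iff.mp hch
  exact hasChar1_heckeProdD hc hℓ hℓM hR hB (THfn hβ f)
    (qLaurent_heckeProdD hc2 hc ι hℓ hℓM hn hβ f hR hB hq)

end Main

end Fermat.Agent.NEB.EIG.H94

end
end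
-- ==== END Fermat.Agent.NEB.EIG.H94_HK1

-- ==== BEGIN Fermat.Agent.NEB.EIG.H98_Mono1
section

/-!
# NEB / EIG, leaf EIG-MONO, part MONO1 (helper98)

`stmt_MONO1 : Stmt_MONO1 M c H n`: an unramified function `f ∈ F_H` has a character on
`Gam1 M c`, trivial on parabolic elements and on elements of finite order.

Proof (pattern of `GTor/H96_MONO.lean`, without A3/A4): `f = A / B` (A1-H), `R` a holomorphic
`n`-th root of `A B^(n-1)`, `χ` its character on `Γ_H`.  For a point `z` (a cusp `σ∞`) the order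
at `z` is an order function, so `ord(A) - ord(B) = n t (ord(A') - ord(B'))` with `A'`, `B'`
invariant under `Γ_H` (`ord_rep_eq`); the generic local lemmas
`multiplier_at_fixed_point`, `cusp_multiplier_eq_one` then give `χ = 1` on the stabilisers.
-/

set_option autoImplicit false
set_option linter.unusedSectionVars false

noncomputable section

namespace Fermat.Agent.NEB.EIG.H98

open AlgebraicCurve ModularCurve UpperHalfPlane CongruenceSubgroup Matrix.SpecialLinearGroup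
  ModularForm
open Fermat.Agent.NEB Fermat.Agent.NEB.JH Fermat.Agent.NEB.H84 Fermat.Agent.GTor
  Fermat.Agent.GTor.H96 Fermat.Agent.NEB.EIG.H39
open Fermat.Agent.S24
open Fermat.Agent.S23.H22 (Nice)
open Fermat.Agent.GTor.H56 (qLaurent_mul qLaurent_injective qLaurent_eq_zero_iff qLaurent_zero
  qLaurent_pow nice_of_gamma0)
open scoped MatrixGroups ModularForm Manifold

/-! ## Powers of forms -/

theorem isW_pow {M : ℕ} {k : ℤ} {B : ℍ → ℂ} (hB : IsW M k B) (m : ℕ) :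
    IsW M (m * k) (B ^ m) := by
  induction m with
  | zero =>
    simpa using isW_one M
  | succ m ih =>
    have := ih.mul hB
    have e : ((m + 1 : ℕ) : ℤ) * k = m * k + k := by push_cast; ring
    rw [e, pow_succ]
    exact this

theorem fun_pow_ne_zero {B : ℍ → ℂ} (hB : MDifferentiable 𝓘(ℂ) 𝓘(ℂ) B) (hB0 : B ≠ 0) (m : ℕ) :
    B ^ m ≠ 0 := by
  have h := pow_ne_zero m (hol_ne_zero hB hB0)
  intro h0
  apply h
  apply Subtype.ext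
  exact h0

theorem fun_mul_ne_zero {A B : ℍ → ℂ} (hA : MDifferentiable 𝓘(ℂ) 𝓘(ℂ) A)
    (hB : MDifferentiable 𝓘(ℂ) 𝓘(ℂ) B) (hA0 : A ≠ 0) (hB0 : B ≠ 0) : A * B ≠ 0 := by
  have h := mul_ne_zero (hol_ne_zero hA hA0) (hol_ne_zero hB hB0)
  intro h0
  apply h
  apply Subtype.ext
  exact h0

theorem exists_ne_zero_of_fun_ne_zero {A : ℍ → ℂ} (hA0 : A ≠ 0) : ∃ τ : ℍ, A τ ≠ 0 := by
  by_contra h
  apply hA0
  funext z
  by_contra hz
  exact h ⟨z, hz⟩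

/-! ## Orders of the root -/

theorem ordPt_mul {A B : ℍ → ℂ} (hA : MDifferentiable 𝓘(ℂ) 𝓘(ℂ) A)
    (hB : MDifferentiable 𝓘(ℂ) 𝓘(ℂ) B) (hA0 : A ≠ 0) (hB0 : B ≠ 0) (z : ℍ) (k₁ k₂ k₃ : ℤ) :
    ordPt z k₁ (A * B) = ordPt z k₂ A + ordPt z k₃ B := by
  rw [ordPt_eq_ordNat z _ (hA.mul hB), ordPt_eq_ordNat z _ hA, ordPt_eq_ordNat z _ hB]
  have := Hol.ordNat_mul z (hol_ne_zero hA hA0) (hol_ne_zero hB hB0)
  exact_mod_cast this

theorem ordPt_pow {B : ℍ → ℂ} (hB : MDifferentiable 𝓘(ℂ) 𝓘(ℂ) B) (hB0 : B ≠ 0) (z : ℍ)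
    (m : ℕ) (k₁ k₂ : ℤ) : ordPt z k₁ (B ^ m) = m * ordPt z k₂ B := by
  rw [ordPt_eq_ordNat z _ (hB.pow m), ordPt_eq_ordNat z _ hB]
  have := Hol.ordNat_pow z (hol_ne_zero hB hB0) m
  exact_mod_cast this

/-- The orders of a root of `A * B ^ (n - 1)`. -/
theorem ordPt_root {n : ℕ} (hn : n ≠ 0) {A B R : ℍ → ℂ} (hA : MDifferentiable 𝓘(ℂ) 𝓘(ℂ) A)
    (hB : MDifferentiable 𝓘(ℂ) 𝓘(ℂ) B) (hR : MDifferentiable 𝓘(ℂ) 𝓘(ℂ) R)
    (hA0 : A ≠ 0) (hB0 : B ≠ 0) (hRn : R ^ n = A * B ^ (n - 1)) (z : ℍ) (k : ℤ) :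
    (n : ℤ) * ordPt z k R = ordPt z k A + ((n : ℤ) - 1) * ordPt z k B := by
  have hR0 : R ≠ 0 := by
    rintro rfl
    rw [zero_pow hn] at hRn
    exact fun_mul_ne_zero hA (hB.pow _) hA0 (fun_pow_ne_zero hB hB0 _) hRn.symm
  have h1 := ordPt_pow hR hR0 z n k k
  rw [hRn, ordPt_mul hA (hB.pow _) hA0 (fun_pow_ne_zero hB hB0 _) z k k k,
    ordPt_pow hB hB0 z (n - 1) k k] at h1
  have hn1 : (((n - 1 : ℕ) : ℕ) : ℤ) = (n : ℤ) - 1 := by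
    have : 1 ≤ n := Nat.one_le_iff_ne_zero.mpr hn
    push_cast [Nat.cast_sub this]
    ring
  rw [hn1] at h1
  linarith

/-! ## The local arguments -/

section Local

variable {M c : ℕ} {H : Subgroup (ZMod c)ˣ} {n : ℕ} {k : ℤ} {A R : ℍ → ℂ}
  {B : ModularForm (Gamma0 M) k}

/-- **MONO1, elliptic points.** -/
theorem chi_eq_one_of_fixed_H [NeZero M] (hn : n ≠ 0) (hA : IsW M k A) (hA0 : A ≠ 0)
    (hB0 : B ≠ 0) (hR : MDifferentiable 𝓘(ℂ) 𝓘(ℂ) R)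
    (hRn : R ^ n = A * (B : ℍ → ℂ) ^ (n - 1))
    {χ : GamH M c H →* ℂˣ}
    (hχ : ∀ γ : GamH M c H, R ∣[k] (γ : SL(2, ℤ)) = fun z => ((χ γ : ℂˣ) : ℂ) * R z)
    {γ : GamH M c H} {z₀ : ℍ} (hfix : ((γ : SL(2, ℤ))) • z₀ = z₀)
    {t : ℤ} {k' : ℤ} {A' : ℍ → ℂ} {B' : ModularForm (Gamma0 M) k'}
    (hA' : IsW M k' A') (hA0' : A' ≠ 0) (hB0' : B' ≠ 0)
    (hinv : ∀ γ ∈ GamH M c H, A' ∣[k'] γ = A')
    (ht : ordPt z₀ k A - ordPt z₀ k (B : ℍ → ℂ)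
      = n * t * (ordPt z₀ k' A' - ordPt z₀ k' (B' : ℍ → ℂ))) : χ γ = 1 := by
  set j : ℂ := denom ((γ : SL(2, ℤ))) z₀ with hj
  have hj0 : j ≠ 0 := UpperHalfPlane.denom_ne_zero _ z₀
  have hBf0 : (B : ℍ → ℂ) ≠ 0 := fun h => hB0 (DFunLike.coe_injective h)
  have hBf0' : (B' : ℍ → ℂ) ≠ 0 := fun h => hB0' (DFunLike.coe_injective h)
  have hR0 : R ≠ 0 := by
    rintro rfl
    rw [zero_pow hn] at hRn
    exact fun_mul_ne_zero hA.mdiff ((mdiff_coe B).pow _) hA0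
      (fun_pow_ne_zero (mdiff_coe B) hBf0 _) hRn.symm
  have hγ0 : (γ : SL(2, ℤ)) ∈ Gamma0 M := GamH_le_Gamma0 γ.2
  have h1 : ((χ γ : ℂˣ) : ℂ) = j ^ (-k - 2 * ordPt z₀ k R) :=
    multiplier_at_fixed_point hR (exists_ne_zero_of_fun_ne_zero hR0) hfix (hχ γ)
  have h2 : (1 : ℂ) = j ^ (-k - 2 * ordPt z₀ k (B : ℍ → ℂ)) :=
    multiplier_at_fixed_point (mdiff_coe B) (exists_ne_zero_of_fun_ne_zero hBf0) hfix
      (by rw [slash_eq_of_mem_Gamma0 B ⟨γ, hγ0⟩]; funext z; rw [one_mul])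
  have h3 : (1 : ℂ) = j ^ (-k' - 2 * ordPt z₀ k' A') :=
    multiplier_at_fixed_point hA'.mdiff (exists_ne_zero_of_fun_ne_zero hA0') hfix
      (by rw [hinv γ γ.2]; funext z; rw [one_mul])
  have h4 : (1 : ℂ) = j ^ (-k' - 2 * ordPt z₀ k' (B' : ℍ → ℂ)) :=
    multiplier_at_fixed_point (mdiff_coe B') (exists_ne_zero_of_fun_ne_zero hBf0') hfix
      (by rw [slash_eq_of_mem_Gamma0 B' ⟨γ, hγ0⟩]; funext z; rw [one_mul])
  have h5 := ordPt_root hn hA.mdiff (mdiff_coe B) hR hA0 hBf0 hRn z₀ k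
  have hnZ : (n : ℤ) ≠ 0 := by exact_mod_cast hn
  have h6 : ordPt z₀ k R - ordPt z₀ k (B : ℍ → ℂ)
      = t * (ordPt z₀ k' A' - ordPt z₀ k' (B' : ℍ → ℂ)) := by
    have : (n : ℤ) * (ordPt z₀ k R - ordPt z₀ k (B : ℍ → ℂ))
        = (n : ℤ) * (t * (ordPt z₀ k' A' - ordPt z₀ k' (B' : ℍ → ℂ))) := by
      linear_combination h5 + ht
    exact mul_left_cancel₀ hnZ this
  -- `j ^ (-2 (ord A' - ord B')) = 1`
  have h7 : j ^ (-2 * (ordPt z₀ k' A' - ordPt z₀ k' (B' : ℍ → ℂ))) = 1 := by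
    have e : (-2 * (ordPt z₀ k' A' - ordPt z₀ k' (B' : ℍ → ℂ)))
        = (-k' - 2 * ordPt z₀ k' A') - (-k' - 2 * ordPt z₀ k' (B' : ℍ → ℂ)) := by ring
    rw [e, zpow_sub₀ hj0, ← h3, ← h4, div_one]
  have h8 : (-k - 2 * ordPt z₀ k R) = (-k - 2 * ordPt z₀ k (B : ℍ → ℂ))
      + (-2 * (ordPt z₀ k' A' - ordPt z₀ k' (B' : ℍ → ℂ))) * t := by
    linear_combination -2 * h6
  apply Units.ext
  rw [h1, h8, zpow_add₀ hj0, ← h2, one_mul, zpow_mul, h7, one_zpow, Units.val_one]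

/-- **MONO1, cusps.** -/
theorem chi_eq_one_of_conj_T_H [NeZero M] (hn : n ≠ 0) (hA : IsW M k A) (hA0 : A ≠ 0)
    (hB0 : B ≠ 0) (hR : MDifferentiable 𝓘(ℂ) 𝓘(ℂ) R)
    (hRn : R ^ n = A * (B : ℍ → ℂ) ^ (n - 1))
    {χ : GamH M c H →* ℂˣ}
    (hχ : ∀ γ : GamH M c H, R ∣[k] (γ : SL(2, ℤ)) = fun z => ((χ γ : ℂˣ) : ℂ) * R z)
    {γ : GamH M c H} {σ : SL(2, ℤ)} {j : ℤ}
    (hγ : (γ : SL(2, ℤ)) = σ * ModularGroup.T ^ j * σ⁻¹)
    {t : ℤ} {k' : ℤ} {A' : ℍ → ℂ} {B' : ModularForm (Gamma0 M) k'}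
    (hA' : IsW M k' A') (hA0' : A' ≠ 0) (hB0' : B' ≠ 0)
    (hinv : ∀ γ ∈ GamH M c H, A' ∣[k'] γ = A')
    (ht : ordCu M σ k A - ordCu M σ k (B : ℍ → ℂ)
      = n * t * (ordCu M σ k' A' - ordCu M σ k' (B' : ℍ → ℂ))) : χ γ = 1 := by
  have hM : (0 : ℝ) < (M : ℝ) := by exact_mod_cast Nat.pos_of_ne_zero (NeZero.ne M)
  have hBf0 : (B : ℍ → ℂ) ≠ 0 := fun h => hB0 (DFunLike.coe_injective h)
  have hBf0' : (B' : ℍ → ℂ) ≠ 0 := fun h => hB0' (DFunLike.coe_injective h)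
  have hγ0 : (γ : SL(2, ℤ)) ∈ Gamma0 M := GamH_le_Gamma0 γ.2
  have hGn : ∀ z : ℍ, (R ∣[k] σ) z ^ n = (A ∣[k] σ) z * ((B : ℍ → ℂ) ∣[k] σ) z ^ (n - 1) := by
    intro z
    have h1 := congrFun (pow_slash_SL'' R k n σ) z
    have h2 := congrFun (mul_pow_slash_SL A (B : ℍ → ℂ) k hn σ) z
    rw [hRn] at h1
    rw [h1] at h2
    simpa using h2
  have hGw : ∀ z : ℍ, (R ∣[k] σ) ((j : ℝ) +ᵥ z) = ((χ γ : ℂˣ) : ℂ) * (R ∣[k] σ) z :=
    fun z => slash_vadd_of_conj (R := R) (k := k) (σ := σ) (δ := (γ : SL(2, ℤ))) (j := j)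
      (c := ((χ γ : ℂˣ) : ℂ)) hγ (hχ γ) z
  have hBw : ∀ z : ℍ, ((B : ℍ → ℂ) ∣[k] σ) ((j : ℝ) +ᵥ z) = ((B : ℍ → ℂ) ∣[k] σ) z := by
    intro z
    have := slash_vadd_of_conj (R := (B : ℍ → ℂ)) (k := k) (σ := σ) (δ := (γ : SL(2, ℤ)))
      (j := j) (c := 1) hγ
      (by rw [slash_eq_of_mem_Gamma0 B ⟨γ, hγ0⟩]; funext z; rw [one_mul]) z
    rwa [one_mul] at this
  have hAw' : ∀ z : ℍ, (A' ∣[k'] σ) ((j : ℝ) +ᵥ z) = (A' ∣[k'] σ) z := by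
    intro z
    have := slash_vadd_of_conj (R := A') (k := k') (σ := σ) (δ := (γ : SL(2, ℤ)))
      (j := j) (c := 1) hγ (by rw [hinv γ γ.2]; funext z; rw [one_mul]) z
    rwa [one_mul] at this
  have hBw' : ∀ z : ℍ, ((B' : ℍ → ℂ) ∣[k'] σ) ((j : ℝ) +ᵥ z) = ((B' : ℍ → ℂ) ∣[k'] σ) z := by
    intro z
    have := slash_vadd_of_conj (R := (B' : ℍ → ℂ)) (k := k') (σ := σ) (δ := (γ : SL(2, ℤ)))
      (j := j) (c := 1) hγ
      (by rw [slash_eq_of_mem_Gamma0 B' ⟨γ, hγ0⟩]; funext z; rw [one_mul]) z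
    rwa [one_mul] at this
  have cA := isCuspRegular_slash_of_isW hA σ
  have cB := isCuspRegular_slash_of_isW (isW_of_modularForm B) σ
  have cA' := isCuspRegular_slash_of_isW hA' σ
  have cB' := isCuspRegular_slash_of_isW (isW_of_modularForm B') σ
  obtain ⟨m₁, hm₁⟩ := cA'.exists_int_of_periodic hM (H96.slash_ne_zero hA0' k' σ) hAw'
  obtain ⟨m₂, hm₂⟩ := cB'.exists_int_of_periodic hM (H96.slash_ne_zero hBf0' k' σ) hBw'
  set L : ℤ := t * (ordCu M σ k' A' - ordCu M σ k' (B' : ℍ → ℂ)) with hLdef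
  have hL : (((qExpansion (M : ℝ) (A ∣[k] σ)).order.toNat : ℕ) : ℤ)
      = (((qExpansion (M : ℝ) ((B : ℍ → ℂ) ∣[k] σ)).order.toNat : ℕ) : ℤ) + (n : ℤ) * L := by
    have : ordCu M σ k A = ordCu M σ k (B : ℍ → ℂ) + (n : ℤ) * L := by
      rw [hLdef]
      linear_combination ht
    exact this
  have hwL : ∃ m : ℤ, ((j : ℤ) : ℝ) * ((L : ℤ) : ℝ) = (M : ℝ) * (m : ℝ) := by
    refine ⟨t * (m₁ - m₂), ?_⟩
    have e1 : ((j : ℤ) : ℝ) * ((ordCu M σ k' A' : ℤ) : ℝ) = (M : ℝ) * (m₁ : ℝ) := by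
      unfold ordCu
      exact_mod_cast hm₁
    have e2 : ((j : ℤ) : ℝ) * ((ordCu M σ k' (B' : ℍ → ℂ) : ℤ) : ℝ) = (M : ℝ) * (m₂ : ℝ) := by
      unfold ordCu
      exact_mod_cast hm₂
    rw [hLdef]
    push_cast
    linear_combination (t : ℝ) * e1 - (t : ℝ) * e2
  have key := cusp_multiplier_eq_one hM (w := ((j : ℤ) : ℝ)) hn cA cB
    (H96.slash_ne_zero hA0 k σ) (H96.slash_ne_zero hBf0 k σ) (hR.slash k (σ : GL (Fin 2) ℝ))
    hGn hL hwL hGw hBw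
  exact Units.ext (by simpa using key)

end Local

/-! ## The theorem -/

/-- **MONO1.** An unramified function of `F_H` has a character on `Gam1 M c`, trivial on
parabolic elements and on elements of finite order. -/
theorem stmt_MONO1 (M c : ℕ) (H : Subgroup (ZMod c)ˣ) (n : ℕ) : Stmt_MONO1 M c H n := by
  intro hc2 hc hM hn ι f hf hunr
  have : NeZero M := ⟨hM⟩
  obtain ⟨k, A, B, hA, hB0, hinvA, hq⟩ := stmt_A1H M c H hc2 hc hM ι f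
  have hBf0 : (B : ℍ → ℂ) ≠ 0 := fun h => hB0 (DFunLike.coe_injective h)
  have rep : IsRep M (coeffMap ι (f : LaurentSeries _root_.Fermat.Agent.NEB.Kbar)) k A (B : ℍ → ℂ) :=
    ⟨hA, isW_of_modularForm B, hBf0, hq⟩
  have hA0 : A ≠ 0 := rep.num_ne_zero (coeffMap_FHbar_ne_zero ι hf)
  have hk : Even k := even_weight_of_ne_zero hB0
  have hn1 : (((n - 1 : ℕ) : ℕ) : ℤ) = (n : ℤ) - 1 := by
    have : 1 ≤ n := Nat.one_le_iff_ne_zero.mpr hn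
    push_cast [Nat.cast_sub this]
    ring
  have hBmd : MDifferentiable 𝓘(ℂ) 𝓘(ℂ) (B : ℍ → ℂ) := mdiff_coe B
  -- the function `A * B ^ (n - 1)` and its root
  have hmd : MDifferentiable 𝓘(ℂ) 𝓘(ℂ) (A * (B : ℍ → ℂ) ^ (n - 1)) :=
    hA.mdiff.mul (hBmd.pow _)
  have hP0 : A * (B : ℍ → ℂ) ^ (n - 1) ≠ 0 :=
    fun_mul_ne_zero hA.mdiff (hBmd.pow _) hA0 (fun_pow_ne_zero hBmd hBf0 _)
  have hne : ∃ τ : ℍ, (A * (B : ℍ → ℂ) ^ (n - 1)) τ ≠ 0 := exists_ne_zero_of_fun_ne_zero hP0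
  have hdiv : ∀ τ : ℍ, n ∣ analyticOrderNatAt
      ((A * (B : ℍ → ℂ) ^ (n - 1)) ∘ UpperHalfPlane.ofComplex) (τ : ℂ) := by
    intro τ
    obtain ⟨t, k', A', B', -, -, -, -, e⟩ :=
      ord_rep_eq ι hc2 hc (isOrdW_ordPt M τ) n hf hunr rep
    have h1 : ordPt τ k (A * (B : ℍ → ℂ) ^ (n - 1))
        = ordPt τ k A + ((n : ℤ) - 1) * ordPt τ k (B : ℍ → ℂ) := by
      rw [ordPt_mul hA.mdiff (hBmd.pow _) hA0 (fun_pow_ne_zero hBmd hBf0 _) τ k k k,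
        ordPt_pow hBmd hBf0 τ (n - 1) k k, hn1]
    rw [← Int.natCast_dvd_natCast]
    refine ⟨t * (ordPt τ k' A' - ordPt τ k' (B' : ℍ → ℂ)) + ordPt τ k (B : ℍ → ℂ), ?_⟩
    have h2 : ((analyticOrderNatAt ((A * (B : ℍ → ℂ) ^ (n - 1)) ∘ UpperHalfPlane.ofComplex)
        (τ : ℂ) : ℕ) : ℤ) = ordPt τ k (A * (B : ℍ → ℂ) ^ (n - 1)) := rfl
    rw [h2, h1]
    linear_combination e
  obtain ⟨R, hR, hRn'⟩ :=
    Fermat.Agent.Lib.NthRoot.exists_nthRoot_of_mdifferentiable hn hmd hne hdiv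
  have hRfun : (R ^ n : ℍ → ℂ) = A * (B : ℍ → ℂ) ^ (n - 1) := by
    funext z
    simpa using hRn' z
  have hR0f : R ≠ 0 := by
    rintro rfl
    rw [zero_pow hn] at hRfun
    exact hP0 hRfun.symm
  have hR0 : ∃ τ : ℍ, R τ ≠ 0 := exists_ne_zero_of_fun_ne_zero hR0f
  -- the character on `Γ_H`
  have hinv : ∀ γ ∈ GamH M c H, (R ^ n) ∣[k * n] γ = R ^ n := by
    intro γ hγ
    rw [hRfun, mul_pow_slash_SL _ _ k hn γ,
      hinvA γ (GamH_le_Gamma0 hγ) (mem_cosetSet_of_mem_GamH hγ),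
      slash_eq_of_mem_Gamma0 B ⟨γ, GamH_le_Gamma0 hγ⟩]
  obtain ⟨χ, hχn, hχ⟩ := Fermat.Agent.Lib.NthRoot.exists_character_of_root
    (GamH M c H) hn hR hR0 hinv
  -- `χ (-1) = 1`
  have hneg : χ ⟨-1, neg_one_mem_GamH⟩ = 1 := by
    obtain ⟨τ, hτ⟩ := hR0
    have h1 := congrFun (hχ ⟨-1, neg_one_mem_GamH⟩) τ
    rw [slash_neg_one_of_even hk] at h1
    have h2 : ((χ ⟨-1, neg_one_mem_GamH⟩ : ℂˣ) : ℂ) = 1 := by
      have h3 : (((χ ⟨-1, neg_one_mem_GamH⟩ : ℂˣ) : ℂ) - 1) * R τ = 0 := by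
        linear_combination -h1
      rcases mul_eq_zero.mp h3 with h4 | h4
      · exact sub_eq_zero.mp h4
      · exact absurd h4 hτ
    exact Units.ext h2
  -- parabolic elements of `Γ_H`
  have hpar : ∀ γ : GamH M c H,
      ((γ : SL(2, ℤ)) : Matrix (Fin 2) (Fin 2) ℤ).trace ^ 2 = 4 → χ γ = 1 := by
    intro γ hγ
    obtain ⟨σ, j, hcase⟩ := trace_sq_eq_four_cases (γ : SL(2, ℤ)) hγ
    obtain ⟨t, k', A', B', hA', hA0', hB0', hinv', e⟩ :=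
      ord_rep_eq ι hc2 hc (isOrdW_ordCu M σ) n hf hunr rep
    rcases hcase with h | h
    · exact chi_eq_one_of_conj_T_H hn hA hA0 hB0 hR hRfun hχ h hA' hA0' hB0' hinv' e
    · -- `γ = -(σ T^j σ⁻¹)`
      have hmem : σ * ModularGroup.T ^ j * σ⁻¹ ∈ GamH M c H := by
        have : σ * ModularGroup.T ^ j * σ⁻¹ = (-1 : SL(2, ℤ)) * (γ : SL(2, ℤ)) := by
          rw [h]; simp
        rw [this]
        exact (GamH M c H).mul_mem neg_one_mem_GamH γ.2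
      have h2 : χ ⟨σ * ModularGroup.T ^ j * σ⁻¹, hmem⟩ = 1 :=
        chi_eq_one_of_conj_T_H hn hA hA0 hB0 hR hRfun hχ (γ := ⟨_, hmem⟩) rfl hA' hA0' hB0'
          hinv' e
      have h3 : γ = ⟨-1, neg_one_mem_GamH⟩ * ⟨σ * ModularGroup.T ^ j * σ⁻¹, hmem⟩ := by
        apply Subtype.ext
        rw [Subgroup.coe_mul, h]
        simp
      rw [h3, map_mul, hneg, h2, one_mul]
  -- elements of finite order of `Γ_H`
  have hfin : ∀ γ : GamH M c H, IsOfFinOrder (γ : SL(2, ℤ)) → χ γ = 1 := by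
    intro γ hγ
    rcases finOrder_cases (γ : SL(2, ℤ)) hγ with h | h | ⟨z₀, hz₀⟩
    · have : γ = 1 := Subtype.ext h
      rw [this, map_one]
    · have : γ = ⟨-1, neg_one_mem_GamH⟩ := Subtype.ext h
      rw [this, hneg]
    · obtain ⟨t, k', A', B', hA', hA0', hB0', hinv', e⟩ :=
        ord_rep_eq ι hc2 hc (isOrdW_ordPt M z₀) n hf hunr rep
      exact chi_eq_one_of_fixed_H hn hA hA0 hB0 hR hRfun hχ hz₀ hA' hA0' hB0' hinv' e
  -- restriction to `Gam1 M c`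
  let inc1 : Gam1 M c →* GamH M c H := Subgroup.inclusion Gam1_le_GamH
  set χ₁ : Gam1 M c →* ℂˣ := χ.comp inc1 with hχ₁
  obtain ⟨φ, hφ⟩ := exists_additive_of_character hn χ₁ (fun γ => hχn _)
  have hφ0 : ∀ γ : Gam1 M c, χ₁ γ = 1 → φ (Additive.ofMul γ) = 0 := by
    intro γ h1
    rw [← zetaPow_eq_one_iff hn, hφ, h1, Units.val_one]
  refine ⟨φ, ⟨?_, ?_⟩, k, R, B, hR, ?_, ?_, hB0, ?_⟩
  · intro γ hγ
    apply hφ0
    exact hpar (inc1 γ) hγ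
  · intro γ hγ
    apply hφ0
    have hfin' : IsOfFinOrder (γ : SL(2, ℤ)) := by
      obtain ⟨m, hm, hpow⟩ := isOfFinOrder_iff_pow_eq_one.mp hγ
      exact isOfFinOrder_iff_pow_eq_one.mpr ⟨m, hm, by
        have := congrArg (fun g : Gam1 M c => (g : SL(2, ℤ))) hpow
        simpa using this⟩
    exact hfin (inc1 γ) hfin'
  · -- boundedness at the cusps
    intro σ
    apply Fermat.Agent.Lib.NthRoot.isBoundedAtImInfty_of_pow hn
    rw [← pow_slash_SL'' R k n σ, hRfun, mul_pow_slash_SL _ _ k hn σ]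
    exact (hA.bdd σ).mul ((isCuspRegular_slash B σ).pow (n - 1)).bdd
  · -- the transformation law
    intro γ
    have h1 := hχ (inc1 γ)
    rw [show ((inc1 γ : GamH M c H) : SL(2, ℤ)) = (γ : SL(2, ℤ)) from rfl] at h1
    rw [h1, hφ γ]
    rfl
  · -- the `q`-expansion identity
    have hNA := hA.nice
    have hNB := nice_of_gamma0 B
    have e1 : (fun z => R z ^ n) = A * (fun z => B z ^ (n - 1)) := by
      funext z
      simpa using hRn' z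
    have hNBp : Nice 1 (fun z => B z ^ (n - 1)) := hNB.pow (n - 1)
    rw [e1, qLaurent_mul hNA hNBp, qLaurent_pow hNB, qLaurent_pow hNB, hq, mul_assoc,
      ← pow_succ', Nat.sub_add_cancel (Nat.one_le_iff_ne_zero.mpr hn)]

end Fermat.Agent.NEB.EIG.H98

end
end
-- ==== END Fermat.Agent.NEB.EIG.H98_Mono1
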