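-- GENERATED (merged mirror, NOTES/tools/trim/merge3_helper67.py): 4 modules of the originals, bodies verbatim.
import Fermat.Agent.Zm.S48_L13_000
import Fermat.Agent.Zm.S48_L01_002
import Fermat.Agent.Zm.S48_L08_001
import Fermat.Agent.Zm.S48_L07_001
import Fermat.Agent.Zm.S48_L08_000
import Fermat.Agent.Zm.S48_L09_000
import Fermat.Agent.Zm.S35_L02_001

-- ==== BEGIN Fermat.Agent.NEB.Geom.Defs
section

/-!
# Item 72 (LG-NEB), package NEB-GEOM (helper84): class-level interface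

Plan: `NOTES/plan/NEB_GEOM.md`.  This file: the kernel of reduction on `J_H = Pic⁰(F_H)` and the
CLASS-LEVEL statements (leaves `CL-*`) which translate the series-level theorems
(`NEB/H70_RedQ.lean`, `NEB/H84_Res.lean`, `RED.stmt_TIcore`) to divisor classes.

* `IsPTors p x`        : `x` is `p`-power torsion.
* `InK1 P p F x`       : `x = [D]`, `p^k D = div f` with `f ∈ ℚ̄ˣ · (1 + 𝔪_Gauss)` at the place `P` of `ℚ̄`
  (the kernel of the reduction map of the Gauss valuation of `F`, `p`-primary part).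
* `InKA P p dd x`      : all diamond conjugates of `x` lie in `K1` (`K_A` of `S59_TWH.md`).

Definitions and `Prop`-valued statements only; no `sorry`.
-/

set_option autoImplicit false

noncomputable section

open ModularCurve AlgebraicCurve

namespace Fermat.Agent.NEB.Geom

open Fermat.Agent.NEB Fermat.Agent.NEB.JH

/-- `Gal(ℚ̄/ℚ)`. -/
abbrev GalQ : Type := Kbar ≃ₐ[ℚ] Kbar

/-- `x` is `p`-power torsion. -/
def IsPTors (p : ℕ) {A : Type*} [AddCommGroup A] (x : A) : Prop := ∃ k : ℕ, (p ^ k : ℕ) • x = 0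

/-- **The kernel of reduction** (`p`-primary part) at the Gauss valuation attached to the
valuation ring `P` of `ℚ̄`: the class `x` has a Kummer function (for some power of `p`) which is a
constant times a Gauss unit reducing to `1`. -/
def InK1 (P : ValuationSubring Kbar) (p : ℕ) (F : IntermediateField Kbar (LaurentSeries Kbar))
    (x : Pic0 Kbar ↥F) : Prop :=
  ∃ (k : ℕ) (D : Divisor.degZero (K := Kbar) (F := ↥F)) (f : ↥F), f ≠ 0 ∧ x = Pic0.mk D ∧
    (∀ v : Place Kbar ↥F, ((p : ℤ) ^ k) * (D : Divisor Kbar ↥F) v = v.ord f) ∧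
    Fermat.Agent.NEB.H70.IsRedOneC P (f : LaurentSeries Kbar)

/-- `K_A`: all diamond conjugates lie in the kernel of reduction. -/
def InKA (P : ValuationSubring Kbar) (p : ℕ) {M c : ℕ} {H : Subgroup (ZMod c)ˣ}
    (dd : DiamondData M c H) (x : JH M c H) : Prop :=
  ∀ d : (ZMod c)ˣ, InK1 P p (FHbar M c H) (dd.ρ d • x)

/-! ## Leaves CL-* (class level) -/

section Statements

variable (M c : ℕ) (H : Subgroup (ZMod c)ˣ) (p : ℕ)

/-- **CL-SUB**: `K1` is a subgroup. -/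
def Stmt_CL_sub (F : IntermediateField Kbar (LaurentSeries Kbar)) : Prop :=
  ∀ P : ValuationSubring Kbar, InK1 P p F 0 ∧
    (∀ x y, InK1 P p F x → InK1 P p F y → InK1 P p F (x + y)) ∧
    (∀ x, InK1 P p F x → InK1 P p F (-x))

/-- **CL-GAL**: `K1` is stable under the decomposition group of `P` (coefficientwise action). -/
def Stmt_CL_gal (F₀ : IntermediateField ℚ (LaurentSeries ℚ)) : Prop :=
  ∀ (P : ValuationSubring Kbar) (σ : GalQ), σ ∈ P.decompositionSubgroup ℚ →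
    ∀ x : Pic0 Kbar (laurentBaseChange Kbar F₀), InK1 P p (laurentBaseChange Kbar F₀) x →
      InK1 P p (laurentBaseChange Kbar F₀) (σ • x)

/-- **CL-T**: `K_A` is stable under `T_ℓ^H` (`ℓ ∤ M` prime). -/
def Stmt_CL_T : Prop :=
  ∀ (ℓ : ℕ) [NeZero M] [NeZero ℓ], ℓ.Prime → ¬ ℓ ∣ M → ∀ hd : HeckeData M c ℓ H,
  ∀ (P : ValuationSubring Kbar) (x : JH M c H), InKA P p hd.dd x → InKA P p hd.dd (TH hd.hβ x)

/-- **CL-U**: `K_A` is stable under `U_q^H` (`q ∣ M` prime). -/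
def Stmt_CL_U : Prop :=
  ∀ (q : ℕ) [NeZero M] [NeZero q], q.Prime → q ∣ M → ∀ hd : HeckeData M c q H,
  ∀ (P : ValuationSubring Kbar) (x : JH M c H), InKA P p hd.dd x → InKA P p hd.dd (UH hd.hβ x)

/-- **CL-INERTIA**: `(σ - 1) J_H[p^∞] ⊆ K_A` for `σ` in the inertia group of `P`. -/
def Stmt_CL_inertia : Prop :=
  ∀ (dd : DiamondData M c H) (P : ValuationSubring Kbar) (r : ℕ), r.Prime → P.LiesOverPrime r →
  ∀ σ ∈ P.inertiaSubgroupIn ℚ, ∀ x : JH M c H, IsPTors p x → InKA P p dd (σ • x - x)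

/-- **CL-ES** (Eichler–Shimura, class level): for a Frobenius `φ` at `P ∣ ℓ`, `ℓ ∤ M p`, and
`u ∈ (ℤ/c)ˣ` the class of `ℓ`:  `(⟨ℓ⟩ φ² - T_ℓ^H φ + ℓ) J_H[p^∞] ⊆ K_A`.
(Convention of `H70.coe_THfn`: `THfn f = twNorm ℓ f (ρ(u) f)`, and `H70.isRedOneC_ES` with
`x₁ = f`, `x₂ = ρ(u) f`.) -/
def Stmt_CL_ES : Prop :=
  ∀ (ℓ : ℕ) [NeZero M] [NeZero ℓ], ℓ.Prime → ¬ ℓ ∣ M → ℓ ≠ p →
  ∀ u : (ZMod c)ˣ, (u : ZMod c) = (ℓ : ZMod c) → ∀ hd : HeckeData M c ℓ H,
  ∀ (P : ValuationSubring Kbar), P.LiesOverPrime ℓ → ∀ φ : GalQ, P.IsFrobeniusAt φ ℓ →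
  ∀ x : JH M c H, IsPTors p x →
    InKA P p hd.dd (hd.dd.ρ u • (φ • φ • x) - TH hd.hβ (φ • x) + ℓ • x)

/-- **CL-UF**: for a Frobenius `φ` at `P ∣ q`, `q ∣ M`, `q ≠ p`: `(U_q^H - φ) J_H[p^∞] ⊆ K_A`. -/
def Stmt_CL_UF : Prop :=
  ∀ (q : ℕ) [NeZero M] [NeZero q], q.Prime → q ∣ M → q ≠ p → ∀ hd : HeckeData M c q H,
  ∀ (P : ValuationSubring Kbar), P.LiesOverPrime q → ∀ φ : GalQ, P.IsFrobeniusAt φ q →
  ∀ x : JH M c H, IsPTors p x → InKA P p hd.dd (UH hd.hβ x - φ • x)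

/-- **CL-RES** (class form of `H84.stmt_RES`): a `p`-power torsion class of `J₀(M)` whose pull-back
to `J_H` lies in the kernel of reduction is the sum of a class in the kernel of reduction of
`J₀(M)` and a class killed by `π^*`.  (`P` over a prime `r ≠ p`; the exponent of `(ℤ/c)ˣ/±H` is a
power of `p`.) -/
def Stmt_CL_RES : Prop :=
  2 ≤ c → c ∣ M → M ≠ 0 →
  ∀ (n : ℕ), (∀ d : (ZMod c)ˣ, d ^ (p ^ n) ∈ H ∨ -(d ^ (p ^ n)) ∈ H) →
  ∀ (P : ValuationSubring Kbar) (r : ℕ), r.Prime → r ≠ p → P.LiesOverPrime r →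
  ∀ x₀ : JZero M, IsPTors p x₀ → InK1 P p (FHbar M c H) (piUp M c H x₀) →
    ∃ y z : JZero M, x₀ = y + z ∧ InK1 P p (modularFunctionFieldBar M) y ∧ piUp M c H z = 0

/-- **CL-TI** (class form of `RED.stmt_TIcore`): at a place over `ℓ ∤ M p` the kernel of reduction
of `J₀(M)` has no `p`-power torsion. -/
def Stmt_CL_TI : Prop :=
  ∀ [NeZero M] (ℓ : ℕ), ℓ.Prime → ¬ ℓ ∣ M → ℓ ≠ p →
  ∀ (P : ValuationSubring Kbar), P.LiesOverPrime ℓ →
  ∀ x : JZero M, InK1 P p (modularFunctionFieldBar M) x → x = 0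

/-- **OLD-RED** (level `Γ₀`, bad prime `q ∥ Mq`): if `α^* u + β^* v` lies in the kernel of
reduction of `J₀(Mq)` at `P ∣ q`, then `φ u + q v` lies in the kernel of reduction of `J₀(M)`
(hence is `0` by CL-TI).  Uses: the residue field of the Gauss valuation of `F₀(Mq)` is that of
`F₀(M)` (`BAD`, redField), and `res (f (t^q)) = (Frob⁻¹ res f)^q`. -/
def Stmt_OLD_RED : Prop :=
  ∀ [NeZero M] (q : ℕ) [NeZero q], q.Prime → ¬ q ∣ M → q ≠ p →
  ∀ (P : ValuationSubring Kbar), P.LiesOverPrime q → ∀ φ : GalQ, P.IsFrobeniusAt φ q →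
  ∀ u v : JZero M, IsPTors p u → IsPTors p v →
    InK1 P p (modularFunctionFieldBar (M * q))
      (Fermat.Agent.NEB.H14.pullP (heckeAlphaBar Kbar M q) u +
        Fermat.Agent.NEB.H14.pullP (heckeBetaBar Kbar M q) v) →
    InK1 P p (modularFunctionFieldBar M) (φ • u + q • v)

/-- **FIX** (derived from INV, CL-RES, CL-TI, CL-T): at a place over a prime `r ∤ M p`, a
`Δ`-fixed `p`-power torsion class in `K_A` is killed by the Eisenstein operator
`T_ℓ^H - (ℓ + 1)`. -/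
def Stmt_FIX : Prop :=
  ∀ (ℓ : ℕ) [NeZero M] [NeZero ℓ], ℓ.Prime → ¬ ℓ ∣ M → ∀ hd : HeckeData M c ℓ H,
  ∀ (P : ValuationSubring Kbar) (r : ℕ), r.Prime → ¬ r ∣ M → r ≠ p → P.LiesOverPrime r →
  ∀ x : JH M c H, IsPTors p x → InKA P p hd.dd x → (∀ d, hd.dd.ρ d • x = x) →
    TH hd.hβ x - (ℓ + 1) • x = 0

end Statements

end Fermat.Agent.NEB.Geom

end
end
-- ==== END Fermat.Agent.NEB.Geom.Defs

-- ==== BEGIN Fermat.Agent.S48.B2.H55_AsmRep
section

/-!
# S48, B2 assembly, part 2 (helper55): the eigenspace `W ⊂ J_H[ℓ] ⊗ k` and its Galois action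

* `resT n f`: restriction of an additive endomorphism to the `n`-torsion;
* `galT`, `galMatHom θ`: the Galois action on `J_H[ℓ]`, as matrices over `k`;
* `eigSpace`: the common eigenspace of the `T^H_q` and the diamond operators;
* `rhoEnd`: the Galois action on `eigSpace`, twisted by a character.
-/

set_option autoImplicit false

noncomputable section

namespace Fermat.Agent.S48.B2.H55

open AlgebraicCurve ModularCurve CongruenceSubgroup
open Fermat.Agent.NEB Fermat.Agent.NEB.JH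
open Fermat.Agent.S48.B2

section Res

variable {J : Type*} [AddCommGroup J]

/-- Restriction of an additive endomorphism to the `n`-torsion. -/
def resT (n : ℕ) (f : J →+ J) :
    ↥((nsmulAddMonoidHom (α := J) n).ker) →+ ↥((nsmulAddMonoidHom (α := J) n).ker) :=
  AddMonoidHom.codRestrict (f.comp (AddSubgroup.subtype _)) _ (fun x => by
    have hx : n • (x : J) = 0 := x.2
    show n • f (x : J) = 0
    rw [← map_nsmul, hx, map_zero])

@[simp]
theorem coe_resT (n : ℕ) (f : J →+ J) (x : ↥((nsmulAddMonoidHom (α := J) n).ker)) :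
    ((resT n f x : ↥((nsmulAddMonoidHom (α := J) n).ker)) : J) = f (x : J) := rfl

theorem resT_comp (n : ℕ) (f g : J →+ J) : resT n (f.comp g) = (resT n f).comp (resT n g) := by
  ext x
  rfl

theorem resT_id (n : ℕ) : resT n (AddMonoidHom.id J) = AddMonoidHom.id _ := by
  ext x
  rfl

end Res

section Gal

variable {M c : ℕ} {H : Subgroup (ZMod c)ˣ}

/-- The Galois action on `J_H` as an additive map. -/
def galHom (M c : ℕ) (H : Subgroup (ZMod c)ˣ) (σ : GQ) : JH M c H →+ JH M c H :=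
  DistribSMul.toAddMonoidHom (JH M c H) σ

@[simp]
theorem galHom_apply (σ : GQ) (x : JH M c H) : galHom M c H σ x = σ • x := rfl

theorem galHom_mul (σ τ : GQ) :
    galHom M c H (σ * τ) = (galHom M c H σ).comp (galHom M c H τ) := by
  apply AddMonoidHom.ext
  intro x
  show (σ * τ) • x = σ • τ • x
  exact mul_smul _ _ _

theorem galHom_one : galHom M c H 1 = AddMonoidHom.id _ := by
  apply AddMonoidHom.ext
  intro x
  show (1 : GQ) • x = x
  exact one_smul _ _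

variable {ℓ r : ℕ} {k : Type} [Field k] [CharP k ℓ]

/-- The Galois action on `J_H[ℓ]` in coordinates, as matrices over `k`. -/
def galMatHom (k : Type) [Field k] [CharP k ℓ] (θ : ↥(torsH M c H ℓ) ≃+ (Fin r → ZMod ℓ)) :
    GQ →* Matrix (Fin r) (Fin r) k where
  toFun σ := matOf k θ (resT ℓ (galHom M c H σ))
  map_one' := by
    rw [galHom_one, resT_id, matOf_id]
  map_mul' σ τ := by
    rw [galHom_mul, resT_comp, matOf_comp]

theorem galMatHom_apply (θ : ↥(torsH M c H ℓ) ≃+ (Fin r → ZMod ℓ)) (σ : GQ) :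
    galMatHom k θ σ = matOf k θ (resT ℓ (galHom M c H σ)) := rfl

/-- An element acting trivially on `J_H[ℓ]` has matrix `1`. -/
theorem galMatHom_eq_one (θ : ↥(torsH M c H ℓ) ≃+ (Fin r → ZMod ℓ)) (σ : GQ)
    (hσ : ∀ x : JH M c H, ℓ • x = 0 → σ • x = x) : galMatHom k θ σ = 1 := by
  have h : resT ℓ (galHom M c H σ) = AddMonoidHom.id _ := by
    ext x
    exact hσ x x.2
  rw [galMatHom_apply, h, matOf_id]

end Gal

section Eig

variable {r : ℕ} {k : Type} [Field k]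

/-- The common eigenspace of a family of matrices. -/
def eigSpace {ι : Type*} (A : ι → Matrix (Fin r) (Fin r) k) (a : ι → k) :
    Submodule k (Fin r → k) where
  carrier := {w | ∀ i, (A i).mulVec w = a i • w}
  zero_mem' := by
    intro i
    rw [Matrix.mulVec_zero, smul_zero]
  add_mem' := by
    intro x y hx hy i
    rw [Matrix.mulVec_add, hx i, hy i, smul_add]
  smul_mem' := by
    intro t x hx i
    rw [Matrix.mulVec_smul, hx i, smul_comm]

theorem mem_eigSpace {ι : Type*} (A : ι → Matrix (Fin r) (Fin r) k) (a : ι → k)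
    (w : Fin r → k) : w ∈ eigSpace A a ↔ ∀ i, (A i).mulVec w = a i • w := Iff.rfl

/-- A matrix commuting with the family preserves the common eigenspace. -/
theorem mulVec_mem_eigSpace {ι : Type*} (A : ι → Matrix (Fin r) (Fin r) k) (a : ι → k)
    (B : Matrix (Fin r) (Fin r) k) (hB : ∀ i, A i * B = B * A i) (w : Fin r → k)
    (hw : w ∈ eigSpace A a) : B.mulVec w ∈ eigSpace A a := by
  intro i
  rw [Matrix.mulVec_mulVec, hB i, ← Matrix.mulVec_mulVec, hw i, Matrix.mulVec_smul]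

/-- The action on the common eigenspace of a group acting by matrices commuting with the
family, twisted by a character. -/
def rhoEnd {G : Type*} [Group G] {ι : Type*} (A : ι → Matrix (Fin r) (Fin r) k) (a : ι → k)
    (g : G →* Matrix (Fin r) (Fin r) k) (hg : ∀ σ i, A i * g σ = g σ * A i) (η : G →* kˣ) :
    G →* Module.End k (eigSpace A a) where
  toFun σ := ((η σ : kˣ) : k) •
    (Matrix.mulVecLin (g σ)).restrict (fun w hw => mulVec_mem_eigSpace A a (g σ) (hg σ) w hw)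
  map_one' := by
    apply LinearMap.ext
    intro w
    apply Subtype.ext
    simp only [map_one, Units.val_one, one_smul, LinearMap.coe_restrict_apply,
      Matrix.mulVecLin_apply, Matrix.one_mulVec, Module.End.one_apply]
  map_mul' σ τ := by
    apply LinearMap.ext
    intro w
    apply Subtype.ext
    simp only [map_mul, Units.val_mul, LinearMap.smul_apply, Module.End.mul_apply,
      LinearMap.coe_restrict_apply, Matrix.mulVecLin_apply, Submodule.coe_smul,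
      LinearMap.map_smul, ← Matrix.mulVec_mulVec, smul_smul]

theorem rhoEnd_apply_coe {G : Type*} [Group G] {ι : Type*} (A : ι → Matrix (Fin r) (Fin r) k)
    (a : ι → k) (g : G →* Matrix (Fin r) (Fin r) k) (hg : ∀ σ i, A i * g σ = g σ * A i)
    (η : G →* kˣ) (σ : G) (w : eigSpace A a) :
    ((rhoEnd A a g hg η σ w : eigSpace A a) : Fin r → k) =
      ((η σ : kˣ) : k) • (g σ).mulVec (w : Fin r → k) := rfl

theorem rhoEnd_eq_one {G : Type*} [Group G] {ι : Type*} (A : ι → Matrix (Fin r) (Fin r) k)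
    (a : ι → k) (g : G →* Matrix (Fin r) (Fin r) k) (hg : ∀ σ i, A i * g σ = g σ * A i)
    (η : G →* kˣ) (σ : G) (h1 : g σ = 1) (h2 : η σ = 1) : rhoEnd A a g hg η σ = 1 := by
  apply LinearMap.ext
  intro w
  apply Subtype.ext
  rw [rhoEnd_apply_coe, h1, h2, Units.val_one, one_smul, Matrix.one_mulVec]
  rfl

/-- The quadratic relation on the eigenspace. -/
theorem rhoEnd_quadratic {G : Type*} [Group G] {ι : Type*}
    (A : ι → Matrix (Fin r) (Fin r) k) (a : ι → k) (g : G →* Matrix (Fin r) (Fin r) k)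
    (hg : ∀ σ i, A i * g σ = g σ * A i) (η : G →* kˣ) (σ : G) (i j : ι) (n : k)
    (hrel : g σ * g σ - A i * g σ + n • A j = 0) (β γ : k)
    (h1 : ((η σ : kˣ) : k) * a i = β)
    (h2 : ((η σ : kˣ) : k) * ((η σ : kˣ) : k) * (n * a j) = γ) :
    rhoEnd A a g hg η σ * rhoEnd A a g hg η σ - β • rhoEnd A a g hg η σ +
      γ • (1 : Module.End k (eigSpace A a)) = 0 := by
  apply LinearMap.ext
  intro w
  apply Subtype.ext
  have hw := w.2
  have hgw : (g σ).mulVec (w : Fin r → k) ∈ eigSpace A a :=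
    mulVec_mem_eigSpace A a (g σ) (hg σ) _ hw
  have e1 : (A i).mulVec ((g σ).mulVec (w : Fin r → k)) = a i • (g σ).mulVec (w : Fin r → k) :=
    hgw i
  have e2 : (A j).mulVec (w : Fin r → k) = a j • (w : Fin r → k) := hw j
  have e3 := congrArg (fun B : Matrix (Fin r) (Fin r) k => B.mulVec (w : Fin r → k)) hrel
  simp only [Matrix.add_mulVec, Matrix.sub_mulVec, Matrix.smul_mulVec, Matrix.zero_mulVec,
    ← Matrix.mulVec_mulVec, e1, e2] at e3
  simp only [LinearMap.add_apply, LinearMap.sub_apply, LinearMap.smul_apply,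
    Module.End.mul_apply, Module.End.one_apply, LinearMap.zero_apply, Submodule.coe_add,
    Submodule.coe_sub, Submodule.coe_smul, Submodule.coe_zero, rhoEnd_apply_coe,
    Matrix.mulVec_smul]
  set y : k := ((η σ : kˣ) : k) with hy
  set P := (g σ).mulVec ((g σ).mulVec (w : Fin r → k)) with hP
  set Q := (g σ).mulVec (w : Fin r → k) with hQ
  have e4 : P = a i • Q - n • a j • (w : Fin r → k) := by
    have := e3
    rw [sub_add_eq_add_sub, sub_eq_zero] at this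
    rw [eq_sub_iff_add_eq]
    exact this
  rw [e4, ← h1, ← h2]
  funext m
  simp only [Pi.add_apply, Pi.sub_apply, Pi.smul_apply, smul_eq_mul, Pi.zero_apply]
  ring

/-- The quadratic relation on the eigenspace, with the diamond operator in front of `σ²`. -/
theorem rhoEnd_quadratic_diam {G : Type*} [Group G] {ι : Type*}
    (A : ι → Matrix (Fin r) (Fin r) k) (a : ι → k) (g : G →* Matrix (Fin r) (Fin r) k)
    (hg : ∀ σ i, A i * g σ = g σ * A i) (η : G →* kˣ) (σ : G) (i j : ι) (n : k)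
    (hrel : A j * (g σ * g σ) - A i * g σ + n • (1 : Matrix (Fin r) (Fin r) k) = 0) (β γ : k)
    (haj : a j ≠ 0)
    (h1 : ((η σ : kˣ) : k) * a i = β * a j)
    (h2 : ((η σ : kˣ) : k) * ((η σ : kˣ) : k) * n = γ * a j) :
    rhoEnd A a g hg η σ * rhoEnd A a g hg η σ - β • rhoEnd A a g hg η σ +
      γ • (1 : Module.End k (eigSpace A a)) = 0 := by
  apply LinearMap.ext
  intro w
  apply Subtype.ext
  have hw := w.2
  have hgw : (g σ).mulVec (w : Fin r → k) ∈ eigSpace A a :=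
    mulVec_mem_eigSpace A a (g σ) (hg σ) _ hw
  have hggw : (g σ).mulVec ((g σ).mulVec (w : Fin r → k)) ∈ eigSpace A a :=
    mulVec_mem_eigSpace A a (g σ) (hg σ) _ hgw
  have e1 : (A i).mulVec ((g σ).mulVec (w : Fin r → k)) = a i • (g σ).mulVec (w : Fin r → k) :=
    hgw i
  have e2 : (A j).mulVec ((g σ).mulVec ((g σ).mulVec (w : Fin r → k))) =
      a j • (g σ).mulVec ((g σ).mulVec (w : Fin r → k)) := hggw j
  have e3 := congrArg (fun B : Matrix (Fin r) (Fin r) k => B.mulVec (w : Fin r → k)) hrel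
  simp only [Matrix.add_mulVec, Matrix.sub_mulVec, Matrix.smul_mulVec, Matrix.zero_mulVec,
    ← Matrix.mulVec_mulVec, Matrix.one_mulVec, e1, e2] at e3
  simp only [LinearMap.add_apply, LinearMap.sub_apply, LinearMap.smul_apply,
    Module.End.mul_apply, Module.End.one_apply, LinearMap.zero_apply, Submodule.coe_add,
    Submodule.coe_sub, Submodule.coe_smul, Submodule.coe_zero, rhoEnd_apply_coe,
    Matrix.mulVec_smul]
  set y : k := ((η σ : kˣ) : k) with hy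
  set P := (g σ).mulVec ((g σ).mulVec (w : Fin r → k)) with hP
  set Q := (g σ).mulVec (w : Fin r → k) with hQ
  funext m
  have e4 := congrFun e3 m
  simp only [Pi.add_apply, Pi.sub_apply, Pi.smul_apply, smul_eq_mul, Pi.zero_apply] at e4 ⊢
  have key : a j * (y * (y * P m) - β * (y * Q m) + γ * (w : Fin r → k) m) = 0 := by
    linear_combination (y * y) * e4 + (y * Q m) * h1 - ((w : Fin r → k) m) * h2
  rcases mul_eq_zero.1 key with h0 | h0
  · exact absurd h0 haj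
  · exact h0

end Eig

end Fermat.Agent.S48.B2.H55

end
end
-- ==== END Fermat.Agent.S48.B2.H55_AsmRep

-- ==== BEGIN Fermat.Agent.S48.B2.R.H31_Trace
section
attribute [local instance 10000] SubalgebraClass.toAlgebra
attribute [local instance 10000] HahnSeries.powerSeriesAlgebra

/-!
# S48 B2, slice R, leaf IRR-2 (helper31): the trace Hecke operator on functions

For a prime `ℓ ∤ M`, `2 ≤ c`, `c ∣ M`, `H ≤ (ℤ/c)ˣ` and `hd : HeckeData M c ℓ H` the **trace
Hecke operator**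

  `𝒯_ℓ f := Tr_{F_H(Mℓ) / α F_H(M)} (β f)`   (`traceT hd.hβ f`, a `ℚ̄`-linear endomorphism of `F_H(M)`)

satisfies

* `coe_traceT`   : `𝒯_ℓ f = V_ℓ f + ℓ · U_ℓ (⟨ℓ⟩ f)` as Laurent series in `q`, where
                   `V_ℓ = qExpand ℚ̄ ℓ` (`f(q) ↦ f(q^ℓ)`) and `U_ℓ = H44.descend ℓ`
                   (`∑ a_n q^n ↦ ∑ a_{ℓ n} q^n`), `⟨ℓ⟩ = hd.dd.ρ u`, `u = ℓ mod c`;
* `coeff_traceT` : the same coefficientwise;
* `traceT_rho`   : `𝒯_ℓ (⟨d⟩ f) = ⟨d⟩ (𝒯_ℓ f)`;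
* `traceT_incl`  : `𝒯_ℓ` maps `F₀(M)` into `F₀(M)`.

The exact statement of the leaf is `Stmt_IRR2`, proved by `stmt_IRR2`.

Method: trace = sum of the `ℓ + 1` conjugates `sigmaT` of helper70 (`NEB/H70_NormQ.lean`), through
the abstract `trace_eq_sum_of_injective` (Dedekind independence, as for the norm in
`RED/ES/H95_NormEmb.lean`), and `∑_{b < ℓ} s(ζ^b q^{1/ℓ}) = ℓ · (U_ℓ s)(q)`.
-/

set_option autoImplicit false
set_option linter.unusedSectionVars false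
set_option linter.style.haveILetI false

open ModularCurve

noncomputable section

namespace Fermat.Agent.S48.B2.R.H31

open Fermat.Agent.NEB Fermat.Agent.NEB.H14 Fermat.Agent.NEB.JH Fermat.Agent.NEB.H84
  Fermat.Agent.NEB.H70 Fermat.Agent.GTor AlgebraicCurve

/-! ## 1. Trace through distinct embeddings -/

section Abstract

open Module

/-- **Trace through distinct embeddings**: if `F / K` is finite of degree `n` and `σ i`
(`i : ι`, `card ι = n`) are pairwise distinct `K`-embeddings of `F` into a field `L`, then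
`Tr_{F/K} y = ∑ i, σ i y` in `L`. -/
theorem trace_eq_sum_of_injective {K F L : Type*} [Field K] [Field F] [Field L] [Algebra K F]
    [Algebra K L] [FiniteDimensional K F] {ι : Type*} [Fintype ι]
    (σ : ι → (F →ₐ[K] L)) (hσ : Function.Injective σ)
    (hcard : Fintype.card ι = finrank K F) (y : F) :
    algebraMap K L (Algebra.trace K F y) = ∑ i, σ i y := by
  classical
  let b := Module.finBasis K F
  have e : ι ≃ Fin (finrank K F) := Fintype.equivOfCardEq (by rw [hcard, Fintype.card_fin])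
  let σ' : Fin (finrank K F) → (F →ₐ[K] L) := fun i => σ (e.symm i)
  have hσ' : Function.Injective σ' := hσ.comp e.symm.injective
  have hS := Fermat.Agent.RED.H95.isUnit_embMatrix b σ' hσ'
  have hrel := Fermat.Agent.RED.H95.embMatrix_mul_leftMulMatrix b σ' y
  obtain ⟨S, hSu⟩ := hS
  have hA : (Algebra.leftMulMatrix b y).map (algebraMap K L)
      = (S⁻¹ : (Matrix _ _ L)ˣ).1 * Matrix.diagonal (fun i => σ' i y) * S.1 := by
    rw [mul_assoc, hSu, ← hrel, ← hSu, ← mul_assoc, Units.inv_mul, one_mul]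
  rw [Algebra.trace_eq_matrix_trace b y, AddMonoidHom.map_trace, hA, Matrix.trace_units_conj',
    Matrix.trace_diagonal]
  exact Fintype.sum_equiv e.symm _ _ (fun i => rfl)

variable {K₀ F F' : Type} [Field K₀] [Field F] [Field F'] [Algebra K₀ F] [Algebra K₀ F']

/-- The trace along `φ`. -/
def traceFn (φ : F →ₐ[K₀] F') (x : F') : F :=
  letI := algebraAlong φ
  Algebra.trace F F' x

theorem traceFn_add (φ : F →ₐ[K₀] F') (x y : F') :
    traceFn φ (x + y) = traceFn φ x + traceFn φ y := by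
  letI := algebraAlong φ
  show Algebra.trace F F' (x + y) = Algebra.trace F F' x + Algebra.trace F F' y
  exact map_add _ x y

theorem traceFn_mul_left (φ : F →ₐ[K₀] F') (a : F) (x : F') :
    traceFn φ (φ a * x) = a * traceFn φ x := by
  letI := algebraAlong φ
  show Algebra.trace F F' (φ a * x) = a * Algebra.trace F F' x
  have h : φ a * x = a • x := (Algebra.smul_def a x).symm
  rw [h, map_smul, smul_eq_mul]

theorem traceFn_smul (φ : F →ₐ[K₀] F') (a : K₀) (x : F') :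
    traceFn φ (a • x) = a • traceFn φ x := by
  rw [Algebra.smul_def, Algebra.smul_def, ← φ.commutes a, traceFn_mul_left]

/-- The trace commutes with compatible automorphisms. -/
theorem traceFn_algEquiv (φ : F →ₐ[K₀] F') (g : F ≃ₐ[K₀] F) (g' : F' ≃ₐ[K₀] F')
    (h : ∀ x, g' (φ x) = φ (g x)) (z : F') : g (traceFn φ z) = traceFn φ (g' z) := by
  letI := algebraAlong φ
  have h1 := Algebra.trace_eq_of_equiv_equiv (A₁ := F) (B₁ := F') (A₂ := F) (B₂ := F')
    (g : F ≃+* F) (g' : F' ≃+* F') (by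
      ext x
      exact (h x).symm) z
  show g (Algebra.trace F F' z) = Algebra.trace F F' (g' z)
  rw [h1]
  exact (g : F ≃+* F).apply_symm_apply _

/-- The trace along `φ` is the sum of the conjugates. -/
theorem trace_via_emb {L : Type} [Field L] (φ : F →ₐ[K₀] F') (hfin : FiniteAlong K₀ φ)
    (ψ : F →+* L) {ι : Type} [Fintype ι] (σ : ι → (F' →+* L))
    (hσφ : ∀ i x, σ i (φ x) = ψ x) (hinj : Function.Injective σ)
    (hcard : Fintype.card ι = finrankAlong K₀ φ) (y : F') :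
    ψ (traceFn φ y) = ∑ i, σ i y := by
  letI := algebraAlong φ
  letI : Algebra F L := ψ.toAlgebra
  haveI : FiniteDimensional F F' := hfin
  let σ' : ι → (F' →ₐ[F] L) := fun i => { σ i with commutes' := fun x => hσφ i x }
  have hinj' : Function.Injective σ' := by
    intro i j h
    apply hinj
    ext z
    exact congrArg (fun f : F' →ₐ[F] L => f z) h
  exact trace_eq_sum_of_injective σ' hinj' hcard y

end Abstract

/-! ## 2. The sum of the twists -/

section Series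

variable (ℓ : ℕ) [NeZero ℓ]

/-- `∑_{b < ℓ} s(ζ^b t) = ℓ · ∑_n s_{ℓ n} t^{ℓ n}`. -/
theorem sum_twistBy_expUnit (s : LaurentSeries ℂ) :
    ∑ b : Fin ℓ, H44.twistBy (expUnit (((b : ℕ) : ℝ) / ℓ)) s
      = (ℓ : ℂ) • qExpand ℂ ℓ (H44.descend ℓ s) := by
  ext m
  rw [HahnSeries.coeff_sum, HahnSeries.coeff_smul, smul_eq_mul]
  simp only [H44.twistBy_coeff, expUnit_div]
  set ζ : ℂˣ := expUnit (1 / (ℓ : ℝ)) with hζ
  have hprim : IsPrimitiveRoot ζ ℓ := isPrimitiveRoot_expUnit ℓ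
  have hsum : ∑ b : Fin ℓ, ((((ζ ^ (b : ℕ)) ^ m : ℂˣ)) : ℂ) * s.coeff m
      = (∑ b ∈ Finset.range ℓ, (((ζ ^ m : ℂˣ) : ℂ)) ^ b) * s.coeff m := by
    rw [Finset.sum_mul, ← Fin.sum_univ_eq_sum_range (fun b => (((ζ ^ m : ℂˣ) : ℂ)) ^ b * s.coeff m)]
    refine Finset.sum_congr rfl fun b _ => ?_
    congr 1
    rw [← Units.val_pow_eq_pow_val, ← zpow_natCast (ζ ^ m), ← zpow_mul, ← zpow_natCast ζ,
      ← zpow_mul, mul_comm]
  rw [hsum]
  by_cases hm : (ℓ : ℤ) ∣ m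
  · have h1 : ζ ^ m = 1 := (hprim.zpow_eq_one_iff_dvd m).mpr hm
    obtain ⟨k, rfl⟩ := hm
    rw [h1, qExpand_coeff_mul, H44.descend_coeff]
    simp
  · have h1 : ζ ^ m ≠ 1 := fun h => hm ((hprim.zpow_eq_one_iff_dvd m).mp h)
    have h2 : ((ζ ^ m : ℂˣ) : ℂ) ≠ 1 := fun h => h1 (Units.ext h)
    have h3 : ((ζ ^ m : ℂˣ) : ℂ) ^ ℓ = 1 := by
      rw [← Units.val_pow_eq_pow_val, ← zpow_natCast (ζ ^ m), ← zpow_mul, mul_comm, zpow_mul,
        zpow_natCast, hprim.pow_eq_one, one_zpow, Units.val_one]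
    have h4 := geom_sum_mul ((ζ ^ m : ℂˣ) : ℂ) ℓ
    rw [h3, sub_self] at h4
    have h5 : ∑ i ∈ Finset.range ℓ, ((ζ ^ m : ℂˣ) : ℂ) ^ i = 0 := by
      rcases mul_eq_zero.mp h4 with h | h
      · exact h
      · exact absurd (sub_eq_zero.mp h) h2
    rw [h5, zero_mul, qExpand_coeff_of_not_dvd ℓ _ hm, mul_zero]

theorem coeffMap_smul_jh {R S : Type*} [CommRing R] [CommRing S] (f : R →+* S) (a : R)
    (x : LaurentSeries R) : coeffMap f (a • x) = f a • coeffMap f x := by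
  ext n
  simp only [coeffMap_coeff, HahnSeries.coeff_smul, smul_eq_mul, map_mul]

theorem qExpand_smul_jh {R : Type*} [CommRing R] (a : R) (x : LaurentSeries R) :
    qExpand R ℓ (a • x) = a • qExpand R ℓ x := by
  ext k
  by_cases hk : (ℓ : ℤ) ∣ k
  · obtain ⟨m, rfl⟩ := hk
    rw [HahnSeries.coeff_smul, qExpand_coeff_mul, qExpand_coeff_mul, HahnSeries.coeff_smul]
  · rw [HahnSeries.coeff_smul, qExpand_coeff_of_not_dvd ℓ _ hk, qExpand_coeff_of_not_dvd ℓ _ hk,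
      smul_zero]

end Series

/-! ## 3. The trace Hecke operator -/

section TraceT

variable {M c ℓ : ℕ} [NeZero M] [NeZero ℓ] {H : Subgroup (ZMod c)ˣ}

/-- **The trace Hecke operator** `𝒯_ℓ f = Tr_α (β f)` on `F_H(M)`, as a `ℚ̄`-linear map. -/
def traceT (hβ : BetaOK M c ℓ H) : ↥(FHbar M c H) →ₗ[Kbar] ↥(FHbar M c H) where
  toFun f := traceFn (alphaH M c ℓ H) (betaBar hβ f)
  map_add' x y := by rw [map_add, traceFn_add]
  map_smul' a x := by
    rw [Algebra.smul_def, map_mul, AlgHom.commutes, ← Algebra.smul_def, traceFn_smul]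
    rfl

theorem traceT_apply (hβ : BetaOK M c ℓ H) (f : ↥(FHbar M c H)) :
    traceT hβ f = traceFn (alphaH M c ℓ H) (betaBar hβ f) := rfl

/-- **The `q`-expansion of the trace Hecke operator**, `ℓ ∤ M` prime:
`𝒯_ℓ f = f(q^ℓ) + ℓ · U_ℓ (⟨ℓ⟩ f)`. -/
theorem coe_traceT (hd : HeckeData M c ℓ H) (hc2 : 2 ≤ c) (hc : c ∣ M) (hℓ : ℓ.Prime)
    (hℓM : ¬ ℓ ∣ M) (u : (ZMod c)ˣ) (hu : (u : ZMod c) = (ℓ : ZMod c)) (f : ↥(FHbar M c H)) :
    ((traceT hd.hβ f : ↥(FHbar M c H)) : LaurentSeries Kbar)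
      = qExpand Kbar ℓ (f : LaurentSeries Kbar)
        + (ℓ : Kbar) • H44.descend ℓ ((hd.dd.ρ u f : ↥(FHbar M c H)) : LaurentSeries Kbar) := by
  obtain ⟨s, q, hdet⟩ := exists_bezout' hℓ hℓM
  have key := trace_via_emb (alphaH M c ℓ H) (finiteAlong_hom hd.isFF hd.isFF' _)
    ((qExpand ℂ ℓ).comp (iotaHom M c H iotaC)) (sigmaT H iotaC hc2 hc s q hdet hℓ)
    (fun i x => sigmaT_alpha H iotaC hc2 hc s q hdet hℓ i x)
    (sigmaT_injective H iotaC hc2 hc s q hdet hℓ hd.hβ)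
    (by rw [Fintype.card_option, Fintype.card_fin]
        exact (Fermat.Agent.NEB.H29.finrankAlong_alphaH hd hℓ hℓM).symm)
    (betaBar hd.hβ f)
  rw [Fintype.sum_option, sigmaT_none_beta] at key
  simp only [sigmaT_some_beta H iotaC hc2 hc s q hdet hℓ hd.hβ u hu] at key
  rw [sum_twistBy_expUnit, ← qExpand_smul_jh, ← map_add] at key
  have key2 := qExpand_injective (R := ℂ) ℓ key
  apply coeffMap_inj iotaC
  rw [map_add, coeffMap_qExpand_jh, coeffMap_smul_jh, Fermat.Agent.NEB.H70.coeffMap_descend,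
    diamondData_unique H iotaC hc2 hc hd.dd u f, map_natCast]
  exact key2

/-- Coefficientwise form of `coe_traceT`. -/
theorem coeff_traceT (hd : HeckeData M c ℓ H) (hc2 : 2 ≤ c) (hc : c ∣ M) (hℓ : ℓ.Prime)
    (hℓM : ¬ ℓ ∣ M) (u : (ZMod c)ˣ) (hu : (u : ZMod c) = (ℓ : ZMod c)) (f : ↥(FHbar M c H))
    (m : ℤ) :
    ((traceT hd.hβ f : ↥(FHbar M c H)) : LaurentSeries Kbar).coeff m
      = (qExpand Kbar ℓ (f : LaurentSeries Kbar)).coeff m
        + (ℓ : Kbar) * ((hd.dd.ρ u f : ↥(FHbar M c H)) : LaurentSeries Kbar).coeff ((ℓ : ℤ) * m) := by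
  rw [coe_traceT hd hc2 hc hℓ hℓM u hu f, HahnSeries.coeff_add, HahnSeries.coeff_smul,
    H44.descend_coeff, smul_eq_mul]

/-- `𝒯_ℓ` commutes with the diamond operators. -/
theorem traceT_rho (hd : HeckeData M c ℓ H) (d : (ZMod c)ˣ) (f : ↥(FHbar M c H)) :
    traceT hd.hβ (hd.dd.ρ d f) = hd.dd.ρ d (traceT hd.hβ f) := by
  rw [traceT_apply, traceT_apply, ← hd.betaGal d f]
  exact (traceFn_algEquiv (alphaH M c ℓ H) (hd.dd.ρ d) (hd.dd'.ρ d) (hd.alphaGal d) _).symm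

/-- `𝒯_ℓ` maps `F₀(M)` into `F₀(M)`. -/
theorem traceT_incl (hd : HeckeData M c ℓ H) (x : ↥(modularFunctionFieldBar M)) :
    ∃ x₀ : ↥(modularFunctionFieldBar M), inclBar M c H x₀ = traceT hd.hβ (inclBar M c H x) := by
  refine hd.dd.fixed _ fun d => ?_
  rw [← traceT_rho, hd.dd.fix]

end TraceT

/-! ## 4. The statement of the leaf -/

/-- **IRR-2**: the trace Hecke operator `𝒯_ℓ` on `F_H(M)`, `ℓ ∤ M` prime: its `q`-expansion is
`V_ℓ f + ℓ · U_ℓ (⟨ℓ⟩ f)`, it commutes with the diamond operators and preserves `F₀(M)`. -/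
def Stmt_IRR2 : Prop :=
  ∀ (M c ℓ : ℕ) [NeZero M] [NeZero ℓ] (H : Subgroup (ZMod c)ˣ) (hd : HeckeData M c ℓ H),
    2 ≤ c → c ∣ M → ℓ.Prime → ¬ ℓ ∣ M →
    ∃ T : ↥(FHbar M c H) →ₗ[Kbar] ↥(FHbar M c H),
      (∀ (u : (ZMod c)ˣ), (u : ZMod c) = (ℓ : ZMod c) → ∀ f : ↥(FHbar M c H),
        ((T f : ↥(FHbar M c H)) : LaurentSeries Kbar)
          = qExpand Kbar ℓ (f : LaurentSeries Kbar)
            + (ℓ : Kbar) • H44.descend ℓ ((hd.dd.ρ u f : ↥(FHbar M c H)) : LaurentSeries Kbar)) ∧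
      (∀ (d : (ZMod c)ˣ) (f : ↥(FHbar M c H)), T (hd.dd.ρ d f) = hd.dd.ρ d (T f)) ∧
      (∀ x : ↥(modularFunctionFieldBar M),
        ∃ x₀ : ↥(modularFunctionFieldBar M), inclBar M c H x₀ = T (inclBar M c H x))

theorem stmt_IRR2 : Stmt_IRR2 := by
  intro M c ℓ _ _ H hd hc2 hc hℓ hℓM
  exact ⟨traceT hd.hβ, fun u hu f => coe_traceT hd hc2 hc hℓ hℓM u hu f,
    fun d f => traceT_rho hd d f, fun x => traceT_incl hd x⟩

end Fermat.Agent.S48.B2.R.H31

end
end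
-- ==== END Fermat.Agent.S48.B2.R.H31_Trace

-- ==== BEGIN Fermat.Agent.S48.B2.T.Defs
section

/-!
# S48 / B2, slice T (`Stmt_EigH`): interfaces (owner helper1)

Plan: `NOTES/plan/W_S48_B2T.md`.

**Design.**  Slice T is proved for `H = ⊥` (the curve `X₁(M)/±1`), `c = M`, `n = ℓ` prime, `ℓ ≥ 5`,
`ℓ ∤ φ(M)`: then `Γ_H = ±Γ₁(M)`, all characters live on `Gam1 M M = Γ₁(M)`, and helper98's
`mono` is injective.  Target: `Stmt_EigBot (-1) (-1)`.

Leaves (each is a `Prop` below; files `S48/B2/T/H<seat>_<Leaf>.lean`, namespace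
`Fermat.Agent.S48.B2.T.H<seat>`):

* `Stmt_Basis1`  : universal basis of `homPE (Γ₁(M), ℤ)`;
* `Stmt_Period1` : the period class of `G`: nonzero, parabolic, eigenvector of `TDadd`, `Dadd`;
* T-RED (pure algebra, reduction of an eigenvector of integer matrices): DONE, `T.H43.eigRed`;
* `Stmt_Dict`    : the torsion dictionary (from helper98's EIG-MONO leaves), `H = ⊥`;
* `Stmt_Exist1`  : every `φ ∈ homPE (Γ₁(M), ℤ/ℓ)` is the character of a point of `J_H[ℓ]`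
  ⟸ `Stmt_EisTw` + `Stmt_A1C` + `Stmt_OrdC` + `Stmt_A5C` + `Stmt_UnrC` + `Stmt_FinC`
  (+ `NEB.EIG.H46.stmt_A2H`, `GTor.H75.stmt_DescCore`, generic).

No `sorry`; everything here is a definition or a `Prop`.
-/

set_option autoImplicit false

noncomputable section

namespace Fermat.Agent.S48.B2.T

open AlgebraicCurve ModularCurve UpperHalfPlane CongruenceSubgroup Matrix.SpecialLinearGroup
open Fermat.Agent.NEB Fermat.Agent.NEB.JH Fermat.Agent.NEB.H84 Fermat.Agent.NEB.EIG.H39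
open Fermat.Agent.NEB.EIG.H98 Fermat.Agent.NEB.EIG.H34 Fermat.Agent.GTor
open scoped MatrixGroups ModularForm Manifold

/-! ## 0. The target -/

/-- The conclusion of `Stmt_EigH` for an arbitrary subgroup `H`. -/
def EigConcl (M : ℕ) [NeZero M] (χ : DirichletCharacter ℂ M) (b : ℕ → ℂ)
    (H : Subgroup (ZMod M)ˣ) (ℓ : ℕ) (k : Type) [Field k] (φ : integralClosure ℤ ℂ →+* k)
    (dd : DiamondData M M H) (s s' : ℤ) : Prop :=
  ∃ (r : ℕ) (θ : ↥(torsH M M H ℓ) ≃+ (Fin r → ZMod ℓ)) (v : Fin r → k),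
    v ≠ 0 ∧
    (∀ (q : ℕ) [NeZero q] (hβ : BetaOK M M q H), q.Prime → ¬ q ∣ M * ℓ →
      ∀ (X : ↥(torsH M M H ℓ) → ↥(torsH M M H ℓ)),
        (∀ x, ((X x : ↥(torsH M M H ℓ)) : JH M M H) = TH hβ (x : JH M M H)) →
        ∀ t : integralClosure ℤ ℂ,
          (t : ℂ) = b q * ((χ (q : ZMod M) : ℂ)) ^ s →
          applyMat θ X v = φ t • v) ∧
    (∀ (d : (ZMod M)ˣ)
      (X : ↥(torsH M M H ℓ) → ↥(torsH M M H ℓ)),
        (∀ x, ((X x : ↥(torsH M M H ℓ)) : JH M M H) = dd.ρ d • (x : JH M M H)) →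
        ∀ t : integralClosure ℤ ℂ,
          (t : ℂ) = ((χ (d : ZMod M) : ℂ)) ^ s' →
          applyMat θ X v = φ t • v)

/-- **Slice T, target**: `Stmt_EigH` for `H = ⊥` and `ℓ ∤ φ(M)`. -/
def Stmt_EigBot (s s' : ℤ) : Prop :=
  ∀ (M : ℕ) [NeZero M] (χ : DirichletCharacter ℂ M) (G : CuspForm (Gamma1 M) 2) (b : ℕ → ℂ),
    2 ≤ M → B.IsEigenvec2 M χ G b → Int.HasNeb M χ 2 G →
      ∀ ℓ : ℕ, ℓ.Prime → 5 ≤ ℓ → ¬ ℓ ∣ Nat.totient M →
        ∀ (k : Type) [Field k] [CharP k ℓ] [IsAlgClosed k] (φ : integralClosure ℤ ℂ →+* k)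
          (dd : DiamondData M M (⊥ : Subgroup (ZMod M)ˣ)),
          EigConcl M χ b ⊥ ℓ k φ dd s s'

/-! ## 1. Betti side: basis, period class, reduction -/

/-- `b` is a universal basis of `homPE (Γ₁(M), ·)` for torsion free coefficients. -/
def IsPEBasis (M : ℕ) {r : ℕ} (b : Fin r → (Additive (Gam1 M M) →+ ℤ)) : Prop :=
  (∀ i, b i ∈ homPE (Gam1 M M) ℤ) ∧
    ∀ (A : Type) [AddCommGroup A] [IsAddTorsionFree A] (φ : Additive (Gam1 M M) →+ A),
      φ ∈ homPE (Gam1 M M) A → ∃! a : Fin r → A, ∀ γ, φ γ = ∑ i, b i γ • a i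

/-- **T-BASIS**: port of `Betti.stmt_basis` (`Betti.exists_universal_basis`) to `Γ₁(M)`. -/
def Stmt_Basis1 : Prop :=
  ∀ (M : ℕ) [NeZero M], ∃ (r : ℕ) (b : Fin r → (Additive (Gam1 M M) →+ ℤ)), IsPEBasis M b

/-- **T-PER**: the period class `γ ↦ ∫_{z₀}^{γ z₀} G(z) dz` of a weight two eigenvector with
nebentypus: nonzero (S21 injectivity), trivial on parabolic elements (cusp form), eigenvector of
the Betti Hecke operators `TDadd` (family `repD`) with eigenvalue `b_q χ(q)⁻¹` and of the diamond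
operators `Dadd g` (`ψ ↦ ψ ∘ conj_g`) with eigenvalue `χ(d_g)`. -/
def Stmt_Period1 : Prop :=
  ∀ (M : ℕ) [NeZero M] (χ : DirichletCharacter ℂ M) (G : CuspForm (Gamma1 M) 2) (b : ℕ → ℂ),
    2 ≤ M → B.IsEigenvec2 M χ G b → Int.HasNeb M χ 2 G →
      ∃ ψ : Additive (Gam1 M M) →+ ℂ, ψ ≠ 0 ∧ ψ ∈ homPE (Gam1 M M) ℂ ∧
        (∀ (q : ℕ) (hq : q.Prime) (hqM : ¬ q ∣ M) (γ : Additive (Gam1 M M)),
          TDadd M M dvd_rfl hq hqM ψ γ = b q * ((χ (q : ZMod M) : ℂ)) ^ (-1 : ℤ) * ψ γ) ∧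
        (∀ (g : SL(2, ℤ)) (hg : (M : ℤ) ∣ g 1 0) (γ : Additive (Gam1 M M)),
          Dadd dvd_rfl g hg ψ γ = χ (((g 1 1 : ℤ) : ZMod M)) * ψ γ)

-- **T-RED** (pure algebra) is DONE: `Fermat.Agent.S48.B2.T.H43.eigRed` (helper43).

/-! ## 2. The torsion dictionary for `H = ⊥` -/

/-- **T-DICT** (from helper98's EIG-MONO leaves `MONO1`, `CHAR1`, `INJ1`, `HK1`, `DIAM1`, `KUM1`
with `H = ⊥`, where `|H| = 1`): the relation `TorChar1 x φ` is the graph of an injective additive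
map `J_H[n] → homPE (Γ₁(M), ℤ/n)`, equivariant for Hecke and diamond operators. -/
def Stmt_Dict : Prop :=
  ∀ (M : ℕ) [NeZero M], 2 ≤ M → ∀ n : ℕ, n ≠ 0 → ∀ ι : Kbar →+* ℂ,
    (∀ x : JH M M (⊥ : Subgroup (ZMod M)ˣ), n • x = 0 →
      ∃ φ ∈ homPE (Gam1 M M) (ZMod n), TorChar1 M M ⊥ n ι x φ) ∧
    (∀ (x : JH M M (⊥ : Subgroup (ZMod M)ˣ)) (φ : Additive (Gam1 M M) →+ ZMod n),
      TorChar1 M M ⊥ n ι x φ → n • x = 0) ∧
    (∀ (x y : JH M M (⊥ : Subgroup (ZMod M)ˣ)) (φ : Additive (Gam1 M M) →+ ZMod n),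
      TorChar1 M M ⊥ n ι x φ → TorChar1 M M ⊥ n ι y φ → x = y) ∧
    (∀ (x : JH M M (⊥ : Subgroup (ZMod M)ˣ)) (φ ψ : Additive (Gam1 M M) →+ ZMod n),
      TorChar1 M M ⊥ n ι x φ → TorChar1 M M ⊥ n ι x ψ → φ = ψ) ∧
    (∀ (x y : JH M M (⊥ : Subgroup (ZMod M)ˣ)) (φ ψ : Additive (Gam1 M M) →+ ZMod n),
      TorChar1 M M ⊥ n ι x φ → TorChar1 M M ⊥ n ι y ψ → TorChar1 M M ⊥ n ι (x + y) (φ + ψ)) ∧
    (∀ (q : ℕ) (hq : q.Prime) (hqM : ¬ q ∣ M),
      haveI : NeZero q := ⟨hq.ne_zero⟩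
      ∀ (hβ : BetaOK M M q (⊥ : Subgroup (ZMod M)ˣ)) (x : JH M M (⊥ : Subgroup (ZMod M)ˣ))
        (φ : Additive (Gam1 M M) →+ ZMod n),
        TorChar1 M M ⊥ n ι x φ → TorChar1 M M ⊥ n ι (TH hβ x) (TDadd M M dvd_rfl hq hqM φ)) ∧
    (∀ (dd : DiamondData M M (⊥ : Subgroup (ZMod M)ˣ)) (d : (ZMod M)ˣ) (g : SL(2, ℤ))
      (hg : (M : ℤ) ∣ g 1 0), ((g 0 0 : ℤ) : ZMod M) = (d : ZMod M) →
      ∀ (x : JH M M (⊥ : Subgroup (ZMod M)ˣ)) (φ : Additive (Gam1 M M) →+ ZMod n),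
        TorChar1 M M ⊥ n ι x φ → TorChar1 M M ⊥ n ι (dd.ρ d • x) (Dadd dvd_rfl g hg φ))

/-! ## 3. Existence of torsion points -/

/-- **T-EXIST**: every character of `Γ₁(M)` with values in `ℤ/ℓ`, trivial on parabolic and
elliptic elements, is the character of a point of `J_H` (`H = ⊥`). -/
def Stmt_Exist1 : Prop :=
  ∀ (M : ℕ) [NeZero M], 2 ≤ M → ∀ ℓ : ℕ, ℓ.Prime → 5 ≤ ℓ → ¬ ℓ ∣ Nat.totient M →
    ∀ (ι : Kbar →+* ℂ) (φ : Additive (Gam1 M M) →+ ZMod ℓ), φ ∈ homPE (Gam1 M M) (ZMod ℓ) →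
      ∃ x : JH M M (⊥ : Subgroup (ZMod M)ˣ), TorChar1 M M ⊥ ℓ ι x φ

/-- The function field of `X₁(M)/±1` over `ℂ`, inside `ℂ((q))`. -/
abbrev FC (M : ℕ) : IntermediateField ℂ (LaurentSeries ℂ) :=
  laurentBaseChange ℂ (FHQ M M (⊥ : Subgroup (ZMod M)ˣ))

/-- **E-EIS** (twisted Eisenstein series, port of `Lib/TwistedEisensteinChar.lean`,
`GTor/H98_Exist.lean`): a nonzero holomorphic form of some weight `k`, bounded at the cusps, with
multiplier `ζ^φ` on `Γ₁(M)`, together with a nonzero modular form of weight `k` on `Γ₀(M)`. -/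
def Stmt_EisTw : Prop :=
  ∀ (M : ℕ) [NeZero M], 2 ≤ M → ∀ n : ℕ, n ≠ 0 →
    ∀ φ : Additive (Gam1 M M) →+ ZMod n, φ ∈ homPE (Gam1 M M) (ZMod n) →
      ∃ (k : ℤ) (R : ℍ → ℂ) (B : ModularForm (Gamma0 M) k),
        IsTw1 M M n k φ R ∧ R ≠ 0 ∧ B ≠ 0

/-- **E-A1C**: every element of `F_{H,ℂ}` is `A / B`, `B ≠ 0` a modular form on `Γ₀(M)`, `A` a
form on `Γ₁(M)` of the same weight, invariant under `Γ_H = ±Γ₁(M)`. -/
def Stmt_A1C : Prop :=
  ∀ (M : ℕ) [NeZero M], 2 ≤ M → ∀ f : ↥(FC M),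
    ∃ (k : ℤ) (A : ℍ → ℂ) (B : ModularForm (Gamma0 M) k),
      IsW M k A ∧ B ≠ 0 ∧
      (∀ γ : SL(2, ℤ), γ ∈ Gamma0 M → ((γ 0 0 : ℤ) : ZMod M) ∈ cosetSet M ⊥ 1 →
        A ∣[k] γ = A) ∧
      qLaurent A = (f : LaurentSeries ℂ) * qLaurent (B : ℍ → ℂ)

/-- The place `v` of `F_{H,ℂ}` is the analytic order function `ord` (at a point of `ℍ` or at a
cusp), up to the index `e`: `ord A - ord B = e · ord_v (A / B)`. -/
def IsAnPlace (M : ℕ) (v : Place ℂ ↥(FC M)) (ord : ℤ → (ℍ → ℂ) → ℤ) (e : ℕ) : Prop :=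
  ∀ (f : ↥(FC M)) (k : ℤ) (A B : ℍ → ℂ), f ≠ 0 → IsRep M (f : LaurentSeries ℂ) k A B →
    ord k A - ord k B = (e : ℤ) * v.ord f

/-- **E-ORD**: every point of `ℍ` and every cusp defines a place of `F_{H,ℂ}`; the index divides
`6` at a point and `M / (width in Γ₀(M))` at a cusp (because `F_{0,ℂ} ⊆ F_{H,ℂ}` contains a
function of that order: `GTor.Clo.stmt_A3`, `stmt_A4`). -/
def Stmt_OrdC : Prop :=
  ∀ (M : ℕ) [NeZero M], 2 ≤ M →
    (∀ z : ℍ, ∃ (v : Place ℂ ↥(FC M)) (e : ℕ), 0 < e ∧ e ∣ 6 ∧ IsAnPlace M v (ordPt z) e) ∧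
    (∀ σ : SL(2, ℤ), ∃ (v : Place ℂ ↥(FC M)) (e : ℕ), 0 < e ∧ e ∣ M / cuspWidth M σ ∧
      IsAnPlace M v (ordCu M σ) e)

/-- **E-A5C**: every place of `F_{H,ℂ}` is the place of a point or of a cusp. -/
def Stmt_A5C : Prop :=
  ∀ (M : ℕ) [NeZero M], 2 ≤ M → ∀ v : Place ℂ ↥(FC M),
    (∃ (z : ℍ) (e : ℕ), 0 < e ∧ e ∣ 6 ∧ IsAnPlace M v (ordPt z) e) ∨
    (∃ (σ : SL(2, ℤ)) (e : ℕ), 0 < e ∧ e ∣ M / cuspWidth M σ ∧ IsAnPlace M v (ordCu M σ) e)

/-- **E-UNR**: the function `(R / B)^ℓ` of a twisted form `R` is unramified at every place. -/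
def Stmt_UnrC : Prop :=
  ∀ (M : ℕ) [NeZero M], 2 ≤ M → ∀ ℓ : ℕ, ℓ.Prime → 5 ≤ ℓ → ¬ ℓ ∣ Nat.totient M →
    ∀ (φ : Additive (Gam1 M M) →+ ZMod ℓ), φ ∈ homPE (Gam1 M M) (ZMod ℓ) →
      ∀ (k : ℤ) (R : ℍ → ℂ) (B : ModularForm (Gamma0 M) k) (f : ↥(FC M)),
        IsTw1 M M ℓ k φ R → B ≠ 0 → f ≠ 0 →
        qLaurent (fun z => R z ^ ℓ) = (f : LaurentSeries ℂ) * qLaurent (fun z => B z ^ ℓ) →
        ∀ v : Place ℂ ↥(FC M), (ℓ : ℤ) ∣ v.ord f

/-- **E-FIN**: the group of unramified Kummer classes of `F_{H,ℂ}` is finite (it embeds into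
`Hom(Γ₁(M), ℤ/n)` by the character of the `n`-th root). -/
def Stmt_FinC : Prop :=
  ∀ (M : ℕ) [NeZero M], 2 ≤ M → ∀ n : ℕ, n ≠ 0 → Finite (UnrKummer ℂ ↥(FC M) n)

end Fermat.Agent.S48.B2.T

end
end
-- ==== END Fermat.Agent.S48.B2.T.Defs
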