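-- GENERATED (merged mirror, NOTES/tools/trim/merge3_helper67.py): 6 modules of the originals, bodies verbatim.
import Mathlib.NumberTheory.LSeries.PrimesInAP
import Fermat.Agent.Zm.S48_L14_000
import Fermat.Agent.Zm.S48_L09_000
import Fermat.Agent.Zm.S48_L11_000
import Fermat.Agent.Zm.S48_L06_000
import Fermat.Agent.Zm.S48_L04_000
import Fermat.Agent.Zm.S48_L05_000
import Fermat.Agent.Zm.S48_L14_001
import Fermat.Agent.Zm.S48_L13_000
import Fermat.Agent.Zm.S48_L06_001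
import Fermat.Agent.S48.B2.R.H25_IrrCore
import Fermat.Agent.Zm.S48_L02_002
import Fermat.Agent.Zm.S48_L02_000
import Fermat.Agent.Zm.S35_L03_001

-- ==== BEGIN Fermat.Agent.NEB.EIG.H39_OPLattice
section

/-!
# NEB / EIG (helper39): EIG-OP, descent to a lattice and formal consequences

* `hecke_induction` : induction principle for `heckeAlgebra N 2 S` when `S` contains the primes
  dividing `N` (generators `T_ℓ`, `ℓ ∉ S`);
* `op_lattice` : a ring homomorphism `η : heckeAlgebra → End_L V` with `η (T_ℓ) = t ℓ` descends to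
  `η₀ : heckeAlgebra → End_𝒪 V₀` along an injective `𝒪`-linear map `j : V₀ → V` with
  `j (t₀ ℓ v) = t ℓ (j v)`;
* `commute_of_gen` : an operator commuting with the `η (T_ℓ)` commutes with `η x` for all `x`;
* `hasEnough_of_algClosed` : algebraically closed fields of characteristic zero have enough roots
  of unity.
-/

set_option autoImplicit false

namespace Fermat.Agent.NEB.EIG.H39

section Induction

variable {N : ℕ} [NeZero N] {S : Set ℕ}

/-- Induction principle for the Hecke algebra away from `S ⊇ {q ∣ N}`. -/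
theorem hecke_induction (hS : ∀ q : ℕ, q.Prime → q ∣ N → q ∈ S)
    {P : CuspForm.heckeAlgebra N 2 S → Prop}
    (hT : ∀ (ℓ : ℕ) (hℓ : ℓ.Prime) (hℓN : ¬ ℓ ∣ N) (hℓS : ℓ ∉ S),
      P (CuspForm.heckeAlgebra.T hℓ hℓN hℓS))
    (hint : ∀ n : ℤ, P (n : CuspForm.heckeAlgebra N 2 S))
    (hadd : ∀ x y, P x → P y → P (x + y)) (hmul : ∀ x y, P x → P y → P (x * y)) :
    ∀ x, P x := by
  rintro ⟨x, hx⟩
  induction hx using Algebra.adjoin_induction with
  | mem x hx =>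
    rcases hx with ⟨ℓ, hℓ, hℓN, hℓS, rfl⟩ | ⟨q, hqN, hq, hqS, rfl⟩
    · exact hT ℓ hℓ hℓN hℓS
    · exact absurd (hS q hq hqN) hqS
  | algebraMap n =>
    have : (⟨algebraMap ℤ _ n, Subalgebra.algebraMap_mem _ n⟩ : CuspForm.heckeAlgebra N 2 S)
        = (n : CuspForm.heckeAlgebra N 2 S) := by
      apply Subtype.ext
      simp
    rw [this]
    exact hint n
  | add x y hx hy ihx ihy =>
    have : (⟨x + y, Subalgebra.add_mem _ hx hy⟩ : CuspForm.heckeAlgebra N 2 S)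
        = ⟨x, hx⟩ + ⟨y, hy⟩ := rfl
    rw [this]
    exact hadd _ _ ihx ihy
  | mul x y hx hy ihx ihy =>
    have : (⟨x * y, Subalgebra.mul_mem _ hx hy⟩ : CuspForm.heckeAlgebra N 2 S)
        = ⟨x, hx⟩ * ⟨y, hy⟩ := rfl
    rw [this]
    exact hmul _ _ ihx ihy

/-- An element of a ring commuting with the images of the generators commutes with the image of
the Hecke algebra. -/
theorem commute_of_gen (hS : ∀ q : ℕ, q.Prime → q ∣ N → q ∈ S) {R : Type*} [Ring R]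
    (eta : CuspForm.heckeAlgebra N 2 S →+* R) (e : R)
    (h : ∀ (ℓ : ℕ) (hℓ : ℓ.Prime) (hℓN : ¬ ℓ ∣ N) (hℓS : ℓ ∉ S),
      Commute e (eta (CuspForm.heckeAlgebra.T hℓ hℓN hℓS))) :
    ∀ x, Commute e (eta x) := by
  refine hecke_induction hS h (fun n => ?_) (fun x y hx hy => ?_) (fun x y hx hy => ?_)
  · rw [map_intCast]
    exact Int.commute_cast e n
  · rw [map_add]
    exact hx.add_right hy
  · rw [map_mul]
    exact hx.mul_right hy

end Induction

section Lattice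

variable {N : ℕ} [NeZero N] {S : Set ℕ}
  {𝒪 : Type*} [CommRing 𝒪] {L : Type*} [Field L]
  {V₀ : Type*} [AddCommGroup V₀] [Module 𝒪 V₀]
  {V : Type*} [AddCommGroup V] [Module L V] [Module 𝒪 V]

/-- **Descent to a lattice.** -/
theorem op_lattice (hS : ∀ q : ℕ, q.Prime → q ∣ N → q ∈ S)
    (eta : CuspForm.heckeAlgebra N 2 S →+* Module.End L V)
    (j : V₀ →ₗ[𝒪] V) (hj : Function.Injective j)
    (t₀ : ℕ → Module.End 𝒪 V₀)
    (ht : ∀ (ℓ : ℕ) (hℓ : ℓ.Prime) (hℓN : ¬ ℓ ∣ N) (hℓS : ℓ ∉ S) (v : V₀),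
      j (t₀ ℓ v) = eta (CuspForm.heckeAlgebra.T hℓ hℓN hℓS) (j v)) :
    ∃ eta₀ : CuspForm.heckeAlgebra N 2 S →+* Module.End 𝒪 V₀,
      (∀ (ℓ : ℕ) (hℓ : ℓ.Prime) (hℓN : ¬ ℓ ∣ N) (hℓS : ℓ ∉ S),
        eta₀ (CuspForm.heckeAlgebra.T hℓ hℓN hℓS) = t₀ ℓ) ∧
      ∀ x v, j (eta₀ x v) = eta x (j v) := by
  have hall : ∀ x : CuspForm.heckeAlgebra N 2 S, ∃ e : Module.End 𝒪 V₀,
      ∀ v, j (e v) = eta x (j v) := by
    refine hecke_induction hS (fun ℓ hℓ hℓN hℓS => ⟨t₀ ℓ, ht ℓ hℓ hℓN hℓS⟩) (fun n => ?_)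
      (fun x y hx hy => ?_) (fun x y hx hy => ?_)
    · refine ⟨(n : Module.End 𝒪 V₀), fun v => ?_⟩
      rw [map_intCast]
      simp only [Module.End.intCast_apply, map_zsmul]
    · obtain ⟨e, he⟩ := hx
      obtain ⟨f, hf⟩ := hy
      refine ⟨e + f, fun v => ?_⟩
      rw [LinearMap.add_apply, map_add, he, hf, map_add, LinearMap.add_apply]
    · obtain ⟨e, he⟩ := hx
      obtain ⟨f, hf⟩ := hy
      refine ⟨e * f, fun v => ?_⟩
      rw [Module.End.mul_apply, he, hf, map_mul, Module.End.mul_apply]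
  choose c hc using hall
  have huniq : ∀ (x : CuspForm.heckeAlgebra N 2 S) (e : Module.End 𝒪 V₀),
      (∀ v, j (e v) = eta x (j v)) → c x = e := by
    intro x e he
    apply LinearMap.ext
    intro v
    apply hj
    rw [hc x v, he v]
  refine ⟨{ toFun := c
            map_one' := huniq 1 1 (fun v => by rw [map_one]; rfl)
            map_mul' := fun x y => huniq _ _ (fun v => by
              rw [Module.End.mul_apply, hc x, hc y, map_mul, Module.End.mul_apply])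
            map_zero' := huniq 0 0 (fun v => by
              rw [map_zero, LinearMap.zero_apply, LinearMap.zero_apply, map_zero])
            map_add' := fun x y => huniq _ _ (fun v => by
              rw [LinearMap.add_apply, map_add, hc x, hc y, map_add, LinearMap.add_apply]) },
    fun ℓ hℓ hℓN hℓS => huniq _ _ (ht ℓ hℓ hℓN hℓS), fun x v => hc x v⟩

end Lattice

section Roots

/-- An algebraically closed field of characteristic zero has enough roots of unity. -/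
theorem hasEnough_of_algClosed (L : Type*) [Field L] [CharZero L] [IsAlgClosed L] (c : ℕ)
    [NeZero c] : HasEnoughRootsOfUnity L (Monoid.exponent (ZMod c)ˣ) := by
  haveI : NeZero (Monoid.exponent (ZMod c)ˣ) := ⟨Monoid.exponent_ne_zero_of_finite⟩
  haveI : NeZero ((Monoid.exponent (ZMod c)ˣ : ℕ) : L) :=
    ⟨Nat.cast_ne_zero.mpr (NeZero.ne _)⟩
  infer_instance

end Roots

end Fermat.Agent.NEB.EIG.H39

end
-- ==== END Fermat.Agent.NEB.EIG.H39_OPLattice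

-- ==== BEGIN Fermat.Agent.NEB.EIG.H98_MonoAsm
section

/-!
# NEB / EIG, leaf EIG-MONO, assembly (helper98)

`stmt_MonoH_of : (∀ k, Stmt_INJ1 M c H (p ^ k)) → (∀ k, Stmt_HK1 M c H (p ^ k)) →
  Stmt_MonoH M c H p ι`
from the landed leaves A1-H, MONO1 (helper98), CHAR1, KCOMP1 (helper34), KUM1, DIAM1 (helper12).
-/

set_option autoImplicit false
set_option linter.unusedSectionVars false

noncomputable section

namespace Fermat.Agent.NEB.EIG.H98

open AlgebraicCurve ModularCurve UpperHalfPlane CongruenceSubgroup Matrix.SpecialLinearGroup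
open Fermat.Agent.NEB Fermat.Agent.NEB.JH Fermat.Agent.NEB.H84 Fermat.Agent.GTor
  Fermat.Agent.NEB.EIG.H39
open scoped MatrixGroups ModularForm Manifold

variable {M c : ℕ} {H : Subgroup (ZMod c)ˣ} {n : ℕ} (ι : Kbar →+* ℂ)

/-! ## `TorChar1`: existence, uniqueness, additivity -/

theorem isFF_FHbar' (hc2 : 2 ≤ c) (hc : c ∣ M) (hM : M ≠ 0) : Fermat.Agent.RED.IsFF Kbar ↥(FHbar M c H) :=
  haveI : NeZero M := ⟨hM⟩
  Fermat.Agent.NEB.H94.isFF_FHbar M c H hc2 hc (stmt_FH_gal M c H)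

theorem constHyp_FHbar (hc2 : 2 ≤ c) (hc : c ∣ M) (hM : M ≠ 0) :
    Fermat.Agent.NEB.H29.ConstHyp Kbar ↥(FHbar M c H) :=
  Fermat.Agent.NEB.H29.constHyp_of_isFF (isFF_FHbar' hc2 hc hM)

theorem exists_torChar1 (hc2 : 2 ≤ c) (hc : c ∣ M) (hM : M ≠ 0) (hn : n ≠ 0)
    (x : JH M c H) (hx : (n : ℤ) • x = 0) :
    ∃ φ ∈ homPE (Gam1 M c) (ZMod n), TorChar1 M c H n ι x φ := by
  obtain ⟨D, f, hf, rfl, hD⟩ := (Fermat.Agent.NEB.EIG.H12.stmt_KUM1 M c H n hc2 hc hM hn).1 x hx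
  obtain ⟨φ, hφ, hchar⟩ := stmt_MONO1 M c H n hc2 hc hM hn ι f hf
    (fun v => ⟨(D : Divisor Kbar ↥(FHbar M c H)) v, (hD v).symm⟩)
  exact ⟨φ, hφ, D, f, hf, rfl, hD, hchar⟩

theorem torChar1_unique (hc2 : 2 ≤ c) (hc : c ∣ M) (hM : M ≠ 0) (hn : n ≠ 0)
    {x : JH M c H} {φ ψ : Additive (Gam1 M c) →+ ZMod n}
    (h₁ : TorChar1 M c H n ι x φ) (h₂ : TorChar1 M c H n ι x ψ) : φ = ψ := by
  obtain ⟨D, f, hf, hx, hD, hchar⟩ := h₁
  obtain ⟨D', f', hf', hx', hD', hchar'⟩ := h₂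
  have : NeZero M := ⟨hM⟩
  obtain ⟨huniq, hmul, hpow⟩ :=
    Fermat.Agent.NEB.EIG.H34.stmt_CHAR1_of (n := n) (stmt_A1H M c H) hc2 hc hM hn ι
  have h0 : Pic0.mk (D - D') = 0 := by
    have : Pic0.mk (D - D') = Pic0.mk D - Pic0.mk D' := rfl
    rw [this, ← hx, ← hx', sub_self]
  obtain ⟨g, hg, hgv⟩ := (Fermat.Agent.GTor.H33.mk_eq_zero_iff _).mp h0
  have hgv' : ∀ v : Place Kbar ↥(FHbar M c H),
      (D : Divisor Kbar ↥(FHbar M c H)) v - (D' : Divisor Kbar ↥(FHbar M c H)) v = v.ord g := by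
    intro v
    rw [← hgv v]
    rfl
  -- `u = f / (f' g^n)` is a constant
  set u : ↥(FHbar M c H) := f * (f' * g ^ n)⁻¹ with hu
  have hfg : f' * g ^ n ≠ 0 := mul_ne_zero hf' (pow_ne_zero _ hg)
  have hu0 : u ≠ 0 := mul_ne_zero hf (inv_ne_zero hfg)
  have hord : ∀ v : Place Kbar ↥(FHbar M c H), v.ord u = 0 := by
    intro v
    rw [hu, v.ord_mul hf (inv_ne_zero hfg), v.ord_inv, v.ord_mul hf' (pow_ne_zero _ hg),
      ← zpow_natCast, v.ord_zpow, ← hD v, ← hD' v, ← hgv' v]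
    ring
  obtain ⟨a, ha⟩ := constHyp_FHbar hc2 hc hM u hu0 hord
  obtain ⟨b, hb⟩ := IsAlgClosed.exists_pow_nat_eq a (Nat.pos_of_ne_zero hn)
  have hb0 : b ≠ 0 := by
    rintro rfl
    rw [zero_pow hn] at hb
    rw [← hb, map_zero] at ha
    exact hu0 ha.symm
  set h : ↥(FHbar M c H) := g * algebraMap Kbar _ b with hh
  have hh0 : h ≠ 0 := mul_ne_zero hg ((map_ne_zero _).mpr hb0)
  have hf_eq : f = f' * h ^ n := by
    have h1 : f = u * (f' * g ^ n) := by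
      rw [hu, mul_assoc, inv_mul_cancel₀ hfg, mul_one]
    rw [h1, ← ha, ← hb, map_pow, hh, mul_pow]
    ring
  have h3 := hmul f' (h ^ n) ψ 0 hf' (pow_ne_zero _ hh0) hchar' (hpow h hh0)
  rw [← hf_eq, add_zero] at h3
  exact huniq f φ ψ hf hchar h3

theorem torChar1_add (hc2 : 2 ≤ c) (hc : c ∣ M) (hM : M ≠ 0) (hn : n ≠ 0)
    {x y : JH M c H} {φ ψ : Additive (Gam1 M c) →+ ZMod n}
    (h₁ : TorChar1 M c H n ι x φ) (h₂ : TorChar1 M c H n ι y ψ) :
    TorChar1 M c H n ι (x + y) (φ + ψ) := by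
  obtain ⟨D, f, hf, hx, hD, hchar⟩ := h₁
  obtain ⟨D', f', hf', hy, hD', hchar'⟩ := h₂
  have : NeZero M := ⟨hM⟩
  obtain ⟨-, hmul, -⟩ :=
    Fermat.Agent.NEB.EIG.H34.stmt_CHAR1_of (n := n) (stmt_A1H M c H) hc2 hc hM hn ι
  refine ⟨D + D', f * f', mul_ne_zero hf hf', by rw [hx, hy]; rfl, fun v => ?_,
    hmul f f' φ ψ hf hf' hchar hchar'⟩
  rw [v.ord_mul hf hf', ← hD v, ← hD' v]
  show (n : ℤ) * ((D : Divisor Kbar ↥(FHbar M c H)) + (D' : Divisor Kbar ↥(FHbar M c H))) v = _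
  rw [Finsupp.add_apply]
  ring

/-! ## The homomorphism -/

/-- The character of a torsion class. -/
def monoFun (hc2 : 2 ≤ c) (hc : c ∣ M) (hM : M ≠ 0) (hn : n ≠ 0)
    (x : Pic0.torsion Kbar ↥(FHbar M c H) n) : Additive (Gam1 M c) →+ ZMod n :=
  Classical.choose (exists_torChar1 ι hc2 hc hM hn (x : JH M c H) (Pic0.mem_torsion.mp x.2))

theorem monoFun_spec (hc2 : 2 ≤ c) (hc : c ∣ M) (hM : M ≠ 0) (hn : n ≠ 0)
    (x : Pic0.torsion Kbar ↥(FHbar M c H) n) :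
    monoFun ι hc2 hc hM hn x ∈ homPE (Gam1 M c) (ZMod n) ∧
      TorChar1 M c H n ι (x : JH M c H) (monoFun ι hc2 hc hM hn x) :=
  Classical.choose_spec
    (exists_torChar1 ι hc2 hc hM hn (x : JH M c H) (Pic0.mem_torsion.mp x.2))

theorem monoFun_eq (hc2 : 2 ≤ c) (hc : c ∣ M) (hM : M ≠ 0) (hn : n ≠ 0)
    (x : Pic0.torsion Kbar ↥(FHbar M c H) n) {φ : Additive (Gam1 M c) →+ ZMod n}
    (h : TorChar1 M c H n ι (x : JH M c H) φ) : monoFun ι hc2 hc hM hn x = φ :=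
  torChar1_unique ι hc2 hc hM hn (monoFun_spec ι hc2 hc hM hn x).2 h

/-- The homomorphism `J_H[n] → Hom(Gam1 M c, ℤ/n)`. -/
def monoHom (hc2 : 2 ≤ c) (hc : c ∣ M) (hM : M ≠ 0) (hn : n ≠ 0) :
    Pic0.torsion Kbar ↥(FHbar M c H) n →+ (Additive (Gam1 M c) →+ ZMod n) :=
  AddMonoidHom.mk' (monoFun ι hc2 hc hM hn) (fun x y =>
    monoFun_eq ι hc2 hc hM hn (x + y)
      (torChar1_add ι hc2 hc hM hn (monoFun_spec ι hc2 hc hM hn x).2
        (monoFun_spec ι hc2 hc hM hn y).2))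

theorem monoHom_apply (hc2 : 2 ≤ c) (hc : c ∣ M) (hM : M ≠ 0) (hn : n ≠ 0)
    (x : Pic0.torsion Kbar ↥(FHbar M c H) n) :
    monoHom ι hc2 hc hM hn x = monoFun ι hc2 hc hM hn x := rfl

/-! ## The assembly -/

/-- **EIG-MONO** from INJ1 and HK1. -/
theorem stmt_MonoH_of (hc2 : 2 ≤ c) (hc : c ∣ M) (hM : M ≠ 0) {p : ℕ} (hp : p ≠ 0)
    (hINJ : ∀ k : ℕ, Stmt_INJ1 M c H (p ^ k)) (hHK : ∀ k : ℕ, Stmt_HK1 M c H (p ^ k)) :
    Stmt_MonoH M c H p ι := by
  have hpk : ∀ k : ℕ, p ^ k ≠ 0 := fun k => pow_ne_zero k hp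
  have hFF := isFF_FHbar' (H := H) hc2 hc hM
  have : NeZero M := ⟨hM⟩
  refine ⟨fun k => monoHom ι hc2 hc hM (hpk k), ?_, ?_, ?_, ?_, ?_, ?_⟩
  · intro k x
    exact (monoFun_spec ι hc2 hc hM (hpk k) x).2
  · -- the kernel
    intro k x hx
    have h1 := (monoFun_spec ι hc2 hc hM (hpk k) x).2
    rw [← monoHom_apply, hx] at h1
    obtain ⟨D, f, hf, hxD, hD, hchar⟩ := h1
    obtain ⟨h, hh⟩ := hINJ k hc2 hc hM (hpk k) ι f hf hchar
    have h2 := (Fermat.Agent.NEB.EIG.H12.stmt_KUM1 M c H (p ^ k) hc2 hc hM (hpk k)).2 D f h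
      (Nat.card H) hf hD hh
    rw [hxD]
    have h3 : ((Nat.card H : ℕ) : ℤ) • (Pic0.mk D : JH M c H) = Nat.card H • Pic0.mk D :=
      natCast_zsmul _ _
    rw [← h3]
    exact h2
  · intro k x
    exact (monoFun_spec ι hc2 hc hM (hpk k) x).1
  · -- Hecke
    intro hc' ℓ hℓ hℓM hβ k x y hy
    have : NeZero ℓ := ⟨hℓ.ne_zero⟩
    have hFF' : Fermat.Agent.RED.IsFF Kbar ↥(FHbar (M * ℓ) c H) :=
      isFF_FHbar' hc2 (Dvd.dvd.mul_right hc ℓ) (mul_ne_zero hM hℓ.ne_zero)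
    obtain ⟨D, f, hf, hxD, hD, hchar⟩ := (monoFun_spec ι hc2 hc hM (hpk k) x).2
    obtain ⟨E, hE, hT0, hEv⟩ := TH_kummer hFF hFF' hβ ((p ^ k : ℕ) : ℤ) D hf hD
    have hch := hHK k hc2 hc' hM (hpk k) ι ℓ hℓ hℓM hβ f _ hf hchar
    apply monoFun_eq ι hc2 hc hM (hpk k) y
    exact ⟨E, THfn hβ f, hT0, by rw [hy, hxD, hE], hEv, hch⟩
  · -- diamonds
    intro hc' dd d g hg hgd k x y hy
    obtain ⟨D, f, hf, hxD, hD, hchar⟩ := (monoFun_spec ι hc2 hc hM (hpk k) x).2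
    obtain ⟨E, hE, hT0, hEv⟩ := diamond_kummer dd d ((p ^ k : ℕ) : ℤ) D hf hD
    have hch := Fermat.Agent.NEB.EIG.H12.stmt_DIAM1 M c H (p ^ k) hc2 hc' hM (hpk k) ι dd d g hg
      hgd f _ hf hchar
    apply monoFun_eq ι hc2 hc hM (hpk k) y
    exact ⟨E, dd.ρ d f, hT0, by rw [hy, hxD, diamond_apply, hE], hEv, hch⟩
  · -- compatibility in `k`
    intro k x y hy
    obtain ⟨D, f, hf, hxD, hD, hchar⟩ := (monoFun_spec ι hc2 hc hM (hpk (k + 1)) x).2
    have hch := Fermat.Agent.NEB.EIG.H34.stmt_KCOMP1 M c H p hp ι k f _ hf hchar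
    apply monoFun_eq ι hc2 hc hM (hpk k) y
    refine ⟨p • D, f, hf, by rw [hy, hxD]; rfl, fun v => ?_, hch⟩
    rw [← hD v]
    show ((p ^ k : ℕ) : ℤ) * (p • (D : Divisor Kbar ↥(FHbar M c H))) v = _
    rw [Finsupp.smul_apply]
    push_cast
    rw [nsmul_eq_mul]
    ring

end Fermat.Agent.NEB.EIG.H98

end
end
-- ==== END Fermat.Agent.NEB.EIG.H98_MonoAsm

-- ==== BEGIN Fermat.Agent.NEB.Geom.H70_KU
section
attribute [local instance 10000] SubalgebraClass.toAlgebra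
attribute [local instance 10000] HahnSeries.powerSeriesAlgebra

/-!
# Item 72 (LG-NEB), package NEB-GEOM: the uniform kernel of reduction `K_A` (helper70)

`KumRep n x f` : the class `x` is `[D]` with `n D = div f` (a Kummer representation).
`InKU P p dd x` : `x` has a Kummer representation `(p^k, f)` such that ALL diamond conjugates
`ρ(d) f` are constants times Gauss units reducing to `1` (one representative for all `d`).

* `InKU` is a subgroup, stable under the diamond operators, contained in `InKA` and `InK1`.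
* CL-T, CL-U (`InKU.TH`, `InKU.UH`): `InKU` is stable under `T_ℓ^H`, `U_q^H`.
* CL-INERTIA, CL-ES, CL-UF with conclusion `InKU`.
-/

set_option autoImplicit false

noncomputable section

open ModularCurve AlgebraicCurve

namespace Fermat.Agent.NEB.Geom.H70

open Fermat.Agent.NEB Fermat.Agent.NEB.JH Fermat.Agent.NEB.H14

/-! ## 1. Kummer representations -/

section KumRep

variable {K F F' : Type*} [Field K] [Field F] [Field F'] [Algebra K F] [Algebra K F']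

/-- `x = [D]` with `n D = div f`, `f ≠ 0`. -/
def KumRep (n : ℤ) (x : Pic0 K F) (f : F) : Prop :=
  f ≠ 0 ∧ ∃ D : Divisor.degZero (K := K) (F := F), x = Pic0.mk D ∧
    ∀ v : Place K F, n * (D : Divisor K F) v = v.ord f

theorem KumRep.ne_zero {n : ℤ} {x : Pic0 K F} {f : F} (h : KumRep n x f) : f ≠ 0 := h.1

theorem kumRep_zero (n : ℤ) : KumRep n (0 : Pic0 K F) (1 : F) :=
  ⟨one_ne_zero, 0, rfl, fun v => by
    rw [Place.ord_one]
    show n * (0 : Divisor K F) v = 0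
    rw [Finsupp.zero_apply, mul_zero]⟩

theorem KumRep.add {n : ℤ} {x y : Pic0 K F} {f g : F} (hx : KumRep n x f) (hy : KumRep n y g) :
    KumRep n (x + y) (f * g) := by
  obtain ⟨hf, D, rfl, hD⟩ := hx
  obtain ⟨hg, E, rfl, hE⟩ := hy
  refine ⟨mul_ne_zero hf hg, D + E, rfl, fun v => ?_⟩
  rw [v.ord_mul hf hg, ← hD v, ← hE v]
  show n * ((D : Divisor K F) + (E : Divisor K F)) v = _
  rw [Finsupp.add_apply, mul_add]

theorem KumRep.neg {n : ℤ} {x : Pic0 K F} {f : F} (hx : KumRep n x f) :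
    KumRep n (-x) f⁻¹ := by
  obtain ⟨hf, D, rfl, hD⟩ := hx
  refine ⟨inv_ne_zero hf, -D, rfl, fun v => ?_⟩
  rw [v.ord_inv, ← hD v]
  show n * (-(D : Divisor K F)) v = _
  rw [Finsupp.neg_apply, mul_neg]

theorem KumRep.sub {n : ℤ} {x y : Pic0 K F} {f g : F} (hx : KumRep n x f) (hy : KumRep n y g) :
    KumRep n (x - y) (f * g⁻¹) := by
  rw [sub_eq_add_neg]
  exact hx.add hy.neg

theorem KumRep.nsmul {n : ℤ} {x : Pic0 K F} {f : F} (hx : KumRep n x f) (m : ℕ) :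
    KumRep n (m • x) (f ^ m) := by
  induction m with
  | zero =>
    rw [zero_nsmul, pow_zero]
    exact kumRep_zero n
  | succ m ih =>
    rw [succ_nsmul, pow_succ]
    exact ih.add hx

/-- Change of level: `n D = div f ⟹ (n m) D = div (f ^ m)`. -/
theorem KumRep.level {n : ℤ} {x : Pic0 K F} {f : F} (hx : KumRep n x f) (m : ℕ) :
    KumRep (n * m) x (f ^ m) := by
  obtain ⟨hf, D, rfl, hD⟩ := hx
  refine ⟨pow_ne_zero m hf, D, rfl, fun v => ?_⟩
  rw [← zpow_natCast, v.ord_zpow, ← hD v]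
  ring

theorem KumRep.congr {n : ℤ} {x y : Pic0 K F} {f g : F} (hx : KumRep n x f) (hxy : x = y)
    (hfg : f = g) : KumRep n y g := by
  subst hxy; subst hfg; exact hx

/-- Image under a correspondence. -/
theorem KumRep.picMap {n : ℤ} {x : Pic0 K F} {f : F} (hx : KumRep n x f)
    {Φ : Divisor K F →+ Divisor K F'} {N : F → F'} {d : ℤ} (h : IsCorr Φ N d) :
    KumRep n (H14.picMap Φ x) (N f) := by
  obtain ⟨hf, D, rfl, hD⟩ := hx
  refine ⟨(h.hasFn f hf).1, degZeroMap Φ h.isGood D, picMap_mk h.isGood D, fun v => ?_⟩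
  exact h.hasFn.kummer n _ hf hD v

/-- Every class killed by `n` has a Kummer representation. -/
theorem exists_kumRep {n : ℤ} {x : Pic0 K F} (hx : n • x = 0) : ∃ f : F, KumRep n x f := by
  obtain ⟨D, rfl⟩ := Pic0.mk_surjective x
  have h1 : (Pic0.mk (n • D) : Pic0 K F) = 0 := hx
  have h2 : ((n • D : Divisor.degZero (K := K) (F := F)) : Divisor K F)
      ∈ Divisor.principal (K := K) (F := F) := by
    have := (QuotientAddGroup.eq_zero_iff (n • D)).1 h1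
    exact this
  obtain ⟨f, hf, hDf⟩ := h2
  refine ⟨f, hf, D, rfl, fun v => ?_⟩
  rw [← hDf v]
  show _ = (n • (D : Divisor K F)) v
  rw [Finsupp.smul_apply, smul_eq_mul]

end KumRep

/-! ## 2. Kummer representations: Galois action, diamonds, Hecke operators -/

section Semilinear

variable {K F : Type*} [Field K] [Field F] [Algebra K F]

theorem KumRep.semilinear {n : ℤ} {x : Pic0 K F} {f : F} (hx : KumRep n x f)
    (g : SemilinearAut K F) : KumRep n (g • x) (g • f) := by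
  obtain ⟨hf, D, rfl, hD⟩ := hx
  refine ⟨by simpa using hf, SemilinearAut.degZeroSMulHom g D, SemilinearAut.pic0_smul_mk g D,
    fun w => ?_⟩
  rw [SemilinearAut.coe_degZeroSMulHom, SemilinearAut.divisor_smul_apply, hD (g⁻¹ • w)]
  have h := SemilinearAut.ord_smul g (g⁻¹ • w) f
  rw [smul_inv_smul] at h
  exact h.symm

end Semilinear

section JHops

variable {M c ℓ : ℕ} [NeZero M] [NeZero ℓ] {H : Subgroup (ZMod c)ˣ}

theorem KumRep.galois {M c : ℕ} {H : Subgroup (ZMod c)ˣ} {n : ℤ} {x : JH M c H}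
    {f : ↥(FHbar M c H)} (hx : KumRep n x f) (σ : GalQ) :
    KumRep n (σ • x) (arithmeticRingAut (FHQ M c H) σ f) :=
  hx.semilinear (arithmeticGalois (FHQ M c H) σ)

theorem KumRep.diamond {M c : ℕ} {H : Subgroup (ZMod c)ˣ} (dd : DiamondData M c H) {n : ℤ}
    {x : JH M c H} {f : ↥(FHbar M c H)} (hx : KumRep n x f) (d : (ZMod c)ˣ) :
    KumRep n (dd.ρ d • x) (dd.ρ d f) := by
  have := hx.picMap (isCorr_smulD (dd.ρ d))
  rwa [picMap_smulD] at this

theorem KumRep.TH (hd : HeckeData M c ℓ H) {n : ℤ} {x : JH M c H} {f : ↥(FHbar M c H)}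
    (hx : KumRep n x f) : KumRep n (_root_.Fermat.Agent.NEB.JH.TH hd.hβ x) (THfn hd.hβ f) := by
  have := hx.picMap (isCorr_THdiv hd.isFF hd.isFF' hd.hβ)
  rwa [← TH_eq_picMap hd.isFF hd.isFF'] at this

theorem KumRep.UH (hd : HeckeData M c ℓ H) {n : ℤ} {x : JH M c H} {f : ↥(FHbar M c H)}
    (hx : KumRep n x f) : KumRep n (_root_.Fermat.Agent.NEB.JH.UH hd.hβ x) (UHfn hd.hβ f) := by
  have := hx.picMap (isCorr_UHdiv hd.isFF hd.isFF' hd.hβ)
  rwa [← UH_eq_picMap hd.isFF hd.isFF'] at this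

/-- `ρ(d)` commutes with the Kummer function of `T^H`. -/
theorem rho_THfn (hd : HeckeData M c ℓ H) (d : (ZMod c)ˣ) (f : ↥(FHbar M c H)) :
    hd.dd.ρ d (THfn hd.hβ f) = THfn hd.hβ (hd.dd.ρ d f) := by
  show hd.dd.ρ d (normFn (alphaH M c ℓ H) (betaBar hd.hβ f))
    = normFn (alphaH M c ℓ H) (betaBar hd.hβ (hd.dd.ρ d f))
  rw [← hd.betaGal d f]
  exact Fermat.Agent.NEB.H29.normFn_algEquiv (alphaH M c ℓ H) (hd.dd.ρ d) (hd.dd'.ρ d)
    (hd.alphaGal d) _

/-- `ρ(d)` commutes with the Kummer function of `U^H`. -/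
theorem rho_UHfn (hd : HeckeData M c ℓ H) (d : (ZMod c)ˣ) (f : ↥(FHbar M c H)) :
    hd.dd.ρ d (UHfn hd.hβ f) = UHfn hd.hβ (hd.dd.ρ d f) := by
  show hd.dd.ρ d (normFn (betaBar hd.hβ) (alphaH M c ℓ H f))
    = normFn (betaBar hd.hβ) (alphaH M c ℓ H (hd.dd.ρ d f))
  rw [← hd.alphaGal d f]
  exact Fermat.Agent.NEB.H29.normFn_algEquiv (betaBar hd.hβ) (hd.dd.ρ d) (hd.dd'.ρ d)
    (hd.betaGal d) _

end JHops

/-! ## 3. The uniform kernel of reduction -/

section KU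

variable {M c : ℕ} {H : Subgroup (ZMod c)ˣ}

/-- **`K_A`, uniform form**: `x` has a Kummer representation `(p^k, f)` all of whose diamond
conjugates `ρ(d) f` are constants times Gauss units reducing to `1`. -/
def InKU (P : ValuationSubring Kbar) (p : ℕ) (dd : DiamondData M c H) (x : JH M c H) : Prop :=
  ∃ (k : ℕ) (f : ↥(FHbar M c H)), KumRep ((p : ℤ) ^ k) x f ∧
    ∀ d : (ZMod c)ˣ,
      Fermat.Agent.NEB.H70.IsRedOneC P ((dd.ρ d f : ↥(FHbar M c H)) : LaurentSeries Kbar)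

variable {P : ValuationSubring Kbar} {p : ℕ} {dd : DiamondData M c H}

theorem inKU_zero : InKU P p dd (0 : JH M c H) :=
  ⟨0, 1, kumRep_zero _, fun d => by
    rw [map_one]
    exact Fermat.Agent.NEB.H70.isRedOneC_one⟩

theorem InKU.add {x y : JH M c H} (hx : InKU P p dd x) (hy : InKU P p dd y) :
    InKU P p dd (x + y) := by
  obtain ⟨k, f, hf, hfr⟩ := hx
  obtain ⟨k', g, hg, hgr⟩ := hy
  refine ⟨k + k', f ^ (p ^ k') * g ^ (p ^ k), ?_, fun d => ?_⟩
  · have h1 := hf.level (p ^ k')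
    have h2 := hg.level (p ^ k)
    have e1 : ((p : ℤ) ^ k) * ((p ^ k' : ℕ) : ℤ) = (p : ℤ) ^ (k + k') := by
      push_cast
      rw [pow_add]
    have e2 : ((p : ℤ) ^ k') * ((p ^ k : ℕ) : ℤ) = (p : ℤ) ^ (k + k') := by
      push_cast
      rw [pow_add, mul_comm]
    rw [e1] at h1
    rw [e2] at h2
    exact h1.add h2
  · rw [map_mul, map_pow, map_pow]
    exact ((hfr d).pow _).mul ((hgr d).pow _)

theorem InKU.neg {x : JH M c H} (hx : InKU P p dd x) : InKU P p dd (-x) := by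
  obtain ⟨k, f, hf, hfr⟩ := hx
  refine ⟨k, f⁻¹, hf.neg, fun d => ?_⟩
  rw [map_inv₀]
  exact (hfr d).inv

theorem InKU.sub {x y : JH M c H} (hx : InKU P p dd x) (hy : InKU P p dd y) :
    InKU P p dd (x - y) := by
  rw [sub_eq_add_neg]
  exact hx.add hy.neg

theorem InKU.nsmul {x : JH M c H} (hx : InKU P p dd x) (m : ℕ) : InKU P p dd (m • x) := by
  induction m with
  | zero => rw [zero_nsmul]; exact inKU_zero
  | succ m ih => rw [succ_nsmul]; exact ih.add hx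

/-- `InKU` is stable under the diamond operators. -/
theorem InKU.diamond {x : JH M c H} (hx : InKU P p dd x) (e : (ZMod c)ˣ) :
    InKU P p dd (dd.ρ e • x) := by
  obtain ⟨k, f, hf, hfr⟩ := hx
  refine ⟨k, dd.ρ e f, hf.diamond dd e, fun d => ?_⟩
  have : dd.ρ d (dd.ρ e f) = dd.ρ (d * e) f := by rw [map_mul]; rfl
  rw [this]
  exact hfr (d * e)

/-- The uniform kernel is contained in the kernel of reduction. -/
theorem InKU.inK1 {x : JH M c H} (hx : InKU P p dd x) : InK1 P p (FHbar M c H) x := by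
  obtain ⟨k, f, ⟨hf, D, hxD, hD⟩, hfr⟩ := hx
  refine ⟨k, D, f, hf, hxD, hD, ?_⟩
  have := hfr 1
  rwa [map_one] at this

/-- The uniform kernel is contained in `K_A` of `Geom/Defs.lean`. -/
theorem InKU.inKA {x : JH M c H} (hx : InKU P p dd x) : InKA P p dd x :=
  fun d => (hx.diamond d).inK1

/-- The uniform kernel of reduction, as a subgroup. -/
def KU (P : ValuationSubring Kbar) (p : ℕ) (dd : DiamondData M c H) : AddSubgroup (JH M c H) where
  carrier := {x | InKU P p dd x}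
  zero_mem' := inKU_zero
  add_mem' := fun hx hy => hx.add hy
  neg_mem' := fun hx => hx.neg

@[simp]
theorem mem_KU {x : JH M c H} : x ∈ KU P p dd ↔ InKU P p dd x := Iff.rfl

end KU

/-! ## 4. Auxiliary facts -/

section Aux

/-- `ℚ̄` contains a primitive `ℓ`-th root of unity. -/
theorem exists_primRoot_Kbar (ℓ : ℕ) [NeZero ℓ] : ∃ ζ : Kbarˣ, IsPrimitiveRoot ζ ℓ := by
  obtain ⟨z, hz⟩ := HasEnoughRootsOfUnity.exists_primitiveRoot Kbar ℓ
  have hz0 : z ≠ 0 := hz.ne_zero (NeZero.ne ℓ)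
  exact ⟨Units.mk0 z hz0, IsPrimitiveRoot.coe_units_iff.mp (by simpa using hz)⟩

/-- The residue field of a valuation subring over `ℓ` has characteristic `ℓ`. -/
theorem charP_kV_of_liesOverPrime {L : Type} [Field L] (A : ValuationSubring L) {ℓ : ℕ}
    (hℓ : ℓ.Prime) (hA : A.LiesOverPrime ℓ) : CharP (Fermat.Agent.S28.H73.kV A) ℓ := by
  apply (CharP.charP_iff_prime_eq_zero hℓ).2
  have h1 : (((ℓ : ℕ) : A) : L) ∈ A.nonunits := by
    rw [show (((ℓ : ℕ) : A) : L) = (ℓ : L) by simp]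
    exact hA
  obtain ⟨ha, hmem⟩ := (A.mem_nonunits_iff_exists_mem_maximalIdeal).1 h1
  rw [← map_natCast (IsLocalRing.residue A)]
  exact (IsLocalRing.residue_eq_zero_iff _).2 hmem

/-- The class of a prime `ℓ ∤ M` in `(ℤ/c)ˣ`, `c ∣ M`. -/
theorem exists_unit_eq_prime {M c ℓ : ℕ} (hc : c ∣ M) (hℓ : ℓ.Prime) (hℓM : ¬ ℓ ∣ M) :
    ∃ u : (ZMod c)ˣ, (u : ZMod c) = (ℓ : ZMod c) := by
  have hcop : Nat.Coprime ℓ c :=
    (Nat.Prime.coprime_iff_not_dvd hℓ).2 fun h => hℓM (h.trans hc)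
  exact ⟨ZMod.unitOfCoprime ℓ hcop, ZMod.coe_unitOfCoprime ℓ hcop⟩

variable {C : Type} [Field C] {O : ValuationSubring C}

/-- `IsRedOneC` is stable under automorphisms of the coefficients preserving `O`. -/
theorem isRedOneC_cMap (s : C ≃+* C) (hs : ∀ a : C, s a ∈ O ↔ a ∈ O) {x : LaurentSeries C}
    (hx : Fermat.Agent.NEB.H70.IsRedOneC O x) :
    Fermat.Agent.NEB.H70.IsRedOneC O (coeffMap (s : C →+* C) x) := by
  obtain ⟨c, hc, h⟩ := hx
  have h1 := h.cMap s hs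
  rw [map_mul, Fermat.Agent.NEB.H70.coeffMap_C', map_one] at h1
  exact ⟨(s : C →+* C) c, (map_ne_zero (s : C →+* C)).2 hc, h1⟩

end Aux

/-! ## 5. Stability of the uniform kernel (CL-GAL, CL-T, CL-U) -/

section Stab

variable {M c ℓ : ℕ} [NeZero M] [NeZero ℓ] {H : Subgroup (ZMod c)ˣ}
variable {P : ValuationSubring Kbar} {p : ℕ}

/-- Every nonzero element of `F_H` is scalable. -/
theorem scalable_FHbar (P : ValuationSubring Kbar) {M c : ℕ} {H : Subgroup (ZMod c)ˣ}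
    {f : ↥(FHbar M c H)} (hf : f ≠ 0) :
    Fermat.Agent.NEB.H70.Scalable P (f : LaurentSeries Kbar) :=
  Fermat.Agent.NEB.H94.hasScale_FHbar P M c H (f : LaurentSeries Kbar) f.2
    (fun h0 => hf (Subtype.ext h0))

/-- **CL-GAL** (uniform): `InKU` is stable under the decomposition group of `P`. -/
theorem InKU.galois {M c : ℕ} {H : Subgroup (ZMod c)ˣ} {dd : DiamondData M c H} {x : JH M c H}
    (hx : InKU P p dd x) {σ : GalQ} (hσ : σ ∈ P.decompositionSubgroup ℚ) :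
    InKU P p dd (σ • x) := by
  obtain ⟨k, f, hf, hfr⟩ := hx
  refine ⟨k, arithmeticRingAut (FHQ M c H) σ f, hf.galois σ, fun d => ?_⟩
  rw [dd.gal d σ f, coe_arithmeticRingAut_apply]
  exact isRedOneC_cMap σ.toRingEquiv
    (Fermat.Agent.RED.H33.mem_iff_of_mem_decompositionSubgroup P hσ) (hfr d)

/-- **CL-T** (uniform): `InKU` is stable under `T_ℓ^H`, `ℓ ∤ M` prime. -/
theorem InKU.TH (hd : HeckeData M c ℓ H) (hc2 : 2 ≤ c) (hc : c ∣ M) (hℓ : ℓ.Prime)
    (hℓM : ¬ ℓ ∣ M) {x : JH M c H} (hx : InKU P p hd.dd x) :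
    InKU P p hd.dd (JH.TH hd.hβ x) := by
  obtain ⟨k, f, hf, hfr⟩ := hx
  obtain ⟨u, hu⟩ := exists_unit_eq_prime hc hℓ hℓM
  obtain ⟨ζ, hζ⟩ := exists_primRoot_Kbar ℓ
  refine ⟨k, THfn hd.hβ f, hf.TH hd, fun d => ?_⟩
  rw [rho_THfn, Fermat.Agent.NEB.H70.coe_THfn hd hc2 hc hℓ hℓM u hu]
  have e : hd.dd.ρ u (hd.dd.ρ d f) = hd.dd.ρ (u * d) f := by rw [map_mul]; rfl
  rw [e]
  exact Fermat.Agent.NEB.H70.IsRedOneC.twNorm hζ (hfr d) (hfr (u * d))

/-- **CL-U** (uniform), `ℓ ∤ M`: `InKU` is stable under `U_ℓ^H = ⟨ℓ⟩⁻¹ T_ℓ^H`. -/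
theorem InKU.UH_of_not_dvd (hd : HeckeData M c ℓ H) (hc2 : 2 ≤ c) (hc : c ∣ M) (hℓ : ℓ.Prime)
    (hℓM : ¬ ℓ ∣ M) {x : JH M c H} (hx : InKU P p hd.dd x) :
    InKU P p hd.dd (JH.UH hd.hβ x) := by
  obtain ⟨k, f, hf, hfr⟩ := hx
  obtain ⟨u, hu⟩ := exists_unit_eq_prime hc hℓ hℓM
  obtain ⟨ζ, hζ⟩ := exists_primRoot_Kbar ℓ
  refine ⟨k, UHfn hd.hβ f, hf.UH hd, fun d => ?_⟩
  rw [rho_UHfn, Fermat.Agent.NEB.H70.coe_UHfn hd hc2 hc hℓ hℓM u hu]
  have e : hd.dd.ρ u⁻¹ (hd.dd.ρ d f) = hd.dd.ρ (u⁻¹ * d) f := by rw [map_mul]; rfl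
  rw [e]
  exact Fermat.Agent.NEB.H70.IsRedOneC.twNorm hζ (hfr (u⁻¹ * d)) (hfr d)

/-- **CL-U** (uniform), degree form: if `[F_H(Mℓ) : β F_H(M)] = ℓ` (true for `ℓ ∣ M`), then
`InKU` is stable under `U_ℓ^H`. -/
theorem InKU.UH_of_finrank (hd : HeckeData M c ℓ H)
    (hdeg : finrankAlong Kbar (betaBar hd.hβ) = ℓ) {x : JH M c H} (hx : InKU P p hd.dd x) :
    InKU P p hd.dd (JH.UH hd.hβ x) := by
  obtain ⟨k, f, hf, hfr⟩ := hx
  obtain ⟨ζ, hζ⟩ := exists_primRoot_Kbar ℓ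
  refine ⟨k, UHfn hd.hβ f, hf.UH hd, fun d => ?_⟩
  rw [rho_UHfn, Fermat.Agent.NEB.H70.coe_UHfn_of_finrank hd hdeg]
  exact Fermat.Agent.NEB.H70.IsRedOneC.uSeries hζ (hfr d)

end Stab

/-! ## 6. The producers: CL-INERTIA, CL-ES, CL-UF -/

section Prod

variable {M c ℓ : ℕ} [NeZero M] [NeZero ℓ] {H : Subgroup (ZMod c)ˣ}
variable {P : ValuationSubring Kbar} {p : ℕ}

/-- A `p`-power torsion class has a Kummer representation of level `p^k`. -/
theorem exists_kumRep_of_isPTors {M c : ℕ} {H : Subgroup (ZMod c)ˣ} {x : JH M c H}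
    (hx : IsPTors p x) : ∃ (k : ℕ) (f : ↥(FHbar M c H)), KumRep ((p : ℤ) ^ k) x f := by
  obtain ⟨k, hk⟩ := hx
  have h : ((p : ℤ) ^ k) • x = 0 := by
    have e : ((p : ℤ) ^ k) = ((p ^ k : ℕ) : ℤ) := by push_cast; rfl
    rw [e, natCast_zsmul]
    exact hk
  obtain ⟨f, hf⟩ := exists_kumRep h
  exact ⟨k, f, hf⟩

/-- **CL-INERTIA** (uniform): `(σ - 1) J_H[p^∞] ⊆ K_A` for `σ` in the inertia group of `P`. -/
theorem inKU_inertia {M c : ℕ} {H : Subgroup (ZMod c)ˣ} (dd : DiamondData M c H) {σ : GalQ}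
    (hσ : σ ∈ P.inertiaSubgroupIn ℚ) {x : JH M c H} (hx : IsPTors p x) :
    InKU P p dd (σ • x - x) := by
  obtain ⟨k, f, hf⟩ := exists_kumRep_of_isPTors hx
  refine ⟨k, arithmeticRingAut (FHQ M c H) σ f * f⁻¹, (hf.galois σ).sub hf, fun d => ?_⟩
  rw [map_mul, map_inv₀, dd.gal d σ f]
  have hne : dd.ρ d f ≠ 0 := (map_ne_zero _).2 hf.ne_zero
  exact Fermat.Agent.NEB.H70.isRedOneC_inertia
    (Fermat.Agent.BAD.H91.inertialOn_of_mem_inertia P hσ) (scalable_FHbar P hne)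

/-- **CL-ES** (uniform; Eichler–Shimura): for a Frobenius `φ` at `P ∣ ℓ`, `ℓ ∤ M`, and `u` the
class of `ℓ`:  `(⟨ℓ⟩ φ² - T_ℓ^H φ + ℓ) J_H[p^∞] ⊆ K_A`. -/
theorem inKU_ES (hd : HeckeData M c ℓ H) (hc2 : 2 ≤ c) (hc : c ∣ M) (hℓ : ℓ.Prime)
    (hℓM : ¬ ℓ ∣ M) (u : (ZMod c)ˣ) (hu : (u : ZMod c) = (ℓ : ZMod c))
    (hP : P.LiesOverPrime ℓ) {φ : GalQ} (hφ : P.IsFrobeniusAt φ ℓ) {x : JH M c H}
    (hx : IsPTors p x) :
    InKU P p hd.dd (hd.dd.ρ u • (φ • φ • x) - JH.TH hd.hβ (φ • x) + ℓ • x) := by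
  obtain ⟨k, f, hf⟩ := exists_kumRep_of_isPTors hx
  obtain ⟨ζ, hζ⟩ := exists_primRoot_Kbar ℓ
  have : Fact ℓ.Prime := ⟨hℓ⟩
  have : CharP (Fermat.Agent.S28.H73.kV P) ℓ := charP_kV_of_liesOverPrime P hℓ hP
  set F₀ := FHQ M c H with hF₀
  refine ⟨k, hd.dd.ρ u (arithmeticRingAut F₀ φ (arithmeticRingAut F₀ φ f))
      * (THfn hd.hβ (arithmeticRingAut F₀ φ f))⁻¹ * f ^ ℓ,
    ((((hf.galois φ).galois φ).diamond hd.dd u).sub ((hf.galois φ).TH hd)).add (hf.nsmul ℓ),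
    fun d => ?_⟩
  have hne : ∀ e : (ZMod c)ˣ, hd.dd.ρ e f ≠ 0 := fun e => (map_ne_zero _).2 hf.ne_zero
  have key := Fermat.Agent.NEB.H70.isRedOneC_ES hζ φ.toRingEquiv
    (Fermat.Agent.RED.H33.mem_iff_of_mem_decompositionSubgroup P hφ.mem_decompositionSubgroup)
    (fun a => Fermat.Agent.RED.H33.autkHom_frobenius P hφ a)
    (scalable_FHbar P (hne d)) (scalable_FHbar P (hne (u * d)))
  have e1 : hd.dd.ρ d (hd.dd.ρ u (arithmeticRingAut F₀ φ (arithmeticRingAut F₀ φ f)))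
      = arithmeticRingAut F₀ φ (arithmeticRingAut F₀ φ (hd.dd.ρ (u * d) f)) := by
    rw [hd.dd.gal u φ, hd.dd.gal u φ, hd.dd.gal d φ, hd.dd.gal d φ]
    have : hd.dd.ρ d (hd.dd.ρ u f) = hd.dd.ρ (u * d) f := by
      rw [mul_comm, map_mul]; rfl
    rw [this]
  have e2 : hd.dd.ρ u (arithmeticRingAut F₀ φ (hd.dd.ρ d f))
      = arithmeticRingAut F₀ φ (hd.dd.ρ (u * d) f) := by
    rw [hd.dd.gal u φ]
    have : hd.dd.ρ u (hd.dd.ρ d f) = hd.dd.ρ (u * d) f := by rw [map_mul]; rfl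
    rw [this]
  rw [map_mul, map_mul, map_inv₀, map_pow, e1, rho_THfn, hd.dd.gal d φ f]
  show Fermat.Agent.NEB.H70.IsRedOneC P
    (((arithmeticRingAut F₀ φ (arithmeticRingAut F₀ φ (hd.dd.ρ (u * d) f)) : ↥(FHbar M c H)) :
        LaurentSeries Kbar)
      * ((THfn hd.hβ (arithmeticRingAut F₀ φ (hd.dd.ρ d f)) : ↥(FHbar M c H)) :
        LaurentSeries Kbar)⁻¹
      * ((hd.dd.ρ d f : ↥(FHbar M c H)) : LaurentSeries Kbar) ^ ℓ)
  rw [Fermat.Agent.NEB.H70.coe_THfn hd hc2 hc hℓ hℓM u hu, e2]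
  exact key

/-- **CL-UF** (uniform), degree form: for a Frobenius `φ` at `P ∣ q`, if
`[F_H(Mq) : β F_H(M)] = q` (true for `q ∣ M`): `(U_q^H - φ) J_H[p^∞] ⊆ K_A`. -/
theorem inKU_UF_of_finrank (hd : HeckeData M c ℓ H)
    (hdeg : finrankAlong Kbar (betaBar hd.hβ) = ℓ) (hℓ : ℓ.Prime)
    (hP : P.LiesOverPrime ℓ) {φ : GalQ} (hφ : P.IsFrobeniusAt φ ℓ) {x : JH M c H}
    (hx : IsPTors p x) :
    InKU P p hd.dd (JH.UH hd.hβ x - φ • x) := by
  obtain ⟨k, f, hf⟩ := exists_kumRep_of_isPTors hx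
  obtain ⟨ζ, hζ⟩ := exists_primRoot_Kbar ℓ
  have : Fact ℓ.Prime := ⟨hℓ⟩
  have : CharP (Fermat.Agent.S28.H73.kV P) ℓ := charP_kV_of_liesOverPrime P hℓ hP
  set F₀ := FHQ M c H with hF₀
  refine ⟨k, UHfn hd.hβ f * (arithmeticRingAut F₀ φ f)⁻¹, (hf.UH hd).sub (hf.galois φ),
    fun d => ?_⟩
  have hne : hd.dd.ρ d f ≠ 0 := (map_ne_zero _).2 hf.ne_zero
  have key := Fermat.Agent.NEB.H70.isRedOneC_U hζ φ.toRingEquiv
    (Fermat.Agent.RED.H33.mem_iff_of_mem_decompositionSubgroup P hφ.mem_decompositionSubgroup)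
    (fun a => Fermat.Agent.RED.H33.autkHom_frobenius P hφ a)
    (scalable_FHbar P hne)
  rw [map_mul, map_inv₀, rho_UHfn, hd.dd.gal d φ f]
  show Fermat.Agent.NEB.H70.IsRedOneC P
    (((UHfn hd.hβ (hd.dd.ρ d f) : ↥(FHbar M c H)) : LaurentSeries Kbar)
      * ((arithmeticRingAut F₀ φ (hd.dd.ρ d f) : ↥(FHbar M c H)) : LaurentSeries Kbar)⁻¹)
  rw [Fermat.Agent.NEB.H70.coe_UHfn_of_finrank hd hdeg]
  exact key

end Prod

/-! ## 7. The statements of `Geom/Defs.lean` -/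

section Stmts

variable (M c : ℕ) (H : Subgroup (ZMod c)ˣ) (p : ℕ)

/-- **CL-INERTIA** as stated in `Geom/Defs.lean`. -/
theorem stmt_CL_inertia : Stmt_CL_inertia M c H p :=
  fun dd _ _ _ _ _ hσ _ hx => (inKU_inertia dd hσ hx).inKA

/-- **CL-ES** as stated in `Geom/Defs.lean` (for `2 ≤ c ∣ M`). -/
theorem stmt_CL_ES (hc2 : 2 ≤ c) (hc : c ∣ M) : Stmt_CL_ES M c H p :=
  fun _ _ _ hℓ hℓM _ u hu hd _ hP _ hφ _ hx =>
    (inKU_ES hd hc2 hc hℓ hℓM u hu hP hφ hx).inKA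

end Stmts

end Fermat.Agent.NEB.Geom.H70

end
end
-- ==== END Fermat.Agent.NEB.Geom.H70_KU

-- ==== BEGIN Fermat.Agent.S48.B2.H55_AsmGL
section

/-!
# S48, B2 assembly, part 3 (helper55): from endomorphisms of a finite dimensional space to `GL`

* `toGL bV R`: the matrices of a representation `R : G →* End k V` in a basis;
  `toGL_eq_one`, `toGL_quadratic`.
* `unitPow`, `charUnit`: the values of a Dirichlet character at units as units of `ℤ̄`.
-/

set_option autoImplicit false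

noncomputable section

namespace Fermat.Agent.S48.B2.H55

open Module
open scoped MatrixGroups

section ToGLSec

variable {k : Type} [Field k] {G : Type*} [Group G] {V : Type*} [AddCommGroup V] [Module k V]
  {n : ℕ}

/-- The matrices of a representation in a basis. -/
def toGL (bV : Basis (Fin n) k V) (R : G →* Module.End k V) : G →* GL (Fin n) k :=
  (((LinearMap.toMatrixAlgEquiv bV : Module.End k V ≃ₐ[k] Matrix (Fin n) (Fin n) k) :
    Module.End k V →* Matrix (Fin n) (Fin n) k).comp R).toHomUnits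

theorem toGL_coe (bV : Basis (Fin n) k V) (R : G →* Module.End k V) (σ : G) :
    ((toGL bV R σ : GL (Fin n) k) : Matrix (Fin n) (Fin n) k) =
      LinearMap.toMatrixAlgEquiv bV (R σ) := rfl

theorem toGL_eq_one (bV : Basis (Fin n) k V) (R : G →* Module.End k V) (σ : G)
    (h : R σ = 1) : toGL bV R σ = 1 := by
  apply Units.ext
  rw [toGL_coe, h, map_one]
  rfl

theorem toGL_quadratic (bV : Basis (Fin n) k V) (R : G →* Module.End k V) (σ : G) (β γ : k)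
    (h : R σ * R σ - β • R σ + γ • (1 : Module.End k V) = 0) :
    ((toGL bV R σ : GL (Fin n) k) : Matrix (Fin n) (Fin n) k) *
        ((toGL bV R σ : GL (Fin n) k) : Matrix (Fin n) (Fin n) k) -
      β • ((toGL bV R σ : GL (Fin n) k) : Matrix (Fin n) (Fin n) k) +
      γ • (1 : Matrix (Fin n) (Fin n) k) = 0 := by
  have h1 := congrArg (LinearMap.toMatrixAlgEquiv bV) h
  rw [map_add, map_sub, map_mul, map_smul, map_smul, map_one, map_zero] at h1
  rw [toGL_coe]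
  exact h1

end ToGLSec

section CharUnit

/-- A unit of `ℤ̄` from a complex number which is integral together with its inverse. -/
def intUnit (x : ℂ) (hx : IsIntegral ℤ x) (hx' : IsIntegral ℤ x⁻¹) (h0 : x ≠ 0) :
    (integralClosure ℤ ℂ)ˣ where
  val := ⟨x, hx⟩
  inv := ⟨x⁻¹, hx'⟩
  val_inv := Subtype.ext (mul_inv_cancel₀ h0)
  inv_val := Subtype.ext (inv_mul_cancel₀ h0)

theorem coe_intUnit (x : ℂ) (hx : IsIntegral ℤ x) (hx' : IsIntegral ℤ x⁻¹) (h0 : x ≠ 0) :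
    (((intUnit x hx hx' h0 : (integralClosure ℤ ℂ)ˣ) : integralClosure ℤ ℂ) : ℂ) = x := rfl

/-- Integer powers of units of `ℤ̄`, in `ℂ`. -/
theorem coe_unit_zpow (u : (integralClosure ℤ ℂ)ˣ) (s : ℤ) :
    (((u ^ s : (integralClosure ℤ ℂ)ˣ) : integralClosure ℤ ℂ) : ℂ) =
      (((u : integralClosure ℤ ℂ) : ℂ)) ^ s := by
  have h := map_zpow (Units.map ((integralClosure ℤ ℂ).val : integralClosure ℤ ℂ →* ℂ)) u s
  have h2 := congrArg (fun v : ℂˣ => (v : ℂ)) h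
  simp only [Units.coe_map, Units.val_zpow_eq_zpow_val] at h2
  exact h2

/-- Integer powers of units of `ℤ̄`, under a ring homomorphism. -/
theorem map_unit_zpow {k : Type} [Field k] (φ : integralClosure ℤ ℂ →+* k)
    (u : (integralClosure ℤ ℂ)ˣ) (s : ℤ) :
    φ ((u ^ s : (integralClosure ℤ ℂ)ˣ) : integralClosure ℤ ℂ) =
      (φ (u : integralClosure ℤ ℂ)) ^ s := by
  have h := map_zpow (Units.map (φ : integralClosure ℤ ℂ →* k)) u s
  have h2 := congrArg (fun v : kˣ => (v : k)) h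
  simp only [Units.coe_map, Units.val_zpow_eq_zpow_val] at h2
  exact h2

end CharUnit

end Fermat.Agent.S48.B2.H55

end
end
-- ==== END Fermat.Agent.S48.B2.H55_AsmGL

-- ==== BEGIN Fermat.Agent.S48.B2.R.H25_IrrAsm
section

set_option autoImplicit false
set_option linter.unusedSectionVars false
set_option linter.style.haveILetI false
set_option linter.unusedVariables false

noncomputable section

open ModularCurve AlgebraicCurve Fermat.Agent.S28 Fermat.Agent.S28.H73 Fermat.Agent.RED.H73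
  Fermat.Agent.GTor
open Fermat.Agent.NEB Fermat.Agent.NEB.JH Fermat.Agent.NEB.H70

namespace Fermat.Agent.S48.B2.R.H25

/-- **R-IRR**: the Gauss valuation ring of `F_H(M)` at `A | p`, `p ∤ M`, is stable under the
diamond operators. -/
def Stmt_RIRR : Prop :=
  ∀ (M c : ℕ) [NeZero M] (H : Subgroup (ZMod c)ˣ), 2 ≤ c → c ∣ M →
    ∀ p : ℕ, p.Prime → ¬ p ∣ M → ∀ A : ValuationSubring Kbar, A.LiesOverPrime p →
      ∀ (dd : DiamondData M c H) (d : (ZMod c)ˣ) (x : ↥(FHbar M c H)),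
        x ∈ gaussValSub A (FHbar M c H) (Fermat.Agent.NEB.H94.hasScale_FHbar A M c H) →
        dd.ρ d x ∈ gaussValSub A (FHbar M c H) (Fermat.Agent.NEB.H94.hasScale_FHbar A M c H)

/-- The `q¹`-coefficient. -/
def coeffOne (k : Type) [Field k] : LaurentSeries k →+ k where
  toFun y := y.coeff 1
  map_zero' := by simp
  map_add' _ _ := by simp

@[simp] theorem coeffOne_apply {k : Type} [Field k] (y : LaurentSeries k) :
    coeffOne k y = y.coeff 1 := rfl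

/-- `ℚ̄` contains a primitive `r`-th root of unity (as a unit). -/
theorem exists_primRootUnit_Kbar {r : ℕ} (hr0 : r ≠ 0) : ∃ ζ : Kbarˣ, IsPrimitiveRoot ζ r := by
  haveI : NeZero (r : ℚ) := ⟨by exact_mod_cast hr0⟩
  haveI : HasEnoughRootsOfUnity (AlgebraicClosure ℚ) r :=
    AlgebraicClosure.hasEnoughRootsOfUnity ℚ r
  obtain ⟨z, hz⟩ := HasEnoughRootsOfUnity.exists_primitiveRoot (AlgebraicClosure ℚ) r
  have hz0 : z ≠ 0 := hz.ne_zero hr0
  exact ⟨Units.mk0 z hz0, IsPrimitiveRoot.coe_units_iff.mp (by simpa using hz)⟩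

set_option maxHeartbeats 1000000 in
set_option synthInstance.maxHeartbeats 200000 in
/-- **The IRR assembly**: IRR-3 implies R-IRR. -/
theorem stmt_RIRR_of (h3 : Fermat.Agent.S48.B2.R.H96.Stmt_Irr3) : Stmt_RIRR := by
  classical
  intro M c _ H hc2 hc p hp hpM A hA dd d₀ x hx
  haveI : NeZero c := ⟨by omega⟩
  -- Dirichlet: a prime `r ∤ pM` in the class of `d₀`
  obtain ⟨r, hrgt, hr, hrd⟩ := Nat.forall_exists_prime_gt_and_eq_mod (q := c)
    (a := ((d₀ : (ZMod c)ˣ) : ZMod c)) d₀.isUnit (p * M)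
  haveI : NeZero r := ⟨hr.ne_zero⟩
  have hM0 : 0 < M := Nat.pos_of_ne_zero (NeZero.ne M)
  have hrpM : ¬ r ∣ p * M := fun h =>
    absurd (Nat.le_of_dvd (Nat.mul_pos hp.pos hM0) h) (not_le.2 hrgt)
  have hrM : ¬ r ∣ M := fun h => hrpM (Dvd.dvd.mul_left h p)
  let hd : HeckeData M c r H := heckeData M c r H hc2 hc
  set hL := Fermat.Agent.NEB.H94.hasScale_FHbar A M c H with hhL
  set V := gaussValSub A (FHbar M c H) hL with hV
  have harch : ∀ x y : ↥(FHbar M c H), V.valuation x < 1 → y ≠ 0 →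
      ∃ N : ℕ, V.valuation x ^ N < V.valuation y := by
    intro x y hx hy
    obtain ⟨n, hn⟩ := Fermat.Agent.NEB.H84.isArch_gaussValSub A hL hp hA x y hx hy
    exact ⟨n, by rwa [map_pow] at hn⟩
  obtain ⟨ζ, hζ⟩ := exists_primRootUnit_Kbar hr.ne_zero
  have hRedV : ∀ (x : ↥(FHbar M c H)) (y : LaurentSeries (kV A)),
      RedTo A (x : LaurentSeries Kbar) y → V.valuation x ≤ 1 := by
    intro x y h
    rw [V.valuation_le_one_iff]
    exact h.mem
  have hRedlt : ∀ x : ↥(FHbar M c H), V.valuation x < 1 →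
      RedTo A (x : LaurentSeries Kbar) 0 := by
    intro x hlt
    have h1 : x ∈ V := (V.valuation_le_one_iff _).mp hlt.le
    have h2 : (⟨x, h1⟩ : ↥V) ∈ IsLocalRing.maximalIdeal ↥V :=
      (V.valuation_lt_one_iff _).mpr hlt
    rw [← gaussResF_eq_zero_iff A hL] at h2
    exact ⟨h1, h2⟩
  have hTred : ∀ (f : ↥(FHbar M c H)) (y y' : LaurentSeries (kV A)),
      RedTo A (f : LaurentSeries Kbar) y →
      RedTo A ((hd.dd.ρ d₀ f : ↥(FHbar M c H)) : LaurentSeries Kbar) y' →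
      RedTo A ((Fermat.Agent.S48.B2.R.H31.traceT hd.hβ f : ↥(FHbar M c H)) : LaurentSeries Kbar)
        (qExpand (kV A) r y + (r : kV A) • H44.descend r y') := by
    intro f y y' h h'
    rw [Fermat.Agent.S48.B2.R.H31.coe_traceT hd hc2 hc hr hrM d₀ hrd.symm f]
    exact redTo_add (h.qExp r) (redTo_smul_descend hζ h')
  have hirr3 : ∀ (t t' : ↥(modularFunctionFieldBar M)) (y : LaurentSeries (kV A)),
      RedTo A ((inclBar M c H t : ↥(FHbar M c H)) : LaurentSeries Kbar) y →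
      RedTo A ((inclBar M c H t' : ↥(FHbar M c H)) : LaurentSeries Kbar) (qExpand (kV A) r y) →
      coeffOne (kV A) y = 0 := by
    intro t t' y h1 h2
    rw [coe_inclBar] at h1 h2
    have m1 := mem_redField_of_redTo (hasScale_laurentBaseChange A M) t.2 h1
    have m2 := mem_redField_of_redTo (hasScale_laurentBaseChange A M) t'.2 h2
    obtain ⟨a, rfl⟩ := h3 M p r hp hr hpM hrpM A hA y m1 m2
    simp
  have he : ∀ d : (ZMod c)ˣ, ∃ y : LaurentSeries (kV A),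
      RedTo A ((hd.dd.ρ d (genBar M c H 1) : ↥(FHbar M c H)) : LaurentSeries Kbar) y ∧
      coeffOne (kV A) y = if hd.dd.ρ d = 1 then 1 else 0 := by
    intro d
    rw [hd.dd.gen d 1, one_mul]
    obtain ⟨y, hy, hc1⟩ := redTo_genBar A M c H d
    refine ⟨y, hy, ?_⟩
    rw [coeffOne_apply, hc1]
    by_cases h : d ∈ H ∨ -d ∈ H
    · rw [if_pos h, if_pos ((hd.dd.ker d).2 h)]
    · rw [if_neg h, if_neg (fun h' => h ((hd.dd.ker d).1 h'))]
  have key := irr_core (inclBar M c H) hd.dd.ρ hd.dd.fix hd.dd.fixed V harch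
    (R := LaurentSeries (kV A)) (κ := kV A)
    (fun x y => RedTo A (x : LaurentSeries Kbar) y) hRedV hRedlt
    (fun x x' y y' h h' => redTo_add h h')
    (fun x x' y y' h h' => redTo_sub h h')
    (coeffOne (kV A))
    ((qExpand (kV A) r : LaurentSeries (kV A) →+* LaurentSeries (kV A)) :
      LaurentSeries (kV A) →+ LaurentSeries (kV A))
    (fun y => (r : kV A) • H44.descend r y)
    (fun f => Fermat.Agent.S48.B2.R.H31.traceT hd.hβ f) d₀
    (fun d f => Fermat.Agent.S48.B2.R.H31.traceT_rho hd d f)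
    (fun t => by
      obtain ⟨t', ht'⟩ := Fermat.Agent.S48.B2.R.H31.traceT_incl hd t
      exact ⟨t', ht'.symm⟩)
    hTred hirr3 (genBar M c H 1) he
  have hfin := key x ((V.valuation_le_one_iff x).2 hx)
  rw [diamondData_rho_eq dd hd.dd d₀ x]
  exact (V.valuation_le_one_iff _).1 hfin

/-- **R-IRR**, unconditionally. -/
theorem stmt_RIRR : Stmt_RIRR := stmt_RIRR_of Fermat.Agent.S48.B2.R.H96.stmt_Irr3

end Fermat.Agent.S48.B2.R.H25

end
end
-- ==== END Fermat.Agent.S48.B2.R.H25_IrrAsm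

-- ==== BEGIN Fermat.Agent.S48.B2.T.H22_EisTw
section

/-!
# S48 B2, slice T, leaf E-EIS (helper22): twisted Eisenstein series for a character of `Γ₁(M)`

Generic part: for a subgroup `Γ ≤ SL(2, ℤ)` containing `T` and a unitary character `χ : Γ → ℂˣ`
trivial on the upper triangular elements of `Γ`, the series
`gEis Γ χ k z = ∑ χ(γ)⁻¹ (c z + d)^(-k)` (sum over the bottom rows `(c, d)` of `Γ`), `k ≥ 4` even,
is holomorphic, bounded at all cusps, satisfies `gEis ∣[k] γ = χ(γ) • gEis` for `γ ∈ Γ` and tends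
to `1` or `2` at `i∞` (port of `Lib/TwistedEisensteinChar.lean`, helper96, from `Γ₀(N)` to `Γ`).

`stmt_EisTw : Stmt_EisTw`.
-/

set_option autoImplicit false

open UpperHalfPlane ModularForm EisensteinSeries Matrix Filter Topology Complex Set
open scoped MatrixGroups Manifold

noncomputable section

namespace Fermat.Agent.S48.B2.T.H22

open Fermat.Agent.Lib.TwistedEisenstein

section Generic

variable (Γ : Subgroup SL(2, ℤ)) (χ : ↥Γ →* ℂˣ)

/-- The weight function: `χ(γ)⁻¹` on the bottom row of `γ ∈ Γ`, zero elsewhere. -/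
def gWeight (v : Fin 2 → ℤ) : ℂ := by
  classical
  exact if h : ∃ γ : ↥Γ, bottomRow (γ : SL(2, ℤ)) = v
    then (((χ h.choose)⁻¹ : ℂˣ) : ℂ) else 0

/-- `χ` is trivial on the upper triangular elements of `Γ`. -/
def GTriv : Prop :=
  ∀ γ : ↥Γ, ((γ : SL(2, ℤ)) : Matrix (Fin 2) (Fin 2) ℤ) 1 0 = 0 → χ γ = 1

/-- `χ` is unitary. -/
def GUnitary : Prop := ∀ γ : ↥Γ, ‖((χ γ : ℂˣ) : ℂ)‖ = 1

variable {Γ χ}

theorem chi_eq_of_bottomRow_eq' (htri : GTriv Γ χ) {γ δ : ↥Γ}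
    (h : bottomRow (γ : SL(2, ℤ)) = bottomRow (δ : SL(2, ℤ))) : χ γ = χ δ := by
  have h1 : χ (γ * δ⁻¹) = 1 := htri _ (by
    have := mul_inv_lower_left_eq_zero h
    simpa using this)
  rw [map_mul, map_inv, mul_inv_eq_one] at h1
  exact h1

theorem gWeight_bottomRow (htri : GTriv Γ χ) (γ : ↥Γ) :
    gWeight Γ χ (bottomRow (γ : SL(2, ℤ))) = (((χ γ)⁻¹ : ℂˣ) : ℂ) := by
  classical
  have h : ∃ δ : ↥Γ, bottomRow (δ : SL(2, ℤ)) = bottomRow (γ : SL(2, ℤ)) := ⟨γ, rfl⟩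
  unfold gWeight
  rw [dif_pos h, chi_eq_of_bottomRow_eq' htri h.choose_spec]

theorem gWeight_of_not (v : Fin 2 → ℤ) (h : ¬ ∃ γ : ↥Γ, bottomRow (γ : SL(2, ℤ)) = v) :
    gWeight Γ χ v = 0 := by
  classical
  unfold gWeight
  rw [dif_neg h]

theorem norm_gWeight_le (hu : GUnitary Γ χ) (v : Fin 2 → ℤ) : ‖gWeight Γ χ v‖ ≤ 1 := by
  classical
  unfold gWeight
  split_ifs with h
  · rw [Units.val_inv_eq_inv_val, norm_inv, hu, inv_one]
  · simp

/-- **Transformation of the weight** under `γ ∈ Γ`. -/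
theorem wSlash_gWeight (htri : GTriv Γ χ) (γ : ↥Γ) :
    wSlash (gWeight Γ χ) (γ : SL(2, ℤ)) = fun v => ((χ γ : ℂˣ) : ℂ) * gWeight Γ χ v := by
  funext v
  rw [wSlash_apply]
  by_cases h : ∃ δ : ↥Γ, bottomRow (δ : SL(2, ℤ)) = v
  · obtain ⟨δ, rfl⟩ := h
    have h1 : bottomRow (δ : SL(2, ℤ)) ᵥ* (((γ : SL(2, ℤ))⁻¹ : SL(2, ℤ)) :
        Matrix (Fin 2) (Fin 2) ℤ) = bottomRow ((δ * γ⁻¹ : ↥Γ) : SL(2, ℤ)) := by
      rw [Subgroup.coe_mul, Subgroup.coe_inv, bottomRow_mul]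
    rw [h1, gWeight_bottomRow htri, gWeight_bottomRow htri, map_mul, map_inv]
    push_cast
    rw [mul_inv, inv_inv, mul_comm]
  · have h' : ¬ ∃ δ : ↥Γ, bottomRow (δ : SL(2, ℤ)) =
        v ᵥ* (((γ : SL(2, ℤ))⁻¹ : SL(2, ℤ)) : Matrix (Fin 2) (Fin 2) ℤ) := by
      rintro ⟨δ, hδ⟩
      refine h ⟨δ * γ, ?_⟩
      rw [Subgroup.coe_mul, bottomRow_mul, hδ, vecMul_inv_vecMul]
    rw [gWeight_of_not _ h, gWeight_of_not _ h', mul_zero]

theorem tInvariant_gWeight (hT : ModularGroup.T ∈ Γ) (htri : GTriv Γ χ) :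
    TInvariant (gWeight Γ χ) := by
  intro v
  have hT' : ModularGroup.T⁻¹ ∈ Γ := inv_mem hT
  have h1 := congrFun (wSlash_gWeight htri ⟨ModularGroup.T⁻¹, hT'⟩) v
  rw [wSlash_apply] at h1
  have h2 : χ ⟨ModularGroup.T⁻¹, hT'⟩ = 1 := htri _ (by
    show ((ModularGroup.T⁻¹ : SL(2, ℤ)) : Matrix (Fin 2) (Fin 2) ℤ) 1 0 = 0
    rw [Matrix.SpecialLinearGroup.coe_inv, Matrix.adjugate_fin_two]
    simp [ModularGroup.T])
  rw [h2] at h1
  simp only [inv_inv, Units.val_one, one_mul] at h1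
  exact h1

variable (Γ χ)

/-- **The twisted Eisenstein series** of weight `k` for the character `χ` of `Γ`. -/
def gEis (k : ℤ) : ℍ → ℂ := fun z => wEis k (gWeight Γ χ) z

variable {Γ χ} {k : ℤ}

theorem gEis_mdifferentiable (hk : 3 ≤ k) (hu : GUnitary Γ χ) :
    MDifferentiable 𝓘(ℂ) 𝓘(ℂ) (gEis Γ χ k) :=
  wEis_mdifferentiable hk (norm_gWeight_le hu)

/-- The transformation law: `gEis ∣[k] γ = χ γ • gEis` for `γ ∈ Γ`. -/
theorem gEis_slash (htri : GTriv Γ χ) (γ : ↥Γ) :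
    gEis Γ χ k ∣[k] (γ : SL(2, ℤ)) = ((χ γ : ℂˣ) : ℂ) • gEis Γ χ k := by
  have h := wEis_slash k (gWeight Γ χ) (γ : SL(2, ℤ))
  funext z
  have h2 := congrFun h z
  show (wEis k (gWeight Γ χ) ∣[k] (γ : SL(2, ℤ))) z = _
  rw [h2, wSlash_gWeight htri, wEis_const_mul]
  rfl

/-- The twisted Eisenstein series is bounded at every cusp. -/
theorem isBoundedAtImInfty_gEis_slash (hk : 3 ≤ k) (hu : GUnitary Γ χ) (A : SL(2, ℤ)) :
    IsBoundedAtImInfty (gEis Γ χ k ∣[k] A) :=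
  isBoundedAtImInfty_wEis_slash hk (norm_gWeight_le hu) A

/-! ### The limit at `i∞` -/

theorem gWeight_zero_one (htri : GTriv Γ χ) : gWeight Γ χ ![0, 1] = 1 := by
  have h := gWeight_bottomRow htri (1 : ↥Γ)
  rw [map_one] at h
  simpa [bottomRow_one] using h

/-- The weight of `(0, -1)` is `1` or `0`. -/
theorem gWeight_zero_neg_one (htri : GTriv Γ χ) :
    gWeight Γ χ ![0, -1] = 1 ∨ gWeight Γ χ ![0, -1] = 0 := by
  by_cases h : ∃ γ : ↥Γ, bottomRow (γ : SL(2, ℤ)) = ![0, -1]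
  · left
    obtain ⟨γ, hγ⟩ := h
    have h1 := gWeight_bottomRow htri γ
    have h2 : χ γ = 1 := htri γ (by
      have := congrFun hγ 0
      simpa [bottomRow] using this)
    rw [hγ, h2] at h1
    simpa using h1
  · right
    exact gWeight_of_not _ h

theorem limitTerm_gWeight_eq_zero (k : ℤ) (v : Fin 2 → ℤ)
    (hv : v ∉ ({![0, 1], ![0, -1]} : Finset (Fin 2 → ℤ))) :
    limitTerm k (gWeight Γ χ) v = 0 := by
  unfold limitTerm
  split_ifs with h0
  · by_cases h : ∃ γ : ↥Γ, bottomRow (γ : SL(2, ℤ)) = v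
    · exfalso
      obtain ⟨γ, rfl⟩ := h
      apply hv
      rcases bottomRow_one_eq_of_zero h0 with h1 | h1
      · have : bottomRow (γ : SL(2, ℤ)) = ![0, 1] := by
          funext j
          fin_cases j
          · exact h0
          · exact h1
        simp [this]
      · have : bottomRow (γ : SL(2, ℤ)) = ![0, -1] := by
          funext j
          fin_cases j
          · exact h0
          · exact h1
        simp [this]
    · rw [gWeight_of_not _ h, zero_mul]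
  · rfl

theorem tsum_limitTerm_gWeight (htri : GTriv Γ χ) (hk2 : Even k) :
    ∑' v : Fin 2 → ℤ, limitTerm k (gWeight Γ χ) v = 2 ∨
      ∑' v : Fin 2 → ℤ, limitTerm k (gWeight Γ χ) v = 1 := by
  rw [tsum_eq_sum (s := ({![0, 1], ![0, -1]} : Finset (Fin 2 → ℤ)))
    (fun v hv => limitTerm_gWeight_eq_zero k v hv)]
  have hne : (![0, 1] : Fin 2 → ℤ) ≠ ![0, -1] := by
    intro h
    have := congrFun h 1
    simp at this
  rw [Finset.sum_pair hne]
  have h1 : limitTerm k (gWeight Γ χ) ![0, 1] = 1 := by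
    simp [limitTerm, gWeight_zero_one htri]
  have hpow : ((-1 : ℂ)) ^ (-k) = 1 := by
    rw [_root_.zpow_neg, hk2.neg_one_zpow, inv_one]
  rcases gWeight_zero_neg_one htri with h | h
  · left
    have h2 : limitTerm k (gWeight Γ χ) ![0, -1] = 1 := by
      simp [limitTerm, h, hpow]
    rw [h1, h2]
    norm_num
  · right
    have h2 : limitTerm k (gWeight Γ χ) ![0, -1] = 0 := by
      simp [limitTerm, h]
    rw [h1, h2, add_zero]

/-- The twisted Eisenstein series does not vanish identically. -/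
theorem gEis_ne_zero (hk : 3 ≤ k) (hk2 : Even k) (hT : ModularGroup.T ∈ Γ)
    (hu : GUnitary Γ χ) (htri : GTriv Γ χ) : gEis Γ χ k ≠ 0 := by
  have h := tendsto_wEis hk (norm_gWeight_le hu) (tInvariant_gWeight hT htri)
  have hL : (∑' v : Fin 2 → ℤ, limitTerm k (gWeight Γ χ) v) ≠ 0 := by
    rcases tsum_limitTerm_gWeight (Γ := Γ) (χ := χ) htri hk2 with h2 | h2
    · rw [h2]; norm_num
    · rw [h2]; norm_num
  intro h0
  have h' : Tendsto (gEis Γ χ k) atImInfty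
      (𝓝 (∑' v : Fin 2 → ℤ, limitTerm k (gWeight Γ χ) v)) := h
  rw [h0] at h'
  have h0' : Tendsto (0 : ℍ → ℂ) atImInfty (𝓝 0) := tendsto_const_nhds
  exact hL (tendsto_nhds_unique h' h0')

end Generic

/-! ### The character of `Γ₁(M)` attached to `φ` -/

section Gam1

open Fermat.Agent.NEB.EIG.H39 Fermat.Agent.GTor Fermat.Agent.NEB.EIG.H34

variable {M n : ℕ}

/-- The multiplicative character `γ ↦ ζ_n ^ φ(γ)` attached to `φ : Γ₁(M) → ℤ/n`. -/
def chiOf1 (hn : n ≠ 0) (φ : Additive (Gam1 M M) →+ ZMod n) : (Gam1 M M) →* ℂˣ :=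
  MonoidHom.mk' (fun γ => Units.mk0 (zetaPow n (φ (Additive.ofMul γ)))
      (Fermat.Agent.GTor.H98.zetaPow_ne_zero _ _))
    (by
      intro a b
      apply Units.ext
      show zetaPow n (φ (Additive.ofMul (a * b)))
        = zetaPow n (φ (Additive.ofMul a)) * zetaPow n (φ (Additive.ofMul b))
      rw [ofMul_mul, map_add, Fermat.Agent.GTor.H96.zetaPow_add hn])

theorem coe_chiOf1 (hn : n ≠ 0) (φ : Additive (Gam1 M M) →+ ZMod n) (γ : Gam1 M M) :
    ((chiOf1 hn φ γ : ℂˣ) : ℂ) = zetaPow n (φ (Additive.ofMul γ)) := rfl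

theorem chiOf1_pow (hn : n ≠ 0) (φ : Additive (Gam1 M M) →+ ZMod n) (γ : Gam1 M M) :
    chiOf1 hn φ γ ^ n = 1 := by
  apply Units.ext
  rw [Units.val_pow_eq_pow_val, coe_chiOf1, Fermat.Agent.GTor.H96.zetaPow_pow, Units.val_one]

theorem gUnitary_chiOf1 (hn : n ≠ 0) (φ : Additive (Gam1 M M) →+ ZMod n) :
    GUnitary (Gam1 M M) (chiOf1 hn φ) := by
  intro γ
  have h1 : ‖((chiOf1 hn φ γ : ℂˣ) : ℂ)‖ ^ n = 1 := by
    rw [← norm_pow, ← Units.val_pow_eq_pow_val, chiOf1_pow hn φ γ]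
    simp
  exact (pow_eq_one_iff_of_nonneg (norm_nonneg _) hn).mp h1

theorem gTriv_chiOf1 (hn : n ≠ 0) {φ : Additive (Gam1 M M) →+ ZMod n}
    (hφ : φ ∈ homPE (Gam1 M M) (ZMod n)) : GTriv (Gam1 M M) (chiOf1 hn φ) := by
  intro γ hγ
  apply Units.ext
  rw [coe_chiOf1, hφ.1 γ (Fermat.Agent.GTor.H98.trace_sq_of_lower_left_zero _ hγ),
    Fermat.Agent.GTor.H96.zetaPow_zero hn, Units.val_one]

theorem T_mem_Gam1 (M : ℕ) : ModularGroup.T ∈ Gam1 M M := by
  rw [mem_Gam1]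
  refine ⟨?_, ?_, ?_⟩ <;> simp [ModularGroup.T]

/-- The twisted Eisenstein series of weight `4` is an `IsTw1`. -/
theorem isTw1_gEis (hn : n ≠ 0) {φ : Additive (Gam1 M M) →+ ZMod n}
    (hφ : φ ∈ homPE (Gam1 M M) (ZMod n)) :
    IsTw1 M M n 4 φ (gEis (Gam1 M M) (chiOf1 hn φ) 4) where
  mdiff := gEis_mdifferentiable (by norm_num) (gUnitary_chiOf1 hn φ)
  bdd := fun σ => isBoundedAtImInfty_gEis_slash (by norm_num) (gUnitary_chiOf1 hn φ) σ
  slash := fun γ => by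
    rw [gEis_slash (gTriv_chiOf1 hn hφ) γ, coe_chiOf1]

open Fermat.Agent.GTor.H98 in
/-- **E-EIS.** -/
theorem stmt_EisTw : Stmt_EisTw := by
  intro M _ hM n hn φ hφ
  have hk : (3 : ℤ) ≤ 4 := by norm_num
  have hk2 : Even (4 : ℤ) := ⟨2, by norm_num⟩
  have h0 : (0 : Additive (CongruenceSubgroup.Gamma0 M) →+ ZMod n)
      ∈ homPE (CongruenceSubgroup.Gamma0 M) (ZMod n) := zero_mem _
  have htri0 : TrivialAtInfty M (chiOf hn (0 : Additive (CongruenceSubgroup.Gamma0 M) →+ ZMod n)) :=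
    trivialAtInfty_chiOf hn h0
  have h1pow : ∀ γ, chiOf hn (0 : Additive (CongruenceSubgroup.Gamma0 M) →+ ZMod n) γ ^ 1 = 1 :=
    fun γ => by
      rw [pow_one]
      exact chiOf_eq_one hn 0 rfl
  refine ⟨4, gEis (Gam1 M M) (chiOf1 hn φ) 4,
    ModularForm.mcast (by simp) (twEisPow M
      (chiOf hn (0 : Additive (CongruenceSubgroup.Gamma0 M) →+ ZMod n)) hk one_ne_zero h1pow
      htri0), isTw1_gEis hn hφ, ?_, ?_⟩
  · exact gEis_ne_zero hk hk2 (T_mem_Gam1 M) (gUnitary_chiOf1 hn φ) (gTriv_chiOf1 hn hφ)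
  · intro h
    have h2 := twEisPow_ne_zero hk hk2 one_ne_zero h1pow htri0
    apply h2
    ext z
    have := congrArg (fun F : ModularForm _ _ => F z) h
    simpa using this

end Gam1

end Fermat.Agent.S48.B2.T.H22

end
end
-- ==== END Fermat.Agent.S48.B2.T.H22_EisTw
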