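-- GENERATED (merged mirror, NOTES/tools/trim/merge3_helper67.py): 9 modules of the originals, bodies verbatim.
import Mathlib.LinearAlgebra.Charpoly.ToMatrix
import Fermat.Agent.Zm.S36_L02_000
import Fermat.Agent.Zm.S48_L15_000
import Fermat.Agent.Zm.S36_L02_001
import Fermat.Agent.Zm.S36_L02_002
import Fermat.Agent.Zm.S36_L01_004
import Fermat.Agent.Zm.S35_L05_000
import Fermat.Agent.Zm.S35_L05_002
import Fermat.Agent.Zm.S35_L16_000
import Fermat.Agent.Zm.S33_L03_002
import Fermat.Agent.Zm.S35_L03_000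

-- ==== BEGIN Fermat.Agent.BAD.H42_CharpolyR
section

/-!
# KRON-ABS: the characteristic polynomial form of NORM-RED-r (helper42; for S36 NU-B, leaf KRON)

Setting of `NRData` (`BAD/H42_NormRedR.lean`).  For `h ∈ ⋂ V i`:

* `NRData.exists_matrix` : there are an `E`-basis of `L` and a matrix `M₀` with entries in `V_E`
  which is the matrix of the multiplication by `h`, whose reduction is block triangular with
  diagonal blocks the matrices of the multiplications by `red_i h` (each `e i` times);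
* `NRData.charpoly_red` : the characteristic polynomial of `h` over `E` has coefficients in
  `V_E` and reduces to `∏ charpoly_{κ i / Et} (red_i h) ^ e i`  (Kronecker's congruence);
* `charpoly_sigma_blockTriangular` : characteristic polynomial of a block triangular matrix.

This file has no open goals.
-/

set_option autoImplicit false

noncomputable section

namespace Fermat.Agent.BAD.H42

/-- Characteristic polynomial of a block triangular matrix indexed by triples `(i, j, α)`,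
`j < e i`, `α < f i`, with diagonal blocks `A i`. -/
theorem charpoly_sigma_blockTriangular {R : Type} [CommRing R] {ι : Type} [Fintype ι]
    [DecidableEq ι] (e f : ι → ℕ)
    (M : Matrix (Σ k : (Σ i : ι, Fin (e i)), Fin (f k.1))
      (Σ k : (Σ i : ι, Fin (e i)), Fin (f k.1)) R)
    (A : ∀ i, Matrix (Fin (f i)) (Fin (f i)) R)
    (hzero : ∀ x y : (Σ k : (Σ i : ι, Fin (e i)), Fin (f k.1)),
      (x.1.1 ≠ y.1.1 ∨ (x.1.1 = y.1.1 ∧ (x.1.2 : ℕ) < (y.1.2 : ℕ))) → M x y = 0)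
    (hdiag : ∀ (k : Σ i : ι, Fin (e i)) (α α₁ : Fin (f k.1)), M ⟨k, α⟩ ⟨k, α₁⟩ = A k.1 α α₁) :
    M.charpoly = ∏ i, (A i).charpoly ^ e i := by
  unfold Matrix.charpoly
  refine det_sigma_blockTriangular e f (Matrix.charmatrix M)
    (fun i => Matrix.charmatrix (A i)) ?_ ?_
  · intro x y hxy
    have hne : x ≠ y := by
      rintro rfl
      rcases hxy with h | ⟨-, h⟩
      · exact h rfl
      · exact lt_irrefl _ h
    rw [Matrix.charmatrix_apply_ne _ _ _ hne, hzero x y hxy, map_zero, neg_zero]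
  · intro k α α₁
    by_cases h : α = α₁
    · subst h
      rw [Matrix.charmatrix_apply_eq, Matrix.charmatrix_apply_eq, hdiag]
    · have h' : (⟨k, α⟩ : Σ k : (Σ i : ι, Fin (e i)), Fin (f k.1)) ≠ ⟨k, α₁⟩ := by
        intro heq
        exact h (eq_of_heq (Sigma.mk.inj heq).2)
      rw [Matrix.charmatrix_apply_ne _ _ _ h, Matrix.charmatrix_apply_ne _ _ _ h', hdiag]

namespace NRData

variable {E L Et : Type} [Field E] [Field L] [Field Et] [Algebra E L]
  {ι : Type} {κ : ι → Type} [∀ i, Field (κ i)] [∀ i, Algebra Et (κ i)]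
  [∀ i, Module.Finite Et (κ i)] (D : NRData E L Et ι κ)

/-- **The matrix of the multiplication by `h ∈ ⋂ V i`** in an adapted basis has entries in `V_E`
and its reduction is block triangular, with diagonal blocks the matrices of the multiplications
by the `red_i h`. -/
theorem exists_matrix [Fintype ι] [DecidableEq ι] [Module.Finite E L]
    (hdeg : ∑ i, D.e i * Module.finrank Et (κ i) = Module.finrank E L)
    (h : L) (hh : ∀ i, h ∈ D.V i) :
    ∃ (bE : Module.Basis D.I E L) (M₀ : Matrix D.I D.I ↥D.VE),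
      Algebra.leftMulMatrix bE h = D.VE.subtype.mapMatrix M₀ ∧
      (∀ x y : D.I, (x.1.1 ≠ y.1.1 ∨ (x.1.1 = y.1.1 ∧ (x.1.2 : ℕ) < (y.1.2 : ℕ))) →
        D.redE (M₀ x y) = 0) ∧
      (∀ (k : D.J) (α α₁ : Fin (Module.finrank Et (κ k.1))),
        D.redE (M₀ ⟨k, α⟩ ⟨k, α₁⟩) =
          Algebra.leftMulMatrix (Module.finBasis Et (κ k.1)) (D.red k.1 ⟨h, hh k.1⟩) α α₁) := by
  classical
  obtain ⟨T⟩ := D.exists_lift (fun _ => 1) (fun _ => one_mem _) (fun _ => one_ne_zero)
  have hli := T.linearIndependent_B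
  have hcard : Fintype.card D.I = Module.finrank E L := by rw [D.card_I, hdeg]
  have hne : Nonempty D.I := by
    rw [← Fintype.card_pos_iff, hcard]
    exact Module.finrank_pos
  let bE : Module.Basis D.I E L := basisOfLinearIndependentOfCardEqFinrank hli hcard
  have hbE : ∀ x, bE x = T.B x := fun x => by simp [bE]
  have hcoord : ∀ g : L, (∀ i, g ∈ D.V i) → ∀ x, bE.repr g x ∈ D.VE := by
    intro g hg x
    refine T.coord_mem (fun x => bE.repr g x) g hg ?_ x
    have := bE.sum_repr g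
    simpa only [hbE] using this
  have hvh : ∀ j, (D.V j).valuation h ≤ 1 := fun j =>
    (ValuationSubring.valuation_le_one_iff _ _).2 (hh j)
  have hsmall : ∀ (y : D.I) (i₀ : ι), i₀ ≠ y.1.1 →
      (D.V i₀).valuation (h * T.B y) < (D.V i₀).valuation (algebraMap E L D.ϖ) := by
    intro y i₀ hne
    rw [map_mul]
    exact mul_lt_of_le_one_of_lt (hvh i₀) (T.val_B_lt_of_ne y i₀ (Ne.symm hne))
  have hG : ∀ (y : D.I) (i : ι), h * T.B y ∈ D.V i := fun y i =>
    mul_mem (hh i) (T.B_mem y i)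
  let M₀ : Matrix D.I D.I ↥D.VE :=
    Matrix.of fun x y => ⟨bE.repr (h * T.B y) x, hcoord _ (hG y) x⟩
  have hM : Algebra.leftMulMatrix bE h = D.VE.subtype.mapMatrix M₀ := by
    refine Matrix.ext fun x y => ?_
    rw [Algebra.leftMulMatrix_eq_repr_mul, hbE]
    rfl
  have hcol : ∀ y, ∑ x, algebraMap E L ((M₀ x y : ↥D.VE) : E) * T.B x = h * T.B y := by
    intro y
    have := bE.sum_repr (h * T.B y)
    simp only [hbE, Algebra.smul_def] at this
    exact this
  refine ⟨bE, M₀, hM, ?_, ?_⟩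
  · intro x y hxy
    exact T.col_redE_eq_zero (fun x => M₀ x y) h y (hh _) (hsmall y) (hcol y) x hxy
  · rintro ⟨i, j⟩ α α₁
    have h1 := T.col_redE_diag (fun x => M₀ x ⟨⟨i, j⟩, α₁⟩) h i (hh i) j α₁
      (hsmall ⟨⟨i, j⟩, α₁⟩) (hcol _)
    rw [Algebra.leftMulMatrix_eq_repr_mul, h1, Module.Basis.repr_sum_self]

/-- **Kronecker's congruence, abstract form.**  For `h ∈ ⋂ V i` the characteristic polynomial
of (the multiplication by) `h` over `E` has coefficients in `V_E`, and its reduction is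
`∏ charpoly_{κ i / Et} (red_i h) ^ e i`. -/
theorem charpoly_red [Fintype ι] [DecidableEq ι] [Module.Finite E L]
    (hdeg : ∑ i, D.e i * Module.finrank Et (κ i) = Module.finrank E L)
    (h : L) (hh : ∀ i, h ∈ D.V i) :
    ∃ P : Polynomial ↥D.VE, P.Monic ∧
      P.map D.VE.subtype = (Algebra.lmul E L h).charpoly ∧
      P.map D.redE = ∏ i, ((Algebra.lmul Et (κ i) (D.red i ⟨h, hh i⟩)).charpoly) ^ D.e i := by
  classical
  obtain ⟨bE, M₀, hM, hzero, hdiag⟩ := D.exists_matrix hdeg h hh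
  refine ⟨M₀.charpoly, Matrix.charpoly_monic _, ?_, ?_⟩
  · rw [← LinearMap.charpoly_toMatrix (Algebra.lmul E L h) bE, ← Algebra.leftMulMatrix_apply,
      hM, ← Matrix.charpoly_map]
    rfl
  · rw [← Matrix.charpoly_map]
    have h1 := charpoly_sigma_blockTriangular D.e (fun i => Module.finrank Et (κ i))
      (M₀.map D.redE)
      (fun i => Algebra.leftMulMatrix (Module.finBasis Et (κ i)) (D.red i ⟨h, hh i⟩))
      (fun x y hxy => by rw [Matrix.map_apply]; exact hzero x y hxy)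
      (fun k α α₁ => by rw [Matrix.map_apply]; exact hdiag k α α₁)
    rw [h1]
    refine Finset.prod_congr rfl fun i _ => ?_
    rw [Algebra.leftMulMatrix_apply, LinearMap.charpoly_toMatrix]

/-- Cayley–Hamilton for the polynomial of `charpoly_red`: it kills `h`. -/
theorem charpoly_aeval [Module.Finite E L] (h : L) :
    Polynomial.aeval h (Algebra.lmul E L h).charpoly = 0 := by
  have h1 := LinearMap.aeval_self_charpoly (Algebra.lmul E L h)
  have h2 : Polynomial.aeval (Algebra.lmul E L h) (Algebra.lmul E L h).charpoly =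
      Algebra.lmul E L (Polynomial.aeval h (Algebra.lmul E L h).charpoly) :=
    (Polynomial.aeval_algHom_apply (Algebra.lmul E L) h _)
  rw [h2] at h1
  have h3 := congrArg (fun φ : Module.End E L => φ 1) h1
  simpa using h3

end NRData

end Fermat.Agent.BAD.H42

end
end
-- ==== END Fermat.Agent.BAD.H42_CharpolyR

-- ==== BEGIN Fermat.Agent.BAD.H42_FundIneq
section

/-!
# The fundamental inequality with ramification (helper42; for S36 NU-B, T3-e)

Setting of `NRData` (`BAD/H42_NormRedR.lean`), WITHOUT any finiteness hypothesis on the residue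
fields `κ i`.

* `NRLiftG.linearIndependent_B` : lifts `b_{i,α}` of `Et`-independent families `β i` of the
  `κ i`, times the powers `P_i ^ j`, `j < e i`, are `E`-linearly independent;
* `NRData.fund_ineq` : `∑ e i * f i ≤ [L : E]` for all `Et`-independent families
  `β i : Fin (f i) → κ i`;
* `NRData.finite_res` : the residue fields `κ i` are finite over `Et`;
* `NRData.sum_le_finrank` : `∑ e i [κ i : Et] ≤ [L : E]`.

This file has no open goals.
-/

set_option autoImplicit false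

noncomputable section

namespace Fermat.Agent.BAD.H42

/-- Index type of the family: triples `(i, j, α)`, `j < e i`, `α < f i`. -/
abbrev NRData.IG {E L Et : Type} [Field E] [Field L] [Field Et] [Algebra E L]
    {ι : Type} {κ : ι → Type} [∀ i, Field (κ i)] [∀ i, Algebra Et (κ i)]
    (D : NRData E L Et ι κ) (f : ι → ℕ) : Type := Σ k : D.J, Fin (f k.1)

/-- Lifts of independent families of the residue fields and good uniformisers. -/
structure NRLiftG {E L Et : Type} [Field E] [Field L] [Field Et] [Algebra E L]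
    {ι : Type} {κ : ι → Type} [∀ i, Field (κ i)] [∀ i, Algebra Et (κ i)]
    (D : NRData E L Et ι κ) (f : ι → ℕ) (β : ∀ i, Fin (f i) → κ i) where
  /-- uniformisers of `V i` which are integral at the other `V j` -/
  P : ι → L
  /-- lifts of the families `β i`, divisible by `ϖ` at the other `V j` -/
  b : ∀ i, Fin (f i) → L
  hβ : ∀ i, LinearIndependent Et (β i)
  hP : ∀ i, (D.V i).valuation (P i) = (D.V i).valuation (D.π i)
  hP' : ∀ i j, i ≠ j → (D.V j).valuation (P i) ≤ 1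
  hb : ∀ i α, b i α ∈ D.V i
  hbred : ∀ i α, D.red i ⟨b i α, hb i α⟩ = β i α
  hb' : ∀ i j α, i ≠ j →
    (D.V j).valuation (b i α) < (D.V j).valuation (algebraMap E L D.ϖ)

namespace NRLiftG

variable {E L Et : Type} [Field E] [Field L] [Field Et] [Algebra E L]
  {ι : Type} {κ : ι → Type} [∀ i, Field (κ i)] [∀ i, Algebra Et (κ i)]
  {D : NRData E L Et ι κ} {f : ι → ℕ} {β : ∀ i, Fin (f i) → κ i} (T : NRLiftG D f β)

/-- The family `b_{i,α} P_i ^ j`. -/
def B (x : D.IG f) : L := T.P x.1.1 ^ (x.1.2 : ℕ) * T.b x.1.1 x.2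

theorem P_ne_zero (i : ι) : T.P i ≠ 0 := by
  rw [← Valuation.ne_zero_iff (D.V i).valuation, T.hP i]
  exact D.val_π_ne_zero i

theorem val_P_lt_one (i : ι) : (D.V i).valuation (T.P i) < 1 := by
  rw [T.hP i]; exact D.hπ i

theorem val_P_le_one (i j : ι) : (D.V j).valuation (T.P i) ≤ 1 := by
  rcases eq_or_ne i j with rfl | h
  · exact (T.val_P_lt_one i).le
  · exact T.hP' i j h

theorem val_b_le_one (i j : ι) (α : Fin (f i)) :
    (D.V j).valuation (T.b i α) ≤ 1 := by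
  rcases eq_or_ne i j with rfl | h
  · exact (ValuationSubring.valuation_le_one_iff _ _).2 (T.hb i α)
  · exact ((T.hb' i j α h).trans (D.val_ϖ_lt_one j)).le

theorem val_ϖ_eq (i : ι) :
    (D.V i).valuation (algebraMap E L D.ϖ) = (D.V i).valuation (T.P i) ^ D.e i := by
  rw [D.hram i, T.hP i]

/-- The reduction of `∑_α c_α b_{i,α}`. -/
theorem red_U (i : ι) (c : Fin (f i) → ↥D.VE) :
    ∃ h : (∑ α, algebraMap E L (c α : E) * T.b i α) ∈ D.V i,
      D.red i ⟨_, h⟩ = ∑ α, D.redE (c α) • β i α := by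
  let a : Fin (f i) → ↥(D.V i) := fun α =>
    ⟨algebraMap E L (c α : E), D.hVE i _ (c α).2⟩ * ⟨T.b i α, T.hb i α⟩
  have hcoe : ((∑ α, a α : ↥(D.V i)) : L) = ∑ α, algebraMap E L (c α : E) * T.b i α := by
    simp only [AddSubmonoidClass.coe_finsetSum]
    rfl
  have hmem : (∑ α, algebraMap E L (c α : E) * T.b i α) ∈ D.V i := by
    rw [← hcoe]; exact SetLike.coe_mem _
  refine ⟨hmem, ?_⟩
  have heq : (⟨_, hmem⟩ : ↥(D.V i)) = ∑ α, a α := Subtype.ext hcoe.symm
  rw [heq, map_sum]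
  refine Finset.sum_congr rfl fun α _ => ?_
  simp only [a]
  rw [map_mul, D.hcompat, T.hbred, Algebra.smul_def]

/-- `∑_α c_α b_{i,α}` is a unit of `V i` or divisible by `ϖ`. -/
theorem val_U (i : ι) (c : Fin (f i) → ↥D.VE) :
    ((D.V i).valuation (∑ α, algebraMap E L (c α : E) * T.b i α) = 1 ∧
        ∃ α, D.redE (c α) ≠ 0) ∨
      ((D.V i).valuation (∑ α, algebraMap E L (c α : E) * T.b i α) ≤
        (D.V i).valuation (algebraMap E L D.ϖ) ∧ ∀ α, D.redE (c α) = 0) := by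
  by_cases h : ∀ α, D.redE (c α) = 0
  · right
    refine ⟨Valuation.map_sum_le _ fun α _ => ?_, h⟩
    rw [map_mul]
    calc (D.V i).valuation (algebraMap E L (c α : E)) * (D.V i).valuation (T.b i α)
        ≤ (D.V i).valuation (algebraMap E L D.ϖ) * 1 :=
          mul_le_mul' (D.val_le_of_redE_eq_zero i _ (h α)) (T.val_b_le_one i i α)
      _ = _ := mul_one _
  · left
    push Not at h
    refine ⟨?_, h⟩
    obtain ⟨hmem, hred⟩ := T.red_U i c
    refine D.val_eq_one_of_red_ne_zero i ⟨_, hmem⟩ ?_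
    rw [hred]
    intro h0
    obtain ⟨α, hα⟩ := h
    exact hα (Fintype.linearIndependent_iff.1 (T.hβ i) _ h0 α)

/-- The decomposition of a combination of the `B x`. -/
theorem sum_B [Fintype ι] (c : D.IG f → L) :
    ∑ x, c x * T.B x =
      ∑ i, ∑ j : Fin (D.e i), T.P i ^ (j : ℕ) * ∑ α, c ⟨⟨i, j⟩, α⟩ * T.b i α := by
  rw [Fintype.sum_sigma, Fintype.sum_sigma]
  refine Finset.sum_congr rfl fun i _ => Finset.sum_congr rfl fun j _ => ?_
  rw [Finset.mul_sum]
  refine Finset.sum_congr rfl fun α _ => ?_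
  simp only [B]; ring

/-- **Key valuation computation**: if `∑ c_x B_x` (with `c_x ∈ V_E`) is divisible by `P_i ^ k` in
`V i`, `k ≤ e i`, then the `c_{(i,j,α)}` with `j < k` are non-units. -/
theorem redE_eq_zero [Fintype ι] (c : D.IG f → ↥D.VE) (i₀ : ι) (k : ℕ) (hk : k ≤ D.e i₀)
    (hx : (D.V i₀).valuation (∑ x, algebraMap E L (c x : E) * T.B x) ≤
      (D.V i₀).valuation (T.P i₀) ^ k)
    (j : Fin (D.e i₀)) (hj : (j : ℕ) < k) (α : Fin (f i₀)) :
    D.redE (c ⟨⟨i₀, j⟩, α⟩) = 0 := by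
  classical
  let U : ∀ i, Fin (D.e i) → L := fun i j =>
    ∑ α, algebraMap E L (c ⟨⟨i, j⟩, α⟩ : E) * T.b i α
  let S : ι → L := fun i => ∑ j : Fin (D.e i), T.P i ^ (j : ℕ) * U i j
  have htot : ∑ x, algebraMap E L (c x : E) * T.B x = ∑ i, S i :=
    T.sum_B (fun x => algebraMap E L (c x : E))
  have hvϖ0 : (D.V i₀).valuation (algebraMap E L D.ϖ) ≠ 0 :=
    (Valuation.ne_zero_iff _).2 D.ϖL_ne_zero
  have hsmall : ∀ i ∈ Finset.univ.erase i₀,
      (D.V i₀).valuation (S i) < (D.V i₀).valuation (algebraMap E L D.ϖ) := by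
    intro i hi
    have hne : i ≠ i₀ := (Finset.mem_erase.1 hi).1
    refine Valuation.map_sum_lt _ hvϖ0 fun j _ => ?_
    rw [map_mul, map_pow]
    have h1 : (D.V i₀).valuation (U i j) < (D.V i₀).valuation (algebraMap E L D.ϖ) := by
      refine Valuation.map_sum_lt _ hvϖ0 fun α _ => ?_
      rw [map_mul]
      exact mul_lt_of_le_one_of_lt (D.val_le_one i₀ _) (T.hb' i i₀ α hne)
    exact mul_lt_of_le_one_of_lt (pow_le_one₀ zero_le (T.val_P_le_one i i₀)) h1
  have hrest : (D.V i₀).valuation (∑ i ∈ Finset.univ.erase i₀, S i) <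
      (D.V i₀).valuation (algebraMap E L D.ϖ) :=
    Valuation.map_sum_lt _ hvϖ0 hsmall
  have hsplit : ∑ i, S i = S i₀ + ∑ i ∈ Finset.univ.erase i₀, S i :=
    (Finset.add_sum_erase _ _ (Finset.mem_univ i₀)).symm
  have hϖk : (D.V i₀).valuation (algebraMap E L D.ϖ) ≤ (D.V i₀).valuation (T.P i₀) ^ k := by
    rw [T.val_ϖ_eq i₀]
    exact pow_le_pow_of_le_one zero_le (T.val_P_lt_one i₀).le hk
  have hS : (D.V i₀).valuation (S i₀) ≤ (D.V i₀).valuation (T.P i₀) ^ k := by
    have : S i₀ = (∑ i, S i) - ∑ i ∈ Finset.univ.erase i₀, S i := by rw [hsplit]; ring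
    rw [this]
    refine (Valuation.map_sub _ _ _).trans (max_le ?_ (hrest.le.trans hϖk))
    rw [← htot]; exact hx
  have hu : ∀ j, (D.V i₀).valuation (U i₀ j) = 1 ∨
      (D.V i₀).valuation (U i₀ j) ≤ (D.V i₀).valuation (T.P i₀) ^ D.e i₀ := by
    intro j
    rcases T.val_U i₀ (fun α => c ⟨⟨i₀, j⟩, α⟩) with h | h
    · exact Or.inl h.1
    · right; rw [← T.val_ϖ_eq i₀]; exact h.1
  have h := val_sum_pow_fin (D.V i₀) (T.P i₀) (T.val_P_lt_one i₀) (T.P_ne_zero i₀) (D.e i₀) k hk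
    (U i₀) hu hS j hj
  rcases T.val_U i₀ (fun α => c ⟨⟨i₀, j⟩, α⟩) with h1 | h1
  · exfalso
    have : (D.V i₀).valuation (U i₀ j) < 1 :=
      h.trans_lt (by rw [← T.val_ϖ_eq]; exact D.val_ϖ_lt_one i₀)
    exact this.ne h1.1
  · exact h1.2 α

/-- The scaling argument: a combination `∑ c_x B_x`, divided by its largest coefficient, is not
divisible by `ϖ` at the place of this coefficient. -/
theorem scale_aux [Fintype ι] (c : D.IG f → E) (x₀ : D.IG f) (hx₀ : c x₀ ≠ 0)
    (hmax : ∀ x, D.VE.valuation (c x) ≤ D.VE.valuation (c x₀))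
    (hg : (D.V x₀.1.1).valuation
        ((algebraMap E L (c x₀))⁻¹ * ∑ x, algebraMap E L (c x) * T.B x) ≤
      (D.V x₀.1.1).valuation (algebraMap E L D.ϖ)) : False := by
  have hv0 : D.VE.valuation (c x₀) ≠ 0 := (Valuation.ne_zero_iff _).2 hx₀
  have hmem : ∀ x, c x / c x₀ ∈ D.VE := by
    intro x
    rw [← ValuationSubring.valuation_le_one_iff, map_div₀]
    exact (div_le_one₀ (zero_lt_iff.2 hv0)).2 (hmax x)
  let c' : D.IG f → ↥D.VE := fun x => ⟨c x / c x₀, hmem x⟩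
  have hsum : ∑ x, algebraMap E L (c' x : E) * T.B x =
      (algebraMap E L (c x₀))⁻¹ * ∑ x, algebraMap E L (c x) * T.B x := by
    rw [Finset.mul_sum]
    refine Finset.sum_congr rfl fun x _ => ?_
    simp only [c', map_div₀]
    field_simp
  obtain ⟨⟨i₀, j₀⟩, α₀⟩ := x₀
  have h := T.redE_eq_zero c' i₀ (D.e i₀) le_rfl
    (by rw [hsum, ← T.val_ϖ_eq]; exact hg) j₀ j₀.2 α₀
  have h1 : c' ⟨⟨i₀, j₀⟩, α₀⟩ = 1 := Subtype.ext (div_self hx₀)
  rw [h1, map_one] at h
  exact one_ne_zero h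

/-- The family `B` is linearly independent over `E`. -/
theorem linearIndependent_B [Fintype ι] : LinearIndependent E T.B := by
  rw [Fintype.linearIndependent_iff]
  intro c hc
  by_contra hne
  push Not at hne
  obtain ⟨x₁, hx₁⟩ := hne
  have : Nonempty (D.IG f) := ⟨x₁⟩
  obtain ⟨x₀, hx₀⟩ := Fermat.Agent.RED.H10.exists_max_val D.VE c
  have hc0 : c x₀ ≠ 0 := by
    intro h0
    have := hx₀ x₁
    rw [h0, map_zero, le_zero_iff, Valuation.zero_iff] at this
    exact hx₁ this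
  refine T.scale_aux c x₀ hc0 hx₀ ?_
  have h0 : ∑ x, algebraMap E L (c x) * T.B x = 0 := by
    rw [← hc]
    exact Finset.sum_congr rfl fun x _ => (Algebra.smul_def _ _).symm
  rw [h0, mul_zero, map_zero]
  exact zero_le

end NRLiftG

namespace NRData

variable {E L Et : Type} [Field E] [Field L] [Field Et] [Algebra E L]
  {ι : Type} {κ : ι → Type} [∀ i, Field (κ i)] [∀ i, Algebra Et (κ i)]
  (D : NRData E L Et ι κ)

/-- Lifts exist (approximation). -/
theorem exists_liftG [Fintype ι] [DecidableEq ι] (f : ι → ℕ) (β : ∀ i, Fin (f i) → κ i)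
    (hβ : ∀ i, LinearIndependent Et (β i)) : Nonempty (NRLiftG D f β) := by
  have hP : ∀ i, ∃ P : L, (D.V i).valuation P = (D.V i).valuation (D.π i) ∧
      ∀ j, i ≠ j → (D.V j).valuation P ≤ 1 := by
    intro i
    obtain ⟨b, -, hb, hb'⟩ := exists_approx_small D.V D.hA D.hinc D.V_ne_top i
      (Finset.univ.erase i) (Finset.notMem_erase _ _) (fun _ => 1) (fun _ _ => one_ne_zero)
      (D.π i) ((ValuationSubring.valuation_le_one_iff _ _).1 (D.hπ i).le)
    refine ⟨b, hb, fun j hij => ?_⟩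
    have := hb' j (Finset.mem_erase.2 ⟨hij.symm, Finset.mem_univ _⟩)
    rw [map_one] at this
    exact this.le
  have hb : ∀ (i : ι) (α : Fin (f i)), ∃ b : L, ∃ hb : b ∈ D.V i,
      D.red i ⟨b, hb⟩ = β i α ∧
      ∀ j, i ≠ j → (D.V j).valuation b < (D.V j).valuation (algebraMap E L D.ϖ) := by
    intro i α
    obtain ⟨y, hy⟩ := D.hsurj i (β i α)
    obtain ⟨b, hb1, -, hb'⟩ := exists_approx_small D.V D.hA D.hinc D.V_ne_top i
      (Finset.univ.erase i) (Finset.notMem_erase _ _)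
      (fun _ => algebraMap E L D.ϖ) (fun _ _ => D.ϖL_ne_zero) (y : L) y.2
    have hbV : b ∈ D.V i := mem_of_val_sub_lt (D.V i) y.2 hb1
    refine ⟨b, hbV, ?_, fun j hij => hb' j (Finset.mem_erase.2 ⟨hij.symm, Finset.mem_univ _⟩)⟩
    rw [← hy]
    exact red_eq_of_val_sub_lt (D.hker i) ⟨b, hbV⟩ y hb1
  choose P hP1 hP2 using hP
  choose b hbV hbred hb' using hb
  exact ⟨{ P := P, b := b, hβ := hβ, hP := hP1, hP' := hP2, hb := hbV, hbred := hbred,
           hb' := fun i j α hij => hb' i α j hij }⟩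

theorem card_IG [Fintype ι] (f : ι → ℕ) :
    Fintype.card (D.IG f) = ∑ i, D.e i * f i := by
  rw [Fintype.card_sigma, Fintype.sum_sigma]
  refine Finset.sum_congr rfl fun i _ => ?_
  simp only [Fintype.card_fin]
  change ∑ _j : Fin (D.e i), f i = _
  rw [Finset.sum_const, Finset.card_univ, Fintype.card_fin, smul_eq_mul]

/-- **The fundamental inequality with ramification**: `∑ e i * f i ≤ [L : E]` for all families
of `Et`-linearly independent elements `β i : Fin (f i) → κ i` of the residue fields. -/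
theorem fund_ineq [Fintype ι] [DecidableEq ι] [Module.Finite E L] (f : ι → ℕ)
    (β : ∀ i, Fin (f i) → κ i) (hβ : ∀ i, LinearIndependent Et (β i)) :
    ∑ i, D.e i * f i ≤ Module.finrank E L := by
  obtain ⟨T⟩ := D.exists_liftG f β hβ
  rw [← D.card_IG f]
  exact T.linearIndependent_B.fintype_card_le_finrank

/-- The fundamental inequality, existential form. -/
theorem fund_ineq' [Fintype ι] [DecidableEq ι] [Module.Finite E L] (f : ι → ℕ)
    (hf : ∀ i, ∃ β : Fin (f i) → κ i, LinearIndependent Et β) :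
    ∑ i, D.e i * f i ≤ Module.finrank E L := by
  choose β hβ using hf
  exact D.fund_ineq f β hβ

/-- An `Et`-linearly independent family of `κ i` of size `n` gives `e i * n ≤ [L : E]`. -/
theorem mul_le_finrank [Fintype ι] [DecidableEq ι] [Module.Finite E L] (i : ι) (n : ℕ)
    (β : Fin n → κ i) (hβ : LinearIndependent Et β) : D.e i * n ≤ Module.finrank E L := by
  have h := D.fund_ineq' (fun j => if j = i then n else 0) (fun j => by
    by_cases hj : j = i
    · rw [if_pos hj]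
      subst hj
      exact ⟨β, hβ⟩
    · rw [if_neg hj]
      exact ⟨Fin.elim0, linearIndependent_empty_type⟩)
  have hsum : ∑ j, D.e j * (if j = i then n else 0) = D.e i * n := by
    rw [Finset.sum_eq_single i (fun j _ hj => by rw [if_neg hj, mul_zero])
      (fun hi => absurd (Finset.mem_univ i) hi), if_pos rfl]
  rw [hsum] at h
  exact h

include D in
/-- **The residue fields are finite over `Et`.** -/
theorem finite_res [Fintype ι] [DecidableEq ι] [Module.Finite E L] (i : ι) :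
    Module.Finite Et (κ i) := by
  rw [← Module.rank_lt_aleph0_iff]
  by_contra hcon
  rw [not_lt] at hcon
  have h1 : ((Module.finrank E L + 1 : ℕ) : Cardinal) ≤ Module.rank Et (κ i) :=
    (Cardinal.natCast_lt_aleph0.le).trans hcon
  obtain ⟨s, hs, hli⟩ := le_rank_iff_exists_linearIndependent_finset.1 h1
  have hcard : Fintype.card (↥(s : Set (κ i))) = Module.finrank E L + 1 := by
    rw [← hs]
    simp
  let ε : Fin (Module.finrank E L + 1) ≃ ↥(s : Set (κ i)) := (Fintype.equivFinOfCardEq hcard).symm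
  have hβ : LinearIndependent Et
      (fun a : Fin (Module.finrank E L + 1) => ((ε a : ↥(s : Set (κ i))) : κ i)) :=
    hli.comp _ ε.injective
  have h2 := D.mul_le_finrank i _ _ hβ
  have h3 : Module.finrank E L + 1 ≤ D.e i * (Module.finrank E L + 1) :=
    Nat.le_mul_of_pos_left _ (D.he i)
  omega

/-- **The fundamental inequality** `∑ e i [κ i : Et] ≤ [L : E]`. -/
theorem sum_le_finrank [Fintype ι] [DecidableEq ι] [Module.Finite E L] :
    ∑ i, D.e i * Module.finrank Et (κ i) ≤ Module.finrank E L := by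
  have : ∀ i, Module.Finite Et (κ i) := fun i => D.finite_res i
  exact D.fund_ineq (fun i => Module.finrank Et (κ i)) (fun i => Module.finBasis Et (κ i))
    (fun i => (Module.finBasis Et (κ i)).linearIndependent)

end NRData

end Fermat.Agent.BAD.H42

end
end
-- ==== END Fermat.Agent.BAD.H42_FundIneq

-- ==== BEGIN Fermat.Agent.NEB.Geom.H70_KU2
section

/-!
# Item 72 (LG-NEB), package NEB-GEOM: CL-U and CL-UF at primes dividing the level (helper70)

* `finrankAlong_beta_eq_alpha` : `[F₀(Mq) : β F₀(M)] = [F₀(Mq) : α F₀(M)]` for every `M` and every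
  prime `q` (induction on `M` in the square `β' ∘ α = α' ∘ β`).
* `finrankAlong_betaH_of_dvd` : `[F_H(Mq) : β F_H(M)] = q` for a prime `q ∣ M`.
* `InKU.UH`, `inKU_UF` : CL-U and CL-UF for the uniform kernel, `q ∣ M`.
-/

set_option autoImplicit false
set_option linter.style.haveILetI false

noncomputable section

open ModularCurve AlgebraicCurve

namespace Fermat.Agent.NEB.Geom.H70

open Fermat.Agent.NEB Fermat.Agent.NEB.JH Fermat.Agent.NEB.H14 Fermat.Agent.S36.H44

/-- `[F₀(Mq) : α F₀(M)]` is `q + 1` or `q`. -/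
theorem finrankAlong_alpha_ne_zero (M q : ℕ) [NeZero M] [NeZero q] (hq : q.Prime) :
    finrankAlong Kbar (heckeAlphaBar Kbar M q) ≠ 0 := by
  by_cases h : q ∣ M
  · rw [Fermat.Agent.NEB.OLD.H6.finrankAlong_alpha_of_dvd M q hq h]
    exact hq.ne_zero
  · rw [Fermat.Agent.RED.H95.finrankAlong_alpha hq h]
    exact Nat.succ_ne_zero q

/-- **Degrees of the two degeneracy maps agree**, for every level. -/
theorem finrankAlong_beta_eq_alpha (q : ℕ) [NeZero q] (hq : q.Prime) :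
    ∀ (M : ℕ) [NeZero M],
      finrankAlong Kbar (heckeBetaBar Kbar M q) = finrankAlong Kbar (heckeAlphaBar Kbar M q) := by
  intro M
  induction M using Nat.strong_induction_on with
  | _ M ih =>
    intro hM
    by_cases h : q ∣ M
    · obtain ⟨M', rfl⟩ := h
      have hM'0 : M' ≠ 0 := fun h0 => by
        apply NeZero.ne (q * M')
        rw [h0, mul_zero]
      haveI : NeZero M' := ⟨hM'0⟩
      have hlt : M' < q * M' := by
        have := hq.one_lt
        nlinarith [Nat.pos_of_ne_zero hM'0]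
      have hih := ih M' hlt
      -- rewrite the level `q * M'` as `M' * q`
      have hcomm : q * M' = M' * q := mul_comm q M'
      revert hM
      rw [hcomm]
      intro hM
      haveI : NeZero (M' * q * q) :=
        ⟨Nat.mul_ne_zero (NeZero.ne (M' * q)) (NeZero.ne q)⟩
      have hsq : (heckeBetaBar Kbar (M' * q) q).toRingHom.comp (heckeAlphaBar Kbar M' q).toRingHom
          = (heckeAlphaBar Kbar (M' * q) q).toRingHom.comp (heckeBetaBar Kbar M' q).toRingHom := by
        ext x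
        simp only [RingHom.comp_apply, AlgHom.toRingHom_eq_coe, RingHom.coe_coe,
          coe_heckeBetaBar, coe_heckeAlphaBar]
      have h1 := finrank_comp_h44 (heckeAlphaBar Kbar M' q).toRingHom
        (heckeBetaBar Kbar (M' * q) q).toRingHom
      have h2 := finrank_comp_h44 (heckeBetaBar Kbar M' q).toRingHom
        (heckeAlphaBar Kbar (M' * q) q).toRingHom
      rw [hsq, h2] at h1
      have e1 : finrankHom (heckeBetaBar Kbar M' q).toRingHom
          = finrankHom (heckeAlphaBar Kbar M' q).toRingHom := hih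
      rw [e1] at h1
      have h0 : finrankHom (heckeAlphaBar Kbar M' q).toRingHom ≠ 0 :=
        finrankAlong_alpha_ne_zero M' q hq
      exact (Nat.eq_of_mul_eq_mul_left (Nat.pos_of_ne_zero h0) h1).symm
    · rw [Fermat.Agent.RED.H95.finrankAlong_alpha hq h,
        Fermat.Agent.RED.H95.finrankAlong_beta hq h]

/-- `[F₀(Mq) : β F₀(M)] = q` for a prime `q ∣ M`. -/
theorem finrankAlong_beta_of_dvd (M q : ℕ) [NeZero M] [NeZero q] (hq : q.Prime) (hqM : q ∣ M) :
    finrankAlong Kbar (heckeBetaBar Kbar M q) = q := by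
  rw [finrankAlong_beta_eq_alpha q hq M]
  exact Fermat.Agent.NEB.OLD.H6.finrankAlong_alpha_of_dvd M q hq hqM

section JH

variable {M c ℓ : ℕ} [NeZero M] [NeZero ℓ] {H : Subgroup (ZMod c)ˣ}
variable {P : ValuationSubring Kbar} {p : ℕ}

/-- `[F_H(Mℓ) : β F_H(M)] = ℓ` for a prime `ℓ ∣ M`. -/
theorem finrankAlong_betaH_of_dvd (hd : HeckeData M c ℓ H) (hℓ : ℓ.Prime) (hℓM : ℓ ∣ M) :
    finrankAlong Kbar (betaBar hd.hβ) = ℓ := by
  rw [Fermat.Agent.NEB.H70.finrankAlong_betaH_eq hd]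
  exact finrankAlong_beta_of_dvd M ℓ hℓ hℓM

/-- The `q`-expansion of the Kummer function of `U_ℓ^H`, `ℓ ∣ M`:
`UHfn f = ∏_{ζ^ℓ = 1} f (ζ q^{1/ℓ})`. -/
theorem coe_UHfn_of_dvd (hd : HeckeData M c ℓ H) (hℓ : ℓ.Prime) (hℓM : ℓ ∣ M)
    (f : ↥(FHbar M c H)) :
    ((UHfn hd.hβ f : ↥(FHbar M c H)) : LaurentSeries Kbar)
      = Fermat.Agent.NEB.H70.uSeries ℓ (f : LaurentSeries Kbar) :=
  Fermat.Agent.NEB.H70.coe_UHfn_of_finrank hd (finrankAlong_betaH_of_dvd hd hℓ hℓM) f

/-- **CL-U** (uniform): `InKU` is stable under `U_ℓ^H`, `ℓ ∣ M` prime. -/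
theorem InKU.UH (hd : HeckeData M c ℓ H) (hℓ : ℓ.Prime) (hℓM : ℓ ∣ M) {x : JH M c H}
    (hx : InKU P p hd.dd x) : InKU P p hd.dd (JH.UH hd.hβ x) :=
  hx.UH_of_finrank hd (finrankAlong_betaH_of_dvd hd hℓ hℓM)

/-- **CL-UF** (uniform): for a Frobenius `φ` at `P ∣ ℓ`, `ℓ ∣ M`:
`(U_ℓ^H - φ) J_H[p^∞] ⊆ K_A`. -/
theorem inKU_UF (hd : HeckeData M c ℓ H) (hℓ : ℓ.Prime) (hℓM : ℓ ∣ M)
    (hP : P.LiesOverPrime ℓ) {φ : GalQ} (hφ : P.IsFrobeniusAt φ ℓ) {x : JH M c H}
    (hx : IsPTors p x) : InKU P p hd.dd (JH.UH hd.hβ x - φ • x) :=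
  inKU_UF_of_finrank hd (finrankAlong_betaH_of_dvd hd hℓ hℓM) hℓ hP hφ hx

/-- **CL-UF** as stated in `Geom/Defs.lean`. -/
theorem stmt_CL_UF (M c : ℕ) (H : Subgroup (ZMod c)ˣ) (p : ℕ) : Stmt_CL_UF M c H p :=
  fun _ _ _ hq hqM _ hd _ hP _ hφ _ hx => (inKU_UF hd hq hqM hP hφ hx).inKA

end JH

end Fermat.Agent.NEB.Geom.H70

end
end
-- ==== END Fermat.Agent.NEB.Geom.H70_KU2

-- ==== BEGIN Fermat.Agent.S36.NU.H16_Patch
section

/-!
# S36 / NU-B, local side of TI3 (helper16): PATCH and SEMI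

* `Setup.mem_V` : sections (`h sⁿ ∈ B`) are integral at all components.
* `goodIdeal` : `J = {β : Good β}` is an ideal of `B`.
* `stmt_Patch : Stmt_Patch` : if `J` is not contained in any closed point of the special fibre
  then `1 ∈ J`.
* `stmt_Semi : Stmt_Semi` : common local generator at finitely many closed points.
-/

set_option autoImplicit false

noncomputable section

namespace Fermat.Agent.S36.NU.H16

open Fermat.Agent.S36.NU.H65

variable {R F k ι : Type*} {κ : ι → Type*} [CommRing R] [Field F] [Algebra R F]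
  [Field k] [∀ i, Field (κ i)] [∀ i, Algebra k (κ i)]

namespace Setup

variable {C : Chart R F k ι κ} {q n : ℕ} {h : F} {g : ∀ i, κ i}

theorem rd_h_ne_zero (S : Setup C q n h g) (i : ι) : C.rd i h ≠ 0 := by
  intro h0
  have := S.root_g i
  rw [h0, mul_zero] at this
  exact zero_ne_one this

theorem g_ne_zero (S : Setup C q n h g) (i : ι) : g i ≠ 0 := by
  intro h0
  have := S.root_g i
  rw [h0, zero_pow S.n_pos.ne', zero_mul] at this
  exact zero_ne_one this

theorem h_mem (S : Setup C q n h g) (i : ι) : h ∈ C.V i := C.mem_of_rd_ne_zero i (S.rd_h_ne_zero i)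

theorem h_inv_mem (S : Setup C q n h g) (i : ι) : h⁻¹ ∈ C.V i :=
  C.inv_mem_of_rd_ne_zero i (S.rd_h_ne_zero i)

theorem h_ne_zero [Nonempty ι] (S : Setup C q n h g) : h ≠ 0 := by
  rintro rfl
  exact S.rd_h_ne_zero (Classical.arbitrary ι) (C.rd_zero _)

/-- Sections are integral at all components. -/
theorem mem_V (S : Setup C q n h g) (i : ι) {s : F} (hs : h * s ^ n ∈ C.B) : s ∈ C.V i := by
  apply C.mem_of_pow_mem i S.n_pos
  have h1 : h * s ^ n ∈ C.V i := C.B_le i _ hs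
  have h2 : h ≠ 0 := by
    rintro rfl
    exact S.rd_h_ne_zero i (C.rd_zero _)
  have h3 : s ^ n = h⁻¹ * (h * s ^ n) := by
    rw [← mul_assoc, inv_mul_cancel₀ h2, one_mul]
  rw [h3]
  exact mul_mem (S.h_inv_mem i) h1

end Setup

/-- The ideal `J` of the good elements. -/
def goodIdeal (C : Chart R F k ι κ) (q n : ℕ) (h : F) (g : ∀ i, κ i) (S : Setup C q n h g) :
    Ideal C.B where
  carrier := {β | C.Good h n g β}
  zero_mem' := by
    refine ⟨0, ?_, fun i => ?_⟩
    · rw [zero_pow S.n_pos.ne', mul_zero]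
      exact C.B.zero_mem
    · rw [C.rd_zero, map_zero, zero_mul]
  add_mem' := by
    rintro β₁ β₂ ⟨s₁, hs₁, h₁⟩ ⟨s₂, hs₂, h₂⟩
    refine ⟨s₁ + s₂, ?_, fun i => ?_⟩
    · exact (rootMod C.B h n S.n_pos S.root).add_mem hs₁ hs₂
    · rw [C.rd_add i (S.mem_V i hs₁) (S.mem_V i hs₂), h₁, h₂, map_add, add_mul]
  smul_mem' := by
    rintro b β ⟨s, hs, h₁⟩
    refine ⟨(b : F) * s, ?_, fun i => ?_⟩
    · exact mul_mem_rootMod C.B h n S.n_pos S.root b.2 hs
    · rw [C.rd_mul i (C.B_le i _ b.2) (S.mem_V i hs), h₁, C.rd_coe, smul_eq_mul, map_mul,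
        mul_assoc]

theorem mem_goodIdeal (C : Chart R F k ι κ) (q n : ℕ) (h : F) (g : ∀ i, κ i)
    (S : Setup C q n h g) (β : C.B) : β ∈ goodIdeal C q n h g S ↔ C.Good h n g β := Iff.rfl

/-- **(PATCH)**. -/
theorem patch [Fintype ι] (C : Chart R F k ι κ) (q n : ℕ) (h : F) (g : ∀ i, κ i)
    (S : Setup C q n h g)
    (hloc : ∀ 𝔪 : Ideal C.B, 𝔪.IsMaximal → (∃ i, C.Icomp i ≤ 𝔪) →
      ∃ β : C.B, β ∉ 𝔪 ∧ C.Good h n g β) :
    ∃ a : F, h * a ^ n ∈ C.B ∧ ∀ i, C.rd i a = g i := by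
  classical
  have htop : goodIdeal C q n h g S = ⊤ := by
    by_contra hne
    obtain ⟨𝔪, hmax, hle⟩ := Ideal.exists_le_maximal _ hne
    by_cases hex : ∃ i, C.Icomp i ≤ 𝔪
    · obtain ⟨β, hβ, hgood⟩ := hloc 𝔪 hmax hex
      exact hβ (hle hgood)
    · push Not at hex
      have hch : ∀ i, ∃ β : C.B, β ∈ C.Icomp i ∧ β ∉ 𝔪 := fun i =>
        Set.not_subset.1 (hex i)
      choose τ hτ1 hτ2 using hch
      have hprod : ∏ i, τ i ∉ 𝔪 := by
        intro hmem
        obtain ⟨i, -, hi⟩ := (Ideal.IsPrime.prod_mem_iff (hp := hmax.isPrime)).1 hmem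
        exact hτ2 i hi
      apply hprod
      apply hle
      refine ⟨0, ?_, fun i => ?_⟩
      · rw [zero_pow S.n_pos.ne', mul_zero]
        exact C.B.zero_mem
      · have h0 : C.rdB i (∏ i, τ i) = 0 := by
          rw [map_prod]
          exact Finset.prod_eq_zero (Finset.mem_univ i) ((C.mem_Icomp i _).1 (hτ1 i))
        rw [C.rd_zero, h0, zero_mul]
  have h1 : (1 : C.B) ∈ goodIdeal C q n h g S := by
    rw [htop]
    exact Submodule.mem_top
  obtain ⟨a, ha, hra⟩ := h1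
  refine ⟨a, ha, fun i => ?_⟩
  rw [hra, map_one, one_mul]

theorem stmt_Patch : Stmt_Patch := by
  intro R F k ι κ _ _ _ _ _ _ _ C q n h g S hloc
  exact patch C q n h g S hloc

/-- Two sections: `u s' / s ∈ B` where `u = h sⁿ`. -/
theorem ratio_mem (B : Subalgebra R F) (n : ℕ) (hn : 0 < n)
    (hroot : ∀ x : F, x ^ n ∈ B → x ∈ B) (h : F) {s s' : F} (hs : h * s ^ n ∈ B)
    (hs' : h * s' ^ n ∈ B) : h * s ^ (n - 1) * s' ∈ B := by
  have := mixed_mem B h n hroot hs hs' (n - 1) 1 (by omega)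
  rwa [pow_one] at this

/-- **(SEMI)**: a common local generator at finitely many closed points. -/
theorem semi (B : Subalgebra R F) (n : ℕ) (hn : 0 < n)
    (hroot : ∀ x : F, x ^ n ∈ B → x ∈ B) (h : F) (T : Finset (Ideal B))
    (hT : ∀ 𝔪 ∈ T, 𝔪.IsMaximal)
    (hloc : ∀ 𝔪 ∈ T, ∃ (s : F) (hs : h * s ^ n ∈ B), (⟨h * s ^ n, hs⟩ : B) ∉ 𝔪) :
    ∃ (w : F) (hw : h * w ^ n ∈ B), ∀ 𝔪 ∈ T, (⟨h * w ^ n, hw⟩ : B) ∉ 𝔪 := by
  classical
  -- local generators
  have hloc' : ∀ 𝔪 : Ideal B, ∃ s : F, h * s ^ n ∈ B ∧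
      (𝔪 ∈ T → ∀ hs : h * s ^ n ∈ B, (⟨h * s ^ n, hs⟩ : B) ∉ 𝔪) := by
    intro 𝔪
    by_cases hm : 𝔪 ∈ T
    · obtain ⟨s, hs, h1⟩ := hloc 𝔪 hm
      exact ⟨s, hs, fun _ _ => h1⟩
    · refine ⟨0, ?_, fun h1 => absurd h1 hm⟩
      rw [zero_pow hn.ne', mul_zero]
      exact B.zero_mem
  choose s hs hsu using hloc'
  -- separating elements
  have hsep : ∀ 𝔪 ∈ T, ∃ e : B, e ∉ 𝔪 ∧ ∀ 𝔪' ∈ T, 𝔪' ≠ 𝔪 → e ∈ 𝔪' := by
    intro 𝔪 hm
    have hmax := hT 𝔪 hm
    have h1 : ∀ 𝔪' ∈ T.erase 𝔪, ∃ x : B, x ∈ 𝔪' ∧ x ∉ 𝔪 := by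
      intro 𝔪' hm'
      have hne : 𝔪' ≠ 𝔪 := Finset.ne_of_mem_erase hm'
      have hm'T : 𝔪' ∈ T := Finset.mem_of_mem_erase hm'
      have : ¬ 𝔪' ≤ 𝔪 := fun hle => hne ((hT 𝔪' hm'T).eq_of_le hmax.ne_top hle)
      exact Set.not_subset.1 this
    choose! x hx1 hx2 using h1
    refine ⟨∏ 𝔪' ∈ T.erase 𝔪, x 𝔪', ?_, ?_⟩
    · intro hmem
      obtain ⟨𝔪', hm', hi⟩ := (Ideal.IsPrime.prod_mem_iff (hp := hmax.isPrime)).1 hmem
      exact hx2 𝔪' hm' hi
    · intro 𝔪' hm' hne
      have hmem : 𝔪' ∈ T.erase 𝔪 := Finset.mem_erase.2 ⟨hne, hm'⟩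
      exact Ideal.prod_mem 𝔪' hmem (hx1 𝔪' hmem)
  have hsep' : ∀ 𝔪 : Ideal B, ∃ e : B, 𝔪 ∈ T → (e ∉ 𝔪 ∧ ∀ 𝔪' ∈ T, 𝔪' ≠ 𝔪 → e ∈ 𝔪') := by
    intro 𝔪
    by_cases hm : 𝔪 ∈ T
    · obtain ⟨e, he⟩ := hsep 𝔪 hm
      exact ⟨e, fun _ => he⟩
    · exact ⟨0, fun h1 => absurd h1 hm⟩
  choose e he using hsep'
  set w : F := ∑ 𝔪 ∈ T, (e 𝔪 : F) * s 𝔪 with hw
  have hwM : w ∈ rootMod B h n hn hroot := by
    rw [hw]
    refine Submodule.sum_mem _ (fun 𝔪 _ => ?_)
    exact mul_mem_rootMod B h n hn hroot (e 𝔪).2 (hs 𝔪)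
  have hwB : h * w ^ n ∈ B := hwM
  refine ⟨w, hwB, fun 𝔪 hm habs => ?_⟩
  have hmax := hT 𝔪 hm
  have hprime := hmax.isPrime
  -- `σ 𝔪' = h s₀ⁿ⁻¹ s 𝔪' ∈ B`
  have hσ : ∀ 𝔪', h * s 𝔪 ^ (n - 1) * s 𝔪' ∈ B := fun 𝔪' =>
    ratio_mem B n hn hroot h (hs 𝔪) (hs 𝔪')
  set ρ : B := ∑ 𝔪' ∈ T, e 𝔪' * ⟨_, hσ 𝔪'⟩ with hρ
  have hρF : (ρ : F) = h * s 𝔪 ^ (n - 1) * w := by
    rw [hρ, hw, Finset.mul_sum]
    push_cast
    refine Finset.sum_congr rfl (fun 𝔪' _ => ?_)
    ring
  -- `ρ ∉ 𝔪`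
  have hρ1 : ρ ∉ 𝔪 := by
    intro hmem
    have hsplit : ρ = e 𝔪 * ⟨_, hσ 𝔪⟩ + ∑ 𝔪' ∈ T.erase 𝔪, e 𝔪' * ⟨_, hσ 𝔪'⟩ := by
      rw [hρ, ← Finset.add_sum_erase T _ hm]
    have hrest : ∑ 𝔪' ∈ T.erase 𝔪, e 𝔪' * (⟨_, hσ 𝔪'⟩ : B) ∈ 𝔪 := by
      refine Ideal.sum_mem _ (fun 𝔪' hm' => ?_)
      have hne : 𝔪 ≠ 𝔪' := (Finset.ne_of_mem_erase hm').symm
      have hm'T : 𝔪' ∈ T := Finset.mem_of_mem_erase hm'
      exact Ideal.mul_mem_right _ _ ((he 𝔪' hm'T).2 𝔪 hm hne)
    have h1 : e 𝔪 * (⟨_, hσ 𝔪⟩ : B) ∈ 𝔪 := by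
      have := Ideal.sub_mem _ hmem hrest
      rwa [hsplit, add_sub_cancel_right] at this
    rcases hprime.mem_or_mem h1 with h2 | h2
    · exact (he 𝔪 hm).1 h2
    · apply hsu 𝔪 hm (hs 𝔪)
      have h3 : (⟨h * s 𝔪 ^ n, hs 𝔪⟩ : B) = ⟨_, hσ 𝔪⟩ := by
        apply Subtype.ext
        show h * s 𝔪 ^ n = h * s 𝔪 ^ (n - 1) * s 𝔪
        obtain ⟨m, rfl⟩ : ∃ m, n = m + 1 := ⟨n - 1, by omega⟩
        simp only [Nat.add_sub_cancel]
        ring
      rw [h3]
      exact h2
  -- `ρⁿ = uⁿ⁻¹ (h wⁿ)`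
  have hpow : ρ ^ n = (⟨h * s 𝔪 ^ n, hs 𝔪⟩ : B) ^ (n - 1) * ⟨h * w ^ n, hwB⟩ := by
    apply Subtype.ext
    push_cast
    rw [hρF]
    obtain ⟨m, rfl⟩ : ∃ m, n = m + 1 := ⟨n - 1, by omega⟩
    simp only [Nat.add_sub_cancel]
    ring
  have h4 : ρ ^ n ∈ 𝔪 := by
    rw [hpow]
    exact Ideal.mul_mem_left _ _ habs
  exact hρ1 (hprime.mem_of_pow_mem n h4)

theorem stmt_Semi : Stmt_Semi := by
  intro R F _ _ _ B n hn hroot h T hT hloc
  exact semi B n hn hroot h T hT hloc

end Fermat.Agent.S36.NU.H16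

end
end
-- ==== END Fermat.Agent.S36.NU.H16_Patch

-- ==== BEGIN Fermat.Agent.S36.NU.H17_NormalQ23Abs
section

/-!
# S36 / NU-B, leaf (L2-i) for `q = 2, 3`, abstract part (helper17): change of chart `h ↦ j`

`h` a Hauptmodul chart, `j h^p = P(h)` with `P` monic of degree `p + 1`, `P(0) ≠ 0`
(`p = 2`: `P = (X + 256)³`; `p = 3`: `P = (X + 27)(X + 243)³`).

* `exists_pow_mul_isIntegral` : `y` integral over `k[j]` ⟹ `h^e y` integral over `k[h]`;
* `isIntegral_haupt`, `isIntegral_haupt_inv` : `h` and `1/h` are integral over `C[j]`;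
* `isIntegral_adjoin_trans` : integral over `C[h]` ⟹ integral over `C[j]`;
* `isIntegral_div_pow` : `f` integral over `C[h]` ⟹ `f / h^e` integral over `C[j]`.
-/

set_option autoImplicit false
set_option linter.style.haveILetI false
set_option linter.unusedSectionVars false

noncomputable section

open Polynomial

namespace Fermat.Agent.S36.NU.H17

section Scale

variable {k κ : Type*} [Field k] [Field κ] [Algebra k κ]

/-- Every element of `k[j]` times a high power of `h` lies in `k[h]`, if `j h^p ∈ k[h]`. -/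
theorem exists_pow_mul_mem_adjoin (h j : κ) (p : ℕ)
    (hrel : j * h ^ p ∈ Algebra.adjoin k {h}) {c : κ} (hc : c ∈ Algebra.adjoin k {j}) :
    ∃ m : ℕ, ∀ n, m ≤ n → h ^ n * c ∈ Algebra.adjoin k {h} := by
  have hh : h ∈ Algebra.adjoin k {h} := Algebra.subset_adjoin rfl
  induction hc using Algebra.adjoin_induction with
  | mem c hc =>
    rw [Set.mem_singleton_iff] at hc
    subst hc
    refine ⟨p, fun n hn => ?_⟩
    obtain ⟨d, rfl⟩ := Nat.exists_eq_add_of_le hn
    have : h ^ (p + d) * c = h ^ d * (c * h ^ p) := by ring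
    rw [this]
    exact mul_mem (pow_mem hh d) hrel
  | algebraMap r =>
    exact ⟨0, fun n _ => mul_mem (pow_mem hh n) (Subalgebra.algebraMap_mem _ r)⟩
  | add a b _ _ ha hb =>
    obtain ⟨ma, hma⟩ := ha
    obtain ⟨mb, hmb⟩ := hb
    refine ⟨max ma mb, fun n hn => ?_⟩
    rw [mul_add]
    exact add_mem (hma n (le_trans (le_max_left _ _) hn)) (hmb n (le_trans (le_max_right _ _) hn))
  | mul a b _ _ ha hb =>
    obtain ⟨ma, hma⟩ := ha
    obtain ⟨mb, hmb⟩ := hb
    refine ⟨ma + mb, fun n hn => ?_⟩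
    obtain ⟨d, rfl⟩ := Nat.exists_eq_add_of_le hn
    have : h ^ (ma + mb + d) * (a * b) = (h ^ ma * a) * (h ^ (mb + d) * b) := by ring
    rw [this]
    exact mul_mem (hma ma le_rfl) (hmb (mb + d) (Nat.le_add_right _ _))

/-- `y` integral over `k[j]` ⟹ `h^e y` integral over `k[h]`, if `j h^p ∈ k[h]`. -/
theorem exists_pow_mul_isIntegral (h j : κ) (p : ℕ)
    (hrel : j * h ^ p ∈ Algebra.adjoin k {h}) {y : κ}
    (hy : IsIntegral ↥(Algebra.adjoin k {j}) y) :
    ∃ e : ℕ, IsIntegral ↥(Algebra.adjoin k {h}) (h ^ e * y) := by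
  classical
  obtain ⟨Φ, hΦ, hΦc, hΦy⟩ := exists_monic_coeff_mem (Algebra.adjoin k {j}) hy
  have hh : h ∈ Algebra.adjoin k {h} := Algebra.subset_adjoin rfl
  choose m hm using fun i => exists_pow_mul_mem_adjoin h j p hrel (hΦc i)
  set M := (Finset.range (Φ.natDegree + 1)).sup m with hM
  have hMi : ∀ i, i ≤ Φ.natDegree → h ^ M * Φ.coeff i ∈ Algebra.adjoin k {h} := fun i hi =>
    hm i M (Finset.le_sup (f := m) (Finset.mem_range.2 (Nat.lt_succ_of_le hi)))
  refine ⟨M, isIntegral_of_monic_coeff_mem (Algebra.adjoin k {h}) _ (Φ.scaleRoots (h ^ M))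
    ((monic_scaleRoots_iff _).2 hΦ) (fun i => ?_) ?_⟩
  · rw [coeff_scaleRoots]
    rcases lt_trichotomy i Φ.natDegree with hi | hi | hi
    · obtain ⟨d, hd⟩ := Nat.exists_eq_add_of_lt hi
      have e1 : Φ.natDegree - i = d + 1 := by omega
      rw [e1, pow_succ]
      have : Φ.coeff i * ((h ^ M) ^ d * h ^ M) = (h ^ M) ^ d * (h ^ M * Φ.coeff i) := by ring
      rw [this]
      exact mul_mem (pow_mem (pow_mem hh M) d) (hMi i hi.le)
    · rw [hi, Nat.sub_self, pow_zero, mul_one]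
      have : Φ.coeff Φ.natDegree = 1 := hΦ
      rw [this]
      exact one_mem _
    · rw [Polynomial.coeff_eq_zero_of_natDegree_lt hi, zero_mul]
      exact zero_mem _
  · rw [scaleRoots_eval_mul, hΦy, mul_zero]

end Scale

section Haupt

variable {E F : Type*} [Field E] [Field F] [Algebra E F]

/-- `h` is integral over `C[j]`, if `j h^p = P(h)` with `P` monic of degree `> p`. -/
theorem isIntegral_haupt (h j : F) (P : E[X]) (p : ℕ) (hP : P.Monic) (hPd : p < P.natDegree)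
    (hrel : j * h ^ p = aeval h P) : IsIntegral ↥(Algebra.adjoin E {j}) h := by
  have hdeg : (C j * X ^ p : F[X]).degree < (P.map (algebraMap E F)).degree := by
    refine degree_lt_degree (lt_of_le_of_lt (natDegree_C_mul_le _ _) ?_)
    rw [natDegree_X_pow, hP.natDegree_map]
    exact hPd
  refine isIntegral_of_monic_coeff_mem (Algebra.adjoin E {j}) h
    (P.map (algebraMap E F) - C j * X ^ p) ((hP.map _).sub_of_left hdeg) (fun i => ?_) ?_
  · rw [coeff_sub, coeff_map, coeff_C_mul, coeff_X_pow]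
    refine sub_mem (Subalgebra.algebraMap_mem _ _) ?_
    split_ifs
    · rw [mul_one]
      exact Algebra.subset_adjoin rfl
    · rw [mul_zero]
      exact zero_mem _
  · rw [eval_sub, eval_mul, eval_C, eval_pow, eval_X, eval_map, ← aeval_def, hrel, sub_self]

/-- `1/h` is integral over `C[j]`, if `j h^p = P(h)`, `P` monic of degree `> p ≥ 1`,
`P(0) ≠ 0`. -/
theorem isIntegral_haupt_inv (h j : F) (P : E[X]) (p : ℕ) (hP : P.Monic) (hPd : p < P.natDegree)
    (hp : 0 < p) (hP0 : P.coeff 0 ≠ 0) (hrel : j * h ^ p = aeval h P) :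
    IsIntegral ↥(Algebra.adjoin E {j}) h⁻¹ := by
  have hh := isIntegral_haupt h j P p hP hPd hrel
  -- `h * w = P(0)` with `w = j h^(p-1) - (divX P)(h)`
  set w : F := j * h ^ (p - 1) - aeval h (divX P) with hw
  have e1 : aeval h P = aeval h (divX P) * h + algebraMap E F (P.coeff 0) := by
    conv_lhs => rw [← divX_mul_X_add P]
    simp only [map_add, map_mul, aeval_X, aeval_C]
  have e2 : h * w = algebraMap E F (P.coeff 0) := by
    have hp' : h ^ p = h * h ^ (p - 1) := by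
      rw [← pow_succ', Nat.sub_add_cancel hp]
    rw [hw, mul_sub, ← mul_assoc, mul_comm h j, mul_assoc, ← hp', hrel, e1]
    ring
  have ha0 : algebraMap E F (P.coeff 0) ≠ 0 := by
    rw [Ne, map_eq_zero]
    exact hP0
  have hh0 : h ≠ 0 := by
    rintro rfl
    rw [zero_mul] at e2
    exact ha0 e2.symm
  have e3 : h⁻¹ = algebraMap E F (P.coeff 0)⁻¹ * w := by
    rw [map_inv₀, ← e2, mul_inv, mul_assoc, inv_mul_cancel₀ ?_]
    · rw [mul_one]
    · intro hw0
      rw [hw0, mul_zero] at e2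
      exact ha0 e2.symm
  have hjint : IsIntegral ↥(Algebra.adjoin E {j}) j := by
    have : j = algebraMap ↥(Algebra.adjoin E {j}) F ⟨j, Algebra.subset_adjoin rfl⟩ := rfl
    rw [this]
    exact isIntegral_algebraMap
  have hcint : ∀ c : E, IsIntegral ↥(Algebra.adjoin E {j}) (algebraMap E F c) := fun c => by
    have : algebraMap E F c = algebraMap ↥(Algebra.adjoin E {j}) F
        ⟨algebraMap E F c, Subalgebra.algebraMap_mem _ c⟩ := rfl
    rw [this]
    exact isIntegral_algebraMap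
  have hpoly : ∀ Q : E[X], IsIntegral ↥(Algebra.adjoin E {j}) (aeval h Q) := by
    intro Q
    induction Q using Polynomial.induction_on with
    | C a => rw [aeval_C]; exact hcint a
    | add Q Q' hQ hQ' => rw [map_add]; exact hQ.add hQ'
    | monomial n a _ =>
      rw [map_mul, aeval_C, map_pow, aeval_X]
      exact (hcint a).mul (hh.pow _)
  rw [e3, hw]
  exact (hcint _).mul ((hjint.mul (hh.pow _)).sub (hpoly _))

/-- Integrality over `C[h]` implies integrality over `C[j]`, if `h` is integral over `C[j]`. -/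
theorem isIntegral_adjoin_trans (h j : F) (hh : IsIntegral ↥(Algebra.adjoin E {j}) h) {f : F}
    (hf : IsIntegral ↥(Algebra.adjoin E {h}) f) : IsIntegral ↥(Algebra.adjoin E {j}) f := by
  set S := integralClosure ↥(Algebra.adjoin E {j}) F with hS
  have hle : ∀ b ∈ Algebra.adjoin E {h}, b ∈ S := by
    intro b hb
    induction hb using Algebra.adjoin_induction with
    | mem b hb =>
      rw [Set.mem_singleton_iff] at hb
      subst hb
      exact hh
    | algebraMap c =>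
      have : algebraMap E F c = algebraMap ↥(Algebra.adjoin E {j}) F
          ⟨algebraMap E F c, Subalgebra.algebraMap_mem _ c⟩ := rfl
      rw [this]
      exact Subalgebra.algebraMap_mem S _
    | add a b _ _ ha hb => exact add_mem ha hb
    | mul a b _ _ ha hb => exact mul_mem ha hb
  have h1 : IsIntegral ↥S f :=
    isIntegral_of_le (A := ↥(Algebra.adjoin E {h})) (B := ↥S)
      (fun a => ⟨⟨(a : F), hle a a.2⟩, rfl⟩) hf
  exact isIntegral_trans f h1

/-- `f` integral over `C[h]` ⟹ `f / h^e` integral over `C[j]`. -/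
theorem isIntegral_div_pow (h j : F) (P : E[X]) (p : ℕ) (hP : P.Monic) (hPd : p < P.natDegree)
    (hp : 0 < p) (hP0 : P.coeff 0 ≠ 0) (hrel : j * h ^ p = aeval h P) {f : F}
    (hf : IsIntegral ↥(Algebra.adjoin E {h}) f) (e : ℕ) :
    IsIntegral ↥(Algebra.adjoin E {j}) (f * h⁻¹ ^ e) :=
  (isIntegral_adjoin_trans h j (isIntegral_haupt h j P p hP hPd hrel) hf).mul
    ((isIntegral_haupt_inv h j P p hP hPd hp hP0 hrel).pow e)

end Haupt

end Fermat.Agent.S36.NU.H17

end
end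
-- ==== END Fermat.Agent.S36.NU.H17_NormalQ23Abs

-- ==== BEGIN Fermat.Agent.S36.NU.H17_TIRadQ
section

/-!
# S36 / NU-B, leaf TI3-VAL, glue (helper17): (RADQ) and the chart criterion

`C : Chart R F k ι κ` (helper16), `B = C.B` the coordinate ring, `V i` the vertical valuations.

* `isRadQ_of_rd_eq_zero` : **(RADQ)** if `B` is cut out of a ring `H` (the integral closure of
  `K[j]`, the "horizontal" conditions) by the valuations `V i`, the `V i` are of rank one and
  `q⁻¹ ∈ H`, then every `β ∈ B` with `rd i β = 0` for all `i` is nilpotent modulo `q B`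
  (`IsRadQ B q β` of helper65);
* `mem_B_of_forall_mem` : the chart criterion `crit` from TI3-VAL
  (`isIntegral_adjoin_of_forall_mem`) when `B` is the integral closure of `R[j]`;
* `isRadQ_of_rd_eq_zero_adjoin` : (RADQ) for `B` = the integral closure of `R[j]`.
-/

set_option autoImplicit false
set_option linter.style.haveILetI false
set_option linter.unusedSectionVars false

noncomputable section

open Polynomial IntermediateField

namespace Fermat.Agent.S36.NU.H17

open Fermat.Agent.S36.NU.H16 Fermat.Agent.S36.NU.H65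

section RadQ

variable {R F k ι : Type*} {κ : ι → Type*} [CommRing R] [Field F] [Algebra R F]
  [Field k] [∀ i, Field (κ i)] [∀ i, Algebra k (κ i)] (C : Chart R F k ι κ)

/-- Rank one, uniformly for finitely many valuation rings: a common exponent. -/
theorem exists_pow_mul_inv_mem [Finite ι] (V : ι → ValuationSubring F)
    (harch : ∀ i, ∀ x y : F, (V i).valuation x < 1 → y ≠ 0 →
      ∃ n : ℕ, (V i).valuation (x ^ n) < (V i).valuation y)
    {β y : F} (hy : y ≠ 0) (hβ : ∀ i, (V i).valuation β < 1) :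
    ∃ e : ℕ, ∀ i, β ^ e * y⁻¹ ∈ V i := by
  classical
  haveI := Fintype.ofFinite ι
  choose n hn using fun i => harch i β y (hβ i) hy
  refine ⟨Finset.univ.sup n, fun i => ?_⟩
  have hle : n i ≤ Finset.univ.sup n := Finset.le_sup (Finset.mem_univ i)
  obtain ⟨d, hd⟩ := Nat.exists_eq_add_of_le hle
  have e1 : β ^ Finset.univ.sup n * y⁻¹ = β ^ n i * y⁻¹ * β ^ d := by
    rw [hd, pow_add]; ring
  rw [← ValuationSubring.valuation_le_one_iff, e1, map_mul]
  have h1 : (V i).valuation (β ^ d) ≤ 1 := by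
    rw [map_pow]
    exact pow_le_one₀ zero_le (hβ i).le
  have hy0 : (V i).valuation y ≠ 0 := (Valuation.ne_zero_iff _).2 hy
  have h2 : (V i).valuation (β ^ n i * y⁻¹) ≤ 1 := by
    rw [map_mul, map_inv₀]
    have := (hn i).le
    calc (V i).valuation (β ^ n i) * ((V i).valuation y)⁻¹
        ≤ (V i).valuation y * ((V i).valuation y)⁻¹ := by gcongr
      _ = 1 := mul_inv_cancel₀ hy0
  calc (V i).valuation (β ^ n i * y⁻¹) * (V i).valuation (β ^ d) ≤ 1 * 1 := by gcongr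
    _ = 1 := mul_one 1

/-- **(RADQ)**: `B = H ∩ ⋂ V i`, the `V i` of rank one, `q⁻¹ ∈ H`: every `β ∈ B` with zero
residues is nilpotent modulo `q B`. -/
theorem isRadQ_of_rd_eq_zero [Finite ι] (q : R) (hq : algebraMap R F q ≠ 0)
    (H : Subring F) (hBH : ∀ x ∈ C.B, x ∈ H) (hqH : (algebraMap R F q)⁻¹ ∈ H)
    (crit : ∀ f ∈ H, (∀ i, f ∈ C.V i) → f ∈ C.B)
    (harch : ∀ i, ∀ x y : F, (C.V i).valuation x < 1 → y ≠ 0 →
      ∃ n : ℕ, (C.V i).valuation (x ^ n) < (C.V i).valuation y)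
    {β : F} (hβ : β ∈ C.B) (hrd : ∀ i, C.rd i β = 0) : IsRadQ C.B q β := by
  have hv : ∀ i, (C.V i).valuation β < 1 := by
    intro i
    have := (C.rd_eq_zero_iff i (C.B_le i β hβ)).1 (hrd i)
    rwa [ValuationSubring.mem_nonunits_iff] at this
  obtain ⟨e, he⟩ := exists_pow_mul_inv_mem C.V harch hq hv
  refine ⟨e, β ^ e * (algebraMap R F q)⁻¹, ?_, ?_⟩
  · exact crit _ (mul_mem (pow_mem (hBH β hβ) e) hqH) he
  · rw [Algebra.smul_def, mul_comm (β ^ e), ← mul_assoc, mul_inv_cancel₀ hq, one_mul]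

end RadQ

section Adjoin

variable (R K : Type*) {F k ι : Type*} {κ : ι → Type*} [CommRing R] [Field K] [Field F]
  [Algebra R K] [Algebra K F] [Algebra R F] [IsScalarTower R K F]
  [Field k] [∀ i, Field (κ i)] [∀ i, Algebra k (κ i)] (C : Chart R F k ι κ) (j : F)

/-- The chart criterion: if `B` is the integral closure of `R[j]`, then
`f` integral over `K[j]` and `f ∈ V i` for all `i` imply `f ∈ B`
(under the hypotheses `hG`, `hthree` of `isIntegral_adjoin_of_forall_mem`). -/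
theorem mem_B_of_forall_mem (hj : Transcendental K j)
    (hB : ∀ x : F, IsIntegral ↥(Algebra.adjoin R {j}) x → x ∈ C.B) (i₀ : ι)
    (hG : ∀ p : K[X], aeval j p ∈ C.V i₀ → ∀ i, p.coeff i ∈ (algebraMap R K).range)
    (hthree : ∀ f : F, (∀ i, f ∈ C.V i) →
      ∃ P : F[X], P.Monic ∧ (∀ m, P.coeff m ∈ C.V i₀ ∧ P.coeff m ∈ K⟮j⟯) ∧ P.eval f = 0)
    {f : F} (hf₁ : IsIntegral ↥(Algebra.adjoin K {j}) f) (hf₂ : ∀ i, f ∈ C.V i) : f ∈ C.B :=
  hB f (isIntegral_adjoin_of_forall_mem R K j hj C.V i₀ hG hthree hf₁ hf₂)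

/-- **(RADQ)** for the integral closure of `R[j]`. -/
theorem isRadQ_of_rd_eq_zero_adjoin [Finite ι] (hj : Transcendental K j)
    (hB : ∀ x : F, x ∈ C.B ↔ IsIntegral ↥(Algebra.adjoin R {j}) x) (i₀ : ι)
    (hG : ∀ p : K[X], aeval j p ∈ C.V i₀ → ∀ i, p.coeff i ∈ (algebraMap R K).range)
    (hthree : ∀ f : F, (∀ i, f ∈ C.V i) →
      ∃ P : F[X], P.Monic ∧ (∀ m, P.coeff m ∈ C.V i₀ ∧ P.coeff m ∈ K⟮j⟯) ∧ P.eval f = 0)
    (harch : ∀ i, ∀ x y : F, (C.V i).valuation x < 1 → y ≠ 0 →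
      ∃ n : ℕ, (C.V i).valuation (x ^ n) < (C.V i).valuation y)
    (q : R) (hq : algebraMap R F q ≠ 0)
    {β : F} (hβ : β ∈ C.B) (hrd : ∀ i, C.rd i β = 0) : IsRadQ C.B q β := by
  refine isRadQ_of_rd_eq_zero C q hq
    (integralClosure ↥(Algebra.adjoin K {j}) F).toSubring ?_ ?_ ?_ harch hβ hrd
  · intro x hx
    exact isIntegral_adjoin_field R K j ((hB x).1 hx)
  · have e : (algebraMap R F q)⁻¹ = algebraMap ↥(Algebra.adjoin K {j}) F
        ⟨algebraMap K F (algebraMap R K q)⁻¹, Subalgebra.algebraMap_mem _ _⟩ := by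
      rw [IsScalarTower.algebraMap_apply R K F, ← map_inv₀]
      rfl
    rw [e]
    exact isIntegral_algebraMap
  · intro f hf hfV
    exact mem_B_of_forall_mem R K C j hj (fun x hx => (hB x).2 hx) i₀ hG hthree hf hfV

end Adjoin

end Fermat.Agent.S36.NU.H17

end
end
-- ==== END Fermat.Agent.S36.NU.H17_TIRadQ

-- ==== BEGIN Fermat.Agent.S36.NU.H23_Tot3Abs
section

/-!
# S36 / NU-B, leaf TOT3-MOD, step 1 (helper23): the law of total conservation from NORM-RED-r

Abstract bridge between helper42's norm reduction with ramification (`H42.NRData`, fields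
`E₀ ⊆ L₀` with DISCRETE valuations; modular: the functions with coefficients in `K^ur`) and
helper79's conservation datum `TotN` (places of `L ⊇ L₀` over the algebraically closed
field `K`; modular: `L = F_N · ℚ̄`, `E = F_{M'} · ℚ̄`).

Inputs:
* `D : NRData E₀ L₀ Et ι κ` with `∑ e i [κ i : Et] = [L₀ : E₀]`;
* `SE : RedSetup K E k E'`, the reduction datum of the lower level over `K`, compatible with
  `D.VE`, `D.redE` through `E₀ → E`, `j : Et → E'`;
* the norm formula for places of `L / E`, inertia degrees `1`;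
* the norm of `L₀ / E₀` is the norm of `L / E` (`hNm`; modular: linear disjointness);
* the constants of `L₀` come from `E₀`;
* `ρ P = κz⁻¹ (SE.r (P | E))` and `ord_{κz z} (j (N_{κ i / Et} g)) = ord_{pt i z} g`.

Output: `tot_of_normRedR` (the field `tot` of `TotN` with `m = D.e`) and `totN_of_normRedR`
(the structure `TotN`).
-/

set_option autoImplicit false
set_option linter.style.haveILetI false
set_option linter.unusedSectionVars false

noncomputable section

open AlgebraicCurve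

attribute [local instance] Classical.propDecidable

namespace Fermat.Agent.S36.NU.H23

open Fermat.Agent.RED.H17 Fermat.Agent.RED Fermat.Agent.BAD Fermat.Agent.S36.NU.H79

variable {K E L k E' : Type} [Field K] [Field E] [Field L] [Field k] [Field E']
  [Algebra K E] [Algebra K L] [Algebra E L] [IsScalarTower K E L] [Module.Finite E L]
  [Algebra k E']
  {E₀ L₀ Et : Type} [Field E₀] [Field L₀] [Field Et] [Algebra E₀ L₀] [Module.Finite E₀ L₀]
  [Algebra E₀ E] [Algebra L₀ L]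
  {ι : Type} [Fintype ι] [DecidableEq ι] {κ : ι → Type} [∀ i, Field (κ i)]
  [∀ i, Algebra Et (κ i)] [∀ i, Module.Finite Et (κ i)] [∀ i, Algebra k (κ i)]
  {Z : Type}

/-- The residue maps of an `NRData` vanish exactly on the maximal ideal. -/
theorem nr_red_eq_zero_iff (D : H42.NRData E₀ L₀ Et ι κ) (i : ι) (u : ↥(D.V i)) :
    D.red i u = 0 ↔ u ∈ IsLocalRing.maximalIdeal ↥(D.V i) := by
  rw [IsLocalRing.mem_maximalIdeal, mem_nonunits_iff]
  constructor
  · intro h hu
    exact (hu.map (D.red i)).ne_zero h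
  · exact D.hker i u

/-- **TOT3-ABS (bridge)**: the law of total conservation for several valuations with
ramification, from NORM-RED-r and the conservation law of the lower level. -/
theorem tot_of_normRedR (SE : RedSetup K E k E') (hPE : HasPrincipalDivisors K E)
    (hin : ∀ w : Place K L, w.inertiaDeg E = 1)
    (hnorm : Divisor.PushforwardNormFormula K E L)
    (D : H42.NRData E₀ L₀ Et ι κ)
    (hdeg : ∑ i, D.e i * Module.finrank Et (κ i) = Module.finrank E₀ L₀)
    (j : Et →+* E')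
    (hsq : ∀ x : E₀, algebraMap E L (algebraMap E₀ E x) = algebraMap L₀ L (algebraMap E₀ L₀ x))
    (hNm : ∀ g : L₀, Algebra.norm E (algebraMap L₀ L g) = algebraMap E₀ E (Algebra.norm E₀ g))
    (hVE : ∀ a : E₀, a ∈ D.VE → algebraMap E₀ E a ∈ SE.V)
    (hredE : ∀ (a : ↥D.VE) (ha : algebraMap E₀ E (a : E₀) ∈ SE.V),
      SE.red ⟨_, ha⟩ = j (D.redE a))
    (hconst : ∀ c : L₀, (∃ c' : K, algebraMap L₀ L c = algebraMap K L c') →
      ∃ c₀ : E₀, algebraMap E₀ L₀ c₀ = c)
    (ρ : Place K L → Z) (κz : Z → Place k E') (hκ : Function.Injective κz)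
    (hρ : ∀ P : Place K L, κz (ρ P) = SE.r (P.restrict E))
    (pt : ∀ i, Z → Place k (κ i))
    (hN : ∀ (i : ι) (z : Z) (g : κ i), g ≠ 0 →
      (κz z).ord (j (Algebra.norm Et g)) = (pt i z).ord g) :
    ∀ (g : L₀) (c : ι → L₀),
      (∀ i, ∃ c' : K, c' ≠ 0 ∧ algebraMap L₀ L (c i) = algebraMap K L c') →
      ∀ h : ∀ i, c i * g ∈ D.V i, (∀ i, D.red i ⟨_, h i⟩ ≠ 0) →
      ∀ Dv : Divisor K L, (∀ P, Dv P = P.ord (algebraMap L₀ L g)) → ∀ z : Z,
        Finsupp.mapDomain ρ Dv z = ∑ i, (D.e i : ℤ) * (pt i z).ord (D.red i ⟨_, h i⟩) := by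
  intro g c hc h h0 Dv hDv z
  -- the constants
  choose c' hc'0 hc' using hc
  have hc₀ex : ∀ i, ∃ c₀ : E₀, algebraMap E₀ L₀ c₀ = c i := fun i => hconst (c i) ⟨c' i, hc' i⟩
  choose c₀ hc₀ using hc₀ex
  have hc₀E : ∀ i, algebraMap E₀ E (c₀ i) = algebraMap K E (c' i) := fun i => by
    apply (algebraMap E L).injective
    rw [hsq, hc₀, hc' i, ← IsScalarTower.algebraMap_apply]
  have hc₀0 : ∀ i, c₀ i ≠ 0 := fun i h0 => by
    have := hc₀E i
    rw [h0, map_zero] at this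
    exact hc'0 i ((map_eq_zero_iff _ (algebraMap K E).injective).mp this.symm)
  have hg0 : g ≠ 0 := by
    rintro rfl
    obtain ⟨i₀⟩ : Nonempty ι := by
      by_contra hemp
      rw [not_nonempty_iff] at hemp
      have : Module.finrank E₀ L₀ = 0 := by rw [← hdeg]; simp
      exact (Module.finrank_pos (R := E₀) (M := L₀)).ne' this
    apply h0 i₀
    have : (⟨c i₀ * 0, h i₀⟩ : ↥(D.V i₀)) = 0 := Subtype.ext (mul_zero _)
    rw [this, map_zero]
  have hu : ∀ i, algebraMap E₀ L₀ (c₀ i) * g ∈ D.V i := fun i => by rw [hc₀]; exact h i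
  have hred : ∀ i, D.red i ⟨algebraMap E₀ L₀ (c₀ i) * g, hu i⟩ = D.red i ⟨c i * g, h i⟩ :=
    fun i => congrArg (D.red i)
      (Subtype.ext (show algebraMap E₀ L₀ (c₀ i) * g = c i * g by rw [hc₀]))
  -- norm reduction
  obtain ⟨δ, hδ, hδr⟩ := D.normRed_scaled hdeg g c₀ hc₀0 hu
  have hδV : algebraMap E₀ E (δ : E₀) ∈ SE.V := hVE _ δ.2
  have hnz : ∀ i, Algebra.norm Et (D.red i ⟨c i * g, h i⟩) ≠ 0 := fun i =>
    Algebra.norm_ne_zero_iff.2 (h0 i)
  have hjnz : ∀ i, j (Algebra.norm Et (D.red i ⟨c i * g, h i⟩)) ≠ 0 := fun i =>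
    (map_ne_zero_iff _ j.injective).mpr (hnz i)
  have hδred : SE.red ⟨_, hδV⟩ =
      ∏ i, j (Algebra.norm Et (D.red i ⟨c i * g, h i⟩)) ^ D.e i := by
    rw [hredE δ hδV, hδr, map_prod]
    refine Finset.prod_congr rfl fun i _ => ?_
    rw [map_pow, hred]
  have hδ0 : SE.red ⟨_, hδV⟩ ≠ 0 := by
    rw [hδred]
    exact Finset.prod_ne_zero_iff.2 fun i _ => pow_ne_zero _ (hjnz i)
  have hGU : SE.IsGU (algebraMap E₀ E (δ : E₀)) := ⟨hδV, by rw [SE.rd_of_mem hδV]; exact hδ0⟩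
  -- the orders of the norm
  have hgL : algebraMap L₀ L g ≠ 0 := (map_ne_zero_iff _ (algebraMap L₀ L).injective).mpr hg0
  have hprodK : algebraMap E₀ E (∏ i, c₀ i ^ (D.e i * Module.finrank Et (κ i)))
      = algebraMap K E (∏ i, c' i ^ (D.e i * Module.finrank Et (κ i))) := by
    rw [map_prod, map_prod]
    refine Finset.prod_congr rfl fun i _ => ?_
    rw [map_pow, map_pow, hc₀E]
  have hprod0 : (∏ i, c' i ^ (D.e i * Module.finrank Et (κ i))) ≠ 0 :=
    Finset.prod_ne_zero_iff.2 fun i _ => pow_ne_zero _ (hc'0 i)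
  have hord : ∀ v : Place K E,
      v.ord (Algebra.norm E (algebraMap L₀ L g)) = v.ord (algebraMap E₀ E (δ : E₀)) := by
    intro v
    rw [hNm, ← hδ, map_mul, hprodK]
    exact (ord_algebraMap_mul v hprod0 _).symm
  have hpush : Divisor.pushforward E Dv = dv hPE (algebraMap E₀ E (δ : E₀)) :=
    Finsupp.ext fun v => by rw [hnorm _ hgL Dv hDv v, hord, dv_apply]
  -- transport
  have h3 : Finsupp.mapDomain κz (Finsupp.mapDomain ρ Dv) =
      Finsupp.mapDomain SE.r (dv hPE (algebraMap E₀ E (δ : E₀))) := by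
    rw [← hpush, H28.pushforward_eq_mapDomain hin, ← Finsupp.mapDomain_comp,
      ← Finsupp.mapDomain_comp]
    congr 1
    exact funext hρ
  have h4 : Finsupp.mapDomain ρ Dv z = (κz z).ord (SE.rd (algebraMap E₀ E (δ : E₀))) := by
    rw [← Finsupp.mapDomain_apply hκ (Finsupp.mapDomain ρ Dv) z, h3]
    exact SE.mapDomain_dv hPE hGU (κz z)
  rw [h4, SE.rd_of_mem hδV, hδred,
    ord_prod _ _ _ (fun i _ => pow_ne_zero _ (hjnz i))]
  refine Finset.sum_congr rfl fun i _ => ?_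
  rw [ord_pow, hN i z _ (h0 i)]

/-- **TOT3-ABS (bridge)**, as a structure: the conservation datum `TotN` from NORM-RED-r. -/
def totN_of_normRedR (SE : RedSetup K E k E') (hPE : HasPrincipalDivisors K E)
    (hin : ∀ w : Place K L, w.inertiaDeg E = 1)
    (hnorm : Divisor.PushforwardNormFormula K E L)
    (D : H42.NRData E₀ L₀ Et ι κ)
    (hdeg : ∑ i, D.e i * Module.finrank Et (κ i) = Module.finrank E₀ L₀)
    (j : Et →+* E')
    (hsq : ∀ x : E₀, algebraMap E L (algebraMap E₀ E x) = algebraMap L₀ L (algebraMap E₀ L₀ x))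
    (hNm : ∀ g : L₀, Algebra.norm E (algebraMap L₀ L g) = algebraMap E₀ E (Algebra.norm E₀ g))
    (hVE : ∀ a : E₀, a ∈ D.VE → algebraMap E₀ E a ∈ SE.V)
    (hredE : ∀ (a : ↥D.VE) (ha : algebraMap E₀ E (a : E₀) ∈ SE.V),
      SE.red ⟨_, ha⟩ = j (D.redE a))
    (hconst : ∀ c : L₀, (∃ c' : K, algebraMap L₀ L c = algebraMap K L c') →
      ∃ c₀ : E₀, algebraMap E₀ L₀ c₀ = c)
    (ρ : Place K L → Z) (κz : Z → Place k E') (hκ : Function.Injective κz)
    (hρ : ∀ P : Place K L, κz (ρ P) = SE.r (P.restrict E))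
    (pt : ∀ i, Z → Place k (κ i))
    (hN : ∀ (i : ι) (z : Z) (g : κ i), g ≠ 0 →
      (κz z).ord (j (Algebra.norm Et g)) = (pt i z).ord g)
    (hlift : ∀ a : k, ∃ c : L₀, (∃ c' : K, algebraMap L₀ L c = algebraMap K L c') ∧
      ∀ i, ∃ h : c ∈ D.V i, D.red i ⟨c, h⟩ = algebraMap k (κ i) a) :
    TotN K L₀ L k ι Z κ where
  V := D.V
  red := D.red
  red_eq_zero_iff := nr_red_eq_zero_iff D
  m := D.e
  m_pos := D.he
  ρ := ρ
  pt := pt
  const_lift := hlift
  tot := tot_of_normRedR SE hPE hin hnorm D hdeg j hsq hNm hVE hredE hconst ρ κz hκ hρ pt hN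

end Fermat.Agent.S36.NU.H23

end
end
-- ==== END Fermat.Agent.S36.NU.H23_Tot3Abs

-- ==== BEGIN Fermat.Agent.S36.NU.H26_DivNorm
section
attribute [local instance 10000] SubalgebraClass.toAlgebra
attribute [local instance 10000] HahnSeries.powerSeriesAlgebra

/-!
# S36 / NU-B, leaf DIV→NORM (helper26), input of FIN-TOP

`f ≠ 0` of level `N`, `D = div f`, `φ : F_M → F_N` finite (for instance `α`, `β` at
`N = M q`), `φ_* D = n · div g`.  Then

* `norm_eq_const_mul_pow` : `N_φ f = c · g ^ n` with a constant `c ≠ 0`;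
* `divNorm_alpha`, `divNorm_beta` : the same for the two degeneracy maps, with the hypotheses
  of `H81.Stmt_NUCoreK`.
-/

set_option autoImplicit false
set_option linter.style.haveILetI false
set_option linter.unusedSectionVars false
set_option synthInstance.maxHeartbeats 400000
set_option maxHeartbeats 1000000

noncomputable section

namespace Fermat.Agent.S36.NU.H26

open AlgebraicCurve ModularCurve Fermat.Agent.S24 Fermat.Agent.Lib.HeckeComm
  Fermat.Agent.S36.H44 Fermat.Agent.BAD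

local notation "Kb" => AlgebraicClosure ℚ

section Generic

variable {M N : ℕ} [NeZero M] [NeZero N]

/-- **DIV→NORM.**  If the push-forward of `div f` along `φ` is `n · div g`, then the norm of
`f` along `φ` is a non-zero constant times `g ^ n`. -/
theorem norm_eq_const_mul_pow (φ : FN M →ₐ[Kb] FN N) (hφ : φ.toRingHom.IsIntegral)
    (hfin : FiniteAlong Kb φ) (hN : NormFormulaAlong Kb φ hfin) (n : ℕ)
    (f : FN N) (hf : f ≠ 0) (D : Divisor Kb (FN N)) (hD : ∀ P : Place Kb (FN N), D P = P.ord f)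
    (g : FN M) (hg : g ≠ 0)
    (hpush : ∀ Q : Place Kb (FN M), Divisor.pushforwardAlong φ hφ D Q = n * Q.ord g) :
    ∃ c : Kb, c ≠ 0 ∧ normAlongHom φ.toRingHom f = algebraMap Kb (FN M) c * g ^ n := by
  have hNf0 : normAlongHom φ.toRingHom f ≠ 0 := normAlongHom_ne_zero φ hfin hf
  have hgn0 : g ^ n ≠ 0 := pow_ne_zero n hg
  have hu : ∀ Q : Place Kb (FN M), Q.ord (normAlongHom φ.toRingHom f * (g ^ n)⁻¹) = 0 := by
    intro Q
    rw [Q.ord_mul hNf0 (inv_ne_zero hgn0), Q.ord_inv, Fermat.Agent.RED.H17.ord_pow,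
      ← pushforwardAlong_ord φ hφ hfin hN hf D hD Q, hpush Q]
    ring
  obtain ⟨c, hc⟩ := Fermat.Agent.FL.H2.exists_const_of_ord_eq_zero (isFF_FN M) hu
  refine ⟨c, ?_, ?_⟩
  · rintro rfl
    rw [map_zero] at hc
    exact mul_ne_zero hNf0 (inv_ne_zero hgn0) hc.symm
  · rw [hc, inv_mul_cancel_right₀ hgn0]

end Generic

/-! ## The two degeneracy maps -/

section Modular

variable (M q : ℕ) [NeZero M] [NeZero q]

/-- **DIV→NORM along `α`**, with the hypotheses of `H81.Stmt_NUCoreK`. -/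
theorem divNorm_alpha (n : ℕ) (f : ↥(FNbar (M * q))) (hf : f ≠ 0)
    (hα : HeckeAlphaBarIntegral Kb M q) (D : Divisor Kb ↥(FNbar (M * q)))
    (hD : ∀ P, D P = P.ord f)
    (h : ∃ g : ↥(FNbar M), g ≠ 0 ∧ ∀ Q : Place Kb ↥(FNbar M),
      Divisor.pushforwardAlong (heckeAlphaBar Kb M q) hα D Q = n * Q.ord g) :
    ∃ g : ↥(FNbar M), g ≠ 0 ∧ ∃ c : Kb, c ≠ 0 ∧
      normAlongHom (heckeAlphaBar Kb M q).toRingHom f = algebraMap Kb ↥(FNbar M) c * g ^ n := by
  obtain ⟨g, hg, hpush⟩ := h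
  exact ⟨g, hg, norm_eq_const_mul_pow (heckeAlphaBar Kb M q) hα (alpha_finite M q)
    (alpha_norm M q) n f hf D hD g hg hpush⟩

/-- **DIV→NORM along `β`**, with the hypotheses of `H81.Stmt_NUCoreK`. -/
theorem divNorm_beta (n : ℕ) (f : ↥(FNbar (M * q))) (hf : f ≠ 0)
    (hβ : HeckeBetaBarIntegral Kb M q) (D : Divisor Kb ↥(FNbar (M * q)))
    (hD : ∀ P, D P = P.ord f)
    (h : ∃ g : ↥(FNbar M), g ≠ 0 ∧ ∀ Q : Place Kb ↥(FNbar M),
      Divisor.pushforwardAlong (heckeBetaBar Kb M q) hβ D Q = n * Q.ord g) :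
    ∃ g : ↥(FNbar M), g ≠ 0 ∧ ∃ c : Kb, c ≠ 0 ∧
      normAlongHom (heckeBetaBar Kb M q).toRingHom f = algebraMap Kb ↥(FNbar M) c * g ^ n := by
  obtain ⟨g, hg, hpush⟩ := h
  exact ⟨g, hg, norm_eq_const_mul_pow (heckeBetaBar Kb M q) hβ (beta_finite M q)
    (beta_norm M q) n f hf D hD g hg hpush⟩

end Modular

end Fermat.Agent.S36.NU.H26

end
end
-- ==== END Fermat.Agent.S36.NU.H26_DivNorm

-- ==== BEGIN Fermat.Agent.S36.NU.H30_RamFull
section
attribute [local instance 10000] SubalgebraClass.toAlgebra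
attribute [local instance 10000] HahnSeries.powerSeriesAlgebra

/-!
# S36 / NU-B, leaf RAM (helper30): the packaged statement at auxiliary level

`q ≥ 5`, `q ∤ M`, `4 ∣ M` (so that `X₀(M)` has no elliptic points), `A` over `q`,
`κ = modularFunctionFieldFullC (kV A) M`, `j~ = ⟨jqModC, _⟩ ∈ κ`.

* `ram_nuTwo_eq_zero_of_four_dvd` : `4 ∣ M → ν₂(M) = 0`;
* `ram_exists` : at every place `z` of `κ` at which `j~` is regular there are `j0` and
  `e ∈ {1, 3, 2}` with `ord_z (j~ - j0) = e`, `e = 3` iff `j0 = 0`, `e = 2` iff `j0 = 1728`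
  (the hypotheses `hram`, `hcase` of helper73's `coord_u4_full`).
-/

set_option autoImplicit false
set_option linter.style.haveILetI false
set_option linter.unusedSectionVars false
set_option synthInstance.maxHeartbeats 400000
set_option maxHeartbeats 1000000

noncomputable section

open AlgebraicCurve IntermediateField ModularCurve

namespace Fermat.Agent.S36.NU.H30

open Fermat.Agent.S28.H73 Fermat.Agent.RED.H73 Fermat.Agent.RED Fermat.Agent.RED.H34
  Fermat.Agent.BAD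
open Fermat.Agent.S24 (Kbar FN)

/-- `ν₂(M) = 0` if `4 ∣ M`. -/
theorem ram_nuTwo_eq_zero_of_four_dvd {M : ℕ} (h : 4 ∣ M) : nuTwo M = 0 := by
  unfold nuTwo
  have : IsEmpty {x : ZMod M // x ^ 2 + 1 = 0} := by
    refine ⟨fun x => ?_⟩
    have h1 := congrArg (ZMod.castHom h (ZMod 4)) x.2
    rw [map_add, map_pow, map_one, map_zero] at h1
    revert h1
    generalize (ZMod.castHom h (ZMod 4)) x.1 = y
    revert y
    decide
  exact Nat.card_of_isEmpty

section Main

variable {A : ValuationSubring Kbar} {M q : ℕ} [NeZero M]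

/-- **RAM, packaged**, on the reduced field of level `M`. -/
theorem ram_exists_red (hq : q.Prime) (h5 : 5 ≤ q) (hqM : ¬ q ∣ M) (hA : A.LiesOverPrime q)
    (h2 : nuTwo M = 0) (h3 : nuThree M = 0) (z : Place (kV A) ↥(H91.redM A M))
    (hz : 0 ≤ z.ord (H91.jRed A M)) :
    ∃ (j0 : kV A) (e : ℕ),
      z.ord (H91.jRed A M - algebraMap (kV A) ↥(H91.redM A M) j0) = e ∧
      ((j0 ≠ 0 ∧ j0 ≠ 1728 ∧ e = 1) ∨ (j0 = 0 ∧ e = 3) ∨ (j0 = 1728 ∧ e = 2)) := by
  haveI : IsAlgClosed (kV A) := isAlgClosed_kV A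
  have hFF' : IsFF (kV A) ↥(H91.redM A M) := H91.isFF_redM hq hqM (Or.inl h5) hA
  have H' := RED.H17.ffHyp_of_isFF _ _ hFF'
  obtain ⟨htr, -⟩ := goodChart_pre M q hq hqM A hA
  have htr' : Transcendental (kV A) (H91.jRed A M) := htr
  obtain ⟨j0, hj0⟩ := Fermat.Agent.S24.H85.exists_ord_sub_pos z (H'.deg_one z) htr'
    (Fermat.Agent.S24.H85.mem_of_ord_nonneg z hz)
  by_cases h0 : j0 = 0
  · refine ⟨j0, 3, ?_, Or.inr (Or.inl ⟨h0, rfl⟩)⟩
    subst h0
    rw [map_zero, sub_zero] at hj0 ⊢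
    exact_mod_cast ram_zero_eq hq h5 hqM hA h3 z hj0
  by_cases h1 : j0 = 1728
  · refine ⟨j0, 2, ?_, Or.inr (Or.inr ⟨h1, rfl⟩)⟩
    subst h1
    exact_mod_cast ram_1728_eq hq h5 hqM hA h2 z hj0
  · refine ⟨j0, 1, ?_, Or.inl ⟨h0, h1, rfl⟩⟩
    exact_mod_cast ram_generic_eq hq h5 hqM hA j0 h0 h1 z hj0

/-- Transport of `ram_exists_red` to an equal intermediate field. -/
theorem ram_exists_of (hq : q.Prime) (h5 : 5 ≤ q) (hqM : ¬ q ∣ M) (hA : A.LiesOverPrime q)
    (h2 : nuTwo M = 0) (h3 : nuThree M = 0)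
    (E : IntermediateField (kV A) (LaurentSeries (kV A))) (hE : H91.redM A M = E) (jE : ↥E)
    (hj : (jE : LaurentSeries (kV A)) = jqModC (kV A)) (z : Place (kV A) ↥E)
    (hz : 0 ≤ z.ord jE) :
    ∃ (j0 : kV A) (e : ℕ),
      z.ord (jE - algebraMap (kV A) ↥E j0) = e ∧
      ((j0 ≠ 0 ∧ j0 ≠ 1728 ∧ e = 1) ∨ (j0 = 0 ∧ e = 3) ∨ (j0 = 1728 ∧ e = 2)) := by
  subst hE
  have e1 : jE = H91.jRed A M := Subtype.ext (hj.trans (red_jF (A := A) (N := M)).symm)
  rw [e1] at hz ⊢
  exact ram_exists_red hq h5 hqM hA h2 h3 z hz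

/-- **RAM, packaged** (`q ≥ 5`, `q ∤ M`, `4 ∣ M`): the hypotheses `hram`, `hcase` of helper73's
`coord_u4_full`, at every place of `κ` at which `j~` is regular. -/
theorem ram_exists (hq : q.Prime) (h5 : 5 ≤ q) (hqM : ¬ q ∣ M) (hA : A.LiesOverPrime q)
    (h4 : 4 ∣ M) (z : Place (kV A) ↥(modularFunctionFieldFullC (kV A) M))
    (hz : 0 ≤ z.ord (⟨jqModC (kV A), jqModC_mem_full (kV A) M⟩ :
      ↥(modularFunctionFieldFullC (kV A) M))) :
    ∃ (j0 : kV A) (e : ℕ),
      z.ord ((⟨jqModC (kV A), jqModC_mem_full (kV A) M⟩ : ↥(modularFunctionFieldFullC (kV A) M))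
        - algebraMap (kV A) ↥(modularFunctionFieldFullC (kV A) M) j0) = e ∧
      ((j0 ≠ 0 ∧ j0 ≠ 1728 ∧ e = 1) ∨ (j0 = 0 ∧ e = 3) ∨ (j0 = 1728 ∧ e = 2)) :=
  ram_exists_of hq h5 hqM hA (ram_nuTwo_eq_zero_of_four_dvd h4)
    (Fermat.Agent.BAD.H94.nuThree_eq_zero_of_two_dvd (Dvd.dvd.trans (by norm_num) h4))
    (modularFunctionFieldFullC (kV A) M) (stmt_GA M q hq hqM A hA) _ rfl z hz

end Main

end Fermat.Agent.S36.NU.H30

end
end
-- ==== END Fermat.Agent.S36.NU.H30_RamFull
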