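-- GENERATED (merged mirror, NOTES/tools/trim/merge3_helper67.py): 6 modules of the originals, bodies verbatim.
import Fermat.Agent.Zm.S36_L01_003
import Fermat.Agent.Zm.S36_L01_001
import Fermat.Agent.Zm.S35_L01_002
import Fermat.Agent.BAD.H21_RamSeries
import Fermat.Agent.BAD.H21_SSBridge
import Fermat.Agent.Zm.S36_L01_004
import Fermat.Agent.Zm.S35_L02_005
import Fermat.Agent.Zm.S35_L01_005

-- ==== BEGIN Fermat.Agent.S36.NU.H65_TIMain
section

/-!
# S36 / NU-B, TI3: glue of TI3-ALG (`H65_TIAlg`) with TI3-FIN (`H17_TIFin`) (helper65)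

* `intSub R j` : the integral closure of `R[j]` in `F` as an `R`-subalgebra; `locSub B j` : `B[1/j]`.
* `exists_finset_span_of_fg` : a finitely generated `R[j]`-submodule in the elementary form of `ti3_alg`.
* `ti3_main` : ONE pair `(a, b)` with `h aⁿ ≡ 1`, `h bⁿ ≡ 1`, `h a bⁿ⁻¹ ≡ 1` modulo the radical of `q`
  gives `s ≠ 0` with `h sⁿ` integral over `R[j]` and over `R[1/j]`.
* `not_unit_intSub` : the hypothesis `hunit` of `ti3_main` from `¬ IsUnit q`, `j` transcendental.
* `mem_range_of_mem_adjoin_both` : `R[j] ∩ R[1/j] = R`.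
* `isIntegral_of_isIntegral_both` : integral over `R[j]` and over `R[1/j]`  ⟹  integral over `R`
  (so `h sⁿ` is a constant).
-/

set_option linter.style.haveILetI false

set_option autoImplicit false

namespace Fermat.Agent.S36.NU.H65

open Fermat.Agent.S36.NU.H17 Polynomial IntermediateField

section Glue

variable (R : Type*) {F : Type*} [CommRing R] [Field F] [Algebra R F]

/-- The integral closure of `R[j]` in `F`, as an `R`-subalgebra. -/
def intSub (j : F) : Subalgebra R F :=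
  (integralClosure ↥(Algebra.adjoin R {j}) F).restrictScalars R

theorem mem_intSub {j x : F} : x ∈ intSub R j ↔ IsIntegral ↥(Algebra.adjoin R {j}) x := Iff.rfl

theorem self_mem_intSub (j : F) : j ∈ intSub R j :=
  isIntegral_algebraMap (R := ↥(Algebra.adjoin R {j})) (A := F)
    (x := ⟨j, Algebra.self_mem_adjoin_singleton R j⟩)

theorem root_mem_intSub (j : F) {n : ℕ} (hn : 0 < n) (x : F) (hx : x ^ n ∈ intSub R j) :
    x ∈ intSub R j := IsIntegral.of_pow hn hx

variable {R}

/-- The localisation `B[1/j]` inside `F`. -/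
def locSub (B : Subalgebra R F) (j : F) (hjB : j ∈ B) : Subalgebra R F where
  carrier := {x | ∃ k : ℕ, j ^ k * x ∈ B}
  mul_mem' := by
    rintro x y ⟨k, hk⟩ ⟨l, hl⟩
    refine ⟨k + l, ?_⟩
    have : j ^ (k + l) * (x * y) = (j ^ k * x) * (j ^ l * y) := by rw [pow_add]; ring
    rw [this]
    exact B.mul_mem hk hl
  add_mem' := by
    rintro x y ⟨k, hk⟩ ⟨l, hl⟩
    refine ⟨k + l, ?_⟩
    have : j ^ (k + l) * (x + y) = j ^ l * (j ^ k * x) + j ^ k * (j ^ l * y) := by
      rw [pow_add]; ring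
    rw [this]
    exact B.add_mem (B.mul_mem (B.pow_mem hjB _) hk) (B.mul_mem (B.pow_mem hjB _) hl)
  algebraMap_mem' := fun r => ⟨0, by rw [pow_zero, one_mul]; exact B.algebraMap_mem r⟩

theorem mem_locSub {B : Subalgebra R F} {j : F} {hjB : j ∈ B} {x : F} :
    x ∈ locSub B j hjB ↔ ∃ k : ℕ, j ^ k * x ∈ B := Iff.rfl

theorem le_locSub (B : Subalgebra R F) (j : F) (hjB : j ∈ B) : B ≤ locSub B j hjB :=
  fun x hx => ⟨0, by rw [pow_zero, one_mul]; exact hx⟩

theorem root_mem_locSub (B : Subalgebra R F) (j : F) (hjB : j ∈ B) {n : ℕ} (hn : 0 < n)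
    (hB : ∀ x : F, x ^ n ∈ B → x ∈ B) (x : F) (hx : x ^ n ∈ locSub B j hjB) :
    x ∈ locSub B j hjB := by
  obtain ⟨k, hk⟩ := hx
  refine ⟨k, hB _ ?_⟩
  obtain ⟨n1, rfl⟩ := Nat.exists_eq_add_of_le (Nat.succ_le_of_lt hn)
  have : (j ^ k * x) ^ (Nat.succ 0 + n1) = j ^ (k * n1) * (j ^ k * x ^ (Nat.succ 0 + n1)) := by
    ring
  rw [this]
  exact B.mul_mem (B.pow_mem hjB _) hk

/-- Finite generation over `R[j⁻¹]` in the elementary form used by `ti3_alg`. -/
theorem exists_finset_span_of_fg (j : F) (N : Submodule ↥(Algebra.adjoin R {j}) F) (hN : N.FG) :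
    ∃ μ : Finset F, (∀ u ∈ μ, u ∈ N) ∧
      ∀ x ∈ N, x ∈ Submodule.span R {y : F | ∃ e : ℕ, ∃ u ∈ μ, y = j ^ e * u} := by
  classical
  obtain ⟨μ, hμ⟩ := hN
  refine ⟨μ, fun u hu => by rw [← hμ]; exact Submodule.subset_span hu, ?_⟩
  set T : Submodule R F := Submodule.span R {y : F | ∃ e : ℕ, ∃ u ∈ μ, y = j ^ e * u} with hT
  have hjT : ∀ x ∈ T, j * x ∈ T := by
    intro x hx
    have : T ≤ T.comap (LinearMap.mulLeft R j) := by
      rw [hT, Submodule.span_le]
      rintro y ⟨e, u, hu, rfl⟩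
      show j * (j ^ e * u) ∈ T
      rw [hT]
      refine Submodule.subset_span ⟨e + 1, u, hu, ?_⟩
      rw [pow_succ]; ring
    exact this hx
  have hAT : ∀ c ∈ Algebra.adjoin R {j}, ∀ x ∈ T, c * x ∈ T := by
    intro c hc
    induction hc using Algebra.adjoin_induction with
    | mem y hy =>
      rw [Set.mem_singleton_iff] at hy
      subst hy
      exact hjT
    | algebraMap r =>
      intro x hx
      rw [← Algebra.smul_def]
      exact T.smul_mem r hx
    | add a b _ _ iha ihb =>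
      intro x hx
      rw [add_mul]
      exact T.add_mem (iha x hx) (ihb x hx)
    | mul a b _ _ iha ihb =>
      intro x hx
      rw [mul_assoc]
      exact iha _ (ihb x hx)
  let T' : Submodule ↥(Algebra.adjoin R {j}) F :=
    { carrier := T
      zero_mem' := T.zero_mem
      add_mem' := fun ha hb => T.add_mem ha hb
      smul_mem' := fun c x hx => by
        show (c : F) * x ∈ T
        exact hAT c c.2 x hx }
  have hle : N ≤ T' := by
    rw [← hμ, Submodule.span_le]
    intro u hu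
    show u ∈ T
    exact Submodule.subset_span ⟨0, u, hu, by rw [pow_zero, one_mul]⟩
  exact fun x hx => hle hx

/-- **TI3, integral-closure form.**  `B0`, `Boo` are the integral closures of `R[j]`, `R[1/j]` in `F`;
`Moo = {s : h sⁿ ∈ Boo}` is finitely generated over `R[1/j]` (TI3-FIN, `H17.MInt_inv_fg_of_finite`).
ONE pair `(a, b)` with `h aⁿ ≡ 1`, `h bⁿ ≡ 1`, `h a bⁿ⁻¹ ≡ 1` modulo the radical of `q` (in `B0`, `Boo`,
`B0[1/j]`) gives `s ≠ 0` with `h sⁿ` integral over `R[j]` and over `R[1/j]`. -/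
theorem ti3_main [IsNoetherianRing R] (q : R) (hq : algebraMap R F q ≠ 0) (n : ℕ) (hn : 0 < n)
    (n' : R) (hnn : (n : R) * n' = 1) (j : F) (hj : j ≠ 0) (h : F)
    (hfg : (MInt R j⁻¹ h n hn).FG)
    (hunit : ¬ ∃ z : F, IsIntegral ↥(Algebra.adjoin R {j}) z ∧ (1 : F) = q • z)
    (a b : F) (ha : IsIntegral ↥(Algebra.adjoin R {j}) (h * a ^ n))
    (hb : IsIntegral ↥(Algebra.adjoin R {j⁻¹}) (h * b ^ n))
    (hra : ∃ e : ℕ, ∃ z : F, IsIntegral ↥(Algebra.adjoin R {j}) z ∧ (h * a ^ n - 1) ^ e = q • z)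
    (hrb : ∃ e : ℕ, ∃ z : F, IsIntegral ↥(Algebra.adjoin R {j⁻¹}) z ∧
        (h * b ^ n - 1) ^ e = q • z)
    (hrab : ∃ e : ℕ, ∃ z : F, (∃ k : ℕ, IsIntegral ↥(Algebra.adjoin R {j}) (j ^ k * z)) ∧
        (h * a * b ^ (n - 1) - 1) ^ e = q • z) :
    ∃ s : F, s ≠ 0 ∧ IsIntegral ↥(Algebra.adjoin R {j}) (h * s ^ n) ∧
      IsIntegral ↥(Algebra.adjoin R {j⁻¹}) (h * s ^ n) := by
  obtain ⟨μ, hμ, hgen⟩ := exists_finset_span_of_fg j⁻¹ (MInt R j⁻¹ h n hn) hfg
  have hoole : intSub R j⁻¹ ≤ locSub (intSub R j) j (self_mem_intSub R j) := by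
    intro x hx
    obtain ⟨e₀, he₀⟩ := exists_pow_inv_mul_isIntegral (R := R) (inv_ne_zero hj) hx
    have := he₀ e₀ le_rfl
    rw [inv_inv] at this
    exact ⟨e₀, this⟩
  have hlocoo : ∀ β ∈ locSub (intSub R j) j (self_mem_intSub R j),
      ∃ k : ℕ, j⁻¹ ^ k * β ∈ intSub R j⁻¹ := by
    rintro β ⟨k, hk⟩
    obtain ⟨e₀, he₀⟩ := exists_pow_inv_mul_isIntegral (R := R) hj hk
    refine ⟨e₀, ?_⟩
    have := he₀ (e₀ + k) (by omega)
    have e : j⁻¹ ^ (e₀ + k) * (j ^ k * β) = j⁻¹ ^ e₀ * β := by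
      rw [pow_add, inv_pow, inv_pow]
      field_simp
    rw [e] at this
    exact this
  obtain ⟨e1, z1, hz1, h1⟩ := hra
  obtain ⟨e2, z2, hz2, h2⟩ := hrb
  obtain ⟨e3, z3, hz3, h3⟩ := hrab
  exact ti3_of_pair q hq n hn n' hnn j hj h (intSub R j) (intSub R j⁻¹)
    (locSub (intSub R j) j (self_mem_intSub R j)) (self_mem_intSub R j) (self_mem_intSub R j⁻¹)
    (le_locSub _ _ _) hoole (fun β hβ => hβ) hlocoo
    (root_mem_intSub R j hn) (root_mem_intSub R j⁻¹ hn)
    (root_mem_locSub _ _ _ hn (root_mem_intSub R j hn))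
    μ hμ hgen (fun ⟨z, hz, hz1⟩ => hunit ⟨z, hz, hz1⟩) a b ha hb
    ⟨e1, z1, hz1, h1⟩ ⟨e2, z2, hz2, h2⟩ ⟨e3, z3, hz3, h3⟩

/-- `q` is not a unit of the integral closure of `R[j]` when `q` is not a unit of `R` and `j` is
transcendental over `R`. -/
theorem not_unit_intSub (q : R) (hq : ¬ IsUnit q) (j : F) (hj : Transcendental R j) :
    ¬ ∃ z : F, IsIntegral ↥(Algebra.adjoin R {j}) z ∧ (1 : F) = q • z := by
  rintro ⟨z, hz, hqz⟩
  obtain ⟨P, hPm, hPz⟩ := hz
  -- scale the roots by `q`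
  set qA : ↥(Algebra.adjoin R {j}) := algebraMap R _ q with hqA
  have h1 := Polynomial.scaleRoots_eval₂_mul (p := P) (algebraMap ↥(Algebra.adjoin R {j}) F)
    (r := z) (s := qA)
  have hqz' : algebraMap ↥(Algebra.adjoin R {j}) F qA * z = 1 := by
    rw [hqz, Algebra.smul_def]
    rfl
  rw [hqz', hPz, mul_zero] at h1
  -- `eval 1 (scaleRoots P q) = 0` in `R[j]`
  have h2 : (Polynomial.scaleRoots P qA).eval 1 = 0 := by
    have hinj : Function.Injective (algebraMap ↥(Algebra.adjoin R {j}) F) :=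
      Subtype.val_injective
    apply hinj
    rw [map_zero, ← h1, Polynomial.eval₂_at_one]
  -- split off the leading term
  have h3 : ∃ G : ↥(Algebra.adjoin R {j}), (1 : ↥(Algebra.adjoin R {j})) + qA * G = 0 := by
    rw [Polynomial.eval_eq_sum_range, Polynomial.natDegree_scaleRoots,
      Finset.sum_range_succ] at h2
    simp only [Polynomial.coeff_scaleRoots, one_pow, mul_one, Nat.sub_self, pow_zero,
      Polynomial.coeff_natDegree, hPm.leadingCoeff] at h2
    refine ⟨∑ i ∈ Finset.range P.natDegree, P.coeff i * qA ^ (P.natDegree - i - 1), ?_⟩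
    rw [add_comm, Finset.mul_sum, ← h2]
    congr 1
    refine Finset.sum_congr rfl (fun i hi => ?_)
    have hi' : P.natDegree - i = (P.natDegree - i - 1) + 1 := by
      have := Finset.mem_range.1 hi
      omega
    nth_rewrite 2 [hi']
    rw [pow_succ]
    ring
  obtain ⟨G, hG⟩ := h3
  have hG2 : ∀ g : F, g ∈ Algebra.adjoin R {j} → ∃ Q : R[X], aeval j Q = g := by
    intro g hg
    rw [Algebra.adjoin_singleton_eq_range_aeval] at hg
    exact hg
  obtain ⟨Q, hQ⟩ := hG2 _ G.2
  have h4 : aeval j (1 + C q * Q) = 0 := by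
    rw [map_add, map_one, map_mul, aeval_C, hQ]
    have hqAF : (qA : F) = algebraMap R F q := rfl
    have := congrArg Subtype.val hG
    rw [← hqAF]
    simpa using this
  have h5 : (1 : R[X]) + C q * Q = 0 := by
    by_contra hne
    exact hj ⟨_, hne, h4⟩
  apply hq
  have h6 := congrArg (fun p : R[X] => p.coeff 0) h5
  simp only [Polynomial.coeff_add, Polynomial.coeff_one_zero, Polynomial.coeff_C_mul,
    Polynomial.coeff_zero] at h6
  exact IsUnit.of_mul_eq_one (-Q.coeff 0) (by linear_combination -h6)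

/-- `R[j] ∩ R[1/j] = R` for transcendental `j`. -/
theorem mem_range_of_mem_adjoin_both (j : F) (hj0 : j ≠ 0) (hj : Transcendental R j) (c : F)
    (h1 : c ∈ Algebra.adjoin R {j}) (h2 : c ∈ Algebra.adjoin R {j⁻¹}) :
    ∃ r : R, algebraMap R F r = c := by
  rw [Algebra.adjoin_singleton_eq_range_aeval] at h1 h2
  obtain ⟨P, hP⟩ := h1
  obtain ⟨Q, hQ⟩ := h2
  have hP' : aeval j P = c := hP
  have hQ' : eval₂ (algebraMap R F) j⁻¹ Q = c := hQ
  have h5 : eval₂ (algebraMap R F) j (Polynomial.reflect Q.natDegree Q) * j⁻¹ ^ Q.natDegree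
      = eval₂ (algebraMap R F) j⁻¹ Q := by
    letI : Invertible j⁻¹ := invertibleOfNonzero (inv_ne_zero hj0)
    have := Polynomial.eval₂_reflect_mul_pow (algebraMap R F) j⁻¹ Q.natDegree Q le_rfl
    rw [invOf_eq_inv, inv_inv] at this
    exact this
  have h4 : aeval j (Polynomial.reflect Q.natDegree Q) = aeval j (X ^ Q.natDegree * P) := by
    rw [map_mul, map_pow, aeval_X, hP', ← hQ', ← h5, aeval_def]
    have : j⁻¹ ^ Q.natDegree * j ^ Q.natDegree = 1 := by
      rw [← mul_pow, inv_mul_cancel₀ hj0, one_pow]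
    rw [mul_comm (j ^ Q.natDegree), mul_assoc, this, mul_one]
  have hinj := (transcendental_iff_injective.1 hj)
  have h6 : Polynomial.reflect Q.natDegree Q = X ^ Q.natDegree * P := hinj h4
  refine ⟨P.coeff 0, ?_⟩
  have h7 : ∀ i : ℕ, 0 < i → P.coeff i = 0 := by
    intro i hi
    have := congrArg (fun p : R[X] => p.coeff (Q.natDegree + i)) h6
    simp only [Polynomial.coeff_reflect, Polynomial.coeff_X_pow_mul'] at this
    rw [Polynomial.revAt_eq_self_of_lt (by omega),
      Polynomial.coeff_eq_zero_of_natDegree_lt (by omega)] at this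
    simp at this
    exact this.symm
  have h8 : P = C (P.coeff 0) := by
    ext i
    rcases Nat.eq_zero_or_pos i with rfl | hi
    · simp
    · rw [h7 i hi, Polynomial.coeff_C, if_neg hi.ne']
  rw [← hP']
  calc algebraMap R F (P.coeff 0) = aeval j (C (P.coeff 0)) := by rw [aeval_C]
    _ = aeval j P := by rw [← h8]

end Glue

section Const

variable (R K : Type*) {F : Type*} [CommRing R] [IsDomain R] [IsIntegrallyClosed R] [Field K]
  [Field F] [Algebra R K] [IsFractionRing R K] [Algebra K F] [Algebra R F] [IsScalarTower R K F]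

/-- The coefficients of the minimal polynomial over `K(j)` of an element integral over `R[j]` lie in
`R[j]`. -/
theorem minpoly_coeff_mem_adjoin (j : F) (hj : Transcendental K j) {f : F}
    (hf : IsIntegral ↥(Algebra.adjoin R {j}) f) (i : ℕ) :
    (((minpoly ↥K⟮j⟯ f).coeff i : ↥K⟮j⟯) : F) ∈ Algebra.adjoin R {j} := by
  have hjR : Transcendental R j :=
    Transcendental.restrictScalars (IsFractionRing.injective R K) hj
  haveI := isIntegrallyClosed_adjoin R j hjR
  letI : Algebra ↥(Algebra.adjoin R {j}) ↥K⟮j⟯ := (toAdjoinField R K j).toAlgebra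
  haveI := isFractionRing_adjoin R K j
  haveI : IsScalarTower ↥(Algebra.adjoin R {j}) ↥K⟮j⟯ F :=
    IsScalarTower.of_algebraMap_eq fun _ => rfl
  rw [minpoly.isIntegrallyClosed_eq_field_fractions' ↥K⟮j⟯ hf, Polynomial.coeff_map]
  exact ((minpoly ↥(Algebra.adjoin R {j}) f).coeff i).2

/-- The minimal polynomial over an intermediate field, mapped to `F`, only depends on the field. -/
theorem minpoly_map_congr {L L' : IntermediateField K F} (hLL : L = L') (f : F) :
    (minpoly ↥L f).map (algebraMap ↥L F) = (minpoly ↥L' f).map (algebraMap ↥L' F) := by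
  subst hLL
  rfl

/-- **Constants.**  An element of `F` integral over `R[j]` and over `R[1/j]` is integral over `R`
(`R` integrally closed, `j` transcendental, `F` algebraic over `K(j)` is not even needed). -/
theorem isIntegral_of_isIntegral_both (j : F) (hj : Transcendental K j) {f : F}
    (h1 : IsIntegral ↥(Algebra.adjoin R {j}) f) (h2 : IsIntegral ↥(Algebra.adjoin R {j⁻¹}) f) :
    IsIntegral R f := by
  have hj0 : j ≠ 0 := by
    rintro rfl
    exact hj (isAlgebraic_zero)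
  have hjR : Transcendental R j :=
    Transcendental.restrictScalars (IsFractionRing.injective R K) hj
  have hj' : Transcendental K j⁻¹ := fun halg => hj (IsAlgebraic.inv_iff.mp halg)
  have hfK : IsIntegral ↥K⟮j⟯ f := by
    letI : Algebra ↥(Algebra.adjoin R {j}) ↥K⟮j⟯ := (toAdjoinField R K j).toAlgebra
    haveI : IsScalarTower ↥(Algebra.adjoin R {j}) ↥K⟮j⟯ F :=
      IsScalarTower.of_algebraMap_eq fun _ => rfl
    exact h1.tower_top
  set m : F[X] := (minpoly ↥K⟮j⟯ f).map (algebraMap ↥K⟮j⟯ F) with hm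
  have hm1 : ∀ i, m.coeff i ∈ Algebra.adjoin R {j} := by
    intro i
    rw [hm, Polynomial.coeff_map]
    exact minpoly_coeff_mem_adjoin R K j hj h1 i
  have hm2 : ∀ i, m.coeff i ∈ Algebra.adjoin R {j⁻¹} := by
    intro i
    rw [hm, minpoly_map_congr K (adjoin_inv_eq K j).symm f, Polynomial.coeff_map]
    exact minpoly_coeff_mem_adjoin R K j⁻¹ hj' h2 i
  have hmR : ∀ i, ∃ r : R, algebraMap R F r = m.coeff i := fun i =>
    mem_range_of_mem_adjoin_both j hj0 hjR _ (hm1 i) (hm2 i)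
  have hmon : m.Monic := (minpoly.monic hfK).map _
  have hroot : m.eval f = 0 := by
    rw [hm, Polynomial.eval_map, ← Polynomial.aeval_def, minpoly.aeval]
  have hl : m ∈ Polynomial.lifts (algebraMap R F) := by
    rw [Polynomial.lifts_iff_coeff_lifts]
    intro i
    obtain ⟨r, hr⟩ := hmR i
    exact ⟨r, hr⟩
  obtain ⟨Q, hQ, -, hQm⟩ := Polynomial.lifts_and_degree_eq_and_monic hl hmon
  refine ⟨Q, hQm, ?_⟩
  rw [← Polynomial.eval_map, hQ, hroot]

end Const

end Fermat.Agent.S36.NU.H65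

end
-- ==== END Fermat.Agent.S36.NU.H65_TIMain

-- ==== BEGIN Fermat.Agent.S36.NU.H73_Deriv
section
attribute [local instance 10000] SubalgebraClass.toAlgebra

/-!
# `θ` and places: the derivation `θ / θ π` preserves the valuation ring (S36 / NU-B / GPOLE,
places part 1; helper73)

`E ⊆ k((t))` a subfield with `[E : E^q] = q` (`HasPBasis q E`), `z` a place of `E / k`,
`π ∈ E` a uniformizer at `z`.  Then for every `f ∈ O_z` there is `g ∈ O_z` with `θ f = g θ π`
(`theta_mem`), and `g ∈ π^{e-1} O_z` if `f ∈ π^e O_z` (`theta_ordGe`).  No completion is used: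
`f = ∑_{i<q} c_i^q π^i` and the orders of the terms are pairwise incongruent mod `q`.
-/

set_option autoImplicit false

noncomputable section

open ModularCurve AlgebraicCurve IntermediateField

namespace Fermat.Agent.S36.NU.H73

open Fermat.Agent.RED.H51

section Valuation

variable {K F : Type*} [Field K] [Field F] [Algebra K F]

theorem eq_of_mul_add_eq {q i j : ℕ} (hi : i < q) (hj : j < q) {n n' : ℤ}
    (h : (q : ℤ) * n + i = q * n' + j) : i = j := by
  have h1 : ((q : ℤ) * n + i) % q = (i : ℤ) := by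
    rw [Int.mul_add_emod_self_left]
    exact Int.emod_eq_of_lt (Int.natCast_nonneg i) (by exact_mod_cast hi)
  have h2 : ((q : ℤ) * n' + j) % q = (j : ℤ) := by
    rw [Int.mul_add_emod_self_left]
    exact Int.emod_eq_of_lt (Int.natCast_nonneg j) (by exact_mod_cast hj)
  rw [h, h2] at h1
  exact_mod_cast h1.symm

theorem eq_zero_of_forall_ordGe (v : Place K F) {f : F} (h : ∀ m : ℤ, OrdGe v m f) : f = 0 := by
  by_contra hf
  have := (h (v.ord f + 1)).le hf
  omega

/-- A sum of terms whose orders are pairwise incongruent mod `q`: the order of the sum is the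
minimum of the orders of the terms. -/
theorem ordGe_of_sum_aux (v : Place K F) (q : ℕ) (t : ℕ → F)
    (ht : ∀ i, t i = 0 ∨ ∃ n : ℤ, v.ord (t i) = q * n + i) (s : Finset ℕ)
    (hs : ∀ i ∈ s, i < q) :
    (∀ m : ℤ, OrdGe v m (∑ i ∈ s, t i) → ∀ i ∈ s, OrdGe v m (t i)) ∧
      (∑ i ∈ s, t i ≠ 0 → ∃ i ∈ s, t i ≠ 0 ∧ v.ord (∑ i ∈ s, t i) = v.ord (t i)) := by
  classical
  induction s using Finset.induction_on with
  | empty =>
    refine ⟨fun m _ i hi => absurd hi (Finset.notMem_empty i), fun h => ?_⟩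
    simp at h
  | insert a s ha ih =>
    have hs' : ∀ i ∈ s, i < q := fun i hi => hs i (Finset.mem_insert_of_mem hi)
    obtain ⟨ihA, ihB⟩ := ih hs'
    have haq : a < q := hs a (Finset.mem_insert_self a s)
    rw [Finset.sum_insert ha]
    rcases eq_or_ne (t a) 0 with hta | hta
    · -- `t a = 0`
      rw [hta, zero_add]
      refine ⟨fun m hm i hi => ?_, fun h => ?_⟩
      · rcases Finset.mem_insert.mp hi with rfl | hi'
        · rw [hta]; exact ordGe_zero v m
        · exact ihA m hm i hi'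
      · obtain ⟨i, hi, h1, h2⟩ := ihB h
        exact ⟨i, Finset.mem_insert_of_mem hi, h1, h2⟩
    rcases eq_or_ne (∑ i ∈ s, t i) 0 with hsum | hsum
    · -- the rest vanishes
      rw [hsum, add_zero]
      have hall : ∀ i ∈ s, t i = 0 := fun i hi =>
        eq_zero_of_forall_ordGe v fun m => ihA m (hsum ▸ ordGe_zero v m) i hi
      refine ⟨fun m hm i hi => ?_, fun _ => ⟨a, Finset.mem_insert_self a s, hta, rfl⟩⟩
      rcases Finset.mem_insert.mp hi with rfl | hi'
      · exact hm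
      · rw [hall i hi']; exact ordGe_zero v m
    -- both nonzero
    obtain ⟨i₀, hi₀, hti₀, hord⟩ := ihB hsum
    have hne : v.ord (t a) ≠ v.ord (∑ i ∈ s, t i) := by
      intro h
      obtain ⟨n, hn⟩ := (ht a).resolve_left hta
      obtain ⟨n', hn'⟩ := (ht i₀).resolve_left hti₀
      rw [hord, hn, hn'] at h
      have := eq_of_mul_add_eq haq (hs' i₀ hi₀) h
      exact ha (this ▸ hi₀)
    rcases lt_or_gt_of_ne hne with hlt | hgt
    · -- `t a` dominates
      have h1 := ord_add_eq v hta (g := ∑ i ∈ s, t i) (Or.inr (by omega))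
      refine ⟨fun m hm i hi => ?_, fun _ => ⟨a, Finset.mem_insert_self a s, hta, h1.2⟩⟩
      have hm' : m ≤ v.ord (t a) := h1.2 ▸ hm.le h1.1
      rcases Finset.mem_insert.mp hi with rfl | hi'
      · exact Or.inr hm'
      · exact ihA m (Or.inr (by omega)) i hi'
    · -- the rest dominates
      have h1 := ord_add_eq' v hsum (g := t a) (Or.inr (by omega))
      refine ⟨fun m hm i hi => ?_, fun _ => ⟨i₀, Finset.mem_insert_of_mem hi₀, hti₀, ?_⟩⟩
      · have hm' : m ≤ v.ord (∑ i ∈ s, t i) := h1.2 ▸ hm.le h1.1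
        rcases Finset.mem_insert.mp hi with rfl | hi'
        · exact Or.inr (by omega)
        · exact ihA m (Or.inr hm') i hi'
      · rw [h1.2, hord]

/-- If `∑_{i<q} t_i` has order `≥ m` and the orders of the `t_i` are `≡ i mod q`, then every
`t_i` has order `≥ m`. -/
theorem ordGe_of_sum (v : Place K F) (q : ℕ) (t : ℕ → F)
    (ht : ∀ i, t i = 0 ∨ ∃ n : ℤ, v.ord (t i) = q * n + i) {m : ℤ}
    (h : OrdGe v m (∑ i ∈ Finset.range q, t i)) {i : ℕ} (hi : i < q) : OrdGe v m (t i) :=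
  (ordGe_of_sum_aux v q t ht (Finset.range q) (fun _ hj => Finset.mem_range.mp hj)).1 m h i
    (Finset.mem_range.mpr hi)

end Valuation

section PBasis

/-- `[E : E^q] ≤ q`, in the form: for every `π` which is not a `q`-th power, the powers
`1, π, …, π^{q-1}` span `E` over `E^q`. -/
def HasPBasis (q : ℕ) (E : Type*) [Field E] : Prop :=
  ∀ π : E, (∀ c : E, π ≠ c ^ q) → ∀ f : E, ∃ c : ℕ → E,
    f = ∑ i ∈ Finset.range q, c i ^ q * π ^ i

/-- `HasPBasis` from a subfield `E'` of `q`-th powers with `[E : E'] = q`. -/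
theorem hasPBasis_of_finrank {E' E : Type*} [Field E'] [Field E] [Algebra E' E] {q : ℕ}
    (hq : q.Prime) (hfin : Module.finrank E' E = q)
    (hrange : ∀ a : E', ∃ c : E, algebraMap E' E a = c ^ q) : HasPBasis q E := by
  intro π hπ f
  have hfd : FiniteDimensional E' E :=
    Module.finite_of_finrank_pos (by rw [hfin]; exact hq.pos)
  have hso : IsSimpleOrder (IntermediateField E' E) :=
    IntermediateField.isSimpleOrder_of_finrank_prime E' E (hfin ▸ hq)
  have hπbot : π ∉ (⊥ : IntermediateField E' E) := by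
    intro h
    rw [IntermediateField.mem_bot] at h
    obtain ⟨a, rfl⟩ := h
    obtain ⟨c, hc⟩ := hrange a
    exact hπ c hc
  have htop : E'⟮π⟯ = ⊤ := by
    rcases eq_bot_or_eq_top (E'⟮π⟯) with h | h
    · exfalso
      apply hπbot
      rw [← h]
      exact IntermediateField.mem_adjoin_simple_self E' π
    · exact h
  have hint : IsIntegral E' π := IsIntegral.of_finite E' π
  have hdeg : (minpoly E' π).natDegree = q := by
    rw [← IntermediateField.adjoin.finrank hint, htop, IntermediateField.finrank_top', hfin]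
  have hf : f ∈ E'⟮π⟯ := by rw [htop]; trivial
  obtain ⟨p, hpdeg, hp⟩ := (IntermediateField.adjoin.powerBasis hint).exists_eq_aeval ⟨f, hf⟩
  rw [IntermediateField.adjoin.powerBasis_dim, hdeg] at hpdeg
  have hp' : f = Polynomial.aeval π p := by
    have := congrArg (fun x : ↥(E'⟮π⟯) => (x : E)) hp
    simp only [IntermediateField.adjoin.powerBasis_gen] at this
    rw [this, IntermediateField.AdjoinSimple.coe_aeval_gen_apply]
  choose c hc using hrange
  refine ⟨fun i => c (p.coeff i), ?_⟩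
  rw [hp', Polynomial.aeval_eq_sum_range' hpdeg]
  refine Finset.sum_congr rfl fun i _ => ?_
  rw [Algebra.smul_def, hc]

end PBasis

section Theta

variable {k : Type*} [Field k] {q : ℕ} [Fact q.Prime] [CharP k q]
variable {E : IntermediateField k (LaurentSeries k)}

omit [Fact q.Prime] in
/-- `θ (∑ c_i^q π^i) = (∑ i c_i^q π^{i-1}) θ π`. -/
theorem theta_repr (π : ↥E) (c : ℕ → ↥E) :
    thetaL (((∑ i ∈ Finset.range q, c i ^ q * π ^ i : ↥E)) : LaurentSeries k) =
      ((∑ i ∈ Finset.range q, (i : ↥E) * c i ^ q * π ^ (i - 1) : ↥E) : LaurentSeries k) *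
        thetaL (π : LaurentSeries k) := by
  have h1 : (((∑ i ∈ Finset.range q, c i ^ q * π ^ i : ↥E)) : LaurentSeries k) =
      ∑ i ∈ Finset.range q, (c i : LaurentSeries k) ^ q * (π : LaurentSeries k) ^ i := by
    show E.val (∑ i ∈ Finset.range q, c i ^ q * π ^ i) = _
    rw [map_sum]
    rfl
  have h2 : ((∑ i ∈ Finset.range q, (i : ↥E) * c i ^ q * π ^ (i - 1) : ↥E) : LaurentSeries k) =
      ∑ i ∈ Finset.range q, (i : LaurentSeries k) * (c i : LaurentSeries k) ^ q *
        (π : LaurentSeries k) ^ (i - 1) := by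
    show E.val (∑ i ∈ Finset.range q, (i : ↥E) * c i ^ q * π ^ (i - 1)) = _
    rw [map_sum]
    refine Finset.sum_congr rfl fun i _ => ?_
    rw [map_mul, map_mul, map_pow, map_pow, map_natCast]
    rfl
  rw [h1, h2, map_sum, Finset.sum_mul]
  refine Finset.sum_congr rfl fun i _ => ?_
  rw [thetaL_mul, thetaL_pow_char q, mul_zero, add_zero, thetaL_pow]
  ring

/-- **The derivation `θ / θ π` preserves the valuation ring** of a place with uniformizer `π`. -/
theorem theta_mem (hPB : HasPBasis q ↥E) (z : Place k ↥E) {π : ↥E} (hπ : z.ord π = 1)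
    {f : ↥E} (hf : f ∈ z.toValuationSubring) :
    ∃ g : ↥E, g ∈ z.toValuationSubring ∧
      thetaL (f : LaurentSeries k) = (g : LaurentSeries k) * thetaL (π : LaurentSeries k) := by
  have hq : q.Prime := Fact.out
  have hπ0 : π ≠ 0 := by
    rintro rfl
    rw [z.ord_zero] at hπ
    exact zero_ne_one hπ
  have hπO : π ∈ z.toValuationSubring := by
    rw [mem_iff_ord_nonneg z hπ0, hπ]
    exact zero_le_one
  have hπq : ∀ c : ↥E, π ≠ c ^ q := by
    intro c h
    rw [h, ord_pow] at hπ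
    have h2 : (2 : ℤ) ≤ q := by exact_mod_cast hq.two_le
    rcases le_or_gt (z.ord c) 0 with h0 | h0
    · nlinarith
    · nlinarith
  obtain ⟨c, hc⟩ := hPB π hπq f
  have ht : ∀ i, c i ^ q * π ^ i = 0 ∨ ∃ n : ℤ, z.ord (c i ^ q * π ^ i) = q * n + i := by
    intro i
    rcases eq_or_ne (c i) 0 with h0 | h0
    · left
      rw [h0, zero_pow hq.ne_zero, zero_mul]
    · right
      refine ⟨z.ord (c i), ?_⟩
      rw [z.ord_mul (pow_ne_zero q h0) (pow_ne_zero i hπ0), ord_pow, ord_pow, hπ, mul_one]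
  have h0 : OrdGe z 0 (∑ i ∈ Finset.range q, c i ^ q * π ^ i) := by
    rw [← hc]
    exact (ordGe_zero_iff_mem z f).mpr hf
  have hci : ∀ i ∈ Finset.range q, c i ∈ z.toValuationSubring := by
    intro i hi
    have hiq : i < q := Finset.mem_range.mp hi
    rcases eq_or_ne (c i) 0 with hc0 | hc0
    · rw [hc0]; exact zero_mem _
    have h1 := ordGe_of_sum z q (fun i => c i ^ q * π ^ i) ht h0 hiq
    have h2 : (0 : ℤ) ≤ z.ord (c i ^ q * π ^ i) :=
      h1.le (mul_ne_zero (pow_ne_zero q hc0) (pow_ne_zero i hπ0))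
    rw [z.ord_mul (pow_ne_zero q hc0) (pow_ne_zero i hπ0), ord_pow, ord_pow, hπ, mul_one] at h2
    rw [mem_iff_ord_nonneg z hc0]
    by_contra hneg
    have h3 : z.ord (c i) ≤ -1 := by omega
    have h4 : (q : ℤ) * z.ord (c i) ≤ (q : ℤ) * (-1) :=
      mul_le_mul_of_nonneg_left h3 (Int.natCast_nonneg q)
    have h5 : (i : ℤ) < q := by exact_mod_cast hiq
    omega
  refine ⟨∑ i ∈ Finset.range q, (i : ↥E) * c i ^ q * π ^ (i - 1), ?_, ?_⟩
  · refine sum_mem fun i hi => ?_
    exact mul_mem (mul_mem (natCast_mem _ i) (pow_mem (hci i hi) q)) (pow_mem hπO _)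
  · rw [hc]
    exact theta_repr π c

/-- `θ / θ π` lowers the order by at most one: if `ord_z f ≥ e` then `θ f = g θ π` with
`ord_z g ≥ e - 1`. -/
theorem theta_ordGe (hPB : HasPBasis q ↥E) (z : Place k ↥E) {π : ↥E} (hπ : z.ord π = 1)
    {f : ↥E} (e : ℕ) (hf : OrdGe z e f) :
    ∃ g : ↥E, OrdGe z ((e : ℤ) - 1) g ∧
      thetaL (f : LaurentSeries k) = (g : LaurentSeries k) * thetaL (π : LaurentSeries k) := by
  have hπ0 : π ≠ 0 := by
    rintro rfl
    rw [z.ord_zero] at hπ
    exact zero_ne_one hπ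
  have hπe : ∀ n : ℕ, OrdGe z n (π ^ n) := fun n =>
    Or.inr (by rw [ord_pow, hπ, mul_one])
  have hw : f * (π ^ e)⁻¹ ∈ z.toValuationSubring := by
    rw [← ordGe_zero_iff_mem]
    rcases eq_or_ne f 0 with rfl | hf0
    · rw [zero_mul]; exact ordGe_zero z 0
    · refine Or.inr ?_
      rw [z.ord_mul hf0 (inv_ne_zero (pow_ne_zero e hπ0)), z.ord_inv, ord_pow, hπ, mul_one]
      have := hf.le hf0
      omega
  obtain ⟨gw, hgw, hθw⟩ := theta_mem hPB z hπ hw
  have hfw : f = π ^ e * (f * (π ^ e)⁻¹) := by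
    field_simp
  refine ⟨(e : ↥E) * π ^ (e - 1) * (f * (π ^ e)⁻¹) + π ^ e * gw, ?_, ?_⟩
  · refine OrdGe.add ?_ ?_
    · rcases Nat.eq_zero_or_pos e with rfl | he
      · have : ((0 : ℕ) : ↥E) * π ^ (0 - 1) * (f * (π ^ 0)⁻¹) = 0 := by
          rw [Nat.cast_zero, zero_mul, zero_mul]
        rw [this]
        exact ordGe_zero z _
      · have h1 : OrdGe z (0 + ((e - 1 : ℕ) : ℤ) + 0)
            ((e : ↥E) * π ^ (e - 1) * (f * (π ^ e)⁻¹)) :=
          (((ordGe_zero_iff_mem z _).mpr (natCast_mem _ e)).mul (hπe (e - 1))).mul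
            ((ordGe_zero_iff_mem z _).mpr hw)
        refine h1.mono ?_
        rw [Nat.cast_sub he]
        simp
    · have h1 : OrdGe z ((e : ℤ) + 0) (π ^ e * gw) :=
        (hπe e).mul ((ordGe_zero_iff_mem z _).mpr hgw)
      exact h1.mono (by omega)
  · have h1 : (f : LaurentSeries k) =
        (π : LaurentSeries k) ^ e * ((f * (π ^ e)⁻¹ : ↥E) : LaurentSeries k) := by
      conv_lhs => rw [hfw]
      rfl
    have h2 : (((e : ↥E) * π ^ (e - 1) * (f * (π ^ e)⁻¹) + π ^ e * gw : ↥E) : LaurentSeries k) =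
        (e : LaurentSeries k) * (π : LaurentSeries k) ^ (e - 1) *
          ((f * (π ^ e)⁻¹ : ↥E) : LaurentSeries k) +
          (π : LaurentSeries k) ^ e * (gw : LaurentSeries k) := by
      rw [IntermediateField.coe_add, IntermediateField.coe_mul, IntermediateField.coe_mul,
        IntermediateField.coe_mul E (π ^ e) gw, IntermediateField.coe_pow,
        IntermediateField.coe_pow]
      rfl
    rw [h1, h2, thetaL_mul, thetaL_pow, hθw]
    ring

end Theta

end Fermat.Agent.S36.NU.H73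

end
end
-- ==== END Fermat.Agent.S36.NU.H73_Deriv

-- ==== BEGIN Fermat.Agent.S36.NU.H73_ThetaJ
section

/-!
# `(θ j)⁶ = j⁴ (j - 1728)³ Δ` and the function `G_j = (θ j̄)^{q-1}` (S36 / NU-B / GPOLE, series part;
helper73)

* `thetaL_DZ : θ Δ = E₂ Δ`, `thetaL_jZ_mul_DZ : θ j * Δ = - E₄² E₆` in `ℤ((t))`.
* `thetaL_jZ_pow_six : (θ j)⁶ = j⁴ (j - 1728)³ Δ` in `ℤ((t))`, `thetaL_jq_pow_six` in `F((t))`.
* `G_pow_six_mul_aeval : ((θ j̄)^{q-1})⁶ * H(j̄) = j̄^{4(q-1)} (j̄ - 1728)^{3(q-1)}` for every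
  polynomial `H` with `H(j̄) = Δ̄^{1-q}` (the supersingular polynomial, `H21_supersingular_jq`).
-/

set_option autoImplicit false

noncomputable section

open ModularCurve

namespace Fermat.Agent.S36.NU.H73

open Fermat.Agent.BAD.H21 Fermat.Agent.S23.H96

section Integral

/-- `j ∈ ℤ((t))`. -/
abbrev jZ : LaurentSeries ℤ := jqModC ℤ

/-- `Δ ∈ ℤ((t))`. -/
def DZ : LaurentSeries ℤ := HahnSeries.ofPowerSeries ℤ ℤ deltaSeries

/-- `E₄ ∈ ℤ((t))`. -/
def QZ : LaurentSeries ℤ := HahnSeries.ofPowerSeries ℤ ℤ e4Series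

/-- `E₆ ∈ ℤ((t))`. -/
def RZ : LaurentSeries ℤ := HahnSeries.ofPowerSeries ℤ ℤ e6Series

/-- `E₂ ∈ ℤ((t))`. -/
def PZ : LaurentSeries ℤ := HahnSeries.ofPowerSeries ℤ ℤ H21_e2Series

theorem DZ_ne_zero : DZ ≠ 0 := by
  intro h
  have h1 := congrArg (fun x => x.coeff ((1 : ℕ) : ℤ)) h
  simp only [DZ, HahnSeries.ofPowerSeries_apply_coeff, HahnSeries.coeff_zero] at h1
  rw [coeff_one_deltaSeries] at h1
  exact one_ne_zero h1

theorem jZ_mul_DZ : jZ * DZ = QZ ^ 3 := by
  have h2 : jNum * dedekindEtaUnit = e4Series ^ 3 := by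
    rw [jNum, mul_assoc, mul_comm dedekindEtaUnitInv, dedekindEtaUnit_mul_inv, mul_one,
      H21_eisenstein4_eq]
  have h3 : (HahnSeries.single (-1 : ℤ) (1 : ℤ)) * HahnSeries.single (1 : ℤ) (1 : ℤ) = 1 := by
    rw [HahnSeries.single_mul_single]
    simp
  have hj : jZ = HahnSeries.single (-1 : ℤ) (1 : ℤ) * HahnSeries.ofPowerSeries ℤ ℤ jNum := by
    show jqModC ℤ = _
    rw [jqModC]
    congr 2
  rw [hj, DZ, ← H21_X_mul_etaUnit, map_mul, HahnSeries.ofPowerSeries_X, QZ, ← map_pow, ← h2,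
    map_mul]
  calc HahnSeries.single (-1 : ℤ) (1 : ℤ) * HahnSeries.ofPowerSeries ℤ ℤ jNum *
        (HahnSeries.single 1 1 * HahnSeries.ofPowerSeries ℤ ℤ dedekindEtaUnit)
      = (HahnSeries.single (-1 : ℤ) (1 : ℤ) * HahnSeries.single (1 : ℤ) (1 : ℤ)) *
        (HahnSeries.ofPowerSeries ℤ ℤ jNum * HahnSeries.ofPowerSeries ℤ ℤ dedekindEtaUnit) := by
        ring
    _ = _ := by rw [h3, one_mul]

theorem QZ_cube_sub : QZ ^ 3 - RZ ^ 2 = 1728 * DZ := by
  have h := congrArg (HahnSeries.ofPowerSeries ℤ ℤ) e4Series_cube_sub_e6Series_sq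
  rw [map_sub, map_pow, map_pow, map_mul] at h
  rw [QZ, RZ, DZ, h]
  congr 1
  rw [show (PowerSeries.C (1728 : ℤ) : PowerSeries ℤ) = 1728 by simp, map_ofNat]

theorem thetaL_QZ : 3 * thetaL QZ = PZ * QZ - RZ := by
  have h := congrArg (HahnSeries.ofPowerSeries ℤ ℤ) H21_theta_e4Series
  rw [map_mul, map_sub, map_mul (HahnSeries.ofPowerSeries ℤ ℤ) H21_e2Series, map_ofNat] at h
  rw [QZ, thetaL_ofPowerSeries, h, PZ, RZ]

theorem thetaL_RZ : 2 * thetaL RZ = PZ * RZ - QZ ^ 2 := by
  have h := congrArg (HahnSeries.ofPowerSeries ℤ ℤ) H21_theta_e6Series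
  rw [map_mul, map_sub, map_mul (HahnSeries.ofPowerSeries ℤ ℤ) H21_e2Series, map_pow,
    map_ofNat] at h
  rw [RZ, thetaL_ofPowerSeries, h, PZ, QZ]

/-- **Ramanujan**: `θ Δ = E₂ Δ`. -/
theorem thetaL_DZ : thetaL DZ = PZ * DZ := by
  have h := congrArg thetaL QZ_cube_sub
  rw [map_sub, thetaL_pow, thetaL_pow, thetaL_mul] at h
  have h0 : thetaL (1728 : LaurentSeries ℤ) = 0 := by
    have := Derivation.map_natCast (thetaL (R := ℤ)) 1728
    simpa using this
  rw [h0, mul_zero, add_zero] at h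
  have h1 : (1728 : LaurentSeries ℤ) * thetaL DZ = 1728 * (PZ * DZ) := by
    rw [← h]
    have e1 := thetaL_QZ
    have e2 := thetaL_RZ
    have e3 := QZ_cube_sub
    push_cast
    simp only [pow_one]
    linear_combination (QZ ^ 2) * e1 - RZ * e2 + PZ * e3
  have h1728 : (1728 : LaurentSeries ℤ) ≠ 0 := by
    intro h
    have h1 := congrArg (fun x => x.coeff 0) h
    have h2 : (1728 : LaurentSeries ℤ) = HahnSeries.C (1728 : ℤ) := by
      rw [map_ofNat]
    simp only [h2, HahnSeries.coeff_zero] at h1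
    rw [HahnSeries.C_apply, HahnSeries.coeff_single_same] at h1
    norm_num at h1
  exact mul_left_cancel₀ h1728 h1

theorem three_ne_zero_LZ : (3 : LaurentSeries ℤ) ≠ 0 := by
  intro h
  have h1 := congrArg (fun x => x.coeff 0) h
  have h2 : (3 : LaurentSeries ℤ) = HahnSeries.C (3 : ℤ) := by
    rw [map_ofNat]
  simp only [h2, HahnSeries.coeff_zero] at h1
  rw [HahnSeries.C_apply, HahnSeries.coeff_single_same] at h1
  norm_num at h1

/-- `θ j * Δ = - E₄² E₆`. -/
theorem thetaL_jZ_mul_DZ : thetaL jZ * DZ = -(QZ ^ 2 * RZ) := by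
  have h := congrArg thetaL jZ_mul_DZ
  rw [thetaL_mul, thetaL_pow, thetaL_DZ] at h
  have e1 := thetaL_QZ
  have e3 := jZ_mul_DZ
  push_cast at h
  refine mul_left_cancel₀ three_ne_zero_LZ ?_
  linear_combination 3 * h + 3 * (QZ ^ 2) * e1 - 3 * PZ * e3

/-- **`(θ j)⁶ = j⁴ (j - 1728)³ Δ`** in `ℤ((t))`. -/
theorem thetaL_jZ_pow_six : thetaL jZ ^ 6 = jZ ^ 4 * (jZ - 1728) ^ 3 * DZ := by
  have hD6 : DZ ^ 6 ≠ 0 := pow_ne_zero 6 DZ_ne_zero
  refine mul_right_cancel₀ hD6 ?_
  have e1 := thetaL_jZ_mul_DZ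
  have e2 := jZ_mul_DZ
  have e3 := QZ_cube_sub
  have h1 : thetaL jZ ^ 6 * DZ ^ 6 = (QZ ^ 2 * RZ) ^ 6 := by
    rw [← mul_pow, e1]
    ring
  have h2 : jZ ^ 4 * (jZ - 1728) ^ 3 * DZ * DZ ^ 6 =
      (jZ * DZ) ^ 4 * (jZ * DZ - 1728 * DZ) ^ 3 := by ring
  rw [h1, h2, e2, ← e3]
  ring

end Integral

section Field

variable (F : Type*) [Field F]

/-- **`(θ j̄)⁶ = j̄⁴ (j̄ - 1728)³ Δ̄`** in `F((t))`. -/
theorem thetaL_jq_pow_six :
    thetaL (jqModC F) ^ 6 = jqModC F ^ 4 * (jqModC F - 1728) ^ 3 * H21_DL F := by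
  have h := congrArg (coeffMap (Int.castRingHom F)) thetaL_jZ_pow_six
  rw [map_pow, ← thetaL_coeffMap, map_mul, map_mul, map_pow, map_pow, map_sub, map_ofNat,
    coeffMap_jqModC, DZ, coeffMap_ofPowerSeries] at h
  exact h

variable {F}

/-- **The function `G_j = (θ j̄)^{q-1}`**: `G_j⁶ * H(j̄) = j̄^{4(q-1)} (j̄ - 1728)^{3(q-1)}` for every
polynomial `H` with `H(j̄) = Δ̄^{-n}`, `n = q - 1`. -/
theorem G_pow_six_mul_aeval {n : ℕ} {H : Polynomial F}
    (hH : Polynomial.aeval (jqModC F) H = (H21_DL F ^ n)⁻¹) :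
    (thetaL (jqModC F) ^ n) ^ 6 * Polynomial.aeval (jqModC F) H =
      jqModC F ^ (4 * n) * (jqModC F - 1728) ^ (3 * n) := by
  have hD : H21_DL F ^ n ≠ 0 := pow_ne_zero n H21_DL_ne_zero
  rw [hH, ← pow_mul, mul_comm n 6, pow_mul, thetaL_jq_pow_six, mul_pow, mul_pow, ← pow_mul,
    ← pow_mul, mul_assoc, mul_inv_cancel₀ hD, mul_one]

end Field

end Fermat.Agent.S36.NU.H73

end
end
-- ==== END Fermat.Agent.S36.NU.H73_ThetaJ

-- ==== BEGIN Fermat.Agent.S36.NU.H79_Loc3
section

/-!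
# S36 / NU-B, leaf LOC3-ABS (helper79): the local structure at a multiple point

`T : TotN ..` a total conservation datum with several valuations and multiplicities
(`H79_Tot3.lean`), `z` a point.  A **multiple-point datum** at `z` (`TotN.MultPt T z`) consists
of a constant `q₀`, functions `t i` (one for each valuation) and `W` with
`∏ i, t i ^ m i = q₀ * W`, all integral for all valuations and without pole on the fibre of `z`,
`t i` a unit for the valuations `j ≠ i`, and no reduction of `W` vanishes at `z`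
(modular, level `q² M'`: `t₂₀ = u'' - u^{q²}`, `t₁₁ = u'' - u`, `t₀₂ = u - u''^{q²}`,
`W = Ψ₂(u'')`, `q₀ = q`; helper10's note "N5").

Consequences:
* `MultPt.ord_W`, `MultPt.ord_t` : `W` and the `t i` have no zero on the fibre of `z`;
* `MultPt.red_W_ne_zero`, `MultPt.t_pow_eq` : `t i ^ m i = q₀ * (unit of V i)` (the valuation
  vector of `t i` is the `i`-th unit vector);
* `MultPt.ord_red_eq_zero` (finer conservation): if `h = (∏ i, t i ^ b i) * h'` has no zero or
  pole on the fibre of `z` and `h'` is a unit for all valuations, then all reductions of `h'`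
  have order `0` at `z`.
-/

set_option autoImplicit false
set_option linter.style.haveILetI false

noncomputable section

open AlgebraicCurve

attribute [local instance] Classical.propDecidable

namespace Fermat.Agent.S36.NU.H79

open Fermat.Agent.RED.H17 Fermat.Agent.RED Fermat.Agent.BAD.H79

namespace TotN

variable {K L₀ L k ι Z : Type*} {E : ι → Type*} [Field K] [Field L₀] [Field L]
  [Algebra K L] [Algebra L₀ L] [Field k] [Fintype ι] [∀ i, Field (E i)]
  [∀ i, Algebra k (E i)]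

/-- A **multiple-point datum** at `z`. -/
structure MultPt (T : TotN K L₀ L k ι Z E) (z : Z) where
  /-- the uniformizing constant -/
  q₀ : L₀
  q₀_const : ∃ c' : K, c' ≠ 0 ∧ algebraMap L₀ L q₀ = algebraMap K L c'
  /-- the local equations of the components -/
  t : ι → L₀
  /-- the unit -/
  W : L₀
  prod_eq : ∏ i, t i ^ T.m i = q₀ * W
  t_mem : ∀ i j, t i ∈ T.V j
  t_unit : ∀ i j, i ≠ j → T.red j ⟨t i, t_mem i j⟩ ≠ 0
  W_mem : ∀ j, W ∈ T.V j
  t_reg : ∀ (i : ι) (P : Place K L), T.ρ P = z → RegAt P (algebraMap L₀ L (t i))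
  W_reg : ∀ P : Place K L, T.ρ P = z → RegAt P (algebraMap L₀ L W)
  W_nv : ∀ j, ¬ VanAt (T.pt j z) (T.red j ⟨W, W_mem j⟩)

namespace MultPt

variable {T : TotN K L₀ L k ι Z E} {z : Z} (M : T.MultPt z)

theorem red_W_ne_zero (j : ι) : T.red j ⟨M.W, M.W_mem j⟩ ≠ 0 := fun h0 =>
  M.W_nv j (by rw [h0]; exact vanAt_zero _)

theorem W_ne_zero [Nonempty ι] : M.W ≠ 0 := by
  intro h0
  obtain ⟨j⟩ := ‹Nonempty ι›
  apply M.red_W_ne_zero j
  have : (⟨M.W, M.W_mem j⟩ : T.V j) = 0 := Subtype.ext h0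
  rw [this, map_zero]

theorem q₀_ne_zero : M.q₀ ≠ 0 := by
  obtain ⟨c', hc', h⟩ := M.q₀_const
  intro h0
  rw [h0, map_zero] at h
  exact hc' ((map_eq_zero_iff _ (algebraMap K L).injective).mp h.symm)

theorem t_ne_zero [Nonempty ι] (i : ι) : M.t i ≠ 0 := by
  intro h0
  have hp : ∏ j, M.t j ^ T.m j = 0 :=
    Finset.prod_eq_zero (Finset.mem_univ i) (by rw [h0, zero_pow (T.m_pos i).ne'])
  rw [M.prod_eq] at hp
  exact (mul_ne_zero M.q₀_ne_zero M.W_ne_zero) hp

/-- `W` has no zero (and no pole) on the fibre of `z`. -/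
theorem ord_W (hP : HasPrincipalDivisors K L) {P : Place K L} (hPz : T.ρ P = z) :
    P.ord (algebraMap L₀ L M.W) = 0 :=
  T.ord_eq_zero_of_not_vanAt hP M.W_mem M.W_reg M.W_nv hPz

/-- The `t i` have no zero (and no pole) on the fibre of `z`. -/
theorem ord_t [Nonempty ι] (hP : HasPrincipalDivisors K L) (i : ι) {P : Place K L}
    (hPz : T.ρ P = z) : P.ord (algebraMap L₀ L (M.t i)) = 0 := by
  have hnn : ∀ j, 0 ≤ P.ord (algebraMap L₀ L (M.t j)) := fun j => (M.t_reg j P hPz).ord_nonneg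
  have hne : ∀ j, algebraMap L₀ L (M.t j) ≠ 0 := fun j =>
    (map_ne_zero_iff _ (algebraMap L₀ L).injective).mpr (M.t_ne_zero j)
  have hprod : P.ord (∏ j, algebraMap L₀ L (M.t j) ^ T.m j)
      = ∑ j, (T.m j : ℤ) * P.ord (algebraMap L₀ L (M.t j)) := by
    have : ∀ s : Finset ι, P.ord (∏ j ∈ s, algebraMap L₀ L (M.t j) ^ T.m j)
        = ∑ j ∈ s, (T.m j : ℤ) * P.ord (algebraMap L₀ L (M.t j)) := by
      intro s
      induction s using Finset.induction_on with
      | empty => simp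
      | insert a s ha ih =>
        rw [Finset.prod_insert ha, Finset.sum_insert ha,
          P.ord_mul (pow_ne_zero _ (hne a))
            (Finset.prod_ne_zero_iff.mpr fun j _ => pow_ne_zero _ (hne j)), ih, ord_pow]
    exact this Finset.univ
  have h1 : P.ord (∏ j, algebraMap L₀ L (M.t j) ^ T.m j) = 0 := by
    have e : ∏ j, algebraMap L₀ L (M.t j) ^ T.m j
        = algebraMap L₀ L M.q₀ * algebraMap L₀ L M.W := by
      rw [← map_mul, ← M.prod_eq, map_prod]
      simp only [map_pow]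
    obtain ⟨c', hc', hq⟩ := M.q₀_const
    rw [e, hq, ord_algebraMap_mul P hc', M.ord_W hP hPz]
  rw [hprod] at h1
  have hterm : ∀ j ∈ Finset.univ, 0 ≤ (T.m j : ℤ) * P.ord (algebraMap L₀ L (M.t j)) :=
    fun j _ => mul_nonneg (Int.natCast_nonneg _) (hnn j)
  have hz := (Finset.sum_eq_zero_iff_of_nonneg hterm).mp h1 i (Finset.mem_univ i)
  have hmi : (T.m i : ℤ) ≠ 0 := by exact_mod_cast (T.m_pos i).ne'
  exact (mul_eq_zero.mp hz).resolve_left hmi

/-- The valuation vector of `t i` is the `i`-th unit vector: `t i ^ m i = q₀ * u` with `u` a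
unit of `V i`. -/
theorem t_pow_eq (i : ι) : ∃ (u : L₀) (hu : u ∈ T.V i), T.red i ⟨u, hu⟩ ≠ 0 ∧
    M.t i ^ T.m i = M.q₀ * u := by
  set R : L₀ := ∏ j ∈ Finset.univ.erase i, M.t j ^ T.m j with hR
  have hRmem : R ∈ T.V i :=
    (T.V i).toSubring.prod_mem fun j _ => (T.V i).pow_mem (M.t_mem j i) _
  have hRred : T.red i ⟨R, hRmem⟩ ≠ 0 := by
    have e : (⟨R, hRmem⟩ : T.V i)
        = ∏ j ∈ Finset.univ.erase i, (⟨M.t j, M.t_mem j i⟩ : T.V i) ^ T.m j := by
      apply Subtype.ext
      change R = _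
      rw [hR]
      simp
    rw [e, map_prod]
    refine Finset.prod_ne_zero_iff.mpr fun j hj => ?_
    rw [map_pow]
    exact pow_ne_zero _ (M.t_unit j i (Finset.ne_of_mem_erase hj))
  have hRunit : IsUnit (⟨R, hRmem⟩ : T.V i) := by
    by_contra hnu
    exact hRred ((T.red_eq_zero_iff i _).mpr ((IsLocalRing.mem_maximalIdeal _).mpr hnu))
  obtain ⟨v, hv⟩ := hRunit
  have hR0 : R ≠ 0 := by
    intro h0
    apply hRred
    have : (⟨R, hRmem⟩ : T.V i) = 0 := Subtype.ext h0
    rw [this, map_zero]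
  have hvinv : ((v⁻¹ : (T.V i)ˣ) : T.V i) * ⟨R, hRmem⟩ = 1 := by
    rw [← hv]; exact v.inv_mul
  have hvinv' : (((v⁻¹ : (T.V i)ˣ) : T.V i) : L₀) * R = 1 := by
    have := congrArg (Subtype.val) hvinv
    simpa using this
  refine ⟨M.W * (((v⁻¹ : (T.V i)ˣ) : T.V i) : L₀),
    (T.V i).mul_mem _ _ (M.W_mem i) (((v⁻¹ : (T.V i)ˣ) : T.V i)).2, ?_, ?_⟩
  · have e : (⟨M.W * (((v⁻¹ : (T.V i)ˣ) : T.V i) : L₀),
        (T.V i).mul_mem _ _ (M.W_mem i) (((v⁻¹ : (T.V i)ˣ) : T.V i)).2⟩ : T.V i)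
        = ⟨M.W, M.W_mem i⟩ * ((v⁻¹ : (T.V i)ˣ) : T.V i) := rfl
    rw [e, map_mul]
    refine mul_ne_zero (M.red_W_ne_zero i) ?_
    intro h0
    have hmax := (T.red_eq_zero_iff i _).mp h0
    exact (IsLocalRing.mem_maximalIdeal _).mp hmax (v⁻¹).isUnit
  · have hsplit : ∏ j, M.t j ^ T.m j = M.t i ^ T.m i * R := by
      rw [hR, Finset.mul_prod_erase Finset.univ (fun j => M.t j ^ T.m j) (Finset.mem_univ i)]
    have h1 : M.t i ^ T.m i * R = M.q₀ * M.W := by rw [← hsplit, M.prod_eq]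
    calc M.t i ^ T.m i = M.t i ^ T.m i * ((((v⁻¹ : (T.V i)ˣ) : T.V i) : L₀) * R) := by
          rw [hvinv', mul_one]
      _ = (M.t i ^ T.m i * R) * (((v⁻¹ : (T.V i)ˣ) : T.V i) : L₀) := by ring
      _ = M.q₀ * (M.W * (((v⁻¹ : (T.V i)ˣ) : T.V i) : L₀)) := by rw [h1]; ring

/-- **Finer conservation**: if `h = (∏ i, t i ^ b i) * h'` has no zero or pole on the fibre of
`z` and `h'` is a unit for all valuations, then the reductions of `h'` have order `0` at `z`. -/
theorem ord_red_eq_zero [Nonempty ι] [Infinite k] (hP : HasPrincipalDivisors K L)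
    {h h' : L₀} (b : ι → ℤ) (hh : h = (∏ i, M.t i ^ b i) * h')
    (hm : ∀ i, h' ∈ T.V i) (h0 : ∀ i, T.red i ⟨h', hm i⟩ ≠ 0)
    (hord : ∀ P, T.ρ P = z → P.ord (algebraMap L₀ L h) = 0) (i : ι) :
    (T.pt i z).ord (T.red i ⟨h', hm i⟩) = 0 := by
  refine T.ord_eq_zero hP hm h0 (fun P hPz => ?_) i
  have hne : ∀ j, algebraMap L₀ L (M.t j) ≠ 0 := fun j =>
    (map_ne_zero_iff _ (algebraMap L₀ L).injective).mpr (M.t_ne_zero j)
  have hh'0 : algebraMap L₀ L h' ≠ 0 := by
    refine (map_ne_zero_iff _ (algebraMap L₀ L).injective).mpr fun h0' => h0 i ?_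
    have : (⟨h', hm i⟩ : T.V i) = 0 := Subtype.ext h0'
    rw [this, map_zero]
  have hprod : ∀ s : Finset ι, P.ord (∏ j ∈ s, algebraMap L₀ L (M.t j) ^ b j) = 0 := by
    intro s
    induction s using Finset.induction_on with
    | empty => simp
    | insert a s ha ih =>
      rw [Finset.prod_insert ha,
        P.ord_mul (zpow_ne_zero _ (hne a))
          (Finset.prod_ne_zero_iff.mpr fun j _ => zpow_ne_zero _ (hne j)), ih, Place.ord_zpow,
        M.ord_t hP a hPz, mul_zero, add_zero]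
  have e : algebraMap L₀ L h
      = (∏ j, algebraMap L₀ L (M.t j) ^ b j) * algebraMap L₀ L h' := by
    rw [hh, map_mul, map_prod]
    simp only [map_zpow₀]
  have h1 := hord P hPz
  rw [e, P.ord_mul (Finset.prod_ne_zero_iff.mpr fun j _ => zpow_ne_zero _ (hne j)) hh'0,
    hprod, zero_add] at h1
  exact h1

end MultPt

end TotN

end Fermat.Agent.S36.NU.H79

end
end
-- ==== END Fermat.Agent.S36.NU.H79_Loc3

-- ==== BEGIN Fermat.Agent.S36.NU.H82_CuspInt
section

/-!
# S36 / NU-B, leaf CUSPS (helper82), part 1: integrality over `k[1/J]` from pole orders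

`E` a field with a valuation `w` trivial on the subfield `k`, `J ∈ E` with `1 < w J`
(for instance `E = k((t))`, `w` the `t`-adic valuation, `J = j(t^N)`).

* `mul_inv_pow_mem_adjoin_inv` : `f ∈ k[J]`, `w (f J⁻ᵐ) ≤ 1` ⟹ `f J⁻ᵐ ∈ k[J⁻¹]`;
* `scaleRoots_prod_X_sub_C` : `scaleRoots (∏ (X - a_q)) s = ∏ (X - a_q s)`;
* `isIntegral_mul_inv_pow` : a finite family `y_q` all of whose symmetric functions are polynomials
  in `J` (`∏ (c - y_q) ∈ k[J]` for all constants `c`) and with `w (y_q) ≤ (w J)^K`: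
  every `y_q J⁻ᴷ` is integral over `k[J⁻¹]`.
-/

set_option autoImplicit false

noncomputable section

open Polynomial

namespace Fermat.Agent.S36.NU.H82

section PoleBound

variable {k E : Type*} [Field k] [Field E] [Algebra k E]
  {Γ₀ : Type*} [LinearOrderedCommGroupWithZero Γ₀] (w : Valuation E Γ₀)

/-- `f ∈ k[J]` with `w (f J⁻ᵐ) ≤ 1` (no pole) is a polynomial in `J⁻¹` after division by `Jᵐ`. -/
theorem mul_inv_pow_mem_adjoin_inv (hwk : ∀ c : k, c ≠ 0 → w (algebraMap k E c) = 1)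
    {J : E} (hJ : 1 < w J) {f : E} (hf : f ∈ Algebra.adjoin k ({J} : Set E)) (m : ℕ)
    (hle : w (f * J⁻¹ ^ m) ≤ 1) : f * J⁻¹ ^ m ∈ Algebra.adjoin k ({J⁻¹} : Set E) := by
  rw [Algebra.adjoin_singleton_eq_range_aeval] at hf
  obtain ⟨a, ha⟩ := hf
  have ha' : aeval J a = f := ha
  subst ha'
  have hJ0 : J ≠ 0 := by
    rintro rfl
    rw [map_zero] at hJ
    exact not_lt.2 zero_le_one hJ
  rcases eq_or_ne a 0 with rfl | ha0
  · rw [map_zero, zero_mul]
    exact zero_mem _
  refine Fermat.Agent.S36.NU.H17.aeval_mul_inv_pow_mem hJ0 a ?_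
  have hv := Fermat.Agent.S28.H73.valuation_aeval_eq_pow w hwk hJ a ha0
  rw [map_mul, hv, map_pow, map_inv₀] at hle
  have hw0 : w J ≠ 0 := (lt_trans zero_lt_one hJ).ne'
  have h2 : w J ^ a.natDegree ≤ w J ^ m := by
    have h3 := mul_le_mul_left hle (w J ^ m)
    rwa [mul_assoc, ← mul_pow, inv_mul_cancel₀ hw0, one_pow, mul_one, one_mul] at h3
  exact (pow_le_pow_iff_right₀ hJ).1 h2

end PoleBound

section Scale

variable {L : Type*} [CommRing L] [IsDomain L]

theorem scaleRoots_prod_X_sub_C {ι : Type*} (s : Finset ι) (a : ι → L) (r : L) :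
    (∏ i ∈ s, (X - C (a i))).scaleRoots r = ∏ i ∈ s, (X - C (a i * r)) := by
  classical
  induction s using Finset.induction_on with
  | empty => simp
  | insert i s hi ih =>
    rw [Finset.prod_insert hi, Finset.prod_insert hi, mul_scaleRoots_of_noZeroDivisors, ih,
      X_sub_C_scaleRoots]

end Scale

section Main

variable {k E : Type*} [Field k] [Infinite k] [Field E] [Algebra k E]
  {Γ₀ : Type*} [LinearOrderedCommGroupWithZero Γ₀] (w : Valuation E Γ₀)

/-- **Integrality over `k[1/J]` from the pole orders of the conjugates.** -/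
theorem isIntegral_mul_inv_pow (hwk : ∀ c : k, c ≠ 0 → w (algebraMap k E c) = 1)
    {J : E} (hJ : 1 < w J) {Q : Type*} [Fintype Q] (y : Q → E)
    (hsym : ∀ c : k, ∏ q, (algebraMap k E c - y q) ∈ Algebra.adjoin k ({J} : Set E))
    (K₀ : ℕ) (hy : ∀ q, w (y q) ≤ w J ^ K₀) (q : Q) :
    IsIntegral ↥(Algebra.adjoin k ({J⁻¹} : Set E)) (y q * J⁻¹ ^ K₀) := by
  classical
  have hw0 : w J ≠ 0 := (lt_trans zero_lt_one hJ).ne'
  set chiE : E[X] := ∏ q, (X - C (y q)) with hchi
  have hmon : chiE.Monic := monic_prod_of_monic _ _ fun q _ => monic_X_sub_C (y q)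
  have hcoeff : ∀ i, chiE.coeff i ∈ Algebra.adjoin k ({J} : Set E) := by
    intro i
    have := Fermat.Agent.S28.H90.coeff_mem_of_eval_mem (C := k)
      (Subalgebra.toSubmodule (Algebra.adjoin k ({J} : Set E))) chiE
      (fun c => by
        rw [hchi, eval_prod]
        simp only [eval_sub, eval_X, eval_C]
        exact hsym c) i
    exact this
  set s : E := J⁻¹ ^ K₀ with hs
  have hscale : chiE.scaleRoots s = ∏ q, (X - C (y q * s)) :=
    scaleRoots_prod_X_sub_C Finset.univ y s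
  have hys : ∀ q, y q * s ∈ w.integer := by
    intro q
    rw [Valuation.mem_integer_iff, hs, map_mul, map_pow, map_inv₀, inv_pow]
    have h1 := mul_le_mul_left (hy q) ((w J ^ K₀)⁻¹)
    rwa [mul_inv_cancel₀ (pow_ne_zero _ hw0)] at h1
  have hval : ∀ i, w ((chiE.scaleRoots s).coeff i) ≤ 1 := by
    intro i
    rw [hscale]
    exact Fermat.Agent.S28.H90.coeff_prod_X_sub_C_mem w.integer Finset.univ _
      (fun q _ => hys q) i
  refine Fermat.Agent.S36.NU.H17.isIntegral_of_monic_coeff_mem _ _ (chiE.scaleRoots s)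
    ((monic_scaleRoots_iff s).2 hmon) ?_ ?_
  · intro i
    have hc := hval i
    rw [coeff_scaleRoots, hs, ← pow_mul] at hc ⊢
    exact mul_inv_pow_mem_adjoin_inv w hwk hJ (hcoeff i) _ hc
  · rw [hscale, eval_prod]
    exact Finset.prod_eq_zero (Finset.mem_univ q) (by simp)

end Main

end Fermat.Agent.S36.NU.H82

end
end
-- ==== END Fermat.Agent.S36.NU.H82_CuspInt

-- ==== BEGIN Fermat.Agent.S36.NU.H88_Descent
section

/-!
# S36, NU-B, CHART-MOD (helper88): descent of rational functions to the fixed field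

Setting of `H23_Fix` (helper23): fields `E ⊆ L`, `E₀ ⊆ L₀`, `L₀ ⊆ L`, a family of endomorphisms
`sE g`, `sL g` fixing `L₀` such that the fixed elements of `E` come from `E₀`.
* `mem_adjoin_simple_of_fixed` : for `t ∈ L₀` transcendental over `E`, an element `x ∈ L₀` which
  lies in `E(t)` lies in `E₀(t)`.
-/

set_option autoImplicit false
set_option linter.unusedSectionVars false
set_option linter.style.haveILetI false

noncomputable section

open Polynomial IntermediateField

namespace Fermat.Agent.S36.NU.H88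

section Descent

variable {E L E₀ L₀ : Type*} [Field E] [Field L] [Field E₀] [Field L₀]
  [Algebra E L] [Algebra E₀ L₀] [Algebra E₀ E] [Algebra L₀ L] [Algebra E₀ L]
  [IsScalarTower E₀ L₀ L] [IsScalarTower E₀ E L]
  {G : Type*} (sE : G → E →+* E) (sL : G → L →+* L)
  (hs : ∀ g x, sL g (algebraMap E L x) = algebraMap E L (sE g x))
  (hL₀ : ∀ g (x : L₀), sL g (algebraMap L₀ L x) = algebraMap L₀ L x)
  (hE₀ : ∀ x : E, (∀ g, sE g x = x) → ∃ y : E₀, algebraMap E₀ E y = x)

/-- The polynomial with given coefficients in degrees `< d`. -/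
def polOf {R : Type*} [CommRing R] (c : ℕ → R) (d : ℕ) : R[X] :=
  ∑ n ∈ Finset.range d, monomial n (c n)

theorem aeval_polOf {R S : Type*} [CommRing R] [CommRing S] [Algebra R S] (c : ℕ → R) (d : ℕ)
    (t : S) : aeval t (polOf c d) = ∑ n ∈ Finset.range d, c n • t ^ n := by
  rw [polOf, map_sum]
  refine Finset.sum_congr rfl fun n _ => ?_
  rw [aeval_monomial, Algebra.smul_def]

theorem coeff_polOf {R : Type*} [CommRing R] (c : ℕ → R) (d n : ℕ) (hn : n < d) :
    (polOf c d).coeff n = c n := by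
  rw [polOf, finsetSum_coeff]
  rw [Finset.sum_eq_single n]
  · rw [coeff_monomial, if_pos rfl]
  · intro m _ hm
    rw [coeff_monomial, if_neg hm]
  · intro h
    exact absurd (Finset.mem_range.mpr hn) h

include hs hL₀ hE₀ in
/-- **Descent**: a fixed element of `E(t)` lies in `E₀(t)`. -/
theorem mem_adjoin_simple_of_fixed (t : L₀) (ht : Transcendental E (algebraMap L₀ L t))
    (x : L₀) (hx : algebraMap L₀ L x ∈ E⟮algebraMap L₀ L t⟯) : x ∈ E₀⟮t⟯ := by
  classical
  obtain ⟨P, Q, hPQ⟩ := (mem_adjoin_simple_iff E _).mp hx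
  by_cases hQ0 : aeval (algebraMap L₀ L t) Q = 0
  · rw [hQ0, div_zero] at hPQ
    have : x = 0 := (map_eq_zero (algebraMap L₀ L)).mp hPQ
    rw [this]
    exact zero_mem _
  have hQne : Q ≠ 0 := by
    rintro rfl
    exact hQ0 (map_zero _)
  have hrel : aeval (algebraMap L₀ L t) Q * algebraMap L₀ L x
      - aeval (algebraMap L₀ L t) P = 0 := by
    rw [hPQ, mul_div_cancel₀ _ hQ0, sub_self]
  set d : ℕ := max P.natDegree Q.natDegree + 1 with hd
  have hPd : P.natDegree < d := by rw [hd]; omega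
  have hQd : Q.natDegree < d := by rw [hd]; omega
  -- the family `t ^ n`, `x t ^ n`
  let v : Fin d ⊕ Fin d → L₀ := fun i => Sum.elim (fun n : Fin d => t ^ (n : ℕ)) (fun n : Fin d => x * t ^ (n : ℕ)) i
  have hnot : ¬ LinearIndependent E (fun i => algebraMap L₀ L (v i)) := by
    rw [Fintype.not_linearIndependent_iff]
    refine ⟨fun i => Sum.elim (fun n : Fin d => - P.coeff (n : ℕ)) (fun n : Fin d => Q.coeff (n : ℕ)) i, ?_, ?_⟩
    · rw [Fintype.sum_sum_type]
      simp only [Sum.elim_inl, Sum.elim_inr, v]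
      have e1 : ∑ n : Fin d, (- P.coeff (n : ℕ)) • algebraMap L₀ L (t ^ (n : ℕ))
          = - aeval (algebraMap L₀ L t) P := by
        rw [aeval_eq_sum_range' hPd, ← Finset.sum_neg_distrib,
          ← Fin.sum_univ_eq_sum_range (fun n => - (P.coeff n • algebraMap L₀ L t ^ n)) d]
        refine Finset.sum_congr rfl fun n _ => ?_
        rw [neg_smul, map_pow]
      have e2 : ∑ n : Fin d, Q.coeff (n : ℕ) • algebraMap L₀ L (x * t ^ (n : ℕ))
          = aeval (algebraMap L₀ L t) Q * algebraMap L₀ L x := by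
        rw [aeval_eq_sum_range' hQd, Finset.sum_mul,
          ← Fin.sum_univ_eq_sum_range
            (fun n => Q.coeff n • algebraMap L₀ L t ^ n * algebraMap L₀ L x) d]
        refine Finset.sum_congr rfl fun n _ => ?_
        rw [map_mul, map_pow, smul_mul_assoc, mul_comm]
      rw [e1, e2, neg_add_eq_sub]
      exact hrel
    · obtain ⟨n, hn⟩ : ∃ n, Q.coeff n ≠ 0 := by
        by_contra hcon
        simp only [not_exists, not_not] at hcon
        exact hQne (Polynomial.ext fun n => by rw [hcon n, coeff_zero])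
      have hnd : n < d := by
        have := le_natDegree_of_ne_zero hn
        omega
      exact ⟨Sum.inr ⟨n, hnd⟩, by simpa using hn⟩
  have hnot₀ : ¬ LinearIndependent E₀ v := fun h =>
    hnot (Fermat.Agent.S36.NU.H23.linearIndependent_of_fixed sE sL hs hL₀ hE₀ v h)
  rw [Fintype.not_linearIndependent_iff] at hnot₀
  obtain ⟨g, hg, i₀, hi₀⟩ := hnot₀
  rw [Fintype.sum_sum_type] at hg
  simp only [Sum.elim_inl, Sum.elim_inr, v] at hg
  -- the two polynomials over `E₀`
  let a : ℕ → E₀ := fun n => if h : n < d then g (Sum.inl ⟨n, h⟩) else 0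
  let b : ℕ → E₀ := fun n => if h : n < d then g (Sum.inr ⟨n, h⟩) else 0
  have ha : aeval t (polOf a d) = ∑ n : Fin d, g (Sum.inl n) • t ^ (n : ℕ) := by
    rw [aeval_polOf, ← Fin.sum_univ_eq_sum_range (fun n => a n • t ^ n) d]
    refine Finset.sum_congr rfl fun n _ => ?_
    simp only [a, dif_pos n.2]
  have hb : aeval t (polOf b d) * x = ∑ n : Fin d, g (Sum.inr n) • (x * t ^ (n : ℕ)) := by
    rw [aeval_polOf, Finset.sum_mul, ← Fin.sum_univ_eq_sum_range (fun n => b n • t ^ n * x) d]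
    refine Finset.sum_congr rfl fun n _ => ?_
    simp only [b, dif_pos n.2]
    rw [smul_mul_assoc, mul_comm]
  have hsum : aeval t (polOf a d) + aeval t (polOf b d) * x = 0 := by
    rw [ha, hb]; exact hg
  have ht₀ : Transcendental E₀ t := by
    intro halg
    apply ht
    have h1 : IsAlgebraic E₀ (algebraMap L₀ L t) := halg.algebraMap
    exact h1.extendScalars (FaithfulSMul.algebraMap_injective E₀ E)
  by_cases hB : aeval t (polOf b d) = 0
  · exfalso
    rw [hB, zero_mul, add_zero] at hsum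
    have hA0 : polOf a d = 0 := by
      by_contra hne
      exact ht₀ ⟨_, hne, hsum⟩
    have hB0 : polOf b d = 0 := by
      by_contra hne
      exact ht₀ ⟨_, hne, hB⟩
    apply hi₀
    rcases i₀ with n | n
    · have := coeff_polOf a d n n.2
      rw [hA0, coeff_zero] at this
      simp only [a, dif_pos n.2] at this
      exact this.symm
    · have := coeff_polOf b d n n.2
      rw [hB0, coeff_zero] at this
      simp only [b, dif_pos n.2] at this
      exact this.symm
  · have hxeq : x = - aeval t (polOf a d) / aeval t (polOf b d) := by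
      rw [eq_div_iff hB]
      linear_combination hsum
    rw [hxeq]
    have hmem : ∀ p : E₀[X], aeval t p ∈ E₀⟮t⟯ := fun p =>
      (mem_adjoin_simple_iff E₀ _).mpr ⟨p, 1, by rw [map_one, div_one]⟩
    exact div_mem (neg_mem (hmem _)) (hmem _)

end Descent

end Fermat.Agent.S36.NU.H88

end
end
-- ==== END Fermat.Agent.S36.NU.H88_Descent
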