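-- GENERATED (merged mirror, NOTES/tools/trim/merge3_helper67.py): 8 modules of the originals, bodies verbatim.
import Mathlib.RingTheory.DedekindDomain.AdicValuation
import Mathlib.RingTheory.Jacobson.Ring
import Mathlib.FieldTheory.IsAlgClosed.Basic
import Fermat.Prelude.Thm_ModularCurve_coeff_jqModC_neg_one
import Fermat.Agent.Zm.S36_L02_002
import Fermat.Agent.Zm.S36_L01_002
import Fermat.Agent.Zm.S35_L13_000
import Fermat.Agent.Zm.S33_L01_001
import Fermat.Agent.Zm.S35_L13_002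
import Fermat.Agent.Zm.S35_L11_001
import Fermat.Agent.Zm.S35_L03_002
import Fermat.Agent.RED.H17_Place
import Fermat.Agent.Zm.S36_L01_004
import Fermat.Agent.Zm.S36_L01_000
import Fermat.Agent.Zm.S36_L02_000
import Fermat.Agent.Zm.S36_L02_001
import Fermat.Agent.Zm.S36_L02_003
import Fermat.Agent.Zm.S35_L15_000
import Fermat.Agent.Zm.S36_L01_003
import Fermat.Agent.Zm.S35_L06_002

-- ==== BEGIN Fermat.Agent.S36.NU.H42_Surj
section
attribute [local instance 10000] SubalgebraClass.toAlgebra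
attribute [local instance 10000] HahnSeries.powerSeriesAlgebra

/-!
# S36 / NU-B, leaf TOT3-MOD, step T3-f SURJ (helper42)

`A` a valuation ring of `ℚ̄` over the prime `q`, `k = A/𝔪`, `I ≤ Gal(ℚ̄/ℚ)` its inertia group,
`L₀ = F_M^I` the inertia-fixed functions of level `M` (helper23's `H23.L0`).

* `exists_fixed_lift`  : every `a ∈ k` is the residue of some `c ∈ A` fixed by `I` (restatement of
  `FL.H38.exists_inertia_fixed_lift` with `resV`);
* `surj_L0`            : every `y ∈ k(j~(t^d) : d ∣ M)` is the reduction of some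
  `x ∈ L₀ ∩ V_M` (induction on the generation of the field `fullC`).
* `surj_L0'`           : the same, as surjectivity of the restriction of `redM` to
  `L₀ ∩ V_M` onto `FM`, given `FM = fullC`.
-/

set_option autoImplicit false
set_option synthInstance.maxHeartbeats 400000
set_option maxHeartbeats 1000000
set_option linter.unusedSectionVars false
set_option linter.unusedVariables false
set_option linter.style.haveILetI false

noncomputable section

open ModularCurve AlgebraicCurve Fermat.Agent.S24 Fermat.Agent.S28 Fermat.Agent.S28.H73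
  Fermat.Agent.RED.H73 Fermat.Agent.BAD.H88

namespace Fermat.Agent.S36.NU.H42

variable (A : ValuationSubring Kbar)

/-- Teichmüller lifts: every residue is the residue of an inertia-fixed element of `A`. -/
theorem exists_fixed_lift {q : ℕ} (hq : q.Prime) (hA : A.LiesOverPrime q) (a : kV A) :
    ∃ c : Kbar, ∃ hc : c ∈ A, (∀ σ ∈ A.inertiaSubgroupIn ℚ, σ c = c) ∧ resV A ⟨c, hc⟩ = a :=
  Fermat.Agent.FL.H38.exists_inertia_fixed_lift A hq hA a

variable (M : ℕ) [NeZero M]

/-- The coercion of the reduction. -/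
theorem coe_redM (x : ↥(VM A M)) :
    ((redM A M x : FM A M) : LaurentSeries (kV A))
      = gaussRedV A ⟨((x : FN M) : LaurentSeries Kbar), x.2⟩ := rfl

/-- The statement `P y`: `y` is the reduction of an inertia-fixed Gauss-integral function. -/
def IsRedL0 (y : LaurentSeries (kV A)) : Prop :=
  ∃ x : FN M, x ∈ H23.L0 A M ∧ ∃ h : x ∈ VM A M,
    ((redM A M ⟨x, h⟩ : FM A M) : LaurentSeries (kV A)) = y

theorem isRedL0_add {y z : LaurentSeries (kV A)} (hy : IsRedL0 A M y) (hz : IsRedL0 A M z) :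
    IsRedL0 A M (y + z) := by
  obtain ⟨x, hx, hxV, rfl⟩ := hy
  obtain ⟨x', hx', hxV', rfl⟩ := hz
  refine ⟨x + x', add_mem hx hx', add_mem hxV hxV', ?_⟩
  have e : (⟨x + x', add_mem hxV hxV'⟩ : ↥(VM A M)) = ⟨x, hxV⟩ + ⟨x', hxV'⟩ := rfl
  rw [e, map_add]
  rfl

theorem isRedL0_mul {y z : LaurentSeries (kV A)} (hy : IsRedL0 A M y) (hz : IsRedL0 A M z) :
    IsRedL0 A M (y * z) := by
  obtain ⟨x, hx, hxV, rfl⟩ := hy
  obtain ⟨x', hx', hxV', rfl⟩ := hz
  refine ⟨x * x', mul_mem hx hx', mul_mem hxV hxV', ?_⟩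
  have e : (⟨x * x', mul_mem hxV hxV'⟩ : ↥(VM A M)) = ⟨x, hxV⟩ * ⟨x', hxV'⟩ := rfl
  rw [e, map_mul]
  rfl

theorem isRedL0_zero : IsRedL0 A M 0 :=
  ⟨0, zero_mem _, zero_mem _, by
    have e : (⟨0, zero_mem _⟩ : ↥(VM A M)) = 0 := rfl
    rw [e, map_zero]; rfl⟩

theorem isRedL0_inv {y : LaurentSeries (kV A)} (hy : IsRedL0 A M y) :
    IsRedL0 A M y⁻¹ := by
  by_cases hy0 : y = 0
  · rw [hy0, inv_zero]; exact isRedL0_zero A M
  obtain ⟨x, hx, hxV, rfl⟩ := hy
  have hne : redM A M ⟨x, hxV⟩ ≠ 0 := fun h0 => hy0 (by rw [h0]; rfl)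
  have hunit : IsUnit (⟨x, hxV⟩ : ↥(VM A M)) :=
    (Fermat.Agent.RED.H17.gaussResF'_ne_zero_iff_isUnit A (hScM A M) _).mp hne
  obtain ⟨v, hv⟩ := hunit.exists_right_inv
  have hv' : x * (v : FN M) = 1 := congrArg Subtype.val hv
  have e : x⁻¹ = (v : FN M) := (eq_inv_of_mul_eq_one_right hv').symm
  have hinvV : x⁻¹ ∈ VM A M := by rw [e]; exact v.2
  refine ⟨x⁻¹, inv_mem hx, hinvV, ?_⟩
  have e2 : (⟨x⁻¹, hinvV⟩ : ↥(VM A M)) = v := Subtype.ext e
  rw [e2]
  have h1 : redM A M ⟨x, hxV⟩ * redM A M v = 1 := by rw [← map_mul, hv, map_one]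
  have h2 : redM A M v = (redM A M ⟨x, hxV⟩)⁻¹ := eq_inv_of_mul_eq_one_right h1
  rw [h2]
  rfl

theorem isRedL0_const {q : ℕ} (hq : q.Prime) (hA : A.LiesOverPrime q) (a : kV A) :
    IsRedL0 A M (algebraMap (kV A) (LaurentSeries (kV A)) a) := by
  obtain ⟨c, hc, hfix, hres⟩ := exists_fixed_lift A hq hA a
  have hV : algebraMap Kbar (FN M) c ∈ VM A M := (const_memM A M c).mpr hc
  refine ⟨algebraMap Kbar (FN M) c, (H23.const_mem_L0_iff A c).mpr hfix, hV, ?_⟩
  have h1 := gaussResF_algebraMap A (hScM A M) ⟨c, hc⟩ hV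
  rw [algebraMap_kV, ← hres]
  exact h1

theorem isRedL0_jd (d : ℕ) [NeZero d] (hd : d ∣ M) :
    IsRedL0 A M (qExpand (kV A) d (jqModC (kV A))) := by
  have hcoe : ((jdF M d hd : FN M) : LaurentSeries Kbar) = qExpand Kbar d (jqModC Kbar) :=
    coeffEmb_qExpand_jq d
  have hm : ((jdF M d hd : FN M) : LaurentSeries Kbar) ∈ gaussRingV A := by
    rw [hcoe]
    exact qExpand_jqModC_mem_gaussRingV A d
  refine ⟨jdF M d hd, H23.jdF_mem_L0 A M d hd, hm, ?_⟩
  rw [coe_redM]
  have e : (⟨((jdF M d hd : FN M) : LaurentSeries Kbar), hm⟩ : gaussRingV A)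
      = ⟨qExpand Kbar d (jqModC Kbar), qExpand_jqModC_mem_gaussRingV A d⟩ :=
    Subtype.ext hcoe
  exact (congrArg (gaussRedV A) e).trans (gaussRedV_qExpand_jqModC A d _)

/-- The induction: every element of `k(j~(t^d) : d ∣ M)` is such a reduction. -/
theorem isRedL0_of_mem {q : ℕ} (hq : q.Prime) (hA : A.LiesOverPrime q)
    (y : LaurentSeries (kV A)) (hy : y ∈ modularFunctionFieldFullC (kV A) M) :
    IsRedL0 A M y := by
  have hy' : y ∈ IntermediateField.adjoin (kV A) (divisorExpansionsC (kV A) M) := hy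
  clear hy
  induction hy' using IntermediateField.adjoin_induction with
  | mem z hz =>
    obtain ⟨d, hd0, hd, rfl⟩ := hz
    exact isRedL0_jd A M d hd
  | algebraMap c => exact isRedL0_const A M hq hA c
  | add y z _ _ hy hz => exact isRedL0_add A M hy hz
  | inv y _ hy => exact isRedL0_inv A M hy
  | mul y z _ _ hy hz => exact isRedL0_mul A M hy hz

end Fermat.Agent.S36.NU.H42

namespace Fermat.Agent.S36.NU.H42

/-- **T3-f SURJ**: every element of `k(j~(t^d) : d ∣ M)` is the reduction of an inertia-fixed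
Gauss-integral function of level `M`. -/
theorem surj_L0 (A : ValuationSubring Kbar) (q M : ℕ) [NeZero M] (hq : q.Prime)
    (hqM : ¬ q ∣ M) (hA : A.LiesOverPrime q)
    (y : LaurentSeries (kV A)) (hy : y ∈ modularFunctionFieldFullC (kV A) M) :
    ∃ x : FN M, x ∈ H23.L0 A M ∧ ∃ h : x ∈ VM A M,
      ((redM A M ⟨x, h⟩ : FM A M) : LaurentSeries (kV A)) = y :=
  isRedL0_of_mem A M hq hA y hy

/-- Every element of the residue field `FM` of `V_M` is the reduction of an inertia-fixed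
function, given (GA): `FM = fullC`. -/
theorem surj_L0_FM (A : ValuationSubring Kbar) (q M : ℕ) [NeZero M] (hq : q.Prime)
    (hqM : ¬ q ∣ M) (hA : A.LiesOverPrime q)
    (hGA : redField A (modularFunctionFieldBar M) (hScM A M)
      = modularFunctionFieldFullC (kV A) M)
    (y : FM A M) :
    ∃ x : FN M, x ∈ H23.L0 A M ∧ ∃ h : x ∈ VM A M, redM A M ⟨x, h⟩ = y := by
  have hy : (y : LaurentSeries (kV A)) ∈ modularFunctionFieldFullC (kV A) M := by
    rw [← hGA]; exact y.2
  obtain ⟨x, hx, hxV, e⟩ := surj_L0 A q M hq hqM hA _ hy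
  exact ⟨x, hx, hxV, Subtype.ext e⟩

/-- The residue map of the restriction of `V_M` to `L₀` is onto `FM`, given (GA). -/
theorem surjective_resRed_L0 (A : ValuationSubring Kbar) (q M : ℕ) [NeZero M] (hq : q.Prime)
    (hqM : ¬ q ∣ M) (hA : A.LiesOverPrime q)
    (hGA : redField A (modularFunctionFieldBar M) (hScM A M)
      = modularFunctionFieldFullC (kV A) M) :
    Function.Surjective (H23.resRed (H23.L0 A M) (VM A M) (redM A M)) := by
  intro y
  obtain ⟨x, hx, hxV, e⟩ := surj_L0_FM A q M hq hqM hA hGA y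
  exact ⟨⟨⟨x, hx⟩, hxV⟩, e⟩

/-- (GA) at level `M`: the residue field of `V_M` is `k(j~(t^d) : d ∣ M)`. -/
theorem FM_eq_fullC (A : ValuationSubring Kbar) (q M : ℕ) [NeZero M] (hq : q.Prime)
    (hqM : ¬ q ∣ M) (hA : A.LiesOverPrime q) :
    redField A (modularFunctionFieldBar M) (hScM A M) = modularFunctionFieldFullC (kV A) M :=
  Fermat.Agent.RED.H73.stmt_GA M q hq hqM A hA

/-- **T3-f SURJ**, final form: the residue map of `V_M ∩ L₀` is onto the residue field of
`V_M`. -/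
theorem surjective_resRed_L0' (A : ValuationSubring Kbar) (q M : ℕ) [NeZero M] (hq : q.Prime)
    (hqM : ¬ q ∣ M) (hA : A.LiesOverPrime q) :
    Function.Surjective (H23.resRed (H23.L0 A M) (VM A M) (redM A M)) :=
  surjective_resRed_L0 A q M hq hqM hA (FM_eq_fullC A q M hq hqM hA)

end Fermat.Agent.S36.NU.H42

end
end
-- ==== END Fermat.Agent.S36.NU.H42_Surj

-- ==== BEGIN Fermat.Agent.S36.NU.H44_Hor
section
attribute [local instance 10000] SubalgebraClass.toAlgebra
attribute [local instance 10000] HahnSeries.powerSeriesAlgebra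

/-!
# S36, NU-B, TI3 leaf (M3) HOR (helper44; target of helper16)

An `I`-fixed function `h` of level `N` whose divisor over `ℚ̄` is divisible by `n` is, up to the
fixed exponent `E₀ = [F_N : ℚ̄(j)]!`, an `n`-th power times a unit at every valuation ring
`W ≠ ⊤` of `L₀ = F_N^I` which contains the constants.

Proof: `W = W' ∩ L₀` for a valuation ring `W'` of `F_N` (Chevalley), `W'` contains `ℚ̄`, so it is a
place `P` of `F_N / ℚ̄`.  If `j` has a pole at `P` put `t = 1 / j`; otherwise `j (P) = c ∈ ℚ̄` and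
`t = ∏ (j - c')` over the (finite) `I`-orbit of `c`.  Then `t ∈ L₀`, `0 < ord_P t ≤ [F_N : ℚ̄(j)]`,
and `s = t ^ (- ord_P(h) E₀ / (n ord_P t))` does it.
-/

set_option autoImplicit false
set_option synthInstance.maxHeartbeats 400000
set_option maxHeartbeats 1000000
set_option linter.style.haveILetI false
set_option linter.unusedSectionVars false

noncomputable section

open ModularCurve AlgebraicCurve IntermediateField Fermat.Agent.S24 Fermat.Agent.S36.NU.H23
  Fermat.Agent.BAD.H88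

namespace Fermat.Agent.S36.NU.H44

/-- **(M3) HOR**: an `I`-fixed function whose divisor over `ℚ̄` is divisible by `n` is, up to the
fixed exponent `E₀`, an `n`-th power times a unit at every valuation ring `W ≠ ⊤` of `L0 A N`
which contains the constants. -/
def Stmt_HOR (N : ℕ) [NeZero N] : Prop :=
  ∃ E₀ : ℕ, E₀ ≠ 0 ∧ ∀ (A : ValuationSubring Kbar) (n : ℕ) (h : ↥(L0 A N)), h ≠ 0 →
    (∀ P : Place Kbar (FN N), (n : ℤ) ∣ P.ord (h : FN N)) →
    ∀ W : ValuationSubring ↥(L0 A N),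
      (∀ c : ↥(L0 A N), (∃ c' : Kbar, (c : FN N) = algebraMap Kbar (FN N) c') → c ∈ W) → W ≠ ⊤ →
      ∃ s : ↥(L0 A N), s ≠ 0 ∧ h ^ E₀ * s ^ n ∈ W ∧ (h ^ E₀ * s ^ n)⁻¹ ∈ W

section Orbit

variable (A : ValuationSubring Kbar)

open Classical in
/-- The orbit of `c ∈ ℚ̄` under the inertia group of `A`. -/
def orbitI (c : Kbar) : Finset Kbar :=
  ((minpoly ℚ c).aroots Kbar).toFinset.filter
    (fun c' => ∃ σ ∈ A.inertiaSubgroupIn ℚ, σ c = c')

theorem mem_orbitI {c c' : Kbar} :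
    c' ∈ orbitI A c ↔ ∃ σ ∈ A.inertiaSubgroupIn ℚ, σ c = c' := by
  classical
  rw [orbitI, Finset.mem_filter, Multiset.mem_toFinset]
  refine ⟨fun h => h.2, fun h => ⟨?_, h⟩⟩
  obtain ⟨σ, -, rfl⟩ := h
  haveI : Algebra.IsAlgebraic ℚ Kbar := AlgebraicClosure.isAlgebraic ℚ
  have hint : IsIntegral ℚ c := Algebra.IsIntegral.isIntegral c
  rw [Polynomial.mem_aroots]
  refine ⟨minpoly.ne_zero hint, ?_⟩
  have h := Polynomial.aeval_algHom_apply (σ : Kbar →ₐ[ℚ] Kbar) c (minpoly ℚ c)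
  rw [minpoly.aeval, map_zero] at h
  exact h

theorem self_mem_orbitI (c : Kbar) : c ∈ orbitI A c :=
  (mem_orbitI A).mpr ⟨1, one_mem _, rfl⟩

theorem image_orbitI (c : Kbar) {σ : Kbar ≃ₐ[ℚ] Kbar} (hσ : σ ∈ A.inertiaSubgroupIn ℚ) :
    (orbitI A c).image (fun x => σ x) = orbitI A c := by
  classical
  apply Finset.eq_of_subset_of_card_le
  · intro y hy
    rw [Finset.mem_image] at hy
    obtain ⟨x, hx, rfl⟩ := hy
    obtain ⟨τ, hτ, rfl⟩ := (mem_orbitI A).mp hx
    exact (mem_orbitI A).mpr ⟨σ * τ, mul_mem hσ hτ, rfl⟩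
  · rw [Finset.card_image_of_injective _ σ.injective]

variable (N : ℕ) [NeZero N]

/-- The product of `j - c'` over the inertia orbit of `c`. -/
def tOrb (c : Kbar) : FN N := ∏ c' ∈ orbitI A c, (jF N - algebraMap Kbar (FN N) c')

theorem jF_sub_ne_zero (c : Kbar) : jF N - algebraMap Kbar (FN N) c ≠ 0 := by
  intro h
  have h1 : jF N = algebraMap Kbar (FN N) c := sub_eq_zero.mp h
  exact (jF_transcendental N) (h1 ▸ isAlgebraic_algebraMap c)

theorem tOrb_ne_zero (c : Kbar) : tOrb A N c ≠ 0 :=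
  Finset.prod_ne_zero_iff.mpr fun c' _ => jF_sub_ne_zero N c'

theorem jF_mem_L0 : jF N ∈ L0 A N := by
  rw [jF_eq_jdF]
  exact jdF_mem_L0 A N 1 (one_dvd N)

theorem arith_jF (σ : Kbar ≃ₐ[ℚ] Kbar) :
    arithmeticRingAut (modularFunctionFieldFull N) σ (jF N) = jF N := by
  rw [jF_eq_jdF]
  exact arith_jdF N 1 (one_dvd N) σ

theorem tOrb_mem_L0 (c : Kbar) : tOrb A N c ∈ L0 A N := by
  classical
  intro σ hσ
  rw [tOrb, map_prod]
  have e : ∀ c' : Kbar, arithmeticRingAut (modularFunctionFieldFull N) σ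
      (jF N - algebraMap Kbar (FN N) c') = jF N - algebraMap Kbar (FN N) (σ c') := by
    intro c'
    rw [map_sub, arith_jF, arithmeticRingAut_algebraMap]
  simp only [e]
  have h2 := Finset.prod_image (s := orbitI A c) (g := fun x => σ x)
    (f := fun y => jF N - algebraMap Kbar (FN N) y) (fun x _ y _ hxy => σ.injective hxy)
  rw [image_orbitI A c hσ] at h2
  exact h2.symm

theorem ord_tOrb (P : Place Kbar (FN N)) (c : Kbar)
    (hP : 0 < P.ord (jF N - algebraMap Kbar (FN N) c)) :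
    P.ord (tOrb A N c) = P.ord (jF N - algebraMap Kbar (FN N) c) := by
  classical
  rw [tOrb, Fermat.Agent.RED.H51.ord_prod P _ _ (fun c' _ => jF_sub_ne_zero N c'),
    Finset.sum_eq_single c]
  · intro c' _ hc'
    exact ord_sub_const_of_ne P (jF N) hc' hP
  · intro h
    exact absurd (self_mem_orbitI A c) h

end Orbit

/-- **(M3) HOR**. -/
theorem stmt_HOR (N : ℕ) [NeZero N] : Stmt_HOR N := by
  haveI hfd : FiniteDimensional Kbar⟮jF N⟯ (FN N) := asm_finiteDimensional (modClosure N)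
  refine ⟨(Module.finrank Kbar⟮jF N⟯ (FN N)).factorial, Nat.factorial_ne_zero _, ?_⟩
  intro A n h hh0 hdiv W hWc hWtop
  obtain ⟨W', hW'⟩ := exists_valuationSubring_extension (L0 A N) W
  -- `W'` contains the constants
  have hQ : ∀ r : ℚ, algebraMap Kbar (FN N) (r : Kbar) ∈ W' := by
    intro r
    have hmem : algebraMap Kbar (FN N) (r : Kbar) ∈ L0 A N :=
      (const_mem_L0_iff A _).mpr (fun σ _ => map_ratCast σ r)
    exact (hW' ⟨_, hmem⟩).mpr (hWc ⟨_, hmem⟩ ⟨(r : Kbar), rfl⟩)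
  haveI : Algebra.IsAlgebraic ℚ Kbar := AlgebraicClosure.isAlgebraic ℚ
  have hK : ∀ c : Kbar, algebraMap Kbar (FN N) c ∈ W' := algebraMap_mem_of_rat_mem W' hQ
  have hne : W' ≠ ⊤ := by
    intro htop
    apply hWtop
    rw [eq_top_iff]
    intro x _
    exact (hW' x).mp (htop ▸ ValuationSubring.mem_top _)
  obtain ⟨P, hP⟩ := Fermat.Agent.RED.H42.exists_place_eq (Fermat.Agent.RED.H95.isFF_FN N) W' hK hne
  have hdeg : P.deg = 1 :=
    Fermat.Agent.RED.H51.stmt_FFB_deg Kbar (FN N) (Fermat.Agent.RED.H95.isFF_FN N) P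
  -- the function `t`
  obtain ⟨t, htL, ht0, htpos, htle⟩ : ∃ t : FN N, t ∈ L0 A N ∧ t ≠ 0 ∧ 0 < P.ord t ∧
      P.ord t ≤ (Module.finrank Kbar⟮jF N⟯ (FN N) : ℤ) := by
    by_cases hj : jF N ∈ P.toValuationSubring
    · obtain ⟨c, hc⟩ := Fermat.Agent.RED.H51.exists_value P hdeg
        ((Fermat.Agent.RED.H51.ordGe_zero_iff_mem P (jF N)).mpr hj)
      have hpos : 0 < P.ord (jF N - algebraMap Kbar (FN N) c) := by
        rcases hc with h0 | h1
        · exact absurd h0 (jF_sub_ne_zero N c)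
        · omega
      refine ⟨tOrb A N c, tOrb_mem_L0 A N c, tOrb_ne_zero A N c, ?_, ?_⟩
      · rw [ord_tOrb A N P c hpos]; exact hpos
      · rw [ord_tOrb A N P c hpos]
        exact ord_le_finrank_of_adjoin_eq (jF N) _ (adjoin_sub_const (jF N) c) P hpos
    · have hneg : P.ord (jF N) < 0 := Fermat.Agent.RED.H51.not_mem_iff_ord_neg P |>.mp hj
      have hpos : 0 < P.ord (jF N)⁻¹ := by rw [P.ord_inv]; omega
      have hj0 : jF N ≠ 0 := fun h0 => hj (h0 ▸ zero_mem _)
      exact ⟨(jF N)⁻¹, (L0 A N).inv_mem (jF_mem_L0 A N), inv_ne_zero hj0, hpos,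
        ord_le_finrank_of_adjoin_eq (jF N) _ (adjoin_inv_eq (jF N)) P hpos⟩
  obtain ⟨m, hm⟩ := hdiv P
  obtain ⟨e, he⟩ : ∃ e : ℕ, (e : ℤ) = P.ord t := ⟨(P.ord t).toNat, Int.toNat_of_nonneg htpos.le⟩
  have hepos : 0 < e := by omega
  have hele : e ≤ Module.finrank Kbar⟮jF N⟯ (FN N) := by omega
  obtain ⟨k, hk⟩ : e ∣ (Module.finrank Kbar⟮jF N⟯ (FN N)).factorial :=
    Nat.dvd_factorial hepos hele
  -- the function `s`
  have hsL : t ^ (-(m * (k : ℤ))) ∈ L0 A N := zpow_mem htL _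
  have hs0 : t ^ (-(m * (k : ℤ))) ≠ 0 := zpow_ne_zero _ ht0
  have hh0' : (h : FN N) ≠ 0 := fun h0 => hh0 (Subtype.ext h0)
  refine ⟨⟨t ^ (-(m * (k : ℤ))), hsL⟩, fun h0 => hs0 (congrArg Subtype.val h0), ?_⟩
  set E₀ := (Module.finrank Kbar⟮jF N⟯ (FN N)).factorial with hE₀
  set u : FN N := (h : FN N) ^ E₀ * (t ^ (-(m * (k : ℤ)))) ^ n with hu
  have hu0 : u ≠ 0 := mul_ne_zero (pow_ne_zero _ hh0') (pow_ne_zero _ hs0)
  have hord : P.ord u = 0 := by
    rw [hu, P.ord_mul (pow_ne_zero _ hh0') (pow_ne_zero _ hs0), Fermat.Agent.RED.H17.ord_pow,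
      Fermat.Agent.RED.H17.ord_pow, P.ord_zpow, hm, ← he, hk]
    push_cast
    ring
  have hcoe : ((h ^ E₀ * (⟨t ^ (-(m * (k : ℤ))), hsL⟩ : ↥(L0 A N)) ^ n : ↥(L0 A N)) : FN N) = u :=
    rfl
  have hmemu : u ∈ W' := by
    rw [← hP, Fermat.Agent.RED.H51.mem_iff_ord_nonneg P hu0, hord]
  have hmemui : u⁻¹ ∈ W' := by
    rw [← hP, Fermat.Agent.RED.H51.mem_iff_ord_nonneg P (inv_ne_zero hu0), P.ord_inv, hord]
    simp
  constructor
  · exact (hW' _).mp (hcoe ▸ hmemu)
  · refine (hW' _).mp ?_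
    show ((h ^ E₀ * (⟨t ^ (-(m * (k : ℤ))), hsL⟩ : ↥(L0 A N)) ^ n : ↥(L0 A N)) : FN N)⁻¹ ∈ W'
    rw [hcoe]
    exact hmemui

end Fermat.Agent.S36.NU.H44

end
end
-- ==== END Fermat.Agent.S36.NU.H44_Hor

-- ==== BEGIN Fermat.Agent.S36.NU.H44_NormUpNU
section

/-!
# S36, NU-B, leaf NORM-BC-NU (helper44): `stmt_NormUpNU : H81.Stmt_NormUpNU`
-/

set_option autoImplicit false

noncomputable section

namespace Fermat.Agent.S36.NU.H44

/-- **NORM-BC-NU**: base change of the norms along `α`, `β` from level `M` to level `r M`,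
for a prime `q ∣ M`, `q ∤ r`. -/
theorem stmt_NormUpNU : Fermat.Agent.S36.NU.H81.Stmt_NormUpNU := by
  intro M q r _ _ _ hq hqM hqr
  exact ⟨fun x => norm_alpha_up_dvd M q r hq hqM hqr x,
    fun x => norm_beta_up_dvd M q r hq hqM hqr x⟩

end Fermat.Agent.S36.NU.H44

end
end
-- ==== END Fermat.Agent.S36.NU.H44_NormUpNU

-- ==== BEGIN Fermat.Agent.S36.NU.H51_Unif
section

/-!
# S36 / NU-B, leaf VALVEC-MOD (helper51): functions with prescribed valuation vectors

`D : H42.NRData E L Et ι κ` (finitely many pairwise incomparable valuation rings of rank one with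
"uniformisers" `π i`).  By the approximation theorem (helper42) there is, for every `i₀`, a
function `t` with `v_{i₀} (t) = v_{i₀} (π i₀)` and `v_j (t) = 1` for `j ≠ i₀`.
-/

set_option autoImplicit false
set_option linter.style.haveILetI false
set_option linter.unusedSectionVars false

noncomputable section

namespace Fermat.Agent.S36.NU.H51

open Fermat.Agent.BAD Fermat.Agent.BAD.H42

section Abs

variable {L : Type} [Field L] {ι : Type} [DecidableEq ι] [Fintype ι]

/-- **Functions with valuation vector `e_{i₀}`**, for finitely many pairwise incomparable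
valuation rings of rank one. -/
theorem exists_unif_abs (V : ι → ValuationSubring L) (hA : ∀ i, IsArch (V i))
    (hinc : ∀ i j, i ≠ j → ¬ V i ≤ V j) (hnt : ∀ i, V i ≠ ⊤) (i₀ : ι) (π : L) (hπ0 : π ≠ 0)
    (hπ : (V i₀).valuation π < 1) :
    ∃ t : L, (V i₀).valuation t = (V i₀).valuation π ∧
      ∀ j, j ≠ i₀ → (V j).valuation t = 1 := by
  classical
  -- the comparison elements
  set c : ι → L := fun l => if l = i₀ then π else 1 with hc
  have hc0 : ∀ l, c l ≠ 0 := by
    intro l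
    rw [hc]
    by_cases h : l = i₀
    · simp [h, hπ0]
    · simp [h]
  -- the approximations of `1`
  have hE : ∀ j : ι, ∃ E : L, (V j).valuation (E - 1) < 1 ∧
      ∀ l ∈ Finset.univ.erase j, (V l).valuation E < (V l).valuation (c l) := fun j =>
    exists_one_small V hA hinc hnt j (Finset.univ.erase j) (Finset.notMem_erase j _) c
      (fun l _ => hc0 l)
  choose E hE1 hE2 using hE
  have hEj : ∀ j, (V j).valuation (E j) = 1 := by
    intro j
    have : E j = 1 + (E j - 1) := by ring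
    rw [this]
    exact Valuation.map_one_add_of_lt _ (hE1 j)
  -- the approximation of `π`
  have hπV : π ∈ V i₀ := (ValuationSubring.valuation_le_one_iff _ _).1 hπ.le
  obtain ⟨b, -, hb1, hb2⟩ := exists_approx_small V hA hinc hnt i₀ (Finset.univ.erase i₀)
    (Finset.notMem_erase i₀ _) (fun _ => (1 : L)) (fun _ _ => one_ne_zero) π hπV
  refine ⟨b + ∑ j ∈ Finset.univ.erase i₀, E j, ?_, ?_⟩
  · -- at `i₀`
    have hvπ : (V i₀).valuation π ≠ 0 := (Valuation.ne_zero_iff _).2 hπ0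
    have hs : (V i₀).valuation (∑ j ∈ Finset.univ.erase i₀, E j) < (V i₀).valuation π := by
      apply Valuation.map_sum_lt _ hvπ
      intro j hj
      have hne : i₀ ≠ j := fun h => (Finset.ne_of_mem_erase hj) h.symm
      have h1 := hE2 j i₀ (Finset.mem_erase.2 ⟨hne, Finset.mem_univ _⟩)
      rw [hc] at h1
      simpa using h1
    rw [← hb1] at hs
    rw [Valuation.map_add_eq_of_lt_left _ hs, hb1]
  · -- at `l ≠ i₀`
    intro l hl
    have hmem : l ∈ Finset.univ.erase i₀ := Finset.mem_erase.2 ⟨hl, Finset.mem_univ _⟩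
    rw [← Finset.add_sum_erase _ _ hmem, ← add_assoc, add_comm b, add_assoc]
    have hb : (V l).valuation b < 1 := by
      have := hb2 l hmem
      rwa [map_one] at this
    have hs : (V l).valuation (∑ j ∈ (Finset.univ.erase i₀).erase l, E j) < 1 := by
      apply Valuation.map_sum_lt _ one_ne_zero
      intro j hj
      have hjl : j ≠ l := Finset.ne_of_mem_erase hj
      have h1 := hE2 j l (Finset.mem_erase.2 ⟨fun h => hjl h.symm, Finset.mem_univ _⟩)
      rw [hc] at h1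
      simpa [hl] using h1
    have hsum : (V l).valuation (b + ∑ j ∈ (Finset.univ.erase i₀).erase l, E j) < 1 :=
      Valuation.map_add_lt _ hb hs
    rw [← hEj l] at hsum
    rw [Valuation.map_add_eq_of_lt_left _ hsum, hEj l]

end Abs

section NR

variable {E L Et : Type} [Field E] [Field L] [Field Et] [Algebra E L]
  {ι : Type} {κ : ι → Type} [∀ i, Field (κ i)] [∀ i, Algebra Et (κ i)]
  [DecidableEq ι] [Fintype ι]

/-- **Functions with valuation vector `e_{i₀}`** for an `NRData`. -/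
theorem exists_unif (D : NRData E L Et ι κ) (i₀ : ι) :
    ∃ t : L, (D.V i₀).valuation t = (D.V i₀).valuation (D.π i₀) ∧
      ∀ j, j ≠ i₀ → (D.V j).valuation t = 1 :=
  exists_unif_abs D.V D.hA D.hinc D.V_ne_top i₀ (D.π i₀) (D.π_ne_zero i₀) (D.hπ i₀)

end NR

end Fermat.Agent.S36.NU.H51

end
end
-- ==== END Fermat.Agent.S36.NU.H51_Unif

-- ==== BEGIN Fermat.Agent.S36.NU.H61_BranchAlg
section

/-!
# S36 / NU-B, local side of TI3, leaf (L1) BRANCH-ALG (helper61)

If the image `A` of the coordinate ring `B` of a chart in the function field `κ i` of the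
component `i` is a Dedekind domain with fraction field `κ i`, and the residue field of the closed
point `𝔪 ⊇ Icomp i` is the field of constants, then the component has a `Branch` through `𝔪`.

* `branch_of_dedekind` : the main statement, for an abstract Dedekind model `φ : B ↠ A`,
  `A → κ i` the fraction field (the case where `A` is a field is allowed).
* `residue_of_finiteType` : the residue-field hypothesis from `IsAlgClosed k` and
  `Algebra.FiniteType k A` (Zariski's lemma).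
* `branch_of_dedekind_finiteType` : the two together.
* `branch_of_range` : the same with `A = (C.rdB i).range`.
-/

set_option autoImplicit false

noncomputable section

namespace Fermat.Agent.S36.NU.H61

open Fermat.Agent.S36.NU.H16 IsDedekindDomain

/-- In `ℤᵐ⁰` the powers of an element `< 1` are eventually below any nonzero element. -/
theorem exists_pow_le_of_lt_one (a b : WithZero (Multiplicative ℤ)) (ha : a < 1) (hb : b ≠ 0) :
    ∃ N : ℕ, ∀ M : ℕ, N ≤ M → a ^ M ≤ b := by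
  by_cases ha0 : a = 0
  · refine ⟨1, fun M hM => ?_⟩
    subst ha0
    rw [zero_pow (by omega)]
    exact zero_le
  · have hla : WithZero.log a < 0 := by
      have h1 := (WithZero.log_lt_log ha0 one_ne_zero).2 ha
      simpa using h1
    refine ⟨(-WithZero.log b).toNat, fun M hM => ?_⟩
    rw [← WithZero.log_le_log (pow_ne_zero _ ha0) hb, WithZero.log_pow, nsmul_eq_mul]
    have h2 : -WithZero.log b ≤ (M : ℤ) := by
      have h3 := Int.self_le_toNat (-WithZero.log b)
      have h4 : ((-WithZero.log b).toNat : ℤ) ≤ (M : ℤ) := by exact_mod_cast hM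
      omega
    have h5 : (0 : ℤ) ≤ (M : ℤ) := Int.natCast_nonneg M
    nlinarith

variable {R F k ι : Type*} {κ : ι → Type*} [CommRing R] [Field F] [Algebra R F]
  [Field k] [∀ i, Field (κ i)] [∀ i, Algebra k (κ i)]

section Model

variable (C : Chart R F k ι κ) (i : ι) {A : Type*} [CommRing A] [Algebra A (κ i)]
  (φ : C.B →+* A)

/-- the kernel of a model `φ` of the component is `Icomp i`. -/
theorem ker_model (hinj : Function.Injective (algebraMap A (κ i)))
    (hcomp : ∀ β, algebraMap A (κ i) (φ β) = C.rdB i β) :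
    RingHom.ker φ = C.Icomp i := by
  ext β
  rw [RingHom.mem_ker, C.mem_Icomp, ← hcomp]
  constructor
  · intro h
    rw [h, map_zero]
  · intro h
    exact hinj (by rw [h, map_zero])

/-- membership in `𝔪` is detected in the model. -/
theorem mem_iff_model (hinj : Function.Injective (algebraMap A (κ i)))
    (hφ : Function.Surjective φ)
    (hcomp : ∀ β, algebraMap A (κ i) (φ β) = C.rdB i β)
    (𝔪 : Ideal C.B) (h𝔪 : C.Icomp i ≤ 𝔪) (β : C.B) :
    β ∈ 𝔪 ↔ φ β ∈ 𝔪.map φ := by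
  constructor
  · exact Ideal.mem_map_of_mem φ
  · intro h
    have h1 : β ∈ (𝔪.map φ).comap φ := h
    rw [Ideal.comap_map_of_surjective φ hφ] at h1
    have h2 : (⊥ : Ideal A).comap φ ≤ 𝔪 := by
      intro x hx
      apply h𝔪
      rw [← ker_model C i φ hinj hcomp]
      exact hx
    exact (sup_le le_rfl h2) h1

end Model

section Basic

variable (C : Chart R F k ι κ) (i : ι)

theorem rdB_algebraMap (r : R) :
    C.rdB i (algebraMap R C.B r) = algebraMap k (κ i) (C.res r) :=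
  C.red_const i r _

/-- the nonunits of a valuation subring are closed under addition. -/
theorem add_mem_nonunits {K : Type*} [Field K] (O : ValuationSubring K) {x y : K}
    (hx : x ∈ O.nonunits) (hy : y ∈ O.nonunits) : x + y ∈ O.nonunits := by
  rw [ValuationSubring.mem_nonunits_iff] at hx hy ⊢
  exact lt_of_le_of_lt (O.valuation.map_add x y) (max_lt hx hy)

/-- the nonunits of a valuation subring absorb multiplication by integers. -/
theorem mul_mem_nonunits {K : Type*} [Field K] (O : ValuationSubring K) {x y : K}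
    (hx : x ∈ O) (hy : y ∈ O.nonunits) : x * y ∈ O.nonunits := by
  rw [ValuationSubring.mem_nonunits_iff] at hy ⊢
  rw [map_mul]
  have h1 : O.valuation x ≤ 1 := (O.valuation_le_one_iff x).2 hx
  calc O.valuation x * O.valuation y ≤ 1 * O.valuation y := by gcongr
    _ = O.valuation y := one_mul _
    _ < 1 := hy

end Basic

/-- **A branch from `reg`, `van`, `normal`, `arch` and the residue field hypothesis**: `value`
follows. -/
theorem value_of_normal (C : Chart R F k ι κ) (i : ι)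
    (𝔪 : Ideal C.B) (hmax : 𝔪.IsMaximal) (O : ValuationSubring (κ i))
    (van : ∀ β : C.B, β ∈ 𝔪 ↔ C.rdB i β ∈ O.nonunits)
    (normal : ∀ y ∈ O, ∃ b β : C.B, β ∉ 𝔪 ∧ C.rdB i b = y * C.rdB i β)
    (hk : ∀ β : C.B, ∃ r : R, β - algebraMap R C.B r ∈ 𝔪) :
    ∀ y ∈ O, ∃ c : k, y - algebraMap k (κ i) c ∈ O.nonunits := by
  intro y hy
  obtain ⟨b, β, hβ, hb⟩ := normal y hy
  obtain ⟨β'', m, hm, hsum⟩ := hmax.exists_inv hβ
  obtain ⟨r, hr⟩ := hk (b * β'')
  refine ⟨C.res r, ?_⟩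
  have h1 : C.rdB i (b * β'' - algebraMap R C.B r) ∈ O.nonunits := (van _).1 hr
  have h2 : C.rdB i m ∈ O.nonunits := (van _).1 hm
  have h3 : y - algebraMap k (κ i) (C.res r) =
      y * C.rdB i m + C.rdB i (b * β'' - algebraMap R C.B r) := by
    rw [map_sub, map_mul, hb, rdB_algebraMap]
    have h4 : C.rdB i (β'' * β + m) = 1 := by rw [hsum, map_one]
    rw [map_add, map_mul] at h4
    linear_combination (-y) * h4
  rw [h3]
  exact add_mem_nonunits O (mul_mem_nonunits O hy h2) h1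

/-- **(L1) BRANCH-ALG**, abstract form.  `φ : B ↠ A` with `A` a Dedekind domain (possibly a field)
with fraction field `κ i`, compatible with `rdB i`; the residue field of `𝔪` consists of
constants.  Then the component `i` has a branch through `𝔪`. -/
theorem branch_of_dedekind (C : Chart R F k ι κ) (i : ι)
    {A : Type*} [CommRing A] [IsDedekindDomain A] [Algebra A (κ i)] [IsFractionRing A (κ i)]
    (φ : C.B →+* A) (hφ : Function.Surjective φ)
    (hcomp : ∀ β, algebraMap A (κ i) (φ β) = C.rdB i β)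
    (𝔪 : Ideal C.B) (hmax : 𝔪.IsMaximal) (h𝔪 : C.Icomp i ≤ 𝔪)
    (hk : ∀ β : C.B, ∃ r : R, β - algebraMap R C.B r ∈ 𝔪) :
    Nonempty (Branch C 𝔪 i) := by
  classical
  have hinj : Function.Injective (algebraMap A (κ i)) := IsFractionRing.injective A (κ i)
  have hmem := mem_iff_model C i φ hinj hφ hcomp 𝔪 h𝔪
  have hPmax : (𝔪.map φ).IsMaximal := by
    rcases Ideal.map_eq_top_or_isMaximal_of_surjective φ hφ hmax with h | h
    · exfalso
      have h1 : (1 : C.B) ∈ 𝔪 := by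
        rw [hmem, h]
        exact Submodule.mem_top
      exact hmax.ne_top ((Ideal.eq_top_iff_one 𝔪).2 h1)
    · exact h
  by_cases hbot : 𝔪.map φ = ⊥
  · -- `A` is a field, `O = ⊤`
    have hfield : IsField A := by
      rw [Ring.isField_iff_maximal_bot, ← hbot]
      exact hPmax
    have hsurj : Function.Surjective (algebraMap A (κ i)) :=
      IsFractionRing.surjective_iff_isField.2 hfield
    have hnon : ∀ x : κ i, x ∈ (⊤ : ValuationSubring (κ i)).nonunits ↔ x = 0 := by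
      intro x
      rw [ValuationSubring.mem_nonunits_iff_or]
      constructor
      · rintro (h | h)
        · exact h
        · exact absurd (ValuationSubring.mem_top _) h
      · intro h
        exact Or.inl h
    have van : ∀ β : C.B, β ∈ 𝔪 ↔ C.rdB i β ∈ (⊤ : ValuationSubring (κ i)).nonunits := by
      intro β
      rw [hnon, hmem, hbot, Ideal.mem_bot, ← hcomp]
      constructor
      · intro h
        rw [h, map_zero]
      · intro h
        exact hinj (by rw [h, map_zero])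
    have normal : ∀ y ∈ (⊤ : ValuationSubring (κ i)),
        ∃ b β : C.B, β ∉ 𝔪 ∧ C.rdB i b = y * C.rdB i β := by
      intro y _
      obtain ⟨a, rfl⟩ := hsurj y
      obtain ⟨b, rfl⟩ := hφ a
      refine ⟨b, 1, ?_, ?_⟩
      · intro h
        exact hmax.ne_top ((Ideal.eq_top_iff_one 𝔪).2 h)
      · rw [map_one, mul_one, hcomp]
    exact ⟨{
      O := ⊤
      reg := fun β => ValuationSubring.mem_top _
      van := van
      normal := normal
      arch := fun x _ y _ => ⟨0, fun M _ => ValuationSubring.mem_top _⟩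
      value := value_of_normal C i 𝔪 hmax ⊤ van normal hk }⟩
  · -- the height one prime `P = φ 𝔪`
    let v : HeightOneSpectrum A := ⟨𝔪.map φ, hPmax.isPrime, hbot⟩
    let O : ValuationSubring (κ i) := (v.valuation (κ i)).valuationSubring
    have hOmem : ∀ x : κ i, x ∈ O ↔ v.valuation (κ i) x ≤ 1 := fun x => Iff.rfl
    have hOnon : ∀ x : κ i, x ∈ O.nonunits ↔ v.valuation (κ i) x < 1 := by
      intro x
      rw [ValuationSubring.mem_nonunits_iff]
      exact ((Valuation.isEquiv_valuation_valuationSubring (v.valuation (κ i))).lt_one_iff_lt_one).symm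
    have reg : ∀ β : C.B, C.rdB i β ∈ O := by
      intro β
      rw [hOmem, ← hcomp]
      exact v.valuation_le_one _
    have van : ∀ β : C.B, β ∈ 𝔪 ↔ C.rdB i β ∈ O.nonunits := by
      intro β
      rw [hOnon, ← hcomp, v.valuation_lt_one_iff_mem, hmem]
    have normal : ∀ y ∈ O, ∃ b β : C.B, β ∉ 𝔪 ∧ C.rdB i b = y * C.rdB i β := by
      intro y hy
      obtain ⟨n, d, hnd⟩ := v.exists_primeCompl_mul_eq_of_integer y ((hOmem y).1 hy)
      obtain ⟨b, hb⟩ := hφ n
      obtain ⟨β, hβ⟩ := hφ (d : A)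
      refine ⟨b, β, ?_, ?_⟩
      · rw [hmem, hβ]
        exact d.2
      · rw [← hcomp, ← hcomp, hb, hβ, hnd]
    have arch : ∀ x ∈ O.nonunits, ∀ y : κ i, y ≠ 0 →
        ∃ N : ℕ, ∀ M : ℕ, N ≤ M → x ^ M * y⁻¹ ∈ O := by
      intro x hx y hy
      have hy' : v.valuation (κ i) y ≠ 0 := (Valuation.ne_zero_iff _).2 hy
      obtain ⟨N, hN⟩ := exists_pow_le_of_lt_one _ _ ((hOnon x).1 hx) hy'
      refine ⟨N, fun M hM => ?_⟩
      rw [hOmem, map_mul, map_pow, map_inv₀]
      exact mul_inv_le_one_of_le₀ (hN M hM) zero_le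
    exact ⟨{
      O := O
      reg := reg
      van := van
      normal := normal
      arch := arch
      value := value_of_normal C i 𝔪 hmax O van normal hk }⟩

/-! ### The residue field hypothesis from Zariski's lemma -/

/-- **Zariski's lemma, ring-hom form**: a ring hom of finite type from an algebraically closed
field to a field is surjective. -/
theorem surjective_of_finiteType_field {k' K : Type*} [Field k'] [IsAlgClosed k'] [Field K]
    (g : k' →+* K) (hg : g.FiniteType) : Function.Surjective g := by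
  have h1 : g.Finite := RingHom.finite_iff_finiteType_of_isJacobsonRing.2 hg
  have h2 : g.IsIntegral := h1.to_isIntegral
  exact (IsAlgClosed.ringHom_bijective_of_isIntegral g h2).2

/-- the constants of `R` that die in `k` lie in every `𝔪 ⊇ Icomp i`. -/
theorem algebraMap_mem_of_res_eq_zero (C : Chart R F k ι κ) (i : ι)
    (𝔪 : Ideal C.B) (h𝔪 : C.Icomp i ≤ 𝔪) {r : R} (hr : C.res r = 0) :
    algebraMap R C.B r ∈ 𝔪 := by
  apply h𝔪
  rw [C.mem_Icomp, rdB_algebraMap, hr, map_zero]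

/-- **Residue field of a closed point**, ring-hom form: if `R → B / 𝔪` is of finite type and
`k` is algebraically closed, then the residue field of `𝔪` consists of constants. -/
theorem residue_of_ringHom_finiteType [IsAlgClosed k] (C : Chart R F k ι κ) (i : ι)
    (𝔪 : Ideal C.B) (hmax : 𝔪.IsMaximal) (h𝔪 : C.Icomp i ≤ 𝔪)
    (hft : ((Ideal.Quotient.mk 𝔪).comp (algebraMap R C.B)).FiniteType) :
    ∀ β : C.B, ∃ r : R, β - algebraMap R C.B r ∈ 𝔪 := by
  let _ : Field (C.B ⧸ 𝔪) := Ideal.Quotient.field 𝔪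
  let f : R →+* C.B ⧸ 𝔪 := (Ideal.Quotient.mk 𝔪).comp (algebraMap R C.B)
  have hker : RingHom.ker C.res ≤ RingHom.ker f := by
    intro r hr
    rw [RingHom.mem_ker] at hr ⊢
    exact Ideal.Quotient.eq_zero_iff_mem.2 (algebraMap_mem_of_res_eq_zero C i 𝔪 h𝔪 hr)
  let g : k →+* C.B ⧸ 𝔪 := C.res.liftOfSurjective C.res_surj ⟨f, hker⟩
  have hgf : g.comp C.res = f := RingHom.liftOfSurjective_comp C.res C.res_surj ⟨f, hker⟩
  have hg : g.FiniteType := by
    apply RingHom.FiniteType.of_comp_finiteType (f := C.res)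
    rw [hgf]
    exact hft
  have hsurj := surjective_of_finiteType_field g hg
  intro β
  obtain ⟨c, hc⟩ := hsurj (Ideal.Quotient.mk 𝔪 β)
  obtain ⟨r, rfl⟩ := C.res_surj c
  refine ⟨r, ?_⟩
  rw [← Ideal.Quotient.eq, ← hc]
  exact (RingHom.congr_fun hgf r)

/-- **Residue field of a closed point**: `B` of finite type over `R`, `k` algebraically closed. -/
theorem residue_of_finiteType_B [IsAlgClosed k] (C : Chart R F k ι κ) (i : ι)
    [Algebra.FiniteType R C.B]
    (𝔪 : Ideal C.B) (hmax : 𝔪.IsMaximal) (h𝔪 : C.Icomp i ≤ 𝔪) :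
    ∀ β : C.B, ∃ r : R, β - algebraMap R C.B r ∈ 𝔪 := by
  apply residue_of_ringHom_finiteType C i 𝔪 hmax h𝔪
  apply RingHom.FiniteType.comp
  · exact RingHom.FiniteType.of_surjective _ Ideal.Quotient.mk_surjective
  · exact (RingHom.finiteType_algebraMap (A := R) (B := C.B)).2 inferInstance

/-- **Residue field of a closed point**: the model `A` of the component is a `k`-algebra of finite
type, `k` algebraically closed. -/
theorem residue_of_finiteType [IsAlgClosed k] (C : Chart R F k ι κ) (i : ι)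
    {A : Type*} [CommRing A] [Algebra k A] [Algebra.FiniteType k A] [Algebra A (κ i)]
    [IsScalarTower k A (κ i)]
    (hinj : Function.Injective (algebraMap A (κ i)))
    (φ : C.B →+* A) (hφ : Function.Surjective φ)
    (hcomp : ∀ β, algebraMap A (κ i) (φ β) = C.rdB i β)
    (𝔪 : Ideal C.B) (hmax : 𝔪.IsMaximal) (h𝔪 : C.Icomp i ≤ 𝔪) :
    ∀ β : C.B, ∃ r : R, β - algebraMap R C.B r ∈ 𝔪 := by
  have hmem := mem_iff_model C i φ hinj hφ hcomp 𝔪 h𝔪
  have hPmax : (𝔪.map φ).IsMaximal := by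
    rcases Ideal.map_eq_top_or_isMaximal_of_surjective φ hφ hmax with h | h
    · exfalso
      have h1 : (1 : C.B) ∈ 𝔪 := by
        rw [hmem, h]
        exact Submodule.mem_top
      exact hmax.ne_top ((Ideal.eq_top_iff_one 𝔪).2 h1)
    · exact h
  let _ : Field (A ⧸ 𝔪.map φ) := Ideal.Quotient.field _
  have hg : ((Ideal.Quotient.mk (𝔪.map φ)).comp (algebraMap k A)).FiniteType := by
    apply RingHom.FiniteType.comp
    · exact RingHom.FiniteType.of_surjective _ Ideal.Quotient.mk_surjective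
    · exact (RingHom.finiteType_algebraMap (A := k) (B := A)).2 inferInstance
  have hsurj := surjective_of_finiteType_field _ hg
  intro β
  obtain ⟨c, hc⟩ := hsurj (Ideal.Quotient.mk (𝔪.map φ) (φ β))
  obtain ⟨r, rfl⟩ := C.res_surj c
  refine ⟨r, ?_⟩
  have h1 : φ (algebraMap R C.B r) = algebraMap k A (C.res r) := by
    apply hinj
    rw [hcomp, rdB_algebraMap, ← IsScalarTower.algebraMap_apply]
  rw [hmem, map_sub, h1, ← Ideal.Quotient.eq, ← hc]
  rfl

/-- **(L1) BRANCH-ALG** for a Dedekind model of finite type over `k = k̄`. -/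
theorem branch_of_dedekind_finiteType [IsAlgClosed k] (C : Chart R F k ι κ) (i : ι)
    {A : Type*} [CommRing A] [IsDedekindDomain A] [Algebra k A] [Algebra.FiniteType k A]
    [Algebra A (κ i)] [IsFractionRing A (κ i)] [IsScalarTower k A (κ i)]
    (φ : C.B →+* A) (hφ : Function.Surjective φ)
    (hcomp : ∀ β, algebraMap A (κ i) (φ β) = C.rdB i β)
    (𝔪 : Ideal C.B) (hmax : 𝔪.IsMaximal) (h𝔪 : C.Icomp i ≤ 𝔪) :
    Nonempty (Branch C 𝔪 i) :=
  branch_of_dedekind C i φ hφ hcomp 𝔪 hmax h𝔪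
    (residue_of_finiteType C i (IsFractionRing.injective A (κ i)) φ hφ hcomp 𝔪 hmax h𝔪)

/-! ### The image of the coordinate ring in the function field of the component -/

/-- `A_i = rdB i (B) ⊆ κ i`, as a `k`-subalgebra. -/
def imgAlg (C : Chart R F k ι κ) (i : ι) : Subalgebra k (κ i) where
  toSubsemiring := (C.rdB i).rangeS
  algebraMap_mem' c := by
    obtain ⟨r, rfl⟩ := C.res_surj c
    exact ⟨algebraMap R C.B r, rdB_algebraMap C i r⟩

theorem mem_imgAlg (C : Chart R F k ι κ) (i : ι) (y : κ i) :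
    y ∈ imgAlg C i ↔ ∃ β : C.B, C.rdB i β = y := Iff.rfl

/-- the surjection `B ↠ A_i`. -/
def toImg (C : Chart R F k ι κ) (i : ι) : C.B →+* imgAlg C i :=
  (C.rdB i).codRestrict (imgAlg C i) fun β => ⟨β, rfl⟩

theorem toImg_surjective (C : Chart R F k ι κ) (i : ι) : Function.Surjective (toImg C i) := by
  rintro ⟨y, β, rfl⟩
  exact ⟨β, rfl⟩

theorem algebraMap_toImg (C : Chart R F k ι κ) (i : ι) (β : C.B) :
    algebraMap (imgAlg C i) (κ i) (toImg C i β) = C.rdB i β := rfl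

/-- **(L1) BRANCH-ALG**, image form with the residue field hypothesis. -/
theorem branch_of_img (C : Chart R F k ι κ) (i : ι)
    [IsDedekindDomain (imgAlg C i)] [IsFractionRing (imgAlg C i) (κ i)]
    (𝔪 : Ideal C.B) (hmax : 𝔪.IsMaximal) (h𝔪 : C.Icomp i ≤ 𝔪)
    (hk : ∀ β : C.B, ∃ r : R, β - algebraMap R C.B r ∈ 𝔪) :
    Nonempty (Branch C 𝔪 i) :=
  branch_of_dedekind C i (toImg C i) (toImg_surjective C i) (algebraMap_toImg C i) 𝔪 hmax h𝔪 hk

/-- **(L1) BRANCH-ALG**, image form: `A_i = rdB i (B)` Dedekind with fraction field `κ i`,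
finitely generated over `k = k̄`. -/
theorem branch_of_img_fg [IsAlgClosed k] (C : Chart R F k ι κ) (i : ι)
    [IsDedekindDomain (imgAlg C i)] [IsFractionRing (imgAlg C i) (κ i)]
    (hfg : (imgAlg C i).FG)
    (𝔪 : Ideal C.B) (hmax : 𝔪.IsMaximal) (h𝔪 : C.Icomp i ≤ 𝔪) :
    Nonempty (Branch C 𝔪 i) := by
  have : Algebra.FiniteType k (imgAlg C i) := (Subalgebra.fg_iff_finiteType _).1 hfg
  exact branch_of_dedekind_finiteType C i (toImg C i) (toImg_surjective C i)
    (algebraMap_toImg C i) 𝔪 hmax h𝔪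

/-- **(L1) BRANCH-ALG**, the statement of the leaf (in `Type`, as the statements of
`H16_LocalDefs`). -/
def Stmt_BranchAlg : Prop :=
  ∀ {R F k ι : Type} {κ : ι → Type} [CommRing R] [Field F] [Algebra R F]
    [Field k] [IsAlgClosed k] [∀ i, Field (κ i)] [∀ i, Algebra k (κ i)]
    (C : Chart R F k ι κ) (i : ι)
    (_ : IsDedekindDomain (imgAlg C i)) (_ : IsFractionRing (imgAlg C i) (κ i))
    (_ : (imgAlg C i).FG)
    (𝔪 : Ideal C.B) (_ : 𝔪.IsMaximal) (_ : C.Icomp i ≤ 𝔪), Nonempty (Branch C 𝔪 i)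

theorem stmt_BranchAlg : Stmt_BranchAlg := by
  intro R F k ι κ _ _ _ _ _ _ _ C i hD hF hfg 𝔪 hmax h𝔪
  exact branch_of_img_fg C i hfg 𝔪 hmax h𝔪

end Fermat.Agent.S36.NU.H61

end
end
-- ==== END Fermat.Agent.S36.NU.H61_BranchAlg

-- ==== BEGIN Fermat.Agent.S36.NU.H73_GPole
section
attribute [local instance 10000] SubalgebraClass.toAlgebra
attribute [local instance 10000] HahnSeries.powerSeriesAlgebra

/-!
# `d̄` has a pole at the supersingular points (S36 / NU-B / GPOLE, places part 2; helper73)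

`E ⊆ k((t))` with `[E : E^q] = q`, `j̄ ∈ E`, `z` a place of `E / k`, `ū ∈ E` a coordinate at `z`
(`ord_z (ū - c) = 1`), `d̄ ∈ E` with `θ d̄ = ū^{q-1} θ ū - (θ ū)^q` (THETA), `H` the supersingular
polynomial (`H(j̄) = Δ̄^{1-q}`).

* `Gu_mem` : if `d̄ ∈ O_z` then `G_u = (θ ū)^{q-1} ∈ O_z`.
* `dbar_not_mem` : if `j̄(z) = j₀` is a root of `H`, `j₀ ≠ 0, 1728`, then `d̄ ∉ O_z`.
-/

set_option autoImplicit false

noncomputable section

open ModularCurve AlgebraicCurve IntermediateField Polynomial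

namespace Fermat.Agent.S36.NU.H73

open Fermat.Agent.RED.H51 Fermat.Agent.BAD.H21

section GPole

variable {k : Type*} [Field k] {q : ℕ} [Fact q.Prime] [CharP k q]
variable {E : IntermediateField k (LaurentSeries k)}

omit [Fact q.Prime] [CharP k q] in
theorem thetaL_algebraMap (c : k) : thetaL (algebraMap k (LaurentSeries k) c) = 0 := by
  rw [algebraMap_eq_C, thetaL_C]

omit [Fact q.Prime] [CharP k q] in
theorem coeE_sub (a b : ↥E) :
    ((a - b : ↥E) : LaurentSeries k) = (a : LaurentSeries k) - (b : LaurentSeries k) := rfl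

omit [Fact q.Prime] [CharP k q] in
theorem thetaL_jqModC_ne_zero : thetaL (jqModC k) ≠ 0 := by
  intro h
  have h1 := congrArg (fun x => x.coeff (-1)) h
  simp only [thetaL_coeff, HahnSeries.coeff_zero] at h1
  rw [coeff_jqModC_neg_one] at h1
  simp at h1

/-- **THETA** for any `δ ∈ ℤ((t))` with `q δ = u ^ q - u(t^q)` (e.g. `deltaZ q u`, or helper65's
`kdel q u`): `θ δ̄ = ū^{q-1} θ ū - (θ ū)^q`. -/
theorem thetaL_dbar_of_int (uZ δZ : LaurentSeries ℤ)
    (hspec : (q : LaurentSeries ℤ) * δZ = uZ ^ q - qExpand ℤ q uZ) :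
    thetaL (coeffMap (Int.castRingHom k) δZ) =
      (coeffMap (Int.castRingHom k) uZ) ^ (q - 1) * thetaL (coeffMap (Int.castRingHom k) uZ)
        - (thetaL (coeffMap (Int.castRingHom k) uZ)) ^ q := by
  have hq0 : ((q : ℕ) : ℤ) ≠ 0 := by
    exact_mod_cast (Fact.out : q.Prime).ne_zero
  rw [thetaL_dbar_of_spec q (fun x hx => (mul_eq_zero.mp hx).resolve_left hq0)
    (Int.castRingHom k) uZ δZ hspec, thetaL_coeffMap (Int.castRingHom k) uZ,
    pow_eq_qExpand_of_int q (thetaL uZ)]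

/-- `θ π ≠ 0` for a uniformizer `π` (if `θ` does not vanish on `E`). -/
theorem thetaL_ne_zero_of_ord (hPB : HasPBasis q ↥E) (z : Place k ↥E) {π : ↥E}
    (hπ : z.ord π = 1) {f : ↥E} (hf : thetaL (f : LaurentSeries k) ≠ 0) :
    thetaL (π : LaurentSeries k) ≠ 0 := by
  intro h0
  apply hf
  have hq : q.Prime := Fact.out
  have hπq : ∀ c : ↥E, π ≠ c ^ q := by
    intro c h
    rw [h, ord_pow] at hπ
    have h2 : (2 : ℤ) ≤ q := by exact_mod_cast hq.two_le
    rcases le_or_gt (z.ord c) 0 with h0 | h0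
    · nlinarith
    · nlinarith
  obtain ⟨c, hc⟩ := hPB π hπq f
  rw [hc, theta_repr, h0, mul_zero]

/-- **If `d̄ ∈ O_z` then `G_u = (θ ū)^{q-1} ∈ O_z`**, for a coordinate `ū` at `z`. -/
theorem Gu_mem (hPB : HasPBasis q ↥E) (z : Place k ↥E) {u d : ↥E} (c : k)
    (hu : z.ord (u - algebraMap k ↥E c) = 1)
    (hθ0 : thetaL (u : LaurentSeries k) ≠ 0)
    (hθ : thetaL (d : LaurentSeries k) =
      (u : LaurentSeries k) ^ (q - 1) * thetaL (u : LaurentSeries k) -
        thetaL (u : LaurentSeries k) ^ q)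
    (hd : d ∈ z.toValuationSubring) :
    ∃ X : ↥E, X ∈ z.toValuationSubring ∧
      (X : LaurentSeries k) = thetaL (u : LaurentSeries k) ^ (q - 1) := by
  have hq : q.Prime := Fact.out
  have hπθ : thetaL ((u - algebraMap k ↥E c : ↥E) : LaurentSeries k) =
      thetaL (u : LaurentSeries k) := by
    rw [coeE_sub, map_sub]
    have : ((algebraMap k ↥E c : ↥E) : LaurentSeries k) = algebraMap k (LaurentSeries k) c := rfl
    rw [this, thetaL_algebraMap, sub_zero]
  have huO : u ∈ z.toValuationSubring := by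
    have h1 : u - algebraMap k ↥E c ∈ z.toValuationSubring := by
      rw [← ordGe_zero_iff_mem]
      exact Or.inr (by rw [hu]; exact zero_le_one)
    have h2 : algebraMap k ↥E c ∈ z.toValuationSubring := z.algebraMap_mem' c
    have := add_mem h1 h2
    rwa [sub_add_cancel] at this
  obtain ⟨g, hg, hgθ⟩ := theta_mem hPB z hu hd
  rw [hπθ, hθ] at hgθ
  refine ⟨u ^ (q - 1) - g, sub_mem (pow_mem huO _) hg, ?_⟩
  rw [coeE_sub, IntermediateField.coe_pow]
  have hpow : thetaL (u : LaurentSeries k) ^ q =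
      thetaL (u : LaurentSeries k) ^ (q - 1) * thetaL (u : LaurentSeries k) := by
    rw [← pow_succ, Nat.sub_add_cancel hq.one_le]
  rw [hpow, ← sub_mul] at hgθ
  have := mul_right_cancel₀ hθ0 hgθ
  rw [← this]
  ring

omit [Fact q.Prime] [CharP k q] in
theorem aeval_mem (z : Place k ↥E) {x : ↥E} (hx : x ∈ z.toValuationSubring) (P : k[X]) :
    aeval x P ∈ z.toValuationSubring := by
  rw [aeval_eq_sum_range]
  refine sum_mem fun i _ => ?_
  rw [Algebra.smul_def]
  exact mul_mem (z.algebraMap_mem' _) (pow_mem hx i)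

omit [Fact q.Prime] [CharP k q] in
/-- `x ≡ a mod 𝔪_z`, `a ≠ b` constants: `x - b` is a unit at `z`. -/
theorem ord_sub_const (z : Place k ↥E) {x : ↥E} {a b : k}
    (hx : OrdGe z 1 (x - algebraMap k ↥E a)) (hab : a ≠ b) :
    x - algebraMap k ↥E b ≠ 0 ∧ z.ord (x - algebraMap k ↥E b) = 0 := by
  have hc : algebraMap k ↥E (a - b) ≠ 0 := by
    rw [Ne, map_eq_zero]
    exact sub_ne_zero.mpr hab
  have h0 : z.ord (algebraMap k ↥E (a - b)) = 0 := ord_algebraMap z _
  have h1 := ord_add_eq z hc (g := x - algebraMap k ↥E a) (by rw [h0, zero_add]; exact hx)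
  have e : algebraMap k ↥E (a - b) + (x - algebraMap k ↥E a) = x - algebraMap k ↥E b := by
    rw [map_sub]; ring
  rw [e, h0] at h1
  exact h1

omit [Fact q.Prime] [CharP k q] in
theorem mem_of_ordGe_sub (z : Place k ↥E) {x : ↥E} {a : k}
    (hx : OrdGe z 1 (x - algebraMap k ↥E a)) : x ∈ z.toValuationSubring := by
  have h1 : x - algebraMap k ↥E a ∈ z.toValuationSubring :=
    (ordGe_zero_iff_mem z _).mp (hx.mono zero_le_one)
  have := add_mem h1 (z.algebraMap_mem' a)
  rwa [sub_add_cancel] at this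

omit [Fact q.Prime] [CharP k q] in
/-- `H(x)` vanishes at `z` if `x(z)` is a root of `H`. -/
theorem ordGe_aeval_of_isRoot (z : Place k ↥E) {x : ↥E} {a : k}
    (hx : OrdGe z 1 (x - algebraMap k ↥E a)) {H : k[X]} (hroot : H.IsRoot a) :
    OrdGe z 1 (aeval x H) := by
  obtain ⟨H1, rfl⟩ := dvd_iff_isRoot.mpr hroot
  rw [map_mul, map_sub, aeval_X, aeval_C]
  have h1 : OrdGe z 0 (aeval x H1) :=
    (ordGe_zero_iff_mem z _).mpr (aeval_mem z (mem_of_ordGe_sub z hx) H1)
  have := hx.mul h1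
  rwa [add_zero] at this

/-- The identity `Y⁶ H(j̄) = j̄^{4(q-1)} (j̄ - 1728)^{3(q-1)}` in `E`, where `Y = g_j^{q-1} G_u ∈ O_z`
if `d̄ ∈ O_z`, `θ j̄ = g_j θ ū`. -/
theorem exists_Y (hPB : HasPBasis q ↥E) (z : Place k ↥E) {u d jE : ↥E} (c : k)
    (hu : z.ord (u - algebraMap k ↥E c) = 1)
    (hθ : thetaL (d : LaurentSeries k) =
      (u : LaurentSeries k) ^ (q - 1) * thetaL (u : LaurentSeries k) -
        thetaL (u : LaurentSeries k) ^ q)
    (hj : (jE : LaurentSeries k) = jqModC k)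
    {H : k[X]} (hH : aeval (jqModC k) H = (H21_DL k ^ (q - 1))⁻¹)
    (hd : d ∈ z.toValuationSubring)
    {gj : ↥E} (hgj : thetaL (jE : LaurentSeries k) =
      (gj : LaurentSeries k) * thetaL (u : LaurentSeries k)) :
    ∃ X : ↥E, X ∈ z.toValuationSubring ∧
      (gj ^ (q - 1) * X) ^ 6 * aeval jE H =
        jE ^ (4 * (q - 1)) * (jE - algebraMap k ↥E 1728) ^ (3 * (q - 1)) := by
  have hθj : thetaL (jE : LaurentSeries k) ≠ 0 := by
    rw [hj]; exact thetaL_jqModC_ne_zero
  have hθ0 : thetaL (u : LaurentSeries k) ≠ 0 := by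
    have := thetaL_ne_zero_of_ord hPB z hu hθj
    rwa [coeE_sub, map_sub,
      show ((algebraMap k ↥E c : ↥E) : LaurentSeries k) = algebraMap k (LaurentSeries k) c from rfl,
      thetaL_algebraMap, sub_zero] at this
  obtain ⟨X, hX, hXθ⟩ := Gu_mem hPB z c hu hθ0 hθ hd
  refine ⟨X, hX, ?_⟩
  apply Subtype.ext
  have hG := G_pow_six_mul_aeval hH
  rw [← hj, hgj, mul_pow, ← hXθ] at hG
  have h1728 : ((algebraMap k ↥E 1728 : ↥E) : LaurentSeries k) = 1728 := by
    show algebraMap k (LaurentSeries k) 1728 = 1728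
    rw [map_ofNat]
  rw [IntermediateField.coe_mul, IntermediateField.coe_pow, IntermediateField.coe_mul,
    IntermediateField.coe_pow, IntermediateField.coe_mul, IntermediateField.coe_pow,
    IntermediateField.coe_pow, coeE_sub, h1728, ← IntermediateField.aeval_coe]
  exact hG

/-- **`d̄` has a pole at every supersingular point `z` with `j̄(z) ≠ 0, 1728` at which `ū` is a
coordinate.** -/
theorem dbar_not_mem (hPB : HasPBasis q ↥E) (z : Place k ↥E) {u d jE : ↥E} (c : k)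
    (hu : z.ord (u - algebraMap k ↥E c) = 1)
    (hθ : thetaL (d : LaurentSeries k) =
      (u : LaurentSeries k) ^ (q - 1) * thetaL (u : LaurentSeries k) -
        thetaL (u : LaurentSeries k) ^ q)
    (hj : (jE : LaurentSeries k) = jqModC k)
    {H : k[X]} (hH : aeval (jqModC k) H = (H21_DL k ^ (q - 1))⁻¹)
    {j0 : k} (hj0 : OrdGe z 1 (jE - algebraMap k ↥E j0)) (hroot : H.IsRoot j0)
    (h0 : j0 ≠ 0) (h1728 : j0 ≠ 1728) : d ∉ z.toValuationSubring := by
  intro hd
  have hjO : jE ∈ z.toValuationSubring := mem_of_ordGe_sub z hj0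
  obtain ⟨gj, hgjO, hgj⟩ := theta_mem hPB z hu hjO
  have hπθ : thetaL ((u - algebraMap k ↥E c : ↥E) : LaurentSeries k) =
      thetaL (u : LaurentSeries k) := by
    rw [coeE_sub, map_sub,
      show ((algebraMap k ↥E c : ↥E) : LaurentSeries k) = algebraMap k (LaurentSeries k) c from rfl,
      thetaL_algebraMap, sub_zero]
  rw [hπθ] at hgj
  obtain ⟨X, hX, hY⟩ := exists_Y hPB z c hu hθ hj hH hd hgj
  -- orders
  have hj1 := ord_sub_const z hj0 h0
  rw [map_zero, sub_zero] at hj1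
  have hj2 := ord_sub_const z hj0 h1728
  have hR0 : jE ^ (4 * (q - 1)) * (jE - algebraMap k ↥E 1728) ^ (3 * (q - 1)) ≠ 0 :=
    mul_ne_zero (pow_ne_zero _ hj1.1) (pow_ne_zero _ hj2.1)
  have hRord : z.ord (jE ^ (4 * (q - 1)) * (jE - algebraMap k ↥E 1728) ^ (3 * (q - 1))) = 0 := by
    rw [z.ord_mul (pow_ne_zero _ hj1.1) (pow_ne_zero _ hj2.1), ord_pow, ord_pow, hj1.2, hj2.2]
    simp
  have hL : OrdGe z (0 + 1) ((gj ^ (q - 1) * X) ^ 6 * aeval jE H) := by
    refine OrdGe.mul ?_ (ordGe_aeval_of_isRoot z hj0 hroot)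
    exact (ordGe_zero_iff_mem z _).mpr (pow_mem (mul_mem (pow_mem hgjO _) hX) 6)
  rw [hY] at hL
  have := hL.le hR0
  rw [hRord] at this
  omega

/-- **The general inequality**: if `d̄ ∈ O_z`, `e = ord_z (j̄ - j₀) ≥ 1` and `(X - j₀)^μ ∣ H`, then
`6 (q-1) (e-1) + μ e ≤ 4 (q-1) ord_z j̄ + 3 (q-1) ord_z (j̄ - 1728)`. -/
theorem dbar_mem_ineq (hPB : HasPBasis q ↥E) (z : Place k ↥E) {u d jE : ↥E} (c : k)
    (hu : z.ord (u - algebraMap k ↥E c) = 1)
    (hθ : thetaL (d : LaurentSeries k) =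
      (u : LaurentSeries k) ^ (q - 1) * thetaL (u : LaurentSeries k) -
        thetaL (u : LaurentSeries k) ^ q)
    (hj : (jE : LaurentSeries k) = jqModC k)
    {H : k[X]} (hH : aeval (jqModC k) H = (H21_DL k ^ (q - 1))⁻¹)
    {j0 : k} {e μ : ℕ} (he : OrdGe z e (jE - algebraMap k ↥E j0)) (he1 : 1 ≤ e)
    (hμ : (X - C j0) ^ μ ∣ H)
    (hj0 : jE ≠ 0) (hj1728 : jE - algebraMap k ↥E 1728 ≠ 0)
    (hd : d ∈ z.toValuationSubring) :
    6 * ((q : ℤ) - 1) * ((e : ℤ) - 1) + μ * e ≤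
      4 * ((q : ℤ) - 1) * z.ord jE + 3 * ((q : ℤ) - 1) * z.ord (jE - algebraMap k ↥E 1728) := by
  have hq : q.Prime := Fact.out
  have hq1 : ((q - 1 : ℕ) : ℤ) = (q : ℤ) - 1 := by
    rw [Nat.cast_sub hq.one_le]; simp
  have hjO : jE ∈ z.toValuationSubring :=
    mem_of_ordGe_sub z (he.mono (by exact_mod_cast he1))
  obtain ⟨gj, hgjO, hgj⟩ := theta_ordGe hPB z hu e he
  have hπθ : thetaL ((u - algebraMap k ↥E c : ↥E) : LaurentSeries k) =
      thetaL (u : LaurentSeries k) := by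
    rw [coeE_sub, map_sub,
      show ((algebraMap k ↥E c : ↥E) : LaurentSeries k) = algebraMap k (LaurentSeries k) c from rfl,
      thetaL_algebraMap, sub_zero]
  have hjθ : thetaL ((jE - algebraMap k ↥E j0 : ↥E) : LaurentSeries k) =
      thetaL (jE : LaurentSeries k) := by
    rw [coeE_sub, map_sub,
      show ((algebraMap k ↥E j0 : ↥E) : LaurentSeries k) = algebraMap k (LaurentSeries k) j0
        from rfl,
      thetaL_algebraMap, sub_zero]
  rw [hπθ, hjθ] at hgj
  obtain ⟨X', hX, hY⟩ := exists_Y hPB z c hu hθ hj hH hd hgj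
  have hR0 : jE ^ (4 * (q - 1)) * (jE - algebraMap k ↥E 1728) ^ (3 * (q - 1)) ≠ 0 :=
    mul_ne_zero (pow_ne_zero _ hj0) (pow_ne_zero _ hj1728)
  have hRord : z.ord (jE ^ (4 * (q - 1)) * (jE - algebraMap k ↥E 1728) ^ (3 * (q - 1))) =
      4 * ((q : ℤ) - 1) * z.ord jE + 3 * ((q : ℤ) - 1) * z.ord (jE - algebraMap k ↥E 1728) := by
    rw [z.ord_mul (pow_ne_zero _ hj0) (pow_ne_zero _ hj1728), ord_pow, ord_pow]
    push_cast
    rw [hq1]
  obtain ⟨H1, rfl⟩ := hμ
  have hA : OrdGe z ((μ : ℤ) * e + 0) (aeval jE ((X - C j0) ^ μ * H1)) := by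
    rw [map_mul, map_pow, map_sub, aeval_X, aeval_C]
    exact (ordGe_pow he μ).mul ((ordGe_zero_iff_mem z _).mpr (aeval_mem z hjO H1))
  have hB : OrdGe z (((6 : ℕ) : ℤ) * (((q - 1 : ℕ) : ℤ) * ((e : ℤ) - 1) + 0))
      ((gj ^ (q - 1) * X') ^ 6) :=
    ordGe_pow ((ordGe_pow hgjO (q - 1)).mul ((ordGe_zero_iff_mem z _).mpr hX)) 6
  have hL := hB.mul hA
  rw [hY] at hL
  have := hL.le hR0
  rw [hRord, hq1] at this
  push_cast at this
  linarith

/-- **`d̄` has a pole at the supersingular points over `j = 0`** of ramification `e ≥ 3`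
(`1728 ≠ 0` in `k`, `X⁴ ∣ H`). -/
theorem dbar_not_mem_zero (hPB : HasPBasis q ↥E) (z : Place k ↥E) {u d jE : ↥E} (c : k)
    (hu : z.ord (u - algebraMap k ↥E c) = 1)
    (hθ : thetaL (d : LaurentSeries k) =
      (u : LaurentSeries k) ^ (q - 1) * thetaL (u : LaurentSeries k) -
        thetaL (u : LaurentSeries k) ^ q)
    (hj : (jE : LaurentSeries k) = jqModC k)
    {H : k[X]} (hH : aeval (jqModC k) H = (H21_DL k ^ (q - 1))⁻¹)
    (h1728 : (1728 : k) ≠ 0) (hμ : (X : k[X]) ^ 4 ∣ H) (he : 3 ≤ z.ord jE) :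
    d ∉ z.toValuationSubring := by
  intro hd
  have hq : q.Prime := Fact.out
  have hj0 : jE ≠ 0 := ne_zero_of_ord_ne_zero z (by omega)
  have he' : OrdGe z ((z.ord jE).toNat : ℤ) (jE - algebraMap k ↥E 0) := by
    rw [map_zero, sub_zero, Int.toNat_of_nonneg (by omega)]
    exact Or.inr le_rfl
  have hx : OrdGe z 1 (jE - algebraMap k ↥E 0) := by
    rw [map_zero, sub_zero]
    exact Or.inr (by omega)
  have h2 := ord_sub_const z hx (Ne.symm h1728)
  have hμ' : (X - C (0 : k)) ^ 4 ∣ H := by rwa [map_zero, sub_zero]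
  have := dbar_mem_ineq hPB z c hu hθ hj hH he' (by omega) hμ' hj0 h2.1 hd
  rw [h2.2, Int.toNat_of_nonneg (by omega)] at this
  have hq2 : (2 : ℤ) ≤ q := by exact_mod_cast hq.two_le
  push_cast at this
  nlinarith

/-- **`d̄` has a pole at the supersingular points over `j = 1728`** of ramification `e ≥ 2`
(`1728 ≠ 0` in `k`, `(X - 1728)⁶ ∣ H`). -/
theorem dbar_not_mem_1728 (hPB : HasPBasis q ↥E) (z : Place k ↥E) {u d jE : ↥E} (c : k)
    (hu : z.ord (u - algebraMap k ↥E c) = 1)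
    (hθ : thetaL (d : LaurentSeries k) =
      (u : LaurentSeries k) ^ (q - 1) * thetaL (u : LaurentSeries k) -
        thetaL (u : LaurentSeries k) ^ q)
    (hj : (jE : LaurentSeries k) = jqModC k)
    {H : k[X]} (hH : aeval (jqModC k) H = (H21_DL k ^ (q - 1))⁻¹)
    (h1728 : (1728 : k) ≠ 0) (hμ : (X - C (1728 : k)) ^ 6 ∣ H)
    (he : 2 ≤ z.ord (jE - algebraMap k ↥E 1728)) :
    d ∉ z.toValuationSubring := by
  intro hd
  have hq : q.Prime := Fact.out
  have hj1 : jE - algebraMap k ↥E 1728 ≠ 0 := ne_zero_of_ord_ne_zero z (by omega)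
  have he' : OrdGe z ((z.ord (jE - algebraMap k ↥E 1728)).toNat : ℤ)
      (jE - algebraMap k ↥E 1728) := by
    rw [Int.toNat_of_nonneg (by omega)]
    exact Or.inr le_rfl
  have hx : OrdGe z 1 (jE - algebraMap k ↥E 1728) := Or.inr (by omega)
  have h2 := ord_sub_const z hx (b := 0) h1728
  rw [map_zero, sub_zero] at h2
  have := dbar_mem_ineq hPB z c hu hθ hj hH he' (by omega) hμ h2.1 hj1 hd
  rw [h2.2, Int.toNat_of_nonneg (by omega)] at this
  have hq2 : (2 : ℤ) ≤ q := by exact_mod_cast hq.two_le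
  push_cast at this
  nlinarith

end GPole

end Fermat.Agent.S36.NU.H73

end
end
-- ==== END Fermat.Agent.S36.NU.H73_GPole

-- ==== BEGIN Fermat.Agent.S36.NU.H73_PBasisC
section

/-!
# `[κ : κ^q] = q` for the reduction of `X₀(M')` (S36 / NU-B / GPOLE, concrete input; helper73)

`κ = modularFunctionFieldFullC (kV A) M'`, `q ∤ M'`: `hasPBasis_fullC : HasPBasis q κ`.
-/

set_option autoImplicit false
set_option synthInstance.maxHeartbeats 400000
set_option maxHeartbeats 1000000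

noncomputable section

open ModularCurve AlgebraicCurve Fermat.Agent.S28.H73 Fermat.Agent.RED.H73 Fermat.Agent.BAD.H88
  Fermat.Agent.BAD.H82 Fermat.Agent.S24

namespace Fermat.Agent.S36.NU.H73

open Fermat.Agent.BAD.H73

section Abstract

variable {k : Type*} [Field k] {q : ℕ} [Fact q.Prime] [CharP k q] [PerfectRing k q]
variable {E : IntermediateField k (LaurentSeries k)}

/-- `HasPBasis` for a Frobenius-stable subfield `E ⊆ k((t))`, separable over `k(x)` for one
`x ∈ E` which is not a series in `t ^ q`. -/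
theorem hasPBasis_of_frobStable (h : FrobStable q E) (x : ↥E) {n : ℤ} (hn : ¬ (q : ℤ) ∣ n)
    (hx : (x : LaurentSeries k).coeff n ≠ 0)
    (hsep : ∀ y ∈ E, IsSeparable ↥(IntermediateField.adjoin k {(x : LaurentSeries k)}) y) :
    HasPBasis q ↥E := by
  have hq : q.Prime := Fact.out
  let inst : Algebra ↥E ↥E := (FrE h).toRingHom.toAlgebra
  have he : ∀ a : ↥E, @algebraMap ↥E ↥E _ _ inst a = FrE h ((RingEquiv.refl ↥E) a) :=
    fun a => rfl
  have hfin : @Module.finrank ↥E ↥E _ _ (@Algebra.toModule _ _ _ _ inst) = q :=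
    @finrank_of_Fr k _ q _ _ _ E h ↥E _ inst (RingEquiv.refl ↥E) he x n hn hx hsep
  refine @hasPBasis_of_finrank ↥E ↥E _ _ inst q hq hfin ?_
  intro a
  refine ⟨(frobE h).symm a, ?_⟩
  rw [he, RingEquiv.refl_apply, ← FrE_frobE, RingEquiv.apply_symm_apply]

end Abstract

section Concrete

variable (A : ValuationSubring Kbar) (q : ℕ) (hq : q.Prime) (hA : A.LiesOverPrime q)
variable (M' : ℕ) [NeZero M']

include hq hA in
/-- **`[κ : κ^q] = q`** for `κ = F_{M', k}`, `q ∤ M'`. -/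
theorem hasPBasis_fullC (hM' : ¬ q ∣ M') :
    HasPBasis q ↥(modularFunctionFieldFullC (kV A) M') := by
  have : IsAlgClosed (kV A) := isAlgClosed_kV A
  have : Infinite (kV A) := IsAlgClosed.instInfinite
  have hq1 : ¬ (q : ℤ) ∣ (-1 : ℤ) := by
    intro hd
    have h1 : ((q : ℕ) : ℤ) ∣ 1 := (dvd_neg (a := (q : ℤ)) (b := 1)).mp hd
    have h2 : q ∣ 1 := by exact_mod_cast h1
    exact hq.one_lt.ne' (Nat.dvd_one.mp h2)
  have hc : ((⟨jqModC (kV A), jqModC_mem_full (kV A) M'⟩ :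
      ↥(modularFunctionFieldFullC (kV A) M')) : LaurentSeries (kV A)).coeff (-1) ≠ 0 := by
    show (jqModC (kV A)).coeff (-1) ≠ 0
    rw [coeff_jqModC_neg_one]
    exact one_ne_zero
  exact @hasPBasis_of_frobStable (kV A) _ q ⟨hq⟩ (charP_kV A hq hA)
    (@perfectRing_kV _ _ _ A q ⟨hq⟩ (charP_kV A hq hA)) _
    (@frobStable_fullC (kV A) _ q ⟨hq⟩ (charP_kV A hq hA)
      (@perfectRing_kV _ _ _ A q ⟨hq⟩ (charP_kV A hq hA)) M')
    ⟨jqModC (kV A), jqModC_mem_full (kV A) M'⟩ (-1) hq1 hc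
    (fun y hy => isSeparable_fullC_red A (inv_natCast_mem_of_liesOver A M' hq hM' hA)
      (caDataBar M') hy)

end Concrete

end Fermat.Agent.S36.NU.H73

end
end
-- ==== END Fermat.Agent.S36.NU.H73_PBasisC

-- ==== BEGIN Fermat.Agent.S36.NU.H73_UnitTheta
section

/-!
# `θ u = u F` and `F¹² Δ⁴ Δ₄⁴ = 3¹² Δ₂¹⁰` for `u = Δ(t)/Δ(t⁴)` (S36 / NU-B / COORD, step 2; helper73)

In `ℤ((t))`, with `P = E₂`, `f_d = f(t^d)`, `F = P - 4 P₄`, `v = Δ/Δ₂` (helper70's `hZ2`),
`u = v v₂ = Δ/Δ₄`: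

* `thetaL_FZ : 3 θ F = F (5 P₂ - P - 4 P₄)` (from the level-4 identity `lev4_identity`);
* `FZ_pow_twelve : F¹² Δ⁴ Δ₄⁴ = 3¹² Δ₂¹⁰` (both sides solve `θ Z = 20 P₂ Z`);
* `thetaL_uZ4 : θ u = u F`;
* `thetaL_uZ4_pow : (θ u)¹² j⁸ (j - 1728)⁶ = 3¹² v⁶ v₂¹⁶ (θ j)¹²`,
  and `thetaL_ubar_pow`, the same over any field.

Consequence (`H73_Coord.lean`): at a place `z` of the function field in characteristic `q ≥ 5` at
which `v`, `v₂` are units and `j̄` is tamely ramified with `e = 1, 3, 2` over `j₀ ≠ 0, 1728`,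
`j₀ = 0`, `j₀ = 1728`, the function `ū` is a local coordinate.
-/

set_option autoImplicit false

noncomputable section

open ModularCurve

namespace Fermat.Agent.S36.NU.H73

open Fermat.Agent.BAD.H21 Fermat.Agent.S23.H96

section UnitTheta

local notation "ι" => HahnSeries.ofPowerSeries ℤ ℤ

/-- `E₂(t²)`. -/
def P2Z : LaurentSeries ℤ := qExpand ℤ 2 PZ

/-- `E₂(t⁴)`. -/
def P4Z : LaurentSeries ℤ := qExpand ℤ 4 PZ

/-- `E₄(t⁴)`. -/
def Q4Z : LaurentSeries ℤ := qExpand ℤ 4 QZ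

/-- `Δ(t²)`. -/
def D2Z : LaurentSeries ℤ := qExpand ℤ 2 DZ

/-- `Δ(t⁴)`. -/
def D4Z : LaurentSeries ℤ := qExpand ℤ 4 DZ

/-- `F = E₂(t) - 4 E₂(t⁴)`. -/
def FZ : LaurentSeries ℤ := PZ - 4 * P4Z

theorem natCast_ne_zero_LZ (n : ℕ) (hn : n ≠ 0) : ((n : ℕ) : LaurentSeries ℤ) ≠ 0 := by
  intro h
  have h1 := congrArg (fun x => x.coeff 0) h
  have h2 : ((n : ℕ) : LaurentSeries ℤ) = HahnSeries.C ((n : ℕ) : ℤ) := by
    rw [map_natCast]
  simp only [h2, HahnSeries.coeff_zero] at h1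
  rw [HahnSeries.C_apply, HahnSeries.coeff_single_same] at h1
  exact hn (by exact_mod_cast h1)

theorem thetaL_natCast_mul {R : Type*} [CommRing R] (n : ℕ) (f : LaurentSeries R) :
    thetaL ((n : LaurentSeries R) * f) = (n : LaurentSeries R) * thetaL f := by
  rw [thetaL_mul, Derivation.map_natCast, mul_zero, add_zero]

theorem lev4_Z : QZ - 16 * Q4Z = 5 * (FZ * (PZ - 4 * P2Z + 4 * P4Z)) := by
  have h := congrArg (HahnSeries.ofPowerSeries ℤ ℤ) lev4_identity
  simp only [map_sub, map_mul, map_add, map_ofNat] at h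
  simp only [QZ, Q4Z, FZ, PZ, P2Z, P4Z, Fermat.Agent.RED.H10.qExpand_ofPowerSeries]
  exact h

/-- **Ramanujan**: `12 θ E₂ = E₂² - E₄`. -/
theorem thetaL_PZ : 12 * thetaL PZ = PZ ^ 2 - QZ := by
  have h := congrArg (HahnSeries.ofPowerSeries ℤ ℤ) H21_theta_e2Series
  rw [map_mul, map_sub, map_pow, map_ofNat] at h
  rw [PZ, thetaL_ofPowerSeries, h, QZ]

theorem thetaL_P4Z : 3 * thetaL P4Z = P4Z ^ 2 - Q4Z := by
  have h := congrArg (qExpand ℤ 4) thetaL_PZ
  rw [map_mul, map_sub, map_pow, map_ofNat] at h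
  rw [P4Z, thetaL_qExpand, Q4Z]
  push_cast
  linear_combination h

theorem thetaL_FZ : 3 * thetaL FZ = FZ * (5 * P2Z - PZ - 4 * P4Z) := by
  have e1 := thetaL_PZ
  have e2 := thetaL_P4Z
  have e3 := lev4_Z
  have h4 : thetaL ((4 : LaurentSeries ℤ) * P4Z) = 4 * thetaL P4Z := by
    have := thetaL_natCast_mul 4 P4Z
    simpa using this
  have hF : thetaL FZ = thetaL PZ - 4 * thetaL P4Z := by
    rw [FZ, map_sub, h4]
  refine mul_left_cancel₀ (natCast_ne_zero_LZ 4 (by norm_num)) ?_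
  rw [hF]
  push_cast
  rw [FZ] at e3 ⊢
  linear_combination e1 - 16 * e2 - e3

theorem thetaL_D2Z : thetaL D2Z = 2 * P2Z * D2Z := by
  rw [D2Z, thetaL_qExpand, thetaL_DZ, map_mul, P2Z]
  push_cast
  ring

theorem thetaL_D4Z : thetaL D4Z = 4 * P4Z * D4Z := by
  rw [D4Z, thetaL_qExpand, thetaL_DZ, map_mul, P4Z]
  push_cast
  ring

theorem thetaL_W : thetaL (FZ ^ 12 * DZ ^ 4 * D4Z ^ 4)
    = 20 * P2Z * (FZ ^ 12 * DZ ^ 4 * D4Z ^ 4) := by
  rw [thetaL_mul, thetaL_mul, thetaL_pow, thetaL_pow, thetaL_pow, thetaL_DZ, thetaL_D4Z]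
  have e := thetaL_FZ
  push_cast
  linear_combination (4 * FZ ^ 11 * DZ ^ 4 * D4Z ^ 4) * e

theorem thetaL_V : thetaL (D2Z ^ 10) = 20 * P2Z * D2Z ^ 10 := by
  rw [thetaL_pow, thetaL_D2Z]
  push_cast
  ring

/-- Uniqueness for `θ Z = g Z`: a solution vanishing up to order `g(0)` is zero. -/
theorem eq_zero_of_thetaL_eq (g : PowerSeries ℤ) (n : ℤ)
    (hg : PowerSeries.constantCoeff g = n) (Z : LaurentSeries ℤ)
    (hZ : thetaL Z = HahnSeries.ofPowerSeries ℤ ℤ g * Z)
    (h0 : ∀ m ≤ n, Z.coeff m = 0) : Z = 0 := by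
  by_contra hne
  have hc : Z.coeff Z.order ≠ 0 := (HahnSeries.coeff_order_eq_zero.not).mpr hne
  have hlt : n < Z.order := by
    by_contra hle
    exact hc (h0 _ (not_lt.mp hle))
  have hdec : Z = HahnSeries.single Z.order (1 : ℤ) * ι Z.powerSeriesPart :=
    (LaurentSeries.single_order_mul_powerSeriesPart Z).symm
  have h1 := congrArg (fun x => x.coeff Z.order) hZ
  simp only [thetaL_coeff] at h1
  have hgen : ∀ (m : ℤ) (z : PowerSeries ℤ),
      (ι g * (HahnSeries.single m (1 : ℤ) * ι z)).coeff m = n * PowerSeries.constantCoeff z := by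
    intro m z
    rw [← mul_assoc, mul_comm (ι g), mul_assoc, ← map_mul, HahnSeries.coeff_single_mul, one_mul,
      sub_self, show (0 : ℤ) = ((0 : ℕ) : ℤ) from rfl, HahnSeries.ofPowerSeries_apply_coeff,
      PowerSeries.coeff_zero_eq_constantCoeff_apply, map_mul, hg]
  have hcc : PowerSeries.constantCoeff Z.powerSeriesPart = Z.coeff Z.order := by
    rw [← PowerSeries.coeff_zero_eq_constantCoeff_apply, LaurentSeries.powerSeriesPart_coeff]
    simp
  have h2 : (ι g * Z).coeff Z.order = n * Z.coeff Z.order := by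
    have := hgen Z.order Z.powerSeriesPart
    rw [← hdec, hcc] at this
    exact this
  rw [h2] at h1
  have h3 : (Z.order - n) * Z.coeff Z.order = 0 := by
    have : ((Z.order : ℤ) : ℤ) * Z.coeff Z.order = n * Z.coeff Z.order := by
      simpa using h1
    linear_combination this
  rcases mul_eq_zero.mp h3 with h | h
  · omega
  · exact hc h

/-- `F` as a power series. -/
def FpS : PowerSeries ℤ := H21_e2Series - 4 * PowerSeries.expand 4 four_ne_zero H21_e2Series

theorem FZ_eq : FZ = ι FpS := by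
  simp only [FZ, PZ, P4Z, FpS, Fermat.Agent.RED.H10.qExpand_ofPowerSeries, map_sub, map_mul,
    map_ofNat]

theorem DZ_eq : DZ = ι (PowerSeries.X * dedekindEtaUnit) := by
  rw [DZ, H21_X_mul_etaUnit]

theorem D2Z_eq : D2Z = ι (PowerSeries.X ^ 2 * PowerSeries.expand 2 two_ne_zero dedekindEtaUnit) := by
  rw [D2Z, DZ_eq, Fermat.Agent.RED.H10.qExpand_ofPowerSeries, map_mul, PowerSeries.expand_X]

theorem D4Z_eq : D4Z = ι (PowerSeries.X ^ 4 * PowerSeries.expand 4 four_ne_zero dedekindEtaUnit) := by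
  rw [D4Z, DZ_eq, Fermat.Agent.RED.H10.qExpand_ofPowerSeries, map_mul, PowerSeries.expand_X]

theorem constantCoeff_e2Series : PowerSeries.constantCoeff H21_e2Series = 1 := by
  rw [← PowerSeries.coeff_zero_eq_constantCoeff_apply, H21_coeff_e2Series, if_pos rfl]

theorem constantCoeff_FpS : PowerSeries.constantCoeff FpS = -3 := by
  rw [FpS, map_sub, map_mul, PowerSeries.constantCoeff_expand, constantCoeff_e2Series, map_ofNat]
  norm_num

/-- **`F¹² Δ⁴ Δ₄⁴ = 3¹² Δ₂¹⁰`**. -/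
theorem FZ_pow_twelve : FZ ^ 12 * DZ ^ 4 * D4Z ^ 4 = 3 ^ 12 * D2Z ^ 10 := by
  rw [← sub_eq_zero]
  have h3 : thetaL ((3 : LaurentSeries ℤ) ^ 12) = 0 := by
    rw [thetaL_pow]
    have : thetaL (3 : LaurentSeries ℤ) = 0 := by
      simpa using Derivation.map_natCast (thetaL (R := ℤ)) 3
    rw [this, mul_zero]
  have hg : ι (20 * PowerSeries.expand 2 two_ne_zero H21_e2Series) = 20 * P2Z := by
    rw [map_mul, map_ofNat, P2Z, PZ, Fermat.Agent.RED.H10.qExpand_ofPowerSeries]
  refine eq_zero_of_thetaL_eq (20 * PowerSeries.expand 2 two_ne_zero H21_e2Series) 20 ?_ _ ?_ ?_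
  · rw [map_mul, PowerSeries.constantCoeff_expand, constantCoeff_e2Series, map_ofNat]
    norm_num
  · rw [hg, map_sub, thetaL_W, thetaL_mul, h3, thetaL_V]
    ring
  · intro m hm
    have hS : FZ ^ 12 * DZ ^ 4 * D4Z ^ 4 - 3 ^ 12 * D2Z ^ 10
        = ι (PowerSeries.X ^ 20 * (FpS ^ 12 * dedekindEtaUnit ^ 4
            * (PowerSeries.expand 4 four_ne_zero dedekindEtaUnit) ^ 4
          - 3 ^ 12 * (PowerSeries.expand 2 two_ne_zero dedekindEtaUnit) ^ 10)) := by
      rw [FZ_eq, DZ_eq, D2Z_eq, D4Z_eq]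
      simp only [map_sub, map_mul, map_pow, map_ofNat]
      ring
    rw [hS]
    rcases lt_or_ge m 0 with hneg | hpos
    · exact ofPowerSeries_coeff_of_neg _ hneg
    · lift m to ℕ using hpos
      rw [HahnSeries.ofPowerSeries_apply_coeff, PowerSeries.coeff_X_pow_mul']
      split_ifs with h20
      · have hm20 : m = 20 := by omega
        subst hm20
        rw [Nat.sub_self, PowerSeries.coeff_zero_eq_constantCoeff_apply, map_sub, map_mul,
          map_mul, map_mul, map_pow, map_pow, map_pow, map_pow, map_pow,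
          PowerSeries.constantCoeff_expand, PowerSeries.constantCoeff_expand,
          constantCoeff_FpS, constantCoeff_dedekindEtaUnit, map_ofNat]
        norm_num
      · rfl

/-! ### The function `u = Δ(t)/Δ(t⁴)` -/

/-- `v₂ = Δ(t²)/Δ(t⁴)`. -/
def vZ2 : LaurentSeries ℤ := qExpand ℤ 2 Fermat.Agent.RED.H70.hZ2

/-- `u = Δ(t)/Δ(t⁴)`. -/
def uZ4 : LaurentSeries ℤ := Fermat.Agent.RED.H70.hZ2 * vZ2

theorem hZ2_mul_D2Z : Fermat.Agent.RED.H70.hZ2 * D2Z = DZ := by
  rw [D2Z, DZ, Fermat.Agent.RED.H10.qExpand_ofPowerSeries]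
  exact Fermat.Agent.RED.H70.hZ2_mul_delta2

theorem vZ2_mul_D4Z : vZ2 * D4Z = D2Z := by
  have h := congrArg (qExpand ℤ 2) hZ2_mul_D2Z
  rw [map_mul, D2Z, qExpand_qExpand, qExpand_congr (show 2 * 2 = 4 by norm_num)] at h
  exact h

theorem uZ4_mul_D4Z : uZ4 * D4Z = DZ := by
  rw [uZ4, mul_assoc, vZ2_mul_D4Z, hZ2_mul_D2Z]

theorem D4Z_ne_zero : D4Z ≠ 0 := by
  intro h
  apply DZ_ne_zero
  rw [← uZ4_mul_D4Z, h, mul_zero]

/-- **`θ u = u F`**. -/
theorem thetaL_uZ4 : thetaL uZ4 = uZ4 * FZ := by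
  have h := congrArg thetaL uZ4_mul_D4Z
  rw [thetaL_mul, thetaL_D4Z, thetaL_DZ] at h
  refine mul_right_cancel₀ D4Z_ne_zero ?_
  have e := uZ4_mul_D4Z
  rw [FZ]
  linear_combination h - PZ * e

/-- **`(θ u)¹² j⁸ (j - 1728)⁶ = 3¹² v⁶ v₂¹⁶ (θ j)¹²`**. -/
theorem thetaL_uZ4_pow : thetaL uZ4 ^ 12 * (jZ ^ 8 * (jZ - 1728) ^ 6)
    = 3 ^ 12 * (Fermat.Agent.RED.H70.hZ2 ^ 6 * vZ2 ^ 16) * thetaL jZ ^ 12 := by
  have key : (uZ4 * FZ) ^ 12 = 3 ^ 12 * (Fermat.Agent.RED.H70.hZ2 ^ 6 * vZ2 ^ 16) * DZ ^ 2 := by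
    have hne : DZ ^ 4 * D4Z ^ 4 ≠ 0 :=
      mul_ne_zero (pow_ne_zero _ DZ_ne_zero) (pow_ne_zero _ D4Z_ne_zero)
    refine mul_right_cancel₀ hne ?_
    have e1 := FZ_pow_twelve
    have hD2 : D2Z = vZ2 * D4Z := vZ2_mul_D4Z.symm
    have hD : DZ = Fermat.Agent.RED.H70.hZ2 * (vZ2 * D4Z) := by
      rw [← hD2, hZ2_mul_D2Z]
    rw [hD2] at e1
    generalize DZ = d at hD e1 ⊢
    subst hD
    rw [uZ4]
    linear_combination (Fermat.Agent.RED.H70.hZ2 * vZ2) ^ 12 * e1
  have hj : thetaL jZ ^ 12 = (jZ ^ 4 * (jZ - 1728) ^ 3 * DZ) ^ 2 := by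
    rw [← thetaL_jZ_pow_six, ← pow_mul]
  rw [thetaL_uZ4, key, hj]
  ring

end UnitTheta

section Field

variable (k : Type*) [Field k]

/-- `v̄ = Δ̄(t)/Δ̄(t²)`. -/
def vbar : LaurentSeries k := coeffMap (Int.castRingHom k) Fermat.Agent.RED.H70.hZ2

/-- `v̄₂ = Δ̄(t²)/Δ̄(t⁴)`. -/
def vbar2 : LaurentSeries k := qExpand k 2 (vbar k)

/-- `ū = Δ̄(t)/Δ̄(t⁴)`. -/
def ubar4 : LaurentSeries k := vbar k * vbar2 k

theorem coeffMap_uZ4 : coeffMap (Int.castRingHom k) uZ4 = ubar4 k := by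
  rw [uZ4, map_mul, vZ2, coeffMap_qExpand]
  rfl

/-- `(v̄ + 256)³ = j̄ v̄²`. -/
theorem vbar_ident : (vbar k + 256) ^ 3 = jqModC k * vbar k ^ 2 := by
  have h := congrArg (coeffMap (Int.castRingHom k)) Fermat.Agent.RED.H70.hZ2_ident
  rw [map_pow, map_add, map_ofNat, map_mul, map_pow, coeffMap_jqModC] at h
  exact h

/-- `(v̄ + 16)³ = j̄(t²) v̄`. -/
theorem vbar_ident' : (vbar k + 16) ^ 3 = qExpand k 2 (jqModC k) * vbar k := by
  have h := congrArg (coeffMap (Int.castRingHom k)) Fermat.Agent.RED.H70.hZ2_ident'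
  rw [map_pow, map_add, map_ofNat, map_mul, coeffMap_qExpand, coeffMap_jqModC] at h
  exact h

/-- `(v̄₂ + 256)³ = j̄(t²) v̄₂²`. -/
theorem vbar2_ident : (vbar2 k + 256) ^ 3 = qExpand k 2 (jqModC k) * vbar2 k ^ 2 := by
  have h := congrArg (qExpand k 2) (vbar_ident k)
  rw [map_pow, map_add, map_ofNat, map_mul, map_pow] at h
  exact h

/-- `ū Δ̄(t⁴) = Δ̄(t)`. -/
theorem ubar4_mul : ubar4 k * qExpand k 4 (coeffMap (Int.castRingHom k) DZ)
    = coeffMap (Int.castRingHom k) DZ := by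
  have h := congrArg (coeffMap (Int.castRingHom k)) uZ4_mul_D4Z
  rw [map_mul, coeffMap_uZ4, D4Z, coeffMap_qExpand] at h
  exact h

/-- **`(θ ū)¹² j̄⁸ (j̄ - 1728)⁶ = 3¹² v̄⁶ v̄₂¹⁶ (θ j̄)¹²`** over any field. -/
theorem thetaL_ubar_pow : thetaL (ubar4 k) ^ 12 * (jqModC k ^ 8 * (jqModC k - 1728) ^ 6)
    = 3 ^ 12 * (vbar k ^ 6 * vbar2 k ^ 16) * thetaL (jqModC k) ^ 12 := by
  have h := congrArg (coeffMap (Int.castRingHom k)) thetaL_uZ4_pow
  simp only [map_mul, map_pow, map_sub, map_ofNat] at h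
  rw [← thetaL_coeffMap, ← thetaL_coeffMap, coeffMap_uZ4, vZ2, coeffMap_qExpand,
    show coeffMap (Int.castRingHom k) jZ = jqModC k from coeffMap_jqModC _] at h
  exact h

end Field

end Fermat.Agent.S36.NU.H73

end
end
-- ==== END Fermat.Agent.S36.NU.H73_UnitTheta
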