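-- GENERATED (merged mirror, NOTES/tools/trim/merge3_helper67.py): 5 modules of the originals, bodies verbatim.
import Mathlib.RingTheory.Valuation.LocalSubring
import Fermat.Agent.Zm.S36_L03_000
import Fermat.Agent.Zm.S36_L02_001
import Fermat.Agent.Zm.S36_L01_001
import Fermat.Agent.Zm.S35_L16_001
import Fermat.Agent.Zm.S36_L03_001
import Fermat.Agent.Zm.S36_L02_002

-- ==== BEGIN Fermat.Agent.BAD.H42_Three
section

/-!
# Leaf THREE (abstract): the valuation rings over `V_E` (helper42; for S36 NU-B)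

Setting of `NRData` (`BAD/H42_NormRedR.lean`) with `∑ e i [κ i : Et] = [L : E]`.

* `NRData.exists_integral_basis` : there is an `E`-basis `bE` of `L` contained in `⋂ V i` with
  `g ∈ ⋂ V i ↔ all coordinates of g are in V_E`   (`⋂ V i` is free over `V_E`);
* `NRData.exists_monic_root` : every `g ∈ ⋂ V i` is a root of a monic polynomial over `V_E`;
* `NRData.mem_of_forall_mem` : `⋂ V i ⊆ W` for every valuation ring `W` of `L` containing `V_E`;
* `NRData.eq_of_valuationSubring` : every valuation ring `W ≠ ⊤` of `L` containing `V_E` is one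
  of the `V i`  (there is no further valuation over `V_E`).

This file has no open goals.
-/

set_option autoImplicit false

noncomputable section

namespace Fermat.Agent.BAD.H42

namespace NRData

variable {E L Et : Type} [Field E] [Field L] [Field Et] [Algebra E L]
  {ι : Type} {κ : ι → Type} [∀ i, Field (κ i)] [∀ i, Algebra Et (κ i)]
  [∀ i, Module.Finite Et (κ i)] (D : NRData E L Et ι κ)

/-- **Integral basis**: `⋂ V i` is a free `V_E`-module. -/
theorem exists_integral_basis [Fintype ι] [DecidableEq ι] [Module.Finite E L]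
    (hdeg : ∑ i, D.e i * Module.finrank Et (κ i) = Module.finrank E L) :
    ∃ bE : Module.Basis D.I E L, (∀ x i, bE x ∈ D.V i) ∧
      ∀ g : L, (∀ i, g ∈ D.V i) ↔ ∀ x, bE.repr g x ∈ D.VE := by
  classical
  obtain ⟨T⟩ := D.exists_lift (fun _ => 1) (fun _ => one_mem _) (fun _ => one_ne_zero)
  have hli := T.linearIndependent_B
  have hcard : Fintype.card D.I = Module.finrank E L := by rw [D.card_I, hdeg]
  have hne : Nonempty D.I := by
    rw [← Fintype.card_pos_iff, hcard]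
    exact Module.finrank_pos
  let bE : Module.Basis D.I E L := basisOfLinearIndependentOfCardEqFinrank hli hcard
  have hbE : ∀ x, bE x = T.B x := fun x => by simp [bE]
  refine ⟨bE, fun x i => by rw [hbE]; exact T.B_mem x i, fun g => ⟨fun hg x => ?_, fun hg i => ?_⟩⟩
  · refine T.coord_mem (fun x => bE.repr g x) g hg ?_ x
    have := bE.sum_repr g
    simpa only [hbE] using this
  · rw [← bE.sum_repr g]
    refine sum_mem fun x _ => ?_
    rw [Algebra.smul_def, hbE]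
    exact mul_mem (D.hVE i _ (hg x)) (T.B_mem x i)

/-- Every element of `⋂ V i` is a root of a monic polynomial with coefficients in `V_E`. -/
theorem exists_monic_root [Fintype ι] [DecidableEq ι] [Module.Finite E L]
    (hdeg : ∑ i, D.e i * Module.finrank Et (κ i) = Module.finrank E L)
    (g : L) (hg : ∀ i, g ∈ D.V i) :
    ∃ P : Polynomial ↥D.VE, P.Monic ∧
      Polynomial.eval₂ ((algebraMap E L).comp D.VE.subtype) g P = 0 := by
  obtain ⟨P, hP, hmap, -⟩ := D.charpoly_red hdeg g hg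
  refine ⟨P, hP, ?_⟩
  have h1 := charpoly_aeval (E := E) (L := L) g
  rw [← hmap, Polynomial.aeval_def, Polynomial.eval₂_map] at h1
  exact h1

/-- `⋂ V i` is contained in every valuation ring of `L` containing `V_E`. -/
theorem mem_of_forall_mem [Fintype ι] [DecidableEq ι] [Module.Finite E L]
    (hdeg : ∑ i, D.e i * Module.finrank Et (κ i) = Module.finrank E L)
    (W : ValuationSubring L) (hW : ∀ a : E, a ∈ D.VE → algebraMap E L a ∈ W)
    (g : L) (hg : ∀ i, g ∈ D.V i) : g ∈ W := by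
  obtain ⟨P, hP, hroot⟩ := D.exists_monic_root hdeg g hg
  let φ : ↥D.VE →+* ↥W :=
    ((algebraMap E L).comp D.VE.subtype).codRestrict W (fun a => hW a a.2)
  have hφ : (algebraMap ↥W L).comp φ = (algebraMap E L).comp D.VE.subtype := rfl
  have hint : IsIntegral ↥W g := by
    refine ⟨P.map φ, hP.map φ, ?_⟩
    rw [Polynomial.eval₂_map, hφ]
    exact hroot
  obtain ⟨y, hy⟩ := IsIntegrallyClosed.isIntegral_iff.1 hint
  rw [← hy]
  exact y.2

/-- **THREE**: there is no further valuation ring over `V_E`: every valuation ring `W ≠ ⊤` of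
`L` containing `V_E` is one of the `V i`. -/
theorem eq_of_valuationSubring [Fintype ι] [DecidableEq ι] [Module.Finite E L]
    (hdeg : ∑ i, D.e i * Module.finrank Et (κ i) = Module.finrank E L)
    (W : ValuationSubring L) (hW : ∀ a : E, a ∈ D.VE → algebraMap E L a ∈ W)
    (hWtop : W ≠ ⊤) : ∃ i, W = D.V i := by
  classical
  by_contra hne
  push Not at hne
  have hB : ∀ g : L, (∀ i, g ∈ D.V i) → g ∈ W := D.mem_of_forall_mem hdeg W hW
  have hB1 : ∀ g : L, (∀ i, g ∈ D.V i) → W.valuation g ≤ 1 := fun g hg =>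
    (ValuationSubring.valuation_le_one_iff _ _).2 (hB g hg)
  -- step 2: an element of `m_W ∩ B` which is a unit of `V i`
  have h2 : ∀ i, ∃ g : L, (∀ j, g ∈ D.V j) ∧ W.valuation g < 1 ∧ (D.V i).valuation g = 1 := by
    intro i
    by_contra hcon
    push Not at hcon
    have hle : D.V i ≤ W := by
      intro y hy
      obtain ⟨b, hb1, hb2, hb3⟩ := exists_approx_small D.V D.hA D.hinc D.V_ne_top i
        (Finset.univ.erase i) (Finset.notMem_erase _ _)
        (fun j => if y ∈ D.V j then 1 else y⁻¹)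
        (fun j _ => by
          by_cases hyj : y ∈ D.V j
          · simp [hyj]
          · simp only [hyj, if_false]
            exact inv_ne_zero (fun h0 => hyj (h0 ▸ zero_mem _)))
        1 (one_mem _)
      rw [map_one] at hb2
      have hbj : ∀ j, j ≠ i → (D.V j).valuation b ≤ 1 ∧ (D.V j).valuation (b * y) ≤ 1 := by
        intro j hj
        have h3 := hb3 j (Finset.mem_erase.2 ⟨hj, Finset.mem_univ _⟩)
        by_cases hyj : y ∈ D.V j
        · simp only [hyj, if_true, map_one] at h3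
          refine ⟨h3.le, ?_⟩
          rw [map_mul]
          exact mul_le_one' h3.le ((ValuationSubring.valuation_le_one_iff _ _).2 hyj)
        · simp only [hyj, if_false, map_inv₀] at h3
          have hy1 : 1 < (D.V j).valuation y := by
            rw [← not_le, ValuationSubring.valuation_le_one_iff]
            exact hyj
          have hy0 : (D.V j).valuation y ≠ 0 := (zero_lt_one.trans hy1).ne'
          refine ⟨(h3.trans (inv_lt_one_of_one_lt₀ hy1)).le, ?_⟩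
          rw [map_mul]
          have := mul_lt_mul_of_pos_right h3 (zero_lt_iff.2 hy0)
          rw [inv_mul_cancel₀ hy0] at this
          exact this.le
      have hbB : ∀ j, b ∈ D.V j := by
        intro j
        rcases eq_or_ne j i with rfl | hj
        · exact (ValuationSubring.valuation_le_one_iff _ _).1 hb2.le
        · exact (ValuationSubring.valuation_le_one_iff _ _).1 (hbj j hj).1
      have hbyB : ∀ j, b * y ∈ D.V j := by
        intro j
        rcases eq_or_ne j i with rfl | hj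
        · exact mul_mem (hbB j) hy
        · exact (ValuationSubring.valuation_le_one_iff _ _).1 (hbj j hj).2
      have hbW : W.valuation b = 1 := by
        refine le_antisymm (hB1 b hbB) ?_
        by_contra hlt
        exact absurd hb2 (hcon b hbB (not_le.1 hlt))
      have hb0 : b ≠ 0 := by
        intro h0
        rw [h0, map_zero] at hbW
        exact zero_ne_one hbW
      have hy' : y = (b * y) * b⁻¹ := by field_simp
      rw [hy', ← ValuationSubring.valuation_le_one_iff, map_mul, map_inv₀, hbW, inv_one, mul_one]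
      exact hB1 _ hbyB
    rcases isArch_eq_of_le (D.hA i) hle with h | h
    · exact hne i h.symm
    · exact hWtop h
  choose g hgB hgW hgi using h2
  -- step 3: the partition of unity
  have h3 : ∀ i, ∃ ε : L, (D.V i).valuation (ε - 1) < 1 ∧
      ∀ j, j ≠ i → (D.V j).valuation ε < 1 := by
    intro i
    obtain ⟨ε, hε1, hε2⟩ := exists_one_small D.V D.hA D.hinc D.V_ne_top i
      (Finset.univ.erase i) (Finset.notMem_erase _ _) (fun _ => 1) (fun _ _ => one_ne_zero)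
    refine ⟨ε, hε1, fun j hj => ?_⟩
    have := hε2 j (Finset.mem_erase.2 ⟨hj, Finset.mem_univ _⟩)
    rwa [map_one] at this
  choose ε hε1 hε2 using h3
  have hεi : ∀ i, (D.V i).valuation (ε i) = 1 := by
    intro i
    have : ε i = 1 + (ε i - 1) := by ring
    rw [this]
    exact Valuation.map_one_add_of_lt _ (hε1 i)
  have hεB : ∀ i j, ε i ∈ D.V j := by
    intro i j
    rcases eq_or_ne j i with rfl | hj
    · exact (ValuationSubring.valuation_le_one_iff _ _).1 (hεi j).le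
    · exact (ValuationSubring.valuation_le_one_iff _ _).1 (hε2 i j hj).le
  set G : L := ∑ i, g i * ε i with hG
  have hGW : W.valuation G < 1 := by
    refine Valuation.map_sum_lt _ one_ne_zero fun i _ => ?_
    rw [map_mul, mul_comm]
    exact Right.mul_lt_one_of_le_of_lt (hB1 _ (hεB i)) (hgW i)
  have hGi : ∀ i, (D.V i).valuation G = 1 := by
    intro i
    have hsplit : G = g i * ε i + ∑ j ∈ Finset.univ.erase i, g j * ε j :=
      (Finset.add_sum_erase _ _ (Finset.mem_univ i)).symm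
    have hterm : (D.V i).valuation (g i * ε i) = 1 := by
      rw [map_mul, hgi, hεi, mul_one]
    have hrest : (D.V i).valuation (∑ j ∈ Finset.univ.erase i, g j * ε j) < 1 := by
      refine Valuation.map_sum_lt _ one_ne_zero fun j hj => ?_
      rw [map_mul]
      exact mul_lt_of_le_one_of_lt ((ValuationSubring.valuation_le_one_iff _ _).2 (hgB j i))
        (hε2 j i (Finset.mem_erase.1 hj).1.symm)
    rw [hsplit, Valuation.map_add_eq_of_lt_left _ (by rw [hterm]; exact hrest), hterm]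
  -- step 4
  have hGinvB : ∀ i, G⁻¹ ∈ D.V i := by
    intro i
    rw [← ValuationSubring.valuation_le_one_iff, map_inv₀, hGi, inv_one]
  have hGinvW := hB1 _ hGinvB
  rw [map_inv₀] at hGinvW
  rcases isEmpty_or_nonempty ι with hemp | ⟨⟨i₀⟩⟩
  · apply hWtop
    rw [eq_top_iff]
    intro y _
    exact hB y (fun i => (hemp.false i).elim)
  · have hG0 : W.valuation G ≠ 0 := by
      rw [Valuation.ne_zero_iff]
      intro h0
      have := hGi i₀
      rw [h0, map_zero] at this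
      exact zero_ne_one this
    have := (inv_le_one₀ (zero_lt_iff.2 hG0)).1 hGinvW
    exact absurd hGW (not_lt.2 this)

end NRData

end Fermat.Agent.BAD.H42

end
end
-- ==== END Fermat.Agent.BAD.H42_Three

-- ==== BEGIN Fermat.Agent.S36.NU.H16_LL
section

/-!
# S36 / NU-B, local side of TI3 (helper16): the local lemma (LL)

At a closed point `𝔪` of the chart with a local generator `s` (`h sⁿ ∈ B ∖ 𝔪`) the function
`γ_i = g_i / rd_i s` on the branch `i` is a unit at the point, and if the values of the `γ_i` at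
the point agree (EQV) then the vector `(γ_i)` is the residue of an element of the local ring
`B_𝔪` on all branches (`Loc`).  The `n`-th root is obtained as a POWER (Frobenius in
characteristic `q`): with `N = q ^ a`, `n m = 1 + N l`,
`γ = (rd uᵐ)⁻¹ · c ^ (-N l) · (((γ / c) ^ N) ^ l)⁻¹` and `(γ / c) ^ N = 1 + (γ / c - 1) ^ N`.

* `Loc C 𝔪 x` : the vector `x` of residues comes from `B_𝔪` (on the branches through `𝔪`);
  it is a ring (`Loc.add`, `Loc.mul`, `Loc.one`, `Loc.sum`, `Loc.of_mem`, `Loc.inv`).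
* `Branch.loc_single` : on one branch, `((γ' ^ q ^ a) ^ l)⁻¹ - 1` for `γ' ≡ 1` comes from an
  element of `B_𝔪` vanishing on the other components, for `q ^ a` large.
* `ll`, `stmt_LL : Stmt_LL`.
* `ll_single` : the case of a single branch (EQV automatic).
* `chart` : (LL) at all closed points + (PATCH).
-/

set_option autoImplicit false

noncomputable section

namespace Fermat.Agent.S36.NU.H16

open Fermat.Agent.S36.NU.H65

variable {R F k ι : Type*} {κ : ι → Type*} [CommRing R] [Field F] [Algebra R F]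
  [Field k] [∀ i, Field (κ i)] [∀ i, Algebra k (κ i)]

/-- Field arithmetic for `Branch.loc_single`. -/
theorem geom_aux {K : Type*} [Field K] (Z t : K) (l : ℕ) (hZ : Z ^ l ≠ 0) (ht : t ≠ 0) :
    (Z - 1) * t⁻¹ * (-(∑ e ∈ Finset.range l, Z ^ e)) * (Z ^ l)⁻¹ * t = (Z ^ l)⁻¹ - 1 := by
  have hgs := geom_sum_mul Z l
  have h1 : (Z - 1) * t⁻¹ * (-(∑ e ∈ Finset.range l, Z ^ e)) * (Z ^ l)⁻¹ * t =
      -((∑ e ∈ Finset.range l, Z ^ e) * (Z - 1)) * (Z ^ l)⁻¹ * (t⁻¹ * t) := by ring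
  rw [h1, hgs, inv_mul_cancel₀ ht, mul_one, neg_mul, sub_mul, mul_inv_cancel₀ hZ]
  ring

/-- Field arithmetic for `loc_gamma`. -/
theorem power_aux {K : Type*} [Field K] (G c : K) (N l : ℕ) (hG : G ≠ 0) (hc : c ≠ 0) :
    G ^ (N * l + 1) * (c⁻¹) ^ (N * l) * (1 + ((((G * c⁻¹) ^ N) ^ l)⁻¹ - 1)) = G := by
  have e1 : ((G * c⁻¹) ^ N) ^ l = G ^ (N * l) * (c ^ (N * l))⁻¹ := by
    rw [← pow_mul, mul_pow, inv_pow]
  have h3 : G ^ (N * l) ≠ 0 := pow_ne_zero _ hG
  have h4 : c ^ (N * l) ≠ 0 := pow_ne_zero _ hc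
  rw [e1, pow_succ, inv_pow, mul_inv, inv_inv]
  have e2 : (1 : K) + ((G ^ (N * l))⁻¹ * c ^ (N * l) - 1) = (G ^ (N * l))⁻¹ * c ^ (N * l) := by
    ring
  rw [e2]
  have e3 : G ^ (N * l) * G * (c ^ (N * l))⁻¹ * ((G ^ (N * l))⁻¹ * c ^ (N * l)) =
      G * (G ^ (N * l) * (G ^ (N * l))⁻¹) * ((c ^ (N * l))⁻¹ * c ^ (N * l)) := by ring
  rw [e3, mul_inv_cancel₀ h3, inv_mul_cancel₀ h4, mul_one, mul_one]

/-- The vector `x` of residues is the residue of an element of the local ring `B_𝔪` on all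
branches through `𝔪`. -/
def Loc (C : Chart R F k ι κ) (𝔪 : Ideal C.B) (x : ∀ i, κ i) : Prop :=
  ∃ E D : C.B, D ∉ 𝔪 ∧ ∀ i, C.Icomp i ≤ 𝔪 → C.rdB i E = x i * C.rdB i D

namespace Loc

variable {C : Chart R F k ι κ} {𝔪 : Ideal C.B}

theorem congr {x y : ∀ i, κ i} (hx : Loc C 𝔪 x) (h : ∀ i, C.Icomp i ≤ 𝔪 → x i = y i) :
    Loc C 𝔪 y := by
  obtain ⟨E, D, hD, hE⟩ := hx
  exact ⟨E, D, hD, fun i hi => by rw [hE i hi, h i hi]⟩

theorem of_mem (hm : 𝔪 ≠ ⊤) (b : C.B) : Loc C 𝔪 (fun i => C.rdB i b) :=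
  ⟨b, 1, (Ideal.ne_top_iff_one 𝔪).1 hm, fun i _ => by rw [map_one, mul_one]⟩

theorem one (hm : 𝔪 ≠ ⊤) : Loc C 𝔪 (fun _ => 1) :=
  (of_mem hm 1).congr (fun i _ => map_one _)

theorem zero (hm : 𝔪 ≠ ⊤) : Loc C 𝔪 (fun _ => 0) :=
  (of_mem hm 0).congr (fun i _ => map_zero _)

theorem const (hm : 𝔪 ≠ ⊤) (c : k) : Loc C 𝔪 (fun i => algebraMap k (κ i) c) := by
  obtain ⟨r, rfl⟩ := C.res_surj c
  refine (of_mem hm ⟨algebraMap R F r, C.B.algebraMap_mem r⟩).congr (fun i _ => ?_)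
  rw [← C.rd_coe]
  exact C.rd_algebraMap i r

theorem add [h𝔪 : 𝔪.IsPrime] {x y : ∀ i, κ i} (hx : Loc C 𝔪 x) (hy : Loc C 𝔪 y) :
    Loc C 𝔪 (fun i => x i + y i) := by
  obtain ⟨E₁, D₁, hD₁, hE₁⟩ := hx
  obtain ⟨E₂, D₂, hD₂, hE₂⟩ := hy
  refine ⟨E₁ * D₂ + E₂ * D₁, D₁ * D₂, ?_, fun i hi => ?_⟩
  · intro hmem
    rcases h𝔪.mem_or_mem hmem with h | h
    · exact hD₁ h
    · exact hD₂ h
  · rw [map_add, map_mul, map_mul, map_mul, hE₁ i hi, hE₂ i hi]
    ring

theorem mul [h𝔪 : 𝔪.IsPrime] {x y : ∀ i, κ i} (hx : Loc C 𝔪 x) (hy : Loc C 𝔪 y) :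
    Loc C 𝔪 (fun i => x i * y i) := by
  obtain ⟨E₁, D₁, hD₁, hE₁⟩ := hx
  obtain ⟨E₂, D₂, hD₂, hE₂⟩ := hy
  refine ⟨E₁ * E₂, D₁ * D₂, ?_, fun i hi => ?_⟩
  · intro hmem
    rcases h𝔪.mem_or_mem hmem with h | h
    · exact hD₁ h
    · exact hD₂ h
  · rw [map_mul, map_mul, hE₁ i hi, hE₂ i hi]
    ring

theorem sum [h𝔪 : 𝔪.IsPrime] {α : Type*} (s : Finset α) (f : α → ∀ i, κ i)
    (h : ∀ a ∈ s, Loc C 𝔪 (f a)) : Loc C 𝔪 (fun i => ∑ a ∈ s, f a i) := by
  classical
  induction s using Finset.induction_on with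
  | empty =>
    simp only [Finset.sum_empty]
    exact zero h𝔪.ne_top
  | insert a s ha ih =>
    have h1 := h a (Finset.mem_insert_self a s)
    have h2 := ih (fun b hb => h b (Finset.mem_insert_of_mem hb))
    refine (add h1 h2).congr (fun i _ => ?_)
    rw [Finset.sum_insert ha]

/-- Inverses of the elements outside `𝔪`. -/
theorem inv (b : C.B) (hb : b ∉ 𝔪) : Loc C 𝔪 (fun i => (C.rdB i b)⁻¹) := by
  refine ⟨1, b, hb, fun i hi => ?_⟩
  have h1 : C.rdB i b ≠ 0 := fun h0 => hb (hi ((C.mem_Icomp i b).2 h0))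
  rw [map_one, inv_mul_cancel₀ h1]

end Loc

namespace Branch

variable {C : Chart R F k ι κ} {𝔪 : Ideal C.B} {i : ι}

theorem mem_of_val_eq_one (b : Branch C 𝔪 i) {x : κ i} (hx : b.O.valuation x = 1) : x ∈ b.O :=
  (b.O.valuation_le_one_iff x).1 hx.le

theorem val_rdB_eq_one (b : Branch C 𝔪 i) {β : C.B} (hβ : β ∉ 𝔪) :
    b.O.valuation (C.rdB i β) = 1 := by
  have h1 : b.O.valuation (C.rdB i β) ≤ 1 := (b.O.valuation_le_one_iff _).2 (b.reg β)
  have h2 : ¬ b.O.valuation (C.rdB i β) < 1 := fun h =>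
    hβ ((b.van β).2 ((ValuationSubring.mem_nonunits_iff _).2 h))
  exact le_antisymm h1 (not_lt.1 h2)

theorem Icomp_le (b : Branch C 𝔪 i) : C.Icomp i ≤ 𝔪 := by
  intro β hβ
  rw [b.van]
  rw [(C.mem_Icomp i β).1 hβ]
  rw [ValuationSubring.mem_nonunits_iff, map_zero]
  exact zero_lt_one

/-- On one branch: for `γ' ≡ 1` at the point and `q ^ a` large, `((γ' ^ q ^ a) ^ l)⁻¹ - 1` is the
residue of an element of `B_𝔪` which vanishes on the other components. -/
theorem loc_single [DecidableEq ι] [h𝔪 : 𝔪.IsPrime] (b : Branch C 𝔪 i) (q : ℕ) (hq : q.Prime)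
    [CharP (κ i) q] (τ : C.B) (hτ : C.rdB i τ ≠ 0) (hτ' : ∀ i', i' ≠ i → C.rdB i' τ = 0)
    (γ' : κ i) (hγ' : γ' - 1 ∈ b.O.nonunits) :
    ∃ N₀ : ℕ, ∀ a : ℕ, N₀ ≤ q ^ a → ∀ l : ℕ,
      Loc C 𝔪 (Pi.single i (((γ' ^ q ^ a) ^ l)⁻¹ - 1)) := by
  have : Fact q.Prime := ⟨hq⟩
  obtain ⟨N₀, hN₀⟩ := b.arch _ hγ' _ hτ
  refine ⟨N₀, fun a ha l => ?_⟩
  set v := b.O.valuation with hv
  have hlt : v (γ' - 1) < 1 := (ValuationSubring.mem_nonunits_iff _).1 hγ'
  have hγ1 : v γ' = 1 := by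
    have : γ' = 1 + (γ' - 1) := by ring
    rw [this]
    exact Valuation.map_one_add_of_lt v hlt
  set Z : κ i := γ' ^ q ^ a with hZ
  have hZ1 : v Z = 1 := by rw [hZ, map_pow, hγ1, one_pow]
  have hZsub : Z - 1 = (γ' - 1) ^ q ^ a := by
    rw [hZ, sub_pow_char_pow, one_pow]
  have hZmem : Z ∈ b.O := b.mem_of_val_eq_one hZ1
  have hZl : v (Z ^ l) = 1 := by rw [map_pow, hZ1, one_pow]
  have hZl0 : Z ^ l ≠ 0 := by
    intro h0
    rw [h0, map_zero] at hZl
    exact zero_ne_one hZl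
  -- the regular function `y = x / rd τ`
  set y : κ i := (Z - 1) * (C.rdB i τ)⁻¹ * (-(∑ t ∈ Finset.range l, Z ^ t)) * (Z ^ l)⁻¹ with hy
  have hy_mem : y ∈ b.O := by
    rw [hy]
    refine mul_mem (mul_mem ?_ (neg_mem (sum_mem (fun t _ => pow_mem hZmem t)))) ?_
    · rw [hZsub]
      exact hN₀ _ ha
    · apply b.mem_of_val_eq_one
      rw [map_inv₀, hZl, inv_one]
  have hyx : y * C.rdB i τ = (Z ^ l)⁻¹ - 1 := by
    rw [hy]
    exact geom_aux Z (C.rdB i τ) l hZl0 hτ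
  obtain ⟨b₁, β₁, hβ₁, hb₁⟩ := b.normal y hy_mem
  refine ⟨τ * b₁, β₁, hβ₁, fun i' _ => ?_⟩
  by_cases hi' : i' = i
  · subst hi'
    rw [Pi.single_eq_same, map_mul, hb₁, ← hyx]
    ring
  · rw [Pi.single_eq_of_ne hi', map_mul, hτ' i' hi', zero_mul, zero_mul]

end Branch

/-- The vector `γ = g / rd s` comes from the local ring. -/
theorem loc_gamma [Fintype ι] (C : Chart R F k ι κ) (q n : ℕ) (h : F) (g : ∀ i, κ i)
    (S : Setup C q n h g) (𝔪 : Ideal C.B) (hmax : 𝔪.IsMaximal)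
    (br : ∀ i, C.Icomp i ≤ 𝔪 → Branch C 𝔪 i)
    (s : F) (hs : h * s ^ n ∈ C.B) (hu : (⟨h * s ^ n, hs⟩ : C.B) ∉ 𝔪)
    (c : k) (hc : ∀ (i : ι) (hi : C.Icomp i ≤ 𝔪),
      g i * (C.rd i s)⁻¹ - algebraMap k (κ i) c ∈ (br i hi).O.nonunits) :
    Loc C 𝔪 (fun i => g i * (C.rd i s)⁻¹) := by
  classical
  have h𝔪 : 𝔪.IsPrime := hmax.isPrime
  have hq1 : 1 < q := S.q_prime.one_lt
  set u : C.B := ⟨h * s ^ n, hs⟩ with hu_def
  -- facts on the branches
  have hrdu : ∀ i, C.rdB i u = C.rd i h * C.rd i s ^ n := by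
    intro i
    rw [← C.rd_coe, hu_def]
    show C.rd i (h * s ^ n) = _
    rw [C.rd_mul i (S.h_mem i) (pow_mem (S.mem_V i hs) n), C.rd_pow i (S.mem_V i hs)]
  have hrdu0 : ∀ i, C.Icomp i ≤ 𝔪 → C.rdB i u ≠ 0 := fun i hi h0 =>
    hu (hi ((C.mem_Icomp i u).2 h0))
  have hs0 : ∀ i, C.Icomp i ≤ 𝔪 → C.rd i s ≠ 0 := by
    intro i hi h0
    apply hrdu0 i hi
    rw [hrdu, h0, zero_pow S.n_pos.ne', mul_zero]
  have hγ0 : ∀ i, C.Icomp i ≤ 𝔪 → g i * (C.rd i s)⁻¹ ≠ 0 := fun i hi =>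
    mul_ne_zero (S.g_ne_zero i) (inv_ne_zero (hs0 i hi))
  have hγn : ∀ i, C.Icomp i ≤ 𝔪 → (g i * (C.rd i s)⁻¹) ^ n * C.rdB i u = 1 := by
    intro i hi
    rw [hrdu, mul_pow, inv_pow]
    have h1 := S.root_g i
    have h2 : C.rd i s ^ n ≠ 0 := pow_ne_zero _ (hs0 i hi)
    field_simp
    linear_combination h1
  have hγv : ∀ (i : ι) (hi : C.Icomp i ≤ 𝔪),
      (br i hi).O.valuation (g i * (C.rd i s)⁻¹) = 1 := by
    intro i hi
    have h1 := congrArg (br i hi).O.valuation (hγn i hi)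
    rw [map_mul, map_pow, (br i hi).val_rdB_eq_one hu, mul_one, map_one] at h1
    exact (pow_eq_one_iff_of_nonneg zero_le S.n_pos.ne').1 h1
  have hcv : ∀ (i : ι) (hi : C.Icomp i ≤ 𝔪),
      (br i hi).O.valuation (algebraMap k (κ i) c) = 1 := by
    intro i hi
    have h1 := (ValuationSubring.mem_nonunits_iff _).1 (hc i hi)
    have h2 : algebraMap k (κ i) c =
        g i * (C.rd i s)⁻¹ - (g i * (C.rd i s)⁻¹ - algebraMap k (κ i) c) := by ring
    rw [h2, Valuation.map_sub_eq_of_lt_left]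
    · exact hγv i hi
    · rw [hγv i hi]
      exact h1
  have hc0 : ∀ i, C.Icomp i ≤ 𝔪 → algebraMap k (κ i) c ≠ 0 := by
    intro i hi h0
    have := hcv i hi
    rw [h0, map_zero] at this
    exact zero_ne_one this
  have hγ'1 : ∀ (i : ι) (hi : C.Icomp i ≤ 𝔪),
      g i * (C.rd i s)⁻¹ * (algebraMap k (κ i) c)⁻¹ - 1 ∈ (br i hi).O.nonunits := by
    intro i hi
    rw [ValuationSubring.mem_nonunits_iff]
    have h1 := (ValuationSubring.mem_nonunits_iff _).1 (hc i hi)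
    have h2 : g i * (C.rd i s)⁻¹ * (algebraMap k (κ i) c)⁻¹ - 1 =
        (g i * (C.rd i s)⁻¹ - algebraMap k (κ i) c) * (algebraMap k (κ i) c)⁻¹ := by
      have := hc0 i hi
      field_simp
    rw [h2, map_mul, map_inv₀, hcv i hi, inv_one, mul_one]
    exact h1
  -- the elements `τ i`
  have hτ : ∀ i, ∃ τ : C.B, C.rdB i τ ≠ 0 ∧ ∀ i', i' ≠ i → C.rdB i' τ = 0 := by
    intro i
    have h1 : ∀ i', ∃ t : C.B, C.rdB i t ≠ 0 ∧ (i' ≠ i → C.rdB i' t = 0) := by
      intro i'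
      by_cases hi' : i' = i
      · exact ⟨1, by rw [map_one]; exact one_ne_zero, fun h => absurd hi' h⟩
      · obtain ⟨t, ht1, ht2⟩ := S.inc i i' (fun h => hi' h.symm)
        exact ⟨t, ht2, fun _ => ht1⟩
    choose t ht1 ht2 using h1
    refine ⟨∏ i', t i', ?_, fun i' hi' => ?_⟩
    · rw [map_prod]
      exact Finset.prod_ne_zero_iff.2 (fun i' _ => ht1 i')
    · rw [map_prod]
      exact Finset.prod_eq_zero (Finset.mem_univ i') (ht2 i' hi')
  choose τ hτ1 hτ2 using hτ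
  -- the bound
  have hN : ∀ i, ∃ N₀ : ℕ, ∀ hi : C.Icomp i ≤ 𝔪, ∀ a : ℕ, N₀ ≤ q ^ a → ∀ l : ℕ,
      Loc C 𝔪 (Pi.single i
        (((((g i * (C.rd i s)⁻¹ * (algebraMap k (κ i) c)⁻¹)) ^ q ^ a) ^ l)⁻¹ - 1)) := by
    intro i
    by_cases hi : C.Icomp i ≤ 𝔪
    · have := S.charq i
      obtain ⟨N₀, hN₀⟩ := (br i hi).loc_single q S.q_prime (τ i) (hτ1 i) (hτ2 i) _ (hγ'1 i hi)
      exact ⟨N₀, fun _ => hN₀⟩
    · exact ⟨0, fun h => absurd h hi⟩
  choose N₀ hN₀ using hN
  set a : ℕ := Finset.univ.sup N₀ + 1 with ha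
  have haN : ∀ i, N₀ i ≤ q ^ a := by
    intro i
    have h1 : N₀ i ≤ Finset.univ.sup N₀ := Finset.le_sup (Finset.mem_univ i)
    have h2 : a < q ^ a := Nat.lt_pow_self hq1
    omega
  have hN1 : 1 < q ^ a := by
    have h2 : a < q ^ a := Nat.lt_pow_self hq1
    omega
  obtain ⟨m, -, hm⟩ := Nat.exists_mul_mod_eq_one_of_coprime
    (Nat.Coprime.pow_right a S.coprime) hN1
  set l : ℕ := n * m / q ^ a with hl
  have hnm : n * m = q ^ a * l + 1 := by
    have := Nat.div_add_mod (n * m) (q ^ a)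
    rw [hm] at this
    exact this.symm
  -- the three factors
  have hL1 : Loc C 𝔪 (fun i => (C.rdB i (u ^ m))⁻¹) :=
    Loc.inv _ (fun hmem => hu (h𝔪.mem_of_pow_mem m hmem))
  have hL2 : Loc C 𝔪 (fun i => algebraMap k (κ i) ((c⁻¹) ^ (q ^ a * l))) :=
    Loc.const h𝔪.ne_top _
  have hL3 : Loc C 𝔪 (fun i => 1 + ∑ i' : ι, (Pi.single i'
      (((((g i' * (C.rd i' s)⁻¹ * (algebraMap k (κ i') c)⁻¹)) ^ q ^ a) ^ l)⁻¹ - 1) :
        ∀ i, κ i) i) := by
    refine Loc.add (Loc.one h𝔪.ne_top) (Loc.sum _ _ (fun i' _ => ?_))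
    by_cases hi' : C.Icomp i' ≤ 𝔪
    · exact hN₀ i' hi' a (haN i') l
    · refine ⟨0, 1, (Ideal.ne_top_iff_one 𝔪).1 h𝔪.ne_top, fun i hi => ?_⟩
      by_cases hii : i = i'
      · subst hii
        exact absurd hi hi'
      · rw [Pi.single_eq_of_ne hii, map_zero, zero_mul]
  refine (Loc.mul (Loc.mul hL1 hL2) hL3).congr (fun i hi => ?_)
  have hsum : ∑ i' : ι, (Pi.single i'
      (((((g i' * (C.rd i' s)⁻¹ * (algebraMap k (κ i') c)⁻¹)) ^ q ^ a) ^ l)⁻¹ - 1) :
        ∀ i, κ i) i =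
      ((((g i * (C.rd i s)⁻¹ * (algebraMap k (κ i) c)⁻¹)) ^ q ^ a) ^ l)⁻¹ - 1 := by
    rw [Finset.sum_eq_single i]
    · rw [Pi.single_eq_same]
    · intro i' _ hne
      rw [Pi.single_eq_of_ne (fun h => hne h.symm)]
    · intro hni
      exact absurd (Finset.mem_univ i) hni
  simp only [hsum]
  have hG := hγ0 i hi
  have hcc := hc0 i hi
  have hU : (C.rdB i (u ^ m))⁻¹ = (g i * (C.rd i s)⁻¹) ^ (n * m) := by
    rw [map_pow, pow_mul, ← inv_pow]
    congr 1
    exact (eq_inv_of_mul_eq_one_left (hγn i hi)).symm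
  rw [hU, hnm, map_pow, map_inv₀]
  exact power_aux _ _ _ _ hG hcc

/-- **(LL)** the local lemma. -/
theorem ll [Fintype ι] (C : Chart R F k ι κ) (q n : ℕ) (h : F) (g : ∀ i, κ i)
    (S : Setup C q n h g) (𝔪 : Ideal C.B) (hmax : 𝔪.IsMaximal)
    (br : ∀ i, C.Icomp i ≤ 𝔪 → Branch C 𝔪 i)
    (s : F) (hs : h * s ^ n ∈ C.B) (hu : (⟨h * s ^ n, hs⟩ : C.B) ∉ 𝔪)
    (c : k) (hc : ∀ (i : ι) (hi : C.Icomp i ≤ 𝔪),
      g i * (C.rd i s)⁻¹ - algebraMap k (κ i) c ∈ (br i hi).O.nonunits) :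
    ∃ β : C.B, β ∉ 𝔪 ∧ C.Good h n g β := by
  classical
  have h𝔪 : 𝔪.IsPrime := hmax.isPrime
  obtain ⟨E, D, hD, hED⟩ := loc_gamma C q n h g S 𝔪 hmax br s hs hu c hc
  -- `β₀` vanishing on the components not through `𝔪`
  have hω : ∀ i, ∃ ω : C.B, ω ∉ 𝔪 ∧ (¬ C.Icomp i ≤ 𝔪 → C.rdB i ω = 0) := by
    intro i
    by_cases hi : C.Icomp i ≤ 𝔪
    · exact ⟨1, (Ideal.ne_top_iff_one 𝔪).1 h𝔪.ne_top, fun h => absurd hi h⟩
    · obtain ⟨ω, h1, h2⟩ := Set.not_subset.1 hi
      exact ⟨ω, h2, fun _ => (C.mem_Icomp i ω).1 h1⟩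
  choose ω hω1 hω2 using hω
  set β₀ : C.B := ∏ i, ω i with hβ₀
  have hβ₀1 : β₀ ∉ 𝔪 := by
    intro hmem
    obtain ⟨i, -, hi⟩ := (Ideal.IsPrime.prod_mem_iff (hp := h𝔪)).1 hmem
    exact hω1 i hi
  have hβ₀2 : ∀ i, ¬ C.Icomp i ≤ 𝔪 → C.rdB i β₀ = 0 := by
    intro i hi
    rw [hβ₀, map_prod]
    exact Finset.prod_eq_zero (Finset.mem_univ i) (hω2 i hi)
  have hu0 : ∀ i, C.Icomp i ≤ 𝔪 → C.rd i s ≠ 0 := by
    intro i hi h0
    apply hu
    apply hi
    rw [C.mem_Icomp, ← C.rd_coe]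
    show C.rd i (h * s ^ n) = 0
    rw [C.rd_mul i (S.h_mem i) (pow_mem (S.mem_V i hs) n), C.rd_pow i (S.mem_V i hs), h0,
      zero_pow S.n_pos.ne', mul_zero]
  refine ⟨β₀ * D, ?_, ((β₀ * E : C.B) : F) * s, ?_, fun i => ?_⟩
  · intro hmem
    rcases h𝔪.mem_or_mem hmem with h1 | h1
    · exact hβ₀1 h1
    · exact hD h1
  · exact mul_mem_rootMod C.B h n S.n_pos S.root (β₀ * E).2 hs
  · rw [C.rd_mul i (C.B_le i _ (β₀ * E).2) (S.mem_V i hs), C.rd_coe, map_mul, map_mul]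
    by_cases hi : C.Icomp i ≤ 𝔪
    · rw [hED i hi]
      have := hu0 i hi
      field_simp
    · rw [hβ₀2 i hi, zero_mul, zero_mul, zero_mul, zero_mul]

theorem stmt_LL : Stmt_LL := by
  intro R F k ι κ _ _ _ _ _ _ _ C q n h g S 𝔪 hmax br s hs hu c hc
  exact ll C q n h g S 𝔪 hmax br s hs hu c hc

/-- **(LL) at a point with a single branch**: EQV is automatic. -/
theorem ll_single [Fintype ι] (C : Chart R F k ι κ) (q n : ℕ) (h : F) (g : ∀ i, κ i)
    (S : Setup C q n h g) (𝔪 : Ideal C.B) (hmax : 𝔪.IsMaximal)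
    (i₀ : ι) (b : Branch C 𝔪 i₀) (honly : ∀ i, C.Icomp i ≤ 𝔪 → i = i₀)
    (s : F) (hs : h * s ^ n ∈ C.B) (hu : (⟨h * s ^ n, hs⟩ : C.B) ∉ 𝔪) :
    ∃ β : C.B, β ∉ 𝔪 ∧ C.Good h n g β := by
  classical
  have h𝔪 : 𝔪.IsPrime := hmax.isPrime
  -- `γ` is regular at the point
  have hrdu : C.rdB i₀ ⟨h * s ^ n, hs⟩ = C.rd i₀ h * C.rd i₀ s ^ n := by
    rw [← C.rd_coe]
    show C.rd i₀ (h * s ^ n) = _
    rw [C.rd_mul i₀ (S.h_mem i₀) (pow_mem (S.mem_V i₀ hs) n), C.rd_pow i₀ (S.mem_V i₀ hs)]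
  have hs0 : C.rd i₀ s ≠ 0 := by
    intro h0
    apply hu
    apply b.Icomp_le
    rw [C.mem_Icomp, hrdu, h0, zero_pow S.n_pos.ne', mul_zero]
  have hγn : (g i₀ * (C.rd i₀ s)⁻¹) ^ n * C.rdB i₀ ⟨h * s ^ n, hs⟩ = 1 := by
    rw [hrdu, mul_pow, inv_pow]
    have h1 := S.root_g i₀
    have h2 : C.rd i₀ s ^ n ≠ 0 := pow_ne_zero _ hs0
    field_simp
    linear_combination h1
  have hγv : b.O.valuation (g i₀ * (C.rd i₀ s)⁻¹) = 1 := by
    have h1 := congrArg b.O.valuation hγn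
    rw [map_mul, map_pow, b.val_rdB_eq_one hu, mul_one, map_one] at h1
    exact (pow_eq_one_iff_of_nonneg zero_le S.n_pos.ne').1 h1
  obtain ⟨c, hc⟩ := b.value _ (b.mem_of_val_eq_one hγv)
  set br : ∀ i, C.Icomp i ≤ 𝔪 → Branch C 𝔪 i := fun i hi => (honly i hi) ▸ b with hbr
  refine ll C q n h g S 𝔪 hmax br s hs hu c (fun i hi => ?_)
  obtain rfl := honly i hi
  exact hc

/-- **(CHART)**: (LL) at all closed points of the special fibre + (PATCH). -/
theorem chart [Fintype ι] (C : Chart R F k ι κ) (q n : ℕ) (h : F) (g : ∀ i, κ i)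
    (S : Setup C q n h g)
    (hpt : ∀ 𝔪 : Ideal C.B, 𝔪.IsMaximal → (∃ i, C.Icomp i ≤ 𝔪) →
      ∃ (_ : ∀ i, C.Icomp i ≤ 𝔪 → Branch C 𝔪 i) (s : F) (hs : h * s ^ n ∈ C.B),
        (⟨h * s ^ n, hs⟩ : C.B) ∉ 𝔪 ∧
        ∀ br : (∀ i, C.Icomp i ≤ 𝔪 → Branch C 𝔪 i), ∃ c : k, ∀ (i : ι) (hi : C.Icomp i ≤ 𝔪),
          g i * (C.rd i s)⁻¹ - algebraMap k (κ i) c ∈ (br i hi).O.nonunits) :
    ∃ a : F, h * a ^ n ∈ C.B ∧ ∀ i, C.rd i a = g i := by
  refine patch C q n h g S (fun 𝔪 hmax hex => ?_)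
  obtain ⟨br, s, hs, hu, heq⟩ := hpt 𝔪 hmax hex
  obtain ⟨c, hc⟩ := heq br
  exact ll C q n h g S 𝔪 hmax br s hs hu c hc

end Fermat.Agent.S36.NU.H16

end
end
-- ==== END Fermat.Agent.S36.NU.H16_LL

-- ==== BEGIN Fermat.Agent.S36.NU.H17_NormalMod
section

/-!
# S36 / NU-B, leaf (L2-i) NORMAL-IMG, part 4 (helper17): inertia-fixed chart-normality

`A` a valuation ring of `ℚ̄` over `q`, `M` a level prime to `q`, `x ∈ F_M` an inertia-fixed
Gauss-integral function such that the chart `x` is normal over `ℚ̄` (`H79.ChartNormal`).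

* `isIntegralElem_of_isIntegral_adjoin` : integrality over `C[x]` implies integrality over
  `K[x]` (for `C / K` integral);
* `normalImg_of_chartNormal` : every element of the residue field integral over `k[x~]` is the
  reduction of an **inertia-fixed** Gauss-integral function, integral over `K^ur[x]`;
* `normalImg_good` (chart `j`, `q ≥ 5`), `normalImg_good_inv` (chart `1/j`).
-/

set_option autoImplicit false
set_option linter.style.haveILetI false
set_option linter.unusedSectionVars false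
set_option synthInstance.maxHeartbeats 400000
set_option maxHeartbeats 1000000

noncomputable section

open ModularCurve AlgebraicCurve Polynomial Fermat.Agent.S24 Fermat.Agent.S28
  Fermat.Agent.S28.H73 Fermat.Agent.RED.H73 Fermat.Agent.RED.H42 Fermat.Agent.BAD.H88
  Fermat.Agent.RED.H79

namespace Fermat.Agent.S36.NU.H17

section IntDescent

/-- Integrality over `C[x]` implies integrality over `K[x]`, if `C` is integral over `K`
(instance-free form: integrality for the ring homomorphism `K[X] → C[X] → F`). -/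
theorem isIntegralElem_of_isIntegral_adjoin {K C F : Type*} [Field K] [Field C] [CommRing F]
    [Algebra K C] [Algebra.IsIntegral K C] [Algebra C F] (x f : F)
    (hf : IsIntegral ↥(Algebra.adjoin C {x}) f) :
    ((aeval x : C[X] →ₐ[C] F).toRingHom.comp (mapRingHom (algebraMap K C))).IsIntegralElem f := by
  have h1 : (mapRingHom (algebraMap K C)).IsIntegral := by
    letI : Algebra K[X] C[X] := Polynomial.algebra K C
    have h0 : Algebra.IsIntegral K[X] C[X] := inferInstance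
    exact algebraMap_isIntegral_iff.2 h0
  have hx : ∀ p : C[X], aeval x p ∈ Algebra.adjoin C {x} := fun p => by
    rw [Algebra.adjoin_singleton_eq_range_aeval]
    exact ⟨p, rfl⟩
  let g : C[X] →+* ↥(Algebra.adjoin C {x}) :=
    (aeval x : C[X] →ₐ[C] F).toRingHom.codRestrict (Algebra.adjoin C {x}) hx
  have hg : Function.Surjective g := by
    rintro ⟨b, hb⟩
    have hb' := hb
    rw [Algebra.adjoin_singleton_eq_range_aeval] at hb'
    obtain ⟨p, hp⟩ := hb'
    exact ⟨p, Subtype.ext hp⟩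
  have h2 : g.IsIntegral := g.isIntegral_of_surjective hg
  have h3 : (g.comp (mapRingHom (algebraMap K C))).IsIntegral := h1.trans _ _ h2
  letI : Algebra K[X] ↥(Algebra.adjoin C {x}) := (g.comp (mapRingHom (algebraMap K C))).toAlgebra
  letI : Algebra K[X] F :=
    ((aeval x : C[X] →ₐ[C] F).toRingHom.comp (mapRingHom (algebraMap K C))).toAlgebra
  haveI : IsScalarTower K[X] ↥(Algebra.adjoin C {x}) F :=
    IsScalarTower.of_algebraMap_eq fun _ => rfl
  haveI : Algebra.IsIntegral K[X] ↥(Algebra.adjoin C {x}) := ⟨h3⟩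
  exact isIntegral_trans f hf

end IntDescent

section Modular

variable (A : ValuationSubring Kbar)

/-- `K^ur → ℚ̄`. -/
abbrev iotaUr : ↥(H41.Kur A) →+* Kbar := algebraMap ↥(H41.Kur A) Kbar

theorem iotaUr_fixed (σ : Kbar ≃ₐ[ℚ] Kbar) (hσ : σ ∈ A.inertiaSubgroupIn ℚ)
    (k : ↥(H41.Kur A)) : σ (iotaUr A k) = iotaUr A k :=
  H41.mem_Kur.1 k.2 σ hσ

theorem comp_iotaUr (σ : Kbar ≃ₐ[ℚ] Kbar) (hσ : σ ∈ A.inertiaSubgroupIn ℚ) :
    ((σ : Kbar ≃ₐ[ℚ] Kbar) : Kbar →+* Kbar).comp (iotaUr A) = iotaUr A :=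
  RingHom.ext fun k => iotaUr_fixed A σ hσ k

/-- Teichmüller lifts in `K^ur`. -/
theorem exists_res_iotaUr {q : ℕ} (hq : q.Prime) (hA : A.LiesOverPrime q) (a : ↥A) :
    ∃ r : ↥(A.comap (iotaUr A)), resV A (inclO (iotaUr A) A r) = resV A a := by
  obtain ⟨c, hc, hfix, hr⟩ := H42.exists_fixed_lift A hq hA (resV A a)
  exact ⟨⟨⟨c, H41.mem_Kur.2 hfix⟩, hc⟩, hr⟩

theorem isIntegralElem_iotaUr (c : Kbar) : (iotaUr A).IsIntegralElem c := by
  haveI : Algebra.IsAlgebraic ℚ Kbar := AlgebraicClosure.isAlgebraic ℚ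
  have h1 : IsIntegral ℚ c := (Algebra.IsAlgebraic.isAlgebraic c).isIntegral
  exact h1.tower_top (A := ↥(H41.Kur A))

theorem isIntegral_Kur_Kbar : Algebra.IsIntegral ↥(H41.Kur A) Kbar :=
  ⟨fun c => isIntegralElem_iotaUr A c⟩

variable (M : ℕ) [NeZero M]

/-- Integrality over `ℚ̄[x]` is stable under the arithmetic automorphisms fixing `x`. -/
theorem isIntegral_arith (x : FN M) (σ : Kbar ≃ₐ[ℚ] Kbar)
    (hσx : arithmeticRingAut (modularFunctionFieldFull M) σ x = x) {z : FN M}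
    (hz : IsIntegral ↥(Algebra.adjoin Kbar {x}) z) :
    IsIntegral ↥(Algebra.adjoin Kbar {x}) (arithmeticRingAut (modularFunctionFieldFull M) σ z) := by
  set Φ : FN M →+* FN M := (arithmeticRingAut (modularFunctionFieldFull M) σ).toRingHom with hΦ
  have hstab : ∀ b ∈ Algebra.adjoin Kbar {x}, Φ b ∈ Algebra.adjoin Kbar {x} := by
    intro b hb
    induction hb using Algebra.adjoin_induction with
    | mem b hb =>
      rw [Set.mem_singleton_iff] at hb
      subst hb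
      have : Φ b = b := hσx
      rw [this]
      exact Algebra.subset_adjoin rfl
    | algebraMap c =>
      have : Φ (algebraMap Kbar (FN M) c) = algebraMap Kbar (FN M) (σ c) :=
        arithmeticRingAut_algebraMap _ σ c
      rw [this]
      exact Subalgebra.algebraMap_mem _ _
    | add b b' _ _ hb hb' => rw [map_add]; exact add_mem hb hb'
    | mul b b' _ _ hb hb' => rw [map_mul]; exact mul_mem hb hb'
  let φ : ↥(Algebra.adjoin Kbar {x}) →+* ↥(Algebra.adjoin Kbar {x}) :=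
    (Φ.comp (algebraMap ↥(Algebra.adjoin Kbar {x}) (FN M))).codRestrict
      (Algebra.adjoin Kbar {x}) (fun b => hstab b b.2)
  exact IsIntegral.map_of_comp_eq φ Φ (RingHom.ext fun b => rfl) hz

/-- Series of level `M` integral over `ℚ̄[x]`, as a `ℚ̄`-subspace of `ℚ̄((t))`. -/
def intU (x : FN M) : Submodule Kbar (LaurentSeries Kbar) where
  carrier := {z | ∃ hz : z ∈ modularFunctionFieldBar M,
    IsIntegral ↥(Algebra.adjoin Kbar {x}) (⟨z, hz⟩ : FN M)}
  add_mem' := by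
    rintro a b ⟨ha, ha'⟩ ⟨hb, hb'⟩
    exact ⟨add_mem ha hb, ha'.add hb'⟩
  zero_mem' := ⟨zero_mem _, isIntegral_zero⟩
  smul_mem' := by
    rintro c a ⟨ha, ha'⟩
    have hmem : c • a ∈ modularFunctionFieldBar M :=
      smul_mem_intermediateField (modularFunctionFieldBar M) c ha
    refine ⟨hmem, ?_⟩
    have e : (⟨c • a, hmem⟩ : FN M) = algebraMap Kbar (FN M) c * ⟨a, ha⟩ := by
      apply Subtype.ext
      show c • a = algebraMap Kbar (LaurentSeries Kbar) c * a
      rw [← HahnSeries.C_mul_eq_smul, Fermat.Agent.RED.H42.C_eq_algebraMap]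
    rw [e]
    have hc : IsIntegral ↥(Algebra.adjoin Kbar {x}) (algebraMap Kbar (FN M) c) := by
      have : algebraMap Kbar (FN M) c = algebraMap ↥(Algebra.adjoin Kbar {x}) (FN M)
          ⟨algebraMap Kbar (FN M) c, Subalgebra.algebraMap_mem _ _⟩ := rfl
      rw [this]
      exact isIntegral_algebraMap
    exact hc.mul ha'

theorem mem_intU {x : FN M} {z : LaurentSeries Kbar} :
    z ∈ intU M x ↔ ∃ hz : z ∈ modularFunctionFieldBar M,
      IsIntegral ↥(Algebra.adjoin Kbar {x}) (⟨z, hz⟩ : FN M) := Iff.rfl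

theorem intU_stable (x : FN M) (hxL : x ∈ H23.L0 A M) (σ : ↥(A.inertiaSubgroupIn ℚ))
    (z : LaurentSeries Kbar) (hz : z ∈ intU M x) :
    coeffMap (MulSemiringAction.toRingHom ↥(A.inertiaSubgroupIn ℚ) Kbar σ) z ∈ intU M x := by
  obtain ⟨hzM, hzint⟩ := hz
  have e : coeffMap (MulSemiringAction.toRingHom ↥(A.inertiaSubgroupIn ℚ) Kbar σ) z
      = ((arithmeticRingAut (modularFunctionFieldFull M) (σ : Kbar ≃ₐ[ℚ] Kbar) ⟨z, hzM⟩ : FN M) :
        LaurentSeries Kbar) :=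
    coeffMap_congr (RingHom.ext fun c => rfl) z
  have h1 := isIntegral_arith M x (σ : Kbar ≃ₐ[ℚ] Kbar) (hxL σ σ.2) hzint
  rw [e]
  exact ⟨(arithmeticRingAut (modularFunctionFieldFull M) (σ : Kbar ≃ₐ[ℚ] Kbar) ⟨z, hzM⟩).2, h1⟩

/-- **(L2-i) NORMAL-IMG, inertia-fixed form.**  If the chart `x` (inertia-fixed,
Gauss-integral) is normal over `ℚ̄`, every element `y` of the residue field which is integral
over `k[x~]` is the reduction of an inertia-fixed Gauss-integral function `f`, integral over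
`ℚ̄[x]` and over `K^ur[x]`; moreover `f` has coefficients in `K^ur`: `f = ψ f'` with `f'` in the
function field over `K^ur` and in the Gauss ring of `R^ur`. -/
theorem normalImg_of_chartNormal {q : ℕ} (hq : q.Prime) (hA : A.LiesOverPrime q)
    (x : FN M) (hxV : x ∈ VM A M) (hxL : x ∈ H23.L0 A M)
    (hN : ChartNormal (redSetting A (hScM A M)) x hxV)
    (y : FM A M) (hy : IsIntegral ↥(Algebra.adjoin (kV A) {redM A M ⟨x, hxV⟩}) y) :
    ∃ f : FN M, f ∈ H23.L0 A M ∧ IsIntegral ↥(Algebra.adjoin Kbar {x}) f ∧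
      ((aeval x : Kbar[X] →ₐ[Kbar] FN M).toRingHom.comp
        (mapRingHom (iotaUr A))).IsIntegralElem f ∧
      (∃ f' : LaurentSeries ↥(H41.Kur A),
        f' ∈ laurentBaseChange ↥(H41.Kur A) (modularFunctionFieldFull M) ∧
        f' ∈ gaussRingV (H41.Rur A) ∧ coeffMap (iotaUr A) f' = (f : LaurentSeries Kbar)) ∧
      ∃ h : f ∈ VM A M, redM A M ⟨f, h⟩ = y := by
  obtain ⟨f₀, hf₀int, hf₀red⟩ := hN y hy
  have hfO : ((f₀ : FN M) : LaurentSeries Kbar) ∈ gaussRingV A := f₀.2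
  have hfix : ∀ c : Kbar, (∀ σ : ↥(A.inertiaSubgroupIn ℚ), σ • c = c) → c ∈ (iotaUr A).range :=
    fun c hc => ⟨⟨c, H41.mem_Kur.2 fun σ hσ => hc ⟨σ, hσ⟩⟩, rfl⟩
  have hι : ∀ (σ : ↥(A.inertiaSubgroupIn ℚ)) (k : ↥(H41.Kur A)), σ • iotaUr A k = iotaUr A k :=
    fun σ k => iotaUr_fixed A σ σ.2 k
  obtain ⟨f', hf'F, hf'O, hf'U, h', hred⟩ := exists_rational_lift (iotaUr A) A
    ↥(A.inertiaSubgroupIn ℚ) hfix hι (exists_res_iotaUr A hq hA)
    (laurentBaseChange ↥(H41.Kur A) (modularFunctionFieldFull M))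
    (fracScalable_laurentBaseChange (A.comap (iotaUr A)) M)
    (intU M x) (intU_stable A M x hxL)
    ((f₀ : FN M) : LaurentSeries Kbar) ⟨(f₀ : FN M).2, hf₀int⟩ hfO
    (mem_span_coeffMap_of_mem_laurentBaseChange (iotaUr A) _ (isIntegralElem_iotaUr A)
      (f₀ : FN M).2)
  obtain ⟨hfM, hfint⟩ := hf'U
  haveI : Algebra.IsIntegral ↥(H41.Kur A) Kbar := isIntegral_Kur_Kbar A
  refine ⟨⟨coeffMap (iotaUr A) f', hfM⟩, ?_, hfint,
    isIntegralElem_of_isIntegral_adjoin (K := ↥(H41.Kur A)) x _ hfint,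
    ⟨f', hf'F, hf'O, rfl⟩, h', ?_⟩
  · rw [H23.mem_L0_iff_coeffMap]
    intro σ hσ
    show coeffMap (σ : Kbar →+* Kbar) (coeffMap (iotaUr A) f') = coeffMap (iotaUr A) f'
    rw [_root_.ModularCurve.coeffMap_coeffMap, comp_iotaUr A σ hσ]
  · apply Subtype.ext
    rw [H42.coe_redM]
    show gaussRedV A ⟨coeffMap (iotaUr A) f', h'⟩ = (y : LaurentSeries (kV A))
    rw [hred, ← hf₀red]
    rfl

/-- `j` is inertia-fixed. -/
theorem jF_mem_L0 : Fermat.Agent.RED.H73.jF (L := Kbar) M ∈ H23.L0 A M := by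
  rw [← Fermat.Agent.RED.H76.jF_eq, Fermat.Agent.S24.jF_eq_jdF]
  exact H23.jdF_mem_L0 A M 1 (one_dvd M)

/-- **(L2-i) for the chart `j`**, `q ≥ 5`, `q ∤ M`.  The chart function is any `x` equal to
`j` (for instance `S24.jF M`, by `RED.H76.jF_eq`, or `RED.H73.jF M`, by `rfl`). -/
theorem normalImg_good {q : ℕ} (hq : q.Prime) (h5 : 5 ≤ q) (hA : A.LiesOverPrime q)
    (hqM : ¬ q ∣ M) (x : FN M) (hx : x = Fermat.Agent.RED.H73.jF (L := Kbar) M)
    (hxV : x ∈ VM A M)
    (y : FM A M) (hy : IsIntegral ↥(Algebra.adjoin (kV A) {redM A M ⟨x, hxV⟩}) y) :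
    ∃ f : FN M, f ∈ H23.L0 A M ∧ IsIntegral ↥(Algebra.adjoin Kbar {x}) f ∧
      ((aeval x : Kbar[X] →ₐ[Kbar] FN M).toRingHom.comp
        (mapRingHom (iotaUr A))).IsIntegralElem f ∧
      (∃ f' : LaurentSeries ↥(H41.Kur A),
        f' ∈ laurentBaseChange ↥(H41.Kur A) (modularFunctionFieldFull M) ∧
        f' ∈ gaussRingV (H41.Rur A) ∧ coeffMap (iotaUr A) f' = (f : LaurentSeries Kbar)) ∧
      ∃ h : f ∈ VM A M, redM A M ⟨f, h⟩ = y := by
  subst hx
  exact normalImg_of_chartNormal A M hq hA _ hxV (jF_mem_L0 A M)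
    (Fermat.Agent.RED.H76.goodChart_jF M hq hqM h5 A hA).normal y hy

/-- **(L2-i) for the chart `1/j`**, `q ∤ M`. -/
theorem normalImg_good_inv {q : ℕ} (hq : q.Prime) (hA : A.LiesOverPrime q)
    (hqM : ¬ q ∣ M) (x : FN M) (hx : x = (Fermat.Agent.RED.H73.jF (L := Kbar) M)⁻¹)
    (hxV : x ∈ VM A M)
    (y : FM A M) (hy : IsIntegral ↥(Algebra.adjoin (kV A) {redM A M ⟨x, hxV⟩}) y) :
    ∃ f : FN M, f ∈ H23.L0 A M ∧ IsIntegral ↥(Algebra.adjoin Kbar {x}) f ∧
      ((aeval x : Kbar[X] →ₐ[Kbar] FN M).toRingHom.comp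
        (mapRingHom (iotaUr A))).IsIntegralElem f ∧
      (∃ f' : LaurentSeries ↥(H41.Kur A),
        f' ∈ laurentBaseChange ↥(H41.Kur A) (modularFunctionFieldFull M) ∧
        f' ∈ gaussRingV (H41.Rur A) ∧ coeffMap (iotaUr A) f' = (f : LaurentSeries Kbar)) ∧
      ∃ h : f ∈ VM A M, redM A M ⟨f, h⟩ = y := by
  subst hx
  exact normalImg_of_chartNormal A M hq hA _ hxV ((H23.L0 A M).inv_mem (jF_mem_L0 A M))
    (Fermat.Agent.RED.H76.goodChart_jF_inv M hq hqM A hA).normal y hy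

end Modular

end Fermat.Agent.S36.NU.H17

end
end
-- ==== END Fermat.Agent.S36.NU.H17_NormalMod

-- ==== BEGIN Fermat.Agent.S36.NU.H17_TIGauss
section

/-!
# S36 / NU-B, leaf TI3-VAL, input (G) (helper17): the Gauss property on `K[j]`

`R` a valuation ring of `K`, `V` a valuation ring of `F ⊇ K` with `V ∩ K = R` and residue map
`red : V → κ`, `j ∈ V` with `red j` transcendental over the residue field `k` of `R`.

* `exists_scale_poly` : a nonzero polynomial over `K` is a constant times a polynomial over `R`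
  with a coefficient equal to `1`;
* `gauss_of_transcendental_red` : **(G)** `p ∈ K[X]`, `p(j) ∈ V` ⟹ `p ∈ R[X]`;
* `Chart.gauss` : the same for a chart of helper16.
-/

set_option autoImplicit false
set_option linter.style.haveILetI false
set_option linter.unusedSectionVars false

noncomputable section

open Polynomial

namespace Fermat.Agent.S36.NU.H17

section Scale

variable (R : Type*) {K : Type*} [CommRing R] [IsDomain R] [ValuationRing R] [Field K]
  [Algebra R K] [IsFractionRing R K]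

/-- A nonzero polynomial over the fraction field of a valuation ring `R` is a constant times a
polynomial over `R` one of whose coefficients is `1`. -/
theorem exists_scale_poly (p : K[X]) (hp : p ≠ 0) :
    ∃ (a : K) (P : R[X]) (m : ℕ), a ≠ 0 ∧ P.coeff m = 1 ∧ p = C a * P.map (algebraMap R K) := by
  classical
  obtain ⟨m, hm, hmax⟩ := Finset.exists_max_image p.support
    (fun i => ValuationRing.valuation R K (p.coeff i)) (Polynomial.support_nonempty.2 hp)
  have ha : p.coeff m ≠ 0 := Polynomial.mem_support_iff.1 hm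
  have hl : C (p.coeff m)⁻¹ * p ∈ Polynomial.lifts (algebraMap R K) := by
    rw [lifts_iff_coeff_lifts]
    intro i
    rw [Polynomial.coeff_C_mul]
    have hv : (p.coeff m)⁻¹ * p.coeff i ∈ (ValuationRing.valuation R K).integer := by
      rw [Valuation.mem_integer_iff, map_mul, map_inv₀]
      by_cases hi : i ∈ p.support
      · have h1 := hmax i hi
        have h0 : ValuationRing.valuation R K (p.coeff m) ≠ 0 :=
          (Valuation.ne_zero_iff _).2 ha
        calc (ValuationRing.valuation R K (p.coeff m))⁻¹ * ValuationRing.valuation R K (p.coeff i)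
            ≤ (ValuationRing.valuation R K (p.coeff m))⁻¹
              * ValuationRing.valuation R K (p.coeff m) := by gcongr
          _ = 1 := inv_mul_cancel₀ h0
      · rw [Polynomial.notMem_support_iff.1 hi, map_zero, mul_zero]
        exact zero_le_one
    obtain ⟨r, hr⟩ := (ValuationRing.mem_integer_iff R K _).1 hv
    exact ⟨r, hr⟩
  obtain ⟨P, hP⟩ := (Polynomial.mem_lifts _).1 hl
  refine ⟨p.coeff m, P, m, ha, ?_, ?_⟩
  · apply IsFractionRing.injective R K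
    rw [← Polynomial.coeff_map, hP, Polynomial.coeff_C_mul, inv_mul_cancel₀ ha, map_one]
  · rw [hP, ← mul_assoc, ← C_mul, mul_inv_cancel₀ ha, C_1, one_mul]

end Scale

section Gauss2

variable {R K F k κ : Type*} [CommRing R] [IsDomain R] [ValuationRing R] [Field K]
  [Algebra R K] [IsFractionRing R K] [Field F] [Algebra K F] [Algebra R F] [IsScalarTower R K F]
  [Field k] [Field κ] [Algebra k κ]

/-- **(G)**, the Gauss property on `K[j]`: if the residue of `j` is transcendental over the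
residue field of `R` and `V ∩ K = R`, then a polynomial `p ∈ K[X]` with `p(j) ∈ V` has its
coefficients in `R`. -/
theorem gauss_of_transcendental_red (V : ValuationSubring F) (red : V →+* κ)
    (hker : ∀ u : V, u ∈ IsLocalRing.maximalIdeal V → red u = 0)
    (res : R →+* k) (hR : ∀ r : R, algebraMap R F r ∈ V)
    (hred_const : ∀ r : R, red ⟨algebraMap R F r, hR r⟩ = algebraMap k κ (res r))
    (hconst : ∀ c : K, algebraMap K F c ∈ V → c ∈ (algebraMap R K).range)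
    (j : F) (hjV : j ∈ V) (htr : Transcendental k (red ⟨j, hjV⟩))
    (p : K[X]) (hp : aeval j p ∈ V) (i : ℕ) : p.coeff i ∈ (algebraMap R K).range := by
  by_cases hp0 : p = 0
  · rw [hp0, coeff_zero]
    exact zero_mem _
  obtain ⟨a, P, m, ha, hPm, rfl⟩ := exists_scale_poly R p hp0
  -- the value of `P` at `j`, inside `V`
  let f : R →+* V := (algebraMap R F).codRestrict V.toSubring hR
  have hφ : ((eval₂ f ⟨j, hjV⟩ P : V) : F) = aeval j P := by
    have := Polynomial.hom_eval₂ P f V.subtype ⟨j, hjV⟩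
    exact this
  have hredφ : red (eval₂ f ⟨j, hjV⟩ P) = aeval (red ⟨j, hjV⟩) (P.map res) := by
    rw [Polynomial.hom_eval₂, aeval_def, eval₂_map]
    congr 1
    ext r
    exact hred_const r
  have hPres : P.map res ≠ 0 := by
    intro h0
    have := congrArg (fun Q : k[X] => Q.coeff m) h0
    simp only [coeff_map, coeff_zero, hPm, map_one] at this
    exact one_ne_zero this
  have hne : red (eval₂ f ⟨j, hjV⟩ P) ≠ 0 := by
    rw [hredφ]
    intro h0
    exact hPres (transcendental_iff.1 htr _ h0)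
  have hunit : IsUnit (eval₂ f ⟨j, hjV⟩ P) := by
    by_contra hnu
    exact hne (hker _ ((IsLocalRing.mem_maximalIdeal _).2 hnu))
  obtain ⟨w, hw⟩ := hunit.exists_right_inv
  have hwF : aeval j P * (w : F) = 1 := by
    rw [← hφ]
    exact congrArg Subtype.val hw
  have haV : algebraMap K F a ∈ V := by
    have e : algebraMap K F a = aeval j (C a * P.map (algebraMap R K)) * (w : F) := by
      rw [map_mul, aeval_C, Polynomial.aeval_map_algebraMap, mul_assoc, hwF, mul_one]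
    rw [e]
    exact V.mul_mem _ _ hp w.2
  obtain ⟨r, hr⟩ := hconst a haV
  rw [Polynomial.coeff_C_mul, Polynomial.coeff_map, ← hr, ← map_mul]
  exact ⟨_, rfl⟩

end Gauss2

section ChartGauss

open Fermat.Agent.S36.NU.H16

variable {R K F k ι : Type*} {κ : ι → Type*} [CommRing R] [IsDomain R] [ValuationRing R]
  [Field K] [Algebra R K] [IsFractionRing R K] [Field F] [Algebra K F] [Algebra R F]
  [IsScalarTower R K F] [Field k] [∀ i, Field (κ i)] [∀ i, Algebra k (κ i)]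
  (C : Chart R F k ι κ)

/-- **(G)** for a chart: `j ∈ B`, the residue of `j` at the component `i₀` is transcendental over
`k`, the constants of `V i₀` are `R`. -/
theorem Chart.gauss (i₀ : ι) (hconst : ∀ c : K, algebraMap K F c ∈ C.V i₀ →
      c ∈ (algebraMap R K).range)
    (j : F) (hjB : j ∈ C.B) (htr : Transcendental k (C.rd i₀ j))
    (p : K[X]) (hp : aeval j p ∈ C.V i₀) (i : ℕ) : p.coeff i ∈ (algebraMap R K).range := by
  have hjV : j ∈ C.V i₀ := C.B_le i₀ j hjB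
  rw [C.rd_of_mem i₀ hjV] at htr
  exact gauss_of_transcendental_red (C.V i₀) (C.red i₀)
    (fun u hu => (C.red_eq_zero_iff i₀ u).2 hu) C.res
    (fun r => C.B_le i₀ _ (C.B.algebraMap_mem r))
    (fun r => C.red_const i₀ r _) hconst j hjV htr p hp i

end ChartGauss

end Fermat.Agent.S36.NU.H17

end
end
-- ==== END Fermat.Agent.S36.NU.H17_TIGauss

-- ==== BEGIN Fermat.Agent.S36.NU.H23_NR3
section

/-!
# S36 / NU-B, leaf TOT3-MOD (helper23): `NRData` for three valuations (abstract builder)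

Three valuation rings `V₀`, `V₁`, `V₂` of `L₀` over the discrete valuation ring `VE` of `E₀`
(uniformiser `ϖ`), residue maps `r₀ : V₀ → C`, `r₁ : V₁ → K₁`, `r₂ : V₂ → C`, where `C` is the
residue field of `VE`; structure maps `C → C` the identity for `V₀`, a given one for `K₁` and for
`V₂` (modular: `Fr²`); ramification `e = (1, e₁, 1)` with uniformisers `(ϖ, π₁, ϖ)`.

* `kap3 C K₁ : Fin 3 → Type`, `nr3 : NRData E₀ L₀ C (Fin 3) (kap3 C K₁)`;
* `finrank_K1_eq_one` : if `1 + e₁ + [C : C]₂ = [L₀ : E₀]` then `[K₁ : C] = 1`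
  (fundamental inequality), `surjective_K1`.
-/

set_option autoImplicit false
set_option linter.style.haveILetI false
set_option linter.unusedSectionVars false

noncomputable section

namespace Fermat.Agent.S36.NU.H23

open Fermat.Agent.BAD

/-- The three residue fields. -/
def kap3 (C K₁ : Type) : Fin 3 → Type
  | 0 => C
  | 1 => K₁
  | 2 => C

instance kap3Field (C K₁ : Type) [Field C] [Field K₁] : ∀ i, Field (kap3 C K₁ i)
  | 0 => inferInstanceAs (Field C)
  | 1 => inferInstanceAs (Field K₁)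
  | 2 => inferInstanceAs (Field C)

/-- The three structure maps: the identity, a given one, a given one. -/
@[reducible] def kap3Alg (C K₁ : Type) [Field C] [Field K₁] (a₁ : Algebra C K₁)
    (a₂ : Algebra C C) : ∀ i, Algebra C (kap3 C K₁ i)
  | 0 => Algebra.id C
  | 1 => a₁
  | 2 => a₂

section Builder

variable {E₀ L₀ C K₁ : Type} [Field E₀] [Field L₀] [Field C] [Field K₁] [Algebra E₀ L₀]
  (a₁ : Algebra C K₁) (a₂ : Algebra C C)
  (VE : ValuationSubring E₀) (redE : ↥VE →+* C)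
  (V₀ V₁ V₂ : ValuationSubring L₀)
  (r₀ : ↥V₀ →+* C) (r₁ : ↥V₁ →+* K₁) (r₂ : ↥V₂ →+* C)
  (ϖ : E₀) (π₁ : L₀) (e₁ : ℕ)

/-- The three valuation rings. -/
def V3 : Fin 3 → ValuationSubring L₀
  | 0 => V₀
  | 1 => V₁
  | 2 => V₂

/-- The three residue maps. -/
def red3 : ∀ i : Fin 3, ↥(V3 V₀ V₁ V₂ i) →+* kap3 C K₁ i
  | 0 => r₀
  | 1 => r₁
  | 2 => r₂

/-- The three uniformisers. -/
def pi3 : Fin 3 → L₀
  | 0 => algebraMap E₀ L₀ ϖ
  | 1 => π₁
  | 2 => algebraMap E₀ L₀ ϖ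

/-- The three ramification indices. -/
def e3 : Fin 3 → ℕ
  | 0 => 1
  | 1 => e₁
  | 2 => 1

theorem val_lt_one_of_red_eq_zero {V : ValuationSubring L₀} {R : Type} [Field R]
    (r : ↥V →+* R) (x : L₀) (hx : x ∈ V) (h0 : r ⟨x, hx⟩ = 0) : V.valuation x < 1 := by
  rw [lt_iff_le_and_ne]
  refine ⟨(ValuationSubring.valuation_le_one_iff V x).2 hx, fun h1 => ?_⟩
  have hu : IsUnit (⟨x, hx⟩ : ↥V) := (ValuationSubring.valuation_eq_one_iff V ⟨x, hx⟩).2 h1
  exact (hu.map r).ne_zero h0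

/-- **The `NRData` of three valuations.** -/
def nr3 (hϖ0 : ϖ ≠ 0) (hϖ : ϖ ∈ VE) (hϖr : redE ⟨ϖ, hϖ⟩ = 0)
    (hE : ∀ a : E₀, VE.valuation a < 1 → VE.valuation a ≤ VE.valuation ϖ)
    (hVE₀ : ∀ a : E₀, a ∈ VE → algebraMap E₀ L₀ a ∈ V₀)
    (hVE₁ : ∀ a : E₀, a ∈ VE → algebraMap E₀ L₀ a ∈ V₁)
    (hVE₂ : ∀ a : E₀, a ∈ VE → algebraMap E₀ L₀ a ∈ V₂)
    (hkerE : ∀ a : ↥VE, ¬ IsUnit a → redE a = 0)
    (hs₀ : Function.Surjective r₀) (hs₁ : Function.Surjective r₁) (hs₂ : Function.Surjective r₂)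
    (hk₀ : ∀ a : ↥V₀, ¬ IsUnit a → r₀ a = 0) (hk₁ : ∀ a : ↥V₁, ¬ IsUnit a → r₁ a = 0)
    (hk₂ : ∀ a : ↥V₂, ¬ IsUnit a → r₂ a = 0)
    (hc₀ : ∀ (a : ↥VE) (ha : algebraMap E₀ L₀ (a : E₀) ∈ V₀), r₀ ⟨_, ha⟩ = redE a)
    (hc₁ : ∀ (a : ↥VE) (ha : algebraMap E₀ L₀ (a : E₀) ∈ V₁),
      r₁ ⟨_, ha⟩ = @algebraMap C K₁ _ _ a₁ (redE a))
    (hc₂ : ∀ (a : ↥VE) (ha : algebraMap E₀ L₀ (a : E₀) ∈ V₂),
      r₂ ⟨_, ha⟩ = @algebraMap C C _ _ a₂ (redE a))
    (h01 : ¬ V₀ ≤ V₁) (h02 : ¬ V₀ ≤ V₂) (h10 : ¬ V₁ ≤ V₀) (h12 : ¬ V₁ ≤ V₂)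
    (h20 : ¬ V₂ ≤ V₀) (h21 : ¬ V₂ ≤ V₁)
    (hA₀ : H42.IsArch V₀) (hA₁ : H42.IsArch V₁) (hA₂ : H42.IsArch V₂)
    (hπ₁ : V₁.valuation π₁ < 1) (he₁ : 0 < e₁)
    (hram₁ : V₁.valuation (algebraMap E₀ L₀ ϖ) = V₁.valuation π₁ ^ e₁) :
    @H42.NRData E₀ L₀ C _ _ _ _ (Fin 3) (kap3 C K₁) _ (kap3Alg C K₁ a₁ a₂) :=
  letI := kap3Alg C K₁ a₁ a₂
  { VE := VE
    V := V3 V₀ V₁ V₂
    redE := redE
    red := red3 V₀ V₁ V₂ r₀ r₁ r₂
    ϖ := ϖ
    π := pi3 ϖ π₁
    e := e3 e₁
    hϖ0 := hϖ0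
    hE := hE
    hVE := fun i => by
      fin_cases i
      · exact hVE₀
      · exact hVE₁
      · exact hVE₂
    hkerE := hkerE
    hsurj := fun i => by
      fin_cases i
      · exact hs₀
      · exact hs₁
      · exact hs₂
    hker := fun i => by
      fin_cases i
      · exact hk₀
      · exact hk₁
      · exact hk₂
    hcompat := fun i => by
      fin_cases i
      · exact hc₀
      · exact hc₁
      · exact hc₂
    hinc := fun i j hij => by
      fin_cases i <;> fin_cases j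
      · exact absurd rfl hij
      · exact h01
      · exact h02
      · exact h10
      · exact absurd rfl hij
      · exact h12
      · exact h20
      · exact h21
      · exact absurd rfl hij
    hA := fun i => by
      fin_cases i
      · exact hA₀
      · exact hA₁
      · exact hA₂
    hπ := fun i => by
      fin_cases i
      · show V₀.valuation (algebraMap E₀ L₀ ϖ) < 1
        exact val_lt_one_of_red_eq_zero r₀ _ (hVE₀ ϖ hϖ) (by
          rw [hc₀ ⟨ϖ, hϖ⟩ (hVE₀ ϖ hϖ), hϖr])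
      · exact hπ₁
      · show V₂.valuation (algebraMap E₀ L₀ ϖ) < 1
        exact val_lt_one_of_red_eq_zero r₂ _ (hVE₂ ϖ hϖ) (by
          rw [hc₂ ⟨ϖ, hϖ⟩ (hVE₂ ϖ hϖ), hϖr, map_zero])
    he := fun i => by
      fin_cases i
      · exact Nat.one_pos
      · exact he₁
      · exact Nat.one_pos
    hram := fun i => by
      fin_cases i
      · exact (pow_one _).symm
      · exact hram₁
      · exact (pow_one _).symm }

end Builder

section Consequences

variable {E₀ L₀ C K₁ : Type} [Field E₀] [Field L₀] [Field C] [Field K₁] [Algebra E₀ L₀]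
  [Module.Finite E₀ L₀]
  (a₁ : Algebra C K₁) (a₂ : Algebra C C)
  (D : @H42.NRData E₀ L₀ C _ _ _ _ (Fin 3) (kap3 C K₁) _ (kap3Alg C K₁ a₁ a₂))

/-- **The fundamental inequality for three valuations.** -/
theorem fund3 (e₀ e₁ e₂ : ℕ)
    (he : letI := kap3Alg C K₁ a₁ a₂; D.e 0 = e₀ ∧ D.e 1 = e₁ ∧ D.e 2 = e₂) :
    e₀ * 1 + e₁ * @Module.finrank C K₁ _ _ a₁.toModule
        + e₂ * @Module.finrank C C _ _ a₂.toModule ≤ Module.finrank E₀ L₀ := by
  letI := kap3Alg C K₁ a₁ a₂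
  have h := D.sum_le_finrank
  rw [Fin.sum_univ_three, he.1, he.2.1, he.2.2] at h
  have h0 : @Module.finrank C (kap3 C K₁ 0) _ _ (kap3Alg C K₁ a₁ a₂ 0).toModule = 1 :=
    Module.finrank_self C
  rw [h0] at h
  exact h

include D in
/-- The residue field `K₁` is finite over `C`. -/
theorem finite_K1 : @Module.Finite C K₁ _ _ a₁.toModule := by
  letI := kap3Alg C K₁ a₁ a₂
  exact D.finite_res 1

include D in
/-- **`[K₁ : C] = 1`** if the degrees add up. -/
theorem finrank_K1_eq_one (n f₂ e₁ : ℕ) (hn : Module.finrank E₀ L₀ = n)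
    (he : letI := kap3Alg C K₁ a₁ a₂; D.e 0 = 1 ∧ D.e 1 = e₁ ∧ D.e 2 = 1) (hpos : 0 < e₁)
    (hf₂ : @Module.finrank C C _ _ a₂.toModule = f₂) (hsum : 1 + e₁ + f₂ = n) :
    @Module.finrank C K₁ _ _ a₁.toModule = 1 := by
  have h := fund3 a₁ a₂ D 1 e₁ 1 he
  rw [hf₂, hn, ← hsum] at h
  have hpos' : 0 < @Module.finrank C K₁ _ _ a₁.toModule := by
    letI := a₁
    haveI : Module.Finite C K₁ := finite_K1 a₁ a₂ D
    exact Module.finrank_pos
  have h1 : e₁ * @Module.finrank C K₁ _ _ a₁.toModule ≤ e₁ * 1 := by omega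
  have h2 := Nat.le_of_mul_le_mul_left h1 hpos
  omega

include D in
/-- The structure map `C → K₁` is surjective if the degrees add up. -/
theorem surjective_K1 (n f₂ e₁ : ℕ) (hn : Module.finrank E₀ L₀ = n)
    (he : letI := kap3Alg C K₁ a₁ a₂; D.e 0 = 1 ∧ D.e 1 = e₁ ∧ D.e 2 = 1) (hpos : 0 < e₁)
    (hf₂ : @Module.finrank C C _ _ a₂.toModule = f₂) (hsum : 1 + e₁ + f₂ = n) :
    Function.Surjective (@algebraMap C K₁ _ _ a₁) := by
  letI := a₁
  have h1 : Module.finrank C K₁ = 1 :=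
    finrank_K1_eq_one a₁ a₂ D n f₂ e₁ hn he hpos hf₂ hsum
  haveI : Module.Finite C K₁ := finite_K1 a₁ a₂ D
  intro y
  have hb : (⊥ : Subalgebra C K₁) = ⊤ := Subalgebra.bot_eq_top_of_finrank_eq_one h1
  have hy : y ∈ (⊥ : Subalgebra C K₁) := by rw [hb]; trivial
  exact Algebra.mem_bot.mp hy

end Consequences

end Fermat.Agent.S36.NU.H23

end
end
-- ==== END Fermat.Agent.S36.NU.H23_NR3
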