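-- GENERATED (merged mirror, NOTES/tools/trim/merge3_helper67.py): 5 modules of the originals, bodies verbatim.
import Fermat.Agent.Zm.S36_L02_003
import Fermat.Agent.Zm.S35_L10_000
import Fermat.Agent.Zm.S35_L16_000
import Fermat.Agent.Zm.S44_L01_003
import Fermat.Agent.Zm.S36_L01_004
import Fermat.Agent.Zm.S36_L02_000
import Fermat.Agent.Zm.S36_L02_002
import Fermat.Agent.Zm.S35_L05_004
import Fermat.Agent.Zm.S35_L10_003
import Fermat.Agent.Zm.S36_L02_004
import Fermat.Agent.Zm.S35_L06_002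

-- ==== BEGIN Fermat.Agent.S36.NU.H79_Glue3
section

/-!
# S36 / NU-B, leaf GLUE3 (helper79): gluing at a multiple point, by norms to the lower level

Setting: `T : TotN ..` the conservation datum of the HIGHER level (modular: level `q² M'`, the
three valuations `v₂₀`, `v₁₁`, `v₀₂` of the `K^ur`-rational functions), `T' : TotData ..` the
conservation datum of the LOWER level (modular: level `q M'`, two valuations), `Nm : L₀ → L'`
(modular: the norm along `α : X₀(q² M') → X₀(q M')`), `z` a point, `z'` a NODE of the lower level.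

Hypothesis `NormVal` (modular: NORM-RED with ramification, helper42, + compatibility of the
points): for every function `h` which is a unit for all valuations and regular on the fibre of
`z`, with values `a i` of its reductions at `z`: `Nm h ∈ R_{z'}`, the value of the first reduction
of `Nm h` at `z'` is `∏_{i ∈ s₁} a i ^ n i` and the value of the second reduction at `β z'` is
`∏_{i ∈ s₂} a i ^ n i` (modular: `s₁ = {20, 11}`, `n = (1, q - 1)`; `s₂ = {02}`, `n = q`).

Results, for `f ∈ R_z` with values `a i`: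
* `TotN.glue_poly` : `∏_{i ∈ s₁} (a i - c) ^ n i = ∏_{i ∈ s₂} (a i - c) ^ n i` for all constants
  `c` outside a finite set (apply the hypothesis to `f - c`, and use the node of `T'`);
* `TotN.glue_eq` : if `s₂ = {i₂}`, then `a i = a i₂` for `i ∈ s₁` with `n i > 0`;
* `TotN.isGlued` : if moreover every `i ≠ i₂` is in `s₁` with `n i > 0`: the reductions of every
  `f ∈ R_z` take the SAME value at `z` (GLUE3).
* `TotN.normVal_of_norm` : the hypothesis `NormVal` from the norm formula for the reductions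
  `red'₁ (Nm h) = ∏_{i ∈ s₁} N₁ i (red i h) ^ e i`, `red'₂ (Nm h) = ∏_{i ∈ s₂} N₂ i (red i h) ^ e i`
  and the compatibility of the values with the maps `N₁ i`, `N₂ i` of the residue fields
  (value `a` of `x` at `pt i z` gives the value `a ^ f i` of `N i x` at `z'`, `β z'`); the
  exponents are then `n i = f i * e i`.
-/

set_option autoImplicit false
set_option linter.style.haveILetI false

noncomputable section

open AlgebraicCurve

attribute [local instance] Classical.propDecidable

namespace Fermat.Agent.S36.NU.H79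

open Fermat.Agent.RED.H17 Fermat.Agent.RED Fermat.Agent.BAD.H79

/-! ## Values of products -/

section Values

variable {k F : Type*} [Field k] [Field F] [Algebra k F]

/-- `f` takes the value `a` at `v`. -/
def HasValue (v : Place k F) (f : F) (a : k) : Prop := VanAt v (f - algebraMap k F a)

theorem HasValue.regAt {v : Place k F} {f : F} {a : k} (h : HasValue v f a) : RegAt v f := by
  have : f = (f - algebraMap k F a) + algebraMap k F a := by ring
  rw [this]
  exact (VanAt.regAt h).add (regAt_algebraMap v a)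

theorem HasValue.unique {v : Place k F} {f : F} {a b : k} (ha : HasValue v f a)
    (hb : HasValue v f b) : a = b := value_unique v ha hb

theorem hasValue_const (v : Place k F) (a : k) : HasValue v (algebraMap k F a) a := by
  unfold HasValue
  rw [sub_self]
  exact vanAt_zero v

theorem hasValue_one (v : Place k F) : HasValue v (1 : F) 1 := by
  have := hasValue_const v (1 : k)
  rwa [map_one] at this

theorem HasValue.sub {v : Place k F} {f g : F} {a b : k} (hf : HasValue v f a)
    (hg : HasValue v g b) : HasValue v (f - g) (a - b) := by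
  unfold HasValue at *
  have : f - g - algebraMap k F (a - b) = (f - algebraMap k F a) - (g - algebraMap k F b) := by
    rw [map_sub]; ring
  rw [this]
  exact hf.sub hg

theorem HasValue.mul {v : Place k F} {f g : F} {a b : k} (hf : HasValue v f a)
    (hg : HasValue v g b) : HasValue v (f * g) (a * b) := by
  have hreg := hf.regAt
  unfold HasValue at *
  have : f * g - algebraMap k F (a * b)
      = f * (g - algebraMap k F b) + (f - algebraMap k F a) * algebraMap k F b := by
    rw [map_mul]; ring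
  rw [this]
  exact (hreg.mul_vanAt hg).add (hf.mul_regAt (regAt_algebraMap v b))

theorem HasValue.pow {v : Place k F} {f : F} {a : k} (hf : HasValue v f a) (n : ℕ) :
    HasValue v (f ^ n) (a ^ n) := by
  induction n with
  | zero => simpa using hasValue_one v
  | succ n ih => rw [pow_succ, pow_succ]; exact ih.mul hf

theorem HasValue.prod {ι : Type*} {v : Place k F} (s : Finset ι) {f : ι → F} {a : ι → k}
    (hf : ∀ i ∈ s, HasValue v (f i) (a i)) : HasValue v (∏ i ∈ s, f i) (∏ i ∈ s, a i) := by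
  induction s using Finset.induction_on with
  | empty => simpa using hasValue_one v
  | insert i s hi ih =>
    rw [Finset.prod_insert hi, Finset.prod_insert hi]
    exact (hf i (Finset.mem_insert_self i s)).mul
      (ih fun j hj => hf j (Finset.mem_insert_of_mem hj))

end Values

/-! ## The algebra -/

/-- If `∏_{i ∈ s₁} (a i - c) ^ n i = ∏_{i ∈ s₂} (a i - c) ^ n i` for all `c` outside a finite
set, then the two products are equal as polynomials in `c`. -/
theorem glue_alg_poly {k ι : Type*} [Field k] [Infinite k] (s₁ s₂ : Finset ι) (n : ι → ℕ)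
    (a : ι → k) (S : Set k) (hS : S.Finite)
    (h : ∀ c, c ∉ S → ∏ i ∈ s₁, (a i - c) ^ n i = ∏ i ∈ s₂, (a i - c) ^ n i) :
    ∏ i ∈ s₁, (Polynomial.C (a i) - Polynomial.X) ^ n i
      = ∏ i ∈ s₂, (Polynomial.C (a i) - Polynomial.X) ^ n i := by
  apply Polynomial.eq_of_infinite_eval_eq
  refine Set.Infinite.mono ?_ hS.infinite_compl
  intro c hc
  rw [Set.mem_ofPred_eq]
  simp only [Polynomial.eval_prod, Polynomial.eval_pow, Polynomial.eval_sub, Polynomial.eval_C,
    Polynomial.eval_X]
  exact h c hc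

/-- If `∏_{i ∈ s₁} (a i - c) ^ n i = (d - c) ^ e` for all `c` outside a finite set, then
`a i = d` for all `i ∈ s₁` with `n i > 0`. -/
theorem glue_alg {k ι : Type*} [Field k] [Infinite k] (s₁ : Finset ι) (n : ι → ℕ)
    (a : ι → k) (d : k) (e : ℕ) (S : Set k) (hS : S.Finite)
    (h : ∀ c, c ∉ S → ∏ i ∈ s₁, (a i - c) ^ n i = (d - c) ^ e) {i : ι} (hi : i ∈ s₁)
    (hn : 0 < n i) : a i = d := by
  have hpoly : ∏ j ∈ s₁, (Polynomial.C (a j) - Polynomial.X) ^ n j
      = (Polynomial.C d - Polynomial.X) ^ e := by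
    apply Polynomial.eq_of_infinite_eval_eq
    refine Set.Infinite.mono ?_ hS.infinite_compl
    intro c hc
    rw [Set.mem_ofPred_eq]
    simp only [Polynomial.eval_prod, Polynomial.eval_pow, Polynomial.eval_sub,
      Polynomial.eval_C, Polynomial.eval_X]
    exact h c hc
  have h1 := congrArg (Polynomial.eval (a i)) hpoly
  simp only [Polynomial.eval_prod, Polynomial.eval_pow, Polynomial.eval_sub, Polynomial.eval_C,
    Polynomial.eval_X] at h1
  rw [Finset.prod_eq_zero hi (by rw [sub_self, zero_pow hn.ne'])] at h1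
  have h2 : d - a i = 0 := by
    by_contra hne
    exact pow_ne_zero e hne h1.symm
  exact (sub_eq_zero.mp h2).symm

namespace TotN

variable {K L₀ L k ι Z : Type*} {E : ι → Type*} [Field K] [Field L₀] [Field L]
  [Algebra K L] [Algebra L₀ L] [Field k] [Fintype ι] [∀ i, Field (E i)]
  [∀ i, Algebra k (E i)] (T : TotN K L₀ L k ι Z E)

/-- `f ∈ R_z`: integral for all valuations, without pole on the fibre of `z`. -/
def InR (z : Z) (f : L₀) : Prop :=
  (∀ i, f ∈ T.V i) ∧ ∀ P, T.ρ P = z → RegAt P (algebraMap L₀ L f)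

/-- The reduction of `f` for the valuation `i` (`0` if `f` is not integral). -/
def rdN (i : ι) (f : L₀) : E i := if h : f ∈ T.V i then T.red i ⟨f, h⟩ else 0

theorem rdN_of_mem {i : ι} {f : L₀} (h : f ∈ T.V i) : T.rdN i f = T.red i ⟨f, h⟩ := by
  unfold rdN
  rw [dif_pos h]

theorem rdN_sub {i : ι} {f g : L₀} (hf : f ∈ T.V i) (hg : g ∈ T.V i) :
    T.rdN i (f - g) = T.rdN i f - T.rdN i g := by
  rw [T.rdN_of_mem hf, T.rdN_of_mem hg, T.rdN_of_mem ((T.V i).sub_mem hf hg), ← map_sub]
  rfl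

theorem rdN_mul {i : ι} {f g : L₀} (hf : f ∈ T.V i) (hg : g ∈ T.V i) :
    T.rdN i (f * g) = T.rdN i f * T.rdN i g := by
  rw [T.rdN_of_mem hf, T.rdN_of_mem hg, T.rdN_of_mem ((T.V i).mul_mem _ _ hf hg), ← map_mul]
  rfl

theorem rdN_one (i : ι) : T.rdN i (1 : L₀) = 1 := by
  rw [T.rdN_of_mem (T.V i).one_mem]
  exact map_one (T.red i)

variable {T}

theorem InR.sub {z : Z} {f g : L₀} (hf : T.InR z f) (hg : T.InR z g) : T.InR z (f - g) :=
  ⟨fun i => (T.V i).sub_mem (hf.1 i) (hg.1 i), fun P hP => by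
    rw [map_sub]; exact (hf.2 P hP).sub (hg.2 P hP)⟩

theorem InR.add {z : Z} {f g : L₀} (hf : T.InR z f) (hg : T.InR z g) : T.InR z (f + g) :=
  ⟨fun i => (T.V i).add_mem _ _ (hf.1 i) (hg.1 i), fun P hP => by
    rw [map_add]; exact (hf.2 P hP).add (hg.2 P hP)⟩

theorem InR.mul {z : Z} {f g : L₀} (hf : T.InR z f) (hg : T.InR z g) : T.InR z (f * g) :=
  ⟨fun i => (T.V i).mul_mem _ _ (hf.1 i) (hg.1 i), fun P hP => by
    rw [map_mul]; exact (hf.2 P hP).mul (hg.2 P hP)⟩

theorem inR_one (z : Z) : T.InR z (1 : L₀) :=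
  ⟨fun i => (T.V i).one_mem, fun P _ => by rw [map_one]; exact regAt_one P⟩

/-- The reductions of `f ∈ R_z` are regular at `z` (REG). -/
theorem InR.regAt [Infinite k] (hP : HasPrincipalDivisors K L) {z : Z} {f : L₀}
    (hf : T.InR z f) (i : ι) : RegAt (T.pt i z) (T.rdN i f) := by
  rw [T.rdN_of_mem (hf.1 i)]
  exact T.regAt hP hf.1 hf.2 i

variable (T)

/-- The hypothesis of GLUE3 (modular: NORM-RED with ramification + compatibility of the points):
the values of the two reductions of `Nm h` at a point `z'` of the lower level are monomials in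
the values of the reductions of `h` at `z`, for `h` a unit for all valuations and regular on
the fibre of `z`. -/
def NormVal {K' L' L₁ L₂ : Type*} [Field K'] [Field L'] [Algebra K' L'] [Field L₁]
    [Algebra k L₁] [Field L₂] [Algebra k L₂] (T' : TotData K' L' k L₁ L₂) (Nm : L₀ → L')
    (z : Z) (z' : Place k L₁) (s₁ s₂ : Finset ι) (n : ι → ℕ) : Prop :=
  ∀ h : L₀, T.InR z h → (∀ i, T.rdN i h ≠ 0) → ∀ a : ι → k,
    (∀ i, HasValue (T.pt i z) (T.rdN i h) (a i)) →
    T'.InR z' (Nm h) ∧ HasValue z' (T'.p₁.rd (Nm h)) (∏ i ∈ s₁, a i ^ n i) ∧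
      HasValue (T'.β z') (T'.p₂.rd (Nm h)) (∏ i ∈ s₂, a i ^ n i)

variable {T}

section Glue

variable {K' L' L₁ L₂ : Type*} [Field K'] [Field L'] [Algebra K' L'] [Field L₁]
  [Algebra k L₁] [Field L₂] [Algebra k L₂] {T' : TotData K' L' k L₁ L₂} {Nm : L₀ → L'}
  {z : Z} {z' : Place k L₁} {s₁ s₂ : Finset ι} {n : ι → ℕ}

/-- The set of constants which are a reduction of `f`. -/
private theorem finite_const {f : L₀} :
    {c : k | ∃ i, T.rdN i f = algebraMap k (E i) c}.Finite := by
  have : {c : k | ∃ i, T.rdN i f = algebraMap k (E i) c}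
      = ⋃ i : ι, {c : k | T.rdN i f = algebraMap k (E i) c} := by
    ext c
    simp only [Set.mem_ofPred_eq, Set.mem_iUnion]
  rw [this]
  refine Set.finite_iUnion fun i => Set.Subsingleton.finite ?_
  intro a ha b hb
  rw [Set.mem_ofPred_eq] at ha hb
  exact (algebraMap k (E i)).injective (ha.symm.trans hb)

/-- **The polynomial identity of the values** at a point over a node of the lower level. -/
theorem glue_poly (hN : T.NormVal T' Nm z z' s₁ s₂ n) (hnode : T'.IsNode z') {f : L₀}
    (hf : T.InR z f) {a : ι → k} (ha : ∀ i, HasValue (T.pt i z) (T.rdN i f) (a i)) (c : k)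
    (hc : c ∉ {c : k | ∃ i, T.rdN i f = algebraMap k (E i) c}) :
    ∏ i ∈ s₁, (a i - c) ^ n i = ∏ i ∈ s₂, (a i - c) ^ n i := by
  obtain ⟨c₀, ⟨c', hc'⟩, hc₀⟩ := T.const_lift c
  have hcm : ∀ i, c₀ ∈ T.V i := fun i => (hc₀ i).choose
  have hcr : ∀ i, T.rdN i c₀ = algebraMap k (E i) c := fun i => by
    rw [T.rdN_of_mem (hcm i)]; exact (hc₀ i).choose_spec
  have hcR : T.InR z c₀ := ⟨hcm, fun P _ => by rw [hc']; exact regAt_algebraMap P c'⟩
  have hg : T.InR z (f - c₀) := hf.sub hcR
  have hgr : ∀ i, T.rdN i (f - c₀) = T.rdN i f - algebraMap k (E i) c := fun i => by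
    rw [T.rdN_sub (hf.1 i) (hcm i), hcr]
  have hg0 : ∀ i, T.rdN i (f - c₀) ≠ 0 := fun i h0 => by
    rw [hgr, sub_eq_zero] at h0
    exact hc ⟨i, h0⟩
  have hgv : ∀ i, HasValue (T.pt i z) (T.rdN i (f - c₀)) ((fun j => a j - c) i) := fun i => by
    rw [hgr]
    exact (ha i).sub (hasValue_const _ c)
  obtain ⟨hR, h1, h2⟩ := hN (f - c₀) hg hg0 (fun j => a j - c) hgv
  have h1' : HasValue (T'.β z') (T'.p₂.rd (Nm (f - c₀))) (∏ i ∈ s₁, (a i - c) ^ n i) :=
    (hnode _ hR _).mp h1
  exact h1'.unique h2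

/-- **GLUE3, one component on the second side**: the values on the first side are equal to the
value on the second side. -/
theorem glue_eq [Infinite k] {i₂ : ι} (hN : T.NormVal T' Nm z z' s₁ {i₂} n)
    (hnode : T'.IsNode z') {f : L₀} (hf : T.InR z f) {a : ι → k}
    (ha : ∀ i, HasValue (T.pt i z) (T.rdN i f) (a i)) {i : ι} (hi : i ∈ s₁) (hn : 0 < n i) :
    a i = a i₂ := by
  refine glue_alg s₁ n a (a i₂) (n i₂) _ (finite_const (T := T) (f := f)) (fun c hc => ?_)
    hi hn
  have := glue_poly hN hnode hf ha c hc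
  rwa [Finset.prod_singleton] at this

/-- **GLUE3**: at a point `z` over a node `z'` of the lower level, the reductions of every
`f ∈ R_z` take the same value at `z`. -/
theorem isGlued [Infinite k] (hP : HasPrincipalDivisors K L) {i₂ : ι}
    (hN : T.NormVal T' Nm z z' s₁ {i₂} n) (hnode : T'.IsNode z')
    (hs : ∀ i, i ≠ i₂ → i ∈ s₁ ∧ 0 < n i) (hdeg : ∀ i, (T.pt i z).deg = 1) {f : L₀}
    (hf : T.InR z f) (i j : ι) (c : k) :
    HasValue (T.pt i z) (T.rdN i f) c ↔ HasValue (T.pt j z) (T.rdN j f) c := by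
  have hex : ∀ l, ∃ a : k, HasValue (T.pt l z) (T.rdN l f) a := fun l =>
    exists_value (T.pt l z) (hdeg l) (hf.regAt hP l)
  choose a ha using hex
  have heq : ∀ l, a l = a i₂ := fun l => by
    by_cases hl : l = i₂
    · rw [hl]
    · exact glue_eq hN hnode hf ha (hs l hl).1 (hs l hl).2
  constructor
  · intro h
    have : c = a j := by rw [heq j, ← heq i]; exact h.unique (ha i)
    rw [this]; exact ha j
  · intro h
    have : c = a i := by rw [heq i, ← heq j]; exact h.unique (ha j)
    rw [this]; exact ha i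

/-- The hypothesis `NormVal` from the norm formula for the reductions (NORM-RED with
ramification: `e i` the ramification indices, `N₁ i`, `N₂ i` the norms of the residue fields)
and the compatibility of the values with the norms of the residue fields (`f i` the residue
degrees). -/
theorem normVal_of_norm (N₁ : ∀ i, E i → L₁) (N₂ : ∀ i, E i → L₂) (e f : ι → ℕ)
    (hmem : ∀ h : L₀, T.InR z h → (∀ i, T.rdN i h ≠ 0) → T'.InR z' (Nm h))
    (hred₁ : ∀ h : L₀, T.InR z h → (∀ i, T.rdN i h ≠ 0) →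
      T'.p₁.rd (Nm h) = ∏ i ∈ s₁, N₁ i (T.rdN i h) ^ e i)
    (hred₂ : ∀ h : L₀, T.InR z h → (∀ i, T.rdN i h ≠ 0) →
      T'.p₂.rd (Nm h) = ∏ i ∈ s₂, N₂ i (T.rdN i h) ^ e i)
    (hval₁ : ∀ i ∈ s₁, ∀ (x : E i) (a : k), HasValue (T.pt i z) x a →
      HasValue z' (N₁ i x) (a ^ f i))
    (hval₂ : ∀ i ∈ s₂, ∀ (x : E i) (a : k), HasValue (T.pt i z) x a →
      HasValue (T'.β z') (N₂ i x) (a ^ f i)) :
    T.NormVal T' Nm z z' s₁ s₂ (fun i => f i * e i) := by
  intro h hR hu a ha
  refine ⟨hmem h hR hu, ?_, ?_⟩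
  · rw [hred₁ h hR hu]
    refine HasValue.prod s₁ fun i hi => ?_
    rw [pow_mul]
    exact (hval₁ i hi _ _ (ha i)).pow (e i)
  · rw [hred₂ h hR hu]
    refine HasValue.prod s₂ fun i hi => ?_
    rw [pow_mul]
    exact (hval₂ i hi _ _ (ha i)).pow (e i)

end Glue

end TotN

end Fermat.Agent.S36.NU.H79

end
end
-- ==== END Fermat.Agent.S36.NU.H79_Glue3

-- ==== BEGIN Fermat.Agent.S36.NU.H82_CuspFam
section

/-!
# S36 / NU-B, leaf CUSPS (helper82), part 2: integrality over `ℚ̄[1/j]` from a family of conjugates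

A family `y : Q N → ℂ((t))` (`t = q^(1/N)`) with
* (sym)  `∏_c (c₀ - y_c) ∈ ℂ[J]` for all constants `c₀` (the symmetric functions are polynomials
  in `J = j(t^N)`),
* (coef) coefficients in `ℤ[ζ_N, 1/N]`,
* (ord)  `ord y_c ≥ - K₀ N`,
and an element `x` of `F_N · ℚ̄` whose expansion at the identity coset is a constant multiple of
`y_{q1}`: then `x j⁻ᴷ⁰` is integral over `ℚ̄[j⁻¹]` (`isIntegral_of_family`).

* `isIntegral_of_algHom` : integrality over `K[u]` can be tested after an embedding.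
-/

set_option autoImplicit false
set_option linter.unusedSectionVars false
set_option linter.unusedVariables false
set_option synthInstance.maxHeartbeats 400000

open ModularCurve Polynomial

noncomputable section

namespace Fermat.Agent.S36.NU.H82

open Fermat.Agent.S23.H22 (Q q1)
open Fermat.Agent.S28 (coeffRing iotaN)
open Fermat.Agent.RED.H73 (JL)
open Fermat.Agent.RED.H30
open Fermat.Agent.S24 (Kbar FN jF iotaC)
open Fermat.Agent.S15.H30 (psi psi_apply psi_injective psi_jF)

section Pull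

variable {K F E : Type*} [Field K] [Field F] [Field E] [Algebra K F] [Algebra K E]

/-- Integrality over `K[u]` can be tested after an embedding. -/
theorem isIntegral_of_algHom (Ψ : F →ₐ[K] E) (u x : F)
    (h : IsIntegral ↥(Algebra.adjoin K ({Ψ u} : Set E)) (Ψ x)) :
    IsIntegral ↥(Algebra.adjoin K ({u} : Set F)) x := by
  obtain ⟨G', hG'm, hG'r⟩ := h
  let φ : ↥(Algebra.adjoin K ({u} : Set F)) →+* E :=
    (Ψ : F →+* E).comp (algebraMap ↥(Algebra.adjoin K ({u} : Set F)) F)
  have hle : Algebra.adjoin K ({Ψ u} : Set E) ≤ (Algebra.adjoin K ({u} : Set F)).map Ψ := by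
    refine Algebra.adjoin_le ?_
    rintro y hy
    rw [Set.mem_singleton_iff] at hy
    subst hy
    exact ⟨u, Algebra.subset_adjoin (Set.mem_singleton u), rfl⟩
  have hl : G'.map (algebraMap (Algebra.adjoin K ({Ψ u} : Set E)) E) ∈ Polynomial.lifts φ := by
    rw [Polynomial.lifts_iff_coeff_lifts]
    intro n
    rw [Polynomial.coeff_map]
    obtain ⟨y, hy, hye⟩ := hle (G'.coeff n).2
    exact ⟨⟨y, hy⟩, hye⟩
  obtain ⟨G, hGmap, -, hGm⟩ := Polynomial.lifts_and_natDegree_eq_and_monic hl (hG'm.map _)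
  refine ⟨G, hGm, ?_⟩
  apply Ψ.injective
  rw [map_zero]
  have h1 := Polynomial.hom_eval₂ G (algebraMap ↥(Algebra.adjoin K ({u} : Set F)) F)
    (Ψ : F →+* E) x
  have h2 : Polynomial.eval₂ φ (Ψ x) G
      = Polynomial.eval₂ (algebraMap (Algebra.adjoin K ({Ψ u} : Set E)) E) (Ψ x) G' := by
    rw [← Polynomial.eval_map, hGmap, Polynomial.eval_map]
  have h3 : (Ψ : F →+* E) (Polynomial.eval₂
      (algebraMap ↥(Algebra.adjoin K ({u} : Set F)) F) x G) = 0 := by
    rw [h1]
    exact h2.trans hG'r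
  exact h3

end Pull

section Family

variable {N : ℕ} [NeZero N]

/-- **Integrality over `ℚ̄[1/j]` from a family of conjugates with bounded poles.** -/
theorem isIntegral_of_family (y : Q N → LaurentSeries ℂ)
    (hsym : ∀ c₀ : ℂ, (∏ q : Q N, (HahnSeries.C c₀ - y q)) ∈
      Algebra.adjoin ℂ ({iotaN N jq} : Set (LaurentSeries ℂ)))
    (hco : ∀ q n, (y q).coeff n ∈ coeffRing N)
    (K₀ : ℕ) (hord : ∀ q (n : ℤ), n < -((K₀ : ℤ) * (N : ℤ)) → (y q).coeff n = 0)
    (x : FN N) (c₁ : Kbar)
    (hx : coeffMap iotaC (psi N x) = HahnSeries.C (iotaC c₁) * y (q1 : Q N)) :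
    IsIntegral ↥(Algebra.adjoin Kbar ({(_root_.Fermat.Agent.S24.jF N)⁻¹} : Set (FN N))) (x * (_root_.Fermat.Agent.S24.jF N)⁻¹ ^ K₀) := by
  classical
  have hex : ∀ q, ∃ g : LaurentSeries Kbar, coeffMap iotaC g = y q := fun q =>
    exists_coeffMap_eq iotaC fun n => mem_range_of_mem_coeffRing iotaC N (hco q n)
  choose g hg using hex
  -- the symmetric functions over `ℚ̄`
  have hsymK : ∀ c : Kbar, (∏ q : Q N, (algebraMap Kbar (LaurentSeries Kbar) c - g q)) ∈
      Algebra.adjoin Kbar ({JL Kbar N} : Set (LaurentSeries Kbar)) := by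
    intro c
    refine mem_adjoin_of_coeffMap_mem iotaC _ _ ?_
    have hJ : coeffMap iotaC (JL Kbar N) = iotaN N jq := coeffMap_qExpand_jqModC_one iotaC N
    rw [hJ, map_prod]
    have := hsym (iotaC c)
    convert this using 2
    rename_i q _
    rw [map_sub, LaurentSeries.algebraMap_apply, coeffMap_C, hg]
  -- the valuations
  have hJord : (JL Kbar N).order < 0 := by
    rw [Fermat.Agent.RED.H73.JL_order]
    have : (0 : ℤ) < N := by exact_mod_cast Nat.pos_of_ne_zero (NeZero.ne N)
    omega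
  have hJ1 := Fermat.Agent.S28.H90.one_lt_tVal_of_order_neg hJord
  have hJne : JL Kbar N ≠ 0 := by
    rintro h
    rw [h] at hJord
    simp at hJord
  have hJv : Fermat.Agent.S28.H90.tVal Kbar (JL Kbar N) = WithZero.exp (N : ℤ) := by
    rw [Fermat.Agent.S28.H90.tVal_eq_exp_neg_order hJne, Fermat.Agent.RED.H73.JL_order, neg_neg]
  have hval : ∀ q, Fermat.Agent.S28.H90.tVal Kbar (g q)
      ≤ Fermat.Agent.S28.H90.tVal Kbar (JL Kbar N) ^ K₀ := by
    intro q
    rw [hJv, ← WithZero.exp_nsmul, nsmul_eq_mul]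
    have e : ((K₀ : ℤ) * (N : ℤ)) = -(-((K₀ : ℤ) * (N : ℤ))) := by ring
    rw [e]
    refine (LaurentSeries.valuation_le_iff_coeff_lt_eq_zero Kbar).2 fun n hn => ?_
    apply iotaC.injective
    rw [← coeffMap_coeff, hg, map_zero]
    exact hord q n hn
  have hint := isIntegral_mul_inv_pow (k := Kbar) (E := LaurentSeries Kbar)
    (Fermat.Agent.S28.H90.tVal Kbar)
    (fun c hc => Fermat.Agent.S28.H90.tVal_algebraMap hc) hJ1 g hsymK K₀ hval (q1 : Q N)
  -- the element `x`
  have hpsi : psi N x = algebraMap Kbar (LaurentSeries Kbar) c₁ * g (q1 : Q N) := by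
    apply coeffMap_injective iotaC
    rw [hx, map_mul, LaurentSeries.algebraMap_apply, coeffMap_C, hg]
  refine isIntegral_of_algHom (psi N) _ _ ?_
  rw [map_mul, map_pow, map_inv₀, psi_jF, hpsi, mul_assoc]
  refine IsIntegral.mul ?_ hint
  have : algebraMap Kbar (LaurentSeries Kbar) c₁
      = algebraMap ↥(Algebra.adjoin Kbar ({(JL Kbar N)⁻¹} : Set (LaurentSeries Kbar)))
          (LaurentSeries Kbar) (algebraMap Kbar _ c₁) := rfl
  rw [this]
  exact isIntegral_algebraMap

end Family

end Fermat.Agent.S36.NU.H82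

end
end
-- ==== END Fermat.Agent.S36.NU.H82_CuspFam

-- ==== BEGIN Fermat.Agent.S36.NU.H82_D2
section
attribute [local instance 10000] SubalgebraClass.toAlgebra
attribute [local instance 10000] HahnSeries.powerSeriesAlgebra

/-!
# S36, NU-B (helper82): the residue field of the Gauss valuation of `F_{M qⁿ} · Q̄` at `q ∤ M`

`N = M qⁿ`, `q ∤ M` prime, `A` a valuation ring of `Q̄` over `q`, `k` its residue field.

* `redField_eq_of_invol` (abstract): `F ⊆ F'` fields of Laurent series with the scaling property,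
  `w` an involution of `F'` which is the substitution `t ↦ t ^ Q` on `F`; if the residue field of
  `F` is stable under `t ↦ t ^ Q` and contains a series with a simple pole, and
  `[F' : F] < 2 Q`, then `F'` and `F` have the same residue field.
* `relfinrank_level_pow` : `[F_{M qⁿ} · Q̄ : F_M · Q̄] = qⁿ + qⁿ⁻¹` (`n ≥ 1`).
* `wQ_eq_Fr` : `W_Q` is the substitution `t ↦ t ^ Q` on `F_M`.
* `redField_level_pow` : the residue field of the Gauss valuation of `F_{M qⁿ} · Q̄` is
  `k(j~(t^d) : d ∣ M)`, the function field of `X₀(M)` in characteristic `q`.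
-/

set_option autoImplicit false
set_option synthInstance.maxHeartbeats 400000
set_option maxHeartbeats 1000000

noncomputable section

open ModularCurve Fermat.Agent.S24 Fermat.Agent.S28 Fermat.Agent.S28.H73 Fermat.Agent.RED.H73
open Fermat.Agent.BAD.H88 Fermat.Agent.BAD.H82 Fermat.Agent.S36.NU.H88

namespace Fermat.Agent.S36.NU.H82

/-! ## Series: independence of `J ^ i θ ^ ε` -/

section Series

variable {k : Type} [Field k] (Q : ℕ) [NeZero Q]

/-- If `κ ⊆ E ∩ k((t ^ Q))`, `J ∈ E` has a simple pole and `θ ∉ E`, then the `2 Q` elements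
`J ^ i θ ^ ε` (`i < Q`, `ε < 2`) are linearly independent over `κ`. -/
theorem linearIndependent_pow_mul_gen (κ E : Subfield (LaurentSeries k)) (hκE : κ ≤ E)
    (hκF : κ ≤ FrRange k Q) (J : LaurentSeries k) (hJo : J.order = -1) (hj : J ∈ E)
    {θ : LaurentSeries k} (hθ : θ ∉ E) :
    LinearIndependent κ (fun p : Fin Q × Fin 2 => J ^ (p.1 : ℕ) * θ ^ (p.2 : ℕ)) := by
  rw [Fintype.linearIndependent_iff]
  intro g hg
  set S : Fin 2 → LaurentSeries k := fun ε => ∑ i : Fin Q, (g (i, ε) : LaurentSeries k)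
    * J ^ (i : ℕ) with hS
  have hSE : ∀ ε, S ε ∈ E := fun ε =>
    E.sum_mem fun i _ => E.mul_mem (hκE (g (i, ε)).2) (E.pow_mem hj _)
  have hrel : S 0 + S 1 * θ = 0 := by
    have h1 : ∑ p : Fin Q × Fin 2, g p • (J ^ (p.1 : ℕ) * θ ^ (p.2 : ℕ))
        = ∑ i : Fin Q, ∑ ε : Fin 2,
          (g (i, ε) : LaurentSeries k) * (J ^ (i : ℕ) * θ ^ (ε : ℕ)) := by
      rw [Fintype.sum_prod_type]
      rfl
    rw [h1] at hg
    rw [← hg, hS]
    simp only [Fin.sum_univ_two, Fin.val_zero, Fin.val_one, pow_zero, pow_one, mul_one]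
    rw [Finset.sum_add_distrib, Finset.sum_mul]
    congr 1
    refine Finset.sum_congr rfl fun i _ => ?_
    ring
  have hS1 : S 1 = 0 := by
    by_contra h1
    apply hθ
    have h2 : θ = -(S 0) / S 1 := by
      rw [eq_div_iff h1]
      linear_combination hrel
    rw [h2]
    exact E.div_mem (E.neg_mem (hSE 0)) (hSE 1)
  have hS0 : S 0 = 0 := by
    rw [hS1, zero_mul, add_zero] at hrel
    exact hrel
  have key : ∀ ε, S ε = 0 → ∀ i, g (i, ε) = 0 := by
    intro ε h0 i
    have hc : ∀ i : Fin Q, ∃ c : LaurentSeries k, qExpand k Q c = (g (i, ε) : LaurentSeries k) :=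
      fun i => (mem_FrRange_iff k Q _).1 (hκF (g (i, ε)).2)
    choose c hc using hc
    have hsum : ∑ i, qExpand k Q (c i) * J ^ (i : ℕ) = 0 := by
      rw [← h0, hS]
      exact Finset.sum_congr rfl fun i _ => by rw [hc i]
    have h1 := Fermat.Agent.BAD.H73.pow_indep_qExpand Q J hJo c hsum i
    apply Subtype.ext
    rw [← hc i, h1, map_zero]
    rfl
  rintro ⟨i, ε⟩
  fin_cases ε
  · exact key 0 hS0 i
  · exact key 1 hS1 i

end Series

/-! ## The abstract statement -/

section AbstractD2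

variable {C : Type} [Field C] (O : ValuationSubring C)
variable (F F' : IntermediateField C (LaurentSeries C)) (hle : F ≤ F')
variable (h : HasScale O F) (h' : HasScale O F')
variable (Q : ℕ) [NeZero Q]
variable (w : ↥F' ≃ₐ[C] ↥F')

include hle in
/-- **(D), abstract form with an involution.** -/
theorem redField_eq_of_invol
    (hww : ∀ x, w (w x) = x)
    (hwF : ∀ x : ↥F', (x : LaurentSeries C) ∈ F →
      ((w x : ↥F') : LaurentSeries C) = qExpand C Q (x : LaurentSeries C))
    (hdeg0 : F.relfinrank F' ≠ 0) (hdeg : F.relfinrank F' < 2 * Q)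
    (hFr : ∀ x ∈ redField O F h, qExpand (kV O) Q x ∈ redField O F h)
    (J : LaurentSeries (kV O)) (hJ : J ∈ redField O F h) (hJo : J.order = -1) :
    redField O F' h' = redField O F h := by
  have hle₁ : redField O F h ≤ redField O F' h' := Fermat.Agent.BAD.H73.redField_mono O hle h h'
  refine le_antisymm ?_ hle₁
  intro θ hθ
  by_contra hθE
  obtain ⟨bV, hb⟩ := hθ
  obtain ⟨jx, hjx⟩ := hJ
  -- `J` lifted to the Gauss ring of `F'`
  set jV : ↥(gaussValSub O F' h') :=
    ⟨⟨((jx : ↥F) : LaurentSeries C), hle (jx : ↥F).2⟩, jx.2⟩ with hjV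
  have hjres : gaussResF O h' jV = J := by
    rw [← hjx]
    rfl
  -- the second valuation ring and its reduction
  set V₂ : ValuationSubring ↥F' := comapV (gaussValSub O F' h') w with hV₂
  set red₂ : ↥V₂ →+* LaurentSeries (kV O) :=
    (gaussResF O h').comp (comapRestrict (gaussValSub O F' h') w) with hred₂
  set kapE : Subfield (LaurentSeries (kV O)) :=
    (redField O F h).toSubfield.map (qExpand (kV O) Q) with hkapE
  set subF : Subfield ↥F' :=
    F.toSubfield.comap ((F'.val : ↥F' →ₐ[C] LaurentSeries C) : ↥F' →+* LaurentSeries C) with hsubF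
  -- reductions of elements of `F` at `V₂`
  have hE : ∀ (α : ↥F') (_ : α ∈ subF) (hV : α ∈ V₂), red₂ ⟨α, hV⟩ ∈ kapE := by
    intro α hα hV
    have hαF : (α : LaurentSeries C) ∈ F := hα
    by_cases hα0 : α = 0
    · have e : (⟨α, hV⟩ : ↥V₂) = 0 := Subtype.ext hα0
      rw [e, map_zero]
      exact kapE.zero_mem
    have hα0' : (α : LaurentSeries C) ≠ 0 := fun h0 => hα0 (Subtype.ext h0)
    have hwα := hwF α hαF
    have hV' : ((w α : ↥F') : LaurentSeries C) ∈ gaussRingV O := hV
    have hFrm : qExpand C Q (α : LaurentSeries C) ∈ gaussRingV O := hwα ▸ hV'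
    have hsc := h (α : LaurentSeries C) hαF hα0'
    have hxG : (α : LaurentSeries C) ∈ gaussRingV O := mem_gaussRingV_of_Fr_mem O Q hsc hFrm
    have e1 : red₂ ⟨α, hV⟩
        = qExpand (kV O) Q (gaussRedV O ⟨(α : LaurentSeries C), hxG⟩) := by
      have e0 : red₂ ⟨α, hV⟩ = gaussRedV O ⟨((w α : ↥F') : LaurentSeries C), hV'⟩ := rfl
      have e : (⟨((w α : ↥F') : LaurentSeries C), hV'⟩ : gaussRingV O)
          = ⟨qExpand C Q (α : LaurentSeries C), hFrm⟩ := Subtype.ext hwα
      rw [e0, e, gaussRedV_Fr O Q hxG hFrm]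
    rw [e1]
    refine ⟨gaussRedV O ⟨(α : LaurentSeries C), hxG⟩, ?_, rfl⟩
    exact ⟨⟨⟨(α : LaurentSeries C), hαF⟩, hxG⟩, rfl⟩
  -- the family
  set y : Fin Q × Fin 2 → ↥(gaussValSub O F' h') :=
    fun p => jV ^ (p.1 : ℕ) * bV ^ (p.2 : ℕ) with hy
  have hyres : ∀ p, gaussResF O h' (y p) = J ^ (p.1 : ℕ) * θ ^ (p.2 : ℕ) := by
    intro p
    rw [hy]
    simp only [map_mul, map_pow, hjres, hb]
  have hum : ∀ p, w ((y p : ↥(gaussValSub O F' h')) : ↥F') ∈ V₂ := by
    intro p
    show w (w ((y p : ↥(gaussValSub O F' h')) : ↥F')) ∈ gaussValSub O F' h'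
    rw [hww]
    exact (y p).2
  set u : Fin Q × Fin 2 → ↥V₂ := fun p => ⟨_, hum p⟩ with hu
  have hures : ∀ p, red₂ (u p) = J ^ (p.1 : ℕ) * θ ^ (p.2 : ℕ) := by
    intro p
    rw [← hyres p]
    show gaussResF O h' (comapRestrict (gaussValSub O F' h') w (u p)) = _
    congr 1
    apply Subtype.ext
    exact hww _
  -- linear independence of the reductions
  have hκE : kapE ≤ (redField O F h).toSubfield := by
    rintro _ ⟨x, hx, rfl⟩
    exact hFr x hx
  have hκF : kapE ≤ FrRange (kV O) Q := by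
    rintro _ ⟨x, -, rfl⟩
    exact (mem_FrRange_iff (kV O) Q _).2 ⟨x, rfl⟩
  have hJE : J ∈ (redField O F h).toSubfield := ⟨jx, hjx⟩
  have hli0 := linearIndependent_pow_mul_gen Q kapE (redField O F h).toSubfield hκE hκF J hJo hJE
    (θ := θ) hθE
  have hli1 : LinearIndependent kapE (fun p => red₂ (u p)) := by
    have e : (fun p => red₂ (u p))
        = fun p : Fin Q × Fin 2 => J ^ (p.1 : ℕ) * θ ^ (p.2 : ℕ) := funext hures
    rw [e]
    exact hli0
  have hli2 := linearIndependent_of_red subF V₂ red₂ kapE hE u hli1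
  rw [Fintype.linearIndependent_iff] at hli2
  -- counting
  have hcard := card_le_relfinrank F F' hle hdeg0
    (fun p => (((u p : ↥V₂) : ↥F') : LaurentSeries C))
    (fun p => ((u p : ↥V₂) : ↥F').2)
    (by
      intro g hg hsum p
      have h1 := hli2 (fun p => (⟨⟨g p, hle (hg p)⟩, hg p⟩ : ↥subF))
        (Subtype.ext (by
          have h2 : ((∑ p, (⟨⟨g p, hle (hg p)⟩, hg p⟩ : ↥subF)
              • ((u p : ↥V₂) : ↥F') : ↥F') : LaurentSeries C)
              = ∑ p, g p * (((u p : ↥V₂) : ↥F') : LaurentSeries C) := by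
            rw [← IntermediateField.coe_val, map_sum]
            exact Finset.sum_congr rfl (fun p _ => rfl)
          rw [h2, hsum]
          rfl)) p
      exact congrArg (fun z : ↥subF => ((z : ↥F') : LaurentSeries C)) h1)
  rw [Fintype.card_prod, Fintype.card_fin, Fintype.card_fin] at hcard
  omega

end AbstractD2

/-! ## The tower `F_M ⊆ F_N`, `M ∣ N` -/

section Tower

variable (N M : ℕ) [NeZero N] (hMN : M ∣ N)

include hMN in
theorem neZero_of_dvd_level : NeZero M :=
  ⟨fun h => NeZero.ne N (by rw [h] at hMN; exact Nat.eq_zero_of_zero_dvd hMN)⟩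

include hMN in
/-- `F_M · Q̄ ⊆ F_N · Q̄` for `M ∣ N`. -/
theorem FM_le_of_dvd : modularFunctionFieldBar M ≤ modularFunctionFieldBar N := by
  have : NeZero M := neZero_of_dvd_level N M hMN
  show laurentBaseChange Kbar (modularFunctionFieldFull M)
    ≤ laurentBaseChange Kbar (modularFunctionFieldFull N)
  rw [laurentBaseChange_full_eq, laurentBaseChange_full_eq]
  exact full_degeneracyC_le Kbar hMN

/-- The inclusion `F_M → F_N`. -/
def inclMN : FN M →ₐ[Kbar] FN N := IntermediateField.inclusion (FM_le_of_dvd N M hMN)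

theorem coe_inclMN (x : FN M) : ((inclMN N M hMN x : FN N) : LaurentSeries Kbar) = x :=
  IntermediateField.coe_inclusion (FM_le_of_dvd N M hMN) x

theorem inclMN_jdF [NeZero M] (d : ℕ) [NeZero d] (hd : d ∣ M) :
    inclMN N M hMN (jdF M d hd) = jdF N d (hd.trans hMN) := by
  apply Subtype.ext
  rw [coe_inclMN, _root_.Fermat.Agent.BAD.H82.coe_jdF, _root_.Fermat.Agent.BAD.H82.coe_jdF]

end Tower

/-! ## `W_Q` on `F_M` -/

section WQ

variable (N Q M : ℕ) (a b : ℤ) (hN : N = M * Q) (hab : a * Q + b * M = 1) [NeZero N]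

/-- **`W_Q` is the substitution `t ↦ t ^ Q` on `F_M`.** -/
theorem wQ_eq_Fr [NeZero M] [NeZero Q] (x : FN M) :
    ((wQ N Q M a b hN hab (inclMN N M (Dvd.intro Q hN.symm) x) : FN N) : LaurentSeries Kbar)
      = qExpand Kbar Q (x : LaurentSeries Kbar) := by
  have hMN : M ∣ N := Dvd.intro Q hN.symm
  let f₁ : FN M →+* LaurentSeries Kbar :=
    ((modularFunctionFieldBar N).val : FN N →+* LaurentSeries Kbar).comp
      (((wQ N Q M a b hN hab : FN N ≃ₐ[Kbar] FN N) : FN N →+* FN N).comp
        ((inclMN N M hMN : FN M →ₐ[Kbar] FN N) : FN M →+* FN N))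
  let f₂ : FN M →+* LaurentSeries Kbar :=
    (qExpand Kbar Q).comp ((modularFunctionFieldBar M).val : FN M →+* LaurentSeries Kbar)
  have key : f₁ = f₂ := by
    apply ringHom_ext_jdF M
    · intro c
      show ((wQ N Q M a b hN hab (inclMN N M hMN (algebraMap Kbar (FN M) c)) : FN N) :
        LaurentSeries Kbar) = qExpand Kbar Q ((algebraMap Kbar (FN M) c : FN M) : LaurentSeries Kbar)
      rw [(inclMN N M hMN).commutes c, AlgEquiv.commutes]
      show algebraMap Kbar (LaurentSeries Kbar) c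
        = qExpandAlgHomC Kbar Q (algebraMap Kbar (LaurentSeries Kbar) c)
      rw [AlgHom.commutes]
    · intro d hd0 hd
      have : NeZero (d * Q) := ⟨Nat.mul_ne_zero (NeZero.ne d) (NeZero.ne Q)⟩
      have h2 : d * Q ∣ N := by
        rw [hN]
        exact Nat.mul_dvd_mul_right hd Q
      show ((wQ N Q M a b hN hab (inclMN N M hMN (jdF M d hd)) : FN N) : LaurentSeries Kbar)
        = qExpand Kbar Q ((jdF M d hd : FN M) : LaurentSeries Kbar)
      rw [inclMN_jdF, wQ_jdF' N Q M a b hN hab d (d * Q) d (M / d) 1 Q (mul_one d).symm rfl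
        (Nat.mul_div_cancel' hd).symm (one_mul Q).symm (hd.trans hMN) h2, _root_.Fermat.Agent.BAD.H82.coe_jdF, _root_.Fermat.Agent.BAD.H82.coe_jdF,
        qExpand_qExpand]
      exact ModularCurve.qExpand_congr (mul_comm d Q) _
  exact congrArg (fun f : FN M →+* LaurentSeries Kbar => f x) key

end WQ

/-! ## The degree -/

/-- `[F_{M qⁿ} · Q̄ : F_M · Q̄] = qⁿ + qⁿ⁻¹` for a prime `q ∤ M`, `n ≥ 1`. -/
theorem relfinrank_level_pow (q n M N : ℕ) [NeZero N] (hq : q.Prime) (hqM : ¬ q ∣ M)
    (hn : 0 < n) (hN : N = M * q ^ n) :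
    (modularFunctionFieldBar M).relfinrank (modularFunctionFieldBar N)
      = q ^ n + q ^ (n - 1) := by
  have hMN : M ∣ N := Dvd.intro _ hN.symm
  have : NeZero M := neZero_of_dvd_level N M hMN
  have h1 := relfinrank_bar M
  have h2 := relfinrank_bar N
  have hcop : Nat.Coprime M (q ^ n) :=
    (Nat.Coprime.pow_left n ((Nat.Prime.coprime_iff_not_dvd hq).mpr hqM)).symm
  have e : dedekindPsi N = dedekindPsi M * (q ^ n + q ^ (n - 1)) := by
    rw [hN, Fermat.Agent.S20.H19.dedekindPsi_mul hcop,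
      Fermat.Agent.S20.H19.dedekindPsi_prime_pow hq hn]
  rw [e] at h2
  have h3 := IntermediateField.relfinrank_mul_relfinrank (adjoin_j_le M) (FM_le_of_dvd N M hMN)
  rw [h1, h2] at h3
  exact Nat.eq_of_mul_eq_mul_left (Nat.pos_of_ne_zero (dedekindPsi_ne_zero' M)) h3

/-! ## Stability of `k(j~(t^d) : d ∣ M)` under `t ↦ t ^ (qⁿ)` -/

theorem Fr_pow_mem_fullC (k : Type*) [Field k] (q M : ℕ) [NeZero M] [Fact q.Prime] [CharP k q] :
    ∀ (n : ℕ) (_ : NeZero (q ^ n)) {x : LaurentSeries k},
      x ∈ modularFunctionFieldFullC k M → qExpand k (q ^ n) x ∈ modularFunctionFieldFullC k M := by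
  have hq : q.Prime := Fact.out
  have : NeZero q := ⟨hq.ne_zero⟩
  intro n
  induction n with
  | zero =>
    intro _ x hx
    have e : qExpand k (q ^ 0) x = x := by
      rw [ModularCurve.qExpand_congr (pow_zero q) x, qExpand_one_apply]
    rw [e]
    exact hx
  | succ n ih =>
    intro _ x hx
    have : NeZero (q ^ n) := ⟨pow_ne_zero n hq.ne_zero⟩
    have : NeZero (q * q ^ n) := ⟨Nat.mul_ne_zero hq.ne_zero (pow_ne_zero n hq.ne_zero)⟩
    have e : qExpand k (q ^ (n + 1)) x = qExpand k q (qExpand k (q ^ n) x) := by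
      rw [qExpand_qExpand]
      exact ModularCurve.qExpand_congr (pow_succ' q n) x
    rw [e]
    exact Fr_mem_fullC k q M (ih inferInstance hx)

/-! ## The residue field at level `M qⁿ` -/

/-- **(D) at level `M qⁿ`**: for a prime `q ∤ M` and a valuation ring `A` of `Q̄` over `q`, the
residue field of the Gauss valuation (`q`-expansion at `∞`) of `F_{M qⁿ} · Q̄` is
`k(j~(t^d) : d ∣ M)`, the function field of `X₀(M)` in characteristic `q`. -/
theorem redField_level_pow (q n M N : ℕ) [NeZero N] (hq : q.Prime) (hqM : ¬ q ∣ M)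
    (hN : N = M * q ^ n) (A : ValuationSubring Kbar) (hA : A.LiesOverPrime q) :
    redField A (modularFunctionFieldBar N) (hasScale_laurentBaseChange A N)
      = modularFunctionFieldFullC (kV A) M := by
  have hMN : M ∣ N := Dvd.intro _ hN.symm
  have hM0 : NeZero M := neZero_of_dvd_level N M hMN
  have hGA : redField A (modularFunctionFieldBar M) (hasScale_laurentBaseChange A M)
      = modularFunctionFieldFullC (kV A) M := stmt_GA M q hq hqM A hA
  rcases Nat.eq_zero_or_pos n with hn | hn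
  · have hNM : N = M := by rw [hN, hn, pow_zero, mul_one]
    subst hNM
    exact hGA
  · have hcop : IsCoprime ((q ^ n : ℕ) : ℤ) (M : ℤ) :=
      Nat.isCoprime_iff_coprime.mpr
        (Nat.Coprime.pow_left n ((Nat.Prime.coprime_iff_not_dvd hq).mpr hqM))
    obtain ⟨a, b, hab⟩ := hcop
    have hQ0 : NeZero (q ^ n) := ⟨pow_ne_zero n hq.ne_zero⟩
    have hFact : Fact q.Prime := ⟨hq⟩
    have hchar : CharP (kV A) q := charP_kV A hq hA
    have hdeg := relfinrank_level_pow q n M N hq hqM hn hN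
    have hlt : q ^ (n - 1) < q ^ n := Nat.pow_lt_pow_right hq.one_lt (by omega)
    have hwF : ∀ x : FN N, (x : LaurentSeries Kbar) ∈ modularFunctionFieldBar M →
        ((wQ N (q ^ n) M a b hN hab x : FN N) : LaurentSeries Kbar)
          = qExpand Kbar (q ^ n) (x : LaurentSeries Kbar) := by
      intro x hx
      have hx' : inclMN N M hMN ⟨(x : LaurentSeries Kbar), hx⟩ = x :=
        Subtype.ext ((coe_inclMN N M hMN _).trans (Subtype.coe_mk _ _))
      obtain ⟨x', rfl⟩ : ∃ x' : FN M, inclMN N M hMN x' = x := ⟨_, hx'⟩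
      rw [wQ_eq_Fr N (q ^ n) M a b hN hab x', coe_inclMN]
    have hJo : (jqModC (kV A)).order = -1 := by
      have h := JL_order (kV A) 1
      have e : JL (kV A) 1 = jqModC (kV A) := qExpand_one_apply _
      rw [e] at h
      rw [h]
      norm_num
    have key := redField_eq_of_invol A (modularFunctionFieldBar M) (modularFunctionFieldBar N)
      (FM_le_of_dvd N M hMN) (hasScale_laurentBaseChange A M) (hasScale_laurentBaseChange A N)
      (q ^ n) (wQ N (q ^ n) M a b hN hab) (wQ_wQ N (q ^ n) M a b hN hab) hwF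
      (by rw [hdeg]; exact (Nat.add_pos_left (pow_pos hq.pos n) _).ne')
      (by rw [hdeg]; omega)
      (by
        intro x hx
        rw [hGA] at hx ⊢
        exact Fr_pow_mem_fullC (kV A) q M n inferInstance hx)
      (jqModC (kV A))
      (by rw [hGA]; exact jqModC_mem_full (kV A) M)
      hJo
    rw [key]
    exact hGA

/-- **(D) in the shape of `Stmt_TorsNU`** (level `M q` with `M = M' q`, `q ∤ M'`): the residue
field of the Gauss valuation of `F_{M' q q} · Q̄` is the function field of `X₀(M')` in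
characteristic `q`. -/
theorem redField_NU (q M' : ℕ) [NeZero (M' * q * q)] (hq : q.Prime) (hqM : ¬ q ∣ M')
    (A : ValuationSubring Kbar) (hA : A.LiesOverPrime q) :
    redField A (modularFunctionFieldBar (M' * q * q)) (hasScale_laurentBaseChange A (M' * q * q))
      = modularFunctionFieldFullC (kV A) M' :=
  redField_level_pow q 2 M' (M' * q * q) hq hqM (by ring) A hA

/-- The residue fields of the Gauss valuations of levels `M' q q`, `M' q` and `M'` coincide. -/
theorem redField_NU_eq (q M' : ℕ) [NeZero (M' * q * q)] (hq : q.Prime) (hqM : ¬ q ∣ M')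
    (A : ValuationSubring Kbar) (hA : A.LiesOverPrime q) :
    redField A (modularFunctionFieldBar (M' * q * q)) (hasScale_laurentBaseChange A (M' * q * q))
      = redField A (modularFunctionFieldBar (M' * q)) (hasScale_laurentBaseChange A (M' * q)) := by
  have h0 : NeZero (M' * q) := neZero_of_mul_left q (M' * q)
  rw [redField_NU q M' hq hqM A hA]
  exact (redField_level_pow q 1 M' (M' * q) hq hqM (by ring) A hA).symm

/-- `[F_{M' q q} · Q̄ : F_{M'} · Q̄] = q² + q`. -/
theorem relfinrank_NU (q M' : ℕ) [NeZero (M' * q * q)] (hq : q.Prime) (hqM : ¬ q ∣ M') :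
    (modularFunctionFieldBar M').relfinrank (modularFunctionFieldBar (M' * q * q))
      = q ^ 2 + q := by
  have h := relfinrank_level_pow q 2 M' (M' * q * q) hq hqM (by omega) (by ring)
  simpa using h

/-- `[F_{M' q q} · Q̄ : F_{M' q} · Q̄] = q`: the degree of the degeneracy maps at `q ∥ M`. -/
theorem relfinrank_NU_top (q M' : ℕ) [NeZero (M' * q * q)] (hq : q.Prime) :
    (modularFunctionFieldBar (M' * q)).relfinrank (modularFunctionFieldBar (M' * q * q)) = q :=
  relfinrank_FM_FN_of_dvd q (M' * q) hq (Dvd.intro_left M' rfl)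

end Fermat.Agent.S36.NU.H82

end
end
-- ==== END Fermat.Agent.S36.NU.H82_D2

-- ==== BEGIN Fermat.Agent.S36.NU.H88_ChartAlg
section

/-!
# S36, NU-B, (M1) CHART-MOD (helper88): the inertia-fixed functions as a function field over `K^ur`

`A` a valuation ring of `ℚ̄`, `K = Kur A` (helper41), `R = Rur A`, `L₀ = L0 A N` (helper23).
* `constKur : K →+* L₀`, the instances `Algebra K L₀`, `Algebra R L₀` and the scalar towers;
* `j0 A N : L₀` (`= j`), `transcendental_j0`;
* `arith_mem_adjoin` : the Galois action on coefficients preserves `ℚ̄(j)`;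
* `fixed_mem_adjoin_j0` : an inertia-fixed element of `ℚ̄(j)` lies in `K(j)`;
* `finiteDimensional_L0` : `L₀` is finite over `K(j)`.
-/

set_option autoImplicit false
set_option synthInstance.maxHeartbeats 400000
set_option maxHeartbeats 1000000
set_option linter.unusedSectionVars false
set_option linter.style.haveILetI false

noncomputable section

open IntermediateField ModularCurve

namespace Fermat.Agent.S36.NU.H88

open Fermat.Agent.S24 Fermat.Agent.S36.NU.H23 Fermat.Agent.S36.NU.H41 Fermat.Agent.BAD.H88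

section Alg

variable (A : ValuationSubring Kbar) (N : ℕ) [NeZero N]

/-- The constants `K^ur → L₀`. -/
def constKur : ↥(Kur A) →+* ↥(L0 A N) :=
  ((algebraMap Kbar (FN N)).comp (algebraMap ↥(Kur A) Kbar)).codRestrict (L0 A N)
    (fun c => (const_mem_L0_iff A (c : Kbar)).mpr (mem_Kur.1 c.2))

theorem coe_constKur (c : ↥(Kur A)) :
    ((constKur A N c : ↥(L0 A N)) : FN N) = algebraMap Kbar (FN N) (c : Kbar) := rfl

instance algKurL0 : Algebra ↥(Kur A) ↥(L0 A N) := (constKur A N).toAlgebra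

instance algRurL0 : Algebra ↥(Rur A) ↥(L0 A N) :=
  ((constKur A N).comp (algebraMap ↥(Rur A) ↥(Kur A))).toAlgebra

instance towerRurKurL0 : IsScalarTower ↥(Rur A) ↥(Kur A) ↥(L0 A N) :=
  IsScalarTower.of_algebraMap_eq fun _ => rfl

instance towerKurL0FN : IsScalarTower ↥(Kur A) ↥(L0 A N) (FN N) :=
  IsScalarTower.of_algebraMap_eq fun _ => rfl

theorem algebraMap_Kur_L0 (c : ↥(Kur A)) :
    ((algebraMap ↥(Kur A) ↥(L0 A N) c : ↥(L0 A N)) : FN N)
      = algebraMap Kbar (FN N) (c : Kbar) := rfl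

theorem algebraMap_Rur_L0 (r : ↥(Rur A)) :
    ((algebraMap ↥(Rur A) ↥(L0 A N) r : ↥(L0 A N)) : FN N)
      = algebraMap Kbar (FN N) (((r : ↥(Kur A)) : Kbar)) := rfl

/-- `j (q^1) = j`. -/
theorem jdF_one_eq_jF : jdF N 1 (one_dvd N) = jF N := by
  apply Subtype.ext
  show coeffEmb Kbar (qExpand ℚ 1 jq) = coeffEmb Kbar jq
  rw [qExpand_one_apply]

theorem jF_mem_L0 : jF N ∈ L0 A N := by
  rw [← jdF_one_eq_jF]
  exact jdF_mem_L0 A N 1 (one_dvd N)

/-- `j` as an inertia-fixed function. -/
def j0 : ↥(L0 A N) := ⟨jF N, jF_mem_L0 A N⟩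

theorem coe_j0 : ((j0 A N : ↥(L0 A N)) : FN N) = jF N := rfl

theorem coe_j0' : ((j0 A N : ↥(L0 A N)) : FN N) = jdF N 1 (one_dvd N) :=
  (jdF_one_eq_jF N).symm

theorem transcendental_j0 : Transcendental ↥(Kur A) (j0 A N) := by
  intro halg
  have h1 : IsAlgebraic ↥(Kur A) (algebraMap ↥(L0 A N) (FN N) (j0 A N)) := halg.algebraMap
  have h2 : IsAlgebraic Kbar (jF N) :=
    h1.extendScalars (FaithfulSMul.algebraMap_injective ↥(Kur A) Kbar)
  exact jF_transcendental N h2

theorem j0_ne_zero : j0 A N ≠ 0 := by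
  intro h
  apply transcendental_j0 A N
  rw [h]
  exact isAlgebraic_zero

end Alg

/-! ### `L₀` is finite over `K^ur(j)` -/

section Fin

variable (A : ValuationSubring Kbar) (N : ℕ) [NeZero N]

theorem arith_jF (σ : Kbar ≃ₐ[ℚ] Kbar) :
    arithmeticRingAut (modularFunctionFieldFull N) σ (jF N) = jF N := by
  rw [← jdF_one_eq_jF]
  exact arith_jdF N 1 (one_dvd N) σ

/-- The Galois action on coefficients preserves `ℚ̄(j)`. -/
theorem arith_mem_adjoin (σ : Kbar ≃ₐ[ℚ] Kbar) (x : FN N) (hx : x ∈ Kbar⟮jF N⟯) :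
    arithmeticRingAut (modularFunctionFieldFull N) σ x ∈ Kbar⟮jF N⟯ := by
  let S : Subfield (FN N) := (Kbar⟮jF N⟯).toSubfield.comap
    (arithmeticRingAut (modularFunctionFieldFull N) σ).toRingHom
  have hc : ∀ c : Kbar, algebraMap Kbar (FN N) c ∈ S := fun c => by
    show arithmeticRingAut (modularFunctionFieldFull N) σ (algebraMap Kbar (FN N) c)
      ∈ Kbar⟮jF N⟯
    rw [arithmeticRingAut_algebraMap]
    exact (Kbar⟮jF N⟯).algebraMap_mem _
  have hj : jF N ∈ S := by
    show arithmeticRingAut (modularFunctionFieldFull N) σ (jF N) ∈ Kbar⟮jF N⟯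
    rw [arith_jF]
    exact mem_adjoin_simple_self Kbar (jF N)
  have hle : Kbar⟮jF N⟯ ≤ S.toIntermediateField hc := by
    rw [adjoin_simple_le_iff]
    exact hj
  exact hle hx

/-- The restriction of the Galois action to `ℚ̄(j)`. -/
def arithAdj (σ : Kbar ≃ₐ[ℚ] Kbar) : ↥(Kbar⟮jF N⟯) →+* ↥(Kbar⟮jF N⟯) :=
  ((arithmeticRingAut (modularFunctionFieldFull N) σ).toRingHom.comp
    (algebraMap ↥(Kbar⟮jF N⟯) (FN N))).codRestrict (Kbar⟮jF N⟯)
    (fun x => arith_mem_adjoin N σ x x.2)

theorem coe_mem_adjoin (x : ↥(L0 A N)) (hx : x ∈ (↥(Kur A))⟮j0 A N⟯) :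
    (x : FN N) ∈ Kbar⟮jF N⟯ := by
  induction hx using IntermediateField.adjoin_induction with
  | mem z hz =>
    rw [Set.mem_singleton_iff.1 hz]
    exact mem_adjoin_simple_self Kbar (jF N)
  | algebraMap c => exact (Kbar⟮jF N⟯).algebraMap_mem _
  | add y z _ _ hy hz => exact add_mem hy hz
  | inv y _ hy => exact inv_mem hy
  | mul y z _ _ hy hz => exact mul_mem hy hz

/-- `K^ur(j) → ℚ̄(j)`. -/
def adjInc : ↥((↥(Kur A))⟮j0 A N⟯) →+* ↥(Kbar⟮jF N⟯) :=
  ((L0 A N).subtype.comp (algebraMap ↥((↥(Kur A))⟮j0 A N⟯) ↥(L0 A N))).codRestrict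
    (Kbar⟮jF N⟯) (fun x => coe_mem_adjoin A N x x.2)

/-- **An inertia-fixed element of `ℚ̄(j)` lies in `K^ur(j)`.** -/
theorem fixed_mem_adjoin_j0 (x : ↥(L0 A N)) (hx : (x : FN N) ∈ Kbar⟮jF N⟯) :
    x ∈ (↥(Kur A))⟮j0 A N⟯ := by
  refine mem_adjoin_simple_of_fixed (E := Kbar) (L := FN N) (E₀ := ↥(Kur A)) (L₀ := ↥(L0 A N))
    (G := ↥(A.inertiaSubgroupIn ℚ))
    (fun σ => ((σ : Kbar ≃ₐ[ℚ] Kbar) : Kbar →+* Kbar))
    (fun σ => (arithmeticRingAut (modularFunctionFieldFull N) (σ : Kbar ≃ₐ[ℚ] Kbar)).toRingHom)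
    (fun σ c => arithmeticRingAut_algebraMap _ _ c)
    (fun σ y => y.2 σ σ.2)
    (fun c hc => ⟨⟨c, mem_Kur.2 fun σ hσ => hc ⟨σ, hσ⟩⟩, rfl⟩)
    (j0 A N) (jF_transcendental N) x hx

/-- **`L₀` is finite over `K^ur(j)`.** -/
instance finiteDimensional_L0 : FiniteDimensional ↥((↥(Kur A))⟮j0 A N⟯) ↥(L0 A N) := by
  letI : Algebra ↥((↥(Kur A))⟮j0 A N⟯) ↥(Kbar⟮jF N⟯) := (adjInc A N).toAlgebra
  haveI : IsScalarTower ↥((↥(Kur A))⟮j0 A N⟯) ↥(Kbar⟮jF N⟯) (FN N) :=
    IsScalarTower.of_algebraMap_eq fun _ => rfl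
  haveI : Module.Finite ↥(Kbar⟮jF N⟯) (FN N) := asm_finiteDimensional (modClosure N)
  exact finite_of_fixed (E := ↥(Kbar⟮jF N⟯)) (L := FN N) (E₀ := ↥((↥(Kur A))⟮j0 A N⟯))
    (L₀ := ↥(L0 A N)) (G := ↥(A.inertiaSubgroupIn ℚ))
    (fun σ => arithAdj N (σ : Kbar ≃ₐ[ℚ] Kbar))
    (fun σ => (arithmeticRingAut (modularFunctionFieldFull N) (σ : Kbar ≃ₐ[ℚ] Kbar)).toRingHom)
    (fun σ x => rfl)
    (fun σ x => x.2 σ σ.2)
    (fun x hx => by
      have h1 : (x : FN N) ∈ L0 A N := fun σ hσ => congrArg Subtype.val (hx ⟨σ, hσ⟩)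
      have h2 := fixed_mem_adjoin_j0 A N ⟨(x : FN N), h1⟩ x.2
      exact ⟨⟨⟨(x : FN N), h1⟩, h2⟩, rfl⟩)

instance charZero_Kur : CharZero ↥(Kur A) := inferInstance

instance isSeparable_L0 : Algebra.IsSeparable ↥((↥(Kur A))⟮j0 A N⟯) ↥(L0 A N) :=
  Algebra.IsAlgebraic.isSeparable_of_perfectField

end Fin

end Fermat.Agent.S36.NU.H88

end
end
-- ==== END Fermat.Agent.S36.NU.H88_ChartAlg

-- ==== BEGIN Fermat.Agent.S36.NU.H88_MidExp
section

/-!
# S36, NU-B1 (helper88): the `q`-expansion `cMid` at the middle cusp and its image field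

`N = M q²`, `B M + k q = 1`, `z = ζ_q^B`.
* `cMid : F_N →ₐ[Q̄] Q̄((q))` with `cuspU N γ x = (cMid x)(u^N)`;
* `cMid_jdF1/2/3`: the values on the generators;
* `twist_mem_intSpan`: `twist z x ∈ IntSpan` for an integral series `x` and a root of unity `z`;
* `cMid_mem_adjoin_intSpan`, `hasScale_fieldRange_cMid`: the image has the scaling property.
-/

set_option autoImplicit false
set_option synthInstance.maxHeartbeats 400000
set_option maxHeartbeats 1000000
set_option linter.unusedSectionVars false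
set_option linter.style.haveILetI false

noncomputable section

namespace Fermat.Agent.S36.NU.H88

open Fermat.Agent.S24 Fermat.Agent.BAD.H88 ModularCurve UpperHalfPlane
open Fermat.Agent.S28 Fermat.Agent.S28.H73 Fermat.Agent.RED.H73
open scoped MatrixGroups Manifold

/-! ## Generalities on series -/

theorem qExpand_jBar (d : ℕ) [NeZero d] :
    qExpand Kbar d jBar = coeffEmb Kbar (qExpand ℚ d jq) := by
  ext n
  by_cases hn : (d : ℤ) ∣ n
  · obtain ⟨m, rfl⟩ := hn
    rw [qExpand_coeff_mul, coeffEmb_coeff, qExpand_coeff_mul, jBar, coeffEmb_coeff]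
  · rw [qExpand_coeff_of_not_dvd _ _ hn, coeffEmb_coeff, qExpand_coeff_of_not_dvd _ _ hn,
      map_zero]

theorem qExpand_jBar_mem_intSeries (d : ℕ) [NeZero d] : qExpand Kbar d jBar ∈ intSeries Kbar := by
  rw [qExpand_jBar, coeffEmb_qExpand_jq]
  exact qExpand_jqModC_mem_intSeries d

/-- The part of an integral series with exponents `≡ r` modulo `q`. -/
def sectInt (q : ℕ) (r : ℤ) (m : LaurentSeries ℤ) : LaurentSeries ℤ :=
  HahnSeries.ofSuppBddBelow (fun n : ℤ => if n % (q : ℤ) = r then m.coeff n else 0) (by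
    refine ⟨m.order, fun n hn => ?_⟩
    by_contra h
    apply hn
    show (if n % (q : ℤ) = r then m.coeff n else 0) = 0
    rw [HahnSeries.coeff_eq_zero_of_lt_order (not_le.mp h), ite_self])

theorem sectInt_coeff (q : ℕ) (r : ℤ) (m : LaurentSeries ℤ) (n : ℤ) :
    (sectInt q r m).coeff n = if n % (q : ℤ) = r then m.coeff n else 0 := rfl

theorem zpow_emod {z : Kbar} {q : ℕ} (hz : z ^ q = 1) (n : ℤ) :
    z ^ n = z ^ (n % (q : ℤ)) := by
  by_cases hz0 : z = 0
  · rcases Nat.eq_zero_or_pos q with h | h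
    · subst h
      rw [Nat.cast_zero, Int.emod_zero]
    · exfalso
      rw [hz0, zero_pow h.ne'] at hz
      exact zero_ne_one hz
  conv_lhs => rw [← Int.emod_add_mul_ediv n (q : ℤ)]
  rw [zpow_add₀ hz0, zpow_mul, zpow_natCast, hz, one_zpow, mul_one]

/-- `twist z x = ∑_{r < q} z^r x_r` for `z^q = 1`. -/
theorem twist_eq_sum {z : Kbar} {q : ℕ} (hq : 0 < q) (hz : z ^ q = 1) (m : LaurentSeries ℤ) :
    twist z (coeffMap (Int.castRingHom Kbar) m)
      = ∑ r ∈ Finset.range q, HahnSeries.C (z ^ r) *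
          coeffMap (Int.castRingHom Kbar) (sectInt q (r : ℤ) m) := by
  ext n
  rw [twist_coeff, coeffMap_coeff]
  have hcoef : ∀ (S : Finset ℕ) (f : ℕ → LaurentSeries Kbar),
      (∑ r ∈ S, f r).coeff n = ∑ r ∈ S, (f r).coeff n := by
    intro S f
    induction S using Finset.induction_on with
    | empty => simp
    | insert a s ha ih => rw [Finset.sum_insert ha, Finset.sum_insert ha, HahnSeries.coeff_add, ih]
  rw [hcoef]
  have hq' : (0 : ℤ) < (q : ℤ) := by exact_mod_cast hq
  have h0 : 0 ≤ n % (q : ℤ) := Int.emod_nonneg n hq'.ne'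
  have h1 : n % (q : ℤ) < (q : ℤ) := Int.emod_lt_of_pos n hq'
  obtain ⟨r₀, hr₀⟩ := Int.eq_ofNat_of_zero_le h0
  have hr₀q : r₀ < q := by
    rw [hr₀] at h1
    exact_mod_cast h1
  rw [Finset.sum_eq_single r₀]
  · rw [HahnSeries.C_mul_eq_smul, HahnSeries.coeff_smul, coeffMap_coeff, sectInt_coeff,
      if_pos hr₀, smul_eq_mul, zpow_emod hz n, hr₀, zpow_natCast]
  · intro r _ hr
    rw [HahnSeries.C_mul_eq_smul, HahnSeries.coeff_smul, coeffMap_coeff, sectInt_coeff,
      if_neg, map_zero, smul_zero]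
    intro h
    apply hr
    rw [hr₀] at h
    exact_mod_cast h.symm
  · intro h
    exact absurd (Finset.mem_range.mpr hr₀q) h

/-- A twist of an integral series by a root of unity lies in `IntSpan`. -/
theorem twist_mem_intSpan {z : Kbar} {q : ℕ} (hq : 0 < q) (hz : z ^ q = 1)
    {x : LaurentSeries Kbar} (hx : x ∈ intSeries Kbar) : twist z x ∈ IntSpan Kbar := by
  obtain ⟨m, rfl⟩ := hx
  rw [twist_eq_sum hq hz m]
  refine Subalgebra.sum_mem _ fun r _ => ?_
  refine Subalgebra.mul_mem _ ?_ (coeffMap_int_mem_intSpan _)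
  have : (HahnSeries.C (z ^ r) : LaurentSeries Kbar) = algebraMap Kbar (LaurentSeries Kbar) (z ^ r) := by
    rw [algebraMap_laurentSeries_eq_single]
    rfl
  rw [this]
  exact Subalgebra.algebraMap_mem _ _

/-! ## The `q`-expansion at the middle cusp -/

section Mid

variable (N q M : ℕ) (B k : ℤ) (hN : N = M * (q * q)) (hB : B * M + k * q = 1) (hq : q.Prime)
  [NeZero N] [NeZero q]

include hN hB hq

/-- The `u`-expansions at the middle cusp are series in `u^N`. -/
theorem cuspU_mid_mem_range (x : FN N) :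
    cuspU N (gMid q M) x ∈ (qExpandAlgHomC Kbar N).range := by
  have hx : x ∈ IntermediateField.adjoin Kbar
      {x : FN N | ∃ (d : ℕ) (_ : NeZero d) (hd : d ∣ N), x = jdF N d hd} := by
    rw [adjoin_jdF]; exact IntermediateField.mem_top
  induction hx using IntermediateField.adjoin_induction with
  | mem y hy =>
    obtain ⟨D, hD0, hD, rfl⟩ := hy
    obtain ⟨d, d', hM, h | h | h⟩ := mid_dvd_cases N q M B k hN hB hq D hD
    · subst h
      exact ⟨_, (cuspU_mid1 N q M B k hN hB hq D d' hM hD).symm⟩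
    · subst h
      exact ⟨_, (cuspU_mid2 N q M B k hN hB hq d d' hM hD).symm⟩
    · subst h
      have hM0 := mid_M_pos N q M B k hN hB hq
      haveI : NeZero d := ⟨by rintro rfl; rw [zero_mul] at hM; omega⟩
      exact ⟨_, (cuspU_mid3 N q M B k hN hB hq d d' hM hD).symm⟩
  | algebraMap c =>
    rw [AlgHom.commutes]
    exact Subalgebra.algebraMap_mem _ c
  | add y z _ _ hy hz =>
    rw [map_add]; exact add_mem hy hz
  | inv y _ hy =>
    rw [map_inv₀]
    obtain ⟨t, ht⟩ := hy
    exact ⟨t⁻¹, by rw [map_inv₀]; exact congrArg _ ht⟩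
  | mul y z _ _ hy hz =>
    rw [map_mul]; exact mul_mem hy hz

omit hN hB hq in
theorem qExpandAlgHomC_injective : Function.Injective (qExpandAlgHomC Kbar N) :=
  qExpand_injective N

/-- **The `q`-expansion at the middle cusp `1/(q M)`.** -/
def cMid : FN N →ₐ[Kbar] LaurentSeries Kbar :=
  ((AlgEquiv.ofInjective (qExpandAlgHomC Kbar N) (qExpandAlgHomC_injective N)).symm.toAlgHom).comp
    ((cuspU N (gMid q M)).codRestrict (qExpandAlgHomC Kbar N).range
      (cuspU_mid_mem_range N q M B k hN hB hq))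

theorem qExpand_cMid (x : FN N) :
    qExpand Kbar N (cMid N q M B k hN hB hq x) = cuspU N (gMid q M) x := by
  have h := (AlgEquiv.ofInjective (qExpandAlgHomC Kbar N)
    (qExpandAlgHomC_injective N)).apply_symm_apply
    (((cuspU N (gMid q M)).codRestrict (qExpandAlgHomC Kbar N).range
      (cuspU_mid_mem_range N q M B k hN hB hq)) x)
  exact congrArg Subtype.val h

theorem cMid_injective : Function.Injective (cMid N q M B k hN hB hq) :=
  (cMid N q M B k hN hB hq).toRingHom.injective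

/-- `cMid (j (q^d)) = j (q^d)`. -/
theorem cMid_jdF1 (d d' : ℕ) (hM : M = d * d') [NeZero d] (hD : d ∣ N) :
    cMid N q M B k hN hB hq (jdF N d hD) = qExpand Kbar d jBar := by
  apply qExpand_injective N
  rw [qExpand_cMid, cuspU_mid1 N q M B k hN hB hq d d' hM hD]

/-- `cMid (j (q^(d q))) = j (q^(d q))`. -/
theorem cMid_jdF2 (d d' : ℕ) (hM : M = d * d') [NeZero (d * q)] (hD : d * q ∣ N) :
    cMid N q M B k hN hB hq (jdF N (d * q) hD) = qExpand Kbar (d * q) jBar := by
  apply qExpand_injective N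
  rw [qExpand_cMid, cuspU_mid2 N q M B k hN hB hq d d' hM hD]

/-- `cMid (j (q^(d q²))) = j ((z q)^d)`, `z = ζ_q^B`. -/
theorem cMid_jdF3 (d d' : ℕ) (hM : M = d * d') [NeZero d] [NeZero (d * (q * q))]
    (hD : d * (q * q) ∣ N) :
    cMid N q M B k hN hB hq (jdF N (d * (q * q)) hD)
      = twist (zetaK q ^ B) (qExpand Kbar d jBar) := by
  apply qExpand_injective N
  rw [qExpand_cMid, cuspU_mid3 N q M B k hN hB hq d d' hM hD]

omit hN hB hq in
theorem zMid_pow : (zetaK q ^ B) ^ q = 1 := by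
  rw [← zpow_natCast, ← zpow_mul, mul_comm, zpow_mul, zpow_natCast,
    (isPrimitiveRoot_zetaK q).pow_eq_one, one_zpow]

/-- The values of `cMid` lie in the field generated by `IntSpan`. -/
theorem cMid_mem_adjoin_intSpan (x : FN N) :
    cMid N q M B k hN hB hq x ∈
      IntermediateField.adjoin Kbar (IntSpan Kbar : Set (LaurentSeries Kbar)) := by
  have hx : x ∈ IntermediateField.adjoin Kbar
      {x : FN N | ∃ (d : ℕ) (_ : NeZero d) (hd : d ∣ N), x = jdF N d hd} := by
    rw [adjoin_jdF]; exact IntermediateField.mem_top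
  induction hx using IntermediateField.adjoin_induction with
  | mem y hy =>
    obtain ⟨D, hD0, hD, rfl⟩ := hy
    apply IntermediateField.subset_adjoin
    obtain ⟨d, d', hM, h | h | h⟩ := mid_dvd_cases N q M B k hN hB hq D hD
    · subst h
      rw [cMid_jdF1 N q M B k hN hB hq D d' hM hD]
      exact intSeries_le_intSpan (qExpand_jBar_mem_intSeries D)
    · subst h
      rw [cMid_jdF2 N q M B k hN hB hq d d' hM hD]
      exact intSeries_le_intSpan (qExpand_jBar_mem_intSeries (d * q))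
    · subst h
      have hM0 := mid_M_pos N q M B k hN hB hq
      haveI : NeZero d := ⟨by rintro rfl; rw [zero_mul] at hM; omega⟩
      rw [cMid_jdF3 N q M B k hN hB hq d d' hM hD]
      exact twist_mem_intSpan hq.pos (zMid_pow q B) (qExpand_jBar_mem_intSeries d)
  | algebraMap c =>
    rw [AlgHom.commutes]
    exact IntermediateField.algebraMap_mem _ c
  | add y z _ _ hy hz =>
    rw [map_add]; exact add_mem hy hz
  | inv y _ hy =>
    rw [map_inv₀]; exact inv_mem hy
  | mul y z _ _ hy hz =>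
    rw [map_mul]; exact mul_mem hy hz

/-- The image of `cMid` has the scaling property. -/
theorem hasScale_fieldRange_cMid (A : ValuationSubring Kbar) :
    HasScale A (cMid N q M B k hN hB hq).fieldRange := by
  refine HasScale.mono A (hasScale_adjoin A (le_refl _)) ?_
  rintro y ⟨x, rfl⟩
  exact cMid_mem_adjoin_intSpan N q M B k hN hB hq x

end Mid

end Fermat.Agent.S36.NU.H88

end
end
-- ==== END Fermat.Agent.S36.NU.H88_MidExp
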