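-- GENERATED (merged mirror, NOTES/tools/trim/merge3_helper67.py): 6 modules of the originals, bodies verbatim.
import Fermat.Prelude.Def_AlgebraicCurve_DivisorPushPull
import Fermat.Agent.Zm.S36_L03_001
import Fermat.Agent.Zm.S36_L01_001
import Fermat.Agent.Zm.S36_L03_000
import Fermat.Agent.Zm.S35_L05_001
import Fermat.Agent.Zm.S36_L03_002
import Fermat.Agent.Zm.S36_L02_003
import Fermat.Agent.Zm.S35_L02_003
import Fermat.Agent.Zm.S36_L01_000

-- ==== BEGIN Fermat.Agent.S36.NU.H24_NormalImg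
section

/-!
# S36 / NU-B, (M2) NORMAL-IMG, leaves (L2-iv) + (L2-v) (helper24)

Abstract form: `C` a chart with `B` integral over `R[j]`, `i` a component, `t ∈ κ i`
transcendental over `k` with `κ i / k(t)` finite separable.  `A = ` the integral closure of
`k[t]` in `κ i`.

* (L2-v) `isPrincipalIdealRing_adjoin`, `isDedekindDomain_intClosure`,
  `isFractionRing_intClosure`, `finiteType_intClosure` : `A` is a Dedekind domain with fraction
  field `κ i`, finitely generated over `k`.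
* (L2-iv) `rdB_mem_intClosure` : `rdB i (B) ⊆ A` if `rdB i j` is integral over `k[t]`;
  `branch_of_normal` : if moreover every element of `A` is the reduction of an element of `B`
  (the normal chart of the good level lifts to `B`: (L2-i) + (L2-ii) + (L2-iii)), then every
  closed point `𝔪 ⊇ Icomp i` has a `Branch`.
-/

set_option autoImplicit false
set_option linter.style.haveILetI false

noncomputable section

namespace Fermat.Agent.S36.NU.H24

open Fermat.Agent.S36.NU.H16 Fermat.Agent.S36.NU.H17 Fermat.Agent.S36.NU.H61 IntermediateField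
  Polynomial

section IntClosure

variable (k : Type*) {κ : Type*} [Field k] [Field κ] [Algebra k κ] (t : κ)

/-- `k[t]` is a principal ideal ring. -/
theorem isPrincipalIdealRing_adjoin : IsPrincipalIdealRing ↥(Algebra.adjoin k ({t} : Set κ)) := by
  let t' : ↥(Algebra.adjoin k ({t} : Set κ)) := ⟨t, Algebra.subset_adjoin rfl⟩
  refine IsPrincipalIdealRing.of_surjective (aeval t' : k[X] →ₐ[k] _).toRingHom ?_
  rintro ⟨y, hy⟩
  rw [Algebra.adjoin_singleton_eq_range_aeval] at hy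
  obtain ⟨p, rfl⟩ := hy
  refine ⟨p, Subtype.ext ?_⟩
  show ((aeval t' p : ↥(Algebra.adjoin k ({t} : Set κ))) : κ) = aeval t p
  rw [← Subalgebra.coe_val, ← Polynomial.aeval_algHom_apply]
  rfl

theorem isFractionRing_self : IsFractionRing k k :=
  IsLocalization.of_le_isUnit (fun _ hx => IsUnit.mk0 _ (nonZeroDivisors.ne_zero hx))

/-- **(L2-v)** the integral closure of `k[t]` in `κ` is a Dedekind domain. -/
theorem isDedekindDomain_intClosure [FiniteDimensional ↥k⟮t⟯ κ]
    [Algebra.IsSeparable ↥k⟮t⟯ κ] :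
    IsDedekindDomain ↥(integralClosure ↥(Algebra.adjoin k ({t} : Set κ)) κ) := by
  haveI := isPrincipalIdealRing_adjoin k t
  haveI := isFractionRing_self k
  letI : Algebra ↥(Algebra.adjoin k ({t} : Set κ)) ↥k⟮t⟯ := (toAdjoinField k k t).toAlgebra
  haveI := isFractionRing_adjoin k k t
  haveI : IsScalarTower ↥(Algebra.adjoin k ({t} : Set κ)) ↥k⟮t⟯ κ :=
    IsScalarTower.of_algebraMap_eq fun _ => rfl
  exact integralClosure.isDedekindDomain ↥(Algebra.adjoin k ({t} : Set κ)) ↥k⟮t⟯ κ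

/-- **(L2-v)** the fraction field of the integral closure of `k[t]` in `κ` is `κ`. -/
theorem isFractionRing_intClosure [FiniteDimensional ↥k⟮t⟯ κ] :
    IsFractionRing ↥(integralClosure ↥(Algebra.adjoin k ({t} : Set κ)) κ) κ := by
  haveI := isFractionRing_self k
  letI : Algebra ↥(Algebra.adjoin k ({t} : Set κ)) ↥k⟮t⟯ := (toAdjoinField k k t).toAlgebra
  haveI := isFractionRing_adjoin k k t
  haveI : IsScalarTower ↥(Algebra.adjoin k ({t} : Set κ)) ↥k⟮t⟯ κ :=
    IsScalarTower.of_algebraMap_eq fun _ => rfl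
  exact IsIntegralClosure.isFractionRing_of_finite_extension
    ↥(Algebra.adjoin k ({t} : Set κ)) ↥k⟮t⟯ κ _

/-- **(L2-v)** the integral closure of `k[t]` in `κ` is finitely generated over `k`. -/
theorem finiteType_intClosure [FiniteDimensional ↥k⟮t⟯ κ]
    [Algebra.IsSeparable ↥k⟮t⟯ κ] :
    Algebra.FiniteType k ↥(integralClosure ↥(Algebra.adjoin k ({t} : Set κ)) κ) := by
  haveI := isPrincipalIdealRing_adjoin k t
  haveI := isFractionRing_self k
  letI : Algebra ↥(Algebra.adjoin k ({t} : Set κ)) ↥k⟮t⟯ := (toAdjoinField k k t).toAlgebra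
  haveI := isFractionRing_adjoin k k t
  haveI : IsScalarTower ↥(Algebra.adjoin k ({t} : Set κ)) ↥k⟮t⟯ κ :=
    IsScalarTower.of_algebraMap_eq fun _ => rfl
  haveI : Module.Finite ↥(Algebra.adjoin k ({t} : Set κ))
      ↥(integralClosure ↥(Algebra.adjoin k ({t} : Set κ)) κ) :=
    IsIntegralClosure.finite ↥(Algebra.adjoin k ({t} : Set κ)) ↥k⟮t⟯ κ _
  have hfg : (Algebra.adjoin k ({t} : Set κ)).FG := by
    have := Subalgebra.fg_adjoin_finset (R := k) ({t} : Finset κ)
    rwa [Finset.coe_singleton] at this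
  haveI : Algebra.FiniteType k ↥(Algebra.adjoin k ({t} : Set κ)) :=
    (Subalgebra.fg_iff_finiteType _).1 hfg
  exact Algebra.FiniteType.trans (R := k) (S := ↥(Algebra.adjoin k ({t} : Set κ)))
    inferInstance inferInstance

end IntClosure

section Branch

variable {R F k ι : Type*} {κ : ι → Type*} [CommRing R] [Field F] [Algebra R F]
  [Field k] [∀ i, Field (κ i)] [∀ i, Algebra k (κ i)]

/-- **(L2-iv), "⊆"**: the reduction of a function integral over `R[j]` is integral over `k[t]`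
if the reduction of `j` is. -/
theorem rdB_mem_intClosure (C : Chart R F k ι κ) (i : ι) (j : F) (hjB : j ∈ C.B)
    (hB : ∀ β : C.B, IsIntegral ↥(Algebra.adjoin R {j}) (β : F)) (t : κ i)
    (hj : IsIntegral ↥(Algebra.adjoin k ({t} : Set (κ i))) (C.rdB i ⟨j, hjB⟩)) (β : C.B) :
    C.rdB i β ∈ integralClosure ↥(Algebra.adjoin k ({t} : Set (κ i))) (κ i) := by
  set A := integralClosure ↥(Algebra.adjoin k ({t} : Set (κ i))) (κ i) with hA
  -- `R[j] ⊆ B`
  have hle : Algebra.adjoin R {j} ≤ C.B := Algebra.adjoin_le (Set.singleton_subset_iff.2 hjB)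
  -- the reduction of `R[j]` lies in `A`
  have hRj : ∀ x (hx : x ∈ Algebra.adjoin R {j}), C.rdB i ⟨x, hle hx⟩ ∈ A := by
    intro x hx
    induction hx using Algebra.adjoin_induction with
    | mem y hy =>
      rw [Set.mem_singleton_iff] at hy
      subst hy
      exact hj
    | algebraMap r =>
      have : C.rdB i ⟨algebraMap R F r, hle (Subalgebra.algebraMap_mem _ r)⟩
          = algebraMap k (κ i) (C.res r) := by
        rw [← C.rd_coe]
        exact C.rd_algebraMap i r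
      rw [this]
      exact Subalgebra.algebraMap_mem (A.restrictScalars k) (C.res r)
    | add x y hx hy h1 h2 =>
      have : (⟨x + y, hle (add_mem hx hy)⟩ : C.B) = ⟨x, hle hx⟩ + ⟨y, hle hy⟩ := rfl
      rw [this, map_add]
      exact add_mem h1 h2
    | mul x y hx hy h1 h2 =>
      have : (⟨x * y, hle (mul_mem hx hy)⟩ : C.B) = ⟨x, hle hx⟩ * ⟨y, hle hy⟩ := rfl
      rw [this, map_mul]
      exact mul_mem h1 h2
  -- the two ring homomorphisms
  let φ : ↥(Algebra.adjoin R {j}) →+* ↥A :=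
    ((C.rdB i).comp (Subalgebra.inclusion hle).toRingHom).codRestrict A.toSubring
      (fun x => hRj x.1 x.2)
  letI : Algebra ↥(Algebra.adjoin R {j}) ↥C.B := (Subalgebra.inclusion hle).toRingHom.toAlgebra
  haveI : IsScalarTower ↥(Algebra.adjoin R {j}) ↥C.B F :=
    IsScalarTower.of_algebraMap_eq fun _ => rfl
  have hβ : IsIntegral ↥(Algebra.adjoin R {j}) β :=
    (isIntegral_algebraMap_iff (A := ↥C.B) (B := F) Subtype.val_injective).1 (hB β)
  have h1 : IsIntegral ↥A (C.rdB i β) :=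
    IsIntegral.map_of_comp_eq φ (C.rdB i) (by ext x; rfl) hβ
  have h2 : IsIntegral ↥(Algebra.adjoin k ({t} : Set (κ i))) (C.rdB i β) :=
    isIntegral_trans (A := ↥A) _ h1
  exact h2

/-- **(L2-iv) + (L2-v) ⟹ branches**: if the reduction of `j` is integral over `k[t]`, every
element of `κ i` integral over `k[t]` is the reduction of an element of `B`, and `κ i / k(t)` is
finite separable, then every closed point `𝔪 ⊇ Icomp i` has a `Branch`. -/
theorem branch_of_normal [IsAlgClosed k] (C : Chart R F k ι κ) (i : ι) (j : F) (hjB : j ∈ C.B)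
    (hB : ∀ β : C.B, IsIntegral ↥(Algebra.adjoin R {j}) (β : F)) (t : κ i)
    [FiniteDimensional ↥k⟮t⟯ (κ i)] [Algebra.IsSeparable ↥k⟮t⟯ (κ i)]
    (hj : IsIntegral ↥(Algebra.adjoin k ({t} : Set (κ i))) (C.rdB i ⟨j, hjB⟩))
    (hlift : ∀ y : κ i, IsIntegral ↥(Algebra.adjoin k ({t} : Set (κ i))) y →
      ∃ β : C.B, C.rdB i β = y)
    (𝔪 : Ideal C.B) (hmax : 𝔪.IsMaximal) (h𝔪 : C.Icomp i ≤ 𝔪) : Nonempty (Branch C 𝔪 i) := by
  haveI := isDedekindDomain_intClosure k t
  haveI := isFractionRing_intClosure k t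
  haveI := finiteType_intClosure k t
  let φ : C.B →+* ↥(integralClosure ↥(Algebra.adjoin k ({t} : Set (κ i))) (κ i)) :=
    (C.rdB i).codRestrict
      (integralClosure ↥(Algebra.adjoin k ({t} : Set (κ i))) (κ i)).toSubring
      (fun β => rdB_mem_intClosure C i j hjB hB t hj β)
  refine branch_of_dedekind_finiteType C i φ ?_ (fun β => rfl) 𝔪 hmax h𝔪
  rintro ⟨y, hy⟩
  obtain ⟨β, hβ⟩ := hlift y hy
  exact ⟨β, Subtype.ext hβ⟩

/-- **(L2-i) + (L2-ii) + (L2-iii) ⟹ the lifting hypothesis of `branch_of_normal`**: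
`E'` the residue field of the lower (good) level, `ι' : E' → κ i` onto (residue degree one),
`S'` the chart of the lower level inside `B` with its reduction `red'`, compatible with `rdB i`;
if the chart of the lower level is normal (every element of `E'` integral over `k[t']` is a
reduction), then every element of `κ i` integral over `k[ι' t']` is the reduction of an element
of `B`. -/
theorem lift_of_sub (C : Chart R F k ι κ) (i : ι) {E' : Type*} [Field E'] [Algebra k E']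
    (ι' : E' →ₐ[k] κ i) (hsurj : Function.Surjective ι') (t' : E')
    (S' : Set F) (hS' : ∀ x ∈ S', x ∈ C.B) (red' : F → E')
    (hcompat : ∀ (x : F) (hx : x ∈ S'), C.rdB i ⟨x, hS' x hx⟩ = ι' (red' x))
    (hnormal : ∀ y' : E', IsIntegral ↥(Algebra.adjoin k ({t'} : Set E')) y' →
      ∃ x ∈ S', red' x = y')
    (y : κ i) (hy : IsIntegral ↥(Algebra.adjoin k ({ι' t'} : Set (κ i))) y) :
    ∃ β : C.B, C.rdB i β = y := by
  obtain ⟨y', rfl⟩ := hsurj y
  have hinj : Function.Injective ι' := ι'.toRingHom.injective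
  -- `y'` is integral over `k[t']`
  have hy' : IsIntegral ↥(Algebra.adjoin k ({t'} : Set E')) y' := by
    -- the inverse of `ι'`
    let e : E' ≃ₐ[k] κ i := AlgEquiv.ofBijective ι' ⟨hinj, hsurj⟩
    have hmem : ∀ z (hz : z ∈ Algebra.adjoin k ({ι' t'} : Set (κ i))),
        e.symm z ∈ Algebra.adjoin k ({t'} : Set E') := by
      intro z hz
      induction hz using Algebra.adjoin_induction with
      | mem w hw =>
        rw [Set.mem_singleton_iff] at hw
        subst hw
        have : e.symm (ι' t') = t' := e.symm_apply_apply t'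
        rw [this]
        exact Algebra.subset_adjoin rfl
      | algebraMap r =>
        rw [AlgEquiv.commutes]
        exact Subalgebra.algebraMap_mem _ r
      | add _ _ _ _ h1 h2 =>
        rw [map_add]
        exact add_mem h1 h2
      | mul _ _ _ _ h1 h2 =>
        rw [map_mul]
        exact mul_mem h1 h2
    let φ : ↥(Algebra.adjoin k ({ι' t'} : Set (κ i))) →+* ↥(Algebra.adjoin k ({t'} : Set E')) :=
      (e.symm.toAlgHom.toRingHom.comp (Algebra.adjoin k ({ι' t'} : Set (κ i))).val.toRingHom).codRestrict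
        (Algebra.adjoin k ({t'} : Set E')).toSubring (fun z => hmem z.1 z.2)
    have h1 : IsIntegral ↥(Algebra.adjoin k ({t'} : Set E')) (e.symm (ι' y')) :=
      IsIntegral.map_of_comp_eq φ e.symm.toAlgHom.toRingHom (by ext z; rfl) hy
    have h2 : e.symm (ι' y') = y' := e.symm_apply_apply y'
    rwa [h2] at h1
  obtain ⟨x, hx, hxy⟩ := hnormal y' hy'
  exact ⟨⟨x, hS' x hx⟩, by rw [hcompat x hx, hxy]⟩

end Branch

end Fermat.Agent.S36.NU.H24

end
end
-- ==== END Fermat.Agent.S36.NU.H24_NormalImg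

-- ==== BEGIN Fermat.Agent.S36.NU.H26_DivNormL0
section
attribute [local instance 10000] SubalgebraClass.toAlgebra
attribute [local instance 10000] HahnSeries.powerSeriesAlgebra

/-!
# S36 / NU-B, leaf DIV→NORM, inertia-fixed part (helper26), input of FIN-TOP

`A` a valuation ring of `ℚ̄`, `L0 A N` the functions of level `N` fixed by the inertia group
(helper23).  For `φ : F_M → F_N` commuting with the arithmetic Galois action (for instance `α`,
`β`):

* `mapL0 : L0 A M →+* L0 A N`, `finite_L0_along`, `finrank_L0_along`,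
  `norm_L0_along : N_φ g = N_{L0 N / L0 M} g` for `g ∈ L0 A N`, `norm_mem_L0`;
* `divNorm_L0` : if `f ∈ L0 A N` and `φ_* (div f) = n · div g` (`n ≠ 0`), then
  `N_φ f = c · g₀ ^ n` with `c ≠ 0` fixed by inertia and `g₀ ∈ L0 A M` of leading coefficient `1`;
* `divNorm_L0_alpha`, `divNorm_L0_beta`.
-/

set_option autoImplicit false
set_option linter.style.haveILetI false
set_option linter.unusedSectionVars false
set_option synthInstance.maxHeartbeats 400000
set_option maxHeartbeats 1000000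

noncomputable section

namespace Fermat.Agent.S36.NU.H26

open AlgebraicCurve ModularCurve Fermat.Agent.S24 Fermat.Agent.Lib.HeckeComm
  Fermat.Agent.S36.H44 Fermat.Agent.BAD Fermat.Agent.S36.NU.H23 Fermat.Agent.BAD.H88

local notation "Kb" => AlgebraicClosure ℚ

/-- `φ` commutes with the arithmetic Galois action. -/
def ArithEquivariant {M N : ℕ} (φ : FN M →ₐ[Kb] FN N) : Prop :=
  ∀ (σ : Kb ≃ₐ[ℚ] Kb) (x : FN M),
    φ (arithmeticRingAut (modularFunctionFieldFull M) σ x)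
      = arithmeticRingAut (modularFunctionFieldFull N) σ (φ x)

theorem arithEquivariant_alpha (M q : ℕ) [NeZero M] [NeZero q] :
    ArithEquivariant (heckeAlphaBar Kb M q) := fun σ x =>
  (Fermat.Agent.GTor.H2.intertwines_heckeAlphaBar M q σ x).symm

theorem arithEquivariant_beta (M q : ℕ) [NeZero M] [NeZero q] :
    ArithEquivariant (heckeBetaBar Kb M q) := fun σ x =>
  (Fermat.Agent.GTor.H2.intertwines_heckeBetaBar M q σ x).symm

section Tower

variable (A : ValuationSubring Kb) {M N : ℕ} (φ : FN M →ₐ[Kb] FN N) (hint : ArithEquivariant φ)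

include hint in
theorem map_mem_L0 (x : FN M) (hx : x ∈ L0 A M) : φ x ∈ L0 A N := fun σ hσ => by
  rw [← hint σ x, hx σ hσ]

/-- The map `L0 M → L0 N` induced by `φ`. -/
def mapL0 : ↥(L0 A M) →+* ↥(L0 A N) :=
  (φ.toRingHom.comp (L0 A M).subtype).codRestrict (L0 A N)
    (fun x => map_mem_L0 A φ hint x.1 x.2)

theorem coe_mapL0 (x : ↥(L0 A M)) :
    ((mapL0 A φ hint x : ↥(L0 A N)) : FN N) = φ (x : FN M) := rfl

/-- `L0 N` as an algebra over `L0 M` along `φ`. -/
@[reducible] def algL0Along : Algebra ↥(L0 A M) ↥(L0 A N) := (mapL0 A φ hint).toAlgebra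

/-- `F_N` as an algebra over `L0 M` along `φ`. -/
@[reducible] def algL0FAlong : Algebra ↥(L0 A M) (FN N) :=
  (φ.toRingHom.comp (L0 A M).subtype).toAlgebra

theorem tower_L0_L0_F_along :
    @IsScalarTower ↥(L0 A M) ↥(L0 A N) (FN N) (algL0Along A φ hint).toSMul Algebra.toSMul
      (algL0FAlong A φ).toSMul := by
  letI := algL0Along A φ hint
  letI := algL0FAlong A φ
  exact IsScalarTower.of_algebraMap_eq fun x => rfl

theorem tower_L0_F_F_along :
    @IsScalarTower ↥(L0 A M) (FN M) (FN N) Algebra.toSMul (algebraAlong φ).toSMul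
      (algL0FAlong A φ).toSMul := by
  letI := algebraAlong φ
  letI := algL0FAlong A φ
  exact IsScalarTower.of_algebraMap_eq fun x => rfl

/-- A subalgebra of `F_N / φ(F_M)` which is a field and contains `L0 N` is everything. -/
theorem gen_L0_along [NeZero N] :
    letI := algebraAlong φ
    ∀ S : Subalgebra (FN M) (FN N), IsField S →
      (∀ x : ↥(L0 A N), algebraMap ↥(L0 A N) (FN N) x ∈ S) → S = ⊤ := by
  letI := algebraAlong φ
  haveI := isScalarTower_along φ
  intro S hS hL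
  have key : ∀ y : FN N, y ∈ IntermediateField.adjoin Kbar
      {x : FN N | ∃ (d : ℕ) (_ : NeZero d) (hd : d ∣ N), x = jdF N d hd} → y ∈ S := by
    intro y hy
    induction hy using IntermediateField.adjoin_induction with
    | mem z hz =>
      obtain ⟨d, hd0, hd, rfl⟩ := hz
      exact hL ⟨jdF N d hd, jdF_mem_L0 A N d hd⟩
    | algebraMap c =>
      rw [IsScalarTower.algebraMap_apply Kbar (FN M) (FN N)]
      exact S.algebraMap_mem _
    | add y z _ _ hy hz => exact S.add_mem hy hz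
    | inv y _ hy =>
      by_cases hy0 : y = 0
      · rw [hy0, inv_zero]; exact S.zero_mem
      · obtain ⟨z, hz⟩ := hS.mul_inv_cancel (a := ⟨y, hy⟩)
          (fun h => hy0 (congrArg Subtype.val h))
        have hz' : y * (z : FN N) = 1 := congrArg Subtype.val hz
        have : y⁻¹ = (z : FN N) := (eq_inv_of_mul_eq_one_right hz').symm
        rw [this]
        exact z.2
    | mul y z _ _ hy hz => exact S.mul_mem hy hz
  rw [eq_top_iff]
  intro y _
  exact key y (by rw [adjoin_jdF]; exact IntermediateField.mem_top)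

variable (hfin : FiniteAlong Kb φ)

include hfin in
/-- `L0 N / L0 M` is finite (along `φ`). -/
theorem finite_L0_along :
    letI := algL0Along A φ hint
    Module.Finite ↥(L0 A M) ↥(L0 A N) := by
  letI := algL0Along A φ hint
  letI := algebraAlong φ
  letI := algL0FAlong A φ
  haveI := tower_L0_L0_F_along A φ hint
  haveI := tower_L0_F_F_along A φ
  haveI : Module.Finite (FN M) (FN N) := hfin
  exact finite_of_fixed (E := FN M) (L := FN N) (E₀ := ↥(L0 A M)) (L₀ := ↥(L0 A N))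
    (G := ↥(A.inertiaSubgroupIn ℚ))
    (fun σ => (arithmeticRingAut (modularFunctionFieldFull M) (σ : Kbar ≃ₐ[ℚ] Kbar)).toRingHom)
    (fun σ => (arithmeticRingAut (modularFunctionFieldFull N) (σ : Kbar ≃ₐ[ℚ] Kbar)).toRingHom)
    (fun σ x => (hint σ x).symm)
    (fun σ x => x.2 σ σ.2)
    (fun x hx => ⟨⟨x, fun σ hσ => hx ⟨σ, hσ⟩⟩, rfl⟩)

include hfin in
/-- `[L0 N : L0 M] = [F_N : F_M]` (along `φ`). -/
theorem finrank_L0_along [NeZero N] :
    (letI := algL0Along A φ hint; Module.finrank ↥(L0 A M) ↥(L0 A N))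
      = (letI := algebraAlong φ; Module.finrank (FN M) (FN N)) := by
  letI := algL0Along A φ hint
  letI := algebraAlong φ
  letI := algL0FAlong A φ
  haveI := tower_L0_L0_F_along A φ hint
  haveI := tower_L0_F_F_along A φ
  haveI : Module.Finite (FN M) (FN N) := hfin
  exact finrank_of_fixed (E := FN M) (L := FN N) (E₀ := ↥(L0 A M)) (L₀ := ↥(L0 A N))
    (G := ↥(A.inertiaSubgroupIn ℚ))
    (fun σ => (arithmeticRingAut (modularFunctionFieldFull M) (σ : Kbar ≃ₐ[ℚ] Kbar)).toRingHom)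
    (fun σ => (arithmeticRingAut (modularFunctionFieldFull N) (σ : Kbar ≃ₐ[ℚ] Kbar)).toRingHom)
    (fun σ x => (hint σ x).symm)
    (fun σ x => x.2 σ σ.2)
    (fun x hx => ⟨⟨x, fun σ hσ => hx ⟨σ, hσ⟩⟩, rfl⟩)
    (gen_L0_along A φ)

include hfin in
/-- The norm along `φ` of an inertia-fixed function is its norm for `L0 N / L0 M`. -/
theorem norm_L0_along [NeZero N] (g : ↥(L0 A N)) :
    normAlongHom φ.toRingHom (g : FN N)
      = ((letI := algL0Along A φ hint; Algebra.norm ↥(L0 A M) g : ↥(L0 A M)) : FN M) := by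
  letI := algL0Along A φ hint
  letI := algebraAlong φ
  letI := algL0FAlong A φ
  haveI := tower_L0_L0_F_along A φ hint
  haveI := tower_L0_F_F_along A φ
  haveI : Module.Finite (FN M) (FN N) := hfin
  exact norm_of_fixed (E := FN M) (L := FN N) (E₀ := ↥(L0 A M)) (L₀ := ↥(L0 A N))
    (G := ↥(A.inertiaSubgroupIn ℚ))
    (fun σ => (arithmeticRingAut (modularFunctionFieldFull M) (σ : Kbar ≃ₐ[ℚ] Kbar)).toRingHom)
    (fun σ => (arithmeticRingAut (modularFunctionFieldFull N) (σ : Kbar ≃ₐ[ℚ] Kbar)).toRingHom)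
    (fun σ x => (hint σ x).symm)
    (fun σ x => x.2 σ σ.2)
    (fun x hx => ⟨⟨x, fun σ hσ => hx ⟨σ, hσ⟩⟩, rfl⟩)
    (gen_L0_along A φ) g

include hint hfin in
/-- The norm along `φ` of an inertia-fixed function is inertia-fixed. -/
theorem norm_mem_L0 [NeZero N] (f : FN N) (hf : f ∈ L0 A N) :
    normAlongHom φ.toRingHom f ∈ L0 A M := by
  have h := norm_L0_along A φ hint hfin ⟨f, hf⟩
  rw [show ((⟨f, hf⟩ : ↥(L0 A N)) : FN N) = f from rfl] at h
  rw [h]
  exact SetLike.coe_mem _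

end Tower

/-! ## Normalisation: the constant is inertia-fixed, the root lies in `L0` -/

section Normalise

variable (A : ValuationSubring Kb) {M N : ℕ} [NeZero M] [NeZero N]
  (φ : FN M →ₐ[Kb] FN N) (hint : ArithEquivariant φ)

/-- The leading coefficient of the `q`-expansion. -/
local notation "lc" => Fermat.Agent.S36.H61.lcQ

theorem lcQ_mul' (K : ℕ) (x y : FN K) : lc K (x * y) = lc K x * lc K y :=
  (Fermat.Agent.S36.H61.leadCoeffH K ⊤).lc_mul x y

theorem lcQ_algebraMap' (K : ℕ) (c : Kb) : lc K (algebraMap Kb (FN K) c) = c :=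
  (Fermat.Agent.S36.H61.leadCoeffH K ⊤).lc_algebraMap c

theorem lcQ_pow' (K : ℕ) (x : FN K) (n : ℕ) : lc K (x ^ n) = lc K x ^ n := by
  induction n with
  | zero =>
    rw [pow_zero, pow_zero]
    have := lcQ_algebraMap' K 1
    rwa [map_one] at this
  | succ n ih => rw [pow_succ, pow_succ, lcQ_mul', ih]

theorem lcQ_arith (K : ℕ) (σ : Kb ≃ₐ[ℚ] Kb) (x : FN K) :
    lc K (arithmeticRingAut (modularFunctionFieldFull K) σ x) = σ (lc K x) :=
  Fermat.Agent.S36.H61.lcQ_galois K σ x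

include hint in
/-- **DIV→NORM in `L0`.**  If `f` is fixed by inertia and the push-forward of `div f` along `φ`
is `n · div g`, `n ≠ 0`, then `N_φ f = c · g₀ ^ n` with `c ≠ 0` fixed by inertia and `g₀`
fixed by inertia, of leading coefficient `1`, with the divisor of `g`. -/
theorem divNorm_L0 (hφ : φ.toRingHom.IsIntegral) (hfin : FiniteAlong Kb φ)
    (hN : NormFormulaAlong Kb φ hfin) (n : ℕ) (hn : n ≠ 0)
    (f : FN N) (hf : f ≠ 0) (hfI : f ∈ L0 A N)
    (D : Divisor Kb (FN N)) (hD : ∀ P : Place Kb (FN N), D P = P.ord f)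
    (g : FN M) (hg : g ≠ 0)
    (hpush : ∀ Q : Place Kb (FN M), Divisor.pushforwardAlong φ hφ D Q = n * Q.ord g) :
    ∃ (c : Kb) (g₀ : FN M), c ≠ 0 ∧ (∀ σ ∈ A.inertiaSubgroupIn ℚ, σ c = c) ∧
      g₀ ≠ 0 ∧ g₀ ∈ L0 A M ∧ (g₀ : LaurentSeries Kb).leadingCoeff = 1 ∧
      (∀ Q : Place Kb (FN M), Q.ord g₀ = Q.ord g) ∧
      normAlongHom φ.toRingHom f = algebraMap Kb (FN M) c * g₀ ^ n := by
  obtain ⟨c₁, hc₁, hNf⟩ := norm_eq_const_mul_pow φ hφ hfin hN n f hf D hD g hg hpush
  -- normalise `g`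
  set a : Kb := lc M g with ha
  have ha0 : a ≠ 0 := (Fermat.Agent.S36.H61.leadCoeffH M ⊤).lc_ne_zero g hg
  set g₀ : FN M := algebraMap Kb (FN M) a⁻¹ * g with hg₀
  have hai0 : algebraMap Kb (FN M) a⁻¹ ≠ 0 :=
    (map_ne_zero_iff _ (algebraMap Kb (FN M)).injective).mpr (inv_ne_zero ha0)
  have hg₀0 : g₀ ≠ 0 := mul_ne_zero hai0 hg
  have hlc : lc M g₀ = 1 := by
    rw [hg₀, lcQ_mul', lcQ_algebraMap', ← ha, inv_mul_cancel₀ ha0]
  set c : Kb := c₁ * a ^ n with hc
  have hc0 : c ≠ 0 := mul_ne_zero hc₁ (pow_ne_zero n ha0)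
  have hNf' : normAlongHom φ.toRingHom f = algebraMap Kb (FN M) c * g₀ ^ n := by
    have h0 : algebraMap Kb (FN M) (a ^ n) * algebraMap Kb (FN M) (a⁻¹ ^ n) = 1 := by
      rw [← map_mul, inv_pow, mul_inv_cancel₀ (pow_ne_zero n ha0), map_one]
    rw [hNf, hc, hg₀, mul_pow, map_mul, ← map_pow (algebraMap Kb (FN M)) a⁻¹ n, mul_assoc,
      ← mul_assoc (algebraMap Kb (FN M) (a ^ n)), h0, one_mul]
  -- the norm is fixed
  have hfix : normAlongHom φ.toRingHom f ∈ L0 A M := norm_mem_L0 A φ hint hfin f hfI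
  have hlcN : lc M (normAlongHom φ.toRingHom f) = c := by
    rw [hNf', lcQ_mul', lcQ_algebraMap', lcQ_pow', hlc, one_pow, mul_one]
  have hcfix : ∀ σ ∈ A.inertiaSubgroupIn ℚ, σ c = c := by
    intro σ hσ
    rw [← hlcN, ← lcQ_arith, hfix σ hσ]
  have hg₀fix : g₀ ∈ L0 A M := by
    intro σ hσ
    set s := arithmeticRingAut (modularFunctionFieldFull M) σ with hs
    have h1 : s (normAlongHom φ.toRingHom f) = normAlongHom φ.toRingHom f := hfix σ hσ
    rw [hNf', map_mul, map_pow, hs, arithmeticRingAut_algebraMap, hcfix σ hσ, ← hs] at h1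
    have hc0' : algebraMap Kb (FN M) c ≠ 0 :=
      (map_ne_zero_iff _ (algebraMap Kb (FN M)).injective).mpr hc0
    have h2 : s g₀ ^ n = g₀ ^ n := mul_left_cancel₀ hc0' h1
    have hsg0 : s g₀ ≠ 0 := (map_ne_zero_iff _ s.injective).mpr hg₀0
    -- the quotient is a root of unity, hence constant
    have h3 : (s g₀ * g₀⁻¹) ^ n = 1 := by
      rw [mul_pow, h2, inv_pow, mul_inv_cancel₀ (pow_ne_zero n hg₀0)]
    have hu : ∀ Q : Place Kb (FN M), Q.ord (s g₀ * g₀⁻¹) = 0 := by
      intro Q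
      have h4 : (n : ℤ) * Q.ord (s g₀ * g₀⁻¹) = 0 := by
        rw [← Fermat.Agent.RED.H17.ord_pow, h3, Q.ord_one]
      rcases mul_eq_zero.mp h4 with h5 | h5
      · exact absurd (by exact_mod_cast h5) hn
      · exact h5
    obtain ⟨c', hc'⟩ := Fermat.Agent.FL.H2.exists_const_of_ord_eq_zero (isFF_FN M) hu
    have h6 : lc M (s g₀ * g₀⁻¹) * lc M g₀ = lc M (s g₀) := by
      rw [← lcQ_mul', inv_mul_cancel_right₀ hg₀0]
    rw [← hc', lcQ_algebraMap', hs, lcQ_arith, hlc, map_one, mul_one] at h6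
    rw [h6, map_one] at hc'
    have h7 : s g₀ = g₀ := by
      have := congrArg (· * g₀) hc'
      simp only [one_mul, inv_mul_cancel_right₀ hg₀0] at this
      exact this.symm
    exact h7
  refine ⟨c, g₀, hc0, hcfix, hg₀0, hg₀fix, hlc, fun Q => ?_, hNf'⟩
  rw [hg₀, Fermat.Agent.RED.H17.ord_algebraMap_mul Q (inv_ne_zero ha0)]

end Normalise

/-! ## The two degeneracy maps -/

section Modular

variable (A : ValuationSubring Kb) (M q : ℕ) [NeZero M] [NeZero q]

/-- **DIV→NORM in `L0` along `α`**, with the hypotheses of `H81.Stmt_NUCoreK`. -/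
theorem divNorm_L0_alpha (n : ℕ) (hn : n ≠ 0) (f : ↥(FNbar (M * q))) (hf : f ≠ 0)
    (hfI : ∀ σ ∈ A.inertiaSubgroupIn ℚ, galF (M * q) σ • f = f)
    (hα : HeckeAlphaBarIntegral Kb M q) (D : Divisor Kb ↥(FNbar (M * q)))
    (hD : ∀ P, D P = P.ord f)
    (h : ∃ g : ↥(FNbar M), g ≠ 0 ∧ ∀ Q : Place Kb ↥(FNbar M),
      Divisor.pushforwardAlong (heckeAlphaBar Kb M q) hα D Q = n * Q.ord g) :
    ∃ (c : Kb) (g₀ : ↥(FNbar M)), c ≠ 0 ∧ (∀ σ ∈ A.inertiaSubgroupIn ℚ, σ c = c) ∧
      g₀ ≠ 0 ∧ g₀ ∈ L0 A M ∧ (g₀ : LaurentSeries Kb).leadingCoeff = 1 ∧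
      normAlongHom (heckeAlphaBar Kb M q).toRingHom f = algebraMap Kb ↥(FNbar M) c * g₀ ^ n := by
  obtain ⟨g, hg, hpush⟩ := h
  obtain ⟨c, g₀, h1, h2, h3, h4, h5, -, h7⟩ :=
    divNorm_L0 A (heckeAlphaBar Kb M q) (arithEquivariant_alpha M q) hα (alpha_finite M q)
      (alpha_norm M q) n hn f hf hfI D hD g hg hpush
  exact ⟨c, g₀, h1, h2, h3, h4, h5, h7⟩

/-- **DIV→NORM in `L0` along `β`**, with the hypotheses of `H81.Stmt_NUCoreK`. -/
theorem divNorm_L0_beta (n : ℕ) (hn : n ≠ 0) (f : ↥(FNbar (M * q))) (hf : f ≠ 0)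
    (hfI : ∀ σ ∈ A.inertiaSubgroupIn ℚ, galF (M * q) σ • f = f)
    (hβ : HeckeBetaBarIntegral Kb M q) (D : Divisor Kb ↥(FNbar (M * q)))
    (hD : ∀ P, D P = P.ord f)
    (h : ∃ g : ↥(FNbar M), g ≠ 0 ∧ ∀ Q : Place Kb ↥(FNbar M),
      Divisor.pushforwardAlong (heckeBetaBar Kb M q) hβ D Q = n * Q.ord g) :
    ∃ (c : Kb) (g₀ : ↥(FNbar M)), c ≠ 0 ∧ (∀ σ ∈ A.inertiaSubgroupIn ℚ, σ c = c) ∧
      g₀ ≠ 0 ∧ g₀ ∈ L0 A M ∧ (g₀ : LaurentSeries Kb).leadingCoeff = 1 ∧
      normAlongHom (heckeBetaBar Kb M q).toRingHom f = algebraMap Kb ↥(FNbar M) c * g₀ ^ n := by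
  obtain ⟨g, hg, hpush⟩ := h
  obtain ⟨c, g₀, h1, h2, h3, h4, h5, -, h7⟩ :=
    divNorm_L0 A (heckeBetaBar Kb M q) (arithEquivariant_beta M q) hβ (beta_finite M q)
      (beta_norm M q) n hn f hf hfI D hD g hg hpush
  exact ⟨c, g₀, h1, h2, h3, h4, h5, h7⟩

end Modular

end Fermat.Agent.S36.NU.H26

end
end
-- ==== END Fermat.Agent.S36.NU.H26_DivNormL0

-- ==== BEGIN Fermat.Agent.S36.NU.H42_NmReg
section

/-!
# S36 / NU-B, leaf (i) of GLUE3 (helper42): the norm of a function regular on a fibre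

* `regAt_norm` : if `f` is regular at all places of `F'` over the place `v` of `F`, then
  `N_{F'/F} f` is regular at `v` (from the norm formula for divisors);
* `vanAt_norm` : if moreover `f` vanishes at one place over `v`, then `N f` vanishes at `v`;
* `inR_norm` : the hypothesis `hmem` of `H79.TotN.normVal_of_norm`: `Nm h ∈ R_{z'}` for
  `h ∈ R_z`, from the integrality of the norm (NORM-RED-r) and the compatibility of the two
  reduction maps.

This file has no open goals.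
-/

set_option autoImplicit false

noncomputable section

open AlgebraicCurve

namespace Fermat.Agent.S36.NU.H42

open Fermat.Agent.RED.H17 Fermat.Agent.RED Fermat.Agent.BAD.H79 Fermat.Agent.S36.NU.H79

section Norm

variable {K F F' : Type*} [Field K] [Field F] [Field F'] [Algebra K F'] [Algebra F F']
  [Algebra.IsIntegral F F'] [Algebra K F] [IsScalarTower K F F'] [Module.Finite F F']

/-- The order of the norm at `v` is the sum of the orders at the places over `v`, weighted by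
the inertia degrees. -/
theorem ord_norm_eq_sum [HasPrincipalDivisors K F']
    (hnorm : Divisor.PushforwardNormFormula K F F') (v : Place K F) (f : F') (hf : f ≠ 0) :
    ∃ s : Finset (Place K F'), (∀ w ∈ s, w.restrict F = v) ∧
      v.ord (Algebra.norm F f) = ∑ w ∈ s, w.ord f * (w.inertiaDeg F : ℤ) := by
  classical
  obtain ⟨D, hD, -⟩ := HasPrincipalDivisors.exists_divisor (K := K) f hf
  have h1 := hnorm f hf D hD v
  rw [Divisor.pushforward_apply] at h1
  refine ⟨D.support.filter fun w => w.restrict F = v, fun w hw => (Finset.mem_filter.1 hw).2, ?_⟩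
  rw [← h1, Finset.sum_filter]
  refine Finset.sum_congr rfl fun w _ => ?_
  rw [hD w]

/-- **The norm of a function regular at all places over `v` is regular at `v`.** -/
theorem regAt_norm [HasPrincipalDivisors K F']
    (hnorm : Divisor.PushforwardNormFormula K F F') (v : Place K F) (f : F')
    (hf : ∀ w : Place K F', w.restrict F = v → RegAt w f) : RegAt v (Algebra.norm F f) := by
  rcases eq_or_ne f 0 with rfl | hf0
  · rw [Algebra.norm_zero]; exact regAt_zero v
  obtain ⟨s, hs, hord⟩ := ord_norm_eq_sum hnorm v f hf0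
  refine regAt_of_ord_nonneg ?_
  rw [hord]
  exact Finset.sum_nonneg fun w hw =>
    mul_nonneg (hf w (hs w hw)).ord_nonneg (Int.natCast_nonneg _)

/-- If moreover `f` vanishes at one place over `v`, the norm vanishes at `v`. -/
theorem vanAt_norm [HasPrincipalDivisors K F']
    (hnorm : Divisor.PushforwardNormFormula K F F') (v : Place K F) (f : F')
    (hf : ∀ w : Place K F', w.restrict F = v → RegAt w f)
    (w₀ : Place K F') (hw₀ : w₀.restrict F = v) (hv : VanAt w₀ f)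
    (hin : 0 < w₀.inertiaDeg F) : VanAt v (Algebra.norm F f) := by
  classical
  rcases eq_or_ne f 0 with rfl | hf0
  · rw [Algebra.norm_zero]; exact vanAt_zero v
  obtain ⟨D, hD, -⟩ := HasPrincipalDivisors.exists_divisor (K := K) f hf0
  have h1 := hnorm f hf0 D hD v
  rw [Divisor.pushforward_apply] at h1
  refine vanAt_of_ord_pos ?_
  rw [← h1]
  have hpos : 0 < w₀.ord f := hv.ord_pos hf0
  have hmem : w₀ ∈ D.support := by
    rw [Finsupp.mem_support_iff, hD]
    exact hpos.ne'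
  refine Finset.sum_pos' (fun w _ => ?_) ⟨w₀, hmem, ?_⟩
  · split_ifs with hw
    · rw [hD]
      exact mul_nonneg (hf w hw).ord_nonneg (Int.natCast_nonneg _)
    · exact le_rfl
  · rw [if_pos hw₀, hD]
    exact mul_pos hpos (by exact_mod_cast hin)

end Norm

section InR

variable {K L₀ L k ι Z : Type*} {E : ι → Type*} [Field K] [Field L₀] [Field L]
  [Algebra K L] [Algebra L₀ L] [Field k] [Fintype ι] [∀ i, Field (E i)]
  [∀ i, Algebra k (E i)] (T : TotN K L₀ L k ι Z E)
  {L' L₁ L₂ : Type*} [Field L'] [Algebra K L'] [Field L₁] [Algebra k L₁] [Field L₂]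
  [Algebra k L₂] (T' : TotData K L' k L₁ L₂)
  [Algebra L' L] [Algebra.IsIntegral L' L] [IsScalarTower K L' L] [Module.Finite L' L]

/-- **Leaf (i) of GLUE3**: the norm of `h ∈ R_z` is in `R_{z'}`, if it is integral for the two
valuations of the lower level (NORM-RED-r) and the reduction maps are compatible
(`ρ' (P | L') = z' → ρ P = z`). -/
theorem inR_norm [HasPrincipalDivisors K L] (hnorm : Divisor.PushforwardNormFormula K L' L)
    (z : Z) (z' : Place k L₁)
    (hρ : ∀ P : Place K L, T'.ρ (P.restrict L') = z' → T.ρ P = z)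
    (h : L₀) (hR : T.InR z h)
    (h₁ : Algebra.norm L' (algebraMap L₀ L h) ∈ T'.b₁.V)
    (h₂ : Algebra.norm L' (algebraMap L₀ L h) ∈ T'.b₂.V) :
    T'.InR z' (Algebra.norm L' (algebraMap L₀ L h)) := by
  refine ⟨h₁, h₂, fun P' hP' => ?_⟩
  refine regAt_norm hnorm P' _ fun w hw => ?_
  exact hR.2 w (hρ w (by rw [hw]; exact hP'))

end InR

end Fermat.Agent.S36.NU.H42

end
end
-- ==== END Fermat.Agent.S36.NU.H42_NmReg

-- ==== BEGIN Fermat.Agent.S36.NU.H65_Assemble
section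

/-!
# S36 / NU-B, TI3: ASSEMBLE (helper65)

From the two charts of helper16's local side (`H16.Chart`, `H16.Setup`) to `ti3_main`.

* `rd_section_sub_one` : `rd (h aⁿ - 1) = 0` when `rd a = g`.
* `isRadQ_locSub` : RADQ for the overlap `B0[1/j]` follows from RADQ for `B0`.
* `ti3_of_charts` : charts `C0` (`B` = integral closure of `R[j]`), `Coo` (`R[1/j]`) with the same
  components, sections `a`, `b` with residues `g` (output of `H16.patch`), RADQ for both charts
  ⟹  `s ≠ 0` with `h sⁿ` integral over `R[j]` and `R[1/j]`.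
* `ti3_const` : ... hence `h sⁿ` is integral over `R` (a constant).
-/

set_option autoImplicit false

namespace Fermat.Agent.S36.NU.H65

open Fermat.Agent.S36.NU.H16 Fermat.Agent.S36.NU.H17

variable {R F k ι : Type*} {κ : ι → Type*} [CommRing R] [Field F] [Algebra R F]
  [Field k] [∀ i, Field (κ i)] [∀ i, Algebra k (κ i)]

/-- Residue of `h sⁿ - 1` when `rd s = g`. -/
theorem rd_section_sub_one {C : Chart R F k ι κ} {qn n : ℕ} {h : F} {g : ∀ i, κ i}
    (S : Setup C qn n h g) {a : F} (ha : h * a ^ n ∈ C.B) (hra : ∀ i, C.rd i a = g i) (i : ι) :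
    C.rd i (h * a ^ n - 1) = 0 := by
  have haV := S.mem_V i ha
  rw [C.rd_sub i (mul_mem (S.h_mem i) (pow_mem haV n)) (one_mem _),
    C.rd_mul i (S.h_mem i) (pow_mem haV n), C.rd_pow i haV, hra, C.rd_one, mul_comm, S.root_g,
    sub_self]

/-- **RADQ for the overlap** follows from RADQ for the chart. -/
theorem isRadQ_locSub (C : Chart R F k ι κ) (q : R) (j : F) (hjB : j ∈ C.B) (hj : j ≠ 0)
    (hrad : ∀ β ∈ C.B, (∀ i, C.rd i β = 0) → IsRadQ C.B q β)
    {β : F} (hβ : β ∈ locSub C.B j hjB) (hβV : ∀ i, β ∈ C.V i) (hβ0 : ∀ i, C.rd i β = 0) :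
    IsRadQ (locSub C.B j hjB) q β := by
  obtain ⟨K, hK⟩ := hβ
  have h0 : ∀ i, C.rd i (j ^ K * β) = 0 := by
    intro i
    rw [C.rd_mul i (pow_mem (C.B_le i _ hjB) K) (hβV i), hβ0, mul_zero]
  obtain ⟨e, z, hz, hez⟩ := hrad _ hK h0
  refine ⟨e, j⁻¹ ^ (K * e) * z, ⟨K * e, ?_⟩, ?_⟩
  · rw [← mul_assoc, ← mul_pow, mul_inv_cancel₀ hj, one_pow, one_mul]
    exact hz
  · have h1 : β ^ e = j⁻¹ ^ (K * e) * (j ^ K * β) ^ e := by
      rw [mul_pow, ← pow_mul, ← mul_assoc, ← mul_pow, inv_mul_cancel₀ hj, one_pow, one_mul]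
    rw [h1, hez, mul_smul_comm]

/-- **ASSEMBLE**: from the two charts (`B0` = integral closure of `R[j]`, `Boo` = integral closure of
`R[1/j]`, same components), sections `a`, `b` with residues `g` (the output of `H16.patch`), and RADQ
(elements of `B` vanishing on all components are nilpotent modulo `q`), to the conclusion of TI3. -/
theorem ti3_of_charts [IsNoetherianRing R] (C0 Coo : Chart R F k ι κ) (qn n : ℕ) (h : F)
    (g : ∀ i, κ i) (S0 : Setup C0 qn n h g) (Soo : Setup Coo qn n h g)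
    (j : F) (hj : j ≠ 0) (hB0 : C0.B = intSub R j) (hBoo : Coo.B = intSub R j⁻¹)
    (hV : ∀ i, C0.V i = Coo.V i) (hrd : ∀ i x, C0.rd i x = Coo.rd i x)
    (q : R) (hq : algebraMap R F q ≠ 0) (n' : R) (hnn : (n : R) * n' = 1)
    (hfg : (MInt R j⁻¹ h n S0.n_pos).FG)
    (hunit : ¬ ∃ z : F, IsIntegral ↥(Algebra.adjoin R {j}) z ∧ (1 : F) = q • z)
    (hrad0 : ∀ β ∈ C0.B, (∀ i, C0.rd i β = 0) → IsRadQ C0.B q β)
    (hradoo : ∀ β ∈ Coo.B, (∀ i, Coo.rd i β = 0) → IsRadQ Coo.B q β)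
    (a b : F) (ha : h * a ^ n ∈ C0.B) (hra : ∀ i, C0.rd i a = g i)
    (hb : h * b ^ n ∈ Coo.B) (hrb : ∀ i, Coo.rd i b = g i) :
    ∃ s : F, s ≠ 0 ∧ IsIntegral ↥(Algebra.adjoin R {j}) (h * s ^ n) ∧
      IsIntegral ↥(Algebra.adjoin R {j⁻¹}) (h * s ^ n) := by
  have hn := S0.n_pos
  have hjB0 : j ∈ C0.B := by rw [hB0]; exact self_mem_intSub R j
  -- the three radical conditions
  have h1 : IsRadQ C0.B q (h * a ^ n - 1) :=
    hrad0 _ (C0.B.sub_mem ha C0.B.one_mem) (rd_section_sub_one S0 ha hra)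
  have h2 : IsRadQ Coo.B q (h * b ^ n - 1) :=
    hradoo _ (Coo.B.sub_mem hb Coo.B.one_mem) (rd_section_sub_one Soo hb hrb)
  have haV : ∀ i, a ∈ C0.V i := fun i => S0.mem_V i ha
  have hbV : ∀ i, b ∈ C0.V i := fun i => by rw [hV]; exact Soo.mem_V i hb
  have hoole : Coo.B ≤ locSub C0.B j hjB0 := by
    intro x hx
    rw [hBoo] at hx
    obtain ⟨e₀, he₀⟩ := exists_pow_inv_mul_isIntegral (R := R) (inv_ne_zero hj) hx
    have := he₀ e₀ le_rfl
    rw [inv_inv] at this
    refine ⟨e₀, ?_⟩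
    rw [hB0]
    exact this
  have hroot : ∀ x : F, x ^ n ∈ locSub C0.B j hjB0 → x ∈ locSub C0.B j hjB0 :=
    root_mem_locSub _ _ _ hn S0.root
  have h1n : h * a * b ^ (n - 1) ∈ locSub C0.B j hjB0 := by
    have := mixed_mem (locSub C0.B j hjB0) h n hroot (le_locSub _ _ _ ha) (hoole hb) 1 (n - 1)
      (by omega)
    simpa using this
  have hmemV : ∀ i, h * a * b ^ (n - 1) ∈ C0.V i := fun i =>
    mul_mem (mul_mem (S0.h_mem i) (haV i)) (pow_mem (hbV i) _)
  have h3 : IsRadQ (locSub C0.B j hjB0) q (h * a * b ^ (n - 1) - 1) := by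
    refine isRadQ_locSub C0 q j hjB0 hj hrad0 ((locSub C0.B j hjB0).sub_mem h1n
      (locSub C0.B j hjB0).one_mem) (fun i => sub_mem (hmemV i) (one_mem _)) (fun i => ?_)
    rw [C0.rd_sub i (hmemV i) (one_mem _), C0.rd_mul i (mul_mem (S0.h_mem i) (haV i))
      (pow_mem (hbV i) _), C0.rd_mul i (S0.h_mem i) (haV i), C0.rd_pow i (hbV i), hra, hrd i b,
      hrb, C0.rd_one]
    have : C0.rd i h * g i * g i ^ (n - 1) = g i ^ n * C0.rd i h := by
      obtain ⟨m, hm⟩ := Nat.exists_eq_add_of_le (Nat.succ_le_of_lt hn)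
      have : n - 1 = m := by omega
      rw [this, hm, pow_add]
      simp only [Nat.succ_eq_add_one, zero_add, pow_one]
      ring
    rw [this, S0.root_g, sub_self]
  obtain ⟨e1, z1, hz1, he1⟩ := h1
  obtain ⟨e2, z2, hz2, he2⟩ := h2
  obtain ⟨e3, z3, ⟨K, hK⟩, he3⟩ := h3
  rw [hB0] at hz1 hK ha
  rw [hBoo] at hz2 hb
  exact ti3_main q hq n hn n' hnn j hj h hfg hunit a b ha hb ⟨e1, z1, hz1, he1⟩
    ⟨e2, z2, hz2, he2⟩ ⟨e3, z3, ⟨K, hK⟩, he3⟩

/-- **TI3, final form**: under the hypotheses of `ti3_of_charts`, with `R` integrally closed and `j`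
transcendental over `K = Frac R`, there is `s ≠ 0` with `h sⁿ` integral over `R`. -/
theorem ti3_const [IsNoetherianRing R] [IsDomain R] [IsIntegrallyClosed R] (K : Type*) [Field K]
    [Algebra R K] [IsFractionRing R K] [Algebra K F] [IsScalarTower R K F]
    (C0 Coo : Chart R F k ι κ) (qn n : ℕ) (h : F)
    (g : ∀ i, κ i) (S0 : Setup C0 qn n h g) (Soo : Setup Coo qn n h g)
    (j : F) (hjt : Transcendental K j) (hB0 : C0.B = intSub R j) (hBoo : Coo.B = intSub R j⁻¹)
    (hV : ∀ i, C0.V i = Coo.V i) (hrd : ∀ i x, C0.rd i x = Coo.rd i x)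
    (q : R) (hq0 : q ≠ 0) (hqu : ¬ IsUnit q) (n' : R) (hnn : (n : R) * n' = 1)
    (hfg : (MInt R j⁻¹ h n S0.n_pos).FG)
    (hrad0 : ∀ β ∈ C0.B, (∀ i, C0.rd i β = 0) → IsRadQ C0.B q β)
    (hradoo : ∀ β ∈ Coo.B, (∀ i, Coo.rd i β = 0) → IsRadQ Coo.B q β)
    (a b : F) (ha : h * a ^ n ∈ C0.B) (hra : ∀ i, C0.rd i a = g i)
    (hb : h * b ^ n ∈ Coo.B) (hrb : ∀ i, Coo.rd i b = g i) :
    ∃ s : F, s ≠ 0 ∧ IsIntegral R (h * s ^ n) := by
  have hj : j ≠ 0 := by
    rintro rfl
    exact hjt isAlgebraic_zero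
  have hjR : Transcendental R j :=
    Transcendental.restrictScalars (IsFractionRing.injective R K) hjt
  have hq : algebraMap R F q ≠ 0 := by
    rw [IsScalarTower.algebraMap_apply R K F]
    exact (map_ne_zero _).2 ((map_ne_zero_iff _ (IsFractionRing.injective R K)).2 hq0)
  obtain ⟨s, hs, h1, h2⟩ := ti3_of_charts C0 Coo qn n h g S0 Soo j hj hB0 hBoo hV hrd q hq n' hnn
    hfg (not_unit_intSub q hqu j hjR) hrad0 hradoo a b ha hra hb hrb
  exact ⟨s, hs, isIntegral_of_isIntegral_both R K j hjt h1 h2⟩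

end Fermat.Agent.S36.NU.H65

end
-- ==== END Fermat.Agent.S36.NU.H65_Assemble

-- ==== BEGIN Fermat.Agent.S36.NU.H73_Coord
section
attribute [local instance 10000] SubalgebraClass.toAlgebra
attribute [local instance 10000] HahnSeries.powerSeriesAlgebra

/-!
# `ū = Δ̄(t)/Δ̄(t⁴)` is a local coordinate at every non-cuspidal point (S36 / NU-B / COORD, step 3;
helper73)

`E ⊆ k((t))` a function field in characteristic `q ≥ 5` with a `q`-basis, `z` a place of degree
one, `j̄, v̄ = Δ̄/Δ̄₂, v̄₂ = Δ̄₂/Δ̄₄ ∈ E`.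

* `ord_eq_zero_of_cube` : UNIT: `(x + a)³ = y x²`, `y ∈ O_z`, `a ≠ 0`  ⇒  `ord_z x = 0`
  (applied to `(v̄ + 256)³ = j̄ v̄²` and `(v̄₂ + 256)³ = j̄₂ v̄₂²`, `j̄₂ = (v̄ + 16)³ / v̄`).
* `theta_ord_exact` : DIFF, exact form: `ord_z (f - c) = e`, `q ∤ e`, `θ f = g θ π`
  ⇒  `ord_z g = e - 1`.
* `coord_u4` : **COORD**: if `ord_z (j̄ - j₀) = e` with `e = 1` (`j₀ ≠ 0, 1728`), `e = 3`
  (`j₀ = 0`), `e = 2` (`j₀ = 1728`) (RAM), then `ord_z (ū - c) = 1` for some `c ∈ k`.
  Proof: `(θ ū)¹² j̄⁸ (j̄ - 1728)⁶ = 3¹² v̄⁶ v̄₂¹⁶ (θ j̄)¹²` (`thetaL_ubar_pow`), so with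
  `θ ū = g_u θ π`, `θ j̄ = g_j θ π`: `12 ord g_u + 8 ord j̄ + 6 ord (j̄ - 1728) = 12 (e - 1)`,
  i.e. `ord g_u = 0` in all three cases.
-/

set_option autoImplicit false

noncomputable section

open ModularCurve AlgebraicCurve IntermediateField Polynomial

namespace Fermat.Agent.S36.NU.H73

open Fermat.Agent.RED.H51 Fermat.Agent.BAD.H21

section Coord

variable {k : Type*} [Field k] {q : ℕ} [Fact q.Prime] [CharP k q]
variable {E : IntermediateField k (LaurentSeries k)}

omit [Fact q.Prime] in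
theorem natCast_eq_algebraMap_E (n : ℕ) : ((n : ℕ) : ↥E) = algebraMap k ↥E (n : k) := by
  rw [map_natCast]

omit [Fact q.Prime] in
theorem natCast_ne_zero_E {n : ℕ} (hn : ¬ q ∣ n) : ((n : ℕ) : ↥E) ≠ 0 := by
  rw [natCast_eq_algebraMap_E, Ne, map_eq_zero, CharP.cast_eq_zero_iff k q]
  exact hn

omit [Fact q.Prime] [CharP k q] in
theorem ord_natCast_E (z : Place k ↥E) (n : ℕ) : z.ord ((n : ℕ) : ↥E) = 0 := by
  rw [natCast_eq_algebraMap_E]
  exact ord_algebraMap z _

omit [Fact q.Prime] [CharP k q] in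
/-- **UNIT**: `(x + a)³ = y x²` with `y` regular at `z` and `a ≠ 0` forces `ord_z x = 0`. -/
theorem ord_eq_zero_of_cube (z : Place k ↥E) {x y : ↥E} {a : k} (ha : a ≠ 0)
    (hy : y ∈ z.toValuationSubring) (h : (x + algebraMap k ↥E a) ^ 3 = y * x ^ 2) :
    x ≠ 0 ∧ z.ord x = 0 := by
  have hA : algebraMap k ↥E a ≠ 0 := by
    rw [Ne, map_eq_zero]; exact ha
  have hA0 : z.ord (algebraMap k ↥E a) = 0 := ord_algebraMap z a
  have hx : x ≠ 0 := by
    rintro rfl
    rw [zero_add, zero_pow (by norm_num), mul_zero] at h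
    exact hA (pow_eq_zero_iff (by norm_num) |>.mp h)
  refine ⟨hx, ?_⟩
  rcases eq_or_ne y 0 with rfl | hy0
  · rw [zero_mul] at h
    have h1 : x + algebraMap k ↥E a = 0 := pow_eq_zero_iff (by norm_num) |>.mp h
    have h2 : x = -algebraMap k ↥E a := eq_neg_of_add_eq_zero_left h1
    rw [h2, ord_neg, hA0]
  have hy1 : 0 ≤ z.ord y := (mem_iff_ord_nonneg z hy0).mp hy
  rcases lt_trichotomy (z.ord x) 0 with hneg | h0 | hpos
  · exfalso
    have h1 := ord_add_eq z hx (g := algebraMap k ↥E a)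
      (Or.inr (by rw [hA0]; omega))
    have h2 := congrArg z.ord h
    rw [ord_pow, h1.2, z.ord_mul hy0 (pow_ne_zero 2 hx), ord_pow] at h2
    push_cast at h2
    omega
  · exact h0
  · exfalso
    have h1 := ord_add_eq' z hA (g := x) (Or.inr (by rw [hA0]; omega))
    have h2 := congrArg z.ord h
    rw [ord_pow, h1.2, hA0, z.ord_mul hy0 (pow_ne_zero 2 hx), ord_pow] at h2
    push_cast at h2
    omega

omit [Fact q.Prime] [CharP k q] in
theorem mem_and_inv_mem_of_ord (z : Place k ↥E) {x : ↥E} (hx : x ≠ 0) (h : z.ord x = 0) :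
    x ∈ z.toValuationSubring ∧ x⁻¹ ∈ z.toValuationSubring := by
  constructor
  · rw [mem_iff_ord_nonneg z hx, h]
  · rw [mem_iff_ord_nonneg z (inv_ne_zero hx), z.ord_inv, h]
    simp

omit [Fact q.Prime] [CharP k q] in
theorem coe_injective_E {a b : ↥E} (h : (a : LaurentSeries k) = (b : LaurentSeries k)) : a = b :=
  Subtype.ext h

omit [Fact q.Prime] [CharP k q] in
/-- Uniqueness of `g` in `θ f = g θ π`. -/
theorem theta_unique {π g g' : ↥E} (hθπ : thetaL (π : LaurentSeries k) ≠ 0)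
    (h : (g : LaurentSeries k) * thetaL (π : LaurentSeries k)
      = (g' : LaurentSeries k) * thetaL (π : LaurentSeries k)) : g = g' :=
  Subtype.ext (mul_right_cancel₀ hθπ h)

/-- **DIFF, exact form**: if `ord_z (f - c) = e` with `q ∤ e` and `θ f = g θ π` then
`ord_z g = e - 1`. -/
theorem theta_ord_exact (hPB : HasPBasis q ↥E) (z : Place k ↥E) {π : ↥E} (hπ : z.ord π = 1)
    (hθπ : thetaL (π : LaurentSeries k) ≠ 0) {f : ↥E} (c : k) (e : ℕ)
    (hfc : f - algebraMap k ↥E c ≠ 0) (he : z.ord (f - algebraMap k ↥E c) = e)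
    (hqe : ¬ q ∣ e) {g : ↥E}
    (hg : thetaL (f : LaurentSeries k) = (g : LaurentSeries k) * thetaL (π : LaurentSeries k)) :
    g ≠ 0 ∧ z.ord g = (e : ℤ) - 1 := by
  have hπ0 : π ≠ 0 := by
    rintro rfl
    rw [z.ord_zero] at hπ
    exact zero_ne_one hπ
  have he0 : e ≠ 0 := by
    rintro rfl
    exact hqe (dvd_zero q)
  set f' : ↥E := f - algebraMap k ↥E c with hf'
  set w : ↥E := f' * (π ^ e)⁻¹ with hw
  have hw0 : w ≠ 0 := mul_ne_zero hfc (inv_ne_zero (pow_ne_zero e hπ0))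
  have hword : z.ord w = 0 := by
    rw [hw, z.ord_mul hfc (inv_ne_zero (pow_ne_zero e hπ0)), z.ord_inv, ord_pow, hπ, mul_one, he]
    omega
  have hwO : w ∈ z.toValuationSubring := by
    rw [mem_iff_ord_nonneg z hw0, hword]
  obtain ⟨gw, hgw, hθw⟩ := theta_mem hPB z hπ hwO
  have hfw : f' = π ^ e * w := by
    rw [hw]
    field_simp
  have hθf : thetaL (f : LaurentSeries k) = thetaL (f' : LaurentSeries k) := by
    rw [hf', coeE_sub, map_sub,
      show ((algebraMap k ↥E c : ↥E) : LaurentSeries k) = algebraMap k (LaurentSeries k) c from rfl,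
      thetaL_algebraMap, sub_zero]
  set T1 : ↥E := (e : ↥E) * π ^ (e - 1) * w with hT1
  set T2 : ↥E := π ^ e * gw with hT2
  have h1 : (f' : LaurentSeries k) = (π : LaurentSeries k) ^ e * (w : LaurentSeries k) := by
    conv_lhs => rw [hfw]
    rfl
  have h2 : ((T1 + T2 : ↥E) : LaurentSeries k) =
      (e : LaurentSeries k) * (π : LaurentSeries k) ^ (e - 1) * (w : LaurentSeries k) +
        (π : LaurentSeries k) ^ e * (gw : LaurentSeries k) := by
    rw [IntermediateField.coe_add, hT1, hT2, IntermediateField.coe_mul, IntermediateField.coe_mul,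
      IntermediateField.coe_mul E (π ^ e) gw, IntermediateField.coe_pow,
      IntermediateField.coe_pow]
    rfl
  have hgT : g = T1 + T2 := by
    refine theta_unique hθπ ?_
    rw [← hg, hθf, h2, h1, thetaL_mul, thetaL_pow, hθw]
    ring
  have hT1ne : T1 ≠ 0 :=
    mul_ne_zero (mul_ne_zero (natCast_ne_zero_E hqe) (pow_ne_zero _ hπ0)) hw0
  have hT1ord : z.ord T1 = (e : ℤ) - 1 := by
    rw [hT1, z.ord_mul (mul_ne_zero (natCast_ne_zero_E hqe) (pow_ne_zero _ hπ0)) hw0,
      z.ord_mul (natCast_ne_zero_E hqe) (pow_ne_zero _ hπ0), ord_natCast_E, ord_pow, hπ, hword,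
      Nat.cast_sub (Nat.one_le_iff_ne_zero.mpr he0)]
    simp
  have hT2ord : OrdGe z (z.ord T1 + 1) T2 := by
    rw [hT1ord]
    have hπe : OrdGe z (e : ℤ) (π ^ e) := Or.inr (by rw [ord_pow, hπ, mul_one])
    have := hπe.mul ((ordGe_zero_iff_mem z _).mpr hgw)
    exact this.mono (by omega)
  have := ord_add_eq z hT1ne hT2ord
  rw [hgT]
  exact ⟨this.1, this.2.trans hT1ord⟩

omit [Fact q.Prime] [CharP k q] in
theorem coe_algebraMap_ofNat (n : ℕ) [n.AtLeastTwo] :
    ((algebraMap k ↥E (OfNat.ofNat n) : ↥E) : LaurentSeries k) = OfNat.ofNat n := by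
  show algebraMap k (LaurentSeries k) (OfNat.ofNat n) = OfNat.ofNat n
  rw [map_ofNat]

omit [Fact q.Prime] in
theorem two_ne_zero_of_five_le (h5 : 5 ≤ q) : (2 : k) ≠ 0 := by
  have h : ¬ q ∣ 2 := fun hd => by
    have := Nat.le_of_dvd (by norm_num) hd
    omega
  have := (CharP.cast_eq_zero_iff k q 2).not.mpr h
  simpa using this

omit [Fact q.Prime] in
theorem three_ne_zero_of_five_le (h5 : 5 ≤ q) : (3 : k) ≠ 0 := by
  have h : ¬ q ∣ 3 := fun hd => by
    have := Nat.le_of_dvd (by norm_num) hd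
    omega
  have := (CharP.cast_eq_zero_iff k q 3).not.mpr h
  simpa using this

/-- **UNIT at level 4**: `v̄ = Δ̄/Δ̄₂` and `v̄₂ = Δ̄₂/Δ̄₄` are units at every place at which `j̄` is
regular (characteristic `≠ 2`). -/
theorem unit_v (z : Place k ↥E) (h2 : (2 : k) ≠ 0)
    {jE vE v2E : ↥E} (hj : (jE : LaurentSeries k) = jqModC k)
    (hv : (vE : LaurentSeries k) = vbar k) (hv2 : (v2E : LaurentSeries k) = vbar2 k)
    (hjO : jE ∈ z.toValuationSubring) :
    (vE ≠ 0 ∧ z.ord vE = 0) ∧ (v2E ≠ 0 ∧ z.ord v2E = 0) := by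
  have h256 : (256 : k) ≠ 0 := by
    rw [show (256 : k) = 2 ^ 8 by norm_num]
    exact pow_ne_zero _ h2
  have hvid : (vE + algebraMap k ↥E 256) ^ 3 = jE * vE ^ 2 := by
    apply Subtype.ext
    rw [IntermediateField.coe_pow, IntermediateField.coe_add, IntermediateField.coe_mul,
      IntermediateField.coe_pow, coe_algebraMap_ofNat, hv, hj]
    exact vbar_ident k
  have hvU := ord_eq_zero_of_cube z h256 hjO hvid
  refine ⟨hvU, ?_⟩
  have hvO := mem_and_inv_mem_of_ord z hvU.1 hvU.2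
  have hv0 : vbar k ≠ 0 := by
    rw [← hv]
    intro h0
    exact hvU.1 (Subtype.ext h0)
  have hj2O : (vE + algebraMap k ↥E 16) ^ 3 * vE⁻¹ ∈ z.toValuationSubring :=
    mul_mem (pow_mem (add_mem hvO.1 (z.algebraMap_mem' _)) 3) hvO.2
  have hj2 : (((vE + algebraMap k ↥E 16) ^ 3 * vE⁻¹ : ↥E) : LaurentSeries k)
      = qExpand k 2 (jqModC k) := by
    rw [IntermediateField.coe_mul, IntermediateField.coe_pow, IntermediateField.coe_add,
      IntermediateField.coe_inv, coe_algebraMap_ofNat, hv, vbar_ident', mul_assoc,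
      mul_inv_cancel₀ hv0, mul_one]
  have hv2id : (v2E + algebraMap k ↥E 256) ^ 3 = ((vE + algebraMap k ↥E 16) ^ 3 * vE⁻¹) * v2E ^ 2 := by
    apply Subtype.ext
    rw [IntermediateField.coe_pow, IntermediateField.coe_add,
      IntermediateField.coe_mul _ ((vE + algebraMap k ↥E 16) ^ 3 * vE⁻¹), hj2,
      IntermediateField.coe_pow, coe_algebraMap_ofNat, hv2]
    exact vbar2_ident k
  exact ord_eq_zero_of_cube z h256 hj2O hv2id

omit [Fact q.Prime] [CharP k q] in
/-- The identity `g_u¹² j̄⁸ (j̄ - 1728)⁶ = 3¹² v̄⁶ v̄₂¹⁶ g_j¹²` in `E`. -/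
theorem coord_ident {jE vE v2E π gj gu : ↥E} (hj : (jE : LaurentSeries k) = jqModC k)
    (hv : (vE : LaurentSeries k) = vbar k) (hv2 : (v2E : LaurentSeries k) = vbar2 k)
    (hθπ : thetaL (π : LaurentSeries k) ≠ 0)
    (hgj : thetaL (jE : LaurentSeries k) = (gj : LaurentSeries k) * thetaL (π : LaurentSeries k))
    (hgu : thetaL ((vE * v2E : ↥E) : LaurentSeries k)
      = (gu : LaurentSeries k) * thetaL (π : LaurentSeries k)) :
    gu ^ 12 * (jE ^ 8 * (jE - algebraMap k ↥E 1728) ^ 6)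
      = (algebraMap k ↥E 3) ^ 12 * (vE ^ 6 * v2E ^ 16) * gj ^ 12 := by
  have hucoe : ((vE * v2E : ↥E) : LaurentSeries k) = ubar4 k := by
    rw [IntermediateField.coe_mul, hv, hv2, ubar4]
  apply Subtype.ext
  have h := thetaL_ubar_pow k
  rw [← hucoe, hgu, ← hj, hgj, mul_pow, mul_pow] at h
  have hπ12 : thetaL (π : LaurentSeries k) ^ 12 ≠ 0 := pow_ne_zero _ hθπ
  have e1 : ((gu ^ 12 * (jE ^ 8 * (jE - algebraMap k ↥E 1728) ^ 6) : ↥E) : LaurentSeries k)
      = (gu : LaurentSeries k) ^ 12 * ((jE : LaurentSeries k) ^ 8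
        * ((jE : LaurentSeries k) - 1728) ^ 6) := by
    rw [IntermediateField.coe_mul, IntermediateField.coe_pow, IntermediateField.coe_mul,
      IntermediateField.coe_pow, IntermediateField.coe_pow, coeE_sub, coe_algebraMap_ofNat]
  have e2 : (((algebraMap k ↥E 3) ^ 12 * (vE ^ 6 * v2E ^ 16) * gj ^ 12 : ↥E) : LaurentSeries k)
      = 3 ^ 12 * (vbar k ^ 6 * vbar2 k ^ 16) * (gj : LaurentSeries k) ^ 12 := by
    rw [IntermediateField.coe_mul, IntermediateField.coe_mul, IntermediateField.coe_pow,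
      IntermediateField.coe_mul, IntermediateField.coe_pow, IntermediateField.coe_pow,
      IntermediateField.coe_pow, coe_algebraMap_ofNat, hv, hv2]
  rw [e1, e2]
  refine mul_right_cancel₀ hπ12 ?_
  linear_combination h

set_option maxHeartbeats 1000000 in
/-- **COORD** (`q ≥ 5`, level divisible by `4`): `ū = Δ̄(t)/Δ̄(t⁴) = v̄ v̄₂` is a local coordinate at
every place `z` of degree one at which `j̄` has ramification index `e = 1, 3, 2` over
`j₀ ≠ 0, 1728`, `j₀ = 0`, `j₀ = 1728`. -/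
theorem coord_u4 (hPB : HasPBasis q ↥E) (z : Place k ↥E) (hdeg : z.deg = 1) (h5 : 5 ≤ q)
    {jE vE v2E : ↥E} (hj : (jE : LaurentSeries k) = jqModC k)
    (hv : (vE : LaurentSeries k) = vbar k) (hv2 : (v2E : LaurentSeries k) = vbar2 k)
    (j0 : k) (e : ℕ) (hram : z.ord (jE - algebraMap k ↥E j0) = e)
    (hcase : (j0 ≠ 0 ∧ j0 ≠ 1728 ∧ e = 1) ∨ (j0 = 0 ∧ e = 3) ∨ (j0 = 1728 ∧ e = 2)) :
    z.ord (vE * v2E) = 0 ∧ ∃ c : k, z.ord (vE * v2E - algebraMap k ↥E c) = 1 := by
  have hq : q.Prime := Fact.out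
  have h2k : (2 : k) ≠ 0 := two_ne_zero_of_five_le h5
  have h3k : (3 : k) ≠ 0 := three_ne_zero_of_five_le h5
  have h1728k : (1728 : k) ≠ 0 := by
    rw [show (1728 : k) = 2 ^ 6 * 3 ^ 3 by norm_num]
    exact mul_ne_zero (pow_ne_zero _ h2k) (pow_ne_zero _ h3k)
  have he1 : 1 ≤ e := by
    rcases hcase with ⟨-, -, h⟩ | ⟨-, h⟩ | ⟨-, h⟩ <;> omega
  have he3 : e ≤ 3 := by
    rcases hcase with ⟨-, -, h⟩ | ⟨-, h⟩ | ⟨-, h⟩ <;> omega
  have hqe : ¬ q ∣ e := fun hd => by
    have := Nat.le_of_dvd (by omega) hd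
    omega
  have hjne : jE - algebraMap k ↥E j0 ≠ 0 :=
    ne_zero_of_ord_ne_zero z (by rw [hram]; exact_mod_cast (by omega : e ≠ 0))
  have hj0 : OrdGe z 1 (jE - algebraMap k ↥E j0) := Or.inr (by rw [hram]; exact_mod_cast he1)
  have hjO : jE ∈ z.toValuationSubring := mem_of_ordGe_sub z hj0
  obtain ⟨hvU, hv2U⟩ := unit_v z h2k hj hv hv2 hjO
  have huO : vE * v2E ∈ z.toValuationSubring :=
    mul_mem (mem_and_inv_mem_of_ord z hvU.1 hvU.2).1 (mem_and_inv_mem_of_ord z hv2U.1 hv2U.2).1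
  have huord : z.ord (vE * v2E) = 0 := by
    rw [z.ord_mul hvU.1 hv2U.1, hvU.2, hv2U.2, add_zero]
  refine ⟨huord, ?_⟩
  have hucoe : ((vE * v2E : ↥E) : LaurentSeries k) = ubar4 k := by
    rw [IntermediateField.coe_mul, hv, hv2, ubar4]
  -- a uniformizer and the derivatives
  obtain ⟨π, hπ0, hπ⟩ := exists_uniformizer z
  have hθj : thetaL (jE : LaurentSeries k) ≠ 0 := by
    rw [hj]; exact thetaL_jqModC_ne_zero
  have hθπ : thetaL (π : LaurentSeries k) ≠ 0 := thetaL_ne_zero_of_ord hPB z hπ hθj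
  obtain ⟨gj, -, hgj⟩ := theta_mem hPB z hπ hjO
  obtain ⟨gu, -, hgu⟩ := theta_mem hPB z hπ huO
  have hgjx := theta_ord_exact hPB z hπ hθπ j0 e hjne hram hqe hgj
  -- the identity in `E`
  have hid := coord_ident hj hv hv2 hθπ hgj hgu
  -- orders of `j̄` and `j̄ - 1728`
  have hjords : jE ≠ 0 ∧ jE - algebraMap k ↥E 1728 ≠ 0 ∧
      8 * z.ord jE + 6 * z.ord (jE - algebraMap k ↥E 1728) = 12 * ((e : ℤ) - 1) := by
    rcases hcase with ⟨h0, h1728, rfl⟩ | ⟨rfl, rfl⟩ | ⟨rfl, rfl⟩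
    · have a1 := ord_sub_const z hj0 h0
      rw [map_zero, sub_zero] at a1
      have a2 := ord_sub_const z hj0 h1728
      refine ⟨a1.1, a2.1, ?_⟩
      rw [a1.2, a2.2]
      norm_num
    · have a2 := ord_sub_const z hj0 h1728k.symm
      rw [map_zero, sub_zero] at hram hjne
      refine ⟨hjne, a2.1, ?_⟩
      rw [hram, a2.2]
      norm_num
    · have a1 := ord_sub_const z hj0 h1728k
      rw [map_zero, sub_zero] at a1
      refine ⟨a1.1, hjne, ?_⟩
      rw [hram, a1.2]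
      norm_num
  obtain ⟨hjE0, hjE1728, hsum⟩ := hjords
  have h3E : algebraMap k ↥E 3 ≠ 0 := by
    rw [Ne, map_eq_zero]; exact h3k
  have hR0 : (algebraMap k ↥E 3) ^ 12 * (vE ^ 6 * v2E ^ 16) * gj ^ 12 ≠ 0 :=
    mul_ne_zero (mul_ne_zero (pow_ne_zero _ h3E)
      (mul_ne_zero (pow_ne_zero _ hvU.1) (pow_ne_zero _ hv2U.1))) (pow_ne_zero _ hgjx.1)
  have hgu0 : gu ≠ 0 := by
    rintro rfl
    rw [zero_pow (by norm_num), zero_mul] at hid
    exact hR0 hid.symm
  have hguord : z.ord gu = 0 := by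
    have h := congrArg z.ord hid
    rw [z.ord_mul (pow_ne_zero _ hgu0) (mul_ne_zero (pow_ne_zero _ hjE0) (pow_ne_zero _ hjE1728)),
      z.ord_mul (pow_ne_zero _ hjE0) (pow_ne_zero _ hjE1728), ord_pow, ord_pow, ord_pow,
      z.ord_mul (mul_ne_zero (pow_ne_zero _ h3E)
        (mul_ne_zero (pow_ne_zero _ hvU.1) (pow_ne_zero _ hv2U.1))) (pow_ne_zero _ hgjx.1),
      z.ord_mul (pow_ne_zero _ h3E) (mul_ne_zero (pow_ne_zero _ hvU.1) (pow_ne_zero _ hv2U.1)),
      z.ord_mul (pow_ne_zero _ hvU.1) (pow_ne_zero _ hv2U.1), ord_pow, ord_pow, ord_pow, ord_pow,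
      ord_algebraMap, hvU.2, hv2U.2, hgjx.2] at h
    push_cast at h
    omega
  -- the value of `ū` at `z`
  obtain ⟨c, hc⟩ := exists_value z hdeg ((ordGe_zero_iff_mem z _).mpr huO)
  refine ⟨c, ?_⟩
  have hθuc : thetaL ((vE * v2E - algebraMap k ↥E c : ↥E) : LaurentSeries k) =
      (gu : LaurentSeries k) * thetaL (π : LaurentSeries k) := by
    rw [coeE_sub, map_sub,
      show ((algebraMap k ↥E c : ↥E) : LaurentSeries k) = algebraMap k (LaurentSeries k) c from rfl,
      thetaL_algebraMap, sub_zero, hgu]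
  have huc0 : vE * v2E - algebraMap k ↥E c ≠ 0 := by
    intro h0
    rw [h0] at hθuc
    have h1 : (gu : LaurentSeries k) * thetaL (π : LaurentSeries k) = 0 := by
      rw [← hθuc]
      exact map_zero _
    rcases mul_eq_zero.mp h1 with h2 | h2
    · exact hgu0 (Subtype.ext h2)
    · exact hθπ h2
  have hge : 1 ≤ z.ord (vE * v2E - algebraMap k ↥E c) := hc.le huc0
  by_contra hne
  have h2 : OrdGe z ((2 : ℕ) : ℤ) (vE * v2E - algebraMap k ↥E c) :=
    Or.inr (by push_cast; omega)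
  obtain ⟨g', hg', hθ'⟩ := theta_ordGe hPB z hπ 2 h2
  have hgg : g' = gu := theta_unique hθπ (by rw [← hθ', hθuc])
  rw [hgg] at hg'
  have := hg'.le hgu0
  rw [hguord] at this
  norm_num at this

end Coord

end Fermat.Agent.S36.NU.H73

end
end
-- ==== END Fermat.Agent.S36.NU.H73_Coord

-- ==== BEGIN Fermat.Agent.S36.NU.H73_Pole
section
attribute [local instance 10000] SubalgebraClass.toAlgebra
attribute [local instance 10000] HahnSeries.powerSeriesAlgebra

/-!
# POLE: `ord_z d̄ = -1` at the supersingular points (S36 / NU-B / POLE; helper73)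

`pole_of_not_mem` : by (L1) `Ψ̄(ū^q) = d̄ (ū^{q²} - ū)` (helper10 `eis_red_L1`), if `d̄ ∉ O_z` at a
place `z` where `ū - c` is a coordinate, then `c ∈ 𝔽_{q²}` and `ord_z d̄ = -1`.
Together with GPOLE (`dbar_not_mem`, `dbar_not_mem_zero`, `dbar_not_mem_1728`):
`ord_dbar`, `ord_dbar_zero`, `ord_dbar_1728`.
-/

set_option autoImplicit false

noncomputable section

open ModularCurve AlgebraicCurve IntermediateField Polynomial

namespace Fermat.Agent.S36.NU.H73

open Fermat.Agent.RED.H51 Fermat.Agent.BAD.H21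

section Abstract

variable {k κ : Type*} [Field k] [Field κ] [Algebra k κ]

/-- **(L1) ⇒ simple pole and `c ∈ 𝔽_{q²}`.** -/
theorem pole_of_not_mem (q : ℕ) [hqp : Fact q.Prime] [CharP κ q] (z : Place k κ) {u d P : κ}
    (c : k) (hu : z.ord (u - algebraMap k κ c) = 1) (hL1 : P = d * (u ^ q ^ 2 - u))
    (hP : P ∈ z.toValuationSubring) (hd : d ∉ z.toValuationSubring) :
    c ^ q ^ 2 = c ∧ z.ord d = -1 := by
  have hdneg : z.ord d < 0 := (not_mem_iff_ord_neg z).mp hd
  have hd0 : d ≠ 0 := ne_zero_of_ord_ne_zero z (by omega)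
  have ht0 : u - algebraMap k κ c ≠ 0 := ne_zero_of_ord_ne_zero z (by rw [hu]; norm_num)
  have hq2 : 2 ≤ q ^ 2 := by
    calc 2 ≤ q := hqp.out.two_le
      _ = q ^ 1 := (pow_one q).symm
      _ ≤ q ^ 2 := Nat.pow_le_pow_right hqp.out.pos (by norm_num)
  have hc : c ^ q ^ 2 = c := by
    by_contra hne
    have hkey : u ^ q ^ 2 - u = algebraMap k κ (c ^ q ^ 2 - c) +
        ((u - algebraMap k κ c) ^ q ^ 2 - (u - algebraMap k κ c)) := by
      have h1 : (u - algebraMap k κ c) ^ q ^ 2 = u ^ q ^ 2 - (algebraMap k κ c) ^ q ^ 2 :=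
        sub_pow_char_pow u _ 2
      rw [h1, map_sub, map_pow]
      ring
    have ha : algebraMap k κ (c ^ q ^ 2 - c) ≠ 0 := by
      rw [Ne, map_eq_zero]
      exact sub_ne_zero.mpr hne
    have ha0 : z.ord (algebraMap k κ (c ^ q ^ 2 - c)) = 0 := ord_algebraMap z _
    have hrest : OrdGe z 1 ((u - algebraMap k κ c) ^ q ^ 2 - (u - algebraMap k κ c)) := by
      refine OrdGe.sub ?_ (Or.inr hu.ge)
      refine Or.inr ?_
      rw [ord_pow, hu, mul_one]
      exact_mod_cast (by omega : 1 ≤ q ^ 2)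
    have h1 := ord_add_eq z ha (g := (u - algebraMap k κ c) ^ q ^ 2 - (u - algebraMap k κ c))
      (by rw [ha0, zero_add]; exact hrest)
    rw [← hkey, ha0] at h1
    have hP0 : P ≠ 0 := by rw [hL1]; exact mul_ne_zero hd0 h1.1
    have := (mem_iff_ord_nonneg z hP0).mp hP
    rw [hL1, z.ord_mul hd0 h1.1, h1.2] at this
    omega
  refine ⟨hc, ?_⟩
  have h2 : z.ord (u ^ q ^ 2 - u) = 1 :=
    Fermat.Agent.S36.NU.H10.ord_frob_sub q z u c hu (by norm_num) hc
  have h20 : u ^ q ^ 2 - u ≠ 0 := ne_zero_of_ord_ne_zero z (by rw [h2]; norm_num)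
  have hP0 : P ≠ 0 := by rw [hL1]; exact mul_ne_zero hd0 h20
  have := (mem_iff_ord_nonneg z hP0).mp hP
  rw [hL1, z.ord_mul hd0 h20, h2] at this
  omega

end Abstract

section Concrete

variable {k : Type*} [Field k] {q : ℕ} [Fact q.Prime] [CharP k q]
variable {E : IntermediateField k (LaurentSeries k)}

omit [Fact q.Prime] in
theorem charP_E : CharP ↥E q :=
  charP_of_injective_algebraMap (algebraMap k ↥E).injective q

/-- **POLE** (generic supersingular points): `ord_z d̄ = -1` and `ū(z) ∈ 𝔽_{q²}`. -/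
theorem ord_dbar (hPB : HasPBasis q ↥E) (z : Place k ↥E) {u d jE P : ↥E} (c : k)
    (hu : z.ord (u - algebraMap k ↥E c) = 1)
    (hθ : thetaL (d : LaurentSeries k) =
      (u : LaurentSeries k) ^ (q - 1) * thetaL (u : LaurentSeries k) -
        thetaL (u : LaurentSeries k) ^ q)
    (hj : (jE : LaurentSeries k) = jqModC k)
    {H : k[X]} (hH : aeval (jqModC k) H = (H21_DL k ^ (q - 1))⁻¹)
    {j0 : k} (hj0 : OrdGe z 1 (jE - algebraMap k ↥E j0)) (hroot : H.IsRoot j0)
    (h0 : j0 ≠ 0) (h1728 : j0 ≠ 1728)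
    (hL1 : P = d * (u ^ q ^ 2 - u)) (hP : P ∈ z.toValuationSubring) :
    c ^ q ^ 2 = c ∧ z.ord d = -1 :=
  haveI : CharP ↥E q := charP_E
  pole_of_not_mem q z c hu hL1 hP (dbar_not_mem hPB z c hu hθ hj hH hj0 hroot h0 h1728)

/-- **POLE** over `j = 0` (ramification `≥ 3`). -/
theorem ord_dbar_zero (hPB : HasPBasis q ↥E) (z : Place k ↥E) {u d jE P : ↥E} (c : k)
    (hu : z.ord (u - algebraMap k ↥E c) = 1)
    (hθ : thetaL (d : LaurentSeries k) =
      (u : LaurentSeries k) ^ (q - 1) * thetaL (u : LaurentSeries k) -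
        thetaL (u : LaurentSeries k) ^ q)
    (hj : (jE : LaurentSeries k) = jqModC k)
    {H : k[X]} (hH : aeval (jqModC k) H = (H21_DL k ^ (q - 1))⁻¹)
    (h1728 : (1728 : k) ≠ 0) (hμ : (X : k[X]) ^ 4 ∣ H) (he : 3 ≤ z.ord jE)
    (hL1 : P = d * (u ^ q ^ 2 - u)) (hP : P ∈ z.toValuationSubring) :
    c ^ q ^ 2 = c ∧ z.ord d = -1 :=
  haveI : CharP ↥E q := charP_E
  pole_of_not_mem q z c hu hL1 hP (dbar_not_mem_zero hPB z c hu hθ hj hH h1728 hμ he)

/-- **POLE** over `j = 1728` (ramification `≥ 2`). -/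
theorem ord_dbar_1728 (hPB : HasPBasis q ↥E) (z : Place k ↥E) {u d jE P : ↥E} (c : k)
    (hu : z.ord (u - algebraMap k ↥E c) = 1)
    (hθ : thetaL (d : LaurentSeries k) =
      (u : LaurentSeries k) ^ (q - 1) * thetaL (u : LaurentSeries k) -
        thetaL (u : LaurentSeries k) ^ q)
    (hj : (jE : LaurentSeries k) = jqModC k)
    {H : k[X]} (hH : aeval (jqModC k) H = (H21_DL k ^ (q - 1))⁻¹)
    (h1728 : (1728 : k) ≠ 0) (hμ : (X - C (1728 : k)) ^ 6 ∣ H)
    (he : 2 ≤ z.ord (jE - algebraMap k ↥E 1728))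
    (hL1 : P = d * (u ^ q ^ 2 - u)) (hP : P ∈ z.toValuationSubring) :
    c ^ q ^ 2 = c ∧ z.ord d = -1 :=
  haveI : CharP ↥E q := charP_E
  pole_of_not_mem q z c hu hL1 hP (dbar_not_mem_1728 hPB z c hu hθ hj hH h1728 hμ he)

end Concrete

end Fermat.Agent.S36.NU.H73

end
end
-- ==== END Fermat.Agent.S36.NU.H73_Pole
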