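-- GENERATED (merged mirror, NOTES/tools/trim/merge3_helper67.py): 6 modules of the originals, bodies verbatim.
import Fermat.Agent.Zm.S36_L03_002
import Fermat.Agent.Zm.S36_L03_000
import Fermat.Agent.Zm.S36_L01_004
import Fermat.Agent.Zm.S36_L03_001
import Fermat.Agent.Zm.S35_L24_000
import Fermat.Agent.Zm.S35_L05_004
import Fermat.Agent.Zm.S35_L07_003
import Fermat.Agent.Zm.S35_L05_005
import Fermat.Agent.Zm.S44_L01_003

-- ==== BEGIN Fermat.Agent.S36.NU.H79_B2
section

/-!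
# S36 / NU-B, leaf B2 (helper79): norms which are `n`-th powers ⟹ the reductions are `n`-th powers

Tools (pure algebra):
* `IsCPow k n x` : `x` is a constant times an `n`-th power; API (`mul`, `pow`, `inv`, `zpow`,
  `div`, `map`, `of_pow_coprime`);
* `isCPow_of_pow_eq` : in a field in which `k` is "closed under `n`-th roots"
  (`RootClosed k F n`), two `n`-th roots of the same element differ by a constant;
* `ResNorm k E L` : a **norm of residue fields** `N : E →* L` with an embedding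
  `j : L →ₐ[k] E` such that `j (N x) = x ^ f` (`f = 1`: an isomorphism; `f = q`: a purely
  inseparable extension of degree `q`); `ResNorm.isCPow_of_N` (if `N x` is a constant times an
  `n`-th power and `f` is prime to `n`, then so is `x`), `ResNorm.hasValue_N` (values);
* `rd_isCPow_of_eq` (level of the valuation): if `f = c g ^ n` is a unit of the valuation ring
  of a `PRed`, then `g` can be scaled to a unit `g'` with `rd f = c' (rd g') ^ n`.
-/

set_option autoImplicit false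
set_option linter.style.haveILetI false

noncomputable section

open AlgebraicCurve

attribute [local instance] Classical.propDecidable

namespace Fermat.Agent.S36.NU.H79

open Fermat.Agent.RED.H17 Fermat.Agent.RED Fermat.Agent.BAD.H79 Fermat.Agent.BAD

/-! ## Constants times `n`-th powers -/

section CPow

variable (k : Type*) {F F' : Type*} [Field k] [Field F] [Algebra k F] [Field F'] [Algebra k F']

/-- `x` is a constant times an `n`-th power. -/
def IsCPow (n : ℕ) (x : F) : Prop := ∃ (c : k) (y : F), x = algebraMap k F c * y ^ n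

variable {k} {n : ℕ}

theorem isCPow_const (n : ℕ) (c : k) : IsCPow k n (algebraMap k F c) :=
  ⟨c, 1, by rw [one_pow, mul_one]⟩

theorem isCPow_one (n : ℕ) : IsCPow k n (1 : F) := ⟨1, 1, by rw [map_one, one_pow, mul_one]⟩

theorem isCPow_zero (n : ℕ) : IsCPow k n (0 : F) := ⟨0, 1, by rw [map_zero, zero_mul]⟩

theorem isCPow_pow (n : ℕ) (y : F) : IsCPow k n (y ^ n) := ⟨1, y, by rw [map_one, one_mul]⟩

theorem IsCPow.mul {x x' : F} (h : IsCPow k n x) (h' : IsCPow k n x') :
    IsCPow k n (x * x') := by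
  obtain ⟨c, y, rfl⟩ := h
  obtain ⟨c', y', rfl⟩ := h'
  exact ⟨c * c', y * y', by rw [map_mul, mul_pow]; ring⟩

theorem IsCPow.pow {x : F} (h : IsCPow k n x) (m : ℕ) : IsCPow k n (x ^ m) := by
  induction m with
  | zero => rw [pow_zero]; exact isCPow_one n
  | succ m ih => rw [pow_succ]; exact ih.mul h

theorem IsCPow.inv {x : F} (h : IsCPow k n x) : IsCPow k n x⁻¹ := by
  obtain ⟨c, y, rfl⟩ := h
  exact ⟨c⁻¹, y⁻¹, by rw [map_inv₀, mul_inv, inv_pow]⟩

theorem IsCPow.div {x x' : F} (h : IsCPow k n x) (h' : IsCPow k n x') :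
    IsCPow k n (x / x') := by
  rw [div_eq_mul_inv]; exact h.mul h'.inv

theorem IsCPow.zpow {x : F} (h : IsCPow k n x) (m : ℤ) : IsCPow k n (x ^ m) := by
  cases m with
  | ofNat m => rw [Int.ofNat_eq_natCast, zpow_natCast]; exact h.pow m
  | negSucc m => rw [zpow_negSucc]; exact (h.pow (m + 1)).inv

theorem isCPow_zpow_mul (y : F) (b : ℤ) : IsCPow k n (y ^ (b * (n : ℤ))) := by
  rw [zpow_mul, zpow_natCast]
  exact isCPow_pow n _

theorem IsCPow.map (j : F →ₐ[k] F') {x : F} (h : IsCPow k n x) : IsCPow k n (j x) := by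
  obtain ⟨c, y, rfl⟩ := h
  exact ⟨c, j y, by rw [map_mul, map_pow, AlgHom.commutes]⟩

/-- If `x ^ f` is a constant times an `n`-th power and `f` is prime to `n`, then so is `x`. -/
theorem IsCPow.of_pow_coprime {f : ℕ} {x : F} (hcop : Nat.Coprime f n)
    (h : IsCPow k n (x ^ f)) : IsCPow k n x := by
  by_cases hx : x = 0
  · rw [hx]; exact isCPow_zero n
  have hg : (f : ℤ) * Int.gcdA f n + (n : ℤ) * Int.gcdB f n = 1 := by
    have := Int.gcd_eq_gcd_ab (f : ℤ) (n : ℤ)
    rw [Int.gcd_natCast_natCast, hcop.gcd_eq_one] at this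
    exact_mod_cast this.symm
  have e : x = (x ^ f) ^ (Int.gcdA f n) * x ^ (Int.gcdB f n * (n : ℤ)) := by
    rw [← zpow_natCast x f, ← zpow_mul, ← zpow_add₀ hx, mul_comm (Int.gcdB f n) (n : ℤ), hg,
      zpow_one]
  rw [e]
  exact (h.zpow _).mul (isCPow_zpow_mul x _)

end CPow

/-! ## Constants are closed under `n`-th roots -/

/-- `k` is closed under `n`-th roots in `F`: an element of `F` whose `n`-th power is a constant
is a constant (true if `k` is algebraically closed in `F`). -/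
def RootClosed (k F : Type*) [Field k] [Field F] [Algebra k F] (n : ℕ) : Prop :=
  ∀ r : F, (∃ c : k, r ^ n = algebraMap k F c) → ∃ c' : k, r = algebraMap k F c'

/-- Two `n`-th roots of the same non-zero element differ by a constant. -/
theorem exists_const_of_pow_eq {k F : Type*} [Field k] [Field F] [Algebra k F] {n : ℕ}
    (hk : RootClosed k F n) {x y : F} {c : k} (hy : y ≠ 0)
    (h : x ^ n = algebraMap k F c * y ^ n) : ∃ μ : k, x = algebraMap k F μ * y := by
  obtain ⟨μ, hμ⟩ := hk (x / y) ⟨c, by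
    rw [div_pow, h, mul_div_assoc, div_self (pow_ne_zero n hy), mul_one]⟩
  exact ⟨μ, by rw [← hμ, div_mul_cancel₀ x hy]⟩

/-! ## Norms of residue fields -/

/-- A **norm of residue fields**: a multiplicative map `N : E → L` with an embedding
`j : L → E` over `k` such that `j (N x) = x ^ f`. -/
structure ResNorm (k E L : Type*) [Field k] [Field E] [Field L] [Algebra k E]
    [Algebra k L] where
  /-- the norm -/
  N : E →* L
  /-- the embedding of the lower residue field -/
  j : L →ₐ[k] E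
  /-- the residue degree -/
  f : ℕ
  hj : ∀ x : E, j (N x) = x ^ f

namespace ResNorm

variable {k E L : Type*} [Field k] [Field E] [Field L] [Algebra k E] [Algebra k L]
  (R : ResNorm k E L) {n : ℕ}

theorem N_const (c : k) : R.N (algebraMap k E c) = algebraMap k L (c ^ R.f) := by
  apply R.j.toRingHom.injective
  change R.j (R.N (algebraMap k E c)) = R.j (algebraMap k L (c ^ R.f))
  rw [R.hj, AlgHom.commutes, map_pow]

theorem N_ne_zero {x : E} (hx : x ≠ 0) : R.N x ≠ 0 := by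
  intro h0
  have := R.hj x
  rw [h0, map_zero] at this
  exact pow_ne_zero R.f hx this.symm

/-- The norm of a constant times an `n`-th power is a constant times an `n`-th power. -/
theorem N_isCPow {x : E} (h : IsCPow k n x) : IsCPow k n (R.N x) := by
  obtain ⟨c, y, rfl⟩ := h
  exact ⟨c ^ R.f, R.N y, by rw [map_mul, map_pow, R.N_const]⟩

/-- If `N x` is a constant times an `n`-th power and `f` is prime to `n`, then so is `x`. -/
theorem isCPow_of_N (hcop : Nat.Coprime R.f n) {x : E} (h : IsCPow k n (R.N x)) :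
    IsCPow k n x := by
  refine IsCPow.of_pow_coprime hcop ?_
  rw [← R.hj]
  exact h.map R.j

/-- Values: if the point `pt` of `E` lies over the point `pt'` of `L`, then the value of `N x`
at `pt'` is the `f`-th power of the value of `x` at `pt`. -/
theorem hasValue_N {pt : Place k E} {pt' : Place k L}
    (hpt : ∀ (y : L) (a : k), HasValue pt (R.j y) a → HasValue pt' y a) {x : E} {a : k}
    (h : HasValue pt x a) : HasValue pt' (R.N x) (a ^ R.f) := by
  apply hpt
  rw [R.hj]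
  exact h.pow R.f

end ResNorm

/-! ## The level of the valuation -/

section PRedLevel

variable {K F k F' : Type*} [Field K] [Field F] [Algebra K F] [Field k] [Field F']
  [Algebra k F'] (S : PRed K F k F')

/-- If `f = c g ^ n` is a unit of the valuation ring, then `g` can be scaled by a constant to
a unit `g'`, and `rd f = c' (rd g') ^ n` with a constant `c'`. -/
theorem rd_isCPow_of_eq {n : ℕ} (hn : n ≠ 0) {f g : F} {c : K} (hf : S.IsGU f)
    (h : f = algebraMap K F c * g ^ n) :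
    ∃ (d : K) (c' : k), d ≠ 0 ∧ S.IsGU (algebraMap K F d * g) ∧
      f = algebraMap K F (c / d ^ n) * (algebraMap K F d * g) ^ n ∧
      algebraMap K F (c / d ^ n) ∈ S.V ∧
      S.rd f = algebraMap k F' c' * S.rd (algebraMap K F d * g) ^ n := by
  have hf0 : f ≠ 0 := hf.ne_zero
  have hg0 : g ≠ 0 := by
    rintro rfl
    rw [zero_pow hn, mul_zero] at h
    exact hf0 h
  obtain ⟨d, hd0, hdu⟩ := S.exists_isGU_scale hg0
  have hdF : algebraMap K F d ≠ 0 := (map_ne_zero_iff _ (algebraMap K F).injective).mpr hd0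
  have hfe : f = algebraMap K F (c / d ^ n) * (algebraMap K F d * g) ^ n := by
    rw [h, map_div₀, map_pow, mul_pow]
    field_simp
  have hcu : S.IsGU (algebraMap K F (c / d ^ n)) := by
    have e : algebraMap K F (c / d ^ n) = f / (algebraMap K F d * g) ^ n := by
      rw [eq_div_iff (pow_ne_zero n hdu.ne_zero)]
      exact hfe.symm
    rw [e]
    exact hf.div (hdu.pow n)
  obtain ⟨c', hc'⟩ := S.rd_algebraMap_mem_range hcu.mem
  refine ⟨d, c', hd0, hdu, hfe, hcu.mem, ?_⟩
  conv_lhs => rw [hfe]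
  rw [S.rd_mul hcu.mem (S.V.pow_mem hdu.mem n), hc', S.rd_pow hdu.mem]

end PRedLevel

end Fermat.Agent.S36.NU.H79

end
end
-- ==== END Fermat.Agent.S36.NU.H79_B2

-- ==== BEGIN Fermat.Agent.S36.NU.H79_NormVal
section

/-!
# S36 / NU-B, leaf NORM-VAL (helper79): the value groups and the valuations of norms

`D : H42.NRData E L Et ι κ` (helper42: a discrete valuation ring `V_E` of `E` with uniformiser
`ϖ`, valuation rings `V i` of `L` over it with "uniformisers" `π i` and "ramification indices"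
`e i`, `v_i (ϖ) = v_i (π i) ^ e i`), with `∑ e i [κ i : Et] = [L : E]`.

* `nv_exists_zpow_unit` : every `a ≠ 0` of `E` is `ϖ ^ t` times a unit of `V_E`;
* `nv_exists_pow_val_eq` : for `x ≠ 0` in `L` some power `v_i (x) ^ m`, `m > 0`, is the value
  of an element of `E`;
* `nv_exists_val_eq_zpow` (**EXACT**) : the value group of `V i` is generated by `v_i (π i)`;
* `nv_val_norm` (**NORM-VAL**) : if `v_i (x) = v_i (π i) ^ k i` for all `i` then
  `v_E (N_{L/E} x) = v_E (ϖ) ^ (∑ [κ i : Et] k i)`;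
* `nv_exists_val_norm` : the same with the existence of the `k i`.
-/

set_option autoImplicit false
set_option linter.style.haveILetI false
set_option linter.unusedSectionVars false

noncomputable section

namespace Fermat.Agent.S36.NU.H79

open Fermat.Agent.BAD Fermat.Agent.BAD.H42

/-- In a linearly ordered group with zero: `γ ^ m = ϱ ^ K`, `m > 0`; then there are `m' > 0`,
`K'` and `ϱ' = ϱ ^ u γ ^ v` with `ϱ' ^ m' = ϱ`, `γ = ϱ' ^ K'`. -/
theorem nv_bezout {Γ : Type*} [LinearOrderedCommGroupWithZero Γ] {γ ϱ : Γ} (hγ : γ ≠ 0)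
    (hϱ : ϱ ≠ 0) {m : ℕ} (hm : 0 < m) {K : ℤ} (h : γ ^ m = ϱ ^ K) :
    ∃ (m' : ℕ) (K' u v : ℤ), 0 < m' ∧ (ϱ ^ u * γ ^ v) ^ m' = ϱ ∧ γ = (ϱ ^ u * γ ^ v) ^ K' := by
  set d : ℕ := Int.gcd (m : ℤ) K with hd
  have hd0 : 0 < d := Int.gcd_pos_of_ne_zero_left _ (by exact_mod_cast hm.ne')
  obtain ⟨m₁, hm₁⟩ : (d : ℤ) ∣ (m : ℤ) := Int.gcd_dvd_left _ _
  obtain ⟨K₁, hK₁⟩ : (d : ℤ) ∣ K := Int.gcd_dvd_right _ _
  have hm₁pos : 0 < m₁ := by
    have h1 : (0 : ℤ) < (d : ℤ) * m₁ := by rw [← hm₁]; exact_mod_cast hm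
    have hd' : (0 : ℤ) < (d : ℤ) := by exact_mod_cast hd0
    exact (mul_pos_iff_of_pos_left hd').mp h1
  have hcop : IsCoprime m₁ K₁ := by
    have h1 : Int.gcd m₁ K₁ = 1 := by
      have h2 : Int.gcd ((d : ℤ) * m₁) ((d : ℤ) * K₁) = d * Int.gcd m₁ K₁ := by
        rw [Int.gcd_mul_left]
        simp
      rw [← hm₁, ← hK₁, ← hd] at h2
      have h3 : d * 1 = d * Int.gcd m₁ K₁ := by rw [mul_one]; exact h2
      exact (Nat.eq_of_mul_eq_mul_left hd0 h3).symm
    exact Int.isCoprime_iff_gcd_eq_one.mpr h1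
  obtain ⟨u, v, huv⟩ := hcop
  -- `γ ^ m₁ = ϱ ^ K₁`
  have h1 : (γ ^ m₁ * (ϱ ^ K₁)⁻¹) ^ d = 1 := by
    rw [mul_pow, ← zpow_natCast (γ ^ m₁), ← zpow_mul, inv_pow, ← zpow_natCast (ϱ ^ K₁),
      ← zpow_mul, mul_comm m₁, mul_comm K₁, ← hm₁, ← hK₁, zpow_natCast, h]
    exact mul_inv_cancel₀ (zpow_ne_zero _ hϱ)
  have h2 : γ ^ m₁ * (ϱ ^ K₁)⁻¹ = 1 := (pow_eq_one_iff_left hd0.ne').mp h1
  have h3 : γ ^ m₁ = ϱ ^ K₁ := by
    have := congrArg (· * ϱ ^ K₁) h2
    simp only [one_mul] at this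
    rwa [mul_assoc, inv_mul_cancel₀ (zpow_ne_zero _ hϱ), mul_one] at this
  obtain ⟨m', hm'⟩ : ∃ m' : ℕ, (m' : ℤ) = m₁ := ⟨m₁.toNat, Int.toNat_of_nonneg hm₁pos.le⟩
  refine ⟨m', K₁, u, v, by exact_mod_cast (hm' ▸ hm₁pos : (0 : ℤ) < (m' : ℤ)), ?_, ?_⟩
  · rw [← zpow_natCast, hm', mul_zpow, ← zpow_mul, ← zpow_mul]
    have : γ ^ (v * m₁) = ϱ ^ (v * K₁) := by
      rw [mul_comm v m₁, zpow_mul, h3, ← zpow_mul, mul_comm]
    rw [this, ← zpow_add₀ hϱ, huv, zpow_one]
  · rw [mul_zpow, ← zpow_mul, ← zpow_mul]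
    have : ϱ ^ (u * K₁) = γ ^ (u * m₁) := by
      rw [mul_comm u K₁, zpow_mul, ← h3, ← zpow_mul, mul_comm]
    rw [this, ← zpow_add₀ hγ, huv, zpow_one]

theorem nv_prod_zpow {Γ : Type*} [CommGroupWithZero Γ] {ι : Type*} (s : Finset ι) (a : Γ)
    (ha : a ≠ 0) (f : ι → ℤ) : ∏ i ∈ s, a ^ f i = a ^ (∑ i ∈ s, f i) := by
  classical
  induction s using Finset.induction_on with
  | empty => simp
  | insert i s hi ih => rw [Finset.prod_insert hi, Finset.sum_insert hi, zpow_add₀ ha, ih]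

variable {E L Et : Type} [Field E] [Field L] [Field Et] [Algebra E L]
  {ι : Type} {κ : ι → Type} [∀ i, Field (κ i)] [∀ i, Algebra Et (κ i)]
  (D : NRData E L Et ι κ)

/-- Units of `V_E` have value `1` at every `V i`. -/
theorem nv_val_unit (i : ι) {u : E} (hu0 : u ≠ 0) (hu : u ∈ D.VE) (hu' : u⁻¹ ∈ D.VE) :
    (D.V i).valuation (algebraMap E L u) = 1 := by
  have h1 : (D.V i).valuation (algebraMap E L u) ≤ 1 :=
    (ValuationSubring.valuation_le_one_iff _ _).2 (D.hVE i _ hu)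
  have h2 : (D.V i).valuation (algebraMap E L u⁻¹) ≤ 1 :=
    (ValuationSubring.valuation_le_one_iff _ _).2 (D.hVE i _ hu')
  rw [map_inv₀, map_inv₀] at h2
  have h0 : (D.V i).valuation (algebraMap E L u) ≠ 0 :=
    (Valuation.ne_zero_iff _).2 ((map_ne_zero_iff _ (algebraMap E L).injective).2 hu0)
  exact le_antisymm h1 ((inv_le_one₀ (zero_lt_iff.2 h0)).1 h2)

/-- Units of `V_E` have value `1`. -/
theorem nv_valE_unit {u : E} (hu0 : u ≠ 0) (hu : u ∈ D.VE) (hu' : u⁻¹ ∈ D.VE) :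
    D.VE.valuation u = 1 := by
  have h1 : D.VE.valuation u ≤ 1 := (ValuationSubring.valuation_le_one_iff _ _).2 hu
  have h2 : D.VE.valuation u⁻¹ ≤ 1 := (ValuationSubring.valuation_le_one_iff _ _).2 hu'
  rw [map_inv₀] at h2
  have h0 : D.VE.valuation u ≠ 0 := (Valuation.ne_zero_iff _).2 hu0
  exact le_antisymm h1 ((inv_le_one₀ (zero_lt_iff.2 h0)).1 h2)

/-- An element of `V_E` whose value at `V i` is larger than that of `ϖ ^ n` is `ϖ ^ t` times a
unit. -/
theorem nv_exists_pow_unit_aux (i : ι) (n : ℕ) : ∀ a : E, a ≠ 0 → a ∈ D.VE →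
    (D.V i).valuation (algebraMap E L D.ϖ) ^ n < (D.V i).valuation (algebraMap E L a) →
    ∃ (t : ℕ) (u : E), u ≠ 0 ∧ u ∈ D.VE ∧ u⁻¹ ∈ D.VE ∧ a = D.ϖ ^ t * u := by
  induction n with
  | zero =>
    intro a _ ha h
    rw [pow_zero] at h
    exact absurd ((ValuationSubring.valuation_le_one_iff _ _).2 (D.hVE i _ ha)) (not_le.2 h)
  | succ n ih =>
    intro a ha0 ha h
    by_cases hu : a⁻¹ ∈ D.VE
    · exact ⟨0, a, ha0, ha, hu, by rw [pow_zero, one_mul]⟩
    · have h1 : D.VE.valuation a < 1 := by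
        rw [lt_iff_le_and_ne]
        refine ⟨(ValuationSubring.valuation_le_one_iff _ _).2 ha, fun h1 => hu ?_⟩
        rw [← ValuationSubring.valuation_le_one_iff, map_inv₀, h1, inv_one]
      have h2 := D.hE a h1
      have hϖv : D.VE.valuation D.ϖ ≠ 0 := (Valuation.ne_zero_iff _).2 D.hϖ0
      have h3 : a / D.ϖ ∈ D.VE := by
        rw [← ValuationSubring.valuation_le_one_iff, map_div₀]
        exact (div_le_one₀ (zero_lt_iff.2 hϖv)).2 h2
      have h4 : a / D.ϖ ≠ 0 := div_ne_zero ha0 D.hϖ0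
      have hϖL : (D.V i).valuation (algebraMap E L D.ϖ) ≠ 0 :=
        (Valuation.ne_zero_iff _).2 D.ϖL_ne_zero
      have h5 : (D.V i).valuation (algebraMap E L D.ϖ) ^ n
          < (D.V i).valuation (algebraMap E L (a / D.ϖ)) := by
        rw [map_div₀, map_div₀, lt_div_iff₀ (zero_lt_iff.2 hϖL), ← pow_succ]
        exact h
      obtain ⟨t, u, hu0, hu, hu', e⟩ := ih _ h4 h3 h5
      refine ⟨t + 1, u, hu0, hu, hu', ?_⟩
      rw [pow_succ, mul_assoc, mul_comm D.ϖ u, ← mul_assoc, ← e, div_mul_cancel₀ _ D.hϖ0]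

/-- **Every non-zero element of `E` is `ϖ ^ t` times a unit of `V_E`.** -/
theorem nv_exists_zpow_unit (i : ι) (a : E) (ha : a ≠ 0) :
    ∃ (t : ℤ) (u : E), u ≠ 0 ∧ u ∈ D.VE ∧ u⁻¹ ∈ D.VE ∧ a = D.ϖ ^ t * u := by
  have key : ∀ a : E, a ≠ 0 → a ∈ D.VE →
      ∃ (t : ℕ) (u : E), u ≠ 0 ∧ u ∈ D.VE ∧ u⁻¹ ∈ D.VE ∧ a = D.ϖ ^ t * u := by
    intro a ha0 ha
    have haL : algebraMap E L a ≠ 0 := (map_ne_zero_iff _ (algebraMap E L).injective).2 ha0
    obtain ⟨n, hn⟩ := D.hA i (algebraMap E L D.ϖ) (algebraMap E L a) (D.val_ϖ_lt_one i) haL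
    rw [map_pow] at hn
    exact nv_exists_pow_unit_aux D i n a ha0 ha hn
  rcases D.VE.mem_or_inv_mem a with h | h
  · obtain ⟨t, u, hu0, hu, hu', e⟩ := key a ha h
    exact ⟨t, u, hu0, hu, hu', by rw [zpow_natCast]; exact e⟩
  · obtain ⟨t, u, hu0, hu, hu', e⟩ := key a⁻¹ (inv_ne_zero ha) h
    refine ⟨-t, u⁻¹, inv_ne_zero hu0, hu', by rwa [inv_inv], ?_⟩
    rw [zpow_neg, zpow_natCast, ← mul_inv, ← e, inv_inv]

/-- The values of the elements of `E`: powers of the value of `ϖ`, with the same exponent for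
`V_E` and for all `V i`. -/
theorem nv_val_const (i₀ : ι) (a : E) (ha : a ≠ 0) :
    ∃ t : ℤ, D.VE.valuation a = D.VE.valuation D.ϖ ^ t ∧
      ∀ i, (D.V i).valuation (algebraMap E L a) = (D.V i).valuation (algebraMap E L D.ϖ) ^ t := by
  obtain ⟨t, u, hu0, hu, hu', e⟩ := nv_exists_zpow_unit D i₀ a ha
  refine ⟨t, ?_, fun i => ?_⟩
  · rw [e, map_mul, map_zpow₀, nv_valE_unit D hu0 hu hu', mul_one]
  · rw [e, map_mul, map_zpow₀, map_mul, map_zpow₀, nv_val_unit D i hu0 hu hu', mul_one]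

/-- For `x ≠ 0` in `L`, algebraic over `E`, a positive power of the value of `x` is the value of
an element of `E`. -/
theorem nv_exists_pow_val_eq [Algebra.IsAlgebraic E L] (W : ValuationSubring L) (x : L)
    (hx : x ≠ 0) :
    ∃ (m : ℕ) (a : E), 0 < m ∧ a ≠ 0 ∧
      W.valuation x ^ m = W.valuation (algebraMap E L a) := by
  classical
  obtain ⟨p, hp0, hp⟩ := (Algebra.IsAlgebraic.isAlgebraic (R := E) x)
  have hsum : ∑ k ∈ p.support, algebraMap E L (p.coeff k) * x ^ k = 0 := by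
    rw [← hp, Polynomial.aeval_def, Polynomial.eval₂_eq_sum, Polynomial.sum_def]
  have hsupp : p.support.Nonempty := Polynomial.support_nonempty.mpr hp0
  have hterm : ∀ k ∈ p.support, W.valuation (algebraMap E L (p.coeff k) * x ^ k) ≠ 0 := by
    intro k hk
    rw [Valuation.ne_zero_iff]
    exact mul_ne_zero ((map_ne_zero_iff _ (algebraMap E L).injective).2
      (Polynomial.mem_support_iff.mp hk)) (pow_ne_zero _ hx)
  -- two terms with the same value
  have hex : ∃ k ∈ p.support, ∃ l ∈ p.support, k < l ∧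
      W.valuation (algebraMap E L (p.coeff k) * x ^ k)
        = W.valuation (algebraMap E L (p.coeff l) * x ^ l) := by
    by_contra hcon
    simp only [not_exists, not_and] at hcon
    obtain ⟨j, hj, hjmax⟩ := Finset.exists_max_image p.support
      (fun k => W.valuation (algebraMap E L (p.coeff k) * x ^ k)) hsupp
    have hlt : ∀ i ∈ p.support \ {j}, W.valuation (algebraMap E L (p.coeff i) * x ^ i)
        < W.valuation (algebraMap E L (p.coeff j) * x ^ j) := by
      intro i hi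
      rw [Finset.mem_sdiff, Finset.mem_singleton] at hi
      refine lt_of_le_of_ne (hjmax i hi.1) ?_
      rcases lt_or_gt_of_ne hi.2 with h1 | h1
      · exact hcon i hi.1 j hj h1
      · exact fun e => hcon j hj i hi.1 h1 e.symm
    have := Valuation.map_sum_eq_of_lt W.valuation hj hlt
    rw [hsum, map_zero] at this
    exact hterm j hj this.symm
  obtain ⟨k, hk, l, hl, hkl, e⟩ := hex
  have hck : p.coeff k ≠ 0 := Polynomial.mem_support_iff.mp hk
  have hcl : p.coeff l ≠ 0 := Polynomial.mem_support_iff.mp hl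
  refine ⟨l - k, p.coeff k / p.coeff l, by omega, div_ne_zero hck hcl, ?_⟩
  have hxv : W.valuation x ≠ 0 := (Valuation.ne_zero_iff _).2 hx
  have hclv : W.valuation (algebraMap E L (p.coeff l)) ≠ 0 :=
    (Valuation.ne_zero_iff _).2 ((map_ne_zero_iff _ (algebraMap E L).injective).2 hcl)
  rw [map_mul, map_mul, map_pow, map_pow] at e
  rw [map_div₀, map_div₀, eq_div_iff hclv]
  have hpow : W.valuation x ^ l = W.valuation x ^ (l - k) * W.valuation x ^ k := by
    rw [← pow_add]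
    congr 1
    omega
  rw [hpow] at e
  have e' : W.valuation (algebraMap E L (p.coeff k)) * W.valuation x ^ k
      = (W.valuation x ^ (l - k) * W.valuation (algebraMap E L (p.coeff l)))
        * W.valuation x ^ k := by
    rw [e, ← mul_assoc, mul_comm (W.valuation (algebraMap E L (p.coeff l)))]
  exact (mul_right_cancel₀ (pow_ne_zero k hxv) e').symm

/-- **EXACT**: the value group of `V i` is generated by the value of `π i`. -/
theorem nv_exists_val_eq_zpow [Fintype ι] [DecidableEq ι] [Module.Finite E L]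
    (hdeg : ∑ i, D.e i * Module.finrank Et (κ i) = Module.finrank E L) (i : ι) (x : L)
    (hx : x ≠ 0) : ∃ k : ℤ, (D.V i).valuation x = (D.V i).valuation (D.π i) ^ k := by
  haveI : Algebra.IsAlgebraic E L := Algebra.IsAlgebraic.of_finite E L
  obtain ⟨m, a, hm, ha, hma⟩ := nv_exists_pow_val_eq (E := E) (D.V i) x hx
  obtain ⟨t, -, ht⟩ := nv_val_const D i a ha
  have hγ : (D.V i).valuation x ≠ 0 := (Valuation.ne_zero_iff _).2 hx
  have hϱ : (D.V i).valuation (D.π i) ≠ 0 := D.val_π_ne_zero i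
  have h1 : (D.V i).valuation x ^ m = (D.V i).valuation (D.π i) ^ ((D.e i : ℤ) * t) := by
    rw [hma, ht i, D.hram i, ← zpow_natCast, ← zpow_mul]
  obtain ⟨m', K', u, v, hm', e1, e2⟩ := nv_bezout hγ hϱ hm h1
  by_cases h1' : m' = 1
  · refine ⟨K', ?_⟩
    rw [h1', pow_one] at e1
    rw [e1] at e2
    exact e2
  · exfalso
    have hm2 : 2 ≤ m' := by omega
    set π' : L := D.π i ^ u * x ^ v with hπ'
    have hvπ' : (D.V i).valuation π'
        = (D.V i).valuation (D.π i) ^ u * (D.V i).valuation x ^ v := by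
      rw [hπ', map_mul, map_zpow₀, map_zpow₀]
    rw [← hvπ'] at e1
    have hlt : (D.V i).valuation π' < 1 := by
      have := D.hπ i
      rw [← e1] at this
      exact (pow_lt_one_iff hm'.ne').mp this
    let D' : NRData E L Et ι κ :=
      { D with
        π := Function.update D.π i π'
        e := Function.update D.e i (m' * D.e i)
        hπ := fun j => by
          by_cases hj : j = i
          · subst hj
            rw [Function.update_self]
            exact hlt
          · rw [Function.update_of_ne hj]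
            exact D.hπ j
        he := fun j => by
          by_cases hj : j = i
          · subst hj
            rw [Function.update_self]
            exact Nat.mul_pos hm' (D.he j)
          · rw [Function.update_of_ne hj]
            exact D.he j
        hram := fun j => by
          by_cases hj : j = i
          · subst hj
            rw [Function.update_self, Function.update_self, pow_mul, e1]
            exact D.hram j
          · rw [Function.update_of_ne hj, Function.update_of_ne hj]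
            exact D.hram j }
    have hle := D'.sum_le_finrank
    rw [← hdeg] at hle
    have hfin : Module.Finite Et (κ i) := D.finite_res i
    have hfpos : 0 < Module.finrank Et (κ i) := Module.finrank_pos
    have hlt' : ∑ j, D.e j * Module.finrank Et (κ j) < ∑ j, D'.e j * Module.finrank Et (κ j) := by
      refine Finset.sum_lt_sum (fun j _ => ?_) ⟨i, Finset.mem_univ i, ?_⟩
      · by_cases hj : j = i
        · subst hj
          show D.e j * _ ≤ Function.update D.e j (m' * D.e j) j * _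
          rw [Function.update_self]
          exact Nat.mul_le_mul_right _ (Nat.le_mul_of_pos_left _ hm')
        · show D.e j * _ ≤ Function.update D.e i (m' * D.e i) j * _
          rw [Function.update_of_ne hj]
      · show D.e i * _ < Function.update D.e i (m' * D.e i) i * _
        rw [Function.update_self]
        have h3 : 0 < D.e i * Module.finrank Et (κ i) := Nat.mul_pos (D.he i) hfpos
        calc D.e i * Module.finrank Et (κ i) < 2 * (D.e i * Module.finrank Et (κ i)) := by omega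
          _ ≤ m' * (D.e i * Module.finrank Et (κ i)) := Nat.mul_le_mul_right _ hm2
          _ = m' * D.e i * Module.finrank Et (κ i) := by ring
    exact absurd hle (not_le.2 hlt')

/-- **NORM-VAL**: the valuation of the norm of an arbitrary non-zero element. -/
theorem nv_val_norm [Fintype ι] [DecidableEq ι] [Module.Finite E L]
    (hdeg : ∑ i, D.e i * Module.finrank Et (κ i) = Module.finrank E L) (x : L)
    (k : ι → ℤ) (hk : ∀ i, (D.V i).valuation x = (D.V i).valuation (D.π i) ^ k i) :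
    D.VE.valuation (Algebra.norm E x)
      = D.VE.valuation D.ϖ ^ (∑ i, (Module.finrank Et (κ i) : ℤ) * k i) := by
  classical
  set P : ℕ := ∏ j, D.e j with hP
  have hP0 : 0 < P := Finset.prod_pos (fun j _ => D.he j)
  have hdiv : ∀ i, ∃ Q : ℕ, P = D.e i * Q := fun i =>
    Finset.dvd_prod_of_mem D.e (Finset.mem_univ i)
  choose Q hQ using hdiv
  set y : L := x ^ P with hy
  set c : ι → E := fun i => D.ϖ ^ (-((Q i : ℤ) * k i)) with hc
  have hc0 : ∀ i, c i ≠ 0 := fun i => zpow_ne_zero _ D.hϖ0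
  have hval : ∀ i, (D.V i).valuation (algebraMap E L (c i) * y) = 1 := by
    intro i
    have e : (D.e i : ℤ) * (-((Q i : ℤ) * k i)) + k i * (P : ℤ) = 0 := by
      rw [hQ i]; push_cast; ring
    rw [hy, hc, map_mul, map_pow, hk i, map_zpow₀ (algebraMap E L), map_zpow₀, D.hram i,
      ← zpow_natCast (_ ^ k i), ← zpow_mul,
      ← zpow_natCast ((D.V i).valuation (D.π i)) (D.e i), ← zpow_mul,
      ← zpow_add₀ (D.val_π_ne_zero i), e, zpow_zero]
  have hu : ∀ i, algebraMap E L (c i) * y ∈ D.V i := fun i =>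
    (ValuationSubring.valuation_le_one_iff _ _).1 (hval i).le
  haveI : ∀ i, Module.Finite Et (κ i) := fun i => D.finite_res i
  obtain ⟨δ, hδ, hδr⟩ := D.normRed_scaled hdeg y c hc0 hu
  -- `δ` is a unit
  have hred : ∀ i, D.red i ⟨_, hu i⟩ ≠ 0 := by
    intro i h0
    have hunit : IsUnit (⟨_, hu i⟩ : ↥(D.V i)) :=
      (ValuationSubring.valuation_eq_one_iff _ _).2 (hval i)
    exact (hunit.map (D.red i)).ne_zero h0
  have hδ0 : D.redE δ ≠ 0 := by
    rw [hδr]
    refine Finset.prod_ne_zero_iff.2 fun i _ => pow_ne_zero _ ?_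
    haveI := D.finite_res i
    exact Algebra.norm_ne_zero_iff.2 (hred i)
  have hδu : IsUnit δ := by
    by_contra h
    exact hδ0 (D.hkerE δ h)
  have hδv : D.VE.valuation (δ : E) = 1 := (ValuationSubring.valuation_eq_one_iff _ _).1 hδu
  have hϖv : D.VE.valuation D.ϖ ≠ 0 := (Valuation.ne_zero_iff _).2 D.hϖ0
  -- the valuation of the product of the constants
  have hprod : D.VE.valuation (∏ i, c i ^ (D.e i * Module.finrank Et (κ i)))
      = D.VE.valuation D.ϖ ^ (-((P : ℤ) * ∑ i, (Module.finrank Et (κ i) : ℤ) * k i)) := by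
    rw [map_prod]
    have : ∀ i ∈ Finset.univ, D.VE.valuation (c i ^ (D.e i * Module.finrank Et (κ i)))
        = D.VE.valuation D.ϖ ^ (-((P : ℤ) * ((Module.finrank Et (κ i) : ℤ) * k i))) := by
      intro i _
      rw [hc, map_pow, map_zpow₀, ← zpow_natCast, ← zpow_mul]
      congr 1
      rw [hQ i]
      push_cast
      ring
    rw [Finset.prod_congr rfl this, nv_prod_zpow _ _ hϖv, Finset.sum_neg_distrib,
      Finset.mul_sum]
  have h1 := congrArg D.VE.valuation hδ
  rw [map_mul, hδv, hprod] at h1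
  have h2 : D.VE.valuation (Algebra.norm E y)
      = D.VE.valuation D.ϖ ^ ((P : ℤ) * ∑ i, (Module.finrank Et (κ i) : ℤ) * k i) := by
    have h3 := congrArg (fun z => D.VE.valuation D.ϖ ^
      ((P : ℤ) * ∑ i, (Module.finrank Et (κ i) : ℤ) * k i) * z) h1
    simp only [mul_one] at h3
    rw [← mul_assoc, ← zpow_add₀ hϖv, add_neg_cancel, zpow_zero, one_mul] at h3
    exact h3
  rw [hy, map_pow, map_pow, mul_comm (P : ℤ), zpow_mul, zpow_natCast] at h2
  exact (pow_left_inj hP0.ne').mp h2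

/-- **NORM-VAL**, existence form. -/
theorem nv_exists_val_norm [Fintype ι] [DecidableEq ι] [Module.Finite E L]
    (hdeg : ∑ i, D.e i * Module.finrank Et (κ i) = Module.finrank E L) (x : L) (hx : x ≠ 0) :
    ∃ k : ι → ℤ, (∀ i, (D.V i).valuation x = (D.V i).valuation (D.π i) ^ k i) ∧
      D.VE.valuation (Algebra.norm E x)
        = D.VE.valuation D.ϖ ^ (∑ i, (Module.finrank Et (κ i) : ℤ) * k i) := by
  choose k hk using fun i => nv_exists_val_eq_zpow D hdeg i x hx
  exact ⟨k, hk, nv_val_norm D hdeg x k hk⟩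

end Fermat.Agent.S36.NU.H79

end
end
-- ==== END Fermat.Agent.S36.NU.H79_NormVal

-- ==== BEGIN Fermat.Agent.S36.NU.H81_NUFinal
section

/-!
# S36 / NU-B (helper81): everything from the Kummer form at the tame levels

`Stmt_NUCoreTame` : `Stmt_NUCore M q p` for all `p` and all tame `(M, q)` (`4 ∣ M` for `q` odd,
`9 ∣ M` for `q = 2`).  This is the target of the assembly FIN of NU-B.

* `torsNU_final : Stmt_NUCoreTame → ∀ M q p, Stmt_TorsNU M q p` (level descent KD-NU with the base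
  change of the norm of helper44);
* `tatePieceNU_of_core : Stmt_NUCoreTame → S35.Stmt_TatePieceNU` (T-X wiring), the second input
  of `S35.s36_of`.
-/

set_option autoImplicit false

noncomputable section

namespace Fermat.Agent.S36.NU.H81

open Fermat.Agent.S35.H89

/-- **The target of NU-B**: the Kummer form of (NU) at all tame levels. -/
def Stmt_NUCoreTame : Prop :=
  ∀ (p M q : ℕ) [NeZero M] [NeZero q], TameNU M q → Stmt_NUCore M q p

/-- **(NU) at every level.** -/
theorem torsNU_final (h : Stmt_NUCoreTame) (M q p : ℕ) [NeZero M] [NeZero q] :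
    Stmt_TorsNU M q p :=
  torsNU_all Fermat.Agent.S36.NU.H44.stmt_NormUpNU p (fun M' q' _ _ ht => h p M' q' ht) M q

/-- **The Tate piece without inertia invariants**, from the Kummer form at the tame levels. -/
theorem tatePieceNU_of_core (h : Stmt_NUCoreTame) : Fermat.Agent.S35.Stmt_TatePieceNU :=
  Fermat.Agent.GTor.H81.tatePieceNU_final (fun M q p _ _ => torsNU_final h M q p)

end Fermat.Agent.S36.NU.H81

end
end
-- ==== END Fermat.Agent.S36.NU.H81_NUFinal

-- ==== BEGIN Fermat.Agent.S36.NU.H82_CuspEta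
section

/-!
# S36 / NU-B, leaf CUSPS (helper82), part 3: the four families of conjugates (over `ℂ`)

Level `N = M q²`.  With `D_d = ` conjugates of `Δ(dτ)`, `E_d = ` conjugates of `E₄³(dτ)`:

* `Y20 = D_q / D_{q²}`             (conjugates of `eps2 = Δ(qτ)/Δ(q²τ)`),  `ord ≥ - q (q - 1) N`;
* `Y02 = (D_q / D_1)^q`            (conjugates of `eps1⁻q`),               `ord ≥ - (q - 1) N`;
* `Y11 = D_1 D_{q²} / D_q²`        (conjugates of `eps1 / eps2`),          `ord ≥ - 2 (q - 1) N`;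
* `Yx  = (E_{q²} D_1 - E_1 D_{q²}) / D_q²`  (conjugates of `(j″ - j) eps1 / eps2`),
                                                                          `ord ≥ - (2 q - 1) N`.

For each: the symmetric functions are polynomials in `j` (`sym_*`, from helper76's
`sym_of_families`), the coefficients lie in `ℤ[ζ_N, 1/N]` (`coeff_*`) and the orders are bounded
(`ord_*`).
-/

set_option autoImplicit false
set_option linter.unusedSectionVars false
set_option linter.unusedVariables false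
set_option synthInstance.maxHeartbeats 400000

open UpperHalfPlane ModularForm ModularCurve Function
open scoped MatrixGroups ModularForm Manifold

noncomputable section

namespace Fermat.Agent.S36.NU.H82

open Fermat.Agent.S23.H22 (G0 Q toSL piPerm q1 E12)
open Fermat.Agent.S28 Fermat.Agent.S28.H30
open Fermat.Agent.S28.H76 (Xfam Xfam_q1 pexp_fam_q1 sym_of_families)

/-! ### Arithmetic of the orders -/

section Ord

theorem ordAt_one_eq (N : ℕ) (c : ℤ) : ordAt N 1 c = N := by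
  simp [ordAt]

variable (q M : ℕ)

theorem ordAt_cases (hq : q.Prime) (c : ℤ) :
    (ordAt (M * q * q) q c = M * q ∧ ordAt (M * q * q) (q * q) c = M) ∨
    (ordAt (M * q * q) q c = q * (M * q * q) ∧ ordAt (M * q * q) (q * q) c = M * q * q) ∨
    (ordAt (M * q * q) q c = q * (M * q * q) ∧
      ordAt (M * q * q) (q * q) c = q * q * (M * q * q)) := by
  have hq0 : 0 < q := hq.pos
  have hd1 : M * q * q / q = M * q := Nat.mul_div_cancel _ hq0
  have hd2 : M * q * q / (q * q) = M := by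
    rw [mul_assoc]
    exact Nat.mul_div_cancel _ (Nat.mul_pos hq0 hq0)
  have hg1 : Int.gcd c (q : ℤ) = Nat.gcd c.natAbs q := by
    rw [Int.gcd, Int.natAbs_natCast]
  have hg2 : Int.gcd c ((q * q : ℕ) : ℤ) = Nat.gcd c.natAbs (q * q) := by
    rw [Int.gcd, Int.natAbs_natCast]
  by_cases hdvd : q ∣ c.natAbs
  · have h1 : Nat.gcd c.natAbs q = q := Nat.gcd_eq_right hdvd
    have h2 : Nat.gcd c.natAbs (q * q) ∣ q ^ 2 := by
      rw [sq]; exact Nat.gcd_dvd_right _ _
    obtain ⟨i, hi, hgi⟩ := (Nat.dvd_prime_pow hq).1 h2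
    have hqg : q ∣ Nat.gcd c.natAbs (q * q) := Nat.dvd_gcd hdvd (dvd_mul_right q q)
    have hi0 : i ≠ 0 := by
      rintro rfl
      rw [hgi, pow_zero] at hqg
      exact hq.one_lt.ne' (Nat.dvd_one.1 hqg)
    have hi' : i = 1 ∨ i = 2 := by omega
    rcases hi' with rfl | rfl
    · right; left
      refine ⟨?_, ?_⟩
      · rw [ordAt, hg1, h1, hd1]; ring
      · rw [ordAt]
        push_cast at hg2 ⊢
        rw [hg2, hgi, hd2]
        ring
    · right; right
      refine ⟨?_, ?_⟩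
      · rw [ordAt, hg1, h1, hd1]; ring
      · rw [ordAt]
        push_cast at hg2 ⊢
        rw [hg2, hgi, hd2]
        ring
  · have hc : Nat.Coprime c.natAbs q := ((Nat.Prime.coprime_iff_not_dvd hq).2 hdvd).symm
    have h1 : Nat.gcd c.natAbs q = 1 := hc
    have h2 : Nat.gcd c.natAbs (q * q) = 1 := Nat.Coprime.mul_right hc hc
    left
    refine ⟨?_, ?_⟩
    · rw [ordAt, hg1, h1, hd1]; ring
    · rw [ordAt]
      push_cast at hg2 ⊢
      rw [hg2, h2, hd2]
      ring

end Ord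

/-! ### The four families -/

section Fam

variable (q M : ℕ) [NeZero (M * q * q)]

theorem dvd_lvl_q : q ∣ M * q * q := dvd_mul_left q (M * q)

theorem dvd_lvl_qq : q * q ∣ M * q * q := ⟨M, by ring⟩

/-- The conjugates of `Δ(dτ)`. -/
abbrev Dc (d : ℕ) (c : Q (M * q * q)) : LaurentSeries ℂ :=
  pexp (M * q * q) (fam (M * q * q) d DeltaMF c)

/-- The conjugates of `E₄³(dτ)`. -/
abbrev Ec (d : ℕ) (c : Q (M * q * q)) : LaurentSeries ℂ :=
  pexp (M * q * q) (fam (M * q * q) d E12 c)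

/-- The conjugates of `eps2 = Δ(qτ)/Δ(q²τ)`. -/
def Y20 (c : Q (M * q * q)) : LaurentSeries ℂ := Dc q M q c / Dc q M (q * q) c

/-- The conjugates of `eps1⁻q = (Δ(qτ)/Δ(τ))^q`. -/
def Y02 (c : Q (M * q * q)) : LaurentSeries ℂ := (Dc q M q c / Dc q M 1 c) ^ q

/-- The conjugates of `eps1 / eps2 = Δ(τ) Δ(q²τ) / Δ(qτ)²`. -/
def Y11 (c : Q (M * q * q)) : LaurentSeries ℂ :=
  Dc q M 1 c * Dc q M (q * q) c / Dc q M q c ^ 2

/-- The conjugates of `(j(q²τ) - j(τ)) eps1 / eps2`. -/
def Yx (c : Q (M * q * q)) : LaurentSeries ℂ :=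
  (Ec q M (q * q) c * Dc q M 1 c - Ec q M 1 c * Dc q M (q * q) c) / Dc q M q c ^ 2

/-! #### The symmetric functions -/

theorem sym_Y20 (c₀ : ℂ) :
    (∏ c : Q (M * q * q), (HahnSeries.C c₀ - Y20 q M c)) ∈
      Algebra.adjoin ℂ ({iotaN (M * q * q) jq} : Set (LaurentSeries ℂ)) := by
  have h := sym_of_families (M * q * q) 12 (fam (M * q * q) q DeltaMF)
    (fam (M * q * q) (q * q) DeltaMF) (fam_slash _ _ _) (fam_slash _ _ _)
    (fam_BPH _ (dvd_lvl_q q M) DeltaMF) (fam_BPH _ (dvd_lvl_qq q M) DeltaMF)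
    (_root_.Fermat.Agent.S28.H30.fam_Delta_ne_zero (dvd_lvl_qq q M)) 1 (one_dvd _) c₀ 0
  convert h using 1
  refine Finset.prod_congr rfl fun c _ => ?_
  rw [map_zero, zero_mul, sub_zero, Y20]

theorem sym_Y02 (c₀ : ℂ) :
    (∏ c : Q (M * q * q), (HahnSeries.C c₀ - Y02 q M c)) ∈
      Algebra.adjoin ℂ ({iotaN (M * q * q) jq} : Set (LaurentSeries ℂ)) := by
  have hB1 := fam_BPH (M * q * q) (dvd_lvl_q q M) DeltaMF
  have hB2 := fam_BPH (M * q * q) (one_dvd (M * q * q)) DeltaMF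
  have h := sym_of_families (M * q * q) ((q : ℤ) * 12)
    (fun c => fam (M * q * q) q DeltaMF c ^ q) (fun c => fam (M * q * q) 1 DeltaMF c ^ q)
    ((fam_equi q DeltaMF).pow q) ((fam_equi 1 DeltaMF).pow q)
    (fun c => (hB1 c).pow q) (fun c => (hB2 c).pow q)
    (fun c z => by
      rw [Pi.pow_apply]
      exact pow_ne_zero _ (_root_.Fermat.Agent.S28.H30.fam_Delta_ne_zero (one_dvd _) c z)) 1 (one_dvd _) c₀ 0
  convert h using 1
  refine Finset.prod_congr rfl fun c _ => ?_
  rw [map_zero, zero_mul, sub_zero, Y02, pexp_pow (hB1 c), pexp_pow (hB2 c), div_pow]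

theorem sym_Y11 (c₀ : ℂ) :
    (∏ c : Q (M * q * q), (HahnSeries.C c₀ - Y11 q M c)) ∈
      Algebra.adjoin ℂ ({iotaN (M * q * q) jq} : Set (LaurentSeries ℂ)) := by
  have hB1 := fam_BPH (M * q * q) (dvd_lvl_q q M) DeltaMF
  have hB2 := fam_BPH (M * q * q) (one_dvd (M * q * q)) DeltaMF
  have hB3 := fam_BPH (M * q * q) (dvd_lvl_qq q M) DeltaMF
  have h := sym_of_families (M * q * q) (12 + 12)
    (fun c => fam (M * q * q) 1 DeltaMF c * fam (M * q * q) (q * q) DeltaMF c)
    (fun c => fam (M * q * q) q DeltaMF c ^ 2)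
    ((fam_equi 1 DeltaMF).mul (fam_equi (q * q) DeltaMF))
    (((fam_equi q DeltaMF).pow 2).congr_wt (by norm_num))
    (fun c => (hB2 c).mul (hB3 c)) (fun c => (hB1 c).pow 2)
    (fun c z => by
      rw [Pi.pow_apply]
      exact pow_ne_zero _ (_root_.Fermat.Agent.S28.H30.fam_Delta_ne_zero (dvd_lvl_q q M) c z)) 1 (one_dvd _) c₀ 0
  convert h using 1
  refine Finset.prod_congr rfl fun c _ => ?_
  rw [map_zero, zero_mul, sub_zero, Y11, pexp_pow (hB1 c), pexp_mul (hB2 c) (hB3 c)]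

theorem sym_Yx (c₀ : ℂ) :
    (∏ c : Q (M * q * q), (HahnSeries.C c₀ - Yx q M c)) ∈
      Algebra.adjoin ℂ ({iotaN (M * q * q) jq} : Set (LaurentSeries ℂ)) := by
  have hB1 := fam_BPH (M * q * q) (dvd_lvl_q q M) DeltaMF
  have hB2 := fam_BPH (M * q * q) (one_dvd (M * q * q)) DeltaMF
  have hB3 := fam_BPH (M * q * q) (dvd_lvl_qq q M) DeltaMF
  have hE2 := fam_BPH (M * q * q) (one_dvd (M * q * q)) E12
  have hE3 := fam_BPH (M * q * q) (dvd_lvl_qq q M) E12
  have h := sym_of_families (M * q * q) (12 + 12)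
    (fun c => fam (M * q * q) (q * q) E12 c * fam (M * q * q) 1 DeltaMF c
      - fam (M * q * q) 1 E12 c * fam (M * q * q) (q * q) DeltaMF c)
    (fun c => fam (M * q * q) q DeltaMF c ^ 2)
    (((fam_equi (q * q) E12).mul (fam_equi 1 DeltaMF)).sub
      ((fam_equi 1 E12).mul (fam_equi (q * q) DeltaMF)))
    (((fam_equi q DeltaMF).pow 2).congr_wt (by norm_num))
    (fun c => ((hE3 c).mul (hB2 c)).sub ((hE2 c).mul (hB3 c))) (fun c => (hB1 c).pow 2)
    (fun c z => by
      rw [Pi.pow_apply]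
      exact pow_ne_zero _ (_root_.Fermat.Agent.S28.H30.fam_Delta_ne_zero (dvd_lvl_q q M) c z)) 1 (one_dvd _) c₀ 0
  convert h using 1
  refine Finset.prod_congr rfl fun c _ => ?_
  rw [map_zero, zero_mul, sub_zero, Yx, pexp_pow (hB1 c),
    pexp_sub ((hE3 c).mul (hB2 c)) ((hE2 c).mul (hB3 c)), pexp_mul (hE3 c) (hB2 c),
    pexp_mul (hE2 c) (hB3 c)]

/-! #### Coefficients and orders -/

theorem coeff_zero_of_uls {O : Subring ℂ} {f : LaurentSeries ℂ} {k : ℤ} (h : ULS O f k)
    {m n : ℤ} (hm : m ≤ k) (hn : n < m) : f.coeff n = 0 :=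
  HahnSeries.coeff_eq_zero_of_lt_order (by rw [h.ord]; omega)

theorem tVal_of_uls {O : Subring ℂ} {f : LaurentSeries ℂ} {k : ℤ} (h : ULS O f k) :
    Fermat.Agent.S28.H90.tVal ℂ f = WithZero.exp (-k) := by
  rw [Fermat.Agent.S28.H90.tVal_eq_exp_neg_order h.ne, h.ord]

theorem uls_Y20 (γ : SL(2, ℤ)) :
    ULS (coeffRing (M * q * q)) (Y20 q M (⟦toSL γ⟧ : Q (M * q * q)))
      ((ordAt (M * q * q) q ((γ⁻¹ : SL(2, ℤ)) 1 0) : ℤ)
        - (ordAt (M * q * q) (q * q) ((γ⁻¹ : SL(2, ℤ)) 1 0) : ℤ)) :=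
  (uls_fam_Delta _ (dvd_lvl_q q M) γ).div (uls_fam_Delta _ (dvd_lvl_qq q M) γ)

theorem uls_Y02 (γ : SL(2, ℤ)) :
    ULS (coeffRing (M * q * q)) (Y02 q M (⟦toSL γ⟧ : Q (M * q * q)))
      ((q : ℤ) * ((ordAt (M * q * q) q ((γ⁻¹ : SL(2, ℤ)) 1 0) : ℤ)
        - (ordAt (M * q * q) 1 ((γ⁻¹ : SL(2, ℤ)) 1 0) : ℤ))) :=
  ((uls_fam_Delta _ (dvd_lvl_q q M) γ).div (uls_fam_Delta _ (one_dvd _) γ)).pow q

theorem uls_Y11 (γ : SL(2, ℤ)) :
    ULS (coeffRing (M * q * q)) (Y11 q M (⟦toSL γ⟧ : Q (M * q * q)))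
      ((ordAt (M * q * q) 1 ((γ⁻¹ : SL(2, ℤ)) 1 0) : ℤ)
        + (ordAt (M * q * q) (q * q) ((γ⁻¹ : SL(2, ℤ)) 1 0) : ℤ)
        - ((2 : ℕ) : ℤ) * (ordAt (M * q * q) q ((γ⁻¹ : SL(2, ℤ)) 1 0) : ℤ)) :=
  ((uls_fam_Delta _ (one_dvd _) γ).mul (uls_fam_Delta _ (dvd_lvl_qq q M) γ)).div
    ((uls_fam_Delta _ (dvd_lvl_q q M) γ).pow 2)

theorem coeff_Y20 (c : Q (M * q * q)) (n : ℤ) : (Y20 q M c).coeff n ∈ coeffRing (M * q * q) := by
  obtain ⟨γ, rfl⟩ := exists_rep (M * q * q) c
  exact (uls_Y20 q M γ).coeffs n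

theorem coeff_Y02 (c : Q (M * q * q)) (n : ℤ) : (Y02 q M c).coeff n ∈ coeffRing (M * q * q) := by
  obtain ⟨γ, rfl⟩ := exists_rep (M * q * q) c
  exact (uls_Y02 q M γ).coeffs n

theorem coeff_Y11 (c : Q (M * q * q)) (n : ℤ) : (Y11 q M c).coeff n ∈ coeffRing (M * q * q) := by
  obtain ⟨γ, rfl⟩ := exists_rep (M * q * q) c
  exact (uls_Y11 q M γ).coeffs n

theorem coeff_Yx (c : Q (M * q * q)) (n : ℤ) : (Yx q M c).coeff n ∈ coeffRing (M * q * q) := by
  obtain ⟨γ, rfl⟩ := exists_rep (M * q * q) c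
  have hD1 := uls_fam_Delta (M * q * q) (one_dvd _) γ
  have hDq := uls_fam_Delta (M * q * q) (dvd_lvl_q q M) γ
  have hDqq := uls_fam_Delta (M * q * q) (dvd_lvl_qq q M) γ
  have hE1 := uls_fam_of_intQ (M * q * q) (one_dvd _) E12 intQ_E12 qExpansion_E12_coeff_zero
    (⟦toSL γ⟧ : Q (M * q * q))
  have hEqq := uls_fam_of_intQ (M * q * q) (dvd_lvl_qq q M) E12 intQ_E12
    qExpansion_E12_coeff_zero (⟦toSL γ⟧ : Q (M * q * q))
  rw [Yx, div_eq_mul_inv]
  refine coeff_mul_mem (fun n => ?_) ((hDq.pow 2).inv.coeffs) n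
  rw [HahnSeries.coeff_sub]
  exact sub_mem ((hEqq.mul hD1).coeffs n) ((hE1.mul hDqq).coeffs n)

variable (hq : q.Prime)

include hq

theorem ord_Y20 (c : Q (M * q * q)) (n : ℤ)
    (hn : n < -(((q * (q - 1) : ℕ) : ℤ) * ((M * q * q : ℕ) : ℤ))) : (Y20 q M c).coeff n = 0 := by
  obtain ⟨γ, rfl⟩ := exists_rep (M * q * q) c
  refine coeff_zero_of_uls (uls_Y20 q M γ) ?_ hn
  have hq1 : (1 : ℤ) ≤ q := by exact_mod_cast hq.one_le
  have hM0 : (0 : ℤ) ≤ M := by exact_mod_cast Nat.zero_le M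
  have hc : ((q - 1 : ℕ) : ℤ) = (q : ℤ) - 1 := by
    rw [Nat.cast_sub hq.one_le, Nat.cast_one]
  rcases ordAt_cases q M hq ((γ⁻¹ : SL(2, ℤ)) 1 0) with ⟨h1, h2⟩ | ⟨h1, h2⟩ | ⟨h1, h2⟩
  all_goals
    rw [h1, h2]
    push_cast
    rw [hc]
    nlinarith [mul_nonneg hM0 (sub_nonneg.2 hq1), mul_nonneg hM0 (le_trans zero_le_one hq1),
      mul_nonneg (mul_nonneg hM0 (le_trans zero_le_one hq1)) (le_trans zero_le_one hq1),
      mul_nonneg (mul_nonneg (mul_nonneg hM0 (le_trans zero_le_one hq1))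
        (le_trans zero_le_one hq1)) (sub_nonneg.2 hq1),
      mul_nonneg (mul_nonneg (mul_nonneg (mul_nonneg hM0 (le_trans zero_le_one hq1))
        (le_trans zero_le_one hq1)) (le_trans zero_le_one hq1)) (sub_nonneg.2 hq1)]

theorem ord_Y02 (c : Q (M * q * q)) (n : ℤ)
    (hn : n < -(((q - 1 : ℕ) : ℤ) * ((M * q * q : ℕ) : ℤ))) : (Y02 q M c).coeff n = 0 := by
  obtain ⟨γ, rfl⟩ := exists_rep (M * q * q) c
  refine coeff_zero_of_uls (uls_Y02 q M γ) ?_ hn
  have hq1 : (1 : ℤ) ≤ q := by exact_mod_cast hq.one_le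
  have hM0 : (0 : ℤ) ≤ M := by exact_mod_cast Nat.zero_le M
  have hc : ((q - 1 : ℕ) : ℤ) = (q : ℤ) - 1 := by
    rw [Nat.cast_sub hq.one_le, Nat.cast_one]
  rw [ordAt_one_eq]
  rcases ordAt_cases q M hq ((γ⁻¹ : SL(2, ℤ)) 1 0) with ⟨h1, h2⟩ | ⟨h1, h2⟩ | ⟨h1, h2⟩
  all_goals
    rw [h1]
    push_cast
    rw [hc]
    nlinarith [mul_nonneg hM0 (sub_nonneg.2 hq1), mul_nonneg hM0 (le_trans zero_le_one hq1),
      mul_nonneg (mul_nonneg hM0 (le_trans zero_le_one hq1)) (le_trans zero_le_one hq1),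
      mul_nonneg (mul_nonneg (mul_nonneg hM0 (le_trans zero_le_one hq1))
        (le_trans zero_le_one hq1)) (sub_nonneg.2 hq1),
      mul_nonneg (mul_nonneg (mul_nonneg (mul_nonneg hM0 (le_trans zero_le_one hq1))
        (le_trans zero_le_one hq1)) (le_trans zero_le_one hq1)) (sub_nonneg.2 hq1)]

theorem ord_Y11 (c : Q (M * q * q)) (n : ℤ)
    (hn : n < -(((2 * (q - 1) : ℕ) : ℤ) * ((M * q * q : ℕ) : ℤ))) : (Y11 q M c).coeff n = 0 := by
  obtain ⟨γ, rfl⟩ := exists_rep (M * q * q) c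
  refine coeff_zero_of_uls (uls_Y11 q M γ) ?_ hn
  have hq1 : (1 : ℤ) ≤ q := by exact_mod_cast hq.one_le
  have hM0 : (0 : ℤ) ≤ M := by exact_mod_cast Nat.zero_le M
  have hc : ((q - 1 : ℕ) : ℤ) = (q : ℤ) - 1 := by
    rw [Nat.cast_sub hq.one_le, Nat.cast_one]
  rw [ordAt_one_eq]
  rcases ordAt_cases q M hq ((γ⁻¹ : SL(2, ℤ)) 1 0) with ⟨h1, h2⟩ | ⟨h1, h2⟩ | ⟨h1, h2⟩
  all_goals
    rw [h1, h2]
    push_cast
    rw [hc]
    nlinarith [mul_nonneg hM0 (sub_nonneg.2 hq1), mul_nonneg hM0 (le_trans zero_le_one hq1),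
      mul_nonneg (mul_nonneg hM0 (le_trans zero_le_one hq1)) (le_trans zero_le_one hq1),
      mul_nonneg (mul_nonneg hM0 (sub_nonneg.2 hq1)) (sub_nonneg.2 hq1),
      mul_nonneg (mul_nonneg (mul_nonneg hM0 (le_trans zero_le_one hq1))
        (le_trans zero_le_one hq1)) (sub_nonneg.2 hq1),
      mul_nonneg (mul_nonneg (mul_nonneg (mul_nonneg hM0 (le_trans zero_le_one hq1))
        (le_trans zero_le_one hq1)) (sub_nonneg.2 hq1)) (sub_nonneg.2 hq1)]

end Fam

end Fermat.Agent.S36.NU.H82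

end
end
-- ==== END Fermat.Agent.S36.NU.H82_CuspEta

-- ==== BEGIN Fermat.Agent.S36.NU.H87_NR2
section

/-!
# S36 / NU-MOD, leaf NM-A1 (helper87): `NRData` for two valuations (abstract builder)

Two valuation rings `V₀`, `V₁` of `L₀` over the discrete valuation ring `VE` of `E₀`
(uniformiser `ϖ`), residue maps `r₀ : V₀ → C`, `r₁ : V₁ → K₁`, where `C` is the residue field
of `VE`; structure maps: the identity of `C` for `V₀`, a given one `C → K₁` for `V₁`;
ramification `e = (1, e₁)` with uniformisers `(ϖ, π₁)`.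

* `kap2 C K₁ : Fin 2 → Type`, `nr2 : NRData E₀ L₀ C (Fin 2) (kap2 C K₁)`;
* `fund2` : `1 + e₁ [K₁ : C] ≤ [L₀ : E₀]` (fundamental inequality);
* `finrank_K1_eq_one_two` : if `1 + e₁ = [L₀ : E₀]` then `[K₁ : C] = 1`; `surjective_K1_two`;
* `hdeg_two` : `∑ e f = [L₀ : E₀]` if `1 + e₁ = [L₀ : E₀]`.
-/

set_option autoImplicit false
set_option linter.style.haveILetI false
set_option linter.unusedSectionVars false

noncomputable section

namespace Fermat.Agent.S36.NU.H87

open Fermat.Agent.BAD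

/-- The two residue fields. -/
def kap2 (C K₁ : Type) : Fin 2 → Type
  | 0 => C
  | 1 => K₁

instance kap2Field (C K₁ : Type) [Field C] [Field K₁] : ∀ i, Field (kap2 C K₁ i)
  | 0 => inferInstanceAs (Field C)
  | 1 => inferInstanceAs (Field K₁)

/-- The two structure maps: the identity, a given one. -/
@[reducible] def kap2Alg (C K₁ : Type) [Field C] [Field K₁] (a₁ : Algebra C K₁) :
    ∀ i, Algebra C (kap2 C K₁ i)
  | 0 => Algebra.id C
  | 1 => a₁

section Builder

variable {E₀ L₀ C K₁ : Type} [Field E₀] [Field L₀] [Field C] [Field K₁] [Algebra E₀ L₀]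
  (a₁ : Algebra C K₁)
  (VE : ValuationSubring E₀) (redE : ↥VE →+* C)
  (V₀ V₁ : ValuationSubring L₀)
  (r₀ : ↥V₀ →+* C) (r₁ : ↥V₁ →+* K₁)
  (ϖ : E₀) (π₁ : L₀) (e₁ : ℕ)

/-- The two valuation rings. -/
def VTwo : Fin 2 → ValuationSubring L₀
  | 0 => V₀
  | 1 => V₁

/-- The two residue maps. -/
def redTwo : ∀ i : Fin 2, ↥(VTwo V₀ V₁ i) →+* kap2 C K₁ i
  | 0 => r₀
  | 1 => r₁

/-- The two uniformisers. -/
def piTwo : Fin 2 → L₀
  | 0 => algebraMap E₀ L₀ ϖ
  | 1 => π₁

/-- The two ramification indices. -/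
def eTwo : Fin 2 → ℕ
  | 0 => 1
  | 1 => e₁

theorem val_lt_one_of_red_eq_zero_two {V : ValuationSubring L₀} {R : Type} [Field R]
    (r : ↥V →+* R) (x : L₀) (hx : x ∈ V) (h0 : r ⟨x, hx⟩ = 0) : V.valuation x < 1 := by
  rw [lt_iff_le_and_ne]
  refine ⟨(ValuationSubring.valuation_le_one_iff V x).2 hx, fun h1 => ?_⟩
  have hu : IsUnit (⟨x, hx⟩ : ↥V) := (ValuationSubring.valuation_eq_one_iff V ⟨x, hx⟩).2 h1
  exact (hu.map r).ne_zero h0

/-- **The `NRData` of two valuations.** -/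
def nr2 (hϖ0 : ϖ ≠ 0) (hϖ : ϖ ∈ VE) (hϖr : redE ⟨ϖ, hϖ⟩ = 0)
    (hE : ∀ a : E₀, VE.valuation a < 1 → VE.valuation a ≤ VE.valuation ϖ)
    (hVE₀ : ∀ a : E₀, a ∈ VE → algebraMap E₀ L₀ a ∈ V₀)
    (hVE₁ : ∀ a : E₀, a ∈ VE → algebraMap E₀ L₀ a ∈ V₁)
    (hkerE : ∀ a : ↥VE, ¬ IsUnit a → redE a = 0)
    (hs₀ : Function.Surjective r₀) (hs₁ : Function.Surjective r₁)
    (hk₀ : ∀ a : ↥V₀, ¬ IsUnit a → r₀ a = 0) (hk₁ : ∀ a : ↥V₁, ¬ IsUnit a → r₁ a = 0)
    (hc₀ : ∀ (a : ↥VE) (ha : algebraMap E₀ L₀ (a : E₀) ∈ V₀), r₀ ⟨_, ha⟩ = redE a)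
    (hc₁ : ∀ (a : ↥VE) (ha : algebraMap E₀ L₀ (a : E₀) ∈ V₁),
      r₁ ⟨_, ha⟩ = @algebraMap C K₁ _ _ a₁ (redE a))
    (h01 : ¬ V₀ ≤ V₁) (h10 : ¬ V₁ ≤ V₀)
    (hA₀ : H42.IsArch V₀) (hA₁ : H42.IsArch V₁)
    (hπ₁ : V₁.valuation π₁ < 1) (he₁ : 0 < e₁)
    (hram₁ : V₁.valuation (algebraMap E₀ L₀ ϖ) = V₁.valuation π₁ ^ e₁) :
    @H42.NRData E₀ L₀ C _ _ _ _ (Fin 2) (kap2 C K₁) _ (kap2Alg C K₁ a₁) :=
  letI := kap2Alg C K₁ a₁
  { VE := VE
    V := VTwo V₀ V₁
    redE := redE
    red := redTwo V₀ V₁ r₀ r₁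
    ϖ := ϖ
    π := piTwo ϖ π₁
    e := eTwo e₁
    hϖ0 := hϖ0
    hE := hE
    hVE := fun i => by
      fin_cases i
      · exact hVE₀
      · exact hVE₁
    hkerE := hkerE
    hsurj := fun i => by
      fin_cases i
      · exact hs₀
      · exact hs₁
    hker := fun i => by
      fin_cases i
      · exact hk₀
      · exact hk₁
    hcompat := fun i => by
      fin_cases i
      · exact hc₀
      · exact hc₁
    hinc := fun i j hij => by
      fin_cases i <;> fin_cases j
      · exact absurd rfl hij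
      · exact h01
      · exact h10
      · exact absurd rfl hij
    hA := fun i => by
      fin_cases i
      · exact hA₀
      · exact hA₁
    hπ := fun i => by
      fin_cases i
      · show V₀.valuation (algebraMap E₀ L₀ ϖ) < 1
        exact val_lt_one_of_red_eq_zero_two r₀ _ (hVE₀ ϖ hϖ) (by
          rw [hc₀ ⟨ϖ, hϖ⟩ (hVE₀ ϖ hϖ), hϖr])
      · exact hπ₁
    he := fun i => by
      fin_cases i
      · exact Nat.one_pos
      · exact he₁
    hram := fun i => by
      fin_cases i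
      · exact (pow_one _).symm
      · exact hram₁ }

end Builder

section Consequences

variable {E₀ L₀ C K₁ : Type} [Field E₀] [Field L₀] [Field C] [Field K₁] [Algebra E₀ L₀]
  [Module.Finite E₀ L₀]
  (a₁ : Algebra C K₁)
  (D : @H42.NRData E₀ L₀ C _ _ _ _ (Fin 2) (kap2 C K₁) _ (kap2Alg C K₁ a₁))

/-- **The fundamental inequality for two valuations.** -/
theorem fund2 (e₀ e₁ : ℕ)
    (he : letI := kap2Alg C K₁ a₁; D.e 0 = e₀ ∧ D.e 1 = e₁) :
    e₀ * 1 + e₁ * @Module.finrank C K₁ _ _ a₁.toModule ≤ Module.finrank E₀ L₀ := by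
  letI := kap2Alg C K₁ a₁
  have h := D.sum_le_finrank
  rw [Fin.sum_univ_two, he.1, he.2] at h
  have h0 : @Module.finrank C (kap2 C K₁ 0) _ _ (kap2Alg C K₁ a₁ 0).toModule = 1 :=
    Module.finrank_self C
  rw [h0] at h
  exact h

include D in
/-- The residue field `K₁` is finite over `C`. -/
theorem finite_K1_two : @Module.Finite C K₁ _ _ a₁.toModule := by
  letI := kap2Alg C K₁ a₁
  exact D.finite_res 1

include D in
/-- **`[K₁ : C] = 1`** if the degrees add up. -/
theorem finrank_K1_eq_one_two (n e₁ : ℕ) (hn : Module.finrank E₀ L₀ = n)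
    (he : letI := kap2Alg C K₁ a₁; D.e 0 = 1 ∧ D.e 1 = e₁) (hpos : 0 < e₁)
    (hsum : 1 + e₁ = n) :
    @Module.finrank C K₁ _ _ a₁.toModule = 1 := by
  have h := fund2 a₁ D 1 e₁ he
  rw [hn, ← hsum] at h
  have hpos' : 0 < @Module.finrank C K₁ _ _ a₁.toModule := by
    letI := a₁
    haveI : Module.Finite C K₁ := finite_K1_two a₁ D
    exact Module.finrank_pos
  have h1 : e₁ * @Module.finrank C K₁ _ _ a₁.toModule ≤ e₁ * 1 := by omega
  have h2 := Nat.le_of_mul_le_mul_left h1 hpos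
  omega

include D in
/-- The structure map `C → K₁` is surjective if the degrees add up. -/
theorem surjective_K1_two (n e₁ : ℕ) (hn : Module.finrank E₀ L₀ = n)
    (he : letI := kap2Alg C K₁ a₁; D.e 0 = 1 ∧ D.e 1 = e₁) (hpos : 0 < e₁)
    (hsum : 1 + e₁ = n) :
    Function.Surjective (@algebraMap C K₁ _ _ a₁) := by
  letI := a₁
  have h1 : Module.finrank C K₁ = 1 := finrank_K1_eq_one_two a₁ D n e₁ hn he hpos hsum
  haveI : Module.Finite C K₁ := finite_K1_two a₁ D
  intro y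
  have hb : (⊥ : Subalgebra C K₁) = ⊤ := Subalgebra.bot_eq_top_of_finrank_eq_one h1
  have hy : y ∈ (⊥ : Subalgebra C K₁) := by rw [hb]; trivial
  exact Algebra.mem_bot.mp hy

include D in
/-- **`∑ e f = [L₀ : E₀]`** if `1 + e₁ = [L₀ : E₀]`. -/
theorem hdeg_two (n e₁ : ℕ) (hn : Module.finrank E₀ L₀ = n)
    (he : letI := kap2Alg C K₁ a₁; D.e 0 = 1 ∧ D.e 1 = e₁) (hpos : 0 < e₁)
    (hsum : 1 + e₁ = n) :
    letI := kap2Alg C K₁ a₁
    ∑ i, D.e i * Module.finrank C (kap2 C K₁ i) = Module.finrank E₀ L₀ := by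
  letI := kap2Alg C K₁ a₁
  have h1 : @Module.finrank C K₁ _ _ a₁.toModule = 1 :=
    finrank_K1_eq_one_two a₁ D n e₁ hn he hpos hsum
  have h0 : @Module.finrank C (kap2 C K₁ 0) _ _ (kap2Alg C K₁ a₁ 0).toModule = 1 :=
    Module.finrank_self C
  have h1' : @Module.finrank C (kap2 C K₁ 1) _ _ (kap2Alg C K₁ a₁ 1).toModule = 1 := h1
  rw [Fin.sum_univ_two, he.1, he.2, h0, h1', hn, ← hsum, mul_one, mul_one]

end Consequences

end Fermat.Agent.S36.NU.H87

end
end
-- ==== END Fermat.Agent.S36.NU.H87_NR2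

-- ==== BEGIN Fermat.Agent.S36.NU.H88_Val3
section
attribute [local instance 10000] SubalgebraClass.toAlgebra
attribute [local instance 10000] HahnSeries.powerSeriesAlgebra

/-!
# S36, NU-B1 (helper88): the three Gauss valuations `V₂₀`, `V₁₁`, `V₀₂` of `F_N · Q̄`, `N = M q²`

`A` a valuation ring of `Q̄`, `B M + k q = 1`.
* `V20 A N`  : the Gauss valuation of the `q`-expansion at `∞`, `red20` its residue map;
* `V02`      : `V20 ∘ W_{q²}` (`W_{q²}` the Atkin–Lehner involution), `red02 = red20 ∘ W_{q²}`;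
* `V11`      : the Gauss valuation of the `q`-expansion `cMid` at the middle cusp `1/(q M)`,
               `red11` its residue map (with values in `redField` of the image of `cMid`).
For each: kernel of the residue map, surjectivity, scaling, constants.
-/

set_option autoImplicit false
set_option synthInstance.maxHeartbeats 400000
set_option maxHeartbeats 1000000
set_option linter.unusedSectionVars false
set_option linter.style.haveILetI false

noncomputable section

namespace Fermat.Agent.S36.NU.H88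

open Fermat.Agent.S24 Fermat.Agent.BAD.H88 ModularCurve
open Fermat.Agent.S28 Fermat.Agent.S28.H73 Fermat.Agent.RED.H73 Fermat.Agent.RED.H17

/-! ## Generic Gauss valuation of a field with the scaling property -/

section Generic

variable {C : Type} [Field C] (O : ValuationSubring C)
  {F : IntermediateField C (LaurentSeries C)} (h : HasScale O F)

theorem gauss_exists_scale (f : F) (hf : f ≠ 0) :
    ∃ c : C, c ≠ 0 ∧ ∃ hm : algebraMap C F c * f ∈ gaussValSub O F h,
      gaussResF' O h ⟨_, hm⟩ ≠ 0 := by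
  obtain ⟨c, u, hc, hfu⟩ := exists_unit_scale O h f hf
  refine ⟨c⁻¹, inv_ne_zero hc, ?_⟩
  have e : algebraMap C F c⁻¹ * f = ((u : ↥(gaussValSub O F h)) : F) := by
    rw [hfu, ← mul_assoc, ← map_mul, inv_mul_cancel₀ hc, map_one, one_mul]
  have hmem : algebraMap C F c⁻¹ * f ∈ gaussValSub O F h := e ▸ (u : ↥(gaussValSub O F h)).2
  refine ⟨hmem, ?_⟩
  have e2 : (⟨_, hmem⟩ : ↥(gaussValSub O F h)) = u := Subtype.ext e
  rw [e2]
  exact (gaussResF'_ne_zero_iff_isUnit O h _).mpr u.isUnit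

end Generic

/-! ## The valuation at `∞` -/

section V20

variable (A : ValuationSubring Kbar) (N : ℕ) [NeZero N]

/-- The scaling property of `F_N`. -/
theorem hScN : HasScale A (modularFunctionFieldBar N) := hasScale_laurentBaseChange A N

/-- The Gauss valuation ring of the `q`-expansion at `∞`. -/
abbrev V20 : ValuationSubring (FN N) := gaussValSub A (modularFunctionFieldBar N) (hScN A N)

/-- Its residue field, inside `k((q))`. -/
abbrev F20 : Type := ↥(redField A (modularFunctionFieldBar N) (hScN A N))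

/-- Its residue map. -/
abbrev red20 : ↥(V20 A N) →+* F20 A N := gaussResF' A (hScN A N)

theorem mem_V20_iff (x : FN N) : x ∈ V20 A N ↔ (x : LaurentSeries Kbar) ∈ gaussRingV A := Iff.rfl

theorem red20_eq_zero_iff (u : ↥(V20 A N)) :
    red20 A N u = 0 ↔ u ∈ IsLocalRing.maximalIdeal ↥(V20 A N) :=
  gaussResF'_eq_zero_iff A (hScN A N) u

theorem red20_surjective : Function.Surjective (red20 A N) := gaussResF'_surjective A (hScN A N)

theorem exists_scale20 (f : FN N) (hf : f ≠ 0) :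
    ∃ c : Kbar, c ≠ 0 ∧ ∃ h : algebraMap Kbar (FN N) c * f ∈ V20 A N, red20 A N ⟨_, h⟩ ≠ 0 :=
  gauss_exists_scale A (hScN A N) f hf

theorem const_mem20 (c : Kbar) : algebraMap Kbar (FN N) c ∈ V20 A N ↔ c ∈ A :=
  algebraMap_mem_gaussValSub_iff A (hScN A N) c

theorem red20_const (c : ↥A) (h : algebraMap Kbar (FN N) (c : Kbar) ∈ V20 A N) :
    red20 A N ⟨_, h⟩ = algebraMap (kV A) (F20 A N) (resV A c) :=
  gaussResF'_algebraMap A (hScN A N) c h

end V20

/-! ## The valuations `V₀₂` and `V₁₁` -/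

section Three

variable (A : ValuationSubring Kbar)
variable (N q M : ℕ) (B k : ℤ) (hN : N = M * (q * q)) (hB : B * M + k * q = 1) (hq : q.Prime)
  [NeZero N] [NeZero q]

omit [NeZero N] [NeZero q] in
/-- Bezout for `(q², M)`. -/
theorem bezout_sq (hB : B * M + k * q = 1) :
    k ^ 2 * ((q * q : ℕ) : ℤ) + (B ^ 2 * M + 2 * B * k * q) * (M : ℤ) = 1 := by
  push_cast
  linear_combination (B * M + k * q + 1) * hB

include hN hB

/-- The Atkin–Lehner involution `W_{q²}` of `F_N`. -/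
def wSq : FN N ≃ₐ[Kbar] FN N :=
  wQ N (q * q) M (k ^ 2) (B ^ 2 * M + 2 * B * k * q) hN (bezout_sq q M B k hB)

/-- **`V₀₂ = V₂₀ ∘ W_{q²}`.** -/
def V02 : ValuationSubring (FN N) := comapV (V20 A N) (wSq N q M B k hN hB)

theorem mem_V02_iff (x : FN N) : x ∈ V02 A N q M B k hN hB ↔ wSq N q M B k hN hB x ∈ V20 A N :=
  Iff.rfl

/-- The residue map of `V₀₂`, with values in the residue field of `V₂₀`. -/
def red02 : ↥(V02 A N q M B k hN hB) →+* F20 A N :=
  comapRed (V20 A N) (red20 A N) (wSq N q M B k hN hB)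

theorem red02_mk (x : FN N) (h : x ∈ V02 A N q M B k hN hB) :
    red02 A N q M B k hN hB ⟨x, h⟩ = red20 A N ⟨wSq N q M B k hN hB x, h⟩ := rfl

theorem red02_eq_zero_iff (u : ↥(V02 A N q M B k hN hB)) :
    red02 A N q M B k hN hB u = 0 ↔ u ∈ IsLocalRing.maximalIdeal ↥(V02 A N q M B k hN hB) :=
  comapRed_eq_zero_iff _ _ _ (red20_eq_zero_iff A N) u

theorem red02_surjective : Function.Surjective (red02 A N q M B k hN hB) :=
  comapRed_surjective _ _ _ (red20_surjective A N)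

theorem exists_scale02 (f : FN N) (hf : f ≠ 0) :
    ∃ c : Kbar, c ≠ 0 ∧ ∃ h : algebraMap Kbar (FN N) c * f ∈ V02 A N q M B k hN hB,
      red02 A N q M B k hN hB ⟨_, h⟩ ≠ 0 :=
  comap_exists_scale _ _ _ (exists_scale20 A N) f hf

theorem const_mem02 (c : Kbar) : algebraMap Kbar (FN N) c ∈ V02 A N q M B k hN hB ↔ c ∈ A :=
  (comap_const_mem _ _ c).trans (const_mem20 A N c)

theorem const_red02 (c : Kbar) (h₁ : algebraMap Kbar (FN N) c ∈ V20 A N)
    (h₂ : algebraMap Kbar (FN N) c ∈ V02 A N q M B k hN hB) :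
    red02 A N q M B k hN hB ⟨_, h₂⟩ = red20 A N ⟨_, h₁⟩ :=
  comap_const_red _ _ _ c h₁ h₂

theorem wSq_wSq (x : FN N) : wSq N q M B k hN hB (wSq N q M B k hN hB x) = x :=
  wQ_wQ _ _ _ _ _ _ _ x

theorem wSq_mem_V02_iff (x : FN N) :
    wSq N q M B k hN hB x ∈ V02 A N q M B k hN hB ↔ x ∈ V20 A N := by
  rw [mem_V02_iff, wSq_wSq]

include hq

/-- The image of the expansion at the middle cusp. -/
abbrev FMid : IntermediateField Kbar (LaurentSeries Kbar) := (cMid N q M B k hN hB hq).fieldRange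

/-- `F_N ≃ cMid F_N`. -/
abbrev eMid : FN N ≃ₐ[Kbar] ↥(FMid N q M B k hN hB hq) := (cMid N q M B k hN hB hq).equivFieldRange

theorem coe_eMid (x : FN N) :
    ((eMid N q M B k hN hB hq x : ↥(FMid N q M B k hN hB hq)) : LaurentSeries Kbar)
      = cMid N q M B k hN hB hq x := rfl

/-- **`V₁₁`**: the Gauss valuation of the expansion at the middle cusp. -/
def V11 : ValuationSubring (FN N) :=
  comapVE (gaussValSub A (FMid N q M B k hN hB hq) (hasScale_fieldRange_cMid N q M B k hN hB hq A))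
    (eMid N q M B k hN hB hq)

theorem mem_V11_iff (x : FN N) :
    x ∈ V11 A N q M B k hN hB hq ↔ cMid N q M B k hN hB hq x ∈ gaussRingV A := Iff.rfl

/-- The residue field of `V₁₁`, inside `k((q))`. -/
abbrev F11 : Type :=
  ↥(redField A (FMid N q M B k hN hB hq) (hasScale_fieldRange_cMid N q M B k hN hB hq A))

/-- The residue map of `V₁₁`. -/
def red11 : ↥(V11 A N q M B k hN hB hq) →+* F11 A N q M B k hN hB hq :=
  comapRedE _ (gaussResF' A (hasScale_fieldRange_cMid N q M B k hN hB hq A))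
    (eMid N q M B k hN hB hq)

theorem coe_red11 (x : FN N) (h : x ∈ V11 A N q M B k hN hB hq) :
    ((red11 A N q M B k hN hB hq ⟨x, h⟩ : F11 A N q M B k hN hB hq) : LaurentSeries (kV A))
      = gaussRedV A ⟨cMid N q M B k hN hB hq x, h⟩ := rfl

theorem red11_eq_zero_iff (u : ↥(V11 A N q M B k hN hB hq)) :
    red11 A N q M B k hN hB hq u = 0 ↔
      u ∈ IsLocalRing.maximalIdeal ↥(V11 A N q M B k hN hB hq) :=
  comapRedE_eq_zero_iff _ _ _
    (gaussResF'_eq_zero_iff A (hasScale_fieldRange_cMid N q M B k hN hB hq A)) u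

theorem red11_surjective : Function.Surjective (red11 A N q M B k hN hB hq) :=
  comapRedE_surjective _ _ _
    (gaussResF'_surjective A (hasScale_fieldRange_cMid N q M B k hN hB hq A))

theorem exists_scale11 (f : FN N) (hf : f ≠ 0) :
    ∃ c : Kbar, c ≠ 0 ∧ ∃ h : algebraMap Kbar (FN N) c * f ∈ V11 A N q M B k hN hB hq,
      red11 A N q M B k hN hB hq ⟨_, h⟩ ≠ 0 :=
  comapE_exists_scale _ _ _
    (gauss_exists_scale A (hasScale_fieldRange_cMid N q M B k hN hB hq A)) f hf

theorem const_mem11 (c : Kbar) : algebraMap Kbar (FN N) c ∈ V11 A N q M B k hN hB hq ↔ c ∈ A :=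
  (comapE_const_mem _ _ c).trans
    (algebraMap_mem_gaussValSub_iff A (hasScale_fieldRange_cMid N q M B k hN hB hq A) c)

theorem red11_const (c : ↥A) (h : algebraMap Kbar (FN N) (c : Kbar) ∈ V11 A N q M B k hN hB hq) :
    red11 A N q M B k hN hB hq ⟨_, h⟩
      = algebraMap (kV A) (F11 A N q M B k hN hB hq) (resV A c) := by
  have h₁ : algebraMap Kbar ↥(FMid N q M B k hN hB hq) (c : Kbar) ∈
      gaussValSub A (FMid N q M B k hN hB hq) (hasScale_fieldRange_cMid N q M B k hN hB hq A) :=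
    (algebraMap_mem_gaussValSub_iff A _ _).mpr c.2
  exact (comapE_const_red _ (gaussResF' A (hasScale_fieldRange_cMid N q M B k hN hB hq A))
    (eMid N q M B k hN hB hq) (c : Kbar) h₁ h).trans
    (gaussResF'_algebraMap A (hasScale_fieldRange_cMid N q M B k hN hB hq A) c h₁)

end Three

end Fermat.Agent.S36.NU.H88

end
end
-- ==== END Fermat.Agent.S36.NU.H88_Val3
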