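-- GENERATED (merged mirror, NOTES/tools/trim/merge3_helper67.py): 4 modules of the originals, bodies verbatim.
import Fermat.Agent.Zm.S36_L04_000
import Fermat.Agent.Zm.S36_L04_002
import Fermat.Agent.Zm.S35_L06_003
import Fermat.Agent.Zm.S35_L05_005
import Fermat.Agent.Zm.S35_L04_002
import Fermat.Agent.Zm.S36_L02_001
import Fermat.Agent.Zm.S36_L04_001
import Fermat.Agent.Zm.S36_L03_000

-- ==== BEGIN Fermat.Agent.BAD.H42_IntTower
section

/-!
# Leaf (INT) = THREE + ONE, abstract (helper42; for S36 NU-B, TI3-VAL)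

* `nr1` : the `NRData` of a single unramified valuation ring `V` of `E` over `V₀` of `E₀`;
* `NRData.isIntegralElem_of_forall_mem` : in the setting of `NRData` with
  `∑ e i [κ i : Et] = [L : E]`, every `g ∈ ⋂ V i` is integral over `V_E`;
* `isIntegralElem_tower` (**ONE + THREE**) : `E₀ ⊂ E ⊂ L`, `D₀` the data of `E / E₀`, `D₁` the
  data of `L / E`, both with the degree equality, `D₁.VE ⊆ ⋂ D₀.V i₀`: then every element of
  `⋂ D₁.V i` is integral over `D₀.VE`;
* `exists_monic_tower` : the same as a monic polynomial over `L` with coefficients in the image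
  of `D₀.VE` (the shape of `hthree` in `S36/NU/H17_TIVal.lean`).

This file has no open goals.
-/

set_option autoImplicit false
set_option linter.unusedSectionVars false
set_option linter.style.haveILetI false

noncomputable section

namespace Fermat.Agent.BAD.H42

section One

variable {E₀ E C K : Type} [Field E₀] [Field E] [Field C] [Field K] [Algebra E₀ E]
  [Algebra C K]
  (V₀ : ValuationSubring E₀) (red₀ : ↥V₀ →+* C)
  (V : ValuationSubring E) (r : ↥V →+* K) (ϖ : E₀)

/-- **The `NRData` of a single unramified valuation.** -/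
def nr1 (hϖ0 : ϖ ≠ 0) (hϖ : ϖ ∈ V₀) (hϖr : red₀ ⟨ϖ, hϖ⟩ = 0)
    (hE : ∀ a : E₀, V₀.valuation a < 1 → V₀.valuation a ≤ V₀.valuation ϖ)
    (hV : ∀ a : E₀, a ∈ V₀ → algebraMap E₀ E a ∈ V)
    (hkerE : ∀ a : ↥V₀, ¬ IsUnit a → red₀ a = 0)
    (hs : Function.Surjective r)
    (hk : ∀ a : ↥V, ¬ IsUnit a → r a = 0)
    (hc : ∀ (a : ↥V₀) (ha : algebraMap E₀ E (a : E₀) ∈ V), r ⟨_, ha⟩ = algebraMap C K (red₀ a))
    (hA : IsArch V) :
    NRData E₀ E C Unit (fun _ => K) where
  VE := V₀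
  V := fun _ => V
  redE := red₀
  red := fun _ => r
  ϖ := ϖ
  π := fun _ => algebraMap E₀ E ϖ
  e := fun _ => 1
  hϖ0 := hϖ0
  hE := hE
  hVE := fun _ => hV
  hkerE := hkerE
  hsurj := fun _ => hs
  hker := fun _ => hk
  hcompat := fun _ => hc
  hinc := fun i j hij => absurd (Subsingleton.elim i j) hij
  hA := fun _ => hA
  hπ := fun _ => by
    show V.valuation (algebraMap E₀ E ϖ) < 1
    rw [lt_iff_le_and_ne]
    refine ⟨(ValuationSubring.valuation_le_one_iff V _).2 (hV ϖ hϖ), fun h1 => ?_⟩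
    have hu : IsUnit (⟨algebraMap E₀ E ϖ, hV ϖ hϖ⟩ : ↥V) :=
      (ValuationSubring.valuation_eq_one_iff V ⟨_, hV ϖ hϖ⟩).2 h1
    have h0 : r ⟨algebraMap E₀ E ϖ, hV ϖ hϖ⟩ = 0 := by
      rw [hc ⟨ϖ, hϖ⟩ (hV ϖ hϖ), hϖr, map_zero]
    exact (hu.map r).ne_zero h0
  he := fun _ => Nat.one_pos
  hram := fun _ => (pow_one _).symm

end One

namespace NRData

variable {E L Et : Type} [Field E] [Field L] [Field Et] [Algebra E L]
  {ι : Type} {κ : ι → Type} [∀ i, Field (κ i)] [∀ i, Algebra Et (κ i)]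
  [∀ i, Module.Finite Et (κ i)] (D : NRData E L Et ι κ)

/-- The structure map `V_E → L`. -/
def toL : ↥D.VE →+* L := (algebraMap E L).comp D.VE.subtype

theorem toL_apply (a : ↥D.VE) : D.toL a = algebraMap E L (a : E) := rfl

/-- **THREE**, integrality form: every element of `⋂ V i` is integral over `V_E`. -/
theorem isIntegralElem_of_forall_mem [Fintype ι] [DecidableEq ι] [Module.Finite E L]
    (hdeg : ∑ i, D.e i * Module.finrank Et (κ i) = Module.finrank E L)
    (g : L) (hg : ∀ i, g ∈ D.V i) : D.toL.IsIntegralElem g :=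
  D.exists_monic_root hdeg g hg

/-- The converse: an element of `L` integral over `V_E` lies in all `V i`. -/
theorem mem_of_isIntegralElem (g : L) (hg : D.toL.IsIntegralElem g) (i : ι) : g ∈ D.V i := by
  obtain ⟨P, hP, hroot⟩ := hg
  let φ : ↥D.VE →+* ↥(D.V i) := D.toL.codRestrict (D.V i) (fun a => D.hVE i a a.2)
  have hφ : (algebraMap ↥(D.V i) L).comp φ = D.toL := rfl
  have hint : IsIntegral ↥(D.V i) g := by
    refine ⟨P.map φ, hP.map φ, ?_⟩
    rw [Polynomial.eval₂_map, hφ]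
    exact hroot
  obtain ⟨y, hy⟩ := IsIntegrallyClosed.isIntegral_iff.1 hint
  rw [← hy]
  exact y.2

end NRData

section Tower

variable {E₀ E L Et₀ Et₁ : Type} [Field E₀] [Field E] [Field L] [Field Et₀] [Field Et₁]
  [Algebra E₀ E] [Algebra E L]
  {ι₀ : Type} {κ₀ : ι₀ → Type} [∀ i, Field (κ₀ i)] [∀ i, Algebra Et₀ (κ₀ i)]
  [∀ i, Module.Finite Et₀ (κ₀ i)]
  {ι : Type} {κ : ι → Type} [∀ i, Field (κ i)] [∀ i, Algebra Et₁ (κ i)]
  [∀ i, Module.Finite Et₁ (κ i)]
  (D₀ : NRData E₀ E Et₀ ι₀ κ₀) (D₁ : NRData E L Et₁ ι κ)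

variable (L) in
/-- The structure map `V_{E₀} → L` of a tower. -/
def towerHom : ↥D₀.VE →+* L := (algebraMap E L).comp D₀.toL

/-- **(INT) = ONE + THREE**: in a tower `E₀ ⊂ E ⊂ L` with the degree equalities on both floors
and `V_E = ⋂` of the valuation rings of the lower floor, every element of `⋂ V i` is integral over
`V_{E₀}`. -/
theorem isIntegralElem_tower [Fintype ι₀] [DecidableEq ι₀] [Module.Finite E₀ E]
    [Fintype ι] [DecidableEq ι] [Module.Finite E L]
    (hdeg₀ : ∑ i, D₀.e i * Module.finrank Et₀ (κ₀ i) = Module.finrank E₀ E)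
    (hdeg₁ : ∑ i, D₁.e i * Module.finrank Et₁ (κ i) = Module.finrank E L)
    (hle : ∀ a : E, a ∈ D₁.VE → ∀ i₀, a ∈ D₀.V i₀)
    (hge : ∀ a : E₀, a ∈ D₀.VE → algebraMap E₀ E a ∈ D₁.VE)
    (g : L) (hg : ∀ i, g ∈ D₁.V i) : (towerHom L D₀).IsIntegralElem g := by
  -- the three rings `A₀ → A₁ → L`
  let φ : ↥D₀.VE →+* ↥D₁.VE := D₀.toL.codRestrict D₁.VE (fun a => hge a a.2)
  have hcomp : towerHom L D₀ = D₁.toL.comp φ := rfl
  have h₁ : D₁.toL.IsIntegralElem g := D₁.isIntegralElem_of_forall_mem hdeg₁ g hg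
  have h₀ : φ.IsIntegral := by
    intro a
    obtain ⟨P, hP, hroot⟩ := D₀.isIntegralElem_of_forall_mem hdeg₀ (a : E) (hle a a.2)
    refine ⟨P, hP, ?_⟩
    apply Subtype.ext
    have e : D₁.VE.subtype (Polynomial.eval₂ φ a P) = Polynomial.eval₂ D₀.toL (a : E) P := by
      rw [Polynomial.hom_eval₂]
      rfl
    exact e.trans hroot
  rw [hcomp]
  letI : Algebra ↥D₀.VE ↥D₁.VE := φ.toAlgebra
  letI : Algebra ↥D₁.VE L := D₁.toL.toAlgebra
  letI : Algebra ↥D₀.VE L := (D₁.toL.comp φ).toAlgebra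
  haveI : IsScalarTower ↥D₀.VE ↥D₁.VE L := IsScalarTower.of_algebraMap_eq fun _ => rfl
  haveI : Algebra.IsIntegral ↥D₀.VE ↥D₁.VE := ⟨h₀⟩
  exact isIntegral_trans (R := ↥D₀.VE) (A := ↥D₁.VE) g h₁

/-- **(INT)**, polynomial form: a monic polynomial over `L` with coefficients in the image of
`V_{E₀}` having `g` as a root. -/
theorem exists_monic_tower [Fintype ι₀] [DecidableEq ι₀] [Module.Finite E₀ E]
    [Fintype ι] [DecidableEq ι] [Module.Finite E L]
    (hdeg₀ : ∑ i, D₀.e i * Module.finrank Et₀ (κ₀ i) = Module.finrank E₀ E)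
    (hdeg₁ : ∑ i, D₁.e i * Module.finrank Et₁ (κ i) = Module.finrank E L)
    (hle : ∀ a : E, a ∈ D₁.VE → ∀ i₀, a ∈ D₀.V i₀)
    (hge : ∀ a : E₀, a ∈ D₀.VE → algebraMap E₀ E a ∈ D₁.VE)
    (g : L) (hg : ∀ i, g ∈ D₁.V i) :
    ∃ P : Polynomial L, P.Monic ∧
      (∀ k, ∃ a : E₀, a ∈ D₀.VE ∧ P.coeff k = algebraMap E L (algebraMap E₀ E a)) ∧
      (∀ k i, P.coeff k ∈ D₁.V i) ∧ P.eval g = 0 := by
  obtain ⟨P, hP, hroot⟩ := isIntegralElem_tower D₀ D₁ hdeg₀ hdeg₁ hle hge g hg
  refine ⟨P.map (towerHom L D₀), hP.map _, fun k => ?_, fun k i => ?_, ?_⟩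
  · rw [Polynomial.coeff_map]
    exact ⟨(P.coeff k : E₀), (P.coeff k).2, rfl⟩
  · rw [Polynomial.coeff_map]
    exact D₁.hVE i _ (hge _ (P.coeff k).2)
  · rw [Polynomial.eval_map]
    exact hroot

end Tower

end Fermat.Agent.BAD.H42

end
end
-- ==== END Fermat.Agent.BAD.H42_IntTower

-- ==== BEGIN Fermat.Agent.S36.H81_Chain
section

/-!
# S36 (helper81): the chain from the Kummer core at the tame levels to the frozen statement

`s36_of_nuCoreTame : S36.NU.H81.Stmt_NUCoreTame → <frozen type of S36>`.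
-/

set_option autoImplicit false

open Polynomial
open CuspForm CuspForm.IsNewform

namespace Fermat.Agent.S36.H81

/-- **S36 from the Kummer core `Stmt_NUCoreTame`** (target of FIN-TOP, NU-B). -/
theorem s36_of_nuCoreTame (h : Fermat.Agent.S36.NU.H81.Stmt_NUCoreTame)
    {M : ℕ} [NeZero M] {g : CuspForm (CongruenceSubgroup.Gamma0 M) 2} (hg : g.IsNewform)
    (lam : ℕ) [Fact lam.Prime]
    (S : Finset ℕ)
    (O' : Type) [CommRing O'] [IsDomain O'] [IsDiscreteValuationRing O']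
    [IsAdicComplete (IsLocalRing.maximalIdeal O') O'] [Finite (IsLocalRing.ResidueField O')]
    [CharZero O'] (hlamO' : (lam : O') ∈ IsLocalRing.maximalIdeal O')
    (hlam2 : lam ≠ 2)
    (chig : CuspForm.heckeAlgebra M 2 (↑S : Set ℕ) →+* ℂ)
    (hchig : ∀ (ℓ : ℕ) (hℓ : ℓ.Prime) (hℓM : ¬ ℓ ∣ M) (hℓS : ℓ ∉ (↑S : Set ℕ)),
      chig (CuspForm.heckeAlgebra.T hℓ hℓM hℓS) = ModularFormClass.qCoeff g ℓ)
    (iota : chig.range →+* O')
    (hlamS : lam ∈ S) (hMS : ∀ q : ℕ, q.Prime → q ∣ M → q ∈ S)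
    (hres : ∀ (O'' : Type) [CommRing O''] [IsDomain O''] [IsDiscreteValuationRing O'']
      [IsAdicComplete (IsLocalRing.maximalIdeal O'') O''] [Finite (IsLocalRing.ResidueField O'')] [CharZero O'']
      [Algebra O' O''] [Module.Finite O' O''] [IsLocalHom (algebraMap O' O'')],
      Function.Injective (algebraMap O' O'') → ∀ (ρ : GaloisRepAdic O''),
      (∀ (ℓ : ℕ) (hℓ : ℓ.Prime) (hℓlam : ℓ ≠ lam) (hℓM : ¬ ℓ ∣ M) (hℓS : ℓ ∉ (↑S : Set ℕ)),
        ∀ A : ValuationSubring (AlgebraicClosure ℚ), A.LiesOverPrime ℓ →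
          ∀ σ : AlgebraicClosure ℚ ≃ₐ[ℚ] AlgebraicClosure ℚ, A.IsFrobeniusAt σ ℓ →
            LinearMap.charpoly (ρ.ρ σ) =
              X ^ 2 - C (algebraMap O' O'' ((iota.comp chig.rangeRestrict) (CuspForm.heckeAlgebra.T hℓ hℓM hℓS))) * X
                + C ((ℓ : O'')))
      → ρ.residual.IsAbsolutelyIrreducible ∧ ρ.residual.IsOdd)
    :
    ∃ (O'' : Type) (_ : CommRing O'') (_ : IsDomain O'') (_ : IsDiscreteValuationRing O'')
      (_ : IsAdicComplete (IsLocalRing.maximalIdeal O'') O'') (_ : Finite (IsLocalRing.ResidueField O''))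
      (_ : CharZero O'') (_ : Algebra O' O'') (_ : Module.Finite O' O'') (_ : IsLocalHom (algebraMap O' O'')),
      Function.Injective (algebraMap O' O'') ∧
      ∃ ρ : GaloisRepAdic O'',
        (∀ (ℓ : ℕ) (hℓ : ℓ.Prime) (hℓM : ¬ ℓ ∣ M) (hℓS : ℓ ∉ (↑S : Set ℕ)),
          ∀ A : ValuationSubring (AlgebraicClosure ℚ), A.LiesOverPrime ℓ →
            ∀ σ : AlgebraicClosure ℚ ≃ₐ[ℚ] AlgebraicClosure ℚ, A.IsFrobeniusAt σ ℓ →
              LinearMap.charpoly (ρ.ρ σ) =
                X ^ 2 - C (algebraMap O' O'' ((iota.comp chig.rangeRestrict) (CuspForm.heckeAlgebra.T hℓ hℓM hℓS))) * X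
                  + C ((ℓ : O''))) ∧
        (∀ q : ℕ, q.Prime → q ≠ lam → M.factorization q = 2 → ¬ ρ.IsUnipotentOnInertiaAt q) :=
  Fermat.Agent.S35.s36_of
    (Fermat.Agent.S30.H29.assembleS_of_FD Fermat.Agent.Lib.FrobDensity.stmt_FD)
    (Fermat.Agent.S36.NU.H81.tatePieceNU_of_core h)
    hg lam S O' hlamO' hlam2 chig hchig iota hlamS hMS hres

end Fermat.Agent.S36.H81

end
-- ==== END Fermat.Agent.S36.H81_Chain

-- ==== BEGIN Fermat.Agent.S36.NU.H16_Reg
section

/-!
# S36 / NU-B, local side of TI3 (helper16): REG (local generators) from CA1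

Abstract part (`A` a noetherian domain, `𝔪` a prime, `S = A_𝔪 ⊂ F = Frac A`):

* `loc_ufd` : if `ψ : A → O` maps `A_𝔪` ONTO a Bezout domain `O` with kernel generated
  by one element `x` (`(K)`: `ψ f = 0 ⟹ W' f = x β`, `W' ∉ 𝔪`), then `A_𝔪` is a UFD (helper10's CA1).
* `loc_unit_mul_pow` : if moreover `h` is an `n`-th power times a unit at every prime element of
  `A_𝔪`, then `h sⁿ ∈ A ∖ 𝔪` for some `s`.

Chart part:

* `LocEq C q 𝔪` : a LOCAL EQUATION DATUM at the closed point `𝔪`: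
  `q W = (∏ i, x i ^ e i) y`, `W, y ∉ 𝔪`, `x i ∈ I_i` for the branches through `𝔪`, `x i ∉ 𝔪` for
  the other components, and `(K)`: `I_i B_𝔪 = x i B_𝔪` for every branch.
* `LocEq.K_of_val` : `(K)` from valuations and `(VALQ)` (`B ∩ ⋂ q V i = q B`).
* `reg_abs` : **REG**: `LocEq` + one `Branch` + `(HOR)` (`h` is an `n`-th power times a unit at
  every valuation ring of `F` containing `B` and `1 / q`) ⟹ `∃ s, h sⁿ ∈ B ∖ 𝔪`.
-/

set_option autoImplicit false

noncomputable section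

namespace Fermat.Agent.S36.NU.H16

section Abstract

variable {A S F O : Type*} [CommRing A] [IsDomain A] [CommRing S] [Algebra A S]
  [Field F] [Algebra A F] [Algebra S F] [IsScalarTower A S F]
  [CommRing O] [IsDomain O]

/-- **CA1 at a closed point**: the local ring `S = A_𝔪` is a UFD. -/
theorem loc_ufd [IsNoetherianRing A] [IsDomain S] (𝔪 : Ideal A) [h𝔪 : 𝔪.IsPrime]
    [IsLocalization.AtPrime S 𝔪] [IsBezout O]
    (ψ : A →+* O) (hunit : ∀ a : A, a ∉ 𝔪 → IsUnit (ψ a))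
    (hsurj : ∀ y : O, ∃ a b : A, b ∉ 𝔪 ∧ ψ a = y * ψ b)
    (x : A) (hx0 : x ≠ 0) (hxm : x ∈ 𝔪) (hψx : ψ x = 0)
    (hK : ∀ f : A, ψ f = 0 → ∃ W' : A, W' ∉ 𝔪 ∧ ∃ β : A, W' * f = x * β) :
    UniqueFactorizationMonoid S := by
  have hloc : IsLocalRing S := IsLocalization.AtPrime.isLocalRing S 𝔪
  have hnoe : IsNoetherianRing S := IsLocalization.isNoetherianRing 𝔪.primeCompl S inferInstance
  have hinjS : Function.Injective (algebraMap A S) :=
    IsLocalization.injective S 𝔪.primeCompl_le_nonZeroDivisors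
  have hg : ∀ y : 𝔪.primeCompl, IsUnit (ψ y) := fun y => hunit y y.2
  set φ : S →+* O := IsLocalization.lift hg with hφ
  have hφA : ∀ a : A, φ (algebraMap A S a) = ψ a := fun a => IsLocalization.lift_eq hg a
  have hφsurj : Function.Surjective φ := by
    intro y
    obtain ⟨a, b, hb, hab⟩ := hsurj y
    refine ⟨IsLocalization.mk' S a (⟨b, hb⟩ : 𝔪.primeCompl), ?_⟩
    have h1 : IsLocalization.mk' S a (⟨b, hb⟩ : 𝔪.primeCompl) * algebraMap A S b =
        algebraMap A S a := IsLocalization.mk'_spec S a ⟨b, hb⟩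
    have h2 := congrArg φ h1
    rw [map_mul, hφA, hφA, hab] at h2
    exact mul_right_cancel₀ (hunit b hb).ne_zero h2
  have hker : RingHom.ker φ = Ideal.span {algebraMap A S x} := by
    apply le_antisymm
    · intro z hz
      rw [RingHom.mem_ker] at hz
      obtain ⟨⟨a, t⟩, rfl⟩ := IsLocalization.mk'_surjective 𝔪.primeCompl z
      have h1 : IsLocalization.mk' S a t * algebraMap A S t = algebraMap A S a :=
        IsLocalization.mk'_spec S a t
      have h2 := congrArg φ h1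
      rw [map_mul, hφA, hφA] at h2
      simp only at hz
      rw [hz, zero_mul] at h2
      obtain ⟨W', hW', β, hβ⟩ := hK a h2.symm
      rw [Ideal.mem_span_singleton]
      have hWt : W' * t ∈ 𝔪.primeCompl := by
        intro hmem
        rcases h𝔪.mem_or_mem hmem with h3 | h3
        · exact hW' h3
        · exact t.2 h3
      refine ⟨IsLocalization.mk' S β (⟨W' * t, hWt⟩ : 𝔪.primeCompl), ?_⟩
      show IsLocalization.mk' S a t = _
      rw [IsLocalization.mul_mk'_eq_mk'_of_mul, IsLocalization.mk'_eq_iff_eq]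
      congr 1
      show (W' * ↑t) * a = ↑t * (x * β)
      rw [← hβ]
      ring
    · rw [Ideal.span_le]
      intro z hz
      rw [Set.mem_singleton_iff] at hz
      rw [hz]
      show algebraMap A S x ∈ RingHom.ker φ
      rw [RingHom.mem_ker, hφA, hψx]
  have hx0' : algebraMap A S x ≠ 0 := (map_ne_zero_iff _ hinjS).2 hx0
  have hnoeO : IsNoetherianRing O := isNoetherianRing_of_surjective S O φ hφsurj
  have hpid : IsPrincipalIdealRing O := IsPrincipalIdealRing.of_isNoetherianRing_of_isBezout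
  have hxm' : algebraMap A S x ∈ IsLocalRing.maximalIdeal S :=
    (IsLocalization.AtPrime.to_map_mem_maximal_iff S 𝔪 x).2 hxm
  exact H10.ca1_ufm_of_surjective φ hφsurj (algebraMap A S x) hx0' hxm' hker

omit [IsDomain A] in
/-- **Local generator at a closed point** (abstract form). -/
theorem loc_unit_mul_pow [IsDomain S] [IsFractionRing S F] (𝔪 : Ideal A) [h𝔪 : 𝔪.IsPrime]
    [IsLocalization.AtPrime S 𝔪] [UniqueFactorizationMonoid S]
    (n : ℕ) (hn : 0 < n) (h : F) (h0 : h ≠ 0)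
    (H : ∀ (π : S) (hπ : Prime π), ∃ s : F, s ≠ 0 ∧ h * s ^ n ∈ primeVal (F := F) π hπ ∧
      (h * s ^ n)⁻¹ ∈ primeVal (F := F) π hπ) :
    ∃ (s : F) (a : A), a ∉ 𝔪 ∧ h * s ^ n = algebraMap A F a := by
  obtain ⟨u, s₁, hu, hus⟩ := ufd_unit_mul_pow_of_val n h h0 H
  obtain ⟨⟨a, t⟩, rfl⟩ := IsLocalization.mk'_surjective 𝔪.primeCompl u
  have h1 : IsLocalization.mk' S a t * algebraMap A S t = algebraMap A S a :=
    IsLocalization.mk'_spec S a t
  have ht : IsUnit (algebraMap A S (t : A)) :=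
    (IsLocalization.AtPrime.isUnit_to_map_iff S 𝔪 (t : A)).2 t.2
  have ha : a ∉ 𝔪 := by
    have h2 : IsUnit (algebraMap A S a) := by
      rw [← h1]
      exact hu.mul ht
    exact (IsLocalization.AtPrime.isUnit_to_map_iff S 𝔪 a).1 h2
  have hs₁ : s₁ ≠ 0 := by
    rintro rfl
    rw [zero_pow hn.ne', mul_zero] at hus
    exact h0 hus
  have h1F : algebraMap S F (IsLocalization.mk' S a t) * algebraMap A F (t : A) =
      algebraMap A F a := by
    rw [IsScalarTower.algebraMap_apply A S F, IsScalarTower.algebraMap_apply A S F, ← map_mul, h1]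
  obtain ⟨m, rfl⟩ : ∃ m, n = m + 1 := ⟨n - 1, by omega⟩
  refine ⟨algebraMap A F (t : A) * s₁⁻¹, a * (t : A) ^ m, ?_, ?_⟩
  · intro hmem
    rcases h𝔪.mem_or_mem hmem with h3 | h3
    · exact ha h3
    · exact t.2 (h𝔪.mem_of_pow_mem m h3)
  · rw [hus, map_mul, map_pow, ← h1F, mul_pow]
    have : s₁ ^ (m + 1) ≠ 0 := pow_ne_zero _ hs₁
    rw [inv_pow]
    field_simp
    ring

end Abstract

variable {R F k ι : Type*} {κ : ι → Type*} [CommRing R] [Field F] [Algebra R F]
  [Field k] [∀ i, Field (κ i)] [∀ i, Algebra k (κ i)]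

/-- **A local equation datum** at the closed point `𝔪` of the chart. -/
structure LocEq [Fintype ι] (C : Chart R F k ι κ) (q : R) (𝔪 : Ideal C.B) where
  /-- the local equations of the components -/
  x : ι → C.B
  /-- the multiplicities of the components -/
  e : ι → ℕ
  /-- a unit at the point -/
  W : C.B
  /-- a unit at the point -/
  y : C.B
  W_not_mem : W ∉ 𝔪
  y_not_mem : y ∉ 𝔪
  x_ne_zero : ∀ i, x i ≠ 0
  x_mem : ∀ i, C.Icomp i ≤ 𝔪 → x i ∈ C.Icomp i
  x_not_mem : ∀ i, ¬ C.Icomp i ≤ 𝔪 → x i ∉ 𝔪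
  eq : algebraMap R C.B q * W = (∏ i, x i ^ e i) * y
  /-- `(K)`: `I_i B_𝔪 = x i B_𝔪` -/
  K : ∀ i, C.Icomp i ≤ 𝔪 → ∀ f ∈ C.Icomp i, ∃ W' : C.B, W' ∉ 𝔪 ∧ ∃ β : C.B, W' * f = x i * β

/-- `(K)` from valuations: `x i` generates the maximal ideal of `V i`, `x i' ^ e i' ∈ q V i'` for
the other components, `q W = (∏ x i ^ e i) y`, and `(VALQ)`: `B ∩ ⋂ q V i = q B`. -/
theorem K_of_val [Fintype ι] [DecidableEq ι] (C : Chart R F k ι κ) (q : R)
    (hq0 : algebraMap R F q ≠ 0)
    (hVALQ : ∀ β : C.B, (∀ i, ∃ f' ∈ C.V i, (β : F) = algebraMap R F q * f') →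
      ∃ β' : C.B, β = algebraMap R C.B q * β')
    (x : ι → C.B) (e : ι → ℕ) (W y : C.B)
    (heq : algebraMap R C.B q * W = (∏ i, x i ^ e i) * y)
    (hpow : ∀ i, ∃ f' ∈ C.V i, ((x i : F)) ^ e i = algebraMap R F q * f')
    (i : ι) (hei : 0 < e i)
    (hunif : ∀ f ∈ C.Icomp i, ∃ f' ∈ C.V i, (f : F) = (x i : F) * f') :
    ∀ f ∈ C.Icomp i, ∃ β : C.B, W * f = x i * β := by
  intro f hf
  -- `Y` with `x i * Y = q W`
  set Y : C.B := x i ^ (e i - 1) * (∏ i' ∈ Finset.univ.erase i, x i' ^ e i') * y with hY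
  have hxY : x i * Y = algebraMap R C.B q * W := by
    rw [heq, hY, ← Finset.mul_prod_erase Finset.univ _ (Finset.mem_univ i)]
    obtain ⟨m, hm⟩ : ∃ m, e i = m + 1 := ⟨e i - 1, by omega⟩
    rw [hm, Nat.add_sub_cancel, pow_succ]
    ring
  have hfY : ∀ i', ∃ f' ∈ C.V i', ((f * Y : C.B) : F) = algebraMap R F q * f' := by
    intro i'
    by_cases hi' : i' = i
    · subst hi'
      obtain ⟨f', hf', hff'⟩ := hunif f hf
      refine ⟨f' * (W : F), mul_mem hf' (C.B_le _ _ W.2), ?_⟩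
      have h1 : ((x i' * Y : C.B) : F) = algebraMap R F q * (W : F) := by
        rw [hxY]
        rfl
      push_cast at h1 ⊢
      rw [hff']
      linear_combination f' * h1
    · obtain ⟨f', hf', hff'⟩ := hpow i'
      have hmem : i' ∈ Finset.univ.erase i := Finset.mem_erase.2 ⟨hi', Finset.mem_univ i'⟩
      set Z : C.B := f * x i ^ (e i - 1) * (∏ i'' ∈ (Finset.univ.erase i).erase i', x i'' ^ e i'')
        * y with hZ
      have h1 : f * Y = Z * x i' ^ e i' := by
        rw [hY, hZ, ← Finset.mul_prod_erase (Finset.univ.erase i) _ hmem]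
        ring
      refine ⟨(Z : F) * f', mul_mem (C.B_le _ _ Z.2) hf', ?_⟩
      rw [h1]
      push_cast
      rw [hff']
      ring
  obtain ⟨β, hβ⟩ := hVALQ (f * Y) hfY
  refine ⟨β, ?_⟩
  have hq0' : algebraMap R C.B q ≠ 0 := by
    intro h0
    apply hq0
    have : ((algebraMap R C.B q : C.B) : F) = 0 := by rw [h0]; rfl
    exact this
  apply mul_left_cancel₀ hq0'
  calc algebraMap R C.B q * (W * f) = f * (algebraMap R C.B q * W) := by ring
    _ = f * (x i * Y) := by rw [hxY]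
    _ = x i * (f * Y) := by ring
    _ = x i * (algebraMap R C.B q * β) := by rw [hβ]
    _ = algebraMap R C.B q * (x i * β) := by ring

section Reg

variable [Fintype ι] (C : Chart R F k ι κ)

/-- **REG** for a model `S` of the local ring `B_𝔪`. -/
theorem reg_aux [IsNoetherianRing C.B] {S : Type*} [CommRing S] [IsDomain S] [Algebra C.B S]
    [Algebra S F] [IsScalarTower C.B S F] [IsFractionRing S F]
    (q : R) (n : ℕ) (hn : 0 < n) (h : F) (hh : ∀ i, h ∈ C.V i ∧ h⁻¹ ∈ C.V i) (h0 : h ≠ 0)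
    (𝔪 : Ideal C.B) [h𝔪 : 𝔪.IsPrime] [IsLocalization.AtPrime S 𝔪]
    (i₀ : ι) (b : Branch C 𝔪 i₀) (L : LocEq C q 𝔪)
    (hHOR : ∀ W : ValuationSubring F, (∀ β : C.B, (β : F) ∈ W) → (algebraMap R F q)⁻¹ ∈ W →
      W ≠ ⊤ → ∃ s : F, s ≠ 0 ∧ h * s ^ n ∈ W ∧ (h * s ^ n)⁻¹ ∈ W) :
    ∃ (s : F) (hs : h * s ^ n ∈ C.B), (⟨h * s ^ n, hs⟩ : C.B) ∉ 𝔪 := by
  classical
  have hinjSF : Function.Injective (algebraMap S F) := IsFractionRing.injective S F
  have hinjS : Function.Injective (algebraMap C.B S) :=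
    IsLocalization.injective S 𝔪.primeCompl_le_nonZeroDivisors
  have hAF : ∀ β : C.B, algebraMap S F (algebraMap C.B S β) = (β : F) := fun β =>
    (IsScalarTower.algebraMap_apply C.B S F β).symm
  have hunitS : ∀ t : C.B, t ∉ 𝔪 → IsUnit (algebraMap C.B S t) := fun t ht =>
    (IsLocalization.AtPrime.isUnit_to_map_iff S 𝔪 t).2 ht
  -- the residue map of the branch
  set ψ : C.B →+* b.O := (C.rdB i₀).codRestrict b.O b.reg with hψ
  have hψv : ∀ β : C.B, ((ψ β : b.O) : κ i₀) = C.rdB i₀ β := fun β => rfl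
  have hufd : UniqueFactorizationMonoid S := by
    refine loc_ufd (S := S) 𝔪 ψ ?_ ?_ (L.x i₀) (L.x_ne_zero i₀) (b.Icomp_le (L.x_mem i₀ b.Icomp_le)) ?_ ?_
    · intro a ha
      exact (ValuationSubring.valuation_eq_one_iff b.O (ψ a)).2 (b.val_rdB_eq_one ha)
    · intro y
      obtain ⟨b', β, hβ, hb'⟩ := b.normal y y.2
      exact ⟨b', β, hβ, Subtype.ext hb'⟩
    · exact Subtype.ext ((C.mem_Icomp i₀ _).1 (L.x_mem i₀ b.Icomp_le))
    · intro f hf
      have h1 : C.rdB i₀ f = 0 := by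
        have := congrArg Subtype.val hf
        exact this
      exact L.K i₀ b.Icomp_le f ((C.mem_Icomp i₀ f).2 h1)
  -- elements of `S` as fractions
  have hfrac : ∀ z : S, ∃ a t : C.B, t ∉ 𝔪 ∧ algebraMap S F z * (t : F) = (a : F) := by
    intro z
    obtain ⟨⟨a, t⟩, hat⟩ := IsLocalization.surj 𝔪.primeCompl z
    refine ⟨a, t, t.2, ?_⟩
    have := congrArg (algebraMap S F) hat
    rw [map_mul, hAF, hAF] at this
    exact this
  have hne : ∀ (i : ι), C.Icomp i ≤ 𝔪 → ∀ t : C.B, t ∉ 𝔪 → C.rd i (t : F) ≠ 0 := by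
    intro i hi t ht h1
    rw [C.rd_coe] at h1
    exact ht (hi ((C.mem_Icomp i t).2 h1))
  -- (F1)
  have hF1 : ∀ (i : ι), C.Icomp i ≤ 𝔪 → ∀ z : S, algebraMap S F z ∈ C.V i := by
    intro i hi z
    obtain ⟨a, t, ht, hat⟩ := hfrac z
    have ht0 : (t : F) ≠ 0 := by
      intro h1
      apply hne i hi t ht
      rw [h1, C.rd_zero]
    have h1 : algebraMap S F z = (a : F) * (t : F)⁻¹ := by
      rw [← hat]
      field_simp
    rw [h1]
    exact mul_mem (C.B_le i _ a.2) (C.inv_mem_of_rd_ne_zero i (hne i hi t ht))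
  -- (F2)
  have hF2 : ∀ (i : ι), C.Icomp i ≤ 𝔪 → ∀ z : S, algebraMap S F z ∈ (C.V i).nonunits →
      algebraMap C.B S (L.x i) ∣ z := by
    intro i hi z hz
    obtain ⟨a, t, ht, hat⟩ := hfrac z
    have ha : (a : F) ∈ (C.V i).nonunits := by
      rw [ValuationSubring.mem_nonunits_iff] at hz ⊢
      rw [← hat, map_mul]
      have h1 : (C.V i).valuation (t : F) ≤ 1 :=
        ((C.V i).valuation_le_one_iff _).2 (C.B_le i _ t.2)
      calc (C.V i).valuation (algebraMap S F z) * (C.V i).valuation (t : F)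
          ≤ (C.V i).valuation (algebraMap S F z) * 1 := by gcongr
        _ < 1 := by rwa [mul_one]
    have ha' : a ∈ C.Icomp i := by
      rw [C.mem_Icomp, ← C.rd_coe, C.rd_eq_zero_iff i (C.B_le i _ a.2)]
      exact ha
    obtain ⟨W', hW', β, hβ⟩ := L.K i hi a ha'
    obtain ⟨u, hu⟩ := (hunitS (t * W') (fun hmem => by
      rcases h𝔪.mem_or_mem hmem with h3 | h3
      · exact ht h3
      · exact hW' h3)).exists_right_inv
    refine ⟨algebraMap C.B S β * u, ?_⟩
    have h2 : z * algebraMap C.B S (t * W') = algebraMap C.B S (L.x i) * algebraMap C.B S β := by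
      rw [← map_mul (algebraMap C.B S)]
      apply hinjSF
      rw [map_mul (algebraMap S F), hAF, hAF, ← hβ]
      push_cast
      rw [← hat]
      ring
    calc z = z * (algebraMap C.B S (t * W') * u) := by rw [hu, mul_one]
      _ = (z * algebraMap C.B S (t * W')) * u := by ring
      _ = algebraMap C.B S (L.x i) * (algebraMap C.B S β * u) := by rw [h2]; ring
  -- the main step
  have H : ∀ (π : S) (hπ : Prime π), ∃ s : F, s ≠ 0 ∧ h * s ^ n ∈ primeVal (F := F) π hπ ∧
      (h * s ^ n)⁻¹ ∈ primeVal (F := F) π hπ := by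
    intro π hπ
    by_cases hπq : π ∣ algebraMap C.B S (algebraMap R C.B q)
    · -- vertical prime
      have h1 : π ∣ algebraMap C.B S ((∏ i, L.x i ^ L.e i) * L.y) := by
        rw [← L.eq, map_mul]
        exact Dvd.dvd.mul_right hπq _
      rw [map_mul] at h1
      have h2 : π ∣ algebraMap C.B S (∏ i, L.x i ^ L.e i) := by
        rcases hπ.dvd_or_dvd h1 with h3 | h3
        · exact h3
        · exact absurd (isUnit_of_dvd_unit h3 (hunitS _ L.y_not_mem)) hπ.not_isUnit
      rw [map_prod] at h2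
      obtain ⟨i, -, hi⟩ := (Prime.dvd_finsetProd_iff hπ _).1 h2
      rw [map_pow] at hi
      have hπx : π ∣ algebraMap C.B S (L.x i) := hπ.dvd_of_dvd_pow hi
      have hbr : C.Icomp i ≤ 𝔪 := by
        by_contra hnb
        exact hπ.not_isUnit (isUnit_of_dvd_unit hπx (hunitS _ (L.x_not_mem i hnb)))
      set v := (C.V i).valuation with hv
      have hle : ∀ z : S, v (algebraMap S F z) ≤ 1 := fun z =>
        ((C.V i).valuation_le_one_iff _).2 (hF1 i hbr z)
      -- `π` is not a unit of `V i`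
      have hπv : v (algebraMap S F π) < 1 := by
        by_contra hcon
        have hπ1 : v (algebraMap S F π) = 1 := le_antisymm (hle π) (not_lt.1 hcon)
        obtain ⟨c, hc⟩ := hπx
        have hxv : v (algebraMap S F (algebraMap C.B S (L.x i))) < 1 := by
          rw [hAF, ← ValuationSubring.mem_nonunits_iff,
            ← C.rd_eq_zero_iff i (C.B_le i _ (L.x i).2), C.rd_coe]
          exact (C.mem_Icomp i _).1 (L.x_mem i hbr)
        have hcv : v (algebraMap S F c) < 1 := by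
          rw [hc, map_mul, map_mul, hπ1, one_mul] at hxv
          exact hxv
        obtain ⟨d, hd⟩ := hF2 i hbr c ((ValuationSubring.mem_nonunits_iff _).2 hcv)
        have hx0' : algebraMap C.B S (L.x i) ≠ 0 :=
          (map_ne_zero_iff _ hinjS).2 (L.x_ne_zero i)
        rw [hd] at hc
        have h3 : algebraMap C.B S (L.x i) * 1 = algebraMap C.B S (L.x i) * (π * d) := by
          rw [mul_one]
          conv_lhs => rw [hc]
          ring
        have h4 : π * d = 1 := (mul_left_cancel₀ hx0' h3).symm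
        exact hπ.not_isUnit (IsUnit.of_mul_eq_one d h4)
      -- elements prime to `π` are units of `V i`
      have hbv : ∀ z : S, ¬ π ∣ z → v (algebraMap S F z) = 1 := by
        intro z hz
        by_contra hcon
        have hlt : v (algebraMap S F z) < 1 := lt_of_le_of_ne (hle z) hcon
        exact hz (hπx.trans (hF2 i hbr z ((ValuationSubring.mem_nonunits_iff _).2 hlt)))
      have key : ∀ f : F, v f = 1 → f ∈ primeVal (F := F) π hπ →
          f⁻¹ ∈ primeVal (F := F) π hπ := by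
        rintro f hf ⟨a, b', hb', hfab⟩
        have hf0 : f ≠ 0 := by
          rintro rfl
          rw [map_zero] at hf
          exact zero_ne_one hf
        have ha : ¬ π ∣ a := by
          rintro ⟨a', rfl⟩
          have h3 := congrArg v hfab
          rw [map_mul, hf, one_mul, hbv b' hb', map_mul, map_mul] at h3
          have h4 : v (algebraMap S F π) * v (algebraMap S F a') < 1 := by
            calc v (algebraMap S F π) * v (algebraMap S F a')
                ≤ v (algebraMap S F π) * 1 := by gcongr; exact hle a'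
              _ < 1 := by rwa [mul_one]
          rw [← h3] at h4
          exact lt_irrefl _ h4
        refine ⟨b', a, ha, ?_⟩
        rw [← hfab]
        field_simp
      have hhv : v h = 1 := by
        have h3 : v h ≤ 1 := ((C.V i).valuation_le_one_iff _).2 (hh i).1
        have h4 : v h⁻¹ ≤ 1 := ((C.V i).valuation_le_one_iff _).2 (hh i).2
        rw [map_inv₀] at h4
        have h5 : v h ≠ 0 := (Valuation.ne_zero_iff _).2 h0
        have h6 : 1 ≤ v h := by
          rwa [inv_le_one₀ (zero_lt_iff.2 h5)] at h4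
        exact le_antisymm h3 h6
      have hhv' : v h⁻¹ = 1 := by rw [map_inv₀, hhv, inv_one]
      refine ⟨1, one_ne_zero, ?_⟩
      rw [one_pow, mul_one]
      rcases (primeVal (F := F) π hπ).mem_or_inv_mem h with h3 | h3
      · exact ⟨h3, key h hhv h3⟩
      · have := key h⁻¹ hhv' h3
        rw [inv_inv] at this
        exact ⟨this, h3⟩
    · -- horizontal prime
      refine hHOR (primeVal (F := F) π hπ) (fun β => ?_) ?_ (primeVal_ne_top π hπ)
      · rw [← hAF]
        exact algebraMap_mem_primeVal π hπ _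
      · have h1 := inv_mem_primeVal (F := F) π hπ hπq
        rw [hAF] at h1
        exact h1
  obtain ⟨s, a, ha, hs⟩ := loc_unit_mul_pow (S := S) 𝔪 n hn h h0 H
  have hs' : h * s ^ n = (a : F) := hs
  refine ⟨s, hs' ▸ a.2, ?_⟩
  have : (⟨h * s ^ n, hs' ▸ a.2⟩ : C.B) = a := Subtype.ext hs'
  rw [this]
  exact ha

/-- **REG** (local generator at the closed point `𝔪`), from CA1:
a local equation datum at `𝔪`, one branch through `𝔪`, and `(HOR)`: `h` is an `n`-th power times a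
unit at every valuation ring of `F` (`≠ F`) containing `B` and `1 / q`. -/
theorem reg_abs [IsNoetherianRing C.B] [IsFractionRing C.B F]
    (q : R) (n : ℕ) (hn : 0 < n) (h : F) (hh : ∀ i, h ∈ C.V i ∧ h⁻¹ ∈ C.V i) (h0 : h ≠ 0)
    (𝔪 : Ideal C.B) (hmax : 𝔪.IsMaximal)
    (i₀ : ι) (b : Branch C 𝔪 i₀) (L : LocEq C q 𝔪)
    (hHOR : ∀ W : ValuationSubring F, (∀ β : C.B, (β : F) ∈ W) → (algebraMap R F q)⁻¹ ∈ W →
      W ≠ ⊤ → ∃ s : F, s ≠ 0 ∧ h * s ^ n ∈ W ∧ (h * s ^ n)⁻¹ ∈ W) :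
    ∃ (s : F) (hs : h * s ^ n ∈ C.B), (⟨h * s ^ n, hs⟩ : C.B) ∉ 𝔪 := by
  have h𝔪 : 𝔪.IsPrime := hmax.isPrime
  have hfr : IsFractionRing
      (Localization.subalgebra.ofField F 𝔪.primeCompl 𝔪.primeCompl_le_nonZeroDivisors) F :=
    Localization.subalgebra.isFractionRing_ofField F 𝔪.primeCompl _
  exact reg_aux C
    (S := Localization.subalgebra.ofField F 𝔪.primeCompl 𝔪.primeCompl_le_nonZeroDivisors)
    q n hn h hh h0 𝔪 i₀ b L hHOR

/-- A local equation datum from valuations and `(VALQ)`. -/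
def LocEq.ofVal [DecidableEq ι] (q : R) (hq0 : algebraMap R F q ≠ 0)
    (hVALQ : ∀ β : C.B, (∀ i, ∃ f' ∈ C.V i, (β : F) = algebraMap R F q * f') →
      ∃ β' : C.B, β = algebraMap R C.B q * β')
    (𝔪 : Ideal C.B) (x : ι → C.B) (e : ι → ℕ) (W y : C.B) (hW : W ∉ 𝔪) (hy : y ∉ 𝔪)
    (hx0 : ∀ i, x i ≠ 0)
    (hxm : ∀ i, C.Icomp i ≤ 𝔪 → x i ∈ C.Icomp i) (hxn : ∀ i, ¬ C.Icomp i ≤ 𝔪 → x i ∉ 𝔪)
    (heq : algebraMap R C.B q * W = (∏ i, x i ^ e i) * y)
    (hpow : ∀ i, ∃ f' ∈ C.V i, ((x i : F)) ^ e i = algebraMap R F q * f')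
    (he : ∀ i, C.Icomp i ≤ 𝔪 → 0 < e i)
    (hunif : ∀ i, C.Icomp i ≤ 𝔪 → ∀ f ∈ C.Icomp i, ∃ f' ∈ C.V i, (f : F) = (x i : F) * f') :
    LocEq C q 𝔪 where
  x := x
  e := e
  W := W
  y := y
  W_not_mem := hW
  y_not_mem := hy
  x_ne_zero := hx0
  x_mem := hxm
  x_not_mem := hxn
  eq := heq
  K := fun i hi f hf => by
    obtain ⟨β, hβ⟩ := K_of_val C q hq0 hVALQ x e W y heq hpow i (he i hi) (hunif i hi) f hf
    exact ⟨W, hW, β, hβ⟩

end Reg

end Fermat.Agent.S36.NU.H16

end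
end
-- ==== END Fermat.Agent.S36.NU.H16_Reg

-- ==== BEGIN Fermat.Agent.S36.NU.H17_BranchLoc
section

/-!
# S36 / NU-B, (L2-iv) local form (helper17): branches from LOCAL lifts

In the chart at infinity (`B = ` integral closure of `R[1/j]`) the component `02` is not globally
the image of the normal chart of the good level: the lift `f(q²τ)` of a function `f` of the good
level is integral over `K[1/j'']`, `j'' = j(q²τ)`, and `1/j''` has poles outside the cusps.  But
`j` is integral over `R[j'']`, so that `G · (1/j'')` is integral over `R[1/j]` for some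
`G ∈ R[1/j]`, `G ≡ 1` modulo `1/j`; hence every function of the good level lifts after
multiplication by a power of `G`, which is a unit at the cusps.

* `branch_of_dedekind_local` : local form of `H61.branch_of_dedekind_finiteType`:
  `φ : B → A` a (not necessarily surjective) model of the component `i`, `A` a Dedekind domain of
  finite type over `k = k̄` with fraction field `κ i`, and every `a ∈ A` is `φ b / φ g` with
  `g ∉ 𝔪`; then the component has a branch through `𝔪`;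
* `branch_of_normal_local` : local form of `H24.branch_of_normal`;
* `exists_unit_mul_inv_isIntegral` : `x` integral over `R[y]` ⟹ `G(1/x) · (1/y)` is integral
  over `R[1/x]` for some `G ∈ R[X]` with `G(0) = 1`;
* `exists_pow_mul_isIntegral_of_mul` : `F` integral over `K[u'']`, `G u''` integral over
  `K[u]`, `G ∈ K[u]` ⟹ `G^m F` integral over `K[u]`.
-/

set_option autoImplicit false
set_option linter.style.haveILetI false
set_option linter.unusedSectionVars false

noncomputable section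

namespace Fermat.Agent.S36.NU.H17

open Fermat.Agent.S36.NU.H16 Fermat.Agent.S36.NU.H61 Fermat.Agent.S36.NU.H24 IsDedekindDomain
  IntermediateField Polynomial

section Local

variable {R F k ι : Type*} {κ : ι → Type*} [CommRing R] [Field F] [Algebra R F]
  [Field k] [∀ i, Field (κ i)] [∀ i, Algebra k (κ i)]

variable (C : Chart R F k ι κ) (i : ι) {A : Type*} [CommRing A] (φ : C.B →+* A)
  (𝔪 : Ideal C.B)

/-- The prime of the model defined by a closed point with local lifts: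
`a ∈ 𝔓 ↔ φ b = φ g * a` for some `g ∉ 𝔪`, `b ∈ 𝔪`. -/
def locPrime [h𝔪 : 𝔪.IsPrime] (hloc : ∀ a : A, ∃ g b : C.B, g ∉ 𝔪 ∧ φ b = φ g * a) : Ideal A where
  carrier := {a | ∃ g b : C.B, g ∉ 𝔪 ∧ b ∈ 𝔪 ∧ φ b = φ g * a}
  zero_mem' := ⟨1, 0, fun h => h𝔪.ne_top ((Ideal.eq_top_iff_one 𝔪).2 h), 𝔪.zero_mem, by simp⟩
  add_mem' := by
    rintro a₁ a₂ ⟨g₁, b₁, hg₁, hb₁, e₁⟩ ⟨g₂, b₂, hg₂, hb₂, e₂⟩
    refine ⟨g₁ * g₂, b₁ * g₂ + b₂ * g₁, fun h => ?_, ?_, ?_⟩
    · rcases h𝔪.mem_or_mem h with h | h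
      · exact hg₁ h
      · exact hg₂ h
    · exact 𝔪.add_mem (𝔪.mul_mem_right _ hb₁) (𝔪.mul_mem_right _ hb₂)
    · rw [map_add, map_mul, map_mul, map_mul, e₁, e₂]
      ring
  smul_mem' := by
    rintro c a ⟨g, b, hg, hb, e⟩
    obtain ⟨g', b', hg', e'⟩ := hloc c
    refine ⟨g' * g, b' * b, fun h => ?_, 𝔪.mul_mem_left _ hb, ?_⟩
    · rcases h𝔪.mem_or_mem h with h | h
      · exact hg' h
      · exact hg h
    · rw [map_mul, map_mul, e, e', smul_eq_mul]
      ring

variable {C i φ 𝔪}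

theorem mem_locPrime [h𝔪 : 𝔪.IsPrime] (hloc : ∀ a : A, ∃ g b : C.B, g ∉ 𝔪 ∧ φ b = φ g * a)
    (a : A) : a ∈ locPrime C φ 𝔪 hloc ↔ ∃ g b : C.B, g ∉ 𝔪 ∧ b ∈ 𝔪 ∧ φ b = φ g * a := Iff.rfl

/-- `φ⁻¹ 𝔓 = 𝔪`. -/
theorem map_mem_locPrime [h𝔪 : 𝔪.IsPrime] (hloc : ∀ a : A, ∃ g b : C.B, g ∉ 𝔪 ∧ φ b = φ g * a)
    (hker : RingHom.ker φ ≤ 𝔪) (β : C.B) : φ β ∈ locPrime C φ 𝔪 hloc ↔ β ∈ 𝔪 := by
  constructor
  · rintro ⟨g, b, hg, hb, e⟩
    have h1 : b - g * β ∈ 𝔪 := by
      apply hker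
      rw [RingHom.mem_ker, map_sub, map_mul, e, sub_self]
    have h2 : g * β ∈ 𝔪 := by
      have := 𝔪.sub_mem hb h1
      rwa [sub_sub_cancel] at this
    rcases h𝔪.mem_or_mem h2 with h | h
    · exact absurd h hg
    · exact h
  · intro hβ
    exact ⟨1, β, fun h => h𝔪.ne_top ((Ideal.eq_top_iff_one 𝔪).2 h), hβ, by simp⟩

theorem locPrime_isMaximal (hmax : 𝔪.IsMaximal)
    (hloc : ∀ a : A, ∃ g b : C.B, g ∉ 𝔪 ∧ φ b = φ g * a) (hker : RingHom.ker φ ≤ 𝔪) :
    haveI := hmax.isPrime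
    (locPrime C φ 𝔪 hloc).IsMaximal := by
  haveI := hmax.isPrime
  rw [Ideal.isMaximal_iff]
  refine ⟨fun h1 => ?_, fun J a hJ ha haJ => ?_⟩
  · have : φ 1 ∈ locPrime C φ 𝔪 hloc := by rwa [map_one]
    rw [map_mem_locPrime hloc hker] at this
    exact hmax.ne_top ((Ideal.eq_top_iff_one 𝔪).2 this)
  · obtain ⟨g, b, hg, e⟩ := hloc a
    have hb : b ∉ 𝔪 := fun hb => ha ⟨g, b, hg, hb, e⟩
    obtain ⟨b', m, hm, hsum⟩ := hmax.exists_inv hb
    have h1 : φ (b' * b) ∈ J := by
      rw [map_mul, e, ← mul_assoc]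
      exact J.mul_mem_left _ haJ
    have h2 : φ m ∈ J := hJ ((map_mem_locPrime hloc hker m).2 hm)
    have h3 : φ (b' * b) + φ m = 1 := by rw [← map_add, hsum, map_one]
    rw [← h3]
    exact J.add_mem h1 h2

end Local

section Branch

variable {R F k ι : Type*} {κ : ι → Type*} [CommRing R] [Field F] [Algebra R F]
  [Field k] [∀ i, Field (κ i)] [∀ i, Algebra k (κ i)]

/-- **Local form of `H61.branch_of_dedekind_finiteType`**: `φ : B → A` a model of the component
`i` (`A` a Dedekind domain of finite type over `k = k̄` with fraction field `κ i`), not necessarily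
surjective, but every `a ∈ A` is `φ b / φ g` with `g ∉ 𝔪`.  Then the component has a branch
through `𝔪`. -/
theorem branch_of_dedekind_local [IsAlgClosed k] (C : Chart R F k ι κ) (i : ι)
    {A : Type*} [CommRing A] [IsDedekindDomain A] [Algebra k A] [Algebra.FiniteType k A]
    [Algebra A (κ i)] [IsFractionRing A (κ i)] [IsScalarTower k A (κ i)]
    (φ : C.B →+* A) (hcomp : ∀ β, algebraMap A (κ i) (φ β) = C.rdB i β)
    (𝔪 : Ideal C.B) (hmax : 𝔪.IsMaximal) (h𝔪 : C.Icomp i ≤ 𝔪)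
    (hloc : ∀ a : A, ∃ g b : C.B, g ∉ 𝔪 ∧ φ b = φ g * a) :
    Nonempty (Branch C 𝔪 i) := by
  classical
  haveI hprime : 𝔪.IsPrime := hmax.isPrime
  have hinj : Function.Injective (algebraMap A (κ i)) := IsFractionRing.injective A (κ i)
  have hker : RingHom.ker φ ≤ 𝔪 := by
    rw [ker_model C i φ hinj hcomp]
    exact h𝔪
  set P : Ideal A := locPrime C φ 𝔪 hloc with hP
  have hmem : ∀ β : C.B, β ∈ 𝔪 ↔ φ β ∈ P := fun β => (map_mem_locPrime hloc hker β).symm
  have hPmax : P.IsMaximal := locPrime_isMaximal hmax hloc hker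
  -- the residue field of `𝔪` consists of constants
  have hk : ∀ β : C.B, ∃ r : R, β - algebraMap R C.B r ∈ 𝔪 := by
    let _ : Field (A ⧸ P) := Ideal.Quotient.field _
    have hg : ((Ideal.Quotient.mk P).comp (algebraMap k A)).FiniteType := by
      apply RingHom.FiniteType.comp
      · exact RingHom.FiniteType.of_surjective _ Ideal.Quotient.mk_surjective
      · exact (RingHom.finiteType_algebraMap (A := k) (B := A)).2 inferInstance
    have hsurj := surjective_of_finiteType_field _ hg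
    intro β
    obtain ⟨c, hc⟩ := hsurj (Ideal.Quotient.mk P (φ β))
    obtain ⟨r, rfl⟩ := C.res_surj c
    refine ⟨r, ?_⟩
    have h1 : φ (algebraMap R C.B r) = algebraMap k A (C.res r) := by
      apply hinj
      rw [hcomp, rdB_algebraMap, ← IsScalarTower.algebraMap_apply]
    rw [hmem, map_sub, h1, ← Ideal.Quotient.eq, ← hc]
    rfl
  -- local surjectivity in the form used below
  have hlift : ∀ a : A, a ∉ P → ∃ g b : C.B, g ∉ 𝔪 ∧ b ∉ 𝔪 ∧ φ b = φ g * a := by
    intro a ha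
    obtain ⟨g, b, hg, e⟩ := hloc a
    exact ⟨g, b, hg, fun hb => ha ⟨g, b, hg, hb, e⟩, e⟩
  by_cases hbot : P = ⊥
  · -- `A` is a field, `O = ⊤`
    have hfield : IsField A := by
      rw [Ring.isField_iff_maximal_bot, ← hbot]
      exact hPmax
    have hsurj : Function.Surjective (algebraMap A (κ i)) :=
      IsFractionRing.surjective_iff_isField.2 hfield
    have hnon : ∀ x : κ i, x ∈ (⊤ : ValuationSubring (κ i)).nonunits ↔ x = 0 := by
      intro x
      rw [ValuationSubring.mem_nonunits_iff_or]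
      constructor
      · rintro (h | h)
        · exact h
        · exact absurd (ValuationSubring.mem_top _) h
      · intro h
        exact Or.inl h
    have van : ∀ β : C.B, β ∈ 𝔪 ↔ C.rdB i β ∈ (⊤ : ValuationSubring (κ i)).nonunits := by
      intro β
      rw [hnon, hmem, hbot, Ideal.mem_bot, ← hcomp]
      constructor
      · intro h
        rw [h, map_zero]
      · intro h
        exact hinj (by rw [h, map_zero])
    have normal : ∀ y ∈ (⊤ : ValuationSubring (κ i)),
        ∃ b β : C.B, β ∉ 𝔪 ∧ C.rdB i b = y * C.rdB i β := by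
      intro y _
      obtain ⟨a, rfl⟩ := hsurj y
      obtain ⟨g, b, hg, e⟩ := hloc a
      refine ⟨b, g, hg, ?_⟩
      rw [← hcomp, ← hcomp, e, map_mul, mul_comm]
    exact ⟨{
      O := ⊤
      reg := fun β => ValuationSubring.mem_top _
      van := van
      normal := normal
      arch := fun x _ y _ => ⟨0, fun M _ => ValuationSubring.mem_top _⟩
      value := value_of_normal C i 𝔪 hmax ⊤ van normal hk }⟩
  · -- the height one prime `P`
    let v : HeightOneSpectrum A := ⟨P, hPmax.isPrime, hbot⟩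
    let O : ValuationSubring (κ i) := (v.valuation (κ i)).valuationSubring
    have hOmem : ∀ x : κ i, x ∈ O ↔ v.valuation (κ i) x ≤ 1 := fun x => Iff.rfl
    have hOnon : ∀ x : κ i, x ∈ O.nonunits ↔ v.valuation (κ i) x < 1 := by
      intro x
      rw [ValuationSubring.mem_nonunits_iff]
      exact ((Valuation.isEquiv_valuation_valuationSubring (v.valuation (κ i))).lt_one_iff_lt_one).symm
    have reg : ∀ β : C.B, C.rdB i β ∈ O := by
      intro β
      rw [hOmem, ← hcomp]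
      exact v.valuation_le_one _
    have van : ∀ β : C.B, β ∈ 𝔪 ↔ C.rdB i β ∈ O.nonunits := by
      intro β
      rw [hOnon, ← hcomp, v.valuation_lt_one_iff_mem, hmem]
    have normal : ∀ y ∈ O, ∃ b β : C.B, β ∉ 𝔪 ∧ C.rdB i b = y * C.rdB i β := by
      intro y hy
      obtain ⟨n, d, hnd⟩ := v.exists_primeCompl_mul_eq_of_integer y ((hOmem y).1 hy)
      obtain ⟨g₁, b₁, hg₁, e₁⟩ := hloc n
      obtain ⟨g₂, b₂, hg₂, hb₂, e₂⟩ := hlift (d : A) d.2
      refine ⟨b₁ * g₂, b₂ * g₁, fun h => ?_, ?_⟩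
      · rcases hprime.mem_or_mem h with h | h
        · exact hb₂ h
        · exact hg₁ h
      · rw [map_mul, map_mul, ← hcomp, ← hcomp, ← hcomp, ← hcomp, e₁, e₂, map_mul, map_mul,
          ← hnd]
        ring
    have arch : ∀ x ∈ O.nonunits, ∀ y : κ i, y ≠ 0 →
        ∃ N : ℕ, ∀ M : ℕ, N ≤ M → x ^ M * y⁻¹ ∈ O := by
      intro x hx y hy
      have hy' : v.valuation (κ i) y ≠ 0 := (Valuation.ne_zero_iff _).2 hy
      obtain ⟨N, hN⟩ := exists_pow_le_of_lt_one _ _ ((hOnon x).1 hx) hy'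
      refine ⟨N, fun M hM => ?_⟩
      rw [hOmem, map_mul, map_pow, map_inv₀]
      exact mul_inv_le_one_of_le₀ (hN M hM) zero_le
    exact ⟨{
      O := O
      reg := reg
      van := van
      normal := normal
      arch := arch
      value := value_of_normal C i 𝔪 hmax O van normal hk }⟩

/-- **Local form of `H24.branch_of_normal`**: if the reduction of `j` is integral over `k[t]`,
`κ i / k(t)` is finite separable, and every element `y` of `κ i` integral over `k[t]` satisfies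
`rdB b = rdB g * y` for some `b, g ∈ B`, `g ∉ 𝔪`, then the component `i` has a branch through the
closed point `𝔪 ⊇ Icomp i`. -/
theorem branch_of_normal_local [IsAlgClosed k] (C : Chart R F k ι κ) (i : ι) (j : F)
    (hjB : j ∈ C.B) (hB : ∀ β : C.B, IsIntegral ↥(Algebra.adjoin R {j}) (β : F)) (t : κ i)
    [FiniteDimensional ↥k⟮t⟯ (κ i)] [Algebra.IsSeparable ↥k⟮t⟯ (κ i)]
    (hj : IsIntegral ↥(Algebra.adjoin k ({t} : Set (κ i))) (C.rdB i ⟨j, hjB⟩))
    (𝔪 : Ideal C.B) (hmax : 𝔪.IsMaximal) (h𝔪 : C.Icomp i ≤ 𝔪)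
    (hlift : ∀ y : κ i, IsIntegral ↥(Algebra.adjoin k ({t} : Set (κ i))) y →
      ∃ g b : C.B, g ∉ 𝔪 ∧ C.rdB i b = C.rdB i g * y) :
    Nonempty (Branch C 𝔪 i) := by
  haveI := isDedekindDomain_intClosure k t
  haveI := isFractionRing_intClosure k t
  haveI := finiteType_intClosure k t
  let φ : C.B →+* ↥(integralClosure ↥(Algebra.adjoin k ({t} : Set (κ i))) (κ i)) :=
    (C.rdB i).codRestrict
      (integralClosure ↥(Algebra.adjoin k ({t} : Set (κ i))) (κ i)).toSubring
      (fun β => rdB_mem_intClosure C i j hjB hB t hj β)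
  refine branch_of_dedekind_local C i φ (fun β => rfl) 𝔪 hmax h𝔪 ?_
  rintro ⟨y, hy⟩
  obtain ⟨g, b, hg, e⟩ := hlift y hy
  exact ⟨g, b, hg, Subtype.ext e⟩

end Branch

section InvInt

variable {R F : Type*} [CommRing R] [Field F] [Algebra R F]

theorem natDegree_reflect_le' (N : ℕ) (f : R[X]) (hf : f.natDegree ≤ N) :
    (reflect N f).natDegree ≤ N := by
  rw [natDegree_le_iff_coeff_eq_zero]
  intro m hm
  rw [coeff_reflect, revAt_eq_self_of_lt hm]
  exact coeff_eq_zero_of_natDegree_lt (lt_of_le_of_lt hf hm)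

/-- `aeval y A * w ^ e = aeval w (reflect e A)` for `w = y⁻¹`. -/
theorem aeval_mul_inv_pow_eq_reflect {y : F} (hy : y ≠ 0) (A : R[X]) (e : ℕ)
    (hA : A.natDegree ≤ e) : aeval y A * y⁻¹ ^ e = aeval y⁻¹ (reflect e A) := by
  letI : Invertible y⁻¹ := invertibleOfNonzero (inv_ne_zero hy)
  have h := eval₂_reflect_mul_pow (algebraMap R F) y⁻¹ e (reflect e A)
    (natDegree_reflect_le' e A hA)
  rw [invOf_eq_inv, inv_inv] at h
  have h2 : reflect e (reflect e A) = A := by
    ext n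
    rw [coeff_reflect, coeff_reflect, revAt_invol]
  rw [h2] at h
  exact h

/-- **`x` integral over `R[y]` ⟹ `G(1/x) · (1/y)` integral over `R[1/x]`** for some polynomial
`G ∈ R[X]` with constant coefficient `1`. -/
theorem exists_unit_mul_inv_isIntegral {x y : F} (hx : x ≠ 0) (hy : y ≠ 0)
    (h : IsIntegral ↥(Algebra.adjoin R {y}) x) :
    ∃ G : R[X], G.coeff 0 = 1 ∧ IsIntegral ↥(Algebra.adjoin R {x⁻¹}) (aeval x⁻¹ G * y⁻¹) := by
  classical
  obtain ⟨Φ, hΦ, hΦc, hΦx⟩ := exists_monic_coeff_mem (Algebra.adjoin R {y}) h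
  have hc : ∀ i, ∃ A : R[X], aeval y A = Φ.coeff i := fun i => by
    have := hΦc i
    rw [Algebra.adjoin_singleton_eq_range_aeval] at this
    exact this
  choose A hA using hc
  set d := Φ.natDegree with hd
  set e := (Finset.range d).sup (fun i => (A i).natDegree) with he
  have hAe : ∀ i, i < d → (A i).natDegree ≤ e := fun i hi =>
    Finset.le_sup (f := fun i => (A i).natDegree) (Finset.mem_range.2 hi)
  set T := Algebra.adjoin R {x⁻¹} with hT
  let uT : ↥T := ⟨x⁻¹, Algebra.subset_adjoin rfl⟩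
  -- the polynomial relation for `w = y⁻¹` over `T`
  set p : (↥T)[X] := X ^ e + ∑ i ∈ Finset.range d,
    C (uT ^ (d - i)) * (reflect e (A i)).map (algebraMap R ↥T) with hp
  set G : R[X] := 1 + ∑ i ∈ Finset.range d, C ((A i).coeff 0) * X ^ (d - i) with hG
  have hG0 : G.coeff 0 = 1 := by
    rw [hG, coeff_add, coeff_one_zero, finsetSum_coeff, Finset.sum_eq_zero, add_zero]
    intro i hi
    rw [coeff_C_mul, coeff_X_pow, if_neg, mul_zero]
    have := Finset.mem_range.1 hi
    omega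
  have hpdeg : p.natDegree ≤ e := by
    rw [hp]
    refine le_trans (natDegree_add_le _ _) (max_le (natDegree_X_pow_le e) ?_)
    refine natDegree_sum_le_of_forall_le _ _ (fun i hi => ?_)
    refine le_trans (natDegree_C_mul_le _ _) (le_trans natDegree_map_le ?_)
    exact natDegree_reflect_le' e (A i) (hAe i (Finset.mem_range.1 hi))
  have hpe : ((p.coeff e : ↥T) : F) = aeval x⁻¹ G := by
    rw [hp, hG, coeff_add, coeff_X_pow, if_pos rfl, finsetSum_coeff, map_add, map_one, map_sum]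
    have h0 : ∀ i ∈ Finset.range d,
        (C (uT ^ (d - i)) * (reflect e (A i)).map (algebraMap R ↥T)).coeff e
          = uT ^ (d - i) * algebraMap R ↥T ((A i).coeff 0) := by
      intro i _
      rw [coeff_C_mul, coeff_map, coeff_reflect, revAt_le le_rfl, Nat.sub_self]
    rw [Finset.sum_congr rfl h0]
    have h1 : ∀ i ∈ Finset.range d, aeval x⁻¹ (C ((A i).coeff 0) * X ^ (d - i))
        = ((uT ^ (d - i) * algebraMap R ↥T ((A i).coeff 0) : ↥T) : F) := by
      intro i _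
      rw [map_mul, aeval_C, map_pow, aeval_X, mul_comm]
      rfl
    rw [Finset.sum_congr rfl h1]
    push_cast
    rfl
  have hpw : aeval y⁻¹ p = 0 := by
    rw [hp, map_add, map_pow, aeval_X, map_sum]
    have h1 : ∀ i ∈ Finset.range d,
        aeval y⁻¹ (C (uT ^ (d - i)) * (reflect e (A i)).map (algebraMap R ↥T))
          = x⁻¹ ^ d * y⁻¹ ^ e * (Φ.coeff i * x ^ i) := by
      intro i hi
      have hi' := Finset.mem_range.1 hi
      rw [map_mul, aeval_C, aeval_map_algebraMap,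
        ← aeval_mul_inv_pow_eq_reflect hy (A i) e (hAe i hi'), hA]
      have : (algebraMap ↥T F) (uT ^ (d - i)) = x⁻¹ ^ (d - i) := rfl
      rw [this]
      have h2 : x⁻¹ ^ d * x ^ i = x⁻¹ ^ (d - i) := by
        obtain ⟨c, hc⟩ := Nat.exists_eq_add_of_lt hi'
        have e1 : d - i = c + 1 := by omega
        have e2 : d = (c + 1) + i := by omega
        rw [e1]
        conv_lhs => rw [e2]
        rw [pow_add, mul_assoc, ← mul_pow, inv_mul_cancel₀ hx, one_pow, mul_one]
      rw [← h2]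
      ring
    rw [Finset.sum_congr rfl h1, ← Finset.mul_sum]
    have h3 : ∑ i ∈ Finset.range d, Φ.coeff i * x ^ i = - x ^ d := by
      have h4 := hΦx
      rw [eval_eq_sum_range, Finset.sum_range_succ, ← hd] at h4
      have h5 : Φ.coeff d = 1 := hΦ
      rw [h5, one_mul] at h4
      exact eq_neg_of_add_eq_zero_left h4
    rw [h3]
    have h6 : x⁻¹ ^ d * x ^ d = 1 := by rw [← mul_pow, inv_mul_cancel₀ hx, one_pow]
    linear_combination (-(y⁻¹ ^ e)) * h6
  refine ⟨G, hG0, ?_⟩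
  by_cases hz : p.coeff e = 0
  · have : aeval x⁻¹ G = 0 := by rw [← hpe, hz]; rfl
    rw [this, zero_mul]
    exact isIntegral_zero
  · have hnd : p.natDegree = e := le_antisymm hpdeg (le_natDegree_of_ne_zero hz)
    have hlc : p.leadingCoeff = p.coeff e := by rw [leadingCoeff, hnd]
    have h7 := isIntegral_leadingCoeff_smul p y⁻¹ hpw
    rw [hlc, Algebra.smul_def] at h7
    have h8 : (algebraMap ↥T F) (p.coeff e) = aeval x⁻¹ G := hpe
    rwa [h8] at h7

end InvInt

section ScaleInt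

variable {K F : Type*} [CommRing K] [Field F] [Algebra K F]

theorem isIntegral_of_mem_adjoin {u c : F} (hc : c ∈ Algebra.adjoin K {u}) :
    IsIntegral ↥(Algebra.adjoin K {u}) c := by
  have : c = algebraMap ↥(Algebra.adjoin K {u}) F ⟨c, hc⟩ := rfl
  rw [this]
  exact isIntegral_algebraMap

/-- Every element of `K[w]` times a high power of `γ` is integral over `K[u]`, if `γ ∈ K[u]` and
`γ w` is integral over `K[u]`. -/
theorem exists_pow_mul_isIntegral_of_mem {u w γ : F}
    (hγ : γ ∈ Algebra.adjoin K {u}) (hγw : IsIntegral ↥(Algebra.adjoin K {u}) (γ * w))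
    {c : F} (hc : c ∈ Algebra.adjoin K {w}) :
    ∃ m : ℕ, ∀ n, m ≤ n → IsIntegral ↥(Algebra.adjoin K {u}) (γ ^ n * c) := by
  have hγi : IsIntegral ↥(Algebra.adjoin K {u}) γ := isIntegral_of_mem_adjoin hγ
  induction hc using Algebra.adjoin_induction with
  | mem c hc =>
    rw [Set.mem_singleton_iff] at hc
    subst hc
    refine ⟨1, fun n hn => ?_⟩
    obtain ⟨d, rfl⟩ := Nat.exists_eq_add_of_le hn
    have : γ ^ (1 + d) * c = γ ^ d * (γ * c) := by ring
    rw [this]
    exact (hγi.pow d).mul hγw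
  | algebraMap r =>
    exact ⟨0, fun n _ => (hγi.pow n).mul
      (isIntegral_of_mem_adjoin (Subalgebra.algebraMap_mem _ r))⟩
  | add a b _ _ ha hb =>
    obtain ⟨ma, hma⟩ := ha
    obtain ⟨mb, hmb⟩ := hb
    refine ⟨max ma mb, fun n hn => ?_⟩
    rw [mul_add]
    exact (hma n (le_trans (le_max_left _ _) hn)).add (hmb n (le_trans (le_max_right _ _) hn))
  | mul a b _ _ ha hb =>
    obtain ⟨ma, hma⟩ := ha
    obtain ⟨mb, hmb⟩ := hb
    refine ⟨ma + mb, fun n hn => ?_⟩
    obtain ⟨d, rfl⟩ := Nat.exists_eq_add_of_le hn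
    have : γ ^ (ma + mb + d) * (a * b) = (γ ^ ma * a) * (γ ^ (mb + d) * b) := by ring
    rw [this]
    exact (hma ma le_rfl).mul (hmb (mb + d) (Nat.le_add_right _ _))

/-- **`f` integral over `K[w]` ⟹ `γ^n f` integral over `K[u]`** for all large `n`, if
`γ ∈ K[u]` and `γ w` is integral over `K[u]`. -/
theorem exists_pow_mul_isIntegral_of_mul {u w γ : F}
    (hγ : γ ∈ Algebra.adjoin K {u}) (hγw : IsIntegral ↥(Algebra.adjoin K {u}) (γ * w))
    {f : F} (hf : IsIntegral ↥(Algebra.adjoin K {w}) f) :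
    ∃ m : ℕ, ∀ n, m ≤ n → IsIntegral ↥(Algebra.adjoin K {u}) (γ ^ n * f) := by
  classical
  obtain ⟨Φ, hΦ, hΦc, hΦy⟩ := exists_monic_coeff_mem (Algebra.adjoin K {w}) hf
  have hγi : IsIntegral ↥(Algebra.adjoin K {u}) γ := isIntegral_of_mem_adjoin hγ
  choose m hm using fun i => exists_pow_mul_isIntegral_of_mem hγ hγw (hΦc i)
  set M := (Finset.range (Φ.natDegree + 1)).sup m with hM
  refine ⟨M, fun n hn => ?_⟩
  have hMi : ∀ i, i ≤ Φ.natDegree → IsIntegral ↥(Algebra.adjoin K {u}) (γ ^ n * Φ.coeff i) :=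
    fun i hi => hm i n (le_trans
      (Finset.le_sup (f := m) (Finset.mem_range.2 (Nat.lt_succ_of_le hi))) hn)
  have h1 : IsIntegral ↥(integralClosure ↥(Algebra.adjoin K {u}) F) (γ ^ n * f) := by
    refine isIntegral_of_monic_coeff_mem (integralClosure ↥(Algebra.adjoin K {u}) F) _
      (Φ.scaleRoots (γ ^ n)) ((monic_scaleRoots_iff _).2 hΦ) (fun i => ?_) ?_
    · rw [coeff_scaleRoots]
      rcases lt_trichotomy i Φ.natDegree with hi | hi | hi
      · obtain ⟨d, hd⟩ := Nat.exists_eq_add_of_lt hi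
        have e1 : Φ.natDegree - i = d + 1 := by omega
        rw [e1, pow_succ]
        have : Φ.coeff i * ((γ ^ n) ^ d * γ ^ n) = (γ ^ n) ^ d * (γ ^ n * Φ.coeff i) := by ring
        rw [this]
        exact ((hγi.pow n).pow d).mul (hMi i hi.le)
      · rw [hi, Nat.sub_self, pow_zero, mul_one]
        have : Φ.coeff Φ.natDegree = 1 := hΦ
        rw [this]
        exact one_mem _
      · rw [Polynomial.coeff_eq_zero_of_natDegree_lt hi, zero_mul]
        exact zero_mem _
    · rw [scaleRoots_eval_mul, hΦy, mul_zero]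
  exact isIntegral_trans _ h1

end ScaleInt

section Pack

variable {R K F : Type*} [CommRing R] [Field K] [Field F] [Algebra R K] [Algebra K F]
  [Algebra R F] [IsScalarTower R K F]

/-- **The local denominators**: if `x` is integral over `R[y]`, there is `G ∈ R[X]` with
`G(0) = 1` such that every `f` integral over `K[1/y]` becomes integral over `K[1/x]` after
multiplication by a high power of `G(1/x)`. -/
theorem exists_unit_pow_mul_isIntegral {x y : F} (hx : x ≠ 0) (hy : y ≠ 0)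
    (h : IsIntegral ↥(Algebra.adjoin R {y}) x) :
    ∃ G : R[X], G.coeff 0 = 1 ∧
      IsIntegral ↥(Algebra.adjoin R {x⁻¹}) (aeval x⁻¹ G * y⁻¹) ∧
      ∀ f : F, IsIntegral ↥(Algebra.adjoin K {y⁻¹}) f →
        ∃ m : ℕ, ∀ n, m ≤ n → IsIntegral ↥(Algebra.adjoin K {x⁻¹}) (aeval x⁻¹ G ^ n * f) := by
  obtain ⟨G, hG0, hG⟩ := exists_unit_mul_inv_isIntegral (R := R) hx hy h
  refine ⟨G, hG0, hG, fun f hf => ?_⟩
  have hγ : aeval x⁻¹ G ∈ Algebra.adjoin K {x⁻¹} := by
    have h1 : aeval x⁻¹ G = aeval x⁻¹ (G.map (algebraMap R K)) := by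
      rw [aeval_map_algebraMap]
    rw [h1, Algebra.adjoin_singleton_eq_range_aeval]
    exact ⟨_, rfl⟩
  have hγw : IsIntegral ↥(Algebra.adjoin K {x⁻¹}) (aeval x⁻¹ G * y⁻¹) :=
    isIntegral_adjoin_field R K x⁻¹ hG
  exact exists_pow_mul_isIntegral_of_mul hγ hγw hf

/-- A polynomial with constant coefficient `1` in an element of a proper ideal is not in the
ideal. -/
theorem aeval_not_mem_of_coeff_zero {B : Type*} [CommRing B] [Algebra R B] (𝔪 : Ideal B)
    (h𝔪 : 𝔪 ≠ ⊤) {u : B} (hu : u ∈ 𝔪) (G : R[X]) (hG : G.coeff 0 = 1) : aeval u G ∉ 𝔪 := by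
  intro h
  apply h𝔪
  rw [Ideal.eq_top_iff_one]
  have e : aeval u G = aeval u (divX G) * u + 1 := by
    conv_lhs => rw [← divX_mul_X_add G]
    simp only [map_add, map_mul, aeval_X, hG, map_one]
  have h2 : (1 : B) = aeval u G - aeval u (divX G) * u := by rw [e]; ring
  rw [h2]
  exact 𝔪.sub_mem h (𝔪.mul_mem_left _ hu)

end Pack

end Fermat.Agent.S36.NU.H17

end
end
-- ==== END Fermat.Agent.S36.NU.H17_BranchLoc
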