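-- GENERATED (merged mirror, NOTES/tools/trim/merge3_helper67.py): 5 modules of the originals, bodies verbatim.
import Fermat.Prelude.Def_AlgebraicCurve_Correspondence
import Fermat.Agent.Zm.S36_L04_000
import Fermat.Agent.Zm.S36_L03_000
import Fermat.Agent.Zm.S35_L18_000
import Fermat.Agent.Zm.S36_L04_001
import Fermat.Agent.Zm.S35_L01_001
import Fermat.Agent.Zm.S36_L03_001
import Fermat.Agent.Zm.S36_L01_000
import Fermat.Agent.Zm.S35_L13_002

-- ==== BEGIN Fermat.Agent.S36.NU.H17_NormalQ23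
section
attribute [local instance 10000] SubalgebraClass.toAlgebra
attribute [local instance 10000] HahnSeries.powerSeriesAlgebra

/-!
# S36 / NU-B, leaf (L2-i) for `q = 2, 3` (helper17): the chart `j` via the Hauptmodul chart

For `q = 3`, `2 ∣ M` (resp. `q = 2`, `3 ∣ M`) the chart `j` of `X₀(M)` is not good (the branch
values `0`, `1728` collide mod `q`), but the chart `h = h₂` (resp. `h₃`) is, and
`j h^p = P(h)`.  Chart-normality for `j` follows by localisation:
`B'(j) = B'(h)[1/h]`.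

* `goodChart_haupt_int` : the good chart `h` with the identity `P(h) = j h^p` (extracted from
  helper76's `hasDR_of_haupt_int`);
* `normalImg_haupt` : generic form;
* `normalImg_three`, `normalImg_two` : the cases `q = 3, 2 ∣ M` and `q = 2, 3 ∣ M`;
* `normalImg_tame` : chart `j`, all primes `q ∤ M` with `5 ≤ q ∨ (q = 3 ∧ 2 ∣ M) ∨
  (q = 2 ∧ 3 ∣ M)`.
-/

set_option autoImplicit false
set_option linter.style.haveILetI false
set_option linter.unusedSectionVars false
set_option synthInstance.maxHeartbeats 400000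
set_option maxHeartbeats 1000000

noncomputable section

open ModularCurve AlgebraicCurve IntermediateField Polynomial Fermat.Agent.S24 Fermat.Agent.S28
  Fermat.Agent.S28.H73 Fermat.Agent.RED.H73 Fermat.Agent.RED.H42 Fermat.Agent.BAD.H88
  Fermat.Agent.RED.H79 Fermat.Agent.RED.H34 Fermat.Agent.RED.H76

namespace Fermat.Agent.S36.NU.H17

section Generic

/-- The good Hauptmodul chart with its identity (extracted from `RED.H76.hasDR_of_haupt_int`). -/
theorem goodChart_haupt_int {p ℓ : ℕ} [NeZero p] (hp : p.Prime) {M : ℕ} [NeZero M] (hpM : p ∣ M)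
    (hℓ : ℓ.Prime) (hℓM : ¬ ℓ ∣ M)
    (A : ValuationSubring Kbar) (hA : A.LiesOverPrime ℓ)
    (hZ : LaurentSeries ℤ) (hord : hZ.order < 0) (hlead : hZ.leadingCoeff = 1)
    (P Q P' Q' : ℤ[X]) (hP : P.Monic) (hPd : P.natDegree = p + 1)
    (hQ : Q.Monic) (hQd : Q.natDegree < p + 1) (hQ' : Q'.Monic)
    (hPQ : aeval hZ P = jqModC ℤ * aeval hZ Q)
    (hPQ' : aeval hZ P' = qExpand ℤ p (jqModC ℤ) * aeval hZ Q')
    (c : Kbar) (hc : c ≠ 0) (hcinvA : c⁻¹ ∈ A)
    (hQroot : ∀ ρ : Kbar, (Q.map (Int.castRingHom Kbar)).eval ρ = 0 → ρ = 0)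
    (hbr : ∀ ρ : Kbar, ρ ≠ 0 →
      (((P.map (Int.castRingHom Kbar)).eval ρ = 0 ∧
          ¬ (X - C ρ) ^ 2 ∣ P.map (Int.castRingHom Kbar)) ∨
        ((P.map (Int.castRingHom Kbar)).eval ρ = 1728 * (Q.map (Int.castRingHom Kbar)).eval ρ ∧
          ¬ (X - C ρ) ^ 2 ∣
            P.map (Int.castRingHom Kbar) - C 1728 * Q.map (Int.castRingHom Kbar))) →
      ρ = c) :
    ∃ (x : FN M) (hx : x ∈ VM A M) (_ : x⁻¹ ∈ VM A M),
      (x : LaurentSeries Kbar) = coeffMap (Int.castRingHom Kbar) hZ ∧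
      ((redM A M ⟨x, hx⟩ : FM A M) : LaurentSeries (kV A))
        = coeffMap (Int.castRingHom (kV A)) hZ ∧
      aeval x (P.map (Int.castRingHom Kbar))
        = Fermat.Agent.RED.H73.jF (L := Kbar) M * aeval x (Q.map (Int.castRingHom Kbar)) ∧
      GoodChart (redSetting A (hScM A M)) x hx := by
  haveI : IsAlgClosed (kV A) := isAlgClosed_kV A
  have hM : ((M : Kbar))⁻¹ ∈ A := inv_natCast_mem_of_liesOver A M hℓ hℓM hA
  obtain ⟨x, hx, hx', hxcoe, hredcoe, G, -⟩ :=
    chartPre_haupt_int hp hpM A hM hZ hord hlead P Q P' Q' hP hPd hQ hQd hQ' hPQ hPQ'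
  obtain ⟨i1, -⟩ := haupt_identities_map (p := p) Kbar hZ P Q P' Q' hPQ hPQ'
  have hid : aeval x (P.map (Int.castRingHom Kbar))
      = Fermat.Agent.RED.H73.jF (L := Kbar) M * aeval x (Q.map (Int.castRingHom Kbar)) := by
    apply Subtype.ext
    have e : ∀ q : Kbar[X], ((aeval x q : ↥(laurentBaseChange Kbar (modularFunctionFieldFull M)))
        : LaurentSeries Kbar) = aeval (x : LaurentSeries Kbar) q := fun q =>
      (Polynomial.aeval_algHom_apply
        (laurentBaseChange Kbar (modularFunctionFieldFull M)).val x q).symm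
    rw [MulMemClass.coe_mul, e, e, hxcoe]
    exact i1
  have hxt : Transcendental Kbar x :=
    Fermat.Agent.RED.H34.RedSetting.transcendental_x hx G.transc
  haveI := G.fin
  have hne : ∀ a : Kbar, P.map (Int.castRingHom Kbar) - C a * Q.map (Int.castRingHom Kbar)
      ≠ 0 := by
    intro a
    have hPm : (P.map (Int.castRingHom Kbar)).Monic := hP.map _
    have hdeg : (C a * Q.map (Int.castRingHom Kbar)).degree
        < (P.map (Int.castRingHom Kbar)).degree := by
      refine degree_lt_degree (lt_of_le_of_lt (natDegree_C_mul_le a _) ?_)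
      rw [hQ.natDegree_map, hP.natDegree_map, hPd]
      exact hQd
    exact (hPm.sub_of_left hdeg).ne_zero
  have hbrx : ∀ ρ : Kbar, IsBranchValue x ρ → ρ = 0 ∨ ρ = c := by
    intro ρ hρ
    by_cases h0 : ρ = 0
    · exact Or.inl h0
    · right
      have hQρ : (Q.map (Int.castRingHom Kbar)).eval ρ ≠ 0 := fun h => h0 (hQroot ρ h)
      exact hbr ρ h0 (branch_haupt M x hxt _ _ hid hne hQρ hρ)
  have GC : GoodChart (redSetting A (hasScale_laurentBaseChange A M)) x hx :=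
    goodChart_of _ hx G.transc G.fin G.sep G.deg G.sept (fun ρ ρ' hρ hρ' hres =>
      eq_of_resO_eq_of_mem_pair A _ c hc hcinvA ρ ρ' (hbrx _ hρ) (hbrx _ hρ') hres)
  exact ⟨x, hx, hx', hxcoe, hredcoe, hid, GC⟩

/-- The image of an integral series is inertia-fixed. -/
theorem mem_L0_of_coe_eq_coeffMap_int (A : ValuationSubring Kbar) (M : ℕ) (x : FN M)
    (hZ : LaurentSeries ℤ)
    (hxcoe : (x : LaurentSeries Kbar) = coeffMap (Int.castRingHom Kbar) hZ) :
    x ∈ H23.L0 A M := by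
  rw [H23.mem_L0_iff_coeffMap]
  intro σ _
  rw [hxcoe, ModularCurve.coeffMap_coeffMap]
  exact coeffMap_congr (RingHom.ext_int _ _) hZ

/-- **(L2-i) for the chart `j` from a Hauptmodul chart `x`** with `j x^p = P(x)`. -/
theorem normalImg_haupt (A : ValuationSubring Kbar) {q : ℕ} (hq : q.Prime)
    (hA : A.LiesOverPrime q) (M : ℕ) [NeZero M]
    (hZ : LaurentSeries ℤ) (P : ℤ[X]) (p : ℕ) (hp : 0 < p) (hP : P.Monic)
    (hPd : P.natDegree = p + 1) (hP0 : P.coeff 0 ≠ 0)
    (hPQ : aeval hZ P = jqModC ℤ * hZ ^ p)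
    (x : FN M) (hx : x ∈ VM A M) (hx' : x⁻¹ ∈ VM A M)
    (hxcoe : (x : LaurentSeries Kbar) = coeffMap (Int.castRingHom Kbar) hZ)
    (hredcoe : ((redM A M ⟨x, hx⟩ : FM A M) : LaurentSeries (kV A))
      = coeffMap (Int.castRingHom (kV A)) hZ)
    (hN : ChartNormal (redSetting A (hScM A M)) x hx)
    (j : FN M) (hj : j = Fermat.Agent.RED.H73.jF (L := Kbar) M) (hjV : j ∈ VM A M)
    (y : FM A M) (hy : IsIntegral ↥(Algebra.adjoin (kV A) {redM A M ⟨j, hjV⟩}) y) :
    ∃ f : FN M, f ∈ H23.L0 A M ∧ IsIntegral ↥(Algebra.adjoin Kbar {j}) f ∧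
      ((aeval j : Kbar[X] →ₐ[Kbar] FN M).toRingHom.comp
        (mapRingHom (iotaUr A))).IsIntegralElem f ∧
      ∃ h : f ∈ VM A M, redM A M ⟨f, h⟩ = y := by
  subst hj
  -- the identities over `ℚ̄` and over `k`
  have idK : ∀ (K : Type) [Field K], aeval (coeffMap (Int.castRingHom K) hZ)
      (P.map (Int.castRingHom K)) = jqModC K * (coeffMap (Int.castRingHom K) hZ) ^ p := by
    intro K _
    rw [← coeffMap_aeval, hPQ, map_mul, map_pow, coeffMap_jqModC']
  have I1 : Fermat.Agent.RED.H73.jF (L := Kbar) M * x ^ p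
      = aeval x (P.map (Int.castRingHom Kbar)) := by
    apply Subtype.ext
    have e : ((aeval x (P.map (Int.castRingHom Kbar)) : FN M) : LaurentSeries Kbar)
        = aeval (x : LaurentSeries Kbar) (P.map (Int.castRingHom Kbar)) :=
      (Polynomial.aeval_algHom_apply (modularFunctionFieldBar M).val x _).symm
    rw [e, hxcoe, idK Kbar]
    show jqModC Kbar * (x : LaurentSeries Kbar) ^ p = _
    rw [hxcoe]
  have I2 : redM A M ⟨Fermat.Agent.RED.H73.jF (L := Kbar) M, hjV⟩ * redM A M ⟨x, hx⟩ ^ p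
      = aeval (redM A M ⟨x, hx⟩) (P.map (Int.castRingHom (kV A))) := by
    apply Subtype.ext
    have e : ((aeval (redM A M ⟨x, hx⟩) (P.map (Int.castRingHom (kV A))) : FM A M) :
        LaurentSeries (kV A))
        = aeval ((redM A M ⟨x, hx⟩ : FM A M) : LaurentSeries (kV A))
          (P.map (Int.castRingHom (kV A))) :=
      (Polynomial.aeval_algHom_apply
        (redField A (modularFunctionFieldBar M) (hScM A M)).val _ _).symm
    rw [e, hredcoe, idK (kV A)]
    show ((redM A M ⟨Fermat.Agent.RED.H73.jF (L := Kbar) M, hjV⟩ : FM A M) :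
        LaurentSeries (kV A)) * ((redM A M ⟨x, hx⟩ : FM A M) : LaurentSeries (kV A)) ^ p = _
    rw [hredcoe]
    congr 1
    exact red_jF A M
  have hP0' : (P.map (Int.castRingHom Kbar)).coeff 0 ≠ 0 := by
    rw [coeff_map]
    exact Int.cast_ne_zero.2 hP0
  have hPd' : p < (P.map (Int.castRingHom Kbar)).natDegree := by
    rw [hP.natDegree_map, hPd]
    exact Nat.lt_succ_self p
  have hx0 : x ≠ 0 := by
    rintro rfl
    rw [zero_pow hp.ne', mul_zero] at I1
    have e1 : aeval (0 : FN M) (P.map (Int.castRingHom Kbar))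
        = algebraMap Kbar (FN M) ((P.map (Int.castRingHom Kbar)).coeff 0) := by
      rw [← Polynomial.coeff_zero_eq_aeval_zero']
    rw [e1] at I1
    exact hP0' ((map_eq_zero _).1 I1.symm)
  -- step 1: scale `y` into the integral closure of `k[x~]`
  have hrel : redM A M ⟨Fermat.Agent.RED.H73.jF (L := Kbar) M, hjV⟩ * redM A M ⟨x, hx⟩ ^ p
      ∈ Algebra.adjoin (kV A) {redM A M ⟨x, hx⟩} := by
    rw [I2, Algebra.adjoin_singleton_eq_range_aeval]
    exact ⟨_, rfl⟩
  obtain ⟨e, he⟩ := exists_pow_mul_isIntegral _ _ p hrel hy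
  -- step 2: lift through the good chart `x`
  have hxL : x ∈ H23.L0 A M := mem_L0_of_coe_eq_coeffMap_int A M x hZ hxcoe
  obtain ⟨fz, hfzL, hfzint, -, -, hfzV, hfzred⟩ :=
    normalImg_of_chartNormal A M hq hA x hx hxL hN _ he
  -- step 3: divide by `x ^ e`
  have hfV : fz * x⁻¹ ^ e ∈ VM A M := mul_mem hfzV (pow_mem hx' e)
  have hint : IsIntegral ↥(Algebra.adjoin Kbar {Fermat.Agent.RED.H73.jF (L := Kbar) M})
      (fz * x⁻¹ ^ e) :=
    isIntegral_div_pow x _ (P.map (Int.castRingHom Kbar)) p (hP.map _) hPd' hp hP0' I1 hfzint e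
  haveI : Algebra.IsIntegral ↥(H41.Kur A) Kbar := isIntegral_Kur_Kbar A
  refine ⟨fz * x⁻¹ ^ e, mul_mem hfzL (pow_mem ((H23.L0 A M).inv_mem hxL) e), hint,
    isIntegralElem_of_isIntegral_adjoin (K := ↥(H41.Kur A)) _ _ hint, hfV, ?_⟩
  have e1 : (⟨fz * x⁻¹ ^ e, hfV⟩ : ↥(VM A M)) = ⟨fz, hfzV⟩ * ⟨x⁻¹, hx'⟩ ^ e := rfl
  have e2 : redM A M ⟨x, hx⟩ * redM A M ⟨x⁻¹, hx'⟩ = 1 := by
    rw [← map_mul]
    have : (⟨x, hx⟩ * ⟨x⁻¹, hx'⟩ : ↥(VM A M)) = 1 := Subtype.ext (mul_inv_cancel₀ hx0)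
    rw [this, map_one]
  rw [e1, map_mul, map_pow, hfzred]
  calc redM A M ⟨x, hx⟩ ^ e * y * redM A M ⟨x⁻¹, hx'⟩ ^ e
      = (redM A M ⟨x, hx⟩ * redM A M ⟨x⁻¹, hx'⟩) ^ e * y := by ring
    _ = y := by rw [e2, one_pow, one_mul]

end Generic

section Cases

variable (A : ValuationSubring Kbar) (M : ℕ) [NeZero M]

/-- **(L2-i) for the chart `j`, `q = 3`, `2 ∣ M`.** -/
theorem normalImg_three (hA : A.LiesOverPrime 3) (h2M : 2 ∣ M) (h3M : ¬ 3 ∣ M)
    (j : FN M) (hj : j = Fermat.Agent.RED.H73.jF (L := Kbar) M) (hjV : j ∈ VM A M)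
    (y : FM A M) (hy : IsIntegral ↥(Algebra.adjoin (kV A) {redM A M ⟨j, hjV⟩}) y) :
    ∃ f : FN M, f ∈ H23.L0 A M ∧ IsIntegral ↥(Algebra.adjoin Kbar {j}) f ∧
      ((aeval j : Kbar[X] →ₐ[Kbar] FN M).toRingHom.comp
        (mapRingHom (iotaUr A))).IsIntegralElem f ∧
      ∃ h : f ∈ VM A M, redM A M ⟨f, h⟩ = y := by
  have hPmap : ((X + C 256) ^ 3 : ℤ[X]).map (Int.castRingHom Kbar) = (X + C 256) ^ 3 := by
    simp only [Polynomial.map_pow, Polynomial.map_add, Polynomial.map_X, Polynomial.map_C]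
    simp only [eq_intCast, Int.cast_ofNat]
  have hQmap : ((X ^ 2 : ℤ[X])).map (Int.castRingHom Kbar) = X ^ 2 := by
    simp [Polynomial.map_pow]
  have hPQ : aeval Fermat.Agent.RED.H70.hZ2 ((X + C 256) ^ 3 : ℤ[X])
      = jqModC ℤ * aeval Fermat.Agent.RED.H70.hZ2 (X ^ 2 : ℤ[X]) := by
    simp only [map_pow, map_add, aeval_X, aeval_C]
    simp only [eq_intCast, Int.cast_ofNat]
    exact Fermat.Agent.RED.H70.hZ2_ident
  have hPQ' : aeval Fermat.Agent.RED.H70.hZ2 ((X + C 16) ^ 3 : ℤ[X])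
      = qExpand ℤ 2 (jqModC ℤ) * aeval Fermat.Agent.RED.H70.hZ2 (X : ℤ[X]) := by
    simp only [map_pow, map_add, aeval_X, aeval_C]
    simp only [eq_intCast, Int.cast_ofNat]
    exact Fermat.Agent.RED.H70.hZ2_ident'
  have hPd : ((X + C 256) ^ 3 : ℤ[X]).natDegree = 2 + 1 := by
    rw [(monic_X_add_C (256 : ℤ)).natDegree_pow, natDegree_X_add_C]
  obtain ⟨x, hx, hx', hxcoe, hredcoe, -, GC⟩ := goodChart_haupt_int (p := 2) Nat.prime_two h2M
    Nat.prime_three h3M A hA Fermat.Agent.RED.H70.hZ2 Fermat.Agent.RED.H70.hZ2_order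
    Fermat.Agent.RED.H70.hZ2_leadingCoeff ((X + C 256) ^ 3) (X ^ 2) ((X + C 16) ^ 3) X
    ((monic_X_add_C 256).pow 3) hPd (monic_X_pow 2) (by rw [natDegree_X_pow]; norm_num) monic_X
    hPQ hPQ' (-64) (by norm_num)
    (by
      have := neg_natCast_inv_mem Nat.prime_three A hA 64 (by decide)
      exact_mod_cast this)
    (by
      intro ρ hρ
      rw [hQmap] at hρ
      simpa using hρ)
    (by
      intro ρ _ h
      rw [hPmap, hQmap] at h
      simp only [eval_pow, eval_add, eval_X, eval_C] at h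
      rcases h with ⟨h0, hd⟩ | ⟨h1, hd⟩
      · exact (haupt2_case0 ρ h0 hd).elim
      · exact haupt2_case1728 ρ h1 hd)
  refine normalImg_haupt A Nat.prime_three hA M Fermat.Agent.RED.H70.hZ2 ((X + C 256) ^ 3) 2
    (by norm_num) ((monic_X_add_C 256).pow 3) hPd ?_ ?_ x hx hx' hxcoe hredcoe GC.normal
    j hj hjV y hy
  · rw [coeff_zero_eq_eval_zero]
    simp
  · rw [hPQ]
    simp only [map_pow, aeval_X]

/-- **(L2-i) for the chart `j`, `q = 2`, `3 ∣ M`.** -/
theorem normalImg_two (hA : A.LiesOverPrime 2) (h3M : 3 ∣ M) (h2M : ¬ 2 ∣ M)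
    (j : FN M) (hj : j = Fermat.Agent.RED.H73.jF (L := Kbar) M) (hjV : j ∈ VM A M)
    (y : FM A M) (hy : IsIntegral ↥(Algebra.adjoin (kV A) {redM A M ⟨j, hjV⟩}) y) :
    ∃ f : FN M, f ∈ H23.L0 A M ∧ IsIntegral ↥(Algebra.adjoin Kbar {j}) f ∧
      ((aeval j : Kbar[X] →ₐ[Kbar] FN M).toRingHom.comp
        (mapRingHom (iotaUr A))).IsIntegralElem f ∧
      ∃ h : f ∈ VM A M, redM A M ⟨f, h⟩ = y := by
  have hPmap : ((X + C 27) * (X + C 243) ^ 3 : ℤ[X]).map (Int.castRingHom Kbar)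
      = (X + C 27) * (X + C 243) ^ 3 := by
    simp only [Polynomial.map_pow, Polynomial.map_add, Polynomial.map_mul, Polynomial.map_X,
      Polynomial.map_C]
    simp only [eq_intCast, Int.cast_ofNat]
  have hQmap : ((X ^ 3 : ℤ[X])).map (Int.castRingHom Kbar) = X ^ 3 := by
    simp [Polynomial.map_pow]
  have hPQ : aeval Fermat.Agent.RED.H29.hZ3 ((X + C 27) * (X + C 243) ^ 3 : ℤ[X])
      = jqModC ℤ * aeval Fermat.Agent.RED.H29.hZ3 (X ^ 3 : ℤ[X]) := by
    simp only [map_pow, map_add, map_mul, aeval_X, aeval_C]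
    simp only [eq_intCast, Int.cast_ofNat]
    exact Fermat.Agent.RED.H29.hZ3_one
  have hPQ' : aeval Fermat.Agent.RED.H29.hZ3 ((X + C 27) * (X + C 3) ^ 3 : ℤ[X])
      = qExpand ℤ 3 (jqModC ℤ) * aeval Fermat.Agent.RED.H29.hZ3 (X : ℤ[X]) := by
    simp only [map_pow, map_add, map_mul, aeval_X, aeval_C]
    simp only [eq_intCast, Int.cast_ofNat]
    exact Fermat.Agent.RED.H29.hZ3_two
  have hPm : ((X + C 27) * (X + C 243) ^ 3 : ℤ[X]).Monic :=
    (monic_X_add_C 27).mul ((monic_X_add_C 243).pow 3)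
  have hPd : ((X + C 27) * (X + C 243) ^ 3 : ℤ[X]).natDegree = 3 + 1 := by
    rw [(monic_X_add_C (27 : ℤ)).natDegree_mul ((monic_X_add_C (243 : ℤ)).pow 3),
      (monic_X_add_C (243 : ℤ)).natDegree_pow, natDegree_X_add_C, natDegree_X_add_C]
  obtain ⟨x, hx, hx', hxcoe, hredcoe, -, GC⟩ := goodChart_haupt_int (p := 3) Nat.prime_three
    h3M Nat.prime_two h2M A hA Fermat.Agent.RED.H29.hZ3 Fermat.Agent.RED.H29.hZ3_order_neg
    Fermat.Agent.RED.H29.hZ3_leadingCoeff ((X + C 27) * (X + C 243) ^ 3) (X ^ 3)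
    ((X + C 27) * (X + C 3) ^ 3) X hPm hPd (monic_X_pow 3)
    (by rw [natDegree_X_pow]; norm_num) monic_X hPQ hPQ' (-27) (by norm_num)
    (by
      have := neg_natCast_inv_mem Nat.prime_two A hA 27 (by decide)
      exact_mod_cast this)
    (by
      intro ρ hρ
      rw [hQmap] at hρ
      simpa using hρ)
    (by
      intro ρ _ h
      rw [hPmap, hQmap] at h
      simp only [eval_pow, eval_add, eval_mul, eval_X, eval_C] at h
      rcases h with ⟨h0, hd⟩ | ⟨h1, hd⟩
      · exact haupt3_case0 ρ h0 hd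
      · exact (haupt3_case1728 ρ h1 hd).elim)
  refine normalImg_haupt A Nat.prime_two hA M Fermat.Agent.RED.H29.hZ3
    ((X + C 27) * (X + C 243) ^ 3) 3 (by norm_num) hPm hPd ?_ ?_ x hx hx' hxcoe hredcoe
    GC.normal j hj hjV y hy
  · rw [coeff_zero_eq_eval_zero]
    simp
  · rw [hPQ]
    simp only [map_pow, aeval_X]

/-- **(L2-i) NORMAL-IMG for the chart `j`, all tame cases**: `q ∤ M` and
`5 ≤ q ∨ (q = 3 ∧ 2 ∣ M) ∨ (q = 2 ∧ 3 ∣ M)`. -/
theorem normalImg_tame {q : ℕ} (hq : q.Prime) (hA : A.LiesOverPrime q) (hqM : ¬ q ∣ M)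
    (hcase : 5 ≤ q ∨ (q = 3 ∧ 2 ∣ M) ∨ (q = 2 ∧ 3 ∣ M))
    (j : FN M) (hj : j = Fermat.Agent.RED.H73.jF (L := Kbar) M) (hjV : j ∈ VM A M)
    (y : FM A M) (hy : IsIntegral ↥(Algebra.adjoin (kV A) {redM A M ⟨j, hjV⟩}) y) :
    ∃ f : FN M, f ∈ H23.L0 A M ∧ IsIntegral ↥(Algebra.adjoin Kbar {j}) f ∧
      ((aeval j : Kbar[X] →ₐ[Kbar] FN M).toRingHom.comp
        (mapRingHom (iotaUr A))).IsIntegralElem f ∧
      ∃ h : f ∈ VM A M, redM A M ⟨f, h⟩ = y := by
  rcases hcase with h5 | ⟨rfl, h2M⟩ | ⟨rfl, h3M⟩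
  · obtain ⟨f, h1, h2, h3, -, h4⟩ := normalImg_good A M hq h5 hA hqM j hj hjV y hy
    exact ⟨f, h1, h2, h3, h4⟩
  · exact normalImg_three A M hA h2M hqM j hj hjV y hy
  · exact normalImg_two A M hA h3M hqM j hj hjV y hy

end Cases

end Fermat.Agent.S36.NU.H17

end
end
-- ==== END Fermat.Agent.S36.NU.H17_NormalQ23

-- ==== BEGIN Fermat.Agent.S36.NU.H42_NmFib
section

/-!
# S36 / NU-MOD, leaf NM-P, part NM-FIB (helper42): norms along a map and fibres of reductions

`φ : F →ₐ[K] F'` finite with the norm formula for divisors (`NormFormulaAlong`).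

* `ord_normAlong_eq_sum`  : `ord_v (N_φ f) = ∑_{w | v} ord_w (f) · f(w | v)`;
* `ord_normAlong_eq_zero` : if `f` has neither zero nor pole over `v`, neither has `N_φ f` at `v`;
* `regAt_normAlong`       : if `f` is regular over `v`, then `N_φ f` is regular at `v`;
* `fib_of_rho`, `reg_of_rho` : the fields `fibα`, `fibβ`, `regα` of `H79.NUPre` from the
  compatibility `hρ` of the two reduction maps
  (`ρ' (P | φ) = z' → ρ P = z`: the fibre of `z'` is the point `z`).

This file has no open goals.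
-/

set_option autoImplicit false
set_option linter.style.haveILetI false
set_option linter.unusedSectionVars false

noncomputable section

open AlgebraicCurve

namespace Fermat.Agent.S36.NU.H42

open Fermat.Agent.RED.H17 Fermat.Agent.RED Fermat.Agent.Lib.HeckeComm

section Along

variable {K F F' : Type*} [Field K] [Field F] [Field F'] [Algebra K F] [Algebra K F']
  [HasPrincipalDivisors K F']
  (φ : F →ₐ[K] F') (hφ : φ.toRingHom.IsIntegral) (hfin : FiniteAlong K φ)
  (hnorm : NormFormulaAlong K φ hfin)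

include hnorm in
/-- The order of the norm along `φ` at `v` is the weighted sum of the orders over `v`. -/
theorem ord_normAlong_eq_sum (v : Place K F) (f : F') (hf : f ≠ 0) :
    ∃ (s : Finset (Place K F')) (d : Place K F' → ℕ), (∀ w ∈ s, w.restrictAlong φ hφ = v) ∧
      v.ord (normAlongHom φ.toRingHom f) = ∑ w ∈ s, w.ord f * (d w : ℤ) := by
  letI := algebraAlong φ
  haveI := isScalarTower_along φ
  haveI := isIntegral_along φ hφ
  haveI : Module.Finite F F' := hfin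
  obtain ⟨s, hs, h⟩ := ord_norm_eq_sum (K := K) (F := F) (F' := F') hnorm v f hf
  exact ⟨s, fun w => w.inertiaDeg F, hs, h⟩

include hnorm in
/-- If `f` has neither zero nor pole at the places over `v`, then `N_φ f` has neither zero nor
pole at `v`. -/
theorem ord_normAlong_eq_zero (v : Place K F) (f : F')
    (hf : ∀ w : Place K F', w.restrictAlong φ hφ = v → w.ord f = 0) :
    v.ord (normAlongHom φ.toRingHom f) = 0 := by
  rcases eq_or_ne f 0 with rfl | hf0
  · have h0 : normAlongHom φ.toRingHom (0 : F') = 0 := by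
      letI := algebraAlong φ
      haveI : Module.Finite F F' := hfin
      exact Algebra.norm_zero
    rw [h0]
    exact Place.ord_zero v
  obtain ⟨s, d, hs, h⟩ := ord_normAlong_eq_sum φ hφ hfin hnorm v f hf0
  rw [h]
  refine Finset.sum_eq_zero fun w hw => ?_
  rw [hf w (hs w hw), zero_mul]

include hnorm in
/-- If `f` is regular at the places over `v`, then `N_φ f` is regular at `v`. -/
theorem regAt_normAlong (v : Place K F) (f : F')
    (hf : ∀ w : Place K F', w.restrictAlong φ hφ = v → RegAt w f) :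
    RegAt v (normAlongHom φ.toRingHom f) := by
  letI := algebraAlong φ
  haveI := isScalarTower_along φ
  haveI := isIntegral_along φ hφ
  haveI : Module.Finite F F' := hfin
  exact regAt_norm (K := K) (F := F) (F' := F') hnorm v f hf

variable {Z Z' : Type*} (ρ : Place K F' → Z) (ρ' : Place K F → Z') (z : Z) (z' : Z')
  (hρ : ∀ P : Place K F', ρ' (P.restrictAlong φ hφ) = z' → ρ P = z)

include hnorm hρ in
/-- **`fibα`, `fibβ`**: the norm of a function without zero or pole on the fibre of `z` has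
neither zero nor pole on the fibre of `z'`, if the fibre of `z'` lies over `z`. -/
theorem fib_of_rho (f : F') (hf : ∀ P : Place K F', ρ P = z → P.ord f = 0)
    (Q : Place K F) (hQ : ρ' Q = z') : Q.ord (normAlongHom φ.toRingHom f) = 0 :=
  ord_normAlong_eq_zero φ hφ hfin hnorm Q f fun w hw => hf w (hρ w (by rw [hw]; exact hQ))

include hnorm hρ in
/-- **`regα`**: the norm of a function regular on the fibre of `z` is regular on the fibre of
`z'`. -/
theorem reg_of_rho (f : F') (hf : ∀ P : Place K F', ρ P = z → RegAt P f)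
    (Q : Place K F) (hQ : ρ' Q = z') : RegAt Q (normAlongHom φ.toRingHom f) :=
  regAt_normAlong φ hφ hfin hnorm Q f fun w hw => hf w (hρ w (by rw [hw]; exact hQ))

end Along

end Fermat.Agent.S36.NU.H42

end
end
-- ==== END Fermat.Agent.S36.NU.H42_NmFib

-- ==== BEGIN Fermat.Agent.S36.NU.H5_Q23Abs
section
attribute [local instance 10000] SubalgebraClass.toAlgebra
attribute [local instance 10000] HahnSeries.powerSeriesAlgebra

/-!
# S36 / NU-B, leaf Q23 (helper5): `d̄` has a pole where the differential `dt/t` vanishes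

Abstract form, any prime `q`.  `E ⊆ k((t))` with `[E : E^q] = q`, `z` a place of `E / k`, `ū` a
coordinate at `z`, `d̄` with THETA.  If some `h ∈ E` satisfies an ODE `θ h · b = a` with `a` a unit
at `z` and `b` vanishing at `z`, then `θ ū` has a pole at `z`, hence `d̄ ∉ O_z`; with (L1) this gives
`c ∈ 𝔽_{q²}` and `ord_z d̄ = -1`.

No ramification input is used.
-/

set_option autoImplicit false

noncomputable section

open ModularCurve AlgebraicCurve IntermediateField Polynomial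

namespace Fermat.Agent.S36.NU.H5

open Fermat.Agent.RED.H51 Fermat.Agent.S36.NU.H73

variable {k : Type*} [Field k] {q : ℕ} [Fact q.Prime] [CharP k q]
variable {E : IntermediateField k (LaurentSeries k)}

/-- **`d̄ ∉ O_z`** at a place `z` where an ODE `θ h · b = a` degenerates (`a` unit, `b(z) = 0`). -/
theorem q23_dbar_not_mem_ode (hPB : HasPBasis q ↥E) (z : Place k ↥E) {u d h a b : ↥E} (c : k)
    (hu : z.ord (u - algebraMap k ↥E c) = 1)
    (hθ : thetaL (d : LaurentSeries k) =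
      (u : LaurentSeries k) ^ (q - 1) * thetaL (u : LaurentSeries k) -
        thetaL (u : LaurentSeries k) ^ q)
    (hode : thetaL (h : LaurentSeries k) * (b : LaurentSeries k) = (a : LaurentSeries k))
    (hh : h ∈ z.toValuationSubring) (ha0 : a ≠ 0) (ha : z.ord a = 0) (hb : OrdGe z 1 b) :
    d ∉ z.toValuationSubring := by
  intro hd
  have hq : q.Prime := Fact.out
  have hθh : thetaL (h : LaurentSeries k) ≠ 0 := by
    intro h0
    rw [h0, zero_mul] at hode
    apply ha0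
    apply Subtype.ext
    rw [← hode]
    rfl
  have hπθ : thetaL ((u - algebraMap k ↥E c : ↥E) : LaurentSeries k) =
      thetaL (u : LaurentSeries k) := by
    rw [coeE_sub, map_sub,
      show ((algebraMap k ↥E c : ↥E) : LaurentSeries k) = algebraMap k (LaurentSeries k) c from rfl,
      thetaL_algebraMap, sub_zero]
  have hθ0 : thetaL (u : LaurentSeries k) ≠ 0 := by
    have := thetaL_ne_zero_of_ord hPB z hu hθh
    rwa [hπθ] at this
  obtain ⟨X, hX, hXθ⟩ := Gu_mem hPB z c hu hθ0 hθ hd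
  obtain ⟨g, hg, hgθ⟩ := theta_mem hPB z hu hh
  rw [hπθ] at hgθ
  -- `a ^ (q-1) = g ^ (q-1) * X * b ^ (q-1)` in `E`
  have hkey : a ^ (q - 1) = g ^ (q - 1) * X * b ^ (q - 1) := by
    apply Subtype.ext
    rw [IntermediateField.coe_pow, IntermediateField.coe_mul, IntermediateField.coe_mul,
      IntermediateField.coe_pow, IntermediateField.coe_pow, hXθ, ← hode, hgθ]
    ring
  have hq1 : 1 ≤ q - 1 := by have := hq.two_le; omega
  have hR : OrdGe z (0 + 1) (g ^ (q - 1) * X * b ^ (q - 1)) := by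
    refine OrdGe.mul ((ordGe_zero_iff_mem z _).mpr (mul_mem (pow_mem hg _) hX)) ?_
    have h1 := ordGe_pow hb (q - 1)
    refine h1.mono ?_
    have : (1 : ℤ) ≤ ((q - 1 : ℕ) : ℤ) := by exact_mod_cast hq1
    nlinarith
  rw [← hkey] at hR
  have h2 := hR.le (pow_ne_zero _ ha0)
  rw [ord_pow, ha] at h2
  simp at h2

/-- **POLE at a degenerate point of an ODE**: `c ∈ 𝔽_{q²}` and `ord_z d̄ = -1`. -/
theorem q23_ord_dbar_ode (hPB : HasPBasis q ↥E) (z : Place k ↥E) {u d h a b P : ↥E} (c : k)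
    (hu : z.ord (u - algebraMap k ↥E c) = 1)
    (hθ : thetaL (d : LaurentSeries k) =
      (u : LaurentSeries k) ^ (q - 1) * thetaL (u : LaurentSeries k) -
        thetaL (u : LaurentSeries k) ^ q)
    (hode : thetaL (h : LaurentSeries k) * (b : LaurentSeries k) = (a : LaurentSeries k))
    (hh : h ∈ z.toValuationSubring) (ha0 : a ≠ 0) (ha : z.ord a = 0) (hb : OrdGe z 1 b)
    (hL1 : P = d * (u ^ q ^ 2 - u)) (hP : P ∈ z.toValuationSubring) :
    c ^ q ^ 2 = c ∧ z.ord d = -1 :=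
  haveI : CharP ↥E q := charP_E
  pole_of_not_mem q z c hu hL1 hP (q23_dbar_not_mem_ode hPB z c hu hθ hode hh ha0 ha hb)

end Fermat.Agent.S36.NU.H5

end
end
-- ==== END Fermat.Agent.S36.NU.H5_Q23Abs

-- ==== BEGIN Fermat.Agent.S36.NU.H65_Final
section

/-!
# S36 / NU-B, TI3: the abstract theorem, final form (helper65)

`ti3_final` = `H16.chart` (local lemma + patching, for the two charts) + `ti3_const`
(Newton + Čech + Artin-Rees + constants).

What the modular side has to provide (`R = O_{K^ur}`, `K = K^ur`, `F = F_N^I`, `j`, `h`, `n`):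

* the two charts `C0` (`B` = integral closure of `R[j]`), `Coo` (`R[1/j]`) with the same components
  (`hV`, `hrd`) and their `Setup` (`inc`, `root_g : g i ^ n * rd i h = 1`);
* `hfg` : `{s : h sⁿ integral over R[1/j]}` is finitely generated over `R[1/j]`
  (`H17.MInt_inv_fg_of_finite`);
* RADQ for the two charts (`H17.isRadQ_of_rd_eq_zero_adjoin`);
* at every closed point of the special fibre of each chart: the branches, a local generator `s`,
  and the equality of the values of `g i / rd i s` on the branches (`hpt0`, `hptoo`).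

Conclusion: `∃ s ≠ 0, h sⁿ` is integral over `R` (hence a constant: `h = c s⁻ⁿ`).
-/

set_option autoImplicit false

namespace Fermat.Agent.S36.NU.H65

open Fermat.Agent.S36.NU.H16 Fermat.Agent.S36.NU.H17

variable {R F k ι : Type*} {κ : ι → Type*} [CommRing R] [Field F] [Algebra R F]
  [Field k] [∀ i, Field (κ i)] [∀ i, Algebra k (κ i)]

/-- **TI3, abstract final form.** -/
theorem ti3_final [Fintype ι] [IsNoetherianRing R] [IsDomain R] [IsIntegrallyClosed R]
    (K : Type*) [Field K] [Algebra R K] [IsFractionRing R K] [Algebra K F] [IsScalarTower R K F]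
    (C0 Coo : Chart R F k ι κ) (qn n : ℕ) (h : F)
    (g : ∀ i, κ i) (S0 : Setup C0 qn n h g) (Soo : Setup Coo qn n h g)
    (j : F) (hjt : Transcendental K j) (hB0 : C0.B = intSub R j) (hBoo : Coo.B = intSub R j⁻¹)
    (hV : ∀ i, C0.V i = Coo.V i) (hrd : ∀ i x, C0.rd i x = Coo.rd i x)
    (q : R) (hq0 : q ≠ 0) (hqu : ¬ IsUnit q) (n' : R) (hnn : (n : R) * n' = 1)
    (hfg : (MInt R j⁻¹ h n S0.n_pos).FG)
    (hrad0 : ∀ β ∈ C0.B, (∀ i, C0.rd i β = 0) → IsRadQ C0.B q β)
    (hradoo : ∀ β ∈ Coo.B, (∀ i, Coo.rd i β = 0) → IsRadQ Coo.B q β)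
    (hpt0 : ∀ 𝔪 : Ideal C0.B, 𝔪.IsMaximal → (∃ i, C0.Icomp i ≤ 𝔪) →
      ∃ (_ : ∀ i, C0.Icomp i ≤ 𝔪 → Branch C0 𝔪 i) (s : F) (hs : h * s ^ n ∈ C0.B),
        (⟨h * s ^ n, hs⟩ : C0.B) ∉ 𝔪 ∧
        ∀ br : (∀ i, C0.Icomp i ≤ 𝔪 → Branch C0 𝔪 i), ∃ c : k,
          ∀ (i : ι) (hi : C0.Icomp i ≤ 𝔪),
            g i * (C0.rd i s)⁻¹ - algebraMap k (κ i) c ∈ (br i hi).O.nonunits)
    (hptoo : ∀ 𝔪 : Ideal Coo.B, 𝔪.IsMaximal → (∃ i, Coo.Icomp i ≤ 𝔪) →
      ∃ (_ : ∀ i, Coo.Icomp i ≤ 𝔪 → Branch Coo 𝔪 i) (s : F) (hs : h * s ^ n ∈ Coo.B),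
        (⟨h * s ^ n, hs⟩ : Coo.B) ∉ 𝔪 ∧
        ∀ br : (∀ i, Coo.Icomp i ≤ 𝔪 → Branch Coo 𝔪 i), ∃ c : k,
          ∀ (i : ι) (hi : Coo.Icomp i ≤ 𝔪),
            g i * (Coo.rd i s)⁻¹ - algebraMap k (κ i) c ∈ (br i hi).O.nonunits) :
    ∃ s : F, s ≠ 0 ∧ IsIntegral R (h * s ^ n) := by
  obtain ⟨a, ha, hra⟩ := chart C0 qn n h g S0 hpt0
  obtain ⟨b, hb, hrb⟩ := chart Coo qn n h g Soo hptoo
  exact ti3_const K C0 Coo qn n h g S0 Soo j hjt hB0 hBoo hV hrd q hq0 hqu n' hnn hfg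
    hrad0 hradoo a b ha hra hb hrb

end Fermat.Agent.S36.NU.H65

end
-- ==== END Fermat.Agent.S36.NU.H65_Final

-- ==== BEGIN Fermat.Agent.S36.NU.H73_CoordC
section
attribute [local instance 10000] SubalgebraClass.toAlgebra
attribute [local instance 10000] HahnSeries.powerSeriesAlgebra

/-!
# COORD at `κ = modularFunctionFieldFullC (kV A) M'`, `4 ∣ M'`, `q ≥ 5` (S36 / NU-B; helper73)

* `uZ4 ∈ ℤ((t))` (`H73_UnitTheta.lean`) is the `q`-expansion of the modular unit
  `unitF M' 4 = Δ(t)/Δ(t⁴) ∈ F_{M'} ℚ̄` of helper30 (`coeffMap_uZ4_Kbar`), which is regular and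
  non-vanishing off the cusps (`H30.ord_unitF`), and its reduction `ū = ubar4 (kV A)` lies in `κ`
  (`ubar4_mem`).
* `coord_u4_full` : **COORD**.  At every place `z` of `κ` at which `j̄` has ramification index
  `e = 1, 3, 2` over `j₀ ≠ 0, 1728`, `j₀ = 0`, `j₀ = 1728` (RAM), `ū` is a unit and `ū - c` is a
  uniformizer for some `c ∈ k`.
-/

set_option autoImplicit false
set_option synthInstance.maxHeartbeats 400000
set_option maxHeartbeats 1000000

noncomputable section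

open ModularCurve AlgebraicCurve Fermat.Agent.S28.H73 Fermat.Agent.RED.H73 Fermat.Agent.BAD.H88
  Fermat.Agent.BAD.H82 Fermat.Agent.S24 Fermat.Agent.S28

namespace Fermat.Agent.S36.NU.H73

open Fermat.Agent.BAD.H73 Fermat.Agent.RED.H51 Fermat.Agent.BAD.H30 Fermat.Agent.BAD.H21

section Series

variable (k : Type*) [Field k]

theorem coeffMap_DZ : coeffMap (Int.castRingHom k) DZ = deltaR k := by
  rw [deltaR_eq_DL, DZ, ModularCurve.coeffMap_ofPowerSeries]
  rfl

theorem vbar_mul : vbar k * qExpand k 2 (deltaR k) = deltaR k := by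
  have h := congrArg (coeffMap (Int.castRingHom k)) hZ2_mul_D2Z
  rw [map_mul, D2Z, coeffMap_qExpand, coeffMap_DZ] at h
  exact h

theorem vbar_eq : vbar k = deltaR k * (qExpand k 2 (deltaR k))⁻¹ :=
  (eq_mul_inv_iff_mul_eq₀ (qExpand_deltaR_ne_zero k 2)).mpr (vbar_mul k)

theorem ubar4_eq : ubar4 k = deltaR k * (qExpand k 4 (deltaR k))⁻¹ := by
  have h := ubar4_mul k
  rw [coeffMap_DZ] at h
  exact (eq_mul_inv_iff_mul_eq₀ (qExpand_deltaR_ne_zero k 4)).mpr h

theorem vbar_ne_zero : vbar k ≠ 0 := by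
  rw [vbar_eq]
  exact mul_ne_zero (deltaR_ne_zero k) (inv_ne_zero (qExpand_deltaR_ne_zero k 2))

theorem vbar2_eq : vbar2 k = ubar4 k * (vbar k)⁻¹ := by
  rw [ubar4, mul_comm (vbar k), mul_assoc, mul_inv_cancel₀ (vbar_ne_zero k), mul_one]

end Series

section CharZero

/-- The `q`-expansion of helper30's modular unit `Δ(t)/Δ(t⁴) ∈ F_N ℚ̄` is `uZ4 ∈ ℤ((t))`. -/
theorem coeffMap_uZ4_Kbar (N : ℕ) [NeZero N] (h4 : 4 ∣ N) :
    ((unitF N 4 h4 : FN N) : LaurentSeries Kbar) = coeffMap (Int.castRingHom Kbar) uZ4 := by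
  rw [unitF_coe, coeffEmb_modularUnitSeries, coeffMap_uZ4, ubar4_eq]

end CharZero

section Concrete

variable (A : ValuationSubring Kbar) (q : ℕ) (hq : q.Prime) (hA : A.LiesOverPrime q)
variable (M' : ℕ) [NeZero M']

include hq hA in
/-- The reductions of the modular units `Δ(t)/Δ(t^d)`, `d ∣ M'`, lie in `κ`. -/
theorem unit_series_mem (hqM : ¬ q ∣ M') (d : ℕ) [NeZero d] (hd : d ∣ M') :
    deltaR (kV A) * (qExpand (kV A) d (deltaR (kV A)))⁻¹
      ∈ modularFunctionFieldFullC (kV A) M' := by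
  have h := Fermat.Agent.RED.H73.stmt_GA M' q hq hqM A hA
  have hm : deltaR (kV A) * (qExpand (kV A) d (deltaR (kV A)))⁻¹
      ∈ redField A (Fermat.Agent.BAD.FNbar M') (hasScale_laurentBaseChange A M') := by
    rw [← gaussRes_unitF A M' d hd]
    exact SetLike.coe_mem _
  rw [← h]
  exact hm

include hq hA in
theorem vbar_mem (hqM : ¬ q ∣ M') (h2 : 2 ∣ M') :
    vbar (kV A) ∈ modularFunctionFieldFullC (kV A) M' := by
  rw [vbar_eq]
  exact unit_series_mem A q hq hA M' hqM 2 h2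

include hq hA in
theorem ubar4_mem (hqM : ¬ q ∣ M') (h4 : 4 ∣ M') :
    ubar4 (kV A) ∈ modularFunctionFieldFullC (kV A) M' := by
  rw [ubar4_eq]
  exact unit_series_mem A q hq hA M' hqM 4 h4

include hq hA in
theorem vbar2_mem (hqM : ¬ q ∣ M') (h4 : 4 ∣ M') :
    vbar2 (kV A) ∈ modularFunctionFieldFullC (kV A) M' := by
  rw [vbar2_eq]
  exact mul_mem (ubar4_mem A q hq hA M' hqM h4)
    (inv_mem (vbar_mem A q hq hA M' hqM (Dvd.dvd.trans (by norm_num) h4)))

include hq hA in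
/-- Every place of `κ` has degree one (`q ≥ 5`). -/
theorem deg_fullC (hqM : ¬ q ∣ M') (h5 : 5 ≤ q)
    (z : Place (kV A) ↥(modularFunctionFieldFullC (kV A) M')) : z.deg = 1 :=
  (Fermat.Agent.BAD.H17.ffHyp_congr (Fermat.Agent.RED.H73.stmt_GA M' q hq hqM A hA)
    (Fermat.Agent.BAD.H17.ffHyp_redM hq hqM (Or.inl h5) hA)).deg_one z

include hq hA in
/-- **COORD** at level `M'`, `4 ∣ M'`, `q ∤ M'`, `q ≥ 5`: `ū = Δ̄(t)/Δ̄(t⁴)` is a unit and a local
coordinate at every place `z` of `κ` with RAM. -/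
theorem coord_u4_full (hqM : ¬ q ∣ M') (h5 : 5 ≤ q) (h4 : 4 ∣ M')
    (z : Place (kV A) ↥(modularFunctionFieldFullC (kV A) M'))
    (j0 : kV A) (e : ℕ)
    (hram : z.ord ((⟨jqModC (kV A), jqModC_mem_full (kV A) M'⟩ :
        ↥(modularFunctionFieldFullC (kV A) M'))
      - algebraMap (kV A) ↥(modularFunctionFieldFullC (kV A) M') j0) = e)
    (hcase : (j0 ≠ 0 ∧ j0 ≠ 1728 ∧ e = 1) ∨ (j0 = 0 ∧ e = 3) ∨ (j0 = 1728 ∧ e = 2)) :
    z.ord (⟨ubar4 (kV A), ubar4_mem A q hq hA M' hqM h4⟩ :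
        ↥(modularFunctionFieldFullC (kV A) M')) = 0 ∧
      ∃ c : kV A, z.ord ((⟨ubar4 (kV A), ubar4_mem A q hq hA M' hqM h4⟩ :
          ↥(modularFunctionFieldFullC (kV A) M'))
        - algebraMap (kV A) ↥(modularFunctionFieldFullC (kV A) M') c) = 1 := by
  have : Fact q.Prime := ⟨hq⟩
  have : CharP (kV A) q := charP_kV A hq hA
  have h2 : 2 ∣ M' := Dvd.dvd.trans (by norm_num) h4
  have key := coord_u4 (hasPBasis_fullC A q hq hA M' hqM) z (deg_fullC A q hq hA M' hqM h5 z) h5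
    (jE := ⟨jqModC (kV A), jqModC_mem_full (kV A) M'⟩)
    (vE := ⟨vbar (kV A), vbar_mem A q hq hA M' hqM h2⟩)
    (v2E := ⟨vbar2 (kV A), vbar2_mem A q hq hA M' hqM h4⟩) rfl rfl rfl j0 e hram hcase
  have he : (⟨vbar (kV A), vbar_mem A q hq hA M' hqM h2⟩ :
        ↥(modularFunctionFieldFullC (kV A) M'))
      * ⟨vbar2 (kV A), vbar2_mem A q hq hA M' hqM h4⟩
      = ⟨ubar4 (kV A), ubar4_mem A q hq hA M' hqM h4⟩ := Subtype.ext rfl
  rw [he] at key
  exact key

end Concrete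

end Fermat.Agent.S36.NU.H73

end
end
-- ==== END Fermat.Agent.S36.NU.H73_CoordC
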