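-- GENERATED (merged mirror, NOTES/tools/trim/merge3_helper67.py): 2 modules of the originals, bodies verbatim.
import Fermat.Agent.Zm.S36_L04_002

-- ==== BEGIN Fermat.Agent.S36.NU.H79_B3
section

/-!
# S36 / NU-B, leaves B2 + B3 (helper79): norms which are `n`-th powers ⟹ trivial reduction data

`NUData` : the abstract datum of the two levels:
* `T : TotN ..` of the higher level (modular: level `q² M'`, valuations `i₂₀`, `i₁₁`, `i₀₂`),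
  `T' : TotData ..` of the lower level (modular: level `q M'`);
* the norm maps `Nα`, `Nβ : L₀ → L'` along the two degeneracy maps, with the norm formulas for
  the reductions of units (helper42's NORM-RED with ramification):
  `rd'₁ (Nα h) = A₂₀ (h̄₂₀) · A₁₁ (h̄₁₁) ^ (q - 1)`, `rd'₂ (Nα h) = A₀₂ (h̄₀₂)`,
  `rd'₁ (Nβ h) = B₂₀ (h̄₂₀)`, `rd'₂ (Nβ h) = B₁₁ (h̄₁₁) ^ (q - 1) · B₀₂ (h̄₀₂)`,
  where `A₀₂`, `B₂₀` are norms of purely inseparable extensions of degree `q` (`f = q`) and the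
  others are isomorphisms (`f = 1`);
* the triple points `SS`, the nodes `zα z`, `zβ z` of the lower level below `z ∈ SS`, the
  compatibility of the points, GLUE3 at the points of `SS`.

`NUData.trivRed` (B2 + B3): if `h` is a unit for the three valuations without zero or pole on
the fibres of the triple points, and `Nα h = cα gα ^ n`, `Nβ h = cβ gβ ^ n` with `n` prime to
`q`, then `h ^ (q² - 1)` has TRIVIAL REDUCTION DATA (`TrivRed`): there are a constant `c` and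
functions `G i` on the components with `red i (h ^ (q² - 1)) = c · G i ^ n`, and the `G i` take
the same non-zero value at every triple point.
-/

set_option autoImplicit false
set_option linter.style.haveILetI false

noncomputable section

open AlgebraicCurve

attribute [local instance] Classical.propDecidable

namespace Fermat.Agent.S36.NU.H79

open Fermat.Agent.RED.H17 Fermat.Agent.RED Fermat.Agent.BAD.H79 Fermat.Agent.BAD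

/-! ## More on values -/

section Values

variable {k F : Type*} [Field k] [Field F] [Algebra k F]

theorem HasValue.ord_eq_zero {v : Place k F} {f : F} {a : k} (h : HasValue v f a)
    (ha : a ≠ 0) : v.ord f = 0 := by
  have hreg := h.regAt
  have hnv : ¬ VanAt v f := fun hv => ha (HasValue.unique (by
    unfold HasValue; rw [map_zero, sub_zero]; exact hv) h).symm
  have hf0 : f ≠ 0 := fun h0 => hnv (by rw [h0]; exact vanAt_zero v)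
  have h1 := hreg.ord_nonneg
  have h2 : ¬ 0 < v.ord f := fun hpos => hnv (vanAt_of_ord_pos hpos)
  omega

theorem HasValue.const_mul {v : Place k F} {f : F} {a : k} (h : HasValue v f a) (c : k) :
    HasValue v (algebraMap k F c * f) (c * a) := (hasValue_const v c).mul h

theorem HasValue.inv {v : Place k F} (hdeg : v.deg = 1) {f : F} {a : k} (h : HasValue v f a)
    (ha : a ≠ 0) : HasValue v f⁻¹ a⁻¹ := by
  have h0 := h.ord_eq_zero ha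
  have hreg : RegAt v f⁻¹ := regAt_of_ord_nonneg (by rw [v.ord_inv, h0]; simp)
  obtain ⟨b, hb⟩ := exists_value v hdeg hreg
  have hb' : HasValue v f⁻¹ b := hb
  have hf0 : f ≠ 0 := fun h0' => ha (HasValue.unique (by
    rw [h0']; unfold HasValue; rw [map_zero, sub_zero]; exact vanAt_zero v) h).symm
  have h1 : HasValue v (f * f⁻¹) (a * b) := h.mul hb'
  rw [mul_inv_cancel₀ hf0] at h1
  have h2 : a * b = 1 := h1.unique (hasValue_one v)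
  have : b = a⁻¹ := eq_inv_of_mul_eq_one_right h2
  rw [← this]; exact hb'

/-- An `n`-th root of a function with a non-zero value has a non-zero value. -/
theorem exists_value_of_pow {v : Place k F} (hdeg : v.deg = 1) {n : ℕ} (hn : n ≠ 0) {g : F}
    {b : k} (hb : b ≠ 0) (h : HasValue v (g ^ n) b) :
    ∃ γ : k, γ ≠ 0 ∧ HasValue v g γ ∧ γ ^ n = b := by
  have h0 := h.ord_eq_zero hb
  rw [ord_pow] at h0
  have hg0 : v.ord g = 0 := by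
    rcases mul_eq_zero.mp h0 with h1 | h1
    · exact absurd (by exact_mod_cast h1) hn
    · exact h1
  obtain ⟨γ, hγ⟩ := exists_value v hdeg (regAt_of_ord_nonneg hg0.ge)
  have hγ' : HasValue v g γ := hγ
  have e : γ ^ n = b := (hγ'.pow n).unique h
  refine ⟨γ, ?_, hγ', e⟩
  rintro rfl
  rw [zero_pow hn] at e
  exact hb e.symm

end Values

/-! ## Units of `TotN` -/

namespace TotN

variable {K L₀ L k ι Z : Type*} {E : ι → Type*} [Field K] [Field L₀] [Field L]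
  [Algebra K L] [Algebra L₀ L] [Field k] [Fintype ι] [∀ i, Field (E i)]
  [∀ i, Algebra k (E i)] (T : TotN K L₀ L k ι Z E)

theorem mem_of_rdN_ne_zero {i : ι} {h : L₀} (hu : T.rdN i h ≠ 0) : h ∈ T.V i := by
  by_contra hm
  apply hu
  unfold rdN
  rw [dif_neg hm]

theorem rdN_pow {i : ι} {h : L₀} (hm : h ∈ T.V i) (m : ℕ) :
    T.rdN i (h ^ m) = T.rdN i h ^ m := by
  rw [T.rdN_of_mem hm, T.rdN_of_mem ((T.V i).pow_mem hm m), ← map_pow]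
  rfl

theorem inv_mem_of_rdN_ne_zero {i : ι} {h : L₀} (hu : T.rdN i h ≠ 0) : h⁻¹ ∈ T.V i := by
  have hm := T.mem_of_rdN_ne_zero hu
  rw [T.rdN_of_mem hm] at hu
  have hunit : IsUnit (⟨h, hm⟩ : T.V i) := by
    by_contra hnu
    exact hu ((T.red_eq_zero_iff i _).mpr ((IsLocalRing.mem_maximalIdeal _).mpr hnu))
  obtain ⟨v, hv⟩ := hunit
  have h1 : ((v⁻¹ : (T.V i)ˣ) : T.V i) * ⟨h, hm⟩ = 1 := by rw [← hv]; exact v.inv_mul
  have h2 : (((v⁻¹ : (T.V i)ˣ) : T.V i) : L₀) * h = 1 := by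
    have := congrArg Subtype.val h1
    simpa using this
  have h3 : h⁻¹ = (((v⁻¹ : (T.V i)ˣ) : T.V i) : L₀) := by
    rw [eq_comm, ← mul_eq_one_iff_eq_inv₀ (by
      rintro rfl
      rw [mul_zero] at h2
      exact zero_ne_one h2)]
    exact h2
  rw [h3]
  exact (((v⁻¹ : (T.V i)ˣ) : T.V i)).2

/-- A unit without zero or pole on the fibre of `z` is a unit of `R_z`: its reductions have
non-zero values at `z`. -/
theorem exists_value_of_unit [Infinite k] (hP : HasPrincipalDivisors K L) {z : Z} {h : L₀}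
    (hu : ∀ i, T.rdN i h ≠ 0)
    (hgood : ∀ P, T.ρ P = z → P.ord (algebraMap L₀ L h) = 0)
    (hdeg : ∀ i, (T.pt i z).deg = 1) (i : ι) :
    ∃ a : k, a ≠ 0 ∧ HasValue (T.pt i z) (T.rdN i h) a := by
  have hm : ∀ j, h ∈ T.V j := fun j => T.mem_of_rdN_ne_zero (hu j)
  have hu' : ∀ j, T.red j ⟨h, hm j⟩ ≠ 0 := fun j => by
    rw [← T.rdN_of_mem (hm j)]; exact hu j
  have h0 := T.ord_eq_zero hP hm hu' hgood i
  rw [← T.rdN_of_mem (hm i)] at h0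
  obtain ⟨a, ha⟩ := exists_value (T.pt i z) (hdeg i) (regAt_of_ord_nonneg h0.ge)
  refine ⟨a, ?_, ha⟩
  rintro rfl
  have hv : VanAt (T.pt i z) (T.rdN i h) := by
    have := ha
    rwa [map_zero, sub_zero] at this
  have := hv.ord_pos (hu i)
  omega

end TotN

/-! ## Roots of units of the lower level -/

section Lower

variable {K' L' k L₁ L₂ : Type*} [Field K'] [Field L'] [Algebra K' L'] [Field k] [Field L₁]
  [Algebra k L₁] [Field L₂] [Algebra k L₂]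

theorem isGU_of_rd_ne_zero {F' : Type*} [Field F'] [Algebra k F'] (S : PRed K' L' k F')
    {f : L'} (h : S.rd f ≠ 0) : S.IsGU f := by
  refine ⟨?_, h⟩
  by_contra hm
  exact h (S.rd_of_not_mem hm)

theorem isCPow_rd_of_eq {F' : Type*} [Field F'] [Algebra k F'] (S : PRed K' L' k F')
    {n : ℕ} (hn : n ≠ 0) {f g : L'} {c : K'} (hf : f = algebraMap K' L' c * g ^ n)
    (h0 : S.rd f ≠ 0) : IsCPow k n (S.rd f) := by
  obtain ⟨d, c', -, -, -, -, hrd⟩ := rd_isCPow_of_eq S hn (isGU_of_rd_ne_zero S h0) hf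
  exact ⟨c', _, hrd⟩

theorem isGU_of_pow {F' : Type*} [Field F'] [Algebra k F'] (S : PRed K' L' k F') {n : ℕ}
    (hn : n ≠ 0) {x : L'} (h : S.IsGU (x ^ n)) : S.IsGU x := by
  have hm : x ∈ S.V := by
    rw [← ValuationSubring.valuation_le_one_iff]
    have h1 := (ValuationSubring.valuation_le_one_iff S.V (x ^ n)).mpr h.mem
    rw [map_pow] at h1
    exact (pow_le_one_iff hn).mp h1
  refine ⟨hm, fun h0 => h.rd_ne_zero ?_⟩
  rw [S.rd_pow hm, h0, zero_pow hn]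

/-- A unit constant of the first valuation is a unit constant of the second. -/
theorem TotData_isGU_const (T' : TotData K' L' k L₁ L₂) {C : K'}
    (h : T'.p₁.IsGU (algebraMap K' L' C)) : T'.p₂.IsGU (algebraMap K' L' C) := by
  have hm₂ : algebraMap K' L' C ∈ T'.b₂.V := (T'.const_mem C).mp h.mem
  have hi₁ : algebraMap K' L' C⁻¹ ∈ T'.b₁.V := by
    rw [map_inv₀]; exact h.inv_mem
  have hi₂ : algebraMap K' L' C⁻¹ ∈ T'.b₂.V := (T'.const_mem C⁻¹).mp hi₁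
  refine ⟨hm₂, fun h0 => ?_⟩
  have hC0 : algebraMap K' L' C ≠ 0 := h.ne_zero
  have h1 : T'.p₂.rd (algebraMap K' L' C * algebraMap K' L' C⁻¹) = 1 := by
    rw [map_inv₀, mul_inv_cancel₀ hC0]; exact T'.p₂.rd_one
  rw [T'.p₂.rd_mul hm₂ hi₂, h0, zero_mul] at h1
  exact zero_ne_one h1

/-- **Roots of units**: if `f = c g ^ n` is a unit for both valuations of the lower level with
reductions `a₁ Y₁ ^ n`, `a₂ Y₂ ^ n`, then `g` can be scaled to a unit `g'` for both valuations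
with `rd₁ g' = μ₁ Y₁`, `rd₂ g' = μ₂ Y₂`. -/
theorem TotData_exists_root (T' : TotData K' L' k L₁ L₂) {n : ℕ} (hn : n ≠ 0)
    (hk₁ : RootClosed k L₁ n) (hk₂ : RootClosed k L₂ n) {f g : L'} {c : K'}
    (h : f = algebraMap K' L' c * g ^ n) {Y₁ : L₁} {Y₂ : L₂} {a₁ a₂ : k}
    (hY₁ : Y₁ ≠ 0) (hY₂ : Y₂ ≠ 0) (ha₁ : a₁ ≠ 0) (ha₂ : a₂ ≠ 0)
    (h₁ : T'.p₁.rd f = algebraMap k L₁ a₁ * Y₁ ^ n)
    (h₂ : T'.p₂.rd f = algebraMap k L₂ a₂ * Y₂ ^ n) :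
    ∃ (g' : L') (C : K') (μ₁ μ₂ : k), μ₁ ≠ 0 ∧ μ₂ ≠ 0 ∧ T'.p₁.IsGU g' ∧ T'.p₂.IsGU g' ∧
      C ≠ 0 ∧ f = algebraMap K' L' C * g' ^ n ∧
      T'.p₁.rd g' = algebraMap k L₁ μ₁ * Y₁ ∧ T'.p₂.rd g' = algebraMap k L₂ μ₂ * Y₂ := by
  have ha₁' : algebraMap k L₁ a₁ ≠ 0 := (map_ne_zero_iff _ (algebraMap k L₁).injective).mpr ha₁
  have ha₂' : algebraMap k L₂ a₂ ≠ 0 := (map_ne_zero_iff _ (algebraMap k L₂).injective).mpr ha₂
  have hf₁ : T'.p₁.IsGU f := isGU_of_rd_ne_zero _ (by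
    rw [h₁]; exact mul_ne_zero ha₁' (pow_ne_zero n hY₁))
  have hf₂ : T'.p₂.IsGU f := isGU_of_rd_ne_zero _ (by
    rw [h₂]; exact mul_ne_zero ha₂' (pow_ne_zero n hY₂))
  obtain ⟨d, c', hd0, hdu, hfe, hcm, hrd⟩ := rd_isCPow_of_eq T'.p₁ hn hf₁ h
  set g' : L' := algebraMap K' L' d * g with hg'
  set C : K' := c / d ^ n with hC
  have hCu₁ : T'.p₁.IsGU (algebraMap K' L' C) := by
    have e : algebraMap K' L' C = f / g' ^ n := by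
      rw [eq_div_iff (pow_ne_zero n hdu.ne_zero)]
      exact hfe.symm
    rw [e]
    exact hf₁.div (hdu.pow n)
  have hCu₂ : T'.p₂.IsGU (algebraMap K' L' C) := TotData_isGU_const T' hCu₁
  have hC0 : C ≠ 0 := fun h0 => hCu₁.ne_zero (by rw [h0, map_zero])
  have hg₂ : T'.p₂.IsGU g' := by
    refine isGU_of_pow _ hn ?_
    have e : g' ^ n = f / algebraMap K' L' C := by
      rw [eq_div_iff hCu₂.ne_zero, mul_comm]
      exact hfe.symm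
    rw [e]
    exact hf₂.div hCu₂
  -- the first reduction
  have hc'0 : c' ≠ 0 := by
    rintro rfl
    rw [map_zero, zero_mul] at hrd
    exact hf₁.rd_ne_zero hrd
  have e₁ : T'.p₁.rd g' ^ n = algebraMap k L₁ (a₁ / c') * Y₁ ^ n := by
    have hc'' : algebraMap k L₁ c' ≠ 0 :=
      (map_ne_zero_iff _ (algebraMap k L₁).injective).mpr hc'0
    have : algebraMap k L₁ c' * T'.p₁.rd g' ^ n = algebraMap k L₁ a₁ * Y₁ ^ n := by
      rw [← hrd, h₁]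
    rw [map_div₀]
    field_simp
    rw [mul_comm] at this
    rw [this]
  obtain ⟨μ₁, hμ₁⟩ := exists_const_of_pow_eq hk₁ hY₁ e₁
  -- the second reduction
  obtain ⟨c'', hc''⟩ := T'.p₂.rd_algebraMap_mem_range hCu₂.mem
  have hc''0 : c'' ≠ 0 := by
    rintro rfl
    rw [map_zero] at hc''
    exact hCu₂.rd_ne_zero hc''
  have hrd₂ : T'.p₂.rd f = algebraMap k L₂ c'' * T'.p₂.rd g' ^ n := by
    conv_lhs => rw [hfe]
    rw [T'.p₂.rd_mul hCu₂.mem (T'.b₂.V.pow_mem hg₂.mem n), hc'', T'.p₂.rd_pow hg₂.mem]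
  have e₂ : T'.p₂.rd g' ^ n = algebraMap k L₂ (a₂ / c'') * Y₂ ^ n := by
    have hc3 : algebraMap k L₂ c'' ≠ 0 :=
      (map_ne_zero_iff _ (algebraMap k L₂).injective).mpr hc''0
    have : algebraMap k L₂ c'' * T'.p₂.rd g' ^ n = algebraMap k L₂ a₂ * Y₂ ^ n := by
      rw [← hrd₂, h₂]
    rw [map_div₀]
    field_simp
    rw [mul_comm] at this
    rw [this]
  obtain ⟨μ₂, hμ₂⟩ := exists_const_of_pow_eq hk₂ hY₂ e₂
  refine ⟨g', C, μ₁, μ₂, ?_, ?_, hdu, hg₂, hC0, hfe, hμ₁, hμ₂⟩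
  · rintro rfl
    rw [map_zero, zero_mul] at hμ₁
    exact hdu.rd_ne_zero hμ₁
  · rintro rfl
    rw [map_zero, zero_mul] at hμ₂
    exact hg₂.rd_ne_zero hμ₂

/-- **The relation of a node**: a unit for both valuations without zero or pole on the fibre
of a node takes the same value on the two branches. -/
theorem TotData_node_value (T' : TotData K' L' k L₁ L₂) {z' : Place k L₁}
    (hnode : T'.IsNode z') {g : L'} (hg₁ : T'.p₁.IsGU g) (hg₂ : T'.p₂.IsGU g)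
    (hord : ∀ Q, T'.ρ Q = z' → Q.ord g = 0) {v₁ v₂ : k}
    (hv₁ : HasValue z' (T'.p₁.rd g) v₁) (hv₂ : HasValue (T'.β z') (T'.p₂.rd g) v₂) :
    v₁ = v₂ := by
  have hR : T'.InR z' g := ⟨hg₁.mem, hg₂.mem, fun Q hQ =>
    regAt_of_ord_nonneg (hord Q hQ).ge⟩
  have h1 : HasValue (T'.β z') (T'.p₂.rd g) v₁ := (hnode g hR v₁).mp hv₁
  exact h1.unique hv₂

end Lower

/-! ## The datum of the two levels -/

/-- **The datum of the two levels** for B2 / B3. -/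
structure NUData (K L₀ L k ι Z : Type*) (E : ι → Type*) (K' L' L₁ L₂ : Type*)
    [Field K] [Field L₀] [Field L] [Algebra K L] [Algebra L₀ L] [Field k] [Fintype ι]
    [∀ i, Field (E i)] [∀ i, Algebra k (E i)] [Field K'] [Field L'] [Algebra K' L']
    [Field L₁] [Algebra k L₁] [Field L₂] [Algebra k L₂] where
  /-- the conservation datum of the higher level -/
  T : TotN K L₀ L k ι Z E
  /-- the conservation datum of the lower level -/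
  T' : TotData K' L' k L₁ L₂
  /-- the three components -/
  i₂₀ : ι
  i₁₁ : ι
  i₀₂ : ι
  cases : ∀ i, i = i₂₀ ∨ i = i₁₁ ∨ i = i₀₂
  ne₁ : i₂₀ ≠ i₁₁
  ne₂ : i₂₀ ≠ i₀₂
  ne₃ : i₁₁ ≠ i₀₂
  /-- the residue characteristic -/
  q : ℕ
  /-- the norms along the two degeneracy maps -/
  Nα : L₀ →* L'
  Nβ : L₀ →* L'
  /-- the norms of the residue fields -/
  A₂₀ : ResNorm k (E i₂₀) L₁
  A₁₁ : ResNorm k (E i₁₁) L₁
  A₀₂ : ResNorm k (E i₀₂) L₂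
  B₂₀ : ResNorm k (E i₂₀) L₁
  B₁₁ : ResNorm k (E i₁₁) L₂
  B₀₂ : ResNorm k (E i₀₂) L₂
  fA₂₀ : A₂₀.f = 1
  fA₁₁ : A₁₁.f = 1
  fA₀₂ : A₀₂.f = q
  fB₂₀ : B₂₀.f = q
  fB₁₁ : B₁₁.f = 1
  fB₀₂ : B₀₂.f = 1
  /-- NORM-RED with ramification, for units -/
  normα₁ : ∀ h : L₀, (∀ i, T.rdN i h ≠ 0) →
    T'.p₁.rd (Nα h) = A₂₀.N (T.rdN i₂₀ h) * A₁₁.N (T.rdN i₁₁ h) ^ (q - 1)
  normα₂ : ∀ h : L₀, (∀ i, T.rdN i h ≠ 0) → T'.p₂.rd (Nα h) = A₀₂.N (T.rdN i₀₂ h)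
  normβ₁ : ∀ h : L₀, (∀ i, T.rdN i h ≠ 0) → T'.p₁.rd (Nβ h) = B₂₀.N (T.rdN i₂₀ h)
  normβ₂ : ∀ h : L₀, (∀ i, T.rdN i h ≠ 0) →
    T'.p₂.rd (Nβ h) = B₁₁.N (T.rdN i₁₁ h) ^ (q - 1) * B₀₂.N (T.rdN i₀₂ h)
  /-- the triple points -/
  SS : Set Z
  /-- the node of the lower level below a triple point, along `α` -/
  zα : Z → Place k L₁
  /-- the node of the lower level below a triple point, along `β` -/
  zβ : Z → Place k L₁
  nodeα : ∀ z ∈ SS, T'.IsNode (zα z)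
  nodeβ : ∀ z ∈ SS, T'.IsNode (zβ z)
  /-- norms of functions without zero or pole on the fibre of `z` -/
  fibα : ∀ z ∈ SS, ∀ h : L₀, (∀ P, T.ρ P = z → P.ord (algebraMap L₀ L h) = 0) →
    ∀ Q, T'.ρ Q = zα z → Q.ord (Nα h) = 0
  fibβ : ∀ z ∈ SS, ∀ h : L₀, (∀ P, T.ρ P = z → P.ord (algebraMap L₀ L h) = 0) →
    ∀ Q, T'.ρ Q = zβ z → Q.ord (Nβ h) = 0
  /-- the points of the components lie over the branches of the nodes -/
  ptA₂₀ : ∀ z ∈ SS, ∀ (y : L₁) (a : k),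
    HasValue (T.pt i₂₀ z) (A₂₀.j y) a → HasValue (zα z) y a
  ptA₁₁ : ∀ z ∈ SS, ∀ (y : L₁) (a : k),
    HasValue (T.pt i₁₁ z) (A₁₁.j y) a → HasValue (zα z) y a
  ptA₀₂ : ∀ z ∈ SS, ∀ (y : L₂) (a : k),
    HasValue (T.pt i₀₂ z) (A₀₂.j y) a → HasValue (T'.β (zα z)) y a
  ptB₂₀ : ∀ z ∈ SS, ∀ (y : L₁) (a : k),
    HasValue (T.pt i₂₀ z) (B₂₀.j y) a → HasValue (zβ z) y a
  ptB₁₁ : ∀ z ∈ SS, ∀ (y : L₂) (a : k),
    HasValue (T.pt i₁₁ z) (B₁₁.j y) a → HasValue (T'.β (zβ z)) y a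
  ptB₀₂ : ∀ z ∈ SS, ∀ (y : L₂) (a : k),
    HasValue (T.pt i₀₂ z) (B₀₂.j y) a → HasValue (T'.β (zβ z)) y a
  /-- GLUE3 at the triple points -/
  glue : ∀ z ∈ SS, ∀ f : L₀, T.InR z f → ∀ (i j : ι) (c : k),
    HasValue (T.pt i z) (T.rdN i f) c ↔ HasValue (T.pt j z) (T.rdN j f) c
  deg_one : ∀ z ∈ SS, ∀ i, (T.pt i z).deg = 1

namespace NUData

variable {K L₀ L k ι Z : Type*} {E : ι → Type*} {K' L' L₁ L₂ : Type*}
  [Field K] [Field L₀] [Field L] [Algebra K L] [Algebra L₀ L] [Field k] [Fintype ι]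
  [∀ i, Field (E i)] [∀ i, Algebra k (E i)] [Field K'] [Field L'] [Algebra K' L']
  [Field L₁] [Algebra k L₁] [Field L₂] [Algebra k L₂]
  (D : NUData K L₀ L k ι Z E K' L' L₁ L₂)

/-- `s` is a **local generator** of `h` at `z` (for the exponent `n`): a unit for all
valuations such that `h s ^ n` has no zero or pole on the fibre of `z`. -/
def IsGen (n : ℕ) (z : Z) (h s : L₀) : Prop :=
  (∀ i, D.T.rdN i s ≠ 0) ∧ ∀ P, D.T.ρ P = z → P.ord (algebraMap L₀ L (h * s ^ n)) = 0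

/-- **Trivial reduction data**: the reductions of `H` are `c G i ^ n` with a common constant
`c`, and at every triple point `z` the functions `G i · red i s`, for a local generator `s` of
`H` at `z`, take the same non-zero value. -/
def TrivRed (n : ℕ) (H : L₀) : Prop :=
  ∃ (c : k) (G : ∀ i, E i), c ≠ 0 ∧ (∀ i, D.T.rdN i H = algebraMap k (E i) c * G i ^ n) ∧
    ∀ z ∈ D.SS, ∀ s : L₀, D.IsGen n z H s →
      ∃ a : k, a ≠ 0 ∧ ∀ i, HasValue (D.T.pt i z) (G i * D.T.rdN i s) a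

/-! ### B2 -/

/-- **B2**: if the norms of the unit `h` along `α` and `β` are constants times `n`-th powers,
`n` prime to `q`, then the reductions of `h` for `i₂₀` and `i₀₂`, and the `(q - 1)`-th power
of the reduction for `i₁₁`, are constants times `n`-th powers. -/
theorem isCPow_red {n : ℕ} (hn : n ≠ 0) (hcop : Nat.Coprime D.q n) {h : L₀}
    (hu : ∀ i, D.T.rdN i h ≠ 0) {cα cβ : K'} {gα gβ : L'}
    (hα : D.Nα h = algebraMap K' L' cα * gα ^ n)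
    (hβ : D.Nβ h = algebraMap K' L' cβ * gβ ^ n) :
    IsCPow k n (D.T.rdN D.i₂₀ h) ∧ IsCPow k n (D.T.rdN D.i₁₁ h ^ (D.q - 1)) ∧
      IsCPow k n (D.T.rdN D.i₀₂ h) := by
  -- `i₀₂` from `α`
  have h02 : IsCPow k n (D.T.rdN D.i₀₂ h) := by
    refine D.A₀₂.isCPow_of_N (by rw [D.fA₀₂]; exact hcop) ?_
    rw [← D.normα₂ h hu]
    refine isCPow_rd_of_eq D.T'.p₂ hn hα ?_
    rw [D.normα₂ h hu]
    exact D.A₀₂.N_ne_zero (hu _)
  -- `i₂₀` from `β`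
  have h20 : IsCPow k n (D.T.rdN D.i₂₀ h) := by
    refine D.B₂₀.isCPow_of_N (by rw [D.fB₂₀]; exact hcop) ?_
    rw [← D.normβ₁ h hu]
    refine isCPow_rd_of_eq D.T'.p₁ hn hβ ?_
    rw [D.normβ₁ h hu]
    exact D.B₂₀.N_ne_zero (hu _)
  refine ⟨h20, ?_, h02⟩
  -- `i₁₁` from `α`
  refine D.A₁₁.isCPow_of_N (by rw [D.fA₁₁]; exact Nat.coprime_one_left n) ?_
  have h1 : IsCPow k n (D.T'.p₁.rd (D.Nα h)) := by
    refine isCPow_rd_of_eq D.T'.p₁ hn hα ?_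
    rw [D.normα₁ h hu]
    exact mul_ne_zero (D.A₂₀.N_ne_zero (hu _)) (pow_ne_zero _ (D.A₁₁.N_ne_zero (hu _)))
  rw [D.normα₁ h hu] at h1
  have h2 : D.A₁₁.N (D.T.rdN D.i₁₁ h ^ (D.q - 1))
      = (D.A₂₀.N (D.T.rdN D.i₂₀ h) * D.A₁₁.N (D.T.rdN D.i₁₁ h) ^ (D.q - 1))
        / D.A₂₀.N (D.T.rdN D.i₂₀ h) := by
    rw [map_pow, mul_div_assoc, mul_comm, div_mul_cancel₀ _ (D.A₂₀.N_ne_zero (hu _))]
  rw [h2]
  exact h1.div (D.A₂₀.N_isCPow h20)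

/-! ### The global roots -/

/-- The global `n`-th roots: of the reductions of `h` (`g₀`, `g₁`, `g₂`) and of the norms of `h`
(`gA`, `gB`, scaled to units), with the constants comparing their reductions. -/
structure RootData (n : ℕ) (h : L₀) where
  c₀ : k
  c₁ : k
  c₂ : k
  g₀ : E D.i₂₀
  g₁ : E D.i₁₁
  g₂ : E D.i₀₂
  e₀ : D.T.rdN D.i₂₀ h = algebraMap k (E D.i₂₀) c₀ * g₀ ^ n
  e₁ : D.T.rdN D.i₁₁ h ^ (D.q - 1) = algebraMap k (E D.i₁₁) c₁ * g₁ ^ n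
  e₂ : D.T.rdN D.i₀₂ h = algebraMap k (E D.i₀₂) c₂ * g₂ ^ n
  gA : L'
  CA : K'
  μ₁ : k
  μ₂ : k
  hμ₁ : μ₁ ≠ 0
  hμ₂ : μ₂ ≠ 0
  gA₁ : D.T'.p₁.IsGU gA
  gA₂ : D.T'.p₂.IsGU gA
  hCA : CA ≠ 0
  eA : D.Nα h = algebraMap K' L' CA * gA ^ n
  rA₁ : D.T'.p₁.rd gA = algebraMap k L₁ μ₁ * (D.A₂₀.N g₀ * D.A₁₁.N g₁)
  rA₂ : D.T'.p₂.rd gA = algebraMap k L₂ μ₂ * D.A₀₂.N g₂
  gB : L'
  CB : K'
  ν₁ : k
  ν₂ : k
  hν₁ : ν₁ ≠ 0
  hν₂ : ν₂ ≠ 0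
  gB₁ : D.T'.p₁.IsGU gB
  gB₂ : D.T'.p₂.IsGU gB
  hCB : CB ≠ 0
  eB : D.Nβ h = algebraMap K' L' CB * gB ^ n
  rB₁ : D.T'.p₁.rd gB = algebraMap k L₁ ν₁ * D.B₂₀.N g₀
  rB₂ : D.T'.p₂.rd gB = algebraMap k L₂ ν₂ * (D.B₁₁.N g₁ * D.B₀₂.N g₂)

/-- The global roots exist. -/
theorem exists_rootData {n : ℕ} (hn : n ≠ 0) (hcop : Nat.Coprime D.q n)
    (hk₁ : RootClosed k L₁ n) (hk₂ : RootClosed k L₂ n) {h : L₀}
    (hu : ∀ i, D.T.rdN i h ≠ 0) {cα cβ : K'} {gα gβ : L'}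
    (hα : D.Nα h = algebraMap K' L' cα * gα ^ n)
    (hβ : D.Nβ h = algebraMap K' L' cβ * gβ ^ n) : Nonempty (D.RootData n h) := by
  obtain ⟨⟨c₀, g₀, e₀⟩, ⟨c₁, g₁, e₁⟩, ⟨c₂, g₂, e₂⟩⟩ := D.isCPow_red hn hcop hu hα hβ
  have hne : ∀ {F : Type _} [Field F] [Algebra k F] {x g : F} {c : k}, x ≠ 0 →
      x = algebraMap k F c * g ^ n → c ≠ 0 ∧ g ≠ 0 := by
    intro F _ _ x g c hx he
    constructor
    · rintro rfl
      rw [map_zero, zero_mul] at he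
      exact hx he
    · rintro rfl
      rw [zero_pow hn, mul_zero] at he
      exact hx he
  obtain ⟨hc₀, hg₀⟩ := hne (hu _) e₀
  obtain ⟨hc₁, hg₁⟩ := hne (pow_ne_zero _ (hu _)) e₁
  obtain ⟨hc₂, hg₂⟩ := hne (hu _) e₂
  -- the reductions of the norms
  have hA₁ : D.T'.p₁.rd (D.Nα h) = algebraMap k L₁ (c₀ ^ D.A₂₀.f * c₁ ^ D.A₁₁.f)
      * (D.A₂₀.N g₀ * D.A₁₁.N g₁) ^ n := by
    rw [D.normα₁ h hu, ← map_pow D.A₁₁.N, e₀, e₁, map_mul, map_mul, map_pow, map_pow,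
      D.A₂₀.N_const, D.A₁₁.N_const, map_mul, mul_pow]
    ring
  have hA₂ : D.T'.p₂.rd (D.Nα h) = algebraMap k L₂ (c₂ ^ D.A₀₂.f) * (D.A₀₂.N g₂) ^ n := by
    rw [D.normα₂ h hu, e₂, map_mul, map_pow, D.A₀₂.N_const]
  have hB₁ : D.T'.p₁.rd (D.Nβ h) = algebraMap k L₁ (c₀ ^ D.B₂₀.f) * (D.B₂₀.N g₀) ^ n := by
    rw [D.normβ₁ h hu, e₀, map_mul, map_pow, D.B₂₀.N_const]
  have hB₂ : D.T'.p₂.rd (D.Nβ h) = algebraMap k L₂ (c₁ ^ D.B₁₁.f * c₂ ^ D.B₀₂.f)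
      * (D.B₁₁.N g₁ * D.B₀₂.N g₂) ^ n := by
    rw [D.normβ₂ h hu, ← map_pow D.B₁₁.N, e₁, e₂, map_mul, map_mul, map_pow, map_pow,
      D.B₁₁.N_const, D.B₀₂.N_const, map_mul, mul_pow]
    ring
  obtain ⟨gA, CA, μ₁, μ₂, hμ₁, hμ₂, gA₁, gA₂, hCA, eA, rA₁, rA₂⟩ :=
    TotData_exists_root D.T' hn hk₁ hk₂ hα
      (mul_ne_zero (D.A₂₀.N_ne_zero hg₀) (D.A₁₁.N_ne_zero hg₁)) (D.A₀₂.N_ne_zero hg₂)
      (mul_ne_zero (pow_ne_zero _ hc₀) (pow_ne_zero _ hc₁)) (pow_ne_zero _ hc₂) hA₁ hA₂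
  obtain ⟨gB, CB, ν₁, ν₂, hν₁, hν₂, gB₁, gB₂, hCB, eB, rB₁, rB₂⟩ :=
    TotData_exists_root D.T' hn hk₁ hk₂ hβ
      (D.B₂₀.N_ne_zero hg₀) (mul_ne_zero (D.B₁₁.N_ne_zero hg₁) (D.B₀₂.N_ne_zero hg₂))
      (pow_ne_zero _ hc₀) (mul_ne_zero (pow_ne_zero _ hc₁) (pow_ne_zero _ hc₂)) hB₁ hB₂
  exact ⟨⟨c₀, c₁, c₂, g₀, g₁, g₂, e₀, e₁, e₂, gA, CA, μ₁, μ₂, hμ₁, hμ₂, gA₁, gA₂, hCA, eA,
    rA₁, rA₂, gB, CB, ν₁, ν₂, hν₁, hν₂, gB₁, gB₂, hCB, eB, rB₁, rB₂⟩⟩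

/-! ### The local relations at a triple point -/

namespace RootData

variable {D} {n : ℕ} {h : L₀} (R : D.RootData n h)

include R in
theorem c₀_ne_zero (hu : ∀ i, D.T.rdN i h ≠ 0) : R.c₀ ≠ 0 := by
  intro h0
  have := R.e₀
  rw [h0, map_zero, zero_mul] at this
  exact hu _ this

include R in
theorem c₁_ne_zero (hu : ∀ i, D.T.rdN i h ≠ 0) : R.c₁ ≠ 0 := by
  intro h0
  have := R.e₁
  rw [h0, map_zero, zero_mul] at this
  exact pow_ne_zero _ (hu _) this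

include R in
theorem c₂_ne_zero (hu : ∀ i, D.T.rdN i h ≠ 0) : R.c₂ ≠ 0 := by
  intro h0
  have := R.e₂
  rw [h0, map_zero, zero_mul] at this
  exact hu _ this

/-- The reductions of `h s ^ n`. -/
theorem rdN_gen (hu : ∀ i, D.T.rdN i h ≠ 0) {s : L₀} (hs : ∀ i, D.T.rdN i s ≠ 0) (i : ι) :
    D.T.rdN i (h * s ^ n) = D.T.rdN i h * D.T.rdN i s ^ n := by
  have hm := D.T.mem_of_rdN_ne_zero (hu i)
  have hms := D.T.mem_of_rdN_ne_zero (hs i)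
  rw [D.T.rdN_mul hm ((D.T.V i).pow_mem hms n), D.T.rdN_pow hms]

/-- **The local relations**: at a triple point `z` with a local generator `s` of `h`, the
values `γ₀`, `γ₁`, `γ₂` of the roots satisfy `μ₁ γ₀ γ₁ = μ₂ γ₂ ^ q` (node of `α`) and
`ν₁ γ₀ ^ q = ν₂ γ₁ γ₂` (node of `β`). -/
theorem local_rel [Infinite k] (hP : HasPrincipalDivisors K L) (hn : n ≠ 0)
    (hu : ∀ i, D.T.rdN i h ≠ 0) {z : Z} (hz : z ∈ D.SS) {s : L₀} (hs : D.IsGen n z h s) :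
    ∃ γ₀ γ₁ γ₂ a : k, γ₀ ≠ 0 ∧ γ₁ ≠ 0 ∧ γ₂ ≠ 0 ∧ a ≠ 0 ∧
      HasValue (D.T.pt D.i₂₀ z) (R.g₀ * D.T.rdN D.i₂₀ s) γ₀ ∧
      HasValue (D.T.pt D.i₁₁ z) (R.g₁ * D.T.rdN D.i₁₁ s ^ (D.q - 1)) γ₁ ∧
      HasValue (D.T.pt D.i₀₂ z) (R.g₂ * D.T.rdN D.i₀₂ s) γ₂ ∧
      R.μ₁ * (γ₀ * γ₁) = R.μ₂ * γ₂ ^ D.q ∧ R.ν₁ * γ₀ ^ D.q = R.ν₂ * (γ₁ * γ₂) ∧
      (∀ i, HasValue (D.T.pt i z) (D.T.rdN i (h * s ^ n)) a) ∧
      γ₀ ^ n = R.c₀⁻¹ * a ∧ γ₁ ^ n = R.c₁⁻¹ * a ^ (D.q - 1) ∧ γ₂ ^ n = R.c₂⁻¹ * a := by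
  obtain ⟨hsu, hsord⟩ := hs
  have hgen : ∀ i, D.T.rdN i (h * s ^ n) = D.T.rdN i h * D.T.rdN i s ^ n :=
    fun i => RootData.rdN_gen hu hsu i
  have hzu : ∀ i, D.T.rdN i (h * s ^ n) ≠ 0 := fun i => by
    rw [hgen]; exact mul_ne_zero (hu i) (pow_ne_zero n (hsu i))
  have hzm : ∀ i, h * s ^ n ∈ D.T.V i := fun i => D.T.mem_of_rdN_ne_zero (hzu i)
  have hzR : D.T.InR z (h * s ^ n) := ⟨hzm, fun P hPz =>
    regAt_of_ord_nonneg (hsord P hPz).ge⟩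
  -- the common value of `h s ^ n`
  obtain ⟨a, ha0, ha⟩ := D.T.exists_value_of_unit hP hzu hsord (D.deg_one z hz) D.i₀₂
  have hall : ∀ i, HasValue (D.T.pt i z) (D.T.rdN i (h * s ^ n)) a := fun i =>
    (D.glue z hz _ hzR D.i₀₂ i a).mp ha
  have hc₀ := R.c₀_ne_zero hu
  have hc₁ := R.c₁_ne_zero hu
  have hc₂ := R.c₂_ne_zero hu
  -- the values of the roots
  have hp₀ : (R.g₀ * D.T.rdN D.i₂₀ s) ^ n
      = algebraMap k (E D.i₂₀) R.c₀⁻¹ * D.T.rdN D.i₂₀ (h * s ^ n) := by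
    rw [hgen, R.e₀, map_inv₀, mul_pow]
    have : algebraMap k (E D.i₂₀) R.c₀ ≠ 0 :=
      (map_ne_zero_iff _ (algebraMap k (E D.i₂₀)).injective).mpr hc₀
    field_simp
  have hp₂ : (R.g₂ * D.T.rdN D.i₀₂ s) ^ n
      = algebraMap k (E D.i₀₂) R.c₂⁻¹ * D.T.rdN D.i₀₂ (h * s ^ n) := by
    rw [hgen, R.e₂, map_inv₀, mul_pow]
    have : algebraMap k (E D.i₀₂) R.c₂ ≠ 0 :=
      (map_ne_zero_iff _ (algebraMap k (E D.i₀₂)).injective).mpr hc₂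
    field_simp
  have hp₁ : (R.g₁ * D.T.rdN D.i₁₁ s ^ (D.q - 1)) ^ n
      = algebraMap k (E D.i₁₁) R.c₁⁻¹ * D.T.rdN D.i₁₁ (h * s ^ n) ^ (D.q - 1) := by
    rw [hgen, mul_pow (D.T.rdN D.i₁₁ h), R.e₁, map_inv₀, mul_pow]
    have : algebraMap k (E D.i₁₁) R.c₁ ≠ 0 :=
      (map_ne_zero_iff _ (algebraMap k (E D.i₁₁)).injective).mpr hc₁
    field_simp
    ring
  obtain ⟨γ₀, hγ₀, hv₀, hpw₀⟩ := exists_value_of_pow (D.deg_one z hz D.i₂₀) hn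
    (mul_ne_zero (inv_ne_zero hc₀) ha0) (by rw [hp₀]; exact (hall D.i₂₀).const_mul _)
  obtain ⟨γ₁, hγ₁, hv₁, hpw₁⟩ := exists_value_of_pow (D.deg_one z hz D.i₁₁) hn
    (mul_ne_zero (inv_ne_zero hc₁) (pow_ne_zero (D.q - 1) ha0))
    (by rw [hp₁]; exact ((hall D.i₁₁).pow _).const_mul _)
  obtain ⟨γ₂, hγ₂, hv₂, hpw₂⟩ := exists_value_of_pow (D.deg_one z hz D.i₀₂) hn
    (mul_ne_zero (inv_ne_zero hc₂) ha0) (by rw [hp₂]; exact (hall D.i₀₂).const_mul _)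
  refine ⟨γ₀, γ₁, γ₂, a, hγ₀, hγ₁, hγ₂, ha0, hv₀, hv₁, hv₂, ?_, ?_, hall, hpw₀, hpw₁, hpw₂⟩
  · -- the node of `α`
    have hN₁ : D.T'.p₁.IsGU (D.Nα s) := isGU_of_rd_ne_zero _ (by
      rw [D.normα₁ s hsu]
      exact mul_ne_zero (D.A₂₀.N_ne_zero (hsu _)) (pow_ne_zero _ (D.A₁₁.N_ne_zero (hsu _))))
    have hN₂ : D.T'.p₂.IsGU (D.Nα s) := isGU_of_rd_ne_zero _ (by
      rw [D.normα₂ s hsu]; exact D.A₀₂.N_ne_zero (hsu _))
    have hg₁ : D.T'.p₁.IsGU (R.gA * D.Nα s) := R.gA₁.mul hN₁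
    have hg₂ : D.T'.p₂.IsGU (R.gA * D.Nα s) := R.gA₂.mul hN₂
    have hord : ∀ Q, D.T'.ρ Q = D.zα z → Q.ord (R.gA * D.Nα s) = 0 := by
      intro Q hQ
      have h1 := D.fibα z hz (h * s ^ n) hsord Q hQ
      have e : D.Nα (h * s ^ n) = algebraMap K' L' R.CA * (R.gA * D.Nα s) ^ n := by
        rw [map_mul, map_pow, R.eA, mul_pow]; ring
      rw [e, ord_algebraMap_mul Q R.hCA, ord_pow] at h1
      rcases mul_eq_zero.mp h1 with h2 | h2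
      · exact absurd (by exact_mod_cast h2) hn
      · exact h2
    have hr₁ : D.T'.p₁.rd (R.gA * D.Nα s) = algebraMap k L₁ R.μ₁ *
        (D.A₂₀.N (R.g₀ * D.T.rdN D.i₂₀ s) *
          D.A₁₁.N (R.g₁ * D.T.rdN D.i₁₁ s ^ (D.q - 1))) := by
      rw [D.T'.p₁.rd_mul R.gA₁.mem hN₁.mem, R.rA₁, D.normα₁ s hsu, map_mul, map_mul, map_pow]
      ring
    have hr₂ : D.T'.p₂.rd (R.gA * D.Nα s) = algebraMap k L₂ R.μ₂ *
        D.A₀₂.N (R.g₂ * D.T.rdN D.i₀₂ s) := by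
      rw [D.T'.p₂.rd_mul R.gA₂.mem hN₂.mem, R.rA₂, D.normα₂ s hsu, map_mul]
      ring
    have hw₁ : HasValue (D.zα z) (D.T'.p₁.rd (R.gA * D.Nα s))
        (R.μ₁ * (γ₀ ^ D.A₂₀.f * γ₁ ^ D.A₁₁.f)) := by
      rw [hr₁]
      exact ((D.A₂₀.hasValue_N (D.ptA₂₀ z hz) hv₀).mul
        (D.A₁₁.hasValue_N (D.ptA₁₁ z hz) hv₁)).const_mul _
    have hw₂ : HasValue (D.T'.β (D.zα z)) (D.T'.p₂.rd (R.gA * D.Nα s))
        (R.μ₂ * γ₂ ^ D.A₀₂.f) := by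
      rw [hr₂]
      exact (D.A₀₂.hasValue_N (D.ptA₀₂ z hz) hv₂).const_mul _
    have := TotData_node_value D.T' (D.nodeα z hz) hg₁ hg₂ hord hw₁ hw₂
    rwa [D.fA₂₀, D.fA₁₁, D.fA₀₂, pow_one, pow_one] at this
  · -- the node of `β`
    have hN₁ : D.T'.p₁.IsGU (D.Nβ s) := isGU_of_rd_ne_zero _ (by
      rw [D.normβ₁ s hsu]; exact D.B₂₀.N_ne_zero (hsu _))
    have hN₂ : D.T'.p₂.IsGU (D.Nβ s) := isGU_of_rd_ne_zero _ (by
      rw [D.normβ₂ s hsu]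
      exact mul_ne_zero (pow_ne_zero _ (D.B₁₁.N_ne_zero (hsu _))) (D.B₀₂.N_ne_zero (hsu _)))
    have hg₁ : D.T'.p₁.IsGU (R.gB * D.Nβ s) := R.gB₁.mul hN₁
    have hg₂ : D.T'.p₂.IsGU (R.gB * D.Nβ s) := R.gB₂.mul hN₂
    have hord : ∀ Q, D.T'.ρ Q = D.zβ z → Q.ord (R.gB * D.Nβ s) = 0 := by
      intro Q hQ
      have h1 := D.fibβ z hz (h * s ^ n) hsord Q hQ
      have e : D.Nβ (h * s ^ n) = algebraMap K' L' R.CB * (R.gB * D.Nβ s) ^ n := by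
        rw [map_mul, map_pow, R.eB, mul_pow]; ring
      rw [e, ord_algebraMap_mul Q R.hCB, ord_pow] at h1
      rcases mul_eq_zero.mp h1 with h2 | h2
      · exact absurd (by exact_mod_cast h2) hn
      · exact h2
    have hr₁ : D.T'.p₁.rd (R.gB * D.Nβ s) = algebraMap k L₁ R.ν₁ *
        D.B₂₀.N (R.g₀ * D.T.rdN D.i₂₀ s) := by
      rw [D.T'.p₁.rd_mul R.gB₁.mem hN₁.mem, R.rB₁, D.normβ₁ s hsu, map_mul]
      ring
    have hr₂ : D.T'.p₂.rd (R.gB * D.Nβ s) = algebraMap k L₂ R.ν₂ *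
        (D.B₁₁.N (R.g₁ * D.T.rdN D.i₁₁ s ^ (D.q - 1)) *
          D.B₀₂.N (R.g₂ * D.T.rdN D.i₀₂ s)) := by
      rw [D.T'.p₂.rd_mul R.gB₂.mem hN₂.mem, R.rB₂, D.normβ₂ s hsu, map_mul, map_mul, map_pow]
      ring
    have hw₁ : HasValue (D.zβ z) (D.T'.p₁.rd (R.gB * D.Nβ s)) (R.ν₁ * γ₀ ^ D.B₂₀.f) := by
      rw [hr₁]
      exact (D.B₂₀.hasValue_N (D.ptB₂₀ z hz) hv₀).const_mul _
    have hw₂ : HasValue (D.T'.β (D.zβ z)) (D.T'.p₂.rd (R.gB * D.Nβ s))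
        (R.ν₂ * (γ₁ ^ D.B₁₁.f * γ₂ ^ D.B₀₂.f)) := by
      rw [hr₂]
      exact ((D.B₁₁.hasValue_N (D.ptB₁₁ z hz) hv₁).mul
        (D.B₀₂.hasValue_N (D.ptB₀₂ z hz) hv₂)).const_mul _
    have := TotData_node_value D.T' (D.nodeβ z hz) hg₁ hg₂ hord hw₁ hw₂
    rwa [D.fB₂₀, D.fB₁₁, D.fB₀₂, pow_one, pow_one] at this

/-- The constants of the relations. -/
def cX : k := R.μ₂ * R.ν₂ / (R.μ₁ * R.ν₁)

/-- The constants of the relations. -/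
def cY : k := (R.μ₂ / R.μ₁) ^ D.q * (R.ν₁ / R.ν₂)

theorem cX_ne_zero : R.cX ≠ 0 :=
  div_ne_zero (mul_ne_zero R.hμ₂ R.hν₂) (mul_ne_zero R.hμ₁ R.hν₁)

theorem cY_ne_zero : R.cY ≠ 0 :=
  mul_ne_zero (pow_ne_zero _ (div_ne_zero R.hμ₂ R.hμ₁)) (div_ne_zero R.hν₁ R.hν₂)

end RootData

/-- The algebra of the two relations of the nodes. -/
theorem b3_alg {k : Type*} [Field k] {m : ℕ} {μ₁ μ₂ ν₁ ν₂ γ₀ γ₁ γ₂ : k}
    (hμ₁ : μ₁ ≠ 0) (hν₁ : ν₁ ≠ 0) (hν₂ : ν₂ ≠ 0) (hγ₀ : γ₀ ≠ 0) (hγ₁ : γ₁ ≠ 0)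
    (hγ₂ : γ₂ ≠ 0)
    (R1 : μ₁ * (γ₀ * γ₁) = μ₂ * γ₂ ^ (m + 1)) (R2 : ν₁ * γ₀ ^ (m + 1) = ν₂ * (γ₁ * γ₂)) :
    γ₀ ^ ((m + 1 + 1) * m) = (μ₂ * ν₂ / (μ₁ * ν₁)) ^ m * γ₂ ^ ((m + 1 + 1) * m) ∧
    γ₁ ^ (m + 1 + 1) = ((μ₂ / μ₁) ^ (m + 1) * (ν₁ / ν₂)) * γ₂ ^ ((m + 1 + 1) * m) := by
  have h1 : γ₀ ^ (m + 1 + 1) = (μ₂ * ν₂ / (μ₁ * ν₁)) * γ₂ ^ (m + 1 + 1) := by
    have e : (μ₁ * ν₁ * γ₁) * γ₀ ^ (m + 1 + 1) = (μ₁ * ν₁ * γ₁) *
        ((μ₂ * ν₂ / (μ₁ * ν₁)) * γ₂ ^ (m + 1 + 1)) := by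
      have e1 : (μ₁ * ν₁ * γ₁) * ((μ₂ * ν₂ / (μ₁ * ν₁)) * γ₂ ^ (m + 1 + 1))
          = (μ₂ * γ₂ ^ (m + 1)) * (ν₂ * (γ₁ * γ₂)) := by
        field_simp
        ring
      rw [e1, ← R1, ← R2]
      ring
    exact mul_left_cancel₀ (mul_ne_zero (mul_ne_zero hμ₁ hν₁) hγ₁) e
  constructor
  · rw [pow_mul, h1, mul_pow, ← pow_mul]
  · -- `γ₁ = μ₂ γ₂ ^ q / (μ₁ γ₀)`
    have e : (μ₁ ^ (m + 1 + 1) * γ₀ ^ (m + 1 + 1)) * γ₁ ^ (m + 1 + 1)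
        = (μ₁ ^ (m + 1 + 1) * γ₀ ^ (m + 1 + 1)) *
          (((μ₂ / μ₁) ^ (m + 1) * (ν₁ / ν₂)) * γ₂ ^ ((m + 1 + 1) * m)) := by
      have e1 : (μ₁ ^ (m + 1 + 1) * γ₀ ^ (m + 1 + 1)) * γ₁ ^ (m + 1 + 1)
          = (μ₁ * (γ₀ * γ₁)) ^ (m + 1 + 1) := by ring
      rw [e1, R1]
      have e2 : γ₀ ^ (m + 1 + 1) = γ₀ ^ (m + 1) * γ₀ := pow_succ _ _
      have e3 : ν₁ * γ₀ ^ (m + 1 + 1) = ν₂ * (γ₁ * γ₂) * γ₀ := by
        rw [e2, ← mul_assoc, R2]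
      have e4 : (μ₁ ^ (m + 1 + 1) * γ₀ ^ (m + 1 + 1)) *
          (((μ₂ / μ₁) ^ (m + 1) * (ν₁ / ν₂)) * γ₂ ^ ((m + 1 + 1) * m))
          = μ₁ * μ₂ ^ (m + 1) * γ₂ ^ ((m + 1 + 1) * m) * (ν₁ * γ₀ ^ (m + 1 + 1)) / ν₂ := by
        rw [div_pow, pow_succ μ₁ (m + 1)]
        field_simp
      rw [e4, e3]
      have e5 : μ₁ * μ₂ ^ (m + 1) * γ₂ ^ ((m + 1 + 1) * m) * (ν₂ * (γ₁ * γ₂) * γ₀) / ν₂
          = μ₂ ^ (m + 1) * γ₂ ^ ((m + 1 + 1) * m) * γ₂ * (μ₁ * (γ₀ * γ₁)) := by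
        field_simp
      rw [e5, R1]
      ring
    exact mul_left_cancel₀ (mul_ne_zero (pow_ne_zero _ hμ₁) (pow_ne_zero _ hγ₀)) e

/-- The algebra of the two relations of the nodes, for `q ≥ 1`. -/
theorem b3_alg_q {k : Type*} [Field k] {q : ℕ} (hq : 1 ≤ q) {μ₁ μ₂ ν₁ ν₂ γ₀ γ₁ γ₂ : k}
    (hμ₁ : μ₁ ≠ 0) (hν₁ : ν₁ ≠ 0) (hν₂ : ν₂ ≠ 0) (hγ₀ : γ₀ ≠ 0) (hγ₁ : γ₁ ≠ 0)
    (hγ₂ : γ₂ ≠ 0)
    (R1 : μ₁ * (γ₀ * γ₁) = μ₂ * γ₂ ^ q) (R2 : ν₁ * γ₀ ^ q = ν₂ * (γ₁ * γ₂)) :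
    γ₀ ^ ((q + 1) * (q - 1)) = (μ₂ * ν₂ / (μ₁ * ν₁)) ^ (q - 1) * γ₂ ^ ((q + 1) * (q - 1)) ∧
    γ₁ ^ (q + 1) = ((μ₂ / μ₁) ^ q * (ν₁ / ν₂)) * γ₂ ^ ((q + 1) * (q - 1)) := by
  obtain ⟨m, rfl⟩ : ∃ m, q = m + 1 := ⟨q - 1, by omega⟩
  have := b3_alg hμ₁ hν₁ hν₂ hγ₀ hγ₁ hγ₂ R1 R2
  simpa only [Nat.add_sub_cancel] using this

namespace RootData

variable {D} {n : ℕ} {h : L₀} (R : D.RootData n h)

/-- **The values at a triple point** of the powers of the roots. -/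
theorem point [Infinite k] (hP : HasPrincipalDivisors K L) (hn : n ≠ 0) (hq : 1 ≤ D.q)
    (hu : ∀ i, D.T.rdN i h ≠ 0) {z : Z} (hz : z ∈ D.SS) {s : L₀} (hs : D.IsGen n z h s) :
    ∃ γ : k, γ ≠ 0 ∧
      HasValue (D.T.pt D.i₂₀ z)
        (R.g₀ ^ ((D.q + 1) * (D.q - 1)) * D.T.rdN D.i₂₀ s ^ ((D.q + 1) * (D.q - 1)))
        (R.cX ^ (D.q - 1) * γ) ∧
      HasValue (D.T.pt D.i₁₁ z)
        (R.g₁ ^ (D.q + 1) * D.T.rdN D.i₁₁ s ^ ((D.q + 1) * (D.q - 1))) (R.cY * γ) ∧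
      HasValue (D.T.pt D.i₀₂ z)
        (R.g₂ ^ ((D.q + 1) * (D.q - 1)) * D.T.rdN D.i₀₂ s ^ ((D.q + 1) * (D.q - 1))) γ ∧
      R.c₀ ^ ((D.q + 1) * (D.q - 1)) * (R.cX ^ (D.q - 1)) ^ n
        = R.c₂ ^ ((D.q + 1) * (D.q - 1)) ∧
      R.c₁ ^ (D.q + 1) * R.cY ^ n = R.c₂ ^ ((D.q + 1) * (D.q - 1)) := by
  obtain ⟨γ₀, γ₁, γ₂, a, hγ₀, hγ₁, hγ₂, ha, hv₀, hv₁, hv₂, R1, R2, -, hp₀, hp₁, hp₂⟩ :=
    R.local_rel hP hn hu hz hs
  obtain ⟨hA, hB⟩ := b3_alg_q hq R.hμ₁ R.hν₁ R.hν₂ hγ₀ hγ₁ hγ₂ R1 R2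
  have hc₀ := R.c₀_ne_zero hu
  have hc₁ := R.c₁_ne_zero hu
  have hc₂ := R.c₂_ne_zero hu
  have hγM : γ₂ ^ ((D.q + 1) * (D.q - 1)) ≠ 0 := pow_ne_zero _ hγ₂
  refine ⟨γ₂ ^ ((D.q + 1) * (D.q - 1)), hγM, ?_, ?_, ?_, ?_, ?_⟩
  · have := hv₀.pow ((D.q + 1) * (D.q - 1))
    rw [mul_pow, hA] at this
    exact this
  · have := hv₁.pow (D.q + 1)
    rw [mul_pow, ← pow_mul, hB, mul_comm (D.q - 1) (D.q + 1)] at this
    exact this
  · have := hv₂.pow ((D.q + 1) * (D.q - 1))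
    rw [mul_pow] at this
    exact this
  · have e₀ : R.c₀ * γ₀ ^ n = a := by rw [hp₀]; field_simp
    have e₂ : R.c₂ * γ₂ ^ n = a := by rw [hp₂]; field_simp
    have e : (R.c₀ ^ ((D.q + 1) * (D.q - 1)) * (R.cX ^ (D.q - 1)) ^ n)
        * (γ₂ ^ ((D.q + 1) * (D.q - 1))) ^ n
        = R.c₂ ^ ((D.q + 1) * (D.q - 1)) * (γ₂ ^ ((D.q + 1) * (D.q - 1))) ^ n := by
      have e1 : (R.c₀ ^ ((D.q + 1) * (D.q - 1)) * (R.cX ^ (D.q - 1)) ^ n)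
          * (γ₂ ^ ((D.q + 1) * (D.q - 1))) ^ n
          = R.c₀ ^ ((D.q + 1) * (D.q - 1)) *
            ((R.μ₂ * R.ν₂ / (R.μ₁ * R.ν₁)) ^ (D.q - 1) * γ₂ ^ ((D.q + 1) * (D.q - 1))) ^ n := by
        unfold cX
        ring
      rw [e1, ← hA]
      calc R.c₀ ^ ((D.q + 1) * (D.q - 1)) * (γ₀ ^ ((D.q + 1) * (D.q - 1))) ^ n
          = (R.c₀ * γ₀ ^ n) ^ ((D.q + 1) * (D.q - 1)) := by ring
        _ = (R.c₂ * γ₂ ^ n) ^ ((D.q + 1) * (D.q - 1)) := by rw [e₀, e₂]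
        _ = _ := by ring
    exact mul_right_cancel₀ (pow_ne_zero n hγM) e
  · have e₁ : R.c₁ * γ₁ ^ n = a ^ (D.q - 1) := by rw [hp₁]; field_simp
    have e₂ : R.c₂ * γ₂ ^ n = a := by rw [hp₂]; field_simp
    have e : (R.c₁ ^ (D.q + 1) * R.cY ^ n) * (γ₂ ^ ((D.q + 1) * (D.q - 1))) ^ n
        = R.c₂ ^ ((D.q + 1) * (D.q - 1)) * (γ₂ ^ ((D.q + 1) * (D.q - 1))) ^ n := by
      have e1 : (R.c₁ ^ (D.q + 1) * R.cY ^ n) * (γ₂ ^ ((D.q + 1) * (D.q - 1))) ^ n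
          = R.c₁ ^ (D.q + 1) *
            (((R.μ₂ / R.μ₁) ^ D.q * (R.ν₁ / R.ν₂)) * γ₂ ^ ((D.q + 1) * (D.q - 1))) ^ n := by
        unfold cY
        ring
      rw [e1, ← hB]
      calc R.c₁ ^ (D.q + 1) * (γ₁ ^ (D.q + 1)) ^ n
          = (R.c₁ * γ₁ ^ n) ^ (D.q + 1) := by ring
        _ = (R.c₂ * γ₂ ^ n) ^ ((D.q + 1) * (D.q - 1)) := by
            rw [e₁, e₂, ← pow_mul, mul_comm (D.q - 1) (D.q + 1)]
        _ = _ := by ring
    exact mul_right_cancel₀ (pow_ne_zero n hγM) e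

end RootData

/-! ### B3 -/

/-- The family of functions on the components with given members. -/
def famG (G₀ : E D.i₂₀) (G₁ : E D.i₁₁) (G₂ : E D.i₀₂) : ∀ i, E i := fun i =>
  if h0 : i = D.i₂₀ then h0.symm ▸ G₀
  else if h1 : i = D.i₁₁ then h1.symm ▸ G₁
  else if h2 : i = D.i₀₂ then h2.symm ▸ G₂
  else 0

theorem famG₀ (G₀ : E D.i₂₀) (G₁ : E D.i₁₁) (G₂ : E D.i₀₂) : D.famG G₀ G₁ G₂ D.i₂₀ = G₀ := by
  unfold famG
  rw [dif_pos rfl]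

theorem famG₁ (G₀ : E D.i₂₀) (G₁ : E D.i₁₁) (G₂ : E D.i₀₂) : D.famG G₀ G₁ G₂ D.i₁₁ = G₁ := by
  unfold famG
  rw [dif_neg D.ne₁.symm, dif_pos rfl]

theorem famG₂ (G₀ : E D.i₂₀) (G₁ : E D.i₁₁) (G₂ : E D.i₀₂) : D.famG G₀ G₁ G₂ D.i₀₂ = G₂ := by
  unfold famG
  rw [dif_neg D.ne₂.symm, dif_neg D.ne₃.symm, dif_pos rfl]

/-- **B2 + B3**: if `h` is a unit for the three valuations with local generators at the triple
points, and the norms of `h` along `α` and `β` are constants times `n`-th powers (`n` prime to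
`q`), then `h ^ ((q + 1) (q - 1))` has trivial reduction data. -/
theorem trivRed [Infinite k] (hP : HasPrincipalDivisors K L) {n : ℕ} (hn : n ≠ 0)
    (hcop : Nat.Coprime D.q n) (hq : 1 ≤ D.q)
    (hk₁ : RootClosed k L₁ n) (hk₂ : RootClosed k L₂ n) (hSS : D.SS.Nonempty) {h : L₀}
    (hu : ∀ i, D.T.rdN i h ≠ 0) (hgen : ∀ z ∈ D.SS, ∃ s, D.IsGen n z h s)
    {cα cβ : K'} {gα gβ : L'}
    (hα : D.Nα h = algebraMap K' L' cα * gα ^ n)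
    (hβ : D.Nβ h = algebraMap K' L' cβ * gβ ^ n) :
    D.TrivRed n (h ^ ((D.q + 1) * (D.q - 1))) := by
  obtain ⟨R⟩ := D.exists_rootData hn hcop hk₁ hk₂ hu hα hβ
  -- the constants, from one triple point
  obtain ⟨z₀, hz₀⟩ := hSS
  obtain ⟨s₀, hs₀⟩ := hgen z₀ hz₀
  obtain ⟨-, -, -, -, -, hC₀, hC₁⟩ := R.point hP hn hq hu hz₀ hs₀
  have hX : R.cX ^ (D.q - 1) ≠ 0 := pow_ne_zero _ R.cX_ne_zero
  have hY : R.cY ≠ 0 := R.cY_ne_zero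
  have hm : ∀ i, h ∈ D.T.V i := fun i => D.T.mem_of_rdN_ne_zero (hu i)
  refine ⟨R.c₂ ^ ((D.q + 1) * (D.q - 1)),
    D.famG (algebraMap k _ (R.cX ^ (D.q - 1))⁻¹ * R.g₀ ^ ((D.q + 1) * (D.q - 1)))
      (algebraMap k _ R.cY⁻¹ * R.g₁ ^ (D.q + 1)) (R.g₂ ^ ((D.q + 1) * (D.q - 1))),
    pow_ne_zero _ (R.c₂_ne_zero hu), ?_, ?_⟩
  · intro i
    rcases D.cases i with rfl | rfl | rfl
    · rw [famG₀, D.T.rdN_pow (hm _), R.e₀, ← hC₀, mul_pow, mul_pow, map_mul, map_pow,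
        map_pow, map_pow, map_inv₀, map_pow, inv_pow]
      have : algebraMap k (E D.i₂₀) R.cX ≠ 0 :=
        (map_ne_zero_iff _ (algebraMap k (E D.i₂₀)).injective).mpr R.cX_ne_zero
      field_simp
      ring
    · have hpow : D.T.rdN D.i₁₁ h ^ ((D.q + 1) * (D.q - 1))
          = (D.T.rdN D.i₁₁ h ^ (D.q - 1)) ^ (D.q + 1) := by
        rw [← pow_mul, mul_comm]
      rw [famG₁, D.T.rdN_pow (hm _), hpow, R.e₁, ← hC₁,
        mul_pow, mul_pow, map_mul, map_pow, map_pow, map_inv₀, inv_pow]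
      have : algebraMap k (E D.i₁₁) R.cY ≠ 0 :=
        (map_ne_zero_iff _ (algebraMap k (E D.i₁₁)).injective).mpr R.cY_ne_zero
      field_simp
      ring
    · rw [famG₂, D.T.rdN_pow (hm _), R.e₂, mul_pow, map_pow]
      ring
  · intro z hz s' hs'
    obtain ⟨s, hs⟩ := hgen z hz
    obtain ⟨γ, hγ, hv₀, hv₁, hv₂, -, -⟩ := R.point hP hn hq hu hz hs
    obtain ⟨hsu, hsord⟩ := hs
    obtain ⟨hsu', hsord'⟩ := hs'
    have hsm : ∀ i, s ∈ D.T.V i := fun i => D.T.mem_of_rdN_ne_zero (hsu i)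
    have hsm' : ∀ i, s' ∈ D.T.V i := fun i => D.T.mem_of_rdN_ne_zero (hsu' i)
    have hsM : ∀ i, s ^ ((D.q + 1) * (D.q - 1)) ∈ D.T.V i := fun i =>
      (D.T.V i).pow_mem (hsm i) _
    have hsMu : ∀ i, D.T.rdN i (s ^ ((D.q + 1) * (D.q - 1))) ≠ 0 := fun i => by
      rw [D.T.rdN_pow (hsm i)]; exact pow_ne_zero _ (hsu i)
    have hs0 : s ≠ 0 := by
      rintro rfl
      have := hsu D.i₂₀
      rw [D.T.rdN_of_mem (hsm _)] at this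
      exact this (by
        have e : (⟨0, hsm D.i₂₀⟩ : D.T.V D.i₂₀) = 0 := rfl
        rw [e, map_zero])
    have hh0 : h ≠ 0 := by
      rintro rfl
      have := hu D.i₂₀
      rw [D.T.rdN_of_mem (hm _)] at this
      exact this (by
        have e : (⟨0, hm D.i₂₀⟩ : D.T.V D.i₂₀) = 0 := rfl
        rw [e, map_zero])
    have hs'0 : s' ≠ 0 := by
      rintro rfl
      have := hsu' D.i₂₀
      rw [D.T.rdN_of_mem (hsm' _)] at this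
      exact this (by
        have e : (⟨0, hsm' D.i₂₀⟩ : D.T.V D.i₂₀) = 0 := rfl
        rw [e, map_zero])
    -- the quotient of the generators
    set w : L₀ := s' * (s ^ ((D.q + 1) * (D.q - 1)))⁻¹ with hw
    have hwm : ∀ i, w ∈ D.T.V i := fun i =>
      mul_mem (hsm' i) (D.T.inv_mem_of_rdN_ne_zero (hsMu i))
    have hws : w * s ^ ((D.q + 1) * (D.q - 1)) = s' := by
      rw [hw, mul_assoc, inv_mul_cancel₀ (pow_ne_zero _ hs0), mul_one]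
    have hsplit : ∀ i, D.T.rdN i s' = D.T.rdN i w * D.T.rdN i s ^ ((D.q + 1) * (D.q - 1)) :=
      fun i => by rw [← D.T.rdN_pow (hsm i), ← D.T.rdN_mul (hwm i) (hsM i), hws]
    have hwu : ∀ i, D.T.rdN i w ≠ 0 := fun i h0 => by
      have := hsplit i
      rw [h0, zero_mul] at this
      exact hsu' i this
    have hw0 : w ≠ 0 := mul_ne_zero hs'0 (inv_ne_zero (pow_ne_zero _ hs0))
    have hword : ∀ P, D.T.ρ P = z → P.ord (algebraMap L₀ L w) = 0 := by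
      intro P hPz
      have h1 := hsord P hPz
      have h2 := hsord' P hPz
      have e : h ^ ((D.q + 1) * (D.q - 1)) * s' ^ n
          = (h * s ^ n) ^ ((D.q + 1) * (D.q - 1)) * w ^ n := by
        rw [← hws]; ring
      have inj := (algebraMap L₀ L).injective
      have ha0 : algebraMap L₀ L (h * s ^ n) ≠ 0 :=
        (map_ne_zero_iff _ inj).mpr (mul_ne_zero hh0 (pow_ne_zero _ hs0))
      have hb0 : algebraMap L₀ L w ≠ 0 := (map_ne_zero_iff _ inj).mpr hw0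
      rw [e, map_mul, map_pow, map_pow, Place.ord_mul P (pow_ne_zero _ ha0)
        (pow_ne_zero _ hb0), ord_pow, ord_pow, h1, mul_zero, zero_add] at h2
      rcases mul_eq_zero.mp h2 with h3 | h3
      · exact absurd (by exact_mod_cast h3) hn
      · exact h3
    have hwR : D.T.InR z w := ⟨hwm, fun P hPz => regAt_of_ord_nonneg (hword P hPz).ge⟩
    obtain ⟨ω, hω0, hω⟩ := D.T.exists_value_of_unit hP hwu hword (D.deg_one z hz) D.i₀₂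
    have hωall : ∀ i, HasValue (D.T.pt i z) (D.T.rdN i w) ω := fun i =>
      (D.glue z hz _ hwR D.i₀₂ i ω).mp hω
    refine ⟨γ * ω, mul_ne_zero hγ hω0, fun i => ?_⟩
    rw [hsplit i]
    rcases D.cases i with rfl | rfl | rfl
    · rw [famG₀]
      have := ((hv₀.const_mul (R.cX ^ (D.q - 1))⁻¹).mul (hωall D.i₂₀))
      rw [← mul_assoc (R.cX ^ (D.q - 1))⁻¹, inv_mul_cancel₀ hX, one_mul] at this
      convert this using 1
      ring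
    · rw [famG₁]
      have := ((hv₁.const_mul R.cY⁻¹).mul (hωall D.i₁₁))
      rw [← mul_assoc R.cY⁻¹, inv_mul_cancel₀ hY, one_mul] at this
      convert this using 1
      ring
    · rw [famG₂]
      have := hv₂.mul (hωall D.i₀₂)
      convert this using 1
      ring

end NUData

end Fermat.Agent.S36.NU.H79

end
end
-- ==== END Fermat.Agent.S36.NU.H79_B3

-- ==== BEGIN Fermat.Agent.S36.NU.H82_CuspEtaQ
section

/-!
# S36 / NU-B, leaf CUSPS (helper82), part 4: the four families at the identity coset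

`DeltaC = Δ` over `ℂ`, `UC = Δ(q)/Δ(q^p)` over `ℂ` (`p` the prime of the level `M p²`).

* `Dc_q1` : `D_d (q1) = d¹¹ · Δ(t^{N d})`;
* `Ec_q1` : `E_d (q1) = j(t^{N d}) · D_d (q1)`;
* `Y20_q1`, `Y02_q1`, `Y11_q1`, `Yx_q1` : the four families at the identity coset.
-/

set_option autoImplicit false
set_option linter.unusedSectionVars false
set_option linter.unusedVariables false
set_option synthInstance.maxHeartbeats 400000

open UpperHalfPlane ModularForm ModularCurve Function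
open scoped MatrixGroups ModularForm Manifold

noncomputable section

namespace Fermat.Agent.S36.NU.H82

open Fermat.Agent.S23.H22 (G0 Q toSL piPerm q1 E12)
open Fermat.Agent.S28 Fermat.Agent.S28.H30
open Fermat.Agent.S28.H76 (Xfam Xfam_q1 pexp_fam_q1 sym_of_families)

local notation "ofPS" => HahnSeries.ofPowerSeries ℤ ℂ

/-- `Δ` over `ℂ`. -/
def DeltaC : LaurentSeries ℂ := coeffMap (algebraMap ℚ ℂ) deltaSeries

theorem DeltaC_eq : DeltaC = ofPS (qExpansion 1 ModularForm.discriminant) :=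
  Fermat.Agent.BAD.H30.coeffMap_deltaSeries

theorem DeltaC_ne_zero : DeltaC ≠ 0 := by
  rw [DeltaC_eq]
  exact Fermat.Agent.BAD.H30.ofPS_disc_ne_zero

/-- `Δ(q)/Δ(q^d)` over `ℂ`. -/
def UC (d : ℕ) [NeZero d] : LaurentSeries ℂ := coeffMap (algebraMap ℚ ℂ) (modularUnitSeries d)

theorem UC_eq (d : ℕ) [NeZero d] : UC d = DeltaC * (qExpand ℂ d DeltaC)⁻¹ := by
  rw [UC, modularUnitSeries, deltaSeriesN, map_mul, map_inv₀, ModularCurve.coeffMap_qExpand]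
  rfl

theorem qExpand_DeltaC_ne_zero (d : ℕ) [NeZero d] : qExpand ℂ d DeltaC ≠ 0 := by
  intro h
  exact DeltaC_ne_zero (qExpand_injective d (by rw [h, map_zero]))

theorem UC_ne_zero (d : ℕ) [NeZero d] : UC d ≠ 0 := by
  rw [UC_eq]
  exact mul_ne_zero DeltaC_ne_zero (inv_ne_zero (qExpand_DeltaC_ne_zero d))

theorem qExpand_hahnC (n : ℕ) [NeZero n] (c : ℂ) :
    qExpand ℂ n (HahnSeries.C c : LaurentSeries ℂ) = HahnSeries.C c := by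
  rw [HahnSeries.C_apply, qExpand_single, mul_zero]

section Fam

variable (q M : ℕ) [NeZero (M * q * q)]

/-- **`D_d` at the identity coset.** -/
theorem Dc_q1 (d : ℕ) [NeZero d] (hd : d ∣ M * q * q) :
    Dc q M d (q1 : Q (M * q * q))
      = HahnSeries.C ((d : ℂ) ^ 11) * qExpand ℂ (M * q * q) (qExpand ℂ d DeltaC) := by
  rw [Dc, pexp_fam_q1 (M * q * q) hd DeltaMF, DeltaC_eq, map_mul, qExpand_hahnC]
  have e : ((12 : ℤ) - 1) = ((11 : ℕ) : ℤ) := by norm_num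
  rw [e, zpow_natCast]
  rfl

theorem Dc_q1_ne_zero (d : ℕ) [NeZero d] (hd : d ∣ M * q * q) :
    Dc q M d (q1 : Q (M * q * q)) ≠ 0 := by
  rw [Dc_q1 q M d hd]
  refine mul_ne_zero ?_ ?_
  · rw [Ne, map_eq_zero]
    exact pow_ne_zero _ (Nat.cast_ne_zero.mpr (NeZero.ne d))
  · intro h
    exact qExpand_DeltaC_ne_zero d (qExpand_injective (M * q * q) (by rw [h, map_zero]))

/-- **`E_d` at the identity coset.** -/
theorem Ec_q1 (d : ℕ) [NeZero d] (hd : d ∣ M * q * q) :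
    Ec q M d (q1 : Q (M * q * q))
      = iotaN (M * q * q) (qExpand ℚ d jq) * Dc q M d (q1 : Q (M * q * q)) :=
  Fermat.Agent.S28.H76.pexp_E12_q1_eq (M * q * q) hd

end Fam

end Fermat.Agent.S36.NU.H82

end
end
-- ==== END Fermat.Agent.S36.NU.H82_CuspEtaQ
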