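-- GENERATED (merged mirror, NOTES/tools/trim/merge3_helper67.py): 5 modules of the originals, bodies verbatim.
import Fermat.Agent.Zm.S36_L05_000
import Fermat.Agent.Zm.S36_L04_000
import Fermat.Agent.Zm.S36_L05_002
import Fermat.Agent.Zm.S36_L05_001
import Fermat.Agent.Zm.S36_L03_000
import Fermat.Agent.S36.NU.H5_Q23Alg

-- ==== BEGIN Fermat.Agent.S36.NU.H16_LocEq1
section

/-!
# S36 / NU-B, local side of TI3 (helper16): local equation data at the points with one branch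

`LocEq.single` : at a closed point `𝔪` on the component `i`, a local equation datum from
* a uniformizer `x ∈ B` of `V i` (`hunif`), of multiplicity `e` (`q W₂ = x ^ e W'`),
* `W₂, W' ∈ B ∖ 𝔪`, `W' ∈ q V i'` for the other components `i'` (a witness that the other
  components do not pass through `𝔪`).
Moreover `i` is the only branch through `𝔪`.

Modular use (level `q² M'`): `x = q`, `e = 1`, `W₂ = W'` on `C₂₀`, `C₀₂`
(`W'` a modular unit `Δ(qτ) / Δ(q²τ)`, ... times a power of `j`); `x = u'' - u`, `e = q - 1` on `C₁₁`.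
-/

set_option autoImplicit false

noncomputable section

namespace Fermat.Agent.S36.NU.H16

variable {R F k ι : Type*} {κ : ι → Type*} [CommRing R] [Field F] [Algebra R F]
  [Field k] [∀ i, Field (κ i)] [∀ i, Algebra k (κ i)]

/-- The witness `W'` shows that `i` is the only branch through `𝔪`. -/
theorem only_branch (C : Chart R F k ι κ) (q : R)
    (hqV : ∀ i, algebraMap R F q ∈ (C.V i).nonunits)
    (𝔪 : Ideal C.B) (i : ι) (W' : C.B) (hW' : W' ∉ 𝔪)
    (hW'v : ∀ i', i' ≠ i → ∃ f' ∈ C.V i', (W' : F) = algebraMap R F q * f') :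
    ∀ i', C.Icomp i' ≤ 𝔪 → i' = i := by
  intro i' hi'
  by_contra hne
  obtain ⟨f', hf', hWf⟩ := hW'v i' hne
  apply hW'
  apply hi'
  rw [C.mem_Icomp, ← C.rd_coe, C.rd_eq_zero_iff i' (C.B_le i' _ W'.2), hWf,
    ValuationSubring.mem_nonunits_iff, map_mul]
  have h1 := (ValuationSubring.mem_nonunits_iff _).1 (hqV i')
  have h2 : (C.V i').valuation f' ≤ 1 := ((C.V i').valuation_le_one_iff _).2 hf'
  calc (C.V i').valuation (algebraMap R F q) * (C.V i').valuation f'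
      ≤ (C.V i').valuation (algebraMap R F q) * 1 := by gcongr
    _ < 1 := by rwa [mul_one]

/-- **Local equation datum at a point with one branch.** -/
theorem LocEq.single [Fintype ι] [DecidableEq ι] (C : Chart R F k ι κ) (q : R)
    (hq0 : algebraMap R F q ≠ 0)
    (hqV : ∀ i, algebraMap R F q ∈ (C.V i).nonunits)
    (hVALQ : ∀ β : C.B, (∀ i, ∃ f' ∈ C.V i, (β : F) = algebraMap R F q * f') →
      ∃ β' : C.B, β = algebraMap R C.B q * β')
    (𝔪 : Ideal C.B) [h𝔪 : 𝔪.IsPrime] (i : ι) (hi : C.Icomp i ≤ 𝔪)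
    (x : C.B) (e : ℕ) (he : 0 < e) (W₂ W' : C.B) (hW₂ : W₂ ∉ 𝔪) (hW' : W' ∉ 𝔪)
    (hx : x ∈ C.Icomp i)
    (hunif : ∀ f ∈ C.Icomp i, ∃ f' ∈ C.V i, (f : F) = (x : F) * f')
    (heq : algebraMap R C.B q * W₂ = x ^ e * W')
    (hW'v : ∀ i', i' ≠ i → ∃ f' ∈ C.V i', (W' : F) = algebraMap R F q * f') :
    Nonempty (LocEq C q 𝔪) ∧ ∀ i', C.Icomp i' ≤ 𝔪 → i' = i := by
  have honly := only_branch C q hqV 𝔪 i W' hW' hW'v
  refine ⟨?_, honly⟩
  have hW'0 : W' ≠ 0 := fun h0 => hW' (h0 ▸ 𝔪.zero_mem)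
  have hW₂0 : W₂ ≠ 0 := fun h0 => hW₂ (h0 ▸ 𝔪.zero_mem)
  have hq0' : algebraMap R C.B q ≠ 0 := by
    intro h0
    apply hq0
    have : ((algebraMap R C.B q : C.B) : F) = 0 := by rw [h0]; rfl
    exact this
  have hx0 : x ≠ 0 := by
    rintro rfl
    rw [zero_pow he.ne', zero_mul] at heq
    rcases mul_eq_zero.1 heq with h1 | h1
    · exact hq0' h1
    · exact hW₂0 h1
  set X : ι → C.B := fun i' => if i' = i then x else W' with hX
  set E : ι → ℕ := fun i' => if i' = i then e else 1 with hE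
  have hXi : X i = x := by simp [hX]
  have hEi : E i = e := by simp [hE]
  have hXne : ∀ i', i' ≠ i → X i' = W' := fun i' h => by simp [hX, h]
  have hEne : ∀ i', i' ≠ i → E i' = 1 := fun i' h => by simp [hE, h]
  have hprod : ∏ i', X i' ^ E i' = x ^ e * W' ^ (Fintype.card ι - 1) := by
    rw [← Finset.mul_prod_erase Finset.univ _ (Finset.mem_univ i), hXi, hEi]
    congr 1
    rw [Finset.prod_congr rfl (fun i' hi' => by
      rw [hXne i' (Finset.ne_of_mem_erase hi'), hEne i' (Finset.ne_of_mem_erase hi'), pow_one]),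
      Finset.prod_const, Finset.card_erase_of_mem (Finset.mem_univ i), Finset.card_univ]
  refine ⟨LocEq.ofVal C q hq0 hVALQ 𝔪 X E (W₂ * W' ^ (Fintype.card ι - 1)) W' ?_ hW' ?_ ?_ ?_ ?_
    ?_ ?_ ?_⟩
  · intro hmem
    rcases h𝔪.mem_or_mem hmem with h1 | h1
    · exact hW₂ h1
    · exact hW' (h𝔪.mem_of_pow_mem _ h1)
  · intro i'
    by_cases hi' : i' = i
    · rw [hi', hXi]
      exact hx0
    · rw [hXne i' hi']
      exact hW'0
  · intro i' hi'
    rw [honly i' hi', hXi]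
    exact hx
  · intro i' hi'
    have hne : i' ≠ i := fun h => hi' (h ▸ hi)
    rw [hXne i' hne]
    exact hW'
  · rw [hprod, ← mul_assoc, heq]
    ring
  · intro i'
    by_cases hi' : i' = i
    · subst hi'
      rw [hXi, hEi]
      have hrd : C.rd i' (W' : F) ≠ 0 := by
        rw [C.rd_coe]
        exact fun h0 => hW' (hi ((C.mem_Icomp i' W').2 h0))
      refine ⟨(W₂ : F) * (W' : F)⁻¹, mul_mem (C.B_le i' _ W₂.2) (C.inv_mem_of_rd_ne_zero i' hrd), ?_⟩
      have h1 : ((algebraMap R C.B q * W₂ : C.B) : F) = ((x ^ e * W' : C.B) : F) := by rw [heq]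
      push_cast at h1
      have hW'F : (W' : F) ≠ 0 := fun h0 => hW'0 (Subtype.ext h0)
      rw [← mul_assoc, h1, mul_assoc, mul_inv_cancel₀ hW'F, mul_one]
    · rw [hXne i' hi', hEne i' hi', pow_one]
      exact hW'v i' hi'
  · intro i' hi'
    rw [honly i' hi', hEi]
    exact he
  · intro i' hi' f hf
    have h1 := honly i' hi'
    subst h1
    rw [hXi]
    exact hunif f hf

end Fermat.Agent.S36.NU.H16

end
end
-- ==== END Fermat.Agent.S36.NU.H16_LocEq1

-- ==== BEGIN Fermat.Agent.S36.NU.H24_BridgeA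
section

/-!
# S36 / NU-B, (M5) BRIDGE, part A (helper24): branches of a chart and points of the components

Pure bridge between the ring language of helper16 (`H16.Chart`, `H16.Branch`) and the
language of places of helper79 (`AlgebraicCurve.Place`, `RegAt`, `VanAt`, `HasValue`).

* `vanAt_iff_mem_nonunits` : `VanAt v x ↔ x ∈ v.toValuationSubring.nonunits`.
* `branch_mem_O_iff`, `branch_O_eq` : the valuation ring of a branch is determined by `(𝔪, i)`.
* `branch_O_eq_of_le` : rank one: a valuation ring `≠ ⊤` above `b.O` is `b.O`.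
* `branch_O_eq_place` : if `rdB i` of every function of `B` is regular at the point `v` of the
  component `i` and `𝔪` contains the functions vanishing at `v`, then `b.O` is the valuation
  ring of `v`.
* `ptIdeal` : the closed point of the chart below the point `v` of the component `i`;
  `ptIdeal_isMaximal` (residue field `k`), `Icomp_le_ptIdeal`.
* `branch_nonunits_of_hasValue` : (EQV) in the language of values.
-/

set_option autoImplicit false
set_option linter.style.haveILetI false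

noncomputable section

open AlgebraicCurve

attribute [local instance] Classical.propDecidable

namespace Fermat.Agent.S36.NU.H24

open Fermat.Agent.RED.H17 Fermat.Agent.RED Fermat.Agent.S36.NU.H16 Fermat.Agent.S36.NU.H79

/-! ## Places and non-units -/

section PlaceLemmas

variable {k E : Type*} [Field k] [Field E] [Algebra k E]

theorem vanAt_iff_mem_nonunits (v : Place k E) (x : E) :
    VanAt v x ↔ x ∈ v.toValuationSubring.nonunits := by
  rw [ValuationSubring.mem_nonunits_iff_exists_mem_maximalIdeal]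
  constructor
  · intro h
    have hx : x ∈ v.toValuationSubring := (regAt_iff_mem v x).1 h.regAt
    refine ⟨hx, ?_⟩
    rw [IsLocalRing.mem_maximalIdeal, mem_nonunits_iff, ← v.adicValuation_coe_eq_one_iff]
    exact ne_of_lt h
  · rintro ⟨hx, h⟩
    rw [IsLocalRing.mem_maximalIdeal, mem_nonunits_iff, ← v.adicValuation_coe_eq_one_iff] at h
    exact lt_of_le_of_ne ((regAt_iff_mem v x).2 hx) h

theorem not_vanAt_one (v : Place k E) : ¬ VanAt v (1 : E) := by
  unfold VanAt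
  rw [map_one]
  exact lt_irrefl _

/-- A function regular and not vanishing at `v` has its inverse regular at `v`. -/
theorem inv_mem_of_regAt_not_vanAt (v : Place k E) {x : E} (hr : RegAt v x) (hv : ¬ VanAt v x) :
    x⁻¹ ∈ v.toValuationSubring := by
  have hx : x ∈ v.toValuationSubring := (regAt_iff_mem v x).1 hr
  have h1 : v.toValuationSubring.valuation x ≤ 1 :=
    (v.toValuationSubring.valuation_le_one_iff x).2 hx
  have h2 : ¬ v.toValuationSubring.valuation x < 1 := fun h =>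
    hv ((vanAt_iff_mem_nonunits v x).2 ((ValuationSubring.mem_nonunits_iff _).2 h))
  have h3 : v.toValuationSubring.valuation x = 1 := le_antisymm h1 (not_lt.1 h2)
  rw [← ValuationSubring.valuation_le_one_iff, map_inv₀, h3, inv_one]

end PlaceLemmas

/-! ## Branches -/

section BranchLemmas

variable {R F k ι : Type*} {κ : ι → Type*} [CommRing R] [Field F] [Algebra R F]
  [Field k] [∀ i, Field (κ i)] [∀ i, Algebra k (κ i)]
  {C : Chart R F k ι κ} {𝔪 : Ideal C.B} {i : ι}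

theorem branch_mem_O_iff (b : Branch C 𝔪 i) (y : κ i) :
    y ∈ b.O ↔ ∃ b' β : C.B, β ∉ 𝔪 ∧ C.rdB i b' = y * C.rdB i β := by
  constructor
  · exact b.normal y
  · rintro ⟨b', β, hβ, h⟩
    have h1 := b.val_rdB_eq_one hβ
    have h2 : b.O.valuation (C.rdB i b') ≤ 1 := (b.O.valuation_le_one_iff _).2 (b.reg b')
    rw [h, map_mul, h1, mul_one] at h2
    exact (b.O.valuation_le_one_iff _).1 h2

/-- The valuation ring of a branch is determined by the closed point and the component. -/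
theorem branch_O_eq (b b' : Branch C 𝔪 i) : b.O = b'.O := by
  ext y
  rw [branch_mem_O_iff, branch_mem_O_iff]

/-- Rank one: the only valuation ring `≠ ⊤` above the valuation ring of a branch is itself. -/
theorem branch_O_eq_of_le (b : Branch C 𝔪 i) (O' : ValuationSubring (κ i)) (hO' : O' ≠ ⊤)
    (hle : b.O ≤ O') : b.O = O' := by
  refine le_antisymm hle fun y hy => ?_
  by_contra hyO
  have hy0 : y ≠ 0 := by
    rintro rfl
    exact hyO (zero_mem _)
  have hnu : y⁻¹ ∈ b.O.nonunits := by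
    rw [ValuationSubring.mem_nonunits_iff, map_inv₀]
    have h1 : ¬ b.O.valuation y ≤ 1 := fun h => hyO ((b.O.valuation_le_one_iff y).1 h)
    have h2 : 1 < b.O.valuation y := not_le.1 h1
    exact inv_lt_one_of_one_lt₀ h2
  obtain ⟨w, hw⟩ : ∃ w, w ∉ O' := by
    by_contra hcon
    push Not at hcon
    exact hO' (eq_top_iff.2 fun x _ => hcon x)
  have hw0 : w ≠ 0 := by
    rintro rfl
    exact hw (zero_mem _)
  obtain ⟨N, hN⟩ := b.arch _ hnu w⁻¹ (inv_ne_zero hw0)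
  have h1 : (y⁻¹) ^ N * (w⁻¹)⁻¹ ∈ O' := hle (hN N le_rfl)
  rw [inv_inv] at h1
  have h2 : y ^ N * ((y⁻¹) ^ N * w) ∈ O' := mul_mem (pow_mem hy N) h1
  have h3 : y ^ N * ((y⁻¹) ^ N * w) = w := by
    rw [← mul_assoc, ← mul_pow, mul_inv_cancel₀ hy0, one_pow, one_mul]
  rw [h3] at h2
  exact hw h2

/-- The valuation ring of the branch is the valuation ring of the point `v` of the component. -/
theorem branch_O_eq_place (b : Branch C 𝔪 i) (v : Place k (κ i))
    (hreg : ∀ β : C.B, RegAt v (C.rdB i β))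
    (hvan : ∀ β : C.B, VanAt v (C.rdB i β) → β ∈ 𝔪) : b.O = v.toValuationSubring := by
  refine branch_O_eq_of_le b _ v.ne_top' fun y hy => ?_
  obtain ⟨b', β, hβ, h⟩ := b.normal y hy
  have h2 : ¬ VanAt v (C.rdB i β) := fun hv => hβ (hvan β hv)
  have h3 := inv_mem_of_regAt_not_vanAt v (hreg β) h2
  have h0 : C.rdB i β ≠ 0 := by
    intro h0
    apply h2
    rw [h0]
    exact vanAt_zero v
  have h4 : y = C.rdB i b' * (C.rdB i β)⁻¹ := by
    rw [h, mul_assoc, mul_inv_cancel₀ h0, mul_one]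
  rw [h4]
  exact mul_mem ((regAt_iff_mem v _).1 (hreg b')) h3

/-- (EQV) in the language of values. -/
theorem branch_nonunits_of_hasValue (b : Branch C 𝔪 i) (v : Place k (κ i))
    (hO : b.O = v.toValuationSubring) {f : κ i} {c : k} (h : HasValue v f c) :
    f - algebraMap k (κ i) c ∈ b.O.nonunits := by
  rw [hO]
  exact (vanAt_iff_mem_nonunits v _).1 h

end BranchLemmas

/-! ## The closed point of the chart below a point of a component -/

section PtIdeal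

variable {R F k ι : Type*} {κ : ι → Type*} [CommRing R] [Field F] [Algebra R F]
  [Field k] [∀ i, Field (κ i)] [∀ i, Algebra k (κ i)]
  (C : Chart R F k ι κ) (i : ι) (v : Place k (κ i))

/-- The closed point of the chart below the point `v` of the component `i`
(the functions of `B` whose reduction vanishes at `v`). -/
def ptIdeal (hreg : ∀ β : C.B, RegAt v (C.rdB i β)) : Ideal C.B where
  carrier := {β | VanAt v (C.rdB i β)}
  add_mem' := by
    intro a b ha hb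
    simp only [Set.mem_ofPred_eq, map_add] at *
    exact ha.add hb
  zero_mem' := by
    simp only [Set.mem_ofPred_eq, map_zero]
    exact vanAt_zero v
  smul_mem' := by
    intro c x hx
    simp only [smul_eq_mul, map_mul, Set.mem_ofPred_eq] at *
    exact (hreg c).mul_vanAt hx

variable {C i v}

theorem mem_ptIdeal (hreg : ∀ β : C.B, RegAt v (C.rdB i β)) (β : C.B) :
    β ∈ ptIdeal C i v hreg ↔ VanAt v (C.rdB i β) := Iff.rfl

theorem Icomp_le_ptIdeal (hreg : ∀ β : C.B, RegAt v (C.rdB i β)) :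
    C.Icomp i ≤ ptIdeal C i v hreg := by
  intro β hβ
  rw [mem_ptIdeal, (C.mem_Icomp i β).1 hβ]
  exact vanAt_zero v

theorem rdB_algebraMap' (r : R) :
    C.rdB i (algebraMap R C.B r) = algebraMap k (κ i) (C.res r) := by
  rw [← C.rd_coe]
  exact C.rd_algebraMap i r

/-- The closed point below a point of degree one is a maximal ideal. -/
theorem ptIdeal_isMaximal (hreg : ∀ β : C.B, RegAt v (C.rdB i β)) (hdeg : v.deg = 1) :
    (ptIdeal C i v hreg).IsMaximal := by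
  rw [Ideal.isMaximal_iff]
  refine ⟨?_, fun J x hIJ hx hxJ => ?_⟩
  · rw [mem_ptIdeal, map_one]
    exact not_vanAt_one v
  · obtain ⟨c, hc⟩ := exists_value v hdeg (hreg x)
    have hc0 : c ≠ 0 := by
      rintro rfl
      apply hx
      rw [mem_ptIdeal]
      rwa [map_zero, sub_zero] at hc
    obtain ⟨r, hr⟩ := C.res_surj c
    obtain ⟨r', hr'⟩ := C.res_surj c⁻¹
    have h1 : x - algebraMap R C.B r ∈ ptIdeal C i v hreg := by
      rw [mem_ptIdeal, map_sub, rdB_algebraMap', hr]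
      exact hc
    have h2 : algebraMap R C.B r ∈ J := by
      have : algebraMap R C.B r = x - (x - algebraMap R C.B r) := by ring
      rw [this]
      exact J.sub_mem hxJ (hIJ h1)
    have h3 : algebraMap R C.B r * algebraMap R C.B r' - 1 ∈ ptIdeal C i v hreg := by
      rw [mem_ptIdeal, map_sub, map_mul, rdB_algebraMap', rdB_algebraMap', hr, hr', map_one,
        ← map_mul, mul_inv_cancel₀ hc0, map_one, sub_self]
      exact vanAt_zero v
    have h4 : (1 : C.B) = algebraMap R C.B r * algebraMap R C.B r'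
        - (algebraMap R C.B r * algebraMap R C.B r' - 1) := by ring
    rw [h4]
    exact J.sub_mem (J.mul_mem_right _ h2) (hIJ h3)

end PtIdeal

end Fermat.Agent.S36.NU.H24

end
end
-- ==== END Fermat.Agent.S36.NU.H24_BridgeA

-- ==== BEGIN Fermat.Agent.S36.NU.H30_CoordFinal
section
attribute [local instance 10000] SubalgebraClass.toAlgebra
attribute [local instance 10000] HahnSeries.powerSeriesAlgebra

/-!
# S36 / NU-B, COORD for `q ≥ 5`, unconditional (helper30): helper73's COORD + RAM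

`q ≥ 5`, `q ∤ M`, `4 ∣ M`, `A` over `q`, `κ = modularFunctionFieldFullC (kV A) M`.

* `coord_u4_final` : at every place `z` of `κ` at which `j~` is regular, `ū = Δ̄(t)/Δ̄(t⁴)` is a
  unit and `ū - c` is a local coordinate for some constant `c`.
* `coord_u4_ram` : the same together with the RAM data `(j0, e)`.
-/

set_option autoImplicit false
set_option linter.style.haveILetI false
set_option linter.unusedSectionVars false
set_option synthInstance.maxHeartbeats 400000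
set_option maxHeartbeats 1000000

noncomputable section

open AlgebraicCurve IntermediateField ModularCurve

namespace Fermat.Agent.S36.NU.H30

open Fermat.Agent.S28.H73 Fermat.Agent.RED.H73 Fermat.Agent.RED Fermat.Agent.BAD
open Fermat.Agent.S24 (Kbar FN)

variable (A : ValuationSubring Kbar) (q : ℕ) (hq : q.Prime) (hA : A.LiesOverPrime q)
  (M : ℕ) [NeZero M]

/-- **COORD + RAM** (`q ≥ 5`, `4 ∣ M`): at every place of `κ` at which `j~` is regular. -/
theorem coord_u4_ram (hqM : ¬ q ∣ M) (h5 : 5 ≤ q) (h4 : 4 ∣ M)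
    (z : Place (kV A) ↥(modularFunctionFieldFullC (kV A) M))
    (hz : 0 ≤ z.ord (⟨jqModC (kV A), jqModC_mem_full (kV A) M⟩ :
      ↥(modularFunctionFieldFullC (kV A) M))) :
    ∃ (j0 : kV A) (e : ℕ),
      z.ord ((⟨jqModC (kV A), jqModC_mem_full (kV A) M⟩ : ↥(modularFunctionFieldFullC (kV A) M))
        - algebraMap (kV A) ↥(modularFunctionFieldFullC (kV A) M) j0) = e ∧
      ((j0 ≠ 0 ∧ j0 ≠ 1728 ∧ e = 1) ∨ (j0 = 0 ∧ e = 3) ∨ (j0 = 1728 ∧ e = 2)) ∧
      z.ord (⟨H73.ubar4 (kV A), H73.ubar4_mem A q hq hA M hqM h4⟩ :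
        ↥(modularFunctionFieldFullC (kV A) M)) = 0 ∧
      ∃ c : kV A, z.ord ((⟨H73.ubar4 (kV A), H73.ubar4_mem A q hq hA M hqM h4⟩ :
          ↥(modularFunctionFieldFullC (kV A) M))
        - algebraMap (kV A) ↥(modularFunctionFieldFullC (kV A) M) c) = 1 := by
  obtain ⟨j0, e, hram, hcase⟩ := ram_exists hq h5 hqM hA h4 z hz
  obtain ⟨h1, h2⟩ := H73.coord_u4_full A q hq hA M hqM h5 h4 z j0 e hram hcase
  exact ⟨j0, e, hram, hcase, h1, h2⟩

/-- **COORD** (`q ≥ 5`, `4 ∣ M`), unconditional: `ū = Δ̄(t)/Δ̄(t⁴)` is a unit and (up to a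
constant) a local coordinate at every place of `κ` at which `j~` is regular. -/
theorem coord_u4_final (hqM : ¬ q ∣ M) (h5 : 5 ≤ q) (h4 : 4 ∣ M)
    (z : Place (kV A) ↥(modularFunctionFieldFullC (kV A) M))
    (hz : 0 ≤ z.ord (⟨jqModC (kV A), jqModC_mem_full (kV A) M⟩ :
      ↥(modularFunctionFieldFullC (kV A) M))) :
    z.ord (⟨H73.ubar4 (kV A), H73.ubar4_mem A q hq hA M hqM h4⟩ :
        ↥(modularFunctionFieldFullC (kV A) M)) = 0 ∧
      ∃ c : kV A, z.ord ((⟨H73.ubar4 (kV A), H73.ubar4_mem A q hq hA M hqM h4⟩ :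
          ↥(modularFunctionFieldFullC (kV A) M))
        - algebraMap (kV A) ↥(modularFunctionFieldFullC (kV A) M) c) = 1 := by
  obtain ⟨-, -, -, -, h1, h2⟩ := coord_u4_ram A q hq hA M hqM h5 h4 z hz
  exact ⟨h1, h2⟩

end Fermat.Agent.S36.NU.H30

end
end
-- ==== END Fermat.Agent.S36.NU.H30_CoordFinal

-- ==== BEGIN Fermat.Agent.S36.NU.H5_Q23Small
section

/-!
# S36 / NU-B, leaf Q23 (helper5): `θ j̄ = - j̄` in characteristic `2` and `3`

`E₄ ≡ E₆ ≡ 1` modulo `2` and `3`, hence `j̄ Δ̄ = 1` and `θ j̄ = - j̄`; with the chain rule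
`θ (f(t^N)) = N (θ f)(t^N)` this gives `θ (j̄(t^N)) = - N j̄(t^N)`.
Also the small facts on series used by the two cases (`q23_natCast_eq_zero`, `q23_jN_ne`, ...).
-/

set_option autoImplicit false

noncomputable section

open ModularCurve

namespace Fermat.Agent.S36.NU.H5

open Fermat.Agent.BAD.H21 Fermat.Agent.S23.H96 Fermat.Agent.S36.NU.H73

section Small

variable {k : Type*} [Field k] {ℓ : ℕ} [CharP k ℓ]

theorem q23_Rb_eq_one (h23 : ℓ = 2 ∨ ℓ = 3) : H21_Rb k = 1 := by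
  have h504 : ((504 : ℤ) : k) = 0 := by
    rw [CharP.intCast_eq_zero_iff k ℓ]
    rcases h23 with rfl | rfl <;> norm_num
  rw [H21_Rb, e6Series, map_sub, map_one, map_mul, PowerSeries.map_C]
  simp only [eq_intCast]
  rw [h504, map_zero, zero_mul, sub_zero]

theorem q23_coeffMap_QZ (h23 : ℓ = 2 ∨ ℓ = 3) : coeffMap (Int.castRingHom k) QZ = 1 := by
  rw [QZ, coeffMap_ofPowerSeries]
  show HahnSeries.ofPowerSeries ℤ k (H21_Qb k) = 1
  rw [H21_Qb_eq_one_of_small (F := k) h23, map_one]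

theorem q23_coeffMap_RZ (h23 : ℓ = 2 ∨ ℓ = 3) : coeffMap (Int.castRingHom k) RZ = 1 := by
  rw [RZ, coeffMap_ofPowerSeries]
  show HahnSeries.ofPowerSeries ℤ k (H21_Rb k) = 1
  rw [q23_Rb_eq_one (k := k) h23, map_one]

/-- `j̄ Δ̄ = 1` in characteristic `2`, `3`. -/
theorem q23_j_mul_D (h23 : ℓ = 2 ∨ ℓ = 3) :
    jqModC k * coeffMap (Int.castRingHom k) DZ = 1 := by
  have h := congrArg (coeffMap (Int.castRingHom k)) jZ_mul_DZ
  rw [map_mul, map_pow, coeffMap_jqModC, q23_coeffMap_QZ h23, one_pow] at h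
  exact h

/-- **`θ j̄ = - j̄`** in characteristic `2`, `3`. -/
theorem q23_thetaL_j (h23 : ℓ = 2 ∨ ℓ = 3) : thetaL (jqModC k) = -jqModC k := by
  have h := congrArg (coeffMap (Int.castRingHom k)) thetaL_jZ_mul_DZ
  rw [map_mul, map_neg, map_mul, map_pow, ← thetaL_coeffMap, coeffMap_jqModC,
    q23_coeffMap_QZ h23, q23_coeffMap_RZ h23, one_pow, one_mul] at h
  have h2 := q23_j_mul_D (k := k) h23
  calc thetaL (jqModC k) = thetaL (jqModC k) * (jqModC k * coeffMap (Int.castRingHom k) DZ) := by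
        rw [h2, mul_one]
    _ = jqModC k * (thetaL (jqModC k) * coeffMap (Int.castRingHom k) DZ) := by ring
    _ = -jqModC k := by rw [h]; ring

/-- `θ (j̄(t^N)) = - N j̄(t^N)`. -/
theorem q23_thetaL_jN (h23 : ℓ = 2 ∨ ℓ = 3) (N : ℕ) [NeZero N] :
    thetaL (qExpand k N (jqModC k)) = -((N : LaurentSeries k) * qExpand k N (jqModC k)) := by
  rw [thetaL_qExpand, q23_thetaL_j h23, map_neg, mul_neg]

end Small

section Series

variable {k : Type*} [Field k]

theorem q23_jq_ne_zero : jqModC k ≠ 0 := by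
  intro h
  have h1 := coeff_jqModC_neg_one k
  rw [h] at h1
  simp at h1

theorem q23_jN_ne_zero (N : ℕ) [NeZero N] : qExpand k N (jqModC k) ≠ 0 := by
  intro h
  apply q23_jq_ne_zero (k := k)
  apply qExpand_injective (R := k) N
  rw [h, map_zero]

/-- `j̄(t^N) ≠ j̄` for `N ≥ 2`. -/
theorem q23_jN_ne (N : ℕ) [NeZero N] (hN : 2 ≤ N) : qExpand k N (jqModC k) ≠ jqModC k := by
  intro h
  have h1 : (qExpand k N (jqModC k)).coeff (-1 : ℤ) = (jqModC k).coeff (-1 : ℤ) := by rw [h]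
  rw [coeff_jqModC_neg_one, qExpand_coeff_of_not_dvd] at h1
  · exact zero_ne_one h1
  · intro hd
    have h2 : ((N : ℕ) : ℤ) ∣ 1 := (dvd_neg (a := (N : ℤ)) (b := 1)).mp hd
    have h3 : N ∣ 1 := by exact_mod_cast h2
    have := Nat.dvd_one.mp h3
    omega

/-- A natural number which vanishes in `k` vanishes in `k((t))`. -/
theorem q23_natCast_eq_zero {n : ℕ} (h : (n : k) = 0) : (n : LaurentSeries k) = 0 := by
  have : (n : LaurentSeries k) = HahnSeries.C (n : k) := by rw [map_natCast]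
  rw [this, h, map_zero]

end Series

end Fermat.Agent.S36.NU.H5

end
end
-- ==== END Fermat.Agent.S36.NU.H5_Q23Small

-- ==== BEGIN Fermat.Agent.S36.NU.H65_PtTransfer
section

/-!
# S36 / NU-B, TI3: PT-TRANSFER (helper65)

The two charts `C0` (`B` = integral closure of `R[j]`) and `Coo` (`R[1/j]`) overlap in `B0[1/j] =
Boo[j]`.  A closed point `𝔪` of `Coo` with `1/j ∉ 𝔪` is a closed point `𝔪0 = pull 𝔪` of `C0`, with
the same components, the same branches (same valuation rings `O`), and local generators / the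
equality of values (EQV) transfer.  Hence in `ti3_final` the local hypothesis for the chart at
infinity is needed only at the closed points with `1/j ∈ 𝔪` (the cusps): `ti3_final'`.

* `Glue C C' u` : two charts with the same components, `u ∈ B`, `u⁻¹ ∈ B'`, `B ⊆ B'[u]`, `B' ⊆ B[u⁻¹]`.
* `Linked C C' u 𝔪 𝔪'` : `x = y u ^ K` (`x ∈ B`, `y ∈ B'`) ⟹ (`x ∈ 𝔪 ↔ y ∈ 𝔪'`).
* `Linked.icomp_le`, `Linked.branch` : transfer of components and branches.
* `pull G 𝔪'`, `linked_pull`, `pull_isMaximal`.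
* `ti3_final'`.
-/

set_option autoImplicit false

namespace Fermat.Agent.S36.NU.H65

open Fermat.Agent.S36.NU.H16 Fermat.Agent.S36.NU.H17 Polynomial

variable {R F k ι : Type*} {κ : ι → Type*} [CommRing R] [Field F] [Algebra R F]
  [Field k] [∀ i, Field (κ i)] [∀ i, Algebra k (κ i)]

/-- Two charts with the same components which are glued along `u ≠ 0`:
`u ∈ B`, `u⁻¹ ∈ B'`, `B ⊆ B'[u]`, `B' ⊆ B[u⁻¹]`. -/
structure Glue (C C' : Chart R F k ι κ) (u : F) : Prop where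
  u_ne : u ≠ 0
  u_mem : u ∈ C.B
  inv_mem : u⁻¹ ∈ C'.B
  loc : ∀ x ∈ C.B, ∃ K : ℕ, x * u⁻¹ ^ K ∈ C'.B
  loc' : ∀ y ∈ C'.B, ∃ K : ℕ, y * u ^ K ∈ C.B
  hV : ∀ i, C.V i = C'.V i
  hrd : ∀ i x, C.rd i x = C'.rd i x

namespace Glue

variable {C C' : Chart R F k ι κ} {u : F}

theorem symm (G : Glue C C' u) : Glue C' C u⁻¹ where
  u_ne := inv_ne_zero G.u_ne
  u_mem := G.inv_mem
  inv_mem := by rw [inv_inv]; exact G.u_mem
  loc := fun y hy => by
    obtain ⟨K, hK⟩ := G.loc' y hy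
    exact ⟨K, by rw [inv_inv]; exact hK⟩
  loc' := G.loc
  hV := fun i => (G.hV i).symm
  hrd := fun i x => (G.hrd i x).symm

theorem u_memV (G : Glue C C' u) (i : ι) : u ∈ C.V i := C.B_le i _ G.u_mem

theorem inv_memV (G : Glue C C' u) (i : ι) : u⁻¹ ∈ C.V i := by
  rw [G.hV]; exact C'.B_le i _ G.inv_mem

theorem rd_u_ne (G : Glue C C' u) (i : ι) : C.rd i u ≠ 0 := by
  intro h0
  have h1 : C.rd i (u * u⁻¹) = 0 := by
    rw [C.rd_mul i (G.u_memV i) (G.inv_memV i), h0, zero_mul]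
  rw [mul_inv_cancel₀ G.u_ne, C.rd_one] at h1
  exact one_ne_zero h1

theorem rd_inv_u (G : Glue C C' u) (i : ι) : C.rd i u⁻¹ = (C.rd i u)⁻¹ := C.rd_inv i (G.rd_u_ne i)

/-- large exponents also work in `loc` -/
theorem loc_ge (G : Glue C C' u) {x : F} (hx : x ∈ C.B) :
    ∃ K₀ : ℕ, ∀ K, K₀ ≤ K → x * u⁻¹ ^ K ∈ C'.B := by
  obtain ⟨K₀, hK₀⟩ := G.loc x hx
  refine ⟨K₀, fun K hK => ?_⟩
  obtain ⟨d, rfl⟩ := Nat.exists_eq_add_of_le hK
  rw [pow_add, ← mul_assoc]
  exact C'.B.mul_mem hK₀ (C'.B.pow_mem G.inv_mem d)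

end Glue

/-- The ideals `𝔪 ⊆ B` and `𝔪' ⊆ B'` define the same point of the overlap. -/
def Linked (C C' : Chart R F k ι κ) (u : F) (𝔪 : Ideal C.B) (𝔪' : Ideal C'.B) : Prop :=
  ∀ (x : C.B) (y : C'.B) (K : ℕ), (x : F) = y * u ^ K → (x ∈ 𝔪 ↔ y ∈ 𝔪')

namespace Linked

variable {C C' : Chart R F k ι κ} {u : F} {𝔪 : Ideal C.B} {𝔪' : Ideal C'.B}

theorem symm (hu : u ≠ 0) (L : Linked C C' u 𝔪 𝔪') : Linked C' C u⁻¹ 𝔪' 𝔪 := by
  intro y x K hyx
  refine (L x y K ?_).symm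
  rw [hyx, mul_assoc, ← mul_pow, inv_mul_cancel₀ hu, one_pow, mul_one]

/-- `u` is a unit at the point -/
theorem u_not_mem (G : Glue C C' u) (L : Linked C C' u 𝔪 𝔪') (h𝔪' : 𝔪' ≠ ⊤) :
    (⟨u, G.u_mem⟩ : C.B) ∉ 𝔪 := by
  intro hmem
  have := (L ⟨u, G.u_mem⟩ 1 1 (by simp)).1 hmem
  exact h𝔪' ((Ideal.eq_top_iff_one _).2 this)

/-- the components through the point are the same -/
theorem icomp_le (G : Glue C C' u) (L : Linked C C' u 𝔪 𝔪') {i : ι} (hi : C.Icomp i ≤ 𝔪) :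
    C'.Icomp i ≤ 𝔪' := by
  intro y hy
  obtain ⟨K, hK⟩ := G.loc' y y.2
  have hx : (⟨y * u ^ K, hK⟩ : C.B) ∈ C.Icomp i := by
    rw [Chart.mem_Icomp, ← C.rd_coe]
    show C.rd i ((y : F) * u ^ K) = 0
    have hyV : (y : F) ∈ C.V i := by rw [G.hV]; exact C'.B_le i _ y.2
    rw [C.rd_mul i hyV (pow_mem (G.u_memV i) K), G.hrd i (y : F), C'.rd_coe,
      (Chart.mem_Icomp C' i y).1 hy, zero_mul]
  exact (L ⟨y * u ^ K, hK⟩ y K rfl).1 (hi hx)

/-- **the branches are the same** (same valuation ring `O`) -/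
def branch (G : Glue C C' u) (L : Linked C C' u 𝔪 𝔪') (h𝔪' : 𝔪' ≠ ⊤) {i : ι}
    (b : Branch C 𝔪 i) : Branch C' 𝔪' i :=
  have hu1 : b.O.valuation (C.rd i u) = 1 := by
    have h1 : C.rd i u ∈ b.O := by
      have := b.reg ⟨u, G.u_mem⟩
      rwa [← C.rd_coe] at this
    have h2 : C.rd i u ∉ b.O.nonunits := by
      have := (b.van ⟨u, G.u_mem⟩).not.1 (L.u_not_mem G h𝔪')
      rwa [← C.rd_coe] at this
    rw [ValuationSubring.mem_nonunits_iff, not_lt] at h2
    exact le_antisymm ((b.O.valuation_le_one_iff _).2 h1) h2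
  have key : ∀ y : C'.B, ∃ (K : ℕ) (x : C.B), (x : F) = y * u ^ K ∧
      b.O.valuation (C.rdB i x) = b.O.valuation (C'.rdB i y) := by
    intro y
    obtain ⟨K, hK⟩ := G.loc' y y.2
    refine ⟨K, ⟨y * u ^ K, hK⟩, rfl, ?_⟩
    have hyV : (y : F) ∈ C.V i := by rw [G.hV]; exact C'.B_le i _ y.2
    rw [← C.rd_coe]
    show b.O.valuation (C.rd i ((y : F) * u ^ K)) = _
    rw [C.rd_mul i hyV (pow_mem (G.u_memV i) K), C.rd_pow i (G.u_memV i), map_mul, map_pow, hu1,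
      one_pow, mul_one, G.hrd i (y : F), C'.rd_coe]
  { O := b.O
    reg := fun y => by
      obtain ⟨K, x, _, hv⟩ := key y
      rw [← ValuationSubring.valuation_le_one_iff, ← hv, ValuationSubring.valuation_le_one_iff]
      exact b.reg x
    van := fun y => by
      obtain ⟨K, x, hx, hv⟩ := key y
      rw [← L x y K hx, b.van x, ValuationSubring.mem_nonunits_iff,
        ValuationSubring.mem_nonunits_iff, hv]
    normal := fun z hz => by
      obtain ⟨b₁, β, hβ, hbβ⟩ := b.normal z hz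
      obtain ⟨K₁, hK₁⟩ := G.loc_ge b₁.2
      obtain ⟨K₂, hK₂⟩ := G.loc_ge β.2
      have h1 := hK₁ (K₁ + K₂) (Nat.le_add_right _ _)
      have h2 := hK₂ (K₁ + K₂) (Nat.le_add_left _ _)
      refine ⟨⟨_, h1⟩, ⟨_, h2⟩, ?_, ?_⟩
      · intro hmem
        refine hβ ((L β ⟨_, h2⟩ (K₁ + K₂) ?_).2 hmem)
        show (β : F) = (β : F) * u⁻¹ ^ (K₁ + K₂) * u ^ (K₁ + K₂)
        rw [mul_assoc, ← mul_pow, inv_mul_cancel₀ G.u_ne, one_pow, mul_one]
      · rw [← C'.rd_coe, ← C'.rd_coe, ← G.hrd, ← G.hrd]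
        show C.rd i ((b₁ : F) * u⁻¹ ^ (K₁ + K₂)) = z * C.rd i ((β : F) * u⁻¹ ^ (K₁ + K₂))
        rw [C.rd_mul i (C.B_le i _ b₁.2) (pow_mem (G.inv_memV i) _),
          C.rd_mul i (C.B_le i _ β.2) (pow_mem (G.inv_memV i) _), C.rd_coe, C.rd_coe, hbβ]
        ring
    arch := b.arch
    value := b.value }

@[simp] theorem branch_O (G : Glue C C' u) (L : Linked C C' u 𝔪 𝔪') (h𝔪' : 𝔪' ≠ ⊤) {i : ι}
    (b : Branch C 𝔪 i) : (L.branch G h𝔪' b).O = b.O := rfl

end Linked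

section Pull

variable {C C' : Chart R F k ι κ} {u : F}

/-- The contraction to `B` of the extension of `𝔪'` to the overlap. -/
def pull (G : Glue C C' u) (𝔪' : Ideal C'.B) : Ideal C.B where
  carrier := {x | ∃ (K : ℕ) (hK : (x : F) * u⁻¹ ^ K ∈ C'.B), (⟨_, hK⟩ : C'.B) ∈ 𝔪'}
  zero_mem' := ⟨0, by simp, by
    have : (⟨((0 : C.B) : F) * u⁻¹ ^ 0, by simp⟩ : C'.B) = 0 := by
      ext; simp
    rw [this]; exact 𝔪'.zero_mem⟩
  add_mem' := by
    rintro x y ⟨K, hK, hx⟩ ⟨L, hL, hy⟩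
    have e : ((x + y : C.B) : F) * u⁻¹ ^ (K + L) =
        (x : F) * u⁻¹ ^ K * u⁻¹ ^ L + (y : F) * u⁻¹ ^ L * u⁻¹ ^ K := by
      push_cast; rw [pow_add]; ring
    have hmem : ((x + y : C.B) : F) * u⁻¹ ^ (K + L) ∈ C'.B := by
      rw [e]
      exact C'.B.add_mem (C'.B.mul_mem hK (C'.B.pow_mem G.inv_mem _))
        (C'.B.mul_mem hL (C'.B.pow_mem G.inv_mem _))
    refine ⟨K + L, hmem, ?_⟩
    have : (⟨_, hmem⟩ : C'.B) = ⟨_, hK⟩ * ⟨u⁻¹ ^ L, C'.B.pow_mem G.inv_mem _⟩ +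
        ⟨_, hL⟩ * ⟨u⁻¹ ^ K, C'.B.pow_mem G.inv_mem _⟩ := Subtype.ext e
    rw [this]
    exact 𝔪'.add_mem (𝔪'.mul_mem_right _ hx) (𝔪'.mul_mem_right _ hy)
  smul_mem' := by
    rintro c x ⟨K, hK, hx⟩
    obtain ⟨L, hL⟩ := G.loc c c.2
    have e : ((c • x : C.B) : F) * u⁻¹ ^ (L + K) = (c : F) * u⁻¹ ^ L * ((x : F) * u⁻¹ ^ K) := by
      rw [smul_eq_mul]; push_cast; rw [pow_add]; ring
    have hmem : ((c • x : C.B) : F) * u⁻¹ ^ (L + K) ∈ C'.B := by
      rw [e]; exact C'.B.mul_mem hL hK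
    refine ⟨L + K, hmem, ?_⟩
    have : (⟨_, hmem⟩ : C'.B) = ⟨_, hL⟩ * ⟨_, hK⟩ := Subtype.ext e
    rw [this]
    exact 𝔪'.mul_mem_left _ hx

theorem mem_pull (G : Glue C C' u) (𝔪' : Ideal C'.B) (x : C.B) :
    x ∈ pull G 𝔪' ↔ ∃ (K : ℕ) (hK : (x : F) * u⁻¹ ^ K ∈ C'.B), (⟨_, hK⟩ : C'.B) ∈ 𝔪' := Iff.rfl

/-- `pull 𝔪'` and `𝔪'` are linked, if `𝔪'` is prime and `u⁻¹ ∉ 𝔪'`. -/
theorem linked_pull (G : Glue C C' u) (𝔪' : Ideal C'.B) [h𝔪' : 𝔪'.IsPrime]
    (hu : (⟨u⁻¹, G.inv_mem⟩ : C'.B) ∉ 𝔪') : Linked C C' u (pull G 𝔪') 𝔪' := by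
  intro x y K hxy
  have hpow : ∀ N : ℕ, (⟨u⁻¹ ^ N, C'.B.pow_mem G.inv_mem N⟩ : C'.B) ∉ 𝔪' := by
    intro N hN
    have : (⟨u⁻¹ ^ N, C'.B.pow_mem G.inv_mem N⟩ : C'.B) = ⟨u⁻¹, G.inv_mem⟩ ^ N := by
      ext; simp
    rw [this] at hN
    exact hu (h𝔪'.mem_of_pow_mem N hN)
  constructor
  · rintro ⟨L, hL, hx⟩
    -- y * u⁻¹ ^ L = (x * u⁻¹ ^ L) * u⁻¹ ^ K ... compare in `B'`
    have e' : (y : F) * u⁻¹ ^ L = (x : F) * u⁻¹ ^ L * u⁻¹ ^ K := by
      have h1 : u⁻¹ ^ K * u ^ K = 1 := by rw [← mul_pow, inv_mul_cancel₀ G.u_ne, one_pow]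
      rw [hxy]
      calc (y : F) * u⁻¹ ^ L = (y : F) * u⁻¹ ^ L * (u ^ K * u⁻¹ ^ K) := by
            rw [mul_comm (u ^ K), h1, mul_one]
        _ = _ := by ring
    have h2 : y * ⟨u⁻¹ ^ L, C'.B.pow_mem G.inv_mem L⟩ =
        ⟨_, hL⟩ * ⟨u⁻¹ ^ K, C'.B.pow_mem G.inv_mem K⟩ := Subtype.ext e'
    have h3 : y * ⟨u⁻¹ ^ L, C'.B.pow_mem G.inv_mem L⟩ ∈ 𝔪' := by
      rw [h2]; exact 𝔪'.mul_mem_right _ hx
    exact (h𝔪'.mem_or_mem h3).resolve_right (hpow L)
  · intro hy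
    have e : (x : F) * u⁻¹ ^ K = y := by
      rw [hxy, mul_assoc, ← mul_pow, mul_inv_cancel₀ G.u_ne, one_pow, mul_one]
    refine ⟨K, by rw [e]; exact y.2, ?_⟩
    have : (⟨(x : F) * u⁻¹ ^ K, by rw [e]; exact y.2⟩ : C'.B) = y := Subtype.ext e
    rw [this]
    exact hy

end Pull

section InI

/-- membership in an ideal of a subalgebra, for elements of the ambient field -/
def InI (B : Subalgebra R F) (𝔪 : Ideal B) (x : F) : Prop := ∃ h : x ∈ B, (⟨x, h⟩ : B) ∈ 𝔪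

variable {B : Subalgebra R F} {𝔪 : Ideal B}

theorem InI.mem {x : F} (hx : InI B 𝔪 x) : x ∈ B := hx.1

theorem inI_coe (x : B) : InI B 𝔪 (x : F) ↔ x ∈ 𝔪 :=
  ⟨fun ⟨_, h⟩ => h, fun h => ⟨x.2, h⟩⟩

theorem inI_mk {x : F} (hx : x ∈ B) : InI B 𝔪 x ↔ (⟨x, hx⟩ : B) ∈ 𝔪 :=
  ⟨fun ⟨_, h⟩ => h, fun h => ⟨hx, h⟩⟩

theorem InI.add {x y : F} (hx : InI B 𝔪 x) (hy : InI B 𝔪 y) : InI B 𝔪 (x + y) := by
  obtain ⟨hx, hx'⟩ := hx
  obtain ⟨hy, hy'⟩ := hy
  exact ⟨B.add_mem hx hy, 𝔪.add_mem hx' hy'⟩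

theorem InI.neg {x : F} (hx : InI B 𝔪 x) : InI B 𝔪 (-x) := by
  obtain ⟨hx, hx'⟩ := hx
  exact ⟨B.neg_mem hx, 𝔪.neg_mem hx'⟩

theorem InI.sub {x y : F} (hx : InI B 𝔪 x) (hy : InI B 𝔪 y) : InI B 𝔪 (x - y) := by
  obtain ⟨hx, hx'⟩ := hx
  obtain ⟨hy, hy'⟩ := hy
  exact ⟨B.sub_mem hx hy, 𝔪.sub_mem hx' hy'⟩

theorem InI.mul_left {x : F} (hx : InI B 𝔪 x) {b : F} (hb : b ∈ B) : InI B 𝔪 (b * x) := by
  obtain ⟨hx, hx'⟩ := hx
  exact ⟨B.mul_mem hb hx, 𝔪.mul_mem_left ⟨b, hb⟩ hx'⟩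

theorem InI.mul_right {x : F} (hx : InI B 𝔪 x) {b : F} (hb : b ∈ B) : InI B 𝔪 (x * b) := by
  rw [mul_comm]; exact hx.mul_left hb

theorem not_inI_one (h𝔪 : 𝔪 ≠ ⊤) : ¬ InI B 𝔪 1 := by
  rintro ⟨_, h⟩
  exact h𝔪 ((Ideal.eq_top_iff_one _).2 h)

/-- `a - 1 ∈ 𝔪 ⟹ a ^ N - 1 ∈ 𝔪` -/
theorem InI.pow_sub_one {a : F} (ha : a ∈ B) (h : InI B 𝔪 (a - 1)) (N : ℕ) :
    InI B 𝔪 (a ^ N - 1) := by
  induction N with
  | zero => rw [pow_zero, sub_self]; exact ⟨B.zero_mem, 𝔪.zero_mem⟩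
  | succ N ih =>
    have : a ^ (N + 1) - 1 = a * (a ^ N - 1) + (a - 1) := by ring
    rw [this]
    exact (ih.mul_left ha).add h

theorem aeval_mem_of_mem {v : F} (hv : v ∈ B) (P : R[X]) : aeval v P ∈ B := by
  have h1 : aeval v P ∈ Algebra.adjoin R {v} := by
    rw [Algebra.adjoin_singleton_eq_range_aeval]
    exact ⟨P, rfl⟩
  have hle : Algebra.adjoin R {v} ≤ B := Algebra.adjoin_le (by simpa using hv)
  exact hle h1

/-- **(C1)**: `v ∉ 𝔪` is invertible modulo `𝔪` by a polynomial in `v`, if `B` is integral over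
`R[v]`. -/
theorem exists_poly_inv (v : F) (hv : v ∈ B)
    (hint : ∀ y ∈ B, IsIntegral (Algebra.adjoin R {v}) y)
    [h𝔪 : 𝔪.IsMaximal] (hvm : ¬ InI B 𝔪 v) :
    ∃ P : R[X], InI B 𝔪 (v * aeval v P - 1) := by
  have hle : Algebra.adjoin R {v} ≤ B := Algebra.adjoin_le (by simpa using hv)
  let f : ↥(Algebra.adjoin R {v}) →+* ↥B := (Subalgebra.inclusion hle).toRingHom
  have hf : f.IsIntegral := by
    intro y
    obtain ⟨p, hp, hpy⟩ := hint y y.2
    refine ⟨p, hp, ?_⟩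
    apply Subtype.val_injective
    have h1 : (B.val.toRingHom) (eval₂ f y p) = eval₂ ((B.val.toRingHom).comp f) (y : F) p :=
      Polynomial.hom_eval₂ p f B.val.toRingHom y
    have h2 : (B.val.toRingHom).comp f = algebraMap ↥(Algebra.adjoin R {v}) F := by
      ext z; rfl
    rw [h2] at h1
    show (B.val.toRingHom) (eval₂ f y p) = 0
    rw [h1]
    exact hpy
  have := Ideal.isMaximal_comap_of_isIntegral_of_isMaximal' f hf 𝔪
  have hx : (⟨v, Algebra.self_mem_adjoin_singleton R v⟩ : ↥(Algebra.adjoin R {v})) ∉ 𝔪.comap f := by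
    intro h
    exact hvm ⟨hv, h⟩
  obtain ⟨y, i, hi, hyi⟩ := Ideal.IsMaximal.exists_inv this hx
  obtain ⟨P, hP⟩ : ∃ P : R[X], aeval v P = (y : F) := by
    have h4 : ∀ z : F, z ∈ Algebra.adjoin R {v} → ∃ P : R[X], aeval v P = z := by
      intro z hz
      rw [Algebra.adjoin_singleton_eq_range_aeval] at hz
      exact hz
    exact h4 _ y.2
  refine ⟨P, ?_⟩
  have h3 : v * aeval v P - 1 = -(i : F) := by
    have := congrArg (fun z : ↥(Algebra.adjoin R {v}) => (z : F)) hyi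
    simp only [Subalgebra.coe_add, Subalgebra.coe_mul, Subalgebra.coe_one] at this
    rw [hP]
    linear_combination this
  rw [h3]
  refine InI.neg ⟨hle i.2, ?_⟩
  exact hi

/-- **(C2)**: if `R` is a field modulo `𝔪` and `v` is invertible modulo `𝔪` by a polynomial in
`v`, then `v` is integral over `R` modulo `𝔪`. -/
theorem exists_monic_mod (v : F) (hv : v ∈ B) (h𝔪 : 𝔪 ≠ ⊤)
    (hfield : ∀ r : R, ¬ InI B 𝔪 (algebraMap R F r) →
      ∃ r' : R, InI B 𝔪 (algebraMap R F (r * r') - 1)) :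
    ∀ (d : ℕ) (P : R[X]), P.natDegree ≤ d → InI B 𝔪 (v * aeval v P - 1) →
      ∃ p : R[X], p.Monic ∧ InI B 𝔪 (aeval v p) := by
  -- the case of a leading coefficient which is a unit modulo `𝔪`
  have unitcase : ∀ P : R[X], ¬ InI B 𝔪 (algebraMap R F P.leadingCoeff) →
      InI B 𝔪 (v * aeval v P - 1) → ∃ p : R[X], p.Monic ∧ InI B 𝔪 (aeval v p) := by
    intro P ha hP
    obtain ⟨r', hr'⟩ := hfield _ ha
    set m := P.natDegree with hm
    refine ⟨C r' * (X * P - 1) - (C (P.leadingCoeff * r') - 1) * X ^ (m + 1), ?_, ?_⟩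
    · refine monic_of_natDegree_le_of_coeff_eq_one (m + 1) ?_ ?_
      · have h1 : (X * P - 1 : R[X]).natDegree ≤ m + 1 := by
          refine (natDegree_sub_le _ _).trans (max_le ?_ (by simp))
          refine (natDegree_mul_le).trans ?_
          refine (add_le_add natDegree_X_le le_rfl).trans ?_
          omega
        refine (natDegree_sub_le _ _).trans (max_le ?_ ?_)
        · exact (natDegree_C_mul_le _ _).trans h1
        · refine (natDegree_mul_le).trans ?_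
          have h2 : (C (P.leadingCoeff * r') - 1 : R[X]).natDegree = 0 := by
            have : (C (P.leadingCoeff * r') - 1 : R[X]) = C (P.leadingCoeff * r' - 1) := by
              simp
            rw [this, natDegree_C]
          rw [h2, zero_add]
          exact natDegree_X_pow_le _
      · have h2 : (C (P.leadingCoeff * r') - 1 : R[X]) = C (P.leadingCoeff * r' - 1) := by
          simp
        rw [h2, coeff_sub, coeff_C_mul, coeff_C_mul, coeff_X_pow, if_pos rfl, coeff_sub,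
          coeff_X_mul, coeff_one, if_neg (Nat.succ_ne_zero m), hm, coeff_natDegree]
        ring
    · have e : aeval v (C r' * (X * P - 1) - (C (P.leadingCoeff * r') - 1) * X ^ (m + 1)) =
          algebraMap R F r' * (v * aeval v P - 1) -
            (algebraMap R F (P.leadingCoeff * r') - 1) * v ^ (m + 1) := by
        simp only [map_sub, map_mul, aeval_C, aeval_X, map_one, map_pow]
      rw [e]
      exact (hP.mul_left (B.algebraMap_mem r')).sub (hr'.mul_right (B.pow_mem hv _))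
  intro d
  induction d with
  | zero =>
    intro P hd hP
    by_cases ha : InI B 𝔪 (algebraMap R F P.leadingCoeff)
    · exfalso
      have hP0 : P = C P.leadingCoeff := by
        have := eq_C_of_natDegree_le_zero hd
        rw [this, leadingCoeff_C]
      have h1 : aeval v P = algebraMap R F P.leadingCoeff := by
        conv_lhs => rw [hP0]
        rw [aeval_C]
      rw [h1] at hP
      have h2 : InI B 𝔪 (1 : F) := by
        have := (ha.mul_left hv).sub hP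
        simpa using this
      exact not_inI_one h𝔪 h2
    · exact unitcase P ha hP
  | succ d ih =>
    intro P hd hP
    by_cases ha : InI B 𝔪 (algebraMap R F P.leadingCoeff)
    · by_cases h0 : P.natDegree = 0
      · exfalso
        have hP0 : P = C P.leadingCoeff := by
          have := eq_C_of_natDegree_eq_zero h0
          rw [this, leadingCoeff_C]
        have h1 : aeval v P = algebraMap R F P.leadingCoeff := by
          conv_lhs => rw [hP0]
          rw [aeval_C]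
        rw [h1] at hP
        have h2 : InI B 𝔪 (1 : F) := by
          have := (ha.mul_left hv).sub hP
          simpa using this
        exact not_inI_one h𝔪 h2
      · refine ih P.eraseLead ?_ ?_
        · have := eraseLead_natDegree_le P
          omega
        · have h1 : aeval v P = aeval v P.eraseLead +
              algebraMap R F P.leadingCoeff * v ^ P.natDegree := by
            conv_lhs => rw [← eraseLead_add_C_mul_X_pow P]
            simp only [map_add, map_mul, aeval_C, map_pow, aeval_X]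
          have h2 : v * aeval v P.eraseLead - 1 = (v * aeval v P - 1) -
              algebraMap R F P.leadingCoeff * (v * v ^ P.natDegree) := by
            rw [h1]; ring
          rw [h2]
          exact hP.sub (ha.mul_right (B.mul_mem hv (B.pow_mem hv _)))
    · exact unitcase P ha hP

end InI

section Maximal

variable {C C' : Chart R F k ι κ} {u : F} {𝔪 : Ideal C.B} {𝔪' : Ideal C'.B}

/-- `Linked` in terms of `InI` -/
theorem Linked.inI (L : Linked C C' u 𝔪 𝔪') {x y : F} (hx : x ∈ C.B) (hy : y ∈ C'.B) (K : ℕ)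
    (hxy : x = y * u ^ K) : InI C.B 𝔪 x ↔ InI C'.B 𝔪' y := by
  rw [inI_mk hx, inI_mk hy]
  exact L ⟨x, hx⟩ ⟨y, hy⟩ K hxy

/-- `R` is a field modulo a closed point of the special fibre. -/
theorem field_mod_of_icomp_le (C : Chart R F k ι κ) (𝔪 : Ideal C.B) (i : ι)
    (hi : C.Icomp i ≤ 𝔪) (r : R) (hr : ¬ InI C.B 𝔪 (algebraMap R F r)) :
    ∃ r' : R, InI C.B 𝔪 (algebraMap R F (r * r') - 1) := by
  have hres : C.res r ≠ 0 := by
    intro h0
    apply hr
    refine ⟨C.B.algebraMap_mem r, hi ?_⟩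
    rw [Chart.mem_Icomp, ← C.rd_coe]
    show C.rd i (algebraMap R F r) = 0
    rw [C.rd_algebraMap, h0, map_zero]
  obtain ⟨r', hr'⟩ := C.res_surj (C.res r)⁻¹
  refine ⟨r', C.B.sub_mem (C.B.algebraMap_mem _) C.B.one_mem, hi ?_⟩
  rw [Chart.mem_Icomp, ← C.rd_coe]
  show C.rd i (algebraMap R F (r * r') - 1) = 0
  rw [C.rd_sub i (C.B_le i _ (C.B.algebraMap_mem _)) (one_mem _), C.rd_algebraMap, C.rd_one,
    map_mul, hr', mul_inv_cancel₀ hres, map_one, sub_self]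

/-- **(C3)** `u` is invertible modulo `𝔪`. -/
theorem Linked.exists_inv_u (G : Glue C C' u) (L : Linked C C' u 𝔪 𝔪') [h𝔪' : 𝔪'.IsMaximal]
    (hint : ∀ y ∈ C'.B, IsIntegral (Algebra.adjoin R {u⁻¹}) y)
    (i : ι) (hi : C'.Icomp i ≤ 𝔪') :
    ∃ w ∈ C.B, InI C.B 𝔪 (u * w - 1) := by
  have htop : 𝔪' ≠ ⊤ := h𝔪'.ne_top
  have hu' : ¬ InI C'.B 𝔪' u⁻¹ := by
    intro h
    have h1 := (L.inI C.B.one_mem G.inv_mem 1 (by
      rw [pow_one, inv_mul_cancel₀ G.u_ne])).2 h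
    -- `1 ∈ 𝔪`, hence `1 = 1 * u ^ 0 ∈ 𝔪'`
    have h2 := (L.inI C.B.one_mem C'.B.one_mem 0 (by simp)).1 h1
    exact not_inI_one htop h2
  obtain ⟨P, hP⟩ := exists_poly_inv (𝔪 := 𝔪') u⁻¹ G.inv_mem hint hu'
  obtain ⟨p, hpm, hp⟩ := exists_monic_mod (𝔪 := 𝔪') u⁻¹ G.inv_mem htop
    (field_mod_of_icomp_le C' 𝔪' i hi) P.natDegree P le_rfl hP
  -- the reverse polynomial
  have hrev : aeval u p.reverse = aeval u⁻¹ p * u ^ p.natDegree := by
    let _ : Invertible u⁻¹ := invertibleOfNonzero (inv_ne_zero G.u_ne)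
    have h1 := eval₂_reverse_mul_pow (algebraMap R F) u⁻¹ p
    rw [invOf_eq_inv, inv_inv] at h1
    rw [aeval_def, aeval_def, ← h1, mul_assoc, ← mul_pow, inv_mul_cancel₀ G.u_ne, one_pow,
      mul_one]
  have h2 : InI C.B 𝔪 (aeval u p.reverse) :=
    (L.inI (aeval_mem_of_mem G.u_mem _) hp.mem p.natDegree hrev).2 hp
  have h3 : aeval u p.reverse = aeval u p.reverse.divX * u + 1 := by
    conv_lhs => rw [← divX_mul_X_add p.reverse]
    rw [coeff_zero_reverse, hpm.leadingCoeff]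
    simp only [map_add, map_mul, aeval_X, map_one]
  refine ⟨-aeval u p.reverse.divX, C.B.neg_mem (aeval_mem_of_mem G.u_mem _), ?_⟩
  have h4 : u * -aeval u p.reverse.divX - 1 = -aeval u p.reverse := by
    rw [h3]; ring
  rw [h4]
  exact h2.neg

/-- **(C4)** a closed point of the special fibre of `C'` where `u⁻¹` does not vanish is a closed
point of `C`. -/
theorem Linked.isMaximal (G : Glue C C' u) (L : Linked C C' u 𝔪 𝔪') [h𝔪' : 𝔪'.IsMaximal]
    (hint : ∀ y ∈ C'.B, IsIntegral (Algebra.adjoin R {u⁻¹}) y)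
    (i : ι) (hi : C'.Icomp i ≤ 𝔪') : 𝔪.IsMaximal := by
  have htop : 𝔪' ≠ ⊤ := h𝔪'.ne_top
  obtain ⟨w, hw, huw⟩ := L.exists_inv_u G hint i hi
  rw [Ideal.isMaximal_iff]
  constructor
  · intro h1
    have h2 := (L.inI C.B.one_mem C'.B.one_mem 0 (by simp)).1 ((inI_coe (1 : C.B)).2 h1)
    exact not_inI_one htop h2
  · intro J x hJ hx hxJ
    obtain ⟨K, hK⟩ := G.loc x x.2
    have hxK : (x : F) = (x : F) * u⁻¹ ^ K * u ^ K := by
      rw [mul_assoc, ← mul_pow, inv_mul_cancel₀ G.u_ne, one_pow, mul_one]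
    have hx' : (⟨_, hK⟩ : C'.B) ∉ 𝔪' := fun h => hx ((L x ⟨_, hK⟩ K hxK).2 h)
    obtain ⟨y', z, hz, hyz⟩ := Ideal.IsMaximal.exists_inv h𝔪' hx'
    obtain ⟨K', hK'⟩ := G.loc' y' y'.2
    -- `x * y - u ^ (K + K') ∈ 𝔪`
    have hyzF : (y' : F) * ((x : F) * u⁻¹ ^ K) + (z : F) = 1 := by
      have := congrArg (fun t : C'.B => (t : F)) hyz
      simpa using this
    have h1 : InI C.B 𝔪 ((x : F) * ((y' : F) * u ^ K') - u ^ (K + K')) := by
      refine (L.inI (C.B.sub_mem (C.B.mul_mem x.2 hK') (C.B.pow_mem G.u_mem _))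
        (C'.B.neg_mem z.2) (K + K') ?_).2 ((inI_coe z).2 hz).neg
      have h5 : (z : F) = 1 - (y' : F) * ((x : F) * u⁻¹ ^ K) := by
        rw [← hyzF]; ring
      rw [h5]
      have h6 : u⁻¹ ^ K * u ^ K = 1 := by rw [← mul_pow, inv_mul_cancel₀ G.u_ne, one_pow]
      calc (x : F) * ((y' : F) * u ^ K') - u ^ (K + K')
          = (x : F) * ((y' : F) * u ^ K') * 1 - u ^ (K + K') := by rw [mul_one]
        _ = (x : F) * ((y' : F) * u ^ K') * (u⁻¹ ^ K * u ^ K) - u ^ (K + K') := by rw [h6]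
        _ = -(1 - (y' : F) * ((x : F) * u⁻¹ ^ K)) * u ^ (K + K') := by rw [pow_add]; ring
    have h2 : InI C.B 𝔪 ((u * w) ^ (K + K') - 1) :=
      InI.pow_sub_one (C.B.mul_mem G.u_mem hw) huw _
    -- `1 = x * (y * w ^ N) - (x y - u ^ N) w ^ N - ((u w) ^ N - 1)`
    have h3 : (1 : F) = (x : F) * ((y' : F) * u ^ K' * w ^ (K + K')) -
        ((x : F) * ((y' : F) * u ^ K') - u ^ (K + K')) * w ^ (K + K') -
        ((u * w) ^ (K + K') - 1) := by
      rw [mul_pow]; ring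
    have hJ1 : InI C.B J ((x : F) * ((y' : F) * u ^ K' * w ^ (K + K'))) :=
      ((inI_coe x).2 hxJ).mul_right (C.B.mul_mem hK' (C.B.pow_mem hw _))
    have hJ2 : InI C.B J (((x : F) * ((y' : F) * u ^ K') - u ^ (K + K')) * w ^ (K + K')) := by
      obtain ⟨ha, hb⟩ := h1.mul_right (C.B.pow_mem hw (K + K'))
      exact ⟨ha, hJ hb⟩
    have hJ3 : InI C.B J ((u * w) ^ (K + K') - 1) := by
      obtain ⟨ha, hb⟩ := h2
      exact ⟨ha, hJ hb⟩
    have := (hJ1.sub hJ2).sub hJ3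
    rw [← h3] at this
    exact (inI_coe (1 : C.B)).1 this

end Maximal

section Val

variable {L : Type*} [Field L] (O : ValuationSubring L)

theorem nonunits_mul_mem {x y : L} (hx : x ∈ O.nonunits) (hy : y ∈ O) : x * y ∈ O.nonunits := by
  rw [ValuationSubring.mem_nonunits_iff] at *
  rw [map_mul]
  have hy' := (O.valuation_le_one_iff y).2 hy
  exact mul_lt_one_of_lt_of_le hx hy'

theorem nonunits_add_mem {x y : L} (hx : x ∈ O.nonunits) (hy : y ∈ O.nonunits) :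
    x + y ∈ O.nonunits := by
  rw [ValuationSubring.mem_nonunits_iff] at *
  exact Valuation.map_add_lt _ hx hy

theorem nonunits_pow_sub_pow {x y : L} (hx : x ∈ O) (hy : y ∈ O) (hxy : x - y ∈ O.nonunits)
    (K : ℕ) : x ^ K - y ^ K ∈ O.nonunits := by
  induction K with
  | zero =>
    rw [pow_zero, pow_zero, sub_self, ValuationSubring.mem_nonunits_iff, map_zero]
    exact zero_lt_one
  | succ K ih =>
    have : x ^ (K + 1) - y ^ (K + 1) = (x ^ K - y ^ K) * x + (x - y) * y ^ K := by ring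
    rw [this]
    exact nonunits_add_mem O (nonunits_mul_mem O ih hx) (nonunits_mul_mem O hxy (pow_mem hy K))

/-- `a ≡ c₀`, `b ≡ c₁` ⟹ `a b ^ K ≡ c₀ c₁ ^ K` -/
theorem nonunits_mul_pow {a b c₀ c₁ : L} (hb : b ∈ O) (hc₀ : c₀ ∈ O) (hc₁ : c₁ ∈ O)
    (ha : a - c₀ ∈ O.nonunits) (hbc : b - c₁ ∈ O.nonunits) (K : ℕ) :
    a * b ^ K - c₀ * c₁ ^ K ∈ O.nonunits := by
  have : a * b ^ K - c₀ * c₁ ^ K = (a - c₀) * b ^ K + (b ^ K - c₁ ^ K) * c₀ := by ring
  rw [this]
  exact nonunits_add_mem O (nonunits_mul_mem O ha (pow_mem hb K))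
    (nonunits_mul_mem O (nonunits_pow_sub_pow O hb hc₁ hbc K) hc₀)

end Val

section Transfer

variable {C C' : Chart R F k ι κ} {u : F}

/-- constants are regular on a branch -/
theorem Branch_const_mem {𝔪 : Ideal C.B} {i : ι} (b : Branch C 𝔪 i) (c : k) :
    algebraMap k (κ i) c ∈ b.O := by
  obtain ⟨r, rfl⟩ := C.res_surj c
  have := b.reg ⟨algebraMap R F r, C.B.algebraMap_mem r⟩
  rw [← C.rd_coe] at this
  have h2 : C.rd i (algebraMap R F r) ∈ b.O := this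
  rwa [C.rd_algebraMap] at h2

/-- the value of an element of `B` at a closed point is the same on all branches -/
theorem Branch_value_all {𝔪 : Ideal C.B} (br : ∀ i, C.Icomp i ≤ 𝔪 → Branch C 𝔪 i)
    (hex : ∃ i, C.Icomp i ≤ 𝔪) (x : C.B) :
    ∃ c : k, ∀ (i : ι) (hi : C.Icomp i ≤ 𝔪),
      C.rdB i x - algebraMap k (κ i) c ∈ (br i hi).O.nonunits := by
  obtain ⟨i₀, hi₀⟩ := hex
  obtain ⟨c, hc⟩ := (br i₀ hi₀).value _ ((br i₀ hi₀).reg x)
  refine ⟨c, fun i hi => ?_⟩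
  obtain ⟨r, rfl⟩ := C.res_surj c
  have e : ∀ i', C.rdB i' (x - algebraMap R C.B r) =
      C.rdB i' x - algebraMap k (κ i') (C.res r) := by
    intro i'
    rw [map_sub]
    congr 1
    rw [← C.rd_coe]
    exact C.rd_algebraMap i' r
  have h1 : x - algebraMap R C.B r ∈ 𝔪 := by
    rw [(br i₀ hi₀).van, e]
    exact hc
  rw [← e]
  exact ((br i hi).van _).1 h1

/-- **PT-TRANSFER**: the local hypothesis of `H16.chart` at a closed point `𝔪'` of `C'` where `u⁻¹`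
does not vanish follows from the local hypothesis at the closed points of `C`. -/
theorem hpt_transfer (G : Glue C C' u) (qn n : ℕ) (h : F) (g : ∀ i, κ i)
    (S : Setup C qn n h g)
    (hint : ∀ y ∈ C'.B, IsIntegral (Algebra.adjoin R {u⁻¹}) y)
    (hpt : ∀ 𝔪 : Ideal C.B, 𝔪.IsMaximal → (∃ i, C.Icomp i ≤ 𝔪) →
      ∃ (_ : ∀ i, C.Icomp i ≤ 𝔪 → Branch C 𝔪 i) (s : F) (hs : h * s ^ n ∈ C.B),
        (⟨h * s ^ n, hs⟩ : C.B) ∉ 𝔪 ∧
        ∀ br : (∀ i, C.Icomp i ≤ 𝔪 → Branch C 𝔪 i), ∃ c : k,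
          ∀ (i : ι) (hi : C.Icomp i ≤ 𝔪),
            g i * (C.rd i s)⁻¹ - algebraMap k (κ i) c ∈ (br i hi).O.nonunits)
    (𝔪' : Ideal C'.B) (h𝔪' : 𝔪'.IsMaximal) (hex : ∃ i, C'.Icomp i ≤ 𝔪')
    (hu : (⟨u⁻¹, G.inv_mem⟩ : C'.B) ∉ 𝔪') :
    ∃ (_ : ∀ i, C'.Icomp i ≤ 𝔪' → Branch C' 𝔪' i) (s : F) (hs : h * s ^ n ∈ C'.B),
      (⟨h * s ^ n, hs⟩ : C'.B) ∉ 𝔪' ∧
      ∀ br : (∀ i, C'.Icomp i ≤ 𝔪' → Branch C' 𝔪' i), ∃ c : k,
        ∀ (i : ι) (hi : C'.Icomp i ≤ 𝔪'),
          g i * (C'.rd i s)⁻¹ - algebraMap k (κ i) c ∈ (br i hi).O.nonunits := by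
  have := h𝔪'.isPrime
  have htop' : 𝔪' ≠ ⊤ := h𝔪'.ne_top
  have L : Linked C C' u (pull G 𝔪') 𝔪' := linked_pull G 𝔪' hu
  have L' : Linked C' C u⁻¹ 𝔪' (pull G 𝔪') := L.symm G.u_ne
  have G' : Glue C' C u⁻¹ := G.symm
  obtain ⟨i₀, hi₀⟩ := hex
  have hmax : (pull G 𝔪').IsMaximal := L.isMaximal G hint i₀ hi₀
  have htop : pull G 𝔪' ≠ ⊤ := hmax.ne_top
  have hex0 : ∃ i, C.Icomp i ≤ pull G 𝔪' := ⟨i₀, L'.icomp_le G' hi₀⟩
  obtain ⟨br0, s0, hs0, hns0, heqv0⟩ := hpt _ hmax hex0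
  obtain ⟨K₀, hK₀⟩ := G.loc_ge hs0
  have hn := S.n_pos
  have e1 : h * (s0 * u⁻¹ ^ K₀) ^ n = h * s0 ^ n * u⁻¹ ^ (K₀ * n) := by
    rw [mul_pow, ← pow_mul, mul_assoc]
  have hs : h * (s0 * u⁻¹ ^ K₀) ^ n ∈ C'.B := by
    rw [e1]
    exact hK₀ _ (Nat.le_mul_of_pos_right _ hn)
  refine ⟨fun i hi => L.branch G htop' (br0 i (L'.icomp_le G' hi)), s0 * u⁻¹ ^ K₀, hs, ?_, ?_⟩
  · intro hmem
    refine hns0 ((L ⟨_, hs0⟩ ⟨_, hs⟩ (K₀ * n) ?_).2 hmem)
    show h * s0 ^ n = h * (s0 * u⁻¹ ^ K₀) ^ n * u ^ (K₀ * n)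
    rw [e1, mul_assoc, ← mul_pow, inv_mul_cancel₀ G.u_ne, one_pow, mul_one]
  · intro br'
    obtain ⟨c0, hc0⟩ := heqv0 (fun i hi => L'.branch G' htop (br' i (L.icomp_le G hi)))
    obtain ⟨cu, hcu⟩ := Branch_value_all
      (fun i hi => L'.branch G' htop (br' i (L.icomp_le G hi))) hex0 ⟨u, G.u_mem⟩
    refine ⟨c0 * cu ^ K₀, fun i hi => ?_⟩
    have hi0 : C.Icomp i ≤ pull G 𝔪' := L'.icomp_le G' hi
    have h1 := hc0 i hi0
    have h2 := hcu i hi0
    rw [← C.rd_coe] at h2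
    have hs0V : s0 ∈ C.V i := S.mem_V i hs0
    have e2 : C'.rd i (s0 * u⁻¹ ^ K₀) = C.rd i s0 * ((C.rd i u)⁻¹) ^ K₀ := by
      rw [← G.hrd, C.rd_mul i hs0V (pow_mem (G.inv_memV i) _), C.rd_pow i (G.inv_memV i),
        G.rd_inv_u]
    rw [e2, mul_inv, ← inv_pow, inv_inv, ← mul_assoc, map_mul, map_pow]
    have hbO : C.rd i u ∈ (br' i hi).O := by
      have := (L'.branch G' htop (br' i hi)).reg ⟨u, G.u_mem⟩
      rwa [← C.rd_coe] at this
    exact nonunits_mul_pow (br' i hi).O hbO (Branch_const_mem (br' i hi) c0)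
      (Branch_const_mem (br' i hi) cu) h1 h2 K₀

end Transfer

section Final

/-- The two standard charts (`B0` = integral closure of `R[j]`, `Boo` = integral closure of
`R[1/j]`, same components) are glued along `j`. -/
theorem glue_of_intSub (C0 Coo : Chart R F k ι κ) (j : F) (hj : j ≠ 0)
    (hB0 : C0.B = intSub R j) (hBoo : Coo.B = intSub R j⁻¹)
    (hV : ∀ i, C0.V i = Coo.V i) (hrd : ∀ i x, C0.rd i x = Coo.rd i x) : Glue C0 Coo j where
  u_ne := hj
  u_mem := by rw [hB0]; exact self_mem_intSub R j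
  inv_mem := by rw [hBoo]; exact self_mem_intSub R j⁻¹
  loc := fun x hx => by
    rw [hB0] at hx
    obtain ⟨e₀, he₀⟩ := exists_pow_inv_mul_isIntegral (R := R) hj hx
    refine ⟨e₀, ?_⟩
    rw [hBoo, mul_comm]
    exact he₀ e₀ le_rfl
  loc' := fun y hy => by
    rw [hBoo] at hy
    obtain ⟨e₀, he₀⟩ := exists_pow_inv_mul_isIntegral (R := R) (inv_ne_zero hj) hy
    have := he₀ e₀ le_rfl
    rw [inv_inv] at this
    refine ⟨e₀, ?_⟩
    rw [hB0, mul_comm]
    exact this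
  hV := hV
  hrd := hrd

/-- **TI3, abstract final form with PT-TRANSFER**: as `ti3_final`, but the local hypothesis for the
chart at infinity is asked only at the closed points `𝔪` where `1/j` vanishes (the cusps). -/
theorem ti3_final' [Fintype ι] [IsNoetherianRing R] [IsDomain R] [IsIntegrallyClosed R]
    (K : Type*) [Field K] [Algebra R K] [IsFractionRing R K] [Algebra K F] [IsScalarTower R K F]
    (C0 Coo : Chart R F k ι κ) (qn n : ℕ) (h : F)
    (g : ∀ i, κ i) (S0 : Setup C0 qn n h g) (Soo : Setup Coo qn n h g)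
    (j : F) (hjt : Transcendental K j) (hB0 : C0.B = intSub R j) (hBoo : Coo.B = intSub R j⁻¹)
    (hV : ∀ i, C0.V i = Coo.V i) (hrd : ∀ i x, C0.rd i x = Coo.rd i x)
    (q : R) (hq0 : q ≠ 0) (hqu : ¬ IsUnit q) (n' : R) (hnn : (n : R) * n' = 1)
    (hfg : (MInt R j⁻¹ h n S0.n_pos).FG)
    (hrad0 : ∀ β ∈ C0.B, (∀ i, C0.rd i β = 0) → IsRadQ C0.B q β)
    (hradoo : ∀ β ∈ Coo.B, (∀ i, Coo.rd i β = 0) → IsRadQ Coo.B q β)
    (hpt0 : ∀ 𝔪 : Ideal C0.B, 𝔪.IsMaximal → (∃ i, C0.Icomp i ≤ 𝔪) →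
      ∃ (_ : ∀ i, C0.Icomp i ≤ 𝔪 → Branch C0 𝔪 i) (s : F) (hs : h * s ^ n ∈ C0.B),
        (⟨h * s ^ n, hs⟩ : C0.B) ∉ 𝔪 ∧
        ∀ br : (∀ i, C0.Icomp i ≤ 𝔪 → Branch C0 𝔪 i), ∃ c : k,
          ∀ (i : ι) (hi : C0.Icomp i ≤ 𝔪),
            g i * (C0.rd i s)⁻¹ - algebraMap k (κ i) c ∈ (br i hi).O.nonunits)
    (hptoo : ∀ 𝔪 : Ideal Coo.B, 𝔪.IsMaximal → (∃ i, Coo.Icomp i ≤ 𝔪) →
      (∀ β : Coo.B, (β : F) = j⁻¹ → β ∈ 𝔪) →
      ∃ (_ : ∀ i, Coo.Icomp i ≤ 𝔪 → Branch Coo 𝔪 i) (s : F) (hs : h * s ^ n ∈ Coo.B),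
        (⟨h * s ^ n, hs⟩ : Coo.B) ∉ 𝔪 ∧
        ∀ br : (∀ i, Coo.Icomp i ≤ 𝔪 → Branch Coo 𝔪 i), ∃ c : k,
          ∀ (i : ι) (hi : Coo.Icomp i ≤ 𝔪),
            g i * (Coo.rd i s)⁻¹ - algebraMap k (κ i) c ∈ (br i hi).O.nonunits) :
    ∃ s : F, s ≠ 0 ∧ IsIntegral R (h * s ^ n) := by
  have hj : j ≠ 0 := by
    rintro rfl
    exact hjt ⟨Polynomial.X, Polynomial.X_ne_zero, by simp⟩
  have G : Glue C0 Coo j := glue_of_intSub C0 Coo j hj hB0 hBoo hV hrd
  have hint : ∀ y ∈ Coo.B, IsIntegral (Algebra.adjoin R {j⁻¹}) y := by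
    intro y hy
    rw [hBoo] at hy
    exact hy
  refine ti3_final K C0 Coo qn n h g S0 Soo j hjt hB0 hBoo hV hrd q hq0 hqu n' hnn hfg
    hrad0 hradoo hpt0 (fun 𝔪 h𝔪 hex => ?_)
  by_cases hu : (⟨j⁻¹, G.inv_mem⟩ : Coo.B) ∈ 𝔪
  · refine hptoo 𝔪 h𝔪 hex (fun β hβ => ?_)
    have : β = ⟨j⁻¹, G.inv_mem⟩ := Subtype.ext hβ
    rw [this]
    exact hu
  · exact hpt_transfer G qn n h g S0 hint hpt0 𝔪 h𝔪 hex hu

end Final

end Fermat.Agent.S36.NU.H65

end
-- ==== END Fermat.Agent.S36.NU.H65_PtTransfer
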