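-- GENERATED (merged mirror, NOTES/tools/trim/merge3_helper67.py): 1 modules of the originals, bodies verbatim.
import Fermat.Agent.Zm.S36_L04_002
import Fermat.Agent.Zm.S36_L01_004
import Fermat.Agent.Zm.S35_L14_000
import Fermat.Agent.Zm.S35_L08_000

-- ==== BEGIN Fermat.Agent.S36.NU.H88_Restrict
section
attribute [local instance 10000] SubalgebraClass.toAlgebra
attribute [local instance 10000] HahnSeries.powerSeriesAlgebra

/-!
# S36, NU-B1 (helper88): the three valuations of level `M q²` restricted to level `M q`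

`α, β : F_{M q} → F_{M q²}` the degeneracy maps, `w = w_q` the Atkin–Lehner involution of level
`M q`, `z = ζ_q^B`.
* `cMid_alpha` : `cMid (α x) = x` (as series);
* `cMid_beta`  : `cMid (β x) = twist z (w x)`;
* `wSq_alpha`  : `W_{q²} (α x) = β (w x)`,  `wSq_beta : W_{q²} (β x) = α (w x)`.
-/

set_option autoImplicit false
set_option synthInstance.maxHeartbeats 400000
set_option maxHeartbeats 1000000
set_option linter.unusedSectionVars false
set_option linter.style.haveILetI false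

noncomputable section

namespace Fermat.Agent.S36.NU.H88

open Fermat.Agent.S24 Fermat.Agent.BAD.H88 ModularCurve
open Fermat.Agent.S28 Fermat.Agent.S28.H73 Fermat.Agent.RED.H73 Fermat.Agent.RED.H17
open Fermat.Agent.RED.H95

section Restrict

variable (q M : ℕ) (B k : ℤ) (hB : B * M + k * q = 1) (hq : q.Prime) [NeZero M] [NeZero q]

omit [NeZero M] [NeZero q] in
theorem hab_of_hB (hB : B * M + k * q = 1) : k * q + B * M = 1 := by
  rw [add_comm]; exact hB

theorem lvl : M * q * q = M * (q * q) := mul_assoc M q q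

include hB hq

/-- The expansion at the middle cusp of level `M q²` (level written `M * q * q`). -/
abbrev cM : FN (M * q * q) →ₐ[Kbar] LaurentSeries Kbar :=
  cMid (M * q * q) q M B k (lvl q M) hB hq

/-- `w_q` of level `M q`. -/
abbrev wL : FN (M * q) ≃ₐ[Kbar] FN (M * q) := wq q M k B (hab_of_hB q M B k hB) hq

theorem cM_jdF1 (D d d' : ℕ) (hD : D = d) (hM : M = d * d') [NeZero D] (h : D ∣ M * q * q) :
    cM q M B k hB hq (jdF (M * q * q) D h) = qExpand Kbar D jBar := by
  subst hD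
  exact cMid_jdF1 _ q M B k _ hB hq D d' hM h

theorem cM_jdF2 (D d d' : ℕ) (hD : D = d * q) (hM : M = d * d') [NeZero D]
    (h : D ∣ M * q * q) :
    cM q M B k hB hq (jdF (M * q * q) D h) = qExpand Kbar D jBar := by
  subst hD
  exact cMid_jdF2 _ q M B k _ hB hq d d' hM h

theorem cM_jdF3 (D d d' : ℕ) (hD : D = d * (q * q)) (hM : M = d * d') [NeZero D] [NeZero d]
    (h : D ∣ M * q * q) :
    cM q M B k hB hq (jdF (M * q * q) D h) = twist (zetaK q ^ B) (qExpand Kbar d jBar) := by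
  subst hD
  exact cMid_jdF3 _ q M B k _ hB hq d d' hM h

omit hB hq [NeZero M] in
theorem coe_jdF (N : ℕ) [NeZero N] (D : ℕ) [NeZero D] (hD : D ∣ N) :
    ((jdF N D hD : FN N) : LaurentSeries Kbar) = qExpand Kbar D jBar :=
  (qExpand_jBar D).symm

/-- `cMid ∘ α = ` the expansion at `∞` of level `M q`. -/
theorem cM_comp_alpha :
    (cM q M B k hB hq).comp (heckeAlphaBar Kbar (M * q) q) = (modularFunctionFieldBar (M * q)).val := by
  apply algHom_ext_of_adjoin _ (adjoin_jdF (M * q))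
  rintro x ⟨D, hD0, hD, rfl⟩
  rw [AlgHom.comp_apply, _root_.Fermat.Agent.BAD.H88.alpha_jdF]
  show _ = ((jdF (M * q) D hD : FN (M * q)) : LaurentSeries Kbar)
  rw [_root_.Fermat.Agent.S36.NU.H88.coe_jdF]
  rcases dvd_cases q M k B (hab_of_hB q M B k hB) hq D hD with ⟨e, he⟩ | ⟨d, e, hd, he⟩
  · exact cM_jdF1 q M B k hB hq D D e rfl he _
  · exact cM_jdF2 q M B k hB hq D d e hd he _

theorem cM_alpha (x : FN (M * q)) :
    cM q M B k hB hq (heckeAlphaBar Kbar (M * q) q x) = (x : LaurentSeries Kbar) :=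
  congrArg (fun f : FN (M * q) →ₐ[Kbar] LaurentSeries Kbar => f x) (cM_comp_alpha q M B k hB hq)

omit hB hq [NeZero M] in
theorem zMid_ne_zero : zetaK q ^ B ≠ 0 := zpow_ne_zero _ (zetaK_ne_zero q)

/-- `cMid ∘ β = twist z ∘ (expansion at ∞) ∘ w_q`. -/
theorem cM_comp_beta :
    (cM q M B k hB hq).comp (heckeBetaBar Kbar (M * q) q)
      = (twistAlg (zetaK q ^ B) (zMid_ne_zero q B)).comp
          ((modularFunctionFieldBar (M * q)).val.comp (wL q M B k hB hq).toAlgHom) := by
  apply algHom_ext_of_adjoin _ (adjoin_jdF (M * q))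
  rintro x ⟨D, hD0, hD, rfl⟩
  have hq0 : 0 < q := hq.pos
  haveI : NeZero (D * q) := ⟨(Nat.mul_pos (Nat.pos_of_ne_zero (NeZero.ne D)) hq0).ne'⟩
  rw [AlgHom.comp_apply, AlgHom.comp_apply, AlgHom.comp_apply, _root_.Fermat.Agent.BAD.H88.beta_jdF, twistAlg_apply]
  rcases dvd_cases q M k B (hab_of_hB q M B k hB) hq D hD with ⟨e, he⟩ | ⟨d, e, hd, he⟩
  · have h1 : (wL q M B k hB hq).toAlgHom (jdF (M * q) D hD)
        = jdF (M * q) (D * q) (Nat.mul_dvd_mul_right ⟨e, he⟩ q) :=
      wqHom_jdF q M k B (hab_of_hB q M B k hB) hq D ⟨e, he⟩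
    rw [h1]
    show _ = twist (zetaK q ^ B) ((jdF (M * q) (D * q) (Nat.mul_dvd_mul_right ⟨e, he⟩ q) :
      FN (M * q)) : LaurentSeries Kbar)
    rw [_root_.Fermat.Agent.S36.NU.H88.coe_jdF, twist_qExpand, cM_jdF2 q M B k hB hq (D * q) D e rfl he _]
    have hz : (zetaK q ^ B) ^ ((D * q : ℕ) : ℤ) = 1 := by
      rw [zpow_natCast, mul_comm, pow_mul, zMid_pow, one_pow]
    rw [hz, twist_one']
  · subst hd
    have hdpos : 0 < d := by
      rcases Nat.eq_zero_or_pos d with h | h
      · exfalso; apply NeZero.ne (d * q); rw [h, zero_mul]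
      · exact h
    haveI : NeZero d := ⟨hdpos.ne'⟩
    have h1 : (wL q M B k hB hq).toAlgHom (jdF (M * q) (d * q) hD)
        = jdF (M * q) d (Dvd.dvd.mul_right ⟨e, he⟩ q) :=
      wqHom_jdF_mul q M k B (hab_of_hB q M B k hB) hq d ⟨e, he⟩
    rw [h1]
    show _ = twist (zetaK q ^ B) ((jdF (M * q) d (Dvd.dvd.mul_right ⟨e, he⟩ q) :
      FN (M * q)) : LaurentSeries Kbar)
    rw [_root_.Fermat.Agent.S36.NU.H88.coe_jdF]
    exact cM_jdF3 q M B k hB hq (d * q * q) d e (mul_assoc d q q) he _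

theorem cM_beta (x : FN (M * q)) :
    cM q M B k hB hq (heckeBetaBar Kbar (M * q) q x)
      = twist (zetaK q ^ B) ((wL q M B k hB hq x : FN (M * q)) : LaurentSeries Kbar) :=
  congrArg (fun f : FN (M * q) →ₐ[Kbar] LaurentSeries Kbar => f x) (cM_comp_beta q M B k hB hq)

end Restrict

end Fermat.Agent.S36.NU.H88

end
end
-- ==== END Fermat.Agent.S36.NU.H88_Restrict
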