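-- GENERATED (merged mirror, NOTES/tools/trim/merge3_helper67.py): 3 modules of the originals, bodies verbatim.
import Fermat.Agent.Zm.S36_L05_001
import Fermat.Agent.Zm.S36_L05_002
import Fermat.Agent.Zm.S36_L05_003
import Fermat.Agent.Zm.S35_L04_002

-- ==== BEGIN Fermat.Agent.S36.NU.H73_GuUnit
section
attribute [local instance 10000] SubalgebraClass.toAlgebra
attribute [local instance 10000] HahnSeries.powerSeriesAlgebra

/-!
# GU-UNIT: `G_u = (θ ū)^{q-1}` for `u = Δ(t)/Δ(t⁴)` (S36 / NU-B, input of LOCEQ-(11); helper73)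

* `thetaL_uZ4_pow_D : (θ u)¹² = 3¹² v⁶ v₂¹⁶ Δ²` in `ℤ((t))`, `thetaL_ubar_pow_D` over any field.
* `Gu_ident : G¹² s² = 3^{12 n} (v̄⁶ v̄₂¹⁶)^n` for `G = (θ ū)^n`, `s = Δ̄^{-n}`, in any `E ⊆ k((t))`.
* `ord_Gu : 12 ord_z G + 2 ord_z s = 0` at every place `z` at which `j̄` is regular
  (characteristic `≠ 2, 3`); `ord_Gu_ordinary : ord_z G = 0` if `ord_z s = 0`.
* `ord_Gu_full`, `ord_Gu_ordinary_full` : the same at `κ = modularFunctionFieldFullC (kV A) M'`,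
  `n = q - 1`, `s = H(j̄) = Δ̄^{1-q}` the reduction of `Δ(t)/Δ(t^q)`: `G_u` is a unit at the
  ordinary points and has a double pole where `H(j̄)` vanishes to order `12`.
-/

set_option autoImplicit false
set_option synthInstance.maxHeartbeats 400000
set_option maxHeartbeats 1000000

noncomputable section

open ModularCurve AlgebraicCurve Fermat.Agent.S28.H73 Fermat.Agent.RED.H73 Fermat.Agent.BAD.H88
  Fermat.Agent.BAD.H82 Fermat.Agent.S24 Fermat.Agent.S28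

namespace Fermat.Agent.S36.NU.H73

open Fermat.Agent.BAD.H73 Fermat.Agent.RED.H51 Fermat.Agent.BAD.H30 Fermat.Agent.BAD.H21

section Series

/-- **`(θ u)¹² = 3¹² v⁶ v₂¹⁶ Δ²`** in `ℤ((t))`. -/
theorem thetaL_uZ4_pow_D :
    thetaL uZ4 ^ 12 = 3 ^ 12 * (Fermat.Agent.RED.H70.hZ2 ^ 6 * vZ2 ^ 16) * DZ ^ 2 := by
  rw [thetaL_uZ4]
  have hne : DZ ^ 4 * D4Z ^ 4 ≠ 0 :=
    mul_ne_zero (pow_ne_zero _ DZ_ne_zero) (pow_ne_zero _ D4Z_ne_zero)
  refine mul_right_cancel₀ hne ?_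
  have e1 := FZ_pow_twelve
  have hD2 : D2Z = vZ2 * D4Z := vZ2_mul_D4Z.symm
  have hD : DZ = Fermat.Agent.RED.H70.hZ2 * (vZ2 * D4Z) := by
    rw [← hD2, hZ2_mul_D2Z]
  rw [hD2] at e1
  generalize DZ = d at hD e1 ⊢
  subst hD
  rw [uZ4]
  linear_combination (Fermat.Agent.RED.H70.hZ2 * vZ2) ^ 12 * e1

variable (k : Type*) [Field k]

/-- **`(θ ū)¹² = 3¹² v̄⁶ v̄₂¹⁶ Δ̄²`** over any field. -/
theorem thetaL_ubar_pow_D :
    thetaL (ubar4 k) ^ 12 = 3 ^ 12 * (vbar k ^ 6 * vbar2 k ^ 16) * deltaR k ^ 2 := by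
  have h := congrArg (coeffMap (Int.castRingHom k)) thetaL_uZ4_pow_D
  simp only [map_mul, map_pow, map_ofNat] at h
  rw [← thetaL_coeffMap, coeffMap_uZ4, vZ2, coeffMap_qExpand, coeffMap_DZ] at h
  exact h

end Series

section Abs

variable {k : Type*} [Field k] {E : IntermediateField k (LaurentSeries k)}

/-- **`G¹² s² = 3^{12 n} (v̄⁶ v̄₂¹⁶)^n`** for `G = (θ ū)^n`, `s = Δ̄^{-n}`. -/
theorem Gu_ident {n : ℕ} {vE v2E GuE sE : ↥E}
    (hv : (vE : LaurentSeries k) = vbar k) (hv2 : (v2E : LaurentSeries k) = vbar2 k)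
    (hG : (GuE : LaurentSeries k) = thetaL (ubar4 k) ^ n)
    (hs : (sE : LaurentSeries k) = (deltaR k ^ n)⁻¹) :
    GuE ^ 12 * sE ^ 2 = (algebraMap k ↥E 3) ^ (12 * n) * (vE ^ 6 * v2E ^ 16) ^ n := by
  apply Subtype.ext
  have e1 : ((GuE ^ 12 * sE ^ 2 : ↥E) : LaurentSeries k)
      = (thetaL (ubar4 k) ^ n) ^ 12 * ((deltaR k ^ n)⁻¹) ^ 2 := by
    rw [IntermediateField.coe_mul, IntermediateField.coe_pow, IntermediateField.coe_pow, hG, hs]
  have e2 : (((algebraMap k ↥E 3) ^ (12 * n) * (vE ^ 6 * v2E ^ 16) ^ n : ↥E) : LaurentSeries k)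
      = 3 ^ (12 * n) * (vbar k ^ 6 * vbar2 k ^ 16) ^ n := by
    rw [IntermediateField.coe_mul, IntermediateField.coe_pow, IntermediateField.coe_pow,
      IntermediateField.coe_mul, IntermediateField.coe_pow, IntermediateField.coe_pow,
      coe_algebraMap_ofNat, hv, hv2]
  rw [e1, e2]
  have hD : deltaR k ^ n ≠ 0 := pow_ne_zero _ (deltaR_ne_zero k)
  have h := thetaL_ubar_pow_D k
  calc (thetaL (ubar4 k) ^ n) ^ 12 * ((deltaR k ^ n)⁻¹) ^ 2
      = (thetaL (ubar4 k) ^ 12) ^ n * ((deltaR k ^ n)⁻¹) ^ 2 := by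
        rw [← pow_mul, ← pow_mul, mul_comm n 12]
    _ = 3 ^ (12 * n) * (vbar k ^ 6 * vbar2 k ^ 16) ^ n
          * ((deltaR k ^ n) ^ 2 * ((deltaR k ^ n)⁻¹) ^ 2) := by
        rw [h, mul_pow, mul_pow, ← pow_mul, ← pow_mul, ← pow_mul, mul_comm 2 n]
        ring
    _ = 3 ^ (12 * n) * (vbar k ^ 6 * vbar2 k ^ 16) ^ n := by
        rw [← mul_pow, mul_inv_cancel₀ hD, one_pow, mul_one]

/-- **`12 ord_z G_u + 2 ord_z s = 0`** at every place at which `j̄` is regular. -/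
theorem ord_Gu (z : Place k ↥E) (h2 : (2 : k) ≠ 0) (h3 : (3 : k) ≠ 0) {n : ℕ}
    {jE vE v2E GuE sE : ↥E} (hj : (jE : LaurentSeries k) = jqModC k)
    (hv : (vE : LaurentSeries k) = vbar k) (hv2 : (v2E : LaurentSeries k) = vbar2 k)
    (hG : (GuE : LaurentSeries k) = thetaL (ubar4 k) ^ n)
    (hs : (sE : LaurentSeries k) = (deltaR k ^ n)⁻¹)
    (hjO : jE ∈ z.toValuationSubring) :
    GuE ≠ 0 ∧ sE ≠ 0 ∧ 12 * z.ord GuE + 2 * z.ord sE = 0 := by
  obtain ⟨hvU, hv2U⟩ := unit_v z h2 hj hv hv2 hjO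
  have hid := Gu_ident (n := n) hv hv2 hG hs
  have hs0 : sE ≠ 0 := by
    intro h0
    have h1 : (sE : LaurentSeries k) = 0 := by rw [h0]; rfl
    rw [hs] at h1
    exact inv_ne_zero (pow_ne_zero _ (deltaR_ne_zero k)) h1
  have h3E : algebraMap k ↥E 3 ≠ 0 := by
    rw [Ne, map_eq_zero]; exact h3
  have hR0 : (algebraMap k ↥E 3) ^ (12 * n) * (vE ^ 6 * v2E ^ 16) ^ n ≠ 0 :=
    mul_ne_zero (pow_ne_zero _ h3E)
      (pow_ne_zero _ (mul_ne_zero (pow_ne_zero _ hvU.1) (pow_ne_zero _ hv2U.1)))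
  have hG0 : GuE ≠ 0 := by
    rintro rfl
    rw [zero_pow (by norm_num), zero_mul] at hid
    exact hR0 hid.symm
  refine ⟨hG0, hs0, ?_⟩
  have h := congrArg z.ord hid
  rw [z.ord_mul (pow_ne_zero _ hG0) (pow_ne_zero _ hs0), ord_pow, ord_pow,
    z.ord_mul (pow_ne_zero _ h3E)
      (pow_ne_zero _ (mul_ne_zero (pow_ne_zero _ hvU.1) (pow_ne_zero _ hv2U.1))),
    ord_pow, ord_pow, z.ord_mul (pow_ne_zero _ hvU.1) (pow_ne_zero _ hv2U.1), ord_pow, ord_pow,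
    ord_algebraMap, hvU.2, hv2U.2] at h
  push_cast at h
  simp only [mul_zero, add_zero] at h
  linarith

/-- **GU-UNIT**: `G_u` is a unit at every place at which `j̄` is regular and `s = Δ̄^{-n}` is a
unit. -/
theorem ord_Gu_ordinary (z : Place k ↥E) (h2 : (2 : k) ≠ 0) (h3 : (3 : k) ≠ 0) {n : ℕ}
    {jE vE v2E GuE sE : ↥E} (hj : (jE : LaurentSeries k) = jqModC k)
    (hv : (vE : LaurentSeries k) = vbar k) (hv2 : (v2E : LaurentSeries k) = vbar2 k)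
    (hG : (GuE : LaurentSeries k) = thetaL (ubar4 k) ^ n)
    (hs : (sE : LaurentSeries k) = (deltaR k ^ n)⁻¹)
    (hjO : jE ∈ z.toValuationSubring) (hs0 : z.ord sE = 0) :
    GuE ≠ 0 ∧ z.ord GuE = 0 := by
  obtain ⟨hG0, -, h⟩ := ord_Gu z h2 h3 hj hv hv2 hG hs hjO
  refine ⟨hG0, ?_⟩
  rw [hs0] at h
  omega

end Abs

section Concrete

variable (A : ValuationSubring Kbar) (q : ℕ) (hq : q.Prime) (hA : A.LiesOverPrime q)
variable (M' : ℕ) [NeZero M']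

include hq hA in
/-- `12 ord_z G_u + 2 ord_z H(j̄) = 0` at every place `z` of `κ` at which `j̄` is regular
(`q ≥ 5`, `q ∤ M'`, `4 ∣ M'`; `G_u = (θ ū)^{q-1}`, `H(j̄) = Δ̄^{1-q}`). -/
theorem ord_Gu_full (hqM : ¬ q ∣ M') (h5 : 5 ≤ q) (h4 : 4 ∣ M')
    (z : Place (kV A) ↥(modularFunctionFieldFullC (kV A) M'))
    (hz : 0 ≤ z.ord (⟨jqModC (kV A), jqModC_mem_full (kV A) M'⟩ :
      ↥(modularFunctionFieldFullC (kV A) M')))
    {GuE sE : ↥(modularFunctionFieldFullC (kV A) M')}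
    (hG : (GuE : LaurentSeries (kV A)) = thetaL (ubar4 (kV A)) ^ (q - 1))
    (hs : (sE : LaurentSeries (kV A)) = (deltaR (kV A) ^ (q - 1))⁻¹) :
    GuE ≠ 0 ∧ sE ≠ 0 ∧ 12 * z.ord GuE + 2 * z.ord sE = 0 := by
  have : Fact q.Prime := ⟨hq⟩
  have : CharP (kV A) q := charP_kV A hq hA
  have h2 : 2 ∣ M' := Dvd.dvd.trans (by norm_num) h4
  have hjne : (⟨jqModC (kV A), jqModC_mem_full (kV A) M'⟩ :
      ↥(modularFunctionFieldFullC (kV A) M')) ≠ 0 := by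
    intro h0
    have h1 := congrArg (fun x : ↥(modularFunctionFieldFullC (kV A) M') =>
      (x : LaurentSeries (kV A)).coeff (-1)) h0
    simp only [ZeroMemClass.coe_zero, HahnSeries.coeff_zero] at h1
    rw [coeff_jqModC_neg_one] at h1
    exact one_ne_zero h1
  exact ord_Gu z (two_ne_zero_of_five_le h5) (three_ne_zero_of_five_le h5)
    (jE := ⟨jqModC (kV A), jqModC_mem_full (kV A) M'⟩)
    (vE := ⟨vbar (kV A), vbar_mem A q hq hA M' hqM h2⟩)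
    (v2E := ⟨vbar2 (kV A), vbar2_mem A q hq hA M' hqM h4⟩) rfl rfl rfl hG hs
    ((mem_iff_ord_nonneg z hjne).mpr hz)

include hq hA in
/-- **GU-UNIT** at `κ`: `G_u = (θ ū)^{q-1}` is a unit at every ordinary place (`j̄` regular,
`H(j̄) = Δ̄^{1-q}` a unit). -/
theorem ord_Gu_ordinary_full (hqM : ¬ q ∣ M') (h5 : 5 ≤ q) (h4 : 4 ∣ M')
    (z : Place (kV A) ↥(modularFunctionFieldFullC (kV A) M'))
    (hz : 0 ≤ z.ord (⟨jqModC (kV A), jqModC_mem_full (kV A) M'⟩ :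
      ↥(modularFunctionFieldFullC (kV A) M')))
    {GuE sE : ↥(modularFunctionFieldFullC (kV A) M')}
    (hG : (GuE : LaurentSeries (kV A)) = thetaL (ubar4 (kV A)) ^ (q - 1))
    (hs : (sE : LaurentSeries (kV A)) = (deltaR (kV A) ^ (q - 1))⁻¹) (hs0 : z.ord sE = 0) :
    GuE ≠ 0 ∧ z.ord GuE = 0 := by
  obtain ⟨hG0, -, h⟩ := ord_Gu_full A q hq hA M' hqM h5 h4 z hz hG hs
  refine ⟨hG0, ?_⟩
  rw [hs0] at h
  omega

end Concrete

end Fermat.Agent.S36.NU.H73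

end
end
-- ==== END Fermat.Agent.S36.NU.H73_GuUnit

-- ==== BEGIN Fermat.Agent.S36.NU.H79_NUGlue
section

/-!
# S36 / NU-B (helper79): the field `glue` of `NUData` follows from the other fields

`NUPre` : the datum `NUData` WITHOUT the field `glue` (GLUE3 at the triple points), with the
regular form `regα` of `fibα` instead (norms of functions regular on the fibre of `z` are regular
on the fibre of `zα z`).

`NUPre.glue` : GLUE3 at the triple points, from the norm formulas along `α`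
(`TotN.isGlued` + `TotN.normVal_of_norm`: the lower level is `T'`, the node is `zα z`, the first
side carries `i₂₀`, `i₁₁`, the second side `i₀₂`, the exponents are `1`, `q - 1`, `q`).

`NUPre.toNUData` : the datum `NUData`.
-/

set_option autoImplicit false
set_option linter.style.haveILetI false

noncomputable section

open AlgebraicCurve

attribute [local instance] Classical.propDecidable

namespace Fermat.Agent.S36.NU.H79

open Fermat.Agent.RED.H17 Fermat.Agent.RED Fermat.Agent.BAD.H79 Fermat.Agent.BAD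

/-- **The datum of the two levels without GLUE3.** -/
structure NUPre (K L₀ L k ι Z : Type*) (E : ι → Type*) (K' L' L₁ L₂ : Type*)
    [Field K] [Field L₀] [Field L] [Algebra K L] [Algebra L₀ L] [Field k] [Fintype ι]
    [∀ i, Field (E i)] [∀ i, Algebra k (E i)] [Field K'] [Field L'] [Algebra K' L']
    [Field L₁] [Algebra k L₁] [Field L₂] [Algebra k L₂] where
  /-- the conservation datum of the higher level -/
  T : TotN K L₀ L k ι Z E
  /-- the conservation datum of the lower level -/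
  T' : TotData K' L' k L₁ L₂
  /-- the three components -/
  i₂₀ : ι
  i₁₁ : ι
  i₀₂ : ι
  cases : ∀ i, i = i₂₀ ∨ i = i₁₁ ∨ i = i₀₂
  ne₁ : i₂₀ ≠ i₁₁
  ne₂ : i₂₀ ≠ i₀₂
  ne₃ : i₁₁ ≠ i₀₂
  /-- the residue characteristic -/
  q : ℕ
  /-- the norms along the two degeneracy maps -/
  Nα : L₀ →* L'
  Nβ : L₀ →* L'
  /-- the norms of the residue fields -/
  A₂₀ : ResNorm k (E i₂₀) L₁
  A₁₁ : ResNorm k (E i₁₁) L₁
  A₀₂ : ResNorm k (E i₀₂) L₂
  B₂₀ : ResNorm k (E i₂₀) L₁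
  B₁₁ : ResNorm k (E i₁₁) L₂
  B₀₂ : ResNorm k (E i₀₂) L₂
  fA₂₀ : A₂₀.f = 1
  fA₁₁ : A₁₁.f = 1
  fA₀₂ : A₀₂.f = q
  fB₂₀ : B₂₀.f = q
  fB₁₁ : B₁₁.f = 1
  fB₀₂ : B₀₂.f = 1
  /-- NORM-RED with ramification, for units -/
  normα₁ : ∀ h : L₀, (∀ i, T.rdN i h ≠ 0) →
    T'.p₁.rd (Nα h) = A₂₀.N (T.rdN i₂₀ h) * A₁₁.N (T.rdN i₁₁ h) ^ (q - 1)
  normα₂ : ∀ h : L₀, (∀ i, T.rdN i h ≠ 0) → T'.p₂.rd (Nα h) = A₀₂.N (T.rdN i₀₂ h)
  normβ₁ : ∀ h : L₀, (∀ i, T.rdN i h ≠ 0) → T'.p₁.rd (Nβ h) = B₂₀.N (T.rdN i₂₀ h)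
  normβ₂ : ∀ h : L₀, (∀ i, T.rdN i h ≠ 0) →
    T'.p₂.rd (Nβ h) = B₁₁.N (T.rdN i₁₁ h) ^ (q - 1) * B₀₂.N (T.rdN i₀₂ h)
  /-- the triple points -/
  SS : Set Z
  /-- the node of the lower level below a triple point, along `α` -/
  zα : Z → Place k L₁
  /-- the node of the lower level below a triple point, along `β` -/
  zβ : Z → Place k L₁
  nodeα : ∀ z ∈ SS, T'.IsNode (zα z)
  nodeβ : ∀ z ∈ SS, T'.IsNode (zβ z)
  /-- norms of functions without zero or pole on the fibre of `z` -/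
  fibα : ∀ z ∈ SS, ∀ h : L₀, (∀ P, T.ρ P = z → P.ord (algebraMap L₀ L h) = 0) →
    ∀ Q, T'.ρ Q = zα z → Q.ord (Nα h) = 0
  fibβ : ∀ z ∈ SS, ∀ h : L₀, (∀ P, T.ρ P = z → P.ord (algebraMap L₀ L h) = 0) →
    ∀ Q, T'.ρ Q = zβ z → Q.ord (Nβ h) = 0
  /-- the points of the components lie over the branches of the nodes -/
  ptA₂₀ : ∀ z ∈ SS, ∀ (y : L₁) (a : k),
    HasValue (T.pt i₂₀ z) (A₂₀.j y) a → HasValue (zα z) y a
  ptA₁₁ : ∀ z ∈ SS, ∀ (y : L₁) (a : k),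
    HasValue (T.pt i₁₁ z) (A₁₁.j y) a → HasValue (zα z) y a
  ptA₀₂ : ∀ z ∈ SS, ∀ (y : L₂) (a : k),
    HasValue (T.pt i₀₂ z) (A₀₂.j y) a → HasValue (T'.β (zα z)) y a
  ptB₂₀ : ∀ z ∈ SS, ∀ (y : L₁) (a : k),
    HasValue (T.pt i₂₀ z) (B₂₀.j y) a → HasValue (zβ z) y a
  ptB₁₁ : ∀ z ∈ SS, ∀ (y : L₂) (a : k),
    HasValue (T.pt i₁₁ z) (B₁₁.j y) a → HasValue (T'.β (zβ z)) y a
  ptB₀₂ : ∀ z ∈ SS, ∀ (y : L₂) (a : k),
    HasValue (T.pt i₀₂ z) (B₀₂.j y) a → HasValue (T'.β (zβ z)) y a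
  /-- norms of functions regular on the fibre of `z` -/
  regα : ∀ z ∈ SS, ∀ h : L₀, (∀ P, T.ρ P = z → RegAt P (algebraMap L₀ L h)) →
    ∀ Q, T'.ρ Q = zα z → RegAt Q (Nα h)
  deg_one : ∀ z ∈ SS, ∀ i, (T.pt i z).deg = 1

namespace NUPre

variable {K L₀ L k ι Z : Type*} {E : ι → Type*} {K' L' L₁ L₂ : Type*}
  [Field K] [Field L₀] [Field L] [Algebra K L] [Algebra L₀ L] [Field k] [Fintype ι]
  [∀ i, Field (E i)] [∀ i, Algebra k (E i)] [Field K'] [Field L'] [Algebra K' L']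
  [Field L₁] [Algebra k L₁] [Field L₂] [Algebra k L₂]
  (P : NUPre K L₀ L k ι Z E K' L' L₁ L₂)

/-- The norms of the residue fields on the first side of `α`, as a family. -/
def famN₁ : ∀ i, E i → L₁ := fun i =>
  if h0 : i = P.i₂₀ then fun x => P.A₂₀.N (h0 ▸ x)
  else if h1 : i = P.i₁₁ then fun x => P.A₁₁.N (h1 ▸ x)
  else fun _ => 1

/-- The norm of the residue field on the second side of `α`, as a family. -/
def famN₂ : ∀ i, E i → L₂ := fun i =>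
  if h2 : i = P.i₀₂ then fun x => P.A₀₂.N (h2 ▸ x) else fun _ => 1

theorem famN₁_i₂₀ (x : E P.i₂₀) : P.famN₁ P.i₂₀ x = P.A₂₀.N x := by
  unfold famN₁
  rw [dif_pos rfl]

theorem famN₁_i₁₁ (x : E P.i₁₁) : P.famN₁ P.i₁₁ x = P.A₁₁.N x := by
  unfold famN₁
  rw [dif_neg P.ne₁.symm, dif_pos rfl]

theorem famN₂_i₀₂ (x : E P.i₀₂) : P.famN₂ P.i₀₂ x = P.A₀₂.N x := by
  unfold famN₂
  rw [dif_pos rfl]

/-- The ramification indices. -/
def famE : ι → ℕ := fun i => if i = P.i₁₁ then P.q - 1 else 1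

/-- The residue degrees along `α`. -/
def famF : ι → ℕ := fun i => if i = P.i₀₂ then P.q else 1

theorem famE_i₂₀ : P.famE P.i₂₀ = 1 := by
  unfold famE; rw [if_neg P.ne₁]

theorem famE_i₁₁ : P.famE P.i₁₁ = P.q - 1 := by
  unfold famE; rw [if_pos rfl]

theorem famE_i₀₂ : P.famE P.i₀₂ = 1 := by
  unfold famE; rw [if_neg P.ne₃.symm]

theorem famF_i₂₀ : P.famF P.i₂₀ = 1 := by
  unfold famF; rw [if_neg P.ne₂]

theorem famF_i₁₁ : P.famF P.i₁₁ = 1 := by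
  unfold famF; rw [if_neg P.ne₃]

theorem famF_i₀₂ : P.famF P.i₀₂ = P.q := by
  unfold famF; rw [if_pos rfl]

/-- The hypothesis `NormVal` of GLUE3 at a triple point. -/
theorem normVal {z : Z} (hz : z ∈ P.SS) :
    P.T.NormVal P.T' P.Nα z (P.zα z) {P.i₂₀, P.i₁₁} {P.i₀₂}
      (fun i => P.famF i * P.famE i) := by
  refine TotN.normVal_of_norm P.famN₁ P.famN₂ P.famE P.famF ?_ ?_ ?_ ?_ ?_
  · -- `hmem`
    intro h hR hu
    have h1 : P.T'.p₁.rd (P.Nα h) ≠ 0 := by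
      rw [P.normα₁ h hu]
      exact mul_ne_zero (P.A₂₀.N_ne_zero (hu _)) (pow_ne_zero _ (P.A₁₁.N_ne_zero (hu _)))
    have h2 : P.T'.p₂.rd (P.Nα h) ≠ 0 := by
      rw [P.normα₂ h hu]
      exact P.A₀₂.N_ne_zero (hu _)
    exact ⟨(isGU_of_rd_ne_zero _ h1).mem, (isGU_of_rd_ne_zero _ h2).mem,
      fun Q hQ => P.regα z hz h hR.2 Q hQ⟩
  · -- `hred₁`
    intro h _ hu
    rw [P.normα₁ h hu, Finset.prod_pair P.ne₁, famN₁_i₂₀, famN₁_i₁₁, famE_i₂₀, famE_i₁₁,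
      pow_one]
  · -- `hred₂`
    intro h _ hu
    rw [P.normα₂ h hu, Finset.prod_singleton, famN₂_i₀₂, famE_i₀₂, pow_one]
  · -- `hval₁`
    intro i hi x a hx
    rw [Finset.mem_insert, Finset.mem_singleton] at hi
    rcases hi with rfl | rfl
    · rw [famN₁_i₂₀, famF_i₂₀, ← P.fA₂₀]
      exact P.A₂₀.hasValue_N (P.ptA₂₀ z hz) hx
    · rw [famN₁_i₁₁, famF_i₁₁, ← P.fA₁₁]
      exact P.A₁₁.hasValue_N (P.ptA₁₁ z hz) hx
  · -- `hval₂`
    intro i hi x a hx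
    rw [Finset.mem_singleton] at hi
    subst hi
    rw [famN₂_i₀₂, famF_i₀₂, ← P.fA₀₂]
    exact P.A₀₂.hasValue_N (P.ptA₀₂ z hz) hx

/-- **GLUE3 at the triple points**, from the norm formulas along `α`. -/
theorem glue [Infinite k] (hP : HasPrincipalDivisors K L) (hq : 2 ≤ P.q) (z : Z)
    (hz : z ∈ P.SS) (f : L₀) (hf : P.T.InR z f) (i j : ι) (c : k) :
    HasValue (P.T.pt i z) (P.T.rdN i f) c ↔ HasValue (P.T.pt j z) (P.T.rdN j f) c := by
  refine TotN.isGlued hP (P.normVal hz) (P.nodeα z hz) ?_ (P.deg_one z hz) hf i j c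
  intro l hl
  rcases P.cases l with rfl | rfl | rfl
  · refine ⟨Finset.mem_insert_self _ _, ?_⟩
    show 0 < P.famF P.i₂₀ * P.famE P.i₂₀
    rw [famF_i₂₀, famE_i₂₀]
    exact Nat.one_pos
  · refine ⟨Finset.mem_insert_of_mem (Finset.mem_singleton_self _), ?_⟩
    show 0 < P.famF P.i₁₁ * P.famE P.i₁₁
    rw [famF_i₁₁, famE_i₁₁]
    omega
  · exact absurd rfl hl

/-- **The datum of the two levels**, with GLUE3 from the norm formulas. -/
def toNUData [Infinite k] (hP : HasPrincipalDivisors K L) (hq : 2 ≤ P.q) :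
    NUData K L₀ L k ι Z E K' L' L₁ L₂ where
  T := P.T
  T' := P.T'
  i₂₀ := P.i₂₀
  i₁₁ := P.i₁₁
  i₀₂ := P.i₀₂
  cases := P.cases
  ne₁ := P.ne₁
  ne₂ := P.ne₂
  ne₃ := P.ne₃
  q := P.q
  Nα := P.Nα
  Nβ := P.Nβ
  A₂₀ := P.A₂₀
  A₁₁ := P.A₁₁
  A₀₂ := P.A₀₂
  B₂₀ := P.B₂₀
  B₁₁ := P.B₁₁
  B₀₂ := P.B₀₂
  fA₂₀ := P.fA₂₀
  fA₁₁ := P.fA₁₁
  fA₀₂ := P.fA₀₂
  fB₂₀ := P.fB₂₀
  fB₁₁ := P.fB₁₁
  fB₀₂ := P.fB₀₂
  normα₁ := P.normα₁
  normα₂ := P.normα₂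
  normβ₁ := P.normβ₁
  normβ₂ := P.normβ₂
  SS := P.SS
  zα := P.zα
  zβ := P.zβ
  nodeα := P.nodeα
  nodeβ := P.nodeβ
  fibα := P.fibα
  fibβ := P.fibβ
  ptA₂₀ := P.ptA₂₀
  ptA₁₁ := P.ptA₁₁
  ptA₀₂ := P.ptA₀₂
  ptB₂₀ := P.ptB₂₀
  ptB₁₁ := P.ptB₁₁
  ptB₀₂ := P.ptB₀₂
  glue := P.glue hP hq
  deg_one := P.deg_one

end NUPre

end Fermat.Agent.S36.NU.H79

end
end
-- ==== END Fermat.Agent.S36.NU.H79_NUGlue

-- ==== BEGIN Fermat.Agent.S36.NU.H88_Restrict2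
section

/-!
# S36, NU-B1 (helper88): restriction of `V₂₀`, `V₁₁`, `V₀₂` (level `M q²`) to level `M q`

`α, β : F_{M q} → F_{M q²}` the degeneracy maps, `w = w_q` the Atkin–Lehner involution of level
`M q`, `V' = V₂₀ A (M q)` the Gauss valuation at `∞` of level `M q` (`= BAD.H88.V1`),
`V'₂ = V' ∘ w` (`= BAD.H88.V2`).

|        | `V₂₀`            | `V₁₁`        | `V₀₂`               |
|  `α⁻¹` | `V'`,  `red`     | `V'`, `red`  | `V'₂`, `Fr ∘ red∘w` |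
|  `β⁻¹` | `V'`, `Fr ∘ red` | `V'₂`, `red∘w` | `V'₂`, `red ∘ w`  |

(`Fr = (t ↦ t^q)`; the formula for `red₁₁ ∘ β` needs `A` over `q`, in general there is a twist by
the residue of `ζ_q^B`.)
-/

set_option autoImplicit false
set_option synthInstance.maxHeartbeats 400000
set_option maxHeartbeats 1000000
set_option linter.unusedSectionVars false
set_option linter.style.haveILetI false

noncomputable section

namespace Fermat.Agent.S36.NU.H88

open Fermat.Agent.S24 Fermat.Agent.BAD.H88 ModularCurve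
open Fermat.Agent.S28 Fermat.Agent.S28.H73 Fermat.Agent.RED.H73 Fermat.Agent.RED.H17
open Fermat.Agent.RED.H95 Fermat.Agent.RED.H10

section Restrict2

variable (A : ValuationSubring Kbar)
variable (q M : ℕ) (B k : ℤ) (hB : B * M + k * q = 1) (hq : q.Prime) [NeZero M] [NeZero q]

/-! ### `V₂₀` -/

/-- `α x ∈ V₂₀ ↔ x ∈ V'`. -/
theorem alpha_mem_V20_iff (x : FN (M * q)) :
    heckeAlphaBar Kbar (M * q) q x ∈ V20 A (M * q * q) ↔ x ∈ V20 A (M * q) :=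
  alpha_mem_V1_iff A q (M * q) x

/-- `β x ∈ V₂₀ ↔ x ∈ V'`. -/
theorem beta_mem_V20_iff (x : FN (M * q)) :
    heckeBetaBar Kbar (M * q) q x ∈ V20 A (M * q * q) ↔ x ∈ V20 A (M * q) :=
  beta_mem_V1_iff A q (M * q) x

/-- `red₂₀ (α x) = red' x`. -/
theorem red20_alpha (x : FN (M * q)) (h : x ∈ V20 A (M * q))
    (h' : heckeAlphaBar Kbar (M * q) q x ∈ V20 A (M * q * q)) :
    ((red20 A (M * q * q) ⟨_, h'⟩ : F20 A (M * q * q)) : LaurentSeries (kV A))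
      = ((red20 A (M * q) ⟨x, h⟩ : F20 A (M * q)) : LaurentSeries (kV A)) :=
  red1_alpha A q (M * q) x h h'

/-- `red₂₀ (β x) = (red' x)(t^q)`. -/
theorem red20_beta (x : FN (M * q)) (h : x ∈ V20 A (M * q))
    (h' : heckeBetaBar Kbar (M * q) q x ∈ V20 A (M * q * q)) :
    ((red20 A (M * q * q) ⟨_, h'⟩ : F20 A (M * q * q)) : LaurentSeries (kV A))
      = qExpand (kV A) q ((red20 A (M * q) ⟨x, h⟩ : F20 A (M * q)) : LaurentSeries (kV A)) :=
  red1_beta A q (M * q) x h h'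

/-! ### `V₁₁` -/

include hB hq

/-- `α x ∈ V₁₁ ↔ x ∈ V'`. -/
theorem alpha_mem_V11_iff (x : FN (M * q)) :
    heckeAlphaBar Kbar (M * q) q x ∈ V11 A (M * q * q) q M B k (lvl q M) hB hq
      ↔ x ∈ V20 A (M * q) := by
  rw [mem_V11_iff, mem_V20_iff]
  have e : cMid (M * q * q) q M B k (lvl q M) hB hq (heckeAlphaBar Kbar (M * q) q x)
      = (x : LaurentSeries Kbar) := cM_alpha q M B k hB hq x
  rw [e]

/-- `red₁₁ (α x) = red' x`. -/
theorem red11_alpha (x : FN (M * q)) (h : x ∈ V20 A (M * q))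
    (h' : heckeAlphaBar Kbar (M * q) q x ∈ V11 A (M * q * q) q M B k (lvl q M) hB hq) :
    ((red11 A (M * q * q) q M B k (lvl q M) hB hq ⟨_, h'⟩ :
        F11 A (M * q * q) q M B k (lvl q M) hB hq) : LaurentSeries (kV A))
      = ((red20 A (M * q) ⟨x, h⟩ : F20 A (M * q)) : LaurentSeries (kV A)) := by
  rw [coe_red11, coe_gaussResF'_eq]
  congr 1
  exact Subtype.ext (cM_alpha q M B k hB hq x)

omit hB hq [NeZero M] in
/-- `ζ_q^B` as a unit of `A`. -/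
def zUnit (hq : q.Prime) : (↥A)ˣ :=
  haveI : Fact q.Prime := ⟨hq⟩
  { val := ⟨zetaK q ^ B, mem_of_pow_eq_one' A q (zMid_pow q B)⟩
    inv := ⟨(zetaK q ^ B)⁻¹, mem_of_pow_eq_one' A q (by rw [inv_pow, zMid_pow, inv_one])⟩
    val_inv := Subtype.ext (mul_inv_cancel₀ (zMid_ne_zero q B))
    inv_val := Subtype.ext (inv_mul_cancel₀ (zMid_ne_zero q B)) }

omit hB hq [NeZero M] in
theorem coe_zUnit (hq : q.Prime) : (((zUnit A q B hq : (↥A)ˣ) : ↥A) : Kbar) = zetaK q ^ B := rfl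

omit hB hq [NeZero M] in
theorem coe_zUnit_inv (hq : q.Prime) :
    ((((zUnit A q B hq)⁻¹ : (↥A)ˣ) : ↥A) : Kbar) = (zetaK q ^ B)⁻¹ := rfl

omit hB hq [NeZero M] in
/-- The twist by `ζ_q^B` preserves the Gauss ring, in both directions. -/
theorem twist_z_mem_iff (hq : q.Prime) (x : LaurentSeries Kbar) :
    twist (zetaK q ^ B) x ∈ gaussRingV A ↔ x ∈ gaussRingV A := by
  constructor
  · intro h
    have h1 := twist_mem_gaussRingV A (zUnit A q B hq)⁻¹ h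
    rw [coe_zUnit_inv, twist_twist, inv_mul_cancel₀ (zMid_ne_zero q B), twist_one_left] at h1
    exact h1
  · intro h
    exact twist_mem_gaussRingV A (zUnit A q B hq) h

/-- `β x ∈ V₁₁ ↔ w x ∈ V'` (i.e. `x ∈ V'₂`). -/
theorem beta_mem_V11_iff (x : FN (M * q)) :
    heckeBetaBar Kbar (M * q) q x ∈ V11 A (M * q * q) q M B k (lvl q M) hB hq
      ↔ wL q M B k hB hq x ∈ V20 A (M * q) := by
  rw [mem_V11_iff, mem_V20_iff]
  have e : cMid (M * q * q) q M B k (lvl q M) hB hq (heckeBetaBar Kbar (M * q) q x)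
      = twist (zetaK q ^ B) ((wL q M B k hB hq x : FN (M * q)) : LaurentSeries Kbar) :=
    cM_beta q M B k hB hq x
  rw [e]
  exact twist_z_mem_iff A q B hq _

/-- `red₁₁ (β x) = rot z̄ (red' (w x))`, `z̄` the residue of `ζ_q^B`. -/
theorem red11_beta_rot (x : FN (M * q)) (h : wL q M B k hB hq x ∈ V20 A (M * q))
    (h' : heckeBetaBar Kbar (M * q) q x ∈ V11 A (M * q * q) q M B k (lvl q M) hB hq) :
    ((red11 A (M * q * q) q M B k (lvl q M) hB hq ⟨_, h'⟩ :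
        F11 A (M * q * q) q M B k (lvl q M) hB hq) : LaurentSeries (kV A))
      = rot (Units.map (resV A : ↥A →* kV A) (zUnit A q B hq))
          ((red20 A (M * q) ⟨wL q M B k hB hq x, h⟩ : F20 A (M * q)) : LaurentSeries (kV A)) := by
  rw [coe_red11, coe_gaussResF'_eq]
  have hm : twist (((zUnit A q B hq : (↥A)ˣ) : ↥A) : Kbar)
      ((wL q M B k hB hq x : FN (M * q)) : LaurentSeries Kbar) ∈ gaussRingV A :=
    twist_mem_gaussRingV A (zUnit A q B hq) h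
  rw [← gaussRedV_twist A (zUnit A q B hq) ⟨_, h⟩ hm]
  congr 1
  exact Subtype.ext (cM_beta q M B k hB hq x)

omit hB [NeZero M] in
/-- Over `q` the residue of `ζ_q^B` is `1`. -/
theorem resV_zUnit (hA : (q : Kbar) ∈ A.nonunits) :
    resV A ((zUnit A q B hq : (↥A)ˣ) : ↥A) = 1 := by
  haveI : CharP (kV A) q := Fermat.Agent.BAD.H82.charP_kV A hq hA
  haveI : Fact q.Prime := ⟨hq⟩
  have h1 : ((zUnit A q B hq : (↥A)ˣ) : ↥A) ^ q = 1 := by
    apply Subtype.ext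
    show (zetaK q ^ B) ^ q = 1
    exact zMid_pow q B
  have h2 : (resV A ((zUnit A q B hq : (↥A)ˣ) : ↥A) - 1) ^ q = 0 := by
    rw [sub_pow_char, ← map_pow, h1, map_one, one_pow, sub_self]
  have h3 := pow_eq_zero_iff (hq.ne_zero) |>.mp h2
  exact sub_eq_zero.mp h3

/-- `red₁₁ (β x) = red' (w x)` when `A` lies over `q`. -/
theorem red11_beta (hA : (q : Kbar) ∈ A.nonunits) (x : FN (M * q))
    (h : wL q M B k hB hq x ∈ V20 A (M * q))
    (h' : heckeBetaBar Kbar (M * q) q x ∈ V11 A (M * q * q) q M B k (lvl q M) hB hq) :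
    ((red11 A (M * q * q) q M B k (lvl q M) hB hq ⟨_, h'⟩ :
        F11 A (M * q * q) q M B k (lvl q M) hB hq) : LaurentSeries (kV A))
      = ((red20 A (M * q) ⟨wL q M B k hB hq x, h⟩ : F20 A (M * q)) : LaurentSeries (kV A)) := by
  rw [red11_beta_rot A q M B k hB hq x h h']
  have h1 : Units.map (resV A : ↥A →* kV A) (zUnit A q B hq) = 1 :=
    Units.ext (resV_zUnit A q B hq hA)
  rw [h1, rot_one]

end Restrict2

end Fermat.Agent.S36.NU.H88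

end
end
-- ==== END Fermat.Agent.S36.NU.H88_Restrict2
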