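-- GENERATED (merged mirror, NOTES/tools/trim/merge3_helper67.py): 3 modules of the originals, bodies verbatim.
import Fermat.Agent.Zm.S36_L06_000
import Fermat.Agent.Zm.S35_L05_002
import Fermat.Agent.Zm.S36_L06_001

-- ==== BEGIN Fermat.Agent.S36.NU.H5_Q23Two
section
attribute [local instance 10000] SubalgebraClass.toAlgebra
attribute [local instance 10000] HahnSeries.powerSeriesAlgebra

/-!
# S36 / NU-B, leaf Q23 (helper5): POLE for `q = 2` (auxiliary level `9`)

Characteristic `2`.  `j₀ = j̄`, `j₁ = j̄(t³)`, `j₂ = j̄(t⁹)`, `v₁ = h̄₃` (`v₁² = j₁ / j₀`),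
`v = h̄₃(t³)`, `h = v (v₁ + 1) / (v + 1)` (the reduction of the Hauptmodul `η(τ)³ / η(9τ)³` of
`X₀(9)`).

* `q23_two_ode` : `θ h · (h + 1)² = h (h² + h + 1)`;
* `q23_two_jh` : `j₀ h⁹ (h² + h + 1) = (h + 1)¹²`;
* `q23_ord_dbar_two` : **POLE for `q = 2`**: in a field `E ⊆ k((t))` with `[E : E²] = 2` containing
  `j̄, j̄(t³), j̄(t⁹)`, at every place `z` with `ord_z j̄ > 0` (supersingular) and every coordinate `ū`
  at `z` with THETA and (L1): `c⁴ = c` and `ord_z d̄ = -1`.  No ramification input.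
-/

set_option autoImplicit false

noncomputable section

open ModularCurve AlgebraicCurve IntermediateField

namespace Fermat.Agent.S36.NU.H5

open Fermat.Agent.RED.H51 Fermat.Agent.S36.NU.H73

section TwoSeries

variable (k : Type*) [Field k]

/-- `h̄₃`, the reduction of `η(t)¹² / η(t³)¹²`. -/
def q23V1 : LaurentSeries k := coeffMap (Int.castRingHom k) Fermat.Agent.RED.H29.hZ3

/-- `h̄₃(t³)`. -/
def q23V : LaurentSeries k := qExpand k 3 (q23V1 k)

/-- The reduction of the Hauptmodul of `X₀(9)` in characteristic `2`. -/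
def q23H2 : LaurentSeries k := q23V k * (q23V1 k + 1) / (q23V k + 1)

variable {k}

theorem q23V1_coeff_neg_one : (q23V1 k).coeff (-1) = 1 := by
  rw [q23V1, coeffMap_coeff, Fermat.Agent.RED.H29.coeff_hZ3_neg_one, map_one]

theorem q23V1_ne_zero : q23V1 k ≠ 0 := by
  intro h
  have h1 := q23V1_coeff_neg_one (k := k)
  rw [h] at h1
  simp at h1

theorem q23V_ne_zero : q23V k ≠ 0 := by
  intro h
  apply q23V1_ne_zero (k := k)
  apply qExpand_injective (R := k) 3
  rw [map_zero]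
  exact h

theorem q23_qExpand_three_three (f : LaurentSeries k) :
    qExpand k 3 (qExpand k 3 f) = qExpand k 9 f := by
  rw [qExpand_qExpand]

variable [CharP k 2]

theorem q23_two_L : (2 : LaurentSeries k) = 0 := by
  have h := q23_natCast_eq_zero (k := k) (n := 2) (by exact_mod_cast CharP.cast_eq_zero k 2)
  exact_mod_cast h

/-- `(v₁ + 1)⁴ = j₀ v₁³`. -/
theorem q23V1_ident : (q23V1 k + 1) ^ 4 = jqModC k * q23V1 k ^ 3 := by
  have h := congrArg (coeffMap (Int.castRingHom k)) Fermat.Agent.RED.H29.hZ3_one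
  rw [map_mul, map_pow, map_add, map_add, map_mul, map_pow, coeffMap_jqModC, map_ofNat,
    map_ofNat] at h
  have h2 := q23_two_L (k := k)
  rw [q23V1]
  have e27 : (27 : LaurentSeries k) = 1 := by linear_combination 13 * h2
  have e243 : (243 : LaurentSeries k) = 1 := by linear_combination 121 * h2
  rw [e27, e243] at h
  linear_combination h

/-- `(v₁ + 1)⁴ = j₁ v₁`. -/
theorem q23V1_ident' : (q23V1 k + 1) ^ 4 = qExpand k 3 (jqModC k) * q23V1 k := by
  have h := congrArg (coeffMap (Int.castRingHom k)) Fermat.Agent.RED.H29.hZ3_two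
  rw [map_mul, map_pow, map_add, map_add, map_mul, coeffMap_qExpand, coeffMap_jqModC,
    map_ofNat, map_ofNat] at h
  have h2 := q23_two_L (k := k)
  rw [q23V1]
  have e27 : (27 : LaurentSeries k) = 1 := by linear_combination 13 * h2
  have e3 : (3 : LaurentSeries k) = 1 := by linear_combination h2
  rw [e27, e3] at h
  linear_combination h

/-- `(v + 1)⁴ = j₁ v³`. -/
theorem q23V_ident : (q23V k + 1) ^ 4 = qExpand k 3 (jqModC k) * q23V k ^ 3 := by
  have h := congrArg (qExpand k 3) (q23V1_ident (k := k))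
  rw [map_pow, map_add, map_one, map_mul, map_pow] at h
  exact h

/-- `(v + 1)⁴ = j₂ v`. -/
theorem q23V_ident' : (q23V k + 1) ^ 4 = qExpand k 9 (jqModC k) * q23V k := by
  have h := congrArg (qExpand k 3) (q23V1_ident' (k := k))
  rw [map_pow, map_add, map_one, map_mul, q23_qExpand_three_three] at h
  exact h

theorem q23_V1V_ne_one : q23V1 k * q23V k ≠ 1 := by
  intro h
  have h0 := q23V1_ident (k := k)
  have h1 := q23V_ident' (k := k)
  have hv1 := q23V1_ne_zero (k := k)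
  have key : q23V1 k ^ 3 * (qExpand k 9 (jqModC k) - jqModC k) = 0 := by
    linear_combination h0 - (q23V1 k ^ 4) * h1
      + (((q23V1 k * q23V k + q23V1 k) ^ 3
          + (q23V1 k * q23V k + q23V1 k) ^ 2 * (1 + q23V1 k)
          + (q23V1 k * q23V k + q23V1 k) * (1 + q23V1 k) ^ 2
          + (1 + q23V1 k) ^ 3) - qExpand k 9 (jqModC k) * q23V1 k ^ 3) * h
  rcases mul_eq_zero.mp key with h4 | h4
  · exact hv1 (pow_eq_zero_iff (by norm_num) |>.mp h4)
  · exact q23_jN_ne (k := k) 9 (by norm_num) (sub_eq_zero.mp h4)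

theorem q23V_add_one_ne_zero : q23V k + 1 ≠ 0 := by
  intro h
  have h2 := q23V_ident' (k := k)
  rw [h, zero_pow (by norm_num)] at h2
  rcases mul_eq_zero.mp h2.symm with h4 | h4
  · exact q23_jN_ne_zero (k := k) 9 h4
  · exact q23V_ne_zero (k := k) h4

/-- The modular equation of level `3` for `h̄₃`: `v³ + v₁³ v² + v₁² v + v₁ = 0`. -/
theorem q23_two_modEq :
    q23V k ^ 3 + q23V1 k ^ 3 * q23V k ^ 2 + q23V1 k ^ 2 * q23V k + q23V1 k = 0 :=
  q23_two_R (q23_two_L (k := k)) (q23V1_ident' (k := k)) (q23V_ident (k := k))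
    (q23_V1V_ne_one (k := k))

theorem q23H2_mul : q23H2 k * (q23V k + 1) = q23V k * (q23V1 k + 1) := by
  rw [q23H2, div_mul_cancel₀ _ (q23V_add_one_ne_zero (k := k))]

/-- `h³ + h² + h = v`. -/
theorem q23H2_cube_add : q23H2 k ^ 3 + q23H2 k ^ 2 + q23H2 k = q23V k :=
  (q23_two_h (q23_two_L (k := k)) (q23_two_modEq (k := k)) (q23H2_mul (k := k))
    (q23V_add_one_ne_zero (k := k))).1

/-- `v₁ (h² + h + 1) = h³`. -/
theorem q23H2_V1 : q23V1 k * (q23H2 k ^ 2 + q23H2 k + 1) = q23H2 k ^ 3 :=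
  (q23_two_h (q23_two_L (k := k)) (q23_two_modEq (k := k)) (q23H2_mul (k := k))
    (q23V_add_one_ne_zero (k := k))).2

/-- **`j̄ h⁹ (h² + h + 1) = (h + 1)¹²`**. -/
theorem q23_two_jh :
    jqModC k * q23H2 k ^ 9 * (q23H2 k ^ 2 + q23H2 k + 1) = (q23H2 k + 1) ^ 12 :=
  q23_two_j (q23_two_L (k := k)) (q23V1_ident (k := k)) (q23H2_V1 (k := k))

/-- `θ v₁ = v₁`. -/
theorem q23_thetaL_V1 : thetaL (q23V1 k) = q23V1 k := by
  have h := congrArg thetaL (q23V1_ident' (k := k))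
  rw [thetaL_mul, thetaL_pow, q23_thetaL_jN (k := k) (ℓ := 2) (Or.inl rfl) 3, map_add,
    show thetaL (1 : LaurentSeries k) = 0 from Derivation.map_one_eq_zero _, add_zero] at h
  have h2 := q23_two_L (k := k)
  refine mul_left_cancel₀ (q23_jN_ne_zero (k := k) 3) ?_
  push_cast at h
  linear_combination -h
    + (2 * (q23V1 k + 1) ^ 3 * thetaL (q23V1 k)
        + q23V1 k * qExpand k 3 (jqModC k)) * h2

/-- `θ v = v`. -/
theorem q23_thetaL_V : thetaL (q23V k) = q23V k := by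
  rw [q23V, thetaL_qExpand, q23_thetaL_V1]
  have h2 := q23_two_L (k := k)
  push_cast
  linear_combination (qExpand k 3 (q23V1 k)) * h2

/-- **The ODE of the Hauptmodul of `X₀(9)` in characteristic `2`**:
`θ h · (h + 1)² = h (h² + h + 1)`. -/
theorem q23_two_ode :
    thetaL (q23H2 k) * (q23H2 k + 1) ^ 2 = q23H2 k * (q23H2 k ^ 2 + q23H2 k + 1) := by
  have h := congrArg thetaL (q23H2_cube_add (k := k))
  rw [map_add, map_add, thetaL_pow, thetaL_pow, q23_thetaL_V, ← q23H2_cube_add (k := k)] at h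
  have h2 := q23_two_L (k := k)
  push_cast at h
  simp only [pow_one] at h
  linear_combination h + (-(q23H2 k ^ 2 * thetaL (q23H2 k))) * h2

/-- `j₀ v₁² = j₁`. -/
theorem q23_j0_mul_V1 : jqModC k * q23V1 k ^ 2 = qExpand k 3 (jqModC k) := by
  have h1 := q23V1_ident (k := k)
  have h2 := q23V1_ident' (k := k)
  refine mul_right_cancel₀ (q23V1_ne_zero (k := k)) ?_
  linear_combination h2 - h1

/-- `v₁ = (j₀ + j₁)² / (j₀² j₁)`. -/
theorem q23V1_eq : (jqModC k + qExpand k 3 (jqModC k)) ^ 2 /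
    (jqModC k ^ 2 * qExpand k 3 (jqModC k)) = q23V1 k := by
  have hA := q23V1_ident' (k := k)
  have hB := q23_j0_mul_V1 (k := k)
  have h2 := q23_two_L (k := k)
  rw [div_eq_iff (mul_ne_zero (pow_ne_zero 2 (q23_jq_ne_zero (k := k)))
    (q23_jN_ne_zero (k := k) 3))]
  linear_combination (jqModC k ^ 2) * hA
    - (2 * jqModC k * (1 + q23V1 k ^ 2) - (jqModC k * q23V1 k ^ 2 - qExpand k 3 (jqModC k))) * hB
    - (2 * jqModC k ^ 2 * q23V1 k * (q23V1 k ^ 2 + q23V1 k + 1)) * h2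

/-- `v = (j₁ + j₂)² / (j₁² j₂)`. -/
theorem q23V_eq : (qExpand k 3 (jqModC k) + qExpand k 9 (jqModC k)) ^ 2 /
    (qExpand k 3 (jqModC k) ^ 2 * qExpand k 9 (jqModC k)) = q23V k := by
  have h := congrArg (qExpand k 3) (q23V1_eq (k := k))
  rw [map_div₀, map_pow, map_add, map_mul, map_pow, q23_qExpand_three_three] at h
  exact h

end TwoSeries

section TwoPlace

variable {k : Type*} [Field k] [CharP k 2]
variable {E : IntermediateField k (LaurentSeries k)}

/-- The reduction of the Hauptmodul of `X₀(9)` as an element of a field `E ∋ j̄, j̄(t³), j̄(t⁹)`. -/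
def q23hE2 (jE0 jE1 jE2 : ↥E) : ↥E :=
  ((jE1 + jE2) ^ 2 / (jE1 ^ 2 * jE2)) * ((jE0 + jE1) ^ 2 / (jE0 ^ 2 * jE1) + 1) /
    ((jE1 + jE2) ^ 2 / (jE1 ^ 2 * jE2) + 1)

omit [CharP k 2] in
theorem q23_coe_div' (a b : ↥E) :
    ((a / b : ↥E) : LaurentSeries k) = (a : LaurentSeries k) / (b : LaurentSeries k) := rfl

theorem q23hE2_coe {jE0 jE1 jE2 : ↥E} (hj0 : (jE0 : LaurentSeries k) = jqModC k)
    (hj1 : (jE1 : LaurentSeries k) = qExpand k 3 (jqModC k))
    (hj2 : (jE2 : LaurentSeries k) = qExpand k 9 (jqModC k)) :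
    ((q23hE2 jE0 jE1 jE2 : ↥E) : LaurentSeries k) = q23H2 k := by
  have e1 : (((jE0 + jE1) ^ 2 / (jE0 ^ 2 * jE1) : ↥E) : LaurentSeries k) = q23V1 k := by
    rw [q23_coe_div', IntermediateField.coe_pow, IntermediateField.coe_add,
      IntermediateField.coe_mul, IntermediateField.coe_pow, hj0, hj1]
    exact q23V1_eq (k := k)
  have e2 : (((jE1 + jE2) ^ 2 / (jE1 ^ 2 * jE2) : ↥E) : LaurentSeries k) = q23V k := by
    rw [q23_coe_div', IntermediateField.coe_pow, IntermediateField.coe_add,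
      IntermediateField.coe_mul, IntermediateField.coe_pow, hj1, hj2]
    exact q23V_eq (k := k)
  rw [q23hE2, q23H2, q23_coe_div', IntermediateField.coe_mul, IntermediateField.coe_add,
    IntermediateField.coe_add, IntermediateField.coe_one, e1, e2]

omit [CharP k 2] in
/-- At a zero of `j̄`: `h` is regular and `h ≡ 1`. -/
theorem q23_two_place (z : Place k ↥E) {h j : ↥E}
    (hjh : j * h ^ 9 * (h ^ 2 + h + 1) = (h + 1) ^ 12) (hz : 0 < z.ord j) :
    h ∈ z.toValuationSubring ∧ OrdGe z 1 (h + 1) := by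
  have hj0 : j ≠ 0 := ne_zero_of_ord_ne_zero z (by omega)
  have hmem : h ∈ z.toValuationSubring := by
    by_contra hh
    have hneg : z.ord h < 0 := (not_mem_iff_ord_neg z).mp hh
    have hh0 : h ≠ 0 := ne_zero_of_ord_ne_zero z (by omega)
    have h1 : OrdGe z (z.ord h + 1) (1 : ↥E) := Or.inr (by rw [z.ord_one]; omega)
    have hp := ord_add_eq z hh0 h1
    have hsq0 : h ^ 2 ≠ 0 := pow_ne_zero 2 hh0
    have hsq : z.ord (h ^ 2) = 2 * z.ord h := by
      rw [ord_pow]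
      push_cast
      ring
    have h2 : OrdGe z (z.ord (h ^ 2) + 1) (h + 1) := Or.inr (by rw [hsq, hp.2]; omega)
    have hq := ord_add_eq z hsq0 h2
    rw [← add_assoc] at hq
    have hL : z.ord (j * h ^ 9 * (h ^ 2 + h + 1)) = z.ord j + 9 * z.ord h + 2 * z.ord h := by
      rw [z.ord_mul (mul_ne_zero hj0 (pow_ne_zero 9 hh0)) hq.1,
        z.ord_mul hj0 (pow_ne_zero 9 hh0), ord_pow, hq.2, hsq]
      push_cast
      ring
    have hR : z.ord ((h + 1) ^ 12) = 12 * z.ord h := by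
      rw [ord_pow, hp.2]
      push_cast
      ring
    rw [hjh, hR] at hL
    omega
  refine ⟨hmem, ?_⟩
  rcases eq_or_ne (h + 1) 0 with h0 | h0
  · exact Or.inl h0
  · refine Or.inr ?_
    have hR0 : (h + 1) ^ 12 ≠ 0 := pow_ne_zero 12 h0
    rw [← hjh] at hR0
    have hG0 : h ^ 9 * (h ^ 2 + h + 1) ≠ 0 := by
      intro h1
      apply hR0
      rw [mul_assoc, h1, mul_zero]
    have hG : 0 ≤ z.ord (h ^ 9 * (h ^ 2 + h + 1)) := by
      rw [← mem_iff_ord_nonneg z hG0]
      exact mul_mem (pow_mem hmem 9) (add_mem (add_mem (pow_mem hmem 2) hmem) (one_mem _))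
    have hL : z.ord ((h + 1) ^ 12) = z.ord j + z.ord (h ^ 9 * (h ^ 2 + h + 1)) := by
      rw [← hjh, mul_assoc, z.ord_mul hj0 hG0]
    rw [ord_pow] at hL
    push_cast at hL
    omega

/-- **POLE for `q = 2`** (auxiliary level `9`): `c⁴ = c` and `ord_z d̄ = -1` at every zero `z` of
`j̄` and every coordinate `ū` at `z`. -/
theorem q23_ord_dbar_two (hPB : HasPBasis 2 ↥E) (z : Place k ↥E) {u d jE0 jE1 jE2 P : ↥E}
    (c : k) (hu : z.ord (u - algebraMap k ↥E c) = 1)
    (hθ : thetaL (d : LaurentSeries k) =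
      (u : LaurentSeries k) ^ (2 - 1) * thetaL (u : LaurentSeries k) -
        thetaL (u : LaurentSeries k) ^ 2)
    (hj0 : (jE0 : LaurentSeries k) = jqModC k)
    (hj1 : (jE1 : LaurentSeries k) = qExpand k 3 (jqModC k))
    (hj2 : (jE2 : LaurentSeries k) = qExpand k 9 (jqModC k))
    (hz : 0 < z.ord jE0)
    (hL1 : P = d * (u ^ 2 ^ 2 - u)) (hP : P ∈ z.toValuationSubring) :
    c ^ 2 ^ 2 = c ∧ z.ord d = -1 := by
  have : Fact (Nat.Prime 2) := ⟨Nat.prime_two⟩
  set h : ↥E := q23hE2 jE0 jE1 jE2 with hdef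
  have hcoe : (h : LaurentSeries k) = q23H2 k := q23hE2_coe hj0 hj1 hj2
  have hjh : jE0 * h ^ 9 * (h ^ 2 + h + 1) = (h + 1) ^ 12 := by
    apply Subtype.ext
    rw [IntermediateField.coe_mul, IntermediateField.coe_mul, IntermediateField.coe_pow,
      IntermediateField.coe_add, IntermediateField.coe_add, IntermediateField.coe_pow,
      IntermediateField.coe_one, IntermediateField.coe_pow, IntermediateField.coe_add,
      IntermediateField.coe_one, hcoe, hj0]
    exact q23_two_jh (k := k)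
  obtain ⟨hmem, hvan⟩ := q23_two_place z hjh hz
  have hvan' : OrdGe z 1 (h - algebraMap k ↥E (-1)) := by
    rwa [map_neg, map_one, sub_neg_eq_add]
  have hA := ord_sub_const z hvan' (b := 0) (neg_ne_zero.mpr one_ne_zero)
  rw [map_zero, sub_zero] at hA
  have hB : h ^ 2 + h + 1 ≠ 0 ∧ z.ord (h ^ 2 + h + 1) = 0 := by
    have h1 : OrdGe z (z.ord (1 : ↥E) + 1) (h * (h + 1)) := by
      rw [z.ord_one]
      have := ((ordGe_zero_iff_mem z h).mpr hmem).mul hvan
      simpa using this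
    have h2 := ord_add_eq z (one_ne_zero (α := ↥E)) h1
    rw [z.ord_one] at h2
    have e : h ^ 2 + h + 1 = 1 + h * (h + 1) := by ring
    rw [e]
    exact h2
  have hode : thetaL (h : LaurentSeries k) * (((h + 1) ^ 2 : ↥E) : LaurentSeries k) =
      ((h * (h ^ 2 + h + 1) : ↥E) : LaurentSeries k) := by
    rw [IntermediateField.coe_pow, IntermediateField.coe_add, IntermediateField.coe_one,
      IntermediateField.coe_mul, IntermediateField.coe_add, IntermediateField.coe_add,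
      IntermediateField.coe_pow, IntermediateField.coe_one, hcoe]
    exact q23_two_ode (k := k)
  have hb : OrdGe z 1 ((h + 1) ^ 2) := by
    have := ordGe_pow hvan 2
    exact this.mono (by norm_num)
  have ha : z.ord (h * (h ^ 2 + h + 1)) = 0 := by
    rw [z.ord_mul hA.1 hB.1, hA.2, hB.2, add_zero]
  exact q23_ord_dbar_ode (q := 2) hPB z c hu hθ hode hmem (mul_ne_zero hA.1 hB.1) ha hb hL1 hP

end TwoPlace

end Fermat.Agent.S36.NU.H5

end
end
-- ==== END Fermat.Agent.S36.NU.H5_Q23Two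

-- ==== BEGIN Fermat.Agent.S36.NU.H88_Restrict3
section
attribute [local instance 10000] SubalgebraClass.toAlgebra
attribute [local instance 10000] HahnSeries.powerSeriesAlgebra

/-!
# S36, NU-B1 (helper88): `W_{q²} ∘ α = β ∘ w_q`, restriction of `V₀₂`, and the table as `comap`s

`α, β : F_{M q} → F_{M q²}`, `w = w_q` of level `M q`, `V' = V₂₀ A (M q) = BAD.H88.V1 A q M`,
`V'₂ = BAD.H88.V2 A q M k B`.
* `wSq_alpha : W_{q²} (α x) = β (w x)`, `wSq_beta : W_{q²} (β x) = α (w x)`;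
* `alpha_mem_V02_iff`, `beta_mem_V02_iff`, `red02_alpha`, `red02_beta`;
* `V20_comap_alpha = V'`, `V20_comap_beta = V'`, `V11_comap_alpha = V'`, `V11_comap_beta = V'₂`,
  `V02_comap_alpha = V'₂`, `V02_comap_beta = V'₂`.
-/

set_option autoImplicit false
set_option synthInstance.maxHeartbeats 400000
set_option maxHeartbeats 1000000
set_option linter.unusedSectionVars false
set_option linter.style.haveILetI false

noncomputable section

namespace Fermat.Agent.S36.NU.H88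

open Fermat.Agent.S24 Fermat.Agent.BAD.H88 ModularCurve
open Fermat.Agent.S28 Fermat.Agent.S28.H73 Fermat.Agent.RED.H73 Fermat.Agent.RED.H17
open Fermat.Agent.RED.H95 Fermat.Agent.RED.H10

section Restrict3

variable (A : ValuationSubring Kbar)
variable (q M : ℕ) (B k : ℤ) (hB : B * M + k * q = 1) (hq : q.Prime) [NeZero M] [NeZero q]

include hB hq

/-- `W_{q²}` of level `M q²` (level written `M * q * q`). -/
abbrev wS : FN (M * q * q) ≃ₐ[Kbar] FN (M * q * q) := wSq (M * q * q) q M B k (lvl q M) hB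

/-- `W_{q²} ∘ α = β ∘ w_q`. -/
theorem wS_comp_alpha :
    (wS q M B k hB).toAlgHom.comp (heckeAlphaBar Kbar (M * q) q)
      = (heckeBetaBar Kbar (M * q) q).comp (wL q M B k hB hq).toAlgHom := by
  apply algHom_ext_of_adjoin _ (adjoin_jdF (M * q))
  rintro x ⟨D, hD0, hD, rfl⟩
  have hq0 : 0 < q := hq.pos
  haveI : NeZero (D * q) := ⟨(Nat.mul_pos (Nat.pos_of_ne_zero (NeZero.ne D)) hq0).ne'⟩
  rw [AlgHom.comp_apply, AlgHom.comp_apply, _root_.Fermat.Agent.BAD.H88.alpha_jdF]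
  rcases dvd_cases q M k B (hab_of_hB q M B k hB) hq D hD with ⟨e, he⟩ | ⟨d, e, hd, he⟩
  · have h1 : (wL q M B k hB hq).toAlgHom (jdF (M * q) D hD)
        = jdF (M * q) (D * q) (Nat.mul_dvd_mul_right ⟨e, he⟩ q) :=
      wqHom_jdF q M k B (hab_of_hB q M B k hB) hq D ⟨e, he⟩
    haveI : NeZero (D * q * q) :=
      ⟨(Nat.mul_pos (Nat.mul_pos (Nat.pos_of_ne_zero (NeZero.ne D)) hq0) hq0).ne'⟩
    rw [h1, _root_.Fermat.Agent.BAD.H88.beta_jdF]
    exact wQ_jdF' (M * q * q) (q * q) M _ _ (lvl q M) _ D (D * q * q) D e 1 (q * q)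
      (mul_one D).symm (mul_assoc D q q) he (one_mul _).symm _ _
  · subst hd
    have hdpos : 0 < d := by
      rcases Nat.eq_zero_or_pos d with h | h
      · exfalso; apply NeZero.ne (d * q); rw [h, zero_mul]
      · exact h
    haveI : NeZero d := ⟨hdpos.ne'⟩
    have h1 : (wL q M B k hB hq).toAlgHom (jdF (M * q) (d * q) hD)
        = jdF (M * q) d (Dvd.dvd.mul_right ⟨e, he⟩ q) :=
      wqHom_jdF_mul q M k B (hab_of_hB q M B k hB) hq d ⟨e, he⟩
    rw [h1, _root_.Fermat.Agent.BAD.H88.beta_jdF]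
    exact wQ_jdF' (M * q * q) (q * q) M _ _ (lvl q M) _ (d * q) (d * q) d e q q
      rfl rfl he rfl _ _

/-- `W_{q²} ∘ β = α ∘ w_q`. -/
theorem wS_comp_beta :
    (wS q M B k hB).toAlgHom.comp (heckeBetaBar Kbar (M * q) q)
      = (heckeAlphaBar Kbar (M * q) q).comp (wL q M B k hB hq).toAlgHom := by
  apply algHom_ext_of_adjoin _ (adjoin_jdF (M * q))
  rintro x ⟨D, hD0, hD, rfl⟩
  have hq0 : 0 < q := hq.pos
  haveI : NeZero (D * q) := ⟨(Nat.mul_pos (Nat.pos_of_ne_zero (NeZero.ne D)) hq0).ne'⟩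
  rw [AlgHom.comp_apply, AlgHom.comp_apply, _root_.Fermat.Agent.BAD.H88.beta_jdF]
  rcases dvd_cases q M k B (hab_of_hB q M B k hB) hq D hD with ⟨e, he⟩ | ⟨d, e, hd, he⟩
  · have h1 : (wL q M B k hB hq).toAlgHom (jdF (M * q) D hD)
        = jdF (M * q) (D * q) (Nat.mul_dvd_mul_right ⟨e, he⟩ q) :=
      wqHom_jdF q M k B (hab_of_hB q M B k hB) hq D ⟨e, he⟩
    rw [h1, _root_.Fermat.Agent.BAD.H88.alpha_jdF]
    exact wQ_jdF' (M * q * q) (q * q) M _ _ (lvl q M) _ (D * q) (D * q) D e q q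
      rfl rfl he rfl _ _
  · subst hd
    have hdpos : 0 < d := by
      rcases Nat.eq_zero_or_pos d with h | h
      · exfalso; apply NeZero.ne (d * q); rw [h, zero_mul]
      · exact h
    haveI : NeZero d := ⟨hdpos.ne'⟩
    have h1 : (wL q M B k hB hq).toAlgHom (jdF (M * q) (d * q) hD)
        = jdF (M * q) d (Dvd.dvd.mul_right ⟨e, he⟩ q) :=
      wqHom_jdF_mul q M k B (hab_of_hB q M B k hB) hq d ⟨e, he⟩
    rw [h1, _root_.Fermat.Agent.BAD.H88.alpha_jdF]
    exact wQ_jdF' (M * q * q) (q * q) M _ _ (lvl q M) _ (d * q * q) d d e (q * q) 1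
      (mul_assoc d q q) (mul_one d).symm he (mul_one _).symm _ _

theorem wS_alpha (x : FN (M * q)) :
    wS q M B k hB (heckeAlphaBar Kbar (M * q) q x)
      = heckeBetaBar Kbar (M * q) q (wL q M B k hB hq x) :=
  congrArg (fun f : FN (M * q) →ₐ[Kbar] FN (M * q * q) => f x) (wS_comp_alpha q M B k hB hq)

theorem wS_beta (x : FN (M * q)) :
    wS q M B k hB (heckeBetaBar Kbar (M * q) q x)
      = heckeAlphaBar Kbar (M * q) q (wL q M B k hB hq x) :=
  congrArg (fun f : FN (M * q) →ₐ[Kbar] FN (M * q * q) => f x) (wS_comp_beta q M B k hB hq)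

/-! ### `V₀₂` -/

/-- `α x ∈ V₀₂ ↔ w x ∈ V'`. -/
theorem alpha_mem_V02_iff (x : FN (M * q)) :
    heckeAlphaBar Kbar (M * q) q x ∈ V02 A (M * q * q) q M B k (lvl q M) hB
      ↔ wL q M B k hB hq x ∈ V20 A (M * q) := by
  rw [mem_V02_iff]
  have e : wSq (M * q * q) q M B k (lvl q M) hB (heckeAlphaBar Kbar (M * q) q x)
      = heckeBetaBar Kbar (M * q) q (wL q M B k hB hq x) := wS_alpha q M B k hB hq x
  rw [e]
  exact beta_mem_V20_iff A q M _

/-- `β x ∈ V₀₂ ↔ w x ∈ V'`. -/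
theorem beta_mem_V02_iff (x : FN (M * q)) :
    heckeBetaBar Kbar (M * q) q x ∈ V02 A (M * q * q) q M B k (lvl q M) hB
      ↔ wL q M B k hB hq x ∈ V20 A (M * q) := by
  rw [mem_V02_iff]
  have e : wSq (M * q * q) q M B k (lvl q M) hB (heckeBetaBar Kbar (M * q) q x)
      = heckeAlphaBar Kbar (M * q) q (wL q M B k hB hq x) := wS_beta q M B k hB hq x
  rw [e]
  exact alpha_mem_V20_iff A q M _

/-- `red₀₂ (α x) = (red' (w x))(t^q)`. -/
theorem red02_alpha (x : FN (M * q)) (h : wL q M B k hB hq x ∈ V20 A (M * q))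
    (h' : heckeAlphaBar Kbar (M * q) q x ∈ V02 A (M * q * q) q M B k (lvl q M) hB) :
    ((red02 A (M * q * q) q M B k (lvl q M) hB ⟨_, h'⟩ : F20 A (M * q * q)) :
        LaurentSeries (kV A))
      = qExpand (kV A) q
          ((red20 A (M * q) ⟨wL q M B k hB hq x, h⟩ : F20 A (M * q)) : LaurentSeries (kV A)) := by
  have hb : heckeBetaBar Kbar (M * q) q (wL q M B k hB hq x) ∈ V20 A (M * q * q) :=
    (beta_mem_V20_iff A q M _).mpr h
  have e : red02 A (M * q * q) q M B k (lvl q M) hB ⟨_, h'⟩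
      = red20 A (M * q * q) ⟨heckeBetaBar Kbar (M * q) q (wL q M B k hB hq x), hb⟩ := by
    rw [red02_mk]
    congr 1
    exact Subtype.ext (wS_alpha q M B k hB hq x)
  rw [e]
  exact red20_beta A q M _ h hb

/-- `red₀₂ (β x) = red' (w x)`. -/
theorem red02_beta (x : FN (M * q)) (h : wL q M B k hB hq x ∈ V20 A (M * q))
    (h' : heckeBetaBar Kbar (M * q) q x ∈ V02 A (M * q * q) q M B k (lvl q M) hB) :
    ((red02 A (M * q * q) q M B k (lvl q M) hB ⟨_, h'⟩ : F20 A (M * q * q)) :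
        LaurentSeries (kV A))
      = ((red20 A (M * q) ⟨wL q M B k hB hq x, h⟩ : F20 A (M * q)) : LaurentSeries (kV A)) := by
  have ha : heckeAlphaBar Kbar (M * q) q (wL q M B k hB hq x) ∈ V20 A (M * q * q) :=
    (alpha_mem_V20_iff A q M _).mpr h
  have e : red02 A (M * q * q) q M B k (lvl q M) hB ⟨_, h'⟩
      = red20 A (M * q * q) ⟨heckeAlphaBar Kbar (M * q) q (wL q M B k hB hq x), ha⟩ := by
    rw [red02_mk]
    congr 1
    exact Subtype.ext (wS_beta q M B k hB hq x)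
  rw [e]
  exact red20_alpha A q M _ h ha

/-! ### The table as `comap`s -/

omit hB hq in
/-- **`V₂₀ ∩ α F_{M q} = V'`.** -/
theorem V20_comap_alpha :
    (V20 A (M * q * q)).comap (heckeAlphaBar Kbar (M * q) q).toRingHom = V1 A q M := by
  apply SetLike.ext
  intro x
  rw [ValuationSubring.mem_comap]
  exact alpha_mem_V20_iff A q M x

omit hB hq in
/-- **`V₂₀ ∩ β F_{M q} = V'`.** -/
theorem V20_comap_beta :
    (V20 A (M * q * q)).comap (heckeBetaBar Kbar (M * q) q).toRingHom = V1 A q M := by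
  apply SetLike.ext
  intro x
  rw [ValuationSubring.mem_comap]
  exact beta_mem_V20_iff A q M x

/-- **`V₁₁ ∩ α F_{M q} = V'`.** -/
theorem V11_comap_alpha :
    (V11 A (M * q * q) q M B k (lvl q M) hB hq).comap (heckeAlphaBar Kbar (M * q) q).toRingHom
      = V1 A q M := by
  apply SetLike.ext
  intro x
  rw [ValuationSubring.mem_comap]
  exact alpha_mem_V11_iff A q M B k hB hq x

/-- **`V₁₁ ∩ β F_{M q} = V'₂`.** -/
theorem V11_comap_beta :
    (V11 A (M * q * q) q M B k (lvl q M) hB hq).comap (heckeBetaBar Kbar (M * q) q).toRingHom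
      = V2 A q M k B (hab_of_hB q M B k hB) hq := by
  apply SetLike.ext
  intro x
  rw [ValuationSubring.mem_comap]
  exact beta_mem_V11_iff A q M B k hB hq x

/-- **`V₀₂ ∩ α F_{M q} = V'₂`.** -/
theorem V02_comap_alpha :
    (V02 A (M * q * q) q M B k (lvl q M) hB).comap (heckeAlphaBar Kbar (M * q) q).toRingHom
      = V2 A q M k B (hab_of_hB q M B k hB) hq := by
  apply SetLike.ext
  intro x
  rw [ValuationSubring.mem_comap]
  exact alpha_mem_V02_iff A q M B k hB hq x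

/-- **`V₀₂ ∩ β F_{M q} = V'₂`.** -/
theorem V02_comap_beta :
    (V02 A (M * q * q) q M B k (lvl q M) hB).comap (heckeBetaBar Kbar (M * q) q).toRingHom
      = V2 A q M k B (hab_of_hB q M B k hB) hq := by
  apply SetLike.ext
  intro x
  rw [ValuationSubring.mem_comap]
  exact beta_mem_V02_iff A q M B k hB hq x

end Restrict3

end Fermat.Agent.S36.NU.H88

end
end
-- ==== END Fermat.Agent.S36.NU.H88_Restrict3

-- ==== BEGIN Fermat.Agent.S36.NU.H99_LocEqAbs
section

/-!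
# S36 / NU-B, leaf (M4) LOCEQ (helper99): local equation data from ramification indices

Abstract part (pure algebra on a `H16.Chart`).  The global valuation-theoretic inputs are

* `(VALQ)` : `B ∩ ⋂ q V i = q B` (helper17's criterion applied to `β / q`);
* `ValE C q e` : the ramification index of `V i` over `q` is at most `e i`
  (`f ∈ 𝔪_{V i} ⟹ f ^ e i ∈ q V i`; modular: `e = (1, q - 1, 1)`, helper82 VAL0 / FUND-e).

Results:

* `unif_of_valE`  : `x ^ e i = q * (unit of V i)` ⟹ `x` is a uniformizer of `V i`;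
* `locEq_ord`     : a point with ONE branch: `q W₂ = x ^ e i W'`, `W₂, W' ∉ 𝔪`, `W' ∈ q V i'` for the
                    other components ⟹ `LocEq` and `i` is the only branch;
* `locEq_ord_one` : the case `e i = 1`, `x = q`, `W₂ = W'`;
* `all_branches`  : a point with `q W = ∏ t i ^ e i`, `W ∉ 𝔪`, `t i ∈ 𝔪`, `t i ^ e i ∈ q V i`:
                    ALL components pass through `𝔪`;
* `locEq_ss`      : and there is a local equation datum at `𝔪` (`x = t`, `y = 1`).
-/

set_option autoImplicit false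

noncomputable section

namespace Fermat.Agent.S36.NU.H99

open Fermat.Agent.S36.NU.H16

variable {R F k ι : Type*} {κ : ι → Type*} [CommRing R] [Field F] [Algebra R F]
  [Field k] [∀ i, Field (κ i)] [∀ i, Algebra k (κ i)]

/-- **(VALe)**: the ramification index of `V i` over `q` is at most `e i`. -/
def ValE (C : Chart R F k ι κ) (q : R) (e : ι → ℕ) : Prop :=
  ∀ i, ∀ f ∈ (C.V i).nonunits, ∃ f' ∈ C.V i, f ^ e i = algebraMap R F q * f'

section Val

variable (V : ValuationSubring F)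

/-- `x ∈ V`, `y ∈ V`, `x * y` a unit of `V` ⟹ `x⁻¹ ∈ V`. -/
theorem inv_mem_of_mul {x y w : F} (hx : x ∈ V) (hy : y ∈ V) (hxy : x * y = w)
    (hw : w⁻¹ ∈ V) (hw0 : w ≠ 0) : x⁻¹ ∈ V := by
  have hx0 : x ≠ 0 := by
    rintro rfl
    rw [zero_mul] at hxy
    exact hw0 hxy.symm
  have : x⁻¹ = y * w⁻¹ := by
    rw [← hxy]
    have hy0 : y ≠ 0 := by
      rintro rfl
      rw [mul_zero] at hxy
      exact hw0 hxy.symm
    field_simp
  rw [this]
  exact mul_mem hy hw

/-- `n`-th roots in a valuation ring. -/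
theorem mem_of_pow_mem' {x : F} {n : ℕ} (hn : 0 < n) (hx : x ^ n ∈ V) : x ∈ V := by
  rw [← ValuationSubring.valuation_le_one_iff] at hx ⊢
  rw [map_pow] at hx
  exact (pow_le_one_iff_of_nonneg zero_le hn.ne').1 hx

/-- `x ^ n ∈ q ^ n V` ⟹ `x ∈ q V`. -/
theorem mem_mul_of_pow {x c : F} {n : ℕ} (hn : 0 < n) (hc : c ≠ 0)
    (hx : ∃ f' ∈ V, x ^ n = c ^ n * f') : ∃ f' ∈ V, x = c * f' := by
  obtain ⟨f', hf', hxf⟩ := hx
  refine ⟨x * c⁻¹, mem_of_pow_mem' V hn ?_, by field_simp⟩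
  have : (x * c⁻¹) ^ n = f' := by
    rw [mul_pow, hxf, inv_pow]
    field_simp
  rw [this]
  exact hf'

/-- A nonunit: membership with nonzero inverse outside. -/
theorem mem_nonunits_of_mul {c f' : F} (hc : c ∈ V.nonunits) (hf' : f' ∈ V) :
    c * f' ∈ V.nonunits := by
  rw [ValuationSubring.mem_nonunits_iff] at hc ⊢
  rw [map_mul]
  have h2 : V.valuation f' ≤ 1 := (V.valuation_le_one_iff _).2 hf'
  calc V.valuation c * V.valuation f' ≤ V.valuation c * 1 := by gcongr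
    _ < 1 := by rwa [mul_one]

theorem mem_nonunits_of_pow {x : F} {n : ℕ} (hx : x ^ n ∈ V.nonunits) : x ∈ V.nonunits := by
  rw [ValuationSubring.mem_nonunits_iff] at hx ⊢
  rw [map_pow] at hx
  by_contra h
  rw [not_lt] at h
  exact absurd hx (not_lt.2 (one_le_pow₀ h))

end Val

section Chart

variable (C : Chart R F k ι κ) (q : R)

/-- **A uniformizer from the ramification index.** -/
theorem unif_of_valE (e : ι → ℕ) (hE : ValE C q e) (i : ι) (he : 0 < e i)
    (hq0 : algebraMap R F q ≠ 0) (x w : F) (hwi : w⁻¹ ∈ C.V i) (hw0 : w ≠ 0)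
    (hxw : x ^ e i = algebraMap R F q * w) :
    ∀ f ∈ (C.V i).nonunits, ∃ f' ∈ C.V i, f = x * f' := by
  intro f hf
  obtain ⟨f', hf', hff'⟩ := hE i f hf
  have hx0 : x ≠ 0 := by
    rintro rfl
    rw [zero_pow he.ne'] at hxw
    exact (mul_ne_zero hq0 hw0) hxw.symm
  refine ⟨f * x⁻¹, mem_of_pow_mem' (C.V i) he ?_, by field_simp⟩
  have : (f * x⁻¹) ^ e i = f' * w⁻¹ := by
    rw [mul_pow, inv_pow, hff', hxw]
    field_simp
  rw [this]
  exact mul_mem hf' hwi

/-- Elements of `B ∖ 𝔪` are units of `V i` for every branch `i` through `𝔪`. -/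
theorem rd_ne_zero_of_not_mem (𝔪 : Ideal C.B) (i : ι) (hi : C.Icomp i ≤ 𝔪) (W : C.B)
    (hW : W ∉ 𝔪) : C.rd i (W : F) ≠ 0 := by
  rw [C.rd_coe]
  exact fun h0 => hW (hi ((C.mem_Icomp i W).2 h0))

theorem mem_Icomp_iff_nonunits (i : ι) (β : C.B) :
    β ∈ C.Icomp i ↔ (β : F) ∈ (C.V i).nonunits := by
  rw [C.mem_Icomp, ← C.rd_coe, C.rd_eq_zero_iff i (C.B_le i _ β.2)]

/-- **Local equation datum at a point with one branch**, from the ramification index. -/
theorem locEq_ord [Fintype ι] [DecidableEq ι] (e : ι → ℕ) (hE : ValE C q e)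
    (hq0 : algebraMap R F q ≠ 0)
    (hqV : ∀ i, algebraMap R F q ∈ (C.V i).nonunits)
    (hVALQ : ∀ β : C.B, (∀ i, ∃ f' ∈ C.V i, (β : F) = algebraMap R F q * f') →
      ∃ β' : C.B, β = algebraMap R C.B q * β')
    (𝔪 : Ideal C.B) [h𝔪 : 𝔪.IsPrime] (i : ι) (hi : C.Icomp i ≤ 𝔪) (he : 0 < e i)
    (x W₂ W' : C.B) (hW₂ : W₂ ∉ 𝔪) (hW' : W' ∉ 𝔪)
    (heq : algebraMap R C.B q * W₂ = x ^ e i * W')
    (hW'v : ∀ i', i' ≠ i → ∃ f' ∈ C.V i', (W' : F) = algebraMap R F q * f') :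
    Nonempty (LocEq C q 𝔪) ∧ ∀ i', C.Icomp i' ≤ 𝔪 → i' = i := by
  have hrd2 := rd_ne_zero_of_not_mem C 𝔪 i hi W₂ hW₂
  have hrd' := rd_ne_zero_of_not_mem C 𝔪 i hi W' hW'
  have hW'0 : (W' : F) ≠ 0 := fun h0 => hrd' (by rw [h0, C.rd_zero])
  have hW₂0 : (W₂ : F) ≠ 0 := fun h0 => hrd2 (by rw [h0, C.rd_zero])
  have heqF : (x : F) ^ e i = algebraMap R F q * ((W₂ : F) * (W' : F)⁻¹) := by
    have h1 : ((algebraMap R C.B q * W₂ : C.B) : F) = ((x ^ e i * W' : C.B) : F) := by rw [heq]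
    push_cast at h1
    field_simp
    rw [← h1]
  have hwV : (W₂ : F) * (W' : F)⁻¹ ∈ C.V i :=
    mul_mem (C.B_le i _ W₂.2) (C.inv_mem_of_rd_ne_zero i hrd')
  have hwiV : ((W₂ : F) * (W' : F)⁻¹)⁻¹ ∈ C.V i := by
    rw [mul_inv, inv_inv]
    exact mul_mem (C.inv_mem_of_rd_ne_zero i hrd2) (C.B_le i _ W'.2)
  have hunif := unif_of_valE C q e hE i he hq0 (x : F) _ hwiV
    (mul_ne_zero hW₂0 (inv_ne_zero hW'0)) heqF
  have hx : x ∈ C.Icomp i := by
    rw [mem_Icomp_iff_nonunits]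
    apply mem_nonunits_of_pow (C.V i) (n := e i)
    rw [heqF]
    exact mem_nonunits_of_mul (C.V i) (hqV i) hwV
  exact LocEq.single C q hq0 hqV hVALQ 𝔪 i hi x (e i) he W₂ W' hW₂ hW' hx
    (fun f hf => hunif (f : F) ((mem_Icomp_iff_nonunits C i f).1 hf)) heq hW'v

/-- **Local equation datum at a point of a component of multiplicity one** (`x = q`). -/
theorem locEq_ord_one [Fintype ι] [DecidableEq ι] (e : ι → ℕ) (hE : ValE C q e)
    (hq0 : algebraMap R F q ≠ 0)
    (hqV : ∀ i, algebraMap R F q ∈ (C.V i).nonunits)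
    (hVALQ : ∀ β : C.B, (∀ i, ∃ f' ∈ C.V i, (β : F) = algebraMap R F q * f') →
      ∃ β' : C.B, β = algebraMap R C.B q * β')
    (𝔪 : Ideal C.B) [h𝔪 : 𝔪.IsPrime] (i : ι) (hi : C.Icomp i ≤ 𝔪) (he : e i = 1)
    (W' : C.B) (hW' : W' ∉ 𝔪)
    (hW'v : ∀ i', i' ≠ i → ∃ f' ∈ C.V i', (W' : F) = algebraMap R F q * f') :
    Nonempty (LocEq C q 𝔪) ∧ ∀ i', C.Icomp i' ≤ 𝔪 → i' = i := by
  refine locEq_ord C q e hE hq0 hqV hVALQ 𝔪 i hi (by omega) (algebraMap R C.B q) W' W' hW' hW' ?_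
    hW'v
  rw [he, pow_one]

/-- **All components pass through a point with an Eisenstein equation.** -/
theorem all_branches [Fintype ι] [DecidableEq ι] (e : ι → ℕ) (hE : ValE C q e)
    (hq0 : algebraMap R F q ≠ 0)
    (hVALQ : ∀ β : C.B, (∀ i, ∃ f' ∈ C.V i, (β : F) = algebraMap R F q * f') →
      ∃ β' : C.B, β = algebraMap R C.B q * β')
    (𝔪 : Ideal C.B) [h𝔪 : 𝔪.IsPrime] (he : ∀ i, 0 < e i)
    (t : ι → C.B) (W : C.B) (hW : W ∉ 𝔪) (ht : ∀ i, t i ∈ 𝔪)
    (heq : algebraMap R C.B q * W = ∏ i, t i ^ e i)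
    (hpow : ∀ i, ∃ f' ∈ C.V i, ((t i : F)) ^ e i = algebraMap R F q * f') :
    ∀ i, C.Icomp i ≤ 𝔪 := by
  intro i β hβ
  by_contra hβm
  have hq0' : algebraMap R C.B q ≠ 0 := by
    intro h0
    apply hq0
    have : ((algebraMap R C.B q : C.B) : F) = 0 := by rw [h0]; rfl
    exact this
  obtain ⟨m, hm⟩ : ∃ m, e i = m + 1 := ⟨e i - 1, by have := he i; omega⟩
  -- `γ = β t_i^{e_i - 1} ∏_{i' ≠ i} t_i'^{e_i'}`
  set P : C.B := ∏ i' ∈ Finset.univ.erase i, t i' ^ e i' with hP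
  set γ : C.B := β * t i ^ m * P with hγ
  have hprod : ∏ i', t i' ^ e i' = t i ^ (m + 1) * P := by
    rw [← Finset.mul_prod_erase Finset.univ _ (Finset.mem_univ i), hm]
  have hγq : ∀ i'', ∃ f' ∈ C.V i'', (γ : F) = algebraMap R F q * f' := by
    intro i''
    by_cases hi'' : i'' = i
    · subst hi''
      -- `(β t^m)^(m+1) = β^(m+1) (t^(m+1))^m ∈ q^(m+1) V`
      obtain ⟨b', hb', hbb'⟩ := hE i'' (β : F) ((mem_Icomp_iff_nonunits C i'' β).1 hβ)
      obtain ⟨f', hf', hff'⟩ := hpow i''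
      rw [hm] at hbb' hff'
      have h1 : ∃ f'' ∈ C.V i'', ((β : F) * (t i'' : F) ^ m) ^ (m + 1)
          = algebraMap R F q ^ (m + 1) * f'' := by
        refine ⟨b' * f' ^ m, mul_mem hb' (pow_mem hf' m), ?_⟩
        calc ((β : F) * (t i'' : F) ^ m) ^ (m + 1)
            = (β : F) ^ (m + 1) * ((t i'' : F) ^ (m + 1)) ^ m := by ring
          _ = algebraMap R F q ^ (m + 1) * (b' * f' ^ m) := by rw [hbb', hff']; ring
      obtain ⟨g, hg, hgg⟩ := mem_mul_of_pow (C.V i'') (Nat.succ_pos m) hq0 h1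
      refine ⟨g * (P : F), mul_mem hg (C.B_le i'' _ P.2), ?_⟩
      rw [hγ]
      push_cast
      rw [hgg]
      ring
    · obtain ⟨f', hf', hff'⟩ := hpow i''
      have hmem : i'' ∈ Finset.univ.erase i := Finset.mem_erase.2 ⟨hi'', Finset.mem_univ i''⟩
      set Z : C.B := β * t i ^ m * ∏ i' ∈ (Finset.univ.erase i).erase i'', t i' ^ e i' with hZ
      have h1 : γ = Z * t i'' ^ e i'' := by
        rw [hγ, hP, hZ, ← Finset.mul_prod_erase (Finset.univ.erase i) _ hmem]
        ring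
      refine ⟨(Z : F) * f', mul_mem (C.B_le _ _ Z.2) hf', ?_⟩
      rw [h1]
      push_cast
      rw [hff']
      ring
  obtain ⟨γ', hγ'⟩ := hVALQ γ hγq
  have hkey : β * W = t i * γ' := by
    apply mul_left_cancel₀ hq0'
    calc algebraMap R C.B q * (β * W) = β * (algebraMap R C.B q * W) := by ring
      _ = β * (t i ^ (m + 1) * P) := by rw [heq, hprod]
      _ = t i * γ := by rw [hγ]; ring
      _ = t i * (algebraMap R C.B q * γ') := by rw [hγ']
      _ = algebraMap R C.B q * (t i * γ') := by ring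
  have hmem : β * W ∈ 𝔪 := by
    rw [hkey]
    exact 𝔪.mul_mem_right _ (ht i)
  rcases h𝔪.mem_or_mem hmem with h1 | h1
  · exact hβm h1
  · exact hW h1

/-- **Local equation datum at a point with an Eisenstein equation** (the triple points). -/
theorem locEq_ss [Fintype ι] [DecidableEq ι] (e : ι → ℕ) (hE : ValE C q e)
    (hq0 : algebraMap R F q ≠ 0)
    (hqV : ∀ i, algebraMap R F q ∈ (C.V i).nonunits)
    (hVALQ : ∀ β : C.B, (∀ i, ∃ f' ∈ C.V i, (β : F) = algebraMap R F q * f') →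
      ∃ β' : C.B, β = algebraMap R C.B q * β')
    (𝔪 : Ideal C.B) [h𝔪 : 𝔪.IsPrime] (he : ∀ i, 0 < e i)
    (t : ι → C.B) (W : C.B) (hW : W ∉ 𝔪) (ht : ∀ i, t i ∈ 𝔪)
    (heq : algebraMap R C.B q * W = ∏ i, t i ^ e i)
    (hpow : ∀ i, ∃ f' ∈ C.V i, ((t i : F)) ^ e i = algebraMap R F q * f') :
    (∀ i, C.Icomp i ≤ 𝔪) ∧ Nonempty (LocEq C q 𝔪) := by
  have hall := all_branches C q e hE hq0 hVALQ 𝔪 he t W hW ht heq hpow
  refine ⟨hall, ?_⟩
  have hW0 : (W : F) ≠ 0 := by
    intro h0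
    apply hW
    have : W = 0 := Subtype.ext h0
    rw [this]
    exact 𝔪.zero_mem
  have hq0' : algebraMap R C.B q ≠ 0 := by
    intro h0
    apply hq0
    have : ((algebraMap R C.B q : C.B) : F) = 0 := by rw [h0]; rfl
    exact this
  have hprod0 : ∏ i, t i ^ e i ≠ 0 := by
    rw [← heq]
    exact mul_ne_zero hq0' (fun h0 => hW (h0 ▸ 𝔪.zero_mem))
  have ht0 : ∀ i, t i ≠ 0 := by
    intro i h0
    apply hprod0
    apply Finset.prod_eq_zero (Finset.mem_univ i)
    rw [h0, zero_pow (he i).ne']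
  -- `t i ^ e i / q` is a unit of `V i`
  have hunit : ∀ i, ∃ w : F, w ∈ C.V i ∧ w⁻¹ ∈ C.V i ∧ w ≠ 0 ∧
      (t i : F) ^ e i = algebraMap R F q * w := by
    intro i
    obtain ⟨f', hf', hff'⟩ := hpow i
    set P : C.B := ∏ i' ∈ Finset.univ.erase i, t i' ^ e i' with hP
    have hprod : ∏ i', t i' ^ e i' = t i ^ e i * P := by
      rw [← Finset.mul_prod_erase Finset.univ _ (Finset.mem_univ i)]
    have h1 : algebraMap R F q * (W : F) = (t i : F) ^ e i * (P : F) := by
      have := congrArg (fun z : C.B => (z : F)) (heq.trans hprod)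
      simpa using this
    have h2 : f' * (P : F) = (W : F) := by
      apply mul_left_cancel₀ hq0
      rw [h1, hff']
      ring
    have hrdW := rd_ne_zero_of_not_mem C 𝔪 i (hall i) W hW
    have hf'i : f'⁻¹ ∈ C.V i :=
      inv_mem_of_mul (C.V i) hf' (C.B_le i _ P.2) h2 (C.inv_mem_of_rd_ne_zero i hrdW) hW0
    have hf'0 : f' ≠ 0 := by
      rintro rfl
      rw [zero_mul] at h2
      exact hW0 h2.symm
    exact ⟨f', hf', hf'i, hf'0, hff'⟩
  refine ⟨LocEq.ofVal C q hq0 hVALQ 𝔪 t e W 1 hW ?_ ht0 ?_ ?_ ?_ hpow (fun i _ => he i) ?_⟩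
  · intro h1
    exact h𝔪.ne_top ((Ideal.eq_top_iff_one 𝔪).2 h1)
  · intro i _
    rw [mem_Icomp_iff_nonunits]
    apply mem_nonunits_of_pow (C.V i) (n := e i)
    obtain ⟨f', hf', hff'⟩ := hpow i
    rw [hff']
    exact mem_nonunits_of_mul (C.V i) (hqV i) hf'
  · intro i hi
    exact absurd (hall i) hi
  · rw [mul_one]
    exact heq
  · intro i _ f hf
    obtain ⟨w, hw, hwi, hw0, hxw⟩ := hunit i
    exact unif_of_valE C q e hE i (he i) hq0 (t i : F) w hwi hw0 hxw (f : F)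
      ((mem_Icomp_iff_nonunits C i f).1 hf)

end Chart

end Fermat.Agent.S36.NU.H99

end
end
-- ==== END Fermat.Agent.S36.NU.H99_LocEqAbs
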