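-- GENERATED (merged mirror, NOTES/tools/trim/merge3_helper67.py): 4 modules of the originals, bodies verbatim.
import Fermat.Agent.Zm.S36_L06_000
import Fermat.Agent.Zm.S36_L04_001
import Fermat.Agent.Zm.S36_L01_002
import Fermat.Agent.BAD.H21_SSBridge
import Fermat.Agent.Zm.S35_L06_002

-- ==== BEGIN Fermat.Agent.S36.NU.H16_Main
section

/-!
# S36 / NU-B, local side of TI3 (helper16): the main theorem for one chart

`chart_main` : for one chart `C` (coordinate ring `B`, components `V i`), `h` a unit at the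
components, `g i` an `n`-th root of `1 / rd i h`, assume

* `(HOR)` : `h` is an `n`-th power times a unit at every valuation ring `≠ F` of `F` containing
  `B` and `1 / q` (the horizontal places);
* at every closed point `𝔪` of the special fibre: the branches (`Branch`), a local equation
  datum (`LocEq`), and, if there are several branches, `(EQV)` for every local generator.

Then there is `a` with `h aⁿ ∈ B` and `rd i a = g i` for all `i`.
(Proof: `reg_abs` (CA1) gives local generators, `ll` / `ll_single` the local lemma, `patch`.)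
-/

set_option autoImplicit false

noncomputable section

namespace Fermat.Agent.S36.NU.H16

variable {R F k ι : Type*} {κ : ι → Type*} [CommRing R] [Field F] [Algebra R F]
  [Field k] [∀ i, Field (κ i)] [∀ i, Algebra k (κ i)]

/-- **The main local theorem for one chart.** -/
theorem chart_main [Fintype ι] (C : Chart R F k ι κ) [IsNoetherianRing C.B]
    [IsFractionRing C.B F] (qn : ℕ) (q : R) (n : ℕ) (h : F) (g : ∀ i, κ i)
    (S : Setup C qn n h g) (h0 : h ≠ 0)
    (hHOR : ∀ W : ValuationSubring F, (∀ β : C.B, (β : F) ∈ W) → (algebraMap R F q)⁻¹ ∈ W →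
      W ≠ ⊤ → ∃ s : F, s ≠ 0 ∧ h * s ^ n ∈ W ∧ (h * s ^ n)⁻¹ ∈ W)
    (hpt : ∀ 𝔪 : Ideal C.B, 𝔪.IsMaximal → (∃ i, C.Icomp i ≤ 𝔪) →
      (∀ i, C.Icomp i ≤ 𝔪 → Nonempty (Branch C 𝔪 i)) ∧ Nonempty (LocEq C q 𝔪) ∧
      ((∃ i₀, ∀ i, C.Icomp i ≤ 𝔪 → i = i₀) ∨
        ∀ (s : F) (hs : h * s ^ n ∈ C.B), (⟨h * s ^ n, hs⟩ : C.B) ∉ 𝔪 →
          ∀ br : (∀ i, C.Icomp i ≤ 𝔪 → Branch C 𝔪 i), ∃ c : k,
            ∀ (i : ι) (hi : C.Icomp i ≤ 𝔪),
              g i * (C.rd i s)⁻¹ - algebraMap k (κ i) c ∈ (br i hi).O.nonunits)) :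
    ∃ a : F, h * a ^ n ∈ C.B ∧ ∀ i, C.rd i a = g i := by
  refine patch C qn n h g S (fun 𝔪 hmax hex => ?_)
  obtain ⟨hbr, ⟨L⟩, hcase⟩ := hpt 𝔪 hmax hex
  obtain ⟨i₁, hi₁⟩ := hex
  obtain ⟨b₁⟩ := hbr i₁ hi₁
  have hh : ∀ i, h ∈ C.V i ∧ h⁻¹ ∈ C.V i := fun i => ⟨S.h_mem i, S.h_inv_mem i⟩
  obtain ⟨s, hs, hu⟩ := reg_abs C q n S.n_pos h hh h0 𝔪 hmax i₁ b₁ L hHOR
  rcases hcase with ⟨i₀, honly⟩ | heqv
  · have h1 : i₁ = i₀ := honly i₁ hi₁
    subst h1
    exact ll_single C qn n h g S 𝔪 hmax i₁ b₁ honly s hs hu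
  · set br : ∀ i, C.Icomp i ≤ 𝔪 → Branch C 𝔪 i := fun i hi => (hbr i hi).some with hbrdef
    obtain ⟨c, hc⟩ := heqv s hs hu br
    exact ll C qn n h g S 𝔪 hmax br s hs hu c hc

end Fermat.Agent.S36.NU.H16

end
end
-- ==== END Fermat.Agent.S36.NU.H16_Main

-- ==== BEGIN Fermat.Agent.S36.NU.H24_BridgeB
section

/-!
# S36 / NU-B, (M5) BRIDGE, part B (helper24): `H16.Chart` <-> `H79.TotN` / `H79.NUData`

`C : Chart R F k ι κ` (helper16) and `T : TotN K F L k ι Z κ` (helper79) on the SAME field `F`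
(modular: the `I`-fixed functions), with the same valuation rings and reductions (`Compat`).

* `Compat`, `InChart C T z` (`z` is a point of the chart: no function of `B` has a pole on the
  fibre of `z`), `Glued T z` (GLUE3 at `z`, = `NUData.glue` at a triple point).
* (i)  `ptMax` : the closed point `𝔪_z` of the chart, `ptMax_isMaximal`, `mem_ptMax_iff`
  (independent of the component), `Icomp_le_ptMax`, `branch_O_eq_pt`.
* (ii) `isGen_of_reg` : REG in the form of helper16 (`h sⁿ ∈ B ∖ 𝔪_z`) gives `NUData.IsGen`.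
* (iii) `gOf`, `root_g_of_trivRed`, `eqv_of_trivRed` : from `NUData.TrivRed` to the residues
  `g i` of `Setup` and (EQV) at the triple points.
-/

set_option autoImplicit false
set_option linter.style.haveILetI false

noncomputable section

open AlgebraicCurve

attribute [local instance] Classical.propDecidable

namespace Fermat.Agent.S36.NU.H24

open Fermat.Agent.RED.H17 Fermat.Agent.RED Fermat.Agent.S36.NU.H16 Fermat.Agent.S36.NU.H79

variable {R F k ι Z K L : Type*} {κ : ι → Type*} [CommRing R] [Field F] [Algebra R F]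
  [Field k] [∀ i, Field (κ i)] [∀ i, Algebra k (κ i)] [Fintype ι]
  [Field K] [Field L] [Algebra K L] [Algebra F L]

/-- **Compatibility** of a chart with a conservation datum: the same valuation rings and the
same reductions. -/
structure Compat (C : Chart R F k ι κ) (T : TotN K F L k ι Z κ) : Prop where
  hV : ∀ i, C.V i = T.V i
  hrd : ∀ (i : ι) (x : F), C.rd i x = T.rdN i x

/-- `z` is a point of the chart: no function of `B` has a pole on the fibre of `z`. -/
def InChart (C : Chart R F k ι κ) (T : TotN K F L k ι Z κ) (z : Z) : Prop :=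
  ∀ β : C.B, ∀ P, T.ρ P = z → RegAt P (algebraMap F L (β : F))

/-- GLUE3 at `z`: the reductions of a function of `R_z` take the same value at `z`. -/
def Glued (T : TotN K F L k ι Z κ) (z : Z) : Prop :=
  ∀ f : F, T.InR z f → ∀ (i j : ι) (c : k),
    HasValue (T.pt i z) (T.rdN i f) c ↔ HasValue (T.pt j z) (T.rdN j f) c

variable {C : Chart R F k ι κ} {T : TotN K F L k ι Z κ}

theorem Compat.mem_V (hc : Compat C T) (i : ι) (β : C.B) : (β : F) ∈ T.V i := by
  rw [← hc.hV]
  exact C.B_le i _ β.2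

theorem Compat.rdB_eq (hc : Compat C T) (i : ι) (β : C.B) : C.rdB i β = T.rdN i (β : F) := by
  rw [← C.rd_coe, hc.hrd]

theorem Compat.inR (hc : Compat C T) {z : Z} (hz : InChart C T z) (β : C.B) :
    T.InR z (β : F) := ⟨fun i => hc.mem_V i β, hz β⟩

theorem Compat.regAt_rdB [Infinite k] (hc : Compat C T) (hP : HasPrincipalDivisors K L) {z : Z}
    (hz : InChart C T z) (i : ι) (β : C.B) : RegAt (T.pt i z) (C.rdB i β) := by
  rw [hc.rdB_eq]
  exact (hc.inR hz β).regAt hP i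

theorem hasValue_zero_iff {E : Type*} [Field E] [Algebra k E] (v : Place k E) (f : E) :
    HasValue v f 0 ↔ VanAt v f := by
  unfold HasValue
  rw [map_zero, sub_zero]

theorem Glued.vanAt_iff {z : Z} (hg : Glued T z) {f : F} (hf : T.InR z f) (i j : ι) :
    VanAt (T.pt i z) (T.rdN i f) ↔ VanAt (T.pt j z) (T.rdN j f) := by
  rw [← hasValue_zero_iff, ← hasValue_zero_iff]
  exact hg f hf i j 0

/-! ## (i) the closed point `𝔪_z` -/

/-- The closed point `𝔪_z` of the chart (defined with the component `i`). -/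
def ptMax [Infinite k] (hc : Compat C T) (hP : HasPrincipalDivisors K L) {z : Z}
    (hz : InChart C T z) (i : ι) : Ideal C.B :=
  ptIdeal C i (T.pt i z) (hc.regAt_rdB hP hz i)

theorem mem_ptMax [Infinite k] (hc : Compat C T) (hP : HasPrincipalDivisors K L) {z : Z}
    (hz : InChart C T z) (i : ι) (β : C.B) :
    β ∈ ptMax hc hP hz i ↔ VanAt (T.pt i z) (C.rdB i β) := Iff.rfl

/-- `𝔪_z` does not depend on the component. -/
theorem mem_ptMax_iff [Infinite k] (hc : Compat C T) (hP : HasPrincipalDivisors K L) {z : Z}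
    (hz : InChart C T z) (hg : Glued T z) (i j : ι) (β : C.B) :
    β ∈ ptMax hc hP hz i ↔ VanAt (T.pt j z) (C.rdB j β) := by
  rw [mem_ptMax, hc.rdB_eq, hc.rdB_eq]
  exact hg.vanAt_iff (hc.inR hz β) i j

theorem ptMax_eq [Infinite k] (hc : Compat C T) (hP : HasPrincipalDivisors K L) {z : Z}
    (hz : InChart C T z) (hg : Glued T z) (i j : ι) : ptMax hc hP hz i = ptMax hc hP hz j := by
  ext β
  rw [mem_ptMax_iff hc hP hz hg i j, mem_ptMax]

theorem ptMax_isMaximal [Infinite k] (hc : Compat C T) (hP : HasPrincipalDivisors K L) {z : Z}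
    (hz : InChart C T z) (i : ι) (hdeg : (T.pt i z).deg = 1) :
    (ptMax hc hP hz i).IsMaximal :=
  ptIdeal_isMaximal _ hdeg

/-- All components pass through `𝔪_z`. -/
theorem Icomp_le_ptMax [Infinite k] (hc : Compat C T) (hP : HasPrincipalDivisors K L) {z : Z}
    (hz : InChart C T z) (hg : Glued T z) (i j : ι) : C.Icomp j ≤ ptMax hc hP hz i := by
  rw [ptMax_eq hc hP hz hg i j]
  exact Icomp_le_ptIdeal _

/-- A closed point `𝔪` of the chart whose functions are those vanishing at `z` (for one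
component): the valuation ring of every branch is the valuation ring of the point `pt j z`. -/
theorem branch_O_eq_pt [Infinite k] (hc : Compat C T) (hP : HasPrincipalDivisors K L) {z : Z}
    (hz : InChart C T z) (hg : Glued T z) {𝔪 : Ideal C.B} (i : ι)
    (h𝔪 : ∀ β : C.B, β ∈ 𝔪 ↔ VanAt (T.pt i z) (C.rdB i β)) (j : ι) (b : Branch C 𝔪 j) :
    b.O = (T.pt j z).toValuationSubring := by
  refine branch_O_eq_place b _ (hc.regAt_rdB hP hz j) fun β hβ => ?_
  rw [h𝔪, hc.rdB_eq]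
  rw [hc.rdB_eq] at hβ
  exact (hg.vanAt_iff (hc.inR hz β) j i).1 hβ

/-! ## (ii) REG gives `IsGen` -/

/-- **(ii)** a local generator in the sense of helper16 (`h sⁿ ∈ B`, not vanishing at `z` on one
component) is a local generator in the sense of helper79. -/
theorem isGen_of_reg [Infinite k] (hc : Compat C T) (hP : HasPrincipalDivisors K L) {z : Z}
    (hz : InChart C T z) (hg : Glued T z) {n : ℕ} (hn : 0 < n) {h s : F}
    (hu : ∀ i, T.rdN i h ≠ 0) (hs : h * s ^ n ∈ C.B) (i₀ : ι)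
    (hnv : ¬ VanAt (T.pt i₀ z) (C.rdB i₀ ⟨h * s ^ n, hs⟩)) :
    (∀ i, T.rdN i s ≠ 0) ∧ ∀ P, T.ρ P = z → P.ord (algebraMap F L (h * s ^ n)) = 0 := by
  have hR : T.InR z (h * s ^ n) := hc.inR hz ⟨h * s ^ n, hs⟩
  have hnv' : ∀ i, ¬ VanAt (T.pt i z) (T.rdN i (h * s ^ n)) := by
    intro i hv
    apply hnv
    rw [hc.rdB_eq]
    exact (hg.vanAt_iff hR i i₀).1 hv
  have hsV : ∀ i, s ∈ T.V i := by
    intro i
    have h1 : s ^ n ∈ T.V i := by
      have h2 : s ^ n = h⁻¹ * (h * s ^ n) := by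
        rw [← mul_assoc, inv_mul_cancel₀ (fun h0 => hu i (by
          rw [h0, T.rdN_of_mem (T.V i).zero_mem]
          exact map_zero (T.red i))), one_mul]
      rw [h2]
      exact (T.V i).mul_mem _ _ (T.inv_mem_of_rdN_ne_zero (hu i)) (hR.1 i)
    rw [← ValuationSubring.valuation_le_one_iff] at h1 ⊢
    rw [map_pow] at h1
    exact (pow_le_one_iff_of_nonneg zero_le hn.ne').1 h1
  refine ⟨fun i h0 => hnv' i ?_, fun P hPz => ?_⟩
  · rw [T.rdN_mul (T.mem_of_rdN_ne_zero (hu i)) ((T.V i).pow_mem (hsV i) n),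
      T.rdN_pow (hsV i), h0, zero_pow hn.ne', mul_zero]
    exact vanAt_zero _
  · refine T.ord_eq_zero_of_not_vanAt hP hR.1 hR.2 (fun i hv => hnv' i ?_) hPz
    rw [T.rdN_of_mem (hR.1 i)]
    exact hv

/-! ## (iii) from `TrivRed` to the residues `g i` and (EQV) -/

section Triv

variable {K' L' L₁ L₂ : Type*} [Field K'] [Field L'] [Algebra K' L'] [Field L₁] [Algebra k L₁]
  [Field L₂] [Algebra k L₂] (D : NUData K F L k ι Z κ K' L' L₁ L₂)

/-- The residues `g i = (γ G i)⁻¹`. -/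
def gOf (γ : k) (G : ∀ i, κ i) : ∀ i, κ i := fun i => (algebraMap k (κ i) γ * G i)⁻¹

/-- `g i ^ n * rd i H = 1` when `rd i H = γⁿ G i ^ n ≠ 0`. -/
theorem root_g_of_red {n : ℕ} {H : F} {γ : k} {G : ∀ i, κ i} (i : ι)
    (hu : D.T.rdN i H ≠ 0)
    (hred : D.T.rdN i H = algebraMap k (κ i) (γ ^ n) * G i ^ n) :
    gOf γ G i ^ n * D.T.rdN i H = 1 := by
  have h1 : algebraMap k (κ i) (γ ^ n) * G i ^ n = (algebraMap k (κ i) γ * G i) ^ n := by
    rw [map_pow, mul_pow]
  rw [h1] at hred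
  have h2 : (algebraMap k (κ i) γ * G i) ^ n ≠ 0 := by
    rw [← hred]
    exact hu
  unfold gOf
  rw [hred, inv_pow, inv_mul_cancel₀ h2]

/-- (EQV) at a triple point, in the language of values. -/
theorem eqv_of_val {z : Z} (hdeg : ∀ i, (D.T.pt i z).deg = 1) {γ : k} (hγ : γ ≠ 0)
    {G : ∀ i, κ i} {s : F} {a : k} (ha : a ≠ 0)
    (hval : ∀ i, HasValue (D.T.pt i z) (G i * D.T.rdN i s) a) (i : ι) :
    HasValue (D.T.pt i z) (gOf γ G i * (D.T.rdN i s)⁻¹) (γ * a)⁻¹ := by
  have h1 : HasValue (D.T.pt i z) (algebraMap k (κ i) γ * (G i * D.T.rdN i s)) (γ * a) :=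
    (hval i).const_mul γ
  have h2 := h1.inv (hdeg i) (mul_ne_zero hγ ha)
  have h3 : gOf γ G i * (D.T.rdN i s)⁻¹ = (algebraMap k (κ i) γ * (G i * D.T.rdN i s))⁻¹ := by
    unfold gOf
    rw [← mul_inv, mul_assoc]
  rw [h3]
  exact h2

/-- **(iii)** from the trivial reduction data of `H` (helper79's `TrivRed`) to the residues `g`
with `g i ^ n * rd i H = 1` and (EQV) at all triple points. -/
theorem exists_g_of_trivRed {n : ℕ} (hn : n ≠ 0) (hroot : ∀ c : k, ∃ γ : k, γ ^ n = c) {H : F}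
    (hu : ∀ i, D.T.rdN i H ≠ 0) (ht : D.TrivRed n H) :
    ∃ g : ∀ i, κ i, (∀ i, g i ^ n * D.T.rdN i H = 1) ∧
      ∀ z ∈ D.SS, ∀ s : F, D.IsGen n z H s →
        ∃ c : k, ∀ i, HasValue (D.T.pt i z) (g i * (D.T.rdN i s)⁻¹) c := by
  obtain ⟨c, G, hc0, hred, hval⟩ := ht
  obtain ⟨γ, hγ⟩ := hroot c
  have hγ0 : γ ≠ 0 := by
    rintro rfl
    rw [zero_pow hn] at hγ
    exact hc0 hγ.symm
  subst hγ
  refine ⟨gOf γ G, fun i => root_g_of_red D i (hu i) (hred i), fun z hz s hs => ?_⟩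
  obtain ⟨a, ha, hv⟩ := hval z hz s hs
  exact ⟨(γ * a)⁻¹, fun i => eqv_of_val D (D.deg_one z hz) hγ0 ha hv i⟩

end Triv

end Fermat.Agent.S36.NU.H24

end
end
-- ==== END Fermat.Agent.S36.NU.H24_BridgeB

-- ==== BEGIN Fermat.Agent.S36.NU.H44_PoleInst
section
attribute [local instance 10000] SubalgebraClass.toAlgebra
attribute [local instance 10000] HahnSeries.powerSeriesAlgebra

/-!
# S36 / NU-B, leaf POLE-INST (helper44): COORD + POLE at the supersingular places, `q ≥ 5`

`q ≥ 5`, `q ∤ M`, `4 ∣ M`, `A` over `q`, `k = kV A`, `κ = modularFunctionFieldFullC k M`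
(`= FM A M` by (GA)).  `ū = ubar4 = Δ̄(t)/Δ̄(t⁴)` (the reduction of `u = unitF M 4`),
`δ̄` = the reduction of `δ = (u^q - u(t^q))/q` (`= coeffMap (kdel q uZ4)`).

A place `z` of `κ` is SUPERSINGULAR if `j̄` is regular at `z` and `Δ̄^{1-q}` (the reduction of the
modular unit `Δ(t)/Δ(t^q)`, `= H(j̄)`) vanishes at `z`.

* `exists_hasse_mult` : the supersingular polynomial `H` with `H(j̄) = Δ̄^{1-q}`, `X⁴ ∣ H` if
  `H(0) = 0`, `(X - 1728)⁶ ∣ H` if `H(1728) = 0`;
* `isRoot_of_ord_aeval_pos` : `H(x)` vanishes at `z` ⟹ `x(z)` is a root of `H`;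
* `pole_core` : at a supersingular place `z` (with `δ̄ (ū^{q²} - ū)` regular at `z`):
  `ord_z (ū - c) = 1`, `c^{q²} = c`, `ord_z δ̄ = -1`  — the hypotheses `hu`, `hc`, `hd` of
  helper16's `locEq_ss_coord`;
* `pole_inst` : the same for any subfield `E = κ` of `k((t))` (e.g. `FM A M`);
* `pole_inst_d2` : `ord_z y = -q` for `y = - δ̄^q` (the reduction of `t₂₀ / q`).
-/

set_option autoImplicit false
set_option linter.style.haveILetI false
set_option linter.unusedSectionVars false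
set_option synthInstance.maxHeartbeats 400000
set_option maxHeartbeats 1000000

noncomputable section

open Polynomial AlgebraicCurve IntermediateField ModularCurve

namespace Fermat.Agent.S36.NU.H44

open Fermat.Agent.RED.H51 Fermat.Agent.BAD.H21 Fermat.Agent.S36.NU.H73 Fermat.Agent.S36.NU.H65
open Fermat.Agent.S28.H73 Fermat.Agent.RED.H73 Fermat.Agent.RED Fermat.Agent.BAD
open Fermat.Agent.S24 (Kbar FN)

section Hasse

variable {F : Type*} [Field F] {ℓ : ℕ} [hℓ : Fact ℓ.Prime] [CharP F ℓ]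

/-- **The supersingular polynomial with its multiplicities at `0` and `1728`.** -/
theorem exists_hasse_mult [IsAlgClosed F] (h5 : 5 ≤ ℓ) :
    ∃ H : F[X], aeval (jqModC F) H = (H21_DL F ^ (ℓ - 1))⁻¹ ∧ (1728 : F) ≠ 0 ∧
      (H.IsRoot 0 → (X : F[X]) ^ 4 ∣ H) ∧ (H.IsRoot 1728 → (X - C (1728 : F)) ^ 6 ∣ H) := by
  obtain ⟨d⟩ := H21_exists_ssData (F := F) (ℓ := ℓ) h5
  have hw := H21_ss_weight hℓ.out h5
  refine ⟨d.H, ?_, d.h1728, ?_, ?_⟩
  · exact H21_aeval_jqModC (by rw [hw]; exact d.natDegree_H_le) (by rw [hw]; exact d.hev_H_series)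
  · intro h0
    have ha : H21_ssA ℓ ≠ 0 := by
      rcases (d.isRoot_H_iff 0).1 h0 with h | h | h
      · exact h.1
      · exact absurd h.2.symm d.h1728
      · exact absurd h d.not_isRoot_zero
    have h4 : (X : F[X]) ^ 4 ∣ X ^ (4 * H21_ssA ℓ) := pow_dvd_pow _ (by omega)
    rw [H21_SSData.H]
    exact Dvd.dvd.mul_right (Dvd.dvd.mul_right h4 _) _
  · intro h0
    have hb : H21_ssB ℓ ≠ 0 := by
      rcases (d.isRoot_H_iff 1728).1 h0 with h | h | h
      · exact absurd h.2 d.h1728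
      · exact h.1
      · exact absurd h d.not_isRoot_1728
    have h6 : (X - C (1728 : F)) ^ 6 ∣ (X - C (1728 : F)) ^ (6 * H21_ssB ℓ) :=
      pow_dvd_pow _ (by omega)
    rw [H21_SSData.H]
    exact Dvd.dvd.mul_right (Dvd.dvd.mul_left h6 _) _

end Hasse

section Abs

variable {k : Type*} [Field k] {E : IntermediateField k (LaurentSeries k)}

/-- If `H(x)` vanishes at `z` and `x ≡ a` at `z` then `a` is a root of `H`. -/
theorem isRoot_of_ord_aeval_pos (z : Place k ↥E) {x : ↥E} {a : k}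
    (hx : OrdGe z 1 (x - algebraMap k ↥E a)) {H : k[X]} (hpos : 0 < z.ord (aeval x H)) :
    H.IsRoot a := by
  by_contra hne
  obtain ⟨Q, hQ⟩ : (X - C a) ∣ H - C (H.eval a) := Polynomial.X_sub_C_dvd_sub_C_eval
  have e : aeval x H = algebraMap k ↥E (H.eval a) + (x - algebraMap k ↥E a) * aeval x Q := by
    have h1 := congrArg (aeval x) hQ
    simp only [map_sub, map_mul, aeval_X, aeval_C] at h1
    linear_combination h1
  have hc : algebraMap k ↥E (H.eval a) ≠ 0 := by
    rw [Ne, map_eq_zero]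
    exact hne
  have h0 : z.ord (algebraMap k ↥E (H.eval a)) = 0 := ord_algebraMap z _
  have hg : OrdGe z (z.ord (algebraMap k ↥E (H.eval a)) + 1)
      ((x - algebraMap k ↥E a) * aeval x Q) := by
    rw [h0, zero_add]
    have h1 : OrdGe z 0 (aeval x Q) :=
      (ordGe_zero_iff_mem z _).mpr (aeval_mem z (mem_of_ordGe_sub z hx) Q)
    have := hx.mul h1
    rwa [add_zero] at this
  have h1 := ord_add_eq z hc hg
  rw [← e, h0] at h1
  omega

end Abs

section Core

variable (A : ValuationSubring Kbar) (q : ℕ) [hqF : Fact q.Prime] [NeZero q]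
  (hA : A.LiesOverPrime q) (M : ℕ) [NeZero M]

include hA in
/-- **POLE-INST**, core form on `κ = modularFunctionFieldFullC (kV A) M`. -/
theorem pole_core (hqM : ¬ q ∣ M) (h5 : 5 ≤ q) (h4 : 4 ∣ M)
    (z : Place (kV A) ↥(modularFunctionFieldFullC (kV A) M))
    (jE u y d : ↥(modularFunctionFieldFullC (kV A) M))
    (hj : (jE : LaurentSeries (kV A)) = jqModC (kV A))
    (hu : (u : LaurentSeries (kV A)) = H73.ubar4 (kV A))
    (hy : (y : LaurentSeries (kV A)) = (H21_DL (kV A) ^ (q - 1))⁻¹)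
    (hd : (d : LaurentSeries (kV A)) = coeffMap (Int.castRingHom (kV A)) (kdel q uZ4))
    (hz : 0 ≤ z.ord jE) (hss : 0 < z.ord y)
    (hP : d * (u ^ q ^ 2 - u) ∈ z.toValuationSubring) :
    ∃ c : kV A, z.ord (u - algebraMap (kV A) ↥(modularFunctionFieldFullC (kV A) M) c) = 1 ∧
      c ^ q ^ 2 = c ∧ z.ord d = -1 := by
  have hq : q.Prime := hqF.out
  haveI : CharP (kV A) q := BAD.H82.charP_kV A hq hA
  haveI : IsAlgClosed (kV A) := isAlgClosed_kV A
  have hjE : jE = ⟨jqModC (kV A), jqModC_mem_full (kV A) M⟩ := Subtype.ext hj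
  have huE : u = ⟨H73.ubar4 (kV A), H73.ubar4_mem A q hq hA M hqM h4⟩ := Subtype.ext hu
  rw [hjE] at hz
  obtain ⟨j0, e, hram, hcase, -, c, hc⟩ := H30.coord_u4_ram A q hq hA M hqM h5 h4 z hz
  rw [← hjE] at hram
  rw [← huE] at hc
  obtain ⟨H, hH, h1728, hμ0, hμ1728⟩ := exists_hasse_mult (F := kV A) (ℓ := q) h5
  have hPB := H73.hasPBasis_fullC A q hq hA M hqM
  have hθ : thetaL (d : LaurentSeries (kV A)) =
      (u : LaurentSeries (kV A)) ^ (q - 1) * thetaL (u : LaurentSeries (kV A)) -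
        thetaL (u : LaurentSeries (kV A)) ^ q := by
    rw [hd, hu, ← coeffMap_uZ4]
    exact thetaL_dbar_of_int uZ4 (kdel q uZ4) (kdel_spec q uZ4)
  have hyE : aeval jE H = y := by
    apply Subtype.ext
    rw [← IntermediateField.aeval_coe, hj, hH, hy]
  have he1 : 1 ≤ e := by
    rcases hcase with h | h | h
    · omega
    · omega
    · omega
  have hord : OrdGe z 1 (jE - algebraMap (kV A) ↥(modularFunctionFieldFullC (kV A) M) j0) :=
    Or.inr (by rw [hram]; exact_mod_cast he1)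
  have hroot : H.IsRoot j0 := isRoot_of_ord_aeval_pos z hord (by rw [hyE]; exact hss)
  rcases hcase with ⟨h0, h17, -⟩ | ⟨h0, he⟩ | ⟨h17, he⟩
  · obtain ⟨hc2, hd1⟩ := H73.ord_dbar hPB z c hc hθ hj hH hord hroot h0 h17 rfl hP
    exact ⟨c, hc, hc2, hd1⟩
  · subst h0
    have he3 : 3 ≤ z.ord jE := by
      rw [map_zero, sub_zero] at hram
      rw [hram, he]
      norm_num
    obtain ⟨hc2, hd1⟩ := H73.ord_dbar_zero hPB z c hc hθ hj hH h1728 (hμ0 hroot) he3 rfl hP
    exact ⟨c, hc, hc2, hd1⟩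
  · subst h17
    have he2 : 2 ≤ z.ord (jE - algebraMap (kV A) ↥(modularFunctionFieldFullC (kV A) M) 1728) := by
      rw [hram, he]
      norm_num
    obtain ⟨hc2, hd1⟩ := H73.ord_dbar_1728 hPB z c hc hθ hj hH h1728 (hμ1728 hroot) he2 rfl hP
    exact ⟨c, hc, hc2, hd1⟩

end Core

section Generic

variable (A : ValuationSubring Kbar) (q : ℕ) [hqF : Fact q.Prime] [NeZero q]
  (hA : A.LiesOverPrime q) (M : ℕ) [NeZero M]

include hA in
/-- **POLE-INST** for a subfield `E = κ` of `k((t))` (e.g. `E = FM A M`, by (GA)). -/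
theorem pole_inst (hqM : ¬ q ∣ M) (h5 : 5 ≤ q) (h4 : 4 ∣ M)
    (E : IntermediateField (kV A) (LaurentSeries (kV A)))
    (hE : E = modularFunctionFieldFullC (kV A) M)
    (z : Place (kV A) ↥E) (jE u y d : ↥E)
    (hj : (jE : LaurentSeries (kV A)) = jqModC (kV A))
    (hu : (u : LaurentSeries (kV A)) = H73.ubar4 (kV A))
    (hy : (y : LaurentSeries (kV A)) = (H21_DL (kV A) ^ (q - 1))⁻¹)
    (hd : (d : LaurentSeries (kV A)) = coeffMap (Int.castRingHom (kV A)) (kdel q uZ4))
    (hz : 0 ≤ z.ord jE) (hss : 0 < z.ord y)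
    (hP : d * (u ^ q ^ 2 - u) ∈ z.toValuationSubring) :
    ∃ c : kV A, z.ord (u - algebraMap (kV A) ↥E c) = 1 ∧ c ^ q ^ 2 = c ∧ z.ord d = -1 := by
  subst hE
  exact pole_core A q hA M hqM h5 h4 z jE u y d hj hu hy hd hz hss hP

include hA in
/-- **POLE-INST**, with the reduction `y₂ = - δ̄^q` of `t₂₀ / q`
(helper65's `gaussRedV_T20_div`): `ord_z y₂ = -q`. -/
theorem pole_inst_d2 (hqM : ¬ q ∣ M) (h5 : 5 ≤ q) (h4 : 4 ∣ M)
    (E : IntermediateField (kV A) (LaurentSeries (kV A)))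
    (hE : E = modularFunctionFieldFullC (kV A) M)
    (z : Place (kV A) ↥E) (jE u y d y₂ : ↥E)
    (hj : (jE : LaurentSeries (kV A)) = jqModC (kV A))
    (hu : (u : LaurentSeries (kV A)) = H73.ubar4 (kV A))
    (hy : (y : LaurentSeries (kV A)) = (H21_DL (kV A) ^ (q - 1))⁻¹)
    (hd : (d : LaurentSeries (kV A)) = coeffMap (Int.castRingHom (kV A)) (kdel q uZ4))
    (hy₂ : (y₂ : LaurentSeries (kV A))
      = - coeffMap (Int.castRingHom (kV A)) (kdel q uZ4) ^ q)
    (hz : 0 ≤ z.ord jE) (hss : 0 < z.ord y)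
    (hP : d * (u ^ q ^ 2 - u) ∈ z.toValuationSubring) :
    ∃ c : kV A, z.ord (u - algebraMap (kV A) ↥E c) = 1 ∧ c ^ q ^ 2 = c ∧
      z.ord y₂ = -(q : ℤ) := by
  obtain ⟨c, h1, h2, h3⟩ := pole_inst A q hA M hqM h5 h4 E hE z jE u y d hj hu hy hd hz hss hP
  refine ⟨c, h1, h2, ?_⟩
  have e : y₂ = - d ^ q := by
    apply Subtype.ext
    rw [hy₂]
    show _ = -((d : LaurentSeries (kV A)) ^ q)
    rw [hd]
  rw [e, ord_neg, ord_pow, h3]
  ring

end Generic

end Fermat.Agent.S36.NU.H44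

end
end
-- ==== END Fermat.Agent.S36.NU.H44_PoleInst

-- ==== BEGIN Fermat.Agent.S36.NU.H5_Q23Three
section
attribute [local instance 10000] SubalgebraClass.toAlgebra
attribute [local instance 10000] HahnSeries.powerSeriesAlgebra

/-!
# S36 / NU-B, leaf Q23 (helper5): POLE for `q = 3` (auxiliary level `4`)

Characteristic `3`.  `j₀ = j̄`, `j₁ = j̄(t²)`, `j₂ = j̄(t⁴)`, `w₁ = h̄₂ = j₁ / j₀`, `w = h̄₂(t²) = j₂ / j₁`,
`h = (w - w₁) / (w₁ + 1)` (the reduction of the Hauptmodul `η(τ)⁸ / η(4τ)⁸` of `X₀(4)`).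

* `q23_three_ode` : `θ h · (2 h + 1) = h (h + 1)`;
* `q23_three_jh` : `j₀ h⁴ (h + 1) = (h - 1)⁶`;
* `q23_ord_dbar_three` : **POLE for `q = 3`**: in a field `E ⊆ k((t))` with `[E : E³] = 3` containing
  `j̄, j̄(t²), j̄(t⁴)`, at every place `z` with `ord_z j̄ > 0` (supersingular) and every coordinate `ū`
  at `z` with THETA and (L1): `c⁹ = c` and `ord_z d̄ = -1`.  No ramification input.
-/

set_option autoImplicit false

noncomputable section

open ModularCurve AlgebraicCurve IntermediateField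

namespace Fermat.Agent.S36.NU.H5

open Fermat.Agent.RED.H51 Fermat.Agent.S36.NU.H73

section ThreeSeries

variable (k : Type*) [Field k]

/-- `h̄₂`, the reduction of `Δ(t)/Δ(t²)`. -/
def q23W1 : LaurentSeries k := coeffMap (Int.castRingHom k) Fermat.Agent.RED.H70.hZ2

/-- `h̄₂(t²)`. -/
def q23W : LaurentSeries k := qExpand k 2 (q23W1 k)

/-- The reduction of the Hauptmodul of `X₀(4)` in characteristic `3`. -/
def q23H3 : LaurentSeries k := (q23W k - q23W1 k) / (q23W1 k + 1)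

variable {k}

theorem q23W1_coeff_neg_one : (q23W1 k).coeff (-1) = 1 := by
  rw [q23W1, coeffMap_coeff, Fermat.Agent.RED.H70.hZ2_coeff_neg_one, map_one]

theorem q23W1_ne_zero : q23W1 k ≠ 0 := by
  intro h
  have h1 := q23W1_coeff_neg_one (k := k)
  rw [h] at h1
  simp at h1

variable [CharP k 3]

theorem q23_three_L : (3 : LaurentSeries k) = 0 := by
  have h := q23_natCast_eq_zero (k := k) (n := 3) (by exact_mod_cast CharP.cast_eq_zero k 3)
  exact_mod_cast h

theorem q23W1_ident : (q23W1 k + 1) ^ 3 = jqModC k * q23W1 k ^ 2 := by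
  have h := congrArg (coeffMap (Int.castRingHom k)) Fermat.Agent.RED.H70.hZ2_ident
  rw [map_pow, map_add, map_mul, map_pow, coeffMap_jqModC, map_ofNat] at h
  have h3 := q23_three_L (k := k)
  rw [q23W1]
  linear_combination h +
    (-85 * ((coeffMap (Int.castRingHom k) Fermat.Agent.RED.H70.hZ2 + 256) ^ 2
      + (coeffMap (Int.castRingHom k) Fermat.Agent.RED.H70.hZ2 + 256)
        * (coeffMap (Int.castRingHom k) Fermat.Agent.RED.H70.hZ2 + 1)
      + (coeffMap (Int.castRingHom k) Fermat.Agent.RED.H70.hZ2 + 1) ^ 2)) * h3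

theorem q23W1_ident' : (q23W1 k + 1) ^ 3 = qExpand k 2 (jqModC k) * q23W1 k := by
  have h := congrArg (coeffMap (Int.castRingHom k)) Fermat.Agent.RED.H70.hZ2_ident'
  rw [map_pow, map_add, map_mul, coeffMap_qExpand, coeffMap_jqModC, map_ofNat] at h
  have h3 := q23_three_L (k := k)
  rw [q23W1]
  linear_combination h +
    (-5 * ((coeffMap (Int.castRingHom k) Fermat.Agent.RED.H70.hZ2 + 16) ^ 2
      + (coeffMap (Int.castRingHom k) Fermat.Agent.RED.H70.hZ2 + 16)
        * (coeffMap (Int.castRingHom k) Fermat.Agent.RED.H70.hZ2 + 1)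
      + (coeffMap (Int.castRingHom k) Fermat.Agent.RED.H70.hZ2 + 1) ^ 2)) * h3

/-- `j₀ w₁ = j₁`. -/
theorem q23_j0_mul_W1 : jqModC k * q23W1 k = qExpand k 2 (jqModC k) := by
  have h1 := q23W1_ident (k := k)
  have h2 := q23W1_ident' (k := k)
  refine mul_right_cancel₀ (q23W1_ne_zero (k := k)) ?_
  linear_combination h2 - h1

omit [CharP k 3] in
theorem q23_qExpand_two_two (f : LaurentSeries k) :
    qExpand k 2 (qExpand k 2 f) = qExpand k 4 f := by
  rw [qExpand_qExpand]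

/-- `j₁ w = j₂`. -/
theorem q23_j1_mul_W : qExpand k 2 (jqModC k) * q23W k = qExpand k 4 (jqModC k) := by
  have h := congrArg (qExpand k 2) (q23_j0_mul_W1 (k := k))
  rw [map_mul, q23_qExpand_two_two] at h
  exact h

theorem q23W_ident : (q23W k + 1) ^ 3 = qExpand k 2 (jqModC k) * q23W k ^ 2 := by
  have h := congrArg (qExpand k 2) (q23W1_ident (k := k))
  rw [map_pow, map_add, map_one, map_mul, map_pow] at h
  exact h

omit [CharP k 3] in
theorem q23W_ne_zero : q23W k ≠ 0 := by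
  intro h
  apply q23W1_ne_zero (k := k)
  apply qExpand_injective (R := k) 2
  rw [map_zero]
  exact h

theorem q23_W1W_ne_one : q23W1 k * q23W k ≠ 1 := by
  intro h
  -- then `j₂ = j₀`
  have h0 := q23W1_ident (k := k)
  have h1 := q23W_ident (k := k)
  have h2 := q23_j1_mul_W (k := k)
  have hw1 := q23W1_ne_zero (k := k)
  have key : q23W1 k ^ 2 * (qExpand k 4 (jqModC k) - jqModC k) = 0 := by
    linear_combination h0 - (q23W1 k ^ 3) * h1
      + (((q23W1 k * q23W k + q23W1 k) ^ 2 + (q23W1 k * q23W k + q23W1 k) * (1 + q23W1 k)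
          + (1 + q23W1 k) ^ 2) - qExpand k 4 (jqModC k) * q23W1 k ^ 2) * h
      - (q23W1 k ^ 3 * q23W k) * h2
  rcases mul_eq_zero.mp key with h4 | h4
  · exact hw1 (pow_eq_zero_iff (two_ne_zero) |>.mp h4)
  · exact q23_jN_ne (k := k) 4 (by norm_num) (sub_eq_zero.mp h4)

theorem q23W1_add_one_ne_zero : q23W1 k + 1 ≠ 0 := by
  intro h
  have h2 := q23W1_ident' (k := k)
  rw [h, zero_pow (by norm_num)] at h2
  rcases mul_eq_zero.mp h2.symm with h4 | h4
  · exact q23_jN_ne_zero (k := k) 2 h4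
  · exact q23W1_ne_zero (k := k) h4

/-- The modular equation of level `2` for `h̄₂`: `w² = w₁² w + w₁`. -/
theorem q23_three_modEq : q23W k ^ 2 = q23W1 k ^ 2 * q23W k + q23W1 k :=
  q23_three_R (q23_three_L (k := k)) (q23W1_ident' (k := k)) (q23W_ident (k := k))
    (q23_W1W_ne_one (k := k))

theorem q23H3_mul : q23H3 k * (q23W1 k + 1) = q23W k - q23W1 k := by
  rw [q23H3, div_mul_cancel₀ _ (q23W1_add_one_ne_zero (k := k))]

/-- `h² + h = w`. -/
theorem q23H3_sq_add : q23H3 k ^ 2 + q23H3 k = q23W k :=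
  (q23_three_h (q23_three_L (k := k)) (q23_three_modEq (k := k)) (q23H3_mul (k := k))
    (q23W1_add_one_ne_zero (k := k))).1

/-- `w₁ (h + 1) = h²`. -/
theorem q23H3_W1 : q23W1 k * (q23H3 k + 1) = q23H3 k ^ 2 :=
  (q23_three_h (q23_three_L (k := k)) (q23_three_modEq (k := k)) (q23H3_mul (k := k))
    (q23W1_add_one_ne_zero (k := k))).2

/-- **`j̄ h⁴ (h + 1) = (h - 1)⁶`**. -/
theorem q23_three_jh : jqModC k * q23H3 k ^ 4 * (q23H3 k + 1) = (q23H3 k - 1) ^ 6 :=
  q23_three_j (q23_three_L (k := k)) (q23W1_ident (k := k)) (q23H3_W1 (k := k))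

/-- `θ w₁ = - w₁`. -/
theorem q23_thetaL_W1 : thetaL (q23W1 k) = -q23W1 k := by
  have h := congrArg thetaL (q23_j0_mul_W1 (k := k))
  rw [thetaL_mul, q23_thetaL_j (k := k) (ℓ := 3) (Or.inr rfl),
    q23_thetaL_jN (k := k) (ℓ := 3) (Or.inr rfl) 2] at h
  have e := q23_j0_mul_W1 (k := k)
  refine mul_left_cancel₀ (q23_jq_ne_zero (k := k)) ?_
  push_cast at h
  linear_combination h + 2 * e

/-- `θ w = w`. -/
theorem q23_thetaL_W : thetaL (q23W k) = q23W k := by
  rw [q23W, thetaL_qExpand, q23_thetaL_W1, map_neg]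
  have h3 := q23_three_L (k := k)
  push_cast
  linear_combination (-(qExpand k 2 (q23W1 k))) * h3

/-- **The ODE of the Hauptmodul of `X₀(4)` in characteristic `3`**:
`θ h · (2 h + 1) = h (h + 1)`. -/
theorem q23_three_ode : thetaL (q23H3 k) * (2 * q23H3 k + 1) = q23H3 k * (q23H3 k + 1) := by
  have h := congrArg thetaL (q23H3_sq_add (k := k))
  rw [map_add, thetaL_pow, q23_thetaL_W, ← q23H3_sq_add (k := k)] at h
  push_cast at h
  simp only [pow_one] at h
  linear_combination h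

end ThreeSeries

section ThreePlace

variable {k : Type*} [Field k] [CharP k 3]
variable {E : IntermediateField k (LaurentSeries k)}

/-- The reduction of the Hauptmodul of `X₀(4)` as an element of a field `E ∋ j̄, j̄(t²), j̄(t⁴)`. -/
def q23hE3 (jE0 jE1 jE2 : ↥E) : ↥E := (jE2 / jE1 - jE1 / jE0) / (jE1 / jE0 + 1)

omit [CharP k 3] in
theorem q23_coe_div (a b : ↥E) :
    ((a / b : ↥E) : LaurentSeries k) = (a : LaurentSeries k) / (b : LaurentSeries k) := rfl

theorem q23hE3_coe {jE0 jE1 jE2 : ↥E} (hj0 : (jE0 : LaurentSeries k) = jqModC k)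
    (hj1 : (jE1 : LaurentSeries k) = qExpand k 2 (jqModC k))
    (hj2 : (jE2 : LaurentSeries k) = qExpand k 4 (jqModC k)) :
    ((q23hE3 jE0 jE1 jE2 : ↥E) : LaurentSeries k) = q23H3 k := by
  have e1 : (jE1 : LaurentSeries k) / (jE0 : LaurentSeries k) = q23W1 k := by
    rw [hj0, hj1, div_eq_iff (q23_jq_ne_zero (k := k)), mul_comm]
    exact (q23_j0_mul_W1 (k := k)).symm
  have e2 : (jE2 : LaurentSeries k) / (jE1 : LaurentSeries k) = q23W k := by
    rw [hj1, hj2, div_eq_iff (q23_jN_ne_zero (k := k) 2), mul_comm]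
    exact (q23_j1_mul_W (k := k)).symm
  rw [q23hE3, q23H3, q23_coe_div, coeE_sub, IntermediateField.coe_add, q23_coe_div, q23_coe_div,
    IntermediateField.coe_one, e1, e2]

omit [CharP k 3] in
/-- At a zero of `j̄`: `h` is regular and `h ≡ 1`. -/
theorem q23_three_place (z : Place k ↥E) {h j : ↥E}
    (hjh : j * h ^ 4 * (h + 1) = (h - 1) ^ 6) (hz : 0 < z.ord j) :
    h ∈ z.toValuationSubring ∧ OrdGe z 1 (h - 1) := by
  have hj0 : j ≠ 0 := ne_zero_of_ord_ne_zero z (by omega)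
  have hmem : h ∈ z.toValuationSubring := by
    by_contra hh
    have hneg : z.ord h < 0 := (not_mem_iff_ord_neg z).mp hh
    have hh0 : h ≠ 0 := ne_zero_of_ord_ne_zero z (by omega)
    have h1 : OrdGe z (z.ord h + 1) (1 : ↥E) := Or.inr (by rw [z.ord_one]; omega)
    have hp := ord_add_eq z hh0 h1
    have hm := ord_add_eq z hh0 h1.neg
    rw [← sub_eq_add_neg] at hm
    have hL : z.ord (j * h ^ 4 * (h + 1)) = z.ord j + 4 * z.ord h + z.ord h := by
      rw [z.ord_mul (mul_ne_zero hj0 (pow_ne_zero 4 hh0)) hp.1,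
        z.ord_mul hj0 (pow_ne_zero 4 hh0), ord_pow, hp.2]
      push_cast
      ring
    have hR : z.ord ((h - 1) ^ 6) = 6 * z.ord h := by
      rw [ord_pow, hm.2]
      push_cast
      ring
    rw [hjh, hR] at hL
    omega
  refine ⟨hmem, ?_⟩
  rcases eq_or_ne (h - 1) 0 with h0 | h0
  · exact Or.inl h0
  · refine Or.inr ?_
    have hR0 : (h - 1) ^ 6 ≠ 0 := pow_ne_zero 6 h0
    rw [← hjh] at hR0
    have hG0 : h ^ 4 * (h + 1) ≠ 0 := by
      intro h1
      apply hR0
      rw [mul_assoc, h1, mul_zero]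
    have hG : 0 ≤ z.ord (h ^ 4 * (h + 1)) := by
      rw [← mem_iff_ord_nonneg z hG0]
      exact mul_mem (pow_mem hmem 4) (add_mem hmem (one_mem _))
    have hL : z.ord ((h - 1) ^ 6) = z.ord j + z.ord (h ^ 4 * (h + 1)) := by
      rw [← hjh, mul_assoc, z.ord_mul hj0 hG0]
    rw [ord_pow] at hL
    push_cast at hL
    omega

/-- **POLE for `q = 3`** (auxiliary level `4`): `c⁹ = c` and `ord_z d̄ = -1` at every zero `z` of
`j̄` and every coordinate `ū` at `z`. -/
theorem q23_ord_dbar_three (hPB : HasPBasis 3 ↥E) (z : Place k ↥E) {u d jE0 jE1 jE2 P : ↥E}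
    (c : k) (hu : z.ord (u - algebraMap k ↥E c) = 1)
    (hθ : thetaL (d : LaurentSeries k) =
      (u : LaurentSeries k) ^ (3 - 1) * thetaL (u : LaurentSeries k) -
        thetaL (u : LaurentSeries k) ^ 3)
    (hj0 : (jE0 : LaurentSeries k) = jqModC k)
    (hj1 : (jE1 : LaurentSeries k) = qExpand k 2 (jqModC k))
    (hj2 : (jE2 : LaurentSeries k) = qExpand k 4 (jqModC k))
    (hz : 0 < z.ord jE0)
    (hL1 : P = d * (u ^ 3 ^ 2 - u)) (hP : P ∈ z.toValuationSubring) :
    c ^ 3 ^ 2 = c ∧ z.ord d = -1 := by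
  have : Fact (Nat.Prime 3) := ⟨Nat.prime_three⟩
  set h : ↥E := q23hE3 jE0 jE1 jE2 with hdef
  have hcoe : (h : LaurentSeries k) = q23H3 k := q23hE3_coe hj0 hj1 hj2
  have h3E : (3 : ↥E) = 0 := by
    apply Subtype.ext
    show ((3 : ↥E) : LaurentSeries k) = 0
    rw [show ((3 : ↥E) : LaurentSeries k) = 3 from rfl]
    exact q23_three_L (k := k)
  have hjh : jE0 * h ^ 4 * (h + 1) = (h - 1) ^ 6 := by
    apply Subtype.ext
    rw [IntermediateField.coe_mul, IntermediateField.coe_mul, IntermediateField.coe_pow,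
      IntermediateField.coe_add, IntermediateField.coe_one, IntermediateField.coe_pow, coeE_sub,
      IntermediateField.coe_one, hcoe, hj0]
    exact q23_three_jh (k := k)
  obtain ⟨hmem, hvan⟩ := q23_three_place z hjh hz
  have hvan' : OrdGe z 1 (h - algebraMap k ↥E 1) := by rwa [map_one]
  have h10 : (1 : k) ≠ 0 := one_ne_zero
  have h2k : (2 : k) ≠ 0 := by
    intro h2
    have h3 : ((3 : ℕ) : k) = 0 := CharP.cast_eq_zero k 3
    have h1 : (1 : k) = 0 := by
      have : (1 : k) = ((3 : ℕ) : k) - 2 := by push_cast; ring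
      rw [this, h3, h2, sub_zero]
    exact one_ne_zero h1
  have hA := ord_sub_const z hvan' h10
  rw [map_zero, sub_zero] at hA
  have hB := ord_sub_const z hvan' (b := -1) (by
    intro h1
    apply h2k
    have : (2 : k) = 1 - (-1) := by ring
    rw [this, ← h1, sub_self])
  rw [map_neg, map_one, sub_neg_eq_add] at hB
  have hode : thetaL (h : LaurentSeries k) * ((2 * h + 1 : ↥E) : LaurentSeries k) =
      ((h * (h + 1) : ↥E) : LaurentSeries k) := by
    rw [IntermediateField.coe_add, IntermediateField.coe_mul, IntermediateField.coe_mul,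
      IntermediateField.coe_add, IntermediateField.coe_one, hcoe,
      show ((2 : ↥E) : LaurentSeries k) = 2 from rfl]
    exact q23_three_ode (k := k)
  have hb : OrdGe z 1 (2 * h + 1) := by
    have e : 2 * h + 1 = -(h - 1) := by linear_combination h * h3E
    rw [e]
    exact hvan.neg
  have ha : z.ord (h * (h + 1)) = 0 := by
    rw [z.ord_mul hA.1 hB.1, hA.2, hB.2, add_zero]
  exact q23_ord_dbar_ode (q := 3) hPB z c hu hθ hode hmem (mul_ne_zero hA.1 hB.1) ha hb hL1 hP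

end ThreePlace

end Fermat.Agent.S36.NU.H5

end
end
-- ==== END Fermat.Agent.S36.NU.H5_Q23Three
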