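-- GENERATED (merged mirror, NOTES/tools/trim/merge3_helper67.py): 5 modules of the originals, bodies verbatim.
import Fermat.Agent.Zm.S36_L05_000
import Fermat.Agent.Zm.S36_L07_001
import Fermat.Agent.Zm.S36_L01_000
import Fermat.Agent.Zm.S36_L07_000
import Fermat.Agent.Zm.S36_L04_001
import Fermat.Agent.Zm.S35_L21_000
import Fermat.Agent.Zm.S36_L03_001
import Fermat.Agent.S36.NU.H5_Q23LiftAlg
import Fermat.Agent.Zm.S36_L05_001
import Fermat.Agent.Zm.S36_L01_002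

-- ==== BEGIN Fermat.Agent.S36.NU.H16_LocEqSS
section

/-!
# S36 / NU-B, leaf LOCEQ-SS, abstract part (helper16): the local equation at a triple point

`C : Chart R F k ι κ`.  The chart criterion `crit` (helper17 `mem_B_of_forall_mem`): `B` is cut
out of a ring `H ∋ q⁻¹` (the integral closure of `K[j]`) by the valuations `V i`.

* `valq_of_crit` : `(VALQ)`  `B ∩ ⋂ q V i = q B`;
* `exists_W_of_crit` : if `t i ^ e i ∈ q V i` for all `i` then `∏ t i ^ e i = q W` with `W ∈ B`;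
* `pow_mem_of_val`, `unif_of_val` : `hpow`, `hunif` of `LocEq.ofVal` from the valuations of the
  `t i` (`v_i (q) = v_i (t i) ^ e i`, `v_i (t i) < 1` generates the value group of `V i`);
* `LocEq.nonempty_of_unif` : **the local equation datum** `q W = ∏ t i ^ e i` at a closed point
  `𝔪` with `W ∉ 𝔪` (at a supersingular point: `t = (t₂₀, t₁₁, t₀₂)`, `e = (1, q - 1, 1)`;
  the Kronecker polynomial is not needed: `W := t₂₀ t₁₁ ^ (q - 1) t₀₂ / q`);
* `locEq_ss_coord` : **LOCEQ-SS from a coordinate** (N5): `u`, `u''` in `B`,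
  `t₂₀ = u ^ q² - u'' = q d₂` in `V₂₀`, `t₁₁ = u'' - u`, `t₀₂ = u'' ^ q² - u`,
  `rd₂₀ u - c` a local coordinate at the place `z` of the component `C₂₀`, `c ∈ 𝔽_{q²}`,
  `ord_z (rd₂₀ d₂) = - q` (POLE)  ⟹  all components pass through the point `𝔪_z` of the chart
  and there is a local equation datum at `𝔪_z` (via helper99 `locEq_ss`, helper10 `eis_ord`).
-/

set_option autoImplicit false

noncomputable section

namespace Fermat.Agent.S36.NU.H16

variable {R F k ι : Type*} {κ : ι → Type*} [CommRing R] [Field F] [Algebra R F]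
  [Field k] [∀ i, Field (κ i)] [∀ i, Algebra k (κ i)]

/-- `(VALQ)` from the chart criterion. -/
theorem valq_of_crit (C : Chart R F k ι κ) (q : R) (hq0 : algebraMap R F q ≠ 0)
    (H : Subring F) (hBH : ∀ x ∈ C.B, x ∈ H) (hqH : (algebraMap R F q)⁻¹ ∈ H)
    (crit : ∀ f ∈ H, (∀ i, f ∈ C.V i) → f ∈ C.B) :
    ∀ β : C.B, (∀ i, ∃ f' ∈ C.V i, (β : F) = algebraMap R F q * f') →
      ∃ β' : C.B, β = algebraMap R C.B q * β' := by
  intro β hβ
  have hf : (β : F) * (algebraMap R F q)⁻¹ ∈ C.B := by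
    refine crit _ (mul_mem (hBH _ β.2) hqH) fun i => ?_
    obtain ⟨f', hf', e⟩ := hβ i
    have : (β : F) * (algebraMap R F q)⁻¹ = f' := by
      rw [e, mul_comm (algebraMap R F q) f', mul_assoc, mul_inv_cancel₀ hq0, mul_one]
    rw [this]
    exact hf'
  refine ⟨⟨_, hf⟩, Subtype.ext ?_⟩
  change (β : F) = algebraMap R F q * ((β : F) * (algebraMap R F q)⁻¹)
  rw [mul_comm (β : F), ← mul_assoc, mul_inv_cancel₀ hq0, one_mul]

/-- The unit `W` of the local equation: `∏ t i ^ e i = q W`. -/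
theorem exists_W_of_crit [Fintype ι] [DecidableEq ι] (C : Chart R F k ι κ) (q : R)
    (hq0 : algebraMap R F q ≠ 0)
    (H : Subring F) (hBH : ∀ x ∈ C.B, x ∈ H) (hqH : (algebraMap R F q)⁻¹ ∈ H)
    (crit : ∀ f ∈ H, (∀ i, f ∈ C.V i) → f ∈ C.B) (t : ι → C.B) (e : ι → ℕ)
    (hpow : ∀ i, ∃ f' ∈ C.V i, ((t i : F)) ^ e i = algebraMap R F q * f') :
    ∃ W : C.B, algebraMap R C.B q * W = ∏ i, t i ^ e i := by
  refine valq_of_crit C q hq0 H hBH hqH crit (∏ i, t i ^ e i) (fun i => ?_) |>.imp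
    fun W hW => hW.symm
  obtain ⟨f', hf', e'⟩ := hpow i
  refine ⟨f' * ((∏ i' ∈ Finset.univ.erase i, t i' ^ e i' : C.B) : F),
    mul_mem hf' (C.B_le i _ (Subtype.mem _)), ?_⟩
  rw [← Finset.mul_prod_erase Finset.univ _ (Finset.mem_univ i)]
  change ((t i : F)) ^ e i * ((∏ i' ∈ Finset.univ.erase i, t i' ^ e i' : C.B) : F) = _
  rw [e', mul_assoc]

/-- `hpow` of `LocEq.ofVal` from the valuations. -/
theorem pow_mem_of_val (V : ValuationSubring F) {qF t : F} (hq0 : qF ≠ 0) {e : ℕ}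
    (hq : V.valuation qF = V.valuation t ^ e) :
    ∃ f' ∈ V, t ^ e = qF * f' := by
  refine ⟨t ^ e * qF⁻¹, ?_, ?_⟩
  · rw [← ValuationSubring.valuation_le_one_iff, map_mul, map_pow, map_inv₀, ← hq,
      mul_inv_cancel₀ ((Valuation.ne_zero_iff _).2 hq0)]
  · rw [mul_comm (t ^ e), ← mul_assoc, mul_inv_cancel₀ hq0, one_mul]

/-- `hunif` of `LocEq.ofVal` from the valuations: a uniformizer divides every non-unit. -/
theorem unif_of_val (V : ValuationSubring F) {t : F} (ht0 : t ≠ 0) (ht : V.valuation t < 1)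
    (hD : ∀ x : F, x ≠ 0 → ∃ m : ℤ, V.valuation x = V.valuation t ^ m) {f : F}
    (hf : V.valuation f < 1) : ∃ f' ∈ V, f = t * f' := by
  by_cases hf0 : f = 0
  · exact ⟨0, zero_mem _, by rw [hf0, mul_zero]⟩
  obtain ⟨m, hm⟩ := hD f hf0
  have hv0 : V.valuation t ≠ 0 := (Valuation.ne_zero_iff _).2 ht0
  have hm1 : 1 ≤ m := by
    by_contra hlt
    have hm0 : m ≤ 0 := by omega
    have h1 : (1 : V.ValueGroup) ≤ V.valuation t ^ m := by
      obtain ⟨n, rfl⟩ : ∃ n : ℕ, m = -(n : ℤ) := ⟨(-m).toNat, by omega⟩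
      rw [zpow_neg, zpow_natCast]
      exact (one_le_inv₀ (zero_lt_iff.2 (pow_ne_zero _ hv0))).2 (pow_le_one₀ zero_le ht.le)
    rw [← hm] at h1
    exact absurd hf (not_lt.2 h1)
  refine ⟨f * t⁻¹, ?_, ?_⟩
  · rw [← ValuationSubring.valuation_le_one_iff, map_mul, map_inv₀, hm]
    obtain ⟨n, rfl⟩ : ∃ n : ℕ, m = (n : ℤ) + 1 := ⟨(m - 1).toNat, by omega⟩
    rw [zpow_add₀ hv0, zpow_one, mul_assoc, mul_inv_cancel₀ hv0, mul_one, zpow_natCast]
    exact pow_le_one₀ zero_le ht.le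
  · rw [mul_comm f, ← mul_assoc, mul_inv_cancel₀ ht0, one_mul]

/-- **The local equation datum at a closed point** from uniformizers `t i` of the components:
`q W = ∏ t i ^ e i` with `W ∉ 𝔪`. -/
theorem LocEq.nonempty_of_unif [Fintype ι] [DecidableEq ι] (C : Chart R F k ι κ) (q : R)
    (hq0 : algebraMap R F q ≠ 0)
    (H : Subring F) (hBH : ∀ x ∈ C.B, x ∈ H) (hqH : (algebraMap R F q)⁻¹ ∈ H)
    (crit : ∀ f ∈ H, (∀ i, f ∈ C.V i) → f ∈ C.B)
    (𝔪 : Ideal C.B) (h𝔪 : 𝔪 ≠ ⊤) (t : ι → C.B) (e : ι → ℕ) (he : ∀ i, 0 < e i)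
    (hq : ∀ i, (C.V i).valuation (algebraMap R F q) = (C.V i).valuation (t i : F) ^ e i)
    (ht : ∀ i, (C.V i).valuation (t i : F) < 1)
    (hD : ∀ i, C.Icomp i ≤ 𝔪 → ∀ x : F, x ≠ 0 →
      ∃ m : ℤ, (C.V i).valuation x = (C.V i).valuation (t i : F) ^ m)
    (hxn : ∀ i, ¬ C.Icomp i ≤ 𝔪 → t i ∉ 𝔪)
    (hW : ∀ W : C.B, algebraMap R C.B q * W = ∏ i, t i ^ e i → W ∉ 𝔪) :
    Nonempty (LocEq C q 𝔪) := by
  have ht0 : ∀ i, (t i : F) ≠ 0 := by
    intro i h0
    have := hq i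
    rw [h0, map_zero, zero_pow (he i).ne'] at this
    exact (Valuation.ne_zero_iff _).2 hq0 this
  have hpow : ∀ i, ∃ f' ∈ C.V i, ((t i : F)) ^ e i = algebraMap R F q * f' :=
    fun i => pow_mem_of_val (C.V i) hq0 (hq i)
  obtain ⟨W, hWeq⟩ := exists_W_of_crit C q hq0 H hBH hqH crit t e hpow
  have hmemI : ∀ i (f : C.B), f ∈ C.Icomp i ↔ (C.V i).valuation (f : F) < 1 := by
    intro i f
    rw [C.mem_Icomp, ← C.rd_coe, C.rd_eq_zero_iff i (C.B_le i _ f.2),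
      ValuationSubring.mem_nonunits_iff]
  refine ⟨LocEq.ofVal C q hq0 (valq_of_crit C q hq0 H hBH hqH crit) 𝔪 t e W 1 (hW W hWeq)
    (fun h1 => h𝔪 ((Ideal.eq_top_iff_one 𝔪).2 h1)) (fun i h0 => ht0 i (by rw [h0]; rfl))
    (fun i _ => (hmemI i _).2 (ht i)) hxn (by rw [hWeq, mul_one]) hpow (fun i _ => he i)
    (fun i hi f hf => unif_of_val (C.V i) (ht0 i) (ht i) (hD i hi) ((hmemI i f).1 hf))⟩

/-! ## The triple points from a coordinate -/

section Three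

variable {M : Type*} [CommMonoid M] [Fintype ι] [DecidableEq ι]

theorem univ_eq_of_cases (i₂₀ i₁₁ i₀₂ : ι) (hcases : ∀ i, i = i₂₀ ∨ i = i₁₁ ∨ i = i₀₂) :
    (Finset.univ : Finset ι) = {i₂₀, i₁₁, i₀₂} := by
  ext i
  simp only [Finset.mem_univ, Finset.mem_insert, Finset.mem_singleton, true_iff]
  exact hcases i

theorem prod_of_cases (i₂₀ i₁₁ i₀₂ : ι) (hcases : ∀ i, i = i₂₀ ∨ i = i₁₁ ∨ i = i₀₂)
    (ne₁ : i₂₀ ≠ i₁₁) (ne₂ : i₂₀ ≠ i₀₂) (ne₃ : i₁₁ ≠ i₀₂) (f : ι → M) :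
    ∏ i, f i = f i₂₀ * f i₁₁ * f i₀₂ := by
  rw [univ_eq_of_cases i₂₀ i₁₁ i₀₂ hcases, Finset.prod_insert, Finset.prod_insert,
    Finset.prod_singleton, mul_assoc]
  · simpa using ne₃
  · simp only [Finset.mem_insert, Finset.mem_singleton, not_or]
    exact ⟨ne₁, ne₂⟩

end Three

open AlgebraicCurve Fermat.Agent.RED.H17 in
/-- **LOCEQ-SS from a coordinate** (N5). -/
theorem locEq_ss_coord [Fintype ι] [DecidableEq ι] (C : Chart R F k ι κ) (qR : R) (q : ℕ)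
    [hqp : Fact q.Prime] (hq0 : algebraMap R F qR ≠ 0)
    (hqV : ∀ i, algebraMap R F qR ∈ (C.V i).nonunits)
    (H : Subring F) (hBH : ∀ x ∈ C.B, x ∈ H) (hqH : (algebraMap R F qR)⁻¹ ∈ H)
    (crit : ∀ f ∈ H, (∀ i, f ∈ C.V i) → f ∈ C.B)
    (e : ι → ℕ) (hE : H99.ValE C qR e)
    (i₂₀ i₁₁ i₀₂ : ι) (hcases : ∀ i, i = i₂₀ ∨ i = i₁₁ ∨ i = i₀₂)
    (ne₁ : i₂₀ ≠ i₁₁) (ne₂ : i₂₀ ≠ i₀₂) (ne₃ : i₁₁ ≠ i₀₂)
    (he₂₀ : e i₂₀ = 1) (he₁₁ : e i₁₁ = q - 1) (he₀₂ : e i₀₂ = 1) (hq2 : 2 ≤ q)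
    [CharP (κ i₂₀) q] (u u'' : C.B)
    (d₂ : F) (hd₂V : d₂ ∈ C.V i₂₀)
    (hd₂ : (u : F) ^ q ^ 2 - (u'' : F) = algebraMap R F qR * d₂)
    (h₁₁ : ∃ f' ∈ C.V i₁₁, ((u'' : F) - (u : F)) ^ (q - 1) = algebraMap R F qR * f')
    (h₀₂ : ∃ f' ∈ C.V i₀₂, (u'' : F) ^ q ^ 2 - (u : F) = algebraMap R F qR * f')
    (z : Place k (κ i₂₀)) (c : k)
    (hu : z.ord (C.rdB i₂₀ u - algebraMap k (κ i₂₀) c) = 1) (hc : c ^ q ^ 2 = c)
    (hd : z.ord (C.rd i₂₀ d₂) = -(q : ℤ))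
    (𝔪 : Ideal C.B) [h𝔪p : 𝔪.IsPrime] (h𝔪 : ∀ β : C.B, β ∈ 𝔪 ↔ VanAt z (C.rdB i₂₀ β)) :
    (∀ i, C.Icomp i ≤ 𝔪) ∧ Nonempty (LocEq C qR 𝔪) := by
  classical
  set ū : κ i₂₀ := C.rdB i₂₀ u with hū
  -- the three local equations
  set T₂₀ : C.B := u ^ q ^ 2 - u'' with hT₂₀
  set T₁₁ : C.B := u'' - u with hT₁₁
  set T₀₂ : C.B := u'' ^ q ^ 2 - u with hT₀₂
  set t : ι → C.B := fun i => if i = i₂₀ then T₂₀ else if i = i₁₁ then T₁₁ else T₀₂ with ht
  have ht₂₀ : t i₂₀ = T₂₀ := by rw [ht]; exact if_pos rfl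
  have ht₁₁ : t i₁₁ = T₁₁ := by
    rw [ht]
    change (if i₁₁ = i₂₀ then T₂₀ else if i₁₁ = i₁₁ then T₁₁ else T₀₂) = T₁₁
    rw [if_neg ne₁.symm, if_pos rfl]
  have ht₀₂ : t i₀₂ = T₀₂ := by
    rw [ht]
    change (if i₀₂ = i₂₀ then T₂₀ else if i₀₂ = i₁₁ then T₁₁ else T₀₂) = T₀₂
    rw [if_neg ne₂.symm, if_neg ne₃.symm]
  have he : ∀ i, 0 < e i := by
    intro i
    rcases hcases i with rfl | rfl | rfl
    · rw [he₂₀]; exact Nat.one_pos
    · rw [he₁₁]; omega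
    · rw [he₀₂]; exact Nat.one_pos
  have hpow : ∀ i, ∃ f' ∈ C.V i, ((t i : F)) ^ e i = algebraMap R F qR * f' := by
    intro i
    rcases hcases i with rfl | rfl | rfl
    · refine ⟨d₂, hd₂V, ?_⟩
      rw [ht₂₀, he₂₀, pow_one, ← hd₂]
      rfl
    · obtain ⟨f', hf', hff'⟩ := h₁₁
      refine ⟨f', hf', ?_⟩
      rw [ht₁₁, he₁₁, ← hff']
      rfl
    · obtain ⟨f', hf', hff'⟩ := h₀₂
      refine ⟨f', hf', ?_⟩
      rw [ht₀₂, he₀₂, pow_one, ← hff']
      rfl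
  obtain ⟨W, hWeq⟩ := exists_W_of_crit C qR hq0 H hBH hqH crit t e hpow
  -- the residues on the component `C₂₀`
  have hrdT₂₀ : C.rdB i₂₀ T₂₀ = 0 := by
    rw [← C.mem_Icomp, H99.mem_Icomp_iff_nonunits]
    have : ((T₂₀ : C.B) : F) = algebraMap R F qR * d₂ := by rw [← hd₂]; rfl
    rw [this]
    exact H99.mem_nonunits_of_mul (C.V i₂₀) (hqV i₂₀) hd₂V
  have hu'' : C.rdB i₂₀ u'' = ū ^ q ^ 2 := by
    have := hrdT₂₀
    rw [hT₂₀, map_sub, map_pow, sub_eq_zero] at this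
    exact this.symm
  have hrdT₁₁ : C.rdB i₂₀ T₁₁ = ū ^ q ^ 2 - ū := by rw [hT₁₁, map_sub, hu'']
  have hrdT₀₂ : C.rdB i₂₀ T₀₂ = ū ^ q ^ 4 - ū := by
    rw [hT₀₂, map_sub, map_pow, hu'', ← pow_mul, ← pow_add]
  have hc4 : c ^ q ^ 4 = c := by
    have : q ^ 4 = q ^ 2 * q ^ 2 := by ring
    rw [this, pow_mul, hc, hc]
  have ho₁₁ : z.ord (ū ^ q ^ 2 - ū) = 1 :=
    H10.ord_frob_sub q z ū c hu (by norm_num) hc
  have ho₀₂ : z.ord (ū ^ q ^ 4 - ū) = 1 :=
    H10.ord_frob_sub q z ū c hu (by norm_num) hc4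
  -- the `t i` vanish at the point
  have htm : ∀ i, t i ∈ 𝔪 := by
    intro i
    rw [h𝔪]
    rcases hcases i with rfl | rfl | rfl
    · rw [ht₂₀, hrdT₂₀]; exact vanAt_zero z
    · rw [ht₁₁, hrdT₁₁]; exact vanAt_of_ord_pos (by rw [ho₁₁]; exact one_pos)
    · rw [ht₀₂, hrdT₀₂]; exact vanAt_of_ord_pos (by rw [ho₀₂]; exact one_pos)
  -- `W` is a unit at the point
  have hWF : (W : F) = d₂ * (T₁₁ : F) ^ (q - 1) * (T₀₂ : F) := by
    apply mul_left_cancel₀ hq0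
    have h1 : ((algebraMap R C.B qR * W : C.B) : F) = ((∏ i, t i ^ e i : C.B) : F) := by
      rw [hWeq]
    rw [prod_of_cases i₂₀ i₁₁ i₀₂ hcases ne₁ ne₂ ne₃, ht₂₀, ht₁₁, ht₀₂, he₂₀, he₁₁, he₀₂,
      pow_one, pow_one] at h1
    have h2 : ((algebraMap R C.B qR * W : C.B) : F) = algebraMap R F qR * (W : F) := rfl
    have h3 : ((T₂₀ * T₁₁ ^ (q - 1) * T₀₂ : C.B) : F)
        = (T₂₀ : F) * (T₁₁ : F) ^ (q - 1) * (T₀₂ : F) := rfl
    have h4 : (T₂₀ : F) = algebraMap R F qR * d₂ := by rw [← hd₂]; rfl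
    rw [← h2, h1, h3, h4]
    ring
  have hrdW : C.rdB i₂₀ W = C.rd i₂₀ d₂ * (ū ^ q ^ 2 - ū) ^ (q - 1) * (ū ^ q ^ 4 - ū) := by
    rw [← C.rd_coe, hWF, C.rd_mul i₂₀ (mul_mem hd₂V (pow_mem (C.B_le _ _ T₁₁.2) _))
      (C.B_le _ _ T₀₂.2), C.rd_mul i₂₀ hd₂V (pow_mem (C.B_le _ _ T₁₁.2) _),
      C.rd_pow i₂₀ (C.B_le _ _ T₁₁.2), C.rd_coe, C.rd_coe, hrdT₁₁, hrdT₀₂]
  have hWm : W ∉ 𝔪 := by
    rw [h𝔪, hrdW, vanAt_iff_ord]
    have h0 := H10.eis_ord q z ū (C.rd i₂₀ d₂) c hu hc hd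
    have hd0 : C.rd i₂₀ d₂ ≠ 0 := by
      intro h
      rw [h, Place.ord_zero] at hd
      have : (0 : ℤ) < q := by exact_mod_cast hqp.out.pos
      omega
    have h20 : ū ^ q ^ 2 - ū ≠ 0 := by
      intro h
      rw [h, Place.ord_zero] at ho₁₁
      exact absurd ho₁₁ (by norm_num)
    have h40 : ū ^ q ^ 4 - ū ≠ 0 := by
      intro h
      rw [h, Place.ord_zero] at ho₀₂
      exact absurd ho₀₂ (by norm_num)
    rintro (h | h)
    · exact mul_ne_zero (mul_ne_zero hd0 (pow_ne_zero _ h20)) h40 h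
    · rw [h0] at h
      exact lt_irrefl _ h
  exact H99.locEq_ss C qR e hE hq0 hqV (valq_of_crit C qR hq0 H hBH hqH crit) 𝔪 he t W hWm htm
    hWeq hpow

end Fermat.Agent.S36.NU.H16

end
end
-- ==== END Fermat.Agent.S36.NU.H16_LocEqSS

-- ==== BEGIN Fermat.Agent.S36.NU.H24_FinLocal
section

/-!
# S36 / NU-B, (M5) FIN-LOCAL skeleton (helper24)

The assembly of the local side of TI3 with helper79's B2 + B3:

  two charts `C0` (`B = intSub R j`), `Coo` (`B = intSub R j⁻¹`) compatible with the conservation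
  datum of `D : NUData ..`  +  the local data at the closed points of the special fibres
  (`PointData`: branches (M2), local equation data (M4), and "every closed point with several
  branches is a triple point" (DISJ))  +  (HOR) (M3)  +  (RADQ)  +  the norms of `h` along `α`, `β`
  are constants times `n`-th powers
  ⟹  `h ^ ((q + 1) (q - 1)) = (integral constant) · (n-th power)`.

* `ChartHyp` : the hypotheses of `H16.Setup` not involving `h`, `g`;
* `HOR`, `HOR.pow`;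
* `PointData C D q` : the local data at all closed points of the special fibre;
* `eqv_of_bridge` : (EQV) at a triple point from `TrivRed`;
* `chart_of_bridge` : one chart: `∃ a, H aⁿ ∈ B ∧ rd i a = g i`;
* `exists_isGen` : REG at the triple points in helper79's form (`hgen` of `NUData.trivRed`);
* `fin_local` : the final statement.
-/

set_option autoImplicit false
set_option linter.style.haveILetI false

noncomputable section

open AlgebraicCurve

attribute [local instance] Classical.propDecidable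

namespace Fermat.Agent.S36.NU.H24

open Fermat.Agent.RED.H17 Fermat.Agent.RED Fermat.Agent.S36.NU.H16 Fermat.Agent.S36.NU.H79
  Fermat.Agent.S36.NU.H65 Fermat.Agent.S36.NU.H17

variable {R F k ι Z K L : Type*} {κ : ι → Type*} [CommRing R] [Field F] [Algebra R F]
  [Field k] [∀ i, Field (κ i)] [∀ i, Algebra k (κ i)] [Fintype ι]
  [Field K] [Field L] [Algebra K L] [Algebra F L]
  {K' L' L₁ L₂ : Type*} [Field K'] [Field L'] [Algebra K' L'] [Field L₁] [Algebra k L₁]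
  [Field L₂] [Algebra k L₂]

/-- The hypotheses of `H16.Setup` which do not involve `h`, `g`. -/
structure ChartHyp (C : Chart R F k ι κ) (q n : ℕ) : Prop where
  q_prime : q.Prime
  charq : ∀ i, CharP (κ i) q
  n_pos : 0 < n
  coprime : Nat.Coprime n q
  /-- `B` is closed under `n`-th roots -/
  root : ∀ x : F, x ^ n ∈ C.B → x ∈ C.B
  /-- the components are pairwise distinct -/
  inc : ∀ i i' : ι, i ≠ i' → ∃ τ : C.B, C.rdB i' τ = 0 ∧ C.rdB i τ ≠ 0

omit [Fintype ι] in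
theorem ChartHyp.setup {C : Chart R F k ι κ} {q n : ℕ} (hC : ChartHyp C q n) {h : F}
    {g : ∀ i, κ i} (hg : ∀ i, g i ^ n * C.rd i h = 1) : Setup C q n h g where
  q_prime := hC.q_prime
  charq := hC.charq
  n_pos := hC.n_pos
  coprime := hC.coprime
  root := hC.root
  inc := hC.inc
  root_g := hg

/-- **(HOR)**: `h` is an `n`-th power times a unit at every valuation ring `≠ F` of `F`
containing `B` and `1 / q` (the horizontal places of the chart). -/
def HOR (C : Chart R F k ι κ) (q : R) (n : ℕ) (h : F) : Prop :=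
  ∀ W : ValuationSubring F, (∀ β : C.B, (β : F) ∈ W) → (algebraMap R F q)⁻¹ ∈ W →
    W ≠ ⊤ → ∃ s : F, s ≠ 0 ∧ h * s ^ n ∈ W ∧ (h * s ^ n)⁻¹ ∈ W

omit [Fintype ι] in
theorem HOR.pow {C : Chart R F k ι κ} {q : R} {n : ℕ} {h : F} (hh : HOR C q n h) (m : ℕ) :
    HOR C q n (h ^ m) := by
  intro W hB hq hW
  obtain ⟨s, hs0, hs1, hs2⟩ := hh W hB hq hW
  refine ⟨s ^ m, pow_ne_zero m hs0, ?_, ?_⟩
  · have : h ^ m * (s ^ m) ^ n = (h * s ^ n) ^ m := by
      rw [mul_pow, ← pow_mul, ← pow_mul, mul_comm m n]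
    rw [this]
    exact pow_mem hs1 m
  · have : (h ^ m * (s ^ m) ^ n)⁻¹ = ((h * s ^ n)⁻¹) ^ m := by
      rw [inv_pow, mul_pow, ← pow_mul, ← pow_mul, mul_comm m n]
    rw [this]
    exact pow_mem hs2 m

/-- **The local data at the closed points of the special fibre of the chart**: branches (M2),
a local equation datum (M4), and: a closed point with several branches is a triple point
`z ∈ SS` of the chart (DISJ). -/
def PointData (C : Chart R F k ι κ) (D : NUData K F L k ι Z κ K' L' L₁ L₂) (q : R) : Prop :=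
  ∀ 𝔪 : Ideal C.B, 𝔪.IsMaximal → (∃ i, C.Icomp i ≤ 𝔪) →
    (∀ i, C.Icomp i ≤ 𝔪 → Nonempty (Branch C 𝔪 i)) ∧ Nonempty (LocEq C q 𝔪) ∧
    ((∃ i₀, ∀ i, C.Icomp i ≤ 𝔪 → i = i₀) ∨
      ∃ z ∈ D.SS, InChart C D.T z ∧
        ∃ i₀, ∀ β : C.B, β ∈ 𝔪 ↔ VanAt (D.T.pt i₀ z) (C.rdB i₀ β))

variable {C : Chart R F k ι κ} (D : NUData K F L k ι Z κ K' L' L₁ L₂)

/-- **(EQV) at a triple point**, from the values of `g i / rd i s` (output of `TrivRed`). -/
theorem eqv_of_bridge [Infinite k] (hc : Compat C D.T) (hP : HasPrincipalDivisors K L) {z : Z}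
    (hzSS : z ∈ D.SS) (hz : InChart C D.T z) {𝔪 : Ideal C.B} (i₀ : ι)
    (h𝔪 : ∀ β : C.B, β ∈ 𝔪 ↔ VanAt (D.T.pt i₀ z) (C.rdB i₀ β)) {n : ℕ} (hn : 0 < n) {H : F}
    (hu : ∀ i, D.T.rdN i H ≠ 0) (g : ∀ i, κ i)
    (heqv : ∀ s : F, D.IsGen n z H s →
      ∃ c : k, ∀ i, HasValue (D.T.pt i z) (g i * (D.T.rdN i s)⁻¹) c)
    (s : F) (hs : H * s ^ n ∈ C.B) (hsm : (⟨H * s ^ n, hs⟩ : C.B) ∉ 𝔪)
    (br : ∀ i, C.Icomp i ≤ 𝔪 → Branch C 𝔪 i) :
    ∃ c : k, ∀ (i : ι) (hi : C.Icomp i ≤ 𝔪),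
      g i * (C.rd i s)⁻¹ - algebraMap k (κ i) c ∈ (br i hi).O.nonunits := by
  have hglue : Glued D.T z := D.glue z hzSS
  have hgen : D.IsGen n z H s :=
    isGen_of_reg hc hP hz hglue hn hu hs i₀ (fun hv => hsm ((h𝔪 _).2 hv))
  obtain ⟨c, hc'⟩ := heqv s hgen
  refine ⟨c, fun i hi => ?_⟩
  rw [hc.hrd]
  exact branch_nonunits_of_hasValue (br i hi) (D.T.pt i z)
    (branch_O_eq_pt hc hP hz hglue i₀ h𝔪 i (br i hi)) (hc' i)

/-- **One chart**: the section `a` with `H aⁿ ∈ B` and residues `g i`. -/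
theorem chart_of_bridge [Infinite k] [IsNoetherianRing C.B] [IsFractionRing C.B F]
    (hc : Compat C D.T) (hP : HasPrincipalDivisors K L) (qn : ℕ) (q : R) (n : ℕ) (H : F)
    (g : ∀ i, κ i) (S : Setup C qn n H g) (H0 : H ≠ 0) (hHOR : HOR C q n H)
    (hpt : PointData C D q) (hu : ∀ i, D.T.rdN i H ≠ 0)
    (heqv : ∀ z ∈ D.SS, ∀ s : F, D.IsGen n z H s →
      ∃ c : k, ∀ i, HasValue (D.T.pt i z) (g i * (D.T.rdN i s)⁻¹) c) :
    ∃ a : F, H * a ^ n ∈ C.B ∧ ∀ i, C.rd i a = g i := by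
  refine chart_main C qn q n H g S H0 hHOR (fun 𝔪 hmax hex => ?_)
  obtain ⟨hbr, hL, hcase⟩ := hpt 𝔪 hmax hex
  refine ⟨hbr, hL, ?_⟩
  rcases hcase with h1 | ⟨z, hzSS, hz, i₀, h𝔪⟩
  · exact Or.inl h1
  · exact Or.inr fun s hs hsm br =>
      eqv_of_bridge D hc hP hzSS hz i₀ h𝔪 S.n_pos hu g (heqv z hzSS) s hs hsm br

/-- **REG at the triple points** in helper79's form: local generators of `h` at every `z ∈ SS`
(the hypothesis `hgen` of `NUData.trivRed`), from CA1 (`reg_abs`) in the chart `C`. -/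
theorem exists_isGen [Infinite k] [IsNoetherianRing C.B] [IsFractionRing C.B F]
    (hc : Compat C D.T) (hP : HasPrincipalDivisors K L) (q : R) {n : ℕ} (hn : 0 < n) {h : F}
    (hHOR : HOR C q n h) (hpt : PointData C D q) (hu : ∀ i, D.T.rdN i h ≠ 0)
    {z : Z} (hzSS : z ∈ D.SS) (hz : InChart C D.T z) : ∃ s, D.IsGen n z h s := by
  have hglue : Glued D.T z := D.glue z hzSS
  have hmax := ptMax_isMaximal hc hP hz D.i₂₀ (D.deg_one z hzSS D.i₂₀)
  have hle : C.Icomp D.i₂₀ ≤ ptMax hc hP hz D.i₂₀ := Icomp_le_ptMax hc hP hz hglue _ _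
  obtain ⟨hbr, ⟨Lq⟩, -⟩ := hpt _ hmax ⟨D.i₂₀, hle⟩
  obtain ⟨b⟩ := hbr D.i₂₀ hle
  have hh : ∀ i, h ∈ C.V i ∧ h⁻¹ ∈ C.V i := fun i => by
    rw [hc.hV]
    exact ⟨D.T.mem_of_rdN_ne_zero (hu i), D.T.inv_mem_of_rdN_ne_zero (hu i)⟩
  have h0 : h ≠ 0 := by
    rintro rfl
    apply hu D.i₂₀
    rw [D.T.rdN_of_mem (D.T.V _).zero_mem]
    exact map_zero _
  obtain ⟨s, hs, hsm⟩ := reg_abs C q n hn h hh h0 _ hmax D.i₂₀ b Lq hHOR
  exact ⟨s, isGen_of_reg hc hP hz hglue hn hu hs D.i₂₀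
    (fun hv => hsm ((mem_ptMax hc hP hz D.i₂₀ _).2 hv))⟩

/-- **FIN-LOCAL**: the local side of TI3 assembled with B2 + B3.
If `h` is a unit for the three valuations, (HOR) holds in both charts, and the norms of `h`
along `α` and `β` are constants times `n`-th powers, then `h ^ ((q + 1) (q - 1))` is an integral
constant times an `n`-th power. -/
theorem fin_local [IsAlgClosed k] [IsNoetherianRing R] [IsDomain R] [IsIntegrallyClosed R]
    (Kf : Type*) [Field Kf] [Algebra R Kf] [IsFractionRing R Kf] [Algebra Kf F]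
    [IsScalarTower R Kf F]
    (C0 Coo : Chart R F k ι κ) [IsNoetherianRing C0.B] [IsFractionRing C0.B F]
    [IsNoetherianRing Coo.B] [IsFractionRing Coo.B F]
    (hc0 : Compat C0 D.T) (hcoo : Compat Coo D.T) (hP : HasPrincipalDivisors K L)
    (n : ℕ) (hC0 : ChartHyp C0 D.q n) (hCoo : ChartHyp Coo D.q n)
    (j : F) (hjt : Transcendental Kf j) (hB0 : C0.B = intSub R j) (hBoo : Coo.B = intSub R j⁻¹)
    (q : R) (hq0 : q ≠ 0) (hqu : ¬ IsUnit q) (n' : R) (hnn : (n : R) * n' = 1)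
    (hpt0 : PointData C0 D q) (hptoo : PointData Coo D q)
    (hSS0 : ∀ z ∈ D.SS, InChart C0 D.T z) (hSS : D.SS.Nonempty)
    (hk₁ : RootClosed k L₁ n) (hk₂ : RootClosed k L₂ n)
    (hrad0 : ∀ β ∈ C0.B, (∀ i, C0.rd i β = 0) → IsRadQ C0.B q β)
    (hradoo : ∀ β ∈ Coo.B, (∀ i, Coo.rd i β = 0) → IsRadQ Coo.B q β)
    (h : F) (hu : ∀ i, D.T.rdN i h ≠ 0) (hHOR0 : HOR C0 q n h) (hHORoo : HOR Coo q n h)
    (hfg : (MInt R j⁻¹ (h ^ ((D.q + 1) * (D.q - 1))) n hC0.n_pos).FG)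
    {cα cβ : K'} {gα gβ : L'}
    (hα : D.Nα h = algebraMap K' L' cα * gα ^ n)
    (hβ : D.Nβ h = algebraMap K' L' cβ * gβ ^ n) :
    ∃ s : F, s ≠ 0 ∧ IsIntegral R (h ^ ((D.q + 1) * (D.q - 1)) * s ^ n) := by
  have hn : 0 < n := hC0.n_pos
  haveI : Infinite k := IsAlgClosed.instInfinite
  set H : F := h ^ ((D.q + 1) * (D.q - 1)) with hH
  -- B2 + B3
  have hgen : ∀ z ∈ D.SS, ∃ s, D.IsGen n z h s := fun z hz =>
    exists_isGen D hc0 hP q hn hHOR0 hpt0 hu hz (hSS0 z hz)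
  have htriv : D.TrivRed n H :=
    D.trivRed hP hn.ne' hC0.coprime.symm hC0.q_prime.one_le hk₁ hk₂ hSS hu hgen hα hβ
  have hm : ∀ i, h ∈ D.T.V i := fun i => D.T.mem_of_rdN_ne_zero (hu i)
  have huH : ∀ i, D.T.rdN i H ≠ 0 := fun i => by
    rw [hH, D.T.rdN_pow (hm i)]
    exact pow_ne_zero _ (hu i)
  have H0 : H ≠ 0 := by
    intro h0
    apply huH D.i₂₀
    rw [h0, D.T.rdN_of_mem (D.T.V _).zero_mem]
    exact map_zero _
  -- the residues `g`
  obtain ⟨g, hg, heqv⟩ := exists_g_of_trivRed D hn.ne'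
    (fun c => IsAlgClosed.exists_pow_nat_eq c hn) huH htriv
  have S0 : Setup C0 D.q n H g := hC0.setup (fun i => by rw [hc0.hrd]; exact hg i)
  have Soo : Setup Coo D.q n H g := hCoo.setup (fun i => by rw [hcoo.hrd]; exact hg i)
  -- the two charts
  obtain ⟨a, ha, hra⟩ := chart_of_bridge D hc0 hP D.q q n H g S0 H0 (hHOR0.pow _) hpt0 huH heqv
  obtain ⟨b, hb, hrb⟩ := chart_of_bridge D hcoo hP D.q q n H g Soo H0 (hHORoo.pow _) hptoo huH
    heqv
  -- TI3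
  exact ti3_const Kf C0 Coo D.q n H g S0 Soo j hjt hB0 hBoo
    (fun i => by rw [hc0.hV, hcoo.hV]) (fun i x => by rw [hc0.hrd, hcoo.hrd]) q hq0 hqu n' hnn
    hfg hrad0 hradoo a b ha hra hb hrb

end Fermat.Agent.S36.NU.H24

end
end
-- ==== END Fermat.Agent.S36.NU.H24_FinLocal

-- ==== BEGIN Fermat.Agent.S36.NU.H44_PoleReg
section

/-!
# S36 / NU-B, leaf POLE-INST, part 2 (helper44): the hypothesis `hP`, unconditionally

`q ∤ M` tame, `4 ∣ M`, `A` over `q`.  Inside `F_{M q}`: `u = α (unitF M 4)`, `u' = β (unitF M 4)`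
with expansions `u₀ = uZ4`, `u₀(t^q)`, `δ = (u^q - u') / q` with expansion `kdel q uZ4`, and
`W₁ = δ (u'^q - u) = (u^q - u')(u'^q - u) / q`.

* `W₁` is integral for both Gauss valuations (`w_q W₁ = W₁`) and regular at the places where `j`
  is regular, so `W₁ ∈ R_z` for every non-cuspidal place `z` of the residue field, and by
  helper79's `InR.regAt₁` (total conservation) its reduction `δ̄ (ū^{q²} - ū)` is regular at `z`:
  `regAt_P_F1`.
* `dbar_mem` : `δ̄ ∈ modularFunctionFieldFullC (kV A) M`.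
* `hP_inst` : the hypothesis `hP` of `pole_inst`, for any `E = modularFunctionFieldFullC (kV A) M`.
* `pole_full`, `pole_full_d2` : **POLE-INST** without `hP`.
-/

set_option autoImplicit false
set_option linter.style.haveILetI false
set_option linter.unusedSectionVars false
set_option synthInstance.maxHeartbeats 400000
set_option maxHeartbeats 1000000

noncomputable section

open Polynomial AlgebraicCurve IntermediateField ModularCurve HahnSeries

namespace Fermat.Agent.S36.NU.H44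

open Fermat.Agent.RED.H51 Fermat.Agent.BAD.H21 Fermat.Agent.S36.NU.H73 Fermat.Agent.S36.NU.H65
open Fermat.Agent.S28.H73 Fermat.Agent.RED.H73 Fermat.Agent.RED Fermat.Agent.BAD
open Fermat.Agent.BAD.H88 Fermat.Agent.BAD.H30 Fermat.Agent.RED.H17
open Fermat.Agent.S24 (Kbar FN)

section Level

variable (q M : ℕ) [NeZero M] [NeZero (M * q)] [NeZero q] [hqF : Fact q.Prime] (h4 : 4 ∣ M)

/-- `u = α (unitF M 4)`. -/
def uA : FN (M * q) := heckeAlphaBar Kbar M q (unitF M 4 h4)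

/-- `u' = β (unitF M 4)`. -/
def uB : FN (M * q) := heckeBetaBar Kbar M q (unitF M 4 h4)

/-- `δ = (u^q - u') / q`. -/
def delF : FN (M * q) :=
  algebraMap Kbar (FN (M * q)) ((q : Kbar)⁻¹) * (uA q M h4 ^ q - uB q M h4)

/-- `W₁ = δ (u'^q - u)`. -/
def W1F : FN (M * q) := delF q M h4 * (uB q M h4 ^ q - uA q M h4)

theorem coe_uA : ((uA q M h4 : FN (M * q)) : LaurentSeries Kbar) = intSer Kbar uZ4 := by
  rw [uA, coe_heckeAlphaBar, H73.coeffMap_uZ4_Kbar M h4]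
  rfl

theorem coe_uB :
    ((uB q M h4 : FN (M * q)) : LaurentSeries Kbar) = intSer Kbar (qExpand ℤ q uZ4) := by
  rw [uB, coe_heckeBetaBar, H73.coeffMap_uZ4_Kbar M h4, intSer_qExpand]
  rfl

theorem natCast_ne_zero_Kbar : ((q : ℕ) : Kbar) ≠ 0 := Nat.cast_ne_zero.mpr (NeZero.ne q)

theorem coe_delF :
    ((delF q M h4 : FN (M * q)) : LaurentSeries Kbar) = intSer Kbar (kdel q uZ4) := by
  have h := congrArg (intSer Kbar) (kdel_spec q uZ4)
  simp only [intSer, map_mul, map_sub, map_pow, map_natCast] at h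
  have e : ((delF q M h4 : FN (M * q)) : LaurentSeries Kbar)
      = algebraMap Kbar (LaurentSeries Kbar) ((q : Kbar)⁻¹)
        * (((uA q M h4 : FN (M * q)) : LaurentSeries Kbar) ^ q
          - ((uB q M h4 : FN (M * q)) : LaurentSeries Kbar)) := rfl
  rw [e, coe_uA, coe_uB]
  simp only [intSer]
  rw [← h, ← mul_assoc]
  have h1 : algebraMap Kbar (LaurentSeries Kbar) ((q : Kbar)⁻¹) * ((q : ℕ) : LaurentSeries Kbar)
      = 1 := by
    rw [← map_natCast (algebraMap Kbar (LaurentSeries Kbar)) q, ← map_mul,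
      inv_mul_cancel₀ (natCast_ne_zero_Kbar q), map_one]
  rw [h1, one_mul]

/-- The integer series of `W₁`. -/
def W1Z : LaurentSeries ℤ := kdel q uZ4 * (qExpand ℤ q uZ4 ^ q - uZ4)

theorem coe_W1F : ((W1F q M h4 : FN (M * q)) : LaurentSeries Kbar) = intSer Kbar (W1Z q) := by
  have e : ((W1F q M h4 : FN (M * q)) : LaurentSeries Kbar)
      = ((delF q M h4 : FN (M * q)) : LaurentSeries Kbar)
        * (((uB q M h4 : FN (M * q)) : LaurentSeries Kbar) ^ q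
          - ((uA q M h4 : FN (M * q)) : LaurentSeries Kbar)) := rfl
  rw [e, coe_delF, coe_uA, coe_uB, W1Z]
  simp only [intSer, map_mul, map_sub, map_pow]

variable (A : ValuationSubring Kbar)

theorem delF_mem_V1 : delF q M h4 ∈ V1 A q M := by
  show ((delF q M h4 : FN (M * q)) : LaurentSeries Kbar) ∈ gaussRingV A
  rw [coe_delF]
  exact intSer_mem A _

theorem W1F_mem_V1 : W1F q M h4 ∈ V1 A q M := by
  show ((W1F q M h4 : FN (M * q)) : LaurentSeries Kbar) ∈ gaussRingV A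
  rw [coe_W1F]
  exact intSer_mem A _

theorem coe_red1_delF :
    ((red1 A q M ⟨delF q M h4, delF_mem_V1 q M h4 A⟩ : F1 A q M) : LaurentSeries (kV A))
      = coeffMap (Int.castRingHom (kV A)) (kdel q uZ4) := by
  rw [coe_gaussResF'_eq]
  have e : (⟨((delF q M h4 : FN (M * q)) : LaurentSeries Kbar), delF_mem_V1 q M h4 A⟩ :
      gaussRingV A) = ⟨intSer Kbar (kdel q uZ4), intSer_mem A _⟩ := Subtype.ext (coe_delF q M h4)
  exact (congrArg (gaussRedV A) e).trans (gaussRedV_intSer A _ _)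

theorem coe_red1_W1F (hA : A.LiesOverPrime q) :
    ((red1 A q M ⟨W1F q M h4, W1F_mem_V1 q M h4 A⟩ : F1 A q M) : LaurentSeries (kV A))
      = coeffMap (Int.castRingHom (kV A)) (kdel q uZ4)
        * (H73.ubar4 (kV A) ^ q ^ 2 - H73.ubar4 (kV A)) := by
  haveI : CharP (kV A) q := BAD.H82.charP_kV A hqF.out hA
  rw [coe_gaussResF'_eq]
  have e : (⟨((W1F q M h4 : FN (M * q)) : LaurentSeries Kbar), W1F_mem_V1 q M h4 A⟩ :
      gaussRingV A) = ⟨intSer Kbar (W1Z q), intSer_mem A _⟩ := Subtype.ext (coe_W1F q M h4)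
  rw [(congrArg (gaussRedV A) e).trans (gaussRedV_intSer A _ _), W1Z]
  simp only [map_mul, map_sub, map_pow]
  rw [coeffMap_qExpand, ← intRed_pow q uZ4, ← pow_mul, ← pow_two, coeffMap_uZ4]

end Level

/-! ### `w_q W₁ = W₁` -/

section WQ

variable (q M : ℕ) (a b : ℤ) (hab : a * q + b * M = 1) (hq : q.Prime)
  [NeZero M] [NeZero (M * q)] [NeZero q] [hqF : Fact q.Prime] (h4 : 4 ∣ M)

theorem wq_uA : wq q M a b hab hq (uA q M h4) = uB q M h4 := wq_alpha q M a b hab hq _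

theorem wq_uB : wq q M a b hab hq (uB q M h4) = uA q M h4 := wq_beta q M a b hab hq _

theorem wq_W1F : wq q M a b hab hq (W1F q M h4) = W1F q M h4 := by
  rw [W1F, delF, map_mul, map_mul, map_sub, map_sub, map_pow, map_pow, AlgEquiv.commutes,
    wq_uA, wq_uB]
  ring

variable (A : ValuationSubring Kbar)

theorem W1F_mem_V2 : W1F q M h4 ∈ V2 A q M a b hab hq := by
  rw [mem_V2_iff, wq_W1F]
  exact W1F_mem_V1 q M h4 A

end WQ

/-! ### `W₁` is regular where `j` is regular -/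

section Reg

variable (q M : ℕ) [NeZero M] [NeZero (M * q)] [NeZero q] [hqF : Fact q.Prime] (h4 : 4 ∣ M)

omit [NeZero M] [NeZero (M * q)] [NeZero q] hqF in
theorem four_dvd_lvl (h4 : 4 ∣ M) : 4 ∣ M * q := Dvd.dvd.mul_right h4 q

omit [NeZero M] [NeZero (M * q)] [NeZero q] hqF in
theorem q_dvd_lvl : q ∣ M * q := Dvd.intro_left M rfl

omit [NeZero M] [NeZero (M * q)] [NeZero q] hqF in
theorem qExpand_eq_of_eq {R : Type*} [CommRing R] {m n : ℕ} [NeZero m] [NeZero n] (h : m = n)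
    (x : LaurentSeries R) : qExpand R m x = qExpand R n x := by
  subst h
  rfl

omit [NeZero M] [NeZero (M * q)] [NeZero q] hqF in
theorem fourq_dvd_lvl (h4 : 4 ∣ M) : 4 * q ∣ M * q := Nat.mul_dvd_mul_right h4 q

theorem uA_eq_unitF : uA q M h4 = unitF (M * q) 4 (four_dvd_lvl q M h4) := by
  apply Subtype.ext
  rw [uA, coe_heckeAlphaBar, unitF_coe, unitF_coe]

theorem uB_mul_unitF :
    haveI : NeZero (4 * q) := ⟨Nat.mul_ne_zero (by norm_num) (NeZero.ne q)⟩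
    uB q M h4 * unitF (M * q) q (q_dvd_lvl q M) = unitF (M * q) (4 * q) (fourq_dvd_lvl q M h4) := by
  haveI : NeZero (4 * q) := ⟨Nat.mul_ne_zero (by norm_num) (NeZero.ne q)⟩
  apply Subtype.ext
  show ((uB q M h4 : FN (M * q)) : LaurentSeries Kbar)
      * ((unitF (M * q) q (q_dvd_lvl q M) : FN (M * q)) : LaurentSeries Kbar)
    = ((unitF (M * q) (4 * q) (fourq_dvd_lvl q M h4) : FN (M * q)) : LaurentSeries Kbar)
  rw [uB, coe_heckeBetaBar, unitF_coe, unitF_coe, unitF_coe, coeffEmb_modularUnitSeries,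
    coeffEmb_modularUnitSeries, coeffEmb_modularUnitSeries, map_mul, map_inv₀,
    qExpand_qExpand, qExpand_eq_of_eq (mul_comm q 4)]
  have h1 : qExpand Kbar q (deltaR Kbar) ≠ 0 := qExpand_deltaR_ne_zero (R := Kbar) q
  have h2 : qExpand Kbar (4 * q) (deltaR Kbar) ≠ 0 :=
    qExpand_deltaR_ne_zero (R := Kbar) (4 * q)
  field_simp

theorem ord_uA (P : Place Kbar (FN (M * q))) (hP : 0 ≤ P.ord (Fermat.Agent.S24.jF (M * q))) :
    P.ord (uA q M h4) = 0 := by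
  rw [uA_eq_unitF]
  exact ord_unitF (M * q) 4 _ P hP

theorem ord_uB (P : Place Kbar (FN (M * q))) (hP : 0 ≤ P.ord (Fermat.Agent.S24.jF (M * q))) :
    P.ord (uB q M h4) = 0 := by
  haveI : NeZero (4 * q) := ⟨Nat.mul_ne_zero (by norm_num) (NeZero.ne q)⟩
  have h1 := ord_unitF (M * q) q (q_dvd_lvl q M) P hP
  have h2 := ord_unitF (M * q) (4 * q) (fourq_dvd_lvl q M h4) P hP
  have h0 : unitF (M * q) q (q_dvd_lvl q M) ≠ 0 := unitF_ne_zero (M * q) q _
  have hB0 : uB q M h4 ≠ 0 := by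
    intro h
    have e := uB_mul_unitF q M h4
    rw [h, zero_mul] at e
    exact unitF_ne_zero (M * q) (4 * q) _ e.symm
  have e := congrArg P.ord (uB_mul_unitF q M h4)
  rw [P.ord_mul hB0 h0, h1, h2, add_zero] at e
  exact e

theorem regAt_W1F (P : Place Kbar (FN (M * q))) (hP : 0 ≤ P.ord (Fermat.Agent.S24.jF (M * q))) :
    RegAt P (W1F q M h4) := by
  have hA : RegAt P (uA q M h4) := regAt_of_ord_nonneg (by rw [ord_uA q M h4 P hP])
  have hB : RegAt P (uB q M h4) := regAt_of_ord_nonneg (by rw [ord_uB q M h4 P hP])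
  rw [W1F, delF]
  exact ((regAt_algebraMap P _).mul ((hA.pow q).sub hB)).mul ((hB.pow q).sub hA)

end Reg

/-! ### Total conservation: the reduction of `W₁` is regular at the non-cuspidal places -/

section Final

variable (A : ValuationSubring Kbar) (q M : ℕ) (a b : ℤ) (hab : a * q + b * M = 1)
  (hq : q.Prime) [NeZero M] [NeZero (M * q)] [NeZero q] [hqF : Fact q.Prime]
  (hA : A.LiesOverPrime q) (hqM : ¬ q ∣ M) (ht : H91.TameAt M q) (h4 : 4 ∣ M)

/-- If `j~` is regular at `z = ρ P`, then `j` is regular at `P`. -/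
theorem ord_jF_nonneg_of_rhoF1 (z : Place (kV A) (F1 A q M)) (jE : F1 A q M)
    (hj : (jE : LaurentSeries (kV A)) = jqModC (kV A)) (hz : 0 ≤ z.ord jE)
    (P : Place Kbar (FN (M * q))) (hP : H91.rhoF1 a b hab hq hA hqM ht P = z) :
    0 ≤ P.ord (Fermat.Agent.S24.jF (M * q)) := by
  have e : H91.rhoM hq hqM ht hA P = H91.kappa A q M a b hab hq hA z := by
    rw [← hP, H91.kappa_rhoF1]
  have h0 : 0 ≤ (H91.rhoM hq hqM ht hA P).ord (H91.jRed A M) := by
    rw [e, H91.kappa_ord A q M a b hab hq hA z jE (H91.jRed A M)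
      (hj.trans (red_jF A M).symm)]
    exact hz
  have h1 := H91.ord_jF_nonneg_of_rM hq hqM ht hA _ h0
  have h2 : 0 ≤ P.ord (H91.incl M q (RED.H73.jF (L := Kbar) M)) := by
    rw [Place.ord_restrictAlong (H91.incl M q) (H91.incl_isIntegral M q) P]
    exact mul_nonneg (Int.natCast_nonneg _) h1
  rw [H91.incl_jF] at h2
  exact h2

/-- `W₁ ∈ R_z` at the non-cuspidal places. -/
theorem W1F_inR (z : Place (kV A) (F1 A q M)) (jE : F1 A q M)
    (hj : (jE : LaurentSeries (kV A)) = jqModC (kV A)) (hz : 0 ≤ z.ord jE) :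
    (Fermat.Agent.S35.H89.modTot A q M a b hab hq hA hqM ht).InR z (W1F q M h4) :=
  ⟨W1F_mem_V1 q M h4 A, W1F_mem_V2 q M a b hab hq h4 A, fun P hP =>
    regAt_W1F q M h4 P (ord_jF_nonneg_of_rhoF1 A q M a b hab hq hA hqM ht z jE hj hz P hP)⟩

include hab hq hA hqM ht in
/-- The reduction of `W₁` is regular at the non-cuspidal places. -/
theorem regAt_red1_W1F (z : Place (kV A) (F1 A q M)) (jE : F1 A q M)
    (hj : (jE : LaurentSeries (kV A)) = jqModC (kV A)) (hz : 0 ≤ z.ord jE) :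
    RegAt z (red1 A q M ⟨W1F q M h4, W1F_mem_V1 q M h4 A⟩) := by
  haveI : IsAlgClosed (kV A) := isAlgClosed_kV A
  haveI : Infinite (kV A) := IsAlgClosed.instInfinite
  have H := RED.H17.ffHyp_of_isFF _ _ (Fermat.Agent.RED.H95.stmt_HKA_isFF (M * q))
  have h := (W1F_inR A q M a b hab hq hA hqM ht h4 z jE hj hz).regAt₁ H.principal
  rwa [(Fermat.Agent.S35.H89.modTot A q M a b hab hq hA hqM ht).p₁.rd_of_mem
    (W1F_mem_V1 q M h4 A)] at h

include hab hq hA hqM ht h4 in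
/-- **`hP` on `F₁`**: `δ̄ (ū^{q²} - ū)` is regular at the non-cuspidal places. -/
theorem regAt_P_F1 (z : Place (kV A) (F1 A q M)) (jE u d : F1 A q M)
    (hj : (jE : LaurentSeries (kV A)) = jqModC (kV A))
    (hu : (u : LaurentSeries (kV A)) = H73.ubar4 (kV A))
    (hd : (d : LaurentSeries (kV A)) = coeffMap (Int.castRingHom (kV A)) (kdel q uZ4))
    (hz : 0 ≤ z.ord jE) : d * (u ^ q ^ 2 - u) ∈ z.toValuationSubring := by
  have h := regAt_red1_W1F A q M a b hab hq hA hqM ht h4 z jE hj hz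
  have e : d * (u ^ q ^ 2 - u) = red1 A q M ⟨W1F q M h4, W1F_mem_V1 q M h4 A⟩ := by
    apply Subtype.ext
    rw [coe_red1_W1F q M h4 A hA]
    show (d : LaurentSeries (kV A)) * ((u : LaurentSeries (kV A)) ^ q ^ 2
      - (u : LaurentSeries (kV A))) = _
    rw [hd, hu]
  rw [e]
  exact (regAt_iff_mem z _).1 h

omit [NeZero M] [NeZero (M * q)] [NeZero q] in
include hqM in
/-- Bézout for `q ∤ M`. -/
theorem exists_bezout : ∃ a b : ℤ, a * q + b * M = 1 := by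
  have h : Nat.Coprime q M := (Nat.Prime.coprime_iff_not_dvd hqF.out).2 hqM
  exact Nat.isCoprime_iff_coprime.2 h

include hA hqM ht h4 in
/-- **`hP`, unconditionally**, on any `E = k(j~(t^d) : d ∣ M)`. -/
theorem hP_inst (E : IntermediateField (kV A) (LaurentSeries (kV A)))
    (hE : E = modularFunctionFieldFullC (kV A) M)
    (z : Place (kV A) ↥E) (jE u d : ↥E)
    (hj : (jE : LaurentSeries (kV A)) = jqModC (kV A))
    (hu : (u : LaurentSeries (kV A)) = H73.ubar4 (kV A))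
    (hd : (d : LaurentSeries (kV A)) = coeffMap (Int.castRingHom (kV A)) (kdel q uZ4))
    (hz : 0 ≤ z.ord jE) : d * (u ^ q ^ 2 - u) ∈ z.toValuationSubring := by
  obtain ⟨a, b, hab⟩ := exists_bezout q M hqM
  have hE' : E = redField A (modularFunctionFieldBar (M * q)) (hSc A q M) :=
    hE.trans (H82.redField_eq_fullC q M a b hab hqF.out A hA).symm
  subst hE'
  exact regAt_P_F1 A q M a b hab hqF.out hA hqM ht h4 z jE u d hj hu hd hz

include hA hqM h4 in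
/-- `δ̄ ∈ k(j~(t^d) : d ∣ M)`. -/
theorem dbar_mem :
    coeffMap (Int.castRingHom (kV A)) (kdel q uZ4) ∈ modularFunctionFieldFullC (kV A) M := by
  obtain ⟨a, b, hab⟩ := exists_bezout q M hqM
  rw [← H82.redField_eq_fullC q M a b hab hqF.out A hA, ← coe_red1_delF q M h4 A]
  exact SetLike.coe_mem _

include hA hqM h4 in
/-- **POLE-INST, unconditional**: at a supersingular place `z` of `E = k(j~(t^d) : d ∣ M)`
(`q ≥ 5`, `q ∤ M`, `4 ∣ M`): `ū - c` is a uniformizer for some `c ∈ 𝔽_{q²}` and `δ̄` has a simple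
pole. -/
theorem pole_full (h5 : 5 ≤ q)
    (E : IntermediateField (kV A) (LaurentSeries (kV A)))
    (hE : E = modularFunctionFieldFullC (kV A) M)
    (z : Place (kV A) ↥E) (jE u y d : ↥E)
    (hj : (jE : LaurentSeries (kV A)) = jqModC (kV A))
    (hu : (u : LaurentSeries (kV A)) = H73.ubar4 (kV A))
    (hy : (y : LaurentSeries (kV A)) = (H21_DL (kV A) ^ (q - 1))⁻¹)
    (hd : (d : LaurentSeries (kV A)) = coeffMap (Int.castRingHom (kV A)) (kdel q uZ4))
    (hz : 0 ≤ z.ord jE) (hss : 0 < z.ord y) :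
    ∃ c : kV A, z.ord (u - algebraMap (kV A) ↥E c) = 1 ∧ c ^ q ^ 2 = c ∧ z.ord d = -1 :=
  pole_inst A q hA M hqM h5 h4 E hE z jE u y d hj hu hy hd hz hss
    (hP_inst A q M hA hqM (Or.inl h5) h4 E hE z jE u d hj hu hd hz)

include hA hqM h4 in
/-- **POLE-INST, unconditional**, with `y₂ = - δ̄^q` (the reduction of `t₂₀ / q`, helper16's
`s20_d20o`): `ord_z y₂ = -q`. -/
theorem pole_full_d2 (h5 : 5 ≤ q)
    (E : IntermediateField (kV A) (LaurentSeries (kV A)))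
    (hE : E = modularFunctionFieldFullC (kV A) M)
    (z : Place (kV A) ↥E) (jE u y d y₂ : ↥E)
    (hj : (jE : LaurentSeries (kV A)) = jqModC (kV A))
    (hu : (u : LaurentSeries (kV A)) = H73.ubar4 (kV A))
    (hy : (y : LaurentSeries (kV A)) = (H21_DL (kV A) ^ (q - 1))⁻¹)
    (hd : (d : LaurentSeries (kV A)) = coeffMap (Int.castRingHom (kV A)) (kdel q uZ4))
    (hy₂ : (y₂ : LaurentSeries (kV A))
      = - coeffMap (Int.castRingHom (kV A)) (kdel q uZ4) ^ q)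
    (hz : 0 ≤ z.ord jE) (hss : 0 < z.ord y) :
    ∃ c : kV A, z.ord (u - algebraMap (kV A) ↥E c) = 1 ∧ c ^ q ^ 2 = c ∧
      z.ord y₂ = -(q : ℤ) :=
  pole_inst_d2 A q hA M hqM h5 h4 E hE z jE u y d y₂ hj hu hy hd hy₂ hz hss
    (hP_inst A q M hA hqM (Or.inl h5) h4 E hE z jE u d hj hu hd hz)

include hA hqM h4 in
/-- `δ̄ ≠ 0`, from the pole at one supersingular place. -/
theorem dbar_ne_zero_of_place (h5 : 5 ≤ q)
    (E : IntermediateField (kV A) (LaurentSeries (kV A)))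
    (hE : E = modularFunctionFieldFullC (kV A) M)
    (z : Place (kV A) ↥E) (jE u y : ↥E)
    (hj : (jE : LaurentSeries (kV A)) = jqModC (kV A))
    (hu : (u : LaurentSeries (kV A)) = H73.ubar4 (kV A))
    (hy : (y : LaurentSeries (kV A)) = (H21_DL (kV A) ^ (q - 1))⁻¹)
    (hz : 0 ≤ z.ord jE) (hss : 0 < z.ord y) :
    coeffMap (Int.castRingHom (kV A)) (kdel q uZ4) ≠ 0 := by
  intro h0
  have hmem : coeffMap (Int.castRingHom (kV A)) (kdel q uZ4) ∈ E := by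
    rw [hE]
    exact dbar_mem A q M hA hqM h4
  obtain ⟨c, -, -, h3⟩ := pole_full A q M hA hqM h4 h5 E hE z jE u y ⟨_, hmem⟩ hj hu hy rfl hz hss
  have e : (⟨_, hmem⟩ : ↥E) = 0 := Subtype.ext h0
  rw [e, Place.ord_zero] at h3
  omega

/-! ### The versions on `FM A M` (the residue field of the Gauss valuation of level `M`) -/

include hA hqM h4 in
/-- **POLE-INST on `FM A M`**. -/
theorem pole_full_FM (h5 : 5 ≤ q) (z : Place (kV A) (FM A M)) (jE u y d : FM A M)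
    (hj : (jE : LaurentSeries (kV A)) = jqModC (kV A))
    (hu : (u : LaurentSeries (kV A)) = H73.ubar4 (kV A))
    (hy : (y : LaurentSeries (kV A)) = (H21_DL (kV A) ^ (q - 1))⁻¹)
    (hd : (d : LaurentSeries (kV A)) = coeffMap (Int.castRingHom (kV A)) (kdel q uZ4))
    (hz : 0 ≤ z.ord jE) (hss : 0 < z.ord y) :
    ∃ c : kV A, z.ord (u - algebraMap (kV A) (FM A M) c) = 1 ∧ c ^ q ^ 2 = c ∧ z.ord d = -1 :=
  pole_full A q M hA hqM h4 h5 _ (stmt_GA M q hqF.out hqM A hA) z jE u y d hj hu hy hd hz hss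

include hA hqM h4 in
/-- **POLE-INST on `FM A M`**, with `y₂ = - δ̄^q`. -/
theorem pole_full_d2_FM (h5 : 5 ≤ q) (z : Place (kV A) (FM A M)) (jE u y d y₂ : FM A M)
    (hj : (jE : LaurentSeries (kV A)) = jqModC (kV A))
    (hu : (u : LaurentSeries (kV A)) = H73.ubar4 (kV A))
    (hy : (y : LaurentSeries (kV A)) = (H21_DL (kV A) ^ (q - 1))⁻¹)
    (hd : (d : LaurentSeries (kV A)) = coeffMap (Int.castRingHom (kV A)) (kdel q uZ4))
    (hy₂ : (y₂ : LaurentSeries (kV A))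
      = - coeffMap (Int.castRingHom (kV A)) (kdel q uZ4) ^ q)
    (hz : 0 ≤ z.ord jE) (hss : 0 < z.ord y) :
    ∃ c : kV A, z.ord (u - algebraMap (kV A) (FM A M) c) = 1 ∧ c ^ q ^ 2 = c ∧
      z.ord y₂ = -(q : ℤ) :=
  pole_full_d2 A q M hA hqM h4 h5 _ (stmt_GA M q hqF.out hqM A hA) z jE u y d y₂ hj hu hy hd hy₂
    hz hss

include hA hqM h4 in
/-- `δ̄` as an element of `FM A M`. -/
theorem dbar_mem_FM :
    coeffMap (Int.castRingHom (kV A)) (kdel q uZ4)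
      ∈ redField A (modularFunctionFieldBar M) (hScM A M) := by
  rw [stmt_GA M q hqF.out hqM A hA]
  exact dbar_mem A q M hA hqM h4

include hA hqM ht h4 in
/-- **`hP` on `FM A M`**. -/
theorem hP_FM (z : Place (kV A) (FM A M)) (jE u d : FM A M)
    (hj : (jE : LaurentSeries (kV A)) = jqModC (kV A))
    (hu : (u : LaurentSeries (kV A)) = H73.ubar4 (kV A))
    (hd : (d : LaurentSeries (kV A)) = coeffMap (Int.castRingHom (kV A)) (kdel q uZ4))
    (hz : 0 ≤ z.ord jE) : d * (u ^ q ^ 2 - u) ∈ z.toValuationSubring :=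
  hP_inst A q M hA hqM ht h4 _ (stmt_GA M q hqF.out hqM A hA) z jE u d hj hu hd hz

end Final

end Fermat.Agent.S36.NU.H44

end
end
-- ==== END Fermat.Agent.S36.NU.H44_PoleReg

-- ==== BEGIN Fermat.Agent.S36.NU.H5_Q23Full
section
attribute [local instance 10000] SubalgebraClass.toAlgebra
attribute [local instance 10000] HahnSeries.powerSeriesAlgebra

/-!
# S36 / NU-B, leaf Q23 (helper5): POLE for `q = 2, 3` at `κ = modularFunctionFieldFullC (kV A) M'`

* `q23_ord_dbar_three_full` : `A` over `3`, `4 ∣ M'`, `3 ∤ M'`;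
* `q23_ord_dbar_two_full`   : `A` over `2`, `9 ∣ M'`, `2 ∤ M'`.

At every place `z` of `κ` with `ord_z j̄ > 0` and every coordinate `ū` at `z` with THETA and (L1):
`c^{q²} = c` and `ord_z d̄ = -1` (the hypotheses `hc`, `hd` of `H10.eis_ord'` / `eis_N5`).
-/

set_option autoImplicit false
set_option synthInstance.maxHeartbeats 400000
set_option maxHeartbeats 1000000

noncomputable section

open ModularCurve AlgebraicCurve Fermat.Agent.S28.H73 Fermat.Agent.RED.H73 Fermat.Agent.BAD.H88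
  Fermat.Agent.BAD.H82 Fermat.Agent.S24

namespace Fermat.Agent.S36.NU.H5

open Fermat.Agent.BAD.H73 Fermat.Agent.RED.H51 Fermat.Agent.S36.NU.H73

variable (A : ValuationSubring Kbar) (M' : ℕ) [NeZero M']

/-- **POLE for `q = 3`** at level `M'`, `4 ∣ M'`, `3 ∤ M'`. -/
theorem q23_ord_dbar_three_full (hA : A.LiesOverPrime 3) (h4 : 4 ∣ M') (h3 : ¬ 3 ∣ M')
    (z : Place (kV A) ↥(modularFunctionFieldFullC (kV A) M'))
    {u d P : ↥(modularFunctionFieldFullC (kV A) M')} (c : kV A)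
    (hu : z.ord (u - algebraMap (kV A) ↥(modularFunctionFieldFullC (kV A) M') c) = 1)
    (hθ : thetaL (d : LaurentSeries (kV A)) =
      (u : LaurentSeries (kV A)) ^ (3 - 1) * thetaL (u : LaurentSeries (kV A)) -
        thetaL (u : LaurentSeries (kV A)) ^ 3)
    (hz : 0 < z.ord (⟨jqModC (kV A), jqModC_mem_full (kV A) M'⟩ :
      ↥(modularFunctionFieldFullC (kV A) M')))
    (hL1 : P = d * (u ^ 3 ^ 2 - u)) (hP : P ∈ z.toValuationSubring) :
    c ^ 3 ^ 2 = c ∧ z.ord d = -1 := by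
  have : CharP (kV A) 3 := charP_kV A Nat.prime_three hA
  have h2 : 2 ∣ M' := Dvd.dvd.trans (by norm_num) h4
  exact q23_ord_dbar_three (hasPBasis_fullC A 3 Nat.prime_three hA M' h3) z
    (jE0 := ⟨jqModC (kV A), jqModC_mem_full (kV A) M'⟩)
    (jE1 := ⟨qExpand (kV A) 2 (jqModC (kV A)), jqModCd_mem_full (kV A) M' h2⟩)
    (jE2 := ⟨qExpand (kV A) 4 (jqModC (kV A)), jqModCd_mem_full (kV A) M' h4⟩)
    c hu hθ rfl rfl rfl hz hL1 hP

/-- **POLE for `q = 2`** at level `M'`, `9 ∣ M'`, `2 ∤ M'`. -/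
theorem q23_ord_dbar_two_full (hA : A.LiesOverPrime 2) (h9 : 9 ∣ M') (h2 : ¬ 2 ∣ M')
    (z : Place (kV A) ↥(modularFunctionFieldFullC (kV A) M'))
    {u d P : ↥(modularFunctionFieldFullC (kV A) M')} (c : kV A)
    (hu : z.ord (u - algebraMap (kV A) ↥(modularFunctionFieldFullC (kV A) M') c) = 1)
    (hθ : thetaL (d : LaurentSeries (kV A)) =
      (u : LaurentSeries (kV A)) ^ (2 - 1) * thetaL (u : LaurentSeries (kV A)) -
        thetaL (u : LaurentSeries (kV A)) ^ 2)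
    (hz : 0 < z.ord (⟨jqModC (kV A), jqModC_mem_full (kV A) M'⟩ :
      ↥(modularFunctionFieldFullC (kV A) M')))
    (hL1 : P = d * (u ^ 2 ^ 2 - u)) (hP : P ∈ z.toValuationSubring) :
    c ^ 2 ^ 2 = c ∧ z.ord d = -1 := by
  have : CharP (kV A) 2 := charP_kV A Nat.prime_two hA
  have h3 : 3 ∣ M' := Dvd.dvd.trans (by norm_num) h9
  exact q23_ord_dbar_two (hasPBasis_fullC A 2 Nat.prime_two hA M' h2) z
    (jE0 := ⟨jqModC (kV A), jqModC_mem_full (kV A) M'⟩)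
    (jE1 := ⟨qExpand (kV A) 3 (jqModC (kV A)), jqModCd_mem_full (kV A) M' h3⟩)
    (jE2 := ⟨qExpand (kV A) 9 (jqModC (kV A)), jqModCd_mem_full (kV A) M' h9⟩)
    c hu hθ rfl rfl rfl hz hL1 hP

end Fermat.Agent.S36.NU.H5

end
end
-- ==== END Fermat.Agent.S36.NU.H5_Q23Full

-- ==== BEGIN Fermat.Agent.S36.NU.H5_Q23Lift
section

/-!
# S36 / NU-B, leaf Q23-LIFT (helper5): the integral lifts of the coordinates for `q = 2, 3`

* `q23hZ4 ∈ ℤ((t))` : the Hauptmodul `η(τ)⁸/η(4τ)⁸` of `X₀(4)`, defined as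
  `(h₂(t²) - 16 h₂) / (h₂ + 16)`;  `q23hZ4_cube : q23hZ4 ^ 3 = h₂ · h₂(t²) = Δ(t)/Δ(t⁴)`;
  `coeffMap_q23hZ4 : coeffMap _ q23hZ4 = q23H3 k` in characteristic `3`.
* `q23hZ9 ∈ ℤ((t))` : the Hauptmodul `η(τ)³/η(9τ)³` of `X₀(9)`;
  `q23hZ9_pow : q23hZ9 ^ 4 = h₃ · h₃(t³)`;
  `coeffMap_q23hZ9 : coeffMap _ q23hZ9 = q23H2 k` in characteristic `2`.
-/

set_option autoImplicit false
set_option linter.unusedSectionVars false

noncomputable section

open ModularCurve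

namespace Fermat.Agent.S36.NU.H5

open Fermat.Agent.RED.H51 Fermat.Agent.S36.NU.H73

section IntSeries

local notation "ι" => HahnSeries.ofPowerSeries ℤ ℤ

theorem q23l_isUnit (n : ℤ) (U : PowerSeries ℤ) (hU : PowerSeries.constantCoeff U = 1) :
    IsUnit (HahnSeries.single n (1 : ℤ) * ι U) := by
  refine IsUnit.mul ?_ ?_
  · refine IsUnit.of_mul_eq_one (HahnSeries.single (-n) (1 : ℤ)) ?_
    rw [HahnSeries.single_mul_single, add_neg_cancel, mul_one]
    rfl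
  · have h : U * U.invOfUnit 1 = 1 := PowerSeries.mul_invOfUnit _ _ (by rw [hU]; rfl)
    exact IsUnit.of_mul_eq_one (ι (U.invOfUnit 1)) (by rw [← map_mul, h, map_one])

theorem q23l_sX : (HahnSeries.single (-1 : ℤ) (1 : ℤ)) * ι PowerSeries.X = 1 :=
  Fermat.Agent.RED.H70.single_neg_one_mul_X

/-! ### Level `4` -/

/-- `h₂(t²) ∈ ℤ((t))`. -/
def q23wZ : LaurentSeries ℤ := qExpand ℤ 2 Fermat.Agent.RED.H70.hZ2

theorem q23l_four_isUnit : IsUnit (Fermat.Agent.RED.H70.hZ2 + 16) := by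
  have h : Fermat.Agent.RED.H70.hZ2 + 16 = HahnSeries.single (-1 : ℤ) (1 : ℤ)
      * ι (ModularCurve.dedekindEtaUnit * Fermat.Agent.RED.H70.eta2UnitInv
        + 16 * PowerSeries.X) := by
    have e : ι (ModularCurve.dedekindEtaUnit * Fermat.Agent.RED.H70.eta2UnitInv
        + 16 * PowerSeries.X)
        = ι (ModularCurve.dedekindEtaUnit * Fermat.Agent.RED.H70.eta2UnitInv)
          + 16 * ι PowerSeries.X := by
      rw [map_add, map_mul (ι) 16 PowerSeries.X, map_ofNat]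
    rw [Fermat.Agent.RED.H70.hZ2, e]
    linear_combination (-16 : LaurentSeries ℤ) * q23l_sX
  rw [h]
  refine q23l_isUnit _ _ ?_
  rw [map_add, map_mul, map_mul, ModularCurve.constantCoeff_dedekindEtaUnit,
    Fermat.Agent.RED.H70.constantCoeff_eta2UnitInv, PowerSeries.constantCoeff_X]
  norm_num

/-- The Hauptmodul `η(τ)⁸/η(4τ)⁸` of `X₀(4)` in `ℤ((t))`. -/
def q23hZ4 : LaurentSeries ℤ :=
  (q23wZ - 16 * Fermat.Agent.RED.H70.hZ2) * Ring.inverse (Fermat.Agent.RED.H70.hZ2 + 16)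

theorem q23hZ4_mul :
    q23hZ4 * (Fermat.Agent.RED.H70.hZ2 + 16) = q23wZ - 16 * Fermat.Agent.RED.H70.hZ2 := by
  rw [q23hZ4, mul_assoc, Ring.inverse_mul_cancel _ q23l_four_isUnit, mul_one]

theorem q23l_four_ne : Fermat.Agent.RED.H70.hZ2 * q23wZ ≠ 4096 := by
  intro h
  have : Fact (Nat.Prime 3) := ⟨by norm_num⟩
  have h1 := congrArg (coeffMap (Int.castRingHom (ZMod 3))) h
  rw [map_mul, q23wZ, coeffMap_qExpand, map_ofNat] at h1
  have h3 := q23_three_L (k := ZMod 3)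
  apply q23_W1W_ne_one (k := ZMod 3)
  rw [q23W, q23W1]
  linear_combination h1 + 1365 * h3

theorem q23l_hZ2_add_ne : Fermat.Agent.RED.H70.hZ2 + 16 ≠ 0 :=
  q23l_four_isUnit.ne_zero

/-- The modular equation of level `2` for `h₂` over `ℤ`. -/
theorem q23l_modEq4 :
    q23wZ ^ 2 = (Fermat.Agent.RED.H70.hZ2 ^ 2 + 48 * Fermat.Agent.RED.H70.hZ2) * q23wZ
      + 4096 * Fermat.Agent.RED.H70.hZ2 := by
  refine q23l_four_modEq _ _ (qExpand ℤ 2 (jqModC ℤ)) Fermat.Agent.RED.H70.hZ2_ident' ?_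
    q23l_four_ne
  have h := congrArg (qExpand ℤ 2) Fermat.Agent.RED.H70.hZ2_ident
  rw [map_pow, map_add, map_mul, map_pow, map_ofNat] at h
  exact h

theorem q23hZ4_sq :
    q23hZ4 ^ 2 = Fermat.Agent.RED.H70.hZ2 * q23hZ4 + 16 * Fermat.Agent.RED.H70.hZ2 :=
  q23l_four_sq _ _ _ q23hZ4_mul q23l_modEq4 q23l_hZ2_add_ne

theorem q23hZ4_w : q23wZ = q23hZ4 ^ 2 + 16 * q23hZ4 :=
  q23l_four_w _ _ _ q23hZ4_mul q23hZ4_sq

theorem q23hZ4_v : Fermat.Agent.RED.H70.hZ2 * (q23hZ4 + 16) = q23hZ4 ^ 2 :=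
  q23l_four_v _ _ q23hZ4_sq

/-- `x₄³ = Δ(t)/Δ(t⁴)` (helper73's `uZ4`). -/
theorem q23hZ4_cube : q23hZ4 ^ 3 = uZ4 := by
  rw [uZ4, vZ2]
  exact q23l_four_cube _ _ _ q23hZ4_mul q23hZ4_sq

/-! ### Level `9` -/

/-- `h₃(t³) ∈ ℤ((t))`. -/
def q23w3Z : LaurentSeries ℤ := qExpand ℤ 3 Fermat.Agent.RED.H29.hZ3

/-- The numerator of the Hauptmodul of `X₀(9)`. -/
def q23numZ : LaurentSeries ℤ :=
  1458 * Fermat.Agent.RED.H29.hZ3
    + q23w3Z * (Fermat.Agent.RED.H29.hZ3 ^ 2 + 18 * Fermat.Agent.RED.H29.hZ3 + 27)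

/-- The denominator of the Hauptmodul of `X₀(9)`. -/
def q23denZ : LaurentSeries ℤ :=
  q23w3Z * (Fermat.Agent.RED.H29.hZ3 + 9) - 243 * Fermat.Agent.RED.H29.hZ3 + 729

theorem q23l_alg_den {R : Type*} [CommRing R] (s t E h : R) (hst : s * t = 1) :
    s ^ 3 * E * (s * h + 9) - 243 * (s * h) + 729
      = s ^ 4 * (E * (h + 9 * t) - 243 * t ^ 3 * h + 729 * t ^ 4) := by
  linear_combination (-(9 * s ^ 3 * E) + 243 * s * h * ((s * t) ^ 2 + s * t + 1)
    - 729 * ((s * t) ^ 3 + (s * t) ^ 2 + s * t + 1)) * hst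

theorem q23l_nine_isUnit : IsUnit q23denZ := by
  have hw : q23w3Z = HahnSeries.single (-1 : ℤ) (1 : ℤ) ^ 3
      * ι (PowerSeries.expand 3 three_ne_zero Fermat.Agent.RED.H29.hNum) := by
    rw [q23w3Z, Fermat.Agent.RED.H29.hZ3, map_mul, ModularCurve.qExpand_single,
      Fermat.Agent.RED.H10.qExpand_ofPowerSeries, HahnSeries.single_pow]
    simp
  have h : q23denZ = HahnSeries.single (-4 : ℤ) (1 : ℤ)
      * ι (PowerSeries.expand 3 three_ne_zero Fermat.Agent.RED.H29.hNum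
          * (Fermat.Agent.RED.H29.hNum + 9 * PowerSeries.X)
        - 243 * PowerSeries.X ^ 3 * Fermat.Agent.RED.H29.hNum + 729 * PowerSeries.X ^ 4) := by
    have e4 : HahnSeries.single (-4 : ℤ) (1 : ℤ) = HahnSeries.single (-1 : ℤ) (1 : ℤ) ^ 4 := by
      rw [HahnSeries.single_pow]
      simp
    have e : ι (PowerSeries.expand 3 three_ne_zero Fermat.Agent.RED.H29.hNum
          * (Fermat.Agent.RED.H29.hNum + 9 * PowerSeries.X)
        - 243 * PowerSeries.X ^ 3 * Fermat.Agent.RED.H29.hNum + 729 * PowerSeries.X ^ 4)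
        = ι (PowerSeries.expand 3 three_ne_zero Fermat.Agent.RED.H29.hNum)
          * (ι Fermat.Agent.RED.H29.hNum + 9 * ι PowerSeries.X)
        - 243 * ι PowerSeries.X ^ 3 * ι Fermat.Agent.RED.H29.hNum
        + 729 * ι PowerSeries.X ^ 4 := by
      simp only [map_add, map_sub, map_mul, map_pow, map_ofNat]
    rw [q23denZ, hw, Fermat.Agent.RED.H29.hZ3, e4, e]
    exact q23l_alg_den _ _ _ _ q23l_sX
  rw [h]
  refine q23l_isUnit _ _ ?_
  rw [map_add, map_sub, map_mul, map_mul, map_mul, map_mul, map_add, map_mul, map_pow, map_pow,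
    PowerSeries.constantCoeff_expand, Fermat.Agent.RED.H29.constantCoeff_hNum,
    PowerSeries.constantCoeff_X]
  norm_num

/-- The Hauptmodul `η(τ)³/η(9τ)³` of `X₀(9)` in `ℤ((t))`. -/
def q23hZ9 : LaurentSeries ℤ := q23numZ * Ring.inverse q23denZ

theorem q23hZ9_mul : q23hZ9 * q23denZ = q23numZ := by
  rw [q23hZ9, mul_assoc, Ring.inverse_mul_cancel _ q23l_nine_isUnit, mul_one]

theorem q23l_nine_ne : Fermat.Agent.RED.H29.hZ3 * q23w3Z ≠ 729 := by
  intro h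
  have : Fact (Nat.Prime 2) := ⟨by norm_num⟩
  have h1 := congrArg (coeffMap (Int.castRingHom (ZMod 2))) h
  rw [map_mul, q23w3Z, coeffMap_qExpand, map_ofNat] at h1
  have h2 := q23_two_L (k := ZMod 2)
  apply q23_V1V_ne_one (k := ZMod 2)
  rw [q23V, q23V1]
  linear_combination h1 + 364 * h2

/-- The modular equation of level `3` for `h₃` over `ℤ`. -/
theorem q23l_modEq9 :
    q23w3Z ^ 3 = (Fermat.Agent.RED.H29.hZ3 ^ 3 + 36 * Fermat.Agent.RED.H29.hZ3 ^ 2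
        + 270 * Fermat.Agent.RED.H29.hZ3) * q23w3Z ^ 2
      + (729 * Fermat.Agent.RED.H29.hZ3 ^ 2 + 26244 * Fermat.Agent.RED.H29.hZ3) * q23w3Z
      + 531441 * Fermat.Agent.RED.H29.hZ3 := by
  refine q23l_nine_modEq _ _ (qExpand ℤ 3 (jqModC ℤ)) Fermat.Agent.RED.H29.hZ3_two ?_
    q23l_nine_ne
  have h := congrArg (qExpand ℤ 3) Fermat.Agent.RED.H29.hZ3_one
  rw [map_mul, map_pow, map_add, map_add, map_mul, map_pow, map_ofNat, map_ofNat] at h
  exact h

theorem q23hZ9_cube :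
    q23hZ9 ^ 3 = Fermat.Agent.RED.H29.hZ3 * (q23hZ9 ^ 2 + 9 * q23hZ9 + 27) :=
  q23l_nine_R1 _ _ _ _ _ rfl rfl q23hZ9_mul q23l_modEq9 q23l_nine_isUnit.ne_zero

theorem q23hZ9_w : q23w3Z = q23hZ9 * (q23hZ9 ^ 2 + 9 * q23hZ9 + 27) :=
  q23l_nine_R2 _ _ _ _ _ rfl rfl q23hZ9_mul q23l_modEq9 q23l_nine_isUnit.ne_zero

/-- `x₉⁴ = h₃ · h₃(t³) = η(t)¹²/η(t⁹)¹²`. -/
theorem q23hZ9_pow : q23hZ9 ^ 4 = Fermat.Agent.RED.H29.hZ3 * q23w3Z :=
  q23l_nine_pow _ _ _ q23hZ9_cube q23hZ9_w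

/-! ### `h₃² = Δ(t)/Δ(t³)` and the unit `j(t³) - 36 h₃² - 756` -/

theorem q23l_alg_sq {R : Type*} [CommRing R] (s t a b c : R) (hst : s * t = 1)
    (hbc : b ^ 12 * c = 1) :
    (s * (a ^ 12 * c)) ^ 2 * (t ^ 3 * b ^ 24) = t * a ^ 24 := by
  linear_combination (t * a ^ 24 * (s * t + 1) * (b ^ 12 * c) ^ 2) * hst
    + (t * a ^ 24 * (b ^ 12 * c + 1)) * hbc

/-- `h₃² Δ(t³) = Δ(t)` over `ℤ`. -/
theorem q23l_hZ3_sq_mul :
    Fermat.Agent.RED.H29.hZ3 ^ 2 * qExpand ℤ 3 DZ = DZ := by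
  have e1 : qExpand ℤ 3 DZ = ι PowerSeries.X ^ 3 * ι Fermat.Agent.RED.H29.bZ ^ 24 := by
    rw [DZ, Fermat.Agent.RED.H70.deltaSeries_eq, Fermat.Agent.RED.H10.qExpand_ofPowerSeries,
      map_mul, map_pow, PowerSeries.expand_X, map_mul, map_pow, map_pow]
  have e2 : DZ = ι PowerSeries.X * ι ModularCurve.etaProd ^ 24 := by
    rw [DZ, Fermat.Agent.RED.H70.deltaSeries_eq, map_mul, map_pow]
  have e3 : Fermat.Agent.RED.H29.hZ3 = HahnSeries.single (-1 : ℤ) (1 : ℤ)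
      * (ι ModularCurve.etaProd ^ 12 * ι Fermat.Agent.RED.H29.bInv) := by
    rw [Fermat.Agent.RED.H29.hZ3, Fermat.Agent.RED.H29.hNum, map_mul, map_pow]
  have hbc : ι Fermat.Agent.RED.H29.bZ ^ 12 * ι Fermat.Agent.RED.H29.bInv = 1 := by
    rw [← map_pow, ← map_mul, Fermat.Agent.RED.H29.bZ_mul_bInv, map_one]
  rw [e1, e3]
  conv_rhs => rw [e2]
  exact q23l_alg_sq _ _ _ _ _ q23l_sX hbc

theorem q23l_alg_den3 {R : Type*} [CommRing R] (s t J h : R) (hst : s * t = 1) :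
    s ^ 3 * J - 36 * (s * h) ^ 2 - 756
      = s ^ 3 * (J - 36 * t * h ^ 2 - 756 * t ^ 3) := by
  linear_combination (36 * s ^ 2 * h ^ 2 + 756 * ((s * t) ^ 2 + s * t + 1)) * hst

theorem q23l_j3_isUnit :
    IsUnit (qExpand ℤ 3 (jqModC ℤ) - 36 * Fermat.Agent.RED.H29.hZ3 ^ 2 - 756) := by
  have hj : qExpand ℤ 3 (jqModC ℤ) = HahnSeries.single (-1 : ℤ) (1 : ℤ) ^ 3
      * ι (PowerSeries.expand 3 three_ne_zero ModularCurve.jNum) := by
    rw [jqModC, Fermat.Agent.RED.H70.jNum_map_int, map_mul, ModularCurve.qExpand_single,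
      Fermat.Agent.RED.H10.qExpand_ofPowerSeries, HahnSeries.single_pow]
    simp
  have h : qExpand ℤ 3 (jqModC ℤ) - 36 * Fermat.Agent.RED.H29.hZ3 ^ 2 - 756
      = HahnSeries.single (-3 : ℤ) (1 : ℤ)
        * ι (PowerSeries.expand 3 three_ne_zero ModularCurve.jNum
          - 36 * PowerSeries.X * Fermat.Agent.RED.H29.hNum ^ 2 - 756 * PowerSeries.X ^ 3) := by
    have e3 : HahnSeries.single (-3 : ℤ) (1 : ℤ) = HahnSeries.single (-1 : ℤ) (1 : ℤ) ^ 3 := by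
      rw [HahnSeries.single_pow]
      simp
    have e : ι (PowerSeries.expand 3 three_ne_zero ModularCurve.jNum
          - 36 * PowerSeries.X * Fermat.Agent.RED.H29.hNum ^ 2 - 756 * PowerSeries.X ^ 3)
        = ι (PowerSeries.expand 3 three_ne_zero ModularCurve.jNum)
          - 36 * ι PowerSeries.X * ι Fermat.Agent.RED.H29.hNum ^ 2
          - 756 * ι PowerSeries.X ^ 3 := by
      simp only [map_sub, map_mul, map_pow, map_ofNat]
    rw [hj, Fermat.Agent.RED.H29.hZ3, e3, e]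
    exact q23l_alg_den3 _ _ _ _ q23l_sX
  rw [h]
  refine q23l_isUnit _ _ ?_
  rw [map_sub, map_sub, map_mul, map_mul, map_mul, map_pow, map_pow,
    PowerSeries.constantCoeff_expand, ModularCurve.constantCoeff_jNum,
    PowerSeries.constantCoeff_X]
  norm_num

end IntSeries

/-! ### Reductions -/

section Red

variable (k : Type*) [Field k]

/-- The image of `x₄` over any field. -/
theorem q23l_map_hZ4_mul :
    coeffMap (Int.castRingHom k) q23hZ4 * (q23W1 k + 16) = q23W k - 16 * q23W1 k := by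
  have h := congrArg (coeffMap (Int.castRingHom k)) q23hZ4_mul
  rw [map_mul, map_add, map_sub, map_mul, map_ofNat, q23wZ, coeffMap_qExpand] at h
  exact h

theorem q23l_map_hZ4_cube :
    coeffMap (Int.castRingHom k) q23hZ4 ^ 3 = ubar4 k := by
  rw [← map_pow, q23hZ4_cube, coeffMap_uZ4]

/-- **Reduction of `x₄` in characteristic `3`** is the coordinate `h̄ = q23H3`. -/
theorem coeffMap_q23hZ4 [CharP k 3] : coeffMap (Int.castRingHom k) q23hZ4 = q23H3 k := by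
  have h := q23l_map_hZ4_mul k
  have h3 := q23_three_L (k := k)
  refine mul_right_cancel₀ (q23W1_add_one_ne_zero (k := k)) ?_
  rw [q23H3_mul]
  linear_combination h - 5 * (coeffMap (Int.castRingHom k) q23hZ4 + q23W1 k) * h3

/-- The image of `x₉` over any field. -/
theorem q23l_map_hZ9_mul :
    coeffMap (Int.castRingHom k) q23hZ9
        * (q23V k * (q23V1 k + 9) - 243 * q23V1 k + 729)
      = 1458 * q23V1 k + q23V k * (q23V1 k ^ 2 + 18 * q23V1 k + 27) := by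
  have h := congrArg (coeffMap (Int.castRingHom k)) q23hZ9_mul
  rw [q23denZ, q23numZ, q23w3Z] at h
  simp only [map_mul, map_add, map_sub, map_pow, map_ofNat, coeffMap_qExpand] at h
  exact h

theorem q23l_map_hZ9_pow :
    coeffMap (Int.castRingHom k) q23hZ9 ^ 4 = q23V1 k * q23V k := by
  rw [← map_pow, q23hZ9_pow, map_mul, q23w3Z, coeffMap_qExpand]
  rfl

theorem q23V1_add_one_ne_zero : q23V1 k + 1 ≠ 0 := by
  intro h
  have h1 := congrArg (fun f : LaurentSeries k => f.coeff (-1)) h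
  simp only [HahnSeries.coeff_add, q23V1_coeff_neg_one, HahnSeries.coeff_zero] at h1
  rw [HahnSeries.coeff_one, if_neg (by norm_num), add_zero] at h1
  exact one_ne_zero h1

/-- **Reduction of `x₉` in characteristic `2`** is the coordinate `h̄ = q23H2`. -/
theorem coeffMap_q23hZ9 [CharP k 2] : coeffMap (Int.castRingHom k) q23hZ9 = q23H2 k := by
  have h := q23l_map_hZ9_mul k
  have h2 := q23_two_L (k := k)
  refine mul_right_cancel₀ (q23V_add_one_ne_zero (k := k)) ?_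
  rw [q23H2_mul]
  refine mul_right_cancel₀ (q23V1_add_one_ne_zero k) ?_
  linear_combination (exp := 1) h
    + (coeffMap (Int.castRingHom k) q23hZ9 * (-(4 * q23V k) + 122 * q23V1 k - 364)
      + 729 * q23V1 k + q23V k * (9 * q23V1 k + 13) - q23V k * q23V1 k) * h2

end Red

/-! ### The series over an arbitrary field -/

section Field

open Fermat.Agent.BAD.H30

variable (k : Type*) [Field k]

theorem q23l_den4_ne : q23W1 k + 16 ≠ 0 := by
  have h := (q23l_four_isUnit.map (coeffMap (Int.castRingHom k))).ne_zero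
  rwa [map_add, map_ofNat] at h

theorem q23l_den9_ne : q23V k * (q23V1 k + 9) - 243 * q23V1 k + 729 ≠ 0 := by
  have h := (q23l_nine_isUnit.map (coeffMap (Int.castRingHom k))).ne_zero
  rw [q23denZ, q23w3Z] at h
  simp only [map_mul, map_add, map_sub, map_ofNat, coeffMap_qExpand] at h
  exact h

theorem q23l_den3_ne : qExpand k 3 (jqModC k) - 36 * q23V1 k ^ 2 - 756 ≠ 0 := by
  have h := (q23l_j3_isUnit.map (coeffMap (Int.castRingHom k))).ne_zero
  simp only [map_mul, map_sub, map_pow, map_ofNat, coeffMap_qExpand,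
    coeffMap_jqModC] at h
  exact h

theorem q23l_V1_sq : q23V1 k ^ 2 = deltaR k * (qExpand k 3 (deltaR k))⁻¹ := by
  have h := congrArg (coeffMap (Int.castRingHom k)) q23l_hZ3_sq_mul
  rw [map_mul, map_pow, coeffMap_qExpand, coeffMap_DZ] at h
  exact (eq_mul_inv_iff_mul_eq₀ (qExpand_deltaR_ne_zero k 3)).mpr h

theorem q23l_V1_two :
    (q23V1 k + 27) * (q23V1 k + 3) ^ 3 = qExpand k 3 (jqModC k) * q23V1 k := by
  have h := congrArg (coeffMap (Int.castRingHom k)) Fermat.Agent.RED.H29.hZ3_two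
  simp only [map_mul, map_add, map_pow, map_ofNat, coeffMap_qExpand, coeffMap_jqModC] at h
  exact h

/-- `h₃` as a rational function of `u = h₃² = Δ(t)/Δ(t³)` and `j(t³)`. -/
theorem q23l_V1_eq :
    q23V1 k = ((q23V1 k ^ 2) ^ 2 + 270 * q23V1 k ^ 2 + 729)
      / (qExpand k 3 (jqModC k) - 36 * q23V1 k ^ 2 - 756) := by
  rw [eq_div_iff (q23l_den3_ne k)]
  linear_combination -(q23l_V1_two k)

theorem q23l_V_sq :
    q23V k ^ 2 = qExpand k 3 (deltaR k) * (qExpand k 9 (deltaR k))⁻¹ := by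
  have h := congrArg (qExpand k 3) (q23l_V1_sq k)
  rw [map_pow, map_mul, map_inv₀, q23_qExpand_three_three] at h
  exact h

theorem q23l_V_eq :
    q23V k = ((q23V k ^ 2) ^ 2 + 270 * q23V k ^ 2 + 729)
      / (qExpand k 9 (jqModC k) - 36 * q23V k ^ 2 - 756) := by
  have h := congrArg (qExpand k 3) (q23l_V1_eq k)
  simp only [map_div₀, map_add, map_sub, map_mul, map_pow, map_ofNat,
    q23_qExpand_three_three] at h
  exact h

end Field

/-! ### Characteristic `0`: the elements of `F_N` -/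

section CharZero

open Fermat.Agent.S24 (Kbar FN jF)
open Fermat.Agent.BAD.H30 Fermat.Agent.BAD.H88

variable (N : ℕ) [NeZero N]

theorem q23l_unit_mem (d : ℕ) [NeZero d] (hd : d ∣ N) :
    deltaR Kbar * (qExpand Kbar d (deltaR Kbar))⁻¹ ∈ modularFunctionFieldBar N := by
  rw [← coeffEmb_modularUnitSeries]
  exact unit_mem N d hd

theorem q23l_jd_mem (d : ℕ) [NeZero d] (hd : d ∣ N) :
    qExpand Kbar d (jqModC Kbar) ∈ modularFunctionFieldBar N := by
  show _ ∈ laurentBaseChange Kbar (modularFunctionFieldFull N)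
  rw [Fermat.Agent.RED.H73.laurentBaseChange_full_eq]
  exact jqModCd_mem_full Kbar N hd

theorem q23l_W1_mem (h2 : 2 ∣ N) : q23W1 Kbar ∈ modularFunctionFieldBar N := by
  have e : q23W1 Kbar = deltaR Kbar * (qExpand Kbar 2 (deltaR Kbar))⁻¹ := vbar_eq Kbar
  rw [e]
  exact q23l_unit_mem N 2 h2

theorem q23l_W_mem (h4 : 4 ∣ N) : q23W Kbar ∈ modularFunctionFieldBar N := by
  have e : q23W Kbar = ubar4 Kbar * (vbar Kbar)⁻¹ := vbar2_eq Kbar
  rw [e, ubar4_eq, vbar_eq]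
  exact mul_mem (q23l_unit_mem N 4 h4)
    (inv_mem (q23l_unit_mem N 2 (Dvd.dvd.trans (by norm_num) h4)))

/-- The Hauptmodul of `X₀(4)` lies in `F_N`, `4 ∣ N`. -/
theorem q23l_hZ4_mem (h4 : 4 ∣ N) :
    coeffMap (Int.castRingHom Kbar) q23hZ4 ∈ modularFunctionFieldBar N := by
  have h := q23l_map_hZ4_mul Kbar
  rw [← eq_div_iff (q23l_den4_ne Kbar)] at h
  have h2 : 2 ∣ N := Dvd.dvd.trans (by norm_num) h4
  rw [h]
  exact div_mem (sub_mem (q23l_W_mem N h4) (mul_mem (ofNat_mem _ 16) (q23l_W1_mem N h2)))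
    (add_mem (q23l_W1_mem N h2) (ofNat_mem _ 16))

theorem q23l_V1_mem (h3 : 3 ∣ N) : q23V1 Kbar ∈ modularFunctionFieldBar N := by
  have hu : q23V1 Kbar ^ 2 ∈ modularFunctionFieldBar N := by
    rw [q23l_V1_sq]
    exact q23l_unit_mem N 3 h3
  rw [q23l_V1_eq]
  exact div_mem (add_mem (add_mem (pow_mem hu 2) (mul_mem (ofNat_mem _ 270) hu))
      (ofNat_mem _ 729))
    (sub_mem (sub_mem (q23l_jd_mem N 3 h3) (mul_mem (ofNat_mem _ 36) hu)) (ofNat_mem _ 756))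

theorem q23l_V_mem (h9 : 9 ∣ N) : q23V Kbar ∈ modularFunctionFieldBar N := by
  have h3 : 3 ∣ N := Dvd.dvd.trans (by norm_num) h9
  have hu : q23V Kbar ^ 2 ∈ modularFunctionFieldBar N := by
    rw [q23l_V_sq]
    have e : qExpand Kbar 3 (deltaR Kbar) * (qExpand Kbar 9 (deltaR Kbar))⁻¹
        = (deltaR Kbar * (qExpand Kbar 9 (deltaR Kbar))⁻¹)
          * (deltaR Kbar * (qExpand Kbar 3 (deltaR Kbar))⁻¹)⁻¹ := by
      have h0 := deltaR_ne_zero Kbar
      have h3' := qExpand_deltaR_ne_zero Kbar 3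
      have h9' := qExpand_deltaR_ne_zero Kbar 9
      field_simp
    rw [e]
    exact mul_mem (q23l_unit_mem N 9 h9) (inv_mem (q23l_unit_mem N 3 h3))
  rw [q23l_V_eq]
  exact div_mem (add_mem (add_mem (pow_mem hu 2) (mul_mem (ofNat_mem _ 270) hu))
      (ofNat_mem _ 729))
    (sub_mem (sub_mem (q23l_jd_mem N 9 h9) (mul_mem (ofNat_mem _ 36) hu)) (ofNat_mem _ 756))

/-- The Hauptmodul of `X₀(9)` lies in `F_N`, `9 ∣ N`. -/
theorem q23l_hZ9_mem (h9 : 9 ∣ N) :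
    coeffMap (Int.castRingHom Kbar) q23hZ9 ∈ modularFunctionFieldBar N := by
  have h := q23l_map_hZ9_mul Kbar
  rw [← eq_div_iff (q23l_den9_ne Kbar)] at h
  have h3 : 3 ∣ N := Dvd.dvd.trans (by norm_num) h9
  have hv := q23l_V1_mem N h3
  have hw := q23l_V_mem N h9
  rw [h]
  exact div_mem
    (add_mem (mul_mem (ofNat_mem _ 1458) hv)
      (mul_mem hw (add_mem (add_mem (pow_mem hv 2) (mul_mem (ofNat_mem _ 18) hv))
        (ofNat_mem _ 27))))
    (add_mem (sub_mem (mul_mem hw (add_mem hv (ofNat_mem _ 9)))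
      (mul_mem (ofNat_mem _ 243) hv)) (ofNat_mem _ 729))

/-- **The lift of the coordinate for `q = 3`**: the Hauptmodul `η(τ)⁸/η(4τ)⁸` in `F_N`. -/
def q23uF3 (h4 : 4 ∣ N) : FN N := ⟨coeffMap (Int.castRingHom Kbar) q23hZ4, q23l_hZ4_mem N h4⟩

/-- **The lift of the coordinate for `q = 2`**: the Hauptmodul `η(τ)³/η(9τ)³` in `F_N`. -/
def q23uF2 (h9 : 9 ∣ N) : FN N := ⟨coeffMap (Int.castRingHom Kbar) q23hZ9, q23l_hZ9_mem N h9⟩

theorem q23uF3_coe (h4 : 4 ∣ N) :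
    ((q23uF3 N h4 : FN N) : LaurentSeries Kbar) = coeffMap (Int.castRingHom Kbar) q23hZ4 := rfl

theorem q23uF2_coe (h9 : 9 ∣ N) :
    ((q23uF2 N h9 : FN N) : LaurentSeries Kbar) = coeffMap (Int.castRingHom Kbar) q23hZ9 := rfl

/-- `x₄³ = Δ(t)/Δ(t⁴)`. -/
theorem q23uF3_cube (h4 : 4 ∣ N) : q23uF3 N h4 ^ 3 = unitF N 4 h4 := by
  apply Subtype.ext
  rw [coeffMap_uZ4_Kbar, ← q23hZ4_cube, map_pow]
  rfl

/-- `x₉⁸ = Δ(t)/Δ(t⁹)`. -/
theorem q23uF2_pow (h9 : 9 ∣ N) : q23uF2 N h9 ^ 8 = unitF N 9 h9 := by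
  apply Subtype.ext
  have h1 : ((q23uF2 N h9 ^ 8 : FN N) : LaurentSeries Kbar)
      = (coeffMap (Int.castRingHom Kbar) q23hZ9 ^ 4) ^ 2 := by
    rw [← pow_mul]
    rfl
  rw [h1, q23l_map_hZ9_pow, mul_pow, q23l_V1_sq, q23l_V_sq, unitF_coe,
    coeffEmb_modularUnitSeries]
  have h0 := deltaR_ne_zero Kbar
  have h3' := qExpand_deltaR_ne_zero Kbar 3
  have h9' := qExpand_deltaR_ne_zero Kbar 9
  field_simp

theorem q23uF3_ne_zero (h4 : 4 ∣ N) : q23uF3 N h4 ≠ 0 := by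
  intro h
  have h1 := q23uF3_cube N h4
  rw [h, zero_pow (by norm_num)] at h1
  exact unitF_ne_zero N 4 h4 h1.symm

theorem q23uF2_ne_zero (h9 : 9 ∣ N) : q23uF2 N h9 ≠ 0 := by
  intro h
  have h1 := q23uF2_pow N h9
  rw [h, zero_pow (by norm_num)] at h1
  exact unitF_ne_zero N 9 h9 h1.symm

/-- The lift has neither zeros nor poles where `j` is regular. -/
theorem ord_q23uF3 (h4 : 4 ∣ N) (P : AlgebraicCurve.Place Kbar (FN N))
    (hP : 0 ≤ P.ord (_root_.Fermat.Agent.S24.jF N)) : P.ord (q23uF3 N h4) = 0 := by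
  have h := ord_unitF N 4 h4 P hP
  rw [← q23uF3_cube, ord_pow] at h
  have : (3 : ℤ) * P.ord (q23uF3 N h4) = 0 := by exact_mod_cast h
  omega

theorem ord_q23uF2 (h9 : 9 ∣ N) (P : AlgebraicCurve.Place Kbar (FN N))
    (hP : 0 ≤ P.ord (_root_.Fermat.Agent.S24.jF N)) : P.ord (q23uF2 N h9) = 0 := by
  have h := ord_unitF N 9 h9 P hP
  rw [← q23uF2_pow, ord_pow] at h
  have : (8 : ℤ) * P.ord (q23uF2 N h9) = 0 := by exact_mod_cast h
  omega

end CharZero

/-! ### Gauss reduction -/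

section Gauss

open Fermat.Agent.S24 (Kbar FN jF)
open Fermat.Agent.BAD Fermat.Agent.BAD.H82 Fermat.Agent.S28.H73 Fermat.Agent.S28
open Fermat.Agent.RED.H73 Fermat.Agent.S36.NU.H65

variable (A : ValuationSubring (AlgebraicClosure ℚ)) (N : ℕ) [NeZero N]

theorem q23uF3_mem_gaussV (h4 : 4 ∣ N) : q23uF3 N h4 ∈ gaussV A N :=
  intSer_mem A q23hZ4

theorem q23uF2_mem_gaussV (h9 : 9 ∣ N) : q23uF2 N h9 ∈ gaussV A N :=
  intSer_mem A q23hZ9

/-- The Gauss reduction of the lift is the reduction of the integral series (any `A`). -/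
theorem gaussRes_q23uF3_int (h4 : 4 ∣ N) :
    ((gaussRes A N ⟨q23uF3 N h4, q23uF3_mem_gaussV A N h4⟩ :
        ↥(redField A (FNbar N) (hasScale_laurentBaseChange A N))) : LaurentSeries (kV A))
      = coeffMap (Int.castRingHom (kV A)) q23hZ4 :=
  gaussRedV_intSer A q23hZ4 _

theorem gaussRes_q23uF2_int (h9 : 9 ∣ N) :
    ((gaussRes A N ⟨q23uF2 N h9, q23uF2_mem_gaussV A N h9⟩ :
        ↥(redField A (FNbar N) (hasScale_laurentBaseChange A N))) : LaurentSeries (kV A))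
      = coeffMap (Int.castRingHom (kV A)) q23hZ9 :=
  gaussRedV_intSer A q23hZ9 _

/-- **Gauss reduction for `q = 3`**: the reduction of `x₄` is the coordinate `h̄ = q23H3`. -/
theorem gaussRes_q23uF3 (hA : A.LiesOverPrime 3) (h4 : 4 ∣ N) :
    ((gaussRes A N ⟨q23uF3 N h4, q23uF3_mem_gaussV A N h4⟩ :
        ↥(redField A (FNbar N) (hasScale_laurentBaseChange A N))) : LaurentSeries (kV A))
      = q23H3 (kV A) := by
  have : CharP (kV A) 3 := charP_kV A Nat.prime_three hA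
  rw [gaussRes_q23uF3_int, coeffMap_q23hZ4]

/-- **Gauss reduction for `q = 2`**: the reduction of `x₉` is the coordinate `h̄ = q23H2`. -/
theorem gaussRes_q23uF2 (hA : A.LiesOverPrime 2) (h9 : 9 ∣ N) :
    ((gaussRes A N ⟨q23uF2 N h9, q23uF2_mem_gaussV A N h9⟩ :
        ↥(redField A (FNbar N) (hasScale_laurentBaseChange A N))) : LaurentSeries (kV A))
      = q23H2 (kV A) := by
  have : CharP (kV A) 2 := charP_kV A Nat.prime_two hA
  rw [gaussRes_q23uF2_int, coeffMap_q23hZ9]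

end Gauss

end Fermat.Agent.S36.NU.H5

end
end
-- ==== END Fermat.Agent.S36.NU.H5_Q23Lift
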