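-- GENERATED (merged mirror, NOTES/tools/trim/merge3_helper67.py): 4 modules of the originals, bodies verbatim.
import Fermat.Agent.Zm.S36_L07_000
import Fermat.Agent.Zm.S36_L07_001
import Fermat.Agent.Zm.S35_L06_002
import Fermat.Agent.Zm.S36_L01_002
import Fermat.Agent.Zm.S36_L01_003
import Fermat.Agent.Zm.S44_L01_000
import Fermat.Agent.Zm.S35_L17_000

-- ==== BEGIN Fermat.Agent.S36.NU.H5_Q23Ram
section

/-!
# S36 / NU-B, leaf Q23 (helper5): RAM / COORD for `q = 2, 3` from a count (abstract part)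

* `q23_ram_of_count` : `F / k` a function field, `j, g ∈ F`, `n ≥ 1` with `ord_z j = n ord_z g`,
  `ord_z g > 0` at every zero `z` of `j`.  If there are finitely many zeros `Z` of `j` with
  `[F : k(j)] ≤ n #Z`, then `ord_z g = 1` at EVERY zero `z` of `j` (and `Z` is the set of all
  zeros).
* `q23_three_ord_j` : characteristic `3`, `j h⁴ (h + 1) = (h - 1)⁶`: at a zero of `j`,
  `ord j = 6 ord (h - 1)`, `ord (h - 1) > 0`.
* `q23_two_ord_j` : characteristic `2`, `j h⁹ (h² + h + 1) = (h + 1)¹²`: at a zero of `j`,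
  `ord j = 12 ord (h + 1)`, `ord (h + 1) > 0`.
-/

set_option autoImplicit false

noncomputable section

open ModularCurve AlgebraicCurve IntermediateField

namespace Fermat.Agent.S36.NU.H5

open Fermat.Agent.RED.H51 Fermat.Agent.S36.NU.H73

section Count

variable {k F : Type*} [Field k] [Field F] [Algebra k F]

/-- **Unramifiedness from a count.** -/
theorem q23_ram_of_count (j g : F) (n : ℕ) [FiniteDimensional k⟮j⟯ F]
    (hord : ∀ z : Place k F, 0 < z.ord j → z.ord j = n * z.ord g ∧ 0 < z.ord g)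
    (Z : Finset (Place k F)) (hZ : ∀ z ∈ Z, 0 < z.ord j)
    (hcount : Module.finrank k⟮j⟯ F ≤ n * Z.card)
    (z : Place k F) (hz : 0 < z.ord j) : z.ord g = 1 := by
  classical
  obtain ⟨hzj, hzg⟩ := hord z hz
  have hn : (0 : ℤ) < n := by
    by_contra h
    have h0 : (n : ℤ) = 0 := by
      have : (0 : ℤ) ≤ n := Int.natCast_nonneg n
      omega
    rw [h0, zero_mul] at hzj
    omega
  have hge : ∀ v ∈ Z, (n : ℤ) ≤ v.ord j := by
    intro v hv
    obtain ⟨h1, h2⟩ := hord v (hZ v hv)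
    rw [h1]
    nlinarith
  have hsumZ : (n : ℤ) * Z.card ≤ ∑ v ∈ Z, v.ord j := by
    have := Finset.card_nsmul_le_sum Z (fun v => v.ord j) (n : ℤ) hge
    simpa [mul_comm] using this
  have hcount' : (Module.finrank k⟮j⟯ F : ℤ) ≤ n * Z.card := by exact_mod_cast hcount
  -- `z ∈ Z`
  have hzZ : z ∈ Z := by
    by_contra hnot
    have hS : ∀ v ∈ insert z Z, 0 < v.ord j := by
      intro v hv
      rcases Finset.mem_insert.mp hv with rfl | hv
      · exact hz
      · exact hZ v hv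
    have h1 := sum_ord_le_finrank j (insert z Z) hS
    rw [Finset.sum_insert hnot] at h1
    have : (n : ℤ) ≤ z.ord j := by rw [hzj]; nlinarith
    omega
  -- the sum over `Z \ {z}`
  have h1 := sum_ord_le_finrank j Z hZ
  rw [← Finset.insert_erase hzZ, Finset.sum_insert (Finset.notMem_erase z Z)] at h1
  have hge' : ∀ v ∈ Z.erase z, (n : ℤ) ≤ v.ord j :=
    fun v hv => hge v (Finset.mem_of_mem_erase hv)
  have h2 : (n : ℤ) * (Z.erase z).card ≤ ∑ v ∈ Z.erase z, v.ord j := by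
    have := Finset.card_nsmul_le_sum (Z.erase z) (fun v => v.ord j) (n : ℤ) hge'
    simpa [mul_comm] using this
  have hcard : (Z.card : ℤ) = (Z.erase z).card + 1 := by
    rw [Finset.card_erase_of_mem hzZ]
    have : 0 < Z.card := Finset.card_pos.mpr ⟨z, hzZ⟩
    omega
  have h3 : z.ord j ≤ n := by
    rw [hcard] at hcount'
    nlinarith
  rw [hzj] at h3
  have h4 : z.ord g ≤ 1 := by
    by_contra h
    have : (2 : ℤ) ≤ z.ord g := by omega
    nlinarith
  omega

end Count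

section Relations

variable {k F : Type*} [Field k] [Field F] [Algebra k F]

/-- Characteristic `3`: `ord j = 6 ord (h - 1)` at a zero of `j`. -/
theorem q23_three_ord_j (h2k : (2 : k) ≠ 0) (z : Place k F) {h j : F}
    (hjh : j * h ^ 4 * (h + 1) = (h - 1) ^ 6)
    (hvan : OrdGe z 1 (h - 1)) (hj0 : j ≠ 0) :
    z.ord j = 6 * z.ord (h - 1) ∧ 0 < z.ord (h - 1) := by
  have h1 : (1 : F) ≠ 0 := one_ne_zero
  -- `h` and `h + 1` are units at `z`
  have hA : h ≠ 0 ∧ z.ord h = 0 := by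
    have := ord_add_eq z h1 (g := h - 1) (by rw [z.ord_one, zero_add]; exact hvan)
    rw [z.ord_one] at this
    have e : (1 : F) + (h - 1) = h := by ring
    rwa [e] at this
  have h2F : (algebraMap k F 2 : F) ≠ 0 := by
    rw [Ne, map_eq_zero]; exact h2k
  have hB : h + 1 ≠ 0 ∧ z.ord (h + 1) = 0 := by
    have := ord_add_eq z h2F (g := h - 1) (by rw [ord_algebraMap, zero_add]; exact hvan)
    rw [ord_algebraMap] at this
    have e : (algebraMap k F 2 : F) + (h - 1) = h + 1 := by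
      rw [map_ofNat]; ring
    rwa [e] at this
  have hg0 : h - 1 ≠ 0 := by
    intro h0
    rw [h0, zero_pow (by norm_num)] at hjh
    exact (mul_ne_zero (mul_ne_zero hj0 (pow_ne_zero 4 hA.1)) hB.1) hjh
  have hL : z.ord (j * h ^ 4 * (h + 1)) = z.ord j := by
    rw [z.ord_mul (mul_ne_zero hj0 (pow_ne_zero 4 hA.1)) hB.1,
      z.ord_mul hj0 (pow_ne_zero 4 hA.1), ord_pow, hA.2, hB.2]
    simp
  rw [hjh, ord_pow] at hL
  refine ⟨?_, hvan.pos_of_ne hg0⟩
  push_cast at hL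
  omega

/-- Characteristic `2`: `ord j = 12 ord (h + 1)` at a zero of `j`. -/
theorem q23_two_ord_j (z : Place k F) {h j : F}
    (hjh : j * h ^ 9 * (h ^ 2 + h + 1) = (h + 1) ^ 12) (hmem : h ∈ z.toValuationSubring)
    (hvan : OrdGe z 1 (h + 1)) (hj0 : j ≠ 0) :
    z.ord j = 12 * z.ord (h + 1) ∧ 0 < z.ord (h + 1) := by
  have hm1 : (-1 : F) ≠ 0 := neg_ne_zero.mpr one_ne_zero
  have hA : h ≠ 0 ∧ z.ord h = 0 := by
    have hm : z.ord (-1 : F) = 0 := by rw [ord_neg, z.ord_one]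
    have := ord_add_eq z hm1 (g := h + 1) (by rw [hm, zero_add]; exact hvan)
    rw [hm] at this
    have e : (-1 : F) + (h + 1) = h := by ring
    rwa [e] at this
  have hB : h ^ 2 + h + 1 ≠ 0 ∧ z.ord (h ^ 2 + h + 1) = 0 := by
    have h1 : OrdGe z (z.ord (1 : F) + 1) (h * (h + 1)) := by
      rw [z.ord_one]
      have := ((ordGe_zero_iff_mem z h).mpr hmem).mul hvan
      simpa using this
    have h2 := ord_add_eq z (one_ne_zero (α := F)) h1
    rw [z.ord_one] at h2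
    have e : h ^ 2 + h + 1 = 1 + h * (h + 1) := by ring
    rw [e]
    exact h2
  have hg0 : h + 1 ≠ 0 := by
    intro h0
    rw [h0, zero_pow (by norm_num)] at hjh
    exact (mul_ne_zero (mul_ne_zero hj0 (pow_ne_zero 9 hA.1)) hB.1) hjh
  have hL : z.ord (j * h ^ 9 * (h ^ 2 + h + 1)) = z.ord j := by
    rw [z.ord_mul (mul_ne_zero hj0 (pow_ne_zero 9 hA.1)) hB.1,
      z.ord_mul hj0 (pow_ne_zero 9 hA.1), ord_pow, hA.2, hB.2]
    simp
  rw [hjh, ord_pow] at hL
  refine ⟨?_, hvan.pos_of_ne hg0⟩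
  push_cast at hL
  omega

end Relations

end Fermat.Agent.S36.NU.H5

end
end
-- ==== END Fermat.Agent.S36.NU.H5_Q23Ram

-- ==== BEGIN Fermat.Agent.S36.NU.H82_CuspAbs
section

/-!
# S36 / NU-B, leaf CUSPS (helper82), abstract part: local equations at the points with `u ∈ 𝔪`

`C` a chart (`H16.Chart`), `u ∈ B` (the coordinate `1 / j` of the chart at infinity), `𝔪` a prime
ideal of `B` with `u ∈ 𝔪` and `Icomp i ≤ 𝔪`.

* `not_mem_of_sub_aeval` : `E ≡ P(u)` modulo the maximal ideal of `V i`, `P ∈ R[X]` with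
  `res (P(0)) ≠ 0`  ⟹  `E ∉ 𝔪`;
* `not_mem_of_rd_eq_aeval` : the same with `rd i E = P̄ (rd i u)`, `P̄ ∈ k[X]`, `P̄(0) ≠ 0`;
* `cusp_locEq_one` : a cusp on a component of multiplicity one (`x = q`, `W' = E`);
* `cusp_locEq_mid` : a cusp on a component of multiplicity `e` (`q W₂ = x ^ e E ^ 2`, with
  `W₂ ^ n E ^ a ≡ P₂(u) E ^ m`).
-/

set_option autoImplicit false

noncomputable section

open Polynomial

namespace Fermat.Agent.S36.NU.H82

open Fermat.Agent.S36.NU.H16 Fermat.Agent.S36.NU.H99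

variable {R F k ι : Type*} {κ : ι → Type*} [CommRing R] [Field F] [Algebra R F]
  [Field k] [∀ i, Field (κ i)] [∀ i, Algebra k (κ i)]

section Abs

variable (C : Chart R F k ι κ)

/-- `P(u) ≡ P(0)` modulo `u`. -/
theorem aeval_sub_coeff_zero_mem (𝔪 : Ideal C.B) (u : C.B) (hu : u ∈ 𝔪) (P : R[X]) :
    aeval u P - algebraMap R C.B (P.coeff 0) ∈ 𝔪 := by
  have h := Polynomial.divX_mul_X_add P
  have e : aeval u P = aeval u P.divX * u + algebraMap R C.B (P.coeff 0) := by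
    conv_lhs => rw [← h]
    rw [map_add, map_mul, aeval_X, aeval_C]
  rw [e, add_sub_cancel_right]
  exact 𝔪.mul_mem_left _ hu

/-- The residue of a constant. -/
theorem rdB_algebraMap (i : ι) (r : R) :
    C.rdB i (algebraMap R C.B r) = algebraMap k (κ i) (C.res r) := by
  rw [← C.rd_coe]
  exact C.rd_algebraMap i r

/-- Constants with nonzero residue are not in `𝔪`. -/
theorem algebraMap_not_mem (𝔪 : Ideal C.B) [h𝔪 : 𝔪.IsPrime] (i : ι) (hi : C.Icomp i ≤ 𝔪)
    (r : R) (hr : C.res r ≠ 0) : algebraMap R C.B r ∉ 𝔪 := by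
  intro hmem
  apply hr
  have h0 : C.rdB i (algebraMap R C.B r) ≠ 0 → False := by
    intro hne
    obtain ⟨r', hr'⟩ := C.res_surj (C.res r)⁻¹
    have h1 : algebraMap R C.B (r * r' - 1) ∈ C.Icomp i := by
      rw [C.mem_Icomp, rdB_algebraMap, map_sub, map_mul, map_one, hr',
        mul_inv_cancel₀ (fun h => hne (by rw [rdB_algebraMap, h, map_zero])), sub_self, map_zero]
    have h2 : algebraMap R C.B (r * r' - 1) ∈ 𝔪 := hi h1
    have h3 : algebraMap R C.B r * algebraMap R C.B r' ∈ 𝔪 := 𝔪.mul_mem_right _ hmem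
    have h4 : (1 : C.B) ∈ 𝔪 := by
      have : (1 : C.B) = algebraMap R C.B r * algebraMap R C.B r'
          - algebraMap R C.B (r * r' - 1) := by
        rw [map_sub, map_mul, map_one]; ring
      rw [this]
      exact 𝔪.sub_mem h3 h2
    exact h𝔪.ne_top ((Ideal.eq_top_iff_one 𝔪).2 h4)
  by_contra hne
  exact h0 (by rw [rdB_algebraMap]; exact fun h => hne ((algebraMap k (κ i)).injective
    (by rw [h, map_zero])))

/-- **A unit at the cusp**, congruence form: `E ≡ P(u)` modulo the maximal ideal of `V i`. -/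
theorem not_mem_of_sub_aeval (𝔪 : Ideal C.B) [h𝔪 : 𝔪.IsPrime] (u : C.B) (hu : u ∈ 𝔪) (i : ι)
    (hi : C.Icomp i ≤ 𝔪) (E : C.B) (P : R[X]) (h0 : C.res (P.coeff 0) ≠ 0)
    (hE : (E : F) - aeval ((u : C.B) : F) P ∈ (C.V i).nonunits) : E ∉ 𝔪 := by
  intro hmem
  have h1 : E - aeval u P ∈ C.Icomp i := by
    rw [mem_Icomp_iff_nonunits]
    have : ((E - aeval u P : C.B) : F) = (E : F) - aeval ((u : C.B) : F) P := by
      rw [Subalgebra.coe_sub, aeval_subalgebra_coe]
    rw [this]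
    exact hE
  have h2 : aeval u P ∈ 𝔪 := by
    have : aeval u P = E - (E - aeval u P) := by ring
    rw [this]
    exact 𝔪.sub_mem hmem (hi h1)
  have h3 := aeval_sub_coeff_zero_mem C 𝔪 u hu P
  have h4 : algebraMap R C.B (P.coeff 0) ∈ 𝔪 := by
    have : algebraMap R C.B (P.coeff 0) = aeval u P - (aeval u P - algebraMap R C.B (P.coeff 0)) := by
      ring
    rw [this]
    exact 𝔪.sub_mem h2 h3
  exact algebraMap_not_mem C 𝔪 i hi _ h0 h4

/-- The reduction of `P(u)`. -/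
theorem rdB_aeval (i : ι) (u : C.B) (P : R[X]) :
    C.rdB i (aeval u P) = aeval (C.rdB i u) (P.map C.res) := by
  rw [aeval_def, aeval_def, Polynomial.hom_eval₂, Polynomial.eval₂_map]
  congr 1
  ext r
  exact rdB_algebraMap C i r

/-- **A unit at the cusp**, residue form: `rd i E = P̄ (rd i u)`, `P̄(0) ≠ 0`. -/
theorem not_mem_of_rd_eq_aeval (𝔪 : Ideal C.B) [h𝔪 : 𝔪.IsPrime] (u : C.B) (hu : u ∈ 𝔪) (i : ι)
    (hi : C.Icomp i ≤ 𝔪) (E : C.B) (Pb : k[X]) (h0 : Pb.coeff 0 ≠ 0)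
    (hE : C.rdB i E = aeval (C.rdB i u) Pb) : E ∉ 𝔪 := by
  obtain ⟨P, hP⟩ := Polynomial.map_surjective C.res C.res_surj Pb
  refine not_mem_of_sub_aeval C 𝔪 u hu i hi E P ?_ ?_
  · have : C.res (P.coeff 0) = Pb.coeff 0 := by rw [← hP, Polynomial.coeff_map]
    rw [this]
    exact h0
  · have h1 : E - aeval u P ∈ C.Icomp i := by
      rw [C.mem_Icomp, map_sub, rdB_aeval, hP, hE, sub_self]
    rw [mem_Icomp_iff_nonunits] at h1
    have : ((E - aeval u P : C.B) : F) = (E : F) - aeval ((u : C.B) : F) P := by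
      rw [Subalgebra.coe_sub, aeval_subalgebra_coe]
    rw [← this]
    exact h1

/-- **LocEq + DISJ at a cusp of a component of multiplicity one.** -/
theorem cusp_locEq_one [Fintype ι] [DecidableEq ι] (q : R) (e : ι → ℕ) (hVE : ValE C q e)
    (hq0 : algebraMap R F q ≠ 0)
    (hqV : ∀ i, algebraMap R F q ∈ (C.V i).nonunits)
    (hVALQ : ∀ β : C.B, (∀ i, ∃ f' ∈ C.V i, (β : F) = algebraMap R F q * f') →
      ∃ β' : C.B, β = algebraMap R C.B q * β')
    (𝔪 : Ideal C.B) [h𝔪 : 𝔪.IsPrime] (u : C.B) (hu : u ∈ 𝔪) (i : ι) (hi : C.Icomp i ≤ 𝔪)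
    (he : e i = 1) (E : C.B) (P : R[X]) (h0 : C.res (P.coeff 0) ≠ 0)
    (hE : (E : F) - aeval ((u : C.B) : F) P ∈ (C.V i).nonunits)
    (hEv : ∀ i', i' ≠ i → ∃ f' ∈ C.V i', (E : F) = algebraMap R F q * f') :
    Nonempty (LocEq C q 𝔪) ∧ ∀ i', C.Icomp i' ≤ 𝔪 → i' = i :=
  locEq_ord_one C q e hVE hq0 hqV hVALQ 𝔪 i hi he E
    (not_mem_of_sub_aeval C 𝔪 u hu i hi E P h0 hE) hEv

/-- **LocEq + DISJ at a cusp of a component of multiplicity `e i`**: `q W₂ = x ^ (e i) W'`,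
`W' ≡ P(u)`, `W₂ ^ n W' ^ a ≡ P₂(u) W' ^ m` modulo the maximal ideal of `V i`. -/
theorem cusp_locEq_mid [Fintype ι] [DecidableEq ι] (q : R) (e : ι → ℕ) (hVE : ValE C q e)
    (hq0 : algebraMap R F q ≠ 0)
    (hqV : ∀ i, algebraMap R F q ∈ (C.V i).nonunits)
    (hVALQ : ∀ β : C.B, (∀ i, ∃ f' ∈ C.V i, (β : F) = algebraMap R F q * f') →
      ∃ β' : C.B, β = algebraMap R C.B q * β')
    (𝔪 : Ideal C.B) [h𝔪 : 𝔪.IsPrime] (u : C.B) (hu : u ∈ 𝔪) (i : ι) (hi : C.Icomp i ≤ 𝔪)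
    (he : 0 < e i) (x W₂ W' : C.B)
    (heq : algebraMap R C.B q * W₂ = x ^ e i * W')
    (P : R[X]) (h0 : C.res (P.coeff 0) ≠ 0)
    (hW' : (W' : F) - aeval ((u : C.B) : F) P ∈ (C.V i).nonunits)
    (P₂ : R[X]) (h02 : C.res (P₂.coeff 0) ≠ 0) (n a m : ℕ) (hn : 0 < n)
    (hW₂ : (W₂ : F) ^ n * (W' : F) ^ a - aeval ((u : C.B) : F) P₂ * (W' : F) ^ m
      ∈ (C.V i).nonunits)
    (hW'v : ∀ i', i' ≠ i → ∃ f' ∈ C.V i', (W' : F) = algebraMap R F q * f') :
    Nonempty (LocEq C q 𝔪) ∧ ∀ i', C.Icomp i' ≤ 𝔪 → i' = i := by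
  have hW'm : W' ∉ 𝔪 := not_mem_of_sub_aeval C 𝔪 u hu i hi W' P h0 hW'
  have hG : aeval u P₂ ∉ 𝔪 := by
    refine not_mem_of_sub_aeval C 𝔪 u hu i hi (aeval u P₂) P₂ h02 ?_
    rw [aeval_subalgebra_coe, sub_self, ValuationSubring.mem_nonunits_iff, map_zero]
    exact zero_lt_one
  have hW₂m : W₂ ∉ 𝔪 := by
    intro hmem
    have h1 : W₂ ^ n * W' ^ a - aeval u P₂ * W' ^ m ∈ C.Icomp i := by
      rw [mem_Icomp_iff_nonunits]
      have : ((W₂ ^ n * W' ^ a - aeval u P₂ * W' ^ m : C.B) : F)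
          = (W₂ : F) ^ n * (W' : F) ^ a - aeval ((u : C.B) : F) P₂ * (W' : F) ^ m := by
        rw [Subalgebra.coe_sub, Subalgebra.coe_mul, Subalgebra.coe_mul, Subalgebra.coe_pow,
          Subalgebra.coe_pow, Subalgebra.coe_pow, aeval_subalgebra_coe]
      rw [this]
      exact hW₂
    have h2 : W₂ ^ n * W' ^ a ∈ 𝔪 :=
      𝔪.mul_mem_right _ (Ideal.pow_mem_of_mem 𝔪 hmem n hn)
    have h3 : aeval u P₂ * W' ^ m ∈ 𝔪 := by
      have : aeval u P₂ * W' ^ m = W₂ ^ n * W' ^ a - (W₂ ^ n * W' ^ a - aeval u P₂ * W' ^ m) := by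
        ring
      rw [this]
      exact 𝔪.sub_mem h2 (hi h1)
    rcases h𝔪.mem_or_mem h3 with h4 | h4
    · exact hG h4
    · exact hW'm (h𝔪.mem_of_pow_mem m h4)
  exact locEq_ord C q e hVE hq0 hqV hVALQ 𝔪 i hi he x W₂ W' hW₂m hW'm heq hW'v

end Abs

end Fermat.Agent.S36.NU.H82

end
end
-- ==== END Fermat.Agent.S36.NU.H82_CuspAbs

-- ==== BEGIN Fermat.Agent.S36.NU.H88_Ram11
section
attribute [local instance 10000] SubalgebraClass.toAlgebra
attribute [local instance 10000] HahnSeries.powerSeriesAlgebra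

/-!
# S36, NU-B1 (helper88): functions of level `M` at the three valuations, and RAM11

`u ∈ F_M`, `q ∤ M`.  Inside `F_{M q²}`: `u = αα u`, `u' = αβ u = βα u`, `u'' = ββ u` with
expansions at `∞`: `u(t)`, `u(t^q)`, `u(t^{q²})`, at the middle cusp: `u(t)`, `u(t^q)`, `u(z t)`
(`z = ζ_q^B`), and `W_{q²}` exchanges `u` and `u''` and fixes `u'`.

**RAM11**: for `u` with integral expansion `u₀ ∈ ℤ((t))`, `t₁₁ = u'' - u` is `(z - 1)` times an
element of `V₁₁` with reduction `θ ū₀` (`θ = t d/dt`); if `θ ū₀ ≠ 0` (e.g. `u = j`) then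
`v₁₁(t₁₁)^(q-1) = v₁₁(q)`.
-/

set_option autoImplicit false
set_option synthInstance.maxHeartbeats 400000
set_option maxHeartbeats 1000000
set_option linter.unusedSectionVars false
set_option linter.style.haveILetI false

noncomputable section

namespace Fermat.Agent.S36.NU.H88

open Fermat.Agent.S24 Fermat.Agent.BAD.H88 ModularCurve
open Fermat.Agent.S28 Fermat.Agent.S28.H73 Fermat.Agent.RED.H73 Fermat.Agent.RED.H17
open Fermat.Agent.RED.H95 Fermat.Agent.RED.H10

section Inc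

variable (q M : ℕ) [NeZero M] [NeZero q]

/-- `u ↦ u` : `F_M → F_{M q²}`. -/
def incAA : FN M →ₐ[Kbar] FN (M * q * q) :=
  (heckeAlphaBar Kbar (M * q) q).comp (heckeAlphaBar Kbar M q)

/-- `u ↦ u' = u(t^q)` : `F_M → F_{M q²}`. -/
def incAB : FN M →ₐ[Kbar] FN (M * q * q) :=
  (heckeAlphaBar Kbar (M * q) q).comp (heckeBetaBar Kbar M q)

/-- `u ↦ u'' = u(t^{q²})` : `F_M → F_{M q²}`. -/
def incBB : FN M →ₐ[Kbar] FN (M * q * q) :=
  (heckeBetaBar Kbar (M * q) q).comp (heckeBetaBar Kbar M q)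

theorem incAA_apply (f : FN M) :
    incAA q M f = heckeAlphaBar Kbar (M * q) q (heckeAlphaBar Kbar M q f) := rfl

theorem incAB_apply (f : FN M) :
    incAB q M f = heckeAlphaBar Kbar (M * q) q (heckeBetaBar Kbar M q f) := rfl

theorem incBB_apply (f : FN M) :
    incBB q M f = heckeBetaBar Kbar (M * q) q (heckeBetaBar Kbar M q f) := rfl

theorem coe_incAA (f : FN M) :
    ((incAA q M f : FN (M * q * q)) : LaurentSeries Kbar) = (f : LaurentSeries Kbar) := by
  rw [incAA_apply, coe_heckeAlphaBar, coe_heckeAlphaBar]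

theorem coe_incAB (f : FN M) :
    ((incAB q M f : FN (M * q * q)) : LaurentSeries Kbar)
      = qExpand Kbar q (f : LaurentSeries Kbar) := by
  rw [incAB_apply, coe_heckeAlphaBar, coe_heckeBetaBar]

theorem coe_incBB (f : FN M) :
    ((incBB q M f : FN (M * q * q)) : LaurentSeries Kbar)
      = qExpand Kbar q (qExpand Kbar q (f : LaurentSeries Kbar)) := by
  rw [incBB_apply, coe_heckeBetaBar, coe_heckeBetaBar]

/-- `β ∘ α = α ∘ β`. -/
theorem incBA_eq (f : FN M) :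
    heckeBetaBar Kbar (M * q) q (heckeAlphaBar Kbar M q f) = incAB q M f := by
  apply Subtype.ext
  rw [coe_heckeBetaBar, coe_heckeAlphaBar, coe_incAB]

variable (B k : ℤ) (hB : B * M + k * q = 1) (hq : q.Prime)

include hB hq

theorem wL_alpha (f : FN M) :
    wL q M B k hB hq (heckeAlphaBar Kbar M q f) = heckeBetaBar Kbar M q f :=
  wq_alpha q M k B (hab_of_hB q M B k hB) hq f

theorem wL_beta (f : FN M) :
    wL q M B k hB hq (heckeBetaBar Kbar M q f) = heckeAlphaBar Kbar M q f :=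
  wq_beta q M k B (hab_of_hB q M B k hB) hq f

/-! ### Expansions at the middle cusp -/

theorem cM_incAA (f : FN M) :
    cM q M B k hB hq (incAA q M f) = (f : LaurentSeries Kbar) := by
  rw [incAA_apply, cM_alpha, coe_heckeAlphaBar]

theorem cM_incAB (f : FN M) :
    cM q M B k hB hq (incAB q M f) = qExpand Kbar q (f : LaurentSeries Kbar) := by
  rw [incAB_apply, cM_alpha, coe_heckeBetaBar]

theorem cM_incBB (f : FN M) :
    cM q M B k hB hq (incBB q M f) = twist (zetaK q ^ B) (f : LaurentSeries Kbar) := by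
  rw [incBB_apply, cM_beta, wL_beta, coe_heckeAlphaBar]

/-! ### `W_{q²}` -/

theorem wS_incAA (f : FN M) : wS q M B k hB (incAA q M f) = incBB q M f := by
  rw [incAA_apply, wS_alpha q M B k hB hq, wL_alpha, incBB_apply]

theorem wS_incBB (f : FN M) : wS q M B k hB (incBB q M f) = incAA q M f := by
  rw [incBB_apply, wS_beta q M B k hB hq, wL_beta, incAA_apply]

theorem wS_incAB (f : FN M) : wS q M B k hB (incAB q M f) = incAB q M f := by
  rw [incAB_apply, wS_alpha q M B k hB hq, wL_beta, incBA_eq, incAB_apply]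

end Inc

/-! ### Membership: all three valuations restrict to the Gauss valuation of `F_M` -/

section Mem

variable (A : ValuationSubring Kbar)
variable (q M : ℕ) (B k : ℤ) (hB : B * M + k * q = 1) (hq : q.Prime) [NeZero M] [NeZero q]

theorem incAA_mem_V20_iff (f : FN M) : incAA q M f ∈ V20 A (M * q * q) ↔ f ∈ VM A M := by
  rw [incAA_apply, alpha_mem_V20_iff]
  exact alpha_mem_V1_iff A q M f

theorem incAB_mem_V20_iff (f : FN M) : incAB q M f ∈ V20 A (M * q * q) ↔ f ∈ VM A M := by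
  rw [incAB_apply, alpha_mem_V20_iff]
  exact beta_mem_V1_iff A q M f

theorem incBB_mem_V20_iff (f : FN M) : incBB q M f ∈ V20 A (M * q * q) ↔ f ∈ VM A M := by
  rw [incBB_apply, beta_mem_V20_iff]
  exact beta_mem_V1_iff A q M f

include hB hq

theorem incAA_mem_V11_iff (f : FN M) :
    incAA q M f ∈ V11 A (M * q * q) q M B k (lvl q M) hB hq ↔ f ∈ VM A M := by
  rw [incAA_apply, alpha_mem_V11_iff]
  exact alpha_mem_V1_iff A q M f

theorem incAB_mem_V11_iff (f : FN M) :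
    incAB q M f ∈ V11 A (M * q * q) q M B k (lvl q M) hB hq ↔ f ∈ VM A M := by
  rw [incAB_apply, alpha_mem_V11_iff]
  exact beta_mem_V1_iff A q M f

theorem incBB_mem_V11_iff (f : FN M) :
    incBB q M f ∈ V11 A (M * q * q) q M B k (lvl q M) hB hq ↔ f ∈ VM A M := by
  rw [incBB_apply, beta_mem_V11_iff, wL_beta]
  exact alpha_mem_V1_iff A q M f

theorem incAA_mem_V02_iff (f : FN M) :
    incAA q M f ∈ V02 A (M * q * q) q M B k (lvl q M) hB ↔ f ∈ VM A M := by
  rw [incAA_apply, alpha_mem_V02_iff A q M B k hB hq, wL_alpha]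
  exact beta_mem_V1_iff A q M f

theorem incAB_mem_V02_iff (f : FN M) :
    incAB q M f ∈ V02 A (M * q * q) q M B k (lvl q M) hB ↔ f ∈ VM A M := by
  rw [incAB_apply, alpha_mem_V02_iff A q M B k hB hq, wL_beta]
  exact alpha_mem_V1_iff A q M f

theorem incBB_mem_V02_iff (f : FN M) :
    incBB q M f ∈ V02 A (M * q * q) q M B k (lvl q M) hB ↔ f ∈ VM A M := by
  rw [incBB_apply, beta_mem_V02_iff A q M B k hB hq, wL_beta]
  exact alpha_mem_V1_iff A q M f

end Mem

/-! ### The valuation of `ζ - 1` -/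

section ValZeta

variable {C : Type} [Field C] (O : ValuationSubring C)

theorem val_root_one {w : C} {n : ℕ} (hn : n ≠ 0) (hw : w ^ n = 1) : O.valuation w = 1 := by
  have h : O.valuation w ^ n = 1 := by rw [← map_pow, hw, map_one]
  rcases lt_trichotomy (O.valuation w) 1 with h1 | h1 | h1
  · exact absurd h (pow_lt_one₀ zero_le h1 hn).ne
  · exact h1
  · exact absurd h (one_lt_pow₀ h1 hn).ne'

theorem val_one_sub_pow_le' {w : C} (hw : O.valuation w ≤ 1) (k : ℕ) :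
    O.valuation (1 - w ^ k) ≤ O.valuation (1 - w) := by
  rw [← mul_neg_geom_sum w k, map_mul]
  have h1 : O.valuation (∑ i ∈ Finset.range k, w ^ i) ≤ 1 := by
    apply Valuation.map_sum_le
    intro i _
    rw [map_pow]
    exact pow_le_one₀ zero_le hw
  calc O.valuation (1 - w) * O.valuation (∑ i ∈ Finset.range k, w ^ i)
      ≤ O.valuation (1 - w) * 1 := mul_le_mul_right h1 _
    _ = O.valuation (1 - w) := mul_one _

/-- `|ζ - 1|^(r-1) = |r|` for a primitive `r`-th root of unity, `r` prime. -/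
theorem val_sub_one_pow {r : ℕ} (hr : r.Prime) {ζ : C} (hζ : IsPrimitiveRoot ζ r) :
    O.valuation (ζ - 1) ^ (r - 1) = O.valuation (r : C) := by
  rw [Valuation.map_sub_swap]
  obtain ⟨n, rfl⟩ : ∃ n, r = n + 1 := ⟨r - 1, (Nat.succ_pred_eq_of_pos hr.pos).symm⟩
  have hprod := hζ.prod_one_sub_pow_eq_order
  have hζ1 : O.valuation ζ = 1 := val_root_one O hr.ne_zero hζ.pow_eq_one
  have hfac : ∀ k ∈ Finset.range n, O.valuation (1 - ζ ^ (k + 1)) = O.valuation (1 - ζ) := by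
    intro k hk
    rw [Finset.mem_range] at hk
    apply le_antisymm (val_one_sub_pow_le' O hζ1.le (k + 1))
    have hcop : (k + 1).Coprime (n + 1) := by
      rw [Nat.coprime_comm]
      exact (Nat.Prime.coprime_iff_not_dvd hr).mpr
        (fun h => absurd (Nat.le_of_dvd (Nat.succ_pos k) h) (by omega))
    obtain ⟨m, -, hm⟩ := Nat.exists_mul_mod_eq_one_of_coprime hcop hr.one_lt
    have hpow : (ζ ^ (k + 1)) ^ m = ζ := by
      rw [← pow_mul, ← Nat.mod_add_div ((k + 1) * m) (n + 1), hm, pow_add, pow_one, pow_mul,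
        hζ.pow_eq_one, one_pow, mul_one]
    have h1 : O.valuation (ζ ^ (k + 1)) ≤ 1 := by rw [map_pow, hζ1, one_pow]
    have h2 := val_one_sub_pow_le' O h1 m
    rwa [hpow] at h2
  have h3 : O.valuation (∏ k ∈ Finset.range n, (1 - ζ ^ (k + 1))) = O.valuation (1 - ζ) ^ n := by
    rw [map_prod, Finset.prod_congr rfl hfac, Finset.prod_const, Finset.card_range]
  rw [Nat.add_sub_cancel, ← h3, hprod]
  push_cast
  rfl

/-- Constants of the same absolute value have the same value at any valuation ring of a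
`C`-algebra which induces `O` on the constants. -/
theorem val_algebraMap_congr {F : Type*} [Field F] [Algebra C F] (V : ValuationSubring F)
    (hV : ∀ c : C, algebraMap C F c ∈ V ↔ c ∈ O) {a b : C}
    (hab : O.valuation a = O.valuation b) :
    V.valuation (algebraMap C F a) = V.valuation (algebraMap C F b) := by
  by_cases hb : b = 0
  · have ha : a = 0 := by
      rw [hb, map_zero] at hab
      exact (Valuation.zero_iff _).mp hab
    rw [ha, hb]
  have ha : a ≠ 0 := by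
    intro h
    rw [h, map_zero] at hab
    exact hb ((Valuation.zero_iff _).mp hab.symm)
  have h1 : O.valuation (a / b) = 1 := by
    rw [map_div₀, hab, div_self ((Valuation.ne_zero_iff _).mpr hb)]
  have h2 : O.valuation (b / a) = 1 := by
    rw [map_div₀, hab, div_self ((Valuation.ne_zero_iff _).mpr hb)]
  have m1 : algebraMap C F (a / b) ∈ V :=
    (hV _).mpr ((ValuationSubring.valuation_le_one_iff O _).mp h1.le)
  have m2 : algebraMap C F (b / a) ∈ V :=
    (hV _).mpr ((ValuationSubring.valuation_le_one_iff O _).mp h2.le)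
  have l1 : V.valuation (algebraMap C F a) ≤ V.valuation (algebraMap C F b) := by
    have := (ValuationSubring.valuation_le_one_iff V _).mpr m1
    rw [map_div₀, map_div₀] at this
    have hb' : V.valuation (algebraMap C F b) ≠ 0 :=
      (Valuation.ne_zero_iff _).mpr (by rw [Ne, map_eq_zero]; exact hb)
    exact (div_le_one₀ (zero_lt_iff.mpr hb')).mp this
  have l2 : V.valuation (algebraMap C F b) ≤ V.valuation (algebraMap C F a) := by
    have := (ValuationSubring.valuation_le_one_iff V _).mpr m2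
    rw [map_div₀, map_div₀] at this
    have ha' : V.valuation (algebraMap C F a) ≠ 0 :=
      (Valuation.ne_zero_iff _).mpr (by rw [Ne, map_eq_zero]; exact ha)
    exact (div_le_one₀ (zero_lt_iff.mpr ha')).mp this
  exact le_antisymm l1 l2

end ValZeta

/-! ### RAM11 -/

section Ram11

variable (A : ValuationSubring Kbar)
variable (q M : ℕ) (B k : ℤ) (hB : B * M + k * q = 1) (hq : q.Prime) [NeZero M] [NeZero q]

/-- `t₁₁ = u'' - u`. -/
def t11 (f : FN M) : FN (M * q * q) := incBB q M f - incAA q M f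

/-- `θ₁₁ = t₁₁ / (z - 1)`, `z = ζ_q^B`. -/
def th11 (f : FN M) : FN (M * q * q) :=
  algebraMap Kbar (FN (M * q * q)) (zetaK q ^ B - 1)⁻¹ * t11 q M f

include hB hq

theorem cM_t11 (f : FN M) :
    cM q M B k hB hq (t11 q M f)
      = twist (zetaK q ^ B) (f : LaurentSeries Kbar) - (f : LaurentSeries Kbar) := by
  rw [t11, map_sub, cM_incBB, cM_incAA]

omit [NeZero M] in
theorem zMid_ne_one : zetaK q ^ B ≠ 1 := by
  intro h
  have h1 : (q : ℤ) ∣ B := ((isPrimitiveRoot_zetaK q).zpow_eq_one_iff_dvd B).mp h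
  have h2 : (q : ℤ) ∣ 1 := by
    rw [← hB]
    exact dvd_add (Dvd.dvd.mul_right h1 _) (dvd_mul_left _ _)
  have h3 := Int.le_of_dvd one_pos h2
  have h4 := hq.two_le
  omega

omit [NeZero M] in
theorem zMid_sub_ne_zero : zetaK q ^ B - 1 ≠ 0 := sub_ne_zero.mpr (zMid_ne_one q M B k hB hq)

omit [NeZero M] in
theorem isPrimitiveRoot_zMid : IsPrimitiveRoot (zetaK q ^ B) q := by
  apply (isPrimitiveRoot_zetaK q).zpow_of_gcd_eq_one
  rw [← Int.isCoprime_iff_gcd_eq_one]
  exact ⟨M, k, by rw [mul_comm (M : ℤ) B]; exact hB⟩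

omit [NeZero M] in
/-- `|z - 1|^(q-1) = |q|`. -/
theorem val_zMid_sub_one :
    A.valuation (zetaK q ^ B - 1) ^ (q - 1) = A.valuation (q : Kbar) :=
  val_sub_one_pow A hq (isPrimitiveRoot_zMid q M B k hB hq)

theorem t11_eq (f : FN M) :
    t11 q M f = algebraMap Kbar (FN (M * q * q)) (zetaK q ^ B - 1) * th11 q M B f := by
  rw [th11, ← mul_assoc, ← map_mul, mul_inv_cancel₀ (zMid_sub_ne_zero q M B k hB hq), map_one,
    one_mul]

/-- The expansion of `θ₁₁` at the middle cusp, for `u` with integral expansion. -/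
theorem cM_th11 (f : FN M) (u₀ : LaurentSeries ℤ)
    (hf : (f : LaurentSeries Kbar) = H65.intSer Kbar u₀) :
    cM q M B k hB hq (th11 q M B f)
      = iotaV A (H65.rotQuot (zUnit A q B hq) (coeffMap (Int.castRingHom ↥A) u₀)) := by
  have h1 : twist (zetaK q ^ B) (f : LaurentSeries Kbar) - (f : LaurentSeries Kbar)
      = algebraMap Kbar (LaurentSeries Kbar) (zetaK q ^ B - 1)
        * iotaV A (H65.rotQuot (zUnit A q B hq) (coeffMap (Int.castRingHom ↥A) u₀)) := by
    have h2 : twist (zetaK q ^ B) (iotaV A (coeffMap (Int.castRingHom ↥A) u₀))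
        = iotaV A (rot (zUnit A q B hq) (coeffMap (Int.castRingHom ↥A) u₀)) :=
      (iotaV_rot A (zUnit A q B hq) _).symm
    have h3 : iotaV A (HahnSeries.C (((zUnit A q B hq : (↥A)ˣ) : ↥A) - 1))
        = algebraMap Kbar (LaurentSeries Kbar) (zetaK q ^ B - 1) := by
      rw [algebraMap_laurentSeries_eq_single]
      exact coeffMap_single A.subtype 0 _
    rw [hf, H65.intSer_eq_iotaV A, h2, ← map_sub, H65.rot_sub_self, map_mul, h3]
  rw [th11, map_mul, AlgHom.commutes, cM_t11, h1, ← mul_assoc, ← map_mul,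
    inv_mul_cancel₀ (zMid_sub_ne_zero q M B k hB hq), map_one, one_mul]

theorem th11_mem_V11 (f : FN M) (u₀ : LaurentSeries ℤ)
    (hf : (f : LaurentSeries Kbar) = H65.intSer Kbar u₀) :
    th11 q M B f ∈ V11 A (M * q * q) q M B k (lvl q M) hB hq := by
  rw [mem_V11_iff]
  have e : cMid (M * q * q) q M B k (lvl q M) hB hq (th11 q M B f)
      = iotaV A (H65.rotQuot (zUnit A q B hq) (coeffMap (Int.castRingHom ↥A) u₀)) :=
    cM_th11 A q M B k hB hq f u₀ hf
  rw [e]
  exact iotaV_mem_gaussRingV A _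

/-- **The reduction of `t₁₁ / (z - 1)` at `V₁₁` is `θ ū`.** -/
theorem red11_th11 (hA : (q : Kbar) ∈ A.nonunits) (f : FN M) (u₀ : LaurentSeries ℤ)
    (hf : (f : LaurentSeries Kbar) = H65.intSer Kbar u₀)
    (h : th11 q M B f ∈ V11 A (M * q * q) q M B k (lvl q M) hB hq) :
    ((red11 A (M * q * q) q M B k (lvl q M) hB hq ⟨_, h⟩ :
        F11 A (M * q * q) q M B k (lvl q M) hB hq) : LaurentSeries (kV A))
      = H73.thetaL (coeffMap (Int.castRingHom (kV A)) u₀) := by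
  rw [coe_red11]
  have e : (⟨cMid (M * q * q) q M B k (lvl q M) hB hq (th11 q M B f), h⟩ : gaussRingV A)
      = ⟨iotaV A (H65.rotQuot (zUnit A q B hq) (coeffMap (Int.castRingHom ↥A) u₀)),
          iotaV_mem_gaussRingV A _⟩ :=
    Subtype.ext (cM_th11 A q M B k hB hq f u₀ hf)
  rw [e, gaussRedV_iotaV]
  ext n
  rw [redV, H65.coeffMap_rotQuot (resV A) (zUnit A q B hq) (resV_zUnit A q B hq hA),
    H73.thetaL_coeff, coeffMap_coeff, coeffMap_coeff, coeffMap_coeff]
  congr 1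

/-- If `θ ū ≠ 0` then `t₁₁ / (z - 1)` is a unit at `V₁₁`. -/
theorem red11_th11_ne_zero (hA : (q : Kbar) ∈ A.nonunits) (f : FN M) (u₀ : LaurentSeries ℤ)
    (hf : (f : LaurentSeries Kbar) = H65.intSer Kbar u₀)
    (hθ : H65.ThetaNZ q (coeffMap (Int.castRingHom (kV A)) u₀))
    (h : th11 q M B f ∈ V11 A (M * q * q) q M B k (lvl q M) hB hq) :
    red11 A (M * q * q) q M B k (lvl q M) hB hq ⟨_, h⟩ ≠ 0 := by
  intro h0
  have h1 : ((red11 A (M * q * q) q M B k (lvl q M) hB hq ⟨_, h⟩ :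
        F11 A (M * q * q) q M B k (lvl q M) hB hq) : LaurentSeries (kV A)) = 0 := by
    rw [h0]; rfl
  rw [red11_th11 A q M B k hB hq hA f u₀ hf h] at h1
  obtain ⟨n, hn, hc⟩ := hθ
  haveI : CharP (kV A) q := Fermat.Agent.BAD.H82.charP_kV A hq hA
  haveI : Fact q.Prime := ⟨hq⟩
  have h2 := congrArg (fun s : LaurentSeries (kV A) => s.coeff n) h1
  simp only [H73.thetaL_coeff, HahnSeries.coeff_zero] at h2
  rcases mul_eq_zero.mp h2 with h3 | h3
  · exact hn ((CharP.intCast_eq_zero_iff (kV A) q n).mp h3)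
  · exact hc h3

/-- `v₁₁(t₁₁ / (z - 1)) = 1`. -/
theorem val_th11 (hA : (q : Kbar) ∈ A.nonunits) (f : FN M) (u₀ : LaurentSeries ℤ)
    (hf : (f : LaurentSeries Kbar) = H65.intSer Kbar u₀)
    (hθ : H65.ThetaNZ q (coeffMap (Int.castRingHom (kV A)) u₀)) :
    (V11 A (M * q * q) q M B k (lvl q M) hB hq).valuation (th11 q M B f) = 1 := by
  have h := th11_mem_V11 A q M B k hB hq f u₀ hf
  have hne := red11_th11_ne_zero A q M B k hB hq hA f u₀ hf hθ h
  have hu : IsUnit (⟨th11 q M B f, h⟩ : ↥(V11 A (M * q * q) q M B k (lvl q M) hB hq)) := by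
    by_contra hnu
    apply hne
    rw [red11_eq_zero_iff]
    exact (IsLocalRing.mem_maximalIdeal _).mpr hnu
  exact (ValuationSubring.valuation_eq_one_iff _ _).mp hu

/-- **RAM11**: `v₁₁(t₁₁)^(q-1) = v₁₁(q)`: the valuation `V₁₁` is ramified of index `q - 1`
over `q` on the field generated by `u` and `u''`. -/
theorem ram11 (hA : (q : Kbar) ∈ A.nonunits) (f : FN M) (u₀ : LaurentSeries ℤ)
    (hf : (f : LaurentSeries Kbar) = H65.intSer Kbar u₀)
    (hθ : H65.ThetaNZ q (coeffMap (Int.castRingHom (kV A)) u₀)) :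
    (V11 A (M * q * q) q M B k (lvl q M) hB hq).valuation (t11 q M f) ^ (q - 1)
      = (V11 A (M * q * q) q M B k (lvl q M) hB hq).valuation
          (algebraMap Kbar (FN (M * q * q)) (q : Kbar)) := by
  rw [t11_eq q M B k hB hq f, map_mul, val_th11 A q M B k hB hq hA f u₀ hf hθ, mul_one,
    ← map_pow, ← map_pow]
  apply val_algebraMap_congr A _ (const_mem11 A (M * q * q) q M B k (lvl q M) hB hq)
  rw [map_pow]
  exact val_zMid_sub_one A q M B k hB hq

end Ram11

/-! ### The case `u = j` -/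

section Ram11J

variable (A : ValuationSubring Kbar)
variable (q M : ℕ) (B k : ℤ) (hB : B * M + k * q = 1) (hq : q.Prime) [NeZero M] [NeZero q]

/-- The integral expansion of `j`. -/
def jInt : LaurentSeries ℤ := qExpand ℤ 1 (jqModC ℤ)

theorem coe_jdF_one :
    ((jdF M 1 (one_dvd M) : FN M) : LaurentSeries Kbar) = H65.intSer Kbar jInt := by
  rw [_root_.Fermat.Agent.S36.NU.H88.coe_jdF, qExpand_jBar, _root_.Fermat.Agent.RED.H73.coeffEmb_qExpand_jq, H65.intSer, jInt, coeffMap_qExpand,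
    coeffMap_jqModC]

theorem jInt_coeff_neg_one : jInt.coeff (-1 : ℤ) = 1 := by
  have h1 : (H65.intSer Kbar jInt).coeff (-1 : ℤ) = 1 := by
    rw [← coe_jdF_one 1, _root_.Fermat.Agent.S36.NU.H88.coe_jdF]
    have h2 : (qExpand Kbar 1 jBar).coeff (((1 : ℕ) : ℤ) * (-1)) = jBar.coeff (-1) :=
      qExpand_coeff_mul 1 jBar (-1)
    rw [Nat.cast_one, one_mul] at h2
    rw [h2, jBar, coeffEmb_coeff, coeff_jq_neg_one, map_one]
  rw [H65.intSer, coeffMap_coeff] at h1
  have h3 : ((jInt.coeff (-1 : ℤ) : ℤ) : Kbar) = ((1 : ℤ) : Kbar) := by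
    rw [Int.cast_one]; exact h1
  exact Int.cast_injective h3

theorem thetaNZ_jInt (R : Type*) [CommRing R] [Nontrivial R] (hq : q.Prime) :
    H65.ThetaNZ q (coeffMap (Int.castRingHom R) jInt) := by
  refine ⟨-1, ?_, ?_⟩
  · intro h
    have h1 : (q : ℤ) ∣ 1 := (Int.dvd_neg).mp h
    have h2 := Int.le_of_dvd one_pos h1
    have h3 := hq.two_le
    omega
  · rw [coeffMap_coeff, jInt_coeff_neg_one, map_one]
    exact one_ne_zero

theorem incAA_jdF_one :
    incAA q M (jdF M 1 (one_dvd M)) = jdF (M * q * q) 1 (one_dvd _) := by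
  apply Subtype.ext
  rw [coe_incAA, _root_.Fermat.Agent.S36.NU.H88.coe_jdF, _root_.Fermat.Agent.S36.NU.H88.coe_jdF]

theorem incBB_jdF_one (h : q * q ∣ M * q * q) [NeZero (q * q)] :
    incBB q M (jdF M 1 (one_dvd M)) = jdF (M * q * q) (q * q) h := by
  apply Subtype.ext
  rw [coe_incBB, _root_.Fermat.Agent.S36.NU.H88.coe_jdF, _root_.Fermat.Agent.S36.NU.H88.coe_jdF, qExpand_qExpand, qExpand_qExpand]
  exact qExpand_congr (by ring) _

include hB hq

/-- **RAM11 for `j`**: `v₁₁(j(q²τ) - j(τ))^(q-1) = v₁₁(q)`. -/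
theorem ram11_j (hA : (q : Kbar) ∈ A.nonunits) (h : q * q ∣ M * q * q) [NeZero (q * q)] :
    (V11 A (M * q * q) q M B k (lvl q M) hB hq).valuation
        (jdF (M * q * q) (q * q) h - jdF (M * q * q) 1 (one_dvd _)) ^ (q - 1)
      = (V11 A (M * q * q) q M B k (lvl q M) hB hq).valuation ((q : ℕ) : FN (M * q * q)) := by
  have h1 := ram11 A q M B k hB hq hA (jdF M 1 (one_dvd M)) jInt (coe_jdF_one M)
    (thetaNZ_jInt q (kV A) hq)
  rw [t11, incAA_jdF_one, incBB_jdF_one q M h, map_natCast] at h1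
  exact h1

/-- `θ₁₁(j) = (j(q²τ) - j(τ)) / (z - 1)` is a unit of `V₁₁` with reduction `θ j̄`. -/
theorem red11_th11_j (hA : (q : Kbar) ∈ A.nonunits)
    (h : th11 q M B (jdF M 1 (one_dvd M)) ∈ V11 A (M * q * q) q M B k (lvl q M) hB hq) :
    ((red11 A (M * q * q) q M B k (lvl q M) hB hq ⟨_, h⟩ :
        F11 A (M * q * q) q M B k (lvl q M) hB hq) : LaurentSeries (kV A))
      = H73.thetaL (coeffMap (Int.castRingHom (kV A)) jInt) :=
  red11_th11 A q M B k hB hq hA _ jInt (coe_jdF_one M) h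

end Ram11J

end Fermat.Agent.S36.NU.H88

end
end
-- ==== END Fermat.Agent.S36.NU.H88_Ram11

-- ==== BEGIN Fermat.Agent.S36.NU.H99_Units3
section
attribute [local instance 10000] SubalgebraClass.toAlgebra
attribute [local instance 10000] HahnSeries.powerSeriesAlgebra

/-!
# S36 / NU-B, leaf (M4) LOCEQ, part UNITS3 (helper99): the modular units at the three valuations

Level `N = M q²` (written `M * q * q`), `q ∤ M`.  `U = Δ(τ)/Δ(qτ)` of level `M q`
(`U3 q M = BAD.H30.unitF (M * q) q`), `α, β : F_{Mq} → F_{Mq²}` the degeneracy maps,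

  `eps1 = α U = Δ(τ)/Δ(qτ)`,   `eps2 = β U = Δ(qτ)/Δ(q²τ)`.

Valuation vectors `(v₂₀, v₁₁, v₀₂)` (normalised by `v(q) = 1`):
`eps1 = (0, 0, 12)`, `eps2 = (0, 12, 12)`.  The witnesses (DISJ) of the chart `j ≠ ∞`:

* `E20 = eps2`            `(0, 12, 12)`, `red₂₀ E20 = (red U)(t^q)`;
* `E02 = q¹² / eps1`      `(12, 12, 0)`, `red₀₂ E02 = (red U)(t^q)`;
* `E11 = q¹² eps1 / eps2` `(12, 0, 12)`, `red₁₁ E11 = (red U)²`;

with `red U = (Δ~ ^ (q - 1))⁻¹` (`BAD.H30.gaussRes_unitF_char`).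
Everything follows from `BAD.H21.wq_unitF` (`w_q U = q¹² / U`) and helper88's table of the
three valuations on `α`, `β` (`H88_Restrict2/3`).
-/

set_option autoImplicit false
set_option synthInstance.maxHeartbeats 400000
set_option maxHeartbeats 1000000
set_option linter.unusedSectionVars false
set_option linter.style.haveILetI false

noncomputable section

open ModularCurve
open Fermat.Agent.S24 Fermat.Agent.BAD.H88 Fermat.Agent.BAD.H30 Fermat.Agent.BAD.H21
open Fermat.Agent.S28 Fermat.Agent.S28.H73 Fermat.Agent.RED.H73 Fermat.Agent.RED.H17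
open Fermat.Agent.S36.NU.H88

namespace Fermat.Agent.S36.NU.H99

section Units

variable (A : ValuationSubring Kbar)
variable (q M : ℕ) (B k : ℤ) (hB : B * M + k * q = 1) (hq : q.Prime) [NeZero M] [NeZero q]
  [NeZero (M * q)]

/-- `U = Δ(τ)/Δ(qτ)`, of level `M q`. -/
def U3 : FN (M * q) := unitF (M * q) q (dvd_mul_left q M)

/-- The constant `q` of level `M q`. -/
abbrev cq : FN (M * q) := algebraMap Kbar (FN (M * q)) (q : Kbar)

theorem U3_ne_zero : U3 q M ≠ 0 := unitF_ne_zero (M * q) q _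

theorem cq_ne_zero : cq q M ≠ 0 := by
  rw [cq, Ne, map_eq_zero]
  exact_mod_cast (NeZero.ne q)

theorem U3_mem : U3 q M ∈ V20 A (M * q) := unitF_mem_gaussV A (M * q) q _

theorem U3_inv_mem : (U3 q M)⁻¹ ∈ V20 A (M * q) := by
  have h := gaussRes_unitF_ne_zero A (M * q) q (dvd_mul_left q M)
  have hu : IsUnit (⟨U3 q M, U3_mem A q M⟩ : ↥(V20 A (M * q))) := by
    by_contra hnu
    apply h
    have := (red20_eq_zero_iff A (M * q) ⟨U3 q M, U3_mem A q M⟩).2
      ((IsLocalRing.mem_maximalIdeal _).2 hnu)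
    exact this
  obtain ⟨u, hu'⟩ := hu
  have h1 : ((u⁻¹ : (↥(V20 A (M * q)))ˣ) : ↥(V20 A (M * q))) * ⟨U3 q M, U3_mem A q M⟩ = 1 := by
    rw [← hu']
    exact u.inv_mul
  have h2 := congrArg (fun z : ↥(V20 A (M * q)) => (z : FN (M * q))) h1
  simp only [MulMemClass.coe_mul, OneMemClass.coe_one] at h2
  have h3 : (U3 q M)⁻¹ = ((u⁻¹ : (↥(V20 A (M * q)))ˣ) : ↥(V20 A (M * q))) :=
    (eq_inv_of_mul_eq_one_left h2).symm ▸ rfl
  rw [h3]
  exact Subtype.mem _

include hB hq in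
/-- **UNIT-W** at level `M q`. -/
theorem wL_U3 : wL q M B k hB hq (U3 q M) = cq q M ^ 12 * (U3 q M)⁻¹ := by
  have h := wq_unitF q M k B (hab_of_hB q M B k hB) hq (dvd_mul_left q M)
  rw [map_pow] at h
  exact h

include hB hq in
theorem wL_cq : wL q M B k hB hq (cq q M) = cq q M :=
  (wL q M B k hB hq).commutes _

theorem cq_mem (hA : (q : Kbar) ∈ A) : cq q M ∈ V20 A (M * q) :=
  (const_mem20 A (M * q) _).2 hA

/-- `q ^ a / U ∈ V'`. -/
theorem cq_pow_mul_inv_mem (hA : (q : Kbar) ∈ A) (a : ℕ) :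
    cq q M ^ a * (U3 q M)⁻¹ ∈ V20 A (M * q) :=
  mul_mem (pow_mem (cq_mem A q M hA) a) (U3_inv_mem A q M)

include hB hq in
/-- `w (U / q ^ a) = q ^ (12 - a) / U`. -/
theorem wL_U3_div (a : ℕ) (ha : a ≤ 12) :
    wL q M B k hB hq (U3 q M * (cq q M ^ a)⁻¹) = cq q M ^ (12 - a) * (U3 q M)⁻¹ := by
  rw [map_mul, map_inv₀, map_pow, wL_cq, wL_U3]
  have h0 := cq_ne_zero q M
  have : cq q M ^ 12 = cq q M ^ (12 - a) * cq q M ^ a := by
    rw [← pow_add, Nat.sub_add_cancel ha]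
  rw [this]
  field_simp

include hB hq in
/-- `w (q ^ a / U) = U / q ^ (12 - a)`. -/
theorem wL_inv_U3 (a : ℕ) (ha : a ≤ 12) :
    wL q M B k hB hq (cq q M ^ a * (U3 q M)⁻¹) = U3 q M * (cq q M ^ (12 - a))⁻¹ := by
  rw [map_mul, map_inv₀, map_pow, wL_cq, wL_U3]
  have h0 := cq_ne_zero q M
  have hU := U3_ne_zero q M
  have : cq q M ^ 12 = cq q M ^ (12 - a) * cq q M ^ a := by
    rw [← pow_add, Nat.sub_add_cancel ha]
  rw [this]
  field_simp

/-! ### The units of level `M q²` -/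

/-- `eps1 = Δ(τ)/Δ(qτ)` of level `M q²`. -/
def eps1 : FN (M * q * q) := heckeAlphaBar Kbar (M * q) q (U3 q M)

/-- `eps2 = Δ(qτ)/Δ(q²τ)` of level `M q²`. -/
def eps2 : FN (M * q * q) := heckeBetaBar Kbar (M * q) q (U3 q M)

/-- The constant `q` of level `M q²`. -/
abbrev cQ : FN (M * q * q) := algebraMap Kbar (FN (M * q * q)) (q : Kbar)

theorem cQ_ne_zero : cQ q M ≠ 0 := by
  rw [cQ, Ne, map_eq_zero]
  exact_mod_cast (NeZero.ne q)

theorem alpha_cq : heckeAlphaBar Kbar (M * q) q (cq q M) = cQ q M :=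
  (heckeAlphaBar Kbar (M * q) q).commutes _

theorem beta_cq : heckeBetaBar Kbar (M * q) q (cq q M) = cQ q M :=
  (heckeBetaBar Kbar (M * q) q).commutes _

theorem eps1_ne_zero : eps1 q M ≠ 0 := by
  rw [eps1, Ne, map_eq_zero]
  exact U3_ne_zero q M

theorem eps2_ne_zero : eps2 q M ≠ 0 := by
  rw [eps2, Ne, map_eq_zero]
  exact U3_ne_zero q M

/-- `E20 = eps2`. -/
def E20 : FN (M * q * q) := eps2 q M

/-- `E02 = q¹² / eps1`. -/
def E02 : FN (M * q * q) := cQ q M ^ 12 * (eps1 q M)⁻¹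

/-- `E11 = q¹² eps1 / eps2`. -/
def E11 : FN (M * q * q) := cQ q M ^ 12 * eps1 q M * (eps2 q M)⁻¹

theorem E20_ne_zero : E20 q M ≠ 0 := eps2_ne_zero q M

theorem E02_ne_zero : E02 q M ≠ 0 :=
  mul_ne_zero (pow_ne_zero _ (cQ_ne_zero q M)) (inv_ne_zero (eps1_ne_zero q M))

theorem E11_ne_zero : E11 q M ≠ 0 :=
  mul_ne_zero (mul_ne_zero (pow_ne_zero _ (cQ_ne_zero q M)) (eps1_ne_zero q M))
    (inv_ne_zero (eps2_ne_zero q M))

/-- `E20 E02 E11 = q²⁴`. -/
theorem E_prod : E20 q M * E02 q M * E11 q M = cQ q M ^ 24 := by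
  rw [E20, E02, E11]
  have h1 := eps1_ne_zero q M
  have h2 := eps2_ne_zero q M
  field_simp

theorem E02_eq : E02 q M = heckeAlphaBar Kbar (M * q) q (cq q M ^ 12 * (U3 q M)⁻¹) := by
  rw [E02, eps1, map_mul, map_pow, map_inv₀, alpha_cq]

theorem E02_inv_eq :
    (E02 q M)⁻¹ = heckeAlphaBar Kbar (M * q) q (U3 q M * (cq q M ^ 12)⁻¹) := by
  rw [E02, eps1, map_mul, map_inv₀, map_pow, alpha_cq, mul_inv, inv_inv]
  ring

theorem E02_div_eq :
    E02 q M = cQ q M * heckeAlphaBar Kbar (M * q) q (cq q M ^ 11 * (U3 q M)⁻¹) := by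
  rw [E02, eps1, map_mul, map_pow, map_inv₀, alpha_cq]
  ring

theorem E20_div_eq :
    E20 q M = cQ q M * heckeBetaBar Kbar (M * q) q (U3 q M * (cq q M ^ 1)⁻¹) := by
  rw [E20, eps2, map_mul, map_inv₀, map_pow, beta_cq, pow_one]
  have h0 := cQ_ne_zero q M
  field_simp

theorem E11_eq : E11 q M = heckeAlphaBar Kbar (M * q) q (U3 q M)
    * heckeBetaBar Kbar (M * q) q (cq q M ^ 12 * (U3 q M)⁻¹) := by
  rw [E11, eps1, eps2, map_mul, map_pow, map_inv₀, beta_cq]
  ring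

theorem E11_inv_eq : (E11 q M)⁻¹ = heckeAlphaBar Kbar (M * q) q (U3 q M)⁻¹
    * heckeBetaBar Kbar (M * q) q (U3 q M * (cq q M ^ 12)⁻¹) := by
  rw [E11, eps1, eps2, map_mul, map_inv₀, map_inv₀, map_pow, beta_cq]
  have h0 := cQ_ne_zero q M
  have h1 : heckeAlphaBar Kbar (M * q) q (U3 q M) ≠ 0 := eps1_ne_zero q M
  have h2 : heckeBetaBar Kbar (M * q) q (U3 q M) ≠ 0 := eps2_ne_zero q M
  field_simp

theorem E11_div_eq20 : E11 q M = cQ q M * (heckeAlphaBar Kbar (M * q) q (U3 q M)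
    * heckeBetaBar Kbar (M * q) q (cq q M ^ 11 * (U3 q M)⁻¹)) := by
  rw [E11, eps1, eps2, map_mul, map_pow, map_inv₀, beta_cq]
  ring

theorem E11_div_eq02 : E11 q M = cQ q M * (heckeAlphaBar Kbar (M * q) q
    (U3 q M * (cq q M ^ 1)⁻¹) * heckeBetaBar Kbar (M * q) q (cq q M ^ 12 * (U3 q M)⁻¹)) := by
  rw [E11, eps1, eps2, map_mul, map_mul, map_pow, map_inv₀, map_inv₀, map_pow, beta_cq,
    alpha_cq, pow_one]
  have h0 := cQ_ne_zero q M
  field_simp

/-! ### `E20 = eps2`, vector `(0, 12, 12)` -/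

theorem E20_mem20 : E20 q M ∈ V20 A (M * q * q) :=
  (beta_mem_V20_iff A q M _).2 (U3_mem A q M)

theorem E20_inv_mem20 : (E20 q M)⁻¹ ∈ V20 A (M * q * q) := by
  rw [E20, eps2, ← map_inv₀]
  exact (beta_mem_V20_iff A q M _).2 (U3_inv_mem A q M)

include hq in
theorem E20_div_mem11 (hA : (q : Kbar) ∈ A) :
    ∃ f' ∈ V11 A (M * q * q) q M B k (lvl q M) hB hq, E20 q M = cQ q M * f' := by
  refine ⟨_, ?_, E20_div_eq q M⟩
  rw [beta_mem_V11_iff, wL_U3_div q M B k hB hq 1 (by norm_num)]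
  exact cq_pow_mul_inv_mem A q M hA _

include hq in
theorem E20_div_mem02 (hA : (q : Kbar) ∈ A) :
    ∃ f' ∈ V02 A (M * q * q) q M B k (lvl q M) hB, E20 q M = cQ q M * f' := by
  refine ⟨_, ?_, E20_div_eq q M⟩
  rw [beta_mem_V02_iff A q M B k hB hq, wL_U3_div q M B k hB hq 1 (by norm_num)]
  exact cq_pow_mul_inv_mem A q M hA _

/-! ### `E02 = q¹² / eps1`, vector `(12, 12, 0)` -/

include hq in
theorem E02_mem02 : E02 q M ∈ V02 A (M * q * q) q M B k (lvl q M) hB := by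
  rw [E02_eq, alpha_mem_V02_iff A q M B k hB hq, wL_inv_U3 q M B k hB hq 12 le_rfl]
  simpa using U3_mem A q M

include hq in
theorem E02_inv_mem02 : (E02 q M)⁻¹ ∈ V02 A (M * q * q) q M B k (lvl q M) hB := by
  rw [E02_inv_eq, alpha_mem_V02_iff A q M B k hB hq, wL_U3_div q M B k hB hq 12 le_rfl]
  simpa using U3_inv_mem A q M

theorem E02_div_mem20 (hA : (q : Kbar) ∈ A) :
    ∃ f' ∈ V20 A (M * q * q), E02 q M = cQ q M * f' := by
  refine ⟨_, ?_, E02_div_eq q M⟩
  rw [alpha_mem_V20_iff]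
  exact cq_pow_mul_inv_mem A q M hA _

include hq in
theorem E02_div_mem11 (hA : (q : Kbar) ∈ A) :
    ∃ f' ∈ V11 A (M * q * q) q M B k (lvl q M) hB hq, E02 q M = cQ q M * f' := by
  refine ⟨_, ?_, E02_div_eq q M⟩
  rw [alpha_mem_V11_iff]
  exact cq_pow_mul_inv_mem A q M hA _

/-! ### `E11 = q¹² eps1 / eps2`, vector `(12, 0, 12)` -/

include hq in
theorem E11_mem11 : E11 q M ∈ V11 A (M * q * q) q M B k (lvl q M) hB hq := by
  rw [E11_eq]
  refine mul_mem ((alpha_mem_V11_iff A q M B k hB hq _).2 (U3_mem A q M)) ?_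
  rw [beta_mem_V11_iff, wL_inv_U3 q M B k hB hq 12 le_rfl]
  simpa using U3_mem A q M

include hq in
theorem E11_inv_mem11 : (E11 q M)⁻¹ ∈ V11 A (M * q * q) q M B k (lvl q M) hB hq := by
  rw [E11_inv_eq]
  refine mul_mem ((alpha_mem_V11_iff A q M B k hB hq _).2 (U3_inv_mem A q M)) ?_
  rw [beta_mem_V11_iff, wL_U3_div q M B k hB hq 12 le_rfl]
  simpa using U3_inv_mem A q M

theorem E11_div_mem20 (hA : (q : Kbar) ∈ A) :
    ∃ f' ∈ V20 A (M * q * q), E11 q M = cQ q M * f' := by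
  refine ⟨_, ?_, E11_div_eq20 q M⟩
  refine mul_mem ((alpha_mem_V20_iff A q M _).2 (U3_mem A q M)) ?_
  rw [beta_mem_V20_iff]
  exact cq_pow_mul_inv_mem A q M hA _

include hq in
theorem E11_div_mem02 (hA : (q : Kbar) ∈ A) :
    ∃ f' ∈ V02 A (M * q * q) q M B k (lvl q M) hB, E11 q M = cQ q M * f' := by
  refine ⟨_, ?_, E11_div_eq02 q M⟩
  refine mul_mem ?_ ?_
  · rw [alpha_mem_V02_iff A q M B k hB hq, wL_U3_div q M B k hB hq 1 (by norm_num)]
    exact cq_pow_mul_inv_mem A q M hA _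
  · rw [beta_mem_V02_iff A q M B k hB hq, wL_inv_U3 q M B k hB hq 12 le_rfl]
    simpa using U3_mem A q M

end Units

end Fermat.Agent.S36.NU.H99

end
end
-- ==== END Fermat.Agent.S36.NU.H99_Units3
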