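-- GENERATED (merged mirror, NOTES/tools/trim/merge3_helper67.py): 3 modules of the originals, bodies verbatim.
import Fermat.Agent.Zm.S36_L02_002
import Fermat.Agent.Zm.S36_L01_002
import Fermat.Agent.Zm.S36_L08_001
import Fermat.Agent.Zm.S36_L03_002
import Fermat.Agent.Zm.S36_L08_000
import Fermat.Agent.Zm.S35_L20_000
import Fermat.Agent.Zm.S35_L14_002
import Fermat.Agent.Zm.S36_L06_000

-- ==== BEGIN Fermat.Agent.S36.NU.H23_Mod1
section

/-!
# S36 / NU-B, leaf TOT3-MOD (helper23): the three valuations on the inertia-fixed functions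

Level `N = M q²`, `q ∤ M`.  `E₀ = L0 A M ⊂ L₀ = L0 A (M q²)`.
* `VE0`, `V20o`, `V11o`, `V02o` : the restrictions of `VM`, `V₂₀`, `V₁₁`, `V₀₂`;
* `sE`, `s20`, `s11`, `s02` : their residue maps with values in `k((t))`;
* `sE_mem`, `s20_mem`, `s02_mem` : values in `fullC k M`;
* kernels, the maps `E₀ → L₀` (`hVE`), compatibilities.
-/

set_option autoImplicit false
set_option synthInstance.maxHeartbeats 400000
set_option maxHeartbeats 1000000
set_option linter.style.haveILetI false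
set_option linter.unusedSectionVars false

noncomputable section

open ModularCurve AlgebraicCurve
open Fermat.Agent.S24 Fermat.Agent.BAD.H88 Fermat.Agent.S28 Fermat.Agent.S28.H73
open Fermat.Agent.RED.H73 Fermat.Agent.RED.H17 Fermat.Agent.S36.NU.H88

namespace Fermat.Agent.S36.NU.H23

section Mod

variable (A : ValuationSubring Kbar) (q M : ℕ) (B k : ℤ) (hB : B * M + k * q = 1) (hq : q.Prime)
  [NeZero M] [NeZero q] [NeZero (M * q * q)]

/-- `F_M ⊆ F_{M q²}`. -/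
theorem hleMN : modularFunctionFieldBar M ≤ modularFunctionFieldBar (M * q * q) :=
  Fermat.Agent.S36.NU.H82.FM_le_of_dvd (M * q * q) M ⟨q * q, mul_assoc M q q⟩

theorem inclusion_eq_incAA (x : FN M) :
    IntermediateField.inclusion (hleMN q M) x = incAA q M x := by
  apply Subtype.ext
  rw [IntermediateField.coe_inclusion, coe_incAA]

/-! ### The restricted valuation rings -/

/-- The Gauss valuation ring of `L0 A M`. -/
def VE0 : ValuationSubring ↥(L0 A M) := resV0 (L0 A M) (VM A M)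

/-- `V₂₀` on `L0 A (M q²)`. -/
def V20o : ValuationSubring ↥(L0 A (M * q * q)) := resV0 (L0 A (M * q * q)) (V20 A (M * q * q))

/-- `V₁₁` on `L0 A (M q²)`. -/
def V11o : ValuationSubring ↥(L0 A (M * q * q)) :=
  resV0 (L0 A (M * q * q)) (V11 A (M * q * q) q M B k (lvl q M) hB hq)

/-- `V₀₂` on `L0 A (M q²)`. -/
def V02o : ValuationSubring ↥(L0 A (M * q * q)) :=
  resV0 (L0 A (M * q * q)) (V02 A (M * q * q) q M B k (lvl q M) hB)

theorem mem_VE0_iff (x : ↥(L0 A M)) :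
    x ∈ VE0 A M ↔ ((x : FN M) : LaurentSeries Kbar) ∈ gaussRingV A := Iff.rfl

theorem mem_V20o_iff (x : ↥(L0 A (M * q * q))) :
    x ∈ V20o A q M ↔ ((x : FN (M * q * q)) : LaurentSeries Kbar) ∈ gaussRingV A := Iff.rfl

theorem mem_V11o_iff (x : ↥(L0 A (M * q * q))) :
    x ∈ V11o A q M B k hB hq ↔ cM q M B k hB hq (x : FN (M * q * q)) ∈ gaussRingV A := Iff.rfl

theorem mem_V02o_iff (x : ↥(L0 A (M * q * q))) :
    x ∈ V02o A q M B k hB ↔ wS q M B k hB (x : FN (M * q * q)) ∈ V20 A (M * q * q) := Iff.rfl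

/-! ### The residue maps, with values in `k((t))` -/

/-- The residue map of `VE0`. -/
def sE : ↥(VE0 A M) →+* LaurentSeries (kV A) :=
  (IntermediateField.val _).toRingHom.comp (resRed (L0 A M) (VM A M) (redM A M))

/-- The residue map of `V20o`. -/
def s20 : ↥(V20o A q M) →+* LaurentSeries (kV A) :=
  (IntermediateField.val _).toRingHom.comp
    (resRed (L0 A (M * q * q)) (V20 A (M * q * q)) (red20 A (M * q * q)))

/-- The residue map of `V11o`. -/
def s11 : ↥(V11o A q M B k hB hq) →+* LaurentSeries (kV A) :=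
  (IntermediateField.val _).toRingHom.comp
    (resRed (L0 A (M * q * q)) (V11 A (M * q * q) q M B k (lvl q M) hB hq)
      (red11 A (M * q * q) q M B k (lvl q M) hB hq))

/-- The residue map of `V02o`. -/
def s02 : ↥(V02o A q M B k hB) →+* LaurentSeries (kV A) :=
  (IntermediateField.val _).toRingHom.comp
    (resRed (L0 A (M * q * q)) (V02 A (M * q * q) q M B k (lvl q M) hB)
      (red02 A (M * q * q) q M B k (lvl q M) hB))

theorem sE_mk (x : ↥(L0 A M)) (h : x ∈ VE0 A M) :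
    sE A M ⟨x, h⟩ = gaussRedV A ⟨((x : FN M) : LaurentSeries Kbar), h⟩ := rfl

theorem s20_mk (x : ↥(L0 A (M * q * q))) (h : x ∈ V20o A q M) :
    s20 A q M ⟨x, h⟩ = gaussRedV A ⟨((x : FN (M * q * q)) : LaurentSeries Kbar), h⟩ := rfl

theorem s11_mk (x : ↥(L0 A (M * q * q))) (h : x ∈ V11o A q M B k hB hq) :
    s11 A q M B k hB hq ⟨x, h⟩ = gaussRedV A ⟨cM q M B k hB hq (x : FN (M * q * q)), h⟩ := rfl

theorem s02_mk (x : ↥(L0 A (M * q * q))) (h : x ∈ V02o A q M B k hB) :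
    s02 A q M B k hB ⟨x, h⟩
      = gaussRedV A ⟨((wS q M B k hB (x : FN (M * q * q)) : FN (M * q * q)) :
          LaurentSeries Kbar), h⟩ := rfl

/-! ### Kernels -/

theorem sE_eq_zero_of_not_isUnit (x : ↥(VE0 A M)) (hx : ¬ IsUnit x) : sE A M x = 0 := by
  have h := resRed_eq_zero_of_not_isUnit (L0 A M) (VM A M) (redM A M)
    (gaussResF'_eq_zero_iff A (hScM A M)) x hx
  show ((resRed (L0 A M) (VM A M) (redM A M) x : FM A M) : LaurentSeries (kV A)) = 0
  rw [h]; rfl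

theorem s20_eq_zero_of_not_isUnit (x : ↥(V20o A q M)) (hx : ¬ IsUnit x) : s20 A q M x = 0 := by
  have h := resRed_eq_zero_of_not_isUnit (L0 A (M * q * q)) (V20 A (M * q * q))
    (red20 A (M * q * q)) (red20_eq_zero_iff A (M * q * q)) x hx
  show ((resRed (L0 A (M * q * q)) (V20 A (M * q * q)) (red20 A (M * q * q)) x :
    F20 A (M * q * q)) : LaurentSeries (kV A)) = 0
  rw [h]; rfl

theorem s11_eq_zero_of_not_isUnit (x : ↥(V11o A q M B k hB hq)) (hx : ¬ IsUnit x) :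
    s11 A q M B k hB hq x = 0 := by
  have h := resRed_eq_zero_of_not_isUnit (L0 A (M * q * q))
    (V11 A (M * q * q) q M B k (lvl q M) hB hq) (red11 A (M * q * q) q M B k (lvl q M) hB hq)
    (red11_eq_zero_iff A (M * q * q) q M B k (lvl q M) hB hq) x hx
  show ((resRed (L0 A (M * q * q)) (V11 A (M * q * q) q M B k (lvl q M) hB hq)
    (red11 A (M * q * q) q M B k (lvl q M) hB hq) x :
    F11 A (M * q * q) q M B k (lvl q M) hB hq) : LaurentSeries (kV A)) = 0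
  rw [h]; rfl

theorem s02_eq_zero_of_not_isUnit (x : ↥(V02o A q M B k hB)) (hx : ¬ IsUnit x) :
    s02 A q M B k hB x = 0 := by
  have h := resRed_eq_zero_of_not_isUnit (L0 A (M * q * q))
    (V02 A (M * q * q) q M B k (lvl q M) hB) (red02 A (M * q * q) q M B k (lvl q M) hB)
    (red02_eq_zero_iff A (M * q * q) q M B k (lvl q M) hB) x hx
  show ((resRed (L0 A (M * q * q)) (V02 A (M * q * q) q M B k (lvl q M) hB)
    (red02 A (M * q * q) q M B k (lvl q M) hB) x : F20 A (M * q * q)) :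
    LaurentSeries (kV A)) = 0
  rw [h]; rfl

/-! ### Values in `fullC k M` -/

include hq in
theorem sE_mem (hqM : ¬ q ∣ M) (hA : A.LiesOverPrime q) (x : ↥(VE0 A M)) :
    sE A M x ∈ modularFunctionFieldFullC (kV A) M := by
  rw [← stmt_GA M q hq hqM A hA]
  exact (resRed (L0 A M) (VM A M) (redM A M) x).2

include hq in
theorem s20_mem (hqM : ¬ q ∣ M) (hA : A.LiesOverPrime q) (x : ↥(V20o A q M)) :
    s20 A q M x ∈ modularFunctionFieldFullC (kV A) M := by
  rw [← Fermat.Agent.S36.NU.H82.redField_NU q M hq hqM A hA]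
  exact (resRed (L0 A (M * q * q)) (V20 A (M * q * q)) (red20 A (M * q * q)) x).2

include hq in
theorem s02_mem (hqM : ¬ q ∣ M) (hA : A.LiesOverPrime q) (x : ↥(V02o A q M B k hB)) :
    s02 A q M B k hB x ∈ modularFunctionFieldFullC (kV A) M := by
  rw [← Fermat.Agent.S36.NU.H82.redField_NU q M hq hqM A hA]
  exact (resRed (L0 A (M * q * q)) (V02 A (M * q * q) q M B k (lvl q M) hB)
    (red02 A (M * q * q) q M B k (lvl q M) hB) x).2

/-! ### The maps `E₀ → L₀` -/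

theorem coe_inclL0_series (a : ↥(L0 A M)) :
    (((inclL0 A (hleMN q M) a : ↥(L0 A (M * q * q))) : FN (M * q * q)) : LaurentSeries Kbar)
      = ((a : FN M) : LaurentSeries Kbar) := by
  rw [coe_inclL0, IntermediateField.coe_inclusion]

theorem coe_inclL0_eq_incAA (a : ↥(L0 A M)) :
    ((inclL0 A (hleMN q M) a : ↥(L0 A (M * q * q))) : FN (M * q * q)) = incAA q M (a : FN M) := by
  rw [coe_inclL0, inclusion_eq_incAA]

theorem hVE20 (a : ↥(L0 A M)) (ha : a ∈ VE0 A M) : inclL0 A (hleMN q M) a ∈ V20o A q M := by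
  rw [mem_V20o_iff, coe_inclL0_series]
  exact ha

include hB hq in
theorem hVE11 (a : ↥(L0 A M)) (ha : a ∈ VE0 A M) :
    inclL0 A (hleMN q M) a ∈ V11o A q M B k hB hq := by
  rw [mem_V11o_iff, coe_inclL0_eq_incAA, cM_incAA]
  exact ha

include hq in
theorem hVE02 (a : ↥(L0 A M)) (ha : a ∈ VE0 A M) :
    inclL0 A (hleMN q M) a ∈ V02o A q M B k hB := by
  show ((inclL0 A (hleMN q M) a : ↥(L0 A (M * q * q))) : FN (M * q * q))
    ∈ V02 A (M * q * q) q M B k (lvl q M) hB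
  rw [coe_inclL0_eq_incAA]
  exact (incAA_mem_V02_iff A q M B k hB hq (a : FN M)).mpr ha

/-! ### Compatibilities -/

theorem s20_incl (a : ↥(VE0 A M)) (h : inclL0 A (hleMN q M) (a : ↥(L0 A M)) ∈ V20o A q M) :
    s20 A q M ⟨_, h⟩ = sE A M a := by
  rw [s20_mk]
  show _ = gaussRedV A ⟨(((a : ↥(L0 A M)) : FN M) : LaurentSeries Kbar), a.2⟩
  congr 1

include hB hq in
theorem s11_incl (a : ↥(VE0 A M))
    (h : inclL0 A (hleMN q M) (a : ↥(L0 A M)) ∈ V11o A q M B k hB hq) :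
    s11 A q M B k hB hq ⟨_, h⟩ = sE A M a := by
  rw [s11_mk]
  show _ = gaussRedV A ⟨(((a : ↥(L0 A M)) : FN M) : LaurentSeries Kbar), a.2⟩
  congr 1
  apply Subtype.ext
  show cM q M B k hB hq ((inclL0 A (hleMN q M) (a : ↥(L0 A M)) : ↥(L0 A (M * q * q))) :
    FN (M * q * q)) = _
  rw [coe_inclL0_eq_incAA, cM_incAA]

include hq in
theorem s02_incl (a : ↥(VE0 A M))
    (h : inclL0 A (hleMN q M) (a : ↥(L0 A M)) ∈ V02o A q M B k hB) :
    s02 A q M B k hB ⟨_, h⟩ = qExpand (kV A) q (qExpand (kV A) q (sE A M a)) := by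
  rw [s02_mk]
  have e : ((wS q M B k hB ((inclL0 A (hleMN q M) (a : ↥(L0 A M)) : ↥(L0 A (M * q * q))) :
      FN (M * q * q)) : FN (M * q * q)) : LaurentSeries Kbar)
      = qExpand Kbar q (qExpand Kbar q (((a : ↥(L0 A M)) : FN M) : LaurentSeries Kbar)) := by
    rw [coe_inclL0_eq_incAA, wS_incAA q M B k hB hq, coe_incBB]
  have ha : (((a : ↥(L0 A M)) : FN M) : LaurentSeries Kbar) ∈ gaussRingV A := a.2
  have h1 : qExpand Kbar q (((a : ↥(L0 A M)) : FN M) : LaurentSeries Kbar) ∈ gaussRingV A :=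
    qExpand_mem_gaussRingV A q ha
  have h2 : qExpand Kbar q (qExpand Kbar q (((a : ↥(L0 A M)) : FN M) : LaurentSeries Kbar))
      ∈ gaussRingV A := qExpand_mem_gaussRingV A q h1
  have e2 : (⟨((wS q M B k hB ((inclL0 A (hleMN q M) (a : ↥(L0 A M)) : ↥(L0 A (M * q * q))) :
      FN (M * q * q)) : FN (M * q * q)) : LaurentSeries Kbar), h⟩ : gaussRingV A)
      = ⟨qExpand Kbar q (qExpand Kbar q (((a : ↥(L0 A M)) : FN M) : LaurentSeries Kbar)), h2⟩ :=
    Subtype.ext e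
  rw [e2, Fermat.Agent.BAD.H73.gaussRedV_qExpand A q h1 h2,
    Fermat.Agent.BAD.H73.gaussRedV_qExpand A q ha h1]
  rfl

end Mod

end Fermat.Agent.S36.NU.H23

end
end
-- ==== END Fermat.Agent.S36.NU.H23_Mod1

-- ==== BEGIN Fermat.Agent.S36.NU.H5_Q23Coord
section
attribute [local instance 10000] SubalgebraClass.toAlgebra
attribute [local instance 10000] HahnSeries.powerSeriesAlgebra

/-!
# S36 / NU-B, leaf Q23 (helper5): COORD + RAM for `q = 2, 3` at `κ = modularFunctionFieldFullC (kV A) M'`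

The reduction `h̄` of the Hauptmodul of `X₀(4)` (`q = 3`, `4 ∣ M'`) resp. `X₀(9)` (`q = 2`,
`9 ∣ M'`) is a LOCAL COORDINATE at every supersingular place `z` (`ord_z j̄ > 0`) of `κ`:

* `q23_coord_three` : `ord_z (h̄ - 1) = 1` and `ord_z j̄ = 6`;
* `q23_coord_two`   : `ord_z (h̄ + 1) = 1` and `ord_z j̄ = 12`.

Proof: helper30's node count (`num23_three`, `num23_two`: at least `g(qM') + 1 - 2 g(M')` zeros of
`j̄`) `= ψ(M') / 6` resp. `ψ(M') / 12` (helper94 `arith3`, `arith2`; no elliptic points), the zeros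
theorem `∑ ord_z j̄ ≤ [κ : k(j̄)] = ψ(M')` (helper51, helper73), and `ord_z j̄ = 6 ord_z (h̄ - 1)`
resp. `12 ord_z (h̄ + 1)`.
-/

set_option autoImplicit false
set_option linter.style.haveILetI false
set_option linter.unusedSectionVars false
set_option synthInstance.maxHeartbeats 400000
set_option maxHeartbeats 1000000

noncomputable section

open ModularCurve AlgebraicCurve IntermediateField Fermat.Agent.S28.H73 Fermat.Agent.RED.H73
  Fermat.Agent.BAD.H88 Fermat.Agent.BAD.H82 Fermat.Agent.S24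

namespace Fermat.Agent.S36.NU.H5

open Fermat.Agent.BAD.H73 Fermat.Agent.RED.H51 Fermat.Agent.S36.NU.H73 Fermat.Agent.BAD.H21
  Fermat.Agent.BAD.H30

/-- `ν₂(M) = 0` if `4 ∣ M`. -/
theorem q23_nuTwo_eq_zero {M : ℕ} (h : 4 ∣ M) : nuTwo M = 0 := by
  unfold nuTwo
  have : IsEmpty {x : ZMod M // x ^ 2 + 1 = 0} := by
    refine ⟨fun x => ?_⟩
    have h1 := congrArg (ZMod.castHom h (ZMod 4)) x.2
    rw [map_add, map_pow, map_one, map_zero] at h1
    revert h1
    generalize (ZMod.castHom h (ZMod 4)) x.1 = y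
    revert y
    decide
  exact Nat.card_of_isEmpty

/-- `ν₃(M) = 0` if `9 ∣ M`. -/
theorem q23_nuThree_eq_zero {M : ℕ} (h : 9 ∣ M) : nuThree M = 0 := by
  unfold nuThree
  have : IsEmpty {x : ZMod M // x ^ 2 + x + 1 = 0} := by
    refine ⟨fun x => ?_⟩
    have h1 := congrArg (ZMod.castHom h (ZMod 9)) x.2
    rw [map_add, map_add, map_pow, map_one, map_zero] at h1
    revert h1
    generalize (ZMod.castHom h (ZMod 9)) x.1 = y
    revert y
    decide
  exact Nat.card_of_isEmpty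

section Transport

variable (A : ValuationSubring Kbar) (M : ℕ) [NeZero M]

/-- The count of zeros of `j̄`, as a property of a subfield of `k((t))`. -/
def Q23Count (n : ℕ) (E : IntermediateField (kV A) (LaurentSeries (kV A))) : Prop :=
  ∀ hj : jqModC (kV A) ∈ E, ∃ Z : Finset (Place (kV A) ↥E),
    (∀ z ∈ Z, 0 < z.ord (⟨jqModC (kV A), hj⟩ : ↥E)) ∧ dedekindPsi M ≤ n * Z.card

theorem q23_count_three (hA : A.LiesOverPrime 3) (h4 : 4 ∣ M) (h3 : ¬ 3 ∣ M) :
    Q23Count A M 6 (modularFunctionFieldFullC (kV A) M) := by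
  have h2 : 2 ∣ M := Dvd.dvd.trans (by norm_num) h4
  have hGA := stmt_GA M 3 Nat.prime_three h3 A hA
  rw [← hGA]
  intro hj
  obtain ⟨Z, -, hZ, hcard⟩ := num23_three M A h2 h3 hA
  refine ⟨Z, fun z hz => ?_, ?_⟩
  · have e : (⟨jqModC (kV A), hj⟩ : ↥(redField A
        (laurentBaseChange Kbar (modularFunctionFieldFull M))
        (hasScale_laurentBaseChange A M))) = H21_jt M A :=
      Subtype.ext (red_jF A M).symm
    rw [e]
    exact hZ z hz
  · have har := Fermat.Agent.BAD.H94.arith3 h2 h3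
    rw [q23_nuTwo_eq_zero h4] at har
    have h6 : (dedekindPsi M : ℚ) ≤ 6 * (Z.card : ℚ) := by
      push_cast at har
      linarith
    exact_mod_cast h6

theorem q23_count_two (hA : A.LiesOverPrime 2) (h9 : 9 ∣ M) (h2 : ¬ 2 ∣ M) :
    Q23Count A M 12 (modularFunctionFieldFullC (kV A) M) := by
  have h3 : 3 ∣ M := Dvd.dvd.trans (by norm_num) h9
  have hGA := stmt_GA M 2 Nat.prime_two h2 A hA
  rw [← hGA]
  intro hj
  obtain ⟨Z, -, hZ, hcard⟩ := num23_two M A h3 h2 hA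
  refine ⟨Z, fun z hz => ?_, ?_⟩
  · have e : (⟨jqModC (kV A), hj⟩ : ↥(redField A
        (laurentBaseChange Kbar (modularFunctionFieldFull M))
        (hasScale_laurentBaseChange A M))) = H21_jt M A :=
      Subtype.ext (red_jF A M).symm
    rw [e]
    exact hZ z hz
  · have har := Fermat.Agent.BAD.H94.arith2 h3 h2
    rw [q23_nuThree_eq_zero h9] at har
    have h6 : (dedekindPsi M : ℚ) ≤ 12 * (Z.card : ℚ) := by
      push_cast at har
      linarith
    exact_mod_cast h6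

/-- `[κ : k(j̄)] = ψ(M)`. -/
theorem q23_finrank_j {q : ℕ} (hq : q.Prime) (hA : A.LiesOverPrime q) (hM : ¬ q ∣ M) :
    Module.finrank ↥((kV A)⟮(⟨jqModC (kV A), jqModC_mem_full (kV A) M⟩ :
      ↥(modularFunctionFieldFullC (kV A) M))⟯) ↥(modularFunctionFieldFullC (kV A) M)
      = dedekindPsi M := by
  rw [finrank_adjoin_simple_subtype]
  exact relfinrank_fullC_red_bar A (inv_natCast_mem_of_liesOver A M hq hM hA)

end Transport

section Coord

variable (A : ValuationSubring Kbar) (M : ℕ) [NeZero M]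

/-- `j̄` as an element of `κ`. -/
abbrev q23jFull : ↥(modularFunctionFieldFullC (kV A) M) :=
  ⟨jqModC (kV A), jqModC_mem_full (kV A) M⟩

/-- The reduction of the Hauptmodul of `X₀(4)` as an element of `κ`, `4 ∣ M`. -/
def q23hFull3 (h4 : 4 ∣ M) : ↥(modularFunctionFieldFullC (kV A) M) :=
  q23hE3 (q23jFull A M)
    ⟨qExpand (kV A) 2 (jqModC (kV A)),
      jqModCd_mem_full (kV A) M (Dvd.dvd.trans (by norm_num : 2 ∣ 4) h4)⟩
    ⟨qExpand (kV A) 4 (jqModC (kV A)), jqModCd_mem_full (kV A) M h4⟩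

/-- The reduction of the Hauptmodul of `X₀(9)` as an element of `κ`, `9 ∣ M`. -/
def q23hFull2 (h9 : 9 ∣ M) : ↥(modularFunctionFieldFullC (kV A) M) :=
  q23hE2 (q23jFull A M)
    ⟨qExpand (kV A) 3 (jqModC (kV A)),
      jqModCd_mem_full (kV A) M (Dvd.dvd.trans (by norm_num : 3 ∣ 9) h9)⟩
    ⟨qExpand (kV A) 9 (jqModC (kV A)), jqModCd_mem_full (kV A) M h9⟩

theorem q23hFull3_coe (hA : A.LiesOverPrime 3) (h4 : 4 ∣ M) :
    ((q23hFull3 A M h4 : ↥(modularFunctionFieldFullC (kV A) M)) : LaurentSeries (kV A))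
      = q23H3 (kV A) := by
  haveI : CharP (kV A) 3 := charP_kV A Nat.prime_three hA
  exact q23hE3_coe rfl rfl rfl

theorem q23hFull2_coe (hA : A.LiesOverPrime 2) (h9 : 9 ∣ M) :
    ((q23hFull2 A M h9 : ↥(modularFunctionFieldFullC (kV A) M)) : LaurentSeries (kV A))
      = q23H2 (kV A) := by
  haveI : CharP (kV A) 2 := charP_kV A Nat.prime_two hA
  exact q23hE2_coe rfl rfl rfl

/-- `j̄ h̄⁴ (h̄ + 1) = (h̄ - 1)⁶` in `κ`. -/
theorem q23hFull3_rel (hA : A.LiesOverPrime 3) (h4 : 4 ∣ M) :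
    q23jFull A M * q23hFull3 A M h4 ^ 4 * (q23hFull3 A M h4 + 1)
      = (q23hFull3 A M h4 - 1) ^ 6 := by
  haveI : CharP (kV A) 3 := charP_kV A Nat.prime_three hA
  apply Subtype.ext
  rw [IntermediateField.coe_mul, IntermediateField.coe_mul, IntermediateField.coe_pow,
    IntermediateField.coe_add, IntermediateField.coe_one, IntermediateField.coe_pow, coeE_sub,
    IntermediateField.coe_one, q23hFull3_coe A M hA h4]
  exact q23_three_jh (k := kV A)

/-- `j̄ h̄⁹ (h̄² + h̄ + 1) = (h̄ + 1)¹²` in `κ`. -/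
theorem q23hFull2_rel (hA : A.LiesOverPrime 2) (h9 : 9 ∣ M) :
    q23jFull A M * q23hFull2 A M h9 ^ 9 * (q23hFull2 A M h9 ^ 2 + q23hFull2 A M h9 + 1)
      = (q23hFull2 A M h9 + 1) ^ 12 := by
  haveI : CharP (kV A) 2 := charP_kV A Nat.prime_two hA
  apply Subtype.ext
  rw [IntermediateField.coe_mul, IntermediateField.coe_mul, IntermediateField.coe_pow,
    IntermediateField.coe_add, IntermediateField.coe_add, IntermediateField.coe_pow,
    IntermediateField.coe_one, IntermediateField.coe_pow, IntermediateField.coe_add,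
    IntermediateField.coe_one, q23hFull2_coe A M hA h9]
  exact q23_two_jh (k := kV A)

theorem q23jFull_ne_zero : q23jFull A M ≠ 0 := by
  intro h
  have h1 : ((q23jFull A M : ↥(modularFunctionFieldFullC (kV A) M)) : LaurentSeries (kV A))
      = 0 := by rw [h]; rfl
  exact q23_jq_ne_zero (k := kV A) h1

/-- **COORD + RAM for `q = 3`**: `h̄ - 1` is a local coordinate at every zero of `j̄`, and
`ord_z j̄ = 6`. -/
theorem q23_coord_three (hA : A.LiesOverPrime 3) (h4 : 4 ∣ M) (h3 : ¬ 3 ∣ M)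
    (z : Place (kV A) ↥(modularFunctionFieldFullC (kV A) M))
    (hz : 0 < z.ord (q23jFull A M)) :
    z.ord (q23hFull3 A M h4 - algebraMap (kV A) ↥(modularFunctionFieldFullC (kV A) M) 1) = 1 ∧
      z.ord (q23jFull A M) = 6 := by
  haveI : CharP (kV A) 3 := charP_kV A Nat.prime_three hA
  have h2k : (2 : kV A) ≠ 0 := by
    intro h2
    have h3' : ((3 : ℕ) : kV A) = 0 := CharP.cast_eq_zero (kV A) 3
    have h1 : (1 : kV A) = 0 := by
      have : (1 : kV A) = ((3 : ℕ) : kV A) - 2 := by push_cast; ring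
      rw [this, h3', h2, sub_zero]
    exact one_ne_zero h1
  have hrel := q23hFull3_rel A M hA h4
  have hord : ∀ z' : Place (kV A) ↥(modularFunctionFieldFullC (kV A) M),
      0 < z'.ord (q23jFull A M) →
        z'.ord (q23jFull A M) = ((6 : ℕ) : ℤ) * z'.ord (q23hFull3 A M h4 - 1) ∧
          0 < z'.ord (q23hFull3 A M h4 - 1) := by
    intro z' hz'
    obtain ⟨-, hvan⟩ := q23_three_place z' hrel hz'
    exact q23_three_ord_j h2k z' hrel hvan (q23jFull_ne_zero A M)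
  obtain ⟨Z, hZ, hcard⟩ := q23_count_three A M hA h4 h3 (jqModC_mem_full (kV A) M)
  have hfr := q23_finrank_j A M Nat.prime_three hA h3
  haveI : FiniteDimensional ↥((kV A)⟮q23jFull A M⟯) ↥(modularFunctionFieldFullC (kV A) M) :=
    Module.finite_of_finrank_pos (by
      rw [hfr]
      exact H21_psi_pos M)
  have h1 := q23_ram_of_count (q23jFull A M) (q23hFull3 A M h4 - 1) 6 hord Z hZ
    (by rw [hfr]; exact hcard) z hz
  rw [map_one]
  refine ⟨h1, ?_⟩
  rw [(hord z hz).1, h1]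
  norm_num

/-- **COORD + RAM for `q = 2`**: `h̄ + 1` is a local coordinate at every zero of `j̄`, and
`ord_z j̄ = 12`. -/
theorem q23_coord_two (hA : A.LiesOverPrime 2) (h9 : 9 ∣ M) (h2 : ¬ 2 ∣ M)
    (z : Place (kV A) ↥(modularFunctionFieldFullC (kV A) M))
    (hz : 0 < z.ord (q23jFull A M)) :
    z.ord (q23hFull2 A M h9 - algebraMap (kV A) ↥(modularFunctionFieldFullC (kV A) M) 1) = 1 ∧
      z.ord (q23jFull A M) = 12 := by
  haveI : CharP (kV A) 2 := charP_kV A Nat.prime_two hA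
  have hrel := q23hFull2_rel A M hA h9
  have hord : ∀ z' : Place (kV A) ↥(modularFunctionFieldFullC (kV A) M),
      0 < z'.ord (q23jFull A M) →
        z'.ord (q23jFull A M) = ((12 : ℕ) : ℤ) * z'.ord (q23hFull2 A M h9 + 1) ∧
          0 < z'.ord (q23hFull2 A M h9 + 1) := by
    intro z' hz'
    obtain ⟨hmem, hvan⟩ := q23_two_place z' hrel hz'
    exact q23_two_ord_j z' hrel hmem hvan (q23jFull_ne_zero A M)
  obtain ⟨Z, hZ, hcard⟩ := q23_count_two A M hA h9 h2 (jqModC_mem_full (kV A) M)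
  have hfr := q23_finrank_j A M Nat.prime_two hA h2
  haveI : FiniteDimensional ↥((kV A)⟮q23jFull A M⟯) ↥(modularFunctionFieldFullC (kV A) M) :=
    Module.finite_of_finrank_pos (by
      rw [hfr]
      exact H21_psi_pos M)
  have h1 := q23_ram_of_count (q23jFull A M) (q23hFull2 A M h9 + 1) 12 hord Z hZ
    (by rw [hfr]; exact hcard) z hz
  have h2E : (2 : ↥(modularFunctionFieldFullC (kV A) M)) = 0 := by
    apply Subtype.ext
    show ((2 : ↥(modularFunctionFieldFullC (kV A) M)) : LaurentSeries (kV A)) = 0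
    rw [show ((2 : ↥(modularFunctionFieldFullC (kV A) M)) : LaurentSeries (kV A)) = 2 from rfl]
    exact q23_two_L (k := kV A)
  have e : q23hFull2 A M h9 - algebraMap (kV A) ↥(modularFunctionFieldFullC (kV A) M) 1
      = q23hFull2 A M h9 + 1 := by
    rw [map_one]
    linear_combination (-1 : ↥(modularFunctionFieldFullC (kV A) M)) * h2E
  rw [e]
  refine ⟨h1, ?_⟩
  rw [(hord z hz).1, h1]
  norm_num

/-- **N5 input for `q = 3`, `u = h̄`**: at every supersingular place `z`, `h̄ - 1` is a coordinate,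
and any `d̄` with THETA and (L1) for `ū = h̄` has a simple pole at `z`. -/
theorem q23_pole_coord_three (hA : A.LiesOverPrime 3) (h4 : 4 ∣ M) (h3 : ¬ 3 ∣ M)
    (z : Place (kV A) ↥(modularFunctionFieldFullC (kV A) M))
    (hz : 0 < z.ord (q23jFull A M)) {d P : ↥(modularFunctionFieldFullC (kV A) M)}
    (hθ : thetaL (d : LaurentSeries (kV A)) =
      (q23H3 (kV A)) ^ (3 - 1) * thetaL (q23H3 (kV A)) - thetaL (q23H3 (kV A)) ^ 3)
    (hL1 : P = d * (q23hFull3 A M h4 ^ 3 ^ 2 - q23hFull3 A M h4))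
    (hP : P ∈ z.toValuationSubring) :
    z.ord (q23hFull3 A M h4 - algebraMap (kV A) ↥(modularFunctionFieldFullC (kV A) M) 1) = 1 ∧
      z.ord d = -1 := by
  have hc := (q23_coord_three A M hA h4 h3 z hz).1
  refine ⟨hc, ?_⟩
  rw [← q23hFull3_coe A M hA h4] at hθ
  exact (q23_ord_dbar_three_full A M hA h4 h3 z (1 : kV A) hc hθ hz hL1 hP).2

/-- **N5 input for `q = 2`, `u = h̄`**. -/
theorem q23_pole_coord_two (hA : A.LiesOverPrime 2) (h9 : 9 ∣ M) (h2 : ¬ 2 ∣ M)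
    (z : Place (kV A) ↥(modularFunctionFieldFullC (kV A) M))
    (hz : 0 < z.ord (q23jFull A M)) {d P : ↥(modularFunctionFieldFullC (kV A) M)}
    (hθ : thetaL (d : LaurentSeries (kV A)) =
      (q23H2 (kV A)) ^ (2 - 1) * thetaL (q23H2 (kV A)) - thetaL (q23H2 (kV A)) ^ 2)
    (hL1 : P = d * (q23hFull2 A M h9 ^ 2 ^ 2 - q23hFull2 A M h9))
    (hP : P ∈ z.toValuationSubring) :
    z.ord (q23hFull2 A M h9 - algebraMap (kV A) ↥(modularFunctionFieldFullC (kV A) M) 1) = 1 ∧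
      z.ord d = -1 := by
  have hc := (q23_coord_two A M hA h9 h2 z hz).1
  refine ⟨hc, ?_⟩
  rw [← q23hFull2_coe A M hA h9] at hθ
  exact (q23_ord_dbar_two_full A M hA h9 h2 z (1 : kV A) hc hθ hz hL1 hP).2

end Coord

end Fermat.Agent.S36.NU.H5

end
end
-- ==== END Fermat.Agent.S36.NU.H5_Q23Coord

-- ==== BEGIN Fermat.Agent.S36.NU.H65_Inst
section

/-!
# S36 / NU-B, INST-SKEL part 1 (helper65): `fin_local'`

`fin_local'` = helper24's `H24.fin_local`, where the local data of the chart at infinity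
(`PointData`: branches, local equation, DISJ / triple point) are asked only at the closed points
where `1 / j` vanishes (the cusps of the special fibre).  At the other closed points of the chart
at infinity the conclusion of the local lemma (`∃ β ∉ 𝔪, Good β`) is transferred from the chart
`C0` (`good_transfer`, `Linked.isMaximal`).

* `good_transfer` : transfer of `∃ β ∉ 𝔪, C.Good h n g β` between glued charts;
* `point_main` : the pointwise form of `H16.chart_main`;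
* `PointDataAt`, `point_of_bridge` : the pointwise forms of `H24.PointData`, `H24.chart_of_bridge`;
* `fin_local'`.
-/

set_option autoImplicit false
set_option linter.style.haveILetI false

noncomputable section

open AlgebraicCurve

attribute [local instance] Classical.propDecidable

namespace Fermat.Agent.S36.NU.H65

open Fermat.Agent.RED.H17 Fermat.Agent.RED Fermat.Agent.S36.NU.H16 Fermat.Agent.S36.NU.H79
  Fermat.Agent.S36.NU.H24 Fermat.Agent.S36.NU.H17

section Good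

variable {R F k ι : Type*} {κ : ι → Type*} [CommRing R] [Field F] [Algebra R F]
  [Field k] [∀ i, Field (κ i)] [∀ i, Algebra k (κ i)]
  {C C' : Chart R F k ι κ} {u : F} {𝔪 : Ideal C.B} {𝔪' : Ideal C'.B}

/-- **Transfer of the conclusion of the local lemma** between glued charts. -/
theorem good_transfer (G : Glue C C' u) (L : Linked C C' u 𝔪 𝔪') (qn n : ℕ) (h : F)
    (g : ∀ i, κ i) (S : Setup C qn n h g)
    (hgood : ∃ β : C.B, β ∉ 𝔪 ∧ C.Good h n g β) :
    ∃ β' : C'.B, β' ∉ 𝔪' ∧ C'.Good h n g β' := by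
  obtain ⟨β, hβ, s, hs, hrd⟩ := hgood
  obtain ⟨K₁, hK₁⟩ := G.loc_ge β.2
  obtain ⟨K₂, hK₂⟩ := G.loc_ge hs
  have hn := S.n_pos
  have hβ' : (β : F) * u⁻¹ ^ (K₁ + K₂) ∈ C'.B := hK₁ _ (Nat.le_add_right _ _)
  have e1 : h * (s * u⁻¹ ^ (K₁ + K₂)) ^ n = h * s ^ n * u⁻¹ ^ ((K₁ + K₂) * n) := by
    rw [mul_pow, ← pow_mul, mul_assoc]
  have hs' : h * (s * u⁻¹ ^ (K₁ + K₂)) ^ n ∈ C'.B := by
    rw [e1]
    exact hK₂ _ ((Nat.le_add_left _ _).trans (Nat.le_mul_of_pos_right _ hn))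
  refine ⟨⟨_, hβ'⟩, ?_, s * u⁻¹ ^ (K₁ + K₂), hs', fun i => ?_⟩
  · intro hmem
    refine hβ ((L β ⟨_, hβ'⟩ (K₁ + K₂) ?_).2 hmem)
    show (β : F) = (β : F) * u⁻¹ ^ (K₁ + K₂) * u ^ (K₁ + K₂)
    rw [mul_assoc, ← mul_pow, inv_mul_cancel₀ G.u_ne, one_pow, mul_one]
  · have hsV : s ∈ C.V i := S.mem_V i hs
    rw [← C'.rd_coe, ← G.hrd, ← G.hrd]
    show C.rd i (s * u⁻¹ ^ (K₁ + K₂)) = C.rd i ((β : F) * u⁻¹ ^ (K₁ + K₂)) * g i
    rw [C.rd_mul i hsV (pow_mem (G.inv_memV i) _),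
      C.rd_mul i (C.B_le i _ β.2) (pow_mem (G.inv_memV i) _), hrd i, C.rd_coe]
    ring

/-- **The main local theorem at one closed point** (pointwise form of `H16.chart_main`). -/
theorem point_main [Fintype ι] (C : Chart R F k ι κ) [IsNoetherianRing C.B]
    [IsFractionRing C.B F] (qn : ℕ) (q : R) (n : ℕ) (h : F) (g : ∀ i, κ i)
    (S : Setup C qn n h g) (h0 : h ≠ 0)
    (hHOR : ∀ W : ValuationSubring F, (∀ β : C.B, (β : F) ∈ W) → (algebraMap R F q)⁻¹ ∈ W →
      W ≠ ⊤ → ∃ s : F, s ≠ 0 ∧ h * s ^ n ∈ W ∧ (h * s ^ n)⁻¹ ∈ W)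
    (𝔪 : Ideal C.B) (hmax : 𝔪.IsMaximal) (hex : ∃ i, C.Icomp i ≤ 𝔪)
    (hpt : (∀ i, C.Icomp i ≤ 𝔪 → Nonempty (Branch C 𝔪 i)) ∧ Nonempty (LocEq C q 𝔪) ∧
      ((∃ i₀, ∀ i, C.Icomp i ≤ 𝔪 → i = i₀) ∨
        ∀ (s : F) (hs : h * s ^ n ∈ C.B), (⟨h * s ^ n, hs⟩ : C.B) ∉ 𝔪 →
          ∀ br : (∀ i, C.Icomp i ≤ 𝔪 → Branch C 𝔪 i), ∃ c : k,
            ∀ (i : ι) (hi : C.Icomp i ≤ 𝔪),
              g i * (C.rd i s)⁻¹ - algebraMap k (κ i) c ∈ (br i hi).O.nonunits)) :
    ∃ β : C.B, β ∉ 𝔪 ∧ C.Good h n g β := by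
  obtain ⟨hbr, ⟨L⟩, hcase⟩ := hpt
  obtain ⟨i₁, hi₁⟩ := hex
  obtain ⟨b₁⟩ := hbr i₁ hi₁
  have hh : ∀ i, h ∈ C.V i ∧ h⁻¹ ∈ C.V i := fun i => ⟨S.h_mem i, S.h_inv_mem i⟩
  obtain ⟨s, hs, hu⟩ := reg_abs C q n S.n_pos h hh h0 𝔪 hmax i₁ b₁ L hHOR
  rcases hcase with ⟨i₀, honly⟩ | heqv
  · have h1 : i₁ = i₀ := honly i₁ hi₁
    subst h1
    exact ll_single C qn n h g S 𝔪 hmax i₁ b₁ honly s hs hu
  · obtain ⟨c, hc⟩ := heqv s hs hu (fun i hi => (hbr i hi).some)
    exact ll C qn n h g S 𝔪 hmax (fun i hi => (hbr i hi).some) s hs hu c hc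

end Good

section Bridge

variable {R F k ι Z K L : Type*} {κ : ι → Type*} [CommRing R] [Field F] [Algebra R F]
  [Field k] [∀ i, Field (κ i)] [∀ i, Algebra k (κ i)] [Fintype ι]
  [Field K] [Field L] [Algebra K L] [Algebra F L]
  {K' L' L₁ L₂ : Type*} [Field K'] [Field L'] [Algebra K' L'] [Field L₁] [Algebra k L₁]
  [Field L₂] [Algebra k L₂]

/-- The local data at ONE closed point of the special fibre of the chart
(the body of `H24.PointData`). -/
def PointDataAt (C : Chart R F k ι κ) (D : NUData K F L k ι Z κ K' L' L₁ L₂) (q : R)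
    (𝔪 : Ideal C.B) : Prop :=
  (∀ i, C.Icomp i ≤ 𝔪 → Nonempty (Branch C 𝔪 i)) ∧ Nonempty (LocEq C q 𝔪) ∧
    ((∃ i₀, ∀ i, C.Icomp i ≤ 𝔪 → i = i₀) ∨
      ∃ z ∈ D.SS, InChart C D.T z ∧
        ∃ i₀, ∀ β : C.B, β ∈ 𝔪 ↔ VanAt (D.T.pt i₀ z) (C.rdB i₀ β))

theorem pointData_iff (C : Chart R F k ι κ) (D : NUData K F L k ι Z κ K' L' L₁ L₂) (q : R) :
    PointData C D q ↔
      ∀ 𝔪 : Ideal C.B, 𝔪.IsMaximal → (∃ i, C.Icomp i ≤ 𝔪) → PointDataAt C D q 𝔪 := Iff.rfl

variable {C : Chart R F k ι κ} (D : NUData K F L k ι Z κ K' L' L₁ L₂)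

/-- **One closed point of one chart** (pointwise form of `H24.chart_of_bridge`). -/
theorem point_of_bridge [Infinite k] [IsNoetherianRing C.B] [IsFractionRing C.B F]
    (hc : Compat C D.T) (hP : HasPrincipalDivisors K L) (qn : ℕ) (q : R) (n : ℕ) (H : F)
    (g : ∀ i, κ i) (S : Setup C qn n H g) (H0 : H ≠ 0) (hHOR : HOR C q n H)
    (𝔪 : Ideal C.B) (hmax : 𝔪.IsMaximal) (hex : ∃ i, C.Icomp i ≤ 𝔪)
    (hpt : PointDataAt C D q 𝔪) (hu : ∀ i, D.T.rdN i H ≠ 0)
    (heqv : ∀ z ∈ D.SS, ∀ s : F, D.IsGen n z H s →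
      ∃ c : k, ∀ i, HasValue (D.T.pt i z) (g i * (D.T.rdN i s)⁻¹) c) :
    ∃ β : C.B, β ∉ 𝔪 ∧ C.Good H n g β := by
  refine point_main C qn q n H g S H0 hHOR 𝔪 hmax hex ?_
  obtain ⟨hbr, hL, hcase⟩ := hpt
  refine ⟨hbr, hL, ?_⟩
  rcases hcase with h1 | ⟨z, hzSS, hz, i₀, h𝔪⟩
  · exact Or.inl h1
  · exact Or.inr fun s hs hsm br =>
      eqv_of_bridge D hc hP hzSS hz i₀ h𝔪 S.n_pos hu g (heqv z hzSS) s hs hsm br

/-- **FIN-LOCAL with PT-TRANSFER**: as `H24.fin_local`, but the local data of the chart at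
infinity are asked only at the closed points where `1 / j` vanishes. -/
theorem fin_local' [IsAlgClosed k] [IsNoetherianRing R] [IsDomain R] [IsIntegrallyClosed R]
    (Kf : Type*) [Field Kf] [Algebra R Kf] [IsFractionRing R Kf] [Algebra Kf F]
    [IsScalarTower R Kf F]
    (C0 Coo : Chart R F k ι κ) [IsNoetherianRing C0.B] [IsFractionRing C0.B F]
    [IsNoetherianRing Coo.B] [IsFractionRing Coo.B F]
    (hc0 : Compat C0 D.T) (hcoo : Compat Coo D.T) (hP : HasPrincipalDivisors K L)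
    (n : ℕ) (hC0 : ChartHyp C0 D.q n) (hCoo : ChartHyp Coo D.q n)
    (j : F) (hjt : Transcendental Kf j) (hB0 : C0.B = intSub R j) (hBoo : Coo.B = intSub R j⁻¹)
    (q : R) (hq0 : q ≠ 0) (hqu : ¬ IsUnit q) (n' : R) (hnn : (n : R) * n' = 1)
    (hpt0 : PointData C0 D q)
    (hptoo : ∀ 𝔪 : Ideal Coo.B, 𝔪.IsMaximal → (∃ i, Coo.Icomp i ≤ 𝔪) →
      (∀ β : Coo.B, (β : F) = j⁻¹ → β ∈ 𝔪) → PointDataAt Coo D q 𝔪)
    (hSS0 : ∀ z ∈ D.SS, InChart C0 D.T z) (hSS : D.SS.Nonempty)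
    (hk₁ : RootClosed k L₁ n) (hk₂ : RootClosed k L₂ n)
    (hrad0 : ∀ β ∈ C0.B, (∀ i, C0.rd i β = 0) → IsRadQ C0.B q β)
    (hradoo : ∀ β ∈ Coo.B, (∀ i, Coo.rd i β = 0) → IsRadQ Coo.B q β)
    (h : F) (hu : ∀ i, D.T.rdN i h ≠ 0) (hHOR0 : HOR C0 q n h) (hHORoo : HOR Coo q n h)
    (hfg : (MInt R j⁻¹ (h ^ ((D.q + 1) * (D.q - 1))) n hC0.n_pos).FG)
    {cα cβ : K'} {gα gβ : L'}
    (hα : D.Nα h = algebraMap K' L' cα * gα ^ n)
    (hβ : D.Nβ h = algebraMap K' L' cβ * gβ ^ n) :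
    ∃ s : F, s ≠ 0 ∧ IsIntegral R (h ^ ((D.q + 1) * (D.q - 1)) * s ^ n) := by
  have hn : 0 < n := hC0.n_pos
  haveI : Infinite k := IsAlgClosed.instInfinite
  set H : F := h ^ ((D.q + 1) * (D.q - 1)) with hH
  -- B2 + B3
  have hgen : ∀ z ∈ D.SS, ∃ s, D.IsGen n z h s := fun z hz =>
    exists_isGen D hc0 hP q hn hHOR0 hpt0 hu hz (hSS0 z hz)
  have htriv : D.TrivRed n H :=
    D.trivRed hP hn.ne' hC0.coprime.symm hC0.q_prime.one_le hk₁ hk₂ hSS hu hgen hα hβ
  have hm : ∀ i, h ∈ D.T.V i := fun i => D.T.mem_of_rdN_ne_zero (hu i)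
  have huH : ∀ i, D.T.rdN i H ≠ 0 := fun i => by
    rw [hH, D.T.rdN_pow (hm i)]
    exact pow_ne_zero _ (hu i)
  have H0 : H ≠ 0 := by
    intro h0
    apply huH D.i₂₀
    rw [h0, D.T.rdN_of_mem (D.T.V _).zero_mem]
    exact map_zero _
  -- the residues `g`
  obtain ⟨g, hg, heqv⟩ := exists_g_of_trivRed D hn.ne'
    (fun c => IsAlgClosed.exists_pow_nat_eq c hn) huH htriv
  have S0 : Setup C0 D.q n H g := hC0.setup (fun i => by rw [hc0.hrd]; exact hg i)
  have Soo : Setup Coo D.q n H g := hCoo.setup (fun i => by rw [hcoo.hrd]; exact hg i)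
  have hVV : ∀ i, C0.V i = Coo.V i := fun i => by rw [hc0.hV, hcoo.hV]
  have hrr : ∀ i x, C0.rd i x = Coo.rd i x := fun i x => by rw [hc0.hrd, hcoo.hrd]
  have hj : j ≠ 0 := by
    rintro rfl
    exact hjt ⟨Polynomial.X, Polynomial.X_ne_zero, by simp⟩
  have G : Glue C0 Coo j := glue_of_intSub C0 Coo j hj hB0 hBoo hVV hrr
  have hint : ∀ y ∈ Coo.B, IsIntegral (Algebra.adjoin R {j⁻¹}) y := by
    intro y hy
    rw [hBoo] at hy
    exact hy
  -- the chart `C0`
  obtain ⟨a, ha, hra⟩ := chart_of_bridge D hc0 hP D.q q n H g S0 H0 (hHOR0.pow _) hpt0 huH heqv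
  -- the chart at infinity
  obtain ⟨b, hb, hrb⟩ := patch Coo D.q n H g Soo (fun 𝔪 hmax hex => by
    by_cases hcusp : (⟨j⁻¹, G.inv_mem⟩ : Coo.B) ∈ 𝔪
    · refine point_of_bridge D hcoo hP D.q q n H g Soo H0 (hHORoo.pow _) 𝔪 hmax hex
        (hptoo 𝔪 hmax hex (fun β hβ => ?_)) huH heqv
      have : β = ⟨j⁻¹, G.inv_mem⟩ := Subtype.ext hβ
      rw [this]
      exact hcusp
    · haveI := hmax.isPrime
      haveI := hmax
      have L : Linked C0 Coo j (pull G 𝔪) 𝔪 := linked_pull G 𝔪 hcusp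
      obtain ⟨i₀, hi₀⟩ := hex
      have hmax0 : (pull G 𝔪).IsMaximal := L.isMaximal G hint i₀ hi₀
      have hex0 : ∃ i, C0.Icomp i ≤ pull G 𝔪 :=
        ⟨i₀, (L.symm G.u_ne).icomp_le G.symm hi₀⟩
      exact good_transfer G L D.q n H g S0
        (point_of_bridge D hc0 hP D.q q n H g S0 H0 (hHOR0.pow _) _ hmax0 hex0
          (hpt0 _ hmax0 hex0) huH heqv))
  -- TI3
  exact ti3_const Kf C0 Coo D.q n H g S0 Soo j hjt hB0 hBoo hVV hrr q hq0 hqu n' hnn
    hfg hrad0 hradoo a b ha hra hb hrb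

end Bridge

end Fermat.Agent.S36.NU.H65

end
end
-- ==== END Fermat.Agent.S36.NU.H65_Inst
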