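-- GENERATED (merged mirror, NOTES/tools/trim/merge3_helper67.py): 3 modules of the originals, bodies verbatim.
import Fermat.Agent.Zm.S36_L09_000
import Fermat.Agent.Zm.S36_L01_004
import Fermat.Agent.Zm.S36_L04_000
import Fermat.Agent.Zm.S36_L01_002
import Fermat.Agent.Zm.S36_L09_001
import Fermat.Agent.Zm.S36_L03_001
import Fermat.Agent.Zm.S35_L15_000
import Fermat.Agent.Zm.S35_L11_001
import Fermat.Agent.Zm.S36_L08_000

-- ==== BEGIN Fermat.Agent.S36.NU.H10_FinTopDefs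
section
attribute [local instance 10000] SubalgebraClass.toAlgebra
attribute [local instance 10000] HahnSeries.powerSeriesAlgebra

/-!
# S36 / NU-B, FIN-TOP (helper10): the modular targets

Level `N = M q²`, `q ∤ M`, `A` a valuation ring of `ℚ̄` over `q`, `I` its inertia group,
`L0 A N` the `I`-fixed functions of level `N` (helper23), `V20o`, `V11o`, `V02o` the three
valuations of `L0 A N` (helper23 `H23_Mod1`).

* `IsUnit3` : `h` is a unit for the three valuations.
* `IsNormPow0 φ n h` : the norm of `h` along `φ` (`= α, β : F_{Mq} → F_{Mq²}`) is `c gⁿ` with a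
  constant `c` fixed by `I` and `g` fixed by `I`.
* `Stmt_FinMod` (target of INST = the modular instance of `H24.fin_local`, with (HOR) of helper44
  inside): a unit `h` for the three valuations, fixed by `I`, with `n ∣ div h` and norms
  `c gⁿ`, has `h ^ E = constant · n-th power` (`E ≠ 0` fixed).
* `Stmt_ValVecMod` (target of VALVEC-MOD = the modular instance of `H16.valvec`): for `f ≠ 0`
  fixed by `I` with norms `c gⁿ` there are `b`, `w` with `f ^ (q + 1) q ^ (-b) wⁿ` a unit for the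
  three valuations.
* `Stmt_NormPow0` (target of DIV→NORM, helper26): the hypotheses of `H81.Stmt_NUCoreK` give
  `IsNormPow0` for `α` and `β`.
-/

set_option autoImplicit false
set_option linter.style.haveILetI false
set_option linter.unusedSectionVars false

noncomputable section

open ModularCurve AlgebraicCurve
open Fermat.Agent.S24 Fermat.Agent.BAD Fermat.Agent.BAD.H88 Fermat.Agent.Lib.HeckeComm
open Fermat.Agent.S36.NU.H23

namespace Fermat.Agent.S36.NU.H10

section Defs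

variable (A : ValuationSubring Kbar) (q M : ℕ) (B k : ℤ) (hB : B * M + k * q = 1) (hq : q.Prime)
  [NeZero M] [NeZero q] [NeZero (M * q * q)]

/-- `h` is a unit for the three valuations `V₂₀`, `V₁₁`, `V₀₂` of `L0 A (M q²)`. -/
def IsUnit3 (h : ↥(L0 A (M * q * q))) : Prop :=
  (h ∈ V20o A q M ∧ h⁻¹ ∈ V20o A q M) ∧
  (h ∈ V11o A q M B k hB hq ∧ h⁻¹ ∈ V11o A q M B k hB hq) ∧
  (h ∈ V02o A q M B k hB ∧ h⁻¹ ∈ V02o A q M B k hB)

/-- The norm of `h` along `φ` is `c gⁿ` with `c ∈ ℚ̄` and `g` fixed by the inertia group. -/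
def IsNormPow0 (φ : FN (M * q) →ₐ[Kbar] FN (M * q * q)) (n : ℕ) (h : FN (M * q * q)) : Prop :=
  ∃ (c : Kbar) (g : FN (M * q)), (∀ σ ∈ A.inertiaSubgroupIn ℚ, σ c = c) ∧ g ∈ L0 A (M * q) ∧
    normAlongHom φ.toRingHom h = algebraMap Kbar (FN (M * q)) c * g ^ n

/-- **Target of INST** (modular instance of `H24.fin_local` + (HOR)). -/
def Stmt_FinMod : Prop :=
  ∃ E : ℕ, E ≠ 0 ∧ ∀ n : ℕ, 0 < n → Nat.Coprime n q →
    ∀ h : ↥(L0 A (M * q * q)), IsUnit3 A q M B k hB hq h →
      (∀ P : Place Kbar (FN (M * q * q)), (n : ℤ) ∣ P.ord (h : FN (M * q * q))) →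
      IsNormPow0 A q M (heckeAlphaBar Kbar (M * q) q) n (h : FN (M * q * q)) →
      IsNormPow0 A q M (heckeBetaBar Kbar (M * q) q) n (h : FN (M * q * q)) →
      ∃ (s : FN (M * q * q)) (c : Kbar), s ≠ 0 ∧
        (h : FN (M * q * q)) ^ E * s ^ n = algebraMap Kbar (FN (M * q * q)) c

/-- **Target of VALVEC-MOD** (modular instance of `H16.valvec`). -/
def Stmt_ValVecMod : Prop :=
  ∀ n : ℕ, 0 < n → ∀ f : ↥(L0 A (M * q * q)), f ≠ 0 →
    IsNormPow0 A q M (heckeAlphaBar Kbar (M * q) q) n (f : FN (M * q * q)) →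
    IsNormPow0 A q M (heckeBetaBar Kbar (M * q) q) n (f : FN (M * q * q)) →
    ∃ (b : ℤ) (w : ↥(L0 A (M * q * q))), w ≠ 0 ∧
      IsUnit3 A q M B k hB hq (f ^ (q + 1) * ((q : ℕ) : ↥(L0 A (M * q * q))) ^ (-b) * w ^ n)

/-- **Target of DIV→NORM** (helper26): the divisor hypotheses of `H81.Stmt_NUCoreK` give
`IsNormPow0` along `α` and `β`. -/
def Stmt_NormPow0 : Prop :=
  ∀ (n : ℕ), 0 < n → ∀ f : FN (M * q * q), f ≠ 0 → f ∈ L0 A (M * q * q) →
    ∀ (hα : HeckeAlphaBarIntegral Kbar (M * q) q) (hβ : HeckeBetaBarIntegral Kbar (M * q) q)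
      (D : Divisor Kbar (FN (M * q * q))), (∀ P, D P = P.ord f) →
      (∃ g : FN (M * q), g ≠ 0 ∧ ∀ Q : Place Kbar (FN (M * q)),
        Divisor.pushforwardAlong (heckeAlphaBar Kbar (M * q) q) hα D Q = n * Q.ord g) →
      (∃ g : FN (M * q), g ≠ 0 ∧ ∀ Q : Place Kbar (FN (M * q)),
        Divisor.pushforwardAlong (heckeBetaBar Kbar (M * q) q) hβ D Q = n * Q.ord g) →
      IsNormPow0 A q M (heckeAlphaBar Kbar (M * q) q) n f ∧
      IsNormPow0 A q M (heckeBetaBar Kbar (M * q) q) n f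

/-- **Norms of inertia-fixed functions are inertia-fixed** (along `α` and `β`). -/
def Stmt_NormFix : Prop :=
  ∀ w : FN (M * q * q), w ∈ L0 A (M * q * q) →
    normAlongHom (heckeAlphaBar Kbar (M * q) q).toRingHom w ∈ L0 A (M * q) ∧
    normAlongHom (heckeBetaBar Kbar (M * q) q).toRingHom w ∈ L0 A (M * q)

end Defs

end Fermat.Agent.S36.NU.H10

end
end
-- ==== END Fermat.Agent.S36.NU.H10_FinTopDefs

-- ==== BEGIN Fermat.Agent.S36.NU.H23_Mod2
section
attribute [local instance 10000] SubalgebraClass.toAlgebra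
attribute [local instance 10000] HahnSeries.powerSeriesAlgebra

/-!
# S36 / NU-B, leaf TOT3-MOD (helper23): the residue maps into the residue field of level `M`

Level `N = M q²`, `q ∤ M`, `C = FM A M` the residue field of the Gauss valuation of level `M`
(`= k(j~(t^d) : d ∣ M)` by GA).

* `rE : VE0 → C`, `r20 : V20o → C`, `r02 : V02o → C` (ring homomorphisms), surjective;
* `FrM : C →ₐ[k] C` (`t ↦ t ^ q`), `alg2M` the structure `Fr²` of `C` over `C`, of degree `q²`;
* `inc20`, `inc11`, `inc02 : VE0 → V..o`, compatibilities `r20_inc`, `r02_inc`;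
* `ϖ = q`, `π₁ = j(t^{q²}) - j(t)`, ramification `hram11`;
* `finrank_L0_NU : [L0 N : L0 M] = q² + q`.
-/

set_option autoImplicit false
set_option synthInstance.maxHeartbeats 400000
set_option maxHeartbeats 1000000
set_option linter.style.haveILetI false
set_option linter.unusedSectionVars false

noncomputable section

open ModularCurve AlgebraicCurve
open Fermat.Agent.S24 Fermat.Agent.BAD.H88 Fermat.Agent.S28 Fermat.Agent.S28.H73
open Fermat.Agent.RED.H73 Fermat.Agent.RED.H17 Fermat.Agent.S36.NU.H88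

namespace Fermat.Agent.S36.NU.H23

section Mod2

variable (A : ValuationSubring Kbar) (q M : ℕ) (B k : ℤ) (hB : B * M + k * q = 1) (hq : q.Prime)
  [NeZero M] [NeZero q] [NeZero (M * q * q)] (hqM : ¬ q ∣ M) (hA : A.LiesOverPrime q)

/-! ### The residue field of level `M` -/

include hq hqM hA in
/-- (GA) -/
theorem FM_eq :
    redField A (modularFunctionFieldBar M) (hScM A M) = modularFunctionFieldFullC (kV A) M :=
  stmt_GA M q hq hqM A hA

/-- The residue map of `VE0`. -/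
def rE : ↥(VE0 A M) →+* FM A M := resRed (L0 A M) (VM A M) (redM A M)

theorem coe_rE (x : ↥(VE0 A M)) : ((rE A M x : FM A M) : LaurentSeries (kV A)) = sE A M x := rfl

include hq hqM hA in
theorem rE_surjective : Function.Surjective (rE A M) :=
  Fermat.Agent.S36.NU.H42.surjective_resRed_L0' A q M hq hqM hA

theorem rE_eq_zero_of_not_isUnit (x : ↥(VE0 A M)) (hx : ¬ IsUnit x) : rE A M x = 0 :=
  resRed_eq_zero_of_not_isUnit (L0 A M) (VM A M) (redM A M)
    (gaussResF'_eq_zero_iff A (hScM A M)) x hx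

include hq hqM hA in
theorem s20_memM (x : ↥(V20o A q M)) :
    s20 A q M x ∈ redField A (modularFunctionFieldBar M) (hScM A M) := by
  rw [FM_eq A q M hq hqM hA]
  exact s20_mem A q M hq hqM hA x

include hq hqM hA in
theorem s02_memM (x : ↥(V02o A q M B k hB)) :
    s02 A q M B k hB x ∈ redField A (modularFunctionFieldBar M) (hScM A M) := by
  rw [FM_eq A q M hq hqM hA]
  exact s02_mem A q M B k hB hq hqM hA x

/-- The residue map of `V20o`, into the residue field of level `M`. -/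
def r20 : ↥(V20o A q M) →+* FM A M where
  toFun x := ⟨s20 A q M x, s20_memM A q M hq hqM hA x⟩
  map_one' := Subtype.ext (map_one (s20 A q M))
  map_mul' x y := Subtype.ext (map_mul (s20 A q M) x y)
  map_zero' := Subtype.ext (map_zero (s20 A q M))
  map_add' x y := Subtype.ext (map_add (s20 A q M) x y)

/-- The residue map of `V02o`, into the residue field of level `M`. -/
def r02 : ↥(V02o A q M B k hB) →+* FM A M where
  toFun x := ⟨s02 A q M B k hB x, s02_memM A q M B k hB hq hqM hA x⟩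
  map_one' := Subtype.ext (map_one (s02 A q M B k hB))
  map_mul' x y := Subtype.ext (map_mul (s02 A q M B k hB) x y)
  map_zero' := Subtype.ext (map_zero (s02 A q M B k hB))
  map_add' x y := Subtype.ext (map_add (s02 A q M B k hB) x y)

theorem coe_r20 (x : ↥(V20o A q M)) :
    ((r20 A q M hq hqM hA x : FM A M) : LaurentSeries (kV A)) = s20 A q M x := rfl

theorem coe_r02 (x : ↥(V02o A q M B k hB)) :
    ((r02 A q M B k hB hq hqM hA x : FM A M) : LaurentSeries (kV A)) = s02 A q M B k hB x := rfl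

theorem r20_eq_zero_of_not_isUnit (x : ↥(V20o A q M)) (hx : ¬ IsUnit x) :
    r20 A q M hq hqM hA x = 0 := by
  apply Subtype.ext
  rw [coe_r20, s20_eq_zero_of_not_isUnit A q M x hx]
  rfl

theorem r02_eq_zero_of_not_isUnit (x : ↥(V02o A q M B k hB)) (hx : ¬ IsUnit x) :
    r02 A q M B k hB hq hqM hA x = 0 := by
  apply Subtype.ext
  rw [coe_r02, s02_eq_zero_of_not_isUnit A q M B k hB x hx]
  rfl

/-! ### The maps `VE0 → V..o` -/

/-- `VE0 → V20o`. -/
def inc20 : ↥(VE0 A M) →+* ↥(V20o A q M) where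
  toFun a := ⟨inclL0 A (hleMN q M) (a : ↥(L0 A M)), hVE20 A q M a a.2⟩
  map_one' := Subtype.ext (map_one (inclL0 A (hleMN q M)))
  map_mul' x y := Subtype.ext (map_mul (inclL0 A (hleMN q M)) (x : ↥(L0 A M)) (y : ↥(L0 A M)))
  map_zero' := Subtype.ext (map_zero (inclL0 A (hleMN q M)))
  map_add' x y := Subtype.ext (map_add (inclL0 A (hleMN q M)) (x : ↥(L0 A M)) (y : ↥(L0 A M)))

/-- `VE0 → V11o`. -/
def inc11 : ↥(VE0 A M) →+* ↥(V11o A q M B k hB hq) where
  toFun a := ⟨inclL0 A (hleMN q M) (a : ↥(L0 A M)), hVE11 A q M B k hB hq a a.2⟩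
  map_one' := Subtype.ext (map_one (inclL0 A (hleMN q M)))
  map_mul' x y := Subtype.ext (map_mul (inclL0 A (hleMN q M)) (x : ↥(L0 A M)) (y : ↥(L0 A M)))
  map_zero' := Subtype.ext (map_zero (inclL0 A (hleMN q M)))
  map_add' x y := Subtype.ext (map_add (inclL0 A (hleMN q M)) (x : ↥(L0 A M)) (y : ↥(L0 A M)))

/-- `VE0 → V02o`. -/
def inc02 : ↥(VE0 A M) →+* ↥(V02o A q M B k hB) where
  toFun a := ⟨inclL0 A (hleMN q M) (a : ↥(L0 A M)), hVE02 A q M B k hB hq a a.2⟩
  map_one' := Subtype.ext (map_one (inclL0 A (hleMN q M)))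
  map_mul' x y := Subtype.ext (map_mul (inclL0 A (hleMN q M)) (x : ↥(L0 A M)) (y : ↥(L0 A M)))
  map_zero' := Subtype.ext (map_zero (inclL0 A (hleMN q M)))
  map_add' x y := Subtype.ext (map_add (inclL0 A (hleMN q M)) (x : ↥(L0 A M)) (y : ↥(L0 A M)))

theorem r20_incl (a : ↥(VE0 A M)) (h : inclL0 A (hleMN q M) (a : ↥(L0 A M)) ∈ V20o A q M) :
    r20 A q M hq hqM hA ⟨_, h⟩ = rE A M a := by
  apply Subtype.ext
  rw [coe_r20, coe_rE]
  exact s20_incl A q M a h

include hq hqM hA in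
theorem r20_surjective : Function.Surjective (r20 A q M hq hqM hA) := by
  intro y
  obtain ⟨a, rfl⟩ := rE_surjective A q M hq hqM hA y
  exact ⟨⟨_, hVE20 A q M a a.2⟩, r20_incl A q M hq hqM hA a _⟩

/-! ### `u ↦ u(t^{q²})` on the inertia-fixed functions -/

theorem incBB_mem_L0 (x : FN M) (hx : x ∈ L0 A M) : incBB q M x ∈ L0 A (M * q * q) :=
  Fermat.Agent.S36.NU.H82.beta_mem_L0 A (M * q) q _
    (Fermat.Agent.S36.NU.H82.beta_mem_L0 A M q x hx)

include hq in
theorem incBB_mem_V02o (a : ↥(VE0 A M)) :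
    (⟨incBB q M ((a : ↥(L0 A M)) : FN M), incBB_mem_L0 A q M _ (a : ↥(L0 A M)).2⟩ :
      ↥(L0 A (M * q * q))) ∈ V02o A q M B k hB :=
  (incBB_mem_V02_iff A q M B k hB hq _).mpr a.2

theorem r02_incBB (a : ↥(VE0 A M)) :
    r02 A q M B k hB hq hqM hA ⟨_, incBB_mem_V02o A q M B k hB hq a⟩ = rE A M a := by
  apply Subtype.ext
  rw [coe_r02, coe_rE, s02_mk]
  show _ = gaussRedV A ⟨(((a : ↥(L0 A M)) : FN M) : LaurentSeries Kbar), a.2⟩
  congr 1
  apply Subtype.ext
  show ((wS q M B k hB (incBB q M ((a : ↥(L0 A M)) : FN M)) : FN (M * q * q)) :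
    LaurentSeries Kbar) = _
  rw [wS_incBB q M B k hB hq, coe_incAA]

include hq hqM hA in
theorem r02_surjective : Function.Surjective (r02 A q M B k hB hq hqM hA) := by
  intro y
  obtain ⟨a, rfl⟩ := rE_surjective A q M hq hqM hA y
  exact ⟨⟨_, incBB_mem_V02o A q M B k hB hq a⟩, r02_incBB A q M B k hB hq hqM hA a⟩

/-! ### The structure `Fr²` of the residue field over itself -/

include hq hqM hA in
/-- The residue field of level `M` is stable under the coefficientwise Frobenius. -/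
theorem frobStable_FM :
    @Fermat.Agent.BAD.H73.FrobStable (kV A) _ q ⟨hq⟩ (Fermat.Agent.BAD.H82.charP_kV A hq hA)
      (@Fermat.Agent.BAD.H73.perfectRing_kV _ _ _ A q ⟨hq⟩
        (Fermat.Agent.BAD.H82.charP_kV A hq hA))
      (redField A (modularFunctionFieldBar M) (hScM A M)) := by
  rw [FM_eq A q M hq hqM hA]
  exact @Fermat.Agent.BAD.H73.frobStable_fullC (kV A) _ q ⟨hq⟩
    (Fermat.Agent.BAD.H82.charP_kV A hq hA)
    (@Fermat.Agent.BAD.H73.perfectRing_kV _ _ _ A q ⟨hq⟩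
      (Fermat.Agent.BAD.H82.charP_kV A hq hA)) M

/-- `Fr : t ↦ t ^ q` on the residue field of level `M`. -/
def FrM : FM A M →ₐ[kV A] FM A M :=
  @Fermat.Agent.BAD.H73.FrE (kV A) _ q ⟨hq⟩ (Fermat.Agent.BAD.H82.charP_kV A hq hA)
    (@Fermat.Agent.BAD.H73.perfectRing_kV _ _ _ A q ⟨hq⟩
      (Fermat.Agent.BAD.H82.charP_kV A hq hA)) _ (frobStable_FM A q M hq hqM hA)

/-- The coefficientwise Frobenius `φ` on the residue field of level `M`. -/
def phiM : FM A M ≃+* FM A M :=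
  @Fermat.Agent.BAD.H73.frobE (kV A) _ q ⟨hq⟩ (Fermat.Agent.BAD.H82.charP_kV A hq hA)
    (@Fermat.Agent.BAD.H73.perfectRing_kV _ _ _ A q ⟨hq⟩
      (Fermat.Agent.BAD.H82.charP_kV A hq hA)) _ (frobStable_FM A q M hq hqM hA)

/-- **`β`** on the places of the residue field of level `M`. -/
def betaM : Place (kV A) (FM A M) ≃ Place (kV A) (FM A M) :=
  @Fermat.Agent.BAD.H73.beta (kV A) _ q ⟨hq⟩ (Fermat.Agent.BAD.H82.charP_kV A hq hA)
    (@Fermat.Agent.BAD.H73.perfectRing_kV _ _ _ A q ⟨hq⟩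
      (Fermat.Agent.BAD.H82.charP_kV A hq hA)) _ (frobStable_FM A q M hq hqM hA)

theorem coe_FrM (g : FM A M) :
    ((FrM A q M hq hqM hA g : FM A M) : LaurentSeries (kV A))
      = qExpand (kV A) q (g : LaurentSeries (kV A)) := rfl

/-- `ord_{β z} y = ord_z (φ y)`. -/
theorem betaM_ord (z : Place (kV A) (FM A M)) (y : FM A M) :
    (betaM A q M hq hqM hA z).ord y = z.ord (phiM A q M hq hqM hA y) :=
  @Fermat.Agent.BAD.H73.beta_ord (kV A) _ q ⟨hq⟩ (Fermat.Agent.BAD.H82.charP_kV A hq hA)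
    (@Fermat.Agent.BAD.H73.perfectRing_kV _ _ _ A q ⟨hq⟩
      (Fermat.Agent.BAD.H82.charP_kV A hq hA)) _ (frobStable_FM A q M hq hqM hA) z y

/-- The structure `Fr²` of the residue field of level `M` over itself. -/
@[reducible] def alg2M : Algebra (FM A M) (FM A M) :=
  ((FrM A q M hq hqM hA).toRingHom.comp (FrM A q M hq hqM hA).toRingHom).toAlgebra

theorem algebraMap_alg2M (y : FM A M) :
    @algebraMap (FM A M) (FM A M) _ _ (alg2M A q M hq hqM hA) y
      = FrM A q M hq hqM hA (FrM A q M hq hqM hA y) := rfl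

include hq hqM hA in
theorem jqModC_mem_FM :
    jqModC (kV A) ∈ redField A (modularFunctionFieldBar M) (hScM A M) := by
  rw [FM_eq A q M hq hqM hA]
  exact jqModC_mem_full (kV A) M

include hq hqM hA in
theorem isSeparable_FM :
    ∀ y ∈ redField A (modularFunctionFieldBar M) (hScM A M),
      IsSeparable ↥(IntermediateField.adjoin (kV A)
        ({jqModC (kV A)} : Set (LaurentSeries (kV A)))) y := by
  have : IsAlgClosed (kV A) := isAlgClosed_kV A
  have : Infinite (kV A) := IsAlgClosed.instInfinite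
  intro y hy
  rw [FM_eq A q M hq hqM hA] at hy
  exact isSeparable_fullC_red A (inv_natCast_mem_of_liesOver A M hq hqM hA) (caDataBar M) hy

include hq in
theorem not_dvd_neg_one : ¬ (q : ℤ) ∣ (-1 : ℤ) := by
  intro hd
  have h1 : ((q : ℕ) : ℤ) ∣ 1 := (dvd_neg (a := (q : ℤ)) (b := 1)).mp hd
  have h2 : q ∣ 1 := by exact_mod_cast h1
  exact hq.one_lt.ne' (Nat.dvd_one.mp h2)

theorem coeff_jqM :
    ((⟨jqModC (kV A), jqModC_mem_FM A q M hq hqM hA⟩ : FM A M) :
      LaurentSeries (kV A)).coeff (-1) ≠ 0 := by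
  show (jqModC (kV A)).coeff (-1) ≠ 0
  rw [coeff_jqModC_neg_one]
  exact one_ne_zero

/-- **`[C : C] = q²`** for the structure `Fr²`. -/
theorem finrank_alg2M :
    @Module.finrank (FM A M) (FM A M) _ _ (alg2M A q M hq hqM hA).toModule = q ^ 2 :=
  @finrank_of_Fr2 (kV A) _ q ⟨hq⟩ (Fermat.Agent.BAD.H82.charP_kV A hq hA)
    (@Fermat.Agent.BAD.H73.perfectRing_kV _ _ _ A q ⟨hq⟩
      (Fermat.Agent.BAD.H82.charP_kV A hq hA)) _ (frobStable_FM A q M hq hqM hA)
    (FM A M) _ (alg2M A q M hq hqM hA) (RingEquiv.refl _) (fun _ => rfl)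
    ⟨jqModC (kV A), jqModC_mem_FM A q M hq hqM hA⟩ (-1) (not_dvd_neg_one q hq)
    (coeff_jqM A q M hq hqM hA) (isSeparable_FM A q M hq hqM hA)

theorem finite_alg2M :
    @Module.Finite (FM A M) (FM A M) _ _ (alg2M A q M hq hqM hA).toModule :=
  @Module.finite_of_finrank_pos (FM A M) (FM A M) _ _ (alg2M A q M hq hqM hA).toModule
    (@Module.Free.of_divisionRing (FM A M) (FM A M) _ _ (alg2M A q M hq hqM hA).toModule) _ (by
    rw [finrank_alg2M A q M hq hqM hA]; exact pow_pos hq.pos 2)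

/-- **`ord_z (N g) = ord_{β (β z)} g`** for the structure `Fr²`. -/
theorem ord_norm_alg2M (z : Place (kV A) (FM A M)) (g : FM A M) :
    z.ord (@Algebra.norm (FM A M) (FM A M) _ _ (alg2M A q M hq hqM hA) g)
      = (betaM A q M hq hqM hA (betaM A q M hq hqM hA z)).ord g :=
  @ord_norm_of_Fr2 (kV A) _ q ⟨hq⟩ (Fermat.Agent.BAD.H82.charP_kV A hq hA)
    (@Fermat.Agent.BAD.H73.perfectRing_kV _ _ _ A q ⟨hq⟩
      (Fermat.Agent.BAD.H82.charP_kV A hq hA)) _ (frobStable_FM A q M hq hqM hA)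
    (FM A M) _ (alg2M A q M hq hqM hA) (RingEquiv.refl _) (fun _ => rfl)
    ⟨jqModC (kV A), jqModC_mem_FM A q M hq hqM hA⟩ (-1) (not_dvd_neg_one q hq)
    (coeff_jqM A q M hq hqM hA) (isSeparable_FM A q M hq hqM hA) z g

theorem r02_incl (a : ↥(VE0 A M)) (h : inclL0 A (hleMN q M) (a : ↥(L0 A M)) ∈ V02o A q M B k hB) :
    r02 A q M B k hB hq hqM hA ⟨_, h⟩
      = FrM A q M hq hqM hA (FrM A q M hq hqM hA (rE A M a)) := by
  apply Subtype.ext
  rw [coe_r02, coe_FrM, coe_FrM, coe_rE]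
  exact s02_incl A q M B k hB hq a h

/-! ### The uniformisers -/

/-- The uniformiser `q` of `VE0`. -/
def piE : ↥(L0 A M) := ((q : ℕ) : ↥(L0 A M))

theorem coe_piE : ((piE A q M : ↥(L0 A M)) : FN M) = ((q : ℕ) : FN M) :=
  map_natCast (L0 A M).subtype q

include hq in
theorem piE_ne_zero : piE A q M ≠ 0 := by
  intro h
  have h1 : ((q : ℕ) : FN M) = 0 := by rw [← coe_piE A q M, h]; rfl
  exact (Nat.cast_ne_zero (R := FN M)).2 hq.ne_zero h1

include hA in
theorem val_piE_lt_one : (VE0 A M).valuation (piE A q M) < 1 := by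
  rw [VE0, valuation_resV0_lt_one_iff, coe_piE]
  exact Fermat.Agent.S36.NU.H82.val20_natCast_lt_one A M hA

include hA in
theorem piE_mem : piE A q M ∈ VE0 A M :=
  (ValuationSubring.valuation_le_one_iff _ _).1 (le_of_lt (val_piE_lt_one A q M hA))

include hA in
theorem rE_piE : rE A M ⟨piE A q M, piE_mem A q M hA⟩ = 0 := by
  apply rE_eq_zero_of_not_isUnit
  intro hu
  have h1 := (ValuationSubring.valuation_eq_one_iff (VE0 A M) ⟨piE A q M, piE_mem A q M hA⟩).1 hu
  exact (val_piE_lt_one A q M hA).ne h1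

include hq hA in
/-- `q` is a uniformiser of `VE0`. -/
theorem hE_mod (a : ↥(L0 A M)) (h : (VE0 A M).valuation a < 1) :
    (VE0 A M).valuation a ≤ (VE0 A M).valuation (piE A q M) := by
  rw [VE0, valuation_resV0_le_iff, coe_piE]
  exact Fermat.Agent.S36.NU.H82.disc20 A M hq hA (a : FN M) a.2
    ((valuation_resV0_lt_one_iff _ _ a).1 h)

theorem sq_dvd_lvl : q * q ∣ M * q * q := ⟨M, by ring⟩

/-- The uniformiser `j(t^{q²}) - j(t)` of `V11o`. -/
def pi11 : ↥(L0 A (M * q * q)) :=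
  ⟨jdF (M * q * q) (q * q) (sq_dvd_lvl q M) - jdF (M * q * q) 1 (one_dvd _),
    sub_mem (jdF_mem_L0 A (M * q * q) (q * q) (sq_dvd_lvl q M))
      (jdF_mem_L0 A (M * q * q) 1 (one_dvd _))⟩

theorem coe_inclL0_piE :
    ((inclL0 A (hleMN q M) (piE A q M) : ↥(L0 A (M * q * q))) : FN (M * q * q))
      = ((q : ℕ) : FN (M * q * q)) := by
  rw [coe_inclL0, coe_piE, map_natCast]

include hA in
/-- **Ramification of `V11o`**: `v₁₁(q) = v₁₁(π₁) ^ (q - 1)`. -/
theorem hram11 :
    (V11o A q M B k hB hq).valuation (inclL0 A (hleMN q M) (piE A q M))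
      = (V11o A q M B k hB hq).valuation (pi11 A q M) ^ (q - 1) := by
  rw [← map_pow, V11o, valuation_resV0_eq_iff, coe_inclL0_piE]
  have h := ram11_j A q M B k hB hq hA (sq_dvd_lvl q M)
  rw [← map_pow] at h
  exact h.symm

/-- Constants of the maximal ideal have value `< 1`. -/
theorem val_const_lt_one {F : Type} [Field F] [Algebra Kbar F] (V : ValuationSubring F)
    (hV : ∀ c : Kbar, algebraMap Kbar F c ∈ V ↔ c ∈ A) (c : Kbar) (hc : c ∈ A.nonunits) :
    V.valuation (algebraMap Kbar F c) < 1 := by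
  apply lt_of_le_of_ne
  · rw [ValuationSubring.valuation_le_one_iff, hV]
    exact ((A.mem_nonunits_iff_exists_mem_maximalIdeal).1 hc).1
  · intro h1
    have hc0 : algebraMap Kbar F c ≠ 0 := by
      intro h0
      rw [h0, map_zero] at h1
      exact zero_ne_one h1
    have h2 : (algebraMap Kbar F c)⁻¹ ∈ V := by
      rw [← ValuationSubring.valuation_le_one_iff, map_inv₀, h1, inv_one]
    rw [← map_inv₀, hV] at h2
    have h3 : A.valuation c < 1 := (A.mem_nonunits_iff).1 hc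
    have h4 : A.valuation c⁻¹ ≤ 1 := (ValuationSubring.valuation_le_one_iff _ _).2 h2
    rw [map_inv₀] at h4
    have hc0' : c ≠ 0 := fun h => hc0 (by rw [h, map_zero])
    have h5 := (inv_le_one₀ (zero_lt_iff.2 ((Valuation.ne_zero_iff _).2 hc0'))).1 h4
    exact absurd h3 (not_lt.2 h5)

include hA in
theorem val11_piE_lt_one :
    (V11o A q M B k hB hq).valuation (inclL0 A (hleMN q M) (piE A q M)) < 1 := by
  rw [V11o, valuation_resV0_lt_one_iff, coe_inclL0_piE]
  have e : ((q : ℕ) : FN (M * q * q)) = algebraMap Kbar (FN (M * q * q)) (q : Kbar) :=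
    (map_natCast _ q).symm
  rw [e]
  exact val_const_lt_one A _ (const_mem11 A (M * q * q) q M B k (lvl q M) hB hq) _ hA

include hA in
theorem val_pi11_lt_one : (V11o A q M B k hB hq).valuation (pi11 A q M) < 1 := by
  by_contra hge
  rw [not_lt] at hge
  have h1 : 1 ≤ (V11o A q M B k hB hq).valuation (pi11 A q M) ^ (q - 1) := one_le_pow₀ hge
  rw [← hram11 A q M B k hB hq hA] at h1
  exact absurd (val11_piE_lt_one A q M B k hB hq hA) (not_lt.2 h1)

/-! ### Degrees -/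

theorem finite_FNU :
    @Module.Finite (FN M) (FN (M * q * q)) _ _ (algF (hleMN q M)).toModule :=
  (Fermat.Agent.RED.H51.stmt_FFB_finite _ _ _ (Fermat.Agent.RED.H95.stmt_HKA_isFF M)
    (Fermat.Agent.RED.H95.stmt_HKA_isFF (M * q * q))
    (IntermediateField.inclusion (hleMN q M))).2

include hq hqM in
theorem finrank_FNU :
    @Module.finrank (FN M) (FN (M * q * q)) _ _ (algF (hleMN q M)).toModule = q ^ 2 + q :=
  (Fermat.Agent.Lib.HeckeComm.relfinrank_FN M (M * q * q) ⟨q * q, mul_assoc M q q⟩).symm.trans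
    (Fermat.Agent.S36.NU.H82.relfinrank_NU q M hq hqM)

theorem finite_L0_NU :
    @Module.Finite ↥(L0 A M) ↥(L0 A (M * q * q)) _ _ (algL0 A (hleMN q M)).toModule :=
  finite_L0 A (hleMN q M) (finite_FNU q M)

include hq hqM in
/-- **`[L0 (M q²) : L0 M] = q² + q`**. -/
theorem finrank_L0_NU :
    @Module.finrank ↥(L0 A M) ↥(L0 A (M * q * q)) _ _ (algL0 A (hleMN q M)).toModule
      = q ^ 2 + q :=
  (finrank_L0 A (hleMN q M) (finite_FNU q M)).trans (finrank_FNU q M hq hqM)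

end Mod2

end Fermat.Agent.S36.NU.H23

end
end
-- ==== END Fermat.Agent.S36.NU.H23_Mod2

-- ==== BEGIN Fermat.Agent.S36.NU.H44_PoleRegGen
section

/-!
# S36 / NU-B, leaf POLE-INST, part 3 (helper44): `hP` GENERIC in the coordinate, and `q = 2, 3`

`q ∤ M` tame, `A` over `q`, `f ∈ F_M` with an integral expansion `u₀ ∈ ℤ((t))` such that
`α f = f(τ)` and `β f = f(qτ)` are regular at the non-cuspidal places of `F_{M q}`.
With `δ = (f^q - f(qτ)) / q` (expansion `kdel q u₀`), `W₁ = δ (f(qτ)^q - f)`: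

* `hP_gen` : `δ̄ (ū^{q²} - ū)` is regular at the non-cuspidal places of the residue field
  `κ = k(j~(t^d) : d ∣ M)` (total conservation at level `M q`);
* `dbar_mem_gen` : `δ̄ ∈ κ`;
* instances: `f = unitF M d` (any `d ∣ M`), helper5's `q23uF3` (`q = 3`, `4 ∣ M`) and `q23uF2`
  (`q = 2`, `9 ∣ M`);
* `pole_full_three`, `pole_full_two` : helper5's `q23_pole_coord_three/two` WITHOUT `hP`.
-/

set_option autoImplicit false
set_option linter.style.haveILetI false
set_option linter.unusedSectionVars false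
set_option synthInstance.maxHeartbeats 400000
set_option maxHeartbeats 1000000

noncomputable section

open Polynomial AlgebraicCurve IntermediateField ModularCurve HahnSeries

namespace Fermat.Agent.S36.NU.H44

open Fermat.Agent.RED.H51 Fermat.Agent.BAD.H21 Fermat.Agent.S36.NU.H73 Fermat.Agent.S36.NU.H65
open Fermat.Agent.S28.H73 Fermat.Agent.RED.H73 Fermat.Agent.RED Fermat.Agent.BAD
open Fermat.Agent.BAD.H88 Fermat.Agent.BAD.H30 Fermat.Agent.RED.H17
open Fermat.Agent.S24 (Kbar FN)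

section GenLevel

variable (q M : ℕ) [NeZero M] [NeZero (M * q)] [NeZero q] [hqF : Fact q.Prime]
  (f : FN M) (u₀ : LaurentSeries ℤ) (hf : (f : LaurentSeries Kbar) = intSer Kbar u₀)

/-- `α f`. -/
def gA : FN (M * q) := heckeAlphaBar Kbar M q f

/-- `β f`. -/
def gB : FN (M * q) := heckeBetaBar Kbar M q f

/-- `δ = ((α f)^q - β f) / q`. -/
def gDel : FN (M * q) :=
  algebraMap Kbar (FN (M * q)) ((q : Kbar)⁻¹) * (gA q M f ^ q - gB q M f)

/-- `W₁ = δ ((β f)^q - α f)`. -/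
def gW1 : FN (M * q) := gDel q M f * (gB q M f ^ q - gA q M f)

include hf in
theorem coe_gA : ((gA q M f : FN (M * q)) : LaurentSeries Kbar) = intSer Kbar u₀ := by
  rw [gA, coe_heckeAlphaBar, hf]

include hf in
theorem coe_gB :
    ((gB q M f : FN (M * q)) : LaurentSeries Kbar) = intSer Kbar (qExpand ℤ q u₀) := by
  rw [gB, coe_heckeBetaBar, hf, intSer_qExpand]

include hf in
theorem coe_gDel :
    ((gDel q M f : FN (M * q)) : LaurentSeries Kbar) = intSer Kbar (kdel q u₀) := by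
  have h := congrArg (intSer Kbar) (kdel_spec q u₀)
  simp only [intSer, map_mul, map_sub, map_pow, map_natCast] at h
  have e : ((gDel q M f : FN (M * q)) : LaurentSeries Kbar)
      = algebraMap Kbar (LaurentSeries Kbar) ((q : Kbar)⁻¹)
        * (((gA q M f : FN (M * q)) : LaurentSeries Kbar) ^ q
          - ((gB q M f : FN (M * q)) : LaurentSeries Kbar)) := rfl
  rw [e, coe_gA q M f u₀ hf, coe_gB q M f u₀ hf]
  simp only [intSer]
  rw [← h, ← mul_assoc]
  have h1 : algebraMap Kbar (LaurentSeries Kbar) ((q : Kbar)⁻¹) * ((q : ℕ) : LaurentSeries Kbar)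
      = 1 := by
    rw [← map_natCast (algebraMap Kbar (LaurentSeries Kbar)) q, ← map_mul,
      inv_mul_cancel₀ (natCast_ne_zero_Kbar q), map_one]
  rw [h1, one_mul]

/-- The integer series of `W₁`. -/
def gW1Z : LaurentSeries ℤ := kdel q u₀ * (qExpand ℤ q u₀ ^ q - u₀)

include hf in
theorem coe_gW1 : ((gW1 q M f : FN (M * q)) : LaurentSeries Kbar) = intSer Kbar (gW1Z q u₀) := by
  have e : ((gW1 q M f : FN (M * q)) : LaurentSeries Kbar)
      = ((gDel q M f : FN (M * q)) : LaurentSeries Kbar)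
        * (((gB q M f : FN (M * q)) : LaurentSeries Kbar) ^ q
          - ((gA q M f : FN (M * q)) : LaurentSeries Kbar)) := rfl
  rw [e, coe_gDel q M f u₀ hf, coe_gA q M f u₀ hf, coe_gB q M f u₀ hf, gW1Z]
  simp only [intSer, map_mul, map_sub, map_pow]

variable (A : ValuationSubring Kbar)

include hf in
theorem gDel_mem_V1 : gDel q M f ∈ V1 A q M := by
  show ((gDel q M f : FN (M * q)) : LaurentSeries Kbar) ∈ gaussRingV A
  rw [coe_gDel q M f u₀ hf]
  exact intSer_mem A _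

include hf in
theorem gW1_mem_V1 : gW1 q M f ∈ V1 A q M := by
  show ((gW1 q M f : FN (M * q)) : LaurentSeries Kbar) ∈ gaussRingV A
  rw [coe_gW1 q M f u₀ hf]
  exact intSer_mem A _

include hf in
theorem coe_red1_gDel (h : gDel q M f ∈ V1 A q M) :
    ((red1 A q M ⟨gDel q M f, h⟩ : F1 A q M) : LaurentSeries (kV A))
      = coeffMap (Int.castRingHom (kV A)) (kdel q u₀) := by
  rw [coe_gaussResF'_eq]
  have e : (⟨((gDel q M f : FN (M * q)) : LaurentSeries Kbar), h⟩ :
      gaussRingV A) = ⟨intSer Kbar (kdel q u₀), intSer_mem A _⟩ :=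
    Subtype.ext (coe_gDel q M f u₀ hf)
  exact (congrArg (gaussRedV A) e).trans (gaussRedV_intSer A _ _)

include hf in
theorem coe_red1_gW1 (hA : A.LiesOverPrime q) (h : gW1 q M f ∈ V1 A q M) :
    ((red1 A q M ⟨gW1 q M f, h⟩ : F1 A q M) : LaurentSeries (kV A))
      = coeffMap (Int.castRingHom (kV A)) (kdel q u₀)
        * (coeffMap (Int.castRingHom (kV A)) u₀ ^ q ^ 2
          - coeffMap (Int.castRingHom (kV A)) u₀) := by
  haveI : CharP (kV A) q := BAD.H82.charP_kV A hqF.out hA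
  rw [coe_gaussResF'_eq]
  have e : (⟨((gW1 q M f : FN (M * q)) : LaurentSeries Kbar), h⟩ :
      gaussRingV A) = ⟨intSer Kbar (gW1Z q u₀), intSer_mem A _⟩ :=
    Subtype.ext (coe_gW1 q M f u₀ hf)
  rw [(congrArg (gaussRedV A) e).trans (gaussRedV_intSer A _ _), gW1Z]
  simp only [map_mul, map_sub, map_pow]
  rw [coeffMap_qExpand, ← intRed_pow q u₀, ← pow_mul, ← pow_two]

end GenLevel

section GenWQ

variable (q M : ℕ) (a b : ℤ) (hab : a * q + b * M = 1) (hq : q.Prime)
  [NeZero M] [NeZero (M * q)] [NeZero q] [hqF : Fact q.Prime] (f : FN M)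

theorem wq_gW1 : wq q M a b hab hq (gW1 q M f) = gW1 q M f := by
  rw [gW1, gDel, gA, gB, map_mul, map_mul, map_sub, map_sub, map_pow, map_pow, AlgEquiv.commutes,
    wq_alpha, wq_beta]
  ring

variable (A : ValuationSubring Kbar)

theorem gW1_mem_V2 (h : gW1 q M f ∈ V1 A q M) : gW1 q M f ∈ V2 A q M a b hab hq := by
  rw [mem_V2_iff, wq_gW1]
  exact h

end GenWQ

section GenReg

variable (q M : ℕ) [NeZero M] [NeZero (M * q)] [NeZero q] [hqF : Fact q.Prime] (f : FN M)

theorem regAt_gW1 (P : Place Kbar (FN (M * q)))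
    (hA : RegAt P (gA q M f)) (hB : RegAt P (gB q M f)) : RegAt P (gW1 q M f) := by
  rw [gW1, gDel]
  exact ((regAt_algebraMap P _).mul ((hA.pow q).sub hB)).mul ((hB.pow q).sub hA)

end GenReg

section GenFinal

variable (A : ValuationSubring Kbar) (q M : ℕ) (a b : ℤ) (hab : a * q + b * M = 1)
  (hq : q.Prime) [NeZero M] [NeZero (M * q)] [NeZero q] [hqF : Fact q.Prime]
  (hA : A.LiesOverPrime q) (hqM : ¬ q ∣ M) (ht : H91.TameAt M q)
  (f : FN M) (u₀ : LaurentSeries ℤ) (hf : (f : LaurentSeries Kbar) = intSer Kbar u₀)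
  (hregA : ∀ P : Place Kbar (FN (M * q)), 0 ≤ P.ord (Fermat.Agent.S24.jF (M * q)) →
    RegAt P (gA q M f))
  (hregB : ∀ P : Place Kbar (FN (M * q)), 0 ≤ P.ord (Fermat.Agent.S24.jF (M * q)) →
    RegAt P (gB q M f))

include hab hq hA hqM ht hf hregA hregB in
/-- **`hP` on `F₁`, generic**: `δ̄ (ū^{q²} - ū)` is regular at the non-cuspidal places. -/
theorem regAt_P_gen (z : Place (kV A) (F1 A q M)) (jE u d : F1 A q M)
    (hj : (jE : LaurentSeries (kV A)) = jqModC (kV A))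
    (hu : (u : LaurentSeries (kV A)) = coeffMap (Int.castRingHom (kV A)) u₀)
    (hd : (d : LaurentSeries (kV A)) = coeffMap (Int.castRingHom (kV A)) (kdel q u₀))
    (hz : 0 ≤ z.ord jE) : d * (u ^ q ^ 2 - u) ∈ z.toValuationSubring := by
  haveI : IsAlgClosed (kV A) := isAlgClosed_kV A
  haveI : Infinite (kV A) := IsAlgClosed.instInfinite
  have H := RED.H17.ffHyp_of_isFF _ _ (Fermat.Agent.RED.H95.stmt_HKA_isFF (M * q))
  have hV1 : gW1 q M f ∈ V1 A q M := gW1_mem_V1 q M f u₀ hf A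
  have hR : (Fermat.Agent.S35.H89.modTot A q M a b hab hq hA hqM ht).InR z (gW1 q M f) :=
    ⟨hV1, gW1_mem_V2 q M a b hab hq f A hV1, fun P hP => by
      have h0 := ord_jF_nonneg_of_rhoF1 A q M a b hab hq hA hqM ht z jE hj hz P hP
      exact regAt_gW1 q M f P (hregA P h0) (hregB P h0)⟩
  have h := hR.regAt₁ H.principal
  rw [(Fermat.Agent.S35.H89.modTot A q M a b hab hq hA hqM ht).p₁.rd_of_mem hV1] at h
  have e : d * (u ^ q ^ 2 - u) = red1 A q M ⟨gW1 q M f, hV1⟩ := by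
    apply Subtype.ext
    rw [coe_red1_gW1 q M f u₀ hf A hA hV1]
    show (d : LaurentSeries (kV A)) * ((u : LaurentSeries (kV A)) ^ q ^ 2
      - (u : LaurentSeries (kV A))) = _
    rw [hd, hu]
  rw [e]
  exact (regAt_iff_mem z _).1 h

include hA hqM ht hf hregA hregB in
/-- **`hP`, generic in the coordinate**, on any `E = k(j~(t^d) : d ∣ M)`. -/
theorem hP_gen (E : IntermediateField (kV A) (LaurentSeries (kV A)))
    (hE : E = modularFunctionFieldFullC (kV A) M)
    (z : Place (kV A) ↥E) (jE u d : ↥E)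
    (hj : (jE : LaurentSeries (kV A)) = jqModC (kV A))
    (hu : (u : LaurentSeries (kV A)) = coeffMap (Int.castRingHom (kV A)) u₀)
    (hd : (d : LaurentSeries (kV A)) = coeffMap (Int.castRingHom (kV A)) (kdel q u₀))
    (hz : 0 ≤ z.ord jE) : d * (u ^ q ^ 2 - u) ∈ z.toValuationSubring := by
  obtain ⟨a, b, hab⟩ := exists_bezout q M hqM
  have hE' : E = redField A (modularFunctionFieldBar (M * q)) (hSc A q M) :=
    hE.trans (H82.redField_eq_fullC q M a b hab hqF.out A hA).symm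
  subst hE'
  exact regAt_P_gen A q M a b hab hqF.out hA hqM ht f u₀ hf hregA hregB z jE u d hj hu hd hz

include hA hqM hf in
/-- `δ̄ ∈ k(j~(t^d) : d ∣ M)`, generic in the coordinate. -/
theorem dbar_mem_gen :
    coeffMap (Int.castRingHom (kV A)) (kdel q u₀) ∈ modularFunctionFieldFullC (kV A) M := by
  obtain ⟨a, b, hab⟩ := exists_bezout q M hqM
  rw [← H82.redField_eq_fullC q M a b hab hqF.out A hA,
    ← coe_red1_gDel q M f u₀ hf A (gDel_mem_V1 q M f u₀ hf A)]
  exact SetLike.coe_mem _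

include hA hqM hf in
/-- `ū ∈ k(j~(t^d) : d ∣ M)`, generic in the coordinate. -/
theorem ubar_mem_gen :
    coeffMap (Int.castRingHom (kV A)) u₀ ∈ modularFunctionFieldFullC (kV A) M := by
  obtain ⟨a, b, hab⟩ := exists_bezout q M hqM
  rw [← H82.redField_eq_fullC q M a b hab hqF.out A hA]
  have hV1 : gA q M f ∈ V1 A q M := by
    show ((gA q M f : FN (M * q)) : LaurentSeries Kbar) ∈ gaussRingV A
    rw [coe_gA q M f u₀ hf]
    exact intSer_mem A _
  have e : ((red1 A q M ⟨gA q M f, hV1⟩ : F1 A q M) : LaurentSeries (kV A))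
      = coeffMap (Int.castRingHom (kV A)) u₀ := by
    rw [coe_gaussResF'_eq]
    have e' : (⟨((gA q M f : FN (M * q)) : LaurentSeries Kbar), hV1⟩ :
        gaussRingV A) = ⟨intSer Kbar u₀, intSer_mem A _⟩ :=
      Subtype.ext (coe_gA q M f u₀ hf)
    exact (congrArg (gaussRedV A) e').trans (gaussRedV_intSer A _ _)
  rw [← e]
  exact SetLike.coe_mem _

end GenFinal

/-! ### Regularity of `α f`, `β f` for the modular units and helper5's Hauptmoduln -/

section Units

variable (q M : ℕ) [NeZero M] [NeZero (M * q)] [NeZero q] [hqF : Fact q.Prime]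
  (d : ℕ) [NeZero d] (hd : d ∣ M)

omit [NeZero M] [NeZero (M * q)] [NeZero q] hqF [NeZero d] in
theorem dvd_lvl (hd : d ∣ M) : d ∣ M * q := Dvd.dvd.mul_right hd q

omit [NeZero M] [NeZero (M * q)] [NeZero q] hqF [NeZero d] in
theorem mul_dvd_lvl (hd : d ∣ M) : d * q ∣ M * q := Nat.mul_dvd_mul_right hd q

theorem alpha_unitF :
    heckeAlphaBar Kbar M q (unitF M d hd) = unitF (M * q) d (dvd_lvl q M d hd) := by
  apply Subtype.ext
  rw [coe_heckeAlphaBar, unitF_coe, unitF_coe]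

theorem beta_unitF_mul :
    haveI : NeZero (d * q) := ⟨Nat.mul_ne_zero (NeZero.ne d) (NeZero.ne q)⟩
    heckeBetaBar Kbar M q (unitF M d hd) * unitF (M * q) q (q_dvd_lvl q M)
      = unitF (M * q) (d * q) (mul_dvd_lvl q M d hd) := by
  haveI : NeZero (d * q) := ⟨Nat.mul_ne_zero (NeZero.ne d) (NeZero.ne q)⟩
  apply Subtype.ext
  show ((heckeBetaBar Kbar M q (unitF M d hd) : FN (M * q)) : LaurentSeries Kbar)
      * ((unitF (M * q) q (q_dvd_lvl q M) : FN (M * q)) : LaurentSeries Kbar)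
    = ((unitF (M * q) (d * q) (mul_dvd_lvl q M d hd) : FN (M * q)) : LaurentSeries Kbar)
  rw [coe_heckeBetaBar, unitF_coe, unitF_coe, unitF_coe, coeffEmb_modularUnitSeries,
    coeffEmb_modularUnitSeries, coeffEmb_modularUnitSeries, map_mul, map_inv₀,
    qExpand_qExpand, qExpand_eq_of_eq (mul_comm q d)]
  have h1 : qExpand Kbar q (deltaR Kbar) ≠ 0 := qExpand_deltaR_ne_zero (R := Kbar) q
  have h2 : qExpand Kbar (d * q) (deltaR Kbar) ≠ 0 :=
    qExpand_deltaR_ne_zero (R := Kbar) (d * q)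
  field_simp

theorem ord_alpha_unitF (P : Place Kbar (FN (M * q)))
    (hP : 0 ≤ P.ord (Fermat.Agent.S24.jF (M * q))) :
    P.ord (heckeAlphaBar Kbar M q (unitF M d hd)) = 0 := by
  rw [alpha_unitF]
  exact ord_unitF (M * q) d _ P hP

theorem ord_beta_unitF (P : Place Kbar (FN (M * q)))
    (hP : 0 ≤ P.ord (Fermat.Agent.S24.jF (M * q))) :
    P.ord (heckeBetaBar Kbar M q (unitF M d hd)) = 0 := by
  haveI : NeZero (d * q) := ⟨Nat.mul_ne_zero (NeZero.ne d) (NeZero.ne q)⟩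
  have h1 := ord_unitF (M * q) q (q_dvd_lvl q M) P hP
  have h2 := ord_unitF (M * q) (d * q) (mul_dvd_lvl q M d hd) P hP
  have h0 : unitF (M * q) q (q_dvd_lvl q M) ≠ 0 := unitF_ne_zero (M * q) q _
  have hB0 : heckeBetaBar Kbar M q (unitF M d hd) ≠ 0 := by
    intro h
    have e := beta_unitF_mul q M d hd
    rw [h, zero_mul] at e
    exact unitF_ne_zero (M * q) (d * q) _ e.symm
  have e := congrArg P.ord (beta_unitF_mul q M d hd)
  rw [P.ord_mul hB0 h0, h1, h2, add_zero] at e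
  exact e

/-- If `f ^ n = unitF M d` (`n ≥ 1`) then `α f` has neither zeros nor poles off the cusps. -/
theorem ord_alpha_of_pow (f : FN M) (n : ℕ) (hn : n ≠ 0) (hfn : f ^ n = unitF M d hd)
    (P : Place Kbar (FN (M * q))) (hP : 0 ≤ P.ord (Fermat.Agent.S24.jF (M * q))) :
    P.ord (heckeAlphaBar Kbar M q f) = 0 := by
  have h := ord_alpha_unitF q M d hd P hP
  rw [← hfn, map_pow, RED.H17.ord_pow] at h
  have hn' : (n : ℤ) ≠ 0 := by exact_mod_cast hn
  rcases mul_eq_zero.1 h with h | h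
  · exact absurd h hn'
  · exact h

/-- If `f ^ n = unitF M d` (`n ≥ 1`) then `β f` has neither zeros nor poles off the cusps. -/
theorem ord_beta_of_pow (f : FN M) (n : ℕ) (hn : n ≠ 0) (hfn : f ^ n = unitF M d hd)
    (P : Place Kbar (FN (M * q))) (hP : 0 ≤ P.ord (Fermat.Agent.S24.jF (M * q))) :
    P.ord (heckeBetaBar Kbar M q f) = 0 := by
  have h := ord_beta_unitF q M d hd P hP
  rw [← hfn, map_pow, RED.H17.ord_pow] at h
  have hn' : (n : ℤ) ≠ 0 := by exact_mod_cast hn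
  rcases mul_eq_zero.1 h with h | h
  · exact absurd h hn'
  · exact h

end Units

/-! ### `hP` for roots of modular units -/

section RootUnit

variable (A : ValuationSubring Kbar) (q M : ℕ) [NeZero M] [NeZero (M * q)] [NeZero q]
  [hqF : Fact q.Prime] (hA : A.LiesOverPrime q) (hqM : ¬ q ∣ M) (ht : H91.TameAt M q)
  (d : ℕ) [NeZero d] (hd : d ∣ M)
  (f : FN M) (u₀ : LaurentSeries ℤ) (hf : (f : LaurentSeries Kbar) = intSer Kbar u₀)
  (n : ℕ) (hn : n ≠ 0) (hfn : f ^ n = unitF M d hd)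

include hA hqM ht hf hn hfn in
/-- **`hP` for an `n`-th root `f` of a modular unit `Δ(t)/Δ(t^d)`** with integral expansion. -/
theorem hP_root (E : IntermediateField (kV A) (LaurentSeries (kV A)))
    (hE : E = modularFunctionFieldFullC (kV A) M)
    (z : Place (kV A) ↥E) (jE u dE : ↥E)
    (hj : (jE : LaurentSeries (kV A)) = jqModC (kV A))
    (hu : (u : LaurentSeries (kV A)) = coeffMap (Int.castRingHom (kV A)) u₀)
    (hdE : (dE : LaurentSeries (kV A)) = coeffMap (Int.castRingHom (kV A)) (kdel q u₀))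
    (hz : 0 ≤ z.ord jE) : dE * (u ^ q ^ 2 - u) ∈ z.toValuationSubring :=
  hP_gen A q M hA hqM ht f u₀ hf
    (fun P hP => regAt_of_ord_nonneg (by
      rw [gA, ord_alpha_of_pow q M d hd f n hn hfn P hP]))
    (fun P hP => regAt_of_ord_nonneg (by
      rw [gB, ord_beta_of_pow q M d hd f n hn hfn P hP]))
    E hE z jE u dE hj hu hdE hz

end RootUnit

/-! ### `q = 3` (`4 ∣ M`) and `q = 2` (`9 ∣ M`): helper5's Hauptmoduln -/

section Three

variable (A : ValuationSubring Kbar) (M : ℕ) [NeZero M] [NeZero (M * 3)]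

/-- **`hP` for `q = 3`**, `ū = h̄` the reduction of the Hauptmodul of `X₀(4)`. -/
theorem hP_three (hA : A.LiesOverPrime 3) (h4 : 4 ∣ M) (h3 : ¬ 3 ∣ M)
    (E : IntermediateField (kV A) (LaurentSeries (kV A)))
    (hE : E = modularFunctionFieldFullC (kV A) M)
    (z : Place (kV A) ↥E) (jE u d : ↥E)
    (hj : (jE : LaurentSeries (kV A)) = jqModC (kV A))
    (hu : (u : LaurentSeries (kV A)) = H5.q23H3 (kV A))
    (hd : (d : LaurentSeries (kV A)) = coeffMap (Int.castRingHom (kV A)) (kdel 3 H5.q23hZ4))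
    (hz : 0 ≤ z.ord jE) : d * (u ^ 3 ^ 2 - u) ∈ z.toValuationSubring := by
  haveI : Fact (Nat.Prime 3) := ⟨Nat.prime_three⟩
  haveI : CharP (kV A) 3 := BAD.H82.charP_kV A Nat.prime_three hA
  have ht : H91.TameAt M 3 := Or.inr (Or.inl ⟨rfl, Dvd.dvd.trans (by norm_num) h4⟩)
  exact hP_root A 3 M hA h3 ht 4 h4 (H5.q23uF3 M h4) H5.q23hZ4 (H5.q23uF3_coe M h4) 3
    (by norm_num) (H5.q23uF3_cube M h4) E hE z jE u d hj
    (hu.trans (H5.coeffMap_q23hZ4 (kV A)).symm) hd hz

/-- `δ̄ ∈ κ` for `q = 3`. -/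
theorem dbar_mem_three (hA : A.LiesOverPrime 3) (h4 : 4 ∣ M) (h3 : ¬ 3 ∣ M) :
    coeffMap (Int.castRingHom (kV A)) (kdel 3 H5.q23hZ4)
      ∈ modularFunctionFieldFullC (kV A) M := by
  haveI : Fact (Nat.Prime 3) := ⟨Nat.prime_three⟩
  exact dbar_mem_gen A 3 M hA h3 (H5.q23uF3 M h4) H5.q23hZ4 (H5.q23uF3_coe M h4)

/-- **POLE-INST for `q = 3`, unconditional**: at a supersingular place `z` (`ord_z j̄ > 0`),
`h̄ - 1` is a coordinate, `δ̄` has a simple pole and `- δ̄³` a pole of order `3`. -/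
theorem pole_full_three (hA : A.LiesOverPrime 3) (h4 : 4 ∣ M) (h3 : ¬ 3 ∣ M)
    (E : IntermediateField (kV A) (LaurentSeries (kV A)))
    (hE : E = modularFunctionFieldFullC (kV A) M)
    (z : Place (kV A) ↥E) (jE u d y₂ : ↥E)
    (hj : (jE : LaurentSeries (kV A)) = jqModC (kV A))
    (hu : (u : LaurentSeries (kV A)) = H5.q23H3 (kV A))
    (hd : (d : LaurentSeries (kV A)) = coeffMap (Int.castRingHom (kV A)) (kdel 3 H5.q23hZ4))
    (hy₂ : (y₂ : LaurentSeries (kV A))
      = - coeffMap (Int.castRingHom (kV A)) (kdel 3 H5.q23hZ4) ^ 3)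
    (hz : 0 < z.ord jE) :
    z.ord (u - algebraMap (kV A) ↥E 1) = 1 ∧ (1 : kV A) ^ 3 ^ 2 = 1 ∧ z.ord d = -1 ∧
      z.ord y₂ = -((3 : ℕ) : ℤ) := by
  haveI : Fact (Nat.Prime 3) := ⟨Nat.prime_three⟩
  haveI : CharP (kV A) 3 := BAD.H82.charP_kV A Nat.prime_three hA
  have hP := hP_three A M hA h4 h3 E hE z jE u d hj hu hd hz.le
  subst hE
  have hjE : jE = H5.q23jFull A M := Subtype.ext hj
  have huE : u = H5.q23hFull3 A M h4 :=
    Subtype.ext (hu.trans (H5.q23hFull3_coe A M hA h4).symm)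
  rw [hjE] at hz
  rw [huE] at hP ⊢
  have hθ : thetaL (d : LaurentSeries (kV A)) =
      (H5.q23H3 (kV A)) ^ (3 - 1) * thetaL (H5.q23H3 (kV A)) - thetaL (H5.q23H3 (kV A)) ^ 3 := by
    rw [hd, ← H5.coeffMap_q23hZ4 (kV A)]
    exact thetaL_dbar_of_int H5.q23hZ4 (kdel 3 H5.q23hZ4) (kdel_spec 3 H5.q23hZ4)
  obtain ⟨h1, h2⟩ := H5.q23_pole_coord_three A M hA h4 h3 z hz hθ rfl hP
  refine ⟨h1, one_pow _, h2, ?_⟩
  have e : y₂ = - d ^ 3 := by
    apply Subtype.ext
    rw [hy₂]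
    show _ = -((d : LaurentSeries (kV A)) ^ 3)
    rw [hd]
  rw [e, ord_neg, RED.H17.ord_pow, h2]
  norm_num

end Three

section Two

variable (A : ValuationSubring Kbar) (M : ℕ) [NeZero M] [NeZero (M * 2)]

/-- **`hP` for `q = 2`**, `ū = h̄` the reduction of the Hauptmodul of `X₀(9)`. -/
theorem hP_two (hA : A.LiesOverPrime 2) (h9 : 9 ∣ M) (h2 : ¬ 2 ∣ M)
    (E : IntermediateField (kV A) (LaurentSeries (kV A)))
    (hE : E = modularFunctionFieldFullC (kV A) M)
    (z : Place (kV A) ↥E) (jE u d : ↥E)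
    (hj : (jE : LaurentSeries (kV A)) = jqModC (kV A))
    (hu : (u : LaurentSeries (kV A)) = H5.q23H2 (kV A))
    (hd : (d : LaurentSeries (kV A)) = coeffMap (Int.castRingHom (kV A)) (kdel 2 H5.q23hZ9))
    (hz : 0 ≤ z.ord jE) : d * (u ^ 2 ^ 2 - u) ∈ z.toValuationSubring := by
  haveI : Fact (Nat.Prime 2) := ⟨Nat.prime_two⟩
  haveI : CharP (kV A) 2 := BAD.H82.charP_kV A Nat.prime_two hA
  have ht : H91.TameAt M 2 := Or.inr (Or.inr ⟨rfl, Dvd.dvd.trans (by norm_num) h9⟩)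
  exact hP_root A 2 M hA h2 ht 9 h9 (H5.q23uF2 M h9) H5.q23hZ9 (H5.q23uF2_coe M h9) 8
    (by norm_num) (H5.q23uF2_pow M h9) E hE z jE u d hj
    (hu.trans (H5.coeffMap_q23hZ9 (kV A)).symm) hd hz

/-- `δ̄ ∈ κ` for `q = 2`. -/
theorem dbar_mem_two (hA : A.LiesOverPrime 2) (h9 : 9 ∣ M) (h2 : ¬ 2 ∣ M) :
    coeffMap (Int.castRingHom (kV A)) (kdel 2 H5.q23hZ9)
      ∈ modularFunctionFieldFullC (kV A) M := by
  haveI : Fact (Nat.Prime 2) := ⟨Nat.prime_two⟩
  exact dbar_mem_gen A 2 M hA h2 (H5.q23uF2 M h9) H5.q23hZ9 (H5.q23uF2_coe M h9)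

/-- **POLE-INST for `q = 2`, unconditional**: at a supersingular place `z` (`ord_z j̄ > 0`),
`h̄ - 1` is a coordinate, `δ̄` has a simple pole and `- δ̄²` a pole of order `2`. -/
theorem pole_full_two (hA : A.LiesOverPrime 2) (h9 : 9 ∣ M) (h2 : ¬ 2 ∣ M)
    (E : IntermediateField (kV A) (LaurentSeries (kV A)))
    (hE : E = modularFunctionFieldFullC (kV A) M)
    (z : Place (kV A) ↥E) (jE u d y₂ : ↥E)
    (hj : (jE : LaurentSeries (kV A)) = jqModC (kV A))
    (hu : (u : LaurentSeries (kV A)) = H5.q23H2 (kV A))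
    (hd : (d : LaurentSeries (kV A)) = coeffMap (Int.castRingHom (kV A)) (kdel 2 H5.q23hZ9))
    (hy₂ : (y₂ : LaurentSeries (kV A))
      = - coeffMap (Int.castRingHom (kV A)) (kdel 2 H5.q23hZ9) ^ 2)
    (hz : 0 < z.ord jE) :
    z.ord (u - algebraMap (kV A) ↥E 1) = 1 ∧ (1 : kV A) ^ 2 ^ 2 = 1 ∧ z.ord d = -1 ∧
      z.ord y₂ = -((2 : ℕ) : ℤ) := by
  haveI : Fact (Nat.Prime 2) := ⟨Nat.prime_two⟩
  haveI : CharP (kV A) 2 := BAD.H82.charP_kV A Nat.prime_two hA
  have hP := hP_two A M hA h9 h2 E hE z jE u d hj hu hd hz.le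
  subst hE
  have hjE : jE = H5.q23jFull A M := Subtype.ext hj
  have huE : u = H5.q23hFull2 A M h9 :=
    Subtype.ext (hu.trans (H5.q23hFull2_coe A M hA h9).symm)
  rw [hjE] at hz
  rw [huE] at hP ⊢
  have hθ : thetaL (d : LaurentSeries (kV A)) =
      (H5.q23H2 (kV A)) ^ (2 - 1) * thetaL (H5.q23H2 (kV A)) - thetaL (H5.q23H2 (kV A)) ^ 2 := by
    rw [hd, ← H5.coeffMap_q23hZ9 (kV A)]
    exact thetaL_dbar_of_int H5.q23hZ9 (kdel 2 H5.q23hZ9) (kdel_spec 2 H5.q23hZ9)
  obtain ⟨h1, h2'⟩ := H5.q23_pole_coord_two A M hA h9 h2 z hz hθ rfl hP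
  refine ⟨h1, one_pow _, h2', ?_⟩
  have e : y₂ = - d ^ 2 := by
    apply Subtype.ext
    rw [hy₂]
    show _ = -((d : LaurentSeries (kV A)) ^ 2)
    rw [hd]
  rw [e, ord_neg, RED.H17.ord_pow, h2']
  norm_num

end Two

end Fermat.Agent.S36.NU.H44

end
end
-- ==== END Fermat.Agent.S36.NU.H44_PoleRegGen
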