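-- GENERATED (merged mirror, NOTES/tools/trim/merge3_helper67.py): 3 modules of the originals, bodies verbatim.
import Fermat.Agent.Zm.S36_L03_001
import Fermat.Agent.Zm.S36_L09_001
import Fermat.Agent.Zm.S36_L03_002
import Fermat.Agent.Zm.S36_L09_000
import Fermat.Agent.Zm.S36_L08_001

-- ==== BEGIN Fermat.Agent.S36.NU.H74_InstA
section

/-!
# S36 / NU-B, INST-A (helper74): instances of the hypotheses of `H24.fin_local` / `H65.fin_local'`

Setting: `F = L0 A N` (inertia-fixed functions of level `N`), `R = Rur A`, `Kf = Kur A`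
(helper41), `j = j0 A N` (helper88), `A` over the prime `q`.

* `isNoetherianRing_Rur`, `isIntegrallyClosed_Rur` : `R` is noetherian and integrally closed;
* `hfg_inv`, `hfg` : **(a)** `MInt R j⁻¹ H n` and `MInt R j H n` are finitely generated;
* `isNoetherianRing_B0`, `isFractionRing_B0`, `isNoetherianRing_Boo`, `isFractionRing_Boo` :
  **(c)** for `B = intSub R j` and `B = intSub R j⁻¹`; `isNoetherianRing_chart`,
  `isFractionRing_chart` for a chart with such a coordinate ring;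
* `const_mem_of_Rur` : a valuation ring of `F` containing `R` and `1 / q` contains the constants;
* `hor_inst` : **(b)** (HOR) for every chart over `R`, from helper44's `stmt_HOR`
  (the exponent `E₀` depends only on `N`).
-/

set_option autoImplicit false
set_option synthInstance.maxHeartbeats 400000
set_option maxHeartbeats 1000000
set_option linter.style.haveILetI false
set_option linter.unusedSectionVars false

noncomputable section

open ModularCurve AlgebraicCurve IntermediateField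

namespace Fermat.Agent.S36.NU.H74

open Fermat.Agent.S24 Fermat.Agent.BAD.H88 Fermat.Agent.S36.NU.H88 Fermat.Agent.S36.NU.H23
  Fermat.Agent.S36.NU.H16 Fermat.Agent.S36.NU.H24 Fermat.Agent.S36.NU.H65
  Fermat.Agent.S36.NU.H41 Fermat.Agent.S36.NU.H17

section InstA

variable (A : ValuationSubring Kbar) (q : ℕ) (hq : q.Prime) (hA : A.LiesOverPrime q)
  (N : ℕ) [NeZero N]

include hq hA in
/-- `Rur A` is noetherian. -/
theorem isNoetherianRing_Rur : IsNoetherianRing ↥(Rur A) := by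
  haveI := isDiscreteValuationRing_Rur A q hq hA
  infer_instance

/-- `Rur A` is integrally closed. -/
theorem isIntegrallyClosed_Rur : IsIntegrallyClosed ↥(Rur A) := inferInstance

/-! ### (a) finiteness -/

include hq hA in
/-- **(a) `hfg`** for the chart at infinity. -/
theorem hfg_inv (H : ↥(L0 A N)) (hH : H ≠ 0) (n : ℕ) (hn : 0 < n) :
    (MInt ↥(Rur A) (j0 A N)⁻¹ H n hn).FG := by
  haveI := _root_.Fermat.Agent.S36.NU.H74.isNoetherianRing_Rur A q hq hA
  exact MInt_inv_fg_of_finite ↥(Rur A) ↥(Kur A) (j0 A N) (transcendental_j0 A N) H n hn hH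

include hq hA in
/-- **(a)** for the chart `0`. -/
theorem hfg (H : ↥(L0 A N)) (hH : H ≠ 0) (n : ℕ) (hn : 0 < n) :
    (MInt ↥(Rur A) (j0 A N) H n hn).FG := by
  haveI := _root_.Fermat.Agent.S36.NU.H74.isNoetherianRing_Rur A q hq hA
  exact MInt_fg_of_finite ↥(Rur A) ↥(Kur A) (j0 A N) (transcendental_j0 A N) H n hn hH

/-! ### (c) the coordinate rings -/

theorem finiteDimensional_inv :
    FiniteDimensional ↥((↥(Kur A))⟮(j0 A N)⁻¹⟯) ↥(L0 A N) := by
  rw [_root_.Fermat.Agent.S36.NU.H17.adjoin_inv_eq]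
  exact finiteDimensional_L0 A N

theorem isSeparable_inv :
    Algebra.IsSeparable ↥((↥(Kur A))⟮(j0 A N)⁻¹⟯) ↥(L0 A N) := by
  rw [_root_.Fermat.Agent.S36.NU.H17.adjoin_inv_eq]
  exact isSeparable_L0 A N

theorem transcendental_j0_inv : Transcendental ↥(Kur A) (j0 A N)⁻¹ :=
  fun halg => transcendental_j0 A N (IsAlgebraic.inv_iff.mp halg)

include hq hA in
theorem isNoetherianRing_B0 : IsNoetherianRing ↥(intSub ↥(Rur A) (j0 A N)) := by
  haveI := _root_.Fermat.Agent.S36.NU.H74.isNoetherianRing_Rur A q hq hA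
  exact isNoetherianRing_intSub ↥(Rur A) ↥(Kur A) (j0 A N) (transcendental_j0 A N)

theorem isFractionRing_B0 : IsFractionRing ↥(intSub ↥(Rur A) (j0 A N)) ↥(L0 A N) :=
  isFractionRing_intSub ↥(Rur A) ↥(Kur A) (j0 A N)

include hq hA in
theorem isNoetherianRing_Boo : IsNoetherianRing ↥(intSub ↥(Rur A) (j0 A N)⁻¹) := by
  haveI := _root_.Fermat.Agent.S36.NU.H74.isNoetherianRing_Rur A q hq hA
  haveI := finiteDimensional_inv A N
  haveI := isSeparable_inv A N
  exact isNoetherianRing_intSub ↥(Rur A) ↥(Kur A) (j0 A N)⁻¹ (transcendental_j0_inv A N)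

theorem isFractionRing_Boo : IsFractionRing ↥(intSub ↥(Rur A) (j0 A N)⁻¹) ↥(L0 A N) := by
  haveI := finiteDimensional_inv A N
  exact isFractionRing_intSub ↥(Rur A) ↥(Kur A) (j0 A N)⁻¹

variable {k ι : Type*} {κ : ι → Type*} [Field k] [∀ i, Field (κ i)] [∀ i, Algebra k (κ i)]

include hq hA in
/-- **(c)** a chart with coordinate ring `intSub R j` or `intSub R j⁻¹` is noetherian. -/
theorem isNoetherianRing_chart (C : Chart ↥(Rur A) ↥(L0 A N) k ι κ)
    (hC : C.B = intSub ↥(Rur A) (j0 A N) ∨ C.B = intSub ↥(Rur A) (j0 A N)⁻¹) :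
    IsNoetherianRing ↥C.B := by
  rcases hC with h | h
  · rw [h]; exact isNoetherianRing_B0 A q hq hA N
  · rw [h]; exact isNoetherianRing_Boo A q hq hA N

/-- **(c)** `F` is the fraction field of such a chart. -/
theorem isFractionRing_chart (C : Chart ↥(Rur A) ↥(L0 A N) k ι κ)
    (hC : C.B = intSub ↥(Rur A) (j0 A N) ∨ C.B = intSub ↥(Rur A) (j0 A N)⁻¹) :
    IsFractionRing ↥C.B ↥(L0 A N) := by
  rcases hC with h | h
  · rw [h]; exact isFractionRing_B0 A N
  · rw [h]; exact isFractionRing_Boo A N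

/-! ### (b) HOR -/

include hq hA in
/-- A valuation ring of `L0 A N` which contains `Rur A` and `1 / q` contains the constants. -/
theorem const_mem_of_Rur (W : ValuationSubring ↥(L0 A N))
    (hR : ∀ r : ↥(Rur A), algebraMap ↥(Rur A) ↥(L0 A N) r ∈ W)
    (hqW : (algebraMap ↥(Rur A) ↥(L0 A N) ((q : ℕ) : ↥(Rur A)))⁻¹ ∈ W)
    (c : ↥(L0 A N)) (hc : ∃ c' : Kbar, (c : FN N) = algebraMap Kbar (FN N) c') : c ∈ W := by
  obtain ⟨c', hc'⟩ := hc
  have hcK : c' ∈ Kur A := by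
    rw [mem_Kur]
    have h1 : algebraMap Kbar (FN N) c' ∈ L0 A N := hc' ▸ c.2
    exact (const_mem_L0_iff A c').1 h1
  by_cases h0 : c' = 0
  · have : c = 0 := Subtype.ext (by rw [hc', h0, map_zero]; rfl)
    rw [this]
    exact W.zero_mem
  have hy0 : (⟨c', hcK⟩ : ↥(Kur A)) ≠ 0 := fun h => h0 (congrArg Subtype.val h)
  obtain ⟨m, u, hu⟩ := exists_unit_mul_zpow A q hq hA ⟨c', hcK⟩ hy0
  -- `c = u * q ^ m`
  set Q : ↥(L0 A N) := algebraMap ↥(Rur A) ↥(L0 A N) ((q : ℕ) : ↥(Rur A)) with hQ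
  have e : c = algebraMap ↥(Rur A) ↥(L0 A N) (u : ↥(Rur A)) * Q ^ m := by
    have h1 : c = algebraMap ↥(Kur A) ↥(L0 A N) ⟨c', hcK⟩ := Subtype.ext hc'
    have h2 : algebraMap ↥(Kur A) ↥(L0 A N) (((u : ↥(Rur A)) : ↥(Kur A)))
        = algebraMap ↥(Rur A) ↥(L0 A N) (u : ↥(Rur A)) := rfl
    have h3 : algebraMap ↥(Kur A) ↥(L0 A N) ((q : ℕ) : ↥(Kur A)) = Q := by
      rw [hQ, map_natCast, map_natCast]
    rw [h1, hu, map_mul, map_zpow₀, h2, h3]
  rw [e]
  refine W.mul_mem _ _ (hR _) ?_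
  rcases Int.le_total 0 m with hm | hm
  · obtain ⟨a, rfl⟩ := Int.eq_ofNat_of_zero_le hm
    rw [zpow_natCast]
    exact W.pow_mem (hR _) a
  · obtain ⟨a, ha⟩ := Int.eq_ofNat_of_zero_le (neg_nonneg.2 hm)
    have : m = -(a : ℤ) := by omega
    rw [this, zpow_neg, zpow_natCast, ← inv_pow]
    exact W.pow_mem hqW a

/-- **(b) HOR**: there is an exponent `E₀ ≠ 0` (depending only on `N`) such that for every
inertia-fixed function `h ≠ 0` whose divisor over `ℚ̄` is divisible by `n`, the function `h ^ E₀`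
satisfies (HOR) in every chart over `Rur A`. -/
theorem hor_inst (N : ℕ) [NeZero N] :
    ∃ E₀ : ℕ, E₀ ≠ 0 ∧ ∀ (A : ValuationSubring Kbar) (q : ℕ), q.Prime → A.LiesOverPrime q →
      ∀ (n : ℕ) (h : ↥(L0 A N)), h ≠ 0 →
      (∀ P : Place Kbar (FN N), (n : ℤ) ∣ P.ord (h : FN N)) →
      ∀ {k ι : Type*} {κ : ι → Type*} [Field k] [∀ i, Field (κ i)] [∀ i, Algebra k (κ i)]
        (C : Chart ↥(Rur A) ↥(L0 A N) k ι κ),
        HOR C ((q : ℕ) : ↥(Rur A)) n (h ^ E₀) := by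
  obtain ⟨E₀, hE₀, hH⟩ := Fermat.Agent.S36.NU.H44.stmt_HOR N
  refine ⟨E₀, hE₀, ?_⟩
  intro A q hq hA n h hh0 hdiv k ι κ _ _ _ C W hB hqW hW
  refine hH A n h hh0 hdiv W (fun c hc => ?_) hW
  refine const_mem_of_Rur A q hq hA N W (fun r => ?_) hqW c hc
  exact hB ⟨algebraMap ↥(Rur A) ↥(L0 A N) r, C.B.algebraMap_mem r⟩

end InstA

end Fermat.Agent.S36.NU.H74

end
end
-- ==== END Fermat.Agent.S36.NU.H74_InstA

-- ==== BEGIN Fermat.Agent.S36.NU.H99_PtAsm
section

/-!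
# S36 / NU-B, (M4) assembly of the local data at a closed point (helper99)

* `branch_isPID` : the valuation ring of a branch of a noetherian chart is a principal ideal ring
  (it is a quotient of the local ring `B_𝔪`);
* `branch_ne_top` : it is not the whole residue field if some function of `B` is not constant on
  the component;
* `branchPlace` : the place of the component defined by a branch;
* `pointDataAt_of_dichotomy` : **the local data at a closed point `𝔪`** (`H65.PointDataAt`) from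
  - a branch through `𝔪` on every component through `𝔪` (M2),
  - witnesses `wit i ∈ B`: if `wit i ∉ 𝔪 ⊇ Icomp i` then `𝔪` has a local equation datum and `i`
    is the only component through `𝔪` (the ordinary points),
  - the zeros of `rd i (wit i)` on the component `i` are the points `pt i z`, `z ∈ SS`,
  - a local equation datum at the points `𝔪_z`, `z ∈ SS` (LOCEQ-SS).
-/

set_option autoImplicit false
set_option linter.style.haveILetI false

noncomputable section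

open AlgebraicCurve

namespace Fermat.Agent.S36.NU.H99

open Fermat.Agent.RED.H17 Fermat.Agent.RED Fermat.Agent.S36.NU.H16 Fermat.Agent.S36.NU.H79
  Fermat.Agent.S36.NU.H24 Fermat.Agent.S36.NU.H65 Fermat.Agent.S36.NU.H17

section BranchPlace

variable {R F k ι : Type*} {κ : ι → Type*} [CommRing R] [Field F] [Algebra R F]
  [Field k] [∀ i, Field (κ i)] [∀ i, Algebra k (κ i)]
  {C : Chart R F k ι κ} {𝔪 : Ideal C.B} {i : ι}

/-- The valuation ring of a branch of a noetherian chart is noetherian, hence principal. -/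
theorem branch_isPID [IsNoetherianRing C.B] [h𝔪 : 𝔪.IsPrime] (b : Branch C 𝔪 i) :
    IsPrincipalIdealRing b.O := by
  have hnoe : IsNoetherianRing (Localization.AtPrime 𝔪) :=
    IsLocalization.isNoetherianRing 𝔪.primeCompl _ inferInstance
  set ψ : C.B →+* b.O := (C.rdB i).codRestrict b.O b.reg with hψ
  have hunit : ∀ a : C.B, a ∉ 𝔪 → IsUnit (ψ a) := fun a ha =>
    (ValuationSubring.valuation_eq_one_iff b.O (ψ a)).2 (b.val_rdB_eq_one ha)
  have hg : ∀ y : 𝔪.primeCompl, IsUnit (ψ y) := fun y => hunit y y.2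
  set φ : Localization.AtPrime 𝔪 →+* b.O := IsLocalization.lift hg with hφ
  have hφA : ∀ a : C.B, φ (algebraMap C.B (Localization.AtPrime 𝔪) a) = ψ a :=
    fun a => IsLocalization.lift_eq hg a
  have hφsurj : Function.Surjective φ := by
    intro y
    obtain ⟨b', β, hβ, hb'⟩ := b.normal y y.2
    refine ⟨IsLocalization.mk' (Localization.AtPrime 𝔪) b' (⟨β, hβ⟩ : 𝔪.primeCompl), ?_⟩
    have h1 : IsLocalization.mk' (Localization.AtPrime 𝔪) b' (⟨β, hβ⟩ : 𝔪.primeCompl)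
        * algebraMap C.B (Localization.AtPrime 𝔪) β
          = algebraMap C.B (Localization.AtPrime 𝔪) b' :=
      IsLocalization.mk'_spec (Localization.AtPrime 𝔪) b' ⟨β, hβ⟩
    have h2 := congrArg φ h1
    rw [map_mul, hφA, hφA] at h2
    have h3 : ψ b' = y * ψ β := Subtype.ext hb'
    rw [h3] at h2
    exact mul_right_cancel₀ (hunit β hβ).ne_zero h2
  haveI : IsNoetherianRing b.O := isNoetherianRing_of_surjective _ b.O φ hφsurj
  exact IsPrincipalIdealRing.of_isNoetherianRing_of_isBezout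

/-- The valuation ring of a branch is not the whole field if some function of `B` is not
constant on the component. -/
theorem branch_ne_top (b : Branch C 𝔪 i) (β : C.B)
    (hβ : ∀ c : k, C.rdB i β ≠ algebraMap k (κ i) c) : b.O ≠ ⊤ := by
  intro htop
  obtain ⟨c, hc⟩ := b.value _ (b.reg β)
  apply hβ c
  rw [ValuationSubring.mem_nonunits_iff] at hc
  by_contra hne
  have h0 : C.rdB i β - algebraMap k (κ i) c ≠ 0 := sub_ne_zero.2 hne
  have h1 : (C.rdB i β - algebraMap k (κ i) c)⁻¹ ∈ b.O := by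
    rw [htop]
    exact ValuationSubring.mem_top _
  rw [← ValuationSubring.valuation_le_one_iff, map_inv₀] at h1
  have h2 : (1 : b.O.ValueGroup) ≤ b.O.valuation (C.rdB i β - algebraMap k (κ i) c) := by
    have hv0 : b.O.valuation (C.rdB i β - algebraMap k (κ i) c) ≠ 0 :=
      (Valuation.ne_zero_iff _).2 h0
    exact (inv_le_one₀ (zero_lt_iff.2 hv0)).1 h1
  exact absurd hc (not_lt.2 h2)

/-- **The place of the component defined by a branch.** -/
def branchPlace [IsNoetherianRing C.B] [𝔪.IsPrime] (b : Branch C 𝔪 i) (hne : b.O ≠ ⊤) :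
    Place k (κ i) where
  toValuationSubring := b.O
  algebraMap_mem' := fun c => Branch_const_mem b c
  ne_top' := hne
  isPrincipalIdealRing' := branch_isPID b

theorem branchPlace_O [IsNoetherianRing C.B] [𝔪.IsPrime] (b : Branch C 𝔪 i) (hne : b.O ≠ ⊤) :
    (branchPlace b hne).toValuationSubring = b.O := rfl

theorem regAt_branchPlace [IsNoetherianRing C.B] [𝔪.IsPrime] (b : Branch C 𝔪 i)
    (hne : b.O ≠ ⊤) (β : C.B) : RegAt (branchPlace b hne) (C.rdB i β) :=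
  (regAt_iff_mem _ _).2 (b.reg β)

theorem vanAt_branchPlace_iff [IsNoetherianRing C.B] [𝔪.IsPrime] (b : Branch C 𝔪 i)
    (hne : b.O ≠ ⊤) (β : C.B) : VanAt (branchPlace b hne) (C.rdB i β) ↔ β ∈ 𝔪 := by
  rw [vanAt_iff_mem_nonunits, b.van]
  rfl

end BranchPlace

section Asm

variable {R F k ι Z K L : Type*} {κ : ι → Type*} [CommRing R] [Field F] [Algebra R F]
  [Field k] [∀ i, Field (κ i)] [∀ i, Algebra k (κ i)] [Fintype ι]
  [Field K] [Field L] [Algebra K L] [Algebra F L]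
  {K' L' L₁ L₂ : Type*} [Field K'] [Field L'] [Algebra K' L'] [Field L₁] [Algebra k L₁]
  [Field L₂] [Algebra k L₂]

/-- **The local data at a closed point**, from the dichotomy ordinary / supersingular. -/
theorem pointDataAt_of_dichotomy [Infinite k] (C : Chart R F k ι κ) [IsNoetherianRing C.B]
    (D : NUData K F L k ι Z κ K' L' L₁ L₂) (q : R)
    (hc : Compat C D.T) (hP : HasPrincipalDivisors K L)
    (hSS0 : ∀ z ∈ D.SS, InChart C D.T z)
    (wit : ι → C.B)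
    (hnc : ∀ i, ∃ β : C.B, ∀ c : k, C.rdB i β ≠ algebraMap k (κ i) c)
    (hsurj : ∀ (i : ι) (v : Place k (κ i)), (∀ β : C.B, RegAt v (C.rdB i β)) →
      ∃ z, D.T.pt i z = v)
    (hSSchar : ∀ (i : ι) (z : Z), (∀ β : C.B, RegAt (D.T.pt i z) (C.rdB i β)) →
      VanAt (D.T.pt i z) (C.rdB i (wit i)) → z ∈ D.SS)
    (hss : ∀ z ∈ D.SS, ∀ 𝔪 : Ideal C.B, 𝔪.IsMaximal →
      (∀ β : C.B, β ∈ 𝔪 ↔ VanAt (D.T.pt D.i₂₀ z) (C.rdB D.i₂₀ β)) → Nonempty (LocEq C q 𝔪))
    (𝔪 : Ideal C.B) (hmax : 𝔪.IsMaximal)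
    (hbr : ∀ i, C.Icomp i ≤ 𝔪 → Nonempty (Branch C 𝔪 i))
    (hord : ∀ i, C.Icomp i ≤ 𝔪 → wit i ∉ 𝔪 →
      Nonempty (LocEq C q 𝔪) ∧ ∀ i', C.Icomp i' ≤ 𝔪 → i' = i)
    (hex : ∃ i, C.Icomp i ≤ 𝔪) : PointDataAt C D q 𝔪 := by
  haveI : 𝔪.IsPrime := hmax.isPrime
  obtain ⟨i, hi⟩ := hex
  by_cases hw : wit i ∈ 𝔪
  · obtain ⟨b⟩ := hbr i hi
    obtain ⟨β₀, hβ₀⟩ := hnc i
    have hne : b.O ≠ ⊤ := branch_ne_top b β₀ hβ₀
    obtain ⟨z, hz⟩ := hsurj i (branchPlace b hne) (regAt_branchPlace b hne)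
    have hreg : ∀ β : C.B, RegAt (D.T.pt i z) (C.rdB i β) := by
      rw [hz]
      exact regAt_branchPlace b hne
    have hvan : ∀ β : C.B, β ∈ 𝔪 ↔ VanAt (D.T.pt i z) (C.rdB i β) := by
      intro β
      rw [hz]
      exact (vanAt_branchPlace_iff b hne β).symm
    have hzSS : z ∈ D.SS := hSSchar i z hreg ((hvan _).1 hw)
    have hIn : InChart C D.T z := hSS0 z hzSS
    have hg : Glued D.T z := D.glue z hzSS
    have h20 : ∀ β : C.B, β ∈ 𝔪 ↔ VanAt (D.T.pt D.i₂₀ z) (C.rdB D.i₂₀ β) := by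
      intro β
      rw [hvan, ← mem_ptMax hc hP hIn i]
      exact mem_ptMax_iff hc hP hIn hg i D.i₂₀ β
    exact ⟨hbr, hss z hzSS 𝔪 hmax h20, Or.inr ⟨z, hzSS, hIn, i, hvan⟩⟩
  · obtain ⟨hL, h1⟩ := hord i hi hw
    exact ⟨hbr, hL, Or.inl ⟨i, h1⟩⟩

/-- **The local data at all closed points of the special fibre of a chart.** -/
theorem pointData_of_dichotomy [Infinite k] (C : Chart R F k ι κ) [IsNoetherianRing C.B]
    (D : NUData K F L k ι Z κ K' L' L₁ L₂) (q : R)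
    (hc : Compat C D.T) (hP : HasPrincipalDivisors K L)
    (hSS0 : ∀ z ∈ D.SS, InChart C D.T z)
    (wit : ι → C.B)
    (hnc : ∀ i, ∃ β : C.B, ∀ c : k, C.rdB i β ≠ algebraMap k (κ i) c)
    (hsurj : ∀ (i : ι) (v : Place k (κ i)), (∀ β : C.B, RegAt v (C.rdB i β)) →
      ∃ z, D.T.pt i z = v)
    (hSSchar : ∀ (i : ι) (z : Z), (∀ β : C.B, RegAt (D.T.pt i z) (C.rdB i β)) →
      VanAt (D.T.pt i z) (C.rdB i (wit i)) → z ∈ D.SS)
    (hss : ∀ z ∈ D.SS, ∀ 𝔪 : Ideal C.B, 𝔪.IsMaximal →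
      (∀ β : C.B, β ∈ 𝔪 ↔ VanAt (D.T.pt D.i₂₀ z) (C.rdB D.i₂₀ β)) → Nonempty (LocEq C q 𝔪))
    (hbr : ∀ 𝔪 : Ideal C.B, 𝔪.IsMaximal → ∀ i, C.Icomp i ≤ 𝔪 → Nonempty (Branch C 𝔪 i))
    (hord : ∀ 𝔪 : Ideal C.B, 𝔪.IsMaximal → ∀ i, C.Icomp i ≤ 𝔪 → wit i ∉ 𝔪 →
      Nonempty (LocEq C q 𝔪) ∧ ∀ i', C.Icomp i' ≤ 𝔪 → i' = i) :
    PointData C D q := fun 𝔪 hmax hex =>
  pointDataAt_of_dichotomy C D q hc hP hSS0 wit hnc hsurj hSSchar hss 𝔪 hmax (hbr 𝔪 hmax)
    (hord 𝔪 hmax) hex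

end Asm

end Fermat.Agent.S36.NU.H99

end
end
-- ==== END Fermat.Agent.S36.NU.H99_PtAsm

-- ==== BEGIN Fermat.Agent.S36.NU.H99_Units3L
section

/-!
# S36 / NU-B, leaf (M4) LOCEQ, part UNITS3 (helper99): the witnesses on the inertia-fixed functions

`L₀ = L0 A (M q²)` (helper23), `V20o`, `V11o`, `V02o` the three valuation rings of `L₀`.

* `eps1o`, `eps2o`, `E20o`, `E02o`, `E11o : L₀` (rational coefficients);
* membership and divisibility by `q` for the three valuations (`E20o_*`, `E02o_*`, `E11o_*`);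
* the reductions: `HU = red U = Δ~(t)/Δ~(t^q)`,
  `red₂₀ eps1 = HU`, `red₂₀ eps2 = HU(t^q)`, `red₁₁ eps1 = HU`, `red₁₁ E11 = HU²`,
  `red₀₂ E02 = HU(t^q)`;
* congruences: `eps2 - eps1 ^ q ∈ 𝔪_{V₂₀}` (over `q`), `E11 - eps1 ^ 2 ∈ 𝔪_{V₁₁}`.
-/

set_option autoImplicit false
set_option synthInstance.maxHeartbeats 400000
set_option maxHeartbeats 1000000
set_option linter.unusedSectionVars false
set_option linter.style.haveILetI false

noncomputable section

open ModularCurve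
open Fermat.Agent.S24 Fermat.Agent.BAD.H88 Fermat.Agent.BAD.H30 Fermat.Agent.BAD.H21
open Fermat.Agent.S28 Fermat.Agent.S28.H73 Fermat.Agent.RED.H73 Fermat.Agent.RED.H17
open Fermat.Agent.S36.NU.H88 Fermat.Agent.S36.NU.H23 Fermat.Agent.S36.NU.H82

namespace Fermat.Agent.S36.NU.H99

section UnitsL

variable (A : ValuationSubring Kbar)
variable (q M : ℕ) (B k : ℤ) (hB : B * M + k * q = 1) (hq : q.Prime) [NeZero M] [NeZero q]
  [NeZero (M * q)] [NeZero (M * q * q)]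

/-! ### Inertia-fixed -/

theorem U3_mem_L0 : U3 q M ∈ L0 A (M * q) := by
  rw [mem_L0_iff_coeffMap]
  intro σ _
  rw [U3, unitF_coe]
  exact coeffMap_coeffEmb σ _

theorem eps1_mem_L0 : eps1 q M ∈ L0 A (M * q * q) :=
  alpha_mem_L0 A (M * q) q _ (U3_mem_L0 A q M)

theorem eps2_mem_L0 : eps2 q M ∈ L0 A (M * q * q) :=
  beta_mem_L0 A (M * q) q _ (U3_mem_L0 A q M)

theorem cQ_mem_L0 : cQ q M ∈ L0 A (M * q * q) := by
  rw [const_mem_L0_iff]
  intro σ _
  exact map_natCast σ q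

theorem E20_mem_L0 : E20 q M ∈ L0 A (M * q * q) := eps2_mem_L0 A q M

theorem E02_mem_L0 : E02 q M ∈ L0 A (M * q * q) :=
  mul_mem (pow_mem (cQ_mem_L0 A q M) 12) (inv_mem (eps1_mem_L0 A q M))

theorem E11_mem_L0 : E11 q M ∈ L0 A (M * q * q) :=
  mul_mem (mul_mem (pow_mem (cQ_mem_L0 A q M) 12) (eps1_mem_L0 A q M))
    (inv_mem (eps2_mem_L0 A q M))

/-- `eps1` as an inertia-fixed function. -/
def eps1o : ↥(L0 A (M * q * q)) := ⟨eps1 q M, eps1_mem_L0 A q M⟩

/-- `eps2` as an inertia-fixed function. -/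
def eps2o : ↥(L0 A (M * q * q)) := ⟨eps2 q M, eps2_mem_L0 A q M⟩

/-- `E20` as an inertia-fixed function. -/
def E20o : ↥(L0 A (M * q * q)) := ⟨E20 q M, E20_mem_L0 A q M⟩

/-- `E02` as an inertia-fixed function. -/
def E02o : ↥(L0 A (M * q * q)) := ⟨E02 q M, E02_mem_L0 A q M⟩

/-- `E11` as an inertia-fixed function. -/
def E11o : ↥(L0 A (M * q * q)) := ⟨E11 q M, E11_mem_L0 A q M⟩

theorem coe_natCast_L0 (n : ℕ) :
    (((n : ℕ) : ↥(L0 A (M * q * q))) : FN (M * q * q)) = ((n : ℕ) : FN (M * q * q)) := rfl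

theorem cQ_eq_natCast : cQ q M = ((q : ℕ) : FN (M * q * q)) := by
  rw [cQ, map_natCast]

/-- Transfer of divisibility by `q` to the inertia-fixed functions. -/
theorem div_o (V : ValuationSubring (FN (M * q * q))) (x : ↥(L0 A (M * q * q)))
    (h : ∃ f' ∈ V, (x : FN (M * q * q)) = cQ q M * f') :
    ∃ f' ∈ resV0 (L0 A (M * q * q)) V, x = ((q : ℕ) : ↥(L0 A (M * q * q))) * f' := by
  obtain ⟨f', hf', hx⟩ := h
  have h0 := cQ_ne_zero q M
  have hf : f' = (cQ q M)⁻¹ * (x : FN (M * q * q)) := by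
    rw [hx]
    field_simp
  have hfL : f' ∈ L0 A (M * q * q) := by
    rw [hf]
    exact mul_mem (inv_mem (cQ_mem_L0 A q M)) x.2
  refine ⟨⟨f', hfL⟩, hf', ?_⟩
  apply Subtype.ext
  show (x : FN (M * q * q)) = ((q : ℕ) : FN (M * q * q)) * f'
  rw [← cQ_eq_natCast, hx]

/-! ### The three valuations -/

theorem E20o_mem20 : E20o A q M ∈ V20o A q M := E20_mem20 A q M

theorem E20o_inv_mem20 : (E20o A q M)⁻¹ ∈ V20o A q M := E20_inv_mem20 A q M

include hq in
theorem E20o_div_mem11 (hA : (q : Kbar) ∈ A) :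
    ∃ f' ∈ V11o A q M B k hB hq, E20o A q M = ((q : ℕ) : ↥(L0 A (M * q * q))) * f' :=
  div_o A q M _ _ (E20_div_mem11 A q M B k hB hq hA)

include hq in
theorem E20o_div_mem02 (hA : (q : Kbar) ∈ A) :
    ∃ f' ∈ V02o A q M B k hB, E20o A q M = ((q : ℕ) : ↥(L0 A (M * q * q))) * f' :=
  div_o A q M _ _ (E20_div_mem02 A q M B k hB hq hA)

include hq in
theorem E02o_mem02 : E02o A q M ∈ V02o A q M B k hB := E02_mem02 A q M B k hB hq

include hq in
theorem E02o_inv_mem02 : (E02o A q M)⁻¹ ∈ V02o A q M B k hB := E02_inv_mem02 A q M B k hB hq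

theorem E02o_div_mem20 (hA : (q : Kbar) ∈ A) :
    ∃ f' ∈ V20o A q M, E02o A q M = ((q : ℕ) : ↥(L0 A (M * q * q))) * f' :=
  div_o A q M _ _ (E02_div_mem20 A q M hA)

include hq in
theorem E02o_div_mem11 (hA : (q : Kbar) ∈ A) :
    ∃ f' ∈ V11o A q M B k hB hq, E02o A q M = ((q : ℕ) : ↥(L0 A (M * q * q))) * f' :=
  div_o A q M _ _ (E02_div_mem11 A q M B k hB hq hA)

include hq in
theorem E11o_mem11 : E11o A q M ∈ V11o A q M B k hB hq := E11_mem11 A q M B k hB hq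

include hq in
theorem E11o_inv_mem11 : (E11o A q M)⁻¹ ∈ V11o A q M B k hB hq :=
  E11_inv_mem11 A q M B k hB hq

theorem E11o_div_mem20 (hA : (q : Kbar) ∈ A) :
    ∃ f' ∈ V20o A q M, E11o A q M = ((q : ℕ) : ↥(L0 A (M * q * q))) * f' :=
  div_o A q M _ _ (E11_div_mem20 A q M hA)

include hq in
theorem E11o_div_mem02 (hA : (q : Kbar) ∈ A) :
    ∃ f' ∈ V02o A q M B k hB, E11o A q M = ((q : ℕ) : ↥(L0 A (M * q * q))) * f' :=
  div_o A q M _ _ (E11_div_mem02 A q M B k hB hq hA)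

/-! ### `eps1`, `eps2` are units of `V₂₀`, `eps1` is a unit of `V₁₁` -/

theorem eps1o_mem20 : eps1o A q M ∈ V20o A q M :=
  (alpha_mem_V20_iff A q M _).2 (U3_mem A q M)

theorem eps1o_inv_mem20 : (eps1o A q M)⁻¹ ∈ V20o A q M := by
  show (eps1 q M)⁻¹ ∈ V20 A (M * q * q)
  rw [eps1, ← map_inv₀]
  exact (alpha_mem_V20_iff A q M _).2 (U3_inv_mem A q M)

theorem eps2o_mem20 : eps2o A q M ∈ V20o A q M := E20_mem20 A q M

include hq in
theorem eps1o_mem11 : eps1o A q M ∈ V11o A q M B k hB hq :=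
  (alpha_mem_V11_iff A q M B k hB hq _).2 (U3_mem A q M)

include hq in
theorem eps1o_inv_mem11 : (eps1o A q M)⁻¹ ∈ V11o A q M B k hB hq := by
  show (eps1 q M)⁻¹ ∈ V11 A (M * q * q) q M B k (lvl q M) hB hq
  rw [eps1, ← map_inv₀]
  exact (alpha_mem_V11_iff A q M B k hB hq _).2 (U3_inv_mem A q M)

/-! ### The reductions -/

/-- `HU = red U = Δ~(t)/Δ~(t^q)`. -/
def HU : LaurentSeries (kV A) :=
  ((red20 A (M * q) ⟨U3 q M, U3_mem A q M⟩ : F20 A (M * q)) : LaurentSeries (kV A))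

theorem HU_eq : HU A q M = deltaR (kV A) * (qExpand (kV A) q (deltaR (kV A)))⁻¹ :=
  gaussRes_unitF A (M * q) q (dvd_mul_left q M)

theorem HU_ne_zero : HU A q M ≠ 0 := by
  intro h
  exact gaussRes_unitF_ne_zero A (M * q) q (dvd_mul_left q M) (Subtype.ext h)

theorem s20_eps1 : s20 A q M ⟨eps1o A q M, eps1o_mem20 A q M⟩ = HU A q M :=
  red20_alpha A q M (U3 q M) (U3_mem A q M) _

theorem s20_eps2 : s20 A q M ⟨eps2o A q M, eps2o_mem20 A q M⟩
    = qExpand (kV A) q (HU A q M) :=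
  red20_beta A q M (U3 q M) (U3_mem A q M) _

include hq in
theorem s11_eps1 : s11 A q M B k hB hq ⟨eps1o A q M, eps1o_mem11 A q M B k hB hq⟩
    = HU A q M :=
  red11_alpha A q M B k hB hq (U3 q M) (U3_mem A q M) _

/-! ### More reductions: `E11`, `E02` -/

/-- `X = β (q¹² / U)`, the second factor of `E11 = α U · β (q¹² / U)`. -/
def X11 : FN (M * q * q) := heckeBetaBar Kbar (M * q) q (cq q M ^ 12 * (U3 q M)⁻¹)

theorem cq_mem_L0 : cq q M ∈ L0 A (M * q) := by
  rw [const_mem_L0_iff]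
  intro σ _
  exact map_natCast σ q

theorem X11_mem_L0 : X11 q M ∈ L0 A (M * q * q) :=
  beta_mem_L0 A (M * q) q _
    (mul_mem (pow_mem (cq_mem_L0 A q M) 12) (inv_mem (U3_mem_L0 A q M)))

/-- `X11` as an inertia-fixed function. -/
def X11o : ↥(L0 A (M * q * q)) := ⟨X11 q M, X11_mem_L0 A q M⟩

theorem E11o_eq : E11o A q M = eps1o A q M * X11o A q M :=
  Subtype.ext (E11_eq q M)

include hq in
theorem wL_X11_arg : wL q M B k hB hq (cq q M ^ 12 * (U3 q M)⁻¹) = U3 q M := by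
  rw [wL_inv_U3 q M B k hB hq 12 le_rfl]
  simp

include hq in
theorem X11o_mem11 : X11o A q M ∈ V11o A q M B k hB hq := by
  show X11 q M ∈ V11 A (M * q * q) q M B k (lvl q M) hB hq
  rw [X11, beta_mem_V11_iff, wL_X11_arg q M B k hB hq]
  exact U3_mem A q M

include hq in
theorem s11_X11 (hA : (q : Kbar) ∈ A.nonunits) :
    s11 A q M B k hB hq ⟨X11o A q M, X11o_mem11 A q M B k hB hq⟩ = HU A q M := by
  have hw : wL q M B k hB hq (cq q M ^ 12 * (U3 q M)⁻¹) ∈ V20 A (M * q) := by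
    rw [wL_X11_arg q M B k hB hq]
    exact U3_mem A q M
  have h := red11_beta A q M B k hB hq hA (cq q M ^ 12 * (U3 q M)⁻¹) hw
    (X11o_mem11 A q M B k hB hq)
  have e : (⟨wL q M B k hB hq (cq q M ^ 12 * (U3 q M)⁻¹), hw⟩ : ↥(V20 A (M * q)))
      = ⟨U3 q M, U3_mem A q M⟩ := Subtype.ext (wL_X11_arg q M B k hB hq)
  rw [e] at h
  exact h

include hq in
/-- `red₁₁ E11 = HU²`. -/
theorem s11_E11 (hA : (q : Kbar) ∈ A.nonunits) :
    s11 A q M B k hB hq ⟨E11o A q M, E11o_mem11 A q M B k hB hq⟩ = HU A q M * HU A q M := by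
  have e : (⟨E11o A q M, E11o_mem11 A q M B k hB hq⟩ : ↥(V11o A q M B k hB hq))
      = ⟨eps1o A q M, eps1o_mem11 A q M B k hB hq⟩
        * ⟨X11o A q M, X11o_mem11 A q M B k hB hq⟩ := Subtype.ext (E11o_eq A q M)
  rw [e, map_mul, s11_eps1, s11_X11 A q M B k hB hq hA]

include hq in
/-- `red₀₂ E02 = HU(t^q)`. -/
theorem s02_E02 : s02 A q M B k hB ⟨E02o A q M, E02o_mem02 A q M B k hB hq⟩
    = qExpand (kV A) q (HU A q M) := by
  have hw : wL q M B k hB hq (cq q M ^ 12 * (U3 q M)⁻¹) ∈ V20 A (M * q) := by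
    rw [wL_X11_arg q M B k hB hq]
    exact U3_mem A q M
  have hmem : heckeAlphaBar Kbar (M * q) q (cq q M ^ 12 * (U3 q M)⁻¹)
      ∈ V02 A (M * q * q) q M B k (lvl q M) hB := by
    rw [← E02_eq]
    exact E02_mem02 A q M B k hB hq
  have h := red02_alpha A q M B k hB hq (cq q M ^ 12 * (U3 q M)⁻¹) hw hmem
  have e : (⟨wL q M B k hB hq (cq q M ^ 12 * (U3 q M)⁻¹), hw⟩ : ↥(V20 A (M * q)))
      = ⟨U3 q M, U3_mem A q M⟩ := Subtype.ext (wL_X11_arg q M B k hB hq)
  rw [e] at h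
  rw [s02_mk]
  have e2 : (⟨((wS q M B k hB ((E02o A q M : ↥(L0 A (M * q * q))) : FN (M * q * q)) :
      FN (M * q * q)) : LaurentSeries Kbar), E02o_mem02 A q M B k hB hq⟩ : ↥(gaussRingV A))
      = ⟨((wS q M B k hB (heckeAlphaBar Kbar (M * q) q (cq q M ^ 12 * (U3 q M)⁻¹)) :
          FN (M * q * q)) : LaurentSeries Kbar), hmem⟩ := by
    apply Subtype.ext
    show ((wS q M B k hB (E02 q M) : FN (M * q * q)) : LaurentSeries Kbar) = _
    rw [E02_eq]
  rw [e2]
  exact h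

/-! ### Congruences -/

/-- An element with zero residue is a nonunit. -/
theorem mem_nonunits_of_map_eq_zero {F : Type*} [Field F] (V : ValuationSubring F)
    {S : Type*} [CommRing S] [Nontrivial S] (f : ↥V →+* S) (x : ↥V) (hx : f x = 0) :
    (x : F) ∈ V.nonunits := by
  rw [ValuationSubring.mem_nonunits_iff_exists_mem_maximalIdeal]
  refine ⟨x.2, ?_⟩
  rw [IsLocalRing.mem_maximalIdeal]
  intro hu
  have := hu.map f
  rw [hx] at this
  exact not_isUnit_zero this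

include hq in
/-- `HU(t^q) = HU^q` in characteristic `q`. -/
theorem qExpand_HU (hA : A.LiesOverPrime q) :
    qExpand (kV A) q (HU A q M) = HU A q M ^ q := by
  haveI : Fact q.Prime := ⟨hq⟩
  haveI : CharP (kV A) q := Fermat.Agent.BAD.H82.charP_kV A hq hA
  rw [HU_eq, map_mul, map_inv₀, mul_pow, inv_pow, qExpand_deltaR_char (kV A) q, map_pow,
    qExpand_deltaR_char (kV A) q]

include hq in
/-- `eps2 ≡ eps1 ^ q` modulo the maximal ideal of `V₂₀`. -/
theorem eps2_sub_mem20 (hA : A.LiesOverPrime q) :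
    eps2o A q M - eps1o A q M ^ q ∈ (V20o A q M).nonunits := by
  have hmem : eps2o A q M - eps1o A q M ^ q ∈ V20o A q M :=
    sub_mem (eps2o_mem20 A q M) (pow_mem (eps1o_mem20 A q M) q)
  refine mem_nonunits_of_map_eq_zero (V20o A q M) (s20 A q M) ⟨_, hmem⟩ ?_
  have e : (⟨eps2o A q M - eps1o A q M ^ q, hmem⟩ : ↥(V20o A q M))
      = ⟨eps2o A q M, eps2o_mem20 A q M⟩ - ⟨eps1o A q M, eps1o_mem20 A q M⟩ ^ q := rfl
  rw [e, map_sub, map_pow, s20_eps1, s20_eps2, qExpand_HU A q M hq hA, sub_self]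

include hq in
/-- `E11 ≡ eps1 ^ 2` modulo the maximal ideal of `V₁₁`. -/
theorem E11_sub_mem11 (hA : (q : Kbar) ∈ A.nonunits) :
    E11o A q M - eps1o A q M ^ 2 ∈ (V11o A q M B k hB hq).nonunits := by
  have hmem : E11o A q M - eps1o A q M ^ 2 ∈ V11o A q M B k hB hq :=
    sub_mem (E11o_mem11 A q M B k hB hq) (pow_mem (eps1o_mem11 A q M B k hB hq) 2)
  refine mem_nonunits_of_map_eq_zero (V11o A q M B k hB hq) (s11 A q M B k hB hq) ⟨_, hmem⟩ ?_
  have e : (⟨E11o A q M - eps1o A q M ^ 2, hmem⟩ : ↥(V11o A q M B k hB hq))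
      = ⟨E11o A q M, E11o_mem11 A q M B k hB hq⟩
        - ⟨eps1o A q M, eps1o_mem11 A q M B k hB hq⟩ ^ 2 := rfl
  rw [e, map_sub, map_pow, s11_eps1, s11_E11 A q M B k hB hq hA, sub_eq_zero, sq]

end UnitsL

end Fermat.Agent.S36.NU.H99

end
end
-- ==== END Fermat.Agent.S36.NU.H99_Units3L
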