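-- GENERATED (merged mirror, NOTES/tools/trim/merge3_helper67.py): 5 modules of the originals, bodies verbatim.
import Fermat.Agent.Zm.S36_L09_000
import Fermat.Agent.Zm.S36_L10_000
import Fermat.Agent.Zm.S36_L03_002
import Fermat.Agent.Zm.S36_L10_001
import Fermat.Agent.Zm.S36_L02_003
import Fermat.Agent.Zm.S36_L01_004
import Fermat.Agent.Zm.S36_L04_002
import Fermat.Agent.Zm.S36_L07_001
import Fermat.Agent.Zm.S36_L02_002
import Fermat.Agent.Zm.S35_L07_003

-- ==== BEGIN Fermat.Agent.S36.NU.H65_Inst2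
section

/-!
# S36 / NU-B, INST-SKEL part 2 (helper65): `Stmt_FinMod` from the modular instances

`finMod_of` : `H10.Stmt_FinMod A q M B k hB hq` from `fin_local'` (H65_Inst), helper44's
`stmt_HOR` and "integral over `R` ⟹ constant", with the modular instances as hypotheses:
the two charts `C0`, `Coo` over `R = Rur A`, `F = L0 A (M q²)` (helper88 `chartOf`), the datum
`D : NUData ..` (helper79), the local data `PointData` (M2, M4), RADQ, `RootClosed`, `SS ≠ ∅`,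
and the two bridges `hunit` (`IsUnit3 ⟹ rdN ≠ 0`) and `hNα`, `hNβ` (`IsNormPow0 ⟹` the norm
hypothesis of `NUData.trivRed`).

The slices INST-A (helper74: `hfg`, `hHOR0`, `hHORoo`, the instances) and INST-B (helper15:
`hunit`, `hconst`, `hNα`, `hNβ`) are hypotheses here, in the shape asked from their owners.

* `isUnit_natCast_Rur` : `n` prime to `q` is a unit of `Rur A`;
* `finMod_of` : the assembly.
-/

set_option autoImplicit false
set_option synthInstance.maxHeartbeats 400000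
set_option maxHeartbeats 1000000
set_option linter.style.haveILetI false
set_option linter.unusedSectionVars false

noncomputable section

open ModularCurve AlgebraicCurve IntermediateField

attribute [local instance] Classical.propDecidable

namespace Fermat.Agent.S36.NU.H65

open Fermat.Agent.S24 Fermat.Agent.BAD.H88 Fermat.Agent.S36.NU.H23 Fermat.Agent.S36.NU.H41
  Fermat.Agent.S36.NU.H88 Fermat.Agent.S36.NU.H16 Fermat.Agent.S36.NU.H17
  Fermat.Agent.S36.NU.H24 Fermat.Agent.S36.NU.H79 Fermat.Agent.S36.NU.H10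
  Fermat.Agent.Lib.HeckeComm

section Rur

variable (A : ValuationSubring Kbar) (q : ℕ) (hq : q.Prime) (hA : A.LiesOverPrime q)

include hq hA in
/-- `n` prime to `q` is a unit of `Rur A`. -/
theorem isUnit_natCast_Rur (n : ℕ) (hn : Nat.Coprime n q) : IsUnit ((n : ℕ) : ↥(Rur A)) := by
  haveI := isDiscreteValuationRing_Rur A q hq hA
  by_contra hnu
  have h1 : ((n : ℕ) : ↥(Rur A)) ∈ IsLocalRing.maximalIdeal ↥(Rur A) :=
    (IsLocalRing.mem_maximalIdeal _).2 hnu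
  have h2 : ((q : ℕ) : ↥(Rur A)) ∈ IsLocalRing.maximalIdeal ↥(Rur A) :=
    (IsLocalRing.mem_maximalIdeal _).2 (irreducible_natCast A q hq hA).not_isUnit
  obtain ⟨a, b, hab⟩ := (Nat.isCoprime_iff_coprime.2 hn)
  have h3 : ((a : ℤ) : ↥(Rur A)) * ((n : ℕ) : ↥(Rur A)) +
      ((b : ℤ) : ↥(Rur A)) * ((q : ℕ) : ↥(Rur A)) = 1 := by
    have := congrArg (fun z : ℤ => (z : ↥(Rur A))) hab
    simpa using this
  have h4 : (1 : ↥(Rur A)) ∈ IsLocalRing.maximalIdeal ↥(Rur A) := by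
    rw [← h3]
    exact Ideal.add_mem _ (Ideal.mul_mem_left _ _ h1) (Ideal.mul_mem_left _ _ h2)
  exact (Ideal.ne_top_iff_one _).1 (IsLocalRing.maximalIdeal.isMaximal _).ne_top h4

end Rur

section Assembly

variable (A : ValuationSubring Kbar) (q M : ℕ) (B k : ℤ) (hB : B * M + k * q = 1) (hq : q.Prime)
  [NeZero M] [NeZero q] [NeZero (M * q * q)]
  {kk ι Z K L K' L' L₁ L₂ : Type*} {κ : ι → Type*} [Field kk] [∀ i, Field (κ i)]
  [∀ i, Algebra kk (κ i)] [Fintype ι] [Field K] [Field L] [Algebra K L]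
  [Algebra ↥(L0 A (M * q * q)) L] [Field K'] [Field L'] [Algebra K' L'] [Field L₁]
  [Algebra kk L₁] [Field L₂] [Algebra kk L₂]

/-- **INST, the assembly**: `Stmt_FinMod` from the modular instances. -/
theorem finMod_of [IsAlgClosed kk] (hA : A.LiesOverPrime q)
    (D : NUData K ↥(L0 A (M * q * q)) L kk ι Z κ K' L' L₁ L₂) (hDq : D.q = q)
    (C0 Coo : Chart ↥(Rur A) ↥(L0 A (M * q * q)) kk ι κ)
    [IsNoetherianRing C0.B] [IsFractionRing C0.B ↥(L0 A (M * q * q))]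
    [IsNoetherianRing Coo.B] [IsFractionRing Coo.B ↥(L0 A (M * q * q))]
    (hc0 : Compat C0 D.T) (hcoo : Compat Coo D.T) (hP : HasPrincipalDivisors K L)
    (hB0 : C0.B = intSub ↥(Rur A) (j0 A (M * q * q)))
    (hBoo : Coo.B = intSub ↥(Rur A) (j0 A (M * q * q))⁻¹)
    (hchart0 : ∀ n : ℕ, 0 < n → Nat.Coprime n q → ChartHyp C0 q n)
    (hchartoo : ∀ n : ℕ, 0 < n → Nat.Coprime n q → ChartHyp Coo q n)
    -- the local data (M2, M4, DISJ)
    (hpt0 : PointData C0 D ((q : ℕ) : ↥(Rur A)))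
    (hptoo : ∀ 𝔪 : Ideal Coo.B, 𝔪.IsMaximal → (∃ i, Coo.Icomp i ≤ 𝔪) →
      (∀ β : Coo.B, (β : ↥(L0 A (M * q * q))) = (j0 A (M * q * q))⁻¹ → β ∈ 𝔪) →
      PointDataAt Coo D ((q : ℕ) : ↥(Rur A)) 𝔪)
    (hSS0 : ∀ z ∈ D.SS, InChart C0 D.T z) (hSS : D.SS.Nonempty)
    (hk₁ : ∀ n : ℕ, 0 < n → Nat.Coprime n q → RootClosed kk L₁ n)
    (hk₂ : ∀ n : ℕ, 0 < n → Nat.Coprime n q → RootClosed kk L₂ n)
    -- RADQ
    (hrad0 : ∀ β ∈ C0.B, (∀ i, C0.rd i β = 0) → IsRadQ C0.B ((q : ℕ) : ↥(Rur A)) β)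
    (hradoo : ∀ β ∈ Coo.B, (∀ i, Coo.rd i β = 0) → IsRadQ Coo.B ((q : ℕ) : ↥(Rur A)) β)
    -- INST-A
    (hfg : ∀ (H : ↥(L0 A (M * q * q))) (n : ℕ) (hn : 0 < n), H ≠ 0 →
      (MInt ↥(Rur A) (j0 A (M * q * q))⁻¹ H n hn).FG)
    (E₀ : ℕ) (hE₀ : E₀ ≠ 0)
    (hHOR0 : ∀ (n : ℕ) (h : ↥(L0 A (M * q * q))), h ≠ 0 →
      (∀ P : Place Kbar (FN (M * q * q)), (n : ℤ) ∣ P.ord (h : FN (M * q * q))) →
      HOR C0 ((q : ℕ) : ↥(Rur A)) n (h ^ E₀))
    (hHORoo : ∀ (n : ℕ) (h : ↥(L0 A (M * q * q))), h ≠ 0 →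
      (∀ P : Place Kbar (FN (M * q * q)), (n : ℤ) ∣ P.ord (h : FN (M * q * q))) →
      HOR Coo ((q : ℕ) : ↥(Rur A)) n (h ^ E₀))
    -- INST-B
    (hunit : ∀ h : ↥(L0 A (M * q * q)), h ≠ 0 → IsUnit3 A q M B k hB hq h →
      ∀ i, D.T.rdN i h ≠ 0)
    (hconst : ∀ x : ↥(L0 A (M * q * q)), IsIntegral ↥(Rur A) x →
      ∃ c : Kbar, (x : FN (M * q * q)) = algebraMap Kbar (FN (M * q * q)) c)
    (hNα : ∀ (n : ℕ) (h : ↥(L0 A (M * q * q))),
      IsNormPow0 A q M (heckeAlphaBar Kbar (M * q) q) n (h : FN (M * q * q)) →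
      ∃ (c : K') (g : L'), D.Nα h = algebraMap K' L' c * g ^ n)
    (hNβ : ∀ (n : ℕ) (h : ↥(L0 A (M * q * q))),
      IsNormPow0 A q M (heckeBetaBar Kbar (M * q) q) n (h : FN (M * q * q)) →
      ∃ (c : K') (g : L'), D.Nβ h = algebraMap K' L' c * g ^ n) :
    Stmt_FinMod A q M B k hB hq := by
  haveI := isDiscreteValuationRing_Rur A q hq hA
  have hq1 : 0 < (q + 1) * (q - 1) :=
    Nat.mul_pos (Nat.succ_pos _) (Nat.sub_pos_of_lt hq.one_lt)
  refine ⟨E₀ * ((q + 1) * (q - 1)), Nat.mul_ne_zero hE₀ hq1.ne', ?_⟩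
  intro n hn hcop h hU hdiv hα hβ
  by_cases h0 : h = 0
  · refine ⟨1, 0, one_ne_zero, ?_⟩
    rw [h0, map_zero]
    simp [zero_pow (Nat.mul_ne_zero hE₀ hq1.ne')]
  -- the unit `H = h ^ E₀`
  have hu : ∀ i, D.T.rdN i h ≠ 0 := hunit h h0 hU
  have hm : ∀ i, h ∈ D.T.V i := fun i => D.T.mem_of_rdN_ne_zero (hu i)
  have huH : ∀ i, D.T.rdN i (h ^ E₀) ≠ 0 := fun i => by
    rw [D.T.rdN_pow (hm i)]
    exact pow_ne_zero _ (hu i)
  -- the norms
  obtain ⟨cα, gα, hcα⟩ := hNα n h hα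
  obtain ⟨cβ, gβ, hcβ⟩ := hNβ n h hβ
  have hα' : D.Nα (h ^ E₀) = algebraMap K' L' (cα ^ E₀) * (gα ^ E₀) ^ n := by
    rw [map_pow, hcα, mul_pow, map_pow, ← pow_mul, ← pow_mul, mul_comm n E₀]
  have hβ' : D.Nβ (h ^ E₀) = algebraMap K' L' (cβ ^ E₀) * (gβ ^ E₀) ^ n := by
    rw [map_pow, hcβ, mul_pow, map_pow, ← pow_mul, ← pow_mul, mul_comm n E₀]
  -- `n` is invertible in `R`
  obtain ⟨n', hnn⟩ := (isUnit_natCast_Rur A q hq hA n hcop).exists_right_inv
  have hq0 : ((q : ℕ) : ↥(Rur A)) ≠ 0 := by exact_mod_cast hq.ne_zero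
  have hqu : ¬ IsUnit ((q : ℕ) : ↥(Rur A)) := (irreducible_natCast A q hq hA).not_isUnit
  have hC0 : ChartHyp C0 D.q n := by rw [hDq]; exact hchart0 n hn hcop
  have hCoo : ChartHyp Coo D.q n := by rw [hDq]; exact hchartoo n hn hcop
  obtain ⟨s, hs0, hsint⟩ := fin_local' D ↥(Kur A) C0 Coo hc0 hcoo hP n hC0 hCoo
    (j0 A (M * q * q)) (transcendental_j0 A (M * q * q)) hB0 hBoo ((q : ℕ) : ↥(Rur A)) hq0 hqu n'
    hnn hpt0 hptoo hSS0 hSS (hk₁ n hn hcop) (hk₂ n hn hcop) hrad0 hradoo (h ^ E₀) huH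
    (hHOR0 n h h0 hdiv) (hHORoo n h h0 hdiv)
    (hfg _ n hC0.n_pos (pow_ne_zero _ (pow_ne_zero _ h0))) hα' hβ'
  obtain ⟨c, hc⟩ := hconst _ hsint
  refine ⟨(s : FN (M * q * q)), c, fun h1 => hs0 (Subtype.ext h1), ?_⟩
  rw [← hc, hDq, ← pow_mul]
  rfl

end Assembly

end Fermat.Agent.S36.NU.H65

end
end
-- ==== END Fermat.Agent.S36.NU.H65_Inst2

-- ==== BEGIN Fermat.Agent.S36.NU.H82_CuspDefs
section

/-!
# S36 / NU-B, leaf CUSPS (helper82): the elements of the chart at infinity and the targets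

Level `N = M q²`, `L₀ = L0 A N`, `u = 1 / j` (`uoo`), chart `∞` = integral closure of `R[u]`.
With helper99's `E20o = eps2`, `E02o = q¹² / eps1`, `E11o = q¹² eps1 / eps2`:

* `E20oo = E20o · u^(q (q - 1))`, `E02oo = E02o^q · u^(q - 1)`, `E11oo = E11o · u^(2 (q - 1))`;
* `j2o = j(q²τ)`, `x11oo = (j2o · u - 1) · E11oo`, `W2oo = x11oo^(q - 1) · E11oo² / q`.

Targets (the leaves of CUSPS):
* `Stmt_CuspRed20/11/02` (helper86): `red_i (E_i∞) = P̄ (red_i u)`, `P̄ (0) = 1`;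
* `Stmt_CuspW2` (helper73): `red₁₁(W2oo)¹² · red₁₁(E11oo)
    = c · (1 - 1728 ū)^(6 (q - 1)) · red₁₁(E11oo)^(12 (q + 1))`, `c ≠ 0`;
* `Stmt_CuspInt` (helper82): `E20oo, E02oo, E11oo, x11oo` are integral over `ℚ̄[u]`;
* `Stmt_CuspKur`, `Stmt_CuspMem`: from integrality over `ℚ̄[u]` to membership in `B∞`.
-/

set_option autoImplicit false
set_option synthInstance.maxHeartbeats 400000
set_option maxHeartbeats 1000000
set_option linter.unusedSectionVars false
set_option linter.style.haveILetI false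

noncomputable section

open ModularCurve Polynomial
open Fermat.Agent.S24 Fermat.Agent.BAD.H88
open Fermat.Agent.S28 Fermat.Agent.S28.H73 Fermat.Agent.RED.H73 Fermat.Agent.RED.H17
open Fermat.Agent.S36.NU.H88 Fermat.Agent.S36.NU.H23 Fermat.Agent.S36.NU.H99

namespace Fermat.Agent.S36.NU.H82

section Defs

variable (A : ValuationSubring Kbar)
variable (q M : ℕ) (B k : ℤ) (hB : B * M + k * q = 1) (hq : q.Prime) [NeZero M] [NeZero q]
  [NeZero (M * q)] [NeZero (M * q * q)]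

/-- `u = 1 / j`, the coordinate of the chart at infinity. -/
def uoo : ↥(L0 A (M * q * q)) := (j0 A (M * q * q))⁻¹

/-- `E20∞ = eps2 / j^(q (q - 1))`. -/
def E20oo : ↥(L0 A (M * q * q)) := E20o A q M * uoo A q M ^ (q * (q - 1))

/-- `E02∞ = (q¹² / eps1)^q / j^(q - 1)`. -/
def E02oo : ↥(L0 A (M * q * q)) := E02o A q M ^ q * uoo A q M ^ (q - 1)

/-- `E11∞ = q¹² eps1 / (eps2 j^(2 (q - 1)))`. -/
def E11oo : ↥(L0 A (M * q * q)) := E11o A q M * uoo A q M ^ (2 * (q - 1))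

/-- `j″ = j(q²τ)` as an inertia-fixed function. -/
def j2o : ↥(L0 A (M * q * q)) :=
  haveI : NeZero (q * q) := ⟨mul_ne_zero (NeZero.ne q) (NeZero.ne q)⟩
  ⟨jdF (M * q * q) (q * q) ⟨M, by ring⟩, jdF_mem_L0 A (M * q * q) (q * q) ⟨M, by ring⟩⟩

/-- The local equation of `C₁₁` at the middle cusps: `x11 = (j″ / j - 1) E11∞`. -/
def x11oo : ↥(L0 A (M * q * q)) := (j2o A q M * uoo A q M - 1) * E11oo A q M

/-- The unit `W₂ = x11^(q - 1) (E11∞)² / q` at the middle cusps. -/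
def W2oo : ↥(L0 A (M * q * q)) :=
  x11oo A q M ^ (q - 1) * E11oo A q M ^ 2 * (((q : ℕ) : ↥(L0 A (M * q * q))))⁻¹

/-- **(CUSP-RED 20)** (helper86). -/
def Stmt_CuspRed20 : Prop :=
  ∃ (hu : uoo A q M ∈ V20o A q M) (hE : E20oo A q M ∈ V20o A q M) (P : Polynomial (kV A)),
    P.coeff 0 = 1 ∧
      s20 A q M ⟨E20oo A q M, hE⟩ = Polynomial.aeval (s20 A q M ⟨uoo A q M, hu⟩) P

/-- **(CUSP-RED 11)** (helper86). -/
def Stmt_CuspRed11 : Prop :=
  ∃ (hu : uoo A q M ∈ V11o A q M B k hB hq) (hE : E11oo A q M ∈ V11o A q M B k hB hq)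
    (P : Polynomial (kV A)), P.coeff 0 = 1 ∧
      s11 A q M B k hB hq ⟨E11oo A q M, hE⟩
        = Polynomial.aeval (s11 A q M B k hB hq ⟨uoo A q M, hu⟩) P

/-- **(CUSP-RED 02)** (helper86). -/
def Stmt_CuspRed02 : Prop :=
  ∃ (hu : uoo A q M ∈ V02o A q M B k hB) (hE : E02oo A q M ∈ V02o A q M B k hB)
    (P : Polynomial (kV A)), P.coeff 0 = 1 ∧
      s02 A q M B k hB ⟨E02oo A q M, hE⟩
        = Polynomial.aeval (s02 A q M B k hB ⟨uoo A q M, hu⟩) P

/-- **(CUSP-W2)** (helper73): the reduction of `W₂` at `V₁₁`. -/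
def Stmt_CuspW2 : Prop :=
  ∃ (hu : uoo A q M ∈ V11o A q M B k hB hq) (hE : E11oo A q M ∈ V11o A q M B k hB hq)
    (hW : W2oo A q M ∈ V11o A q M B k hB hq) (c : kV A), c ≠ 0 ∧
      s11 A q M B k hB hq ⟨W2oo A q M, hW⟩ ^ 12 * s11 A q M B k hB hq ⟨E11oo A q M, hE⟩
        = HahnSeries.C c
          * (1 - HahnSeries.C (1728 : kV A) * s11 A q M B k hB hq ⟨uoo A q M, hu⟩)
              ^ (6 * (q - 1))
          * s11 A q M B k hB hq ⟨E11oo A q M, hE⟩ ^ (12 * (q + 1))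

/-- **(CUSP-INT)** (helper82): integrality over `ℚ̄[1/j]` (as elements of `F_N · ℚ̄`). -/
def Stmt_CuspInt : Prop :=
  ∀ x ∈ ({E20oo A q M, E02oo A q M, E11oo A q M, x11oo A q M} :
      Set ↥(L0 A (M * q * q))),
    IsIntegral ↥(Algebra.adjoin Kbar ({(_root_.Fermat.Agent.S24.jF (M * q * q))⁻¹} : Set (FN (M * q * q))))
      ((x : ↥(L0 A (M * q * q))) : FN (M * q * q))

/-- **(CUSP-KUR)**: descent of integrality from `ℚ̄[1/j]` to `K^ur[1/j]`
(`ℚ̄[u]` is integral over `K^ur[u]`). -/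
def Stmt_CuspKur : Prop :=
  ∀ x : ↥(L0 A (M * q * q)),
    IsIntegral ↥(Algebra.adjoin Kbar ({(_root_.Fermat.Agent.S24.jF (M * q * q))⁻¹} : Set (FN (M * q * q))))
      ((x : ↥(L0 A (M * q * q))) : FN (M * q * q)) →
    IsIntegral ↥(Algebra.adjoin ↥(H41.Kur A) ({uoo A q M} : Set ↥(L0 A (M * q * q)))) x

/-- **(CUSP-MEM)**: membership in the chart at infinity `B∞ = intSub R u` from integrality over
`K^ur[u]` and the three valuations (TI3-VAL for the coordinate `u = 1 / j`). -/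
def Stmt_CuspMem : Prop :=
  ∀ x : ↥(L0 A (M * q * q)),
    IsIntegral ↥(Algebra.adjoin ↥(H41.Kur A) ({uoo A q M} : Set ↥(L0 A (M * q * q)))) x →
    x ∈ V20o A q M → x ∈ V11o A q M B k hB hq → x ∈ V02o A q M B k hB →
    x ∈ H65.intSub ↥(H41.Rur A) (uoo A q M)

end Defs

end Fermat.Agent.S36.NU.H82

end
end
-- ==== END Fermat.Agent.S36.NU.H82_CuspDefs

-- ==== BEGIN Fermat.Agent.S36.NU.H86_CuspRed
section
attribute [local instance 10000] SubalgebraClass.toAlgebra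
attribute [local instance 10000] HahnSeries.powerSeriesAlgebra

/-!
# S36 / NU-B, leaf CUSPS, reduction half, part 2 (helper86): the reductions at the cusps

Level `N = M q²`, `q ∤ M`, `A` over `q`, `u = 1/j` (`j = j0 A N`), `HU = red U = Δ~^{1-q} = H(j~)`,
`P` = the reverse of the supersingular polynomial `H` (`P(0) = 1`, `P(1/j~) = HU (1/j~)^{q-1}`).

* `j0_mem20`, `j0_mem11`, `j0_mem02`, `s20_j0`, `s11_j0`, `s02_j0` : `j` is in the three valuation
  rings, with reductions `j~`, `j~`, `j~(t^{q²})`;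
* `inv_mem_of_res_ne_zero` : an element with non-zero residue is a unit;
* `cuspRed20_core` : `red₂₀ (E20 u^{q(q-1)}) = (P ^ q)(red₂₀ u)`;
* `cuspRed11_core` : `red₁₁ (E11 u^{2(q-1)}) = (P ^ 2)(red₁₁ u)`;
* `cuspRed02_core` : `red₀₂ (E02^q u^{q-1}) = P^{(φ²)}(red₀₂ u)`;
in each case the polynomial has constant coefficient `1`.
-/

set_option autoImplicit false
set_option synthInstance.maxHeartbeats 400000
set_option maxHeartbeats 1000000
set_option linter.unusedSectionVars false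
set_option linter.style.haveILetI false

noncomputable section

open ModularCurve Polynomial
open Fermat.Agent.S24 Fermat.Agent.BAD.H88 Fermat.Agent.BAD.H30 Fermat.Agent.BAD.H21
open Fermat.Agent.S28 Fermat.Agent.S28.H73 Fermat.Agent.RED.H73 Fermat.Agent.RED.H17
open Fermat.Agent.S36.NU.H88 Fermat.Agent.S36.NU.H23 Fermat.Agent.S36.NU.H82
open Fermat.Agent.S36.NU.H99

namespace Fermat.Agent.S36.NU.H86

section Inv

/-- An element of a valuation ring with non-zero residue is a unit. -/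
theorem inv_mem_of_res_ne_zero {L T : Type*} [Field L] [Field T] (V : ValuationSubring L)
    (s : ↥V →+* T) (hker : ∀ x : ↥V, ¬ IsUnit x → s x = 0) (x : L) (hx : x ∈ V)
    (h0 : s ⟨x, hx⟩ ≠ 0) :
    ∃ hx' : x⁻¹ ∈ V, s ⟨x⁻¹, hx'⟩ = (s ⟨x, hx⟩)⁻¹ := by
  have hu : IsUnit (⟨x, hx⟩ : ↥V) := by
    by_contra h
    exact h0 (hker _ h)
  obtain ⟨u, hu'⟩ := hu
  have h1 : ((u⁻¹ : (↥V)ˣ) : ↥V) * ⟨x, hx⟩ = 1 := by
    rw [← hu']
    exact u.inv_mul
  have h2 : (((u⁻¹ : (↥V)ˣ) : ↥V) : L) * x = 1 := congrArg Subtype.val h1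
  have h3 : x⁻¹ = (((u⁻¹ : (↥V)ˣ) : ↥V) : L) := (eq_inv_of_mul_eq_one_left h2).symm
  have hx' : x⁻¹ ∈ V := h3 ▸ (Subtype.mem _)
  refine ⟨hx', ?_⟩
  have e : (⟨x⁻¹, hx'⟩ : ↥V) = ((u⁻¹ : (↥V)ˣ) : ↥V) := Subtype.ext h3
  rw [e]
  have h4 := congrArg s h1
  rw [map_mul, map_one] at h4
  exact eq_inv_of_mul_eq_one_left h4

end Inv

section Red

variable (A : ValuationSubring Kbar)
variable (q M : ℕ) (B k : ℤ) (hB : B * M + k * q = 1) (hq : q.Prime) [NeZero M] [NeZero q]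
  [NeZero (M * q)] [NeZero (M * q * q)]

theorem jBar_eq_jqModC : Fermat.Agent.S24.jBar = jqModC Kbar := by
  rw [Fermat.Agent.S24.jBar, coeffEmb, ← jqModC_rat, coeffMap_jqModC]

/-- The `q`-expansion of `j`. -/
theorem coe_j0_series :
    (((j0 A (M * q * q) : ↥(L0 A (M * q * q))) : FN (M * q * q)) : LaurentSeries Kbar)
      = jqModC Kbar := by
  rw [coe_j0', Fermat.Agent.S36.NU.H88.coe_jdF, qExpand_one_apply, jBar_eq_jqModC]

theorem j0_mem20 : j0 A (M * q * q) ∈ V20o A q M := by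
  rw [mem_V20o_iff, _root_.Fermat.Agent.S36.NU.H86.coe_j0_series]
  exact jqModC_mem_gaussRingV A

theorem s20_j0 : s20 A q M ⟨j0 A (M * q * q), _root_.Fermat.Agent.S36.NU.H86.j0_mem20 A q M⟩ = jqModC (kV A) := by
  rw [s20_mk]
  have e : (⟨(((j0 A (M * q * q) : ↥(L0 A (M * q * q))) : FN (M * q * q)) : LaurentSeries Kbar),
      _root_.Fermat.Agent.S36.NU.H86.j0_mem20 A q M⟩ : ↥(gaussRingV A)) = ⟨jqModC Kbar, jqModC_mem_gaussRingV A⟩ :=
    Subtype.ext (_root_.Fermat.Agent.S36.NU.H86.coe_j0_series A q M)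
  rw [e]
  exact gaussRedV_jqModC A _

include hq in
theorem cM_j0 :
    cM q M B k hB hq ((j0 A (M * q * q) : ↥(L0 A (M * q * q))) : FN (M * q * q))
      = jqModC Kbar := by
  rw [coe_j0', cM_jdF1 q M B k hB hq 1 1 M rfl (one_mul M).symm (one_dvd _), qExpand_one_apply,
    jBar_eq_jqModC]

include hq in
theorem j0_mem11 : j0 A (M * q * q) ∈ V11o A q M B k hB hq := by
  rw [mem_V11o_iff, _root_.Fermat.Agent.S36.NU.H86.cM_j0 A q M B k hB hq]
  exact jqModC_mem_gaussRingV A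

include hq in
theorem s11_j0 : s11 A q M B k hB hq ⟨j0 A (M * q * q), _root_.Fermat.Agent.S36.NU.H86.j0_mem11 A q M B k hB hq⟩
    = jqModC (kV A) := by
  rw [s11_mk]
  have e : (⟨cM q M B k hB hq ((j0 A (M * q * q) : ↥(L0 A (M * q * q))) : FN (M * q * q)),
      _root_.Fermat.Agent.S36.NU.H86.j0_mem11 A q M B k hB hq⟩ : ↥(gaussRingV A)) = ⟨jqModC Kbar, jqModC_mem_gaussRingV A⟩ :=
    Subtype.ext (_root_.Fermat.Agent.S36.NU.H86.cM_j0 A q M B k hB hq)
  rw [e]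
  exact gaussRedV_jqModC A _

theorem wS_j0 :
    haveI : NeZero (q * q) := ⟨Nat.mul_ne_zero (NeZero.ne q) (NeZero.ne q)⟩
    ((wS q M B k hB ((j0 A (M * q * q) : ↥(L0 A (M * q * q))) : FN (M * q * q)) :
      FN (M * q * q)) : LaurentSeries Kbar) = qExpand Kbar (q * q) (jqModC Kbar) := by
  haveI : NeZero (q * q) := ⟨Nat.mul_ne_zero (NeZero.ne q) (NeZero.ne q)⟩
  have h2 : q * q ∣ M * q * q := ⟨M, by ring⟩
  have e : wS q M B k hB ((j0 A (M * q * q) : ↥(L0 A (M * q * q))) : FN (M * q * q))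
      = jdF (M * q * q) (q * q) h2 := by
    rw [coe_j0']
    exact wQ_jdF' (M * q * q) (q * q) M _ _ (lvl q M) _ 1 (q * q) 1 M 1 (q * q) (one_mul 1).symm
      (one_mul _).symm (one_mul M).symm (one_mul _).symm (one_dvd _) h2
  rw [e, Fermat.Agent.S36.NU.H88.coe_jdF, jBar_eq_jqModC]

theorem j0_mem02 : j0 A (M * q * q) ∈ V02o A q M B k hB := by
  haveI : NeZero (q * q) := ⟨Nat.mul_ne_zero (NeZero.ne q) (NeZero.ne q)⟩
  rw [mem_V02o_iff, mem_V20_iff, _root_.Fermat.Agent.S36.NU.H86.wS_j0 A q M B k hB]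
  exact qExpand_jqModC_mem_gaussRingV A (q * q)

theorem s02_j0 :
    haveI : NeZero (q * q) := ⟨Nat.mul_ne_zero (NeZero.ne q) (NeZero.ne q)⟩
    s02 A q M B k hB ⟨j0 A (M * q * q), _root_.Fermat.Agent.S36.NU.H86.j0_mem02 A q M B k hB⟩
      = qExpand (kV A) (q * q) (jqModC (kV A)) := by
  haveI : NeZero (q * q) := ⟨Nat.mul_ne_zero (NeZero.ne q) (NeZero.ne q)⟩
  rw [s02_mk]
  have e : (⟨((wS q M B k hB ((j0 A (M * q * q) : ↥(L0 A (M * q * q))) : FN (M * q * q)) :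
      FN (M * q * q)) : LaurentSeries Kbar), _root_.Fermat.Agent.S36.NU.H86.j0_mem02 A q M B k hB⟩ : ↥(gaussRingV A))
      = ⟨qExpand Kbar (q * q) (jqModC Kbar), qExpand_jqModC_mem_gaussRingV A (q * q)⟩ :=
    Subtype.ext (_root_.Fermat.Agent.S36.NU.H86.wS_j0 A q M B k hB)
  rw [e]
  exact gaussRedV_qExpand_jqModC A (q * q) _

/-! ### The reductions of the witnesses at the cusps -/

theorem jqModC_ne_zero' (K : Type) [Field K] : jqModC K ≠ 0 := by
  intro h0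
  have := coeff_jqModC_neg_one K
  rw [h0, HahnSeries.coeff_zero] at this
  exact zero_ne_one this

include hq in
/-- `HU = Δ~^{1-q}`. -/
theorem HU_eq_inv (hA : A.LiesOverPrime q) :
    HU A q M = (deltaR (kV A) ^ (q - 1))⁻¹ := by
  haveI : Fact q.Prime := ⟨hq⟩
  haveI : CharP (kV A) q := Fermat.Agent.BAD.H82.charP_kV A hq hA
  have h0 := deltaR_ne_zero (kV A)
  rw [HU_eq, qExpand_deltaR_char (kV A) q]
  have e : deltaR (kV A) ^ q = deltaR (kV A) ^ (q - 1) * deltaR (kV A) := by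
    rw [← pow_succ, Nat.sub_add_cancel hq.one_le]
  rw [e, mul_inv, mul_comm, mul_assoc, inv_mul_cancel₀ h0, mul_one]

include hq in
/-- **CUSPS, reduction at `V₂₀`.** -/
theorem cuspRed20_core (hA : A.LiesOverPrime q) :
    ∃ (hu : (j0 A (M * q * q))⁻¹ ∈ V20o A q M)
      (hE : E20o A q M * (j0 A (M * q * q))⁻¹ ^ (q * (q - 1)) ∈ V20o A q M)
      (P : Polynomial (kV A)),
      P.coeff 0 = 1 ∧
      s20 A q M ⟨_, hE⟩ = Polynomial.aeval (s20 A q M ⟨_, hu⟩) P := by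
  haveI : Fact q.Prime := ⟨hq⟩
  haveI : CharP (kV A) q := Fermat.Agent.BAD.H82.charP_kV A hq hA
  haveI : IsAlgClosed (kV A) := isAlgClosed_kV A
  obtain ⟨P, hP0, hP⟩ := exists_rev_poly (kV A) q
  obtain ⟨hu, hsu⟩ := inv_mem_of_res_ne_zero (V20o A q M) (s20 A q M)
    (s20_eq_zero_of_not_isUnit A q M) (j0 A (M * q * q)) (_root_.Fermat.Agent.S36.NU.H86.j0_mem20 A q M)
    (by rw [_root_.Fermat.Agent.S36.NU.H86.s20_j0]; exact jqModC_ne_zero' (kV A))
  rw [_root_.Fermat.Agent.S36.NU.H86.s20_j0] at hsu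
  have hE : E20o A q M * (j0 A (M * q * q))⁻¹ ^ (q * (q - 1)) ∈ V20o A q M :=
    mul_mem (E20o_mem20 A q M) (pow_mem hu _)
  refine ⟨hu, hE, P ^ q, ?_, ?_⟩
  · rw [coeff_zero_eq_eval_zero, eval_pow, hP0, one_pow]
  · have e1 : (⟨E20o A q M * (j0 A (M * q * q))⁻¹ ^ (q * (q - 1)), hE⟩ : ↥(V20o A q M))
        = ⟨eps2o A q M, eps2o_mem20 A q M⟩ * ⟨(j0 A (M * q * q))⁻¹, hu⟩ ^ (q * (q - 1)) :=
      Subtype.ext rfl
    rw [e1, map_mul, map_pow, s20_eps2, qExpand_HU A q M hq hA, hsu, map_pow, hP,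
      HU_eq_inv A q M hq hA, mul_pow, ← pow_mul, mul_comm (q - 1) q]

include hq in
/-- **CUSPS, reduction at `V₁₁`.** -/
theorem cuspRed11_core (hA : A.LiesOverPrime q) :
    ∃ (hu : (j0 A (M * q * q))⁻¹ ∈ V11o A q M B k hB hq)
      (hE : E11o A q M * (j0 A (M * q * q))⁻¹ ^ (2 * (q - 1)) ∈ V11o A q M B k hB hq)
      (P : Polynomial (kV A)),
      P.coeff 0 = 1 ∧
      s11 A q M B k hB hq ⟨_, hE⟩ = Polynomial.aeval (s11 A q M B k hB hq ⟨_, hu⟩) P := by
  haveI : Fact q.Prime := ⟨hq⟩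
  haveI : CharP (kV A) q := Fermat.Agent.BAD.H82.charP_kV A hq hA
  haveI : IsAlgClosed (kV A) := isAlgClosed_kV A
  have hqA : (q : Kbar) ∈ A.nonunits := hA
  obtain ⟨P, hP0, hP⟩ := exists_rev_poly (kV A) q
  obtain ⟨hu, hsu⟩ := inv_mem_of_res_ne_zero (V11o A q M B k hB hq) (s11 A q M B k hB hq)
    (s11_eq_zero_of_not_isUnit A q M B k hB hq) (j0 A (M * q * q)) (_root_.Fermat.Agent.S36.NU.H86.j0_mem11 A q M B k hB hq)
    (by rw [_root_.Fermat.Agent.S36.NU.H86.s11_j0]; exact jqModC_ne_zero' (kV A))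
  rw [_root_.Fermat.Agent.S36.NU.H86.s11_j0] at hsu
  have hE : E11o A q M * (j0 A (M * q * q))⁻¹ ^ (2 * (q - 1)) ∈ V11o A q M B k hB hq :=
    mul_mem (E11o_mem11 A q M B k hB hq) (pow_mem hu _)
  refine ⟨hu, hE, P ^ 2, ?_, ?_⟩
  · rw [coeff_zero_eq_eval_zero, eval_pow, hP0, one_pow]
  · have e1 : (⟨E11o A q M * (j0 A (M * q * q))⁻¹ ^ (2 * (q - 1)), hE⟩ :
        ↥(V11o A q M B k hB hq))
        = ⟨E11o A q M, E11o_mem11 A q M B k hB hq⟩
          * ⟨(j0 A (M * q * q))⁻¹, hu⟩ ^ (2 * (q - 1)) := Subtype.ext rfl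
    rw [e1, map_mul, map_pow, s11_E11 A q M B k hB hq hqA, hsu, map_pow, hP,
      HU_eq_inv A q M hq hA, mul_pow, ← pow_mul, mul_comm (q - 1) 2, sq]

include hq in
/-- `j~(t^{q²}) = j~ ^ (q²)` in characteristic `q`. -/
theorem qExpand_sq_jqModC (hA : A.LiesOverPrime q) :
    haveI : NeZero (q * q) := ⟨Nat.mul_ne_zero (NeZero.ne q) (NeZero.ne q)⟩
    qExpand (kV A) (q * q) (jqModC (kV A)) = jqModC (kV A) ^ (q ^ 2) := by
  haveI : NeZero (q * q) := ⟨Nat.mul_ne_zero (NeZero.ne q) (NeZero.ne q)⟩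
  haveI : Fact q.Prime := ⟨hq⟩
  haveI : CharP (kV A) q := Fermat.Agent.BAD.H82.charP_kV A hq hA
  have h1 : qExpand (kV A) q (jqModC (kV A)) = jqModC (kV A) ^ q := by
    rw [Fermat.Agent.RED.H10.pow_char_eq q (jqModC (kV A)), coeffMap_jqModC]
  rw [← qExpand_qExpand, h1, map_pow, h1, ← pow_mul, sq]

include hq in
/-- **CUSPS, reduction at `V₀₂`.** -/
theorem cuspRed02_core (hA : A.LiesOverPrime q) :
    ∃ (hu : (j0 A (M * q * q))⁻¹ ∈ V02o A q M B k hB)
      (hE : E02o A q M ^ q * (j0 A (M * q * q))⁻¹ ^ (q - 1) ∈ V02o A q M B k hB)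
      (P : Polynomial (kV A)),
      P.coeff 0 = 1 ∧
      s02 A q M B k hB ⟨_, hE⟩ = Polynomial.aeval (s02 A q M B k hB ⟨_, hu⟩) P := by
  haveI : NeZero (q * q) := ⟨Nat.mul_ne_zero (NeZero.ne q) (NeZero.ne q)⟩
  haveI : Fact q.Prime := ⟨hq⟩
  haveI : CharP (kV A) q := Fermat.Agent.BAD.H82.charP_kV A hq hA
  haveI : IsAlgClosed (kV A) := isAlgClosed_kV A
  obtain ⟨P, hP0, hP⟩ := exists_rev_poly (kV A) q
  have hj2 : qExpand (kV A) (q * q) (jqModC (kV A)) ≠ 0 := by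
    rw [qExpand_sq_jqModC A q hq hA]
    exact pow_ne_zero _ (jqModC_ne_zero' (kV A))
  obtain ⟨hu, hsu⟩ := inv_mem_of_res_ne_zero (V02o A q M B k hB) (s02 A q M B k hB)
    (s02_eq_zero_of_not_isUnit A q M B k hB) (j0 A (M * q * q)) (_root_.Fermat.Agent.S36.NU.H86.j0_mem02 A q M B k hB)
    (by rw [_root_.Fermat.Agent.S36.NU.H86.s02_j0]; exact hj2)
  rw [_root_.Fermat.Agent.S36.NU.H86.s02_j0, qExpand_sq_jqModC A q hq hA, ← inv_pow] at hsu
  have hE : E02o A q M ^ q * (j0 A (M * q * q))⁻¹ ^ (q - 1) ∈ V02o A q M B k hB :=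
    mul_mem (pow_mem (E02o_mem02 A q M B k hB hq) _) (pow_mem hu _)
  refine ⟨hu, hE, P.map (iterateFrobenius (kV A) q 2), ?_, ?_⟩
  · rw [coeff_zero_eq_eval_zero]
    exact eval_zero_map_iterateFrobenius q P hP0 2
  · have e1 : (⟨E02o A q M ^ q * (j0 A (M * q * q))⁻¹ ^ (q - 1), hE⟩ : ↥(V02o A q M B k hB))
        = ⟨E02o A q M, E02o_mem02 A q M B k hB hq⟩ ^ q
          * ⟨(j0 A (M * q * q))⁻¹, hu⟩ ^ (q - 1) := Subtype.ext rfl
    rw [e1, map_mul, map_pow, map_pow, s02_E02 A q M B k hB hq, qExpand_HU A q M hq hA, hsu,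
      ← aeval_pow_iterateFrobenius q P, hP, HU_eq_inv A q M hq hA]
    ring

end Red

end Fermat.Agent.S36.NU.H86

end
end
-- ==== END Fermat.Agent.S36.NU.H86_CuspRed

-- ==== BEGIN Fermat.Agent.S36.NU.H87_NrA1
section

/-!
# S36 / NU-MOD, leaf NM-A1 (helper87): the `NRData` of `L0 (M q²) / L0 (M q)` above `V₁`

Level `N = M q²`, `q ∤ M`, base level `M q`; `E₀ = L0 A (M q) ⊂ L₀ = L0 A (M q²)` (the inclusion
`α`, algebra `H23.algL0 A (hleA q M)`), of degree `q`.  Above the Gauss valuation `V₁` of level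
`M q` (`VE0 A (M q)`, uniformiser `q`, residue field `C' = FM A (M q)`) lie `V₂₀` (`e = 1`) and
`V₁₁` (`e = q - 1`, uniformiser `j(t^{q²}) - j(t)`), both with residue field `C'`.

* `rEA_surjective` : the residue map of `VE0 A (M q)` is onto `FM A (M q)`;
* `r20A`, `r11A : V..o → FM A (M q)` the residue maps (`coe_r20A = s20`, `coe_r11A = s11`);
* `s11_memA` : the reductions at `V₁₁` of the inertia-fixed functions lie in the residue field
  of level `M q` (by the fundamental inequality);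
* `nrA1 : NRData (L0 (M q)) (L0 (M q²)) C' (Fin 2) (kap2 C' C')`, `nrA1_hdeg`;
* `normA1` : `red (N h) = red₂₀ h * red₁₁ h ^ (q - 1)` for `h ∈ V₂₀ ∩ V₁₁` inertia-fixed.
-/

set_option autoImplicit false
set_option synthInstance.maxHeartbeats 400000
set_option maxHeartbeats 1000000
set_option linter.style.haveILetI false
set_option linter.unusedSectionVars false

noncomputable section

open ModularCurve AlgebraicCurve
open Fermat.Agent.S24 Fermat.Agent.BAD.H88 Fermat.Agent.S28 Fermat.Agent.S28.H73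
open Fermat.Agent.RED.H73 Fermat.Agent.RED.H17 Fermat.Agent.S36.NU.H88
open Fermat.Agent.S36.NU.H23

namespace Fermat.Agent.S36.NU.H87

section NrA1

variable (A : ValuationSubring Kbar) (q M : ℕ) (B k : ℤ) (hB : B * M + k * q = 1) (hq : q.Prime)
  [NeZero M] [NeZero q] [NeZero (M * q * q)] (hqM : ¬ q ∣ M) (hA : A.LiesOverPrime q)

/-- `F_{M q} ⊆ F_{M q²}`. -/
theorem hleA : modularFunctionFieldBar (M * q) ≤ modularFunctionFieldBar (M * q * q) :=
  Fermat.Agent.S36.NU.H82.FM_le_of_dvd (M * q * q) (M * q) ⟨q, rfl⟩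

/-- The inclusion is the degeneracy map `α`. -/
theorem inclusion_eq_alphaA (x : FN (M * q)) :
    IntermediateField.inclusion (hleA q M) x = heckeAlphaBar Kbar (M * q) q x := by
  apply Subtype.ext
  rw [IntermediateField.coe_inclusion, coe_heckeAlphaBar]

theorem coe_inclL0_alphaA (a : ↥(L0 A (M * q))) :
    ((inclL0 A (hleA q M) a : ↥(L0 A (M * q * q))) : FN (M * q * q))
      = heckeAlphaBar Kbar (M * q) q (a : FN (M * q)) := by
  rw [coe_inclL0, inclusion_eq_alphaA]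

theorem coe_inclL0_seriesA (a : ↥(L0 A (M * q))) :
    (((inclL0 A (hleA q M) a : ↥(L0 A (M * q * q))) : FN (M * q * q)) : LaurentSeries Kbar)
      = ((a : FN (M * q)) : LaurentSeries Kbar) := by
  rw [coe_inclL0, IntermediateField.coe_inclusion]

/-! ### The residue field of level `M q` -/

include hq hqM hA in
/-- (D) at level `M q`. -/
theorem FMq_eq :
    redField A (modularFunctionFieldBar (M * q)) (hScM A (M * q))
      = modularFunctionFieldFullC (kV A) M :=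
  Fermat.Agent.S36.NU.H82.redField_level_pow q 1 M (M * q) hq hqM (by ring) A hA

include hq hqM hA in
/-- The residue map of `VE0 A (M q)` is onto the residue field of level `M q`. -/
theorem rEA_surjective : Function.Surjective (rE A (M * q)) := by
  intro y
  have hy : (y : LaurentSeries (kV A)) ∈ modularFunctionFieldFullC (kV A) M := by
    rw [← FMq_eq A q M hq hqM hA]; exact y.2
  obtain ⟨x, hx, hxV, e⟩ := Fermat.Agent.S36.NU.H42.surj_L0 A q M hq hqM hA _ hy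
  have h1 : heckeAlphaBar Kbar M q x ∈ L0 A (M * q) :=
    Fermat.Agent.S36.NU.H82.alpha_mem_L0 A M q x hx
  have h2 : heckeAlphaBar Kbar M q x ∈ VM A (M * q) := (alpha_mem_V1_iff A q M x).2 hxV
  refine ⟨⟨⟨_, h1⟩, h2⟩, ?_⟩
  apply Subtype.ext
  rw [← e]
  exact red1_alpha A q M x hxV h2

/-! ### The maps `VE0 → V..o` -/

theorem hVE20A (a : ↥(L0 A (M * q))) (ha : a ∈ VE0 A (M * q)) :
    inclL0 A (hleA q M) a ∈ V20o A q M := by
  rw [mem_V20o_iff, coe_inclL0_seriesA]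
  exact ha

include hB hq in
theorem hVE11A (a : ↥(L0 A (M * q))) (ha : a ∈ VE0 A (M * q)) :
    inclL0 A (hleA q M) a ∈ V11o A q M B k hB hq := by
  show ((inclL0 A (hleA q M) a : ↥(L0 A (M * q * q))) : FN (M * q * q))
    ∈ V11 A (M * q * q) q M B k (lvl q M) hB hq
  rw [coe_inclL0_alphaA]
  exact (alpha_mem_V11_iff A q M B k hB hq (a : FN (M * q))).2 ha

/-! ### Compatibilities, in `k((t))` -/

theorem s20_inclA (a : ↥(VE0 A (M * q)))
    (h : inclL0 A (hleA q M) (a : ↥(L0 A (M * q))) ∈ V20o A q M) :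
    s20 A q M ⟨_, h⟩ = sE A (M * q) a := by
  rw [s20_mk]
  show _ = gaussRedV A ⟨(((a : ↥(L0 A (M * q))) : FN (M * q)) : LaurentSeries Kbar), a.2⟩
  congr 1

include hB hq in
theorem s11_inclA (a : ↥(VE0 A (M * q)))
    (h : inclL0 A (hleA q M) (a : ↥(L0 A (M * q))) ∈ V11o A q M B k hB hq) :
    s11 A q M B k hB hq ⟨_, h⟩ = sE A (M * q) a := by
  rw [s11_mk]
  show _ = gaussRedV A ⟨(((a : ↥(L0 A (M * q))) : FN (M * q)) : LaurentSeries Kbar), a.2⟩
  congr 1
  apply Subtype.ext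
  show cM q M B k hB hq ((inclL0 A (hleA q M) (a : ↥(L0 A (M * q))) : ↥(L0 A (M * q * q))) :
    FN (M * q * q)) = _
  rw [coe_inclL0_alphaA, cM_alpha]

/-! ### The residue maps into the residue field of level `M q` -/

include hq hqM hA in
theorem s20_memA (x : ↥(V20o A q M)) :
    s20 A q M x ∈ redField A (modularFunctionFieldBar (M * q)) (hScM A (M * q)) := by
  rw [FMq_eq A q M hq hqM hA]
  exact s20_mem A q M hq hqM hA x

/-- The residue map of `V20o`, into the residue field of level `M q`. -/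
def r20A : ↥(V20o A q M) →+* FM A (M * q) where
  toFun x := ⟨s20 A q M x, s20_memA A q M hq hqM hA x⟩
  map_one' := Subtype.ext (map_one (s20 A q M))
  map_mul' x y := Subtype.ext (map_mul (s20 A q M) x y)
  map_zero' := Subtype.ext (map_zero (s20 A q M))
  map_add' x y := Subtype.ext (map_add (s20 A q M) x y)

theorem coe_r20A (x : ↥(V20o A q M)) :
    ((r20A A q M hq hqM hA x : FM A (M * q)) : LaurentSeries (kV A)) = s20 A q M x := rfl

theorem r20A_eq_zero_of_not_isUnit (x : ↥(V20o A q M)) (hx : ¬ IsUnit x) :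
    r20A A q M hq hqM hA x = 0 := by
  apply Subtype.ext
  rw [coe_r20A, s20_eq_zero_of_not_isUnit A q M x hx]
  rfl

theorem r20A_incl (a : ↥(VE0 A (M * q)))
    (h : inclL0 A (hleA q M) (a : ↥(L0 A (M * q))) ∈ V20o A q M) :
    r20A A q M hq hqM hA ⟨_, h⟩ = rE A (M * q) a := by
  apply Subtype.ext
  rw [coe_r20A, coe_rE]
  exact s20_inclA A q M a h

include hq hqM hA in
theorem r20A_surjective : Function.Surjective (r20A A q M hq hqM hA) := by
  intro y
  obtain ⟨a, rfl⟩ := rEA_surjective A q M hq hqM hA y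
  exact ⟨⟨_, hVE20A A q M a a.2⟩, r20A_incl A q M hq hqM hA a _⟩

/-! ### The residue field of `V11o`, as a subfield of `k((t))` -/

/-- The image of the residue map of `V11o`: the residue field of `V₁₁ ∩ L₀`. -/
def K11 : Subfield (LaurentSeries (kV A)) where
  carrier := Set.range (s11 A q M B k hB hq)
  mul_mem' := by
    rintro _ _ ⟨x, rfl⟩ ⟨y, rfl⟩
    exact ⟨x * y, map_mul _ x y⟩
  one_mem' := ⟨1, map_one _⟩
  add_mem' := by
    rintro _ _ ⟨x, rfl⟩ ⟨y, rfl⟩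
    exact ⟨x + y, map_add _ x y⟩
  zero_mem' := ⟨0, map_zero _⟩
  neg_mem' := by
    rintro _ ⟨x, rfl⟩
    exact ⟨-x, map_neg _ x⟩
  inv_mem' := by
    rintro _ ⟨x, rfl⟩
    by_cases hx : IsUnit x
    · obtain ⟨u, rfl⟩ := hx
      refine ⟨((u⁻¹ : (↥(V11o A q M B k hB hq))ˣ) : ↥(V11o A q M B k hB hq)), ?_⟩
      have h1 : s11 A q M B k hB hq (u : ↥(V11o A q M B k hB hq))
          * s11 A q M B k hB hq ((u⁻¹ : (↥(V11o A q M B k hB hq))ˣ) :
            ↥(V11o A q M B k hB hq)) = 1 := by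
        rw [← map_mul, Units.mul_inv, map_one]
      exact (inv_eq_of_mul_eq_one_right h1).symm
    · refine ⟨0, ?_⟩
      rw [s11_eq_zero_of_not_isUnit A q M B k hB hq x hx, map_zero, inv_zero]

theorem mem_K11_iff (y : LaurentSeries (kV A)) :
    y ∈ _root_.Fermat.Agent.S36.NU.H87.K11 A q M B k hB hq ↔ ∃ x, s11 A q M B k hB hq x = y := Iff.rfl

/-- The residue map of `V11o`, onto its residue field. -/
def r11K : ↥(V11o A q M B k hB hq) →+* ↥(_root_.Fermat.Agent.S36.NU.H87.K11 A q M B k hB hq) :=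
  (s11 A q M B k hB hq).codRestrict (_root_.Fermat.Agent.S36.NU.H87.K11 A q M B k hB hq) (fun x => ⟨x, rfl⟩)

theorem coe_r11K (x : ↥(V11o A q M B k hB hq)) :
    ((r11K A q M B k hB hq x : ↥(_root_.Fermat.Agent.S36.NU.H87.K11 A q M B k hB hq)) : LaurentSeries (kV A))
      = s11 A q M B k hB hq x := rfl

theorem r11K_surjective : Function.Surjective (r11K A q M B k hB hq) := by
  rintro ⟨_, x, rfl⟩
  exact ⟨x, rfl⟩

theorem r11K_eq_zero_of_not_isUnit (x : ↥(V11o A q M B k hB hq)) (hx : ¬ IsUnit x) :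
    r11K A q M B k hB hq x = 0 := by
  apply Subtype.ext
  rw [coe_r11K, s11_eq_zero_of_not_isUnit A q M B k hB hq x hx]
  rfl

include hq hqM hA in
/-- The residue field of level `M q` is contained in the residue field of `V11o`. -/
theorem FMq_le_K11 (c : FM A (M * q)) :
    (c : LaurentSeries (kV A)) ∈ _root_.Fermat.Agent.S36.NU.H87.K11 A q M B k hB hq := by
  obtain ⟨a, rfl⟩ := rEA_surjective A q M hq hqM hA c
  exact ⟨⟨_, hVE11A A q M B k hB hq a a.2⟩, s11_inclA A q M B k hB hq a _⟩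

/-- The structure map `C' → K₁₁`. -/
def incK11 : FM A (M * q) →+* ↥(_root_.Fermat.Agent.S36.NU.H87.K11 A q M B k hB hq) :=
  ((IntermediateField.val _).toRingHom).codRestrict (_root_.Fermat.Agent.S36.NU.H87.K11 A q M B k hB hq)
    (fun c => FMq_le_K11 A q M B k hB hq hqM hA c)

theorem coe_incK11 (c : FM A (M * q)) :
    ((incK11 A q M B k hB hq hqM hA c : ↥(_root_.Fermat.Agent.S36.NU.H87.K11 A q M B k hB hq)) : LaurentSeries (kV A))
      = (c : LaurentSeries (kV A)) := rfl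

/-- `K₁₁` as an algebra over the residue field of level `M q`. -/
@[reducible] def algK11 : Algebra (FM A (M * q)) ↥(_root_.Fermat.Agent.S36.NU.H87.K11 A q M B k hB hq) :=
  (incK11 A q M B k hB hq hqM hA).toAlgebra

theorem r11K_incl (a : ↥(VE0 A (M * q)))
    (h : inclL0 A (hleA q M) (a : ↥(L0 A (M * q))) ∈ V11o A q M B k hB hq) :
    r11K A q M B k hB hq ⟨_, h⟩
      = @algebraMap (FM A (M * q)) ↥(_root_.Fermat.Agent.S36.NU.H87.K11 A q M B k hB hq) _ _ (algK11 A q M B k hB hq hqM hA)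
          (rE A (M * q) a) := by
  apply Subtype.ext
  rw [coe_r11K]
  exact s11_inclA A q M B k hB hq a h

/-! ### The uniformisers -/

theorem coe_inclL0_piEA :
    ((inclL0 A (hleA q M) (piE A q (M * q)) : ↥(L0 A (M * q * q))) : FN (M * q * q))
      = ((q : ℕ) : FN (M * q * q)) := by
  rw [coe_inclL0, coe_piE, map_natCast]

include hA in
/-- **Ramification of `V11o`** over level `M q`: `v₁₁(q) = v₁₁(π₁) ^ (q - 1)`. -/
theorem hram11A :
    (V11o A q M B k hB hq).valuation (inclL0 A (hleA q M) (piE A q (M * q)))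
      = (V11o A q M B k hB hq).valuation (pi11 A q M) ^ (q - 1) := by
  rw [← map_pow, V11o, valuation_resV0_eq_iff, coe_inclL0_piEA]
  have h := ram11_j A q M B k hB hq hA (sq_dvd_lvl q M)
  rw [← map_pow] at h
  exact h.symm

include hq in
theorem q_sub_one_pos : 0 < q - 1 := Nat.sub_pos_of_lt hq.one_lt

/-! ### Degrees -/

theorem finite_FA :
    @Module.Finite (FN (M * q)) (FN (M * q * q)) _ _ (algF (hleA q M)).toModule :=
  (Fermat.Agent.RED.H51.stmt_FFB_finite _ _ _ (Fermat.Agent.RED.H95.stmt_HKA_isFF (M * q))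
    (Fermat.Agent.RED.H95.stmt_HKA_isFF (M * q * q))
    (IntermediateField.inclusion (hleA q M))).2

include hq in
theorem finrank_FA :
    @Module.finrank (FN (M * q)) (FN (M * q * q)) _ _ (algF (hleA q M)).toModule = q :=
  (Fermat.Agent.Lib.HeckeComm.relfinrank_FN (M * q) (M * q * q) ⟨q, rfl⟩).symm.trans
    (Fermat.Agent.S36.NU.H82.relfinrank_NU_top q M hq)

theorem finite_L0_A :
    @Module.Finite ↥(L0 A (M * q)) ↥(L0 A (M * q * q)) _ _ (algL0 A (hleA q M)).toModule :=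
  finite_L0 A (hleA q M) (finite_FA q M)

include hq in
/-- **`[L0 (M q²) : L0 (M q)] = q`**. -/
theorem finrank_L0_A :
    @Module.finrank ↥(L0 A (M * q)) ↥(L0 A (M * q * q)) _ _ (algL0 A (hleA q M)).toModule = q :=
  (finrank_L0 A (hleA q M) (finite_FA q M)).trans (finrank_FA q M hq)

/-! ### The preliminary `NRData`, with the residue field `K₁₁` of `V11o` -/

/-- The `NRData` of `L0 (M q²) / L0 (M q)` above `V₁`, with the residue field `K₁₁`. -/
def nrA1pre :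
    @Fermat.Agent.BAD.H42.NRData ↥(L0 A (M * q)) ↥(L0 A (M * q * q)) (FM A (M * q)) _ _ _
      (algL0 A (hleA q M)) (Fin 2) (kap2 (FM A (M * q)) ↥(_root_.Fermat.Agent.S36.NU.H87.K11 A q M B k hB hq)) _
      (kap2Alg (FM A (M * q)) ↥(_root_.Fermat.Agent.S36.NU.H87.K11 A q M B k hB hq) (algK11 A q M B k hB hq hqM hA)) :=
  letI := algL0 A (hleA q M)
  nr2 (algK11 A q M B k hB hq hqM hA) (VE0 A (M * q)) (rE A (M * q))
    (V20o A q M) (V11o A q M B k hB hq) (r20A A q M hq hqM hA) (r11K A q M B k hB hq)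
    (piE A q (M * q)) (pi11 A q M) (q - 1)
    (piE_ne_zero A q (M * q) hq) (piE_mem A q (M * q) hA) (rE_piE A q (M * q) hA)
    (hE_mod A q (M * q) hq hA)
    (fun a ha => hVE20A A q M a ha)
    (fun a ha => hVE11A A q M B k hB hq a ha)
    (rE_eq_zero_of_not_isUnit A (M * q))
    (r20A_surjective A q M hq hqM hA) (r11K_surjective A q M B k hB hq)
    (r20A_eq_zero_of_not_isUnit A q M hq hqM hA)
    (r11K_eq_zero_of_not_isUnit A q M B k hB hq)
    (fun a ha => r20A_incl A q M hq hqM hA a ha)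
    (fun a ha => r11K_incl A q M B k hB hq hqM hA a ha)
    (Fermat.Agent.S36.NU.H82.not_le_20_11 A q M B k hB hq hA)
    (Fermat.Agent.S36.NU.H82.not_le_11_20 A q M B k hB hq hA)
    (isArch_resV0 _ _ (Fermat.Agent.S36.NU.H82.isArch_V20 A hq hA (M * q * q)))
    (isArch_resV0 _ _
      (Fermat.Agent.S36.NU.H82.isArch_V11 A hq hA (M * q * q) M B k (lvl q M) hB))
    (val_pi11_lt_one A q M B k hB hq hA) (q_sub_one_pos q hq)
    (hram11A A q M B k hB hq hA)

include hqM hA in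
/-- **RES11 over level `M q`**: the reductions at `V₁₁` of the inertia-fixed functions lie in
the residue field of level `M q` (fundamental inequality: `1 + (q - 1) f ≤ q`). -/
theorem s11_memA (x : ↥(V11o A q M B k hB hq)) :
    s11 A q M B k hB hq x ∈ redField A (modularFunctionFieldBar (M * q)) (hScM A (M * q)) := by
  letI := algL0 A (hleA q M)
  haveI : Module.Finite ↥(L0 A (M * q)) ↥(L0 A (M * q * q)) := finite_L0_A A q M
  have hs := surjective_K1_two (algK11 A q M B k hB hq hqM hA)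
    (nrA1pre A q M B k hB hq hqM hA) q (q - 1) (finrank_L0_A A q M hq) ⟨rfl, rfl⟩
    (q_sub_one_pos q hq) (by have := hq.one_lt; omega)
  obtain ⟨c, hc⟩ := hs (r11K A q M B k hB hq x)
  have h1 : (c : LaurentSeries (kV A)) = s11 A q M B k hB hq x :=
    congrArg (fun z : ↥(_root_.Fermat.Agent.S36.NU.H87.K11 A q M B k hB hq) => (z : LaurentSeries (kV A))) hc
  rw [← h1]
  exact c.2

/-- The residue map of `V11o`, into the residue field of level `M q`. -/
def r11A : ↥(V11o A q M B k hB hq) →+* FM A (M * q) where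
  toFun x := ⟨s11 A q M B k hB hq x, s11_memA A q M B k hB hq hqM hA x⟩
  map_one' := Subtype.ext (map_one (s11 A q M B k hB hq))
  map_mul' x y := Subtype.ext (map_mul (s11 A q M B k hB hq) x y)
  map_zero' := Subtype.ext (map_zero (s11 A q M B k hB hq))
  map_add' x y := Subtype.ext (map_add (s11 A q M B k hB hq) x y)

theorem coe_r11A (x : ↥(V11o A q M B k hB hq)) :
    ((r11A A q M B k hB hq hqM hA x : FM A (M * q)) : LaurentSeries (kV A))
      = s11 A q M B k hB hq x := rfl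

theorem r11A_eq_zero_of_not_isUnit (x : ↥(V11o A q M B k hB hq)) (hx : ¬ IsUnit x) :
    r11A A q M B k hB hq hqM hA x = 0 := by
  apply Subtype.ext
  rw [coe_r11A, s11_eq_zero_of_not_isUnit A q M B k hB hq x hx]
  rfl

theorem r11A_incl (a : ↥(VE0 A (M * q)))
    (h : inclL0 A (hleA q M) (a : ↥(L0 A (M * q))) ∈ V11o A q M B k hB hq) :
    r11A A q M B k hB hq hqM hA ⟨_, h⟩ = rE A (M * q) a := by
  apply Subtype.ext
  rw [coe_r11A, coe_rE]
  exact s11_inclA A q M B k hB hq a h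

theorem r11A_surjective : Function.Surjective (r11A A q M B k hB hq hqM hA) := by
  intro y
  obtain ⟨a, rfl⟩ := rEA_surjective A q M hq hqM hA y
  exact ⟨⟨_, hVE11A A q M B k hB hq a a.2⟩, r11A_incl A q M B k hB hq hqM hA a _⟩

/-! ### The `NRData` of `L0 (M q²) / L0 (M q)` above `V₁` -/

/-- The structure maps of the residue fields: the identity, twice. -/
@[reducible] def algA : ∀ i, Algebra (FM A (M * q)) (kap2 (FM A (M * q)) (FM A (M * q)) i) :=
  kap2Alg (FM A (M * q)) (FM A (M * q)) (Algebra.id (FM A (M * q)))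

/-- **NM-A1**: the `NRData` of `L0 (M q²) / L0 (M q)` (along `α`) above the Gauss valuation
`V₁` of level `M q`: `VE = VE0 A (M q)`, `ϖ = q`; `V = (V20o, V11o)`, `red = (r20A, r11A)`,
`e = (1, q - 1)`, `π = (q, j(t^{q²}) - j(t))`; all residue fields are `FM A (M q)`. -/
def nrA1 :
    @Fermat.Agent.BAD.H42.NRData ↥(L0 A (M * q)) ↥(L0 A (M * q * q)) (FM A (M * q)) _ _ _
      (algL0 A (hleA q M)) (Fin 2) (kap2 (FM A (M * q)) (FM A (M * q))) _ (algA A q M) :=
  letI := algL0 A (hleA q M)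
  nr2 (Algebra.id (FM A (M * q))) (VE0 A (M * q)) (rE A (M * q))
    (V20o A q M) (V11o A q M B k hB hq) (r20A A q M hq hqM hA) (r11A A q M B k hB hq hqM hA)
    (piE A q (M * q)) (pi11 A q M) (q - 1)
    (piE_ne_zero A q (M * q) hq) (piE_mem A q (M * q) hA) (rE_piE A q (M * q) hA)
    (hE_mod A q (M * q) hq hA)
    (fun a ha => hVE20A A q M a ha)
    (fun a ha => hVE11A A q M B k hB hq a ha)
    (rE_eq_zero_of_not_isUnit A (M * q))
    (r20A_surjective A q M hq hqM hA) (r11A_surjective A q M B k hB hq hqM hA)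
    (r20A_eq_zero_of_not_isUnit A q M hq hqM hA)
    (r11A_eq_zero_of_not_isUnit A q M B k hB hq hqM hA)
    (fun a ha => r20A_incl A q M hq hqM hA a ha)
    (fun a ha => r11A_incl A q M B k hB hq hqM hA a ha)
    (Fermat.Agent.S36.NU.H82.not_le_20_11 A q M B k hB hq hA)
    (Fermat.Agent.S36.NU.H82.not_le_11_20 A q M B k hB hq hA)
    (isArch_resV0 _ _ (Fermat.Agent.S36.NU.H82.isArch_V20 A hq hA (M * q * q)))
    (isArch_resV0 _ _
      (Fermat.Agent.S36.NU.H82.isArch_V11 A hq hA (M * q * q) M B k (lvl q M) hB))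
    (val_pi11_lt_one A q M B k hB hq hA) (q_sub_one_pos q hq)
    (hram11A A q M B k hB hq hA)

/-! The fields, by `rfl`. -/

theorem nrA1_VE :
    @Fermat.Agent.BAD.H42.NRData.VE ↥(L0 A (M * q)) ↥(L0 A (M * q * q)) (FM A (M * q)) _ _ _
      (algL0 A (hleA q M)) (Fin 2) (kap2 (FM A (M * q)) (FM A (M * q))) _ (algA A q M)
      (nrA1 A q M B k hB hq hqM hA) = VE0 A (M * q) := rfl

theorem nrA1_redE :
    @Fermat.Agent.BAD.H42.NRData.redE ↥(L0 A (M * q)) ↥(L0 A (M * q * q)) (FM A (M * q)) _ _ _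
      (algL0 A (hleA q M)) (Fin 2) (kap2 (FM A (M * q)) (FM A (M * q))) _ (algA A q M)
      (nrA1 A q M B k hB hq hqM hA) = rE A (M * q) := rfl

theorem nrA1_ϖ :
    @Fermat.Agent.BAD.H42.NRData.ϖ ↥(L0 A (M * q)) ↥(L0 A (M * q * q)) (FM A (M * q)) _ _ _
      (algL0 A (hleA q M)) (Fin 2) (kap2 (FM A (M * q)) (FM A (M * q))) _ (algA A q M)
      (nrA1 A q M B k hB hq hqM hA) = piE A q (M * q) := rfl

theorem nrA1_V0 :
    @Fermat.Agent.BAD.H42.NRData.V ↥(L0 A (M * q)) ↥(L0 A (M * q * q)) (FM A (M * q)) _ _ _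
      (algL0 A (hleA q M)) (Fin 2) (kap2 (FM A (M * q)) (FM A (M * q))) _ (algA A q M)
      (nrA1 A q M B k hB hq hqM hA) 0 = V20o A q M := rfl

theorem nrA1_V1 :
    @Fermat.Agent.BAD.H42.NRData.V ↥(L0 A (M * q)) ↥(L0 A (M * q * q)) (FM A (M * q)) _ _ _
      (algL0 A (hleA q M)) (Fin 2) (kap2 (FM A (M * q)) (FM A (M * q))) _ (algA A q M)
      (nrA1 A q M B k hB hq hqM hA) 1 = V11o A q M B k hB hq := rfl

theorem nrA1_red0 :
    @Fermat.Agent.BAD.H42.NRData.red ↥(L0 A (M * q)) ↥(L0 A (M * q * q)) (FM A (M * q)) _ _ _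
      (algL0 A (hleA q M)) (Fin 2) (kap2 (FM A (M * q)) (FM A (M * q))) _ (algA A q M)
      (nrA1 A q M B k hB hq hqM hA) 0 = r20A A q M hq hqM hA := rfl

theorem nrA1_red1 :
    @Fermat.Agent.BAD.H42.NRData.red ↥(L0 A (M * q)) ↥(L0 A (M * q * q)) (FM A (M * q)) _ _ _
      (algL0 A (hleA q M)) (Fin 2) (kap2 (FM A (M * q)) (FM A (M * q))) _ (algA A q M)
      (nrA1 A q M B k hB hq hqM hA) 1 = r11A A q M B k hB hq hqM hA := rfl

theorem nrA1_e0 :
    @Fermat.Agent.BAD.H42.NRData.e ↥(L0 A (M * q)) ↥(L0 A (M * q * q)) (FM A (M * q)) _ _ _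
      (algL0 A (hleA q M)) (Fin 2) (kap2 (FM A (M * q)) (FM A (M * q))) _ (algA A q M)
      (nrA1 A q M B k hB hq hqM hA) 0 = 1 := rfl

theorem nrA1_e1 :
    @Fermat.Agent.BAD.H42.NRData.e ↥(L0 A (M * q)) ↥(L0 A (M * q * q)) (FM A (M * q)) _ _ _
      (algL0 A (hleA q M)) (Fin 2) (kap2 (FM A (M * q)) (FM A (M * q))) _ (algA A q M)
      (nrA1 A q M B k hB hq hqM hA) 1 = q - 1 := rfl

theorem nrA1_π0 :
    @Fermat.Agent.BAD.H42.NRData.π ↥(L0 A (M * q)) ↥(L0 A (M * q * q)) (FM A (M * q)) _ _ _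
      (algL0 A (hleA q M)) (Fin 2) (kap2 (FM A (M * q)) (FM A (M * q))) _ (algA A q M)
      (nrA1 A q M B k hB hq hqM hA) 0 = inclL0 A (hleA q M) (piE A q (M * q)) := rfl

theorem nrA1_π1 :
    @Fermat.Agent.BAD.H42.NRData.π ↥(L0 A (M * q)) ↥(L0 A (M * q * q)) (FM A (M * q)) _ _ _
      (algL0 A (hleA q M)) (Fin 2) (kap2 (FM A (M * q)) (FM A (M * q))) _ (algA A q M)
      (nrA1 A q M B k hB hq hqM hA) 1 = pi11 A q M := rfl

/-- **`∑ e f = [L0 (M q²) : L0 (M q)] = q`**. -/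
theorem nrA1_hdeg :
    ∑ i, @Fermat.Agent.BAD.H42.NRData.e ↥(L0 A (M * q)) ↥(L0 A (M * q * q)) (FM A (M * q)) _ _ _
          (algL0 A (hleA q M)) (Fin 2) (kap2 (FM A (M * q)) (FM A (M * q))) _ (algA A q M)
          (nrA1 A q M B k hB hq hqM hA) i
        * @Module.finrank (FM A (M * q)) (kap2 (FM A (M * q)) (FM A (M * q)) i) _ _
            (algA A q M i).toModule
      = @Module.finrank ↥(L0 A (M * q)) ↥(L0 A (M * q * q)) _ _
          (algL0 A (hleA q M)).toModule := by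
  letI := algL0 A (hleA q M)
  haveI : Module.Finite ↥(L0 A (M * q)) ↥(L0 A (M * q * q)) := finite_L0_A A q M
  exact hdeg_two (Algebra.id (FM A (M * q))) (nrA1 A q M B k hB hq hqM hA) q (q - 1)
    (finrank_L0_A A q M hq) ⟨rfl, rfl⟩ (q_sub_one_pos q hq) (by have := hq.one_lt; omega)

/-! ### NORM-RED along `α` above `V₁` -/

include hqM hA in
/-- **NORM-RED along `α` above `V₁`**, in `k((t))`: for an inertia-fixed function `h` of level
`M q²` in `V₂₀ ∩ V₁₁`, the norm `N h` to `L0 (M q)` is Gauss-integral and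
`red (N h) = red₂₀ h * red₁₁ h ^ (q - 1)`. -/
theorem normA1 (h : ↥(L0 A (M * q * q))) (h20 : h ∈ V20o A q M)
    (h11 : h ∈ V11o A q M B k hB hq) :
    ∃ δ : ↥(VE0 A (M * q)),
      @Algebra.norm ↥(L0 A (M * q)) ↥(L0 A (M * q * q)) _ _ (algL0 A (hleA q M)) h
        = (δ : ↥(L0 A (M * q))) ∧
      sE A (M * q) δ = s20 A q M ⟨h, h20⟩ * s11 A q M B k hB hq ⟨h, h11⟩ ^ (q - 1) := by
  letI := algL0 A (hleA q M)
  letI := algA A q M
  haveI : Module.Finite ↥(L0 A (M * q)) ↥(L0 A (M * q * q)) := finite_L0_A A q M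
  haveI : ∀ i, Module.Finite (FM A (M * q)) (kap2 (FM A (M * q)) (FM A (M * q)) i) :=
    fun i => (nrA1 A q M B k hB hq hqM hA).finite_res i
  have hh : ∀ i, h ∈ (nrA1 A q M B k hB hq hqM hA).V i := by
    intro i
    fin_cases i
    · exact h20
    · exact h11
  obtain ⟨δ, h1, h2⟩ := (nrA1 A q M B k hB hq hqM hA).normRed
    (nrA1_hdeg A q M B k hB hq hqM hA) h hh
  refine ⟨δ, h1, ?_⟩
  rw [Fin.prod_univ_two] at h2
  have e0 : Algebra.norm (FM A (M * q))
      ((nrA1 A q M B k hB hq hqM hA).red 0 ⟨h, hh 0⟩) = r20A A q M hq hqM hA ⟨h, h20⟩ :=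
    congrArg (fun f : FM A (M * q) →* FM A (M * q) => f (r20A A q M hq hqM hA ⟨h, h20⟩))
      (Algebra.norm_self (FM A (M * q)))
  have e1 : Algebra.norm (FM A (M * q))
      ((nrA1 A q M B k hB hq hqM hA).red 1 ⟨h, hh 1⟩)
        = r11A A q M B k hB hq hqM hA ⟨h, h11⟩ :=
    congrArg (fun f : FM A (M * q) →* FM A (M * q) =>
      f (r11A A q M B k hB hq hqM hA ⟨h, h11⟩)) (Algebra.norm_self (FM A (M * q)))
  rw [e0, e1] at h2
  have h3 : rE A (M * q) δ
      = r20A A q M hq hqM hA ⟨h, h20⟩ ^ 1 * r11A A q M B k hB hq hqM hA ⟨h, h11⟩ ^ (q - 1) := h2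
  rw [pow_one] at h3
  have h4 := congrArg (fun z : FM A (M * q) => (z : LaurentSeries (kV A))) h3
  exact h4

include hqM hA in
/-- **NORM-RED along `α` above `V₁`**, for the norm of `F_{M q²} / F_{M q}`. -/
theorem normA1_F (h : ↥(L0 A (M * q * q))) (h20 : h ∈ V20o A q M)
    (h11 : h ∈ V11o A q M B k hB hq) :
    ∃ hm : @Algebra.norm (FN (M * q)) (FN (M * q * q)) _ _ (algF (hleA q M))
        (h : FN (M * q * q)) ∈ VM A (M * q),
      ((redM A (M * q) ⟨_, hm⟩ : FM A (M * q)) : LaurentSeries (kV A))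
        = s20 A q M ⟨h, h20⟩ * s11 A q M B k hB hq ⟨h, h11⟩ ^ (q - 1) := by
  obtain ⟨δ, h1, h2⟩ := normA1 A q M B k hB hq hqM hA h h20 h11
  have e : @Algebra.norm (FN (M * q)) (FN (M * q * q)) _ _ (algF (hleA q M))
      (h : FN (M * q * q)) = ((δ : ↥(L0 A (M * q))) : FN (M * q)) := by
    rw [norm_L0 A (hleA q M) (finite_FA q M) h, h1]
  have hm : @Algebra.norm (FN (M * q)) (FN (M * q * q)) _ _ (algF (hleA q M))
      (h : FN (M * q * q)) ∈ VM A (M * q) := by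
    rw [e]; exact δ.2
  refine ⟨hm, ?_⟩
  rw [← h2]
  show gaussRedV A ⟨_, hm⟩ = gaussRedV A ⟨_, δ.2⟩
  congr 1
  exact Subtype.ext (congrArg (fun z : FN (M * q) => (z : LaurentSeries Kbar)) e)

end NrA1

end Fermat.Agent.S36.NU.H87

end
end
-- ==== END Fermat.Agent.S36.NU.H87_NrA1

-- ==== BEGIN Fermat.Agent.S36.NU.H99_OrdInt
section

/-!
# S36 / NU-B, (M4) LOCEQ at the ordinary points: horizontal integrality (helper99)

* `IsUnitOff N f` : `f ∈ F_N` has neither zero nor pole at the places where `j` is regular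
  (stable under products, inverses; contains the constants `≠ 0` and the modular units `unitF`);
* `isIntegral_bar_of_unitOff` : such an `f` is integral over `ℚ̄[j]`;
* `isIntegral_Kur_of_bar` : an inertia-fixed function which is integral over `ℚ̄[j]` is integral
  over `K^ur[j]`.
-/

set_option autoImplicit false
set_option synthInstance.maxHeartbeats 400000
set_option maxHeartbeats 1000000
set_option linter.unusedSectionVars false
set_option linter.style.haveILetI false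

noncomputable section

open ModularCurve AlgebraicCurve IntermediateField
open Fermat.Agent.S24 Fermat.Agent.BAD.H88 Fermat.Agent.BAD.H30 Fermat.Agent.BAD.H21
open Fermat.Agent.S28 Fermat.Agent.S28.H73 Fermat.Agent.RED.H73 Fermat.Agent.RED.H17
open Fermat.Agent.S36.NU.H88 Fermat.Agent.S36.NU.H23
open Fermat.Agent.S36.NU.H41 Fermat.Agent.RED

namespace Fermat.Agent.S36.NU.H99

section Bar

variable (N : ℕ) [NeZero N]

/-- `f` has neither zero nor pole at the places where `j` is regular. -/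
def IsUnitOff (f : FN N) : Prop :=
  f ≠ 0 ∧ ∀ P : Place Kbar (FN N), 0 ≤ P.ord (Fermat.Agent.S24.jF N) → P.ord f = 0

variable {N}

theorem IsUnitOff.mul {f g : FN N} (hf : IsUnitOff N f) (hg : IsUnitOff N g) :
    IsUnitOff N (f * g) :=
  ⟨mul_ne_zero hf.1 hg.1, fun P hP => by
    rw [P.ord_mul hf.1 hg.1, hf.2 P hP, hg.2 P hP, add_zero]⟩

theorem IsUnitOff.inv {f : FN N} (hf : IsUnitOff N f) : IsUnitOff N f⁻¹ :=
  ⟨inv_ne_zero hf.1, fun P hP => by
    rw [P.ord_inv, hf.2 P hP, neg_zero]⟩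

theorem IsUnitOff.pow {f : FN N} (hf : IsUnitOff N f) (n : ℕ) : IsUnitOff N (f ^ n) := by
  induction n with
  | zero =>
    rw [pow_zero]
    exact ⟨one_ne_zero, fun P _ => P.ord_one⟩
  | succ n ih =>
    rw [pow_succ]
    exact ih.mul hf

theorem isUnitOff_const {c : Kbar} (hc : c ≠ 0) : IsUnitOff N (algebraMap Kbar (FN N) c) :=
  ⟨(map_ne_zero _).2 hc, fun P _ => Fermat.Agent.RED.H17.ord_algebraMap P c⟩

theorem isUnitOff_unitF (d : ℕ) [NeZero d] (hd : d ∣ N) : IsUnitOff N (unitF N d hd) :=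
  ⟨unitF_ne_zero N d hd, fun P hP => ord_unitF N d hd P hP⟩

/-- **Horizontal integrality over `ℚ̄[j]`.** -/
theorem isIntegral_bar_of_unitOff {f : FN N} (hf : IsUnitOff N f) :
    IsIntegral ↥(Algebra.adjoin Kbar ({Fermat.Agent.S24.jF N} : Set (FN N))) f := by
  haveI : Module.Finite ↥(Kbar⟮Fermat.Agent.S24.jF N⟯) (FN N) :=
    asm_finiteDimensional (modClosure N)
  haveI : Algebra.IsSeparable ↥(Kbar⟮Fermat.Agent.S24.jF N⟯) (FN N) :=
    Algebra.IsAlgebraic.isSeparable_of_perfectField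
  refine Fermat.Agent.RED.H79.isIntegral_of_forall_ordGe (K := Kbar) (Fermat.Agent.S24.jF N)
    (jF_transcendental N) f fun P hP => Or.inr ?_
  rw [hf.2 P (Fermat.Agent.S24.H85.ord_nonneg_of_mem P hP)]

end Bar

section Descent

variable (A : ValuationSubring Kbar) (N : ℕ) [NeZero N]

/-- Constants are integral over `K^ur[j]`. -/
theorem isIntegral_Kur_const (c : Kbar) :
    IsIntegral ↥(Algebra.adjoin ↥(Kur A) ({Fermat.Agent.S24.jF N} : Set (FN N)))
      (algebraMap Kbar (FN N) c) := by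
  haveI : Algebra.IsAlgebraic ℚ Kbar := AlgebraicClosure.isAlgebraic ℚ
  have hQ : IsIntegral ℚ c := Algebra.IsIntegral.isIntegral c
  have h1 : IsIntegral ↥(Kur A) c := hQ.tower_top
  have h2 : IsIntegral ↥(Kur A) (algebraMap Kbar (FN N) c) :=
    h1.map (IsScalarTower.toAlgHom ↥(Kur A) Kbar (FN N))
  exact h2.tower_top

/-- `ℚ̄[j]` is integral over `K^ur[j]`. -/
theorem isIntegral_Kur_of_mem_adjoin {y : FN N}
    (hy : y ∈ Algebra.adjoin Kbar ({Fermat.Agent.S24.jF N} : Set (FN N))) :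
    IsIntegral ↥(Algebra.adjoin ↥(Kur A) ({Fermat.Agent.S24.jF N} : Set (FN N))) y := by
  induction hy using Algebra.adjoin_induction with
  | mem z hz =>
    rw [Set.mem_singleton_iff] at hz
    subst hz
    exact isIntegral_algebraMap (R := ↥(Algebra.adjoin ↥(Kur A)
      ({Fermat.Agent.S24.jF N} : Set (FN N)))) (A := FN N)
      (x := ⟨Fermat.Agent.S24.jF N, Algebra.self_mem_adjoin_singleton _ _⟩)
  | algebraMap c => exact isIntegral_Kur_const A N c
  | add _ _ _ _ h1 h2 => exact h1.add h2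
  | mul _ _ _ _ h1 h2 => exact h1.mul h2

/-- Integral over `ℚ̄[j]` ⟹ integral over `K^ur[j]` (in `F_N`). -/
theorem isIntegral_Kur_of_bar' {x : FN N}
    (hx : IsIntegral ↥(Algebra.adjoin Kbar ({Fermat.Agent.S24.jF N} : Set (FN N))) x) :
    IsIntegral ↥(Algebra.adjoin ↥(Kur A) ({Fermat.Agent.S24.jF N} : Set (FN N))) x := by
  have h1 : IsIntegral ↥(integralClosure ↥(Algebra.adjoin ↥(Kur A)
      ({Fermat.Agent.S24.jF N} : Set (FN N))) (FN N)) x := by
    refine Fermat.Agent.S36.NU.H17.isIntegral_of_le ?_ hx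
    rintro ⟨a, ha⟩
    exact ⟨⟨a, isIntegral_Kur_of_mem_adjoin A N ha⟩, rfl⟩
  exact isIntegral_trans x h1

/-- **Integral over `ℚ̄[j]` ⟹ integral over `K^ur[j]`** for the inertia-fixed functions. -/
theorem isIntegral_Kur_of_bar (x : ↥(L0 A N))
    (hx : IsIntegral ↥(Algebra.adjoin Kbar ({Fermat.Agent.S24.jF N} : Set (FN N)))
      (x : FN N)) :
    IsIntegral ↥(Algebra.adjoin ↥(Kur A) ({j0 A N} : Set ↥(L0 A N))) x := by
  have h1 := isIntegral_Kur_of_bar' A N hx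
  have h2 : IsIntegral ↥(Algebra.adjoin ↥(Kur A) ({j0 A N} : Set ↥(L0 A N)))
      (algebraMap ↥(L0 A N) (FN N) x) := by
    refine Fermat.Agent.S36.NU.H17.isIntegral_of_le ?_ h1
    rintro ⟨a, ha⟩
    induction ha using Algebra.adjoin_induction with
    | mem z hz =>
      rw [Set.mem_singleton_iff] at hz
      subst hz
      exact ⟨⟨j0 A N, Algebra.self_mem_adjoin_singleton _ _⟩, rfl⟩
    | algebraMap c => exact ⟨algebraMap _ _ c, rfl⟩
    | add _ _ _ _ h1 h2 =>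
      obtain ⟨b1, hb1⟩ := h1
      obtain ⟨b2, hb2⟩ := h2
      exact ⟨b1 + b2, by rw [map_add, hb1, hb2]; rfl⟩
    | mul _ _ _ _ h1 h2 =>
      obtain ⟨b1, hb1⟩ := h1
      obtain ⟨b2, hb2⟩ := h2
      exact ⟨b1 * b2, by rw [map_mul, hb1, hb2]; rfl⟩
  exact (isIntegral_algebraMap_iff (FaithfulSMul.algebraMap_injective ↥(L0 A N) (FN N))).1 h2

end Descent

end Fermat.Agent.S36.NU.H99

end
end
-- ==== END Fermat.Agent.S36.NU.H99_OrdInt
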