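-- GENERATED (merged mirror, NOTES/tools/trim/merge3_helper67.py): 4 modules of the originals, bodies verbatim.
import Fermat.Agent.Zm.S36_L10_000
import Fermat.Agent.RED.H17_Place
import Fermat.Agent.Zm.S36_L08_001
import Fermat.Agent.Zm.S36_L01_002
import Fermat.Agent.Zm.S36_L04_001

-- ==== BEGIN Fermat.Agent.S36.NU.H10_FinTop
section
attribute [local instance 10000] SubalgebraClass.toAlgebra
attribute [local instance 10000] HahnSeries.powerSeriesAlgebra

/-!
# S36 / NU-B, FIN-TOP (helper10): `Stmt_NUCoreTame` from the modular targets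

* `fin_top` : `Stmt_FinMod → Stmt_ValVecMod → Stmt_NormPow0 → Stmt_NormFix →` the body of
  `H81.Stmt_NUCoreK (M q) q` with the exponent `K = (q + 1) E`;
* `nuCoreK_of`, `nuCore_of` : `H81.Stmt_NUCoreK (M q) q`, `H81.Stmt_NUCore (M q) q p`;
* `nuCoreTame_of` : `H81.Stmt_NUCoreTame` from the four targets at all tame levels.
-/

set_option autoImplicit false
set_option linter.style.haveILetI false
set_option linter.unusedSectionVars false
set_option maxHeartbeats 1000000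
set_option synthInstance.maxHeartbeats 400000

noncomputable section

open ModularCurve AlgebraicCurve
open Fermat.Agent.S24 Fermat.Agent.BAD Fermat.Agent.BAD.H88 Fermat.Agent.Lib.HeckeComm
open Fermat.Agent.S36.NU.H23 Fermat.Agent.S36.NU.H81

namespace Fermat.Agent.S36.NU.H10

/-! ### Generalities on `normAlongHom` -/

section Norm

variable {E L : Type*} [Field E] [Field L] (φ : E →+* L)

theorem normAlongHom_mul (x y : L) :
    normAlongHom φ (x * y) = normAlongHom φ x * normAlongHom φ y := by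
  letI := φ.toAlgebra
  exact map_mul (Algebra.norm E) x y

theorem normAlongHom_pow (x : L) (n : ℕ) : normAlongHom φ (x ^ n) = normAlongHom φ x ^ n := by
  letI := φ.toAlgebra
  exact map_pow (Algebra.norm E) x n

theorem normAlongHom_apply (x : E) :
    normAlongHom φ (φ x) = x ^ (letI := φ.toAlgebra; Module.finrank E L) := by
  letI := φ.toAlgebra
  exact Algebra.norm_algebraMap x

end Norm

/-! ### Inertia-fixed functions -/

theorem mem_L0_of_galF (A : ValuationSubring Kbar) {N : ℕ} (f : FN N)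
    (h : ∀ σ ∈ A.inertiaSubgroupIn ℚ, galF N σ • f = f) : f ∈ L0 A N :=
  fun σ hσ => h σ hσ

section Main

variable (A : ValuationSubring Kbar) (q M : ℕ) (B k : ℤ) (hB : B * M + k * q = 1) (hq : q.Prime)
  [NeZero M] [NeZero q] [NeZero (M * q * q)]

/-- The norm of a constant is a constant. -/
theorem normAlongHom_const (φ : FN (M * q) →ₐ[Kbar] FN (M * q * q)) (c : Kbar) :
    ∃ d : ℕ, normAlongHom φ.toRingHom (algebraMap Kbar (FN (M * q * q)) c)
      = algebraMap Kbar (FN (M * q)) (c ^ d) := by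
  refine ⟨(letI := φ.toRingHom.toAlgebra; Module.finrank (FN (M * q)) (FN (M * q * q))), ?_⟩
  have h1 : algebraMap Kbar (FN (M * q * q)) c
      = φ.toRingHom (algebraMap Kbar (FN (M * q)) c) := (φ.commutes c).symm
  rw [h1, normAlongHom_apply, map_pow]

include hq in
/-- `IsNormPow0` is stable under `f ↦ f ^ E * const * wⁿ`. -/
theorem isNormPow0_mul (φ : FN (M * q) →ₐ[Kbar] FN (M * q * q)) (n : ℕ) (E : ℕ)
    (f w : FN (M * q * q)) (c₀ : Kbar) (hc₀ : ∀ σ ∈ A.inertiaSubgroupIn ℚ, σ c₀ = c₀)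
    (hw : normAlongHom φ.toRingHom w ∈ L0 A (M * q))
    (hf : IsNormPow0 A q M φ n f) :
    IsNormPow0 A q M φ n (f ^ E * algebraMap Kbar (FN (M * q * q)) c₀ * w ^ n) := by
  obtain ⟨c, g, hc, hg, hN⟩ := hf
  obtain ⟨d, hd⟩ := normAlongHom_const q M φ c₀
  refine ⟨c ^ E * c₀ ^ d, g ^ E * normAlongHom φ.toRingHom w, ?_, ?_, ?_⟩
  · intro σ hσ
    rw [map_mul, map_pow, map_pow, hc σ hσ, hc₀ σ hσ]
  · exact mul_mem (pow_mem hg E) hw
  · rw [normAlongHom_mul, normAlongHom_mul, normAlongHom_pow, normAlongHom_pow, hN, hd,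
      map_mul, map_pow, map_pow]
    ring

include hq in
/-- **FIN-TOP**: the body of `Stmt_NUCoreK (M q) q` from the modular targets. -/
theorem fin_top (hFin : Stmt_FinMod A q M B k hB hq) (hVV : Stmt_ValVecMod A q M B k hB hq)
    (hNP : Stmt_NormPow0 A q M) (hNF : Stmt_NormFix A q M) :
    ∃ K : ℕ, K ≠ 0 ∧ ∀ (n : ℕ), ¬ q ∣ n → ∀ (f : FN (M * q * q)), f ≠ 0 →
      (∀ P : Place Kbar (FN (M * q * q)), (n : ℤ) ∣ P.ord f) →
      (∀ σ ∈ A.inertiaSubgroupIn ℚ, galF (M * q * q) σ • f = f) →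
      ∀ (hα : HeckeAlphaBarIntegral Kbar (M * q) q) (hβ : HeckeBetaBarIntegral Kbar (M * q) q)
        (D : Divisor Kbar (FN (M * q * q))), (∀ P, D P = P.ord f) →
      (∃ g : FN (M * q), g ≠ 0 ∧ ∀ Q : Place Kbar (FN (M * q)),
        Divisor.pushforwardAlong (heckeAlphaBar Kbar (M * q) q) hα D Q = n * Q.ord g) →
      (∃ g : FN (M * q), g ≠ 0 ∧ ∀ Q : Place Kbar (FN (M * q)),
        Divisor.pushforwardAlong (heckeBetaBar Kbar (M * q) q) hβ D Q = n * Q.ord g) →
      ∃ t : FN (M * q * q), t ^ n = f ^ K := by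
  obtain ⟨E, hE0, hE⟩ := hFin
  refine ⟨(q + 1) * E, Nat.mul_ne_zero (Nat.succ_ne_zero q) hE0, ?_⟩
  intro n hqn f hf0 hdiv hI hα hβ D hD hpα hpβ
  have hn : 0 < n := Nat.pos_of_ne_zero (by rintro rfl; exact hqn (dvd_zero q))
  have hcop : Nat.Coprime n q := ((Nat.Prime.coprime_iff_not_dvd hq).2 hqn).symm
  have hfL : f ∈ L0 A (M * q * q) := mem_L0_of_galF A f hI
  obtain ⟨hNα, hNβ⟩ := hNP n hn f hf0 hfL hα hβ D hD hpα hpβ
  have hf0' : (⟨f, hfL⟩ : ↥(L0 A (M * q * q))) ≠ 0 := fun h => hf0 (congrArg Subtype.val h)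
  obtain ⟨b, w, hw0, hU⟩ := hVV n hn ⟨f, hfL⟩ hf0' hNα hNβ
  -- the constant `q ^ (-b)`
  set c₀ : Kbar := ((q : ℕ) : Kbar) ^ (-b) with hc₀
  have hq0 : ((q : ℕ) : Kbar) ≠ 0 := Nat.cast_ne_zero.mpr hq.ne_zero
  have hc₀0 : c₀ ≠ 0 := zpow_ne_zero _ hq0
  have hc₀I : ∀ σ ∈ A.inertiaSubgroupIn ℚ, σ c₀ = c₀ := fun σ _ => by
    rw [hc₀, map_zpow₀, map_natCast]
  set h : ↥(L0 A (M * q * q)) :=
    (⟨f, hfL⟩ : ↥(L0 A (M * q * q))) ^ (q + 1) * ((q : ℕ) : ↥(L0 A (M * q * q))) ^ (-b) * w ^ n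
    with hh
  have hcoe : (h : FN (M * q * q))
      = f ^ (q + 1) * algebraMap Kbar (FN (M * q * q)) c₀ * (w : FN (M * q * q)) ^ n := by
    rw [hh, hc₀, map_zpow₀, map_natCast]
    push_cast
    rfl
  have hw0' : (w : FN (M * q * q)) ≠ 0 := fun h0 => hw0 (Subtype.ext h0)
  have hC0 : algebraMap Kbar (FN (M * q * q)) c₀ ≠ 0 :=
    (map_ne_zero (algebraMap Kbar (FN (M * q * q)))).2 hc₀0
  -- divisibility of the divisor of `h`
  have hdivh : ∀ P : Place Kbar (FN (M * q * q)), (n : ℤ) ∣ P.ord (h : FN (M * q * q)) := by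
    intro P
    rw [hcoe, Place.ord_mul P (mul_ne_zero (pow_ne_zero _ hf0) hC0) (pow_ne_zero _ hw0'),
      Place.ord_mul P (pow_ne_zero _ hf0) hC0, Fermat.Agent.RED.H17.ord_pow,
      Fermat.Agent.RED.H17.ord_pow, Fermat.Agent.RED.H17.ord_algebraMap, add_zero]
    exact dvd_add (Dvd.dvd.mul_left (hdiv P) _) (dvd_mul_right _ _)
  -- the norms of `h`
  have hNαh : IsNormPow0 A q M (heckeAlphaBar Kbar (M * q) q) n (h : FN (M * q * q)) := by
    rw [hcoe]
    exact isNormPow0_mul A q M hq _ n (q + 1) f w c₀ hc₀I (hNF w w.2).1 hNα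
  have hNβh : IsNormPow0 A q M (heckeBetaBar Kbar (M * q) q) n (h : FN (M * q * q)) := by
    rw [hcoe]
    exact isNormPow0_mul A q M hq _ n (q + 1) f w c₀ hc₀I (hNF w w.2).2 hNβ
  obtain ⟨s, c, hs0, hsc⟩ := hE n hn hcop h hU hdivh hNαh hNβh
  -- an `n`-th root of the constant
  obtain ⟨γ, hγ⟩ := IsAlgClosed.exists_pow_nat_eq (c * (c₀⁻¹) ^ E) hn
  refine ⟨algebraMap Kbar (FN (M * q * q)) γ * ((w : FN (M * q * q)) ^ E * s)⁻¹, ?_⟩
  have hWs : ((w : FN (M * q * q)) ^ E * s) ^ n ≠ 0 :=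
    pow_ne_zero _ (mul_ne_zero (pow_ne_zero _ hw0') hs0)
  rw [mul_pow, inv_pow, ← map_pow, hγ, map_mul, map_pow, map_inv₀, ← hsc, hcoe,
    mul_inv_eq_iff_eq_mul₀ hWs]
  have hCE : algebraMap Kbar (FN (M * q * q)) c₀ ^ E ≠ 0 := pow_ne_zero _ hC0
  rw [inv_pow]
  have key : (f ^ (q + 1) * algebraMap Kbar (FN (M * q * q)) c₀ * (w : FN (M * q * q)) ^ n) ^ E
        * s ^ n * (algebraMap Kbar (FN (M * q * q)) c₀ ^ E)⁻¹
      = f ^ ((q + 1) * E) * ((w : FN (M * q * q)) ^ E * s) ^ n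
        * (algebraMap Kbar (FN (M * q * q)) c₀ ^ E * (algebraMap Kbar (FN (M * q * q)) c₀ ^ E)⁻¹) := by
    ring
  rw [key, mul_inv_cancel₀ hCE, mul_one]

include hq in
/-- **`Stmt_NUCoreK (M q) q`** from the four modular targets. -/
theorem nuCoreK_of [NeZero (M * q)] (hA : A.LiesOverPrime q)
    (hFin : Stmt_FinMod A q M B k hB hq) (hVV : Stmt_ValVecMod A q M B k hB hq)
    (hNP : Stmt_NormPow0 A q M) (hNF : Stmt_NormFix A q M) :
    Stmt_NUCoreK (M * q) q := by
  intro _ _ _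
  obtain ⟨K, hK0, hK⟩ := fin_top A q M B k hB hq hFin hVV hNP hNF
  exact ⟨A, hA, K, hK0, fun n hqn f hf0 hdiv hI _ hα hβ D hD hpα hpβ =>
    hK n hqn f hf0 hdiv hI hα hβ D hD hpα hpβ⟩

include hq in
/-- **`Stmt_NUCore (M q) q p`** from the four modular targets. -/
theorem nuCore_of [NeZero (M * q)] (p : ℕ) (hA : A.LiesOverPrime q)
    (hFin : Stmt_FinMod A q M B k hB hq) (hVV : Stmt_ValVecMod A q M B k hB hq)
    (hNP : Stmt_NormPow0 A q M) (hNF : Stmt_NormFix A q M) :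
    Stmt_NUCore (M * q) q p :=
  nuCore_of_K (M * q) q p (nuCoreK_of A q M B k hB hq hA hFin hVV hNP hNF)

end Main

/-- The four modular targets at the level `M q²` (`q ∤ M`), for some valuation ring over `q`. -/
def Stmt_FinTopInputs (q M : ℕ) [NeZero M] [NeZero q] [NeZero (M * q * q)] : Prop :=
  ∀ hq : q.Prime, ¬ q ∣ M → TameNU (M * q) q →
    ∃ (A : ValuationSubring Kbar) (B k : ℤ) (hB : B * M + k * q = 1), A.LiesOverPrime q ∧
      Stmt_FinMod A q M B k hB hq ∧ Stmt_ValVecMod A q M B k hB hq ∧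
      Stmt_NormPow0 A q M ∧ Stmt_NormFix A q M

/-- **The Kummer form of (NU) at every tame level** from the four modular targets. -/
theorem nuCore_tame_of
    (h : ∀ (q M : ℕ) [NeZero M] [NeZero q] [NeZero (M * q * q)], Stmt_FinTopInputs q M)
    (p M₁ q : ℕ) [NeZero M₁] [NeZero q] (ht : TameNU M₁ q) : Stmt_NUCore M₁ q p := by
  intro hq hqM hq2 hp hqp
  obtain ⟨M, hM⟩ := hqM
  have hM' : M₁ = M * q := by rw [hM, mul_comm]
  subst hM'
  have hM0 : M ≠ 0 := fun h0 => NeZero.ne (M * q) (by rw [h0, zero_mul])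
  haveI : NeZero M := ⟨hM0⟩
  haveI : NeZero (M * q * q) := ⟨Nat.mul_ne_zero (NeZero.ne (M * q)) hq.ne_zero⟩
  have hqM' : ¬ q ∣ M := by
    rintro ⟨r, hr⟩
    apply hq2
    refine ⟨r, ?_⟩
    rw [hr]
    ring
  obtain ⟨A, B, k, hB, hA, hFin, hVV, hNP, hNF⟩ := h q M hq hqM' ht
  exact nuCore_of A q M B k hB hq p hA hFin hVV hNP hNF hq ⟨M, mul_comm M q⟩ hq2 hp hqp

end Fermat.Agent.S36.NU.H10

end
end
-- ==== END Fermat.Agent.S36.NU.H10_FinTop

-- ==== BEGIN Fermat.Agent.S36.NU.H16_Unif3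
section

/-!
# S36 / NU-B, leaf UNIF3-MOD (helper16): the valuation vectors of `t₂₀`, `t₁₁`, `t₀₂`

Level `N = M q²`.  `f ∈ F_M` with integral expansion `u₀ ∈ ℤ((t))` (the coordinate `u`),
`u = incAA f`, `u'' = incBB f`:

  `t₂₀ = u'' - u ^ q²`,  `t₁₁ = u'' - u` (helper88),  `t₀₂ = u - u'' ^ q² = W_{q²} (t₂₀)`.

* `d20 f = t₂₀ / q ∈ V₂₀` with reduction `- δ̄ ^ q`, `δ = (u ^ q - u (t ^ q)) / q` (helper65 `kdel`);
* the valuation vectors for `(V₂₀, V₁₁, V₀₂)`:
  `t₂₀ : (v (q), 1, 1)`, `t₁₁ : (1, v (q) ^ (1 / (q - 1)), 1)`, `t₀₂ : (1, 1, v (q))`.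
-/

set_option autoImplicit false
set_option synthInstance.maxHeartbeats 400000
set_option maxHeartbeats 1000000
set_option linter.unusedSectionVars false
set_option linter.style.haveILetI false

noncomputable section

namespace Fermat.Agent.S36.NU.H16

open Fermat.Agent.S24 Fermat.Agent.BAD.H88 ModularCurve
open Fermat.Agent.S28 Fermat.Agent.S28.H73 Fermat.Agent.RED.H73 Fermat.Agent.RED.H17
open Fermat.Agent.S36.NU.H88

section Comap

variable {F₁ F₂ : Type*} [Field F₁] [Field F₂] (V : ValuationSubring F₂) (φ : F₁ →+* F₂)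

theorem valuation_comap_le_one_iff (x : F₁) :
    (V.comap φ).valuation x ≤ 1 ↔ V.valuation (φ x) ≤ 1 := by
  rw [ValuationSubring.valuation_le_one_iff, ValuationSubring.valuation_le_one_iff]
  exact Iff.rfl

theorem valuation_comap_le_iff (x y : F₁) :
    (V.comap φ).valuation x ≤ (V.comap φ).valuation y ↔ V.valuation (φ x) ≤ V.valuation (φ y) := by
  by_cases hy : y = 0
  · subst hy
    simp only [map_zero, le_zero_iff, map_eq_zero]
  · have hyF : φ y ≠ 0 := (map_ne_zero φ).2 hy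
    have h1 : (V.comap φ).valuation x ≤ (V.comap φ).valuation y
        ↔ (V.comap φ).valuation (x / y) ≤ 1 := by
      rw [map_div₀, div_le_one₀ (zero_lt_iff.2 ((Valuation.ne_zero_iff _).2 hy))]
    have h2 : V.valuation (φ x) ≤ V.valuation (φ y) ↔ V.valuation (φ x / φ y) ≤ 1 := by
      rw [map_div₀, div_le_one₀ (zero_lt_iff.2 ((Valuation.ne_zero_iff _).2 hyF))]
    rw [h1, h2, valuation_comap_le_one_iff, map_div₀]

theorem valuation_comap_eq_iff (x y : F₁) :
    (V.comap φ).valuation x = (V.comap φ).valuation y ↔ V.valuation (φ x) = V.valuation (φ y) := by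
  rw [le_antisymm_iff, le_antisymm_iff, valuation_comap_le_iff, valuation_comap_le_iff]

theorem valuation_comap_eq_one_iff (x : F₁) :
    (V.comap φ).valuation x = 1 ↔ V.valuation (φ x) = 1 := by
  have := valuation_comap_eq_iff V φ x 1
  simpa using this

theorem valuation_comap_lt_one_iff (x : F₁) :
    (V.comap φ).valuation x < 1 ↔ V.valuation (φ x) < 1 := by
  rw [lt_iff_not_ge, lt_iff_not_ge]
  have := valuation_comap_le_iff V φ 1 x
  simpa using not_congr this

theorem valuation_comap_pow_eq_iff (x y : F₁) (n : ℕ) :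
    (V.comap φ).valuation x ^ n = (V.comap φ).valuation y
      ↔ V.valuation (φ x) ^ n = V.valuation (φ y) := by
  rw [← map_pow, ← map_pow, valuation_comap_eq_iff, map_pow]

end Comap

section Unif3

variable (A : ValuationSubring Kbar)
variable (q M : ℕ) (B k : ℤ) (hB : B * M + k * q = 1) (hq : q.Prime) [NeZero M] [NeZero q]

/-- `t₂₀ = u'' - u ^ q²`. -/
def t20 (f : FN M) : FN (M * q * q) := incBB q M f - incAA q M f ^ q ^ 2

/-- `t₀₂ = u - u'' ^ q²`. -/
def t02 (f : FN M) : FN (M * q * q) := incAA q M f - incBB q M f ^ q ^ 2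

/-- `d₂₀ = t₂₀ / q`. -/
def d20 (f : FN M) : FN (M * q * q) :=
  (algebraMap Kbar (FN (M * q * q)) (q : Kbar))⁻¹ * t20 q M f

theorem coe_t20 (f : FN M) (u₀ : LaurentSeries ℤ)
    (hf : (f : LaurentSeries Kbar) = H65.intSer Kbar u₀) :
    ((t20 q M f : FN (M * q * q)) : LaurentSeries Kbar) = H65.T20 Kbar q u₀ := by
  rw [t20, H65.T20, AddSubgroupClass.coe_sub, IntermediateField.coe_pow, coe_incBB, coe_incAA,
    hf]

include hq in
theorem natCast_ne_zero_FN : algebraMap Kbar (FN (M * q * q)) (q : Kbar) ≠ 0 := by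
  rw [Ne, map_eq_zero]
  exact_mod_cast hq.ne_zero

include hq in
theorem t20_eq (f : FN M) :
    t20 q M f = algebraMap Kbar (FN (M * q * q)) (q : Kbar) * d20 q M f := by
  rw [d20, ← mul_assoc, mul_inv_cancel₀ (natCast_ne_zero_FN q M hq), one_mul]

include hq in
/-- The expansion of `d₂₀ = t₂₀ / q` is `- kdel2`. -/
theorem coe_d20 (f : FN M) (u₀ : LaurentSeries ℤ)
    (hf : (f : LaurentSeries Kbar) = H65.intSer Kbar u₀) :
    ((d20 q M f : FN (M * q * q)) : LaurentSeries Kbar)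
      = H65.intSer Kbar (-H65.kdel2 q u₀) := by
  haveI : Fact q.Prime := ⟨hq⟩
  have h1 : ((t20 q M f : FN (M * q * q)) : LaurentSeries Kbar)
      = ((q : ℕ) : LaurentSeries Kbar) * H65.intSer Kbar (-H65.kdel2 q u₀) := by
    rw [coe_t20 q M f u₀ hf, H65.T20_eq]
  have h2 : ((algebraMap Kbar (FN (M * q * q)) (q : Kbar) : FN (M * q * q)) : LaurentSeries Kbar)
      = ((q : ℕ) : LaurentSeries Kbar) := by
    rw [map_natCast]
    exact map_natCast (modularFunctionFieldBar (M * q * q)).val q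
  have hq0 : ((q : ℕ) : LaurentSeries Kbar) ≠ 0 := by
    rw [← h2]
    intro h0
    exact natCast_ne_zero_FN q M hq (Subtype.ext h0)
  rw [d20, IntermediateField.coe_mul, IntermediateField.coe_inv, h2, h1, ← mul_assoc,
    inv_mul_cancel₀ hq0, one_mul]

include hq in
theorem d20_mem_V20 (f : FN M) (u₀ : LaurentSeries ℤ)
    (hf : (f : LaurentSeries Kbar) = H65.intSer Kbar u₀) :
    d20 q M f ∈ V20 A (M * q * q) := by
  rw [mem_V20_iff, coe_d20 q M hq f u₀ hf]
  exact H65.intSer_mem A _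

/-- An element of `V₂₀` whose expansion has non-zero reduction has valuation `1`. -/
theorem val20_eq_one (x : FN (M * q * q)) (h : x ∈ V20 A (M * q * q))
    (hne : gaussRedV A ⟨(x : LaurentSeries Kbar), h⟩ ≠ 0) :
    (V20 A (M * q * q)).valuation x = 1 := by
  have hne' : red20 A (M * q * q) ⟨x, h⟩ ≠ 0 := by
    intro h0
    apply hne
    have := congrArg (fun y : F20 A (M * q * q) => (y : LaurentSeries (kV A))) h0
    simpa [coe_gaussResF'_eq] using this
  have hu : IsUnit (⟨x, h⟩ : ↥(V20 A (M * q * q))) := by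
    by_contra hnu
    apply hne'
    rw [red20_eq_zero_iff]
    exact (IsLocalRing.mem_maximalIdeal _).mpr hnu
  exact (ValuationSubring.valuation_eq_one_iff _ _).mp hu

/-- An element with integral expansion whose reduction modulo `q` is non-zero has
`V₂₀`-valuation `1`. -/
theorem val20_eq_one_of_int (x : FN (M * q * q)) (x₀ : LaurentSeries ℤ)
    (hx : (x : LaurentSeries Kbar) = H65.intSer Kbar x₀)
    (hne : coeffMap (Int.castRingHom (kV A)) x₀ ≠ 0) :
    (V20 A (M * q * q)).valuation x = 1 := by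
  have h : x ∈ V20 A (M * q * q) := by
    rw [mem_V20_iff, hx]
    exact H65.intSer_mem A _
  refine val20_eq_one A q M x h ?_
  have e : (⟨(x : LaurentSeries Kbar), h⟩ : gaussRingV A)
      = ⟨H65.intSer Kbar x₀, H65.intSer_mem A x₀⟩ := Subtype.ext hx
  rw [e, H65.gaussRedV_intSer]
  exact hne

include hq in
/-- **`v₂₀ (t₂₀) = v₂₀ (q)`** if `δ̄ ≠ 0`. -/
theorem val20_t20 (hA : (q : Kbar) ∈ A.nonunits) (f : FN M) (u₀ : LaurentSeries ℤ)
    (hf : (f : LaurentSeries Kbar) = H65.intSer Kbar u₀)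
    (hδ : coeffMap (Int.castRingHom (kV A)) (H65.kdel q u₀) ≠ 0) :
    (V20 A (M * q * q)).valuation (t20 q M f)
      = (V20 A (M * q * q)).valuation (algebraMap Kbar (FN (M * q * q)) (q : Kbar)) := by
  haveI : Fact q.Prime := ⟨hq⟩
  haveI : CharP (kV A) q := Fermat.Agent.BAD.H82.charP_kV A hq hA
  have h1 : (V20 A (M * q * q)).valuation (d20 q M f) = 1 := by
    refine val20_eq_one_of_int A q M _ (-H65.kdel2 q u₀) (coe_d20 q M hq f u₀ hf) ?_
    rw [map_neg, H65.coeffMap_kV_eq A q (H65.kdel2 q u₀), H65.coeffMap_kdel2_eq_pow, map_pow,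
      ← H65.coeffMap_kV_eq A q]
    exact neg_ne_zero.2 (pow_ne_zero _ hδ)
  rw [t20_eq q M hq f, map_mul, h1, mul_one]

/-! ### Non-vanishing -/

omit [NeZero M] in
/-- A series with `θ x ≠ 0` is not of the form `y (t ^ q)`. -/
theorem sub_qExpand_ne_zero {κ : Type*} [CommRing κ] (x y : LaurentSeries κ)
    (hx : H65.ThetaNZ q x) : x - qExpand κ q y ≠ 0 := by
  obtain ⟨n, hn, hc⟩ := hx
  intro h
  apply hc
  have h1 := congrArg (fun s : LaurentSeries κ => s.coeff n) h
  simp only [HahnSeries.coeff_sub, HahnSeries.coeff_zero] at h1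
  rw [qExpand_coeff_of_not_dvd q y hn, sub_zero] at h1
  exact h1

omit [NeZero M] in
theorem qExpand_sub_ne_zero {κ : Type*} [CommRing κ] (x y : LaurentSeries κ)
    (hx : H65.ThetaNZ q x) : qExpand κ q y - x ≠ 0 := by
  intro h
  apply sub_qExpand_ne_zero q x y hx
  rw [← neg_sub, h, neg_zero]

/-! ### The valuation `V₂₀` -/

/-- **`v₂₀ (t₁₁) = 1`.** -/
theorem val20_t11 (f : FN M) (u₀ : LaurentSeries ℤ)
    (hf : (f : LaurentSeries Kbar) = H65.intSer Kbar u₀)
    (hθ : H65.ThetaNZ q (coeffMap (Int.castRingHom (kV A)) u₀)) :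
    (V20 A (M * q * q)).valuation (t11 q M f) = 1 := by
  refine val20_eq_one_of_int A q M _ (qExpand ℤ q (qExpand ℤ q u₀) - u₀) ?_ ?_
  · rw [t11, AddSubgroupClass.coe_sub, coe_incBB, coe_incAA, hf, H65.intSer, H65.intSer,
      map_sub, coeffMap_qExpand, coeffMap_qExpand]
  · rw [map_sub, coeffMap_qExpand]
    exact qExpand_sub_ne_zero q _ _ hθ

include hq in
/-- **`v₂₀ (t₀₂) = 1`.** -/
theorem val20_t02 (hA : (q : Kbar) ∈ A.nonunits) (f : FN M) (u₀ : LaurentSeries ℤ)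
    (hf : (f : LaurentSeries Kbar) = H65.intSer Kbar u₀)
    (hθ : H65.ThetaNZ q (coeffMap (Int.castRingHom (kV A)) u₀)) :
    (V20 A (M * q * q)).valuation (t02 q M f) = 1 := by
  haveI : Fact q.Prime := ⟨hq⟩
  haveI : CharP (kV A) q := Fermat.Agent.BAD.H82.charP_kV A hq hA
  refine val20_eq_one_of_int A q M _ (u₀ - qExpand ℤ q (qExpand ℤ q u₀) ^ q ^ 2) ?_ ?_
  · rw [t02, AddSubgroupClass.coe_sub, IntermediateField.coe_pow, coe_incBB, coe_incAA, hf,
      H65.intSer, H65.intSer, map_sub, map_pow, coeffMap_qExpand, coeffMap_qExpand]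
  · rw [map_sub, map_pow, H65.intRed_pow_sq q]
    exact sub_qExpand_ne_zero q _ _ hθ

/-! ### The valuation `V₁₁` -/

include hB hq

/-- An element of `V₁₁` whose expansion at the middle cusp has non-zero reduction has
valuation `1`. -/
theorem val11_eq_one (x : FN (M * q * q)) (h : x ∈ V11 A (M * q * q) q M B k (lvl q M) hB hq)
    (hne : gaussRedV A ⟨cM q M B k hB hq x, h⟩ ≠ 0) :
    (V11 A (M * q * q) q M B k (lvl q M) hB hq).valuation x = 1 := by
  have hne' : red11 A (M * q * q) q M B k (lvl q M) hB hq ⟨x, h⟩ ≠ 0 := by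
    intro h0
    apply hne
    have := congrArg (fun y : F11 A (M * q * q) q M B k (lvl q M) hB hq =>
      (y : LaurentSeries (kV A))) h0
    simpa [coe_red11] using this
  have hu : IsUnit (⟨x, h⟩ : ↥(V11 A (M * q * q) q M B k (lvl q M) hB hq)) := by
    by_contra hnu
    apply hne'
    rw [red11_eq_zero_iff]
    exact (IsLocalRing.mem_maximalIdeal _).mpr hnu
  exact (ValuationSubring.valuation_eq_one_iff _ _).mp hu

omit hB in
/-- The twist of a series with integral coefficients is Gauss-integral. -/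
theorem twist_intSer_mem (u₀ : LaurentSeries ℤ) :
    twist (zetaK q ^ B) (H65.intSer Kbar u₀) ∈ gaussRingV A := by
  rw [← coe_zUnit A q B hq]
  exact twist_mem_gaussRingV A (zUnit A q B hq) (H65.intSer_mem A u₀)

omit hB in
/-- The reduction of the twist of a series with integral coefficients. -/
theorem gaussRedV_twist_intSer (hA : (q : Kbar) ∈ A.nonunits) (u₀ : LaurentSeries ℤ)
    (h : twist (zetaK q ^ B) (H65.intSer Kbar u₀) ∈ gaussRingV A) :
    gaussRedV A ⟨_, h⟩ = coeffMap (Int.castRingHom (kV A)) u₀ := by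
  have h1 := gaussRedV_twist_of_res_eq_one A (zUnit A q B hq) (resV_zUnit A q B hq hA)
    ⟨H65.intSer Kbar u₀, H65.intSer_mem A u₀⟩ (by rw [coe_zUnit]; exact h)
  rw [H65.gaussRedV_intSer] at h1
  rw [← h1]
  congr 1

/-- **`v₁₁ (t₂₀) = 1`.** -/
theorem val11_t20 (hA : (q : Kbar) ∈ A.nonunits) (f : FN M) (u₀ : LaurentSeries ℤ)
    (hf : (f : LaurentSeries Kbar) = H65.intSer Kbar u₀)
    (hθ : H65.ThetaNZ q (coeffMap (Int.castRingHom (kV A)) u₀)) :
    (V11 A (M * q * q) q M B k (lvl q M) hB hq).valuation (t20 q M f) = 1 := by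
  haveI : Fact q.Prime := ⟨hq⟩
  haveI : CharP (kV A) q := Fermat.Agent.BAD.H82.charP_kV A hq hA
  have ha := twist_intSer_mem A q B hq u₀
  have hb := H65.intSer_mem A u₀
  have e : cM q M B k hB hq (t20 q M f)
      = twist (zetaK q ^ B) (H65.intSer Kbar u₀) - H65.intSer Kbar u₀ ^ q ^ 2 := by
    rw [t20, map_sub, map_pow, cM_incBB, cM_incAA, hf]
  have hmem : t20 q M f ∈ V11 A (M * q * q) q M B k (lvl q M) hB hq := by
    rw [mem_V11_iff]
    change cM q M B k hB hq (t20 q M f) ∈ gaussRingV A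
    rw [e]
    exact sub_mem ha (pow_mem hb _)
  refine val11_eq_one A q M B k hB hq _ hmem ?_
  have e2 : (⟨cM q M B k hB hq (t20 q M f), hmem⟩ : gaussRingV A)
      = (⟨_, ha⟩ : gaussRingV A) - (⟨_, hb⟩ : gaussRingV A) ^ q ^ 2 := Subtype.ext e
  rw [e2, map_sub, map_pow, gaussRedV_twist_intSer A q B hq hA u₀ ha, H65.gaussRedV_intSer,
    H65.intRed_pow_sq q]
  exact sub_qExpand_ne_zero q _ _ hθ

/-- **`v₁₁ (t₀₂) = 1`.** -/
theorem val11_t02 (hA : (q : Kbar) ∈ A.nonunits) (f : FN M) (u₀ : LaurentSeries ℤ)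
    (hf : (f : LaurentSeries Kbar) = H65.intSer Kbar u₀)
    (hθ : H65.ThetaNZ q (coeffMap (Int.castRingHom (kV A)) u₀)) :
    (V11 A (M * q * q) q M B k (lvl q M) hB hq).valuation (t02 q M f) = 1 := by
  haveI : Fact q.Prime := ⟨hq⟩
  haveI : CharP (kV A) q := Fermat.Agent.BAD.H82.charP_kV A hq hA
  have ha := twist_intSer_mem A q B hq u₀
  have hb := H65.intSer_mem A u₀
  have e : cM q M B k hB hq (t02 q M f)
      = H65.intSer Kbar u₀ - twist (zetaK q ^ B) (H65.intSer Kbar u₀) ^ q ^ 2 := by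
    rw [t02, map_sub, map_pow, cM_incBB, cM_incAA, hf]
  have hmem : t02 q M f ∈ V11 A (M * q * q) q M B k (lvl q M) hB hq := by
    rw [mem_V11_iff]
    change cM q M B k hB hq (t02 q M f) ∈ gaussRingV A
    rw [e]
    exact sub_mem hb (pow_mem ha _)
  refine val11_eq_one A q M B k hB hq _ hmem ?_
  have e2 : (⟨cM q M B k hB hq (t02 q M f), hmem⟩ : gaussRingV A)
      = (⟨_, hb⟩ : gaussRingV A) - (⟨_, ha⟩ : gaussRingV A) ^ q ^ 2 := Subtype.ext e
  rw [e2, map_sub, map_pow, gaussRedV_twist_intSer A q B hq hA u₀ ha, H65.gaussRedV_intSer,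
    H65.intRed_pow_sq q]
  exact sub_qExpand_ne_zero q _ _ hθ

/-- **RAM11** (helper88): `v₁₁ (t₁₁) ^ (q - 1) = v₁₁ (q)`. -/
theorem val11_t11 (hA : (q : Kbar) ∈ A.nonunits) (f : FN M) (u₀ : LaurentSeries ℤ)
    (hf : (f : LaurentSeries Kbar) = H65.intSer Kbar u₀)
    (hθ : H65.ThetaNZ q (coeffMap (Int.castRingHom (kV A)) u₀)) :
    (V11 A (M * q * q) q M B k (lvl q M) hB hq).valuation (t11 q M f) ^ (q - 1)
      = (V11 A (M * q * q) q M B k (lvl q M) hB hq).valuation
          (algebraMap Kbar (FN (M * q * q)) (q : Kbar)) :=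
  ram11 A q M B k hB hq hA f u₀ hf hθ

/-! ### The valuation `V₀₂ = V₂₀ ∘ W_{q²}` -/

theorem wS_t20 (f : FN M) : wS q M B k hB (t20 q M f) = t02 q M f := by
  rw [t20, t02, map_sub, map_pow, wS_incBB q M B k hB hq, wS_incAA q M B k hB hq]

theorem wS_t02 (f : FN M) : wS q M B k hB (t02 q M f) = t20 q M f := by
  rw [t20, t02, map_sub, map_pow, wS_incBB q M B k hB hq, wS_incAA q M B k hB hq]

theorem wS_t11 (f : FN M) : wS q M B k hB (t11 q M f) = -t11 q M f := by
  rw [t11, map_sub, wS_incBB q M B k hB hq, wS_incAA q M B k hB hq, neg_sub]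

omit hq in
theorem val02_eq_iff (x y : FN (M * q * q)) :
    (V02 A (M * q * q) q M B k (lvl q M) hB).valuation x
        = (V02 A (M * q * q) q M B k (lvl q M) hB).valuation y
      ↔ (V20 A (M * q * q)).valuation (wS q M B k hB x)
        = (V20 A (M * q * q)).valuation (wS q M B k hB y) :=
  valuation_comap_eq_iff (V20 A (M * q * q)) _ x y

omit hq in
theorem val02_eq_one_iff (x : FN (M * q * q)) :
    (V02 A (M * q * q) q M B k (lvl q M) hB).valuation x = 1
      ↔ (V20 A (M * q * q)).valuation (wS q M B k hB x) = 1 :=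
  valuation_comap_eq_one_iff (V20 A (M * q * q)) _ x

/-- **`v₀₂ (t₀₂) = v₀₂ (q)`** if `δ̄ ≠ 0`. -/
theorem val02_t02 (hA : (q : Kbar) ∈ A.nonunits) (f : FN M) (u₀ : LaurentSeries ℤ)
    (hf : (f : LaurentSeries Kbar) = H65.intSer Kbar u₀)
    (hδ : coeffMap (Int.castRingHom (kV A)) (H65.kdel q u₀) ≠ 0) :
    (V02 A (M * q * q) q M B k (lvl q M) hB).valuation (t02 q M f)
      = (V02 A (M * q * q) q M B k (lvl q M) hB).valuation
          (algebraMap Kbar (FN (M * q * q)) (q : Kbar)) := by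
  rw [val02_eq_iff, wS_t02 q M B k hB hq, AlgEquiv.commutes]
  exact val20_t20 A q M hq hA f u₀ hf hδ

/-- **`v₀₂ (t₂₀) = 1`.** -/
theorem val02_t20 (hA : (q : Kbar) ∈ A.nonunits) (f : FN M) (u₀ : LaurentSeries ℤ)
    (hf : (f : LaurentSeries Kbar) = H65.intSer Kbar u₀)
    (hθ : H65.ThetaNZ q (coeffMap (Int.castRingHom (kV A)) u₀)) :
    (V02 A (M * q * q) q M B k (lvl q M) hB).valuation (t20 q M f) = 1 := by
  rw [val02_eq_one_iff, wS_t20 q M B k hB hq]
  exact val20_t02 A q M hq hA f u₀ hf hθ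

/-- **`v₀₂ (t₁₁) = 1`.** -/
theorem val02_t11 (f : FN M) (u₀ : LaurentSeries ℤ)
    (hf : (f : LaurentSeries Kbar) = H65.intSer Kbar u₀)
    (hθ : H65.ThetaNZ q (coeffMap (Int.castRingHom (kV A)) u₀)) :
    (V02 A (M * q * q) q M B k (lvl q M) hB).valuation (t11 q M f) = 1 := by
  rw [val02_eq_one_iff, wS_t11 q M B k hB hq, Valuation.map_neg]
  exact val20_t11 A q M f u₀ hf hθ

end Unif3

/-! ## The inertia-fixed functions -/

section L0

open Fermat.Agent.S36.NU.H23

variable (A : ValuationSubring Kbar)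
variable (q M : ℕ) (B k : ℤ) (hB : B * M + k * q = 1) (hq : q.Prime) [NeZero M] [NeZero q]

/-- A function with integral expansion is fixed by inertia. -/
theorem mem_L0_of_int {N : ℕ} (x : FN N) (x₀ : LaurentSeries ℤ)
    (hx : (x : LaurentSeries Kbar) = H65.intSer Kbar x₀) : x ∈ L0 A N := by
  rw [mem_L0_iff_coeffMap]
  intro σ _
  rw [hx, H65.intSer, _root_.ModularCurve.coeffMap_coeffMap]
  exact coeffMap_congr (RingHom.ext_int _ _) x₀

theorem incAA_mem_L0_of_int (f : FN M) (u₀ : LaurentSeries ℤ)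
    (hf : (f : LaurentSeries Kbar) = H65.intSer Kbar u₀) :
    incAA q M f ∈ L0 A (M * q * q) :=
  mem_L0_of_int A _ u₀ (by rw [coe_incAA, hf])

theorem incAB_mem_L0_of_int (f : FN M) (u₀ : LaurentSeries ℤ)
    (hf : (f : LaurentSeries Kbar) = H65.intSer Kbar u₀) :
    incAB q M f ∈ L0 A (M * q * q) :=
  mem_L0_of_int A _ (qExpand ℤ q u₀) (by
    rw [coe_incAB, hf, H65.intSer, H65.intSer, coeffMap_qExpand])

theorem incBB_mem_L0_of_int (f : FN M) (u₀ : LaurentSeries ℤ)
    (hf : (f : LaurentSeries Kbar) = H65.intSer Kbar u₀) :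
    incBB q M f ∈ L0 A (M * q * q) :=
  mem_L0_of_int A _ (qExpand ℤ q (qExpand ℤ q u₀)) (by
    rw [coe_incBB, hf, H65.intSer, H65.intSer, coeffMap_qExpand, coeffMap_qExpand])

theorem natCast_mem_L0 : algebraMap Kbar (FN (M * q * q)) (q : Kbar) ∈ L0 A (M * q * q) := by
  rw [map_natCast]
  exact natCast_mem _ q

theorem t20_mem_L0 (f : FN M) (u₀ : LaurentSeries ℤ)
    (hf : (f : LaurentSeries Kbar) = H65.intSer Kbar u₀) : t20 q M f ∈ L0 A (M * q * q) :=
  sub_mem (incBB_mem_L0_of_int A q M f u₀ hf) (pow_mem (incAA_mem_L0_of_int A q M f u₀ hf) _)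

theorem t11_mem_L0 (f : FN M) (u₀ : LaurentSeries ℤ)
    (hf : (f : LaurentSeries Kbar) = H65.intSer Kbar u₀) : t11 q M f ∈ L0 A (M * q * q) :=
  sub_mem (incBB_mem_L0_of_int A q M f u₀ hf) (incAA_mem_L0_of_int A q M f u₀ hf)

theorem t02_mem_L0 (f : FN M) (u₀ : LaurentSeries ℤ)
    (hf : (f : LaurentSeries Kbar) = H65.intSer Kbar u₀) : t02 q M f ∈ L0 A (M * q * q) :=
  sub_mem (incAA_mem_L0_of_int A q M f u₀ hf) (pow_mem (incBB_mem_L0_of_int A q M f u₀ hf) _)

theorem d20_mem_L0 (f : FN M) (u₀ : LaurentSeries ℤ)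
    (hf : (f : LaurentSeries Kbar) = H65.intSer Kbar u₀) : d20 q M f ∈ L0 A (M * q * q) :=
  mul_mem (inv_mem (natCast_mem_L0 A q M)) (t20_mem_L0 A q M f u₀ hf)

/-! ### The element `W₁ = (u ^ q - u') (u' ^ q - u) / q` (regularity of (L1)) -/

/-- The integral expansion of `W₁`. -/
def w1Z (u₀ : LaurentSeries ℤ) : LaurentSeries ℤ :=
  H65.kdel q u₀ * (qExpand ℤ q u₀ ^ q - u₀)

/-- The integral expansion of `W_{q²} (W₁)`. -/
def w1Z' (u₀ : LaurentSeries ℤ) : LaurentSeries ℤ :=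
  (qExpand ℤ q (qExpand ℤ q u₀) ^ q - qExpand ℤ q u₀) * H65.kdel q (qExpand ℤ q u₀)

/-- `W₁ = (u ^ q - u') (u' ^ q - u) / q`. -/
def w1 (f : FN M) : FN (M * q * q) :=
  (algebraMap Kbar (FN (M * q * q)) (q : Kbar))⁻¹ * (incAA q M f ^ q - incAB q M f)
    * (incAB q M f ^ q - incAA q M f)

include hq in
theorem coe_natCast_FN :
    ((algebraMap Kbar (FN (M * q * q)) (q : Kbar) : FN (M * q * q)) : LaurentSeries Kbar)
      = ((q : ℕ) : LaurentSeries Kbar) := by
  rw [map_natCast]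
  exact map_natCast (modularFunctionFieldBar (M * q * q)).val q

omit [NeZero M] [NeZero q] in
include hq in
theorem natCast_series_ne_zero : ((q : ℕ) : LaurentSeries Kbar) ≠ 0 := by
  have e : ((q : ℕ) : LaurentSeries Kbar) = algebraMap Kbar (LaurentSeries Kbar) (q : Kbar) :=
    (map_natCast _ q).symm
  rw [e, Ne, map_eq_zero]
  exact_mod_cast hq.ne_zero

include hq in
theorem coe_w1 (f : FN M) (u₀ : LaurentSeries ℤ)
    (hf : (f : LaurentSeries Kbar) = H65.intSer Kbar u₀) :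
    ((w1 q M f : FN (M * q * q)) : LaurentSeries Kbar) = H65.intSer Kbar (w1Z q u₀) := by
  haveI : Fact q.Prime := ⟨hq⟩
  have h1 := congrArg (coeffMap (Int.castRingHom Kbar)) (H65.kdel_spec q u₀)
  rw [H65.coeffMap_natCast_mul, map_sub, map_pow, coeffMap_qExpand] at h1
  have hq0 := natCast_series_ne_zero q hq
  rw [w1, w1Z, IntermediateField.coe_mul, IntermediateField.coe_mul, IntermediateField.coe_inv,
    coe_natCast_FN q M hq, AddSubgroupClass.coe_sub, AddSubgroupClass.coe_sub,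
    IntermediateField.coe_pow, IntermediateField.coe_pow, coe_incAA, coe_incAB, hf, H65.intSer,
    H65.intSer, map_mul, map_sub, map_pow, coeffMap_qExpand, ← h1]
  field_simp

include hq in
theorem w1_mem_V20 (f : FN M) (u₀ : LaurentSeries ℤ)
    (hf : (f : LaurentSeries Kbar) = H65.intSer Kbar u₀) : w1 q M f ∈ V20 A (M * q * q) := by
  rw [mem_V20_iff, coe_w1 q M hq f u₀ hf]
  exact H65.intSer_mem A _

include hq in
theorem w1_mem_L0 (f : FN M) (u₀ : LaurentSeries ℤ)
    (hf : (f : LaurentSeries Kbar) = H65.intSer Kbar u₀) : w1 q M f ∈ L0 A (M * q * q) :=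
  mem_L0_of_int A _ _ (coe_w1 q M hq f u₀ hf)

include hB hq in
theorem w1_mem_V11 (f : FN M) (u₀ : LaurentSeries ℤ)
    (hf : (f : LaurentSeries Kbar) = H65.intSer Kbar u₀) :
    w1 q M f ∈ V11 A (M * q * q) q M B k (lvl q M) hB hq := by
  rw [mem_V11_iff]
  change cM q M B k hB hq (w1 q M f) ∈ gaussRingV A
  have e : cM q M B k hB hq (w1 q M f) = ((w1 q M f : FN (M * q * q)) : LaurentSeries Kbar) := by
    have h2 : cM q M B k hB hq (algebraMap Kbar (FN (M * q * q)) (q : Kbar))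
        = ((q : ℕ) : LaurentSeries Kbar) := by
      rw [AlgHom.commutes, map_natCast]
    rw [w1, map_mul, map_mul, map_inv₀, h2, map_sub, map_sub, map_pow, map_pow, cM_incAA,
      cM_incAB, IntermediateField.coe_mul, IntermediateField.coe_mul, IntermediateField.coe_inv,
      coe_natCast_FN q M hq, AddSubgroupClass.coe_sub, AddSubgroupClass.coe_sub,
      IntermediateField.coe_pow, IntermediateField.coe_pow, coe_incAA, coe_incAB]
  rw [e, coe_w1 q M hq f u₀ hf]
  exact H65.intSer_mem A _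

include hB hq in
theorem coe_wS_w1 (f : FN M) (u₀ : LaurentSeries ℤ)
    (hf : (f : LaurentSeries Kbar) = H65.intSer Kbar u₀) :
    ((wS q M B k hB (w1 q M f) : FN (M * q * q)) : LaurentSeries Kbar)
      = H65.intSer Kbar (w1Z' q u₀) := by
  haveI : Fact q.Prime := ⟨hq⟩
  have h1 := congrArg (coeffMap (Int.castRingHom Kbar)) (H65.kdel_spec q (qExpand ℤ q u₀))
  rw [H65.coeffMap_natCast_mul, map_sub, map_pow] at h1
  simp only [coeffMap_qExpand] at h1
  have hq0 := natCast_series_ne_zero q hq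
  rw [w1, map_mul, map_mul, map_inv₀, AlgEquiv.commutes, map_sub, map_sub, map_pow, map_pow,
    wS_incAA q M B k hB hq, wS_incAB q M B k hB hq, w1Z', IntermediateField.coe_mul,
    IntermediateField.coe_mul, IntermediateField.coe_inv,
    coe_natCast_FN q M hq, AddSubgroupClass.coe_sub, AddSubgroupClass.coe_sub,
    IntermediateField.coe_pow, IntermediateField.coe_pow, coe_incBB, coe_incAB, hf, H65.intSer,
    H65.intSer, map_mul, map_sub, map_pow]
  simp only [coeffMap_qExpand]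
  rw [← h1]
  field_simp

include hB hq in
theorem w1_mem_V02 (f : FN M) (u₀ : LaurentSeries ℤ)
    (hf : (f : LaurentSeries Kbar) = H65.intSer Kbar u₀) :
    w1 q M f ∈ V02 A (M * q * q) q M B k (lvl q M) hB := by
  rw [mem_V02_iff]
  change wS q M B k hB (w1 q M f) ∈ V20 A (M * q * q)
  rw [mem_V20_iff, coe_wS_w1 q M B k hB hq f u₀ hf]
  exact H65.intSer_mem A _

include hq in
/-- The reduction of `W₁` at `V₂₀` is `δ̄ (ū ^ q² - ū)`: the left-hand side of (L1). -/
theorem coeffMap_w1Z (κ : Type*) [Field κ] [CharP κ q] (u₀ : LaurentSeries ℤ) :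
    coeffMap (Int.castRingHom κ) (w1Z q u₀)
      = coeffMap (Int.castRingHom κ) (H65.kdel q u₀)
        * (coeffMap (Int.castRingHom κ) u₀ ^ q ^ 2 - coeffMap (Int.castRingHom κ) u₀) := by
  haveI : Fact q.Prime := ⟨hq⟩
  rw [w1Z, map_mul, map_sub, map_pow, coeffMap_qExpand, ← H65.intRed_pow q u₀, ← pow_mul,
    ← pow_two]

/-! ### The valuation vectors on `L0 A (M q²)` (shapes of helper51's `valVecMod_core`) -/

variable [NeZero (M * q * q)]

/-- `t₂₀`, `t₁₁`, `t₀₂`, `d₂₀`, `W₁` as inertia-fixed functions. -/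
def t20o (f : FN M) (u₀ : LaurentSeries ℤ)
    (hf : (f : LaurentSeries Kbar) = H65.intSer Kbar u₀) : ↥(L0 A (M * q * q)) :=
  ⟨t20 q M f, t20_mem_L0 A q M f u₀ hf⟩

def t11o (f : FN M) (u₀ : LaurentSeries ℤ)
    (hf : (f : LaurentSeries Kbar) = H65.intSer Kbar u₀) : ↥(L0 A (M * q * q)) :=
  ⟨t11 q M f, t11_mem_L0 A q M f u₀ hf⟩

def t02o (f : FN M) (u₀ : LaurentSeries ℤ)
    (hf : (f : LaurentSeries Kbar) = H65.intSer Kbar u₀) : ↥(L0 A (M * q * q)) :=
  ⟨t02 q M f, t02_mem_L0 A q M f u₀ hf⟩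

def d20o (f : FN M) (u₀ : LaurentSeries ℤ)
    (hf : (f : LaurentSeries Kbar) = H65.intSer Kbar u₀) : ↥(L0 A (M * q * q)) :=
  ⟨d20 q M f, d20_mem_L0 A q M f u₀ hf⟩

omit [NeZero M] [NeZero q] [NeZero (M * q * q)] in
theorem valuation_resV0_eq_one_iff {F : Type} [Field F] (L₀ : Subfield F)
    (V : ValuationSubring F) (x : ↥L₀) :
    (resV0 L₀ V).valuation x = 1 ↔ V.valuation (x : F) = 1 := by
  have := valuation_resV0_eq_iff L₀ V x 1
  simpa using this

theorem coe_natCast_L0 :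
    ((((q : ℕ) : ↥(L0 A (M * q * q))) : ↥(L0 A (M * q * q))) : FN (M * q * q))
      = algebraMap Kbar (FN (M * q * q)) (q : Kbar) := by
  rw [map_natCast]
  exact map_natCast (L0 A (M * q * q)).subtype q

include hq in
theorem t20o_eq (f : FN M) (u₀ : LaurentSeries ℤ)
    (hf : (f : LaurentSeries Kbar) = H65.intSer Kbar u₀) :
    t20o A q M f u₀ hf = ((q : ℕ) : ↥(L0 A (M * q * q))) * d20o A q M f u₀ hf := by
  apply Subtype.ext
  change t20 q M f = (((q : ℕ) : ↥(L0 A (M * q * q))) : FN (M * q * q)) * d20 q M f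
  rw [coe_natCast_L0, ← t20_eq q M hq f]

include hq in
theorem d20o_mem (f : FN M) (u₀ : LaurentSeries ℤ)
    (hf : (f : LaurentSeries Kbar) = H65.intSer Kbar u₀) :
    d20o A q M f u₀ hf ∈ V20o A q M :=
  d20_mem_V20 A q M hq f u₀ hf

include hq in
/-- The reduction of `d₂₀ = t₂₀ / q` at `V₂₀`: `- δ̄ ^ q`. -/
theorem s20_d20o (hA : (q : Kbar) ∈ A.nonunits) (f : FN M) (u₀ : LaurentSeries ℤ)
    (hf : (f : LaurentSeries Kbar) = H65.intSer Kbar u₀) :
    s20 A q M ⟨d20o A q M f u₀ hf, d20o_mem A q M hq f u₀ hf⟩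
      = - coeffMap (Int.castRingHom (kV A)) (H65.kdel q u₀) ^ q := by
  haveI : Fact q.Prime := ⟨hq⟩
  haveI : CharP (kV A) q := Fermat.Agent.BAD.H82.charP_kV A hq hA
  rw [s20_mk]
  exact (congrArg (gaussRedV A) (Subtype.ext (coe_d20 q M hq f u₀ hf))).trans
    (H65.gaussRedV_T20_div A q u₀ (H65.intSer_mem A _))

include hB hq in
/-- **The valuation vector of `t₁₁`** on `L0 A (M q²)`: `(0, 1, 0)`. -/
theorem val_t11o (hA : (q : Kbar) ∈ A.nonunits) (f : FN M) (u₀ : LaurentSeries ℤ)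
    (hf : (f : LaurentSeries Kbar) = H65.intSer Kbar u₀)
    (hθ : H65.ThetaNZ q (coeffMap (Int.castRingHom (kV A)) u₀)) :
    (V20o A q M).valuation (t11o A q M f u₀ hf) = 1 ∧
    (V11o A q M B k hB hq).valuation (t11o A q M f u₀ hf) ^ (q - 1)
      = (V11o A q M B k hB hq).valuation ((q : ℕ) : ↥(L0 A (M * q * q))) ∧
    (V02o A q M B k hB).valuation (t11o A q M f u₀ hf) = 1 := by
  refine ⟨?_, ?_, ?_⟩
  · exact (valuation_resV0_eq_one_iff (L0 A (M * q * q)) _ (t11o A q M f u₀ hf)).2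
      (val20_t11 A q M f u₀ hf hθ)
  · rw [← map_pow]
    refine (valuation_resV0_eq_iff (L0 A (M * q * q)) _ _ _).2 ?_
    rw [coe_natCast_L0, ← val11_t11 A q M B k hB hq hA f u₀ hf hθ, ← map_pow]
    rfl
  · exact (valuation_resV0_eq_one_iff (L0 A (M * q * q)) _ (t11o A q M f u₀ hf)).2
      (val02_t11 A q M B k hB hq f u₀ hf hθ)

include hB hq in
/-- **The valuation vector of `t₀₂`** on `L0 A (M q²)`: `(0, 0, 1)`. -/
theorem val_t02o (hA : (q : Kbar) ∈ A.nonunits) (f : FN M) (u₀ : LaurentSeries ℤ)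
    (hf : (f : LaurentSeries Kbar) = H65.intSer Kbar u₀)
    (hθ : H65.ThetaNZ q (coeffMap (Int.castRingHom (kV A)) u₀))
    (hδ : coeffMap (Int.castRingHom (kV A)) (H65.kdel q u₀) ≠ 0) :
    (V20o A q M).valuation (t02o A q M f u₀ hf) = 1 ∧
    (V11o A q M B k hB hq).valuation (t02o A q M f u₀ hf) = 1 ∧
    (V02o A q M B k hB).valuation (t02o A q M f u₀ hf)
      = (V02o A q M B k hB).valuation ((q : ℕ) : ↥(L0 A (M * q * q))) := by
  refine ⟨?_, ?_, ?_⟩
  · exact (valuation_resV0_eq_one_iff (L0 A (M * q * q)) _ (t02o A q M f u₀ hf)).2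
      (val20_t02 A q M hq hA f u₀ hf hθ)
  · exact (valuation_resV0_eq_one_iff (L0 A (M * q * q)) _ (t02o A q M f u₀ hf)).2
      (val11_t02 A q M B k hB hq hA f u₀ hf hθ)
  · refine (valuation_resV0_eq_iff (L0 A (M * q * q)) _ _ _).2 ?_
    rw [coe_natCast_L0]
    exact val02_t02 A q M B k hB hq hA f u₀ hf hδ

include hB hq in
/-- **The valuation vector of `t₂₀`** on `L0 A (M q²)`: `(1, 0, 0)`. -/
theorem val_t20o (hA : (q : Kbar) ∈ A.nonunits) (f : FN M) (u₀ : LaurentSeries ℤ)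
    (hf : (f : LaurentSeries Kbar) = H65.intSer Kbar u₀)
    (hθ : H65.ThetaNZ q (coeffMap (Int.castRingHom (kV A)) u₀))
    (hδ : coeffMap (Int.castRingHom (kV A)) (H65.kdel q u₀) ≠ 0) :
    (V20o A q M).valuation (t20o A q M f u₀ hf)
      = (V20o A q M).valuation ((q : ℕ) : ↥(L0 A (M * q * q))) ∧
    (V11o A q M B k hB hq).valuation (t20o A q M f u₀ hf) = 1 ∧
    (V02o A q M B k hB).valuation (t20o A q M f u₀ hf) = 1 := by
  refine ⟨?_, ?_, ?_⟩
  · refine (valuation_resV0_eq_iff (L0 A (M * q * q)) _ _ _).2 ?_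
    rw [coe_natCast_L0]
    exact val20_t20 A q M hq hA f u₀ hf hδ
  · exact (valuation_resV0_eq_one_iff (L0 A (M * q * q)) _ (t20o A q M f u₀ hf)).2
      (val11_t20 A q M B k hB hq hA f u₀ hf hθ)
  · exact (valuation_resV0_eq_one_iff (L0 A (M * q * q)) _ (t20o A q M f u₀ hf)).2
      (val02_t20 A q M B k hB hq hA f u₀ hf hθ)

end L0

end Fermat.Agent.S36.NU.H16

end
end
-- ==== END Fermat.Agent.S36.NU.H16_Unif3

-- ==== BEGIN Fermat.Agent.S36.NU.H23_Mod3
section

/-!
# S36 / NU-B, leaf TOT3-MOD (helper23): RES11 and the modular `NRData`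

Level `N = M q²`, `q ∤ M`, `C = FM A M`.

* `nrPre` : the `NRData` of the three valuations with the ABSTRACT residue field of `V11o`;
* **RES11** `s11_memM` : the residue field of `V₁₁ ∩ L₀` is `C` (from the fundamental
  inequality `1 + (q - 1) f₁₁ + q² ≤ q² + q`);
* `r11 : V11o → C`;
* **`nrM`** : the modular `NRData` with `κ = (C, C, C)`, `e = (1, q - 1, 1)`,
  structure maps `(id, id, Fr²)`, and `nrM_hdeg`.
-/

set_option autoImplicit false
set_option synthInstance.maxHeartbeats 400000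
set_option maxHeartbeats 1000000
set_option linter.style.haveILetI false
set_option linter.unusedSectionVars false

noncomputable section

open ModularCurve AlgebraicCurve
open Fermat.Agent.S24 Fermat.Agent.BAD.H88 Fermat.Agent.S28 Fermat.Agent.S28.H73
open Fermat.Agent.RED.H73 Fermat.Agent.RED.H17 Fermat.Agent.S36.NU.H88

namespace Fermat.Agent.S36.NU.H23

open Fermat.Agent.BAD

section Mod3

variable (A : ValuationSubring Kbar) (q M : ℕ) (B k : ℤ) (hB : B * M + k * q = 1) (hq : q.Prime)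
  [NeZero M] [NeZero q] [NeZero (M * q * q)] (hqM : ¬ q ∣ M) (hA : A.LiesOverPrime q)

/-! ### The abstract residue field of `V11o` -/

/-- The residue field of `V11o`. -/
abbrev K11 : Type := IsLocalRing.ResidueField ↥(V11o A q M B k hB hq)

/-- The canonical residue map of `V11o`. -/
def res11 : ↥(V11o A q M B k hB hq) →+* K11 A q M B k hB hq := IsLocalRing.residue _

theorem res11_eq_zero_of_not_isUnit (x : ↥(V11o A q M B k hB hq)) (hx : ¬ IsUnit x) :
    res11 A q M B k hB hq x = 0 :=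
  (IsLocalRing.residue_eq_zero_iff x).2 ((IsLocalRing.mem_maximalIdeal x).2 hx)

theorem res11_eq_zero_iff_s11 (x : ↥(V11o A q M B k hB hq)) :
    res11 A q M B k hB hq x = 0 ↔ s11 A q M B k hB hq x = 0 := by
  constructor
  · intro h
    have h1 : x ∈ IsLocalRing.maximalIdeal ↥(V11o A q M B k hB hq) :=
      (IsLocalRing.residue_eq_zero_iff x).1 h
    exact s11_eq_zero_of_not_isUnit A q M B k hB hq x ((IsLocalRing.mem_maximalIdeal x).1 h1)
  · intro h
    apply res11_eq_zero_of_not_isUnit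
    intro hu
    exact (hu.map (s11 A q M B k hB hq)).ne_zero h

theorem s11_inc11 (a : ↥(VE0 A M)) :
    s11 A q M B k hB hq (inc11 A q M B k hB hq a) = sE A M a :=
  s11_incl A q M B k hB hq a (hVE11 A q M B k hB hq a a.2)

theorem rE_ker_le :
    RingHom.ker (rE A M)
      ≤ RingHom.ker ((res11 A q M B k hB hq).comp (inc11 A q M B k hB hq)) := by
  intro a ha
  rw [RingHom.mem_ker] at ha ⊢
  rw [RingHom.comp_apply, res11_eq_zero_iff_s11, s11_inc11, ← coe_rE, ha]
  rfl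

/-- The structure map of the residue field of `V11o` over the residue field of level `M`. -/
def a11 : FM A M →+* K11 A q M B k hB hq :=
  (rE A M).liftOfRightInverse (Function.surjInv (rE_surjective A q M hq hqM hA))
    (Function.rightInverse_surjInv (rE_surjective A q M hq hqM hA))
    ⟨(res11 A q M B k hB hq).comp (inc11 A q M B k hB hq), rE_ker_le A q M B k hB hq⟩

theorem a11_rE (a : ↥(VE0 A M)) :
    a11 A q M B k hB hq hqM hA (rE A M a)
      = res11 A q M B k hB hq (inc11 A q M B k hB hq a) :=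
  RingHom.liftOfRightInverse_comp_apply _ _ _ _ a

/-- The preliminary `NRData`, with the abstract residue field of `V11o`. -/
def nrPre : @H42.NRData ↥(L0 A M) ↥(L0 A (M * q * q)) (FM A M) _ _ _ (algL0 A (hleMN q M))
    (Fin 3) (kap3 (FM A M) (K11 A q M B k hB hq)) _
    (kap3Alg (FM A M) (K11 A q M B k hB hq) (a11 A q M B k hB hq hqM hA).toAlgebra
      (alg2M A q M hq hqM hA)) :=
  @nr3 ↥(L0 A M) ↥(L0 A (M * q * q)) (FM A M) (K11 A q M B k hB hq) _ _ _ _
    (algL0 A (hleMN q M)) (a11 A q M B k hB hq hqM hA).toAlgebra (alg2M A q M hq hqM hA)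
    (VE0 A M) (rE A M) (V20o A q M) (V11o A q M B k hB hq) (V02o A q M B k hB)
    (r20 A q M hq hqM hA) (res11 A q M B k hB hq) (r02 A q M B k hB hq hqM hA)
    (piE A q M) (pi11 A q M) (q - 1)
    (piE_ne_zero A q M hq) (piE_mem A q M hA) (rE_piE A q M hA) (hE_mod A q M hq hA)
    (hVE20 A q M) (hVE11 A q M B k hB hq) (hVE02 A q M B k hB hq)
    (rE_eq_zero_of_not_isUnit A M)
    (r20_surjective A q M hq hqM hA) IsLocalRing.residue_surjective
    (r02_surjective A q M B k hB hq hqM hA)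
    (r20_eq_zero_of_not_isUnit A q M hq hqM hA) (res11_eq_zero_of_not_isUnit A q M B k hB hq)
    (r02_eq_zero_of_not_isUnit A q M B k hB hq hqM hA)
    (fun a ha => r20_incl A q M hq hqM hA a ha)
    (fun a _ => (a11_rE A q M B k hB hq hqM hA a).symm)
    (fun a ha => r02_incl A q M B k hB hq hqM hA a ha)
    (Fermat.Agent.S36.NU.H82.not_le_20_11 A q M B k hB hq hA)
    (Fermat.Agent.S36.NU.H82.not_le_20_02 A q M B k hB hq hA)
    (Fermat.Agent.S36.NU.H82.not_le_11_20 A q M B k hB hq hA)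
    (Fermat.Agent.S36.NU.H82.not_le_11_02 A q M B k hB hq hA)
    (Fermat.Agent.S36.NU.H82.not_le_02_20 A q M B k hB hq hA)
    (Fermat.Agent.S36.NU.H82.not_le_02_11 A q M B k hB hq hA)
    (isArch_resV0 _ _ (Fermat.Agent.S36.NU.H82.isArch_V20 A hq hA (M * q * q)))
    (isArch_resV0 _ _
      (Fermat.Agent.S36.NU.H82.isArch_V11 A hq hA (M * q * q) M B k (lvl q M) hB))
    (isArch_resV0 _ _
      (Fermat.Agent.S36.NU.H82.isArch_V02 A hq hA (M * q * q) M B k (lvl q M) hB))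
    (val_pi11_lt_one A q M B k hB hq hA) (Nat.sub_pos_of_lt hq.one_lt)
    (hram11 A q M B k hB hq hA)

include hq in
theorem sum_deg : 1 + (q - 1) + q ^ 2 = q ^ 2 + q := by
  have h1 : 1 ≤ q := hq.pos
  generalize q ^ 2 = t
  omega

/-- **RES11 (abstract form)**: the residue field of `V11o` is the image of the residue field of
level `M`. -/
theorem surjective_a11 : Function.Surjective (a11 A q M B k hB hq hqM hA) :=
  @surjective_K1 ↥(L0 A M) ↥(L0 A (M * q * q)) (FM A M) (K11 A q M B k hB hq) _ _ _ _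
    (algL0 A (hleMN q M)) (finite_L0_NU A q M) (a11 A q M B k hB hq hqM hA).toAlgebra
    (alg2M A q M hq hqM hA) (nrPre A q M B k hB hq hqM hA) (q ^ 2 + q) (q ^ 2) (q - 1)
    (finrank_L0_NU A q M hq hqM) ⟨rfl, rfl, rfl⟩ (Nat.sub_pos_of_lt hq.one_lt)
    (finrank_alg2M A q M hq hqM hA) (sum_deg q hq)

include hq hqM hA in
/-- **RES11**: the reductions at `V₁₁` of the inertia-fixed functions lie in the residue field
of level `M`. -/
theorem s11_memM (x : ↥(V11o A q M B k hB hq)) :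
    s11 A q M B k hB hq x ∈ redField A (modularFunctionFieldBar M) (hScM A M) := by
  obtain ⟨c, hc⟩ := surjective_a11 A q M B k hB hq hqM hA (res11 A q M B k hB hq x)
  obtain ⟨a, rfl⟩ := rE_surjective A q M hq hqM hA c
  rw [a11_rE] at hc
  have h1 : res11 A q M B k hB hq (x - inc11 A q M B k hB hq a) = 0 := by
    rw [map_sub, hc, sub_self]
  have h3 : s11 A q M B k hB hq (x - inc11 A q M B k hB hq a) = 0 :=
    (res11_eq_zero_iff_s11 A q M B k hB hq _).1 h1
  have h4 : s11 A q M B k hB hq x = sE A M a := by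
    rw [map_sub, sub_eq_zero, s11_inc11] at h3
    exact h3
  rw [h4]
  exact (rE A M a).2

include hq hqM hA in
theorem s11_mem_fullC (x : ↥(V11o A q M B k hB hq)) :
    s11 A q M B k hB hq x ∈ modularFunctionFieldFullC (kV A) M := by
  rw [← FM_eq A q M hq hqM hA]
  exact s11_memM A q M B k hB hq hqM hA x

/-! ### The residue map of `V11o` -/

/-- The residue map of `V11o`, into the residue field of level `M`. -/
def r11 : ↥(V11o A q M B k hB hq) →+* FM A M where
  toFun x := ⟨s11 A q M B k hB hq x, s11_memM A q M B k hB hq hqM hA x⟩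
  map_one' := Subtype.ext (map_one (s11 A q M B k hB hq))
  map_mul' x y := Subtype.ext (map_mul (s11 A q M B k hB hq) x y)
  map_zero' := Subtype.ext (map_zero (s11 A q M B k hB hq))
  map_add' x y := Subtype.ext (map_add (s11 A q M B k hB hq) x y)

theorem coe_r11 (x : ↥(V11o A q M B k hB hq)) :
    ((r11 A q M B k hB hq hqM hA x : FM A M) : LaurentSeries (kV A))
      = s11 A q M B k hB hq x := rfl

theorem r11_eq_zero_of_not_isUnit (x : ↥(V11o A q M B k hB hq)) (hx : ¬ IsUnit x) :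
    r11 A q M B k hB hq hqM hA x = 0 := by
  apply Subtype.ext
  rw [coe_r11, s11_eq_zero_of_not_isUnit A q M B k hB hq x hx]
  rfl

theorem r11_incl (a : ↥(VE0 A M))
    (h : inclL0 A (hleMN q M) (a : ↥(L0 A M)) ∈ V11o A q M B k hB hq) :
    r11 A q M B k hB hq hqM hA ⟨_, h⟩ = rE A M a := by
  apply Subtype.ext
  rw [coe_r11, coe_rE]
  exact s11_incl A q M B k hB hq a h

include hq hqM hA in
theorem r11_surjective : Function.Surjective (r11 A q M B k hB hq hqM hA) := by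
  intro y
  obtain ⟨a, rfl⟩ := rE_surjective A q M hq hqM hA y
  exact ⟨⟨_, hVE11 A q M B k hB hq a a.2⟩, r11_incl A q M B k hB hq hqM hA a _⟩

/-! ### The modular `NRData` -/

/-- The three structure maps `(id, id, Fr²)`. -/
@[reducible] def algM : ∀ i, Algebra (FM A M) (kap3 (FM A M) (FM A M) i) :=
  kap3Alg (FM A M) (FM A M) (Algebra.id (FM A M)) (alg2M A q M hq hqM hA)

/-- **The modular `NRData`** of the three valuations `V₂₀`, `V₁₁`, `V₀₂` of the inertia-fixed
functions of level `M q²` over the Gauss valuation of level `M`. -/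
def nrM : @H42.NRData ↥(L0 A M) ↥(L0 A (M * q * q)) (FM A M) _ _ _ (algL0 A (hleMN q M))
    (Fin 3) (kap3 (FM A M) (FM A M)) _ (algM A q M hq hqM hA) :=
  @nr3 ↥(L0 A M) ↥(L0 A (M * q * q)) (FM A M) (FM A M) _ _ _ _
    (algL0 A (hleMN q M)) (Algebra.id (FM A M)) (alg2M A q M hq hqM hA)
    (VE0 A M) (rE A M) (V20o A q M) (V11o A q M B k hB hq) (V02o A q M B k hB)
    (r20 A q M hq hqM hA) (r11 A q M B k hB hq hqM hA) (r02 A q M B k hB hq hqM hA)
    (piE A q M) (pi11 A q M) (q - 1)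
    (piE_ne_zero A q M hq) (piE_mem A q M hA) (rE_piE A q M hA) (hE_mod A q M hq hA)
    (hVE20 A q M) (hVE11 A q M B k hB hq) (hVE02 A q M B k hB hq)
    (rE_eq_zero_of_not_isUnit A M)
    (r20_surjective A q M hq hqM hA) (r11_surjective A q M B k hB hq hqM hA)
    (r02_surjective A q M B k hB hq hqM hA)
    (r20_eq_zero_of_not_isUnit A q M hq hqM hA)
    (r11_eq_zero_of_not_isUnit A q M B k hB hq hqM hA)
    (r02_eq_zero_of_not_isUnit A q M B k hB hq hqM hA)
    (fun a ha => r20_incl A q M hq hqM hA a ha)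
    (fun a ha => r11_incl A q M B k hB hq hqM hA a ha)
    (fun a ha => r02_incl A q M B k hB hq hqM hA a ha)
    (Fermat.Agent.S36.NU.H82.not_le_20_11 A q M B k hB hq hA)
    (Fermat.Agent.S36.NU.H82.not_le_20_02 A q M B k hB hq hA)
    (Fermat.Agent.S36.NU.H82.not_le_11_20 A q M B k hB hq hA)
    (Fermat.Agent.S36.NU.H82.not_le_11_02 A q M B k hB hq hA)
    (Fermat.Agent.S36.NU.H82.not_le_02_20 A q M B k hB hq hA)
    (Fermat.Agent.S36.NU.H82.not_le_02_11 A q M B k hB hq hA)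
    (isArch_resV0 _ _ (Fermat.Agent.S36.NU.H82.isArch_V20 A hq hA (M * q * q)))
    (isArch_resV0 _ _
      (Fermat.Agent.S36.NU.H82.isArch_V11 A hq hA (M * q * q) M B k (lvl q M) hB))
    (isArch_resV0 _ _
      (Fermat.Agent.S36.NU.H82.isArch_V02 A hq hA (M * q * q) M B k (lvl q M) hB))
    (val_pi11_lt_one A q M B k hB hq hA) (Nat.sub_pos_of_lt hq.one_lt)
    (hram11 A q M B k hB hq hA)

theorem nrM_VE :
    @H42.NRData.VE ↥(L0 A M) ↥(L0 A (M * q * q)) (FM A M) _ _ _ (algL0 A (hleMN q M))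
      (Fin 3) (kap3 (FM A M) (FM A M)) _ (algM A q M hq hqM hA)
      (nrM A q M B k hB hq hqM hA) = VE0 A M := rfl

theorem nrM_V0 :
    @H42.NRData.V ↥(L0 A M) ↥(L0 A (M * q * q)) (FM A M) _ _ _ (algL0 A (hleMN q M))
      (Fin 3) (kap3 (FM A M) (FM A M)) _ (algM A q M hq hqM hA)
      (nrM A q M B k hB hq hqM hA) 0 = V20o A q M := rfl

theorem nrM_V1 :
    @H42.NRData.V ↥(L0 A M) ↥(L0 A (M * q * q)) (FM A M) _ _ _ (algL0 A (hleMN q M))
      (Fin 3) (kap3 (FM A M) (FM A M)) _ (algM A q M hq hqM hA)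
      (nrM A q M B k hB hq hqM hA) 1 = V11o A q M B k hB hq := rfl

theorem nrM_V2 :
    @H42.NRData.V ↥(L0 A M) ↥(L0 A (M * q * q)) (FM A M) _ _ _ (algL0 A (hleMN q M))
      (Fin 3) (kap3 (FM A M) (FM A M)) _ (algM A q M hq hqM hA)
      (nrM A q M B k hB hq hqM hA) 2 = V02o A q M B k hB := rfl

theorem nrM_e0 :
    @H42.NRData.e ↥(L0 A M) ↥(L0 A (M * q * q)) (FM A M) _ _ _ (algL0 A (hleMN q M))
      (Fin 3) (kap3 (FM A M) (FM A M)) _ (algM A q M hq hqM hA)
      (nrM A q M B k hB hq hqM hA) 0 = 1 := rfl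

theorem nrM_e1 :
    @H42.NRData.e ↥(L0 A M) ↥(L0 A (M * q * q)) (FM A M) _ _ _ (algL0 A (hleMN q M))
      (Fin 3) (kap3 (FM A M) (FM A M)) _ (algM A q M hq hqM hA)
      (nrM A q M B k hB hq hqM hA) 1 = q - 1 := rfl

theorem nrM_e2 :
    @H42.NRData.e ↥(L0 A M) ↥(L0 A (M * q * q)) (FM A M) _ _ _ (algL0 A (hleMN q M))
      (Fin 3) (kap3 (FM A M) (FM A M)) _ (algM A q M hq hqM hA)
      (nrM A q M B k hB hq hqM hA) 2 = 1 := rfl

/-- The degrees add up: `1 · 1 + (q - 1) · 1 + 1 · q² = q² + q = [L0 N : L0 M]`. -/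
theorem nrM_hdeg :
    ∑ i, @H42.NRData.e ↥(L0 A M) ↥(L0 A (M * q * q)) (FM A M) _ _ _ (algL0 A (hleMN q M))
          (Fin 3) (kap3 (FM A M) (FM A M)) _ (algM A q M hq hqM hA)
          (nrM A q M B k hB hq hqM hA) i
        * @Module.finrank (FM A M) (kap3 (FM A M) (FM A M) i) _ _
            (algM A q M hq hqM hA i).toModule
      = @Module.finrank ↥(L0 A M) ↥(L0 A (M * q * q)) _ _ (algL0 A (hleMN q M)).toModule := by
  rw [Fin.sum_univ_three, finrank_L0_NU A q M hq hqM]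
  have h0 : @Module.finrank (FM A M) (kap3 (FM A M) (FM A M) 0) _ _
      (algM A q M hq hqM hA 0).toModule = 1 := Module.finrank_self (FM A M)
  have h1 : @Module.finrank (FM A M) (kap3 (FM A M) (FM A M) 1) _ _
      (algM A q M hq hqM hA 1).toModule = 1 := Module.finrank_self (FM A M)
  have h2 : @Module.finrank (FM A M) (kap3 (FM A M) (FM A M) 2) _ _
      (algM A q M hq hqM hA 2).toModule = q ^ 2 := finrank_alg2M A q M hq hqM hA
  rw [h0, h1, h2, nrM_e0, nrM_e1, nrM_e2, mul_one, mul_one, one_mul]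
  exact sum_deg q hq

end Mod3

end Fermat.Agent.S36.NU.H23

end
end
-- ==== END Fermat.Agent.S36.NU.H23_Mod3

-- ==== BEGIN Fermat.Agent.S36.NU.H26_NormPow0
section

/-!
# S36 / NU-B, leaf DIV→NORM (helper26): the targets `Stmt_NormPow0`, `Stmt_NormFix` of FIN-TOP

* `stmt_NormPow0 : H10.Stmt_NormPow0 A q M`;
* `stmt_NormFix : H10.Stmt_NormFix A q M`.
-/

set_option autoImplicit false
set_option linter.style.haveILetI false
set_option linter.unusedSectionVars false
set_option synthInstance.maxHeartbeats 400000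
set_option maxHeartbeats 1000000

noncomputable section

namespace Fermat.Agent.S36.NU.H26

open AlgebraicCurve ModularCurve Fermat.Agent.S24 Fermat.Agent.Lib.HeckeComm
  Fermat.Agent.S36.H44 Fermat.Agent.BAD Fermat.Agent.S36.NU.H23 Fermat.Agent.BAD.H88
  Fermat.Agent.S36.NU.H10

variable (A : ValuationSubring Kbar) (q M : ℕ) [NeZero M] [NeZero q] [NeZero (M * q * q)]

/-- **DIV→NORM**: the target `Stmt_NormPow0` of FIN-TOP. -/
theorem stmt_NormPow0 : Stmt_NormPow0 A q M := by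
  intro n hn f hf hfI hα hβ D hD hDα hDβ
  constructor
  · obtain ⟨c, g₀, -, hc, -, hg, -, h⟩ :=
      divNorm_L0_alpha A (M * q) q n hn.ne' f hf hfI hα D hD hDα
    exact ⟨c, g₀, hc, hg, h⟩
  · obtain ⟨c, g₀, -, hc, -, hg, -, h⟩ :=
      divNorm_L0_beta A (M * q) q n hn.ne' f hf hfI hβ D hD hDβ
    exact ⟨c, g₀, hc, hg, h⟩

/-- **Norms of inertia-fixed functions are inertia-fixed**: the target `Stmt_NormFix`. -/
theorem stmt_NormFix : Stmt_NormFix A q M := by
  intro w hw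
  exact ⟨norm_mem_L0 A (heckeAlphaBar Kbar (M * q) q) (arithEquivariant_alpha (M * q) q)
      (alpha_finite (M * q) q) w hw,
    norm_mem_L0 A (heckeBetaBar Kbar (M * q) q) (arithEquivariant_beta (M * q) q)
      (beta_finite (M * q) q) w hw⟩

end Fermat.Agent.S36.NU.H26

end
end
-- ==== END Fermat.Agent.S36.NU.H26_NormPow0
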