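-- GENERATED (merged mirror, NOTES/tools/trim/merge3_helper67.py): 5 modules of the originals, bodies verbatim.
import Fermat.Agent.Zm.S36_L11_000
import Fermat.Agent.Zm.S36_L04_002
import Fermat.Agent.Zm.S35_L02_001
import Fermat.Agent.Zm.S36_L08_000
import Fermat.Agent.Zm.S36_L03_000
import Fermat.Agent.Zm.S35_L18_000
import Fermat.Agent.Zm.S36_L03_001
import Fermat.Agent.Zm.S36_L05_000
import Fermat.Agent.Zm.S48_L02_000
import Fermat.Agent.Zm.S35_L15_001
import Fermat.Agent.Zm.S36_L01_001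
import Fermat.Agent.Zm.S35_L01_001

-- ==== BEGIN Fermat.Agent.S36.NU.H10_S36Of
section

/-!
# S36 / NU-B (helper10): `Stmt_NUCoreTame` and `Stmt_TatePieceNU` from `Stmt_FinMod` and
`Stmt_ValVecMod`

`Stmt_NormPow0`, `Stmt_NormFix` are theorems (helper26).  The two remaining targets are asked for
EVERY valuation ring `A` over `q` and EVERY Bezout relation `B M + k q = 1`, at the tame levels.
-/

set_option autoImplicit false
set_option linter.style.haveILetI false
set_option linter.unusedSectionVars false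

noncomputable section

open ModularCurve AlgebraicCurve
open Fermat.Agent.S24 Fermat.Agent.BAD Fermat.Agent.BAD.H88 Fermat.Agent.Lib.HeckeComm
open Fermat.Agent.S36.NU.H23 Fermat.Agent.S36.NU.H81

namespace Fermat.Agent.S36.NU.H10

/-- **The two remaining modular targets of NU-B**, at the tame levels. -/
def Stmt_S36Targets : Prop :=
  ∀ (A : ValuationSubring Kbar) (q M : ℕ) (B k : ℤ) (hB : B * M + k * q = 1) (hq : q.Prime)
    [NeZero M] [NeZero q] [NeZero (M * q * q)], ¬ q ∣ M → A.LiesOverPrime q → TameNU (M * q) q →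
    Stmt_FinMod A q M B k hB hq ∧ Stmt_ValVecMod A q M B k hB hq

theorem finTopInputs_of (h : Stmt_S36Targets) (q M : ℕ) [NeZero M] [NeZero q]
    [NeZero (M * q * q)] : Stmt_FinTopInputs q M := by
  intro hq hqM ht
  obtain ⟨A, hA⟩ := Fermat.Agent.Lib.FrobExists.exists_liesOverPrime q hq
  have hcop : IsCoprime (M : ℤ) (q : ℤ) :=
    Nat.isCoprime_iff_coprime.mpr ((Nat.Prime.coprime_iff_not_dvd hq).2 hqM).symm
  obtain ⟨B, k, hBk⟩ := hcop
  have hB : B * M + k * q = 1 := hBk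
  obtain ⟨hFin, hVV⟩ := h A q M B k hB hq hqM hA ht
  exact ⟨A, B, k, hB, hA, hFin, hVV, Fermat.Agent.S36.NU.H26.stmt_NormPow0 A q M,
    Fermat.Agent.S36.NU.H26.stmt_NormFix A q M⟩

/-- **`Stmt_NUCoreTame` from the two targets.** -/
theorem nuCoreTame_of (h : Stmt_S36Targets) : Stmt_NUCoreTame :=
  fun p M₁ q _ _ ht => nuCore_tame_of (fun q M _ _ _ => finTopInputs_of h q M) p M₁ q ht

/-- **The Tate piece without inertia invariants from the two targets.** -/
theorem tatePieceNU_of_targets (h : Stmt_S36Targets) : Fermat.Agent.S35.Stmt_TatePieceNU :=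
  tatePieceNU_of_core (nuCoreTame_of h)

end Fermat.Agent.S36.NU.H10

end
end
-- ==== END Fermat.Agent.S36.NU.H10_S36Of

-- ==== BEGIN Fermat.Agent.S36.NU.H16_LocEqSSMod
section

/-!
# S36 / NU-B, leaf LOCEQ-SS, modular valuations (helper16)

`C` a chart over `F = L0 A (M q²)` whose three valuation rings are `V20o`, `V11o`, `V02o`
(helper23), `f ∈ F_M` a coordinate with integral expansion `u₀`, `u = incAA f`, `u'' = incBB f`
in `B`.  Then the hypotheses `hd₂`, `h₁₁`, `h₀₂` of `locEq_ss_coord` hold (UNIF3-MOD), and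

* `locEq_ss_modV` : at a place `z` of the component `C₂₀` at which `rd u - c` is a local
  coordinate, `c ∈ 𝔽_{q²}` and `rd (t₂₀ / q)` has a pole of order `q` (POLE: helper73, helper44),
  all components pass through the point `𝔪_z` and there is a local equation datum at `𝔪_z`.
-/

set_option autoImplicit false
set_option synthInstance.maxHeartbeats 400000
set_option maxHeartbeats 1000000
set_option linter.unusedSectionVars false
set_option linter.style.haveILetI false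

noncomputable section

namespace Fermat.Agent.S36.NU.H16

open Fermat.Agent.S24 Fermat.Agent.BAD.H88 ModularCurve AlgebraicCurve
open Fermat.Agent.S28 Fermat.Agent.S28.H73 Fermat.Agent.RED.H73 Fermat.Agent.RED.H17
open Fermat.Agent.S36.NU.H88 Fermat.Agent.S36.NU.H23

section SSMod

variable (A : ValuationSubring Kbar)
variable (q M : ℕ) (B k : ℤ) (hB : B * M + k * q = 1) (hq : q.Prime) [NeZero M] [NeZero q]
  [NeZero (M * q * q)]

variable {R k' ι : Type*} {κ : ι → Type*} [CommRing R] [Algebra R ↥(L0 A (M * q * q))]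
  [Field k'] [∀ i, Field (κ i)] [∀ i, Algebra k' (κ i)]

/-- `u = incAA f` as an inertia-fixed function. -/
def uo (f : FN M) (u₀ : LaurentSeries ℤ)
    (hf : (f : LaurentSeries Kbar) = H65.intSer Kbar u₀) : ↥(L0 A (M * q * q)) :=
  ⟨incAA q M f, incAA_mem_L0_of_int A q M f u₀ hf⟩

/-- `u'' = incBB f` as an inertia-fixed function. -/
def u2o (f : FN M) (u₀ : LaurentSeries ℤ)
    (hf : (f : LaurentSeries Kbar) = H65.intSer Kbar u₀) : ↥(L0 A (M * q * q)) :=
  ⟨incBB q M f, incBB_mem_L0_of_int A q M f u₀ hf⟩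

theorem t20o_eq_sub (f : FN M) (u₀ : LaurentSeries ℤ)
    (hf : (f : LaurentSeries Kbar) = H65.intSer Kbar u₀) :
    t20o A q M f u₀ hf = u2o A q M f u₀ hf - uo A q M f u₀ hf ^ q ^ 2 := rfl

theorem t11o_eq_sub (f : FN M) (u₀ : LaurentSeries ℤ)
    (hf : (f : LaurentSeries Kbar) = H65.intSer Kbar u₀) :
    t11o A q M f u₀ hf = u2o A q M f u₀ hf - uo A q M f u₀ hf := rfl

theorem t02o_eq_sub (f : FN M) (u₀ : LaurentSeries ℤ)
    (hf : (f : LaurentSeries Kbar) = H65.intSer Kbar u₀) :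
    t02o A q M f u₀ hf = uo A q M f u₀ hf - u2o A q M f u₀ hf ^ q ^ 2 := rfl

include hB hq in
/-- `t₀₂ ∈ q V₀₂` (transport of `t₂₀ = q d₂₀` by `W_{q²}`). -/
theorem t02o_div_mem (f : FN M) (u₀ : LaurentSeries ℤ)
    (hf : (f : LaurentSeries Kbar) = H65.intSer Kbar u₀) :
    ∃ f' ∈ V02o A q M B k hB,
      t02o A q M f u₀ hf = ((q : ℕ) : ↥(L0 A (M * q * q))) * f' := by
  have hq0 : ((q : ℕ) : ↥(L0 A (M * q * q))) ≠ 0 := by
    intro h0
    have := congrArg (fun x : ↥(L0 A (M * q * q)) => (x : FN (M * q * q))) h0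
    simp only [coe_natCast_L0] at this
    exact natCast_ne_zero_FN q M hq this
  refine ⟨((q : ℕ) : ↥(L0 A (M * q * q)))⁻¹ * t02o A q M f u₀ hf, ?_, ?_⟩
  · rw [mem_V02o_iff]
    have e : wS q M B k hB ((((q : ℕ) : ↥(L0 A (M * q * q)))⁻¹ * t02o A q M f u₀ hf :
        ↥(L0 A (M * q * q))) : FN (M * q * q)) = d20 q M f := by
      have h1 : (((((q : ℕ) : ↥(L0 A (M * q * q)))⁻¹ * t02o A q M f u₀ hf :
          ↥(L0 A (M * q * q))) : FN (M * q * q)))
          = (algebraMap Kbar (FN (M * q * q)) (q : Kbar))⁻¹ * t02 q M f := by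
        rw [← coe_natCast_L0 A q M]
        rfl
      rw [h1, map_mul, map_inv₀, AlgEquiv.commutes, wS_t02 q M B k hB hq, d20]
    rw [e]
    exact d20_mem_V20 A q M hq f u₀ hf
  · rw [← mul_assoc, mul_inv_cancel₀ hq0, one_mul]

include hB hq in
/-- **LOCEQ-SS on the modular valuations.** -/
theorem locEq_ss_modV [Fintype ι] [DecidableEq ι]
    (C : Chart R ↥(L0 A (M * q * q)) k' ι κ) (qR : R)
    (hqR : algebraMap R ↥(L0 A (M * q * q)) qR = ((q : ℕ) : ↥(L0 A (M * q * q))))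
    (hA : (q : Kbar) ∈ A.nonunits)
    (hqV : ∀ i, algebraMap R ↥(L0 A (M * q * q)) qR ∈ (C.V i).nonunits)
    (H : Subring ↥(L0 A (M * q * q))) (hBH : ∀ x ∈ C.B, x ∈ H)
    (hqH : (algebraMap R ↥(L0 A (M * q * q)) qR)⁻¹ ∈ H)
    (crit : ∀ f ∈ H, (∀ i, f ∈ C.V i) → f ∈ C.B)
    (e : ι → ℕ) (hE : H99.ValE C qR e)
    (i₂₀ i₁₁ i₀₂ : ι) (hcases : ∀ i, i = i₂₀ ∨ i = i₁₁ ∨ i = i₀₂)
    (ne₁ : i₂₀ ≠ i₁₁) (ne₂ : i₂₀ ≠ i₀₂) (ne₃ : i₁₁ ≠ i₀₂)
    (he₂₀ : e i₂₀ = 1) (he₁₁ : e i₁₁ = q - 1) (he₀₂ : e i₀₂ = 1)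
    (hV20 : C.V i₂₀ = V20o A q M) (hV11 : C.V i₁₁ = V11o A q M B k hB hq)
    (hV02 : C.V i₀₂ = V02o A q M B k hB)
    [CharP (κ i₂₀) q]
    (f : FN M) (u₀ : LaurentSeries ℤ) (hf : (f : LaurentSeries Kbar) = H65.intSer Kbar u₀)
    (hθ : H65.ThetaNZ q (coeffMap (Int.castRingHom (kV A)) u₀))
    (huB : uo A q M f u₀ hf ∈ C.B) (hu2B : u2o A q M f u₀ hf ∈ C.B)
    (z : Place k' (κ i₂₀)) (c : k')
    (hu : z.ord (C.rd i₂₀ (uo A q M f u₀ hf) - algebraMap k' (κ i₂₀) c) = 1)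
    (hc : c ^ q ^ 2 = c)
    (hd : z.ord (C.rd i₂₀ (d20o A q M f u₀ hf)) = -(q : ℤ))
    (𝔪 : Ideal C.B) [𝔪.IsPrime] (h𝔪 : ∀ β : C.B, β ∈ 𝔪 ↔ VanAt z (C.rdB i₂₀ β)) :
    (∀ i, C.Icomp i ≤ 𝔪) ∧ Nonempty (LocEq C qR 𝔪) := by
  haveI : Fact q.Prime := ⟨hq⟩
  have hqL0 : ((q : ℕ) : ↥(L0 A (M * q * q))) ≠ 0 := by
    intro h0
    have := congrArg (fun x : ↥(L0 A (M * q * q)) => (x : FN (M * q * q))) h0
    simp only [coe_natCast_L0] at this
    exact natCast_ne_zero_FN q M hq this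
  have hq0 : algebraMap R ↥(L0 A (M * q * q)) qR ≠ 0 := by rw [hqR]; exact hqL0
  have hdV : d20o A q M f u₀ hf ∈ C.V i₂₀ := by
    rw [hV20]; exact d20o_mem A q M hq f u₀ hf
  refine locEq_ss_coord C qR q hq0 hqV H hBH hqH crit e hE i₂₀ i₁₁ i₀₂ hcases ne₁ ne₂ ne₃
    he₂₀ he₁₁ he₀₂ hq.two_le ⟨uo A q M f u₀ hf, huB⟩ ⟨u2o A q M f u₀ hf, hu2B⟩
    (-d20o A q M f u₀ hf) (neg_mem hdV) ?_ ?_ ?_ z c ?_ hc ?_ 𝔪 h𝔪
  · -- `u ^ q² - u'' = q (- d₂₀)`
    change uo A q M f u₀ hf ^ q ^ 2 - u2o A q M f u₀ hf = _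
    rw [hqR, mul_neg, ← t20o_eq A q M hq f u₀ hf, t20o_eq_sub, neg_sub]
  · -- `(u'' - u) ^ (q - 1) ∈ q V₁₁`
    change ∃ f' ∈ C.V i₁₁, (u2o A q M f u₀ hf - uo A q M f u₀ hf) ^ (q - 1) = _
    rw [← t11o_eq_sub]
    refine pow_mem_of_val (C.V i₁₁) hq0 ?_
    rw [hV11, hqR]
    exact (val_t11o A q M B k hB hq hA f u₀ hf hθ).2.1.symm
  · -- `u'' ^ q² - u ∈ q V₀₂`
    change ∃ f' ∈ C.V i₀₂, u2o A q M f u₀ hf ^ q ^ 2 - uo A q M f u₀ hf = _
    obtain ⟨f', hf', hff'⟩ := t02o_div_mem A q M B k hB hq f u₀ hf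
    refine ⟨-f', ?_, ?_⟩
    · rw [hV02]; exact neg_mem hf'
    · rw [hqR, mul_neg, ← hff', t02o_eq_sub, neg_sub]
  · rw [← C.rd_coe]
    exact hu
  · rw [C.rd_neg i₂₀ hdV, Fermat.Agent.RED.H51.ord_neg]
    exact hd

end SSMod

end Fermat.Agent.S36.NU.H16

end
end
-- ==== END Fermat.Agent.S36.NU.H16_LocEqSSMod

-- ==== BEGIN Fermat.Agent.S36.NU.H23_Mod4
section
attribute [local instance 10000] SubalgebraClass.toAlgebra
attribute [local instance 10000] HahnSeries.powerSeriesAlgebra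

/-!
# S36 / NU-B, leaf TOT3-MOD (helper23): the modular conservation datum `TotN`

Level `N = M q²`, `q ∤ M`, `M` tame at `q`; `C = FM A M` the residue field of level `M`.

**`totM : TotN ℚ̄ (L0 A N) (F_N · ℚ̄) k (Fin 3) (Place k C) (C, C, C)`** with
`V = (V₂₀, V₁₁, V₀₂) ∩ L₀`, `red = (r20, r11, r02)`, `m = (1, q - 1, 1)`,
`ρ P = r_M (P | F_M)`, `pt z = (z, z, β² z)`.
-/

set_option autoImplicit false
set_option synthInstance.maxHeartbeats 400000
set_option maxHeartbeats 1000000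
set_option linter.style.haveILetI false
set_option linter.unusedSectionVars false

noncomputable section

open ModularCurve AlgebraicCurve
open Fermat.Agent.S24 Fermat.Agent.BAD.H88 Fermat.Agent.S28 Fermat.Agent.S28.H73
open Fermat.Agent.RED.H73 Fermat.Agent.RED.H17 Fermat.Agent.S36.NU.H88

namespace Fermat.Agent.S36.NU.H23

open Fermat.Agent.BAD Fermat.Agent.RED Fermat.Agent.S36.NU.H79

section Mod4

variable (A : ValuationSubring Kbar) (q M : ℕ) (B k : ℤ) (hB : B * M + k * q = 1) (hq : q.Prime)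
  [NeZero M] [NeZero q] [NeZero (M * q * q)] (hqM : ¬ q ∣ M) (hA : A.LiesOverPrime q)
  (ht : H91.TameAt M q)

/-! ### The tower `F_M ⊂ F_N` -/

theorem tower_FNU :
    letI := algF (hleMN q M)
    IsScalarTower Kbar (FN M) (FN (M * q * q)) :=
  isScalarTower_along (IntermediateField.inclusion (hleMN q M))

theorem finite_FNU' :
    letI := algF (hleMN q M)
    Module.Finite (FN M) (FN (M * q * q)) := finite_FNU q M

/-- The norm formula for `F_N / F_M`. -/
theorem normFormula_FNU :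
    letI := algF (hleMN q M)
    haveI := tower_FNU q M
    haveI := finite_FNU' q M
    Divisor.PushforwardNormFormula Kbar (FN M) (FN (M * q * q)) :=
  H51.stmt_FFB_norm Kbar (FN M) (FN (M * q * q)) (H95.stmt_HKA_isFF M)
    (H95.stmt_HKA_isFF (M * q * q)) (IntermediateField.inclusion (hleMN q M)) (finite_FNU q M)

/-- All inertia degrees are `1`. -/
theorem inertiaDeg_FNU (w : Place Kbar (FN (M * q * q))) :
    letI := algF (hleMN q M)
    haveI := tower_FNU q M
    haveI := finite_FNU' q M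
    w.inertiaDeg (FN M) = 1 := by
  letI := algF (hleMN q M)
  haveI := tower_FNU q M
  haveI := finite_FNU' q M
  have h := w.deg_restrict_mul_inertiaDeg (F := FN M)
  rw [H51.stmt_FFB_deg Kbar (FN M) (H95.stmt_HKA_isFF M),
    H51.stmt_FFB_deg Kbar (FN (M * q * q)) (H95.stmt_HKA_isFF (M * q * q)), one_mul] at h
  exact h

/-! ### The residue fields -/

/-- The natural structures of `k`-algebra of the three residue fields. -/
@[reducible] def algkM : ∀ i, Algebra (kV A) (kap3 (FM A M) (FM A M) i)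
  | 0 => inferInstanceAs (Algebra (kV A) (FM A M))
  | 1 => inferInstanceAs (Algebra (kV A) (FM A M))
  | 2 => inferInstanceAs (Algebra (kV A) (FM A M))

theorem finite_algM (i : Fin 3) :
    @Module.Finite (FM A M) (kap3 (FM A M) (FM A M) i) _ _ (algM A q M hq hqM hA i).toModule := by
  fin_cases i
  · exact Module.Finite.self (FM A M)
  · exact Module.Finite.self (FM A M)
  · exact finite_alg2M A q M hq hqM hA

/-- The points of the three components over a point of the curve of level `M`. -/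
def ptM : ∀ i : Fin 3, Place (kV A) (FM A M) →
    @Place (kV A) (kap3 (FM A M) (FM A M) i) _ _ (algkM A M i)
  | 0 => fun z => z
  | 1 => fun z => z
  | 2 => fun z => betaM A q M hq hqM hA (betaM A q M hq hqM hA z)

/-- The reduction map of `F_N` to the curve of level `M`. -/
def rhoM (P : Place Kbar (FN (M * q * q))) : Place (kV A) (FM A M) :=
  letI := algF (hleMN q M)
  haveI := tower_FNU q M
  haveI := finite_FNU' q M
  (H91.seM hq hqM ht hA).r (P.restrict (FN M))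

/-- `ord_z (N g) = ord_{pt i z} g`. -/
theorem hN_mod (i : Fin 3) (z : Place (kV A) (FM A M)) (g : kap3 (FM A M) (FM A M) i) :
    z.ord (@Algebra.norm (FM A M) (kap3 (FM A M) (FM A M) i) _ _ (algM A q M hq hqM hA i) g)
      = @Place.ord (kV A) (kap3 (FM A M) (FM A M) i) _ _ (algkM A M i)
          (ptM A q M hq hqM hA i z) g := by
  fin_cases i
  · show z.ord (@Algebra.norm (FM A M) (FM A M) _ _ (Algebra.id (FM A M)) g) = z.ord g
    rw [Algebra.norm_self]
    rfl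
  · show z.ord (@Algebra.norm (FM A M) (FM A M) _ _ (Algebra.id (FM A M)) g) = z.ord g
    rw [Algebra.norm_self]
    rfl
  · exact ord_norm_alg2M A q M hq hqM hA z g

/-! ### Constants -/

theorem coe_algebraMap_FM (a : kV A) :
    ((algebraMap (kV A) (FM A M) a : FM A M) : LaurentSeries (kV A))
      = algebraMap (kV A) (LaurentSeries (kV A)) a := rfl

include hq hA in
/-- Teichmüller lifts: constants of the residue field lift to inertia-fixed constants with the
same reduction at the three valuations. -/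
theorem hlift_mod (a : kV A) :
    ∃ c : ↥(L0 A (M * q * q)),
      (∃ c' : Kbar, ((c : FN (M * q * q))) = algebraMap Kbar (FN (M * q * q)) c') ∧
      (∃ h : c ∈ V20o A q M, s20 A q M ⟨c, h⟩ = algebraMap (kV A) (LaurentSeries (kV A)) a) ∧
      (∃ h : c ∈ V11o A q M B k hB hq,
        s11 A q M B k hB hq ⟨c, h⟩ = algebraMap (kV A) (LaurentSeries (kV A)) a) ∧
      (∃ h : c ∈ V02o A q M B k hB,
        s02 A q M B k hB ⟨c, h⟩ = algebraMap (kV A) (LaurentSeries (kV A)) a) := by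
  obtain ⟨c', hc', hfix, hres⟩ := Fermat.Agent.S36.NU.H42.exists_fixed_lift A hq hA a
  have h20 : algebraMap Kbar (FN (M * q * q)) c' ∈ V20 A (M * q * q) :=
    (const_mem20 A (M * q * q) c').mpr hc'
  have h11 : algebraMap Kbar (FN (M * q * q)) c' ∈ V11 A (M * q * q) q M B k (lvl q M) hB hq :=
    (const_mem11 A (M * q * q) q M B k (lvl q M) hB hq c').mpr hc'
  have h02 : algebraMap Kbar (FN (M * q * q)) c' ∈ V02 A (M * q * q) q M B k (lvl q M) hB :=
    (const_mem02 A (M * q * q) q M B k (lvl q M) hB c').mpr hc'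
  refine ⟨⟨algebraMap Kbar (FN (M * q * q)) c', (const_mem_L0_iff A c').mpr hfix⟩,
    ⟨c', rfl⟩, ⟨h20, ?_⟩, ⟨h11, ?_⟩, ⟨h02, ?_⟩⟩
  · show ((red20 A (M * q * q) ⟨_, h20⟩ : F20 A (M * q * q)) : LaurentSeries (kV A)) = _
    rw [red20_const A (M * q * q) ⟨c', hc'⟩ h20, hres]
    rfl
  · show ((red11 A (M * q * q) q M B k (lvl q M) hB hq ⟨_, h11⟩ :
      F11 A (M * q * q) q M B k (lvl q M) hB hq) : LaurentSeries (kV A)) = _
    rw [red11_const A (M * q * q) q M B k (lvl q M) hB hq ⟨c', hc'⟩ h11, hres]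
    rfl
  · show ((red02 A (M * q * q) q M B k (lvl q M) hB ⟨_, h02⟩ : F20 A (M * q * q)) :
      LaurentSeries (kV A)) = _
    rw [const_red02 A (M * q * q) q M B k (lvl q M) hB c' h20 h02,
      red20_const A (M * q * q) ⟨c', hc'⟩ h20, hres]
    rfl

/-! ### The conservation datum -/

/-- **TOT3-MOD**: the conservation datum of the three valuations `V₂₀`, `V₁₁`, `V₀₂` of the
inertia-fixed functions of level `M q²`, with multiplicities `(1, q - 1, 1)`. -/
def totM : @TotN Kbar ↥(L0 A (M * q * q)) (FN (M * q * q)) (kV A) (Fin 3)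
    (Place (kV A) (FM A M)) (kap3 (FM A M) (FM A M)) _ _ _ _ _ _ _ _ (algkM A M) :=
  letI := algF (hleMN q M)
  haveI := tower_FNU q M
  haveI := finite_FNU' q M
  letI := algL0 A (hleMN q M)
  haveI : Module.Finite ↥(L0 A M) ↥(L0 A (M * q * q)) := finite_L0_NU A q M
  letI := algM A q M hq hqM hA
  haveI : ∀ i, Module.Finite (FM A M) (kap3 (FM A M) (FM A M) i) :=
    finite_algM A q M hq hqM hA
  letI := algkM A M
  totN_of_normRedR (H91.seM hq hqM ht hA)
    (H51.stmt_FFB_principal Kbar (FN M) (H95.stmt_HKA_isFF M))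
    (inertiaDeg_FNU q M) (normFormula_FNU q M)
    (nrM A q M B k hB hq hqM hA) (nrM_hdeg A q M B k hB hq hqM hA)
    (RingHom.id (FM A M))
    (fun x => (coe_inclL0 A (hleMN q M) x).symm)
    (fun g => norm_L0 A (hleMN q M) (finite_FNU q M) g)
    (fun _ ha => ha)
    (fun _ _ => rfl)
    (fun c hc => const_L0 A (hleMN q M) c hc)
    (rhoM A q M hq hqM hA ht) id Function.injective_id (fun _ => rfl)
    (ptM A q M hq hqM hA)
    (fun i z g _ => hN_mod A q M hq hqM hA i z g)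
    (fun a => by
      obtain ⟨c, hc, ⟨h0, e0⟩, ⟨h1, e1⟩, ⟨h2, e2⟩⟩ := hlift_mod A q M B k hB hq hA a
      refine ⟨c, hc, fun i => ?_⟩
      fin_cases i
      · exact ⟨h0, Subtype.ext e0⟩
      · exact ⟨h1, Subtype.ext e1⟩
      · exact ⟨h2, Subtype.ext e2⟩)

theorem totM_V0 :
    @TotN.V Kbar ↥(L0 A (M * q * q)) (FN (M * q * q)) (kV A) (Fin 3)
      (Place (kV A) (FM A M)) (kap3 (FM A M) (FM A M)) _ _ _ _ _ _ _ _ (algkM A M)
      (totM A q M B k hB hq hqM hA ht) 0 = V20o A q M := rfl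

theorem totM_V1 :
    @TotN.V Kbar ↥(L0 A (M * q * q)) (FN (M * q * q)) (kV A) (Fin 3)
      (Place (kV A) (FM A M)) (kap3 (FM A M) (FM A M)) _ _ _ _ _ _ _ _ (algkM A M)
      (totM A q M B k hB hq hqM hA ht) 1 = V11o A q M B k hB hq := rfl

theorem totM_V2 :
    @TotN.V Kbar ↥(L0 A (M * q * q)) (FN (M * q * q)) (kV A) (Fin 3)
      (Place (kV A) (FM A M)) (kap3 (FM A M) (FM A M)) _ _ _ _ _ _ _ _ (algkM A M)
      (totM A q M B k hB hq hqM hA ht) 2 = V02o A q M B k hB := rfl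

theorem totM_red0 :
    @TotN.red Kbar ↥(L0 A (M * q * q)) (FN (M * q * q)) (kV A) (Fin 3)
      (Place (kV A) (FM A M)) (kap3 (FM A M) (FM A M)) _ _ _ _ _ _ _ _ (algkM A M)
      (totM A q M B k hB hq hqM hA ht) 0 = r20 A q M hq hqM hA := rfl

theorem totM_red1 :
    @TotN.red Kbar ↥(L0 A (M * q * q)) (FN (M * q * q)) (kV A) (Fin 3)
      (Place (kV A) (FM A M)) (kap3 (FM A M) (FM A M)) _ _ _ _ _ _ _ _ (algkM A M)
      (totM A q M B k hB hq hqM hA ht) 1 = r11 A q M B k hB hq hqM hA := rfl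

theorem totM_red2 :
    @TotN.red Kbar ↥(L0 A (M * q * q)) (FN (M * q * q)) (kV A) (Fin 3)
      (Place (kV A) (FM A M)) (kap3 (FM A M) (FM A M)) _ _ _ _ _ _ _ _ (algkM A M)
      (totM A q M B k hB hq hqM hA ht) 2 = r02 A q M B k hB hq hqM hA := rfl

theorem totM_m0 :
    @TotN.m Kbar ↥(L0 A (M * q * q)) (FN (M * q * q)) (kV A) (Fin 3)
      (Place (kV A) (FM A M)) (kap3 (FM A M) (FM A M)) _ _ _ _ _ _ _ _ (algkM A M)
      (totM A q M B k hB hq hqM hA ht) 0 = 1 := rfl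

theorem totM_m1 :
    @TotN.m Kbar ↥(L0 A (M * q * q)) (FN (M * q * q)) (kV A) (Fin 3)
      (Place (kV A) (FM A M)) (kap3 (FM A M) (FM A M)) _ _ _ _ _ _ _ _ (algkM A M)
      (totM A q M B k hB hq hqM hA ht) 1 = q - 1 := rfl

theorem totM_m2 :
    @TotN.m Kbar ↥(L0 A (M * q * q)) (FN (M * q * q)) (kV A) (Fin 3)
      (Place (kV A) (FM A M)) (kap3 (FM A M) (FM A M)) _ _ _ _ _ _ _ _ (algkM A M)
      (totM A q M B k hB hq hqM hA ht) 2 = 1 := rfl

theorem totM_rho :
    @TotN.ρ Kbar ↥(L0 A (M * q * q)) (FN (M * q * q)) (kV A) (Fin 3)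
      (Place (kV A) (FM A M)) (kap3 (FM A M) (FM A M)) _ _ _ _ _ _ _ _ (algkM A M)
      (totM A q M B k hB hq hqM hA ht) = rhoM A q M hq hqM hA ht := rfl

theorem totM_pt :
    @TotN.pt Kbar ↥(L0 A (M * q * q)) (FN (M * q * q)) (kV A) (Fin 3)
      (Place (kV A) (FM A M)) (kap3 (FM A M) (FM A M)) _ _ _ _ _ _ _ _ (algkM A M)
      (totM A q M B k hB hq hqM hA ht) = ptM A q M hq hqM hA := rfl

theorem ptM_zero (z : Place (kV A) (FM A M)) : ptM A q M hq hqM hA 0 z = z := rfl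

theorem ptM_one (z : Place (kV A) (FM A M)) : ptM A q M hq hqM hA 1 z = z := rfl

theorem ptM_two (z : Place (kV A) (FM A M)) :
    ptM A q M hq hqM hA 2 z = betaM A q M hq hqM hA (betaM A q M hq hqM hA z) := rfl

end Mod4

end Fermat.Agent.S36.NU.H23

end
end
-- ==== END Fermat.Agent.S36.NU.H23_Mod4

-- ==== BEGIN Fermat.Agent.S36.NU.H42_One
section

/-!
# S36 / NU-B, TI3-VAL, leaf (INT)-ONE, modular instance (helper42)

`A` a valuation ring of `ℚ̄` over `q`, `q ∤ M`.  `E₀ = L0 A 1 = K^ur(j)`, `E = L0 A M`,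
`V₀ = VE0 A 1`, `V = VE0 A M` (helper23's restricted Gauss valuation rings), residue fields
`fullC k 1 = k(j~)` and `fullC k M`.

* `kapAlg`, `rE` : the residue maps with values in `fullC k M`;
* `finrank_kap` : `[fullC k M : fullC k 1] = ψ(M)`, `finrank_L0_one : [L0 A M : L0 A 1] = ψ(M)`;
* `oneData` : the `NRData` of the single valuation `VE0 A M` over `VE0 A 1` (needs (VAL0) at
  level `1`: the value group of `VE0 A 1` is generated by `|q|`);
* `one_mod` : every element of `VE0 A M` is integral over `VE0 A 1`;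
* `int_mod` : (INT) for any `NRData` over `VE0 A M` with the degree equality.
-/

set_option autoImplicit false
set_option synthInstance.maxHeartbeats 400000
set_option maxHeartbeats 1000000
set_option linter.unusedSectionVars false
set_option linter.unusedVariables false
set_option linter.style.haveILetI false

noncomputable section

open ModularCurve AlgebraicCurve Fermat.Agent.S24 Fermat.Agent.S28 Fermat.Agent.S28.H73
  Fermat.Agent.RED.H73 Fermat.Agent.BAD.H88 Fermat.Agent.BAD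

namespace Fermat.Agent.S36.NU.H42

variable (A : ValuationSubring Kbar)

/-! ## Level one -/

/-- `k(j~(t^d) : d ∣ 1) = k(j~)`. -/
theorem fullC_one_eq (K : Type) [Field K] :
    modularFunctionFieldFullC K 1 = IntermediateField.adjoin K ({jqModC K} : Set (LaurentSeries K)) := by
  rw [modularFunctionFieldFullC]
  congr 1
  ext x
  constructor
  · rintro ⟨d, hd0, hd, rfl⟩
    have hd1 : d = 1 := Nat.dvd_one.mp hd
    subst hd1
    rw [Set.mem_singleton_iff, qExpand_one_apply]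
  · intro hx
    rw [Set.mem_singleton_iff] at hx
    subst hx
    exact ⟨1, inferInstance, dvd_rfl, (qExpand_one_apply _).symm⟩

/-- `F_1 · ℚ̄ = ℚ̄(j)`. -/
theorem bar_one_eq :
    modularFunctionFieldBar 1
      = IntermediateField.adjoin Kbar ({jqModC Kbar} : Set (LaurentSeries Kbar)) := by
  show laurentBaseChange Kbar (modularFunctionFieldFull 1) = _
  rw [laurentBaseChange_full_eq, fullC_one_eq]

variable (M : ℕ) [NeZero M]

/-- `F_1 ⊆ F_M`. -/
theorem hle1 : modularFunctionFieldBar 1 ≤ modularFunctionFieldBar M :=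
  Fermat.Agent.S36.NU.H82.FM_le_of_dvd M 1 (one_dvd M)

/-- `[F_M · ℚ̄ : F_1 · ℚ̄] = ψ(M)`. -/
theorem relfinrank_bar_one :
    (modularFunctionFieldBar 1).relfinrank (modularFunctionFieldBar M) = dedekindPsi M := by
  rw [bar_one_eq]
  exact Fermat.Agent.BAD.H82.relfinrank_bar M

theorem finrank_FN_one :
    (letI := H23.algF (hle1 M); Module.finrank (FN 1) (FN M)) = dedekindPsi M := by
  rw [← relfinrank_bar_one M]
  exact Fermat.Agent.RED.H51.finrank_along_inclusion (hle1 M)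

theorem finite_FN_one : letI := H23.algF (hle1 M); Module.Finite (FN 1) (FN M) := by
  letI := H23.algF (hle1 M)
  apply Module.finite_of_finrank_pos
  rw [finrank_FN_one M]
  exact Nat.pos_of_ne_zero (Fermat.Agent.BAD.H82.dedekindPsi_ne_zero' M)

/-- `[L0 A M : L0 A 1] = ψ(M)`. -/
theorem finrank_L0_one :
    (letI := H23.algL0 A (hle1 M); Module.finrank ↥(H23.L0 A 1) ↥(H23.L0 A M))
      = dedekindPsi M := by
  rw [← finrank_FN_one M]
  exact H23.finrank_L0 A (hle1 M) (finite_FN_one M)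

theorem finite_L0_one :
    letI := H23.algL0 A (hle1 M); Module.Finite ↥(H23.L0 A 1) ↥(H23.L0 A M) :=
  H23.finite_L0 A (hle1 M) (finite_FN_one M)

/-! ## The residue fields -/

/-- The residue field at level `M`: `k(j~(t^d) : d ∣ M)`. -/
abbrev kap (M : ℕ) [NeZero M] : Type := ↥(modularFunctionFieldFullC (kV A) M)

/-- `fullC k 1 ⊆ fullC k M`. -/
theorem hleK : modularFunctionFieldFullC (kV A) 1 ≤ modularFunctionFieldFullC (kV A) M :=
  full_degeneracyC_le (kV A) (one_dvd M)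

/-- `fullC k M` as an algebra over `fullC k 1 = k(j~)`. -/
@[reducible] def kapAlg : Algebra (kap A 1) (kap A M) :=
  algebraAlong (IntermediateField.inclusion (hleK A M))

theorem coe_algebraMap_kap (y : kap A 1) :
    ((@algebraMap (kap A 1) (kap A M) _ _ (kapAlg A M) y : kap A M) : LaurentSeries (kV A))
      = (y : LaurentSeries (kV A)) := by
  letI := kapAlg A M
  have h : algebraMap (kap A 1) (kap A M) y = IntermediateField.inclusion (hleK A M) y :=
    rfl
  rw [h]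
  exact IntermediateField.coe_inclusion _ _

variable (q : ℕ) (hq : q.Prime) (hqM : ¬ q ∣ M) (hA : A.LiesOverPrime q)

include hq hqM hA in
/-- `[fullC k M : k(j~)] = ψ(M)`, relative form. -/
theorem relfinrank_kap :
    (modularFunctionFieldFullC (kV A) 1).relfinrank (modularFunctionFieldFullC (kV A) M)
      = dedekindPsi M := by
  have h2 := (Fermat.Agent.RED.H73.stmt_GA_deg M q hq hqM A hA).1
  rw [Fermat.Agent.RED.H73.relfinrank_fullC_bar M] at h2
  rw [fullC_one_eq]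
  exact h2

include hq hqM hA in
/-- `[fullC k M : fullC k 1] = ψ(M)`. -/
theorem finrank_kap :
    (letI := kapAlg A M; Module.finrank (kap A 1) (kap A M)) = dedekindPsi M :=
  (Fermat.Agent.RED.H51.finrank_along_inclusion (hleK A M)).trans
    (relfinrank_kap A M q hq hqM hA)


/-! ## The residue fields `FM A 1 ⊆ FM A M` -/

/-- The residue field of level `1` is contained in the residue field of level `M`. -/
theorem hleFM :
    redField A (modularFunctionFieldBar 1) (hScM A 1)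
      ≤ redField A (modularFunctionFieldBar M) (hScM A M) :=
  Fermat.Agent.RED.H51.redField_mono A (hle1 M) (hScM A 1) (hScM A M)

/-- `FM A M` as an algebra over `FM A 1 = k(j~)`. -/
@[reducible] def fmAlg : Algebra (FM A 1) (FM A M) :=
  algebraAlong (IntermediateField.inclusion (hleFM A M))

theorem coe_algebraMap_fm (y : FM A 1) :
    ((@algebraMap (FM A 1) (FM A M) _ _ (fmAlg A M) y : FM A M) : LaurentSeries (kV A))
      = (y : LaurentSeries (kV A)) := by
  letI := fmAlg A M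
  have h : algebraMap (FM A 1) (FM A M) y = IntermediateField.inclusion (hleFM A M) y := rfl
  rw [h]
  exact IntermediateField.coe_inclusion _ _

include hq hqM hA in
/-- `[FM A M : FM A 1] = ψ(M)`. -/
theorem finrank_FM :
    (letI := fmAlg A M; Module.finrank (FM A 1) (FM A M)) = dedekindPsi M := by
  refine (Fermat.Agent.RED.H51.finrank_along_inclusion (hleFM A M)).trans ?_
  have h1 : redField A (modularFunctionFieldBar 1) (hScM A 1)
      = modularFunctionFieldFullC (kV A) 1 :=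
    Fermat.Agent.RED.H73.stmt_GA 1 q hq (fun h => hq.one_lt.ne' (Nat.dvd_one.mp h)) A hA
  have h2 : redField A (modularFunctionFieldBar M) (hScM A M)
      = modularFunctionFieldFullC (kV A) M :=
    Fermat.Agent.RED.H73.stmt_GA M q hq hqM A hA
  rw [h1, h2]
  exact relfinrank_kap A M q hq hqM hA

/-! ## The `NRData` of `VE0 A M` over `VE0 A 1` -/

theorem coe_inclL0_one (a : ↥(H23.L0 A 1)) :
    (((H23.inclL0 A (hle1 M) a : ↥(H23.L0 A M)) : FN M) : LaurentSeries Kbar)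
      = ((a : FN 1) : LaurentSeries Kbar) := by
  rw [H23.coe_inclL0, IntermediateField.coe_inclusion]

/-- `VE0 A 1 ⊆ VE0 A M`. -/
theorem hV_one (a : ↥(H23.L0 A 1)) (ha : a ∈ H23.VE0 A 1) :
    H23.inclL0 A (hle1 M) a ∈ H23.VE0 A M := by
  rw [H23.mem_VE0_iff, coe_inclL0_one]
  exact ha

/-- The residue maps are compatible. -/
theorem rE_incl_one (a : ↥(H23.VE0 A 1))
    (h : H23.inclL0 A (hle1 M) (a : ↥(H23.L0 A 1)) ∈ H23.VE0 A M) :
    H23.rE A M ⟨_, h⟩ = @algebraMap (FM A 1) (FM A M) _ _ (fmAlg A M) (H23.rE A 1 a) := by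
  apply Subtype.ext
  rw [coe_algebraMap_fm, H23.coe_rE, H23.coe_rE, H23.sE_mk]
  show _ = gaussRedV A ⟨(((a : ↥(H23.L0 A 1)) : FN 1) : LaurentSeries Kbar), a.2⟩
  congr 1

/-- **The `NRData` of the Gauss valuation of level `M` over the Gauss valuation of level `1`**
(inertia-fixed functions, `q ∤ M`). -/
def oneData : @H42.NRData ↥(H23.L0 A 1) ↥(H23.L0 A M) (FM A 1) _ _ _ (H23.algL0 A (hle1 M))
    Unit (fun _ => FM A M) _ (fun _ => fmAlg A M) :=
  haveI : NeZero q := ⟨hq.ne_zero⟩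
  @H42.nr1 ↥(H23.L0 A 1) ↥(H23.L0 A M) (FM A 1) (FM A M) _ _ _ _ (H23.algL0 A (hle1 M))
    (fmAlg A M) (H23.VE0 A 1) (H23.rE A 1) (H23.VE0 A M) (H23.rE A M) (H23.piE A q 1)
    (H23.piE_ne_zero A q 1 hq) (H23.piE_mem A q 1 hA) (H23.rE_piE A q 1 hA)
    (H23.hE_mod A q 1 hq hA) (hV_one A M) (H23.rE_eq_zero_of_not_isUnit A 1)
    (H23.rE_surjective A q M hq hqM hA) (H23.rE_eq_zero_of_not_isUnit A M)
    (fun a ha => rE_incl_one A M a ha)
    (H23.isArch_resV0 _ _ (Fermat.Agent.S36.NU.H82.isArch_V20 A hq hA M))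

/-- The degree equality of `oneData`: `1 · [FM A M : FM A 1] = [L0 A M : L0 A 1]`. -/
theorem oneData_hdeg :
    ∑ i, @H42.NRData.e ↥(H23.L0 A 1) ↥(H23.L0 A M) (FM A 1) _ _ _ (H23.algL0 A (hle1 M))
          Unit (fun _ => FM A M) _ (fun _ => fmAlg A M) (oneData A M q hq hqM hA) i
        * @Module.finrank (FM A 1) (FM A M) _ _ (fmAlg A M).toModule
      = @Module.finrank ↥(H23.L0 A 1) ↥(H23.L0 A M) _ _ (H23.algL0 A (hle1 M)).toModule := by
  rw [Fintype.sum_unique, finrank_FM A M q hq hqM hA, finrank_L0_one A M]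
  exact one_mul _

theorem oneData_VE :
    @H42.NRData.VE ↥(H23.L0 A 1) ↥(H23.L0 A M) (FM A 1) _ _ _ (H23.algL0 A (hle1 M))
      Unit (fun _ => FM A M) _ (fun _ => fmAlg A M) (oneData A M q hq hqM hA)
      = H23.VE0 A 1 := rfl

theorem oneData_V (i : Unit) :
    @H42.NRData.V ↥(H23.L0 A 1) ↥(H23.L0 A M) (FM A 1) _ _ _ (H23.algL0 A (hle1 M))
      Unit (fun _ => FM A M) _ (fun _ => fmAlg A M) (oneData A M q hq hqM hA) i
      = H23.VE0 A M := rfl

include hq hqM hA in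
/-- The residue field extension is finite. -/
theorem finite_FM : @Module.Finite (FM A 1) (FM A M) _ _ (fmAlg A M).toModule := by
  letI := fmAlg A M
  apply Module.finite_of_finrank_pos
  rw [finrank_FM A M q hq hqM hA]
  exact Nat.pos_of_ne_zero (Fermat.Agent.BAD.H82.dedekindPsi_ne_zero' M)

include hq hqM hA in
/-- **ONE (modular)**: every inertia-fixed Gauss-integral function of level `M` (`q ∤ M`) is
integral over the ring `VE0 A 1` of inertia-fixed Gauss-integral functions of level `1`: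
it is a root of a monic polynomial with coefficients in `VE0 A 1`. -/
theorem one_mod (x : ↥(H23.L0 A M)) (hx : x ∈ H23.VE0 A M) :
    ∃ P : Polynomial ↥(H23.VE0 A 1), P.Monic ∧
      Polynomial.eval₂ ((H23.inclL0 A (hle1 M)).comp (H23.VE0 A 1).subtype) x P = 0 := by
  exact @H42.NRData.exists_monic_root ↥(H23.L0 A 1) ↥(H23.L0 A M) (FM A 1) _ _ _
    (H23.algL0 A (hle1 M)) Unit (fun _ => FM A M) _ (fun _ => fmAlg A M)
    (fun _ => finite_FM A M q hq hqM hA) (oneData A M q hq hqM hA) _ _ (finite_L0_one A M)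
    (oneData_hdeg A M q hq hqM hA) x (fun _ => hx)

end Fermat.Agent.S36.NU.H42

end
end
-- ==== END Fermat.Agent.S36.NU.H42_One

-- ==== BEGIN Fermat.Agent.S36.NU.H51_ValVecCore
section

/-!
# S36 / NU-B, leaf VALVEC-MOD (helper51): the core

Level `M q²`, `q ∤ M`; `L₀ = L0 A (M q²)`, `L' = L0 A (M q)`.

* `IsUnit3C`, `IsNormPow0C`, `ValVecModC` : the shapes of the target (`H10.Stmt_ValVecMod`);
* `exact20`, `exact11`, `exact02` : **EXACT** for the three valuations of `L₀`, from helper23's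
  `nrM` and helper79's `nv_exists_val_eq_zpow`;
* `valVecMod_core` : `ValVecModC` from helper16's `valvec`, given two discrete valuations
  `V'₁`, `V'₂` of `L'` (uniformiser `q`), the functions `t₁₁`, `t₀₂`, and **NORM-VAL** for the
  norms `Nα`, `Nβ : L₀ → L'`.
-/

set_option autoImplicit false
set_option synthInstance.maxHeartbeats 400000
set_option maxHeartbeats 1000000
set_option linter.style.haveILetI false
set_option linter.unusedSectionVars false

noncomputable section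

open ModularCurve AlgebraicCurve
open Fermat.Agent.S24 Fermat.Agent.BAD.H88 Fermat.Agent.S28 Fermat.Agent.S28.H73
open Fermat.Agent.RED.H73 Fermat.Agent.RED.H17 Fermat.Agent.S36.NU.H88
open Fermat.Agent.S36.NU.H23 Fermat.Agent.Lib.HeckeComm Fermat.Agent.BAD

namespace Fermat.Agent.S36.NU.H51

section Core

variable (A : ValuationSubring Kbar) (q M : ℕ) (B k : ℤ) (hB : B * M + k * q = 1) (hq : q.Prime)
  [NeZero M] [NeZero q] [NeZero (M * q)] [NeZero (M * q * q)]

/-- Units for the three valuations. -/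
def IsUnit3C (h : ↥(L0 A (M * q * q))) : Prop :=
  (h ∈ V20o A q M ∧ h⁻¹ ∈ V20o A q M) ∧
  (h ∈ V11o A q M B k hB hq ∧ h⁻¹ ∈ V11o A q M B k hB hq) ∧
  (h ∈ V02o A q M B k hB ∧ h⁻¹ ∈ V02o A q M B k hB)

/-- The norm along `φ` is a constant of the inertia field times an `n`-th power of an
inertia-fixed function. -/
def IsNormPow0C (φ : FN (M * q) →ₐ[Kbar] FN (M * q * q)) (n : ℕ) (h : FN (M * q * q)) : Prop :=
  ∃ (c : Kbar) (g : FN (M * q)), (∀ σ ∈ A.inertiaSubgroupIn ℚ, σ c = c) ∧ g ∈ L0 A (M * q) ∧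
    normAlongHom φ.toRingHom h = algebraMap Kbar (FN (M * q)) c * g ^ n

/-- The shape of VALVEC-MOD. -/
def ValVecModC : Prop :=
  ∀ n : ℕ, 0 < n → ∀ f : ↥(L0 A (M * q * q)), f ≠ 0 →
    IsNormPow0C A q M (heckeAlphaBar Kbar (M * q) q) n (f : FN (M * q * q)) →
    IsNormPow0C A q M (heckeBetaBar Kbar (M * q) q) n (f : FN (M * q * q)) →
    ∃ (b : ℤ) (w : ↥(L0 A (M * q * q))), w ≠ 0 ∧
      IsUnit3C A q M B k hB hq
        (f ^ (q + 1) * ((q : ℕ) : ↥(L0 A (M * q * q))) ^ (-b) * w ^ n)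

/-! ### EXACT for the three valuations of `L₀` -/

theorem inclL0_piE_eq :
    inclL0 A (hleMN q M) (piE A q M) = ((q : ℕ) : ↥(L0 A (M * q * q))) := by
  apply Subtype.ext
  rw [coe_inclL0_piE]
  rfl

section Exact

variable (hqM : ¬ q ∣ M) (hA : A.LiesOverPrime q)

include hqM hA in
/-- **EXACT** for the three valuations, in the form of `nrM`. -/
theorem exact_nrM (i : Fin 3) (x : ↥(L0 A (M * q * q))) (hx : x ≠ 0) :
    ∃ m : ℤ,
      ((@H42.NRData.V ↥(L0 A M) ↥(L0 A (M * q * q)) (FM A M) _ _ _ (algL0 A (hleMN q M))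
        (Fin 3) (kap3 (FM A M) (FM A M)) _ (algM A q M hq hqM hA)
        (nrM A q M B k hB hq hqM hA) i).valuation x)
      = ((@H42.NRData.V ↥(L0 A M) ↥(L0 A (M * q * q)) (FM A M) _ _ _ (algL0 A (hleMN q M))
        (Fin 3) (kap3 (FM A M) (FM A M)) _ (algM A q M hq hqM hA)
        (nrM A q M B k hB hq hqM hA) i).valuation
          (@H42.NRData.π ↥(L0 A M) ↥(L0 A (M * q * q)) (FM A M) _ _ _ (algL0 A (hleMN q M))
        (Fin 3) (kap3 (FM A M) (FM A M)) _ (algM A q M hq hqM hA)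
        (nrM A q M B k hB hq hqM hA) i)) ^ m := by
  letI := algL0 A (hleMN q M)
  letI := algM A q M hq hqM hA
  haveI : Module.Finite ↥(L0 A M) ↥(L0 A (M * q * q)) := finite_L0_NU A q M
  exact H79.nv_exists_val_eq_zpow (nrM A q M B k hB hq hqM hA)
    (nrM_hdeg A q M B k hB hq hqM hA) i x hx

include hB hq hqM hA in
theorem exact20 (x : ↥(L0 A (M * q * q))) (hx : x ≠ 0) :
    ∃ m : ℤ, (V20o A q M).valuation x
      = (V20o A q M).valuation ((q : ℕ) : ↥(L0 A (M * q * q))) ^ m := by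
  obtain ⟨m, hm⟩ := exact_nrM A q M B k hB hq hqM hA 0 x hx
  refine ⟨m, ?_⟩
  rw [← inclL0_piE_eq A q M]
  exact hm

include hqM hA in
theorem exact11 (x : ↥(L0 A (M * q * q))) (hx : x ≠ 0) :
    ∃ m : ℤ, (V11o A q M B k hB hq).valuation x
      = (V11o A q M B k hB hq).valuation (pi11 A q M) ^ m :=
  exact_nrM A q M B k hB hq hqM hA 1 x hx

include hB hq hqM hA in
theorem exact02 (x : ↥(L0 A (M * q * q))) (hx : x ≠ 0) :
    ∃ m : ℤ, (V02o A q M B k hB).valuation x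
      = (V02o A q M B k hB).valuation ((q : ℕ) : ↥(L0 A (M * q * q))) ^ m := by
  obtain ⟨m, hm⟩ := exact_nrM A q M B k hB hq hqM hA 2 x hx
  refine ⟨m, ?_⟩
  rw [← inclL0_piE_eq A q M]
  exact hm

include hA in
theorem hram11' :
    (V11o A q M B k hB hq).valuation ((q : ℕ) : ↥(L0 A (M * q * q)))
      = (V11o A q M B k hB hq).valuation (pi11 A q M) ^ (q - 1) := by
  rw [← inclL0_piE_eq A q M]
  exact hram11 A q M B k hB hq hA

end Exact

/-! ### The core -/

section CoreThm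

variable (hqM : ¬ q ∣ M) (hA : A.LiesOverPrime q)

include hqM hA in
/-- **VALVEC-MOD, core**: from two discrete valuations of `L' = L0 A (M q)` with uniformiser
`q`, the functions `t₁₁`, `t₀₂` and NORM-VAL for `Nα`, `Nβ`. -/
theorem valVecMod_core
    (V'₁ V'₂ : ValuationSubring ↥(L0 A (M * q)))
    (hϖ₁ : V'₁.valuation ((q : ℕ) : ↥(L0 A (M * q))) < 1)
    (hϖ₂ : V'₂.valuation ((q : ℕ) : ↥(L0 A (M * q))) < 1)
    (hD'₁ : ∀ y : ↥(L0 A (M * q)), y ≠ 0 →
      ∃ m : ℤ, V'₁.valuation y = V'₁.valuation ((q : ℕ) : ↥(L0 A (M * q))) ^ m)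
    (hD'₂ : ∀ y : ↥(L0 A (M * q)), y ≠ 0 →
      ∃ m : ℤ, V'₂.valuation y = V'₂.valuation ((q : ℕ) : ↥(L0 A (M * q))) ^ m)
    (hconst : ∀ (c : Kbar) (hc : algebraMap Kbar (FN (M * q)) c ∈ L0 A (M * q)), c ≠ 0 →
      ∃ m : ℤ,
        V'₁.valuation (⟨algebraMap Kbar (FN (M * q)) c, hc⟩ : ↥(L0 A (M * q)))
          = V'₁.valuation ((q : ℕ) : ↥(L0 A (M * q))) ^ m ∧
        V'₂.valuation (⟨algebraMap Kbar (FN (M * q)) c, hc⟩ : ↥(L0 A (M * q)))
          = V'₂.valuation ((q : ℕ) : ↥(L0 A (M * q))) ^ m)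
    (t₁₁ t₀₂ : ↥(L0 A (M * q * q)))
    (ht₁₁ : (V20o A q M).valuation t₁₁ = 1 ∧
      (V11o A q M B k hB hq).valuation t₁₁ = (V11o A q M B k hB hq).valuation (pi11 A q M) ∧
      (V02o A q M B k hB).valuation t₁₁ = 1)
    (ht₀₂ : (V20o A q M).valuation t₀₂ = 1 ∧ (V11o A q M B k hB hq).valuation t₀₂ = 1 ∧
      (V02o A q M B k hB).valuation t₀₂
        = (V02o A q M B k hB).valuation ((q : ℕ) : ↥(L0 A (M * q * q))))
    (Nα Nβ : ↥(L0 A (M * q * q)) → ↥(L0 A (M * q)))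
    (hbrα : ∀ x : ↥(L0 A (M * q * q)), ((Nα x : ↥(L0 A (M * q))) : FN (M * q))
      = normAlongHom (heckeAlphaBar Kbar (M * q) q).toRingHom (x : FN (M * q * q)))
    (hbrβ : ∀ x : ↥(L0 A (M * q * q)), ((Nβ x : ↥(L0 A (M * q))) : FN (M * q))
      = normAlongHom (heckeBetaBar Kbar (M * q) q).toRingHom (x : FN (M * q * q)))
    (hNα₁ : ∀ x : ↥(L0 A (M * q * q)), x ≠ 0 → ∀ k₁ k₂ : ℤ,
      (V20o A q M).valuation x
        = (V20o A q M).valuation ((q : ℕ) : ↥(L0 A (M * q * q))) ^ k₁ →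
      (V11o A q M B k hB hq).valuation x
        = (V11o A q M B k hB hq).valuation (pi11 A q M) ^ k₂ →
      V'₁.valuation (Nα x) = V'₁.valuation ((q : ℕ) : ↥(L0 A (M * q))) ^ (k₁ + k₂))
    (hNα₂ : ∀ x : ↥(L0 A (M * q * q)), x ≠ 0 → ∀ k₃ : ℤ,
      (V02o A q M B k hB).valuation x
        = (V02o A q M B k hB).valuation ((q : ℕ) : ↥(L0 A (M * q * q))) ^ k₃ →
      V'₂.valuation (Nα x) = V'₂.valuation ((q : ℕ) : ↥(L0 A (M * q))) ^ ((q : ℤ) * k₃))
    (hNβ₁ : ∀ x : ↥(L0 A (M * q * q)), x ≠ 0 → ∀ k₁ : ℤ,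
      (V20o A q M).valuation x
        = (V20o A q M).valuation ((q : ℕ) : ↥(L0 A (M * q * q))) ^ k₁ →
      V'₁.valuation (Nβ x) = V'₁.valuation ((q : ℕ) : ↥(L0 A (M * q))) ^ ((q : ℤ) * k₁))
    (hNβ₂ : ∀ x : ↥(L0 A (M * q * q)), x ≠ 0 → ∀ k₂ k₃ : ℤ,
      (V11o A q M B k hB hq).valuation x
        = (V11o A q M B k hB hq).valuation (pi11 A q M) ^ k₂ →
      (V02o A q M B k hB).valuation x
        = (V02o A q M B k hB).valuation ((q : ℕ) : ↥(L0 A (M * q * q))) ^ k₃ →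
      V'₂.valuation (Nβ x) = V'₂.valuation ((q : ℕ) : ↥(L0 A (M * q))) ^ (k₂ + k₃)) :
    ValVecModC A q M B k hB hq := by
  intro n hn f hf hα hβ
  obtain ⟨cα, gα, hcα, hgα, eα⟩ := hα
  obtain ⟨cβ, gβ, hcβ, hgβ, eβ⟩ := hβ
  -- the uniformisers
  have hq0 : ((q : ℕ) : ↥(L0 A (M * q * q))) ≠ 0 := piE_ne_zero A q (M * q * q) hq
  have hq0' : ((q : ℕ) : ↥(L0 A (M * q))) ≠ 0 := piE_ne_zero A q (M * q) hq
  have hpi0 : pi11 A q M ≠ 0 := by
    intro h0
    have h1 := hram11' A q M B k hB hq hA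
    rw [h0, map_zero, zero_pow (Nat.sub_pos_of_lt hq.one_lt).ne'] at h1
    exact hq0 ((Valuation.zero_iff _).1 h1)
  -- the valuation vector of `f`
  obtain ⟨k₁, hk₁⟩ := exact20 A q M B k hB hq hqM hA f hf
  obtain ⟨k₂, hk₂⟩ := exact11 A q M B k hB hq hqM hA f hf
  obtain ⟨k₃, hk₃⟩ := exact02 A q M B k hB hq hqM hA f hf
  have hvq' : V'₁.valuation ((q : ℕ) : ↥(L0 A (M * q))) ≠ 0 :=
    (Valuation.ne_zero_iff _).2 hq0'
  -- the constants are not zero
  have hNα0 : Nα f ≠ 0 := by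
    intro h0
    have h1 := hNα₁ f hf k₁ k₂ hk₁ hk₂
    rw [h0, map_zero] at h1
    exact zpow_ne_zero _ hvq' h1.symm
  have hNβ0 : Nβ f ≠ 0 := by
    intro h0
    have h1 := hNβ₁ f hf k₁ hk₁
    rw [h0, map_zero] at h1
    exact zpow_ne_zero _ hvq' h1.symm
  have hcα0 : cα ≠ 0 := by
    rintro rfl
    apply hNα0
    apply Subtype.ext
    rw [hbrα, eα, map_zero, zero_mul]
    rfl
  have hcβ0 : cβ ≠ 0 := by
    rintro rfl
    apply hNβ0
    apply Subtype.ext
    rw [hbrβ, eβ, map_zero, zero_mul]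
    rfl
  have hcαm : algebraMap Kbar (FN (M * q)) cα ∈ L0 A (M * q) := (const_mem_L0_iff A cα).2 hcα
  have hcβm : algebraMap Kbar (FN (M * q)) cβ ∈ L0 A (M * q) := (const_mem_L0_iff A cβ).2 hcβ
  have eα' : Nα f = (⟨algebraMap Kbar (FN (M * q)) cα, hcαm⟩ : ↥(L0 A (M * q)))
      * (⟨gα, hgα⟩ : ↥(L0 A (M * q))) ^ n := by
    apply Subtype.ext
    rw [hbrα, eα]
    rfl
  have eβ' : Nβ f = (⟨algebraMap Kbar (FN (M * q)) cβ, hcβm⟩ : ↥(L0 A (M * q)))
      * (⟨gβ, hgβ⟩ : ↥(L0 A (M * q))) ^ n := by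
    apply Subtype.ext
    rw [hbrβ, eβ]
    rfl
  exact H16.valvec (V20o A q M) (V11o A q M B k hB hq) (V02o A q M B k hB) V'₁ V'₂
    ((q : ℕ) : ↥(L0 A (M * q * q))) (pi11 A q M) ((q : ℕ) : ↥(L0 A (M * q * q)))
    ((q : ℕ) : ↥(L0 A (M * q * q))) t₁₁ t₀₂
    ((q : ℕ) : ↥(L0 A (M * q))) ((q : ℕ) : ↥(L0 A (M * q))) q n hq.one_lt.le hn.ne'
    hq0 hpi0 hq0
    (exact20 A q M B k hB hq hqM hA) (exact11 A q M B k hB hq hqM hA)
    (exact02 A q M B k hB hq hqM hA)
    rfl (hram11' A q M B k hB hq hA) rfl ht₁₁ ht₀₂ hϖ₁ hϖ₂ hq0' hq0' hD'₁ hD'₂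
    Nα Nβ hNα₁ hNα₂ hNβ₁ hNβ₂ f hf _ _ _ _ eα' eβ'
    (hconst cα hcαm hcα0) (hconst cβ hcβm hcβ0)

end CoreThm

end Core

end Fermat.Agent.S36.NU.H51

end
end
-- ==== END Fermat.Agent.S36.NU.H51_ValVecCore
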