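-- GENERATED (merged mirror, NOTES/tools/trim/merge3_helper67.py): 5 modules of the originals, bodies verbatim.
import Fermat.Agent.Zm.S36_L11_000
import Fermat.Agent.Zm.S36_L04_001
import Fermat.Agent.Zm.S36_L05_000
import Fermat.Agent.Zm.S36_L03_000
import Fermat.Agent.Zm.S36_L10_001
import Fermat.Agent.Zm.S36_L03_002
import Fermat.Agent.Zm.S36_L02_003
import Fermat.Agent.Zm.S35_L18_000
import Fermat.Agent.Zm.S36_L11_001
import Fermat.Agent.Zm.S36_L05_002
import Fermat.Agent.Zm.S36_L10_000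

-- ==== BEGIN Fermat.Agent.S36.NU.H69_NrBase
section

/-!
# S36 / NU-B, leaves NM-A2, NM-B1, NM-B2 (helper69): the common base

Level `M q²` over level `M q`, `q ∤ M`, `A` over `q`.  `E = L0 A (M q)`, `L = L0 A (M q²)` (the
inertia-fixed functions), with the two structures `algA` (along `α`) and `algB` (along `β`) of
helper26.

* `finrank_algA`, `finrank_algB : [L : E] = q`, `finite_algA`, `finite_algB`;
* `VE1`, `VE2` : the two valuation rings of `E` (restrictions of `V₁`, `V₂ = V₁ ∘ w_q`), with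
  residue maps `rE1`, `rE2` into `F₁ = F1 A q M`, uniformiser `piL = q`, discreteness `hE1`, `hE2`;
-/

set_option autoImplicit false
set_option synthInstance.maxHeartbeats 400000
set_option maxHeartbeats 1000000
set_option linter.style.haveILetI false
set_option linter.unusedSectionVars false

noncomputable section

open ModularCurve AlgebraicCurve
open Fermat.Agent.S24 Fermat.Agent.BAD.H88 Fermat.Agent.S28 Fermat.Agent.S28.H73
open Fermat.Agent.RED.H73 Fermat.Agent.RED.H17 Fermat.Agent.S36.NU.H88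
open Fermat.Agent.S36.NU.H23

namespace Fermat.Agent.S36.NU.H69

open Fermat.Agent.BAD

section Base

variable (A : ValuationSubring Kbar) (q M : ℕ) (B k : ℤ) (hB : B * M + k * q = 1) (hq : q.Prime)
  [NeZero M] [NeZero q] [NeZero (M * q)] [NeZero (M * q * q)]
  (hqM : ¬ q ∣ M) (hA : A.LiesOverPrime q)

/-! ### The two towers -/

/-- `α` on the inertia-fixed functions. -/
def aL0 : ↥(L0 A (M * q)) →+* ↥(L0 A (M * q * q)) :=
  Fermat.Agent.S36.NU.H26.mapL0 A (heckeAlphaBar Kbar (M * q) q)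
    (Fermat.Agent.S36.NU.H26.arithEquivariant_alpha (M * q) q)

/-- `β` on the inertia-fixed functions. -/
def bL0 : ↥(L0 A (M * q)) →+* ↥(L0 A (M * q * q)) :=
  Fermat.Agent.S36.NU.H26.mapL0 A (heckeBetaBar Kbar (M * q) q)
    (Fermat.Agent.S36.NU.H26.arithEquivariant_beta (M * q) q)

theorem coe_aL0 (x : ↥(L0 A (M * q))) :
    ((aL0 A q M x : ↥(L0 A (M * q * q))) : FN (M * q * q))
      = heckeAlphaBar Kbar (M * q) q (x : FN (M * q)) := rfl

theorem coe_bL0 (x : ↥(L0 A (M * q))) :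
    ((bL0 A q M x : ↥(L0 A (M * q * q))) : FN (M * q * q))
      = heckeBetaBar Kbar (M * q) q (x : FN (M * q)) := rfl

/-- `L0 (M q²)` over `L0 (M q)` along `α` (helper26's structure). -/
@[reducible] def algA : Algebra ↥(L0 A (M * q)) ↥(L0 A (M * q * q)) :=
  Fermat.Agent.S36.NU.H26.algL0Along A (heckeAlphaBar Kbar (M * q) q)
    (Fermat.Agent.S36.NU.H26.arithEquivariant_alpha (M * q) q)

/-- `L0 (M q²)` over `L0 (M q)` along `β` (helper26's structure). -/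
@[reducible] def algB : Algebra ↥(L0 A (M * q)) ↥(L0 A (M * q * q)) :=
  Fermat.Agent.S36.NU.H26.algL0Along A (heckeBetaBar Kbar (M * q) q)
    (Fermat.Agent.S36.NU.H26.arithEquivariant_beta (M * q) q)

theorem algebraMap_algA (x : ↥(L0 A (M * q))) :
    @algebraMap ↥(L0 A (M * q)) ↥(L0 A (M * q * q)) _ _ (algA A q M) x = aL0 A q M x := rfl

theorem algebraMap_algB (x : ↥(L0 A (M * q))) :
    @algebraMap ↥(L0 A (M * q)) ↥(L0 A (M * q * q)) _ _ (algB A q M) x = bL0 A q M x := rfl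

theorem finite_algA :
    @Module.Finite ↥(L0 A (M * q)) ↥(L0 A (M * q * q)) _ _ (algA A q M).toModule :=
  Fermat.Agent.S36.NU.H26.finite_L0_along A (heckeAlphaBar Kbar (M * q) q)
    (Fermat.Agent.S36.NU.H26.arithEquivariant_alpha (M * q) q)
    (Fermat.Agent.S36.H44.alpha_finite (M * q) q)

theorem finite_algB :
    @Module.Finite ↥(L0 A (M * q)) ↥(L0 A (M * q * q)) _ _ (algB A q M).toModule :=
  Fermat.Agent.S36.NU.H26.finite_L0_along A (heckeBetaBar Kbar (M * q) q)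
    (Fermat.Agent.S36.NU.H26.arithEquivariant_beta (M * q) q)
    (Fermat.Agent.S36.H44.beta_finite (M * q) q)

include hq in
/-- **`[L0 (M q²) : α L0 (M q)] = q`.** -/
theorem finrank_algA :
    @Module.finrank ↥(L0 A (M * q)) ↥(L0 A (M * q * q)) _ _ (algA A q M).toModule = q :=
  (Fermat.Agent.S36.NU.H26.finrank_L0_along A (heckeAlphaBar Kbar (M * q) q)
    (Fermat.Agent.S36.NU.H26.arithEquivariant_alpha (M * q) q)
    (Fermat.Agent.S36.H44.alpha_finite (M * q) q)).trans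
    (Fermat.Agent.NEB.OLD.H6.finrankAlong_alpha_of_dvd (M * q) q hq (Dvd.intro_left M rfl))

include hq in
/-- **`[L0 (M q²) : β L0 (M q)] = q`.** -/
theorem finrank_algB :
    @Module.finrank ↥(L0 A (M * q)) ↥(L0 A (M * q * q)) _ _ (algB A q M).toModule = q :=
  (Fermat.Agent.S36.NU.H26.finrank_L0_along A (heckeBetaBar Kbar (M * q) q)
    (Fermat.Agent.S36.NU.H26.arithEquivariant_beta (M * q) q)
    (Fermat.Agent.S36.H44.beta_finite (M * q) q)).trans
    (Fermat.Agent.NEB.Geom.H70.finrankAlong_beta_of_dvd (M * q) q hq (Dvd.intro_left M rfl))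

/-- The norm along `α` of an inertia-fixed function. -/
theorem norm_algA (g : ↥(L0 A (M * q * q))) :
    Fermat.Agent.Lib.HeckeComm.normAlongHom (heckeAlphaBar Kbar (M * q) q).toRingHom
        (g : FN (M * q * q))
      = ((@Algebra.norm ↥(L0 A (M * q)) ↥(L0 A (M * q * q)) _ _ (algA A q M) g :
          ↥(L0 A (M * q))) : FN (M * q)) :=
  Fermat.Agent.S36.NU.H26.norm_L0_along A (heckeAlphaBar Kbar (M * q) q)
    (Fermat.Agent.S36.NU.H26.arithEquivariant_alpha (M * q) q)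
    (Fermat.Agent.S36.H44.alpha_finite (M * q) q) g

/-- The norm along `β` of an inertia-fixed function. -/
theorem norm_algB (g : ↥(L0 A (M * q * q))) :
    Fermat.Agent.Lib.HeckeComm.normAlongHom (heckeBetaBar Kbar (M * q) q).toRingHom
        (g : FN (M * q * q))
      = ((@Algebra.norm ↥(L0 A (M * q)) ↥(L0 A (M * q * q)) _ _ (algB A q M) g :
          ↥(L0 A (M * q))) : FN (M * q)) :=
  Fermat.Agent.S36.NU.H26.norm_L0_along A (heckeBetaBar Kbar (M * q) q)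
    (Fermat.Agent.S36.NU.H26.arithEquivariant_beta (M * q) q)
    (Fermat.Agent.S36.H44.beta_finite (M * q) q) g

/-! ### The two valuation rings of `L0 (M q)` -/

/-- `V₁` on `L0 A (M q)`. -/
def VE1 : ValuationSubring ↥(L0 A (M * q)) := resV0 (L0 A (M * q)) (V1 A q M)

/-- `V₂ = V₁ ∘ w_q` on `L0 A (M q)`. -/
def VE2 : ValuationSubring ↥(L0 A (M * q)) :=
  resV0 (L0 A (M * q)) (V2 A q M k B (hab_of_hB q M B k hB) hq)

theorem mem_VE1_iff (x : ↥(L0 A (M * q))) : x ∈ VE1 A q M ↔ (x : FN (M * q)) ∈ V1 A q M :=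
  Iff.rfl

theorem mem_VE2_iff (x : ↥(L0 A (M * q))) :
    x ∈ VE2 A q M B k hB hq ↔ wL q M B k hB hq (x : FN (M * q)) ∈ V1 A q M := Iff.rfl

/-- The residue map of `VE1`. -/
def rE1 : ↥(VE1 A q M) →+* F1 A q M := resRed (L0 A (M * q)) (V1 A q M) (red1 A q M)

/-- The residue map of `VE2`. -/
def rE2 : ↥(VE2 A q M B k hB hq) →+* F1 A q M :=
  resRed (L0 A (M * q)) (V2 A q M k B (hab_of_hB q M B k hB) hq)
    (red2 A q M k B (hab_of_hB q M B k hB) hq)

theorem rE1_mk (x : ↥(L0 A (M * q))) (h : x ∈ VE1 A q M) :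
    rE1 A q M ⟨x, h⟩ = red1 A q M ⟨(x : FN (M * q)), h⟩ := rfl

theorem rE2_mk (x : ↥(L0 A (M * q))) (h : x ∈ VE2 A q M B k hB hq) :
    rE2 A q M B k hB hq ⟨x, h⟩ = red1 A q M ⟨wL q M B k hB hq (x : FN (M * q)), h⟩ := rfl

theorem rE1_eq_zero_of_not_isUnit (x : ↥(VE1 A q M)) (hx : ¬ IsUnit x) : rE1 A q M x = 0 :=
  resRed_eq_zero_of_not_isUnit (L0 A (M * q)) (V1 A q M) (red1 A q M)
    (red1_eq_zero_iff A q M) x hx

theorem rE2_eq_zero_of_not_isUnit (x : ↥(VE2 A q M B k hB hq)) (hx : ¬ IsUnit x) :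
    rE2 A q M B k hB hq x = 0 :=
  resRed_eq_zero_of_not_isUnit (L0 A (M * q)) (V2 A q M k B (hab_of_hB q M B k hB) hq)
    (red2 A q M k B (hab_of_hB q M B k hB) hq)
    (red2_eq_zero_iff A q M k B (hab_of_hB q M B k hB) hq) x hx

/-! ### The uniformiser `q` -/

/-- The uniformiser `q` of `VE1` and `VE2`. -/
def piL : ↥(L0 A (M * q)) := ((q : ℕ) : ↥(L0 A (M * q)))

theorem coe_piL : ((piL A q M : ↥(L0 A (M * q))) : FN (M * q)) = ((q : ℕ) : FN (M * q)) :=
  map_natCast (L0 A (M * q)).subtype q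

include hq in
theorem piL_ne_zero : piL A q M ≠ 0 := by
  intro h
  have h1 : ((q : ℕ) : FN (M * q)) = 0 := by rw [← coe_piL A q M, h]; rfl
  exact (Nat.cast_ne_zero (R := FN (M * q))).2 hq.ne_zero h1

theorem aL0_piL : aL0 A q M (piL A q M) = ((q : ℕ) : ↥(L0 A (M * q * q))) :=
  map_natCast (aL0 A q M) q

theorem bL0_piL : bL0 A q M (piL A q M) = ((q : ℕ) : ↥(L0 A (M * q * q))) :=
  map_natCast (bL0 A q M) q

include hA in
theorem val1_piL_lt_one : (VE1 A q M).valuation (piL A q M) < 1 := by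
  rw [VE1, valuation_resV0_lt_one_iff, coe_piL]
  exact Fermat.Agent.S36.NU.H82.val20_natCast_lt_one A (M * q) hA

include hq hA in
/-- `q` is a uniformiser of `VE1`. -/
theorem hE1 (a : ↥(L0 A (M * q))) (h : (VE1 A q M).valuation a < 1) :
    (VE1 A q M).valuation a ≤ (VE1 A q M).valuation (piL A q M) := by
  rw [VE1, valuation_resV0_le_iff, coe_piL]
  exact Fermat.Agent.S36.NU.H82.disc20 A (M * q) hq hA (a : FN (M * q)) a.2
    ((valuation_resV0_lt_one_iff _ _ a).1 h)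

include hA in
theorem piL_mem1 : piL A q M ∈ VE1 A q M :=
  (ValuationSubring.valuation_le_one_iff _ _).1 (le_of_lt (val1_piL_lt_one A q M hA))

include hA in
theorem rE1_piL : rE1 A q M ⟨piL A q M, piL_mem1 A q M hA⟩ = 0 := by
  apply rE1_eq_zero_of_not_isUnit
  intro hu
  have h1 := (ValuationSubring.valuation_eq_one_iff (VE1 A q M)
    ⟨piL A q M, piL_mem1 A q M hA⟩).1 hu
  exact (val1_piL_lt_one A q M hA).ne h1

/-- `w_q` preserves the inertia-fixed functions. -/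
theorem wL_mem_L0 (x : FN (M * q)) (hx : x ∈ L0 A (M * q)) :
    wL q M B k hB hq x ∈ L0 A (M * q) := by
  intro σ hσ
  have h := wq_arith q M k B (hab_of_hB q M B k hB) hq σ x
  rw [hx σ hσ] at h
  exact h.symm

theorem val2_le_iff (x y : FN (M * q)) :
    (V2 A q M k B (hab_of_hB q M B k hB) hq).valuation x
        ≤ (V2 A q M k B (hab_of_hB q M B k hB) hq).valuation y
      ↔ (V1 A q M).valuation (wL q M B k hB hq x)
          ≤ (V1 A q M).valuation (wL q M B k hB hq y) :=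
  Fermat.Agent.S36.NU.H82.val_le_iff_of_mem_iff (V2 A q M k B (hab_of_hB q M B k hB) hq)
    (V1 A q M) ((wL q M B k hB hq : FN (M * q) ≃ₐ[Kbar] FN (M * q)) : FN (M * q) →+* FN (M * q))
    (fun x => mem_V2_iff A q M k B (hab_of_hB q M B k hB) hq x) x y

theorem val2_lt_iff (x y : FN (M * q)) :
    (V2 A q M k B (hab_of_hB q M B k hB) hq).valuation x
        < (V2 A q M k B (hab_of_hB q M B k hB) hq).valuation y
      ↔ (V1 A q M).valuation (wL q M B k hB hq x)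
          < (V1 A q M).valuation (wL q M B k hB hq y) := by
  rw [lt_iff_not_ge, lt_iff_not_ge, val2_le_iff]

include hA in
theorem val2_natCast_lt_one :
    (V2 A q M k B (hab_of_hB q M B k hB) hq).valuation ((q : ℕ) : FN (M * q)) < 1 := by
  have h := (val2_lt_iff A q M B k hB hq ((q : ℕ) : FN (M * q)) 1).2
    (by rw [map_natCast, map_one, map_one]
        exact Fermat.Agent.S36.NU.H82.val20_natCast_lt_one A (M * q) hA)
  rwa [map_one] at h

include hA in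
/-- **`q` is a uniformiser of `V₂ ∩ L0`.** -/
theorem disc2 (x : FN (M * q)) (hx : x ∈ L0 A (M * q))
    (hlt : (V2 A q M k B (hab_of_hB q M B k hB) hq).valuation x < 1) :
    (V2 A q M k B (hab_of_hB q M B k hB) hq).valuation x
      ≤ (V2 A q M k B (hab_of_hB q M B k hB) hq).valuation ((q : ℕ) : FN (M * q)) := by
  rw [val2_le_iff A q M B k hB hq, map_natCast]
  have h1 : (V1 A q M).valuation (wL q M B k hB hq x) < 1 := by
    have h := (val2_lt_iff A q M B k hB hq x 1).1 (by rwa [map_one])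
    rwa [map_one, map_one] at h
  exact Fermat.Agent.S36.NU.H82.disc20 A (M * q) hq hA _ (wL_mem_L0 A q M B k hB hq x hx) h1

include hA in
theorem val2_piL_lt_one : (VE2 A q M B k hB hq).valuation (piL A q M) < 1 := by
  rw [VE2, valuation_resV0_lt_one_iff, coe_piL]
  exact val2_natCast_lt_one A q M B k hB hq hA

include hA in
/-- `q` is a uniformiser of `VE2`. -/
theorem hE2 (a : ↥(L0 A (M * q))) (h : (VE2 A q M B k hB hq).valuation a < 1) :
    (VE2 A q M B k hB hq).valuation a ≤ (VE2 A q M B k hB hq).valuation (piL A q M) := by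
  rw [VE2, valuation_resV0_le_iff, coe_piL]
  exact disc2 A q M B k hB hq hA (a : FN (M * q)) a.2
    ((valuation_resV0_lt_one_iff _ _ a).1 h)

include hA in
theorem piL_mem2 : piL A q M ∈ VE2 A q M B k hB hq :=
  (ValuationSubring.valuation_le_one_iff _ _).1 (le_of_lt (val2_piL_lt_one A q M B k hB hq hA))

include hA in
theorem rE2_piL : rE2 A q M B k hB hq ⟨piL A q M, piL_mem2 A q M B k hB hq hA⟩ = 0 := by
  apply rE2_eq_zero_of_not_isUnit
  intro hu
  have h1 := (ValuationSubring.valuation_eq_one_iff (VE2 A q M B k hB hq)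
    ⟨piL A q M, piL_mem2 A q M B k hB hq hA⟩).1 hu
  exact (val2_piL_lt_one A q M B k hB hq hA).ne h1

end Base

end Fermat.Agent.S36.NU.H69

end
end
-- ==== END Fermat.Agent.S36.NU.H69_NrBase

-- ==== BEGIN Fermat.Agent.S36.NU.H73_CuspW2
section

/-!
# S36 / NU-B, leaf CUSPS, slice (a) (helper73): the `W₂` identity at the middle component

Level `N = M q²`.  `u = 1 / j`, `E = E11∞ = E11 · u^{2(q-1)}`, `x = (j″ u - 1) E`,
`W₂ = x^{q-1} E² / q`.  At the valuation `V₁₁`: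

* `s₁₁ j = j̄`, `s₁₁ u = j̄⁻¹`, `s₁₁ E = (j̄ Δ̄)^{-2(q-1)}`;
* `(j″ - j)^{q-1} / q` is a unit with reduction `c₀ (θ j̄)^{q-1}`, `c₀ ≠ 0` a constant
  (the residue of `(z - 1)^{q-1} / q`, `z = ζ_q^B`);
* **`s₁₁(W₂)¹² · s₁₁(E) = c₀¹² (1 - 1728 ū)^{6(q-1)} · s₁₁(E)^{12(q+1)}`**
  (from `(θ j̄)⁶ = j̄⁴ (j̄ - 1728)³ Δ̄`).
-/

set_option autoImplicit false
set_option synthInstance.maxHeartbeats 400000
set_option maxHeartbeats 1000000
set_option linter.unusedSectionVars false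
set_option linter.style.haveILetI false

noncomputable section

open ModularCurve
open Fermat.Agent.S24 Fermat.Agent.BAD.H88 Fermat.Agent.BAD.H30 Fermat.Agent.BAD.H21
open Fermat.Agent.S28 Fermat.Agent.S28.H73 Fermat.Agent.RED.H73 Fermat.Agent.RED.H17
open Fermat.Agent.S36.NU.H88 Fermat.Agent.S36.NU.H23 Fermat.Agent.S36.NU.H82
open Fermat.Agent.S36.NU.H99 Fermat.Agent.S36.NU.H16

namespace Fermat.Agent.S36.NU.H73

/-! ### The algebra -/

section Alg

variable {F : Type*} [Field F]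

/-- The base identity: `Θ¹² J⁻¹⁴ D⁻² = (1 - 1728 J⁻¹)⁶`. -/
theorem cuspW2_base {J Θ D : F} (hJ : J ≠ 0) (hD : D ≠ 0)
    (hΘ : Θ ^ 6 = J ^ 4 * (J - 1728) ^ 3 * D) :
    Θ ^ 12 * J⁻¹ ^ 14 * D⁻¹ ^ 2 = (1 - 1728 * J⁻¹) ^ 6 := by
  have h12 : Θ ^ 12 = (J ^ 4 * (J - 1728) ^ 3 * D) ^ 2 := by
    rw [← hΘ]; ring
  rw [h12]
  field_simp

/-- The `W₂` identity, abstractly. -/
theorem cuspW2_alg (n : ℕ) {J Θ D E W c₀ : F} (hJ : J ≠ 0) (hD : D ≠ 0)
    (hΘ : Θ ^ 6 = J ^ 4 * (J - 1728) ^ 3 * D)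
    (hE : E = (D ^ n)⁻¹ * (D ^ n)⁻¹ * J⁻¹ ^ (2 * n))
    (hW : W = c₀ * Θ ^ n * J⁻¹ ^ n * E ^ (n + 2)) :
    W ^ 12 * E = c₀ ^ 12 * (1 - 1728 * J⁻¹) ^ (6 * n) * E ^ (12 * (n + 2)) := by
  have hb := cuspW2_base hJ hD hΘ
  have h1 : (Θ ^ n) ^ 12 * (J⁻¹ ^ n) ^ 12 * E = (1 - 1728 * J⁻¹) ^ (6 * n) := by
    rw [pow_mul, ← hb, hE, ← inv_pow D n]
    ring
  calc W ^ 12 * E
      = c₀ ^ 12 * ((Θ ^ n) ^ 12 * (J⁻¹ ^ n) ^ 12 * E) * E ^ (12 * (n + 2)) := by
        rw [hW]; ring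
    _ = c₀ ^ 12 * (1 - 1728 * J⁻¹) ^ (6 * n) * E ^ (12 * (n + 2)) := by rw [h1]

end Alg

section CuspW2

variable (A : ValuationSubring Kbar)
variable (q M : ℕ) (B k : ℤ) (hB : B * M + k * q = 1) (hq : q.Prime) [NeZero M] [NeZero q]
  [NeZero (M * q)] [NeZero (M * q * q)]

/-! ### `j` and `u = 1 / j` at `V₁₁` -/

include hB hq in
theorem cM_jF : cM q M B k hB hq (Fermat.Agent.S24.jF (M * q * q)) = H65.intSer Kbar jInt := by
  rw [← jdF_one_eq_jF, ← incAA_jdF_one q M, cM_incAA, coe_jdF_one]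

theorem coeffMap_jInt (R : Type*) [CommRing R] :
    coeffMap (Int.castRingHom R) jInt = jqModC R := by
  rw [jInt, qExpand_one_apply, coeffMap_jqModC]

include hq in
theorem j0_mem11 : j0 A (M * q * q) ∈ V11o A q M B k hB hq := by
  rw [mem_V11o_iff, coe_j0, cM_jF]
  exact H65.intSer_mem A _

include hq in
theorem s11_j0 :
    s11 A q M B k hB hq ⟨j0 A (M * q * q), _root_.Fermat.Agent.S36.NU.H73.j0_mem11 A q M B k hB hq⟩ = jqModC (kV A) := by
  rw [s11_mk]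
  have e : (⟨cM q M B k hB hq ((j0 A (M * q * q) : ↥(L0 A (M * q * q))) : FN (M * q * q)),
      _root_.Fermat.Agent.S36.NU.H73.j0_mem11 A q M B k hB hq⟩ : gaussRingV A)
      = ⟨H65.intSer Kbar jInt, H65.intSer_mem A _⟩ :=
    Subtype.ext (cM_jF q M B k hB hq)
  rw [e, H65.gaussRedV_intSer, coeffMap_jInt]


include hq in
/-- Inverses at `V₁₁`: an element with non-zero reduction is a unit. -/
theorem s11_inv (x : ↥(L0 A (M * q * q))) (h : x ∈ V11o A q M B k hB hq)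
    (hne : s11 A q M B k hB hq ⟨x, h⟩ ≠ 0) :
    ∃ h' : x⁻¹ ∈ V11o A q M B k hB hq,
      s11 A q M B k hB hq ⟨x⁻¹, h'⟩ = (s11 A q M B k hB hq ⟨x, h⟩)⁻¹ := by
  have hu : IsUnit (⟨x, h⟩ : ↥(V11o A q M B k hB hq)) := by
    by_contra hnu
    exact hne (s11_eq_zero_of_not_isUnit A q M B k hB hq _ hnu)
  obtain ⟨u, hu'⟩ := hu
  have h1 : ((u⁻¹ : (↥(V11o A q M B k hB hq))ˣ) : ↥(V11o A q M B k hB hq)) * ⟨x, h⟩ = 1 := by
    rw [← hu']
    exact u.inv_mul
  have h2 := congrArg (fun z : ↥(V11o A q M B k hB hq) => (z : ↥(L0 A (M * q * q)))) h1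
  simp only [MulMemClass.coe_mul, OneMemClass.coe_one] at h2
  have h3 : x⁻¹ = (((u⁻¹ : (↥(V11o A q M B k hB hq))ˣ) : ↥(V11o A q M B k hB hq)) :
      ↥(L0 A (M * q * q))) := (eq_inv_of_mul_eq_one_left h2).symm
  have hm : x⁻¹ ∈ V11o A q M B k hB hq := by
    rw [h3]
    exact Subtype.mem _
  refine ⟨hm, ?_⟩
  have e : (⟨x⁻¹, hm⟩ : ↥(V11o A q M B k hB hq))
      = ((u⁻¹ : (↥(V11o A q M B k hB hq))ˣ) : ↥(V11o A q M B k hB hq)) := Subtype.ext h3
  rw [e]
  have h4 := congrArg (s11 A q M B k hB hq) h1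
  rw [map_mul, map_one] at h4
  exact eq_inv_of_mul_eq_one_left h4

theorem jqModC_ne_zero_kV : jqModC (kV A) ≠ 0 := by
  intro h
  have h1 := congrArg (fun s : LaurentSeries (kV A) => s.coeff (-1)) h
  simp only [HahnSeries.coeff_zero] at h1
  have h2 : (jqModC (kV A)).coeff (-1) = 1 := by
    rw [← coeffMap_jInt (kV A), coeffMap_coeff, jInt_coeff_neg_one, map_one]
  rw [h2] at h1
  exact one_ne_zero h1

/-! ### The constant `(z - 1)^{q-1} / q` -/

/-- `c' = (z - 1)^{q-1} / q`, `z = ζ_q^B`. -/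
def cW : Kbar := (zetaK q ^ B - 1) ^ (q - 1) * ((q : ℕ) : Kbar)⁻¹

include hB hq in
theorem val_cW : A.valuation (cW q B) = 1 := by
  have hq0 : ((q : ℕ) : Kbar) ≠ 0 := by exact_mod_cast (NeZero.ne q)
  have hv : A.valuation ((q : ℕ) : Kbar) ≠ 0 := (Valuation.ne_zero_iff _).mpr hq0
  rw [cW, map_mul, map_pow, val_zMid_sub_one A q M B k hB hq, map_inv₀, mul_inv_cancel₀ hv]

include hB hq in
theorem cW_mem : cW q B ∈ A :=
  (ValuationSubring.valuation_le_one_iff A _).mp (val_cW A q M B k hB hq).le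

include hB hq in
theorem resV_cW_ne_zero : resV A ⟨cW q B, cW_mem A q M B k hB hq⟩ ≠ 0 := by
  intro h
  have h1 : (⟨cW q B, cW_mem A q M B k hB hq⟩ : ↥A) ∈ IsLocalRing.maximalIdeal ↥A :=
    (IsLocalRing.residue_eq_zero_iff _).mp h
  have h2 : IsUnit (⟨cW q B, cW_mem A q M B k hB hq⟩ : ↥A) :=
    (ValuationSubring.valuation_eq_one_iff A _).mpr (val_cW A q M B k hB hq)
  exact (IsLocalRing.mem_maximalIdeal _).mp h1 h2

/-- The Gauss reduction of a constant. -/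
theorem gaussRedV_const (c : Kbar) (hc : c ∈ A)
    (h : algebraMap Kbar (LaurentSeries Kbar) c ∈ gaussRingV A) :
    gaussRedV A ⟨algebraMap Kbar (LaurentSeries Kbar) c, h⟩ = HahnSeries.C (resV A ⟨c, hc⟩) := by
  have h3 : iotaV A (HahnSeries.C (⟨c, hc⟩ : ↥A)) = algebraMap Kbar (LaurentSeries Kbar) c := by
    rw [algebraMap_laurentSeries_eq_single]
    exact coeffMap_single A.subtype 0 _
  have e : (⟨algebraMap Kbar (LaurentSeries Kbar) c, h⟩ : gaussRingV A)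
      = ⟨iotaV A (HahnSeries.C (⟨c, hc⟩ : ↥A)), iotaV_mem_gaussRingV A _⟩ :=
    Subtype.ext h3.symm
  rw [e, gaussRedV_iotaV, redV]
  exact coeffMap_single (resV A) 0 _

/-! ### `(j″ - j)^{q-1} / q` at `V₁₁` -/

include hB hq in
/-- `(j″ - j)^{q-1} / q = c' · θ₁₁(j)^{q-1}`. -/
theorem t11_pow_div :
    t11 q M (jdF M 1 (one_dvd M)) ^ (q - 1) * (algebraMap Kbar (FN (M * q * q)) ((q : ℕ) : Kbar))⁻¹
      = algebraMap Kbar (FN (M * q * q)) (cW q B) * th11 q M B (jdF M 1 (one_dvd M)) ^ (q - 1) := by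
  rw [t11_eq q M B k hB hq, mul_pow, cW, map_mul, map_pow, map_inv₀]
  ring

include hB hq in
/-- The expansion at the middle cusp of `(j″ - j)^{q-1} / q` is in the Gauss ring, with
reduction `c₀ (θ j̄)^{q-1}`. -/
theorem gaussRedV_t11_pow_div (hA : (q : Kbar) ∈ A.nonunits)
    (h : cM q M B k hB hq (t11 q M (jdF M 1 (one_dvd M)) ^ (q - 1)
        * (algebraMap Kbar (FN (M * q * q)) ((q : ℕ) : Kbar))⁻¹) ∈ gaussRingV A) :
    gaussRedV A ⟨_, h⟩
      = HahnSeries.C (resV A ⟨cW q B, cW_mem A q M B k hB hq⟩)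
        * thetaL (jqModC (kV A)) ^ (q - 1) := by
  have hth := th11_mem_V11 A q M B k hB hq (jdF M 1 (one_dvd M)) jInt (coe_jdF_one M)
  have hth' : cM q M B k hB hq (th11 q M B (jdF M 1 (one_dvd M))) ∈ gaussRingV A := hth
  have hc : algebraMap Kbar (LaurentSeries Kbar) (cW q B) ∈ gaussRingV A := by
    have h3 : iotaV A (HahnSeries.C (⟨cW q B, cW_mem A q M B k hB hq⟩ : ↥A))
        = algebraMap Kbar (LaurentSeries Kbar) (cW q B) := by
      rw [algebraMap_laurentSeries_eq_single]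
      exact coeffMap_single A.subtype 0 _
    rw [← h3]
    exact iotaV_mem_gaussRingV A _
  have e : (⟨_, h⟩ : gaussRingV A)
      = ⟨algebraMap Kbar (LaurentSeries Kbar) (cW q B), hc⟩
        * ⟨cM q M B k hB hq (th11 q M B (jdF M 1 (one_dvd M))), hth'⟩ ^ (q - 1) := by
    apply Subtype.ext
    show cM q M B k hB hq (t11 q M (jdF M 1 (one_dvd M)) ^ (q - 1)
        * (algebraMap Kbar (FN (M * q * q)) ((q : ℕ) : Kbar))⁻¹)
      = algebraMap Kbar (LaurentSeries Kbar) (cW q B)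
        * cM q M B k hB hq (th11 q M B (jdF M 1 (one_dvd M))) ^ (q - 1)
    rw [_root_.Fermat.Agent.S36.NU.H73.t11_pow_div q M B k hB hq, map_mul, map_pow, AlgHom.commutes]
  rw [e, map_mul, map_pow, gaussRedV_const A _ (cW_mem A q M B k hB hq)]
  have h5 := red11_th11_j A q M B k hB hq hA hth
  rw [coe_red11, coeffMap_jInt] at h5
  rw [h5]


/-! ### The reduction of `HU` -/

include hq in
/-- `HU = (Δ̄^{q-1})⁻¹` in characteristic `q`. -/
theorem HU_eq_inv_pow (hA : (q : Kbar) ∈ A.nonunits) :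
    HU A q M = (deltaR (kV A) ^ (q - 1))⁻¹ := by
  haveI : Fact q.Prime := ⟨hq⟩
  haveI : CharP (kV A) q := Fermat.Agent.BAD.H82.charP_kV A hq hA
  have hD : deltaR (kV A) ≠ 0 := deltaR_ne_zero (kV A)
  rw [HU_eq, qExpand_deltaR_char (kV A) q]
  have hq1 : q = (q - 1) + 1 := (Nat.sub_add_cancel hq.one_le).symm
  conv_lhs => rw [hq1, pow_succ]
  field_simp

/-! ### The core -/

include hq in
/-- **The `W₂` identity** for `u = 1 / j`, `E = E11 u^{2(q-1)}`,
`W = ((j″ u - 1) E)^{q-1} E² / q`. -/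
theorem cuspW2_core (hA : (q : Kbar) ∈ A.nonunits) (u E j2 W : ↥(L0 A (M * q * q)))
    (hu : u = (j0 A (M * q * q))⁻¹) (hE : E = E11o A q M * u ^ (2 * (q - 1)))
    (hj2 : (j2 : FN (M * q * q)) = incBB q M (jdF M 1 (one_dvd M)))
    (hW : W = ((j2 * u - 1) * E) ^ (q - 1) * E ^ 2 * ((q : ℕ) : ↥(L0 A (M * q * q)))⁻¹) :
    ∃ (hum : u ∈ V11o A q M B k hB hq) (hEm : E ∈ V11o A q M B k hB hq)
      (hWm : W ∈ V11o A q M B k hB hq) (c : kV A), c ≠ 0 ∧
      s11 A q M B k hB hq ⟨W, hWm⟩ ^ 12 * s11 A q M B k hB hq ⟨E, hEm⟩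
        = HahnSeries.C c
          * (1 - HahnSeries.C (1728 : kV A) * s11 A q M B k hB hq ⟨u, hum⟩) ^ (6 * (q - 1))
          * s11 A q M B k hB hq ⟨E, hEm⟩ ^ (12 * (q + 1)) := by
  have hJ : jqModC (kV A) ≠ 0 := jqModC_ne_zero_kV A
  have hD : deltaR (kV A) ≠ 0 := deltaR_ne_zero (kV A)
  -- `u`
  obtain ⟨hum0, hsu0⟩ := s11_inv A q M B k hB hq (j0 A (M * q * q)) (_root_.Fermat.Agent.S36.NU.H73.j0_mem11 A q M B k hB hq)
    (by rw [_root_.Fermat.Agent.S36.NU.H73.s11_j0]; exact hJ)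
  rw [_root_.Fermat.Agent.S36.NU.H73.s11_j0] at hsu0
  have hum : u ∈ V11o A q M B k hB hq := by rw [hu]; exact hum0
  have hsu : s11 A q M B k hB hq ⟨u, hum⟩ = (jqModC (kV A))⁻¹ := by
    rw [← hsu0]
    congr 1
    exact Subtype.ext hu
  -- `E`
  have hEm : E ∈ V11o A q M B k hB hq := by
    rw [hE]
    exact mul_mem (E11o_mem11 A q M B k hB hq) (pow_mem hum _)
  have hsE : s11 A q M B k hB hq ⟨E, hEm⟩
      = (deltaR (kV A) ^ (q - 1))⁻¹ * (deltaR (kV A) ^ (q - 1))⁻¹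
        * (jqModC (kV A))⁻¹ ^ (2 * (q - 1)) := by
    have e : (⟨E, hEm⟩ : ↥(V11o A q M B k hB hq))
        = ⟨E11o A q M, E11o_mem11 A q M B k hB hq⟩ * ⟨u, hum⟩ ^ (2 * (q - 1)) :=
      Subtype.ext hE
    rw [e, map_mul, map_pow, s11_E11 A q M B k hB hq hA, hsu, HU_eq_inv_pow A q M hq hA]
  -- `f = (j″ - j)^{q-1} / q`
  set f : ↥(L0 A (M * q * q)) :=
    (j2 - j0 A (M * q * q)) ^ (q - 1) * ((q : ℕ) : ↥(L0 A (M * q * q)))⁻¹ with hf
  have hfFN : (f : FN (M * q * q))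
      = t11 q M (jdF M 1 (one_dvd M)) ^ (q - 1)
        * (algebraMap Kbar (FN (M * q * q)) ((q : ℕ) : Kbar))⁻¹ := by
    rw [hf, t11, incAA_jdF_one, ← hj2, map_natCast, jdF_one_eq_jF]
    rfl
  have hfc : cM q M B k hB hq (t11 q M (jdF M 1 (one_dvd M)) ^ (q - 1)
        * (algebraMap Kbar (FN (M * q * q)) ((q : ℕ) : Kbar))⁻¹) ∈ gaussRingV A := by
    rw [_root_.Fermat.Agent.S36.NU.H73.t11_pow_div q M B k hB hq]
    have h1 : algebraMap Kbar (FN (M * q * q)) (cW q B)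
        ∈ V11 A (M * q * q) q M B k (lvl q M) hB hq :=
      (const_mem11 A (M * q * q) q M B k (lvl q M) hB hq _).2 (cW_mem A q M B k hB hq)
    have h2 := th11_mem_V11 A q M B k hB hq (jdF M 1 (one_dvd M)) jInt (coe_jdF_one M)
    exact mul_mem h1 (pow_mem h2 _)
  have hfm : f ∈ V11o A q M B k hB hq := by
    rw [mem_V11o_iff, hfFN]
    exact hfc
  have hsf : s11 A q M B k hB hq ⟨f, hfm⟩
      = HahnSeries.C (resV A ⟨cW q B, cW_mem A q M B k hB hq⟩)
        * thetaL (jqModC (kV A)) ^ (q - 1) := by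
    rw [s11_mk, ← gaussRedV_t11_pow_div A q M B k hB hq hA hfc]
    congr 1
    exact Subtype.ext (congrArg (cM q M B k hB hq) hfFN)
  -- `W`
  have hj0 : j0 A (M * q * q) ≠ 0 := j0_ne_zero A (M * q * q)
  have hWf : W = f * u ^ (q - 1) * E ^ (q - 1 + 2) := by
    have h1 : j2 * u - 1 = (j2 - j0 A (M * q * q)) * u := by
      rw [hu, sub_mul, mul_inv_cancel₀ hj0]
    rw [hW, h1, hf, mul_pow, mul_pow, pow_add]
    ring
  have hWm : W ∈ V11o A q M B k hB hq := by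
    rw [hWf]
    exact mul_mem (mul_mem hfm (pow_mem hum _)) (pow_mem hEm _)
  have hsW : s11 A q M B k hB hq ⟨W, hWm⟩
      = HahnSeries.C (resV A ⟨cW q B, cW_mem A q M B k hB hq⟩)
        * thetaL (jqModC (kV A)) ^ (q - 1) * (jqModC (kV A))⁻¹ ^ (q - 1)
        * s11 A q M B k hB hq ⟨E, hEm⟩ ^ (q - 1 + 2) := by
    have e : (⟨W, hWm⟩ : ↥(V11o A q M B k hB hq))
        = ⟨f, hfm⟩ * ⟨u, hum⟩ ^ (q - 1) * ⟨E, hEm⟩ ^ (q - 1 + 2) := Subtype.ext hWf
    rw [e, map_mul, map_mul, map_pow, map_pow, hsf, hsu]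
  refine ⟨hum, hEm, hWm, resV A ⟨cW q B, cW_mem A q M B k hB hq⟩ ^ 12,
    pow_ne_zero _ (resV_cW_ne_zero A q M B k hB hq), ?_⟩
  have hΘ : thetaL (jqModC (kV A)) ^ 6
      = jqModC (kV A) ^ 4 * (jqModC (kV A) - 1728) ^ 3 * deltaR (kV A) := by
    rw [deltaR_eq_DL]
    exact thetaL_jq_pow_six (kV A)
  have key := cuspW2_alg (q - 1) hJ hD hΘ hsE hsW
  have hq1 : q + 1 = q - 1 + 2 := by
    have := hq.one_le
    omega
  rw [hsu, map_pow, hq1, map_ofNat]
  exact key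


/-! ### The target of helper82 -/

include hq in
/-- **(CUSP-W2)**: `s₁₁(W₂)¹² · s₁₁(E11∞) = c (1 - 1728 ū)^{6(q-1)} · s₁₁(E11∞)^{12(q+1)}`,
`c ≠ 0`. -/
theorem stmt_CuspW2 (hA : A.LiesOverPrime q) : H82.Stmt_CuspW2 A q M B k hB hq := by
  haveI : NeZero (q * q) := ⟨mul_ne_zero (NeZero.ne q) (NeZero.ne q)⟩
  refine cuspW2_core A q M B k hB hq hA (H82.uoo A q M) (H82.E11oo A q M) (H82.j2o A q M)
    (H82.W2oo A q M) rfl rfl ?_ rfl
  exact (incBB_jdF_one q M ⟨M, by ring⟩).symm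

end CuspW2

end Fermat.Agent.S36.NU.H73

end
end
-- ==== END Fermat.Agent.S36.NU.H73_CuspW2

-- ==== BEGIN Fermat.Agent.S36.NU.H82_CuspIntA
section

/-!
# S36 / NU-B, leaf CUSPS (helper82), part 5: `E20∞` is integral over `ℚ̄[1/j]`

* `coeffMap_psi_eps1`, `coeffMap_psi_eps2` : the expansions of `eps1`, `eps2` over `ℂ`;
* `Y20_q1` : the family `Y20` at the identity coset;
* `isIntegral_E20oo` : `E20∞ = eps2 / j^(q (q - 1))` is integral over `ℚ̄[1/j]`.
-/

set_option autoImplicit false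
set_option synthInstance.maxHeartbeats 400000
set_option maxHeartbeats 1000000
set_option linter.unusedSectionVars false
set_option linter.unusedVariables false
set_option linter.style.haveILetI false

open ModularCurve Polynomial

noncomputable section

namespace Fermat.Agent.S36.NU.H82

open Fermat.Agent.S23.H22 (Q q1)
open Fermat.Agent.S28 (coeffRing iotaN)
open Fermat.Agent.S24 (Kbar FN jF iotaC)
open Fermat.Agent.S15.H30 (psi psi_apply psi_injective psi_jF)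
open Fermat.Agent.BAD.H88 Fermat.Agent.BAD.H30
open Fermat.Agent.S36.NU.H99 Fermat.Agent.S36.NU.H23 Fermat.Agent.S36.NU.H88
open Fermat.Agent.S28.H73 Fermat.Agent.RED.H73 Fermat.Agent.RED.H17

section Series

/-- The embedding `ℚ → ℚ̄ → ℂ`. -/
theorem iotaC_comp_algebraMap : iotaC.comp (algebraMap ℚ Kbar) = algebraMap ℚ ℂ :=
  Subsingleton.elim _ _

theorem coeffMap_iotaC_coeffEmb (s : LaurentSeries ℚ) :
    coeffMap iotaC (coeffEmb Kbar s) = coeffMap (algebraMap ℚ ℂ) s := by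
  rw [coeffEmb, ModularCurve.coeffMap_coeffMap, iotaC_comp_algebraMap]

variable (q M : ℕ) [NeZero M] [NeZero q] [NeZero (M * q)] [NeZero (M * q * q)]

/-- The expansion of `eps1 = Δ(τ)/Δ(qτ)`. -/
theorem coe_eps1 :
    ((eps1 q M : FN (M * q * q)) : LaurentSeries Kbar) = coeffEmb Kbar (modularUnitSeries q) := by
  rw [eps1, coe_heckeAlphaBar]
  rfl

/-- The expansion of `eps2 = Δ(qτ)/Δ(q²τ)`. -/
theorem coe_eps2 :
    ((eps2 q M : FN (M * q * q)) : LaurentSeries Kbar)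
      = qExpand Kbar q (coeffEmb Kbar (modularUnitSeries q)) := by
  rw [eps2, coe_heckeBetaBar]
  rfl

theorem coeffMap_psi_eps1 :
    coeffMap iotaC (psi (M * q * q) (eps1 q M)) = qExpand ℂ (M * q * q) (UC q) := by
  rw [psi_apply, coe_eps1, coeffMap_qExp82, coeffMap_iotaC_coeffEmb]
  rfl

theorem coeffMap_psi_eps2 :
    coeffMap iotaC (psi (M * q * q) (eps2 q M))
      = qExpand ℂ (M * q * q) (qExpand ℂ q (UC q)) := by
  rw [psi_apply, coe_eps2, coeffMap_qExp82, coeffMap_qExp82, coeffMap_iotaC_coeffEmb]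
  rfl

end Series

section Y20

variable (q M : ℕ) [NeZero q] [NeZero (M * q * q)]

theorem hahnC_natCast_pow_ne_zero (n : ℕ) :
    (HahnSeries.C ((q : ℂ) ^ n) : LaurentSeries ℂ) ≠ 0 := by
  rw [Ne, map_eq_zero]
  exact pow_ne_zero _ (Nat.cast_ne_zero.mpr (NeZero.ne q))

/-- **The family `Y20` at the identity coset.** -/
theorem Y20_q1 :
    qExpand ℂ (M * q * q) (qExpand ℂ q (UC q))
      = HahnSeries.C ((q : ℂ) ^ 11) * Y20 q M (q1 : Q (M * q * q)) := by
  haveI : NeZero (q * q) := ⟨mul_ne_zero (NeZero.ne q) (NeZero.ne q)⟩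
  have hb : qExpand ℂ (M * q * q) (qExpand ℂ (q * q) DeltaC) ≠ 0 := by
    intro h
    exact qExpand_DeltaC_ne_zero (q * q) (qExpand_injective (M * q * q) (by rw [h, map_zero]))
  have hc := hahnC_natCast_pow_ne_zero q 11
  have e1 : (HahnSeries.C (((q * q : ℕ) : ℂ) ^ 11) : LaurentSeries ℂ)
      = HahnSeries.C ((q : ℂ) ^ 11) * HahnSeries.C ((q : ℂ) ^ 11) := by
    rw [← map_mul]
    congr 1
    push_cast
    ring
  have e2 : qExpand ℂ q (qExpand ℂ q DeltaC) = qExpand ℂ (q * q) DeltaC :=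
    qExpand_qExpand (R := ℂ) (N := q) q DeltaC
  rw [Y20, Dc_q1 q M q (dvd_lvl_q q M), Dc_q1 q M (q * q) (dvd_lvl_qq q M), e1, UC_eq, map_mul,
    map_mul, map_inv₀, map_inv₀, e2]
  field_simp

end Y20

section Int

variable (A : ValuationSubring Kbar)
variable (q M : ℕ) [NeZero M] [NeZero q] [NeZero (M * q)] [NeZero (M * q * q)]

theorem coe_E20oo :
    ((E20oo A q M : ↥(L0 A (M * q * q))) : FN (M * q * q))
      = eps2 q M * (_root_.Fermat.Agent.S24.jF (M * q * q))⁻¹ ^ (q * (q - 1)) := rfl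

/-- **`E20∞` is integral over `ℚ̄[1/j]`.** -/
theorem isIntegral_E20oo (hq : q.Prime) :
    IsIntegral ↥(Algebra.adjoin Kbar ({(_root_.Fermat.Agent.S24.jF (M * q * q))⁻¹} : Set (FN (M * q * q))))
      ((E20oo A q M : ↥(L0 A (M * q * q))) : FN (M * q * q)) := by
  rw [coe_E20oo]
  refine isIntegral_of_family (Y20 q M) (sym_Y20 q M) (coeff_Y20 q M) (q * (q - 1))
    (ord_Y20 q M hq) (eps2 q M) ((q : Kbar) ^ 11) ?_
  have e : iotaC ((q : Kbar) ^ 11) = (q : ℂ) ^ 11 := by rw [map_pow, map_natCast]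
  rw [coeffMap_psi_eps2, Y20_q1, e]

end Int

end Fermat.Agent.S36.NU.H82

end
end
-- ==== END Fermat.Agent.S36.NU.H82_CuspIntA

-- ==== BEGIN Fermat.Agent.S36.NU.H86_CuspRed2
section

/-!
# S36 / NU-B, leaf CUSPS, reduction half, part 3 (helper86): `1/j` and `x₁₁`

* `j0_inv_mem20/11/02`, `s20_j0_inv`, `s11_j0_inv`, `s02_j0_inv` : `u = 1/j` is in the three
  valuation rings, with reductions `1/j~`, `1/j~`, `1/j~(t^{q²})` (so `j` is a unit at the three
  valuations);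
* `j2_mem11`, `s11_j2` : `j(q²τ)` at the middle valuation reduces to `j~`;
* `x11_mem_nonunits` : `x₁₁ = (j(q²τ)/j - 1) · E11 u^{2(q-1)}` is a non-unit of `V₁₁`.
-/

set_option autoImplicit false
set_option synthInstance.maxHeartbeats 400000
set_option maxHeartbeats 1000000
set_option linter.unusedSectionVars false
set_option linter.style.haveILetI false

noncomputable section

open ModularCurve Polynomial
open Fermat.Agent.S24 Fermat.Agent.BAD.H88 Fermat.Agent.BAD.H30 Fermat.Agent.BAD.H21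
open Fermat.Agent.S28 Fermat.Agent.S28.H73 Fermat.Agent.RED.H73 Fermat.Agent.RED.H17
open Fermat.Agent.S36.NU.H88 Fermat.Agent.S36.NU.H23 Fermat.Agent.S36.NU.H82
open Fermat.Agent.S36.NU.H99

namespace Fermat.Agent.S36.NU.H86

section Red2

variable (A : ValuationSubring Kbar)
variable (q M : ℕ) (B k : ℤ) (hB : B * M + k * q = 1) (hq : q.Prime) [NeZero M] [NeZero q]
  [NeZero (M * q)] [NeZero (M * q * q)]

/-! ### `u = 1/j` -/

theorem j0_inv_mem20 : (j0 A (M * q * q))⁻¹ ∈ V20o A q M :=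
  (inv_mem_of_res_ne_zero (V20o A q M) (s20 A q M)
    (s20_eq_zero_of_not_isUnit A q M) (j0 A (M * q * q)) (_root_.Fermat.Agent.S36.NU.H86.j0_mem20 A q M)
    (by rw [_root_.Fermat.Agent.S36.NU.H86.s20_j0]; exact jqModC_ne_zero' (kV A))).1

theorem s20_j0_inv :
    s20 A q M ⟨(j0 A (M * q * q))⁻¹, j0_inv_mem20 A q M⟩ = (jqModC (kV A))⁻¹ := by
  obtain ⟨h, hs⟩ := inv_mem_of_res_ne_zero (V20o A q M) (s20 A q M)
    (s20_eq_zero_of_not_isUnit A q M) (j0 A (M * q * q)) (_root_.Fermat.Agent.S36.NU.H86.j0_mem20 A q M)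
    (by rw [_root_.Fermat.Agent.S36.NU.H86.s20_j0]; exact jqModC_ne_zero' (kV A))
  rw [_root_.Fermat.Agent.S36.NU.H86.s20_j0] at hs
  exact hs

include hq in
theorem j0_inv_mem11 : (j0 A (M * q * q))⁻¹ ∈ V11o A q M B k hB hq :=
  (inv_mem_of_res_ne_zero (V11o A q M B k hB hq) (s11 A q M B k hB hq)
    (s11_eq_zero_of_not_isUnit A q M B k hB hq) (j0 A (M * q * q)) (_root_.Fermat.Agent.S36.NU.H86.j0_mem11 A q M B k hB hq)
    (by rw [_root_.Fermat.Agent.S36.NU.H86.s11_j0]; exact jqModC_ne_zero' (kV A))).1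

include hq in
theorem s11_j0_inv :
    s11 A q M B k hB hq ⟨(j0 A (M * q * q))⁻¹, j0_inv_mem11 A q M B k hB hq⟩
      = (jqModC (kV A))⁻¹ := by
  obtain ⟨h, hs⟩ := inv_mem_of_res_ne_zero (V11o A q M B k hB hq) (s11 A q M B k hB hq)
    (s11_eq_zero_of_not_isUnit A q M B k hB hq) (j0 A (M * q * q)) (_root_.Fermat.Agent.S36.NU.H86.j0_mem11 A q M B k hB hq)
    (by rw [_root_.Fermat.Agent.S36.NU.H86.s11_j0]; exact jqModC_ne_zero' (kV A))
  rw [_root_.Fermat.Agent.S36.NU.H86.s11_j0] at hs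
  exact hs

theorem qExpand_sq_jqModC_ne_zero :
    haveI : NeZero (q * q) := ⟨Nat.mul_ne_zero (NeZero.ne q) (NeZero.ne q)⟩
    qExpand (kV A) (q * q) (jqModC (kV A)) ≠ 0 := by
  haveI : NeZero (q * q) := ⟨Nat.mul_ne_zero (NeZero.ne q) (NeZero.ne q)⟩
  intro h
  exact jqModC_ne_zero' (kV A) (qExpand_injective (q * q) (h.trans (map_zero _).symm))

theorem j0_inv_mem02 : (j0 A (M * q * q))⁻¹ ∈ V02o A q M B k hB :=
  (inv_mem_of_res_ne_zero (V02o A q M B k hB) (s02 A q M B k hB)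
    (s02_eq_zero_of_not_isUnit A q M B k hB) (j0 A (M * q * q)) (_root_.Fermat.Agent.S36.NU.H86.j0_mem02 A q M B k hB)
    (by rw [_root_.Fermat.Agent.S36.NU.H86.s02_j0]; exact qExpand_sq_jqModC_ne_zero A q)).1

theorem s02_j0_inv :
    haveI : NeZero (q * q) := ⟨Nat.mul_ne_zero (NeZero.ne q) (NeZero.ne q)⟩
    s02 A q M B k hB ⟨(j0 A (M * q * q))⁻¹, j0_inv_mem02 A q M B k hB⟩
      = (qExpand (kV A) (q * q) (jqModC (kV A)))⁻¹ := by
  haveI : NeZero (q * q) := ⟨Nat.mul_ne_zero (NeZero.ne q) (NeZero.ne q)⟩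
  obtain ⟨h, hs⟩ := inv_mem_of_res_ne_zero (V02o A q M B k hB) (s02 A q M B k hB)
    (s02_eq_zero_of_not_isUnit A q M B k hB) (j0 A (M * q * q)) (_root_.Fermat.Agent.S36.NU.H86.j0_mem02 A q M B k hB)
    (by rw [_root_.Fermat.Agent.S36.NU.H86.s02_j0]; exact qExpand_sq_jqModC_ne_zero A q)
  rw [_root_.Fermat.Agent.S36.NU.H86.s02_j0] at hs
  exact hs

/-! ### `j(q²τ)` at the middle valuation -/

include hq in
theorem cM_j2 (h2 : q * q ∣ M * q * q) :
    haveI : NeZero (q * q) := ⟨Nat.mul_ne_zero (NeZero.ne q) (NeZero.ne q)⟩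
    cM q M B k hB hq (jdF (M * q * q) (q * q) h2) = twist (zetaK q ^ B) (jqModC Kbar) := by
  haveI : NeZero (q * q) := ⟨Nat.mul_ne_zero (NeZero.ne q) (NeZero.ne q)⟩
  haveI : NeZero (1 : ℕ) := ⟨one_ne_zero⟩
  rw [cM_jdF3 q M B k hB hq (q * q) 1 M (one_mul _).symm (one_mul M).symm h2, qExpand_one_apply,
    jBar_eq_jqModC]

include hq in
theorem j2_mem11 (j2 : ↥(L0 A (M * q * q))) (h2 : q * q ∣ M * q * q)
    (hj2 : haveI : NeZero (q * q) := ⟨Nat.mul_ne_zero (NeZero.ne q) (NeZero.ne q)⟩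
      (j2 : FN (M * q * q)) = jdF (M * q * q) (q * q) h2) :
    j2 ∈ V11o A q M B k hB hq := by
  rw [mem_V11o_iff, hj2, cM_j2 q M B k hB hq h2]
  exact (twist_z_mem_iff A q B hq _).2 (jqModC_mem_gaussRingV A)

include hq in
theorem s11_j2 (hA : A.LiesOverPrime q) (j2 : ↥(L0 A (M * q * q))) (h2 : q * q ∣ M * q * q)
    (hj2 : haveI : NeZero (q * q) := ⟨Nat.mul_ne_zero (NeZero.ne q) (NeZero.ne q)⟩
      (j2 : FN (M * q * q)) = jdF (M * q * q) (q * q) h2) :
    s11 A q M B k hB hq ⟨j2, j2_mem11 A q M B k hB hq j2 h2 hj2⟩ = jqModC (kV A) := by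
  rw [s11_mk]
  have hm : twist (((zUnit A q B hq : (↥A)ˣ) : ↥A) : Kbar)
      ((⟨jqModC Kbar, jqModC_mem_gaussRingV A⟩ : ↥(gaussRingV A)) : LaurentSeries Kbar)
      ∈ gaussRingV A := (twist_z_mem_iff A q B hq _).2 (jqModC_mem_gaussRingV A)
  have e : (⟨cM q M B k hB hq (j2 : FN (M * q * q)),
      j2_mem11 A q M B k hB hq j2 h2 hj2⟩ : ↥(gaussRingV A))
      = ⟨twist (((zUnit A q B hq : (↥A)ˣ) : ↥A) : Kbar)
          ((⟨jqModC Kbar, jqModC_mem_gaussRingV A⟩ : ↥(gaussRingV A)) : LaurentSeries Kbar),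
          hm⟩ := by
    apply Subtype.ext
    show cM q M B k hB hq (j2 : FN (M * q * q)) = twist (zetaK q ^ B) (jqModC Kbar)
    rw [hj2, cM_j2 q M B k hB hq h2]
  rw [e, gaussRedV_twist_of_res_eq_one A (zUnit A q B hq) (resV_zUnit A q B hq hA) _ hm]
  exact gaussRedV_jqModC A _

include hq in
/-- **`x₁₁` is a non-unit of `V₁₁`.** -/
theorem x11_mem_nonunits (hA : A.LiesOverPrime q) (j2 : ↥(L0 A (M * q * q)))
    (h2 : q * q ∣ M * q * q)
    (hj2 : haveI : NeZero (q * q) := ⟨Nat.mul_ne_zero (NeZero.ne q) (NeZero.ne q)⟩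
      (j2 : FN (M * q * q)) = jdF (M * q * q) (q * q) h2) :
    (j2 * (j0 A (M * q * q))⁻¹ - 1) * (E11o A q M * (j0 A (M * q * q))⁻¹ ^ (2 * (q - 1)))
      ∈ (V11o A q M B k hB hq).nonunits := by
  have hu := j0_inv_mem11 A q M B k hB hq
  have hj := j2_mem11 A q M B k hB hq j2 h2 hj2
  have hE : E11o A q M * (j0 A (M * q * q))⁻¹ ^ (2 * (q - 1)) ∈ V11o A q M B k hB hq :=
    mul_mem (E11o_mem11 A q M B k hB hq) (pow_mem hu _)
  have hy : j2 * (j0 A (M * q * q))⁻¹ - 1 ∈ V11o A q M B k hB hq :=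
    sub_mem (mul_mem hj hu) (one_mem _)
  have hmem : (j2 * (j0 A (M * q * q))⁻¹ - 1)
      * (E11o A q M * (j0 A (M * q * q))⁻¹ ^ (2 * (q - 1))) ∈ V11o A q M B k hB hq :=
    mul_mem hy hE
  refine mem_nonunits_of_map_eq_zero (V11o A q M B k hB hq) (s11 A q M B k hB hq) ⟨_, hmem⟩ ?_
  have e : (⟨(j2 * (j0 A (M * q * q))⁻¹ - 1)
      * (E11o A q M * (j0 A (M * q * q))⁻¹ ^ (2 * (q - 1))), hmem⟩ : ↥(V11o A q M B k hB hq))
      = (⟨j2, hj⟩ * ⟨(j0 A (M * q * q))⁻¹, hu⟩ - 1) * ⟨_, hE⟩ := Subtype.ext rfl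
  rw [e, map_mul, map_sub, map_mul, map_one, s11_j2 A q M B k hB hq hA j2 h2 hj2,
    s11_j0_inv A q M B k hB hq, mul_inv_cancel₀ (jqModC_ne_zero' (kV A)), sub_self, zero_mul]

end Red2

end Fermat.Agent.S36.NU.H86

end
end
-- ==== END Fermat.Agent.S36.NU.H86_CuspRed2

-- ==== BEGIN Fermat.Agent.S36.NU.H99_OrdMod1
section

/-!
# S36 / NU-B, (M4) LOCEQ at the ordinary points, modular part 1 (helper99)

The modular units of level `M` (`q ∤ M`) inside the inertia-fixed functions of level `M q²`: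
`Uo d = Δ(t)/Δ(t^d)`, `d ∣ M`: units at the three valuations, reductions, horizontal integrality.
Horizontal integrality of `eps1o`, `eps2o`, `E20o`, `E02o`, `E11o`.
-/

set_option autoImplicit false
set_option synthInstance.maxHeartbeats 400000
set_option maxHeartbeats 1000000
set_option linter.unusedSectionVars false
set_option linter.style.haveILetI false

noncomputable section

open ModularCurve AlgebraicCurve IntermediateField
open Fermat.Agent.S24 Fermat.Agent.BAD.H88 Fermat.Agent.BAD.H30 Fermat.Agent.BAD.H21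
open Fermat.Agent.S28 Fermat.Agent.S28.H73 Fermat.Agent.RED.H73 Fermat.Agent.RED.H17
open Fermat.Agent.S36.NU.H88 Fermat.Agent.S36.NU.H23
open Fermat.Agent.S36.NU.H41 Fermat.Agent.RED

namespace Fermat.Agent.S36.NU.H99

section LevelM

variable (A : ValuationSubring Kbar)
variable (q M : ℕ) (B k : ℤ) (hB : B * M + k * q = 1) (hq : q.Prime) [NeZero M] [NeZero q]
  [NeZero (M * q)] [NeZero (M * q * q)]
variable (d : ℕ) [NeZero d] (hd : d ∣ M)

theorem unitF_mem_L0 : unitF M d hd ∈ L0 A M := by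
  rw [mem_L0_iff_coeffMap]
  intro σ _
  rw [unitF_coe]
  exact coeffMap_coeffEmb σ _

theorem unitF_mem_VM : unitF M d hd ∈ VM A M := unitF_mem_gaussV A M d hd

theorem unitF_inv_mem_VM : (unitF M d hd)⁻¹ ∈ VM A M := by
  have h := gaussRes_unitF_ne_zero A M d hd
  have hu : IsUnit (⟨unitF M d hd, unitF_mem_VM A M d hd⟩ : ↥(VM A M)) := by
    by_contra hnu
    apply h
    have := (red20_eq_zero_iff A M ⟨unitF M d hd, unitF_mem_VM A M d hd⟩).2
      ((IsLocalRing.mem_maximalIdeal _).2 hnu)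
    exact this
  obtain ⟨v, hv⟩ := hu
  have h1 : ((v⁻¹ : (↥(VM A M))ˣ) : ↥(VM A M)) * ⟨unitF M d hd, unitF_mem_VM A M d hd⟩ = 1 := by
    rw [← hv]
    exact v.inv_mul
  have h2 : (((v⁻¹ : (↥(VM A M))ˣ) : ↥(VM A M)) : FN M) * unitF M d hd = 1 :=
    congrArg Subtype.val h1
  have h3 : (unitF M d hd)⁻¹ = (((v⁻¹ : (↥(VM A M))ˣ) : ↥(VM A M)) : FN M) :=
    (eq_inv_of_mul_eq_one_left h2).symm
  rw [h3]
  exact Subtype.mem _

/-- The unit `Δ(t)/Δ(t^d)` as an element of the Gauss ring of `L0 A M`. -/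
def uE : ↥(VE0 A M) := ⟨⟨unitF M d hd, unitF_mem_L0 A M d hd⟩, unitF_mem_VM A M d hd⟩

/-- Its inverse. -/
def uEi : ↥(VE0 A M) :=
  ⟨⟨(unitF M d hd)⁻¹, inv_mem (unitF_mem_L0 A M d hd)⟩, unitF_inv_mem_VM A M d hd⟩

theorem uE_mul_uEi : uE A M d hd * uEi A M d hd = 1 := by
  apply Subtype.ext
  apply Subtype.ext
  show unitF M d hd * (unitF M d hd)⁻¹ = 1
  exact mul_inv_cancel₀ (unitF_ne_zero M d hd)

theorem sE_uE : sE A M (uE A M d hd)
    = deltaR (kV A) * (qExpand (kV A) d (deltaR (kV A)))⁻¹ :=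
  gaussRes_unitF A M d hd

/-- The unit `Δ(t)/Δ(t^d)` as an inertia-fixed function of level `M q²`. -/
def Uo : ↥(L0 A (M * q * q)) := inclL0 A (hleMN q M) (uE A M d hd : ↥(L0 A M))

/-- Its inverse. -/
def Uoi : ↥(L0 A (M * q * q)) := inclL0 A (hleMN q M) (uEi A M d hd : ↥(L0 A M))

theorem Uo_mul_Uoi : Uo A q M d hd * Uoi A q M d hd = 1 := by
  rw [Uo, Uoi, ← map_mul]
  have h := congrArg Subtype.val (uE_mul_uEi A M d hd)
  have h' : (uE A M d hd : ↥(L0 A M)) * (uEi A M d hd : ↥(L0 A M)) = 1 := h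
  rw [h', map_one]

include hd in
theorem dvd_lvl : d ∣ M * q * q := Dvd.dvd.mul_right (Dvd.dvd.mul_right hd q) q

theorem coe_Uo : ((Uo A q M d hd : ↥(L0 A (M * q * q))) : FN (M * q * q))
    = unitF (M * q * q) d (dvd_lvl q M d hd) := by
  apply Subtype.ext
  rw [Uo, coe_inclL0_series]
  rfl

theorem coe_Uoi : ((Uoi A q M d hd : ↥(L0 A (M * q * q))) : FN (M * q * q))
    = (unitF (M * q * q) d (dvd_lvl q M d hd))⁻¹ := by
  have h := congrArg Subtype.val (Uo_mul_Uoi A q M d hd)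
  have h' : ((Uo A q M d hd : ↥(L0 A (M * q * q))) : FN (M * q * q))
      * ((Uoi A q M d hd : ↥(L0 A (M * q * q))) : FN (M * q * q)) = 1 := h
  rw [coe_Uo] at h'
  exact eq_inv_of_mul_eq_one_right h'

theorem Uo_mem20 : Uo A q M d hd ∈ V20o A q M := hVE20 A q M _ (uE A M d hd).2

theorem Uoi_mem20 : Uoi A q M d hd ∈ V20o A q M := hVE20 A q M _ (uEi A M d hd).2

include hq in
theorem Uo_mem11 : Uo A q M d hd ∈ V11o A q M B k hB hq :=
  hVE11 A q M B k hB hq _ (uE A M d hd).2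

include hq in
theorem Uoi_mem11 : Uoi A q M d hd ∈ V11o A q M B k hB hq :=
  hVE11 A q M B k hB hq _ (uEi A M d hd).2

include hq in
theorem Uo_mem02 : Uo A q M d hd ∈ V02o A q M B k hB :=
  hVE02 A q M B k hB hq _ (uE A M d hd).2

include hq in
theorem Uoi_mem02 : Uoi A q M d hd ∈ V02o A q M B k hB :=
  hVE02 A q M B k hB hq _ (uEi A M d hd).2

include hq in
theorem s11_Uo : s11 A q M B k hB hq ⟨Uo A q M d hd, Uo_mem11 A q M B k hB hq d hd⟩
    = deltaR (kV A) * (qExpand (kV A) d (deltaR (kV A)))⁻¹ := by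
  rw [← sE_uE A M d hd]
  exact s11_incl A q M B k hB hq (uE A M d hd) _

/-- Horizontal integrality of the units of level `M`. -/
theorem isIntegral_Uo :
    IsIntegral ↥(Algebra.adjoin ↥(Kur A) ({j0 A (M * q * q)} : Set ↥(L0 A (M * q * q))))
      (Uo A q M d hd) := by
  apply isIntegral_Kur_of_bar
  rw [coe_Uo]
  exact isIntegral_bar_of_unitOff (isUnitOff_unitF d _)

theorem isIntegral_Uoi :
    IsIntegral ↥(Algebra.adjoin ↥(Kur A) ({j0 A (M * q * q)} : Set ↥(L0 A (M * q * q))))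
      (Uoi A q M d hd) := by
  apply isIntegral_Kur_of_bar
  rw [coe_Uoi]
  exact isIntegral_bar_of_unitOff (isUnitOff_unitF d _).inv

end LevelM

section Wit

variable (A : ValuationSubring Kbar)
variable (q M : ℕ) (B k : ℤ) (hB : B * M + k * q = 1) (hq : q.Prime) [NeZero M] [NeZero q]
  [NeZero (M * q)] [NeZero (M * q * q)]

theorem q_dvd_lvl : q ∣ M * q * q := Dvd.intro_left (M * q) rfl

theorem qq_dvd_lvl : q * q ∣ M * q * q := ⟨M, by ring⟩

theorem eps1_eq_unitF : eps1 q M = unitF (M * q * q) q (q_dvd_lvl q M) := by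
  apply Subtype.ext
  rw [eps1, coe_heckeAlphaBar]
  rfl

theorem eps2_eq_unitF :
    haveI : NeZero (q * q) := ⟨mul_ne_zero (NeZero.ne q) (NeZero.ne q)⟩
    eps2 q M = unitF (M * q * q) (q * q) (qq_dvd_lvl q M)
      * (unitF (M * q * q) q (q_dvd_lvl q M))⁻¹ := by
  haveI : NeZero (q * q) := ⟨mul_ne_zero (NeZero.ne q) (NeZero.ne q)⟩
  apply Subtype.ext
  have h1 : ((eps2 q M : FN (M * q * q)) : LaurentSeries Kbar)
      = qExpand Kbar q (coeffEmb Kbar (modularUnitSeries q)) := by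
    rw [eps2, coe_heckeBetaBar]
    rfl
  have h2 : ((unitF (M * q * q) (q * q) (qq_dvd_lvl q M)
      * (unitF (M * q * q) q (q_dvd_lvl q M))⁻¹ : FN (M * q * q)) : LaurentSeries Kbar)
      = coeffEmb Kbar (modularUnitSeries (q * q)) * (coeffEmb Kbar (modularUnitSeries q))⁻¹ :=
    rfl
  rw [h1, h2, coeffEmb_modularUnitSeries, coeffEmb_modularUnitSeries, map_mul, map_inv₀,
    qExpand_qExpand]
  have hd : deltaR Kbar ≠ 0 := deltaR_ne_zero Kbar
  have h3 : qExpand Kbar q (deltaR Kbar) ≠ 0 := qExpand_deltaR_ne_zero Kbar q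
  have h4 : qExpand Kbar (q * q) (deltaR Kbar) ≠ 0 := qExpand_deltaR_ne_zero Kbar (q * q)
  field_simp

theorem isUnitOff_eps1 : IsUnitOff (M * q * q) (eps1 q M) := by
  rw [eps1_eq_unitF]
  exact isUnitOff_unitF q _

theorem isUnitOff_eps2 : IsUnitOff (M * q * q) (eps2 q M) := by
  haveI : NeZero (q * q) := ⟨mul_ne_zero (NeZero.ne q) (NeZero.ne q)⟩
  rw [eps2_eq_unitF]
  exact (isUnitOff_unitF (q * q) _).mul (isUnitOff_unitF q _).inv

theorem isUnitOff_cQ : IsUnitOff (M * q * q) (cQ q M) :=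
  isUnitOff_const (Nat.cast_ne_zero.2 (NeZero.ne q))

theorem isIntegral_eps1o :
    IsIntegral ↥(Algebra.adjoin ↥(Kur A) ({j0 A (M * q * q)} : Set ↥(L0 A (M * q * q))))
      (eps1o A q M) :=
  isIntegral_Kur_of_bar A _ _ (isIntegral_bar_of_unitOff (isUnitOff_eps1 q M))

theorem isIntegral_eps2o :
    IsIntegral ↥(Algebra.adjoin ↥(Kur A) ({j0 A (M * q * q)} : Set ↥(L0 A (M * q * q))))
      (eps2o A q M) :=
  isIntegral_Kur_of_bar A _ _ (isIntegral_bar_of_unitOff (isUnitOff_eps2 q M))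

theorem isIntegral_E20o :
    IsIntegral ↥(Algebra.adjoin ↥(Kur A) ({j0 A (M * q * q)} : Set ↥(L0 A (M * q * q))))
      (E20o A q M) := isIntegral_eps2o A q M

theorem isIntegral_E02o :
    IsIntegral ↥(Algebra.adjoin ↥(Kur A) ({j0 A (M * q * q)} : Set ↥(L0 A (M * q * q))))
      (E02o A q M) :=
  isIntegral_Kur_of_bar A _ _ (isIntegral_bar_of_unitOff
    (((isUnitOff_cQ q M).pow 12).mul (isUnitOff_eps1 q M).inv))

theorem isIntegral_E11o :
    IsIntegral ↥(Algebra.adjoin ↥(Kur A) ({j0 A (M * q * q)} : Set ↥(L0 A (M * q * q))))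
      (E11o A q M) :=
  isIntegral_Kur_of_bar A _ _ (isIntegral_bar_of_unitOff
    ((((isUnitOff_cQ q M).pow 12).mul (isUnitOff_eps1 q M)).mul (isUnitOff_eps2 q M).inv))

/-! ### Membership of the witnesses in the three valuation rings -/

theorem natCast_mem_of_div {V : ValuationSubring ↥(L0 A (M * q * q))}
    {x : ↥(L0 A (M * q * q))}
    (h : ∃ f' ∈ V, x = ((q : ℕ) : ↥(L0 A (M * q * q))) * f') : x ∈ V := by
  obtain ⟨f', hf', rfl⟩ := h
  exact mul_mem (_root_.natCast_mem V q) hf'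

include hq in
theorem E20o_mem11 (hA : (q : Kbar) ∈ A) : E20o A q M ∈ V11o A q M B k hB hq :=
  natCast_mem_of_div A q M (E20o_div_mem11 A q M B k hB hq hA)

include hq in
theorem E20o_mem02 (hA : (q : Kbar) ∈ A) : E20o A q M ∈ V02o A q M B k hB :=
  natCast_mem_of_div A q M (E20o_div_mem02 A q M B k hB hq hA)

theorem E02o_mem20 (hA : (q : Kbar) ∈ A) : E02o A q M ∈ V20o A q M :=
  natCast_mem_of_div A q M (E02o_div_mem20 A q M hA)

include hq in
theorem E02o_mem11 (hA : (q : Kbar) ∈ A) : E02o A q M ∈ V11o A q M B k hB hq :=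
  natCast_mem_of_div A q M (E02o_div_mem11 A q M B k hB hq hA)

theorem E11o_mem20 (hA : (q : Kbar) ∈ A) : E11o A q M ∈ V20o A q M :=
  natCast_mem_of_div A q M (E11o_div_mem20 A q M hA)

include hq in
theorem E11o_mem02 (hA : (q : Kbar) ∈ A) : E11o A q M ∈ V02o A q M B k hB :=
  natCast_mem_of_div A q M (E11o_div_mem02 A q M B k hB hq hA)

theorem eps1o_eq : eps1o A q M
    = ((q : ℕ) : ↥(L0 A (M * q * q))) ^ 12 * (E02o A q M)⁻¹ := by
  apply Subtype.ext
  show eps1 q M = ((q : ℕ) : FN (M * q * q)) ^ 12 * (E02 q M)⁻¹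
  rw [← cQ_eq_natCast, E02]
  have h0 := cQ_ne_zero q M
  have h1 := eps1_ne_zero q M
  field_simp

include hq in
theorem eps1o_mem02 : eps1o A q M ∈ V02o A q M B k hB := by
  rw [eps1o_eq]
  exact mul_mem (pow_mem (_root_.natCast_mem _ q) 12) (E02o_inv_mem02 A q M B k hB hq)

end Wit

end Fermat.Agent.S36.NU.H99

end
end
-- ==== END Fermat.Agent.S36.NU.H99_OrdMod1
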