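-- GENERATED (merged mirror, NOTES/tools/trim/merge3_helper67.py): 8 modules of the originals, bodies verbatim.
import Fermat.Agent.Zm.S36_L12_000
import Fermat.Agent.Zm.S36_L10_000
import Fermat.Agent.Zm.S36_L03_002
import Fermat.Agent.Zm.S36_L05_002
import Fermat.Agent.Zm.S36_L07_001
import Fermat.Agent.Zm.S36_L04_002
import Fermat.Agent.Zm.S36_L11_001
import Fermat.Agent.Zm.S36_L12_001
import Fermat.Agent.Zm.S36_L09_001
import Fermat.Agent.Zm.S35_L11_000
import Fermat.Agent.Zm.S35_L21_000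
import Fermat.Agent.Zm.S35_L20_000
import Fermat.Agent.S05.H15_Val

-- ==== BEGIN Fermat.Agent.S36.NU.H15_InstB
section

/-!
# S36 / NU-B, INST-B (helper15): the three bridges of `H65.finMod_of`

Setting of helper65's `finMod_of` (`S36/NU/H65_Inst2.lean`): `F = L0 A (M q²)`, `R = Rur A`,
`D.T = H23.totM`.

* `rdN_ne_zero_iff` (abstract, any `TotN`): for `h ≠ 0`, `T.rdN i h ≠ 0 ↔ h, h⁻¹ ∈ T.V i`;
* `isUnit3_iff_rdN` : for `h ≠ 0`, `H10.IsUnit3 h ↔ ∀ i, totM.rdN i h ≠ 0`;
* `hunit_totM` : the hypothesis `hunit` of `finMod_of` for `D.T = totM`;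
* `hunit_of_eq` : the same for any `T` equal to `totM`;
* `hconst_L0` : the hypothesis `hconst` of `finMod_of`: an element of `L0 A N` integral over
  `Rur A` is a constant;
* `hN_of_isNormPow0`, `hN_of_isNormPow0_L0` : the hypotheses `hNα`, `hNβ` of `finMod_of` from
  `H10.IsNormPow0`, for a norm map `Nm` with values in `FN (M q)` (resp. in `L0 A (M q)` over
  `Kur A`) which is the norm along `φ`.
-/

set_option autoImplicit false
set_option synthInstance.maxHeartbeats 400000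
set_option maxHeartbeats 1000000
set_option linter.style.haveILetI false
set_option linter.unusedSectionVars false

noncomputable section

open ModularCurve AlgebraicCurve

namespace Fermat.Agent.S36.NU.H15

open Fermat.Agent.S24 Fermat.Agent.BAD Fermat.Agent.BAD.H88 Fermat.Agent.Lib.HeckeComm
  Fermat.Agent.S36.NU.H23 Fermat.Agent.S36.NU.H41 Fermat.Agent.S36.NU.H88
  Fermat.Agent.S36.NU.H79 Fermat.Agent.S36.NU.H10

/-! ### (a) units -/

section Abstract

variable {K L₀ L k ι Z : Type*} {E : ι → Type*} [Field K] [Field L₀] [Field L]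
  [Algebra K L] [Algebra L₀ L] [Field k] [Fintype ι] [∀ i, Field (E i)]
  [∀ i, Algebra k (E i)] (T : TotN K L₀ L k ι Z E)

/-- A non-zero `h` with `h, h⁻¹ ∈ V i` has non-zero reduction. -/
theorem rdN_ne_zero_of_mem {i : ι} {h : L₀} (h0 : h ≠ 0) (hm : h ∈ T.V i) (hi : h⁻¹ ∈ T.V i) :
    T.rdN i h ≠ 0 := by
  intro hz
  have h1 : T.rdN i (h⁻¹ * h) = T.rdN i h⁻¹ * T.rdN i h := T.rdN_mul hi hm
  rw [inv_mul_cancel₀ h0, T.rdN_one, hz, mul_zero] at h1
  exact one_ne_zero h1

/-- For `h ≠ 0`: the reduction of `h` is non-zero iff `h` is a unit of the valuation ring. -/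
theorem rdN_ne_zero_iff {i : ι} {h : L₀} (h0 : h ≠ 0) :
    T.rdN i h ≠ 0 ↔ h ∈ T.V i ∧ h⁻¹ ∈ T.V i :=
  ⟨fun hu => ⟨T.mem_of_rdN_ne_zero hu, T.inv_mem_of_rdN_ne_zero hu⟩,
    fun hm => rdN_ne_zero_of_mem T h0 hm.1 hm.2⟩

end Abstract

section Units

attribute [local instance] algkM

variable (A : ValuationSubring Kbar) (q M : ℕ) (B k : ℤ) (hB : B * M + k * q = 1) (hq : q.Prime)
  [NeZero M] [NeZero q] [NeZero (M * q * q)] (hqM : ¬ q ∣ M) (hA : A.LiesOverPrime q)
  (ht : H91.TameAt M q)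

/-- **INST-B (a)**: for `h ≠ 0`, `h` is a unit for the three valuations iff its three reductions
are non-zero. -/
theorem isUnit3_iff_rdN (h : ↥(L0 A (M * q * q))) (h0 : h ≠ 0) :
    IsUnit3 A q M B k hB hq h ↔ ∀ i, (totM A q M B k hB hq hqM hA ht).rdN i h ≠ 0 := by
  constructor
  · rintro ⟨⟨a1, a2⟩, ⟨b1, b2⟩, ⟨c1, c2⟩⟩ i
    fin_cases i
    · exact rdN_ne_zero_of_mem (totM A q M B k hB hq hqM hA ht) (i := 0) h0 a1 a2
    · exact rdN_ne_zero_of_mem (totM A q M B k hB hq hqM hA ht) (i := 1) h0 b1 b2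
    · exact rdN_ne_zero_of_mem (totM A q M B k hB hq hqM hA ht) (i := 2) h0 c1 c2
  · intro hu
    exact ⟨(rdN_ne_zero_iff (totM A q M B k hB hq hqM hA ht) (i := 0) h0).1 (hu 0),
      (rdN_ne_zero_iff (totM A q M B k hB hq hqM hA ht) (i := 1) h0).1 (hu 1),
      (rdN_ne_zero_iff (totM A q M B k hB hq hqM hA ht) (i := 2) h0).1 (hu 2)⟩

/-- **INST-B (a)**, the hypothesis `hunit` of `H65.finMod_of` for `D.T = totM`. -/
theorem hunit_totM :
    ∀ h : ↥(L0 A (M * q * q)), h ≠ 0 → IsUnit3 A q M B k hB hq h →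
      ∀ i, (totM A q M B k hB hq hqM hA ht).rdN i h ≠ 0 :=
  fun h h0 hU => (isUnit3_iff_rdN A q M B k hB hq hqM hA ht h h0).1 hU

/-- The converse: units for `totM` are units for the three valuations. -/
theorem isUnit3_of_rdN (h : ↥(L0 A (M * q * q)))
    (hu : ∀ i, (totM A q M B k hB hq hqM hA ht).rdN i h ≠ 0) :
    IsUnit3 A q M B k hB hq h :=
  ⟨⟨(totM A q M B k hB hq hqM hA ht).mem_of_rdN_ne_zero (hu 0),
      (totM A q M B k hB hq hqM hA ht).inv_mem_of_rdN_ne_zero (hu 0)⟩,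
    ⟨(totM A q M B k hB hq hqM hA ht).mem_of_rdN_ne_zero (hu 1),
      (totM A q M B k hB hq hqM hA ht).inv_mem_of_rdN_ne_zero (hu 1)⟩,
    ⟨(totM A q M B k hB hq hqM hA ht).mem_of_rdN_ne_zero (hu 2),
      (totM A q M B k hB hq hqM hA ht).inv_mem_of_rdN_ne_zero (hu 2)⟩⟩

end Units

/-! ### (b) integral over `Rur A` ⟹ constant -/

section Const

variable (A : ValuationSubring Kbar) (N : ℕ) [NeZero N]

/-- An element of a field extension of an algebraically closed field which is integral over it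
is a constant. -/
theorem exists_const_of_isIntegral {k₀ F₀ : Type*} [Field k₀] [IsAlgClosed k₀] [Field F₀]
    [Algebra k₀ F₀] {x : F₀} (hx : IsIntegral k₀ x) : ∃ c : k₀, x = algebraMap k₀ F₀ c := by
  have hdeg : (minpoly k₀ x).degree = 1 :=
    IsAlgClosed.degree_eq_one_of_irreducible k₀ (minpoly.irreducible hx)
  obtain ⟨c, hc⟩ := minpoly.mem_range_of_degree_eq_one k₀ x hdeg
  exact ⟨c, hc.symm⟩

/-- An element of `L0 A N` integral over `Rur A` is integral over `ℚ̄` in `F_N`. -/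
theorem isIntegral_Kbar_of_Rur (x : ↥(L0 A N)) (hx : IsIntegral ↥(Rur A) x) :
    IsIntegral Kbar (x : FN N) := by
  obtain ⟨p, hp, hpx⟩ := hx
  let φ : ↥(Rur A) →+* Kbar := (algebraMap ↥(Kur A) Kbar).comp (algebraMap ↥(Rur A) ↥(Kur A))
  refine ⟨p.map φ, hp.map φ, ?_⟩
  rw [Polynomial.eval₂_map]
  have e : (algebraMap Kbar (FN N)).comp φ
      = (L0 A N).subtype.comp (algebraMap ↥(Rur A) ↥(L0 A N)) := rfl
  have h1 := Polynomial.hom_eval₂ p (algebraMap ↥(Rur A) ↥(L0 A N)) (L0 A N).subtype x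
  rw [hpx, map_zero] at h1
  rw [e]
  exact h1.symm

/-- **INST-B (b)**, the hypothesis `hconst` of `H65.finMod_of`: an inertia-fixed function
integral over `Rur A` is a constant. -/
theorem hconst_L0 :
    ∀ x : ↥(L0 A N), IsIntegral ↥(Rur A) x →
      ∃ c : Kbar, (x : FN N) = algebraMap Kbar (FN N) c :=
  fun x hx => exists_const_of_isIntegral (isIntegral_Kbar_of_Rur A N x hx)

end Const

/-! ### (c) the norms -/

section Norm

variable (A : ValuationSubring Kbar) (q M : ℕ) [NeZero M] [NeZero q] [NeZero (M * q * q)]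

/-- **INST-B (c)**, the hypotheses `hNα`, `hNβ` of `H65.finMod_of` with `K' = ℚ̄`,
`L' = F_{Mq}`: for a norm map `Nm` which is the norm along `φ`. -/
theorem hN_of_isNormPow0 (φ : FN (M * q) →ₐ[Kbar] FN (M * q * q))
    (Nm : ↥(L0 A (M * q * q)) →* FN (M * q))
    (hNm : ∀ h : ↥(L0 A (M * q * q)), Nm h = normAlongHom φ.toRingHom (h : FN (M * q * q))) :
    ∀ (n : ℕ) (h : ↥(L0 A (M * q * q))), IsNormPow0 A q M φ n (h : FN (M * q * q)) →
      ∃ (c : Kbar) (g : FN (M * q)), Nm h = algebraMap Kbar (FN (M * q)) c * g ^ n := by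
  rintro n h ⟨c, g, -, -, hcg⟩
  exact ⟨c, g, (hNm h).trans hcg⟩

end Norm

end Fermat.Agent.S36.NU.H15

end
end
-- ==== END Fermat.Agent.S36.NU.H15_InstB

-- ==== BEGIN Fermat.Agent.S36.NU.H22_ValE
section

/-!
# S36 / NU-B, leaf VALE-MOD (helper22): the ramification indices of the modular valuations

For ANY chart `C` on `L0 A (M q²)` whose three valuation rings are `V20o`, `V11o`, `V02o`
(helper23), with `e = (1, q - 1, 1)` and `algebraMap qR = q`:

* `valE_mod : H99.ValE C qR e`, i.e. `f ∈ 𝔪_{V i} ⟹ f ^ e i ∈ q V i`.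

Proof: **EXACT** (`H51.exact20/11/02`: the values are powers of the value of the uniformiser) and
the ramification of `V11o` (`H51.hram11'`).

* `pow_eq_mul_of_exact` : the abstract statement on one valuation ring;
* `valE20`, `valE11`, `valE02` : the three modular cases.
-/

set_option autoImplicit false
set_option synthInstance.maxHeartbeats 400000
set_option maxHeartbeats 1000000
set_option linter.unusedSectionVars false
set_option linter.style.haveILetI false

noncomputable section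

namespace Fermat.Agent.S36.NU.H22

open Fermat.Agent.S24 Fermat.Agent.BAD.H88 ModularCurve AlgebraicCurve
open Fermat.Agent.S28 Fermat.Agent.S28.H73 Fermat.Agent.RED.H73 Fermat.Agent.RED.H17
open Fermat.Agent.S36.NU.H88 Fermat.Agent.S36.NU.H23 Fermat.Agent.S36.NU.H16 Fermat.Agent.BAD

/-! ### The abstract statement -/

/-- If the values of `V` are powers of the value of `π` and `v(ϖ) = v(π) ^ e < 1`, then the
`e`-th power of every element of the maximal ideal is divisible by `ϖ`. -/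
theorem pow_eq_mul_of_exact {F : Type*} [Field F] (V : ValuationSubring F) (ϖ π : F) (e : ℕ)
    (he : 0 < e) (hϖ : V.valuation ϖ < 1) (hϖ0 : ϖ ≠ 0)
    (hram : V.valuation ϖ = V.valuation π ^ e)
    (hex : ∀ x : F, x ≠ 0 → ∃ m : ℤ, V.valuation x = V.valuation π ^ m)
    (f : F) (hf : f ∈ V.nonunits) : ∃ f' ∈ V, f ^ e = ϖ * f' := by
  by_cases hf0 : f = 0
  · refine ⟨0, V.zero_mem, ?_⟩
    rw [hf0, zero_pow he.ne', mul_zero]
  have hvϖ0 : V.valuation ϖ ≠ 0 := (Valuation.ne_zero_iff _).2 hϖ0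
  have hvπ0 : V.valuation π ≠ 0 := by
    intro h0
    rw [h0, zero_pow he.ne'] at hram
    exact hvϖ0 hram
  have hvπpos : 0 < V.valuation π := zero_lt_iff.2 hvπ0
  have hvπ1 : V.valuation π < 1 := by
    by_contra hge
    rw [not_lt] at hge
    have h1 : 1 ≤ V.valuation π ^ e := one_le_pow₀ hge
    rw [← hram] at h1
    exact absurd hϖ (not_lt.2 h1)
  have hvf : V.valuation f < 1 := (V.mem_nonunits_iff).1 hf
  obtain ⟨m, hm⟩ := hex f hf0
  -- `m ≥ 1`
  have hm1 : 1 ≤ m := by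
    by_contra hlt
    rw [not_le] at hlt
    have hm0 : m ≤ 0 := by omega
    obtain ⟨n, hn⟩ : ∃ n : ℕ, m = -(n : ℤ) := ⟨m.natAbs, by omega⟩
    rw [hn, zpow_neg, zpow_natCast] at hm
    have h1 : V.valuation π ^ n ≤ 1 := pow_le_one₀ zero_le hvπ1.le
    have h2 : 0 < V.valuation π ^ n := pow_pos hvπpos n
    have h3 : 1 ≤ (V.valuation π ^ n)⁻¹ := (one_le_inv₀ h2).2 h1
    rw [← hm] at h3
    exact absurd hvf (not_lt.2 h3)
  obtain ⟨n, hn⟩ : ∃ n : ℕ, m = (n : ℤ) + 1 := ⟨(m - 1).toNat, by omega⟩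
  have hvf' : V.valuation f = V.valuation π ^ (n + 1) := by
    rw [hm, hn]
    exact_mod_cast rfl
  refine ⟨ϖ⁻¹ * f ^ e, ?_, ?_⟩
  · have hpe0 : V.valuation π ^ e ≠ 0 := pow_ne_zero e hvπ0
    rw [← ValuationSubring.valuation_le_one_iff, map_mul, map_inv₀, map_pow, hvf', hram,
      ← pow_mul, mul_comm (n + 1) e, pow_mul, pow_succ, mul_left_comm,
      inv_mul_cancel₀ hpe0, mul_one]
    exact pow_le_one₀ zero_le (pow_le_one₀ zero_le hvπ1.le)
  · rw [← mul_assoc, mul_inv_cancel₀ hϖ0, one_mul]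

/-! ### The three modular valuations -/

section Mod

variable (A : ValuationSubring Kbar)
variable (q M : ℕ) (B k : ℤ) (hB : B * M + k * q = 1) (hq : q.Prime) [NeZero M] [NeZero q]
  [NeZero (M * q)] [NeZero (M * q * q)]
variable (hqM : ¬ q ∣ M) (hA : A.LiesOverPrime q)

include hq in
theorem natCast_L0_ne_zero : ((q : ℕ) : ↥(L0 A (M * q * q))) ≠ 0 := by
  rw [← H51.inclL0_piE_eq A q M]
  exact (map_ne_zero (inclL0 A (hleMN q M))).2 (piE_ne_zero A q M hq)

include hB hq hqM hA in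
theorem val20_q_lt_one :
    (V20o A q M).valuation ((q : ℕ) : ↥(L0 A (M * q * q))) < 1 := by
  have h := @H42.NRData.val_ϖ_lt_one ↥(L0 A M) ↥(L0 A (M * q * q)) (FM A M) _ _ _
    (algL0 A (hleMN q M)) (Fin 3) (kap3 (FM A M) (FM A M)) _ (algM A q M hq hqM hA)
    (nrM A q M B k hB hq hqM hA) 0
  rw [← H51.inclL0_piE_eq A q M]
  exact h

include hq hA in
theorem val11_q_lt_one :
    (V11o A q M B k hB hq).valuation ((q : ℕ) : ↥(L0 A (M * q * q))) < 1 := by
  rw [← H51.inclL0_piE_eq A q M]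
  exact val11_piE_lt_one A q M B k hB hq hA

include hB hq hqM hA in
theorem val02_q_lt_one :
    (V02o A q M B k hB).valuation ((q : ℕ) : ↥(L0 A (M * q * q))) < 1 := by
  have h := @H42.NRData.val_ϖ_lt_one ↥(L0 A M) ↥(L0 A (M * q * q)) (FM A M) _ _ _
    (algL0 A (hleMN q M)) (Fin 3) (kap3 (FM A M) (FM A M)) _ (algM A q M hq hqM hA)
    (nrM A q M B k hB hq hqM hA) 2
  rw [← H51.inclL0_piE_eq A q M]
  exact h

include hB hq hqM hA in
/-- **VALe** for `V₂₀` (`e = 1`). -/
theorem valE20 (f : ↥(L0 A (M * q * q))) (hf : f ∈ (V20o A q M).nonunits) :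
    ∃ f' ∈ V20o A q M, f ^ 1 = ((q : ℕ) : ↥(L0 A (M * q * q))) * f' :=
  pow_eq_mul_of_exact (V20o A q M) _ _ 1 one_pos (val20_q_lt_one A q M B k hB hq hqM hA)
    (natCast_L0_ne_zero A q M hq) (pow_one _).symm
    (H51.exact20 A q M B k hB hq hqM hA) f hf

include hB hq hqM hA in
/-- **VALe** for `V₁₁` (`e = q - 1`). -/
theorem valE11 (f : ↥(L0 A (M * q * q))) (hf : f ∈ (V11o A q M B k hB hq).nonunits) :
    ∃ f' ∈ V11o A q M B k hB hq, f ^ (q - 1) = ((q : ℕ) : ↥(L0 A (M * q * q))) * f' :=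
  pow_eq_mul_of_exact (V11o A q M B k hB hq) _ (pi11 A q M) (q - 1)
    (Nat.sub_pos_of_lt hq.one_lt) (val11_q_lt_one A q M B k hB hq hA)
    (natCast_L0_ne_zero A q M hq) (H51.hram11' A q M B k hB hq hA)
    (H51.exact11 A q M B k hB hq hqM hA) f hf

include hB hq hqM hA in
/-- **VALe** for `V₀₂` (`e = 1`). -/
theorem valE02 (f : ↥(L0 A (M * q * q))) (hf : f ∈ (V02o A q M B k hB).nonunits) :
    ∃ f' ∈ V02o A q M B k hB, f ^ 1 = ((q : ℕ) : ↥(L0 A (M * q * q))) * f' :=
  pow_eq_mul_of_exact (V02o A q M B k hB) _ _ 1 one_pos (val02_q_lt_one A q M B k hB hq hqM hA)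
    (natCast_L0_ne_zero A q M hq) (pow_one _).symm
    (H51.exact02 A q M B k hB hq hqM hA) f hf

variable {R k' ι : Type*} {κ : ι → Type*} [CommRing R] [Algebra R ↥(L0 A (M * q * q))]
  [Field k'] [∀ i, Field (κ i)] [∀ i, Algebra k' (κ i)]

include hB hq hqM hA in
/-- **VALE-MOD**: `H99.ValE` for any chart on `L0 A (M q²)` with the valuation rings `V20o`,
`V11o`, `V02o` and `e = (1, q - 1, 1)`. -/
theorem valE_mod (C : Chart R ↥(L0 A (M * q * q)) k' ι κ) (qR : R)
    (hqR : algebraMap R ↥(L0 A (M * q * q)) qR = ((q : ℕ) : ↥(L0 A (M * q * q))))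
    (e : ι → ℕ) (i₂₀ i₁₁ i₀₂ : ι) (hcases : ∀ i, i = i₂₀ ∨ i = i₁₁ ∨ i = i₀₂)
    (he₂₀ : e i₂₀ = 1) (he₁₁ : e i₁₁ = q - 1) (he₀₂ : e i₀₂ = 1)
    (hV20 : C.V i₂₀ = V20o A q M) (hV11 : C.V i₁₁ = V11o A q M B k hB hq)
    (hV02 : C.V i₀₂ = V02o A q M B k hB) :
    H99.ValE C qR e := by
  intro i f hf
  rw [hqR]
  rcases hcases i with rfl | rfl | rfl
  · rw [hV20] at hf ⊢
    rw [he₂₀]
    exact valE20 A q M B k hB hq hqM hA f hf
  · rw [hV11] at hf ⊢
    rw [he₁₁]
    exact valE11 A q M B k hB hq hqM hA f hf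
  · rw [hV02] at hf ⊢
    rw [he₀₂]
    exact valE02 A q M B k hB hq hqM hA f hf

include hB hq hqM hA in
/-- The hypothesis `hqV` of `H16.locEq_ss_modV`: `q` is a nonunit of the three valuation
rings. -/
theorem q_mem_nonunits (C : Chart R ↥(L0 A (M * q * q)) k' ι κ) (qR : R)
    (hqR : algebraMap R ↥(L0 A (M * q * q)) qR = ((q : ℕ) : ↥(L0 A (M * q * q))))
    (i₂₀ i₁₁ i₀₂ : ι) (hcases : ∀ i, i = i₂₀ ∨ i = i₁₁ ∨ i = i₀₂)
    (hV20 : C.V i₂₀ = V20o A q M) (hV11 : C.V i₁₁ = V11o A q M B k hB hq)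
    (hV02 : C.V i₀₂ = V02o A q M B k hB) :
    ∀ i, algebraMap R ↥(L0 A (M * q * q)) qR ∈ (C.V i).nonunits := by
  intro i
  rw [hqR, ValuationSubring.mem_nonunits_iff]
  rcases hcases i with rfl | rfl | rfl
  · rw [hV20]; exact val20_q_lt_one A q M B k hB hq hqM hA
  · rw [hV11]; exact val11_q_lt_one A q M B k hB hq hA
  · rw [hV02]; exact val02_q_lt_one A q M B k hB hq hqM hA

end Mod

end Fermat.Agent.S36.NU.H22

end
end
-- ==== END Fermat.Agent.S36.NU.H22_ValE

-- ==== BEGIN Fermat.Agent.S36.NU.H31_CuspIntE02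
section

/-!
# S36 / NU-B, leaf CUSPS (helper31): `E02∞` is integral over `ℚ̄[1/j]`

Level `N = M q²`.  `E02∞ = (q¹² / eps1)^q · j^-(q - 1)` with `eps1 = Δ(τ)/Δ(qτ)`
(`= BAD.H30.unitF N q`).  The conjugates of `eps1⁻q` are the family `H82.Y02` and
`H82.isIntegral_of_family` applies with `K₀ = q - 1`.

* `unitU_eq_div` : the conjugates of the unit `Δ(z)/Δ(dz)` are `D_1 / D_d`;
* `coeffMap_psi_unitF` : the expansion of `unitF N d` at the identity coset over `ℂ`;
* `Y02_eq`, `hx_E02` : the link between `eps1⁻q` and `Y02` at the identity coset;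
* `isIntegral_E02oo` : the target.
-/

set_option autoImplicit false
set_option synthInstance.maxHeartbeats 400000
set_option maxHeartbeats 1000000
set_option linter.unusedSectionVars false
set_option linter.unusedVariables false
set_option linter.style.haveILetI false

open ModularCurve Polynomial

noncomputable section

namespace Fermat.Agent.S36.NU.H31C

open Fermat.Agent.S23.H22 (Q q1)
open Fermat.Agent.S28 Fermat.Agent.S28.H30
open Fermat.Agent.S24 (Kbar FN jF iotaC)
open Fermat.Agent.S15.H30 (psi psi_apply psi_injective psi_jF dM dP dMm)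
open Fermat.Agent.BAD.H30 (unitU unitF psi_unitF liftUnit coeffMap_liftUnit dM_dvd_of_dvd)
open Fermat.Agent.RED.H30
open Fermat.Agent.S36.NU.H23 (L0)

section General

variable (N : ℕ) [NeZero N] (d : ℕ)

/-- The conjugates of the unit `Δ(z)/Δ(dz)` as quotients of the conjugates of `Δ`. -/
theorem unitU_eq_div (hd : d ∣ N) (c : Q N) :
    unitU N d c = pexp N (fam N 1 DeltaMF c) / pexp N (fam N d DeltaMF c) := by
  unfold unitU Ueta
  rw [pexp_prodF (dM_dvd_of_dvd hd), pexp_prodF (dM_dvd_of_dvd hd), Fintype.prod_bool,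
    Fintype.prod_bool]
  simp only [dP, dM, dMm, if_true, Bool.false_eq_true, if_false, pow_zero, pow_one, one_mul,
    mul_one]

/-- The expansion of the unit of `F_N` at the identity coset, over `ℂ`. -/
theorem coeffMap_psi_unitF [NeZero d] (hd : d ∣ N) :
    coeffMap iotaC (psi N (unitF N d hd))
      = HahnSeries.C ((d : ℂ) ^ ((12 : ℤ) - 1)) * unitU N d (q1 : Q N) := by
  rw [psi_unitF, map_mul, coeffMap_C, coeffMap_liftUnit, map_zpow₀, map_natCast]

end General

section E02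

variable (A : ValuationSubring Kbar)
variable (q M : ℕ) (hq : q.Prime) [NeZero M] [NeZero q] [NeZero (M * q)] [NeZero (M * q * q)]

/-- The family `Y02` is the family of the conjugates of `eps1⁻q`. -/
theorem Y02_eq (c : Q (M * q * q)) :
    H82.Y02 q M c = ((unitU (M * q * q) q c)⁻¹) ^ q := by
  rw [H82.Y02, unitU_eq_div _ _ (H82.dvd_lvl_q q M), inv_div]

/-- The expansion of `eps1⁻q` at the identity coset is a constant multiple of `Y02`. -/
theorem hx_E02 :
    coeffMap iotaC (psi (M * q * q) (((H99.eps1 q M)⁻¹) ^ q))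
      = HahnSeries.C (iotaC (((q : Kbar) ^ (11 * q))⁻¹))
          * H82.Y02 q M (q1 : Q (M * q * q)) := by
  have hc : (HahnSeries.C ((q : ℂ) ^ ((12 : ℤ) - 1)) : LaurentSeries ℂ)⁻¹ ^ q
      = HahnSeries.C (iotaC (((q : Kbar) ^ (11 * q))⁻¹)) := by
    have e1 : ((12 : ℤ) - 1) = ((11 : ℕ) : ℤ) := by norm_num
    rw [e1, zpow_natCast, ← map_inv₀, ← map_pow, map_inv₀ iotaC, map_pow iotaC, map_natCast,
      inv_pow, pow_mul]
  rw [Y02_eq, map_pow, map_inv₀, map_pow, map_inv₀, H99.eps1_eq_unitF, coeffMap_psi_unitF,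
    mul_inv, mul_pow, hc]

include hq in
/-- **(CUSP-INT), `E02∞`**: `E02∞ = (q¹²/eps1)^q / j^(q - 1)` is integral over `ℚ̄[1/j]`. -/
theorem isIntegral_E02oo :
    IsIntegral ↥(Algebra.adjoin Kbar ({(jF (M * q * q))⁻¹} : Set (FN (M * q * q))))
      ((H82.E02oo A q M : ↥(L0 A (M * q * q))) : FN (M * q * q)) := by
  have h := H82.isIntegral_of_family (H82.Y02 q M) (H82.sym_Y02 q M) (H82.coeff_Y02 q M) (q - 1)
    (fun c n hn => H82.ord_Y02 q M hq c n hn) (((H99.eps1 q M)⁻¹) ^ q)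
    (((q : Kbar) ^ (11 * q))⁻¹) (hx_E02 q M)
  have hc : IsIntegral ↥(Algebra.adjoin Kbar ({(jF (M * q * q))⁻¹} : Set (FN (M * q * q))))
      (H99.cQ q M ^ (12 * q)) := by
    refine IsIntegral.pow ?_ _
    have : H99.cQ q M
        = algebraMap ↥(Algebra.adjoin Kbar ({(jF (M * q * q))⁻¹} : Set (FN (M * q * q))))
            (FN (M * q * q)) (algebraMap Kbar _ (q : Kbar)) := rfl
    rw [this]
    exact isIntegral_algebraMap
  have e : ((H82.E02oo A q M : ↥(L0 A (M * q * q))) : FN (M * q * q))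
      = H99.cQ q M ^ (12 * q)
          * (((H99.eps1 q M)⁻¹) ^ q * (jF (M * q * q))⁻¹ ^ (q - 1)) := by
    have e0 : ((H82.E02oo A q M : ↥(L0 A (M * q * q))) : FN (M * q * q))
        = H99.E02 q M ^ q * (jF (M * q * q))⁻¹ ^ (q - 1) := rfl
    rw [e0, H99.E02, mul_pow, ← pow_mul, mul_assoc (H99.cQ q M ^ (12 * q))]
  rw [e]
  exact hc.mul h

end E02

end Fermat.Agent.S36.NU.H31C

end
end
-- ==== END Fermat.Agent.S36.NU.H31_CuspIntE02

-- ==== BEGIN Fermat.Agent.S36.NU.H42_Int
section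

/-!
# S36 / NU-B, TI3-VAL, leaf (INT), modular instance (helper42)

`N = M q²`, `q ∤ M`.  Every inertia-fixed function of level `N` lying in `V₂₀ ∩ V₁₁ ∩ V₀₂` is
integral over the ring `VE0 A 1` of inertia-fixed Gauss-integral functions of level `1`
(`= V₂₀ ∩ K^ur(j)`).   (helper23's `nrM` + `oneData` + the abstract tower.)
-/

set_option autoImplicit false
set_option synthInstance.maxHeartbeats 400000
set_option maxHeartbeats 1000000
set_option linter.unusedSectionVars false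
set_option linter.unusedVariables false
set_option linter.style.haveILetI false

noncomputable section

open ModularCurve AlgebraicCurve Fermat.Agent.S24 Fermat.Agent.S28 Fermat.Agent.S28.H73
  Fermat.Agent.RED.H73 Fermat.Agent.BAD.H88 Fermat.Agent.BAD

namespace Fermat.Agent.S36.NU.H42

variable (A : ValuationSubring Kbar) (q M : ℕ) (B k : ℤ) (hB : B * M + k * q = 1) (hq : q.Prime)
  [NeZero M] [NeZero q] [NeZero (M * q * q)] (hqM : ¬ q ∣ M) (hA : A.LiesOverPrime q)

/-- The inclusion `L0 A 1 → L0 A (M q²)`. -/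
def incl1N : ↥(H23.L0 A 1) →+* ↥(H23.L0 A (M * q * q)) :=
  (H23.inclL0 A (H23.hleMN q M)).comp (H23.inclL0 A (hle1 M))

theorem coe_incl1N (a : ↥(H23.L0 A 1)) :
    (((incl1N A q M a : ↥(H23.L0 A (M * q * q))) : FN (M * q * q)) : LaurentSeries Kbar)
      = ((a : FN 1) : LaurentSeries Kbar) := by
  show (((H23.inclL0 A (H23.hleMN q M) (H23.inclL0 A (hle1 M) a) : ↥(H23.L0 A (M * q * q))) :
    FN (M * q * q)) : LaurentSeries Kbar) = _
  rw [H23.coe_inclL0_series, coe_inclL0_one]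

include hq hqM hA in
/-- **(INT), modular**: an inertia-fixed function of level `M q²` which lies in the three
valuation rings `V₂₀`, `V₁₁`, `V₀₂` is a root of a monic polynomial whose coefficients are
(images of) inertia-fixed Gauss-integral functions of level `1`. -/
theorem int_mod (g : ↥(H23.L0 A (M * q * q))) (h20 : g ∈ H23.V20o A q M)
    (h11 : g ∈ H23.V11o A q M B k hB hq) (h02 : g ∈ H23.V02o A q M B k hB) :
    ∃ P : Polynomial ↥(H23.L0 A (M * q * q)), P.Monic ∧
      (∀ n, ∃ a : ↥(H23.L0 A 1), a ∈ H23.VE0 A 1 ∧ P.coeff n = incl1N A q M a) ∧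
      (∀ n, P.coeff n ∈ H23.V20o A q M) ∧ (∀ n, P.coeff n ∈ H23.V11o A q M B k hB hq) ∧
      (∀ n, P.coeff n ∈ H23.V02o A q M B k hB) ∧ P.eval g = 0 := by
  have hfin1 : @Module.Finite ↥(H23.L0 A M) ↥(H23.L0 A (M * q * q)) _ _
      (H23.algL0 A (H23.hleMN q M)).toModule := H23.finite_L0_NU A q M
  have hfinK : ∀ i, @Module.Finite (FM A M) (H23.kap3 (FM A M) (FM A M) i) _ _
      (H23.algM A q M hq hqM hA i).toModule := fun i =>
    @H42.NRData.finite_res ↥(H23.L0 A M) ↥(H23.L0 A (M * q * q)) (FM A M) _ _ _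
      (H23.algL0 A (H23.hleMN q M)) (Fin 3) (H23.kap3 (FM A M) (FM A M)) _
      (H23.algM A q M hq hqM hA) (H23.nrM A q M B k hB hq hqM hA) _ _ hfin1 i
  obtain ⟨P, hP, hc, hV, hroot⟩ :=
    @H42.exists_monic_tower ↥(H23.L0 A 1) ↥(H23.L0 A M) ↥(H23.L0 A (M * q * q)) (FM A 1) (FM A M)
      _ _ _ _ _ (H23.algL0 A (hle1 M)) (H23.algL0 A (H23.hleMN q M))
      Unit (fun _ => FM A M) _ (fun _ => fmAlg A M) (fun _ => finite_FM A M q hq hqM hA)
      (Fin 3) (H23.kap3 (FM A M) (FM A M)) _ (H23.algM A q M hq hqM hA) hfinK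
      (oneData A M q hq hqM hA) (H23.nrM A q M B k hB hq hqM hA)
      _ _ (finite_L0_one A M) _ _ hfin1
      (oneData_hdeg A M q hq hqM hA) (H23.nrM_hdeg A q M B k hB hq hqM hA)
      (fun a ha _ => ha) (fun a ha => hV_one A M a ha) g
      (fun i => by
        fin_cases i
        · exact h20
        · exact h11
        · exact h02)
  refine ⟨P, hP, fun n => ?_, fun n => hV n 0, fun n => hV n 1, fun n => hV n 2, hroot⟩
  obtain ⟨a, ha, e⟩ := hc n
  exact ⟨a, ha, e⟩

end Fermat.Agent.S36.NU.H42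

end
end
-- ==== END Fermat.Agent.S36.NU.H42_Int

-- ==== BEGIN Fermat.Agent.S36.NU.H51_ValVecLow
section

/-!
# S36 / NU-B, leaf VALVEC-MOD (helper51): the two valuations of the lower level

`W` a valuation ring of `F_N` (`N = M q`) which induces `A` on the constants and whose values on
the inertia-fixed functions are powers of the value of `q` (`IsLowVal`).  Then its restriction to
`L0 A N` satisfies the hypotheses `hϖ`, `hD'`, `hconst` of `valVecMod_core`.

* `isLowVal_V20` : the Gauss valuation;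
* `isLowVal_V2` : the second valuation `V₂ = V₁ ∘ w_q`.
-/

set_option autoImplicit false
set_option synthInstance.maxHeartbeats 400000
set_option maxHeartbeats 1000000
set_option linter.style.haveILetI false
set_option linter.unusedSectionVars false

noncomputable section

open ModularCurve AlgebraicCurve
open Fermat.Agent.S24 Fermat.Agent.BAD.H88 Fermat.Agent.S28 Fermat.Agent.S28.H73
open Fermat.Agent.RED.H73 Fermat.Agent.RED.H17 Fermat.Agent.S36.NU.H88
open Fermat.Agent.S36.NU.H23 Fermat.Agent.Lib.HeckeComm Fermat.Agent.BAD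
open Fermat.Agent.S36.NU.H82

namespace Fermat.Agent.S36.NU.H51

section Low

variable (A : ValuationSubring Kbar) (N : ℕ) [NeZero N] (q : ℕ)

/-- A valuation ring of `F_N` inducing `A` on the constants, with values in `v(q)^ℤ` on the
inertia-fixed functions. -/
structure IsLowVal (W : ValuationSubring (FN N)) : Prop where
  const : ∀ c : Kbar, algebraMap Kbar (FN N) c ∈ W ↔ c ∈ A
  exact : ∀ x : FN N, x ∈ L0 A N → x ≠ 0 →
    ∃ m : ℤ, W.valuation x = W.valuation ((q : ℕ) : FN N) ^ m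

variable {A N q}

theorem IsLowVal.val_q_lt_one {W : ValuationSubring (FN N)} (h : IsLowVal A N q W)
    (hA : A.LiesOverPrime q) : W.valuation ((q : ℕ) : FN N) < 1 := by
  have e : ((q : ℕ) : FN N) = algebraMap Kbar (FN N) (q : Kbar) := (map_natCast _ q).symm
  rw [e]
  apply lt_of_le_of_ne
  · rw [ValuationSubring.valuation_le_one_iff, h.const]
    exact ((A.mem_nonunits_iff_exists_mem_maximalIdeal).1 hA).1
  · intro h1
    have hq0 : algebraMap Kbar (FN N) (q : Kbar) ≠ 0 := by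
      intro h0
      rw [h0, map_zero] at h1
      exact zero_ne_one h1
    have h2 : (algebraMap Kbar (FN N) (q : Kbar))⁻¹ ∈ W := by
      rw [← ValuationSubring.valuation_le_one_iff, map_inv₀, h1, inv_one]
    rw [← map_inv₀, h.const] at h2
    have h3 : A.valuation (q : Kbar) < 1 := (A.mem_nonunits_iff).1 hA
    have h4 : A.valuation (q : Kbar)⁻¹ ≤ 1 := (ValuationSubring.valuation_le_one_iff _ _).2 h2
    rw [map_inv₀] at h4
    have hq0' : (q : Kbar) ≠ 0 := fun h => hq0 (by rw [h, map_zero])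
    have h5 := (inv_le_one₀ (zero_lt_iff.2 ((Valuation.ne_zero_iff _).2 hq0'))).1 h4
    exact absurd h3 (not_lt.2 h5)

theorem coe_natCast_zpow_L0 (m : ℤ) :
    (((((q : ℕ) : ↥(L0 A N)) ^ m : ↥(L0 A N)) : FN N)) = ((q : ℕ) : FN N) ^ m := by
  have h := map_zpow₀ (L0 A N).subtype ((q : ℕ) : ↥(L0 A N)) m
  rw [map_natCast] at h
  exact h

theorem IsLowVal.res_val_q_lt_one {W : ValuationSubring (FN N)} (h : IsLowVal A N q W)
    (hA : A.LiesOverPrime q) :
    (resV0 (L0 A N) W).valuation ((q : ℕ) : ↥(L0 A N)) < 1 := by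
  rw [valuation_resV0_lt_one_iff]
  exact h.val_q_lt_one hA

theorem IsLowVal.res_exact {W : ValuationSubring (FN N)} (h : IsLowVal A N q W)
    (y : ↥(L0 A N)) (hy : y ≠ 0) :
    ∃ m : ℤ, (resV0 (L0 A N) W).valuation y
      = (resV0 (L0 A N) W).valuation ((q : ℕ) : ↥(L0 A N)) ^ m := by
  have hy' : (y : FN N) ≠ 0 := fun h0 => hy (Subtype.ext h0)
  obtain ⟨m, hm⟩ := h.exact (y : FN N) y.2 hy'
  refine ⟨m, ?_⟩
  rw [← map_zpow₀, valuation_resV0_eq_iff, coe_natCast_zpow_L0, map_zpow₀]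
  exact hm

theorem IsLowVal.val_const {W : ValuationSubring (FN N)} (h : IsLowVal A N q W)
    (c : Kbar) (m : ℤ) (hm : A.valuation c = A.valuation (q : Kbar) ^ m)
    (hc : algebraMap Kbar (FN N) c ∈ L0 A N) :
    (resV0 (L0 A N) W).valuation (⟨algebraMap Kbar (FN N) c, hc⟩ : ↥(L0 A N))
      = (resV0 (L0 A N) W).valuation ((q : ℕ) : ↥(L0 A N)) ^ m := by
  rw [← map_zpow₀, valuation_resV0_eq_iff, coe_natCast_zpow_L0]
  have h1 : A.valuation c = A.valuation ((q : Kbar) ^ m) := by rw [map_zpow₀]; exact hm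
  have h2 := val_algebraMap_congr A W h.const h1
  rw [h2, map_zpow₀, map_natCast]

/-- The hypothesis `hconst` of `valVecMod_core`. -/
theorem IsLowVal.res_const {W₁ W₂ : ValuationSubring (FN N)} (h₁ : IsLowVal A N q W₁)
    (h₂ : IsLowVal A N q W₂) (hq : q.Prime) (hA : A.LiesOverPrime q)
    (c : Kbar) (hc : algebraMap Kbar (FN N) c ∈ L0 A N) (hc0 : c ≠ 0) :
    ∃ m : ℤ,
      (resV0 (L0 A N) W₁).valuation (⟨algebraMap Kbar (FN N) c, hc⟩ : ↥(L0 A N))
        = (resV0 (L0 A N) W₁).valuation ((q : ℕ) : ↥(L0 A N)) ^ m ∧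
      (resV0 (L0 A N) W₂).valuation (⟨algebraMap Kbar (FN N) c, hc⟩ : ↥(L0 A N))
        = (resV0 (L0 A N) W₂).valuation ((q : ℕ) : ↥(L0 A N)) ^ m := by
  obtain ⟨m, hm⟩ := valuation_Kur A hq hA c ((const_mem_L0_iff A c).1 hc) hc0
  exact ⟨m, h₁.val_const c m hm hc, h₂.val_const c m hm hc⟩

variable (A N q)

/-- The Gauss valuation. -/
theorem isLowVal_V20 (hq : q.Prime) (hA : A.LiesOverPrime q) : IsLowVal A N q (V20 A N) where
  const := const_mem20 A N
  exact := fun x hx hx0 => exists_val20_eq_zpow A N hq hA x hx hx0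

end Low

section Low2

variable (A : ValuationSubring Kbar)
variable (q M : ℕ) (a b : ℤ) (hab : a * q + b * M = 1) (hq : q.Prime) [NeZero (M * q)]

/-- `w_q` preserves the inertia-fixed functions. -/
theorem wq_mem_L0 (x : FN (M * q)) (hx : x ∈ L0 A (M * q)) :
    wq q M a b hab hq x ∈ L0 A (M * q) := by
  intro σ hσ
  have h := wq_arith q M a b hab hq σ x
  rw [hx σ hσ] at h
  exact h.symm

/-- The second valuation `V₂ = V₁ ∘ w_q`. -/
theorem isLowVal_V2 (hA : A.LiesOverPrime q) :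
    IsLowVal A (M * q) q (V2 A q M a b hab hq) where
  const := fun c => (const_mem2 A q M a b hab hq c).trans (const_mem1 A q M c)
  exact := fun x hx hx0 => by
    have hw0 : wq q M a b hab hq x ≠ 0 := by
      intro h0
      exact hx0 ((map_eq_zero_iff _ (wq q M a b hab hq).injective).1 h0)
    obtain ⟨m, hm⟩ := exists_val20_eq_zpow A (M * q) hq hA _
      (wq_mem_L0 A q M a b hab hq x hx) hw0
    refine ⟨m, ?_⟩
    rw [← map_zpow₀]
    refine (val_eq_iff_of_mem_iff (V2 A q M a b hab hq) (V1 A q M)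
      ((wq q M a b hab hq : FN (M * q) ≃ₐ[Kbar] FN (M * q)) : FN (M * q) →+* FN (M * q))
      (fun x => mem_V2_iff A q M a b hab hq x) x _).2 ?_
    show (V1 A q M).valuation (wq q M a b hab hq x)
      = (V1 A q M).valuation (wq q M a b hab hq (((q : ℕ) : FN (M * q)) ^ m))
    rw [map_zpow₀ (wq q M a b hab hq), map_natCast, map_zpow₀]
    exact hm

end Low2

end Fermat.Agent.S36.NU.H51

end
end
-- ==== END Fermat.Agent.S36.NU.H51_ValVecLow

-- ==== BEGIN Fermat.Agent.S36.NU.H69_NrRes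
section
attribute [local instance 10000] SubalgebraClass.toAlgebra
attribute [local instance 10000] HahnSeries.powerSeriesAlgebra

/-!
# S36 / NU-B, leaves NM-A2, NM-B1 (helper69): the residue field of level `M q` and `Fr`

`C' = FM A (M q)` the residue field of level `M q` (`= fullC k M`, helper87's `FMq_eq`; this is
helper87's choice of `Et = κ` in `nrA1`, and it is `F1 A q M` up to proof irrelevance).

* `FrA : C' →ₐ[k] C'` (`t ↦ t ^ q`), `phiA : C' ≃+* C'` (the coefficientwise Frobenius);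
* `algFrA` : the structure `Fr` of `C'` over `C'`, `finrank_algFrA : [C' : C']_Fr = q`,
  `norm_algFrA : N x = φ x`, `coe_norm_algFrA` (in `k((t))`: `frobL`);
* `r02A : V02o → C'`, the residue map of `V₀₂` on the inertia-fixed functions.
-/

set_option autoImplicit false
set_option synthInstance.maxHeartbeats 400000
set_option maxHeartbeats 1000000
set_option linter.style.haveILetI false
set_option linter.unusedSectionVars false

noncomputable section

open ModularCurve AlgebraicCurve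
open Fermat.Agent.S24 Fermat.Agent.BAD.H88 Fermat.Agent.S28 Fermat.Agent.S28.H73
open Fermat.Agent.RED.H73 Fermat.Agent.RED.H17 Fermat.Agent.S36.NU.H88
open Fermat.Agent.S36.NU.H23

namespace Fermat.Agent.S36.NU.H69

open Fermat.Agent.BAD

section Res

variable (A : ValuationSubring Kbar) (q M : ℕ) (B k : ℤ) (hB : B * M + k * q = 1) (hq : q.Prime)
  [NeZero M] [NeZero q] [NeZero (M * q)] [NeZero (M * q * q)]
  (hqM : ¬ q ∣ M) (hA : A.LiesOverPrime q)

/-! ### `Fr` on the residue field of level `M q` -/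

include hq hqM hA in
/-- The residue field of level `M q` is stable under the coefficientwise Frobenius. -/
theorem frobStable_FMq :
    @Fermat.Agent.BAD.H73.FrobStable (kV A) _ q ⟨hq⟩ (Fermat.Agent.BAD.H82.charP_kV A hq hA)
      (@Fermat.Agent.BAD.H73.perfectRing_kV _ _ _ A q ⟨hq⟩
        (Fermat.Agent.BAD.H82.charP_kV A hq hA))
      (redField A (modularFunctionFieldBar (M * q)) (hScM A (M * q))) := by
  rw [Fermat.Agent.S36.NU.H87.FMq_eq A q M hq hqM hA]
  exact @Fermat.Agent.BAD.H73.frobStable_fullC (kV A) _ q ⟨hq⟩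
    (Fermat.Agent.BAD.H82.charP_kV A hq hA)
    (@Fermat.Agent.BAD.H73.perfectRing_kV _ _ _ A q ⟨hq⟩
      (Fermat.Agent.BAD.H82.charP_kV A hq hA)) M

/-- `Fr : t ↦ t ^ q` on the residue field of level `M q`. -/
def FrA : FM A (M * q) →ₐ[kV A] FM A (M * q) :=
  @Fermat.Agent.BAD.H73.FrE (kV A) _ q ⟨hq⟩ (Fermat.Agent.BAD.H82.charP_kV A hq hA)
    (@Fermat.Agent.BAD.H73.perfectRing_kV _ _ _ A q ⟨hq⟩
      (Fermat.Agent.BAD.H82.charP_kV A hq hA)) _ (frobStable_FMq A q M hq hqM hA)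

/-- The coefficientwise Frobenius `φ` on the residue field of level `M q`. -/
def phiA : FM A (M * q) ≃+* FM A (M * q) :=
  @Fermat.Agent.BAD.H73.frobE (kV A) _ q ⟨hq⟩ (Fermat.Agent.BAD.H82.charP_kV A hq hA)
    (@Fermat.Agent.BAD.H73.perfectRing_kV _ _ _ A q ⟨hq⟩
      (Fermat.Agent.BAD.H82.charP_kV A hq hA)) _ (frobStable_FMq A q M hq hqM hA)

theorem coe_FrA (g : FM A (M * q)) :
    ((FrA A q M hq hqM hA g : FM A (M * q)) : LaurentSeries (kV A))
      = qExpand (kV A) q (g : LaurentSeries (kV A)) := rfl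

theorem coe_phiA (g : FM A (M * q)) :
    ((phiA A q M hq hqM hA g : FM A (M * q)) : LaurentSeries (kV A))
      = @Fermat.Agent.BAD.H73.frobL (kV A) _ q ⟨hq⟩ (Fermat.Agent.BAD.H82.charP_kV A hq hA)
          (@Fermat.Agent.BAD.H73.perfectRing_kV _ _ _ A q ⟨hq⟩
            (Fermat.Agent.BAD.H82.charP_kV A hq hA)) (g : LaurentSeries (kV A)) := rfl

/-- The structure `Fr` of the residue field of level `M q` over itself. -/
@[reducible] def algFrA : Algebra (FM A (M * q)) (FM A (M * q)) :=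
  (FrA A q M hq hqM hA).toRingHom.toAlgebra

theorem algebraMap_algFrA (y : FM A (M * q)) :
    @algebraMap (FM A (M * q)) (FM A (M * q)) _ _ (algFrA A q M hq hqM hA) y
      = FrA A q M hq hqM hA y := rfl

include hq hqM hA in
theorem jqModC_mem_FMq :
    jqModC (kV A) ∈ redField A (modularFunctionFieldBar (M * q)) (hScM A (M * q)) := by
  rw [Fermat.Agent.S36.NU.H87.FMq_eq A q M hq hqM hA]
  exact jqModC_mem_full (kV A) M

include hq hqM hA in
theorem isSeparable_FMq :
    ∀ y ∈ redField A (modularFunctionFieldBar (M * q)) (hScM A (M * q)),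
      IsSeparable ↥(IntermediateField.adjoin (kV A)
        ({jqModC (kV A)} : Set (LaurentSeries (kV A)))) y := by
  have : IsAlgClosed (kV A) := isAlgClosed_kV A
  have : Infinite (kV A) := IsAlgClosed.instInfinite
  intro y hy
  rw [Fermat.Agent.S36.NU.H87.FMq_eq A q M hq hqM hA] at hy
  exact isSeparable_fullC_red A (inv_natCast_mem_of_liesOver A M hq hqM hA) (caDataBar M) hy

theorem coeff_jqMq :
    ((⟨jqModC (kV A), jqModC_mem_FMq A q M hq hqM hA⟩ : FM A (M * q)) :
      LaurentSeries (kV A)).coeff (-1) ≠ 0 := by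
  show (jqModC (kV A)).coeff (-1) ≠ 0
  rw [coeff_jqModC_neg_one]
  exact one_ne_zero

/-- **`[C' : C'] = q`** for the structure `Fr`. -/
theorem finrank_algFrA :
    @Module.finrank (FM A (M * q)) (FM A (M * q)) _ _ (algFrA A q M hq hqM hA).toModule = q :=
  @Fermat.Agent.BAD.H73.finrank_of_Fr (kV A) _ q ⟨hq⟩ (Fermat.Agent.BAD.H82.charP_kV A hq hA)
    (@Fermat.Agent.BAD.H73.perfectRing_kV _ _ _ A q ⟨hq⟩
      (Fermat.Agent.BAD.H82.charP_kV A hq hA)) _ (frobStable_FMq A q M hq hqM hA)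
    (FM A (M * q)) _ (algFrA A q M hq hqM hA) (RingEquiv.refl _) (fun _ => rfl)
    ⟨jqModC (kV A), jqModC_mem_FMq A q M hq hqM hA⟩ (-1) (not_dvd_neg_one q hq)
    (coeff_jqMq A q M hq hqM hA) (isSeparable_FMq A q M hq hqM hA)

theorem finite_algFrA :
    @Module.Finite (FM A (M * q)) (FM A (M * q)) _ _ (algFrA A q M hq hqM hA).toModule :=
  @Module.finite_of_finrank_pos (FM A (M * q)) (FM A (M * q)) _ _
    (algFrA A q M hq hqM hA).toModule
    (@Module.Free.of_divisionRing (FM A (M * q)) (FM A (M * q)) _ _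
      (algFrA A q M hq hqM hA).toModule) _
    (by rw [finrank_algFrA A q M hq hqM hA]; exact hq.pos)

/-- **`N x = φ x`** for the structure `Fr`. -/
theorem norm_algFrA (x : FM A (M * q)) :
    @Algebra.norm (FM A (M * q)) (FM A (M * q)) _ _ (algFrA A q M hq hqM hA) x
      = phiA A q M hq hqM hA x :=
  @Fermat.Agent.BAD.H73.norm_of_Fr (kV A) _ q ⟨hq⟩ (Fermat.Agent.BAD.H82.charP_kV A hq hA)
    (@Fermat.Agent.BAD.H73.perfectRing_kV _ _ _ A q ⟨hq⟩
      (Fermat.Agent.BAD.H82.charP_kV A hq hA)) _ (frobStable_FMq A q M hq hqM hA)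
    (FM A (M * q)) _ (algFrA A q M hq hqM hA) (RingEquiv.refl _) (fun _ => rfl)
    (finrank_algFrA A q M hq hqM hA) x

/-- `N x = φ x` in `k((t))`. -/
theorem coe_norm_algFrA (x : FM A (M * q)) :
    ((@Algebra.norm (FM A (M * q)) (FM A (M * q)) _ _ (algFrA A q M hq hqM hA) x :
        FM A (M * q)) : LaurentSeries (kV A))
      = @Fermat.Agent.BAD.H73.frobL (kV A) _ q ⟨hq⟩ (Fermat.Agent.BAD.H82.charP_kV A hq hA)
          (@Fermat.Agent.BAD.H73.perfectRing_kV _ _ _ A q ⟨hq⟩
            (Fermat.Agent.BAD.H82.charP_kV A hq hA)) (x : LaurentSeries (kV A)) := by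
  rw [norm_algFrA A q M hq hqM hA x]
  rfl

/-! ### The residue map of `V02o` into the residue field of level `M q` -/

include hq hqM hA in
theorem s02_memA (x : ↥(V02o A q M B k hB)) :
    s02 A q M B k hB x ∈ redField A (modularFunctionFieldBar (M * q)) (hScM A (M * q)) := by
  rw [Fermat.Agent.S36.NU.H87.FMq_eq A q M hq hqM hA]
  exact s02_mem A q M B k hB hq hqM hA x

/-- The residue map of `V02o`, into the residue field of level `M q`. -/
def r02A : ↥(V02o A q M B k hB) →+* FM A (M * q) where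
  toFun x := ⟨s02 A q M B k hB x, s02_memA A q M B k hB hq hqM hA x⟩
  map_one' := Subtype.ext (map_one (s02 A q M B k hB))
  map_mul' x y := Subtype.ext (map_mul (s02 A q M B k hB) x y)
  map_zero' := Subtype.ext (map_zero (s02 A q M B k hB))
  map_add' x y := Subtype.ext (map_add (s02 A q M B k hB) x y)

theorem coe_r02A (x : ↥(V02o A q M B k hB)) :
    ((r02A A q M B k hB hq hqM hA x : FM A (M * q)) : LaurentSeries (kV A))
      = s02 A q M B k hB x := rfl

theorem r02A_eq_zero_of_not_isUnit (x : ↥(V02o A q M B k hB)) (hx : ¬ IsUnit x) :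
    r02A A q M B k hB hq hqM hA x = 0 := by
  apply Subtype.ext
  rw [coe_r02A, s02_eq_zero_of_not_isUnit A q M B k hB x hx]
  rfl

include hq hqM hA in
theorem r02A_surjective : Function.Surjective (r02A A q M B k hB hq hqM hA) := by
  intro y
  have hy : (y : LaurentSeries (kV A)) ∈ redField A (modularFunctionFieldBar M) (hScM A M) := by
    rw [FM_eq A q M hq hqM hA, ← Fermat.Agent.S36.NU.H87.FMq_eq A q M hq hqM hA]
    exact y.2
  obtain ⟨x, hx⟩ := r02_surjective A q M B k hB hq hqM hA ⟨_, hy⟩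
  refine ⟨x, Subtype.ext ?_⟩
  rw [coe_r02A, ← coe_r02 A q M B k hB hq hqM hA x, hx]

end Res

end Fermat.Agent.S36.NU.H69

end
end
-- ==== END Fermat.Agent.S36.NU.H69_NrRes

-- ==== BEGIN Fermat.Agent.S36.NU.H73_CuspIntB
section

/-!
# S36 / NU-B, leaf CUSPS, slice CUSP-INT (helper73): the families `E11∞` and `x11∞`

Level `N = M q²`.  With helper82's families `Y11`, `Yx` of conjugates (over `ℂ`):

* `ord_Yx` : the conjugates of `(j″ - j) eps1 / eps2` have `t`-order `≥ - (2 q - 1) N`;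
* `Y11_q1`, `Yx_q1` : the two families at the identity coset;
* `cm_psi_E11`, `cm_psi_x11` : the expansions of `E11` and of `(j″ - j) E11` are `q¹² ·` the
  members at the identity coset;
* `isIntegral_E11oo`, `isIntegral_x11oo` : `E11∞` and `x11∞` are integral over `ℚ̄[1/j]`.
-/

set_option autoImplicit false
set_option linter.unusedSectionVars false
set_option linter.unusedVariables false
set_option synthInstance.maxHeartbeats 400000
set_option maxHeartbeats 1000000
set_option linter.style.haveILetI false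

open UpperHalfPlane ModularForm ModularCurve Function
open scoped MatrixGroups ModularForm Manifold

noncomputable section

namespace Fermat.Agent.S36.NU.H73

open Fermat.Agent.S23.H22 (G0 Q toSL piPerm q1 E12)
open Fermat.Agent.S28 Fermat.Agent.S28.H30
open Fermat.Agent.S36.NU.H82 (Dc Ec Y11 Yx ordAt_cases ordAt_one_eq dvd_lvl_q dvd_lvl_qq
  DeltaC Dc_q1 Ec_q1 Dc_q1_ne_zero qExpand_hahnC DeltaC_ne_zero qExpand_DeltaC_ne_zero)

section OrdYx

variable (q M : ℕ) [NeZero (M * q * q)]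

/-- **The pole orders of the family `Yx`**: `ord ≥ - (2 q - 1) N`. -/
theorem ord_Yx (hq : q.Prime) (c : Q (M * q * q)) (n : ℤ)
    (hn : n < -(((2 * q - 1 : ℕ) : ℤ) * ((M * q * q : ℕ) : ℤ))) : (Yx q M c).coeff n = 0 := by
  obtain ⟨γ, rfl⟩ := exists_rep (M * q * q) c
  have hD1 := uls_fam_Delta (M * q * q) (one_dvd _) γ
  have hDq := uls_fam_Delta (M * q * q) (dvd_lvl_q q M) γ
  have hDqq := uls_fam_Delta (M * q * q) (dvd_lvl_qq q M) γ
  have hE1 := uls_fam_of_intQ (M * q * q) (one_dvd _) E12 intQ_E12 qExpansion_E12_coeff_zero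
    (⟦toSL γ⟧ : Q (M * q * q))
  have hEqq := uls_fam_of_intQ (M * q * q) (dvd_lvl_qq q M) E12 intQ_E12
    qExpansion_E12_coeff_zero (⟦toSL γ⟧ : Q (M * q * q))
  have hA := hEqq.mul hD1
  have hB := hE1.mul hDqq
  have hden := (hDq.pow 2).inv
  rw [ordAt_one_eq] at hA
  rw [Yx]
  by_cases h0 : Ec q M (q * q) (⟦toSL γ⟧ : Q (M * q * q)) * Dc q M 1 (⟦toSL γ⟧ : Q (M * q * q))
      - Ec q M 1 (⟦toSL γ⟧ : Q (M * q * q)) * Dc q M (q * q) (⟦toSL γ⟧ : Q (M * q * q)) = 0
  · rw [h0, zero_div, HahnSeries.coeff_zero]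
  · have hmin := HahnSeries.min_order_le_order_add (Γ := ℤ)
      (x := Ec q M (q * q) (⟦toSL γ⟧ : Q (M * q * q)) * Dc q M 1 (⟦toSL γ⟧ : Q (M * q * q)))
      (y := -(Ec q M 1 (⟦toSL γ⟧ : Q (M * q * q)) * Dc q M (q * q) (⟦toSL γ⟧ : Q (M * q * q))))
      (by rwa [← sub_eq_add_neg])
    rw [HahnSeries.order_neg, hA.ord, hB.ord, ← sub_eq_add_neg] at hmin
    apply HahnSeries.coeff_eq_zero_of_lt_order
    rw [div_eq_mul_inv, HahnSeries.order_mul h0 hden.ne, hden.ord]
    refine lt_of_lt_of_le hn ?_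
    have hq1 : (1 : ℤ) ≤ q := by exact_mod_cast hq.one_le
    have hM0 : (0 : ℤ) ≤ M := by exact_mod_cast Nat.zero_le M
    have hc : ((2 * q - 1 : ℕ) : ℤ) = 2 * (q : ℤ) - 1 := by
      have : 1 ≤ 2 * q := by have := hq.one_le; omega
      rw [Nat.cast_sub this]
      push_cast
      ring
    have hMq : (0 : ℤ) ≤ M * q := mul_nonneg hM0 (le_trans zero_le_one hq1)
    have hMqq : (0 : ℤ) ≤ M * q * q := mul_nonneg hMq (le_trans zero_le_one hq1)
    have hq0 : (0 : ℤ) ≤ q := le_trans zero_le_one hq1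
    have hq10 : (0 : ℤ) ≤ (q : ℤ) - 1 := sub_nonneg.2 hq1
    rcases ordAt_cases q M hq ((γ⁻¹ : SL(2, ℤ)) 1 0) with ⟨h1, h2⟩ | ⟨h1, h2⟩ | ⟨h1, h2⟩
    · rw [h2] at hmin
      rw [h1, hc]
      push_cast at hmin ⊢
      have hb1 : (M : ℤ) ≤ 0 + (M : ℤ) * q * q := by
        nlinarith [mul_nonneg hMq hq10, mul_nonneg hM0 hq10]
      have hb2 : (M : ℤ) ≤ 0 + (M : ℤ) := by linarith
      have hL := le_trans (le_min hb1 hb2) hmin
      nlinarith [mul_nonneg hM0 hq10, mul_nonneg (mul_nonneg hM0 hq10) hq0,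
        mul_nonneg (mul_nonneg (mul_nonneg hM0 hq10) hq0) hq0,
        mul_nonneg (mul_nonneg hM0 hq10) hq10,
        mul_nonneg (mul_nonneg (mul_nonneg hM0 hq10) hq10) hq0]
    · rw [h2] at hmin
      rw [h1, hc]
      push_cast at hmin ⊢
      have hb1 : (M : ℤ) * q * q ≤ 0 + (M : ℤ) * q * q := by linarith
      have hL := le_trans (le_min hb1 hb1) hmin
      linarith
    · rw [h2] at hmin
      rw [h1, hc]
      push_cast at hmin ⊢
      have hb1 : (M : ℤ) * q * q ≤ 0 + (M : ℤ) * q * q := by linarith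
      have hb2 : (M : ℤ) * q * q ≤ 0 + (q : ℤ) * q * ((M : ℤ) * q * q) := by
        nlinarith [mul_nonneg hMqq hq10, mul_nonneg (mul_nonneg hMqq hq10) hq0,
          mul_nonneg hMqq hq0]
      have hL := le_trans (le_min hb1 hb2) hmin
      linarith

end OrdYx

section AtQ1

open Fermat.Agent.S24 (Kbar FN jF iotaC)
open Fermat.Agent.S15.H30 (psi psi_apply psi_injective psi_jF)
open Fermat.Agent.S36.NU.H82 (UC UC_eq coeffMap_psi_eps1 coeffMap_psi_eps2
  hahnC_natCast_pow_ne_zero coeffMap_iotaC_coeffEmb isIntegral_of_family sym_Y11 sym_Yx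
  coeff_Y11 coeff_Yx ord_Y11 E11oo x11oo j2o uoo)
open Fermat.Agent.S36.NU.H99 (E11 eps1 eps2 cQ E11o)

variable (q M : ℕ) [NeZero q] [NeZero (M * q * q)]

/-- **The family `Y11` at the identity coset.** -/
theorem Y11_q1 :
    qExpand ℂ (M * q * q) (UC q) * (qExpand ℂ (M * q * q) (qExpand ℂ q (UC q)))⁻¹
      = Y11 q M (q1 : Q (M * q * q)) := by
  haveI : NeZero (q * q) := ⟨mul_ne_zero (NeZero.ne q) (NeZero.ne q)⟩
  have ha : qExpand ℂ (M * q * q) DeltaC ≠ 0 := by
    intro h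
    exact DeltaC_ne_zero (qExpand_injective (M * q * q) (by rw [h, map_zero]))
  have hb : qExpand ℂ (M * q * q) (qExpand ℂ q DeltaC) ≠ 0 := by
    intro h
    exact qExpand_DeltaC_ne_zero q (qExpand_injective (M * q * q) (by rw [h, map_zero]))
  have hc' : qExpand ℂ (M * q * q) (qExpand ℂ (q * q) DeltaC) ≠ 0 := by
    intro h
    exact qExpand_DeltaC_ne_zero (q * q) (qExpand_injective (M * q * q) (by rw [h, map_zero]))
  have hc := hahnC_natCast_pow_ne_zero q 11
  have e1 : (HahnSeries.C (((q * q : ℕ) : ℂ) ^ 11) : LaurentSeries ℂ)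
      = HahnSeries.C ((q : ℂ) ^ 11) * HahnSeries.C ((q : ℂ) ^ 11) := by
    rw [← map_mul]
    congr 1
    push_cast
    ring
  have e0 : (HahnSeries.C (((1 : ℕ) : ℂ) ^ 11) : LaurentSeries ℂ) = 1 := by
    rw [Nat.cast_one, one_pow, map_one]
  have e2 : qExpand ℂ q (qExpand ℂ q DeltaC) = qExpand ℂ (q * q) DeltaC :=
    qExpand_qExpand (R := ℂ) (N := q) q DeltaC
  have e3 : qExpand ℂ 1 DeltaC = DeltaC := qExpand_one_apply DeltaC
  rw [Y11, Dc_q1 q M 1 (one_dvd _), Dc_q1 q M q (dvd_lvl_q q M),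
    Dc_q1 q M (q * q) (dvd_lvl_qq q M), e0, e1, e3, UC_eq]
  simp only [map_mul, map_inv₀]
  rw [e2]
  generalize qExpand ℂ (M * q * q) DeltaC = a at ha ⊢
  generalize qExpand ℂ (M * q * q) (qExpand ℂ q DeltaC) = b at hb ⊢
  generalize qExpand ℂ (M * q * q) (qExpand ℂ (q * q) DeltaC) = c at hc' ⊢
  generalize (HahnSeries.C ((q : ℂ) ^ 11) : LaurentSeries ℂ) = κ at hc ⊢
  field_simp

/-- **The family `Yx` at the identity coset.** -/
theorem Yx_q1 :
    (iotaN (M * q * q) (qExpand ℚ (q * q) jq) - iotaN (M * q * q) jq)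
        * Y11 q M (q1 : Q (M * q * q))
      = Yx q M (q1 : Q (M * q * q)) := by
  haveI : NeZero (q * q) := ⟨mul_ne_zero (NeZero.ne q) (NeZero.ne q)⟩
  have e3 : qExpand ℚ 1 jq = jq := qExpand_one_apply jq
  rw [Yx, Y11, Ec_q1 q M 1 (one_dvd _), Ec_q1 q M (q * q) (dvd_lvl_qq q M), e3]
  ring

end AtQ1

section Int

open Fermat.Agent.S24 (Kbar FN iotaC)
open Fermat.Agent.S15.H30 (psi psi_apply psi_injective psi_jF)
open Fermat.Agent.S36.NU.H82 (UC UC_eq coeffMap_psi_eps1 coeffMap_psi_eps2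
  hahnC_natCast_pow_ne_zero coeffMap_iotaC_coeffEmb isIntegral_of_family sym_Y11 sym_Yx
  coeff_Y11 coeff_Yx ord_Y11 E11oo x11oo j2o uoo)
open Fermat.Agent.S36.NU.H99 (E11 eps1 eps2 cQ E11o)

variable (A : ValuationSubring Kbar)
variable (q M : ℕ) [NeZero M] [NeZero q] [NeZero (M * q)] [NeZero (M * q * q)]

theorem cm_psi_cQ :
    coeffMap iotaC (psi (M * q * q) (cQ q M)) = HahnSeries.C ((q : ℂ)) := by
  rw [cQ, AlgHom.commutes, LaurentSeries.algebraMap_apply, Fermat.Agent.RED.H30.coeffMap_C,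
    map_natCast]

/-- **The expansion of `E11 = q¹² eps1 / eps2`** is `q¹² ·` the member of `Y11` at the identity
coset. -/
theorem cm_psi_E11 :
    coeffMap iotaC (psi (M * q * q) (E11 q M))
      = HahnSeries.C (iotaC ((q : Kbar) ^ 12)) * Y11 q M (q1 : Q (M * q * q)) := by
  have e : iotaC ((q : Kbar) ^ 12) = (q : ℂ) ^ 12 := by rw [map_pow, map_natCast]
  rw [e, map_pow HahnSeries.C, ← Y11_q1, E11, map_mul, map_mul, map_mul, map_mul, map_inv₀,
    map_inv₀, coeffMap_psi_eps1, coeffMap_psi_eps2, map_pow, map_pow, cm_psi_cQ, mul_assoc]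

theorem cm_psi_jF :
    coeffMap iotaC (psi (M * q * q) (Fermat.Agent.S24.jF (M * q * q)))
      = iotaN (M * q * q) jq := by
  rw [psi_jF]
  exact Fermat.Agent.RED.H30.coeffMap_qExpand_jqModC_one iotaC (M * q * q)

theorem cm_psi_j2 :
    coeffMap iotaC (psi (M * q * q) ((j2o A q M : ↥(Fermat.Agent.S36.NU.H23.L0 A (M * q * q))) :
        FN (M * q * q)))
      = iotaN (M * q * q) (qExpand ℚ (q * q) jq) := by
  rw [psi_apply]
  show coeffMap iotaC (qExpand Kbar (M * q * q) (coeffEmb Kbar (qExpand ℚ (q * q) jq))) = _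
  rw [ModularCurve.coeffMap_qExpand, coeffMap_iotaC_coeffEmb]
  rfl

/-- **The expansion of `(j″ - j) E11`** is `q¹² ·` the member of `Yx` at the identity coset. -/
theorem cm_psi_x11 :
    coeffMap iotaC (psi (M * q * q)
        ((((j2o A q M : ↥(Fermat.Agent.S36.NU.H23.L0 A (M * q * q))) : FN (M * q * q))
          - Fermat.Agent.S24.jF (M * q * q)) * E11 q M))
      = HahnSeries.C (iotaC ((q : Kbar) ^ 12)) * Yx q M (q1 : Q (M * q * q)) := by
  rw [map_mul, map_mul, map_sub, map_sub, cm_psi_j2, cm_psi_jF, cm_psi_E11, ← Yx_q1]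
  ring

theorem coe_E11oo :
    ((E11oo A q M : ↥(Fermat.Agent.S36.NU.H23.L0 A (M * q * q))) : FN (M * q * q))
      = E11 q M * (Fermat.Agent.S24.jF (M * q * q))⁻¹ ^ (2 * (q - 1)) := rfl

theorem coe_x11oo (hq : q.Prime) :
    ((x11oo A q M : ↥(Fermat.Agent.S36.NU.H23.L0 A (M * q * q))) : FN (M * q * q))
      = ((((j2o A q M : ↥(Fermat.Agent.S36.NU.H23.L0 A (M * q * q))) : FN (M * q * q))
          - Fermat.Agent.S24.jF (M * q * q)) * E11 q M)
        * (Fermat.Agent.S24.jF (M * q * q))⁻¹ ^ (2 * q - 1) := by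
  have hj : Fermat.Agent.S24.jF (M * q * q) ≠ 0 := fun h =>
    Fermat.Agent.S36.NU.H88.j0_ne_zero A (M * q * q) (Subtype.ext h)
  have e : 2 * q - 1 = 2 * (q - 1) + 1 := by
    have := hq.one_le
    omega
  show (((j2o A q M : ↥(Fermat.Agent.S36.NU.H23.L0 A (M * q * q))) : FN (M * q * q))
      * (Fermat.Agent.S24.jF (M * q * q))⁻¹ - 1)
      * (E11 q M * (Fermat.Agent.S24.jF (M * q * q))⁻¹ ^ (2 * (q - 1))) = _
  rw [e, pow_succ]
  generalize ((j2o A q M : ↥(Fermat.Agent.S36.NU.H23.L0 A (M * q * q))) : FN (M * q * q)) = j2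
  generalize E11 q M = E
  generalize (Fermat.Agent.S24.jF (M * q * q))⁻¹ ^ (2 * (q - 1)) = P
  field_simp

/-- **`E11∞` is integral over `ℚ̄[1/j]`.** -/
theorem isIntegral_E11oo (hq : q.Prime) :
    IsIntegral ↥(Algebra.adjoin Kbar
        ({(Fermat.Agent.S24.jF (M * q * q))⁻¹} : Set (FN (M * q * q))))
      ((E11oo A q M : ↥(Fermat.Agent.S36.NU.H23.L0 A (M * q * q))) : FN (M * q * q)) := by
  rw [coe_E11oo]
  exact isIntegral_of_family (Y11 q M) (sym_Y11 q M) (coeff_Y11 q M) (2 * (q - 1))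
    (ord_Y11 q M hq) (E11 q M) ((q : Kbar) ^ 12) (cm_psi_E11 q M)

/-- **`x11∞` is integral over `ℚ̄[1/j]`.** -/
theorem isIntegral_x11oo (hq : q.Prime) :
    IsIntegral ↥(Algebra.adjoin Kbar
        ({(Fermat.Agent.S24.jF (M * q * q))⁻¹} : Set (FN (M * q * q))))
      ((x11oo A q M : ↥(Fermat.Agent.S36.NU.H23.L0 A (M * q * q))) : FN (M * q * q)) := by
  rw [coe_x11oo A q M hq]
  exact isIntegral_of_family (Yx q M) (sym_Yx q M) (coeff_Yx q M) (2 * q - 1)
    (ord_Yx q M hq) _ ((q : Kbar) ^ 12) (cm_psi_x11 A q M)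

end Int

end Fermat.Agent.S36.NU.H73

end
end
-- ==== END Fermat.Agent.S36.NU.H73_CuspIntB

-- ==== BEGIN Fermat.Agent.S36.NU.H74_FinHyps
section
attribute [local instance 10000] SubalgebraClass.toAlgebra
attribute [local instance 10000] HahnSeries.powerSeriesAlgebra

/-!
# S36 / NU-B, leaf FIN-HYPS (helper74): the small hypotheses of `H24.fin_local`

Setting of helper23's `totM` (level `N = M q²`, `q ∤ M` tame, `C = FM A M`) and helper88's
`chartOf` (`R = Rur A`, `F = L0 A N`, `j = j0 A N`).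

* `rootClosed_of_isAlgClosed`, `rootClosed_kV` : `hk₁`, `hk₂` (constants closed under roots);
* `exists_inv_natCast_Rur` : `hnn` (`n` prime to `q` is invertible in `Rur A`);
  `natCast_ne_zero_Rur`, `not_isUnit_natCast_Rur` : `hq0`, `hqu`;
* `hasPrincipalDivisors_FN` : `hP`;
* `ssM` : the set of supersingular points of the curve of level `M` mod `q`
  (`j~` regular, the reduction of `Δ(z)/Δ(qz)` vanishes), `ssM_nonempty` : `hSS`;
* `inChart_of_regAt` (abstract), `inChart_ssM` : `hSS0` (the supersingular points are points of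
  the chart `B = intSub R j`).
-/

set_option autoImplicit false
set_option synthInstance.maxHeartbeats 400000
set_option maxHeartbeats 1000000
set_option linter.style.haveILetI false
set_option linter.unusedSectionVars false

noncomputable section

open ModularCurve AlgebraicCurve Polynomial

namespace Fermat.Agent.S36.NU.H74

open Fermat.Agent.S24 Fermat.Agent.BAD.H88 Fermat.Agent.S28 Fermat.Agent.S28.H73
  Fermat.Agent.RED.H73 Fermat.Agent.RED.H17 Fermat.Agent.S36.NU.H88 Fermat.Agent.S36.NU.H23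
  Fermat.Agent.S36.NU.H16 Fermat.Agent.S36.NU.H24 Fermat.Agent.S36.NU.H65
  Fermat.Agent.S36.NU.H79 Fermat.Agent.S36.NU.H41 Fermat.Agent.BAD Fermat.Agent.RED

/-! ## Generic lemmas -/

section Generic

/-- Over an algebraically closed field of constants, an integral element of a field extension is
a constant. -/
theorem exists_algebraMap_eq_of_isIntegral (k F : Type*) [Field k] [Field F] [Algebra k F]
    [IsAlgClosed k] {r : F} (hr : IsIntegral k r) : ∃ c : k, r = algebraMap k F c := by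
  have h : (minpoly k r).degree = 1 :=
    IsAlgClosed.degree_eq_one_of_irreducible k (minpoly.irreducible hr)
  have hq : (minpoly k r).leadingCoeff = 1 := minpoly.monic hr
  have : aeval r (minpoly k r) = 0 := minpoly.aeval k r
  rw [eq_X_add_C_of_degree_eq_one h, hq, C_1, one_mul, aeval_add, aeval_X, aeval_C,
    add_eq_zero_iff_eq_neg] at this
  exact ⟨-(minpoly k r).coeff 0, by rw [map_neg]; exact this⟩

/-- **`hk₁`, `hk₂`**: over an algebraically closed field of constants, constants are closed under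
`n`-th roots (`n > 0`) in any field extension. -/
theorem rootClosed_of_isAlgClosed (k F : Type*) [Field k] [Field F] [Algebra k F]
    [IsAlgClosed k] {n : ℕ} (hn : 0 < n) : RootClosed k F n := by
  rintro r ⟨c, hc⟩
  refine exists_algebraMap_eq_of_isIntegral k F ⟨X ^ n - C c, monic_X_pow_sub_C c hn.ne', ?_⟩
  simp [hc]

variable {R K F L k ι Z : Type*} {κ : ι → Type*} [CommRing R] [Field K] [Field F] [Field L]
  [Algebra K L] [Algebra F L] [Algebra R F] [Field k] [Fintype ι] [∀ i, Field (κ i)]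
  [∀ i, Algebra k (κ i)]

/-- An element integral over `R[j]` is regular at a place at which the constants of `R` and `j`
are regular. -/
theorem regAt_of_mem_intSub (P : Place K L) (j : F)
    (hR : ∀ r : R, RegAt P (algebraMap F L (algebraMap R F r)))
    (hj : RegAt P (algebraMap F L j)) {β : F} (hβ : β ∈ intSub R j) :
    RegAt P (algebraMap F L β) := by
  rw [regAt_iff_mem]
  have h := Fermat.Agent.S36.NU.H17.mem_of_isIntegral_adjoin (R := R) (j := j)
    (P.toValuationSubring.comap (algebraMap F L))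
    (fun r => (regAt_iff_mem P _).1 (hR r)) ((regAt_iff_mem P _).1 hj) (f := β) hβ
  exact h

/-- **`hSS0`, abstract form**: a point `z` over which the constants and `j` are regular is a
point of the chart `B = intSub R j`. -/
theorem inChart_of_regAt (C : Chart R F k ι κ) (T : TotN K F L k ι Z κ) (j : F)
    (hB : C.B = intSub R j) (z : Z)
    (hR : ∀ (r : R) (P : Place K L), T.ρ P = z → RegAt P (algebraMap F L (algebraMap R F r)))
    (hj : ∀ P : Place K L, T.ρ P = z → RegAt P (algebraMap F L j)) : InChart C T z := by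
  intro β P hP
  refine regAt_of_mem_intSub P j (fun r => hR r P hP) (hj P hP) ?_
  rw [← hB]
  exact β.2

end Generic

/-! ## The modular instance -/

section Modular

variable (A : ValuationSubring Kbar) (q M : ℕ) (B k : ℤ) (hB : B * M + k * q = 1) (hq : q.Prime)
  [NeZero M] [NeZero q] [NeZero (M * q)] [NeZero (M * q * q)] (hqM : ¬ q ∣ M)
  (hA : A.LiesOverPrime q) (ht : H91.TameAt M q)

/-- **`hk₁`, `hk₂`** for the residue field `k = kV A`. -/
theorem rootClosed_kV (F : Type*) [Field F] [Algebra (kV A) F] {n : ℕ} (hn : 0 < n) :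
    RootClosed (kV A) F n :=
  haveI : IsAlgClosed (kV A) := isAlgClosed_kV A
  rootClosed_of_isAlgClosed (kV A) F hn

/-- **`hP`**: the function field of level `N` over `ℚ̄` has principal divisors. -/
theorem hasPrincipalDivisors_FN (N : ℕ) [NeZero N] : HasPrincipalDivisors Kbar (FN N) :=
  (RED.H17.ffHyp_of_isFF _ _ (H95.stmt_HKA_isFF N)).principal

include hq hA in
/-- An integer prime to `q` is a unit of `A`. -/
theorem valuation_natCast_eq_one {n : ℕ} (hn : Nat.Coprime n q) :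
    A.valuation ((n : ℕ) : Kbar) = 1 := by
  have h : ¬ (q : ℤ) ∣ (n : ℤ) := by
    intro h
    have h1 : q ∣ n := Int.natCast_dvd_natCast.1 h
    have h2 : q ∣ 1 := by
      have := Nat.dvd_gcd h1 (dvd_refl q)
      rwa [hn] at this
    exact hq.one_lt.ne' (Nat.dvd_one.1 h2)
  have := Fermat.Agent.S05.H15.valuation_intCast_eq_one_of_not_dvd (A := A) hq hA h
  simpa using this

include hq hA in
/-- **`hnn`**: an integer prime to `q` is invertible in `Rur A`. -/
theorem exists_inv_natCast_Rur {n : ℕ} (hn : Nat.Coprime n q) :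
    ∃ n' : ↥(Rur A), ((n : ℕ) : ↥(Rur A)) * n' = 1 := by
  have hu : IsUnit (((n : ℕ) : ↥(Rur A))) := by
    rw [isUnit_Rur_iff]
    have e : (((((n : ℕ) : ↥(Rur A)) : ↥(Kur A))) : Kbar) = ((n : ℕ) : Kbar) := by
      push_cast
      rfl
    rw [e]
    exact valuation_natCast_eq_one A q hq hA hn
  obtain ⟨u, hu'⟩ := hu
  exact ⟨((u⁻¹ : (↥(Rur A))ˣ) : ↥(Rur A)), by rw [← hu']; exact u.mul_inv⟩

/-- **`hq0`**: `q ≠ 0` in `Rur A`. -/
theorem natCast_ne_zero_Rur : ((q : ℕ) : ↥(Rur A)) ≠ 0 := by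
  intro h
  have e : (((((q : ℕ) : ↥(Rur A)) : ↥(Kur A))) : Kbar) = ((q : ℕ) : Kbar) := by
    push_cast
    rfl
  rw [h] at e
  have h0 : ((q : ℕ) : Kbar) = 0 := by
    rw [← e]
    rfl
  exact NeZero.ne q (Nat.cast_injective (R := Kbar) (by rw [h0, Nat.cast_zero]))

include hA in
/-- **`hqu`**: `q` is not a unit of `Rur A`. -/
theorem not_isUnit_natCast_Rur : ¬ IsUnit (((q : ℕ) : ↥(Rur A))) := by
  rw [isUnit_Rur_iff]
  have e : (((((q : ℕ) : ↥(Rur A)) : ↥(Kur A))) : Kbar) = ((q : ℕ) : Kbar) := by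
    push_cast
    rfl
  rw [e]
  exact (val_natCast_lt_one A q hA).ne

/-- **The supersingular points** of the curve of level `M` mod `q`: the places of the reduced
function field of level `M` at which `j~` is regular and the reduction of `Δ(z)/Δ(qz)`
vanishes (the hypotheses of `H91.isNode_modT`, the conclusion of `H30.num_final_tame`). -/
def ssM : Set (Place (kV A) (FM A M)) :=
  {z | 0 ≤ z.ord (Fermat.Agent.BAD.H91.jRed A M) ∧
    ∀ y : ↥(Fermat.Agent.BAD.H91.redM A M), (y : LaurentSeries (kV A))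
      = ((gaussRes A (M * q) ⟨Fermat.Agent.BAD.H30.unitF (M * q) q (Dvd.intro_left M rfl),
          Fermat.Agent.BAD.H30.unitF_mem_gaussV A (M * q) q (Dvd.intro_left M rfl)⟩ :
            ↥(redField A (FNbar (M * q)) (hasScale_laurentBaseChange A (M * q)))) :
            LaurentSeries (kV A)) → 0 < z.ord y}

theorem mem_ssM_iff (z : Place (kV A) (FM A M)) :
    z ∈ ssM A q M ↔ 0 ≤ z.ord (Fermat.Agent.BAD.H91.jRed A M) ∧
    ∀ y : ↥(Fermat.Agent.BAD.H91.redM A M), (y : LaurentSeries (kV A))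
      = ((gaussRes A (M * q) ⟨Fermat.Agent.BAD.H30.unitF (M * q) q (Dvd.intro_left M rfl),
          Fermat.Agent.BAD.H30.unitF_mem_gaussV A (M * q) q (Dvd.intro_left M rfl)⟩ :
            ↥(redField A (FNbar (M * q)) (hasScale_laurentBaseChange A (M * q)))) :
            LaurentSeries (kV A)) → 0 < z.ord y := Iff.rfl

include hq hqM hA ht in
/-- **`hSS`**: there is a supersingular point. -/
theorem ssM_nonempty : (ssM A q M).Nonempty := by
  obtain ⟨Z, ⟨z, hz⟩, hZc, hZo, -⟩ :=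
    Fermat.Agent.BAD.H30.num_final_tame M q hq ht hqM A hA (Dvd.intro_left M rfl)
  exact ⟨z, hZc z hz, hZo z hz⟩

/-- The two versions of `j` in `F_N` agree. -/
theorem algebraMap_jF :
    letI := algF (hleMN q M)
    algebraMap (FN M) (FN (M * q * q)) (RED.H73.jF (L := Kbar) M)
      = Fermat.Agent.S24.jF (M * q * q) := by
  apply Subtype.ext
  show jqModC Kbar = coeffEmb Kbar jq
  have h := RED.H73.coeffEmb_qExpand_jq (L := Kbar) 1
  rw [qExpand_one_apply, qExpand_one_apply] at h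
  exact h.symm

include hq hqM hA ht in
/-- `j` is regular over the supersingular points. -/
theorem regAt_jF_of_ssM {z : Place (kV A) (FM A M)} (hz : z ∈ ssM A q M)
    (P : Place Kbar (FN (M * q * q))) (hP : rhoM A q M hq hqM hA ht P = z) :
    RegAt P (Fermat.Agent.S24.jF (M * q * q)) := by
  letI := algF (hleMN q M)
  haveI := tower_FNU q M
  haveI := finite_FNU' q M
  have h0 : 0 ≤ ((H91.seM hq hqM ht hA).r (P.restrict (FN M))).ord
      (Fermat.Agent.BAD.H91.jRed A M) := by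
    have e : (H91.seM hq hqM ht hA).r (P.restrict (FN M)) = z := hP
    rw [e]
    exact hz.1
  have h1 : 0 ≤ (P.restrict (FN M)).ord (RED.H73.jF (L := Kbar) M) :=
    H91.ord_jF_nonneg_of_rM hq hqM ht hA _ h0
  have h2 : 0 ≤ P.ord (algebraMap (FN M) (FN (M * q * q)) (RED.H73.jF (L := Kbar) M)) := by
    rw [P.ord_restrict]
    exact mul_nonneg (Int.natCast_nonneg _) h1
  rw [algebraMap_jF] at h2
  exact regAt_of_ord_nonneg h2

include hq hqM hA ht in
/-- **`hSS0`**: the supersingular points are points of every chart of `totM` with coordinate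
ring `B = intSub (Rur A) j`. -/
theorem inChart_ssM :
    letI := algkM A M
    ∀ (C : Chart ↥(Rur A) ↥(L0 A (M * q * q)) (kV A) (Fin 3) (kap3 (FM A M) (FM A M))),
      C.B = intSub ↥(Rur A) (j0 A (M * q * q)) → ∀ z ∈ ssM A q M,
        InChart C (totM A q M B k hB hq hqM hA ht) z := by
  letI := algkM A M
  intro C hC z hz
  refine inChart_of_regAt C (totM A q M B k hB hq hqM hA ht) (j0 A (M * q * q)) hC z ?_ ?_
  · intro r P _
    rw [regAt_iff_mem]
    exact P.algebraMap_mem' _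
  · intro P hP
    exact regAt_jF_of_ssM A q M hq hqM hA ht hz P hP

end Modular

end Fermat.Agent.S36.NU.H74

end
end
-- ==== END Fermat.Agent.S36.NU.H74_FinHyps
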