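-- GENERATED (merged mirror, NOTES/tools/trim/merge3_helper67.py): 5 modules of the originals, bodies verbatim.
import Fermat.Agent.Zm.S36_L12_001
import Fermat.Agent.Zm.S36_L12_000
import Fermat.Agent.Zm.S36_L11_001
import Fermat.Agent.Zm.S36_L09_001
import Fermat.Agent.Zm.S36_L03_002
import Fermat.Agent.Zm.S36_L04_000
import Fermat.Agent.Zm.S36_L05_002
import Fermat.Agent.Zm.S36_L11_000
import Fermat.Agent.Zm.S35_L21_000

-- ==== BEGIN Fermat.Agent.S36.NU.H74_HssInt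
section

/-!
# S36 / NU-B, leaf HSS-ASM (helper74): horizontal integrality of the coordinates `u`, `u''`

`f ∈ F_M` a modular unit `Δ(t)/Δ(t^d)`, `d ∣ M`, or a root of one (`f ^ n = Δ(t)/Δ(t^d)`), with
integral expansion `u₀`; `u = incAA f = f(τ)`, `u'' = incBB f = f(q² τ)` in `F_{M q²}`.

* `isUnitOff_of_pow` : roots of units off the cusps are units off the cusps;
* `incAA_unitF`, `incBB_unitF_mul` : `u`, `u''` for `f = unitF M d` as quotients of the units
  `unitF (M q²) _`;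
* `isUnitOff_incAA_of_pow`, `isUnitOff_incBB_of_pow` : `u`, `u''` have neither zero nor pole off
  the cusps;
* `isIntegral_uo_of_pow`, `isIntegral_u2o_of_pow`, `isIntegral_uo_unitF`, `isIntegral_u2o_unitF` :
  **`u`, `u''` are integral over `K^ur[j]`** (the hypotheses `huI`, `hu2I` of `H16.hss_gen`).
-/

set_option autoImplicit false
set_option synthInstance.maxHeartbeats 400000
set_option maxHeartbeats 1000000
set_option linter.style.haveILetI false
set_option linter.unusedSectionVars false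

noncomputable section

open ModularCurve AlgebraicCurve IntermediateField

namespace Fermat.Agent.S36.NU.H74

open Fermat.Agent.S24 Fermat.Agent.BAD.H88 Fermat.Agent.BAD.H30 Fermat.Agent.BAD.H21
open Fermat.Agent.S28 Fermat.Agent.S28.H73 Fermat.Agent.RED.H73 Fermat.Agent.RED.H17
open Fermat.Agent.S36.NU.H88 Fermat.Agent.S36.NU.H23 Fermat.Agent.S36.NU.H16
open Fermat.Agent.S36.NU.H41 Fermat.Agent.RED Fermat.Agent.S36.NU.H99

section UnitOff

variable {N : ℕ} [NeZero N]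

/-- Roots of units off the cusps are units off the cusps. -/
theorem isUnitOff_of_pow {f : FN N} {n : ℕ} (hn : n ≠ 0) (h : IsUnitOff N (f ^ n)) :
    IsUnitOff N f := by
  refine ⟨fun h0 => h.1 (by rw [h0, zero_pow hn]), fun P hP => ?_⟩
  have h1 := h.2 P hP
  rw [Fermat.Agent.RED.H51.ord_pow] at h1
  rcases mul_eq_zero.1 h1 with h2 | h2
  · exact absurd (by exact_mod_cast h2) hn
  · exact h2

end UnitOff

section Inc

variable (q M : ℕ) [NeZero M] [NeZero q] [NeZero (M * q)] [NeZero (M * q * q)]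
variable (d : ℕ) [NeZero d] (hd : d ∣ M)

include hd in
theorem dvd_lvl2 : d ∣ M * q * q := Dvd.dvd.mul_right (Dvd.dvd.mul_right hd q) q

theorem qq_dvd_lvl2 : q * q ∣ M * q * q := ⟨M, by ring⟩

include hd in
theorem dqq_dvd_lvl2 : d * (q * q) ∣ M * q * q := by
  obtain ⟨c, rfl⟩ := hd
  exact ⟨c, by ring⟩

/-- `u = f(τ)` for `f = Δ(t)/Δ(t^d)`. -/
theorem incAA_unitF :
    incAA q M (unitF M d hd) = unitF (M * q * q) d (dvd_lvl2 q M d hd) := by
  apply Subtype.ext
  rw [coe_incAA, unitF_coe, unitF_coe]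

/-- `u'' = f(q² τ)` for `f = Δ(t)/Δ(t^d)`. -/
theorem incBB_unitF_mul :
    haveI : NeZero (q * q) := ⟨Nat.mul_ne_zero (NeZero.ne q) (NeZero.ne q)⟩
    haveI : NeZero (d * (q * q)) :=
      ⟨Nat.mul_ne_zero (NeZero.ne d) (Nat.mul_ne_zero (NeZero.ne q) (NeZero.ne q))⟩
    incBB q M (unitF M d hd) * unitF (M * q * q) (q * q) (qq_dvd_lvl2 q M)
      = unitF (M * q * q) (d * (q * q)) (dqq_dvd_lvl2 q M d hd) := by
  haveI : NeZero (q * q) := ⟨Nat.mul_ne_zero (NeZero.ne q) (NeZero.ne q)⟩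
  haveI : NeZero (d * (q * q)) :=
    ⟨Nat.mul_ne_zero (NeZero.ne d) (Nat.mul_ne_zero (NeZero.ne q) (NeZero.ne q))⟩
  apply Subtype.ext
  show ((incBB q M (unitF M d hd) : FN (M * q * q)) : LaurentSeries Kbar)
      * ((unitF (M * q * q) (q * q) (qq_dvd_lvl2 q M) : FN (M * q * q)) : LaurentSeries Kbar)
    = ((unitF (M * q * q) (d * (q * q)) (dqq_dvd_lvl2 q M d hd) : FN (M * q * q)) :
        LaurentSeries Kbar)
  rw [coe_incBB, unitF_coe, unitF_coe, unitF_coe, coeffEmb_modularUnitSeries,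
    coeffEmb_modularUnitSeries, coeffEmb_modularUnitSeries, qExpand_qExpand, map_mul, map_inv₀,
    qExpand_qExpand, qExpand_congr (mul_comm (q * q) d)]
  have h1 : qExpand Kbar (q * q) (deltaR Kbar) ≠ 0 := qExpand_deltaR_ne_zero (R := Kbar) (q * q)
  have h2 : qExpand Kbar (d * (q * q)) (deltaR Kbar) ≠ 0 :=
    qExpand_deltaR_ne_zero (R := Kbar) (d * (q * q))
  field_simp

theorem isUnitOff_incAA_unitF : IsUnitOff (M * q * q) (incAA q M (unitF M d hd)) := by
  rw [_root_.Fermat.Agent.S36.NU.H74.incAA_unitF]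
  exact isUnitOff_unitF d _

theorem isUnitOff_incBB_unitF : IsUnitOff (M * q * q) (incBB q M (unitF M d hd)) := by
  haveI : NeZero (q * q) := ⟨Nat.mul_ne_zero (NeZero.ne q) (NeZero.ne q)⟩
  haveI : NeZero (d * (q * q)) :=
    ⟨Nat.mul_ne_zero (NeZero.ne d) (Nat.mul_ne_zero (NeZero.ne q) (NeZero.ne q))⟩
  have h0 : unitF (M * q * q) (q * q) (qq_dvd_lvl2 q M) ≠ 0 := unitF_ne_zero _ _ _
  have e : incBB q M (unitF M d hd)
      = unitF (M * q * q) (d * (q * q)) (dqq_dvd_lvl2 q M d hd)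
        * (unitF (M * q * q) (q * q) (qq_dvd_lvl2 q M))⁻¹ :=
    (eq_mul_inv_iff_mul_eq₀ h0).2 (incBB_unitF_mul q M d hd)
  rw [e]
  exact (isUnitOff_unitF (d * (q * q)) _).mul (isUnitOff_unitF (q * q) _).inv

/-- `u = f(τ)` is a unit off the cusps if `f` is a root of `Δ(t)/Δ(t^d)`. -/
theorem isUnitOff_incAA_of_pow (f : FN M) (n : ℕ) (hn : n ≠ 0) (hfn : f ^ n = unitF M d hd) :
    IsUnitOff (M * q * q) (incAA q M f) := by
  refine isUnitOff_of_pow hn ?_
  rw [← map_pow, hfn]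
  exact _root_.Fermat.Agent.S36.NU.H74.isUnitOff_incAA_unitF q M d hd

/-- `u'' = f(q² τ)` is a unit off the cusps if `f` is a root of `Δ(t)/Δ(t^d)`. -/
theorem isUnitOff_incBB_of_pow (f : FN M) (n : ℕ) (hn : n ≠ 0) (hfn : f ^ n = unitF M d hd) :
    IsUnitOff (M * q * q) (incBB q M f) := by
  refine isUnitOff_of_pow hn ?_
  rw [← map_pow, hfn]
  exact _root_.Fermat.Agent.S36.NU.H74.isUnitOff_incBB_unitF q M d hd

end Inc

section Int

variable (A : ValuationSubring Kbar)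
variable (q M : ℕ) [NeZero M] [NeZero q] [NeZero (M * q)] [NeZero (M * q * q)]
variable (d : ℕ) [NeZero d] (hd : d ∣ M)

/-- `u` is integral over `K^ur[j]` if it is a unit off the cusps. -/
theorem isIntegral_uo_of_unitOff (f : FN M) (u₀ : LaurentSeries ℤ)
    (hf : (f : LaurentSeries Kbar) = H65.intSer Kbar u₀)
    (h : IsUnitOff (M * q * q) (incAA q M f)) :
    IsIntegral ↥(Algebra.adjoin ↥(Kur A) ({j0 A (M * q * q)} : Set ↥(L0 A (M * q * q))))
      (uo A q M f u₀ hf) :=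
  isIntegral_Kur_of_bar A _ _ (isIntegral_bar_of_unitOff h)

/-- `u''` is integral over `K^ur[j]` if it is a unit off the cusps. -/
theorem isIntegral_u2o_of_unitOff (f : FN M) (u₀ : LaurentSeries ℤ)
    (hf : (f : LaurentSeries Kbar) = H65.intSer Kbar u₀)
    (h : IsUnitOff (M * q * q) (incBB q M f)) :
    IsIntegral ↥(Algebra.adjoin ↥(Kur A) ({j0 A (M * q * q)} : Set ↥(L0 A (M * q * q))))
      (u2o A q M f u₀ hf) :=
  isIntegral_Kur_of_bar A _ _ (isIntegral_bar_of_unitOff h)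

/-- **`huI`** for a root of a modular unit. -/
theorem isIntegral_uo_of_pow (f : FN M) (u₀ : LaurentSeries ℤ)
    (hf : (f : LaurentSeries Kbar) = H65.intSer Kbar u₀)
    (n : ℕ) (hn : n ≠ 0) (hfn : f ^ n = unitF M d hd) :
    IsIntegral ↥(Algebra.adjoin ↥(Kur A) ({j0 A (M * q * q)} : Set ↥(L0 A (M * q * q))))
      (uo A q M f u₀ hf) :=
  isIntegral_uo_of_unitOff A q M f u₀ hf (isUnitOff_incAA_of_pow q M d hd f n hn hfn)

/-- **`hu2I`** for a root of a modular unit. -/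
theorem isIntegral_u2o_of_pow (f : FN M) (u₀ : LaurentSeries ℤ)
    (hf : (f : LaurentSeries Kbar) = H65.intSer Kbar u₀)
    (n : ℕ) (hn : n ≠ 0) (hfn : f ^ n = unitF M d hd) :
    IsIntegral ↥(Algebra.adjoin ↥(Kur A) ({j0 A (M * q * q)} : Set ↥(L0 A (M * q * q))))
      (u2o A q M f u₀ hf) :=
  isIntegral_u2o_of_unitOff A q M f u₀ hf (isUnitOff_incBB_of_pow q M d hd f n hn hfn)

/-- **`huI`** for `f = Δ(t)/Δ(t^d)`. -/
theorem isIntegral_uo_unitF (u₀ : LaurentSeries ℤ)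
    (hf : ((unitF M d hd : FN M) : LaurentSeries Kbar) = H65.intSer Kbar u₀) :
    IsIntegral ↥(Algebra.adjoin ↥(Kur A) ({j0 A (M * q * q)} : Set ↥(L0 A (M * q * q))))
      (uo A q M (unitF M d hd) u₀ hf) :=
  isIntegral_uo_of_unitOff A q M _ u₀ hf (_root_.Fermat.Agent.S36.NU.H74.isUnitOff_incAA_unitF q M d hd)

/-- **`hu2I`** for `f = Δ(t)/Δ(t^d)`. -/
theorem isIntegral_u2o_unitF (u₀ : LaurentSeries ℤ)
    (hf : ((unitF M d hd : FN M) : LaurentSeries Kbar) = H65.intSer Kbar u₀) :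
    IsIntegral ↥(Algebra.adjoin ↥(Kur A) ({j0 A (M * q * q)} : Set ↥(L0 A (M * q * q))))
      (u2o A q M (unitF M d hd) u₀ hf) :=
  isIntegral_u2o_of_unitOff A q M _ u₀ hf (_root_.Fermat.Agent.S36.NU.H74.isUnitOff_incBB_unitF q M d hd)

end Int

end Fermat.Agent.S36.NU.H74

end
end
-- ==== END Fermat.Agent.S36.NU.H74_HssInt

-- ==== BEGIN Fermat.Agent.S36.NU.H86_CuspRedFinal
section

/-!
# S36 / NU-B, leaf CUSPS, reduction half (helper86): the targets of helper82

* `stmt_CuspRed20 : H82.Stmt_CuspRed20 A q M`,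
  `stmt_CuspRed11 : H82.Stmt_CuspRed11 A q M B k hB hq`,
  `stmt_CuspRed02 : H82.Stmt_CuspRed02 A q M B k hB`   (for `q` prime, `A` over `q`);
* `uoo_mem20/11/02`, `s20_uoo`, `s11_uoo`, `s02_uoo` : `u = 1/j` at the three valuations;
* `uoo_inv_mem20/11/02` : `j = 1/u` at the three valuations;
* `E20oo_mem20`, `E11oo_mem11`, `E02oo_mem02`;
* `x11oo_mem_nonunits` : `x11oo` is a non-unit of `V₁₁`.
-/

set_option autoImplicit false
set_option synthInstance.maxHeartbeats 400000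
set_option maxHeartbeats 1000000
set_option linter.unusedSectionVars false
set_option linter.style.haveILetI false

noncomputable section

open ModularCurve Polynomial
open Fermat.Agent.S24 Fermat.Agent.BAD.H88
open Fermat.Agent.S28 Fermat.Agent.S28.H73 Fermat.Agent.RED.H73 Fermat.Agent.RED.H17
open Fermat.Agent.S36.NU.H88 Fermat.Agent.S36.NU.H23 Fermat.Agent.S36.NU.H99
open Fermat.Agent.S36.NU.H82

namespace Fermat.Agent.S36.NU.H86

section Final

variable (A : ValuationSubring Kbar)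
variable (q M : ℕ) (B k : ℤ) (hB : B * M + k * q = 1) (hq : q.Prime) [NeZero M] [NeZero q]
  [NeZero (M * q)] [NeZero (M * q * q)]

include hq in
/-- **(CUSP-RED 20).** -/
theorem stmt_CuspRed20 (hA : A.LiesOverPrime q) : Stmt_CuspRed20 A q M :=
  cuspRed20_core A q M hq hA

include hq in
/-- **(CUSP-RED 11).** -/
theorem stmt_CuspRed11 (hA : A.LiesOverPrime q) : Stmt_CuspRed11 A q M B k hB hq :=
  cuspRed11_core A q M B k hB hq hA

include hq in
/-- **(CUSP-RED 02).** -/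
theorem stmt_CuspRed02 (hA : A.LiesOverPrime q) : Stmt_CuspRed02 A q M B k hB :=
  cuspRed02_core A q M B k hB hq hA

/-! ### `u = 1/j` and `j` at the three valuations -/

theorem uoo_mem20 : uoo A q M ∈ V20o A q M := j0_inv_mem20 A q M

theorem s20_uoo : s20 A q M ⟨uoo A q M, uoo_mem20 A q M⟩ = (jqModC (kV A))⁻¹ :=
  s20_j0_inv A q M

include hq in
theorem uoo_mem11 : uoo A q M ∈ V11o A q M B k hB hq := j0_inv_mem11 A q M B k hB hq

include hq in
theorem s11_uoo :
    s11 A q M B k hB hq ⟨uoo A q M, uoo_mem11 A q M B k hB hq⟩ = (jqModC (kV A))⁻¹ :=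
  s11_j0_inv A q M B k hB hq

theorem uoo_mem02 : uoo A q M ∈ V02o A q M B k hB := j0_inv_mem02 A q M B k hB

theorem s02_uoo :
    haveI : NeZero (q * q) := ⟨Nat.mul_ne_zero (NeZero.ne q) (NeZero.ne q)⟩
    s02 A q M B k hB ⟨uoo A q M, uoo_mem02 A q M B k hB⟩
      = (qExpand (kV A) (q * q) (jqModC (kV A)))⁻¹ :=
  s02_j0_inv A q M B k hB

theorem uoo_inv_eq : (uoo A q M)⁻¹ = j0 A (M * q * q) := inv_inv _

theorem uoo_ne_zero : uoo A q M ≠ 0 := inv_ne_zero (j0_ne_zero A (M * q * q))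

theorem uoo_inv_mem20 : (uoo A q M)⁻¹ ∈ V20o A q M := by
  rw [uoo_inv_eq]
  exact _root_.Fermat.Agent.S36.NU.H86.j0_mem20 A q M

include hq in
theorem uoo_inv_mem11 : (uoo A q M)⁻¹ ∈ V11o A q M B k hB hq := by
  rw [uoo_inv_eq]
  exact _root_.Fermat.Agent.S36.NU.H86.j0_mem11 A q M B k hB hq

theorem uoo_inv_mem02 : (uoo A q M)⁻¹ ∈ V02o A q M B k hB := by
  rw [uoo_inv_eq]
  exact _root_.Fermat.Agent.S36.NU.H86.j0_mem02 A q M B k hB

/-! ### Memberships of the witnesses -/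

theorem E20oo_mem20 : E20oo A q M ∈ V20o A q M :=
  mul_mem (E20o_mem20 A q M) (pow_mem (uoo_mem20 A q M) _)

include hq in
theorem E11oo_mem11 : E11oo A q M ∈ V11o A q M B k hB hq :=
  mul_mem (E11o_mem11 A q M B k hB hq) (pow_mem (uoo_mem11 A q M B k hB hq) _)

include hq in
theorem E02oo_mem02 : E02oo A q M ∈ V02o A q M B k hB :=
  mul_mem (pow_mem (E02o_mem02 A q M B k hB hq) _) (pow_mem (uoo_mem02 A q M B k hB) _)

include hq in
/-- **`x11oo` is a non-unit of `V₁₁`.** -/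
theorem x11oo_mem_nonunits (hA : A.LiesOverPrime q) :
    x11oo A q M ∈ (V11o A q M B k hB hq).nonunits :=
  x11_mem_nonunits A q M B k hB hq hA (j2o A q M) ⟨M, by ring⟩ rfl

end Final

end Fermat.Agent.S36.NU.H86

end
end
-- ==== END Fermat.Agent.S36.NU.H86_CuspRedFinal

-- ==== BEGIN Fermat.Agent.S36.NU.H88_ChartMod
section

/-!
# S36, NU-B, (M1) CHART-MOD (helper88): the two modular charts

Level `N = M q²`, `q ∤ M`; `R = Rur A` (the valuation ring of the inertia field `K^ur`),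
`F = L0 A N` (the inertia-fixed functions), `k = kV A`, `T = totM` (helper23), `j = j0 A N`.

* `resRur : R →+* k`, surjective;
* constants and `j`, `j⁻¹` at the three valuations, with their reductions;
* `chartInput0`, `chartInputInf` : the inputs of `chartOf` for `j` and `j⁻¹`;
* `chart0`, `chartInf` : the two charts (`B = ` integral closure of `R[j]`, `R[j⁻¹]`), compatible
  with `totM`, noetherian, with fraction field `F`.
-/

set_option autoImplicit false
set_option synthInstance.maxHeartbeats 400000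
set_option maxHeartbeats 1000000
set_option linter.unusedSectionVars false
set_option linter.style.haveILetI false

noncomputable section

open IntermediateField ModularCurve AlgebraicCurve
open Fermat.Agent.S24 Fermat.Agent.BAD.H88 Fermat.Agent.S28 Fermat.Agent.S28.H73
open Fermat.Agent.RED.H73 Fermat.Agent.RED.H17

namespace Fermat.Agent.S36.NU.H88

open Fermat.Agent.S36.NU.H16 Fermat.Agent.S36.NU.H17 Fermat.Agent.S36.NU.H24
  Fermat.Agent.S36.NU.H65 Fermat.Agent.S36.NU.H79 Fermat.Agent.S36.NU.H23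
  Fermat.Agent.S36.NU.H41 Fermat.Agent.BAD


/-! ### Generic: the chart of `j⁻¹` -/

section Inv

variable {R K F L k ι Z : Type*} {κ : ι → Type*} [CommRing R] [Field K] [Field F] [Field L]
  [Algebra K L] [Algebra F L] [Algebra R F] [Field k] [Fintype ι] [∀ i, Field (κ i)]
  [∀ i, Algebra k (κ i)] (T : TotN K F L k ι Z κ) (j : F) (res : R →+* k)

theorem rdN_inv_ne_zero {i : ι} {x : F} (hx : T.rdN i x ≠ 0) : T.rdN i x⁻¹ ≠ 0 := by
  have hm := T.mem_of_rdN_ne_zero hx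
  have hi := T.inv_mem_of_rdN_ne_zero hx
  have hx0 : x ≠ 0 := by
    rintro rfl
    apply hx
    rw [T.rdN_of_mem (T.V i).zero_mem]
    exact map_zero _
  intro h0
  have h1 : T.rdN i (x⁻¹ * x) = T.rdN i x⁻¹ * T.rdN i x := T.rdN_mul hi hm
  rw [inv_mul_cancel₀ hx0, T.rdN_one, h0, zero_mul] at h1
  exact one_ne_zero h1

/-- The input for the chart of `j⁻¹`, if `j` is a unit for all the valuations. -/
theorem ChartInput.inv (h : ChartInput T j res) (hju : ∀ i, T.rdN i j ≠ 0) :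
    ChartInput T j⁻¹ res where
  res_surj := h.res_surj
  const_mem := h.const_mem
  j_mem := fun i => T.inv_mem_of_rdN_ne_zero (hju i)
  red_const := h.red_const

/-- Separating elements for the chart of `j⁻¹` from separating elements for the chart of
`j`. -/
theorem hinc_inv (h : ChartInput T j res) (hju : ∀ i, T.rdN i j ≠ 0)
    (hinc : ∀ i i' : ι, i ≠ i' → ∃ τ : F, τ ∈ intSub R j ∧ T.rdN i' τ = 0 ∧ T.rdN i τ ≠ 0) :
    ∀ i i' : ι, i ≠ i' → ∃ τ : F, τ ∈ intSub R j⁻¹ ∧ T.rdN i' τ = 0 ∧ T.rdN i τ ≠ 0 := by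
  intro i i' hii
  obtain ⟨τ, hτ, h0, h1⟩ := hinc i i' hii
  have hj0 : j ≠ 0 := by
    rintro rfl
    apply hju i
    rw [T.rdN_of_mem (T.V i).zero_mem]
    exact map_zero _
  obtain ⟨e₀, he⟩ := exists_pow_inv_mul_isIntegral (R := R) hj0 hτ
  have hmem : ∀ i₁ : ι, τ ∈ T.V i₁ := fun i₁ =>
    mem_of_isIntegral_adjoin R j (T.V i₁) (h.const_mem i₁) (h.j_mem i₁) hτ
  have hpm : ∀ i₁ : ι, j⁻¹ ^ e₀ ∈ T.V i₁ := fun i₁ =>
    (T.V i₁).pow_mem (T.inv_mem_of_rdN_ne_zero (hju i₁)) e₀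
  refine ⟨j⁻¹ ^ e₀ * τ, he e₀ le_rfl, ?_, ?_⟩
  · rw [T.rdN_mul (hpm i') (hmem i'), h0, mul_zero]
  · rw [T.rdN_mul (hpm i) (hmem i), T.rdN_pow (T.inv_mem_of_rdN_ne_zero (hju i))]
    exact mul_ne_zero (pow_ne_zero _ (rdN_inv_ne_zero T (hju i))) h1

end Inv

section InvField

variable (Kf : Type*) {F : Type*} [Field Kf] [Field F] [Algebra Kf F] (j : F)

theorem adjoin_inv_eq : Kf⟮j⁻¹⟯ = Kf⟮j⟯ := by
  apply le_antisymm
  · rw [adjoin_simple_le_iff]
    exact inv_mem (mem_adjoin_simple_self Kf j)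
  · rw [adjoin_simple_le_iff]
    have h := inv_mem (mem_adjoin_simple_self Kf j⁻¹)
    rwa [inv_inv] at h

theorem finiteDimensional_adjoin_inv [h : FiniteDimensional ↥Kf⟮j⟯ F] :
    FiniteDimensional ↥Kf⟮j⁻¹⟯ F := by
  rw [_root_.Fermat.Agent.S36.NU.H88.adjoin_inv_eq]
  exact h

theorem isSeparable_adjoin_inv [h : Algebra.IsSeparable ↥Kf⟮j⟯ F] :
    Algebra.IsSeparable ↥Kf⟮j⁻¹⟯ F := by
  rw [_root_.Fermat.Agent.S36.NU.H88.adjoin_inv_eq]
  exact h

theorem transcendental_inv (hj : Transcendental Kf j) : Transcendental Kf j⁻¹ := by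
  intro h
  apply hj
  have := h.inv
  rwa [inv_inv] at this

end InvField

/-! ### The residue map of `R` -/

section Res

variable (A : ValuationSubring Kbar)

/-- The residue map `R → k`. -/
def resRur : ↥(Rur A) →+* kV A := (resV A).comp (inclO (iotaUr A) A)

theorem resRur_apply (r : ↥(Rur A)) :
    resRur A r = resV A ⟨((r : ↥(Kur A)) : Kbar), r.2⟩ := rfl

theorem resRur_surjective {q : ℕ} (hq : q.Prime) (hA : A.LiesOverPrime q) :
    Function.Surjective (resRur A) := by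
  intro a
  obtain ⟨c, hc, hfix, hr⟩ := Fermat.Agent.S36.NU.H42.exists_fixed_lift A hq hA a
  exact ⟨⟨⟨c, mem_Kur.2 hfix⟩, hc⟩, hr⟩

theorem isNoetherianRing_Rur {q : ℕ} (hq : q.Prime) (hA : A.LiesOverPrime q) :
    IsNoetherianRing ↥(Rur A) := by
  haveI := isDiscreteValuationRing_Rur A q hq hA
  infer_instance

end Res

/-! ### Constants at the three valuations -/

section Const

variable (A : ValuationSubring Kbar) (q M : ℕ) (B k : ℤ) (hB : B * M + k * q = 1) (hq : q.Prime)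
  [NeZero M] [NeZero q] [NeZero (M * q * q)] (hqM : ¬ q ∣ M) (hA : A.LiesOverPrime q)

theorem coe_algebraMap_Rur (r : ↥(Rur A)) :
    ((algebraMap ↥(Rur A) ↥(L0 A (M * q * q)) r : ↥(L0 A (M * q * q))) : FN (M * q * q))
      = algebraMap Kbar (FN (M * q * q)) (((r : ↥(Kur A)) : Kbar)) := rfl

theorem const_mem_V20o (r : ↥(Rur A)) :
    algebraMap ↥(Rur A) ↥(L0 A (M * q * q)) r ∈ V20o A q M :=
  (const_mem20 A (M * q * q) _).mpr r.2

theorem const_mem_V11o (r : ↥(Rur A)) :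
    algebraMap ↥(Rur A) ↥(L0 A (M * q * q)) r ∈ V11o A q M B k hB hq :=
  (const_mem11 A (M * q * q) q M B k (lvl q M) hB hq _).mpr r.2

theorem const_mem_V02o (r : ↥(Rur A)) :
    algebraMap ↥(Rur A) ↥(L0 A (M * q * q)) r ∈ V02o A q M B k hB :=
  (const_mem02 A (M * q * q) q M B k (lvl q M) hB _).mpr r.2

theorem s20_const (r : ↥(Rur A))
    (h : algebraMap ↥(Rur A) ↥(L0 A (M * q * q)) r ∈ V20o A q M) :
    s20 A q M ⟨_, h⟩ = algebraMap (kV A) (LaurentSeries (kV A)) (resRur A r) := by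
  have h20 : algebraMap Kbar (FN (M * q * q)) (((r : ↥(Kur A)) : Kbar)) ∈ V20 A (M * q * q) := h
  show ((red20 A (M * q * q) ⟨_, h20⟩ : F20 A (M * q * q)) : LaurentSeries (kV A)) = _
  rw [red20_const A (M * q * q) ⟨((r : ↥(Kur A)) : Kbar), r.2⟩ h20]
  rfl

theorem s11_const (r : ↥(Rur A))
    (h : algebraMap ↥(Rur A) ↥(L0 A (M * q * q)) r ∈ V11o A q M B k hB hq) :
    s11 A q M B k hB hq ⟨_, h⟩ = algebraMap (kV A) (LaurentSeries (kV A)) (resRur A r) := by
  have h11 : algebraMap Kbar (FN (M * q * q)) (((r : ↥(Kur A)) : Kbar))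
      ∈ V11 A (M * q * q) q M B k (lvl q M) hB hq := h
  show ((red11 A (M * q * q) q M B k (lvl q M) hB hq ⟨_, h11⟩ :
    F11 A (M * q * q) q M B k (lvl q M) hB hq) : LaurentSeries (kV A)) = _
  rw [red11_const A (M * q * q) q M B k (lvl q M) hB hq ⟨((r : ↥(Kur A)) : Kbar), r.2⟩ h11]
  rfl

theorem s02_const (r : ↥(Rur A))
    (h : algebraMap ↥(Rur A) ↥(L0 A (M * q * q)) r ∈ V02o A q M B k hB) :
    s02 A q M B k hB ⟨_, h⟩ = algebraMap (kV A) (LaurentSeries (kV A)) (resRur A r) := by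
  have h02 : algebraMap Kbar (FN (M * q * q)) (((r : ↥(Kur A)) : Kbar))
      ∈ V02 A (M * q * q) q M B k (lvl q M) hB := h
  have h20 : algebraMap Kbar (FN (M * q * q)) (((r : ↥(Kur A)) : Kbar)) ∈ V20 A (M * q * q) :=
    (const_mem20 A (M * q * q) _).mpr r.2
  show ((red02 A (M * q * q) q M B k (lvl q M) hB ⟨_, h02⟩ : F20 A (M * q * q)) :
    LaurentSeries (kV A)) = _
  rw [const_red02 A (M * q * q) q M B k (lvl q M) hB _ h20 h02,
    red20_const A (M * q * q) ⟨((r : ↥(Kur A)) : Kbar), r.2⟩ h20]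
  rfl

end Const

/-! ### `j` and `j'' = j(t^{q²})` at the three valuations -/

section JJ

variable (A : ValuationSubring Kbar) (q M : ℕ) (B k : ℤ) (hB : B * M + k * q = 1) (hq : q.Prime)
  [NeZero M] [NeZero q] [NeZero (M * q * q)] (hqM : ¬ q ∣ M) (hA : A.LiesOverPrime q)

/-- The reduction of `j`. -/
def Jred : LaurentSeries (kV A) := coeffMap (Int.castRingHom (kV A)) jInt

/-- `j(t^{q²})` with integer coefficients. -/
def jInt2 : LaurentSeries ℤ := qExpand ℤ q (qExpand ℤ q jInt)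

/-- The reduction of `j(t^{q²})`. -/
def Jred2 : LaurentSeries (kV A) := coeffMap (Int.castRingHom (kV A)) (jInt2 q)

theorem Jred2_eq : Jred2 A q = qExpand (kV A) q (qExpand (kV A) q (_root_.Fermat.Agent.S36.NU.H88.Jred A)) := by
  rw [Jred2, jInt2, coeffMap_qExpand, coeffMap_qExpand]
  rfl

/-- `j''` as an inertia-fixed function. -/
def jdd : ↥(L0 A (M * q * q)) :=
  ⟨jdF (M * q * q) (q * q) (sq_dvd_lvl q M), jdF_mem_L0 A (M * q * q) (q * q) (sq_dvd_lvl q M)⟩

theorem coe_jdd :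
    ((jdd A q M : ↥(L0 A (M * q * q))) : FN (M * q * q))
      = jdF (M * q * q) (q * q) (sq_dvd_lvl q M) := rfl

/-! #### Evaluation from integral expansions -/

theorem s20_of_intSer (x : ↥(L0 A (M * q * q))) (u : LaurentSeries ℤ)
    (hx : ((x : FN (M * q * q)) : LaurentSeries Kbar) = intSer Kbar u) :
    ∃ h : x ∈ V20o A q M, s20 A q M ⟨x, h⟩ = coeffMap (Int.castRingHom (kV A)) u := by
  have h : x ∈ V20o A q M := by
    rw [mem_V20o_iff, hx]
    exact intSer_mem A u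
  refine ⟨h, ?_⟩
  rw [s20_mk]
  have e : (⟨((x : FN (M * q * q)) : LaurentSeries Kbar), h⟩ : gaussRingV A)
      = ⟨intSer Kbar u, intSer_mem A u⟩ := Subtype.ext hx
  rw [e, gaussRedV_intSer]

theorem s11_of_intSer (x : ↥(L0 A (M * q * q))) (u : LaurentSeries ℤ)
    (hx : cM q M B k hB hq (x : FN (M * q * q)) = intSer Kbar u) :
    ∃ h : x ∈ V11o A q M B k hB hq,
      s11 A q M B k hB hq ⟨x, h⟩ = coeffMap (Int.castRingHom (kV A)) u := by
  have h : x ∈ V11o A q M B k hB hq := by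
    rw [mem_V11o_iff, hx]
    exact intSer_mem A u
  refine ⟨h, ?_⟩
  rw [s11_mk]
  have e : (⟨cM q M B k hB hq (x : FN (M * q * q)), h⟩ : gaussRingV A)
      = ⟨intSer Kbar u, intSer_mem A u⟩ := Subtype.ext hx
  rw [e, gaussRedV_intSer]

theorem s02_of_intSer (x : ↥(L0 A (M * q * q))) (u : LaurentSeries ℤ)
    (hx : ((wS q M B k hB (x : FN (M * q * q)) : FN (M * q * q)) : LaurentSeries Kbar)
      = intSer Kbar u) :
    ∃ h : x ∈ V02o A q M B k hB,
      s02 A q M B k hB ⟨x, h⟩ = coeffMap (Int.castRingHom (kV A)) u := by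
  have h : x ∈ V02o A q M B k hB := by
    show ((wS q M B k hB (x : FN (M * q * q)) : FN (M * q * q)) : LaurentSeries Kbar)
      ∈ gaussRingV A
    rw [hx]
    exact intSer_mem A u
  refine ⟨h, ?_⟩
  rw [s02_mk]
  have e : (⟨((wS q M B k hB (x : FN (M * q * q)) : FN (M * q * q)) : LaurentSeries Kbar), h⟩ :
      gaussRingV A) = ⟨intSer Kbar u, intSer_mem A u⟩ := Subtype.ext hx
  rw [e, gaussRedV_intSer]

/-! #### The expansions of `j` and `j''` -/

theorem coe_j0_series :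
    (((j0 A (M * q * q) : ↥(L0 A (M * q * q))) : FN (M * q * q)) : LaurentSeries Kbar)
      = intSer Kbar jInt := by
  rw [coe_j0', coe_jdF_one]

theorem coe_incBB_j :
    ((incBB q M (jdF M 1 (one_dvd M)) : FN (M * q * q)) : LaurentSeries Kbar)
      = intSer Kbar (jInt2 q) := by
  rw [coe_incBB, coe_jdF_one, jInt2, intSer_qExpand, intSer_qExpand]

theorem coe_jdd_series :
    (((jdd A q M : ↥(L0 A (M * q * q))) : FN (M * q * q)) : LaurentSeries Kbar)
      = intSer Kbar (jInt2 q) := by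
  rw [coe_jdd, ← incBB_jdF_one q M (sq_dvd_lvl q M), coe_incBB_j]

include hB hq in
theorem cM_j0 :
    cM q M B k hB hq ((j0 A (M * q * q) : ↥(L0 A (M * q * q))) : FN (M * q * q))
      = intSer Kbar jInt := by
  rw [coe_j0', ← incAA_jdF_one q M, cM_incAA q M B k hB hq, coe_jdF_one]

include hq in
theorem wS_j0 :
    ((wS q M B k hB ((j0 A (M * q * q) : ↥(L0 A (M * q * q))) : FN (M * q * q)) :
      FN (M * q * q)) : LaurentSeries Kbar) = intSer Kbar (jInt2 q) := by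
  rw [coe_j0', ← incAA_jdF_one q M, wS_incAA q M B k hB hq, coe_incBB_j]

include hq in
theorem wS_jdd :
    ((wS q M B k hB ((jdd A q M : ↥(L0 A (M * q * q))) : FN (M * q * q)) :
      FN (M * q * q)) : LaurentSeries Kbar) = intSer Kbar jInt := by
  rw [coe_jdd, ← incBB_jdF_one q M (sq_dvd_lvl q M), wS_incBB q M B k hB hq, coe_incAA,
    coe_jdF_one]

/-! #### Memberships and reductions -/

theorem j0_mem20 : j0 A (M * q * q) ∈ V20o A q M :=
  (s20_of_intSer A q M _ jInt (coe_j0_series A q M)).1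

theorem s20_j0 (h : j0 A (M * q * q) ∈ V20o A q M) : s20 A q M ⟨_, h⟩ = _root_.Fermat.Agent.S36.NU.H88.Jred A :=
  (s20_of_intSer A q M _ jInt (coe_j0_series A q M)).2

theorem jdd_mem20 : jdd A q M ∈ V20o A q M :=
  (s20_of_intSer A q M _ (jInt2 q) (coe_jdd_series A q M)).1

theorem s20_jdd (h : jdd A q M ∈ V20o A q M) : s20 A q M ⟨_, h⟩ = Jred2 A q :=
  (s20_of_intSer A q M _ (jInt2 q) (coe_jdd_series A q M)).2

theorem j0_mem11 : j0 A (M * q * q) ∈ V11o A q M B k hB hq :=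
  (s11_of_intSer A q M B k hB hq _ jInt (cM_j0 A q M B k hB hq)).1

theorem s11_j0 (h : j0 A (M * q * q) ∈ V11o A q M B k hB hq) :
    s11 A q M B k hB hq ⟨_, h⟩ = _root_.Fermat.Agent.S36.NU.H88.Jred A :=
  (s11_of_intSer A q M B k hB hq _ jInt (cM_j0 A q M B k hB hq)).2

include hq in
theorem j0_mem02 : j0 A (M * q * q) ∈ V02o A q M B k hB :=
  (s02_of_intSer A q M B k hB _ (jInt2 q) (wS_j0 A q M B k hB hq)).1

include hq in
theorem s02_j0 (h : j0 A (M * q * q) ∈ V02o A q M B k hB) :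
    s02 A q M B k hB ⟨_, h⟩ = Jred2 A q :=
  (s02_of_intSer A q M B k hB _ (jInt2 q) (wS_j0 A q M B k hB hq)).2

include hq in
theorem jdd_mem02 : jdd A q M ∈ V02o A q M B k hB :=
  (s02_of_intSer A q M B k hB _ jInt (wS_jdd A q M B k hB hq)).1

include hq in
theorem s02_jdd (h : jdd A q M ∈ V02o A q M B k hB) :
    s02 A q M B k hB ⟨_, h⟩ = _root_.Fermat.Agent.S36.NU.H88.Jred A :=
  (s02_of_intSer A q M B k hB _ jInt (wS_jdd A q M B k hB hq)).2

theorem jdd_eq : jdd A q M = pi11 A q M + j0 A (M * q * q) := by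
  apply Subtype.ext
  show jdF (M * q * q) (q * q) (sq_dvd_lvl q M)
    = (jdF (M * q * q) (q * q) (sq_dvd_lvl q M) - jdF (M * q * q) 1 (one_dvd _)) + _root_.Fermat.Agent.S24.jF (M * q * q)
  rw [jdF_one_eq_jF]
  ring

include hA in
theorem pi11_mem11 : pi11 A q M ∈ V11o A q M B k hB hq :=
  (ValuationSubring.valuation_le_one_iff _ _).1 (le_of_lt (val_pi11_lt_one A q M B k hB hq hA))

include hA in
theorem s11_pi11 (h : pi11 A q M ∈ V11o A q M B k hB hq) :
    s11 A q M B k hB hq ⟨_, h⟩ = 0 := by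
  apply s11_eq_zero_of_not_isUnit
  intro hu
  have h1 := (ValuationSubring.valuation_eq_one_iff (V11o A q M B k hB hq) ⟨_, h⟩).1 hu
  exact (val_pi11_lt_one A q M B k hB hq hA).ne h1

include hA in
theorem jdd_mem11 : jdd A q M ∈ V11o A q M B k hB hq := by
  rw [jdd_eq]
  exact add_mem (pi11_mem11 A q M B k hB hq hA) (j0_mem11 A q M B k hB hq)

include hA in
theorem s11_jdd (h : jdd A q M ∈ V11o A q M B k hB hq) :
    s11 A q M B k hB hq ⟨_, h⟩ = _root_.Fermat.Agent.S36.NU.H88.Jred A := by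
  have e : (⟨jdd A q M, h⟩ : ↥(V11o A q M B k hB hq))
      = ⟨pi11 A q M, pi11_mem11 A q M B k hB hq hA⟩
        + ⟨j0 A (M * q * q), j0_mem11 A q M B k hB hq⟩ := Subtype.ext (jdd_eq A q M)
  rw [e, map_add, s11_pi11 A q M B k hB hq hA, s11_j0, zero_add]

end JJ

/-! ### The separating elements -/

section Sep

variable (A : ValuationSubring Kbar) (q M : ℕ) (B k : ℤ) (hB : B * M + k * q = 1) (hq : q.Prime)
  [NeZero M] [NeZero q] [NeZero (M * q * q)] (hqM : ¬ q ∣ M) (hA : A.LiesOverPrime q)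

include hq in
theorem qExpand_ne_Jred (Y : LaurentSeries (kV A)) : qExpand (kV A) q Y ≠ _root_.Fermat.Agent.S36.NU.H88.Jred A := by
  obtain ⟨n, hn, hc⟩ := thetaNZ_jInt q (kV A) hq
  intro h
  apply hc
  show (_root_.Fermat.Agent.S36.NU.H88.Jred A).coeff n = 0
  rw [← h]
  exact qExpand_coeff_of_not_dvd q Y hn

include hq in
theorem Jred_ne_zero : _root_.Fermat.Agent.S36.NU.H88.Jred A ≠ 0 := by
  obtain ⟨n, hn, hc⟩ := thetaNZ_jInt q (kV A) hq
  intro h
  apply hc
  show (_root_.Fermat.Agent.S36.NU.H88.Jred A).coeff n = 0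
  rw [h]
  rfl

include hq in
theorem Jred2_ne_zero : Jred2 A q ≠ 0 := by
  rw [Jred2_eq]
  intro h
  have h1 : qExpand (kV A) q (qExpand (kV A) q (_root_.Fermat.Agent.S36.NU.H88.Jred A)) = qExpand (kV A) q 0 := by
    rw [h, map_zero]
  have h2 := qExpand_injective q h1
  have h3 : qExpand (kV A) q (_root_.Fermat.Agent.S36.NU.H88.Jred A) = qExpand (kV A) q 0 := by rw [h2, map_zero]
  exact Jred_ne_zero A q hq (qExpand_injective q h3)

include hq in
theorem Jred2_sub_ne_zero : Jred2 A q - _root_.Fermat.Agent.S36.NU.H88.Jred A ≠ 0 := by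
  rw [Jred2_eq]
  exact sub_ne_zero.2 (qExpand_ne_Jred A q hq _)

include hq in
theorem Jred_sub_ne_zero : _root_.Fermat.Agent.S36.NU.H88.Jred A - Jred2 A q ≠ 0 := by
  rw [Jred2_eq]
  exact sub_ne_zero.2 (qExpand_ne_Jred A q hq _).symm

include hq hA in
theorem Jred_pow : _root_.Fermat.Agent.S36.NU.H88.Jred A ^ q ^ 2 = Jred2 A q := by
  haveI : Fact q.Prime := ⟨hq⟩
  haveI : CharP (kV A) q := Fermat.Agent.BAD.H82.charP_kV A hq hA
  rw [Jred2_eq]
  exact intRed_pow_sq q jInt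

include hq hA in
theorem Jred2_pow :
    Jred2 A q ^ q ^ 2 = qExpand (kV A) q (qExpand (kV A) q (Jred2 A q)) := by
  haveI : Fact q.Prime := ⟨hq⟩
  haveI : CharP (kV A) q := Fermat.Agent.BAD.H82.charP_kV A hq hA
  exact intRed_pow_sq q (jInt2 q)

include hq hA in
theorem Jred_sub_pow_ne_zero : _root_.Fermat.Agent.S36.NU.H88.Jred A - Jred2 A q ^ q ^ 2 ≠ 0 := by
  rw [Jred2_pow A q hq hA]
  exact sub_ne_zero.2 (qExpand_ne_Jred A q hq _).symm

/-- Reduction of a difference `x - y ^ n`. -/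
theorem red_sub_pow {F S : Type*} [Field F] [Ring S] (V : ValuationSubring F) (s : ↥V →+* S)
    {x y : F} (hx : x ∈ V) (hy : y ∈ V) (n : ℕ) (h : x - y ^ n ∈ V) :
    s ⟨x - y ^ n, h⟩ = s ⟨x, hx⟩ - s ⟨y, hy⟩ ^ n := by
  have e : (⟨x - y ^ n, h⟩ : ↥V) = ⟨x, hx⟩ - ⟨y, hy⟩ ^ n := Subtype.ext rfl
  rw [e, map_sub, map_pow]

theorem red_sub_pow' {F S : Type*} [Field F] [Ring S] (V : ValuationSubring F) (s : ↥V →+* S)
    {x y : F} (hx : x ∈ V) (hy : y ∈ V) (n : ℕ) (z : F) (hz : z = x - y ^ n) (h : z ∈ V) :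
    s ⟨z, h⟩ = s ⟨x, hx⟩ - s ⟨y, hy⟩ ^ n := by
  subst hz
  exact red_sub_pow V s hx hy n h

theorem sub_pow_mem {F : Type*} [Field F] (V : ValuationSubring F) {x y : F} (hx : x ∈ V)
    (hy : y ∈ V) (n : ℕ) : x - y ^ n ∈ V := sub_mem hx (pow_mem hy n)

/-- `τ_a = j'' - j` (zero on the middle component). -/
def tauA : ↥(L0 A (M * q * q)) := jdd A q M - j0 A (M * q * q) ^ 1

/-- `τ_b = j'' - j ^ q²` (zero on the component `20`). -/
def tauB : ↥(L0 A (M * q * q)) := jdd A q M - j0 A (M * q * q) ^ q ^ 2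

/-- `τ_c = j - j'' ^ q²` (zero on the component `02`). -/
def tauC : ↥(L0 A (M * q * q)) := j0 A (M * q * q) - jdd A q M ^ q ^ 2

/-! #### At `V₂₀` -/

theorem tauA_mem20 : tauA A q M ∈ V20o A q M :=
  sub_pow_mem _ (jdd_mem20 A q M) (j0_mem20 A q M) 1

theorem tauB_mem20 : tauB A q M ∈ V20o A q M :=
  sub_pow_mem _ (jdd_mem20 A q M) (j0_mem20 A q M) _

theorem tauC_mem20 : tauC A q M ∈ V20o A q M :=
  sub_pow_mem _ (j0_mem20 A q M) (jdd_mem20 A q M) _

theorem s20_tauA (h : tauA A q M ∈ V20o A q M) :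
    s20 A q M ⟨_, h⟩ = Jred2 A q - _root_.Fermat.Agent.S36.NU.H88.Jred A := by
  rw [red_sub_pow' _ _ (jdd_mem20 A q M) (j0_mem20 A q M) _ (tauA A q M) rfl h, s20_jdd, s20_j0, pow_one]

include hq hA in
theorem s20_tauB (h : tauB A q M ∈ V20o A q M) : s20 A q M ⟨_, h⟩ = 0 := by
  rw [red_sub_pow' _ _ (jdd_mem20 A q M) (j0_mem20 A q M) _ (tauB A q M) rfl h, s20_jdd, s20_j0, Jred_pow A q hq hA,
    sub_self]

theorem s20_tauC (h : tauC A q M ∈ V20o A q M) :
    s20 A q M ⟨_, h⟩ = _root_.Fermat.Agent.S36.NU.H88.Jred A - Jred2 A q ^ q ^ 2 := by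
  rw [red_sub_pow' _ _ (j0_mem20 A q M) (jdd_mem20 A q M) _ (tauC A q M) rfl h, s20_jdd, s20_j0]

/-! #### At `V₁₁` -/

include hA in
theorem tauA_mem11 : tauA A q M ∈ V11o A q M B k hB hq :=
  sub_pow_mem _ (jdd_mem11 A q M B k hB hq hA) (j0_mem11 A q M B k hB hq) 1

include hA in
theorem tauB_mem11 : tauB A q M ∈ V11o A q M B k hB hq :=
  sub_pow_mem _ (jdd_mem11 A q M B k hB hq hA) (j0_mem11 A q M B k hB hq) _

include hA in
theorem tauC_mem11 : tauC A q M ∈ V11o A q M B k hB hq :=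
  sub_pow_mem _ (j0_mem11 A q M B k hB hq) (jdd_mem11 A q M B k hB hq hA) _

include hA in
theorem s11_tauA (h : tauA A q M ∈ V11o A q M B k hB hq) :
    s11 A q M B k hB hq ⟨_, h⟩ = 0 := by
  rw [red_sub_pow' _ _ (jdd_mem11 A q M B k hB hq hA) (j0_mem11 A q M B k hB hq) _ (tauA A q M) rfl h,
    s11_jdd A q M B k hB hq hA, s11_j0, pow_one, sub_self]

include hA in
theorem s11_tauB (h : tauB A q M ∈ V11o A q M B k hB hq) :
    s11 A q M B k hB hq ⟨_, h⟩ = _root_.Fermat.Agent.S36.NU.H88.Jred A - Jred2 A q := by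
  rw [red_sub_pow' _ _ (jdd_mem11 A q M B k hB hq hA) (j0_mem11 A q M B k hB hq) _ (tauB A q M) rfl h,
    s11_jdd A q M B k hB hq hA, s11_j0, Jred_pow A q hq hA]

include hA in
theorem s11_tauC (h : tauC A q M ∈ V11o A q M B k hB hq) :
    s11 A q M B k hB hq ⟨_, h⟩ = _root_.Fermat.Agent.S36.NU.H88.Jred A - Jred2 A q := by
  rw [red_sub_pow' _ _ (j0_mem11 A q M B k hB hq) (jdd_mem11 A q M B k hB hq hA) _ (tauC A q M) rfl h,
    s11_jdd A q M B k hB hq hA, s11_j0, Jred_pow A q hq hA]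

/-! #### At `V₀₂` -/

include hq in
theorem tauA_mem02 : tauA A q M ∈ V02o A q M B k hB :=
  sub_pow_mem _ (jdd_mem02 A q M B k hB hq) (j0_mem02 A q M B k hB hq) 1

include hq in
theorem tauB_mem02 : tauB A q M ∈ V02o A q M B k hB :=
  sub_pow_mem _ (jdd_mem02 A q M B k hB hq) (j0_mem02 A q M B k hB hq) _

include hq in
theorem tauC_mem02 : tauC A q M ∈ V02o A q M B k hB :=
  sub_pow_mem _ (j0_mem02 A q M B k hB hq) (jdd_mem02 A q M B k hB hq) _

include hq in
theorem s02_tauA (h : tauA A q M ∈ V02o A q M B k hB) :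
    s02 A q M B k hB ⟨_, h⟩ = _root_.Fermat.Agent.S36.NU.H88.Jred A - Jred2 A q := by
  rw [red_sub_pow' _ _ (jdd_mem02 A q M B k hB hq) (j0_mem02 A q M B k hB hq) _ (tauA A q M) rfl h,
    s02_jdd A q M B k hB hq, s02_j0 A q M B k hB hq, pow_one]

include hq in
theorem s02_tauB (h : tauB A q M ∈ V02o A q M B k hB) :
    s02 A q M B k hB ⟨_, h⟩ = _root_.Fermat.Agent.S36.NU.H88.Jred A - Jred2 A q ^ q ^ 2 := by
  rw [red_sub_pow' _ _ (jdd_mem02 A q M B k hB hq) (j0_mem02 A q M B k hB hq) _ (tauB A q M) rfl h,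
    s02_jdd A q M B k hB hq, s02_j0 A q M B k hB hq]

include hq hA in
theorem s02_tauC (h : tauC A q M ∈ V02o A q M B k hB) :
    s02 A q M B k hB ⟨_, h⟩ = 0 := by
  rw [red_sub_pow' _ _ (j0_mem02 A q M B k hB hq) (jdd_mem02 A q M B k hB hq) _ (tauC A q M) rfl h,
    s02_jdd A q M B k hB hq, s02_j0 A q M B k hB hq, Jred_pow A q hq hA, sub_self]

end Sep

/-! ### The two charts -/

section Charts

variable (A : ValuationSubring Kbar) (q M : ℕ) (B k : ℤ) (hB : B * M + k * q = 1) (hq : q.Prime)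
  [NeZero M] [NeZero q] [NeZero (M * q * q)] (hqM : ¬ q ∣ M) (hA : A.LiesOverPrime q)
  (ht : H91.TameAt M q)

attribute [local instance] algkM

/-- The three reductions of `totM`. -/
theorem rdN_totM_zero (x : ↥(L0 A (M * q * q))) (h : x ∈ V20o A q M) :
    (totM A q M B k hB hq hqM hA ht).rdN 0 x = r20 A q M hq hqM hA ⟨x, h⟩ :=
  (totM A q M B k hB hq hqM hA ht).rdN_of_mem (i := 0) h

theorem rdN_totM_one (x : ↥(L0 A (M * q * q))) (h : x ∈ V11o A q M B k hB hq) :
    (totM A q M B k hB hq hqM hA ht).rdN 1 x = r11 A q M B k hB hq hqM hA ⟨x, h⟩ :=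
  (totM A q M B k hB hq hqM hA ht).rdN_of_mem (i := 1) h

theorem rdN_totM_two (x : ↥(L0 A (M * q * q))) (h : x ∈ V02o A q M B k hB) :
    (totM A q M B k hB hq hqM hA ht).rdN 2 x = r02 A q M B k hB hq hqM hA ⟨x, h⟩ :=
  (totM A q M B k hB hq hqM hA ht).rdN_of_mem (i := 2) h

theorem rdN_totM_zero_eq_zero (x : ↥(L0 A (M * q * q))) (h : x ∈ V20o A q M)
    (h0 : s20 A q M ⟨x, h⟩ = 0) : (totM A q M B k hB hq hqM hA ht).rdN 0 x = 0 := by
  rw [rdN_totM_zero A q M B k hB hq hqM hA ht x h]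
  exact (show r20 A q M hq hqM hA ⟨x, h⟩ = (0 : FM A M) from Subtype.ext h0)

theorem rdN_totM_one_eq_zero (x : ↥(L0 A (M * q * q))) (h : x ∈ V11o A q M B k hB hq)
    (h0 : s11 A q M B k hB hq ⟨x, h⟩ = 0) : (totM A q M B k hB hq hqM hA ht).rdN 1 x = 0 := by
  rw [rdN_totM_one A q M B k hB hq hqM hA ht x h]
  exact (show r11 A q M B k hB hq hqM hA ⟨x, h⟩ = (0 : FM A M) from Subtype.ext h0)

theorem rdN_totM_two_eq_zero (x : ↥(L0 A (M * q * q))) (h : x ∈ V02o A q M B k hB)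
    (h0 : s02 A q M B k hB ⟨x, h⟩ = 0) : (totM A q M B k hB hq hqM hA ht).rdN 2 x = 0 := by
  rw [rdN_totM_two A q M B k hB hq hqM hA ht x h]
  exact (show r02 A q M B k hB hq hqM hA ⟨x, h⟩ = (0 : FM A M) from Subtype.ext h0)

theorem rdN_totM_zero_ne_zero (x : ↥(L0 A (M * q * q))) (h : x ∈ V20o A q M)
    (h0 : s20 A q M ⟨x, h⟩ ≠ 0) : (totM A q M B k hB hq hqM hA ht).rdN 0 x ≠ 0 := by
  rw [rdN_totM_zero A q M B k hB hq hqM hA ht x h]
  intro e
  have e' : r20 A q M hq hqM hA ⟨x, h⟩ = (0 : FM A M) := e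
  exact h0 (congrArg Subtype.val e')

theorem rdN_totM_one_ne_zero (x : ↥(L0 A (M * q * q))) (h : x ∈ V11o A q M B k hB hq)
    (h0 : s11 A q M B k hB hq ⟨x, h⟩ ≠ 0) : (totM A q M B k hB hq hqM hA ht).rdN 1 x ≠ 0 := by
  rw [rdN_totM_one A q M B k hB hq hqM hA ht x h]
  intro e
  have e' : r11 A q M B k hB hq hqM hA ⟨x, h⟩ = (0 : FM A M) := e
  exact h0 (congrArg Subtype.val e')

theorem rdN_totM_two_ne_zero (x : ↥(L0 A (M * q * q))) (h : x ∈ V02o A q M B k hB)
    (h0 : s02 A q M B k hB ⟨x, h⟩ ≠ 0) : (totM A q M B k hB hq hqM hA ht).rdN 2 x ≠ 0 := by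
  rw [rdN_totM_two A q M B k hB hq hqM hA ht x h]
  intro e
  have e' : r02 A q M B k hB hq hqM hA ⟨x, h⟩ = (0 : FM A M) := e
  exact h0 (congrArg Subtype.val e')

/-- **The input of the chart of `j`.** -/
theorem chartInput0 :
    ChartInput (totM A q M B k hB hq hqM hA ht) (j0 A (M * q * q)) (resRur A) where
  res_surj := resRur_surjective A hq hA
  const_mem := fun i r => by
    fin_cases i
    · exact const_mem_V20o A q M r
    · exact const_mem_V11o A q M B k hB hq r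
    · exact const_mem_V02o A q M B k hB r
  j_mem := fun i => by
    fin_cases i
    · exact j0_mem20 A q M
    · exact j0_mem11 A q M B k hB hq
    · exact j0_mem02 A q M B k hB hq
  red_const := fun i r hr => by
    fin_cases i
    · exact Subtype.ext (s20_const A q M r hr)
    · exact Subtype.ext (s11_const A q M B k hB hq r hr)
    · exact Subtype.ext (s02_const A q M B k hB r hr)

/-- `j` is a unit for the three valuations. -/
theorem rdN_j0_ne_zero (i : Fin 3) :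
    (totM A q M B k hB hq hqM hA ht).rdN i (j0 A (M * q * q)) ≠ 0 := by
  fin_cases i
  · refine rdN_totM_zero_ne_zero A q M B k hB hq hqM hA ht _ (j0_mem20 A q M) ?_
    rw [s20_j0]
    exact Jred_ne_zero A q hq
  · refine rdN_totM_one_ne_zero A q M B k hB hq hqM hA ht _ (j0_mem11 A q M B k hB hq) ?_
    rw [s11_j0]
    exact Jred_ne_zero A q hq
  · refine rdN_totM_two_ne_zero A q M B k hB hq hqM hA ht _ (j0_mem02 A q M B k hB hq) ?_
    rw [s02_j0 A q M B k hB hq]
    exact Jred2_ne_zero A q hq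

/-- **The input of the chart of `j⁻¹`.** -/
theorem chartInputInf :
    ChartInput (totM A q M B k hB hq hqM hA ht) (j0 A (M * q * q))⁻¹ (resRur A) :=
  (chartInput0 A q M B k hB hq hqM hA ht).inv _ _ _ (rdN_j0_ne_zero A q M B k hB hq hqM hA ht)

/-- **The chart of `j`**: `B = ` the integral closure of `R[j]`. -/
def chart0 : Chart ↥(Rur A) ↥(L0 A (M * q * q)) (kV A) (Fin 3) (kap3 (FM A M) (FM A M)) :=
  chartOf (totM A q M B k hB hq hqM hA ht) (j0 A (M * q * q)) (resRur A)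
    (chartInput0 A q M B k hB hq hqM hA ht)

/-- **The chart of `j⁻¹`**: `B = ` the integral closure of `R[j⁻¹]`. -/
def chartInf : Chart ↥(Rur A) ↥(L0 A (M * q * q)) (kV A) (Fin 3) (kap3 (FM A M) (FM A M)) :=
  chartOf (totM A q M B k hB hq hqM hA ht) (j0 A (M * q * q))⁻¹ (resRur A)
    (chartInputInf A q M B k hB hq hqM hA ht)

theorem chart0_B :
    (chart0 A q M B k hB hq hqM hA ht).B = intSub ↥(Rur A) (j0 A (M * q * q)) := rfl

theorem chartInf_B :
    (chartInf A q M B k hB hq hqM hA ht).B = intSub ↥(Rur A) (j0 A (M * q * q))⁻¹ := rfl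

theorem compat_chart0 :
    Compat (chart0 A q M B k hB hq hqM hA ht) (totM A q M B k hB hq hqM hA ht) :=
  compat_chartOf _ _ _ _

theorem compat_chartInf :
    Compat (chartInf A q M B k hB hq hqM hA ht) (totM A q M B k hB hq hqM hA ht) :=
  compat_chartOf _ _ _ _

/-! #### Noetherianity and fraction fields -/

include hq hA in
theorem isNoetherianRing_chart0 :
    IsNoetherianRing ↥(intSub ↥(Rur A) (j0 A (M * q * q))) := by
  haveI := isNoetherianRing_Rur A hq hA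
  exact isNoetherianRing_intSub ↥(Rur A) ↥(Kur A) (j0 A (M * q * q))
    (transcendental_j0 A (M * q * q))

theorem isFractionRing_chart0 :
    IsFractionRing ↥(intSub ↥(Rur A) (j0 A (M * q * q))) ↥(L0 A (M * q * q)) :=
  isFractionRing_intSub ↥(Rur A) ↥(Kur A) (j0 A (M * q * q))

include hq hA in
theorem isNoetherianRing_chartInf :
    IsNoetherianRing ↥(intSub ↥(Rur A) (j0 A (M * q * q))⁻¹) := by
  haveI := isNoetherianRing_Rur A hq hA
  haveI := finiteDimensional_adjoin_inv ↥(Kur A) (j0 A (M * q * q))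
  haveI := isSeparable_adjoin_inv ↥(Kur A) (j0 A (M * q * q))
  exact isNoetherianRing_intSub ↥(Rur A) ↥(Kur A) (j0 A (M * q * q))⁻¹
    (transcendental_inv ↥(Kur A) _ (transcendental_j0 A (M * q * q)))

theorem isFractionRing_chartInf :
    IsFractionRing ↥(intSub ↥(Rur A) (j0 A (M * q * q))⁻¹) ↥(L0 A (M * q * q)) := by
  haveI := finiteDimensional_adjoin_inv ↥(Kur A) (j0 A (M * q * q))
  exact isFractionRing_intSub ↥(Rur A) ↥(Kur A) (j0 A (M * q * q))⁻¹

/-! #### The hypotheses `ChartHyp` -/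

include hq hA in
theorem charP_kap3 (i : Fin 3) : CharP (kap3 (FM A M) (FM A M) i) q := by
  haveI : CharP (kV A) q := Fermat.Agent.BAD.H82.charP_kV A hq hA
  have h : CharP (FM A M) q :=
    charP_of_injective_algebraMap (algebraMap (kV A) (FM A M)).injective q
  fin_cases i
  · exact h
  · exact h
  · exact h

/-- **The separating elements** of the chart of `j`, if `j'' = j(q²τ)` is integral over
`R[j]`. -/
theorem hinc_chart0 (hjdd : jdd A q M ∈ intSub ↥(Rur A) (j0 A (M * q * q))) :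
    ∀ i i' : Fin 3, i ≠ i' → ∃ τ : ↥(L0 A (M * q * q)),
      τ ∈ intSub ↥(Rur A) (j0 A (M * q * q)) ∧
      (totM A q M B k hB hq hqM hA ht).rdN i' τ = 0 ∧
      (totM A q M B k hB hq hqM hA ht).rdN i τ ≠ 0 := by
  have hj : j0 A (M * q * q) ∈ intSub ↥(Rur A) (j0 A (M * q * q)) := self_mem_intSub _ _
  have hA' : tauA A q M ∈ intSub ↥(Rur A) (j0 A (M * q * q)) :=
    sub_mem hjdd (pow_mem hj 1)
  have hB' : tauB A q M ∈ intSub ↥(Rur A) (j0 A (M * q * q)) :=
    sub_mem hjdd (pow_mem hj _)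
  have hC' : tauC A q M ∈ intSub ↥(Rur A) (j0 A (M * q * q)) :=
    sub_mem hj (pow_mem hjdd _)
  intro i i' hii
  fin_cases i <;> fin_cases i'
  · exact absurd rfl hii
  · -- (20, 11): τ_a
    refine ⟨tauA A q M, hA', ?_, ?_⟩
    · exact rdN_totM_one_eq_zero A q M B k hB hq hqM hA ht _ (tauA_mem11 A q M B k hB hq hA)
        (s11_tauA A q M B k hB hq hA _)
    · refine rdN_totM_zero_ne_zero A q M B k hB hq hqM hA ht _ (tauA_mem20 A q M) ?_
      rw [s20_tauA]
      exact Jred2_sub_ne_zero A q hq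
  · -- (20, 02): τ_c
    refine ⟨tauC A q M, hC', ?_, ?_⟩
    · exact rdN_totM_two_eq_zero A q M B k hB hq hqM hA ht _ (tauC_mem02 A q M B k hB hq)
        (s02_tauC A q M B k hB hq hA _)
    · refine rdN_totM_zero_ne_zero A q M B k hB hq hqM hA ht _ (tauC_mem20 A q M) ?_
      rw [s20_tauC]
      exact Jred_sub_pow_ne_zero A q hq hA
  · -- (11, 20): τ_b
    refine ⟨tauB A q M, hB', ?_, ?_⟩
    · exact rdN_totM_zero_eq_zero A q M B k hB hq hqM hA ht _ (tauB_mem20 A q M)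
        (s20_tauB A q M hq hA _)
    · refine rdN_totM_one_ne_zero A q M B k hB hq hqM hA ht _
        (tauB_mem11 A q M B k hB hq hA) ?_
      rw [s11_tauB A q M B k hB hq hA]
      exact Jred_sub_ne_zero A q hq
  · exact absurd rfl hii
  · -- (11, 02): τ_c
    refine ⟨tauC A q M, hC', ?_, ?_⟩
    · exact rdN_totM_two_eq_zero A q M B k hB hq hqM hA ht _ (tauC_mem02 A q M B k hB hq)
        (s02_tauC A q M B k hB hq hA _)
    · refine rdN_totM_one_ne_zero A q M B k hB hq hqM hA ht _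
        (tauC_mem11 A q M B k hB hq hA) ?_
      rw [s11_tauC A q M B k hB hq hA]
      exact Jred_sub_ne_zero A q hq
  · -- (02, 20): τ_b
    refine ⟨tauB A q M, hB', ?_, ?_⟩
    · exact rdN_totM_zero_eq_zero A q M B k hB hq hqM hA ht _ (tauB_mem20 A q M)
        (s20_tauB A q M hq hA _)
    · refine rdN_totM_two_ne_zero A q M B k hB hq hqM hA ht _
        (tauB_mem02 A q M B k hB hq) ?_
      rw [s02_tauB A q M B k hB hq]
      exact Jred_sub_pow_ne_zero A q hq hA
  · -- (02, 11): τ_a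
    refine ⟨tauA A q M, hA', ?_, ?_⟩
    · exact rdN_totM_one_eq_zero A q M B k hB hq hqM hA ht _ (tauA_mem11 A q M B k hB hq hA)
        (s11_tauA A q M B k hB hq hA _)
    · refine rdN_totM_two_ne_zero A q M B k hB hq hqM hA ht _
        (tauA_mem02 A q M B k hB hq) ?_
      rw [s02_tauA A q M B k hB hq]
      exact Jred_sub_ne_zero A q hq
  · exact absurd rfl hii

/-- **`ChartHyp` for the chart of `j`.** -/
theorem chartHyp_chart0 (n : ℕ) (hn : 0 < n) (hcop : Nat.Coprime n q)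
    (hjdd : jdd A q M ∈ intSub ↥(Rur A) (j0 A (M * q * q))) :
    ChartHyp (chart0 A q M B k hB hq hqM hA ht) q n :=
  chartHyp_chartOf _ _ _ _ q n hq (charP_kap3 A q M hq hA) hn hcop
    (hinc_chart0 A q M B k hB hq hqM hA ht hjdd)

/-- **`ChartHyp` for the chart of `j⁻¹`.** -/
theorem chartHyp_chartInf (n : ℕ) (hn : 0 < n) (hcop : Nat.Coprime n q)
    (hjdd : jdd A q M ∈ intSub ↥(Rur A) (j0 A (M * q * q))) :
    ChartHyp (chartInf A q M B k hB hq hqM hA ht) q n :=
  chartHyp_chartOf _ _ _ _ q n hq (charP_kap3 A q M hq hA) hn hcop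
    (hinc_inv _ _ _ (chartInput0 A q M B k hB hq hqM hA ht)
      (rdN_j0_ne_zero A q M B k hB hq hqM hA ht)
      (hinc_chart0 A q M B k hB hq hqM hA ht hjdd))

end Charts

end Fermat.Agent.S36.NU.H88

end
end
-- ==== END Fermat.Agent.S36.NU.H88_ChartMod

-- ==== BEGIN Fermat.Agent.S36.NU.H89_NmN
section
attribute [local instance 10000] SubalgebraClass.toAlgebra
attribute [local instance 10000] HahnSeries.powerSeriesAlgebra

/-!
# S36 / NU-B, leaf NM-N (helper89): the norm half of the modular `NUData`, part 1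

Level `N = M q²`, `q ∤ M` tame, `A` over `q`.  `T = H23.totM` (three valuations of `L0 (M q²)`,
residue fields `FM A M`), `T' = S35.H89.modTot` (two valuations of `F_{Mq}`, residue fields
`F1 A q M`).

* `NalphaM`, `NbetaM : L0 (M q²) →* F_{Mq}` : the norms along the two degeneracy maps;
* `cFM : FM A M →ₐ F1 A q M`, `cF1 : F1 A q M →ₐ FM A M` : the identification (D) of the residue
  fields of levels `M` and `M q` (same subfield of `k((t))`), `coe_cFM`, `coe_cF1`;
* `resId`, `resFr : ResNorm k (FM A M) (F1 A q M)` : the norms of residue fields of degree `1`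
  and `q` (`N = cFM`, `j = cF1`, resp. `N = cFM ∘ φ`, `j = Fr ∘ cF1`);
* `normAlpha1` : NORM-RED along `α` above `V₁` (from helper87's `nrA1`).
-/

set_option autoImplicit false
set_option linter.style.haveILetI false
set_option linter.unusedSectionVars false
set_option synthInstance.maxHeartbeats 400000
set_option maxHeartbeats 1000000

noncomputable section

open HahnSeries IntermediateField AlgebraicCurve ModularCurve
open Fermat.Agent.S24 Fermat.Agent.BAD.H88 Fermat.Agent.S28 Fermat.Agent.S28.H73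
open Fermat.Agent.RED.H73 Fermat.Agent.RED.H17 Fermat.Agent.S36.NU.H88
open Fermat.Agent.S36.NU.H23 Fermat.Agent.S36.NU.H79 Fermat.Agent.BAD Fermat.Agent.RED

namespace Fermat.Agent.S36.NU.H89

section Norms

variable (A : ValuationSubring Kbar) (q M : ℕ) [NeZero M] [NeZero q] [NeZero (M * q * q)]
  [NeZero (M * q)]

theorem normAlongHom_one' {E L : Type*} [Field E] [Field L] (φ : E →+* L) :
    Fermat.Agent.Lib.HeckeComm.normAlongHom φ (1 : L) = 1 := by
  letI := φ.toAlgebra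
  exact map_one (Algebra.norm E)

/-- The norm along `α : X₀(M q²) → X₀(M q)` on the inertia-fixed functions. -/
def NalphaM : ↥(L0 A (M * q * q)) →* FN (M * q) where
  toFun h := Fermat.Agent.Lib.HeckeComm.normAlongHom (heckeAlphaBar Kbar (M * q) q).toRingHom
    (h : FN (M * q * q))
  map_one' := normAlongHom_one' _
  map_mul' _ _ := Fermat.Agent.S36.NU.H10.normAlongHom_mul _ _ _

/-- The norm along `β : X₀(M q²) → X₀(M q)` on the inertia-fixed functions. -/
def NbetaM : ↥(L0 A (M * q * q)) →* FN (M * q) where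
  toFun h := Fermat.Agent.Lib.HeckeComm.normAlongHom (heckeBetaBar Kbar (M * q) q).toRingHom
    (h : FN (M * q * q))
  map_one' := normAlongHom_one' _
  map_mul' _ _ := Fermat.Agent.S36.NU.H10.normAlongHom_mul _ _ _

theorem NalphaM_apply (h : ↥(L0 A (M * q * q))) :
    NalphaM A q M h = Fermat.Agent.Lib.HeckeComm.normAlongHom
      (heckeAlphaBar Kbar (M * q) q).toRingHom (h : FN (M * q * q)) := rfl

theorem NbetaM_apply (h : ↥(L0 A (M * q * q))) :
    NbetaM A q M h = Fermat.Agent.Lib.HeckeComm.normAlongHom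
      (heckeBetaBar Kbar (M * q) q).toRingHom (h : FN (M * q * q)) := rfl

end Norms

section Res

variable (A : ValuationSubring Kbar) (q M : ℕ) (B k : ℤ) (hB : B * M + k * q = 1) (hq : q.Prime)
  [NeZero M] [NeZero q] [NeZero (M * q * q)] [NeZero (M * q)] (hqM : ¬ q ∣ M)
  (hA : A.LiesOverPrime q)

include hB hq hA in
/-- (D): the residue fields of levels `M q` and `M` are the same subfield of `k((t))`. -/
theorem hD : redField A (modularFunctionFieldBar (M * q)) (hSc A q M)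
    = redField A (modularFunctionFieldBar M) (hScM A M) :=
  H82.redField_eq_redField q M k B (hab_of_hB q M B k hB) hq A hA

/-- The identification `FM A M → F1 A q M` (same series). -/
def cFM : FM A M →ₐ[kV A] F1 A q M :=
  IntermediateField.inclusion (le_of_eq (hD A q M B k hB hq hA).symm)

/-- The identification `F1 A q M → FM A M` (same series). -/
def cF1 : F1 A q M →ₐ[kV A] FM A M :=
  IntermediateField.inclusion (le_of_eq (hD A q M B k hB hq hA))

theorem coe_cFM (x : FM A M) :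
    ((cFM A q M B k hB hq hA x : F1 A q M) : LaurentSeries (kV A))
      = (x : LaurentSeries (kV A)) :=
  IntermediateField.coe_inclusion _ x

theorem coe_cF1 (y : F1 A q M) :
    ((cF1 A q M B k hB hq hA y : FM A M) : LaurentSeries (kV A))
      = (y : LaurentSeries (kV A)) :=
  IntermediateField.coe_inclusion _ y

theorem cF1_cFM (x : FM A M) : cF1 A q M B k hB hq hA (cFM A q M B k hB hq hA x) = x := by
  apply Subtype.ext
  rw [coe_cF1, coe_cFM]

theorem cFM_cF1 (y : F1 A q M) : cFM A q M B k hB hq hA (cF1 A q M B k hB hq hA y) = y := by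
  apply Subtype.ext
  rw [coe_cFM, coe_cF1]

/-- The norm of residue fields of degree `1`: the identification (D). -/
def resId : ResNorm (kV A) (FM A M) (F1 A q M) where
  N := (cFM A q M B k hB hq hA : FM A M →* F1 A q M)
  j := cF1 A q M B k hB hq hA
  f := 1
  hj := fun x => by
    rw [pow_one]
    exact cF1_cFM A q M B k hB hq hA x

/-- The norm of residue fields of degree `q`: `N = (D) ∘ φ`, `j = Fr ∘ (D)`. -/
def resFr : ResNorm (kV A) (FM A M) (F1 A q M) where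
  N := (cFM A q M B k hB hq hA : FM A M →* F1 A q M).comp
    ((phiM A q M hq hqM hA : FM A M ≃+* FM A M) : FM A M →* FM A M)
  j := (FrM A q M hq hqM hA).comp (cF1 A q M B k hB hq hA)
  f := q
  hj := fun x => by
    show FrM A q M hq hqM hA (cF1 A q M B k hB hq hA
      (cFM A q M B k hB hq hA (phiM A q M hq hqM hA x))) = x ^ q
    rw [cF1_cFM]
    exact @BAD.H73.FrE_frobE (kV A) _ q ⟨hq⟩ (BAD.H82.charP_kV A hq hA)
      (@BAD.H73.perfectRing_kV _ _ _ A q ⟨hq⟩ (BAD.H82.charP_kV A hq hA)) _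
      (frobStable_FM A q M hq hqM hA) x

theorem resId_f : (resId A q M B k hB hq hA).f = 1 := rfl

theorem resFr_f : (resFr A q M B k hB hq hqM hA).f = q := rfl

theorem coe_resId_N (x : FM A M) :
    (((resId A q M B k hB hq hA).N x : F1 A q M) : LaurentSeries (kV A))
      = (x : LaurentSeries (kV A)) :=
  coe_cFM A q M B k hB hq hA x

theorem coe_resFr_N (x : FM A M) :
    (((resFr A q M B k hB hq hqM hA).N x : F1 A q M) : LaurentSeries (kV A))
      = ((phiM A q M hq hqM hA x : FM A M) : LaurentSeries (kV A)) :=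
  coe_cFM A q M B k hB hq hA _

end Res

section Alpha1

variable (A : ValuationSubring Kbar) (q M : ℕ) (B k : ℤ) (hB : B * M + k * q = 1) (hq : q.Prime)
  [NeZero M] [NeZero q] [NeZero (M * q * q)] [NeZero (M * q)] (hqM : ¬ q ∣ M)
  (hA : A.LiesOverPrime q) (ht : H91.TameAt M q)

/-- The reduction of `h` for the `i`-th valuation of `totM` (`0` if `h` is not integral). -/
abbrev rd3 (i : Fin 3) (h : ↥(L0 A (M * q * q))) : kap3 (FM A M) (FM A M) i :=
  @TotN.rdN Kbar ↥(L0 A (M * q * q)) (FN (M * q * q)) (kV A) (Fin 3)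
    (Place (kV A) (FM A M)) (kap3 (FM A M) (FM A M)) _ _ _ _ _ _ _ _ (algkM A M)
    (totM A q M B k hB hq hqM hA ht) i h

/-- The lower datum `T'`. -/
abbrev TL : H79.TotData Kbar (FN (M * q)) (kV A) (F1 A q M) (F1 A q M) :=
  Fermat.Agent.S35.H89.modTot A q M k B (hab_of_hB q M B k hB) hq hA hqM ht

theorem mem20_of_rd3 {h : ↥(L0 A (M * q * q))} (hu : rd3 A q M B k hB hq hqM hA ht 0 h ≠ 0) :
    h ∈ V20o A q M :=
  @TotN.mem_of_rdN_ne_zero Kbar ↥(L0 A (M * q * q)) (FN (M * q * q)) (kV A) (Fin 3)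
    (Place (kV A) (FM A M)) (kap3 (FM A M) (FM A M)) _ _ _ _ _ _ _ _ (algkM A M)
    (totM A q M B k hB hq hqM hA ht) 0 h hu

theorem mem11_of_rd3 {h : ↥(L0 A (M * q * q))} (hu : rd3 A q M B k hB hq hqM hA ht 1 h ≠ 0) :
    h ∈ V11o A q M B k hB hq :=
  @TotN.mem_of_rdN_ne_zero Kbar ↥(L0 A (M * q * q)) (FN (M * q * q)) (kV A) (Fin 3)
    (Place (kV A) (FM A M)) (kap3 (FM A M) (FM A M)) _ _ _ _ _ _ _ _ (algkM A M)
    (totM A q M B k hB hq hqM hA ht) 1 h hu

theorem mem02_of_rd3 {h : ↥(L0 A (M * q * q))} (hu : rd3 A q M B k hB hq hqM hA ht 2 h ≠ 0) :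
    h ∈ V02o A q M B k hB :=
  @TotN.mem_of_rdN_ne_zero Kbar ↥(L0 A (M * q * q)) (FN (M * q * q)) (kV A) (Fin 3)
    (Place (kV A) (FM A M)) (kap3 (FM A M) (FM A M)) _ _ _ _ _ _ _ _ (algkM A M)
    (totM A q M B k hB hq hqM hA ht) 2 h hu

theorem rd3_zero {h : ↥(L0 A (M * q * q))} (hm : h ∈ V20o A q M) :
    @Eq (FM A M) (rd3 A q M B k hB hq hqM hA ht 0 h) (r20 A q M hq hqM hA ⟨h, hm⟩) :=
  @TotN.rdN_of_mem Kbar ↥(L0 A (M * q * q)) (FN (M * q * q)) (kV A) (Fin 3)
    (Place (kV A) (FM A M)) (kap3 (FM A M) (FM A M)) _ _ _ _ _ _ _ _ (algkM A M)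
    (totM A q M B k hB hq hqM hA ht) 0 h hm

theorem rd3_one {h : ↥(L0 A (M * q * q))} (hm : h ∈ V11o A q M B k hB hq) :
    @Eq (FM A M) (rd3 A q M B k hB hq hqM hA ht 1 h) (r11 A q M B k hB hq hqM hA ⟨h, hm⟩) :=
  @TotN.rdN_of_mem Kbar ↥(L0 A (M * q * q)) (FN (M * q * q)) (kV A) (Fin 3)
    (Place (kV A) (FM A M)) (kap3 (FM A M) (FM A M)) _ _ _ _ _ _ _ _ (algkM A M)
    (totM A q M B k hB hq hqM hA ht) 1 h hm

theorem rd3_two {h : ↥(L0 A (M * q * q))} (hm : h ∈ V02o A q M B k hB) :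
    @Eq (FM A M) (rd3 A q M B k hB hq hqM hA ht 2 h) (r02 A q M B k hB hq hqM hA ⟨h, hm⟩) :=
  @TotN.rdN_of_mem Kbar ↥(L0 A (M * q * q)) (FN (M * q * q)) (kV A) (Fin 3)
    (Place (kV A) (FM A M)) (kap3 (FM A M) (FM A M)) _ _ _ _ _ _ _ _ (algkM A M)
    (totM A q M B k hB hq hqM hA ht) 2 h hm

include hqM hA in
/-- **NORM-RED along `α` above `V₁`, series form**. -/
theorem normAlpha1_series (h : ↥(L0 A (M * q * q))) (h20 : h ∈ V20o A q M)
    (h11 : h ∈ V11o A q M B k hB hq) :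
    ∃ hm : NalphaM A q M h ∈ V1 A q M,
      ((red1 A q M ⟨NalphaM A q M h, hm⟩ : F1 A q M) : LaurentSeries (kV A))
        = s20 A q M ⟨h, h20⟩ * s11 A q M B k hB hq ⟨h, h11⟩ ^ (q - 1) := by
  obtain ⟨hm, hs⟩ := Fermat.Agent.S36.NU.H87.normA1_F A q M B k hB hq hqM hA h h20 h11
  exact ⟨hm, hs⟩

/-- **`normα₁`** of the modular `NUData`. -/
theorem normAlpha1 (h : ↥(L0 A (M * q * q)))
    (hu : ∀ i, rd3 A q M B k hB hq hqM hA ht i h ≠ 0) :
    (TL A q M B k hB hq hqM hA ht).p₁.rd (NalphaM A q M h)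
      = (resId A q M B k hB hq hA).N (rd3 A q M B k hB hq hqM hA ht 0 h)
        * (resId A q M B k hB hq hA).N (rd3 A q M B k hB hq hqM hA ht 1 h) ^ (q - 1) := by
  have h20 := mem20_of_rd3 A q M B k hB hq hqM hA ht (hu 0)
  have h11 := mem11_of_rd3 A q M B k hB hq hqM hA ht (hu 1)
  obtain ⟨hm, hs⟩ := normAlpha1_series A q M B k hB hq hqM hA h h20 h11
  have hm' : NalphaM A q M h ∈ (TL A q M B k hB hq hqM hA ht).p₁.V := hm
  rw [(TL A q M B k hB hq hqM hA ht).p₁.rd_of_mem hm']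
  apply Subtype.ext
  refine Eq.trans hs ?_
  have e0 : (resId A q M B k hB hq hA).N (rd3 A q M B k hB hq hqM hA ht 0 h)
      = (resId A q M B k hB hq hA).N (r20 A q M hq hqM hA ⟨h, h20⟩) :=
    congrArg _ (rd3_zero A q M B k hB hq hqM hA ht h20)
  have e1 : (resId A q M B k hB hq hA).N (rd3 A q M B k hB hq hqM hA ht 1 h)
      = (resId A q M B k hB hq hA).N (r11 A q M B k hB hq hqM hA ⟨h, h11⟩) :=
    congrArg _ (rd3_one A q M B k hB hq hqM hA ht h11)
  rw [e0, e1, MulMemClass.coe_mul, SubmonoidClass.coe_pow, coe_resId_N, coe_resId_N]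
  rfl

end Alpha1

end Fermat.Agent.S36.NU.H89

end
end
-- ==== END Fermat.Agent.S36.NU.H89_NmN

-- ==== BEGIN Fermat.Agent.S36.NU.H99_OrdMod2
section

/-!
# S36 / NU-B, (M4) LOCEQ at the ordinary points, modular part 2 (helper99)

`f ∈ F_M` with integral expansion `u₀ ∈ ℤ((t))`.  The local equation `t₁₁ = f(t^{q²}) - f(t)` of the
middle component, as an inertia-fixed function of level `M q²`:
* `t11o`, membership in the three valuation rings;
* `f11o = t₁₁^(q-1) / q ∈ V₁₁` and its reduction `ε̄ (θ ū₀)^(q-1)`, `ε̄ ≠ 0` a constant.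
-/

set_option autoImplicit false
set_option synthInstance.maxHeartbeats 400000
set_option maxHeartbeats 1000000
set_option linter.unusedSectionVars false
set_option linter.style.haveILetI false

noncomputable section

open ModularCurve AlgebraicCurve IntermediateField
open Fermat.Agent.S24 Fermat.Agent.BAD.H88 Fermat.Agent.BAD.H30 Fermat.Agent.BAD.H21
open Fermat.Agent.S28 Fermat.Agent.S28.H73 Fermat.Agent.RED.H73 Fermat.Agent.RED.H17
open Fermat.Agent.S36.NU.H88 Fermat.Agent.S36.NU.H23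
open Fermat.Agent.S36.NU.H41 Fermat.Agent.RED

namespace Fermat.Agent.S36.NU.H99

section T11

variable (A : ValuationSubring Kbar)
variable (q M : ℕ) (B k : ℤ) (hB : B * M + k * q = 1) (hq : q.Prime) [NeZero M] [NeZero q]
  [NeZero (M * q)] [NeZero (M * q * q)]
variable (f : FN M) (u₀ : LaurentSeries ℤ)
  (hf : (f : LaurentSeries Kbar) = H65.intSer Kbar u₀)

include hf in
theorem mem_L0_of_intSer : f ∈ L0 A M := by
  rw [mem_L0_iff_coeffMap]
  intro σ _
  rw [hf, H65.intSer, ModularCurve.coeffMap_coeffMap]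
  exact coeffMap_congr (RingHom.ext_int _ _) u₀

include hf in
theorem mem_VM_of_intSer : f ∈ VM A M := by
  show (f : LaurentSeries Kbar) ∈ gaussRingV A
  rw [hf]
  exact H65.intSer_mem A u₀

theorem incAA_mem_L0 (x : FN M) (hx : x ∈ L0 A M) : incAA q M x ∈ L0 A (M * q * q) :=
  Fermat.Agent.S36.NU.H82.alpha_mem_L0 A (M * q) q _
    (Fermat.Agent.S36.NU.H82.alpha_mem_L0 A M q x hx)

include hf in
theorem t11_mem_L0 : t11 q M f ∈ L0 A (M * q * q) :=
  sub_mem (incBB_mem_L0 A q M f (mem_L0_of_intSer A M f u₀ hf))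
    (incAA_mem_L0 A q M f (mem_L0_of_intSer A M f u₀ hf))

/-- `t₁₁ = f(t^{q²}) - f(t)` as an inertia-fixed function. -/
def t11o : ↥(L0 A (M * q * q)) := ⟨t11 q M f, t11_mem_L0 A q M f u₀ hf⟩

theorem t11o_mem20 : t11o A q M f u₀ hf ∈ V20o A q M :=
  sub_mem ((incBB_mem_V20_iff A q M f).2 (mem_VM_of_intSer A M f u₀ hf))
    ((incAA_mem_V20_iff A q M f).2 (mem_VM_of_intSer A M f u₀ hf))

include hq in
theorem t11o_mem11 : t11o A q M f u₀ hf ∈ V11o A q M B k hB hq :=
  sub_mem ((incBB_mem_V11_iff A q M B k hB hq f).2 (mem_VM_of_intSer A M f u₀ hf))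
    ((incAA_mem_V11_iff A q M B k hB hq f).2 (mem_VM_of_intSer A M f u₀ hf))

include hq in
theorem t11o_mem02 : t11o A q M f u₀ hf ∈ V02o A q M B k hB :=
  sub_mem ((incBB_mem_V02_iff A q M B k hB hq f).2 (mem_VM_of_intSer A M f u₀ hf))
    ((incAA_mem_V02_iff A q M B k hB hq f).2 (mem_VM_of_intSer A M f u₀ hf))

/-! ### The unit `ε = (z - 1)^(q-1) / q` -/

/-- `ε = (z - 1)^(q-1) / q`, `z = ζ_q^B`. -/
def epsK : Kbar := (zetaK q ^ B - 1) ^ (q - 1) * ((q : ℕ) : Kbar)⁻¹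

include hB hq in
theorem val_epsK : A.valuation (epsK q B) = 1 := by
  have h := val_zMid_sub_one A q M B k hB hq
  have hq0 : A.valuation ((q : ℕ) : Kbar) ≠ 0 :=
    (Valuation.ne_zero_iff _).2 (Nat.cast_ne_zero.2 hq.ne_zero)
  rw [epsK, map_mul, map_pow, map_inv₀, h]
  exact mul_inv_cancel₀ hq0

include hB hq in
theorem epsK_mem : epsK q B ∈ A :=
  (A.valuation_le_one_iff _).1 (val_epsK A q M B k hB hq).le

include hB hq in
theorem resV_epsK_ne_zero : resV A ⟨epsK q B, epsK_mem A q M B k hB hq⟩ ≠ 0 := by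
  intro h0
  have h1 : (⟨epsK q B, epsK_mem A q M B k hB hq⟩ : ↥A) ∈ IsLocalRing.maximalIdeal ↥A :=
    (IsLocalRing.residue_eq_zero_iff _).1 h0
  have h2 : A.valuation (epsK q B) < 1 :=
    (A.valuation_lt_one_iff _).1 h1
  exact h2.ne (val_epsK A q M B k hB hq)

/-! ### `f₁₁ = t₁₁^(q-1) / q` -/

include hB hq in
theorem t11_pow_div :
    t11 q M f ^ (q - 1) * (cQ q M)⁻¹
      = algebraMap Kbar (FN (M * q * q)) (epsK q B) * th11 q M B f ^ (q - 1) := by
  rw [t11_eq q M B k hB hq f, mul_pow, epsK, map_mul, map_pow, map_inv₀, cQ]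
  simp only [map_natCast]
  ring

/-- `f₁₁ = t₁₁^(q-1) / q` as an inertia-fixed function. -/
def f11o : ↥(L0 A (M * q * q)) :=
  t11o A q M f u₀ hf ^ (q - 1) * (((q : ℕ) : ↥(L0 A (M * q * q))))⁻¹

theorem coe_f11o : ((f11o A q M f u₀ hf : ↥(L0 A (M * q * q))) : FN (M * q * q))
    = t11 q M f ^ (q - 1) * (cQ q M)⁻¹ := by
  rw [cQ_eq_natCast]
  rfl

include hq in
theorem t11o_pow_eq : t11o A q M f u₀ hf ^ (q - 1)
    = ((q : ℕ) : ↥(L0 A (M * q * q))) * f11o A q M f u₀ hf := by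
  have h0 : ((q : ℕ) : ↥(L0 A (M * q * q))) ≠ 0 := Nat.cast_ne_zero.2 hq.ne_zero
  rw [f11o]
  field_simp

include hB hq in
theorem f11o_mem11 : f11o A q M f u₀ hf ∈ V11o A q M B k hB hq := by
  show ((f11o A q M f u₀ hf : ↥(L0 A (M * q * q))) : FN (M * q * q))
    ∈ V11 A (M * q * q) q M B k (lvl q M) hB hq
  rw [coe_f11o, t11_pow_div q M B k hB hq f]
  exact mul_mem ((const_mem11 A (M * q * q) q M B k (lvl q M) hB hq _).2
    (epsK_mem A q M B k hB hq))
    (pow_mem (th11_mem_V11 A q M B k hB hq f u₀ hf) _)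

include hB hq in
/-- **The reduction of `t₁₁^(q-1) / q` at `V₁₁` is `ε̄ (θ ū₀)^(q-1)`.** -/
theorem s11_f11o (hA : (q : Kbar) ∈ A.nonunits) :
    s11 A q M B k hB hq ⟨f11o A q M f u₀ hf, f11o_mem11 A q M B k hB hq f u₀ hf⟩
      = algebraMap (kV A) (LaurentSeries (kV A))
          (resV A ⟨epsK q B, epsK_mem A q M B k hB hq⟩)
        * H73.thetaL (coeffMap (Int.castRingHom (kV A)) u₀) ^ (q - 1) := by
  have hc : algebraMap Kbar (FN (M * q * q)) (epsK q B)
      ∈ V11 A (M * q * q) q M B k (lvl q M) hB hq :=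
    (const_mem11 A (M * q * q) q M B k (lvl q M) hB hq _).2 (epsK_mem A q M B k hB hq)
  have hth := th11_mem_V11 A q M B k hB hq f u₀ hf
  have hmem : ((f11o A q M f u₀ hf : ↥(L0 A (M * q * q))) : FN (M * q * q))
      ∈ V11 A (M * q * q) q M B k (lvl q M) hB hq := f11o_mem11 A q M B k hB hq f u₀ hf
  have e : (⟨((f11o A q M f u₀ hf : ↥(L0 A (M * q * q))) : FN (M * q * q)), hmem⟩ :
      ↥(V11 A (M * q * q) q M B k (lvl q M) hB hq))
      = ⟨_, hc⟩ * ⟨_, hth⟩ ^ (q - 1) := by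
    apply Subtype.ext
    show ((f11o A q M f u₀ hf : ↥(L0 A (M * q * q))) : FN (M * q * q)) = _
    rw [coe_f11o, t11_pow_div q M B k hB hq f]
    rfl
  show ((red11 A (M * q * q) q M B k (lvl q M) hB hq ⟨_, hmem⟩ :
      F11 A (M * q * q) q M B k (lvl q M) hB hq) : LaurentSeries (kV A)) = _
  rw [e, map_mul, map_pow,
    red11_const A (M * q * q) q M B k (lvl q M) hB hq ⟨epsK q B, epsK_mem A q M B k hB hq⟩ hc]
  show algebraMap (kV A) (LaurentSeries (kV A)) _
    * ((red11 A (M * q * q) q M B k (lvl q M) hB hq ⟨_, hth⟩ :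
      F11 A (M * q * q) q M B k (lvl q M) hB hq) : LaurentSeries (kV A)) ^ (q - 1) = _
  rw [red11_th11 A q M B k hB hq hA f u₀ hf hth]

end T11

end Fermat.Agent.S36.NU.H99

end
end
-- ==== END Fermat.Agent.S36.NU.H99_OrdMod2
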