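-- GENERATED (merged mirror, NOTES/tools/trim/merge3_helper67.py): 4 modules of the originals, bodies verbatim.
import Fermat.Agent.Zm.S36_L12_000
import Fermat.Agent.Zm.S36_L13_001
import Fermat.Agent.Zm.S36_L06_001
import Fermat.Agent.Zm.S36_L05_001
import Fermat.Agent.Zm.S36_L13_000
import Fermat.Agent.Zm.S35_L21_000
import Fermat.Agent.Zm.S35_L24_000
import Fermat.Agent.Zm.S35_L02_001
import Fermat.Agent.Zm.S36_L10_001
import Fermat.Agent.Zm.S36_L03_001
import Fermat.Agent.Zm.S36_L10_000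

-- ==== BEGIN Fermat.Agent.S36.NU.H16_HssAux
section

/-!
# S36 / NU-B, auxiliary lemmas for HSS-ASM (helper16)

* `thetaNZ_of_thetaL_ne_zero` : `θ x ≠ 0` in characteristic `q` ⟹ `ThetaNZ q x`;
  `thetaNZ_uZ4` : the hypothesis `hθ` of `locEq_ss_modV` for `u = Δ(t)/Δ(t⁴)`, `q ≥ 5`;
* `uo_mem20/11/02`, `u2o_mem20/11/02`, `s20_uo`, ... : the coordinate `u = f(τ)` and
  `u'' = f(q²τ)` at the three valuations;
* `rdN_uo`, `rdN_d20o` : their reductions on the component `C₂₀` of `totM`.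
-/

set_option autoImplicit false
set_option synthInstance.maxHeartbeats 400000
set_option maxHeartbeats 1000000
set_option linter.unusedSectionVars false
set_option linter.style.haveILetI false

noncomputable section

namespace Fermat.Agent.S36.NU.H16

open Fermat.Agent.S24 Fermat.Agent.BAD.H88 ModularCurve AlgebraicCurve
open Fermat.Agent.S28 Fermat.Agent.S28.H73 Fermat.Agent.RED.H73 Fermat.Agent.RED.H17
open Fermat.Agent.S36.NU.H88 Fermat.Agent.S36.NU.H23 Fermat.Agent.S36.NU.H73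
open Fermat.Agent.BAD.H30

section Theta

variable (k : Type*) [Field k]

/-- `θ x ≠ 0` in characteristic `q` ⟹ some coefficient of `x` of index prime to `q` is
non-zero. -/
theorem thetaNZ_of_thetaL_ne_zero (q : ℕ) [CharP k q] (x : LaurentSeries k)
    (h : thetaL x ≠ 0) : H65.ThetaNZ q x := by
  obtain ⟨n, hn⟩ : ∃ n : ℤ, (thetaL x).coeff n ≠ 0 := by
    by_contra hcon
    push Not at hcon
    exact h (HahnSeries.ext (funext hcon))
  rw [thetaL_coeff] at hn
  refine ⟨n, ?_, right_ne_zero_of_mul hn⟩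
  intro hdvd
  exact left_ne_zero_of_mul hn ((CharP.intCast_eq_zero_iff k q n).2 hdvd)

theorem ubar4_ne_zero : ubar4 k ≠ 0 := by
  rw [ubar4_eq]
  exact mul_ne_zero (deltaR_ne_zero k) (inv_ne_zero (qExpand_deltaR_ne_zero k 4))

theorem vbar2_ne_zero : vbar2 k ≠ 0 := by
  rw [vbar2_eq]
  exact mul_ne_zero (ubar4_ne_zero k) (inv_ne_zero (vbar_ne_zero k))

/-- `θ ū ≠ 0` if `3 ≠ 0`. -/
theorem thetaL_ubar4_ne_zero (h3 : (3 : k) ≠ 0) : thetaL (ubar4 k) ≠ 0 := by
  intro h0
  have h := thetaL_ubar_pow_D k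
  rw [h0, zero_pow (by norm_num)] at h
  have h3' : (3 : LaurentSeries k) ≠ 0 := by
    rw [← map_ofNat (algebraMap k (LaurentSeries k)) 3]
    exact (map_ne_zero _).2 h3
  exact absurd h.symm (mul_ne_zero (mul_ne_zero (pow_ne_zero _ h3')
    (mul_ne_zero (pow_ne_zero _ (vbar_ne_zero k)) (pow_ne_zero _ (vbar2_ne_zero k))))
    (pow_ne_zero _ (deltaR_ne_zero k)))

/-- **`hθ` for `u = Δ(t)/Δ(t⁴)`**, `q ≥ 5`. -/
theorem thetaNZ_uZ4 (q : ℕ) (h5 : 5 ≤ q) [CharP k q] :
    H65.ThetaNZ q (coeffMap (Int.castRingHom k) uZ4) := by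
  rw [coeffMap_uZ4]
  refine thetaNZ_of_thetaL_ne_zero k q _ (thetaL_ubar4_ne_zero k ?_)
  intro h3
  have h3' : ((3 : ℕ) : k) = 0 := by exact_mod_cast h3
  have := (CharP.cast_eq_zero_iff k q 3).1 h3'
  have := Nat.le_of_dvd (by norm_num) this
  omega

end Theta

section Coord

variable (A : ValuationSubring Kbar)
variable (q M : ℕ) (B k : ℤ) (hB : B * M + k * q = 1) (hq : q.Prime) [NeZero M] [NeZero q]
  [NeZero (M * q * q)]

variable (f : FN M) (u₀ : LaurentSeries ℤ) (hf : (f : LaurentSeries Kbar) = H65.intSer Kbar u₀)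

theorem coe_uo :
    (((uo A q M f u₀ hf : ↥(L0 A (M * q * q))) : FN (M * q * q)) : LaurentSeries Kbar)
      = H65.intSer Kbar u₀ := by
  show ((incAA q M f : FN (M * q * q)) : LaurentSeries Kbar) = _
  rw [coe_incAA, hf]

theorem coe_u2o :
    (((u2o A q M f u₀ hf : ↥(L0 A (M * q * q))) : FN (M * q * q)) : LaurentSeries Kbar)
      = H65.intSer Kbar (qExpand ℤ q (qExpand ℤ q u₀)) := by
  show ((incBB q M f : FN (M * q * q)) : LaurentSeries Kbar) = _
  rw [coe_incBB, hf, H65.intSer, H65.intSer, coeffMap_qExpand, coeffMap_qExpand]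

/-! ### At `V₂₀` -/

theorem uo_mem20 : uo A q M f u₀ hf ∈ V20o A q M :=
  (s20_of_intSer A q M _ u₀ (coe_uo A q M f u₀ hf)).1

theorem s20_uo (h : uo A q M f u₀ hf ∈ V20o A q M) :
    s20 A q M ⟨_, h⟩ = coeffMap (Int.castRingHom (kV A)) u₀ :=
  (s20_of_intSer A q M _ u₀ (coe_uo A q M f u₀ hf)).2

theorem u2o_mem20 : u2o A q M f u₀ hf ∈ V20o A q M :=
  (s20_of_intSer A q M _ _ (coe_u2o A q M f u₀ hf)).1

theorem s20_u2o (h : u2o A q M f u₀ hf ∈ V20o A q M) :
    s20 A q M ⟨_, h⟩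
      = qExpand (kV A) q (qExpand (kV A) q (coeffMap (Int.castRingHom (kV A)) u₀)) := by
  rw [(s20_of_intSer A q M _ _ (coe_u2o A q M f u₀ hf)).2, coeffMap_qExpand, coeffMap_qExpand]

/-! ### At `V₁₁` -/

include hq in
theorem uo_mem11 : uo A q M f u₀ hf ∈ V11o A q M B k hB hq :=
  (s11_of_intSer A q M B k hB hq _ u₀ (by
    show cM q M B k hB hq (incAA q M f) = _
    rw [cM_incAA, hf])).1

include hq in
theorem s11_uo (h : uo A q M f u₀ hf ∈ V11o A q M B k hB hq) :
    s11 A q M B k hB hq ⟨_, h⟩ = coeffMap (Int.castRingHom (kV A)) u₀ :=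
  (s11_of_intSer A q M B k hB hq _ u₀ (by
    show cM q M B k hB hq (incAA q M f) = _
    rw [cM_incAA, hf])).2

include hq in
theorem u2o_mem11 : u2o A q M f u₀ hf ∈ V11o A q M B k hB hq := by
  rw [mem_V11o_iff]
  show cM q M B k hB hq (incBB q M f) ∈ gaussRingV A
  rw [cM_incBB, hf]
  exact twist_intSer_mem A q B hq u₀

include hq in
theorem s11_u2o (hA : (q : Kbar) ∈ A.nonunits) (h : u2o A q M f u₀ hf ∈ V11o A q M B k hB hq) :
    s11 A q M B k hB hq ⟨_, h⟩ = coeffMap (Int.castRingHom (kV A)) u₀ := by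
  rw [s11_mk]
  have e : cM q M B k hB hq ((u2o A q M f u₀ hf : ↥(L0 A (M * q * q))) : FN (M * q * q))
      = twist (zetaK q ^ B) (H65.intSer Kbar u₀) := by
    show cM q M B k hB hq (incBB q M f) = _
    rw [cM_incBB, hf]
  rw [← gaussRedV_twist_intSer A q B hq hA u₀ (twist_intSer_mem A q B hq u₀)]
  exact congrArg (gaussRedV A) (Subtype.ext e)

/-! ### At `V₀₂` -/

include hq in
theorem uo_mem02 : uo A q M f u₀ hf ∈ V02o A q M B k hB :=
  (s02_of_intSer A q M B k hB _ (qExpand ℤ q (qExpand ℤ q u₀)) (by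
    show ((wS q M B k hB (incAA q M f) : FN (M * q * q)) : LaurentSeries Kbar) = _
    rw [wS_incAA q M B k hB hq]
    exact coe_u2o A q M f u₀ hf)).1

include hq in
theorem s02_uo (h : uo A q M f u₀ hf ∈ V02o A q M B k hB) :
    s02 A q M B k hB ⟨_, h⟩
      = qExpand (kV A) q (qExpand (kV A) q (coeffMap (Int.castRingHom (kV A)) u₀)) := by
  rw [(s02_of_intSer A q M B k hB _ (qExpand ℤ q (qExpand ℤ q u₀)) (by
    show ((wS q M B k hB (incAA q M f) : FN (M * q * q)) : LaurentSeries Kbar) = _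
    rw [wS_incAA q M B k hB hq]
    exact coe_u2o A q M f u₀ hf)).2, coeffMap_qExpand, coeffMap_qExpand]

include hq in
theorem u2o_mem02 : u2o A q M f u₀ hf ∈ V02o A q M B k hB :=
  (s02_of_intSer A q M B k hB _ u₀ (by
    show ((wS q M B k hB (incBB q M f) : FN (M * q * q)) : LaurentSeries Kbar) = _
    rw [wS_incBB q M B k hB hq]
    exact coe_uo A q M f u₀ hf)).1

include hq in
theorem s02_u2o (h : u2o A q M f u₀ hf ∈ V02o A q M B k hB) :
    s02 A q M B k hB ⟨_, h⟩ = coeffMap (Int.castRingHom (kV A)) u₀ :=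
  (s02_of_intSer A q M B k hB _ u₀ (by
    show ((wS q M B k hB (incBB q M f) : FN (M * q * q)) : LaurentSeries Kbar) = _
    rw [wS_incBB q M B k hB hq]
    exact coe_uo A q M f u₀ hf)).2

end Coord

end Fermat.Agent.S36.NU.H16

end
end
-- ==== END Fermat.Agent.S36.NU.H16_HssAux

-- ==== BEGIN Fermat.Agent.S36.NU.H23_NmP
section
attribute [local instance 10000] HahnSeries.powerSeriesAlgebra

/-!
# S36 / NU-B, leaf NM-P, part 1 (helper23): the places of the modular `NUData`

Setting of `totM` (level `M q²`, `q ∤ M` tame, `A` over `q`, residue field `FM A M` of level `M`)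
and of the lower datum `modTM = S35.H89.modTot` (level `M q`, residue field `F1 A q M`).

* `zA z = κ⁻¹ z`, `zB z = κ⁻¹ (β⁻¹ z)` : the points of the curve of level `M q` below the point
  `z` of the curve of level `M q²`, along `α` and `β`;
* `nodeA`, `nodeB` : they are nodes for the supersingular points `z ∈ H74.ssM`;
* `betaM_betaM` : the supersingular points are fixed by `β²`;
* `ptA_id`, `ptA_Fr`, `ptB_Fr`, `ptB_id`, `ptB_id2` : the six fields `ptA₂₀ … ptB₀₂`, for maps
  `j : F1 A q M → FM A M` given in series form (`j y = y` resp. `j y = Fr y` as series);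
* `deg_ptM` : the field `deg_one`.
-/

set_option autoImplicit false
set_option synthInstance.maxHeartbeats 400000
set_option maxHeartbeats 1000000
set_option linter.style.haveILetI false
set_option linter.unusedSectionVars false

noncomputable section

open ModularCurve AlgebraicCurve
open Fermat.Agent.S24 Fermat.Agent.BAD.H88 Fermat.Agent.S28 Fermat.Agent.S28.H73
open Fermat.Agent.RED.H73 Fermat.Agent.RED.H17

namespace Fermat.Agent.S36.NU.H23

open Fermat.Agent.BAD Fermat.Agent.RED Fermat.Agent.S36.NU.H79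

/-! ## Abstract transport lemmas -/

section NmPAbs

variable {k : Type*} [Field k]

/-- Values are transported by `placeCongr`. -/
theorem hasValue_placeCongr_symm {X : Type*} [Field X] [Algebra k X]
    {E₁ E₂ : IntermediateField k X} (h : E₁ = E₂) (z : Place k ↥E₂) (y₁ : ↥E₁) (y₂ : ↥E₂)
    (hy : (y₁ : X) = (y₂ : X)) (a : k) :
    HasValue ((Fermat.Agent.BAD.H91.placeCongr h).symm z) y₁ a ↔ HasValue z y₂ a := by
  subst h
  have e : y₁ = y₂ := Subtype.ext hy
  rw [e]
  rfl

variable (q : ℕ) [Fact q.Prime] [CharP k q] [PerfectRing k q]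

/-- `Fr y` takes the value `a` at `β z` iff `y` takes the value `a` at `z`. -/
theorem hasValue_beta_FrE {E : IntermediateField k (LaurentSeries k)}
    (h : Fermat.Agent.BAD.H73.FrobStable q E) (z : Place k ↥E) (y : ↥E) (a : k) :
    HasValue (Fermat.Agent.BAD.H73.beta h z) (Fermat.Agent.BAD.H73.FrE h y) a ↔ HasValue z y a := by
  unfold HasValue
  have e : Fermat.Agent.BAD.H73.FrE h y - algebraMap k ↥E a
      = Fermat.Agent.BAD.H73.FrE h (y - algebraMap k ↥E a) := by
    rw [map_sub, AlgHom.commutes]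
  rw [e, vanAt_iff_ord, vanAt_iff_ord, Fermat.Agent.BAD.H73.beta_ord_Fr]
  have hinj : Function.Injective (Fermat.Agent.BAD.H73.FrE h) :=
    (Fermat.Agent.BAD.H73.FrE h).toRingHom.injective
  have hq : (0 : ℤ) < (q : ℤ) := by exact_mod_cast (Fact.out : q.Prime).pos
  constructor
  · rintro (h0 | h1)
    · left
      exact hinj (by rw [h0, map_zero])
    · right
      exact (mul_pos_iff_of_pos_left hq).1 h1
  · rintro (h0 | h1)
    · left
      rw [h0, map_zero]
    · right
      exact mul_pos hq h1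

/-- `β` commutes with `placeCongr`. -/
theorem placeCongr_beta {E₁ E₂ : IntermediateField k (LaurentSeries k)} (h : E₁ = E₂)
    (h₁ : Fermat.Agent.BAD.H73.FrobStable q E₁) (h₂ : Fermat.Agent.BAD.H73.FrobStable q E₂)
    (w : Place k ↥E₁) :
    Fermat.Agent.BAD.H91.placeCongr h (Fermat.Agent.BAD.H73.beta h₁ w)
      = Fermat.Agent.BAD.H73.beta h₂ (Fermat.Agent.BAD.H91.placeCongr h w) := by
  subst h
  rfl

/-- Elements fixed by `φ` have the same order at `z` and `β⁻¹ z`. -/
theorem beta_symm_ord_of_fixed {E : IntermediateField k (LaurentSeries k)}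
    (h : Fermat.Agent.BAD.H73.FrobStable q E) (z : Place k ↥E) (y : ↥E)
    (hy : Fermat.Agent.BAD.H73.frobL k q (y : LaurentSeries k) = (y : LaurentSeries k)) :
    ((Fermat.Agent.BAD.H73.beta h).symm z).ord y = z.ord y := by
  rw [Fermat.Agent.BAD.H73.beta_symm_ord]
  have e : (Fermat.Agent.BAD.H73.frobE h).symm y = y := by
    rw [RingEquiv.symm_apply_eq]
    exact Subtype.ext hy.symm
  rw [e]

end NmPAbs

/-! ## The modular objects -/

section NmP

variable (A : ValuationSubring Kbar) (q M : ℕ) (B k : ℤ) (hB : B * M + k * q = 1) (hq : q.Prime)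
  [NeZero M] [NeZero q] [NeZero (M * q)] [NeZero (M * q * q)] (hqM : ¬ q ∣ M)
  (hA : A.LiesOverPrime q) (ht : H91.TameAt M q)

omit [NeZero M] [NeZero q] [NeZero (M * q)] [NeZero (M * q * q)] in
/-- The Bézout relation in the order of the lower level. -/
theorem hab_kB (hB : B * M + k * q = 1) : k * q + B * M = 1 := by
  rw [add_comm]; exact hB

/-- **The conservation datum of the lower level** `M q`. -/
abbrev modTM : Fermat.Agent.BAD.H79.TotData Kbar (FN (M * q)) (kV A) (F1 A q M) (F1 A q M) :=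
  Fermat.Agent.S35.H89.modTot A q M k B (hab_kB q M B k hB) hq hA hqM ht

/-- `κ` : the places of `F₁` are the places of the residue field of level `M`. -/
abbrev kapM : Place (kV A) (F1 A q M) ≃ Place (kV A) (FM A M) :=
  Fermat.Agent.BAD.H91.kappa A q M k B (hab_kB q M B k hB) hq hA

/-- `β` on the places of `F₁`. -/
abbrev betaL : Place (kV A) (F1 A q M) ≃ Place (kV A) (F1 A q M) :=
  Fermat.Agent.S35.H89.betaMod A q M k B (hab_kB q M B k hB) hq hA

/-- **The point of the curve of level `M q` below `z`, along `α`.** -/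
def zA (z : Place (kV A) (FM A M)) : Place (kV A) (F1 A q M) :=
  (kapM A q M B k hB hq hA).symm z

/-- **The point of the curve of level `M q` below `z`, along `β`.** -/
def zB (z : Place (kV A) (FM A M)) : Place (kV A) (F1 A q M) :=
  (kapM A q M B k hB hq hA).symm ((betaM A q M hq hqM hA).symm z)

theorem zA_def (z : Place (kV A) (FM A M)) :
    zA A q M B k hB hq hA z = (kapM A q M B k hB hq hA).symm z := rfl

theorem zB_def (z : Place (kV A) (FM A M)) :
    zB A q M B k hB hq hqM hA z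
      = (kapM A q M B k hB hq hA).symm ((betaM A q M hq hqM hA).symm z) := rfl

theorem modTM_beta (w : Place (kV A) (F1 A q M)) :
    (modTM A q M B k hB hq hqM hA ht).β w = betaL A q M B k hB hq hA w := rfl

theorem modTM_rho (P : Place Kbar (FN (M * q))) :
    (modTM A q M B k hB hq hqM hA ht).ρ P
      = Fermat.Agent.BAD.H91.rhoF1 k B (hab_kB q M B k hB) hq hA hqM ht P := rfl

/-! ### Transport of values -/

/-- (S1) values at `κ⁻¹ z` and at `z`. -/
theorem hasValue_kapM_symm (z : Place (kV A) (FM A M)) (y₁ : F1 A q M) (y : FM A M)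
    (hy : (y₁ : LaurentSeries (kV A)) = (y : LaurentSeries (kV A))) (a : kV A) :
    HasValue ((kapM A q M B k hB hq hA).symm z) y₁ a ↔ HasValue z y a :=
  hasValue_placeCongr_symm _ z y₁ y hy a

/-- (S2) values of `Fr y` at `β z` and of `y` at `z`. -/
theorem hasValue_betaM_FrM (z : Place (kV A) (FM A M)) (y : FM A M) (a : kV A) :
    HasValue (betaM A q M hq hqM hA z) (FrM A q M hq hqM hA y) a ↔ HasValue z y a :=
  @hasValue_beta_FrE (kV A) _ q ⟨hq⟩ (Fermat.Agent.BAD.H82.charP_kV A hq hA)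
    (@Fermat.Agent.BAD.H73.perfectRing_kV _ _ _ A q ⟨hq⟩
      (Fermat.Agent.BAD.H82.charP_kV A hq hA)) _ (frobStable_FM A q M hq hqM hA) z y a

/-- (S3) `κ ∘ β = β ∘ κ`. -/
theorem kapM_betaL (w : Place (kV A) (F1 A q M)) :
    kapM A q M B k hB hq hA (betaL A q M B k hB hq hA w)
      = betaM A q M hq hqM hA (kapM A q M B k hB hq hA w) :=
  @placeCongr_beta (kV A) _ q ⟨hq⟩ (Fermat.Agent.BAD.H82.charP_kV A hq hA)
    (@Fermat.Agent.BAD.H73.perfectRing_kV _ _ _ A q ⟨hq⟩
      (Fermat.Agent.BAD.H82.charP_kV A hq hA)) _ _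
    (Fermat.Agent.BAD.H82.redField_eq_redField q M k B (hab_kB q M B k hB) hq A hA)
    (Fermat.Agent.BAD.H73.frobStable_F1 A q M hq hA M
      (Fermat.Agent.BAD.H82.redField_eq_fullC q M k B (hab_kB q M B k hB) hq A hA))
    (frobStable_FM A q M hq hqM hA) w

theorem kapM_symm_betaM (z : Place (kV A) (FM A M)) :
    (kapM A q M B k hB hq hA).symm (betaM A q M hq hqM hA z)
      = betaL A q M B k hB hq hA ((kapM A q M B k hB hq hA).symm z) := by
  rw [Equiv.symm_apply_eq, kapM_betaL A q M B k hB hq hqM hA, Equiv.apply_symm_apply]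

/-- `β (zB z) = zA z`. -/
theorem betaL_zB (z : Place (kV A) (FM A M)) :
    betaL A q M B k hB hq hA (zB A q M B k hB hq hqM hA z) = zA A q M B k hB hq hA z := by
  rw [zB_def, zA_def, ← kapM_symm_betaM A q M B k hB hq hqM hA, Equiv.apply_symm_apply]

/-- `β (zA z) = κ⁻¹ (β z)`. -/
theorem betaL_zA (z : Place (kV A) (FM A M)) :
    betaL A q M B k hB hq hA (zA A q M B k hB hq hA z)
      = (kapM A q M B k hB hq hA).symm (betaM A q M hq hqM hA z) := by
  rw [zA_def, kapM_symm_betaM A q M B k hB hq hqM hA]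

/-! ### The supersingular points -/

/-- The supersingular points are stable under `β⁻¹`. -/
theorem betaM_symm_mem_ssM (z : Place (kV A) (FM A M))
    (hz : z ∈ Fermat.Agent.S36.NU.H74.ssM A q M) :
    (betaM A q M hq hqM hA).symm z ∈ Fermat.Agent.S36.NU.H74.ssM A q M := by
  haveI : Fact q.Prime := ⟨hq⟩
  haveI : CharP (kV A) q := Fermat.Agent.BAD.H82.charP_kV A hq hA
  haveI : PerfectRing (kV A) q := Fermat.Agent.BAD.H73.perfectRing_kV A q
  have hΔ : Fermat.Agent.BAD.H73.frobL (kV A) q (Fermat.Agent.BAD.H30.deltaR (kV A))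
      = Fermat.Agent.BAD.H30.deltaR (kV A) := by
    rw [← Fermat.Agent.BAD.H30.coeffMap_deltaR (R := ℤ) (Int.castRingHom (kV A)),
      Fermat.Agent.BAD.H73.frobL_coeffMap_intCast]
  refine ⟨?_, fun y hy => ?_⟩
  · have e : ((betaM A q M hq hqM hA).symm z).ord (Fermat.Agent.BAD.H91.jRed A M)
        = z.ord (Fermat.Agent.BAD.H91.jRed A M) := by
      refine beta_symm_ord_of_fixed q (frobStable_FM A q M hq hqM hA) z _ ?_
      have h1 : ((Fermat.Agent.BAD.H91.jRed A M : ↥(Fermat.Agent.BAD.H91.redM A M)) :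
          LaurentSeries (kV A)) = jqModC (kV A) := Fermat.Agent.RED.H73.red_jF A M
      rw [h1, ← coeffMap_jqModC (Int.castRingHom (kV A)),
        Fermat.Agent.BAD.H73.frobL_coeffMap_intCast]
    rw [e]
    exact hz.1
  · have e : ((betaM A q M hq hqM hA).symm z).ord y = z.ord y := by
      refine beta_symm_ord_of_fixed q (frobStable_FM A q M hq hqM hA) z y ?_
      have h1 : ((y : ↥(Fermat.Agent.BAD.H91.redM A M)) : LaurentSeries (kV A))
          = Fermat.Agent.BAD.H30.deltaR (kV A)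
            * (qExpand (kV A) q (Fermat.Agent.BAD.H30.deltaR (kV A)))⁻¹ := by
        rw [hy]
        exact Fermat.Agent.BAD.H30.gaussRes_unitF A (M * q) q (Dvd.intro_left M rfl)
      rw [h1, map_mul, map_inv₀, Fermat.Agent.BAD.H73.frobL_qExpand, hΔ]
    rw [e]
    exact hz.2 y hy

/-- **`nodeα`**: the point below a supersingular point along `α` is a node. -/
theorem nodeA (z : Place (kV A) (FM A M)) (hz : z ∈ Fermat.Agent.S36.NU.H74.ssM A q M) :
    (modTM A q M B k hB hq hqM hA ht).IsNode (zA A q M B k hB hq hA z) :=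
  Fermat.Agent.BAD.H91.isNode_modT k B (hab_kB q M B k hB) hq hA hqM ht _ _
    (Dvd.intro_left M rfl) z hz.1 hz.2

/-- **`nodeβ`**: the point below a supersingular point along `β` is a node. -/
theorem nodeB (z : Place (kV A) (FM A M)) (hz : z ∈ Fermat.Agent.S36.NU.H74.ssM A q M) :
    (modTM A q M B k hB hq hqM hA ht).IsNode (zB A q M B k hB hq hqM hA z) :=
  nodeA A q M B k hB hq hqM hA ht _ (betaM_symm_mem_ssM A q M hq hqM hA z hz)

include hB ht in
/-- **The supersingular points are fixed by `β²`.** -/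
theorem betaM_betaM (z : Place (kV A) (FM A M)) (hz : z ∈ Fermat.Agent.S36.NU.H74.ssM A q M) :
    betaM A q M hq hqM hA (betaM A q M hq hqM hA z) = z := by
  obtain ⟨σ, hσ⟩ := Fermat.Agent.Lib.FrobExists.exists_isFrobeniusAt q hq A hA
  have h := Fermat.Agent.S35.H30.sigmaFix_of Fermat.Agent.S35.H52.stmt_FrobRho A q M k B
    (hab_kB q M B k hB) hq hA hqM ht σ hσ (zA A q M B k hB hq hA z)
    (nodeA A q M B k hB hq hqM hA ht z hz)
  have h' : betaL A q M B k hB hq hA (betaL A q M B k hB hq hA (zA A q M B k hB hq hA z))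
      = zA A q M B k hB hq hA z := h
  have h2 := congrArg (kapM A q M B k hB hq hA) h'
  rw [kapM_betaL A q M B k hB hq hqM hA, kapM_betaL A q M B k hB hq hqM hA, zA_def,
    Equiv.apply_symm_apply] at h2
  exact h2

/-! ### The points of the components lie over the branches of the nodes -/

/-- The element of the residue field of level `M` with the same series as `y`. -/
def toFM (y : F1 A q M) : FM A M :=
  (Fermat.Agent.BAD.H23.eRed A q M k B (hab_kB q M B k hB) hq hA).symm y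

theorem coe_toFM (y : F1 A q M) :
    ((toFM A q M B k hB hq hA y : FM A M) : LaurentSeries (kV A))
      = (y : LaurentSeries (kV A)) := by
  have h := Fermat.Agent.BAD.H23.coe_eRed A q M k B (hab_kB q M B k hB) hq hA
    (toFM A q M B k hB hq hA y)
  rw [← h]
  unfold toFM
  rw [AlgEquiv.apply_symm_apply]

/-- **`ptA₂₀`, `ptA₁₁`**: for `j` the identity on series. -/
theorem ptA_id (j : F1 A q M → FM A M)
    (hj : ∀ y, ((j y : FM A M) : LaurentSeries (kV A)) = (y : LaurentSeries (kV A)))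
    (z : Place (kV A) (FM A M)) (y : F1 A q M) (a : kV A)
    (h : HasValue z (j y) a) : HasValue (zA A q M B k hB hq hA z) y a :=
  (hasValue_kapM_symm A q M B k hB hq hA z y (j y) (hj y).symm a).mpr h

/-- **`ptA₀₂`**: for `j = Fr` on series; the point of the third component is `β² z`. -/
theorem ptA_Fr (j : F1 A q M → FM A M)
    (hj : ∀ y, ((j y : FM A M) : LaurentSeries (kV A))
      = qExpand (kV A) q (y : LaurentSeries (kV A)))
    (z : Place (kV A) (FM A M)) (y : F1 A q M) (a : kV A)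
    (h : HasValue (betaM A q M hq hqM hA (betaM A q M hq hqM hA z)) (j y) a) :
    HasValue ((modTM A q M B k hB hq hqM hA ht).β (zA A q M B k hB hq hA z)) y a := by
  have e : j y = FrM A q M hq hqM hA (toFM A q M B k hB hq hA y) := by
    apply Subtype.ext
    rw [hj, coe_FrM, coe_toFM]
  rw [e, hasValue_betaM_FrM] at h
  rw [modTM_beta, betaL_zA A q M B k hB hq hqM hA]
  exact (hasValue_kapM_symm A q M B k hB hq hA _ y _
    (coe_toFM A q M B k hB hq hA y).symm a).mpr h

/-- **`ptB₂₀`**: for `j = Fr` on series. -/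
theorem ptB_Fr (j : F1 A q M → FM A M)
    (hj : ∀ y, ((j y : FM A M) : LaurentSeries (kV A))
      = qExpand (kV A) q (y : LaurentSeries (kV A)))
    (z : Place (kV A) (FM A M)) (y : F1 A q M) (a : kV A)
    (h : HasValue z (j y) a) : HasValue (zB A q M B k hB hq hqM hA z) y a := by
  have e : j y = FrM A q M hq hqM hA (toFM A q M B k hB hq hA y) := by
    apply Subtype.ext
    rw [hj, coe_FrM, coe_toFM]
  have hz : z = betaM A q M hq hqM hA ((betaM A q M hq hqM hA).symm z) :=
    (Equiv.apply_symm_apply _ _).symm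
  rw [e, hz, hasValue_betaM_FrM] at h
  rw [zB_def]
  exact (hasValue_kapM_symm A q M B k hB hq hA _ y _
    (coe_toFM A q M B k hB hq hA y).symm a).mpr h

/-- **`ptB₁₁`**: for `j` the identity on series. -/
theorem ptB_id (j : F1 A q M → FM A M)
    (hj : ∀ y, ((j y : FM A M) : LaurentSeries (kV A)) = (y : LaurentSeries (kV A)))
    (z : Place (kV A) (FM A M)) (y : F1 A q M) (a : kV A)
    (h : HasValue z (j y) a) :
    HasValue ((modTM A q M B k hB hq hqM hA ht).β (zB A q M B k hB hq hqM hA z)) y a := by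
  rw [modTM_beta, betaL_zB A q M B k hB hq hqM hA]
  exact ptA_id A q M B k hB hq hA j hj z y a h

/-- **`ptB₀₂`**: for `j` the identity on series, at a supersingular point (fixed by `β²`). -/
theorem ptB_id2 (j : F1 A q M → FM A M)
    (hj : ∀ y, ((j y : FM A M) : LaurentSeries (kV A)) = (y : LaurentSeries (kV A)))
    (z : Place (kV A) (FM A M)) (hz : z ∈ Fermat.Agent.S36.NU.H74.ssM A q M)
    (y : F1 A q M) (a : kV A)
    (h : HasValue (betaM A q M hq hqM hA (betaM A q M hq hqM hA z)) (j y) a) :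
    HasValue ((modTM A q M B k hB hq hqM hA ht).β (zB A q M B k hB hq hqM hA z)) y a := by
  rw [betaM_betaM A q M B k hB hq hqM hA ht z hz] at h
  exact ptB_id A q M B k hB hq hqM hA ht j hj z y a h

/-! ### Degrees -/

include hq hqM hA ht in
/-- **`deg_one`**: the points of the components have degree one. -/
theorem deg_ptM (i : Fin 3) (z : Place (kV A) (FM A M)) :
    @Place.deg (kV A) (kap3 (FM A M) (FM A M) i) _ _ (algkM A M i)
      (ptM A q M hq hqM hA i z) = 1 := by
  haveI : IsAlgClosed (kV A) := isAlgClosed_kV A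
  have H := (Fermat.Agent.RED.H17.ffHyp_of_isFF _ _
    (Fermat.Agent.BAD.H91.isFF_redM hq hqM ht hA)).deg_one
  fin_cases i
  · exact H _
  · exact H _
  · exact H _

end NmP

end Fermat.Agent.S36.NU.H23

end
end
-- ==== END Fermat.Agent.S36.NU.H23_NmP

-- ==== BEGIN Fermat.Agent.S36.NU.H41_PtHyps
section

/-!
# S36 / NU-B, leaf (M4) PT-HYPS (helper41): the small modular hypotheses of
`H99.pointData_of_dichotomy` for the chart `B = intSub (Rur A) j`

Setting of helper23's `totM` (level `N = M q²`, `q ∤ M` tame, `C = FM A M`) and helper88's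
`chartOf` (`R = Rur A`, `F = L0 A N`, `j = j0 A N`).

* `r20_j0`, `r11_j0`, `r02_j0` : the reductions of `j` are `j~`, `j~`, `Fr² j~`;
* `hU`, `r20_eps2`, `r11_eps1`, `r02_E02` : the reductions of the witnesses are
  `hU ^ q`, `hU`, `hU ^ q` (`hU = Δ~(t)/Δ~(t^q)`);
* `ord_beta2_Fr2` : `ord_{β² z} (Fr² y) = q² ord_z y`;
* `hnc_mod` : `j` is not constant on any component;
* `hsurj_mod` : every place of a component is a `pt i z`;
* `hSSchar_mod` : the zeros of the reductions of the witnesses are supersingular (`H74.ssM`).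
-/

set_option autoImplicit false
set_option synthInstance.maxHeartbeats 400000
set_option maxHeartbeats 1000000
set_option linter.style.haveILetI false
set_option linter.unusedSectionVars false

noncomputable section

open ModularCurve AlgebraicCurve

namespace Fermat.Agent.S36.NU.H41

open Fermat.Agent.S24 Fermat.Agent.BAD.H88 Fermat.Agent.S28 Fermat.Agent.S28.H73
  Fermat.Agent.RED.H73 Fermat.Agent.RED.H17 Fermat.Agent.S36.NU.H88 Fermat.Agent.S36.NU.H23
  Fermat.Agent.S36.NU.H16 Fermat.Agent.S36.NU.H79 Fermat.Agent.S36.NU.H99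
  Fermat.Agent.S36.NU.H74 Fermat.Agent.BAD Fermat.Agent.RED

section PtHyps

variable (A : ValuationSubring Kbar) (q M : ℕ) (B k : ℤ) (hB : B * M + k * q = 1) (hq : q.Prime)
  [NeZero M] [NeZero q] [NeZero (M * q)] [NeZero (M * q * q)] (hqM : ¬ q ∣ M)
  (hA : A.LiesOverPrime q) (ht : H91.TameAt M q)

/-! ### The reductions of `j` -/

/-- `j` of level `M q²` comes from level `M`. -/
theorem j0_eq_inclL0 : j0 A (M * q * q) = inclL0 A (hleMN q M) (j0 A M) := by
  apply Subtype.ext
  apply Subtype.ext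
  have h := coe_inclL0_series A q M (j0 A M)
  rw [h]
  show (jF (M * q * q) : LaurentSeries Kbar) = (jF M : LaurentSeries Kbar)
  rfl

/-- The `q`-expansion of `j`. -/
theorem coe_j0_series :
    (((j0 A M : ↥(L0 A M)) : FN M) : LaurentSeries Kbar) = jqModC Kbar := by
  show Fermat.Agent.S24.jBar = jqModC Kbar
  rw [Fermat.Agent.S24.jBar, coeffEmb, ← jqModC_rat, coeffMap_jqModC]

/-- `j` is Gauss-integral. -/
theorem j0_mem_VE0 : j0 A M ∈ VE0 A M := by
  rw [mem_VE0_iff, coe_j0_series]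
  exact jqModC_mem_gaussRingV A

theorem sE_j0 : sE A M ⟨j0 A M, j0_mem_VE0 A M⟩ = jqModC (kV A) := by
  have e : (⟨((j0 A M : ↥(L0 A M)) : FN M), j0_mem_VE0 A M⟩ : gaussRingV A)
      = ⟨jqModC Kbar, jqModC_mem_gaussRingV A⟩ := Subtype.ext (coe_j0_series A M)
  exact ((sE_mk A M (j0 A M) (j0_mem_VE0 A M)).trans (congrArg (gaussRedV A) e)).trans
    (gaussRedV_jqModC A _)

theorem coe_jRed : ((H91.jRed A M : FM A M) : LaurentSeries (kV A)) = jqModC (kV A) :=
  RED.H73.red_jF A M

/-- The reduction of `j` at level `M` is `j~`. -/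
theorem rE_j0 : rE A M ⟨j0 A M, j0_mem_VE0 A M⟩ = H91.jRed A M := by
  apply Subtype.ext
  have h1 : ((rE A M ⟨j0 A M, j0_mem_VE0 A M⟩ : FM A M) : LaurentSeries (kV A))
      = jqModC (kV A) := sE_j0 A M
  exact h1.trans (coe_jRed A M).symm

theorem j0_mem20 : j0 A (M * q * q) ∈ V20o A q M := by
  rw [j0_eq_inclL0]
  exact hVE20 A q M _ (j0_mem_VE0 A M)

include hq in
theorem j0_mem11 : j0 A (M * q * q) ∈ V11o A q M B k hB hq := by
  rw [j0_eq_inclL0]
  exact hVE11 A q M B k hB hq _ (j0_mem_VE0 A M)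

include hq in
theorem j0_mem02 : j0 A (M * q * q) ∈ V02o A q M B k hB := by
  rw [j0_eq_inclL0]
  exact hVE02 A q M B k hB hq _ (j0_mem_VE0 A M)

theorem r20_j0 (h : j0 A (M * q * q) ∈ V20o A q M) :
    r20 A q M hq hqM hA ⟨j0 A (M * q * q), h⟩ = H91.jRed A M := by
  have h' : inclL0 A (hleMN q M) (j0 A M) ∈ V20o A q M := by
    rw [← j0_eq_inclL0]; exact h
  have e : (⟨j0 A (M * q * q), h⟩ : ↥(V20o A q M)) = ⟨inclL0 A (hleMN q M) (j0 A M), h'⟩ :=
    Subtype.ext (j0_eq_inclL0 A q M)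
  rw [e, r20_incl A q M hq hqM hA ⟨j0 A M, j0_mem_VE0 A M⟩ h', rE_j0]

theorem r11_j0 (h : j0 A (M * q * q) ∈ V11o A q M B k hB hq) :
    r11 A q M B k hB hq hqM hA ⟨j0 A (M * q * q), h⟩ = H91.jRed A M := by
  have h' : inclL0 A (hleMN q M) (j0 A M) ∈ V11o A q M B k hB hq := by
    rw [← j0_eq_inclL0]; exact h
  have e : (⟨j0 A (M * q * q), h⟩ : ↥(V11o A q M B k hB hq))
      = ⟨inclL0 A (hleMN q M) (j0 A M), h'⟩ :=
    Subtype.ext (j0_eq_inclL0 A q M)
  rw [e, r11_incl A q M B k hB hq hqM hA ⟨j0 A M, j0_mem_VE0 A M⟩ h', rE_j0]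

theorem r02_j0 (h : j0 A (M * q * q) ∈ V02o A q M B k hB) :
    r02 A q M B k hB hq hqM hA ⟨j0 A (M * q * q), h⟩
      = FrM A q M hq hqM hA (FrM A q M hq hqM hA (H91.jRed A M)) := by
  have h' : inclL0 A (hleMN q M) (j0 A M) ∈ V02o A q M B k hB := by
    rw [← j0_eq_inclL0]; exact h
  have e : (⟨j0 A (M * q * q), h⟩ : ↥(V02o A q M B k hB))
      = ⟨inclL0 A (hleMN q M) (j0 A M), h'⟩ :=
    Subtype.ext (j0_eq_inclL0 A q M)
  rw [e, r02_incl A q M B k hB hq hqM hA ⟨j0 A M, j0_mem_VE0 A M⟩ h', rE_j0]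

/-- `j~` is not a constant. -/
theorem jRed_ne_const (c : kV A) : H91.jRed A M ≠ algebraMap (kV A) (FM A M) c := by
  intro h
  apply RED.H73.transcendental_red_jF A M
  have h2 : (redSetting A (hasScale_laurentBaseChange A M)).red
      ⟨RED.H73.jF (L := Kbar) M, RED.H73.jF_mem A M⟩
        = algebraMap (kV A) (FM A M) c := h
  rw [h2]
  exact isAlgebraic_algebraMap c

theorem jRed_ne_zero : H91.jRed A M ≠ 0 := by
  intro h
  apply jRed_ne_const A M 0
  rw [h, map_zero]

/-! ### `Fr²` and `β²` -/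

theorem norm_Fr2 (y : FM A M) :
    @Algebra.norm (FM A M) (FM A M) _ _ (alg2M A q M hq hqM hA)
      (FrM A q M hq hqM hA (FrM A q M hq hqM hA y)) = y ^ (q ^ 2) := by
  letI := alg2M A q M hq hqM hA
  have h := Algebra.norm_algebraMap (R := FM A M) (S := FM A M) y
  rw [finrank_alg2M A q M hq hqM hA] at h
  exact h

/-- `ord_{β² z} (Fr² y) = q² ord_z y`. -/
theorem ord_beta2_Fr2 (z : Place (kV A) (FM A M)) (y : FM A M) :
    (betaM A q M hq hqM hA (betaM A q M hq hqM hA z)).ord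
        (FrM A q M hq hqM hA (FrM A q M hq hqM hA y))
      = (q : ℤ) ^ 2 * z.ord y := by
  rw [← ord_norm_alg2M A q M hq hqM hA z, norm_Fr2 A q M hq hqM hA y, RED.H17.ord_pow]
  push_cast
  ring

theorem FrM_ne_const (y : FM A M) (hy : ∀ c : kV A, y ≠ algebraMap (kV A) (FM A M) c)
    (c : kV A) :
    FrM A q M hq hqM hA (FrM A q M hq hqM hA y) ≠ algebraMap (kV A) (FM A M) c := by
  intro h
  apply hy c
  have h1 : FrM A q M hq hqM hA (FrM A q M hq hqM hA y)
      = FrM A q M hq hqM hA (FrM A q M hq hqM hA (algebraMap (kV A) (FM A M) c)) := by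
    rw [h, AlgHom.commutes, AlgHom.commutes]
  exact (FrM A q M hq hqM hA).toRingHom.injective
    ((FrM A q M hq hqM hA).toRingHom.injective h1)

/-! ### The reductions of the witnesses -/

/-- `hU = Δ~(t) / Δ~(t^q)` as an element of the residue field of level `M`. -/
def hU : FM A M := r20 A q M hq hqM hA ⟨eps1o A q M, eps1o_mem20 A q M⟩

theorem coe_hU : ((hU A q M hq hqM hA : FM A M) : LaurentSeries (kV A)) = HU A q M := by
  unfold hU
  rw [coe_r20, s20_eps1]

theorem hU_ne_zero : hU A q M hq hqM hA ≠ 0 := by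
  intro h
  apply HU_ne_zero A q M
  rw [← coe_hU A q M hq hqM hA, h]
  rfl

theorem coe_pow_FM (y : FM A M) (n : ℕ) :
    ((y ^ n : FM A M) : LaurentSeries (kV A)) = (y : LaurentSeries (kV A)) ^ n := rfl

theorem FrM_hU : FrM A q M hq hqM hA (hU A q M hq hqM hA) = hU A q M hq hqM hA ^ q := by
  apply Subtype.ext
  rw [coe_FrM, coe_pow_FM, coe_hU, qExpand_HU A q M hq hA]

theorem r20_eps2 (h : eps2o A q M ∈ V20o A q M) :
    r20 A q M hq hqM hA ⟨eps2o A q M, h⟩ = hU A q M hq hqM hA ^ q := by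
  apply Subtype.ext
  rw [coe_r20, coe_pow_FM, coe_hU, s20_eps2, qExpand_HU A q M hq hA]

theorem r11_eps1 (h : eps1o A q M ∈ V11o A q M B k hB hq) :
    r11 A q M B k hB hq hqM hA ⟨eps1o A q M, h⟩ = hU A q M hq hqM hA := by
  apply Subtype.ext
  rw [coe_r11, coe_hU, s11_eps1]

theorem r02_E02 (h : E02o A q M ∈ V02o A q M B k hB) :
    r02 A q M B k hB hq hqM hA ⟨E02o A q M, h⟩ = hU A q M hq hqM hA ^ q := by
  apply Subtype.ext
  rw [coe_r02, coe_pow_FM, coe_hU, s02_E02 A q M B k hB hq, qExpand_HU A q M hq hA]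

/-! ### Supersingular points -/

/-- A zero of `hU` at which `j~` is regular is supersingular. -/
theorem mem_ssM_of_ord {z : Place (kV A) (FM A M)} (hj : 0 ≤ z.ord (H91.jRed A M))
    (hu : 0 < z.ord (hU A q M hq hqM hA)) : z ∈ ssM A q M := by
  refine ⟨hj, fun y hy => ?_⟩
  have e : y = hU A q M hq hqM hA := by
    apply Subtype.ext
    rw [coe_hU]
    exact hy
  rw [e]
  exact hu

/-! ### Orders -/

theorem ord_nonneg_of_regAt_Fr2 {z : Place (kV A) (FM A M)} {y : FM A M}
    (h : RegAt (betaM A q M hq hqM hA (betaM A q M hq hqM hA z))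
      (FrM A q M hq hqM hA (FrM A q M hq hqM hA y))) : 0 ≤ z.ord y := by
  have h1 := h.ord_nonneg
  rw [ord_beta2_Fr2] at h1
  have hq2 : (0 : ℤ) < (q : ℤ) ^ 2 := by
    have : (0 : ℤ) < (q : ℤ) := by exact_mod_cast hq.pos
    positivity
  exact nonneg_of_mul_nonneg_right h1 hq2

include hq in
theorem ord_pos_of_vanAt_pow {v : Place (kV A) (FM A M)} {y : FM A M} (hy : y ≠ 0)
    (h : VanAt v (y ^ q)) : 0 < v.ord y := by
  have h1 := h.ord_pos (pow_ne_zero q hy)
  rw [RED.H17.ord_pow] at h1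
  have hq0 : (0 : ℤ) < (q : ℤ) := by exact_mod_cast hq.pos
  exact pos_of_mul_pos_right h1 hq0.le

theorem ord_pos_of_vanAt_beta2 {z : Place (kV A) (FM A M)}
    (h : VanAt (betaM A q M hq hqM hA (betaM A q M hq hqM hA z)) (hU A q M hq hqM hA ^ q)) :
    0 < z.ord (hU A q M hq hqM hA) := by
  have h0 := hU_ne_zero A q M hq hqM hA
  have h1 : 0 < (betaM A q M hq hqM hA (betaM A q M hq hqM hA z)).ord
      (hU A q M hq hqM hA ^ q) := h.ord_pos (pow_ne_zero q h0)
  have e : FrM A q M hq hqM hA (FrM A q M hq hqM hA (hU A q M hq hqM hA))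
      = (hU A q M hq hqM hA ^ q) ^ q := by
    rw [FrM_hU, map_pow, FrM_hU]
  have h2 := ord_beta2_Fr2 A q M hq hqM hA z (hU A q M hq hqM hA)
  rw [e, RED.H17.ord_pow] at h2
  have hq0 : (0 : ℤ) < (q : ℤ) := by exact_mod_cast hq.pos
  have h3 : (0 : ℤ) < (q : ℤ) ^ 2 * z.ord (hU A q M hq hqM hA) := by
    rw [← h2]
    exact mul_pos hq0 h1
  exact pos_of_mul_pos_right h3 (by positivity)

end PtHyps

/-! ## The three hypotheses for the chart `B = intSub (Rur A) j` -/

section ChartHyps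

variable (A : ValuationSubring Kbar) (q M : ℕ) (B k : ℤ) (hB : B * M + k * q = 1) (hq : q.Prime)
  [NeZero M] [NeZero q] [NeZero (M * q)] [NeZero (M * q * q)] (hqM : ¬ q ∣ M)
  (hA : A.LiesOverPrime q) (ht : H91.TameAt M q) (res : ↥(Rur A) →+* kV A)

/-- **(1)** `j` is not constant on any component. -/
theorem hnc_mod :
    letI := algkM A M
    ∀ (h : ChartInput (totM A q M B k hB hq hqM hA ht) (j0 A (M * q * q)) res) (i : Fin 3),
      ∃ β : ↥(chartOf (totM A q M B k hB hq hqM hA ht) (j0 A (M * q * q)) res h).B,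
        ∀ c : kV A,
          (chartOf (totM A q M B k hB hq hqM hA ht) (j0 A (M * q * q)) res h).rdB i β
            ≠ algebraMap (kV A) (kap3 (FM A M) (FM A M) i) c := by
  letI := algkM A M
  intro h i
  refine ⟨⟨j0 A (M * q * q),
    Fermat.Agent.S36.NU.H65.self_mem_intSub ↥(H41.Rur A) (j0 A (M * q * q))⟩, fun c hc => ?_⟩
  fin_cases i
  · have hc' : r20 A q M hq hqM hA ⟨j0 A (M * q * q), j0_mem20 A q M⟩
        = algebraMap (kV A) (FM A M) c := hc
    rw [r20_j0] at hc'
    exact jRed_ne_const A M c hc'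
  · have hc' : r11 A q M B k hB hq hqM hA ⟨j0 A (M * q * q), j0_mem11 A q M B k hB hq⟩
        = algebraMap (kV A) (FM A M) c := hc
    rw [r11_j0] at hc'
    exact jRed_ne_const A M c hc'
  · have hc' : r02 A q M B k hB hq hqM hA ⟨j0 A (M * q * q), j0_mem02 A q M B k hB hq⟩
        = algebraMap (kV A) (FM A M) c := hc
    rw [r02_j0] at hc'
    exact FrM_ne_const A q M hq hqM hA _ (jRed_ne_const A M) c hc'

theorem hsurj_two (v : Place (kV A) (FM A M)) :
    ∃ z, betaM A q M hq hqM hA (betaM A q M hq hqM hA z) = v :=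
  ⟨(betaM A q M hq hqM hA).symm ((betaM A q M hq hqM hA).symm v), by
    rw [Equiv.apply_symm_apply, Equiv.apply_symm_apply]⟩

/-- **(2)** every place of a component is a `pt i z`. -/
theorem hsurj_mod :
    letI := algkM A M
    ∀ (i : Fin 3) (v : Place (kV A) (kap3 (FM A M) (FM A M) i)),
      ∃ z, (totM A q M B k hB hq hqM hA ht).pt i z = v := by
  letI := algkM A M
  intro i v
  fin_cases i
  · exact ⟨v, rfl⟩
  · exact ⟨v, rfl⟩
  · exact hsurj_two A q M hq hqM hA v

/-- **(3)** the zeros of the reductions of the ordinary witnesses `eps2`, `eps1`, `E02` are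
supersingular. -/
theorem hSSchar_mod :
    letI := algkM A M
    ∀ (h : ChartInput (totM A q M B k hB hq hqM hA ht) (j0 A (M * q * q)) res)
      (wit : Fin 3 → ↥(chartOf (totM A q M B k hB hq hqM hA ht) (j0 A (M * q * q)) res h).B),
      ((wit 0 : ↥(L0 A (M * q * q))) = eps2o A q M) →
      ((wit 1 : ↥(L0 A (M * q * q))) = eps1o A q M) →
      ((wit 2 : ↥(L0 A (M * q * q))) = E02o A q M) →
      ∀ (i : Fin 3) (z : Place (kV A) (FM A M)),
        (∀ β : ↥(chartOf (totM A q M B k hB hq hqM hA ht) (j0 A (M * q * q)) res h).B,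
          RegAt ((totM A q M B k hB hq hqM hA ht).pt i z)
            ((chartOf (totM A q M B k hB hq hqM hA ht) (j0 A (M * q * q)) res h).rdB i β)) →
        VanAt ((totM A q M B k hB hq hqM hA ht).pt i z)
          ((chartOf (totM A q M B k hB hq hqM hA ht) (j0 A (M * q * q)) res h).rdB i (wit i)) →
        z ∈ ssM A q M := by
  letI := algkM A M
  intro h wit hw0 hw1 hw2 i z hreg hvan
  have hj := hreg ⟨j0 A (M * q * q),
    Fermat.Agent.S36.NU.H65.self_mem_intSub ↥(H41.Rur A) (j0 A (M * q * q))⟩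
  fin_cases i
  · have hj' : RegAt z (r20 A q M hq hqM hA ⟨j0 A (M * q * q), j0_mem20 A q M⟩) := hj
    rw [r20_j0] at hj'
    have e : (⟨(wit 0 : ↥(L0 A (M * q * q))),
        (chartOf (totM A q M B k hB hq hqM hA ht) (j0 A (M * q * q)) res h).B_le 0 _ (wit 0).2⟩ :
          ↥(V20o A q M)) = ⟨eps2o A q M, eps2o_mem20 A q M⟩ := Subtype.ext hw0
    have hv' : VanAt z (r20 A q M hq hqM hA ⟨eps2o A q M, eps2o_mem20 A q M⟩) := by
      rw [← e]; exact hvan
    rw [r20_eps2] at hv'
    exact mem_ssM_of_ord A q M hq hqM hA hj'.ord_nonneg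
      (ord_pos_of_vanAt_pow A q M hq (hU_ne_zero A q M hq hqM hA) hv')
  · have hj' : RegAt z (r11 A q M B k hB hq hqM hA
        ⟨j0 A (M * q * q), j0_mem11 A q M B k hB hq⟩) := hj
    rw [r11_j0] at hj'
    have e : (⟨(wit 1 : ↥(L0 A (M * q * q))),
        (chartOf (totM A q M B k hB hq hqM hA ht) (j0 A (M * q * q)) res h).B_le 1 _ (wit 1).2⟩ :
          ↥(V11o A q M B k hB hq)) = ⟨eps1o A q M, eps1o_mem11 A q M B k hB hq⟩ :=
      Subtype.ext hw1
    have hv' : VanAt z (r11 A q M B k hB hq hqM hA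
        ⟨eps1o A q M, eps1o_mem11 A q M B k hB hq⟩) := by
      rw [← e]; exact hvan
    rw [r11_eps1] at hv'
    exact mem_ssM_of_ord A q M hq hqM hA hj'.ord_nonneg
      (hv'.ord_pos (hU_ne_zero A q M hq hqM hA))
  · have hj' : RegAt (betaM A q M hq hqM hA (betaM A q M hq hqM hA z))
        (r02 A q M B k hB hq hqM hA ⟨j0 A (M * q * q), j0_mem02 A q M B k hB hq⟩) := hj
    rw [r02_j0] at hj'
    have e : (⟨(wit 2 : ↥(L0 A (M * q * q))),
        (chartOf (totM A q M B k hB hq hqM hA ht) (j0 A (M * q * q)) res h).B_le 2 _ (wit 2).2⟩ :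
          ↥(V02o A q M B k hB)) = ⟨E02o A q M, E02o_mem02 A q M B k hB hq⟩ :=
      Subtype.ext hw2
    have hv' : VanAt (betaM A q M hq hqM hA (betaM A q M hq hqM hA z))
        (r02 A q M B k hB hq hqM hA ⟨E02o A q M, E02o_mem02 A q M B k hB hq⟩) := by
      rw [← e]; exact hvan
    rw [r02_E02] at hv'
    exact mem_ssM_of_ord A q M hq hqM hA (ord_nonneg_of_regAt_Fr2 A q M hq hqM hA hj')
      (ord_pos_of_vanAt_beta2 A q M hq hqM hA hv')

end ChartHyps

end Fermat.Agent.S36.NU.H41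

end
end
-- ==== END Fermat.Agent.S36.NU.H41_PtHyps

-- ==== BEGIN Fermat.Agent.S36.NU.H51_ValVecMod
section

/-!
# S36 / NU-B, leaf VALVEC-MOD (helper51)

Level `M q²`, `q ∤ M`; `L₀ = L0 A (M q²)`, `L' = L0 A (M q)`, `V'₁`, `V'₂` the restrictions to
`L'` of the two valuations `V1`, `V2` of level `M q`.

* `exists_t11`, `exists_t02` : functions of `L₀` with valuation vectors `(0, 1, 0)`, `(0, 0, 1)`
  (approximation theorem, from helper23's `nrM`);
* `NormValHyp` : **NORM-VAL** for the norms of `L₀ / L'` along `α` and `β`;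
* `stmt_ValVecMod_of_normVal : NormValHyp → H10.Stmt_ValVecMod`.
-/

set_option autoImplicit false
set_option synthInstance.maxHeartbeats 400000
set_option maxHeartbeats 1000000
set_option linter.style.haveILetI false
set_option linter.unusedSectionVars false

noncomputable section

open ModularCurve AlgebraicCurve
open Fermat.Agent.S24 Fermat.Agent.BAD.H88 Fermat.Agent.S28 Fermat.Agent.S28.H73
open Fermat.Agent.RED.H73 Fermat.Agent.RED.H17 Fermat.Agent.S36.NU.H88
open Fermat.Agent.S36.NU.H23 Fermat.Agent.Lib.HeckeComm Fermat.Agent.BAD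
open Fermat.Agent.S36.NU.H82

namespace Fermat.Agent.S36.NU.H51

section Mod

variable (A : ValuationSubring Kbar) (q M : ℕ) (B k : ℤ) (hB : B * M + k * q = 1) (hq : q.Prime)
  [NeZero M] [NeZero q] [NeZero (M * q)] [NeZero (M * q * q)]
  (hqM : ¬ q ∣ M) (hA : A.LiesOverPrime q)

/-- The first valuation of `L' = L0 A (M q)`. -/
def V1o : ValuationSubring ↥(L0 A (M * q)) := resV0 (L0 A (M * q)) (V1 A q M)

/-- The second valuation of `L' = L0 A (M q)`. -/
def V2o : ValuationSubring ↥(L0 A (M * q)) :=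
  resV0 (L0 A (M * q)) (V2 A q M k B (hab_of_hB q M B k hB) hq)

include hqM hA in
/-- A function with valuation vector `(0, 1, 0)`. -/
theorem exists_t11 :
    ∃ t : ↥(L0 A (M * q * q)), (V20o A q M).valuation t = 1 ∧
      (V11o A q M B k hB hq).valuation t = (V11o A q M B k hB hq).valuation (pi11 A q M) ∧
      (V02o A q M B k hB).valuation t = 1 := by
  letI := algL0 A (hleMN q M)
  letI := algM A q M hq hqM hA
  obtain ⟨t, h1, h2⟩ := exists_unif (nrM A q M B k hB hq hqM hA) 1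
  exact ⟨t, h2 0 (by decide), h1, h2 2 (by decide)⟩

include hqM hA in
/-- A function with valuation vector `(0, 0, 1)`. -/
theorem exists_t02 :
    ∃ t : ↥(L0 A (M * q * q)), (V20o A q M).valuation t = 1 ∧
      (V11o A q M B k hB hq).valuation t = 1 ∧
      (V02o A q M B k hB).valuation t
        = (V02o A q M B k hB).valuation ((q : ℕ) : ↥(L0 A (M * q * q))) := by
  letI := algL0 A (hleMN q M)
  letI := algM A q M hq hqM hA
  obtain ⟨t, h1, h2⟩ := exists_unif (nrM A q M B k hB hq hqM hA) 2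
  refine ⟨t, h2 0 (by decide), h2 1 (by decide), ?_⟩
  rw [← inclL0_piE_eq A q M]
  exact h1

/-- **NORM-VAL** for the norms of `L₀ / L'` along `α` and `β`. -/
def NormValHyp : Prop :=
  ∃ Nα Nβ : ↥(L0 A (M * q * q)) → ↥(L0 A (M * q)),
    (∀ x : ↥(L0 A (M * q * q)), ((Nα x : ↥(L0 A (M * q))) : FN (M * q))
      = normAlongHom (heckeAlphaBar Kbar (M * q) q).toRingHom (x : FN (M * q * q))) ∧
    (∀ x : ↥(L0 A (M * q * q)), ((Nβ x : ↥(L0 A (M * q))) : FN (M * q))
      = normAlongHom (heckeBetaBar Kbar (M * q) q).toRingHom (x : FN (M * q * q))) ∧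
    (∀ x : ↥(L0 A (M * q * q)), x ≠ 0 → ∀ k₁ k₂ : ℤ,
      (V20o A q M).valuation x
        = (V20o A q M).valuation ((q : ℕ) : ↥(L0 A (M * q * q))) ^ k₁ →
      (V11o A q M B k hB hq).valuation x
        = (V11o A q M B k hB hq).valuation (pi11 A q M) ^ k₂ →
      (V1o A q M).valuation (Nα x)
        = (V1o A q M).valuation ((q : ℕ) : ↥(L0 A (M * q))) ^ (k₁ + k₂)) ∧
    (∀ x : ↥(L0 A (M * q * q)), x ≠ 0 → ∀ k₃ : ℤ,
      (V02o A q M B k hB).valuation x
        = (V02o A q M B k hB).valuation ((q : ℕ) : ↥(L0 A (M * q * q))) ^ k₃ →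
      (V2o A q M B k hB hq).valuation (Nα x)
        = (V2o A q M B k hB hq).valuation ((q : ℕ) : ↥(L0 A (M * q))) ^ ((q : ℤ) * k₃)) ∧
    (∀ x : ↥(L0 A (M * q * q)), x ≠ 0 → ∀ k₁ : ℤ,
      (V20o A q M).valuation x
        = (V20o A q M).valuation ((q : ℕ) : ↥(L0 A (M * q * q))) ^ k₁ →
      (V1o A q M).valuation (Nβ x)
        = (V1o A q M).valuation ((q : ℕ) : ↥(L0 A (M * q))) ^ ((q : ℤ) * k₁)) ∧
    (∀ x : ↥(L0 A (M * q * q)), x ≠ 0 → ∀ k₂ k₃ : ℤ,
      (V11o A q M B k hB hq).valuation x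
        = (V11o A q M B k hB hq).valuation (pi11 A q M) ^ k₂ →
      (V02o A q M B k hB).valuation x
        = (V02o A q M B k hB).valuation ((q : ℕ) : ↥(L0 A (M * q * q))) ^ k₃ →
      (V2o A q M B k hB hq).valuation (Nβ x)
        = (V2o A q M B k hB hq).valuation ((q : ℕ) : ↥(L0 A (M * q))) ^ (k₂ + k₃))

include hqM hA in
/-- **VALVEC-MOD** from NORM-VAL. -/
theorem stmt_ValVecMod_of_normVal (h : NormValHyp A q M B k hB hq) :
    H10.Stmt_ValVecMod A q M B k hB hq := by
  obtain ⟨Nα, Nβ, hbrα, hbrβ, hNα₁, hNα₂, hNβ₁, hNβ₂⟩ := h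
  obtain ⟨t₁₁, ht₁₁⟩ := exists_t11 A q M B k hB hq hqM hA
  obtain ⟨t₀₂, ht₀₂⟩ := exists_t02 A q M B k hB hq hqM hA
  have h1 : IsLowVal A (M * q) q (V1 A q M) := isLowVal_V20 A (M * q) q hq hA
  have h2 : IsLowVal A (M * q) q (V2 A q M k B (hab_of_hB q M B k hB) hq) :=
    isLowVal_V2 A q M k B (hab_of_hB q M B k hB) hq hA
  exact valVecMod_core A q M B k hB hq hqM hA (V1o A q M) (V2o A q M B k hB hq)
    (h1.res_val_q_lt_one hA) (h2.res_val_q_lt_one hA) h1.res_exact h2.res_exact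
    (fun c hc hc0 => h1.res_const h2 hq hA c hc hc0) t₁₁ t₀₂ ht₁₁ ht₀₂ Nα Nβ hbrα hbrβ
    hNα₁ hNα₂ hNβ₁ hNβ₂

end Mod

end Fermat.Agent.S36.NU.H51

end
end
-- ==== END Fermat.Agent.S36.NU.H51_ValVecMod
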