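-- GENERATED (merged mirror, NOTES/tools/trim/merge3_helper67.py): 1 modules of the originals, bodies verbatim.
import Fermat.Agent.Zm.S36_L08_000

-- ==== BEGIN Fermat.Agent.S36.NU.H99_OrdAbs
section

/-!
# S36 / NU-B, (M4) LOCEQ at the ordinary points, abstract part (helper99)

`C : Chart R F k ι κ` with the chart criterion `crit` (`B` is cut out of a ring `H ∋ q⁻¹` by the
valuations `V i`), ramification indices `e` (`ValE`).

* `not_mem_of_rdB_eq`, `not_mem_of_mul_eq_one`, `const_not_mem` : elements outside a closed point;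
* `locEq_ord_crit_one` : a closed point `𝔪 ⊇ Icomp i` of a component of multiplicity one with a
  witness `W' ∈ B ∖ 𝔪`, `W' ∈ q V i'` (`i' ≠ i`): local equation datum and `i` is the only
  component through `𝔪`;
* `locEq_ord_crit_mid` : the same for a component of multiplicity `e i`, with `x ∈ B`,
  `x ^ e i = q f'`, and a congruence `rd i ((W' f') ^ m A) = rd i Y`, `Y ∉ 𝔪`, which shows that
  `W₂ = W' x ^ e i / q` is a unit at `𝔪`.
-/

set_option autoImplicit false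

noncomputable section

namespace Fermat.Agent.S36.NU.H99

open Fermat.Agent.S36.NU.H16

variable {R F k ι : Type*} {κ : ι → Type*} [CommRing R] [Field F] [Algebra R F]
  [Field k] [∀ i, Field (κ i)] [∀ i, Algebra k (κ i)]

section Basic

variable (C : Chart R F k ι κ)

/-- Congruent modulo a component through `𝔪` to an element outside `𝔪`. -/
theorem not_mem_of_rdB_eq (𝔪 : Ideal C.B) (i : ι) (hi : C.Icomp i ≤ 𝔪) {Y₁ Y₂ : C.B}
    (h : C.rdB i Y₁ = C.rdB i Y₂) (hY₂ : Y₂ ∉ 𝔪) : Y₁ ∉ 𝔪 := by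
  intro hY₁
  apply hY₂
  have h0 : Y₁ - Y₂ ∈ C.Icomp i := by
    rw [C.mem_Icomp, map_sub, h, sub_self]
  have h1 : Y₂ = Y₁ - (Y₁ - Y₂) := by ring
  rw [h1]
  exact 𝔪.sub_mem hY₁ (hi h0)

/-- A unit of `B` is outside every proper ideal. -/
theorem not_mem_of_mul_eq_one (𝔪 : Ideal C.B) (h𝔪 : 𝔪 ≠ ⊤) {a b : C.B} (hab : a * b = 1) :
    a ∉ 𝔪 := by
  intro ha
  apply h𝔪
  rw [Ideal.eq_top_iff_one, ← hab]
  exact 𝔪.mul_mem_right b ha

/-- A constant with nonzero residue is outside every closed point of the special fibre. -/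
theorem const_not_mem (𝔪 : Ideal C.B) (h𝔪 : 𝔪 ≠ ⊤) (i : ι) (hi : C.Icomp i ≤ 𝔪) {r : R}
    (hr : C.res r ≠ 0) : algebraMap R C.B r ∉ 𝔪 := by
  obtain ⟨r', hr'⟩ := C.res_surj (C.res r)⁻¹
  intro hmem
  apply h𝔪
  rw [Ideal.eq_top_iff_one]
  have h0 : algebraMap R C.B r * algebraMap R C.B r' - 1 ∈ C.Icomp i := by
    rw [C.mem_Icomp, map_sub, map_mul, map_one, ← C.rd_coe, ← C.rd_coe]
    change C.rd i (algebraMap R F r) * C.rd i (algebraMap R F r') - 1 = 0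
    rw [C.rd_algebraMap, C.rd_algebraMap, hr', ← map_mul, mul_inv_cancel₀ hr, map_one, sub_self]
  have h1 : (1 : C.B) = algebraMap R C.B r * algebraMap R C.B r'
      - (algebraMap R C.B r * algebraMap R C.B r' - 1) := by ring
  rw [h1]
  exact 𝔪.sub_mem (𝔪.mul_mem_right _ hmem) (hi h0)

theorem pow_not_mem (𝔪 : Ideal C.B) [h𝔪 : 𝔪.IsPrime] {a : C.B} (ha : a ∉ 𝔪) (n : ℕ) :
    a ^ n ∉ 𝔪 := fun h => ha (h𝔪.mem_of_pow_mem n h)

theorem mul_not_mem (𝔪 : Ideal C.B) [h𝔪 : 𝔪.IsPrime] {a b : C.B} (ha : a ∉ 𝔪) (hb : b ∉ 𝔪) :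
    a * b ∉ 𝔪 := fun h => (h𝔪.mem_or_mem h).elim ha hb

end Basic

section Ord

variable [Fintype ι] [DecidableEq ι] (C : Chart R F k ι κ) (q : R)

/-- **Ordinary point of a component of multiplicity one.** -/
theorem locEq_ord_crit_one (hq0 : algebraMap R F q ≠ 0)
    (hqV : ∀ i, algebraMap R F q ∈ (C.V i).nonunits)
    (H : Subring F) (hBH : ∀ x ∈ C.B, x ∈ H) (hqH : (algebraMap R F q)⁻¹ ∈ H)
    (crit : ∀ f ∈ H, (∀ i, f ∈ C.V i) → f ∈ C.B)
    (e : ι → ℕ) (hE : ValE C q e)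
    (𝔪 : Ideal C.B) [h𝔪 : 𝔪.IsPrime] (i : ι) (hi : C.Icomp i ≤ 𝔪) (he : e i = 1)
    (W' : C.B) (hW' : W' ∉ 𝔪)
    (hW'v : ∀ i', i' ≠ i → ∃ f' ∈ C.V i', (W' : F) = algebraMap R F q * f') :
    Nonempty (LocEq C q 𝔪) ∧ ∀ i', C.Icomp i' ≤ 𝔪 → i' = i :=
  locEq_ord_one C q e hE hq0 hqV (valq_of_crit C q hq0 H hBH hqH crit) 𝔪 i hi he W' hW' hW'v

/-- **Ordinary point of a component of multiplicity `e i`.** -/
theorem locEq_ord_crit_mid (hq0 : algebraMap R F q ≠ 0)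
    (hqV : ∀ i, algebraMap R F q ∈ (C.V i).nonunits)
    (H : Subring F) (hBH : ∀ x ∈ C.B, x ∈ H) (hqH : (algebraMap R F q)⁻¹ ∈ H)
    (crit : ∀ f ∈ H, (∀ i, f ∈ C.V i) → f ∈ C.B)
    (e : ι → ℕ) (hE : ValE C q e)
    (𝔪 : Ideal C.B) [h𝔪 : 𝔪.IsPrime] (i : ι) (hi : C.Icomp i ≤ 𝔪) (he : 0 < e i)
    (x W' : C.B) (hW' : W' ∉ 𝔪)
    (hW'v : ∀ i', i' ≠ i → ∃ f' ∈ C.V i', (W' : F) = algebraMap R F q * f')
    (f' : F) (hf' : f' ∈ C.V i) (hxf : (x : F) ^ e i = algebraMap R F q * f')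
    (m : ℕ) (hm : 0 < m) (A Y : C.B) (hY : Y ∉ 𝔪)
    (hrd : C.rd i (((W' : F) * f') ^ m * (A : F)) = C.rdB i Y) :
    Nonempty (LocEq C q 𝔪) ∧ ∀ i', C.Icomp i' ≤ 𝔪 → i' = i := by
  -- `W₂ = W' f' ∈ B`
  have hW₂F : (W' : F) * f' = (x : F) ^ e i * (W' : F) * (algebraMap R F q)⁻¹ := by
    rw [hxf]
    field_simp
  have hW₂B : (W' : F) * f' ∈ C.B := by
    refine crit _ ?_ fun i' => ?_
    · rw [hW₂F]
      exact mul_mem (mul_mem (pow_mem (hBH _ x.2) _) (hBH _ W'.2)) hqH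
    · by_cases hii : i' = i
      · subst hii
        exact mul_mem (C.B_le _ _ W'.2) hf'
      · obtain ⟨g', hg', hWg⟩ := hW'v i' hii
        have : (W' : F) * f' = (x : F) ^ e i * g' := by
          rw [hW₂F, hWg]
          field_simp
        rw [this]
        exact mul_mem (pow_mem (C.B_le _ _ x.2) _) hg'
  set W₂ : C.B := ⟨(W' : F) * f', hW₂B⟩ with hW₂
  have heq : algebraMap R C.B q * W₂ = x ^ e i * W' := by
    apply Subtype.ext
    change algebraMap R F q * ((W' : F) * f') = (x : F) ^ e i * (W' : F)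
    rw [hxf]
    ring
  have hW₂m : W₂ ∉ 𝔪 := by
    have h1 : W₂ ^ m * A ∉ 𝔪 := by
      refine not_mem_of_rdB_eq C 𝔪 i hi ?_ hY
      rw [← hrd, ← C.rd_coe]
      rfl
    intro hmem
    apply h1
    obtain ⟨m', rfl⟩ : ∃ m', m = m' + 1 := ⟨m - 1, by omega⟩
    rw [pow_succ, mul_assoc]
    exact 𝔪.mul_mem_left _ (𝔪.mul_mem_right _ hmem)
  exact locEq_ord C q e hE hq0 hqV (valq_of_crit C q hq0 H hBH hqH crit) 𝔪 i hi he x W₂ W'
    hW₂m hW' heq hW'v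

end Ord

end Fermat.Agent.S36.NU.H99

end
end
-- ==== END Fermat.Agent.S36.NU.H99_OrdAbs
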