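-- GENERATED (merged mirror, NOTES/tools/trim/merge3_helper67.py): 6 modules of the originals, bodies verbatim.
import Fermat.Agent.Zm.S36_L13_000
import Fermat.Agent.Zm.S36_L06_001
import Fermat.Agent.Zm.S35_L21_000
import Fermat.Agent.Zm.S36_L13_001
import Fermat.Agent.Zm.S35_L15_002
import Fermat.Agent.Zm.S36_L09_002

-- ==== BEGIN Fermat.Agent.S36.NU.H69_NrA2
section
attribute [local instance 10000] SubalgebraClass.toAlgebra
attribute [local instance 10000] HahnSeries.powerSeriesAlgebra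

/-!
# S36 / NU-MOD, leaf NM-A2 (helper69): the `NRData` of `L0 (M q²) / L0 (M q)` above `V₂`

Level `M q²` over level `M q` along `α` (the inclusion; algebra `H23.algL0 A (H87.hleA q M)`, as
in helper87's `nrA1`), of degree `q`.  Above the second valuation `V₂ = V₁ ∘ w_q` of level `M q`
(`VE2`, uniformiser `q`, residue map `rE2 = red₁ ∘ w_q` into `C' = FM A (M q)`) lies the single
valuation `V₀₂`, with `e = 1` and residue field `C'` over `C'` through `Fr` (`t ↦ t ^ q`), of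
degree `q`.

* `nrA2 : NRData (L0 (M q)) (L0 (M q²)) C' Unit (fun _ => C')`, `nrA2_hdeg`;
* `normA2` : `red₂ (N_α h) = φ (red₀₂ h)` in `k((t))` (`φ = frobL`, the coefficientwise
  Frobenius); `normA2_F` for the norm of `F_{M q²} / F_{M q}`, `normA2_N` for `normAlongHom α`.
-/

set_option autoImplicit false
set_option synthInstance.maxHeartbeats 400000
set_option maxHeartbeats 1000000
set_option linter.style.haveILetI false
set_option linter.unusedSectionVars false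

noncomputable section

open ModularCurve AlgebraicCurve
open Fermat.Agent.S24 Fermat.Agent.BAD.H88 Fermat.Agent.S28 Fermat.Agent.S28.H73
open Fermat.Agent.RED.H73 Fermat.Agent.RED.H17 Fermat.Agent.S36.NU.H88
open Fermat.Agent.S36.NU.H23 Fermat.Agent.S36.NU.H87

namespace Fermat.Agent.S36.NU.H69

open Fermat.Agent.BAD

section NrA2

variable (A : ValuationSubring Kbar) (q M : ℕ) (B k : ℤ) (hB : B * M + k * q = 1) (hq : q.Prime)
  [NeZero M] [NeZero q] [NeZero (M * q)] [NeZero (M * q * q)]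
  (hqM : ¬ q ∣ M) (hA : A.LiesOverPrime q)

/-! ### The two descriptions of the tower along `α` -/

/-- The inclusion `L0 (M q) → L0 (M q²)` is `α`. -/
theorem inclL0_eq_aL0 : inclL0 A (hleA q M) = aL0 A q M :=
  RingHom.ext fun a => Subtype.ext (coe_inclL0_alphaA A q M a)

/-- helper23's structure (inclusion) is helper26's structure along `α`. -/
theorem algL0_eq_algA : algL0 A (hleA q M) = _root_.Fermat.Agent.S36.NU.H69.algA A q M :=
  congrArg RingHom.toAlgebra (inclL0_eq_aL0 A q M)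

theorem norm_congr_alg (a b : Algebra ↥(L0 A (M * q)) ↥(L0 A (M * q * q))) (hab : a = b)
    (h : ↥(L0 A (M * q * q))) :
    @Algebra.norm ↥(L0 A (M * q)) ↥(L0 A (M * q * q)) _ _ a h
      = @Algebra.norm ↥(L0 A (M * q)) ↥(L0 A (M * q * q)) _ _ b h := by
  subst hab; rfl

/-- The norm along `α` of an inertia-fixed function, for helper23's structure. -/
theorem norm_algL0_A (g : ↥(L0 A (M * q * q))) :
    Fermat.Agent.Lib.HeckeComm.normAlongHom (heckeAlphaBar Kbar (M * q) q).toRingHom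
        (g : FN (M * q * q))
      = ((@Algebra.norm ↥(L0 A (M * q)) ↥(L0 A (M * q * q)) _ _ (algL0 A (hleA q M)) g :
          ↥(L0 A (M * q))) : FN (M * q)) := by
  rw [norm_congr_alg A q M _ _ (algL0_eq_algA A q M) g]
  exact norm_algA A q M g

/-! ### The map `VE2 → V02o` -/

include hq in
/-- `α` maps `VE2` into `V02o`. -/
theorem hVA2 (a : ↥(L0 A (M * q))) (ha : a ∈ VE2 A q M B k hB hq) :
    inclL0 A (hleA q M) a ∈ V02o A q M B k hB := by
  show ((inclL0 A (hleA q M) a : ↥(L0 A (M * q * q))) : FN (M * q * q))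
    ∈ V02 A (M * q * q) q M B k (lvl q M) hB
  rw [coe_inclL0_alphaA]
  exact (alpha_mem_V02_iff A q M B k hB hq (a : FN (M * q))).2 ha

/-- `red₀₂ (α a) = (red₂ a)(t ^ q)`, in `k((t))`. -/
theorem s02_inclA (a : ↥(VE2 A q M B k hB hq))
    (h : inclL0 A (hleA q M) (a : ↥(L0 A (M * q))) ∈ V02o A q M B k hB) :
    s02 A q M B k hB ⟨_, h⟩
      = qExpand (kV A) q ((_root_.Fermat.Agent.S36.NU.H69.rE2 A q M B k hB hq a : F1 A q M) : LaurentSeries (kV A)) := by
  have hα : heckeAlphaBar Kbar (M * q) q ((a : ↥(L0 A (M * q))) : FN (M * q))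
      ∈ V02 A (M * q * q) q M B k (lvl q M) hB :=
    (alpha_mem_V02_iff A q M B k hB hq _).2 a.2
  have e := red02_alpha A q M B k hB hq ((a : ↥(L0 A (M * q))) : FN (M * q)) a.2 hα
  have e2 : s02 A q M B k hB ⟨_, h⟩
      = ((red02 A (M * q * q) q M B k (lvl q M) hB
          ⟨heckeAlphaBar Kbar (M * q) q ((a : ↥(L0 A (M * q))) : FN (M * q)), hα⟩ :
            F20 A (M * q * q)) : LaurentSeries (kV A)) := by
    show ((red02 A (M * q * q) q M B k (lvl q M) hB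
      ⟨((inclL0 A (hleA q M) (a : ↥(L0 A (M * q))) : ↥(L0 A (M * q * q))) : FN (M * q * q)),
        h⟩ : F20 A (M * q * q)) : LaurentSeries (kV A)) = _
    congr 2
  rw [e2, e]
  rfl

/-- `red₀₂ (α a) = Fr (red₂ a)`. -/
theorem r02A_inclA (a : ↥(VE2 A q M B k hB hq))
    (h : inclL0 A (hleA q M) (a : ↥(L0 A (M * q))) ∈ V02o A q M B k hB) :
    _root_.Fermat.Agent.S36.NU.H69.r02A A q M B k hB hq hqM hA ⟨_, h⟩ = FrA A q M hq hqM hA (_root_.Fermat.Agent.S36.NU.H69.rE2 A q M B k hB hq a) := by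
  apply Subtype.ext
  rw [coe_FrA, _root_.Fermat.Agent.S36.NU.H69.coe_r02A]
  exact s02_inclA A q M B k hB hq a h

/-- **NM-A2**: the `NRData` of `L0 (M q²) / L0 (M q)` along `α` above the second valuation
`V₂ = V₁ ∘ w_q` of level `M q`: `VE = VE2`, `ϖ = q`; the single valuation `V02o`,
`red = r02A`, `e = 1`; residue field `FM A (M q)` over itself through `Fr`. -/
def nrA2 :
    @H42.NRData ↥(L0 A (M * q)) ↥(L0 A (M * q * q)) (FM A (M * q)) _ _ _
      (algL0 A (hleA q M)) Unit (fun _ => FM A (M * q)) _ (fun _ => algFrA A q M hq hqM hA) :=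
  @H42.nr1 ↥(L0 A (M * q)) ↥(L0 A (M * q * q)) (FM A (M * q)) (FM A (M * q)) _ _ _ _
    (algL0 A (hleA q M)) (algFrA A q M hq hqM hA)
    (VE2 A q M B k hB hq) (_root_.Fermat.Agent.S36.NU.H69.rE2 A q M B k hB hq) (V02o A q M B k hB)
    (_root_.Fermat.Agent.S36.NU.H69.r02A A q M B k hB hq hqM hA) (piL A q M)
    (piL_ne_zero A q M hq) (piL_mem2 A q M B k hB hq hA) (rE2_piL A q M B k hB hq hA)
    (hE2 A q M B k hB hq hA)
    (fun a ha => hVA2 A q M B k hB hq a ha)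
    (_root_.Fermat.Agent.S36.NU.H69.rE2_eq_zero_of_not_isUnit A q M B k hB hq)
    (_root_.Fermat.Agent.S36.NU.H69.r02A_surjective A q M B k hB hq hqM hA)
    (_root_.Fermat.Agent.S36.NU.H69.r02A_eq_zero_of_not_isUnit A q M B k hB hq hqM hA)
    (fun a ha => r02A_inclA A q M B k hB hq hqM hA a ha)
    (isArch_resV0 _ _
      (Fermat.Agent.S36.NU.H82.isArch_V02 A hq hA (M * q * q) M B k (lvl q M) hB))

/-! The fields, by `rfl`. -/

theorem nrA2_VE :
    @H42.NRData.VE ↥(L0 A (M * q)) ↥(L0 A (M * q * q)) (FM A (M * q)) _ _ _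
      (algL0 A (hleA q M)) Unit (fun _ => FM A (M * q)) _ (fun _ => algFrA A q M hq hqM hA)
      (nrA2 A q M B k hB hq hqM hA) = VE2 A q M B k hB hq := rfl

theorem nrA2_VE' :
    @H42.NRData.VE ↥(L0 A (M * q)) ↥(L0 A (M * q * q)) (FM A (M * q)) _ _ _
      (algL0 A (hleA q M)) Unit (fun _ => FM A (M * q)) _ (fun _ => algFrA A q M hq hqM hA)
      (nrA2 A q M B k hB hq hqM hA)
      = resV0 (L0 A (M * q)) (V2 A q M k B (hab_of_hB q M B k hB) hq) := rfl

theorem nrA2_redE :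
    @H42.NRData.redE ↥(L0 A (M * q)) ↥(L0 A (M * q * q)) (FM A (M * q)) _ _ _
      (algL0 A (hleA q M)) Unit (fun _ => FM A (M * q)) _ (fun _ => algFrA A q M hq hqM hA)
      (nrA2 A q M B k hB hq hqM hA) = _root_.Fermat.Agent.S36.NU.H69.rE2 A q M B k hB hq := rfl

theorem nrA2_ϖ :
    @H42.NRData.ϖ ↥(L0 A (M * q)) ↥(L0 A (M * q * q)) (FM A (M * q)) _ _ _
      (algL0 A (hleA q M)) Unit (fun _ => FM A (M * q)) _ (fun _ => algFrA A q M hq hqM hA)
      (nrA2 A q M B k hB hq hqM hA) = ((q : ℕ) : ↥(L0 A (M * q))) := rfl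

theorem nrA2_V (i : Unit) :
    @H42.NRData.V ↥(L0 A (M * q)) ↥(L0 A (M * q * q)) (FM A (M * q)) _ _ _
      (algL0 A (hleA q M)) Unit (fun _ => FM A (M * q)) _ (fun _ => algFrA A q M hq hqM hA)
      (nrA2 A q M B k hB hq hqM hA) i = V02o A q M B k hB := rfl

theorem nrA2_red (i : Unit) :
    @H42.NRData.red ↥(L0 A (M * q)) ↥(L0 A (M * q * q)) (FM A (M * q)) _ _ _
      (algL0 A (hleA q M)) Unit (fun _ => FM A (M * q)) _ (fun _ => algFrA A q M hq hqM hA)
      (nrA2 A q M B k hB hq hqM hA) i = _root_.Fermat.Agent.S36.NU.H69.r02A A q M B k hB hq hqM hA := rfl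

theorem nrA2_e (i : Unit) :
    @H42.NRData.e ↥(L0 A (M * q)) ↥(L0 A (M * q * q)) (FM A (M * q)) _ _ _
      (algL0 A (hleA q M)) Unit (fun _ => FM A (M * q)) _ (fun _ => algFrA A q M hq hqM hA)
      (nrA2 A q M B k hB hq hqM hA) i = 1 := rfl

theorem nrA2_π (i : Unit) :
    @H42.NRData.π ↥(L0 A (M * q)) ↥(L0 A (M * q * q)) (FM A (M * q)) _ _ _
      (algL0 A (hleA q M)) Unit (fun _ => FM A (M * q)) _ (fun _ => algFrA A q M hq hqM hA)
      (nrA2 A q M B k hB hq hqM hA) i = ((q : ℕ) : ↥(L0 A (M * q * q))) :=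
  map_natCast (inclL0 A (hleA q M)) q

/-- **`∑ e f = 1 · q = [L0 (M q²) : L0 (M q)]`**. -/
theorem nrA2_hdeg :
    ∑ i, @H42.NRData.e ↥(L0 A (M * q)) ↥(L0 A (M * q * q)) (FM A (M * q)) _ _ _
          (algL0 A (hleA q M)) Unit (fun _ => FM A (M * q)) _
          (fun _ => algFrA A q M hq hqM hA) (nrA2 A q M B k hB hq hqM hA) i
        * @Module.finrank (FM A (M * q)) (FM A (M * q)) _ _
            (algFrA A q M hq hqM hA).toModule
      = @Module.finrank ↥(L0 A (M * q)) ↥(L0 A (M * q * q)) _ _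
          (algL0 A (hleA q M)).toModule := by
  rw [Fintype.sum_unique, finrank_L0_A A q M hq, finrank_algFrA A q M hq hqM hA, nrA2_e,
    one_mul]

/-! ### NORM-RED along `α` above `V₂` -/

include hqM in
/-- **NORM-RED along `α` above `V₂`**, in `k((t))`: for an inertia-fixed function `h` of level
`M q²` in `V₀₂`, the norm `N_α h` to `L0 (M q)` lies in `V₂` and
`red₂ (N_α h) = φ (red₀₂ h)`, `φ` the coefficientwise Frobenius. -/
theorem normA2 (h : ↥(L0 A (M * q * q))) (h02 : h ∈ V02o A q M B k hB) :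
    ∃ δ : ↥(VE2 A q M B k hB hq),
      @Algebra.norm ↥(L0 A (M * q)) ↥(L0 A (M * q * q)) _ _ (algL0 A (hleA q M)) h
        = (δ : ↥(L0 A (M * q))) ∧
      ((_root_.Fermat.Agent.S36.NU.H69.rE2 A q M B k hB hq δ : F1 A q M) : LaurentSeries (kV A))
        = @Fermat.Agent.BAD.H73.frobL (kV A) _ q ⟨hq⟩ (Fermat.Agent.BAD.H82.charP_kV A hq hA)
          (@Fermat.Agent.BAD.H73.perfectRing_kV _ _ _ A q ⟨hq⟩
            (Fermat.Agent.BAD.H82.charP_kV A hq hA)) (s02 A q M B k hB ⟨h, h02⟩) := by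
  obtain ⟨δ, h1, h2⟩ := @H42.NRData.normRed ↥(L0 A (M * q)) ↥(L0 A (M * q * q)) (FM A (M * q))
    _ _ _ (algL0 A (hleA q M)) Unit (fun _ => FM A (M * q)) _
    (fun _ => algFrA A q M hq hqM hA)
    (fun _ => finite_algFrA A q M hq hqM hA) (nrA2 A q M B k hB hq hqM hA) _ _
    (finite_L0_A A q M) (nrA2_hdeg A q M B k hB hq hqM hA) h (fun _ => h02)
  refine ⟨δ, h1, ?_⟩
  rw [Fintype.prod_unique] at h2
  have h3 : _root_.Fermat.Agent.S36.NU.H69.rE2 A q M B k hB hq δ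
      = @Algebra.norm (FM A (M * q)) (FM A (M * q)) _ _ (algFrA A q M hq hqM hA)
          (_root_.Fermat.Agent.S36.NU.H69.r02A A q M B k hB hq hqM hA ⟨h, h02⟩) ^ 1 := h2
  rw [pow_one] at h3
  have h4 := congrArg (fun z : FM A (M * q) => (z : LaurentSeries (kV A))) h3
  exact h4.trans (coe_norm_algFrA A q M hq hqM hA _)

include hqM in
/-- **NORM-RED along `α` above `V₂`**, for the norm of `F_{M q²} / F_{M q}`. -/
theorem normA2_F (h : ↥(L0 A (M * q * q))) (h02 : h ∈ V02o A q M B k hB) :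
    ∃ hm : @Algebra.norm (FN (M * q)) (FN (M * q * q)) _ _ (algF (hleA q M))
        (h : FN (M * q * q)) ∈ V2 A q M k B (hab_of_hB q M B k hB) hq,
      ((red2 A q M k B (hab_of_hB q M B k hB) hq ⟨_, hm⟩ : F1 A q M) : LaurentSeries (kV A))
        = @Fermat.Agent.BAD.H73.frobL (kV A) _ q ⟨hq⟩ (Fermat.Agent.BAD.H82.charP_kV A hq hA)
          (@Fermat.Agent.BAD.H73.perfectRing_kV _ _ _ A q ⟨hq⟩
            (Fermat.Agent.BAD.H82.charP_kV A hq hA)) (s02 A q M B k hB ⟨h, h02⟩) := by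
  obtain ⟨δ, h1, h2⟩ := normA2 A q M B k hB hq hqM hA h h02
  have e : @Algebra.norm (FN (M * q)) (FN (M * q * q)) _ _ (algF (hleA q M))
      (h : FN (M * q * q)) = ((δ : ↥(L0 A (M * q))) : FN (M * q)) := by
    rw [norm_L0 A (hleA q M) (finite_FA q M) h, h1]
  have hm : @Algebra.norm (FN (M * q)) (FN (M * q * q)) _ _ (algF (hleA q M))
      (h : FN (M * q * q)) ∈ V2 A q M k B (hab_of_hB q M B k hB) hq := by
    rw [e]; exact δ.2
  refine ⟨hm, ?_⟩
  rw [← h2]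
  show ((red2 A q M k B (hab_of_hB q M B k hB) hq ⟨_, hm⟩ : F1 A q M) : LaurentSeries (kV A))
    = ((red2 A q M k B (hab_of_hB q M B k hB) hq ⟨((δ : ↥(L0 A (M * q))) : FN (M * q)), δ.2⟩ :
      F1 A q M) : LaurentSeries (kV A))
  congr 2
  exact Subtype.ext e

include hqM in
/-- **NORM-RED along `α` above `V₂`**, for `normAlongHom α`. -/
theorem normA2_N (h : ↥(L0 A (M * q * q))) (h02 : h ∈ V02o A q M B k hB) :
    ∃ hm : Fermat.Agent.Lib.HeckeComm.normAlongHom (heckeAlphaBar Kbar (M * q) q).toRingHom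
        (h : FN (M * q * q)) ∈ V2 A q M k B (hab_of_hB q M B k hB) hq,
      ((red2 A q M k B (hab_of_hB q M B k hB) hq ⟨_, hm⟩ : F1 A q M) : LaurentSeries (kV A))
        = @Fermat.Agent.BAD.H73.frobL (kV A) _ q ⟨hq⟩ (Fermat.Agent.BAD.H82.charP_kV A hq hA)
          (@Fermat.Agent.BAD.H73.perfectRing_kV _ _ _ A q ⟨hq⟩
            (Fermat.Agent.BAD.H82.charP_kV A hq hA)) (s02 A q M B k hB ⟨h, h02⟩) := by
  obtain ⟨δ, h1, h2⟩ := normA2 A q M B k hB hq hqM hA h h02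
  have e : Fermat.Agent.Lib.HeckeComm.normAlongHom (heckeAlphaBar Kbar (M * q) q).toRingHom
      (h : FN (M * q * q)) = ((δ : ↥(L0 A (M * q))) : FN (M * q)) := by
    rw [norm_algL0_A A q M h, h1]
  have hm : Fermat.Agent.Lib.HeckeComm.normAlongHom (heckeAlphaBar Kbar (M * q) q).toRingHom
      (h : FN (M * q * q)) ∈ V2 A q M k B (hab_of_hB q M B k hB) hq := by
    rw [e]; exact δ.2
  refine ⟨hm, ?_⟩
  rw [← h2]
  show ((red2 A q M k B (hab_of_hB q M B k hB) hq ⟨_, hm⟩ : F1 A q M) : LaurentSeries (kV A))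
    = ((red2 A q M k B (hab_of_hB q M B k hB) hq ⟨((δ : ↥(L0 A (M * q))) : FN (M * q)), δ.2⟩ :
      F1 A q M) : LaurentSeries (kV A))
  congr 2
  exact Subtype.ext e

end NrA2

end Fermat.Agent.S36.NU.H69

end
end
-- ==== END Fermat.Agent.S36.NU.H69_NrA2

-- ==== BEGIN Fermat.Agent.S36.NU.H69_NrB1
section

/-!
# S36 / NU-MOD, leaf NM-B1 (helper69): the `NRData` of `L0 (M q²) / β L0 (M q)` above `V₁`

Level `M q²` over level `M q` along `β` (algebra `algB` = helper26's `H26.algL0Along` for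
`heckeBetaBar Kbar (M q) q`), of degree `q`.  Above the Gauss valuation `V₁` of level `M q`
(`VE0 A (M q)`, uniformiser `q`, residue field `C' = FM A (M q)`) lies the single valuation
`V₂₀`, with `e = 1` and residue field `C'` over `C'` through `Fr` (`t ↦ t ^ q`), of degree `q`.

* `nrB1 : NRData (L0 (M q)) (L0 (M q²)) C' Unit (fun _ => C')`, `nrB1_hdeg`;
* `normB1` : `red (N_β h) = φ (red₂₀ h)` in `k((t))` (`φ = frobL`, the coefficientwise
  Frobenius), `normB1_F` the same for `normAlongHom β`.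
-/

set_option autoImplicit false
set_option synthInstance.maxHeartbeats 400000
set_option maxHeartbeats 1000000
set_option linter.style.haveILetI false
set_option linter.unusedSectionVars false

noncomputable section

open ModularCurve AlgebraicCurve
open Fermat.Agent.S24 Fermat.Agent.BAD.H88 Fermat.Agent.S28 Fermat.Agent.S28.H73
open Fermat.Agent.RED.H73 Fermat.Agent.RED.H17 Fermat.Agent.S36.NU.H88
open Fermat.Agent.S36.NU.H23

namespace Fermat.Agent.S36.NU.H69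

open Fermat.Agent.BAD

section NrB1

variable (A : ValuationSubring Kbar) (q M : ℕ) (B k : ℤ) (hB : B * M + k * q = 1) (hq : q.Prime)
  [NeZero M] [NeZero q] [NeZero (M * q)] [NeZero (M * q * q)]
  (hqM : ¬ q ∣ M) (hA : A.LiesOverPrime q)

/-- `β` maps `VE0 A (M q)` into `V20o`. -/
theorem hVB1 (a : ↥(L0 A (M * q))) (ha : a ∈ VE0 A (M * q)) : bL0 A q M a ∈ V20o A q M :=
  (beta_mem_V20_iff A q M (a : FN (M * q))).2 ha

/-- `red₂₀ (β a) = Fr (red a)`. -/
theorem r20A_bL0 (a : ↥(VE0 A (M * q))) (h : bL0 A q M (a : ↥(L0 A (M * q))) ∈ V20o A q M) :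
    Fermat.Agent.S36.NU.H87.r20A A q M hq hqM hA ⟨_, h⟩
      = FrA A q M hq hqM hA (rE A (M * q) a) := by
  apply Subtype.ext
  rw [coe_FrA, coe_rE, Fermat.Agent.S36.NU.H87.coe_r20A]
  exact red20_beta A q M ((a : ↥(L0 A (M * q))) : FN (M * q)) a.2 h

/-- **NM-B1**: the `NRData` of `L0 (M q²) / L0 (M q)` along `β` above the Gauss valuation `V₁`
of level `M q`: `VE = VE0 A (M q)`, `ϖ = q`; the single valuation `V20o`, `red = r20A`,
`e = 1`; residue field `FM A (M q)` over itself through `Fr`. -/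
def nrB1 :
    @H42.NRData ↥(L0 A (M * q)) ↥(L0 A (M * q * q)) (FM A (M * q)) _ _ _ (algB A q M)
      Unit (fun _ => FM A (M * q)) _ (fun _ => algFrA A q M hq hqM hA) :=
  @H42.nr1 ↥(L0 A (M * q)) ↥(L0 A (M * q * q)) (FM A (M * q)) (FM A (M * q)) _ _ _ _
    (algB A q M) (algFrA A q M hq hqM hA)
    (VE0 A (M * q)) (rE A (M * q)) (V20o A q M)
    (Fermat.Agent.S36.NU.H87.r20A A q M hq hqM hA) (piE A q (M * q))
    (piE_ne_zero A q (M * q) hq) (piE_mem A q (M * q) hA) (rE_piE A q (M * q) hA)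
    (hE_mod A q (M * q) hq hA)
    (fun a ha => hVB1 A q M a ha)
    (rE_eq_zero_of_not_isUnit A (M * q))
    (Fermat.Agent.S36.NU.H87.r20A_surjective A q M hq hqM hA)
    (Fermat.Agent.S36.NU.H87.r20A_eq_zero_of_not_isUnit A q M hq hqM hA)
    (fun a ha => r20A_bL0 A q M hq hqM hA a ha)
    (isArch_resV0 _ _ (Fermat.Agent.S36.NU.H82.isArch_V20 A hq hA (M * q * q)))

/-! The fields, by `rfl`. -/

theorem nrB1_VE :
    @H42.NRData.VE ↥(L0 A (M * q)) ↥(L0 A (M * q * q)) (FM A (M * q)) _ _ _ (algB A q M)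
      Unit (fun _ => FM A (M * q)) _ (fun _ => algFrA A q M hq hqM hA)
      (nrB1 A q M hq hqM hA) = VE0 A (M * q) := rfl

theorem nrB1_VE' :
    @H42.NRData.VE ↥(L0 A (M * q)) ↥(L0 A (M * q * q)) (FM A (M * q)) _ _ _ (algB A q M)
      Unit (fun _ => FM A (M * q)) _ (fun _ => algFrA A q M hq hqM hA)
      (nrB1 A q M hq hqM hA) = resV0 (L0 A (M * q)) (V1 A q M) := rfl

theorem nrB1_redE :
    @H42.NRData.redE ↥(L0 A (M * q)) ↥(L0 A (M * q * q)) (FM A (M * q)) _ _ _ (algB A q M)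
      Unit (fun _ => FM A (M * q)) _ (fun _ => algFrA A q M hq hqM hA)
      (nrB1 A q M hq hqM hA) = rE A (M * q) := rfl

theorem nrB1_ϖ :
    @H42.NRData.ϖ ↥(L0 A (M * q)) ↥(L0 A (M * q * q)) (FM A (M * q)) _ _ _ (algB A q M)
      Unit (fun _ => FM A (M * q)) _ (fun _ => algFrA A q M hq hqM hA)
      (nrB1 A q M hq hqM hA) = piE A q (M * q) := rfl

theorem nrB1_ϖ_natCast :
    @H42.NRData.ϖ ↥(L0 A (M * q)) ↥(L0 A (M * q * q)) (FM A (M * q)) _ _ _ (algB A q M)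
      Unit (fun _ => FM A (M * q)) _ (fun _ => algFrA A q M hq hqM hA)
      (nrB1 A q M hq hqM hA) = ((q : ℕ) : ↥(L0 A (M * q))) := rfl

theorem nrB1_V (i : Unit) :
    @H42.NRData.V ↥(L0 A (M * q)) ↥(L0 A (M * q * q)) (FM A (M * q)) _ _ _ (algB A q M)
      Unit (fun _ => FM A (M * q)) _ (fun _ => algFrA A q M hq hqM hA)
      (nrB1 A q M hq hqM hA) i = V20o A q M := rfl

theorem nrB1_red (i : Unit) :
    @H42.NRData.red ↥(L0 A (M * q)) ↥(L0 A (M * q * q)) (FM A (M * q)) _ _ _ (algB A q M)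
      Unit (fun _ => FM A (M * q)) _ (fun _ => algFrA A q M hq hqM hA)
      (nrB1 A q M hq hqM hA) i = Fermat.Agent.S36.NU.H87.r20A A q M hq hqM hA := rfl

theorem nrB1_e (i : Unit) :
    @H42.NRData.e ↥(L0 A (M * q)) ↥(L0 A (M * q * q)) (FM A (M * q)) _ _ _ (algB A q M)
      Unit (fun _ => FM A (M * q)) _ (fun _ => algFrA A q M hq hqM hA)
      (nrB1 A q M hq hqM hA) i = 1 := rfl

theorem nrB1_π (i : Unit) :
    @H42.NRData.π ↥(L0 A (M * q)) ↥(L0 A (M * q * q)) (FM A (M * q)) _ _ _ (algB A q M)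
      Unit (fun _ => FM A (M * q)) _ (fun _ => algFrA A q M hq hqM hA)
      (nrB1 A q M hq hqM hA) i = ((q : ℕ) : ↥(L0 A (M * q * q))) :=
  map_natCast (bL0 A q M) q

/-- **`∑ e f = 1 · q = [L0 (M q²) : β L0 (M q)]`**. -/
theorem nrB1_hdeg :
    ∑ i, @H42.NRData.e ↥(L0 A (M * q)) ↥(L0 A (M * q * q)) (FM A (M * q)) _ _ _ (algB A q M)
          Unit (fun _ => FM A (M * q)) _ (fun _ => algFrA A q M hq hqM hA)
          (nrB1 A q M hq hqM hA) i
        * @Module.finrank (FM A (M * q)) (FM A (M * q)) _ _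
            (algFrA A q M hq hqM hA).toModule
      = @Module.finrank ↥(L0 A (M * q)) ↥(L0 A (M * q * q)) _ _ (algB A q M).toModule := by
  rw [Fintype.sum_unique, finrank_algB A q M hq, finrank_algFrA A q M hq hqM hA, nrB1_e,
    one_mul]

/-! ### NORM-RED along `β` above `V₁` -/

include hqM in
/-- **NORM-RED along `β` above `V₁`**, in `k((t))`: for an inertia-fixed function `h` of level
`M q²` in `V₂₀`, the norm `N_β h` to `L0 (M q)` is Gauss-integral and
`red (N_β h) = φ (red₂₀ h)`, `φ` the coefficientwise Frobenius. -/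
theorem normB1 (h : ↥(L0 A (M * q * q))) (h20 : h ∈ V20o A q M) :
    ∃ δ : ↥(VE0 A (M * q)),
      @Algebra.norm ↥(L0 A (M * q)) ↥(L0 A (M * q * q)) _ _ (algB A q M) h
        = (δ : ↥(L0 A (M * q))) ∧
      sE A (M * q) δ
        = @Fermat.Agent.BAD.H73.frobL (kV A) _ q ⟨hq⟩ (Fermat.Agent.BAD.H82.charP_kV A hq hA)
          (@Fermat.Agent.BAD.H73.perfectRing_kV _ _ _ A q ⟨hq⟩
            (Fermat.Agent.BAD.H82.charP_kV A hq hA)) (s20 A q M ⟨h, h20⟩) := by
  letI := algB A q M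
  letI : ∀ _ : Unit, Algebra (FM A (M * q)) (FM A (M * q)) := fun _ => algFrA A q M hq hqM hA
  haveI : Module.Finite ↥(L0 A (M * q)) ↥(L0 A (M * q * q)) := finite_algB A q M
  haveI : ∀ i : Unit, @Module.Finite (FM A (M * q)) (FM A (M * q)) _ _
      (algFrA A q M hq hqM hA).toModule := fun _ => finite_algFrA A q M hq hqM hA
  obtain ⟨δ, h1, h2⟩ := @H42.NRData.normRed ↥(L0 A (M * q)) ↥(L0 A (M * q * q)) (FM A (M * q))
    _ _ _ (algB A q M) Unit (fun _ => FM A (M * q)) _ (fun _ => algFrA A q M hq hqM hA)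
    (fun _ => finite_algFrA A q M hq hqM hA) (nrB1 A q M hq hqM hA) _ _
    (finite_algB A q M) (nrB1_hdeg A q M hq hqM hA) h (fun _ => h20)
  refine ⟨δ, h1, ?_⟩
  rw [Fintype.prod_unique] at h2
  have h3 : rE A (M * q) δ
      = @Algebra.norm (FM A (M * q)) (FM A (M * q)) _ _ (algFrA A q M hq hqM hA)
          (Fermat.Agent.S36.NU.H87.r20A A q M hq hqM hA ⟨h, h20⟩) ^ 1 := h2
  rw [pow_one] at h3
  have h4 := congrArg (fun z : FM A (M * q) => (z : LaurentSeries (kV A))) h3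
  exact h4.trans (coe_norm_algFrA A q M hq hqM hA _)

include hqM in
/-- **NORM-RED along `β` above `V₁`**, for `normAlongHom β`. -/
theorem normB1_F (h : ↥(L0 A (M * q * q))) (h20 : h ∈ V20o A q M) :
    ∃ hm : Fermat.Agent.Lib.HeckeComm.normAlongHom (heckeBetaBar Kbar (M * q) q).toRingHom
        (h : FN (M * q * q)) ∈ VM A (M * q),
      ((redM A (M * q) ⟨_, hm⟩ : FM A (M * q)) : LaurentSeries (kV A))
        = @Fermat.Agent.BAD.H73.frobL (kV A) _ q ⟨hq⟩ (Fermat.Agent.BAD.H82.charP_kV A hq hA)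
          (@Fermat.Agent.BAD.H73.perfectRing_kV _ _ _ A q ⟨hq⟩
            (Fermat.Agent.BAD.H82.charP_kV A hq hA)) (s20 A q M ⟨h, h20⟩) := by
  obtain ⟨δ, h1, h2⟩ := normB1 A q M hq hqM hA h h20
  have e : Fermat.Agent.Lib.HeckeComm.normAlongHom (heckeBetaBar Kbar (M * q) q).toRingHom
      (h : FN (M * q * q)) = ((δ : ↥(L0 A (M * q))) : FN (M * q)) := by
    rw [norm_algB A q M h, h1]
  have hm : Fermat.Agent.Lib.HeckeComm.normAlongHom (heckeBetaBar Kbar (M * q) q).toRingHom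
      (h : FN (M * q * q)) ∈ VM A (M * q) := by
    rw [e]; exact δ.2
  refine ⟨hm, ?_⟩
  rw [← h2]
  show gaussRedV A ⟨_, hm⟩ = gaussRedV A ⟨_, δ.2⟩
  congr 1
  exact Subtype.ext (congrArg (fun z : FN (M * q) => (z : LaurentSeries Kbar)) e)

end NrB1

end Fermat.Agent.S36.NU.H69

end
end
-- ==== END Fermat.Agent.S36.NU.H69_NrB1

-- ==== BEGIN Fermat.Agent.S36.NU.H79_NuMDefs
section
attribute [local instance 10000] SubalgebraClass.toAlgebra
attribute [local instance 10000] HahnSeries.powerSeriesAlgebra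

/-!
# S36 / NU-B, ND (helper79): the modular instance of `NUData`, interface

Level `N = M q²`, `q ∤ M` tame, `A` over `q`.

* `TlowM` : the conservation datum of the lower level `M q` (`S35.H89.modTot` with `a = k`,
  `b = B`);
* `NUDataM`, `NUPreM` : the types of the modular data `NUData`, `NUPre`
  (`K = ℚ̄`, `L₀ = L0 A (M q²)`, `L = F_{M q²}`, `k = kV A`, `ι = Fin 3`,
  `Z = Place k (FM A M)`, `E = kap3 (FM A M) (FM A M)`, `K' = ℚ̄`, `L' = F_{M q}`,
  `L₁ = L₂ = F1 A q M`);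
* `IsNuM D` : `D : NUDataM` is a modular instance: `D.T = totM`, `D.SS = ssM`, `D.q = q`,
  `D.Nα`, `D.Nβ` are the norms along `α`, `β`, and the components are `0`, `1`, `2`;
* `Stmt_NuM` : there is a modular instance (the target of ND; input of INST).
-/

set_option autoImplicit false
set_option synthInstance.maxHeartbeats 400000
set_option maxHeartbeats 1000000
set_option linter.style.haveILetI false
set_option linter.unusedSectionVars false

noncomputable section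

open ModularCurve AlgebraicCurve
open Fermat.Agent.S24 Fermat.Agent.BAD.H88 Fermat.Agent.S28 Fermat.Agent.S28.H73
open Fermat.Agent.RED.H73 Fermat.Agent.RED.H17 Fermat.Agent.S36.NU.H88
open Fermat.Agent.Lib.HeckeComm Fermat.Agent.S36.NU.H23 Fermat.Agent.S36.NU.H74

namespace Fermat.Agent.S36.NU.H79

open Fermat.Agent.BAD Fermat.Agent.RED Fermat.Agent.BAD.H79

section NuM

variable (A : ValuationSubring Kbar) (q M : ℕ) (B k : ℤ) (hB : B * M + k * q = 1) (hq : q.Prime)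
  [NeZero M] [NeZero q] [NeZero (M * q)] [NeZero (M * q * q)]
  (hqM : ¬ q ∣ M) (hA : A.LiesOverPrime q) (ht : H91.TameAt M q)

include hB in
/-- The Bézout relation in the form of the lower level. -/
theorem hab_nuM : k * q + B * M = 1 := by
  rw [← hB]
  ring

/-- **The conservation datum of the lower level `M q`.** -/
abbrev TlowM : TotData Kbar (FN (M * q)) (kV A) (F1 A q M) (F1 A q M) :=
  S35.H89.modTot A q M k B (hab_nuM q M B k hB) hq hA hqM ht

/-- The type of the modular data `NUPre`. -/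
abbrev NUPreM : Type _ :=
  @NUPre Kbar ↥(L0 A (M * q * q)) (FN (M * q * q)) (kV A) (Fin 3) (Place (kV A) (FM A M))
    (kap3 (FM A M) (FM A M)) Kbar (FN (M * q)) (F1 A q M) (F1 A q M)
    _ _ _ _ _ _ _ _ (algkM A M) _ _ _ _ _ _ _

/-- The type of the modular data `NUData`. -/
abbrev NUDataM : Type _ :=
  @NUData Kbar ↥(L0 A (M * q * q)) (FN (M * q * q)) (kV A) (Fin 3) (Place (kV A) (FM A M))
    (kap3 (FM A M) (FM A M)) Kbar (FN (M * q)) (F1 A q M) (F1 A q M)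
    _ _ _ _ _ _ _ _ (algkM A M) _ _ _ _ _ _ _

/-- **`D` is a modular instance of `NUData`.** -/
structure IsNuM (D : NUDataM A q M) : Prop where
  hT : letI := algkM A M; D.T = totM A q M B k hB hq hqM hA ht
  hT' : letI := algkM A M; D.T' = TlowM A q M B k hB hq hqM hA ht
  hSS : letI := algkM A M; D.SS = ssM A q M
  hq : letI := algkM A M; D.q = q
  hNα : letI := algkM A M; ∀ h : ↥(L0 A (M * q * q)),
    D.Nα h = normAlongHom (heckeAlphaBar Kbar (M * q) q).toRingHom (h : FN (M * q * q))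
  hNβ : letI := algkM A M; ∀ h : ↥(L0 A (M * q * q)),
    D.Nβ h = normAlongHom (heckeBetaBar Kbar (M * q) q).toRingHom (h : FN (M * q * q))
  hi₂₀ : letI := algkM A M; D.i₂₀ = 0
  hi₁₁ : letI := algkM A M; D.i₁₁ = 1
  hi₀₂ : letI := algkM A M; D.i₀₂ = 2

/-- **Target of ND**: there is a modular instance of `NUData`. -/
def Stmt_NuM : Prop :=
  ∃ D : NUDataM A q M, IsNuM A q M B k hB hq hqM hA ht D

end NuM

end Fermat.Agent.S36.NU.H79

end
end
-- ==== END Fermat.Agent.S36.NU.H79_NuMDefs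

-- ==== BEGIN Fermat.Agent.S36.NU.H88_ChartInt
section

/-!
# S36, NU-B, (M1) CHART-MOD (helper88): integrality of `j'' = j(q²τ)`

* `isIntegral_adjoin_of_isIntegralElem` : for inertia-fixed `x`, `f`, integrality of `f` for
  `K^ur[X] → ℚ̄[X] → F_N`, `X ↦ x` (the form of helper17's NORMAL-IMG) is integrality over
  `K^ur[x]` inside `L₀`;
* `isIntegral_adjoin_L0` : an inertia-fixed function which is integral over `ℚ̄[x]` is integral
  over `K^ur[x]`;
* `isIntegral_jdd` : **(H)** `j''` is integral over `K^ur[j]`;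
* `jdd_mem_intSub` : `j''` is integral over `R[j]`, from the hypotheses `hG` (Gauss) and
  `hthree` (THREE) of helper17's TI3-VAL;
* `chartHyp_chart0'`, `chartHyp_chartInf'` : `ChartHyp` from `hG`, `hthree`.
-/

set_option autoImplicit false
set_option synthInstance.maxHeartbeats 400000
set_option maxHeartbeats 1000000
set_option linter.unusedSectionVars false
set_option linter.style.haveILetI false

noncomputable section

open IntermediateField ModularCurve AlgebraicCurve Polynomial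
open Fermat.Agent.S24 Fermat.Agent.BAD.H88 Fermat.Agent.S28 Fermat.Agent.S28.H73
open Fermat.Agent.RED.H73 Fermat.Agent.RED.H17

namespace Fermat.Agent.S36.NU.H88

open Fermat.Agent.S36.NU.H16 Fermat.Agent.S36.NU.H17 Fermat.Agent.S36.NU.H24
  Fermat.Agent.S36.NU.H65 Fermat.Agent.S36.NU.H79 Fermat.Agent.S36.NU.H23
  Fermat.Agent.S36.NU.H41 Fermat.Agent.BAD

section Int

variable (A : ValuationSubring Kbar) (N : ℕ) [NeZero N]

/-- `K^ur[X] → L₀`, `X ↦ x`, composed with the inclusion, is `K^ur[X] → ℚ̄[X] → F_N`. -/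
theorem subtype_comp_aeval (x : ↥(L0 A N)) :
    (L0 A N).subtype.comp (aeval x : (↥(Kur A))[X] →ₐ[↥(Kur A)] ↥(L0 A N)).toRingHom
      = (aeval (x : FN N) : Kbar[X] →ₐ[Kbar] FN N).toRingHom.comp
          (mapRingHom (iotaUr A)) := by
  refine Polynomial.ringHom_ext (fun c => ?_) ?_
  · show (((aeval x (C c) : ↥(L0 A N))) : FN N) = aeval (x : FN N) (map (iotaUr A) (C c))
    rw [aeval_C, map_C, aeval_C]
    rfl
  · show (((aeval x (X : (↥(Kur A))[X]) : ↥(L0 A N))) : FN N)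
      = aeval (x : FN N) (map (iotaUr A) X)
    rw [aeval_X, map_X, aeval_X]

/-- Integrality for `K^ur[X] → ℚ̄[X] → F_N` is integrality over `K^ur[x]` inside `L₀`. -/
theorem isIntegral_adjoin_of_isIntegralElem (x f : ↥(L0 A N))
    (hf : ((aeval (x : FN N) : Kbar[X] →ₐ[Kbar] FN N).toRingHom.comp
      (mapRingHom (iotaUr A))).IsIntegralElem (f : FN N)) :
    IsIntegral ↥(Algebra.adjoin ↥(Kur A) {x}) f := by
  obtain ⟨Q, hQ, hQx⟩ := hf
  rw [← subtype_comp_aeval A N x] at hQx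
  have h0 : eval₂ (aeval x : (↥(Kur A))[X] →ₐ[↥(Kur A)] ↥(L0 A N)).toRingHom f Q = 0 := by
    apply (L0 A N).subtype.injective
    rw [map_zero, Polynomial.hom_eval₂]
    exact hQx
  -- the polynomial over `K^ur[x]`
  have hx : ∀ p : (↥(Kur A))[X], aeval x p ∈ Algebra.adjoin ↥(Kur A) {x} := fun p => by
    rw [Algebra.adjoin_singleton_eq_range_aeval]
    exact ⟨p, rfl⟩
  let g : (↥(Kur A))[X] →+* ↥(Algebra.adjoin ↥(Kur A) {x}) :=
    (aeval x : (↥(Kur A))[X] →ₐ[↥(Kur A)] ↥(L0 A N)).toRingHom.codRestrict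
      (Algebra.adjoin ↥(Kur A) {x}) hx
  refine ⟨Q.map g, hQ.map g, ?_⟩
  rw [eval₂_map]
  exact h0

/-- An inertia-fixed function which is integral over `ℚ̄[x]` is integral over `K^ur[x]`. -/
theorem isIntegral_adjoin_L0 (x f : ↥(L0 A N))
    (hf : IsIntegral ↥(Algebra.adjoin Kbar {(x : FN N)}) (f : FN N)) :
    IsIntegral ↥(Algebra.adjoin ↥(Kur A) {x}) f := by
  haveI := isIntegral_Kur_Kbar A
  exact isIntegral_adjoin_of_isIntegralElem A N x f
    (isIntegralElem_of_isIntegral_adjoin (K := ↥(Kur A)) (C := Kbar) (x : FN N) (f : FN N) hf)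

/-- Integrality over `ℚ̄[X]` (`X ↦ j`) is integrality over `ℚ̄[j]`. -/
theorem isIntegral_adjoin_of_poly (f : FN N) (hf : IsIntegral Kbar[X] f) :
    IsIntegral ↥(Algebra.adjoin Kbar {_root_.Fermat.Agent.S24.jF N}) f := by
  refine isIntegral_of_le (A := Kbar[X]) (B := ↥(Algebra.adjoin Kbar {_root_.Fermat.Agent.S24.jF N})) ?_ hf
  intro p
  refine ⟨⟨aeval (_root_.Fermat.Agent.S24.jF N) p, ?_⟩, rfl⟩
  rw [Algebra.adjoin_singleton_eq_range_aeval]
  exact ⟨p, rfl⟩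

/-- `j(q^d)` is integral over `K^ur[j]`. -/
theorem isIntegral_jdF_L0 (d : ℕ) [NeZero d] (hd : d ∣ N) :
    IsIntegral ↥(Algebra.adjoin ↥(Kur A) {j0 A N})
      (⟨jdF N d hd, jdF_mem_L0 A N d hd⟩ : ↥(L0 A N)) :=
  isIntegral_adjoin_L0 A N (j0 A N) ⟨jdF N d hd, jdF_mem_L0 A N d hd⟩
    (isIntegral_adjoin_of_poly N _ (Fermat.Agent.S15.H26.isIntegral_jdF N d hd))

end Int

section Jdd

variable (A : ValuationSubring Kbar) (q M : ℕ) (B k : ℤ) (hB : B * M + k * q = 1) (hq : q.Prime)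
  [NeZero M] [NeZero q] [NeZero (M * q * q)] (hqM : ¬ q ∣ M) (hA : A.LiesOverPrime q)
  (ht : H91.TameAt M q)

attribute [local instance] algkM

/-- **(H)** `j''` is integral over `K^ur[j]`. -/
theorem isIntegral_jdd :
    IsIntegral ↥(Algebra.adjoin ↥(Kur A) {j0 A (M * q * q)}) (jdd A q M) :=
  isIntegral_jdF_L0 A (M * q * q) (q * q) (sq_dvd_lvl q M)

/-- `j''` lies in the three valuation rings. -/
theorem jdd_mem_totM (i : Fin 3) : jdd A q M ∈ (totM A q M B k hB hq hqM hA ht).V i := by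
  fin_cases i
  · exact jdd_mem20 A q M
  · exact jdd_mem11 A q M B k hB hq hA
  · exact jdd_mem02 A q M B k hB hq

/-- **`j''` is integral over `R[j]`**, from the hypotheses `hG` (Gauss) and `hthree` (THREE) of
TI3-VAL (helper17 `isIntegral_adjoin_of_forall_mem`). -/
theorem jdd_mem_intSub (i₀ : Fin 3)
    (hG : ∀ p : (↥(Kur A))[X],
      aeval (j0 A (M * q * q)) p ∈ (totM A q M B k hB hq hqM hA ht).V i₀ →
        ∀ i, p.coeff i ∈ (algebraMap ↥(Rur A) ↥(Kur A)).range)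
    (hthree : ∀ f : ↥(L0 A (M * q * q)),
      (∀ i, f ∈ (totM A q M B k hB hq hqM hA ht).V i) →
      ∃ P : (↥(L0 A (M * q * q)))[X], P.Monic ∧
        (∀ m, P.coeff m ∈ (totM A q M B k hB hq hqM hA ht).V i₀ ∧
          P.coeff m ∈ (↥(Kur A))⟮j0 A (M * q * q)⟯) ∧ P.eval f = 0) :
    jdd A q M ∈ intSub ↥(Rur A) (j0 A (M * q * q)) :=
  isIntegral_adjoin_of_forall_mem ↥(Rur A) ↥(Kur A) (j0 A (M * q * q))
    (transcendental_j0 A (M * q * q)) (totM A q M B k hB hq hqM hA ht).V i₀ hG hthree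
    (isIntegral_jdd A q M) (jdd_mem_totM A q M B k hB hq hqM hA ht)

/-- **`ChartHyp` for the chart of `j`**, from `hG` and `hthree`. -/
theorem chartHyp_chart0' (i₀ : Fin 3)
    (hG : ∀ p : (↥(Kur A))[X],
      aeval (j0 A (M * q * q)) p ∈ (totM A q M B k hB hq hqM hA ht).V i₀ →
        ∀ i, p.coeff i ∈ (algebraMap ↥(Rur A) ↥(Kur A)).range)
    (hthree : ∀ f : ↥(L0 A (M * q * q)),
      (∀ i, f ∈ (totM A q M B k hB hq hqM hA ht).V i) →
      ∃ P : (↥(L0 A (M * q * q)))[X], P.Monic ∧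
        (∀ m, P.coeff m ∈ (totM A q M B k hB hq hqM hA ht).V i₀ ∧
          P.coeff m ∈ (↥(Kur A))⟮j0 A (M * q * q)⟯) ∧ P.eval f = 0)
    (n : ℕ) (hn : 0 < n) (hcop : Nat.Coprime n q) :
    ChartHyp (chart0 A q M B k hB hq hqM hA ht) q n :=
  chartHyp_chart0 A q M B k hB hq hqM hA ht n hn hcop
    (jdd_mem_intSub A q M B k hB hq hqM hA ht i₀ hG hthree)

/-- **`ChartHyp` for the chart of `j⁻¹`**, from `hG` and `hthree`. -/
theorem chartHyp_chartInf' (i₀ : Fin 3)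
    (hG : ∀ p : (↥(Kur A))[X],
      aeval (j0 A (M * q * q)) p ∈ (totM A q M B k hB hq hqM hA ht).V i₀ →
        ∀ i, p.coeff i ∈ (algebraMap ↥(Rur A) ↥(Kur A)).range)
    (hthree : ∀ f : ↥(L0 A (M * q * q)),
      (∀ i, f ∈ (totM A q M B k hB hq hqM hA ht).V i) →
      ∃ P : (↥(L0 A (M * q * q)))[X], P.Monic ∧
        (∀ m, P.coeff m ∈ (totM A q M B k hB hq hqM hA ht).V i₀ ∧
          P.coeff m ∈ (↥(Kur A))⟮j0 A (M * q * q)⟯) ∧ P.eval f = 0)
    (n : ℕ) (hn : 0 < n) (hcop : Nat.Coprime n q) :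
    ChartHyp (chartInf A q M B k hB hq hqM hA ht) q n :=
  chartHyp_chartInf A q M B k hB hq hqM hA ht n hn hcop
    (jdd_mem_intSub A q M B k hB hq hqM hA ht i₀ hG hthree)

/-! ### The instances, for the charts -/

include hq hA in
theorem isNoetherianRing_chart0_B :
    IsNoetherianRing ↥(chart0 A q M B k hB hq hqM hA ht).B :=
  isNoetherianRing_chart0 A q M hq hA

theorem isFractionRing_chart0_B :
    IsFractionRing ↥(chart0 A q M B k hB hq hqM hA ht).B ↥(L0 A (M * q * q)) :=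
  isFractionRing_chart0 A q M

include hq hA in
theorem isNoetherianRing_chartInf_B :
    IsNoetherianRing ↥(chartInf A q M B k hB hq hqM hA ht).B :=
  isNoetherianRing_chartInf A q M hq hA

theorem isFractionRing_chartInf_B :
    IsFractionRing ↥(chartInf A q M B k hB hq hqM hA ht).B ↥(L0 A (M * q * q)) :=
  isFractionRing_chartInf A q M

end Jdd

end Fermat.Agent.S36.NU.H88

end
end
-- ==== END Fermat.Agent.S36.NU.H88_ChartInt

-- ==== BEGIN Fermat.Agent.S36.NU.H89_NmN2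
section

/-!
# S36 / NU-B, leaf NM-N (helper89), part 2: `normα₂`, `normβ₁`, `normβ₂` from the series forms

The three remaining norm formulas of the modular `NUData`, from the series forms of NORM-RED
above `V₂` along `α` (A2), above `V₁` along `β` (B1) and above `V₂` along `β` (B2):

* `SerA2` : `red₂ (N_α h) = φ (red₀₂ h)`;
* `SerB1` : `red₁ (N_β h) = φ (red₂₀ h)`;
* `SerB2` : `red₂ (N_β h) = red₁₁ h ^ (q - 1) * red₀₂ h`

(`φ` the coefficientwise Frobenius, all in `k((t))`).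
-/

set_option autoImplicit false
set_option linter.style.haveILetI false
set_option linter.unusedSectionVars false
set_option synthInstance.maxHeartbeats 400000
set_option maxHeartbeats 1000000

noncomputable section

open HahnSeries IntermediateField AlgebraicCurve ModularCurve
open Fermat.Agent.S24 Fermat.Agent.BAD.H88 Fermat.Agent.S28 Fermat.Agent.S28.H73
open Fermat.Agent.RED.H73 Fermat.Agent.RED.H17 Fermat.Agent.S36.NU.H88
open Fermat.Agent.S36.NU.H23 Fermat.Agent.S36.NU.H79 Fermat.Agent.BAD Fermat.Agent.RED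

namespace Fermat.Agent.S36.NU.H89

section Ser

variable (A : ValuationSubring Kbar) (q M : ℕ) (B k : ℤ) (hB : B * M + k * q = 1) (hq : q.Prime)
  [NeZero M] [NeZero q] [NeZero (M * q * q)] [NeZero (M * q)] (hqM : ¬ q ∣ M)
  (hA : A.LiesOverPrime q) (ht : H91.TameAt M q)

/-- Series form of NORM-RED along `α` above `V₂` (one valuation `V₀₂`, `e = 1`, `f = q`). -/
def SerA2 : Prop :=
  ∀ (h : ↥(L0 A (M * q * q))) (h02 : h ∈ V02o A q M B k hB),
    ∃ hm : NalphaM A q M h ∈ V2 A q M k B (hab_of_hB q M B k hB) hq,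
      ((red2 A q M k B (hab_of_hB q M B k hB) hq ⟨NalphaM A q M h, hm⟩ : F1 A q M) :
          LaurentSeries (kV A))
        = ((phiM A q M hq hqM hA (r02 A q M B k hB hq hqM hA ⟨h, h02⟩) : FM A M) :
          LaurentSeries (kV A))

/-- Series form of NORM-RED along `β` above `V₁` (one valuation `V₂₀`, `e = 1`, `f = q`). -/
def SerB1 : Prop :=
  ∀ (h : ↥(L0 A (M * q * q))) (h20 : h ∈ V20o A q M),
    ∃ hm : NbetaM A q M h ∈ V1 A q M,
      ((red1 A q M ⟨NbetaM A q M h, hm⟩ : F1 A q M) : LaurentSeries (kV A))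
        = ((phiM A q M hq hqM hA (r20 A q M hq hqM hA ⟨h, h20⟩) : FM A M) :
          LaurentSeries (kV A))

/-- Series form of NORM-RED along `β` above `V₂` (`V₁₁` with `e = q - 1`, `V₀₂` with
`e = 1`, `f = 1`). -/
def SerB2 : Prop :=
  ∀ (h : ↥(L0 A (M * q * q))) (h11 : h ∈ V11o A q M B k hB hq) (h02 : h ∈ V02o A q M B k hB),
    ∃ hm : NbetaM A q M h ∈ V2 A q M k B (hab_of_hB q M B k hB) hq,
      ((red2 A q M k B (hab_of_hB q M B k hB) hq ⟨NbetaM A q M h, hm⟩ : F1 A q M) :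
          LaurentSeries (kV A))
        = s11 A q M B k hB hq ⟨h, h11⟩ ^ (q - 1) * s02 A q M B k hB ⟨h, h02⟩

/-- **`normα₂`** of the modular `NUData`. -/
theorem normAlpha2 (hS : SerA2 A q M B k hB hq hqM hA) (h : ↥(L0 A (M * q * q)))
    (hu : ∀ i, rd3 A q M B k hB hq hqM hA ht i h ≠ 0) :
    (TL A q M B k hB hq hqM hA ht).p₂.rd (NalphaM A q M h)
      = (resFr A q M B k hB hq hqM hA).N (rd3 A q M B k hB hq hqM hA ht 2 h) := by
  have h02 := mem02_of_rd3 A q M B k hB hq hqM hA ht (hu 2)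
  obtain ⟨hm, hs⟩ := hS h h02
  have hm' : NalphaM A q M h ∈ (TL A q M B k hB hq hqM hA ht).p₂.V := hm
  rw [(TL A q M B k hB hq hqM hA ht).p₂.rd_of_mem hm']
  apply Subtype.ext
  refine Eq.trans hs ?_
  have e2 : (resFr A q M B k hB hq hqM hA).N (rd3 A q M B k hB hq hqM hA ht 2 h)
      = (resFr A q M B k hB hq hqM hA).N (r02 A q M B k hB hq hqM hA ⟨h, h02⟩) :=
    congrArg _ (rd3_two A q M B k hB hq hqM hA ht h02)
  rw [e2, coe_resFr_N]

/-- **`normβ₁`** of the modular `NUData`. -/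
theorem normBeta1 (hS : SerB1 A q M hq hqM hA) (h : ↥(L0 A (M * q * q)))
    (hu : ∀ i, rd3 A q M B k hB hq hqM hA ht i h ≠ 0) :
    (TL A q M B k hB hq hqM hA ht).p₁.rd (NbetaM A q M h)
      = (resFr A q M B k hB hq hqM hA).N (rd3 A q M B k hB hq hqM hA ht 0 h) := by
  have h20 := mem20_of_rd3 A q M B k hB hq hqM hA ht (hu 0)
  obtain ⟨hm, hs⟩ := hS h h20
  have hm' : NbetaM A q M h ∈ (TL A q M B k hB hq hqM hA ht).p₁.V := hm
  rw [(TL A q M B k hB hq hqM hA ht).p₁.rd_of_mem hm']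
  apply Subtype.ext
  refine Eq.trans hs ?_
  have e0 : (resFr A q M B k hB hq hqM hA).N (rd3 A q M B k hB hq hqM hA ht 0 h)
      = (resFr A q M B k hB hq hqM hA).N (r20 A q M hq hqM hA ⟨h, h20⟩) :=
    congrArg _ (rd3_zero A q M B k hB hq hqM hA ht h20)
  rw [e0, coe_resFr_N]

/-- **`normβ₂`** of the modular `NUData`. -/
theorem normBeta2 (hS : SerB2 A q M B k hB hq) (h : ↥(L0 A (M * q * q)))
    (hu : ∀ i, rd3 A q M B k hB hq hqM hA ht i h ≠ 0) :
    (TL A q M B k hB hq hqM hA ht).p₂.rd (NbetaM A q M h)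
      = (resId A q M B k hB hq hA).N (rd3 A q M B k hB hq hqM hA ht 1 h) ^ (q - 1)
        * (resId A q M B k hB hq hA).N (rd3 A q M B k hB hq hqM hA ht 2 h) := by
  have h11 := mem11_of_rd3 A q M B k hB hq hqM hA ht (hu 1)
  have h02 := mem02_of_rd3 A q M B k hB hq hqM hA ht (hu 2)
  obtain ⟨hm, hs⟩ := hS h h11 h02
  have hm' : NbetaM A q M h ∈ (TL A q M B k hB hq hqM hA ht).p₂.V := hm
  rw [(TL A q M B k hB hq hqM hA ht).p₂.rd_of_mem hm']
  apply Subtype.ext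
  refine Eq.trans hs ?_
  have e1 : (resId A q M B k hB hq hA).N (rd3 A q M B k hB hq hqM hA ht 1 h)
      = (resId A q M B k hB hq hA).N (r11 A q M B k hB hq hqM hA ⟨h, h11⟩) :=
    congrArg _ (rd3_one A q M B k hB hq hqM hA ht h11)
  have e2 : (resId A q M B k hB hq hA).N (rd3 A q M B k hB hq hqM hA ht 2 h)
      = (resId A q M B k hB hq hA).N (r02 A q M B k hB hq hqM hA ⟨h, h02⟩) :=
    congrArg _ (rd3_two A q M B k hB hq hqM hA ht h02)
  rw [e1, e2, MulMemClass.coe_mul, SubmonoidClass.coe_pow, coe_resId_N, coe_resId_N]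
  rfl

end Ser

end Fermat.Agent.S36.NU.H89

end
end
-- ==== END Fermat.Agent.S36.NU.H89_NmN2

-- ==== BEGIN Fermat.Agent.S36.NU.H99_OrdMod3
section

/-!
# S36 / NU-B, (M4) LOCEQ at the ordinary points, modular part 3 (helper99)

`C` a chart over `F = L0 A (M q²)` whose three valuation rings are `V20o`, `V11o`, `V02o`
(`ChartL0`: the chart criterion for the integral closure of `K^ur[j]`, the ramification indices
`(1, q - 1, 1)`).

* `ChartL0.mem_B` : membership in `B` from horizontal integrality and the three valuations;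
* `ord20_mod`, `ord02_mod` : **local equation datum and only one branch** at the closed points
  `𝔪 ⊇ Icomp₂₀` with `E20 = eps2 ∉ 𝔪`, resp. `𝔪 ⊇ Icomp₀₂` with `E02 = q¹²/eps1 ∉ 𝔪`;
* `ord11_of_cert` : the same at `𝔪 ⊇ Icomp₁₁` from a coordinate `f` with integral expansion and a
  certificate `red₁₁ ((E11 t₁₁^(q-1)/q)^m A) = red₁₁ Y`, `Y ∉ 𝔪`.
-/

set_option autoImplicit false
set_option synthInstance.maxHeartbeats 400000
set_option maxHeartbeats 1000000
set_option linter.unusedSectionVars false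
set_option linter.style.haveILetI false

noncomputable section

open ModularCurve AlgebraicCurve IntermediateField
open Fermat.Agent.S24 Fermat.Agent.BAD.H88 Fermat.Agent.BAD.H30 Fermat.Agent.BAD.H21
open Fermat.Agent.S28 Fermat.Agent.S28.H73 Fermat.Agent.RED.H73 Fermat.Agent.RED.H17
open Fermat.Agent.S36.NU.H88 Fermat.Agent.S36.NU.H23
open Fermat.Agent.S36.NU.H41 Fermat.Agent.RED

namespace Fermat.Agent.S36.NU.H99

open Fermat.Agent.S36.NU.H16 (Chart LocEq valq_of_crit)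

section ChartMod

variable (A : ValuationSubring Kbar)
variable (q M : ℕ) (B k : ℤ) (hB : B * M + k * q = 1) (hq : q.Prime) [NeZero M] [NeZero q]
  [NeZero (M * q)] [NeZero (M * q * q)]

variable {R k' ι : Type*} {κ : ι → Type*} [CommRing R] [Algebra R ↥(L0 A (M * q * q))]
  [Field k'] [∀ i, Field (κ i)] [∀ i, Algebra k' (κ i)]

/-- **The hypotheses on a chart of the inertia-fixed functions of level `M q²`**: its valuation
rings are `V20o`, `V11o`, `V02o` with ramification indices `(1, q - 1, 1)`, and `B` is cut out of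
the integral closure of `K^ur[j]` by the three valuations. -/
structure ChartL0 (C : Chart R ↥(L0 A (M * q * q)) k' ι κ) (qR : R) (e : ι → ℕ)
    (i₂₀ i₁₁ i₀₂ : ι) : Prop where
  hqR : algebraMap R ↥(L0 A (M * q * q)) qR = ((q : ℕ) : ↥(L0 A (M * q * q)))
  hqV : ∀ i, algebraMap R ↥(L0 A (M * q * q)) qR ∈ (C.V i).nonunits
  crit : ∀ f : ↥(L0 A (M * q * q)),
    IsIntegral ↥(Algebra.adjoin ↥(Kur A) ({j0 A (M * q * q)} : Set ↥(L0 A (M * q * q)))) f →
      (∀ i, f ∈ C.V i) → f ∈ C.B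
  hint : ∀ x ∈ C.B,
    IsIntegral ↥(Algebra.adjoin ↥(Kur A) ({j0 A (M * q * q)} : Set ↥(L0 A (M * q * q)))) x
  hE : ValE C qR e
  hcases : ∀ i, i = i₂₀ ∨ i = i₁₁ ∨ i = i₀₂
  he₂₀ : e i₂₀ = 1
  he₁₁ : e i₁₁ = q - 1
  he₀₂ : e i₀₂ = 1
  hV20 : C.V i₂₀ = V20o A q M
  hV11 : C.V i₁₁ = V11o A q M B k hB hq
  hV02 : C.V i₀₂ = V02o A q M B k hB

namespace ChartL0

variable {A q M B k hB hq}
variable {C : Chart R ↥(L0 A (M * q * q)) k' ι κ} {qR : R} {e : ι → ℕ} {i₂₀ i₁₁ i₀₂ : ι}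
  (S : ChartL0 A q M B k hB hq C qR e i₂₀ i₁₁ i₀₂)

include S

theorem mem_V {x : ↥(L0 A (M * q * q))} (h20 : x ∈ V20o A q M)
    (h11 : x ∈ V11o A q M B k hB hq) (h02 : x ∈ V02o A q M B k hB) (i : ι) : x ∈ C.V i := by
  rcases S.hcases i with rfl | rfl | rfl
  · rw [S.hV20]; exact h20
  · rw [S.hV11]; exact h11
  · rw [S.hV02]; exact h02

/-- Membership in `B`. -/
theorem mem_B {x : ↥(L0 A (M * q * q))}
    (hx : IsIntegral ↥(Algebra.adjoin ↥(Kur A)
      ({j0 A (M * q * q)} : Set ↥(L0 A (M * q * q)))) x)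
    (h20 : x ∈ V20o A q M) (h11 : x ∈ V11o A q M B k hB hq) (h02 : x ∈ V02o A q M B k hB) :
    x ∈ C.B :=
  S.crit x hx (S.mem_V h20 h11 h02)

include hq in
theorem hq0 : algebraMap R ↥(L0 A (M * q * q)) qR ≠ 0 := by
  rw [S.hqR]
  exact Nat.cast_ne_zero.2 hq.ne_zero

/-- The integral closure of `K^ur[j]`. -/
def Hint (A : ValuationSubring Kbar) (q M : ℕ) [NeZero (M * q * q)] :
    Subring ↥(L0 A (M * q * q)) :=
  (integralClosure ↥(Algebra.adjoin ↥(Kur A)
    ({j0 A (M * q * q)} : Set ↥(L0 A (M * q * q)))) ↥(L0 A (M * q * q))).toSubring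

omit S in
theorem mem_Hint {x : ↥(L0 A (M * q * q))} : x ∈ Hint A q M ↔
    IsIntegral ↥(Algebra.adjoin ↥(Kur A)
      ({j0 A (M * q * q)} : Set ↥(L0 A (M * q * q)))) x := Iff.rfl

theorem hBH : ∀ x ∈ C.B, x ∈ Hint A q M := S.hint

include hq in
theorem hqH : (algebraMap R ↥(L0 A (M * q * q)) qR)⁻¹ ∈ Hint A q M := by
  rw [S.hqR, mem_Hint]
  have e1 : (((q : ℕ) : ↥(L0 A (M * q * q))))⁻¹
      = algebraMap ↥(Algebra.adjoin ↥(Kur A)
          ({j0 A (M * q * q)} : Set ↥(L0 A (M * q * q)))) ↥(L0 A (M * q * q))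
        (algebraMap ↥(Kur A) _ (((q : ℕ) : ↥(Kur A)))⁻¹) := by
    rw [← IsScalarTower.algebraMap_apply, map_inv₀, map_natCast]
  rw [e1]
  exact isIntegral_algebraMap

theorem critH : ∀ f ∈ Hint A q M, (∀ i, f ∈ C.V i) → f ∈ C.B := fun f hf h => S.crit f hf h

/-! ### The witnesses lie in `B` -/

include hq in
theorem E20o_mem_B (hA : (q : Kbar) ∈ A.nonunits) : E20o A q M ∈ C.B :=
  have hA' : (q : Kbar) ∈ A := ((A.mem_nonunits_iff_exists_mem_maximalIdeal).1 hA).1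
  S.mem_B (isIntegral_E20o A q M) (E20o_mem20 A q M) (E20o_mem11 A q M B k hB hq hA')
    (E20o_mem02 A q M B k hB hq hA')

include hq in
theorem E02o_mem_B (hA : (q : Kbar) ∈ A.nonunits) : E02o A q M ∈ C.B :=
  have hA' : (q : Kbar) ∈ A := ((A.mem_nonunits_iff_exists_mem_maximalIdeal).1 hA).1
  S.mem_B (isIntegral_E02o A q M) (E02o_mem20 A q M hA') (E02o_mem11 A q M B k hB hq hA')
    (E02o_mem02 A q M B k hB hq)

include hq in
theorem E11o_mem_B (hA : (q : Kbar) ∈ A.nonunits) : E11o A q M ∈ C.B :=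
  have hA' : (q : Kbar) ∈ A := ((A.mem_nonunits_iff_exists_mem_maximalIdeal).1 hA).1
  S.mem_B (isIntegral_E11o A q M) (E11o_mem20 A q M hA') (E11o_mem11 A q M B k hB hq)
    (E11o_mem02 A q M B k hB hq hA')

include hq in
theorem eps1o_mem_B : eps1o A q M ∈ C.B :=
  S.mem_B (isIntegral_eps1o A q M) (eps1o_mem20 A q M) (eps1o_mem11 A q M B k hB hq)
    (eps1o_mem02 A q M B k hB hq)

end ChartL0

section Ord

variable [Fintype ι] [DecidableEq ι]
variable {A q M B k hB hq}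
variable {C : Chart R ↥(L0 A (M * q * q)) k' ι κ} {qR : R} {e : ι → ℕ} {i₂₀ i₁₁ i₀₂ : ι}
  (S : ChartL0 A q M B k hB hq C qR e i₂₀ i₁₁ i₀₂)

include hq in
/-- **Ordinary points of `C₂₀`**: if `eps2 ∉ 𝔪 ⊇ Icomp₂₀` then `𝔪` has a local equation datum
and `C₂₀` is the only component through `𝔪`. -/
theorem ord20_mod (hA : (q : Kbar) ∈ A.nonunits) (𝔪 : Ideal C.B) [h𝔪 : 𝔪.IsPrime]
    (hi : C.Icomp i₂₀ ≤ 𝔪) (hw : (⟨E20o A q M, S.E20o_mem_B hA⟩ : C.B) ∉ 𝔪) :
    Nonempty (LocEq C qR 𝔪) ∧ ∀ i', C.Icomp i' ≤ 𝔪 → i' = i₂₀ := by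
  have hA' : (q : Kbar) ∈ A := ((A.mem_nonunits_iff_exists_mem_maximalIdeal).1 hA).1
  refine locEq_ord_crit_one C qR (S.hq0 (hq := hq)) S.hqV (ChartL0.Hint A q M) S.hBH
    (S.hqH (hq := hq)) S.critH e S.hE 𝔪 i₂₀ hi S.he₂₀ ⟨E20o A q M, S.E20o_mem_B hA⟩ hw ?_
  intro i' hi'
  rw [S.hqR]
  rcases S.hcases i' with rfl | rfl | rfl
  · exact absurd rfl hi'
  · rw [S.hV11]
    exact E20o_div_mem11 A q M B k hB hq hA'
  · rw [S.hV02]
    exact E20o_div_mem02 A q M B k hB hq hA'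

include hq in
/-- **Ordinary points of `C₀₂`**: if `q¹²/eps1 ∉ 𝔪 ⊇ Icomp₀₂` then `𝔪` has a local equation
datum and `C₀₂` is the only component through `𝔪`. -/
theorem ord02_mod (hA : (q : Kbar) ∈ A.nonunits) (𝔪 : Ideal C.B) [h𝔪 : 𝔪.IsPrime]
    (hi : C.Icomp i₀₂ ≤ 𝔪) (hw : (⟨E02o A q M, S.E02o_mem_B hA⟩ : C.B) ∉ 𝔪) :
    Nonempty (LocEq C qR 𝔪) ∧ ∀ i', C.Icomp i' ≤ 𝔪 → i' = i₀₂ := by
  have hA' : (q : Kbar) ∈ A := ((A.mem_nonunits_iff_exists_mem_maximalIdeal).1 hA).1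
  refine locEq_ord_crit_one C qR (S.hq0 (hq := hq)) S.hqV (ChartL0.Hint A q M) S.hBH
    (S.hqH (hq := hq)) S.critH e S.hE 𝔪 i₀₂ hi S.he₀₂ ⟨E02o A q M, S.E02o_mem_B hA⟩ hw ?_
  intro i' hi'
  rw [S.hqR]
  rcases S.hcases i' with rfl | rfl | rfl
  · rw [S.hV20]
    exact E02o_div_mem20 A q M hA'
  · rw [S.hV11]
    exact E02o_div_mem11 A q M B k hB hq hA'
  · exact absurd rfl hi'

include S in
/-- Equality of the residues at `V₁₁` from the residue map `s11`. -/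
theorem rd11_eq_of_s11 {x y : ↥(L0 A (M * q * q))} (hx : x ∈ V11o A q M B k hB hq)
    (hy : y ∈ V11o A q M B k hB hq)
    (h : s11 A q M B k hB hq ⟨x, hx⟩ = s11 A q M B k hB hq ⟨y, hy⟩) :
    C.rd i₁₁ x = C.rd i₁₁ y := by
  have hxV : x ∈ C.V i₁₁ := by rw [S.hV11]; exact hx
  have hyV : y ∈ C.V i₁₁ := by rw [S.hV11]; exact hy
  have hsub : x - y ∈ (C.V i₁₁).nonunits := by
    rw [S.hV11]
    refine mem_nonunits_of_map_eq_zero (V11o A q M B k hB hq) (s11 A q M B k hB hq)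
      ⟨x - y, sub_mem hx hy⟩ ?_
    have e : (⟨x - y, sub_mem hx hy⟩ : ↥(V11o A q M B k hB hq)) = ⟨x, hx⟩ - ⟨y, hy⟩ := rfl
    rw [e, map_sub, h, sub_self]
  have h0 := (C.rd_eq_zero_iff i₁₁ (sub_mem hxV hyV)).2 hsub
  rw [C.rd_sub i₁₁ hxV hyV] at h0
  exact sub_eq_zero.1 h0

include hq in
/-- `E11 ∉ 𝔪` if `eps1 ∉ 𝔪 ⊇ Icomp₁₁`. -/
theorem E11o_not_mem (hA : (q : Kbar) ∈ A.nonunits) (𝔪 : Ideal C.B) [h𝔪 : 𝔪.IsPrime]
    (hi : C.Icomp i₁₁ ≤ 𝔪) (hw : (⟨eps1o A q M, S.eps1o_mem_B⟩ : C.B) ∉ 𝔪) :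
    (⟨E11o A q M, S.E11o_mem_B hA⟩ : C.B) ∉ 𝔪 := by
  refine not_mem_of_rdB_eq C 𝔪 i₁₁ hi ?_ (pow_not_mem C 𝔪 hw 2)
  rw [← C.rd_coe, ← C.rd_coe]
  refine rd11_eq_of_s11 S (E11o_mem11 A q M B k hB hq)
    (pow_mem (eps1o_mem11 A q M B k hB hq) 2) ?_
  have e : (⟨eps1o A q M ^ 2, pow_mem (eps1o_mem11 A q M B k hB hq) 2⟩ :
      ↥(V11o A q M B k hB hq)) = ⟨eps1o A q M, eps1o_mem11 A q M B k hB hq⟩ ^ 2 := rfl
  rw [s11_E11 A q M B k hB hq hA]
  show _ = s11 A q M B k hB hq ⟨eps1o A q M ^ 2, _⟩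
  rw [e, map_pow, s11_eps1, pow_two]

include hB hq in
/-- **Ordinary points of `C₁₁` from a coordinate and a certificate.** -/
theorem ord11_of_cert (hA : (q : Kbar) ∈ A.nonunits) (f : FN M) (u₀ : LaurentSeries ℤ)
    (hf : (f : LaurentSeries Kbar) = H65.intSer Kbar u₀)
    (hint : IsIntegral ↥(Algebra.adjoin ↥(Kur A)
      ({j0 A (M * q * q)} : Set ↥(L0 A (M * q * q)))) (_root_.Fermat.Agent.S36.NU.H99.t11o A q M f u₀ hf))
    (𝔪 : Ideal C.B) [h𝔪 : 𝔪.IsPrime] (hi : C.Icomp i₁₁ ≤ 𝔪)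
    (hw : (⟨eps1o A q M, S.eps1o_mem_B⟩ : C.B) ∉ 𝔪)
    (m : ℕ) (hm : 0 < m) (Ao Yo : C.B) (hY : Yo ∉ 𝔪)
    (hs : ∀ (h1 : (E11o A q M * f11o A q M f u₀ hf) ^ m * (Ao : ↥(L0 A (M * q * q)))
        ∈ V11o A q M B k hB hq) (h2 : (Yo : ↥(L0 A (M * q * q))) ∈ V11o A q M B k hB hq),
      s11 A q M B k hB hq ⟨_, h1⟩ = s11 A q M B k hB hq ⟨_, h2⟩) :
    Nonempty (LocEq C qR 𝔪) ∧ ∀ i', C.Icomp i' ≤ 𝔪 → i' = i₁₁ := by
  have hA' : (q : Kbar) ∈ A := ((A.mem_nonunits_iff_exists_mem_maximalIdeal).1 hA).1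
  have htB : _root_.Fermat.Agent.S36.NU.H99.t11o A q M f u₀ hf ∈ C.B :=
    S.mem_B hint (t11o_mem20 A q M f u₀ hf) (t11o_mem11 A q M B k hB hq f u₀ hf)
      (t11o_mem02 A q M B k hB hq f u₀ hf)
  have hAoV : (Ao : ↥(L0 A (M * q * q))) ∈ V11o A q M B k hB hq := by
    rw [← S.hV11]; exact C.B_le i₁₁ _ Ao.2
  have hYoV : (Yo : ↥(L0 A (M * q * q))) ∈ V11o A q M B k hB hq := by
    rw [← S.hV11]; exact C.B_le i₁₁ _ Yo.2
  have hfV := f11o_mem11 A q M B k hB hq f u₀ hf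
  have h1 : (E11o A q M * f11o A q M f u₀ hf) ^ m * (Ao : ↥(L0 A (M * q * q)))
      ∈ V11o A q M B k hB hq :=
    mul_mem (pow_mem (mul_mem (E11o_mem11 A q M B k hB hq) hfV) m) hAoV
  have he : 0 < e i₁₁ := by
    rw [S.he₁₁]
    have := hq.two_le
    omega
  refine locEq_ord_crit_mid C qR (S.hq0 (hq := hq)) S.hqV (ChartL0.Hint A q M) S.hBH
    (S.hqH (hq := hq)) S.critH e S.hE 𝔪 i₁₁ hi he ⟨_root_.Fermat.Agent.S36.NU.H99.t11o A q M f u₀ hf, htB⟩
    ⟨E11o A q M, S.E11o_mem_B hA⟩ (E11o_not_mem S hA 𝔪 hi hw) ?_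
    (f11o A q M f u₀ hf) (by rw [S.hV11]; exact hfV) ?_ m hm Ao Yo hY ?_
  · intro i' hi'
    rw [S.hqR]
    rcases S.hcases i' with rfl | rfl | rfl
    · rw [S.hV20]
      exact E11o_div_mem20 A q M hA'
    · exact absurd rfl hi'
    · rw [S.hV02]
      exact E11o_div_mem02 A q M B k hB hq hA'
  · rw [S.he₁₁, S.hqR]
    exact t11o_pow_eq A q M hq f u₀ hf
  · rw [← C.rd_coe]
    exact rd11_eq_of_s11 S h1 hYoV (hs h1 hYoV)

end Ord

end ChartMod

end Fermat.Agent.S36.NU.H99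

end
end
-- ==== END Fermat.Agent.S36.NU.H99_OrdMod3
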