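-- GENERATED (merged mirror, NOTES/tools/trim/merge3_helper67.py): 9 modules of the originals, bodies verbatim.
import Fermat.Agent.Zm.S36_L11_001
import Fermat.Agent.Zm.S36_L13_001
import Fermat.Agent.Zm.S36_L10_001
import Fermat.Agent.Zm.S36_L13_000
import Fermat.Agent.Zm.S36_L14_001
import Fermat.Agent.Zm.S36_L02_001
import Fermat.Agent.Zm.S36_L14_000
import Fermat.Agent.Zm.S36_L05_001
import Fermat.Agent.Zm.S35_L13_002
import Fermat.Agent.Zm.S36_L04_000
import Fermat.Agent.Zm.S36_L06_000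
import Fermat.Agent.Zm.S35_L18_000

-- ==== BEGIN Fermat.Agent.S36.NU.H10_Top
section

/-!
# S36 / NU-B, TOP (helper10): `Stmt_FinMod` from the modular datum and the local data

`finMod_top` : `H65.finMod_of` instantiated at the charts `H88.chart0`, `H88.chartInf`, a modular
datum `D` (`H79.IsNuM`), with the landed providers (`H74`: `hfg`, HOR, `hP`, `RootClosed`,
`SS ≠ ∅`, `InChart`; `H88`: charts, `Compat`, `ChartHyp`).  The REMAINING inputs are the fields
of `TopInputs`: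

* `hjdd`   : `j(q²τ)` is integral over `Rur[j]` (helper88, from crit);
* `hpt0`   : `PointData` of the chart `0` (helper99 assembly: M2 + M4);
* `hptoo`  : `PointDataAt` at the cusps of the chart at infinity (helper82);
* `hrad0`, `hradoo` : RADQ (helper28).
(`hunit`, `hconst`: INST-B of helper15, plugged.)
-/

set_option autoImplicit false
set_option synthInstance.maxHeartbeats 400000
set_option maxHeartbeats 1000000
set_option linter.style.haveILetI false
set_option linter.unusedSectionVars false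

noncomputable section

open ModularCurve AlgebraicCurve IntermediateField

attribute [local instance] Classical.propDecidable

namespace Fermat.Agent.S36.NU.H10

open Fermat.Agent.S24 Fermat.Agent.BAD Fermat.Agent.BAD.H88 Fermat.Agent.S28 Fermat.Agent.S28.H73
  Fermat.Agent.S36.NU.H23
  Fermat.Agent.S36.NU.H41 Fermat.Agent.S36.NU.H88 Fermat.Agent.S36.NU.H16
  Fermat.Agent.S36.NU.H17 Fermat.Agent.S36.NU.H24 Fermat.Agent.S36.NU.H79
  Fermat.Agent.S36.NU.H65 Fermat.Agent.S36.NU.H74 Fermat.Agent.Lib.HeckeComm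

section Top

variable (A : ValuationSubring Kbar) (q M : ℕ) (B k : ℤ) (hB : B * M + k * q = 1) (hq : q.Prime)
  [NeZero M] [NeZero q] [NeZero (M * q)] [NeZero (M * q * q)]
  (hqM : ¬ q ∣ M) (hA : A.LiesOverPrime q) (ht : H91.TameAt M q)

attribute [local instance] algkM

/-- **The remaining modular inputs** of `Stmt_FinMod` (for a modular datum `D`). -/
structure TopInputs (D : NUDataM A q M) : Prop where
  hjdd : jdd A q M ∈ intSub ↥(Rur A) (j0 A (M * q * q))
  hpt0 : PointData (chart0 A q M B k hB hq hqM hA ht) D ((q : ℕ) : ↥(Rur A))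
  hptoo : ∀ 𝔪 : Ideal (chartInf A q M B k hB hq hqM hA ht).B, 𝔪.IsMaximal →
    (∃ i, (chartInf A q M B k hB hq hqM hA ht).Icomp i ≤ 𝔪) →
    (∀ β : (chartInf A q M B k hB hq hqM hA ht).B,
      (β : ↥(L0 A (M * q * q))) = (j0 A (M * q * q))⁻¹ → β ∈ 𝔪) →
    PointDataAt (chartInf A q M B k hB hq hqM hA ht) D ((q : ℕ) : ↥(Rur A)) 𝔪
  hrad0 : ∀ β ∈ (chart0 A q M B k hB hq hqM hA ht).B,
    (∀ i, (chart0 A q M B k hB hq hqM hA ht).rd i β = 0) →
    IsRadQ (chart0 A q M B k hB hq hqM hA ht).B ((q : ℕ) : ↥(Rur A)) β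
  hradoo : ∀ β ∈ (chartInf A q M B k hB hq hqM hA ht).B,
    (∀ i, (chartInf A q M B k hB hq hqM hA ht).rd i β = 0) →
    IsRadQ (chartInf A q M B k hB hq hqM hA ht).B ((q : ℕ) : ↥(Rur A)) β

/-- **TOP**: `Stmt_FinMod` from a modular datum and the remaining inputs. -/
theorem finMod_top (D : NUDataM A q M) (hD : IsNuM A q M B k hB hq hqM hA ht D)
    (hI : TopInputs A q M B k hB hq hqM hA ht D) : Stmt_FinMod A q M B k hB hq := by
  haveI : IsAlgClosed (kV A) := Fermat.Agent.RED.H73.isAlgClosed_kV A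
  haveI : IsNoetherianRing ↥(chart0 A q M B k hB hq hqM hA ht).B :=
    isNoetherianRing_chart0 A q M hq hA
  haveI : IsFractionRing ↥(chart0 A q M B k hB hq hqM hA ht).B ↥(L0 A (M * q * q)) :=
    isFractionRing_chart0 A q M
  haveI : IsNoetherianRing ↥(chartInf A q M B k hB hq hqM hA ht).B :=
    isNoetherianRing_chartInf A q M hq hA
  haveI : IsFractionRing ↥(chartInf A q M B k hB hq hqM hA ht).B ↥(L0 A (M * q * q)) :=
    isFractionRing_chartInf A q M
  obtain ⟨E₀, hE₀, hHOR⟩ := hor_inst (M * q * q)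
  have hT := hD.hT
  have hSSeq := hD.hSS
  refine finMod_of A q M B k hB hq hA D hD.hq
    (chart0 A q M B k hB hq hqM hA ht) (chartInf A q M B k hB hq hqM hA ht)
    (by rw [hT]; exact compat_chart0 A q M B k hB hq hqM hA ht)
    (by rw [hT]; exact compat_chartInf A q M B k hB hq hqM hA ht)
    (Fermat.Agent.S36.NU.H74.hasPrincipalDivisors_FN (M * q * q)) rfl rfl
    (fun n hn hcop => chartHyp_chart0 A q M B k hB hq hqM hA ht n hn hcop hI.hjdd)
    (fun n hn hcop => chartHyp_chartInf A q M B k hB hq hqM hA ht n hn hcop hI.hjdd)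
    hI.hpt0 hI.hptoo
    (by
      rw [hT, hSSeq]
      exact inChart_ssM A q M B k hB hq hqM hA ht _ rfl)
    (by rw [hSSeq]; exact ssM_nonempty A q M hq hqM hA ht)
    (fun n hn _ => rootClosed_kV A _ hn) (fun n hn _ => rootClosed_kV A _ hn)
    hI.hrad0 hI.hradoo
    (fun H n hn hH => hfg_inv A q hq hA (M * q * q) H hH n hn)
    E₀ hE₀
    (fun n h h0 hdiv => hHOR A q hq hA n h h0 hdiv _)
    (fun n h h0 hdiv => hHOR A q hq hA n h h0 hdiv _)
    (fun h h0 hU => by
      rw [hT]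
      exact Fermat.Agent.S36.NU.H15.hunit_totM A q M B k hB hq hqM hA ht h h0 hU)
    (Fermat.Agent.S36.NU.H15.hconst_L0 A (M * q * q))
    (fun n h hα => by
      obtain ⟨c, g, -, -, hN⟩ := hα
      exact ⟨c, g, by rw [hD.hNα, hN]⟩)
    (fun n h hβ => by
      obtain ⟨c, g, -, -, hN⟩ := hβ
      exact ⟨c, g, by rw [hD.hNβ, hN]⟩)

end Top

end Fermat.Agent.S36.NU.H10

end
end
-- ==== END Fermat.Agent.S36.NU.H10_Top

-- ==== BEGIN Fermat.Agent.S36.NU.H16_HssGen
section

/-!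
# S36 / NU-B, HSS-ASM, generic form (helper16)

`hss_gen` : the hypothesis `hss` of `H99.pointData_of_dichotomy` on helper88's `chart0`
(`B = ` integral closure of `R^ur[j]`, valuations of helper23's `totM`), at ONE point `z`, for ANY
coordinate `f ∈ F_M` with integral expansion `u₀`:

* `hG`, `hthree` : the two hypotheses of TI3-VAL (helper28), as in `H88.chartHyp_chart0'`;
* `huI`, `hu2I` : `u = f(τ)`, `u'' = f(q²τ)` are integral over `K^ur[j]`;
* `hord`, `hc`, `hd` : COORD + POLE at `z` (helper44 `pole_full_d2_FM`, `pole_full_three`,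
  `pole_full_two`), for `u = ` the reduction of `f`, `y₂ = - δ̄^q`.
-/

set_option autoImplicit false
set_option synthInstance.maxHeartbeats 400000
set_option maxHeartbeats 1000000
set_option linter.unusedSectionVars false
set_option linter.style.haveILetI false

noncomputable section

namespace Fermat.Agent.S36.NU.H16

open Fermat.Agent.S24 Fermat.Agent.BAD.H88 ModularCurve AlgebraicCurve Polynomial
open Fermat.Agent.S28 Fermat.Agent.S28.H73 Fermat.Agent.RED.H73 Fermat.Agent.RED.H17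
open Fermat.Agent.S36.NU.H88 Fermat.Agent.S36.NU.H23 Fermat.Agent.S36.NU.H73
open Fermat.Agent.S36.NU.H41 Fermat.Agent.S36.NU.H65 Fermat.Agent.BAD

section HssGen

variable (A : ValuationSubring Kbar) (q M : ℕ) (B k : ℤ) (hB : B * M + k * q = 1) (hq : q.Prime)
  [NeZero M] [NeZero q] [NeZero (M * q * q)] (hqM : ¬ q ∣ M) (hA : A.LiesOverPrime q)
  (ht : H91.TameAt M q)

attribute [local instance] algkM

/-- The functions which are integral over `K^ur[j]`. -/
def HK : Subring ↥(L0 A (M * q * q)) :=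
  (integralClosure ↥(Algebra.adjoin ↥(Kur A) {j0 A (M * q * q)}) ↥(L0 A (M * q * q))).toSubring

theorem mem_HK (x : ↥(L0 A (M * q * q))) :
    x ∈ HK A q M ↔ IsIntegral ↥(Algebra.adjoin ↥(Kur A) {j0 A (M * q * q)}) x := Iff.rfl

/-- **`crit`** on `chart0`, from `hG` and `hthree`. -/
theorem crit_chart0 (i₀ : Fin 3)
    (hG : ∀ p : (↥(Kur A))[X],
      aeval (j0 A (M * q * q)) p ∈ (totM A q M B k hB hq hqM hA ht).V i₀ →
        ∀ i, p.coeff i ∈ (algebraMap ↥(Rur A) ↥(Kur A)).range)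
    (hthree : ∀ f : ↥(L0 A (M * q * q)),
      (∀ i, f ∈ (totM A q M B k hB hq hqM hA ht).V i) →
      ∃ P : (↥(L0 A (M * q * q)))[X], P.Monic ∧
        (∀ m, P.coeff m ∈ (totM A q M B k hB hq hqM hA ht).V i₀ ∧
          P.coeff m ∈ IntermediateField.adjoin ↥(Kur A) {j0 A (M * q * q)}) ∧ P.eval f = 0) :
    ∀ f ∈ HK A q M, (∀ i, f ∈ (chart0 A q M B k hB hq hqM hA ht).V i) →
      f ∈ (chart0 A q M B k hB hq hqM hA ht).B := by
  intro f hf hfV
  exact H17.isIntegral_adjoin_of_forall_mem ↥(Rur A) ↥(Kur A) (j0 A (M * q * q))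
    (transcendental_j0 A (M * q * q)) (totM A q M B k hB hq hqM hA ht).V i₀ hG hthree hf hfV


include hq hA in
/-- `1 / q` is integral over `K^ur[j]`. -/
theorem inv_q_mem_HK :
    (algebraMap ↥(Rur A) ↥(L0 A (M * q * q)) ((q : ℕ) : ↥(Rur A)))⁻¹ ∈ HK A q M := by
  rw [mem_HK, map_natCast]
  have e : (((q : ℕ) : ↥(L0 A (M * q * q))))⁻¹
      = algebraMap ↥(Algebra.adjoin ↥(Kur A) {j0 A (M * q * q)}) ↥(L0 A (M * q * q))
          (algebraMap ↥(Kur A) _ (((q : ℕ) : ↥(Kur A)))⁻¹) := by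
    rw [← IsScalarTower.algebraMap_apply, map_inv₀, map_natCast]
  rw [e]
  exact isIntegral_algebraMap

/-- The elements of `B` are integral over `K^ur[j]`. -/
theorem chart0_B_le_HK :
    ∀ x ∈ (chart0 A q M B k hB hq hqM hA ht).B, x ∈ HK A q M := by
  intro x hx
  exact H17.isIntegral_adjoin_field ↥(Rur A) ↥(Kur A) (j0 A (M * q * q)) hx

/-- The coordinate `u = f(τ)` on the component `C₂₀`. -/
theorem rd_uo (f : FN M) (u₀ : LaurentSeries ℤ)
    (hf : (f : LaurentSeries Kbar) = H65.intSer Kbar u₀) (u : FM A M)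
    (hu : (u : LaurentSeries (kV A)) = coeffMap (Int.castRingHom (kV A)) u₀) :
    (chart0 A q M B k hB hq hqM hA ht).rd 0 (uo A q M f u₀ hf) = u := by
  have h := uo_mem20 A q M f u₀ hf
  rw [chart0, chartOf_rd, rdN_totM_zero A q M B k hB hq hqM hA ht _ h]
  exact Subtype.ext ((coe_r20 A q M hq hqM hA _).trans ((s20_uo A q M f u₀ hf h).trans hu.symm))

/-- The function `d₂₀ = t₂₀ / q` on the component `C₂₀`. -/
theorem rd_d20o (f : FN M) (u₀ : LaurentSeries ℤ)
    (hf : (f : LaurentSeries Kbar) = H65.intSer Kbar u₀) (y₂ : FM A M)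
    (hy₂ : (y₂ : LaurentSeries (kV A))
      = - coeffMap (Int.castRingHom (kV A)) (H65.kdel q u₀) ^ q) :
    (chart0 A q M B k hB hq hqM hA ht).rd 0 (d20o A q M f u₀ hf) = y₂ := by
  have h := d20o_mem A q M hq f u₀ hf
  rw [chart0, chartOf_rd, rdN_totM_zero A q M B k hB hq hqM hA ht _ h]
  exact Subtype.ext ((coe_r20 A q M hq hqM hA _).trans
    ((s20_d20o A q M hq hA f u₀ hf).trans hy₂.symm))

/-- **HSS-ASM, generic in the coordinate**: all components pass through the point of `chart0`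
over a place `z` at which COORD + POLE hold, and there is a local equation datum there. -/
theorem hss_gen (i₀ : Fin 3)
    (hG : ∀ p : (↥(Kur A))[X],
      aeval (j0 A (M * q * q)) p ∈ (totM A q M B k hB hq hqM hA ht).V i₀ →
        ∀ i, p.coeff i ∈ (algebraMap ↥(Rur A) ↥(Kur A)).range)
    (hthree : ∀ f : ↥(L0 A (M * q * q)),
      (∀ i, f ∈ (totM A q M B k hB hq hqM hA ht).V i) →
      ∃ P : (↥(L0 A (M * q * q)))[X], P.Monic ∧
        (∀ m, P.coeff m ∈ (totM A q M B k hB hq hqM hA ht).V i₀ ∧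
          P.coeff m ∈ IntermediateField.adjoin ↥(Kur A) {j0 A (M * q * q)}) ∧ P.eval f = 0)
    (f : FN M) (u₀ : LaurentSeries ℤ) (hf : (f : LaurentSeries Kbar) = H65.intSer Kbar u₀)
    (hθ : H65.ThetaNZ q (coeffMap (Int.castRingHom (kV A)) u₀))
    (huI : IsIntegral ↥(Algebra.adjoin ↥(Kur A) {j0 A (M * q * q)}) (uo A q M f u₀ hf))
    (hu2I : IsIntegral ↥(Algebra.adjoin ↥(Kur A) {j0 A (M * q * q)}) (u2o A q M f u₀ hf))
    (z : Place (kV A) (FM A M)) (c : kV A) (u y₂ : FM A M)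
    (hu : (u : LaurentSeries (kV A)) = coeffMap (Int.castRingHom (kV A)) u₀)
    (hy₂ : (y₂ : LaurentSeries (kV A))
      = - coeffMap (Int.castRingHom (kV A)) (H65.kdel q u₀) ^ q)
    (hord : z.ord (u - algebraMap (kV A) (FM A M) c) = 1) (hc : c ^ q ^ 2 = c)
    (hd : z.ord y₂ = -(q : ℤ))
    (𝔪 : Ideal (chart0 A q M B k hB hq hqM hA ht).B) [𝔪.IsPrime]
    (h𝔪 : ∀ β : (chart0 A q M B k hB hq hqM hA ht).B,
      β ∈ 𝔪 ↔ VanAt ((totM A q M B k hB hq hqM hA ht).pt 0 z)
        ((chart0 A q M B k hB hq hqM hA ht).rdB 0 β)) :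
    (∀ i, (chart0 A q M B k hB hq hqM hA ht).Icomp i ≤ 𝔪) ∧
      Nonempty (LocEq (chart0 A q M B k hB hq hqM hA ht) ((q : ℕ) : ↥(Rur A)) 𝔪) := by
  have hqR : algebraMap ↥(Rur A) ↥(L0 A (M * q * q)) ((q : ℕ) : ↥(Rur A))
      = ((q : ℕ) : ↥(L0 A (M * q * q))) := map_natCast _ _
  have hcases : ∀ i : Fin 3, i = 0 ∨ i = 1 ∨ i = 2 := by
    intro i; fin_cases i <;> simp
  have crit := crit_chart0 A q M B k hB hq hqM hA ht i₀ hG hthree
  have huV : ∀ i, uo A q M f u₀ hf ∈ (chart0 A q M B k hB hq hqM hA ht).V i := by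
    intro i
    fin_cases i
    · exact uo_mem20 A q M f u₀ hf
    · exact uo_mem11 A q M B k hB hq f u₀ hf
    · exact uo_mem02 A q M B k hB hq f u₀ hf
  have hu2V : ∀ i, u2o A q M f u₀ hf ∈ (chart0 A q M B k hB hq hqM hA ht).V i := by
    intro i
    fin_cases i
    · exact u2o_mem20 A q M f u₀ hf
    · exact u2o_mem11 A q M B k hB hq f u₀ hf
    · exact u2o_mem02 A q M B k hB hq f u₀ hf
  haveI : CharP (kap3 (FM A M) (FM A M) 0) q := charP_kap3 A q M hq hA 0
  refine locEq_ss_modV A q M B k hB hq (chart0 A q M B k hB hq hqM hA ht)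
    ((q : ℕ) : ↥(Rur A)) hqR hA
    (H22.q_mem_nonunits A q M B k hB hq hqM hA _ _ hqR 0 1 2 hcases rfl rfl rfl)
    (HK A q M) (chart0_B_le_HK A q M B k hB hq hqM hA ht) (inv_q_mem_HK A q M hq hA) crit
    ![1, q - 1, 1]
    (H22.valE_mod A q M B k hB hq hqM hA _ _ hqR _ 0 1 2 hcases rfl rfl rfl rfl rfl rfl)
    0 1 2 hcases (by decide) (by decide) (by decide) rfl rfl rfl rfl rfl rfl
    f u₀ hf hθ (crit _ huI huV) (crit _ hu2I hu2V)
    ((totM A q M B k hB hq hqM hA ht).pt 0 z) c ?_ hc ?_ 𝔪 h𝔪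
  · rw [rd_uo A q M B k hB hq hqM hA ht f u₀ hf u hu]
    exact hord
  · rw [rd_d20o A q M B k hB hq hqM hA ht f u₀ hf y₂ hy₂]
    exact hd

end HssGen

end Fermat.Agent.S36.NU.H16

end
end
-- ==== END Fermat.Agent.S36.NU.H16_HssGen

-- ==== BEGIN Fermat.Agent.S36.NU.H22_ChartL0
section

/-!
# S36 / NU-B, leaf CHARTL0-INST (helper22): `H99.ChartL0` for the charts of `j` and `1/j`

* `chartL0_chart0`   : helper99's structure `H99.ChartL0` at helper88's chart `chart0` of `j`,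
  with `qR = q`, `e = ![1, q - 1, 1]`, `(i₂₀, i₁₁, i₀₂) = (0, 1, 2)`, from the hypotheses `hG`
  (Gauss) and `hthree` (THREE) of helper17's TI3-VAL (= the hypotheses of `H88.jdd_mem_intSub`).
-/

set_option autoImplicit false
set_option synthInstance.maxHeartbeats 400000
set_option maxHeartbeats 1000000
set_option linter.unusedSectionVars false
set_option linter.style.haveILetI false

noncomputable section

open IntermediateField ModularCurve AlgebraicCurve Polynomial
open Fermat.Agent.S24 Fermat.Agent.BAD.H88 Fermat.Agent.S28 Fermat.Agent.S28.H73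
open Fermat.Agent.RED.H73 Fermat.Agent.RED.H17

namespace Fermat.Agent.S36.NU.H22

open Fermat.Agent.S36.NU.H16 Fermat.Agent.S36.NU.H17 Fermat.Agent.S36.NU.H24
  Fermat.Agent.S36.NU.H65 Fermat.Agent.S36.NU.H79 Fermat.Agent.S36.NU.H23
  Fermat.Agent.S36.NU.H41 Fermat.Agent.S36.NU.H88 Fermat.Agent.BAD

section Inst

variable (A : ValuationSubring Kbar) (q M : ℕ) (B k : ℤ) (hB : B * M + k * q = 1) (hq : q.Prime)
  [NeZero M] [NeZero q] [NeZero (M * q)] [NeZero (M * q * q)] (hqM : ¬ q ∣ M)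
  (hA : A.LiesOverPrime q) (ht : H91.TameAt M q)

attribute [local instance] algkM

/-- **CHARTL0-INST** for the chart of `j`. -/
theorem chartL0_chart0 (i₀ : Fin 3)
    (hG : ∀ p : (↥(Kur A))[X],
      aeval (j0 A (M * q * q)) p ∈ (totM A q M B k hB hq hqM hA ht).V i₀ →
        ∀ i, p.coeff i ∈ (algebraMap ↥(Rur A) ↥(Kur A)).range)
    (hthree : ∀ f : ↥(L0 A (M * q * q)),
      (∀ i, f ∈ (totM A q M B k hB hq hqM hA ht).V i) →
      ∃ P : (↥(L0 A (M * q * q)))[X], P.Monic ∧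
        (∀ m, P.coeff m ∈ (totM A q M B k hB hq hqM hA ht).V i₀ ∧
          P.coeff m ∈ (↥(Kur A))⟮j0 A (M * q * q)⟯) ∧ P.eval f = 0) :
    H99.ChartL0 A q M B k hB hq (chart0 A q M B k hB hq hqM hA ht) ((q : ℕ) : ↥(Rur A))
      ![1, q - 1, 1] 0 1 2 := by
  have hqR : algebraMap ↥(Rur A) ↥(L0 A (M * q * q)) ((q : ℕ) : ↥(Rur A))
      = ((q : ℕ) : ↥(L0 A (M * q * q))) := map_natCast _ q
  have hcases : ∀ i : Fin 3, i = 0 ∨ i = 1 ∨ i = 2 := by
    intro i
    fin_cases i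
    · exact Or.inl rfl
    · exact Or.inr (Or.inl rfl)
    · exact Or.inr (Or.inr rfl)
  have hV20 : (chart0 A q M B k hB hq hqM hA ht).V 0 = V20o A q M := rfl
  have hV11 : (chart0 A q M B k hB hq hqM hA ht).V 1 = V11o A q M B k hB hq := rfl
  have hV02 : (chart0 A q M B k hB hq hqM hA ht).V 2 = V02o A q M B k hB := rfl
  refine
    { hqR := hqR
      hqV := q_mem_nonunits A q M B k hB hq hqM hA _ _ hqR 0 1 2 hcases hV20 hV11 hV02
      crit := ?_
      hint := ?_
      hE := valE_mod A q M B k hB hq hqM hA _ _ hqR _ 0 1 2 hcases rfl rfl rfl hV20 hV11 hV02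
      hcases := hcases
      he₂₀ := rfl
      he₁₁ := rfl
      he₀₂ := rfl
      hV20 := hV20
      hV11 := hV11
      hV02 := hV02 }
  · intro f hf hV
    exact isIntegral_adjoin_of_forall_mem ↥(Rur A) ↥(Kur A) (j0 A (M * q * q))
      (transcendental_j0 A (M * q * q)) (totM A q M B k hB hq hqM hA ht).V i₀ hG hthree hf hV
  · intro x hx
    exact isIntegral_adjoin_field ↥(Rur A) ↥(Kur A) (j0 A (M * q * q)) hx

end Inst

end Fermat.Agent.S36.NU.H22

end
end
-- ==== END Fermat.Agent.S36.NU.H22_ChartL0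

-- ==== BEGIN Fermat.Agent.S36.NU.H22_IntTransfer
section

/-!
# S36, NU-B, `hbr` chart 0 (helper22 for helper17): the two integrality transfers

For `f ∈ L₀(M)` which is integral for `K^ur[X] → ℚ̄[X] → F_M`, `X ↦ j` (the third conjunct of
`H17.normalImg_tame`):

* `isIntegral_incl`  : **(A1)** `incl f ∈ L₀(M q²)` is integral over `K^ur[j]`;
* `isIntegral_incBB` : **(A2)** `f'' = f(t^{q²}) ∈ L₀(M q²)` is integral over `K^ur[j]`
  (via `j''`, which is integral over `K^ur[j]`: `H88.isIntegral_jdd`).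
-/

set_option autoImplicit false
set_option synthInstance.maxHeartbeats 400000
set_option maxHeartbeats 1000000
set_option linter.unusedSectionVars false
set_option linter.style.haveILetI false

noncomputable section

open IntermediateField ModularCurve AlgebraicCurve Polynomial
open Fermat.Agent.S24 Fermat.Agent.BAD.H88 Fermat.Agent.S28 Fermat.Agent.S28.H73
open Fermat.Agent.RED.H73 Fermat.Agent.RED.H17

namespace Fermat.Agent.S36.NU.H22

open Fermat.Agent.S36.NU.H17 Fermat.Agent.S36.NU.H88 Fermat.Agent.S36.NU.H23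
  Fermat.Agent.S36.NU.H41

section IntTransfer

variable (A : ValuationSubring Kbar) (q M : ℕ) [NeZero M] [NeZero q] [NeZero (M * q * q)]

/-- Transport of `IsIntegralElem` (for `K^ur[X] → ℚ̄[X] → F_M`, `X ↦ x`) along a `ℚ̄`-algebra
homomorphism `φ : F_M → F_N`: the image is integral for `X ↦ φ x`. -/
theorem isIntegralElem_map_algHom {N : ℕ} (φ : FN M →ₐ[Kbar] FN N) (x f : FN M)
    (hint : ((aeval x : Kbar[X] →ₐ[Kbar] FN M).toRingHom.comp
        (mapRingHom (iotaUr A))).IsIntegralElem f) :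
    ((aeval (φ x) : Kbar[X] →ₐ[Kbar] FN N).toRingHom.comp
        (mapRingHom (iotaUr A))).IsIntegralElem (φ f) := by
  obtain ⟨P, hP, hPf⟩ := hint
  refine ⟨P, hP, ?_⟩
  have h1 : (aeval (φ x) : Kbar[X] →ₐ[Kbar] FN N) = φ.comp (aeval x) := by
    apply Polynomial.algHom_ext
    rw [AlgHom.comp_apply, aeval_X, aeval_X]
  have key : (aeval (φ x) : Kbar[X] →ₐ[Kbar] FN N).toRingHom.comp (mapRingHom (iotaUr A))
      = (φ : FN M →+* FN N).comp
          ((aeval x : Kbar[X] →ₐ[Kbar] FN M).toRingHom.comp (mapRingHom (iotaUr A))) := by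
    rw [h1]
    rfl
  rw [key]
  have h2 := Polynomial.hom_eval₂ P
    ((aeval x : Kbar[X] →ₐ[Kbar] FN M).toRingHom.comp (mapRingHom (iotaUr A)))
    (φ : FN M →+* FN N) f
  rw [hPf, map_zero] at h2
  exact h2.symm

/-- **(A1)** `incl f` is integral over `K^ur[j]` inside `L₀(M q²)`. -/
theorem isIntegral_incl (f : FN M) (hf : f ∈ L0 A M)
    (hint : ((aeval (Fermat.Agent.RED.H73.jF (L := Kbar) M) : Kbar[X] →ₐ[Kbar] FN M).toRingHom.comp
        (mapRingHom (iotaUr A))).IsIntegralElem f) :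
    IsIntegral ↥(Algebra.adjoin ↥(Kur A) {j0 A (M * q * q)})
      (inclL0 A (hleMN q M) ⟨f, hf⟩) := by
  refine isIntegral_adjoin_of_isIntegralElem A (M * q * q) (j0 A (M * q * q))
    (inclL0 A (hleMN q M) ⟨f, hf⟩) ?_
  have h := isIntegralElem_map_algHom A M (incAA q M) _ f hint
  have hj : incAA q M (Fermat.Agent.RED.H73.jF (L := Kbar) M)
      = ((j0 A (M * q * q) : ↥(L0 A (M * q * q))) : FN (M * q * q)) := by
    rw [← Fermat.Agent.RED.H76.jF_eq, ← jdF_one_eq_jF M, incAA_jdF_one, coe_j0']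
  rw [hj] at h
  rw [coe_inclL0_eq_incAA]
  exact h

/-- `f'' = f(t^{q²})` is integral over `K^ur[j'']` inside `L₀(M q²)`. -/
theorem isIntegral_incBB_jdd (f : FN M) (hf : f ∈ L0 A M)
    (hint : ((aeval (Fermat.Agent.RED.H73.jF (L := Kbar) M) : Kbar[X] →ₐ[Kbar] FN M).toRingHom.comp
        (mapRingHom (iotaUr A))).IsIntegralElem f) :
    IsIntegral ↥(Algebra.adjoin ↥(Kur A) {jdd A q M})
      (⟨incBB q M f, incBB_mem_L0 A q M f hf⟩ : ↥(L0 A (M * q * q))) := by
  refine isIntegral_adjoin_of_isIntegralElem A (M * q * q) (jdd A q M)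
    ⟨incBB q M f, incBB_mem_L0 A q M f hf⟩ ?_
  have h := isIntegralElem_map_algHom A M (incBB q M) _ f hint
  haveI : NeZero (q * q) := ⟨mul_ne_zero (NeZero.ne q) (NeZero.ne q)⟩
  have hj : incBB q M (Fermat.Agent.RED.H73.jF (L := Kbar) M)
      = ((jdd A q M : ↥(L0 A (M * q * q))) : FN (M * q * q)) := by
    rw [← Fermat.Agent.RED.H76.jF_eq, ← jdF_one_eq_jF M, incBB_jdF_one q M (sq_dvd_lvl q M),
      coe_jdd]
  rw [hj] at h
  exact h

/-- **(A2)** `f'' = f(t^{q²})` is integral over `K^ur[j]` inside `L₀(M q²)`. -/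
theorem isIntegral_incBB (f : FN M) (hf : f ∈ L0 A M)
    (hint : ((aeval (Fermat.Agent.RED.H73.jF (L := Kbar) M) : Kbar[X] →ₐ[Kbar] FN M).toRingHom.comp
        (mapRingHom (iotaUr A))).IsIntegralElem f) :
    IsIntegral ↥(Algebra.adjoin ↥(Kur A) {j0 A (M * q * q)})
      (⟨incBB q M f, incBB_mem_L0 A q M f hf⟩ : ↥(L0 A (M * q * q))) :=
  isIntegral_adjoin_trans (E := ↥(Kur A)) (F := ↥(L0 A (M * q * q))) (jdd A q M)
    (j0 A (M * q * q)) (isIntegral_jdd A q M) (isIntegral_incBB_jdd A q M f hf hint)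

end IntTransfer

end Fermat.Agent.S36.NU.H22

end
end
-- ==== END Fermat.Agent.S36.NU.H22_IntTransfer

-- ==== BEGIN Fermat.Agent.S36.NU.H23_NmP2
section
attribute [local instance 10000] SubalgebraClass.toAlgebra
attribute [local instance 10000] HahnSeries.powerSeriesAlgebra

/-!
# S36 / NU-B, leaf NM-P, part 2 (helper23): compatibility of the reduction maps

`ρ` (level `M q²`, `totM`) and `ρ'` (level `M q`, `modTM`) are compatible with the two
degeneracy maps `α`, `β : F_{M q} → F_{M q²}`: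

* `rho_alpha` : `ρ' (P | α) = zA z → ρ P = z`;
* `rho_beta` : `ρ' (P | β) = zB z → ρ P = z` for the supersingular points `z`
  (`ρ' (w_q⁻¹ Q) = β (ρ' Q)` over the nodes, `H91.rhoW_eq_beta_mod`).
-/

set_option autoImplicit false
set_option synthInstance.maxHeartbeats 400000
set_option maxHeartbeats 1000000
set_option linter.style.haveILetI false
set_option linter.unusedSectionVars false

noncomputable section

open ModularCurve AlgebraicCurve
open Fermat.Agent.S24 Fermat.Agent.BAD.H88 Fermat.Agent.S28 Fermat.Agent.S28.H73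
open Fermat.Agent.RED.H73 Fermat.Agent.RED.H17 Fermat.Agent.S36.NU.H88

namespace Fermat.Agent.S36.NU.H23

open Fermat.Agent.BAD Fermat.Agent.RED Fermat.Agent.S36.NU.H79

section NmP2Abs

variable {K F F' F'' : Type*} [Field K] [Field F] [Field F'] [Field F''] [Algebra K F]
  [Algebra K F'] [Algebra K F'']

/-- Restriction along a composite, when the composite is the structure map. -/
theorem restrictAlong_restrictAlong_eq_restrict [Algebra F F''] [IsScalarTower K F F'']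
    [Algebra.IsIntegral F F'']
    (φ : F →ₐ[K] F') (hφ : φ.toRingHom.IsIntegral) (ψ : F' →ₐ[K] F'')
    (hψ : ψ.toRingHom.IsIntegral) (h : ∀ x, ψ (φ x) = algebraMap F F'' x) (P : Place K F'') :
    (P.restrictAlong ψ hψ).restrictAlong φ hφ = P.restrict F := by
  apply Place.ext
  ext x
  rw [Fermat.Agent.BAD.H91.mem_restrictAlong_iff, Fermat.Agent.BAD.H91.mem_restrictAlong_iff,
    Place.mem_restrict_iff, h]

/-- Restriction along two composites which agree. -/
theorem restrictAlong_restrictAlong_congr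
    (φ₁ : F →ₐ[K] F') (hφ₁ : φ₁.toRingHom.IsIntegral) (ψ₁ : F' →ₐ[K] F'')
    (hψ₁ : ψ₁.toRingHom.IsIntegral)
    (φ₂ : F →ₐ[K] F') (hφ₂ : φ₂.toRingHom.IsIntegral) (ψ₂ : F' →ₐ[K] F'')
    (hψ₂ : ψ₂.toRingHom.IsIntegral)
    (h : ∀ x, ψ₁ (φ₁ x) = ψ₂ (φ₂ x)) (P : Place K F'') :
    (P.restrictAlong ψ₁ hψ₁).restrictAlong φ₁ hφ₁
      = (P.restrictAlong ψ₂ hψ₂).restrictAlong φ₂ hφ₂ := by
  apply Place.ext
  ext x
  rw [Fermat.Agent.BAD.H91.mem_restrictAlong_iff, Fermat.Agent.BAD.H91.mem_restrictAlong_iff,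
    Fermat.Agent.BAD.H91.mem_restrictAlong_iff, Fermat.Agent.BAD.H91.mem_restrictAlong_iff, h]

end NmP2Abs

section NmP2

variable (A : ValuationSubring Kbar) (q M : ℕ) (B k : ℤ) (hB : B * M + k * q = 1) (hq : q.Prime)
  [NeZero M] [NeZero q] [NeZero (M * q)] [NeZero (M * q * q)] (hqM : ¬ q ∣ M)
  (hA : A.LiesOverPrime q) (ht : H91.TameAt M q)

theorem algebraMap_algF_NU (x : FN M) :
    @algebraMap (FN M) (FN (M * q * q)) _ _ (algF (hleMN q M)) x
      = IntermediateField.inclusion (hleMN q M) x := rfl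

theorem alpha_incl_eq (x : FN M) :
    heckeAlphaBar Kbar (M * q) q (Fermat.Agent.BAD.H91.incl M q x)
      = @algebraMap (FN M) (FN (M * q * q)) _ _ (algF (hleMN q M)) x := by
  rw [algebraMap_algF_NU]
  apply Subtype.ext
  rw [coe_heckeAlphaBar, Fermat.Agent.BAD.H91.coe_incl, IntermediateField.coe_inclusion]

theorem beta_incl_eq (x : FN M) :
    heckeBetaBar Kbar (M * q) q (Fermat.Agent.BAD.H91.incl M q x)
      = heckeAlphaBar Kbar (M * q) q (heckeBetaBar Kbar M q x) := by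
  apply Subtype.ext
  rw [coe_heckeBetaBar, Fermat.Agent.BAD.H91.coe_incl, coe_heckeAlphaBar, coe_heckeBetaBar]

/-- The restriction to level `M` of a place of level `M q²`, through level `M q` along `α`. -/
theorem restrictAlong_alpha_incl (P : Place Kbar (FN (M * q * q))) :
    letI := algF (hleMN q M)
    haveI := tower_FNU q M
    haveI := finite_FNU' q M
    (P.restrictAlong (heckeAlphaBar Kbar (M * q) q)
        (Fermat.Agent.S36.H44.alpha_integral (M * q) q)).restrictAlong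
      (Fermat.Agent.BAD.H91.incl M q) (Fermat.Agent.BAD.H91.incl_isIntegral M q)
      = P.restrict (FN M) := by
  letI := algF (hleMN q M)
  haveI := tower_FNU q M
  haveI := finite_FNU' q M
  exact restrictAlong_restrictAlong_eq_restrict (Fermat.Agent.BAD.H91.incl M q)
    (Fermat.Agent.BAD.H91.incl_isIntegral M q) (heckeAlphaBar Kbar (M * q) q)
    (Fermat.Agent.S36.H44.alpha_integral (M * q) q) (fun x => alpha_incl_eq q M x) P

/-- `(P | β) | incl = (P | α) | β`. -/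
theorem restrictAlong_beta_incl (P : Place Kbar (FN (M * q * q))) :
    (P.restrictAlong (heckeBetaBar Kbar (M * q) q)
        (Fermat.Agent.S36.H44.beta_integral (M * q) q)).restrictAlong
      (Fermat.Agent.BAD.H91.incl M q) (Fermat.Agent.BAD.H91.incl_isIntegral M q)
      = (P.restrictAlong (heckeAlphaBar Kbar (M * q) q)
          (Fermat.Agent.S36.H44.alpha_integral (M * q) q)).restrictAlong
        (heckeBetaBar Kbar M q) (Fermat.Agent.BAD.H91.beta_isIntegral M q) :=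
  restrictAlong_restrictAlong_congr _ _ _ _ _ _ _ _ (fun x => beta_incl_eq q M x) P

/-- **`ρ' (P | α) = zA z → ρ P = z`.** -/
theorem rho_alpha (z : Place (kV A) (FM A M)) (P : Place Kbar (FN (M * q * q)))
    (h : (modTM A q M B k hB hq hqM hA ht).ρ
        (P.restrictAlong (heckeAlphaBar Kbar (M * q) q)
          (Fermat.Agent.S36.H44.alpha_integral (M * q) q))
      = zA A q M B k hB hq hA z) :
    rhoM A q M hq hqM hA ht P = z := by
  rw [modTM_rho, zA_def] at h
  have h1 : Fermat.Agent.BAD.H91.rhoM hq hqM ht hA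
      (P.restrictAlong (heckeAlphaBar Kbar (M * q) q)
        (Fermat.Agent.S36.H44.alpha_integral (M * q) q)) = z :=
    (kapM A q M B k hB hq hA).symm.injective h
  unfold Fermat.Agent.BAD.H91.rhoM at h1
  rw [restrictAlong_alpha_incl q M P] at h1
  exact h1

/-- `β` preserves the order of `j~` (as an element of `F₁`). -/
theorem betaL_ord_jRed (w : Place (kV A) (F1 A q M)) :
    (betaL A q M B k hB hq hA w).ord
        (Fermat.Agent.BAD.H23.eRed A q M k B (hab_kB q M B k hB) hq hA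
          (Fermat.Agent.BAD.H91.jRed A M))
      = w.ord (Fermat.Agent.BAD.H23.eRed A q M k B (hab_kB q M B k hB) hq hA
          (Fermat.Agent.BAD.H91.jRed A M)) := by
  refine Fermat.Agent.BAD.H73.betaF1_ord_of_fixed A q M hq hA M
    (Fermat.Agent.BAD.H82.redField_eq_fullC q M k B (hab_kB q M B k hB) hq A hA) w _ ?_
  refine Fermat.Agent.BAD.H73.phiF1_of_int A q M hq hA M
    (Fermat.Agent.BAD.H82.redField_eq_fullC q M k B (hab_kB q M B k hB) hq A hA) _
    (jqModC ℤ) ?_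
  rw [Fermat.Agent.BAD.H23.coe_eRed]
  exact (Fermat.Agent.RED.H73.red_jF A M).trans (coeffMap_jqModC _).symm

/-- **`ρ' (P | β) = zB z → ρ P = z`** for the supersingular points. -/
theorem rho_beta (z : Place (kV A) (FM A M)) (hz : z ∈ Fermat.Agent.S36.NU.H74.ssM A q M)
    (P : Place Kbar (FN (M * q * q)))
    (h : (modTM A q M B k hB hq hqM hA ht).ρ
        (P.restrictAlong (heckeBetaBar Kbar (M * q) q)
          (Fermat.Agent.S36.H44.beta_integral (M * q) q))
      = zB A q M B k hB hq hqM hA z) :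
    rhoM A q M hq hqM hA ht P = z := by
  apply rho_alpha A q M B k hB hq hqM hA ht z P
  rw [modTM_rho] at h ⊢
  -- `ρ' (P | β) = ρ' (w⁻¹ (P | α))`
  have e2 : Fermat.Agent.BAD.H91.rhoF1 k B (hab_kB q M B k hB) hq hA hqM ht
      (P.restrictAlong (heckeBetaBar Kbar (M * q) q)
        (Fermat.Agent.S36.H44.beta_integral (M * q) q))
      = Fermat.Agent.BAD.H91.rhoF1 k B (hab_kB q M B k hB) hq hA hqM ht
        ((Fermat.Agent.BAD.H91.wSemi k B (hab_kB q M B k hB) hq)⁻¹ •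
          P.restrictAlong (heckeAlphaBar Kbar (M * q) q)
            (Fermat.Agent.S36.H44.alpha_integral (M * q) q)) := by
    unfold Fermat.Agent.BAD.H91.rhoF1 Fermat.Agent.BAD.H91.rhoM
    rw [restrictAlong_beta_incl q M P, ← Fermat.Agent.BAD.H91.restrictAlong_wSemi]
  have hnode : (Fermat.Agent.BAD.H91.modT k B (hab_kB q M B k hB) hq hA hqM ht
      (Fermat.Agent.S35.H89.betaMod A q M k B (hab_kB q M B k hB) hq hA)
      (Fermat.Agent.BAD.H23.tot_mod A q M k B (hab_kB q M B k hB) hq hA hqM ht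
        (Fermat.Agent.BAD.H82.redField_eq_fullC q M k B (hab_kB q M B k hB) hq A hA))).IsNode
      (Fermat.Agent.BAD.H91.rhoF1 k B (hab_kB q M B k hB) hq hA hqM ht
        ((Fermat.Agent.BAD.H91.wSemi k B (hab_kB q M B k hB) hq)⁻¹ •
          P.restrictAlong (heckeAlphaBar Kbar (M * q) q)
            (Fermat.Agent.S36.H44.alpha_integral (M * q) q))) := by
    rw [← e2, h]
    exact nodeB A q M B k hB hq hqM hA ht z hz
  have h3 := Fermat.Agent.BAD.H91.rhoW_eq_beta_mod k B (hab_kB q M B k hB) hq hA hqM ht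
    (Fermat.Agent.S35.H89.betaMod A q M k B (hab_kB q M B k hB) hq hA)
    (Fermat.Agent.BAD.H23.tot_mod A q M k B (hab_kB q M B k hB) hq hA hqM ht
      (Fermat.Agent.BAD.H82.redField_eq_fullC q M k B (hab_kB q M B k hB) hq A hA))
    (betaL_ord_jRed A q M B k hB hq hA) hnode
  rw [Fermat.Agent.BAD.H91.wSemi_inv, ← mul_smul, Fermat.Agent.BAD.H91.wSemi_mul_self, one_smul,
    ← Fermat.Agent.BAD.H91.wSemi_inv k B (hab_kB q M B k hB) hq, ← e2, h] at h3
  rw [h3]
  exact betaL_zB A q M B k hB hq hqM hA z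

end NmP2

end Fermat.Agent.S36.NU.H23

end
end
-- ==== END Fermat.Agent.S36.NU.H23_NmP2

-- ==== BEGIN Fermat.Agent.S36.NU.H28_RadQGauss
section
attribute [local instance 10000] SubalgebraClass.toAlgebra
attribute [local instance 10000] HahnSeries.powerSeriesAlgebra

/-!
# S36 / NU-B, leaf RADQ-MOD, part 1 (helper28): the Gauss property of `V₂₀` on `K^ur[j]`

Level `N = M q²`, `q ∤ M`, `F = L0 A N`, `K = Kur A`, `R = Rur A`, `j = j0 A N`.

* `transcendental_Jred` : the reduction `j~` of `j` is transcendental over `k`;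
* `r20_const`, `const_of_mem_V20o` : constants and `V₂₀`;
* `transcendental_r20_j0`, `transcendental_r20_j0_inv`;
* `gauss_j0`, `gauss_j0_inv` : **(G)** `p ∈ K[X]`, `p(j) ∈ V₂₀` (resp. `p(1/j) ∈ V₂₀`) ⟹ `p ∈ R[X]`.
-/

set_option autoImplicit false
set_option synthInstance.maxHeartbeats 400000
set_option maxHeartbeats 1000000
set_option linter.style.haveILetI false
set_option linter.unusedSectionVars false

noncomputable section

open ModularCurve AlgebraicCurve Polynomial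
open Fermat.Agent.S24 Fermat.Agent.BAD.H88 Fermat.Agent.S28 Fermat.Agent.S28.H73
open Fermat.Agent.RED.H73 Fermat.Agent.RED.H17 Fermat.Agent.S36.NU.H88
open Fermat.Agent.S36.NU.H23 Fermat.Agent.S36.NU.H41 Fermat.Agent.S36.NU.H17

namespace Fermat.Agent.S36.NU.H28

section Gauss

variable (A : ValuationSubring Kbar) (q M : ℕ) (B k : ℤ) (hB : B * M + k * q = 1) (hq : q.Prime)
  [NeZero M] [NeZero q] [NeZero (M * q * q)] (hqM : ¬ q ∣ M) (hA : A.LiesOverPrime q)

/-- The reduction of `j` is transcendental over `k`. -/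
theorem transcendental_Jred : Transcendental (kV A) (_root_.Fermat.Agent.S36.NU.H88.Jred A) := by
  apply transcendental_of_order_neg
  have h1 : (_root_.Fermat.Agent.S36.NU.H88.Jred A).coeff (-1 : ℤ) ≠ 0 := by
    rw [show _root_.Fermat.Agent.S36.NU.H88.Jred A = coeffMap (Int.castRingHom (kV A)) jInt from rfl, coeffMap_coeff,
      jInt_coeff_neg_one, map_one]
    exact one_ne_zero
  have h2 : (_root_.Fermat.Agent.S36.NU.H88.Jred A).order ≤ -1 := HahnSeries.order_le_of_coeff_ne_zero h1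
  omega

theorem r20_const (r : ↥(Rur A))
    (h : algebraMap ↥(Rur A) ↥(L0 A (M * q * q)) r ∈ V20o A q M) :
    r20 A q M hq hqM hA ⟨_, h⟩ = algebraMap (kV A) (FM A M) (resRur A r) :=
  Subtype.ext (s20_const A q M r h)

theorem const_of_mem_V20o (c : ↥(Kur A))
    (h : algebraMap ↥(Kur A) ↥(L0 A (M * q * q)) c ∈ V20o A q M) :
    c ∈ (algebraMap ↥(Rur A) ↥(Kur A)).range := by
  have h1 : algebraMap Kbar (FN (M * q * q)) (c : Kbar) ∈ V20 A (M * q * q) := h
  rw [const_mem20] at h1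
  exact ⟨⟨c, h1⟩, rfl⟩

theorem transcendental_r20_j0 (h : j0 A (M * q * q) ∈ V20o A q M) :
    Transcendental (kV A) (r20 A q M hq hqM hA ⟨_, h⟩) := by
  apply transcendental_subtype
  rw [coe_r20, s20_j0]
  exact _root_.Fermat.Agent.S36.NU.H28.transcendental_Jred A

/-! ### Inverses in a valuation ring with a residue map -/

section Inv

variable {F κ : Type*} [Field F] [Field κ] (V : ValuationSubring F) (red : ↥V →+* κ)
  (hker : ∀ u : ↥V, ¬ IsUnit u → red u = 0)

include hker in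
theorem inv_mem_of_red_ne_zero {x : F} (hx : x ∈ V) (h : red ⟨x, hx⟩ ≠ 0) : x⁻¹ ∈ V := by
  have hu : IsUnit (⟨x, hx⟩ : ↥V) := by
    by_contra hnu
    exact h (hker _ hnu)
  obtain ⟨u, hu'⟩ := hu
  have h1 : x * (((u⁻¹ : (↥V)ˣ) : ↥V) : F) = 1 := by
    have h2 : (u : ↥V) * ((u⁻¹ : (↥V)ˣ) : ↥V) = 1 := u.mul_inv
    rw [hu'] at h2
    exact congrArg (fun z : ↥V => (z : F)) h2
  rw [← eq_inv_of_mul_eq_one_right h1]
  exact ((u⁻¹ : (↥V)ˣ) : ↥V).2

theorem red_inv_eq {x : F} (hx : x ∈ V) (hxi : x⁻¹ ∈ V) (h0 : x ≠ 0) :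
    red ⟨x⁻¹, hxi⟩ = (red ⟨x, hx⟩)⁻¹ := by
  have h1 : red ⟨x, hx⟩ * red ⟨x⁻¹, hxi⟩ = 1 := by
    rw [← map_mul]
    have : (⟨x, hx⟩ : ↥V) * ⟨x⁻¹, hxi⟩ = 1 := Subtype.ext (mul_inv_cancel₀ h0)
    rw [this, map_one]
  exact eq_inv_of_mul_eq_one_right h1

end Inv

include hq hqM hA in
theorem j0_inv_mem_V20o : (j0 A (M * q * q))⁻¹ ∈ V20o A q M :=
  inv_mem_of_red_ne_zero (V20o A q M) (r20 A q M hq hqM hA)
    (r20_eq_zero_of_not_isUnit A q M hq hqM hA) (_root_.Fermat.Agent.S36.NU.H88.j0_mem20 A q M)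
    (fun h0 => _root_.Fermat.Agent.S36.NU.H28.transcendental_r20_j0 A q M hq hqM hA (_root_.Fermat.Agent.S36.NU.H88.j0_mem20 A q M)
      (h0 ▸ isAlgebraic_zero))

theorem transcendental_r20_j0_inv (h : (j0 A (M * q * q))⁻¹ ∈ V20o A q M) :
    Transcendental (kV A) (r20 A q M hq hqM hA ⟨_, h⟩) := by
  rw [red_inv_eq (V20o A q M) (r20 A q M hq hqM hA) (_root_.Fermat.Agent.S36.NU.H88.j0_mem20 A q M) h
    (j0_ne_zero A (M * q * q))]
  intro halg
  apply _root_.Fermat.Agent.S36.NU.H28.transcendental_r20_j0 A q M hq hqM hA (_root_.Fermat.Agent.S36.NU.H88.j0_mem20 A q M)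
  have := halg.inv
  rwa [inv_inv] at this

/-! ### (G) -/

include hq hqM hA in
/-- **(G)** for `j`: a polynomial over `K^ur` whose value at `j` is integral for `V₂₀` has its
coefficients in `R^ur`. -/
theorem gauss_j0 (p : (↥(Kur A))[X]) (hp : aeval (j0 A (M * q * q)) p ∈ V20o A q M) (i : ℕ) :
    p.coeff i ∈ (algebraMap ↥(Rur A) ↥(Kur A)).range :=
  gauss_of_transcendental_red (V20o A q M) (r20 A q M hq hqM hA)
    (fun u hu => r20_eq_zero_of_not_isUnit A q M hq hqM hA u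
      ((IsLocalRing.mem_maximalIdeal u).1 hu))
    (resRur A) (const_mem_V20o A q M) (fun r => r20_const A q M hq hqM hA r _)
    (_root_.Fermat.Agent.S36.NU.H28.const_of_mem_V20o A q M) (j0 A (M * q * q)) (_root_.Fermat.Agent.S36.NU.H88.j0_mem20 A q M)
    (_root_.Fermat.Agent.S36.NU.H28.transcendental_r20_j0 A q M hq hqM hA _) p hp i

include hq hqM hA in
/-- **(G)** for `1 / j`. -/
theorem gauss_j0_inv (p : (↥(Kur A))[X]) (hp : aeval (j0 A (M * q * q))⁻¹ p ∈ V20o A q M)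
    (i : ℕ) : p.coeff i ∈ (algebraMap ↥(Rur A) ↥(Kur A)).range :=
  gauss_of_transcendental_red (V20o A q M) (r20 A q M hq hqM hA)
    (fun u hu => r20_eq_zero_of_not_isUnit A q M hq hqM hA u
      ((IsLocalRing.mem_maximalIdeal u).1 hu))
    (resRur A) (const_mem_V20o A q M) (fun r => r20_const A q M hq hqM hA r _)
    (_root_.Fermat.Agent.S36.NU.H28.const_of_mem_V20o A q M) (j0 A (M * q * q))⁻¹ (j0_inv_mem_V20o A q M hq hqM hA)
    (_root_.Fermat.Agent.S36.NU.H28.transcendental_r20_j0_inv A q M hq hqM hA _) p hp i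

end Gauss

end Fermat.Agent.S36.NU.H28

end
end
-- ==== END Fermat.Agent.S36.NU.H28_RadQGauss

-- ==== BEGIN Fermat.Agent.S36.NU.H51_ValVecA1
section

/-!
# S36 / NU-B, leaf VALVEC-MOD (helper51): NORM-VAL along `α` above `V₁`

`Nα` := the norm of `L0 A (M q²) / L0 A (M q)` (inclusion `= α`).

* `coe_NαA` : `Nα` is the norm along `α` (bridge);
* `val1_NαA` : `v₁ (Nα x) = v₁ (q) ^ (k₂₀ + k₁₁)` (helper79's NORM-VAL on helper87's `nrA1`).
-/

set_option autoImplicit false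
set_option synthInstance.maxHeartbeats 400000
set_option maxHeartbeats 1000000
set_option linter.style.haveILetI false
set_option linter.unusedSectionVars false

noncomputable section

open ModularCurve AlgebraicCurve
open Fermat.Agent.S24 Fermat.Agent.BAD.H88 Fermat.Agent.S28 Fermat.Agent.S28.H73
open Fermat.Agent.RED.H73 Fermat.Agent.RED.H17 Fermat.Agent.S36.NU.H88
open Fermat.Agent.S36.NU.H23 Fermat.Agent.Lib.HeckeComm Fermat.Agent.BAD
open Fermat.Agent.S36.NU.H82

namespace Fermat.Agent.S36.NU.H51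

section A1

variable (A : ValuationSubring Kbar) (q M : ℕ) (B k : ℤ) (hB : B * M + k * q = 1) (hq : q.Prime)
  [NeZero M] [NeZero q] [NeZero (M * q)] [NeZero (M * q * q)]
  (hqM : ¬ q ∣ M) (hA : A.LiesOverPrime q)

/-- The norm does not depend on the name of the algebra structure. -/
theorem norm_congr_alg {E L : Type*} [Field E] [Field L] (a₁ a₂ : Algebra E L) (h : a₁ = a₂)
    (x : L) : @Algebra.norm E L _ _ a₁ x = @Algebra.norm E L _ _ a₂ x := by
  subst h; rfl

/-- The norm of `L0 A (M q²) / L0 A (M q)` along the inclusion `= α`. -/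
def NαA : ↥(L0 A (M * q * q)) → ↥(L0 A (M * q)) := fun x =>
  @Algebra.norm ↥(L0 A (M * q)) ↥(L0 A (M * q * q)) _ _ (algL0 A (H87.hleA q M)) x

theorem algF_eq_alpha :
    algF (H87.hleA q M) = (heckeAlphaBar Kbar (M * q) q).toRingHom.toAlgebra := by
  have h : IntermediateField.inclusion (H87.hleA q M) = heckeAlphaBar Kbar (M * q) q :=
    AlgHom.ext (H87.inclusion_eq_alphaA q M)
  show (IntermediateField.inclusion (H87.hleA q M)).toRingHom.toAlgebra = _
  rw [h]

/-- **Bridge**: `Nα` is the norm along `α`. -/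
theorem coe_NαA (x : ↥(L0 A (M * q * q))) :
    ((NαA A q M x : ↥(L0 A (M * q))) : FN (M * q))
      = normAlongHom (heckeAlphaBar Kbar (M * q) q).toRingHom (x : FN (M * q * q)) := by
  have h := norm_L0 A (H87.hleA q M) (H87.finite_FA q M) x
  have h2 := norm_congr_alg _ _ (algF_eq_alpha q M) (x : FN (M * q * q))
  exact h.symm.trans h2

theorem inclL0_piEA_eq :
    inclL0 A (H87.hleA q M) (piE A q (M * q)) = ((q : ℕ) : ↥(L0 A (M * q * q))) := by
  apply Subtype.ext
  rw [H87.coe_inclL0_piEA]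
  rfl

include hqM hA in
/-- **NORM-VAL along `α` above `V₁`**. -/
theorem val1_NαA (x : ↥(L0 A (M * q * q))) (k₁ k₂ : ℤ)
    (h20 : (V20o A q M).valuation x
        = (V20o A q M).valuation ((q : ℕ) : ↥(L0 A (M * q * q))) ^ k₁)
    (h11 : (V11o A q M B k hB hq).valuation x
        = (V11o A q M B k hB hq).valuation (pi11 A q M) ^ k₂) :
    (V1o A q M).valuation (NαA A q M x)
      = (V1o A q M).valuation ((q : ℕ) : ↥(L0 A (M * q))) ^ (k₁ + k₂) := by
  letI := algL0 A (H87.hleA q M)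
  letI := H87.algA A q M
  haveI : Module.Finite ↥(L0 A (M * q)) ↥(L0 A (M * q * q)) := H87.finite_L0_A A q M
  have hk : ∀ i, ((H87.nrA1 A q M B k hB hq hqM hA).V i).valuation x
      = ((H87.nrA1 A q M B k hB hq hqM hA).V i).valuation
          ((H87.nrA1 A q M B k hB hq hqM hA).π i) ^ (![k₁, k₂] i) := by
    intro i
    fin_cases i
    · show (V20o A q M).valuation x
        = (V20o A q M).valuation (inclL0 A (H87.hleA q M) (piE A q (M * q))) ^ k₁
      rw [inclL0_piEA_eq]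
      exact h20
    · exact h11
  have h := H79.nv_val_norm (H87.nrA1 A q M B k hB hq hqM hA)
    (H87.nrA1_hdeg A q M B k hB hq hqM hA) x ![k₁, k₂] hk
  rw [Fin.sum_univ_two] at h
  have h0 : @Module.finrank (FM A (M * q)) (H87.kap2 (FM A (M * q)) (FM A (M * q)) 0) _ _
      (H87.algA A q M 0).toModule = 1 := Module.finrank_self (FM A (M * q))
  have h1 : @Module.finrank (FM A (M * q)) (H87.kap2 (FM A (M * q)) (FM A (M * q)) 1) _ _
      (H87.algA A q M 1).toModule = 1 := Module.finrank_self (FM A (M * q))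
  rw [h0, h1] at h
  simp only [Nat.cast_one, one_mul, Matrix.cons_val_zero, Matrix.cons_val_one] at h
  exact h

end A1

end Fermat.Agent.S36.NU.H51

end
end
-- ==== END Fermat.Agent.S36.NU.H51_ValVecA1

-- ==== BEGIN Fermat.Agent.S36.NU.H51_ValVecSym
section

/-!
# S36 / NU-B, leaf VALVEC-MOD (helper51): the `β`-side by symmetry

`W_{q²} ∘ α = β ∘ w_q`, `V₀₂ = V₂₀ ∘ W_{q²}`, `V₂ = V₁ ∘ w_q`, and `V₁₁ ∘ W_{q²} = V₁₁` on the
inertia-fixed functions (THREE for helper23's `nrM`).  Hence NORM-VAL along `β` follows from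
NORM-VAL along `α`.

* `wSo`, `wLo` : the two involutions on `L0 A (M q²)`, `L0 A (M q)`;
* `val11_wSo` : `V₁₁` is invariant under `W_{q²}`;
* `norm_beta_eq` : `N_β x = w_q (N_α (W_{q²} x))`;
* `normValHyp_of_alpha` : `NormValHyp` from NORM-VAL along `α`.
-/

set_option autoImplicit false
set_option synthInstance.maxHeartbeats 400000
set_option maxHeartbeats 1000000
set_option linter.style.haveILetI false
set_option linter.unusedSectionVars false

noncomputable section

open ModularCurve AlgebraicCurve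
open Fermat.Agent.S24 Fermat.Agent.BAD.H88 Fermat.Agent.S28 Fermat.Agent.S28.H73
open Fermat.Agent.RED.H73 Fermat.Agent.RED.H17 Fermat.Agent.S36.NU.H88
open Fermat.Agent.S36.NU.H23 Fermat.Agent.Lib.HeckeComm Fermat.Agent.BAD
open Fermat.Agent.S36.NU.H82

namespace Fermat.Agent.S36.NU.H51

section Sym

variable (A : ValuationSubring Kbar) (q M : ℕ) (B k : ℤ) (hB : B * M + k * q = 1) (hq : q.Prime)
  [NeZero M] [NeZero q] [NeZero (M * q)] [NeZero (M * q * q)]

/-! ### The involutions on the inertia-fixed functions -/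

/-- `W_{q²}` on `L0 A (M q²)`. -/
def wSo : ↥(L0 A (M * q * q)) →+* ↥(L0 A (M * q * q)) :=
  (((wS q M B k hB : FN (M * q * q) ≃ₐ[Kbar] FN (M * q * q)) :
      FN (M * q * q) →+* FN (M * q * q)).comp (L0 A (M * q * q)).subtype).codRestrict
    (L0 A (M * q * q))
    (fun x => wSq_mem_L0 A (M * q * q) q M B k (lvl q M) hB (x : FN (M * q * q)) x.2)

theorem coe_wSo (x : ↥(L0 A (M * q * q))) :
    ((wSo A q M B k hB x : ↥(L0 A (M * q * q))) : FN (M * q * q))
      = wS q M B k hB (x : FN (M * q * q)) := rfl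

theorem wSo_wSo (x : ↥(L0 A (M * q * q))) : wSo A q M B k hB (wSo A q M B k hB x) = x :=
  Subtype.ext (wSq_wSq (M * q * q) q M B k (lvl q M) hB (x : FN (M * q * q)))

/-- `w_q` on `L0 A (M q)`. -/
def wLo : ↥(L0 A (M * q)) →+* ↥(L0 A (M * q)) :=
  (((wL q M B k hB hq : FN (M * q) ≃ₐ[Kbar] FN (M * q)) :
      FN (M * q) →+* FN (M * q)).comp (L0 A (M * q)).subtype).codRestrict
    (L0 A (M * q))
    (fun x => wq_mem_L0 A q M k B (hab_of_hB q M B k hB) hq (x : FN (M * q)) x.2)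

theorem coe_wLo (x : ↥(L0 A (M * q))) :
    ((wLo A q M B k hB hq x : ↥(L0 A (M * q))) : FN (M * q))
      = wL q M B k hB hq (x : FN (M * q)) := rfl

theorem wLo_wLo (x : ↥(L0 A (M * q))) :
    wLo A q M B k hB hq (wLo A q M B k hB hq x) = x :=
  Subtype.ext (wq_wq q M k B (hab_of_hB q M B k hB) hq (x : FN (M * q)))

/-! ### Transport of the valuations -/

theorem mem_V02o_iff_wSo (x : ↥(L0 A (M * q * q))) :
    x ∈ V02o A q M B k hB ↔ wSo A q M B k hB x ∈ V20o A q M := Iff.rfl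

theorem mem_V20o_iff_wSo (x : ↥(L0 A (M * q * q))) :
    x ∈ V20o A q M ↔ wSo A q M B k hB x ∈ V02o A q M B k hB := by
  rw [mem_V02o_iff_wSo, wSo_wSo]

theorem mem_V2o_iff_wLo (x : ↥(L0 A (M * q))) :
    x ∈ V2o A q M B k hB hq ↔ wLo A q M B k hB hq x ∈ V1o A q M := Iff.rfl

theorem mem_V1o_iff_wLo (x : ↥(L0 A (M * q))) :
    x ∈ V1o A q M ↔ wLo A q M B k hB hq x ∈ V2o A q M B k hB hq := by
  rw [mem_V2o_iff_wLo, wLo_wLo]

theorem val02_eq_iff_wSo (x y : ↥(L0 A (M * q * q))) :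
    (V02o A q M B k hB).valuation x = (V02o A q M B k hB).valuation y
      ↔ (V20o A q M).valuation (wSo A q M B k hB x)
          = (V20o A q M).valuation (wSo A q M B k hB y) :=
  val_eq_iff_of_mem_iff _ _ (wSo A q M B k hB) (mem_V02o_iff_wSo A q M B k hB) x y

theorem val20_eq_iff_wSo (x y : ↥(L0 A (M * q * q))) :
    (V20o A q M).valuation x = (V20o A q M).valuation y
      ↔ (V02o A q M B k hB).valuation (wSo A q M B k hB x)
          = (V02o A q M B k hB).valuation (wSo A q M B k hB y) :=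
  val_eq_iff_of_mem_iff _ _ (wSo A q M B k hB) (mem_V20o_iff_wSo A q M B k hB) x y

theorem val2_eq_iff_wLo (x y : ↥(L0 A (M * q))) :
    (V2o A q M B k hB hq).valuation x = (V2o A q M B k hB hq).valuation y
      ↔ (V1o A q M).valuation (wLo A q M B k hB hq x)
          = (V1o A q M).valuation (wLo A q M B k hB hq y) :=
  val_eq_iff_of_mem_iff _ _ (wLo A q M B k hB hq) (mem_V2o_iff_wLo A q M B k hB hq) x y

theorem val1_eq_iff_wLo (x y : ↥(L0 A (M * q))) :
    (V1o A q M).valuation x = (V1o A q M).valuation y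
      ↔ (V2o A q M B k hB hq).valuation (wLo A q M B k hB hq x)
          = (V2o A q M B k hB hq).valuation (wLo A q M B k hB hq y) :=
  val_eq_iff_of_mem_iff _ _ (wLo A q M B k hB hq) (mem_V1o_iff_wLo A q M B k hB hq) x y

/-! ### The uniformisers under the involutions -/

theorem wSo_natCast (n : ℕ) :
    wSo A q M B k hB ((n : ℕ) : ↥(L0 A (M * q * q))) = ((n : ℕ) : ↥(L0 A (M * q * q))) :=
  map_natCast _ n

theorem wLo_natCast (n : ℕ) :
    wLo A q M B k hB hq ((n : ℕ) : ↥(L0 A (M * q))) = ((n : ℕ) : ↥(L0 A (M * q))) :=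
  map_natCast _ n

theorem wSo_zpow (x : ↥(L0 A (M * q * q))) (m : ℤ) :
    wSo A q M B k hB (x ^ m) = wSo A q M B k hB x ^ m := map_zpow₀ _ x m

theorem wLo_zpow (x : ↥(L0 A (M * q))) (m : ℤ) :
    wLo A q M B k hB hq (x ^ m) = wLo A q M B k hB hq x ^ m := map_zpow₀ _ x m

include hq in
/-- `W_{q²} π₁₁ = - π₁₁`. -/
theorem wSo_pi11 : wSo A q M B k hB (pi11 A q M) = - pi11 A q M := by
  haveI : NeZero (q * q) := ⟨mul_ne_zero hq.ne_zero hq.ne_zero⟩
  apply Subtype.ext
  rw [coe_wSo]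
  show wS q M B k hB (jdF (M * q * q) (q * q) (sq_dvd_lvl q M) - jdF (M * q * q) 1 (one_dvd _))
    = - (jdF (M * q * q) (q * q) (sq_dvd_lvl q M) - jdF (M * q * q) 1 (one_dvd _))
  rw [map_sub, ← incBB_jdF_one q M (sq_dvd_lvl q M), ← incAA_jdF_one q M,
    wS_incBB q M B k hB hq, wS_incAA q M B k hB hq]
  ring

/-! ### `V₁₁` is invariant under `W_{q²}` -/

section Inv

variable (hqM : ¬ q ∣ M) (hA : A.LiesOverPrime q)

include hqM hA in
/-- **`V₁₁ ∘ W_{q²} = V₁₁`** on the inertia-fixed functions (THREE for `nrM`). -/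
theorem mem_V11o_iff_wSo (x : ↥(L0 A (M * q * q))) :
    x ∈ V11o A q M B k hB hq ↔ wSo A q M B k hB x ∈ V11o A q M B k hB hq := by
  letI := algL0 A (hleMN q M)
  letI := algM A q M hq hqM hA
  haveI : Module.Finite ↥(L0 A M) ↥(L0 A (M * q * q)) := finite_L0_NU A q M
  haveI : ∀ i, Module.Finite (FM A M) (kap3 (FM A M) (FM A M) i) :=
    fun i => (nrM A q M B k hB hq hqM hA).finite_res i
  set W : ValuationSubring ↥(L0 A (M * q * q)) :=
    (V11o A q M B k hB hq).comap (wSo A q M B k hB) with hWdef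
  have hmemW : ∀ y : ↥(L0 A (M * q * q)), y ∈ W ↔ wSo A q M B k hB y ∈ V11o A q M B k hB hq :=
    fun y => Iff.rfl
  have hW : ∀ a : ↥(L0 A M), a ∈ (nrM A q M B k hB hq hqM hA).VE →
      algebraMap ↥(L0 A M) ↥(L0 A (M * q * q)) a ∈ W := by
    intro a ha
    rw [hmemW]
    show ((wSo A q M B k hB (inclL0 A (hleMN q M) a) : ↥(L0 A (M * q * q))) : FN (M * q * q))
      ∈ V11 A (M * q * q) q M B k (lvl q M) hB hq
    rw [coe_wSo, coe_inclL0_eq_incAA, wS_incAA q M B k hB hq]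
    exact (incBB_mem_V11_iff A q M B k hB hq (a : FN M)).mpr ha
  have hWtop : W ≠ ⊤ := by
    intro htop
    have h1 : (((q : ℕ) : ↥(L0 A (M * q * q))))⁻¹ ∈ W := by rw [htop]; trivial
    rw [hmemW, map_inv₀, wSo_natCast] at h1
    have h2 := (ValuationSubring.valuation_le_one_iff _ _).2 h1
    have h3 : (V11o A q M B k hB hq).valuation ((q : ℕ) : ↥(L0 A (M * q * q))) < 1 := by
      rw [← inclL0_piE_eq A q M]
      exact val11_piE_lt_one A q M B k hB hq hA
    have hq0 : ((q : ℕ) : ↥(L0 A (M * q * q))) ≠ 0 := by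
      rw [← inclL0_piE_eq A q M]
      exact (map_ne_zero (inclL0 A (hleMN q M))).2 (piE_ne_zero A q M hq)
    rw [map_inv₀] at h2
    have h4 := (inv_le_one₀ (zero_lt_iff.2 ((Valuation.ne_zero_iff _).2 hq0))).1 h2
    exact absurd h3 (not_lt.2 h4)
  obtain ⟨i, hi⟩ := H42.NRData.eq_of_valuationSubring (nrM A q M B k hB hq hqM hA)
    (nrM_hdeg A q M B k hB hq hqM hA) W hW hWtop
  fin_cases i
  · -- `W = V₂₀` : then `V₁₁ = V₀₂`
    exfalso
    have hi' : W = V20o A q M := hi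
    refine H82.not_le_11_02 A q M B k hB hq hA (fun y hy => ?_)
    have hy' : y ∈ V11o A q M B k hB hq := hy
    have h1 : wSo A q M B k hB y ∈ W := by
      rw [hmemW, wSo_wSo]; exact hy'
    rw [hi'] at h1
    exact (mem_V02o_iff_wSo A q M B k hB y).2 h1
  · have hi' : W = V11o A q M B k hB hq := hi
    rw [← hmemW, hi']
  · -- `W = V₀₂` : then `V₁₁ = V₂₀`
    exfalso
    have hi' : W = V02o A q M B k hB := hi
    refine H82.not_le_11_20 A q M B k hB hq hA (fun y hy => ?_)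
    have hy' : y ∈ V11o A q M B k hB hq := hy
    have h1 : wSo A q M B k hB y ∈ W := by
      rw [hmemW, wSo_wSo]; exact hy'
    rw [hi', mem_V02o_iff_wSo, wSo_wSo] at h1
    exact h1

include hqM hA in
theorem val11_eq_iff_wSo (x y : ↥(L0 A (M * q * q))) :
    (V11o A q M B k hB hq).valuation x = (V11o A q M B k hB hq).valuation y
      ↔ (V11o A q M B k hB hq).valuation (wSo A q M B k hB x)
          = (V11o A q M B k hB hq).valuation (wSo A q M B k hB y) :=
  val_eq_iff_of_mem_iff _ _ (wSo A q M B k hB) (mem_V11o_iff_wSo A q M B k hB hq hqM hA) x y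

include hqM hA in
/-- Transport of a value `v₁₁ (x) = v₁₁ (π₁₁) ^ m`. -/
theorem val11_wSo (x : ↥(L0 A (M * q * q))) (m : ℤ)
    (h : (V11o A q M B k hB hq).valuation x
      = (V11o A q M B k hB hq).valuation (pi11 A q M) ^ m) :
    (V11o A q M B k hB hq).valuation (wSo A q M B k hB x)
      = (V11o A q M B k hB hq).valuation (pi11 A q M) ^ m := by
  rw [← map_zpow₀] at h
  have h1 := (val11_eq_iff_wSo A q M B k hB hq hqM hA x (pi11 A q M ^ m)).1 h
  rw [h1, wSo_zpow, wSo_pi11 A q M B k hB hq, map_zpow₀, Valuation.map_neg]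

end Inv

/-- Transport of a value `v₀₂ (x) = v₀₂ (q) ^ m` to `v₂₀`. -/
theorem val20_wSo_of_val02 (x : ↥(L0 A (M * q * q))) (m : ℤ)
    (h : (V02o A q M B k hB).valuation x
      = (V02o A q M B k hB).valuation ((q : ℕ) : ↥(L0 A (M * q * q))) ^ m) :
    (V20o A q M).valuation (wSo A q M B k hB x)
      = (V20o A q M).valuation ((q : ℕ) : ↥(L0 A (M * q * q))) ^ m := by
  rw [← map_zpow₀] at h
  have h1 := (val02_eq_iff_wSo A q M B k hB x _).1 h
  rw [h1, wSo_zpow, wSo_natCast, map_zpow₀]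

/-- Transport of a value `v₂₀ (x) = v₂₀ (q) ^ m` to `v₀₂`. -/
theorem val02_wSo_of_val20 (x : ↥(L0 A (M * q * q))) (m : ℤ)
    (h : (V20o A q M).valuation x
      = (V20o A q M).valuation ((q : ℕ) : ↥(L0 A (M * q * q))) ^ m) :
    (V02o A q M B k hB).valuation (wSo A q M B k hB x)
      = (V02o A q M B k hB).valuation ((q : ℕ) : ↥(L0 A (M * q * q))) ^ m := by
  rw [← map_zpow₀] at h
  have h1 := (val20_eq_iff_wSo A q M B k hB x _).1 h
  rw [h1, wSo_zpow, wSo_natCast, map_zpow₀]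

/-- Transport of a value `v₁ (y) = v₁ (q) ^ m` to `v₂`. -/
theorem val2_wLo_of_val1 (y : ↥(L0 A (M * q))) (m : ℤ)
    (h : (V1o A q M).valuation y = (V1o A q M).valuation ((q : ℕ) : ↥(L0 A (M * q))) ^ m) :
    (V2o A q M B k hB hq).valuation (wLo A q M B k hB hq y)
      = (V2o A q M B k hB hq).valuation ((q : ℕ) : ↥(L0 A (M * q))) ^ m := by
  rw [← map_zpow₀] at h
  have h1 := (val1_eq_iff_wLo A q M B k hB hq y _).1 h
  rw [h1, wLo_zpow, wLo_natCast, map_zpow₀]

/-- Transport of a value `v₂ (y) = v₂ (q) ^ m` to `v₁`. -/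
theorem val1_wLo_of_val2 (y : ↥(L0 A (M * q))) (m : ℤ)
    (h : (V2o A q M B k hB hq).valuation y
      = (V2o A q M B k hB hq).valuation ((q : ℕ) : ↥(L0 A (M * q))) ^ m) :
    (V1o A q M).valuation (wLo A q M B k hB hq y)
      = (V1o A q M).valuation ((q : ℕ) : ↥(L0 A (M * q))) ^ m := by
  rw [← map_zpow₀] at h
  have h1 := (val2_eq_iff_wLo A q M B k hB hq y _).1 h
  rw [h1, wLo_zpow, wLo_natCast, map_zpow₀]

end Sym

end Fermat.Agent.S36.NU.H51

end
end
-- ==== END Fermat.Agent.S36.NU.H51_ValVecSym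

-- ==== BEGIN Fermat.Agent.S36.NU.H65_Ord11Q23
section

/-!
# S36 / NU-B, (M4) LOCEQ at the ordinary points of the middle component, `q = 2, 3` (helper65)

For `q ∈ {2, 3}` the coordinate is `f = j`: `θ j̄ = - j̄` and `Δ̄⁻¹ = j̄`, so the reduction of
`t₁₁^(q-1) / q` at `V₁₁` is `ε̄ j̄^(q-1) = ε̄ HU`, `HU = Δ̄(t)/Δ̄(t^q) = red₁₁ eps1`, and the
certificate of `H99.ord11_of_cert` is `red₁₁ (E11 f₁₁ c) = red₁₁ (eps1 ^ 3)`, `c` a constant lift
of `ε̄⁻¹`.

* `ord11_q23` : local equation datum and only one branch at the closed points `𝔪 ⊇ Icomp₁₁`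
  with `eps1 ∉ 𝔪`, for `q = 2` or `q = 3`.
-/

set_option autoImplicit false
set_option synthInstance.maxHeartbeats 400000
set_option maxHeartbeats 1000000
set_option linter.unusedSectionVars false
set_option linter.style.haveILetI false

noncomputable section

open ModularCurve AlgebraicCurve IntermediateField
open Fermat.Agent.S24 Fermat.Agent.BAD.H88 Fermat.Agent.BAD.H30 Fermat.Agent.BAD.H21
open Fermat.Agent.S28 Fermat.Agent.S28.H73 Fermat.Agent.RED.H73 Fermat.Agent.RED.H17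
open Fermat.Agent.S36.NU.H88 Fermat.Agent.S36.NU.H23
open Fermat.Agent.S36.NU.H41 Fermat.Agent.RED
open Fermat.Agent.S36.NU.H99 Fermat.Agent.S36.NU.H5

namespace Fermat.Agent.S36.NU.H65

open Fermat.Agent.S36.NU.H16 (Chart LocEq valq_of_crit)

section Q23Series

variable (K : Type*) [Field K]

/-- The reduction of `Δ ∈ ℤ((t))`. -/
theorem q23_coeffMap_DZ' : coeffMap (Int.castRingHom K) Fermat.Agent.S36.NU.H73.DZ = deltaR K := by
  rw [deltaR_eq_DL, Fermat.Agent.S36.NU.H73.DZ, ModularCurve.coeffMap_ofPowerSeries]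
  rfl

variable {K} {ℓ : ℕ} [CharP K ℓ]

/-- `j̄ Δ̄ = 1` in characteristic `2`, `3`. -/
theorem q23_j_mul_deltaR (h23 : ℓ = 2 ∨ ℓ = 3) : jqModC K * deltaR K = 1 := by
  have h := q23_j_mul_D (k := K) h23
  rw [q23_coeffMap_DZ'] at h
  exact h

/-- `Δ̄(t)/Δ̄(t^ℓ) = j̄^(ℓ-1)` in characteristic `ℓ = 2, 3`. -/
theorem q23_unit_eq [Fact ℓ.Prime] [NeZero ℓ] (h23 : ℓ = 2 ∨ ℓ = 3) :
    deltaR K * (qExpand K ℓ (deltaR K))⁻¹ = jqModC K ^ (ℓ - 1) := by
  have h := q23_j_mul_deltaR (K := K) h23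
  have hd : deltaR K ≠ 0 := deltaR_ne_zero K
  have hj : jqModC K = (deltaR K)⁻¹ := eq_inv_of_mul_eq_one_left h
  rw [qExpand_deltaR_char K ℓ, hj]
  rcases h23 with rfl | rfl
  · show deltaR K * (deltaR K ^ 2)⁻¹ = ((deltaR K)⁻¹) ^ 1
    field_simp
  · show deltaR K * (deltaR K ^ 3)⁻¹ = ((deltaR K)⁻¹) ^ 2
    field_simp

/-- `(θ j̄)^(ℓ-1) = j̄^(ℓ-1)` in characteristic `ℓ = 2, 3`. -/
theorem q23_thetaL_pow (h23 : ℓ = 2 ∨ ℓ = 3) :
    Fermat.Agent.S36.NU.H73.thetaL (jqModC K) ^ (ℓ - 1) = jqModC K ^ (ℓ - 1) := by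
  rw [q23_thetaL_j (k := K) h23]
  rcases h23 with rfl | rfl
  · have h2 : (2 : LaurentSeries K) = 0 := by
      have := q23_natCast_eq_zero (k := K) (n := 2) (by exact_mod_cast CharP.cast_eq_zero K 2)
      exact_mod_cast this
    have : -jqModC K = jqModC K := by
      have h3 : jqModC K + jqModC K = 0 := by rw [← two_mul, h2, zero_mul]
      exact neg_eq_of_add_eq_zero_left h3
    simp [this]
  · show (-jqModC K) ^ 2 = jqModC K ^ 2
    ring

end Q23Series

section Ord11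

variable {A : ValuationSubring Kbar}
variable {q M : ℕ} {B k : ℤ} {hB : B * M + k * q = 1} {hq : q.Prime} [NeZero M] [NeZero q]
  [NeZero (M * q)] [NeZero (M * q * q)]

variable {R k' ι : Type*} {κ : ι → Type*} [CommRing R] [Algebra R ↥(L0 A (M * q * q))]
  [Field k'] [∀ i, Field (κ i)] [∀ i, Algebra k' (κ i)]

variable [Fintype ι] [DecidableEq ι]
variable {C : Chart R ↥(L0 A (M * q * q)) k' ι κ} {qR : R} {e : ι → ℕ} {i₂₀ i₁₁ i₀₂ : ι}

/-- `t₁₁(j) = j(q²τ) - j(τ)` is integral over `K^ur[j]`. -/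
theorem isIntegral_t11o_j (A : ValuationSubring Kbar) (q M : ℕ) [NeZero M] [NeZero q]
    [NeZero (M * q)] [NeZero (M * q * q)] :
    IsIntegral ↥(Algebra.adjoin ↥(Kur A) ({j0 A (M * q * q)} : Set ↥(L0 A (M * q * q))))
      (_root_.Fermat.Agent.S36.NU.H99.t11o A q M (jdF M 1 (one_dvd M)) jInt (coe_jdF_one M)) := by
  haveI : NeZero (q * q) := ⟨mul_ne_zero (NeZero.ne q) (NeZero.ne q)⟩
  have hqq : q * q ∣ M * q * q := ⟨M, by ring⟩
  have e : _root_.Fermat.Agent.S36.NU.H99.t11o A q M (jdF M 1 (one_dvd M)) jInt (coe_jdF_one M)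
      = (⟨jdF (M * q * q) (q * q) hqq, jdF_mem_L0 A (M * q * q) (q * q) hqq⟩ :
          ↥(L0 A (M * q * q)))
        - ⟨jdF (M * q * q) 1 (one_dvd _), jdF_mem_L0 A (M * q * q) 1 (one_dvd _)⟩ := by
    apply Subtype.ext
    show t11 q M (jdF M 1 (one_dvd M)) = jdF (M * q * q) (q * q) hqq - jdF (M * q * q) 1 (one_dvd _)
    rw [t11, incAA_jdF_one, incBB_jdF_one q M hqq]
  rw [e]
  exact (isIntegral_jdF_L0 A (M * q * q) (q * q) hqq).sub
    (isIntegral_jdF_L0 A (M * q * q) 1 (one_dvd _))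

/-- Inertia-fixed constants are integral over `K^ur[j]`. -/
theorem isIntegral_const_L0 (A : ValuationSubring Kbar) (N : ℕ) [NeZero N] (c : ↥(L0 A N))
    (hc : ∃ c' : Kbar, (c : FN N) = algebraMap Kbar (FN N) c') :
    IsIntegral ↥(Algebra.adjoin ↥(Kur A) ({j0 A N} : Set ↥(L0 A N))) c := by
  obtain ⟨c', hc'⟩ := hc
  refine isIntegral_Kur_of_bar A N c ?_
  rw [hc', IsScalarTower.algebraMap_apply Kbar
    ↥(Algebra.adjoin Kbar ({Fermat.Agent.S24.jF N} : Set (FN N))) (FN N)]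
  exact isIntegral_algebraMap

include hq in
/-- **Ordinary points of `C₁₁`, `q = 2, 3`**: if `eps1 ∉ 𝔪 ⊇ Icomp₁₁` then `𝔪` has a local
equation datum and `C₁₁` is the only component through `𝔪`. -/
theorem ord11_q23 (S : ChartL0 A q M B k hB hq C qR e i₂₀ i₁₁ i₀₂) (h23 : q = 2 ∨ q = 3)
    (hA : (q : Kbar) ∈ A.nonunits) (𝔪 : Ideal C.B) [h𝔪 : 𝔪.IsPrime] (hi : C.Icomp i₁₁ ≤ 𝔪)
    (hw : (⟨eps1o A q M, S.eps1o_mem_B⟩ : C.B) ∉ 𝔪) :
    Nonempty (LocEq C qR 𝔪) ∧ ∀ i', C.Icomp i' ≤ 𝔪 → i' = i₁₁ := by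
  haveI : Fact q.Prime := ⟨hq⟩
  haveI : CharP (kV A) q := Fermat.Agent.BAD.H82.charP_kV A hq hA
  have hε := resV_epsK_ne_zero A q M B k hB hq
  obtain ⟨c, hcc, ⟨h20, -⟩, ⟨h11, hs11⟩, ⟨h02, -⟩⟩ :=
    hlift_mod A q M B k hB hq hA (resV A ⟨epsK q B, epsK_mem A q M B k hB hq⟩)⁻¹
  have hcB : c ∈ C.B := S.mem_B (isIntegral_const_L0 A (M * q * q) c hcc) h20 h11 h02
  refine ord11_of_cert S hA (jdF M 1 (one_dvd M)) jInt (coe_jdF_one M)
    (isIntegral_t11o_j A q M) 𝔪 hi hw 1 one_pos ⟨c, hcB⟩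
    ((⟨eps1o A q M, S.eps1o_mem_B⟩ : C.B) ^ 3) (pow_not_mem C 𝔪 hw 3) ?_
  intro h1 h2
  have hf11 := f11o_mem11 A q M B k hB hq (jdF M 1 (one_dvd M)) jInt (coe_jdF_one M)
  have e1 : (⟨(E11o A q M * f11o A q M (jdF M 1 (one_dvd M)) jInt (coe_jdF_one M)) ^ 1
        * ((⟨c, hcB⟩ : C.B) : ↥(L0 A (M * q * q))), h1⟩ : ↥(V11o A q M B k hB hq))
      = ⟨E11o A q M, E11o_mem11 A q M B k hB hq⟩ * ⟨_, hf11⟩ * ⟨c, h11⟩ := by
    apply Subtype.ext
    show (E11o A q M * f11o A q M (jdF M 1 (one_dvd M)) jInt (coe_jdF_one M)) ^ 1 * c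
      = E11o A q M * f11o A q M (jdF M 1 (one_dvd M)) jInt (coe_jdF_one M) * c
    rw [pow_one]
  have e2 : (⟨(((⟨eps1o A q M, S.eps1o_mem_B⟩ : C.B) ^ 3 : C.B) : ↥(L0 A (M * q * q))), h2⟩ :
      ↥(V11o A q M B k hB hq)) = ⟨eps1o A q M, eps1o_mem11 A q M B k hB hq⟩ ^ 3 := by
    apply Subtype.ext
    rfl
  have hu : coeffMap (Int.castRingHom (kV A)) jInt = jqModC (kV A) := by
    rw [jInt, qExpand_one_apply, coeffMap_jqModC]
  have hHU : HU A q M = jqModC (kV A) ^ (q - 1) := by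
    rw [HU_eq]
    exact q23_unit_eq (K := kV A) h23
  have ha0 : algebraMap (kV A) (LaurentSeries (kV A))
      (resV A ⟨epsK q B, epsK_mem A q M B k hB hq⟩) ≠ 0 :=
    (map_ne_zero _).2 hε
  rw [e1, e2, map_mul, map_mul, map_pow, s11_E11 A q M B k hB hq hA, s11_eps1,
    s11_f11o A q M B k hB hq _ _ _ hA, hs11, hu, q23_thetaL_pow (K := kV A) h23, ← hHU,
    map_inv₀]
  field_simp

end Ord11

end Fermat.Agent.S36.NU.H65

end
end
-- ==== END Fermat.Agent.S36.NU.H65_Ord11Q23
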