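-- GENERATED (merged mirror, NOTES/tools/trim/merge3_helper67.py): 6 modules of the originals, bodies verbatim.
import Fermat.Agent.Zm.S36_L12_000
import Fermat.Agent.Zm.S36_L14_001
import Fermat.Agent.Zm.S36_L13_000
import Fermat.Agent.Zm.S36_L14_000
import Fermat.Agent.Zm.S36_L11_001
import Fermat.Agent.Zm.S36_L04_001
import Fermat.Agent.Zm.S35_L13_001
import Fermat.Agent.Zm.S35_L14_001
import Fermat.Agent.Zm.S36_L04_000
import Fermat.Agent.Zm.S36_L06_001

-- ==== BEGIN Fermat.Agent.S36.NU.H74_HssAsm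
section

/-!
# S36 / NU-B, leaf HSS-ASM, generic core (helper74)

Setting of helper23's `totM` (level `N = M q²`, `q ∤ M` tame, `C = FM A M`), a chart `C` with
helper99's `ChartL0` hypotheses (valuation rings `V20o`, `V11o`, `V02o`, indices `(1, q-1, 1)`,
`B` cut out of the integral closure of `K^ur[j]`), a coordinate `f ∈ F_M` with integral expansion
`u₀` (`u = incAA f`, `u'' = incBB f`).

* `charP_FM` : the residue field of level `M` has characteristic `q`;
* `mem_B_uo`, `mem_B_u2o` : `u`, `u''` lie in `B` (from horizontal integrality and the three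
  valuations);
* `hss_core_at` : **LOCEQ at one supersingular point** from the pole data
  (`ū - c` a local coordinate, `c ∈ 𝔽_{q²}`, `ord (rd (t₂₀/q)) = -q`): generic in `(f, u₀)`;
* `hss_core` : the hypothesis `hss` of `H99.pointData_of_dichotomy` on a set `SS` of points with
  pole data.
-/

set_option autoImplicit false
set_option synthInstance.maxHeartbeats 400000
set_option maxHeartbeats 1000000
set_option linter.style.haveILetI false
set_option linter.unusedSectionVars false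

noncomputable section

open ModularCurve AlgebraicCurve Polynomial

namespace Fermat.Agent.S36.NU.H74

open Fermat.Agent.S24 Fermat.Agent.BAD.H88 Fermat.Agent.S28 Fermat.Agent.S28.H73
  Fermat.Agent.RED.H73 Fermat.Agent.RED.H17 Fermat.Agent.S36.NU.H88 Fermat.Agent.S36.NU.H23
  Fermat.Agent.S36.NU.H16 Fermat.Agent.S36.NU.H24 Fermat.Agent.S36.NU.H65
  Fermat.Agent.S36.NU.H79 Fermat.Agent.S36.NU.H41 Fermat.Agent.BAD Fermat.Agent.RED
  Fermat.Agent.S36.NU.H99

section Core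

variable (A : ValuationSubring Kbar) (q M : ℕ) (B k : ℤ) (hB : B * M + k * q = 1) (hq : q.Prime)
  [NeZero M] [NeZero q] [NeZero (M * q)] [NeZero (M * q * q)]

include hq in
/-- The residue field of level `M` has characteristic `q`. -/
theorem charP_FM (hA : A.LiesOverPrime q) : CharP (FM A M) q := by
  haveI : CharP (kV A) q := Fermat.Agent.BAD.H82.charP_kV A hq hA
  exact charP_of_injective_algebraMap (algebraMap (kV A) (FM A M)).injective q

variable {R : Type*} [CommRing R] [Algebra R ↥(L0 A (M * q * q))]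

/-- The residue of `x` on the component `C₂₀` of a chart, as an element of `FM A M`. -/
def rd0 (C : @Chart R ↥(L0 A (M * q * q)) (kV A) (Fin 3) (kap3 (FM A M) (FM A M)) _ _ _ _ _
    (algkM A M)) (x : ↥(L0 A (M * q * q))) : FM A M :=
  @Chart.rd R ↥(L0 A (M * q * q)) (kV A) (Fin 3) (kap3 (FM A M) (FM A M)) _ _ _ _ _
    (algkM A M) C 0 x

theorem rd0_eq (C : @Chart R ↥(L0 A (M * q * q)) (kV A) (Fin 3) (kap3 (FM A M) (FM A M)) _ _ _
    _ _ (algkM A M)) (x : ↥(L0 A (M * q * q))) :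
    rd0 A q M C x = @Chart.rd R ↥(L0 A (M * q * q)) (kV A) (Fin 3) (kap3 (FM A M) (FM A M))
      _ _ _ _ _ (algkM A M) C 0 x := rfl

/-- `u = incAA f ∈ B`. -/
theorem mem_B_uo
    {k' ι : Type*} {κ : ι → Type*} [Field k'] [∀ i, Field (κ i)] [∀ i, Algebra k' (κ i)]
    {C : Chart R ↥(L0 A (M * q * q)) k' ι κ} {qR : R} {e : ι → ℕ} {i₂₀ i₁₁ i₀₂ : ι}
    (S : ChartL0 A q M B k hB hq C qR e i₂₀ i₁₁ i₀₂)
    (f : FN M) (u₀ : LaurentSeries ℤ) (hf : (f : LaurentSeries Kbar) = H65.intSer Kbar u₀)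
    (hint : IsIntegral ↥(Algebra.adjoin ↥(Kur A)
      ({j0 A (M * q * q)} : Set ↥(L0 A (M * q * q)))) (uo A q M f u₀ hf))
    (h20 : uo A q M f u₀ hf ∈ V20o A q M) (h11 : uo A q M f u₀ hf ∈ V11o A q M B k hB hq)
    (h02 : uo A q M f u₀ hf ∈ V02o A q M B k hB) : uo A q M f u₀ hf ∈ C.B :=
  S.mem_B hint h20 h11 h02

/-- `u'' = incBB f ∈ B`. -/
theorem mem_B_u2o
    {k' ι : Type*} {κ : ι → Type*} [Field k'] [∀ i, Field (κ i)] [∀ i, Algebra k' (κ i)]
    {C : Chart R ↥(L0 A (M * q * q)) k' ι κ} {qR : R} {e : ι → ℕ} {i₂₀ i₁₁ i₀₂ : ι}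
    (S : ChartL0 A q M B k hB hq C qR e i₂₀ i₁₁ i₀₂)
    (f : FN M) (u₀ : LaurentSeries ℤ) (hf : (f : LaurentSeries Kbar) = H65.intSer Kbar u₀)
    (hint : IsIntegral ↥(Algebra.adjoin ↥(Kur A)
      ({j0 A (M * q * q)} : Set ↥(L0 A (M * q * q)))) (u2o A q M f u₀ hf))
    (h20 : u2o A q M f u₀ hf ∈ V20o A q M) (h11 : u2o A q M f u₀ hf ∈ V11o A q M B k hB hq)
    (h02 : u2o A q M f u₀ hf ∈ V02o A q M B k hB) : u2o A q M f u₀ hf ∈ C.B :=
  S.mem_B hint h20 h11 h02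

include hB hq in
/-- **LOCEQ at one supersingular point**, generic in the coordinate `(f, u₀)`: from the pole
data at `z` (`ū - c` a local coordinate, `c ∈ 𝔽_{q²}`, `rd (t₂₀/q)` has a pole of order `q`), all
components pass through `𝔪_z` and there is a local equation datum at `𝔪_z`. -/
theorem hss_core_at (hA : A.LiesOverPrime q) :
    letI := algkM A M
    ∀ (C : Chart R ↥(L0 A (M * q * q)) (kV A) (Fin 3) (kap3 (FM A M) (FM A M)))
      (qR : R) (e : Fin 3 → ℕ) (_ : ChartL0 A q M B k hB hq C qR e 0 1 2)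
      (f : FN M) (u₀ : LaurentSeries ℤ) (hf : (f : LaurentSeries Kbar) = H65.intSer Kbar u₀)
      (_ : H65.ThetaNZ q (coeffMap (Int.castRingHom (kV A)) u₀))
      (_ : uo A q M f u₀ hf ∈ C.B) (_ : u2o A q M f u₀ hf ∈ C.B)
      (z : Place (kV A) (FM A M)) (c : kV A)
      (_ : z.ord (rd0 A q M C (uo A q M f u₀ hf) - algebraMap (kV A) (FM A M) c) = 1)
      (_ : c ^ q ^ 2 = c)
      (_ : z.ord (rd0 A q M C (d20o A q M f u₀ hf)) = -(q : ℤ))
      (𝔪 : Ideal C.B) (_ : 𝔪.IsMaximal)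
      (_ : ∀ β : C.B, β ∈ 𝔪 ↔ VanAt z (C.rdB 0 β)),
      (∀ i, C.Icomp i ≤ 𝔪) ∧ Nonempty (LocEq C qR 𝔪) := by
  letI := algkM A M
  intro C qR e S f u₀ hf hθ huB hu2B z c hu hc hd 𝔪 hmax hvan
  haveI : 𝔪.IsPrime := hmax.isPrime
  haveI : CharP (kap3 (FM A M) (FM A M) 0) q := charP_FM A q M hq hA
  exact locEq_ss_modV A q M B k hB hq C qR S.hqR hA S.hqV (ChartL0.Hint A q M) S.hBH
    (S.hqH (hq := hq)) S.critH e S.hE 0 1 2 S.hcases (by decide) (by decide) (by decide)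
    S.he₂₀ S.he₁₁ S.he₀₂ S.hV20 S.hV11 S.hV02 f u₀ hf hθ huB hu2B z c hu hc hd 𝔪 hvan

include hB hq in
/-- **The hypothesis `hss`** of `H99.pointData_of_dichotomy` on a set `SS` of points of the curve
of level `M` with pole data, generic in the coordinate `(f, u₀)`. -/
theorem hss_core (hA : A.LiesOverPrime q) :
    letI := algkM A M
    ∀ (C : Chart R ↥(L0 A (M * q * q)) (kV A) (Fin 3) (kap3 (FM A M) (FM A M)))
      (qR : R) (e : Fin 3 → ℕ) (_ : ChartL0 A q M B k hB hq C qR e 0 1 2)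
      (f : FN M) (u₀ : LaurentSeries ℤ) (hf : (f : LaurentSeries Kbar) = H65.intSer Kbar u₀)
      (_ : H65.ThetaNZ q (coeffMap (Int.castRingHom (kV A)) u₀))
      (_ : uo A q M f u₀ hf ∈ C.B) (_ : u2o A q M f u₀ hf ∈ C.B)
      (SS : Set (Place (kV A) (FM A M)))
      (_ : ∀ z ∈ SS, ∃ c : kV A,
        z.ord (rd0 A q M C (uo A q M f u₀ hf) - algebraMap (kV A) (FM A M) c) = 1 ∧
        c ^ q ^ 2 = c ∧ z.ord (rd0 A q M C (d20o A q M f u₀ hf)) = -(q : ℤ)),
      ∀ z ∈ SS, ∀ 𝔪 : Ideal C.B, 𝔪.IsMaximal →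
        (∀ β : C.B, β ∈ 𝔪 ↔ VanAt z (C.rdB 0 β)) → Nonempty (LocEq C qR 𝔪) := by
  letI := algkM A M
  intro C qR e S f u₀ hf hθ huB hu2B SS hpole z hz 𝔪 hmax hvan
  obtain ⟨c, hu, hc, hd⟩ := hpole z hz
  exact (hss_core_at A q M B k hB hq hA C qR e S f u₀ hf hθ huB hu2B z c hu hc hd 𝔪 hmax
    hvan).2

end Core

end Fermat.Agent.S36.NU.H74

end
end
-- ==== END Fermat.Agent.S36.NU.H74_HssAsm

-- ==== BEGIN Fermat.Agent.S36.NU.H79_NuM
section

/-!
# S36 / NU-B, ND (helper79): the modular instance of `NUData`, assembly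

Level `N = M q²`, `q ∤ M` tame, `A` over `q`.

* `NmFib` : the fibre part of the modular `NUPre` (NM-FIB: norms of functions regular / without
  zero or pole on the fibre of a supersingular point), as a hypothesis;
* `nuPreM` : the modular `NUPre`: `T = totM`, `T' = TlowM`, `SS = ssM`, the norm half of
  helper89 (`NalphaM`, `NbetaM`, `resId`, `resFr`, `normAlpha1`, .., `normBeta2`), the places
  half of helper23 (`zA`, `zB`, `nodeA`, `nodeB`, `ptA_id`, .., `deg_ptM`) and the fibre part;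
* `nuM` : the modular `NUData` (`NUPre.toNUData`: GLUE3 from the norm formulas);
* `isNuM_nuM`, `stmt_NuM_of` : `Stmt_NuM` from the three series forms `SerA2`, `SerB1`, `SerB2`
  and the fibre part.
-/

set_option autoImplicit false
set_option synthInstance.maxHeartbeats 400000
set_option maxHeartbeats 1000000
set_option linter.style.haveILetI false
set_option linter.unusedSectionVars false

noncomputable section

open ModularCurve AlgebraicCurve
open Fermat.Agent.S24 Fermat.Agent.BAD.H88 Fermat.Agent.S28 Fermat.Agent.S28.H73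
open Fermat.Agent.RED.H73 Fermat.Agent.RED.H17 Fermat.Agent.S36.NU.H88
open Fermat.Agent.Lib.HeckeComm Fermat.Agent.S36.NU.H23 Fermat.Agent.S36.NU.H74
open Fermat.Agent.S36.NU.H89

namespace Fermat.Agent.S36.NU.H79

open Fermat.Agent.BAD Fermat.Agent.RED Fermat.Agent.BAD.H79

section NuM

variable (A : ValuationSubring Kbar) (q M : ℕ) (B k : ℤ) (hB : B * M + k * q = 1) (hq : q.Prime)
  [NeZero M] [NeZero q] [NeZero (M * q)] [NeZero (M * q * q)]
  (hqM : ¬ q ∣ M) (hA : A.LiesOverPrime q) (ht : H91.TameAt M q)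

/-- The embedding of `resId` is the identity on series. -/
theorem coe_resId_j (y : F1 A q M) :
    (((resId A q M B k hB hq hA).j y : FM A M) : LaurentSeries (kV A))
      = (y : LaurentSeries (kV A)) :=
  coe_cF1 A q M B k hB hq hA y

/-- The embedding of `resFr` is `t ↦ t ^ q` on series. -/
theorem coe_resFr_j (y : F1 A q M) :
    (((resFr A q M B k hB hq hqM hA).j y : FM A M) : LaurentSeries (kV A))
      = qExpand (kV A) q (y : LaurentSeries (kV A)) := by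
  show ((FrM A q M hq hqM hA (cF1 A q M B k hB hq hA y) : FM A M) : LaurentSeries (kV A)) = _
  rw [coe_FrM, coe_cF1]

/-- **The fibre part of the modular `NUPre`** (NM-FIB). -/
structure NmFib : Prop where
  fibα : ∀ z ∈ ssM A q M, ∀ h : ↥(L0 A (M * q * q)),
    (∀ P : Place Kbar (FN (M * q * q)), rhoM A q M hq hqM hA ht P = z →
      P.ord (algebraMap ↥(L0 A (M * q * q)) (FN (M * q * q)) h) = 0) →
    ∀ Q : Place Kbar (FN (M * q)),
      (TlowM A q M B k hB hq hqM hA ht).ρ Q = zA A q M B k hB hq hA z →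
      Q.ord (NalphaM A q M h) = 0
  fibβ : ∀ z ∈ ssM A q M, ∀ h : ↥(L0 A (M * q * q)),
    (∀ P : Place Kbar (FN (M * q * q)), rhoM A q M hq hqM hA ht P = z →
      P.ord (algebraMap ↥(L0 A (M * q * q)) (FN (M * q * q)) h) = 0) →
    ∀ Q : Place Kbar (FN (M * q)),
      (TlowM A q M B k hB hq hqM hA ht).ρ Q = zB A q M B k hB hq hqM hA z →
      Q.ord (NbetaM A q M h) = 0
  regα : ∀ z ∈ ssM A q M, ∀ h : ↥(L0 A (M * q * q)),
    (∀ P : Place Kbar (FN (M * q * q)), rhoM A q M hq hqM hA ht P = z →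
      RegAt P (algebraMap ↥(L0 A (M * q * q)) (FN (M * q * q)) h)) →
    ∀ Q : Place Kbar (FN (M * q)),
      (TlowM A q M B k hB hq hqM hA ht).ρ Q = zA A q M B k hB hq hA z →
      RegAt Q (NalphaM A q M h)

variable (hSA2 : SerA2 A q M B k hB hq hqM hA) (hSB1 : SerB1 A q M hq hqM hA)
  (hSB2 : SerB2 A q M B k hB hq) (hF : NmFib A q M B k hB hq hqM hA ht)

/-- **The modular `NUPre`.** -/
def nuPreM : NUPreM A q M :=
  letI := algkM A M
  { T := totM A q M B k hB hq hqM hA ht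
    T' := TlowM A q M B k hB hq hqM hA ht
    i₂₀ := 0
    i₁₁ := 1
    i₀₂ := 2
    cases := by intro i; fin_cases i <;> simp
    ne₁ := by decide
    ne₂ := by decide
    ne₃ := by decide
    q := q
    Nα := NalphaM A q M
    Nβ := NbetaM A q M
    A₂₀ := resId A q M B k hB hq hA
    A₁₁ := resId A q M B k hB hq hA
    A₀₂ := resFr A q M B k hB hq hqM hA
    B₂₀ := resFr A q M B k hB hq hqM hA
    B₁₁ := resId A q M B k hB hq hA
    B₀₂ := resId A q M B k hB hq hA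
    fA₂₀ := rfl
    fA₁₁ := rfl
    fA₀₂ := rfl
    fB₂₀ := rfl
    fB₁₁ := rfl
    fB₀₂ := rfl
    normα₁ := fun h hu => normAlpha1 A q M B k hB hq hqM hA ht h hu
    normα₂ := fun h hu => normAlpha2 A q M B k hB hq hqM hA ht hSA2 h hu
    normβ₁ := fun h hu => normBeta1 A q M B k hB hq hqM hA ht hSB1 h hu
    normβ₂ := fun h hu => normBeta2 A q M B k hB hq hqM hA ht hSB2 h hu
    SS := ssM A q M
    zα := zA A q M B k hB hq hA
    zβ := zB A q M B k hB hq hqM hA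
    nodeα := fun z hz => nodeA A q M B k hB hq hqM hA ht z hz
    nodeβ := fun z hz => nodeB A q M B k hB hq hqM hA ht z hz
    fibα := hF.fibα
    fibβ := hF.fibβ
    ptA₂₀ := fun z _ y a h =>
      ptA_id A q M B k hB hq hA _ (coe_resId_j A q M B k hB hq hA) z y a h
    ptA₁₁ := fun z _ y a h =>
      ptA_id A q M B k hB hq hA _ (coe_resId_j A q M B k hB hq hA) z y a h
    ptA₀₂ := fun z _ y a h =>
      ptA_Fr A q M B k hB hq hqM hA ht _ (coe_resFr_j A q M B k hB hq hqM hA) z y a h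
    ptB₂₀ := fun z _ y a h =>
      ptB_Fr A q M B k hB hq hqM hA _ (coe_resFr_j A q M B k hB hq hqM hA) z y a h
    ptB₁₁ := fun z _ y a h =>
      ptB_id A q M B k hB hq hqM hA ht _ (coe_resId_j A q M B k hB hq hA) z y a h
    ptB₀₂ := fun z hz y a h =>
      ptB_id2 A q M B k hB hq hqM hA ht _ (coe_resId_j A q M B k hB hq hA) z hz y a h
    regα := hF.regα
    deg_one := fun z _ i => deg_ptM A q M hq hqM hA ht i z }

/-- **The modular `NUData`.** -/
def nuM : NUDataM A q M :=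
  letI := algkM A M
  haveI : IsAlgClosed (kV A) := isAlgClosed_kV A
  haveI : Infinite (kV A) := IsAlgClosed.instInfinite
  (nuPreM A q M B k hB hq hqM hA ht hSA2 hSB1 hSB2 hF).toNUData
    (Fermat.Agent.S36.NU.H74.hasPrincipalDivisors_FN (M * q * q)) hq.two_le

/-- `nuM` is a modular instance of `NUData`. -/
theorem isNuM_nuM :
    IsNuM A q M B k hB hq hqM hA ht (nuM A q M B k hB hq hqM hA ht hSA2 hSB1 hSB2 hF) where
  hT := rfl
  hT' := rfl
  hSS := rfl
  hq := rfl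
  hNα := fun _ => rfl
  hNβ := fun _ => rfl
  hi₂₀ := rfl
  hi₁₁ := rfl
  hi₀₂ := rfl

include hSA2 hSB1 hSB2 hF in
/-- **ND**: `Stmt_NuM` from the three series forms and the fibre part. -/
theorem stmt_NuM_of : Stmt_NuM A q M B k hB hq hqM hA ht :=
  ⟨nuM A q M B k hB hq hqM hA ht hSA2 hSB1 hSB2 hF,
    isNuM_nuM A q M B k hB hq hqM hA ht hSA2 hSB1 hSB2 hF⟩

end NuM

end Fermat.Agent.S36.NU.H79

end
end
-- ==== END Fermat.Agent.S36.NU.H79_NuM

-- ==== BEGIN Fermat.Agent.S36.NU.H82_CuspKur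
section

/-!
# S36 / NU-B, leaf CUSPS (helper82): `Stmt_CuspKur`

Descent of integrality from `ℚ̄[1/j]` to `K^ur[1/j]` for inertia-fixed functions: a corollary of
helper88's `H88.isIntegral_adjoin_L0` (generic in the coordinate).
-/

set_option autoImplicit false
set_option synthInstance.maxHeartbeats 400000
set_option maxHeartbeats 1000000
set_option linter.unusedSectionVars false
set_option linter.style.haveILetI false

noncomputable section

open ModularCurve Polynomial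
open Fermat.Agent.S24 Fermat.Agent.BAD.H88
open Fermat.Agent.S28 Fermat.Agent.S28.H73 Fermat.Agent.RED.H73 Fermat.Agent.RED.H17
open Fermat.Agent.S36.NU.H88 Fermat.Agent.S36.NU.H23 Fermat.Agent.S36.NU.H99

namespace Fermat.Agent.S36.NU.H82

variable (A : ValuationSubring Kbar)
variable (q M : ℕ) [NeZero M] [NeZero q] [NeZero (M * q)] [NeZero (M * q * q)]

/-- The coordinate `u = 1 / j` as a function of level `N`. -/
theorem coe_uoo : ((uoo A q M : ↥(L0 A (M * q * q))) : FN (M * q * q))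
    = (_root_.Fermat.Agent.S24.jF (M * q * q))⁻¹ := rfl

/-- **(CUSP-KUR)**. -/
theorem stmt_CuspKur : Stmt_CuspKur A q M := by
  intro x hx
  refine isIntegral_adjoin_L0 A (M * q * q) (uoo A q M) x ?_
  rw [coe_uoo]
  exact hx

end Fermat.Agent.S36.NU.H82

end
end
-- ==== END Fermat.Agent.S36.NU.H82_CuspKur

-- ==== BEGIN Fermat.Agent.S36.NU.H87_NrB2
section
attribute [local instance 10000] SubalgebraClass.toAlgebra
attribute [local instance 10000] HahnSeries.powerSeriesAlgebra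

/-!
# S36 / NU-MOD, leaf NM-B2 (helper87): the `NRData` of `L0 (M q²) / L0 (M q)` along `β`, above `V₂`

Level `N = M q²`, `q ∤ M`; `β : F_{M q} → F_{M q²}`, `x(t) ↦ x(t^q)`, of degree `q`;
`E₀ = L0 A (M q)`, `L₀ = L0 A (M q²)`, algebra `H26.algL0Along A β` (`algB`).
Above the second valuation `V₂ = V₁ ∘ w_q` of level `M q` (`H51.V2o`, uniformiser `q`, residue
map `rE2 = red₁ ∘ w_q` onto `C' = FM A (M q)`) lie `V₀₂` (`e = 1`) and `V₁₁` (`e = q - 1`,
uniformiser `j(t^{q²}) - j(t)`), both with residue field `C'`.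

* `finrank_FB : [F_{M q²} : β F_{M q}] = q`, `finrank_L0_B`;
* `rE2 : V2o → FM A (M q)`, `rE2_surjective`; `r02A : V02o → FM A (M q)` (`coe_r02A = s02`);
* `nrB2 : NRData (L0 (M q)) (L0 (M q²)) C' (Fin 2) (kap2 C' C')` with `V = (V02o, V11o)`,
  `e = (1, q - 1)`; `nrB2_hdeg`;
* `normB2`, `normB2_F` : `red₂ (N_β h) = red₀₂ h * red₁₁ h ^ (q - 1)` in `k((t))`.
-/

set_option autoImplicit false
set_option synthInstance.maxHeartbeats 400000
set_option maxHeartbeats 1000000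
set_option linter.style.haveILetI false
set_option linter.unusedSectionVars false

noncomputable section

open ModularCurve AlgebraicCurve
open Fermat.Agent.S24 Fermat.Agent.BAD.H88 Fermat.Agent.S28 Fermat.Agent.S28.H73
open Fermat.Agent.RED.H73 Fermat.Agent.RED.H17 Fermat.Agent.S36.NU.H88
open Fermat.Agent.S36.NU.H23 Fermat.Agent.Lib.HeckeComm Fermat.Agent.S36.H44

namespace Fermat.Agent.S36.NU.H87

section NrB2

variable (A : ValuationSubring Kbar) (q M : ℕ) (B k : ℤ) (hB : B * M + k * q = 1) (hq : q.Prime)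
  [NeZero M] [NeZero q] [NeZero (M * q)] [NeZero (M * q * q)]
  (hqM : ¬ q ∣ M) (hA : A.LiesOverPrime q)

/-! ### The degree of `β` -/

/-- `β ∘ α = α ∘ β : F_M → F_{M q²}`. -/
theorem beta_comp_alpha :
    (heckeBetaBar Kbar (M * q) q).toRingHom.comp (heckeAlphaBar Kbar M q).toRingHom
      = (heckeAlphaBar Kbar (M * q) q).toRingHom.comp (heckeBetaBar Kbar M q).toRingHom := by
  ext x
  simp only [RingHom.comp_apply, AlgHom.toRingHom_eq_coe, RingHom.coe_coe,
    coe_heckeBetaBar, coe_heckeAlphaBar]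

include hq hqM in
/-- **`[F_{M q²} : β F_{M q}] = q`**. -/
theorem finrank_FB :
    finrankAlong Kbar (heckeBetaBar Kbar (M * q) q) = q := by
  have h1 := finrank_comp_h44 (heckeAlphaBar Kbar M q).toRingHom
    (heckeBetaBar Kbar (M * q) q).toRingHom
  have h2 := finrank_comp_h44 (heckeBetaBar Kbar M q).toRingHom
    (heckeAlphaBar Kbar (M * q) q).toRingHom
  rw [beta_comp_alpha q M, h2] at h1
  have ea : finrankHom (heckeAlphaBar Kbar M q).toRingHom = q + 1 :=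
    Fermat.Agent.RED.H95.finrankAlong_alpha hq hqM
  have eb : finrankHom (heckeBetaBar Kbar M q).toRingHom = q + 1 :=
    Fermat.Agent.RED.H95.finrankAlong_beta hq hqM
  have ec : finrankHom (heckeAlphaBar Kbar (M * q) q).toRingHom = q := finrank_FA q M hq
  rw [ea, eb, ec] at h1
  have h3 : finrankHom (heckeBetaBar Kbar (M * q) q).toRingHom = q :=
    (Nat.eq_of_mul_eq_mul_left (Nat.succ_pos q) h1).symm
  exact h3

include hq in
theorem finite_FB : FiniteAlong Kbar (heckeBetaBar Kbar (M * q) q) :=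
  Fermat.Agent.RED.H95.finiteAlong_beta hq

/-- `L0 (M q²)` as an algebra over `L0 (M q)` along `β`. -/
@[reducible] def algB : Algebra ↥(L0 A (M * q)) ↥(L0 A (M * q * q)) :=
  Fermat.Agent.S36.NU.H26.algL0Along A (heckeBetaBar Kbar (M * q) q)
    (Fermat.Agent.S36.NU.H26.arithEquivariant_beta (M * q) q)

/-- The structure map of `algB`. -/
def mapB : ↥(L0 A (M * q)) →+* ↥(L0 A (M * q * q)) :=
  Fermat.Agent.S36.NU.H26.mapL0 A (heckeBetaBar Kbar (M * q) q)
    (Fermat.Agent.S36.NU.H26.arithEquivariant_beta (M * q) q)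

theorem coe_mapB (a : ↥(L0 A (M * q))) :
    ((mapB A q M a : ↥(L0 A (M * q * q))) : FN (M * q * q))
      = heckeBetaBar Kbar (M * q) q (a : FN (M * q)) := rfl

theorem algebraMap_algB (a : ↥(L0 A (M * q))) :
    @algebraMap ↥(L0 A (M * q)) ↥(L0 A (M * q * q)) _ _ (algB A q M) a = mapB A q M a := rfl

include hq in
theorem finite_L0_B :
    @Module.Finite ↥(L0 A (M * q)) ↥(L0 A (M * q * q)) _ _ (algB A q M).toModule :=
  Fermat.Agent.S36.NU.H26.finite_L0_along A (heckeBetaBar Kbar (M * q) q)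
    (Fermat.Agent.S36.NU.H26.arithEquivariant_beta (M * q) q) (finite_FB q M hq)

include hq hqM in
/-- **`[L0 (M q²) : L0 (M q)] = q`** along `β`. -/
theorem finrank_L0_B :
    @Module.finrank ↥(L0 A (M * q)) ↥(L0 A (M * q * q)) _ _ (algB A q M).toModule = q :=
  (Fermat.Agent.S36.NU.H26.finrank_L0_along A (heckeBetaBar Kbar (M * q) q)
    (Fermat.Agent.S36.NU.H26.arithEquivariant_beta (M * q) q) (finite_FB q M hq)).trans
    (finrank_FB q M hq hqM)

/-! ### The second valuation of level `M q` on the inertia-fixed functions -/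

/-- The residue map of `V2o = V₂ ∩ L0 (M q)`, with values in the residue field of level `M q`. -/
def rE2 : ↥(Fermat.Agent.S36.NU.H51.V2o A q M B k hB hq) →+* FM A (M * q) :=
  resRed (L0 A (M * q)) (Fermat.Agent.BAD.H88.V2 A q M k B (hab_of_hB q M B k hB) hq)
    (Fermat.Agent.BAD.H88.red2 A q M k B (hab_of_hB q M B k hB) hq)

/-- The residue map of `V2o`, with values in `k((t))`. -/
def sE2 : ↥(Fermat.Agent.S36.NU.H51.V2o A q M B k hB hq) →+* LaurentSeries (kV A) :=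
  (IntermediateField.val _).toRingHom.comp (rE2 A q M B k hB hq)

theorem coe_rE2 (x : ↥(Fermat.Agent.S36.NU.H51.V2o A q M B k hB hq)) :
    ((rE2 A q M B k hB hq x : FM A (M * q)) : LaurentSeries (kV A)) = sE2 A q M B k hB hq x :=
  rfl

theorem mem_V2o_iff (x : ↥(L0 A (M * q))) :
    x ∈ Fermat.Agent.S36.NU.H51.V2o A q M B k hB hq
      ↔ wL q M B k hB hq (x : FN (M * q)) ∈ V20 A (M * q) := Iff.rfl

theorem sE2_mk (x : ↥(L0 A (M * q))) (h : x ∈ Fermat.Agent.S36.NU.H51.V2o A q M B k hB hq) :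
    sE2 A q M B k hB hq ⟨x, h⟩
      = gaussRedV A ⟨((wL q M B k hB hq (x : FN (M * q)) : FN (M * q)) : LaurentSeries Kbar),
          h⟩ := rfl

theorem sE2_eq_red20 (x : ↥(L0 A (M * q)))
    (h : x ∈ Fermat.Agent.S36.NU.H51.V2o A q M B k hB hq)
    (h' : wL q M B k hB hq (x : FN (M * q)) ∈ V20 A (M * q)) :
    sE2 A q M B k hB hq ⟨x, h⟩
      = ((red20 A (M * q) ⟨wL q M B k hB hq (x : FN (M * q)), h'⟩ : F20 A (M * q)) :
          LaurentSeries (kV A)) := rfl

theorem rE2_eq_zero_of_not_isUnit (x : ↥(Fermat.Agent.S36.NU.H51.V2o A q M B k hB hq))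
    (hx : ¬ IsUnit x) : rE2 A q M B k hB hq x = 0 :=
  resRed_eq_zero_of_not_isUnit (L0 A (M * q)) (Fermat.Agent.BAD.H88.V2 A q M k B (hab_of_hB q M B k hB) hq)
    (Fermat.Agent.BAD.H88.red2 A q M k B (hab_of_hB q M B k hB) hq)
    (Fermat.Agent.BAD.H88.red2_eq_zero_iff A q M k B (hab_of_hB q M B k hB) hq) x hx

include hq hqM hA in
/-- The residue map of `V2o` is onto the residue field of level `M q`. -/
theorem rE2_surjective : Function.Surjective (rE2 A q M B k hB hq) := by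
  intro y
  obtain ⟨a, rfl⟩ := rEA_surjective A q M hq hqM hA y
  have h1 : wL q M B k hB hq ((a : ↥(L0 A (M * q))) : FN (M * q)) ∈ L0 A (M * q) :=
    Fermat.Agent.S36.NU.H51.wq_mem_L0 A q M k B (hab_of_hB q M B k hB) hq _
      (a : ↥(L0 A (M * q))).2
  have e : wL q M B k hB hq (wL q M B k hB hq ((a : ↥(L0 A (M * q))) : FN (M * q)))
      = ((a : ↥(L0 A (M * q))) : FN (M * q)) := wq_wq q M k B (hab_of_hB q M B k hB) hq _
  have h2 : (⟨_, h1⟩ : ↥(L0 A (M * q))) ∈ Fermat.Agent.S36.NU.H51.V2o A q M B k hB hq := by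
    rw [mem_V2o_iff]
    show wL q M B k hB hq (wL q M B k hB hq ((a : ↥(L0 A (M * q))) : FN (M * q)))
      ∈ V20 A (M * q)
    rw [e]
    exact a.2
  refine ⟨⟨⟨_, h1⟩, h2⟩, ?_⟩
  apply Subtype.ext
  rw [coe_rE2, coe_rE, sE2_mk]
  show _ = gaussRedV A ⟨(((a : ↥(L0 A (M * q))) : FN (M * q)) : LaurentSeries Kbar), a.2⟩
  congr 1
  exact Subtype.ext (congrArg (fun z : FN (M * q) => (z : LaurentSeries Kbar)) e)

/-! ### The uniformiser `q` of `V2o` -/

include hA in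
theorem val2_piE_lt_one :
    (Fermat.Agent.S36.NU.H51.V2o A q M B k hB hq).valuation (piE A q (M * q)) < 1 :=
  (Fermat.Agent.S36.NU.H51.isLowVal_V2 A q M k B (hab_of_hB q M B k hB) hq hA).res_val_q_lt_one
    hA

include hA in
theorem piE_mem2 : piE A q (M * q) ∈ Fermat.Agent.S36.NU.H51.V2o A q M B k hB hq :=
  (ValuationSubring.valuation_le_one_iff _ _).1 (le_of_lt (val2_piE_lt_one A q M B k hB hq hA))

include hA in
theorem rE2_piE : rE2 A q M B k hB hq ⟨piE A q (M * q), piE_mem2 A q M B k hB hq hA⟩ = 0 := by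
  apply rE2_eq_zero_of_not_isUnit
  intro hu
  have h1 := (ValuationSubring.valuation_eq_one_iff
    (Fermat.Agent.S36.NU.H51.V2o A q M B k hB hq)
    ⟨piE A q (M * q), piE_mem2 A q M B k hB hq hA⟩).1 hu
  exact (val2_piE_lt_one A q M B k hB hq hA).ne h1

include hA in
/-- `q` is a uniformiser of `V2o`. -/
theorem hE2_mod (a : ↥(L0 A (M * q)))
    (h : (Fermat.Agent.S36.NU.H51.V2o A q M B k hB hq).valuation a < 1) :
    (Fermat.Agent.S36.NU.H51.V2o A q M B k hB hq).valuation a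
      ≤ (Fermat.Agent.S36.NU.H51.V2o A q M B k hB hq).valuation (piE A q (M * q)) := by
  by_cases ha : a = 0
  · rw [ha, map_zero]; exact zero_le
  obtain ⟨m, hm⟩ :=
    (Fermat.Agent.S36.NU.H51.isLowVal_V2 A q M k B (hab_of_hB q M B k hB) hq hA).res_exact a ha
  exact Fermat.Agent.S36.NU.H82.val_le_of_eq_zpow _ (val2_piE_lt_one A q M B k hB hq hA)
    (piE_ne_zero A q (M * q) hq) hm h

/-! ### The maps `V2o → V..o` along `β` -/

include hq in
theorem hVE02B (a : ↥(L0 A (M * q)))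
    (ha : a ∈ Fermat.Agent.S36.NU.H51.V2o A q M B k hB hq) :
    mapB A q M a ∈ V02o A q M B k hB :=
  (beta_mem_V02_iff A q M B k hB hq (a : FN (M * q))).2 ha

theorem hVE11B (a : ↥(L0 A (M * q)))
    (ha : a ∈ Fermat.Agent.S36.NU.H51.V2o A q M B k hB hq) :
    mapB A q M a ∈ V11o A q M B k hB hq :=
  (beta_mem_V11_iff A q M B k hB hq (a : FN (M * q))).2 ha

/-! ### Compatibilities, in `k((t))` -/

include hq in
theorem s02_mapB (a : ↥(Fermat.Agent.S36.NU.H51.V2o A q M B k hB hq))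
    (h : mapB A q M (a : ↥(L0 A (M * q))) ∈ V02o A q M B k hB) :
    s02 A q M B k hB ⟨_, h⟩ = sE2 A q M B k hB hq a :=
  red02_beta A q M B k hB hq ((a : ↥(L0 A (M * q))) : FN (M * q)) a.2 h

include hA in
theorem s11_mapB (a : ↥(Fermat.Agent.S36.NU.H51.V2o A q M B k hB hq))
    (h : mapB A q M (a : ↥(L0 A (M * q))) ∈ V11o A q M B k hB hq) :
    s11 A q M B k hB hq ⟨_, h⟩ = sE2 A q M B k hB hq a :=
  red11_beta A q M B k hB hq hA ((a : ↥(L0 A (M * q))) : FN (M * q)) a.2 h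

/-! ### The residue map of `V02o` into the residue field of level `M q` -/

include hq hqM hA in
theorem s02_memA (x : ↥(V02o A q M B k hB)) :
    s02 A q M B k hB x ∈ redField A (modularFunctionFieldBar (M * q)) (hScM A (M * q)) := by
  rw [FMq_eq A q M hq hqM hA]
  exact s02_mem A q M B k hB hq hqM hA x

/-- The residue map of `V02o`, into the residue field of level `M q`. -/
def r02A : ↥(V02o A q M B k hB) →+* FM A (M * q) where
  toFun x := ⟨s02 A q M B k hB x, s02_memA A q M B k hB hq hqM hA x⟩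
  map_one' := Subtype.ext (map_one (s02 A q M B k hB))
  map_mul' x y := Subtype.ext (map_mul (s02 A q M B k hB) x y)
  map_zero' := Subtype.ext (map_zero (s02 A q M B k hB))
  map_add' x y := Subtype.ext (map_add (s02 A q M B k hB) x y)

theorem coe_r02A (x : ↥(V02o A q M B k hB)) :
    ((r02A A q M B k hB hq hqM hA x : FM A (M * q)) : LaurentSeries (kV A))
      = s02 A q M B k hB x := rfl

theorem r02A_eq_zero_of_not_isUnit (x : ↥(V02o A q M B k hB)) (hx : ¬ IsUnit x) :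
    r02A A q M B k hB hq hqM hA x = 0 := by
  apply Subtype.ext
  rw [coe_r02A, s02_eq_zero_of_not_isUnit A q M B k hB x hx]
  rfl

theorem r02A_mapB (a : ↥(Fermat.Agent.S36.NU.H51.V2o A q M B k hB hq))
    (h : mapB A q M (a : ↥(L0 A (M * q))) ∈ V02o A q M B k hB) :
    r02A A q M B k hB hq hqM hA ⟨_, h⟩ = rE2 A q M B k hB hq a := by
  apply Subtype.ext
  rw [coe_r02A, coe_rE2]
  exact s02_mapB A q M B k hB hq a h

theorem r11A_mapB (a : ↥(Fermat.Agent.S36.NU.H51.V2o A q M B k hB hq))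
    (h : mapB A q M (a : ↥(L0 A (M * q))) ∈ V11o A q M B k hB hq) :
    r11A A q M B k hB hq hqM hA ⟨_, h⟩ = rE2 A q M B k hB hq a := by
  apply Subtype.ext
  rw [coe_r11A, coe_rE2]
  exact s11_mapB A q M B k hB hq hA a h

theorem r02A_surjective : Function.Surjective (r02A A q M B k hB hq hqM hA) := by
  intro y
  obtain ⟨a, rfl⟩ := rE2_surjective A q M B k hB hq hqM hA y
  exact ⟨⟨_, hVE02B A q M B k hB hq a a.2⟩, r02A_mapB A q M B k hB hq hqM hA a _⟩

/-! ### Ramification -/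

theorem mapB_piE : mapB A q M (piE A q (M * q)) = ((q : ℕ) : ↥(L0 A (M * q * q))) :=
  map_natCast (mapB A q M) q

include hA in
/-- **Ramification of `V11o`** along `β`: `v₁₁(q) = v₁₁(π₁) ^ (q - 1)`. -/
theorem hram11B :
    (V11o A q M B k hB hq).valuation (mapB A q M (piE A q (M * q)))
      = (V11o A q M B k hB hq).valuation (pi11 A q M) ^ (q - 1) := by
  have h := hram11A A q M B k hB hq hA
  rw [show inclL0 A (hleA q M) (piE A q (M * q)) = ((q : ℕ) : ↥(L0 A (M * q * q))) from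
    map_natCast (inclL0 A (hleA q M)) q] at h
  rw [mapB_piE]
  exact h

/-! ### The `NRData` of `L0 (M q²) / L0 (M q)` along `β`, above `V₂` -/

/-- **NM-B2**: the `NRData` of `L0 (M q²) / L0 (M q)` along `β` above the second valuation
`V₂` of level `M q`: `VE = V2o`, `redE = rE2`, `ϖ = q`; `V = (V02o, V11o)`,
`red = (r02A, r11A)`, `e = (1, q - 1)`, `π = (q, j(t^{q²}) - j(t))`; all residue fields are
`FM A (M q)`, with the identity as structure maps. -/
def nrB2 :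
    @Fermat.Agent.BAD.H42.NRData ↥(L0 A (M * q)) ↥(L0 A (M * q * q)) (FM A (M * q)) _ _ _
      (algB A q M) (Fin 2) (kap2 (FM A (M * q)) (FM A (M * q))) _ (algA A q M) :=
  letI := algB A q M
  nr2 (Algebra.id (FM A (M * q))) (Fermat.Agent.S36.NU.H51.V2o A q M B k hB hq)
    (rE2 A q M B k hB hq)
    (V02o A q M B k hB) (V11o A q M B k hB hq)
    (r02A A q M B k hB hq hqM hA) (r11A A q M B k hB hq hqM hA)
    (piE A q (M * q)) (pi11 A q M) (q - 1)
    (piE_ne_zero A q (M * q) hq) (piE_mem2 A q M B k hB hq hA) (rE2_piE A q M B k hB hq hA)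
    (hE2_mod A q M B k hB hq hA)
    (fun a ha => hVE02B A q M B k hB hq a ha)
    (fun a ha => hVE11B A q M B k hB hq a ha)
    (rE2_eq_zero_of_not_isUnit A q M B k hB hq)
    (r02A_surjective A q M B k hB hq hqM hA) (r11A_surjective A q M B k hB hq hqM hA)
    (r02A_eq_zero_of_not_isUnit A q M B k hB hq hqM hA)
    (r11A_eq_zero_of_not_isUnit A q M B k hB hq hqM hA)
    (fun a ha => r02A_mapB A q M B k hB hq hqM hA a ha)
    (fun a ha => r11A_mapB A q M B k hB hq hqM hA a ha)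
    (Fermat.Agent.S36.NU.H82.not_le_02_11 A q M B k hB hq hA)
    (Fermat.Agent.S36.NU.H82.not_le_11_02 A q M B k hB hq hA)
    (isArch_resV0 _ _
      (Fermat.Agent.S36.NU.H82.isArch_V02 A hq hA (M * q * q) M B k (lvl q M) hB))
    (isArch_resV0 _ _
      (Fermat.Agent.S36.NU.H82.isArch_V11 A hq hA (M * q * q) M B k (lvl q M) hB))
    (val_pi11_lt_one A q M B k hB hq hA) (q_sub_one_pos q hq)
    (hram11B A q M B k hB hq hA)

/-! The fields, by `rfl`. -/

theorem nrB2_VE :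
    @Fermat.Agent.BAD.H42.NRData.VE ↥(L0 A (M * q)) ↥(L0 A (M * q * q)) (FM A (M * q)) _ _ _
      (algB A q M) (Fin 2) (kap2 (FM A (M * q)) (FM A (M * q))) _ (algA A q M)
      (nrB2 A q M B k hB hq hqM hA) = Fermat.Agent.S36.NU.H51.V2o A q M B k hB hq := rfl

theorem nrB2_redE :
    @Fermat.Agent.BAD.H42.NRData.redE ↥(L0 A (M * q)) ↥(L0 A (M * q * q)) (FM A (M * q)) _ _ _
      (algB A q M) (Fin 2) (kap2 (FM A (M * q)) (FM A (M * q))) _ (algA A q M)
      (nrB2 A q M B k hB hq hqM hA) = rE2 A q M B k hB hq := rfl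

theorem nrB2_ϖ :
    @Fermat.Agent.BAD.H42.NRData.ϖ ↥(L0 A (M * q)) ↥(L0 A (M * q * q)) (FM A (M * q)) _ _ _
      (algB A q M) (Fin 2) (kap2 (FM A (M * q)) (FM A (M * q))) _ (algA A q M)
      (nrB2 A q M B k hB hq hqM hA) = piE A q (M * q) := rfl

theorem nrB2_V0 :
    @Fermat.Agent.BAD.H42.NRData.V ↥(L0 A (M * q)) ↥(L0 A (M * q * q)) (FM A (M * q)) _ _ _
      (algB A q M) (Fin 2) (kap2 (FM A (M * q)) (FM A (M * q))) _ (algA A q M)
      (nrB2 A q M B k hB hq hqM hA) 0 = V02o A q M B k hB := rfl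

theorem nrB2_V1 :
    @Fermat.Agent.BAD.H42.NRData.V ↥(L0 A (M * q)) ↥(L0 A (M * q * q)) (FM A (M * q)) _ _ _
      (algB A q M) (Fin 2) (kap2 (FM A (M * q)) (FM A (M * q))) _ (algA A q M)
      (nrB2 A q M B k hB hq hqM hA) 1 = V11o A q M B k hB hq := rfl

theorem nrB2_red0 :
    @Fermat.Agent.BAD.H42.NRData.red ↥(L0 A (M * q)) ↥(L0 A (M * q * q)) (FM A (M * q)) _ _ _
      (algB A q M) (Fin 2) (kap2 (FM A (M * q)) (FM A (M * q))) _ (algA A q M)
      (nrB2 A q M B k hB hq hqM hA) 0 = r02A A q M B k hB hq hqM hA := rfl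

theorem nrB2_red1 :
    @Fermat.Agent.BAD.H42.NRData.red ↥(L0 A (M * q)) ↥(L0 A (M * q * q)) (FM A (M * q)) _ _ _
      (algB A q M) (Fin 2) (kap2 (FM A (M * q)) (FM A (M * q))) _ (algA A q M)
      (nrB2 A q M B k hB hq hqM hA) 1 = r11A A q M B k hB hq hqM hA := rfl

theorem nrB2_e0 :
    @Fermat.Agent.BAD.H42.NRData.e ↥(L0 A (M * q)) ↥(L0 A (M * q * q)) (FM A (M * q)) _ _ _
      (algB A q M) (Fin 2) (kap2 (FM A (M * q)) (FM A (M * q))) _ (algA A q M)
      (nrB2 A q M B k hB hq hqM hA) 0 = 1 := rfl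

theorem nrB2_e1 :
    @Fermat.Agent.BAD.H42.NRData.e ↥(L0 A (M * q)) ↥(L0 A (M * q * q)) (FM A (M * q)) _ _ _
      (algB A q M) (Fin 2) (kap2 (FM A (M * q)) (FM A (M * q))) _ (algA A q M)
      (nrB2 A q M B k hB hq hqM hA) 1 = q - 1 := rfl

theorem nrB2_π0 :
    @Fermat.Agent.BAD.H42.NRData.π ↥(L0 A (M * q)) ↥(L0 A (M * q * q)) (FM A (M * q)) _ _ _
      (algB A q M) (Fin 2) (kap2 (FM A (M * q)) (FM A (M * q))) _ (algA A q M)
      (nrB2 A q M B k hB hq hqM hA) 0 = mapB A q M (piE A q (M * q)) := rfl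

theorem nrB2_π1 :
    @Fermat.Agent.BAD.H42.NRData.π ↥(L0 A (M * q)) ↥(L0 A (M * q * q)) (FM A (M * q)) _ _ _
      (algB A q M) (Fin 2) (kap2 (FM A (M * q)) (FM A (M * q))) _ (algA A q M)
      (nrB2 A q M B k hB hq hqM hA) 1 = pi11 A q M := rfl

/-- **`∑ e f = [L0 (M q²) : L0 (M q)] = q`** (along `β`). -/
theorem nrB2_hdeg :
    ∑ i, @Fermat.Agent.BAD.H42.NRData.e ↥(L0 A (M * q)) ↥(L0 A (M * q * q)) (FM A (M * q)) _ _ _
          (algB A q M) (Fin 2) (kap2 (FM A (M * q)) (FM A (M * q))) _ (algA A q M)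
          (nrB2 A q M B k hB hq hqM hA) i
        * @Module.finrank (FM A (M * q)) (kap2 (FM A (M * q)) (FM A (M * q)) i) _ _
            (algA A q M i).toModule
      = @Module.finrank ↥(L0 A (M * q)) ↥(L0 A (M * q * q)) _ _ (algB A q M).toModule := by
  letI := algB A q M
  haveI : Module.Finite ↥(L0 A (M * q)) ↥(L0 A (M * q * q)) := finite_L0_B A q M hq
  exact hdeg_two (Algebra.id (FM A (M * q))) (nrB2 A q M B k hB hq hqM hA) q (q - 1)
    (finrank_L0_B A q M hq hqM) ⟨rfl, rfl⟩ (q_sub_one_pos q hq) (by have := hq.one_lt; omega)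

/-! ### NORM-RED along `β` above `V₂` -/

include hqM hA in
/-- **NORM-RED along `β` above `V₂`**, in `k((t))`: for an inertia-fixed function `h` of level
`M q²` in `V₀₂ ∩ V₁₁`, the norm `N_β h` to `L0 (M q)` is in `V₂` and
`red₂ (N_β h) = red₀₂ h * red₁₁ h ^ (q - 1)`. -/
theorem normB2 (h : ↥(L0 A (M * q * q))) (h02 : h ∈ V02o A q M B k hB)
    (h11 : h ∈ V11o A q M B k hB hq) :
    ∃ δ : ↥(Fermat.Agent.S36.NU.H51.V2o A q M B k hB hq),
      @Algebra.norm ↥(L0 A (M * q)) ↥(L0 A (M * q * q)) _ _ (algB A q M) h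
        = (δ : ↥(L0 A (M * q))) ∧
      sE2 A q M B k hB hq δ
        = s02 A q M B k hB ⟨h, h02⟩ * s11 A q M B k hB hq ⟨h, h11⟩ ^ (q - 1) := by
  letI := algB A q M
  letI := algA A q M
  haveI : Module.Finite ↥(L0 A (M * q)) ↥(L0 A (M * q * q)) := finite_L0_B A q M hq
  haveI : ∀ i, Module.Finite (FM A (M * q)) (kap2 (FM A (M * q)) (FM A (M * q)) i) :=
    fun i => (nrB2 A q M B k hB hq hqM hA).finite_res i
  have hh : ∀ i, h ∈ (nrB2 A q M B k hB hq hqM hA).V i := by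
    intro i
    fin_cases i
    · exact h02
    · exact h11
  obtain ⟨δ, h1, h2⟩ := (nrB2 A q M B k hB hq hqM hA).normRed
    (nrB2_hdeg A q M B k hB hq hqM hA) h hh
  refine ⟨δ, h1, ?_⟩
  rw [Fin.prod_univ_two] at h2
  have e0 : Algebra.norm (FM A (M * q))
      ((nrB2 A q M B k hB hq hqM hA).red 0 ⟨h, hh 0⟩)
        = r02A A q M B k hB hq hqM hA ⟨h, h02⟩ :=
    congrArg (fun f : FM A (M * q) →* FM A (M * q) =>
      f (r02A A q M B k hB hq hqM hA ⟨h, h02⟩)) (Algebra.norm_self (FM A (M * q)))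
  have e1 : Algebra.norm (FM A (M * q))
      ((nrB2 A q M B k hB hq hqM hA).red 1 ⟨h, hh 1⟩)
        = r11A A q M B k hB hq hqM hA ⟨h, h11⟩ :=
    congrArg (fun f : FM A (M * q) →* FM A (M * q) =>
      f (r11A A q M B k hB hq hqM hA ⟨h, h11⟩)) (Algebra.norm_self (FM A (M * q)))
  rw [e0, e1] at h2
  have h3 : rE2 A q M B k hB hq δ
      = r02A A q M B k hB hq hqM hA ⟨h, h02⟩ ^ 1
        * r11A A q M B k hB hq hqM hA ⟨h, h11⟩ ^ (q - 1) := h2
  rw [pow_one] at h3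
  have h4 := congrArg (fun z : FM A (M * q) => (z : LaurentSeries (kV A))) h3
  exact h4

include hqM hA in
/-- **NORM-RED along `β` above `V₂`**, for the norm of `F_{M q²} / β F_{M q}`. -/
theorem normB2_F (h : ↥(L0 A (M * q * q))) (h02 : h ∈ V02o A q M B k hB)
    (h11 : h ∈ V11o A q M B k hB hq) :
    ∃ hm : normAlongHom (heckeBetaBar Kbar (M * q) q).toRingHom (h : FN (M * q * q))
        ∈ Fermat.Agent.BAD.H88.V2 A q M k B (hab_of_hB q M B k hB) hq,
      ((Fermat.Agent.BAD.H88.red2 A q M k B (hab_of_hB q M B k hB) hq ⟨_, hm⟩ : F1 A q M) :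
          LaurentSeries (kV A))
        = s02 A q M B k hB ⟨h, h02⟩ * s11 A q M B k hB hq ⟨h, h11⟩ ^ (q - 1) := by
  obtain ⟨δ, h1, h2⟩ := normB2 A q M B k hB hq hqM hA h h02 h11
  have e : normAlongHom (heckeBetaBar Kbar (M * q) q).toRingHom (h : FN (M * q * q))
      = ((δ : ↥(L0 A (M * q))) : FN (M * q)) := by
    rw [Fermat.Agent.S36.NU.H26.norm_L0_along A (heckeBetaBar Kbar (M * q) q)
      (Fermat.Agent.S36.NU.H26.arithEquivariant_beta (M * q) q) (finite_FB q M hq) h]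
    exact congrArg (fun z : ↥(L0 A (M * q)) => (z : FN (M * q))) h1
  have hm : normAlongHom (heckeBetaBar Kbar (M * q) q).toRingHom (h : FN (M * q * q))
      ∈ Fermat.Agent.BAD.H88.V2 A q M k B (hab_of_hB q M B k hB) hq := by
    rw [e]; exact δ.2
  refine ⟨hm, ?_⟩
  rw [← h2]
  have e2 : (⟨_, hm⟩ : ↥(Fermat.Agent.BAD.H88.V2 A q M k B (hab_of_hB q M B k hB) hq))
      = ⟨((δ : ↥(L0 A (M * q))) : FN (M * q)), δ.2⟩ := Subtype.ext e
  rw [e2]
  rfl

end NrB2

end Fermat.Agent.S36.NU.H87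

end
end
-- ==== END Fermat.Agent.S36.NU.H87_NrB2

-- ==== BEGIN Fermat.Agent.S36.NU.H88_Gauss
section

/-!
# S36, NU-B, (M1) CHART-MOD (helper88): (G), (THREE) and `crit` for the two modular charts

* `transcendental_Jred` : the reduction `j̃` of `j` is transcendental over `k`;
* `hG_chart0`, `hG_chartInf` : **(G)** the Gauss property of `V₂₀` on `K^ur[j]`, `K^ur[j⁻¹]`;
* `incl1N_mem_adjoin` : (DESC-ONE) the inertia-fixed functions of level `1` lie in `K^ur(j)`;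
* `hthree_totM` : **(THREE)** in helper17's form, from helper42's `int_mod`;
* `crit_mod_chart0`, `crit_mod_chartInf` : integral over `K^ur[j]` (`K^ur[j⁻¹]`) and in the three valuation
  rings ⟹ in the chart;
* `jdd_mem_intSub_mod` : `j(q²τ)` is integral over `R[j]`;
* `chartHyp_chart0_mod`, `chartHyp_chartInf_mod` : **`ChartHyp`, unconditional**.
-/

set_option autoImplicit false
set_option synthInstance.maxHeartbeats 400000
set_option maxHeartbeats 1000000
set_option linter.unusedSectionVars false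
set_option linter.style.haveILetI false

noncomputable section

open IntermediateField ModularCurve AlgebraicCurve Polynomial
open Fermat.Agent.S24 Fermat.Agent.BAD.H88 Fermat.Agent.S28 Fermat.Agent.S28.H73
open Fermat.Agent.RED.H73 Fermat.Agent.RED.H17

namespace Fermat.Agent.S36.NU.H88

open Fermat.Agent.S36.NU.H16 Fermat.Agent.S36.NU.H17 Fermat.Agent.S36.NU.H24
  Fermat.Agent.S36.NU.H65 Fermat.Agent.S36.NU.H79 Fermat.Agent.S36.NU.H23
  Fermat.Agent.S36.NU.H41 Fermat.Agent.BAD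

section Gauss

variable (A : ValuationSubring Kbar) (q M : ℕ) (B k : ℤ) (hB : B * M + k * q = 1) (hq : q.Prime)
  [NeZero M] [NeZero q] [NeZero (M * q * q)] (hqM : ¬ q ∣ M) (hA : A.LiesOverPrime q)
  (ht : H91.TameAt M q)

attribute [local instance] algkM

theorem Jred_eq_jqModC : _root_.Fermat.Agent.S36.NU.H88.Jred A = jqModC (kV A) := by
  rw [_root_.Fermat.Agent.S36.NU.H88.Jred, jInt, qExpand_one_apply, coeffMap_jqModC]

theorem transcendental_Jred : Transcendental (kV A) (_root_.Fermat.Agent.S36.NU.H88.Jred A) := by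
  rw [Jred_eq_jqModC]
  exact Fermat.Agent.RED.H73.transcendental_jqModC (kV A)

/-- The reduction of `j` at `V₂₀` is transcendental over `k`. -/
theorem transcendental_r20_j0 :
    Transcendental (kV A) (r20 A q M hq hqM hA ⟨j0 A (M * q * q), j0_mem20 A q M⟩) := by
  intro halg
  have h1 : IsAlgebraic (kV A) (algebraMap (FM A M) (LaurentSeries (kV A))
      (r20 A q M hq hqM hA ⟨j0 A (M * q * q), j0_mem20 A q M⟩)) := halg.algebraMap
  have h2 : algebraMap (FM A M) (LaurentSeries (kV A))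
      (r20 A q M hq hqM hA ⟨j0 A (M * q * q), j0_mem20 A q M⟩) = _root_.Fermat.Agent.S36.NU.H88.Jred A := by
    show s20 A q M ⟨j0 A (M * q * q), j0_mem20 A q M⟩ = _root_.Fermat.Agent.S36.NU.H88.Jred A
    exact s20_j0 A q M _
  rw [h2] at h1
  exact transcendental_Jred A h1

/-- The constants of `V₂₀`. -/
theorem const_of_mem_V20o (c : ↥(Kur A))
    (hc : algebraMap ↥(Kur A) ↥(L0 A (M * q * q)) c ∈ V20o A q M) :
    c ∈ (algebraMap ↥(Rur A) ↥(Kur A)).range := by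
  have h1 : algebraMap Kbar (FN (M * q * q)) (c : Kbar) ∈ V20 A (M * q * q) := hc
  have h2 : (c : Kbar) ∈ A := (const_mem20 A (M * q * q) _).mp h1
  exact ⟨⟨c, h2⟩, rfl⟩

/-- **(G)** for the chart of `j`. -/
theorem hG_chart0 (p : (↥(Kur A))[X])
    (hp : aeval (j0 A (M * q * q)) p ∈ (totM A q M B k hB hq hqM hA ht).V 0) (i : ℕ) :
    p.coeff i ∈ (algebraMap ↥(Rur A) ↥(Kur A)).range :=
  gauss_of_transcendental_red (R := ↥(Rur A)) (K := ↥(Kur A)) (k := kV A) (κ := FM A M)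
    (V20o A q M) (r20 A q M hq hqM hA)
    (fun u hu => r20_eq_zero_of_not_isUnit A q M hq hqM hA u
      ((IsLocalRing.mem_maximalIdeal u).mp hu))
    (resRur A) (const_mem_V20o A q M)
    (fun r => Subtype.ext (s20_const A q M r _))
    (const_of_mem_V20o A q M)
    (j0 A (M * q * q)) (j0_mem20 A q M) (transcendental_r20_j0 A q M hq hqM hA) p hp i

include hB hq hqM hA ht in
theorem j0_inv_mem20_tot : (j0 A (M * q * q))⁻¹ ∈ V20o A q M := by
  have h := (totM A q M B k hB hq hqM hA ht).inv_mem_of_rdN_ne_zero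
    (rdN_j0_ne_zero A q M B k hB hq hqM hA ht 0)
  exact h

/-- The reduction of `j⁻¹` at `V₂₀` is transcendental over `k`. -/
theorem transcendental_r20_j0_inv (h : (j0 A (M * q * q))⁻¹ ∈ V20o A q M) :
    Transcendental (kV A) (r20 A q M hq hqM hA ⟨(j0 A (M * q * q))⁻¹, h⟩) := by
  have hj0 : j0 A (M * q * q) ≠ 0 := j0_ne_zero A (M * q * q)
  have e : r20 A q M hq hqM hA ⟨(j0 A (M * q * q))⁻¹, h⟩
      = (r20 A q M hq hqM hA ⟨j0 A (M * q * q), j0_mem20 A q M⟩)⁻¹ := by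
    apply eq_inv_of_mul_eq_one_left
    rw [← map_mul]
    have e1 : (⟨(j0 A (M * q * q))⁻¹, h⟩ : ↥(V20o A q M)) * ⟨j0 A (M * q * q), j0_mem20 A q M⟩
        = 1 := Subtype.ext (inv_mul_cancel₀ hj0)
    rw [e1, map_one]
  rw [e]
  exact transcendental_inv (kV A) _ (transcendental_r20_j0 A q M hq hqM hA)

/-- **(G)** for the chart of `j⁻¹`. -/
theorem hG_chartInf (p : (↥(Kur A))[X])
    (hp : aeval (j0 A (M * q * q))⁻¹ p ∈ (totM A q M B k hB hq hqM hA ht).V 0) (i : ℕ) :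
    p.coeff i ∈ (algebraMap ↥(Rur A) ↥(Kur A)).range :=
  gauss_of_transcendental_red (R := ↥(Rur A)) (K := ↥(Kur A)) (k := kV A) (κ := FM A M)
    (V20o A q M) (r20 A q M hq hqM hA)
    (fun u hu => r20_eq_zero_of_not_isUnit A q M hq hqM hA u
      ((IsLocalRing.mem_maximalIdeal u).mp hu))
    (resRur A) (const_mem_V20o A q M)
    (fun r => Subtype.ext (s20_const A q M r _))
    (const_of_mem_V20o A q M)
    (j0 A (M * q * q))⁻¹ (j0_inv_mem20_tot A q M B k hB hq hqM hA ht)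
    (transcendental_r20_j0_inv A q M hq hqM hA _) p hp i

end Gauss

/-! ### (DESC-ONE) and (THREE) -/

section Three

variable (A : ValuationSubring Kbar) (q M : ℕ) (B k : ℤ) (hB : B * M + k * q = 1) (hq : q.Prime)
  [NeZero M] [NeZero q] [NeZero (M * q * q)] (hqM : ¬ q ∣ M) (hA : A.LiesOverPrime q)
  (ht : H91.TameAt M q)

attribute [local instance] algkM

/-- The series of `ℚ̄(j)` are in `ℚ̄(j)` at every level. -/
theorem mem_adjoin_jF_of_series (N : ℕ) [NeZero N] (x : FN N)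
    (hx : (x : LaurentSeries Kbar)
      ∈ IntermediateField.adjoin Kbar ({jqModC Kbar} : Set (LaurentSeries Kbar))) :
    x ∈ Kbar⟮Fermat.Agent.S24.jF N⟯ := by
  have hmap : (Kbar⟮Fermat.Agent.S24.jF N⟯).map (modularFunctionFieldBar N).val
      = IntermediateField.adjoin Kbar ({jqModC Kbar} : Set (LaurentSeries Kbar)) := by
    rw [IntermediateField.adjoin_map, Set.image_singleton]
    congr 2
    show ((Fermat.Agent.S24.jF N : FN N) : LaurentSeries Kbar) = jqModC Kbar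
    rw [← jdF_one_eq_jF, coe_jdF_one, H65.intSer, jInt, qExpand_one_apply, coeffMap_jqModC]
  rw [← hmap] at hx
  obtain ⟨y, hy, hyx⟩ := hx
  have : y = x := Subtype.ext hyx
  rw [← this]
  exact hy

/-- **(DESC-ONE)**: the inertia-fixed functions of level `1` lie in `K^ur(j)`. -/
theorem incl1N_mem_adjoin (a : ↥(L0 A 1)) :
    Fermat.Agent.S36.NU.H42.incl1N A q M a ∈ (↥(Kur A))⟮j0 A (M * q * q)⟯ := by
  apply fixed_mem_adjoin_j0
  apply mem_adjoin_jF_of_series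
  rw [Fermat.Agent.S36.NU.H42.coe_incl1N, ← Fermat.Agent.S36.NU.H42.bar_one_eq]
  exact (a : FN 1).2

include hq hqM hA in
/-- **(THREE)** in the form of helper17's TI3-VAL. -/
theorem hthree_totM (f : ↥(L0 A (M * q * q)))
    (hf : ∀ i, f ∈ (totM A q M B k hB hq hqM hA ht).V i) :
    ∃ P : (↥(L0 A (M * q * q)))[X], P.Monic ∧
      (∀ m, P.coeff m ∈ (totM A q M B k hB hq hqM hA ht).V 0 ∧
        P.coeff m ∈ (↥(Kur A))⟮j0 A (M * q * q)⟯) ∧ P.eval f = 0 := by
  obtain ⟨P, hP, hcoef, h20, _, _, hev⟩ :=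
    Fermat.Agent.S36.NU.H42.int_mod A q M B k hB hq hqM hA f (hf 0) (hf 1) (hf 2)
  refine ⟨P, hP, fun m => ⟨h20 m, ?_⟩, hev⟩
  obtain ⟨a, _, ha⟩ := hcoef m
  rw [ha]
  exact incl1N_mem_adjoin A q M a

/-- (THREE) for `j⁻¹`. -/
theorem hthree_totM_inv (f : ↥(L0 A (M * q * q)))
    (hf : ∀ i, f ∈ (totM A q M B k hB hq hqM hA ht).V i) :
    ∃ P : (↥(L0 A (M * q * q)))[X], P.Monic ∧
      (∀ m, P.coeff m ∈ (totM A q M B k hB hq hqM hA ht).V 0 ∧
        P.coeff m ∈ (↥(Kur A))⟮(j0 A (M * q * q))⁻¹⟯) ∧ P.eval f = 0 := by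
  obtain ⟨P, hP, hcoef, hev⟩ := hthree_totM A q M B k hB hq hqM hA ht f hf
  refine ⟨P, hP, fun m => ⟨(hcoef m).1, ?_⟩, hev⟩
  rw [_root_.Fermat.Agent.S36.NU.H88.adjoin_inv_eq]
  exact (hcoef m).2

/-! ### `crit` -/

/-- **`crit` for the chart of `j`**. -/
theorem crit_mod_chart0 (f : ↥(L0 A (M * q * q)))
    (hf₁ : IsIntegral ↥(Algebra.adjoin ↥(Kur A) {j0 A (M * q * q)}) f)
    (hf₂ : ∀ i, f ∈ (totM A q M B k hB hq hqM hA ht).V i) :
    f ∈ intSub ↥(Rur A) (j0 A (M * q * q)) :=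
  isIntegral_adjoin_of_forall_mem ↥(Rur A) ↥(Kur A) (j0 A (M * q * q))
    (transcendental_j0 A (M * q * q)) (totM A q M B k hB hq hqM hA ht).V 0
    (hG_chart0 A q M B k hB hq hqM hA ht) (hthree_totM A q M B k hB hq hqM hA ht) hf₁ hf₂

/-- **`crit` for the chart of `j⁻¹`**. -/
theorem crit_mod_chartInf (f : ↥(L0 A (M * q * q)))
    (hf₁ : IsIntegral ↥(Algebra.adjoin ↥(Kur A) {(j0 A (M * q * q))⁻¹}) f)
    (hf₂ : ∀ i, f ∈ (totM A q M B k hB hq hqM hA ht).V i) :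
    f ∈ intSub ↥(Rur A) (j0 A (M * q * q))⁻¹ :=
  isIntegral_adjoin_of_forall_mem ↥(Rur A) ↥(Kur A) (j0 A (M * q * q))⁻¹
    (transcendental_inv ↥(Kur A) _ (transcendental_j0 A (M * q * q)))
    (totM A q M B k hB hq hqM hA ht).V 0
    (hG_chartInf A q M B k hB hq hqM hA ht) (hthree_totM_inv A q M B k hB hq hqM hA ht) hf₁ hf₂

include hB hq hqM hA ht in
/-- **`j(q²τ)` is integral over `R[j]`.** -/
theorem jdd_mem_intSub_mod : jdd A q M ∈ intSub ↥(Rur A) (j0 A (M * q * q)) :=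
  crit_mod_chart0 A q M B k hB hq hqM hA ht _ (isIntegral_jdd A q M)
    (jdd_mem_totM A q M B k hB hq hqM hA ht)

/-- **`ChartHyp` for the chart of `j`** (unconditional). -/
theorem chartHyp_chart0_mod (n : ℕ) (hn : 0 < n) (hcop : Nat.Coprime n q) :
    ChartHyp (chart0 A q M B k hB hq hqM hA ht) q n :=
  chartHyp_chart0 A q M B k hB hq hqM hA ht n hn hcop
    (jdd_mem_intSub_mod A q M B k hB hq hqM hA ht)

/-- **`ChartHyp` for the chart of `j⁻¹`** (unconditional). -/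
theorem chartHyp_chartInf_mod (n : ℕ) (hn : 0 < n) (hcop : Nat.Coprime n q) :
    ChartHyp (chartInf A q M B k hB hq hqM hA ht) q n :=
  chartHyp_chartInf A q M B k hB hq hqM hA ht n hn hcop
    (jdd_mem_intSub_mod A q M B k hB hq hqM hA ht)

end Three

end Fermat.Agent.S36.NU.H88

end
end
-- ==== END Fermat.Agent.S36.NU.H88_Gauss

-- ==== BEGIN Fermat.Agent.S36.NU.H99_OrdMod4
section

/-!
# S36 / NU-B, (M4) LOCEQ at the ordinary points, modular part 4 (helper99)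

The middle component for `q ≥ 5`, `4 ∣ M`: the coordinate is the modular unit
`u = Δ(t)/Δ(t⁴)` of level `M`, and the certificate is helper73's identity
`(θ ū)¹² = 3¹² v̄⁶ v̄₂¹⁶ Δ̄²`.

* `isIntegral_t11o_u4` : `t₁₁ = u'' - u` is integral over `K^ur[j]`;
* `cert_alg` : the algebra of the certificate;
* `ord11_u4` : **local equation datum and only one branch** at the closed points
  `𝔪 ⊇ Icomp₁₁` with `eps1 ∉ 𝔪`.
-/

set_option autoImplicit false
set_option synthInstance.maxHeartbeats 400000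
set_option maxHeartbeats 1000000
set_option linter.unusedSectionVars false
set_option linter.style.haveILetI false

noncomputable section

open ModularCurve AlgebraicCurve IntermediateField
open Fermat.Agent.S24 Fermat.Agent.BAD.H88 Fermat.Agent.BAD.H30 Fermat.Agent.BAD.H21
open Fermat.Agent.S28 Fermat.Agent.S28.H73 Fermat.Agent.RED.H73 Fermat.Agent.RED.H17
open Fermat.Agent.S36.NU.H88 Fermat.Agent.S36.NU.H23
open Fermat.Agent.S36.NU.H41 Fermat.Agent.RED

namespace Fermat.Agent.S36.NU.H99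

open Fermat.Agent.S36.NU.H16 (Chart LocEq valq_of_crit)

/-- The algebra of the certificate. -/
theorem cert_alg {F : Type*} [Field F] (n : ℕ) (HU D T c3 v w E a : F)
    (h1 : HU * D ^ n = 1) (h2 : T ^ 12 = c3 ^ 12 * (v ^ 6 * w ^ 16) * D ^ 2)
    (h3 : E ^ 12 * c3 ^ (12 * n) * a = 1) :
    (HU * HU * (E * T ^ n)) ^ 12 * a = HU ^ 22 * (v ^ 6 * w ^ 16) ^ n := by
  have e1 : (HU * HU * (E * T ^ n)) ^ 12 * a = HU ^ 24 * E ^ 12 * (T ^ 12) ^ n * a := by
    rw [← pow_mul, mul_comm 12 n, pow_mul]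
    ring
  rw [e1, h2]
  have e2 : HU ^ 24 * E ^ 12 * (c3 ^ 12 * (v ^ 6 * w ^ 16) * D ^ 2) ^ n * a
      = HU ^ 22 * (HU * D ^ n) ^ 2 * (E ^ 12 * c3 ^ (12 * n) * a) * (v ^ 6 * w ^ 16) ^ n := by
    rw [pow_mul c3 12 n]
    ring
  rw [e2, h1, h3]
  ring

section U4

variable (A : ValuationSubring Kbar)
variable (q M : ℕ) (B k : ℤ) (hB : B * M + k * q = 1) (hq : q.Prime) [NeZero M] [NeZero q]
  [NeZero (M * q)] [NeZero (M * q * q)]
variable (d : ℕ) [NeZero d] (hd : d ∣ M)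

theorem incAA_unitF : incAA q M (unitF M d hd) = unitF (M * q * q) d (dvd_lvl q M d hd) := by
  apply Subtype.ext
  rw [coe_incAA]
  rfl

include hd in
theorem qqd_dvd_lvl : q * q * d ∣ M * q * q := by
  obtain ⟨c, rfl⟩ := hd
  exact ⟨c, by ring⟩

theorem incBB_unitF [NeZero (q * q)] [NeZero (q * q * d)] :
    incBB q M (unitF M d hd) = unitF (M * q * q) (q * q * d) (qqd_dvd_lvl q M d hd)
      * (unitF (M * q * q) (q * q) (qq_dvd_lvl q M))⁻¹ := by
  apply Subtype.ext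
  have h1 : ((incBB q M (unitF M d hd) : FN (M * q * q)) : LaurentSeries Kbar)
      = qExpand Kbar q (qExpand Kbar q (coeffEmb Kbar (modularUnitSeries d))) := by
    rw [coe_incBB]
    rfl
  have h2 : ((unitF (M * q * q) (q * q * d) (qqd_dvd_lvl q M d hd)
      * (unitF (M * q * q) (q * q) (qq_dvd_lvl q M))⁻¹ : FN (M * q * q)) : LaurentSeries Kbar)
      = coeffEmb Kbar (modularUnitSeries (q * q * d))
        * (coeffEmb Kbar (modularUnitSeries (q * q)))⁻¹ := rfl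
  rw [h1, h2, coeffEmb_modularUnitSeries, coeffEmb_modularUnitSeries,
    coeffEmb_modularUnitSeries, qExpand_qExpand, map_mul, map_inv₀, qExpand_qExpand]
  have hd0 : deltaR Kbar ≠ 0 := deltaR_ne_zero Kbar
  have h3 : qExpand Kbar (q * q) (deltaR Kbar) ≠ 0 := qExpand_deltaR_ne_zero Kbar (q * q)
  have h4 : qExpand Kbar (q * q * d) (deltaR Kbar) ≠ 0 :=
    qExpand_deltaR_ne_zero Kbar (q * q * d)
  field_simp

theorem isUnitOff_incAA_unitF : IsUnitOff (M * q * q) (incAA q M (unitF M d hd)) := by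
  rw [incAA_unitF]
  exact isUnitOff_unitF d _

theorem isUnitOff_incBB_unitF : IsUnitOff (M * q * q) (incBB q M (unitF M d hd)) := by
  haveI : NeZero (q * q) := ⟨mul_ne_zero (NeZero.ne q) (NeZero.ne q)⟩
  haveI : NeZero (q * q * d) := ⟨mul_ne_zero (NeZero.ne (q * q)) (NeZero.ne d)⟩
  rw [incBB_unitF]
  exact (isUnitOff_unitF (q * q * d) _).mul (isUnitOff_unitF (q * q) _).inv

/-- **Horizontal integrality of `t₁₁ = u'' - u`** for a modular unit `u` of level `M`. -/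
theorem isIntegral_t11o_unitF (u₀ : LaurentSeries ℤ)
    (hf : ((unitF M d hd : FN M) : LaurentSeries Kbar) = H65.intSer Kbar u₀) :
    IsIntegral ↥(Algebra.adjoin ↥(Kur A) ({j0 A (M * q * q)} : Set ↥(L0 A (M * q * q))))
      (_root_.Fermat.Agent.S36.NU.H99.t11o A q M (unitF M d hd) u₀ hf) := by
  apply isIntegral_Kur_of_bar
  show IsIntegral _ (t11 q M (unitF M d hd))
  rw [t11]
  exact (isIntegral_bar_of_unitOff (isUnitOff_incBB_unitF q M d hd)).sub
    (isIntegral_bar_of_unitOff (isUnitOff_incAA_unitF q M d hd))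

include hq in
theorem s11_Uoi (d : ℕ) [NeZero d] (hd : d ∣ M) :
    s11 A q M B k hB hq ⟨Uoi A q M d hd, Uoi_mem11 A q M B k hB hq d hd⟩
      = (deltaR (kV A) * (qExpand (kV A) d (deltaR (kV A)))⁻¹)⁻¹ := by
  rw [← s11_Uo A q M B k hB hq d hd]
  apply eq_inv_of_mul_eq_one_right
  rw [← map_mul]
  have e : (⟨Uo A q M d hd, Uo_mem11 A q M B k hB hq d hd⟩ : ↥(V11o A q M B k hB hq))
      * ⟨Uoi A q M d hd, Uoi_mem11 A q M B k hB hq d hd⟩ = 1 :=
    Subtype.ext (Uo_mul_Uoi A q M d hd)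
  rw [e, map_one]

include hq in
/-- `HU · Δ̄^(q-1) = 1`. -/
theorem HU_mul_deltaR_pow (hA : (q : Kbar) ∈ A.nonunits) :
    HU A q M * deltaR (kV A) ^ (q - 1) = 1 := by
  haveI : Fact q.Prime := ⟨hq⟩
  haveI : CharP (kV A) q := Fermat.Agent.BAD.H82.charP_kV A hq hA
  have hd0 : deltaR (kV A) ≠ 0 := deltaR_ne_zero (kV A)
  rw [HU_eq, qExpand_deltaR_char]
  have e : deltaR (kV A) ^ q = deltaR (kV A) ^ (q - 1) * deltaR (kV A) := by
    rw [← pow_succ, Nat.sub_add_cancel hq.one_le]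
  rw [e]
  field_simp

end U4


section Cert

variable {A : ValuationSubring Kbar}
variable {q M : ℕ} {B k : ℤ} {hB : B * M + k * q = 1} {hq : q.Prime} [NeZero M] [NeZero q]
  [NeZero (M * q)] [NeZero (M * q * q)]
variable {R k' ι : Type*} {κ : ι → Type*} [CommRing R] [Algebra R ↥(L0 A (M * q * q))]
  [Field k'] [∀ i, Field (κ i)] [∀ i, Algebra k' (κ i)]
variable {C : Chart R ↥(L0 A (M * q * q)) k' ι κ} {qR : R} {e : ι → ℕ} {i₂₀ i₁₁ i₀₂ : ι}
  (S : ChartL0 A q M B k hB hq C qR e i₂₀ i₁₁ i₀₂)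

include S

theorem ChartL0.Uo_mem_B (d : ℕ) [NeZero d] (hd : d ∣ M) : Uo A q M d hd ∈ C.B :=
  S.mem_B (isIntegral_Uo A q M d hd) (Uo_mem20 A q M d hd) (Uo_mem11 A q M B k hB hq d hd)
    (Uo_mem02 A q M B k hB hq d hd)

theorem ChartL0.Uoi_mem_B (d : ℕ) [NeZero d] (hd : d ∣ M) : Uoi A q M d hd ∈ C.B :=
  S.mem_B (isIntegral_Uoi A q M d hd) (Uoi_mem20 A q M d hd) (Uoi_mem11 A q M B k hB hq d hd)
    (Uoi_mem02 A q M B k hB hq d hd)

theorem ChartL0.Uo_not_mem (d : ℕ) [NeZero d] (hd : d ∣ M) (𝔪 : Ideal C.B) (h𝔪 : 𝔪 ≠ ⊤) :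
    (⟨Uo A q M d hd, S.Uo_mem_B d hd⟩ : C.B) ∉ 𝔪 :=
  not_mem_of_mul_eq_one C 𝔪 h𝔪 (b := ⟨Uoi A q M d hd, S.Uoi_mem_B d hd⟩)
    (Subtype.ext (Uo_mul_Uoi A q M d hd))

theorem ChartL0.Uoi_not_mem (d : ℕ) [NeZero d] (hd : d ∣ M) (𝔪 : Ideal C.B) (h𝔪 : 𝔪 ≠ ⊤) :
    (⟨Uoi A q M d hd, S.Uoi_mem_B d hd⟩ : C.B) ∉ 𝔪 :=
  not_mem_of_mul_eq_one C 𝔪 h𝔪 (b := ⟨Uo A q M d hd, S.Uo_mem_B d hd⟩)
    (Subtype.ext ((mul_comm _ _).trans (Uo_mul_Uoi A q M d hd)))

variable [Fintype ι] [DecidableEq ι]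

include hB hq in
/-- **Ordinary points of `C₁₁`, `q ≥ 5`, `4 ∣ M`**: if `eps1 ∉ 𝔪 ⊇ Icomp₁₁` then `𝔪` has a local
equation datum and `C₁₁` is the only component through `𝔪`. -/
theorem ord11_u4 (hA : (q : Kbar) ∈ A.nonunits) (h5 : 5 ≤ q) (h4 : 4 ∣ M)
    (𝔪 : Ideal C.B) [h𝔪 : 𝔪.IsPrime] (hi : C.Icomp i₁₁ ≤ 𝔪)
    (hw : (⟨eps1o A q M, S.eps1o_mem_B⟩ : C.B) ∉ 𝔪) :
    Nonempty (LocEq C qR 𝔪) ∧ ∀ i', C.Icomp i' ≤ 𝔪 → i' = i₁₁ := by
  haveI : Fact q.Prime := ⟨hq⟩
  haveI : CharP (kV A) q := Fermat.Agent.BAD.H82.charP_kV A hq hA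
  have h2 : 2 ∣ M := Dvd.dvd.trans (by norm_num) h4
  have hε : resV A ⟨epsK q B, epsK_mem A q M B k hB hq⟩ ≠ 0 :=
    resV_epsK_ne_zero A q M B k hB hq
  have h3 : (3 : kV A) ≠ 0 := by
    intro h
    have h' : ((3 : ℕ) : kV A) = 0 := by exact_mod_cast h
    have hdvd := (CharP.cast_eq_zero_iff (kV A) q 3).1 h'
    have := Nat.le_of_dvd (by norm_num) hdvd
    omega
  have hne : resV A ⟨epsK q B, epsK_mem A q M B k hB hq⟩ ^ 12 * (3 : kV A) ^ (12 * (q - 1))
      ≠ 0 := mul_ne_zero (pow_ne_zero _ hε) (pow_ne_zero _ h3)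
  obtain ⟨c, ⟨c', hc'⟩, ⟨h20, -⟩, ⟨h11, hs11⟩, ⟨h02, -⟩⟩ := H23.hlift_mod A q M B k hB hq hA
    (resV A ⟨epsK q B, epsK_mem A q M B k hB hq⟩ ^ 12 * (3 : kV A) ^ (12 * (q - 1)))⁻¹
  have hcI : IsIntegral ↥(Algebra.adjoin ↥(Kur A)
      ({j0 A (M * q * q)} : Set ↥(L0 A (M * q * q)))) c := by
    apply isIntegral_Kur_of_bar
    rw [hc']
    exact isIntegral_algebraMap.tower_top (R := Kbar)
  have hcB : c ∈ C.B := S.mem_B hcI h20 h11 h02
  have htop : 𝔪 ≠ ⊤ := h𝔪.ne_top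
  refine ord11_of_cert S hA (unitF M 4 h4) H73.uZ4 (H73.coeffMap_uZ4_Kbar M h4)
    (isIntegral_t11o_unitF A q M 4 h4 _ _) 𝔪 hi hw 12 (by norm_num) ⟨c, hcB⟩
    ((⟨eps1o A q M, S.eps1o_mem_B⟩ : C.B) ^ 22
      * ((⟨Uo A q M 2 h2, S.Uo_mem_B 2 h2⟩ : C.B) ^ 6
        * ((⟨Uo A q M 4 h4, S.Uo_mem_B 4 h4⟩ : C.B)
          * (⟨Uoi A q M 2 h2, S.Uoi_mem_B 2 h2⟩ : C.B)) ^ 16) ^ (q - 1))
    (mul_not_mem C 𝔪 (pow_not_mem C 𝔪 hw 22)
      (pow_not_mem C 𝔪 (mul_not_mem C 𝔪 (pow_not_mem C 𝔪 (S.Uo_not_mem 2 h2 𝔪 htop) 6)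
        (pow_not_mem C 𝔪 (mul_not_mem C 𝔪 (S.Uo_not_mem 4 h4 𝔪 htop)
          (S.Uoi_not_mem 2 h2 𝔪 htop)) 16)) (q - 1))) ?_
  intro h1 hY
  have e1 : (⟨(E11o A q M * f11o A q M (unitF M 4 h4) H73.uZ4 (H73.coeffMap_uZ4_Kbar M h4)) ^ 12
      * c, h1⟩ : ↥(V11o A q M B k hB hq))
      = (⟨E11o A q M, E11o_mem11 A q M B k hB hq⟩
          * ⟨f11o A q M (unitF M 4 h4) H73.uZ4 (H73.coeffMap_uZ4_Kbar M h4),
              f11o_mem11 A q M B k hB hq _ _ _⟩) ^ 12 * ⟨c, h11⟩ := Subtype.ext rfl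
  have e2 : (⟨(((⟨eps1o A q M, S.eps1o_mem_B⟩ : C.B) ^ 22
      * ((⟨Uo A q M 2 h2, S.Uo_mem_B 2 h2⟩ : C.B) ^ 6
        * ((⟨Uo A q M 4 h4, S.Uo_mem_B 4 h4⟩ : C.B)
          * (⟨Uoi A q M 2 h2, S.Uoi_mem_B 2 h2⟩ : C.B)) ^ 16) ^ (q - 1) : C.B) :
            ↥(L0 A (M * q * q))), hY⟩ : ↥(V11o A q M B k hB hq))
      = ⟨eps1o A q M, eps1o_mem11 A q M B k hB hq⟩ ^ 22
        * (⟨Uo A q M 2 h2, Uo_mem11 A q M B k hB hq 2 h2⟩ ^ 6
          * (⟨Uo A q M 4 h4, Uo_mem11 A q M B k hB hq 4 h4⟩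
            * ⟨Uoi A q M 2 h2, Uoi_mem11 A q M B k hB hq 2 h2⟩) ^ 16) ^ (q - 1) :=
    Subtype.ext rfl
  rw [e1, e2]
  simp only [map_mul, map_pow]
  rw [s11_E11 A q M B k hB hq hA, s11_f11o A q M B k hB hq _ _ _ hA, hs11, s11_eps1,
    s11_Uo, s11_Uo, s11_Uoi, H73.coeffMap_uZ4, ← H73.vbar_eq, ← H73.ubar4_eq, ← H73.vbar2_eq]
  refine cert_alg (q - 1) (HU A q M) (deltaR (kV A)) (H73.thetaL (H73.ubar4 (kV A))) 3
    (H73.vbar (kV A)) (H73.vbar2 (kV A)) _ _ (HU_mul_deltaR_pow A q M hq hA)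
    (H73.thetaL_ubar_pow_D (kV A)) ?_
  generalize resV A ⟨epsK q B, epsK_mem A q M B k hB hq⟩ = εb at hne ⊢
  have e3 : (3 : LaurentSeries (kV A)) = algebraMap (kV A) (LaurentSeries (kV A)) 3 :=
    (map_ofNat _ 3).symm
  rw [e3, ← map_pow, ← map_pow, ← map_mul, ← map_mul, mul_inv_cancel₀ hne, map_one]

end Cert

end Fermat.Agent.S36.NU.H99

end
end
-- ==== END Fermat.Agent.S36.NU.H99_OrdMod4
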