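-- GENERATED (merged mirror, NOTES/tools/trim/merge3_helper67.py): 5 modules of the originals, bodies verbatim.
import Fermat.Agent.Zm.S36_L15_000
import Fermat.Agent.Zm.S36_L12_000
import Fermat.Agent.Zm.S36_L13_000
import Fermat.Agent.Zm.S36_L10_000
import Fermat.Agent.Zm.S36_L13_001
import Fermat.Agent.Zm.S36_L15_001

-- ==== BEGIN Fermat.Agent.S36.NU.H10_Final
section

/-!
# S36 / NU-B, FINAL (helper10): `Stmt_S36Targets` from the three remaining modular statements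

* `Stmt_NuMAll`   : the modular datum `H79.Stmt_NuM` at every tame level (helper79);
* `Stmt_TopAll`   : `TopInputs` for every modular datum (helpers 88, 99, 82, 28);
* `Stmt_ValVecAll`: `Stmt_ValVecMod` (helper51).

`s36Targets_of`, `nuCoreTame_final : … → H81.Stmt_NUCoreTame`.
-/

set_option autoImplicit false
set_option synthInstance.maxHeartbeats 400000
set_option maxHeartbeats 1000000
set_option linter.style.haveILetI false
set_option linter.unusedSectionVars false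

noncomputable section

open ModularCurve AlgebraicCurve

namespace Fermat.Agent.S36.NU.H10

open Fermat.Agent.S24 Fermat.Agent.BAD Fermat.Agent.BAD.H88 Fermat.Agent.S28 Fermat.Agent.S28.H73
  Fermat.Agent.S36.NU.H23 Fermat.Agent.S36.NU.H79 Fermat.Agent.S36.NU.H81

/-- The modular datum at every tame level. -/
def Stmt_NuMAll : Prop :=
  ∀ (A : ValuationSubring Kbar) (q M : ℕ) (B k : ℤ) (hB : B * M + k * q = 1) (hq : q.Prime)
    [NeZero M] [NeZero q] [NeZero (M * q)] [NeZero (M * q * q)]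
    (hqM : ¬ q ∣ M) (hA : A.LiesOverPrime q) (ht : H91.TameAt M q),
    (5 ≤ q ∧ 4 ∣ M) ∨ (q = 3 ∧ 4 ∣ M) ∨ (q = 2 ∧ 9 ∣ M) →
    Stmt_NuM A q M B k hB hq hqM hA ht

/-- The remaining local inputs, for every modular datum at every tame level. -/
def Stmt_TopAll : Prop :=
  ∀ (A : ValuationSubring Kbar) (q M : ℕ) (B k : ℤ) (hB : B * M + k * q = 1) (hq : q.Prime)
    [NeZero M] [NeZero q] [NeZero (M * q)] [NeZero (M * q * q)]
    (hqM : ¬ q ∣ M) (hA : A.LiesOverPrime q) (ht : H91.TameAt M q),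
    (5 ≤ q ∧ 4 ∣ M) ∨ (q = 3 ∧ 4 ∣ M) ∨ (q = 2 ∧ 9 ∣ M) →
    ∀ D : NUDataM A q M, IsNuM A q M B k hB hq hqM hA ht D →
      TopInputs A q M B k hB hq hqM hA ht D

/-- VALVEC at every tame level. -/
def Stmt_ValVecAll : Prop :=
  ∀ (A : ValuationSubring Kbar) (q M : ℕ) (B k : ℤ) (hB : B * M + k * q = 1) (hq : q.Prime)
    [NeZero M] [NeZero q] [NeZero (M * q)] [NeZero (M * q * q)]
    (_hqM : ¬ q ∣ M) (_hA : A.LiesOverPrime q) (_ht : H91.TameAt M q),
    (5 ≤ q ∧ 4 ∣ M) ∨ (q = 3 ∧ 4 ∣ M) ∨ (q = 2 ∧ 9 ∣ M) →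
    Stmt_ValVecMod A q M B k hB hq

/-- **`Stmt_S36Targets`** from the three remaining modular statements. -/
theorem s36Targets_of (hNu : Stmt_NuMAll) (hTop : Stmt_TopAll) (hVV : Stmt_ValVecAll) :
    Stmt_S36Targets := by
  intro A q M B k hB hq _ _ _ hqM hA htame
  haveI : NeZero (M * q) := ⟨Nat.mul_ne_zero (NeZero.ne M) (NeZero.ne q)⟩
  have ht : H91.TameAt M q := tameAt_of_tameNU hq htame
  have hc := cases_of_tameNU hq htame
  obtain ⟨D, hD⟩ := hNu A q M B k hB hq hqM hA ht hc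
  exact ⟨finMod_top A q M B k hB hq hqM hA ht D hD (hTop A q M B k hB hq hqM hA ht hc D hD),
    hVV A q M B k hB hq hqM hA ht hc⟩

/-- **`Stmt_NUCoreTame`** from the three remaining modular statements. -/
theorem nuCoreTame_final (hNu : Stmt_NuMAll) (hTop : Stmt_TopAll) (hVV : Stmt_ValVecAll) :
    Stmt_NUCoreTame :=
  nuCoreTame_of (s36Targets_of hNu hTop hVV)

end Fermat.Agent.S36.NU.H10

end
end
-- ==== END Fermat.Agent.S36.NU.H10_Final

-- ==== BEGIN Fermat.Agent.S36.NU.H28_RadQMod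
section

/-!
# S36 / NU-B, leaf RADQ-MOD (helper28): TI3-VAL and (RADQ) for the two modular charts

Level `N = M q²`, `q ∤ M`, `F = L0 A N`, `K = Kur A`, `R = Rur A`, `j = j0 A N`, the three
valuations `V₂₀`, `V₁₁`, `V₀₂` (`totM`), the charts `chart0` (`B = ` integral closure of `R[j]`)
and `chartInf` (`B = ` integral closure of `R[1/j]`) of helper88.

* `incl1N_mem_adjoin_j0` : **DESC-ONE** the inertia-fixed functions of level `1` are rational
  functions of `j` over `K^ur`;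
* `hthree_j0`, `hthree_j0_inv` : **(THREE)** in the shape of helper17's TI3-VAL
  (from helper42's `int_mod`);
* `hG_totM`, `hthree_totM`, `hG_totM_inv`, `hthree_totM_inv` : the same for `(totM ..).V`
  (`i₀ = 0`), the shape of helper88's `chartHyp_chart0'`;
* `harch_totM` : the three valuations are of rank one;
* `crit0`, `critInf` : **TI3-VAL** `f` integral over `K[j]` (resp. `K[1/j]`), `f ∈ V_i` for all
  `i` ⟹ `f ∈ B`;
* `hrad0`, `hradoo` : **(RADQ)** for the two charts (the hypotheses of `H24.fin_local`);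
* `isRadQ_of_chart`, `crit_of_chart` : the same for any chart with the three valuations.
-/

set_option autoImplicit false
set_option synthInstance.maxHeartbeats 400000
set_option maxHeartbeats 1000000
set_option linter.style.haveILetI false
set_option linter.unusedSectionVars false

noncomputable section

open ModularCurve AlgebraicCurve Polynomial IntermediateField
open Fermat.Agent.S24 Fermat.Agent.BAD.H88 Fermat.Agent.S28 Fermat.Agent.S28.H73
open Fermat.Agent.RED.H73 Fermat.Agent.RED.H17 Fermat.Agent.S36.NU.H88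
open Fermat.Agent.S36.NU.H23 Fermat.Agent.S36.NU.H41 Fermat.Agent.S36.NU.H17
open Fermat.Agent.S36.NU.H16 Fermat.Agent.S36.NU.H65 Fermat.Agent.BAD

namespace Fermat.Agent.S36.NU.H28

/-! ### DESC-ONE -/

section Desc

variable (A : ValuationSubring Kbar) (N : ℕ) [NeZero N]

/-- An element of `F_N` whose expansion lies in `ℚ̄(j)` lies in `ℚ̄(j)`. -/
theorem mem_adjoin_jF_of_series (x : FN N)
    (hx : (x : LaurentSeries Kbar)
      ∈ IntermediateField.adjoin Kbar ({jqModC Kbar} : Set (LaurentSeries Kbar))) :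
    x ∈ Kbar⟮Fermat.Agent.S24.jF N⟯ := by
  have h1 : (Kbar⟮Fermat.Agent.S24.jF N⟯).map (modularFunctionFieldBar N).val
      = IntermediateField.adjoin Kbar ({((Fermat.Agent.S24.jF N : FN N) : LaurentSeries Kbar)} :
          Set (LaurentSeries Kbar)) := by
    rw [IntermediateField.adjoin_map, Set.image_singleton]
    rfl
  have h2 : ((Fermat.Agent.S24.jF N : FN N) : LaurentSeries Kbar) = jqModC Kbar := by
    rw [← jdF_one_eq_jF, coe_jdF_one, H65.intSer, jInt, coeffMap_qExpand, coeffMap_jqModC,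
      qExpand_one_apply]
  rw [h2] at h1
  rw [← h1] at hx
  obtain ⟨y, hy, hyx⟩ := hx
  have : y = x := Subtype.ext hyx
  rw [← this]
  exact hy

end Desc

section Mod

variable (A : ValuationSubring Kbar) (q M : ℕ) (B k : ℤ) (hB : B * M + k * q = 1) (hq : q.Prime)
  [NeZero M] [NeZero q] [NeZero (M * q * q)] (hqM : ¬ q ∣ M) (hA : A.LiesOverPrime q)
  (ht : H91.TameAt M q)

attribute [local instance] algkM

/-- **DESC-ONE**: the inertia-fixed functions of level `1` are rational functions of `j` over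
`K^ur`. -/
theorem incl1N_mem_adjoin_j0 (a : ↥(L0 A 1)) :
    H42.incl1N A q M a ∈ (↥(Kur A))⟮j0 A (M * q * q)⟯ := by
  apply fixed_mem_adjoin_j0
  apply _root_.Fermat.Agent.S36.NU.H28.mem_adjoin_jF_of_series
  rw [H42.coe_incl1N, ← H42.bar_one_eq]
  exact (a : FN 1).2

theorem adjoin_j0_inv_eq :
    (↥(Kur A))⟮(j0 A (M * q * q))⁻¹⟯ = (↥(Kur A))⟮j0 A (M * q * q)⟯ :=
  H88.adjoin_inv_eq ↥(Kur A) (j0 A (M * q * q))

/-! ### (THREE) -/

include hq hqM hA in
/-- **(THREE)** for `j`, in the shape of helper17's TI3-VAL. -/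
theorem hthree_j0 (f : ↥(L0 A (M * q * q))) (h20 : f ∈ V20o A q M)
    (h11 : f ∈ V11o A q M B k hB hq) (h02 : f ∈ V02o A q M B k hB) :
    ∃ P : (↥(L0 A (M * q * q)))[X], P.Monic ∧
      (∀ m, P.coeff m ∈ V20o A q M ∧ P.coeff m ∈ (↥(Kur A))⟮j0 A (M * q * q)⟯) ∧
      P.eval f = 0 := by
  obtain ⟨P, hP, hc, hV, -, -, hroot⟩ := H42.int_mod A q M B k hB hq hqM hA f h20 h11 h02
  refine ⟨P, hP, fun m => ⟨hV m, ?_⟩, hroot⟩
  obtain ⟨a, -, e⟩ := hc m
  rw [e]
  exact incl1N_mem_adjoin_j0 A q M a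

include hq hqM hA in
/-- **(THREE)** for `1 / j`. -/
theorem hthree_j0_inv (f : ↥(L0 A (M * q * q))) (h20 : f ∈ V20o A q M)
    (h11 : f ∈ V11o A q M B k hB hq) (h02 : f ∈ V02o A q M B k hB) :
    ∃ P : (↥(L0 A (M * q * q)))[X], P.Monic ∧
      (∀ m, P.coeff m ∈ V20o A q M ∧ P.coeff m ∈ (↥(Kur A))⟮(j0 A (M * q * q))⁻¹⟯) ∧
      P.eval f = 0 := by
  rw [adjoin_j0_inv_eq]
  exact hthree_j0 A q M B k hB hq hqM hA f h20 h11 h02

/-! ### The shapes for `totM` -/

theorem totM_V_zero : (totM A q M B k hB hq hqM hA ht).V 0 = V20o A q M := rfl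

theorem totM_V_one : (totM A q M B k hB hq hqM hA ht).V 1 = V11o A q M B k hB hq := rfl

theorem totM_V_two : (totM A q M B k hB hq hqM hA ht).V 2 = V02o A q M B k hB := rfl

/-- **(G)** for `j`, for `totM`. -/
theorem hG_totM (p : (↥(Kur A))[X])
    (hp : aeval (j0 A (M * q * q)) p ∈ (totM A q M B k hB hq hqM hA ht).V 0) (i : ℕ) :
    p.coeff i ∈ (algebraMap ↥(Rur A) ↥(Kur A)).range :=
  gauss_j0 A q M hq hqM hA p hp i

/-- **(G)** for `1 / j`, for `totM`. -/
theorem hG_totM_inv (p : (↥(Kur A))[X])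
    (hp : aeval (j0 A (M * q * q))⁻¹ p ∈ (totM A q M B k hB hq hqM hA ht).V 0) (i : ℕ) :
    p.coeff i ∈ (algebraMap ↥(Rur A) ↥(Kur A)).range :=
  gauss_j0_inv A q M hq hqM hA p hp i

/-- **(THREE)** for `j`, for `totM`. -/
theorem hthree_totM (f : ↥(L0 A (M * q * q)))
    (hf : ∀ i, f ∈ (totM A q M B k hB hq hqM hA ht).V i) :
    ∃ P : (↥(L0 A (M * q * q)))[X], P.Monic ∧
      (∀ m, P.coeff m ∈ (totM A q M B k hB hq hqM hA ht).V 0 ∧
        P.coeff m ∈ (↥(Kur A))⟮j0 A (M * q * q)⟯) ∧ P.eval f = 0 :=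
  hthree_j0 A q M B k hB hq hqM hA f (hf 0) (hf 1) (hf 2)

/-- **(THREE)** for `1 / j`, for `totM`. -/
theorem hthree_totM_inv (f : ↥(L0 A (M * q * q)))
    (hf : ∀ i, f ∈ (totM A q M B k hB hq hqM hA ht).V i) :
    ∃ P : (↥(L0 A (M * q * q)))[X], P.Monic ∧
      (∀ m, P.coeff m ∈ (totM A q M B k hB hq hqM hA ht).V 0 ∧
        P.coeff m ∈ (↥(Kur A))⟮(j0 A (M * q * q))⁻¹⟯) ∧ P.eval f = 0 :=
  hthree_j0_inv A q M B k hB hq hqM hA f (hf 0) (hf 1) (hf 2)

/-- The three valuations are of rank one. -/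
theorem harch_totM (i : Fin 3) (x y : ↥(L0 A (M * q * q)))
    (hx : ((totM A q M B k hB hq hqM hA ht).V i).valuation x < 1) (hy : y ≠ 0) :
    ∃ n : ℕ, ((totM A q M B k hB hq hqM hA ht).V i).valuation (x ^ n)
      < ((totM A q M B k hB hq hqM hA ht).V i).valuation y :=
  @H42.NRData.hA ↥(L0 A M) ↥(L0 A (M * q * q)) (FM A M) _ _ _ (algL0 A (hleMN q M))
    (Fin 3) (kap3 (FM A M) (FM A M)) _ (algM A q M hq hqM hA)
    (nrM A q M B k hB hq hqM hA) i x y hx hy

/-! ### `ChartHyp` -/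

/-- `ChartHyp` for the chart of `j` (helper88 `chartHyp_chart0'`), unconditional. -/
theorem chartHyp0 (n : ℕ) (hn : 0 < n) (hcop : Nat.Coprime n q) :
    H24.ChartHyp (chart0 A q M B k hB hq hqM hA ht) q n :=
  chartHyp_chart0' A q M B k hB hq hqM hA ht 0 (hG_totM A q M B k hB hq hqM hA ht)
    (_root_.Fermat.Agent.S36.NU.H28.hthree_totM A q M B k hB hq hqM hA ht) n hn hcop

/-- `ChartHyp` for the chart of `1 / j` (helper88 `chartHyp_chartInf'`), unconditional. -/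
theorem chartHypInf (n : ℕ) (hn : 0 < n) (hcop : Nat.Coprime n q) :
    H24.ChartHyp (chartInf A q M B k hB hq hqM hA ht) q n :=
  chartHyp_chartInf' A q M B k hB hq hqM hA ht 0 (hG_totM A q M B k hB hq hqM hA ht)
    (_root_.Fermat.Agent.S36.NU.H28.hthree_totM A q M B k hB hq hqM hA ht) n hn hcop

/-! ### TI3-VAL (crit) -/

/-- **TI3-VAL** for the chart of `j`. -/
theorem crit0 {f : ↥(L0 A (M * q * q))}
    (hf₁ : IsIntegral ↥(Algebra.adjoin ↥(Kur A) {j0 A (M * q * q)}) f)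
    (hf₂ : ∀ i, f ∈ (totM A q M B k hB hq hqM hA ht).V i) :
    f ∈ intSub ↥(Rur A) (j0 A (M * q * q)) :=
  isIntegral_adjoin_of_forall_mem ↥(Rur A) ↥(Kur A) (j0 A (M * q * q))
    (transcendental_j0 A (M * q * q)) (totM A q M B k hB hq hqM hA ht).V 0
    (hG_totM A q M B k hB hq hqM hA ht) (_root_.Fermat.Agent.S36.NU.H28.hthree_totM A q M B k hB hq hqM hA ht) hf₁ hf₂

/-- **TI3-VAL** for the chart of `1 / j`. -/
theorem critInf {f : ↥(L0 A (M * q * q))}
    (hf₁ : IsIntegral ↥(Algebra.adjoin ↥(Kur A) {(j0 A (M * q * q))⁻¹}) f)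
    (hf₂ : ∀ i, f ∈ (totM A q M B k hB hq hqM hA ht).V i) :
    f ∈ intSub ↥(Rur A) (j0 A (M * q * q))⁻¹ :=
  isIntegral_adjoin_of_forall_mem ↥(Rur A) ↥(Kur A) (j0 A (M * q * q))⁻¹
    (transcendental_inv ↥(Kur A) _ (transcendental_j0 A (M * q * q)))
    (totM A q M B k hB hq hqM hA ht).V 0
    (hG_totM_inv A q M B k hB hq hqM hA ht) (_root_.Fermat.Agent.S36.NU.H28.hthree_totM_inv A q M B k hB hq hqM hA ht) hf₁ hf₂

/-! ### (RADQ) -/

theorem algebraMap_Rur_ne_zero (ϖ : ↥(Rur A)) (hϖ : ϖ ≠ 0) :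
    algebraMap ↥(Rur A) ↥(L0 A (M * q * q)) ϖ ≠ 0 := by
  rw [IsScalarTower.algebraMap_apply ↥(Rur A) ↥(Kur A) ↥(L0 A (M * q * q))]
  intro h
  apply hϖ
  have h1 := (algebraMap ↥(Kur A) ↥(L0 A (M * q * q))).injective (h.trans (map_zero _).symm)
  exact Subtype.ext h1

/-- **(RADQ)** for the chart of `j`. -/
theorem hrad0 (ϖ : ↥(Rur A)) (hϖ : ϖ ≠ 0) :
    ∀ β ∈ (chart0 A q M B k hB hq hqM hA ht).B,
      (∀ i, (chart0 A q M B k hB hq hqM hA ht).rd i β = 0) →
        IsRadQ (chart0 A q M B k hB hq hqM hA ht).B ϖ β := fun _ hβ hrd =>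
  isRadQ_of_rd_eq_zero_adjoin ↥(Rur A) ↥(Kur A) (chart0 A q M B k hB hq hqM hA ht)
    (j0 A (M * q * q)) (transcendental_j0 A (M * q * q)) (fun _ => Iff.rfl) 0
    (hG_totM A q M B k hB hq hqM hA ht) (_root_.Fermat.Agent.S36.NU.H28.hthree_totM A q M B k hB hq hqM hA ht)
    (harch_totM A q M B k hB hq hqM hA ht) ϖ (algebraMap_Rur_ne_zero A q M ϖ hϖ) hβ hrd

/-- **(RADQ)** for the chart of `1 / j`. -/
theorem hradoo (ϖ : ↥(Rur A)) (hϖ : ϖ ≠ 0) :
    ∀ β ∈ (chartInf A q M B k hB hq hqM hA ht).B,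
      (∀ i, (chartInf A q M B k hB hq hqM hA ht).rd i β = 0) →
        IsRadQ (chartInf A q M B k hB hq hqM hA ht).B ϖ β := fun _ hβ hrd =>
  isRadQ_of_rd_eq_zero_adjoin ↥(Rur A) ↥(Kur A) (chartInf A q M B k hB hq hqM hA ht)
    (j0 A (M * q * q))⁻¹ (transcendental_inv ↥(Kur A) _ (transcendental_j0 A (M * q * q)))
    (fun _ => Iff.rfl) 0
    (hG_totM_inv A q M B k hB hq hqM hA ht) (_root_.Fermat.Agent.S36.NU.H28.hthree_totM_inv A q M B k hB hq hqM hA ht)
    (harch_totM A q M B k hB hq hqM hA ht) ϖ (algebraMap_Rur_ne_zero A q M ϖ hϖ) hβ hrd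

/-! ### Any chart with the three valuations -/

section Generic

variable {kk : Type*} {κ : Fin 3 → Type*} [Field kk] [∀ i, Field (κ i)] [∀ i, Algebra kk (κ i)]
  (C : Chart ↥(Rur A) ↥(L0 A (M * q * q)) kk (Fin 3) κ)
  (hV : ∀ i, C.V i = (totM A q M B k hB hq hqM hA ht).V i)

include hV in
/-- **(RADQ)** for any chart of `j` with the three valuations. -/
theorem isRadQ_of_chart (hB0 : C.B = intSub ↥(Rur A) (j0 A (M * q * q)))
    (ϖ : ↥(Rur A)) (hϖ : ϖ ≠ 0) :
    ∀ β ∈ C.B, (∀ i, C.rd i β = 0) → IsRadQ C.B ϖ β := fun _ hβ hrd =>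
  isRadQ_of_rd_eq_zero_adjoin ↥(Rur A) ↥(Kur A) C
    (j0 A (M * q * q)) (transcendental_j0 A (M * q * q))
    (fun _ => by rw [hB0]; exact Iff.rfl) 0
    (fun p hp => hG_totM A q M B k hB hq hqM hA ht p (hV 0 ▸ hp))
    (fun f hf => by
      obtain ⟨P, hP, hc, hroot⟩ :=
        _root_.Fermat.Agent.S36.NU.H28.hthree_totM A q M B k hB hq hqM hA ht f (fun i => hV i ▸ hf i)
      exact ⟨P, hP, fun m => ⟨(hV 0).symm ▸ (hc m).1, (hc m).2⟩, hroot⟩)
    (fun i x y hx hy => by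
      rw [hV i] at hx ⊢
      exact harch_totM A q M B k hB hq hqM hA ht i x y hx hy)
    ϖ (algebraMap_Rur_ne_zero A q M ϖ hϖ) hβ hrd

include hV in
/-- **(RADQ)** for any chart of `1 / j` with the three valuations. -/
theorem isRadQ_of_chart_inv (hBoo : C.B = intSub ↥(Rur A) (j0 A (M * q * q))⁻¹)
    (ϖ : ↥(Rur A)) (hϖ : ϖ ≠ 0) :
    ∀ β ∈ C.B, (∀ i, C.rd i β = 0) → IsRadQ C.B ϖ β := fun _ hβ hrd =>
  isRadQ_of_rd_eq_zero_adjoin ↥(Rur A) ↥(Kur A) C
    (j0 A (M * q * q))⁻¹ (transcendental_inv ↥(Kur A) _ (transcendental_j0 A (M * q * q)))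
    (fun _ => by rw [hBoo]; exact Iff.rfl) 0
    (fun p hp => hG_totM_inv A q M B k hB hq hqM hA ht p (hV 0 ▸ hp))
    (fun f hf => by
      obtain ⟨P, hP, hc, hroot⟩ :=
        _root_.Fermat.Agent.S36.NU.H28.hthree_totM_inv A q M B k hB hq hqM hA ht f (fun i => hV i ▸ hf i)
      exact ⟨P, hP, fun m => ⟨(hV 0).symm ▸ (hc m).1, (hc m).2⟩, hroot⟩)
    (fun i x y hx hy => by
      rw [hV i] at hx ⊢
      exact harch_totM A q M B k hB hq hqM hA ht i x y hx hy)
    ϖ (algebraMap_Rur_ne_zero A q M ϖ hϖ) hβ hrd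

end Generic

end Mod

end Fermat.Agent.S36.NU.H28

end
end
-- ==== END Fermat.Agent.S36.NU.H28_RadQMod

-- ==== BEGIN Fermat.Agent.S36.NU.H51_ValVecBeta
section

/-!
# S36 / NU-B, leaf VALVEC-MOD (helper51): NORM-VAL along `β` by symmetry

* `normAlong_beta_eq` : `N_β x = w_q (N_α (W_{q²} x))`; `normAlong_alpha_eq` : the converse;
* `NβA` : the norm of `L0 A (M q²) / L0 A (M q)` along `β`, `coe_NβA` (bridge);
* `val2_NβA` : `v₂ (Nβ x) = v₂ (q) ^ (k₁₁ + k₀₂)` (from `val1_NαA`);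
* `NormValA2`, `NormValB1` : the two remaining NORM-VAL statements (above `V₂` along `α`, above
  `V₁` along `β`), `normValB1_of_A2`, `normValA2_of_B1` : they are equivalent;
* `stmt_ValVecMod_of_A2`, `stmt_ValVecMod_of_B1` : **VALVEC-MOD** from either.
-/

set_option autoImplicit false
set_option synthInstance.maxHeartbeats 400000
set_option maxHeartbeats 1000000
set_option linter.style.haveILetI false
set_option linter.unusedSectionVars false

noncomputable section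

open ModularCurve AlgebraicCurve
open Fermat.Agent.S24 Fermat.Agent.BAD.H88 Fermat.Agent.S28 Fermat.Agent.S28.H73
open Fermat.Agent.RED.H73 Fermat.Agent.RED.H17 Fermat.Agent.S36.NU.H88
open Fermat.Agent.S36.NU.H23 Fermat.Agent.Lib.HeckeComm Fermat.Agent.BAD
open Fermat.Agent.S36.NU.H82

namespace Fermat.Agent.S36.NU.H51

section Beta

variable (A : ValuationSubring Kbar) (q M : ℕ) (B k : ℤ) (hB : B * M + k * q = 1) (hq : q.Prime)
  [NeZero M] [NeZero q] [NeZero (M * q)] [NeZero (M * q * q)]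
  (hqM : ¬ q ∣ M) (hA : A.LiesOverPrime q)

/-! ### Transport of the norm -/

theorem wL_symm_apply (z : FN (M * q)) :
    (wL q M B k hB hq).toRingEquiv.symm z = wL q M B k hB hq z := by
  rw [RingEquiv.symm_apply_eq]
  exact (wq_wq q M k B (hab_of_hB q M B k hB) hq z).symm

/-- **`N_β x = w_q (N_α (W_{q²} x))`**. -/
theorem normAlong_beta_eq (x : FN (M * q * q)) :
    normAlongHom (heckeBetaBar Kbar (M * q) q).toRingHom x
      = wL q M B k hB hq
          (normAlongHom (heckeAlphaBar Kbar (M * q) q).toRingHom (wS q M B k hB x)) := by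
  have h := @Algebra.norm_eq_of_equiv_equiv (FN (M * q)) (FN (M * q * q)) (FN (M * q))
    (FN (M * q * q)) _ _ _ _ (heckeBetaBar Kbar (M * q) q).toRingHom.toAlgebra
    (heckeAlphaBar Kbar (M * q) q).toRingHom.toAlgebra
    (wL q M B k hB hq).toRingEquiv (wS q M B k hB).toRingEquiv
    (RingHom.ext fun y => (wS_beta q M B k hB hq y).symm) x
  rw [wL_symm_apply] at h
  exact h

/-- **`N_α x = w_q (N_β (W_{q²} x))`**. -/
theorem normAlong_alpha_eq (x : FN (M * q * q)) :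
    normAlongHom (heckeAlphaBar Kbar (M * q) q).toRingHom x
      = wL q M B k hB hq
          (normAlongHom (heckeBetaBar Kbar (M * q) q).toRingHom (wS q M B k hB x)) := by
  rw [normAlong_beta_eq q M B k hB hq, wq_wq q M k B (hab_of_hB q M B k hB) hq,
    wSq_wSq (M * q * q) q M B k (lvl q M) hB]

/-- The norm of `L0 A (M q²) / L0 A (M q)` along `β`. -/
def NβA : ↥(L0 A (M * q * q)) → ↥(L0 A (M * q)) := fun x =>
  wLo A q M B k hB hq (NαA A q M (wSo A q M B k hB x))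

/-- **Bridge**: `Nβ` is the norm along `β`. -/
theorem coe_NβA (x : ↥(L0 A (M * q * q))) :
    ((NβA A q M B k hB hq x : ↥(L0 A (M * q))) : FN (M * q))
      = normAlongHom (heckeBetaBar Kbar (M * q) q).toRingHom (x : FN (M * q * q)) := by
  rw [normAlong_beta_eq q M B k hB hq]
  show wL q M B k hB hq ((NαA A q M (wSo A q M B k hB x) : ↥(L0 A (M * q))) : FN (M * q)) = _
  rw [coe_NαA, coe_wSo]

theorem NαA_eq (x : ↥(L0 A (M * q * q))) :
    NαA A q M x = wLo A q M B k hB hq (NβA A q M B k hB hq (wSo A q M B k hB x)) := by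
  show _ = wLo A q M B k hB hq (wLo A q M B k hB hq
    (NαA A q M (wSo A q M B k hB (wSo A q M B k hB x))))
  rw [wLo_wLo, wSo_wSo]

/-! ### NORM-VAL along `β` above `V₂` -/

include hqM hA in
/-- **NORM-VAL along `β` above `V₂`**. -/
theorem val2_NβA (x : ↥(L0 A (M * q * q))) (k₂ k₃ : ℤ)
    (h11 : (V11o A q M B k hB hq).valuation x
        = (V11o A q M B k hB hq).valuation (pi11 A q M) ^ k₂)
    (h02 : (V02o A q M B k hB).valuation x
        = (V02o A q M B k hB).valuation ((q : ℕ) : ↥(L0 A (M * q * q))) ^ k₃) :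
    (V2o A q M B k hB hq).valuation (NβA A q M B k hB hq x)
      = (V2o A q M B k hB hq).valuation ((q : ℕ) : ↥(L0 A (M * q))) ^ (k₂ + k₃) := by
  apply val2_wLo_of_val1
  rw [add_comm]
  exact val1_NαA A q M B k hB hq hqM hA _ k₃ k₂ (val20_wSo_of_val02 A q M B k hB x k₃ h02)
    (val11_wSo A q M B k hB hq hqM hA x k₂ h11)

/-! ### The two remaining statements -/

/-- **NORM-VAL along `α` above `V₂`** (`V₀₂` is the only valuation above, `e = 1`, `f = q`). -/
def NormValA2 : Prop :=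
  ∀ x : ↥(L0 A (M * q * q)), x ≠ 0 → ∀ k₃ : ℤ,
    (V02o A q M B k hB).valuation x
      = (V02o A q M B k hB).valuation ((q : ℕ) : ↥(L0 A (M * q * q))) ^ k₃ →
    (V2o A q M B k hB hq).valuation (NαA A q M x)
      = (V2o A q M B k hB hq).valuation ((q : ℕ) : ↥(L0 A (M * q))) ^ ((q : ℤ) * k₃)

/-- **NORM-VAL along `β` above `V₁`** (`V₂₀` is the only valuation above, `e = 1`, `f = q`). -/
def NormValB1 : Prop :=
  ∀ x : ↥(L0 A (M * q * q)), x ≠ 0 → ∀ k₁ : ℤ,
    (V20o A q M).valuation x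
      = (V20o A q M).valuation ((q : ℕ) : ↥(L0 A (M * q * q))) ^ k₁ →
    (V1o A q M).valuation (NβA A q M B k hB hq x)
      = (V1o A q M).valuation ((q : ℕ) : ↥(L0 A (M * q))) ^ ((q : ℤ) * k₁)

theorem wSo_ne_zero (x : ↥(L0 A (M * q * q))) (hx : x ≠ 0) : wSo A q M B k hB x ≠ 0 :=
  (map_ne_zero (wSo A q M B k hB)).2 hx

theorem normValB1_of_A2 (h : NormValA2 A q M B k hB hq) : NormValB1 A q M B k hB hq := by
  intro x hx k₁ h20
  apply val1_wLo_of_val2
  exact h _ (wSo_ne_zero A q M B k hB x hx) k₁ (val02_wSo_of_val20 A q M B k hB x k₁ h20)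

theorem normValA2_of_B1 (h : NormValB1 A q M B k hB hq) : NormValA2 A q M B k hB hq := by
  intro x hx k₃ h02
  rw [NαA_eq A q M B k hB hq x]
  apply val2_wLo_of_val1
  exact h _ (wSo_ne_zero A q M B k hB x hx) k₃ (val20_wSo_of_val02 A q M B k hB x k₃ h02)

/-- The forms with an arbitrary name for the norm. -/
theorem normValA2_of_any
    (h : ∀ x : ↥(L0 A (M * q * q)), x ≠ 0 → ∀ k₃ : ℤ,
      (V02o A q M B k hB).valuation x
        = (V02o A q M B k hB).valuation ((q : ℕ) : ↥(L0 A (M * q * q))) ^ k₃ →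
      ∃ y : ↥(L0 A (M * q)), (y : FN (M * q))
          = normAlongHom (heckeAlphaBar Kbar (M * q) q).toRingHom (x : FN (M * q * q)) ∧
        (V2o A q M B k hB hq).valuation y
          = (V2o A q M B k hB hq).valuation ((q : ℕ) : ↥(L0 A (M * q))) ^ ((q : ℤ) * k₃)) :
    NormValA2 A q M B k hB hq := by
  intro x hx k₃ h02
  obtain ⟨y, hy, hv⟩ := h x hx k₃ h02
  have e : NαA A q M x = y := Subtype.ext ((coe_NαA A q M x).trans hy.symm)
  rw [e]
  exact hv

theorem normValB1_of_any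
    (h : ∀ x : ↥(L0 A (M * q * q)), x ≠ 0 → ∀ k₁ : ℤ,
      (V20o A q M).valuation x
        = (V20o A q M).valuation ((q : ℕ) : ↥(L0 A (M * q * q))) ^ k₁ →
      ∃ y : ↥(L0 A (M * q)), (y : FN (M * q))
          = normAlongHom (heckeBetaBar Kbar (M * q) q).toRingHom (x : FN (M * q * q)) ∧
        (V1o A q M).valuation y
          = (V1o A q M).valuation ((q : ℕ) : ↥(L0 A (M * q))) ^ ((q : ℤ) * k₁)) :
    NormValB1 A q M B k hB hq := by
  intro x hx k₁ h20
  obtain ⟨y, hy, hv⟩ := h x hx k₁ h20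
  have e : NβA A q M B k hB hq x = y := Subtype.ext ((coe_NβA A q M B k hB hq x).trans hy.symm)
  rw [e]
  exact hv

/-! ### VALVEC-MOD -/

include hqM hA in
theorem normValHyp_of_A2 (h : NormValA2 A q M B k hB hq) : NormValHyp A q M B k hB hq :=
  ⟨NαA A q M, NβA A q M B k hB hq, coe_NαA A q M, coe_NβA A q M B k hB hq,
    fun x _ k₁ k₂ h20 h11 => val1_NαA A q M B k hB hq hqM hA x k₁ k₂ h20 h11,
    h, normValB1_of_A2 A q M B k hB hq h,
    fun x _ k₂ k₃ h11 h02 => val2_NβA A q M B k hB hq hqM hA x k₂ k₃ h11 h02⟩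

include hqM hA in
/-- **VALVEC-MOD** from NORM-VAL along `α` above `V₂`. -/
theorem stmt_ValVecMod_of_A2 (h : NormValA2 A q M B k hB hq) :
    H10.Stmt_ValVecMod A q M B k hB hq :=
  stmt_ValVecMod_of_normVal A q M B k hB hq hqM hA (normValHyp_of_A2 A q M B k hB hq hqM hA h)

include hqM hA in
/-- **VALVEC-MOD** from NORM-VAL along `β` above `V₁`. -/
theorem stmt_ValVecMod_of_B1 (h : NormValB1 A q M B k hB hq) :
    H10.Stmt_ValVecMod A q M B k hB hq :=
  stmt_ValVecMod_of_A2 A q M B k hB hq hqM hA (normValA2_of_B1 A q M B k hB hq h)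

end Beta

end Fermat.Agent.S36.NU.H51

end
end
-- ==== END Fermat.Agent.S36.NU.H51_ValVecBeta

-- ==== BEGIN Fermat.Agent.S36.NU.H74_HssFive
section
attribute [local instance 10000] SubalgebraClass.toAlgebra
attribute [local instance 10000] HahnSeries.powerSeriesAlgebra

/-!
# S36 / NU-B, leaf HSS-ASM, the instance `q ≥ 5` (helper74)

Setting of helper23's `totM` and helper88's `chart0` (level `N = M q²`, `q ∤ M` tame, `4 ∣ M`),
supersingular points `ssM A q M` (H74_FinHyps), coordinate `f = Δ(t)/Δ(t⁴)`, `u₀ = uZ4`.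

* `DLinv_mem_FM` : the reduction `(Δ~ ^ (q - 1))⁻¹` of `Δ(t)/Δ(t^q)` lies in `FM A M`;
* `ord_pos_of_ssM` : it vanishes at the supersingular points;
* `ord_jRed_of_ssM` : `j~` is regular at the supersingular points;
* `pole_ssM_five` : COORD + POLE at the supersingular points (`q ≥ 5`), from helper44's
  `pole_full_d2_FM`;
* `hss_five_at`, `hss_five` : **the hypothesis `hss`** of `H99.pointData_of_dichotomy` on
  `chart0`, for `q ≥ 5`, from `hG`, `hthree` (TI3-VAL).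
-/

set_option autoImplicit false
set_option synthInstance.maxHeartbeats 400000
set_option maxHeartbeats 1000000
set_option linter.style.haveILetI false
set_option linter.unusedSectionVars false

noncomputable section

open ModularCurve AlgebraicCurve Polynomial

namespace Fermat.Agent.S36.NU.H74

open Fermat.Agent.S24 Fermat.Agent.BAD.H88 Fermat.Agent.BAD.H30 Fermat.Agent.BAD.H21
open Fermat.Agent.S28 Fermat.Agent.S28.H73 Fermat.Agent.RED.H73 Fermat.Agent.RED.H17
open Fermat.Agent.S36.NU.H88 Fermat.Agent.S36.NU.H23 Fermat.Agent.S36.NU.H16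
open Fermat.Agent.S36.NU.H41 Fermat.Agent.S36.NU.H65 Fermat.Agent.S36.NU.H73
open Fermat.Agent.BAD Fermat.Agent.RED

section SS

variable (A : ValuationSubring Kbar) (q M : ℕ) (hq : q.Prime)
  [NeZero M] [NeZero q] [NeZero (M * q)] (hqM : ¬ q ∣ M) (hA : A.LiesOverPrime q)

include hq hqM hA in
/-- The reduction `(Δ~ ^ (q - 1))⁻¹` of `Δ(t)/Δ(t^q)` lies in the residue field of level `M`. -/
theorem DLinv_mem_FM :
    (H21_DL (kV A) ^ (q - 1))⁻¹ ∈ redField A (modularFunctionFieldBar M) (hScM A M) := by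
  haveI : Fact q.Prime := ⟨hq⟩
  obtain ⟨a, b, hab⟩ := H44.exists_bezout q M hqM
  rw [stmt_GA M q hq hqM A hA, ← H82.redField_eq_fullC q M a b hab hq A hA, ← deltaR_eq_DL,
    ← gaussRes_unitF_char A (M * q) q hA (Dvd.intro_left M rfl)]
  exact SetLike.coe_mem _

include hq hA in
/-- The reduction of `Δ(t)/Δ(t^q)` vanishes at the supersingular points. -/
theorem ord_pos_of_ssM {z : Place (kV A) (FM A M)} (hz : z ∈ ssM A q M) (y : FM A M)
    (hy : (y : LaurentSeries (kV A)) = (H21_DL (kV A) ^ (q - 1))⁻¹) : 0 < z.ord y := by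
  haveI : Fact q.Prime := ⟨hq⟩
  refine hz.2 y ?_
  rw [hy, gaussRes_unitF_char A (M * q) q hA (Dvd.intro_left M rfl), deltaR_eq_DL]

/-- `j~` is regular at the supersingular points. -/
theorem ord_jRed_of_ssM {z : Place (kV A) (FM A M)} (hz : z ∈ ssM A q M) (jE : FM A M)
    (hj : (jE : LaurentSeries (kV A)) = jqModC (kV A)) : 0 ≤ z.ord jE := by
  have e : jE = Fermat.Agent.BAD.H91.jRed A M := Subtype.ext (hj.trans (red_jF A M).symm)
  rw [e]
  exact hz.1

end SS

section Five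

variable (A : ValuationSubring Kbar) (q M : ℕ) (B k : ℤ) (hB : B * M + k * q = 1) (hq : q.Prime)
  [NeZero M] [NeZero q] [NeZero (M * q)] [NeZero (M * q * q)] (hqM : ¬ q ∣ M)
  (hA : A.LiesOverPrime q) (ht : H91.TameAt M q)

attribute [local instance] algkM

/-- The expansion of `Δ(t)/Δ(t⁴)`. -/
theorem coe_unitF4 (h4 : 4 ∣ M) :
    ((unitF M 4 h4 : FN M) : LaurentSeries Kbar) = H65.intSer Kbar uZ4 :=
  H73.coeffMap_uZ4_Kbar M h4

include hq hqM hA in
/-- **COORD + POLE at the supersingular points**, `q ≥ 5`, `4 ∣ M`. -/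
theorem pole_ssM_five (h5 : 5 ≤ q) (h4 : 4 ∣ M) {z : Place (kV A) (FM A M)}
    (hz : z ∈ ssM A q M) :
    ∃ (c : kV A) (u y₂ : FM A M),
      (u : LaurentSeries (kV A)) = coeffMap (Int.castRingHom (kV A)) uZ4 ∧
      (y₂ : LaurentSeries (kV A)) = - coeffMap (Int.castRingHom (kV A)) (H65.kdel q uZ4) ^ q ∧
      z.ord (u - algebraMap (kV A) (FM A M) c) = 1 ∧ c ^ q ^ 2 = c ∧ z.ord y₂ = -(q : ℤ) := by
  haveI : Fact q.Prime := ⟨hq⟩
  have hu0 : coeffMap (Int.castRingHom (kV A)) uZ4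
      ∈ redField A (modularFunctionFieldBar M) (hScM A M) := by
    rw [stmt_GA M q hq hqM A hA]
    exact H44.ubar_mem_gen A q M hA hqM (unitF M 4 h4) uZ4 (coe_unitF4 M h4)
  set u : FM A M := ⟨coeffMap (Int.castRingHom (kV A)) uZ4, hu0⟩ with hu
  set d : FM A M := ⟨coeffMap (Int.castRingHom (kV A)) (H65.kdel q uZ4),
    H44.dbar_mem_FM A q M hA hqM h4⟩ with hd
  set y : FM A M := ⟨(H21_DL (kV A) ^ (q - 1))⁻¹, DLinv_mem_FM A q M hq hqM hA⟩ with hy
  have hj : ((Fermat.Agent.BAD.H91.jRed A M : FM A M) : LaurentSeries (kV A))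
      = jqModC (kV A) := red_jF A M
  obtain ⟨c, h1, h2, h3⟩ := H44.pole_full_d2_FM A q M hA hqM h4 h5 z
    (Fermat.Agent.BAD.H91.jRed A M) u y d (-d ^ q) hj
    (by rw [hu]; exact (H73.coeffMap_uZ4 (k := kV A)))
    rfl rfl rfl hz.1 (ord_pos_of_ssM A q M hq hA hz y rfl)
  exact ⟨c, u, -d ^ q, rfl, rfl, h1, h2, h3⟩

include hB in
/-- **HSS-ASM at one supersingular point**, `q ≥ 5`: all components of `chart0` pass through the
point over `z`, and there is a local equation datum there. -/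
theorem hss_five_at (h5 : 5 ≤ q) (h4 : 4 ∣ M) (i₀ : Fin 3)
    (hG : ∀ p : (↥(Kur A))[X],
      aeval (j0 A (M * q * q)) p ∈ (totM A q M B k hB hq hqM hA ht).V i₀ →
        ∀ i, p.coeff i ∈ (algebraMap ↥(Rur A) ↥(Kur A)).range)
    (hthree : ∀ f : ↥(L0 A (M * q * q)),
      (∀ i, f ∈ (totM A q M B k hB hq hqM hA ht).V i) →
      ∃ P : (↥(L0 A (M * q * q)))[X], P.Monic ∧
        (∀ m, P.coeff m ∈ (totM A q M B k hB hq hqM hA ht).V i₀ ∧
          P.coeff m ∈ IntermediateField.adjoin ↥(Kur A) {j0 A (M * q * q)}) ∧ P.eval f = 0)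
    {z : Place (kV A) (FM A M)} (hz : z ∈ ssM A q M)
    (𝔪 : Ideal (chart0 A q M B k hB hq hqM hA ht).B) (hmax : 𝔪.IsMaximal)
    (h𝔪 : ∀ β : (chart0 A q M B k hB hq hqM hA ht).B,
      β ∈ 𝔪 ↔ VanAt ((totM A q M B k hB hq hqM hA ht).pt 0 z)
        ((chart0 A q M B k hB hq hqM hA ht).rdB 0 β)) :
    (∀ i, (chart0 A q M B k hB hq hqM hA ht).Icomp i ≤ 𝔪) ∧
      Nonempty (LocEq (chart0 A q M B k hB hq hqM hA ht) ((q : ℕ) : ↥(Rur A)) 𝔪) := by
  haveI : 𝔪.IsPrime := hmax.isPrime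
  haveI : CharP (kV A) q := Fermat.Agent.BAD.H82.charP_kV A hq hA
  obtain ⟨c, u, y₂, hu, hy₂, hord, hc, hd⟩ := pole_ssM_five A q M hq hqM hA h5 h4 hz
  exact hss_gen A q M B k hB hq hqM hA ht i₀ hG hthree (unitF M 4 h4) uZ4 (coe_unitF4 M h4)
    (thetaNZ_uZ4 (kV A) q h5)
    (isIntegral_uo_unitF A q M 4 h4 uZ4 (coe_unitF4 M h4))
    (isIntegral_u2o_unitF A q M 4 h4 uZ4 (coe_unitF4 M h4))
    z c u y₂ hu hy₂ hord hc hd 𝔪 h𝔪

include hB in
/-- **The hypothesis `hss`** of `H99.pointData_of_dichotomy` on `chart0`, `q ≥ 5`, `4 ∣ M`. -/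
theorem hss_five (h5 : 5 ≤ q) (h4 : 4 ∣ M) (i₀ : Fin 3)
    (hG : ∀ p : (↥(Kur A))[X],
      aeval (j0 A (M * q * q)) p ∈ (totM A q M B k hB hq hqM hA ht).V i₀ →
        ∀ i, p.coeff i ∈ (algebraMap ↥(Rur A) ↥(Kur A)).range)
    (hthree : ∀ f : ↥(L0 A (M * q * q)),
      (∀ i, f ∈ (totM A q M B k hB hq hqM hA ht).V i) →
      ∃ P : (↥(L0 A (M * q * q)))[X], P.Monic ∧
        (∀ m, P.coeff m ∈ (totM A q M B k hB hq hqM hA ht).V i₀ ∧
          P.coeff m ∈ IntermediateField.adjoin ↥(Kur A) {j0 A (M * q * q)}) ∧ P.eval f = 0) :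
    ∀ z ∈ ssM A q M, ∀ 𝔪 : Ideal (chart0 A q M B k hB hq hqM hA ht).B, 𝔪.IsMaximal →
      (∀ β : (chart0 A q M B k hB hq hqM hA ht).B,
        β ∈ 𝔪 ↔ VanAt ((totM A q M B k hB hq hqM hA ht).pt 0 z)
          ((chart0 A q M B k hB hq hqM hA ht).rdB 0 β)) →
      Nonempty (LocEq (chart0 A q M B k hB hq hqM hA ht) ((q : ℕ) : ↥(Rur A)) 𝔪) :=
  fun _ hz 𝔪 hmax h𝔪 =>
    (hss_five_at A q M B k hB hq hqM hA ht h5 h4 i₀ hG hthree hz 𝔪 hmax h𝔪).2

end Five

end Fermat.Agent.S36.NU.H74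

end
end
-- ==== END Fermat.Agent.S36.NU.H74_HssFive

-- ==== BEGIN Fermat.Agent.S36.NU.H82_J0Jdd
section

/-!
# S36 / NU-B, (M2) branches at the cusps, component `02` (helper82 for helper42):
`j` is integral over `R[j'']`

`j'' = j(q²τ)` is integral over `R[j]` (helper88 `jdd_mem_intSub_mod`); the Atkin–Lehner involution
`W_{q²}` exchanges `j` and `j''` and fixes the constants, hence `j` is integral over `R[j'']`.

* `isIntegral_adjoin_map` : integrality over `R[u]` is transported by `R`-algebra homomorphisms;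
* `wSoAlg` : `W_{q²}` as an `R`-algebra homomorphism of the inertia-fixed functions;
* `wSo_j0`, `wSo_jdd`;
* `isIntegral_j0_jdd` : `j` is integral over `R[j'']`.
-/

set_option autoImplicit false
set_option synthInstance.maxHeartbeats 400000
set_option maxHeartbeats 1000000
set_option linter.style.haveILetI false
set_option linter.unusedSectionVars false
set_option linter.unusedVariables false

noncomputable section

open ModularCurve AlgebraicCurve
open Fermat.Agent.S24 Fermat.Agent.BAD.H88 Fermat.Agent.S28 Fermat.Agent.S28.H73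
open Fermat.Agent.RED.H73 Fermat.Agent.RED.H17 Fermat.Agent.S36.NU.H88
open Fermat.Agent.S36.NU.H23 Fermat.Agent.S36.NU.H41 Fermat.Agent.S36.NU.H51
open Fermat.Agent.S36.NU.H65

namespace Fermat.Agent.S36.NU.H82

section Gen

variable {R F E : Type*} [CommRing R] [CommRing F] [CommRing E] [Algebra R F] [Algebra R E]

/-- Integrality over `R[u]` is transported by `R`-algebra homomorphisms. -/
theorem isIntegral_adjoin_map (Ψ : F →ₐ[R] E) (u x : F)
    (h : IsIntegral ↥(Algebra.adjoin R ({u} : Set F)) x) :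
    IsIntegral ↥(Algebra.adjoin R ({Ψ u} : Set E)) (Ψ x) := by
  have hmap : (Algebra.adjoin R ({u} : Set F)).map Ψ = Algebra.adjoin R ({Ψ u} : Set E) := by
    rw [AlgHom.map_adjoin, Set.image_singleton]
  let φ : ↥(Algebra.adjoin R ({u} : Set F)) →ₐ[R] ↥(Algebra.adjoin R ({Ψ u} : Set E)) :=
    (Ψ.comp (Algebra.adjoin R ({u} : Set F)).val).codRestrict (Algebra.adjoin R ({Ψ u} : Set E))
      (fun y => by
        rw [← hmap]
        exact ⟨y, y.2, rfl⟩)
  exact h.map_of_comp_eq (φ : ↥(Algebra.adjoin R ({u} : Set F)) →+*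
    ↥(Algebra.adjoin R ({Ψ u} : Set E))) (Ψ : F →+* E) (by ext y; rfl)

end Gen

section Mod

variable (A : ValuationSubring Kbar) (q M : ℕ) (B k : ℤ) (hB : B * M + k * q = 1) (hq : q.Prime)
  [NeZero M] [NeZero q] [NeZero (M * q)] [NeZero (M * q * q)]

/-- `W_{q²}` fixes the constants. -/
theorem wSo_algebraMap_Rur (r : ↥(Rur A)) :
    wSo A q M B k hB (algebraMap ↥(Rur A) ↥(L0 A (M * q * q)) r)
      = algebraMap ↥(Rur A) ↥(L0 A (M * q * q)) r := by
  apply Subtype.ext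
  rw [coe_wSo, coe_algebraMap_Rur]
  exact (wS q M B k hB).commutes _

/-- `W_{q²}` as an `R`-algebra homomorphism of the inertia-fixed functions. -/
def wSoAlg : ↥(L0 A (M * q * q)) →ₐ[↥(Rur A)] ↥(L0 A (M * q * q)) :=
  { wSo A q M B k hB with commutes' := wSo_algebraMap_Rur A q M B k hB }

theorem wSoAlg_apply (x : ↥(L0 A (M * q * q))) :
    wSoAlg A q M B k hB x = wSo A q M B k hB x := rfl

include hq in
/-- `W_{q²} j'' = j`. -/
theorem wSo_jdd : wSo A q M B k hB (jdd A q M) = j0 A (M * q * q) := by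
  haveI : NeZero (q * q) := ⟨mul_ne_zero hq.ne_zero hq.ne_zero⟩
  apply Subtype.ext
  rw [coe_wSo, coe_jdd, coe_j0', ← incBB_jdF_one q M (sq_dvd_lvl q M), ← incAA_jdF_one q M,
    wS_incBB q M B k hB hq]

include hq in
/-- `W_{q²} j = j''`. -/
theorem wSo_j0 : wSo A q M B k hB (j0 A (M * q * q)) = jdd A q M := by
  rw [← wSo_jdd A q M B k hB hq, wSo_wSo]

variable (hqM : ¬ q ∣ M) (hA : A.LiesOverPrime q) (ht : Fermat.Agent.BAD.H91.TameAt M q)

include hB hq hqM hA ht in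
/-- **`j` is integral over `R[j'']`.** -/
theorem isIntegral_j0_jdd :
    IsIntegral ↥(Algebra.adjoin ↥(Rur A) ({jdd A q M} : Set ↥(L0 A (M * q * q))))
      (j0 A (M * q * q)) := by
  have h : IsIntegral ↥(Algebra.adjoin ↥(Rur A) ({j0 A (M * q * q)} : Set ↥(L0 A (M * q * q))))
      (jdd A q M) := jdd_mem_intSub_mod A q M B k hB hq hqM hA ht
  have h2 := isIntegral_adjoin_map (wSoAlg A q M B k hB) (j0 A (M * q * q)) (jdd A q M) h
  rw [wSoAlg_apply, wSoAlg_apply, wSo_j0 A q M B k hB hq, wSo_jdd A q M B k hB hq] at h2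
  exact h2

end Mod

end Fermat.Agent.S36.NU.H82

end
end
-- ==== END Fermat.Agent.S36.NU.H82_J0Jdd
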