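-- GENERATED (merged mirror, NOTES/tools/trim/merge3_helper67.py): 3 modules of the originals, bodies verbatim.
import Fermat.Agent.Zm.S36_L15_001
import Fermat.Agent.Zm.S36_L08_001
import Fermat.Agent.Zm.S36_L13_001
import Fermat.Agent.Zm.S36_L12_001
import Fermat.Agent.Zm.S36_L13_000
import Fermat.Agent.Zm.S36_L14_001
import Fermat.Agent.Zm.S36_L09_000
import Fermat.Agent.Zm.S36_L15_000
import Fermat.Agent.Zm.S36_L10_000

-- ==== BEGIN Fermat.Agent.S36.NU.H88_CuspAsm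
section

/-!
# S36 / NU-B, leaf CUSPS, final assembly CUSP-ASM (helper88)

`C` a chart over `F = L0 A (M q²)` whose three valuation rings are `V20o`, `V11o`, `V02o`, cut out
of the integral closure of `K^ur[u]`, `u = 1 / j` (`ChartLoo`; the chart at infinity `chartInf`).
At every prime `𝔪` of `B` with `u ∈ 𝔪` lying on a component `i` of the special fibre:

* `cusp_locEq_mod` : **local equation datum and only one branch** (`H16.LocEq`, DISJ), from
  (CUSP-INT) (helper82/helper73, hypothesis `hInt`), (CUSP-RED) (helper86), (CUSP-W2) (helper73);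
* `chartLoo_chartInf` : `ChartLoo` for `chartInf` (unconditional);
* `cusp_locEq_chartInf`, `pointDataAt_chartInf` : the instance, in the form of the hypothesis
  `hptoo` of `H65.finMod_of`.
-/

set_option autoImplicit false
set_option synthInstance.maxHeartbeats 400000
set_option maxHeartbeats 1000000
set_option linter.unusedSectionVars false
set_option linter.style.haveILetI false

noncomputable section

open IntermediateField ModularCurve AlgebraicCurve Polynomial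
open Fermat.Agent.S24 Fermat.Agent.BAD.H88 Fermat.Agent.S28 Fermat.Agent.S28.H73
open Fermat.Agent.RED.H73 Fermat.Agent.RED.H17

namespace Fermat.Agent.S36.NU.H88

open Fermat.Agent.S36.NU.H16 Fermat.Agent.S36.NU.H17 Fermat.Agent.S36.NU.H24
  Fermat.Agent.S36.NU.H65 Fermat.Agent.S36.NU.H79 Fermat.Agent.S36.NU.H23
  Fermat.Agent.S36.NU.H41 Fermat.Agent.BAD
open Fermat.Agent.S36.NU.H82 (uoo E20oo E02oo E11oo j2o x11oo W2oo)
open Fermat.Agent.S36.NU.H99 (E20o E02o E11o ValE)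

/-! ### Generic lemmas on a chart and a residue map of one of its valuation rings -/

section Generic

variable {R F k ι : Type*} {κ : ι → Type*} [CommRing R] [Field F] [Algebra R F]
  [Field k] [∀ i, Field (κ i)] [∀ i, Algebra k (κ i)]

/-- The reduction of a polynomial in `u` with constant coefficients. -/
theorem red_aeval_const {S : Type*} [CommRing S] [Algebra k S]
    (V : ValuationSubring F) (s : ↥V →+* S) (res : R →+* k)
    (hR : ∀ r, algebraMap R F r ∈ V)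
    (hconst : ∀ (r : R) (h : algebraMap R F r ∈ V),
      s ⟨algebraMap R F r, h⟩ = algebraMap k S (res r))
    (u : F) (hu : u ∈ V) (P : R[X]) :
    ∃ h : aeval u P ∈ V, s ⟨aeval u P, h⟩ = aeval (s ⟨u, hu⟩) (P.map res) := by
  induction P using Polynomial.induction_on' with
  | add p₁ p₂ h₁ h₂ =>
    obtain ⟨m₁, e₁⟩ := h₁
    obtain ⟨m₂, e₂⟩ := h₂
    have hm : aeval u (p₁ + p₂) = aeval u p₁ + aeval u p₂ := map_add _ _ _
    have hmem : aeval u (p₁ + p₂) ∈ V := by rw [hm]; exact add_mem m₁ m₂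
    refine ⟨hmem, ?_⟩
    have e : (⟨aeval u (p₁ + p₂), hmem⟩ : ↥V) = ⟨aeval u p₁, m₁⟩ + ⟨aeval u p₂, m₂⟩ :=
      Subtype.ext hm
    rw [e, map_add, e₁, e₂, Polynomial.map_add, map_add]
  | monomial n a =>
    have hm : aeval u (monomial n a) = algebraMap R F a * u ^ n := by rw [aeval_monomial]
    have hmem : aeval u (monomial n a) ∈ V := by
      rw [hm]; exact mul_mem (hR a) (pow_mem hu n)
    refine ⟨hmem, ?_⟩
    have e : (⟨aeval u (monomial n a), hmem⟩ : ↥V) = ⟨algebraMap R F a, hR a⟩ * ⟨u, hu⟩ ^ n :=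
      Subtype.ext hm
    rw [e, map_mul, map_pow, hconst, Polynomial.map_monomial, aeval_monomial]

/-- **A unit at the cusp**, from a reduction map `s` of `V i`: `s E = P̄ (s u)`, `P̄ (0) ≠ 0`,
`u ∈ 𝔪` ⟹ `E ∉ 𝔪`. -/
theorem not_mem_of_red_aeval (C : Chart R F k ι κ) (i : ι) {S : Type*} [CommRing S]
    [Nontrivial S] [Algebra k S] (V : ValuationSubring F) (hV : C.V i = V) (s : ↥V →+* S)
    (hconst : ∀ (r : R) (h : algebraMap R F r ∈ V),
      s ⟨algebraMap R F r, h⟩ = algebraMap k S (C.res r))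
    (𝔪 : Ideal C.B) [h𝔪 : 𝔪.IsPrime] (u : C.B) (hu : u ∈ 𝔪) (hi : C.Icomp i ≤ 𝔪) (E : C.B)
    (hEV : (E : F) ∈ V) (huV : (u : F) ∈ V) (Pb : k[X]) (h0 : Pb.coeff 0 ≠ 0)
    (hE : s ⟨(E : F), hEV⟩ = aeval (s ⟨(u : F), huV⟩) Pb) : E ∉ 𝔪 := by
  obtain ⟨P, hP⟩ := Polynomial.map_surjective C.res C.res_surj Pb
  refine Fermat.Agent.S36.NU.H82.not_mem_of_sub_aeval C 𝔪 u hu i hi E P ?_ ?_
  · have : C.res (P.coeff 0) = Pb.coeff 0 := by rw [← hP, Polynomial.coeff_map]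
    rw [this]
    exact h0
  · rw [hV]
    have hR : ∀ r, algebraMap R F r ∈ V := fun r => by
      rw [← hV]
      exact C.B_le i _ (C.B.algebraMap_mem r)
    obtain ⟨hmem, hs⟩ := red_aeval_const V s C.res hR hconst (u : F) huV P
    have hsub : (E : F) - aeval (u : F) P ∈ V := sub_mem hEV hmem
    refine Fermat.Agent.S36.NU.H99.mem_nonunits_of_map_eq_zero V s ⟨_, hsub⟩ ?_
    have e : (⟨(E : F) - aeval (u : F) P, hsub⟩ : ↥V)
        = ⟨(E : F), hEV⟩ - ⟨aeval (u : F) P, hmem⟩ := rfl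
    rw [e, map_sub, hE, hs, hP, sub_self]

/-- The constants of the Laurent series. -/
theorem algebraMap_eq_C_laurent {k₀ : Type*} [Field k₀] (c : k₀) :
    algebraMap k₀ (LaurentSeries k₀) c = HahnSeries.C c := by
  have h1 : algebraMap k₀ (PowerSeries k₀) c = PowerSeries.C c := by simp
  rw [HahnSeries.algebraMap_apply', h1, HahnSeries.ofPowerSeries_C]

/-- Equality of the residues at `V i` from a reduction map `s` of `V i`. -/
theorem rd_eq_of_red_eq (C : Chart R F k ι κ) (i : ι) {S : Type*} [CommRing S] [Nontrivial S]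
    (V : ValuationSubring F) (hV : C.V i = V) (s : ↥V →+* S) {x y : F} (hx : x ∈ V)
    (hy : y ∈ V) (h : s ⟨x, hx⟩ = s ⟨y, hy⟩) : C.rd i x = C.rd i y := by
  have hxV : x ∈ C.V i := by rw [hV]; exact hx
  have hyV : y ∈ C.V i := by rw [hV]; exact hy
  have hsub : x - y ∈ (C.V i).nonunits := by
    rw [hV]
    refine Fermat.Agent.S36.NU.H99.mem_nonunits_of_map_eq_zero V s ⟨x - y, sub_mem hx hy⟩ ?_
    have e : (⟨x - y, sub_mem hx hy⟩ : ↥V) = ⟨x, hx⟩ - ⟨y, hy⟩ := rfl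
    rw [e, map_sub, h, sub_self]
  have h0 := (C.rd_eq_zero_iff i (sub_mem hxV hyV)).2 hsub
  rw [C.rd_sub i hxV hyV] at h0
  exact sub_eq_zero.1 h0

end Generic

/-! ### The chart at infinity of the inertia-fixed functions of level `M q²` -/

section ChartOo

variable (A : ValuationSubring Kbar)
variable (q M : ℕ) (B k : ℤ) (hB : B * M + k * q = 1) (hq : q.Prime) [NeZero M] [NeZero q]
  [NeZero (M * q)] [NeZero (M * q * q)]

variable {ι : Type*} {κ : ι → Type*} [∀ i, Field (κ i)] [∀ i, Algebra (kV A) (κ i)]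

/-- **The hypotheses on a chart at infinity of the inertia-fixed functions of level `M q²`**:
its valuation rings are `V20o`, `V11o`, `V02o` with ramification indices `(1, q - 1, 1)`, `B` is
cut out of the integral closure of `K^ur[u]`, `u = 1 / j`, by the three valuations, and the
residue map of the constants is `resRur`. -/
structure ChartLoo (C : Chart ↥(Rur A) ↥(L0 A (M * q * q)) (kV A) ι κ) (e : ι → ℕ)
    (i₂₀ i₁₁ i₀₂ : ι) : Prop where
  hqV : ∀ i, algebraMap ↥(Rur A) ↥(L0 A (M * q * q)) ((q : ℕ) : ↥(Rur A)) ∈ (C.V i).nonunits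
  crit : ∀ f : ↥(L0 A (M * q * q)),
    IsIntegral ↥(Algebra.adjoin ↥(_root_.Fermat.Agent.S36.NU.H41.Kur A) ({uoo A q M} : Set ↥(L0 A (M * q * q)))) f →
      (∀ i, f ∈ C.V i) → f ∈ C.B
  hint : ∀ x ∈ C.B,
    IsIntegral ↥(Algebra.adjoin ↥(_root_.Fermat.Agent.S36.NU.H41.Kur A) ({uoo A q M} : Set ↥(L0 A (M * q * q)))) x
  hE : ValE C ((q : ℕ) : ↥(Rur A)) e
  hcases : ∀ i, i = i₂₀ ∨ i = i₁₁ ∨ i = i₀₂
  he₂₀ : e i₂₀ = 1
  he₁₁ : e i₁₁ = q - 1
  he₀₂ : e i₀₂ = 1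
  hV20 : C.V i₂₀ = V20o A q M
  hV11 : C.V i₁₁ = V11o A q M B k hB hq
  hV02 : C.V i₀₂ = V02o A q M B k hB
  hres : C.res = resRur A

/-- The integral closure of `K^ur[u]`, `u = 1 / j`. -/
def HintOo : Subring ↥(L0 A (M * q * q)) :=
  (integralClosure ↥(Algebra.adjoin ↥(_root_.Fermat.Agent.S36.NU.H41.Kur A)
    ({uoo A q M} : Set ↥(L0 A (M * q * q)))) ↥(L0 A (M * q * q))).toSubring

theorem mem_HintOo {x : ↥(L0 A (M * q * q))} : x ∈ HintOo A q M ↔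
    IsIntegral ↥(Algebra.adjoin ↥(_root_.Fermat.Agent.S36.NU.H41.Kur A)
      ({uoo A q M} : Set ↥(L0 A (M * q * q)))) x := Iff.rfl

theorem isIntegral_uoo :
    IsIntegral ↥(Algebra.adjoin ↥(_root_.Fermat.Agent.S36.NU.H41.Kur A) ({uoo A q M} : Set ↥(L0 A (M * q * q))))
      (uoo A q M) := by
  have e : uoo A q M
      = algebraMap ↥(Algebra.adjoin ↥(_root_.Fermat.Agent.S36.NU.H41.Kur A) ({uoo A q M} : Set ↥(L0 A (M * q * q))))
          ↥(L0 A (M * q * q)) ⟨uoo A q M, Algebra.subset_adjoin (Set.mem_singleton _)⟩ := rfl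
  rw [e]
  exact isIntegral_algebraMap

theorem isIntegral_const_oo (c : ↥(_root_.Fermat.Agent.S36.NU.H41.Kur A)) :
    IsIntegral ↥(Algebra.adjoin ↥(_root_.Fermat.Agent.S36.NU.H41.Kur A) ({uoo A q M} : Set ↥(L0 A (M * q * q))))
      (algebraMap ↥(_root_.Fermat.Agent.S36.NU.H41.Kur A) ↥(L0 A (M * q * q)) c) := by
  rw [IsScalarTower.algebraMap_apply ↥(_root_.Fermat.Agent.S36.NU.H41.Kur A)
    ↥(Algebra.adjoin ↥(_root_.Fermat.Agent.S36.NU.H41.Kur A) ({uoo A q M} : Set ↥(L0 A (M * q * q)))) ↥(L0 A (M * q * q))]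
  exact isIntegral_algebraMap

/-- `j″ = j(q²τ)`: the two names. -/
theorem asm_j2o_eq_jdd : j2o A q M = jdd A q M := rfl

/-! ### The valuations of the witnesses -/

include hq in
theorem asm_E20oo_mem11 (hA : (q : Kbar) ∈ A) : E20oo A q M ∈ V11o A q M B k hB hq :=
  mul_mem (Fermat.Agent.S36.NU.H99.E20o_mem11 A q M B k hB hq hA)
    (pow_mem (Fermat.Agent.S36.NU.H86.uoo_mem11 A q M B k hB hq) _)

include hq in
theorem asm_E20oo_mem02 (hA : (q : Kbar) ∈ A) : E20oo A q M ∈ V02o A q M B k hB :=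
  mul_mem (Fermat.Agent.S36.NU.H99.E20o_mem02 A q M B k hB hq hA)
    (pow_mem (Fermat.Agent.S36.NU.H86.uoo_mem02 A q M B k hB) _)

theorem asm_E02oo_mem20 (hA : (q : Kbar) ∈ A) : E02oo A q M ∈ V20o A q M :=
  mul_mem (pow_mem (Fermat.Agent.S36.NU.H99.E02o_mem20 A q M hA) _)
    (pow_mem (Fermat.Agent.S36.NU.H86.uoo_mem20 A q M) _)

include hq in
theorem asm_E02oo_mem11 (hA : (q : Kbar) ∈ A) : E02oo A q M ∈ V11o A q M B k hB hq :=
  mul_mem (pow_mem (Fermat.Agent.S36.NU.H99.E02o_mem11 A q M B k hB hq hA) _)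
    (pow_mem (Fermat.Agent.S36.NU.H86.uoo_mem11 A q M B k hB hq) _)

theorem asm_E11oo_mem20 (hA : (q : Kbar) ∈ A) : E11oo A q M ∈ V20o A q M :=
  mul_mem (Fermat.Agent.S36.NU.H99.E11o_mem20 A q M hA)
    (pow_mem (Fermat.Agent.S36.NU.H86.uoo_mem20 A q M) _)

include hq in
theorem asm_E11oo_mem02 (hA : (q : Kbar) ∈ A) : E11oo A q M ∈ V02o A q M B k hB :=
  mul_mem (Fermat.Agent.S36.NU.H99.E11o_mem02 A q M B k hB hq hA)
    (pow_mem (Fermat.Agent.S36.NU.H86.uoo_mem02 A q M B k hB) _)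

theorem asm_x11oo_mem20 (hA : (q : Kbar) ∈ A) : x11oo A q M ∈ V20o A q M :=
  mul_mem (sub_mem (mul_mem (jdd_mem20 A q M) (Fermat.Agent.S36.NU.H86.uoo_mem20 A q M))
    (one_mem _)) (asm_E11oo_mem20 A q M hA)

include hq in
theorem asm_x11oo_mem02 (hA : (q : Kbar) ∈ A) : x11oo A q M ∈ V02o A q M B k hB :=
  mul_mem (sub_mem (mul_mem (jdd_mem02 A q M B k hB hq)
    (Fermat.Agent.S36.NU.H86.uoo_mem02 A q M B k hB)) (one_mem _))
    (asm_E11oo_mem02 A q M B k hB hq hA)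

include hq in
theorem asm_x11oo_mem11 (hA : A.LiesOverPrime q) : x11oo A q M ∈ V11o A q M B k hB hq :=
  mul_mem (sub_mem (mul_mem (jdd_mem11 A q M B k hB hq hA)
    (Fermat.Agent.S36.NU.H86.uoo_mem11 A q M B k hB hq)) (one_mem _))
    (Fermat.Agent.S36.NU.H86.E11oo_mem11 A q M B k hB hq)

/-! ### The cross valuations: divisibility by `q` on the other components -/

include hq in
theorem asm_E20oo_div_mem11 (hA : (q : Kbar) ∈ A) :
    ∃ f' ∈ V11o A q M B k hB hq, E20oo A q M = ((q : ℕ) : ↥(L0 A (M * q * q))) * f' := by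
  obtain ⟨f', hf', h⟩ := Fermat.Agent.S36.NU.H99.E20o_div_mem11 A q M B k hB hq hA
  refine ⟨f' * uoo A q M ^ (q * (q - 1)),
    mul_mem hf' (pow_mem (Fermat.Agent.S36.NU.H86.uoo_mem11 A q M B k hB hq) _), ?_⟩
  rw [Fermat.Agent.S36.NU.H82.E20oo, h]
  exact mul_assoc _ _ _

include hq in
theorem asm_E20oo_div_mem02 (hA : (q : Kbar) ∈ A) :
    ∃ f' ∈ V02o A q M B k hB, E20oo A q M = ((q : ℕ) : ↥(L0 A (M * q * q))) * f' := by
  obtain ⟨f', hf', h⟩ := Fermat.Agent.S36.NU.H99.E20o_div_mem02 A q M B k hB hq hA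
  refine ⟨f' * uoo A q M ^ (q * (q - 1)),
    mul_mem hf' (pow_mem (Fermat.Agent.S36.NU.H86.uoo_mem02 A q M B k hB) _), ?_⟩
  rw [Fermat.Agent.S36.NU.H82.E20oo, h]
  exact mul_assoc _ _ _

include hq in
theorem asm_E02oo_div_mem20 (hA : (q : Kbar) ∈ A) :
    ∃ f' ∈ V20o A q M, E02oo A q M = ((q : ℕ) : ↥(L0 A (M * q * q))) * f' := by
  obtain ⟨f', hf', h⟩ := Fermat.Agent.S36.NU.H99.E02o_div_mem20 A q M hA
  refine ⟨E02o A q M ^ (q - 1) * f' * uoo A q M ^ (q - 1),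
    mul_mem (mul_mem (pow_mem (Fermat.Agent.S36.NU.H99.E02o_mem20 A q M hA) _) hf')
      (pow_mem (Fermat.Agent.S36.NU.H86.uoo_mem20 A q M) _), ?_⟩
  have e : E02o A q M ^ q
      = E02o A q M ^ (q - 1) * (((q : ℕ) : ↥(L0 A (M * q * q))) * f') := by
    rw [← h, ← pow_succ, Nat.sub_add_cancel hq.one_le]
  rw [Fermat.Agent.S36.NU.H82.E02oo, e]
  ring

include hq in
theorem asm_E02oo_div_mem11 (hA : (q : Kbar) ∈ A) :
    ∃ f' ∈ V11o A q M B k hB hq, E02oo A q M = ((q : ℕ) : ↥(L0 A (M * q * q))) * f' := by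
  obtain ⟨f', hf', h⟩ := Fermat.Agent.S36.NU.H99.E02o_div_mem11 A q M B k hB hq hA
  refine ⟨E02o A q M ^ (q - 1) * f' * uoo A q M ^ (q - 1),
    mul_mem (mul_mem (pow_mem (Fermat.Agent.S36.NU.H99.E02o_mem11 A q M B k hB hq hA) _) hf')
      (pow_mem (Fermat.Agent.S36.NU.H86.uoo_mem11 A q M B k hB hq) _), ?_⟩
  have e : E02o A q M ^ q
      = E02o A q M ^ (q - 1) * (((q : ℕ) : ↥(L0 A (M * q * q))) * f') := by
    rw [← h, ← pow_succ, Nat.sub_add_cancel hq.one_le]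
  rw [Fermat.Agent.S36.NU.H82.E02oo, e]
  ring

theorem asm_E11oo_sq_div_mem20 (hA : (q : Kbar) ∈ A) :
    ∃ f' ∈ V20o A q M, E11oo A q M ^ 2 = ((q : ℕ) : ↥(L0 A (M * q * q))) * f' := by
  obtain ⟨f', hf', h⟩ := Fermat.Agent.S36.NU.H99.E11o_div_mem20 A q M hA
  refine ⟨f' * uoo A q M ^ (2 * (q - 1)) * E11oo A q M,
    mul_mem (mul_mem hf' (pow_mem (Fermat.Agent.S36.NU.H86.uoo_mem20 A q M) _))
      (asm_E11oo_mem20 A q M hA), ?_⟩
  have e : E11oo A q M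
      = ((q : ℕ) : ↥(L0 A (M * q * q))) * f' * uoo A q M ^ (2 * (q - 1)) := by
    rw [Fermat.Agent.S36.NU.H82.E11oo, h]
  rw [pow_two]
  nth_rewrite 1 [e]
  ring

include hq in
theorem asm_E11oo_sq_div_mem02 (hA : (q : Kbar) ∈ A) :
    ∃ f' ∈ V02o A q M B k hB, E11oo A q M ^ 2 = ((q : ℕ) : ↥(L0 A (M * q * q))) * f' := by
  obtain ⟨f', hf', h⟩ := Fermat.Agent.S36.NU.H99.E11o_div_mem02 A q M B k hB hq hA
  refine ⟨f' * uoo A q M ^ (2 * (q - 1)) * E11oo A q M,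
    mul_mem (mul_mem hf' (pow_mem (Fermat.Agent.S36.NU.H86.uoo_mem02 A q M B k hB) _))
      (asm_E11oo_mem02 A q M B k hB hq hA), ?_⟩
  have e : E11oo A q M
      = ((q : ℕ) : ↥(L0 A (M * q * q))) * f' * uoo A q M ^ (2 * (q - 1)) := by
    rw [Fermat.Agent.S36.NU.H82.E11oo, h]
  rw [pow_two]
  nth_rewrite 1 [e]
  ring

/-! ### Generalities on `ChartLoo` -/

theorem hqR_oo : algebraMap ↥(Rur A) ↥(L0 A (M * q * q)) ((q : ℕ) : ↥(Rur A))
    = ((q : ℕ) : ↥(L0 A (M * q * q))) := map_natCast _ q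

include hq in
theorem hq0_oo : algebraMap ↥(Rur A) ↥(L0 A (M * q * q)) ((q : ℕ) : ↥(Rur A)) ≠ 0 := by
  rw [hqR_oo]
  exact Nat.cast_ne_zero.2 hq.ne_zero

theorem hqH_oo :
    (algebraMap ↥(Rur A) ↥(L0 A (M * q * q)) ((q : ℕ) : ↥(Rur A)))⁻¹ ∈ HintOo A q M := by
  rw [hqR_oo, mem_HintOo]
  have e1 : (((q : ℕ) : ↥(L0 A (M * q * q))))⁻¹
      = algebraMap ↥(_root_.Fermat.Agent.S36.NU.H41.Kur A) ↥(L0 A (M * q * q)) (((q : ℕ) : ↥(_root_.Fermat.Agent.S36.NU.H41.Kur A)))⁻¹ := by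
    rw [map_inv₀, map_natCast]
  rw [e1]
  exact isIntegral_const_oo A q M _

namespace ChartLoo

variable {A q M B k hB hq}
variable {C : Chart ↥(Rur A) ↥(L0 A (M * q * q)) (kV A) ι κ} {e : ι → ℕ} {i₂₀ i₁₁ i₀₂ : ι}
  (S : ChartLoo A q M B k hB hq C e i₂₀ i₁₁ i₀₂)

include S

theorem mem_V {x : ↥(L0 A (M * q * q))} (h20 : x ∈ V20o A q M)
    (h11 : x ∈ V11o A q M B k hB hq) (h02 : x ∈ V02o A q M B k hB) (i : ι) : x ∈ C.V i := by
  rcases S.hcases i with rfl | rfl | rfl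
  · rw [S.hV20]; exact h20
  · rw [S.hV11]; exact h11
  · rw [S.hV02]; exact h02

/-- Membership in `B`. -/
theorem mem_B {x : ↥(L0 A (M * q * q))}
    (hx : IsIntegral ↥(Algebra.adjoin ↥(_root_.Fermat.Agent.S36.NU.H41.Kur A)
      ({uoo A q M} : Set ↥(L0 A (M * q * q)))) x)
    (h20 : x ∈ V20o A q M) (h11 : x ∈ V11o A q M B k hB hq) (h02 : x ∈ V02o A q M B k hB) :
    x ∈ C.B :=
  S.crit x hx (S.mem_V h20 h11 h02)

theorem hBH : ∀ x ∈ C.B, x ∈ HintOo A q M := S.hint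

theorem critH : ∀ f ∈ HintOo A q M, (∀ i, f ∈ C.V i) → f ∈ C.B := fun f hf h => S.crit f hf h

/-! ### The witnesses lie in `B` -/

include hq in
theorem uoo_mem_B : uoo A q M ∈ C.B :=
  S.mem_B (isIntegral_uoo A q M) (Fermat.Agent.S36.NU.H86.uoo_mem20 A q M)
    (Fermat.Agent.S36.NU.H86.uoo_mem11 A q M B k hB hq)
    (Fermat.Agent.S36.NU.H86.uoo_mem02 A q M B k hB)

include hq in
theorem E20oo_mem_B (hA : (q : Kbar) ∈ A) (hInt : Fermat.Agent.S36.NU.H82.Stmt_CuspInt A q M) :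
    E20oo A q M ∈ C.B :=
  S.mem_B (Fermat.Agent.S36.NU.H82.stmt_CuspKur A q M _ (hInt _ (Set.mem_insert _ _)))
    (Fermat.Agent.S36.NU.H86.E20oo_mem20 A q M) (asm_E20oo_mem11 A q M B k hB hq hA)
    (asm_E20oo_mem02 A q M B k hB hq hA)

include hq in
theorem E02oo_mem_B (hA : (q : Kbar) ∈ A) (hInt : Fermat.Agent.S36.NU.H82.Stmt_CuspInt A q M) :
    E02oo A q M ∈ C.B :=
  S.mem_B (Fermat.Agent.S36.NU.H82.stmt_CuspKur A q M _
      (hInt _ (Set.mem_insert_of_mem _ (Set.mem_insert _ _))))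
    (asm_E02oo_mem20 A q M hA) (asm_E02oo_mem11 A q M B k hB hq hA)
    (Fermat.Agent.S36.NU.H86.E02oo_mem02 A q M B k hB hq)

include hq in
theorem E11oo_mem_B (hA : (q : Kbar) ∈ A) (hInt : Fermat.Agent.S36.NU.H82.Stmt_CuspInt A q M) :
    E11oo A q M ∈ C.B :=
  S.mem_B (Fermat.Agent.S36.NU.H82.stmt_CuspKur A q M _
      (hInt _ (Set.mem_insert_of_mem _ (Set.mem_insert_of_mem _ (Set.mem_insert _ _)))))
    (asm_E11oo_mem20 A q M hA) (Fermat.Agent.S36.NU.H86.E11oo_mem11 A q M B k hB hq)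
    (asm_E11oo_mem02 A q M B k hB hq hA)

include hq in
theorem x11oo_mem_B (hA : A.LiesOverPrime q)
    (hInt : Fermat.Agent.S36.NU.H82.Stmt_CuspInt A q M) : x11oo A q M ∈ C.B :=
  have hA' : (q : Kbar) ∈ A := ((A.mem_nonunits_iff_exists_mem_maximalIdeal).1 hA).1
  S.mem_B (Fermat.Agent.S36.NU.H82.stmt_CuspKur A q M _
      (hInt _ (Set.mem_insert_of_mem _ (Set.mem_insert_of_mem _
        (Set.mem_insert_of_mem _ (Set.mem_singleton _))))))
    (asm_x11oo_mem20 A q M hA') (asm_x11oo_mem11 A q M B k hB hq hA)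
    (asm_x11oo_mem02 A q M B k hB hq hA')

end ChartLoo

/-! ### The three kinds of cusps -/

section Cusp

variable [Fintype ι] [DecidableEq ι]
variable {A q M B k hB hq}
variable {C : Chart ↥(Rur A) ↥(L0 A (M * q * q)) (kV A) ι κ} {e : ι → ℕ} {i₂₀ i₁₁ i₀₂ : ι}
  (S : ChartLoo A q M B k hB hq C e i₂₀ i₁₁ i₀₂)

include hq in
/-- **Cusps of `C₂₀`**. -/
theorem cusp20_mod (hA : A.LiesOverPrime q)
    (hInt : Fermat.Agent.S36.NU.H82.Stmt_CuspInt A q M)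
    (𝔪 : Ideal C.B) [h𝔪 : 𝔪.IsPrime]
    (hu : (⟨uoo A q M, S.uoo_mem_B⟩ : C.B) ∈ 𝔪) (hi : C.Icomp i₂₀ ≤ 𝔪) :
    Nonempty (LocEq C ((q : ℕ) : ↥(Rur A)) 𝔪) ∧ ∀ i', C.Icomp i' ≤ 𝔪 → i' = i₂₀ := by
  have hA' : (q : Kbar) ∈ A := ((A.mem_nonunits_iff_exists_mem_maximalIdeal).1 hA).1
  obtain ⟨hum, hEm, P, hP0, hs⟩ := Fermat.Agent.S36.NU.H86.stmt_CuspRed20 A q M hq hA
  have hW : (⟨E20oo A q M, S.E20oo_mem_B hA' hInt⟩ : C.B) ∉ 𝔪 := by
    refine not_mem_of_red_aeval C i₂₀ (V20o A q M) S.hV20 (s20 A q M) ?_ 𝔪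
      ⟨uoo A q M, S.uoo_mem_B⟩ hu hi _ hEm hum P ?_ hs
    · intro r h
      rw [S.hres]
      exact s20_const A q M r h
    · rw [hP0]
      exact one_ne_zero
  refine Fermat.Agent.S36.NU.H99.locEq_ord_crit_one C ((q : ℕ) : ↥(Rur A))
    (hq0_oo A q M hq) S.hqV (HintOo A q M) S.hBH (hqH_oo A q M) S.critH e S.hE 𝔪 i₂₀ hi S.he₂₀
    ⟨E20oo A q M, S.E20oo_mem_B hA' hInt⟩ hW ?_
  intro i' hi'
  rw [hqR_oo]
  rcases S.hcases i' with rfl | rfl | rfl
  · exact absurd rfl hi'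
  · rw [S.hV11]
    exact asm_E20oo_div_mem11 A q M B k hB hq hA'
  · rw [S.hV02]
    exact asm_E20oo_div_mem02 A q M B k hB hq hA'

include hq in
/-- **Cusps of `C₀₂`**. -/
theorem cusp02_mod (hA : A.LiesOverPrime q)
    (hInt : Fermat.Agent.S36.NU.H82.Stmt_CuspInt A q M)
    (𝔪 : Ideal C.B) [h𝔪 : 𝔪.IsPrime]
    (hu : (⟨uoo A q M, S.uoo_mem_B⟩ : C.B) ∈ 𝔪) (hi : C.Icomp i₀₂ ≤ 𝔪) :
    Nonempty (LocEq C ((q : ℕ) : ↥(Rur A)) 𝔪) ∧ ∀ i', C.Icomp i' ≤ 𝔪 → i' = i₀₂ := by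
  have hA' : (q : Kbar) ∈ A := ((A.mem_nonunits_iff_exists_mem_maximalIdeal).1 hA).1
  obtain ⟨hum, hEm, P, hP0, hs⟩ := Fermat.Agent.S36.NU.H86.stmt_CuspRed02 A q M B k hB hq hA
  have hW : (⟨E02oo A q M, S.E02oo_mem_B hA' hInt⟩ : C.B) ∉ 𝔪 := by
    refine not_mem_of_red_aeval C i₀₂ (V02o A q M B k hB) S.hV02 (s02 A q M B k hB) ?_ 𝔪
      ⟨uoo A q M, S.uoo_mem_B⟩ hu hi _ hEm hum P ?_ hs
    · intro r h
      rw [S.hres]
      exact s02_const A q M B k hB r h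
    · rw [hP0]
      exact one_ne_zero
  refine Fermat.Agent.S36.NU.H99.locEq_ord_crit_one C ((q : ℕ) : ↥(Rur A))
    (hq0_oo A q M hq) S.hqV (HintOo A q M) S.hBH (hqH_oo A q M) S.critH e S.hE 𝔪 i₀₂ hi S.he₀₂
    ⟨E02oo A q M, S.E02oo_mem_B hA' hInt⟩ hW ?_
  intro i' hi'
  rw [hqR_oo]
  rcases S.hcases i' with rfl | rfl | rfl
  · rw [S.hV20]
    exact asm_E02oo_div_mem20 A q M hq hA'
  · rw [S.hV11]
    exact asm_E02oo_div_mem11 A q M B k hB hq hA'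
  · exact absurd rfl hi'

end Cusp

section Cusp11

variable [Fintype ι] [DecidableEq ι]
variable {A q M B k hB hq}
variable {C : Chart ↥(Rur A) ↥(L0 A (M * q * q)) (kV A) ι κ} {e : ι → ℕ} {i₂₀ i₁₁ i₀₂ : ι}
  (S : ChartLoo A q M B k hB hq C e i₂₀ i₁₁ i₀₂)

include hq in
/-- **Cusps of `C₁₁`**. -/
theorem cusp11_mod (hA : A.LiesOverPrime q)
    (hInt : Fermat.Agent.S36.NU.H82.Stmt_CuspInt A q M)
    (𝔪 : Ideal C.B) [h𝔪 : 𝔪.IsPrime]
    (hu : (⟨uoo A q M, S.uoo_mem_B⟩ : C.B) ∈ 𝔪) (hi : C.Icomp i₁₁ ≤ 𝔪) :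
    Nonempty (LocEq C ((q : ℕ) : ↥(Rur A)) 𝔪) ∧ ∀ i', C.Icomp i' ≤ 𝔪 → i' = i₁₁ := by
  have hA' : (q : Kbar) ∈ A := ((A.mem_nonunits_iff_exists_mem_maximalIdeal).1 hA).1
  have hq0L : ((q : ℕ) : ↥(L0 A (M * q * q))) ≠ 0 := Nat.cast_ne_zero.2 hq.ne_zero
  have huB := S.uoo_mem_B
  have hEB := S.E11oo_mem_B hA' hInt
  have hxB := S.x11oo_mem_B hA hInt
  -- `E11∞ ∉ 𝔪`
  obtain ⟨hum, hEm, P, hP0, hs⟩ := Fermat.Agent.S36.NU.H86.stmt_CuspRed11 A q M B k hB hq hA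
  have hEn : (⟨E11oo A q M, hEB⟩ : C.B) ∉ 𝔪 := by
    refine not_mem_of_red_aeval C i₁₁ (V11o A q M B k hB hq) S.hV11 (s11 A q M B k hB hq) ?_ 𝔪
      ⟨uoo A q M, huB⟩ hu hi _ hEm hum P ?_ hs
    · intro r h
      rw [S.hres]
      exact s11_const A q M B k hB hq r h
    · rw [hP0]
      exact one_ne_zero
  -- `f' = x11 ^ (q - 1) / q`
  have hxn : x11oo A q M ∈ (C.V i₁₁).nonunits := by
    rw [S.hV11]
    exact Fermat.Agent.S36.NU.H86.x11oo_mem_nonunits A q M B k hB hq hA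
  obtain ⟨f', hf', hxf⟩ := S.hE i₁₁ _ hxn
  have h1 : x11oo A q M ^ (q - 1) = ((q : ℕ) : ↥(L0 A (M * q * q))) * f' := by
    rw [← S.he₁₁, hxf, hqR_oo]
  -- `W₂ = E11∞² f'`
  obtain ⟨_, _, hWm, c, hc, hW⟩ := Fermat.Agent.S36.NU.H73.stmt_CuspW2 A q M B k hB hq hA
  have hW2 : W2oo A q M = E11oo A q M ^ 2 * f' := by
    rw [Fermat.Agent.S36.NU.H82.W2oo, h1]
    field_simp
  -- the constants
  obtain ⟨r, hr⟩ := C.res_surj c
  have hrn : algebraMap ↥(Rur A) C.B r ∉ 𝔪 :=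
    Fermat.Agent.S36.NU.H82.algebraMap_not_mem C 𝔪 i₁₁ hi r (by rw [hr]; exact hc)
  have hwn : (1 - algebraMap ↥(Rur A) C.B (1728 : ↥(Rur A)) * ⟨uoo A q M, huB⟩ : C.B) ∉ 𝔪 := by
    intro hw
    apply h𝔪.ne_top
    rw [Ideal.eq_top_iff_one]
    have e1 : (1 : C.B) = (1 - algebraMap ↥(Rur A) C.B (1728 : ↥(Rur A)) * ⟨uoo A q M, huB⟩)
        + algebraMap ↥(Rur A) C.B (1728 : ↥(Rur A)) * ⟨uoo A q M, huB⟩ := by ring
    rw [e1]
    exact 𝔪.add_mem hw (𝔪.mul_mem_left _ hu)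
  have hYn : (algebraMap ↥(Rur A) C.B r
      * (1 - algebraMap ↥(Rur A) C.B (1728 : ↥(Rur A)) * ⟨uoo A q M, huB⟩) ^ (6 * (q - 1))
      * (⟨E11oo A q M, hEB⟩ : C.B) ^ (12 * (q + 1)) : C.B) ∉ 𝔪 :=
    Fermat.Agent.S36.NU.H99.mul_not_mem C 𝔪
      (Fermat.Agent.S36.NU.H99.mul_not_mem C 𝔪 hrn
        (Fermat.Agent.S36.NU.H99.pow_not_mem C 𝔪 hwn _))
      (Fermat.Agent.S36.NU.H99.pow_not_mem C 𝔪 hEn _)
  have he : 0 < e i₁₁ := by
    rw [S.he₁₁]
    have := hq.two_le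
    omega
  -- the congruence
  have hcm : algebraMap ↥(Rur A) ↥(L0 A (M * q * q)) r ∈ V11o A q M B k hB hq :=
    const_mem_V11o A q M B k hB hq r
  have hc1728 : algebraMap ↥(Rur A) ↥(L0 A (M * q * q)) (1728 : ↥(Rur A))
      ∈ V11o A q M B k hB hq := const_mem_V11o A q M B k hB hq _
  have hwm : 1 - algebraMap ↥(Rur A) ↥(L0 A (M * q * q)) (1728 : ↥(Rur A)) * uoo A q M
      ∈ V11o A q M B k hB hq := sub_mem (one_mem _) (mul_mem hc1728 hum)
  have hXm : W2oo A q M ^ 12 * E11oo A q M ∈ V11o A q M B k hB hq :=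
    mul_mem (pow_mem hWm _) hEm
  have hYm : algebraMap ↥(Rur A) ↥(L0 A (M * q * q)) r
      * (1 - algebraMap ↥(Rur A) ↥(L0 A (M * q * q)) (1728 : ↥(Rur A)) * uoo A q M)
          ^ (6 * (q - 1))
      * E11oo A q M ^ (12 * (q + 1)) ∈ V11o A q M B k hB hq :=
    mul_mem (mul_mem hcm (pow_mem hwm _)) (pow_mem hEm _)
  have hsr : s11 A q M B k hB hq ⟨_, hcm⟩ = HahnSeries.C c := by
    rw [s11_const, ← S.hres, hr]
    exact algebraMap_eq_C_laurent c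
  have hs1728 : s11 A q M B k hB hq ⟨_, hc1728⟩ = HahnSeries.C (1728 : kV A) := by
    rw [s11_const, map_ofNat]
    exact algebraMap_eq_C_laurent _
  have hsXY : s11 A q M B k hB hq ⟨_, hXm⟩ = s11 A q M B k hB hq ⟨_, hYm⟩ := by
    have e1 : (⟨W2oo A q M ^ 12 * E11oo A q M, hXm⟩ : ↥(V11o A q M B k hB hq))
        = ⟨W2oo A q M, hWm⟩ ^ 12 * ⟨E11oo A q M, hEm⟩ := rfl
    have e2 : (⟨_, hYm⟩ : ↥(V11o A q M B k hB hq))
        = ⟨_, hcm⟩ * (1 - ⟨_, hc1728⟩ * ⟨uoo A q M, hum⟩) ^ (6 * (q - 1))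
          * ⟨E11oo A q M, hEm⟩ ^ (12 * (q + 1)) := rfl
    rw [e1, e2]
    simp only [map_mul, map_pow, map_sub, map_one]
    rw [hsr, hs1728]
    exact hW
  have hrd : C.rd i₁₁ (W2oo A q M ^ 12 * E11oo A q M)
      = C.rd i₁₁ (algebraMap ↥(Rur A) ↥(L0 A (M * q * q)) r
        * (1 - algebraMap ↥(Rur A) ↥(L0 A (M * q * q)) (1728 : ↥(Rur A)) * uoo A q M)
            ^ (6 * (q - 1))
        * E11oo A q M ^ (12 * (q + 1))) :=
    rd_eq_of_red_eq C i₁₁ (V11o A q M B k hB hq) S.hV11 (s11 A q M B k hB hq) hXm hYm hsXY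
  refine Fermat.Agent.S36.NU.H99.locEq_ord_crit_mid C ((q : ℕ) : ↥(Rur A))
    (hq0_oo A q M hq) S.hqV (HintOo A q M) S.hBH (hqH_oo A q M) S.critH e S.hE 𝔪 i₁₁ hi he
    ⟨x11oo A q M, hxB⟩ ((⟨E11oo A q M, hEB⟩ : C.B) ^ 2)
    (Fermat.Agent.S36.NU.H99.pow_not_mem C 𝔪 hEn 2) ?_ f' hf' hxf 12 (by norm_num)
    ⟨E11oo A q M, hEB⟩ _ hYn ?_
  · intro i' hi'
    rw [hqR_oo]
    rcases S.hcases i' with rfl | rfl | rfl
    · rw [S.hV20]
      exact asm_E11oo_sq_div_mem20 A q M hA'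
    · exact absurd rfl hi'
    · rw [S.hV02]
      exact asm_E11oo_sq_div_mem02 A q M B k hB hq hA'
  · rw [← C.rd_coe]
    have e3 : (((((⟨E11oo A q M, hEB⟩ : C.B) ^ 2 : C.B) : ↥(L0 A (M * q * q))) * f') ^ 12
        * ((⟨E11oo A q M, hEB⟩ : C.B) : ↥(L0 A (M * q * q))))
        = W2oo A q M ^ 12 * E11oo A q M := by
      rw [hW2]
      rfl
    rw [e3]
    exact hrd

include S in
/-- **CUSP-ASM**: at every prime `𝔪` of the chart at infinity with `u = 1 / j ∈ 𝔪` on the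
component `i`, there is a local equation datum and `i` is the only component through `𝔪`. -/
theorem cusp_locEq_mod (hA : A.LiesOverPrime q)
    (hInt : Fermat.Agent.S36.NU.H82.Stmt_CuspInt A q M)
    (𝔪 : Ideal C.B) [h𝔪 : 𝔪.IsPrime]
    (hu : ∀ β : C.B, (β : ↥(L0 A (M * q * q))) = uoo A q M → β ∈ 𝔪) (i : ι)
    (hi : C.Icomp i ≤ 𝔪) :
    Nonempty (LocEq C ((q : ℕ) : ↥(Rur A)) 𝔪) ∧ ∀ i', C.Icomp i' ≤ 𝔪 → i' = i := by
  have hu' : (⟨uoo A q M, S.uoo_mem_B⟩ : C.B) ∈ 𝔪 := hu _ rfl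
  rcases S.hcases i with rfl | rfl | rfl
  · exact cusp20_mod S hA hInt 𝔪 hu' hi
  · exact cusp11_mod S hA hInt 𝔪 hu' hi
  · exact cusp02_mod S hA hInt 𝔪 hu' hi

end Cusp11

end ChartOo

/-! ### The instance: the chart of `1 / j` -/

section Inst

variable (A : ValuationSubring Kbar) (q M : ℕ) (B k : ℤ) (hB : B * M + k * q = 1) (hq : q.Prime)
  [NeZero M] [NeZero q] [NeZero (M * q)] [NeZero (M * q * q)] (hqM : ¬ q ∣ M)
  (hA : A.LiesOverPrime q) (ht : H91.TameAt M q)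

attribute [local instance] algkM

/-- **`ChartLoo` for the chart of `1 / j`** (unconditional). -/
theorem chartLoo_chartInf :
    ChartLoo A q M B k hB hq (chartInf A q M B k hB hq hqM hA ht) ![1, q - 1, 1] 0 1 2 := by
  have hqR := hqR_oo A q M
  have hcases : ∀ i : Fin 3, i = 0 ∨ i = 1 ∨ i = 2 := by
    intro i
    fin_cases i
    · exact Or.inl rfl
    · exact Or.inr (Or.inl rfl)
    · exact Or.inr (Or.inr rfl)
  have hV20 : (chartInf A q M B k hB hq hqM hA ht).V 0 = V20o A q M := rfl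
  have hV11 : (chartInf A q M B k hB hq hqM hA ht).V 1 = V11o A q M B k hB hq := rfl
  have hV02 : (chartInf A q M B k hB hq hqM hA ht).V 2 = V02o A q M B k hB := rfl
  refine
    { hqV := Fermat.Agent.S36.NU.H22.q_mem_nonunits A q M B k hB hq hqM hA _ _ hqR 0 1 2
        hcases hV20 hV11 hV02
      crit := ?_
      hint := ?_
      hE := Fermat.Agent.S36.NU.H22.valE_mod A q M B k hB hq hqM hA _ _ hqR _ 0 1 2 hcases
        rfl rfl rfl hV20 hV11 hV02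
      hcases := hcases
      he₂₀ := rfl
      he₁₁ := rfl
      he₀₂ := rfl
      hV20 := hV20
      hV11 := hV11
      hV02 := hV02
      hres := rfl }
  · intro f hf hV
    exact crit_mod_chartInf A q M B k hB hq hqM hA ht f hf hV
  · intro x hx
    exact isIntegral_adjoin_field ↥(Rur A) ↥(_root_.Fermat.Agent.S36.NU.H41.Kur A) (j0 A (M * q * q))⁻¹ hx

/-- **CUSP-ASM for the chart of `1 / j`**: local equation datum and only one branch at every
prime `𝔪` with `1 / j ∈ 𝔪` of the special fibre. -/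
theorem cusp_locEq_chartInf (hInt : Fermat.Agent.S36.NU.H82.Stmt_CuspInt A q M)
    (𝔪 : Ideal (chartInf A q M B k hB hq hqM hA ht).B) [h𝔪 : 𝔪.IsPrime]
    (hu : ∀ β : (chartInf A q M B k hB hq hqM hA ht).B,
      (β : ↥(L0 A (M * q * q))) = (j0 A (M * q * q))⁻¹ → β ∈ 𝔪) (i : Fin 3)
    (hi : (chartInf A q M B k hB hq hqM hA ht).Icomp i ≤ 𝔪) :
    Nonempty (LocEq (chartInf A q M B k hB hq hqM hA ht) ((q : ℕ) : ↥(Rur A)) 𝔪) ∧
      ∀ i', (chartInf A q M B k hB hq hqM hA ht).Icomp i' ≤ 𝔪 → i' = i :=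
  cusp_locEq_mod (chartLoo_chartInf A q M B k hB hq hqM hA ht) hA hInt 𝔪 hu i hi

variable {Z K L K' L' L₁ L₂ : Type*} [Field K] [Field L] [Algebra K L]
  [Algebra ↥(L0 A (M * q * q)) L] [Field K'] [Field L'] [Algebra K' L'] [Field L₁]
  [Algebra (kV A) L₁] [Field L₂] [Algebra (kV A) L₂]

/-- **The hypothesis `hptoo` of `H65.finMod_of`** for the chart of `1 / j`, from (CUSP-INT) and
the branches (M2). -/
theorem pointDataAt_chartInf
    (D : NUData K ↥(L0 A (M * q * q)) L (kV A) (Fin 3) Z (kap3 (FM A M) (FM A M)) K' L' L₁ L₂)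
    (hInt : Fermat.Agent.S36.NU.H82.Stmt_CuspInt A q M)
    (hbr : ∀ 𝔪 : Ideal (chartInf A q M B k hB hq hqM hA ht).B, 𝔪.IsMaximal →
      (∀ β : (chartInf A q M B k hB hq hqM hA ht).B,
        (β : ↥(L0 A (M * q * q))) = (j0 A (M * q * q))⁻¹ → β ∈ 𝔪) →
      ∀ i, (chartInf A q M B k hB hq hqM hA ht).Icomp i ≤ 𝔪 →
        Nonempty (Branch (chartInf A q M B k hB hq hqM hA ht) 𝔪 i)) :
    ∀ 𝔪 : Ideal (chartInf A q M B k hB hq hqM hA ht).B, 𝔪.IsMaximal →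
      (∃ i, (chartInf A q M B k hB hq hqM hA ht).Icomp i ≤ 𝔪) →
      (∀ β : (chartInf A q M B k hB hq hqM hA ht).B,
        (β : ↥(L0 A (M * q * q))) = (j0 A (M * q * q))⁻¹ → β ∈ 𝔪) →
      PointDataAt (chartInf A q M B k hB hq hqM hA ht) D ((q : ℕ) : ↥(Rur A)) 𝔪 := by
  intro 𝔪 hmax hex hu
  haveI : 𝔪.IsPrime := hmax.isPrime
  obtain ⟨i, hi⟩ := hex
  obtain ⟨hL, h1⟩ := cusp_locEq_chartInf A q M B k hB hq hqM hA ht hInt 𝔪 hu i hi
  exact ⟨hbr 𝔪 hmax hu, hL, Or.inl ⟨i, h1⟩⟩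

end Inst

end Fermat.Agent.S36.NU.H88

end
end
-- ==== END Fermat.Agent.S36.NU.H88_CuspAsm

-- ==== BEGIN Fermat.Agent.S36.NU.H89_NmN3
section

/-!
# S36 / NU-B, leaf NM-N (helper89), part 3: the series forms; `normα₂`, `normβ₁`, `normβ₂`

`SerB2` is helper87's `H87.normB2_F` (NORM-RED along `β` above `V₂`), up to commutativity;
`SerB1` is helper69's `H69.normB1_F` (NORM-RED along `β` above `V₁`);
`SerA2` is helper69's `H69.normA2_N` (NORM-RED along `α` above `V₂`).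
-/

set_option autoImplicit false
set_option linter.style.haveILetI false
set_option linter.unusedSectionVars false
set_option synthInstance.maxHeartbeats 400000
set_option maxHeartbeats 1000000

noncomputable section

open HahnSeries IntermediateField AlgebraicCurve ModularCurve
open Fermat.Agent.S24 Fermat.Agent.BAD.H88 Fermat.Agent.S28 Fermat.Agent.S28.H73
open Fermat.Agent.RED.H73 Fermat.Agent.RED.H17 Fermat.Agent.S36.NU.H88
open Fermat.Agent.S36.NU.H23 Fermat.Agent.S36.NU.H79 Fermat.Agent.BAD Fermat.Agent.RED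

namespace Fermat.Agent.S36.NU.H89

section SerB2

variable (A : ValuationSubring Kbar) (q M : ℕ) (B k : ℤ) (hB : B * M + k * q = 1) (hq : q.Prime)
  [NeZero M] [NeZero q] [NeZero (M * q * q)] [NeZero (M * q)] (hqM : ¬ q ∣ M)
  (hA : A.LiesOverPrime q) (ht : H91.TameAt M q)

include hqM hA in
/-- The series form of NORM-RED along `β` above `V₂`. -/
theorem serB2 : SerB2 A q M B k hB hq := by
  intro h h11 h02
  obtain ⟨hm, hs⟩ := Fermat.Agent.S36.NU.H87.normB2_F A q M B k hB hq hqM hA h h02 h11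
  exact ⟨hm, hs.trans (mul_comm _ _)⟩

/-- **`normβ₂`** of the modular `NUData`, unconditionally. -/
theorem normBeta2' (h : ↥(L0 A (M * q * q)))
    (hu : ∀ i, rd3 A q M B k hB hq hqM hA ht i h ≠ 0) :
    (TL A q M B k hB hq hqM hA ht).p₂.rd (NbetaM A q M h)
      = (resId A q M B k hB hq hA).N (rd3 A q M B k hB hq hqM hA ht 1 h) ^ (q - 1)
        * (resId A q M B k hB hq hA).N (rd3 A q M B k hB hq hqM hA ht 2 h) :=
  normBeta2 A q M B k hB hq hqM hA ht (serB2 A q M B k hB hq hqM hA) h hu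

include hqM hA in
/-- The series form of NORM-RED along `β` above `V₁`. -/
theorem serB1 : SerB1 A q M hq hqM hA := by
  intro h h20
  obtain ⟨hm, hs⟩ := Fermat.Agent.S36.NU.H69.normB1_F A q M hq hqM hA h h20
  exact ⟨hm, hs⟩

/-- **`normβ₁`** of the modular `NUData`, unconditionally. -/
theorem normBeta1' (h : ↥(L0 A (M * q * q)))
    (hu : ∀ i, rd3 A q M B k hB hq hqM hA ht i h ≠ 0) :
    (TL A q M B k hB hq hqM hA ht).p₁.rd (NbetaM A q M h)
      = (resFr A q M B k hB hq hqM hA).N (rd3 A q M B k hB hq hqM hA ht 0 h) :=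
  normBeta1 A q M B k hB hq hqM hA ht (serB1 A q M hq hqM hA) h hu

include hqM hA in
/-- The series form of NORM-RED along `α` above `V₂`. -/
theorem serA2 : SerA2 A q M B k hB hq hqM hA := by
  intro h h02
  obtain ⟨hm, hs⟩ := Fermat.Agent.S36.NU.H69.normA2_N A q M B k hB hq hqM hA h h02
  exact ⟨hm, hs⟩

/-- **`normα₂`** of the modular `NUData`, unconditionally. -/
theorem normAlpha2' (h : ↥(L0 A (M * q * q)))
    (hu : ∀ i, rd3 A q M B k hB hq hqM hA ht i h ≠ 0) :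
    (TL A q M B k hB hq hqM hA ht).p₂.rd (NalphaM A q M h)
      = (resFr A q M B k hB hq hqM hA).N (rd3 A q M B k hB hq hqM hA ht 2 h) :=
  normAlpha2 A q M B k hB hq hqM hA ht (serA2 A q M B k hB hq hqM hA) h hu

end SerB2

end Fermat.Agent.S36.NU.H89

end
end
-- ==== END Fermat.Agent.S36.NU.H89_NmN3

-- ==== BEGIN Fermat.Agent.S36.NU.H91_HssAsm23
section

/-!
# S36 / NU-B, leaf HSS-ASM for `q = 2, 3` (helper91)

The hypothesis `hss` of `H99.pointData_of_dichotomy` (a local equation datum at the supersingular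
points) for a chart `C` over `L0 A (M q²)` compatible with helper23's `totM` and satisfying
helper99's `ChartL0` (chart criterion, ramification indices).

* `thetaNZ_q23H3`, `thetaNZ_q23H2` : `hθ`;
* `isUnitOff_of_pow`, `isUnitOff_incAA_of_pow`, `isUnitOff_incBB_of_pow`,
  `isIntegral_uo_of_pow`, `isIntegral_u2o_of_pow` : `u = f(τ)`, `u'' = f(q²τ)` are integral over
  `K^ur[j]` for a root `f ^ n = unitF M d` of a modular unit;
* `hss_of_compat` : **HSS-ASM, generic in the coordinate** `f` (root of a modular unit with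
  integral expansion `u₀`) from the pole hypothesis at the points of `ssM`, for a chart compatible
  with `totM` satisfying `H99.ChartL0`;
* `ord_jRed_pos_of_ssM` : for `q = 2, 3` the points of `ssM` are zeros of `j̄`;
* `hpole_three`, `hpole_two` : POLE-INST at the points of `ssM`;
* `hss_three`, `hss_two` : the instances `q = 3` (`4 ∣ M`, `f = q23uF3`), `q = 2` (`9 ∣ M`,
  `f = q23uF2`), unconditional given `Compat` + `ChartL0`;
* `hss_three_chart0`, `hss_two_chart0` : the same on helper88's `chart0` from helper16's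
  `hss_gen` (hypotheses `hG`, `hthree` of TI3-VAL).
-/

set_option autoImplicit false
set_option linter.style.haveILetI false
set_option linter.unusedSectionVars false
set_option synthInstance.maxHeartbeats 400000
set_option maxHeartbeats 1000000

noncomputable section

open Polynomial AlgebraicCurve IntermediateField ModularCurve

namespace Fermat.Agent.S36.NU.H91

open Fermat.Agent.S24 Fermat.Agent.BAD.H88 Fermat.Agent.BAD.H30 Fermat.Agent.BAD.H21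
open Fermat.Agent.S28 Fermat.Agent.S28.H73 Fermat.Agent.RED.H73 Fermat.Agent.RED.H17
open Fermat.Agent.S36.NU.H88 Fermat.Agent.S36.NU.H23 Fermat.Agent.S36.NU.H16
open Fermat.Agent.S36.NU.H41 Fermat.Agent.S36.NU.H73 Fermat.Agent.S36.NU.H65
open Fermat.Agent.S36.NU.H5 Fermat.Agent.S36.NU.H74 Fermat.Agent.S36.NU.H24
open Fermat.Agent.RED Fermat.Agent.BAD

/-! ### `hθ` -/

section Theta

variable {k : Type*} [Field k]

theorem q23H3_ne_zero [CharP k 3] : q23H3 k ≠ 0 := by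
  intro h0
  have h := q23H3_W1 (k := k)
  rw [h0] at h
  have h1 : q23W1 k = 0 := by simpa using h
  exact q23W1_ne_zero (k := k) h1

theorem q23H3_add_one_ne_zero [CharP k 3] : q23H3 k + 1 ≠ 0 := by
  intro h0
  have h := q23H3_W1 (k := k)
  rw [h0, mul_zero] at h
  exact q23H3_ne_zero ((pow_eq_zero_iff two_ne_zero).1 h.symm)

theorem thetaL_q23H3_ne_zero [CharP k 3] : thetaL (q23H3 k) ≠ 0 := by
  intro h0
  have h := q23_three_ode (k := k)
  rw [h0, zero_mul] at h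
  exact mul_ne_zero q23H3_ne_zero q23H3_add_one_ne_zero h.symm

/-- **`hθ` for `q = 3`.** -/
theorem thetaNZ_q23H3 [CharP k 3] : ThetaNZ 3 (q23H3 k) :=
  thetaNZ_of_thetaL_ne_zero k 3 _ thetaL_q23H3_ne_zero

theorem q23H2_ne_zero [CharP k 2] : q23H2 k ≠ 0 := by
  intro h0
  have h := q23H2_V1 (k := k)
  rw [h0] at h
  have h1 : q23V1 k = 0 := by simpa using h
  exact q23V1_ne_zero (k := k) h1

theorem q23H2_quad_ne_zero [CharP k 2] : q23H2 k ^ 2 + q23H2 k + 1 ≠ 0 := by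
  intro h0
  have h := q23H2_V1 (k := k)
  rw [h0, mul_zero] at h
  exact q23H2_ne_zero ((pow_eq_zero_iff three_ne_zero).1 h.symm)

theorem thetaL_q23H2_ne_zero [CharP k 2] : thetaL (q23H2 k) ≠ 0 := by
  intro h0
  have h := q23_two_ode (k := k)
  rw [h0, zero_mul] at h
  exact mul_ne_zero q23H2_ne_zero q23H2_quad_ne_zero h.symm

/-- **`hθ` for `q = 2`.** -/
theorem thetaNZ_q23H2 [CharP k 2] : ThetaNZ 2 (q23H2 k) :=
  thetaNZ_of_thetaL_ne_zero k 2 _ thetaL_q23H2_ne_zero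

end Theta

/-! ### `huB`, `hu2B`: roots of modular units -/

section Units

variable (A : ValuationSubring Kbar)
variable (q M : ℕ) (B k : ℤ) (hB : B * M + k * q = 1) (hq : q.Prime) [NeZero M] [NeZero q]
  [NeZero (M * q)] [NeZero (M * q * q)]

/-- A root of a function without zero or pole off the cusps has no zero or pole off the
cusps. -/
theorem isUnitOff_of_pow {N : ℕ} [NeZero N] {x : FN N} {n : ℕ} (hn : n ≠ 0)
    (h : H99.IsUnitOff N (x ^ n)) : H99.IsUnitOff N x := by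
  have hx0 : x ≠ 0 := by
    rintro rfl
    exact h.1 (zero_pow hn)
  refine ⟨hx0, fun P hP => ?_⟩
  have h1 := h.2 P hP
  rw [Fermat.Agent.RED.H17.ord_pow] at h1
  have hn' : ((n : ℕ) : ℤ) ≠ 0 := Int.natCast_ne_zero.2 hn
  rcases mul_eq_zero.1 h1 with h2 | h2
  · exact absurd h2 hn'
  · exact h2

variable (d : ℕ) [NeZero d] (hd : d ∣ M)

theorem incAA_unitF :
    incAA q M (unitF M d hd) = unitF (M * q * q) d (H99.dvd_lvl q M d hd) := by
  apply Subtype.ext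
  rw [coe_incAA]
  rfl

omit [NeZero M] [NeZero q] [NeZero (M * q)] [NeZero (M * q * q)] [NeZero d] in
include hd in
theorem dqq_dvd_lvl : d * (q * q) ∣ M * q * q := by
  rw [mul_assoc]
  exact Nat.mul_dvd_mul_right hd (q * q)

theorem incBB_unitF :
    haveI : NeZero (q * q) := ⟨mul_ne_zero (NeZero.ne q) (NeZero.ne q)⟩
    haveI : NeZero (d * (q * q)) :=
      ⟨mul_ne_zero (NeZero.ne d) (mul_ne_zero (NeZero.ne q) (NeZero.ne q))⟩
    incBB q M (unitF M d hd)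
      = unitF (M * q * q) (d * (q * q)) (dqq_dvd_lvl q M d hd)
        * (unitF (M * q * q) (q * q) (H99.qq_dvd_lvl q M))⁻¹ := by
  haveI : NeZero (q * q) := ⟨mul_ne_zero (NeZero.ne q) (NeZero.ne q)⟩
  haveI : NeZero (d * (q * q)) :=
    ⟨mul_ne_zero (NeZero.ne d) (mul_ne_zero (NeZero.ne q) (NeZero.ne q))⟩
  apply Subtype.ext
  have h1 : ((incBB q M (unitF M d hd) : FN (M * q * q)) : LaurentSeries Kbar)
      = qExpand Kbar q (qExpand Kbar q (coeffEmb Kbar (modularUnitSeries d))) := by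
    rw [coe_incBB]
    rfl
  have h2 : ((unitF (M * q * q) (d * (q * q)) (dqq_dvd_lvl q M d hd)
      * (unitF (M * q * q) (q * q) (H99.qq_dvd_lvl q M))⁻¹ : FN (M * q * q)) :
        LaurentSeries Kbar)
      = coeffEmb Kbar (modularUnitSeries (d * (q * q)))
        * (coeffEmb Kbar (modularUnitSeries (q * q)))⁻¹ := rfl
  rw [h1, h2, coeffEmb_modularUnitSeries, coeffEmb_modularUnitSeries,
    coeffEmb_modularUnitSeries, map_mul, map_mul, map_inv₀, map_inv₀, qExpand_qExpand,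
    qExpand_qExpand, qExpand_qExpand]
  have h0 : deltaR Kbar ≠ 0 := deltaR_ne_zero Kbar
  have h3 : qExpand Kbar (q * q) (deltaR Kbar) ≠ 0 := qExpand_deltaR_ne_zero Kbar (q * q)
  have h4 : qExpand Kbar (d * (q * q)) (deltaR Kbar) ≠ 0 :=
    qExpand_deltaR_ne_zero Kbar (d * (q * q))
  have e1 : qExpand Kbar (q * q * d) (deltaR Kbar) = qExpand Kbar (d * (q * q)) (deltaR Kbar) :=
    qExpand_congr (mul_comm (q * q) d) _
  rw [e1]
  field_simp

variable (f : FN M) (n : ℕ) (hn : n ≠ 0) (hfn : f ^ n = unitF M d hd)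

include hn hfn in
theorem isUnitOff_incAA_of_pow : H99.IsUnitOff (M * q * q) (incAA q M f) := by
  refine _root_.Fermat.Agent.S36.NU.H91.isUnitOff_of_pow hn ?_
  rw [← map_pow, hfn, _root_.Fermat.Agent.S36.NU.H91.incAA_unitF]
  exact H99.isUnitOff_unitF d _

include hn hfn in
theorem isUnitOff_incBB_of_pow : H99.IsUnitOff (M * q * q) (incBB q M f) := by
  haveI : NeZero (q * q) := ⟨mul_ne_zero (NeZero.ne q) (NeZero.ne q)⟩
  haveI : NeZero (d * (q * q)) :=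
    ⟨mul_ne_zero (NeZero.ne d) (mul_ne_zero (NeZero.ne q) (NeZero.ne q))⟩
  refine _root_.Fermat.Agent.S36.NU.H91.isUnitOff_of_pow hn ?_
  rw [← map_pow, hfn, incBB_unitF]
  exact (H99.isUnitOff_unitF (d * (q * q)) _).mul (H99.isUnitOff_unitF (q * q) _).inv

variable (u₀ : LaurentSeries ℤ) (hf : (f : LaurentSeries Kbar) = intSer Kbar u₀)

include hn hfn in
/-- Horizontal integrality of `u = f(t)`. -/
theorem isIntegral_uo_of_pow :
    IsIntegral ↥(Algebra.adjoin ↥(Kur A) ({j0 A (M * q * q)} : Set ↥(L0 A (M * q * q))))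
      (uo A q M f u₀ hf) :=
  H99.isIntegral_Kur_of_bar A _ _
    (H99.isIntegral_bar_of_unitOff (_root_.Fermat.Agent.S36.NU.H91.isUnitOff_incAA_of_pow q M d hd f n hn hfn))

include hn hfn in
/-- Horizontal integrality of `u'' = f(t^{q²})`. -/
theorem isIntegral_u2o_of_pow :
    IsIntegral ↥(Algebra.adjoin ↥(Kur A) ({j0 A (M * q * q)} : Set ↥(L0 A (M * q * q))))
      (u2o A q M f u₀ hf) :=
  H99.isIntegral_Kur_of_bar A _ _
    (H99.isIntegral_bar_of_unitOff (_root_.Fermat.Agent.S36.NU.H91.isUnitOff_incBB_of_pow q M d hd f n hn hfn))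

end Units

/-! ### HSS-ASM, generic in the coordinate -/

section Core

variable (A : ValuationSubring Kbar)
variable (q M : ℕ) (B k : ℤ) (hB : B * M + k * q = 1) (hq : q.Prime) [NeZero M] [NeZero q]
  [NeZero (M * q)] [NeZero (M * q * q)] (hqM : ¬ q ∣ M) (hA : A.LiesOverPrime q)
  (ht : H91.TameAt M q)

attribute [local instance] algkM

/-- **HSS-ASM, generic in the coordinate.**  `C` a chart over `L0 A (M q²)` compatible with
`totM`, with the chart criterion (`H99.ChartL0`); `f ∈ F_M` a root of a modular unit with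
integral expansion `u₀`, `θ ū₀ ≠ 0`; at every supersingular point `z` of level `M`, `ū₀ - c` is a
coordinate for some `c ∈ 𝔽_{q²}` and `- δ̄^q` has a pole of order `q` (POLE-INST).  Then there is
a local equation datum at the closed point of `C` above `z`. -/
theorem hss_of_compat
    (C : Chart ↥(Rur A) ↥(L0 A (M * q * q)) (kV A) (Fin 3) (kap3 (FM A M) (FM A M)))
    (hc : Compat C (totM A q M B k hB hq hqM hA ht)) (e : Fin 3 → ℕ)
    (S : H99.ChartL0 A q M B k hB hq C ((q : ℕ) : ↥(Rur A)) e 0 1 2)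
    (f : FN M) (u₀ : LaurentSeries ℤ) (hf : (f : LaurentSeries Kbar) = intSer Kbar u₀)
    (d : ℕ) [NeZero d] (hd : d ∣ M) (n : ℕ) (hn : n ≠ 0) (hfn : f ^ n = unitF M d hd)
    (hθ : ThetaNZ q (coeffMap (Int.castRingHom (kV A)) u₀))
    (hpole : ∀ z ∈ ssM A q M, ∀ u y₂ : FM A M,
      (u : LaurentSeries (kV A)) = coeffMap (Int.castRingHom (kV A)) u₀ →
      (y₂ : LaurentSeries (kV A)) = - coeffMap (Int.castRingHom (kV A)) (kdel q u₀) ^ q →
      ∃ c : kV A, z.ord (u - algebraMap (kV A) (FM A M) c) = 1 ∧ c ^ q ^ 2 = c ∧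
        z.ord y₂ = -(q : ℤ)) :
    ∀ z ∈ ssM A q M, ∀ 𝔪 : Ideal C.B, 𝔪.IsMaximal →
      (∀ β : C.B, β ∈ 𝔪 ↔
        VanAt ((totM A q M B k hB hq hqM hA ht).pt 0 z) (C.rdB 0 β)) →
      Nonempty (LocEq C ((q : ℕ) : ↥(Rur A)) 𝔪) := by
  intro z hz 𝔪 hmax h𝔪
  haveI : 𝔪.IsPrime := hmax.isPrime
  haveI : CharP (kap3 (FM A M) (FM A M) 0) q := charP_kap3 A q M hq hA 0
  have h20u := uo_mem20 A q M f u₀ hf
  have h20d := d20o_mem A q M hq f u₀ hf
  obtain ⟨c, h1, h2, h3⟩ := hpole z hz (r20 A q M hq hqM hA ⟨uo A q M f u₀ hf, h20u⟩)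
    (r20 A q M hq hqM hA ⟨d20o A q M f u₀ hf, h20d⟩)
    ((coe_r20 A q M hq hqM hA _).trans (s20_uo A q M f u₀ hf h20u))
    ((coe_r20 A q M hq hqM hA _).trans (s20_d20o A q M hq hA f u₀ hf))
  have huB : uo A q M f u₀ hf ∈ C.B :=
    S.mem_B (_root_.Fermat.Agent.S36.NU.H91.isIntegral_uo_of_pow A q M d hd f n hn hfn u₀ hf) h20u
      (uo_mem11 A q M B k hB hq f u₀ hf) (uo_mem02 A q M B k hB hq f u₀ hf)
  have hu2B : u2o A q M f u₀ hf ∈ C.B :=
    S.mem_B (_root_.Fermat.Agent.S36.NU.H91.isIntegral_u2o_of_pow A q M d hd f n hn hfn u₀ hf) (u2o_mem20 A q M f u₀ hf)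
      (u2o_mem11 A q M B k hB hq f u₀ hf) (u2o_mem02 A q M B k hB hq f u₀ hf)
  refine (locEq_ss_modV A q M B k hB hq C ((q : ℕ) : ↥(Rur A)) S.hqR hA S.hqV
    (H99.ChartL0.Hint A q M) S.hBH (S.hqH (hq := hq)) S.critH e S.hE 0 1 2 S.hcases
    (by decide) (by decide) (by decide) S.he₂₀ S.he₁₁ S.he₀₂ S.hV20 S.hV11 S.hV02
    f u₀ hf hθ huB hu2B z c ?_ h2 ?_ 𝔪 h𝔪).2
  · rw [hc.hrd, rdN_totM_zero A q M B k hB hq hqM hA ht _ h20u]
    exact h1
  · rw [hc.hrd, rdN_totM_zero A q M B k hB hq hqM hA ht _ h20d]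
    exact h3

end Core

/-! ### The supersingular points for `q = 2, 3` are the zeros of `j̄` -/

section SSM

variable (A : ValuationSubring Kbar) (q M : ℕ) [NeZero M] [NeZero q] [NeZero (M * q)]

/-- For `q = 2, 3` the supersingular points are zeros of `j̄`. -/
theorem ord_jRed_pos_of_ssM (hq : q.Prime) (hA : A.LiesOverPrime q) (h23 : q = 2 ∨ q = 3)
    (z : Place (kV A) (FM A M)) (hz : z ∈ ssM A q M) :
    0 < z.ord (Fermat.Agent.BAD.H91.jRed A M) := by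
  haveI : Fact q.Prime := ⟨hq⟩
  have h1 := hz.2 (Fermat.Agent.BAD.H91.jRed A M ^ (q - 1)) (by
    rw [gaussRes_unitF_small A (M * q) q hA (Dvd.intro_left M rfl) h23]
    show (Fermat.Agent.BAD.H91.jRed A M : LaurentSeries (kV A)) ^ (q - 1) = _
    rw [show (Fermat.Agent.BAD.H91.jRed A M : LaurentSeries (kV A)) = jqModC (kV A) from
      red_jF A M])
  rw [Fermat.Agent.RED.H17.ord_pow] at h1
  by_contra hle
  have h2 : z.ord (Fermat.Agent.BAD.H91.jRed A M) ≤ 0 := not_lt.mp hle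
  have h3 : ((q - 1 : ℕ) : ℤ) * z.ord (Fermat.Agent.BAD.H91.jRed A M) ≤ 0 :=
    mul_nonpos_of_nonneg_of_nonpos (Int.natCast_nonneg _) h2
  omega

end SSM

/-! ### The instances `q = 3`, `q = 2` -/

section Three

variable (A : ValuationSubring Kbar) (M : ℕ) (B k : ℤ) (hB : B * M + k * 3 = 1)
  [NeZero M] [NeZero (M * 3)] [NeZero (M * 3 * 3)] (hqM : ¬ 3 ∣ M) (hA : A.LiesOverPrime 3)
  (ht : H91.TameAt M 3) (h4 : 4 ∣ M)

attribute [local instance] algkM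

include hqM hA h4 in
/-- POLE-INST at the points of `ssM`, `q = 3`. -/
theorem hpole_three (z : Place (kV A) (FM A M)) (hz : z ∈ ssM A 3 M) (u y₂ : FM A M)
    (hu : (u : LaurentSeries (kV A)) = coeffMap (Int.castRingHom (kV A)) q23hZ4)
    (hy₂ : (y₂ : LaurentSeries (kV A))
      = - coeffMap (Int.castRingHom (kV A)) (kdel 3 q23hZ4) ^ 3) :
    ∃ c : kV A, z.ord (u - algebraMap (kV A) (FM A M) c) = 1 ∧ c ^ 3 ^ 2 = c ∧
      z.ord y₂ = -((3 : ℕ) : ℤ) := by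
  haveI : Fact (Nat.Prime 3) := ⟨Nat.prime_three⟩
  haveI : CharP (kV A) 3 := BAD.H82.charP_kV A Nat.prime_three hA
  have hE := stmt_GA M 3 Nat.prime_three hqM A hA
  have hdm : coeffMap (Int.castRingHom (kV A)) (kdel 3 q23hZ4)
      ∈ redField A (modularFunctionFieldBar M) (hScM A M) := by
    rw [hE]
    exact H44.dbar_mem_three A M hA h4 hqM
  have hpos := ord_jRed_pos_of_ssM A 3 M Nat.prime_three hA (Or.inr rfl) z hz
  obtain ⟨h1, h2, -, h4'⟩ := H44.pole_full_three A M hA h4 hqM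
    (redField A (modularFunctionFieldBar M) (hScM A M)) hE z
    (Fermat.Agent.BAD.H91.jRed A M) u ⟨_, hdm⟩ y₂ (red_jF A M)
    (hu.trans (coeffMap_q23hZ4 (kV A))) rfl hy₂ hpos
  exact ⟨1, h1, h2, h4'⟩

include h4 in
/-- **HSS-ASM for `q = 3`** (`4 ∣ M`): a local equation datum at the supersingular points. -/
theorem hss_three
    (C : Chart ↥(Rur A) ↥(L0 A (M * 3 * 3)) (kV A) (Fin 3) (kap3 (FM A M) (FM A M)))
    (hc : Compat C (totM A 3 M B k hB Nat.prime_three hqM hA ht)) (e : Fin 3 → ℕ)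
    (S : H99.ChartL0 A 3 M B k hB Nat.prime_three C ((3 : ℕ) : ↥(Rur A)) e 0 1 2) :
    ∀ z ∈ ssM A 3 M, ∀ 𝔪 : Ideal C.B, 𝔪.IsMaximal →
      (∀ β : C.B, β ∈ 𝔪 ↔
        VanAt ((totM A 3 M B k hB Nat.prime_three hqM hA ht).pt 0 z) (C.rdB 0 β)) →
      Nonempty (LocEq C ((3 : ℕ) : ↥(Rur A)) 𝔪) := by
  haveI : CharP (kV A) 3 := BAD.H82.charP_kV A Nat.prime_three hA
  refine hss_of_compat A 3 M B k hB Nat.prime_three hqM hA ht C hc e S (q23uF3 M h4) q23hZ4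
    (q23uF3_coe M h4) 4 h4 3 (by norm_num) (q23uF3_cube M h4) ?_ ?_
  · rw [coeffMap_q23hZ4 (kV A)]
    exact thetaNZ_q23H3
  · intro z hz u y₂ hu hy₂
    exact hpole_three A M hqM hA h4 z hz u y₂ hu hy₂

include h4 in
/-- **HSS-ASM for `q = 3`** on helper88's `chart0` (hypotheses `hG`, `hthree` of TI3-VAL as in
helper16's `hss_gen`). -/
theorem hss_three_chart0 (i₀ : Fin 3)
    (hG : ∀ p : (↥(Kur A))[X],
      aeval (j0 A (M * 3 * 3)) p ∈ (totM A 3 M B k hB Nat.prime_three hqM hA ht).V i₀ →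
        ∀ i, p.coeff i ∈ (algebraMap ↥(Rur A) ↥(Kur A)).range)
    (hthree : ∀ f : ↥(L0 A (M * 3 * 3)),
      (∀ i, f ∈ (totM A 3 M B k hB Nat.prime_three hqM hA ht).V i) →
      ∃ P : (↥(L0 A (M * 3 * 3)))[X], P.Monic ∧
        (∀ m, P.coeff m ∈ (totM A 3 M B k hB Nat.prime_three hqM hA ht).V i₀ ∧
          P.coeff m ∈ IntermediateField.adjoin ↥(Kur A) {j0 A (M * 3 * 3)}) ∧
        P.eval f = 0) :
    ∀ z ∈ ssM A 3 M, ∀ 𝔪 : Ideal (chart0 A 3 M B k hB Nat.prime_three hqM hA ht).B,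
      𝔪.IsMaximal →
      (∀ β : (chart0 A 3 M B k hB Nat.prime_three hqM hA ht).B, β ∈ 𝔪 ↔
        VanAt ((totM A 3 M B k hB Nat.prime_three hqM hA ht).pt 0 z)
          ((chart0 A 3 M B k hB Nat.prime_three hqM hA ht).rdB 0 β)) →
      Nonempty (LocEq (chart0 A 3 M B k hB Nat.prime_three hqM hA ht)
        ((3 : ℕ) : ↥(Rur A)) 𝔪) := by
  intro z hz 𝔪 hmax h𝔪
  haveI : 𝔪.IsPrime := hmax.isPrime
  haveI : CharP (kV A) 3 := BAD.H82.charP_kV A Nat.prime_three hA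
  have h20u := uo_mem20 A 3 M (q23uF3 M h4) q23hZ4 (q23uF3_coe M h4)
  have h20d := d20o_mem A 3 M Nat.prime_three (q23uF3 M h4) q23hZ4 (q23uF3_coe M h4)
  have hu := (coe_r20 A 3 M Nat.prime_three hqM hA ⟨_, h20u⟩).trans
    (s20_uo A 3 M (q23uF3 M h4) q23hZ4 (q23uF3_coe M h4) h20u)
  have hy := (coe_r20 A 3 M Nat.prime_three hqM hA ⟨_, h20d⟩).trans
    (s20_d20o A 3 M Nat.prime_three hA (q23uF3 M h4) q23hZ4 (q23uF3_coe M h4))
  obtain ⟨c, h1, h2, h3⟩ := hpole_three A M hqM hA h4 z hz _ _ hu hy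
  have hθ : ThetaNZ 3 (coeffMap (Int.castRingHom (kV A)) q23hZ4) := by
    rw [coeffMap_q23hZ4 (kV A)]
    exact thetaNZ_q23H3
  exact (H16.hss_gen A 3 M B k hB Nat.prime_three hqM hA ht i₀ hG hthree (q23uF3 M h4) q23hZ4
    (q23uF3_coe M h4) hθ
    (_root_.Fermat.Agent.S36.NU.H91.isIntegral_uo_of_pow A 3 M 4 h4 (q23uF3 M h4) 3 (by norm_num) (q23uF3_cube M h4) q23hZ4
      (q23uF3_coe M h4))
    (_root_.Fermat.Agent.S36.NU.H91.isIntegral_u2o_of_pow A 3 M 4 h4 (q23uF3 M h4) 3 (by norm_num) (q23uF3_cube M h4) q23hZ4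
      (q23uF3_coe M h4))
    z c _ _ hu hy h1 h2 h3 𝔪 h𝔪).2

end Three

section Two

variable (A : ValuationSubring Kbar) (M : ℕ) (B k : ℤ) (hB : B * M + k * 2 = 1)
  [NeZero M] [NeZero (M * 2)] [NeZero (M * 2 * 2)] (hqM : ¬ 2 ∣ M) (hA : A.LiesOverPrime 2)
  (ht : H91.TameAt M 2) (h9 : 9 ∣ M)

attribute [local instance] algkM

include hqM hA h9 in
/-- POLE-INST at the points of `ssM`, `q = 2`. -/
theorem hpole_two (z : Place (kV A) (FM A M)) (hz : z ∈ ssM A 2 M) (u y₂ : FM A M)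
    (hu : (u : LaurentSeries (kV A)) = coeffMap (Int.castRingHom (kV A)) q23hZ9)
    (hy₂ : (y₂ : LaurentSeries (kV A))
      = - coeffMap (Int.castRingHom (kV A)) (kdel 2 q23hZ9) ^ 2) :
    ∃ c : kV A, z.ord (u - algebraMap (kV A) (FM A M) c) = 1 ∧ c ^ 2 ^ 2 = c ∧
      z.ord y₂ = -((2 : ℕ) : ℤ) := by
  haveI : Fact (Nat.Prime 2) := ⟨Nat.prime_two⟩
  haveI : CharP (kV A) 2 := BAD.H82.charP_kV A Nat.prime_two hA
  have hE := stmt_GA M 2 Nat.prime_two hqM A hA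
  have hdm : coeffMap (Int.castRingHom (kV A)) (kdel 2 q23hZ9)
      ∈ redField A (modularFunctionFieldBar M) (hScM A M) := by
    rw [hE]
    exact H44.dbar_mem_two A M hA h9 hqM
  have hpos := ord_jRed_pos_of_ssM A 2 M Nat.prime_two hA (Or.inl rfl) z hz
  obtain ⟨h1, h2, -, h4'⟩ := H44.pole_full_two A M hA h9 hqM
    (redField A (modularFunctionFieldBar M) (hScM A M)) hE z
    (Fermat.Agent.BAD.H91.jRed A M) u ⟨_, hdm⟩ y₂ (red_jF A M)
    (hu.trans (coeffMap_q23hZ9 (kV A))) rfl hy₂ hpos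
  exact ⟨1, h1, h2, h4'⟩

include h9 in
/-- **HSS-ASM for `q = 2`** (`9 ∣ M`): a local equation datum at the supersingular points. -/
theorem hss_two
    (C : Chart ↥(Rur A) ↥(L0 A (M * 2 * 2)) (kV A) (Fin 3) (kap3 (FM A M) (FM A M)))
    (hc : Compat C (totM A 2 M B k hB Nat.prime_two hqM hA ht)) (e : Fin 3 → ℕ)
    (S : H99.ChartL0 A 2 M B k hB Nat.prime_two C ((2 : ℕ) : ↥(Rur A)) e 0 1 2) :
    ∀ z ∈ ssM A 2 M, ∀ 𝔪 : Ideal C.B, 𝔪.IsMaximal →
      (∀ β : C.B, β ∈ 𝔪 ↔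
        VanAt ((totM A 2 M B k hB Nat.prime_two hqM hA ht).pt 0 z) (C.rdB 0 β)) →
      Nonempty (LocEq C ((2 : ℕ) : ↥(Rur A)) 𝔪) := by
  haveI : CharP (kV A) 2 := BAD.H82.charP_kV A Nat.prime_two hA
  refine hss_of_compat A 2 M B k hB Nat.prime_two hqM hA ht C hc e S (q23uF2 M h9) q23hZ9
    (q23uF2_coe M h9) 9 h9 8 (by norm_num) (q23uF2_pow M h9) ?_ ?_
  · rw [coeffMap_q23hZ9 (kV A)]
    exact thetaNZ_q23H2
  · intro z hz u y₂ hu hy₂
    exact hpole_two A M hqM hA h9 z hz u y₂ hu hy₂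

include h9 in
/-- **HSS-ASM for `q = 2`** on helper88's `chart0` (hypotheses `hG`, `hthree` of TI3-VAL as in
helper16's `hss_gen`). -/
theorem hss_two_chart0 (i₀ : Fin 3)
    (hG : ∀ p : (↥(Kur A))[X],
      aeval (j0 A (M * 2 * 2)) p ∈ (totM A 2 M B k hB Nat.prime_two hqM hA ht).V i₀ →
        ∀ i, p.coeff i ∈ (algebraMap ↥(Rur A) ↥(Kur A)).range)
    (hthree : ∀ f : ↥(L0 A (M * 2 * 2)),
      (∀ i, f ∈ (totM A 2 M B k hB Nat.prime_two hqM hA ht).V i) →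
      ∃ P : (↥(L0 A (M * 2 * 2)))[X], P.Monic ∧
        (∀ m, P.coeff m ∈ (totM A 2 M B k hB Nat.prime_two hqM hA ht).V i₀ ∧
          P.coeff m ∈ IntermediateField.adjoin ↥(Kur A) {j0 A (M * 2 * 2)}) ∧
        P.eval f = 0) :
    ∀ z ∈ ssM A 2 M, ∀ 𝔪 : Ideal (chart0 A 2 M B k hB Nat.prime_two hqM hA ht).B,
      𝔪.IsMaximal →
      (∀ β : (chart0 A 2 M B k hB Nat.prime_two hqM hA ht).B, β ∈ 𝔪 ↔
        VanAt ((totM A 2 M B k hB Nat.prime_two hqM hA ht).pt 0 z)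
          ((chart0 A 2 M B k hB Nat.prime_two hqM hA ht).rdB 0 β)) →
      Nonempty (LocEq (chart0 A 2 M B k hB Nat.prime_two hqM hA ht)
        ((2 : ℕ) : ↥(Rur A)) 𝔪) := by
  intro z hz 𝔪 hmax h𝔪
  haveI : 𝔪.IsPrime := hmax.isPrime
  haveI : CharP (kV A) 2 := BAD.H82.charP_kV A Nat.prime_two hA
  have h20u := uo_mem20 A 2 M (q23uF2 M h9) q23hZ9 (q23uF2_coe M h9)
  have h20d := d20o_mem A 2 M Nat.prime_two (q23uF2 M h9) q23hZ9 (q23uF2_coe M h9)
  have hu := (coe_r20 A 2 M Nat.prime_two hqM hA ⟨_, h20u⟩).trans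
    (s20_uo A 2 M (q23uF2 M h9) q23hZ9 (q23uF2_coe M h9) h20u)
  have hy := (coe_r20 A 2 M Nat.prime_two hqM hA ⟨_, h20d⟩).trans
    (s20_d20o A 2 M Nat.prime_two hA (q23uF2 M h9) q23hZ9 (q23uF2_coe M h9))
  obtain ⟨c, h1, h2, h3⟩ := hpole_two A M hqM hA h9 z hz _ _ hu hy
  have hθ : ThetaNZ 2 (coeffMap (Int.castRingHom (kV A)) q23hZ9) := by
    rw [coeffMap_q23hZ9 (kV A)]
    exact thetaNZ_q23H2
  exact (H16.hss_gen A 2 M B k hB Nat.prime_two hqM hA ht i₀ hG hthree (q23uF2 M h9) q23hZ9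
    (q23uF2_coe M h9) hθ
    (_root_.Fermat.Agent.S36.NU.H91.isIntegral_uo_of_pow A 2 M 9 h9 (q23uF2 M h9) 8 (by norm_num) (q23uF2_pow M h9) q23hZ9
      (q23uF2_coe M h9))
    (_root_.Fermat.Agent.S36.NU.H91.isIntegral_u2o_of_pow A 2 M 9 h9 (q23uF2 M h9) 8 (by norm_num) (q23uF2_pow M h9) q23hZ9
      (q23uF2_coe M h9))
    z c _ _ hu hy h1 h2 h3 𝔪 h𝔪).2

end Two

/-! ### Both cases, with `q` a variable -/

section Small

variable (A : ValuationSubring Kbar) (q M : ℕ) (B k : ℤ) (hB : B * M + k * q = 1)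
  (hq : q.Prime) [NeZero M] [NeZero q] [NeZero (M * q)] [NeZero (M * q * q)] (hqM : ¬ q ∣ M)
  (hA : A.LiesOverPrime q) (ht : H91.TameAt M q)

attribute [local instance] algkM

/-- **HSS-ASM for `q = 3` (`4 ∣ M`) and `q = 2` (`9 ∣ M`)**, for a chart compatible with `totM`
satisfying `H99.ChartL0`. -/
theorem hss_small (h23 : (q = 3 ∧ 4 ∣ M) ∨ (q = 2 ∧ 9 ∣ M))
    (C : Chart ↥(Rur A) ↥(L0 A (M * q * q)) (kV A) (Fin 3) (kap3 (FM A M) (FM A M)))
    (hc : Compat C (totM A q M B k hB hq hqM hA ht)) (e : Fin 3 → ℕ)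
    (S : H99.ChartL0 A q M B k hB hq C ((q : ℕ) : ↥(Rur A)) e 0 1 2) :
    ∀ z ∈ ssM A q M, ∀ 𝔪 : Ideal C.B, 𝔪.IsMaximal →
      (∀ β : C.B, β ∈ 𝔪 ↔
        VanAt ((totM A q M B k hB hq hqM hA ht).pt 0 z) (C.rdB 0 β)) →
      Nonempty (LocEq C ((q : ℕ) : ↥(Rur A)) 𝔪) := by
  rcases h23 with ⟨rfl, h4⟩ | ⟨rfl, h9⟩
  · exact hss_three A M B k hB hqM hA ht h4 C hc e S
  · exact hss_two A M B k hB hqM hA ht h9 C hc e S

/-- **HSS-ASM for `q = 3` (`4 ∣ M`) and `q = 2` (`9 ∣ M`)** on helper88's `chart0`. -/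
theorem hss_small_chart0 (h23 : (q = 3 ∧ 4 ∣ M) ∨ (q = 2 ∧ 9 ∣ M)) (i₀ : Fin 3)
    (hG : ∀ p : (↥(Kur A))[X],
      aeval (j0 A (M * q * q)) p ∈ (totM A q M B k hB hq hqM hA ht).V i₀ →
        ∀ i, p.coeff i ∈ (algebraMap ↥(Rur A) ↥(Kur A)).range)
    (hthree : ∀ f : ↥(L0 A (M * q * q)),
      (∀ i, f ∈ (totM A q M B k hB hq hqM hA ht).V i) →
      ∃ P : (↥(L0 A (M * q * q)))[X], P.Monic ∧
        (∀ m, P.coeff m ∈ (totM A q M B k hB hq hqM hA ht).V i₀ ∧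
          P.coeff m ∈ IntermediateField.adjoin ↥(Kur A) {j0 A (M * q * q)}) ∧
        P.eval f = 0) :
    ∀ z ∈ ssM A q M, ∀ 𝔪 : Ideal (chart0 A q M B k hB hq hqM hA ht).B,
      𝔪.IsMaximal →
      (∀ β : (chart0 A q M B k hB hq hqM hA ht).B, β ∈ 𝔪 ↔
        VanAt ((totM A q M B k hB hq hqM hA ht).pt 0 z)
          ((chart0 A q M B k hB hq hqM hA ht).rdB 0 β)) →
      Nonempty (LocEq (chart0 A q M B k hB hq hqM hA ht) ((q : ℕ) : ↥(Rur A)) 𝔪) := by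
  rcases h23 with ⟨rfl, h4⟩ | ⟨rfl, h9⟩
  · exact hss_three_chart0 A M B k hB hqM hA ht h4 i₀ hG hthree
  · exact hss_two_chart0 A M B k hB hqM hA ht h9 i₀ hG hthree

end Small

end Fermat.Agent.S36.NU.H91

end
end
-- ==== END Fermat.Agent.S36.NU.H91_HssAsm23
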