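-- GENERATED (merged mirror, NOTES/tools/trim/merge3_helper67.py): 1 modules of the originals, bodies verbatim.
import Fermat.Agent.Zm.S36_L15_001

-- ==== BEGIN Fermat.Agent.S36.NU.H99_OrdMod5
section

/-!
# S36 / NU-B, (M4) LOCEQ at the ordinary points, modular part 5 (helper99)

The hypothesis `hord` of `pointData_of_dichotomy` for a chart over `Fin 3` with the valuation
rings `V20o`, `V11o`, `V02o`.

* `wit3` : the ordinary witnesses `(E20, eps1, E02)`;
* `hord_mod` : the local equation data at the ordinary points, from the middle component for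
  `q = 2, 3` (`Mid23`).
-/

set_option autoImplicit false
set_option synthInstance.maxHeartbeats 400000
set_option maxHeartbeats 1000000
set_option linter.unusedSectionVars false
set_option linter.style.haveILetI false

noncomputable section

open ModularCurve AlgebraicCurve IntermediateField
open Fermat.Agent.S24 Fermat.Agent.BAD.H88 Fermat.Agent.BAD.H30 Fermat.Agent.BAD.H21
open Fermat.Agent.S28 Fermat.Agent.S28.H73 Fermat.Agent.RED.H73 Fermat.Agent.RED.H17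
open Fermat.Agent.S36.NU.H88 Fermat.Agent.S36.NU.H23
open Fermat.Agent.S36.NU.H41 Fermat.Agent.RED

namespace Fermat.Agent.S36.NU.H99

open Fermat.Agent.S36.NU.H16 (Chart LocEq valq_of_crit)

section Hord

variable {A : ValuationSubring Kbar}
variable {q M : ℕ} {B k : ℤ} {hB : B * M + k * q = 1} {hq : q.Prime} [NeZero M] [NeZero q]
  [NeZero (M * q)] [NeZero (M * q * q)]
variable {R k' : Type*} {κ : Fin 3 → Type*} [CommRing R] [Algebra R ↥(L0 A (M * q * q))]
  [Field k'] [∀ i, Field (κ i)] [∀ i, Algebra k' (κ i)]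
variable {C : Chart R ↥(L0 A (M * q * q)) k' (Fin 3) κ} {qR : R} {e : Fin 3 → ℕ}
  (S : ChartL0 A q M B k hB hq C qR e 0 1 2)

include S hq in
/-- **The ordinary witnesses** `(E20, eps1, E02)`. -/
def ChartL0.wit3 (hA : (q : Kbar) ∈ A.nonunits) : Fin 3 → C.B :=
  ![⟨E20o A q M, S.E20o_mem_B hA⟩, ⟨eps1o A q M, S.eps1o_mem_B⟩, ⟨E02o A q M, S.E02o_mem_B hA⟩]

theorem ChartL0.wit3_zero (hA : (q : Kbar) ∈ A.nonunits) :
    S.wit3 hA 0 = ⟨E20o A q M, S.E20o_mem_B hA⟩ := rfl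

theorem ChartL0.wit3_one (hA : (q : Kbar) ∈ A.nonunits) :
    S.wit3 hA 1 = ⟨eps1o A q M, S.eps1o_mem_B⟩ := rfl

theorem ChartL0.wit3_two (hA : (q : Kbar) ∈ A.nonunits) :
    S.wit3 hA 2 = ⟨E02o A q M, S.E02o_mem_B hA⟩ := rfl

/-- The middle component at the ordinary points (the statement of `ord11_u4`). -/
def ChartL0.Mid : Prop :=
  ∀ (𝔪 : Ideal C.B) [𝔪.IsPrime], C.Icomp 1 ≤ 𝔪 →
    (⟨eps1o A q M, S.eps1o_mem_B⟩ : C.B) ∉ 𝔪 →
      Nonempty (LocEq C qR 𝔪) ∧ ∀ i', C.Icomp i' ≤ 𝔪 → i' = 1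

include hB hq in
/-- The middle component for `q ≥ 5`, `4 ∣ M`. -/
theorem ChartL0.mid_u4 (hA : (q : Kbar) ∈ A.nonunits) (h5 : 5 ≤ q) (h4 : 4 ∣ M) : S.Mid :=
  fun 𝔪 _ hi hw => ord11_u4 S hA h5 h4 𝔪 hi hw

include hB hq in
/-- **The local equation data at the ordinary points** (hypothesis `hord` of
`pointData_of_dichotomy`). -/
theorem hord_mod (hA : (q : Kbar) ∈ A.nonunits) (hmid : S.Mid) :
    ∀ 𝔪 : Ideal C.B, 𝔪.IsMaximal → ∀ i, C.Icomp i ≤ 𝔪 → S.wit3 hA i ∉ 𝔪 →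
      Nonempty (LocEq C qR 𝔪) ∧ ∀ i', C.Icomp i' ≤ 𝔪 → i' = i := by
  intro 𝔪 hmax i hi hw
  haveI : 𝔪.IsPrime := hmax.isPrime
  fin_cases i
  · exact ord20_mod S hA 𝔪 hi hw
  · exact hmid 𝔪 hi hw
  · exact ord02_mod S hA 𝔪 hi hw

end Hord

end Fermat.Agent.S36.NU.H99

end
end
-- ==== END Fermat.Agent.S36.NU.H99_OrdMod5
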