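-- GENERATED (merged mirror, NOTES/tools/trim/merge3_helper67.py): 7 modules of the originals, bodies verbatim.
import Fermat.Agent.Zm.S36_L16_000
import Fermat.Agent.Zm.S36_L15_000
import Fermat.Agent.Zm.S36_L05_000
import Fermat.Agent.Zm.S35_L13_002
import Fermat.Agent.Zm.S36_L01_002
import Fermat.Agent.Zm.S36_L16_002
import Fermat.Agent.Zm.S36_L14_001
import Fermat.Agent.Zm.S36_L15_001
import Fermat.Agent.Zm.S36_L16_001
import Fermat.Agent.Zm.S36_L10_001
import Fermat.Agent.Zm.S36_L13_000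

-- ==== BEGIN Fermat.Agent.S36.NU.H17_BranchMod
section

/-!
# S36 / NU-B, (L2-iv) modular wiring (helper17): the branches of the chart of `j`

Level `N = M q²`, `q ∤ M` tame; `chart0` = the chart of `j` (helper88), `B = ` the integral
closure of `R^ur[j]` in the inertia-fixed functions of level `N`.

* `jbar A M` : the reduction of `j` at the good level `M`; `κ / k(j̄)` is finite separable;
* `branch_chart0` : **every closed point of the special fibre of `chart0` has a branch on every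
  component through it** (the hypothesis `hbr` of `H99.pointData_of_dichotomy`), by
  `H24.branch_of_normal`: the lift of `y`, integral over `k[j̄]`, is `incl f` on the components
  `20`, `11` and `f(q²τ)` on the component `02`, `f` from `H17.normalImg_tame`; it is integral over
  `K^ur[j]` (helper22) and lies in the three valuation rings, hence in `B` (helper28 `crit0`).
-/

set_option autoImplicit false
set_option synthInstance.maxHeartbeats 400000
set_option maxHeartbeats 1000000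
set_option linter.style.haveILetI false
set_option linter.unusedSectionVars false

noncomputable section

open ModularCurve AlgebraicCurve Polynomial IntermediateField
open Fermat.Agent.S24 Fermat.Agent.BAD.H88 Fermat.Agent.S28 Fermat.Agent.S28.H73
open Fermat.Agent.RED.H73 Fermat.Agent.RED.H17 Fermat.Agent.S36.NU.H88
open Fermat.Agent.S36.NU.H23 Fermat.Agent.S36.NU.H41
open Fermat.Agent.S36.NU.H16 Fermat.Agent.S36.NU.H65 Fermat.Agent.BAD

namespace Fermat.Agent.S36.NU.H17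

section Jbar

variable (A : ValuationSubring Kbar) (M : ℕ) [NeZero M]

/-- The reduction of `j` at the level `M`. -/
def jbar : FM A M := redM A M ⟨Fermat.Agent.RED.H73.jF (L := Kbar) M, jF_mem A M⟩

theorem coe_jbar : ((jbar A M : FM A M) : LaurentSeries (kV A)) = jqModC (kV A) :=
  red_jF A M

theorem Jred_eq_jqModC' : H88.Jred A = jqModC (kV A) := by
  unfold H88.Jred H88.jInt
  rw [qExpand_one_apply, coeffMap_jqModC]

variable {q : ℕ} (hq : q.Prime) (hqM : ¬ q ∣ M) (hA : A.LiesOverPrime q)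

include hq hqM hA in
theorem finiteDimensional_jbar : FiniteDimensional ↥(kV A)⟮jbar A M⟯ (FM A M) := by
  obtain ⟨-, h2, -, h4, -⟩ := goodChart_pre M q hq hqM A hA
  have hpos : 0 < Module.finrank ↥(kV A)⟮jbar A M⟯ (FM A M) := by
    have h5 : Module.finrank ↥(kV A)⟮jbar A M⟯ (FM A M)
        = Module.finrank ↥(Kbar⟮Fermat.Agent.RED.H73.jF (L := Kbar) M⟯)
            ↥(laurentBaseChange Kbar (modularFunctionFieldFull M)) := h4
    rw [h5]
    exact Module.finrank_pos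
  exact Module.finite_of_finrank_pos hpos

include hq hqM hA in
theorem isSeparable_jbar : Algebra.IsSeparable ↥(kV A)⟮jbar A M⟯ (FM A M) :=
  (goodChart_pre M q hq hqM A hA).2.2.2.2

end Jbar

section Lifts

variable (A : ValuationSubring Kbar) (q M : ℕ) (B k : ℤ) (hB : B * M + k * q = 1) (hq : q.Prime)
  [NeZero M] [NeZero q] [NeZero (M * q * q)] (hqM : ¬ q ∣ M) (hA : A.LiesOverPrime q)
  (ht : H91.TameAt M q)

attribute [local instance] algkM

/-- The lift `incl f` of a function of the good level lies in `B`. -/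
theorem incl_mem_chart0 (f : FN M) (hf : f ∈ L0 A M) (hV : f ∈ VM A M)
    (hint : ((aeval (Fermat.Agent.RED.H73.jF (L := Kbar) M) : Kbar[X] →ₐ[Kbar] FN M).toRingHom.comp
        (mapRingHom (iotaUr A))).IsIntegralElem f) :
    inclL0 A (hleMN q M) ⟨f, hf⟩ ∈ (chart0 A q M B k hB hq hqM hA ht).B := by
  refine H28.crit0 A q M B k hB hq hqM hA ht (H22.isIntegral_incl A q M f hf hint) ?_
  intro i
  fin_cases i
  · exact hVE20 A q M ⟨f, hf⟩ hV
  · exact hVE11 A q M B k hB hq ⟨f, hf⟩ hV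
  · exact hVE02 A q M B k hB hq ⟨f, hf⟩ hV

/-- The lift `f(q²τ)` of a function of the good level lies in `B`. -/
theorem incBB_mem_chart0 (f : FN M) (hf : f ∈ L0 A M) (hV : f ∈ VM A M)
    (hint : ((aeval (Fermat.Agent.RED.H73.jF (L := Kbar) M) : Kbar[X] →ₐ[Kbar] FN M).toRingHom.comp
        (mapRingHom (iotaUr A))).IsIntegralElem f) :
    (⟨incBB q M f, incBB_mem_L0 A q M f hf⟩ : ↥(L0 A (M * q * q)))
      ∈ (chart0 A q M B k hB hq hqM hA ht).B := by
  refine H28.crit0 A q M B k hB hq hqM hA ht (H22.isIntegral_incBB A q M f hf hint) ?_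
  intro i
  fin_cases i
  · exact (incBB_mem_V20_iff A q M f).mpr hV
  · exact (incBB_mem_V11_iff A q M B k hB hq f).mpr hV
  · exact (incBB_mem_V02_iff A q M B k hB hq f).mpr hV

end Lifts

section Branch0

variable (A : ValuationSubring Kbar) (q M : ℕ) (B k : ℤ) (hB : B * M + k * q = 1) (hq : q.Prime)
  [NeZero M] [NeZero q] [NeZero (M * q * q)] (hqM : ¬ q ∣ M) (hA : A.LiesOverPrime q)
  (ht : H91.TameAt M q)

attribute [local instance] algkM

theorem j0_mem_chart0 : j0 A (M * q * q) ∈ (chart0 A q M B k hB hq hqM hA ht).B :=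
  self_mem_intSub _ _

/-- The reduction of `j` on the components `20`, `11`. -/
theorem r20_j0_eq (h : j0 A (M * q * q) ∈ V20o A q M) :
    r20 A q M hq hqM hA ⟨_, h⟩ = jbar A M := by
  apply Subtype.ext
  rw [coe_r20, s20_j0, coe_jbar, Jred_eq_jqModC']

theorem r11_j0_eq (h : j0 A (M * q * q) ∈ V11o A q M B k hB hq) :
    r11 A q M B k hB hq hqM hA ⟨_, h⟩ = jbar A M := by
  apply Subtype.ext
  rw [coe_r11, s11_j0, coe_jbar, Jred_eq_jqModC']

/-- The reduction of `j` on the component `02` is `j̄ ^ q²`. -/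
theorem r02_j0_eq (h : j0 A (M * q * q) ∈ V02o A q M B k hB) :
    r02 A q M B k hB hq hqM hA ⟨_, h⟩ = jbar A M ^ q ^ 2 := by
  apply Subtype.ext
  rw [coe_r02, s02_j0 A q M B k hB hq, ← Jred_pow A q hq hA]
  have h1 : ((jbar A M ^ q ^ 2 : FM A M) : LaurentSeries (kV A))
      = ((jbar A M : FM A M) : LaurentSeries (kV A)) ^ q ^ 2 := rfl
  rw [h1, coe_jbar, Jred_eq_jqModC']

theorem isIntegral_self_adjoin {k' κ' : Type*} [Field k'] [Field κ'] [Algebra k' κ'] (t : κ') :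
    IsIntegral ↥(Algebra.adjoin k' ({t} : Set κ')) t :=
  isIntegral_of_mem_adjoin (Algebra.subset_adjoin rfl)

/-- **Branches on the component `20`.** -/
theorem branch_chart0_zero (𝔪 : Ideal (chart0 A q M B k hB hq hqM hA ht).B) (hmax : 𝔪.IsMaximal)
    (h𝔪 : (chart0 A q M B k hB hq hqM hA ht).Icomp 0 ≤ 𝔪) :
    Nonempty (Branch (chart0 A q M B k hB hq hqM hA ht) 𝔪 0) := by
  haveI : IsAlgClosed (kV A) := isAlgClosed_kV A
  refine @H24.branch_of_normal _ _ _ _ _ _ _ _ _ _ _ _ (chart0 A q M B k hB hq hqM hA ht) 0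
    (j0 A (M * q * q)) (j0_mem_chart0 A q M B k hB hq hqM hA ht) (fun β => β.2) (jbar A M)
    (finiteDimensional_jbar A M hq hqM hA) (isSeparable_jbar A M hq hqM hA) ?_ ?_ 𝔪 hmax h𝔪
  · have e : (chart0 A q M B k hB hq hqM hA ht).rdB 0
        ⟨j0 A (M * q * q), j0_mem_chart0 A q M B k hB hq hqM hA ht⟩ = jbar A M :=
      r20_j0_eq A q M hq hqM hA _
    rw [e]
    exact isIntegral_self_adjoin _
  · intro y hy
    obtain ⟨f, hf, -, hint, hV, hred⟩ :=
      normalImg_tame A M hq hA hqM ht _ rfl (jF_mem A M) y hy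
    refine ⟨⟨_, incl_mem_chart0 A q M B k hB hq hqM hA ht f hf hV hint⟩, ?_⟩
    have e : (chart0 A q M B k hB hq hqM hA ht).rdB 0
        ⟨_, incl_mem_chart0 A q M B k hB hq hqM hA ht f hf hV hint⟩ = redM A M ⟨f, hV⟩ :=
      r20_incl A q M hq hqM hA ⟨⟨f, hf⟩, hV⟩ _
    rw [e, hred]

/-- **Branches on the component `11`.** -/
theorem branch_chart0_one (𝔪 : Ideal (chart0 A q M B k hB hq hqM hA ht).B) (hmax : 𝔪.IsMaximal)
    (h𝔪 : (chart0 A q M B k hB hq hqM hA ht).Icomp 1 ≤ 𝔪) :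
    Nonempty (Branch (chart0 A q M B k hB hq hqM hA ht) 𝔪 1) := by
  haveI : IsAlgClosed (kV A) := isAlgClosed_kV A
  refine @H24.branch_of_normal _ _ _ _ _ _ _ _ _ _ _ _ (chart0 A q M B k hB hq hqM hA ht) 1
    (j0 A (M * q * q)) (j0_mem_chart0 A q M B k hB hq hqM hA ht) (fun β => β.2) (jbar A M)
    (finiteDimensional_jbar A M hq hqM hA) (isSeparable_jbar A M hq hqM hA) ?_ ?_ 𝔪 hmax h𝔪
  · have e : (chart0 A q M B k hB hq hqM hA ht).rdB 1
        ⟨j0 A (M * q * q), j0_mem_chart0 A q M B k hB hq hqM hA ht⟩ = jbar A M :=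
      r11_j0_eq A q M B k hB hq hqM hA _
    rw [e]
    exact isIntegral_self_adjoin _
  · intro y hy
    obtain ⟨f, hf, -, hint, hV, hred⟩ :=
      normalImg_tame A M hq hA hqM ht _ rfl (jF_mem A M) y hy
    refine ⟨⟨_, incl_mem_chart0 A q M B k hB hq hqM hA ht f hf hV hint⟩, ?_⟩
    have e : (chart0 A q M B k hB hq hqM hA ht).rdB 1
        ⟨_, incl_mem_chart0 A q M B k hB hq hqM hA ht f hf hV hint⟩ = redM A M ⟨f, hV⟩ :=
      r11_incl A q M B k hB hq hqM hA ⟨⟨f, hf⟩, hV⟩ _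
    rw [e, hred]

/-- **Branches on the component `02`.** -/
theorem branch_chart0_two (𝔪 : Ideal (chart0 A q M B k hB hq hqM hA ht).B) (hmax : 𝔪.IsMaximal)
    (h𝔪 : (chart0 A q M B k hB hq hqM hA ht).Icomp 2 ≤ 𝔪) :
    Nonempty (Branch (chart0 A q M B k hB hq hqM hA ht) 𝔪 2) := by
  haveI : IsAlgClosed (kV A) := isAlgClosed_kV A
  refine @H24.branch_of_normal _ _ _ _ _ _ _ _ _ _ _ _ (chart0 A q M B k hB hq hqM hA ht) 2
    (j0 A (M * q * q)) (j0_mem_chart0 A q M B k hB hq hqM hA ht) (fun β => β.2) (jbar A M)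
    (finiteDimensional_jbar A M hq hqM hA) (isSeparable_jbar A M hq hqM hA) ?_ ?_ 𝔪 hmax h𝔪
  · have e : (chart0 A q M B k hB hq hqM hA ht).rdB 2
        ⟨j0 A (M * q * q), j0_mem_chart0 A q M B k hB hq hqM hA ht⟩ = jbar A M ^ q ^ 2 :=
      r02_j0_eq A q M B k hB hq hqM hA _
    rw [e]
    exact (isIntegral_self_adjoin _).pow _
  · intro y hy
    obtain ⟨f, hf, -, hint, hV, hred⟩ :=
      normalImg_tame A M hq hA hqM ht _ rfl (jF_mem A M) y hy
    refine ⟨⟨_, incBB_mem_chart0 A q M B k hB hq hqM hA ht f hf hV hint⟩, ?_⟩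
    have e : (chart0 A q M B k hB hq hqM hA ht).rdB 2
        ⟨_, incBB_mem_chart0 A q M B k hB hq hqM hA ht f hf hV hint⟩ = redM A M ⟨f, hV⟩ :=
      r02_incBB A q M B k hB hq hqM hA ⟨⟨f, hf⟩, hV⟩
    rw [e, hred]

/-- **(L2-iv) `hbr` for the chart of `j`**: every closed point of the special fibre has a branch
on every component through it. -/
theorem branch_chart0 :
    ∀ 𝔪 : Ideal (chart0 A q M B k hB hq hqM hA ht).B, 𝔪.IsMaximal →
      ∀ i, (chart0 A q M B k hB hq hqM hA ht).Icomp i ≤ 𝔪 →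
        Nonempty (Branch (chart0 A q M B k hB hq hqM hA ht) 𝔪 i) := by
  intro 𝔪 hmax i hi
  fin_cases i
  · exact branch_chart0_zero A q M B k hB hq hqM hA ht 𝔪 hmax hi
  · exact branch_chart0_one A q M B k hB hq hqM hA ht 𝔪 hmax hi
  · exact branch_chart0_two A q M B k hB hq hqM hA ht 𝔪 hmax hi

end Branch0

end Fermat.Agent.S36.NU.H17

end
end
-- ==== END Fermat.Agent.S36.NU.H17_BranchMod

-- ==== BEGIN Fermat.Agent.S36.NU.H51_ValVecA2
section

/-!
# S36 / NU-B, leaf VALVEC-MOD (helper51): NORM-VAL along `α` above `V₂`, and the final statement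

`V₀₂` is the only valuation ring of `L0 A (M q²)` above `V₂` (along `α`): THREE for `nrM`, and
`V₂₀`, `V₁₁` lie above `V₁`.  Hence `V₀₂` is the integral closure of `V₂`, the norm maps units to
units, and `v₂ (Nα x) = v₂ (q) ^ (q k₀₂)` — without the residue degree.

* `uniq_V02o`; `normValA2 : NormValA2`; **`stmt_ValVecMod : H10.Stmt_ValVecMod`**.
-/

set_option autoImplicit false
set_option synthInstance.maxHeartbeats 400000
set_option maxHeartbeats 1000000
set_option linter.style.haveILetI false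
set_option linter.unusedSectionVars false

noncomputable section

open ModularCurve AlgebraicCurve
open Fermat.Agent.S24 Fermat.Agent.BAD.H88 Fermat.Agent.S28 Fermat.Agent.S28.H73
open Fermat.Agent.RED.H73 Fermat.Agent.RED.H17 Fermat.Agent.S36.NU.H88
open Fermat.Agent.S36.NU.H23 Fermat.Agent.Lib.HeckeComm Fermat.Agent.BAD
open Fermat.Agent.S36.NU.H82

namespace Fermat.Agent.S36.NU.H51

section A2

variable (A : ValuationSubring Kbar) (q M : ℕ) (B k : ℤ) (hB : B * M + k * q = 1) (hq : q.Prime)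
  [NeZero M] [NeZero q] [NeZero (M * q)] [NeZero (M * q * q)]
  (hqM : ¬ q ∣ M) (hA : A.LiesOverPrime q)

/-- `F_M ⊆ F_{M q}`. -/
theorem hleB : modularFunctionFieldBar M ≤ modularFunctionFieldBar (M * q) :=
  Fermat.Agent.S36.NU.H82.FM_le_of_dvd (M * q) M ⟨q, rfl⟩

theorem inclusion_eq_alphaB (x : FN M) :
    IntermediateField.inclusion (hleB q M) x = heckeAlphaBar Kbar M q x := by
  apply Subtype.ext
  rw [IntermediateField.coe_inclusion, coe_heckeAlphaBar]

theorem inclL0_comp (a : ↥(L0 A M)) :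
    inclL0 A (hleMN q M) a = inclL0 A (H87.hleA q M) (inclL0 A (hleB q M) a) := by
  apply Subtype.ext
  rw [coe_inclL0, coe_inclL0, coe_inclL0]
  apply Subtype.ext
  rw [IntermediateField.coe_inclusion, IntermediateField.coe_inclusion,
    IntermediateField.coe_inclusion]

include hq in
theorem inclL0_mem_V2o (a : ↥(L0 A M)) (ha : a ∈ VE0 A M) :
    inclL0 A (hleB q M) a ∈ V2o A q M B k hB hq := by
  show ((inclL0 A (hleB q M) a : ↥(L0 A (M * q))) : FN (M * q))
    ∈ V2 A q M k B (hab_of_hB q M B k hB) hq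
  rw [coe_inclL0, inclusion_eq_alphaB]
  exact (alpha_mem_V2_iff A q M k B (hab_of_hB q M B k hB) hq (a : FN M)).2 ha

theorem inclL0_mem_V02o_iff (y : ↥(L0 A (M * q))) :
    inclL0 A (H87.hleA q M) y ∈ V02o A q M B k hB ↔ y ∈ V2o A q M B k hB hq := by
  show ((inclL0 A (H87.hleA q M) y : ↥(L0 A (M * q * q))) : FN (M * q * q))
    ∈ V02 A (M * q * q) q M B k (lvl q M) hB ↔ _
  rw [H87.coe_inclL0_alphaA, alpha_mem_V02_iff A q M B k hB hq]
  exact Iff.rfl

/-- The separating function `(j_q - j^q)⁻¹` of `L0 A (M q)`. -/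
def kFinv : ↥(L0 A (M * q)) :=
  ⟨(Fermat.Agent.BAD.H82.kronF q M)⁻¹, inv_mem (kronF_mem_L0 A q M)⟩

include hA in
theorem kFinv_mem_V2o : kFinv A q M ∈ V2o A q M B k hB hq := by
  show wL q M B k hB hq (Fermat.Agent.BAD.H82.kronF q M)⁻¹ ∈ V1 A q M
  rw [wL_kronF_inv q M B k hB hq]
  exact kronG_inv_mem A q M hq hA

include hB hq hA in
theorem inclL0_kFinv_not_mem_V20o : inclL0 A (H87.hleA q M) (kFinv A q M) ∉ V20o A q M := by
  intro h
  have h1 : ((inclL0 A (H87.hleA q M) (kFinv A q M) : ↥(L0 A (M * q * q))) : FN (M * q * q))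
      ∈ V20 A (M * q * q) := h
  rw [H87.coe_inclL0_alphaA] at h1
  exact kronF_inv_not_mem A q M B k hB hq hA ((alpha_mem_V20_iff A q M _).1 h1)

include hA in
theorem inclL0_kFinv_not_mem_V11o :
    inclL0 A (H87.hleA q M) (kFinv A q M) ∉ V11o A q M B k hB hq := by
  intro h
  have h1 : ((inclL0 A (H87.hleA q M) (kFinv A q M) : ↥(L0 A (M * q * q))) : FN (M * q * q))
      ∈ V11 A (M * q * q) q M B k (lvl q M) hB hq := h
  rw [H87.coe_inclL0_alphaA] at h1
  exact kronF_inv_not_mem A q M B k hB hq hA ((alpha_mem_V11_iff A q M B k hB hq _).1 h1)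

include hqM hA in
/-- **`V₀₂` is the only valuation ring above `V₂`** (along `α`). -/
theorem uniq_V02o (W' : ValuationSubring ↥(L0 A (M * q * q)))
    (hW' : ∀ a : ↥(L0 A (M * q)), a ∈ V2o A q M B k hB hq → inclL0 A (H87.hleA q M) a ∈ W')
    (htop : W' ≠ ⊤) : W' = V02o A q M B k hB := by
  letI := algL0 A (hleMN q M)
  letI := algM A q M hq hqM hA
  haveI : Module.Finite ↥(L0 A M) ↥(L0 A (M * q * q)) := finite_L0_NU A q M
  haveI : ∀ i, Module.Finite (FM A M) (kap3 (FM A M) (FM A M) i) :=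
    fun i => (nrM A q M B k hB hq hqM hA).finite_res i
  have hW : ∀ a : ↥(L0 A M), a ∈ (nrM A q M B k hB hq hqM hA).VE →
      algebraMap ↥(L0 A M) ↥(L0 A (M * q * q)) a ∈ W' := by
    intro a ha
    show inclL0 A (hleMN q M) a ∈ W'
    rw [inclL0_comp]
    exact hW' _ (inclL0_mem_V2o A q M B k hB hq a ha)
  have hk := hW' _ (kFinv_mem_V2o A q M B k hB hq hA)
  obtain ⟨i, hi⟩ := H42.NRData.eq_of_valuationSubring (nrM A q M B k hB hq hqM hA)
    (nrM_hdeg A q M B k hB hq hqM hA) W' hW htop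
  fin_cases i
  · exfalso
    have hi' : W' = V20o A q M := hi
    rw [hi'] at hk
    exact inclL0_kFinv_not_mem_V20o A q M B k hB hq hA hk
  · exfalso
    have hi' : W' = V11o A q M B k hB hq := hi
    rw [hi'] at hk
    exact inclL0_kFinv_not_mem_V11o A q M B k hB hq hA hk
  · exact hi

include hqM hA in
/-- **NORM-VAL along `α` above `V₂`**. -/
theorem normValA2 : NormValA2 A q M B k hB hq := by
  intro x hx k₃ h02
  letI := algL0 A (H87.hleA q M)
  haveI : Module.Finite ↥(L0 A (M * q)) ↥(L0 A (M * q * q)) := H87.finite_L0_A A q M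
  have hq0 : ((q : ℕ) : ↥(L0 A (M * q))) ≠ 0 := piE_ne_zero A q (M * q) hq
  have hmap : algebraMap ↥(L0 A (M * q)) ↥(L0 A (M * q * q)) ((q : ℕ) : ↥(L0 A (M * q)))
      = ((q : ℕ) : ↥(L0 A (M * q * q))) := map_natCast _ q
  have h := val_norm_of_unique (V2o A q M B k hB hq) (V02o A q M B k hB)
    (fun W' hW' htop => uniq_V02o A q M B k hB hq hqM hA W' hW' htop)
    ((q : ℕ) : ↥(L0 A (M * q))) hq0 x hx k₃ (by rw [hmap]; exact h02)
  rw [H87.finrank_L0_A A q M hq] at h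
  exact h

include hqM hA in
/-- **VALVEC-MOD**. -/
theorem stmt_ValVecMod : H10.Stmt_ValVecMod A q M B k hB hq :=
  stmt_ValVecMod_of_A2 A q M B k hB hq hqM hA (normValA2 A q M B k hB hq hqM hA)

end A2

end Fermat.Agent.S36.NU.H51

end
end
-- ==== END Fermat.Agent.S36.NU.H51_ValVecA2

-- ==== BEGIN Fermat.Agent.S36.NU.H65_Mid23
section

/-!
# S36 / NU-B, (M4) LOCEQ: the middle component at the ordinary points for `q = 2, 3` (helper65)

* `mid_q23` : `ChartL0.Mid` (helper99) for `q = 2` or `q = 3`, from `ord11_q23`;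
* `hord_q23` : the hypothesis `hord` of `pointData_of_dichotomy` for `q = 2, 3`.
-/

set_option autoImplicit false
set_option synthInstance.maxHeartbeats 400000
set_option maxHeartbeats 1000000
set_option linter.unusedSectionVars false
set_option linter.style.haveILetI false

noncomputable section

open ModularCurve AlgebraicCurve IntermediateField
open Fermat.Agent.S24 Fermat.Agent.BAD.H88 Fermat.Agent.BAD.H30 Fermat.Agent.BAD.H21
open Fermat.Agent.S28 Fermat.Agent.S28.H73 Fermat.Agent.RED.H73 Fermat.Agent.RED.H17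
open Fermat.Agent.S36.NU.H88 Fermat.Agent.S36.NU.H23
open Fermat.Agent.S36.NU.H41 Fermat.Agent.RED
open Fermat.Agent.S36.NU.H99

namespace Fermat.Agent.S36.NU.H65

open Fermat.Agent.S36.NU.H16 (Chart LocEq valq_of_crit)

section Mid23

variable {A : ValuationSubring Kbar}
variable {q M : ℕ} {B k : ℤ} {hB : B * M + k * q = 1} {hq : q.Prime} [NeZero M] [NeZero q]
  [NeZero (M * q)] [NeZero (M * q * q)]
variable {R k' : Type*} {κ : Fin 3 → Type*} [CommRing R] [Algebra R ↥(L0 A (M * q * q))]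
  [Field k'] [∀ i, Field (κ i)] [∀ i, Algebra k' (κ i)]
variable {C : Chart R ↥(L0 A (M * q * q)) k' (Fin 3) κ} {qR : R} {e : Fin 3 → ℕ}
  (S : ChartL0 A q M B k hB hq C qR e 0 1 2)

include hB hq in
/-- The middle component for `q = 2, 3`. -/
theorem mid_q23 (hA : (q : Kbar) ∈ A.nonunits) (h23 : q = 2 ∨ q = 3) : S.Mid :=
  fun 𝔪 _ hi hw => ord11_q23 S h23 hA 𝔪 hi hw

include hB hq in
/-- **The local equation data at the ordinary points, `q = 2, 3`** (hypothesis `hord` of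
`pointData_of_dichotomy`). -/
theorem hord_q23 (hA : (q : Kbar) ∈ A.nonunits) (h23 : q = 2 ∨ q = 3) :
    ∀ 𝔪 : Ideal C.B, 𝔪.IsMaximal → ∀ i, C.Icomp i ≤ 𝔪 → S.wit3 hA i ∉ 𝔪 →
      Nonempty (LocEq C qR 𝔪) ∧ ∀ i', C.Icomp i' ≤ 𝔪 → i' = i :=
  hord_mod S hA (mid_q23 S hA h23)

end Mid23

end Fermat.Agent.S36.NU.H65

end
end
-- ==== END Fermat.Agent.S36.NU.H65_Mid23

-- ==== BEGIN Fermat.Agent.S36.NU.H74_HssFinal
section

/-!
# S36 / NU-B, leaf HSS-ASM, final form (helper74)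

* `hss_five_unc` : the hypothesis `hss` of `H99.pointData_of_dichotomy` on helper88's `chart0`
  for `q ≥ 5`, `4 ∣ M`, **unconditional** (helper28's `hG_totM`, `hthree_totM`);
* `hss_D_of_chart0` : the adapter to a modular instance `D` of `NUData` (`hD : IsNuM D`):
  `D.T = totM`, `D.SS = ssM`, `D.i₂₀ = 0`;
* `hss_gen_D` : `hss` for `D`, generic in the coordinate `(f, u₀)`, from the pole data at the
  points of `ssM` (for `q = 2, 3`);
* `hss_five_D` : **`hss` for `D`, `q ≥ 5`**, in the shape of `H99.pointData_of_dichotomy` /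
  `H10.TopInputs.hpt0`.
-/

set_option autoImplicit false
set_option synthInstance.maxHeartbeats 400000
set_option maxHeartbeats 1000000
set_option linter.style.haveILetI false
set_option linter.unusedSectionVars false

noncomputable section

open ModularCurve AlgebraicCurve Polynomial

namespace Fermat.Agent.S36.NU.H74

open Fermat.Agent.S24 Fermat.Agent.BAD.H88 Fermat.Agent.BAD.H30 Fermat.Agent.BAD.H21
open Fermat.Agent.S28 Fermat.Agent.S28.H73 Fermat.Agent.RED.H73 Fermat.Agent.RED.H17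
open Fermat.Agent.S36.NU.H88 Fermat.Agent.S36.NU.H23 Fermat.Agent.S36.NU.H16
open Fermat.Agent.S36.NU.H41 Fermat.Agent.S36.NU.H65 Fermat.Agent.S36.NU.H73
open Fermat.Agent.S36.NU.H79 Fermat.Agent.BAD Fermat.Agent.RED

section Final

variable (A : ValuationSubring Kbar) (q M : ℕ) (B k : ℤ) (hB : B * M + k * q = 1) (hq : q.Prime)
  [NeZero M] [NeZero q] [NeZero (M * q)] [NeZero (M * q * q)] (hqM : ¬ q ∣ M)
  (hA : A.LiesOverPrime q) (ht : H91.TameAt M q)

attribute [local instance] algkM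

include hB in
/-- **HSS-ASM, `q ≥ 5`, unconditional**, on `chart0`. -/
theorem hss_five_unc (h5 : 5 ≤ q) (h4 : 4 ∣ M) :
    ∀ z ∈ ssM A q M, ∀ 𝔪 : Ideal (chart0 A q M B k hB hq hqM hA ht).B, 𝔪.IsMaximal →
      (∀ β : (chart0 A q M B k hB hq hqM hA ht).B,
        β ∈ 𝔪 ↔ VanAt ((totM A q M B k hB hq hqM hA ht).pt 0 z)
          ((chart0 A q M B k hB hq hqM hA ht).rdB 0 β)) →
      Nonempty (LocEq (chart0 A q M B k hB hq hqM hA ht) ((q : ℕ) : ↥(Rur A)) 𝔪) :=
  hss_five A q M B k hB hq hqM hA ht h5 h4 0 (H28.hG_totM A q M B k hB hq hqM hA ht)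
    (H28.hthree_totM A q M B k hB hq hqM hA ht)

include hB in
/-- **HSS-ASM at one point, generic in the coordinate, unconditional in `hG`, `hthree`**
(helper16's `hss_gen` with helper28's TI3-VAL). -/
theorem hss_gen_unc
    (f : FN M) (u₀ : LaurentSeries ℤ) (hf : (f : LaurentSeries Kbar) = H65.intSer Kbar u₀)
    (hθ : H65.ThetaNZ q (coeffMap (Int.castRingHom (kV A)) u₀))
    (huI : IsIntegral ↥(Algebra.adjoin ↥(Kur A) {j0 A (M * q * q)}) (uo A q M f u₀ hf))
    (hu2I : IsIntegral ↥(Algebra.adjoin ↥(Kur A) {j0 A (M * q * q)}) (u2o A q M f u₀ hf))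
    (z : Place (kV A) (FM A M)) (c : kV A) (u y₂ : FM A M)
    (hu : (u : LaurentSeries (kV A)) = coeffMap (Int.castRingHom (kV A)) u₀)
    (hy₂ : (y₂ : LaurentSeries (kV A))
      = - coeffMap (Int.castRingHom (kV A)) (H65.kdel q u₀) ^ q)
    (hord : z.ord (u - algebraMap (kV A) (FM A M) c) = 1) (hc : c ^ q ^ 2 = c)
    (hd : z.ord y₂ = -(q : ℤ))
    (𝔪 : Ideal (chart0 A q M B k hB hq hqM hA ht).B) (hmax : 𝔪.IsMaximal)
    (h𝔪 : ∀ β : (chart0 A q M B k hB hq hqM hA ht).B,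
      β ∈ 𝔪 ↔ VanAt ((totM A q M B k hB hq hqM hA ht).pt 0 z)
        ((chart0 A q M B k hB hq hqM hA ht).rdB 0 β)) :
    (∀ i, (chart0 A q M B k hB hq hqM hA ht).Icomp i ≤ 𝔪) ∧
      Nonempty (LocEq (chart0 A q M B k hB hq hqM hA ht) ((q : ℕ) : ↥(Rur A)) 𝔪) := by
  haveI : 𝔪.IsPrime := hmax.isPrime
  exact hss_gen A q M B k hB hq hqM hA ht 0 (H28.hG_totM A q M B k hB hq hqM hA ht)
    (H28.hthree_totM A q M B k hB hq hqM hA ht) f u₀ hf hθ huI hu2I z c u y₂ hu hy₂ hord hc hd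
    𝔪 h𝔪

/-- **The adapter** to a modular instance `D` of `NUData`. -/
theorem hss_D_of_chart0 (D : NUDataM A q M) (hD : IsNuM A q M B k hB hq hqM hA ht D)
    (h : ∀ z ∈ ssM A q M, ∀ 𝔪 : Ideal (chart0 A q M B k hB hq hqM hA ht).B, 𝔪.IsMaximal →
      (∀ β : (chart0 A q M B k hB hq hqM hA ht).B,
        β ∈ 𝔪 ↔ VanAt ((totM A q M B k hB hq hqM hA ht).pt 0 z)
          ((chart0 A q M B k hB hq hqM hA ht).rdB 0 β)) →
      Nonempty (LocEq (chart0 A q M B k hB hq hqM hA ht) ((q : ℕ) : ↥(Rur A)) 𝔪)) :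
    ∀ z ∈ D.SS, ∀ 𝔪 : Ideal (chart0 A q M B k hB hq hqM hA ht).B, 𝔪.IsMaximal →
      (∀ β : (chart0 A q M B k hB hq hqM hA ht).B,
        β ∈ 𝔪 ↔ VanAt (D.T.pt D.i₂₀ z) ((chart0 A q M B k hB hq hqM hA ht).rdB D.i₂₀ β)) →
      Nonempty (LocEq (chart0 A q M B k hB hq hqM hA ht) ((q : ℕ) : ↥(Rur A)) 𝔪) := by
  have key : ∀ (T : @TotN Kbar ↥(L0 A (M * q * q)) (FN (M * q * q)) (kV A) (Fin 3)
      (Place (kV A) (FM A M)) (kap3 (FM A M) (FM A M)) _ _ _ _ _ _ _ _ (algkM A M))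
      (i : Fin 3) (SS : Set (Place (kV A) (FM A M))),
      T = totM A q M B k hB hq hqM hA ht → i = 0 → SS = ssM A q M →
      ∀ z ∈ SS, ∀ 𝔪 : Ideal (chart0 A q M B k hB hq hqM hA ht).B, 𝔪.IsMaximal →
        (∀ β : (chart0 A q M B k hB hq hqM hA ht).B,
          β ∈ 𝔪 ↔ VanAt (T.pt i z) ((chart0 A q M B k hB hq hqM hA ht).rdB i β)) →
        Nonempty (LocEq (chart0 A q M B k hB hq hqM hA ht) ((q : ℕ) : ↥(Rur A)) 𝔪) := by
    rintro T i SS rfl rfl rfl
    exact h
  exact key D.T D.i₂₀ D.SS hD.hT hD.hi₂₀ hD.hSS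

include hB in
/-- **`hss` for a modular instance `D`, generic in the coordinate** (for `q = 2, 3`): from the
integrality of `u`, `u''` and COORD + POLE at the points of `ssM`. -/
theorem hss_gen_D (D : NUDataM A q M) (hD : IsNuM A q M B k hB hq hqM hA ht D)
    (f : FN M) (u₀ : LaurentSeries ℤ) (hf : (f : LaurentSeries Kbar) = H65.intSer Kbar u₀)
    (hθ : H65.ThetaNZ q (coeffMap (Int.castRingHom (kV A)) u₀))
    (huI : IsIntegral ↥(Algebra.adjoin ↥(Kur A) {j0 A (M * q * q)}) (uo A q M f u₀ hf))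
    (hu2I : IsIntegral ↥(Algebra.adjoin ↥(Kur A) {j0 A (M * q * q)}) (u2o A q M f u₀ hf))
    (hpole : ∀ z ∈ ssM A q M, ∃ (c : kV A) (u y₂ : FM A M),
      (u : LaurentSeries (kV A)) = coeffMap (Int.castRingHom (kV A)) u₀ ∧
      (y₂ : LaurentSeries (kV A)) = - coeffMap (Int.castRingHom (kV A)) (H65.kdel q u₀) ^ q ∧
      z.ord (u - algebraMap (kV A) (FM A M) c) = 1 ∧ c ^ q ^ 2 = c ∧ z.ord y₂ = -(q : ℤ)) :
    ∀ z ∈ D.SS, ∀ 𝔪 : Ideal (chart0 A q M B k hB hq hqM hA ht).B, 𝔪.IsMaximal →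
      (∀ β : (chart0 A q M B k hB hq hqM hA ht).B,
        β ∈ 𝔪 ↔ VanAt (D.T.pt D.i₂₀ z) ((chart0 A q M B k hB hq hqM hA ht).rdB D.i₂₀ β)) →
      Nonempty (LocEq (chart0 A q M B k hB hq hqM hA ht) ((q : ℕ) : ↥(Rur A)) 𝔪) := by
  refine hss_D_of_chart0 A q M B k hB hq hqM hA ht D hD ?_
  intro z hz 𝔪 hmax h𝔪
  obtain ⟨c, u, y₂, hu, hy₂, hord, hc, hd⟩ := hpole z hz
  exact (hss_gen_unc A q M B k hB hq hqM hA ht f u₀ hf hθ huI hu2I z c u y₂ hu hy₂ hord hc hd
    𝔪 hmax h𝔪).2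

include hB in
/-- **`hss` for a modular instance `D`, `q ≥ 5`, `4 ∣ M`**: the hypothesis `hss` of
`H99.pointData_of_dichotomy` for `C = chart0`. -/
theorem hss_five_D (h5 : 5 ≤ q) (h4 : 4 ∣ M) (D : NUDataM A q M)
    (hD : IsNuM A q M B k hB hq hqM hA ht D) :
    ∀ z ∈ D.SS, ∀ 𝔪 : Ideal (chart0 A q M B k hB hq hqM hA ht).B, 𝔪.IsMaximal →
      (∀ β : (chart0 A q M B k hB hq hqM hA ht).B,
        β ∈ 𝔪 ↔ VanAt (D.T.pt D.i₂₀ z) ((chart0 A q M B k hB hq hqM hA ht).rdB D.i₂₀ β)) →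
      Nonempty (LocEq (chart0 A q M B k hB hq hqM hA ht) ((q : ℕ) : ↥(Rur A)) 𝔪) :=
  hss_D_of_chart0 A q M B k hB hq hqM hA ht D hD
    (hss_five_unc A q M B k hB hq hqM hA ht h5 h4)

end Final

end Fermat.Agent.S36.NU.H74

end
end
-- ==== END Fermat.Agent.S36.NU.H74_HssFinal

-- ==== BEGIN Fermat.Agent.S36.NU.H79_NuMFib
section
attribute [local instance 10000] SubalgebraClass.toAlgebra
attribute [local instance 10000] HahnSeries.powerSeriesAlgebra

/-!
# S36 / NU-B, ND (helper79): `Stmt_NuM` from the fibre part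

`stmt_NuM_of_fib : NmFib → Stmt_NuM` : the three series forms are helper89's `serA2`, `serB1`,
`serB2` (from helper69's `nrA2`, `nrB1` and helper87's `nrB2`).

`nuMF`, `isNuM_nuMF` : the datum itself.
-/

set_option autoImplicit false
set_option synthInstance.maxHeartbeats 400000
set_option maxHeartbeats 1000000
set_option linter.style.haveILetI false
set_option linter.unusedSectionVars false

noncomputable section

open ModularCurve AlgebraicCurve
open Fermat.Agent.S24 Fermat.Agent.BAD.H88 Fermat.Agent.S28 Fermat.Agent.S28.H73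
open Fermat.Agent.RED.H73 Fermat.Agent.RED.H17 Fermat.Agent.S36.NU.H88
open Fermat.Agent.Lib.HeckeComm Fermat.Agent.S36.NU.H23 Fermat.Agent.S36.NU.H74
open Fermat.Agent.S36.NU.H89

namespace Fermat.Agent.S36.NU.H79

open Fermat.Agent.BAD Fermat.Agent.RED Fermat.Agent.BAD.H79

section NuMFib

variable (A : ValuationSubring Kbar) (q M : ℕ) (B k : ℤ) (hB : B * M + k * q = 1) (hq : q.Prime)
  [NeZero M] [NeZero q] [NeZero (M * q)] [NeZero (M * q * q)]
  (hqM : ¬ q ∣ M) (hA : A.LiesOverPrime q) (ht : H91.TameAt M q)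
  (hF : NmFib A q M B k hB hq hqM hA ht)

/-- **The modular `NUData`**, from the fibre part. -/
def nuMF : NUDataM A q M :=
  nuM A q M B k hB hq hqM hA ht (serA2 A q M B k hB hq hqM hA) (serB1 A q M hq hqM hA)
    (serB2 A q M B k hB hq hqM hA) hF

/-- `nuMF` is a modular instance of `NUData`. -/
theorem isNuM_nuMF : IsNuM A q M B k hB hq hqM hA ht (nuMF A q M B k hB hq hqM hA ht hF) :=
  isNuM_nuM A q M B k hB hq hqM hA ht _ _ _ hF

/-! ### The fields of `nuMF` -/

theorem nuMF_T : letI := algkM A M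
    (nuMF A q M B k hB hq hqM hA ht hF).T = totM A q M B k hB hq hqM hA ht := rfl

theorem nuMF_T' : letI := algkM A M
    (nuMF A q M B k hB hq hqM hA ht hF).T' = TlowM A q M B k hB hq hqM hA ht := rfl

theorem nuMF_SS : letI := algkM A M
    (nuMF A q M B k hB hq hqM hA ht hF).SS = ssM A q M := rfl

theorem nuMF_q : letI := algkM A M
    (nuMF A q M B k hB hq hqM hA ht hF).q = q := rfl

theorem nuMF_Nα : letI := algkM A M
    (nuMF A q M B k hB hq hqM hA ht hF).Nα = NalphaM A q M := rfl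

theorem nuMF_Nβ : letI := algkM A M
    (nuMF A q M B k hB hq hqM hA ht hF).Nβ = NbetaM A q M := rfl

theorem nuMF_zα : letI := algkM A M
    (nuMF A q M B k hB hq hqM hA ht hF).zα = zA A q M B k hB hq hA := rfl

theorem nuMF_zβ : letI := algkM A M
    (nuMF A q M B k hB hq hqM hA ht hF).zβ = zB A q M B k hB hq hqM hA := rfl

theorem nuMF_i₂₀ : letI := algkM A M
    (nuMF A q M B k hB hq hqM hA ht hF).i₂₀ = 0 := rfl

theorem nuMF_i₁₁ : letI := algkM A M
    (nuMF A q M B k hB hq hqM hA ht hF).i₁₁ = 1 := rfl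

theorem nuMF_i₀₂ : letI := algkM A M
    (nuMF A q M B k hB hq hqM hA ht hF).i₀₂ = 2 := rfl

theorem nuMF_A₂₀ : letI := algkM A M
    @Eq (ResNorm (kV A) (FM A M) (F1 A q M))
      (nuMF A q M B k hB hq hqM hA ht hF).A₂₀ (resId A q M B k hB hq hA) := rfl

theorem nuMF_A₁₁ : letI := algkM A M
    @Eq (ResNorm (kV A) (FM A M) (F1 A q M))
      (nuMF A q M B k hB hq hqM hA ht hF).A₁₁ (resId A q M B k hB hq hA) := rfl

theorem nuMF_A₀₂ : letI := algkM A M
    @Eq (ResNorm (kV A) (FM A M) (F1 A q M))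
      (nuMF A q M B k hB hq hqM hA ht hF).A₀₂ (resFr A q M B k hB hq hqM hA) := rfl

theorem nuMF_B₂₀ : letI := algkM A M
    @Eq (ResNorm (kV A) (FM A M) (F1 A q M))
      (nuMF A q M B k hB hq hqM hA ht hF).B₂₀ (resFr A q M B k hB hq hqM hA) := rfl

theorem nuMF_B₁₁ : letI := algkM A M
    @Eq (ResNorm (kV A) (FM A M) (F1 A q M))
      (nuMF A q M B k hB hq hqM hA ht hF).B₁₁ (resId A q M B k hB hq hA) := rfl

theorem nuMF_B₀₂ : letI := algkM A M
    @Eq (ResNorm (kV A) (FM A M) (F1 A q M))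
      (nuMF A q M B k hB hq hqM hA ht hF).B₀₂ (resId A q M B k hB hq hA) := rfl

include hF in
/-- **ND** from the fibre part. -/
theorem stmt_NuM_of_fib : Stmt_NuM A q M B k hB hq hqM hA ht :=
  ⟨nuMF A q M B k hB hq hqM hA ht hF, isNuM_nuMF A q M B k hB hq hqM hA ht hF⟩

end NuMFib

end Fermat.Agent.S36.NU.H79

end
end
-- ==== END Fermat.Agent.S36.NU.H79_NuMFib

-- ==== BEGIN Fermat.Agent.S36.NU.H91_HssD
section

/-!
# S36 / NU-B, HSS-ASM in the shape of `H99.pointData_of_dichotomy` (helper91)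

For a modular instance `D` of `NUData` (`hD : H79.IsNuM D`, i.e. `D.T = totM`, `D.SS = ssM`,
`D.i₂₀ = 0`):

* `vanAt_pt_congr` : transport of the condition `VanAt (T.pt i z) (C.rdB i β)`;
* `hss_D_of` : the adapter from the `totM`-form of `hss` (helper16 `hss_gen`, helper74 `hss_core`,
  `hss_small`) to the `D`-form (`∀ z ∈ D.SS, … VanAt (D.T.pt D.i₂₀ z) (C.rdB D.i₂₀ β) …`);
* `hss_small_D`, `hss_small_chart0_D` : **the hypothesis `hss` of `H99.pointData_of_dichotomy`**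
  for `q = 3` (`4 ∣ M`) and `q = 2` (`9 ∣ M`).
-/

set_option autoImplicit false
set_option linter.style.haveILetI false
set_option linter.unusedSectionVars false
set_option synthInstance.maxHeartbeats 400000
set_option maxHeartbeats 1000000

noncomputable section

open Polynomial AlgebraicCurve IntermediateField ModularCurve

namespace Fermat.Agent.S36.NU.H91

open Fermat.Agent.S24 Fermat.Agent.BAD.H88 Fermat.Agent.BAD.H30 Fermat.Agent.BAD.H21
open Fermat.Agent.S28 Fermat.Agent.S28.H73 Fermat.Agent.RED.H73 Fermat.Agent.RED.H17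
open Fermat.Agent.S36.NU.H88 Fermat.Agent.S36.NU.H23 Fermat.Agent.S36.NU.H16
open Fermat.Agent.S36.NU.H41 Fermat.Agent.S36.NU.H73 Fermat.Agent.S36.NU.H65
open Fermat.Agent.S36.NU.H5 Fermat.Agent.S36.NU.H74 Fermat.Agent.S36.NU.H24
open Fermat.Agent.S36.NU.H79
open Fermat.Agent.RED Fermat.Agent.BAD

section Abs

variable {R K F L k ι Z : Type*} {κ : ι → Type*} [CommRing R] [Field K] [Field F] [Field L]
  [Algebra K L] [Algebra F L] [Algebra R F] [Field k] [Fintype ι] [∀ i, Field (κ i)]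
  [∀ i, Algebra k (κ i)]

/-- Transport of the vanishing condition along `T = T'`, `i = i'`. -/
theorem vanAt_pt_congr {T T' : TotN K F L k ι Z κ} {i i' : ι} (hT : T = T') (hi : i = i')
    (C : Chart R F k ι κ) (z : Z) (β : C.B) :
    VanAt (T.pt i z) (C.rdB i β) ↔ VanAt (T'.pt i' z) (C.rdB i' β) := by
  subst hT
  subst hi
  rfl

end Abs

section Mod

variable (A : ValuationSubring Kbar) (q M : ℕ) (B k : ℤ) (hB : B * M + k * q = 1)
  (hq : q.Prime) [NeZero M] [NeZero q] [NeZero (M * q)] [NeZero (M * q * q)] (hqM : ¬ q ∣ M)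
  (hA : A.LiesOverPrime q) (ht : H91.TameAt M q)

attribute [local instance] algkM

/-- **The adapter**: `hss` for a modular instance `D` from `hss` for `totM`, `ssM`. -/
theorem hss_D_of (D : NUDataM A q M) (hD : IsNuM A q M B k hB hq hqM hA ht D)
    (C : Chart ↥(Rur A) ↥(L0 A (M * q * q)) (kV A) (Fin 3) (kap3 (FM A M) (FM A M)))
    (qR : ↥(Rur A))
    (h : ∀ z ∈ ssM A q M, ∀ 𝔪 : Ideal C.B, 𝔪.IsMaximal →
      (∀ β : C.B, β ∈ 𝔪 ↔
        VanAt ((totM A q M B k hB hq hqM hA ht).pt 0 z) (C.rdB 0 β)) →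
      Nonempty (LocEq C qR 𝔪)) :
    ∀ z ∈ D.SS, ∀ 𝔪 : Ideal C.B, 𝔪.IsMaximal →
      (∀ β : C.B, β ∈ 𝔪 ↔ VanAt (D.T.pt D.i₂₀ z) (C.rdB D.i₂₀ β)) →
      Nonempty (LocEq C qR 𝔪) := by
  intro z hz 𝔪 hmax hv
  have hz' : z ∈ ssM A q M := by
    rw [← hD.hSS]
    exact hz
  refine h z hz' 𝔪 hmax fun β => ?_
  rw [hv β]
  exact vanAt_pt_congr hD.hT hD.hi₂₀ C z β

/-- **`hss` of `H99.pointData_of_dichotomy` for `q = 3` (`4 ∣ M`), `q = 2` (`9 ∣ M`)**, for a
chart compatible with `totM` satisfying `H99.ChartL0`. -/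
theorem hss_small_D (h23 : (q = 3 ∧ 4 ∣ M) ∨ (q = 2 ∧ 9 ∣ M))
    (D : NUDataM A q M) (hD : IsNuM A q M B k hB hq hqM hA ht D)
    (C : Chart ↥(Rur A) ↥(L0 A (M * q * q)) (kV A) (Fin 3) (kap3 (FM A M) (FM A M)))
    (hc : Compat C (totM A q M B k hB hq hqM hA ht)) (e : Fin 3 → ℕ)
    (S : H99.ChartL0 A q M B k hB hq C ((q : ℕ) : ↥(Rur A)) e 0 1 2) :
    ∀ z ∈ D.SS, ∀ 𝔪 : Ideal C.B, 𝔪.IsMaximal →
      (∀ β : C.B, β ∈ 𝔪 ↔ VanAt (D.T.pt D.i₂₀ z) (C.rdB D.i₂₀ β)) →
      Nonempty (LocEq C ((q : ℕ) : ↥(Rur A)) 𝔪) :=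
  hss_D_of A q M B k hB hq hqM hA ht D hD C _
    (hss_small A q M B k hB hq hqM hA ht h23 C hc e S)

/-- **`hss` of `H99.pointData_of_dichotomy` for `q = 3` (`4 ∣ M`), `q = 2` (`9 ∣ M`)** on
helper88's `chart0` (hypotheses `hG`, `hthree` of TI3-VAL as in helper16's `hss_gen`). -/
theorem hss_small_chart0_D (h23 : (q = 3 ∧ 4 ∣ M) ∨ (q = 2 ∧ 9 ∣ M))
    (D : NUDataM A q M) (hD : IsNuM A q M B k hB hq hqM hA ht D) (i₀ : Fin 3)
    (hG : ∀ p : (↥(Kur A))[X],
      aeval (j0 A (M * q * q)) p ∈ (totM A q M B k hB hq hqM hA ht).V i₀ →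
        ∀ i, p.coeff i ∈ (algebraMap ↥(Rur A) ↥(Kur A)).range)
    (hthree : ∀ f : ↥(L0 A (M * q * q)),
      (∀ i, f ∈ (totM A q M B k hB hq hqM hA ht).V i) →
      ∃ P : (↥(L0 A (M * q * q)))[X], P.Monic ∧
        (∀ m, P.coeff m ∈ (totM A q M B k hB hq hqM hA ht).V i₀ ∧
          P.coeff m ∈ IntermediateField.adjoin ↥(Kur A) {j0 A (M * q * q)}) ∧
        P.eval f = 0) :
    ∀ z ∈ D.SS, ∀ 𝔪 : Ideal (chart0 A q M B k hB hq hqM hA ht).B, 𝔪.IsMaximal →
      (∀ β : (chart0 A q M B k hB hq hqM hA ht).B, β ∈ 𝔪 ↔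
        VanAt (D.T.pt D.i₂₀ z) ((chart0 A q M B k hB hq hqM hA ht).rdB D.i₂₀ β)) →
      Nonempty (LocEq (chart0 A q M B k hB hq hqM hA ht) ((q : ℕ) : ↥(Rur A)) 𝔪) :=
  hss_D_of A q M B k hB hq hqM hA ht D hD _ _
    (hss_small_chart0 A q M B k hB hq hqM hA ht h23 i₀ hG hthree)

end Mod

end Fermat.Agent.S36.NU.H91

end
end
-- ==== END Fermat.Agent.S36.NU.H91_HssD

-- ==== BEGIN Fermat.Agent.S36.NU.H99_Pt0
section
attribute [local instance 10000] HahnSeries.powerSeriesAlgebra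

/-!
# S36 / NU-B, (M4) the local data of the chart of `j` (helper99): assembly

* `chartL0_mod` : the hypotheses `ChartL0` for helper88's chart `chart0` of `j` (unconditional:
  helper22's `chartL0_chart0` with helper88's `hG_chart0`, `hthree_totM`);
* `wit0` : the ordinary witnesses `(E20, eps1, E02)` in the coordinate ring of `chart0`;
* `pointData_chart0_of` : **`PointData chart0 D q`** for a modular datum `D`, from the middle
  ordinary points, the three point hypotheses, the supersingular local equations and the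
  branches.
-/

set_option autoImplicit false
set_option synthInstance.maxHeartbeats 400000
set_option maxHeartbeats 1000000
set_option linter.unusedSectionVars false
set_option linter.style.haveILetI false

noncomputable section

open ModularCurve AlgebraicCurve IntermediateField
open Fermat.Agent.S24 Fermat.Agent.BAD Fermat.Agent.BAD.H88 Fermat.Agent.S28
open Fermat.Agent.S28.H73 Fermat.Agent.RED.H73 Fermat.Agent.RED.H17
open Fermat.Agent.S36.NU.H88 Fermat.Agent.S36.NU.H23 Fermat.Agent.S36.NU.H41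
open Fermat.Agent.S36.NU.H24 Fermat.Agent.S36.NU.H79 Fermat.Agent.S36.NU.H74
open Fermat.Agent.S36.NU.H65

namespace Fermat.Agent.S36.NU.H99

open Fermat.Agent.S36.NU.H16 (Chart LocEq Branch)

section Pt0

variable (A : ValuationSubring Kbar) (q M : ℕ) (B k : ℤ) (hB : B * M + k * q = 1) (hq : q.Prime)
  [NeZero M] [NeZero q] [NeZero (M * q)] [NeZero (M * q * q)]
  (hqM : ¬ q ∣ M) (hA : A.LiesOverPrime q) (ht : H91.TameAt M q)

attribute [local instance] algkM

/-- **`ChartL0` for the chart of `j`.** -/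
theorem chartL0_mod :
    ChartL0 A q M B k hB hq (chart0 A q M B k hB hq hqM hA ht) ((q : ℕ) : ↥(Rur A))
      ![1, q - 1, 1] 0 1 2 :=
  Fermat.Agent.S36.NU.H22.chartL0_chart0 A q M B k hB hq hqM hA ht 0
    (hG_chart0 A q M B k hB hq hqM hA ht) (hthree_totM A q M B k hB hq hqM hA ht)

/-- **The ordinary witnesses** `(E20, eps1, E02)` in the coordinate ring of the chart of `j`. -/
def wit0 : Fin 3 → (chart0 A q M B k hB hq hqM hA ht).B :=
  (chartL0_mod A q M B k hB hq hqM hA ht).wit3 hA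

theorem coe_wit0_zero :
    ((wit0 A q M B k hB hq hqM hA ht 0 : (chart0 A q M B k hB hq hqM hA ht).B) :
      ↥(L0 A (M * q * q))) = E20o A q M := rfl

theorem coe_wit0_one :
    ((wit0 A q M B k hB hq hqM hA ht 1 : (chart0 A q M B k hB hq hqM hA ht).B) :
      ↥(L0 A (M * q * q))) = eps1o A q M := rfl

theorem coe_wit0_two :
    ((wit0 A q M B k hB hq hqM hA ht 2 : (chart0 A q M B k hB hq hqM hA ht).B) :
      ↥(L0 A (M * q * q))) = E02o A q M := rfl

/-- **The local data of the chart of `j`**, from the middle ordinary points (`hmid`), the three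
point hypotheses (`hnc`, `hsurj`, `hSSchar`), the local equations at the supersingular points
(`hss`) and the branches (`hbr`). -/
theorem pointData_chart0_of (D : NUDataM A q M) (hD : IsNuM A q M B k hB hq hqM hA ht D)
    (hmid : (chartL0_mod A q M B k hB hq hqM hA ht).Mid)
    (hnc : ∀ i : Fin 3, ∃ β : (chart0 A q M B k hB hq hqM hA ht).B,
      ∀ c : kV A, (chart0 A q M B k hB hq hqM hA ht).rdB i β
        ≠ algebraMap (kV A) (kap3 (FM A M) (FM A M) i) c)
    (hsurj : ∀ (i : Fin 3) (v : Place (kV A) (kap3 (FM A M) (FM A M) i)),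
      (∀ β : (chart0 A q M B k hB hq hqM hA ht).B,
        RegAt v ((chart0 A q M B k hB hq hqM hA ht).rdB i β)) →
      ∃ z, (totM A q M B k hB hq hqM hA ht).pt i z = v)
    (hSSchar : ∀ (i : Fin 3) (z : Place (kV A) (FM A M)),
      (∀ β : (chart0 A q M B k hB hq hqM hA ht).B,
        RegAt ((totM A q M B k hB hq hqM hA ht).pt i z)
          ((chart0 A q M B k hB hq hqM hA ht).rdB i β)) →
      VanAt ((totM A q M B k hB hq hqM hA ht).pt i z)
        ((chart0 A q M B k hB hq hqM hA ht).rdB i (wit0 A q M B k hB hq hqM hA ht i)) →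
      z ∈ ssM A q M)
    (hss : ∀ z ∈ ssM A q M, ∀ 𝔪 : Ideal (chart0 A q M B k hB hq hqM hA ht).B, 𝔪.IsMaximal →
      (∀ β : (chart0 A q M B k hB hq hqM hA ht).B,
        β ∈ 𝔪 ↔ VanAt ((totM A q M B k hB hq hqM hA ht).pt 0 z)
          ((chart0 A q M B k hB hq hqM hA ht).rdB 0 β)) →
      Nonempty (LocEq (chart0 A q M B k hB hq hqM hA ht) ((q : ℕ) : ↥(Rur A)) 𝔪))
    (hbr : ∀ 𝔪 : Ideal (chart0 A q M B k hB hq hqM hA ht).B, 𝔪.IsMaximal → ∀ i,
      (chart0 A q M B k hB hq hqM hA ht).Icomp i ≤ 𝔪 →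
      Nonempty (Branch (chart0 A q M B k hB hq hqM hA ht) 𝔪 i)) :
    PointData (chart0 A q M B k hB hq hqM hA ht) D ((q : ℕ) : ↥(Rur A)) := by
  haveI : IsAlgClosed (kV A) := Fermat.Agent.RED.H73.isAlgClosed_kV A
  haveI : IsNoetherianRing ↥(chart0 A q M B k hB hq hqM hA ht).B :=
    isNoetherianRing_chart0 A q M hq hA
  have hT := hD.hT
  have hSSeq := hD.hSS
  have h20 := hD.hi₂₀
  refine pointData_of_dichotomy (chart0 A q M B k hB hq hqM hA ht) D ((q : ℕ) : ↥(Rur A))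
    (by rw [hT]; exact compat_chart0 A q M B k hB hq hqM hA ht)
    (Fermat.Agent.S36.NU.H74.hasPrincipalDivisors_FN (M * q * q))
    (by
      rw [hT, hSSeq]
      exact inChart_ssM A q M B k hB hq hqM hA ht _ rfl)
    (wit0 A q M B k hB hq hqM hA ht) hnc
    (by rw [hT]; exact hsurj)
    (by rw [hT, hSSeq]; exact hSSchar)
    (by rw [hT, hSSeq, h20]; exact hss)
    hbr
    (hord_mod (chartL0_mod A q M B k hB hq hqM hA ht) hA hmid)

end Pt0

end Fermat.Agent.S36.NU.H99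

end
end
-- ==== END Fermat.Agent.S36.NU.H99_Pt0
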