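-- GENERATED (merged mirror, NOTES/tools/trim/merge3_helper67.py): 7 modules of the originals, bodies verbatim.
import Fermat.Agent.Zm.S36_L17_000
import Fermat.Agent.Zm.S36_L05_001
import Fermat.Agent.Zm.S36_L15_000
import Fermat.Agent.Zm.S35_L13_002
import Fermat.Agent.Zm.S36_L16_000
import Fermat.Agent.Zm.S36_L15_001
import Fermat.Agent.Zm.S36_L16_001
import Fermat.Agent.Zm.S36_L13_000
import Fermat.Agent.Zm.S36_L14_000

-- ==== BEGIN Fermat.Agent.S36.NU.H22_Hnc
section

/-!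
# S36, NU-B, (M4) PT-HYPS, part `hnc` (helper22)

`hnc_chart0` : on every component `i` of the chart of `j` the reduction of `j` is not constant
(it is `j̄`, `j̄`, `j̄ ^ q²`, and `j̄` is transcendental over `k`): the hypothesis `hnc` of
`H99.pointData_chart0_of`.
-/

set_option autoImplicit false
set_option synthInstance.maxHeartbeats 400000
set_option maxHeartbeats 1000000
set_option linter.style.haveILetI false
set_option linter.unusedSectionVars false

noncomputable section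

open ModularCurve AlgebraicCurve Polynomial IntermediateField
open Fermat.Agent.S24 Fermat.Agent.BAD.H88 Fermat.Agent.S28 Fermat.Agent.S28.H73
open Fermat.Agent.RED.H73 Fermat.Agent.RED.H17 Fermat.Agent.S36.NU.H88
open Fermat.Agent.S36.NU.H23 Fermat.Agent.S36.NU.H41 Fermat.Agent.S36.NU.H17
open Fermat.Agent.S36.NU.H16 Fermat.Agent.S36.NU.H65 Fermat.Agent.BAD

namespace Fermat.Agent.S36.NU.H22

section Jbar

variable (A : ValuationSubring Kbar) (M : ℕ) [NeZero M]
  {q : ℕ} (hq : q.Prime) (hqM : ¬ q ∣ M) (hA : A.LiesOverPrime q)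

include hq hqM hA in
/-- The reduction of `j` at the good level is transcendental over `k`. -/
theorem transcendental_jbar : Transcendental (kV A) (jbar A M) :=
  (goodChart_pre M q hq hqM A hA).1

include hq hqM hA in
/-- The reduction of `j` at the good level is not a constant. -/
theorem jbar_ne_const (c : kV A) : jbar A M ≠ algebraMap (kV A) (FM A M) c := by
  intro h
  apply transcendental_jbar A M hq hqM hA
  rw [h]
  exact isAlgebraic_algebraMap c

include hq hqM hA in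
/-- No positive power of the reduction of `j` is a constant. -/
theorem jbar_pow_ne_const (n : ℕ) (hn : 0 < n) (c : kV A) :
    jbar A M ^ n ≠ algebraMap (kV A) (FM A M) c := by
  intro h
  have h1 : Transcendental (kV A) (jbar A M ^ n) :=
    (transcendental_jbar A M hq hqM hA).pow hn
  apply h1
  rw [h]
  exact isAlgebraic_algebraMap c

end Jbar

section Hnc

variable (A : ValuationSubring Kbar) (q M : ℕ) (B k : ℤ) (hB : B * M + k * q = 1) (hq : q.Prime)
  [NeZero M] [NeZero q] [NeZero (M * q * q)] (hqM : ¬ q ∣ M) (hA : A.LiesOverPrime q)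
  (ht : H91.TameAt M q)

attribute [local instance] algkM

/-- **`hnc` for the chart of `j`**: the reduction of `j` is not constant on any component. -/
theorem hnc_chart0 :
    ∀ i : Fin 3, ∃ β : (chart0 A q M B k hB hq hqM hA ht).B,
      ∀ c : kV A, (chart0 A q M B k hB hq hqM hA ht).rdB i β
        ≠ algebraMap (kV A) (kap3 (FM A M) (FM A M) i) c := by
  intro i
  refine ⟨⟨j0 A (M * q * q), j0_mem_chart0 A q M B k hB hq hqM hA ht⟩, ?_⟩
  fin_cases i
  · intro c
    have e : (chart0 A q M B k hB hq hqM hA ht).rdB 0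
        ⟨j0 A (M * q * q), j0_mem_chart0 A q M B k hB hq hqM hA ht⟩ = jbar A M :=
      r20_j0_eq A q M hq hqM hA _
    intro h
    exact jbar_ne_const A M hq hqM hA c (e.symm.trans h)
  · intro c
    have e : (chart0 A q M B k hB hq hqM hA ht).rdB 1
        ⟨j0 A (M * q * q), j0_mem_chart0 A q M B k hB hq hqM hA ht⟩ = jbar A M :=
      r11_j0_eq A q M B k hB hq hqM hA _
    intro h
    exact jbar_ne_const A M hq hqM hA c (e.symm.trans h)
  · intro c
    have e : (chart0 A q M B k hB hq hqM hA ht).rdB 2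
        ⟨j0 A (M * q * q), j0_mem_chart0 A q M B k hB hq hqM hA ht⟩ = jbar A M ^ q ^ 2 :=
      r02_j0_eq A q M B k hB hq hqM hA _
    intro h
    exact jbar_pow_ne_const A M hq hqM hA (q ^ 2) (pow_pos hq.pos 2) c (e.symm.trans h)

end Hnc

end Fermat.Agent.S36.NU.H22

end
end
-- ==== END Fermat.Agent.S36.NU.H22_Hnc

-- ==== BEGIN Fermat.Agent.S36.NU.H42_BranchOo02
section

/-!
# S36 / NU-B, (L2-iv) at the cusps of the chart of `1 / j`, component `02` (helper42)

Level `N = M q²`, `q ∤ M` tame; `chartInf` = the chart of `u = 1 / j` (helper88),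
`B∞ = ` the integral closure of `R^ur[u]` in the inertia-fixed functions of level `N`.

On the component `02` the reduction of `u` is `ū ^ q²` (`ū = 1 / j̄`) and the lift of a function
`f` of the good level is `f'' = f(q²τ)`, which is integral over `K^ur[1 / j'']` only; but `j` is
integral over `R^ur[j'']` (hypothesis `hj0`), so that `G(u)^m f'' ∈ B∞` for a polynomial `G` with
`G(0) = 1` (helper17 `exists_unit_pow_mul_isIntegral`), and `G(u)` is a unit at the cusps.

* `red_jF_inv` : the reduction of `1 / j` at the good level is `1 / j̄`;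
* `isIntegral_incBB_jdd_inv` : `f''` is integral over `K^ur[1 / j'']`;
* `branch_chartInf_two_of` : **the branch of the component `02` through a cusp** of `chartInf`
  (`H17.branch_of_normal_local`), from `hj0`.

This file has no open goals.
-/

set_option autoImplicit false
set_option synthInstance.maxHeartbeats 400000
set_option maxHeartbeats 1000000
set_option linter.style.haveILetI false
set_option linter.unusedSectionVars false

noncomputable section

open ModularCurve AlgebraicCurve Polynomial IntermediateField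
open Fermat.Agent.S24 Fermat.Agent.BAD.H88 Fermat.Agent.S28 Fermat.Agent.S28.H73
open Fermat.Agent.RED.H73 Fermat.Agent.RED.H17 Fermat.Agent.S36.NU.H88
open Fermat.Agent.S36.NU.H23 Fermat.Agent.S36.NU.H41 Fermat.Agent.S36.NU.H17
open Fermat.Agent.S36.NU.H16 Fermat.Agent.S36.NU.H65 Fermat.Agent.BAD

namespace Fermat.Agent.S36.NU.H42B

section Ubar

variable (A : ValuationSubring Kbar) (M : ℕ) [NeZero M]

theorem jbar_ne_zero {q : ℕ} [NeZero q] (hq : q.Prime) : jbar A M ≠ 0 := by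
  intro h
  have h1 : ((jbar A M : FM A M) : LaurentSeries (kV A)) = 0 := by rw [h]; rfl
  rw [coe_jbar, ← Jred_eq_jqModC'] at h1
  exact Jred_ne_zero A q hq h1

/-- The reduction of `1 / j` at the good level is `1 / j̄`. -/
theorem red_jF_inv {q : ℕ} [NeZero q] (hq : q.Prime) :
    redM A M ⟨(Fermat.Agent.RED.H73.jF (L := Kbar) M)⁻¹, jF_inv_mem A M⟩ = (jbar A M)⁻¹ := by
  apply eq_inv_of_mul_eq_one_left
  have hj0 : Fermat.Agent.RED.H73.jF (L := Kbar) M ≠ 0 := by
    intro h0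
    apply jbar_ne_zero A M hq
    unfold jbar
    have : (⟨Fermat.Agent.RED.H73.jF (L := Kbar) M, jF_mem A M⟩ : ↥(VM A M)) = 0 :=
      Subtype.ext h0
    rw [this, map_zero]
  unfold jbar
  rw [← map_mul]
  have e : (⟨(Fermat.Agent.RED.H73.jF (L := Kbar) M)⁻¹, jF_inv_mem A M⟩ : ↥(VM A M))
      * ⟨Fermat.Agent.RED.H73.jF (L := Kbar) M, jF_mem A M⟩ = 1 :=
    Subtype.ext (inv_mul_cancel₀ hj0)
  rw [e, map_one]

end Ubar

section Lift

variable (A : ValuationSubring Kbar) (q M : ℕ) [NeZero M] [NeZero q] [NeZero (M * q * q)]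

/-- `f'' = f(t^{q²})` is integral over `K^ur[1 / j'']` inside `L₀(M q²)`, for `f` integral over
`K^ur[1 / j]`. -/
theorem isIntegral_incBB_jdd_inv (f : FN M) (hf : f ∈ L0 A M)
    (hint : ((aeval (Fermat.Agent.RED.H73.jF (L := Kbar) M)⁻¹ :
        Kbar[X] →ₐ[Kbar] FN M).toRingHom.comp (mapRingHom (iotaUr A))).IsIntegralElem f) :
    IsIntegral ↥(Algebra.adjoin ↥(Kur A) {(jdd A q M)⁻¹})
      (⟨incBB q M f, incBB_mem_L0 A q M f hf⟩ : ↥(L0 A (M * q * q))) := by
  refine isIntegral_adjoin_of_isIntegralElem A (M * q * q) (jdd A q M)⁻¹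
    ⟨incBB q M f, incBB_mem_L0 A q M f hf⟩ ?_
  have h := Fermat.Agent.S36.NU.H22.isIntegralElem_map_algHom A M (incBB q M) _ f hint
  haveI : NeZero (q * q) := ⟨mul_ne_zero (NeZero.ne q) (NeZero.ne q)⟩
  have hj : incBB q M (Fermat.Agent.RED.H73.jF (L := Kbar) M)
      = ((jdd A q M : ↥(L0 A (M * q * q))) : FN (M * q * q)) := by
    rw [← Fermat.Agent.RED.H76.jF_eq, ← jdF_one_eq_jF M, incBB_jdF_one q M (sq_dvd_lvl q M),
      coe_jdd]
  have hj' : incBB q M (Fermat.Agent.RED.H73.jF (L := Kbar) M)⁻¹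
      = (((jdd A q M)⁻¹ : ↥(L0 A (M * q * q))) : FN (M * q * q)) := by
    rw [map_inv₀, hj]
    rfl
  rw [hj'] at h
  exact h

end Lift

section BranchInf

variable (A : ValuationSubring Kbar) (q M : ℕ) (B k : ℤ) (hB : B * M + k * q = 1) (hq : q.Prime)
  [NeZero M] [NeZero q] [NeZero (M * q * q)] (hqM : ¬ q ∣ M) (hA : A.LiesOverPrime q)
  (ht : H91.TameAt M q)

attribute [local instance] algkM

theorem j0_inv_mem_chartInf :
    (j0 A (M * q * q))⁻¹ ∈ (chartInf A q M B k hB hq hqM hA ht).B :=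
  self_mem_intSub _ _

theorem j0_ne_zero' : j0 A (M * q * q) ≠ 0 := by
  intro h0
  have h := transcendental_j0 A (M * q * q)
  rw [h0] at h
  exact h isAlgebraic_zero

include hq in
theorem jdd_ne_zero' : jdd A q M ≠ 0 := by
  intro h0
  have h := s20_jdd A q M (jdd_mem20 A q M)
  have e : (⟨jdd A q M, jdd_mem20 A q M⟩ : ↥(V20o A q M)) = 0 := Subtype.ext h0
  rw [e, map_zero] at h
  exact Jred2_ne_zero A q hq h.symm

/-- The reduction of `1 / j` on the component `02` is `(1 / j̄) ^ q²`. -/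
theorem rdB_two_j0_inv :
    (chartInf A q M B k hB hq hqM hA ht).rdB 2
      ⟨(j0 A (M * q * q))⁻¹, j0_inv_mem_chartInf A q M B k hB hq hqM hA ht⟩
      = ((jbar A M)⁻¹) ^ q ^ 2 := by
  have h1 : (chartInf A q M B k hB hq hqM hA ht).rd 2 (j0 A (M * q * q))
      = jbar A M ^ q ^ 2 := by
    unfold chartInf
    rw [chartOf_rd, rdN_totM_two A q M B k hB hq hqM hA ht _ (_root_.Fermat.Agent.S36.NU.H88.j0_mem02 A q M B k hB hq)]
    exact r02_j0_eq A q M B k hB hq hqM hA _
  have h2 : (chartInf A q M B k hB hq hqM hA ht).rd 2 (j0 A (M * q * q)) ≠ 0 := by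
    rw [h1]
    exact pow_ne_zero _ (jbar_ne_zero A M hq)
  rw [← (chartInf A q M B k hB hq hqM hA ht).rd_coe 2]
  show (chartInf A q M B k hB hq hqM hA ht).rd 2 (j0 A (M * q * q))⁻¹ = _
  rw [(chartInf A q M B k hB hq hqM hA ht).rd_inv 2 h2, h1]
  exact (inv_pow _ _).symm

/-- The residue of the lift `f''` on the component `02`. -/
theorem rd_two_incBB (f : FN M) (hf : f ∈ L0 A M) (hV : f ∈ VM A M) :
    (chartInf A q M B k hB hq hqM hA ht).rd 2
      (⟨incBB q M f, incBB_mem_L0 A q M f hf⟩ : ↥(L0 A (M * q * q))) = redM A M ⟨f, hV⟩ := by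
  unfold chartInf
  rw [chartOf_rd, rdN_totM_two A q M B k hB hq hqM hA ht _
    (incBB_mem_V02o A q M B k hB hq ⟨⟨f, hf⟩, hV⟩)]
  exact r02_incBB A q M B k hB hq hqM hA ⟨⟨f, hf⟩, hV⟩

/-- The lift `f''` lies in the three valuation rings. -/
theorem incBB_mem_totM (f : FN M) (hf : f ∈ L0 A M) (hV : f ∈ VM A M) (i : Fin 3) :
    (⟨incBB q M f, incBB_mem_L0 A q M f hf⟩ : ↥(L0 A (M * q * q)))
      ∈ (totM A q M B k hB hq hqM hA ht).V i := by
  fin_cases i
  · exact (incBB_mem_V20_iff A q M f).mpr hV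
  · exact (incBB_mem_V11_iff A q M B k hB hq f).mpr hV
  · exact (incBB_mem_V02_iff A q M B k hB hq f).mpr hV

/-- **The local lift**: a function `F'` in the three valuation rings which becomes integral over
`K^ur[u]` after multiplication by a power of `G(u)`, `G(0) = 1`, has the residue of an element of
`B∞` up to a unit at the cusp. -/
theorem exists_local_lift (G : (↥(Rur A))[X]) (hG0 : G.coeff 0 = 1)
    (F' : ↥(L0 A (M * q * q))) (hF'V : ∀ i, F' ∈ (totM A q M B k hB hq hqM hA ht).V i)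
    (m : ℕ) (hm : IsIntegral ↥(Algebra.adjoin ↥(Kur A) {(j0 A (M * q * q))⁻¹})
      (aeval (j0 A (M * q * q))⁻¹ G ^ m * F'))
    (𝔪 : Ideal (chartInf A q M B k hB hq hqM hA ht).B) (hmax : 𝔪.IsMaximal)
    (hu : ∀ β : (chartInf A q M B k hB hq hqM hA ht).B,
      (β : ↥(L0 A (M * q * q))) = (j0 A (M * q * q))⁻¹ → β ∈ 𝔪) :
    ∃ g b : (chartInf A q M B k hB hq hqM hA ht).B, g ∉ 𝔪 ∧
      (chartInf A q M B k hB hq hqM hA ht).rd 2 (b : ↥(L0 A (M * q * q)))
        = (chartInf A q M B k hB hq hqM hA ht).rd 2 (g : ↥(L0 A (M * q * q)))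
          * (chartInf A q M B k hB hq hqM hA ht).rd 2 F' := by
  haveI : 𝔪.IsPrime := hmax.isPrime
  have huB𝔪 : (⟨(j0 A (M * q * q))⁻¹, j0_inv_mem_chartInf A q M B k hB hq hqM hA ht⟩ :
      (chartInf A q M B k hB hq hqM hA ht).B) ∈ 𝔪 := hu _ rfl
  have hγ𝔪 := aeval_not_mem_of_coeff_zero 𝔪 hmax.ne_top huB𝔪 G hG0
  have hγcoe := aeval_subalgebra_coe G (chartInf A q M B k hB hq hqM hA ht).B
    ⟨(j0 A (M * q * q))⁻¹, j0_inv_mem_chartInf A q M B k hB hq hqM hA ht⟩
  have hγm : aeval (j0 A (M * q * q))⁻¹ G ^ m ∈ (chartInf A q M B k hB hq hqM hA ht).B := by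
    refine pow_mem ?_ m
    rw [← hγcoe]
    exact SetLike.coe_mem _
  have hγV : ∀ i, aeval (j0 A (M * q * q))⁻¹ G ^ m ∈ (totM A q M B k hB hq hqM hA ht).V i :=
    fun i => (chartInf A q M B k hB hq hqM hA ht).B_le i _ hγm
  have hbB : aeval (j0 A (M * q * q))⁻¹ G ^ m * F' ∈ (chartInf A q M B k hB hq hqM hA ht).B :=
    Fermat.Agent.S36.NU.H28.critInf A q M B k hB hq hqM hA ht hm
      (fun i => mul_mem (hγV i) (hF'V i))
  refine ⟨⟨_, hγm⟩, ⟨_, hbB⟩, fun h => hγ𝔪 ?_, ?_⟩
  · refine Ideal.IsPrime.mem_of_pow_mem inferInstance m ?_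
    have e : (aeval (⟨(j0 A (M * q * q))⁻¹, j0_inv_mem_chartInf A q M B k hB hq hqM hA ht⟩ :
        (chartInf A q M B k hB hq hqM hA ht).B) G) ^ m
        = (⟨_, hγm⟩ : (chartInf A q M B k hB hq hqM hA ht).B) := by
      apply Subtype.ext
      rw [SubmonoidClass.coe_pow, hγcoe]
    rw [e]
    exact h
  · exact (chartInf A q M B k hB hq hqM hA ht).rd_mul 2 (hγV 2) (hF'V 2)

/-- **The branch of the component `02` through a cusp of the chart of `1 / j`**, if `j` is
integral over `R^ur[j'']`. -/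
theorem branch_chartInf_two_of
    (hj0 : IsIntegral ↥(Algebra.adjoin ↥(Rur A) {jdd A q M}) (j0 A (M * q * q)))
    (𝔪 : Ideal (chartInf A q M B k hB hq hqM hA ht).B) (hmax : 𝔪.IsMaximal)
    (hu : ∀ β : (chartInf A q M B k hB hq hqM hA ht).B,
      (β : ↥(L0 A (M * q * q))) = (j0 A (M * q * q))⁻¹ → β ∈ 𝔪)
    (h𝔪 : (chartInf A q M B k hB hq hqM hA ht).Icomp 2 ≤ 𝔪) :
    Nonempty (Branch (chartInf A q M B k hB hq hqM hA ht) 𝔪 2) := by
  haveI : IsAlgClosed (kV A) := isAlgClosed_kV A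
  haveI := finiteDimensional_jbar A M hq hqM hA
  haveI := isSeparable_jbar A M hq hqM hA
  obtain ⟨G, hG0, -, hGf⟩ := exists_unit_pow_mul_isIntegral (R := ↥(Rur A)) (K := ↥(Kur A))
    (j0_ne_zero' A q M) (jdd_ne_zero' A q M hq) hj0
  refine @branch_of_normal_local _ _ _ _ _ _ _ _ _ _ _ _
    (chartInf A q M B k hB hq hqM hA ht) 2 (j0 A (M * q * q))⁻¹
    (j0_inv_mem_chartInf A q M B k hB hq hqM hA ht) (fun β => β.2) (jbar A M)⁻¹
    (finiteDimensional_adjoin_inv (kV A) (jbar A M)) (isSeparable_adjoin_inv (kV A) (jbar A M))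
    ?_ 𝔪 hmax h𝔪 ?_
  · rw [rdB_two_j0_inv A q M B k hB hq hqM hA ht]
    exact (isIntegral_self_adjoin _).pow _
  · intro y hy
    have hy' : IsIntegral ↥(Algebra.adjoin (kV A)
        {redM A M ⟨(Fermat.Agent.RED.H73.jF (L := Kbar) M)⁻¹, jF_inv_mem A M⟩})
        (show FM A M from y) := by
      rw [red_jF_inv A M hq]
      exact hy
    obtain ⟨f, hf, -, hint, -, hV, hred⟩ :=
      normalImg_good_inv A M hq hA hqM _ rfl (jF_inv_mem A M) y hy'
    obtain ⟨m, hm⟩ := hGf ⟨incBB q M f, incBB_mem_L0 A q M f hf⟩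
      (isIntegral_incBB_jdd_inv A q M f hf hint)
    obtain ⟨g, b, hg, hgb⟩ := exists_local_lift A q M B k hB hq hqM hA ht G hG0
      ⟨incBB q M f, incBB_mem_L0 A q M f hf⟩
      (incBB_mem_totM A q M B k hB hq hqM hA ht f hf hV) m (hm m le_rfl) 𝔪 hmax hu
    refine ⟨g, b, hg, ?_⟩
    rw [rd_two_incBB A q M B k hB hq hqM hA ht f hf hV, hred,
      (chartInf A q M B k hB hq hqM hA ht).rd_coe 2,
      (chartInf A q M B k hB hq hqM hA ht).rd_coe 2] at hgb
    exact hgb

end BranchInf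

end Fermat.Agent.S36.NU.H42B

end
end
-- ==== END Fermat.Agent.S36.NU.H42_BranchOo02

-- ==== BEGIN Fermat.Agent.S36.NU.H44_BranchInf
section
attribute [local instance 10000] HahnSeries.powerSeriesAlgebra

/-!
# S36 / NU-B, `hbr` for the chart of `1 / j` (helper44): components `20` and `11`

Level `N = M q²`, `q ∤ M` tame; `chartInf` = the chart of `1 / j` (helper88), `B = ` the integral
closure of `R^ur[1/j]` in the inertia-fixed functions of level `N`.

* `jinvBar A M` : the reduction of `1 / j` at the good level `M`; `κ / k(1/j̄)` is finite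
  separable (`RED.H76.goodChart_jF_inv`);
* `isIntegral_incl_inv` : the lift `incl f` of a function `f` of the good level that is integral
  over `K^ur[1/j]` is integral over `K^ur[1/j]` at the level `N`;
* `incl_mem_chartInf` : it lies in `B` (helper28 `critInf`);
* `branch_chartInf_zero`, `branch_chartInf_one` : **every closed point of the special fibre of
  `chartInf` has a branch on the components `20` and `11` through it** (`H24.branch_of_normal`,
  the lift of `y` integral over `k[1/j̄]` is `incl f`, `f` from `H17.normalImg_good_inv`);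
* `branch_chartInf_of_two` : the hypothesis `hbr` of `H88.pointDataAt_chartInf` from the branches
  on the component `02` at the cusps.
-/

set_option autoImplicit false
set_option synthInstance.maxHeartbeats 400000
set_option maxHeartbeats 1000000
set_option linter.style.haveILetI false
set_option linter.unusedSectionVars false

noncomputable section

open ModularCurve AlgebraicCurve Polynomial IntermediateField
open Fermat.Agent.S24 Fermat.Agent.BAD.H88 Fermat.Agent.S28 Fermat.Agent.S28.H73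
open Fermat.Agent.RED.H73 Fermat.Agent.RED.H17 Fermat.Agent.S36.NU.H88
open Fermat.Agent.S36.NU.H23 Fermat.Agent.S36.NU.H41
open Fermat.Agent.S36.NU.H16 Fermat.Agent.S36.NU.H65 Fermat.Agent.BAD

namespace Fermat.Agent.S36.NU.H44

section JinvBar

variable (A : ValuationSubring Kbar) (M : ℕ) [NeZero M]

/-- The reduction of `1 / j` at the level `M`. -/
def jinvBar : FM A M :=
  redM A M ⟨(Fermat.Agent.RED.H73.jF (L := Kbar) M)⁻¹, Fermat.Agent.RED.H73.jF_inv_mem A M⟩

variable {q : ℕ} (hq : q.Prime) (hqM : ¬ q ∣ M) (hA : A.LiesOverPrime q)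

include hq hqM hA in
theorem finiteDimensional_jinvBar : FiniteDimensional ↥(kV A)⟮jinvBar A M⟯ (FM A M) := by
  have G := Fermat.Agent.RED.H76.goodChart_jF_inv M hq hqM A hA
  haveI := G.fin
  have hpos : 0 < Module.finrank ↥(kV A)⟮jinvBar A M⟯ (FM A M) := by
    have h5 : Module.finrank ↥(kV A)⟮jinvBar A M⟯ (FM A M)
        = Module.finrank ↥(Kbar⟮(Fermat.Agent.RED.H73.jF (L := Kbar) M)⁻¹⟯)
            ↥(laurentBaseChange Kbar (modularFunctionFieldFull M)) := G.deg
    rw [h5]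
    exact Module.finrank_pos
  exact Module.finite_of_finrank_pos hpos

include hq hqM hA in
theorem isSeparable_jinvBar : Algebra.IsSeparable ↥(kV A)⟮jinvBar A M⟯ (FM A M) :=
  (Fermat.Agent.RED.H76.goodChart_jF_inv M hq hqM A hA).sept

end JinvBar

section LiftsInf

variable (A : ValuationSubring Kbar) (q M : ℕ) (B k : ℤ) (hB : B * M + k * q = 1) (hq : q.Prime)
  [NeZero M] [NeZero q] [NeZero (M * q * q)] (hqM : ¬ q ∣ M) (hA : A.LiesOverPrime q)
  (ht : H91.TameAt M q)

attribute [local instance] algkM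

/-- `incl (1 / j) = 1 / j`. -/
theorem incAA_jF_inv :
    incAA q M (Fermat.Agent.RED.H73.jF (L := Kbar) M)⁻¹
      = (((j0 A (M * q * q))⁻¹ : ↥(L0 A (M * q * q))) : FN (M * q * q)) := by
  have hj : incAA q M (Fermat.Agent.RED.H73.jF (L := Kbar) M)
      = ((j0 A (M * q * q) : ↥(L0 A (M * q * q))) : FN (M * q * q)) := by
    rw [← Fermat.Agent.RED.H76.jF_eq, ← jdF_one_eq_jF M, incAA_jdF_one, coe_j0']
  rw [map_inv₀, hj]
  rfl

/-- `1 / j` at the level `M q²` is the lift of `1 / j` at the level `M`. -/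
theorem uoo_eq_incl :
    (j0 A (M * q * q))⁻¹ = inclL0 A (hleMN q M)
      ⟨(Fermat.Agent.RED.H73.jF (L := Kbar) M)⁻¹, (L0 A M).inv_mem (H17.jF_mem_L0 A M)⟩ := by
  apply Subtype.ext
  rw [coe_inclL0_eq_incAA]
  exact (incAA_jF_inv A q M).symm

/-- **(A1) for `1 / j`**: `incl f` is integral over `K^ur[1/j]` inside `L₀(M q²)`. -/
theorem isIntegral_incl_inv (f : FN M) (hf : f ∈ L0 A M)
    (hint : ((aeval (Fermat.Agent.RED.H73.jF (L := Kbar) M)⁻¹ :
        Kbar[X] →ₐ[Kbar] FN M).toRingHom.comp (mapRingHom (H17.iotaUr A))).IsIntegralElem f) :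
    IsIntegral ↥(Algebra.adjoin ↥(Kur A) {(j0 A (M * q * q))⁻¹})
      (inclL0 A (hleMN q M) ⟨f, hf⟩) := by
  refine isIntegral_adjoin_of_isIntegralElem A (M * q * q) (j0 A (M * q * q))⁻¹
    (inclL0 A (hleMN q M) ⟨f, hf⟩) ?_
  have h := H22.isIntegralElem_map_algHom A M (incAA q M) _ f hint
  rw [incAA_jF_inv A q M] at h
  rw [coe_inclL0_eq_incAA]
  exact h

/-- The lift `incl f` of a function of the good level lies in `B`. -/
theorem incl_mem_chartInf (f : FN M) (hf : f ∈ L0 A M) (hV : f ∈ VM A M)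
    (hint : ((aeval (Fermat.Agent.RED.H73.jF (L := Kbar) M)⁻¹ :
        Kbar[X] →ₐ[Kbar] FN M).toRingHom.comp (mapRingHom (H17.iotaUr A))).IsIntegralElem f) :
    inclL0 A (hleMN q M) ⟨f, hf⟩ ∈ (chartInf A q M B k hB hq hqM hA ht).B := by
  refine H28.critInf A q M B k hB hq hqM hA ht (isIntegral_incl_inv A q M f hf hint) ?_
  intro i
  fin_cases i
  · exact hVE20 A q M ⟨f, hf⟩ hV
  · exact hVE11 A q M B k hB hq ⟨f, hf⟩ hV
  · exact hVE02 A q M B k hB hq ⟨f, hf⟩ hV

end LiftsInf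

section BranchInf

variable (A : ValuationSubring Kbar) (q M : ℕ) (B k : ℤ) (hB : B * M + k * q = 1) (hq : q.Prime)
  [NeZero M] [NeZero q] [NeZero (M * q * q)] (hqM : ¬ q ∣ M) (hA : A.LiesOverPrime q)
  (ht : H91.TameAt M q)

attribute [local instance] algkM

theorem uoo_mem_chartInf : (j0 A (M * q * q))⁻¹ ∈ (chartInf A q M B k hB hq hqM hA ht).B :=
  self_mem_intSub _ _

/-- The reduction of `1 / j` on the component `20`. -/
theorem r20_uoo_eq (h : (j0 A (M * q * q))⁻¹ ∈ V20o A q M) :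
    r20 A q M hq hqM hA ⟨_, h⟩ = jinvBar A M := by
  have key : ∀ (x : ↥(L0 A (M * q * q))) (hx : x ∈ V20o A q M),
      x = inclL0 A (hleMN q M)
        ⟨(Fermat.Agent.RED.H73.jF (L := Kbar) M)⁻¹, (L0 A M).inv_mem (H17.jF_mem_L0 A M)⟩ →
      r20 A q M hq hqM hA ⟨x, hx⟩ = jinvBar A M := by
    intro x hx e
    subst e
    exact r20_incl A q M hq hqM hA
      ⟨⟨_, (L0 A M).inv_mem (H17.jF_mem_L0 A M)⟩, Fermat.Agent.RED.H73.jF_inv_mem A M⟩ hx
  exact key _ h (uoo_eq_incl A q M)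

/-- The reduction of `1 / j` on the component `11`. -/
theorem r11_uoo_eq (h : (j0 A (M * q * q))⁻¹ ∈ V11o A q M B k hB hq) :
    r11 A q M B k hB hq hqM hA ⟨_, h⟩ = jinvBar A M := by
  have key : ∀ (x : ↥(L0 A (M * q * q))) (hx : x ∈ V11o A q M B k hB hq),
      x = inclL0 A (hleMN q M)
        ⟨(Fermat.Agent.RED.H73.jF (L := Kbar) M)⁻¹, (L0 A M).inv_mem (H17.jF_mem_L0 A M)⟩ →
      r11 A q M B k hB hq hqM hA ⟨x, hx⟩ = jinvBar A M := by
    intro x hx e
    subst e
    exact r11_incl A q M B k hB hq hqM hA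
      ⟨⟨_, (L0 A M).inv_mem (H17.jF_mem_L0 A M)⟩, Fermat.Agent.RED.H73.jF_inv_mem A M⟩ hx
  exact key _ h (uoo_eq_incl A q M)

/-- **Branches of the chart of `1 / j` on the component `20`.** -/
theorem branch_chartInf_zero (𝔪 : Ideal (chartInf A q M B k hB hq hqM hA ht).B)
    (hmax : 𝔪.IsMaximal) (h𝔪 : (chartInf A q M B k hB hq hqM hA ht).Icomp 0 ≤ 𝔪) :
    Nonempty (Branch (chartInf A q M B k hB hq hqM hA ht) 𝔪 0) := by
  haveI : IsAlgClosed (kV A) := isAlgClosed_kV A
  refine @H24.branch_of_normal _ _ _ _ _ _ _ _ _ _ _ _ (chartInf A q M B k hB hq hqM hA ht) 0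
    (j0 A (M * q * q))⁻¹ (uoo_mem_chartInf A q M B k hB hq hqM hA ht) (fun β => β.2)
    (jinvBar A M) (finiteDimensional_jinvBar A M hq hqM hA) (isSeparable_jinvBar A M hq hqM hA)
    ?_ ?_ 𝔪 hmax h𝔪
  · have e : (chartInf A q M B k hB hq hqM hA ht).rdB 0
        ⟨(j0 A (M * q * q))⁻¹, uoo_mem_chartInf A q M B k hB hq hqM hA ht⟩ = jinvBar A M :=
      r20_uoo_eq A q M hq hqM hA _
    rw [e]
    exact H17.isIntegral_self_adjoin _
  · intro y hy
    obtain ⟨f, hf, -, hint, -, hV, hred⟩ :=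
      H17.normalImg_good_inv A M hq hA hqM _ rfl (Fermat.Agent.RED.H73.jF_inv_mem A M) y hy
    refine ⟨⟨_, incl_mem_chartInf A q M B k hB hq hqM hA ht f hf hV hint⟩, ?_⟩
    have e : (chartInf A q M B k hB hq hqM hA ht).rdB 0
        ⟨_, incl_mem_chartInf A q M B k hB hq hqM hA ht f hf hV hint⟩ = redM A M ⟨f, hV⟩ :=
      r20_incl A q M hq hqM hA ⟨⟨f, hf⟩, hV⟩ _
    rw [e, hred]

/-- **Branches of the chart of `1 / j` on the component `11`.** -/
theorem branch_chartInf_one (𝔪 : Ideal (chartInf A q M B k hB hq hqM hA ht).B)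
    (hmax : 𝔪.IsMaximal) (h𝔪 : (chartInf A q M B k hB hq hqM hA ht).Icomp 1 ≤ 𝔪) :
    Nonempty (Branch (chartInf A q M B k hB hq hqM hA ht) 𝔪 1) := by
  haveI : IsAlgClosed (kV A) := isAlgClosed_kV A
  refine @H24.branch_of_normal _ _ _ _ _ _ _ _ _ _ _ _ (chartInf A q M B k hB hq hqM hA ht) 1
    (j0 A (M * q * q))⁻¹ (uoo_mem_chartInf A q M B k hB hq hqM hA ht) (fun β => β.2)
    (jinvBar A M) (finiteDimensional_jinvBar A M hq hqM hA) (isSeparable_jinvBar A M hq hqM hA)
    ?_ ?_ 𝔪 hmax h𝔪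
  · have e : (chartInf A q M B k hB hq hqM hA ht).rdB 1
        ⟨(j0 A (M * q * q))⁻¹, uoo_mem_chartInf A q M B k hB hq hqM hA ht⟩ = jinvBar A M :=
      r11_uoo_eq A q M B k hB hq hqM hA _
    rw [e]
    exact H17.isIntegral_self_adjoin _
  · intro y hy
    obtain ⟨f, hf, -, hint, -, hV, hred⟩ :=
      H17.normalImg_good_inv A M hq hA hqM _ rfl (Fermat.Agent.RED.H73.jF_inv_mem A M) y hy
    refine ⟨⟨_, incl_mem_chartInf A q M B k hB hq hqM hA ht f hf hV hint⟩, ?_⟩
    have e : (chartInf A q M B k hB hq hqM hA ht).rdB 1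
        ⟨_, incl_mem_chartInf A q M B k hB hq hqM hA ht f hf hV hint⟩ = redM A M ⟨f, hV⟩ :=
      r11_incl A q M B k hB hq hqM hA ⟨⟨f, hf⟩, hV⟩ _
    rw [e, hred]

/-- **`hbr` of `H88.pointDataAt_chartInf`** from the branches on the component `02` at the
cusps. -/
theorem branch_chartInf_of_two
    (h2 : ∀ 𝔪 : Ideal (chartInf A q M B k hB hq hqM hA ht).B, 𝔪.IsMaximal →
      (∀ β : (chartInf A q M B k hB hq hqM hA ht).B,
        (β : ↥(L0 A (M * q * q))) = (j0 A (M * q * q))⁻¹ → β ∈ 𝔪) →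
      (chartInf A q M B k hB hq hqM hA ht).Icomp 2 ≤ 𝔪 →
        Nonempty (Branch (chartInf A q M B k hB hq hqM hA ht) 𝔪 2)) :
    ∀ 𝔪 : Ideal (chartInf A q M B k hB hq hqM hA ht).B, 𝔪.IsMaximal →
      (∀ β : (chartInf A q M B k hB hq hqM hA ht).B,
        (β : ↥(L0 A (M * q * q))) = (j0 A (M * q * q))⁻¹ → β ∈ 𝔪) →
      ∀ i, (chartInf A q M B k hB hq hqM hA ht).Icomp i ≤ 𝔪 →
        Nonempty (Branch (chartInf A q M B k hB hq hqM hA ht) 𝔪 i) := by
  intro 𝔪 hmax hu i hi
  fin_cases i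
  · exact branch_chartInf_zero A q M B k hB hq hqM hA ht 𝔪 hmax hi
  · exact branch_chartInf_one A q M B k hB hq hqM hA ht 𝔪 hmax hi
  · exact h2 𝔪 hmax hu hi

end BranchInf

end Fermat.Agent.S36.NU.H44

end
end
-- ==== END Fermat.Agent.S36.NU.H44_BranchInf

-- ==== BEGIN Fermat.Agent.S36.NU.H79_NmFibM
section

/-!
# S36 / NU-B, ND (helper79): the fibre part `NmFib` and the modular `NUData`, unconditionally

* `nmFibM : NmFib ..` : from helper42's `fib_of_rho`, `reg_of_rho` and helper23's `rho_alpha`,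
  `rho_beta`;
* `nuMod : NUDataM A q M`, `isNuM_nuMod`, **`stmt_NuM`** : the modular `NUData`.
-/

set_option autoImplicit false
set_option synthInstance.maxHeartbeats 400000
set_option maxHeartbeats 1000000
set_option linter.style.haveILetI false
set_option linter.unusedSectionVars false

noncomputable section

open ModularCurve AlgebraicCurve
open Fermat.Agent.S24 Fermat.Agent.BAD.H88 Fermat.Agent.S28 Fermat.Agent.S28.H73
open Fermat.Agent.RED.H73 Fermat.Agent.RED.H17 Fermat.Agent.S36.NU.H88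
open Fermat.Agent.Lib.HeckeComm Fermat.Agent.S36.NU.H23 Fermat.Agent.S36.NU.H74
open Fermat.Agent.S36.NU.H89

namespace Fermat.Agent.S36.NU.H79

open Fermat.Agent.BAD Fermat.Agent.RED Fermat.Agent.BAD.H79

section NmFibM

variable (A : ValuationSubring Kbar) (q M : ℕ) (B k : ℤ) (hB : B * M + k * q = 1) (hq : q.Prime)
  [NeZero M] [NeZero q] [NeZero (M * q)] [NeZero (M * q * q)]
  (hqM : ¬ q ∣ M) (hA : A.LiesOverPrime q) (ht : H91.TameAt M q)

/-- **The fibre part of the modular `NUPre`.** -/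
theorem nmFibM : NmFib A q M B k hB hq hqM hA ht := by
  haveI : HasPrincipalDivisors Kbar (FN (M * q * q)) :=
    Fermat.Agent.S36.NU.H74.hasPrincipalDivisors_FN (M * q * q)
  refine ⟨?_, ?_, ?_⟩
  · intro z _ h hf Q hQ
    exact Fermat.Agent.S36.NU.H42.fib_of_rho (heckeAlphaBar Kbar (M * q) q)
      (Fermat.Agent.S36.H44.alpha_integral (M * q) q)
      (Fermat.Agent.S36.H44.alpha_finite (M * q) q)
      (Fermat.Agent.S36.H44.alpha_norm (M * q) q)
      (rhoM A q M hq hqM hA ht) (TlowM A q M B k hB hq hqM hA ht).ρ z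
      (zA A q M B k hB hq hA z)
      (fun P hP => rho_alpha A q M B k hB hq hqM hA ht z P hP) _ hf Q hQ
  · intro z hz h hf Q hQ
    exact Fermat.Agent.S36.NU.H42.fib_of_rho (heckeBetaBar Kbar (M * q) q)
      (Fermat.Agent.S36.H44.beta_integral (M * q) q)
      (Fermat.Agent.S36.H44.beta_finite (M * q) q)
      (Fermat.Agent.S36.H44.beta_norm (M * q) q)
      (rhoM A q M hq hqM hA ht) (TlowM A q M B k hB hq hqM hA ht).ρ z
      (zB A q M B k hB hq hqM hA z)
      (fun P hP => rho_beta A q M B k hB hq hqM hA ht z hz P hP) _ hf Q hQ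
  · intro z _ h hf Q hQ
    exact Fermat.Agent.S36.NU.H42.reg_of_rho (heckeAlphaBar Kbar (M * q) q)
      (Fermat.Agent.S36.H44.alpha_integral (M * q) q)
      (Fermat.Agent.S36.H44.alpha_finite (M * q) q)
      (Fermat.Agent.S36.H44.alpha_norm (M * q) q)
      (rhoM A q M hq hqM hA ht) (TlowM A q M B k hB hq hqM hA ht).ρ z
      (zA A q M B k hB hq hA z)
      (fun P hP => rho_alpha A q M B k hB hq hqM hA ht z P hP) _ hf Q hQ

/-- **The modular `NUData`.** -/
def nuMod : NUDataM A q M :=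
  nuMF A q M B k hB hq hqM hA ht (nmFibM A q M B k hB hq hqM hA ht)

/-- `nuMod` is a modular instance of `NUData`. -/
theorem isNuM_nuMod : IsNuM A q M B k hB hq hqM hA ht (nuMod A q M B k hB hq hqM hA ht) :=
  isNuM_nuMF A q M B k hB hq hqM hA ht _

/-- **ND**: there is a modular instance of `NUData`. -/
theorem stmt_NuM : Stmt_NuM A q M B k hB hq hqM hA ht :=
  ⟨nuMod A q M B k hB hq hqM hA ht, isNuM_nuMod A q M B k hB hq hqM hA ht⟩

end NmFibM

end Fermat.Agent.S36.NU.H79

end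
end
-- ==== END Fermat.Agent.S36.NU.H79_NmFibM

-- ==== BEGIN Fermat.Agent.S36.NU.H10_Close
section

/-!
# S36 / NU-B, CLOSE (helper10): `Stmt_NUCoreTame` from the two point-data statements

The landed, unconditional providers are plugged into `nuCoreTame_final`:

* `stmt_NuMAll`    : helper79's `H79.stmt_NuM` (modular datum);
* `stmt_ValVecAll` : helper51's `H51.stmt_ValVecMod` (VALVEC);
* `hjdd`           : helper88's `H88.jdd_mem_intSub_mod`;
* `hrad0`, `hradoo`: helper28's `H28.hrad0`, `H28.hradoo` (RADQ).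

What REMAINS are the two statements

* `Stmt_Pt0All`  : `PointData` of the chart of `j` (helper99: M2 + M4);
* `Stmt_PtooAll` : `PointDataAt` at the cusps of the chart of `1 / j` (helpers 82, 88, 44).

`nuCoreTame_close : Stmt_Pt0All → Stmt_PtooAll → H81.Stmt_NUCoreTame`.
-/

set_option autoImplicit false
set_option synthInstance.maxHeartbeats 400000
set_option maxHeartbeats 1000000
set_option linter.style.haveILetI false
set_option linter.unusedSectionVars false

noncomputable section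

open ModularCurve AlgebraicCurve

namespace Fermat.Agent.S36.NU.H10

open Fermat.Agent.S24 Fermat.Agent.BAD Fermat.Agent.BAD.H88 Fermat.Agent.S28 Fermat.Agent.S28.H73
  Fermat.Agent.S36.NU.H23 Fermat.Agent.S36.NU.H79 Fermat.Agent.S36.NU.H81
  Fermat.Agent.S36.NU.H41 Fermat.Agent.S36.NU.H88 Fermat.Agent.S36.NU.H16
  Fermat.Agent.S36.NU.H17 Fermat.Agent.S36.NU.H24 Fermat.Agent.S36.NU.H65

attribute [local instance] algkM

/-- `PointData` of the chart of `j`, for every modular datum at every tame level. -/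
def Stmt_Pt0All : Prop :=
  ∀ (A : ValuationSubring Kbar) (q M : ℕ) (B k : ℤ) (hB : B * M + k * q = 1) (hq : q.Prime)
    [NeZero M] [NeZero q] [NeZero (M * q)] [NeZero (M * q * q)]
    (hqM : ¬ q ∣ M) (hA : A.LiesOverPrime q) (ht : H91.TameAt M q),
    (5 ≤ q ∧ 4 ∣ M) ∨ (q = 3 ∧ 4 ∣ M) ∨ (q = 2 ∧ 9 ∣ M) →
    ∀ D : NUDataM A q M, IsNuM A q M B k hB hq hqM hA ht D →
      PointData (chart0 A q M B k hB hq hqM hA ht) D ((q : ℕ) : ↥(Rur A))

/-- `PointDataAt` at the cusps of the chart of `1 / j`, for every modular datum at every tame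
level. -/
def Stmt_PtooAll : Prop :=
  ∀ (A : ValuationSubring Kbar) (q M : ℕ) (B k : ℤ) (hB : B * M + k * q = 1) (hq : q.Prime)
    [NeZero M] [NeZero q] [NeZero (M * q)] [NeZero (M * q * q)]
    (hqM : ¬ q ∣ M) (hA : A.LiesOverPrime q) (ht : H91.TameAt M q),
    (5 ≤ q ∧ 4 ∣ M) ∨ (q = 3 ∧ 4 ∣ M) ∨ (q = 2 ∧ 9 ∣ M) →
    ∀ D : NUDataM A q M, IsNuM A q M B k hB hq hqM hA ht D →
      ∀ 𝔪 : Ideal (chartInf A q M B k hB hq hqM hA ht).B, 𝔪.IsMaximal →
        (∃ i, (chartInf A q M B k hB hq hqM hA ht).Icomp i ≤ 𝔪) →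
        (∀ β : (chartInf A q M B k hB hq hqM hA ht).B,
          (β : ↥(L0 A (M * q * q))) = (j0 A (M * q * q))⁻¹ → β ∈ 𝔪) →
        PointDataAt (chartInf A q M B k hB hq hqM hA ht) D ((q : ℕ) : ↥(Rur A)) 𝔪

/-- The modular datum at every tame level (helper79). -/
theorem stmt_NuMAll : Stmt_NuMAll := fun A q M B k hB hq _ _ _ _ hqM hA ht _ =>
  stmt_NuM A q M B k hB hq hqM hA ht

/-- VALVEC at every tame level (helper51). -/
theorem stmt_ValVecAll : Stmt_ValVecAll := fun A q M B k hB hq _ _ _ _ hqM hA _ _ =>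
  Fermat.Agent.S36.NU.H51.stmt_ValVecMod A q M B k hB hq hqM hA

/-- `q ≠ 0` in `Rur A`. -/
theorem natCast_Rur_ne_zero_close (A : ValuationSubring Kbar) (q : ℕ) (hq : q.Prime) :
    ((q : ℕ) : ↥(Rur A)) ≠ 0 := by
  exact_mod_cast hq.ne_zero

/-- **`Stmt_TopAll`** from the two point-data statements. -/
theorem stmt_TopAll_of (h0 : Stmt_Pt0All) (hoo : Stmt_PtooAll) : Stmt_TopAll := by
  intro A q M B k hB hq _ _ _ _ hqM hA ht hc D hD
  exact
    { hjdd := jdd_mem_intSub_mod A q M B k hB hq hqM hA ht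
      hpt0 := h0 A q M B k hB hq hqM hA ht hc D hD
      hptoo := hoo A q M B k hB hq hqM hA ht hc D hD
      hrad0 := Fermat.Agent.S36.NU.H28.hrad0 A q M B k hB hq hqM hA ht _
        (natCast_Rur_ne_zero_close A q hq)
      hradoo := Fermat.Agent.S36.NU.H28.hradoo A q M B k hB hq hqM hA ht _
        (natCast_Rur_ne_zero_close A q hq) }

/-- **`Stmt_NUCoreTame`** from the two point-data statements. -/
theorem nuCoreTame_close (h0 : Stmt_Pt0All) (hoo : Stmt_PtooAll) : Stmt_NUCoreTame :=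
  nuCoreTame_final stmt_NuMAll (stmt_TopAll_of h0 hoo) stmt_ValVecAll

end Fermat.Agent.S36.NU.H10

end
end
-- ==== END Fermat.Agent.S36.NU.H10_Close

-- ==== BEGIN Fermat.Agent.S36.NU.H10_Inputs
section

/-!
# S36 / NU-B, INPUTS (helper10): the two point-data statements from the last three leaves

Plugged (landed, unconditional): `H99.pointData_chart0_of` (helper99), `H17.branch_chart0`
(helper17), `H74.hss_five_unc` (helper74), `H91.hss_small` (helper91), `H99.ChartL0.mid_u4`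
(helper99), `H88.pointDataAt_chartInf` (helper88), (CUSP-INT) `H82.isIntegral_E20oo` (helper82),
`H31C.isIntegral_E02oo` (helper31), `H73.isIntegral_E11oo`, `H73.isIntegral_x11oo` (helper73).

What REMAINS:

* `Stmt_MidSmall`  : the middle ordinary points for `q = 2, 3` (helper65);
* `Stmt_PtHypsAll` : `hnc`, `hsurj`, `hSSchar` for the chart of `j` (helper41);
* `Stmt_BrooAll`   : the branches at the cusps of the chart of `1 / j` (helper44).
-/

set_option autoImplicit false
set_option synthInstance.maxHeartbeats 400000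
set_option maxHeartbeats 1000000
set_option linter.style.haveILetI false
set_option linter.unusedSectionVars false

noncomputable section

open ModularCurve AlgebraicCurve

namespace Fermat.Agent.S36.NU.H10

open Fermat.Agent.S24 Fermat.Agent.BAD Fermat.Agent.BAD.H88 Fermat.Agent.S28 Fermat.Agent.S28.H73
  Fermat.Agent.S36.NU.H23 Fermat.Agent.S36.NU.H79 Fermat.Agent.S36.NU.H81
  Fermat.Agent.S36.NU.H41 Fermat.Agent.S36.NU.H88 Fermat.Agent.S36.NU.H16
  Fermat.Agent.S36.NU.H17 Fermat.Agent.S36.NU.H24 Fermat.Agent.S36.NU.H65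
  Fermat.Agent.S36.NU.H74 Fermat.Agent.RED.H73 Fermat.Agent.RED.H17

attribute [local instance] algkM

/-- **(CUSP-INT)** (helpers 82, 31, 73). -/
theorem stmt_CuspInt_all (A : ValuationSubring Kbar) (q M : ℕ) (hq : q.Prime)
    [NeZero M] [NeZero q] [NeZero (M * q)] [NeZero (M * q * q)] :
    Fermat.Agent.S36.NU.H82.Stmt_CuspInt A q M := by
  intro x hx
  simp only [Set.mem_insert_iff, Set.mem_singleton_iff] at hx
  rcases hx with rfl | rfl | rfl | rfl
  · exact Fermat.Agent.S36.NU.H82.isIntegral_E20oo A q M hq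
  · exact Fermat.Agent.S36.NU.H31C.isIntegral_E02oo A q M hq
  · exact Fermat.Agent.S36.NU.H73.isIntegral_E11oo A q M hq
  · exact Fermat.Agent.S36.NU.H73.isIntegral_x11oo A q M hq

/-- The middle ordinary points for `q = 2, 3`. -/
def Stmt_MidSmall : Prop :=
  ∀ (A : ValuationSubring Kbar) (q M : ℕ) (B k : ℤ) (hB : B * M + k * q = 1) (hq : q.Prime)
    [NeZero M] [NeZero q] [NeZero (M * q)] [NeZero (M * q * q)]
    (hqM : ¬ q ∣ M) (hA : A.LiesOverPrime q) (ht : H91.TameAt M q),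
    (q = 3 ∧ 4 ∣ M) ∨ (q = 2 ∧ 9 ∣ M) →
    (Fermat.Agent.S36.NU.H99.chartL0_mod A q M B k hB hq hqM hA ht).Mid

/-- The three point hypotheses of the chart of `j`. -/
def Stmt_PtHypsAll : Prop :=
  ∀ (A : ValuationSubring Kbar) (q M : ℕ) (B k : ℤ) (hB : B * M + k * q = 1) (hq : q.Prime)
    [NeZero M] [NeZero q] [NeZero (M * q)] [NeZero (M * q * q)]
    (hqM : ¬ q ∣ M) (hA : A.LiesOverPrime q) (ht : H91.TameAt M q),
    (5 ≤ q ∧ 4 ∣ M) ∨ (q = 3 ∧ 4 ∣ M) ∨ (q = 2 ∧ 9 ∣ M) →
    (∀ i : Fin 3, ∃ β : (chart0 A q M B k hB hq hqM hA ht).B,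
      ∀ c : kV A, (chart0 A q M B k hB hq hqM hA ht).rdB i β
        ≠ algebraMap (kV A) (kap3 (FM A M) (FM A M) i) c) ∧
    (∀ (i : Fin 3) (v : Place (kV A) (kap3 (FM A M) (FM A M) i)),
      (∀ β : (chart0 A q M B k hB hq hqM hA ht).B,
        RegAt v ((chart0 A q M B k hB hq hqM hA ht).rdB i β)) →
      ∃ z, (totM A q M B k hB hq hqM hA ht).pt i z = v) ∧
    (∀ (i : Fin 3) (z : Place (kV A) (FM A M)),
      (∀ β : (chart0 A q M B k hB hq hqM hA ht).B,
        RegAt ((totM A q M B k hB hq hqM hA ht).pt i z)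
          ((chart0 A q M B k hB hq hqM hA ht).rdB i β)) →
      VanAt ((totM A q M B k hB hq hqM hA ht).pt i z)
        ((chart0 A q M B k hB hq hqM hA ht).rdB i
          (Fermat.Agent.S36.NU.H99.wit0 A q M B k hB hq hqM hA ht i)) →
      z ∈ ssM A q M)

/-- The branches at the cusps of the chart of `1 / j`. -/
def Stmt_BrooAll : Prop :=
  ∀ (A : ValuationSubring Kbar) (q M : ℕ) (B k : ℤ) (hB : B * M + k * q = 1) (hq : q.Prime)
    [NeZero M] [NeZero q] [NeZero (M * q)] [NeZero (M * q * q)]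
    (hqM : ¬ q ∣ M) (hA : A.LiesOverPrime q) (ht : H91.TameAt M q),
    (5 ≤ q ∧ 4 ∣ M) ∨ (q = 3 ∧ 4 ∣ M) ∨ (q = 2 ∧ 9 ∣ M) →
    ∀ 𝔪 : Ideal (chartInf A q M B k hB hq hqM hA ht).B, 𝔪.IsMaximal →
      (∀ β : (chartInf A q M B k hB hq hqM hA ht).B,
        (β : ↥(L0 A (M * q * q))) = (j0 A (M * q * q))⁻¹ → β ∈ 𝔪) →
      ∀ i, (chartInf A q M B k hB hq hqM hA ht).Icomp i ≤ 𝔪 →
        Nonempty (Branch (chartInf A q M B k hB hq hqM hA ht) 𝔪 i)

/-- **`Stmt_Pt0All`** from the middle ordinary points for `q = 2, 3` and the three point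
hypotheses. -/
theorem stmt_Pt0All_of (hmid : Stmt_MidSmall) (hpt : Stmt_PtHypsAll) : Stmt_Pt0All := by
  intro A q M B k hB hq _ _ _ _ hqM hA ht hc D hD
  obtain ⟨hnc, hsurj, hSSchar⟩ := hpt A q M B k hB hq hqM hA ht hc
  rcases hc with ⟨h5, h4⟩ | h23
  · exact Fermat.Agent.S36.NU.H99.pointData_chart0_of A q M B k hB hq hqM hA ht D hD
      ((Fermat.Agent.S36.NU.H99.chartL0_mod A q M B k hB hq hqM hA ht).mid_u4 hA h5 h4)
      hnc hsurj hSSchar
      (hss_five_unc A q M B k hB hq hqM hA ht h5 h4)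
      (branch_chart0 A q M B k hB hq hqM hA ht)
  · exact Fermat.Agent.S36.NU.H99.pointData_chart0_of A q M B k hB hq hqM hA ht D hD
      (hmid A q M B k hB hq hqM hA ht h23)
      hnc hsurj hSSchar
      (Fermat.Agent.S36.NU.H91.hss_small A q M B k hB hq hqM hA ht h23
        (chart0 A q M B k hB hq hqM hA ht) (compat_chart0 A q M B k hB hq hqM hA ht) _
        (Fermat.Agent.S36.NU.H99.chartL0_mod A q M B k hB hq hqM hA ht))
      (branch_chart0 A q M B k hB hq hqM hA ht)

/-- **`Stmt_PtooAll`** from the branches at the cusps. -/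
theorem stmt_PtooAll_of (hbr : Stmt_BrooAll) : Stmt_PtooAll := by
  intro A q M B k hB hq _ _ _ _ hqM hA ht hc D _
  exact pointDataAt_chartInf A q M B k hB hq hqM hA ht D (stmt_CuspInt_all A q M hq)
    (hbr A q M B k hB hq hqM hA ht hc)

/-- **`Stmt_NUCoreTame`** from the last three leaves. -/
theorem nuCoreTame_inputs (hmid : Stmt_MidSmall) (hpt : Stmt_PtHypsAll) (hbr : Stmt_BrooAll) :
    Stmt_NUCoreTame :=
  nuCoreTame_close (stmt_Pt0All_of hmid hpt) (stmt_PtooAll_of hbr)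

end Fermat.Agent.S36.NU.H10

end
end
-- ==== END Fermat.Agent.S36.NU.H10_Inputs

-- ==== BEGIN Fermat.Agent.S36.NU.H10_Core
section

/-!
# S36 / NU-B, CORE (helper10): `Stmt_NUCoreTame`, unconditionally

The last three leaves of `H10_Inputs`:

* `stmt_MidSmall`  : helper65's `H65.mid_q23`;
* `stmt_PtHypsAll` : helper22's `H22.hnc_chart0`, helper41's `H41.hsurj_mod`, `H41.hSSchar_mod`;
* `stmt_BrooAll`   : helper44's `H44.branch_chartInf_of_two`, helper42's
  `H42B.branch_chartInf_two_of`, helper82's `H82.isIntegral_j0_jdd`;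

and **`nuCoreTame : H81.Stmt_NUCoreTame`**.
-/

set_option autoImplicit false
set_option synthInstance.maxHeartbeats 400000
set_option maxHeartbeats 1000000
set_option linter.style.haveILetI false
set_option linter.unusedSectionVars false

noncomputable section

open ModularCurve AlgebraicCurve

namespace Fermat.Agent.S36.NU.H10

open Fermat.Agent.S24 Fermat.Agent.BAD Fermat.Agent.BAD.H88 Fermat.Agent.S28 Fermat.Agent.S28.H73
  Fermat.Agent.S36.NU.H23 Fermat.Agent.S36.NU.H79 Fermat.Agent.S36.NU.H81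
  Fermat.Agent.S36.NU.H41 Fermat.Agent.S36.NU.H88 Fermat.Agent.S36.NU.H16
  Fermat.Agent.S36.NU.H17 Fermat.Agent.S36.NU.H24 Fermat.Agent.S36.NU.H65
  Fermat.Agent.S36.NU.H74 Fermat.Agent.RED.H73 Fermat.Agent.RED.H17

attribute [local instance] algkM

/-- The middle ordinary points for `q = 2, 3` (helper65). -/
theorem stmt_MidSmall : Stmt_MidSmall := by
  intro A q M B k hB hq _ _ _ _ hqM hA ht h23
  exact Fermat.Agent.S36.NU.H65.mid_q23
    (Fermat.Agent.S36.NU.H99.chartL0_mod A q M B k hB hq hqM hA ht) hA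
    (h23.elim (fun h => Or.inr h.1) (fun h => Or.inl h.1))

/-- The branches at the cusps of the chart of `1 / j` (helpers 44, 42, 82). -/
theorem stmt_BrooAll : Stmt_BrooAll := by
  intro A q M B k hB hq _ _ _ _ hqM hA ht _
  exact Fermat.Agent.S36.NU.H44.branch_chartInf_of_two A q M B k hB hq hqM hA ht
    (fun 𝔪 hmax hu h𝔪 =>
      Fermat.Agent.S36.NU.H42B.branch_chartInf_two_of A q M B k hB hq hqM hA ht
        (Fermat.Agent.S36.NU.H82.isIntegral_j0_jdd A q M B k hB hq hqM hA ht) 𝔪 hmax hu h𝔪)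

/-- The three point hypotheses of the chart of `j` (helpers 22, 41). -/
theorem stmt_PtHypsAll : Stmt_PtHypsAll := by
  intro A q M B k hB hq _ _ _ _ hqM hA ht _
  refine ⟨Fermat.Agent.S36.NU.H22.hnc_chart0 A q M B k hB hq hqM hA ht,
    fun i v _ => Fermat.Agent.S36.NU.H41.hsurj_mod A q M B k hB hq hqM hA ht i v, ?_⟩
  exact Fermat.Agent.S36.NU.H41.hSSchar_mod A q M B k hB hq hqM hA ht (resRur A)
    (chartInput0 A q M B k hB hq hqM hA ht)
    (Fermat.Agent.S36.NU.H99.wit0 A q M B k hB hq hqM hA ht) rfl rfl rfl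

/-- **`Stmt_NUCoreTame`**, unconditionally. -/
theorem nuCoreTame : Stmt_NUCoreTame :=
  nuCoreTame_inputs stmt_MidSmall stmt_PtHypsAll stmt_BrooAll

end Fermat.Agent.S36.NU.H10

end
end
-- ==== END Fermat.Agent.S36.NU.H10_Core
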