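-- GENERATED (merged mirror, NOTES/tools/trim/merge3_helper67.py): 15 modules of the originals, bodies verbatim.
import Mathlib
import Fermat.Prelude.Def_ModularCurve_HeckeOperator
import Fermat.Agent.Zm.S44_L02_000
import Fermat.Agent.Zm.S35_L21_000
import Fermat.Agent.Zm.S44_L01_000
import Fermat.Agent.Zm.S56_L04_000
import Fermat.Agent.Zm.S35_L20_000
import Fermat.Agent.Zm.S33_L01_004
import Fermat.Agent.Zm.S36_L02_001
import Fermat.Agent.Zm.S35_L13_001
import Fermat.Agent.RED.ES.H95_NormEmb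
import Fermat.Agent.Zm.S48_L02_001
import Fermat.Agent.Zm.S35_L01_001
import Fermat.Agent.Zm.S35_L03_001
import Fermat.Agent.Zm.S48_L14_000
import Fermat.Agent.Zm.S35_L13_002
import Fermat.Agent.Zm.S35_L02_000
import Fermat.Agent.Zm.S48_L01_002

-- ==== BEGIN Fermat.Agent.BADP.H21_Coord
section

/-!
# S44 / S43 / S15, package COORD (helper21): annulus coordinates at the nodes, modular form

Level `N = M q`, `q ∤ M` tame, `A` a place of `ℚ̄` over `q`, `I` the inertia group of `A`,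
`T = H91.modT` the modular total conservation datum (helper91), `S = T.toSSD`.
`F0 = H15.fixF N I` the field of the inertia-fixed functions (helper15).

* `disc_fix` : **DISC** for `F0`: `f ∈ F0 ∩ 𝔪_{V₂}` implies `f / q ∈ V₂`
  (helper15's (A1) and helper6's `stmt_UnrFix`);
* `unit_gu₂`, `unit_zeroFree`, `unit_ord_pos` : **UNIT** for the modular unit `U = Δ / Δ_q`
  (`wq_unitF`, helper69's CUSP as a hypothesis);
* `coord_body` : **COORD**: from CUSP and ARITH-0 (hypotheses), at every node `s` of `S` there are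
  an inertia-fixed function `t` and `e ≥ 1`, `e ∣ 12`, with `S.IsAnnCoord s t (q ^ e)`.
-/

set_option autoImplicit false
set_option linter.style.haveILetI false
set_option linter.unusedSectionVars false
set_option synthInstance.maxHeartbeats 400000
set_option maxHeartbeats 1000000

noncomputable section

open HahnSeries IntermediateField AlgebraicCurve ModularCurve
open Fermat.Agent.S28.H73 Fermat.Agent.RED.H73 Fermat.Agent.RED Fermat.Agent.S24
open Fermat.Agent.BAD.H88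

namespace Fermat.Agent.BADP.H21

open Fermat.Agent.BAD Fermat.Agent.BAD.H91 Fermat.Agent.S15.Desc.H67

attribute [local instance 5000] SubalgebraClass.toAlgebra
attribute [local instance 10000] SubalgebraClass.toAlgebra
attribute [local instance 10000] HahnSeries.powerSeriesAlgebra

section Disc

variable (A : ValuationSubring Kbar) (q M : ℕ) (a b : ℤ) (hab : a * q + b * M = 1)
  (hq : q.Prime) [NeZero (M * q)]

/-- The inertia group of `A` as a set. -/
abbrev inertiaI : Set GalQ := ((A.inertiaSubgroupIn ℚ : Subgroup GalQ) : Set GalQ)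

theorem val_q_lt (hA : A.LiesOverPrime q) : A.valuation (q : Kbar) < 1 :=
  A.mem_nonunits_iff.1 hA

theorem natCast_mem_A (n : ℕ) : (n : Kbar) ∈ A := natCast_mem A n

include hab hq in
/-- **DISC** for the inertia-fixed functions: the second valuation is discrete on `F^I` with
uniformizer `q`. -/
theorem disc_fix (hA : A.LiesOverPrime q) {f : FN (M * q)}
    (hf : f ∈ H15.fixF (M * q) (inertiaI A)) (h : f ∈ V2 A q M a b hab hq)
    (h0 : red2 A q M a b hab hq ⟨f, h⟩ = 0) :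
    f / algebraMap Kbar (FN (M * q)) (q : Kbar) ∈ V2 A q M a b hab hq := by
  rcases eq_or_ne f 0 with rfl | hf0
  · rw [zero_div]
    exact (V2 A q M a b hab hq).zero_mem
  obtain ⟨c, hc0, hc, hm, hr⟩ := H15.exists_unit2_of_fixed A q M a b hab hq (inertiaI A) hf hf0
  obtain ⟨n, hn⟩ := Fermat.Agent.R.H6.stmt_UnrFix q hq A hA c hc0 (fun σ hσ => hc σ hσ)
  have hq0 : (q : Kbar) ≠ 0 := Nat.cast_ne_zero.2 hq.ne_zero
  have hvq0 : A.valuation (q : Kbar) ≠ 0 := by
    rw [Ne, map_eq_zero]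
    exact hq0
  have hvq := val_q_lt A q hA
  -- `n ≤ -1`
  have hn1 : n + 1 ≤ 0 := by
    by_contra hcon
    have hn0 : 0 ≤ n := by omega
    have hcA : c ∈ A := by
      rw [← A.valuation_le_one_iff, hn]
      obtain ⟨m, rfl⟩ := Int.eq_ofNat_of_zero_le hn0
      rw [zpow_natCast]
      exact pow_le_one₀ zero_le hvq.le
    have hc2 : algebraMap Kbar (FN (M * q)) c ∈ V2 A q M a b hab hq :=
      (const_mem2 A q M a b hab hq c).2 ((const_mem1 A q M c).2 hcA)
    apply hr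
    have e : (⟨algebraMap Kbar (FN (M * q)) c * f, hm⟩ : ↥(V2 A q M a b hab hq))
        = ⟨_, hc2⟩ * ⟨f, h⟩ := rfl
    rw [e, map_mul, h0, mul_zero]
  have hcq : (c * (q : Kbar))⁻¹ ∈ A := by
    rw [← A.valuation_le_one_iff, map_inv₀, map_mul, hn, ← zpow_add_one₀ hvq0]
    rw [← zpow_neg]
    obtain ⟨m, hm'⟩ := Int.eq_ofNat_of_zero_le (show 0 ≤ -(n + 1) by omega)
    rw [hm', zpow_natCast]
    exact pow_le_one₀ zero_le hvq.le
  have hcq2 : algebraMap Kbar (FN (M * q)) (c * (q : Kbar))⁻¹ ∈ V2 A q M a b hab hq :=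
    (const_mem2 A q M a b hab hq _).2 ((const_mem1 A q M _).2 hcq)
  have e : f / algebraMap Kbar (FN (M * q)) (q : Kbar)
      = algebraMap Kbar (FN (M * q)) (c * (q : Kbar))⁻¹
        * (algebraMap Kbar (FN (M * q)) c * f) := by
    have h1 : algebraMap Kbar (FN (M * q)) c ≠ 0 := by
      rw [Ne, map_eq_zero]; exact hc0
    have h2 : algebraMap Kbar (FN (M * q)) (q : Kbar) ≠ 0 := by
      rw [Ne, map_eq_zero]; exact hq0
    rw [map_inv₀, map_mul]
    field_simp
  rw [e]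
  exact (V2 A q M a b hab hq).mul_mem _ _ hcq2 hm

end Disc

/-! ### The constant `q` and the modular unit -/

section Unit

variable (A : ValuationSubring Kbar) (q M : ℕ) [NeZero (M * q)] [NeZero q]
  (a b : ℤ) (hab : a * q + b * M = 1) (hq : q.Prime) (hd : q ∣ M * q)

omit [NeZero q] in
theorem q_mem_V1 : algebraMap Kbar (FN (M * q)) (q : Kbar) ∈ V1 A q M :=
  (const_mem1 A q M _).2 (natCast_mem A q)

omit [NeZero q] in
/-- `q` is in the maximal ideal of the Gauss valuation. -/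
theorem red1_q (hA : A.LiesOverPrime q)
    (h : algebraMap Kbar (FN (M * q)) (q : Kbar) ∈ V1 A q M) : red1 A q M ⟨_, h⟩ = 0 := by
  have hqA : (q : Kbar) ∈ A := natCast_mem A q
  rw [red1_const A q M ⟨(q : Kbar), hqA⟩ h]
  have h0 : resV A ⟨(q : Kbar), hqA⟩ = 0 := by
    have e : (⟨(q : Kbar), hqA⟩ : ↥A) = ((q : ℕ) : ↥A) := Subtype.ext (by simp)
    rw [e, map_natCast, ← map_natCast (IsLocalRing.residue A),
      IsLocalRing.residue_eq_zero_iff, ← ValuationSubring.coe_mem_nonunits_iff]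
    have h' : (((q : ℕ) : A) : Kbar) = ((q : ℕ) : Kbar) := by push_cast; rfl
    rw [h']
    exact hA
  rw [h0, map_zero]

omit [NeZero q] in
theorem q_mem_fix : algebraMap Kbar (FN (M * q)) (q : Kbar)
    ∈ H15.fixF (M * q) (inertiaI A) :=
  H15.const_mem_fixF (M * q) (fun σ _ => map_natCast σ q)

/-- The modular unit is fixed by the Galois group. -/
theorem unit_fixed (σ : GalQ) :
    galF (M * q) σ • Fermat.Agent.BAD.H30.unitF (M * q) q hd
      = Fermat.Agent.BAD.H30.unitF (M * q) q hd := by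
  apply Subtype.ext
  show coeffMap ((σ : Kbar ≃ₐ[ℚ] Kbar) : Kbar →+* Kbar)
      (coeffEmb Kbar (modularUnitSeries q))
    = coeffEmb Kbar (modularUnitSeries q)
  exact coeffMap_coeffEmb σ _

/-- **UNIT-W**, used: `w_q (U / q ^ 12) = U⁻¹`. -/
theorem wq_unit_div :
    wq q M a b hab hq (Fermat.Agent.BAD.H30.unitF (M * q) q hd
        / algebraMap Kbar (FN (M * q)) (q : Kbar) ^ 12)
      = (Fermat.Agent.BAD.H30.unitF (M * q) q hd)⁻¹ := by
  have hq0 : algebraMap Kbar (FN (M * q)) (q : Kbar) ≠ 0 := by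
    rw [Ne, map_eq_zero_iff _ (algebraMap Kbar (FN (M * q))).injective]
    exact_mod_cast hq.ne_zero
  rw [map_div₀, map_pow, AlgEquiv.commutes, Fermat.Agent.BAD.H21.wq_unitF q M a b hab hq hd,
    map_pow]
  field_simp

/-- `U⁻¹` is Gauss integral with non-zero reduction. -/
theorem unit_inv_mem :
    ∃ h : (Fermat.Agent.BAD.H30.unitF (M * q) q hd)⁻¹ ∈ V1 A q M, red1 A q M ⟨_, h⟩ ≠ 0 := by
  obtain ⟨h, hr⟩ := H82.inv_mem_gaussV (M * q) A
    ⟨Fermat.Agent.BAD.H30.unitF (M * q) q hd,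
      Fermat.Agent.BAD.H30.unitF_mem_gaussV A (M * q) q hd⟩
    (Fermat.Agent.BAD.H30.gaussRes_unitF_ne_zero A (M * q) q hd)
  refine ⟨h, ?_⟩
  have h1 : red1 A q M ⟨_, h⟩ = (gaussRes A (M * q) ⟨Fermat.Agent.BAD.H30.unitF (M * q) q hd,
      Fermat.Agent.BAD.H30.unitF_mem_gaussV A (M * q) q hd⟩)⁻¹ := hr
  rw [h1]
  exact inv_ne_zero (Fermat.Agent.BAD.H30.gaussRes_unitF_ne_zero A (M * q) q hd)

/-- `U / q ^ 12` is a unit of the second valuation. -/
theorem unit_div_mem_V2 :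
    ∃ h : Fermat.Agent.BAD.H30.unitF (M * q) q hd
        / algebraMap Kbar (FN (M * q)) (q : Kbar) ^ 12 ∈ V2 A q M a b hab hq,
      red2 A q M a b hab hq ⟨_, h⟩ ≠ 0 := by
  obtain ⟨h, hr⟩ := _root_.Fermat.Agent.BADP.H21.unit_inv_mem A q M hd
  have e := _root_.Fermat.Agent.BADP.H21.wq_unit_div q M a b hab hq hd
  have hm : Fermat.Agent.BAD.H30.unitF (M * q) q hd
      / algebraMap Kbar (FN (M * q)) (q : Kbar) ^ 12 ∈ V2 A q M a b hab hq := by
    rw [mem_V2_iff, e]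
    exact h
  refine ⟨hm, ?_⟩
  rw [red2_mk]
  have e2 : (⟨wq q M a b hab hq (Fermat.Agent.BAD.H30.unitF (M * q) q hd
      / algebraMap Kbar (FN (M * q)) (q : Kbar) ^ 12), hm⟩ : ↥(V1 A q M))
      = ⟨(Fermat.Agent.BAD.H30.unitF (M * q) q hd)⁻¹, h⟩ := Subtype.ext e
  rw [e2]
  exact hr

end Unit

section Core

variable (A : ValuationSubring Kbar) (q M : ℕ) (a b : ℤ) (hab : a * q + b * M = 1)
  (hq : q.Prime) [NeZero M] [NeZero (M * q)] [NeZero q] (hA : A.LiesOverPrime q)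
  (hqM : ¬ q ∣ M) (ht : TameAt M q)
  (htot : ∀ (u₁ : ↥(V1 A q M)) (u₂ : ↥(V2 A q M a b hab hq)), red1 A q M u₁ ≠ 0 →
    red2 A q M a b hab hq u₂ ≠ 0 →
    (∃ c : Kbar, (u₂ : FN (M * q)) = algebraMap Kbar (FN (M * q)) c * (u₁ : FN (M * q))) →
    ∀ D : Divisor Kbar (FN (M * q)), (∀ P, D P = P.ord (u₁ : FN (M * q))) →
      ∀ z : Place (kV A) (F1 A q M),
        Finsupp.mapDomain (rhoF1 a b hab hq hA hqM ht) D z
          = z.ord (red1 A q M u₁)
            + (H73.betaF1 A q M hq hA M (H82.redField_eq_fullC q M a b hab hq A hA) z).ord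
                (red2 A q M a b hab hq u₂))

/-- The modular total conservation datum of level `M q` at `A` (helper91's `modT` with
`β = betaF1`). -/
abbrev mT : H79.TotData Kbar (FN (M * q)) (kV A) (F1 A q M) (F1 A q M) :=
  modT a b hab hq hA hqM ht
    (H73.betaF1 A q M hq hA M (H82.redField_eq_fullC q M a b hab hq A hA)) htot

omit [NeZero M] [NeZero q] in
theorem ffL : RED.H17.FFHyp Kbar (FN (M * q)) :=
  RED.H17.ffHyp_of_isFF _ _ (H95.stmt_HKA_isFF (M * q))

include hab hq hA hqM ht in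
theorem ff1 : RED.H17.FFHyp (kV A) (F1 A q M) :=
  haveI : IsAlgClosed (kV A) := isAlgClosed_kV A
  RED.H17.ffHyp_of_isFF _ _ (isFF_F1 a b hab hq hA hqM ht)

/-- The nodes of NUM, the genus inequality. -/
theorem exists_nodes_num :
    ∃ (g g₁ : ℕ) (c c₁ : ℤ) (Z : Finset (Place (kV A) (F1 A q M))),
      RED.H17.IsGenus Kbar (FN (M * q)) g c ∧ RED.H17.IsGenus (kV A) (F1 A q M) g₁ c₁ ∧
      Z.Nonempty ∧ (∀ z ∈ Z, (mT A q M a b hab hq hA hqM ht htot).IsNode z) ∧
      g + 1 ≤ g₁ + g₁ + Z.card := by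
  haveI : IsAlgClosed (kV A) := isAlgClosed_kV A
  have hFFL : IsFF Kbar ↥(FNbar (M * q)) := H95.stmt_HKA_isFF (M * q)
  have hFF1 : IsFF (kV A) (F1 A q M) := isFF_F1 a b hab hq hA hqM ht
  obtain ⟨g, c, hg⟩ := RED.H17.exists_isGenus _ _ hFFL
  obtain ⟨g₁, c₁, hg₁⟩ := RED.H17.exists_isGenus _ _ hFF1
  have hg₁' : RED.H17.IsGenus (kV A) ↥(H91.redM A M) g₁ c₁ :=
    isGenus_congr (H82.redField_eq_redField q M a b hab hq A hA) hg₁
  obtain ⟨Z, hZne, hZc, hZo, hnum⟩ :=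
    Fermat.Agent.BAD.H30.num_final_tame M q hq ht hqM A hA (Dvd.intro_left M rfl)
  refine ⟨g, g₁, c, c₁, Z.map (kappa A q M a b hab hq hA).symm.toEmbedding, hg, hg₁,
    hZne.map, ?_, ?_⟩
  · intro z hz
    obtain ⟨z₀, hz₀, rfl⟩ := Finset.mem_map.mp hz
    exact isNode_modT a b hab hq hA hqM ht _ htot _ z₀ (hZc z₀ hz₀) (hZo z₀ hz₀)
  · rw [Finset.card_map]
    exact Fermat.Agent.BAD.H17.genus_ineq hq hqM ht hA hg hg₁' Z.card hnum

theorem exists_node : ∃ z, (mT A q M a b hab hq hA hqM ht htot).IsNode z := by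
  obtain ⟨-, -, -, -, Z, -, -, ⟨z, hz⟩, hZ, -⟩ := exists_nodes_num A q M a b hab hq hA hqM ht htot
  exact ⟨z, hZ z hz⟩

/-- **The modular semistable Deuring datum** of level `M q` at `A`. -/
def modS : SSD Kbar (FN (M * q)) (kV A) (F1 A q M) (F1 A q M) :=
  haveI : IsAlgClosed (kV A) := isAlgClosed_kV A
  (mT A q M a b hab hq hA hqM ht htot).toSSD (ffL q M).principal (ffL q M).deg_one
    (ff1 A q M a b hab hq hA hqM ht).principal (ff1 A q M a b hab hq hA hqM ht).deg_one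
    (ff1 A q M a b hab hq hA hqM ht).deg_one (exists_node A q M a b hab hq hA hqM ht htot)

/-- **CUSP** (hypothesis; helper69): the poles of `j~` are not nodes. -/
def CuspHyp : Prop :=
  ∀ z₀ : Place (kV A) ↥(H91.redM A M), z₀.ord (jRed A M) < 0 →
    ¬ (mT A q M a b hab hq hA hqM ht htot).IsNode ((kappa A q M a b hab hq hA).symm z₀)

/-- **ARITH-0** (hypothesis; helper11): the `K₀`-rational part of a function. -/
def Arith0Hyp : Prop :=
  ∀ g : FN (M * q), ∃ g0 : FN (M * q), g0 ∈ H15.fixF (M * q) (inertiaI A) ∧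
    (∀ h : g ∈ V1 A q M, ∃ h0 : g0 ∈ V1 A q M, red1 A q M ⟨g0, h0⟩ = red1 A q M ⟨g, h⟩) ∧
    (∀ h : g ∈ V2 A q M a b hab hq, ∃ h0 : g0 ∈ V2 A q M a b hab hq,
      red2 A q M a b hab hq ⟨g0, h0⟩ = red2 A q M a b hab hq ⟨g, h⟩) ∧
    ∀ P : Place Kbar (FN (M * q)), P.ord g0 < 0 →
      ∃ σ ∈ A.inertiaSubgroupIn ℚ, (galF (M * q) σ • P).ord g < 0

/-! ### Basic identifications -/

theorem modS_mem₁ (f : FN (M * q)) :
    f ∈ (modS A q M a b hab hq hA hqM ht htot).c₁.V ↔ f ∈ V1 A q M := Iff.rfl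

theorem modS_mem₂ (f : FN (M * q)) :
    f ∈ (modS A q M a b hab hq hA hqM ht htot).c₂.V ↔ f ∈ V2 A q M a b hab hq := Iff.rfl

theorem modS_rd₁ {f : FN (M * q)} (h : f ∈ V1 A q M) :
    (modS A q M a b hab hq hA hqM ht htot).c₁.rd f = red1 A q M ⟨f, h⟩ :=
  (modS A q M a b hab hq hA hqM ht htot).c₁.rd_of_mem h

theorem modS_rd₂ {f : FN (M * q)} (h : f ∈ V2 A q M a b hab hq) :
    (modS A q M a b hab hq hA hqM ht htot).c₂.rd f = red2 A q M a b hab hq ⟨f, h⟩ :=
  (modS A q M a b hab hq hA hqM ht htot).c₂.rd_of_mem h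

theorem modS_r₁ (P : Place Kbar (FN (M * q))) :
    (modS A q M a b hab hq hA hqM ht htot).c₁.r P
      = (mT A q M a b hab hq hA hqM ht htot).r₁ P := rfl

theorem modS_mem_nodes {s : Place (kV A) (F1 A q M) × Place (kV A) (F1 A q M)} :
    s ∈ (modS A q M a b hab hq hA hqM ht htot).nodes ↔
      (mT A q M a b hab hq hA hqM ht htot).IsNode s.1 ∧
        s.2 = (mT A q M a b hab hq hA hqM ht htot).β s.1 :=
  haveI : IsAlgClosed (kV A) := isAlgClosed_kV A
  H79.TotData.mem_nodes (ffL q M).principal (ff1 A q M a b hab hq hA hqM ht).principal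

/-- The inertia group acts inertially on the modular datum. -/
theorem modS_inertial {σ : GalQ} (hσ : σ ∈ A.inertiaSubgroupIn ℚ) :
    (modS A q M a b hab hq hA hqM ht htot).IsInertial (galF (M * q) σ) :=
  haveI : IsAlgClosed (kV A) := isAlgClosed_kV A
  (inert_totDataOf A q M a b hab hq hA _ _ htot (hunif_mod a b hab hq hA hqM ht) hσ
    (fun P => rhoF1_inertia a b hab hq hA hqM ht hσ P)).isInertial (ffL q M).principal
    (ffL q M).deg_one (ff1 A q M a b hab hq hA hqM ht).principal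
    (ff1 A q M a b hab hq hA hqM ht).deg_one (ff1 A q M a b hab hq hA hqM ht).deg_one
    (exists_node A q M a b hab hq hA hqM ht htot)

/-- The genus inequality for the modular datum. -/
theorem modS_genus :
    ∃ (g g₁ : ℕ) (c c₁ : ℤ), RED.H17.IsGenus Kbar (FN (M * q)) g c ∧
      RED.H17.IsGenus (kV A) (F1 A q M) g₁ c₁ ∧
      g + 1 ≤ g₁ + g₁ + (modS A q M a b hab hq hA hqM ht htot).nodes.card := by
  haveI : IsAlgClosed (kV A) := isAlgClosed_kV A
  obtain ⟨g, g₁, c, c₁, Z, hg, hg₁, -, hZ, hnum⟩ :=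
    exists_nodes_num A q M a b hab hq hA hqM ht htot
  refine ⟨g, g₁, c, c₁, hg, hg₁, ?_⟩
  have h1 := (mT A q M a b hab hq hA hqM ht htot).card_le_toSSD_nodes (ffL q M).principal
    (ffL q M).deg_one (ff1 A q M a b hab hq hA hqM ht).principal
    (ff1 A q M a b hab hq hA hqM ht).deg_one (ff1 A q M a b hab hq hA hqM ht).deg_one
    (exists_node A q M a b hab hq hA hqM ht htot) Z hZ
  have h2 : Z.card ≤ (modS A q M a b hab hq hA hqM ht htot).nodes.card := h1
  omega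

/-! ### The cusps, the modular unit on the fibres -/

omit [NeZero q] in
/-- The two versions of `j~` (levels `M q` and `M`) have the same `q`-expansion. -/
theorem coe_jRed_eq :
    ((jRed A (M * q) : F1 A q M) : LaurentSeries (kV A))
      = ((jRed A M : ↥(H91.redM A M)) : LaurentSeries (kV A)) :=
  (red_jF A (M * q)).trans (red_jF A M).symm

omit [NeZero q] in
theorem kappa_ord_jRed (z : Place (kV A) (F1 A q M)) :
    (kappa A q M a b hab hq hA z).ord (jRed A M) = z.ord (jRed A (M * q) : F1 A q M) :=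
  kappa_ord A q M a b hab hq hA z _ _ (coe_jRed_eq A q M)

/-- **CUSP**, in terms of the places of `F₁`: a pole of `j~` is not a node. -/
theorem cusp_not_node (hCusp : CuspHyp A q M a b hab hq hA hqM ht htot)
    {z : Place (kV A) (F1 A q M)} (hz : z.ord (jRed A (M * q) : F1 A q M) < 0) :
    ¬ (mT A q M a b hab hq hA hqM ht htot).IsNode z := by
  have h1 := hCusp (kappa A q M a b hab hq hA z)
    (by rw [kappa_ord_jRed]; exact hz)
  rwa [Equiv.symm_apply_apply] at h1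

/-- `j~` is regular at the nodes. -/
theorem ord_jRed_nonneg_of_isNode (hCusp : CuspHyp A q M a b hab hq hA hqM ht htot)
    {z : Place (kV A) (F1 A q M)} (hz : (mT A q M a b hab hq hA hqM ht htot).IsNode z) :
    0 ≤ z.ord (jRed A (M * q) : F1 A q M) := by
  by_contra h
  exact cusp_not_node A q M a b hab hq hA hqM ht htot hCusp (not_le.mp h) hz

omit htot in
/-- The modular unit has neither zero nor pole on the fibre of a place at which `j~` is
regular. -/
theorem ord_unitF_eq_zero_of_fibre (hd : q ∣ M * q) {z : Place (kV A) (F1 A q M)}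
    (hz : 0 ≤ z.ord (jRed A (M * q) : F1 A q M))
    {P : Place Kbar (FN (M * q))} (hP : rhoF1 a b hab hq hA hqM ht P = z) :
    P.ord (Fermat.Agent.BAD.H30.unitF (M * q) q hd) = 0 := by
  apply ord_unitF_eq_zero_of_rhoM hq hqM ht hA hd P
  rw [← kappa_rhoF1 a b hab hq hA hqM ht P, hP, kappa_ord_jRed]
  exact hz

theorem modS_fibre {z : Place (kV A) (F1 A q M)} {P : Place Kbar (FN (M * q))}
    (hP : (modS A q M a b hab hq hA hqM ht htot).c₁.r P = some z) :
    rhoF1 a b hab hq hA hqM ht P = z :=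
  ((mT A q M a b hab hq hA hqM ht htot).r₁_eq_some_iff.mp hP).1

/-- The cusps are good places of the first component. -/
theorem modS_cusp_good (hCusp : CuspHyp A q M a b hab hq hA hqM ht htot)
    {z : Place (kV A) (F1 A q M)} (hz : z.ord (jRed A (M * q) : F1 A q M) < 0) :
    z ∈ (modS A q M a b hab hq hA hqM ht htot).c₁.good := by
  rw [(modS A q M a b hab hq hA hqM ht htot).good₁]
  intro s hs hsz
  have h1 := ((modS_mem_nodes A q M a b hab hq hA hqM ht htot).mp hs).1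
  rw [hsz] at h1
  exact cusp_not_node A q M a b hab hq hA hqM ht htot hCusp hz h1

/-! ### The hypotheses of the abstract COORD -/

/-- **UNIT** at a node. -/
theorem modS_unit (hCusp : CuspHyp A q M a b hab hq hA hqM ht htot) (hd : q ∣ M * q)
    {s : Place (kV A) (F1 A q M) × Place (kV A) (F1 A q M)}
    (hs : s ∈ (modS A q M a b hab hq hA hqM ht htot).nodes) :
    (modS A q M a b hab hq hA hqM ht htot).c₁.IsGU (Fermat.Agent.BAD.H30.unitF (M * q) q hd) ∧
    ZeroFree (modS A q M a b hab hq hA hqM ht htot) s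
      (Fermat.Agent.BAD.H30.unitF (M * q) q hd) ∧
    (modS A q M a b hab hq hA hqM ht htot).c₂.IsGU
      (Fermat.Agent.BAD.H30.unitF (M * q) q hd / algebraMap Kbar (FN (M * q)) (q : Kbar) ^ 12) ∧
    0 < s.1.ord ((modS A q M a b hab hq hA hqM ht htot).c₁.rd
      (Fermat.Agent.BAD.H30.unitF (M * q) q hd)) := by
  have hnode := ((modS_mem_nodes A q M a b hab hq hA hqM ht htot).mp hs).1
  have hU1 : Fermat.Agent.BAD.H30.unitF (M * q) q hd ∈ V1 A q M :=
    Fermat.Agent.BAD.H30.unitF_mem_gaussV A (M * q) q hd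
  have hU : (modS A q M a b hab hq hA hqM ht htot).c₁.IsGU
      (Fermat.Agent.BAD.H30.unitF (M * q) q hd) := by
    refine ⟨hU1, ?_⟩
    rw [modS_rd₁ A q M a b hab hq hA hqM ht htot hU1]
    exact Fermat.Agent.BAD.H30.gaussRes_unitF_ne_zero A (M * q) q hd
  have hUzf : ZeroFree (modS A q M a b hab hq hA hqM ht htot) s
      (Fermat.Agent.BAD.H30.unitF (M * q) q hd) := fun P hP =>
    _root_.Fermat.Agent.BADP.H21.ord_unitF_eq_zero_of_fibre A q M a b hab hq hA hqM ht hd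
      (_root_.Fermat.Agent.BADP.H21.ord_jRed_nonneg_of_isNode A q M a b hab hq hA hqM ht htot hCusp hnode)
      (modS_fibre A q M a b hab hq hA hqM ht htot hP)
  obtain ⟨hU2m, hU2r⟩ := _root_.Fermat.Agent.BADP.H21.unit_div_mem_V2 A q M a b hab hq hd
  have hU₂ : (modS A q M a b hab hq hA hqM ht htot).c₂.IsGU
      (Fermat.Agent.BAD.H30.unitF (M * q) q hd
        / algebraMap Kbar (FN (M * q)) (q : Kbar) ^ 12) := by
    refine ⟨hU2m, ?_⟩
    rw [modS_rd₂ A q M a b hab hq hA hqM ht htot hU2m]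
    exact hU2r
  refine ⟨hU, hUzf, hU₂, ?_⟩
  -- `U = (U / q ^ 12) q ^ 12` is in the maximal ideal of `V₂`
  have hqV : algebraMap Kbar (FN (M * q)) (q : Kbar)
      ∈ (modS A q M a b hab hq hA hqM ht htot).c₁.V := q_mem_V1 A q M
  have hq0 : (modS A q M a b hab hq hA hqM ht htot).c₁.rd
      (algebraMap Kbar (FN (M * q)) (q : Kbar)) = 0 := by
    rw [modS_rd₁ A q M a b hab hq hA hqM ht htot (q_mem_V1 A q M)]
    exact red1_q A q M hA _
  obtain ⟨hq12, hq12r⟩ := rd₂_pow_unif hqV hq0 (d := 12) (by norm_num)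
  have hqne : algebraMap Kbar (FN (M * q)) (q : Kbar) ^ 12 ≠ 0 := by
    apply pow_ne_zero
    rw [Ne, map_eq_zero_iff _ (algebraMap Kbar (FN (M * q))).injective]
    exact_mod_cast hq.ne_zero
  have e : Fermat.Agent.BAD.H30.unitF (M * q) q hd
      = Fermat.Agent.BAD.H30.unitF (M * q) q hd / algebraMap Kbar (FN (M * q)) (q : Kbar) ^ 12
        * algebraMap Kbar (FN (M * q)) (q : Kbar) ^ 12 := by
    rw [div_mul_cancel₀ _ hqne]
  have hUV2 : Fermat.Agent.BAD.H30.unitF (M * q) q hd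
      ∈ (modS A q M a b hab hq hA hqM ht htot).c₂.V := by
    rw [e]
    exact ((modS A q M a b hab hq hA hqM ht htot).c₂.V).mul_mem _ _ hU₂.1 hq12
  have hUr2 : (modS A q M a b hab hq hA hqM ht htot).c₂.rd
      (Fermat.Agent.BAD.H30.unitF (M * q) q hd) = 0 := by
    rw [e, (modS A q M a b hab hq hA hqM ht htot).c₂.rd_mul hU₂.1 hq12, hq12r, mul_zero]
  have hvan := vanAt₁_of_rd₂_eq_zero hs hU.1 hUV2 hUr2 hUzf.poleFree
  rw [RED.H17.vanAt_iff_ord] at hvan
  rcases hvan with h0 | hpos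
  · exact absurd h0 hU.2
  · exact hpos

/-- **(K0)** at the node `s`, the form consumed by the abstract COORD: every function integral
for both valuations without pole on the fibre of `s` has an inertia-fixed companion with the same
reductions and without pole on the fibre of `s`. -/
def K0At (s : Place (kV A) (F1 A q M) × Place (kV A) (F1 A q M)) : Prop :=
  ∀ u : FN (M * q), u ∈ (modS A q M a b hab hq hA hqM ht htot).c₁.V →
    u ∈ (modS A q M a b hab hq hA hqM ht htot).c₂.V →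
    PoleFree (modS A q M a b hab hq hA hqM ht htot) s u →
    ∃ u0 ∈ H15.fixF (M * q) (inertiaI A),
      u0 ∈ (modS A q M a b hab hq hA hqM ht htot).c₁.V ∧
      u0 ∈ (modS A q M a b hab hq hA hqM ht htot).c₂.V ∧
      (modS A q M a b hab hq hA hqM ht htot).c₁.rd u0
        = (modS A q M a b hab hq hA hqM ht htot).c₁.rd u ∧
      (modS A q M a b hab hq hA hqM ht htot).c₂.rd u0
        = (modS A q M a b hab hq hA hqM ht htot).c₂.rd u ∧
      PoleFree (modS A q M a b hab hq hA hqM ht htot) s u0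

/-- (K0) at every node from ARITH-0. -/
theorem k0At_of_arith0 (hK0 : Arith0Hyp A q M a b hab hq)
    (s : Place (kV A) (F1 A q M) × Place (kV A) (F1 A q M)) :
    K0At A q M a b hab hq hA hqM ht htot s := by
  intro u hu1 hu2 hpf
  obtain ⟨g0, hfix, h1, h2, hpole⟩ := hK0 u
  obtain ⟨h01, hr1⟩ := h1 hu1
  obtain ⟨h02, hr2⟩ := h2 hu2
  refine ⟨g0, hfix, h01, h02, ?_, ?_, ?_⟩
  · rw [modS_rd₁ A q M a b hab hq hA hqM ht htot h01,
      modS_rd₁ A q M a b hab hq hA hqM ht htot hu1]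
    exact hr1
  · rw [modS_rd₂ A q M a b hab hq hA hqM ht htot h02,
      modS_rd₂ A q M a b hab hq hA hqM ht htot hu2]
    exact hr2
  · intro P hP
    by_contra hneg
    obtain ⟨σ, hσ, hσP⟩ := hpole P (not_le.mp hneg)
    have h3 := hpf (galF (M * q) σ • P) (by
      rw [(modS_inertial A q M a b hab hq hA hqM ht htot hσ).r₁]
      exact hP)
    omega

/-- **COORD** at a node of the modular datum, from (K0) at the node: an inertia-fixed annulus
coordinate of thickness `q ^ n`, `n ∣ 12`. -/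
theorem coord_modS_core (hCusp : CuspHyp A q M a b hab hq hA hqM ht htot)
    {s : Place (kV A) (F1 A q M) × Place (kV A) (F1 A q M)}
    (hs : s ∈ (modS A q M a b hab hq hA hqM ht htot).nodes)
    (hK0' : K0At A q M a b hab hq hA hqM ht htot s) :
    ∃ t ∈ H15.fixF (M * q) (inertiaI A), ∃ n : ℕ, 0 < n ∧ n ∣ 12 ∧
      (modS A q M a b hab hq hA hqM ht htot).IsAnnCoord s t ((q : Kbar) ^ n) := by
  haveI : IsAlgClosed (kV A) := isAlgClosed_kV A
  have hd : q ∣ M * q := Dvd.intro_left M rfl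
  obtain ⟨g, g₁, c, c₁, hg, hg₁, hnum⟩ := modS_genus A q M a b hab hq hA hqM ht htot
  obtain ⟨hU, hUzf, hU₂, hpos⟩ := modS_unit A q M a b hab hq hA hqM ht htot hCusp hd hs
  obtain ⟨a', ha'⟩ : ∃ a' : ℕ, s.1.ord ((modS A q M a b hab hq hA hqM ht htot).c₁.rd
      (Fermat.Agent.BAD.H30.unitF (M * q) q hd)) = a' :=
    ⟨_, (Int.toNat_of_nonneg hpos.le).symm⟩
  have ha0 : 0 < a' := by
    rw [ha'] at hpos
    exact_mod_cast hpos
  have hq0 : (q : Kbar) ≠ 0 := Nat.cast_ne_zero.2 hq.ne_zero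
  have hqV : algebraMap Kbar (FN (M * q)) (q : Kbar)
      ∈ (modS A q M a b hab hq hA hqM ht htot).c₁.V := q_mem_V1 A q M
  have hqr : (modS A q M a b hab hq hA hqM ht htot).c₁.rd
      (algebraMap Kbar (FN (M * q)) (q : Kbar)) = 0 := by
    rw [modS_rd₁ A q M a b hab hq hA hqM ht htot (q_mem_V1 A q M)]
    exact red1_q A q M hA _
  have hdisc : ∀ f ∈ H15.fixF (M * q) (inertiaI A),
      f ∈ (modS A q M a b hab hq hA hqM ht htot).c₂.V →
      (modS A q M a b hab hq hA hqM ht htot).c₂.rd f = 0 →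
      f / algebraMap Kbar (FN (M * q)) (q : Kbar)
        ∈ (modS A q M a b hab hq hA hqM ht htot).c₂.V := by
    intro f hf h h0
    refine disc_fix A q M a b hab hq hA hf h ?_
    rw [← modS_rd₂ A q M a b hab hq hA hqM ht htot h]
    exact h0
  obtain ⟨t, htF, n, hn, hcoord, hna⟩ :=
    exists_isAnnCoord_of_goodLift (modS A q M a b hab hq hA hqM ht htot) (ffL q M)
      (ff1 A q M a b hab hq hA hqM ht) (ff1 A q M a b hab hq hA hqM ht) hg hg₁ hg₁ hnum hs
      hq0 hqV hqr (H15.fixF (M * q) (inertiaI A)) (q_mem_fix A q M) hK0' hdisc hU hUzf hU₂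
      ha0 ha'
  exact ⟨t, htF, n, hn, Dvd.intro _ hna, hcoord⟩

/-- **COORD** at a node of the modular datum, from ARITH-0: an inertia-fixed annulus coordinate
of thickness `q ^ n`, `n ∣ 12`. -/
theorem coord_modS (hCusp : CuspHyp A q M a b hab hq hA hqM ht htot)
    (hK0 : Arith0Hyp A q M a b hab hq)
    {s : Place (kV A) (F1 A q M) × Place (kV A) (F1 A q M)}
    (hs : s ∈ (modS A q M a b hab hq hA hqM ht htot).nodes) :
    ∃ t ∈ H15.fixF (M * q) (inertiaI A), ∃ n : ℕ, 0 < n ∧ n ∣ 12 ∧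
      (modS A q M a b hab hq hA hqM ht htot).IsAnnCoord s t ((q : Kbar) ^ n) :=
  coord_modS_core A q M a b hab hq hA hqM ht htot hCusp hs
    (k0At_of_arith0 A q M a b hab hq hA hqM ht htot hK0 s)

end Core

end Fermat.Agent.BADP.H21

end
end
-- ==== END Fermat.Agent.BADP.H21_Coord

-- ==== BEGIN Fermat.Agent.GTor.H81_TateCoordsSpec
section

/-!
# G-TOR: the coordinatised Tate system with its Betti characterisation  (helper81)

`tateCoords_of` forgets how the coordinates `θ k` are made.  Here the same construction is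
repeated with the embedding `ι : ℚ̄ → ℂ` and the parabolic basis `b` as PARAMETERS and with the
characterisation of `θ` kept:

* `exists_tateCoords_spec N p S hp hNS ι hb` : there is `C : TateCoords N p S` with `C.r = r`
  such that for all `k` and `x ∈ J₀(N)[p ^ k]` the homomorphism with coordinate vector `C.θ k x`
  in the basis `b` is THE Betti character of `x` (`TorChar N (p ^ k) ι x _`), and such that the
  Hecke matrices `C.M` are the matrices of the Betti operators `TB`, `UB` in the basis `b`;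
* `eq_zero_of_torChar_zero` : a class with Betti character `0` is `0`;
* `torChar_unique` : the Betti character of a torsion class is unique;
* `exists_tateCoords_spec'` : the same with `r`, `b` existentially quantified.

Consumers: PIVOT PV-GEOM (`PushCoords`, helper50; PVG-B2, helper24).
-/

set_option autoImplicit false

noncomputable section

namespace Fermat.Agent.GTor.H81

open AlgebraicCurve ModularCurve Fermat.Agent.GTor Fermat.Agent.Betti
open scoped MatrixGroups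

/-- A class which has a Betti character is a torsion class. -/
theorem mem_Jtor_of_torChar {N n : ℕ} [NeZero N] {ι : AlgebraicClosure ℚ →+* ℂ} {x : JZero N}
    {φ : Additive (CongruenceSubgroup.Gamma0 N) →+ ZMod n} (h : TorChar N n ι x φ) :
    x ∈ Jtor N n := by
  obtain ⟨D, f, f', hf0, hx, hdiv, -, -⟩ := h
  show n • x = 0
  rw [hx]
  show Pic0.mk (n • D) = 0
  rw [Fermat.Agent.GTor.H33.mk_eq_zero_iff]
  refine ⟨f, hf0, fun v => ?_⟩
  rw [← hdiv v]
  simp

/-- The Betti character of a torsion class is unique. -/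
theorem torChar_unique {N n : ℕ} [NeZero N] (hn : n ≠ 0) {ι : AlgebraicClosure ℚ →+* ℂ}
    {x : JZero N} {φ ψ : Additive (CongruenceSubgroup.Gamma0 N) →+ ZMod n}
    (hφ : TorChar N n ι x φ) (hψ : TorChar N n ι x ψ) : φ = ψ := by
  obtain ⟨e, -, h2⟩ := stmt_TORc_uncond N n hn ι
  have hx : x ∈ Jtor N n := mem_Jtor_of_torChar hφ
  rw [h2 ⟨x, hx⟩ φ hφ, h2 ⟨x, hx⟩ ψ hψ]

/-- A class with Betti character `0` is `0`. -/
theorem eq_zero_of_torChar_zero {N n : ℕ} [NeZero N] (hn : n ≠ 0)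
    {ι : AlgebraicClosure ℚ →+* ℂ} {x : JZero N} (h : TorChar N n ι x 0) : x = 0 := by
  obtain ⟨e, h1, h2⟩ := stmt_TORc_uncond N n hn ι
  have hx : x ∈ Jtor N n := mem_Jtor_of_torChar h
  have h3 := h2 ⟨x, hx⟩ 0 h
  have h4 := h1 0
  have h5 := h2 0 _ h4
  have h6 : (e ⟨x, hx⟩ : Additive (CongruenceSubgroup.Gamma0 N) →+ ZMod n)
      = (e 0 : Additive (CongruenceSubgroup.Gamma0 N) →+ ZMod n) := by
    rw [← h3]
    have h7 := h2 0 0 ?_
    · exact h7
    · have := h1 0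
      rw [map_zero] at this
      exact this
  have h8 : e ⟨x, hx⟩ = e 0 := Subtype.ext h6
  have h9 := e.injective h8
  exact congrArg (fun y : Jtor N n => (y : JZero N)) h9

/-- **The coordinatised Tate system with its Betti characterisation**, for a given embedding
`ι` and a given parabolic basis `b`. -/
theorem exists_tateCoords_spec (N p : ℕ) [NeZero N] (S : Set ℕ) (hp : p.Prime)
    (hNS : ∀ q : ℕ, q.Prime → q ∣ N → q ∈ S) (ι : AlgebraicClosure ℚ →+* ℂ)
    {r : ℕ} {b : Fin r → (Additive (CongruenceSubgroup.Gamma0 N) →+ ℤ)} (hb : IsParBasis N b) :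
    ∃ (C : TateCoords N p S) (hr : C.r = r),
      (∀ (k : ℕ) (x : Jtor N (p ^ k)),
        TorChar N (p ^ k) ι (x : JZero N)
          (coordFun b (p ^ k) (fun i => C.θ k x (Fin.cast hr.symm i)))) ∧
      (∀ (ℓ : ℕ) (hℓ : ℓ.Prime) (hℓN : ¬ ℓ ∣ N) (hℓS : ℓ ∉ S) (j : Fin r),
        TB N ℤ hℓ hℓN (b j) = ∑ i, C.M (CuspForm.heckeAlgebra.T hℓ hℓN hℓS)
          (Fin.cast hr.symm i) (Fin.cast hr.symm j) • b i) ∧
      (∀ (q : ℕ) (hq : q.Prime) (hqN : q ∣ N) (hqS : q ∉ S) (j : Fin r),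
        UB N ℤ hqN (b j) = ∑ i, C.M (CuspForm.heckeAlgebra.U hq hqN hqS)
          (Fin.cast hr.symm i) (Fin.cast hr.symm j) • b i) := by
  have hTOR : ∀ k : ℕ, Stmt_TORc N (p ^ k) :=
    fun k => stmt_TORc_uncond N (p ^ k) (pow_ne_zero k hp.ne_zero)
  have hHK : ∀ k : ℕ, Stmt_HK N (p ^ k) := fun k => H44.stmt_HK N (p ^ k)
  have hLift : Stmt_torsLift N := H77.stmt_torsLift N
  have hGH : Stmt_GalHecke N := H2.stmt_GalHecke N
  have hGAL : Stmt_GAL N := stmt_GAL N
  obtain ⟨M, hMinj, hMT, hMU⟩ := Betti.H76.stmt_matrixRep N S r b hb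
  have hE : ∀ k : ℕ, Nonempty (TorIso N (p ^ k) ι) := fun k => nonempty_torIso (hTOR k) ι
  have hn : ∀ k : ℕ, p ^ k ≠ 0 := fun k => pow_ne_zero k hp.ne_zero
  let E : ∀ k : ℕ, TorIso N (p ^ k) ι := fun k => Classical.choice (hE k)
  refine ⟨{ r := r
            ρ := fun k => rhoMat hb hLift (hn k) (E k)
            M := M
            θ := fun k => theta hb hLift (hn k) (E k)
            tate := ⟨?_, ?_, ?_, hMinj⟩
            gal := ?_
            hecke := ?_ }, rfl, ?_, ?_, ?_⟩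
  · -- compatibility
    intro k σ i j
    have h := rhoMat_compat hb hLift (hn (k + 1)) (hn k) (pow_dvd_pow p (Nat.le_succ k))
      (E (k + 1)) (E k) σ
    have h2 := congrFun (congrFun h i) j
    rw [Matrix.map_apply] at h2
    exact h2
  · -- continuity
    intro k
    exact rhoMat_cont hb hLift (hn k) (E k) hGAL
  · -- commutation with the Hecke algebra
    intro k σ t
    refine comm_of_generators S M _ hNS (fun ℓ hℓ hℓN hℓS => ?_) t
    exact rhoMat_comm_T hb hLift (hn k) (E k) hℓ hℓN (hHK k) hGH _ (hMT ℓ hℓ hℓN hℓS) σ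
  · intro k σ x
    exact (rhoMat_mulVec hb hLift (hn k) (E k) σ x).symm
  · intro k ℓ hℓ hℓN hℓS x
    exact theta_heckeTor hb hLift (hn k) (E k) hℓ hℓN (hHK k) _ (hMT ℓ hℓ hℓN hℓS) x
  · intro k x
    exact torChar_theta hb hLift (hn k) (E k) x
  · intro ℓ hℓ hℓN hℓS j
    exact hMT ℓ hℓ hℓN hℓS j
  · intro q hq hqN hqS j
    exact hMU q hq hqN hqS j

/-- The same with the basis existentially quantified. -/
theorem exists_tateCoords_spec' (N p : ℕ) [NeZero N] (S : Set ℕ) (hp : p.Prime)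
    (hNS : ∀ q : ℕ, q.Prime → q ∣ N → q ∈ S) (ι : AlgebraicClosure ℚ →+* ℂ) :
    ∃ (r : ℕ) (b : Fin r → (Additive (CongruenceSubgroup.Gamma0 N) →+ ℤ)) (_ : IsParBasis N b)
      (C : TateCoords N p S) (hr : C.r = r),
      ∀ (k : ℕ) (x : Jtor N (p ^ k)),
        TorChar N (p ^ k) ι (x : JZero N)
          (coordFun b (p ^ k) (fun i => C.θ k x (Fin.cast hr.symm i))) := by
  obtain ⟨r, b, hb⟩ := Betti.stmt_basis N
  obtain ⟨C, hr, h, -, -⟩ := exists_tateCoords_spec N p S hp hNS ι hb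
  exact ⟨r, b, hb, C, hr, h⟩

end Fermat.Agent.GTor.H81

end
end
-- ==== END Fermat.Agent.GTor.H81_TateCoordsSpec

-- ==== BEGIN Fermat.Agent.L.Pivot.Defs
section

set_option autoImplicit false

namespace Fermat.Agent.L.Pivot

open MvPowerSeries IsLocalRing

section Coord

variable (𝒪 : Type) [CommRing 𝒪] (k g : ℕ)

/-- The local ring of `k` pivot primes with `g` extra variables. -/
abbrev PRing : Type := MvPowerSeries (Fin (6 * k + g)) 𝒪

/-- The index of the `i`-th local coordinate (`i < 6`) at the `j`-th pivot prime. -/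
def cIdx (j : Fin k) (i : Fin 6) : Fin (6 * k + g) :=
  ⟨6 * j.1 + i.1, by have := j.2; have := i.2; omega⟩

/-- The index of the `a`-th extra variable. -/
def xIdx (a : Fin g) : Fin (6 * k + g) := ⟨6 * k + a.1, by have := a.2; omega⟩

variable {k}

/-- `y = Σ₁₂`. -/
noncomputable def cy (j : Fin k) : PRing 𝒪 k g := X (cIdx k g j 0)
/-- `z = Σ₂₁`. -/
noncomputable def cz (j : Fin k) : PRing 𝒪 k g := X (cIdx k g j 1)
/-- `m = Σ₁₁ − Σ₂₂`. -/
noncomputable def cm (j : Fin k) : PRing 𝒪 k g := X (cIdx k g j 2)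
/-- `v = ε Φ₁₂`. -/
noncomputable def cv (j : Fin k) : PRing 𝒪 k g := X (cIdx k g j 3)
/-- `w = ε Φ₂₁`. -/
noncomputable def cw (j : Fin k) : PRing 𝒪 k g := X (cIdx k g j 4)
/-- `s = ε (Φ₁₁ − Φ₂₂)`. -/
noncomputable def cs (j : Fin k) : PRing 𝒪 k g := X (cIdx k g j 5)

/-- `Q1 = m² + 4yz`, the discriminant of the characteristic polynomial of `Σ`. -/
noncomputable def Q1 (j : Fin k) : PRing 𝒪 k g := cm 𝒪 g j ^ 2 + 4 * cy 𝒪 g j * cz 𝒪 g j
/-- `Q2 = s² + 4vw`, the discriminant of the characteristic polynomial of `Φ`. -/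
noncomputable def Q2 (j : Fin k) : PRing 𝒪 k g := cs 𝒪 g j ^ 2 + 4 * cv 𝒪 g j * cw 𝒪 g j

/-- The three minors: they vanish iff `Σ` and `Φ` commute. -/
noncomputable def minor1 (j : Fin k) : PRing 𝒪 k g :=
  cy 𝒪 g j * cw 𝒪 g j - cz 𝒪 g j * cv 𝒪 g j
/-- Second minor. -/
noncomputable def minor2 (j : Fin k) : PRing 𝒪 k g :=
  cy 𝒪 g j * cs 𝒪 g j - cm 𝒪 g j * cv 𝒪 g j
/-- Third minor. -/
noncomputable def minor3 (j : Fin k) : PRing 𝒪 k g :=
  cz 𝒪 g j * cs 𝒪 g j - cm 𝒪 g j * cw 𝒪 g j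

/-- The coordinates of `Σ_j − 1`, `j < k`: `y_j, z_j, m_j`. -/
noncomputable def sigmaCoord (x : Fin k × Fin 3) : PRing 𝒪 k g :=
  X (cIdx k g x.1 (Fin.castLE (by norm_num) x.2))

variable (k)

/-- The unramified component `Σ_j = 1` for all `j`. -/
noncomputable def idealX : Ideal (PRing 𝒪 k g) := Ideal.span (Set.range (sigmaCoord 𝒪 (k := k) g))

variable {𝒪}

/-- The generic point of the special fibre of the unramified component. -/
noncomputable def idealQ (ϖ : 𝒪) : Ideal (PRing 𝒪 k g) :=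
  idealX 𝒪 k g ⊔ Ideal.span {C ϖ}

variable {k}

/-- `e = q₀ (Q2 − (q₀ − 1)²)` at the `j`-th pivot prime. -/
noncomputable def eElt (q₀ : Fin k → 𝒪) (j : Fin k) : PRing 𝒪 k g :=
  C (q₀ j) * (Q2 𝒪 g j - C ((q₀ j - 1) ^ 2))

/-- The relations of unipotent type that are used: `e_j • (Σ_j − 1) = 0`. -/
noncomputable def idealUnip (q₀ : Fin k → 𝒪) : Ideal (PRing 𝒪 k g) :=
  Ideal.span (Set.range fun x : Fin k × Fin 3 => eElt g q₀ x.1 * sigmaCoord 𝒪 g x)

end Coord

/-! ### PV-LOC: the statements of the local algebra -/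

/-- A point of type `δ` (`δ_j = ζ_j − ζ_j⁻¹`): `Q1 = δ²` and `Σ`, `Φ` commute, at every pivot
prime. -/
def IsTypePoint {𝒪 : Type} [CommRing 𝒪] {k : ℕ} (g : ℕ) (δ : Fin k → 𝒪)
    {D : Type} [CommRing D] [Algebra 𝒪 D] (θ : PRing 𝒪 k g →ₐ[𝒪] D) : Prop :=
  ∀ j : Fin k, θ (Q1 𝒪 g j) = algebraMap 𝒪 D (δ j ^ 2) ∧
    θ (minor1 𝒪 g j) = 0 ∧ θ (minor2 𝒪 g j) = 0 ∧ θ (minor3 𝒪 g j) = 0

/-- An ideal of `P` is a model of the type `δ` if it is killed by every point of type `δ` with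
values in a COMPLETE noetherian local domain over `𝒪` in which `𝒪` embeds. -/
def KilledByType {𝒪 : Type} [CommRing 𝒪] {k : ℕ} (g : ℕ) (δ : Fin k → 𝒪)
    (𝔞 : Ideal (PRing 𝒪 k g)) : Prop :=
  ∀ (D : Type) [CommRing D] [IsDomain D] [IsLocalRing D] [IsNoetherianRing D]
    [IsAdicComplete (maximalIdeal D) D]
    [Algebra 𝒪 D] (θ : PRing 𝒪 k g →ₐ[𝒪] D),
    Function.Injective (algebraMap 𝒪 D) →
    (∀ i, θ (X i) ∈ maximalIdeal D) →
    IsTypePoint g δ θ →
    𝔞 ≤ RingHom.ker (θ : PRing 𝒪 k g →+* D)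

/-- **PV-LOC-TYPE.**  For `δ_j ≠ 0` in the maximal ideal of `𝒪`, the ring of type `δ` is cut out
by a PRIME ideal `𝔞` of `P` of dimension `≤ 1 + 3k + g`, contained in `𝔮 = (ϖ, y_j, z_j, m_j)`,
and killed by every point of type `δ`. -/
def Stmt_PVLoc_type : Prop :=
  ∀ (𝒪 : Type) [CommRing 𝒪] [IsDomain 𝒪] [IsDiscreteValuationRing 𝒪]
    [IsAdicComplete (maximalIdeal 𝒪) 𝒪] (k g : ℕ) (ϖ : 𝒪) (δ : Fin k → 𝒪),
    IsUnit (2 : 𝒪) → maximalIdeal 𝒪 = Ideal.span {ϖ} →
    (∀ j, δ j ≠ 0) → (∀ j, δ j ∈ maximalIdeal 𝒪) →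
    ∃ 𝔞 : Ideal (PRing 𝒪 k g), 𝔞.IsPrime ∧
      ringKrullDim (PRing 𝒪 k g ⧸ 𝔞) ≤ ((1 + 3 * k + g : ℕ) : WithBot ℕ∞) ∧
      𝔞 ≤ idealQ k g ϖ ∧ KilledByType g δ 𝔞

/-- **PV-LOC-UNR.**  `𝔮 = (ϖ, y_j, z_j, m_j)` is prime and `e_j ∉ 𝔮` when `q₀ ≡ 1`. -/
def Stmt_PVLoc_unr : Prop :=
  ∀ (𝒪 : Type) [CommRing 𝒪] [IsDomain 𝒪] [IsDiscreteValuationRing 𝒪]
    [IsAdicComplete (maximalIdeal 𝒪) 𝒪] (k g : ℕ) (ϖ : 𝒪) (q₀ : Fin k → 𝒪),
    IsUnit (2 : 𝒪) → maximalIdeal 𝒪 = Ideal.span {ϖ} →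
    (∀ j, q₀ j - 1 ∈ maximalIdeal 𝒪) →
    (idealQ k g ϖ).IsPrime ∧ ∀ j, eElt g q₀ j ∉ idealQ k g ϖ

/-- **PV-LOC-DIM.**  `dim 𝒪⟦s₁, …, s_r⟧ ≥ r + 1`. -/
def Stmt_PVLoc_dimS : Prop :=
  ∀ (𝒪 : Type) [CommRing 𝒪] [IsDomain 𝒪] [IsDiscreteValuationRing 𝒪] (r : ℕ),
    ((r + 1 : ℕ) : WithBot ℕ∞) ≤ ringKrullDim (MvPowerSeries (Fin r) 𝒪)

/-- **PV-LOC-MAT.**  Unipotent type over a domain: if `(Σ − 1)² = 0`, `tr Σ = 2` and
`Φ(Σ − 1) = q(Σ − 1)Φ` then `(q (tr Φ)² − (q + 1)² det Φ) • (Σ − 1) = 0`. -/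
def Stmt_PVLoc_mat : Prop :=
  ∀ (D : Type) [CommRing D] [IsDomain D] (q : D) (Sg Ph : Matrix (Fin 2) (Fin 2) D),
    (Sg - 1) * (Sg - 1) = 0 → Sg.trace = 2 → Ph * (Sg - 1) = q • ((Sg - 1) * Ph) →
    (q * Ph.trace ^ 2 - (q + 1) ^ 2 * Ph.det) • (Sg - 1) = 0

/-! ### The patching datum of PIVOT -/

/-- A level of the PIVOT patching datum (compare `Algebra.PatchingLevel` of the prelude).
`S = 𝒪⟦s₁..s_r⟧` (Taylor–Wiles variables), `P = 𝒪⟦X₁..X_h⟧` (local ring at the pivot prime with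
extra variables, `h = 6 + g`), `T` the Hecke ring of unipotent type at level `∅` acting on `M`.
Two `P`-modules: `N1` (unipotent type) and `Nχ` (ramified types), both free of rank `d` over
`S/J` through `φ : S → P`, congruent modulo `ϖ`, killed by `I1` resp. `Iχ`;
`N1 / φ(s₁..s_r) N1 = M`, compatibly with `ψ : P ↠ T`; `Ξ` = the ideal of `T` generated by the
image of `𝔵` (the entries of `ρ(σ) − 1`). -/
structure PivotLevel (𝒪 : Type) [CommRing 𝒪] (r h : ℕ) (T : Type) [CommRing T] [Algebra 𝒪 T]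
    (M : Type) [AddCommGroup M] [Module T M] (ϖ : 𝒪)
    (I1 Iχ 𝔵 : Ideal (MvPowerSeries (Fin h) 𝒪)) (Ξ : Ideal T)
    (J : Ideal (MvPowerSeries (Fin r) 𝒪)) (d : ℕ) : Type 1 where
  /-- the module of unipotent type -/
  N1 : Type
  /-- the module of the ramified types -/
  Nχ : Type
  [instAddCommGroup1 : AddCommGroup N1]
  [instModule1 : Module (MvPowerSeries (Fin h) 𝒪) N1]
  [instAddCommGroupχ : AddCommGroup Nχ]
  [instModuleχ : Module (MvPowerSeries (Fin h) 𝒪) Nχ]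
  /-- the Taylor–Wiles variables (diamond operators) -/
  φ : MvPowerSeries (Fin r) 𝒪 →ₐ[𝒪] MvPowerSeries (Fin h) 𝒪
  /-- the map to the Hecke ring of level `∅` -/
  ψ : MvPowerSeries (Fin h) 𝒪 →ₐ[𝒪] T
  ψ_surjective : Function.Surjective ψ
  ψ_φ_X : ∀ i : Fin r, ψ (φ (MvPowerSeries.X i)) = 0
  Ξ_le : Ξ ≤ Ideal.map (ψ : MvPowerSeries (Fin h) 𝒪 →+* T) 𝔵
  /-- the projection to level `∅` -/
  π : N1 →+ M
  π_smul : ∀ (f : MvPowerSeries (Fin h) 𝒪) (x : N1), π (f • x) = ψ f • π x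
  π_surjective : Function.Surjective π
  ker_π : ∀ x : N1, π x = 0 ↔
    x ∈ (Ideal.span (Set.range fun i : Fin r => φ (MvPowerSeries.X i))) •
      (⊤ : Submodule (MvPowerSeries (Fin h) 𝒪) N1)
  /-- generators of `N1` -/
  b1 : Fin d → N1
  /-- generators of `Nχ` -/
  bχ : Fin d → Nχ
  b1_span : ∀ x : N1, ∃ c : Fin d → MvPowerSeries (Fin r) 𝒪, x = ∑ i, φ (c i) • b1 i
  b1_rel : ∀ c : Fin d → MvPowerSeries (Fin r) 𝒪, ∑ i, φ (c i) • b1 i = 0 ↔ ∀ i, c i ∈ J
  bχ_span : ∀ x : Nχ, ∃ c : Fin d → MvPowerSeries (Fin r) 𝒪, x = ∑ i, φ (c i) • bχ i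
  bχ_rel : ∀ c : Fin d → MvPowerSeries (Fin r) 𝒪, ∑ i, φ (c i) • bχ i = 0 ↔ ∀ i, c i ∈ J
  rel1 : ∀ f ∈ I1, ∀ x : N1, f • x = 0
  relχ : ∀ f ∈ Iχ, ∀ x : Nχ, f • x = 0
  /-- the congruence modulo `ϖ` -/
  cmp : ∀ v : Fin d → MvPowerSeries (Fin h) 𝒪,
    (∑ i, v i • b1 i ∈ (Ideal.span {(MvPowerSeries.C ϖ : MvPowerSeries (Fin h) 𝒪)}) •
      (⊤ : Submodule (MvPowerSeries (Fin h) 𝒪) N1)) ↔
    (∑ i, v i • bχ i ∈ (Ideal.span {(MvPowerSeries.C ϖ : MvPowerSeries (Fin h) 𝒪)}) •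
      (⊤ : Submodule (MvPowerSeries (Fin h) 𝒪) Nχ))

attribute [instance] PivotLevel.instAddCommGroup1 PivotLevel.instModule1
  PivotLevel.instAddCommGroupχ PivotLevel.instModuleχ

/-- The relation ideals `((1 + s_j)^(p^n) − 1)_j` of the Taylor–Wiles levels. -/
noncomputable def twIdealP (𝒪 : Type) [CommRing 𝒪] (r p n : ℕ) :
    Ideal (MvPowerSeries (Fin r) 𝒪) :=
  Ideal.span (Set.range fun j : Fin r =>
    ((1 + MvPowerSeries.X j) ^ (p ^ n) - 1 : MvPowerSeries (Fin r) 𝒪))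

/-- **PV-PATCH.**  Levels for all the Taylor–Wiles relation ideals give a level with trivial
relation ideal (pure algebra: ultrafilter limit as in `Fermat.Agent.S59.Patch.patch`). -/
def Stmt_PVPatch : Prop :=
  ∀ (𝒪 : Type) [CommRing 𝒪] [IsDomain 𝒪] [IsDiscreteValuationRing 𝒪]
    [IsAdicComplete (maximalIdeal 𝒪) 𝒪] [Finite (ResidueField 𝒪)]
    (p : ℕ), (p : 𝒪) ∈ maximalIdeal 𝒪 →
    ∀ (r h : ℕ) (T : Type) [CommRing T] [IsLocalRing T] [IsNoetherianRing T]
      [IsAdicComplete (maximalIdeal T) T] [Algebra 𝒪 T] [IsLocalHom (algebraMap 𝒪 T)],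
      Function.Surjective (residue T ∘ algebraMap 𝒪 T) →
    ∀ (M : Type) [AddCommGroup M] [Module T M] (ϖ : 𝒪)
      (I1 Iχ 𝔵 : Ideal (MvPowerSeries (Fin h) 𝒪)) (Ξ : Ideal T) (d : ℕ),
      (∀ n : ℕ, Nonempty (PivotLevel 𝒪 r h T M ϖ I1 Iχ 𝔵 Ξ (twIdealP 𝒪 r p n) d)) →
      Nonempty (PivotLevel 𝒪 r h T M ϖ I1 Iχ 𝔵 Ξ ⊥ d)

end Fermat.Agent.L.Pivot

end
-- ==== END Fermat.Agent.L.Pivot.Defs

-- ==== BEGIN Fermat.Agent.L.Pivot.Frey
section

set_option autoImplicit false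

open WeierstrassCurve WeierstrassCurve.Affine WeierstrassCurve.Affine.Point
open scoped WeierstrassCurve.Affine

namespace Fermat.Agent.L.Pivot

open Fermat.Agent.S44

/-- All Frobenius elements at the place `A` over `q` act on `E[p]` through one scalar. -/
def IsExcAt (P : FreyPackage) (q : ℕ) (A : ValuationSubring (AlgebraicClosure ℚ)) : Prop :=
  ∃ c : ZMod P.p, ∀ σ : GQ, A.IsFrobeniusAt σ q → ∀ v : Tors P.freyCurve P.p,
    galoisRepModuleEnd (S := ℚ) (K := AlgebraicClosure ℚ) P.freyCurve.toAffine P.p σ v = c • v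

/-- **PIVOT, Frey form.** -/
def Stmt_PivotFrey : Prop :=
  ∀ (P : FreyPackage) (N q : ℕ), P.IsConductorLevel N → ¬ P.p ∣ N → q.Prime → q ≠ P.p → q ∣ N →
    GaloisRepIsIrreducible (K := AlgebraicClosure ℚ) ℚ P.freyCurve P.p →
    P.ModularRepOfLevel N → P.GaloisRepUnramifiedAt q →
    (∀ q' : ℕ, q'.Prime → q' ∣ N → P.GaloisRepUnramifiedAt q' →
      ∃ A : ValuationSubring (AlgebraicClosure ℚ), A.LiesOverPrime q' ∧ IsExcAt P q' A) →
    ∃ M : ℕ, M ∣ N ∧ ¬ q ∣ M ∧ P.ModularRepOfLevel M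

/-- **Mazur's principle at a non-exceptional prime, Frey form.** -/
def Stmt_NonExcFrey : Prop :=
  ∀ (P : FreyPackage) (N q : ℕ), P.IsConductorLevel N → q.Prime → q ≠ P.p → q ∣ N →
    GaloisRepIsIrreducible (K := AlgebraicClosure ℚ) ℚ P.freyCurve P.p →
    P.ModularRepOfLevel N → P.GaloisRepUnramifiedAt q →
    (∀ A : ValuationSubring (AlgebraicClosure ℚ), A.LiesOverPrime q → ¬ IsExcAt P q A) →
    ∃ M : ℕ, M ∣ N ∧ ¬ q ∣ M ∧ P.ModularRepOfLevel M

/-- The type of the frozen statement S44. -/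
def Stmt_S44T : Prop :=
  ∀ (P : FreyPackage) {N : ℕ}, P.IsConductorLevel N → P.p ∣ N →
    GaloisRepIsIrreducible (K := AlgebraicClosure ℚ) ℚ P.freyCurve P.p →
    P.ModularRepOfLevel N → ∃ M : ℕ, M ∣ N ∧ ¬ P.p ∣ M ∧ P.ModularRepOfLevel M

/-- A proper divisor obtained by removing a prime. -/
theorem lt_of_dvd_of_not_dvd {M N r : ℕ} (hN : 0 < N) (hMN : M ∣ N) (hrN : r ∣ N)
    (hrM : ¬ r ∣ M) : M < N := by
  rcases (Nat.le_of_dvd hN hMN).lt_or_eq with h | h
  · exact h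
  · exact absurd (h ▸ hrN) hrM

/-- **S43 from S44, Mazur's principle and PIVOT (Frey form).** -/
theorem s43_of (h44 : Stmt_S44T) (hNE : Stmt_NonExcFrey) (hPF : Stmt_PivotFrey)
    (P : FreyPackage) {N q : ℕ} (hcond : P.IsConductorLevel N) (hq : q.Prime) (_hq2 : q ≠ 2)
    (hqp : q ≠ P.p) (_hqN : q ∣ N)
    (hirr : GaloisRepIsIrreducible (K := AlgebraicClosure ℚ) ℚ P.freyCurve P.p)
    (hmod : P.ModularRepOfLevel N) (_hunr : P.GaloisRepUnramifiedAt q) :
    ∃ M : ℕ, M ∣ N ∧ ¬ q ∣ M ∧ P.ModularRepOfLevel M := by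
  -- strong induction on the level
  have key : ∀ n : ℕ, ∀ N : ℕ, N ≤ n → P.IsConductorLevel N → P.ModularRepOfLevel N →
      P.GaloisRepUnramifiedAt q → ∃ M : ℕ, M ∣ N ∧ ¬ q ∣ M ∧ P.ModularRepOfLevel M := by
    intro n
    induction n with
    | zero =>
      intro N hN hc _ _
      exact absurd hc.pos (by omega)
    | succ n ih =>
      intro N hN hc hm hu
      by_cases hqN : q ∣ N
      swap
      · exact ⟨N, dvd_rfl, hqN, hm⟩
      -- a smaller level suffices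
      have step : ∀ M : ℕ, M ∣ N → M < N → P.ModularRepOfLevel M →
          ∃ M' : ℕ, M' ∣ N ∧ ¬ q ∣ M' ∧ P.ModularRepOfLevel M' := by
        intro M hMN hlt hM
        have hM0 : 0 < M := Nat.pos_of_dvd_of_pos hMN hc.pos
        obtain ⟨M', hM'M, hqM', hM'⟩ := ih M (by omega) (hc.of_dvd hMN hM0) hM hu
        exact ⟨M', hM'M.trans hMN, hqM', hM'⟩
      by_cases hpN : P.p ∣ N
      · obtain ⟨M, hMN, hpM, hM⟩ := h44 P hc hpN hirr hm
        exact step M hMN (lt_of_dvd_of_not_dvd hc.pos hMN hpN hpM) hM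
      · by_cases hall : ∀ q' : ℕ, q'.Prime → q' ∣ N → P.GaloisRepUnramifiedAt q' →
            ∃ A : ValuationSubring (AlgebraicClosure ℚ), A.LiesOverPrime q' ∧ IsExcAt P q' A
        · exact hPF P N q hc hpN hq hqp hqN hirr hm hu hall
        · push Not at hall
          obtain ⟨q', hq', hq'N, hu', hne⟩ := hall
          have hq'p : q' ≠ P.p := fun h => hpN (h ▸ hq'N)
          obtain ⟨M, hMN, hq'M, hM⟩ := hNE P N q' hc hq' hq'p hq'N hirr hm hu'
            (fun A hA hexc => hne A hA hexc)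
          exact step M hMN (lt_of_dvd_of_not_dvd hc.pos hMN hq'N hq'M) hM
  exact key N N le_rfl hcond hmod _hunr

end Fermat.Agent.L.Pivot

end
-- ==== END Fermat.Agent.L.Pivot.Frey

-- ==== BEGIN Fermat.Agent.L.Pivot.Geom.H24_B2BetaDeg
section

/-!
# PIVOT, PV-GEOM, leaf PVG-B2 (helper24), part 6a: the degree of `β` at a prime `q ∣ M`

`finrank_beta_of_dvd` : `[F₀(M q) : β F₀(M)] = q` for a prime `q ∣ M`
(same argument as `NEB.Geom.H70.finrankAlong_beta_of_dvd`, repeated here to keep the imports small).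
-/

set_option autoImplicit false
set_option linter.style.haveILetI false
set_option linter.unusedSectionVars false

noncomputable section

open ModularCurve AlgebraicCurve

namespace Fermat.Agent.L.Pivot.Geom.H24

open Fermat.Agent.S36.H44

local notation "Kb" => AlgebraicClosure ℚ

theorem finrank_alpha_ne_zero_h24 (M q : ℕ) [NeZero M] [NeZero q] (hq : q.Prime) :
    finrankAlong Kb (heckeAlphaBar Kb M q) ≠ 0 := by
  by_cases h : q ∣ M
  · rw [Fermat.Agent.NEB.OLD.H6.finrankAlong_alpha_of_dvd M q hq h]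
    exact hq.ne_zero
  · rw [Fermat.Agent.RED.H95.finrankAlong_alpha hq h]
    exact Nat.succ_ne_zero q

/-- The degrees of the two degeneracy maps agree, for every level. -/
theorem finrank_beta_eq_alpha_h24 (q : ℕ) [NeZero q] (hq : q.Prime) :
    ∀ (M : ℕ) [NeZero M],
      finrankAlong Kb (heckeBetaBar Kb M q) = finrankAlong Kb (heckeAlphaBar Kb M q) := by
  intro M
  induction M using Nat.strong_induction_on with
  | _ M ih =>
    intro hM
    by_cases h : q ∣ M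
    · obtain ⟨M', rfl⟩ := h
      have hM'0 : M' ≠ 0 := fun h0 => by
        apply NeZero.ne (q * M')
        rw [h0, mul_zero]
      haveI : NeZero M' := ⟨hM'0⟩
      have hlt : M' < q * M' := by
        have := hq.one_lt
        nlinarith [Nat.pos_of_ne_zero hM'0]
      have hih := ih M' hlt
      have hcomm : q * M' = M' * q := mul_comm q M'
      revert hM
      rw [hcomm]
      intro hM
      haveI : NeZero (M' * q * q) :=
        ⟨Nat.mul_ne_zero (NeZero.ne (M' * q)) (NeZero.ne q)⟩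
      have hsq : (heckeBetaBar Kb (M' * q) q).toRingHom.comp (heckeAlphaBar Kb M' q).toRingHom
          = (heckeAlphaBar Kb (M' * q) q).toRingHom.comp (heckeBetaBar Kb M' q).toRingHom := by
        ext x
        simp only [RingHom.comp_apply, AlgHom.toRingHom_eq_coe, RingHom.coe_coe,
          coe_heckeBetaBar, coe_heckeAlphaBar]
      have h1 := finrank_comp_h44 (heckeAlphaBar Kb M' q).toRingHom
        (heckeBetaBar Kb (M' * q) q).toRingHom
      have h2 := finrank_comp_h44 (heckeBetaBar Kb M' q).toRingHom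
        (heckeAlphaBar Kb (M' * q) q).toRingHom
      rw [hsq, h2] at h1
      have e1 : finrankHom (heckeBetaBar Kb M' q).toRingHom
          = finrankHom (heckeAlphaBar Kb M' q).toRingHom := hih
      rw [e1] at h1
      have h0 : finrankHom (heckeAlphaBar Kb M' q).toRingHom ≠ 0 :=
        finrank_alpha_ne_zero_h24 M' q hq
      exact (Nat.eq_of_mul_eq_mul_left (Nat.pos_of_ne_zero h0) h1).symm
    · rw [Fermat.Agent.RED.H95.finrankAlong_alpha hq h,
        Fermat.Agent.RED.H95.finrankAlong_beta hq h]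

/-- `[F₀(M q) : β F₀(M)] = q` for a prime `q ∣ M`. -/
theorem finrank_beta_of_dvd (M q : ℕ) [NeZero M] [NeZero q] (hq : q.Prime) (hqM : q ∣ M) :
    finrankAlong Kb (heckeBetaBar Kb M q) = q := by
  rw [finrank_beta_eq_alpha_h24 q hq M]
  exact Fermat.Agent.NEB.OLD.H6.finrankAlong_alpha_of_dvd M q hq hqM

end Fermat.Agent.L.Pivot.Geom.H24

end
end
-- ==== END Fermat.Agent.L.Pivot.Geom.H24_B2BetaDeg

-- ==== BEGIN Fermat.Agent.L.Pivot.Geom.H24_B2Clo
section

/-!
# PIVOT, PV-GEOM, leaf PVG-B2 (helper24), part 2: the norm along `α` in the Galois closure over `ℂ`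

`M`, `q` arbitrary, `α = heckeAlphaBar ℂ M q : F_M → F_{Mq}` (inclusion), `L = LN (M q)` the
Galois closure of `F_{Mq} / ℂ(j)` of `GTor/Clo`.

* `piN_phi_alpha_of_mem_Gamma0` : `Γ₀(M)` fixes `phi (α x)`;
* `mem_Gamma0_of_piN_phi_alpha` : an element of `SL₂(ℤ)` fixing `phi (α j_M)` lies in `Γ₀(M)`;
* `phi_norm_alpha` : for a system `t` of representatives of `Γ₀(M) / Γ₀(M q)`:
  `phi (α (N_α y)) = ∏ i, piN (t i) (phi y)`.
-/

set_option autoImplicit false
set_option linter.style.haveILetI false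
set_option linter.unusedSectionVars false

open UpperHalfPlane CongruenceSubgroup ModularCurve AlgebraicCurve
open scoped MatrixGroups

noncomputable section

namespace Fermat.Agent.L.Pivot.Geom.H24

open Fermat.Agent.GTor.Clo Fermat.Agent.S41 Fermat.Agent.S41.H19 Fermat.Agent.Lib.HeckeComm

variable (M q : ℕ) [NeZero M] [NeZero q]

/-- `α` over `ℂ` (in the vocabulary of `GTor/Clo`). -/
def alphaC : FN M →ₐ[Kbar] FN (M * q) := heckeAlphaBar Kbar M q

theorem coe_alphaC (x : FN M) : ((alphaC M q x : FN (M * q)) : LaurentSeries Kbar) = x :=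
  coe_heckeAlphaBar M q x

theorem alphaC_jdF (d : ℕ) [NeZero d] (hd : d ∣ M) :
    alphaC M q (jdF M d hd) = jdF (M * q) d (hd.trans (dvd_mul_right M q)) :=
  Subtype.ext rfl

theorem alphaC_jF : alphaC M q (jF M) = jF (M * q) := Subtype.ext rfl

/-- `Γ₀(M)` fixes `j (d τ)`, `d ∣ M`, in `Atil (M q)`. -/
theorem smul_jdA_mul_of_mem_Gamma0 (d : ℕ) (hd : 0 < d) (hdM : d ∣ M) (γ : SL(2, ℤ))
    (hγ : γ ∈ Gamma0 M) : γ • jdA (M * q) d = jdA (M * q) d := by
  have h1 := congrArg (fun f : Atil M => (f : Fermat.Agent.S24.Hol))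
    (smul_jdA_of_mem_Gamma0 M d hd hdM γ hγ)
  simp only [coe_smul_Atil, jdA_coe M d hd hdM] at h1
  apply Subtype.ext
  rw [coe_smul_Atil, jdA_coe (M * q) d hd (hdM.trans (dvd_mul_right M q))]
  exact h1

/-- **`Γ₀(M)` fixes the image of `F_M` in the closure of level `M q`.** -/
theorem piN_phi_alpha_of_mem_Gamma0 (γ : SL(2, ℤ)) (hγ : γ ∈ Gamma0 M) (y : FN M) :
    piN (M * q) γ (phi (M * q) (alphaC M q y)) = phi (M * q) (alphaC M q y) := by
  let ψ : FN M →ₐ[Kbar] LN (M * q) := (phi (M * q)).comp (alphaC M q)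
  have hψ : ∀ y, ψ y = phi (M * q) (alphaC M q y) := fun _ => rfl
  have hmul : ∀ a b : FN M, ψ (a * b) = ψ a * ψ b := fun a b => ψ.toRingHom.map_mul a b
  have hadd : ∀ a b : FN M, ψ (a + b) = ψ a + ψ b := fun a b => ψ.toRingHom.map_add a b
  have hone : ψ 1 = 1 := ψ.toRingHom.map_one
  have hzero : ψ 0 = 0 := ψ.toRingHom.map_zero
  have hinv : ∀ a : FN M, ψ a⁻¹ = (ψ a)⁻¹ := fun a => map_inv₀ ψ.toRingHom a
  let S : IntermediateField Kbar (FN M) :=
    { carrier := {y | piN (M * q) γ (ψ y) = ψ y}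
      mul_mem' := fun {a b} ha hb => by
        show piN (M * q) γ (ψ (a * b)) = ψ (a * b)
        have ha' : piN (M * q) γ (ψ a) = ψ a := ha
        have hb' : piN (M * q) γ (ψ b) = ψ b := hb
        rw [hmul, map_mul, ha', hb']
      one_mem' := by
        show piN (M * q) γ (ψ 1) = ψ 1
        rw [hone, map_one]
      add_mem' := fun {a b} ha hb => by
        show piN (M * q) γ (ψ (a + b)) = ψ (a + b)
        have ha' : piN (M * q) γ (ψ a) = ψ a := ha
        have hb' : piN (M * q) γ (ψ b) = ψ b := hb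
        rw [hadd, map_add, ha', hb']
      zero_mem' := by
        show piN (M * q) γ (ψ 0) = ψ 0
        rw [hzero, map_zero]
      algebraMap_mem' := fun c => by
        show piN (M * q) γ (ψ (algebraMap Kbar (FN M) c)) = ψ (algebraMap Kbar (FN M) c)
        rw [ψ.commutes c, IsScalarTower.algebraMap_apply Kbar EN (LN (M * q))]
        exact (piN (M * q) γ).commutes _
      inv_mem' := fun a ha => by
        show piN (M * q) γ (ψ a⁻¹) = ψ a⁻¹
        have ha' : piN (M * q) γ (ψ a) = ψ a := ha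
        rw [hinv, map_inv₀, ha'] }
  have hS : S = ⊤ := by
    rw [eq_top_iff, ← adjoin_jdF M, IntermediateField.adjoin_le_iff]
    rintro _ ⟨d, hd0, hd, rfl⟩
    show piN (M * q) γ (ψ (jdF M d hd)) = ψ (jdF M d hd)
    rw [hψ, alphaC_jdF, piN_phi_jdF,
      smul_jdA_mul_of_mem_Gamma0 M q d (Nat.pos_of_ne_zero (NeZero.ne d)) hd γ hγ, phi_jdF]
  have : y ∈ S := by rw [hS]; exact IntermediateField.mem_top
  exact this

/-- An element of `SL₂(ℤ)` fixing `phi (α j_M)` lies in `Γ₀(M)`. -/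
theorem mem_Gamma0_of_piN_phi_alpha (γ : SL(2, ℤ))
    (h : piN (M * q) γ (phi (M * q) (alphaC M q (jdF M M dvd_rfl)))
      = phi (M * q) (alphaC M q (jdF M M dvd_rfl))) : γ ∈ Gamma0 M := by
  rw [alphaC_jdF, piN_phi_jdF, phi_jdF] at h
  have h2 := IsFractionRing.injective (AT (M * q)) (LN (M * q)) h
  have h3 : γ • jdA (M * q) M = jdA (M * q) M := (toAT (M * q)).injective h2
  apply mem_Gamma0_of_smul_jdA
  have hM : 0 < M := Nat.pos_of_ne_zero (NeZero.ne M)
  have h4 := congrArg (fun f : Atil (M * q) => (f : Fermat.Agent.S24.Hol)) h3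
  simp only [coe_smul_Atil, jdA_coe (M * q) M hM (dvd_mul_right M q)] at h4
  apply Subtype.ext
  rw [coe_smul_Atil, jdA_coe M M hM dvd_rfl]
  exact h4

/-! ### The algebra structures -/

/-- `ℂ(j) → F_{Mq}` factors through `α`. -/
theorem algebraMap_EN_alpha (y : EN) :
    algebraMap EN (FN (M * q)) y = alphaC M q (algebraMap EN (FN M) y) := by
  have hp : ∀ p : Polynomial Kbar, algebraMap EN (FN (M * q)) (Polynomial.aeval tE p)
      = alphaC M q (algebraMap EN (FN M) (Polynomial.aeval tE p)) := by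
    intro p
    rw [← Polynomial.aeval_algebraMap_apply, ← Polynomial.aeval_algebraMap_apply, tE_map_FN,
      tE_map_FN, ← Polynomial.aeval_algHom_apply, alphaC_jF]
  obtain ⟨p, r, -, rfl⟩ := tE_gen y
  rw [map_div₀, map_div₀, map_div₀, hp, hp]

/-- The norm along `α`, over `ℂ`. -/
def normAlphaC (y : FN (M * q)) : FN M := normAlongHom (alphaC M q).toRingHom y

/-- **The norm along `α` in the Galois closure.** -/
theorem phi_norm_alpha {I : Type} [Fintype I] (t : I → Gamma0 M) (ht : IsReps (inclG M q) t)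
    (y : FN (M * q)) :
    phi (M * q) (alphaC M q (normAlphaC M q y))
      = ∏ i, piN (M * q) ((t i : Gamma0 M) : SL(2, ℤ)) (phi (M * q) y) := by
  letI algF : Algebra (FN M) (FN (M * q)) := (alphaC M q).toRingHom.toAlgebra
  letI algL : Algebra (FN M) (LN (M * q)) :=
    ((phi (M * q)).toRingHom.comp (alphaC M q).toRingHom).toAlgebra
  haveI tow : IsScalarTower (FN M) (FN (M * q)) (LN (M * q)) :=
    IsScalarTower.of_algebraMap_eq fun x => rfl
  haveI towE : IsScalarTower EN (FN M) (LN (M * q)) :=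
    IsScalarTower.of_algebraMap_eq fun x => by
      rw [IsScalarTower.algebraMap_apply EN (FN (M * q)) (LN (M * q)), algebraMap_EN_alpha]
      rfl
  haveI finL : FiniteDimensional (FN M) (LN (M * q)) :=
    Module.Finite.of_restrictScalars_finite EN (FN M) (LN (M * q))
  haveI galL : IsGalois (FN M) (LN (M * q)) := IsGalois.tower_top_of_isGalois EN (FN M) (LN (M * q))
  haveI : CharZero (FN M) := charZero_of_injective_algebraMap (algebraMap Kbar (FN M)).injective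
  let ρ : FN (M * q) →ₐ[FN M] LN (M * q) := IsScalarTower.toAlgHom (FN M) (FN (M * q)) (LN (M * q))
  have hρ : ∀ z, ρ z = phi (M * q) z := fun _ => rfl
  haveI finF : FiniteDimensional (FN M) (FN (M * q)) :=
    Fermat.Agent.RED.H95.finiteDimensional_of_algHom ρ
  haveI : Algebra.IsSeparable (FN M) (FN (M * q)) := inferInstance
  let σ : I → (LN (M * q) →ₐ[FN M] LN (M * q)) := fun i =>
    { (piN (M * q) ((t i : Gamma0 M) : SL(2, ℤ)) : LN (M * q) →+* LN (M * q)) with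
      commutes' := fun x => piN_phi_alpha_of_mem_Gamma0 M q _ (t i).2 x }
  have hσ : ∀ i z, σ i z = piN (M * q) ((t i : Gamma0 M) : SL(2, ℤ)) z := fun _ _ => rfl
  have hcover : ∀ τ : LN (M * q) →ₐ[FN M] LN (M * q), ∃ c, τ.comp ρ = (σ c).comp ρ := by
    intro τ
    let τE : LN (M * q) →ₐ[EN] LN (M * q) := τ.restrictScalars EN
    let τ' : LN (M * q) ≃ₐ[EN] LN (M * q) :=
      AlgEquiv.ofBijective τE (Algebra.IsAlgebraic.algHom_bijective τE)
    obtain ⟨γ, hγ⟩ := piN_surjective (M * q) τ'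
    have hγ' : ∀ z, piN (M * q) γ z = τ z := fun z => by rw [hγ]; rfl
    have hfix : γ ∈ Gamma0 M := by
      apply mem_Gamma0_of_piN_phi_alpha M q
      rw [hγ']
      exact τ.commutes (jdF M M dvd_rfl)
    obtain ⟨c, κ, hκ⟩ := ht.surj ⟨γ, hfix⟩
    refine ⟨c, ?_⟩
    ext z
    rw [AlgHom.comp_apply, AlgHom.comp_apply, hσ, hρ, ← hγ']
    have h1 : γ = ((t c : Gamma0 M) : SL(2, ℤ)) * ((κ : Gamma0 (M * q)) : SL(2, ℤ)) := by
      have h2 := congrArg (fun g : Gamma0 M => (g : SL(2, ℤ))) hκ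
      simp only [Subgroup.coe_mul, Subgroup.coe_inv] at h2
      have h3 : ((κ : Gamma0 (M * q)) : SL(2, ℤ)) = ((t c : Gamma0 M) : SL(2, ℤ))⁻¹ * γ := h2
      rw [h3, mul_inv_cancel_left]
    rw [h1, map_mul, AlgEquiv.mul_apply, piN_phi_of_mem_Gamma0 (M * q) _ κ.2]
  have hinj : Function.Injective fun c => (σ c).comp ρ := by
    intro c c' hcc
    apply ht.inj
    refine ⟨⟨((t c : Gamma0 M) : SL(2, ℤ))⁻¹ * ((t c' : Gamma0 M) : SL(2, ℤ)), ?_⟩, ?_⟩
    · rw [← piN_comap (M * q), Subgroup.mem_comap, IntermediateField.mem_fixingSubgroup_iff]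
      rintro _ ⟨z, rfl⟩
      have h1 := congrArg (fun f : FN (M * q) →ₐ[FN M] LN (M * q) => f z) hcc
      simp only [AlgHom.comp_apply, hσ, hρ] at h1
      show piN (M * q) _ (phi (M * q) z) = phi (M * q) z
      rw [map_mul, AlgEquiv.mul_apply, ← h1, map_inv, AlgEquiv.aut_inv,
        AlgEquiv.symm_apply_apply]
    · apply Subtype.ext
      rfl
  have key := Fermat.Agent.RED.H95.norm_eq_prod_of_cover ρ σ hcover hinj y
  exact key

end Fermat.Agent.L.Pivot.Geom.H24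

end
end
-- ==== END Fermat.Agent.L.Pivot.Geom.H24_B2Clo

-- ==== BEGIN Fermat.Agent.L.Pivot.Geom.H24_B2Prod
section

/-!
# PIVOT, PV-GEOM, leaf PVG-B2 (helper24), part 1: the product over cosets of a twisted form

For a family `t : I → Γ₀(N)` of representatives of the left cosets of `Γ₀(N q)` in `Γ₀(N)` and a
function `R` on the upper half plane put

  `cosetProd k t R = ∏ i, R ∣[k] (t i)⁻¹`.

* `isTwistedForm_cosetProd`: if `R` is a twisted form of weight `k` on `Γ₀(N q)` with multiplier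
  `ζ^φ` then `cosetProd k t R` is a twisted form of weight `k * card I` on `Γ₀(N)` with multiplier
  `ζ^(cor1 φ)` (`cor1` = transfer along the inclusion, `S41/Defs.lean`);
* `cosetProd_pow`, `cosetProd_eq_zero_iff`;
* `hasChar_cosetProd`: packaging for `GTor.HasChar`.

The same for an arbitrary injective homomorphism is not needed here.
-/

set_option autoImplicit false
set_option linter.style.haveILetI false
set_option linter.unusedSectionVars false

open UpperHalfPlane ModularForm CongruenceSubgroup Matrix.SpecialLinearGroup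
open scoped MatrixGroups ModularForm Manifold

noncomputable section

namespace Fermat.Agent.L.Pivot.Geom.H24

open Fermat.Agent.GTor Fermat.Agent.S41 Fermat.Agent.S41.H19

section CosetProd

variable {I : Type} [Fintype I]

/-- The product of the slashes of `R` by the inverses of a family `t` of matrices. -/
def cosetProd (k : ℤ) (t : I → SL(2, ℤ)) (R : ℍ → ℂ) : ℍ → ℂ :=
  ∏ i, R ∣[k] (t i)⁻¹

theorem cosetProd_apply (k : ℤ) (t : I → SL(2, ℤ)) (R : ℍ → ℂ) (τ : ℍ) :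
    cosetProd k t R τ = ∏ i, (R ∣[k] (t i)⁻¹) τ := by
  rw [cosetProd, Finset.prod_apply]

/-- The slash of `cosetProd` by an element of `SL₂(ℤ)`. -/
theorem cosetProd_slash (k : ℤ) (t : I → SL(2, ℤ)) (R : ℍ → ℂ) (γ : SL(2, ℤ)) :
    (cosetProd k t R) ∣[k * (Fintype.card I : ℤ)] γ = ∏ i, R ∣[k] ((t i)⁻¹ * γ) := by
  rw [cosetProd, ← H76.slash_mapGL, ← Finset.card_univ, H76.prod_slash_mapGL]
  refine Finset.prod_congr rfl fun i _ => ?_
  rw [H76.slash_mapGL, SlashAction.slash_mul]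

theorem mdifferentiable_cosetProd (k : ℤ) (t : I → SL(2, ℤ)) {R : ℍ → ℂ}
    (hR : MDifferentiable 𝓘(ℂ) 𝓘(ℂ) R) : MDifferentiable 𝓘(ℂ) 𝓘(ℂ) (cosetProd k t R) := by
  rw [cosetProd]
  exact MDifferentiable.prod fun j _ => hR.slash k _

theorem cosetProd_pow (k : ℤ) (t : I → SL(2, ℤ)) (n : ℕ) (R : ℍ → ℂ) :
    cosetProd ((n : ℤ) * k) t (fun z => R z ^ n) = fun z => cosetProd k t R z ^ n := by
  funext τ
  rw [cosetProd_apply, cosetProd_apply, ← Finset.prod_pow]
  refine Finset.prod_congr rfl fun i _ => ?_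
  rw [H56.slash_pow_SL]

theorem cosetProd_eq_zero_iff [Nonempty I] (k : ℤ) (t : I → SL(2, ℤ)) {F : ℍ → ℂ}
    (hF : MDifferentiable 𝓘(ℂ) 𝓘(ℂ) F) : cosetProd k t F = 0 ↔ F = 0 := by
  rw [cosetProd, UpperHalfPlane.prod_eq_zero_iff (f := fun i => F ∣[k] (t i)⁻¹)
    (s := Finset.univ) (fun j _ => hF.slash k _)]
  constructor
  · rintro ⟨i, -, h⟩
    exact (H76.slash_eq_zero_iff k _ F).mp h
  · intro h
    obtain ⟨i⟩ := (inferInstance : Nonempty I)
    exact ⟨i, Finset.mem_univ _, (H76.slash_eq_zero_iff k _ F).mpr h⟩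

end CosetProd

section Twisted

variable {I : Type} [Fintype I] {N q n : ℕ} {k : ℤ}
  {φ : Additive (Gamma0 (N * q)) →+ ZMod n} {R : ℍ → ℂ}

/-- The family of the underlying matrices. -/
def coeT (t : I → Gamma0 N) : I → SL(2, ℤ) := fun i => ((t i : Gamma0 N) : SL(2, ℤ))

theorem inclG_inj_h24 (N q : ℕ) : Function.Injective (inclG N q) :=
  Subgroup.inclusion_injective _

theorem coe_inclG (N q : ℕ) (h : Gamma0 (N * q)) :
    ((inclG N q h : Gamma0 N) : SL(2, ℤ)) = (h : SL(2, ℤ)) := rfl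

/-- **The product over the cosets is a twisted form with multiplier the transfer.** -/
theorem isTwistedForm_cosetProd (t : I → Gamma0 N) (ht : IsReps (inclG N q) t)
    (h : IsTwistedForm (N * q) n k φ R) :
    IsTwistedForm N n (k * (Fintype.card I : ℤ)) (cor1 N q (ZMod n) φ)
      (cosetProd k (coeT t) R) := by
  refine ⟨mdifferentiable_cosetProd k _ h.mdiff, fun γ => ?_, fun σ => ?_⟩
  · obtain ⟨σ, κ, hκ⟩ := ht.exists_sol γ
    have hσ : Function.Bijective σ := ht.sol_bijective hκ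
    have hcor : cor1 N q (ZMod n) φ (Additive.ofMul γ) = ∑ i, φ (Additive.ofMul (κ i)) :=
      corAlong_eq_sum (inclG N q) (inclG_inj_h24 N q) t ht φ γ σ κ hκ
    rw [cosetProd_slash, hcor, H76.zetaPow_sum]
    have hterm : ∀ i : I, R ∣[k] ((coeT t (σ i))⁻¹ * (γ : SL(2, ℤ)))
        = zetaPow n (φ (Additive.ofMul (κ i))) • (R ∣[k] (coeT t i)⁻¹) := by
      intro i
      have h1 : (coeT t (σ i))⁻¹ * (γ : SL(2, ℤ)) = ((κ i : Gamma0 (N * q)) : SL(2, ℤ))
          * (coeT t i)⁻¹ := by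
        have h2 := congrArg (fun g : Gamma0 N => (g : SL(2, ℤ))) (hκ i)
        simp only [Subgroup.coe_mul, coe_inclG] at h2
        unfold coeT
        rw [inv_mul_eq_iff_eq_mul, ← mul_assoc, eq_mul_inv_iff_mul_eq]
        exact h2
      rw [h1, SlashAction.slash_mul, h.slash (κ i), ModularForm.SL_smul_slash]
    have hre : ∏ i, R ∣[k] ((coeT t i)⁻¹ * (γ : SL(2, ℤ)))
        = ∏ i, R ∣[k] ((coeT t (σ i))⁻¹ * (γ : SL(2, ℤ))) :=
      (Equiv.prod_comp (Equiv.ofBijective σ hσ)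
        (fun i => R ∣[k] ((coeT t i)⁻¹ * (γ : SL(2, ℤ))))).symm
    rw [hre, Finset.prod_congr rfl fun i _ => hterm i, H76.prod_smul_fun]
    rfl
  · rw [cosetProd_slash, IsBoundedAtImInfty]
    exact Filter.BoundedAtFilter.prod _ fun i _ => h.bdd _

end Twisted

section Form

variable {I : Type} [Fintype I] {N q n : ℕ} [NeZero N] [NeZero (N * q)] {k : ℤ}

/-- The product over the cosets of a modular form on `Γ₀(N q)` is a modular form on `Γ₀(N)`. -/
theorem isTwistedForm_cosetProd_zero (n : ℕ) (t : I → Gamma0 N) (ht : IsReps (inclG N q) t)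
    (B : ModularForm (Gamma0 (N * q)) k) :
    IsTwistedForm N n (k * (Fintype.card I : ℤ)) 0 (cosetProd k (coeT t) B) := by
  have h := isTwistedForm_cosetProd t ht (H56.isTwistedForm_of_modularForm n B)
  have h0 : cor1 N q (ZMod n) (0 : Additive (Gamma0 (N * q)) →+ ZMod n) = 0 := by
    have := corAlong_add (A := ZMod n) (inclG N q) (0 : Additive (Gamma0 (N * q)) →+ ZMod n) 0
    rw [add_zero] at this
    exact add_eq_left.mp this.symm
  rwa [h0] at h

/-- The modular form `cosetProd k t B`. -/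
def cosetProdForm (t : I → Gamma0 N) (ht : IsReps (inclG N q) t)
    (B : ModularForm (Gamma0 (N * q)) k) : ModularForm (Gamma0 N) (k * (Fintype.card I : ℤ)) :=
  H56.toModularForm (isTwistedForm_cosetProd_zero 1 t ht B)

@[simp] theorem coe_cosetProdForm (t : I → Gamma0 N) (ht : IsReps (inclG N q) t)
    (B : ModularForm (Gamma0 (N * q)) k) :
    (cosetProdForm t ht B : ℍ → ℂ) = cosetProd k (coeT t) B := rfl

theorem cosetProdForm_ne_zero [Nonempty I] (t : I → Gamma0 N) (ht : IsReps (inclG N q) t)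
    {B : ModularForm (Gamma0 (N * q)) k} (hB : B ≠ 0) : cosetProdForm t ht B ≠ 0 := by
  intro h
  apply hB
  have h1 : cosetProd k (coeT t) (B : ℍ → ℂ) = 0 := by
    rw [← coe_cosetProdForm t ht B, h]
    rfl
  exact DFunLike.coe_injective ((cosetProd_eq_zero_iff k _ B.holo').mp h1)

/-- Packaging for `HasChar`. -/
theorem hasChar_cosetProd [Nonempty I] (t : I → Gamma0 N) (ht : IsReps (inclG N q) t)
    {φ : Additive (Gamma0 (N * q)) →+ ZMod n} {R : ℍ → ℂ}
    (hR : IsTwistedForm (N * q) n k φ R) {B : ModularForm (Gamma0 (N * q)) k} (hB : B ≠ 0)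
    (g' : FNL ℂ N)
    (hq : qLaurent (fun z => cosetProd k (coeT t) R z ^ n)
      = (g' : LaurentSeries ℂ) * qLaurent (fun z => cosetProd k (coeT t) (B : ℍ → ℂ) z ^ n)) :
    HasChar N n g' (cor1 N q (ZMod n) φ) :=
  ⟨k * (Fintype.card I : ℤ), cosetProd k (coeT t) R, cosetProdForm t ht B,
    isTwistedForm_cosetProd t ht hR, cosetProdForm_ne_zero t ht hB, hq⟩

end Form

end Fermat.Agent.L.Pivot.Geom.H24

end
end
-- ==== END Fermat.Agent.L.Pivot.Geom.H24_B2Prod

-- ==== BEGIN Fermat.Agent.L.Pivot.Geom.H3_LinCore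
section

/-!
# PIVOT, PV-GEOM, leaf PVG-LIN (helper3): pure algebra, Mathlib only

* `mem_minimalPrimes_of_integral`: in a ring integral over `ℤ`, a prime with residue
  characteristic `0` is minimal over every ideal it contains.
* `exists_eigen_of_minimalPrime`: a commuting action `ρ : 𝕋 → End_L V` on a finite-dimensional
  space over an algebraically closed field, and a prime `𝔭` of `𝕋` minimal over `ker ρ`:
  there are a character `χ : 𝕋 → L` with kernel `𝔭` and a simultaneous eigenvector.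
* `exists_proj`: the projector (times `N`) on the simultaneous `ψ`-eigenspace of commuting
  operators `c_j` of finite order.
* `maps_to_typeSub_of_kills_eigen`: an operator commuting with the `c_j` which kills the
  `ψ`-eigenvectors maps everything into `∑ range (c_j - ψ_j)` (saturated).
* **`lin_tensor`** (PVG-LIN): `F` finite free over `𝒪`, `η : 𝕋 → End_𝒪 F` commuting with the `c_j`,
  `𝕋` integral over `ℤ`, `χ : 𝕋 → D` (characteristic-`0` domain) killing every `t` with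
  `η t F ⊆ ∑ range (c_j - ψ_j)`.  Then there are `χ' : 𝕋 → L` with `ker χ' = ker χ` and
  `0 ≠ v ∈ L ⊗ F` with `η t v = χ' t • v`, `c_j v = ψ_j • v`.
-/

set_option autoImplicit false

open Polynomial TensorProduct

namespace Fermat.Agent.L.Pivot.Geom.H3

/-- In a ring integral over `ℤ`, a prime of residue characteristic `0` is minimal over every ideal
contained in it. -/
theorem mem_minimalPrimes_of_integral {𝕋 : Type*} [CommRing 𝕋] [Algebra.IsIntegral ℤ 𝕋]
    (𝔞 𝔭 : Ideal 𝕋) [h𝔭 : 𝔭.IsPrime] (hle : 𝔞 ≤ 𝔭)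
    (h0 : ∀ n : ℤ, (n : 𝕋) ∈ 𝔭 → n = 0) : 𝔭 ∈ 𝔞.minimalPrimes := by
  refine ⟨⟨h𝔭, hle⟩, ?_⟩
  rintro 𝔮 ⟨h𝔮, -⟩ h𝔮𝔭
  by_contra hne
  obtain ⟨x, hx𝔭, hx𝔮⟩ := Set.not_subset.mp hne
  have hlt := Ideal.comap_lt_comap_of_integral_mem_sdiff (R := ℤ) (I := 𝔮) (J := 𝔭) h𝔮𝔭
    ⟨hx𝔭, hx𝔮⟩ (Algebra.IsIntegral.isIntegral x)
  have hbot : 𝔭.comap (algebraMap ℤ 𝕋) = ⊥ := by
    rw [eq_bot_iff]
    intro n hn
    rw [Ideal.mem_comap] at hn
    rw [Ideal.mem_bot]
    exact h0 n (by simpa using hn)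
  rw [hbot] at hlt
  exact not_lt_bot hlt

/-- A commuting action `ρ : 𝕋 → End_L V` on a finite-dimensional space over an algebraically
closed field, and a prime `𝔭` of `𝕋` minimal over `ker ρ`: there are a character `χ : 𝕋 → L`
with kernel `𝔭` and a simultaneous eigenvector. -/
theorem exists_eigen_of_minimalPrime {L : Type*} [Field L] [IsAlgClosed L] {V : Type*}
    [AddCommGroup V] [Module L V] [FiniteDimensional L V] {𝕋 : Type*} [CommRing 𝕋]
    (ρ : 𝕋 →+* Module.End L V) (𝔭 : Ideal 𝕋) (h𝔭 : 𝔭 ∈ (RingHom.ker ρ).minimalPrimes) :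
    ∃ χ : 𝕋 →+* L, RingHom.ker χ = 𝔭 ∧ ∃ v : V, v ≠ 0 ∧ ∀ t, ρ t v = χ t • v := by
  classical
  have hcomm : ∀ a ∈ Set.range ρ, ∀ b ∈ Set.range ρ, a * b = b * a := by
    rintro _ ⟨t, rfl⟩ _ ⟨t', rfl⟩
    rw [← map_mul, ← map_mul, mul_comm]
  letI : CommRing (Algebra.adjoin L (Set.range ρ)) :=
    { (inferInstance : Ring (Algebra.adjoin L (Set.range ρ))) with
      mul_comm := (Algebra.isMulCommutative_adjoin L hcomm).is_comm.comm }
  let B := Algebra.adjoin L (Set.range ρ)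
  let f : 𝕋 →+* B := ρ.codRestrict B (fun t => Algebra.subset_adjoin ⟨t, rfl⟩)
  have hf : ∀ t, ((f t : B) : Module.End L V) = ρ t := fun t => rfl
  have hker : (⊥ : Ideal B).comap f = RingHom.ker ρ := by
    ext t
    rw [Ideal.mem_comap, Ideal.mem_bot, RingHom.mem_ker, ← hf t]
    exact Subtype.ext_iff
  obtain ⟨𝔓, h𝔓min, h𝔓⟩ := Ideal.exists_minimalPrimes_comap_eq (I := (⊥ : Ideal B)) f 𝔭
    (by rw [hker]; exact h𝔭)
  have h𝔓prime : 𝔓.IsPrime := h𝔓min.1.1
  haveI : IsNoetherianRing B := IsNoetherianRing.of_finite L B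
  haveI : IsArtinianRing B := IsArtinianRing.of_finite L B
  haveI : Module.Finite B V := Module.Finite.of_restrictScalars_finite L B V
  have hann : Module.annihilator B V = ⊥ := by
    rw [eq_bot_iff]
    intro b hb
    rw [Module.mem_annihilator] at hb
    rw [Ideal.mem_bot]
    apply Subtype.ext
    apply LinearMap.ext
    intro v
    exact hb v
  have hass : 𝔓 ∈ associatedPrimes B V :=
    Module.associatedPrimes.minimalPrimes_annihilator_subset_associatedPrimes B V (by rw [hann]; exact h𝔓min)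
  obtain ⟨-, v, hv⟩ := (isAssociatedPrime_iff).mp hass
  have hmem : ∀ b : B, b ∈ 𝔓 ↔ (b : Module.End L V) v = 0 := by
    intro b
    rw [hv, Submodule.mem_colon_singleton, Submodule.mem_bot]
    rfl
  have hv0 : v ≠ 0 := by
    intro h0
    apply h𝔓prime.ne_top
    rw [Ideal.eq_top_iff_one, hmem, h0, map_zero]
  haveI : 𝔓.IsMaximal := (IsArtinianRing.isPrime_iff_isMaximal 𝔓).mp h𝔓prime
  letI : Field (B ⧸ 𝔓) := Ideal.Quotient.field 𝔓
  haveI : Algebra.IsIntegral L (B ⧸ 𝔓) := Algebra.IsIntegral.of_finite L (B ⧸ 𝔓)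
  have hbij : Function.Bijective (algebraMap L (B ⧸ 𝔓)) :=
    IsAlgClosed.algebraMap_bijective_of_isIntegral
  let e : L ≃+* B ⧸ 𝔓 := RingEquiv.ofBijective (algebraMap L (B ⧸ 𝔓)) hbij
  let χ : 𝕋 →+* L := (e.symm : (B ⧸ 𝔓) →+* L).comp ((Ideal.Quotient.mk 𝔓).comp f)
  have hχ : ∀ t, algebraMap L (B ⧸ 𝔓) (χ t) = Ideal.Quotient.mk 𝔓 (f t) := by
    intro t
    exact e.apply_symm_apply _
  refine ⟨χ, ?_, v, hv0, ?_⟩
  · ext t
    rw [RingHom.mem_ker, ← h𝔓, Ideal.mem_comap]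
    constructor
    · intro h
      have := hχ t
      rw [h, map_zero] at this
      exact Ideal.Quotient.eq_zero_iff_mem.mp this.symm
    · intro h
      have := hχ t
      rw [Ideal.Quotient.eq_zero_iff_mem.mpr h] at this
      exact (map_eq_zero_iff _ hbij.1).mp this
  · intro t
    have h1 : f t - algebraMap L B (χ t) ∈ 𝔓 := by
      rw [← Ideal.Quotient.eq_zero_iff_mem, map_sub, ← hχ t]
      rw [sub_eq_zero]
      rfl
    have h2 := (hmem _).mp h1
    have h3 : ((f t - algebraMap L B (χ t) : B) : Module.End L V) = ρ t - algebraMap L _ (χ t) := rfl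
    rw [h3, LinearMap.sub_apply, sub_eq_zero] at h2
    rw [h2]
    rfl

section Proj

variable {𝒪 : Type*} [CommRing 𝒪] {F : Type*} [AddCommGroup F] [Module 𝒪 F]

/-- Polynomials in `c` commute with everything which commutes with `c`. -/
theorem commute_aeval {g c : Module.End 𝒪 F} (h : Commute g c) (q : 𝒪[X]) :
    Commute g (aeval c q) := by
  induction q using Polynomial.induction_on with
  | C a =>
    rw [aeval_C]
    exact (Algebra.commutes a g).symm
  | add p q hp hq =>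
    rw [map_add]
    exact hp.add_right hq
  | monomial n a ih =>
    rw [pow_succ, ← mul_assoc, map_mul, aeval_X]
    exact ih.mul_right h

/-- The projector (times `n`) on the `ψ`-eigenspace of an operator of order `n`. -/
theorem exists_proj_one (c : Module.End 𝒪 F) (n : ℕ) (hn : 0 < n) (hc : c ^ n = 1) (ψ : 𝒪)
    (hψ : ψ ^ n = 1) :
    ∃ P H : Module.End 𝒪 F, (∀ g : Module.End 𝒪 F, Commute g c → Commute g P) ∧
      (c - ψ • (1 : Module.End 𝒪 F)) * P = 0 ∧
      (n : 𝒪) • (1 : Module.End 𝒪 F) - P = (c - ψ • (1 : Module.End 𝒪 F)) * H := by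
  obtain ⟨m, rfl⟩ : ∃ m, n = m + 1 := ⟨n - 1, by omega⟩
  set p0 : 𝒪[X] := X ^ (m + 1) - 1 with hp0
  have hroot : IsRoot p0 ψ := by
    simp [hp0, IsRoot.def, hψ]
  set g : 𝒪[X] := p0 /ₘ (X - C ψ) with hg
  have hmul : (X - C ψ) * g = p0 := mul_divByMonic_eq_iff_isRoot.mpr hroot
  have hgψ : eval ψ g = ((m + 1 : ℕ) : 𝒪) * ψ ^ m := by
    have h1 := congrArg (fun q => eval ψ (derivative q)) hmul
    simp only [derivative_mul, derivative_sub, derivative_X, derivative_C, sub_zero, one_mul,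
      eval_add, eval_mul, eval_sub, eval_X, eval_C, sub_self, zero_mul, add_zero, hp0,
      derivative_X_pow, derivative_one, eval_pow, Nat.add_sub_cancel, eval_natCast] at h1
    simpa using h1
  have hroot2 : IsRoot (C ((m + 1 : ℕ) : 𝒪) - C ψ * g) ψ := by
    rw [IsRoot.def, eval_sub, eval_mul, eval_C, eval_C, hgψ]
    have : ψ * (((m + 1 : ℕ) : 𝒪) * ψ ^ m) = ((m + 1 : ℕ) : 𝒪) * ψ ^ (m + 1) := by ring
    rw [this, hψ, mul_one, sub_self]
  obtain ⟨h, hh⟩ := dvd_iff_isRoot.mpr hroot2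
  have hX : aeval c (X - C ψ : 𝒪[X]) = c - ψ • (1 : Module.End 𝒪 F) := by
    rw [map_sub, aeval_X, aeval_C, Algebra.algebraMap_eq_smul_one]
  refine ⟨aeval c (C ψ * g), aeval c h, fun g' hg' => commute_aeval hg' _, ?_, ?_⟩
  · rw [← hX, ← map_mul]
    have : (X - C ψ) * (C ψ * g) = C ψ * p0 := by rw [← hmul]; ring
    rw [this, map_mul, hp0, map_sub, map_pow, aeval_X, hc, map_one, sub_self, mul_zero]
  · rw [← hX, ← map_mul, ← hh, map_sub, aeval_C, Algebra.algebraMap_eq_smul_one]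

/-- The projector (times `N`) on the simultaneous eigenspace of commuting operators of finite
order. -/
theorem exists_proj {k : ℕ} (c : Fin k → Module.End 𝒪 F) (n : Fin k → ℕ) (hn : ∀ j, 0 < n j)
    (hc : ∀ j, c j ^ n j = 1) (hcc : ∀ i j, Commute (c i) (c j))
    (ψ : Fin k → 𝒪) (hψ : ∀ j, ψ j ^ n j = 1) (s : Finset (Fin k)) :
    ∃ (N : ℕ) (P : Module.End 𝒪 F), 0 < N ∧
      (∀ g : Module.End 𝒪 F, (∀ j, Commute g (c j)) → Commute g P) ∧
      (∀ j ∈ s, ∀ v, c j (P v) = ψ j • P v) ∧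
      (∀ v, (N : 𝒪) • v - P v ∈
        ⨆ j ∈ s, LinearMap.range (c j - ψ j • (1 : Module.End 𝒪 F))) := by
  classical
  induction s using Finset.induction_on with
  | empty =>
    refine ⟨1, 1, Nat.one_pos, fun g _ => Commute.one_right g, ?_, ?_⟩
    · intro j hj
      exact absurd hj (Finset.notMem_empty j)
    · intro v
      simp
  | insert j s hjs ih =>
    obtain ⟨N, P, hN, hPc, hPe, hPr⟩ := ih
    obtain ⟨Pj, Hj, hPjc, hPj0, hPjH⟩ := exists_proj_one (c j) (n j) (hn j) (hc j) (ψ j) (hψ j)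
    refine ⟨n j * N, Pj * P, Nat.mul_pos (hn j) hN, ?_, ?_, ?_⟩
    · intro g hg
      exact (hPjc g (hg j)).mul_right (hPc g hg)
    · intro i hi v
      rcases Finset.mem_insert.mp hi with rfl | hi
      · have h1 := congrArg (fun f : Module.End 𝒪 F => f (P v)) hPj0
        simp only [Module.End.mul_apply, LinearMap.sub_apply, LinearMap.smul_apply,
          Module.End.one_apply, LinearMap.zero_apply] at h1
        rw [Module.End.mul_apply]
        exact sub_eq_zero.mp h1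
      · have hcomm : Commute (c i) Pj := hPjc (c i) (hcc i j)
        have h1 : c i (Pj (P v)) = Pj (c i (P v)) := by
          have := congrArg (fun f : Module.End 𝒪 F => f (P v)) hcomm.eq
          simpa [Module.End.mul_apply] using this
        rw [Module.End.mul_apply, h1, hPe i hi v, map_smul]
    · intro v
      have h1 : ((n j * N : ℕ) : 𝒪) • v - (Pj * P) v =
          (n j : 𝒪) • ((N : 𝒪) • v - P v) + ((n j : 𝒪) • (1 : Module.End 𝒪 F) - Pj) (P v) := by
        simp only [Module.End.mul_apply, LinearMap.sub_apply, LinearMap.smul_apply,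
          Module.End.one_apply, Nat.cast_mul, smul_sub, mul_smul]
        abel
      rw [h1]
      refine Submodule.add_mem _ (Submodule.smul_mem _ _ ?_) ?_
      · refine (iSup_le fun i => iSup_le fun hi => ?_ :
          (⨆ i ∈ s, LinearMap.range (c i - ψ i • (1 : Module.End 𝒪 F))) ≤ _) (hPr v)
        exact le_iSup₂_of_le i (Finset.mem_insert_of_mem hi) le_rfl
      · rw [hPjH, Module.End.mul_apply]
        exact (le_iSup₂_of_le j (Finset.mem_insert_self j s) le_rfl :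
          LinearMap.range (c j - ψ j • (1 : Module.End 𝒪 F)) ≤ _) ⟨_, rfl⟩

end Proj

section Main

variable {𝒪 : Type*} [CommRing 𝒪] {F : Type*} [AddCommGroup F] [Module 𝒪 F]

/-- An operator commuting with the `c_j` which kills the simultaneous `ψ`-eigenvectors maps
everything into `∑ range (c_j - ψ_j)`, when the latter is saturated. -/
theorem maps_to_typeSub_of_kills_eigen [CharZero 𝒪] {k : ℕ} (c : Fin k → Module.End 𝒪 F)
    (n : Fin k → ℕ) (hn : ∀ j, 0 < n j)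
    (hc : ∀ j, c j ^ n j = 1) (hcc : ∀ i j, Commute (c i) (c j))
    (ψ : Fin k → 𝒪) (hψ : ∀ j, ψ j ^ n j = 1)
    (hsat : ∀ (a : 𝒪) (y : F), a ≠ 0 →
      a • y ∈ (⨆ j, LinearMap.range (c j - ψ j • (1 : Module.End 𝒪 F))) →
      y ∈ ⨆ j, LinearMap.range (c j - ψ j • (1 : Module.End 𝒪 F)))
    (g : Module.End 𝒪 F) (hg : ∀ j, Commute g (c j))
    (hkill : ∀ m : F, (∀ j, c j m = ψ j • m) → g m = 0) (v : F) :
    g v ∈ ⨆ j, LinearMap.range (c j - ψ j • (1 : Module.End 𝒪 F)) := by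
  obtain ⟨N, P, hN, hPc, hPe, hPr⟩ := exists_proj c n hn hc hcc ψ hψ Finset.univ
  have h1 : g (P v) = 0 := hkill (P v) (fun j => hPe j (Finset.mem_univ j) v)
  have h2 : P (g v) = 0 := by
    have := congrArg (fun f : Module.End 𝒪 F => f v) (hPc g hg).eq
    simp only [Module.End.mul_apply] at this
    rw [← this, h1]
  have h3 := hPr (g v)
  rw [h2, sub_zero] at h3
  have h4 : (⨆ j ∈ (Finset.univ : Finset (Fin k)),
      LinearMap.range (c j - ψ j • (1 : Module.End 𝒪 F))) =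
      ⨆ j, LinearMap.range (c j - ψ j • (1 : Module.End 𝒪 F)) := by
    simp
  rw [h4] at h3
  exact hsat (N : 𝒪) (g v) (Nat.cast_ne_zero.mpr hN.ne') h3

/-- `x ↦ 1 ⊗ x` is injective on a free module, when `𝒪 → L` is injective. -/
theorem tmul_one_injective {L : Type*} [CommRing L] [Algebra 𝒪 L]
    (hL : Function.Injective (algebraMap 𝒪 L)) [Module.Free 𝒪 F] (x : F)
    (hx : (1 : L) ⊗ₜ[𝒪] x = 0) : x = 0 := by
  classical
  let b := Module.Free.chooseBasis 𝒪 F
  have h1 := congrArg (Algebra.TensorProduct.basis L b).repr hx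
  rw [Algebra.TensorProduct.basis_repr_tmul, map_zero, one_smul] at h1
  apply b.repr.injective
  rw [map_zero]
  ext i
  have h2 := DFunLike.congr_fun h1 i
  simp only [Finsupp.mapRange_apply, Finsupp.coe_zero, Pi.zero_apply] at h2
  rw [Finsupp.coe_zero, Pi.zero_apply]
  exact hL (by rw [h2, map_zero])

/-- Restriction of a ring homomorphism into endomorphisms to a stable submodule. -/
def restrictRingHom {L : Type*} [CommRing L] {E : Type*} [AddCommGroup E] [Module L E]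
    {𝕋 : Type*} [Ring 𝕋] (ρ : 𝕋 →+* Module.End L E) (V : Submodule L E)
    (h : ∀ t, ∀ v ∈ V, ρ t v ∈ V) : 𝕋 →+* Module.End L V where
  toFun t := (ρ t).restrict (h t)
  map_one' := by
    ext v
    simp [LinearMap.restrict_apply]
  map_mul' := by
    intro t t'
    ext v
    simp [LinearMap.restrict_apply]
  map_zero' := by
    ext v
    simp [LinearMap.restrict_apply]
  map_add' := by
    intro t t'
    ext v
    simp [LinearMap.restrict_apply]

theorem restrictRingHom_apply {L : Type*} [CommRing L] {E : Type*} [AddCommGroup E] [Module L E]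
    {𝕋 : Type*} [Ring 𝕋] (ρ : 𝕋 →+* Module.End L E) (V : Submodule L E)
    (h : ∀ t, ∀ v ∈ V, ρ t v ∈ V) (t : 𝕋) (v : V) :
    ((restrictRingHom ρ V h t v : V) : E) = ρ t (v : E) := rfl

/-- **PVG-LIN, tensor form.** -/
theorem lin_tensor [IsDomain 𝒪] [CharZero 𝒪] {L : Type*} [Field L] [Algebra 𝒪 L] [IsAlgClosed L]
    (hL : Function.Injective (algebraMap 𝒪 L)) [Module.Finite 𝒪 F] [Module.Free 𝒪 F]
    {k : ℕ} (c : Fin k → Module.End 𝒪 F) (n : Fin k → ℕ) (hn : ∀ j, 0 < n j)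
    (hc : ∀ j, c j ^ n j = 1) (hcc : ∀ i j, Commute (c i) (c j))
    (ψ : Fin k → 𝒪) (hψ : ∀ j, ψ j ^ n j = 1)
    (hsat : ∀ (a : 𝒪) (y : F), a ≠ 0 →
      a • y ∈ (⨆ j, LinearMap.range (c j - ψ j • (1 : Module.End 𝒪 F))) →
      y ∈ ⨆ j, LinearMap.range (c j - ψ j • (1 : Module.End 𝒪 F)))
    {𝕋 : Type*} [CommRing 𝕋] [Algebra.IsIntegral ℤ 𝕋] (η : 𝕋 →+* Module.End 𝒪 F)
    (hηc : ∀ t j, Commute (η t) (c j))
    {D : Type*} [CommRing D] [IsDomain D] [CharZero D] (χ : 𝕋 →+* D)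
    (hχ : ∀ t, (∀ v, η t v ∈ ⨆ j, LinearMap.range (c j - ψ j • (1 : Module.End 𝒪 F))) →
      χ t = 0) :
    ∃ χ' : 𝕋 →+* L, RingHom.ker χ' = RingHom.ker χ ∧ ∃ v : L ⊗[𝒪] F, v ≠ 0 ∧
      (∀ t, (η t).baseChange L v = χ' t • v) ∧
      (∀ j, (c j).baseChange L v = algebraMap 𝒪 L (ψ j) • v) := by
  classical
  -- the eigenspace
  obtain ⟨V, hV⟩ : ∃ V : Submodule L (L ⊗[𝒪] F),
      ∀ v, v ∈ V ↔ ∀ j, (c j).baseChange L v = algebraMap 𝒪 L (ψ j) • v := by
    refine ⟨⨅ j, LinearMap.ker ((c j).baseChange L -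
      algebraMap 𝒪 L (ψ j) • (1 : Module.End L (L ⊗[𝒪] F))), fun v => ?_⟩
    simp only [Submodule.mem_iInf, LinearMap.mem_ker, LinearMap.sub_apply,
      LinearMap.smul_apply, Module.End.one_apply, sub_eq_zero]
  have hcomm : ∀ t j v, (c j).baseChange L ((η t).baseChange L v) =
      (η t).baseChange L ((c j).baseChange L v) := by
    intro t j v
    have h1 := congrArg (fun f : Module.End 𝒪 F => f.baseChange L) (hηc t j).eq
    simp only [LinearMap.baseChange_mul] at h1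
    have h2 := congrArg (fun f : Module.End L (L ⊗[𝒪] F) => f v) h1
    simp only [Module.End.mul_apply] at h2
    exact h2.symm
  have hstab : ∀ t, ∀ v ∈ V, (η t).baseChange L v ∈ V := by
    intro t v hv
    rw [hV] at hv ⊢
    intro j
    rw [hcomm, hv j, map_smul]
  obtain ⟨ρV, hρV⟩ : ∃ ρV : 𝕋 →+* Module.End L V,
      ∀ t (v : V), ((ρV t v : V) : L ⊗[𝒪] F) = (η t).baseChange L (v : L ⊗[𝒪] F) :=
    ⟨restrictRingHom (((Module.End.baseChangeHom 𝒪 L F :
      Module.End 𝒪 F →ₐ[𝒪] Module.End L (L ⊗[𝒪] F)) :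
      Module.End 𝒪 F →+* Module.End L (L ⊗[𝒪] F)).comp η) V hstab, fun t v => rfl⟩
  -- the kernel
  have hker : RingHom.ker ρV ≤ RingHom.ker χ := by
    intro t ht
    rw [RingHom.mem_ker] at ht ⊢
    apply hχ t
    refine maps_to_typeSub_of_kills_eigen c n hn hc hcc ψ hψ hsat (η t) (hηc t) ?_
    intro m hm
    apply tmul_one_injective (L := L) hL
    have hmV : (1 : L) ⊗ₜ[𝒪] m ∈ V := by
      rw [hV]
      intro j
      rw [LinearMap.baseChange_tmul, hm j, TensorProduct.tmul_smul, algebraMap_smul]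
    have h1 := hρV t ⟨_, hmV⟩
    rw [ht] at h1
    simp only [LinearMap.zero_apply, Submodule.coe_zero, LinearMap.baseChange_tmul] at h1
    exact h1.symm
  haveI : (RingHom.ker χ).IsPrime := RingHom.ker_isPrime χ
  have hmin : RingHom.ker χ ∈ (RingHom.ker ρV).minimalPrimes := by
    refine mem_minimalPrimes_of_integral _ _ hker ?_
    intro m hm
    rw [RingHom.mem_ker, map_intCast] at hm
    exact_mod_cast hm
  have hfinE : Module.Finite L (L ⊗[𝒪] F) := Module.Finite.base_change 𝒪 L F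
  have hfinV : FiniteDimensional L V := FiniteDimensional.finiteDimensional_submodule V
  have key := @exists_eigen_of_minimalPrime L _ _ V _ _ hfinV 𝕋 _ ρV (RingHom.ker χ) hmin
  obtain ⟨χ', hχ', v, hv0, hv⟩ := key
  refine ⟨χ', hχ', (v : L ⊗[𝒪] F), ?_, ?_, ?_⟩
  · intro h
    exact hv0 (Subtype.ext h)
  · intro t
    rw [← hρV, hv t]
    rfl
  · exact (hV _).mp v.2

end Main

end Fermat.Agent.L.Pivot.Geom.H3

end
-- ==== END Fermat.Agent.L.Pivot.Geom.H3_LinCore

-- ==== BEGIN Fermat.Agent.L.Pivot.Geom.H4_B1Sum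
section

/-!
# PIVOT / PV-GEOM, leaf PVG-B1 (helper4): two character sums

* `sum_alpha_eq_zero` : if `f (u, w) = χ(s)² f (u', w')` whenever `u = u' s`,
  `s = 1 + m u (w - w')`, then `∑_{u, w} χ⁻¹(u) f (u, w) = 0` for `χ ≠ 1`;
* `sum_beta_eq_zero`  : `∑_{b, u} χ⁻¹(u) F (b - u) = 0` for `χ ≠ 1`.
-/

set_option autoImplicit false

namespace Fermat.Agent.L.Pivot.Geom.H4

open Finset

variable {q : ℕ} [Fact q.Prime] {L : Type*} [Field L]

theorem exists_ne_zero_chi_ne_one (χ : MulChar (ZMod q) L) (hχ : χ ≠ 1) :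
    ∃ t : ZMod q, t ≠ 0 ∧ χ t ≠ 1 := by
  obtain ⟨a, ha⟩ := MulChar.ne_one_iff.mp hχ
  exact ⟨a, a.ne_zero, ha⟩

theorem sum_alpha_eq_zero (χ : MulChar (ZMod q) L) (hχ : χ ≠ 1) (m : ZMod q) (hm : m ≠ 0)
    (f : ZMod q → ZMod q → L)
    (hrel : ∀ u u' w w' : ZMod q, u ≠ 0 → u = u' * (1 + m * u * (w - w')) →
      f u w = χ (1 + m * u * (w - w')) ^ 2 * f u' w') :
    ∑ u : ZMod q, ∑ w : ZMod q, χ⁻¹ u * f u w = 0 := by
  obtain ⟨t, ht0, ht1⟩ := exists_ne_zero_chi_ne_one χ hχ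
  set g : ZMod q × ZMod q → L := fun p => χ⁻¹ p.1 * f p.1 p.2 with hg
  have hS : ∑ u : ZMod q, ∑ w : ZMod q, χ⁻¹ u * f u w = ∑ p : ZMod q × ZMod q, g p := by
    rw [Fintype.sum_prod_type]
  rw [hS]
  let e : ZMod q × ZMod q ≃ ZMod q × ZMod q :=
    { toFun := fun p => (p.1 * t, p.2 + (t - 1) * (m * (p.1 * t))⁻¹)
      invFun := fun p => (p.1 * t⁻¹, p.2 - (t - 1) * (m * p.1)⁻¹)
      left_inv := by
        rintro ⟨a, b⟩
        simp only [Prod.mk.injEq]
        refine ⟨mul_inv_cancel_right₀ ht0 a, by ring⟩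
      right_inv := by
        rintro ⟨a, b⟩
        simp only [Prod.mk.injEq]
        refine ⟨inv_mul_cancel_right₀ ht0 a, ?_⟩
        rw [inv_mul_cancel_right₀ ht0 a]
        ring }
  have hkey : ∀ p : ZMod q × ZMod q, g (e p) = χ t * g p := by
    rintro ⟨u', w'⟩
    show χ⁻¹ (u' * t) * f (u' * t) (w' + (t - 1) * (m * (u' * t))⁻¹) = χ t * (χ⁻¹ u' * f u' w')
    by_cases hu' : u' = 0
    · subst hu'
      simp [MulChar.map_zero]
    · have hu : u' * t ≠ 0 := mul_ne_zero hu' ht0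
      have hmu : m * (u' * t) ≠ 0 := mul_ne_zero hm hu
      have hs : 1 + m * (u' * t) * (w' + (t - 1) * (m * (u' * t))⁻¹ - w') = t := by
        have : w' + (t - 1) * (m * (u' * t))⁻¹ - w' = (t - 1) * (m * (u' * t))⁻¹ := by ring
        rw [this, mul_comm (t - 1), ← mul_assoc, mul_inv_cancel₀ hmu]
        ring
      have h1 := hrel (u' * t) u' (w' + (t - 1) * (m * (u' * t))⁻¹) w' hu (by rw [hs])
      rw [hs] at h1
      rw [h1, map_mul, MulChar.inv_apply_eq_inv' χ t]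
      have hχt : χ t ≠ 0 := by
        have hunit : IsUnit t := isUnit_iff_ne_zero.mpr ht0
        exact (IsUnit.map χ hunit).ne_zero
      field_simp
  have h2 : ∑ p : ZMod q × ZMod q, g p = χ t * ∑ p : ZMod q × ZMod q, g p := by
    conv_lhs => rw [← Equiv.sum_comp e g]
    rw [Finset.mul_sum]
    exact Finset.sum_congr rfl fun p _ => hkey p
  have h3 : (1 - χ t) * ∑ p : ZMod q × ZMod q, g p = 0 := by
    rw [sub_mul, one_mul, ← h2, sub_self]
  rcases mul_eq_zero.mp h3 with h | h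
  · exact absurd (sub_eq_zero.mp h).symm ht1
  · exact h

theorem sum_beta_eq_zero (χ : MulChar (ZMod q) L) (hχ : χ ≠ 1) (F : ZMod q → L) :
    ∑ b : ZMod q, ∑ u : ZMod q, χ⁻¹ u * F (b - u) = 0 := by
  rw [Finset.sum_comm]
  have h1 : ∀ u : ZMod q, ∑ b : ZMod q, χ⁻¹ u * F (b - u) = χ⁻¹ u * ∑ b : ZMod q, F b := by
    intro u
    rw [Finset.mul_sum]
    exact Equiv.sum_comp (Equiv.subRight u) (fun b => χ⁻¹ u * F b)
  rw [Finset.sum_congr rfl (fun u _ => h1 u), ← Finset.sum_mul]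
  have hχ' : χ⁻¹ ≠ 1 := fun h => hχ (by rw [← inv_inv χ, h, inv_one])
  rw [MulChar.sum_eq_zero_of_ne_one hχ', zero_mul]

end Fermat.Agent.L.Pivot.Geom.H4

end
-- ==== END Fermat.Agent.L.Pivot.Geom.H4_B1Sum

-- ==== BEGIN Fermat.Agent.L.Pivot.Geom.H4_EigPartCore
section

/-!
# PIVOT / PV-GEOM, leaf P-EIGPART (helper4), part 1: the invariants of the pivot diamonds

`V` an `L`-vector space with an injective map `μ : V → Hom(Γ₀(M) ∩ Γ₁(c), L)` equivariant for the
Hecke operators `TV ℓ` and the diamond operators `dia : (ℤ/c)ˣ → End V`; `cQ ∣ c`.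

* `pivInv`  : the vectors fixed by the diamonds `d ≡ 1 mod cQ` (`V₁`);
* `dia1`    : the action of `(ℤ/cQ)ˣ` on `V₁`;
* `mu1`     : `μ₁ = cor ∘ μ : V₁ → Hom(Γ₀(M') ∩ Γ₁(cQ), L)` (`M' = M` as numbers), with
  `res (μ₁ v) = index • μ v` (`resK_mu1`), injective (`mu1_inj`), parabolic (`mu1_par`),
  equivariant for `TV ℓ` (`mu1_TV`) and for `dia1` (`mu1_dia1`).

Complete proofs, standard axioms only.
-/

set_option autoImplicit false

namespace Fermat.Agent.L.Pivot.Geom.H4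

open CongruenceSubgroup Matrix.SpecialLinearGroup ModularForm Finset
open scoped MatrixGroups
open Fermat.Agent.NEB.EIG.H39 Fermat.Agent.Betti ModularCurve.Period

section PivInv

variable {L : Type*} [Field L] {V : Type*} [AddCommGroup V] [Module L V] {c cQ : ℕ}

/-- The vectors fixed by the diamond operators `d ≡ 1 mod cQ`. -/
def pivInv (hcQc : cQ ∣ c) (dia : (ZMod c)ˣ →* Module.End L V) : Submodule L V where
  carrier := {v | ∀ d : (ZMod c)ˣ, ZMod.unitsMap hcQc d = 1 → dia d v = v}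
  add_mem' := fun {a b} ha hb d hd => by rw [map_add, ha d hd, hb d hd]
  zero_mem' := fun d _ => map_zero _
  smul_mem' := fun r v hv d hd => by rw [map_smul, hv d hd]

theorem mem_pivInv {hcQc : cQ ∣ c} {dia : (ZMod c)ˣ →* Module.End L V} {v : V} :
    v ∈ pivInv hcQc dia ↔ ∀ d : (ZMod c)ˣ, ZMod.unitsMap hcQc d = 1 → dia d v = v := Iff.rfl

theorem pivInv_of_comm (hcQc : cQ ∣ c) (dia : (ZMod c)ˣ →* Module.End L V)
    (f : Module.End L V) (hf : ∀ d, Commute f (dia d)) {v : V} (hv : v ∈ pivInv hcQc dia) :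
    f v ∈ pivInv hcQc dia := by
  intro d hd
  have h1 : dia d (f v) = f (dia d v) := by
    have := congrArg (fun F : Module.End L V => F v) (hf d).eq
    simp only [Module.End.mul_apply] at this
    exact this.symm
  rw [h1, hv d hd]

theorem pivInv_dia (hcQc : cQ ∣ c) (dia : (ZMod c)ˣ →* Module.End L V) (d : (ZMod c)ˣ)
    {v : V} (hv : v ∈ pivInv hcQc dia) : dia d v ∈ pivInv hcQc dia :=
  pivInv_of_comm hcQc dia (dia d) (fun d' => (Commute.all d d').map dia) hv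

/-- The diamond operators restricted to the invariants. -/
def diaR (hcQc : cQ ∣ c) (dia : (ZMod c)ˣ →* Module.End L V) :
    (ZMod c)ˣ →* Module.End L ↥(pivInv hcQc dia) where
  toFun d := (dia d).restrict (fun _ hv => pivInv_dia hcQc dia d hv)
  map_one' := by
    apply LinearMap.ext
    intro v
    apply Subtype.ext
    rw [LinearMap.coe_restrict_apply, map_one]
    rfl
  map_mul' d d' := by
    apply LinearMap.ext
    intro v
    apply Subtype.ext
    rw [LinearMap.coe_restrict_apply, map_mul, Module.End.mul_apply, Module.End.mul_apply,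
      LinearMap.coe_restrict_apply, LinearMap.coe_restrict_apply]

theorem coe_diaR (hcQc : cQ ∣ c) (dia : (ZMod c)ˣ →* Module.End L V) (d : (ZMod c)ˣ)
    (v : ↥(pivInv hcQc dia)) : ((diaR hcQc dia d v : ↥(pivInv hcQc dia)) : V) = dia d v :=
  rfl

theorem diaR_eq_one (hcQc : cQ ∣ c) (dia : (ZMod c)ˣ →* Module.End L V) {d : (ZMod c)ˣ}
    (hd : ZMod.unitsMap hcQc d = 1) : diaR hcQc dia d = 1 := by
  apply LinearMap.ext
  intro v
  apply Subtype.ext
  rw [coe_diaR, Module.End.one_apply]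
  exact v.2 d hd

theorem diaR_congr (hcQc : cQ ∣ c) (dia : (ZMod c)ˣ →* Module.End L V) {d d' : (ZMod c)ˣ}
    (h : ZMod.unitsMap hcQc d = ZMod.unitsMap hcQc d') : diaR hcQc dia d = diaR hcQc dia d' := by
  have h1 : ZMod.unitsMap hcQc (d'⁻¹ * d) = 1 := by
    rw [map_mul, map_inv, h, inv_mul_cancel]
  have h2 : d = d' * (d'⁻¹ * d) := by group
  rw [h2, map_mul, diaR_eq_one hcQc dia h1, mul_one]

/-- The action of `(ℤ/cQ)ˣ` on the invariants. -/
noncomputable def dia1 [NeZero c] (hcQc : cQ ∣ c) (dia : (ZMod c)ˣ →* Module.End L V) :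
    (ZMod cQ)ˣ →* Module.End L ↥(pivInv hcQc dia) where
  toFun d₁ := diaR hcQc dia (Function.surjInv (ZMod.unitsMap_surjective hcQc) d₁)
  map_one' := diaR_eq_one hcQc dia (Function.surjInv_eq _ 1)
  map_mul' a b := by
    rw [← map_mul]
    apply diaR_congr
    rw [map_mul, Function.surjInv_eq (ZMod.unitsMap_surjective hcQc),
      Function.surjInv_eq (ZMod.unitsMap_surjective hcQc),
      Function.surjInv_eq (ZMod.unitsMap_surjective hcQc)]

theorem dia1_unitsMap [NeZero c] (hcQc : cQ ∣ c) (dia : (ZMod c)ˣ →* Module.End L V)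
    (d : (ZMod c)ˣ) : dia1 hcQc dia (ZMod.unitsMap hcQc d) = diaR hcQc dia d :=
  diaR_congr hcQc dia (Function.surjInv_eq _ _)

theorem dia1_pow [NeZero c] (hcQc : cQ ∣ c) (dia : (ZMod c)ˣ →* Module.End L V) (n : ℕ)
    (hdn : ∀ d, dia d ^ n = 1) (d₁ : (ZMod cQ)ˣ) : dia1 hcQc dia d₁ ^ n = 1 := by
  obtain ⟨d, rfl⟩ := ZMod.unitsMap_surjective hcQc d₁
  rw [dia1_unitsMap, ← map_pow]
  apply LinearMap.ext
  intro v
  apply Subtype.ext
  rw [coe_diaR, map_pow, hdn d]
  rfl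

end PivInv

section Cor

variable {L : Type*} [Field L] [CharZero L] {V : Type*} [AddCommGroup V] [Module L V]
  {M M' c cQ : ℕ}

/-- The index of `Γ₀(M) ∩ Γ₁(c)` in `Γ₀(M') ∩ Γ₁(cQ)`. -/
noncomputable def pvIdx (hMM : M' ∣ M) (hcQc : cQ ∣ c) : ℕ :=
  (Subgroup.inclusion (Gam1_mono (M := M') (M' := M) hMM hcQc)).range.index

theorem pvIdx_ne_zero [NeZero M] (hMM : M' ∣ M) (hc : c ∣ M) (hcQc : cQ ∣ c) :
    pvIdx hMM hcQc ≠ 0 := by
  haveI := finiteIndex_inclusion (Gam1_mono (M := M') (M' := M) hMM hcQc)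
    (Gamma_le_Gam1 (N := M) (dvd_refl M) hc)
  exact Subgroup.FiniteIndex.index_ne_zero

/-- `μ₁ = cor ∘ μ` on the invariants. -/
noncomputable def mu1 (hMM : M' ∣ M) (hcQc : cQ ∣ c)
    (μ : V →ₗ[L] (Additive (Gam1 M c) →+ L)) (dia : (ZMod c)ˣ →* Module.End L V) :
    ↥(pivInv hcQc dia) →ₗ[L] (Additive (Gam1 M' cQ) →+ L) :=
  (corLin (Gam1_mono (M := M') (M' := M) hMM hcQc)).comp (μ.comp (pivInv hcQc dia).subtype)

theorem mu1_apply (hMM : M' ∣ M) (hcQc : cQ ∣ c)
    (μ : V →ₗ[L] (Additive (Gam1 M c) →+ L)) (dia : (ZMod c)ˣ →* Module.End L V)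
    (v : ↥(pivInv hcQc dia)) :
    mu1 hMM hcQc μ dia v = corLin (Gam1_mono (M := M') (M' := M) hMM hcQc) (μ (v : V)) := rfl

omit [CharZero L] in
/-- The diamond operator of `g ∈ Γ₀(M)`, `a_g ≡ 1 mod cQ`, fixes `μ v` for invariant `v`. -/
theorem Dop_mu_of_inv (hc : c ∣ M) (hcQc : cQ ∣ c)
    (μ : V →ₗ[L] (Additive (Gam1 M c) →+ L)) (dia : (ZMod c)ˣ →* Module.End L V)
    (hdia : ∀ (g : SL(2, ℤ)) (hg : (M : ℤ) ∣ g 1 0) (d : (ZMod c)ˣ),
      (d : ZMod c) = ((g 0 0 : ℤ) : ZMod c) → ∀ v, μ (dia d v) = Dop hc g hg (μ v))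
    (g : SL(2, ℤ)) (hg : (M : ℤ) ∣ g 1 0) (hg1 : (cQ : ℤ) ∣ g 0 0 - 1)
    {v : V} (hv : v ∈ pivInv hcQc dia) : Dop hc g hg (μ v) = μ v := by
  have hgc : ((c : ℕ) : ℤ) ∣ g 1 0 := (Int.natCast_dvd_natCast.mpr hc).trans hg
  have hu : IsUnit (((g 0 0 : ℤ) : ZMod c)) := IsUnit.of_mul_eq_one _ (entry_mul_eq_one hgc)
  have h1 := hdia g hg hu.unit rfl v
  have h2 : ZMod.unitsMap hcQc hu.unit = 1 := by
    apply Units.ext
    rw [ZMod.unitsMap_def, Units.coe_map, IsUnit.unit_spec, MonoidHom.coe_coe, map_intCast,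
      Units.val_one]
    have h3 : (((g 0 0 - 1 : ℤ) : ℤ) : ZMod cQ) = 0 :=
      (ZMod.intCast_zmod_eq_zero_iff_dvd _ _).mpr hg1
    rw [Int.cast_sub, Int.cast_one, sub_eq_zero] at h3
    exact h3
  rw [← h1, hv _ h2]

/-- `res (μ₁ v) = index • μ v`. -/
theorem resK_mu1 [NeZero M] (hMM : M' ∣ M) (hM'M : M ∣ M') (hc : c ∣ M) (hcQc : cQ ∣ c)
    (μ : V →ₗ[L] (Additive (Gam1 M c) →+ L)) (dia : (ZMod c)ˣ →* Module.End L V)
    (hdia : ∀ (g : SL(2, ℤ)) (hg : (M : ℤ) ∣ g 1 0) (d : (ZMod c)ˣ),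
      (d : ZMod c) = ((g 0 0 : ℤ) : ZMod c) → ∀ v, μ (dia d v) = Dop hc g hg (μ v))
    (v : ↥(pivInv hcQc dia)) :
    resK (Gam1_mono (M := M') (M' := M) hMM hcQc) (mu1 hMM hcQc μ dia v)
      = pvIdx hMM hcQc • μ (v : V) := by
  rw [mu1_apply, corLin_apply]
  have hgM : ∀ g ∈ Gam1 M' cQ, (M : ℤ) ∣ (g : SL(2, ℤ)) 1 0 := fun g hg =>
    (Int.natCast_dvd_natCast.mpr hM'M).trans hg.1
  refine resK_corAlong (Gam1_mono (M := M') (M' := M) hMM hcQc)
    (Gamma_le_Gam1 (N := M) (dvd_refl M) hc) ?_ _ ?_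
  · intro g hg h hh
    have := gam0_conj_mem hc (dvd_inv10 (hgM g hg)) hh
    rwa [inv_inv] at this
  · intro g hg h hh
    have hginv : g⁻¹ ∈ Gam1 M' cQ := Subgroup.inv_mem _ hg
    have h1 := Dop_mu_of_inv hc hcQc μ dia hdia g⁻¹ (hgM _ hginv) hginv.2.2 v.2
    have h2 : Dop hc g⁻¹ (hgM _ hginv) (μ (v : V)) (Additive.ofMul h)
        = μ (v : V) (Additive.ofMul h) := by rw [h1]
    rw [Dop_inv_apply_apply hc g _ _ h hh] at h2
    exact h2

theorem mu1_inj [NeZero M] (hMM : M' ∣ M) (hM'M : M ∣ M') (hc : c ∣ M) (hcQc : cQ ∣ c)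
    (μ : V →ₗ[L] (Additive (Gam1 M c) →+ L)) (hμ : Function.Injective μ)
    (dia : (ZMod c)ˣ →* Module.End L V)
    (hdia : ∀ (g : SL(2, ℤ)) (hg : (M : ℤ) ∣ g 1 0) (d : (ZMod c)ˣ),
      (d : ZMod c) = ((g 0 0 : ℤ) : ZMod c) → ∀ v, μ (dia d v) = Dop hc g hg (μ v)) :
    Function.Injective (mu1 hMM hcQc μ dia) := by
  rw [← LinearMap.ker_eq_bot, LinearMap.ker_eq_bot']
  intro v hv
  have h1 := resK_mu1 hMM hM'M hc hcQc μ dia hdia v
  rw [hv] at h1
  have h2 : resK (Gam1_mono (M := M') (M' := M) hMM hcQc)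
      (0 : Additive (Gam1 M' cQ) →+ L) = 0 := AddMonoidHom.zero_comp _
  rw [h2] at h1
  have h3 : μ (v : V) = 0 := by
    have h4 : (pvIdx hMM hcQc : L) • μ (v : V) = 0 := by
      rw [Nat.cast_smul_eq_nsmul]
      exact h1.symm
    rcases smul_eq_zero.mp h4 with h5 | h5
    · exact absurd (Nat.cast_eq_zero.mp h5) (pvIdx_ne_zero hMM hc hcQc)
    · exact h5
  apply Subtype.ext
  apply hμ
  rw [h3]
  exact (map_zero μ).symm

theorem mu1_par [NeZero M] (hMM : M' ∣ M) (hM'M : M ∣ M') (hc : c ∣ M) (hcQc : cQ ∣ c)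
    (μ : V →ₗ[L] (Additive (Gam1 M c) →+ L))
    (hμpar : ∀ v, IsParabolicHom (Gam1 M c) (μ v))
    (dia : (ZMod c)ˣ →* Module.End L V)
    (hdia : ∀ (g : SL(2, ℤ)) (hg : (M : ℤ) ∣ g 1 0) (d : (ZMod c)ˣ),
      (d : ZMod c) = ((g 0 0 : ℤ) : ZMod c) → ∀ v, μ (dia d v) = Dop hc g hg (μ v))
    (v : ↥(pivInv hcQc dia)) :
    IsParabolicHom (Gam1 M' cQ) (mu1 hMM hcQc μ dia v) := by
  refine isPar_of_resK (Gam1_mono (M := M') (M' := M) hMM hcQc)
    (Gamma_le_Gam1 (N := M) (dvd_refl M) hc) (fun n a hn ha => ?_) ?_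
  · rw [nsmul_eq_mul] at ha
    rcases mul_eq_zero.mp ha with h' | h'
    · exact absurd (Nat.cast_eq_zero.mp h') hn
    · exact h'
  rw [resK_mu1 hMM hM'M hc hcQc μ dia hdia v]
  exact isPar_smul _ (hμpar _)

/-- `μ₁` intertwines the Hecke operators. -/
theorem mu1_TV [NeZero M] (hMM : M' ∣ M) (hM'M : M ∣ M') (hc : c ∣ M) (hcQ' : cQ ∣ M')
    (hcQc : cQ ∣ c)
    (μ : V →ₗ[L] (Additive (Gam1 M c) →+ L)) (dia : (ZMod c)ˣ →* Module.End L V)
    (hdia : ∀ (g : SL(2, ℤ)) (hg : (M : ℤ) ∣ g 1 0) (d : (ZMod c)ˣ),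
      (d : ZMod c) = ((g 0 0 : ℤ) : ZMod c) → ∀ v, μ (dia d v) = Dop hc g hg (μ v))
    (T : Module.End L V) (hT : ∀ d, Commute T (dia d))
    {ℓ : ℕ} (hℓ : ℓ.Prime) (hℓM : ¬ ℓ ∣ M) (hℓM' : ¬ ℓ ∣ M')
    (hTμ : ∀ v, μ (T v) = TD M c hc hℓ hℓM (μ v))
    (v : ↥(pivInv hcQc dia)) :
    mu1 hMM hcQc μ dia (T.restrict (fun _ hv => pivInv_of_comm hcQc dia T hT hv) v)
      = TD M' cQ hcQ' hℓ hℓM' (mu1 hMM hcQc μ dia v) := by
  apply resK_inj (Gam1_mono (M := M') (M' := M) hMM hcQc)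
    (Gamma_le_Gam1 (N := M) (dvd_refl M) hc)
  have e1 := resK_TD (L := L) hcQ' hc hMM hcQc hℓ hℓM' hℓM (mu1 hMM hcQc μ dia v)
  rw [e1, resK_mu1 hMM hM'M hc hcQc μ dia hdia, resK_mu1 hMM hM'M hc hcQc μ dia hdia,
    map_nsmul, LinearMap.coe_restrict_apply, hTμ]

/-- `μ₁` intertwines the diamond operators. -/
theorem mu1_dia1 [NeZero M] [NeZero c] (hMM : M' ∣ M) (hM'M : M ∣ M') (hc : c ∣ M)
    (hcQ' : cQ ∣ M') (hcQc : cQ ∣ c)
    (μ : V →ₗ[L] (Additive (Gam1 M c) →+ L)) (dia : (ZMod c)ˣ →* Module.End L V)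
    (hdia : ∀ (g : SL(2, ℤ)) (hg : (M : ℤ) ∣ g 1 0) (d : (ZMod c)ˣ),
      (d : ZMod c) = ((g 0 0 : ℤ) : ZMod c) → ∀ v, μ (dia d v) = Dop hc g hg (μ v))
    (g : SL(2, ℤ)) (hg' : (M' : ℤ) ∣ g 1 0) (d₁ : (ZMod cQ)ˣ)
    (hd : (d₁ : ZMod cQ) = ((g 0 0 : ℤ) : ZMod cQ)) (v : ↥(pivInv hcQc dia)) :
    mu1 hMM hcQc μ dia (dia1 hcQc dia d₁ v) = Dop hcQ' g hg' (mu1 hMM hcQc μ dia v) := by
  have hg : (M : ℤ) ∣ g 1 0 := (Int.natCast_dvd_natCast.mpr hM'M).trans hg'
  have hgc : ((c : ℕ) : ℤ) ∣ g 1 0 := (Int.natCast_dvd_natCast.mpr hc).trans hg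
  have hu : IsUnit (((g 0 0 : ℤ) : ZMod c)) := IsUnit.of_mul_eq_one _ (entry_mul_eq_one hgc)
  have h2 : ZMod.unitsMap hcQc hu.unit = d₁ := by
    apply Units.ext
    rw [ZMod.unitsMap_def, Units.coe_map, IsUnit.unit_spec, MonoidHom.coe_coe, map_intCast, hd]
  apply resK_inj (Gam1_mono (M := M') (M' := M) hMM hcQc)
    (Gamma_le_Gam1 (N := M) (dvd_refl M) hc)
  rw [resK_Dop hcQ' hc (Gam1_mono (M := M') (M' := M) hMM hcQc) g hg' hg,
    resK_mu1 hMM hM'M hc hcQc μ dia hdia, resK_mu1 hMM hM'M hc hcQc μ dia hdia, map_nsmul,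
    ← h2, dia1_unitsMap, coe_diaR, hdia g hg hu.unit rfl]

end Cor

end Fermat.Agent.L.Pivot.Geom.H4

end
-- ==== END Fermat.Agent.L.Pivot.Geom.H4_EigPartCore

-- ==== BEGIN Fermat.Agent.L.Pivot.Geom.H50_Descend
section

/-!
# PIVOT, PV-GEOM part II, leaf PVG-N2 (helper50): descent of a linear system from `L` to `𝒪`

Pure algebra.  `𝒪` a principal ideal domain, `L` a field containing `𝒪`.  A family of linear
equations with coefficients in `𝒪` (row vectors `a ∈ R`) which has only the trivial solution in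
`𝒪 ^ r` has only the trivial solution in `L ^ r`.

* `descend_zero` : the statement.
-/

set_option autoImplicit false
set_option linter.style.haveILetI false

namespace Fermat.Agent.L.Pivot.Geom.H50

theorem descend_zero {𝒪 L : Type*} [CommRing 𝒪] [IsDomain 𝒪] [IsPrincipalIdealRing 𝒪]
    [Field L] [Algebra 𝒪 L] (hinj : Function.Injective (algebraMap 𝒪 L)) {r : ℕ}
    (R : Set (Fin r → 𝒪))
    (h : ∀ u : Fin r → 𝒪, (∀ a ∈ R, ∑ k, a k * u k = 0) → u = 0)
    (v : Fin r → L) (hv : ∀ a ∈ R, ∑ k, algebraMap 𝒪 L (a k) * v k = 0) : v = 0 := by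
  classical
  haveI : Module.IsTorsionFree 𝒪 L := by
    haveI : FaithfulSMul 𝒪 L := (faithfulSMul_iff_algebraMap_injective 𝒪 L).2 hinj
    infer_instance
  -- the span of the coordinates
  let N : Submodule 𝒪 L := Submodule.span 𝒪 (Set.range v)
  haveI : Module.Finite 𝒪 N := Module.Finite.span_of_finite 𝒪 (Set.finite_range v)
  haveI : Module.IsTorsionFree 𝒪 N := inferInstance
  haveI : Module.Free 𝒪 N := Module.free_of_finite_type_torsion_free'
  let b := Module.Free.chooseBasis 𝒪 N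
  have hvN : ∀ k, v k ∈ N := fun k => Submodule.subset_span ⟨k, rfl⟩
  let vN : Fin r → N := fun k => ⟨v k, hvN k⟩
  -- every coordinate of every `v k` vanishes
  have hcoord : ∀ j, (fun k => b.coord j (vN k)) = 0 := by
    intro j
    apply h
    intro a ha
    have h1 : ∑ k, a k • vN k = 0 := by
      apply Subtype.ext
      rw [Submodule.coe_sum]
      simp only [Submodule.coe_smul, ZeroMemClass.coe_zero]
      have := hv a ha
      simpa [Algebra.smul_def] using this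
    have h2 := congrArg (b.coord j) h1
    rw [map_sum, map_zero] at h2
    simpa [smul_eq_mul] using h2
  funext k
  have hz : vN k = 0 := by
    apply b.ext_elem
    intro j
    have := congrFun (hcoord j) k
    simpa using this
  exact congrArg Subtype.val hz

end Fermat.Agent.L.Pivot.Geom.H50

end
-- ==== END Fermat.Agent.L.Pivot.Geom.H50_Descend

-- ==== BEGIN Fermat.Agent.L.Pivot.Geom.H50_FixVec
section

/-!
# PIVOT, PV-GEOM part II, leaf PVG-N2 (helper50): a common fixed vector  (N4)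

Pure algebra.  A group `G` acts linearly on a finite dimensional vector space `V`; `W ≠ 0` is a
stable subspace on which every `g ∈ G` satisfies `(g - 1)² = 0`.  Then `W` contains a nonzero
vector fixed by `G` (no tame generator is needed: the `N_g = g - 1` anticommute on `W`, so
`ker N_g ∩ W` is stable).

* `unip_inv_apply`     : `g⁻¹ w = 2 w - g w` on `W`;
* `unip_anticomm`      : `N_g N_h w + N_h N_g w = 0` on `W`;
* `exists_fixed_of_unip` : the common fixed vector.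
-/

set_option autoImplicit false

namespace Fermat.Agent.L.Pivot.Geom.H50

section FixVec

variable {L V G : Type*} [Field L] [AddCommGroup V] [Module L V] [Group G]
  (ρ : G →* Module.End L V)

theorem rho_inv_apply_h50 (g : G) (x : V) : ρ g⁻¹ (ρ g x) = x := by
  have h : ρ g⁻¹ * ρ g = 1 := by rw [← map_mul, inv_mul_cancel, map_one]
  have h2 := congrArg (fun f : Module.End L V => f x) h
  exact h2

/-- on a stable subspace where `(g - 1)² = 0`, the inverse of `g` is `2 - g`. -/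
theorem unip_inv_apply (W : Submodule L V)
    (hunip : ∀ g : G, ∀ w ∈ W, ρ g (ρ g w) - ρ g w - ρ g w + w = 0)
    (g : G) {w : V} (hw : w ∈ W) : ρ g⁻¹ w = w + w - ρ g w := by
  have h1 : ρ g (w + w - ρ g w) = w := by
    have := hunip g w hw
    rw [map_sub, map_add]
    have e : ρ g w + ρ g w - ρ g (ρ g w) = w - (ρ g (ρ g w) - ρ g w - ρ g w + w) := by abel
    rw [e, this, sub_zero]
  have h2 := rho_inv_apply_h50 ρ g (w + w - ρ g w)
  rw [h1] at h2
  exact h2

/-- the nilpotent parts anticommute. -/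
theorem unip_anticomm (W : Submodule L V) (hstab : ∀ g : G, ∀ w ∈ W, ρ g w ∈ W)
    (hunip : ∀ g : G, ∀ w ∈ W, ρ g (ρ g w) - ρ g w - ρ g w + w = 0)
    (g h : G) {w : V} (hw : w ∈ W) :
    ρ g (ρ h w) + ρ h (ρ g w) = ρ g w + ρ g w + (ρ h w + ρ h w) - (w + w) := by
  -- `(g h)⁻¹ = h⁻¹ g⁻¹`
  have h1 : ρ (g * h)⁻¹ w = w + w - ρ (g * h) w := unip_inv_apply ρ W hunip (g * h) hw
  have h2 : ρ (g * h)⁻¹ w = ρ h⁻¹ (ρ g⁻¹ w) := by
    rw [mul_inv_rev, map_mul]
    rfl
  have h3 : ρ g⁻¹ w = w + w - ρ g w := unip_inv_apply ρ W hunip g hw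
  have hgw : ρ g w ∈ W := hstab g w hw
  have h4 : ρ h⁻¹ w = w + w - ρ h w := unip_inv_apply ρ W hunip h hw
  have h5 : ρ h⁻¹ (ρ g w) = ρ g w + ρ g w - ρ h (ρ g w) := unip_inv_apply ρ W hunip h hgw
  have h6 : ρ (g * h) w = ρ g (ρ h w) := by
    rw [map_mul]
    rfl
  rw [h2, h3, map_sub, map_add, h4, h5, h6] at h1
  -- `h1 : (2w - hw) + (2w - hw) - (2gw - hgw) = 2w - ghw`
  have e : ρ g (ρ h w) + ρ h (ρ g w)
      = (w + w - ρ h w + (w + w - ρ h w) - (ρ g w + ρ g w - ρ h (ρ g w)))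
        - (w + w - ρ g (ρ h w)) + (ρ g w + ρ g w + (ρ h w + ρ h w) - (w + w)) := by abel
  rw [e, h1, sub_self, zero_add]

/-- **(N4)**: a common nonzero fixed vector. -/
theorem exists_fixed_of_unip [FiniteDimensional L V] (W : Submodule L V) (hW : W ≠ ⊥)
    (hstab : ∀ g : G, ∀ w ∈ W, ρ g w ∈ W)
    (hunip : ∀ g : G, ∀ w ∈ W, ρ g (ρ g w) - ρ g w - ρ g w + w = 0) :
    ∃ v ∈ W, v ≠ 0 ∧ ∀ g : G, ρ g v = v := by
  classical
  -- strong induction on the dimension
  suffices H : ∀ n : ℕ, ∀ W : Submodule L V, Module.finrank L W = n → W ≠ ⊥ →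
      (∀ g : G, ∀ w ∈ W, ρ g w ∈ W) →
      (∀ g : G, ∀ w ∈ W, ρ g (ρ g w) - ρ g w - ρ g w + w = 0) →
      ∃ v ∈ W, v ≠ 0 ∧ ∀ g : G, ρ g v = v from H _ W rfl hW hstab hunip
  intro n
  induction n using Nat.strong_induction_on with
  | _ n ih =>
    intro W hn hW hstab hunip
    by_cases hall : ∀ g : G, ∀ w ∈ W, ρ g w = w
    · obtain ⟨v, hv, hv0⟩ := Submodule.exists_mem_ne_zero_of_ne_bot hW
      exact ⟨v, hv, hv0, fun g => hall g v hv⟩
    · push Not at hall
      obtain ⟨g₀, w₀, hw₀, hne⟩ := hall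
      -- the kernel of `g₀ - 1` in `W`
      let W' : Submodule L V := W ⊓ LinearMap.ker (ρ g₀ - 1)
      have hW'le : W' ≤ W := inf_le_left
      have hmem : ∀ x, x ∈ W' ↔ x ∈ W ∧ ρ g₀ x = x := by
        intro x
        show x ∈ W ⊓ LinearMap.ker (ρ g₀ - 1) ↔ _
        rw [Submodule.mem_inf, LinearMap.mem_ker, LinearMap.sub_apply, Module.End.one_apply,
          sub_eq_zero]
      have hlt : W' < W := by
        refine lt_of_le_of_ne hW'le fun h => hne ?_
        have : w₀ ∈ W' := h ▸ hw₀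
        exact ((hmem w₀).1 this).2
      have hfr : Module.finrank L W' < n := by
        rw [← hn]
        exact Submodule.finrank_lt_finrank_of_lt hlt
      -- `u = (g₀ - 1) w₀` is a nonzero element of `W'`
      have hu : ρ g₀ w₀ - w₀ ∈ W' := by
        rw [hmem]
        refine ⟨W.sub_mem (hstab g₀ w₀ hw₀) hw₀, ?_⟩
        have := hunip g₀ w₀ hw₀
        rw [map_sub]
        have e : ρ g₀ (ρ g₀ w₀) - ρ g₀ w₀
            = (ρ g₀ (ρ g₀ w₀) - ρ g₀ w₀ - ρ g₀ w₀ + w₀) + (ρ g₀ w₀ - w₀) := by abel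
        rw [e, this, zero_add]
      have hW' : W' ≠ ⊥ := by
        intro h
        rw [h, Submodule.mem_bot, sub_eq_zero] at hu
        exact hne hu
      -- stability
      have hstab' : ∀ g : G, ∀ w ∈ W', ρ g w ∈ W' := by
        intro g w hw
        obtain ⟨hwW, hfix⟩ := (hmem w).1 hw
        rw [hmem]
        refine ⟨hstab g w hwW, ?_⟩
        have h1 := unip_anticomm ρ W hstab hunip g₀ g hwW
        rw [hfix] at h1
        -- `g₀ g w + g w = 2 w + 2 g w - 2 w`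
        have e : ρ g₀ (ρ g w) = (ρ g₀ (ρ g w) + ρ g w) - ρ g w := by abel
        rw [e, h1]
        abel
      obtain ⟨v, hv, hv0, hfix⟩ := ih _ hfr W' rfl hW' hstab'
        (fun g w hw => hunip g w (hW'le hw))
      exact ⟨v, hW'le hv, hv0, hfix⟩

end FixVec

end Fermat.Agent.L.Pivot.Geom.H50

end
-- ==== END Fermat.Agent.L.Pivot.Geom.H50_FixVec

-- ==== BEGIN Fermat.Agent.L.Pivot.Geom.H50_N2
section

/-!
# PIVOT, PV-GEOM part II, leaf PVG-N2 (helper50): the Tate-module form of (NU) on the `q`-new part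

Level `M q`, `q ∥ M`; `C : TateCoords (M * q) p S` the coordinatised Tate system of `J₀(M q)`
(helper81), `L : TateLimit C 𝒪 hp` its limit over a complete local domain `𝒪` with `p ≠ 0`.

* `PushCoords C` : coordinates for the two degeneracy push-forwards
  `α_*, β_* : J₀(M q) → J₀(M)`: INTEGER matrices `Aα, Aβ` (the Betti transfers in the bases of the
  coordinates; output of PVG-B2) such that a `p ^ k`-torsion point whose coordinate vector is
  killed by `Aα` (`Aβ`) modulo `p ^ k` is killed by `α_*` (`β_*`).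
* `rho_NU_new` : (NU) at level `k`, in coordinates.
* `limit_NU_new` : **(N2)**: from the torsion-level statement (NU) for the inertia group of `A`
  (`S35.H89.Stmt_TorsNU`), a vector `v ∈ 𝒪 ^ r` which is fixed by the inertia group of `A` and
  killed by `Aα` and `Aβ` (a `q`-new vector of the Tate module) is `0`.
* `n2_of_torsNU` : the form with `Stmt_TorsNU M q p` as hypothesis.
-/

set_option autoImplicit false
set_option linter.unusedSectionVars false

noncomputable section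

namespace Fermat.Agent.L.Pivot.Geom.H50

open AlgebraicCurve ModularCurve Fermat.Agent.GTor Fermat.Agent.GTor.H58T1
open Fermat.Agent.Betti.H76 Fermat.Agent.S35.H89 Fermat.Agent.GTor.H81
open Fermat.Agent.S36.H44

section Defs

variable {M q p : ℕ} [NeZero M] [NeZero q] {S : Set ℕ}

/-- **Coordinates for the two degeneracy push-forwards** `α_*, β_* : J₀(M q) → J₀(M)` with
respect to a coordinatised Tate system of `J₀(M q)`: integer matrices whose kernels modulo
`p ^ k` consist of coordinate vectors of points killed by `α_*`, resp. `β_*`. -/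
structure PushCoords (C : TateCoords (M * q) p S) where
  /-- the rank at the level `M` -/
  r' : ℕ
  /-- the matrix of `α_*` -/
  Aα : Matrix (Fin r') (Fin C.r) ℤ
  /-- the matrix of `β_*` -/
  Aβ : Matrix (Fin r') (Fin C.r) ℤ
  hα : ∀ (k : ℕ) (x : Jtor (M * q) (p ^ k)),
    (Aα.map (Int.cast : ℤ → ZMod (p ^ k))).mulVec (C.θ k x) = 0 →
      alphaPush M q (x : JZero (M * q)) = 0
  hβ : ∀ (k : ℕ) (x : Jtor (M * q) (p ^ k)),
    (Aβ.map (Int.cast : ℤ → ZMod (p ^ k))).mulVec (C.θ k x) = 0 →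
      betaPush M q (x : JZero (M * q)) = 0

end Defs

section Level

variable {M q p : ℕ} [NeZero M] [NeZero q] [Fact p.Prime] {S : Set ℕ}
  {C : TateCoords (M * q) p S}

/-- **(NU) at level `k`**, in coordinates, on the kernel of the two push-forwards. -/
theorem rho_NU_new (PC : PushCoords C) {c : ℕ} {A : ValuationSubring (AlgebraicClosure ℚ)}
    (h : ∀ x : JZero (M * q), (∃ n : ℕ, p ^ n • x = 0) → IsQNew M q x →
      (∀ σ ∈ A.inertiaSubgroupIn ℚ, σ • x = x) → p ^ c • x = 0)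
    (k : ℕ) (v : Fin C.r → ZMod (p ^ k))
    (hv : ∀ σ : A.inertiaSubgroupIn ℚ, (C.ρ k (σ : GQ) - 1).mulVec v = 0)
    (hα : (PC.Aα.map (Int.cast : ℤ → ZMod (p ^ k))).mulVec v = 0)
    (hβ : (PC.Aβ.map (Int.cast : ℤ → ZMod (p ^ k))).mulVec v = 0) :
    ((p ^ c : ℕ) : Matrix (Fin C.r) (Fin C.r) (ZMod (p ^ k))).mulVec v = 0 := by
  obtain ⟨x, rfl⟩ := (C.θ k).surjective v
  -- `x` is fixed by inertia
  have hfix : ∀ σ ∈ A.inertiaSubgroupIn ℚ, σ • (x : JZero (M * q)) = (x : JZero (M * q)) := by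
    intro σ hσ
    have h1 := hv ⟨σ, hσ⟩
    have h2 : C.mat k (TateCoords.galEnd k σ - 1) = C.ρ k σ - 1 := by
      rw [map_sub, map_one, C.mat_gal]
    rw [← h2, C.mat_mulVec] at h1
    have h3 : (TateCoords.galEnd k σ - 1 : AddMonoid.End (Jtor (M * q) (p ^ k))) x = 0 :=
      (C.θ k).injective (h1.trans (map_zero _).symm)
    have h4 := congrArg (fun y : Jtor (M * q) (p ^ k) => (y : JZero (M * q))) h3
    have h5 : σ • (x : JZero (M * q)) - (x : JZero (M * q)) = 0 := h4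
    exact sub_eq_zero.1 h5
  have key := h (x : JZero (M * q)) (pow_nsmul_coe' k x)
    (isQNew_of_push M q _ (PC.hα k x hα) (PC.hβ k x hβ)) hfix
  have h0 : ((p ^ c : ℕ) : AddMonoid.End (Jtor (M * q) (p ^ k))) x = 0 := by
    apply Subtype.ext
    have e : ((((p ^ c : ℕ) : AddMonoid.End (Jtor (M * q) (p ^ k))) x :
        Jtor (M * q) (p ^ k)) : JZero (M * q)) = p ^ c • (x : JZero (M * q)) := by
      rw [AddMonoid.End.natCast_apply]
      rfl
    rw [e, key]
    rfl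
  have hn : C.mat k ((p ^ c : ℕ) : AddMonoid.End (Jtor (M * q) (p ^ k))) =
      ((p ^ c : ℕ) : Matrix (Fin C.r) (Fin C.r) (ZMod (p ^ k))) := map_natCast (C.mat k) _
  rw [← hn, C.mat_mulVec, h0, map_zero]

end Level

section Limit

variable {M q p : ℕ} [NeZero M] [NeZero q] [Fact p.Prime] {S : Set ℕ}
  {C : TateCoords (M * q) p S}
variable {𝒪 : Type} [CommRing 𝒪] [IsLocalRing 𝒪]
  [IsAdicComplete (IsLocalRing.maximalIdeal 𝒪) 𝒪]
  {hp : (p : 𝒪) ∈ IsLocalRing.maximalIdeal 𝒪} (L : TateLimit C 𝒪 hp)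

/-- the square matrix all of whose rows are the row `i` of a rectangular matrix. -/
def rowMat {R : Type} {m n : ℕ} (X : Matrix (Fin m) (Fin n) R) (i : Fin m) :
    Matrix (Fin n) (Fin n) R :=
  Matrix.of fun _ b => X i b

theorem rowMat_mulVec {R : Type} [CommRing R] {m n : ℕ} (X : Matrix (Fin m) (Fin n) R)
    (i : Fin m) (v : Fin n → R) (a : Fin n) : (rowMat X i).mulVec v a = X.mulVec v i := rfl

theorem rowMat_map {R R' : Type} {m n : ℕ} (X : Matrix (Fin m) (Fin n) R) (i : Fin m)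
    (f : R → R') : (rowMat X i).map f = rowMat (X.map f) i := rfl

/-- **(N2), integral form**: a vector of the Tate module which is fixed by the inertia group of
`A` and killed by the two push-forwards is `0`. -/
theorem limit_NU_new [IsDomain 𝒪] (hp0 : (p : 𝒪) ≠ 0) (PC : PushCoords C) {c : ℕ}
    {A : ValuationSubring (AlgebraicClosure ℚ)}
    (h : ∀ x : JZero (M * q), (∃ n : ℕ, p ^ n • x = 0) → IsQNew M q x →
      (∀ σ ∈ A.inertiaSubgroupIn ℚ, σ • x = x) → p ^ c • x = 0)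
    (v : Fin C.r → 𝒪)
    (hv : ∀ σ ∈ A.inertiaSubgroupIn ℚ, (L.ρL σ).mulVec v = v)
    (hα : (PC.Aα.map (Int.cast : ℤ → 𝒪)).mulVec v = 0)
    (hβ : (PC.Aβ.map (Int.cast : ℤ → 𝒪)).mulVec v = 0) : v = 0 := by
  have hpp : p.Prime := Fact.out
  have hu₀ : ∀ σ ∈ A.inertiaSubgroupIn ℚ, (L.ρL σ - 1).mulVec v = 0 := by
    intro σ hσ
    rw [Matrix.sub_mulVec, Matrix.one_mulVec, hv σ hσ, sub_self]
  have hkey : ((p ^ c : ℕ) : Matrix (Fin C.r) (Fin C.r) 𝒪).mulVec v = 0 := by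
    funext i
    apply eq_of_forall_piK (IsLocalRing.maximalIdeal 𝒪)
    intro k
    have : NeZero (p ^ k) := ⟨pow_ne_zero k hpp.ne_zero⟩
    have hk := mulVec_eq_zero_of_family (p ^ k)
      (fun j : ↥(A.inertiaSubgroupIn ℚ) ⊕ (Fin PC.r' ⊕ Fin PC.r') =>
        Sum.elim (fun σ : ↥(A.inertiaSubgroupIn ℚ) => C.ρ k (σ : GQ) - 1)
          (Sum.elim (fun a => rowMat (PC.Aα.map (Int.cast : ℤ → ZMod (p ^ k))) a)
            (fun a => rowMat (PC.Aβ.map (Int.cast : ℤ → ZMod (p ^ k))) a)) j)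
      ((p ^ c : ℕ) : Matrix (Fin C.r) (Fin C.r) (ZMod (p ^ k)))
      (fun w hw => by
        refine rho_NU_new PC h k w (fun σ => hw (Sum.inl σ)) ?_ ?_
        · funext a
          have h1 := congrFun (hw (Sum.inr (Sum.inl a))) i
          exact h1
        · funext a
          have h1 := congrFun (hw (Sum.inr (Sum.inr a))) i
          exact h1)
      (cK (IsLocalRing.maximalIdeal 𝒪) p hp k)
      ((piK (IsLocalRing.maximalIdeal 𝒪) k) ∘ v) ?_
    · have e : ((p ^ c : ℕ) : Matrix (Fin C.r) (Fin C.r) (ZMod (p ^ k))).map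
            (cK (IsLocalRing.maximalIdeal 𝒪) p hp k) =
          ((p ^ c : ℕ) : Matrix (Fin C.r) (Fin C.r) 𝒪).map
            (piK (IsLocalRing.maximalIdeal 𝒪) k) :=
        ((compat_natCast (hp := hp) (p ^ c)) k).symm
      rw [e] at hk
      have h1 := congrFun hk i
      rw [← RingHom.map_mulVec] at h1
      rw [h1]
      simp
    · rintro (σ | a | a)
      · have e : (C.ρ k (σ : GQ) - 1).map (cK (IsLocalRing.maximalIdeal 𝒪) p hp k) =
            (L.ρL (σ : GQ) - 1).map (piK (IsLocalRing.maximalIdeal 𝒪) k) :=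
          (((L.spec (σ : GQ)).sub compat_one) k).symm
        show ((C.ρ k (σ : GQ) - 1).map (cK (IsLocalRing.maximalIdeal 𝒪) p hp k)).mulVec _ = 0
        rw [e]
        funext i
        rw [← RingHom.map_mulVec, hu₀ σ σ.2]
        simp
      · show ((rowMat (PC.Aα.map (Int.cast : ℤ → ZMod (p ^ k))) a).map
          (cK (IsLocalRing.maximalIdeal 𝒪) p hp k)).mulVec _ = 0
        have e : (rowMat (PC.Aα.map (Int.cast : ℤ → ZMod (p ^ k))) a).map
            (cK (IsLocalRing.maximalIdeal 𝒪) p hp k) =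
            (rowMat (PC.Aα.map (Int.cast : ℤ → 𝒪)) a).map
              (piK (IsLocalRing.maximalIdeal 𝒪) k) := by
          ext x y
          simp [rowMat]
        rw [e]
        funext j
        rw [← RingHom.map_mulVec, rowMat_mulVec, hα]
        simp
      · show ((rowMat (PC.Aβ.map (Int.cast : ℤ → ZMod (p ^ k))) a).map
          (cK (IsLocalRing.maximalIdeal 𝒪) p hp k)).mulVec _ = 0
        have e : (rowMat (PC.Aβ.map (Int.cast : ℤ → ZMod (p ^ k))) a).map
            (cK (IsLocalRing.maximalIdeal 𝒪) p hp k) =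
            (rowMat (PC.Aβ.map (Int.cast : ℤ → 𝒪)) a).map
              (piK (IsLocalRing.maximalIdeal 𝒪) k) := by
          ext x y
          simp [rowMat]
        rw [e]
        funext j
        rw [← RingHom.map_mulVec, rowMat_mulVec, hβ]
        simp
  have hpc : ((p ^ c : ℕ) : 𝒪) ≠ 0 := by
    rw [Nat.cast_pow]
    exact pow_ne_zero c hp0
  funext i
  have h4 := congrFun hkey i
  rw [Matrix.natCast_mulVec] at h4
  simp only [Pi.smul_apply, smul_eq_mul, Pi.zero_apply] at h4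
  exact (mul_eq_zero.1 h4).resolve_left hpc

end Limit

/-- **PVG-N2**: the Tate-module form of (NU) on the `q`-new part, from `S35.H89.Stmt_TorsNU`:
there is a valuation ring `A` over `q` such that, for every coordinatised Tate system of
`J₀(M q)` with coordinates for the push-forwards and every limit over a complete local domain
`𝒪`, no nonzero vector killed by the two push-forwards is fixed by the inertia group of `A`. -/
theorem n2_of_torsNU {M q p : ℕ} [NeZero M] [NeZero q] [Fact p.Prime]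
    (hNU : Stmt_TorsNU M q p) (hq : q.Prime) (hqM : q ∣ M) (hq2 : ¬ q ^ 2 ∣ M) (hqp : q ≠ p) :
    ∃ A : ValuationSubring (AlgebraicClosure ℚ), A.LiesOverPrime q ∧
      ∀ {S : Set ℕ} (C : TateCoords (M * q) p S) (PC : PushCoords C)
        (𝒪 : Type) [CommRing 𝒪] [IsLocalRing 𝒪] [IsAdicComplete (IsLocalRing.maximalIdeal 𝒪) 𝒪]
        [IsDomain 𝒪] (hp : (p : 𝒪) ∈ IsLocalRing.maximalIdeal 𝒪), (p : 𝒪) ≠ 0 →
        ∀ (L : TateLimit C 𝒪 hp) (v : Fin C.r → 𝒪),
          (∀ σ ∈ A.inertiaSubgroupIn ℚ, (L.ρL σ).mulVec v = v) →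
          (PC.Aα.map (Int.cast : ℤ → 𝒪)).mulVec v = 0 →
          (PC.Aβ.map (Int.cast : ℤ → 𝒪)).mulVec v = 0 → v = 0 := by
  obtain ⟨A, hA, c, hc⟩ := hNU hq hqM hq2 Fact.out hqp
  exact ⟨A, hA, fun C PC 𝒪 _ _ _ _ hp hp0 L v hv hα hβ =>
    limit_NU_new L hp0 PC hc v hv hα hβ⟩

end Fermat.Agent.L.Pivot.Geom.H50

end
end
-- ==== END Fermat.Agent.L.Pivot.Geom.H50_N2

-- ==== BEGIN Fermat.Agent.L.Pivot.Geom.H50_NewJ0Defs
section

/-!
# PIVOT, PV-GEOM part II, leaf PVG-N2 (helper50): the statement `Stmt_NewJ0`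

Level `M q`, `q ∥ M`, `q ≠ p`.  `𝒪` a complete discrete valuation ring with `0 ≠ p ∈ 𝔪`, `L` ANY
field containing `𝒪` (for instance `AlgebraicClosure (FractionRing 𝒪)`), `a : ℕ → L`, `S` a finite
set of primes.  **NOT BOTH**

* (i)  a parabolic `0 ≠ Φ : Γ₀(M q) → L` with `T_ℓ Φ = a ℓ • Φ` for the primes `ℓ ∤ M q`, `ℓ ∉ S`,
  `ℓ ≠ p`, which is `q`-new: `cor1 Φ = 0 = cor2 Φ`;
* (ii) a parabolic `0 ≠ Φ' : Γ₀(M) → L` with `T_ℓ Φ' = a ℓ • Φ'` for the same primes.

Proof: `Fermat/Agent/L/Pivot/Geom/H50_NewJ0.lean` (`H50.newJ0_of`), from (NU)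
(`S35.H89.Stmt_TorsNU M q p`), (UNIP) at the level `M` (`BAD.Stmt_TorsUnip M p`) and (B-2) for `β`
(`Geom.H81.Stmt_B2Beta M q`).
-/

set_option autoImplicit false

namespace Fermat.Agent.L.Pivot.Geom.H50

open CongruenceSubgroup ModularCurve.Period Fermat.Agent.Betti Fermat.Agent.S41

/-- **PVG-N2**: a system of eigenvalues which occurs in the `q`-new part of the level `M q`
(`q ∥ M`) does not occur at the level `M`. -/
def Stmt_NewJ0 (M q p : ℕ) [NeZero M] [NeZero q] : Prop :=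
  q.Prime → q ∣ M → ¬ q ^ 2 ∣ M → p.Prime → q ≠ p →
  ∀ (S : Finset ℕ)
    (𝒪 : Type) [CommRing 𝒪] [IsDomain 𝒪] [IsDiscreteValuationRing 𝒪]
    [IsAdicComplete (IsLocalRing.maximalIdeal 𝒪) 𝒪],
    (p : 𝒪) ∈ IsLocalRing.maximalIdeal 𝒪 → (p : 𝒪) ≠ 0 →
  ∀ (L : Type) [Field L] [Algebra 𝒪 L], Function.Injective (algebraMap 𝒪 L) →
  ∀ (a : ℕ → L)
    (Φ : Additive (Gamma0 (M * q)) →+ L), Φ ≠ 0 → IsParabolicHom (Gamma0 (M * q)) Φ →
    (∀ (ℓ : ℕ) (hℓ : ℓ.Prime) (hℓN : ¬ ℓ ∣ M * q), ℓ ∉ S → ℓ ≠ p →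
      TB (M * q) L hℓ hℓN Φ = a ℓ • Φ) →
    cor1 M q L Φ = 0 → cor2 M q L Φ = 0 →
  ∀ (Φ' : Additive (Gamma0 M) →+ L), Φ' ≠ 0 → IsParabolicHom (Gamma0 M) Φ' →
    (∀ (ℓ : ℕ) (hℓ : ℓ.Prime) (hℓN : ¬ ℓ ∣ M), ¬ ℓ ∣ M * q → ℓ ∉ S → ℓ ≠ p →
      TB M L hℓ hℓN Φ' = a ℓ • Φ') →
    False

end Fermat.Agent.L.Pivot.Geom.H50

end
-- ==== END Fermat.Agent.L.Pivot.Geom.H50_NewJ0Defs

-- ==== BEGIN Fermat.Agent.L.Pivot.Geom.H50_Scal
section

/-!
# PIVOT, PV-GEOM part II, leaf PVG-N2 (helper50): transfer of unipotence  (N3, abstract)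

Pure algebra.  `𝒪` a Noetherian local ring, `L` a field over `𝒪`; `ρ : G → M_r(𝒪)`,
`ρ' : G → M_r'(𝒪)` two matrix representations; `E ⊆ L ^ r` a set of vectors, `w ≠ 0` a vector of
`L ^ r'`.

* `scalSub E w` : the pairs `(X, X')` of matrices over `𝒪` acting on `E` and on `w` through a
  common scalar of `L`; an `𝒪`-submodule closed under products (`scalSub_mul`);
* `mem_of_approx` : a submodule of a finite module over a Noetherian local ring is closed for the
  `𝔪`-adic topology (Krull);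
* `lucas_mem` : if `(A + B, A' + B') ∈ scalSub`, `A B = B A = d`, `A' B' = B' A' = d`, then
  `(A ^ j + B ^ j, A' ^ j + B' ^ j) ∈ scalSub`;
* `unip_transfer` : if `g` is approximated by elements `h` with
  `(ρ h + d ρ h⁻¹, ρ' h + d ρ' h⁻¹) ∈ scalSub`, `d → 1`, and `(ρ' g - 1)² = 0`, then
  `(ρ g - 1)² = 0` on `E` (`E` stable under `ρ g`).
-/

set_option autoImplicit false

open IsLocalRing

namespace Fermat.Agent.L.Pivot.Geom.H50

section Scal

variable {𝒪 L : Type*} [CommRing 𝒪] [Field L] [Algebra 𝒪 L] {r r' : ℕ}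

/-- the action of a matrix over `𝒪` on `L ^ r`. -/
def actL (X : Matrix (Fin r) (Fin r) 𝒪) (v : Fin r → L) : Fin r → L :=
  (X.map (algebraMap 𝒪 L)).mulVec v

theorem actL_add (X Y : Matrix (Fin r) (Fin r) 𝒪) (v : Fin r → L) :
    actL (X + Y) v = actL X v + actL Y v := by
  unfold actL
  rw [Matrix.map_add (algebraMap 𝒪 L) (fun a b => map_add _ a b), Matrix.add_mulVec]

theorem actL_sub (X Y : Matrix (Fin r) (Fin r) 𝒪) (v : Fin r → L) :
    actL (X - Y) v = actL X v - actL Y v := by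
  unfold actL
  rw [Matrix.map_sub (algebraMap 𝒪 L) (fun a b => map_sub _ a b), Matrix.sub_mulVec]

theorem actL_mul (X Y : Matrix (Fin r) (Fin r) 𝒪) (v : Fin r → L) :
    actL (X * Y) v = actL X (actL Y v) := by
  unfold actL
  rw [Matrix.map_mul, Matrix.mulVec_mulVec]

theorem actL_one (v : Fin r → L) : actL (1 : Matrix (Fin r) (Fin r) 𝒪) v = v := by
  unfold actL
  rw [Matrix.map_one (algebraMap 𝒪 L) (map_zero _) (map_one _), Matrix.one_mulVec]

theorem actL_zero (v : Fin r → L) : actL (0 : Matrix (Fin r) (Fin r) 𝒪) v = 0 := by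
  unfold actL
  rw [Matrix.map_zero (algebraMap 𝒪 L) (map_zero _), Matrix.zero_mulVec]

theorem actL_smul (a : 𝒪) (X : Matrix (Fin r) (Fin r) 𝒪) (v : Fin r → L) :
    actL (a • X) v = algebraMap 𝒪 L a • actL X v := by
  unfold actL
  have e : (a • X).map (algebraMap 𝒪 L) = algebraMap 𝒪 L a • X.map (algebraMap 𝒪 L) := by
    ext i j
    simp [Matrix.map_apply, Matrix.smul_apply]
  rw [e, Matrix.smul_mulVec]

theorem actL_vec_smul (X : Matrix (Fin r) (Fin r) 𝒪) (c : L) (v : Fin r → L) :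
    actL X (c • v) = c • actL X v := by
  unfold actL
  rw [Matrix.mulVec_smul]

theorem actL_vec_add (X : Matrix (Fin r) (Fin r) 𝒪) (v v' : Fin r → L) :
    actL X (v + v') = actL X v + actL X v' := by
  unfold actL
  rw [Matrix.mulVec_add]

theorem actL_vec_sub (X : Matrix (Fin r) (Fin r) 𝒪) (v v' : Fin r → L) :
    actL X (v - v') = actL X v - actL X v' := by
  unfold actL
  rw [Matrix.mulVec_sub]

theorem actL_vec_zero (X : Matrix (Fin r) (Fin r) 𝒪) : actL X (0 : Fin r → L) = 0 := by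
  unfold actL
  rw [Matrix.mulVec_zero]

variable (E : Set (Fin r → L)) (w : Fin r' → L)

/-- The pairs of matrices acting on `E` and on `w` through a common scalar. -/
def scalSub : Submodule 𝒪 (Matrix (Fin r) (Fin r) 𝒪 × Matrix (Fin r') (Fin r') 𝒪) where
  carrier := {x | ∃ c : L, (∀ v ∈ E, actL x.1 v = c • v) ∧ actL x.2 w = c • w}
  zero_mem' := ⟨0, fun v _ => by
    show actL (0 : Matrix (Fin r) (Fin r) 𝒪) v = _
    rw [actL_zero, zero_smul], by
    show actL (0 : Matrix (Fin r') (Fin r') 𝒪) w = _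
    rw [actL_zero, zero_smul]⟩
  add_mem' := by
    rintro x y ⟨c, hc, hc'⟩ ⟨d, hd, hd'⟩
    refine ⟨c + d, fun v hv => ?_, ?_⟩
    · show actL (x.1 + y.1) v = _
      rw [actL_add, hc v hv, hd v hv, add_smul]
    · show actL (x.2 + y.2) w = _
      rw [actL_add, hc', hd', add_smul]
  smul_mem' := by
    rintro a x ⟨c, hc, hc'⟩
    refine ⟨algebraMap 𝒪 L a * c, fun v hv => ?_, ?_⟩
    · show actL (a • x.1) v = _
      rw [actL_smul, hc v hv, smul_smul]
    · show actL (a • x.2) w = _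
      rw [actL_smul, hc', smul_smul]

variable {E w}

theorem mem_scalSub {x : Matrix (Fin r) (Fin r) 𝒪 × Matrix (Fin r') (Fin r') 𝒪} :
    x ∈ scalSub E w ↔ ∃ c : L, (∀ v ∈ E, actL x.1 v = c • v) ∧ actL x.2 w = c • w := Iff.rfl

theorem scalSub_mul {X Y : Matrix (Fin r) (Fin r) 𝒪} {X' Y' : Matrix (Fin r') (Fin r') 𝒪}
    (hX : (X, X') ∈ scalSub E w) (hY : (Y, Y') ∈ scalSub E w) :
    (X * Y, X' * Y') ∈ scalSub E w := by
  obtain ⟨c, hc, hc'⟩ := hX
  obtain ⟨d, hd, hd'⟩ := hY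
  refine ⟨d * c, fun v hv => ?_, ?_⟩
  · show actL (X * Y) v = _
    have h1 : actL Y v = d • v := hd v hv
    have h2 : actL X v = c • v := hc v hv
    rw [actL_mul, h1, actL_vec_smul, h2, smul_smul]
  · show actL (X' * Y') w = _
    have h1 : actL Y' w = d • w := hd'
    have h2 : actL X' w = c • w := hc'
    rw [actL_mul, h1, actL_vec_smul, h2, smul_smul]

theorem scalSub_one : ((1 : Matrix (Fin r) (Fin r) 𝒪), (1 : Matrix (Fin r') (Fin r') 𝒪))
    ∈ scalSub E w :=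
  ⟨1, fun v _ => by
    show actL (1 : Matrix (Fin r) (Fin r) 𝒪) v = _
    rw [actL_one, one_smul], by
    show actL (1 : Matrix (Fin r') (Fin r') 𝒪) w = _
    rw [actL_one, one_smul]⟩

theorem scalSub_scalar (a : 𝒪) :
    (a • (1 : Matrix (Fin r) (Fin r) 𝒪), a • (1 : Matrix (Fin r') (Fin r') 𝒪))
      ∈ scalSub E w := by
  have h := (scalSub E w).smul_mem a (scalSub_one (E := E) (w := w))
  exact h

end Scal

/-! ## Krull -/

section Krull

variable {𝒪 : Type*} [CommRing 𝒪] [IsLocalRing 𝒪] [IsNoetherianRing 𝒪]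

/-- A submodule of a finite module over a Noetherian local ring is `𝔪`-adically closed. -/
theorem mem_of_approx {Λ : Type*} [AddCommGroup Λ] [Module 𝒪 Λ] [Module.Finite 𝒪 Λ]
    (U : Submodule 𝒪 Λ) (x : Λ)
    (h : ∀ n : ℕ, ∃ y ∈ U, x - y ∈ (maximalIdeal 𝒪 ^ n) • (⊤ : Submodule 𝒪 Λ)) : x ∈ U := by
  have hsep : (⨅ i : ℕ, maximalIdeal 𝒪 ^ i • ⊤ : Submodule 𝒪 (Λ ⧸ U)) = ⊥ :=
    Ideal.iInf_pow_smul_eq_bot_of_isLocalRing (maximalIdeal 𝒪)
      (maximalIdeal.isMaximal 𝒪).ne_top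
  have hx : U.mkQ x ∈ (⨅ i : ℕ, maximalIdeal 𝒪 ^ i • ⊤ : Submodule 𝒪 (Λ ⧸ U)) := by
    rw [Submodule.mem_iInf]
    intro n
    obtain ⟨y, hy, hxy⟩ := h n
    have hy0 : U.mkQ y = 0 := (Submodule.Quotient.mk_eq_zero U).2 hy
    have h1 : U.mkQ x = U.mkQ (x - y) := by
      rw [map_sub, hy0, sub_zero]
    rw [h1]
    have h2 : Submodule.map U.mkQ ((maximalIdeal 𝒪 ^ n) • (⊤ : Submodule 𝒪 Λ)) ≤
        (maximalIdeal 𝒪 ^ n) • (⊤ : Submodule 𝒪 (Λ ⧸ U)) := by
      rw [Submodule.map_smul'']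
      exact Submodule.smul_mono le_rfl le_top
    exact h2 (Submodule.mem_map_of_mem hxy)
  rw [hsep, Submodule.mem_bot] at hx
  exact (Submodule.Quotient.mk_eq_zero U).1 hx

end Krull

/-! ## small matrices -/

section Small

variable {𝒪 : Type*} [CommRing 𝒪] {m n : ℕ}

/-- all entries in the ideal `I`. -/
def IsSmallMat (I : Ideal 𝒪) (X : Matrix (Fin m) (Fin n) 𝒪) : Prop := ∀ i j, X i j ∈ I

theorem IsSmallMat.add {I : Ideal 𝒪} {X Y : Matrix (Fin m) (Fin n) 𝒪} (hX : IsSmallMat I X)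
    (hY : IsSmallMat I Y) : IsSmallMat I (X + Y) := fun i j => I.add_mem (hX i j) (hY i j)

theorem IsSmallMat.sub {I : Ideal 𝒪} {X Y : Matrix (Fin m) (Fin n) 𝒪} (hX : IsSmallMat I X)
    (hY : IsSmallMat I Y) : IsSmallMat I (X - Y) := fun i j => I.sub_mem (hX i j) (hY i j)

theorem IsSmallMat.neg {I : Ideal 𝒪} {X : Matrix (Fin m) (Fin n) 𝒪} (hX : IsSmallMat I X) :
    IsSmallMat I (-X) := fun i j => I.neg_mem (hX i j)

theorem IsSmallMat.smul {I : Ideal 𝒪} {X : Matrix (Fin m) (Fin n) 𝒪} (hX : IsSmallMat I X)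
    (a : 𝒪) : IsSmallMat I (a • X) := fun i j => I.mul_mem_left a (hX i j)

theorem IsSmallMat.smul_of_mem {I : Ideal 𝒪} (X : Matrix (Fin m) (Fin n) 𝒪) {a : 𝒪}
    (ha : a ∈ I) : IsSmallMat I (a • X) := fun i j => I.mul_mem_right (X i j) ha

theorem IsSmallMat.mul_left {I : Ideal 𝒪} {k : ℕ} {X : Matrix (Fin m) (Fin n) 𝒪}
    (hX : IsSmallMat I X) (Y : Matrix (Fin k) (Fin m) 𝒪) : IsSmallMat I (Y * X) := fun i j => by
  rw [Matrix.mul_apply]
  exact Ideal.sum_mem _ fun a _ => I.mul_mem_left _ (hX a j)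

theorem IsSmallMat.mul_right {I : Ideal 𝒪} {k : ℕ} {X : Matrix (Fin m) (Fin n) 𝒪}
    (hX : IsSmallMat I X) (Y : Matrix (Fin n) (Fin k) 𝒪) : IsSmallMat I (X * Y) := fun i j => by
  rw [Matrix.mul_apply]
  exact Ideal.sum_mem _ fun a _ => I.mul_mem_right _ (hX i a)

theorem IsSmallMat.mem_smul_top {I : Ideal 𝒪} {X : Matrix (Fin m) (Fin n) 𝒪}
    (hX : IsSmallMat I X) : X ∈ I • (⊤ : Submodule 𝒪 (Matrix (Fin m) (Fin n) 𝒪)) := by
  rw [Matrix.matrix_eq_sum_single X]
  refine Submodule.sum_mem _ fun i _ => Submodule.sum_mem _ fun j _ => ?_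
  have e : Matrix.single i j (X i j) = X i j • Matrix.single i j (1 : 𝒪) := by
    rw [Matrix.smul_single, smul_eq_mul, mul_one]
  rw [e]
  exact Submodule.smul_mem_smul (hX i j) Submodule.mem_top

theorem pair_mem_smul_top {I : Ideal 𝒪} {r r' : ℕ} {X : Matrix (Fin r) (Fin r) 𝒪}
    {X' : Matrix (Fin r') (Fin r') 𝒪} (hX : IsSmallMat I X) (hX' : IsSmallMat I X') :
    (X, X') ∈ I • (⊤ : Submodule 𝒪 (Matrix (Fin r) (Fin r) 𝒪 × Matrix (Fin r') (Fin r') 𝒪)) := by
  have h1 : (X, (0 : Matrix (Fin r') (Fin r') 𝒪)) ∈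
      I • (⊤ : Submodule 𝒪 (Matrix (Fin r) (Fin r) 𝒪 × Matrix (Fin r') (Fin r') 𝒪)) := by
    have hm : Submodule.map (LinearMap.inl 𝒪 (Matrix (Fin r) (Fin r) 𝒪)
        (Matrix (Fin r') (Fin r') 𝒪)) (I • ⊤) ≤ I • ⊤ := by
      rw [Submodule.map_smul'']
      exact Submodule.smul_mono le_rfl le_top
    exact hm (Submodule.mem_map_of_mem hX.mem_smul_top)
  have h2 : ((0 : Matrix (Fin r) (Fin r) 𝒪), X') ∈
      I • (⊤ : Submodule 𝒪 (Matrix (Fin r) (Fin r) 𝒪 × Matrix (Fin r') (Fin r') 𝒪)) := by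
    have hm : Submodule.map (LinearMap.inr 𝒪 (Matrix (Fin r) (Fin r) 𝒪)
        (Matrix (Fin r') (Fin r') 𝒪)) (I • ⊤) ≤ I • ⊤ := by
      rw [Submodule.map_smul'']
      exact Submodule.smul_mono le_rfl le_top
    exact hm (Submodule.mem_map_of_mem hX'.mem_smul_top)
  have h3 := Submodule.add_mem _ h1 h2
  rw [Prod.mk_add_mk, add_zero, zero_add] at h3
  exact h3

end Small

end Fermat.Agent.L.Pivot.Geom.H50

end
-- ==== END Fermat.Agent.L.Pivot.Geom.H50_Scal
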