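-- GENERATED (merged mirror, NOTES/tools/trim/merge3_helper67.py): 7 modules of the originals, bodies verbatim.
import Fermat.Agent.Zm.S48_L14_001
import Fermat.Agent.Zm.S48_L10_000
import Fermat.Agent.Zm.S48_L08_000
import Fermat.Agent.Zm.S48_L14_000
import Fermat.Agent.Zm.S35_L03_001
import Fermat.Agent.Zm.S35_L04_000
import Fermat.Agent.Zm.S48_L13_000
import Fermat.Agent.Zm.S35_L08_001
import Fermat.Agent.Zm.S35_L03_000
import Fermat.Agent.GTor.H33_Trdeg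
import Fermat.Agent.Zm.S35_L02_000
import Fermat.Agent.Zm.S48_L01_004
import Fermat.Agent.Zm.S35_L02_004
import Fermat.Agent.Zm.S35_L01_004
import Fermat.Agent.Zm.S48_L02_002
import Fermat.Agent.Zm.S35_L16_000
import Fermat.Agent.Zm.S35_L06_001
import Fermat.Agent.Zm.S35_L03_004

-- ==== BEGIN Fermat.Agent.S48.B2.T.H25_A1C
section

set_option autoImplicit false
set_option linter.unusedSectionVars false
set_option linter.unusedVariables false

noncomputable section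

namespace Fermat.Agent.S48.B2.T.H25

open AlgebraicCurve ModularCurve UpperHalfPlane CongruenceSubgroup Matrix.SpecialLinearGroup
open Fermat.Agent.NEB Fermat.Agent.NEB.JH Fermat.Agent.NEB.H84 Fermat.Agent.GTor
open Fermat.Agent.NEB.EIG.H98
open Fermat.Agent.S23.H22 (Nice)
open Fermat.Agent.GTor.H56 (qLaurent_mul qLaurent_injective qLaurent_eq_zero_iff qLaurent_zero)
open scoped MatrixGroups ModularForm Manifold

variable {M c : ℕ} [NeZero M] (H : Subgroup (ZMod c)ˣ)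

/-- For `γ ∈ Γ_H` the class of `a_γ` lies in `±H`. -/
theorem dUnit_inv_mem (hc : c ∣ M) {γ : SL(2, ℤ)} (hγ : γ ∈ Gamma0 M)
    (ha : ((γ 0 0 : ℤ) : ZMod c) ∈ cosetSet c H 1) :
    (dUnit hc γ hγ)⁻¹ ∈ H ∨ -(dUnit hc γ hγ)⁻¹ ∈ H := by
  obtain ⟨h, hh, h1 | h1⟩ := ha
  · left
    have : (dUnit hc γ hγ)⁻¹ = h := by
      apply Units.ext
      rw [one_mul] at h1
      rw [← h1]
      rfl
    rw [this]
    exact hh
  · right
    have : -(dUnit hc γ hγ)⁻¹ = h := by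
      apply Units.ext
      rw [one_mul] at h1
      rw [Units.val_neg]
      have h2 : (((dUnit hc γ hγ)⁻¹ : (ZMod c)ˣ) : ZMod c) = ((γ 0 0 : ℤ) : ZMod c) := rfl
      rw [h2, h1, neg_neg]
    rw [this]
    exact hh

/-- The Eisenstein generators are fixed by `Γ_H`. -/
theorem rel_gen_self (hc2 : 2 ≤ c) (hc : c ∣ M) {γ : SL(2, ℤ)} (hγ : γ ∈ Gamma0 M)
    (ha : ((γ 0 0 : ℤ) : ZMod c) ∈ cosetSet c H 1) (a : (ZMod c)ˣ) :
    Rel M γ (coeffEmb ℂ (eisGen c (cosetSet c H a))) (coeffEmb ℂ (eisGen c (cosetSet c H a))) := by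
  have h := rel_eisGen hc hγ (cosetSet c H a) (zero_not_mem_cosetSet H hc2 a)
    (neg_mem_cosetSet H a)
  rw [← coe_dUnit hc γ hγ, cosetSet_translate, mul_comm,
    cosetSet_mul_of_mem H a _ (dUnit_inv_mem H hc hγ ha)] at h
  exact h

theorem rel_zero (M : ℕ) (γ : SL(2, ℤ)) : Rel M γ 0 0 := by
  have := rel_C M γ 0
  rwa [map_zero] at this

theorem rel_one (M : ℕ) (γ : SL(2, ℤ)) : Rel M γ 1 1 := by
  have := rel_C M γ 1
  rwa [map_one] at this

/-- **Every element of `F_H · ℂ` is fixed by `Γ_H`.** -/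
theorem rel_self_of_mem (hc2 : 2 ≤ c) (hc : c ∣ M) {γ : SL(2, ℤ)} (hγ : γ ∈ Gamma0 M)
    (ha : ((γ 0 0 : ℤ) : ZMod c) ∈ cosetSet c H 1) {x : LaurentSeries ℂ}
    (hx : x ∈ laurentBaseChange ℂ (FHQ M c H)) : Rel M γ x x := by
  have hx' := mem_laurentBaseChange_iff.mp hx
  clear hx
  induction hx' using Subfield.closure_induction with
  | mem w hw =>
    rcases hw with ⟨a, rfl⟩ | ⟨z, hz, rfl⟩
    · rw [algebraMap_laurentSeries_eq_single]
      exact rel_C M γ a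
    · refine FHQ_induction M c H (P := fun z => Rel M γ (coeffEmb ℂ z) (coeffEmb ℂ z))
        ?_ ?_ ?_ ?_ ?_ ?_ ?_ ?_ hz
      · intro r
        have e : coeffEmb ℂ (algebraMap ℚ (LaurentSeries ℚ) r) =
            HahnSeries.C (algebraMap ℚ ℂ r) := by
          rw [algebraMap_laurentSeries_eq_single, coeffEmb, coeffMap_single]
          rfl
        rw [e]
        exact rel_C M γ _
      · intro d hd0 hd
        have hmem : qExpand ℚ d jq ∈ modularFunctionFieldFull M :=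
          IntermediateField.subset_adjoin ℚ _ ⟨d, hd0, hd, rfl⟩
        exact rel_coeffEmb_full hγ hmem
      · intro a
        exact rel_gen_self H hc2 hc hγ ha a
      · rw [map_one]
        exact _root_.Fermat.Agent.S48.B2.T.H25.rel_one M γ
      · intro x y hx hy
        rw [map_add]
        exact rel_add hγ hx hy
      · intro x hx
        rw [map_neg]
        exact rel_neg hγ hx
      · intro x hx
        rw [map_inv₀]
        by_cases hx0 : coeffEmb ℂ x = 0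
        · rw [hx0, inv_zero]
          exact _root_.Fermat.Agent.S48.B2.T.H25.rel_zero M γ
        · exact rel_inv hγ hx hx0
      · intro x y hx hy
        rw [map_mul]
        exact rel_mul hγ hx hy
  | one => exact _root_.Fermat.Agent.S48.B2.T.H25.rel_one M γ
  | add x y _ _ hx hy => exact rel_add hγ hx hy
  | neg x _ hx => exact rel_neg hγ hx
  | inv x _ hx =>
    by_cases hx0 : x = 0
    · rw [hx0, inv_zero]
      exact _root_.Fermat.Agent.S48.B2.T.H25.rel_zero M γ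
    · exact rel_inv hγ hx hx0
  | mul x y _ _ hx hy => exact rel_mul hγ hx hy

theorem one_mem_Gamma0_coset : (((1 : SL(2, ℤ)) 0 0 : ℤ) : ZMod c) ∈ cosetSet c H 1 :=
  ⟨1, H.one_mem, Or.inl (by simp)⟩

/-- **E-A1C**, generic form. -/
theorem a1C (hc2 : 2 ≤ c) (hc : c ∣ M) (f : ↥(laurentBaseChange ℂ (FHQ M c H))) :
    ∃ (k : ℤ) (A : ℍ → ℂ) (B : ModularForm (Gamma0 M) k),
      IsW M k A ∧ B ≠ 0 ∧
      (∀ γ : SL(2, ℤ), γ ∈ Gamma0 M → ((γ 0 0 : ℤ) : ZMod c) ∈ cosetSet c H 1 →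
        A ∣[k] γ = A) ∧
      qLaurent A = (f : LaurentSeries ℂ) * qLaurent (B : ℍ → ℂ) := by
  obtain ⟨k, A, B, hA, hB, hB0, hx, -⟩ :=
    rel_self_of_mem H hc2 hc (Gamma0 M).one_mem (one_mem_Gamma0_coset H) f.2
  obtain ⟨k', C, hC, hC0, hnorm⟩ := exists_norm hB hB0
  have hAC : IsW M (k + k') (A * C) := hA.mul hC
  have hBC : IsW M (k + k') (B * C) := hB.mul hC
  have hBC0 : B * C ≠ 0 := isW_mul_ne_zero hB hC hB0 hC0
  have hxBC : qLaurent (A * C) = (f : LaurentSeries ℂ) * qLaurent (B * C) := by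
    rw [qLaurent_mul hA.nice hC.nice, qLaurent_mul hB.nice hC.nice, hx]
    ring
  set B₀ := toModularForm0 hBC hnorm with hB₀
  have hB₀0 : B₀ ≠ 0 := by
    intro h0
    apply hBC0
    have : (B₀ : ℍ → ℂ) = 0 := by rw [h0]; rfl
    rwa [hB₀, toModularForm0_coe] at this
  refine ⟨k + k', A * C, B₀, hAC, hB₀0, ?_, ?_⟩
  · intro γ hγ ha
    have hrelγ := rel_self_of_mem H hc2 hc hγ ha f.2
    have h1 := rel_slash_of_rep hγ hrelγ hAC hBC hBC0 hxBC
    apply qLaurent_injective (hAC.slash_Gamma0 hγ).nice hAC.nice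
    rw [h1, hnorm γ hγ, hxBC]
  · exact hxBC

/-- **E-A1C**. -/
theorem stmt_A1C : Fermat.Agent.S48.B2.T.Stmt_A1C := by
  intro M _ hM f
  exact a1C (⊥ : Subgroup (ZMod M)ˣ) hM dvd_rfl f

end Fermat.Agent.S48.B2.T.H25

end
end
-- ==== END Fermat.Agent.S48.B2.T.H25_A1C

-- ==== BEGIN Fermat.Agent.S48.B2.T.H34_UnrC
section

/-!
# S48 / B2, slice T, leaf E-UNR (helper34): `stmt_UnrC_of : Stmt_A5C → Stmt_UnrC`

The function `f = (R / B)^ℓ` of a twisted form `R` on `Γ₁(M)` (multiplier `ζ^φ`, `φ` trivial on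
parabolic elements) has order divisible by `ℓ` at every place of `F_{H,ℂ}`, if `ℓ ≥ 5` is a prime
not dividing `φ(M)`:

* at a point `z`: `e · ord_v f = ℓ (ord_z R - ord_z B)` with `e ∣ 6`;
* at a cusp `σ∞` of width `w₀` (in `Γ₀(M)`): `(σ T^{w₀} σ⁻¹)^{φ(M)} ∈ Γ₁(M)` is parabolic, so
  `R ∣ σ` is `w₀ φ(M)`-periodic and `w₀ φ(M) · ord R ∈ M ℤ`; `w₀ · ord B ∈ M ℤ`; `e ∣ M / w₀`.
-/

set_option autoImplicit false
set_option linter.unusedSectionVars false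
set_option maxHeartbeats 1000000

noncomputable section

namespace Fermat.Agent.S48.B2.T.H34

open AlgebraicCurve ModularCurve UpperHalfPlane CongruenceSubgroup Matrix.SpecialLinearGroup
open Fermat.Agent.NEB Fermat.Agent.NEB.H84 Fermat.Agent.NEB.EIG.H39
open Fermat.Agent.NEB.EIG.H98 Fermat.Agent.NEB.EIG.H34 Fermat.Agent.GTor
open Fermat.Agent.GTor.H96 (IsCuspRegular slash_vadd_of_conj periodic_of_vadd)
open scoped MatrixGroups ModularForm Manifold

/-! ## 1. Group theory -/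

/-- `d_γ mod M` as a unit. -/
def dU (M : ℕ) : Gamma0 M →* (ZMod M)ˣ := MonoidHom.toHomUnits (Gamma0Map M)

theorem coe_dU (M : ℕ) (γ : Gamma0 M) :
    ((dU M γ : (ZMod M)ˣ) : ZMod M) = (((γ : SL(2, ℤ)) 1 1 : ℤ) : ZMod M) := by
  simp [dU, MonoidHom.toHomUnits, Gamma0Map]

/-- The `φ(M)`-th power of an element of `Γ₀(M)` lies in `Γ₁(M)`. -/
theorem pow_totient_mem_Gam1 (M : ℕ) [NeZero M] (γ : SL(2, ℤ)) (hγ : γ ∈ Gamma0 M) :
    γ ^ (Nat.totient M) ∈ Gam1 M M := by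
  set g : Gamma0 M := ⟨γ, hγ⟩ with hg
  have h1 : dU M (g ^ Nat.totient M) = 1 := by
    rw [map_pow]
    exact ZMod.pow_totient _
  have h2 : (((γ ^ Nat.totient M : SL(2, ℤ)) 1 1 : ℤ) : ZMod M) = 1 := by
    have := congrArg (fun u : (ZMod M)ˣ => (u : ZMod M)) h1
    simp only [coe_dU, Units.val_one] at this
    exact this
  have hmem : γ ^ Nat.totient M ∈ Gamma0 M := (Gamma0 M).pow_mem hγ _
  set δ : SL(2, ℤ) := γ ^ Nat.totient M with hδ
  have h10 : (M : ℤ) ∣ δ 1 0 := by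
    rw [Gamma0_mem] at hmem
    exact (ZMod.intCast_zmod_eq_zero_iff_dvd _ _).mp hmem
  have h11 : (M : ℤ) ∣ δ 1 1 - 1 := by
    rw [← ZMod.intCast_zmod_eq_zero_iff_dvd]
    push_cast
    rw [h2, sub_self]
  have hdet := sl_det δ
  refine mem_Gam1.mpr ⟨h10, h10, ?_⟩
  obtain ⟨u, hu⟩ := h10
  obtain ⟨w, hw⟩ := h11
  refine ⟨-(δ 0 0 * w) + δ 0 1 * u, ?_⟩
  have e1 : δ 1 1 = 1 + M * w := by linarith
  rw [e1, hu] at hdet
  linear_combination hdet

/-! ## 2. Periodicity at the cusps -/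

variable {M ℓ : ℕ} {k : ℤ} {φ : Additive (Gam1 M M) →+ ZMod ℓ} {R : ℍ → ℂ}

/-- `R ∣ σ` is `j`-periodic if `σ T^j σ⁻¹ ∈ Γ₁(M)`. -/
theorem tw_slash_vadd (hR : IsTw1 M M ℓ k φ R) (hφ : φ ∈ homPE (Gam1 M M) (ZMod ℓ))
    (σ : SL(2, ℤ)) (j : ℕ) (hmem : σ * ModularGroup.T ^ j * σ⁻¹ ∈ Gam1 M M) (z : ℍ) :
    (R ∣[k] σ) ((j : ℝ) +ᵥ z) = (R ∣[k] σ) z := by
  have h0 : φ (Additive.ofMul (⟨_, hmem⟩ : Gam1 M M)) = 0 :=
    hφ.1 ⟨_, hmem⟩ (Fermat.Agent.GTor.H98.trace_sq_conj_T_pow σ j)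
  have h1 := hR.slash ⟨_, hmem⟩
  rw [h0, Fermat.Agent.GTor.H56.zetaPow_zero, one_smul] at h1
  have h2 := slash_vadd_of_conj (R := R) (k := k) (σ := σ)
    (δ := σ * ModularGroup.T ^ j * σ⁻¹) (j := (j : ℤ)) (c := 1) (by rw [zpow_natCast])
    (by simp only [one_mul]; exact h1) z
  rw [one_mul] at h2
  exact_mod_cast h2

theorem conj_T_pow_mem_Gam1 (M : ℕ) (σ : SL(2, ℤ)) :
    σ * ModularGroup.T ^ M * σ⁻¹ ∈ Gam1 M M :=
  Gamma1_le_Gam1 dvd_rfl (conj_T_pow_mem_Gamma1 M σ)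

/-- The slash of a twisted form is cusp-regular for the period `M`. -/
theorem isCuspRegular_tw (hR : IsTw1 M M ℓ k φ R) (hφ : φ ∈ homPE (Gam1 M M) (ZMod ℓ))
    (σ : SL(2, ℤ)) : IsCuspRegular (M : ℝ) (R ∣[k] σ) where
  per := periodic_of_vadd fun z => tw_slash_vadd hR hφ σ M (conj_T_pow_mem_Gam1 M σ) z
  hol := by
    have := hR.mdiff.slash k (σ : GL (Fin 2) ℝ)
    exact this
  bdd := hR.bdd σ

/-- `R ∣ σ` is `w₀ φ(M)`-periodic, `w₀` the width of the cusp in `Γ₀(M)`. -/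
theorem tw_slash_vadd_width [NeZero M] (hR : IsTw1 M M ℓ k φ R)
    (hφ : φ ∈ homPE (Gam1 M M) (ZMod ℓ)) (σ : SL(2, ℤ)) (z : ℍ) :
    (R ∣[k] σ) (((cuspWidth M σ * Nat.totient M : ℕ) : ℝ) +ᵥ z) = (R ∣[k] σ) z := by
  refine tw_slash_vadd hR hφ σ _ ?_ z
  have h1 := (Fermat.Agent.GTor.H98.cuspWidth_spec M σ).2
  have h2 := pow_totient_mem_Gam1 M _ h1
  have e : (σ * ModularGroup.T ^ cuspWidth M σ * σ⁻¹) ^ Nat.totient M
      = σ * ModularGroup.T ^ (cuspWidth M σ * Nat.totient M) * σ⁻¹ := by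
    rw [conj_pow, ← pow_mul]
  rw [← e]
  exact h2

/-- The order at a cusp of a twisted form: `φ(M) · ord ∈ (M / w₀) ℤ`. -/
theorem totient_mul_ordCu [NeZero M] (hR : IsTw1 M M ℓ k φ R)
    (hφ : φ ∈ homPE (Gam1 M M) (ZMod ℓ)) (hR0 : R ≠ 0) (σ : SL(2, ℤ)) :
    ∃ m : ℤ, (Nat.totient M : ℤ) * ordCu M σ k R = ((M / cuspWidth M σ : ℕ) : ℤ) * m := by
  have hM : (0 : ℝ) < (M : ℝ) := by exact_mod_cast Nat.pos_of_ne_zero (NeZero.ne M)
  obtain ⟨m, hm⟩ := (isCuspRegular_tw hR hφ σ).exists_int_of_periodic hM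
    (H96.slash_ne_zero hR0 k σ) (tw_slash_vadd_width hR hφ σ)
  refine ⟨m, ?_⟩
  obtain ⟨hw0, -⟩ := Fermat.Agent.GTor.H98.cuspWidth_spec M σ
  obtain ⟨d, hd⟩ := Fermat.Agent.GTor.H98.cuspWidth_dvd M σ
  have hdiv : M / cuspWidth M σ = d := Nat.div_eq_of_eq_mul_right hw0 hd
  rw [hdiv]
  unfold ordCu
  have hmZ : (((cuspWidth M σ * Nat.totient M : ℕ) : ℕ) : ℤ) *
      (((qExpansion (M : ℝ) (R ∣[k] σ)).order.toNat : ℕ) : ℤ) = (M : ℤ) * m := by
    exact_mod_cast hm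
  have hMZ : (M : ℤ) = (cuspWidth M σ : ℤ) * (d : ℤ) := by exact_mod_cast hd
  have hw : (cuspWidth M σ : ℤ) ≠ 0 := by exact_mod_cast hw0.ne'
  have : (cuspWidth M σ : ℤ) * ((Nat.totient M : ℤ) *
      (((qExpansion (M : ℝ) (R ∣[k] σ)).order.toNat : ℕ) : ℤ))
      = (cuspWidth M σ : ℤ) * ((d : ℤ) * m) := by
    push_cast at hmZ
    linear_combination hmZ + (m : ℤ) * hMZ
  exact mul_left_cancel₀ hw this

/-- The order at a cusp of a modular form on `Γ₀(M)`: `ord ∈ (M / w₀) ℤ`. -/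
theorem ordCu_modularForm [NeZero M] (B : ModularForm (Gamma0 M) k) (hB0 : (B : ℍ → ℂ) ≠ 0)
    (σ : SL(2, ℤ)) :
    ∃ m : ℤ, ordCu M σ k (B : ℍ → ℂ) = ((M / cuspWidth M σ : ℕ) : ℤ) * m := by
  obtain ⟨hw0, hmem⟩ := Fermat.Agent.GTor.H98.cuspWidth_spec M σ
  have hper : ∀ z : ℍ, ((B : ℍ → ℂ) ∣[k] σ) ((cuspWidth M σ : ℝ) +ᵥ z)
      = ((B : ℍ → ℂ) ∣[k] σ) z := by
    intro z
    have h1 := slash_modularForm B hmem
    have h2 := slash_vadd_of_conj (R := (B : ℍ → ℂ)) (k := k) (σ := σ)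
      (δ := σ * ModularGroup.T ^ cuspWidth M σ * σ⁻¹) (j := (cuspWidth M σ : ℤ)) (c := 1)
      (by rw [zpow_natCast]) (by simp only [one_mul]; exact h1) z
    rw [one_mul] at h2
    exact_mod_cast h2
  have hreg := isCuspRegular_slash_of_isW (isW_of_modularForm B) σ
  have h := hreg.div_dvd_order (Nat.pos_of_ne_zero (NeZero.ne M)) hw0
    (Fermat.Agent.GTor.H98.cuspWidth_dvd M σ) (H96.slash_ne_zero hB0 k σ) hper
  obtain ⟨m, hm⟩ := h
  refine ⟨m, ?_⟩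
  unfold ordCu
  rw [hm]
  push_cast
  ring

/-- The order at a cusp of a power. -/
theorem ordCu_pow (M : ℕ) [NeZero M] {X : ℍ → ℂ} (σ : SL(2, ℤ))
    (hX : IsCuspRegular (M : ℝ) (X ∣[k] σ)) (n : ℕ) :
    ordCu M σ ((n : ℤ) * k) (fun z => X z ^ n) = n * ordCu M σ k X := by
  have hM : (0 : ℝ) < (M : ℝ) := by exact_mod_cast Nat.pos_of_ne_zero (NeZero.ne M)
  unfold ordCu
  rw [Fermat.Agent.GTor.H56.slash_pow_SL]
  have := hX.order_toNat_qExpansion_pow hM n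
  have e : (fun z => (X ∣[k] σ) z ^ n) = (X ∣[k] σ) ^ n := rfl
  rw [e, this]
  push_cast
  ring

/-! ## 3. The theorem -/

/-- **E-UNR** (from E-A5C). -/
theorem stmt_UnrC_of (hA5 : Stmt_A5C) : Stmt_UnrC := by
  intro M _ hM2 ℓ hℓ hℓ5 hℓφ φ hφ k R B f hR hB hf hq v
  have hB0 : (B : ℍ → ℂ) ≠ 0 := fun h => hB (DFunLike.coe_injective (by rw [h]; rfl))
  have hWR : IsW M ((ℓ : ℤ) * k) (fun z => R z ^ ℓ) := hR.isW_pow dvd_rfl
  have hWB : IsW M ((ℓ : ℤ) * k) (fun z => B z ^ ℓ) :=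
    (isTw1_of_modularForm (c := M) (n := ℓ) B).isW_pow dvd_rfl
  have hBpow0 : (fun z => B z ^ ℓ) ≠ 0 := by
    intro h
    apply hB0
    funext z
    have := congrFun h z
    exact pow_eq_zero_iff hℓ.ne_zero |>.mp this
  have hRep : IsRep M (f : LaurentSeries ℂ) ((ℓ : ℤ) * k) (fun z => R z ^ ℓ)
      (fun z => B z ^ ℓ) := ⟨hWR, hWB, hBpow0, hq⟩
  have hf' : (f : LaurentSeries ℂ) ≠ 0 := fun h => hf (Subtype.ext h)
  have hRpow0 : (fun z => R z ^ ℓ) ≠ 0 := hRep.num_ne_zero hf'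
  have hR0 : R ≠ 0 := by
    rintro rfl
    apply hRpow0
    funext z
    simp [hℓ.ne_zero]
  have hℓ2 : ¬ (ℓ ∣ 2) := fun h => by
    have := Nat.le_of_dvd (by norm_num) h
    omega
  have hℓ3 : ¬ (ℓ ∣ 3) := fun h => by
    have := Nat.le_of_dvd (by norm_num) h
    omega
  rcases hA5 M hM2 v with ⟨z, e, he0, he6, hv⟩ | ⟨σ, e, he0, heM, hv⟩
  · -- a point
    have h1 := hv f _ _ _ hf hRep
    have e1 : ordPt z ((ℓ : ℤ) * k) (fun z => R z ^ ℓ) = ℓ * ordPt z k R :=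
      ordPt_pow hR.mdiff hR0 z ℓ _ _
    have e2 : ordPt z ((ℓ : ℤ) * k) (fun z => B z ^ ℓ) = ℓ * ordPt z k (B : ℍ → ℂ) :=
      ordPt_pow B.holo' hB0 z ℓ _ _
    rw [e1, e2] at h1
    have hdvd : (ℓ : ℤ) ∣ (e : ℤ) * v.ord f := ⟨ordPt z k R - ordPt z k (B : ℍ → ℂ), by
      rw [← h1]; ring⟩
    have hcop : Nat.Coprime ℓ e := by
      have h6 : Nat.Coprime ℓ 6 := by
        have : (6 : ℕ) = 2 * 3 := rfl
        rw [this]
        exact Nat.Coprime.mul_right ((Nat.Prime.coprime_iff_not_dvd hℓ).mpr hℓ2)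
          ((Nat.Prime.coprime_iff_not_dvd hℓ).mpr hℓ3)
      exact Nat.Coprime.coprime_dvd_right he6 h6
    have hcop' : IsCoprime (ℓ : ℤ) (e : ℤ) := Nat.isCoprime_iff_coprime.mpr hcop
    exact hcop'.dvd_of_dvd_mul_left hdvd
  · -- a cusp
    have h1 := hv f _ _ _ hf hRep
    have hregR := isCuspRegular_tw hR hφ σ
    have hregB := isCuspRegular_slash_of_isW (isW_of_modularForm B) σ
    have e1 : ordCu M σ ((ℓ : ℤ) * k) (fun z => R z ^ ℓ) = ℓ * ordCu M σ k R :=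
      ordCu_pow M σ hregR ℓ
    have e2 : ordCu M σ ((ℓ : ℤ) * k) (fun z => B z ^ ℓ) = ℓ * ordCu M σ k (B : ℍ → ℂ) :=
      ordCu_pow M σ hregB ℓ
    rw [e1, e2] at h1
    obtain ⟨m, hm⟩ := totient_mul_ordCu hR hφ hR0 σ
    obtain ⟨m', hm'⟩ := ordCu_modularForm B hB0 σ
    obtain ⟨e', he'⟩ := heM
    have he0' : (e : ℤ) ≠ 0 := by exact_mod_cast he0.ne'
    -- `φ(M) · e · x = ℓ · e · e' · (m - φ(M) m')`
    have key : (e : ℤ) * ((Nat.totient M : ℤ) * v.ord f)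
        = (e : ℤ) * ((ℓ : ℤ) * ((e' : ℤ) * (m - (Nat.totient M : ℤ) * m'))) := by
      have hM0 : ((M / cuspWidth M σ : ℕ) : ℤ) = (e : ℤ) * (e' : ℤ) := by
        rw [he']; push_cast; ring
      rw [hM0] at hm hm'
      have : (Nat.totient M : ℤ) * ((e : ℤ) * v.ord f)
          = (ℓ : ℤ) * ((Nat.totient M : ℤ) * ordCu M σ k R
            - (Nat.totient M : ℤ) * ordCu M σ k (B : ℍ → ℂ)) := by
        rw [← h1]; ring
      rw [hm, hm'] at this
      linear_combination this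
    have key' := mul_left_cancel₀ he0' key
    have hdvd : (ℓ : ℤ) ∣ (Nat.totient M : ℤ) * v.ord f := ⟨_, key'⟩
    have hcop : Nat.Coprime ℓ (Nat.totient M) := (Nat.Prime.coprime_iff_not_dvd hℓ).mpr hℓφ
    have hcop' : IsCoprime (ℓ : ℤ) (Nat.totient M : ℤ) := Nat.isCoprime_iff_coprime.mpr hcop
    exact hcop'.dvd_of_dvd_mul_left hdvd

end Fermat.Agent.S48.B2.T.H34

end
end
-- ==== END Fermat.Agent.S48.B2.T.H34_UnrC

-- ==== BEGIN Fermat.Agent.S48.B2.T.H43_Basis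
section

/-!
# S48 / B2, slice T, leaf T-BASIS (helper43)

`stmt_Basis1 : Stmt_Basis1`: a universal basis of `homPE (Γ₁(M), ·)` for torsion free
coefficients (`Betti.exists_universal_basis` with `P` = parabolic elements and elements of finite
order; `Γ₁(M) = Gam1 M M` is finitely generated because it contains `Γ(M²)`).
-/

set_option autoImplicit false

noncomputable section

namespace Fermat.Agent.S48.B2.T.H43

open CongruenceSubgroup ModularCurve ModularCurve.Period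
open Fermat.Agent.NEB.EIG.H39 Fermat.Agent.GTor
open scoped MatrixGroups

/-- `Γ₀(M) ∩ Γ₁(c)` contains `Γ(M c)`. -/
theorem gamma_le_gam1' (M c : ℕ) : Gamma (M * c) ≤ Gam1 M c := by
  intro γ hγ
  rw [Gamma_mem] at hγ
  obtain ⟨h00, -, h10, -⟩ := hγ
  have h10' : ((M * c : ℕ) : ℤ) ∣ γ 1 0 := by
    rw [← ZMod.intCast_zmod_eq_zero_iff_dvd]
    exact h10
  have h00' : ((M * c : ℕ) : ℤ) ∣ γ 0 0 - 1 := by
    rw [← ZMod.intCast_zmod_eq_zero_iff_dvd, Int.cast_sub, Int.cast_one, h00, sub_self]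
  have hM : (M : ℤ) ∣ ((M * c : ℕ) : ℤ) := ⟨c, by push_cast; ring⟩
  have hc : (c : ℤ) ∣ ((M * c : ℕ) : ℤ) := ⟨M, by push_cast; ring⟩
  exact ⟨hM.trans h10', hc.trans h10', hc.trans h00'⟩

/-- `Γ₀(M) ∩ Γ₁(c)` is finitely generated. -/
theorem groupFG_gam1' (M c : ℕ) [NeZero M] [NeZero c] : Group.FG ↥(Gam1 M c) := by
  haveI := Fermat.Agent.Betti.fg_SL2Z
  haveI : NeZero (M * c) := ⟨mul_ne_zero (NeZero.ne M) (NeZero.ne c)⟩
  haveI : (Gam1 M c).FiniteIndex := Subgroup.finiteIndex_of_le (gamma_le_gam1' M c)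
  exact Subgroup.fg_of_index_ne_zero (Gam1 M c)

/-- A universal basis of `homPE (Γ, ·)` for any finitely generated subgroup `Γ ≤ SL₂(ℤ)`. -/
theorem exists_peBasis (Γ : Subgroup SL(2, ℤ)) [Group.FG Γ] :
    ∃ (r : ℕ) (b : Fin r → (Additive Γ →+ ℤ)), (∀ i, b i ∈ homPE Γ ℤ) ∧
      ∀ (A : Type) [AddCommGroup A] [IsAddTorsionFree A] (φ : Additive Γ →+ A),
        φ ∈ homPE Γ A → ∃! a : Fin r → A, ∀ γ, φ γ = ∑ i, b i γ • a i := by
  obtain ⟨r, b, hb, huniv⟩ := Fermat.Agent.Betti.exists_universal_basis (Q := Additive Γ)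
    ({x | (((Additive.toMul x : Γ) : SL(2, ℤ)) : Matrix (Fin 2) (Fin 2) ℤ).trace ^ 2 = 4} ∪
      {x | IsOfFinOrder (Additive.toMul x : Γ)})
  refine ⟨r, b, fun i => ⟨fun γ hγ => hb i (Additive.ofMul γ) (Or.inl hγ),
    fun γ hγ => hb i (Additive.ofMul γ) (Or.inr hγ)⟩, ?_⟩
  intro A _ _ φ hφ
  refine huniv A φ (fun x hx => ?_)
  rcases hx with hx | hx
  · exact hφ.1 (Additive.toMul x) hx
  · exact hφ.2 (Additive.toMul x) hx

/-- **T-BASIS**. -/
theorem stmt_Basis1 : Stmt_Basis1 := by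
  intro M _
  haveI := groupFG_gam1' M M
  exact exists_peBasis (Gam1 M M)

end Fermat.Agent.S48.B2.T.H43

end
end
-- ==== END Fermat.Agent.S48.B2.T.H43_Basis

-- ==== BEGIN Fermat.Agent.S48.B2.T.H43_ExistAsm
section

/-!
# S48 / B2, slice T, leaf E-ASM (helper43)

`exist1_of : Stmt_EisTw → Stmt_A1C → Stmt_UnrC → Stmt_FinC → Stmt_Exist1`.

Given `φ ∈ homPE (Γ₁(M), ℤ/ℓ)`: the twisted Eisenstein series `R` (E-EIS) and a form `B` on `Γ₀(M)`
give `f := (R/B)^ℓ ∈ F_{H,ℂ}` (A2-H, helper46), unramified (E-UNR); by DESC-CORE (helper75, with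
E-FIN) `f = bc(f₀) h^ℓ` with `f₀` over `ℚ̄`; `f₀` is unramified over `ℚ̄` (DESC-UP, helper33), so
`ℓ D = div f₀` for a divisor `D` of degree `0`, and `x := [D]` has character `φ`:
`bc(f₀) = (R A₁ / (B B₁))^ℓ` where `h⁻¹ = A₁ / B₁` (E-A1C).
-/

set_option autoImplicit false
set_option linter.style.haveILetI false
set_option linter.unusedSectionVars false
set_option linter.unusedVariables false

noncomputable section

namespace Fermat.Agent.S48.B2.T.H43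

open AlgebraicCurve ModularCurve UpperHalfPlane CongruenceSubgroup Matrix.SpecialLinearGroup
open Fermat.Agent.NEB Fermat.Agent.NEB.JH Fermat.Agent.NEB.H84 Fermat.Agent.NEB.EIG.H39
open Fermat.Agent.NEB.EIG.H98 Fermat.Agent.NEB.EIG.H34 Fermat.Agent.GTor
open Fermat.Agent.S23.H22 (Nice)
open Fermat.Agent.GTor.H56 (qLaurent_mul qLaurent_injective qLaurent_eq_zero_iff qLaurent_zero
  qLaurent_pow nice_of_gamma0 zetaPow_zero zetaPow_add zetaPow_pow slash_pow_SL)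
open scoped MatrixGroups ModularForm Manifold

/-! ## The subgroup `±Γ₁(M)` -/

/-- `cosetSet M ⊥ 1 = {1, -1}`. -/
theorem mem_cosetSet_bot_one {M : ℕ} {x : ZMod M} :
    x ∈ cosetSet M (⊥ : Subgroup (ZMod M)ˣ) 1 ↔ x = 1 ∨ x = -1 := by
  constructor
  · rintro ⟨h, hh, hx⟩
    rw [Subgroup.mem_bot] at hh
    subst hh
    simpa using hx
  · intro hx
    refine ⟨1, Subgroup.one_mem _, ?_⟩
    simpa using hx

/-- An element of `Γ₀(M)` with `a ≡ 1 mod M` is in `Gam1 M M`. -/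
theorem mem_gam1_of_one {M : ℕ} {γ : SL(2, ℤ)} (hγ : γ ∈ Gamma0 M)
    (h1 : ((γ 0 0 : ℤ) : ZMod M) = 1) : γ ∈ Gam1 M M := by
  have h10 : (M : ℤ) ∣ γ 1 0 := by
    rw [Gamma0_mem] at hγ
    exact (ZMod.intCast_zmod_eq_zero_iff_dvd _ _).mp hγ
  have h00 : (M : ℤ) ∣ γ 0 0 - 1 := by
    rw [← ZMod.intCast_zmod_eq_zero_iff_dvd]
    push_cast
    rw [h1, sub_self]
  exact ⟨h10, h10, h00⟩

/-- An element of `Γ₀(M)` with `a ≡ -1 mod M` is `-γ'` with `γ' ∈ Gam1 M M`. -/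
theorem neg_mem_gam1_of_neg_one {M : ℕ} {γ : SL(2, ℤ)} (hγ : γ ∈ Gamma0 M)
    (h1 : ((γ 0 0 : ℤ) : ZMod M) = -1) : -γ ∈ Gam1 M M := by
  have h10 : (M : ℤ) ∣ γ 1 0 := by
    rw [Gamma0_mem] at hγ
    exact (ZMod.intCast_zmod_eq_zero_iff_dvd _ _).mp hγ
  have h00 : (M : ℤ) ∣ -(γ 0 0) - 1 := by
    rw [← ZMod.intCast_zmod_eq_zero_iff_dvd]
    push_cast
    rw [h1]
    ring
  have e10 : (-γ) 1 0 = -(γ 1 0) := by simp
  have e00 : (-γ) 0 0 = -(γ 0 0) := by simp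
  refine ⟨?_, ?_, ?_⟩
  · rw [e10]; exact (dvd_neg).mpr h10
  · rw [e10]; exact (dvd_neg).mpr h10
  · rw [e00]; exact h00

/-- The `ℓ`-th power of a twisted form is invariant under `Gam1 M M`. -/
theorem pow_slash_gam1 {M n : ℕ} {k : ℤ} {φ : Additive (Gam1 M M) →+ ZMod n} {R : ℍ → ℂ}
    (hR : IsTw1 M M n k φ R) {γ : SL(2, ℤ)} (hγ : γ ∈ Gam1 M M) :
    (fun z => R z ^ n) ∣[(n : ℤ) * k] γ = fun z => R z ^ n := by
  rw [slash_pow_SL, hR.slash ⟨γ, hγ⟩]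
  funext z
  simp only [Pi.smul_apply, smul_eq_mul, mul_pow]
  rw [zetaPow_pow, one_mul]

/-- In even weight, the `ℓ`-th power of a twisted form is invariant under `±Γ₁(M)`. -/
theorem pow_slash_pm {M n : ℕ} {k : ℤ} {φ : Additive (Gam1 M M) →+ ZMod n} {R : ℍ → ℂ}
    (hR : IsTw1 M M n k φ R) (hk : Even k) {γ : SL(2, ℤ)} (hγ : γ ∈ Gamma0 M)
    (ha : ((γ 0 0 : ℤ) : ZMod M) ∈ cosetSet M (⊥ : Subgroup (ZMod M)ˣ) 1) :
    (fun z => R z ^ n) ∣[(n : ℤ) * k] γ = fun z => R z ^ n := by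
  rcases mem_cosetSet_bot_one.mp ha with h1 | h1
  · exact pow_slash_gam1 hR (mem_gam1_of_one hγ h1)
  · have hmem := neg_mem_gam1_of_neg_one hγ h1
    have hkk : Even ((n : ℤ) * k) := hk.mul_left _
    have e : γ = (-1 : SL(2, ℤ)) * (-γ) := by simp
    rw [e, SlashAction.slash_mul, Fermat.Agent.GTor.H96.slash_neg_one_of_even hkk]
    exact pow_slash_gam1 hR hmem

/-! ## The assembly -/

/-- **E-ASM**: existence of torsion points with a given character. -/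
theorem exist1_of (hE : Stmt_EisTw) (hA : Stmt_A1C) (hU : Stmt_UnrC) (hF : Stmt_FinC) :
    Stmt_Exist1 := by
  intro M _ hM2 ℓ hℓ h5 htot ι φ hφ
  have hℓ0 : ℓ ≠ 0 := hℓ.ne_zero
  have hM0 : M ≠ 0 := NeZero.ne M
  -- the twisted form
  obtain ⟨k, R, B, hR, hR0, hB0⟩ := hE M hM2 ℓ hℓ0 φ hφ
  have hk : Even k := Fermat.Agent.GTor.H96.even_weight_of_ne_zero hB0
  have hRW : IsW M ((ℓ : ℤ) * k) (fun z => R z ^ ℓ) := hR.isW_pow dvd_rfl
  have hBT : IsTw1 M M ℓ k 0 (B : ℍ → ℂ) := isTw1_of_modularForm B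
  have hBW : IsW M ((ℓ : ℤ) * k) (fun z => B z ^ ℓ) := hBT.isW_pow dvd_rfl
  have nB : Nice 1 (B : ℍ → ℂ) := nice_of_gamma0 B
  have nBℓ : Nice 1 (fun z => B z ^ ℓ) := nB.pow ℓ
  have nRℓ : Nice 1 (fun z => R z ^ ℓ) := hRW.nice
  have hBℓ0 : (fun z => B z ^ ℓ) ≠ 0 := by
    intro h0
    apply hB0
    ext z
    have := congrFun h0 z
    simpa using pow_eq_zero_iff hℓ0 |>.1 this
  have hRℓ0 : (fun z => R z ^ ℓ) ≠ 0 := by
    intro h0
    apply hR0
    funext z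
    have := congrFun h0 z
    simpa using pow_eq_zero_iff hℓ0 |>.1 this
  -- the function over `ℂ`
  obtain ⟨x, hx, hxe⟩ := Fermat.Agent.NEB.EIG.H46.stmt_A2H M M ⊥ hM2 dvd_rfl hM0 ((ℓ : ℤ) * k)
    (fun z => R z ^ ℓ) (fun z => B z ^ ℓ) hRW hBW hBℓ0 (by
      intro γ hγ ha
      rw [pow_slash_pm hR hk hγ ha, pow_slash_pm hBT hk hγ ha])
  set fC : ↥(FC M) := ⟨x, hx⟩ with hfC
  have hfC0 : fC ≠ 0 := by
    intro h0
    have hx0 : x = 0 := congrArg Subtype.val h0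
    rw [hx0, zero_mul] at hxe
    exact hRℓ0 ((qLaurent_eq_zero_iff nRℓ).1 hxe)
  have hunr : ∀ v : Place ℂ ↥(FC M), (ℓ : ℤ) ∣ v.ord fC :=
    hU M hM2 ℓ hℓ h5 htot φ hφ k R B fC hR hB0 hfC0 hxe
  -- descent
  obtain ⟨f₀, h, hf₀, hh0, hfh⟩ := Fermat.Agent.GTor.H75.stmt_DescCore Kbar ℂ
    (FHQ M M (⊥ : Subgroup (ZMod M)ˣ)) ι ℓ hℓ.pos
    (Fermat.Agent.GTor.H33.exists_not_isAlgebraic_complex ι) (hF M hM2 ℓ hℓ0) fC hfC0 hunr
  have hFF : Fermat.Agent.RED.IsFF Kbar ↥(FHbar M M (⊥ : Subgroup (ZMod M)ˣ)) :=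
    isFF_JH M M ⊥ hM2 dvd_rfl
  haveI : HasPrincipalDivisors Kbar ↥(FHbar M M (⊥ : Subgroup (ZMod M)ˣ)) :=
    Fermat.Agent.NEB.H14.hasPD hFF
  -- `f₀` is unramified
  have hunr₀ : ∀ v : Place Kbar ↥(FHbar M M (⊥ : Subgroup (ZMod M)ˣ)), (ℓ : ℤ) ∣ v.ord f₀ := by
    intro v
    have hdeg : v.deg = 1 := Fermat.Agent.RED.H51.stmt_FFB_deg Kbar _ hFF v
    obtain ⟨w, hw⟩ := Fermat.Agent.GTor.H33.stmt_DescPlaceUp Kbar ℂ
      (FHQ M M (⊥ : Subgroup (ZMod M)ˣ)) ι v hdeg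
    rw [← hw f₀]
    have hbc0 : Fermat.Agent.GTor.H75.bcHom ι (FHQ M M (⊥ : Subgroup (ZMod M)ˣ)) f₀ ≠ 0 := by
      intro h0
      rw [h0, zero_mul] at hfh
      exact hfC0 hfh
    have h1 : Fermat.Agent.GTor.H75.bcHom ι (FHQ M M (⊥ : Subgroup (ZMod M)ˣ)) f₀
        = fC * (h ^ ℓ)⁻¹ := by
      rw [hfh]
      field_simp
    rw [h1, w.ord_mul hfC0 (inv_ne_zero (pow_ne_zero ℓ hh0)), w.ord_inv]
    refine dvd_add (hunr w) ((dvd_neg).mpr ?_)
    have : w.ord (h ^ ℓ) = (ℓ : ℤ) * w.ord h := by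
      have := w.ord_zpow h (ℓ : ℤ)
      simpa using this
    rw [this]
    exact dvd_mul_right _ _
  -- the divisor
  let fu : unrSubgroup Kbar ↥(FHbar M M (⊥ : Subgroup (ZMod M)ˣ)) ℓ :=
    ⟨Units.mk0 f₀ hf₀, fun v => by simpa using hunr₀ v⟩
  refine ⟨Pic0.mk (Fermat.Agent.GTor.H33.divQuot hℓ0 fu),
    Fermat.Agent.GTor.H33.divQuot hℓ0 fu, f₀, hf₀, rfl,
    fun v => Fermat.Agent.GTor.H33.divQuot_apply hℓ0 fu v, ?_⟩
  -- the character
  obtain ⟨k₁, A₁, B₁, hA₁, hB₁, hinv₁, e₁⟩ := hA M hM2 h⁻¹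
  have hA₁' : IsTw1 M M ℓ k₁ 0 A₁ := isTw1_of_isW hA₁ fun γ => by
    apply hinv₁ (γ : SL(2, ℤ)) (Gam1_le_Gamma0 M M γ.2)
    have h3 : (M : ℤ) ∣ (γ : SL(2, ℤ)) 0 0 - 1 := γ.2.2.2
    have h4 : ((((γ : SL(2, ℤ)) 0 0 : ℤ)) : ZMod M) = 1 := by
      have := (ZMod.intCast_zmod_eq_zero_iff_dvd _ _).mpr h3
      push_cast at this
      exact sub_eq_zero.mp this
    rw [h4]
    exact mem_cosetSet_bot_one.mpr (Or.inl rfl)
  have hRA : IsTw1 M M ℓ (k + k₁) φ (R * A₁) := by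
    have := hR.mul hA₁'
    rwa [add_zero] at this
  have nA₁ : Nice 1 A₁ := hA₁.nice
  have nB₁ : Nice 1 (B₁ : ℍ → ℂ) := nice_of_gamma0 B₁
  refine hasChar1_iff.mpr ⟨k + k₁, R * A₁, B.mul B₁, hRA, ?_, ?_⟩
  · intro h0
    have h' : ((B.mul B₁ : ModularForm _ _) : ℍ → ℂ) = 0 := by rw [h0]; rfl
    have h1 : qLaurent ((B : ℍ → ℂ) * (B₁ : ℍ → ℂ)) = 0 := by
      have : ((B.mul B₁ : ModularForm _ _) : ℍ → ℂ) = (B : ℍ → ℂ) * (B₁ : ℍ → ℂ) := rfl
      rw [← this, h', qLaurent_zero]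
    rw [qLaurent_mul nB nB₁] at h1
    rcases mul_eq_zero.mp h1 with h2 | h2
    · rw [qLaurent_eq_zero_iff nB] at h2
      exact hB0 (DFunLike.coe_injective h2)
    · rw [qLaurent_eq_zero_iff nB₁] at h2
      exact hB₁ (DFunLike.coe_injective h2)
  · have hRR : (fun z => (R * A₁) z ^ ℓ) = (fun z => R z ^ ℓ) * (fun z => A₁ z ^ ℓ) := by
      funext z
      simp only [Pi.mul_apply, mul_pow]
    have hBB : (fun z => (B.mul B₁) z ^ ℓ) = (fun z => B z ^ ℓ) * (fun z => B₁ z ^ ℓ) := by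
      funext z
      simp only [Pi.mul_apply, ← mul_pow]
      rfl
    have hfh' : (x : LaurentSeries ℂ) =
        coeffMap ι (f₀ : LaurentSeries Kbar) * (h : LaurentSeries ℂ) ^ ℓ := by
      have := congrArg (fun y : ↥(FC M) => (y : LaurentSeries ℂ)) hfh
      exact this
    have hhinv : ((h⁻¹ : ↥(FC M)) : LaurentSeries ℂ) = ((h : ↥(FC M)) : LaurentSeries ℂ)⁻¹ := rfl
    have hh0' : ((h : ↥(FC M)) : LaurentSeries ℂ) ≠ 0 := fun h0 => hh0 (Subtype.ext h0)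
    have nA₁ℓ : Nice 1 (fun z => A₁ z ^ ℓ) := nA₁.pow ℓ
    have nB₁ℓ : Nice 1 (fun z => B₁ z ^ ℓ) := nB₁.pow ℓ
    rw [hRR, hBB, qLaurent_mul nRℓ nA₁ℓ, qLaurent_mul nBℓ nB₁ℓ, hxe,
      qLaurent_pow nA₁, e₁, qLaurent_pow nB₁, hfh', hhinv, mul_pow]
    have key : ((h : ↥(FC M)) : LaurentSeries ℂ) ^ ℓ * (((h : ↥(FC M)) : LaurentSeries ℂ)⁻¹) ^ ℓ
        = 1 := by
      rw [← mul_pow, mul_inv_cancel₀ hh0', one_pow]
    linear_combination (coeffMap ι (f₀ : LaurentSeries Kbar) * qLaurent (fun z => B z ^ ℓ)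
      * qLaurent (B₁ : ℍ → ℂ) ^ ℓ) * key

end Fermat.Agent.S48.B2.T.H43

end
end
-- ==== END Fermat.Agent.S48.B2.T.H43_ExistAsm

-- ==== BEGIN Fermat.Agent.S48.B2.T.H55_PerPrim
section

/-!
# S48 / B2, slice T, leaf T-PER (helper55), part 2: primitives and the period class

For a weight two cusp form `G` on `Γ₁(M)`:

* `exists_prim` : `G` has a primitive `F` on the upper half plane with a limit at every cusp;
* `prim_slash` : if `G ∣[2] γ = c • G` then `F (γ z) = c F z + d`;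
* `perCls G : Γ₁(M) → ℂ`, the period class (`Gam1 M M` is helper39's form of `Γ₁(M)`),
  `perCls_apply : perCls G γ = F (γ z) - F z` for every primitive `F` and every `z`;
* `perCls_mem_homPE` : it vanishes on parabolic elements and on elements of finite order;
* `perCls_ne_zero` : `G ≠ 0 → perCls G ≠ 0` (maximum principle).

Patterns: `Fermat.Agent.S21.partA`, `partC`, `partD_core` (for `Γ₀(N)`).
-/

set_option autoImplicit false

noncomputable section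

namespace Fermat.Agent.S48.B2.T.H55

open ModularCurve ModularCurve.Period UpperHalfPlane CongruenceSubgroup Filter Topology Function
open Matrix.SpecialLinearGroup
open Fermat.Agent.NEB.EIG.H39 Fermat.Agent.GTor
open scoped MatrixGroups ModularForm Manifold Pointwise

/-- `F` is a primitive of `G` on the upper half plane. -/
def IsPrim (G F : ℍ → ℂ) : Prop := ∀ τ : ℍ, HasDerivAt (F ∘ ofComplex) (G τ) ↑τ

/-! ## The group `Gam1 M M` -/

theorem mem_Gamma1_of_mem_Gam1 {M : ℕ} {γ : SL(2, ℤ)} (h : γ ∈ Gam1 M M) : γ ∈ Gamma1 M := by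
  rw [Gamma1_mem]
  refine ⟨?_, ?_, ?_⟩
  · have h3 := h.2.2
    have : (((γ 0 0 - 1 : ℤ)) : ZMod M) = 0 := (ZMod.intCast_zmod_eq_zero_iff_dvd _ _).mpr h3
    push_cast at this
    exact sub_eq_zero.mp this
  · have h3 := Gam1_dvd_11 h
    have : (((γ 1 1 - 1 : ℤ)) : ZMod M) = 0 := (ZMod.intCast_zmod_eq_zero_iff_dvd _ _).mpr h3
    push_cast at this
    exact sub_eq_zero.mp this
  · exact (ZMod.intCast_zmod_eq_zero_iff_dvd _ _).mpr h.1

theorem Gamma_le_Gam1 (M : ℕ) : Gamma M ≤ Gam1 M M := by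
  intro γ hγ
  rw [Gamma_mem] at hγ
  obtain ⟨h00, -, h10, -⟩ := hγ
  have h1 : (M : ℤ) ∣ γ 1 0 := (ZMod.intCast_zmod_eq_zero_iff_dvd _ _).mp h10
  refine ⟨h1, h1, ?_⟩
  apply (ZMod.intCast_zmod_eq_zero_iff_dvd _ _).mp
  push_cast
  rw [h00, sub_self]

instance finite_quot_Gam1 (M : ℕ) [NeZero M] : Finite (SL(2, ℤ) ⧸ Gam1 M M) := by
  haveI : (Gam1 M M).FiniteIndex := Subgroup.finiteIndex_of_le (_root_.Fermat.Agent.S48.B2.T.H55.Gamma_le_Gam1 M)
  exact Subgroup.finite_quotient_of_finiteIndex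

theorem T_pow_mem_Gamma (M : ℕ) : ModularGroup.T ^ M ∈ Gamma M := by
  rw [Gamma_mem]
  have h := ModularGroup.coe_T_zpow (M : ℤ)
  rw [zpow_natCast] at h
  rw [h]
  simp

theorem conj_T_pow_mem_Gam1 (M : ℕ) (δ : SL(2, ℤ)) :
    δ * ModularGroup.T ^ M * δ⁻¹ ∈ Gam1 M M :=
  _root_.Fermat.Agent.S48.B2.T.H55.Gamma_le_Gam1 M ((Gamma_normal M).conj_mem _ (T_pow_mem_Gamma M) δ)

/-! ## Primitives -/

theorem slash_eq_of_mem_Gam1 {M : ℕ} (G : CuspForm (Gamma1 M) 2) {γ : SL(2, ℤ)}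
    (h : γ ∈ Gam1 M M) : (⇑G ∣[(2 : ℤ)] γ) = ⇑G := by
  rw [ModularForm.SL_slash]
  exact SlashInvariantForm.slash_action_eqn G _
    (Subgroup.mem_map_of_mem _ (mem_Gamma1_of_mem_Gam1 h))

/-- Every weight two cusp form on `Γ₁(M)` has a primitive with a limit at every cusp. -/
theorem exists_prim (M : ℕ) [NeZero M] (G : CuspForm (Gamma1 M) 2) :
    ∃ F : ℍ → ℂ, IsPrim (⇑G) F ∧
      ∀ δ : SL(2, ℤ), ∃ L : ℂ, Tendsto (fun w : ℍ => F (δ • w)) atImInfty (𝓝 L) := by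
  obtain ⟨P, hP, hper⟩ := Subgroup.IsArithmetic.exists_nat_mem_strictPeriods_conj
    (Subgroup.map (Matrix.SpecialLinearGroup.mapGL ℝ) (Gamma1 M))
  have key : ∀ δ : SL(2, ℤ), ∃ H : ℍ → ℂ,
      (∀ τ : ℍ, HasDerivAt (H ∘ ofComplex) ((⇑G ∣[(2 : ℤ)] δ) τ) ↑τ)
        ∧ Tendsto H atImInfty (𝓝 0) := by
    intro δ
    refine Fermat.Agent.S21.exists_primitive_of_periodic (h := P) (by exact_mod_cast hP) ?_ ?_ ?_
    · have hmem : (P : ℝ) ∈ (ConjAct.toConjAct ((δ : GL (Fin 2) ℝ))⁻¹ •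
          (Subgroup.map (Matrix.SpecialLinearGroup.mapGL ℝ) (Gamma1 M))).strictPeriods := by
        have h0 := hper δ⁻¹
        rw [map_inv] at h0
        exact h0
      have := SlashInvariantFormClass.periodic_comp_ofComplex
        (CuspForm.translate G (δ : GL (Fin 2) ℝ)) hmem
      exact this
    · exact (CuspFormClass.holo G).slash 2 (δ : GL (Fin 2) ℝ)
    · exact CuspFormClass.zero_at_infty_slash G δ
  obtain ⟨F, hF1, -⟩ := key 1
  have hF1' : IsPrim (⇑G) F := by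
    intro τ
    have := hF1 τ
    rwa [SlashAction.slash_one] at this
  refine ⟨F, hF1', fun δ => ?_⟩
  obtain ⟨H, hH1, hH2⟩ := key δ
  obtain ⟨c, hc⟩ := Fermat.Agent.S21.primitive_sub_const
    (Fermat.Agent.S21.hasDerivAt_comp_smul hF1' δ) hH1
  refine ⟨c, ?_⟩
  have hfun : (fun w : ℍ => F (δ • w)) = fun w => H w + c := by
    funext w
    have := hc w
    linear_combination this
  rw [hfun]
  simpa using hH2.add_const c

/-- If `G ∣[2] γ = c • G` then `F ∘ γ - c F` is constant. -/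
theorem prim_slash {G F : ℍ → ℂ} (hF : IsPrim G F) (γ : SL(2, ℤ)) (c : ℂ)
    (h : G ∣[(2 : ℤ)] γ = c • G) : ∃ d : ℂ, ∀ z : ℍ, F (γ • z) - c * F z = d := by
  have h1 : ∀ τ : ℍ, HasDerivAt ((fun w : ℍ => F (γ • w)) ∘ ofComplex) (c * G τ) ↑τ := by
    intro τ
    have h2 := Fermat.Agent.S21.hasDerivAt_comp_smul hF γ τ
    rw [h] at h2
    exact h2
  have h3 : ∀ τ : ℍ, HasDerivAt ((fun w : ℍ => c * F w) ∘ ofComplex) (c * G τ) ↑τ := by
    intro τ
    exact (hF τ).const_mul c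
  exact Fermat.Agent.S21.primitive_sub_const (f := fun τ => c * G τ) h1 h3

theorem isEquivariantPrimitive_of_prim {M : ℕ} (G : CuspForm (Gamma1 M) 2) {F : ℍ → ℂ}
    (hF : IsPrim (⇑G) F) : IsEquivariantPrimitive (Gam1 M M) F := by
  intro γ
  obtain ⟨d, hd⟩ := prim_slash hF (γ : SL(2, ℤ)) 1 (by rw [slash_eq_of_mem_Gam1 G γ.2, one_smul])
  exact ⟨d, fun z => by have := hd z; rw [one_mul] at this; exact this⟩

/-! ## The period class -/

/-- The period class of a weight two cusp form on `Γ₁(M)`. -/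
def perCls (M : ℕ) [NeZero M] (G : CuspForm (Gamma1 M) 2) : Additive (Gam1 M M) →+ ℂ :=
  (isEquivariantPrimitive_of_prim G (exists_prim M G).choose_spec.1).periodHom

theorem perCls_apply {M : ℕ} [NeZero M] (G : CuspForm (Gamma1 M) 2) {F : ℍ → ℂ}
    (hF : IsPrim (⇑G) F) (γ : Gam1 M M) (z : ℍ) :
    perCls M G (Additive.ofMul γ) = F ((γ : SL(2, ℤ)) • z) - F z := by
  set F₀ := (exists_prim M G).choose with hF₀
  have h₀ : IsPrim (⇑G) F₀ := (exists_prim M G).choose_spec.1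
  have hE := isEquivariantPrimitive_of_prim G h₀
  obtain ⟨c, hc⟩ := Fermat.Agent.S21.primitive_sub_const (f := ⇑G) h₀ hF
  have e1 : perCls M G (Additive.ofMul γ) = hE.period γ := rfl
  rw [e1, ← hE.sub_eq_period γ z]
  have h1 := hc ((γ : SL(2, ℤ)) • z)
  have h2 := hc z
  linear_combination h1 - h2

/-- The period of a parabolic element vanishes. -/
theorem perCls_parabolic {M : ℕ} [NeZero M] (G : CuspForm (Gamma1 M) 2) (γ : Gam1 M M)
    (hγ : ((γ : SL(2, ℤ)) : Matrix (Fin 2) (Fin 2) ℤ).trace ^ 2 = 4) :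
    perCls M G (Additive.ofMul γ) = 0 := by
  obtain ⟨F, hF, hlim⟩ := exists_prim M G
  obtain ⟨δ, hδ⟩ := Fermat.Agent.S21.H86.exists_conj_lower_left_eq_zero (γ : SL(2, ℤ)) hγ
  obtain ⟨n, hn⟩ := ModularGroup.exists_eq_T_zpow_of_c_eq_zero hδ
  obtain ⟨L, hL⟩ := hlim δ
  have hconj : ∀ w : ℍ, (γ : SL(2, ℤ)) • (δ • w) = δ • (ModularGroup.T ^ n • w) := by
    intro w
    rw [← hn w, ← mul_smul, ← mul_smul]
    congr 1
    group
  have h1 : Tendsto (fun w : ℍ => F (δ • (ModularGroup.T ^ n • w))) atImInfty (𝓝 L) :=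
    hL.comp (Fermat.Agent.S21.H86.tendsto_T_zpow_smul_atImInfty n)
  have h2 : Tendsto (fun w : ℍ => F (δ • (ModularGroup.T ^ n • w)) - F (δ • w)) atImInfty
      (𝓝 (L - L)) := h1.sub hL
  have h3 : (fun w : ℍ => F (δ • (ModularGroup.T ^ n • w)) - F (δ • w)) =
      fun _ => perCls M G (Additive.ofMul γ) := by
    funext w
    rw [← hconj w]
    exact (perCls_apply G hF γ (δ • w)).symm
  rw [h3, sub_self] at h2
  exact tendsto_nhds_unique tendsto_const_nhds h2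

/-- The period of an element of finite order vanishes. -/
theorem perCls_finOrder {M : ℕ} [NeZero M] (G : CuspForm (Gamma1 M) 2) (γ : Gam1 M M)
    (hγ : IsOfFinOrder γ) : perCls M G (Additive.ofMul γ) = 0 := by
  obtain ⟨n, hn, h1⟩ := hγ.exists_pow_eq_one
  have h2 : perCls M G (Additive.ofMul (γ ^ n)) = n • perCls M G (Additive.ofMul γ) := by
    rw [ofMul_pow, map_nsmul]
  rw [h1, ofMul_one, map_zero] at h2
  have h3 : (n : ℂ) * perCls M G (Additive.ofMul γ) = 0 := by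
    rw [← nsmul_eq_mul]
    exact h2.symm
  rcases mul_eq_zero.mp h3 with h4 | h4
  · exact absurd (by exact_mod_cast h4) hn.ne'
  · exact h4

theorem perCls_mem_homPE {M : ℕ} [NeZero M] (G : CuspForm (Gamma1 M) 2) :
    perCls M G ∈ homPE (Gam1 M M) ℂ :=
  ⟨fun γ hγ => perCls_parabolic G γ hγ, fun γ hγ => perCls_finOrder G γ hγ⟩

/-- The period class of a nonzero form is not zero. -/
theorem perCls_ne_zero {M : ℕ} [NeZero M] (G : CuspForm (Gamma1 M) 2) (hG : G ≠ 0) :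
    perCls M G ≠ 0 := by
  intro h0
  obtain ⟨F, hF, hlim⟩ := exists_prim M G
  have hinvF : ∀ γ ∈ Gam1 M M, ∀ z : ℍ, F (γ • z) = F z := by
    intro γ hγ z
    have h1 := perCls_apply G hF ⟨γ, hγ⟩ z
    rw [h0] at h1
    have h2 : F (γ • z) - F z = 0 := h1.symm
    exact sub_eq_zero.mp h2
  obtain ⟨c, hc⟩ := const_of_norm_inv (Gam1 M M) M F
    (fun τ => (hF τ).differentiableAt)
    (fun γ hγ z => by rw [hinvF γ hγ z])
    (fun δ w => by
      have h1 := hinvF _ (conj_T_pow_mem_Gam1 M δ) (δ • w)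
      rw [← h1, ← mul_smul, ← mul_smul]
      congr 1
      group)
    hlim
  -- the derivative of a constant function vanishes
  apply hG
  have hz : ∀ τ : ℍ, G τ = 0 := by
    intro τ
    have h1 := hF τ
    have h2 : HasDerivAt (F ∘ ofComplex) 0 ↑τ := by
      have h3 : (F ∘ ofComplex) = fun _ => c := by
        funext w
        exact hc _
      rw [h3]
      exact hasDerivAt_const _ _
    exact h1.unique h2
  ext τ
  exact hz τ

end Fermat.Agent.S48.B2.T.H55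

end
end
-- ==== END Fermat.Agent.S48.B2.T.H55_PerPrim

-- ==== BEGIN Fermat.Agent.S48.B2.T.H96_A5Defs
section

/-!
# S48 / B2, slice T, leaf E-A5C (helper96): interfaces of the three parts

`Stmt_A5C` (every place of `F_C = FC M` is the place of a point or of a cusp) is proved by the
norm trick from `GTor.Clo.stmt_A5` (the same statement for `F_0 = FNL ℂ M`):

* `Stmt_A5Act`   : `Γ₀(M)` acts on `F_C` by `ℂ`-algebra maps with graph `NEB.H84.Rel M γ`, these maps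
  and the inclusion `inclC M : F_0 → F_C` are integral (`F_C` is algebraic over `F_0`);
* `Stmt_A5Slash` : the order of `A ∣[k] δ` at `z` is the order of `A` at `δ • z`;
* `a5C_of : Stmt_A5Act → Stmt_A5Slash → Stmt_OrdC → Stmt_A5C` (helper96, `H96_A5C.lean`):
  restriction of the place to `F_0`, `stmt_A5`, weak approximation, the norm
  `∏_u actC γ_u h ∈ F_0` (`NEB.H84.mem_FNL_of_rel`).

No `sorry`; everything here is a definition or a `Prop`.
-/

set_option autoImplicit false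

noncomputable section

namespace Fermat.Agent.S48.B2.T.H96

open AlgebraicCurve ModularCurve UpperHalfPlane CongruenceSubgroup Matrix.SpecialLinearGroup
open Fermat.Agent.NEB Fermat.Agent.NEB.H84 Fermat.Agent.NEB.EIG.H98 Fermat.Agent.GTor
open scoped MatrixGroups ModularForm Manifold

/-- The inclusion `F_0 ⊆ F_C` (function field of `X₀(M)` inside the one of `X₁(M)/±1`). -/
def inclC (M : ℕ) : FNL ℂ M →ₐ[ℂ] ↥(FC M) :=
  IntermediateField.inclusion (laurentBaseChange_mono (full_le_FHQ M M (⊥ : Subgroup (ZMod M)ˣ)))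

@[simp]
theorem coe_inclC (M : ℕ) (x : FNL ℂ M) :
    ((inclC M x : ↥(FC M)) : LaurentSeries ℂ) = (x : LaurentSeries ℂ) :=
  IntermediateField.coe_inclusion _ x

/-- **A5C-ACT**: `F_C` is integral over `F_0`, and every `γ ∈ Γ₀(M)` acts on `F_C` by an integral
`ℂ`-algebra map whose graph is the slash action on ratios of forms. -/
def Stmt_A5Act : Prop :=
  ∀ (M : ℕ) [NeZero M], 2 ≤ M →
    (inclC M).toRingHom.IsIntegral ∧
    ∀ γ : SL(2, ℤ), γ ∈ Gamma0 M →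
      ∃ τ : ↥(FC M) →ₐ[ℂ] ↥(FC M), τ.toRingHom.IsIntegral ∧
        ∀ x : ↥(FC M), Rel M γ (x : LaurentSeries ℂ) ((τ x : ↥(FC M)) : LaurentSeries ℂ)

/-- **A5C-SLASH**: the order of vanishing of `A ∣[k] δ` at `z` is the order of `A` at `δ • z`. -/
def Stmt_A5Slash : Prop :=
  ∀ (z : ℍ) (δ : SL(2, ℤ)) (k : ℤ) (A : ℍ → ℂ), MDifferentiable 𝓘(ℂ) 𝓘(ℂ) A →
    ordPt z k (A ∣[k] δ) = ordPt (δ • z) k A

end Fermat.Agent.S48.B2.T.H96

end
end
-- ==== END Fermat.Agent.S48.B2.T.H96_A5Defs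

-- ==== BEGIN Fermat.Agent.S48.B2.T.H98_OrdC
section
attribute [local instance 10000] SubalgebraClass.toAlgebra
attribute [local instance 10000] HahnSeries.powerSeriesAlgebra

/-!
# S48 / B2, slice T, leaf E-ORD (helper98): points and cusps are places of `F_{H,ℂ}`

`stmt_OrdC : Stmt_OrdC` (unconditional).

* `exists_isRepC` : every element of `FC M = F_{H,ℂ}` is a ratio `A / B` of forms on `Γ₁(M)`;
* `nuC`, `isOrdFun_nuC` : the order function on `FC M` induced by an order function on forms;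
* `exists_anPlace` : if some `f ∈ FC M` has order `m > 0`, the order function is `e · ord_v` for a
  place `v`, with `e ∣ m`;
* points: `m = ellOrder M z ∣ 6` from `GTor.Clo.stmt_A3`; cusps: `m = M / cuspWidth M σ` from
  `GTor.Clo.stmt_A4` (functions in `F_{0,ℂ} ⊆ F_{H,ℂ}` of order one at the place of `X₀(M)`).
-/

set_option autoImplicit false
set_option linter.unusedSectionVars false

noncomputable section

namespace Fermat.Agent.S48.B2.T.H98

open AlgebraicCurve ModularCurve UpperHalfPlane CongruenceSubgroup Matrix.SpecialLinearGroup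
open Fermat.Agent.NEB Fermat.Agent.NEB.JH Fermat.Agent.NEB.H84 Fermat.Agent.NEB.EIG.H39
open Fermat.Agent.NEB.EIG.H98 Fermat.Agent.NEB.EIG.H34 Fermat.Agent.GTor
open scoped MatrixGroups ModularForm Manifold

/-! ## Representations over `ℂ` -/

section Rep

variable {M : ℕ}

theorem isRep_zero (M : ℕ) : IsRep M 0 0 (fun _ => 0) (fun _ => 1) := by
  have := isRep_const M 0
  rwa [map_zero] at this

theorem isRep_algebraMap (M : ℕ) (a : ℂ) :
    IsRep M (algebraMap ℂ (LaurentSeries ℂ) a) 0 (fun _ => a) (fun _ => 1) := by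
  have h := isRep_const M a
  have e : (HahnSeries.C a : LaurentSeries ℂ) = algebraMap ℂ (LaurentSeries ℂ) a := by
    have h1 : algebraMap ℂ (PowerSeries ℂ) a = PowerSeries.C a := by simp
    rw [HahnSeries.algebraMap_apply', h1, HahnSeries.ofPowerSeries_C]
  rwa [e] at h

theorem isRep_inv {x : LaurentSeries ℂ} {k : ℤ} {A B : ℍ → ℂ} (h : IsRep M x k A B)
    (hx : x ≠ 0) : IsRep M x⁻¹ k B A := by
  have hA0 := h.num_ne_zero hx
  obtain ⟨hA, hB, hB0, e⟩ := h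
  refine ⟨hB, hA, hA0, ?_⟩
  rw [e, ← mul_assoc, inv_mul_cancel₀ hx, one_mul]

/-- Every element of `F_{H,ℂ}` is a ratio of two forms on `Γ₁(M)`. -/
theorem exists_isRepC (M : ℕ) [NeZero M] (h2 : 2 ≤ M) {x : LaurentSeries ℂ} (hx : x ∈ FC M) :
    ∃ (k : ℤ) (A B : ℍ → ℂ), IsRep M x k A B := by
  have hx' := mem_laurentBaseChange_iff.mp hx
  clear hx
  induction hx' using Subfield.closure_induction with
  | mem w hw =>
    rcases hw with ⟨a, rfl⟩ | ⟨z, hz, rfl⟩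
    · exact ⟨0, _, _, isRep_algebraMap M a⟩
    · have : Algebra.IsAlgebraic ℚ (AlgebraicClosure ℚ) := AlgebraicClosure.isAlgebraic ℚ
      have ι : Kbar →+* ℂ := (IsAlgClosed.lift : AlgebraicClosure ℚ →ₐ[ℚ] ℂ).toRingHom
      have hz' : coeffEmb Kbar z ∈ FHbar M M (⊥ : Subgroup (ZMod M)ˣ) :=
        coeffEmb_mem_laurentBaseChange Kbar hz
      obtain ⟨k, A, B, h⟩ := exists_isRep (H := (⊥ : Subgroup (ZMod M)ˣ))
        ι h2 dvd_rfl ⟨_, hz'⟩
      rw [coeffMap_coeffEmb_C] at h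
      exact ⟨k, A, B, h⟩
  | one =>
    have := isRep_const M 1
    rw [map_one] at this
    exact ⟨0, _, _, this⟩
  | add x y _ _ hx hy =>
    obtain ⟨k, A, B, h⟩ := hx
    obtain ⟨k', A', B', h'⟩ := hy
    exact ⟨_, _, _, h.add h'⟩
  | neg x _ hx =>
    obtain ⟨k, A, B, h⟩ := hx
    have := (isRep_const M (-1)).mul h
    have e : (HahnSeries.C (-1 : ℂ) : LaurentSeries ℂ) * x = -x := by
      rw [map_neg, map_one, neg_mul, one_mul]
    rw [e] at this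
    exact ⟨_, _, _, this⟩
  | inv x _ hx =>
    obtain ⟨k, A, B, h⟩ := hx
    by_cases hx0 : x = 0
    · rw [hx0, inv_zero]
      exact ⟨0, _, _, isRep_zero M⟩
    · exact ⟨k, B, A, isRep_inv h hx0⟩
  | mul x y _ _ hx hy =>
    obtain ⟨k, A, B, h⟩ := hx
    obtain ⟨k', A', B', h'⟩ := hy
    exact ⟨_, _, _, h.mul h'⟩

end Rep

/-! ## The order function on `F_{H,ℂ}` -/

section Nu

variable (M : ℕ) [NeZero M] (h2 : 2 ≤ M)

/-- The order function on `F_{H,ℂ}` induced by an order function on forms. -/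
def nuC (ord : ℤ → (ℍ → ℂ) → ℤ) (f : ↥(FC M)) : ℤ :=
  ord (Classical.choose (exists_isRepC M h2 f.2))
      (Classical.choose (Classical.choose_spec (exists_isRepC M h2 f.2)))
    - ord (Classical.choose (exists_isRepC M h2 f.2))
      (Classical.choose (Classical.choose_spec (Classical.choose_spec
        (exists_isRepC M h2 f.2))))

variable {M}

theorem coe_ne_zero_FC {f : ↥(FC M)} (hf : f ≠ 0) : (f : LaurentSeries ℂ) ≠ 0 :=
  fun h => hf (Subtype.ext h)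

theorem nuC_eq {ord : ℤ → (ℍ → ℂ) → ℤ} (hord : IsOrdW M ord) {f : ↥(FC M)} (hf : f ≠ 0)
    {k : ℤ} {A B : ℍ → ℂ} (h : IsRep M (f : LaurentSeries ℂ) k A B) :
    nuC M h2 ord f = ord k A - ord k B :=
  hord.ratio_eq (coe_ne_zero_FC hf)
    (Classical.choose_spec (Classical.choose_spec (Classical.choose_spec
      (exists_isRepC M h2 f.2)))) h

theorem isOrdFun_nuC {ord : ℤ → (ℍ → ℂ) → ℤ} (hord : IsOrdW M ord) :
    IsOrdFun ℂ (nuC M h2 ord) where
  mul := by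
    intro g h hg hh
    obtain ⟨k, A, B, r⟩ := exists_isRepC M h2 g.2
    obtain ⟨k', A', B', r'⟩ := exists_isRepC M h2 h.2
    have rr : IsRep M (((g * h : ↥(FC M)) : LaurentSeries ℂ)) (k + k') (A * A') (B * B') :=
      r.mul r'
    rw [nuC_eq h2 hord (mul_ne_zero hg hh) rr, nuC_eq h2 hord hg r, nuC_eq h2 hord hh r']
    have hA0 := r.num_ne_zero (coe_ne_zero_FC hg)
    have hA0' := r'.num_ne_zero (coe_ne_zero_FC hh)
    rw [hord.mul r.1 r'.1 hA0 hA0', hord.mul r.2.1 r'.2.1 r.2.2.1 r'.2.2.1]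
    ring
  add := by
    intro g h hg hh hgh
    obtain ⟨k, A, B, r⟩ := exists_isRepC M h2 g.2
    obtain ⟨k', A', B', r'⟩ := exists_isRepC M h2 h.2
    have rr : IsRep M (((g + h : ↥(FC M)) : LaurentSeries ℂ)) (k + k')
        (A * B' + B * A') (B * B') := r.add r'
    rw [nuC_eq h2 hord hgh rr, nuC_eq h2 hord hg r, nuC_eq h2 hord hh r']
    have hA0 := r.num_ne_zero (coe_ne_zero_FC hg)
    have hA0' := r'.num_ne_zero (coe_ne_zero_FC hh)
    have hN0 := rr.num_ne_zero (coe_ne_zero_FC hgh)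
    have h1 : A * B' ≠ 0 := isW_mul_ne_zero r.1 r'.2.1 hA0 r'.2.2.1
    have h2' : B * A' ≠ 0 := isW_mul_ne_zero r.2.1 r'.1 r.2.2.1 hA0'
    have h3 := hord.add (r.1.mul r'.2.1) (r.2.1.mul r'.1) h1 h2' hN0
    rw [hord.mul r.1 r'.2.1 hA0 r'.2.2.1] at h3
    have h4 : ord (k + k') (B * A') = ord k B + ord k' A' := hord.mul r.2.1 r'.1 r.2.2.1 hA0'
    rw [h4] at h3
    rw [hord.mul r.2.1 r'.2.1 r.2.2.1 r'.2.2.1]
    rcases min_le_iff.mp h3 with h5 | h5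
    · exact min_le_iff.mpr (Or.inl (by omega))
    · exact min_le_iff.mpr (Or.inr (by omega))
  const := by
    intro a ha
    have h0 : (algebraMap ℂ ↥(FC M) a) ≠ 0 := (map_ne_zero _).mpr ha
    have r : IsRep M (((algebraMap ℂ ↥(FC M) a : ↥(FC M)) : LaurentSeries ℂ)) 0
        (fun _ => a) (fun _ => 1) := isRep_algebraMap M a
    rw [nuC_eq h2 hord h0 r, hord.const a ha, hord.const 1 one_ne_zero, sub_zero]

include h2 in
/-- **The place of an order function on forms.** -/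
theorem exists_anPlace {ord : ℤ → (ℍ → ℂ) → ℤ} (hord : IsOrdW M ord) (m : ℕ) (hm : 0 < m)
    (hex : ∃ (f : ↥(FC M)) (k : ℤ) (A B : ℍ → ℂ), f ≠ 0 ∧ IsRep M (f : LaurentSeries ℂ) k A B ∧
      ord k A - ord k B = (m : ℤ)) :
    ∃ (v : Place ℂ ↥(FC M)) (e : ℕ), 0 < e ∧ e ∣ m ∧ IsAnPlace M v ord e := by
  obtain ⟨f, k, A, B, hf, hr, hval⟩ := hex
  have hν := isOrdFun_nuC h2 hord
  have hne : nuC M h2 ord f ≠ 0 := by
    rw [nuC_eq h2 hord hf hr, hval]
    exact_mod_cast hm.ne'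
  obtain ⟨v, e, he, hve⟩ := exists_place_of_isOrdFun hν hf hne
  refine ⟨v, e, he, ?_, ?_⟩
  · have h1 := hve f hf
    rw [nuC_eq h2 hord hf hr, hval] at h1
    exact Int.natCast_dvd_natCast.mp ⟨_, h1⟩
  · intro g k' A' B' hg hr'
    rw [← nuC_eq h2 hord hg hr']
    exact hve g hg

end Nu

/-! ## Functions of `F_{0,ℂ}` in `F_{H,ℂ}` -/

section Incl

variable {M : ℕ} [NeZero M]

theorem coe_mem_FC (f : FNL ℂ M) : (f : LaurentSeries ℂ) ∈ FC M :=
  laurentBaseChange_mono (full_le_FHQ M M ⊥) f.2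

theorem isRep_of_isRatio {f : FNL ℂ M} {k : ℤ} {A B : ModularForm (Gamma0 M) k}
    (h : IsRatio M f A B) : IsRep M (f : LaurentSeries ℂ) k (A : ℍ → ℂ) (B : ℍ → ℂ) :=
  ⟨isW_of_modularForm A, isW_of_modularForm B, fun h0 => h.1 (DFunLike.coe_injective h0), h.2⟩

/-- A function of `F_{0,ℂ}` of order one at a place, as a ratio of modular forms. -/
theorem exists_ratio_ord_one (u : Place ℂ (FNL ℂ M)) :
    ∃ (f : FNL ℂ M) (k : ℤ) (A B : ModularForm (Gamma0 M) k), f ≠ 0 ∧ IsRatio M f A B ∧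
      u.ord f = 1 := by
  obtain ⟨π, hπ⟩ := IsDiscreteValuationRing.exists_irreducible u.toValuationSubring
  have h1 : u.ord (π : FNL ℂ M) = 1 := u.ord_coe_irreducible hπ
  have h0 : (π : FNL ℂ M) ≠ 0 := by
    intro h
    rw [h, Place.ord_zero] at h1
    exact zero_ne_one h1
  obtain ⟨k, A, B, hr⟩ := Fermat.Agent.GTor.H58.stmt_A1 M (π : FNL ℂ M)
  exact ⟨_, k, A, B, h0, hr, h1⟩

end Incl

/-! ## The index at a point divides `6` -/

section Six

theorem jOrd_dvd_six (z : ℍ) : Fermat.Agent.S24.jOrd z ∣ 6 := by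
  by_cases h0 : Fermat.Agent.S24.jAn z = 0
  · rw [Fermat.Agent.GTor.Clo.jOrd_of_zero z h0]
    norm_num
  by_cases h1 : Fermat.Agent.S24.jAn z = 1728
  · rw [Fermat.Agent.GTor.Clo.jOrd_of_1728 z h1]
    norm_num
  rw [Fermat.Agent.S24.jOrd_eq_one z h0 h1]
  norm_num

theorem ellOrder_dvd_six (M : ℕ) [NeZero M] (z : ℍ) : ellOrder M z ∣ 6 := by
  have h1 : Fermat.Agent.GTor.Clo.ellStab M z ≤ MulAction.stabilizer SL(2, ℤ) z := inf_le_left
  have h2 := Subgroup.card_dvd_of_le h1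
  rw [Fermat.Agent.GTor.Clo.card_stabilizer] at h2
  obtain ⟨e, he⟩ := Fermat.Agent.GTor.Clo.ell_two_dvd_card M z
  have h3 : ellOrder M z = e := by
    rw [Fermat.Agent.GTor.Clo.ellOrder_eq, he]
    simp
  rw [he] at h2
  have h4 : e ∣ Fermat.Agent.S24.jOrd z := (Nat.mul_dvd_mul_iff_left (by norm_num)).mp h2
  rw [h3]
  exact h4.trans (jOrd_dvd_six z)

end Six

/-- **E-ORD**. -/
theorem stmt_OrdC : Stmt_OrdC := by
  intro M _ h2
  constructor
  · intro z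
    obtain ⟨hpos, u, hu⟩ := Fermat.Agent.GTor.Clo.stmt_A3 M z
    obtain ⟨f, k, A, B, hf, hr, h1⟩ := exists_ratio_ord_one u
    have hval := hu f k A B hf hr
    rw [h1, mul_one] at hval
    obtain ⟨v, e, he, hdvd, hv⟩ := exists_anPlace h2 (isOrdW_ordPt M z) (ellOrder M z) hpos
      ⟨⟨(f : LaurentSeries ℂ), coe_mem_FC f⟩, k, A, B,
        fun h => hf (Subtype.ext
          (by simpa using congrArg (fun t : ↥(FC M) => (t : LaurentSeries ℂ)) h)),
        isRep_of_isRatio hr, hval⟩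
    exact ⟨v, e, he, hdvd.trans (ellOrder_dvd_six M z), hv⟩
  · intro σ
    obtain ⟨hw, hwM, u, hu⟩ := Fermat.Agent.GTor.Clo.stmt_A4 M σ
    obtain ⟨f, k, A, B, hf, hr, h1⟩ := exists_ratio_ord_one u
    have hval := hu f k A B hf hr
    rw [h1, mul_one] at hval
    have hpos : 0 < M / cuspWidth M σ :=
      Nat.div_pos (Nat.le_of_dvd (Nat.pos_of_ne_zero (NeZero.ne M)) hwM) hw
    obtain ⟨v, e, he, hdvd, hv⟩ := exists_anPlace h2 (isOrdW_ordCu M σ) (M / cuspWidth M σ) hpos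
      ⟨⟨(f : LaurentSeries ℂ), coe_mem_FC f⟩, k, A, B,
        fun h => hf (Subtype.ext
          (by simpa using congrArg (fun t : ↥(FC M) => (t : LaurentSeries ℂ)) h)),
        isRep_of_isRatio hr, hval⟩
    exact ⟨v, e, he, hdvd, hv⟩

end Fermat.Agent.S48.B2.T.H98

end
end
-- ==== END Fermat.Agent.S48.B2.T.H98_OrdC
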