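-- GENERATED (merged mirror, NOTES/tools/trim/merge3_helper67.py): 7 modules of the originals, bodies verbatim.
import Fermat.Agent.Zm.S48_L15_000
import Fermat.Agent.Zm.S48_L01_000
import Fermat.Agent.Zm.S48_L02_003
import Fermat.Agent.Zm.S48_L11_000
import Fermat.Agent.Zm.S48_L14_000
import Fermat.Agent.Zm.S48_L03_002
import Fermat.Agent.Zm.S48_L08_001
import Fermat.Agent.Zm.S48_L02_001
import Fermat.Agent.Zm.S48_L09_000
import Fermat.Agent.Zm.S35_L10_005
import Fermat.Agent.Zm.S35_L10_003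
import Fermat.Agent.Zm.S35_L11_001
import Fermat.Agent.Zm.S48_L15_001

-- ==== BEGIN Fermat.Agent.NEB.EIG.H39_EigA1
section

/-!
# NEB / EIG (helper39): EIG-A, part 1: the `p`-adic character of an element of the Tate module

`A` a `p`-divisible, `p`-power torsion abelian group (`= J_H[p^∞]`), `Γ = Gam1 M c`.
`MonoSys p M c A` : the data of EIG-MONO (helper98's `Stmt_MonoH`) in abstract form:
`m k : A[p^k] → Hom(Γ, ℤ/p^k)`, additive, kernel killed by `h ≠ 0`, parabolic, compatible in `k`.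

* `TDg`, `Dg` : the Hecke and diamond operators on `Hom(Γ, B)`, any coefficient group `B`
  (`= H98.TDadd`, `H98.Dadd`), natural in `B`;
* `mInf ms ξ : Γ → ℤ_[p]` for `ξ ∈ T_p A` (helper2's `H2.tate`), additive, injective, parabolic;
* `mInf_op` : operators on `A` compatible with `m k` are compatible with `mInf`;
* `mL ms ι : T_p A →ₗ[ℤ] Hom(Γ, L)` for `ι : ℤ_[p] →+* L` injective.
-/

set_option autoImplicit false

namespace Fermat.Agent.NEB.EIG.H39

open CongruenceSubgroup Matrix.SpecialLinearGroup ModularForm Finset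
open scoped MatrixGroups
open Fermat.Agent.Betti ModularCurve.Period
open Fermat.Agent.S59.Lim

section Ops

variable {M c : ℕ}

/-- The Hecke operator of the double coset of `diag(ℓ, 1)` on `Hom(Gam1 M c, B)`. -/
noncomputable def TDg (M c : ℕ) (hc : c ∣ M) {ℓ : ℕ} (hℓ : ℓ.Prime) (hℓM : ¬ ℓ ∣ M)
    {B : Type*} [AddCommGroup B] (φ : Additive (Gam1 M c) →+ B) : Additive (Gam1 M c) →+ B :=
  haveI : Fact ℓ.Prime := ⟨hℓ⟩
  (H98.stmt_FAM_hecke M c ℓ hc hℓ hℓM).heckeOp (inc_injective _) φ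

theorem TDg_comp (hc : c ∣ M) {ℓ : ℕ} (hℓ : ℓ.Prime) (hℓM : ¬ ℓ ∣ M)
    {B B' : Type*} [AddCommGroup B] [AddCommGroup B'] (u : B →+ B')
    (φ : Additive (Gam1 M c) →+ B) :
    TDg M c hc hℓ hℓM (u.comp φ) = u.comp (TDg M c hc hℓ hℓM φ) := by
  have : Fact ℓ.Prime := ⟨hℓ⟩
  exact (H98.stmt_FAM_hecke M c ℓ hc hℓ hℓM).heckeOp_comp (inc_injective _) u φ

theorem TD_eq_TDg (hc : c ∣ M) {ℓ : ℕ} (hℓ : ℓ.Prime) (hℓM : ¬ ℓ ∣ M)
    {L : Type*} [Field L] (φ : Additive (Gam1 M c) →+ L) :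
    TD M c hc hℓ hℓM φ = TDg M c hc hℓ hℓM φ := rfl

/-- The diamond operator `φ ↦ φ ∘ conj_g` on `Hom(Gam1 M c, B)`. -/
noncomputable def Dg (hc : c ∣ M) (g : SL(2, ℤ)) (hg : (M : ℤ) ∣ g 1 0)
    {B : Type*} [AddCommGroup B] (φ : Additive (Gam1 M c) →+ B) : Additive (Gam1 M c) →+ B :=
  tw (inc_injective _) ⟨mapGL ℝ g, gam0_mem_Nrm hc hg⟩ φ

theorem Dg_comp (hc : c ∣ M) (g : SL(2, ℤ)) (hg : (M : ℤ) ∣ g 1 0)
    {B B' : Type*} [AddCommGroup B] [AddCommGroup B'] (u : B →+ B')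
    (φ : Additive (Gam1 M c) →+ B) :
    Dg hc g hg (u.comp φ) = u.comp (Dg hc g hg φ) := rfl

theorem Dop_eq_Dg (hc : c ∣ M) (g : SL(2, ℤ)) (hg : (M : ℤ) ∣ g 1 0)
    {L : Type*} [Field L] (φ : Additive (Gam1 M c) →+ L) :
    Dop hc g hg φ = Dg hc g hg φ := rfl

end Ops

/-- The data of EIG-MONO in abstract form. -/
structure MonoSys (p M c : ℕ) (A : Type*) [AddCommGroup A] where
  /-- the character of a `p^k`-torsion element -/
  m : (k : ℕ) → A → (Additive (Gam1 M c) →+ ZMod (p ^ k))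
  m_add : ∀ (k : ℕ) (x y : A), p ^ k • x = 0 → p ^ k • y = 0 → m k (x + y) = m k x + m k y
  /-- the kernel is killed by `h` -/
  h : ℕ
  h_ne : h ≠ 0
  m_ker : ∀ (k : ℕ) (x : A), p ^ k • x = 0 → m k x = 0 → h • x = 0
  m_par : ∀ (k : ℕ) (x : A), p ^ k • x = 0 → IsParabolicHom (Gam1 M c) (m k x)
  m_red : ∀ (k : ℕ) (x : A), p ^ (k + 1) • x = 0 → ∀ γ,
    m k (p • x) γ = redZ p k (m (k + 1) x γ)

section Tate

variable {p : ℕ} [Fact p.Prime] {M c : ℕ} {A : Type*} [AddCommGroup A]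

/-- The `p`-adic Tate module of `A`. -/
abbrev Ta (p : ℕ) (A : Type*) [AddCommGroup A] : Type _ := ↥(H2.tate (p : ℤ) A)

omit [Fact p.Prime] in
theorem ev_tors (ξ : Ta p A) (k : ℕ) : p ^ k • (H2.ev (p : ℤ) A k ξ) = 0 := by
  have := H2.pow_smul_ev k ξ
  rw [← Nat.cast_pow, natCast_zsmul] at this
  exact this

omit [Fact p.Prime] in
theorem ev_succ (ξ : Ta p A) (k : ℕ) :
    p • (H2.ev (p : ℤ) A (k + 1) ξ) = H2.ev (p : ℤ) A k ξ := by
  have := H2.smul_ev_succ k ξ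
  rw [natCast_zsmul] at this
  exact this

/-- The `p`-adic character of an element of the Tate module. -/
noncomputable def mInf (ms : MonoSys p M c A) (ξ : Ta p A) : Additive (Gam1 M c) →+ ℤ_[p] :=
  padicLim p (fun k => ms.m k (H2.ev (p : ℤ) A k ξ)) (fun k γ => by
    have := ms.m_red k (H2.ev (p : ℤ) A (k + 1) ξ) (ev_tors ξ (k + 1)) γ
    rw [ev_succ] at this
    exact this.symm)

theorem toZModPow_mInf (ms : MonoSys p M c A) (ξ : Ta p A) (k : ℕ) (γ : Additive (Gam1 M c)) :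
    PadicInt.toZModPow k (mInf ms ξ γ) = ms.m k (H2.ev (p : ℤ) A k ξ) γ :=
  toZModPow_padicLim p _ _ k γ

theorem toZModPow_comp_mInf (ms : MonoSys p M c A) (ξ : Ta p A) (k : ℕ) :
    (PadicInt.toZModPow k).toAddMonoidHom.comp (mInf ms ξ) = ms.m k (H2.ev (p : ℤ) A k ξ) :=
  AddMonoidHom.ext fun γ => toZModPow_mInf ms ξ k γ

theorem mInf_add (ms : MonoSys p M c A) (ξ ξ' : Ta p A) :
    mInf ms (ξ + ξ') = mInf ms ξ + mInf ms ξ' := by
  apply padic_hom_ext
  intro k γ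
  rw [AddMonoidHom.add_apply, map_add, toZModPow_mInf, toZModPow_mInf, toZModPow_mInf, map_add,
    ms.m_add k _ _ (ev_tors ξ k) (ev_tors ξ' k)]
  rfl

/-- Elements of `A` killed by `h ≠ 0` and by a power of `p` are killed by `p ^ h`. -/
theorem pow_smul_of_smul {h : ℕ} (hh : h ≠ 0) {k : ℕ} {x : A} (h1 : h • x = 0)
    (h2 : p ^ k • x = 0) : p ^ h • x = 0 := by
  have hp : p.Prime := Fact.out
  have hd1 : addOrderOf x ∣ h := addOrderOf_dvd_of_nsmul_eq_zero h1
  have hd2 : addOrderOf x ∣ p ^ k := addOrderOf_dvd_of_nsmul_eq_zero h2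
  obtain ⟨j, -, hj⟩ := (Nat.dvd_prime_pow hp).mp hd2
  have hjh : j ≤ h := by
    have h3 : p ^ j ≤ h := Nat.le_of_dvd (Nat.pos_of_ne_zero hh) (hj ▸ hd1)
    exact (Nat.lt_pow_self hp.one_lt).le.trans h3
  have hd3 : addOrderOf x ∣ p ^ h := by
    rw [hj]
    exact pow_dvd_pow p hjh
  exact addOrderOf_dvd_iff_nsmul_eq_zero.mp hd3

theorem mInf_eq_zero (ms : MonoSys p M c A) (ξ : Ta p A) (h0 : mInf ms ξ = 0) : ξ = 0 := by
  have h1 : ∀ k, ms.m k (H2.ev (p : ℤ) A k ξ) = 0 := by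
    intro k
    rw [← toZModPow_comp_mInf, h0]
    exact AddMonoidHom.comp_zero _
  have h2 : ∀ k, p ^ ms.h • (H2.ev (p : ℤ) A k ξ) = 0 := fun k =>
    pow_smul_of_smul ms.h_ne (ms.m_ker k _ (ev_tors ξ k) (h1 k)) (ev_tors ξ k)
  apply H2.tate_ext
  intro k
  rw [← H2.pow_smul_ev_add k ms.h ξ, map_zero, ← Nat.cast_pow, natCast_zsmul]
  exact h2 (k + ms.h)

theorem mInf_par (ms : MonoSys p M c A) (ξ : Ta p A) :
    IsParabolicHom (Gam1 M c) (mInf ms ξ) := by
  intro γ hγ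
  apply PadicInt.ext_of_toZModPow.mp
  intro k
  rw [toZModPow_mInf, map_zero]
  exact ms.m_par k _ (ev_tors ξ k) γ hγ

/-- Operators on `A` compatible with the `m k` are compatible with `mInf`. -/
theorem mInf_op (ms : MonoSys p M c A) (f : Module.End ℤ A)
    (F : ∀ {B : Type} [AddCommGroup B], (Additive (Gam1 M c) →+ B) → (Additive (Gam1 M c) →+ B))
    (hF : ∀ {B B' : Type} [AddCommGroup B] [AddCommGroup B'] (u : B →+ B')
      (φ : Additive (Gam1 M c) →+ B), F (u.comp φ) = u.comp (F φ))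
    (hf : ∀ (k : ℕ) (x : A), p ^ k • x = 0 → ms.m k (f x) = F (ms.m k x)) (ξ : Ta p A) :
    mInf ms (H2.mapEnd (p : ℤ) A f ξ) = F (mInf ms ξ) := by
  apply padic_hom_ext
  intro k γ
  rw [toZModPow_mInf, H2.ev_mapEnd, hf k _ (ev_tors ξ k), ← toZModPow_comp_mInf, hF]
  rfl

end Tate

section ToField

variable {p : ℕ} [Fact p.Prime] {M c : ℕ} {A : Type*} [AddCommGroup A]
  {L : Type} [Field L] (ι : ℤ_[p] →+* L)

/-- The character with values in `L`. -/
noncomputable def mL (ms : MonoSys p M c A) : Ta p A →ₗ[ℤ] (Additive (Gam1 M c) →+ L) :=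
  AddMonoidHom.toIntLinearMap
    { toFun := fun ξ => ι.toAddMonoidHom.comp (mInf ms ξ)
      map_zero' := by
        have : mInf ms (0 : Ta p A) = 0 := by
          have := mInf_add ms 0 0
          rw [add_zero] at this
          exact left_eq_add.mp this
        rw [this]
        exact AddMonoidHom.comp_zero _
      map_add' := fun ξ ξ' => by
        rw [mInf_add]
        exact AddMonoidHom.comp_add _ _ _ }

theorem mL_apply (ms : MonoSys p M c A) (ξ : Ta p A) :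
    mL ι ms ξ = ι.toAddMonoidHom.comp (mInf ms ξ) := rfl

theorem mL_injective (hι : Function.Injective ι) (ms : MonoSys p M c A) :
    Function.Injective (mL ι ms) := by
  rw [injective_iff_map_eq_zero]
  intro ξ h
  apply mInf_eq_zero ms
  refine AddMonoidHom.ext fun γ => ?_
  have := congrArg (fun ψ : Additive (Gam1 M c) →+ L => ψ γ) h
  simp only [mL_apply, AddMonoidHom.comp_apply, AddMonoidHom.zero_apply] at this
  apply hι
  rw [AddMonoidHom.zero_apply, map_zero]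
  exact this

theorem mL_par (ms : MonoSys p M c A) (ξ : Ta p A) :
    IsParabolicHom (Gam1 M c) (mL ι ms ξ) := by
  intro γ hγ
  rw [mL_apply, AddMonoidHom.comp_apply, mInf_par ms ξ γ hγ, map_zero]

theorem mL_op (ms : MonoSys p M c A) (f : Module.End ℤ A)
    (F : ∀ {B : Type} [AddCommGroup B], (Additive (Gam1 M c) →+ B) → (Additive (Gam1 M c) →+ B))
    (hF : ∀ {B B' : Type} [AddCommGroup B] [AddCommGroup B'] (u : B →+ B')
      (φ : Additive (Gam1 M c) →+ B), F (u.comp φ) = u.comp (F φ))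
    (hf : ∀ (k : ℕ) (x : A), p ^ k • x = 0 → ms.m k (f x) = F (ms.m k x)) (ξ : Ta p A) :
    mL ι ms (H2.mapEnd (p : ℤ) A f ξ) = F (mL ι ms ξ) := by
  rw [mL_apply, mL_apply, mInf_op ms f F hF hf, hF]

end ToField

end Fermat.Agent.NEB.EIG.H39

end
-- ==== END Fermat.Agent.NEB.EIG.H39_EigA1

-- ==== BEGIN Fermat.Agent.NEB.EIG.H98_MonoH
section

/-!
# NEB / EIG, leaf EIG-MONO: the final statement (helper98)

`stmt_MonoH : 2 ≤ c → c ∣ M → M ≠ 0 → p ≠ 0 → Stmt_MonoH M c H p ι`, unconditional: the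
monodromy map `J_H[p ^ k] → Hom(Γ₁(M; c), ℤ/p ^ k)` with its kernel, parabolic, Hecke, diamond and
compatibility clauses.  Leaves: A1-H, MONO1, assembly (helper98), A2-H, INJ1 (helper46),
CHAR1, KCOMP1, HK1 part (a) (helper34), KUM1, DIAM1 (helper12), HK1 (helper94, helper70).
-/

set_option autoImplicit false

namespace Fermat.Agent.NEB.EIG.H98

open Fermat.Agent.NEB

theorem stmt_MonoH {M c : ℕ} {H : Subgroup (ZMod c)ˣ} (ι : Kbar →+* ℂ) (hc2 : 2 ≤ c) (hc : c ∣ M)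
    (hM : M ≠ 0) {p : ℕ} (hp : p ≠ 0) : Stmt_MonoH M c H p ι :=
  stmt_MonoH_of ι hc2 hc hM hp (fun k => Fermat.Agent.NEB.EIG.H46.stmt_INJ1 M c H (p ^ k))
    (fun k => Fermat.Agent.NEB.EIG.H94.stmt_HK1 M c H (p ^ k))

end Fermat.Agent.NEB.EIG.H98

end
-- ==== END Fermat.Agent.NEB.EIG.H98_MonoH

-- ==== BEGIN Fermat.Agent.S48.B2.H55_AsmCore
section

/-!
# S48, B2 assembly, part 4 (helper55): the core of the assembly, with local hypotheses

`asm_core` (for ANY subgroup `H ≤ (ℤ/M)ˣ`): from an eigenvector in `J_H[ℓ] ⊗ k`, trivial inertia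
action, the Eichler–Shimura
relation with the diamond operator, continuity and the Galois character of `χ`, the
representation on the common eigenspace, twisted by the character, has all the properties asked
in `Stmt_TatePieceH'`.
-/

set_option autoImplicit false

noncomputable section

namespace Fermat.Agent.S48.B2.H55

open AlgebraicCurve ModularCurve CongruenceSubgroup Module
open Fermat.Agent.NEB Fermat.Agent.NEB.JH
open Fermat.Agent.S48.B2
open scoped MatrixGroups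

/-- The Hecke conditions. -/
structure HeckeIdx (M : ℕ) (H : Subgroup (ZMod M)ˣ) (χ : DirichletCharacter ℂ M) (b : ℕ → ℂ)
    (s : ℤ) (ℓ : ℕ) where
  /-- the prime -/
  q : ℕ
  /-- it is not zero -/
  nz : NeZero q
  /-- the degeneracy map exists -/
  hβ : @BetaOK M M q nz H
  /-- it is a prime -/
  hq : q.Prime
  /-- prime to the level and to `ℓ` -/
  hqM : ¬ q ∣ M * ℓ
  /-- the eigenvalue -/
  t : integralClosure ℤ ℂ
  /-- its value -/
  ht : (t : ℂ) = b q * (χ (q : ZMod M) : ℂ) ^ s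

/-- The diamond conditions. -/
structure DiamIdx (M : ℕ) (χ : DirichletCharacter ℂ M) (s' : ℤ) where
  /-- the unit -/
  d : (ZMod M)ˣ
  /-- the eigenvalue -/
  t : integralClosure ℤ ℂ
  /-- its value -/
  ht : (t : ℂ) = (χ (d : ZMod M) : ℂ) ^ s'

section Fam

variable {M : ℕ} {H : Subgroup (ZMod M)ˣ} {χ : DirichletCharacter ℂ M} {b : ℕ → ℂ} {s s' : ℤ}
  {ℓ r : ℕ}

/-- The family of matrices. -/
def famA (k : Type) [Field k] [CharP k ℓ] (θ : ↥(torsH M M H ℓ) ≃+ (Fin r → ZMod ℓ))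
    (dd : DiamondData M M H) :
    HeckeIdx M H χ b s ℓ ⊕ DiamIdx M χ s' → Matrix (Fin r) (Fin r) k
  | Sum.inl i => matOf k θ (resT ℓ (@TH M M i.q i.nz H i.hβ))
  | Sum.inr j => matOf k θ (resT ℓ (diamond dd j.d))

/-- The family of eigenvalues. -/
def famE {k : Type} [Field k] (φ : integralClosure ℤ ℂ →+* k) :
    HeckeIdx M H χ b s ℓ ⊕ DiamIdx M χ s' → k
  | Sum.inl i => φ i.t
  | Sum.inr j => φ j.t

end Fam

theorem char_unit_ne_zero {M : ℕ} (χ : DirichletCharacter ℂ M) (u : (ZMod M)ˣ) :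
    χ (u : ZMod M) ≠ 0 := by
  have h : IsUnit (χ (u : ZMod M)) := (u.isUnit).map χ
  exact h.ne_zero

theorem char_unit_inv {M : ℕ} (χ : DirichletCharacter ℂ M) (u : (ZMod M)ˣ) :
    (χ (u : ZMod M))⁻¹ = χ ((u⁻¹ : (ZMod M)ˣ) : ZMod M) := by
  have h : χ (u : ZMod M) * χ ((u⁻¹ : (ZMod M)ˣ) : ZMod M) = 1 := by
    rw [← map_mul, ← Units.val_mul, mul_inv_cancel, Units.val_one, map_one]
  exact inv_eq_of_mul_eq_one_right h

theorem char_unit_zpow {M : ℕ} (χ : DirichletCharacter ℂ M) (u : (ZMod M)ˣ) (e : ℤ) :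
    χ ((u ^ e : (ZMod M)ˣ) : ZMod M) = (χ (u : ZMod M)) ^ e := by
  have h := map_zpow χ.toUnitHom u e
  have h2 := congrArg (fun v : ℂˣ => (v : ℂ)) h
  simp only [MulChar.coe_toUnitHom, Units.val_zpow_eq_zpow_val] at h2
  exact h2

/-- The value of `χ` at a unit, as a unit of `ℤ̄`. -/
def charUnit {M : ℕ} [NeZero M] (χ : DirichletCharacter ℂ M) (u : (ZMod M)ˣ) :
    (integralClosure ℤ ℂ)ˣ :=
  intUnit (χ (u : ZMod M)) (Fermat.Agent.S48.Int.H55.isIntegral_charVal χ _)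
    (by
      rw [char_unit_inv]
      exact Fermat.Agent.S48.Int.H55.isIntegral_charVal χ _)
    (char_unit_ne_zero χ u)

theorem coe_charUnit {M : ℕ} [NeZero M] (χ : DirichletCharacter ℂ M) (u : (ZMod M)ˣ) :
    (((charUnit χ u : (integralClosure ℤ ℂ)ˣ) : integralClosure ℤ ℂ) : ℂ) = χ (u : ZMod M) :=
  rfl

/-- **Core of the assembly.** -/
theorem asm_core (s s' : ℤ) (h : s' = 2 * s + 1)
    (M : ℕ) [NeZero M] (hM2 : 2 ≤ M) (H : Subgroup (ZMod M)ˣ) (χ : DirichletCharacter ℂ M)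
    (b : ℕ → ℂ)
    (ℓ : ℕ) (hℓ : ℓ.Prime) (k : Type) [Field k] [CharP k ℓ] (φ : integralClosure ℤ ℂ →+* k)
    (dd : DiamondData M M H)
    (r : ℕ) (θ : ↥(torsH M M H ℓ) ≃+ (Fin r → ZMod ℓ)) (v : Fin r → k) (hv : v ≠ 0)
    (hvT : ∀ (q : ℕ) [NeZero q] (hβ : BetaOK M M q H), q.Prime → ¬ q ∣ M * ℓ →
      ∀ (X : ↥(torsH M M H ℓ) → ↥(torsH M M H ℓ)),
        (∀ x, ((X x : ↥(torsH M M H ℓ)) : JH M M H) =
          TH hβ (x : JH M M H)) →
        ∀ t : integralClosure ℤ ℂ, (t : ℂ) = b q * ((χ (q : ZMod M) : ℂ)) ^ s →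
          applyMat θ X v = φ t • v)
    (hvD : ∀ (d : (ZMod M)ˣ)
      (X : ↥(torsH M M H ℓ) → ↥(torsH M M H ℓ)),
        (∀ x, ((X x : ↥(torsH M M H ℓ)) : JH M M H) =
          dd.ρ d • (x : JH M M H)) →
        ∀ t : integralClosure ℤ ℂ, (t : ℂ) = ((χ (d : ZMod M) : ℂ)) ^ s' →
          applyMat θ X v = φ t • v)
    (hUnr : ∀ p : ℕ, p.Prime → ¬ p ∣ M * ℓ → ∀ P : ValuationSubring Kbar, P.LiesOverPrime p →
      ∀ σ ∈ P.inertiaSubgroupIn ℚ, ∀ x : JH M M H, ℓ • x = 0 → σ • x = x)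
    (hES : ∀ (p : ℕ) [NeZero p], p.Prime → ¬ p ∣ M * ℓ →
      ∀ (hβ : BetaOK M M p H) (qu : (ZMod M)ˣ),
        ((qu : (ZMod M)ˣ) : ZMod M) = (p : ZMod M) →
        ∀ A : ValuationSubring Kbar, A.LiesOverPrime p →
          ∀ σ : GQ, A.IsFrobeniusAt σ p → ∀ x : JH M M H, ℓ • x = 0 →
            dd.ρ qu • (σ • σ • x) - TH hβ (σ • x) + p • x = 0)
    (hGal : ∀ y : JH M M H, ∃ L : IntermediateField ℚ Kbar, FiniteDimensional ℚ L ∧
      ∀ σ : GQ, (∀ x ∈ L, σ x = x) → σ • y = y)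
    (θχ : GQ →* kˣ) (hθfin : GaloisFactorsThroughFiniteLevel θχ)
    (hθ : ∀ p : ℕ, p.Prime → ¬ p ∣ M → ∀ A : ValuationSubring Kbar, A.LiesOverPrime p →
      (∀ σ ∈ A.inertiaSubgroupIn ℚ, θχ σ = 1) ∧
      ∀ σ : GQ, A.IsFrobeniusAt σ p → ∀ e : integralClosure ℤ ℂ,
        (e : ℂ) = χ (p : ZMod M) → ((θχ σ : kˣ) : k) = φ e) :
    ∃ (r' : ℕ) (ρ : GQ →* GL (Fin r') k), 0 < r' ∧ GaloisFactorsThroughFiniteLevel ρ ∧
      ∀ p : ℕ, p.Prime → ¬ p ∣ M * ℓ → ∀ A : ValuationSubring Kbar, A.LiesOverPrime p →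
        (∀ σ ∈ A.inertiaSubgroupIn ℚ, ρ σ = 1) ∧
        ∀ σ : GQ, A.IsFrobeniusAt σ p → ∀ β c : integralClosure ℤ ℂ,
          (β : ℂ) = b p → (c : ℂ) = χ (p : ZMod M) * (p : ℂ) →
            ((ρ σ : GL (Fin r') k) : Matrix (Fin r') (Fin r') k) *
                ((ρ σ : GL (Fin r') k) : Matrix (Fin r') (Fin r') k) -
              φ β • ((ρ σ : GL (Fin r') k) : Matrix (Fin r') (Fin r') k) +
              φ c • (1 : Matrix (Fin r') (Fin r') k) = 0 := by
  classical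
  haveI : NeZero ℓ := ⟨hℓ.ne_zero⟩
  have hFF : RED.IsFF Kbar ↥(FHbar M M H) := isFF_JH M M H hM2 dvd_rfl
  -- the family and the Galois matrices
  set A : HeckeIdx M H χ b s ℓ ⊕ DiamIdx M χ s' → Matrix (Fin r) (Fin r) k := famA k θ dd with hA
  set a : HeckeIdx M H χ b s ℓ ⊕ DiamIdx M χ s' → k := famE φ with ha
  set g : GQ →* Matrix (Fin r) (Fin r) k := galMatHom k θ with hgdef
  have hg : ∀ σ i, A i * g σ = g σ * A i := by
    intro σ i
    rcases i with i | j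
    · haveI : NeZero i.q := i.nz
      haveI : NeZero (M * i.q) := neZero_mul M i.q
      have hFF' : RED.IsFF Kbar ↥(FHbar (M * i.q) M H) :=
        isFF_JH (M * i.q) M H hM2 (dvd_mul_right M i.q)
      show matOf k θ (resT ℓ (TH i.hβ)) * matOf k θ (resT ℓ (galHom M M H σ)) =
        matOf k θ (resT ℓ (galHom M M H σ)) * matOf k θ (resT ℓ (TH i.hβ))
      rw [← matOf_comp, ← matOf_comp]
      congr 1
      apply AddMonoidHom.ext
      intro x
      apply Subtype.ext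
      exact TH_galois hFF hFF' i.hβ σ (x : JH M M H)
    · show matOf k θ (resT ℓ (diamond dd j.d)) * matOf k θ (resT ℓ (galHom M M H σ)) =
        matOf k θ (resT ℓ (galHom M M H σ)) * matOf k θ (resT ℓ (diamond dd j.d))
      rw [← matOf_comp, ← matOf_comp]
      congr 1
      apply AddMonoidHom.ext
      intro x
      apply Subtype.ext
      exact diamond_galois hFF dd j.d σ (x : JH M M H)
  -- the twist
  set η : GQ →* kˣ := (zpowGroupHom (s' - s)).comp θχ with hη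
  have hηapp : ∀ σ, ((η σ : kˣ) : k) = ((θχ σ : kˣ) : k) ^ (s' - s) := by
    intro σ
    rw [hη, MonoidHom.comp_apply, zpowGroupHom_apply, Units.val_zpow_eq_zpow_val]
  -- the eigenvector
  have hvW : v ∈ eigSpace A a := by
    intro i
    rcases i with i | j
    · haveI : NeZero i.q := i.nz
      have h1 := hvT i.q i.hβ i.hq i.hqM (⇑(resT ℓ (TH i.hβ))) (fun x => rfl) i.t i.ht
      rw [applyMat_eq_mulVec] at h1
      exact h1
    · have h1 := hvD j.d (⇑(resT ℓ (diamond dd j.d))) (fun x => rfl) j.t j.ht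
      rw [applyMat_eq_mulVec] at h1
      exact h1
  set R : GQ →* Module.End k (eigSpace A a) := rhoEnd A a g hg η with hR
  have hpos : 0 < Module.finrank k (eigSpace A a) := by
    rw [Module.finrank_pos_iff]
    exact ⟨⟨⟨v, hvW⟩, 0, fun h0 => hv (congrArg Subtype.val h0)⟩⟩
  refine ⟨Module.finrank k (eigSpace A a), toGL (Module.finBasis k (eigSpace A a)) R, hpos,
    ?_, ?_⟩
  · -- finite level
    haveI : Finite ↥(torsH M M H ℓ) := Finite.of_equiv _ θ.symm.toEquiv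
    choose L hLfin hL using fun x : ↥(torsH M M H ℓ) => hGal (x : JH M M H)
    obtain ⟨Lθ, hLθfin, hLθ⟩ := hθfin
    haveI : ∀ x, FiniteDimensional ℚ ↥(L x) := hLfin
    haveI : FiniteDimensional ℚ ↥(⨆ x, L x) := IntermediateField.finiteDimensional_iSup_of_finite
    haveI : FiniteDimensional ℚ ↥Lθ := hLθfin
    refine ⟨(⨆ x, L x) ⊔ Lθ, IntermediateField.finiteDimensional_sup _ _, ?_⟩
    intro σ hσ
    have h1 : g σ = 1 := by
      refine galMatHom_eq_one θ σ (fun x hx => ?_)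
      refine hL ⟨x, hx⟩ σ (fun y hy => hσ y ?_)
      exact (le_sup_left : (⨆ x, L x) ≤ (⨆ x, L x) ⊔ Lθ) ((le_iSup L ⟨x, hx⟩) hy)
    have h2 : θχ σ = 1 := hLθ σ (fun y hy => hσ y
      ((le_sup_right : Lθ ≤ (⨆ x, L x) ⊔ Lθ) hy))
    have h3 : η σ = 1 := by
      rw [hη, MonoidHom.comp_apply, h2, map_one]
    exact toGL_eq_one _ R σ (rhoEnd_eq_one A a g hg η σ h1 h3)
  · intro p hp hpM P hP
    have hpM' : ¬ p ∣ M := fun h' => hpM (dvd_mul_of_dvd_left h' ℓ)
    obtain ⟨hθ1, hθ2⟩ := hθ p hp hpM' P hP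
    refine ⟨?_, ?_⟩
    · intro σ hσ
      have h1 : g σ = 1 := galMatHom_eq_one θ σ (fun x hx => hUnr p hp hpM P hP σ hσ x hx)
      have h3 : η σ = 1 := by
        rw [hη, MonoidHom.comp_apply, hθ1 σ hσ, map_one]
      exact toGL_eq_one _ R σ (rhoEnd_eq_one A a g hg η σ h1 h3)
    · intro σ hσ β c hβ hc
      haveI : NeZero p := ⟨hp.ne_zero⟩
      have hcop : p.Coprime M := (Nat.Prime.coprime_iff_not_dvd hp).2 hpM'
      set qu : (ZMod M)ˣ := ZMod.unitOfCoprime p hcop with hqu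
      have hquv : ((qu : (ZMod M)ˣ) : ZMod M) = (p : ZMod M) := ZMod.coe_unitOfCoprime p hcop
      set uχ : (integralClosure ℤ ℂ)ˣ := charUnit χ qu with huχ
      have huχv : (((uχ : (integralClosure ℤ ℂ)ˣ) : integralClosure ℤ ℂ) : ℂ) =
          χ (p : ZMod M) := by
        rw [huχ, coe_charUnit, hquv]
      have hβOK : BetaOK M M p H := betaOK' M M p H hM2 dvd_rfl
      -- the indices
      let i : HeckeIdx M H χ b s ℓ :=
        { q := p
          nz := ⟨hp.ne_zero⟩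
          hβ := hβOK
          hq := hp
          hqM := hpM
          t := β * ((uχ ^ s : (integralClosure ℤ ℂ)ˣ) : integralClosure ℤ ℂ)
          ht := by
            rw [Subalgebra.coe_mul, coe_unit_zpow, huχv, hβ] }
      let j : DiamIdx M χ s' :=
        { d := qu
          t := ((uχ ^ s' : (integralClosure ℤ ℂ)ˣ) : integralClosure ℤ ℂ)
          ht := by
            rw [coe_unit_zpow, huχv, hquv] }
      -- the relation
      have hrelT : (resT ℓ (diamond dd qu)).comp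
            ((resT ℓ (galHom M M H σ)).comp (resT ℓ (galHom M M H σ))) -
          (resT ℓ (TH hβOK)).comp (resT ℓ (galHom M M H σ)) +
          p • AddMonoidHom.id _ = 0 := by
        apply AddMonoidHom.ext
        intro x
        apply Subtype.ext
        exact hES p hp hpM hβOK qu hquv P hP σ hσ (x : JH M M H) x.2
      have hrel : A (Sum.inr j) * (g σ * g σ) - A (Sum.inl i) * g σ +
          (p : k) • (1 : Matrix (Fin r) (Fin r) k) = 0 := by
        have h1 := congrArg (matOf k θ) hrelT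
        rw [matOf_add, matOf_sub, matOf_comp, matOf_comp, matOf_comp, matOf_nsmul, matOf_id,
          matOf_zero] at h1
        exact h1
      -- the values
      have hy : ((θχ σ : kˣ) : k) = φ ((uχ : (integralClosure ℤ ℂ)ˣ) : integralClosure ℤ ℂ) :=
        hθ2 σ hσ _ huχv
      have hy0 : ((θχ σ : kˣ) : k) ≠ 0 := (θχ σ).ne_zero
      have haj : a (Sum.inr j) = ((θχ σ : kˣ) : k) ^ s' := by
        show φ ((uχ ^ s' : (integralClosure ℤ ℂ)ˣ) : integralClosure ℤ ℂ) = _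
        rw [map_unit_zpow, ← hy]
      have hai : a (Sum.inl i) = φ β * ((θχ σ : kˣ) : k) ^ s := by
        show φ (β * ((uχ ^ s : (integralClosure ℤ ℂ)ˣ) : integralClosure ℤ ℂ)) = _
        rw [map_mul, map_unit_zpow, ← hy]
      have haj0 : a (Sum.inr j) ≠ 0 := by
        rw [haj]
        exact zpow_ne_zero _ hy0
      have h1 : ((η σ : kˣ) : k) * a (Sum.inl i) = φ β * a (Sum.inr j) := by
        rw [hηapp, hai, haj, zpow_sub₀ hy0]
        field_simp
      have hcval : c = ((uχ : (integralClosure ℤ ℂ)ˣ) : integralClosure ℤ ℂ) *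
          ((p : ℕ) : integralClosure ℤ ℂ) := by
        apply Subtype.ext
        rw [hc, Subalgebra.coe_mul, huχv]
        simp
      have h2 : ((η σ : kˣ) : k) * ((η σ : kˣ) : k) * (p : k) = φ c * a (Sum.inr j) := by
        rw [hηapp, haj, hcval, map_mul, map_natCast, ← hy]
        have e1 : s' - s = s + 1 := by omega
        rw [e1, h, zpow_add₀ hy0, zpow_one, zpow_add₀ hy0, zpow_one, two_mul, zpow_add₀ hy0]
        ring
      have hquad := rhoEnd_quadratic_diam A a g hg η σ (Sum.inl i) (Sum.inr j) (p : k) hrel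
        (φ β) (φ c) haj0 h1 h2
      exact toGL_quadratic _ R σ (φ β) (φ c) hquad

end Fermat.Agent.S48.B2.H55

end
end
-- ==== END Fermat.Agent.S48.B2.H55_AsmCore

-- ==== BEGIN Fermat.Agent.S48.B2.R.H22_OutU
section
attribute [local instance 10000] SubalgebraClass.toAlgebra
attribute [local instance 10000] HahnSeries.powerSeriesAlgebra

/-!
# S48 B2, slice R, leaf OUT-U (helper22): `Stmt_TIcoreH → Stmt_TorsUnramH`

* `eq_zero_of_kumRep` : class form of `TIcoreAt`: a class `x = [D]` with `n D = div g`, `g` a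
  constant times a Gauss unit reducing to `1`, is zero (reusable for OUT-ES);
* `stmt_OutU : Stmt_OutU`.
-/

set_option autoImplicit false
set_option synthInstance.maxHeartbeats 400000
set_option maxHeartbeats 1000000

noncomputable section

namespace Fermat.Agent.S48.B2.R.H22

open AlgebraicCurve ModularCurve IntermediateField
open Fermat.Agent.NEB Fermat.Agent.NEB.JH Fermat.Agent.RED
open Fermat.Agent.S28.H73 Fermat.Agent.RED.H73 Fermat.Agent.RED.H34
open Fermat.Agent.NEB.Geom.H70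

/-- **Class form of `TIcoreAt`**: a class with a Kummer function of exponent `n ≠ 0` which is a
constant times a Gauss unit reducing to `1` is zero. -/
theorem eq_zero_of_kumRep {A : ValuationSubring Kbar} {M c : ℕ} {H : Subgroup (ZMod c)ˣ} {n : ℕ}
    (hn : n ≠ 0) (hTI : TIcoreAt A M c H n) {x : JH M c H} {g : ↥(FHbar M c H)}
    (hg : KumRep (n : ℤ) x g)
    (hred : Fermat.Agent.NEB.H70.IsRedOneC A (g : LaurentSeries Kbar)) : x = 0 := by
  obtain ⟨hg0, D, rfl, hD⟩ := hg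
  obtain ⟨a, ha, hred⟩ := hred
  have hsc := H94.hasScale_FHbar A M c H
  have hcoe : ((algebraMap Kbar ↥(FHbar M c H) a * g : ↥(FHbar M c H)) : LaurentSeries Kbar)
      = HahnSeries.C a * (g : LaurentSeries Kbar) := by
    show ((algebraMap Kbar ↥(FHbar M c H) a : ↥(FHbar M c H)) : LaurentSeries Kbar)
      * (g : LaurentSeries Kbar) = _
    rw [coe_algebraMap_F]
  have hmem : algebraMap Kbar ↥(FHbar M c H) a * g ∈ gaussValSub A (FHbar M c H) hsc := by
    rw [mem_gaussValSub_iff, hcoe]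
    exact hred.mem
  have hres : gaussResF' A hsc ⟨_, hmem⟩ = 1 := by
    apply Subtype.ext
    show gaussResF A hsc ⟨_, hmem⟩ = 1
    rw [gaussResF_apply]
    have e : (⟨((⟨algebraMap Kbar ↥(FHbar M c H) a * g, hmem⟩ :
          ↥(gaussValSub A (FHbar M c H) hsc)) : ↥(FHbar M c H)), hmem⟩ : gaussRingV A)
        = ⟨HahnSeries.C a * (g : LaurentSeries Kbar), hred.mem⟩ := Subtype.ext hcoe
    rw [e]
    exact hred.eq _
  have hdiv : ∀ Q : Place Kbar ↥(FHbar M c H),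
      (n : ℤ) ∣ Q.ord (algebraMap Kbar ↥(FHbar M c H) a * g) := by
    intro Q
    rw [Fermat.Agent.RED.H17.ord_algebraMap_mul Q ha g, ← hD Q]
    exact dvd_mul_right _ _
  obtain ⟨t, ht⟩ := hTI ⟨_, hmem⟩ hres hdiv
  have ht' : t ^ n = algebraMap Kbar ↥(FHbar M c H) a * g := ht
  have ht0 : t ≠ 0 := by
    rintro rfl
    rw [zero_pow hn] at ht'
    exact (mul_ne_zero ((map_ne_zero _).2 ha) hg0) ht'.symm
  have hn' : (n : ℤ) ≠ 0 := by exact_mod_cast hn
  have hDt : ∀ Q : Place Kbar ↥(FHbar M c H),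
      (D : Divisor Kbar ↥(FHbar M c H)) Q = Q.ord t := by
    intro Q
    have h1 : Q.ord (t ^ n) = (n : ℤ) * Q.ord t := by
      rw [← zpow_natCast, Q.ord_zpow]
    rw [ht', Fermat.Agent.RED.H17.ord_algebraMap_mul Q ha g, ← hD Q] at h1
    exact mul_left_cancel₀ hn' h1
  refine (QuotientAddGroup.eq_zero_iff _).2 ?_
  exact ⟨t, ht0, hDt⟩

/-- A class killed by `n` has a Kummer representation of exponent `n`. -/
theorem exists_kumRep_of_nsmul {M c : ℕ} {H : Subgroup (ZMod c)ˣ} {n : ℕ} {x : JH M c H}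
    (hx : n • x = 0) : ∃ f : ↥(FHbar M c H), KumRep (n : ℤ) x f := by
  have h : (n : ℤ) • x = 0 := by
    rw [natCast_zsmul]
    exact hx
  exact exists_kumRep h

/-- Inertia moves an `n`-torsion class by a class in the kernel of reduction (any `n`). -/
theorem kumRep_inertia {M c : ℕ} {H : Subgroup (ZMod c)ˣ} {n : ℕ} {P : ValuationSubring Kbar}
    {σ : Fermat.Agent.NEB.Geom.GalQ} (hσ : σ ∈ P.inertiaSubgroupIn ℚ) {x : JH M c H}
    {f : ↥(FHbar M c H)} (hf : KumRep (n : ℤ) x f) :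
    KumRep (n : ℤ) (σ • x - x) (arithmeticRingAut (FHQ M c H) σ f * f⁻¹) ∧
      Fermat.Agent.NEB.H70.IsRedOneC P
        ((arithmeticRingAut (FHQ M c H) σ f * f⁻¹ : ↥(FHbar M c H)) : LaurentSeries Kbar) := by
  refine ⟨(hf.galois σ).sub hf, ?_⟩
  exact Fermat.Agent.NEB.H70.isRedOneC_inertia
    (Fermat.Agent.BAD.H91.inertialOn_of_mem_inertia P hσ) (scalable_FHbar P hf.ne_zero)

/-- **OUT-U.** -/
theorem stmt_OutU : Stmt_OutU := by
  intro hTI M c H hc2 hcM hM n q hq hqM hqn hn6 hSQ P hP σ hσ x hx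
  have hn : n ≠ 0 := by
    rintro rfl
    simp at hn6
  obtain ⟨f, hf⟩ := exists_kumRep_of_nsmul hx
  obtain ⟨h1, h2⟩ := kumRep_inertia hσ hf
  have h0 : σ • x - x = 0 :=
    eq_zero_of_kumRep hn (hTI M c H hc2 hcM hM n q hq hqM hqn hn6 hSQ P hP) h1 h2
  exact sub_eq_zero.mp h0

end Fermat.Agent.S48.B2.R.H22

end
end
-- ==== END Fermat.Agent.S48.B2.R.H22_OutU

-- ==== BEGIN Fermat.Agent.S48.B2.R.H25_IrrH
section

set_option autoImplicit false

namespace Fermat.Agent.S48.B2.R.H25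

/-- **R-IRR**, unconditionally, in the form of `R/Defs.lean`. -/
theorem stmt_IrrH : Fermat.Agent.S48.B2.R.Stmt_IrrH := by
  intro M c H hc2 hc hM q hq hqM A hA dd d f hf
  haveI : NeZero M := ⟨hM⟩
  exact stmt_RIRR M c H hc2 hc q hq hqM A hA dd d f hf

end Fermat.Agent.S48.B2.R.H25

end
-- ==== END Fermat.Agent.S48.B2.R.H25_IrrH

-- ==== BEGIN Fermat.Agent.S48.B2.R.H32_Wire
section

/-!
# S48, B2, slice R: wiring (helper32)

* `tih_of_drh : Stmt_DRH → Stmt_TIH` (abstract machine `RED.H17.ticoreFor_of_hasDR`);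
* `ticoreH_of : Stmt_TIH → Stmt_Desc → Stmt_TIcoreH` (level choice `H22.exists_level`).
-/

set_option autoImplicit false
set_option linter.style.haveILetI false
set_option synthInstance.maxHeartbeats 400000
set_option maxHeartbeats 1000000

noncomputable section

namespace Fermat.Agent.S48.B2.R.H32

open AlgebraicCurve ModularCurve IntermediateField
open Fermat.Agent.NEB Fermat.Agent.NEB.JH Fermat.Agent.RED
open Fermat.Agent.S28.H73 Fermat.Agent.RED.H73 Fermat.Agent.RED.H34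

/-- `F_H(M)` is a function field. -/
theorem isFF_FH (M c : ℕ) (H : Subgroup (ZMod c)ˣ) (hc2 : 2 ≤ c) (hc : c ∣ M) (hM : M ≠ 0) :
    IsFF Kbar ↥(FHbar M c H) :=
  haveI : NeZero M := ⟨hM⟩
  Fermat.Agent.NEB.H94.isFF_FHbar M c H hc2 hc (Fermat.Agent.NEB.H84.stmt_FH_gal M c H)

/-- **R-TI** from R-DR. -/
theorem tih_of_drh (h : Stmt_DRH) : Stmt_TIH := by
  intro M c H hc2 hc hM hU q hq hqM ht A hA
  haveI : IsAlgClosed (kV A) := isAlgClosed_kV A
  haveI : CharP (kV A) q := Fermat.Agent.NEB.Geom.H70.charP_kV_of_liesOverPrime A hq hA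
  exact Fermat.Agent.RED.H17.ticoreFor_of_hasDR A (Fermat.Agent.NEB.H94.hasScale_FHbar A M c H) hq
    (CharP.cast_eq_zero (kV A) q) (isFF_FH M c H hc2 hc hM) (h M c H hc2 hc hM hU q hq hqM ht A hA)

/-- **TIcore-H** from R-TI and DESC. -/
theorem ticoreH_of (hTI : Stmt_TIH) (hD : Stmt_Desc) : Stmt_TIcoreH := by
  intro M c H hc2 hc hM n q hq hqM hqn hn6 hSQ A hA
  obtain ⟨M'', d, hMM, hM0, hqM'', h3, h2, hU, hψ, hdn⟩ :=
    Fermat.Agent.S48.B2.R.H22.exists_level M c n q hM hc hn6 hSQ hq hqM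
  have htame : Tame q M'' := by
    by_cases h5 : 5 ≤ q
    · exact Or.inl h5
    · have hq2 := hq.two_le
      have : q = 2 ∨ q = 3 ∨ q = 4 := by omega
      rcases this with h | h | h
      · exact Or.inr (Or.inr ⟨h, h2 h⟩)
      · exact Or.inr (Or.inl ⟨h, h3 h⟩)
      · exfalso
        rw [h] at hq
        exact absurd hq (by decide)
  exact hD M M'' c H hc2 hc hMM hM0 d n hψ hdn q hq hqM'' hqn A hA
    (hTI M'' c H hc2 (hc.trans hMM) hM0 (hU H) q hq hqM'' htame A hA)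

end Fermat.Agent.S48.B2.R.H32

end
end
-- ==== END Fermat.Agent.S48.B2.R.H32_Wire

-- ==== BEGIN Fermat.Agent.S48.B2.T.H25_A5Slash
section

set_option autoImplicit false

noncomputable section

namespace Fermat.Agent.S48.B2.T.H25

open UpperHalfPlane CongruenceSubgroup Matrix.SpecialLinearGroup
open Fermat.Agent.NEB.EIG.H98 Fermat.Agent.S24
open scoped MatrixGroups ModularForm Manifold

/-- The automorphy factor `τ ↦ j(δ, τ)^(-k)` as an element of `Hol`. -/
def denomHol (δ : SL(2, ℤ)) (k : ℤ) : Hol :=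
  ⟨fun τ : ℍ => denom (δ : GL (Fin 2) ℝ) τ ^ (-k), mdifferentiable_denom_zpow _ _⟩

theorem denomHol_apply (δ : SL(2, ℤ)) (k : ℤ) (τ : ℍ) :
    (denomHol δ k : ℍ → ℂ) τ = denom (δ : GL (Fin 2) ℝ) τ ^ (-k) := rfl

theorem denomHol_apply_ne_zero (δ : SL(2, ℤ)) (k : ℤ) (τ : ℍ) :
    (denomHol δ k : ℍ → ℂ) τ ≠ 0 := by
  rw [denomHol_apply]
  exact zpow_ne_zero _ (denom_ne_zero _ τ)

theorem denomHol_ne_zero (δ : SL(2, ℤ)) (k : ℤ) : denomHol δ k ≠ 0 := by
  intro h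
  have := congrFun (congrArg Subtype.val h) UpperHalfPlane.I
  exact denomHol_apply_ne_zero δ k UpperHalfPlane.I this

theorem ordNat_denomHol (z : ℍ) (δ : SL(2, ℤ)) (k : ℤ) : Hol.ordNat z (denomHol δ k) = 0 :=
  (Hol.ordNat_eq_zero_iff z (denomHol_ne_zero δ k)).mpr (denomHol_apply_ne_zero δ k z)

/-- The slash action in terms of the action of `SL₂(ℤ)` on `Hol`. -/
theorem slash_eq_hol (δ : SL(2, ℤ)) (k : ℤ) (A : Hol) :
    (A : ℍ → ℂ) ∣[k] δ = ((δ⁻¹ • A * denomHol δ k : Hol) : ℍ → ℂ) := by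
  funext τ
  rw [ModularForm.SL_slash_apply]
  show _ = ((δ⁻¹ • A : Hol) : ℍ → ℂ) τ * (denomHol δ k : ℍ → ℂ) τ
  rw [Hol.smul_apply, inv_inv, denomHol_apply]

theorem ordPt_zero (z : ℍ) (k : ℤ) : ordPt z k (0 : ℍ → ℂ) = 0 := by
  have h : analyticOrderAt ((0 : ℍ → ℂ) ∘ UpperHalfPlane.ofComplex) (z : ℂ) = ⊤ := by
    rw [analyticOrderAt_eq_top]
    exact Filter.Eventually.of_forall fun w => rfl
  show ((analyticOrderNatAt ((0 : ℍ → ℂ) ∘ UpperHalfPlane.ofComplex) (z : ℂ) : ℕ) : ℤ) = 0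
  unfold analyticOrderNatAt
  rw [h]
  rfl

/-- The order of `A ∣[k] δ` at `z` is the order of `A` at `δ • z`. -/
theorem ordPt_slash (z : ℍ) (δ : SL(2, ℤ)) (k : ℤ) {A : ℍ → ℂ}
    (hA : MDifferentiable 𝓘(ℂ) 𝓘(ℂ) A) : ordPt z k (A ∣[k] δ) = ordPt (δ • z) k A := by
  by_cases hA0 : A = 0
  · subst hA0
    rw [SlashAction.zero_slash, ordPt_zero, ordPt_zero]
  have hne : (⟨A, hA⟩ : Hol) ≠ 0 := hol_ne_zero hA hA0
  have hsm : (δ⁻¹ • (⟨A, hA⟩ : Hol)) ≠ 0 := by
    intro h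
    apply hne
    have := congrArg (fun f : Hol => δ • f) h
    simpa using this
  have e := slash_eq_hol δ k ⟨A, hA⟩
  have e' : A ∣[k] δ = ((δ⁻¹ • (⟨A, hA⟩ : Hol) * denomHol δ k : Hol) : ℍ → ℂ) := e
  have hmd : MDifferentiable 𝓘(ℂ) 𝓘(ℂ) (A ∣[k] δ) := by
    rw [e']
    exact (δ⁻¹ • (⟨A, hA⟩ : Hol) * denomHol δ k : Hol).2
  rw [ordPt_eq_ordNat z k hmd, ordPt_eq_ordNat (δ • z) k hA]
  have h1 : (⟨A ∣[k] δ, hmd⟩ : Hol) = δ⁻¹ • (⟨A, hA⟩ : Hol) * denomHol δ k :=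
    Subtype.ext e'
  rw [h1, Hol.ordNat_mul z hsm (denomHol_ne_zero δ k), ordNat_denomHol, add_zero,
    Hol.ordNat_smul, inv_inv]

/-- **A5C-SLASH**. -/
theorem stmt_A5Slash : Fermat.Agent.S48.B2.T.H96.Stmt_A5Slash :=
  fun z δ k _ hA => ordPt_slash z δ k hA

end Fermat.Agent.S48.B2.T.H25

end
end
-- ==== END Fermat.Agent.S48.B2.T.H25_A5Slash
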