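-- GENERATED (merged mirror, NOTES/tools/trim/merge3_helper67.py): 4 modules of the originals, bodies verbatim.
import Fermat.Agent.Zm.S48_L14_001
import Fermat.Agent.Zm.S48_L11_000
import Fermat.Agent.Zm.S48_L14_000
import Fermat.Agent.Zm.S35_L02_000
import Fermat.Agent.Zm.S48_L15_001
import Fermat.Agent.Zm.S48_L09_000
import Fermat.Agent.Zm.S48_L04_001
import Fermat.Agent.Zm.S48_L07_001
import Fermat.Agent.Zm.S35_L17_000
import Fermat.Agent.Zm.S35_L06_001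
import Fermat.Agent.Zm.S35_L02_002
import Fermat.Agent.Zm.S35_L02_003

-- ==== BEGIN Fermat.Agent.S48.B2.T.H46_FinC
section

/-!
# S48 / B2, slice T, leaf E-FIN (helper46): the unramified Kummer classes of `F_{H,ℂ}` are finite

`stmt_FinC_of : Stmt_A1C → Stmt_OrdC → Stmt_FinC`.

Plan (`NOTES/plan/W_S48_B2T.md` §4.6).  `F_C = FC M` is the function field of `X₁(M)/±1` over `ℂ`.

* `HasCharC M n f φ` : `f = (R / B)ⁿ`, `R` holomorphic of weight `k`, bounded at the cusps, with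
  multiplier `ζ^φ` under `Γ₁(M) = Gam1 M M`, and `B ≠ 0` a modular form of weight `k` on `Γ₀(M)`.
* `exists_hasCharC` (MONO-C): an unramified `f ≠ 0` has a character (E-A1C: `f = A / B`; E-ORD:
  `n ∣ ord_z (A B^(n-1))` for all `z ∈ ℍ`; `Lib/NthRoot.lean`).
* `pow_of_hasCharC` (INJ-C): if `f` and `g` have the same character then `f = yⁿ g` with
  `y ∈ F_C` (`X = R B'` and `Y = R' B` have the same multiplier on `±Γ₁(M)`, so
  `X Y^(n-1) / Yⁿ ∈ F_C` by `NEB.EIG.H46.stmt_A2H`).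
* `stmt_FinC_of`: the class of `f` ↦ a character of `f` is injective into the finite set
  `Hom(Γ₁(M), ℤ/n)`.
-/

set_option autoImplicit false
set_option linter.unusedSectionVars false
set_option linter.unusedVariables false

noncomputable section

namespace Fermat.Agent.S48.B2.T.H46

open AlgebraicCurve ModularCurve UpperHalfPlane CongruenceSubgroup Matrix.SpecialLinearGroup
  ModularForm
open Fermat.Agent.NEB Fermat.Agent.NEB.JH Fermat.Agent.NEB.H84 Fermat.Agent.NEB.EIG.H39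
open Fermat.Agent.NEB.EIG.H98 Fermat.Agent.NEB.EIG.H34 Fermat.Agent.GTor
open Fermat.Agent.S23.H22 (Nice)
open Fermat.Agent.GTor.H56 (qLaurent_mul qLaurent_injective qLaurent_eq_zero_iff qLaurent_zero
  qLaurent_pow nice_of_gamma0)
open scoped MatrixGroups ModularForm Manifold

/-! ## 1. The character of a function -/

/-- `f ∈ ℂ((q))` **has character** `φ` on `Γ₁(M)`: `f = (R / B)ⁿ` with `R` holomorphic of weight
`k`, bounded at all cusps, with multiplier `ζ^φ` under `Gam1 M M`, and `B ≠ 0` a modular form of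
weight `k` on `Γ₀(M)`. -/
def HasCharC (M n : ℕ) (f : LaurentSeries ℂ) (φ : Additive (Gam1 M M) →+ ZMod n) : Prop :=
  ∃ (k : ℤ) (R : ℍ → ℂ) (B : ModularForm (Gamma0 M) k),
    IsTw1 M M n k φ R ∧ B ≠ 0 ∧
    qLaurent (fun z => R z ^ n) = f * qLaurent (fun z => B z ^ n)

theorem mem_cosetSet_of_mem_Gam1 {M : ℕ} {γ : SL(2, ℤ)} (hγ : γ ∈ Gam1 M M) :
    ((γ 0 0 : ℤ) : ZMod M) ∈ cosetSet M (⊥ : Subgroup (ZMod M)ˣ) 1 := by
  have h3 : (M : ℤ) ∣ γ 0 0 - 1 := hγ.2.2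
  have h4 : ((γ 0 0 : ℤ) : ZMod M) = 1 := by
    have := (ZMod.intCast_zmod_eq_zero_iff_dvd _ _).mpr h3
    push_cast at this
    exact sub_eq_zero.mp this
  rw [h4]
  exact ⟨1, Subgroup.one_mem _, Or.inl (by simp)⟩

/-! ## 2. MONO-C: an unramified function has a character -/

/-- **MONO-C.**  An unramified function of `F_C` has a character on `Γ₁(M)`. -/
theorem exists_hasCharC (hA1 : Stmt_A1C) (hOrd : Stmt_OrdC) (M : ℕ) [NeZero M] (hM : 2 ≤ M)
    {n : ℕ} (hn : n ≠ 0) (f : ↥(FC M)) (hf : f ≠ 0)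
    (hunr : ∀ v : Place ℂ ↥(FC M), (n : ℤ) ∣ v.ord f) :
    ∃ φ : Additive (Gam1 M M) →+ ZMod n, HasCharC M n (f : LaurentSeries ℂ) φ := by
  obtain ⟨k, A, B, hA, hB0, hinvA, hq⟩ := hA1 M hM f
  have hBf0 : (B : ℍ → ℂ) ≠ 0 := fun h => hB0 (DFunLike.coe_injective h)
  have rep : IsRep M (f : LaurentSeries ℂ) k A (B : ℍ → ℂ) :=
    ⟨hA, isW_of_modularForm B, hBf0, hq⟩
  have hfL : (f : LaurentSeries ℂ) ≠ 0 := fun h => hf (Subtype.ext h)
  have hA0 : A ≠ 0 := rep.num_ne_zero hfL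
  have hn1 : (((n - 1 : ℕ) : ℕ) : ℤ) = (n : ℤ) - 1 := by
    have : 1 ≤ n := Nat.one_le_iff_ne_zero.mpr hn
    push_cast [Nat.cast_sub this]
    ring
  have hBmd : MDifferentiable 𝓘(ℂ) 𝓘(ℂ) (B : ℍ → ℂ) := Fermat.Agent.GTor.H96.mdiff_coe B
  -- the function `A * B ^ (n - 1)` and its root
  have hmd : MDifferentiable 𝓘(ℂ) 𝓘(ℂ) (A * (B : ℍ → ℂ) ^ (n - 1)) :=
    hA.mdiff.mul (hBmd.pow _)
  have hP0 : A * (B : ℍ → ℂ) ^ (n - 1) ≠ 0 :=
    fun_mul_ne_zero hA.mdiff (hBmd.pow _) hA0 (fun_pow_ne_zero hBmd hBf0 _)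
  have hne : ∃ τ : ℍ, (A * (B : ℍ → ℂ) ^ (n - 1)) τ ≠ 0 := exists_ne_zero_of_fun_ne_zero hP0
  have hdiv : ∀ τ : ℍ, n ∣ analyticOrderNatAt
      ((A * (B : ℍ → ℂ) ^ (n - 1)) ∘ UpperHalfPlane.ofComplex) (τ : ℂ) := by
    intro τ
    obtain ⟨v, e, -, -, hv⟩ := (hOrd M hM).1 τ
    have h0 := hv f k A (B : ℍ → ℂ) hf rep
    obtain ⟨m, hm⟩ := hunr v
    have h1 : ordPt τ k (A * (B : ℍ → ℂ) ^ (n - 1))
        = ordPt τ k A + ((n : ℤ) - 1) * ordPt τ k (B : ℍ → ℂ) := by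
      rw [ordPt_mul hA.mdiff (hBmd.pow _) hA0 (fun_pow_ne_zero hBmd hBf0 _) τ k k k,
        ordPt_pow hBmd hBf0 τ (n - 1) k k, hn1]
    rw [← Int.natCast_dvd_natCast]
    refine ⟨(e : ℤ) * m + ordPt τ k (B : ℍ → ℂ), ?_⟩
    have h2 : ((analyticOrderNatAt ((A * (B : ℍ → ℂ) ^ (n - 1)) ∘ UpperHalfPlane.ofComplex)
        (τ : ℂ) : ℕ) : ℤ) = ordPt τ k (A * (B : ℍ → ℂ) ^ (n - 1)) := rfl
    rw [h2, h1]
    rw [hm] at h0
    linear_combination h0
  obtain ⟨R, hR, hRn'⟩ :=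
    Fermat.Agent.Lib.NthRoot.exists_nthRoot_of_mdifferentiable hn hmd hne hdiv
  have hRfun : (R ^ n : ℍ → ℂ) = A * (B : ℍ → ℂ) ^ (n - 1) := by
    funext z
    simpa using hRn' z
  have hR0f : R ≠ 0 := by
    rintro rfl
    rw [zero_pow hn] at hRfun
    exact hP0 hRfun.symm
  have hR0 : ∃ τ : ℍ, R τ ≠ 0 := exists_ne_zero_of_fun_ne_zero hR0f
  -- the character on `Γ₁(M)`
  have hinv : ∀ γ ∈ Gam1 M M, (R ^ n) ∣[k * n] γ = R ^ n := by
    intro γ hγ
    rw [hRfun, Fermat.Agent.GTor.H96.mul_pow_slash_SL _ _ k hn γ,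
      hinvA γ (Gam1_le_Gamma0 M M hγ) (mem_cosetSet_of_mem_Gam1 hγ),
      Fermat.Agent.GTor.H96.slash_eq_of_mem_Gamma0 B ⟨γ, Gam1_le_Gamma0 M M hγ⟩]
  obtain ⟨χ, hχn, hχ⟩ := Fermat.Agent.Lib.NthRoot.exists_character_of_root
    (Gam1 M M) hn hR hR0 hinv
  obtain ⟨φ, hφ⟩ := Fermat.Agent.GTor.H96.exists_additive_of_character hn χ (fun γ => hχn _)
  refine ⟨φ, k, R, B, ⟨hR, ?_, ?_⟩, hB0, ?_⟩
  · -- boundedness at the cusps
    intro σ
    apply Fermat.Agent.Lib.NthRoot.isBoundedAtImInfty_of_pow hn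
    rw [← Fermat.Agent.GTor.H96.pow_slash_SL'' R k n σ, hRfun,
      Fermat.Agent.GTor.H96.mul_pow_slash_SL _ _ k hn σ]
    exact (hA.bdd σ).mul ((Fermat.Agent.GTor.H96.isCuspRegular_slash B σ).pow (n - 1)).bdd
  · -- the transformation law
    intro γ
    rw [hχ γ, hφ γ]
    rfl
  · -- the `q`-expansion identity
    have hNA := hA.nice
    have hNB := nice_of_gamma0 B
    have e1 : (fun z => R z ^ n) = A * (fun z => B z ^ (n - 1)) := by
      funext z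
      simpa using hRn' z
    have hNBp : Nice 1 (fun z => B z ^ (n - 1)) := hNB.pow (n - 1)
    rw [e1, qLaurent_mul hNA hNBp, qLaurent_pow hNB, qLaurent_pow hNB, hq, mul_assoc,
      ← pow_succ', Nat.sub_add_cancel (Nat.one_le_iff_ne_zero.mpr hn)]

/-! ## 3. INJ-C: functions with the same character differ by an `n`-th power -/

section Inj

variable {M n : ℕ} [NeZero M] {K : ℤ} {φ : Additive (Gam1 M M) →+ ZMod n} {X Y : ℍ → ℂ}

theorem alg_h46 {n : ℕ} (hn : n ≠ 0) (ζ x y : ℂ) :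
    ζ * x * (ζ * y) ^ (n - 1) * y ^ n = x * y ^ (n - 1) * (ζ * y) ^ n := by
  obtain ⟨m, rfl⟩ := Nat.exists_eq_succ_of_ne_zero hn
  simp only [Nat.succ_eq_add_one, Nat.add_sub_cancel]
  ring

theorem alg2_h46 {n : ℕ} (hn : n ≠ 0) (ζ x y : ℂ) (hζ : ζ ^ n = 1) :
    ζ * x * (ζ * y) ^ (n - 1) = x * y ^ (n - 1) := by
  obtain ⟨m, rfl⟩ := Nat.exists_eq_succ_of_ne_zero hn
  simp only [Nat.succ_eq_add_one, Nat.add_sub_cancel] at *
  have : ζ * x * (ζ * y) ^ m = ζ ^ (m + 1) * (x * y ^ m) := by ring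
  rw [this, hζ, one_mul]

/-- Two twisted forms of the same weight and character have the same multiplier at every element
of `±Γ₁(M)`. -/
theorem exists_mult_same (hX : IsTw1 M M n K φ X) (hY : IsTw1 M M n K φ Y) {γ : SL(2, ℤ)}
    (hγ : γ ∈ Gamma0 M)
    (ha : ((γ 0 0 : ℤ) : ZMod M) ∈ cosetSet M (⊥ : Subgroup (ZMod M)ˣ) 1) :
    ∃ ζ : ℂ, X ∣[K] γ = ζ • X ∧ Y ∣[K] γ = ζ • Y := by
  rcases Fermat.Agent.NEB.EIG.H46.dUnit_mem_of_a_mem (⊥ : Subgroup (ZMod M)ˣ) dvd_rfl ⟨γ, hγ⟩ ha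
    with hd | hd
  · have h1 : γ ∈ Gam1 M M :=
      Fermat.Agent.NEB.EIG.H46.mem_Gam1_of_dUnit_eq_one dvd_rfl ⟨γ, hγ⟩ (Subgroup.mem_bot.mp hd)
    exact ⟨zetaPow n (φ (Additive.ofMul ⟨γ, h1⟩)), hX.slash ⟨γ, h1⟩, hY.slash ⟨γ, h1⟩⟩
  · have hmem : -1 * γ ∈ Gamma0 M :=
      (Gamma0 M).mul_mem (Fermat.Agent.NEB.EIG.H46.neg_one_mem_Gamma0_h46 M) hγ
    have hd' : Fermat.Agent.NEB.H34.dUnit (dvd_refl M) ⟨-1 * γ, hmem⟩ = 1 := by
      rw [Fermat.Agent.NEB.EIG.H46.dUnit_neg (dvd_refl M) ⟨γ, hγ⟩]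
      exact Subgroup.mem_bot.mp hd
    have h1 : -1 * γ ∈ Gam1 M M :=
      Fermat.Agent.NEB.EIG.H46.mem_Gam1_of_dUnit_eq_one dvd_rfl ⟨-1 * γ, hmem⟩ hd'
    have e : γ = -1 * (-1 * γ) := by simp
    refine ⟨(-1 : ℂ) ^ (-K) * zetaPow n (φ (Additive.ofMul ⟨-1 * γ, h1⟩)), ?_, ?_⟩
    · conv_lhs => rw [e]
      exact Fermat.Agent.NEB.EIG.H46.mult_mul (Fermat.Agent.NEB.EIG.H46.slash_neg_one_eq K X)
        (hX.slash ⟨-1 * γ, h1⟩)
    · conv_lhs => rw [e]
      exact Fermat.Agent.NEB.EIG.H46.mult_mul (Fermat.Agent.NEB.EIG.H46.slash_neg_one_eq K Y)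
        (hY.slash ⟨-1 * γ, h1⟩)

/-- The ratio of two twisted forms of the same weight and character lies in `F_C`, on the level
of `n`-th powers. -/
theorem exists_ratio (hM : 2 ≤ M) (hn : n ≠ 0) (hX : IsTw1 M M n K φ X)
    (hY : IsTw1 M M n K φ Y) (hY0 : Y ≠ 0) :
    ∃ y ∈ laurentBaseChange ℂ (FHQ M M (⊥ : Subgroup (ZMod M)ˣ)),
      qLaurent (fun z => X z ^ n) = y ^ n * qLaurent (fun z => Y z ^ n) := by
  have hn1 : 1 ≤ n := Nat.one_le_iff_ne_zero.mpr hn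
  have hA₂ : IsW M (K * n) (X * Y ^ (n - 1)) :=
    { mdiff := hX.mdiff.mul (hY.mdiff.pow _)
      slash := fun γ hγ => by
        have hγ1 : γ ∈ Gam1 M M := Gamma1_le_Gam1 dvd_rfl hγ
        rw [Fermat.Agent.GTor.H96.mul_pow_slash_SL _ _ K hn γ, hX.slash ⟨γ, hγ1⟩,
          hY.slash ⟨γ, hγ1⟩]
        funext z
        simp only [Pi.mul_apply, Pi.smul_apply, Pi.pow_apply, smul_eq_mul]
        exact alg2_h46 hn _ _ _ (Fermat.Agent.GTor.H96.zetaPow_pow _)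
      bdd := fun σ => by
        rw [Fermat.Agent.GTor.H96.mul_pow_slash_SL _ _ K hn σ]
        exact (hX.bdd σ).mul (Fermat.Agent.GTor.H56.isBoundedAtImInfty_pow (hY.bdd σ) (n - 1)) }
  have hB₂ : IsW M (K * n) (Y ^ n) :=
    { mdiff := hY.mdiff.pow _
      slash := fun γ hγ => by
        have hγ1 : γ ∈ Gam1 M M := Gamma1_le_Gam1 dvd_rfl hγ
        rw [Fermat.Agent.GTor.H96.pow_slash_SL'' Y K n γ, hY.slash ⟨γ, hγ1⟩]
        funext z
        simp only [Pi.smul_apply, Pi.pow_apply, smul_eq_mul, mul_pow]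
        rw [Fermat.Agent.GTor.H96.zetaPow_pow, one_mul]
      bdd := fun σ => by
        rw [Fermat.Agent.GTor.H96.pow_slash_SL'' Y K n σ]
        exact Fermat.Agent.GTor.H56.isBoundedAtImInfty_pow (hY.bdd σ) n }
  have hB₂0 : (Y ^ n : ℍ → ℂ) ≠ 0 := fun_pow_ne_zero hY.mdiff hY0 n
  obtain ⟨y, hy, hyq⟩ := Fermat.Agent.NEB.EIG.H46.stmt_A2H M M (⊥ : Subgroup (ZMod M)ˣ) hM
    dvd_rfl (NeZero.ne M) (K * n) (X * Y ^ (n - 1)) (Y ^ n) hA₂ hB₂ hB₂0 (by
      intro γ hγ ha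
      obtain ⟨ζ, hXγ, hYγ⟩ := exists_mult_same hX hY hγ ha
      rw [Fermat.Agent.GTor.H96.mul_pow_slash_SL _ _ K hn γ,
        Fermat.Agent.GTor.H96.pow_slash_SL'' Y K n γ, hXγ, hYγ]
      funext z
      simp only [Pi.mul_apply, Pi.smul_apply, Pi.pow_apply, smul_eq_mul]
      exact alg_h46 hn _ _ _)
  refine ⟨y, hy, ?_⟩
  have nP := hX.nice_pow (dvd_refl M)
  have nQ := hY.nice_pow (dvd_refl M)
  have hQ0 : qLaurent (fun z => Y z ^ n) ≠ 0 := by
    rw [Ne, qLaurent_eq_zero_iff nQ]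
    exact hB₂0
  -- `qLaurent (A₂ ^ n) = qLaurent (Xⁿ) * qLaurent (Yⁿ) ^ (n - 1)`
  have e1 : (fun z => (X * Y ^ (n - 1)) z ^ n)
      = (fun z => X z ^ n) * (fun z => (fun w => Y w ^ n) z ^ (n - 1)) := by
    funext z
    simp only [Pi.mul_apply, Pi.pow_apply]
    rw [mul_pow, ← pow_mul, ← pow_mul, mul_comm (n - 1) n]
  have h1 : qLaurent (X * Y ^ (n - 1)) ^ n
      = qLaurent (fun z => X z ^ n) * qLaurent (fun z => Y z ^ n) ^ (n - 1) := by
    have nQp : Nice 1 (fun z => (fun w => Y w ^ n) z ^ (n - 1)) := nQ.pow (n - 1)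
    rw [← qLaurent_pow hA₂.nice, e1, qLaurent_mul nP nQp, qLaurent_pow nQ]
  have h2 : qLaurent (X * Y ^ (n - 1)) ^ n
      = y ^ n * (qLaurent (fun z => Y z ^ n) * qLaurent (fun z => Y z ^ n) ^ (n - 1)) := by
    have hYn : (Y ^ n : ℍ → ℂ) = fun z => Y z ^ n := rfl
    rw [hyq, mul_pow, hYn, ← pow_succ', Nat.sub_add_cancel hn1]
  rw [h1] at h2
  have h3 : qLaurent (fun z => X z ^ n) * qLaurent (fun z => Y z ^ n) ^ (n - 1)
      = (y ^ n * qLaurent (fun z => Y z ^ n)) * qLaurent (fun z => Y z ^ n) ^ (n - 1) := by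
    rw [h2]
    ring
  exact mul_right_cancel₀ (pow_ne_zero _ hQ0) h3

/-- **INJ-C.**  Two functions with the same character differ by an `n`-th power of `F_C`. -/
theorem pow_of_hasCharC (hM : 2 ≤ M) (hn : n ≠ 0) {f g : LaurentSeries ℂ} (hg : g ≠ 0)
    (h₁ : HasCharC M n f φ) (h₂ : HasCharC M n g φ) :
    ∃ y ∈ laurentBaseChange ℂ (FHQ M M (⊥ : Subgroup (ZMod M)ˣ)), f = y ^ n * g := by
  obtain ⟨k₁, R₁, B₁, hR₁, hB₁, e₁⟩ := h₁
  obtain ⟨k₂, R₂, B₂, hR₂, hB₂, e₂⟩ := h₂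
  have hX : IsTw1 M M n (k₁ + k₂) φ (R₁ * (B₂ : ℍ → ℂ)) := by
    have := hR₁.mul (isTw1_of_modularForm (c := M) (n := n) B₂)
    rwa [add_zero] at this
  have hY : IsTw1 M M n (k₁ + k₂) φ (R₂ * (B₁ : ℍ → ℂ)) := by
    have := hR₂.mul (isTw1_of_modularForm (c := M) (n := n) B₁)
    rwa [add_zero, add_comm k₂ k₁] at this
  have nR₁ := hR₁.nice_pow (dvd_refl M)
  have nR₂ := hR₂.nice_pow (dvd_refl M)
  have nB₁ : Nice 1 (fun z => B₁ z ^ n) := (nice_of_gamma0 B₁).pow n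
  have nB₂ : Nice 1 (fun z => B₂ z ^ n) := (nice_of_gamma0 B₂).pow n
  have b₁ : qLaurent (fun z => B₁ z ^ n) ≠ 0 := qLaurent_modularForm_pow_ne_zero hB₁ hn
  have b₂ : qLaurent (fun z => B₂ z ^ n) ≠ 0 := qLaurent_modularForm_pow_ne_zero hB₂ hn
  have eX : (fun z => (R₁ * (B₂ : ℍ → ℂ)) z ^ n) = (fun z => R₁ z ^ n) * (fun z => B₂ z ^ n) := by
    funext z
    simp only [Pi.mul_apply, mul_pow]
  have eY : (fun z => (R₂ * (B₁ : ℍ → ℂ)) z ^ n) = (fun z => R₂ z ^ n) * (fun z => B₁ z ^ n) := by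
    funext z
    simp only [Pi.mul_apply, mul_pow]
  have qY : qLaurent (fun z => (R₂ * (B₁ : ℍ → ℂ)) z ^ n)
      = g * qLaurent (fun z => B₂ z ^ n) * qLaurent (fun z => B₁ z ^ n) := by
    rw [eY, qLaurent_mul nR₂ nB₁, e₂]
  have hY0 : R₂ * (B₁ : ℍ → ℂ) ≠ 0 := by
    intro h0
    have h1 : (fun z => (R₂ * (B₁ : ℍ → ℂ)) z ^ n) = 0 := by
      funext z
      rw [h0]
      simp [hn]
    rw [h1, qLaurent_zero] at qY
    exact (mul_ne_zero (mul_ne_zero hg b₂) b₁) qY.symm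
  obtain ⟨y, hy, hyq⟩ := exists_ratio hM hn hX hY hY0
  refine ⟨y, hy, ?_⟩
  rw [qY, eX, qLaurent_mul nR₁ nB₂, e₁] at hyq
  have h3 : f * (qLaurent (fun z => B₁ z ^ n) * qLaurent (fun z => B₂ z ^ n))
      = (y ^ n * g) * (qLaurent (fun z => B₁ z ^ n) * qLaurent (fun z => B₂ z ^ n)) := by
    linear_combination hyq
  exact mul_right_cancel₀ (mul_ne_zero b₁ b₂) h3

end Inj

/-! ## 4. Finiteness -/

/-- **E-FIN.**  The group of unramified Kummer classes of `F_{H,ℂ}` (`H = ⊥`) is finite. -/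
theorem stmt_FinC_of (hA1 : Stmt_A1C) (hOrd : Stmt_OrdC) : Stmt_FinC := by
  intro M _ hM n hn
  haveI : NeZero n := ⟨hn⟩
  haveI : Group.FG ↥(Gam1 M M) := Fermat.Agent.S48.B2.T.H43.groupFG_gam1' M M
  haveI : Finite (Additive (Gam1 M M) →+ ZMod n) :=
    Fermat.Agent.GTor.H56.finite_addMonoidHom_of_fg (Gam1 M M) (ZMod n)
  have hex : ∀ f : unrSubgroup ℂ ↥(FC M) n, ∃ φ : Additive (Gam1 M M) →+ ZMod n,
      HasCharC M n ((((f : (↥(FC M))ˣ) : ↥(FC M)) : LaurentSeries ℂ)) φ := fun f =>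
    exists_hasCharC hA1 hOrd M hM hn _ (Units.ne_zero _) f.2
  choose Φ hΦ using hex
  apply Finite.of_injective (fun c : UnrKummer ℂ ↥(FC M) n => Φ (Quotient.out c))
  intro c c' hcc
  have hcc' : Φ (Quotient.out c) = Φ (Quotient.out c') := hcc
  have h1 := hΦ (Quotient.out c)
  have h2 := hΦ (Quotient.out c')
  rw [hcc'] at h1
  have hne : ((((Quotient.out c : unrSubgroup ℂ ↥(FC M) n) : (↥(FC M))ˣ) : ↥(FC M)) :
      LaurentSeries ℂ) ≠ 0 := by
    intro h0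
    exact Units.ne_zero ((Quotient.out c : unrSubgroup ℂ ↥(FC M) n) : (↥(FC M))ˣ)
      (Subtype.ext h0)
  obtain ⟨y, hy, e⟩ := pow_of_hasCharC hM hn hne h2 h1
  -- `out c' = yⁿ * out c`
  have hy0 : (⟨y, hy⟩ : ↥(FC M)) ≠ 0 := by
    intro h0
    have h3 : y = 0 := congrArg Subtype.val h0
    rw [h3, zero_pow hn, zero_mul] at e
    exact Units.ne_zero ((Quotient.out c' : unrSubgroup ℂ ↥(FC M) n) : (↥(FC M))ˣ)
      (Subtype.ext e)
  have e' : (((Quotient.out c' : unrSubgroup ℂ ↥(FC M) n) : (↥(FC M))ˣ) : ↥(FC M))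
      = (⟨y, hy⟩ : ↥(FC M)) ^ n
        * (((Quotient.out c : unrSubgroup ℂ ↥(FC M) n) : (↥(FC M))ˣ) : ↥(FC M)) :=
    Subtype.ext e
  rw [← QuotientGroup.out_eq' c, ← QuotientGroup.out_eq' c', QuotientGroup.eq]
  show ((Quotient.out c)⁻¹ * Quotient.out c' : unrSubgroup ℂ ↥(FC M) n)
    ∈ ((powMonoidHom n : (↥(FC M))ˣ →* (↥(FC M))ˣ).range).subgroupOf (unrSubgroup ℂ ↥(FC M) n)
  rw [Subgroup.mem_subgroupOf]
  refine ⟨Units.mk0 _ hy0, ?_⟩
  apply Units.ext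
  rw [powMonoidHom_apply, Units.val_pow_eq_pow_val, Units.val_mk0, Subgroup.coe_mul,
    Subgroup.coe_inv, Units.val_mul, Units.val_inv_eq_inv_val, e']
  field_simp

end Fermat.Agent.S48.B2.T.H46

end
end
-- ==== END Fermat.Agent.S48.B2.T.H46_FinC

-- ==== BEGIN Fermat.Agent.S48.B2.T.H55_A5Act
section

/-!
# S48 / B2, slice T, leaf E-A5C, part A5C-ACT (helper55)

`stmt_A5Act : T.H96.Stmt_A5Act` (unconditional): for `2 ≤ M`

* `Γ₀(M)` acts on `F_C = FC M` by `ℂ`-algebra maps `actC γ` whose graph is `NEB.H84.Rel M γ`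
  (`exists_relC`: port of `NEB.H84.exists_relK` to `ℂ`; `actC`: port of `NEB.H84.actHom`);
* `actC γ` only depends on the class of `γ` modulo `Γ₁(M)`, `actC (γ γ') = actC γ' ∘ actC γ`,
  `actC 1 = id`; hence every `actC γ` is surjective, so integral;
* `F_C` is integral over `F_0`: `x` is a root of `P = ∏_u (X - actC γ_u x)` (`u` in the image
  `NEB.H84.RangeU M` of `Γ₀(M) → ℤ/M`), `P` is fixed by every `actC δ`, so its coefficients are
  `Rel`-fixed by `Γ₀(M)` and lie in `F_0` (`NEB.H84.mem_FNL_of_rel`).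
-/

set_option autoImplicit false
set_option linter.unusedSectionVars false
set_option linter.unusedVariables false

noncomputable section

namespace Fermat.Agent.S48.B2.T.H55

open AlgebraicCurve ModularCurve UpperHalfPlane CongruenceSubgroup Matrix.SpecialLinearGroup
open Fermat.Agent.NEB Fermat.Agent.NEB.JH Fermat.Agent.NEB.H84 Fermat.Agent.GTor
open Fermat.Agent.NEB.EIG.H98 Fermat.Agent.S48.B2.T.H96
open Fermat.Agent.S48.B2.T.H25 (rel_zero rel_one)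
open scoped MatrixGroups ModularForm Manifold Polynomial

variable {M : ℕ} [NeZero M]

/-! ## The graph of the action on `F_C` -/

/-- The Eisenstein generators over `ℂ`. -/
theorem relC_gen (h2 : 2 ≤ M) {γ : SL(2, ℤ)} (hγ : γ ∈ Gamma0 M) (a : (ZMod M)ˣ) :
    Rel M γ (coeffEmb ℂ (eisGen M (cosetSet M (⊥ : Subgroup (ZMod M)ˣ) a)))
      (coeffEmb ℂ (eisGen M (cosetSet M (⊥ : Subgroup (ZMod M)ˣ)
        ((dUnit (dvd_refl M) γ hγ)⁻¹ * a)))) := by
  have := rel_eisGen (dvd_refl M) hγ (cosetSet M (⊥ : Subgroup (ZMod M)ˣ) a)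
    (zero_not_mem_cosetSet ⊥ h2 a) (neg_mem_cosetSet ⊥ a)
  rw [← coe_dUnit (dvd_refl M) γ hγ, cosetSet_translate] at this
  exact this

/-- **Existence of the image** (port of `NEB.H84.exists_relK`). -/
theorem exists_relC (h2 : 2 ≤ M) {γ : SL(2, ℤ)} (hγ : γ ∈ Gamma0 M) {x : LaurentSeries ℂ}
    (hx : x ∈ FC M) : ∃ y ∈ FC M, Rel M γ x y := by
  have hx' := mem_laurentBaseChange_iff.mp hx
  clear hx
  induction hx' using Subfield.closure_induction with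
  | mem w hw =>
    rcases hw with ⟨a, rfl⟩ | ⟨z, hz, rfl⟩
    · refine ⟨_, (FC M).algebraMap_mem a, ?_⟩
      rw [algebraMap_laurentSeries_eq_single]
      exact rel_C M γ a
    · refine FHQ_induction M M (⊥ : Subgroup (ZMod M)ˣ)
        (P := fun z => ∃ y ∈ FC M, Rel M γ (coeffEmb ℂ z) y) ?_ ?_ ?_ ?_ ?_ ?_ ?_ ?_ hz
      · intro r
        have e : coeffEmb ℂ (algebraMap ℚ (LaurentSeries ℚ) r) =
            HahnSeries.C (algebraMap ℚ ℂ r) := by
          rw [algebraMap_laurentSeries_eq_single, coeffEmb, coeffMap_single]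
          rfl
        have e' : (HahnSeries.C (algebraMap ℚ ℂ r) : LaurentSeries ℂ) =
            algebraMap ℂ (LaurentSeries ℂ) (algebraMap ℚ ℂ r) := by
          rw [algebraMap_laurentSeries_eq_single]
          rfl
        refine ⟨_, (FC M).algebraMap_mem (algebraMap ℚ ℂ r), ?_⟩
        rw [e, ← e']
        exact rel_C M γ _
      · intro d hd0 hd
        have hmem : qExpand ℚ d jq ∈ modularFunctionFieldFull M :=
          IntermediateField.subset_adjoin ℚ _ ⟨d, hd0, hd, rfl⟩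
        exact ⟨_, coeffEmb_mem_laurentBaseChange ℂ (full_le_FHQ M M ⊥ hmem),
          rel_coeffEmb_full hγ hmem⟩
      · intro a
        exact ⟨_, coeffEmb_mem_laurentBaseChange ℂ (eisGen_mem_FHQ M M ⊥ _),
          _root_.Fermat.Agent.S48.B2.T.H55.relC_gen h2 hγ a⟩
      · rw [map_one]
        exact ⟨1, one_mem _, _root_.Fermat.Agent.S48.B2.T.H25.rel_one M γ⟩
      · rintro x y ⟨x', hx', h1⟩ ⟨y', hy', h2'⟩
        rw [map_add]
        exact ⟨x' + y', add_mem hx' hy', rel_add hγ h1 h2'⟩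
      · rintro x ⟨x', hx', h1⟩
        rw [map_neg]
        exact ⟨-x', neg_mem hx', rel_neg hγ h1⟩
      · rintro x ⟨x', hx', h1⟩
        rw [map_inv₀]
        by_cases hx0 : coeffEmb ℂ x = 0
        · rw [hx0, inv_zero]
          exact ⟨0, zero_mem _, _root_.Fermat.Agent.S48.B2.T.H25.rel_zero M γ⟩
        · exact ⟨x'⁻¹, inv_mem hx', rel_inv hγ h1 hx0⟩
      · rintro x y ⟨x', hx', h1⟩ ⟨y', hy', h2'⟩
        rw [map_mul]
        exact ⟨x' * y', mul_mem hx' hy', rel_mul hγ h1 h2'⟩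
  | one => exact ⟨1, one_mem _, _root_.Fermat.Agent.S48.B2.T.H25.rel_one M γ⟩
  | add x y _ _ hx hy =>
    obtain ⟨x', hx', h1⟩ := hx
    obtain ⟨y', hy', h2'⟩ := hy
    exact ⟨x' + y', add_mem hx' hy', rel_add hγ h1 h2'⟩
  | neg x _ hx =>
    obtain ⟨x', hx', h1⟩ := hx
    exact ⟨-x', neg_mem hx', rel_neg hγ h1⟩
  | inv x _ hx =>
    obtain ⟨x', hx', h1⟩ := hx
    by_cases hx0 : x = 0
    · rw [hx0, inv_zero]
      exact ⟨0, zero_mem _, _root_.Fermat.Agent.S48.B2.T.H25.rel_zero M γ⟩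
    · exact ⟨x'⁻¹, inv_mem hx', rel_inv hγ h1 hx0⟩
  | mul x y _ _ hx hy =>
    obtain ⟨x', hx', h1⟩ := hx
    obtain ⟨y', hy', h2'⟩ := hy
    exact ⟨x' * y', mul_mem hx' hy', rel_mul hγ h1 h2'⟩

/-! ## The action as algebra maps -/

section Act

variable (h2 : 2 ≤ M)

/-- The action of `γ ∈ Γ₀(M)` on `F_C`, as a function. -/
def actFunC (γ : Gamma0 M) (x : ↥(FC M)) : ↥(FC M) :=
  ⟨Classical.choose (exists_relC h2 γ.2 x.2),
    (Classical.choose_spec (exists_relC h2 γ.2 x.2)).1⟩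

theorem actFunC_rel (γ : Gamma0 M) (x : ↥(FC M)) :
    Rel M γ (x : LaurentSeries ℂ) ((actFunC h2 γ x : ↥(FC M)) : LaurentSeries ℂ) :=
  (Classical.choose_spec (exists_relC h2 γ.2 x.2)).2

theorem actFunC_eq {γ : Gamma0 M} {x y : ↥(FC M)}
    (h : Rel M γ (x : LaurentSeries ℂ) (y : LaurentSeries ℂ)) : actFunC h2 γ x = y :=
  Subtype.ext (rel_unique γ.2 (actFunC_rel h2 γ x) h)

/-- The action of `γ ∈ Γ₀(M)` on `F_C`, as a `ℂ`-algebra homomorphism. -/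
def actC (γ : Gamma0 M) : ↥(FC M) →ₐ[ℂ] ↥(FC M) where
  toFun := actFunC h2 γ
  map_one' := by
    apply actFunC_eq
    exact _root_.Fermat.Agent.S48.B2.T.H25.rel_one M γ
  map_mul' x y := by
    apply actFunC_eq
    exact rel_mul γ.2 (actFunC_rel h2 γ x) (actFunC_rel h2 γ y)
  map_zero' := by
    apply actFunC_eq
    exact _root_.Fermat.Agent.S48.B2.T.H25.rel_zero M γ
  map_add' x y := by
    apply actFunC_eq
    exact rel_add γ.2 (actFunC_rel h2 γ x) (actFunC_rel h2 γ y)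
  commutes' a := by
    apply actFunC_eq
    show Rel M γ (algebraMap ℂ (LaurentSeries ℂ) a) (algebraMap ℂ (LaurentSeries ℂ) a)
    rw [algebraMap_laurentSeries_eq_single]
    exact rel_C M γ a

theorem actC_rel (γ : Gamma0 M) (x : ↥(FC M)) :
    Rel M γ (x : LaurentSeries ℂ) ((actC h2 γ x : ↥(FC M)) : LaurentSeries ℂ) :=
  actFunC_rel h2 γ x

theorem actC_eq {γ : Gamma0 M} {x y : ↥(FC M)}
    (h : Rel M γ (x : LaurentSeries ℂ) (y : LaurentSeries ℂ)) : actC h2 γ x = y :=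
  actFunC_eq h2 h

/-- The relation only depends on the class modulo `Γ₁(M)`. -/
theorem rel_of_map_eq {γ₁ γ₂ : Gamma0 M} (h : Gamma0Map M γ₁ = Gamma0Map M γ₂)
    {x y : LaurentSeries ℂ} (hr : Rel M γ₂ x y) : Rel M γ₁ x y := by
  obtain ⟨k, A, B, hA, hB, hB0, hx, hy⟩ := hr
  refine ⟨k, A, B, hA, hB, hB0, hx, ?_⟩
  rw [slash_eq_of_map_eq hA γ₁ γ₂ h, slash_eq_of_map_eq hB γ₁ γ₂ h]
  exact hy

theorem actC_congr {γ₁ γ₂ : Gamma0 M} (h : Gamma0Map M γ₁ = Gamma0Map M γ₂) (x : ↥(FC M)) :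
    actC h2 γ₁ x = actC h2 γ₂ x :=
  actC_eq h2 (rel_of_map_eq h (actC_rel h2 γ₂ x))

include h2 in
theorem rel_one_self {x : LaurentSeries ℂ} (hx : x ∈ FC M) : Rel M 1 x x := by
  obtain ⟨y, -, k, A, B, hA, hB, hB0, hx', hy⟩ := exists_relC h2 (Gamma0 M).one_mem hx
  refine ⟨k, A, B, hA, hB, hB0, hx', ?_⟩
  rw [SlashAction.slash_one, SlashAction.slash_one]
  exact hx'

theorem actC_one (x : ↥(FC M)) : actC h2 1 x = x :=
  actC_eq h2 (rel_one_self h2 x.2)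

theorem actC_mul (γ γ' : Gamma0 M) (x : ↥(FC M)) :
    actC h2 (γ * γ') x = actC h2 γ' (actC h2 γ x) :=
  actC_eq h2 (rel_trans γ.2 γ'.2 (actC_rel h2 γ x) (actC_rel h2 γ' _))

theorem actC_surjective (γ : Gamma0 M) : Function.Surjective (actC h2 γ) := by
  intro y
  refine ⟨actC h2 γ⁻¹ y, ?_⟩
  rw [← actC_mul, inv_mul_cancel, actC_one]

theorem actC_isIntegral (γ : Gamma0 M) : (actC h2 γ).toRingHom.IsIntegral :=
  RingHom.isIntegral_of_surjective _ (actC_surjective h2 γ)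

end Act

/-! ## `F_C` is integral over `F_0` -/

section Integral

theorem isIntegralElem_inclC (h2 : 2 ≤ M) (x : ↥(FC M)) :
    (inclC M).toRingHom.IsIntegralElem x := by
  classical
  have : Finite (RangeU M) := Subtype.finite
  let _ : Fintype (RangeU M) := Fintype.ofFinite _
  let rep : RangeU M → Gamma0 M := fun u => Classical.choose u.2
  have hrep : ∀ u, Gamma0Map M (rep u) = u.1 := fun u => Classical.choose_spec u.2
  let r : RangeU M → ↥(FC M) := fun u => actC h2 (rep u) x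
  let u₁ : RangeU M := ⟨1, 1, map_one _⟩
  have hr1 : r u₁ = x := by
    show actC h2 (rep u₁) x = x
    rw [actC_congr h2 (γ₂ := 1) (by rw [hrep, map_one]), actC_one]
  set P : (↥(FC M))[X] := ∏ u : RangeU M, (Polynomial.X - Polynomial.C (r u)) with hP
  have hmonic : P.Monic :=
    Polynomial.monic_prod_of_monic _ _ (fun u _ => Polynomial.monic_X_sub_C _)
  have hroot : P.eval x = 0 := by
    rw [hP, Polynomial.eval_prod]
    apply Finset.prod_eq_zero (Finset.mem_univ u₁)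
    rw [Polynomial.eval_sub, Polynomial.eval_X, Polynomial.eval_C, hr1, sub_self]
  have hshift : ∀ (δ : Gamma0 M) (u : RangeU M), actC h2 δ (r u) = r (shiftEquiv δ u) := by
    intro δ u
    show actC h2 δ (actC h2 (rep u) x) = actC h2 (rep (shiftEquiv δ u)) x
    rw [← actC_mul]
    exact actC_congr h2 (by rw [map_mul, hrep, hrep, shiftEquiv_val]) x
  have hinv : ∀ δ : Gamma0 M, P.map (actC h2 δ).toRingHom = P := by
    intro δ
    rw [hP, Polynomial.map_prod]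
    rw [← Equiv.prod_comp (shiftEquiv δ) (fun u => (Polynomial.X - Polynomial.C (r u)))]
    apply Finset.prod_congr rfl
    intro u _
    rw [Polynomial.map_sub, Polynomial.map_X, Polynomial.map_C]
    congr 2
    exact hshift δ u
  have hcoeff : ∀ i, P.coeff i ∈ Set.range (inclC M).toRingHom := by
    intro i
    have hfix : ∀ γ : SL(2, ℤ), γ ∈ Gamma0 M →
        Rel M γ ((P.coeff i : ↥(FC M)) : LaurentSeries ℂ) (P.coeff i : ↥(FC M)) := by
      intro γ hγ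
      have h1 := actC_rel h2 ⟨γ, hγ⟩ (P.coeff i)
      have h3 : actC h2 ⟨γ, hγ⟩ (P.coeff i) = P.coeff i := by
        have := congrArg (fun p => p.coeff i) (hinv ⟨γ, hγ⟩)
        simpa [Polynomial.coeff_map] using this
      rwa [h3] at h1
    have hmem := mem_FNL_of_rel hfix
    exact ⟨⟨_, hmem⟩, Subtype.ext (coe_inclC M _)⟩
  have hl : P ∈ Polynomial.lifts (inclC M).toRingHom :=
    (Polynomial.lifts_iff_coeff_lifts _).mpr hcoeff
  obtain ⟨q, hq, -, hqm⟩ := Polynomial.lifts_and_natDegree_eq_and_monic hl hmonic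
  refine ⟨q, hqm, ?_⟩
  rw [← Polynomial.eval_map, hq]
  exact hroot

end Integral

/-- **A5C-ACT**. -/
theorem stmt_A5Act : Stmt_A5Act := by
  intro M _ h2
  refine ⟨fun x => isIntegralElem_inclC h2 x, fun γ hγ => ?_⟩
  exact ⟨actC h2 ⟨γ, hγ⟩, actC_isIntegral h2 ⟨γ, hγ⟩, fun x => actC_rel h2 ⟨γ, hγ⟩ x⟩

end Fermat.Agent.S48.B2.T.H55

end
end
-- ==== END Fermat.Agent.S48.B2.T.H55_A5Act

-- ==== BEGIN Fermat.Agent.S48.B2.T.H55_PerHecke
section

/-!
# S48 / B2, slice T, leaf T-PER (helper55), part 3: Hecke and diamond operators on the period class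

* `perCls_smul`, linearity in the form;
* `perCls_heckeOp` : for a Hecke family `rep` for `Γ₁(M)` of matrices of positive determinant,
  `G' = ∑ G ∣[2] rep i` implies `perCls G' = heckeOp (perCls G)`
  (pattern `Fermat.Agent.Betti.H76.period_heckeOp`);
* `perCls_conj` : if `G ∣[2] g = c • G` for `g ∈ Γ₀(M)`, then `perCls G (g γ g⁻¹) = c perCls G γ`.
-/

set_option autoImplicit false

noncomputable section

namespace Fermat.Agent.S48.B2.T.H55

open ModularCurve ModularCurve.Period UpperHalfPlane CongruenceSubgroup Filter Topology Function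
open Matrix.SpecialLinearGroup
open Fermat.Agent.NEB.EIG.H39 Fermat.Agent.NEB.EIG.H98 Fermat.Agent.GTor Fermat.Agent.Betti
open scoped MatrixGroups ModularForm Manifold Pointwise

theorem isPrim_smul {G F : ℍ → ℂ} (hF : IsPrim G F) (c : ℂ) :
    IsPrim (c • G) (fun z => c * F z) := fun τ => (hF τ).const_mul c

theorem perCls_smul {M : ℕ} [NeZero M] (c : ℂ) (G : CuspForm (Gamma1 M) 2) :
    perCls M (c • G) = c • perCls M G := by
  obtain ⟨F, hF, -⟩ := exists_prim M G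
  refine AddMonoidHom.ext fun γ => ?_
  obtain ⟨g, rfl⟩ : ∃ g : Gam1 M M, Additive.ofMul g = γ := ⟨Additive.toMul γ, rfl⟩
  have h1 : IsPrim (⇑(c • G)) (fun z => c * F z) := isPrim_smul hF c
  rw [perCls_apply (c • G) h1 g UpperHalfPlane.I, AddMonoidHom.smul_apply,
    perCls_apply G hF g UpperHalfPlane.I, smul_eq_mul]
  ring

/-- The period class intertwines a sum of slashes with the Betti operator of the family. -/
theorem perCls_heckeOp {M : ℕ} [NeZero M] {ι : Type*} [Fintype ι] {rep : ι → GL (Fin 2) ℝ}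
    (H : IsHeckeFamily (inc (Gam1 M M)) rep) (hdet : ∀ i, 0 < (rep i).val.det)
    (f f' : CuspForm (Gamma1 M) 2)
    (hf' : (⇑f' : ℍ → ℂ) = ∑ i, (⇑f : ℍ → ℂ) ∣[(2 : ℤ)] rep i) :
    perCls M f' = H.heckeOp (inc_injective _) (perCls M f) := by
  refine AddMonoidHom.ext fun γ => ?_
  obtain ⟨g, rfl⟩ : ∃ g : Gam1 M M, Additive.ofMul g = γ := ⟨Additive.toMul γ, rfl⟩
  obtain ⟨F, hF, -⟩ := exists_prim M f
  obtain ⟨Hh, hH, -⟩ := exists_prim M f'
  set G : ℍ → ℂ := fun z => ∑ i, F (rep i • z) with hGdef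
  have hG : IsPrim (⇑f') G := by
    intro τ
    have h1 : HasDerivAt (fun w : ℂ => ∑ i, ((fun w : ℍ => F (rep i • w)) ∘ ofComplex) w)
        (∑ i, ((⇑f : ℍ → ℂ) ∣[(2 : ℤ)] rep i) τ) ↑τ :=
      HasDerivAt.fun_sum (fun i _ => Fermat.Agent.Betti.H76.hasDerivAt_comp_glsmul hF (rep i)
        (hdet i) τ)
    have h2 : f' τ = ∑ i, ((⇑f : ℍ → ℂ) ∣[(2 : ℤ)] rep i) τ := by
      rw [hf', Finset.sum_apply]
    rw [h2]
    exact h1
  rw [perCls_apply f' hG g UpperHalfPlane.I, IsHeckeFamily.heckeOp_apply]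
  -- termwise
  have hterm : ∀ i, F (rep i • ((g : SL(2, ℤ)) • UpperHalfPlane.I))
      = perCls M f (Additive.ofMul (H.kap g i)) + F (rep (H.perm g i) • UpperHalfPlane.I) := by
    intro i
    have hmul := H.rep_mul g i
    have e2 : rep i • ((g : SL(2, ℤ)) • UpperHalfPlane.I)
        = ((H.kap g i : Gam1 M M) : SL(2, ℤ)) • (rep (H.perm g i) • UpperHalfPlane.I) := by
      have l1 : rep i • ((g : SL(2, ℤ)) • UpperHalfPlane.I)
          = (rep i * inc (Gam1 M M) g) • UpperHalfPlane.I := by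
        rw [mul_smul]; rfl
      have l2 : ((H.kap g i : Gam1 M M) : SL(2, ℤ)) • (rep (H.perm g i) • UpperHalfPlane.I)
          = (inc (Gam1 M M) (H.kap g i) * rep (H.perm g i)) • UpperHalfPlane.I := by
        rw [mul_smul]; rfl
      rw [l1, l2, hmul]
    rw [e2, perCls_apply f hF (H.kap g i) (rep (H.perm g i) • UpperHalfPlane.I)]
    ring
  have hperm : ∑ i, F (rep (H.perm g i) • UpperHalfPlane.I) = ∑ i, F (rep i • UpperHalfPlane.I) :=
    Equiv.sum_comp (H.permEquiv (inc_injective _) g) (fun i => F (rep i • UpperHalfPlane.I))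
  simp only [hGdef, hterm, Finset.sum_add_distrib, hperm]
  ring

/-- Conjugation by an element of `Γ₀(M)` under which `G` is an eigenvector. -/
theorem perCls_conj {M : ℕ} [NeZero M] (G : CuspForm (Gamma1 M) 2) (g : SL(2, ℤ)) (c : ℂ)
    (h : (⇑G : ℍ → ℂ) ∣[(2 : ℤ)] g = c • (⇑G : ℍ → ℂ)) (γ γ' : Gam1 M M)
    (hγ : (γ' : SL(2, ℤ)) = g * (γ : SL(2, ℤ)) * g⁻¹) :
    perCls M G (Additive.ofMul γ') = c * perCls M G (Additive.ofMul γ) := by
  obtain ⟨F, hF, -⟩ := exists_prim M G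
  obtain ⟨d, hd⟩ := prim_slash hF g c h
  set w : ℍ := UpperHalfPlane.I with hw
  rw [perCls_apply G hF γ' (g • w), perCls_apply G hF γ w, hγ]
  have e1 : (g * (γ : SL(2, ℤ)) * g⁻¹) • (g • w) = g • ((γ : SL(2, ℤ)) • w) := by
    rw [← mul_smul, ← mul_smul]
    congr 1
    group
  rw [e1]
  have h1 := hd ((γ : SL(2, ℤ)) • w)
  have h2 := hd w
  linear_combination h1 - h2

end Fermat.Agent.S48.B2.T.H55

end
end
-- ==== END Fermat.Agent.S48.B2.T.H55_PerHecke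

-- ==== BEGIN Fermat.Agent.S48.B2.T.H96_A5C
section
attribute [local instance 10000] SubalgebraClass.toAlgebra
attribute [local instance 10000] HahnSeries.powerSeriesAlgebra

/-!
# S48 / B2, slice T, leaf E-A5C (helper96): the norm trick

`a5C_of : Stmt_A5Act → Stmt_A5Slash → Stmt_OrdC → Stmt_A5C`.

Let `v` be a place of `F_C = FC M` and `u` its restriction to `F_0 = FNL ℂ M`.  By
`GTor.Clo.stmt_A5` the place `u` is the place of a point `z` (or of a cusp `σ`).  Let `w γ` be the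
place of `F_C` at `γ z` (resp. `γ σ`), `γ ∈ Γ₀(M)` (`Stmt_OrdC`).  If `v` is none of them, weak
approximation gives `h` of order `0` at all `w γ_u` (`γ_u` representatives of `Γ₀(M)` modulo
`Γ₁(M)`) and of order `1` at `v` and at all its conjugates `v ∘ τ_u` which are not among the
`w γ_u`.  The norm `g = ∏_u τ_u h` lies in `F_0`, has order `0` at `u` (analytic order `0` at `z`)
but positive order at `v`: contradiction.
-/

set_option autoImplicit false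
set_option linter.unusedSectionVars false
set_option linter.unusedVariables false
set_option linter.style.haveILetI false

noncomputable section

namespace Fermat.Agent.S48.B2.T.H96

open AlgebraicCurve ModularCurve UpperHalfPlane CongruenceSubgroup Matrix.SpecialLinearGroup
open Fermat.Agent.NEB Fermat.Agent.NEB.H84 Fermat.Agent.NEB.EIG.H98 Fermat.Agent.GTor
open scoped MatrixGroups ModularForm Manifold

variable {M : ℕ} [NeZero M]

/-- Finite products in `Rel`. -/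
theorem rel_prod96 {γ : SL(2, ℤ)} (hγ : γ ∈ Gamma0 M) {D : Type*} (s : Finset D)
    (f g : D → LaurentSeries ℂ) (h : ∀ d ∈ s, Rel M γ (f d) (g d)) :
    Rel M γ (∏ d ∈ s, f d) (∏ d ∈ s, g d) := by
  classical
  induction s using Finset.induction_on with
  | empty =>
    rw [Finset.prod_empty, Finset.prod_empty]
    have := rel_C M γ 1
    rwa [map_one] at this
  | insert a s ha ih =>
    rw [Finset.prod_insert ha, Finset.prod_insert ha]
    exact rel_mul hγ (h a (Finset.mem_insert_self a s))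
      (ih (fun d hd => h d (Finset.mem_insert_of_mem hd)))

/-- The relation `Rel M γ` only depends on the class of `γ` modulo `Γ₁(M)`. -/
theorem rel_congr_map96 {γ₁ γ₂ : Gamma0 M} (h : Gamma0Map M γ₁ = Gamma0Map M γ₂)
    {x y : LaurentSeries ℂ} (hr : Rel M (γ₁ : SL(2, ℤ)) x y) : Rel M (γ₂ : SL(2, ℤ)) x y := by
  obtain ⟨k, A, B, hA, hB, hB0, hx, hy⟩ := hr
  refine ⟨k, A, B, hA, hB, hB0, hx, ?_⟩
  rw [← slash_eq_of_map_eq hA γ₁ γ₂ h, ← slash_eq_of_map_eq hB γ₁ γ₂ h]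
  exact hy

section Core

variable [Fintype (RangeU M)]
  (rep : RangeU M → Gamma0 M) (hrep : ∀ u, Gamma0Map M (rep u) = u.1)
  (τ : RangeU M → (↥(FC M) →ₐ[ℂ] ↥(FC M)))
  (hτrel : ∀ (u : RangeU M) (x : ↥(FC M)),
    Rel M ((rep u : Gamma0 M) : SL(2, ℤ)) (x : LaurentSeries ℂ) ((τ u x : ↥(FC M)) : LaurentSeries ℂ))

include hrep hτrel

/-- The representative of the trivial class acts trivially. -/
theorem tau_one96 (u : RangeU M) (hu : u.1 = 1) (h : ↥(FC M)) : τ u h = h := by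
  have hγ1 : ((rep u : Gamma0 M) : SL(2, ℤ)) ∈ Gamma1 M :=
    mem_Gamma1_of_map_eq_one _ (by rw [hrep, hu])
  have hself : Rel M ((rep u : Gamma0 M) : SL(2, ℤ)) (h : LaurentSeries ℂ)
      (h : LaurentSeries ℂ) := by
    obtain ⟨k, A, B, hA, hB, hB0, hx, -⟩ := hτrel u h
    exact ⟨k, A, B, hA, hB, hB0, hx, by rw [hA.slash _ hγ1, hB.slash _ hγ1]; exact hx⟩
  exact Subtype.ext (rel_unique (rep u).2 (hτrel u h) hself)

/-- The conjugates are permuted by `Γ₀(M)`. -/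
theorem rel_tau96 {δ : SL(2, ℤ)} (hδ : δ ∈ Gamma0 M) (u : RangeU M) (h : ↥(FC M)) :
    Rel M δ ((τ u h : ↥(FC M)) : LaurentSeries ℂ)
      ((τ (shiftEquiv ⟨δ, hδ⟩ u) h : ↥(FC M)) : LaurentSeries ℂ) := by
  -- the image under `δ` of `τ u h`, as a ratio of forms
  obtain ⟨k, A, B, hA, hB, hB0, hx, hy⟩ := hτrel u h
  have hAγ := hA.slash_Gamma0 (rep u).2
  have hBγ := hB.slash_Gamma0 (rep u).2
  have nB : qLaurent ((B ∣[k] ((rep u : Gamma0 M) : SL(2, ℤ))) ∣[k] δ) ≠ 0 :=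
    qLaurent_ne_zero (hBγ.slash_Gamma0 hδ).nice (slash_ne_zero k δ (slash_ne_zero k _ hB0))
  obtain ⟨y, hy'⟩ : ∃ y : LaurentSeries ℂ, qLaurent ((A ∣[k] ((rep u : Gamma0 M) : SL(2, ℤ))) ∣[k] δ) = y *
    qLaurent ((B ∣[k] ((rep u : Gamma0 M) : SL(2, ℤ))) ∣[k] δ) := ⟨_ / _, (div_mul_cancel₀ _ nB).symm⟩
  have h2 : Rel M δ ((τ u h : ↥(FC M)) : LaurentSeries ℂ) y :=
    ⟨k, _, _, hAγ, hBγ, slash_ne_zero k _ hB0, hy, hy'⟩
  have h3 : Rel M (((rep u : Gamma0 M) : SL(2, ℤ)) * δ) (h : LaurentSeries ℂ) y :=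
    rel_trans (rep u).2 hδ (hτrel u h) h2
  have hmap : Gamma0Map M (rep u * ⟨δ, hδ⟩) = Gamma0Map M (rep (shiftEquiv ⟨δ, hδ⟩ u)) := by
    rw [map_mul, hrep, hrep, shiftEquiv_val]
  have h3' : Rel M ((rep u * ⟨δ, hδ⟩ : Gamma0 M) : SL(2, ℤ)) (h : LaurentSeries ℂ) y := by
    rw [Subgroup.coe_mul]
    exact h3
  have h4 : Rel M ((rep (shiftEquiv ⟨δ, hδ⟩ u) : Gamma0 M) : SL(2, ℤ)) (h : LaurentSeries ℂ) y :=
    rel_congr_map96 hmap h3'
  have h5 : y = ((τ (shiftEquiv ⟨δ, hδ⟩ u) h : ↥(FC M)) : LaurentSeries ℂ) :=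
    rel_unique (rep (shiftEquiv ⟨δ, hδ⟩ u)).2 h4 (hτrel (shiftEquiv ⟨δ, hδ⟩ u) h)
  rw [← h5]
  exact h2

/-- The norm is fixed by `Γ₀(M)`. -/
theorem rel_norm96 {δ : SL(2, ℤ)} (hδ : δ ∈ Gamma0 M) (h : ↥(FC M)) :
    Rel M δ (((∏ u, τ u h : ↥(FC M)) : ↥(FC M)) : LaurentSeries ℂ)
      (((∏ u, τ u h : ↥(FC M)) : ↥(FC M)) : LaurentSeries ℂ) := by
  have h2 := rel_prod96 hδ Finset.univ (fun u => ((τ u h : ↥(FC M)) : LaurentSeries ℂ))
    (fun u => ((τ (shiftEquiv ⟨δ, hδ⟩ u) h : ↥(FC M)) : LaurentSeries ℂ))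
    (fun u _ => rel_tau96 rep hrep τ hτrel hδ u h)
  have e1 : (((∏ u, τ u h : ↥(FC M)) : ↥(FC M)) : LaurentSeries ℂ)
      = ∏ u, ((τ u h : ↥(FC M)) : LaurentSeries ℂ) :=
    IntermediateField.coe_prod _ _
  have e2 : ∏ u, ((τ (shiftEquiv ⟨δ, hδ⟩ u) h : ↥(FC M)) : LaurentSeries ℂ)
      = ∏ u, ((τ u h : ↥(FC M)) : LaurentSeries ℂ) :=
    Equiv.prod_comp (shiftEquiv ⟨δ, hδ⟩) (fun u => ((τ u h : ↥(FC M)) : LaurentSeries ℂ))
  rw [e2, ← e1] at h2
  exact h2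

/-- The norm, as an element of `F_0`. -/
theorem exists_norm96 (h : ↥(FC M)) : ∃ g : FNL ℂ M, inclC M g = ∏ u, τ u h := by
  have hgmem : (((∏ u, τ u h : ↥(FC M)) : ↥(FC M)) : LaurentSeries ℂ)
      ∈ laurentBaseChange ℂ (modularFunctionFieldFull M) :=
    mem_FNL_of_rel (fun δ hδ => rel_norm96 rep hrep τ hτrel hδ h)
  exact ⟨⟨_, hgmem⟩, Subtype.ext (by rw [coe_inclC])⟩

/-- **The norm trick**, with chosen representatives. -/
theorem norm_core96 (hint : (inclC M).toRingHom.IsIntegral)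
    (hτint : ∀ u, (τ u).toRingHom.IsIntegral)
    (ord₀ : ℤ → (ℍ → ℂ) → ℤ) (v : Place ℂ ↥(FC M)) (m : ℕ) (hm : 0 < m)
    (hu : ∀ (g : FNL ℂ M) (k : ℤ) (A B : ModularForm (Gamma0 M) k), g ≠ 0 → IsRatio M g A B →
      ord₀ k A - ord₀ k B = (m : ℤ) * (v.restrictAlong (inclC M) hint).ord g)
    (w₁ : Place ℂ ↥(FC M)) (e₁ : ℕ) (he₁ : 0 < e₁)
    (hw₁ : ∀ (f : ↥(FC M)) (k : ℤ) (A B : ℍ → ℂ), f ≠ 0 →
      IsRep M (f : LaurentSeries ℂ) k A B → ord₀ k A - ord₀ k B = (e₁ : ℤ) * w₁.ord f)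
    (w : RangeU M → Place ℂ ↥(FC M)) (e : RangeU M → ℕ)
    (hw : ∀ (u : RangeU M) (f : ↥(FC M)) (k : ℤ) (A B : ℍ → ℂ), f ≠ 0 →
      IsRep M (f : LaurentSeries ℂ) k A B →
      ord₀ k (A ∣[k] ((rep u : Gamma0 M) : SL(2, ℤ))) - ord₀ k (B ∣[k] ((rep u : Gamma0 M) : SL(2, ℤ)))
        = (e u : ℤ) * (w u).ord f) :
    ∃ u, v = w u := by
  classical
  by_contra hcon
  push Not at hcon
  -- weak approximation
  obtain ⟨W, hW⟩ : ∃ W : Finset (Place ℂ ↥(FC M)), ∀ p, p ∈ W ↔ ∃ u, w u = p :=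
    ⟨Finset.univ.image w, fun p => by simp⟩
  obtain ⟨V, hV⟩ : ∃ V : Finset (Place ℂ ↥(FC M)),
      ∀ u, v.restrictAlong (τ u) (hτint u) ∈ V :=
    ⟨Finset.univ.image (fun u => v.restrictAlong (τ u) (hτint u)),
      fun u => Finset.mem_image.mpr ⟨u, Finset.mem_univ _, rfl⟩⟩
  obtain ⟨h, hh0, hh⟩ := Fermat.Agent.RED.H51.exists_ord_eq_family (insert v (W ∪ V))
    (fun p => if p ∈ W then 0 else 1)
  have hvW : v ∉ W := by
    intro hv
    obtain ⟨u, hu'⟩ := (hW v).mp hv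
    exact hcon u hu'.symm
  have hv1 : v.ord h = 1 := by
    have := hh v (Finset.mem_insert_self _ _)
    rwa [if_neg hvW] at this
  have hW0 : ∀ u, (w u).ord h = 0 := by
    intro u
    have hmem : w u ∈ W := (hW _).mpr ⟨u, rfl⟩
    have := hh _ (Finset.mem_insert_of_mem (Finset.mem_union_left _ hmem))
    rwa [if_pos hmem] at this
  have hV0 : ∀ u, 0 ≤ (v.restrictAlong (τ u) (hτint u)).ord h := by
    intro u
    have := hh _ (Finset.mem_insert_of_mem (Finset.mem_union_right _ (hV u)))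
    rw [this]
    split_ifs <;> norm_num
  -- the norm
  have hτne : ∀ u, τ u h ≠ 0 := fun u => (map_ne_zero (τ u)).mpr hh0
  have hgC0 : (∏ u, τ u h) ≠ 0 := Finset.prod_ne_zero_iff.mpr (fun u _ => hτne u)
  obtain ⟨g, hg⟩ := exists_norm96 rep hrep τ hτrel h
  have hg0 : g ≠ 0 := by
    intro h0
    apply hgC0
    rw [← hg, h0, map_zero]
  have hτ1 : τ ⟨1, 1, map_one _⟩ h = h := tau_one96 rep hrep τ hτrel _ rfl h
  -- Step A: the order of the norm at the base place is zero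
  have he1 : (0 : ℤ) < (e₁ : ℤ) := by exact_mod_cast he₁
  have hA : ∀ u, w₁.ord (τ u h) = 0 := by
    intro u
    obtain ⟨k, A, B, hA, hB, hB0, hx, hy⟩ := hτrel u h
    have r1 : IsRep M (h : LaurentSeries ℂ) k A B := ⟨hA, hB, hB0, hx⟩
    have r2 : IsRep M ((τ u h : ↥(FC M)) : LaurentSeries ℂ) k
        (A ∣[k] ((rep u : Gamma0 M) : SL(2, ℤ))) (B ∣[k] ((rep u : Gamma0 M) : SL(2, ℤ))) :=
      ⟨hA.slash_Gamma0 (rep u).2, hB.slash_Gamma0 (rep u).2, slash_ne_zero k _ hB0, hy⟩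
    have h1 := hw₁ (τ u h) k _ _ (hτne u) r2
    have h2 := hw u h k A B hh0 r1
    rw [hW0 u, mul_zero] at h2
    rw [h2] at h1
    rcases mul_eq_zero.mp h1.symm with h3 | h3
    · omega
    · exact h3
  have hw1g : w₁.ord (∏ u, τ u h) = 0 := by
    rw [Fermat.Agent.RED.H51.ord_prod _ _ _ (fun u _ => hτne u)]
    exact Finset.sum_eq_zero (fun u _ => hA u)
  -- Step B: the order of the norm at the place below is zero
  have hug : (v.restrictAlong (inclC M) hint).ord g = 0 := by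
    obtain ⟨k, A, B, hAB⟩ := Fermat.Agent.GTor.H58.stmt_A1 M g
    have h1 := hu g k A B hg0 hAB
    have r : IsRep M ((inclC M g : ↥(FC M)) : LaurentSeries ℂ) k A B :=
      ⟨isW_of_modularForm A, isW_of_modularForm B,
        fun h0 => hAB.1 (DFunLike.coe_injective h0), by rw [coe_inclC]; exact hAB.2⟩
    have h2 := hw₁ (inclC M g) k A B (by rw [hg]; exact hgC0) r
    rw [hg, hw1g, mul_zero] at h2
    rw [h2] at h1
    have hm' : (0 : ℤ) < (m : ℤ) := by exact_mod_cast hm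
    rcases mul_eq_zero.mp h1.symm with h3 | h3
    · omega
    · exact h3
  -- Step C
  have hvg : v.ord (∏ u, τ u h) = 0 := by
    rw [← hg, Place.ord_restrictAlong (inclC M) hint v g, hug, mul_zero]
  -- Step D
  have hpos : 0 < v.ord (∏ u, τ u h) := by
    rw [Fermat.Agent.RED.H51.ord_prod _ _ _ (fun u _ => hτne u)]
    have hterm : ∀ u, 0 ≤ v.ord (τ u h) := by
      intro u
      rw [Place.ord_restrictAlong (τ u) (hτint u) v h]
      exact mul_nonneg (Int.natCast_nonneg _) (hV0 u)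
    have h1 : v.ord (τ ⟨1, 1, map_one _⟩ h) ≤ ∑ u, v.ord (τ u h) :=
      Finset.single_le_sum (f := fun u => v.ord (τ u h)) (fun u _ => hterm u)
        (Finset.mem_univ _)
    rw [hτ1, hv1] at h1
    omega
  omega

end Core

/-- **The norm trick.**  `ord₀` is an order function (at a point or at a cusp), the place of `F_0`
below `v` is the place of `ord₀`, and `w γ` is the place of `F_C` of the order function
`A ↦ ord₀ (A ∣ γ)`.  Then `v` is one of the `w γ`. -/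
theorem exists_eq_of_norm (hint : (inclC M).toRingHom.IsIntegral)
    (hact : ∀ γ : SL(2, ℤ), γ ∈ Gamma0 M →
      ∃ τ : ↥(FC M) →ₐ[ℂ] ↥(FC M), τ.toRingHom.IsIntegral ∧
        ∀ x : ↥(FC M), Rel M γ (x : LaurentSeries ℂ) ((τ x : ↥(FC M)) : LaurentSeries ℂ))
    (ord₀ : ℤ → (ℍ → ℂ) → ℤ) (v : Place ℂ ↥(FC M)) (m : ℕ) (hm : 0 < m)
    (hu : ∀ (g : FNL ℂ M) (k : ℤ) (A B : ModularForm (Gamma0 M) k), g ≠ 0 → IsRatio M g A B →
      ord₀ k A - ord₀ k B = (m : ℤ) * (v.restrictAlong (inclC M) hint).ord g)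
    (w : SL(2, ℤ) → Place ℂ ↥(FC M)) (e : SL(2, ℤ) → ℕ)
    (he : ∀ γ, γ ∈ Gamma0 M → 0 < e γ)
    (hw : ∀ γ, γ ∈ Gamma0 M → ∀ (f : ↥(FC M)) (k : ℤ) (A B : ℍ → ℂ), f ≠ 0 →
      IsRep M (f : LaurentSeries ℂ) k A B →
      ord₀ k (A ∣[k] γ) - ord₀ k (B ∣[k] γ) = (e γ : ℤ) * (w γ).ord f) :
    ∃ γ, γ ∈ Gamma0 M ∧ v = w γ := by
  classical
  have : Finite (RangeU M) := Subtype.finite
  letI : Fintype (RangeU M) := Fintype.ofFinite _
  obtain ⟨rep, hrep⟩ : ∃ rep : RangeU M → Gamma0 M, ∀ u, Gamma0Map M (rep u) = u.1 :=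
    ⟨fun u => Classical.choose u.2, fun u => Classical.choose_spec u.2⟩
  choose τ hτint hτrel using (fun u : RangeU M => hact ((rep u : Gamma0 M) : SL(2, ℤ)) (rep u).2)
  have hγ1 : (1 : SL(2, ℤ)) ∈ Gamma0 M := (Gamma0 M).one_mem
  obtain ⟨u, hu'⟩ := norm_core96 rep hrep τ hτrel hint hτint ord₀ v m hm hu (w 1) (e 1)
    (he 1 hγ1)
    (fun f k A B hf hr => by
      have := hw 1 hγ1 f k A B hf hr
      rwa [SlashAction.slash_one, SlashAction.slash_one] at this)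
    (fun u => w ((rep u : Gamma0 M) : SL(2, ℤ))) (fun u => e ((rep u : Gamma0 M) : SL(2, ℤ)))
    (fun u f k A B hf hr => hw _ (rep u).2 f k A B hf hr)
  exact ⟨_, (rep u).2, hu'⟩

/-- **E-A5C**, from the action of `Γ₀(M)` on `F_C`, the order of a slash at a point and E-ORD. -/
theorem a5C_of (hAct : Stmt_A5Act) (hSl : Stmt_A5Slash) (hOrd : Stmt_OrdC) : Stmt_A5C := by
  intro M _ hM v
  obtain ⟨hint, hact⟩ := hAct M hM
  obtain ⟨hpt, hcu⟩ := hOrd M hM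
  have hMpos : 0 < M := Nat.pos_of_ne_zero (NeZero.ne M)
  rcases Fermat.Agent.GTor.Clo.stmt_A5 M (v.restrictAlong (inclC M) hint) with ⟨z, hz⟩ | ⟨σ, hσ⟩
  · left
    choose w e he0 he6 hw using hpt
    obtain ⟨γ, hγ, hv⟩ := exists_eq_of_norm hint hact (ordPt z) v (ellOrder M z)
      (Fermat.Agent.GTor.Clo.stmt_A3 M z).1
      (fun g k A B hg hAB => hz g k A B hg hAB)
      (fun γ => w (γ • z)) (fun γ => e (γ • z)) (fun γ _ => he0 _)
      (fun γ hγ f k A B hf hr => by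
        rw [hSl z γ k A hr.1.mdiff, hSl z γ k B hr.2.1.mdiff]
        exact hw (γ • z) f k A B hf hr)
    refine ⟨γ • z, e (γ • z), he0 _, he6 _, ?_⟩
    rw [hv]
    exact hw (γ • z)
  · right
    choose w e he0 hedvd hw using hcu
    obtain ⟨hcw0, hcwM, -⟩ := Fermat.Agent.GTor.Clo.stmt_A4 M σ
    obtain ⟨γ, hγ, hv⟩ := exists_eq_of_norm hint hact (ordCu M σ) v (M / cuspWidth M σ)
      (Nat.div_pos (Nat.le_of_dvd hMpos hcwM) hcw0)
      (fun g k A B hg hAB => hσ g k A B hg hAB)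
      (fun γ => w (γ * σ)) (fun γ => e (γ * σ)) (fun γ _ => he0 _)
      (fun γ hγ f k A B hf hr => by
        have h1 := hw (γ * σ) f k A B hf hr
        have e1 : ∀ X : ℍ → ℂ, ordCu M σ k (X ∣[k] γ) = ordCu M (γ * σ) k X := by
          intro X
          unfold ordCu
          rw [SlashAction.slash_mul]
        rw [e1, e1]
        exact h1)
    refine ⟨γ * σ, e (γ * σ), he0 _, hedvd _, ?_⟩
    rw [hv]
    exact hw (γ * σ)

end Fermat.Agent.S48.B2.T.H96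

end
end
-- ==== END Fermat.Agent.S48.B2.T.H96_A5C
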