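-- GENERATED (merged mirror, NOTES/tools/trim/merge3_helper67.py): 13 modules of the originals, bodies verbatim.
import Fermat.Agent.Zm.S48_L16_000
import Fermat.Agent.Zm.S48_L13_000
import Fermat.Agent.Zm.S48_L08_001
import Fermat.Agent.Zm.S48_L11_001
import Fermat.Agent.Zm.S35_L16_001
import Fermat.Agent.Zm.S48_L16_001
import Fermat.Agent.Zm.S48_L15_001
import Fermat.Agent.Zm.S48_L14_001
import Fermat.Agent.Zm.S48_L10_001
import Fermat.Agent.Zm.S48_L09_000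
import Fermat.Agent.Zm.S48_L01_004
import Fermat.Agent.Zm.S35_L02_000
import Fermat.Agent.Zm.S48_L08_000
import Fermat.Agent.Zm.S48_L03_001
import Fermat.Agent.Zm.S48_L15_000

-- ==== BEGIN Fermat.Agent.NEB.EIG.H39_EigA2
section

/-!
# NEB / EIG (helper39): EIG-A, part 2: the span of the characters of the Tate module

`V = Vsp ι ms ⊆ Hom(Γ, L)` : the `L`-span of the characters `mL ι ms ξ`, `ξ ∈ T_p A`.

* `gen : T_p A →ₗ[ℤ] V`, injective; `Vsp_ext` : linear maps on `V` are determined on generators;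
* `Liftable e` : the additive endomorphism `e` of `T_p A` is induced by an `L`-linear operator on
  `Hom(Γ, L)`; `liftV e h : End_L V` with `liftV e h (gen ξ) = gen (e ξ)`;
* `exists_gam0` : every `d ∈ (ℤ/c)ˣ` is the upper left entry of some `g ∈ Γ₀(M)`.
-/

set_option autoImplicit false

namespace Fermat.Agent.NEB.EIG.H39

open CongruenceSubgroup Matrix.SpecialLinearGroup ModularForm Finset
open scoped MatrixGroups
open Fermat.Agent.Betti ModularCurve.Period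
open Fermat.Agent.S59.Lim

section Gam0

/-- Every unit mod `c` is the upper left entry of a matrix in `Γ₀(M)`. -/
theorem exists_gam0 {M c : ℕ} (hM : M ≠ 0) (hc : c ∣ M) (d : (ZMod c)ˣ) :
    ∃ g : SL(2, ℤ), (M : ℤ) ∣ g 1 0 ∧ (d : ZMod c) = ((g 0 0 : ℤ) : ZMod c) := by
  have : NeZero M := ⟨hM⟩
  obtain ⟨v, hv⟩ := ZMod.unitsMap_surjective hc d
  have hcop : IsCoprime (((v : ZMod M).val : ℕ) : ℤ) (M : ℤ) := by
    rw [Nat.isCoprime_iff_coprime]
    exact ZMod.val_coe_unit_coprime v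
  obtain ⟨g, h00, h10⟩ := hcop.exists_SL2_col 0
  refine ⟨g, by rw [h10], ?_⟩
  rw [h00, ← hv]
  simp [ZMod.unitsMap]

end Gam0

section Span

variable {p : ℕ} [Fact p.Prime] {M c : ℕ} {A : Type*} [AddCommGroup A]
  {L : Type} [Field L] (ι : ℤ_[p] →+* L) (ms : MonoSys p M c A)

/-- The `L`-span of the characters of the elements of the Tate module. -/
def Vsp : Submodule L (Additive (Gam1 M c) →+ L) := Submodule.span L (Set.range (mL ι ms))

/-- The generators of `Vsp`. -/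
noncomputable def gen : Ta p A →ₗ[ℤ] ↥(Vsp ι ms) where
  toFun ξ := ⟨mL ι ms ξ, Submodule.subset_span ⟨ξ, rfl⟩⟩
  map_add' ξ ξ' := Subtype.ext (map_add (mL ι ms) ξ ξ')
  map_smul' n ξ := by
    apply Subtype.ext
    rw [RingHom.id_apply, Submodule.coe_smul_of_tower]
    exact map_zsmul (mL ι ms) n ξ

theorem coe_gen (ξ : Ta p A) :
    ((gen ι ms ξ : ↥(Vsp ι ms)) : Additive (Gam1 M c) →+ L) = mL ι ms ξ := rfl

theorem gen_injective (hι : Function.Injective ι) : Function.Injective (gen ι ms) := by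
  intro ξ ξ' h
  apply mL_injective ι hι ms
  rw [← coe_gen, ← coe_gen, h]

/-- Linear maps on `Vsp` are determined by their values on the generators. -/
theorem Vsp_ext {W : Type*} [AddCommMonoid W] [Module L W] {E E' : ↥(Vsp ι ms) →ₗ[L] W}
    (h : ∀ ξ, E (gen ι ms ξ) = E' (gen ι ms ξ)) : E = E' := by
  refine LinearMap.ext fun v => ?_
  obtain ⟨φ, hφ⟩ := v
  induction hφ using Submodule.span_induction with
  | mem x hx =>
    obtain ⟨ξ, rfl⟩ := hx
    exact h ξ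
  | zero =>
    have : (⟨0, Submodule.zero_mem _⟩ : ↥(Vsp ι ms)) = 0 := rfl
    rw [this, map_zero, map_zero]
  | add x y hx hy ihx ihy =>
    have : (⟨x + y, Submodule.add_mem _ hx hy⟩ : ↥(Vsp ι ms)) = ⟨x, hx⟩ + ⟨y, hy⟩ := rfl
    rw [this, map_add, map_add, ihx, ihy]
  | smul a x hx ih =>
    have : (⟨a • x, Submodule.smul_mem _ a hx⟩ : ↥(Vsp ι ms)) = a • ⟨x, hx⟩ := rfl
    rw [this, map_smul, map_smul, ih]

theorem Vsp_par (v : ↥(Vsp ι ms)) :
    IsParabolicHom (Gam1 M c) (v : Additive (Gam1 M c) →+ L) := by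
  obtain ⟨φ, hφ⟩ := v
  show IsParabolicHom (Gam1 M c) φ
  induction hφ using Submodule.span_induction with
  | mem x hx =>
    obtain ⟨ξ, rfl⟩ := hx
    exact mL_par ι ms ξ
  | zero => exact isPar_zero
  | add x y hx hy ihx ihy => exact isPar_add ihx ihy
  | smul a x hx ih => exact isPar_smul a ih

/-- `e` is induced by an `L`-linear operator on `Hom(Γ, L)`. -/
def Liftable (e : Ta p A → Ta p A) : Prop :=
  ∃ F : Module.End L (Additive (Gam1 M c) →+ L), ∀ ξ, F (mL ι ms ξ) = mL ι ms (e ξ)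

theorem Liftable.map_mem {e : Ta p A → Ta p A} (h : Liftable ι ms e) :
    ∀ x ∈ Vsp ι ms, Classical.choose h x ∈ Vsp ι ms := by
  intro x hx
  induction hx using Submodule.span_induction with
  | mem x hx =>
    obtain ⟨ξ, rfl⟩ := hx
    rw [Classical.choose_spec h ξ]
    exact Submodule.subset_span ⟨e ξ, rfl⟩
  | zero =>
    rw [map_zero]
    exact Submodule.zero_mem _
  | add x y hx hy ihx ihy =>
    rw [map_add]
    exact Submodule.add_mem _ ihx ihy
  | smul a x hx ih =>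
    rw [map_smul]
    exact Submodule.smul_mem _ a ih

/-- The operator on `Vsp` induced by a liftable `e`. -/
noncomputable def liftV (e : Ta p A → Ta p A) (h : Liftable ι ms e) :
    Module.End L ↥(Vsp ι ms) :=
  (Classical.choose h).restrict (Liftable.map_mem ι ms h)

theorem liftV_gen (e : Ta p A → Ta p A) (h : Liftable ι ms e) (ξ : Ta p A) :
    liftV ι ms e h (gen ι ms ξ) = gen ι ms (e ξ) :=
  Subtype.ext (Classical.choose_spec h ξ)

/-- The induced operator is the restriction of any ambient operator inducing `e`. -/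
theorem coe_liftV (e : Ta p A → Ta p A) (h : Liftable ι ms e)
    (F : Module.End L (Additive (Gam1 M c) →+ L)) (hF : ∀ ξ, F (mL ι ms ξ) = mL ι ms (e ξ))
    (v : ↥(Vsp ι ms)) :
    ((liftV ι ms e h v : ↥(Vsp ι ms)) : Additive (Gam1 M c) →+ L)
      = F (v : Additive (Gam1 M c) →+ L) := by
  have key : (Vsp ι ms).subtype.comp (liftV ι ms e h) = F.comp (Vsp ι ms).subtype := by
    apply Vsp_ext ι ms
    intro ξ
    rw [LinearMap.comp_apply, LinearMap.comp_apply, liftV_gen]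
    exact (hF ξ).symm
  exact congrArg (fun f : ↥(Vsp ι ms) →ₗ[L] (Additive (Gam1 M c) →+ L) => f v) key

theorem liftV_congr {e e' : Ta p A → Ta p A} (h : Liftable ι ms e) (h' : Liftable ι ms e')
    (hee : ∀ ξ, e ξ = e' ξ) : liftV ι ms e h = liftV ι ms e' h' := by
  apply Vsp_ext ι ms
  intro ξ
  rw [liftV_gen, liftV_gen, hee]

theorem liftV_comp {e e' : Ta p A → Ta p A} (h : Liftable ι ms e) (h' : Liftable ι ms e')
    (h'' : Liftable ι ms (fun ξ => e (e' ξ))) :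
    liftV ι ms (fun ξ => e (e' ξ)) h'' = liftV ι ms e h * liftV ι ms e' h' := by
  apply Vsp_ext ι ms
  intro ξ
  rw [liftV_gen, Module.End.mul_apply, liftV_gen, liftV_gen]

theorem liftV_id (h : Liftable ι ms (fun ξ => ξ)) : liftV ι ms (fun ξ => ξ) h = 1 := by
  apply Vsp_ext ι ms
  intro ξ
  rw [liftV_gen, Module.End.one_apply]

theorem Liftable.comp {e e' : Ta p A → Ta p A} (h : Liftable ι ms e) (h' : Liftable ι ms e') :
    Liftable ι ms (fun ξ => e (e' ξ)) := by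
  obtain ⟨F, hF⟩ := h
  obtain ⟨F', hF'⟩ := h'
  exact ⟨F * F', fun ξ => by rw [Module.End.mul_apply, hF', hF]⟩

theorem Liftable.id : Liftable ι ms (fun ξ => ξ) := ⟨1, fun _ => rfl⟩

end Span

end Fermat.Agent.NEB.EIG.H39

end
-- ==== END Fermat.Agent.NEB.EIG.H39_EigA2

-- ==== BEGIN Fermat.Agent.S48.B2.H55_Asm
section

/-!
# S48, B2 assembly (helper55): `Stmt_TatePieceH'` from the slices

`asm s s' (h : s' = 2 * s + 1) : Stmt_EigH s s' → Stmt_TorsUnramH → Stmt_TorsESH →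
Stmt_GALH → B.Stmt_DirCharL → Stmt_TatePieceH'`.

`asm_bot`: the same with `Stmt_EigBot s s'` (`H = ⊥`, the form slice T proves).

The proof is `asm_core` (`H55_AsmCore.lean`), which is stated with local hypotheses and does not
depend on the exact form of the statements of the slices.
-/

set_option autoImplicit false

noncomputable section

namespace Fermat.Agent.S48.B2.H55

open AlgebraicCurve ModularCurve CongruenceSubgroup
open Fermat.Agent.NEB Fermat.Agent.NEB.JH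
open Fermat.Agent.S48.B2
open scoped MatrixGroups

theorem coprime_six_of_prime {ℓ : ℕ} (hℓ : ℓ.Prime) (h5 : 5 ≤ ℓ) : Nat.Coprime ℓ 6 := by
  rw [Nat.Prime.coprime_iff_not_dvd hℓ]
  intro hd
  have hle : ℓ ≤ 6 := Nat.le_of_dvd (by norm_num) hd
  have h56 : ℓ = 5 ∨ ℓ = 6 := by omega
  rcases h56 with rfl | rfl
  · norm_num at hd
  · norm_num at hℓ

/-- **B2 assembly.** -/
theorem asm (s s' : ℤ) (h : s' = 2 * s + 1) (hEig : Stmt_EigH s s')
    (hUnr : Stmt_TorsUnramH) (hES : Stmt_TorsESH) (hGal : Stmt_GALH)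
    (hDir : B.Stmt_DirCharL) : Stmt_TatePieceH' := by
  intro M _ χ G b hM2 hG hneb ℓ hℓ h5 hsq htot k _ _ _ φ
  have hSQ : ∀ r : ℕ, r.Prime → r ∣ ℓ → ¬ r ^ 2 ∣ M := by
    intro r hr hrℓ
    have : r = ℓ := (Nat.prime_dvd_prime_iff_eq hr hℓ).1 hrℓ
    rw [this]
    exact hsq
  have hM0 : M ≠ 0 := NeZero.ne M
  have hcop6 : Nat.Coprime ℓ 6 := coprime_six_of_prime hℓ h5
  set dd : DiamondData M M (kerH M χ) := diamondData M M (kerH M χ) hM2 dvd_rfl with hdd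
  obtain ⟨r, θ, v, hv, hvT, hvD⟩ := hEig M χ G b hM2 hG hneb ℓ hℓ h5 htot k φ dd
  obtain ⟨θχ, hθfin, hθ⟩ := hDir M χ k φ
  have hpM_of : ∀ p : ℕ, ¬ p ∣ M * ℓ → ¬ p ∣ M := fun p h1 h2 => h1 (dvd_mul_of_dvd_left h2 ℓ)
  have hpℓ_of : ∀ p : ℕ, ¬ p ∣ M * ℓ → ¬ p ∣ ℓ := fun p h1 h2 => h1 (dvd_mul_of_dvd_right h2 M)
  exact asm_core s s' h M hM2 (kerH M χ) χ b ℓ hℓ k φ dd r θ v hv
    (fun q _ hβ hq hqM X hX t ht => hvT q hβ hq hqM X hX t ht)
    (fun d X hX t ht => hvD d X hX t ht)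
    (fun p hp hpM P hP σ hσ x hx =>
      hUnr M M (kerH M χ) hM2 dvd_rfl hM0 ℓ p hp (hpM_of p hpM) (hpℓ_of p hpM) hcop6 hSQ P hP σ hσ
        x hx)
    (fun p _ hp hpM hβ qu hqu A hA σ hσ x hx =>
      hES M M (kerH M χ) hM2 dvd_rfl hM0 ℓ p hp (hpM_of p hpM) (hpℓ_of p hpM) hcop6 hSQ hβ dd qu
        hqu A hA σ hσ x hx)
    (fun y => hGal M M (kerH M χ) hM2 dvd_rfl hM0 y)
    θχ hθfin hθ

/-- **B2 assembly, `H = ⊥`** (the form used by the final wiring). -/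
theorem asm_bot (s s' : ℤ) (h : s' = 2 * s + 1) (hEig : Stmt_EigBot s s')
    (hUnr : Stmt_TorsUnramH) (hES : Stmt_TorsESH) (hGal : Stmt_GALH)
    (hDir : B.Stmt_DirCharL) : Stmt_TatePieceH' := by
  intro M _ χ G b hM2 hG hneb ℓ hℓ h5 hsq htot k _ _ _ φ
  have hSQ : ∀ r : ℕ, r.Prime → r ∣ ℓ → ¬ r ^ 2 ∣ M := by
    intro r hr hrℓ
    have : r = ℓ := (Nat.prime_dvd_prime_iff_eq hr hℓ).1 hrℓ
    rw [this]
    exact hsq
  have hM0 : M ≠ 0 := NeZero.ne M
  have hcop6 : Nat.Coprime ℓ 6 := coprime_six_of_prime hℓ h5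
  set dd : DiamondData M M (⊥ : Subgroup (ZMod M)ˣ) :=
    diamondData M M (⊥ : Subgroup (ZMod M)ˣ) hM2 dvd_rfl with hdd
  obtain ⟨r, θ, v, hv, hvT, hvD⟩ := hEig M χ G b hM2 hG hneb ℓ hℓ h5 htot k φ dd
  obtain ⟨θχ, hθfin, hθ⟩ := hDir M χ k φ
  have hpM_of : ∀ p : ℕ, ¬ p ∣ M * ℓ → ¬ p ∣ M := fun p h1 h2 => h1 (dvd_mul_of_dvd_left h2 ℓ)
  have hpℓ_of : ∀ p : ℕ, ¬ p ∣ M * ℓ → ¬ p ∣ ℓ := fun p h1 h2 => h1 (dvd_mul_of_dvd_right h2 M)
  exact asm_core s s' h M hM2 (⊥ : Subgroup (ZMod M)ˣ) χ b ℓ hℓ k φ dd r θ v hv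
    (fun q _ hβ hq hqM X hX t ht => hvT q hβ hq hqM X hX t ht)
    (fun d X hX t ht => hvD d X hX t ht)
    (fun p hp hpM P hP σ hσ x hx =>
      hUnr M M (⊥ : Subgroup (ZMod M)ˣ) hM2 dvd_rfl hM0 ℓ p hp (hpM_of p hpM) (hpℓ_of p hpM)
        hcop6 hSQ P hP σ hσ x hx)
    (fun p _ hp hpM hβ qu hqu A hA σ hσ x hx =>
      hES M M (⊥ : Subgroup (ZMod M)ˣ) hM2 dvd_rfl hM0 ℓ p hp (hpM_of p hpM) (hpℓ_of p hpM)
        hcop6 hSQ hβ dd qu hqu A hA σ hσ x hx)
    (fun y => hGal M M (⊥ : Subgroup (ZMod M)ˣ) hM2 dvd_rfl hM0 y)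
    θχ hθfin hθ

end Fermat.Agent.S48.B2.H55

end
end
-- ==== END Fermat.Agent.S48.B2.H55_Asm

-- ==== BEGIN Fermat.Agent.S48.B2.R.H22_OutES
section

/-!
# S48 B2, slice R, leaf OUT-ES (helper22): `Stmt_TIcoreH → Stmt_TorsESH`

The Eichler–Shimura relation on `J_H[n]` at `q ∤ M n`: for a Kummer representation `(n, f)` of
`x`, the class `ρ(q) σ² x - T^H_q σ x + q x` has the Kummer function
`ρ(q) σ² f · (T^H_q (σ f))⁻¹ · f^q`, which is a constant times a Gauss unit reducing to `1`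
(helper70's `isRedOneC_ES` with `coe_THfn`); `eq_zero_of_kumRep` (the class form of `TIcoreAt`)
concludes.

* `heckeDataOf` : a `HeckeData` with prescribed `dd`, `hβ`;
* `kumRep_ES` : the Kummer function of the Eichler–Shimura class, any exponent `n`;
* `stmt_OutES : Stmt_OutES`.
-/

set_option autoImplicit false
set_option synthInstance.maxHeartbeats 400000
set_option maxHeartbeats 1000000

noncomputable section

namespace Fermat.Agent.S48.B2.R.H22

open AlgebraicCurve ModularCurve IntermediateField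
open Fermat.Agent.NEB Fermat.Agent.NEB.JH Fermat.Agent.RED
open Fermat.Agent.S28.H73 Fermat.Agent.RED.H73 Fermat.Agent.RED.H34
open Fermat.Agent.NEB.Geom.H70

/-- The data of the rules of `J_H` at the levels `M`, `M q`, with prescribed diamond data and
`BetaOK`. -/
def heckeDataOf (M c q : ℕ) [NeZero M] [NeZero q] (H : Subgroup (ZMod c)ˣ) (h2 : 2 ≤ c)
    (hc : c ∣ M) (dd : DiamondData M c H) (hβ : BetaOK M c q H) : HeckeData M c q H :=
  haveI : NeZero (M * q) := neZero_mul M q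
  { isFF := isFF_JH M c H h2 hc
    isFF' := isFF_JH (M * q) c H h2 (hc.trans (dvd_mul_right M q))
    dd := dd
    dd' := diamondData (M * q) c H h2 (hc.trans (dvd_mul_right M q))
    hβ := hβ
    alphaGal := Fermat.Agent.NEB.H94.stmt_FH_alphaGal M c q H _ _
    betaGal := Fermat.Agent.NEB.H84.stmt_FH_betaGal M c q H h2 hc (NeZero.ne M) _ _ _ }

/-- **The Kummer function of the Eichler–Shimura class** (any exponent): for a Frobenius `φ` at
`P ∣ q`, `q ∤ M`, and `u` the class of `q`. -/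
theorem kumRep_ES {M c q : ℕ} [NeZero M] [NeZero q] {H : Subgroup (ZMod c)ˣ}
    (hd : HeckeData M c q H) (hc2 : 2 ≤ c) (hc : c ∣ M) (hq : q.Prime) (hqM : ¬ q ∣ M)
    (u : (ZMod c)ˣ) (hu : (u : ZMod c) = (q : ZMod c)) {P : ValuationSubring Kbar}
    (hP : P.LiesOverPrime q) {φ : Fermat.Agent.NEB.Geom.GalQ} (hφ : P.IsFrobeniusAt φ q)
    {n : ℤ} {x : JH M c H} {f : ↥(FHbar M c H)} (hf : KumRep n x f) :
    ∃ g : ↥(FHbar M c H),
      KumRep n (hd.dd.ρ u • (φ • φ • x) - JH.TH hd.hβ (φ • x) + q • x) g ∧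
        Fermat.Agent.NEB.H70.IsRedOneC P (g : LaurentSeries Kbar) := by
  obtain ⟨ζ, hζ⟩ := exists_primRoot_Kbar q
  have : Fact q.Prime := ⟨hq⟩
  have : CharP (Fermat.Agent.S28.H73.kV P) q := charP_kV_of_liesOverPrime P hq hP
  set F₀ := FHQ M c H with hF₀
  refine ⟨hd.dd.ρ u (arithmeticRingAut F₀ φ (arithmeticRingAut F₀ φ f))
      * (THfn hd.hβ (arithmeticRingAut F₀ φ f))⁻¹ * f ^ q,
    ((((hf.galois φ).galois φ).diamond hd.dd u).sub ((hf.galois φ).TH hd)).add (hf.nsmul q), ?_⟩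
  have hne : ∀ e : (ZMod c)ˣ, hd.dd.ρ e f ≠ 0 := fun e => (map_ne_zero _).2 hf.ne_zero
  have key := Fermat.Agent.NEB.H70.isRedOneC_ES hζ φ.toRingEquiv
    (Fermat.Agent.RED.H33.mem_iff_of_mem_decompositionSubgroup P hφ.mem_decompositionSubgroup)
    (fun a => Fermat.Agent.RED.H33.autkHom_frobenius P hφ a)
    (scalable_FHbar P hf.ne_zero) (scalable_FHbar P (hne u))
  have e1 : hd.dd.ρ u (arithmeticRingAut F₀ φ (arithmeticRingAut F₀ φ f))
      = arithmeticRingAut F₀ φ (arithmeticRingAut F₀ φ (hd.dd.ρ u f)) := by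
    rw [hd.dd.gal u φ, hd.dd.gal u φ]
  have e2 : hd.dd.ρ u (arithmeticRingAut F₀ φ f) = arithmeticRingAut F₀ φ (hd.dd.ρ u f) := by
    rw [hd.dd.gal u φ]
  rw [e1]
  show Fermat.Agent.NEB.H70.IsRedOneC P
    (((arithmeticRingAut F₀ φ (arithmeticRingAut F₀ φ (hd.dd.ρ u f)) : ↥(FHbar M c H)) :
        LaurentSeries Kbar)
      * ((THfn hd.hβ (arithmeticRingAut F₀ φ f) : ↥(FHbar M c H)) : LaurentSeries Kbar)⁻¹
      * ((f : ↥(FHbar M c H)) : LaurentSeries Kbar) ^ q)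
  rw [Fermat.Agent.NEB.H70.coe_THfn hd hc2 hc hq hqM u hu, e2]
  exact key

/-- **OUT-ES.** -/
theorem stmt_OutES : Stmt_OutES := by
  intro hTI M c H hc2 hcM hM n q _ hq hqM hqn hn6 hSQ hβ dd qu hqu A hA σ hσ x hx
  have hn : n ≠ 0 := by
    rintro rfl
    simp at hn6
  have : NeZero M := ⟨hM⟩
  obtain ⟨f, hf⟩ := exists_kumRep_of_nsmul hx
  obtain ⟨g, h1, h2⟩ :=
    kumRep_ES (heckeDataOf M c q H hc2 hcM dd hβ) hc2 hcM hq hqM qu hqu hA hσ hf
  exact eq_zero_of_kumRep hn (hTI M c H hc2 hcM hM n q hq hqM hqn hn6 hSQ A hA) h1 h2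

end Fermat.Agent.S48.B2.R.H22

end
end
-- ==== END Fermat.Agent.S48.B2.R.H22_OutES

-- ==== BEGIN Fermat.Agent.S48.B2.R.H31_RDegH
section

/-!
# S48 B2, slice R (helper31): R-FF and R-DEG in the form of `R/Defs.lean`

* `stmt_RFF_defs  : R.Stmt_RFF`  (unconditional);
* `stmt_RDeg_defs : R.Stmt_RDeg` (unconditional: IRR is helper25's `H25.stmt_IrrH`):
  `[κ_H : κ_0] = [(ℤ/c)ˣ : ±H]` and every element of `κ_H` is separable over `κ_0`.
-/

set_option autoImplicit false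
set_option linter.unusedSectionVars false
set_option linter.style.haveILetI false
set_option synthInstance.maxHeartbeats 400000
set_option maxHeartbeats 1000000

open ModularCurve AlgebraicCurve IntermediateField

noncomputable section

namespace Fermat.Agent.S48.B2.R.H31

open Fermat.Agent.NEB Fermat.Agent.NEB.JH Fermat.Agent.RED Fermat.Agent.RED.H73
  Fermat.Agent.S28.H73

/-- **R-FF**, in the form of `R/Defs.lean`. -/
theorem stmt_RFF_defs : Fermat.Agent.S48.B2.R.Stmt_RFF :=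
  fun M c H hc2 hc hM q hq hqM A hA => stmt_RFF M c H hc2 hc hM q hq hqM A hA

/-- Separability along an inclusion of intermediate fields, elementwise in the ambient field. -/
theorem isSeparable_of_along {k E : Type*} [Field k] [Field E] [Algebra k E]
    {κ κ' : IntermediateField k E} (hκ : κ ≤ κ')
    (hsep : letI := algebraAlong (IntermediateField.inclusion hκ)
      Algebra.IsSeparable ↥κ ↥κ') (y : E) (hy : y ∈ κ') : IsSeparable ↥κ y := by
  letI := algebraAlong (IntermediateField.inclusion hκ)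
  have h1 : IsSeparable ↥κ (⟨y, hy⟩ : ↥κ') := Algebra.IsSeparable.isSeparable ↥κ _
  let ψ : ↥κ' →ₐ[↥κ] E :=
    { κ'.val.toRingHom with
      commutes' := fun a => rfl }
  have h2 := minpoly.algHom_eq ψ ψ.injective (⟨y, hy⟩ : ↥κ')
  have h3 : ψ (⟨y, hy⟩ : ↥κ') = y := rfl
  rw [h3] at h2
  unfold IsSeparable at h1 ⊢
  rw [h2]
  exact h1

/-- **R-DEG**, in the form of `R/Defs.lean`, unconditionally. -/
theorem stmt_RDeg_defs : Fermat.Agent.S48.B2.R.Stmt_RDeg := by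
  intro M c H hc2 hc hM q hq hqM A hA
  haveI : NeZero M := ⟨hM⟩
  have dd : DiamondData M c H := Fermat.Agent.NEB.JH.diamondData M c H hc2 hc
  have hirr : IrrAt M c H A dd := fun d f hf =>
    Fermat.Agent.S48.B2.R.H25.stmt_IrrH M c H hc2 hc hM q hq hqM A hA dd d f hf
  obtain ⟨h1, -, h3⟩ := rdeg hc2 hc hM dd hirr
  refine ⟨h1, fun y hy => ?_⟩
  refine isSeparable_of_along (H51.redField_mono A (bar_le_FHbar M c H)
    (hasScale_laurentBaseChange A M) (Fermat.Agent.NEB.H94.hasScale_FHbar A M c H)) ?_ y hy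
  letI := algebraAlong (IntermediateField.inclusion
      (H51.redField_mono A (bar_le_FHbar M c H) (hasScale_laurentBaseChange A M)
        (Fermat.Agent.NEB.H94.hasScale_FHbar A M c H)))
  haveI := h3
  infer_instance

end Fermat.Agent.S48.B2.R.H31

end
end
-- ==== END Fermat.Agent.S48.B2.R.H31_RDegH

-- ==== BEGIN Fermat.Agent.S48.B2.R.H32_DRH
section

/-!
# S48, B2, slice R: the Deuring datum for `F_H(M)` (helper32)

`drh_of : Stmt_RFF → Stmt_RDeg → Stmt_Chart → Stmt_Chart0 → Stmt_DRH`: at a level with `UnrCond`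
the chart `inclBar x` of `F_H(M)` (`x` a good chart of `F₀(M)`) is good: the five "pre" fields by
CHART, the branch values by R-BR; then `RED.H79.hasDR_of_goodCharts`.
-/

set_option autoImplicit false
set_option linter.style.haveILetI false
set_option synthInstance.maxHeartbeats 400000
set_option maxHeartbeats 1000000

noncomputable section

namespace Fermat.Agent.S48.B2.R.H32

open AlgebraicCurve ModularCurve IntermediateField
open Fermat.Agent.NEB Fermat.Agent.NEB.JH Fermat.Agent.RED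
open Fermat.Agent.S28.H73 Fermat.Agent.RED.H73 Fermat.Agent.RED.H34

section Consts

variable {C : Type} [Field C] (O : ValuationSubring C)
variable {F : IntermediateField C (LaurentSeries C)} (h : HasScale O F)

/-- The constants of the Gauss valuation ring are `O`. -/
theorem const_mem (ρ : ↥((redSetting O h).V.comap (algebraMap C ↥F))) : (ρ : C) ∈ O :=
  (algebraMap_mem_gaussValSub_iff O h (ρ : C)).1 ρ.2

/-- The residue map on constants is the residue map of `O`. -/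
theorem resO_eq_resV (ρ : ↥((redSetting O h).V.comap (algebraMap C ↥F))) :
    (redSetting O h).resO ρ = resV O ⟨(ρ : C), const_mem O h ρ⟩ := rfl

/-- Transfer of "distinct modulo the maximal ideal" between two fields with the same
constants. -/
theorem distinct_transfer {F' : IntermediateField C (LaurentSeries C)} (h' : HasScale O F')
    (P : C → Prop) (P' : C → Prop) (hPP : ∀ ρ, P' ρ → P ρ)
    (hD : ∀ ρ ρ' : ↥((redSetting O h).V.comap (algebraMap C ↥F)),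
      P (ρ : C) → P (ρ' : C) → (redSetting O h).resO ρ = (redSetting O h).resO ρ' → ρ = ρ')
    (ρ ρ' : ↥((redSetting O h').V.comap (algebraMap C ↥F')))
    (hρ : P' (ρ : C)) (hρ' : P' (ρ' : C))
    (hres : (redSetting O h').resO ρ = (redSetting O h').resO ρ') : ρ = ρ' := by
  rw [resO_eq_resV, resO_eq_resV] at hres
  have m1 : algebraMap C ↥F (ρ : C) ∈ (redSetting O h).V :=
    (algebraMap_mem_gaussValSub_iff O h (ρ : C)).2 (const_mem O h' ρ)
  have m2 : algebraMap C ↥F (ρ' : C) ∈ (redSetting O h).V :=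
    (algebraMap_mem_gaussValSub_iff O h (ρ' : C)).2 (const_mem O h' ρ')
  have key := hD ⟨(ρ : C), m1⟩ ⟨(ρ' : C), m2⟩ (hPP _ hρ) (hPP _ hρ') (by
    rw [resO_eq_resV, resO_eq_resV]
    exact hres)
  exact Subtype.ext (congrArg Subtype.val key)

end Consts

/-- **R-DR** from R-FF, R-DEG, CHART, CHART0 (and R-BR). -/
theorem drh_of (hFF : Stmt_RFF) (hRD : Stmt_RDeg) (hCh : Stmt_Chart) (hC0 : Stmt_Chart0) :
    Stmt_DRH := by
  intro M c H hc2 hc hM hU q hq hqM ht A hA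
  haveI : NeZero M := ⟨hM⟩
  haveI : IsAlgClosed (kV A) := isAlgClosed_kV A
  obtain ⟨x, hx, hxinv, pre, hD, hD'⟩ := hC0 M q hq hqM ht A hA
  obtain ⟨hx', h1, h2, h3, h4, h5⟩ :=
    hCh hRD M c H hc2 hc hM q hq hqM A hA x hx pre.transc pre.fin pre.deg pre.sept
  have hxinv' : (inclBar M c H x)⁻¹
      ∈ (redSetting A (Fermat.Agent.NEB.H94.hasScale_FHbar A M c H)).V :=
    Fermat.Agent.RED.H76.inv_mem_of_red_ne_zero _ hx'
      (Fermat.Agent.RED.H76.red_ne_zero_of_transcendental _ hx' h1)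
  have hxtr : Transcendental Kbar x :=
    Fermat.Agent.RED.H34.RedSetting.transcendental_x hx pre.transc
  have hxinvtr : Transcendental Kbar x⁻¹ := Fermat.Agent.RED.H76.transcendental_inv hxtr
  have hinv : (inclBar M c H x)⁻¹ = inclBar M c H x⁻¹ := (map_inv₀ (inclBar M c H) x).symm
  have GC : Fermat.Agent.RED.H79.GoodChart
      (redSetting A (Fermat.Agent.NEB.H94.hasScale_FHbar A M c H)) (inclBar M c H x) hx' :=
    Fermat.Agent.RED.H76.goodChart_of _ hx' h1 h2 h3 h4 h5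
      (distinct_transfer A (hasScale_laurentBaseChange A M)
        (Fermat.Agent.NEB.H94.hasScale_FHbar A M c H)
        (fun ρ => IsBranchValue x ρ) (fun ρ => IsBranchValue (inclBar M c H x) ρ)
        (fun ρ hρ => Fermat.Agent.S48.B2.R.H34.stmt_BRH M c H hc2 hc hM hU x hxtr ρ hρ) hD)
  have GC' : Fermat.Agent.RED.H79.GoodChart
      (redSetting A (Fermat.Agent.NEB.H94.hasScale_FHbar A M c H)) (inclBar M c H x)⁻¹ hxinv' :=
    Fermat.Agent.RED.H76.goodChart_inv_of _ hx' hxinv' h1 h2 h3 h4 h5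
      (distinct_transfer A (hasScale_laurentBaseChange A M)
        (Fermat.Agent.NEB.H94.hasScale_FHbar A M c H)
        (fun ρ => IsBranchValue x⁻¹ ρ) (fun ρ => IsBranchValue (inclBar M c H x)⁻¹ ρ)
        (fun ρ hρ => Fermat.Agent.S48.B2.R.H34.stmt_BRH M c H hc2 hc hM hU x⁻¹ hxinvtr ρ
          (by rw [← hinv]; exact hρ)) hD')
  exact Fermat.Agent.RED.H79.hasDR_of_goodCharts A (Fermat.Agent.NEB.H94.hasScale_FHbar A M c H)
    (isFF_FH M c H hc2 hc hM) (hFF M c H hc2 hc hM q hq hqM A hA)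
    (inclBar M c H x) hx' hxinv' GC GC'

end Fermat.Agent.S48.B2.R.H32

end
end
-- ==== END Fermat.Agent.S48.B2.R.H32_DRH

-- ==== BEGIN Fermat.Agent.S48.B2.T.H55_Period
section

/-!
# S48 / B2, slice T, leaf T-PER (helper55): `stmt_Period1 : Stmt_Period1`

The period class `perCls M G` of a weight two eigenvector `G` with nebentypus `χ` is not zero,
vanishes on parabolic elements and on elements of finite order, and

* `TDadd (perCls G) = b_q χ(q)⁻¹ • perCls G` : the sum of the slashes of `G` by the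
  representatives `repD` is `G ∣ diag(q, 1) + χ(q)⁻¹ ∑_j G ∣ (1 j; 0 q) = χ(q)⁻¹ T_q G`
  (helper19's `TChiForm`), and `T_q G = b_q G` by the `q`-expansion;
* `Dadd g (perCls G) = χ(d_g) • perCls G`.
-/

set_option autoImplicit false

noncomputable section

namespace Fermat.Agent.S48.B2.T.H55

open ModularCurve ModularCurve.Period UpperHalfPlane CongruenceSubgroup Filter Topology Function
open Matrix.SpecialLinearGroup ModularForm
open Fermat.Agent.NEB.EIG.H39 Fermat.Agent.NEB.EIG.H98 Fermat.Agent.GTor Fermat.Agent.Betti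
open Fermat.Agent.S48.B1.H19 Fermat.Agent.S48.B1.H55
open scoped MatrixGroups ModularForm Manifold Pointwise OnePoint

theorem det_pos_repD (M q : ℕ) (x : OnePoint (ZMod q)) : 0 < (repD M q x).val.det := by
  induction x using OnePoint.rec with
  | infty =>
    have := ModularForm.det_heckeDiagMatrix_pos q
    rwa [Matrix.GeneralLinearGroup.val_det_apply] at this
  | coe j =>
    have h1 := ModularForm.det_heckeMatrix_pos q j.val
    rw [Matrix.GeneralLinearGroup.val_det_apply] at h1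
    rw [repD_coe, Units.val_mul, Matrix.det_mul]
    have h2 : ((mapGL ℝ (kappaSL M q) : GL (Fin 2) ℝ) : Matrix (Fin 2) (Fin 2) ℝ).det = 1 :=
      Fermat.Agent.S21.det_coe_GL (kappaSL M q)
    rw [h2, one_mul]
    exact h1

/-- The value of the character at the lower right entry of `κ`. -/
theorem chi_kappa {M q : ℕ} (χ : DirichletCharacter ℂ M) (hq : q.Prime) (hqM : ¬ q ∣ M) :
    χ (q : ZMod M) * χ (((kappaSL M q 1 1 : ℤ)) : ZMod M) = 1 := by
  have hcop : Nat.Coprime q M := coprime_of_prime_not_dvd hq hqM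
  rw [kappaSL_11 hcop, ← map_mul]
  have h := bez_eq hcop
  have h2 : ((q : ZMod M)) * ((bezS M q : ℤ) : ZMod M) = 1 := by
    have h3 := congrArg (fun z : ℤ => (z : ZMod M)) h
    simp only [Int.cast_sub, Int.cast_mul, Int.cast_natCast, ZMod.natCast_self, mul_zero, sub_zero,
      Int.cast_one] at h3
    exact h3
  rw [h2, map_one]

/-- `T_q G = b_q G` as functions. -/
theorem TChi_eq_smul {M : ℕ} [NeZero M] (χ : DirichletCharacter ℂ M) (G : CuspForm (Gamma1 M) 2)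
    (b : ℕ → ℂ) (hG : B.IsEigenvec2 M χ G b) (hneb : Int.HasNeb M χ 2 G) (q : ℕ) (hq : q.Prime)
    (hqM : ¬ q ∣ M) :
    TChi 2 q (χ (q : ZMod M)) (⇑G) = b q • (⇑G : ℍ → ℂ) := by
  have h1 : TChiForm χ G hneb q hq hqM = b q • G := by
    apply coeffSeq_injective
    rw [coeffSeq_smul]
    funext n
    rw [coeffSeq_apply, qCoeff_TChiForm, Pi.smul_apply, smul_eq_mul, coeffSeq_apply]
    have h2 := hG.hecke q hq hqM n
    rw [← h2]
    norm_num
  have h3 := congrArg (fun F : CuspForm (Gamma1 M) 2 => (⇑F : ℍ → ℂ)) h1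
  exact h3

/-- The sum of the slashes of `G` by the representatives of the double coset of `diag(q, 1)`. -/
theorem sum_slash_repD {M : ℕ} [NeZero M] (χ : DirichletCharacter ℂ M)
    (G : CuspForm (Gamma1 M) 2) (b : ℕ → ℂ) (hG : B.IsEigenvec2 M χ G b)
    (hneb : Int.HasNeb M χ 2 G) (q : ℕ) [Fact q.Prime] (hqM : ¬ q ∣ M) :
    ∑ x : OnePoint (ZMod q), (⇑G : ℍ → ℂ) ∣[(2 : ℤ)] repD M q x =
      (b q * (χ (q : ZMod M))⁻¹) • (⇑G : ℍ → ℂ) := by
  have hq : q.Prime := Fact.out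
  have hcop : Nat.Coprime q M := coprime_of_prime_not_dvd hq hqM
  have hκ : kappaSL M q ∈ Gamma0 M := kappaSL_mem_Gamma0 hcop
  have hχ := chi_kappa χ hq hqM
  have hχ0 : χ (q : ZMod M) ≠ 0 := left_ne_zero_of_mul_eq_one hχ
  have hχinv : χ (((kappaSL M q 1 1 : ℤ)) : ZMod M) = (χ (q : ZMod M))⁻¹ :=
    eq_inv_of_mul_eq_one_right hχ
  have hterm : ∀ j : ZMod q, (⇑G : ℍ → ℂ) ∣[(2 : ℤ)] repD M q (j : OnePoint (ZMod q)) =
      (χ (q : ZMod M))⁻¹ • ((⇑G : ℍ → ℂ) ∣[(2 : ℤ)] heckeMatrix q j.val) := by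
    intro j
    rw [repD_coe, SlashAction.slash_mul]
    have h1 : (⇑G : ℍ → ℂ) ∣[(2 : ℤ)] (mapGL ℝ (kappaSL M q)) =
        (χ (q : ZMod M))⁻¹ • (⇑G : ℍ → ℂ) := by
      have h2 := hneb (kappaSL M q) hκ
      rw [hχinv] at h2
      exact h2
    rw [h1]
    exact smul_slash_rep 2 _ _ (j : OnePoint (ZMod q))
  have hsum := Fintype.sum_option
    (fun x : OnePoint (ZMod q) => (⇑G : ℍ → ℂ) ∣[(2 : ℤ)] repD M q x)
  refine Eq.trans hsum ?_
  have hT := TChi_eq_smul χ G b hG hneb q hq hqM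
  rw [TChi, heckeU_def, sum_range_eq_sum_zmod'] at hT
  have e1 : (⇑G : ℍ → ℂ) ∣[(2 : ℤ)] repD M q (none : OnePoint (ZMod q)) =
      (⇑G : ℍ → ℂ) ∣[(2 : ℤ)] heckeDiagMatrix q := rfl
  have e2 : ∀ j : ZMod q, (⇑G : ℍ → ℂ) ∣[(2 : ℤ)] repD M q (some j : OnePoint (ZMod q)) =
      (χ (q : ZMod M))⁻¹ • ((⇑G : ℍ → ℂ) ∣[(2 : ℤ)] heckeMatrix q j.val) := hterm
  rw [e1]
  simp only [e2]
  rw [← Finset.smul_sum]
  have hU : ∑ x : ZMod q, (⇑G : ℍ → ℂ) ∣[(2 : ℤ)] heckeMatrix q x.val =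
      b q • (⇑G : ℍ → ℂ) - χ (q : ZMod M) • ((⇑G : ℍ → ℂ) ∣[(2 : ℤ)] heckeDiagMatrix q) :=
    eq_sub_of_add_eq hT
  rw [hU, smul_sub, smul_smul, smul_smul, inv_mul_cancel₀ hχ0, one_smul, mul_comm]
  abel

/-- **T-PER.** -/
theorem stmt_Period1 : Stmt_Period1 := by
  intro M _ χ G b hM2 hG hneb
  refine ⟨perCls M G, perCls_ne_zero G hG.ne_zero, perCls_mem_homPE G, ?_, ?_⟩
  · intro q hq hqM γ
    haveI : Fact q.Prime := ⟨hq⟩
    have hfam : IsHeckeFamily (inc (Gam1 M M)) (repD M q) := stmt_FAM_hecke M M q dvd_rfl hq hqM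
    have hsum := sum_slash_repD χ G b hG hneb q hqM
    have h1 : perCls M ((b q * (χ (q : ZMod M))⁻¹) • G) =
        hfam.heckeOp (inc_injective _) (perCls M G) :=
      perCls_heckeOp hfam (det_pos_repD M q) G _ hsum.symm
    have h2 : TDadd M M dvd_rfl hq hqM (perCls M G) =
        hfam.heckeOp (inc_injective _) (perCls M G) := rfl
    rw [h2, ← h1, perCls_smul, AddMonoidHom.smul_apply, smul_eq_mul, zpow_neg_one]
  · intro g hg γ
    obtain ⟨γ, rfl⟩ : ∃ g' : Gam1 M M, Additive.ofMul g' = γ := ⟨Additive.toMul γ, rfl⟩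
    have hg0 : g ∈ Gamma0 M := Betti.mem_Gamma0_of_dvd hg
    have h1 : Dadd dvd_rfl g hg (perCls M G) (Additive.ofMul γ) =
        perCls M G (Additive.ofMul
          (conjEnd (inc_injective (Gam1 M M)) ⟨mapGL ℝ g, gam0_mem_Nrm dvd_rfl hg⟩ γ)) := rfl
    rw [h1]
    refine perCls_conj G g _ (hneb g hg0) γ _ ?_
    apply Betti.mapGL_real_injective
    have h2 := e_conjEnd (inc_injective (Gam1 M M)) ⟨mapGL ℝ g, gam0_mem_Nrm dvd_rfl hg⟩ γ
    rw [inc_apply, inc_apply] at h2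
    rw [h2, map_mul, map_mul, map_inv]

end Fermat.Agent.S48.B2.T.H55

end
end
-- ==== END Fermat.Agent.S48.B2.T.H55_Period

-- ==== BEGIN Fermat.Agent.S48.B2.T.H96_A5CFinal
section

/-!
# S48 / B2, slice T, leaf E-A5C: `stmt_A5C : Stmt_A5C` (unconditional)

Assembly of `a5C_of` (helper96, the norm trick) with `T.H55.stmt_A5Act` (helper55),
`T.H25.stmt_A5Slash` (helper25) and `T.H98.stmt_OrdC` (helper98).
-/

set_option autoImplicit false

namespace Fermat.Agent.S48.B2.T.H96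

/-- **E-A5C**: every place of `F_C` is the place of a point or of a cusp. -/
theorem stmt_A5C : Fermat.Agent.S48.B2.T.Stmt_A5C :=
  a5C_of Fermat.Agent.S48.B2.T.H55.stmt_A5Act Fermat.Agent.S48.B2.T.H25.stmt_A5Slash
    Fermat.Agent.S48.B2.T.H98.stmt_OrdC

end Fermat.Agent.S48.B2.T.H96

end
-- ==== END Fermat.Agent.S48.B2.T.H96_A5CFinal

-- ==== BEGIN Fermat.Agent.S48.B2.T.H98_Dict
section

/-!
# S48 / B2, slice T, leaf T-DICT (helper98): the torsion dictionary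

`stmt_Dict : Stmt_Dict`.

General lemmas on the relation `TorChar1 M c H n ι x φ` (any `M`, `c`, `H`, `n`):

* `torChar1_tors`     : `TorChar1 x φ → n • x = 0`;
* `hasChar1_inv`      : `HasChar1 f φ → HasChar1 f⁻¹ (-φ)`;
* `torChar1_sub`      : `TorChar1 x φ → TorChar1 y ψ → TorChar1 (x - y) (φ - ψ)`;
* `torChar1_zero_tors`: `TorChar1 x 0 → |H| • x = 0`;
* `torChar1_inj`      : `|H| = 1`, `TorChar1 x φ`, `TorChar1 y φ` `⟹ x = y`;
* `torChar1_TH`, `torChar1_diamond` : Hecke and diamond operators.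
(`exists_torChar1`, `torChar1_unique`, `torChar1_add` are in `NEB/EIG/H98_MonoAsm.lean`.)
-/

set_option autoImplicit false
set_option linter.unusedSectionVars false

noncomputable section

namespace Fermat.Agent.S48.B2.T.H98

open AlgebraicCurve ModularCurve UpperHalfPlane CongruenceSubgroup Matrix.SpecialLinearGroup
open Fermat.Agent.NEB Fermat.Agent.NEB.JH Fermat.Agent.NEB.H84 Fermat.Agent.NEB.EIG.H39
open Fermat.Agent.NEB.EIG.H98 Fermat.Agent.NEB.EIG.H34 Fermat.Agent.GTor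
open scoped MatrixGroups ModularForm Manifold

variable {M c : ℕ} {H : Subgroup (ZMod c)ˣ} {n : ℕ} (ι : Kbar →+* ℂ)

/-- a class with a character is killed by `n` -/
theorem torChar1_tors (hc2 : 2 ≤ c) (hc : c ∣ M) (hM : M ≠ 0) (hn : n ≠ 0)
    {x : JH M c H} {φ : Additive (Gam1 M c) →+ ZMod n} (h : TorChar1 M c H n ι x φ) :
    n • x = 0 := by
  obtain ⟨D, f, hf, hx, hD, -⟩ := h
  have h2 := (Fermat.Agent.NEB.EIG.H12.stmt_KUM1 M c H n hc2 hc hM hn).2 D f f n hf hD rfl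
  rw [hx, ← natCast_zsmul]
  exact h2

/-- the character of the inverse -/
theorem hasChar1_inv (hc2 : 2 ≤ c) (hc : c ∣ M) (hM : M ≠ 0) (hn : n ≠ 0)
    {f : ↥(FHbar M c H)} (hf : f ≠ 0) {φ : Additive (Gam1 M c) →+ ZMod n}
    (h : HasChar1 M c H n ι f φ) : HasChar1 M c H n ι f⁻¹ (-φ) := by
  have : NeZero M := ⟨hM⟩
  obtain ⟨-, hmul, hpow⟩ :=
    Fermat.Agent.NEB.EIG.H34.stmt_CHAR1_of (n := n) (stmt_A1H M c H) hc2 hc hM hn ι
  -- `f ^ m` has character `m • φ`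
  have hp : ∀ m : ℕ, HasChar1 M c H n ι (f ^ (m + 1)) ((m + 1) • φ) := by
    intro m
    induction m with
    | zero => simpa using h
    | succ m ih =>
      have := hmul _ _ _ _ (pow_ne_zero _ hf) hf ih h
      rw [← pow_succ, ← succ_nsmul] at this
      exact this
  obtain ⟨m, rfl⟩ : ∃ m, n = m + 1 := ⟨n - 1, by omega⟩
  have hi := hpow f⁻¹ (inv_ne_zero hf)
  have hφ : (m + 1) • φ = 0 := by
    ext γ
    have h1 : ((m + 1 : ℕ) : ZMod (m + 1)) = 0 := ZMod.natCast_self (m + 1)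
    show (m + 1) • φ γ = 0
    rw [nsmul_eq_mul, h1, zero_mul]
  by_cases hm : m = 0
  · subst hm
    have h0 : φ = 0 := by simpa using hφ
    subst h0
    simpa using hi
  · obtain ⟨m', rfl⟩ : ∃ m', m = m' + 1 := ⟨m - 1, by omega⟩
    have h3 := hmul _ _ _ _ (pow_ne_zero _ hf) (pow_ne_zero _ (inv_ne_zero hf)) (hp m') hi
    have e1 : f ^ (m' + 1) * f⁻¹ ^ (m' + 1 + 1) = f⁻¹ := by
      rw [pow_succ f⁻¹ (m' + 1), ← mul_assoc, ← mul_pow, mul_inv_cancel₀ hf, one_pow, one_mul]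
    have e2 : (m' + 1) • φ + 0 = -φ := by
      rw [add_zero, eq_neg_iff_add_eq_zero, ← succ_nsmul]
      exact hφ
    rw [e1, e2] at h3
    exact h3

theorem torChar1_neg (hc2 : 2 ≤ c) (hc : c ∣ M) (hM : M ≠ 0) (hn : n ≠ 0)
    {x : JH M c H} {φ : Additive (Gam1 M c) →+ ZMod n} (h : TorChar1 M c H n ι x φ) :
    TorChar1 M c H n ι (-x) (-φ) := by
  obtain ⟨D, f, hf, hx, hD, hchar⟩ := h
  refine ⟨-D, f⁻¹, inv_ne_zero hf, by rw [hx]; rfl, fun v => ?_,
    hasChar1_inv ι hc2 hc hM hn hf hchar⟩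
  rw [v.ord_inv, ← hD v]
  show (n : ℤ) * (-(D : Divisor Kbar ↥(FHbar M c H))) v = _
  rw [Finsupp.neg_apply]
  ring

theorem torChar1_sub (hc2 : 2 ≤ c) (hc : c ∣ M) (hM : M ≠ 0) (hn : n ≠ 0)
    {x y : JH M c H} {φ ψ : Additive (Gam1 M c) →+ ZMod n}
    (h₁ : TorChar1 M c H n ι x φ) (h₂ : TorChar1 M c H n ι y ψ) :
    TorChar1 M c H n ι (x - y) (φ - ψ) := by
  rw [sub_eq_add_neg, sub_eq_add_neg]
  exact torChar1_add ι hc2 hc hM hn h₁ (torChar1_neg ι hc2 hc hM hn h₂)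

/-- a class with trivial character is killed by `|H|` -/
theorem torChar1_zero_tors (hc2 : 2 ≤ c) (hc : c ∣ M) (hM : M ≠ 0) (hn : n ≠ 0)
    {x : JH M c H} (h : TorChar1 M c H n ι x 0) : Nat.card H • x = 0 := by
  obtain ⟨D, f, hf, hx, hD, hchar⟩ := h
  obtain ⟨g, hg⟩ := Fermat.Agent.NEB.EIG.H46.stmt_INJ1 M c H n hc2 hc hM hn ι f hf hchar
  have h2 := (Fermat.Agent.NEB.EIG.H12.stmt_KUM1 M c H n hc2 hc hM hn).2 D f g (Nat.card H)
    hf hD hg
  rw [hx, ← natCast_zsmul]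
  exact h2

/-- for `|H| = 1` the character determines the class -/
theorem torChar1_inj (hc2 : 2 ≤ c) (hc : c ∣ M) (hM : M ≠ 0) (hn : n ≠ 0)
    (hH : Nat.card H = 1) {x y : JH M c H} {φ : Additive (Gam1 M c) →+ ZMod n}
    (h₁ : TorChar1 M c H n ι x φ) (h₂ : TorChar1 M c H n ι y φ) : x = y := by
  have h := torChar1_sub ι hc2 hc hM hn h₁ h₂
  rw [sub_self] at h
  have h0 := torChar1_zero_tors ι hc2 hc hM hn h
  rw [hH, one_smul] at h0
  exact sub_eq_zero.mp h0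

/-- Hecke operators -/
theorem torChar1_TH (hc2 : 2 ≤ c) (hc : c ∣ M) (hM : M ≠ 0) (hn : n ≠ 0)
    {ℓ : ℕ} (hℓ : ℓ.Prime) (hℓM : ¬ ℓ ∣ M) :
    haveI : NeZero ℓ := ⟨hℓ.ne_zero⟩
    ∀ (hβ : BetaOK M c ℓ H) {x : JH M c H} {φ : Additive (Gam1 M c) →+ ZMod n},
      TorChar1 M c H n ι x φ → TorChar1 M c H n ι (TH hβ x) (TDadd M c hc hℓ hℓM φ) := by
  have : NeZero ℓ := ⟨hℓ.ne_zero⟩
  intro hβ x φ h
  have hFF := isFF_FHbar' (H := H) hc2 hc hM
  have hFF' : Fermat.Agent.RED.IsFF Kbar ↥(FHbar (M * ℓ) c H) :=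
    isFF_FHbar' hc2 (Dvd.dvd.mul_right hc ℓ) (mul_ne_zero hM hℓ.ne_zero)
  have : NeZero M := ⟨hM⟩
  obtain ⟨D, f, hf, hxD, hD, hchar⟩ := h
  obtain ⟨E, hE, hT0, hEv⟩ := TH_kummer hFF hFF' hβ ((n : ℕ) : ℤ) D hf hD
  have hch := Fermat.Agent.NEB.EIG.H94.stmt_HK1 M c H n hc2 hc hM hn ι ℓ hℓ hℓM hβ f _ hf hchar
  exact ⟨E, THfn hβ f, hT0, by rw [hxD, hE], hEv, hch⟩

/-- diamond operators -/
theorem torChar1_diamond (hc2 : 2 ≤ c) (hc : c ∣ M) (hM : M ≠ 0) (hn : n ≠ 0)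
    (dd : DiamondData M c H) (d : (ZMod c)ˣ) (g : SL(2, ℤ)) (hg : (M : ℤ) ∣ g 1 0)
    (hgd : ((g 0 0 : ℤ) : ZMod c) = (d : ZMod c))
    {x : JH M c H} {φ : Additive (Gam1 M c) →+ ZMod n} (h : TorChar1 M c H n ι x φ) :
    TorChar1 M c H n ι (dd.ρ d • x) (Dadd hc g hg φ) := by
  have : NeZero M := ⟨hM⟩
  obtain ⟨D, f, hf, hxD, hD, hchar⟩ := h
  obtain ⟨E, hE, hT0, hEv⟩ := diamond_kummer dd d ((n : ℕ) : ℤ) D hf hD
  have hch := Fermat.Agent.NEB.EIG.H12.stmt_DIAM1 M c H n hc2 hc hM hn ι dd d g hg hgd f _ hf hchar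
  exact ⟨E, dd.ρ d f, hT0, by rw [hxD, hE], hEv, hch⟩

/-- **T-DICT**. -/
theorem stmt_Dict : Stmt_Dict := by
  intro M _ h2 n hn ι
  have hM : M ≠ 0 := NeZero.ne M
  have hc : M ∣ M := dvd_rfl
  refine ⟨fun x hx => ?_, fun x φ h => torChar1_tors ι h2 hc hM hn h,
    fun x y φ h₁ h₂ => torChar1_inj ι h2 hc hM hn Subgroup.card_bot h₁ h₂,
    fun x φ ψ h₁ h₂ => torChar1_unique ι h2 hc hM hn h₁ h₂,
    fun x y φ ψ h₁ h₂ => torChar1_add ι h2 hc hM hn h₁ h₂,
    fun q hq hqM hβ x φ h => torChar1_TH ι h2 hc hM hn hq hqM hβ h,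
    fun dd d g hg hgd x φ h => torChar1_diamond ι h2 hc hM hn dd d g hg hgd h⟩
  exact exists_torChar1 ι h2 hc hM hn x (by rw [natCast_zsmul]; exact hx)

end Fermat.Agent.S48.B2.T.H98

end
end
-- ==== END Fermat.Agent.S48.B2.T.H98_Dict

-- ==== BEGIN Fermat.Agent.S48.B2.R.H32_Final
section

/-!
# S48, B2, slice R: final wiring (helper32)

`Stmt_TorsUnramH` and `Stmt_TorsESH` from the two remaining leaves R-DEG and CHART.
-/

set_option autoImplicit false

namespace Fermat.Agent.S48.B2.R.H32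

/-- **TIcore-H** from R-DEG and CHART. -/
theorem stmt_TIcoreH_of (hRD : Stmt_RDeg) (hCh : Stmt_Chart) : Stmt_TIcoreH :=
  ticoreH_of
    (tih_of_drh (drh_of Fermat.Agent.S48.B2.R.H31.stmt_RFF hRD hCh
      Fermat.Agent.S48.B2.R.H96C.stmt_Chart0))
    Fermat.Agent.S48.B2.R.H34.stmt_Desc

/-- **R-unr** from R-DEG and CHART. -/
theorem stmt_TorsUnramH_of (hRD : Stmt_RDeg) (hCh : Stmt_Chart) : Stmt_TorsUnramH :=
  Fermat.Agent.S48.B2.R.H22.stmt_OutU (stmt_TIcoreH_of hRD hCh)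

/-- **R-es** from R-DEG and CHART. -/
theorem stmt_TorsESH_of (hRD : Stmt_RDeg) (hCh : Stmt_Chart) : Stmt_TorsESH :=
  Fermat.Agent.S48.B2.R.H22.stmt_OutES (stmt_TIcoreH_of hRD hCh)

end Fermat.Agent.S48.B2.R.H32

end
-- ==== END Fermat.Agent.S48.B2.R.H32_Final

-- ==== BEGIN Fermat.Agent.S48.B2.T.H01_Asm
section

/-!
# S48 / B2 / slice T, leaf T-ASM (helper1)

`Stmt_Exist1 → B2.Stmt_EigBot (-1) (-1)`, from the landed leaves T-BASIS (`H43.stmt_Basis1`),
T-PER (`H55.stmt_Period1`), T-RED (`H43.eigRed`), T-DICT (`H98.stmt_Dict`) and the abstract core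
`H01.asm_core`.
-/

set_option autoImplicit false
set_option linter.unusedVariables false
set_option linter.unusedSectionVars false
set_option linter.style.haveILetI false

noncomputable section

namespace Fermat.Agent.S48.B2.T.H01

open AlgebraicCurve ModularCurve UpperHalfPlane CongruenceSubgroup Matrix.SpecialLinearGroup
open Fermat.Agent.NEB Fermat.Agent.NEB.JH Fermat.Agent.NEB.H84 Fermat.Agent.NEB.EIG.H39
open Fermat.Agent.NEB.EIG.H98 Fermat.Agent.NEB.EIG.H34 Fermat.Agent.GTor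
open Fermat.Agent.Betti ModularCurve.Period
open scoped MatrixGroups ModularForm Manifold

/-! ## 1. Natural operators on `Hom(Γ, ·)` and their matrices -/

section Op

variable {Γ : Subgroup SL(2, ℤ)} {r : ℕ} (bas : Fin r → (Additive Γ →+ ℤ))
  (op : ∀ (A : Type) [AddCommGroup A], (Additive Γ →+ A) → (Additive Γ →+ A))
  (hadd : ∀ (A : Type) [AddCommGroup A] (φ ψ : Additive Γ →+ A),
    op A (φ + ψ) = op A φ + op A ψ)
  (hcomp : ∀ (A B : Type) [AddCommGroup A] [AddCommGroup B] (u : A →+ B)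
    (φ : Additive Γ →+ A), op B (u.comp φ) = u.comp (op A φ))

include hadd in
theorem op_zero (A : Type) [AddCommGroup A] : op A 0 = 0 := by
  have h := hadd A 0 0
  rw [add_zero] at h
  exact left_eq_add.mp h

include hadd in
theorem op_sum (A : Type) [AddCommGroup A] {ι : Type*} (s : Finset ι)
    (f : ι → (Additive Γ →+ A)) : op A (∑ i ∈ s, f i) = ∑ i ∈ s, op A (f i) := by
  classical
  induction s using Finset.induction_on with
  | empty => simpa using op_zero op hadd A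
  | insert a s ha ih => rw [Finset.sum_insert ha, Finset.sum_insert ha, hadd, ih]

/-- The matrix of an operator preserving `homPE (Γ, ℤ)` in a universal basis. -/
theorem exists_mat
    (hbasU : ∀ (A : Type) [AddCommGroup A] [IsAddTorsionFree A] (φ : Additive Γ →+ A),
      φ ∈ homPE Γ A → ∃! a : Fin r → A, ∀ γ, φ γ = ∑ i, bas i γ • a i)
    (hPE : ∀ i, op ℤ (bas i) ∈ homPE Γ ℤ) :
    ∃ A : Matrix (Fin r) (Fin r) ℤ, ∀ i, op ℤ (bas i) = ∑ m, A m i • bas m := by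
  choose a ha _ using fun i => hbasU ℤ (op ℤ (bas i)) (hPE i)
  refine ⟨fun m i => a i m, fun i => ?_⟩
  refine AddMonoidHom.ext fun γ => ?_
  rw [ha i γ, AddMonoidHom.finsetSum_apply]
  refine Finset.sum_congr rfl fun m _ => ?_
  rw [AddMonoidHom.smul_apply, smul_eq_mul, smul_eq_mul, mul_comm]

include hadd hcomp in
/-- The coordinates of an eigenvector form an eigenvector of the matrix. -/
theorem mulVec_of_eig
    (hbasU : ∀ (A : Type) [AddCommGroup A] [IsAddTorsionFree A] (φ : Additive Γ →+ A),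
      φ ∈ homPE Γ A → ∃! a : Fin r → A, ∀ γ, φ γ = ∑ i, bas i γ • a i)
    (A : Matrix (Fin r) (Fin r) ℤ) (hA : ∀ i, op ℤ (bas i) = ∑ m, A m i • bas m)
    (ψ : Additive Γ →+ ℂ) (hψ : ψ ∈ homPE Γ ℂ) (c : Fin r → ℂ)
    (hc : ∀ γ, ψ γ = ∑ i, bas i γ • c i) (lam : ℂ) (hlam : ∀ γ, op ℂ ψ γ = lam * ψ γ) :
    (A.map (Int.cast : ℤ → ℂ)).mulVec c = lam • c := by
  classical
  -- `ψ = ∑ u_i ∘ bas i`
  have hψsum : ψ = ∑ i, (zmultiplesHom ℂ (c i)).comp (bas i) := by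
    refine AddMonoidHom.ext fun γ => ?_
    rw [hc γ, AddMonoidHom.finsetSum_apply]
    rfl
  have hop : ∀ γ, op ℂ ψ γ = ∑ m, bas m γ • (A.map (Int.cast : ℤ → ℂ)).mulVec c m := by
    intro γ
    rw [hψsum, op_sum op hadd, AddMonoidHom.finsetSum_apply]
    simp only [hcomp, hA, AddMonoidHom.comp_apply, AddMonoidHom.finsetSum_apply,
      AddMonoidHom.smul_apply, map_sum, zmultiplesHom_apply, Matrix.mulVec, dotProduct,
      Matrix.map_apply, Finset.smul_sum, smul_eq_mul, zsmul_eq_mul, Int.cast_mul]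
    rw [Finset.sum_comm]
    refine Finset.sum_congr rfl fun m _ => Finset.sum_congr rfl fun i _ => ?_
    ring
  have hopPE : op ℂ ψ ∈ homPE Γ ℂ := by
    refine ⟨fun γ hγ => ?_, fun γ hγ => ?_⟩
    · rw [hlam, hψ.1 γ hγ, mul_zero]
    · rw [hlam, hψ.2 γ hγ, mul_zero]
  obtain ⟨a, -, hau⟩ := hbasU ℂ (op ℂ ψ) hopPE
  have h1 := hau _ hop
  have h2 := hau (lam • c) (fun γ => by
    rw [hlam, hc γ, Finset.mul_sum]
    refine Finset.sum_congr rfl fun i _ => ?_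
    simp only [Pi.smul_apply, smul_eq_mul, zsmul_eq_mul]
    ring)
  rw [h1, h2]

include hcomp in
/-- The matrix of the operator on the reductions of the basis. -/
theorem red_of_mat (ℓ : ℕ) (A : Matrix (Fin r) (Fin r) ℤ)
    (hA : ∀ i, op ℤ (bas i) = ∑ m, A m i • bas m) (i : Fin r) :
    op (ZMod ℓ) ((Int.castAddHom (ZMod ℓ)).comp (bas i))
      = ∑ m, A m i • ((Int.castAddHom (ZMod ℓ)).comp (bas m)) := by
  rw [hcomp, hA]
  refine AddMonoidHom.ext fun γ => ?_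
  simp only [AddMonoidHom.comp_apply, AddMonoidHom.finsetSum_apply, AddMonoidHom.smul_apply,
    map_sum, map_zsmul]

end Op

/-! ## 2. Parabolic and elliptic elements -/

section PE

variable {Γ : Subgroup SL(2, ℤ)}

/-- An integer valued parabolic homomorphism is in `homPE`. -/
theorem mem_homPE_int {φ : Additive Γ →+ ℤ} (hφ : IsParabolicHom Γ φ) : φ ∈ homPE Γ ℤ := by
  refine ⟨hφ, fun γ hγ => ?_⟩
  obtain ⟨n, hn, hγn⟩ := hγ.exists_pow_eq_one
  have h1 : (n : ℤ) * φ (Additive.ofMul γ) = 0 := by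
    have h2 : φ (Additive.ofMul (γ ^ n)) = n • φ (Additive.ofMul γ) := by
      rw [ofMul_pow, map_nsmul]
    rw [hγn] at h2
    have h3 : φ (Additive.ofMul (1 : Γ)) = 0 := map_zero φ
    rw [h3] at h2
    rw [← nsmul_eq_mul]
    exact h2.symm
  rcases mul_eq_zero.mp h1 with h | h
  · exact absurd (by exact_mod_cast h) hn.ne'
  · exact h

/-- Reduction of the coefficients preserves `homPE`. -/
theorem comp_mem_homPE {A B : Type*} [AddCommGroup A] [AddCommGroup B] (u : A →+ B)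
    {φ : Additive Γ →+ A} (hφ : φ ∈ homPE Γ A) : u.comp φ ∈ homPE Γ B := by
  refine ⟨fun γ hγ => ?_, fun γ hγ => ?_⟩
  · show u (φ _) = 0
    rw [hφ.1 γ hγ, map_zero]
  · show u (φ _) = 0
    rw [hφ.2 γ hγ, map_zero]

/-- The Betti Hecke operator `TDadd` preserves parabolic homomorphisms. -/
theorem TDadd_isPar {M c : ℕ} (hc : c ∣ M) {q : ℕ} (hq : q.Prime) (hqM : ¬ q ∣ M)
    {A : Type*} [AddCommGroup A] {φ : Additive (Gam1 M c) →+ A}
    (hφ : IsParabolicHom (Gam1 M c) φ) :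
    IsParabolicHom (Gam1 M c) (TDadd M c hc hq hqM φ) := by
  haveI : Fact q.Prime := ⟨hq⟩
  intro γ hγ
  refine Fermat.Agent.Betti.H76.heckeOp_vanishes_gen (stmt_FAM_hecke M c q hc hq hqM)
    (inc_injective _)
    {γ : Gam1 M c | ((γ : SL(2, ℤ)) : Matrix (Fin 2) (Fin 2) ℤ).trace ^ 2 = 4}
    (fun γ hγ n _ i κ h => ?_) φ (fun γ hγ => hφ γ hγ) γ hγ
  exact Fermat.Agent.Betti.parabolic_stable M _ ⟨γ, Gam1_le_Gamma0 M c γ.2⟩ hγ n i
    ⟨κ, Gam1_le_Gamma0 M c κ.2⟩ h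

/-- The reductions mod `ℓ` of a universal basis are independent. -/
theorem indep_mod {r : ℕ} (bas : Fin r → (Additive Γ →+ ℤ)) (hbasPE : ∀ i, bas i ∈ homPE Γ ℤ)
    (hbasU : ∀ (A : Type) [AddCommGroup A] [IsAddTorsionFree A] (φ : Additive Γ →+ A),
      φ ∈ homPE Γ A → ∃! a : Fin r → A, ∀ γ, φ γ = ∑ i, bas i γ • a i)
    (ℓ : ℕ) (hℓ : ℓ ≠ 0) (n : Fin r → ℤ)
    (h : ∑ i, n i • ((Int.castAddHom (ZMod ℓ)).comp (bas i)) = 0) : ∀ i, (ℓ : ℤ) ∣ n i := by
  classical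
  have hℓ' : (ℓ : ℤ) ≠ 0 := by exact_mod_cast hℓ
  set f : Additive Γ →+ ℤ := ∑ i, n i • bas i with hf
  have hfPE : f ∈ homPE Γ ℤ := (homPE Γ ℤ).sum_mem fun i _ => (homPE Γ ℤ).zsmul_mem (hbasPE i) _
  have hfγ : ∀ γ, f γ = ∑ i, bas i γ • n i := by
    intro γ
    rw [hf, AddMonoidHom.finsetSum_apply]
    refine Finset.sum_congr rfl fun i _ => ?_
    rw [AddMonoidHom.smul_apply, smul_eq_mul, smul_eq_mul, mul_comm]
  have hdvd : ∀ γ, (ℓ : ℤ) ∣ f γ := by
    intro γ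
    have h1 := congrArg (fun φ : Additive Γ →+ ZMod ℓ => φ γ) h
    simp only [AddMonoidHom.finsetSum_apply, AddMonoidHom.smul_apply, AddMonoidHom.comp_apply,
      AddMonoidHom.zero_apply, Int.coe_castAddHom] at h1
    rw [← ZMod.intCast_zmod_eq_zero_iff_dvd]
    rw [hf, AddMonoidHom.finsetSum_apply]
    push_cast
    simpa [AddMonoidHom.smul_apply] using h1
  let g : Additive Γ →+ ℤ :=
    { toFun := fun γ => f γ / ℓ
      map_zero' := by simp
      map_add' := fun x y => by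
        show f (x + y) / ℓ = f x / ℓ + f y / ℓ
        rw [map_add, Int.add_ediv_of_dvd_left (hdvd x)] }
  have hgγ : ∀ γ, f γ = ℓ * g γ := fun γ => (Int.mul_ediv_cancel' (hdvd γ)).symm
  have hgPE : g ∈ homPE Γ ℤ := by
    refine ⟨fun γ hγ => ?_, fun γ hγ => ?_⟩
    · show f _ / (ℓ : ℤ) = 0
      rw [hfPE.1 γ hγ, Int.zero_ediv]
    · show f _ / (ℓ : ℤ) = 0
      rw [hfPE.2 γ hγ, Int.zero_ediv]
  obtain ⟨a, ha, -⟩ := hbasU ℤ g hgPE
  obtain ⟨a', -, ha'u⟩ := hbasU ℤ f hfPE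
  have h1 := ha'u n hfγ
  have h2 := ha'u (fun i => ℓ * a i) (fun γ => by
    rw [hgγ γ, ha γ, Finset.mul_sum]
    refine Finset.sum_congr rfl fun i _ => ?_
    simp only [smul_eq_mul]
    ring)
  intro i
  have h3 : n i = ℓ * a i := by
    have := congrFun (h1.trans h2.symm) i
    exact this
  exact ⟨a i, h3⟩

end PE

/-! ## 3. The assembly -/

section Final

/-- The value of `χ` at the lower right entry of `g ∈ Γ₀(M)` with upper left entry `d`. -/
theorem chi_lower {M : ℕ} [NeZero M] (χ : DirichletCharacter ℂ M) (d : (ZMod M)ˣ) (g : SL(2, ℤ))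
    (hg : (M : ℤ) ∣ g 1 0) (hgd : ((g 0 0 : ℤ) : ZMod M) = (d : ZMod M)) :
    χ (((g 1 1 : ℤ) : ZMod M)) = ((χ (d : ZMod M) : ℂ)) ^ (-1 : ℤ) := by
  have hdet := sl_det g
  have h0 : ((g 1 0 : ℤ) : ZMod M) = 0 := (ZMod.intCast_zmod_eq_zero_iff_dvd _ _).mpr hg
  have h1 := congrArg (fun z : ℤ => (z : ZMod M)) hdet
  simp only [Int.cast_sub, Int.cast_mul, Int.cast_one, h0, mul_zero, sub_zero, hgd] at h1
  have h2 : χ (d : ZMod M) * χ (((g 1 1 : ℤ) : ZMod M)) = 1 := by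
    rw [← map_mul, h1, map_one]
  rw [zpow_neg_one]
  exact eq_inv_of_mul_eq_one_right h2

/-- **T-ASM**: slice T from the existence of torsion points. -/
theorem eigBot_of (hExist : Stmt_Exist1) : Fermat.Agent.S48.B2.Stmt_EigBot (-1) (-1) := by
  intro M _ χ G b hM2 hG hneb ℓ hℓ h5 hℓφ k _ _ _ φ dd
  classical
  haveI : NeZero ℓ := ⟨hℓ.ne_zero⟩
  -- an embedding `ℚ̄ → ℂ`
  have halg : Algebra.IsAlgebraic ℚ (AlgebraicClosure ℚ) := AlgebraicClosure.isAlgebraic ℚ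
  obtain ⟨ι⟩ : Nonempty (Kbar →+* ℂ) :=
    ⟨((IsAlgClosed.lift : AlgebraicClosure ℚ →ₐ[ℚ] ℂ) : AlgebraicClosure ℚ →+* ℂ)⟩
  -- the leaves
  obtain ⟨d1, d2, d3, d4, d5, d6, d7⟩ := H98.stmt_Dict M hM2 ℓ hℓ.ne_zero ι
  obtain ⟨r', bas, hbasPE, hbasU⟩ := H43.stmt_Basis1 M
  obtain ⟨ψ, hψ0, hψPE, hψT, hψD⟩ := H55.stmt_Period1 M χ G b hM2 hG hneb
  obtain ⟨c, hc, -⟩ := hbasU ℂ ψ hψPE
  have hc0 : c ≠ 0 := by
    rintro rfl
    apply hψ0
    refine AddMonoidHom.ext fun γ => ?_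
    rw [hc γ]; simp
  -- the operators
  let I := {q : ℕ // q.Prime ∧ ¬ q ∣ M} ⊕ {g : SL(2, ℤ) // (M : ℤ) ∣ g 1 0}
  let op : I → ∀ (A : Type) [AddCommGroup A],
      (Additive (Gam1 M M) →+ A) → (Additive (Gam1 M M) →+ A) :=
    fun i => match i with
      | Sum.inl q => fun A _ φ => TDadd M M dvd_rfl q.2.1 q.2.2 φ
      | Sum.inr g => fun A _ φ => Dadd dvd_rfl g.1 g.2 φ
  have hadd : ∀ (i : I) (A : Type) [AddCommGroup A] (φ ψ : Additive (Gam1 M M) →+ A),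
      op i A (φ + ψ) = op i A φ + op i A ψ := by
    rintro (q | g) A _ φ ψ
    · haveI : Fact q.1.Prime := ⟨q.2.1⟩
      exact IsHeckeFamily.heckeOp_add _ _ φ ψ
    · rfl
  have hcomp : ∀ (i : I) (A B : Type) [AddCommGroup A] [AddCommGroup B] (u : A →+ B)
      (φ : Additive (Gam1 M M) →+ A), op i B (u.comp φ) = u.comp (op i A φ) := by
    rintro (q | g) A B _ _ u φ
    · haveI : Fact q.1.Prime := ⟨q.2.1⟩
      exact IsHeckeFamily.heckeOp_comp _ _ u φ
    · rfl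
  have hPEop : ∀ (i : I) (j : Fin r'), op i ℤ (bas j) ∈ homPE (Gam1 M M) ℤ := by
    rintro (q | g) j
    · exact mem_homPE_int (TDadd_isPar dvd_rfl q.2.1 q.2.2 (hbasPE j).1)
    · exact mem_homPE_int (isPar_tw _ (hbasPE j).1)
  choose A hA using fun i => exists_mat bas (op i) hbasU (hPEop i)
  let lam : I → ℂ := fun i => match i with
      | Sum.inl q => b q.1 * ((χ (q.1 : ZMod M) : ℂ)) ^ (-1 : ℤ)
      | Sum.inr g => χ (((g.1 1 1 : ℤ) : ZMod M))
  have heig : ∀ i, ((A i).map (Int.cast : ℤ → ℂ)).mulVec c = lam i • c := by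
    intro i
    refine mulVec_of_eig bas (op i) (hadd i) (hcomp i) hbasU (A i) (hA i) ψ hψPE c hc (lam i) ?_
    rcases i with q | g
    · exact fun γ => hψT q.1 q.2.1 q.2.2 γ
    · exact fun γ => hψD g.1 g.2 γ
  obtain ⟨-, w, hw0, hw⟩ := H43.eigRed A lam c hc0 heig φ
  -- the points
  let β : Fin r' → (Additive (Gam1 M M) →+ ZMod ℓ) :=
    fun i => (Int.castAddHom (ZMod ℓ)).comp (bas i)
  have hβPE : ∀ i, β i ∈ homPE (Gam1 M M) (ZMod ℓ) := fun i => comp_mem_homPE _ (hbasPE i)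
  choose pts hpts using fun i => hExist M hM2 ℓ hℓ h5 hℓφ ι (β i) (hβPE i)
  -- finiteness of the group of characters
  haveI := H43.groupFG_gam1' M M
  haveI : Finite (Additive (Gam1 M M) →+ ZMod ℓ) :=
    Fermat.Agent.GTor.H56.finite_addMonoidHom_of_fg _ _
  obtain ⟨r, θ, v, hv, hmain⟩ := asm_core ℓ hℓ (TorChar1 M M ⊥ ℓ ι)
    (fun x hx => (d1 x hx).imp fun φ h => h.2) d2 d3 d4 d5 β pts hpts
    (indep_mod bas hbasPE hbasU ℓ hℓ.ne_zero) k w hw0
  refine ⟨r, θ, v, hv, ?_, ?_⟩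
  · intro q _ hβq hq hqMℓ X hX t ht
    have hqM : ¬ q ∣ M := fun h => hqMℓ (Dvd.dvd.mul_right h ℓ)
    refine hmain (fun x => TH hβq x) (op (Sum.inl ⟨q, hq, hqM⟩) (ZMod ℓ))
      (A (Sum.inl ⟨q, hq, hqM⟩)) (φ t) ?_ ?_ ?_ X hX
    · intro x φ' h
      exact d6 q hq hqM hβq x φ' h
    · intro i
      exact red_of_mat bas (op (Sum.inl ⟨q, hq, hqM⟩)) (hcomp (Sum.inl ⟨q, hq, hqM⟩)) ℓ
        (A (Sum.inl ⟨q, hq, hqM⟩)) (hA (Sum.inl ⟨q, hq, hqM⟩)) i
    · exact hw (Sum.inl ⟨q, hq, hqM⟩) t ht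
  · intro d X hX t ht
    obtain ⟨g, hg, hgd⟩ := Fermat.Agent.NEB.EIG.H39.exists_gam0 (NeZero.ne M) (dvd_refl M) d
    refine hmain (fun x => dd.ρ d • x) (op (Sum.inr ⟨g, hg⟩) (ZMod ℓ))
      (A (Sum.inr ⟨g, hg⟩)) (φ t) ?_ ?_ ?_ X hX
    · intro x φ' h
      exact d7 dd d g hg hgd.symm x φ' h
    · intro i
      exact red_of_mat bas (op (Sum.inr ⟨g, hg⟩)) (hcomp (Sum.inr ⟨g, hg⟩)) ℓ
        (A (Sum.inr ⟨g, hg⟩)) (hA (Sum.inr ⟨g, hg⟩)) i
    · refine hw (Sum.inr ⟨g, hg⟩) t ?_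
      rw [ht]
      exact (chi_lower χ d g hg hgd.symm).symm

end Final

end Fermat.Agent.S48.B2.T.H01

end
end
-- ==== END Fermat.Agent.S48.B2.T.H01_Asm

-- ==== BEGIN Fermat.Agent.S48.H43_Final
section

/-!
# S48: everything that is proved, in one statement (helper43)

`s48_of_eis1_tatePiece : B1.Stmt_Eis1 → B2.Stmt_TatePieceH' → (the frozen statement of S48)`.

Proved inputs: `Int.H55.stmt_Int` (A), `B1.H55.stmt_EisLiftNeb_of_eis1` (B1 modulo Eis1),
`B.H46.stmt_SmallPieceL` (B3), `B.H22.stmt_DirCharL` (B4), `Asm.stmt_ChebSet`.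
-/

set_option autoImplicit false

open CongruenceSubgroup
open scoped MatrixGroups

namespace Fermat.Agent.S48.H43

local notation "Γℚ" => (AlgebraicClosure ℚ ≃ₐ[ℚ] AlgebraicClosure ℚ)

/-- `Stmt_ResRep` from the two open inputs. -/
theorem resRep_of_eis1_tatePiece (hE : Fermat.Agent.S48.B1.Stmt_Eis1)
    (hT : Fermat.Agent.S48.B2.Stmt_TatePieceH') : Fermat.Agent.S48.Stmt_ResRep :=
  Fermat.Agent.S48.B.H43.resRep_of' (Fermat.Agent.S48.B1.H55.stmt_EisLiftNeb_of_eis1 hE) hT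
    Fermat.Agent.S48.B.H46.stmt_SmallPieceL Fermat.Agent.S48.B.H22.stmt_DirCharL
    Fermat.Agent.S48.Asm.stmt_ChebSet

/-- **S48 from `Eis1` and `TatePieceH'`.** -/
theorem s48_of_eis1_tatePiece (hE : Fermat.Agent.S48.B1.Stmt_Eis1)
    (hTP : Fermat.Agent.S48.B2.Stmt_TatePieceH')
    (N : ℕ) [NeZero N] (ε : DirichletCharacter ℂ N) (f : CuspForm (Gamma1 N) 1)
    (hf₁ : ModularFormClass.qCoeff f 1 = 1)
    (hT : ∀ p : ℕ, p.Prime → ¬ p ∣ N → ∀ n : ℕ,
        ModularFormClass.qCoeff f (p * n) +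
            ε (p : ZMod N) * (if p ∣ n then ModularFormClass.qCoeff f (n / p) else 0) =
          ModularFormClass.qCoeff f p * ModularFormClass.qCoeff f n) :
    ∃ ρ : Γℚ →* GL (Fin 2) ℂ, GaloisFactorsThroughFiniteLevel ρ ∧
      (Deformation.matrixRepresentation ρ).IsIrreducible ∧
      ∀ p : ℕ, p.Prime → ¬ p ∣ N →
        ∀ A : ValuationSubring (AlgebraicClosure ℚ), A.LiesOverPrime p →
          (∀ σ ∈ A.inertiaSubgroupIn ℚ, ρ σ = 1) ∧
          ∀ σ : Γℚ, A.IsFrobeniusAt σ p →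
            ((ρ σ : GL (Fin 2) ℂ) : Matrix (Fin 2) (Fin 2) ℂ).trace = ModularFormClass.qCoeff f p ∧
            ((ρ σ : GL (Fin 2) ℂ) : Matrix (Fin 2) (Fin 2) ℂ).det = ε (p : ZMod N) :=
  Fermat.Agent.S48.Asm.S48_of_int_resRep Fermat.Agent.S48.Int.H55.stmt_Int
    (resRep_of_eis1_tatePiece hE hTP) N ε f hf₁ hT

/-- `Stmt_ResRep` from `TatePieceH'` alone (`Eis1` is proved: helper22). -/
theorem resRep_of_tatePiece (hT : Fermat.Agent.S48.B2.Stmt_TatePieceH') :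
    Fermat.Agent.S48.Stmt_ResRep :=
  resRep_of_eis1_tatePiece Fermat.Agent.S48.B1.H22.stmt_Eis1 hT

/-- **S48 from `TatePieceH'` alone.** -/
theorem s48_of_tatePiece (hTP : Fermat.Agent.S48.B2.Stmt_TatePieceH')
    (N : ℕ) [NeZero N] (ε : DirichletCharacter ℂ N) (f : CuspForm (Gamma1 N) 1)
    (hf₁ : ModularFormClass.qCoeff f 1 = 1)
    (hT : ∀ p : ℕ, p.Prime → ¬ p ∣ N → ∀ n : ℕ,
        ModularFormClass.qCoeff f (p * n) +
            ε (p : ZMod N) * (if p ∣ n then ModularFormClass.qCoeff f (n / p) else 0) =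
          ModularFormClass.qCoeff f p * ModularFormClass.qCoeff f n) :
    ∃ ρ : Γℚ →* GL (Fin 2) ℂ, GaloisFactorsThroughFiniteLevel ρ ∧
      (Deformation.matrixRepresentation ρ).IsIrreducible ∧
      ∀ p : ℕ, p.Prime → ¬ p ∣ N →
        ∀ A : ValuationSubring (AlgebraicClosure ℚ), A.LiesOverPrime p →
          (∀ σ ∈ A.inertiaSubgroupIn ℚ, ρ σ = 1) ∧
          ∀ σ : Γℚ, A.IsFrobeniusAt σ p →
            ((ρ σ : GL (Fin 2) ℂ) : Matrix (Fin 2) (Fin 2) ℂ).trace = ModularFormClass.qCoeff f p ∧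
            ((ρ σ : GL (Fin 2) ℂ) : Matrix (Fin 2) (Fin 2) ℂ).det = ε (p : ZMod N) :=
  s48_of_eis1_tatePiece Fermat.Agent.S48.B1.H22.stmt_Eis1 hTP N ε f hf₁ hT

/-- `TatePieceH'` from the two open slices T (`Stmt_EigH`) and R (`Stmt_TorsUnramH`,
`Stmt_TorsESH`); G (helper19), ASM (helper55), B4 (helper22) are proved. -/
theorem tatePiece_of_slices (s s' : ℤ) (h : s' = 2 * s + 1)
    (hEig : Fermat.Agent.S48.B2.Stmt_EigH s s') (hUnr : Fermat.Agent.S48.B2.Stmt_TorsUnramH)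
    (hES : Fermat.Agent.S48.B2.Stmt_TorsESH) : Fermat.Agent.S48.B2.Stmt_TatePieceH' :=
  Fermat.Agent.S48.B2.H55.asm s s' h hEig hUnr hES Fermat.Agent.S48.B2.H19.stmt_GALH
    Fermat.Agent.S48.B.H22.stmt_DirCharL

/-- **S48 from the slices T and R.** -/
theorem s48_of_slices (s s' : ℤ) (h : s' = 2 * s + 1)
    (hEig : Fermat.Agent.S48.B2.Stmt_EigH s s') (hUnr : Fermat.Agent.S48.B2.Stmt_TorsUnramH)
    (hES : Fermat.Agent.S48.B2.Stmt_TorsESH)
    (N : ℕ) [NeZero N] (ε : DirichletCharacter ℂ N) (f : CuspForm (Gamma1 N) 1)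
    (hf₁ : ModularFormClass.qCoeff f 1 = 1)
    (hT : ∀ p : ℕ, p.Prime → ¬ p ∣ N → ∀ n : ℕ,
        ModularFormClass.qCoeff f (p * n) +
            ε (p : ZMod N) * (if p ∣ n then ModularFormClass.qCoeff f (n / p) else 0) =
          ModularFormClass.qCoeff f p * ModularFormClass.qCoeff f n) :
    ∃ ρ : Γℚ →* GL (Fin 2) ℂ, GaloisFactorsThroughFiniteLevel ρ ∧
      (Deformation.matrixRepresentation ρ).IsIrreducible ∧
      ∀ p : ℕ, p.Prime → ¬ p ∣ N →
        ∀ A : ValuationSubring (AlgebraicClosure ℚ), A.LiesOverPrime p →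
          (∀ σ ∈ A.inertiaSubgroupIn ℚ, ρ σ = 1) ∧
          ∀ σ : Γℚ, A.IsFrobeniusAt σ p →
            ((ρ σ : GL (Fin 2) ℂ) : Matrix (Fin 2) (Fin 2) ℂ).trace = ModularFormClass.qCoeff f p ∧
            ((ρ σ : GL (Fin 2) ℂ) : Matrix (Fin 2) (Fin 2) ℂ).det = ε (p : ZMod N) :=
  s48_of_tatePiece (tatePiece_of_slices s s' h hEig hUnr hES) N ε f hf₁ hT

/-- `TatePieceH'` from slice T in the form `Stmt_EigBot` (`H = ⊥`, the form helper1 proves) and
slice R. -/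
theorem tatePiece_of_slices_bot (s s' : ℤ) (h : s' = 2 * s + 1)
    (hEig : Fermat.Agent.S48.B2.Stmt_EigBot s s') (hUnr : Fermat.Agent.S48.B2.Stmt_TorsUnramH)
    (hES : Fermat.Agent.S48.B2.Stmt_TorsESH) : Fermat.Agent.S48.B2.Stmt_TatePieceH' :=
  Fermat.Agent.S48.B2.H55.asm_bot s s' h hEig hUnr hES Fermat.Agent.S48.B2.H19.stmt_GALH
    Fermat.Agent.S48.B.H22.stmt_DirCharL

/-- **S48 from the slices T (`H = ⊥`) and R.** -/
theorem s48_of_slices_bot (s s' : ℤ) (h : s' = 2 * s + 1)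
    (hEig : Fermat.Agent.S48.B2.Stmt_EigBot s s') (hUnr : Fermat.Agent.S48.B2.Stmt_TorsUnramH)
    (hES : Fermat.Agent.S48.B2.Stmt_TorsESH)
    (N : ℕ) [NeZero N] (ε : DirichletCharacter ℂ N) (f : CuspForm (Gamma1 N) 1)
    (hf₁ : ModularFormClass.qCoeff f 1 = 1)
    (hT : ∀ p : ℕ, p.Prime → ¬ p ∣ N → ∀ n : ℕ,
        ModularFormClass.qCoeff f (p * n) +
            ε (p : ZMod N) * (if p ∣ n then ModularFormClass.qCoeff f (n / p) else 0) =
          ModularFormClass.qCoeff f p * ModularFormClass.qCoeff f n) :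
    ∃ ρ : Γℚ →* GL (Fin 2) ℂ, GaloisFactorsThroughFiniteLevel ρ ∧
      (Deformation.matrixRepresentation ρ).IsIrreducible ∧
      ∀ p : ℕ, p.Prime → ¬ p ∣ N →
        ∀ A : ValuationSubring (AlgebraicClosure ℚ), A.LiesOverPrime p →
          (∀ σ ∈ A.inertiaSubgroupIn ℚ, ρ σ = 1) ∧
          ∀ σ : Γℚ, A.IsFrobeniusAt σ p →
            ((ρ σ : GL (Fin 2) ℂ) : Matrix (Fin 2) (Fin 2) ℂ).trace = ModularFormClass.qCoeff f p ∧
            ((ρ σ : GL (Fin 2) ℂ) : Matrix (Fin 2) (Fin 2) ℂ).det = ε (p : ZMod N) :=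
  s48_of_tatePiece (tatePiece_of_slices_bot s s' h hEig hUnr hES) N ε f hf₁ hT

end Fermat.Agent.S48.H43

end
-- ==== END Fermat.Agent.S48.H43_Final

-- ==== BEGIN Fermat.Agent.S48.B2.T.H01_Final
section

/-!
# S48 / B2 / slice T: the slice from its remaining leaves (helper1)

* `eigBot_of_leaves : Stmt_A5C → Stmt_FinC → B2.Stmt_EigBot (-1) (-1)`;
* `eigBot_of_A5C : Stmt_A5C → B2.Stmt_EigBot (-1) (-1)` (with helper46's `stmt_FinC_of`).
-/

set_option autoImplicit false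

namespace Fermat.Agent.S48.B2.T.H01

/-- Slice T from `E-A5C` and `E-FIN`. -/
theorem eigBot_of_leaves (hA5 : Stmt_A5C) (hFin : Stmt_FinC) :
    Fermat.Agent.S48.B2.Stmt_EigBot (-1) (-1) :=
  eigBot_of (H43.exist1_of H22.stmt_EisTw H25.stmt_A1C (H34.stmt_UnrC_of hA5) hFin)

/-- Slice T from `E-A5C` alone. -/
theorem eigBot_of_A5C (hA5 : Stmt_A5C) : Fermat.Agent.S48.B2.Stmt_EigBot (-1) (-1) :=
  eigBot_of_leaves hA5 (H46.stmt_FinC_of H25.stmt_A1C H98.stmt_OrdC)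

end Fermat.Agent.S48.B2.T.H01

end
-- ==== END Fermat.Agent.S48.B2.T.H01_Final

-- ==== BEGIN Fermat.Agent.S48.B2.T.H01_EigBot
section

/-!
# S48 / B2 / slice T: DONE (helper1 + helpers 22, 25, 34, 43, 46, 55, 96, 98)

`stmt_EigBot : B2.Stmt_EigBot (-1) (-1)`, unconditional: the eigensystem of a weight two
eigenvector with nebentypus occurs in `J_H[ℓ] ⊗ k` (`H = ⊥`, `ℓ ≥ 5`, `ℓ ∤ φ(M)`).
-/

set_option autoImplicit false

namespace Fermat.Agent.S48.B2.T.H01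

/-- **Slice T.** -/
theorem stmt_EigBot : Fermat.Agent.S48.B2.Stmt_EigBot (-1) (-1) :=
  eigBot_of_A5C H96.stmt_A5C

end Fermat.Agent.S48.B2.T.H01

end
-- ==== END Fermat.Agent.S48.B2.T.H01_EigBot
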