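-- GENERATED (merged mirror, NOTES/tools/trim/merge3_helper67.py): 17 modules of the originals, bodies verbatim.
import Mathlib
import Fermat.Prelude.Def_AlgebraicCurve_BaseChangeGalois
import Mathlib.FieldTheory.Galois.Profinite
import Fermat.Prelude.Def_WeierstrassCurve_PeuRamifiee
import Fermat.Agent.Zm.S35_L13_002
import Fermat.Agent.Zm.S35_L05_001
import Fermat.Agent.Zm.S35_L10_003
import Fermat.Agent.Zm.S35_L07_001
import Fermat.Agent.Zm.S35_L09_001
import Fermat.Agent.Zm.S35_L03_002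
import Fermat.Agent.RED.H17_Red
import Fermat.Agent.Zm.S56_L03_005
import Fermat.Agent.Zm.S56_L07_005
import Fermat.Agent.Zm.S33_L01_002
import Fermat.Agent.Zm.S44_L07_000
import Fermat.Agent.Zm.S44_L06_001
import Fermat.Agent.Zm.S48_L17_000
import Fermat.Agent.Zm.S48_L13_000
import Fermat.Agent.Zm.S48_L07_000
import Fermat.Agent.Zm.S35_L02_001
import Fermat.Agent.Zm.S35_L06_001
import Fermat.Agent.Zm.S48_L04_000

-- ==== BEGIN Fermat.Agent.L.Pivot.Geom.H50_PushGal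
section

/-!
# PIVOT, PV-GEOM part II, leaf PVG-N2 (helper50): the degeneracy push-forwards are defined over `ℚ`

* `alphaPush_smul`, `betaPush_smul` : `α_* (σ • x) = σ • α_* x`, `β_* (σ • x) = σ • β_* x` for
  `σ ∈ G_ℚ`, `x ∈ J₀(M q)`.
-/

set_option autoImplicit false
set_option linter.unusedSectionVars false
set_option linter.style.haveILetI false

noncomputable section

namespace Fermat.Agent.L.Pivot.Geom.H50

open AlgebraicCurve AlgebraicCurve.SemilinearAut ModularCurve Fermat.Agent.S36.H44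
  Fermat.Agent.GTor.H2

local notation "Kb" => AlgebraicClosure ℚ

section Generic

variable {K F F' : Type*} [Field K] [Field F] [Field F'] [Algebra K F] [Algebra K F']
variable (g : SemilinearAut K F) (g' : SemilinearAut K F')
variable (φ : F →ₐ[K] F') (hφ : φ.toRingHom.IsIntegral)
variable (hfin : FiniteAlong K φ) (hN : NormFormulaAlong K φ hfin)

/-- the push-forward on `Pic⁰` is equivariant. -/
theorem pic0Push_smul (h : IntertwinesAlong (φ : F →+* F') g g') (x : Pic0 K F') :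
    pic0Push φ hφ hfin hN (g' • x) = g • pic0Push φ hφ hfin hN x := by
  obtain ⟨D, rfl⟩ := Pic0.mk_surjective x
  rw [pic0_smul_mk, pic0Push_mk, pic0Push_mk, pic0_smul_mk]
  refine congrArg Pic0.mk (Subtype.ext ?_)
  rw [coe_degZeroPush, coe_degZeroSMulHom, coe_degZeroSMulHom, coe_degZeroPush]
  exact pushforwardAlong_smul g g' φ hφ h D

end Generic

variable (M q : ℕ) [NeZero M] [NeZero q]

/-- **`α_*` commutes with the Galois action.** -/
theorem alphaPush_smul (σ : Kb ≃ₐ[ℚ] Kb) (x : JZero (M * q)) :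
    alphaPush M q (σ • x) = σ • alphaPush M q x := by
  rw [galois_smul_pic0_def, galois_smul_pic0_def]
  exact pic0Push_smul _ _ _ _ _ _ (intertwines_heckeAlphaBar M q σ) x

/-- **`β_*` commutes with the Galois action.** -/
theorem betaPush_smul (σ : Kb ≃ₐ[ℚ] Kb) (x : JZero (M * q)) :
    betaPush M q (σ • x) = σ • betaPush M q x := by
  rw [galois_smul_pic0_def, galois_smul_pic0_def]
  exact pic0Push_smul _ _ _ _ _ _ (intertwines_heckeBetaBar M q σ) x

end Fermat.Agent.L.Pivot.Geom.H50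

end
end
-- ==== END Fermat.Agent.L.Pivot.Geom.H50_PushGal

-- ==== BEGIN Fermat.Agent.L.Pivot.H3_End
section

set_option autoImplicit false

namespace Fermat.Agent.L.Pivot.H3

open Ideal

section dim

variable {S B : Type*} [CommRing S] [CommRing B] [Algebra S B]

/-- An integral extension with injective structure map has at least the Krull dimension of the
base. -/
theorem ringKrullDim_le_of_isIntegral_of_injective [Algebra.IsIntegral S B]
    (hinj : Function.Injective (algebraMap S B)) : ringKrullDim S ≤ ringKrullDim B := by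
  unfold ringKrullDim Order.krullDim
  refine iSup_le fun l => ?_
  have hker : (⊥ : Ideal B).comap (algebraMap S B) ≤ l.head.asIdeal := by
    have : (⊥ : Ideal B).comap (algebraMap S B) = ⊥ := by
      rw [← RingHom.ker_eq_comap_bot]
      exact (RingHom.injective_iff_ker_eq_bot _).1 hinj
    rw [this]; exact bot_le
  obtain ⟨Q, -, hQ, hQl⟩ := Ideal.exists_ideal_over_prime_of_isIntegral l.head.asIdeal ⊥ hker
  have : Q.IsPrime := hQ
  have : Q.LiesOver l.head.asIdeal := ⟨hQl.symm⟩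
  obtain ⟨L, hL, -, -⟩ := Ideal.exists_ltSeries_of_hasGoingUp l Q
  rw [← hL]
  exact le_iSup (fun p : LTSeries (PrimeSpectrum B) => (p.length : WithBot ℕ∞)) L

end dim

section quot

variable {S P M : Type*} [CommRing S] [CommRing P] [Algebra S P]
  [AddCommGroup M] [Module S M] [Module P M] [IsScalarTower S P M]

/-- If `M` is a finite `S`-module and the ideal `I` of `P` contains the annihilator of `M`, then
`P ⧸ I` is integral over `S` (Cayley-Hamilton). -/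
theorem isIntegral_quotient_annihilator [Module.Finite S M] (I : Ideal P)
    (hI : Module.annihilator P M ≤ I) : Algebra.IsIntegral S (P ⧸ I) := by
  refine ⟨fun b => ?_⟩
  obtain ⟨x, rfl⟩ := Ideal.Quotient.mk_surjective b
  obtain ⟨p, hp, hpx⟩ := (Algebra.IsIntegral.isIntegral (R := S)
    ((Algebra.lsmul S S M : P →ₐ[S] Module.End S M) x))
  refine ⟨p, hp, ?_⟩
  have h1 : Polynomial.aeval x p ∈ Module.annihilator P M := by
    rw [Module.mem_annihilator]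
    intro m
    have := congrArg (fun f : Module.End S M => f m) hpx
    simp only [← Polynomial.aeval_def, Polynomial.aeval_algHom_apply] at this
    simpa using this
  have h2 : (Ideal.Quotient.mk I) (Polynomial.aeval x p) = 0 :=
    Ideal.Quotient.eq_zero_iff_mem.2 (hI h1)
  rw [← Polynomial.aeval_def]
  have h3 : Polynomial.aeval ((Ideal.Quotient.mkₐ S I) x) p
      = (Ideal.Quotient.mkₐ S I) (Polynomial.aeval x p) :=
    Polynomial.aeval_algHom_apply (Ideal.Quotient.mkₐ S I) x p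
  have h4 : Polynomial.aeval ((Ideal.Quotient.mk I) x) p
      = (Ideal.Quotient.mk I) (Polynomial.aeval x p) := h3
  rw [h4, h2]

/-- If `M ≠ 0` is `S`-torsion-free and `I` kills `M`, then `S → P ⧸ I` is injective. -/
theorem injective_algebraMap_quotient [Nontrivial M]
    (htf : ∀ (s : S) (m : M), s • m = 0 → s = 0 ∨ m = 0)
    (I : Ideal P) (hI : I ≤ Module.annihilator P M) :
    Function.Injective (algebraMap S (P ⧸ I)) := by
  rw [injective_iff_map_eq_zero]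
  intro s hs
  have h1 : algebraMap S P s ∈ I := by
    apply Ideal.Quotient.eq_zero_iff_mem.1
    rw [IsScalarTower.algebraMap_apply S P (P ⧸ I)] at hs
    exact hs
  have h2 := Module.mem_annihilator.1 (hI h1)
  obtain ⟨m, hm⟩ := exists_ne (0 : M)
  have h3 := h2 m
  rw [algebraMap_smul] at h3
  exact (htf s m h3).resolve_right hm

end quot

section main

variable {S P : Type*} [CommRing S] [CommRing P] [Algebra S P]

/-- A helper on `WithBot ℕ∞`. -/
theorem dim_absurd {b c : WithBot ℕ∞} {d : ℕ} (h1 : (d : WithBot ℕ∞) ≤ b) (h2 : b + 1 ≤ c)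
    (h3 : c ≤ d) : False := by
  have h4 : ((d : ℕ) : WithBot ℕ∞) + 1 ≤ d := (add_le_add_left h1 1).trans (h2.trans h3)
  have h5 : (((d + 1 : ℕ) : ℕ∞) : WithBot ℕ∞) ≤ ((d : ℕ∞) : WithBot ℕ∞) := by
    simpa using h4
  have h6 : ((d + 1 : ℕ) : ℕ∞) ≤ (d : ℕ∞) := WithBot.coe_le_coe.1 h5
  have h7 : d + 1 ≤ d := by exact_mod_cast h6
  omega

/-- **Faithfulness from dimension.**  A nonzero torsion-free finite `S`-module `M` with a
compatible action of `P`, killed by a prime `𝔞` with `dim P/𝔞 ≤ d ≤ dim S`, has annihilator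
exactly `𝔞`. -/
theorem annihilator_le_of_dim {M : Type*} [AddCommGroup M] [Module S M] [Module P M]
    [IsScalarTower S P M] [Module.Finite S M] [Nontrivial M]
    (htf : ∀ (s : S) (m : M), s • m = 0 → s = 0 ∨ m = 0)
    (d : ℕ) (hd : (d : WithBot ℕ∞) ≤ ringKrullDim S)
    (𝔞 : Ideal P) [𝔞.IsPrime] (h𝔞 : 𝔞 ≤ Module.annihilator P M)
    (hdim : ringKrullDim (P ⧸ 𝔞) ≤ d) :
    Module.annihilator P M ≤ 𝔞 := by
  by_contra hne
  obtain ⟨x, hxI, hx𝔞⟩ := SetLike.not_le_iff_exists.1 hne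
  have hint : Algebra.IsIntegral S (P ⧸ Module.annihilator P M) :=
    isIntegral_quotient_annihilator (S := S) (M := M) _ le_rfl
  have hinj := injective_algebraMap_quotient (S := S) (P := P) (M := M) htf
    (Module.annihilator P M) le_rfl
  have h1 : ringKrullDim S ≤ ringKrullDim (P ⧸ Module.annihilator P M) :=
    ringKrullDim_le_of_isIntegral_of_injective hinj
  have h2 : ringKrullDim (P ⧸ Module.annihilator P M) + 1 ≤ ringKrullDim (P ⧸ 𝔞) := by
    refine ringKrullDim_succ_le_of_surjective (Ideal.Quotient.factor h𝔞)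
      (Ideal.Quotient.factor_surjective h𝔞) (r := Ideal.Quotient.mk 𝔞 x) ?_ ?_
    · apply mem_nonZeroDivisors_of_ne_zero
      rwa [Ne, Ideal.Quotient.eq_zero_iff_mem]
    · rw [Ideal.Quotient.factor_mk]
      exact Ideal.Quotient.eq_zero_iff_mem.2 hxI
  exact dim_absurd (hd.trans h1) h2 hdim

/-- A minimal prime over the annihilator of a torsion-free module lies over `0`. -/
theorem comap_eq_bot_of_mem_minimalPrimes {M : Type*} [AddCommGroup M] [Module S M] [Module P M]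
    [IsScalarTower S P M]
    (htf : ∀ (s : S) (m : M), s • m = 0 → s = 0 ∨ m = 0)
    {𝔭 : Ideal P} (h𝔭 : 𝔭 ∈ (Module.annihilator P M).minimalPrimes) :
    𝔭.comap (algebraMap S P) = ⊥ := by
  rw [eq_bot_iff]
  intro s hs
  rw [Ideal.mem_comap] at hs
  rw [Ideal.mem_bot]
  by_contra hs0
  rw [Ideal.minimalPrimes_eq_comap] at h𝔭
  obtain ⟨𝔭', h𝔭', rfl⟩ := h𝔭
  have hmem : Ideal.Quotient.mk (Module.annihilator P M) (algebraMap S P s) ∈ 𝔭' := hs
  have hnzd : Ideal.Quotient.mk (Module.annihilator P M) (algebraMap S P s) ∈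
      nonZeroDivisors (P ⧸ Module.annihilator P M) := by
    rw [mem_nonZeroDivisors_iff_right]
    intro b hb
    obtain ⟨x, rfl⟩ := Ideal.Quotient.mk_surjective b
    rw [← map_mul, Ideal.Quotient.eq_zero_iff_mem, Module.mem_annihilator] at hb
    rw [Ideal.Quotient.eq_zero_iff_mem, Module.mem_annihilator]
    intro m
    have h1 := hb m
    rw [mul_smul, smul_comm, algebraMap_smul] at h1
    exact (htf s _ h1).resolve_left hs0
  exact Set.disjoint_left.1 (Ideal.disjoint_nonZeroDivisors_of_mem_minimalPrimes h𝔭') hmem hnzd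

/-- **PV-END: the endgame of Ihara avoidance.**

`S` : the ring of Taylor-Wiles variables (a domain of dimension `≥ d`), `𝔰` a prime of `S`
(the augmentation ideal), `P` : the ring acting (local lifting ring at the pivot prime with extra
variables), `Mχ`, `M₁` : the patched modules of type `χ` and of type `1`, finite and torsion-free
over `S`; `𝔞` : the (prime) kernel of `P → ` type-`χ` ring, of dimension `≤ d`;
`hcomp` : the comparison of `Mχ` and `M₁` modulo `π`;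
`𝔵` : the unramified component, `𝔮` a point of its special fibre lying in the special fibre of
the type-`χ` ring; `hdich` : near `𝔮` the support of `M₁` lies on the unramified component.

Conclusion: a prime `𝔯` in the support of `M₁`, on the unramified component, lying over `𝔰`. -/
theorem pivot_endgame
    {Mχ M₁ : Type*} [AddCommGroup Mχ] [Module S Mχ] [Module P Mχ] [IsScalarTower S P Mχ]
    [Module.Finite S Mχ] [Nontrivial Mχ]
    [AddCommGroup M₁] [Module S M₁] [Module P M₁] [IsScalarTower S P M₁] [Module.Finite S M₁]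
    (htfχ : ∀ (s : S) (m : Mχ), s • m = 0 → s = 0 ∨ m = 0)
    (htf₁ : ∀ (s : S) (m : M₁), s • m = 0 → s = 0 ∨ m = 0)
    (π : S) (𝔰 : Ideal S) [𝔰.IsPrime]
    (d : ℕ) (hd : (d : WithBot ℕ∞) ≤ ringKrullDim S)
    (𝔞 : Ideal P) [𝔞.IsPrime] (h𝔞 : 𝔞 ≤ Module.annihilator P Mχ)
    (h𝔞dim : ringKrullDim (P ⧸ 𝔞) ≤ d)
    (hcomp : Module.annihilator P (M₁ ⧸ (Ideal.span {algebraMap S P π} • ⊤ : Submodule P M₁))
      ≤ Module.annihilator P (Mχ ⧸ (Ideal.span {algebraMap S P π} • ⊤ : Submodule P Mχ)))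
    (𝔮 𝔵 : Ideal P) [𝔮.IsPrime] [𝔵.IsPrime] (h𝔞𝔮 : 𝔞 ≤ 𝔮) (hπ𝔮 : algebraMap S P π ∈ 𝔮)
    (h𝔵dim : ringKrullDim (P ⧸ 𝔵) ≤ d)
    (hdich : ∀ 𝔭 : Ideal P, 𝔭.IsPrime → Module.annihilator P M₁ ≤ 𝔭 → 𝔭 ≤ 𝔮 → 𝔵 ≤ 𝔭) :
    ∃ 𝔯 : Ideal P, 𝔯.IsPrime ∧ Module.annihilator P M₁ ≤ 𝔯 ∧ 𝔵 ≤ 𝔯 ∧
      𝔯.comap (algebraMap S P) = 𝔰 := by
  have hfinχ : Module.Finite P Mχ := Module.Finite.of_restrictScalars_finite S P Mχ
  -- Step 1: `Mχ` is faithful over `P ⧸ 𝔞`
  have hAχ : Module.annihilator P Mχ ≤ 𝔞 := annihilator_le_of_dim htfχ d hd 𝔞 h𝔞 h𝔞dim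
  -- Step 2: `𝔮` is in the support of `Mχ / π`
  have hq1 : (⟨𝔮, inferInstance⟩ : PrimeSpectrum P) ∈ Module.support P Mχ := by
    rw [Module.support_eq_zeroLocus, PrimeSpectrum.mem_zeroLocus]
    exact hAχ.trans h𝔞𝔮
  have hq2 : (⟨𝔮, inferInstance⟩ : PrimeSpectrum P) ∈
      PrimeSpectrum.zeroLocus (Ideal.span {algebraMap S P π} : Set P) := by
    rw [PrimeSpectrum.mem_zeroLocus]
    intro x hx
    exact (Ideal.span_singleton_le_iff_mem (I := 𝔮)).2 hπ𝔮 hx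
  have hq3 : (⟨𝔮, inferInstance⟩ : PrimeSpectrum P) ∈
      Module.support P (Mχ ⧸ (Ideal.span {algebraMap S P π} • ⊤ : Submodule P Mχ)) := by
    rw [Module.support_quotient]
    exact ⟨hq1, hq2⟩
  have hq4 : Module.annihilator P (Mχ ⧸ (Ideal.span {algebraMap S P π} • ⊤ : Submodule P Mχ))
      ≤ 𝔮 := by
    rw [Module.support_eq_zeroLocus, PrimeSpectrum.mem_zeroLocus] at hq3
    exact hq3
  -- Step 3: transfer to `M₁`
  have hA₁𝔮 : Module.annihilator P M₁ ≤ 𝔮 :=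
    ((LinearMap.annihilator_le_of_surjective _ (Submodule.mkQ_surjective
      (Ideal.span {algebraMap S P π} • ⊤ : Submodule P M₁))).trans hcomp).trans hq4
  -- Step 4: a minimal prime of the support of `M₁` below `𝔮`
  obtain ⟨𝔭, h𝔭min, h𝔭𝔮⟩ := Ideal.exists_minimalPrimes_le hA₁𝔮
  have h𝔭prime : 𝔭.IsPrime := h𝔭min.1.1
  have hA₁𝔭 : Module.annihilator P M₁ ≤ 𝔭 := h𝔭min.1.2
  have h𝔵𝔭 : 𝔵 ≤ 𝔭 := hdich 𝔭 h𝔭prime hA₁𝔭 h𝔭𝔮
  -- Step 5: `𝔭` lies over `0`, so `dim P/𝔭 ≥ d`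
  have h𝔭bot : 𝔭.comap (algebraMap S P) = ⊥ := comap_eq_bot_of_mem_minimalPrimes htf₁ h𝔭min
  have hinj𝔭 : Function.Injective (algebraMap S (P ⧸ 𝔭)) := by
    rw [injective_iff_map_eq_zero]
    intro s hs
    rw [IsScalarTower.algebraMap_apply S P (P ⧸ 𝔭), Ideal.Quotient.algebraMap_eq,
      Ideal.Quotient.eq_zero_iff_mem] at hs
    have : s ∈ 𝔭.comap (algebraMap S P) := hs
    rwa [h𝔭bot, Ideal.mem_bot] at this
  have hint𝔭 : Algebra.IsIntegral S (P ⧸ 𝔭) :=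
    isIntegral_quotient_annihilator (S := S) (M := M₁) 𝔭 hA₁𝔭
  have hdim𝔭 : ringKrullDim S ≤ ringKrullDim (P ⧸ 𝔭) :=
    ringKrullDim_le_of_isIntegral_of_injective hinj𝔭
  -- Step 6: `𝔭 = 𝔵`
  have h𝔭𝔵 : 𝔭 ≤ 𝔵 := by
    by_contra hne
    obtain ⟨x, hx𝔭, hx𝔵⟩ := SetLike.not_le_iff_exists.1 hne
    have h2 : ringKrullDim (P ⧸ 𝔭) + 1 ≤ ringKrullDim (P ⧸ 𝔵) := by
      refine ringKrullDim_succ_le_of_surjective (Ideal.Quotient.factor h𝔵𝔭)
        (Ideal.Quotient.factor_surjective h𝔵𝔭) (r := Ideal.Quotient.mk 𝔵 x) ?_ ?_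
      · apply mem_nonZeroDivisors_of_ne_zero
        rwa [Ne, Ideal.Quotient.eq_zero_iff_mem]
      · rw [Ideal.Quotient.factor_mk]
        exact Ideal.Quotient.eq_zero_iff_mem.2 hx𝔭
    exact dim_absurd (hd.trans hdim𝔭) h2 h𝔵dim
  have h𝔭eq : 𝔭 = 𝔵 := le_antisymm h𝔭𝔵 h𝔵𝔭
  subst h𝔭eq
  -- Step 7: lying over `𝔰`
  have hker : (⊥ : Ideal (P ⧸ 𝔭)).comap (algebraMap S (P ⧸ 𝔭)) ≤ 𝔰 := by
    have : (⊥ : Ideal (P ⧸ 𝔭)).comap (algebraMap S (P ⧸ 𝔭)) = ⊥ := by
      rw [← RingHom.ker_eq_comap_bot]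
      exact (RingHom.injective_iff_ker_eq_bot _).1 hinj𝔭
    rw [this]; exact bot_le
  obtain ⟨Q, -, hQ, hQ𝔰⟩ := Ideal.exists_ideal_over_prime_of_isIntegral 𝔰 ⊥ hker
  refine ⟨Q.comap (Ideal.Quotient.mk 𝔭), Ideal.comap_isPrime _ _, ?_, ?_, ?_⟩
  · refine hA₁𝔭.trans ?_
    intro x hx
    rw [Ideal.mem_comap, Ideal.Quotient.eq_zero_iff_mem.2 hx]
    exact Q.zero_mem
  · intro x hx
    rw [Ideal.mem_comap, Ideal.Quotient.eq_zero_iff_mem.2 hx]
    exact Q.zero_mem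
  · rw [← hQ𝔰, Ideal.comap_comap]
    rfl

end main

end Fermat.Agent.L.Pivot.H3

end
-- ==== END Fermat.Agent.L.Pivot.H3_End

-- ==== BEGIN Fermat.Agent.L.Pivot.H50_OldAlg
section

/-!
# PIVOT, package PV-OLD (helper50): linear algebra

* `fixedQ_baseChange` : the property "every vector fixed by the `A i` satisfies `B v = Q v`"
  passes from `𝒪` to a finite free extension `𝒪''`.
* `plane_sq` : if `A P = P B`, `Q P = 1` and `A² = c` on the image of `P`, then `B² = c`.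
* `sq_scalar_det` : a `2 × 2` matrix with `B² = c` has `det B ^ 2 = c ^ 2`.
* `not_commute_of_span` : the matrix ring `M₂(A)` is not spanned by pairwise commuting matrices.
-/

set_option autoImplicit false

namespace Fermat.Agent.L.Pivot.H50

open Matrix

/-- "Fixed vectors are eigenvectors of `B` with eigenvalue `Q`" passes to a finite free
extension. -/
theorem fixedQ_baseChange {𝒪 𝒪'' : Type} [CommRing 𝒪] [IsDomain 𝒪] [IsPrincipalIdealRing 𝒪]
    [CommRing 𝒪''] [IsDomain 𝒪''] [Algebra 𝒪 𝒪''] [Module.Finite 𝒪 𝒪'']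
    (hinj : Function.Injective (algebraMap 𝒪 𝒪'')) {r : ℕ} {ι : Type*}
    (A : ι → Matrix (Fin r) (Fin r) 𝒪) (B : Matrix (Fin r) (Fin r) 𝒪) (Q : 𝒪)
    (h : ∀ v : Fin r → 𝒪, (∀ i, (A i).mulVec v = v) → B.mulVec v = Q • v)
    (v : Fin r → 𝒪'') (hfix : ∀ i, ((A i).map (algebraMap 𝒪 𝒪'')).mulVec v = v) :
    (B.map (algebraMap 𝒪 𝒪'')).mulVec v = algebraMap 𝒪 𝒪'' Q • v := by
  have : Module.IsTorsionFree 𝒪 𝒪'' := Module.isTorsionFree_iff_algebraMap_injective.2 hinj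
  have : Module.Free 𝒪 𝒪'' := Module.free_of_finite_type_torsion_free'
  let b := Module.Free.chooseBasis 𝒪 𝒪''
  -- the coordinates of `v`
  have hcoord : ∀ (C : Matrix (Fin r) (Fin r) 𝒪) (w : Fin r → 𝒪'') (j) (m : Fin r),
      b.coord j (((C.map (algebraMap 𝒪 𝒪'')).mulVec w) m)
        = (C.mulVec (fun n => b.coord j (w n))) m := by
    intro C w j m
    simp only [Matrix.mulVec, dotProduct, Matrix.map_apply]
    rw [map_sum]
    refine Finset.sum_congr rfl (fun n _ => ?_)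
    rw [← Algebra.smul_def, map_smul, smul_eq_mul]
  have hfixj : ∀ j, ∀ i, (A i).mulVec (fun n => b.coord j (v n)) = fun n => b.coord j (v n) := by
    intro j i
    ext m
    rw [← hcoord (A i) v j m, hfix i]
  ext m
  apply b.repr.injective
  ext j
  have h1 := hcoord B v j m
  have h2 := congrFun (h _ (hfixj j)) m
  have h3 : b.coord j ((algebraMap 𝒪 𝒪'' Q • v) m) = Q * b.coord j (v m) := by
    rw [Pi.smul_apply, smul_eq_mul, ← Algebra.smul_def, map_smul, smul_eq_mul]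
  show b.coord j (((B.map (algebraMap 𝒪 𝒪'')).mulVec v) m)
    = b.coord j ((algebraMap 𝒪 𝒪'' Q • v) m)
  rw [h1, h2, h3]
  rfl

/-- If `A P = P B`, `Q P = 1` and `A * A` is the scalar `c` on the image of `P`, then
`B * B = c`. -/
theorem plane_sq {R : Type*} [CommRing R] {r : ℕ} {P : Matrix (Fin r) (Fin 2) R}
    {Q : Matrix (Fin 2) (Fin r) R} (hQP : Q * P = 1)
    {A : Matrix (Fin r) (Fin r) R} {B : Matrix (Fin 2) (Fin 2) R} (hAP : A * P = P * B) (c : R)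
    (h : ∀ w : Fin 2 → R, (A * A).mulVec (P.mulVec w) = c • P.mulVec w) :
    B * B = c • (1 : Matrix (Fin 2) (Fin 2) R) := by
  have h1 : A * A * P = P * (B * B) := by
    rw [Matrix.mul_assoc, hAP, ← Matrix.mul_assoc, hAP, Matrix.mul_assoc]
  have h2 : ∀ w : Fin 2 → R, (B * B).mulVec w = c • w := by
    intro w
    have h3 := h w
    rw [Matrix.mulVec_mulVec, h1, ← Matrix.mulVec_mulVec] at h3
    have h4 := congrArg Q.mulVec h3
    rw [Matrix.mulVec_mulVec, hQP, Matrix.one_mulVec, Matrix.mulVec_smul, Matrix.mulVec_mulVec,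
      hQP, Matrix.one_mulVec] at h4
    exact h4
  ext i j
  have h5 := congrFun (h2 (Pi.single j 1)) i
  rw [Matrix.mulVec_single_one] at h5
  simp only [Matrix.col_apply, Pi.smul_apply, smul_eq_mul] at h5
  rw [h5, Matrix.smul_apply, Matrix.one_apply, smul_eq_mul, Pi.single_apply]

/-- A `2 × 2` matrix whose square is the scalar `c` has `det ^ 2 = c ^ 2`. -/
theorem sq_scalar_det {R : Type*} [CommRing R] {B : Matrix (Fin 2) (Fin 2) R} {c : R}
    (h : B * B = c • (1 : Matrix (Fin 2) (Fin 2) R)) : B.det ^ 2 = c ^ 2 := by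
  have h1 := congrArg Matrix.det h
  rw [Matrix.det_mul, Matrix.det_smul, Matrix.det_one, mul_one, Fintype.card_fin] at h1
  rw [pow_two, h1]

/-- `M₂(A)` is not spanned by pairwise commuting matrices. -/
theorem not_commute_of_span {A : Type*} [CommRing A] [Nontrivial A] {ι : Type*} [Fintype ι]
    (X : ι → Matrix (Fin 2) (Fin 2) A) (hcomm : ∀ i j, Commute (X i) (X j))
    (hspan : ∀ Y : Matrix (Fin 2) (Fin 2) A, ∃ c : ι → A, Y = ∑ i, c i • X i) : False := by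
  have hall : ∀ Y Z : Matrix (Fin 2) (Fin 2) A, Y * Z = Z * Y := by
    intro Y Z
    obtain ⟨c, rfl⟩ := hspan Y
    obtain ⟨d, rfl⟩ := hspan Z
    rw [Finset.sum_mul, Finset.mul_sum]
    refine Finset.sum_congr rfl (fun i _ => ?_)
    rw [Finset.mul_sum, Finset.sum_mul]
    refine Finset.sum_congr rfl (fun j _ => ?_)
    rw [Matrix.smul_mul, Matrix.mul_smul, Matrix.smul_mul, Matrix.mul_smul, (hcomm i j).eq,
      smul_comm]
  have h := hall (Matrix.single 0 1 (1 : A)) (Matrix.single 1 0 (1 : A))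
  have h1 := congrFun (congrFun h 0) 0
  simp [Matrix.mul_apply, Matrix.single_apply] at h1

end Fermat.Agent.L.Pivot.H50

end
-- ==== END Fermat.Agent.L.Pivot.H50_OldAlg

-- ==== BEGIN Fermat.Agent.L.Pivot.H50_OldBridge
section

/-!
# PIVOT, package PV-OLD (helper50): from a `p`-adic point of the Hecke algebra to a newform

`χ : 𝕋_N^S → 𝒪` a ring homomorphism to a domain of characteristic `0` (`S` contains the primes
dividing `N`).  Then there are a newform `g` of some level `Mg ∣ N` and a ring homomorphism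
`iota` from the ring of eigenvalues of `g` (away from `S`) to `𝒪` with
`iota (a_ℓ(g)) = χ (T_ℓ)` for all `ℓ ∉ S`.

* `ker_le_of_ker_le` : two ring homomorphisms from a ring integral over `ℤ` to domains of
  characteristic `0` with `ker χ ≤ ker μ` have the same kernel.
* `exists_complex_point` : a complex eigencharacter `μ` with `ker μ = ker χ`, realised by a
  normalised eigenform.
* `exists_newform_iota` : the statement above.
-/

set_option autoImplicit false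

namespace Fermat.Agent.L.Pivot.H50

open CuspForm CongruenceSubgroup ModularFormClass Polynomial

/-- Two ring homomorphisms from a ring integral over `ℤ` to domains of characteristic `0`:
if `ker χ ≤ ker μ` then `ker μ ≤ ker χ`. -/
theorem ker_le_of_ker_le {T A B : Type*} [CommRing T] [CommRing A] [IsDomain A]
    [CommRing B] [CharZero B] (χ : T →+* A) (μ : T →+* B)
    (hint : ∀ t : T, IsIntegral ℤ t) (h : RingHom.ker χ ≤ RingHom.ker μ) :
    RingHom.ker μ ≤ RingHom.ker χ := by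
  intro t ht
  rw [RingHom.mem_ker] at ht ⊢
  by_contra hb
  have hbint : IsIntegral ℤ (χ t) := (hint t).map χ.toIntAlgHom
  set P := minpoly ℤ (χ t) with hP
  have hmonic : P.Monic := minpoly.monic hbint
  have haeval : aeval (χ t) P = 0 := minpoly.aeval ℤ (χ t)
  have h1 : χ (aeval t P) = 0 := by
    have h := Polynomial.aeval_algHom_apply χ.toIntAlgHom t P
    have h' : aeval (χ t) P = χ (aeval t P) := h
    rw [← h', haeval]
  have h2 : μ (aeval t P) = 0 := h (RingHom.mem_ker.2 h1)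
  have h3 : μ (aeval t P) = ((P.coeff 0 : ℤ) : B) := by
    have h := Polynomial.aeval_algHom_apply μ.toIntAlgHom t P
    have h' : aeval (μ t) P = μ (aeval t P) := h
    rw [← h', ht, ← Polynomial.coeff_zero_eq_aeval_zero']
    simp
  have hc0 : P.coeff 0 = 0 := by
    have : ((P.coeff 0 : ℤ) : B) = 0 := h3 ▸ h2
    exact_mod_cast this
  obtain ⟨Q, hQ⟩ := X_dvd_iff.mpr hc0
  have hQmonic : Q.Monic := by
    have := hmonic
    rw [hQ] at this
    exact (Monic.of_mul_monic_left monic_X this)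
  have hQ0 : aeval (χ t) Q = 0 := by
    have h4 : χ t * aeval (χ t) Q = 0 := by
      have := haeval
      rw [hQ, map_mul, aeval_X] at this
      exact this
    exact (mul_eq_zero.1 h4).resolve_left hb
  have hdeg := minpoly.min ℤ (χ t) hQmonic hQ0
  have hlt : Q.degree < P.degree := by
    have hQne : Q ≠ 0 := hQmonic.ne_zero
    rw [hQ, mul_comm]
    exact degree_lt_degree_mul_X hQne
  exact absurd hdeg (not_le.mpr hlt)

variable {N : ℕ} [NeZero N]

/-- A point of the Hecke algebra with values in a domain of characteristic `0` has the same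
kernel as the eigencharacter of a complex eigenvector. -/
theorem exists_complex_point (S : Set ℕ) {𝒪 : Type*} [CommRing 𝒪] [IsDomain 𝒪] [CharZero 𝒪]
    (χ : heckeAlgebra N 2 S →+* 𝒪) :
    ∃ (μ : heckeAlgebra N 2 S →+* ℂ) (w : CuspForm (Gamma0 N) 2), w ≠ 0 ∧
      (∀ T : heckeAlgebra N 2 S,
        (T : Module.End ℂ (CuspForm (Gamma0 N) 2)) w = μ T • w) ∧
      RingHom.ker μ = RingHom.ker χ := by
  classical
  have hfinT : Module.Finite ℤ (heckeAlgebra N 2 S) := Fermat.Agent.S22.result N 2 S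
  have hint : ∀ t : heckeAlgebra N 2 S, IsIntegral ℤ t := fun t =>
    Algebra.IsIntegral.isIntegral t
  have := Fermat.Agent.R.H99.finiteDimensional_cuspForm N
  obtain ⟨v, hv0, hv⟩ := Fermat.Agent.S59.exists_eigenvector_of_point S χ
  -- the subspace killed by `ker χ`
  set U : Submodule ℂ (CuspForm (Gamma0 N) 2) :=
    ⨅ t : RingHom.ker χ,
      LinearMap.ker ((t : heckeAlgebra N 2 S) : Module.End ℂ (CuspForm (Gamma0 N) 2)) with hU
  have hvU : v ∈ U := by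
    rw [hU, Submodule.mem_iInf]
    intro t
    exact LinearMap.mem_ker.2 (hv t.1 t.2)
  have hUne : U ≠ ⊥ := fun h => hv0 ((Submodule.mem_bot ℂ).mp (h ▸ hvU))
  have hcomm : ∀ T T' : heckeAlgebra N 2 S,
      Commute (T : Module.End ℂ (CuspForm (Gamma0 N) 2)) T' := by
    intro T T'
    have h := mul_comm T T'
    exact congrArg Subtype.val h
  have hinv : ∀ T : heckeAlgebra N 2 S, ∀ x ∈ U,
      (T : Module.End ℂ (CuspForm (Gamma0 N) 2)) x ∈ U := by
    intro T x hx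
    rw [hU, Submodule.mem_iInf] at hx ⊢
    intro t
    rw [LinearMap.mem_ker]
    have h1 : ((t : heckeAlgebra N 2 S) : Module.End ℂ (CuspForm (Gamma0 N) 2)) x = 0 :=
      LinearMap.mem_ker.1 (hx t)
    have h2 := (hcomm (t : heckeAlgebra N 2 S) T).eq
    have h3 : ((t : heckeAlgebra N 2 S) : Module.End ℂ (CuspForm (Gamma0 N) 2))
        ((T : Module.End ℂ (CuspForm (Gamma0 N) 2)) x)
        = (T : Module.End ℂ (CuspForm (Gamma0 N) 2))
          (((t : heckeAlgebra N 2 S) : Module.End ℂ (CuspForm (Gamma0 N) 2)) x) :=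
      congrArg (fun g : Module.End ℂ (CuspForm (Gamma0 N) 2) => g x) h2
    rw [h3, h1, map_zero]
  obtain ⟨w, hwU, hw0, hw⟩ := Fermat.Agent.R.H99.exists_common_eigenvector_mem
    (fun T : heckeAlgebra N 2 S => (T : Module.End ℂ (CuspForm (Gamma0 N) 2))) hcomm U hUne hinv
  obtain ⟨μ, hμ⟩ := Fermat.Agent.R.H99.exists_character_of_eigenvector S w hw0 hw
  have hle : RingHom.ker χ ≤ RingHom.ker μ := by
    intro t ht
    rw [RingHom.mem_ker]
    rw [hU, Submodule.mem_iInf] at hwU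
    have h1 : (t : Module.End ℂ (CuspForm (Gamma0 N) 2)) w = 0 :=
      LinearMap.mem_ker.1 (hwU ⟨t, ht⟩)
    rw [hμ t] at h1
    exact (smul_eq_zero.1 h1).resolve_right hw0
  exact ⟨μ, w, hw0, hμ, le_antisymm (ker_le_of_ker_le χ μ hint hle) hle⟩

/-- **The newform of a point.**  `χ` a point of the Hecke algebra of level `N` away from `S`
(`S` contains the primes dividing `N`) with values in a domain of characteristic `0`: there are
a newform `g` of level `Mg ∣ N` and a homomorphism `iota` from the ring of eigenvalues of `g`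
to `𝒪` with `iota (a_ℓ(g)) = χ (T_ℓ)` for `ℓ ∉ S`. -/
theorem exists_newform_iota (S : Finset ℕ) (hNS : ∀ q : ℕ, q.Prime → q ∣ N → q ∈ S)
    {𝒪 : Type*} [CommRing 𝒪] [IsDomain 𝒪] [CharZero 𝒪]
    (χ : heckeAlgebra N 2 (↑S : Set ℕ) →+* 𝒪) :
    ∃ (Mg : ℕ) (_ : NeZero Mg) (_ : Mg ∣ N) (g : CuspForm (Gamma0 Mg) 2) (hg : g.IsNewform)
      (iota : (Fermat.Agent.R.H99.eigenCharC (↑S : Set ℕ) hg.1).range →+* 𝒪),
      ∀ (ℓ : ℕ) (hℓ : ℓ.Prime) (hℓMg : ¬ ℓ ∣ Mg) (hℓS : ℓ ∉ (↑S : Set ℕ)) (hℓN : ¬ ℓ ∣ N),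
        (iota.comp (Fermat.Agent.R.H99.eigenCharC (↑S : Set ℕ) hg.1).rangeRestrict)
          (heckeAlgebra.T hℓ hℓMg hℓS) = χ (heckeAlgebra.T hℓ hℓN hℓS) := by
  classical
  obtain ⟨μ, w, hw0, hμ, hker⟩ := exists_complex_point (↑S : Set ℕ) χ
  -- a normalised eigenform with character `μ`
  obtain ⟨g₀, hg₀, hg₀μ⟩ :=
    Fermat.Agent.R.H99.exists_normalizedEigenform_of_character (↑S : Set ℕ) μ w hw0 hμ
  have hg₀0 : g₀ ≠ 0 := hg₀.ne_zero
  have ha₀ : ∀ (ℓ : ℕ) (hℓ : ℓ.Prime) (hℓN : ¬ ℓ ∣ N) (hℓS : ℓ ∉ (↑S : Set ℕ)),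
      qCoeff ⇑g₀ ℓ = μ (heckeAlgebra.T hℓ hℓN hℓS) := by
    intro ℓ hℓ hℓN hℓS
    have h1 := hg₀μ (heckeAlgebra.T hℓ hℓN hℓS)
    rw [heckeAlgebra.coe_T] at h1
    have h2 := Fermat.Agent.R.H99.heckeTLin_apply_eq_smul hg₀ hℓ hℓN
    exact smul_left_injective ℂ hg₀0 (h2.symm.trans h1)
  -- its newform
  obtain ⟨Mg, hMgN, g, hg, hga⟩ := Fermat.Agent.R.H99.exists_isNewform hg₀
  have hMg0 : Mg ≠ 0 := fun h => NeZero.ne N (Nat.eq_zero_of_zero_dvd (h ▸ hMgN))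
  have : NeZero Mg := ⟨hMg0⟩
  set chig : heckeAlgebra Mg 2 (↑S : Set ℕ) →+* ℂ :=
    Fermat.Agent.R.H99.eigenCharC (↑S : Set ℕ) hg.1 with hchig
  -- the range of `chig` is contained in the range of `μ`
  have key : ∀ (x : Module.End ℂ (CuspForm (Gamma0 Mg) 2))
      (hx : x ∈ heckeAlgebra Mg 2 (↑S : Set ℕ)), chig ⟨x, hx⟩ ∈ μ.range := by
    intro x hx
    induction hx using Algebra.adjoin_induction with
    | mem x hx =>
      rcases hx with ⟨ℓ, hℓ, hℓMg, hℓS, rfl⟩ | ⟨q, hqMg, hq, hqS, rfl⟩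
      · have hℓN : ¬ ℓ ∣ N := fun h => hℓS (Finset.mem_coe.2 (hNS ℓ hℓ h))
        refine ⟨heckeAlgebra.T hℓ hℓN hℓS, ?_⟩
        rw [← ha₀ ℓ hℓ hℓN hℓS, ← hga ℓ hℓ hℓN]
        exact (Fermat.Agent.R.H99.eigenCharC_T (↑S : Set ℕ) hg.1 hℓ hℓMg hℓS).symm
      · exact absurd (Finset.mem_coe.2 (hNS q hq (hqMg.trans hMgN))) hqS
    | algebraMap n =>
      refine ⟨(n : heckeAlgebra N 2 (↑S : Set ℕ)), ?_⟩
      have h1 : (⟨algebraMap ℤ (Module.End ℂ (CuspForm (Gamma0 Mg) 2)) n,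
          Subalgebra.algebraMap_mem _ n⟩ : heckeAlgebra Mg 2 (↑S : Set ℕ))
          = (n : heckeAlgebra Mg 2 (↑S : Set ℕ)) := by
        apply Subtype.ext
        simp
      rw [h1, map_intCast, map_intCast]
    | add x y hx hy ihx ihy =>
      have h1 : (⟨x + y, Subalgebra.add_mem _ hx hy⟩ : heckeAlgebra Mg 2 (↑S : Set ℕ))
          = ⟨x, hx⟩ + ⟨y, hy⟩ := rfl
      rw [h1, map_add]
      exact Subring.add_mem _ ihx ihy
    | mul x y hx hy ihx ihy =>
      have h1 : (⟨x * y, Subalgebra.mul_mem _ hx hy⟩ : heckeAlgebra Mg 2 (↑S : Set ℕ))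
          = ⟨x, hx⟩ * ⟨y, hy⟩ := rfl
      rw [h1, map_mul]
      exact Subring.mul_mem _ ihx ihy
  have hle : chig.range ≤ μ.range := by
    rintro _ ⟨t, rfl⟩
    exact key t.1 t.2
  -- `χ` factors through the range of `μ`
  have hkerle : RingHom.ker μ.rangeRestrict ≤ RingHom.ker χ := by
    intro t ht
    rw [← hker, RingHom.mem_ker]
    rw [RingHom.mem_ker] at ht
    exact congrArg Subtype.val ht
  set iotaμ : μ.range →+* 𝒪 :=
    RingHom.liftOfRightInverse μ.rangeRestrict (Function.surjInv μ.rangeRestrict_surjective)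
      (Function.rightInverse_surjInv μ.rangeRestrict_surjective) ⟨χ, hkerle⟩ with hiotaμ
  have hiota_spec : ∀ t : heckeAlgebra N 2 (↑S : Set ℕ), iotaμ (μ.rangeRestrict t) = χ t := by
    intro t
    rw [hiotaμ]
    exact RingHom.liftOfRightInverse_comp_apply _ _ _ ⟨χ, hkerle⟩ t
  refine ⟨Mg, inferInstance, hMgN, g, hg, iotaμ.comp (Subring.inclusion hle), ?_⟩
  intro ℓ hℓ hℓMg hℓS hℓN
  rw [RingHom.comp_apply, RingHom.comp_apply, ← hiota_spec]
  congr 1
  apply Subtype.ext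
  show chig (heckeAlgebra.T hℓ hℓMg hℓS) = μ (heckeAlgebra.T hℓ hℓN hℓS)
  rw [← ha₀ ℓ hℓ hℓN hℓS, ← hga ℓ hℓ hℓN]
  exact Fermat.Agent.R.H99.eigenCharC_T (↑S : Set ℕ) hg.1 hℓ hℓMg hℓS

end Fermat.Agent.L.Pivot.H50

end
-- ==== END Fermat.Agent.L.Pivot.H50_OldBridge

-- ==== BEGIN Fermat.Agent.L.Pivot.H50_StIArith
section

/-!
# PIVOT, PV-OLD (helper50): the arithmetic of the slopes

`slopes_arith`: `N` a finite nonempty set, `e s` nonzero natural numbers.  There is `c` such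
that for every `k` and every family of integers `m s` with
`e s * m s ≡ e s' * m s' mod p ^ k` (all `s, s' ∈ N`) and `∑ s ∈ N, m s ≡ 0 mod p ^ k`,
all `p ^ c * m s` are divisible by `p ^ k`.  (`c` is the valuation of
`(∑ s, ∏ s' ≠ s, e s') * ∏ s, e s`; "the component group is finite".)
-/

set_option autoImplicit false

namespace Fermat.Agent.L.Pivot.H50

open Finset

theorem slopes_arith {ι : Type*} [DecidableEq ι] (N : Finset ι) (e : ι → ℕ) (p : ℕ)
    (hp : p.Prime) (he : ∀ s ∈ N, e s ≠ 0) (hN : N.Nonempty) :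
    ∃ c : ℕ, ∀ (k : ℕ) (m : ι → ℤ),
      (∀ s ∈ N, ∀ s' ∈ N, ((p ^ k : ℕ) : ℤ) ∣ (e s : ℤ) * m s - (e s' : ℤ) * m s') →
      ((p ^ k : ℕ) : ℤ) ∣ ∑ s ∈ N, m s →
      ∀ s ∈ N, ((p ^ k : ℕ) : ℤ) ∣ ((p ^ c : ℕ) : ℤ) * m s := by
  classical
  have he0 : ∀ s ∈ N, e s ≠ 0 := he
  set d : ℕ := ∑ s ∈ N, ∏ s' ∈ N.erase s, e s' with hd
  have hd0 : d ≠ 0 := by
    obtain ⟨s₀, hs₀⟩ := hN
    have hpos : 0 < ∏ s' ∈ N.erase s₀, e s' :=
      Finset.prod_pos fun s' hs' => Nat.pos_of_ne_zero (he0 s' (Finset.mem_of_mem_erase hs'))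
    have hle : ∏ s' ∈ N.erase s₀, e s' ≤ d :=
      Finset.single_le_sum (f := fun s => ∏ s' ∈ N.erase s, e s') (fun _ _ => Nat.zero_le _) hs₀
    omega
  have hE0 : ∏ s ∈ N, e s ≠ 0 := Finset.prod_ne_zero_iff.mpr he0
  have hdE0 : d * ∏ s ∈ N, e s ≠ 0 := Nat.mul_ne_zero hd0 hE0
  obtain ⟨c, d', hd', hdeq⟩ := Nat.exists_eq_pow_mul_and_not_dvd hdE0 p hp.ne_one
  refine ⟨c, fun k m hcong hsum s₀ hs₀ => ?_⟩
  set n : ℤ := ((p ^ k : ℕ) : ℤ) with hn
  set E : ℤ := ∏ s ∈ N, (e s : ℤ) with hE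
  have hEs : ∀ s ∈ N, (e s : ℤ) * ∏ s' ∈ N.erase s, (e s' : ℤ) = E := fun s hs =>
    Finset.mul_prod_erase N (fun s => (e s : ℤ)) hs
  -- the key identity
  have key : (d : ℤ) * ((e s₀ : ℤ) * m s₀) =
      ∑ s ∈ N, (∏ s' ∈ N.erase s, (e s' : ℤ)) * ((e s₀ : ℤ) * m s₀ - (e s : ℤ) * m s)
        + E * ∑ s ∈ N, m s := by
    rw [Finset.mul_sum, ← Finset.sum_add_distrib, hd]
    push_cast
    rw [Finset.sum_mul]
    refine Finset.sum_congr rfl fun s hs => ?_
    rw [← hEs s hs]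
    ring
  have h1 : n ∣ (d : ℤ) * ((e s₀ : ℤ) * m s₀) := by
    rw [key]
    refine dvd_add (Finset.dvd_sum fun s hs => ?_) (Dvd.dvd.mul_left hsum _)
    exact Dvd.dvd.mul_left (hcong s₀ hs₀ s hs) _
  -- coprimality
  have hpZ : Prime (p : ℤ) := Nat.prime_iff_prime_int.mp hp
  have hnd : ¬ (p : ℤ) ∣ (d' : ℤ) := fun h => hd' (Int.natCast_dvd_natCast.mp h)
  have hco : IsCoprime n (d' : ℤ) := by
    rw [hn]
    push_cast
    exact IsCoprime.pow_left ((Prime.coprime_iff_not_dvd hpZ).mpr hnd)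
  have h2 : n ∣ (d' : ℤ) * (((p ^ c : ℕ) : ℤ) * m s₀) := by
    have e1 : (d' : ℤ) * (((p ^ c : ℕ) : ℤ) * m s₀)
        = (∏ s' ∈ N.erase s₀, (e s' : ℤ)) * ((d : ℤ) * ((e s₀ : ℤ) * m s₀)) := by
      have h3 : ((d * ∏ s ∈ N, e s : ℕ) : ℤ) = (d : ℤ) * E := by
        rw [hE]
        push_cast
        rfl
      have h4 : ((p ^ c * d' : ℕ) : ℤ) = ((p ^ c : ℕ) : ℤ) * (d' : ℤ) := by push_cast; rfl
      have h5 : ((p ^ c : ℕ) : ℤ) * (d' : ℤ) = (d : ℤ) * E := by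
        rw [← h4, ← h3, hdeq]
      calc (d' : ℤ) * (((p ^ c : ℕ) : ℤ) * m s₀)
          = (((p ^ c : ℕ) : ℤ) * (d' : ℤ)) * m s₀ := by ring
        _ = ((d : ℤ) * E) * m s₀ := by rw [h5]
        _ = ((d : ℤ) * ((e s₀ : ℤ) * ∏ s' ∈ N.erase s₀, (e s' : ℤ))) * m s₀ := by
            rw [hEs s₀ hs₀]
        _ = _ := by ring
    rw [e1]
    exact Dvd.dvd.mul_left h1 _
  exact hco.dvd_of_dvd_mul_left h2

end Fermat.Agent.L.Pivot.H50

end
-- ==== END Fermat.Agent.L.Pivot.H50_StIArith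

-- ==== BEGIN Fermat.Agent.L.Pivot.H50_StIFrob
section

/-!
# PIVOT, PV-OLD (helper50): Frobenius-fixed classes on the abelian part

`E / k` a function field over an algebraically closed field, `φb` a semilinear automorphism,
`n = p ^ j`.  If `n ∣ div ψ₁`, `n ∣ div ψ₂` and

  `ψ₁ · φb ψ₂ = b₁ hαⁿ`,   `ψ₂ · φb ψ₁ = b₂ hβⁿ`,

then the classes `y_i = [div ψ_i / n]` satisfy `y₁ + φb y₂ = 0`, `y₂ + φb y₁ = 0`, so they are
fixed by `φb²`; if the `φb²`-fixed `p`-power torsion classes are killed by `p ^ e` (FROB-FIN) then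
`ψ_i ^ (p ^ e)` are `n`-th powers.
-/

set_option autoImplicit false
set_option linter.style.haveILetI false

noncomputable section

open AlgebraicCurve

attribute [local instance] Classical.propDecidable

namespace Fermat.Agent.L.Pivot.H50

open Fermat.Agent.RED.H17

section Frob

variable {k E : Type*} [Field k] [Field E] [Algebra k E]

/-- orders of the image under a semilinear automorphism. -/
theorem h50_ord_smul (σ : SemilinearAut k E) (z : Place k E) (ψ : E) :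
    z.ord (σ • ψ) = (σ⁻¹ • z).ord ψ := by
  have := SemilinearAut.ord_smul σ (σ⁻¹ • z) ψ
  rwa [smul_inv_smul] at this

theorem h50_smul_ne_zero (σ : SemilinearAut k E) {ψ : E} (hψ : ψ ≠ 0) : σ • ψ ≠ 0 := by
  intro h0
  apply hψ
  have := congrArg (fun z => σ⁻¹ • z) h0
  simpa using this

/-- a class is zero iff a representative is principal. -/
theorem h50_mk_eq_zero_iff (D : Divisor.degZero (K := k) (F := E)) :
    Pic0.mk D = 0 ↔ (D : Divisor k E).IsPrincipal := by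
  rw [Pic0.mk, QuotientAddGroup.eq_zero_iff, AddSubgroup.mem_addSubgroupOf]
  exact Divisor.mem_principal

/-- The divisor `div ψ / n`. -/
def divDiv (hP : HasPrincipalDivisors k E) (n : ℕ) (ψ : E) : Divisor k E :=
  (dv hP ψ).mapRange (fun m : ℤ => m / (n : ℤ)) (by simp)

theorem mul_divDiv_apply (hP : HasPrincipalDivisors k E) (n : ℕ) (ψ : E)
    (hd : ∀ z : Place k E, (n : ℤ) ∣ z.ord ψ) (z : Place k E) :
    (n : ℤ) * divDiv hP n ψ z = z.ord ψ := by
  unfold divDiv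
  rw [Finsupp.mapRange_apply (hf := by simp), dv_apply]
  exact Int.mul_ediv_cancel' (hd z)

theorem degree_divDiv (hP : HasPrincipalDivisors k E) (n : ℕ) (hn : n ≠ 0) (ψ : E)
    (hd : ∀ z : Place k E, (n : ℤ) ∣ z.ord ψ) :
    Divisor.degree (divDiv hP n ψ) = 0 := by
  have h1 : (n : ℤ) • divDiv hP n ψ = dv hP ψ := by
    ext z
    rw [Finsupp.smul_apply, smul_eq_mul, mul_divDiv_apply hP n ψ hd, dv_apply]
  have h2 := congrArg Divisor.degree h1
  rw [map_zsmul, degree_dv, smul_eq_mul] at h2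
  have hn' : (n : ℤ) ≠ 0 := by exact_mod_cast hn
  exact (mul_eq_zero.mp h2).resolve_left hn'

/-- the class of `div ψ / n`. -/
def divCls (hP : HasPrincipalDivisors k E) (n : ℕ) (hn : n ≠ 0) (ψ : E)
    (hd : ∀ z : Place k E, (n : ℤ) ∣ z.ord ψ) : Divisor.degZero (K := k) (F := E) :=
  ⟨divDiv hP n ψ, Divisor.mem_degZero.mpr (degree_divDiv hP n hn ψ hd)⟩

theorem coe_divCls (hP : HasPrincipalDivisors k E) (n : ℕ) (hn : n ≠ 0) (ψ : E)
    (hd : ∀ z : Place k E, (n : ℤ) ∣ z.ord ψ) :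
    ((divCls hP n hn ψ hd : Divisor.degZero (K := k) (F := E)) : Divisor k E) = divDiv hP n ψ :=
  rfl

/-- `n [div ψ / n] = 0`. -/
theorem nsmul_mk_divCls (hP : HasPrincipalDivisors k E) (n : ℕ) (hn : n ≠ 0) {ψ : E}
    (hψ : ψ ≠ 0) (hd : ∀ z : Place k E, (n : ℤ) ∣ z.ord ψ) :
    n • (Pic0.mk (divCls hP n hn ψ hd) : Pic0 k E) = 0 := by
  have h0 : n • (Pic0.mk (divCls hP n hn ψ hd) : Pic0 k E) = Pic0.mk (n • divCls hP n hn ψ hd) :=
    rfl
  rw [h0, h50_mk_eq_zero_iff]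
  refine ⟨ψ, hψ, fun z => ?_⟩
  rw [AddSubgroup.coe_nsmul, coe_divCls, Finsupp.smul_apply, nsmul_eq_mul,
    mul_divDiv_apply hP n ψ hd]

/-- **The relation between the two classes.**  If `ψ₁ · φb ψ₂ = b hⁿ` then
`[div ψ₁ / n] + φb [div ψ₂ / n] = 0`. -/
theorem mk_add_smul_mk_eq_zero (hP : HasPrincipalDivisors k E) (φb : SemilinearAut k E)
    (n : ℕ) (hn : n ≠ 0) {ψ₁ ψ₂ h : E} (hψ₁ : ψ₁ ≠ 0) (hψ₂ : ψ₂ ≠ 0) (hh : h ≠ 0)
    {b : k} (hb : b ≠ 0)
    (hd₁ : ∀ z : Place k E, (n : ℤ) ∣ z.ord ψ₁) (hd₂ : ∀ z : Place k E, (n : ℤ) ∣ z.ord ψ₂)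
    (e₁ : ψ₁ * (φb • ψ₂) = algebraMap k E b * h ^ n) :
    (Pic0.mk (divCls hP n hn ψ₁ hd₁) : Pic0 k E) + φb • Pic0.mk (divCls hP n hn ψ₂ hd₂) = 0 := by
  rw [SemilinearAut.pic0_smul_mk, ← Pic0.mk_add, h50_mk_eq_zero_iff]
  refine ⟨h, hh, fun z => ?_⟩
  have hnZ : (n : ℤ) ≠ 0 := by exact_mod_cast hn
  apply mul_left_cancel₀ hnZ
  have h1 : z.ord (ψ₁ * (φb • ψ₂)) = z.ord ψ₁ + (φb⁻¹ • z).ord ψ₂ := by
    rw [z.ord_mul hψ₁ (h50_smul_ne_zero φb hψ₂), h50_ord_smul]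
  have h2 : z.ord (algebraMap k E b * h ^ n) = (n : ℤ) * z.ord h := by
    rw [ord_algebraMap_mul z hb, ord_pow]
  rw [AddSubgroup.coe_add, SemilinearAut.coe_degZeroSMulHom, coe_divCls, coe_divCls,
    Finsupp.add_apply, SemilinearAut.divisor_smul_apply, mul_add,
    mul_divDiv_apply hP n ψ₁ hd₁, mul_divDiv_apply hP n ψ₂ hd₂, ← h1, e₁, h2]

/-- a power of `ψ` is an `n`-th power if a multiple of the class of `div ψ / n` vanishes. -/
theorem pow_eq_pow_of_nsmul_eq_zero [IsAlgClosed k] (HE : FFHyp k E) (n : ℕ) (hn : n ≠ 0)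
    {ψ : E} (hψ : ψ ≠ 0) (hd : ∀ z : Place k E, (n : ℤ) ∣ z.ord ψ) (a : ℕ)
    (h : a • (Pic0.mk (divCls HE.principal n hn ψ hd) : Pic0 k E) = 0) :
    ∃ w : E, w ≠ 0 ∧ ψ ^ a = w ^ n := by
  have h0 : a • (Pic0.mk (divCls HE.principal n hn ψ hd) : Pic0 k E)
      = Pic0.mk (a • divCls HE.principal n hn ψ hd) := rfl
  rw [h0, h50_mk_eq_zero_iff] at h
  obtain ⟨w, hw0, hw⟩ := h
  have hord : ∀ z : Place k E, z.ord (ψ ^ a / w ^ n) = 0 := by
    intro z
    have h1 := hw z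
    rw [AddSubgroup.coe_nsmul, coe_divCls, Finsupp.smul_apply, nsmul_eq_mul] at h1
    rw [ord_div z (pow_ne_zero _ hψ) (pow_ne_zero _ hw0), ord_pow, ord_pow, ← h1,
      ← mul_divDiv_apply HE.principal n ψ hd z]
    ring
  obtain ⟨b, hb⟩ := HE.const_of_regular (f := ψ ^ a / w ^ n) (fun z => le_of_eq (hord z).symm)
  have hb0 : b ≠ 0 := by
    rintro rfl
    rw [map_zero] at hb
    exact div_ne_zero (pow_ne_zero _ hψ) (pow_ne_zero _ hw0) hb
  obtain ⟨d, hd'⟩ := IsAlgClosed.exists_pow_nat_eq b (Nat.pos_of_ne_zero hn)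
  have hd0 : d ≠ 0 := by
    rintro rfl
    rw [zero_pow hn] at hd'
    exact hb0 hd'.symm
  refine ⟨algebraMap k E d * w, mul_ne_zero ((map_ne_zero _).mpr hd0) hw0, ?_⟩
  rw [mul_pow, ← map_pow, hd', ← hb]
  field_simp

/-- **Frobenius-fixed classes**: the conclusion for both functions. -/
theorem pow_eq_pow_of_frob [IsAlgClosed k] (HE : FFHyp k E) (φb : SemilinearAut k E) (p e : ℕ)
    (hFF : ∀ y : Pic0 k E, (φb * φb) • y = y → (∃ m : ℕ, p ^ m • y = 0) → p ^ e • y = 0)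
    (j : ℕ) (hn : p ^ j ≠ 0) {ψ₁ ψ₂ hα hβ : E} (hψ₁ : ψ₁ ≠ 0) (hψ₂ : ψ₂ ≠ 0) (hα0 : hα ≠ 0)
    (hβ0 : hβ ≠ 0) {b₁ b₂ : k} (hb₁ : b₁ ≠ 0) (hb₂ : b₂ ≠ 0)
    (hd₁ : ∀ z : Place k E, ((p ^ j : ℕ) : ℤ) ∣ z.ord ψ₁)
    (hd₂ : ∀ z : Place k E, ((p ^ j : ℕ) : ℤ) ∣ z.ord ψ₂)
    (e₁ : ψ₁ * (φb • ψ₂) = algebraMap k E b₁ * hα ^ (p ^ j))
    (e₂ : ψ₂ * (φb • ψ₁) = algebraMap k E b₂ * hβ ^ (p ^ j)) :
    (∃ w : E, w ≠ 0 ∧ ψ₁ ^ (p ^ e) = w ^ (p ^ j)) ∧
      ∃ w : E, w ≠ 0 ∧ ψ₂ ^ (p ^ e) = w ^ (p ^ j) := by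
  set y₁ : Pic0 k E := Pic0.mk (divCls HE.principal (p ^ j) hn ψ₁ hd₁) with hy₁
  set y₂ : Pic0 k E := Pic0.mk (divCls HE.principal (p ^ j) hn ψ₂ hd₂) with hy₂
  have hA : y₁ + φb • y₂ = 0 :=
    mk_add_smul_mk_eq_zero HE.principal φb (p ^ j) hn hψ₁ hψ₂ hα0 hb₁ hd₁ hd₂ e₁
  have hB : y₂ + φb • y₁ = 0 :=
    mk_add_smul_mk_eq_zero HE.principal φb (p ^ j) hn hψ₂ hψ₁ hβ0 hb₂ hd₂ hd₁ e₂
  have h1 : φb • y₁ = -y₂ := (neg_eq_of_add_eq_zero_right hB).symm
  have h2 : φb • y₂ = -y₁ := (neg_eq_of_add_eq_zero_right hA).symm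
  have hΦ₁ : (φb * φb) • y₁ = y₁ := by rw [mul_smul, h1, smul_neg, h2, neg_neg]
  have hΦ₂ : (φb * φb) • y₂ = y₂ := by rw [mul_smul, h2, smul_neg, h1, neg_neg]
  have ht₁ : p ^ j • y₁ = 0 := nsmul_mk_divCls HE.principal (p ^ j) hn hψ₁ hd₁
  have ht₂ : p ^ j • y₂ = 0 := nsmul_mk_divCls HE.principal (p ^ j) hn hψ₂ hd₂
  exact ⟨pow_eq_pow_of_nsmul_eq_zero HE (p ^ j) hn hψ₁ hd₁ (p ^ e) (hFF y₁ hΦ₁ ⟨j, ht₁⟩),
    pow_eq_pow_of_nsmul_eq_zero HE (p ^ j) hn hψ₂ hd₂ (p ^ e) (hFF y₂ hΦ₂ ⟨j, ht₂⟩)⟩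

end Frob

end Fermat.Agent.L.Pivot.H50

end
end
-- ==== END Fermat.Agent.L.Pivot.H50_StIFrob

-- ==== BEGIN Fermat.Agent.L.Pivot.H52_LocKill
section

set_option autoImplicit false

namespace Fermat.Agent.L.Pivot.H52

open MvPowerSeries Finsupp

variable {σ : Type*} {R : Type*} [CommRing R]

/-- The series all of whose coefficients at monomials avoiding `S` lie in `I`. -/
def coeffIdeal (S : Set σ) (I : Ideal R) : Ideal (MvPowerSeries σ R) where
  carrier := {F | ∀ μ : σ →₀ ℕ, (∀ s ∈ S, μ s = 0) → coeff μ F ∈ I}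
  add_mem' := by
    intro F G hF hG μ hμ
    rw [map_add]
    exact I.add_mem (hF μ hμ) (hG μ hμ)
  zero_mem' := by
    intro μ _
    rw [map_zero]
    exact I.zero_mem
  smul_mem' := by
    classical
    intro G F hF μ hμ
    rw [smul_eq_mul, coeff_mul]
    refine I.sum_mem fun p hp => ?_
    refine I.mul_mem_left _ (hF p.2 fun s hs => ?_)
    have h1 : p.1 + p.2 = μ := Finset.HasAntidiagonal.mem_antidiagonal.1 hp
    have h2 : p.1 s + p.2 s = 0 := by rw [← Finsupp.add_apply, h1, hμ s hs]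
    omega

theorem mem_coeffIdeal {S : Set σ} {I : Ideal R} {F : MvPowerSeries σ R} :
    F ∈ coeffIdeal S I ↔ ∀ μ : σ →₀ ℕ, (∀ s ∈ S, μ s = 0) → coeff μ F ∈ I := Iff.rfl

theorem X_mem_coeffIdeal {S : Set σ} (I : Ideal R) {s : σ} (hs : s ∈ S) :
    (X s : MvPowerSeries σ R) ∈ coeffIdeal S I := by
  classical
  intro μ hμ
  rw [coeff_X, if_neg]
  · exact I.zero_mem
  · intro h
    have := hμ s hs
    rw [h, Finsupp.single_eq_same] at this
    exact one_ne_zero this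

theorem C_mem_coeffIdeal (S : Set σ) {I : Ideal R} {a : R} (ha : a ∈ I) :
    (C a : MvPowerSeries σ R) ∈ coeffIdeal S I := by
  classical
  intro μ _
  rw [coeff_C]
  split_ifs
  · exact ha
  · exact I.zero_mem

/-- A series with vanishing coefficients at all monomials avoiding the finite set `S` lies in
the ideal generated by the variables in `S`. -/
theorem mem_span_X_of_coeff_eq_zero [DecidableEq σ] (S : Finset σ) (F : MvPowerSeries σ R)
    (h : ∀ μ : σ →₀ ℕ, (∀ s ∈ S, μ s = 0) → coeff μ F = 0) :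
    F ∈ Ideal.span ((fun s => (X s : MvPowerSeries σ R)) '' (S : Set σ)) := by
  induction S using Finset.induction_on generalizing F with
  | empty =>
    have : F = 0 := by
      ext μ
      rw [h μ (by simp), map_zero]
    rw [this]
    exact Ideal.zero_mem _
  | insert s₀ S hs₀ ih =>
    let F₁ : MvPowerSeries σ R := fun μ => if μ s₀ = 0 then 0 else coeff μ F
    have hF₁ : ∀ μ, coeff μ F₁ = if μ s₀ = 0 then 0 else coeff μ F := fun μ => rfl
    have h1 : (X s₀ : MvPowerSeries σ R) ∣ F₁ :=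
      X_dvd_iff.2 fun m hm => by rw [hF₁, if_pos hm]
    have h2 : F - F₁ ∈ Ideal.span ((fun s => (X s : MvPowerSeries σ R)) '' (S : Set σ)) := by
      refine ih (F - F₁) fun μ hμ => ?_
      rw [map_sub, hF₁]
      split_ifs with h0
      · rw [sub_zero]
        refine h μ fun s hs => ?_
        rcases Finset.mem_insert.1 hs with rfl | hs
        · exact h0
        · exact hμ s hs
      · exact sub_self _
    have h3 : F = (F - F₁) + F₁ := by ring
    rw [h3]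
    refine Ideal.add_mem _ (Ideal.span_mono (Set.image_mono ?_) h2) ?_
    · intro s hs
      exact Finset.mem_insert_of_mem hs
    · obtain ⟨G, hG⟩ := h1
      rw [hG]
      exact Ideal.mul_mem_right _ _
        (Ideal.subset_span ⟨s₀, Finset.mem_insert_self s₀ S, rfl⟩)

/-- `coeffIdeal S (ϖ) = (X s : s ∈ S) + (ϖ)`. -/
theorem coeffIdeal_span_singleton [DecidableEq σ] (S : Finset σ) (ϖ : R) :
    coeffIdeal (S : Set σ) (Ideal.span {ϖ}) =
      Ideal.span ((fun s => (X s : MvPowerSeries σ R)) '' (S : Set σ)) ⊔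
        Ideal.span {(C ϖ : MvPowerSeries σ R)} := by
  apply le_antisymm
  · intro F hF
    -- the part of `F` avoiding `S` is divisible by `ϖ`
    have hc : ∀ μ : σ →₀ ℕ, ∃ c : R, (∀ s ∈ S, μ s = 0) → coeff μ F = ϖ * c := by
      intro μ
      by_cases hμ : ∀ s ∈ S, μ s = 0
      · obtain ⟨c, hc⟩ := Ideal.mem_span_singleton'.1 (hF μ hμ)
        exact ⟨c, fun _ => by rw [← hc, mul_comm]⟩
      · exact ⟨0, fun h => absurd h hμ⟩
    choose c hc using hc
    let G : MvPowerSeries σ R := fun μ => c μ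
    have hG : ∀ μ, coeff μ G = c μ := fun μ => rfl
    have h1 : F - C ϖ * G ∈ Ideal.span ((fun s => (X s : MvPowerSeries σ R)) '' (S : Set σ)) := by
      refine mem_span_X_of_coeff_eq_zero S _ fun μ hμ => ?_
      rw [map_sub, coeff_C_mul, hG, hc μ hμ, sub_self]
    have h2 : F = (F - C ϖ * G) + C ϖ * G := by ring
    rw [h2]
    exact Ideal.add_mem _ (Ideal.mem_sup_left h1)
      (Ideal.mem_sup_right (Ideal.mul_mem_right _ _ (Ideal.subset_span rfl)))
  · refine sup_le (Ideal.span_le.2 ?_) (Ideal.span_le.2 ?_)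
    · rintro _ ⟨s, hs, rfl⟩
      exact X_mem_coeffIdeal _ hs
    · rintro _ rfl
      exact C_mem_coeffIdeal _ (Ideal.subset_span rfl)

/-- The ring homomorphism with kernel `coeffIdeal S I`: reduce the coefficients modulo `I` and
kill the variables in `S`. -/
noncomputable def killHom (S : Set σ) (I : Ideal R) :
    MvPowerSeries σ R →+* MvPowerSeries {n : σ // n ∉ S} (R ⧸ I) :=
  ((killCompl (R := R ⧸ I) (Function.Embedding.subtype fun n : σ => n ∉ S)) :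
      MvPowerSeries σ (R ⧸ I) →+* MvPowerSeries {n : σ // n ∉ S} (R ⧸ I)).comp
    (MvPowerSeries.map (Ideal.Quotient.mk I))

theorem coeff_killHom (S : Set σ) (I : Ideal R) (F : MvPowerSeries σ R)
    (x : {n : σ // n ∉ S} →₀ ℕ) :
    coeff x (killHom S I F) =
      Ideal.Quotient.mk I (coeff (embDomain (Function.Embedding.subtype fun n : σ => n ∉ S) x) F) := by
  rw [killHom, RingHom.comp_apply]
  erw [coeff_killCompl]

theorem ker_killHom (S : Set σ) (I : Ideal R) :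
    RingHom.ker (killHom S I) = coeffIdeal S I := by
  ext F
  rw [RingHom.mem_ker, mem_coeffIdeal]
  constructor
  · intro h μ hμ
    have hμ' : μ ∈ Set.range (embDomain (Function.Embedding.subtype fun n : σ => n ∉ S)) := by
      rw [mem_range_embDomain_iff]
      intro n hn
      refine ⟨⟨n, fun hnS => ?_⟩, rfl⟩
      have h1 : μ n ≠ 0 := Finsupp.mem_support_iff.1 hn
      exact h1 (hμ n hnS)
    obtain ⟨x, rfl⟩ := hμ'
    have h2 := congrArg (coeff x) h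
    rw [coeff_killHom, map_zero] at h2
    exact Ideal.Quotient.eq_zero_iff_mem.1 h2
  · intro h
    ext x
    rw [coeff_killHom, map_zero]
    refine Ideal.Quotient.eq_zero_iff_mem.2 (h _ fun s hs => ?_)
    by_contra hne
    have h1 : s ∈ (embDomain (Function.Embedding.subtype fun n : σ => n ∉ S) x).support :=
      Finsupp.mem_support_iff.2 hne
    rw [Finsupp.support_embDomain, Finset.mem_map] at h1
    obtain ⟨t, -, ht⟩ := h1
    have ht' : (t : σ) = s := ht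
    rw [← ht'] at hs
    exact t.2 hs

/-- `coeffIdeal S I` is prime when `I` is prime. -/
theorem coeffIdeal_isPrime (S : Set σ) (I : Ideal R) [I.IsPrime] : (coeffIdeal S I).IsPrime := by
  rw [← ker_killHom]
  have : IsDomain (MvPowerSeries {n : σ // n ∉ S} (R ⧸ I)) := NoZeroDivisors.to_isDomain _
  exact RingHom.ker_isPrime _

end Fermat.Agent.L.Pivot.H52

end
-- ==== END Fermat.Agent.L.Pivot.H52_LocKill

-- ==== BEGIN Fermat.Agent.L.Pivot.H59_TameGen
section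

/-!
# PIVOT, package PV-TAME (helper59), part T0: a UNIFORM tame generator

`S59.TWGal.stmt_TAME` gives, for every finite extension `F` of `ℚ`, an element `τ₀` of the inertia
group `I_P` generating the image of `I_P` in `Gal(F/ℚ)` modulo elements of `q`-power order, with
`φ τ₀ φ⁻¹ = τ₀ ^ q` modulo such elements.  Here ONE `τ₀` is produced that works for all `F`
(compactness of `G_ℚ`, closedness of `I_P`).
-/

set_option autoImplicit false
set_option linter.style.haveILetI false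

namespace Fermat.Agent.L.Pivot.H59

open Fermat.Agent.S59.TWGal
open scoped Pointwise

/-! ### Krull topology: conditions on one value are clopen -/

/-- The level sets of the evaluation at `x` are open in the Krull topology. -/
theorem isOpen_setOf_apply_eq (x y : Qb) : IsOpen {σ : GQ | σ x = y} := by
  have := Fermat.Agent.Lib.InertiaLift.qbar_isAlgebraic'
  by_cases h : ∃ σ₀ : GQ, σ₀ x = y
  · obtain ⟨σ₀, rfl⟩ := h
    have h1 : {σ : GQ | σ x = σ₀ x} = σ₀ • (MulAction.stabilizer GQ x : Set GQ) := by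
      ext σ
      rw [Set.mem_smul_set_iff_inv_smul_mem, Set.mem_ofPred_eq, SetLike.mem_coe,
        MulAction.mem_stabilizer_iff, smul_eq_mul]
      constructor
      · intro hσ
        change (σ₀⁻¹ * σ) x = x
        rw [AlgEquiv.mul_apply, hσ]
        change (σ₀⁻¹ * σ₀) x = x
        rw [inv_mul_cancel]
        rfl
      · intro hσ
        have h2 : (σ₀⁻¹ * σ) x = x := hσ
        have h3 : σ₀ ((σ₀⁻¹ * σ) x) = σ x := by
          change (σ₀ * (σ₀⁻¹ * σ)) x = σ x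
          rw [mul_inv_cancel_left]
        rw [← h3, h2]
    rw [h1]
    exact (stabilizer_isOpen_of_isIntegral x).smul σ₀
  · have h1 : {σ : GQ | σ x = y} = ∅ := by
      ext σ
      simp only [Set.mem_ofPred_eq, Set.mem_empty_iff_false, iff_false]
      exact fun hσ => h ⟨σ, hσ⟩
    rw [h1]
    exact isOpen_empty

/-- Conditions on a single value are open in the Krull topology. -/
theorem isOpen_setOf_apply_mem (x : Qb) (S : Set Qb) : IsOpen {σ : GQ | σ x ∈ S} := by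
  have h1 : {σ : GQ | σ x ∈ S} = ⋃ y ∈ S, {σ : GQ | σ x = y} := by
    ext σ
    simp only [Set.mem_ofPred_eq, Set.mem_iUnion, exists_prop, exists_eq_right']
  rw [h1]
  exact isOpen_biUnion fun y _ => isOpen_setOf_apply_eq x y

/-- Conditions on a single value are closed in the Krull topology. -/
theorem isClosed_setOf_apply_mem (x : Qb) (S : Set Qb) : IsClosed {σ : GQ | σ x ∈ S} := by
  refine ⟨?_⟩
  have h1 : {σ : GQ | σ x ∈ S}ᶜ = {σ : GQ | σ x ∈ Sᶜ} := by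
    ext σ
    simp only [Set.mem_compl_iff, Set.mem_ofPred_eq]
  rw [h1]
  exact isOpen_setOf_apply_mem x _

/-- The inertia group of a valuation subring of `ℚ̄` is closed in the Krull topology. -/
theorem isClosed_inertiaSubgroupIn (P : ValuationSubring Qb) :
    IsClosed (P.inertiaSubgroupIn ℚ : Set GQ) := by
  classical
  have h1 : (P.inertiaSubgroupIn ℚ : Set GQ) =
      (⋂ a : Qb, {σ : GQ | σ a ∈ (if a ∈ P then (P : Set Qb) else (P : Set Qb)ᶜ)}) ∩
      ⋂ a : Qb, {σ : GQ | σ a ∈ (if a ∈ P then {y : Qb | P.valuation (y - a) < 1}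
        else Set.univ)} := by
    ext σ
    rw [SetLike.mem_coe, Fermat.Agent.Lib.InertiaBridge.mem_inertiaSubgroupIn_iff_forall,
      Fermat.Agent.Lib.InertiaBridge.mem_decompositionSubgroup_iff_forall]
    simp only [Set.mem_inter_iff, Set.mem_iInter, Set.mem_ofPred_eq]
    constructor
    · rintro ⟨hd, hi⟩
      refine ⟨fun a => ?_, fun a => ?_⟩
      · by_cases ha : a ∈ P
        · rw [if_pos ha]; exact (hd a).2 ha
        · rw [if_neg ha]; exact fun h => ha ((hd a).1 h)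
      · by_cases ha : a ∈ P
        · rw [if_pos ha]; exact hi a ha
        · rw [if_neg ha]; exact Set.mem_univ _
    · rintro ⟨hd, hi⟩
      refine ⟨fun a => ?_, fun a ha => ?_⟩
      · have := hd a
        by_cases ha : a ∈ P
        · rw [if_pos ha] at this; exact ⟨fun _ => ha, fun _ => this⟩
        · rw [if_neg ha] at this; exact ⟨fun h => absurd h this, fun h => absurd h ha⟩
      · have := hi a
        rw [if_pos ha] at this
        exact this
  rw [h1]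
  exact (isClosed_iInter fun a => isClosed_setOf_apply_mem a _).inter
    (isClosed_iInter fun a => isClosed_setOf_apply_mem a _)

/-! ### The tame condition at finite level -/

/-- `τ₀` is a tame generator at the level `F`: modulo the subgroup fixing `F`, every element of
the inertia group is a power of `τ₀` up to an element of `q`-power order, and
`φ τ₀ φ⁻¹ = τ₀ ^ q` up to an element of `q`-power order. -/
def TameAt (P : ValuationSubring Qb) (φ : GQ) (q : ℕ) (F : IntermediateField ℚ Qb)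
    (τ₀ : GQ) : Prop :=
  (∀ σ ∈ P.inertiaSubgroupIn ℚ, ∃ j e : ℕ,
      ((τ₀ ^ j)⁻¹ * σ) ^ (q ^ e) ∈ F.fixingSubgroup) ∧
    ∃ e : ℕ, ((τ₀ ^ q)⁻¹ * (φ * τ₀ * φ⁻¹)) ^ (q ^ e) ∈ F.fixingSubgroup

theorem TameAt.mono {P : ValuationSubring Qb} {φ : GQ} {q : ℕ}
    {F F' : IntermediateField ℚ Qb} (h : F ≤ F') {τ₀ : GQ} (hτ : TameAt P φ q F' τ₀) :
    TameAt P φ q F τ₀ := by
  have hle := IntermediateField.fixingSubgroup_antitone h
  refine ⟨fun σ hσ => ?_, ?_⟩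
  · obtain ⟨j, e, hje⟩ := hτ.1 σ hσ
    exact ⟨j, e, hle hje⟩
  · obtain ⟨e, he⟩ := hτ.2
    exact ⟨e, hle he⟩

/-- For `F` normal, the tame condition at the level `F` only depends on the restriction of `τ₀`
to `F`. -/
theorem tameAt_iff_of_normal (P : ValuationSubring Qb) (φ : GQ) (q : ℕ)
    (F : IntermediateField ℚ Qb) [hn : Normal ℚ F] (τ₀ : GQ) :
    TameAt P φ q F τ₀ ↔
      ((∀ σ ∈ P.inertiaSubgroupIn ℚ, ∃ j e : ℕ,
        ((AlgEquiv.restrictNormalHom F τ₀ ^ j)⁻¹ * AlgEquiv.restrictNormalHom F σ) ^ (q ^ e)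
          = 1) ∧
      ∃ e : ℕ, ((AlgEquiv.restrictNormalHom F τ₀ ^ q)⁻¹ *
        (AlgEquiv.restrictNormalHom F φ * AlgEquiv.restrictNormalHom F τ₀ *
          (AlgEquiv.restrictNormalHom F φ)⁻¹)) ^ (q ^ e) = 1) := by
  have hker : ∀ g : GQ, g ∈ F.fixingSubgroup ↔ AlgEquiv.restrictNormalHom F g = 1 := by
    intro g
    rw [← @IntermediateField.restrictNormalHom_ker ℚ Qb _ _ _ F hn, MonoidHom.mem_ker]
    exact Iff.rfl
  unfold TameAt
  simp only [hker, map_pow, map_mul, map_inv]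

/-- The set of tame generators at a normal level is closed. -/
theorem isClosed_setOf_tameAt (P : ValuationSubring Qb) (φ : GQ) (q : ℕ)
    (F : IntermediateField ℚ Qb) [FiniteDimensional ℚ F] [hn : Normal ℚ F] :
    IsClosed {τ₀ : GQ | TameAt P φ q F τ₀} := by
  have hcont := @InfiniteGalois.restrictNormalHom_continuous ℚ Qb _ _ _ F hn
  let T : Set (F ≃ₐ[ℚ] F) := {t | (∀ σ ∈ P.inertiaSubgroupIn ℚ, ∃ j e : ℕ,
        ((t ^ j)⁻¹ * AlgEquiv.restrictNormalHom F σ) ^ (q ^ e) = 1) ∧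
      ∃ e : ℕ, ((t ^ q)⁻¹ * (AlgEquiv.restrictNormalHom F φ * t *
          (AlgEquiv.restrictNormalHom F φ)⁻¹)) ^ (q ^ e) = 1}
  have h1 : {τ₀ : GQ | TameAt P φ q F τ₀} = (AlgEquiv.restrictNormalHom F) ⁻¹' T := by
    ext τ₀
    rw [Set.mem_ofPred_eq, tameAt_iff_of_normal]
    rfl
  rw [h1]
  exact (isClosed_discrete T).preimage hcont

/-! ### The uniform generator -/

/-- **T0 (uniform tame generator).**  There is ONE element `τ₀` of the inertia group at `P`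
which is a tame generator at every finite level. -/
theorem exists_uniform_tame_generator (q : ℕ) (hq : q.Prime) (P : ValuationSubring Qb)
    (hP : P.LiesOverPrime q) (φ : GQ) (hφ : P.IsFrobeniusAt φ q) :
    ∃ τ₀ ∈ P.inertiaSubgroupIn ℚ, ∀ F : IntermediateField ℚ Qb, FiniteDimensional ℚ F →
      TameAt P φ q F τ₀ := by
  classical
  haveI : IsGalois ℚ Qb := Fermat.Agent.Lib.InertiaLift.qbar_isGalois'
  let ι := {F : IntermediateField ℚ Qb // FiniteDimensional ℚ F}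
  let t : ι → Set GQ := fun F =>
    {τ₀ | TameAt P φ q (IntermediateField.normalClosure ℚ F.1 Qb) τ₀}
  have hclosed : ∀ F : ι, IsClosed (t F) := by
    intro F
    haveI := F.2
    haveI : Normal ℚ (IntermediateField.normalClosure ℚ F.1 Qb) := normalClosure.normal ℚ F.1 Qb
    exact isClosed_setOf_tameAt P φ q _
  have hfin : ∀ u : Finset ι,
      ((P.inertiaSubgroupIn ℚ : Set GQ) ∩ ⋂ F ∈ u, t F).Nonempty := by
    intro u
    let G : IntermediateField ℚ Qb := ⨆ F ∈ u, (F : ι).1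
    haveI hG : FiniteDimensional ℚ G :=
      IntermediateField.finiteDimensional_iSup_of_finset' (fun F _ => F.2)
    have hGn : FiniteDimensional ℚ (IntermediateField.normalClosure ℚ G Qb) := inferInstance
    obtain ⟨τ₀, hτ₀, h1, h2, -⟩ :=
      Fermat.Agent.S59.TWGal.H59.stmt_TAME q hq P hP φ hφ (IntermediateField.normalClosure ℚ G Qb) hGn
    refine ⟨τ₀, hτ₀, ?_⟩
    simp only [Set.mem_iInter]
    intro F hF
    have hle : F.1 ≤ G := le_iSup_of_le F (le_iSup (fun _ => F.1) hF)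
    exact TameAt.mono (IntermediateField.normalClosure_mono _ _ hle) ⟨h1, h2⟩
  obtain ⟨τ₀, hτ₀, hτ⟩ :=
    (isClosed_inertiaSubgroupIn P).isCompact.inter_iInter_nonempty t hclosed hfin
  refine ⟨τ₀, hτ₀, fun F hF => ?_⟩
  have h := Set.mem_iInter.1 hτ ⟨F, hF⟩
  exact TameAt.mono F.le_normalClosure h

end Fermat.Agent.L.Pivot.H59

end
-- ==== END Fermat.Agent.L.Pivot.H59_TameGen

-- ==== BEGIN Fermat.Agent.L.Pivot.H72_PVGalAAlg
section

set_option autoImplicit false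
set_option linter.unusedSectionVars false
set_option linter.style.haveILetI false

namespace Fermat.Agent.L.Pivot.H72

open IsLocalRing Fermat.Agent.S53
open scoped TensorProduct

section Scalar

variable {A : Type} [CommRing A] [IsLocalRing A]

/-- Base change of a residual representation: a scalar stays a scalar. -/
theorem resBaseChange_scalar {k k' : Type} [Field k] [Field k'] [Algebra k k']
    (ρbar : ResidualGaloisRep k) (σ : GQ) (c : k)
    (h : ρbar.ρ σ = c • (1 : Module.End k ρbar.V)) :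
    (ρbar.baseChange k').ρ σ =
      algebraMap k k' c • (1 : Module.End k' (ρbar.baseChange k').V) := by
  show (ρbar.ρ σ).baseChange k' = _
  rw [h]
  refine LinearMap.ext fun x => ?_
  induction x using TensorProduct.induction_on with
  | zero => simp
  | tmul a v =>
    rw [LinearMap.baseChange_tmul]
    simp only [LinearMap.smul_apply, Module.End.one_apply]
    rw [TensorProduct.tmul_smul, TensorProduct.smul_tmul', Algebra.smul_def,
      TensorProduct.smul_tmul', smul_eq_mul]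
  | add x y hx hy => rw [map_add, hx, hy, map_add]

/-- If `σ` acts as the scalar `c` in a representation equivalent to the residual representation
of `ρ`, then the matrix of `ρ σ` in any basis is the scalar `c` modulo the maximal ideal. -/
theorem residue_toMatrix_of_scalar (ρ : GaloisRepAdic A)
    (ρ' : ResidualGaloisRep (ResidueField A)) (h : ρ.residual.IsEquiv ρ')
    (σ : GQ) (c : ResidueField A) (hσ : ρ'.ρ σ = c • (1 : Module.End (ResidueField A) ρ'.V))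
    (b : Module.Basis (Fin 2) A ρ.V) (i j : Fin 2) :
    residue A (LinearMap.toMatrix b b (ρ.ρ σ) i j) = if i = j then c else 0 := by
  obtain ⟨e⟩ := h
  have h1 : (ρ.ρ σ).baseChange (ResidueField A) =
      c • (1 : Module.End (ResidueField A) (ResidueField A ⊗[A] ρ.V)) := by
    refine LinearMap.ext fun x => ?_
    apply e.toLinearEquiv.injective
    have := e.map_apply σ x
    rw [hσ] at this
    refine this.trans ?_
    simp only [LinearMap.smul_apply, Module.End.one_apply]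
    exact (map_smul e.toLinearEquiv c x).symm
  have h2 : LinearMap.toMatrix (Algebra.TensorProduct.basis (ResidueField A) b)
      (Algebra.TensorProduct.basis (ResidueField A) b)
      ((ρ.ρ σ).baseChange (ResidueField A)) =
      (LinearMap.toMatrix b b (ρ.ρ σ)).map (residue A) := by
    rw [LinearMap.toMatrix_baseChange]
    rfl
  have h3 := congrFun (congrFun h2 i) j
  rw [Matrix.map_apply] at h3
  rw [← h3, h1, map_smul]
  have : LinearMap.toMatrix (Algebra.TensorProduct.basis (ResidueField A) b)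
      (Algebra.TensorProduct.basis (ResidueField A) b)
      (1 : Module.End (ResidueField A) (ResidueField A ⊗[A] ρ.V)) = 1 := LinearMap.toMatrix_one _
  rw [this, Matrix.smul_apply, Matrix.one_apply]
  split_ifs <;> simp

/-- If `φ` kills the traceless part of the matrix of `f`, then `f.baseChange` is the scalar
`φ (M 0 0)`. -/
theorem baseChange_eq_smul_of_map {B : Type} [CommRing B] (φ : A →+* B)
    {V : Type} [AddCommGroup V] [Module A V] (b : Module.Basis (Fin 2) A V)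
    (f : Module.End A V)
    (h01 : φ (LinearMap.toMatrix b b f 0 1) = 0) (h10 : φ (LinearMap.toMatrix b b f 1 0) = 0)
    (hd : φ (LinearMap.toMatrix b b f 0 0 - LinearMap.toMatrix b b f 1 1) = 0) :
    letI : Algebra A B := φ.toAlgebra
    f.baseChange B = φ (LinearMap.toMatrix b b f 0 0) • (1 : Module.End B (B ⊗[A] V)) := by
  letI : Algebra A B := φ.toAlgebra
  apply (LinearMap.toMatrix (Algebra.TensorProduct.basis B b)
    (Algebra.TensorProduct.basis B b)).injective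
  rw [LinearMap.toMatrix_baseChange, map_smul]
  have : LinearMap.toMatrix (Algebra.TensorProduct.basis B b)
      (Algebra.TensorProduct.basis B b) (1 : Module.End B (B ⊗[A] V)) = 1 :=
    LinearMap.toMatrix_one _
  rw [this]
  have hd' : φ (LinearMap.toMatrix b b f 1 1) = φ (LinearMap.toMatrix b b f 0 0) := by
    rw [map_sub, sub_eq_zero] at hd
    exact hd.symm
  ext i j
  rw [Matrix.map_apply, Matrix.smul_apply, Matrix.one_apply]
  show φ _ = _
  fin_cases i <;> fin_cases j <;> simp [h01, h10, hd']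

/-- `s² = 1`, `s ≡ 1 mod 𝔪`, `2` a unit: `s = 1`. -/
theorem eq_one_of_sq_eq_one (h2 : IsUnit (2 : A)) (s : A) (hs : s * s = 1)
    (hs1 : s - 1 ∈ maximalIdeal A) : s = 1 := by
  have hu : IsUnit (s + 1) := by
    have e : s + 1 = 2 + (s - 1) := by ring
    rw [e]
    by_contra hn
    have h3 : (2 : A) + (s - 1) ∈ maximalIdeal A := (mem_maximalIdeal _).2 hn
    have h4 : (2 : A) ∈ maximalIdeal A := by
      have := (maximalIdeal A).sub_mem h3 hs1
      simpa using this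
    exact (mem_maximalIdeal _).1 h4 h2
  have h0 : (s + 1) * (s - 1) = 0 := by
    have : (s + 1) * (s - 1) = s * s - 1 := by ring
    rw [this, hs, sub_self]
  have := hu.mul_right_eq_zero.1 h0
  exact sub_eq_zero.1 this

/-- `2` is a unit in a local ring in which the odd prime `p` is not a unit. -/
theorem isUnit_two_of_odd {p : ℕ} (hp : p.Prime) (hp2 : p ≠ 2) (hpA : (p : A) ∈ maximalIdeal A) :
    IsUnit (2 : A) := by
  by_contra hn
  have h2 : (2 : A) ∈ maximalIdeal A := (mem_maximalIdeal _).2 hn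
  obtain ⟨m, hm⟩ := hp.odd_of_ne_two hp2
  have h1 : (1 : A) = (p : A) - 2 * (m : A) := by
    rw [hm]; push_cast; ring
  have : (1 : A) ∈ maximalIdeal A := by
    rw [h1]
    exact (maximalIdeal A).sub_mem hpA ((maximalIdeal A).mul_mem_right _ h2)
  exact (mem_maximalIdeal _).1 this isUnit_one

end Scalar

section Gens

variable {𝒪 : Type} [CommRing 𝒪] [IsLocalRing 𝒪] [Finite (ResidueField 𝒪)]
variable {R : Type} [CommRing R] [IsLocalRing R] [IsNoetherianRing R] [Algebra 𝒪 R]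
  [IsLocalHom (algebraMap 𝒪 R)]

/-- **Relative generators.**  If the homomorphisms `R → k[ε]` killing `J` inject into a set with
at most `|k|^g` elements, then `m_R` is generated by `g` elements together with `m_𝒪` and `J`. -/
theorem exists_gens_rel (hres : Function.Surjective (residue R ∘ algebraMap 𝒪 R))
    (J : Ideal R) (hJ : J ≤ maximalIdeal R) (g : ℕ) {Q : Type*} [Finite Q]
    (hQ : Nat.card Q ≤ Nat.card (ResidueField 𝒪) ^ g)
    (F : {φ : (letI := dualNumberAlgebra 𝒪; R →ₐ[𝒪] DualNumber (ResidueField 𝒪)) //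
      ∀ x ∈ J, φ x = 0} → Q)
    (hF : Function.Injective F) :
    ∃ x : Fin g → R, (∀ i, x i ∈ maximalIdeal R) ∧
      maximalIdeal R ≤
        Ideal.span (Set.range x) ⊔ (maximalIdeal 𝒪).map (algebraMap 𝒪 R) ⊔ J := by
  letI := dualNumberAlgebra 𝒪
  have hJtop : J ≠ ⊤ := fun h => (Ideal.IsMaximal.ne_top (maximalIdeal.isMaximal R))
    (top_le_iff.1 (h ▸ hJ))
  haveI : Nontrivial (R ⧸ J) := Ideal.Quotient.nontrivial_iff.2 hJtop
  haveI : IsLocalRing (R ⧸ J) :=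
    IsLocalRing.of_surjective' (Ideal.Quotient.mk J) Ideal.Quotient.mk_surjective
  have hmkloc : IsLocalHom (Ideal.Quotient.mk J) :=
    IsLocalHom.of_surjective _ Ideal.Quotient.mk_surjective
  have halg : (algebraMap 𝒪 (R ⧸ J)) = (Ideal.Quotient.mk J).comp (algebraMap 𝒪 R) := rfl
  haveI : IsLocalHom (algebraMap 𝒪 (R ⧸ J)) := by
    rw [halg]
    refine ⟨fun a ha => ?_⟩
    have h1 : IsUnit (algebraMap 𝒪 R a) := hmkloc.map_nonunit _ ha
    exact isUnit_of_map_unit (algebraMap 𝒪 R) a h1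
  have hres' : Function.Surjective (residue (R ⧸ J) ∘ algebraMap 𝒪 (R ⧸ J)) := by
    intro y
    obtain ⟨y', rfl⟩ := residue_surjective y
    obtain ⟨z, rfl⟩ := Ideal.Quotient.mk_surjective y'
    obtain ⟨c, hc⟩ := H55.exists_scalar_sub_mem hres z
    refine ⟨c, ?_⟩
    simp only [Function.comp_apply]
    rw [← sub_eq_zero, ← map_sub, residue_eq_zero_iff, halg, RingHom.comp_apply, ← map_sub,
      mem_maximalIdeal, mem_nonunits_iff]
    intro hu
    have h1 : IsUnit (algebraMap 𝒪 R c - z) := hmkloc.map_nonunit _ hu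
    have h2 : algebraMap 𝒪 R c - z ∈ maximalIdeal R := by
      have := (maximalIdeal R).neg_mem hc
      simpa using this
    exact (mem_maximalIdeal _).1 h2 h1
  -- the injection for the quotient
  let F' : ((R ⧸ J) →ₐ[𝒪] DualNumber (ResidueField 𝒪)) → Q := fun φ' =>
    F ⟨φ'.comp (Ideal.Quotient.mkₐ 𝒪 J), fun x hx => by
      rw [AlgHom.comp_apply, Ideal.Quotient.mkₐ_eq_mk, Ideal.Quotient.eq_zero_iff_mem.2 hx,
        map_zero]⟩
  have hF' : Function.Injective F' := by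
    intro φ ψ h
    have h1 := congrArg Subtype.val (hF h)
    refine AlgHom.ext fun y => ?_
    obtain ⟨z, rfl⟩ := Ideal.Quotient.mk_surjective y
    exact congrArg (fun t : R →ₐ[𝒪] DualNumber (ResidueField 𝒪) => t z) h1
  have hcard : Nat.card (H55.RelCot 𝒪 (R ⧸ J)) ≤ Nat.card (ResidueField 𝒪) ^ g :=
    (Fermat.Agent.S56.H50.card_relCot_le_of_injective hres' F' hF').trans hQ
  obtain ⟨x', hx', hgen'⟩ := Fermat.Agent.S56.H50.exists_gens_of_card_le hres' g hcard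
  have hgen := Fermat.Agent.S56.H50.le_of_le_sup_sq _ hgen'
  choose x hx using fun i => Ideal.Quotient.mk_surjective (x' i)
  have hxm : ∀ i, x i ∈ maximalIdeal R := by
    intro i
    rw [mem_maximalIdeal, mem_nonunits_iff]
    intro hu
    have h1 : IsUnit (x' i) := by
      rw [← hx i]
      exact hu.map (Ideal.Quotient.mk J)
    exact (mem_maximalIdeal _).1 (hx' i) h1
  refine ⟨x, hxm, fun z hz => ?_⟩
  have hz' : Ideal.Quotient.mk J z ∈ maximalIdeal (R ⧸ J) := by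
    rw [mem_maximalIdeal, mem_nonunits_iff]
    intro hu
    exact (mem_maximalIdeal _).1 hz (hmkloc.map_nonunit _ hu)
  have h1 := hgen hz'
  have hmap : Ideal.span (Set.range x') ⊔ (maximalIdeal 𝒪).map (algebraMap 𝒪 (R ⧸ J)) =
      (Ideal.span (Set.range x) ⊔ (maximalIdeal 𝒪).map (algebraMap 𝒪 R)).map
        (Ideal.Quotient.mk J) := by
    rw [Ideal.map_sup, Ideal.map_span, Ideal.map_map, ← halg]
    congr 2
    ext y
    constructor
    · rintro ⟨i, rfl⟩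
      exact ⟨x i, ⟨i, rfl⟩, hx i⟩
    · rintro ⟨_, ⟨i, rfl⟩, rfl⟩
      exact ⟨i, (hx i).symm⟩
  rw [hmap] at h1
  have h2 : z ∈ ((Ideal.span (Set.range x) ⊔ (maximalIdeal 𝒪).map (algebraMap 𝒪 R)).map
      (Ideal.Quotient.mk J)).comap (Ideal.Quotient.mk J) := h1
  rw [Ideal.comap_map_of_surjective _ Ideal.Quotient.mk_surjective, ← RingHom.ker_eq_comap_bot,
    Ideal.mk_ker] at h2
  exact h2

end Gens

end Fermat.Agent.L.Pivot.H72

end
-- ==== END Fermat.Agent.L.Pivot.H72_PVGalAAlg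

-- ==== BEGIN Fermat.Agent.L.Pivot.H76_Supp
section

set_option autoImplicit false
set_option linter.style.haveILetI false

namespace Fermat.Agent.L.Pivot.H76

open IsLocalRing

section Reduced

variable {R : Type*} [CommRing R] [IsReduced R]

/-- In a reduced ring an element of a minimal prime `𝔮` is killed by an element outside `𝔮`. -/
theorem exists_notMem_mul_eq_zero {𝔮 : Ideal R} (h𝔮 : 𝔮 ∈ minimalPrimes R) {x : R}
    (hx : x ∈ 𝔮) : ∃ y ∉ 𝔮, x * y = 0 := by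
  have h𝔮p : 𝔮.IsPrime := h𝔮.1.1
  by_contra hcon
  have hcon' : ∀ y : R, y ∉ 𝔮 → x * y ≠ 0 := fun y hy h => hcon ⟨y, hy, h⟩
  have hdisj : Disjoint ((⊥ : Ideal R) : Set R) (𝔮.primeCompl ⊔ Submonoid.powers x : Submonoid R) := by
    rw [Set.disjoint_left]
    intro z hz hzS
    have hz0 : z = 0 := hz
    obtain ⟨y, hy, t, ⟨n, rfl⟩, hyt⟩ := Submonoid.mem_sup.1 hzS
    rw [hz0] at hyt
    have hxy : (x * y) ^ (n + 1) = 0 := by
      have h1 : (x * y) ^ (n + 1) = x * y ^ n * (y * x ^ n) := by ring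
      rw [h1, hyt, mul_zero]
    exact hcon' y hy (IsReduced.eq_zero _ ⟨n + 1, hxy⟩)
  obtain ⟨𝔭, h𝔭, -, h𝔭S⟩ := Ideal.exists_le_prime_disjoint (⊥ : Ideal R) _ hdisj
  have hle : 𝔭 ≤ 𝔮 := by
    intro z hz
    by_contra hz𝔮
    exact Set.disjoint_left.1 h𝔭S hz
      ((le_sup_left : 𝔮.primeCompl ≤ 𝔮.primeCompl ⊔ Submonoid.powers x) hz𝔮)
  have hge : 𝔮 ≤ 𝔭 := h𝔮.2 ⟨h𝔭, bot_le⟩ hle
  exact Set.disjoint_left.1 h𝔭S (hge hx)
    ((le_sup_right : Submonoid.powers x ≤ 𝔮.primeCompl ⊔ Submonoid.powers x)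
      (Submonoid.mem_powers x))

/-- In a reduced ring an element outside all minimal primes is a nonzerodivisor. -/
theorem mul_eq_zero_of_notMem_minimalPrimes {s : R} (hs : ∀ 𝔮 ∈ minimalPrimes R, s ∉ 𝔮)
    {x : R} (hx : s * x = 0) : x = 0 := by
  have hmem : x ∈ sInf (minimalPrimes R) := by
    rw [Submodule.mem_sInf]
    intro 𝔮 h𝔮
    have h𝔮p : Ideal.IsPrime 𝔮 := h𝔮.1.1
    have h1 : s * x ∈ 𝔮 := by
      rw [hx]
      exact Submodule.zero_mem 𝔮
    exact (h𝔮p.mem_or_mem h1).resolve_left (hs 𝔮 h𝔮)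
  have h5 : sInf (minimalPrimes R) = nilradical R := by
    rw [minimalPrimes, Ideal.sInf_minimalPrimes]
    rfl
  rw [h5, nilradical_eq_zero] at hmem
  exact hmem

end Reduced

section Core

variable {𝒪 : Type*} [CommRing 𝒪] [IsDomain 𝒪] [IsNoetherianRing 𝒪]
  {T : Type*} [CommRing T] [IsReduced T] [Algebra 𝒪 T] [Module.Finite 𝒪 T]
  {V : Type*} [AddCommGroup V] [Module 𝒪 V]

/-- **SUPP, core.**  If `a` lies in every minimal prime of `T` containing
`{t | η t V ⊆ U}` and `U` is saturated then `η a V ⊆ U`. -/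
theorem supp_core (η : T →ₐ[𝒪] Module.End 𝒪 V) (U : Submodule 𝒪 V)
    (hsat : ∀ c : 𝒪, c ≠ 0 → ∀ v : V, c • v ∈ U → v ∈ U) (a : T)
    (ha : ∀ 𝔮 ∈ minimalPrimes T, (∀ t : T, (∀ v : V, η t v ∈ U) → t ∈ 𝔮) → a ∈ 𝔮)
    (v : V) : η a v ∈ U := by
  classical
  haveI : IsNoetherianRing T := IsNoetherianRing.of_finite 𝒪 T
  -- the annihilator of `V / U`
  let I : Ideal T :=
    { carrier := {t | ∀ v : V, η t v ∈ U}
      add_mem' := fun {s t} hs ht v => by
        rw [map_add, LinearMap.add_apply]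
        exact U.add_mem (hs v) (ht v)
      zero_mem' := fun v => by
        rw [map_zero, LinearMap.zero_apply]
        exact U.zero_mem
      smul_mem' := fun c t ht v => by
        rw [smul_eq_mul, mul_comm, map_mul, Module.End.mul_apply]
        exact ht _ }
  have hI : ∀ t : T, t ∈ I ↔ ∀ v : V, η t v ∈ U := fun _ => Iff.rfl
  -- the annihilator of `a`
  let K : Ideal T :=
    { carrier := {w | w * a = 0}
      add_mem' := fun {s t} hs ht => by
        show (s + t) * a = 0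
        rw [add_mul, hs, ht, add_zero]
      zero_mem' := zero_mul a
      smul_mem' := fun c t ht => by
        show c • t * a = 0
        rw [smul_eq_mul, mul_assoc, ht, mul_zero] }
  have hK : ∀ w : T, w ∈ K ↔ w * a = 0 := fun _ => Iff.rfl
  have hfin : (minimalPrimes T).Finite := minimalPrimes.finite_of_isNoetherianRing T
  -- prime avoidance
  have hav : ¬ ((↑(I ⊔ K) : Set T) ⊆ ⋃ 𝔮 ∈ (↑hfin.toFinset : Set (Ideal T)), (𝔮 : Set T)) := by
    intro hsub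
    have h1 := (Ideal.subset_union_prime (s := hfin.toFinset) (f := fun 𝔮 : Ideal T => 𝔮)
      (⊥ : Ideal T) (⊥ : Ideal T) (fun 𝔮 h𝔮 _ _ => ((hfin.mem_toFinset).1 h𝔮).1.1)
      (I := I ⊔ K)).1 hsub
    obtain ⟨𝔮, h𝔮, hle⟩ := h1
    have h𝔮min : 𝔮 ∈ minimalPrimes T := (hfin.mem_toFinset).1 h𝔮
    have ha𝔮 : a ∈ 𝔮 := ha 𝔮 h𝔮min fun t ht => hle (Ideal.mem_sup_left ((hI t).2 ht))
    obtain ⟨y, hy, hay⟩ := exists_notMem_mul_eq_zero h𝔮min ha𝔮
    exact hy (hle (Ideal.mem_sup_right ((hK y).2 (by rw [mul_comm]; exact hay))))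
  obtain ⟨s, hsJ, hs⟩ := Set.not_subset.1 hav
  have hs' : ∀ 𝔮 ∈ minimalPrimes T, s ∉ 𝔮 := by
    intro 𝔮 h𝔮 hs𝔮
    refine hs (Set.mem_biUnion (x := 𝔮) ?_ hs𝔮)
    exact Finset.mem_coe.2 ((hfin.mem_toFinset).2 h𝔮)
  obtain ⟨u, hu, w, hw, rfl⟩ := Submodule.mem_sup.1 hsJ
  -- `u + w` is a nonzerodivisor, hence divides a nonzero element of `𝒪`
  have hnzd : u + w ∈ nonZeroDivisors T := by
    rw [mem_nonZeroDivisors_iff_right]
    intro x hx
    exact mul_eq_zero_of_notMem_minimalPrimes hs' (by rw [mul_comm]; exact hx)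
  haveI : Algebra.IsIntegral 𝒪 T := Algebra.IsIntegral.of_finite 𝒪 T
  have halg : IsAlgebraic 𝒪 (u + w) := (Algebra.IsIntegral.isIntegral (R := 𝒪) (u + w)).isAlgebraic
  obtain ⟨r, hr, s', hs'⟩ := halg.exists_nonzero_dvd hnzd
  refine hsat r hr _ ?_
  have h1 : r • η a v = η (u * (s' * a)) v := by
    have h2 : algebraMap 𝒪 T r * a = u * (s' * a) + (w * a) * s' := by
      rw [hs']
      ring
    have h3 : r • η a v = η (algebraMap 𝒪 T r * a) v := by
      rw [map_mul, AlgHom.commutes, Module.End.mul_apply, Module.algebraMap_end_apply]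
    rw [h3, h2, (hK w).1 hw, zero_mul, add_zero]
  rw [h1]
  exact (hI _).1 (I.mul_mem_right _ hu) v

end Core

section Points

open Fermat.Agent.R.H2

/-- **SUPP, points.**  `T` reduced local, finite free over the complete DVR `𝒪`; `U ⊂ V`
saturated.  If `a` vanishes at every point of `T` (with values in a complete DVR finite over
`𝒪`) killing `{t | η t V ⊆ U}` then `η a V ⊆ U`. -/
theorem supp_points (𝒪 : Type) [CommRing 𝒪] [IsDomain 𝒪] [IsDiscreteValuationRing 𝒪]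
    [IsAdicComplete (maximalIdeal 𝒪) 𝒪] [Finite (ResidueField 𝒪)] [CharZero 𝒪]
    (T : Type) [CommRing T] [Algebra 𝒪 T] [Module.Finite 𝒪 T] [Module.Free 𝒪 T]
    [IsLocalRing T] [IsReduced T]
    {V : Type*} [AddCommGroup V] [Module 𝒪 V] (η : T →ₐ[𝒪] Module.End 𝒪 V)
    (U : Submodule 𝒪 V) (hsat : ∀ c : 𝒪, c ≠ 0 → ∀ v : V, c • v ∈ U → v ∈ U) (a : T)
    (ha : ∀ (O : Type) [CommRing O] [IsDomain O] [IsDiscreteValuationRing O]
      [IsAdicComplete (maximalIdeal O) O] [Finite (ResidueField O)] [CharZero O]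
      [Algebra 𝒪 O] [Module.Finite 𝒪 O] (x : T →ₐ[𝒪] O), IsLocalHom (x : T →+* O) →
      (∀ t : T, (∀ v : V, η t v ∈ U) → x t = 0) → x a = 0)
    (v : V) : η a v ∈ U := by
  refine supp_core η U hsat a (fun 𝔮 h𝔮 hI => ?_) v
  obtain ⟨D⟩ := nonempty_algTPoint 𝒪 T 𝔮 h𝔮
  have hker : RingHom.ker D.ψ = 𝔮 := by
    refine le_antisymm (fun t ht => D.hker t ht) ?_
    exact h𝔮.2 ⟨RingHom.ker_isPrime D.ψ, bot_le⟩ (fun t ht => D.hker t ht)
  obtain ⟨x, hx⟩ : ∃ x : T →ₐ[𝒪] D.R, ∀ t, x t = D.ψ t :=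
    ⟨{ toRingHom := D.ψ, commutes' := fun c => D.hψO c }, fun _ => rfl⟩
  have hxl : IsLocalHom (x : T →+* D.R) := by
    constructor
    intro t ht
    have h1 : IsUnit (D.ψ t) := by
      rw [← hx t]
      exact ht
    exact D.isLocalHom.map_nonunit t h1
  have h0 := ha D.R x hxl (fun t ht => by
    rw [hx t]
    have h1 : t ∈ RingHom.ker D.ψ := by
      rw [hker]
      exact hI t ht
    exact h1)
  rw [hx a] at h0
  exact D.hker a h0

end Points

end Fermat.Agent.L.Pivot.H76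

end
-- ==== END Fermat.Agent.L.Pivot.H76_Supp

-- ==== BEGIN Fermat.Agent.L.Pivot.H76_Wire2Lift
section

set_option autoImplicit false

open CongruenceSubgroup CuspForm ModularFormClass

namespace Fermat.Agent.L.Pivot.H76

/-- **LIFT.** -/
theorem exists_eigenform_of_residual_point (M : ℕ) [NeZero M] {p : ℕ} (hp : p.Prime)
    (S : Set ℕ) {k : Type*} [Field k] [CharP k p] (θ' : heckeAlgebra M 2 S →+* k)
    (a : ℕ → ℤ) (S' : Set ℕ)
    (hθ' : ∀ (ℓ : ℕ) (hℓ : ℓ.Prime) (hℓM : ¬ ℓ ∣ M) (hℓS : ℓ ∉ S), ℓ ∉ S' →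
      θ' (heckeAlgebra.T hℓ hℓM hℓS) = ((a ℓ : ℤ) : k)) :
    ∃ (g : CuspForm (Gamma0 M) 2) (𝔪 : Ideal (integralClosure ℤ ℂ)),
      g.IsNormalizedEigenform ∧ 𝔪.IsMaximal ∧ (p : integralClosure ℤ ℂ) ∈ 𝔪 ∧
      ∀ ℓ : ℕ, ℓ.Prime → ¬ ℓ ∣ M → ℓ ∉ S → ℓ ∉ S' →
        ∃ b : integralClosure ℤ ℂ, (b : ℂ) = qCoeff g ℓ ∧
          b - ((a ℓ : ℤ) : integralClosure ℤ ℂ) ∈ 𝔪 := by
  classical
  -- the family of good primes
  let ι : Type := {ℓ : ℕ // ℓ.Prime ∧ ¬ ℓ ∣ M ∧ ℓ ∉ S ∧ ℓ ∉ S'}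
  let ℓf : ι → ℕ := fun i => i.1
  have hℓ : ∀ i : ι, (ℓf i).Prime := fun i => i.2.1
  have hℓM : ∀ i : ι, ¬ ℓf i ∣ M := fun i => i.2.2.1
  let t : ι → ℤ := fun i => a i.1
  -- the two families of Hecke operators
  let famS : ι → heckeAlgebra M 2 S := fun i => heckeAlgebra.T i.2.1 i.2.2.1 i.2.2.2.1
  have hle : heckeAlgebra M 2 S ≤ heckeAlgebra M 2 ∅ :=
    heckeAlgebra_mono (Set.empty_subset S)
  let inc : heckeAlgebra M 2 S →ₐ[ℤ] heckeAlgebra M 2 ∅ := Subalgebra.inclusion hle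
  have hinc : Function.Injective inc := Subalgebra.inclusion_injective hle
  have hval : ∀ P : MvPolynomial ι ℤ,
      inc (MvPolynomial.aeval famS P)
      = MvPolynomial.aeval (Fermat.Agent.L.LiftEig.H46.heckeFam M ℓf hℓ hℓM) P := by
    intro P
    rw [MvPolynomial.comp_aeval_apply (f := famS) inc P]
    congr 1
  have H : ∀ P : MvPolynomial ι ℤ,
      MvPolynomial.aeval (Fermat.Agent.L.LiftEig.H46.heckeFam M ℓf hℓ hℓM) P = 0 →
      (p : ℤ) ∣ MvPolynomial.eval t P := by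
    intro P hP
    have h0 : (MvPolynomial.aeval famS P : heckeAlgebra M 2 S) = 0 := by
      apply hinc
      rw [hval P, hP, map_zero]
    -- apply `θ'`
    have h1 : θ'.toIntAlgHom (MvPolynomial.aeval famS P)
        = MvPolynomial.aeval (fun i => θ'.toIntAlgHom (famS i)) P :=
      MvPolynomial.comp_aeval_apply (f := famS) θ'.toIntAlgHom P
    have h2 : MvPolynomial.aeval (fun i => θ'.toIntAlgHom (famS i)) P
        = ((MvPolynomial.eval t P : ℤ) : k) := by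
      have h3 : (fun i => θ'.toIntAlgHom (famS i)) = fun i => ((t i : ℤ) : k) := by
        funext i
        exact hθ' i.1 i.2.1 i.2.2.1 i.2.2.2.1 i.2.2.2.2
      rw [h3]
      have h4 := MvPolynomial.eval₂_comp_left (Int.castRingHom k) (RingHom.id ℤ) t P
      have h5 : (Int.castRingHom k).comp (RingHom.id ℤ) = algebraMap ℤ k :=
        RingHom.ext_int _ _
      rw [h5] at h4
      rw [MvPolynomial.aeval_def]
      exact h4.symm
    have h6 : ((MvPolynomial.eval t P : ℤ) : k) = 0 := by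
      rw [← h2, ← h1, h0, map_zero]
    exact (CharP.intCast_eq_zero_iff k p _).mp h6
  obtain ⟨g, 𝔪, hg, h𝔪, hp𝔪, hcong⟩ :=
    Fermat.Agent.L.LiftEig.H46.charM_hecke M ℓf hℓ hℓM t hp H
  refine ⟨g, 𝔪, hg, h𝔪, hp𝔪, fun ℓ hℓp hℓM' hℓS hℓS' => ?_⟩
  exact hcong ⟨ℓ, hℓp, hℓM', hℓS, hℓS'⟩

end Fermat.Agent.L.Pivot.H76

end
-- ==== END Fermat.Agent.L.Pivot.H76_Wire2Lift

-- ==== BEGIN Fermat.Agent.L.Pivot.H76_Wire2WDefs
section

set_option autoImplicit false

open WeierstrassCurve WeierstrassCurve.Affine WeierstrassCurve.Affine.Point Polynomial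
open scoped WeierstrassCurve.Affine

namespace Fermat.Agent.L.Pivot.H76

open Fermat.Agent.S44 Fermat.Agent.S43 IsLocalRing

/-- `E[p]` is unramified at `q`. -/
def UnrW (W : WeierstrassCurve ℤ) (p q : ℕ) : Prop :=
  ∀ A : ValuationSubring (AlgebraicClosure ℚ), A.LiesOverPrime q →
    ∀ σ ∈ A.inertiaSubgroupIn ℚ, ∀ v : Tors (W.map (Int.castRingHom ℚ)) p,
      galoisRepModuleEnd (S := ℚ) (K := AlgebraicClosure ℚ)
        (W.map (Int.castRingHom ℚ)).toAffine p σ v = v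

/-- The prime `q` is exceptional for `E[p]`. -/
def IsExcW (W : WeierstrassCurve ℤ) (p q : ℕ) : Prop :=
  p ∣ q - 1 ∧ ∃ A : ValuationSubring (AlgebraicClosure ℚ), A.LiesOverPrime q ∧
    ∃ c : ZMod p, ∀ σ : GQ, A.IsFrobeniusAt σ q →
      ∀ v : Tors (W.map (Int.castRingHom ℚ)) p,
        galoisRepModuleEnd (S := ℚ) (K := AlgebraicClosure ℚ)
          (W.map (Int.castRingHom ℚ)).toAffine p σ v = c • v

/-- **PIVOT, curve form, level prime to `p`.** -/
def Stmt_PivotWCore : Prop :=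
  ∀ (p : ℕ), p.Prime → p ≠ 2 → ∀ (W : WeierstrassCurve ℤ), W.Δ ≠ 0 → W.IsSemistableModel →
    GaloisRepIsIrreducible (K := AlgebraicClosure ℚ) ℚ (W.map (Int.castRingHom ℚ)).toAffine p →
    ∀ (N q : ℕ), Squarefree N → ¬ p ∣ N → q.Prime → q ∣ N → UnrW W p q →
    (∀ q' : ℕ, q'.Prime → q' ∣ N → UnrW W p q' → IsExcW W p q') →
    ∀ (f : CuspForm (CongruenceSubgroup.Gamma0 N) 2) (𝔪 : Ideal (integralClosure ℤ ℂ))
      (S : Finset ℕ),
    f.IsNormalizedEigenform → 𝔪.IsMaximal → (p : integralClosure ℤ ℂ) ∈ 𝔪 →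
    (∀ ℓ : ℕ, ℓ.Prime → ℓ ∉ S → W.IsGoodPrimeFor ℓ → ¬ ℓ ∣ N → ℓ ≠ p →
      ∃ a : integralClosure ℤ ℂ, (a : ℂ) = ModularFormClass.qCoeff f ℓ ∧
        a - ((W.apOfModel ℓ : ℤ) : integralClosure ℤ ℂ) ∈ 𝔪) →
    LowerConcl p N q W

/-- **PIVOT, curve form, `p ∥ N` and `E[p]` très ramifiée at `p`.** -/
def Stmt_PivotWCoreSO : Prop :=
  ∀ (p : ℕ), p.Prime → p ≠ 2 → ∀ (W : WeierstrassCurve ℤ), W.Δ ≠ 0 → W.IsSemistableModel →
    GaloisRepIsIrreducible (K := AlgebraicClosure ℚ) ℚ (W.map (Int.castRingHom ℚ)).toAffine p →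
    ∀ (N q : ℕ), Squarefree N → p ∣ N → (p : ℤ) ∣ W.Δ →
    ¬ (W.map (Int.castRingHom ℚ)).IsPeuRamifieeAt p p →
    q.Prime → q ≠ p → q ∣ N → UnrW W p q →
    (∀ q' : ℕ, q'.Prime → q' ≠ p → q' ∣ N → UnrW W p q' → IsExcW W p q') →
    ∀ (f : CuspForm (CongruenceSubgroup.Gamma0 N) 2) (𝔪 : Ideal (integralClosure ℤ ℂ))
      (S : Finset ℕ),
    f.IsNormalizedEigenform → 𝔪.IsMaximal → (p : integralClosure ℤ ℂ) ∈ 𝔪 →
    (∀ ℓ : ℕ, ℓ.Prime → ℓ ∉ S → W.IsGoodPrimeFor ℓ → ¬ ℓ ∣ N → ℓ ≠ p →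
      ∃ a : integralClosure ℤ ℂ, (a : ℂ) = ModularFormClass.qCoeff f ℓ ∧
        a - ((W.apOfModel ℓ : ℤ) : integralClosure ℤ ℂ) ∈ 𝔪) →
    LowerConcl p N q W

/-- **PIVOT, curve form, level prime to `p`, for `5 ≤ p`** (the form proved by PV-WIRE2: PV-GEOM
needs `5 ≤ p`).  Same text as `S38.P3.Stmt_PivotWCore5`. -/
def Stmt_PivotWCore5 : Prop :=
  ∀ (p : ℕ), p.Prime → 5 ≤ p → ∀ (W : WeierstrassCurve ℤ), W.Δ ≠ 0 → W.IsSemistableModel →
    GaloisRepIsIrreducible (K := AlgebraicClosure ℚ) ℚ (W.map (Int.castRingHom ℚ)).toAffine p →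
    ∀ (N q : ℕ), Squarefree N → ¬ p ∣ N → q.Prime → q ∣ N → UnrW W p q →
    (∀ q' : ℕ, q'.Prime → q' ∣ N → UnrW W p q' → IsExcW W p q') →
    ∀ (f : CuspForm (CongruenceSubgroup.Gamma0 N) 2) (𝔪 : Ideal (integralClosure ℤ ℂ))
      (S : Finset ℕ),
    f.IsNormalizedEigenform → 𝔪.IsMaximal → (p : integralClosure ℤ ℂ) ∈ 𝔪 →
    (∀ ℓ : ℕ, ℓ.Prime → ℓ ∉ S → W.IsGoodPrimeFor ℓ → ¬ ℓ ∣ N → ℓ ≠ p →
      ∃ a : integralClosure ℤ ℂ, (a : ℂ) = ModularFormClass.qCoeff f ℓ ∧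
        a - ((W.apOfModel ℓ : ℤ) : integralClosure ℤ ℂ) ∈ 𝔪) →
    LowerConcl p N q W

/-- **PIVOT, curve form, `p ∥ N` and `E[p]` très ramifiée at `p`, for `5 ≤ p`.**  Same text as
`S38.P3.Stmt_PivotWCoreSO5`. -/
def Stmt_PivotWCoreSO5 : Prop :=
  ∀ (p : ℕ), p.Prime → 5 ≤ p → ∀ (W : WeierstrassCurve ℤ), W.Δ ≠ 0 → W.IsSemistableModel →
    GaloisRepIsIrreducible (K := AlgebraicClosure ℚ) ℚ (W.map (Int.castRingHom ℚ)).toAffine p →
    ∀ (N q : ℕ), Squarefree N → p ∣ N → (p : ℤ) ∣ W.Δ →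
    ¬ (W.map (Int.castRingHom ℚ)).IsPeuRamifieeAt p p →
    q.Prime → q ≠ p → q ∣ N → UnrW W p q →
    (∀ q' : ℕ, q'.Prime → q' ≠ p → q' ∣ N → UnrW W p q' → IsExcW W p q') →
    ∀ (f : CuspForm (CongruenceSubgroup.Gamma0 N) 2) (𝔪 : Ideal (integralClosure ℤ ℂ))
      (S : Finset ℕ),
    f.IsNormalizedEigenform → 𝔪.IsMaximal → (p : integralClosure ℤ ℂ) ∈ 𝔪 →
    (∀ ℓ : ℕ, ℓ.Prime → ℓ ∉ S → W.IsGoodPrimeFor ℓ → ¬ ℓ ∣ N → ℓ ≠ p →
      ∃ a : integralClosure ℤ ℂ, (a : ℂ) = ModularFormClass.qCoeff f ℓ ∧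
        a - ((W.apOfModel ℓ : ℤ) : integralClosure ℤ ℂ) ∈ 𝔪) →
    LowerConcl p N q W

/-- **CYC**: a finite extension of the coefficient ring over whose residue field the residual
quadratics split and which contains a primitive `p^e`-th root of unity. -/
def Stmt_CYC : Prop :=
  ∀ (𝒪 : Type) [CommRing 𝒪] [IsDomain 𝒪] [IsDiscreteValuationRing 𝒪]
    [IsAdicComplete (maximalIdeal 𝒪) 𝒪] [Finite (ResidueField 𝒪)] [CharZero 𝒪] (p e : ℕ),
    p.Prime →
    ∃ (𝒪' : Type) (_ : CommRing 𝒪') (_ : IsDomain 𝒪') (_ : IsDiscreteValuationRing 𝒪')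
      (_ : IsAdicComplete (maximalIdeal 𝒪') 𝒪') (_ : Finite (ResidueField 𝒪'))
      (_ : CharZero 𝒪') (_ : Algebra 𝒪 𝒪') (_ : Module.Finite 𝒪 𝒪') (_ : Module.Free 𝒪 𝒪')
      (_ : IsLocalHom (algebraMap 𝒪 𝒪')),
      (∀ g : (ResidueField 𝒪)[X], g.Monic → g.natDegree = 2 →
        ∃ α β : ResidueField 𝒪',
          g.map (ResidueField.map (algebraMap 𝒪 𝒪')) = (X - C α) * (X - C β)) ∧
      ∃ ζ : 𝒪', IsPrimitiveRoot ζ (p ^ e)

end Fermat.Agent.L.Pivot.H76

end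
-- ==== END Fermat.Agent.L.Pivot.H76_Wire2WDefs

-- ==== BEGIN Fermat.Agent.L.Pivot.H77_AsmAux
section

/-!
# PIVOT (item 66), package PV-ASM-CORE (helper77): auxiliary algebra

* `ker_comp_eq_sup` : the kernel of `π₁ ∘ κ` when `ker π₁ = ∑ range (d₁ i - 1)`.
-/

set_option autoImplicit false

open IsLocalRing

namespace Fermat.Agent.L.Pivot.H77

section Ker

variable {𝒪 : Type*} [CommRing 𝒪] {V V₁ M : Type*} [AddCommGroup V] [Module 𝒪 V]
  [AddCommGroup V₁] [Module 𝒪 V₁] [AddCommGroup M] [Module 𝒪 M]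

/-- the image of `∑ range (d i - 1)` under a surjection intertwining `d i` and `d₁ i` -/
theorem map_iSup_range_sub_one (κ : V →ₗ[𝒪] V₁) (hκ : Function.Surjective κ) {ι : Type*}
    (d : ι → Module.End 𝒪 V) (d₁ : ι → Module.End 𝒪 V₁)
    (hκd : ∀ i v, κ (d i v) = d₁ i (κ v)) :
    Submodule.map κ (⨆ i, LinearMap.range (d i - 1)) = ⨆ i, LinearMap.range (d₁ i - 1) := by
  rw [Submodule.map_iSup]
  refine iSup_congr fun i => ?_
  ext w
  constructor
  · rintro ⟨_, ⟨v, rfl⟩, rfl⟩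
    refine ⟨κ v, ?_⟩
    rw [LinearMap.sub_apply, LinearMap.sub_apply, Module.End.one_apply, Module.End.one_apply,
      map_sub, hκd]
  · rintro ⟨w', rfl⟩
    obtain ⟨v, rfl⟩ := hκ w'
    refine ⟨(d i - 1) v, ⟨v, rfl⟩, ?_⟩
    rw [LinearMap.sub_apply, LinearMap.sub_apply, Module.End.one_apply, Module.End.one_apply,
      map_sub, hκd]

/-- the kernel of `π₁ ∘ κ` -/
theorem ker_comp_eq_sup (κ : V →ₗ[𝒪] V₁) (hκ : Function.Surjective κ) (π₁ : V₁ →ₗ[𝒪] M)
    {ι : Type*} (d : ι → Module.End 𝒪 V) (d₁ : ι → Module.End 𝒪 V₁)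
    (hκd : ∀ i v, κ (d i v) = d₁ i (κ v))
    (hker : LinearMap.ker π₁ = ⨆ i, LinearMap.range (d₁ i - 1)) :
    LinearMap.ker (π₁.comp κ) = LinearMap.ker κ ⊔ ⨆ i, LinearMap.range (d i - 1) := by
  rw [LinearMap.ker_comp, hker, ← map_iSup_range_sub_one κ hκ d d₁ hκd,
    Submodule.comap_map_eq, sup_comm]

end Ker



end Fermat.Agent.L.Pivot.H77

end
-- ==== END Fermat.Agent.L.Pivot.H77_AsmAux

-- ==== BEGIN Fermat.Agent.NEB.EIG.H39_EigA3
section

/-!
# NEB / EIG (helper39): **EIG-A**, the Hecke algebra of level `N c²` acts on `J_H[p^∞]`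

`A` a `p`-divisible, `p`-power torsion abelian group with a system of characters
`ms : MonoSys p (N c) c A` (EIG-MONO), operators `TA ℓ` and `diaA d` on `A` which are compatible
with the Betti operators `TDg`, `Dg` on characters, commute, and `diaA d ^ (2 j + 1) = 1`.

`stmt_EIG_A` : there is a ring homomorphism `eta : heckeAlgebra (N c²) 2 S → End_ℤ A` with
`eta (T_ℓ) = TA ℓ * diaA ⟨ℓ⟩ ^ j` for the primes `ℓ ∉ S`, `ℓ ∤ N c²`.

Proof: `T_p A ↪ Hom(Γ, ℤ_p) ↪ Hom(Γ, L)`, `L = \overline{ℚ_p}`; on the span `V`, EIG-OP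
(`stmt_OP`); descent to `T_p A` (`op_lattice`); `End A ↪ End (T_p A)` (helper2's `H2.mapEnd`).
-/

set_option autoImplicit false

namespace Fermat.Agent.NEB.EIG.H39

open CongruenceSubgroup Matrix.SpecialLinearGroup ModularForm Finset
open scoped MatrixGroups
open Fermat.Agent.Betti ModularCurve.Period
open Fermat.Agent.S59.Lim

section Factor

/-- A ring homomorphism with values in the range of an injective ring homomorphism factors. -/
theorem exists_ringHom_of_injective {R B C : Type*} [Semiring R] [Semiring B] [Semiring C]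
    (f : R →+* C) (g : B →+* C) (hg : Function.Injective g) (h : ∀ x, ∃ b, g b = f x) :
    ∃ f' : R →+* B, ∀ x, g (f' x) = f x := by
  choose c hc using h
  have huniq : ∀ x b, g b = f x → c x = b := fun x b hb => hg ((hc x).trans hb.symm)
  exact ⟨{ toFun := c
           map_one' := huniq 1 1 (by rw [map_one, map_one])
           map_mul' := fun x y => huniq _ _ (by rw [map_mul, hc, hc, map_mul])
           map_zero' := huniq 0 0 (by rw [map_zero, map_zero])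
           map_add' := fun x y => huniq _ _ (by rw [map_add, hc, hc, map_add]) }, hc⟩

end Factor

section Ops

variable {p : ℕ} [Fact p.Prime] {M c : ℕ} {A : Type} [AddCommGroup A]
  {L : Type} [Field L] (ι : ℤ_[p] →+* L) (ms : MonoSys p M c A) (hc : c ∣ M)

theorem liftable_TA (TA : ℕ → Module.End ℤ A)
    (hTA : ∀ (ℓ : ℕ) (hℓ : ℓ.Prime) (hℓM : ¬ ℓ ∣ M) (k : ℕ) (x : A), p ^ k • x = 0 →
      ms.m k (TA ℓ x) = TDg M c hc hℓ hℓM (ms.m k x))
    {ℓ : ℕ} (hℓ : ℓ.Prime) (hℓM : ¬ ℓ ∣ M) (ξ : Ta p A) :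
    TD M c hc hℓ hℓM (mL ι ms ξ) = mL ι ms (H2.mapEnd (p : ℤ) A (TA ℓ) ξ) := by
  rw [TD_eq_TDg]
  exact (mL_op ι ms (TA ℓ) (fun φ => TDg M c hc hℓ hℓM φ)
    (fun u φ => TDg_comp hc hℓ hℓM u φ) (hTA ℓ hℓ hℓM) ξ).symm

theorem liftable_DA (diaA : (ZMod c)ˣ →* Module.End ℤ A)
    (hdiaA : ∀ (g : SL(2, ℤ)) (hg : (M : ℤ) ∣ g 1 0) (d : (ZMod c)ˣ),
      (d : ZMod c) = ((g 0 0 : ℤ) : ZMod c) → ∀ (k : ℕ) (x : A), p ^ k • x = 0 →
      ms.m k (diaA d x) = Dg hc g hg (ms.m k x))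
    (g : SL(2, ℤ)) (hg : (M : ℤ) ∣ g 1 0) (d : (ZMod c)ˣ)
    (hd : (d : ZMod c) = ((g 0 0 : ℤ) : ZMod c)) (ξ : Ta p A) :
    Dop hc g hg (mL ι ms ξ) = mL ι ms (H2.mapEnd (p : ℤ) A (diaA d) ξ) := by
  rw [Dop_eq_Dg]
  exact (mL_op ι ms (diaA d) (fun φ => Dg hc g hg φ)
    (fun u φ => Dg_comp hc g hg u φ) (hdiaA g hg d hd) ξ).symm

theorem liftable_TAop (TA : ℕ → Module.End ℤ A)
    (hTA : ∀ (ℓ : ℕ) (hℓ : ℓ.Prime) (hℓM : ¬ ℓ ∣ M) (k : ℕ) (x : A), p ^ k • x = 0 →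
      ms.m k (TA ℓ x) = TDg M c hc hℓ hℓM (ms.m k x))
    {ℓ : ℕ} (hℓ : ℓ.Prime) (hℓM : ¬ ℓ ∣ M) :
    Liftable ι ms (H2.mapEnd (p : ℤ) A (TA ℓ)) :=
  ⟨TD M c hc hℓ hℓM, liftable_TA ι ms hc TA hTA hℓ hℓM⟩

open Classical in
/-- The Hecke operators on the span. -/
noncomputable def TVop (TA : ℕ → Module.End ℤ A)
    (hTA : ∀ (ℓ : ℕ) (hℓ : ℓ.Prime) (hℓM : ¬ ℓ ∣ M) (k : ℕ) (x : A), p ^ k • x = 0 →
      ms.m k (TA ℓ x) = TDg M c hc hℓ hℓM (ms.m k x))
    (ℓ : ℕ) : Module.End L ↥(Vsp ι ms) :=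
  if h : ℓ.Prime ∧ ¬ ℓ ∣ M then
    liftV ι ms (H2.mapEnd (p : ℤ) A (TA ℓ)) (liftable_TAop ι ms hc TA hTA h.1 h.2)
  else 0

theorem TVop_gen (TA : ℕ → Module.End ℤ A)
    (hTA : ∀ (ℓ : ℕ) (hℓ : ℓ.Prime) (hℓM : ¬ ℓ ∣ M) (k : ℕ) (x : A), p ^ k • x = 0 →
      ms.m k (TA ℓ x) = TDg M c hc hℓ hℓM (ms.m k x))
    {ℓ : ℕ} (hℓ : ℓ.Prime) (hℓM : ¬ ℓ ∣ M) (ξ : Ta p A) :
    TVop ι ms hc TA hTA ℓ (gen ι ms ξ) = gen ι ms (H2.mapEnd (p : ℤ) A (TA ℓ) ξ) := by
  rw [TVop, dif_pos ⟨hℓ, hℓM⟩]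
  exact liftV_gen ι ms _ _ ξ

theorem coe_TVop (TA : ℕ → Module.End ℤ A)
    (hTA : ∀ (ℓ : ℕ) (hℓ : ℓ.Prime) (hℓM : ¬ ℓ ∣ M) (k : ℕ) (x : A), p ^ k • x = 0 →
      ms.m k (TA ℓ x) = TDg M c hc hℓ hℓM (ms.m k x))
    {ℓ : ℕ} (hℓ : ℓ.Prime) (hℓM : ¬ ℓ ∣ M) (v : ↥(Vsp ι ms)) :
    ((TVop ι ms hc TA hTA ℓ v : ↥(Vsp ι ms)) : Additive (Gam1 M c) →+ L)
      = TD M c hc hℓ hℓM (v : Additive (Gam1 M c) →+ L) := by
  rw [TVop, dif_pos ⟨hℓ, hℓM⟩]
  exact coe_liftV ι ms _ _ _ (liftable_TA ι ms hc TA hTA hℓ hℓM) v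

theorem liftable_diaA (hM : M ≠ 0) (diaA : (ZMod c)ˣ →* Module.End ℤ A)
    (hdiaA : ∀ (g : SL(2, ℤ)) (hg : (M : ℤ) ∣ g 1 0) (d : (ZMod c)ˣ),
      (d : ZMod c) = ((g 0 0 : ℤ) : ZMod c) → ∀ (k : ℕ) (x : A), p ^ k • x = 0 →
      ms.m k (diaA d x) = Dg hc g hg (ms.m k x)) (d : (ZMod c)ˣ) :
    Liftable ι ms (H2.mapEnd (p : ℤ) A (diaA d)) := by
  obtain ⟨g, hg, hd⟩ := exists_gam0 hM hc d
  exact ⟨Dop hc g hg, liftable_DA ι ms hc diaA hdiaA g hg d hd⟩

/-- The diamond operators on the span. -/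
noncomputable def diaV (hM : M ≠ 0) (diaA : (ZMod c)ˣ →* Module.End ℤ A)
    (hdiaA : ∀ (g : SL(2, ℤ)) (hg : (M : ℤ) ∣ g 1 0) (d : (ZMod c)ˣ),
      (d : ZMod c) = ((g 0 0 : ℤ) : ZMod c) → ∀ (k : ℕ) (x : A), p ^ k • x = 0 →
      ms.m k (diaA d x) = Dg hc g hg (ms.m k x)) :
    (ZMod c)ˣ →* Module.End L ↥(Vsp ι ms) where
  toFun d := liftV ι ms (H2.mapEnd (p : ℤ) A (diaA d)) (liftable_diaA ι ms hc hM diaA hdiaA d)
  map_one' := by
    apply Vsp_ext ι ms
    intro ξ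
    rw [liftV_gen, map_one, map_one, Module.End.one_apply, Module.End.one_apply]
  map_mul' d d' := by
    apply Vsp_ext ι ms
    intro ξ
    rw [liftV_gen, Module.End.mul_apply, liftV_gen, liftV_gen, map_mul, map_mul,
      Module.End.mul_apply]

theorem diaV_gen (hM : M ≠ 0) (diaA : (ZMod c)ˣ →* Module.End ℤ A)
    (hdiaA : ∀ (g : SL(2, ℤ)) (hg : (M : ℤ) ∣ g 1 0) (d : (ZMod c)ˣ),
      (d : ZMod c) = ((g 0 0 : ℤ) : ZMod c) → ∀ (k : ℕ) (x : A), p ^ k • x = 0 →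
      ms.m k (diaA d x) = Dg hc g hg (ms.m k x)) (d : (ZMod c)ˣ) (ξ : Ta p A) :
    diaV ι ms hc hM diaA hdiaA d (gen ι ms ξ) = gen ι ms (H2.mapEnd (p : ℤ) A (diaA d) ξ) :=
  liftV_gen ι ms _ _ ξ

theorem coe_diaV (hM : M ≠ 0) (diaA : (ZMod c)ˣ →* Module.End ℤ A)
    (hdiaA : ∀ (g : SL(2, ℤ)) (hg : (M : ℤ) ∣ g 1 0) (d : (ZMod c)ˣ),
      (d : ZMod c) = ((g 0 0 : ℤ) : ZMod c) → ∀ (k : ℕ) (x : A), p ^ k • x = 0 →
      ms.m k (diaA d x) = Dg hc g hg (ms.m k x))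
    (g : SL(2, ℤ)) (hg : (M : ℤ) ∣ g 1 0) (d : (ZMod c)ˣ)
    (hd : (d : ZMod c) = ((g 0 0 : ℤ) : ZMod c)) (v : ↥(Vsp ι ms)) :
    ((diaV ι ms hc hM diaA hdiaA d v : ↥(Vsp ι ms)) : Additive (Gam1 M c) →+ L)
      = Dop hc g hg (v : Additive (Gam1 M c) →+ L) :=
  coe_liftV ι ms _ _ _ (liftable_DA ι ms hc diaA hdiaA g hg d hd) v

theorem diaV_pow_gen (hM : M ≠ 0) (diaA : (ZMod c)ˣ →* Module.End ℤ A)
    (hdiaA : ∀ (g : SL(2, ℤ)) (hg : (M : ℤ) ∣ g 1 0) (d : (ZMod c)ˣ),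
      (d : ZMod c) = ((g 0 0 : ℤ) : ZMod c) → ∀ (k : ℕ) (x : A), p ^ k • x = 0 →
      ms.m k (diaA d x) = Dg hc g hg (ms.m k x)) (d : (ZMod c)ˣ) (n : ℕ) (ξ : Ta p A) :
    (diaV ι ms hc hM diaA hdiaA d ^ n) (gen ι ms ξ)
      = gen ι ms (H2.mapEnd (p : ℤ) A (diaA d ^ n) ξ) := by
  rw [← map_pow, diaV_gen, map_pow]

end Ops

section Main

/-- **EIG-A**: the Hecke algebra of level `N c²` acts on `A = J_H[p^∞]` through the twisted
operators `T_ℓ ⟨ℓ⟩^j`. -/
theorem stmt_EIG_A (p : ℕ) [Fact p.Prime] (N : ℕ) (hN : N ≠ 0) (qs : List ℕ) (hnd : qs.Nodup)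
    (hpr : ∀ q ∈ qs, q.Prime) (hqN : ∀ q ∈ qs, ¬ q ∣ N)
    (c N' : ℕ) (hc : c = qs.prod) (hN' : N' = N * c * c) [NeZero N'] (S : Set ℕ)
    (hS : ∀ q : ℕ, q.Prime → q ∣ N' → q ∈ S)
    (A : Type) [AddCommGroup A] (hdiv : ∀ x : A, ∃ y : A, p • y = x)
    (htors : ∀ x : A, ∃ k : ℕ, p ^ k • x = 0)
    (ms : MonoSys p (N * c) c A)
    (TA : ℕ → Module.End ℤ A)
    (hTA : ∀ (ℓ : ℕ) (hℓ : ℓ.Prime) (hℓM : ¬ ℓ ∣ N * c) (k : ℕ) (x : A), p ^ k • x = 0 →
      ms.m k (TA ℓ x) = TDg (N * c) c (dvd_mul_left _ _) hℓ hℓM (ms.m k x))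
    (diaA : (ZMod c)ˣ →* Module.End ℤ A)
    (hdiaA : ∀ (g : SL(2, ℤ)) (hg : ((N * c : ℕ) : ℤ) ∣ g 1 0) (d : (ZMod c)ˣ),
      (d : ZMod c) = ((g 0 0 : ℤ) : ZMod c) → ∀ (k : ℕ) (x : A), p ^ k • x = 0 →
      ms.m k (diaA d x) = Dg (dvd_mul_left _ _) g hg (ms.m k x))
    (hcomm : ∀ (ℓ : ℕ), ℓ.Prime → ¬ ℓ ∣ N * c → ∀ d, Commute (TA ℓ) (diaA d))
    (j : ℕ) (hdn : ∀ d, diaA d ^ (2 * j + 1) = 1) :
    ∃ eta : CuspForm.heckeAlgebra N' 2 S →+* Module.End ℤ A,
      ∀ (ℓ : ℕ) (hℓ : ℓ.Prime) (hℓN : ¬ ℓ ∣ N') (hℓS : ℓ ∉ S),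
        eta (CuspForm.heckeAlgebra.T hℓ hℓN hℓS) = TA ℓ * diaA (unitOf c ℓ) ^ j := by
  classical
  have hc0 : c ≠ 0 := by
    rw [hc]
    exact prod_primes_ne_zero hpr
  have hM : N * c ≠ 0 := mul_ne_zero hN hc0
  have : NeZero c := ⟨hc0⟩
  have hcM : c ∣ N * c := dvd_mul_left _ _
  have hdiv' : ∀ w : A, ∃ v : A, (p : ℤ) • v = w := fun w => by
    obtain ⟨v, hv⟩ := hdiv w
    exact ⟨v, by rw [natCast_zsmul, hv]⟩
  have htors' : ∀ w : A, ∃ k : ℕ, (p : ℤ) ^ k • w = 0 := fun w => by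
    obtain ⟨k, hk⟩ := htors w
    exact ⟨k, by rw [← Nat.cast_pow, natCast_zsmul, hk]⟩
  -- the field
  let ι : ℤ_[p] →+* AlgebraicClosure ℚ_[p] :=
    (algebraMap ℚ_[p] (AlgebraicClosure ℚ_[p])).comp PadicInt.Coe.ringHom
  have hι : Function.Injective ι :=
    (algebraMap ℚ_[p] (AlgebraicClosure ℚ_[p])).injective.comp Subtype.coe_injective
  have := hasEnough_of_algClosed (AlgebraicClosure ℚ_[p]) c
  -- EIG-OP on the span
  obtain ⟨eta, heta⟩ := stmt_OP (L := AlgebraicClosure ℚ_[p]) (V := ↥(Vsp ι ms))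
    N hN qs hnd hpr hqN c N' hc hN' S hS
    (Vsp ι ms).subtype (Submodule.injective_subtype _) (Vsp_par ι ms)
    (TVop ι ms hcM TA hTA) (fun ℓ hℓ hℓM v => coe_TVop ι ms hcM TA hTA hℓ hℓM v)
    (diaV ι ms hcM hM diaA hdiaA)
    (fun g hg d hd v => coe_diaV ι ms hcM hM diaA hdiaA g hg d hd v)
    (fun ℓ d => by
      by_cases h : ℓ.Prime ∧ ¬ ℓ ∣ N * c
      · show TVop ι ms hcM TA hTA ℓ * diaV ι ms hcM hM diaA hdiaA d
          = diaV ι ms hcM hM diaA hdiaA d * TVop ι ms hcM TA hTA ℓ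
        apply Vsp_ext ι ms
        intro ξ
        rw [Module.End.mul_apply, Module.End.mul_apply, diaV_gen,
          TVop_gen ι ms hcM TA hTA h.1 h.2, TVop_gen ι ms hcM TA hTA h.1 h.2, diaV_gen,
          ← Module.End.mul_apply, ← Module.End.mul_apply, ← map_mul, ← map_mul,
          (hcomm ℓ h.1 h.2 d).eq]
      · rw [TVop, dif_neg h]
        exact Commute.zero_left _)
    j
    (fun d => by
      apply Vsp_ext ι ms
      intro ξ
      rw [diaV_pow_gen, hdn d, map_one, Module.End.one_apply, Module.End.one_apply])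
  -- descent to the Tate module
  obtain ⟨eta₀, heta₀, -⟩ := op_lattice (𝒪 := ℤ) (L := AlgebraicClosure ℚ_[p])
    (V₀ := Ta p A) (V := ↥(Vsp ι ms)) hS eta (gen ι ms) (gen_injective ι ms hι)
    (fun ℓ => H2.mapEnd (p : ℤ) A (TA ℓ * diaA (unitOf c ℓ) ^ j))
    (fun ℓ hℓ hℓN hℓS ξ => by
      have hℓM : ¬ ℓ ∣ N * c := fun h => hℓN (by rw [hN']; exact Dvd.dvd.mul_right h c)
      rw [heta ℓ hℓ hℓN hℓS, Module.End.mul_apply, diaV_pow_gen,
        TVop_gen ι ms hcM TA hTA hℓ hℓM, map_mul, Module.End.mul_apply])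
  -- pull back to `A`
  have hrange : ∀ x, ∃ b, (H2.mapEnd (p : ℤ) A).toRingHom b = eta₀ x := by
    refine hecke_induction hS (fun ℓ hℓ hℓN hℓS => ⟨_, (heta₀ ℓ hℓ hℓN hℓS).symm⟩)
      (fun n => ⟨(n : Module.End ℤ A), ?_⟩) (fun x y hx hy => ?_) (fun x y hx hy => ?_)
    · rw [map_intCast, map_intCast]
    · obtain ⟨b, hb⟩ := hx
      obtain ⟨b', hb'⟩ := hy
      exact ⟨b + b', by rw [map_add, hb, hb', map_add]⟩
    · obtain ⟨b, hb⟩ := hx
      obtain ⟨b', hb'⟩ := hy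
      exact ⟨b * b', by rw [map_mul, hb, hb', map_mul]⟩
  obtain ⟨etaA, hetaA⟩ := exists_ringHom_of_injective eta₀ (H2.mapEnd (p : ℤ) A).toRingHom
    (H2.mapEnd_injective hdiv' htors') hrange
  refine ⟨etaA, fun ℓ hℓ hℓN hℓS => ?_⟩
  apply H2.mapEnd_injective hdiv' htors'
  exact (hetaA _).trans (heta₀ ℓ hℓ hℓN hℓS)

end Main

end Fermat.Agent.NEB.EIG.H39

end
-- ==== END Fermat.Agent.NEB.EIG.H39_EigA3

-- ==== BEGIN Fermat.Agent.NEB.Geom.H29_TwGroup
section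

/-!
# NEB-GEOM, TOWER-INST: group theory of `Δ = G / G^P` (helper29)

Pure group theory (Mathlib only).  `G` a commutative group with an isomorphism
`π : G ≃* Π j, C j` onto a product of finite cyclic groups with `P ∣ |C j|`
(`G = (ℤ/c)ˣ`, `c = ∏ q_j`, `P = p ^ n`), and elements `δ_j` with trivial components outside `j`
such that `δ_j ^ e ∈ G^P → P ∣ e`.

* `cyc_gen`           : a finite cyclic group is generated by `d` and the `P`-th powers.
* `mem_pow_range_iff` : `P`-th powers are detected componentwise.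
* `exists_decomp`     : `x = h ^ P * ∏ δ_j ^ s_j`.
* `chain`             : the chain `Hs j = G^P ⊔ ⟨δ_i : i < j⟩`, with `chain_top`, `orderOf_chain`.
* `monomial_bijective`: `x ↦ ρ (∏ δ_j ^ x_j)` is a bijection `(Fin P)^r → range ρ` if
  `ker ρ = G^P`.
-/

set_option autoImplicit false
set_option linter.unusedVariables false

namespace Fermat.Agent.NEB.Geom.H29

/-! ## Cyclic groups -/

section cyc

variable {C : Type*} [CommGroup C] [Finite C] [IsCyclic C]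

/-- A finite cyclic group `C` with `P ∣ |C|` is generated by the `P`-th powers and any `d` whose
class modulo `P`-th powers has order `P`. -/
theorem cyc_gen (P : ℕ) (hP : P ∣ Nat.card C) (d : C)
    (hd : ∀ e : ℕ, d ^ e ∈ (powMonoidHom P : C →* C).range → P ∣ e) (z : C) :
    ∃ (s : ℕ) (y : C), z = d ^ s * y ^ P := by
  classical
  set R : Subgroup C := (powMonoidHom P : C →* C).range with hR
  have hidx : R.index = P := by
    rw [hR, IsCyclic.index_powMonoidHom_range, Nat.gcd_eq_right hP]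
  have hord : orderOf (d : C ⧸ R) = P := by
    apply Nat.dvd_antisymm
    · apply orderOf_dvd_of_pow_eq_one
      rw [← QuotientGroup.mk_pow, QuotientGroup.eq_one_iff]
      exact ⟨d, rfl⟩
    · apply hd
      have h := pow_orderOf_eq_one (d : C ⧸ R)
      rw [← QuotientGroup.mk_pow, QuotientGroup.eq_one_iff] at h
      exact h
  have hcard : Nat.card (C ⧸ R) = P := by
    rw [← Subgroup.index_eq_card]
    exact hidx
  have htop : Subgroup.zpowers (d : C ⧸ R) = ⊤ := by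
    apply Subgroup.eq_top_of_card_eq
    rw [Nat.card_zpowers, hord, hcard]
  have hz : (z : C ⧸ R) ∈ Subgroup.zpowers (d : C ⧸ R) := by
    rw [htop]
    exact Subgroup.mem_top _
  rw [← mem_powers_iff_mem_zpowers] at hz
  obtain ⟨s, hs⟩ := hz
  have hmem : (d ^ s)⁻¹ * z ∈ R := by
    rw [← QuotientGroup.eq, QuotientGroup.mk_pow]
    exact hs
  obtain ⟨y, hy⟩ := hmem
  refine ⟨s, y, ?_⟩
  rw [powMonoidHom_apply] at hy
  rw [hy, mul_inv_cancel_left]

end cyc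

/-! ## Products of cyclic groups -/

section prod

variable {G : Type*} [CommGroup G] {r : ℕ} {C : Fin r → Type*} [∀ j, CommGroup (C j)]
  (π : G ≃* (Π j, C j)) (P : ℕ)

/-- `P`-th powers are detected componentwise. -/
theorem mem_pow_range_iff (x : G) :
    x ∈ (powMonoidHom P : G →* G).range ↔
      ∀ j, π x j ∈ (powMonoidHom P : C j →* C j).range := by
  constructor
  · rintro ⟨y, rfl⟩ j
    refine ⟨π y j, ?_⟩
    rw [powMonoidHom_apply, powMonoidHom_apply, map_pow, Pi.pow_apply]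
  · intro h
    choose y hy using h
    refine ⟨π.symm y, ?_⟩
    apply π.injective
    funext j
    rw [powMonoidHom_apply, map_pow, π.apply_symm_apply, Pi.pow_apply]
    exact hy j

/-- The subgroup of the elements whose `j`-th component is a `P`-th power. -/
def compPow (j : Fin r) : Subgroup G :=
  ((powMonoidHom P : C j →* C j).range).comap ((Pi.evalMonoidHom C j).comp π.toMonoidHom)

theorem mem_compPow {j : Fin r} {x : G} :
    x ∈ compPow π P j ↔ π x j ∈ (powMonoidHom P : C j →* C j).range := Iff.rfl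

theorem pow_range_le_compPow (j : Fin r) : (powMonoidHom P : G →* G).range ≤ compPow π P j :=
  fun x hx => (mem_pow_range_iff π P x).1 hx j

variable (δ : Fin r → G)

/-- The hypotheses on the generators `δ_j`. -/
structure IsGenFam : Prop where
  triv : ∀ i j, i ≠ j → π (δ j) i = 1
  ord : ∀ j (e : ℕ), δ j ^ e ∈ (powMonoidHom P : G →* G).range → P ∣ e

variable {π P δ}

theorem IsGenFam.delta_mem_compPow (h : IsGenFam π P δ) {i j : Fin r} (hij : i ≠ j) :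
    δ i ∈ compPow π P j := by
  rw [mem_compPow, h.triv j i hij.symm]
  exact one_mem _

theorem IsGenFam.dvd_of_pow_mem (h : IsGenFam π P δ) {j : Fin r} {e : ℕ}
    (he : δ j ^ e ∈ compPow π P j) : P ∣ e := by
  apply h.ord j
  rw [mem_pow_range_iff π]
  intro i
  by_cases hij : i = j
  · subst hij
    exact he
  · rw [map_pow, Pi.pow_apply, h.triv i j hij, one_pow]
    exact one_mem _

/-- The components of a monomial. -/
theorem IsGenFam.monomial_apply (h : IsGenFam π P δ) (s : Fin r → ℕ) (j : Fin r) :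
    π (∏ i, δ i ^ s i) j = π (δ j) j ^ s j := by
  rw [map_prod, Finset.prod_apply, Finset.prod_eq_single j]
  · rw [map_pow, Pi.pow_apply]
  · intro i _ hij
    rw [map_pow, Pi.pow_apply, h.triv j i hij.symm, one_pow]
  · intro hj
    exact absurd (Finset.mem_univ j) hj

/-- **Decomposition**: every element is a `P`-th power times a monomial in the `δ_j`. -/
theorem IsGenFam.exists_decomp [∀ j, Finite (C j)] [∀ j, IsCyclic (C j)]
    (h : IsGenFam π P δ) (hP : ∀ j, P ∣ Nat.card (C j)) (x : G) :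
    ∃ (s : Fin r → ℕ) (y : G), x = y ^ P * ∏ j, δ j ^ s j := by
  have key : ∀ j, ∃ (s : ℕ) (y : C j), π x j = π (δ j) j ^ s * y ^ P := by
    intro j
    refine cyc_gen P (hP j) (π (δ j) j) (fun e he => ?_) (π x j)
    apply h.dvd_of_pow_mem (j := j)
    rw [mem_compPow, map_pow, Pi.pow_apply]
    exact he
  choose s y hy using key
  refine ⟨s, π.symm y, ?_⟩
  apply π.injective
  funext j
  rw [map_mul, Pi.mul_apply, h.monomial_apply, map_pow, π.apply_symm_apply, Pi.pow_apply, hy j,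
    mul_comm]

/-! ### The chain -/

/-- The extension of `δ` to `ℕ` by `1`. -/
def deltaExt (δ : Fin r → G) (i : ℕ) : G := if h : i < r then δ ⟨i, h⟩ else 1

theorem deltaExt_of_lt (δ : Fin r → G) {i : ℕ} (h : i < r) : deltaExt δ i = δ ⟨i, h⟩ := by
  rw [deltaExt, dif_pos h]

theorem deltaExt_val (δ : Fin r → G) (i : Fin r) : deltaExt δ (i : ℕ) = δ i :=
  deltaExt_of_lt δ i.2

/-- The chain `Hs j = H ⊔ ⟨δ_i : i < j⟩`. -/
def chain (H : Subgroup G) (δ : Fin r → G) : ℕ → Subgroup G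
  | 0 => H
  | j + 1 => chain H δ j ⊔ Subgroup.zpowers (deltaExt δ j)

theorem chain_zero (H : Subgroup G) (δ : Fin r → G) : chain H δ 0 = H := rfl

theorem chain_succ (H : Subgroup G) (δ : Fin r → G) (j : ℕ) :
    chain H δ (j + 1) = chain H δ j ⊔ Subgroup.zpowers (deltaExt δ j) := rfl

theorem chain_mono (H : Subgroup G) (δ : Fin r → G) : Monotone (chain H δ) :=
  monotone_nat_of_le_succ fun _ => le_sup_left

theorem le_chain (H : Subgroup G) (δ : Fin r → G) (j : ℕ) : H ≤ chain H δ j :=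
  chain_mono H δ (Nat.zero_le j)

theorem delta_mem_chain (H : Subgroup G) (δ : Fin r → G) {i j : ℕ} (hij : i < j) :
    deltaExt δ i ∈ chain H δ j :=
  chain_mono H δ (Nat.succ_le_of_lt hij)
    ((le_sup_right : Subgroup.zpowers (deltaExt δ i) ≤ chain H δ (i + 1))
      (Subgroup.mem_zpowers _))

/-- The chain below `j` lies in `compPow j`. -/
theorem IsGenFam.chain_le_compPow (h : IsGenFam π P δ) (k : Fin r) :
    ∀ j : ℕ, j ≤ (k : ℕ) → chain (powMonoidHom P : G →* G).range δ j ≤ compPow π P k := by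
  intro j
  induction j with
  | zero => intro _; exact pow_range_le_compPow π P k
  | succ j ih =>
    intro hj
    rw [chain_succ]
    refine sup_le (ih (Nat.le_of_succ_le hj)) ?_
    rw [Subgroup.zpowers_le]
    have hjr : j < r := lt_of_lt_of_le (Nat.lt_of_succ_le hj) (Nat.le_of_lt k.2)
    rw [deltaExt_of_lt δ hjr]
    apply h.delta_mem_compPow
    intro hjk
    have : j = (k : ℕ) := by rw [← hjk]
    omega

/-- The top of the chain is everything. -/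
theorem IsGenFam.chain_top [∀ j, Finite (C j)] [∀ j, IsCyclic (C j)]
    (h : IsGenFam π P δ) (hP : ∀ j, P ∣ Nat.card (C j)) (x : G) :
    x ∈ chain (powMonoidHom P : G →* G).range δ r := by
  obtain ⟨s, y, rfl⟩ := h.exists_decomp hP x
  refine Subgroup.mul_mem _ (le_chain _ δ r ⟨y, rfl⟩) (Subgroup.prod_mem _ fun j _ => ?_)
  refine Subgroup.pow_mem _ ?_ _
  have := delta_mem_chain (powMonoidHom P : G →* G).range δ j.2
  rwa [deltaExt_val] at this

/-- The order of `δ_j` modulo the `j`-th step of the chain is `P`. -/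
theorem IsGenFam.orderOf_chain (h : IsGenFam π P δ) {A : Type*} [Group A] (ρ : G →* A)
    (j : ℕ) (hj : j < r)
    (hker : ∀ d, ρ d = 1 ↔ d ∈ chain (powMonoidHom P : G →* G).range δ j) :
    orderOf (ρ (deltaExt δ j)) = P := by
  apply Nat.dvd_antisymm
  · apply orderOf_dvd_of_pow_eq_one
    rw [← map_pow, hker]
    exact le_chain _ δ j ⟨deltaExt δ j, rfl⟩
  · have key : ∀ m : ℕ, ρ (deltaExt δ j) ^ m = 1 → P ∣ m := by
      intro m h1
      rw [← map_pow, hker] at h1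
      have h2 := h.chain_le_compPow ⟨j, hj⟩ j le_rfl h1
      rw [deltaExt_of_lt δ hj] at h2
      exact h.dvd_of_pow_mem h2
    exact key _ (pow_orderOf_eq_one _)

/-! ### Monomials -/

/-- `x ↦ ρ (∏ δ_j ^ x_j)` is injective on the box `(Fin P)^r` if `ker ρ ⊆ G^P`. -/
theorem IsGenFam.monomial_injective (h : IsGenFam π P δ) {A : Type*} [Group A] (ρ : G →* A)
    (hker : ∀ d, ρ d = 1 → d ∈ (powMonoidHom P : G →* G).range) :
    Function.Injective fun x : Fin r → Fin P => ρ (∏ j, δ j ^ (x j : ℕ)) := by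
  intro x y hxy
  have hxy' : ρ (∏ j, δ j ^ (x j : ℕ)) = ρ (∏ j, δ j ^ (y j : ℕ)) := hxy
  have key : ∀ (x y : Fin r → Fin P), ρ (∏ j, δ j ^ (x j : ℕ)) = ρ (∏ j, δ j ^ (y j : ℕ)) →
      ∀ k, (y k : ℕ) ≤ (x k : ℕ) → x k = y k := by
    intro x y hxy k hle
    have h1 : ρ ((∏ j, δ j ^ (x j : ℕ)) * (∏ j, δ j ^ (y j : ℕ))⁻¹) = 1 := by
      rw [map_mul, map_inv, hxy, mul_inv_cancel]
    have h2 := pow_range_le_compPow π P k (hker _ h1)
    rw [mem_compPow, map_mul, map_inv, Pi.mul_apply, Pi.inv_apply, h.monomial_apply,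
      h.monomial_apply] at h2
    have h3 : π (δ k) k ^ ((x k : ℕ) - (y k : ℕ)) ∈ (powMonoidHom P : C k →* C k).range := by
      rw [pow_sub _ hle]
      exact h2
    have h4 : P ∣ (x k : ℕ) - (y k : ℕ) := by
      apply h.dvd_of_pow_mem (j := k)
      rw [mem_compPow, map_pow, Pi.pow_apply]
      exact h3
    have h5 : (x k : ℕ) - (y k : ℕ) = 0 :=
      Nat.eq_zero_of_dvd_of_lt h4 (lt_of_le_of_lt (Nat.sub_le _ _) (x k).2)
    apply Fin.ext
    omega
  funext k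
  rcases le_total (y k : ℕ) (x k : ℕ) with hle | hle
  · exact key x y hxy' k hle
  · exact (key y x hxy'.symm k hle).symm

/-- **Decomposition**, with exponents in the box `(Fin P)^r`. -/
theorem IsGenFam.exists_decomp_box [∀ j, Finite (C j)] [∀ j, IsCyclic (C j)]
    (h : IsGenFam π P δ) (hP0 : P ≠ 0) (hP : ∀ j, P ∣ Nat.card (C j)) (d : G) :
    ∃ (x : Fin r → Fin P) (y : G), d = y ^ P * ∏ j, δ j ^ (x j : ℕ) := by
  obtain ⟨s, y, rfl⟩ := h.exists_decomp hP d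
  refine ⟨fun j => ⟨s j % P, Nat.mod_lt _ (Nat.pos_of_ne_zero hP0)⟩,
    y * ∏ j, δ j ^ (s j / P), ?_⟩
  rw [mul_pow, mul_assoc, ← Finset.prod_pow, ← Finset.prod_mul_distrib]
  congr 1
  refine Finset.prod_congr rfl fun j _ => ?_
  show δ j ^ s j = (δ j ^ (s j / P)) ^ P * δ j ^ (s j % P)
  rw [← pow_mul, ← pow_add, mul_comm, Nat.div_add_mod (s j) P]

/-- `x ↦ ρ (∏ δ_j ^ x_j)` maps the box `(Fin P)^r` onto the range of `ρ` if `G^P ⊆ ker ρ`. -/
theorem IsGenFam.monomial_surjective [∀ j, Finite (C j)] [∀ j, IsCyclic (C j)]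
    (h : IsGenFam π P δ) (hP0 : P ≠ 0) (hP : ∀ j, P ∣ Nat.card (C j))
    {A : Type*} [Group A] (ρ : G →* A)
    (hker : ∀ d, d ∈ (powMonoidHom P : G →* G).range → ρ d = 1) (d : G) :
    ∃ x : Fin r → Fin P, ρ (∏ j, δ j ^ (x j : ℕ)) = ρ d := by
  obtain ⟨x, y, rfl⟩ := h.exists_decomp_box hP0 hP d
  refine ⟨x, ?_⟩
  have hy : ρ (y ^ P) = 1 := hker _ ⟨y, rfl⟩
  rw [map_mul, hy, one_mul]

end prod

/-! ## The units of `ℤ/c`, `c = ∏ q_j` -/

section zmod

variable {r : ℕ} (qv : Fin r → ℕ)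

/-- The Chinese remainder theorem for the units of `ℤ/∏ q_j`. -/
noncomputable def crtUnits (hcop : Pairwise (Function.onFun Nat.Coprime qv)) :
    (ZMod (∏ j, qv j))ˣ ≃* (Π j, (ZMod (qv j))ˣ) :=
  (Units.mapEquiv (ZMod.prodEquivPi qv hcop).toMulEquiv).trans MulEquiv.piUnits

theorem crtUnits_apply (hcop : Pairwise (Function.onFun Nat.Coprime qv))
    (x : (ZMod (∏ j, qv j))ˣ) (j : Fin r) :
    crtUnits qv hcop x j = ZMod.unitsMap (Finset.dvd_prod_of_mem qv (Finset.mem_univ j)) x := by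
  apply Units.ext
  show ZMod.prodEquivPi qv hcop (x : ZMod (∏ j, qv j)) j = _
  rw [ZMod.prodEquivPi_apply]
  rfl

theorem pairwise_coprime_of_primes (hinj : Function.Injective qv) (hq : ∀ j, (qv j).Prime) :
    Pairwise (Function.onFun Nat.Coprime qv) := fun i j hij =>
  (Nat.coprime_primes (hq i) (hq j)).mpr fun h => hij (hinj h)

theorem card_units_of_prime {q : ℕ} (hq : q.Prime) : Nat.card (ZMod q)ˣ = q - 1 := by
  have : Fact q.Prime := ⟨hq⟩
  rw [Nat.card_eq_fintype_card, ZMod.card_units]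

theorem isCyclic_units_of_prime {q : ℕ} (hq : q.Prime) : IsCyclic (ZMod q)ˣ := by
  have : Fact q.Prime := ⟨hq⟩
  infer_instance

theorem finite_units_of_prime {q : ℕ} (hq : q.Prime) : Finite (ZMod q)ˣ := by
  have : Fact q.Prime := ⟨hq⟩
  infer_instance

/-- `-1` is a `P`-th power for odd `P`. -/
theorem neg_one_mem_pow_range {R : Type*} [CommRing R] {P : ℕ} (hP : Odd P) :
    (-1 : Rˣ) ∈ (powMonoidHom P : Rˣ →* Rˣ).range :=
  ⟨-1, by rw [powMonoidHom_apply, hP.neg_one_pow]⟩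

end zmod

end Fermat.Agent.NEB.Geom.H29

end
-- ==== END Fermat.Agent.NEB.Geom.H29_TwGroup

-- ==== BEGIN Fermat.Agent.NEB.Geom.H29_ZComm
section
attribute [local instance 10000] SubalgebraClass.toAlgebra
attribute [local instance 10000] HahnSeries.powerSeriesAlgebra

/-!
# NEB-GEOM, leaf Z-COMM (helper29): the Hecke operators of `J_H` commute

`T^H_ℓ`, `T^H_ℓ'` (`ℓ ≠ ℓ'` primes not dividing `M`) and `U^H_q` (`q ∣ M`, in the form
`[F_H(Mq) : β F_H(M)] = q`) commute pairwise on `J_H = Pic⁰(F_H)`.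

Proof: by the principle `IsCorr.eq` it suffices to compare the Kummer functions, which are given
by `q`-expansion formulas (`H70.coe_THfn`, `H70.coe_UHfn_of_finrank`); the formal operators
`qExpand`, `uSeries` commute for coprime indices (`Lib/HeckeComm/H2_NormSeriesComm`).
-/

set_option autoImplicit false
set_option linter.style.haveILetI false

noncomputable section

namespace Fermat.Agent.NEB.Geom.H29

open AlgebraicCurve ModularCurve HahnSeries
open Fermat.Agent.NEB Fermat.Agent.NEB.H14 Fermat.Agent.NEB.JH Fermat.Agent.RED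
open Fermat.Agent.NEB.H70 Fermat.Agent.GTor Fermat.Agent.GTor.H44 Fermat.Agent.Lib.HeckeComm

/-! ## 1. Formal series -/

section Series

variable {C : Type} [Field C] {ℓ ℓ' : ℕ} [NeZero ℓ] [NeZero ℓ']

theorem qExpand_uSeries_eq {ζ₀ : Cˣ} (hζ : IsPrimitiveRoot ζ₀ ℓ) (s : LaurentSeries C) :
    qExpand C ℓ (uSeries ℓ s) = twistProd C ℓ s :=
  qExpand_descend (isSupp_twistProd hζ s)

/-- `U_ℓ` commutes with `q ↦ q ^ ℓ'` for coprime `ℓ`, `ℓ'`. -/
theorem uSeries_qExpand (hco : Nat.Coprime ℓ' ℓ) {ζ₀ : Cˣ} (hζ : IsPrimitiveRoot ζ₀ ℓ)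
    (s : LaurentSeries C) :
    uSeries ℓ (qExpand C ℓ' s) = qExpand C ℓ' (uSeries ℓ s) := by
  apply _root_.ModularCurve.qExpand_injective (R := C) ℓ
  rw [qExpand_uSeries_eq hζ, twistProd_qExpand ℓ ℓ' hco, qExpand_comm ℓ ℓ',
    qExpand_uSeries_eq hζ]

/-- `U_ℓ` and `U_ℓ'` commute for coprime `ℓ`, `ℓ'`. -/
theorem uSeries_uSeries (hco : Nat.Coprime ℓ' ℓ) {ζ₀ ζ₀' : Cˣ} (hζ : IsPrimitiveRoot ζ₀ ℓ)
    (hζ' : IsPrimitiveRoot ζ₀' ℓ') (s : LaurentSeries C) :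
    uSeries ℓ (uSeries ℓ' s) = uSeries ℓ' (uSeries ℓ s) := by
  apply _root_.ModularCurve.qExpand_injective (R := C) ℓ
  apply _root_.ModularCurve.qExpand_injective (R := C) ℓ'
  rw [qExpand_uSeries_eq hζ, ← twistProd_qExpand ℓ ℓ' hco, qExpand_uSeries_eq hζ',
    qExpand_comm ℓ' ℓ, qExpand_uSeries_eq hζ', ← twistProd_qExpand ℓ' ℓ hco.symm,
    qExpand_uSeries_eq hζ, twistProd_twistProd_comm]

/-- The twisted norms commute. -/
theorem twNorm_twNorm (hco : Nat.Coprime ℓ' ℓ) {ζ₀ ζ₀' : Cˣ} (hζ : IsPrimitiveRoot ζ₀ ℓ)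
    (hζ' : IsPrimitiveRoot ζ₀' ℓ') (a b c d : LaurentSeries C) :
    twNorm ℓ (twNorm ℓ' a b) (twNorm ℓ' c d) = twNorm ℓ' (twNorm ℓ a c) (twNorm ℓ b d) := by
  unfold twNorm
  rw [map_mul, map_mul, uSeries_mul hζ, uSeries_mul hζ', uSeries_qExpand hco hζ,
    uSeries_qExpand hco.symm hζ', uSeries_uSeries hco hζ hζ', qExpand_comm ℓ ℓ']
  ring

/-- `U_q` commutes with the twisted norm. -/
theorem uSeries_twNorm (hco : Nat.Coprime ℓ' ℓ) {ζ₀ ζ₀' : Cˣ} (hζ : IsPrimitiveRoot ζ₀ ℓ)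
    (hζ' : IsPrimitiveRoot ζ₀' ℓ') (a b : LaurentSeries C) :
    uSeries ℓ' (twNorm ℓ a b) = twNorm ℓ (uSeries ℓ' a) (uSeries ℓ' b) := by
  unfold twNorm
  rw [uSeries_mul hζ', uSeries_qExpand hco.symm hζ', uSeries_uSeries hco hζ hζ']

end Series

/-! ## 2. The Kummer functions -/

section Fn

variable {M c : ℕ} [NeZero M] {H : Subgroup (ZMod c)ˣ}

/-- The Kummer function of `U^H` is equivariant for the diamond operators. -/
theorem UHfn_equiv {ℓ : ℕ} [NeZero ℓ] (hd : HeckeData M c ℓ H) (d : (ZMod c)ˣ)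
    (x : ↥(FHbar M c H)) : hd.dd.ρ d (UHfn hd.hβ x) = UHfn hd.hβ (hd.dd.ρ d x) := by
  show hd.dd.ρ d (normFn (betaBar hd.hβ) (alphaH M c ℓ H x))
    = normFn (betaBar hd.hβ) (alphaH M c ℓ H (hd.dd.ρ d x))
  rw [← hd.alphaGal d x]
  exact Fermat.Agent.NEB.H29.normFn_algEquiv (betaBar hd.hβ) (hd.dd.ρ d) (hd.dd'.ρ d)
    (hd.betaGal d) _

/-- The Kummer function of `T^H` is equivariant for the diamond operators (of any
`DiamondData`). -/
theorem THfn_equiv {ℓ : ℕ} [NeZero ℓ] (hd : HeckeData M c ℓ H) (dd : DiamondData M c H)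
    (d : (ZMod c)ˣ) (x : ↥(FHbar M c H)) : dd.ρ d (THfn hd.hβ x) = THfn hd.hβ (dd.ρ d x) := by
  rw [diamondData_rho_eq dd hd.dd, diamondData_rho_eq dd hd.dd]
  exact (Fermat.Agent.NEB.H29.opHyp_THfn hd 1).equiv d x

theorem UHfn_equiv' {ℓ : ℕ} [NeZero ℓ] (hd : HeckeData M c ℓ H) (dd : DiamondData M c H)
    (d : (ZMod c)ˣ) (x : ↥(FHbar M c H)) : dd.ρ d (UHfn hd.hβ x) = UHfn hd.hβ (dd.ρ d x) := by
  rw [diamondData_rho_eq dd hd.dd, diamondData_rho_eq dd hd.dd]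
  exact UHfn_equiv hd d x

variable {ℓ ℓ' : ℕ} [NeZero ℓ] [NeZero ℓ']

/-- `THfn_ℓ ∘ THfn_ℓ' = THfn_ℓ' ∘ THfn_ℓ`. -/
theorem THfn_comm (hd : HeckeData M c ℓ H) (hd' : HeckeData M c ℓ' H) (hc2 : 2 ≤ c)
    (hc : c ∣ M) (hℓ : ℓ.Prime) (hℓM : ¬ ℓ ∣ M) (hℓ' : ℓ'.Prime) (hℓ'M : ¬ ℓ' ∣ M)
    (hne : ℓ ≠ ℓ') (u u' : (ZMod c)ˣ) (hu : (u : ZMod c) = (ℓ : ZMod c))
    (hu' : (u' : ZMod c) = (ℓ' : ZMod c)) (f : ↥(FHbar M c H)) :
    THfn hd.hβ (THfn hd'.hβ f) = THfn hd'.hβ (THfn hd.hβ f) := by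
  obtain ⟨ζ, hζ⟩ := H2.exists_primitiveRoot_Qbar ℓ
  obtain ⟨ζ', hζ'⟩ := H2.exists_primitiveRoot_Qbar ℓ'
  have hco : Nat.Coprime ℓ' ℓ := (Nat.coprime_primes hℓ' hℓ).mpr (Ne.symm hne)
  apply Subtype.ext
  rw [coe_THfn hd hc2 hc hℓ hℓM u hu, coe_THfn hd' hc2 hc hℓ' hℓ'M u' hu',
    THfn_equiv hd' hd.dd, coe_THfn hd' hc2 hc hℓ' hℓ'M u' hu',
    coe_THfn hd' hc2 hc hℓ' hℓ'M u' hu', coe_THfn hd hc2 hc hℓ hℓM u hu,
    THfn_equiv hd hd'.dd, coe_THfn hd hc2 hc hℓ hℓM u hu, twNorm_twNorm hco hζ hζ']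
  have e : hd'.dd.ρ u' (hd.dd.ρ u f) = hd.dd.ρ u (hd'.dd.ρ u' f) := by
    rw [diamondData_rho_eq hd'.dd hd.dd, diamondData_rho_eq hd'.dd hd.dd, ← AlgEquiv.mul_apply,
      ← AlgEquiv.mul_apply, ← map_mul, ← map_mul, mul_comm]
  rw [e]

/-- `THfn_ℓ ∘ UHfn_q = UHfn_q ∘ THfn_ℓ` (`ℓ ∤ M`, `[F_H(Mq) : β F_H(M)] = q`). -/
theorem THfn_UHfn_comm (hd : HeckeData M c ℓ H) (hd' : HeckeData M c ℓ' H) (hc2 : 2 ≤ c)
    (hc : c ∣ M) (hℓ : ℓ.Prime) (hℓM : ¬ ℓ ∣ M) (hℓ' : ℓ'.Prime)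
    (hdeg : finrankAlong Kbar (betaBar hd'.hβ) = ℓ')
    (hne : ℓ ≠ ℓ') (u : (ZMod c)ˣ) (hu : (u : ZMod c) = (ℓ : ZMod c)) (f : ↥(FHbar M c H)) :
    THfn hd.hβ (UHfn hd'.hβ f) = UHfn hd'.hβ (THfn hd.hβ f) := by
  obtain ⟨ζ, hζ⟩ := H2.exists_primitiveRoot_Qbar ℓ
  obtain ⟨ζ', hζ'⟩ := H2.exists_primitiveRoot_Qbar ℓ'
  have hco : Nat.Coprime ℓ' ℓ := (Nat.coprime_primes hℓ' hℓ).mpr (Ne.symm hne)
  apply Subtype.ext
  rw [coe_THfn hd hc2 hc hℓ hℓM u hu, UHfn_equiv' hd' hd.dd, coe_UHfn_of_finrank hd' hdeg,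
    coe_UHfn_of_finrank hd' hdeg, coe_UHfn_of_finrank hd' hdeg, coe_THfn hd hc2 hc hℓ hℓM u hu,
    uSeries_twNorm hco hζ hζ']

/-- `UHfn_q ∘ UHfn_q' = UHfn_q' ∘ UHfn_q`. -/
theorem UHfn_comm (hd : HeckeData M c ℓ H) (hd' : HeckeData M c ℓ' H) (hℓ : ℓ.Prime)
    (hℓ' : ℓ'.Prime) (hdeg : finrankAlong Kbar (betaBar hd.hβ) = ℓ)
    (hdeg' : finrankAlong Kbar (betaBar hd'.hβ) = ℓ')
    (hne : ℓ ≠ ℓ') (f : ↥(FHbar M c H)) :
    UHfn hd.hβ (UHfn hd'.hβ f) = UHfn hd'.hβ (UHfn hd.hβ f) := by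
  obtain ⟨ζ, hζ⟩ := H2.exists_primitiveRoot_Qbar ℓ
  obtain ⟨ζ', hζ'⟩ := H2.exists_primitiveRoot_Qbar ℓ'
  have hco : Nat.Coprime ℓ' ℓ := (Nat.coprime_primes hℓ' hℓ).mpr (Ne.symm hne)
  apply Subtype.ext
  rw [coe_UHfn_of_finrank hd hdeg, coe_UHfn_of_finrank hd' hdeg', coe_UHfn_of_finrank hd' hdeg',
    coe_UHfn_of_finrank hd hdeg, uSeries_uSeries hco hζ hζ']

end Fn

/-! ## 3. The operators -/

section Op

variable {M c : ℕ} [NeZero M] {H : Subgroup (ZMod c)ˣ} {ℓ ℓ' : ℕ} [NeZero ℓ] [NeZero ℓ']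

omit [NeZero M] [NeZero ℓ] in
/-- A prime not dividing `M` is a unit modulo `c ∣ M`. -/
theorem exists_unit_of_prime (hc : c ∣ M) (hℓ : ℓ.Prime) (hℓM : ¬ ℓ ∣ M) :
    ∃ u : (ZMod c)ˣ, (u : ZMod c) = (ℓ : ZMod c) := by
  have hco : Nat.Coprime ℓ c := by
    rw [Nat.Prime.coprime_iff_not_dvd hℓ]
    exact fun h => hℓM (h.trans hc)
  exact ⟨ZMod.unitOfCoprime ℓ hco, ZMod.coe_unitOfCoprime ℓ hco⟩

/-- Correspondences whose functions commute, commute on `Pic⁰`. -/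
theorem picMap_comm_of_fn {K F : Type} [Field K] [Field F] [Algebra K F] [IsAlgClosed K]
    (hF : IsFF K F) {Φ Ψ : Divisor K F →+ Divisor K F} {N N' : F → F} {d d' : ℤ}
    (hΦ : IsCorr Φ N d) (hΨ : IsCorr Ψ N' d') (h : ∀ f, f ≠ 0 → N (N' f) = N' (N f))
    (x : Pic0 K F) : picMap Φ (picMap Ψ x) = picMap Ψ (picMap Φ x) := by
  haveI := hasPD hF
  have h1 : Φ.comp Ψ = Ψ.comp Φ := (hΦ.comp hΨ).eq (hΨ.comp hΦ) h
  have h2 := picMap_comp hΦ.isGood hΨ.isGood
  have h3 := picMap_comp hΨ.isGood hΦ.isGood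
  rw [h1] at h2
  have h4 := DFunLike.congr_fun (h2.symm.trans h3) x
  simp only [AddMonoidHom.comp_apply] at h4
  exact h4

/-- The degree of `β` on `F_H` is the degree of `β` on `F₀` (so it is `q` for `q ∥ M q`, by
OLD-DEG). -/
theorem finrankAlong_betaH_of_zero (hd : HeckeData M c ℓ H) {n : ℕ}
    (h0 : finrankAlong Kbar (heckeBetaBar Kbar M ℓ) = n) :
    finrankAlong Kbar (betaBar hd.hβ) = n :=
  (Fermat.Agent.NEB.H70.finrankAlong_betaH_eq hd).trans h0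

/-- **Z-COMM (T, T)**: `T^H_ℓ` and `T^H_ℓ'` commute. -/
theorem TH_comm (hd : HeckeData M c ℓ H) (hd' : HeckeData M c ℓ' H) (hc2 : 2 ≤ c)
    (hc : c ∣ M) (hℓ : ℓ.Prime) (hℓM : ¬ ℓ ∣ M) (hℓ' : ℓ'.Prime) (hℓ'M : ¬ ℓ' ∣ M)
    (hne : ℓ ≠ ℓ') (x : JH M c H) :
    TH hd.hβ (TH hd'.hβ x) = TH hd'.hβ (TH hd.hβ x) := by
  obtain ⟨u, hu⟩ := exists_unit_of_prime (c := c) hc hℓ hℓM
  obtain ⟨u', hu'⟩ := exists_unit_of_prime (c := c) hc hℓ' hℓ'M
  rw [TH_eq_picMap hd.isFF hd.isFF' hd.hβ, TH_eq_picMap hd'.isFF hd'.isFF' hd'.hβ]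
  exact picMap_comm_of_fn hd.isFF (isCorr_THdiv hd.isFF hd.isFF' hd.hβ)
    (isCorr_THdiv hd'.isFF hd'.isFF' hd'.hβ)
    (fun f _ => THfn_comm hd hd' hc2 hc hℓ hℓM hℓ' hℓ'M hne u u' hu hu' f) x

/-- **Z-COMM (T, U)**: `T^H_ℓ` and `U^H_q` commute. -/
theorem TH_UH_comm (hd : HeckeData M c ℓ H) (hd' : HeckeData M c ℓ' H) (hc2 : 2 ≤ c)
    (hc : c ∣ M) (hℓ : ℓ.Prime) (hℓM : ¬ ℓ ∣ M) (hℓ' : ℓ'.Prime)
    (hdeg : finrankAlong Kbar (betaBar hd'.hβ) = ℓ')
    (hne : ℓ ≠ ℓ') (x : JH M c H) :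
    TH hd.hβ (UH hd'.hβ x) = UH hd'.hβ (TH hd.hβ x) := by
  obtain ⟨u, hu⟩ := exists_unit_of_prime (c := c) hc hℓ hℓM
  rw [TH_eq_picMap hd.isFF hd.isFF' hd.hβ, UH_eq_picMap hd'.isFF hd'.isFF' hd'.hβ]
  exact picMap_comm_of_fn hd.isFF (isCorr_THdiv hd.isFF hd.isFF' hd.hβ)
    (isCorr_UHdiv hd'.isFF hd'.isFF' hd'.hβ)
    (fun f _ => THfn_UHfn_comm hd hd' hc2 hc hℓ hℓM hℓ' hdeg hne u hu f) x

/-- **Z-COMM (U, U)**: `U^H_q` and `U^H_q'` commute. -/
theorem UH_comm (hd : HeckeData M c ℓ H) (hd' : HeckeData M c ℓ' H) (hℓ : ℓ.Prime)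
    (hℓ' : ℓ'.Prime) (hdeg : finrankAlong Kbar (betaBar hd.hβ) = ℓ)
    (hdeg' : finrankAlong Kbar (betaBar hd'.hβ) = ℓ')
    (hne : ℓ ≠ ℓ') (x : JH M c H) :
    UH hd.hβ (UH hd'.hβ x) = UH hd'.hβ (UH hd.hβ x) := by
  rw [UH_eq_picMap hd.isFF hd.isFF' hd.hβ, UH_eq_picMap hd'.isFF hd'.isFF' hd'.hβ]
  exact picMap_comm_of_fn hd.isFF (isCorr_UHdiv hd.isFF hd.isFF' hd.hβ)
    (isCorr_UHdiv hd'.isFF hd'.isFF' hd'.hβ)
    (fun f _ => UHfn_comm hd hd' hℓ hℓ' hdeg hdeg' hne f) x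

end Op

end Fermat.Agent.NEB.Geom.H29

end
end
-- ==== END Fermat.Agent.NEB.Geom.H29_ZComm

-- ==== BEGIN Fermat.Agent.NEB.Geom.H29_ZFinKer
section

/-!
# NEB-GEOM, leaf Z-FIN, part 1 (helper29): the kernel of `π^*` on torsion is finite

`φ : E → L` a homomorphism of function fields over an algebraically closed field, `G` a finite
group acting on `L` with fixed field `φ E`.  The kernel of `π^* : Pic⁰(E)[m] → Pic⁰(L)[m]` embeds
into the maps `G → μ_m` (Kummer theory), hence is finite; so `Pic⁰(E)[m]` is finite if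
`Pic⁰(L)[m]` is.
-/

set_option autoImplicit false
set_option linter.style.haveILetI false

noncomputable section

namespace Fermat.Agent.NEB.Geom.H29

open AlgebraicCurve Fermat.Agent.RED Fermat.Agent.NEB.H14 Fermat.Agent.NEB.H29 Fermat.Agent.GTor

section Abs

/-- A subgroup with finite image and finite kernel under a homomorphism is finite. -/
theorem finite_of_finite_image_of_finite_ker {A B : Type*} [AddCommGroup A] [AddCommGroup B]
    (f : A →+ B) (S : AddSubgroup A) (h1 : (f '' (S : Set A)).Finite)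
    (h2 : {x : A | x ∈ S ∧ f x = 0}.Finite) : (S : Set A).Finite := by
  have hsub : (S : Set A) ⊆ ⋃ b ∈ f '' (S : Set A), {a : A | a ∈ S ∧ f a = b} := by
    intro a ha
    simp only [Set.mem_iUnion, Set.mem_ofPred_eq, exists_prop]
    exact ⟨f a, ⟨a, ha, rfl⟩, ha, rfl⟩
  refine (Set.Finite.biUnion h1 fun b hb => ?_).subset hsub
  obtain ⟨a₀, ha₀, rfl⟩ := hb
  refine (h2.image (fun x => a₀ + x)).subset ?_
  rintro a ⟨ha, hfa⟩
  refine ⟨a - a₀, ⟨S.sub_mem ha ha₀, ?_⟩, by simp⟩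
  rw [map_sub, hfa, sub_self]

end Abs

section Ker

variable {K E L : Type} [Field K] [Field E] [Field L] [Algebra K E] [Algebra K L] [IsAlgClosed K]

/-- `y₀ = [D]`, `m D = div f`, `φ f = h ^ m`, and `g h = χ(g) h`. -/
def HasKerChar (φ : E →ₐ[K] L) {G : Type} [Group G] (ρ : G →* (L ≃ₐ[K] L)) (m : ℕ)
    (y₀ : Pic0 K E) (χ : G → L) : Prop :=
  ∃ (D : Divisor.degZero (K := K) (F := E)) (f : E) (h : L), f ≠ 0 ∧ Pic0.mk D = y₀ ∧
    (∀ v : Place K E, (m : ℤ) * (D : Divisor K E) v = v.ord f) ∧ h ≠ 0 ∧ φ f = h ^ m ∧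
    ∀ g : G, ρ g h = χ g * h

/-- Every class of the kernel has a character with values in `μ_m`. -/
theorem exists_hasKerChar (hE : IsFF K E) (hL : IsFF K L) (φ : E →ₐ[K] L)
    {G : Type} [Group G] (ρ : G →* (L ≃ₐ[K] L))
    (hfixE : ∀ (d : G) (x : E), ρ d (φ x) = φ x) (m : ℕ) (hm : m ≠ 0)
    (y₀ : Pic0 K E) (hy : (m : ℤ) • y₀ = 0) (hker : pullP φ y₀ = 0) :
    ∃ χ : G → L, (∀ g, χ g ^ m = 1) ∧ HasKerChar φ ρ m y₀ χ := by
  obtain ⟨D, f, hf, rfl, hD⟩ := exists_kummer_rep m y₀ hy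
  have hpull := isCorr_pullD hE hL φ
  rw [pullP, picMap_mk hpull.isGood, H33.mk_eq_zero_iff] at hker
  obtain ⟨h₀, hh₀, hDh⟩ := hker
  simp only [coe_degZeroMap] at hDh
  have hφf : φ f ≠ 0 := (hpull.hasFn f hf).1
  have hord : ∀ w : Place K L, w.ord (φ f) = w.ord (h₀ ^ m) := by
    intro w
    rw [← pullD_kummer hE hL φ (m : ℤ) (D : Divisor K E) hf hD w, hDh w, ord_pow_nat]
  obtain ⟨c, hc0, hc⟩ := exists_const_mul (constHyp_of_isFF hL) hφf (pow_ne_zero m hh₀) hord m hm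
  have hc' : algebraMap K L c ≠ 0 := by simpa using hc0
  have hh : h₀ * algebraMap K L c ≠ 0 := mul_ne_zero hh₀ hc'
  have hfh : φ f = (h₀ * algebraMap K L c) ^ m := by rw [hc, mul_pow]
  refine ⟨fun g => ρ g (h₀ * algebraMap K L c) * (h₀ * algebraMap K L c)⁻¹, fun g => ?_,
    D, f, h₀ * algebraMap K L c, hf, rfl, hD, hh, hfh, fun g => ?_⟩
  · rw [mul_pow, ← map_pow, ← hfh, hfixE, inv_pow, ← hfh, mul_inv_cancel₀ hφf]
  · rw [mul_assoc, inv_mul_cancel₀ hh, mul_one]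

omit [IsAlgClosed K] in
/-- The character determines the class. -/
theorem eq_of_hasKerChar (φ : E →ₐ[K] L) {G : Type} [Group G] (ρ : G →* (L ≃ₐ[K] L))
    (hfix : ∀ x : L, (∀ d, ρ d x = x) → ∃ x₀ : E, φ x₀ = x) (m : ℕ) (hm : m ≠ 0)
    (y₀ y₁ : Pic0 K E) (χ : G → L) (h₀ : HasKerChar φ ρ m y₀ χ) (h₁ : HasKerChar φ ρ m y₁ χ) :
    y₀ = y₁ := by
  obtain ⟨D, f, h, hf, rfl, hD, hh, hfh, hχ⟩ := h₀
  obtain ⟨D', f', h', hf', rfl, hD', hh', hfh', hχ'⟩ := h₁
  have hinv : ∀ g : G, ρ g (h * h'⁻¹) = h * h'⁻¹ := by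
    intro g
    have hχg : χ g ≠ 0 := by
      intro h0
      have := hχ g
      rw [h0, zero_mul] at this
      exact hh ((map_eq_zero_iff _ (ρ g).injective).mp this)
    rw [map_mul, map_inv₀, hχ g, hχ' g]
    field_simp
  obtain ⟨e, he⟩ := hfix _ hinv
  have he0 : e ≠ 0 := by
    rintro rfl
    rw [map_zero] at he
    exact mul_ne_zero hh (inv_ne_zero hh') he.symm
  have hfe : f = e ^ m * f' := by
    apply φ.toRingHom.injective
    show φ f = φ (e ^ m * f')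
    rw [map_mul, map_pow, he, hfh, hfh', mul_pow, inv_pow, mul_assoc,
      inv_mul_cancel₀ (pow_ne_zero m hh'), mul_one]
  have hsub : Pic0.mk (D - D') = 0 := by
    rw [H33.mk_eq_zero_iff]
    refine ⟨e, he0, fun v => ?_⟩
    have h1 := hD v
    have h2 := hD' v
    rw [hfe, v.ord_mul (pow_ne_zero m he0) hf', ord_pow_nat, ← h2] at h1
    rw [AddSubgroup.coe_sub, Finsupp.sub_apply]
    have hm' : (m : ℤ) ≠ 0 := by exact_mod_cast hm
    apply mul_left_cancel₀ hm'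
    rw [mul_sub, h1]
    ring
  have : Pic0.mk (D - D') = Pic0.mk D - Pic0.mk D' := rfl
  rw [this, sub_eq_zero] at hsub
  exact hsub

omit [IsAlgClosed K] [Algebra K L] in
/-- The `m`-th roots of unity of a field form a finite set. -/
theorem finite_roots_of_one (m : ℕ) (hm : m ≠ 0) : Finite {ζ : L // ζ ^ m = 1} := by
  have h : {ζ : L | ζ ^ m = 1}.Finite :=
    (Polynomial.nthRootsFinset m (1 : L)).finite_toSet.subset fun ζ hζ =>
      (Polynomial.mem_nthRootsFinset (Nat.pos_of_ne_zero hm) 1).mpr hζ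
  exact h.to_subtype

/-- **The kernel of `π^*` on `m`-torsion is finite.** -/
theorem finite_ker_pullP (hE : IsFF K E) (hL : IsFF K L) (φ : E →ₐ[K] L)
    {G : Type} [Group G] [Finite G] (ρ : G →* (L ≃ₐ[K] L))
    (hfixE : ∀ (d : G) (x : E), ρ d (φ x) = φ x)
    (hfix : ∀ x : L, (∀ d, ρ d x = x) → ∃ x₀ : E, φ x₀ = x) (m : ℕ) (hm : m ≠ 0) :
    {y₀ : Pic0 K E | (m : ℤ) • y₀ = 0 ∧ pullP φ y₀ = 0}.Finite := by
  haveI := finite_roots_of_one (L := L) m hm
  have hex : ∀ y : {y₀ : Pic0 K E | (m : ℤ) • y₀ = 0 ∧ pullP φ y₀ = 0},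
      ∃ χ : G → {ζ : L // ζ ^ m = 1}, HasKerChar φ ρ m (y : Pic0 K E) (fun g => (χ g : L)) := by
    rintro ⟨y₀, hy, hker⟩
    obtain ⟨χ, hχ, h⟩ := exists_hasKerChar hE hL φ ρ hfixE m hm y₀ hy hker
    exact ⟨fun g => ⟨χ g, hχ g⟩, h⟩
  choose c hc using hex
  have hinj : Function.Injective c := by
    intro y y' hyy
    apply Subtype.ext
    refine eq_of_hasKerChar φ ρ hfix m hm _ _ _ (hc y) ?_
    rw [hyy]
    exact hc y'
  exact Set.finite_coe_iff.mp (Finite.of_injective c hinj)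

/-- **Descent of finiteness**: `Pic⁰(E)[m]` is finite if `Pic⁰(L)[m]` is. -/
theorem finite_torsion_of_cover (hE : IsFF K E) (hL : IsFF K L) (φ : E →ₐ[K] L)
    {G : Type} [Group G] [Finite G] (ρ : G →* (L ≃ₐ[K] L))
    (hfixE : ∀ (d : G) (x : E), ρ d (φ x) = φ x)
    (hfix : ∀ x : L, (∀ d, ρ d x = x) → ∃ x₀ : E, φ x₀ = x) (m : ℕ) (hm : m ≠ 0)
    (hfin : {y : Pic0 K L | (m : ℤ) • y = 0}.Finite) :
    {y₀ : Pic0 K E | (m : ℤ) • y₀ = 0}.Finite := by
  have h := finite_of_finite_image_of_finite_ker (pullP φ) (Pic0.torsion K E m) ?_ ?_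
  · refine h.subset fun y₀ hy => ?_
    exact Pic0.mem_torsion.mpr hy
  · refine hfin.subset ?_
    rintro _ ⟨y₀, hy, rfl⟩
    have hy' : (m : ℤ) • y₀ = 0 := Pic0.mem_torsion.mp hy
    show (m : ℤ) • pullP φ y₀ = 0
    rw [← map_zsmul, hy', map_zero]
  · refine (finite_ker_pullP hE hL φ ρ hfixE hfix m hm).subset ?_
    rintro y₀ ⟨hy, hker⟩
    exact ⟨Pic0.mem_torsion.mp hy, hker⟩

end Ker

end Fermat.Agent.NEB.Geom.H29

end
end
-- ==== END Fermat.Agent.NEB.Geom.H29_ZFinKer
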