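-- GENERATED (merged mirror, NOTES/tools/trim/merge3_helper67.py): 15 modules of the originals, bodies verbatim.
import Mathlib
import Fermat.Agent.Zm.S48_L14_001
import Fermat.Agent.Zm.S48_L01_002
import Fermat.Agent.Zm.S56_L02_000
import Fermat.Agent.Zm.S35_L02_001
import Fermat.Agent.Zm.S44_L02_001
import Fermat.Agent.Zm.S48_L15_000
import Fermat.Agent.Zm.S35_L15_000
import Fermat.Agent.Zm.S35_L14_001
import Fermat.Agent.Zm.S48_L13_000
import Fermat.Agent.Zm.S48_L06_001
import Fermat.Agent.Zm.S48_L02_000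
import Fermat.Agent.Zm.S35_L02_002
import Fermat.Agent.Zm.S48_L09_000
import Fermat.Agent.Zm.S48_L05_000
import Fermat.Agent.NEB.H97_Val
import Fermat.Agent.Zm.S36_L01_000
import Fermat.Agent.Zm.S35_L14_000
import Fermat.Agent.Zm.S35_L13_001

-- ==== BEGIN Fermat.Agent.NEB.Geom.H39_DivPart
section

/-!
# NEB-GEOM / W-EIG (helper39): the divisible part of a `p`-power torsion group with finite `A[p]`

* `exists_pow_smul_stable` : if `A` is `p`-power torsion and `A[p]` is finite, then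
  `p ^ e A = p ^ (e + 1) A` for some `e` (so `p ^ e A` is `p`-divisible);
* `divSub p e A` : the subgroup `p ^ e A`; `divSub_div`, `resEnd` (restriction of endomorphisms).
-/

set_option autoImplicit false

namespace Fermat.Agent.NEB.Geom.H39

section Stable

variable {A : Type*} [AddCommGroup A]

/-- If `A` is `p`-power torsion with `A[p]` finite, then `p ^ e A = p ^ (e + 1) A` for some `e`. -/
theorem exists_pow_smul_stable (p : ℕ) (htors : ∀ x : A, ∃ k : ℕ, p ^ k • x = 0)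
    (hfin : Finite {x : A // p • x = 0}) :
    ∃ e : ℕ, ∀ x : A, ∃ y : A, p ^ e • x = p ^ (e + 1) • y := by
  classical
  let T : ℕ → Set {x : A // p • x = 0} := fun k => {z | ∃ y : A, (z : A) = p ^ k • y}
  have hanti : Antitone T := by
    refine antitone_nat_of_succ_le fun k z hz => ?_
    obtain ⟨y, hy⟩ := hz
    exact ⟨p • y, by rw [hy, pow_succ, mul_smul]⟩
  obtain ⟨e, he⟩ := WellFoundedLT.antitone_chain_condition hanti
  refine ⟨e, ?_⟩
  have key : ∀ (n : ℕ) (x : A), p ^ n • (p ^ e • x) = 0 → ∃ y : A, p ^ e • x = p ^ (e + 1) • y := by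
    intro n
    induction n with
    | zero =>
      intro x hx
      rw [pow_zero, one_smul] at hx
      exact ⟨0, by rw [hx, smul_zero]⟩
    | succ n ih =>
      intro x hx
      have hz : p • (p ^ (n + e) • x) = 0 := by
        rw [← hx, pow_add, mul_smul, pow_succ, mul_smul, smul_comm]
      have hmem : (⟨p ^ (n + e) • x, hz⟩ : {x : A // p • x = 0}) ∈ T (n + e) := ⟨x, rfl⟩
      rw [← he (n + e) (Nat.le_add_left e n), he (n + e + 1) (by omega)] at hmem
      obtain ⟨u, hu⟩ := hmem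
      have hu' : p ^ (n + e) • x = p ^ (n + e + 1) • u := hu
      obtain ⟨y', hy'⟩ := ih (x - p • u) (by
        rw [smul_sub, smul_sub, ← mul_smul, ← pow_add, ← mul_smul, ← mul_smul, ← pow_add,
          ← pow_succ, hu', sub_self])
      refine ⟨y' + u, ?_⟩
      rw [smul_add, ← hy', smul_sub, ← mul_smul, ← pow_succ, sub_add_cancel]
  intro x
  obtain ⟨k, hk⟩ := htors (p ^ e • x)
  exact key k x hk

end Stable

section DivSub

variable (p e : ℕ) (A : Type*) [AddCommGroup A]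

/-- The subgroup `p ^ e A`. -/
def divSub : AddSubgroup A := (nsmulAddMonoidHom (α := A) (p ^ e)).range

variable {p e A}

theorem mem_divSub {x : A} : x ∈ divSub p e A ↔ ∃ y : A, p ^ e • y = x := Iff.rfl

theorem pow_smul_mem_divSub (x : A) : p ^ e • x ∈ divSub p e A := ⟨x, rfl⟩

/-- `p ^ e A` is `p`-divisible if `p ^ e A = p ^ (e + 1) A`. -/
theorem divSub_div (h : ∀ x : A, ∃ y : A, p ^ e • x = p ^ (e + 1) • y) (x : ↥(divSub p e A)) :
    ∃ y : ↥(divSub p e A), p • y = x := by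
  obtain ⟨x, x₀, rfl⟩ := x
  obtain ⟨y, hy⟩ := h x₀
  refine ⟨⟨p ^ e • y, pow_smul_mem_divSub y⟩, Subtype.ext ?_⟩
  show p • p ^ e • y = p ^ e • x₀
  rw [hy, pow_succ, mul_smul, smul_comm]

theorem divSub_tors (htors : ∀ x : A, ∃ k : ℕ, p ^ k • x = 0) (x : ↥(divSub p e A)) :
    ∃ k : ℕ, p ^ k • x = 0 := by
  obtain ⟨k, hk⟩ := htors x.1
  exact ⟨k, Subtype.ext hk⟩

theorem map_mem_divSub (f : Module.End ℤ A) {x : A} (hx : x ∈ divSub p e A) :
    f x ∈ divSub p e A := by
  obtain ⟨y, rfl⟩ := hx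
  refine ⟨f y, ?_⟩
  show p ^ e • f y = f (p ^ e • y)
  rw [map_nsmul]

variable (p e)

/-- Restriction of endomorphisms to `p ^ e A`. -/
def resEnd : Module.End ℤ A →+* Module.End ℤ ↥(divSub p e A) where
  toFun f := AddMonoidHom.toIntLinearMap
    ((f.toAddMonoidHom.comp (divSub p e A).subtype).codRestrict (divSub p e A)
      (fun x => map_mem_divSub f x.2))
  map_one' := by ext x; rfl
  map_mul' f g := by ext x; rfl
  map_zero' := by ext x; rfl
  map_add' f g := by ext x; rfl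

variable {p e}

@[simp] theorem coe_resEnd (f : Module.End ℤ A) (x : ↥(divSub p e A)) :
    ((resEnd p e f x : ↥(divSub p e A)) : A) = f (x : A) := rfl

end DivSub

end Fermat.Agent.NEB.Geom.H39

end
-- ==== END Fermat.Agent.NEB.Geom.H39_DivPart

-- ==== BEGIN Fermat.Agent.NEB.Geom.H6_ClSub
section
attribute [local instance 10000] SubalgebraClass.toAlgebra
attribute [local instance 10000] HahnSeries.powerSeriesAlgebra

/-!
# NEB-GEOM leaf CL-SUB (helper6): the kernel of reduction `K1` is a subgroup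

`stmt_CL_sub p F : Stmt_CL_sub p F`, plus the separate closure lemmas `inK1_zero`, `inK1_add`,
`inK1_neg`, `inK1_sub`, `inK1_nsmul`, `inK1_zsmul`, `inK1_sum`, the subgroup `K1 P p F`, and for
`K_A`: `inKA_zero`, `inKA_add`, `inKA_neg`, `inKA_sub`, `inKA_nsmul`, `inKA_inK1`, `inKA_diamond`,
the subgroup `KA P p dd`.
-/

set_option autoImplicit false

noncomputable section

open ModularCurve AlgebraicCurve

namespace Fermat.Agent.NEB.Geom.H6

open Fermat.Agent.NEB Fermat.Agent.NEB.JH Fermat.Agent.NEB.Geom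

variable {P : ValuationSubring Kbar} {p : ℕ} {F : IntermediateField Kbar (LaurentSeries Kbar)}

theorem inK1_zero : InK1 P p F 0 := by
  refine ⟨0, 0, 1, one_ne_zero, Pic0.mk_zero.symm, fun v => ?_, ?_⟩
  · rw [v.ord_one]
    simp
  · exact Fermat.Agent.NEB.H70.isRedOneC_one

theorem inK1_neg {x : Pic0 Kbar ↥F} (hx : InK1 P p F x) : InK1 P p F (-x) := by
  obtain ⟨k, D, f, hf, rfl, hD, hred⟩ := hx
  refine ⟨k, -D, f⁻¹, inv_ne_zero hf, rfl, fun v => ?_, ?_⟩
  · rw [v.ord_inv, ← hD v]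
    simp
  · have : ((f⁻¹ : ↥F) : LaurentSeries Kbar) = (f : LaurentSeries Kbar)⁻¹ := rfl
    rw [this]
    exact hred.inv

theorem inK1_add {x y : Pic0 Kbar ↥F} (hx : InK1 P p F x) (hy : InK1 P p F y) :
    InK1 P p F (x + y) := by
  obtain ⟨k, D, f, hf, rfl, hD, hred⟩ := hx
  obtain ⟨k', D', f', hf', rfl, hD', hred'⟩ := hy
  refine ⟨k + k', D + D', f ^ (p ^ k') * f' ^ (p ^ k),
    mul_ne_zero (pow_ne_zero _ hf) (pow_ne_zero _ hf'), rfl, fun v => ?_, ?_⟩
  · rw [v.ord_mul (pow_ne_zero _ hf) (pow_ne_zero _ hf'), ← zpow_natCast, ← zpow_natCast,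
      v.ord_zpow, v.ord_zpow, ← hD v, ← hD' v]
    have e : ((D + D' : Divisor.degZero (K := Kbar) (F := ↥F)) : Divisor Kbar ↥F) v
        = (D : Divisor Kbar ↥F) v + (D' : Divisor Kbar ↥F) v := rfl
    rw [e]
    push_cast
    ring
  · have : ((f ^ (p ^ k') * f' ^ (p ^ k) : ↥F) : LaurentSeries Kbar) =
        (f : LaurentSeries Kbar) ^ (p ^ k') * (f' : LaurentSeries Kbar) ^ (p ^ k) := rfl
    rw [this]
    exact (hred.pow _).mul (hred'.pow _)

theorem inK1_sub {x y : Pic0 Kbar ↥F} (hx : InK1 P p F x) (hy : InK1 P p F y) :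
    InK1 P p F (x - y) := by
  rw [sub_eq_add_neg]
  exact inK1_add hx (inK1_neg hy)

theorem inK1_nsmul {x : Pic0 Kbar ↥F} (hx : InK1 P p F x) (n : ℕ) : InK1 P p F (n • x) := by
  induction n with
  | zero => rw [zero_nsmul]; exact inK1_zero
  | succ n ih => rw [succ_nsmul]; exact inK1_add ih hx

theorem inK1_zsmul {x : Pic0 Kbar ↥F} (hx : InK1 P p F x) (n : ℤ) : InK1 P p F (n • x) := by
  obtain ⟨m, rfl | rfl⟩ := n.eq_nat_or_neg
  · rw [natCast_zsmul]; exact inK1_nsmul hx m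
  · rw [neg_smul, natCast_zsmul]; exact inK1_neg (inK1_nsmul hx m)

theorem inK1_sum {ι : Type*} (s : Finset ι) (x : ι → Pic0 Kbar ↥F)
    (hx : ∀ i ∈ s, InK1 P p F (x i)) : InK1 P p F (∑ i ∈ s, x i) := by
  classical
  induction s using Finset.induction_on with
  | empty => rw [Finset.sum_empty]; exact inK1_zero
  | insert a s ha ih =>
    rw [Finset.sum_insert ha]
    exact inK1_add (hx a (Finset.mem_insert_self a s))
      (ih (fun i hi => hx i (Finset.mem_insert_of_mem hi)))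

/-- The kernel of reduction as an additive subgroup. -/
def K1 (P : ValuationSubring Kbar) (p : ℕ) (F : IntermediateField Kbar (LaurentSeries Kbar)) :
    AddSubgroup (Pic0 Kbar ↥F) where
  carrier := {x | InK1 P p F x}
  zero_mem' := inK1_zero
  add_mem' := fun hx hy => inK1_add hx hy
  neg_mem' := fun hx => inK1_neg hx

theorem mem_K1 {x : Pic0 Kbar ↥F} : x ∈ K1 P p F ↔ InK1 P p F x := Iff.rfl

/-- **Leaf CL-SUB.** -/
theorem stmt_CL_sub (p : ℕ) (F : IntermediateField Kbar (LaurentSeries Kbar)) :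
    Stmt_CL_sub p F :=
  fun _ => ⟨inK1_zero, fun _ _ hx hy => inK1_add hx hy, fun _ hx => inK1_neg hx⟩

section KA

variable {M c : ℕ} {H : Subgroup (ZMod c)ˣ} {dd : DiamondData M c H}

theorem inKA_zero : InKA P p dd (0 : JH M c H) := by
  intro d
  have h0 : dd.ρ d • (0 : JH M c H) = 0 := map_zero (diamond dd d)
  rw [h0]
  exact inK1_zero

theorem inKA_add {x y : JH M c H} (hx : InKA P p dd x) (hy : InKA P p dd y) :
    InKA P p dd (x + y) := by
  intro d
  have h0 : dd.ρ d • (x + y) = dd.ρ d • x + dd.ρ d • y := map_add (diamond dd d) x y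
  rw [h0]
  exact inK1_add (hx d) (hy d)

theorem inKA_neg {x : JH M c H} (hx : InKA P p dd x) : InKA P p dd (-x) := by
  intro d
  have h0 : dd.ρ d • (-x) = -(dd.ρ d • x) := map_neg (diamond dd d) x
  rw [h0]
  exact inK1_neg (hx d)

theorem inKA_sub {x y : JH M c H} (hx : InKA P p dd x) (hy : InKA P p dd y) :
    InKA P p dd (x - y) := by
  rw [sub_eq_add_neg]
  exact inKA_add hx (inKA_neg hy)

theorem inKA_nsmul {x : JH M c H} (hx : InKA P p dd x) (n : ℕ) : InKA P p dd (n • x) := by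
  induction n with
  | zero => rw [zero_nsmul]; exact inKA_zero
  | succ n ih => rw [succ_nsmul]; exact inKA_add ih hx

/-- `K_A ⊆ K1`. -/
theorem inKA_inK1 {x : JH M c H} (hx : InKA P p dd x) : InK1 P p (FHbar M c H) x := by
  have := hx 1
  rwa [map_one, one_smul] at this

/-- `K_A` is stable under the diamond operators. -/
theorem inKA_diamond {x : JH M c H} (hx : InKA P p dd x) (e : (ZMod c)ˣ) :
    InKA P p dd (dd.ρ e • x) := by
  intro d
  rw [← mul_smul, ← map_mul]
  exact hx (d * e)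

/-- `K_A` as an additive subgroup. -/
def KA (P : ValuationSubring Kbar) (p : ℕ) {M c : ℕ} {H : Subgroup (ZMod c)ˣ}
    (dd : DiamondData M c H) : AddSubgroup (JH M c H) where
  carrier := {x | InKA P p dd x}
  zero_mem' := inKA_zero
  add_mem' := fun hx hy => inKA_add hx hy
  neg_mem' := fun hx => inKA_neg hx

theorem mem_KA {x : JH M c H} : x ∈ KA P p dd ↔ InKA P p dd x := Iff.rfl

end KA

end Fermat.Agent.NEB.Geom.H6

end
end
-- ==== END Fermat.Agent.NEB.Geom.H6_ClSub

-- ==== BEGIN Fermat.Agent.NEB.Geom.H6_EigVec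
section

/-!
# NEB-GEOM, leaf W-MD, abstract part N1 (helper6, for helper26)

`exists_left_eigenvector`: for a faithful integral representation `M : 𝕋 →+* M_r(ℤ)` of a
commutative ring and a ring homomorphism `θ : 𝕋 →+* k` to a finite field, there is a nonzero
`c ∈ k^r` with `c · (M t mod p) = θ t • c` for all `t`.

Proof: Nakayama on the faithful finite `𝕋`-module `ℤ^r` at the maximal ideal `ker θ`, then a
nonzero linear functional on the quotient.
-/

set_option autoImplicit false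
set_option linter.style.haveILetI false

namespace Fermat.Agent.NEB.Geom.H6

open Matrix

/-- An additive map `ℤ^r → k` is given by its values on the standard basis. -/
theorem addMonoidHom_pi_int_apply {r : ℕ} {k : Type} [Field k] (φ : (Fin r → ℤ) →+ k)
    (w : Fin r → ℤ) : φ w = ∑ i, (w i : k) * φ (Pi.single i 1) := by
  classical
  conv_lhs => rw [← Finset.univ_sum_single w]
  rw [map_sum]
  refine Finset.sum_congr rfl (fun i _ => ?_)
  have h : (Pi.single i (w i) : Fin r → ℤ) = (w i) • (Pi.single i 1 : Fin r → ℤ) := by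
    rw [← Pi.single_smul, smul_eq_mul, mul_one]
  rw [h, map_zsmul, zsmul_eq_mul]

/-- **N1**: left eigenvector mod `p` of a faithful integral Hecke representation. -/
theorem exists_left_eigenvector {𝕋 : Type} [CommRing 𝕋] {r : ℕ}
    (M : 𝕋 →+* Matrix (Fin r) (Fin r) ℤ) (hM : Function.Injective M)
    {k : Type} [Field k] [Finite k] (θ : 𝕋 →+* k) :
    ∃ c : Fin r → k, c ≠ 0 ∧
      ∀ t : 𝕋, Matrix.vecMul c ((M t).map (Int.cast : ℤ → k)) = θ t • c := by
  classical
  -- the module structure on `Λ = ℤ^r`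
  let ρ : 𝕋 →+* Module.End ℤ (Fin r → ℤ) :=
    ((Matrix.toLinAlgEquiv' : Matrix (Fin r) (Fin r) ℤ ≃ₐ[ℤ] Module.End ℤ (Fin r → ℤ)) :
      Matrix (Fin r) (Fin r) ℤ →+* Module.End ℤ (Fin r → ℤ)).comp M
  letI inst : Module 𝕋 (Fin r → ℤ) := Module.compHom (Fin r → ℤ) ρ
  have hsmul : ∀ (t : 𝕋) (w : Fin r → ℤ), t • w = (M t).mulVec w := fun t w => rfl
  haveI : Module.Finite 𝕋 (Fin r → ℤ) := Module.Finite.of_restrictScalars_finite ℤ 𝕋 (Fin r → ℤ)
  -- the maximal ideal
  let 𝔪 : Ideal 𝕋 := RingHom.ker θ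
  haveI hprime : 𝔪.IsPrime := RingHom.ker_isPrime θ
  haveI : Finite (𝕋 ⧸ 𝔪) := Finite.of_injective (RingHom.kerLift θ) (RingHom.kerLift_injective θ)
  haveI hmax : 𝔪.IsMaximal :=
    Ideal.Quotient.maximal_of_isField 𝔪 (Finite.isField_of_domain (𝕋 ⧸ 𝔪))
  letI : Field (𝕋 ⧸ 𝔪) := Ideal.Quotient.field 𝔪
  -- Nakayama
  have hne : (𝔪 • (⊤ : Submodule 𝕋 (Fin r → ℤ))) ≠ ⊤ := by
    intro htop
    obtain ⟨s, hs1, hs0⟩ := Submodule.exists_sub_one_mem_and_smul_eq_zero_of_fg_of_le_smul 𝔪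
      (⊤ : Submodule 𝕋 (Fin r → ℤ)) Module.Finite.fg_top (le_of_eq htop.symm)
    have hMs : M s = 0 := by
      have h1 : Matrix.toLin' (M s) = 0 := by
        refine LinearMap.ext fun w => ?_
        rw [Matrix.toLin'_apply, ← hsmul, hs0 w Submodule.mem_top]
        rfl
      exact (Matrix.toLin' : Matrix (Fin r) (Fin r) ℤ ≃ₗ[ℤ] _).injective (by rw [h1, map_zero])
    have hs : s = 0 := hM (by rw [hMs, map_zero])
    rw [hs, zero_sub] at hs1
    have h1 : (1 : 𝕋) ∈ 𝔪 := by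
      have := 𝔪.neg_mem hs1
      rwa [neg_neg] at this
    exact hmax.ne_top ((Ideal.eq_top_iff_one 𝔪).mpr h1)
  -- a vector outside `𝔪 Λ`
  obtain ⟨v, hv⟩ : ∃ v : Fin r → ℤ, v ∉ 𝔪 • (⊤ : Submodule 𝕋 (Fin r → ℤ)) := by
    by_contra h
    push Not at h
    exact hne (eq_top_iff.mpr fun w _ => h w)
  -- the quotient, a vector space over `𝕋 ⧸ 𝔪`
  have hv' : (Submodule.Quotient.mk v :
      (Fin r → ℤ) ⧸ (𝔪 • (⊤ : Submodule 𝕋 (Fin r → ℤ)))) ≠ 0 := by
    rwa [Ne, Submodule.Quotient.mk_eq_zero]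
  obtain ⟨f, hf⟩ : ∃ f : Module.Dual (𝕋 ⧸ 𝔪)
      ((Fin r → ℤ) ⧸ (𝔪 • (⊤ : Submodule 𝕋 (Fin r → ℤ)))),
      f (Submodule.Quotient.mk v) ≠ 0 := by
    by_contra h
    push Not at h
    exact hv' ((Module.forall_dual_apply_eq_zero_iff (𝕋 ⧸ 𝔪) _).mp h)
  -- the eigen-functional
  let φ : (Fin r → ℤ) →+ k :=
    { toFun := fun w => RingHom.kerLift θ (f (Submodule.Quotient.mk w))
      map_zero' := by
        rw [Submodule.Quotient.mk_zero, map_zero, map_zero]
      map_add' := fun w w' => by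
        rw [Submodule.Quotient.mk_add, map_add, map_add] }
  have hφ : ∀ (t : 𝕋) (w : Fin r → ℤ), φ (t • w) = θ t * φ w := by
    intro t w
    show RingHom.kerLift θ (f (Submodule.Quotient.mk (t • w)))
      = θ t * RingHom.kerLift θ (f (Submodule.Quotient.mk w))
    have h1 : (Submodule.Quotient.mk (t • w) :
        (Fin r → ℤ) ⧸ (𝔪 • (⊤ : Submodule 𝕋 (Fin r → ℤ))))
        = (Ideal.Quotient.mk 𝔪 t : 𝕋 ⧸ 𝔪) • Submodule.Quotient.mk w := rfl
    rw [h1, map_smul, smul_eq_mul, map_mul, RingHom.kerLift_mk]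
  have hφv : φ v ≠ 0 := by
    show RingHom.kerLift θ (f (Submodule.Quotient.mk v)) ≠ 0
    intro h0
    exact hf ((RingHom.kerLift_injective θ) (by rw [h0, map_zero]))
  refine ⟨fun i => φ (Pi.single i 1), ?_, ?_⟩
  · intro hc
    apply hφv
    rw [addMonoidHom_pi_int_apply φ v]
    refine Finset.sum_eq_zero (fun i _ => ?_)
    have := congrFun hc i
    simp only [Pi.zero_apply] at this
    rw [this, mul_zero]
  · intro t
    funext j
    have h1 : (M t).mulVec (Pi.single j 1) = fun i => M t i j := by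
      funext i
      simp [Matrix.mulVec, dotProduct, Pi.single_apply]
    have h2 : θ t * φ (Pi.single j 1) = φ (fun i => M t i j) := by
      rw [← hφ, hsmul, h1]
    show Matrix.vecMul (fun i => φ (Pi.single i 1)) ((M t).map (Int.cast : ℤ → k)) j
      = (θ t • fun i => φ (Pi.single i 1)) j
    rw [Pi.smul_apply, smul_eq_mul, h2, addMonoidHom_pi_int_apply φ (fun i => M t i j)]
    simp only [Matrix.vecMul, dotProduct, Matrix.map_apply]
    exact Finset.sum_congr rfl (fun i _ => mul_comm _ _)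

end Fermat.Agent.NEB.Geom.H6

end
-- ==== END Fermat.Agent.NEB.Geom.H6_EigVec

-- ==== BEGIN Fermat.Agent.NEB.Geom.H6_ZCyc
section

/-!
# NEB-GEOM leaf Z-CYC (helper6): the cyclotomic character mod `c`

`chiC c : Gal(ℚ̄/ℚ) →* (ZMod c)ˣ` is the cyclotomic character mod `c`
(`σ ζ = ζ ^ χ_c(σ)` for every `c`-th root of unity `ζ`).

* `chiC_spec`, `chiC_eq_of_pow`, `chiC_eq_one_iff` : characterisation (any other definition of
  the cyclotomic character mod `c` is equal to this one by `chiC_ext`);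
* `chiC_unitsMap` : compatibility with `ZMod.unitsMap` for `d ∣ c`;
* `chiC_frob` : `χ_c(Frob_ℓ) = ℓ` for `ℓ` prime to `c`;
* `chiC_inertia` : inertia at `q` is trivial on `ζ_m`, `q ∤ m`;
* `chiC_surjective` : `χ_c` is surjective;
* `chiC_inertia_surjective_primePow` : `I_q ↠ (ℤ/q^k)ˣ`;
* `chiC_inertia_surjective` : for `c = q ^ k * m`, `q ∤ m`, the image of `I_q` under `χ_c` is
  exactly the kernel of `(ℤ/c)ˣ → (ℤ/m)ˣ`; `exists_inertia_chiC` : the component form.
-/

set_option autoImplicit false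
set_option linter.unusedSectionVars false
set_option linter.style.haveILetI false

namespace Fermat.Agent.NEB.Geom.H6

local notation "Γℚ" => (AlgebraicClosure ℚ ≃ₐ[ℚ] AlgebraicClosure ℚ)
local notation "Qb" => AlgebraicClosure ℚ

/-- The cyclotomic character mod `c` on `Gal(ℚ̄/ℚ)`. -/
noncomputable def chiC (c : ℕ) [NeZero c] : Γℚ →* (ZMod c)ˣ :=
  MonoidHom.mk'
    (fun σ => modularCyclotomicCharacter (AlgebraicClosure ℚ)
      (HasEnoughRootsOfUnity.natCard_rootsOfUnity (AlgebraicClosure ℚ) c)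
      (σ : AlgebraicClosure ℚ ≃+* AlgebraicClosure ℚ))
    (fun a b => by rw [← map_mul]; congr 1)

theorem chiC_apply (c : ℕ) [NeZero c] (σ : Γℚ) :
    chiC c σ = modularCyclotomicCharacter (AlgebraicClosure ℚ)
      (HasEnoughRootsOfUnity.natCard_rootsOfUnity (AlgebraicClosure ℚ) c)
      (σ : AlgebraicClosure ℚ ≃+* AlgebraicClosure ℚ) := rfl

/-- **Specification**: `σ ζ = ζ ^ χ_c(σ)` for every `c`-th root of unity. -/
theorem chiC_spec (c : ℕ) [NeZero c] (σ : Γℚ) (ζ : Qb) (hζ : ζ ^ c = 1) :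
    σ ζ = ζ ^ ((chiC c σ : (ZMod c)ˣ) : ZMod c).val := by
  have hu : IsUnit ζ := IsUnit.of_pow_eq_one hζ (NeZero.ne c)
  obtain ⟨t, rfl⟩ := hu
  have ht : t ∈ rootsOfUnity c Qb := by
    rw [mem_rootsOfUnity]
    apply Units.ext
    rw [Units.val_pow_eq_pow_val, hζ, Units.val_one]
  have := modularCyclotomicCharacter.spec (AlgebraicClosure ℚ)
      (HasEnoughRootsOfUnity.natCard_rootsOfUnity (AlgebraicClosure ℚ) c)
      (σ : AlgebraicClosure ℚ ≃+* AlgebraicClosure ℚ) ht
  rw [chiC_apply]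
  exact this

/-- **Uniqueness**: if `σ` raises every `c`-th root of unity to the power `m`, then
`χ_c(σ) = m mod c`. -/
theorem chiC_eq_of_pow (c : ℕ) [NeZero c] (σ : Γℚ) (m : ℕ)
    (h : ∀ t : Qb, t ^ c = 1 → σ t = t ^ m) :
    ((chiC c σ : (ZMod c)ˣ) : ZMod c) = (m : ZMod c) := by
  rw [chiC_apply]
  symm
  apply modularCyclotomicCharacter.unique
  intro t ht
  have ht1 : ((t : Qbˣ) : Qb) ^ c = 1 := by
    have := (mem_rootsOfUnity c t).1 ht
    rw [← Units.val_pow_eq_pow_val, this, Units.val_one]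
  have h1 := h _ ht1
  rw [ZMod.val_natCast]
  change σ (t : Qb) = _
  rw [h1]
  exact pow_eq_pow_mod m ht1

/-- It is enough to test on one primitive `c`-th root of unity. -/
theorem chiC_eq_of_pow_primitive (c : ℕ) [NeZero c] (σ : Γℚ) (m : ℕ) (ζ : Qb)
    (hζ : IsPrimitiveRoot ζ c) (h : σ ζ = ζ ^ m) :
    ((chiC c σ : (ZMod c)ˣ) : ZMod c) = (m : ZMod c) := by
  apply chiC_eq_of_pow
  intro t ht
  obtain ⟨i, -, rfl⟩ := hζ.eq_pow_of_pow_eq_one ht
  rw [map_pow, h, ← pow_mul, ← pow_mul, mul_comm]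

/-- If `σ` fixes every `c`-th root of unity then `χ_c(σ) = 1`. -/
theorem chiC_eq_one_of_fix (c : ℕ) [NeZero c] (σ : Γℚ)
    (h : ∀ t : Qb, t ^ c = 1 → σ t = t) : chiC c σ = 1 := by
  apply Units.ext
  rw [chiC_eq_of_pow c σ 1 (fun t ht => by rw [h t ht, pow_one])]
  simp

theorem chiC_eq_one_iff (c : ℕ) [NeZero c] (σ : Γℚ) :
    chiC c σ = 1 ↔ ∀ t : Qb, t ^ c = 1 → σ t = t := by
  refine ⟨fun h t ht => ?_, chiC_eq_one_of_fix c σ⟩
  have h1 := chiC_spec c σ t ht
  rw [h, Units.val_one] at h1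
  by_cases hc : c = 1
  · subst hc
    rw [pow_one] at ht
    rw [ht, map_one]
  · haveI : Fact (1 < c) := ⟨lt_of_le_of_ne (Nat.pos_of_ne_zero (NeZero.ne c)) (Ne.symm hc)⟩
    rw [ZMod.val_one, pow_one] at h1
    exact h1

/-- Two elements of `(ZMod c)ˣ`-valued maps agreeing with the spec are equal: any
homomorphism (indeed any map) `χ` with `σ ζ = ζ ^ χ(σ)` on the `c`-th roots of unity is `chiC`. -/
theorem chiC_ext (c : ℕ) [NeZero c] (χ : Γℚ → (ZMod c)ˣ)
    (h : ∀ (σ : Γℚ) (t : Qb), t ^ c = 1 → σ t = t ^ ((χ σ : (ZMod c)ˣ) : ZMod c).val)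
    (σ : Γℚ) : χ σ = chiC c σ := by
  apply Units.ext
  rw [chiC_eq_of_pow c σ _ (h σ), ZMod.natCast_val, ZMod.cast_id', id]

/-- Compatibility: `χ_c` reduces to `χ_d` for `d ∣ c`. -/
theorem chiC_unitsMap {c d : ℕ} [NeZero c] [NeZero d] (hd : d ∣ c) (σ : Γℚ) :
    ZMod.unitsMap hd (chiC c σ) = chiC d σ := by
  apply Units.ext
  have key : ((chiC d σ : (ZMod d)ˣ) : ZMod d) =
      ((((chiC c σ : (ZMod c)ˣ) : ZMod c).val : ℕ) : ZMod d) := by
    apply chiC_eq_of_pow
    intro t ht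
    apply chiC_spec c σ t
    obtain ⟨e, rfl⟩ := hd
    rw [pow_mul, ht, one_pow]
  rw [key, ZMod.unitsMap_val, ZMod.natCast_val]

/-- **`χ_c(Frob_ℓ) = ℓ`** for a prime `ℓ` not dividing `c`. -/
theorem chiC_frob (c : ℕ) [NeZero c] (ℓ : ℕ) (hℓ : ℓ.Prime) (hc : c.Coprime ℓ)
    (A : ValuationSubring Qb) (hA : A.LiesOverPrime ℓ) (σ : Γℚ) (hσ : A.IsFrobeniusAt σ ℓ) :
    ((chiC c σ : (ZMod c)ˣ) : ZMod c) = (ℓ : ZMod c) :=
  chiC_eq_of_pow c σ ℓ
    (fun t ht => Fermat.Agent.R.H89.stmt_FrobCyc ℓ hℓ A hA σ hσ c hc t ht)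

/-- Unit form of `chiC_frob`. -/
theorem chiC_frob_unit (c : ℕ) [NeZero c] (ℓ : ℕ) (hℓ : ℓ.Prime) (hc : c.Coprime ℓ)
    (A : ValuationSubring Qb) (hA : A.LiesOverPrime ℓ) (σ : Γℚ) (hσ : A.IsFrobeniusAt σ ℓ) :
    chiC c σ = ZMod.unitOfCoprime ℓ hc.symm := by
  apply Units.ext
  rw [chiC_frob c ℓ hℓ hc A hA σ hσ, ZMod.coe_unitOfCoprime]

/-- **Inertia at `q` acts trivially on `ζ_m`, `q ∤ m`.** -/
theorem inertia_fixes (q : ℕ) (A : ValuationSubring Qb) (hA : A.LiesOverPrime q)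
    (σ : Γℚ) (hσ : σ ∈ A.inertiaSubgroupIn ℚ) (m : ℕ) (hm : m.Coprime q)
    (ζ : Qb) (hζ : ζ ^ m = 1) : σ ζ = ζ :=
  Fermat.Agent.R.H89.inertia_fixes_rootsOfUnity q A hA σ hσ m hm ζ hζ

/-- **Inertia at `q` is killed by `χ_m`, `q ∤ m`.** -/
theorem chiC_inertia (m : ℕ) [NeZero m] (q : ℕ) (hm : m.Coprime q)
    (A : ValuationSubring Qb) (hA : A.LiesOverPrime q)
    (σ : Γℚ) (hσ : σ ∈ A.inertiaSubgroupIn ℚ) : chiC m σ = 1 :=
  chiC_eq_one_of_fix m σ (fun t ht => inertia_fixes q A hA σ hσ m hm t ht)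

/-- **`χ_c` is surjective** (irreducibility of the cyclotomic polynomial). -/
theorem chiC_surjective (c : ℕ) [NeZero c] : Function.Surjective (chiC c) := by
  intro u
  obtain ⟨ζ, hζ⟩ := HasEnoughRootsOfUnity.exists_primitiveRoot Qb c
  have hcop : ((u : ZMod c).val).Coprime c := ZMod.val_coe_unit_coprime u
  have hζ' : IsPrimitiveRoot (ζ ^ (u : ZMod c).val) c := hζ.pow_of_coprime _ hcop
  have hpos : 0 < c := Nat.pos_of_ne_zero (NeZero.ne c)
  have h1 : minpoly ℚ ζ = Polynomial.cyclotomic c ℚ :=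
    (Polynomial.cyclotomic_eq_minpoly_rat hζ hpos).symm
  have h2 : minpoly ℚ (ζ ^ (u : ZMod c).val) = Polynomial.cyclotomic c ℚ :=
    (Polynomial.cyclotomic_eq_minpoly_rat hζ' hpos).symm
  have hconj : IsConjRoot ℚ (ζ ^ (u : ZMod c).val) ζ := by
    rw [isConjRoot_def, h1, h2]
  haveI : Algebra.IsAlgebraic ℚ (AlgebraicClosure ℚ) := AlgebraicClosure.isAlgebraic ℚ
  haveI : IsAlgClosure ℚ (AlgebraicClosure ℚ) := ⟨inferInstance, inferInstance⟩
  haveI : IsGalois ℚ (AlgebraicClosure ℚ) := inferInstance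
  haveI : Normal ℚ (AlgebraicClosure ℚ) := IsGalois.to_normal
  obtain ⟨σ, hσ⟩ := hconj.exists_algEquiv
  refine ⟨σ, ?_⟩
  apply Units.ext
  rw [chiC_eq_of_pow_primitive c σ _ ζ hζ hσ, ZMod.natCast_val, ZMod.cast_id', id]

/-- **`I_q ↠ (ℤ/q^k)ˣ`** (Minkowski: `ℚ(ζ_{q^k})/ℚ` is totally ramified at `q`, because the
fixed field of the image of inertia is unramified everywhere). -/
theorem chiC_inertia_surjective_primePow (q : ℕ) (hq : q.Prime) (k : ℕ) [NeZero (q ^ k)]
    (A : ValuationSubring Qb) (hA : A.LiesOverPrime q) (u : (ZMod (q ^ k))ˣ) :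
    ∃ σ ∈ A.inertiaSubgroupIn ℚ, chiC (q ^ k) σ = u := by
  classical
  set U : Subgroup (ZMod (q ^ k))ˣ := (A.inertiaSubgroupIn ℚ).map (chiC (q ^ k)) with hU
  let ψ : Γℚ →* (ZMod (q ^ k))ˣ ⧸ U := (QuotientGroup.mk' U).comp (chiC (q ^ k))
  have hψ : ∀ σ, ψ σ = 1 := by
    apply Fermat.Agent.Lib.Minkowski.hom_eq_one_of_unramified_everywhere
    · obtain ⟨ζ, hζ⟩ := HasEnoughRootsOfUnity.exists_primitiveRoot Qb (q ^ k)
      refine ⟨{ζ}, fun σ hσ => ?_⟩
      have h1 : chiC (q ^ k) σ = 1 := by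
        apply chiC_eq_one_of_fix
        intro t ht
        obtain ⟨i, -, rfl⟩ := hζ.eq_pow_of_pow_eq_one ht
        rw [map_pow, hσ ζ (Finset.mem_singleton_self ζ)]
      change (QuotientGroup.mk' U) (chiC (q ^ k) σ) = 1
      rw [h1, map_one]
    · intro ℓ hℓ
      by_cases hℓq : ℓ = q
      · subst hℓq
        refine ⟨A, hA, fun σ hσ => ?_⟩
        change (QuotientGroup.mk' U) (chiC (ℓ ^ k) σ) = 1
        rw [QuotientGroup.mk'_apply, QuotientGroup.eq_one_iff]
        exact Subgroup.mem_map_of_mem _ hσ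
      · obtain ⟨A', hA'⟩ := Fermat.Agent.Lib.FrobExists.exists_liesOverPrime ℓ hℓ
        refine ⟨A', hA', fun σ hσ => ?_⟩
        have hcop : (q ^ k).Coprime ℓ :=
          Nat.Coprime.pow_left k ((Nat.coprime_primes hq hℓ).2 (Ne.symm hℓq))
        have h1 := chiC_inertia (q ^ k) ℓ hcop A' hA' σ hσ
        change (QuotientGroup.mk' U) (chiC (q ^ k) σ) = 1
        rw [h1, map_one]
  obtain ⟨τ, rfl⟩ := chiC_surjective (q ^ k) u
  have h := hψ τ
  have hmem : chiC (q ^ k) τ ∈ U := by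
    change (QuotientGroup.mk' U) (chiC (q ^ k) τ) = 1 at h
    rwa [QuotientGroup.mk'_apply, QuotientGroup.eq_one_iff] at h
  obtain ⟨σ, hσ, hσe⟩ := Subgroup.mem_map.1 hmem
  exact ⟨σ, hσ, hσe⟩

/-- **`I_q ↠ (ℤ/q)ˣ`.** -/
theorem chiC_inertia_surjective_prime (q : ℕ) (hq : q.Prime) [NeZero q]
    (A : ValuationSubring Qb) (hA : A.LiesOverPrime q) (u : (ZMod q)ˣ) :
    ∃ σ ∈ A.inertiaSubgroupIn ℚ, chiC q σ = u := by
  haveI : NeZero (q ^ 1) := ⟨by rw [pow_one]; exact NeZero.ne q⟩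
  have hd : q ∣ q ^ 1 := by rw [pow_one]
  have hsurj : Function.Surjective (ZMod.unitsMap hd) := ZMod.unitsMap_surjective hd
  obtain ⟨v, rfl⟩ := hsurj u
  obtain ⟨σ, hσ, hσv⟩ := chiC_inertia_surjective_primePow q hq 1 A hA v
  exact ⟨σ, hσ, by rw [← hσv, chiC_unitsMap]⟩

/-- Chinese remainder theorem, injectivity on units. -/
theorem units_ext_of_coprime {a b : ℕ} (hab : a.Coprime b) (x y : (ZMod (a * b))ˣ)
    (h1 : ZMod.unitsMap (dvd_mul_right a b) x = ZMod.unitsMap (dvd_mul_right a b) y)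
    (h2 : ZMod.unitsMap (dvd_mul_left b a) x = ZMod.unitsMap (dvd_mul_left b a) y) : x = y := by
  apply Units.ext
  have e1 := congrArg (fun z : (ZMod a)ˣ => (z : ZMod a)) h1
  have e2 := congrArg (fun z : (ZMod b)ˣ => (z : ZMod b)) h2
  simp only [ZMod.unitsMap_val] at e1 e2
  apply (ZMod.chineseRemainder hab).injective
  apply Prod.ext
  · simpa [ZMod.chineseRemainder] using e1
  · simpa [ZMod.chineseRemainder] using e2

/-- **The image of inertia at `q` in `(ℤ/c)ˣ`, `c = q ^ k * m` with `q ∤ m`**: every unit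
which is trivial mod `m` is `χ_c(σ)` for some `σ ∈ I_q`. -/
theorem chiC_inertia_surjective (q : ℕ) (hq : q.Prime) (k m : ℕ) (hm : m.Coprime q)
    [NeZero (q ^ k * m)] (A : ValuationSubring Qb) (hA : A.LiesOverPrime q)
    (u : (ZMod (q ^ k * m))ˣ) (hu : ZMod.unitsMap (dvd_mul_left m (q ^ k)) u = 1) :
    ∃ σ ∈ A.inertiaSubgroupIn ℚ, chiC (q ^ k * m) σ = u := by
  have hne : q ^ k * m ≠ 0 := NeZero.ne _
  haveI : NeZero (q ^ k) := ⟨fun h => hne (by rw [h, zero_mul])⟩
  haveI : NeZero m := ⟨fun h => hne (by rw [h, mul_zero])⟩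
  obtain ⟨σ, hσ, hσe⟩ := chiC_inertia_surjective_primePow q hq k A hA
    (ZMod.unitsMap (dvd_mul_right (q ^ k) m) u)
  refine ⟨σ, hσ, ?_⟩
  apply units_ext_of_coprime (Nat.Coprime.pow_left k hm.symm)
  · rw [chiC_unitsMap, hσe]
  · rw [chiC_unitsMap, hu, chiC_inertia m q hm A hA σ hσ]

/-- The image of inertia at `q` under `χ_c`, `c = q ^ k * m` with `q ∤ m`, is exactly the kernel
of the reduction `(ℤ/c)ˣ → (ℤ/m)ˣ`. -/
theorem map_inertia_chiC (q : ℕ) (hq : q.Prime) (k m : ℕ) (hm : m.Coprime q)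
    [NeZero (q ^ k * m)] (A : ValuationSubring Qb) (hA : A.LiesOverPrime q) :
    (A.inertiaSubgroupIn ℚ).map (chiC (q ^ k * m)) =
      (ZMod.unitsMap (dvd_mul_left m (q ^ k))).ker := by
  have hne : q ^ k * m ≠ 0 := NeZero.ne _
  haveI : NeZero m := ⟨fun h => hne (by rw [h, mul_zero])⟩
  ext u
  rw [Subgroup.mem_map, MonoidHom.mem_ker]
  constructor
  · rintro ⟨σ, hσ, rfl⟩
    rw [chiC_unitsMap, chiC_inertia m q hm A hA σ hσ]
  · intro hu
    exact chiC_inertia_surjective q hq k m hm A hA u hu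

/-- Version of `chiC_inertia_surjective` for a general modulus `c` with a factorisation
`c = q ^ k * m`, `q ∤ m`. -/
theorem chiC_inertia_surjective' (c q k m : ℕ) [NeZero c] (hq : q.Prime) (hm : m.Coprime q)
    (hc : c = q ^ k * m) (hmc : m ∣ c) (A : ValuationSubring Qb) (hA : A.LiesOverPrime q)
    (u : (ZMod c)ˣ) (hu : ZMod.unitsMap hmc u = 1) :
    ∃ σ ∈ A.inertiaSubgroupIn ℚ, chiC c σ = u := by
  subst hc
  exact chiC_inertia_surjective q hq k m hm A hA u hu

/-- **Component form** (the Taylor–Wiles case `c = ∏ q_j`, `q = q_j`, `m = c / q_j`): for every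
`v ∈ (ℤ/q^k)ˣ` there is `σ ∈ I_q` with `χ_c(σ) ≡ v mod q^k` and `χ_c(σ) ≡ 1 mod m`. -/
theorem exists_inertia_chiC (c q k m : ℕ) [NeZero c] (hq : q.Prime) (hm : m.Coprime q)
    (hqc : q ^ k ∣ c) (hmc : m ∣ c) (A : ValuationSubring Qb) (hA : A.LiesOverPrime q)
    (v : (ZMod (q ^ k))ˣ) :
    ∃ σ ∈ A.inertiaSubgroupIn ℚ, ZMod.unitsMap hqc (chiC c σ) = v ∧
      ZMod.unitsMap hmc (chiC c σ) = 1 := by
  have hne : c ≠ 0 := NeZero.ne _
  haveI : NeZero (q ^ k) := ⟨fun h => hne (by rw [h, zero_dvd_iff] at hqc; exact hqc)⟩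
  haveI : NeZero m := ⟨fun h => hne (by rw [h, zero_dvd_iff] at hmc; exact hmc)⟩
  obtain ⟨σ, hσ, hσe⟩ := chiC_inertia_surjective_primePow q hq k A hA v
  exact ⟨σ, hσ, by rw [chiC_unitsMap, hσe], by rw [chiC_unitsMap, chiC_inertia m q hm A hA σ hσ]⟩

end Fermat.Agent.NEB.Geom.H6

end
-- ==== END Fermat.Agent.NEB.Geom.H6_ZCyc

-- ==== BEGIN Fermat.Agent.NEB.Geom.H70_ClTI
section

/-!
# Item 72 (LG-NEB), package NEB-GEOM, leaf CL-TI (helper70)

`cl_TI`: at a place `P` of `ℚ̄` over a prime `ℓ ∤ M`, the kernel of reduction `K1` of `J₀(M)` for a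
prime `p ≠ ℓ` is trivial: `InK1 P p (F₀(M)) x → x = 0`.  (Class form of `RED.H36.stmt_TIcore`.)

The hypothesis `p.Prime` is necessary (`Stmt_CL_TI` of `Geom/Defs.lean` is false for `p = 0`:
`0^k D = div (const)` for every `D`); `stmt_CL_TI` is `Stmt_CL_TI` under `p.Prime`.
-/

set_option autoImplicit false

noncomputable section

open ModularCurve AlgebraicCurve

namespace Fermat.Agent.NEB.Geom.H70

open Fermat.Agent.NEB Fermat.Agent.S28.H73 Fermat.Agent.RED.H73 Fermat.Agent.RED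

/-- **CL-TI**: the kernel of reduction of `J₀(M)` at `P ∣ ℓ ∤ M` has no `p`-power torsion,
`p ≠ ℓ` prime. -/
theorem cl_TI (M p : ℕ) [NeZero M] (hp : p.Prime) (ℓ : ℕ) (hℓ : ℓ.Prime) (hℓM : ¬ ℓ ∣ M)
    (hℓp : ℓ ≠ p) (P : ValuationSubring Kbar) (hP : P.LiesOverPrime ℓ) (x : JZero M)
    (hx : InK1 P p (modularFunctionFieldBar M) x) : x = 0 := by
  obtain ⟨k, D, f, hf, rfl, hD, c, hc, hred⟩ := hx
  have hsc := hasScale_laurentBaseChange P M
  have hcoe : ((algebraMap Kbar ↥(modularFunctionFieldBar M) c * f :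
      ↥(modularFunctionFieldBar M)) : LaurentSeries Kbar)
      = HahnSeries.C c * (f : LaurentSeries Kbar) := by
    show ((algebraMap Kbar ↥(modularFunctionFieldBar M) c :
      ↥(modularFunctionFieldBar M)) : LaurentSeries Kbar) * (f : LaurentSeries Kbar) = _
    rw [coe_algebraMap_F]
  have hmem : algebraMap Kbar ↥(modularFunctionFieldBar M) c * f
      ∈ gaussValSub P (modularFunctionFieldBar M) hsc := by
    rw [mem_gaussValSub_iff, hcoe]
    exact hred.mem
  have hres : gaussResF' P hsc ⟨_, hmem⟩ = 1 := by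
    apply Subtype.ext
    show gaussResF P hsc ⟨_, hmem⟩ = 1
    rw [gaussResF_apply]
    have e : (⟨((⟨algebraMap Kbar ↥(modularFunctionFieldBar M) c * f, hmem⟩ :
          ↥(gaussValSub P (modularFunctionFieldBar M) hsc)) :
          ↥(modularFunctionFieldBar M)), hmem⟩ : gaussRingV P)
        = ⟨HahnSeries.C c * (f : LaurentSeries Kbar), hred.mem⟩ := Subtype.ext hcoe
    rw [e]
    exact hred.eq _
  have hnd : ¬ ℓ ∣ p ^ k := fun h =>
    hℓp ((Nat.prime_dvd_prime_iff_eq hℓ hp).1 (hℓ.dvd_of_dvd_pow h))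
  have hdiv : ∀ Q : Place Kbar ↥(modularFunctionFieldBar M),
      ((p ^ k : ℕ) : ℤ) ∣ Q.ord (algebraMap Kbar ↥(modularFunctionFieldBar M) c * f) := by
    intro Q
    rw [Fermat.Agent.RED.H17.ord_algebraMap_mul Q hc f, ← hD Q]
    push_cast
    exact dvd_mul_right _ _
  obtain ⟨t, ht⟩ := Fermat.Agent.RED.H36.stmt_TIcore M ℓ hℓ hℓM P hP (p ^ k) hnd ⟨_, hmem⟩ hres
    hdiv
  have ht' : t ^ (p ^ k) = algebraMap Kbar ↥(modularFunctionFieldBar M) c * f := ht
  have ht0 : t ≠ 0 := by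
    rintro rfl
    rw [zero_pow (pow_ne_zero k hp.ne_zero)] at ht'
    exact (mul_ne_zero ((map_ne_zero _).2 hc) hf) ht'.symm
  have hpk : ((p : ℤ) ^ k) ≠ 0 := pow_ne_zero k (by exact_mod_cast hp.ne_zero)
  have hDt : ∀ Q : Place Kbar ↥(modularFunctionFieldBar M),
      (D : Divisor Kbar ↥(modularFunctionFieldBar M)) Q = Q.ord t := by
    intro Q
    have h1 : Q.ord (t ^ (p ^ k)) = ((p ^ k : ℕ) : ℤ) * Q.ord t := by
      rw [← zpow_natCast, Q.ord_zpow]
    rw [ht', Fermat.Agent.RED.H17.ord_algebraMap_mul Q hc f, ← hD Q] at h1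
    push_cast at h1
    exact mul_left_cancel₀ hpk h1
  refine (QuotientAddGroup.eq_zero_iff _).2 ?_
  exact ⟨t, ht0, hDt⟩

/-- **CL-TI** as stated in `Geom/Defs.lean`, for `p` prime. -/
theorem stmt_CL_TI (M p : ℕ) (hp : p.Prime) : Stmt_CL_TI M p :=
  fun ℓ hℓ hℓM hℓp P hP x hx => cl_TI M p hp ℓ hℓ hℓM hℓp P hP x hx

end Fermat.Agent.NEB.Geom.H70

end
end
-- ==== END Fermat.Agent.NEB.Geom.H70_ClTI

-- ==== BEGIN Fermat.Agent.NEB.Geom.H70_KeyqAbs
section

/-!
# Item 72 (LG-NEB), package NEB-GEOM, leaf W-KEYq (helper70): the algebra at one prime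

Pure algebra of the two degeneracy maps at a prime `q ∥ Mq`.  `as = a^*`, `bs = b^*`, `ad = a_*`,
`bd = b_*`, `T = T_q` at level `M`, `U = U_q`, `W = w_q` at level `Mq`, `φ` = Frobenius.

* `keyq_old`  : `(U² - 1) y = a^* u + b^* v` with `u = T b_* y - a_* y`, `v = - b_* y`;
* `keyq_abs`  : if `φ u + q v = 0` and `(φ² - T φ + q) u = 0` then
  `(U φ - q) (a^* u + b^* v) = 0`.
-/

set_option autoImplicit false

namespace Fermat.Agent.NEB.Geom.H70

section Abs

variable {A B : Type*} [AddCommGroup A] [AddCommGroup B]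
  (as bs : A →+ B) (ad bd : B →+ A) (T : A →+ A) (U W : B →+ B) (q : ℕ)

/-- `(U² - 1) y` is old: `U (U y) - y = a^* (T b_* y - a_* y) + b^* (- b_* y)`. -/
theorem keyq_old (hbdas : ∀ x, bd (as x) = T x) (hU : ∀ y, U y = as (bd y) - W y)
    (hWas : ∀ x, W (as x) = bs x) (hWW : ∀ y, W (W y) = y) (hbdW : ∀ y, bd (W y) = ad y)
    (y : B) : U (U y) - y = as (T (bd y) - ad y) + bs (-bd y) := by
  have h1 : bd (U y) = T (bd y) - ad y := by
    rw [hU y, map_sub, hbdas, hbdW]
  have h2 : W (U y) = bs (bd y) - y := by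
    rw [hU y, map_sub, hWas, hWW]
  rw [hU (U y), h1, h2, map_neg]
  abel

/-- The key computation on old classes. -/
theorem keyq_abs (φA : A →+ A) (φB : B →+ B)
    (hbdas : ∀ x, bd (as x) = T x) (hbdbs : ∀ x, bd (bs x) = (q + 1) • x)
    (hU : ∀ y, U y = as (bd y) - W y)
    (hWas : ∀ x, W (as x) = bs x) (hWbs : ∀ x, W (bs x) = as x)
    (hφas : ∀ x, φB (as x) = as (φA x)) (hφbs : ∀ x, φB (bs x) = bs (φA x))
    (u v : A) (h0 : φA u + q • v = 0) (hES : φA (φA u) - T (φA u) + q • u = 0) :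
    U (φB (as u + bs v)) - q • (as u + bs v) = 0 := by
  have hUas : ∀ x, U (as x) = as (T x) - bs x := fun x => by
    rw [hU, hbdas, hWas]
  have hUbs : ∀ x, U (bs x) = q • as x := fun x => by
    rw [hU, hbdbs, hWbs, map_nsmul, add_smul, one_smul, add_sub_cancel_right]
  have hqv : q • v = -φA u := eq_neg_of_add_eq_zero_right h0
  have h1 : q • as (φA v) = -as (φA (φA u)) := by
    rw [← map_nsmul, ← map_nsmul, hqv, map_neg, map_neg]
  have h2 : q • bs v = -bs (φA u) := by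
    rw [← map_nsmul, hqv, map_neg]
  have h3 : as (φA (φA u)) - as (T (φA u)) + q • as u = 0 := by
    rw [← map_nsmul, ← map_sub, ← map_add, hES, map_zero]
  rw [map_add, hφas, hφbs, map_add, hUas, hUbs, h1, nsmul_add, h2]
  have h4 : as (T (φA u)) = as (φA (φA u)) + q • as u := by
    have := h3
    rw [sub_add_eq_add_sub, sub_eq_zero] at this
    exact this.symm
  rw [h4]
  abel

end Abs

end Fermat.Agent.NEB.Geom.H70

end
-- ==== END Fermat.Agent.NEB.Geom.H70_KeyqAbs

-- ==== BEGIN Fermat.Agent.NEB.Geom.H70_OldRed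
section
attribute [local instance 10000] SubalgebraClass.toAlgebra
attribute [local instance 10000] HahnSeries.powerSeriesAlgebra

/-!
# Item 72 (LG-NEB), package NEB-GEOM, leaf OLD-RED (helper70)

`stmt_OLD_RED : Stmt_OLD_RED M p`: for a prime `q ∤ M`, a place `P ∣ q` of `ℚ̄` with Frobenius `φ`,
and `p`-power torsion classes `u, v ∈ J₀(M)`: if `α^* u + β^* v` lies in the kernel of reduction of
`J₀(Mq)` then `φ u + q v` lies in the kernel of reduction of `J₀(M)`.

Proof.  `u = [D_u]`, `n D_u = div f`; `v = [D_v]`, `n D_v = div g`.  The class `α^*u + β^*v` has the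
Kummer function `f(t) g(t^q)`; comparing with the representative given by the hypothesis,
`(f(t) g(t^q))^{n'} = c h^n w^{n n'}` with `h ≡ const` and `w ∈ F₀(Mq)`.  Apply `φ`:
`φ g (t^q) ≡ g^q` (Frobenius) and `φ w ≡ W` for some `W ∈ F₀(M)` (the residue fields of the Gauss
valuations of levels `Mq` and `M` coincide: `BAD.H82.redField_eq_redField`).  Hence
`(φ f · g^q)^{n'} / W^{n n'} ≡ const`, and this is a Kummer function of `φ u + q v`.
-/

set_option autoImplicit false

noncomputable section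

open ModularCurve AlgebraicCurve

namespace Fermat.Agent.NEB.Geom.H70

open Fermat.Agent.NEB Fermat.Agent.NEB.JH Fermat.Agent.NEB.H14
open Fermat.Agent.S28.H73 Fermat.Agent.RED.H73

/-! ## 1. Kummer representations: comparison and change of representative -/

section Compare

variable {K F : Type} [Field K] [Field F] [Algebra K F]

/-- A `p`-power torsion class has a Kummer representation of level `p^k` (any function field). -/
theorem exists_kumRep_of_isPTors₀ {p : ℕ} {x : Pic0 K F} (hx : IsPTors p x) :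
    ∃ (k : ℕ) (f : F), KumRep ((p : ℤ) ^ k) x f := by
  obtain ⟨k, hk⟩ := hx
  have h : ((p : ℤ) ^ k) • x = 0 := by
    have e : ((p : ℤ) ^ k) = ((p ^ k : ℕ) : ℤ) := by push_cast; rfl
    rw [e, natCast_zsmul]
    exact hk
  obtain ⟨f, hf⟩ := exists_kumRep h
  exact ⟨k, f, hf⟩

/-- The class `0` is represented by every principal divisor. -/
theorem kumRep_principal [HasPrincipalDivisors K F] {w : F} (hw : w ≠ 0) :
    KumRep 1 (0 : Pic0 K F) w := by
  obtain ⟨D, hD, hdeg⟩ := HasPrincipalDivisors.exists_divisor (K := K) w hw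
  refine ⟨hw, ⟨D, hdeg⟩, ?_, fun v => by rw [one_mul]; exact hD v⟩
  symm
  refine (QuotientAddGroup.eq_zero_iff _).2 ?_
  exact ⟨w, hw, hD⟩

/-- Change of representative: `n D = div f ⟹ n (D - div w) = div (f / w^n)`. -/
theorem KumRep.change [HasPrincipalDivisors K F] {n : ℕ} {x : Pic0 K F} {f : F}
    (hx : KumRep (n : ℤ) x f) {w : F} (hw : w ≠ 0) : KumRep (n : ℤ) x (f * (w ^ n)⁻¹) := by
  have h1 := (kumRep_principal (K := K) hw).level n
  rw [one_mul] at h1
  have := hx.sub h1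
  rwa [sub_zero] at this

/-- **Comparison of two Kummer representations of the same class.** -/
theorem KumRep.compare [IsAlgClosed K] (hF : Fermat.Agent.RED.IsFF K F) {n n' : ℕ} {x : Pic0 K F} {f₁ f₂ : F}
    (h₁ : KumRep (n : ℤ) x f₁) (h₂ : KumRep (n' : ℤ) x f₂) :
    ∃ (w : F) (c : K), w ≠ 0 ∧ c ≠ 0 ∧
      f₁ ^ n' = algebraMap K F c * f₂ ^ n * w ^ (n * n') := by
  obtain ⟨hf₁, D₁, hx₁, hD₁⟩ := h₁
  obtain ⟨hf₂, D₂, hx₂, hD₂⟩ := h₂
  have hmk : (Pic0.mk D₁ : Pic0 K F) = Pic0.mk D₂ := hx₁.symm.trans hx₂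
  have hpr : ((-D₂ + D₁ : Divisor.degZero (K := K) (F := F)) : Divisor K F)
      ∈ Divisor.principal (K := K) (F := F) := by
    have := (QuotientAddGroup.eq (s := (Divisor.principal (K := K) (F := F)).addSubgroupOf
      (Divisor.degZero (K := K) (F := F))) (a := D₂) (b := D₁)).1 hmk.symm
    exact this
  obtain ⟨w, hw, hDw⟩ := hpr
  have hwD : ∀ v : Place K F, v.ord w = (D₁ : Divisor K F) v - (D₂ : Divisor K F) v := by
    intro v
    rw [← hDw v]
    show (-(D₂ : Divisor K F) + (D₁ : Divisor K F)) v = _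
    rw [Finsupp.add_apply, Finsupp.neg_apply]
    ring
  set T : F := f₁ ^ n' * (f₂ ^ n)⁻¹ * (w ^ (n * n'))⁻¹ with hT
  have hT0 : T ≠ 0 :=
    mul_ne_zero (mul_ne_zero (pow_ne_zero _ hf₁) (inv_ne_zero (pow_ne_zero _ hf₂)))
      (inv_ne_zero (pow_ne_zero _ hw))
  have hord : ∀ v : Place K F, v.ord T = 0 := by
    intro v
    have e1 : v.ord (f₁ ^ n') = n' * v.ord f₁ := by rw [← zpow_natCast, v.ord_zpow]
    have e2 : v.ord (f₂ ^ n) = n * v.ord f₂ := by rw [← zpow_natCast, v.ord_zpow]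
    have e3 : v.ord (w ^ (n * n')) = ((n * n' : ℕ) : ℤ) * v.ord w := by
      rw [← zpow_natCast, v.ord_zpow]
    rw [hT, v.ord_mul (mul_ne_zero (pow_ne_zero _ hf₁) (inv_ne_zero (pow_ne_zero _ hf₂)))
      (inv_ne_zero (pow_ne_zero _ hw)),
      v.ord_mul (pow_ne_zero _ hf₁) (inv_ne_zero (pow_ne_zero _ hf₂)), v.ord_inv, v.ord_inv,
      e1, e2, e3, hwD v, ← hD₁ v, ← hD₂ v]
    push_cast
    ring
  obtain ⟨c, hc⟩ := Fermat.Agent.RED.H36.const_of_ord_eq_zero hF T hT0 hord
  have hc0 : c ≠ 0 := by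
    rintro rfl
    rw [map_zero] at hc
    exact hT0 hc
  refine ⟨w, c, hw, hc0, ?_⟩
  rw [← hc, hT]
  have h2 : f₂ ^ n ≠ 0 := pow_ne_zero _ hf₂
  have h3 : w ^ (n * n') ≠ 0 := pow_ne_zero _ hw
  field_simp

end Compare

/-! ## 2. Series level -/

section Series

variable {C : Type} [Field C] {O : ValuationSubring C} {ℓ : ℕ} [Fact ℓ.Prime] [NeZero ℓ]
  [CharP (kV O) ℓ]

/-- `x^ℓ / (φ x)(t^ℓ)` reduces to `1` up to a constant, for a Frobenius lift `φ`. -/
theorem isRedOneC_pow_div_qExpand (s : C ≃+* C) (hs : ∀ a : C, s a ∈ O ↔ a ∈ O)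
    (hFr : ∀ a : kV O, Fermat.Agent.RED.H33.autkHom O s hs a = a ^ ℓ) {x : LaurentSeries C}
    (hx : Fermat.Agent.NEB.H70.Scalable O x) :
    Fermat.Agent.NEB.H70.IsRedOneC O
      (x ^ ℓ * (qExpand C ℓ (coeffMap (s : C →+* C) x))⁻¹) := by
  obtain ⟨c, y, hc, hy, h⟩ := hx.exists_redTo
  have h1 := h.pow ℓ
  rw [mul_pow, ← map_pow] at h1
  have h2 := (h.frob s hs hFr).qExp ℓ
  rw [Fermat.Agent.NEB.H70.qExpand_Fr, map_mul, Fermat.Agent.NEB.H70.coeffMap_C', map_mul,
    qExpand_C] at h2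
  exact Fermat.Agent.NEB.H70.isRedOneC_of_redTo (pow_ne_zero ℓ hc)
    ((map_ne_zero (s : C →+* C)).2 hc) (pow_ne_zero ℓ hy) h1 h2

end Series

/-! ## 3. Lifting reductions from level `M q` to level `M` -/

section Lift

/-- A function of level `M q` is, modulo `P ∣ q` and up to a constant, a function of level `M`
(`q ∤ M`): the residue fields of the Gauss valuations coincide. -/
theorem exists_lift_level (M q : ℕ) [NeZero M] [NeZero q] (hq : q.Prime) (hqM : ¬ q ∣ M)
    (P : ValuationSubring Kbar) (hP : P.LiesOverPrime q)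
    (w : ↥(modularFunctionFieldBar (M * q))) (hw : w ≠ 0) :
    ∃ W : ↥(modularFunctionFieldBar M), W ≠ 0 ∧
      Fermat.Agent.NEB.H70.IsRedOneC P
        ((w : LaurentSeries Kbar) * (W : LaurentSeries Kbar)⁻¹) := by
  have : NeZero (M * q) := ⟨Nat.mul_ne_zero (NeZero.ne M) (NeZero.ne q)⟩
  have hcop : Nat.Coprime q M := (Nat.Prime.coprime_iff_not_dvd hq).2 hqM
  obtain ⟨a, b, hab⟩ := (Nat.isCoprime_iff_coprime.2 hcop)
  have hw' : (w : LaurentSeries Kbar) ≠ 0 := fun h0 => hw (Subtype.ext h0)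
  obtain ⟨c, hc, hu⟩ := hasScale_laurentBaseChange P (M * q) (w : LaurentSeries Kbar) w.2 hw'
  obtain ⟨y, hy, hred⟩ := Fermat.Agent.NEB.H70.redTo_of_gaussUnit hu
  have hmem : y ∈ redField P (modularFunctionFieldBar (M * q))
      (Fermat.Agent.BAD.H88.hSc P q M) := by
    have hx : algebraMap Kbar ↥(modularFunctionFieldBar (M * q)) c * w
        ∈ gaussValSub P (modularFunctionFieldBar (M * q)) (Fermat.Agent.BAD.H88.hSc P q M) := by
      rw [mem_gaussValSub_iff]
      have e : ((algebraMap Kbar ↥(modularFunctionFieldBar (M * q)) c * w :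
          ↥(modularFunctionFieldBar (M * q))) : LaurentSeries Kbar)
          = HahnSeries.C c * (w : LaurentSeries Kbar) := by
        show ((algebraMap Kbar ↥(modularFunctionFieldBar (M * q)) c :
          ↥(modularFunctionFieldBar (M * q))) : LaurentSeries Kbar) * (w : LaurentSeries Kbar) = _
        rw [coe_algebraMap_F]
      rw [e]
      exact hred.mem
    refine ⟨⟨_, hx⟩, ?_⟩
    rw [gaussResF_apply]
    have e : (⟨((⟨algebraMap Kbar ↥(modularFunctionFieldBar (M * q)) c * w, hx⟩ :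
          ↥(gaussValSub P (modularFunctionFieldBar (M * q))
            (Fermat.Agent.BAD.H88.hSc P q M))) :
          ↥(modularFunctionFieldBar (M * q))), hx⟩ : gaussRingV P)
        = ⟨HahnSeries.C c * (w : LaurentSeries Kbar), hred.mem⟩ := by
      apply Subtype.ext
      show ((algebraMap Kbar ↥(modularFunctionFieldBar (M * q)) c :
        ↥(modularFunctionFieldBar (M * q))) : LaurentSeries Kbar) * (w : LaurentSeries Kbar) = _
      rw [coe_algebraMap_F]
    rw [e]
    exact hred.eq _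
  rw [Fermat.Agent.BAD.H82.redField_eq_redField q M a b hab hq P hP] at hmem
  obtain ⟨W', hW'⟩ := hmem
  have hredW : Fermat.Agent.NEB.H70.RedTo P
      (((W' : ↥(modularFunctionFieldBar M)) : LaurentSeries Kbar)) y :=
    ⟨W'.2, by rw [← hW', gaussResF_apply]⟩
  refine ⟨(W' : ↥(modularFunctionFieldBar M)), ?_, ?_⟩
  · intro h0
    apply hy
    rw [← hW']
    have : W' = 0 := Subtype.ext h0
    rw [this, map_zero]
  · refine Fermat.Agent.NEB.H70.isRedOneC_of_redTo hc one_ne_zero hy hred ?_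
    rw [map_one, one_mul]
    exact hredW

end Lift

/-! ## 4. OLD-RED -/

section OldRed

/-- The field identity behind OLD-RED. -/
theorem oldRed_identity {L : Type*} [Field L] (a b g h w W : L) (n' N : ℕ) (hb : b ≠ 0)
    (hW : W ≠ 0) (hE : (a * b) ^ n' = h * w ^ N) :
    (a * g) ^ n' * (W ^ N)⁻¹ = h * (g * b⁻¹) ^ n' * (w * W⁻¹) ^ N := by
  have hbn : b ^ n' ≠ 0 := pow_ne_zero _ hb
  have hWN : W ^ N ≠ 0 := pow_ne_zero _ hW
  rw [mul_pow] at hE
  rw [mul_pow, mul_pow, mul_pow, inv_pow, inv_pow]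
  field_simp
  linear_combination (g ^ n') * hE

/-- **OLD-RED** (`NEB/Geom/Defs.lean`). -/
theorem stmt_OLD_RED (M p : ℕ) : Stmt_OLD_RED M p := by
  intro _ q _ hq hqM _ P hP φ hφ u v hu hv hK
  have hMq : NeZero (M * q) := ⟨Nat.mul_ne_zero (NeZero.ne M) (NeZero.ne q)⟩
  have hFact : Fact q.Prime := ⟨hq⟩
  have hchar : CharP (kV P) q := charP_kV_of_liesOverPrime P hq hP
  have hs := Fermat.Agent.RED.H33.mem_iff_of_mem_decompositionSubgroup P
    hφ.mem_decompositionSubgroup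
  have hFr : ∀ a : kV P, Fermat.Agent.RED.H33.autkHom P φ.toRingEquiv hs a = a ^ q :=
    fun a => Fermat.Agent.RED.H33.autkHom_frobenius P hφ a
  -- Kummer representations of `u`, `v` at a common level `N = p^(k₁+k₂)`
  obtain ⟨k₁, f₁, hf₁⟩ := exists_kumRep_of_isPTors₀ hu
  obtain ⟨k₂, g₁, hg₁⟩ := exists_kumRep_of_isPTors₀ hv
  set N : ℕ := p ^ (k₁ + k₂) with hN
  have hf : KumRep (N : ℤ) u (f₁ ^ (p ^ k₂)) := by
    have := hf₁.level (p ^ k₂)
    have e : ((p : ℤ) ^ k₁) * ((p ^ k₂ : ℕ) : ℤ) = (N : ℤ) := by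
      rw [hN]; push_cast; rw [pow_add]
    rwa [e] at this
  have hg : KumRep (N : ℤ) v (g₁ ^ (p ^ k₁)) := by
    have := hg₁.level (p ^ k₁)
    have e : ((p : ℤ) ^ k₂) * ((p ^ k₁ : ℕ) : ℤ) = (N : ℤ) := by
      rw [hN]; push_cast; rw [pow_add, mul_comm]
    rwa [e] at this
  set f : ↥(modularFunctionFieldBar M) := f₁ ^ (p ^ k₂) with hfdef
  set g : ↥(modularFunctionFieldBar M) := g₁ ^ (p ^ k₁) with hgdef
  -- the class `x = α^* u + β^* v`
  have hx : KumRep (N : ℤ)
      (H14.pullP (heckeAlphaBar Kbar M q) u + H14.pullP (heckeBetaBar Kbar M q) v)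
      (heckeAlphaBar Kbar M q f * heckeBetaBar Kbar M q g) :=
    (hf.picMap (isCorr_pullD (isFF0 M) (isFF0 (M * q)) (heckeAlphaBar Kbar M q))).add
      (hg.picMap (isCorr_pullD (isFF0 M) (isFF0 (M * q)) (heckeBetaBar Kbar M q)))
  obtain ⟨k', D', h, hh0, hxD', hD', hred⟩ := hK
  set n' : ℕ := p ^ k' with hn'
  have hx' : KumRep (n' : ℤ)
      (H14.pullP (heckeAlphaBar Kbar M q) u + H14.pullP (heckeBetaBar Kbar M q) v) h := by
    refine ⟨hh0, D', hxD', fun v => ?_⟩
    rw [← hD' v, hn']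
    push_cast
    rfl
  obtain ⟨w, c, hw, hc, hE⟩ := KumRep.compare (isFF0 (M * q)) hx hx'
  -- series
  have E : ((f : LaurentSeries Kbar) * qExpand Kbar q (g : LaurentSeries Kbar)) ^ n'
      = HahnSeries.C c * (h : LaurentSeries Kbar) ^ N * (w : LaurentSeries Kbar) ^ (N * n') := by
    have := congrArg (fun z : ↥(modularFunctionFieldBar (M * q)) => (z : LaurentSeries Kbar)) hE
    rw [← coe_algebraMap_F (F := modularFunctionFieldBar (M * q)) c]
    exact this
  have E' := congrArg (coeffMap (φ.toRingEquiv : Kbar →+* Kbar)) E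
  rw [map_mul, map_mul, map_pow, map_pow, map_pow, map_mul, Fermat.Agent.NEB.H70.coeffMap_C',
    coeffMap_qExpand_jh] at E'
  -- the three factors
  have hg0 : g ≠ 0 := hg.ne_zero
  have hgs : Fermat.Agent.NEB.H70.Scalable P (g : LaurentSeries Kbar) :=
    hasScale_laurentBaseChange P M (g : LaurentSeries Kbar) g.2 (fun h0 => hg0 (Subtype.ext h0))
  have T2 := (isRedOneC_pow_div_qExpand φ.toRingEquiv hs hFr hgs).pow n'
  have T1 := ((isRedOneC_cMap φ.toRingEquiv hs hred).pow N).C_mul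
    ((map_ne_zero (φ.toRingEquiv : Kbar →+* Kbar)).2 hc)
  have hφw : arithmeticRingAut (modularFunctionFieldFull (M * q)) φ w ≠ 0 :=
    (map_ne_zero _).2 hw
  obtain ⟨W, hW, hWred⟩ := exists_lift_level M q hq hqM P hP _ hφw
  have T3 := hWred.pow (N * n')
  -- the Kummer representation of `φ u + q v`
  have hy : KumRep (N : ℤ) (φ • u + q • v)
      (arithmeticRingAut (modularFunctionFieldFull M) φ f * g ^ q) :=
    (hf.semilinear (arithmeticGalois (modularFunctionFieldFull M) φ)).add (hg.nsmul q)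
  have hy' : KumRep ((N * n' : ℕ) : ℤ) (φ • u + q • v)
      ((arithmeticRingAut (modularFunctionFieldFull M) φ f * g ^ q) ^ n') := by
    have := hy.level n'
    have e : (N : ℤ) * (n' : ℤ) = ((N * n' : ℕ) : ℤ) := by push_cast; rfl
    rwa [e] at this
  have : HasPrincipalDivisors Kbar ↥(modularFunctionFieldBar M) := hasPD (isFF0 M)
  have hy'' := hy'.change hW
  obtain ⟨hne, D, hxD, hD⟩ := hy''
  refine ⟨k₁ + k₂ + k', D, _, hne, hxD, fun v => ?_, ?_⟩
  · rw [← hD v, hN, hn']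
    push_cast
    rw [pow_add]
  · have hb : qExpand Kbar q (coeffMap (φ.toRingEquiv : Kbar →+* Kbar) (g : LaurentSeries Kbar))
        ≠ 0 := by
      intro h0
      have h1 := coeffMap_qExpand_jh (φ.toRingEquiv : Kbar →+* Kbar) q (g : LaurentSeries Kbar)
      rw [h0] at h1
      have h2 : qExpand Kbar q (g : LaurentSeries Kbar) = 0 := by
        have hinj : Function.Injective (coeffMap (φ.toRingEquiv : Kbar →+* Kbar)) :=
          (coeffMap (φ.toRingEquiv : Kbar →+* Kbar)).injective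
        exact hinj (by rw [h1, map_zero])
      have h3 : (g : LaurentSeries Kbar) = 0 :=
        (qExpand Kbar q).injective (by rw [h2, map_zero])
      exact hg0 (Subtype.ext h3)
    have hWc : (W : LaurentSeries Kbar) ≠ 0 := fun h0 => hW (Subtype.ext h0)
    have key := oldRed_identity
      (coeffMap (φ.toRingEquiv : Kbar →+* Kbar) (f : LaurentSeries Kbar))
      (qExpand Kbar q (coeffMap (φ.toRingEquiv : Kbar →+* Kbar) (g : LaurentSeries Kbar)))
      ((g : LaurentSeries Kbar) ^ q)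
      (HahnSeries.C ((φ.toRingEquiv : Kbar →+* Kbar) c)
        * coeffMap (φ.toRingEquiv : Kbar →+* Kbar) (h : LaurentSeries Kbar) ^ N)
      (coeffMap (φ.toRingEquiv : Kbar →+* Kbar) (w : LaurentSeries Kbar))
      (W : LaurentSeries Kbar) n' (N * n') hb hWc E'
    have hcoe : (((arithmeticRingAut (modularFunctionFieldFull M) φ f * g ^ q) ^ n'
          * (W ^ (N * n'))⁻¹ : ↥(modularFunctionFieldBar M)) : LaurentSeries Kbar)
        = (coeffMap (φ.toRingEquiv : Kbar →+* Kbar) (f : LaurentSeries Kbar)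
            * (g : LaurentSeries Kbar) ^ q) ^ n' * ((W : LaurentSeries Kbar) ^ (N * n'))⁻¹ := rfl
    rw [hcoe, key]
    exact (T1.mul T2).mul T3

end OldRed

end Fermat.Agent.NEB.Geom.H70

end
end
-- ==== END Fermat.Agent.NEB.Geom.H70_OldRed

-- ==== BEGIN Fermat.Agent.NEB.H14_JHRel
section

/-!
# NEB, package JH-REL (helper14): the relative cover `F_{H'}(M) ⊆ F_H(M)` for `H ≤ H'`, fields

* `mem_range_of_fixed` : generic Galois correspondence in the shape used here.
* `inclRel M hH : F_{H'}(M) → F_H(M)`, `inclRel_comp_inclBar`, `inclRel_genBar`.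
* `rho_inclRel` : `ρ_H d ∘ inclRel = inclRel ∘ ρ_{H'} d`; `rho_inclRel_of_mem` (`d ∈ H'`).
* `relFixed` : `x ∈ F_H(M)` fixed by `ρ_H d` for all `d ∈ H'` lies in `F_{H'}(M)`.
* `relGal dd H'` : the Galois group `ρ_H(H')` of `F_H / F_{H'}`; `galNorm_inclRel`.
* squares with `α`, `β`: `inclRel_comp_alphaH`, `inclRel_comp_betaBar`.
-/

set_option autoImplicit false
set_option linter.unusedSectionVars false
set_option linter.style.haveILetI false
set_option linter.dupNamespace false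

noncomputable section

namespace Fermat.Agent.NEB.JH

open AlgebraicCurve ModularCurve IntermediateField HahnSeries
open Fermat.Agent.NEB Fermat.Agent.NEB.H14 Fermat.Agent.RED

section Generic

variable {K F E L : Type} [Field K] [Field F] [Field E] [Field L]
  [Algebra K F] [Algebra K E] [Algebra K L]

/-- Galois correspondence: if `G` is a finite group of automorphisms of `L` with fixed field
`φ(F)` and `φ(F) ⊆ ψ(E)`, then an element fixed by the stabiliser of `ψ(E)` lies in `ψ(E)`. -/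
theorem mem_range_of_fixed (φ : F →ₐ[K] L) (ψ : E →ₐ[K] L) (G : Subgroup (L ≃ₐ[K] L))
    [Finite G]
    (h1 : ∀ x : L, (∀ g ∈ G, g x = x) → x ∈ Set.range φ)
    (h2 : ∀ (g : L ≃ₐ[K] L) (y : F), g ∈ G → g (φ y) = φ y)
    (hφψ : ∀ y : F, φ y ∈ Set.range ψ)
    (x : L) (hx : ∀ g ∈ G, (∀ e : E, g (ψ e) = ψ e) → g x = x) : x ∈ Set.range ψ := by
  classical
  letI := algebraAlong φ
  haveI : IsGaloisGroup G F L := Fermat.Agent.NEB.H2.isGaloisGroup_along φ G h1 h2
  let Ei : IntermediateField F L :=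
    Subfield.toIntermediateField (ψ : E →+* L).fieldRange (fun y => by
      obtain ⟨e, he⟩ := hφψ y
      exact ⟨e, he⟩)
  have key := IsGaloisGroup.fixedPoints_fixingSubgroup G F L Ei
  have hxmem : x ∈ FixedPoints.intermediateField (F := F)
      (fixingSubgroup G (Ei : Set L)) := by
    rw [FixedPoints.mem_intermediateField_iff]
    rintro ⟨g, hg⟩
    show (g : L ≃ₐ[K] L) x = x
    refine hx g g.2 (fun e => ?_)
    exact (mem_fixingSubgroup_iff G).1 hg (ψ e) ⟨e, rfl⟩
  rw [key] at hxmem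
  obtain ⟨e, he⟩ := hxmem
  exact ⟨e, he⟩

end Generic

section Rel

variable {M c : ℕ} [NeZero c] {H H' : Subgroup (ZMod c)ˣ}

/-- The inclusion `F_{H'}(M) ⊆ F_H(M)` for `H ≤ H'`. -/
def inclRel (M : ℕ) {c : ℕ} [NeZero c] {H H' : Subgroup (ZMod c)ˣ} (hH : H ≤ H') :
    ↥(FHbar M c H') →ₐ[Kbar] ↥(FHbar M c H) :=
  IntermediateField.inclusion (Fermat.Agent.NEB.H94.FHbar_mono_sub M hH)

@[simp]
theorem coe_inclRel (hH : H ≤ H') (x : ↥(FHbar M c H')) :
    ((inclRel M hH x : ↥(FHbar M c H)) : LaurentSeries Kbar) = (x : LaurentSeries Kbar) :=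
  IntermediateField.coe_inclusion _ x

theorem inclRel_injective (hH : H ≤ H') : Function.Injective (inclRel M hH) :=
  (inclRel M hH).toRingHom.injective

theorem inclRel_comp_inclBar (hH : H ≤ H') :
    (inclRel M hH).comp (inclBar M c H') = inclBar M c H := by
  refine AlgHom.ext fun x => Subtype.ext ?_
  simp only [AlgHom.comp_apply, coe_inclRel, coe_inclBar]

theorem inclRel_inclBar (hH : H ≤ H') (x : ↥(modularFunctionFieldBar M)) :
    inclRel M hH (inclBar M c H' x) = inclBar M c H x :=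
  DFunLike.congr_fun (inclRel_comp_inclBar hH) x

theorem inclRel_refl_apply (x : ↥(FHbar M c H)) : inclRel M (le_refl H) x = x :=
  Subtype.ext (coe_inclRel _ x)

theorem inclRel_trans {H'' : Subgroup (ZMod c)ˣ} (hH : H ≤ H') (hH' : H' ≤ H'') :
    (inclRel M hH).comp (inclRel M hH') = inclRel M (hH.trans hH') := by
  refine AlgHom.ext fun x => Subtype.ext ?_
  simp only [AlgHom.comp_apply, coe_inclRel]

theorem coe_genBar_jh (M : ℕ) (H : Subgroup (ZMod c)ˣ) (a : (ZMod c)ˣ) :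
    ((genBar M c H a : ↥(FHbar M c H)) : LaurentSeries Kbar)
      = coeffEmb Kbar (eisGen c (cosetSet c H a)) := rfl

open scoped Classical in
/-- `e_{±aH'} = ∑_κ e_{±a r_κ H}`. -/
theorem inclRel_genBar (hH : H ≤ H') (a : (ZMod c)ˣ) :
    inclRel M hH (genBar M c H' a)
      = ∑ κ : ↥(Fermat.Agent.NEB.H94.pmSubgroup c H') ⧸
            (Fermat.Agent.NEB.H94.pmSubgroup c H).subgroupOf
              (Fermat.Agent.NEB.H94.pmSubgroup c H'),
          genBar M c H
            (a * ((Quotient.out κ : ↥(Fermat.Agent.NEB.H94.pmSubgroup c H')) : (ZMod c)ˣ)) := by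
  apply Subtype.ext
  rw [coe_inclRel, coe_genBar_jh, Fermat.Agent.NEB.H94.eisGen_cosetSet hH a, map_sum]
  rw [AddSubmonoidClass.coe_finsetSum]
  rfl

/-- The diamond operators of `F_H` restrict to those of `F_{H'}`. -/
theorem rho_inclRel (hH : H ≤ H') (dd : DiamondData M c H) (dd' : DiamondData M c H')
    (d : (ZMod c)ˣ) (x : ↥(FHbar M c H')) :
    dd.ρ d (inclRel M hH x) = inclRel M hH (dd'.ρ d x) := by
  classical
  have key := Fermat.Agent.NEB.H84.ringHom_ext_FHbar H'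
    (((dd.ρ d : ↥(FHbar M c H) ≃ₐ[Kbar] ↥(FHbar M c H)) :
        ↥(FHbar M c H) →+* ↥(FHbar M c H)).comp
      (inclRel M hH : ↥(FHbar M c H') →+* ↥(FHbar M c H)))
    ((inclRel M hH : ↥(FHbar M c H') →+* ↥(FHbar M c H)).comp
      ((dd'.ρ d : ↥(FHbar M c H') ≃ₐ[Kbar] ↥(FHbar M c H')) :
        ↥(FHbar M c H') →+* ↥(FHbar M c H'))) ?_ ?_ ?_
  · exact congrArg (fun f : ↥(FHbar M c H') →+* ↥(FHbar M c H) => f x) key
  · intro a
    simp only [RingHom.comp_apply, RingHom.coe_coe, AlgHom.commutes, AlgEquiv.commutes]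
  · intro y
    simp only [RingHom.comp_apply, RingHom.coe_coe]
    rw [dd'.fix, inclRel_inclBar, dd.fix]
  · intro a
    simp only [RingHom.comp_apply, RingHom.coe_coe]
    rw [dd'.gen, inclRel_genBar, inclRel_genBar, map_sum]
    refine Finset.sum_congr rfl fun κ _ => ?_
    rw [dd.gen, mul_right_comm]

theorem rho_neg_one (dd : DiamondData M c H) : dd.ρ (-1) = 1 :=
  (dd.ker (-1)).mpr (Or.inr (by rw [neg_neg]; exact H.one_mem))

theorem rho_neg (dd : DiamondData M c H) (d : (ZMod c)ˣ) : dd.ρ (-d) = dd.ρ d := by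
  have h : -d = -1 * d := by rw [neg_one_mul]
  rw [h, map_mul, rho_neg_one, one_mul]

/-- For `d ∈ H'` the diamond operator `ρ_H d` fixes `F_{H'}`. -/
theorem rho_inclRel_of_mem (hH : H ≤ H') (dd : DiamondData M c H) (dd' : DiamondData M c H')
    {d : (ZMod c)ˣ} (hd : d ∈ H') (x : ↥(FHbar M c H')) :
    dd.ρ d (inclRel M hH x) = inclRel M hH x := by
  rw [rho_inclRel hH dd dd', (dd'.ker d).mpr (Or.inl hd)]
  rfl

/-- **Relative fixed field**: an element of `F_H` fixed by `ρ_H d` for all `d ∈ H'` lies in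
`F_{H'}`. -/
theorem relFixed (hH : H ≤ H') (dd : DiamondData M c H) (dd' : DiamondData M c H')
    (x : ↥(FHbar M c H)) (hx : ∀ d ∈ H', dd.ρ d x = x) : ∃ x₀, inclRel M hH x₀ = x := by
  haveI := finite_range_rho dd
  refine mem_range_of_fixed (inclBar M c H) (inclRel M hH) dd.ρ.range ?_ ?_ ?_ x ?_
  · intro y hy
    obtain ⟨y₀, hy₀⟩ := dd.fixed y (fun d => hy _ ⟨d, rfl⟩)
    exact ⟨y₀, hy₀⟩
  · rintro g y ⟨d, rfl⟩
    exact dd.fix d y
  · intro y
    exact ⟨inclBar M c H' y, inclRel_inclBar hH y⟩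
  · rintro g ⟨d, rfl⟩ hg
    have h1 : dd'.ρ d = 1 := by
      refine AlgEquiv.ext fun y => ?_
      have h2 := hg y
      rw [rho_inclRel hH dd dd'] at h2
      exact inclRel_injective hH h2
    rcases (dd'.ker d).mp h1 with h | h
    · exact hx d h
    · have := hx (-d) h
      rwa [rho_neg] at this

/-- The Galois group of `F_H / F_{H'}`. -/
def relGal (dd : DiamondData M c H) (H' : Subgroup (ZMod c)ˣ) :
    Subgroup (↥(FHbar M c H) ≃ₐ[Kbar] ↥(FHbar M c H)) := H'.map dd.ρ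

theorem finite_relGal (dd : DiamondData M c H) (H' : Subgroup (ZMod c)ˣ) :
    Finite (relGal dd H') := by
  haveI := finite_units_zmod c
  exact Finite.of_surjective (fun d : H' => (⟨dd.ρ d, ⟨d, d.2, rfl⟩⟩ : relGal dd H'))
    (by rintro ⟨g, d, hd, rfl⟩; exact ⟨⟨d, hd⟩, rfl⟩)

/-- Artin for the relative cover. -/
theorem galNorm_inclRel (hH : H ≤ H') (dd : DiamondData M c H) (dd' : DiamondData M c H')
    (G : Subgroup (↥(FHbar M c H) ≃ₐ[Kbar] ↥(FHbar M c H))) [Fintype G]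
    (hG : G = relGal dd H') :
    FiniteAlong Kbar (inclRel M hH) ∧ finrankAlong Kbar (inclRel M hH) = Fintype.card G ∧
    ∀ x : ↥(FHbar M c H), inclRel M hH (normFn (inclRel M hH) x)
      = ∏ g : G, (g : ↥(FHbar M c H) ≃ₐ[Kbar] ↥(FHbar M c H)) x := by
  refine Fermat.Agent.NEB.H2.stmt_GalNorm Kbar _ _ (inclRel M hH) G ?_ ?_
  · intro x hx
    obtain ⟨x₀, hx₀⟩ := relFixed hH dd dd' x (fun d hd => hx _ (hG ▸ ⟨d, hd, rfl⟩))
    exact ⟨x₀, hx₀⟩
  · intro g y hg
    rw [hG] at hg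
    obtain ⟨d, hd, rfl⟩ := hg
    exact rho_inclRel_of_mem hH dd dd' hd y

end Rel

section Squares

variable {M c ℓ : ℕ} [NeZero c] [NeZero ℓ] {H H' : Subgroup (ZMod c)ˣ}

theorem inclRel_comp_alphaH (hH : H ≤ H') :
    (inclRel (M * ℓ) hH).comp (alphaH M c ℓ H')
      = (alphaH M c ℓ H).comp (inclRel M hH) := by
  refine AlgHom.ext fun x => Subtype.ext ?_
  simp only [AlgHom.comp_apply, coe_inclRel, coe_alphaH]

theorem inclRel_comp_betaBar (hH : H ≤ H') (hβ : BetaOK M c ℓ H) (hβ' : BetaOK M c ℓ H') :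
    (inclRel (M * ℓ) hH).comp (betaBar hβ')
      = (betaBar hβ).comp (inclRel M hH) := by
  refine AlgHom.ext fun x => Subtype.ext ?_
  simp only [AlgHom.comp_apply, coe_inclRel, coe_betaBar]

end Squares

end Fermat.Agent.NEB.JH

end
end
-- ==== END Fermat.Agent.NEB.H14_JHRel

-- ==== BEGIN Fermat.Agent.NEB.H29_PiOntoDefs
section

/-!
# LG-NEB, package PI-ONTO (helper29): statements of the leaves

`π_* : J_H[p^k]_𝔪 → J₀[p^k]_𝔪` is onto (needed for the freeness over `𝒪[Δ]`); plan in the note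
"helper29: pi_* onto — gap in S59_TWH §4 and fix".

* `Stmt_TSEN` : the norm along a homomorphism of function fields is onto (Tsen).
* `Stmt_F1`   : `∑_{i<n} σ^i • D = 0 ⟹ D = σ • B - B` on divisors (`σ^n = 1`).
* `Stmt_E3`   : `π_* : Pic⁰(L) → Pic⁰(E)` is onto.

No `sorry`; definitions only.
-/

set_option autoImplicit false

noncomputable section

namespace Fermat.Agent.NEB.H29

open AlgebraicCurve Fermat.Agent.RED Fermat.Agent.NEB.H14

/-- **TSEN** for norms: along every `K`-homomorphism of function fields the norm is onto. -/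
def Stmt_TSEN : Prop :=
  ∀ (K E F : Type) [Field K] [Field E] [Field F] [Algebra K E] [Algebra K F] [IsAlgClosed K],
    IsFF K E → IsFF K F → ∀ (φ : E →ₐ[K] F) (a : E), ∃ x : F, normFn φ x = a

/-- **F1**: divisors form a permutation module, so `Ĥ⁻¹` of a cyclic group vanishes on them:
a divisor killed by the norm `1 + σ + ⋯ + σ^(n-1)` is of the form `σ • B - B`.
(Pure combinatorics of finitely supported functions; no hypothesis on `K`, `F`.) -/
def Stmt_F1 : Prop :=
  ∀ (K F : Type) [Field K] [Field F] [Algebra K F] (σ : F ≃ₐ[K] F) (n : ℕ),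
    0 < n → σ ^ n = 1 → ∀ D : Divisor K F,
      (∑ i ∈ Finset.range n, (σ ^ i) • D = 0) → ∃ B : Divisor K F, D = σ • B - B

/-- **E3**: the push-forward `Pic⁰(F) → Pic⁰(E)` along a homomorphism of function fields over an
algebraically closed field is onto (every place of `E` lies under a place of `F`, of residue
degree one). -/
def Stmt_E3 : Prop :=
  ∀ (K E F : Type) [Field K] [Field E] [Field F] [Algebra K E] [Algebra K F] [IsAlgClosed K],
    IsFF K E → IsFF K F → ∀ (φ : E →ₐ[K] F) (y : Pic0 K E), ∃ z : Pic0 K F, pushP φ z = y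

end Fermat.Agent.NEB.H29

end
end
-- ==== END Fermat.Agent.NEB.H29_PiOntoDefs

-- ==== BEGIN Fermat.Agent.NEB.H29_TsenCore
section

/-!
# LG-NEB, package PI-ONTO: the algebraic core of Tsen's theorem (helper29)

* `Stmt_DIM` (leaf, pure Mathlib): `m` polynomials in `N > m` variables over an algebraically
  closed field, all vanishing at the origin, have a common zero different from the origin.
* `exists_zero_of_values` : let `E` be a `K`-algebra, `P` a polynomial in the variables `σ` with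
  coefficients in `E` whose values at the `K`-rational points lie in a `K`-subspace `W` of
  dimension `< |σ|` and with `P(0) = 0`.  Then `P` has a `K`-rational zero different from `0`.
-/

set_option autoImplicit false

noncomputable section

namespace Fermat.Agent.NEB.H29

open MvPolynomial

/-- **DIM**: `m` polynomials in `N > m` variables over an algebraically closed field, all
vanishing at the origin, have a common zero different from the origin. -/
def Stmt_DIM : Prop :=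
  ∀ (K : Type) [Field K] [IsAlgClosed K] (N m : ℕ) (g : Fin m → MvPolynomial (Fin N) K),
    m < N → (∀ i, eval (0 : Fin N → K) (g i) = 0) →
    ∃ a : Fin N → K, a ≠ 0 ∧ ∀ i, eval a (g i) = 0

section Core

variable {K E : Type} [Field K] [Field E] [Algebra K E] {σ : Type} [Fintype σ]

/-- The polynomial over `K` obtained by applying a `K`-linear functional to the coefficients. -/
def coeffFunctional (Λ : E →ₗ[K] K) (P : MvPolynomial σ E) : MvPolynomial σ K :=
  ∑ α ∈ P.support, monomial α (Λ (coeff α P))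

omit [Fintype σ] in
theorem eval_coeffFunctional (Λ : E →ₗ[K] K) (P : MvPolynomial σ E) (t : σ → K) :
    eval t (coeffFunctional Λ P) = Λ (eval (fun i => algebraMap K E (t i)) P) := by
  classical
  rw [coeffFunctional, map_sum, MvPolynomial.eval_eq, map_sum]
  refine Finset.sum_congr rfl fun α _ => ?_
  rw [eval_monomial]
  have h1 : ∏ i ∈ α.support, (algebraMap K E (t i)) ^ (α i)
      = algebraMap K E (∏ i ∈ α.support, t i ^ (α i)) := by
    rw [map_prod]
    refine Finset.prod_congr rfl fun i _ => ?_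
    rw [map_pow]
  rw [h1, mul_comm (coeff α P), ← Algebra.smul_def, map_smul, smul_eq_mul, mul_comm]
  rfl

/-- **Algebraic core of Tsen's theorem.** -/
theorem exists_zero_of_values [IsAlgClosed K] (hDIM : Stmt_DIM)
    (P : MvPolynomial σ E) (W : Submodule K E) [Module.Finite K W]
    (hW : Module.finrank K W < Fintype.card σ)
    (hval : ∀ t : σ → K, eval (fun i => algebraMap K E (t i)) P ∈ W)
    (h0 : eval (0 : σ → E) P = 0) :
    ∃ t : σ → K, t ≠ 0 ∧ eval (fun i => algebraMap K E (t i)) P = 0 := by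
  classical
  set r := Module.finrank K W with hr
  let bW : Module.Basis (Fin r) K W := Module.finBasis K W
  -- extend the coordinate functionals
  have hext : ∀ k : Fin r, ∃ Λ : E →ₗ[K] K, Λ.comp W.subtype = bW.coord k := fun k =>
    LinearMap.exists_extend (bW.coord k)
  choose Λ hΛ using hext
  let e : σ ≃ Fin (Fintype.card σ) := Fintype.equivFin σ
  obtain ⟨a, ha0, ha⟩ := hDIM K (Fintype.card σ) r
    (fun k => rename e (coeffFunctional (Λ k) P)) hW (by
      intro k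
      rw [eval_rename, eval_coeffFunctional]
      have : (fun i => algebraMap K E (((0 : Fin (Fintype.card σ) → K) ∘ e) i)) = (0 : σ → E) := by
        funext i
        simp
      rw [this, h0, map_zero])
  refine ⟨a ∘ e, ?_, ?_⟩
  · intro h
    apply ha0
    funext j
    have := congrFun h (e.symm j)
    simpa using this
  · have hv := hval (a ∘ e)
    have hcoord : ∀ k, bW.coord k ⟨_, hv⟩ = 0 := by
      intro k
      have h1 := ha k
      rw [eval_rename, eval_coeffFunctional] at h1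
      have h2 := congrArg (fun f => f ⟨_, hv⟩) (hΛ k)
      simp only [LinearMap.comp_apply, Submodule.subtype_apply] at h2
      rw [← h2]
      exact h1
    have hzero : (⟨_, hv⟩ : W) = 0 := by
      apply bW.repr.injective
      ext k
      simpa using hcoord k
    exact congrArg Subtype.val hzero

end Core

end Fermat.Agent.NEB.H29

end
end
-- ==== END Fermat.Agent.NEB.H29_TsenCore

-- ==== BEGIN Fermat.Agent.NEB.H29_TsenL
section

/-!
# LG-NEB, package PI-ONTO: lemmas on Riemann–Roch spaces for Tsen's theorem (helper29)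

* `exists_effective_mem_L` : every function lies in `L(A)` for some effective divisor `A`;
* `exists_effective_forall_mem_L` : the same for a finite family;
* `prod_mem_L`, `det_mem_L` : products and determinants.
-/

set_option autoImplicit false

noncomputable section

namespace Fermat.Agent.NEB.H29

open AlgebraicCurve Fermat.Agent.RED.H42 WithZero

variable {K F : Type*} [Field K] [Field F] [Algebra K F]

local notation "L" => riemannRochSpace

/-- Every function lies in `L(A)` for some effective divisor `A`. -/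
theorem exists_effective_mem_L [HasPrincipalDivisors K F] (f : F) :
    ∃ A : Divisor K F, 0 ≤ A ∧ f ∈ L A := by
  classical
  by_cases hf : f = 0
  · exact ⟨0, le_rfl, by rw [hf]; exact zero_mem _⟩
  obtain ⟨D, hD, -⟩ := HasPrincipalDivisors.exists_divisor (K := K) f hf
  refine ⟨D.mapRange (fun z => max (-z) 0) (by simp), ?_, ?_⟩
  · rw [Finsupp.le_def]
    intro v
    rw [Finsupp.mapRange_apply]
    exact le_max_right _ _
  · rw [mem_riemannRochSpace_iff]
    intro v
    right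
    rw [Finsupp.mapRange_apply, hD v]
    have := le_max_left (-v.ord f) 0
    omega

/-- Finitely many functions lie in `L(A)` for a common effective divisor `A`. -/
theorem exists_effective_forall_mem_L [HasPrincipalDivisors K F] {ι : Type*} (s : Finset ι)
    (f : ι → F) : ∃ A : Divisor K F, 0 ≤ A ∧ ∀ i ∈ s, f i ∈ L A := by
  classical
  induction s using Finset.induction_on with
  | empty => exact ⟨0, le_rfl, fun i hi => absurd hi (Finset.notMem_empty i)⟩
  | insert a s ha ih =>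
    obtain ⟨A, hA, hAs⟩ := ih
    obtain ⟨B, hB, hBa⟩ := exists_effective_mem_L (K := K) (f a)
    refine ⟨A + B, add_nonneg hA hB, fun i hi => ?_⟩
    rcases Finset.mem_insert.mp hi with rfl | hi
    · exact L_mono (le_add_of_nonneg_left hA) hBa
    · exact L_mono (le_add_of_nonneg_right hB) (hAs i hi)

/-- A product of `|s|` elements of `L(D)` lies in `L(|s| D)`. -/
theorem prod_mem_L {ι : Type*} (s : Finset ι) (f : ι → F) (D : Divisor K F)
    (hf : ∀ i ∈ s, f i ∈ L D) : ∏ i ∈ s, f i ∈ L (s.card • D) := by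
  classical
  induction s using Finset.induction_on with
  | empty =>
    rw [Finset.prod_empty, Finset.card_empty, zero_smul]
    exact one_mem_L le_rfl
  | insert a s ha ih =>
    rw [Finset.prod_insert ha, Finset.card_insert_of_notMem ha, add_smul, one_smul, add_comm]
    exact mul_mem_L_add (hf a (Finset.mem_insert_self a s))
      (ih fun i hi => hf i (Finset.mem_insert_of_mem hi))

/-- The determinant of an `n × n` matrix with entries in `L(D)` lies in `L(n D)`. -/
theorem det_mem_L {n : ℕ} (B : Matrix (Fin n) (Fin n) F) (D : Divisor K F)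
    (hB : ∀ i j, B i j ∈ L D) : B.det ∈ L (n • D) := by
  classical
  rw [Matrix.det_apply]
  refine Submodule.sum_mem _ fun σ _ => ?_
  have h1 : ∏ i, B (σ i) i ∈ L (n • D) := by
    have := prod_mem_L (Finset.univ : Finset (Fin n)) (fun i => B (σ i) i) D
      (fun i _ => hB (σ i) i)
    rwa [Finset.card_univ, Fintype.card_fin] at this
  rcases Int.units_eq_one_or (Equiv.Perm.sign σ) with h | h
  · rw [h, one_smul]; exact h1
  · rw [h, Units.neg_smul, one_smul]; exact neg_mem h1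

end Fermat.Agent.NEB.H29

end
end
-- ==== END Fermat.Agent.NEB.H29_TsenL

-- ==== BEGIN Fermat.Agent.NEB.H84_Res
section

/-!
# NEB, package RES (helper84): classes of `F₀` whose pull-back to `F_H` reduces to `1`

`A` a valuation ring of `ℚ̄` over a prime `r`, `m` prime to `r`, exponent of `(ℤ/c)ˣ/±H` dividing
`m`.  If `f₀ ∈ F₀(M)` and `f₀ · g^m ∈ ℚ̄ˣ · (1 + 𝔪_Gauss)` for some `g ∈ F_H(M)ˣ`, then
`f₀ = u · g₀^(-m) · (element of ℚ̄ˣ (1 + 𝔪_Gauss))` with `g₀ ∈ F₀(M)ˣ` and `u ∈ F₀(M) ∩ F_H(M)^{×m}`: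

  `π^* x₀ ∈ K_A(F_H)  ⟹  x₀ ∈ K_A(F₀) + ker π^*`.

Wiring of helper97's `stmt_VAL` with the Gauss valuation of `F_H` (helper94's `hasScale_FHbar`),
rank one of `A` (helper82), and the Galois structure of `F_H / F₀` (`stmt_FH_gal`).
-/

set_option autoImplicit false
set_option linter.unusedSectionVars false
set_option linter.style.haveILetI false

noncomputable section

open ModularCurve AlgebraicCurve Fermat.Agent.S28 Fermat.Agent.S28.H73 Fermat.Agent.RED.H73

namespace Fermat.Agent.NEB.H84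

open Fermat.Agent.NEB.H70 (IsRedOneC RedTo)

/-- **RES** (series form). -/
def Stmt_RES (M c : ℕ) (H : Subgroup (ZMod c)ˣ) : Prop :=
  2 ≤ c → c ∣ M → M ≠ 0 →
  ∀ (A : ValuationSubring Kbar) (r : ℕ), r.Prime → A.LiesOverPrime r →
  ∀ m : ℕ, m ≠ 0 → ¬ r ∣ m → (∀ d : (ZMod c)ˣ, d ^ m ∈ H ∨ -(d ^ m) ∈ H) →
  ∀ (f0 : ↥(modularFunctionFieldBar M)) (g : ↥(FHbar M c H)), g ≠ 0 →
    IsRedOneC A ((f0 : LaurentSeries Kbar) * (g : LaurentSeries Kbar) ^ m) →
    ∃ (y : ↥(FHbar M c H)) (u g0 : ↥(modularFunctionFieldBar M)), y ≠ 0 ∧ g0 ≠ 0 ∧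
      y ^ m = inclBar M c H u ∧
      IsRedOneC A ((f0 : LaurentSeries Kbar) * ((u : LaurentSeries Kbar))⁻¹ *
        (g0 : LaurentSeries Kbar) ^ m)

section Generic

/-- `stmt_VAL` for a cover with group given by `ρ` (algebra structure along `φ`). -/
theorem res_generic {K E L : Type} [Field K] [Field E] [Field L] [Algebra K E] [Algebra K L]
    (φ : E →ₐ[K] L) {Δ : Type} [CommGroup Δ] [Finite Δ] (ρ : Δ →* (L ≃ₐ[K] L))
    (hfix : ∀ d x, ρ d (φ x) = φ x) (hinv : ∀ x : L, (∀ d, ρ d x = x) → ∃ x₀, φ x₀ = x)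
    {m : ℕ} (hm0 : m ≠ 0) (hexp : ∀ d : Δ, ρ (d ^ m) = 1)
    {ζ : K} (hζ : IsPrimitiveRoot ζ m)
    (V : ValuationSubring L) (hm : V.valuation ((m : ℕ) : L) = 1)
    (hval : ∀ x : L, x ≠ 0 → ∃ a : K, V.valuation (algebraMap K L a) = V.valuation x)
    (harch : ∀ x y : L, V.valuation x < 1 → y ≠ 0 → ∃ N : ℕ, V.valuation x ^ N < V.valuation y)
    (f0 : E) (g : L) (hg : V.valuation g = 1) (hfg : V.valuation (g ^ m - φ f0) < 1) :
    ∃ (y : L) (u g0 : E), y ^ m = φ u ∧ V.valuation y = 1 ∧ V.valuation (φ g0) = 1 ∧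
      V.valuation (φ (f0 - u * g0 ^ m)) < 1 := by
  letI alg := algebraAlong φ
  haveI : Finite ρ.range := Finite.of_surjective ρ.rangeRestrict ρ.rangeRestrict_surjective
  haveI hGG : IsGaloisGroup ρ.range E L :=
    Fermat.Agent.NEB.H2.isGaloisGroup_along φ ρ.range
      (fun x hx => by
        obtain ⟨x₀, h⟩ := hinv x (fun d => hx _ ⟨d, rfl⟩)
        exact ⟨x₀, h⟩)
      (by
        rintro g y ⟨d, rfl⟩
        exact hfix d y)
  haveI hfd : FiniteDimensional E L := IsGaloisGroup.finiteDimensional ρ.range E L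
  haveI hgal : IsGalois E L := IsGaloisGroup.isGalois ρ.range E L
  have hsurj := (IsGaloisGroup.mulEquivAlgEquiv ρ.range E L).surjective
  have hcomm : ∀ a b : ρ.range, a * b = b * a := by
    rintro ⟨_, da, rfl⟩ ⟨_, db, rfl⟩
    apply Subtype.ext
    show ρ da * ρ db = ρ db * ρ da
    rw [← map_mul, ← map_mul, mul_comm]
  have hpow : ∀ a : ρ.range, a ^ m = 1 := by
    rintro ⟨_, da, rfl⟩
    apply Subtype.ext
    show ρ da ^ m = 1
    rw [← map_pow]
    exact hexp da
  have hab : ∀ δ δ' : L ≃ₐ[E] L, δ * δ' = δ' * δ := by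
    intro δ δ'
    obtain ⟨a, rfl⟩ := hsurj δ
    obtain ⟨b, rfl⟩ := hsurj δ'
    rw [← map_mul, ← map_mul, hcomm]
  have hexp' : ∀ δ : L ≃ₐ[E] L, δ ^ m = 1 := by
    intro δ
    obtain ⟨a, rfl⟩ := hsurj δ
    rw [← map_pow, hpow, map_one]
  have hζ' : IsPrimitiveRoot (algebraMap K E ζ) m :=
    hζ.map_of_injective (algebraMap K E).injective
  have hval' : ∀ x : L, x ≠ 0 → ∃ e : E, V.valuation (algebraMap E L e) = V.valuation x := by
    intro x hx
    obtain ⟨a, ha⟩ := hval x hx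
    refine ⟨algebraMap K E a, ?_⟩
    have : algebraMap E L (algebraMap K E a) = algebraMap K L a := φ.commutes a
    rw [this]
    exact ha
  exact Fermat.Agent.NEB.H97.stmt_VAL hab hm0 hexp' hζ' V hm hval' harch f0 g hg hfg

end Generic

section Proof

variable (M c : ℕ) (H : Subgroup (ZMod c)ˣ)

theorem coe_algebraMap_FH (a : Kbar) :
    ((algebraMap Kbar ↥(FHbar M c H) a : ↥(FHbar M c H)) : LaurentSeries Kbar) =
      HahnSeries.C a := coe_algebraMap_F a

theorem exists_primitiveRoot_Kbar {m : ℕ} (hm0 : m ≠ 0) :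
    ∃ ζ : Kbar, IsPrimitiveRoot ζ m := by
  haveI : NeZero (m : ℚ) := ⟨by exact_mod_cast hm0⟩
  haveI : HasEnoughRootsOfUnity (AlgebraicClosure ℚ) m :=
    AlgebraicClosure.hasEnoughRootsOfUnity ℚ m
  exact HasEnoughRootsOfUnity.exists_primitiveRoot (AlgebraicClosure ℚ) m

set_option maxHeartbeats 2000000 in
set_option synthInstance.maxHeartbeats 200000 in
theorem stmt_RES : Stmt_RES M c H := by
  intro hc2 hc hM A r hr hA m hm0 hrm hexp f0 g hg hred
  obtain ⟨ρ, -, hfix, hinv, hker, -⟩ := stmt_FH_gal M c H hc2 hc hM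
  haveI : NeZero c := ⟨by omega⟩
  -- the roots of unity
  obtain ⟨ζ0, hζ0⟩ := exists_primitiveRoot_Kbar hm0
  -- the valuation ring
  set hL := Fermat.Agent.NEB.H94.hasScale_FHbar A M c H with hhL
  set V := gaussValSub A (FHbar M c H) hL with hV
  have hmV : V.valuation ((m : ℕ) : ↥(FHbar M c H)) = 1 := val_natCast_eq_one A hL hr hA hrm
  have hinclK : ∀ a : Kbar, inclBar M c H (algebraMap Kbar _ a) = algebraMap Kbar _ a :=
    fun a => (inclBar M c H).commutes a
  have hval : ∀ x : ↥(FHbar M c H), x ≠ 0 → ∃ a : Kbar,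
      V.valuation (algebraMap Kbar ↥(FHbar M c H) a) = V.valuation x := by
    intro x hx
    obtain ⟨a, -, ha⟩ := exists_const_val A hL x hx
    exact ⟨a, ha⟩
  have harch : ∀ x y : ↥(FHbar M c H), V.valuation x < 1 → y ≠ 0 →
      ∃ N : ℕ, V.valuation x ^ N < V.valuation y := by
    intro x y hx hy
    obtain ⟨n, hn⟩ := isArch_gaussValSub A hL hr hA x y hx hy
    exact ⟨n, by rwa [map_pow] at hn⟩
  -- the hypothesis
  obtain ⟨c0, hc0, hmem, hred1⟩ := hred
  set z : ↥(FHbar M c H) := algebraMap Kbar _ c0 * (inclBar M c H f0 * g ^ m) with hz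
  have hzcoe : (z : LaurentSeries Kbar) =
      HahnSeries.C c0 * ((f0 : LaurentSeries Kbar) * (g : LaurentSeries Kbar) ^ m) := by
    rw [hz]
    push_cast
    rw [coe_inclBar, algebraMap_laurentSeries_eq_single]
    rfl
  have hz1 : V.valuation (z - 1) < 1 := by
    rw [hV, val_sub_one_lt_iff A hL z]
    refine ⟨by rw [hzcoe]; exact hmem, ?_⟩
    have : (⟨(z : LaurentSeries Kbar), by rw [hzcoe]; exact hmem⟩ : ↥(gaussRingV A)) =
        ⟨_, hmem⟩ := Subtype.ext hzcoe
    rw [this]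
    exact hred1
  -- scale `g`
  obtain ⟨a, ug, ha, hgu⟩ := exists_unit_scale A hL g hg
  set f0' : ↥(modularFunctionFieldBar M) := algebraMap Kbar _ (c0 * a ^ m) * f0 with hf0'
  set g' : ↥(FHbar M c H) := (((ug⁻¹ : (↥V)ˣ) : ↥V) : ↥(FHbar M c H)) with hg'
  have hvg' : V.valuation g' = 1 := val_unit A hL ug⁻¹
  have hgg : g' * ((ug : ↥V) : ↥(FHbar M c H)) = 1 := by
    have := congrArg (fun t : ↥V => (t : ↥(FHbar M c H))) (Units.inv_mul ug)
    exact this
  have hzf : z = inclBar M c H f0' * ((ug : ↥V) : ↥(FHbar M c H)) ^ m := by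
    rw [hz, hf0', map_mul, hinclK, hgu, mul_pow, map_mul, map_pow]
    ring
  have hkey : g' ^ m - inclBar M c H f0' = g' ^ m * (1 - z) := by
    rw [hzf, mul_sub, mul_one]
    congr 1
    have : g' ^ m * ((ug : ↥V) : ↥(FHbar M c H)) ^ m = 1 := by
      rw [← mul_pow, hgg, one_pow]
    calc inclBar M c H f0' = inclBar M c H f0' * (g' ^ m * ((ug : ↥V) : ↥(FHbar M c H)) ^ m) := by
          rw [this, mul_one]
      _ = g' ^ m * (inclBar M c H f0' * ((ug : ↥V) : ↥(FHbar M c H)) ^ m) := by ring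
  have hfg : V.valuation (g' ^ m - inclBar M c H f0') < 1 := by
    rw [hkey, map_mul, map_pow, hvg', one_pow, one_mul, Valuation.map_sub_swap]
    exact hz1
  -- apply VAL
  obtain ⟨y, u, g0, hy, hvy, hvg0, hlt⟩ := res_generic (inclBar M c H) ρ hfix hinv hm0
    (fun d => (hker _).mpr (hexp d)) hζ0 V hmV hval harch f0' g' hvg' hfg
  have hy0 : y ≠ 0 := by
    rintro rfl
    rw [map_zero] at hvy
    exact zero_ne_one hvy
  have hg00 : g0 ≠ 0 := by
    rintro rfl
    rw [map_zero, map_zero] at hvg0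
    exact zero_ne_one hvg0
  have hvu : V.valuation (inclBar M c H u) = 1 := by
    rw [← hy, map_pow, hvy, one_pow]
  have hu0 : u ≠ 0 := by
    rintro rfl
    rw [map_zero, map_zero] at hvu
    exact zero_ne_one hvu
  refine ⟨y, u, g0⁻¹, hy0, inv_ne_zero hg00, hy, ?_⟩
  -- the reduction statement
  set w : ↥(FHbar M c H) := inclBar M c H (f0' * u⁻¹ * (g0⁻¹) ^ m) with hw
  have hwcoe : (w : LaurentSeries Kbar) = HahnSeries.C (c0 * a ^ m) *
      ((f0 : LaurentSeries Kbar) * ((u : LaurentSeries Kbar))⁻¹ *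
        ((g0⁻¹ : ↥(modularFunctionFieldBar M)) : LaurentSeries Kbar) ^ m) := by
    have hC : ∀ t : Kbar, algebraMap Kbar (LaurentSeries Kbar) t = HahnSeries.C t := fun t => by
      rw [algebraMap_laurentSeries_eq_single]; rfl
    rw [hw, coe_inclBar, hf0']
    push_cast
    rw [hC, hC, map_mul, map_pow]
    ring
  have hw1 : V.valuation (w - 1) < 1 := by
    have hden : V.valuation (inclBar M c H (u * g0 ^ m)) = 1 := by
      rw [map_mul, map_mul, hvu, map_pow, map_pow, hvg0, one_pow, mul_one]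
    have e : w - 1 = inclBar M c H (f0' - u * g0 ^ m) * (inclBar M c H (u * g0 ^ m))⁻¹ := by
      rw [hw, ← map_inv₀, ← map_mul, ← map_one (inclBar M c H), ← map_sub]
      congr 1
      have hne : u * g0 ^ m ≠ 0 := mul_ne_zero hu0 (pow_ne_zero m hg00)
      have h1 : u⁻¹ * u = 1 := inv_mul_cancel₀ hu0
      have h2 : (g0⁻¹) ^ m * g0 ^ m = 1 := by rw [← mul_pow, inv_mul_cancel₀ hg00, one_pow]
      rw [eq_mul_inv_iff_mul_eq₀ hne]
      calc (f0' * u⁻¹ * g0⁻¹ ^ m - 1) * (u * g0 ^ m)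
          = f0' * (u⁻¹ * u) * (g0⁻¹ ^ m * g0 ^ m) - u * g0 ^ m := by ring
        _ = f0' - u * g0 ^ m := by rw [h1, h2, mul_one, mul_one]
    rw [e, map_mul, map_inv₀, hden, inv_one, mul_one]
    exact hlt
  obtain ⟨hx, hredw⟩ := (val_sub_one_lt_iff A hL w).mp hw1
  have hx' : HahnSeries.C (c0 * a ^ m) *
      ((f0 : LaurentSeries Kbar) * ((u : LaurentSeries Kbar))⁻¹ *
        ((g0⁻¹ : ↥(modularFunctionFieldBar M)) : LaurentSeries Kbar) ^ m) ∈ gaussRingV A := by
    rw [← hwcoe]; exact hx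
  refine ⟨c0 * a ^ m, mul_ne_zero hc0 (pow_ne_zero m ha), hx', ?_⟩
  have : (⟨_, hx'⟩ : ↥(gaussRingV A)) = ⟨(w : LaurentSeries Kbar), hx⟩ :=
    Subtype.ext hwcoe.symm
  rw [this]
  exact hredw

end Proof

end Fermat.Agent.NEB.H84

end
end
-- ==== END Fermat.Agent.NEB.H84_Res

-- ==== BEGIN Fermat.Agent.NEB.OLD.CompatDefs
section

/-!
# NEB, package OLDNEW (helper14): compatibility leaves and the abstract step

Levels `M` and `Mq` (`q ∤ M` prime), `α, β : F₀(M) → F₀(Mq)`; `q' ≠ q` another prime (dividing `M`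
or not, `q'² ∤ M`).  `U0 L q' = β_* α^*` is the operator of `J₀(L)` at `q'` (`= T0 L q'` when
`q' ∤ L`, `= U_{q'}` when `q' ∣ L`).

Leaves COMPAT (base-change squares of norms, tools: `Lib.HeckeComm.normAlongHom_baseChange`,
`S36.H44.adjoin_beta_jF`, `S36.H44.adjoin_beta_jdF`, `S36.H44.finrank_eq_of_square`,
`NEB.H14.square_of_norm_pic`, `pullP_comp`, `pushP_comp`):

* `Stmt_CompatAs` : `α^* U_{q'} = U_{q'} α^*`   (square `(β_{q'}, α_q)`, primitive element `j`);
* `Stmt_CompatBd` : `β_* U_{q'} = U_{q'} β_*`   (square `(β_q, α_{q'})`, primitive element `j`);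
* `Stmt_CompatBs` : `β^* U_{q'} = U_{q'} β^*`   (square `(β_{q'}, β_q)`, primitive element `j`, image
  `j(qτ)`: CRUX for `q' ∤ M`; for `q' ∣ M` the degree `q'` is prime and `j(qτ) ∉ β' F₀(Mq)`);
* `Stmt_CompatAd` : `α_* U_{q'} = U_{q'} α_*`   (square `(α_q, α_{q'})`, primitive element
  `j(Mqτ) = w_q j(Mτ)`: CRUX transported by `w_q`).

Abstract leaf `Stmt_OldNewStep`: OLD-ABS with a family of commuting operators.
-/

set_option autoImplicit false

noncomputable section

namespace Fermat.Agent.NEB.OLD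

open AlgebraicCurve ModularCurve
open Fermat.Agent.NEB Fermat.Agent.NEB.H14 Fermat.Agent.NEB.JH Fermat.Agent.RED

/-- **COMPAT-as**: `α_q^* ∘ U_{q'} = U_{q'} ∘ α_q^*`. -/
def Stmt_CompatAs : Prop :=
  ∀ (M q q' : ℕ) [NeZero M] [NeZero q] [NeZero q'], q.Prime → q'.Prime → q ≠ q' → ¬ q ∣ M →
    ¬ q' ^ 2 ∣ M → ∀ x : JZero M,
    pullP (heckeAlphaBar (AlgebraicClosure ℚ) M q) (U0 M q' x)
      = U0 (M * q) q' (pullP (heckeAlphaBar (AlgebraicClosure ℚ) M q) x)

/-- **COMPAT-bs**: `β_q^* ∘ U_{q'} = U_{q'} ∘ β_q^*`. -/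
def Stmt_CompatBs : Prop :=
  ∀ (M q q' : ℕ) [NeZero M] [NeZero q] [NeZero q'], q.Prime → q'.Prime → q ≠ q' → ¬ q ∣ M →
    ¬ q' ^ 2 ∣ M → ∀ x : JZero M,
    pullP (heckeBetaBar (AlgebraicClosure ℚ) M q) (U0 M q' x)
      = U0 (M * q) q' (pullP (heckeBetaBar (AlgebraicClosure ℚ) M q) x)

/-- **COMPAT-ad**: `α_{q*} ∘ U_{q'} = U_{q'} ∘ α_{q*}`. -/
def Stmt_CompatAd : Prop :=
  ∀ (M q q' : ℕ) [NeZero M] [NeZero q] [NeZero q'], q.Prime → q'.Prime → q ≠ q' → ¬ q ∣ M →
    ¬ q' ^ 2 ∣ M → ∀ y : JZero (M * q),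
    pushP (heckeAlphaBar (AlgebraicClosure ℚ) M q) (U0 (M * q) q' y)
      = U0 M q' (pushP (heckeAlphaBar (AlgebraicClosure ℚ) M q) y)

/-- **COMPAT-bd**: `β_{q*} ∘ U_{q'} = U_{q'} ∘ β_{q*}`. -/
def Stmt_CompatBd : Prop :=
  ∀ (M q q' : ℕ) [NeZero M] [NeZero q] [NeZero q'], q.Prime → q'.Prime → q ≠ q' → ¬ q ∣ M →
    ¬ q' ^ 2 ∣ M → ∀ y : JZero (M * q),
    pushP (heckeBetaBar (AlgebraicClosure ℚ) M q) (U0 (M * q) q' y)
      = U0 M q' (pushP (heckeBetaBar (AlgebraicClosure ℚ) M q) y)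

/-- **OLD-STEP** (pure algebra): OLD-ABS together with a family of operators `t i` on `A`,
`t' i` on `B` compatible with the four degeneracy maps.  With
`Aθ = ⋂ gk(t i - c i) ∩ gk(T - s)` (`s ≡ a + a'`) and `Bθ = ⋂ gk(t' i - c i) ∩ gk(U - a)`:
`ad` maps `Bθ` bijectively onto `Aθ`.

Proof: (i) `Ψ = (ad, bd) : B → A²` satisfies `Ψ U = 𝕄 Ψ`, `𝕄 (x, y) = (q y, T y - x)`,
`𝕄² - T 𝕄 + q = 0`, hence `a 𝕄 (T - (a + q / a)) = (a 𝕄 - q) (𝕄 - a)` and `T - s` is locally
nilpotent on `ad v`, `bd v` for `v ∈ gk(U - a)`; (ii) apply `H38.oldNewAbs` to the submodules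
`Aθ` and `B₀ = {v | ad v ∈ Aθ ∧ bd v ∈ Aθ}` (stable under `W` and `U = as bd - W`);
(iii) `Bθ = gk(U - a) ∩ B₀`: `⊆` by (i) and the compatibility of `ad`, `bd`; `⊇` because
`gk(U - a) ∩ B₀ ⊆ as Aθ + bs Aθ` and the compatibility of `as`, `bs`. -/
def Stmt_OldNewStep : Prop :=
  ∀ (𝒪 : Type) [CommRing 𝒪] (A B : Type) [AddCommGroup A] [Module 𝒪 A] [AddCommGroup B]
    [Module 𝒪 B]
    (as bs : A →ₗ[𝒪] B) (ad bd : B →ₗ[𝒪] A) (T : Module.End 𝒪 A) (U W : Module.End 𝒪 B)
    (q : ℕ) (a a' s : 𝒪)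
    (ι : Type) (t : ι → Module.End 𝒪 A) (t' : ι → Module.End 𝒪 B) (c : ι → 𝒪),
    (∀ x, ad (as x) = (q + 1) • x) → (∀ x, bd (bs x) = (q + 1) • x) →
    (∀ x, ad (bs x) = T x) → (∀ x, bd (as x) = T x) →
    (∀ y, U y = as (bd y) - W y) →
    (∀ x, W (as x) = bs x) → (∀ x, W (bs x) = as x) → (∀ y, W (W y) = y) →
    (∀ y, ad (W y) = bd y) → (∀ y, bd (W y) = ad y) →
    (∀ i x, as (t i x) = t' i (as x)) → (∀ i x, bs (t i x) = t' i (bs x)) →
    (∀ i y, ad (t' i y) = t i (ad y)) → (∀ i y, bd (t' i y) = t i (bd y)) →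
    IsUnit (a - a') → IsUnit (a * a - 1) → IsUnit (a' * a' - 1) → IsUnit (q : 𝒪) → IsUnit a →
    (∀ x : A, ∃ n : ℕ, ((q : 𝒪) - a * a') ^ n • x = 0) →
    (∀ y : B, ∃ n : ℕ, ((q : 𝒪) - a * a') ^ n • y = 0) →
    (∀ x : A, ∃ n : ℕ, (s - (a + a')) ^ n • x = 0) →
    (∀ v : B, (∀ i, ∃ n : ℕ, ((t' i - c i • (1 : Module.End 𝒪 B)) ^ n) v = 0) →
        (∃ n : ℕ, ((U - a • (1 : Module.End 𝒪 B)) ^ n) v = 0) →
        (∀ i, ∃ n : ℕ, ((t i - c i • (1 : Module.End 𝒪 A)) ^ n) (ad v) = 0) ∧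
          ∃ n : ℕ, ((T - s • (1 : Module.End 𝒪 A)) ^ n) (ad v) = 0) ∧
    (∀ x : A, (∀ i, ∃ n : ℕ, ((t i - c i • (1 : Module.End 𝒪 A)) ^ n) x = 0) →
        (∃ n : ℕ, ((T - s • (1 : Module.End 𝒪 A)) ^ n) x = 0) →
        ∃ v : B, (∀ i, ∃ n : ℕ, ((t' i - c i • (1 : Module.End 𝒪 B)) ^ n) v = 0) ∧
          (∃ n : ℕ, ((U - a • (1 : Module.End 𝒪 B)) ^ n) v = 0) ∧ ad v = x) ∧
    (∀ v : B, (∀ i, ∃ n : ℕ, ((t' i - c i • (1 : Module.End 𝒪 B)) ^ n) v = 0) →
        (∃ n : ℕ, ((U - a • (1 : Module.End 𝒪 B)) ^ n) v = 0) → ad v = 0 → v = 0)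

end Fermat.Agent.NEB.OLD

end
end
-- ==== END Fermat.Agent.NEB.OLD.CompatDefs

-- ==== BEGIN Fermat.Agent.NEB.OLD.H14_Geo
section
attribute [local instance 10000] SubalgebraClass.toAlgebra
attribute [local instance 10000] HahnSeries.powerSeriesAlgebra

/-!
# NEB, package OLDNEW-GEO (helper14): the relations between levels `M` and `Mq` on `J₀`

`q ∤ M` prime, `w = w_q` (`BAD.H88.wq`).  With `as = pullP α`, `bs = pullP β`, `ad = pushP α`,
`bd = pushP β` (`α, β : F₀(M) → F₀(Mq)`), `U = JH.U0 (M q) q`, `W = w • ·`: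

* `normW`   : `α (Norm_β x) = Norm_{β'} (α' x) · w x`  (from `Stmt_SquareW`, `Stmt_DegBeta`);
* `corrW`   : `pullD α ∘ pushD β = pushD β' ∘ pullD α' + pullD w` on divisors;
* `as_bd`   : `as (bd y) = U y + w • y`;
* `ad_as`, `bd_bs` (`= q + 1`), `ad_bs = T0`, `bd_as = U0 = T0`, `W_as`, `W_bs`, `ad_W`, `bd_W`.
-/

set_option autoImplicit false
set_option linter.unusedSectionVars false
set_option linter.style.haveILetI false
set_option linter.dupNamespace false

noncomputable section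

namespace Fermat.Agent.NEB.OLD

open AlgebraicCurve ModularCurve Fermat.Agent.S24
open Fermat.Agent.NEB.H14 Fermat.Agent.NEB.JH Fermat.Agent.RED

local notation "Kb" => AlgebraicClosure ℚ

section Fields

variable (M q : ℕ) [NeZero M] [NeZero q]

/-- The middle map `F₀(M) → F₀(Mq²)`, `f(τ) ↦ f(qτ)`. -/
theorem beta_comp_alpha :
    (heckeBetaBar Kb (M * q) q).comp (heckeAlphaBar Kb M q)
      = (heckeAlphaBar Kb (M * q) q).comp (heckeBetaBar Kb M q) := by
  refine AlgHom.ext fun x => Subtype.ext ?_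
  simp only [AlgHom.comp_apply, coe_heckeBetaBar, coe_heckeAlphaBar]

theorem dvd_mul_prime_cases {d n : ℕ} (hq : q.Prime) (hd : d ∣ n * q) :
    d ∣ n ∨ ∃ d', d = d' * q ∧ d' ∣ n := by
  by_cases h : q ∣ d
  · obtain ⟨d', rfl⟩ := h
    right
    refine ⟨d', mul_comm _ _, ?_⟩
    rw [mul_comm q d'] at hd
    exact Nat.dvd_of_mul_dvd_mul_right hq.pos hd
  · left
    have hco : Nat.Coprime d q := (Nat.Coprime.symm ((Nat.Prime.coprime_iff_not_dvd hq).2 h))
    exact hco.dvd_of_dvd_mul_right hd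

/-- `F₀(Mq²)` is the compositum of `α'(F₀(Mq))` and `β'(F₀(Mq))`. -/
theorem closure_range_union (hq : q.Prime) :
    Subfield.closure (Set.range (heckeAlphaBar Kb (M * q) q) ∪
      Set.range (heckeBetaBar Kb (M * q) q)) = ⊤ := by
  have h := adjoin_jdF (M * q * q)
  rw [eq_top_iff]
  have h2 : (IntermediateField.adjoin Kb
      {x : FN (M * q * q) | ∃ (d : ℕ) (_ : NeZero d) (hd : d ∣ M * q * q),
        x = jdF (M * q * q) d hd}).toSubfield
      ≤ Subfield.closure (Set.range (heckeAlphaBar Kb (M * q) q) ∪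
          Set.range (heckeBetaBar Kb (M * q) q)) := by
    rw [IntermediateField.adjoin_toSubfield, Subfield.closure_le]
    rintro x (⟨a, rfl⟩ | ⟨d, hd0, hd, rfl⟩)
    · refine Subfield.subset_closure (Or.inl ⟨algebraMap Kb _ a, ?_⟩)
      exact (heckeAlphaBar Kb (M * q) q).commutes a
    · rcases dvd_mul_prime_cases q hq hd with h1 | ⟨d', rfl, h1⟩
      · refine Subfield.subset_closure (Or.inl ⟨jdF (M * q) d h1, ?_⟩)
        exact Fermat.Agent.BAD.H88.alpha_jdF q (M * q) d h1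
      · haveI : NeZero d' := ⟨fun h0 => NeZero.ne (d' * q) (by rw [h0, zero_mul])⟩
        refine Subfield.subset_closure (Or.inr ⟨jdF (M * q) d' h1, ?_⟩)
        exact Fermat.Agent.BAD.H88.beta_jdF q (M * q) d' h1
  intro x _
  have hx : x ∈ (IntermediateField.adjoin Kb
      {x : FN (M * q * q) | ∃ (d : ℕ) (_ : NeZero d) (hd : d ∣ M * q * q),
        x = jdF (M * q * q) d hd}).toSubfield := by
    rw [h]
    exact (IntermediateField.mem_top : x ∈ (⊤ : IntermediateField Kb (FN (M * q * q))))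
  exact h2 hx

end Fields

section NormW

variable (M q : ℕ) [NeZero M] [NeZero q] (a b : ℤ) (hab : a * q + b * M = 1) (hq : q.Prime)

include hab in
theorem not_dvd_of_bezout (hq : q.Prime) : ¬ q ∣ M := by
  intro h
  have h1 : (q : ℤ) ∣ a * q + b * M :=
    dvd_add (dvd_mul_left _ _) (Dvd.dvd.mul_left (Int.natCast_dvd_natCast.mpr h) _)
  rw [hab] at h1
  have h2 := Int.natAbs_dvd_natAbs.mpr h1
  simp only [Int.natAbs_natCast, Int.natAbs_one, Nat.dvd_one] at h2
  exact hq.one_lt.ne' h2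

/-- **The norm square with `w_q`.** -/
theorem normW (hSQW : Stmt_SquareW) (hDEG : Stmt_DegBeta) (x : FN (M * q)) :
    heckeAlphaBar Kb M q (normFn (heckeBetaBar Kb M q) x)
      = normFn (heckeBetaBar Kb (M * q) q) (heckeAlphaBar Kb (M * q) q x)
        * Fermat.Agent.BAD.H88.wq q M a b hab hq x := by
  have hqM := not_dvd_of_bezout M q a b hab hq
  have hd' := hDEG M q hq hqM
  refine hSQW Kb (FN M) (FN (M * q)) (FN (M * q * q)) (heckeAlphaBar Kb M q)
    (heckeBetaBar Kb M q) (heckeAlphaBar Kb (M * q) q) (heckeBetaBar Kb (M * q) q)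
    (Fermat.Agent.BAD.H88.wq q M a b hab hq) (beta_comp_alpha M q)
    (fun y => Fermat.Agent.BAD.H88.wq_beta q M a b hab hq y)
    (finiteAlong_hom (isFF0 M) (isFF0 (M * q)) _)
    (finiteAlong_hom (isFF0 (M * q)) (isFF0 (M * q * q)) _) ?_ ?_
    (closure_range_union M q hq) x
  · rw [hd', Fermat.Agent.RED.H95.finrankAlong_beta hq hqM]
  · rw [hd']
    exact hq.two_le

end NormW

section Corr

variable (M q : ℕ) [NeZero M] [NeZero q] (a b : ℤ) (hab : a * q + b * M = 1) (hq : q.Prime)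

/-- The Atkin–Lehner involution as an algebra homomorphism. -/
abbrev wHom : FN (M * q) →ₐ[Kb] FN (M * q) :=
  ((Fermat.Agent.BAD.H88.wq q M a b hab hq : FN (M * q) ≃ₐ[Kb] FN (M * q)) :
    FN (M * q) →ₐ[Kb] FN (M * q))

/-- **The correspondence identity** `α^* β_* = β'_* α'^* + w^*` on divisors. -/
theorem corrW (hSQW : Stmt_SquareW) (hDEG : Stmt_DegBeta) :
    (pullD (heckeAlphaBar Kb M q)).comp (pushD (heckeBetaBar Kb M q))
      = (pushD (heckeBetaBar Kb (M * q) q)).comp (pullD (heckeAlphaBar Kb (M * q) q))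
        + pullD (wHom M q a b hab hq) := by
  have hF := isFF0 M
  have hF' := isFF0 (M * q)
  have hF'' := isFF0 (M * q * q)
  haveI := hasPD hF'
  refine ((isCorr_pullD hF hF' (heckeAlphaBar Kb M q)).comp
    (isCorr_pushD hF hF' (heckeBetaBar Kb M q))).eq
    (((isCorr_pushD hF' hF'' (heckeBetaBar Kb (M * q) q)).comp
      (isCorr_pullD hF' hF'' (heckeAlphaBar Kb (M * q) q))).add
      (isCorr_pullD hF' hF' (wHom M q a b hab hq))) (fun f _ => ?_)
  exact normW M q a b hab hq hSQW hDEG f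

/-- `a^* b_* = U + W` on `J₀(Mq)`. -/
theorem as_bd (hSQW : Stmt_SquareW) (hDEG : Stmt_DegBeta) (y : JZero (M * q)) :
    pullP (heckeAlphaBar Kb M q) (pushP (heckeBetaBar Kb M q) y)
      = U0 (M * q) q y + Fermat.Agent.BAD.H88.wq q M a b hab hq • y := by
  have hF := isFF0 M
  have hF' := isFF0 (M * q)
  have hF'' := isFF0 (M * q * q)
  have h1 := picMap_comp (isCorr_pullD hF hF' (heckeAlphaBar Kb M q)).isGood
    (isCorr_pushD hF hF' (heckeBetaBar Kb M q)).isGood
  have h2 := picMap_comp (isCorr_pushD hF' hF'' (heckeBetaBar Kb (M * q) q)).isGood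
    (isCorr_pullD hF' hF'' (heckeAlphaBar Kb (M * q) q)).isGood
  have h3 := picMap_add ((isCorr_pushD hF' hF'' (heckeBetaBar Kb (M * q) q)).comp
      (isCorr_pullD hF' hF'' (heckeAlphaBar Kb (M * q) q))).isGood
      (isCorr_pullD hF' hF' (wHom M q a b hab hq)).isGood
  rw [← corrW M q a b hab hq hSQW hDEG, h1, h2] at h3
  have h4 := DFunLike.congr_fun h3 y
  rw [AddMonoidHom.comp_apply, AddMonoidHom.add_apply, AddMonoidHom.comp_apply] at h4
  rw [← pullP_smul hF' (Fermat.Agent.BAD.H88.wq q M a b hab hq) y]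
  exact h4

theorem wq_mul_self :
    Fermat.Agent.BAD.H88.wq q M a b hab hq * Fermat.Agent.BAD.H88.wq q M a b hab hq = 1 :=
  AlgEquiv.ext fun x => Fermat.Agent.BAD.H88.wq_wq q M a b hab hq x

theorem wq_inv :
    (Fermat.Agent.BAD.H88.wq q M a b hab hq)⁻¹ = Fermat.Agent.BAD.H88.wq q M a b hab hq :=
  inv_eq_of_mul_eq_one_left (wq_mul_self M q a b hab hq)

/-- `W² = 1`. -/
theorem W_W (y : JZero (M * q)) :
    Fermat.Agent.BAD.H88.wq q M a b hab hq • (Fermat.Agent.BAD.H88.wq q M a b hab hq • y) = y := by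
  rw [← mul_smul, wq_mul_self, one_smul]

/-- `W a^* = b^*`. -/
theorem W_as (x : JZero M) :
    Fermat.Agent.BAD.H88.wq q M a b hab hq • pullP (heckeAlphaBar Kb M q) x
      = pullP (heckeBetaBar Kb M q) x := by
  have hF := isFF0 M
  have hF' := isFF0 (M * q)
  rw [← pullP_smul hF']
  have h := DFunLike.congr_fun (pullP_comp hF hF' hF' (heckeAlphaBar Kb M q)
    (wHom M q a b hab hq)) x
  rw [AddMonoidHom.comp_apply] at h
  rw [← h]
  congr 2
  exact Fermat.Agent.BAD.H88.wq_comp_alpha q M a b hab hq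

/-- `W b^* = a^*`. -/
theorem W_bs (x : JZero M) :
    Fermat.Agent.BAD.H88.wq q M a b hab hq • pullP (heckeBetaBar Kb M q) x
      = pullP (heckeAlphaBar Kb M q) x := by
  rw [← W_as M q a b hab hq x, W_W]

/-- `a_* W = b_*`. -/
theorem ad_W (y : JZero (M * q)) :
    pushP (heckeAlphaBar Kb M q) (Fermat.Agent.BAD.H88.wq q M a b hab hq • y)
      = pushP (heckeBetaBar Kb M q) y := by
  have hF := isFF0 M
  have hF' := isFF0 (M * q)
  have h := DFunLike.congr_fun (pushP_comp hF hF' hF' (heckeAlphaBar Kb M q)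
    (wHom M q a b hab hq)) y
  rw [AddMonoidHom.comp_apply, pushP_smul hF', wq_inv] at h
  rw [← h]
  congr 2
  exact Fermat.Agent.BAD.H88.wq_comp_alpha q M a b hab hq

/-- `b_* W = a_*`. -/
theorem bd_W (y : JZero (M * q)) :
    pushP (heckeBetaBar Kb M q) (Fermat.Agent.BAD.H88.wq q M a b hab hq • y)
      = pushP (heckeAlphaBar Kb M q) y := by
  rw [← ad_W M q a b hab hq, W_W]

include hab in
/-- `a_* a^* = q + 1`. -/
theorem ad_as (hq : q.Prime) (x : JZero M) :
    pushP (heckeAlphaBar Kb M q) (pullP (heckeAlphaBar Kb M q) x) = (q + 1) • x := by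
  rw [pushP_pullP (isFF0 M) (isFF0 (M * q)),
    Fermat.Agent.RED.H95.finrankAlong_alpha hq (not_dvd_of_bezout M q a b hab hq)]

include hab in
/-- `b_* b^* = q + 1`. -/
theorem bd_bs (hq : q.Prime) (x : JZero M) :
    pushP (heckeBetaBar Kb M q) (pullP (heckeBetaBar Kb M q) x) = (q + 1) • x := by
  rw [pushP_pullP (isFF0 M) (isFF0 (M * q)),
    Fermat.Agent.RED.H95.finrankAlong_beta hq (not_dvd_of_bezout M q a b hab hq)]

/-- `a_* b^* = T₀`. -/
theorem ad_bs (x : JZero M) :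
    pushP (heckeAlphaBar Kb M q) (pullP (heckeBetaBar Kb M q) x) = T0 M q x := rfl

/-- `b_* a^* = U₀`. -/
theorem bd_as' (x : JZero M) :
    pushP (heckeBetaBar Kb M q) (pullP (heckeAlphaBar Kb M q) x) = U0 M q x := rfl

include hab hq in
/-- `U₀ = T₀` on `J₀(M)` for `q ∤ M`. -/
theorem U0_eq_T0 (x : JZero M) : U0 M q x = T0 M q x := by
  rw [← bd_as', ← ad_bs, ← ad_W M q a b hab hq, W_as]

include hab hq in
/-- `b_* a^* = T₀`. -/
theorem bd_as (x : JZero M) :
    pushP (heckeBetaBar Kb M q) (pullP (heckeAlphaBar Kb M q) x) = T0 M q x := by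
  rw [bd_as', U0_eq_T0 M q a b hab hq]

/-- `U = a^* b_* - W`. -/
theorem U_eq (hSQW : Stmt_SquareW) (hDEG : Stmt_DegBeta) (y : JZero (M * q)) :
    U0 (M * q) q y = pullP (heckeAlphaBar Kb M q) (pushP (heckeBetaBar Kb M q) y)
      - Fermat.Agent.BAD.H88.wq q M a b hab hq • y := by
  rw [as_bd M q a b hab hq hSQW hDEG, add_sub_cancel_right]

end Corr

end Fermat.Agent.NEB.OLD

end
end
-- ==== END Fermat.Agent.NEB.OLD.H14_Geo

-- ==== BEGIN Fermat.Agent.NEB.OLD.H38_OldAbsCore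
section

set_option autoImplicit false

namespace Fermat.Agent.NEB.OLD.H38

open Polynomial

/-! ### Locally nilpotent endomorphisms -/

section LocNil

variable {𝒪 : Type*} [CommRing 𝒪] {A : Type*} [AddCommGroup A] [Module 𝒪 A]

/-- If `X₁, X₂` commute, `X₁ ^ n` and `X₂ ^ k` kill `w`, then `(X₁ + X₂) ^ (n + k)` kills `w`. -/
lemma add_pow_apply_eq_zero {X₁ X₂ : Module.End 𝒪 A} (hc : Commute X₁ X₂) {w : A} {n k : ℕ}
    (h₁ : (X₁ ^ n) w = 0) (h₂ : (X₂ ^ k) w = 0) : ((X₁ + X₂) ^ (n + k)) w = 0 := by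
  rw [hc.add_pow, LinearMap.sum_apply]
  refine Finset.sum_eq_zero fun i hi => ?_
  rw [← nsmul_eq_mul', LinearMap.smul_apply]
  have hi' : i ≤ n + k := Nat.lt_succ_iff.1 (Finset.mem_range.1 hi)
  suffices h : (X₁ ^ i * X₂ ^ (n + k - i)) w = 0 by rw [h, smul_zero]
  by_cases hin : n ≤ i
  · -- `X₁ ^ i` kills `w`
    have e : X₁ ^ i * X₂ ^ (n + k - i) = X₂ ^ (n + k - i) * X₁ ^ (i - n) * X₁ ^ n := by
      rw [mul_assoc, ← pow_add, Nat.sub_add_cancel hin]
      exact ((hc.pow_pow i (n + k - i))).eq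
    rw [e, Module.End.mul_apply, h₁, map_zero]
  · -- `X₂ ^ (n + k - i)` kills `w`
    have hk : k ≤ n + k - i := by omega
    have e : X₁ ^ i * X₂ ^ (n + k - i) = X₁ ^ i * X₂ ^ (n + k - i - k) * X₂ ^ k := by
      rw [mul_assoc, ← pow_add, Nat.sub_add_cancel hk]
    rw [e, Module.End.mul_apply, h₂, map_zero]

/-- `1 + N` is bijective when `N` is locally nilpotent. -/
lemma bijective_one_add {N : Module.End 𝒪 A} (hN : ∀ x : A, ∃ n : ℕ, (N ^ n) x = 0) :
    Function.Bijective ((1 + N : Module.End 𝒪 A) : A → A) := by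
  constructor
  · rw [injective_iff_map_eq_zero]
    intro x hx
    have h1 : N x = -x := by
      have : x + N x = 0 := by simpa using hx
      exact eq_neg_of_add_eq_zero_right this
    have h2 : ∀ n : ℕ, (N ^ n) x = (-1 : 𝒪) ^ n • x := by
      intro n
      induction n with
      | zero => simp
      | succ n ih =>
        rw [pow_succ, Module.End.mul_apply, h1, map_neg, ih, pow_succ, mul_smul]
        simp
    obtain ⟨n, hn⟩ := hN x
    rw [h2 n] at hn
    have := congrArg (fun t => (-1 : 𝒪) ^ n • t) hn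
    simp only [smul_zero, ← mul_smul, ← mul_pow] at this
    simpa using this
  · intro y
    obtain ⟨n, hn⟩ := hN y
    refine ⟨(∑ i ∈ Finset.range n, (-N) ^ i) y, ?_⟩
    have h1 : (1 + N) * ∑ i ∈ Finset.range n, (-N) ^ i = 1 - (-N) ^ n := by
      have := mul_neg_geom_sum (-N) n
      rwa [sub_neg_eq_add] at this
    rw [← Module.End.mul_apply, h1, LinearMap.sub_apply, Module.End.one_apply, neg_pow,
      Module.End.mul_apply, hn, map_zero, sub_zero]

/-- If `f g = 1 + N` with `N` locally nilpotent and `f, g` commute, then `f` is bijective. -/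
lemma bijective_of_mul_eq {f g N : Module.End 𝒪 A} (hfg : f * g = 1 + N) (hc : Commute f g)
    (hN : ∀ x : A, ∃ n : ℕ, (N ^ n) x = 0) : Function.Bijective (f : A → A) := by
  have hb := bijective_one_add hN
  constructor
  · intro x y hxy
    apply hb.1
    rw [← hfg, hc.eq, Module.End.mul_apply, Module.End.mul_apply, hxy]
  · intro y
    obtain ⟨x, hx⟩ := hb.2 y
    exact ⟨g x, by rw [← Module.End.mul_apply, hfg, hx]⟩

end LocNil

/-! ### The key lemma: units modulo `I = (X - s, e)` act bijectively -/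

section Key

variable {𝒪 : Type*} [CommRing 𝒪] {A : Type*} [AddCommGroup A] [Module 𝒪 A]

/-- The ideal `(X - s, e)` of `𝒪[X]`. -/
noncomputable def idealI (s e : 𝒪) : Ideal 𝒪[X] := Ideal.span {X - C s, C e}

lemma X_sub_mem (s e : 𝒪) : X - C s ∈ idealI s e :=
  Ideal.subset_span (by simp)

lemma C_mem (s e : 𝒪) : C e ∈ idealI s e :=
  Ideal.subset_span (by simp)

variable (T : Module.End 𝒪 A) {s e : 𝒪}

lemma aeval_commute (p p' : 𝒪[X]) : Commute (aeval T p) (aeval T p') := by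
  show aeval T p * aeval T p' = aeval T p' * aeval T p
  rw [← map_mul, ← map_mul, mul_comm]

/-- Elements of `I` act locally nilpotently. -/
lemma locNil_of_mem (hT : ∀ x : A, ∃ n : ℕ, ((T - s • (1 : Module.End 𝒪 A)) ^ n) x = 0)
    (he : ∀ x : A, ∃ n : ℕ, e ^ n • x = 0) {p : 𝒪[X]} (hp : p ∈ idealI s e) (x : A) :
    ∃ n : ℕ, ((aeval T p) ^ n) x = 0 := by
  obtain ⟨r₁, r₂, rfl⟩ := Ideal.mem_span_pair.1 hp
  obtain ⟨n₁, hn₁⟩ := hT x
  obtain ⟨n₂, hn₂⟩ := he x
  refine ⟨n₁ + n₂, ?_⟩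
  rw [map_add]
  refine add_pow_apply_eq_zero (aeval_commute T _ _) ?_ ?_
  · rw [← map_pow, mul_pow, map_mul, Module.End.mul_apply]
    have : aeval T ((X - C s) ^ n₁) = (T - s • (1 : Module.End 𝒪 A)) ^ n₁ := by
      rw [map_pow, map_sub, aeval_X, aeval_C, Algebra.algebraMap_eq_smul_one]
    rw [this, hn₁, map_zero]
  · rw [← map_pow, mul_pow, map_mul, Module.End.mul_apply]
    have : aeval T ((C e) ^ n₂) x = e ^ n₂ • x := by
      rw [← C_pow, aeval_C, Algebra.algebraMap_eq_smul_one, LinearMap.smul_apply,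
        Module.End.one_apply]
    rw [this, hn₂, map_zero]

/-- **Key lemma**: a polynomial which is a unit modulo `I` acts bijectively. -/
lemma bijective_aeval_of_isUnit
    (hT : ∀ x : A, ∃ n : ℕ, ((T - s • (1 : Module.End 𝒪 A)) ^ n) x = 0)
    (he : ∀ x : A, ∃ n : ℕ, e ^ n • x = 0) {p : 𝒪[X]}
    (hp : IsUnit (Ideal.Quotient.mk (idealI s e) p)) : Function.Bijective (aeval T p : A → A) := by
  obtain ⟨b, hb⟩ := isUnit_iff_exists_inv.1 hp
  obtain ⟨p', rfl⟩ := Ideal.Quotient.mk_surjective b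
  have hmem : p * p' - 1 ∈ idealI s e := by
    rw [← Ideal.Quotient.eq_zero_iff_mem, map_sub, map_mul, hb, map_one, sub_self]
  refine bijective_of_mul_eq (g := aeval T p') (N := aeval T (p * p' - 1)) ?_
    (aeval_commute T p p') (locNil_of_mem T hT he hmem)
  have e1 : p * p' = 1 + (p * p' - 1) := by ring
  rw [← map_mul, e1, map_add, map_one, ← e1]

end Key

/-! ### The recursion for `(ad, bd) ∘ (U - c)` -/

section Seq

variable {𝒪 : Type*} [CommRing 𝒪]

/-- One step of the recursion for `(ad, bd) ∘ (U - c)`. -/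
noncomputable def step (c qq : 𝒪) (p : 𝒪[X] × 𝒪[X]) : 𝒪[X] × 𝒪[X] :=
  (C qq * p.2 - C c * p.1, (X - C c) * p.2 - p.1)

/-- The iterated recursion. -/
noncomputable def iter (c qq : 𝒪) : ℕ → 𝒪[X] × 𝒪[X] → 𝒪[X] × 𝒪[X]
  | 0, p => p
  | m + 1, p => step c qq (iter c qq m p)

lemma mk_X (a a' qq : 𝒪) :
    Ideal.Quotient.mk (idealI (a + a') (qq - a * a')) X =
      Ideal.Quotient.mk _ (C a) + Ideal.Quotient.mk _ (C a') := by
  rw [← map_add, ← C_add]
  exact Ideal.Quotient.eq.2 (X_sub_mem _ _)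

lemma mk_C_q (a a' qq : 𝒪) :
    Ideal.Quotient.mk (idealI (a + a') (qq - a * a')) (C qq) =
      Ideal.Quotient.mk _ (C a) * Ideal.Quotient.mk _ (C a') := by
  rw [← map_mul, ← C_mul]
  refine Ideal.Quotient.eq.2 ?_
  rw [← C_sub]
  exact C_mem _ _

/-- Modulo `I = (X - (a + a'), qq - a a')`:
`iter a' qq (m + 1) (g, h) ≡ (a - a')^m (a h - g) · (a', 1)`. -/
lemma iter_congr (a a' qq : 𝒪) (g h : 𝒪[X]) (m : ℕ) :
    Ideal.Quotient.mk (idealI (a + a') (qq - a * a')) (_root_.Fermat.Agent.NEB.OLD.H38.iter a' qq (m + 1) (g, h)).1 =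
      Ideal.Quotient.mk _ (C a' * C (a - a') ^ m * (C a * h - g)) ∧
    Ideal.Quotient.mk (idealI (a + a') (qq - a * a')) (_root_.Fermat.Agent.NEB.OLD.H38.iter a' qq (m + 1) (g, h)).2 =
      Ideal.Quotient.mk _ (C (a - a') ^ m * (C a * h - g)) := by
  have hX := mk_X a a' qq
  have hq := mk_C_q a a' qq
  induction m with
  | zero =>
    simp only [_root_.Fermat.Agent.NEB.OLD.H38.iter, step, map_sub, map_mul, hX, hq, pow_zero, mul_one, one_mul]
    constructor <;> ring
  | succ m ih =>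
    obtain ⟨ih1, ih2⟩ := ih
    have e : _root_.Fermat.Agent.NEB.OLD.H38.iter a' qq (m + 1 + 1) (g, h) = step a' qq (_root_.Fermat.Agent.NEB.OLD.H38.iter a' qq (m + 1) (g, h)) := rfl
    rw [e]
    simp only [step, map_sub, map_mul, map_pow, hX, hq] at ih1 ih2 ⊢
    rw [ih1, ih2]
    constructor <;> ring

end Seq

/-! ### Tracking `ad` and `bd` along powers of `U - c` -/

section Track

variable {𝒪 : Type*} [CommRing 𝒪] {A B : Type*} [AddCommGroup A] [Module 𝒪 A]
  [AddCommGroup B] [Module 𝒪 B]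
  (ad bd : B →ₗ[𝒪] A) (T : Module.End 𝒪 A) (U : Module.End 𝒪 B) (qq : 𝒪)

include ad bd T U qq in
lemma track_step (hadU : ∀ y, ad (U y) = qq • bd y) (hbdU : ∀ y, bd (U y) = T (bd y) - ad y)
    (c : 𝒪) {y : B} {z : A} {p : 𝒪[X] × 𝒪[X]}
    (h1 : ad y = aeval T p.1 z) (h2 : bd y = aeval T p.2 z) :
    ad ((U - c • (1 : Module.End 𝒪 B)) y) = aeval T (step c qq p).1 z ∧
      bd ((U - c • (1 : Module.End 𝒪 B)) y) = aeval T (step c qq p).2 z := by
  constructor
  · rw [LinearMap.sub_apply, LinearMap.smul_apply, Module.End.one_apply, map_sub, map_smul, hadU,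
      h1, h2]
    simp only [step, map_sub, map_mul, aeval_C, LinearMap.sub_apply, Module.End.mul_apply,
      Algebra.algebraMap_eq_smul_one, LinearMap.smul_apply, Module.End.one_apply]
  · rw [LinearMap.sub_apply, LinearMap.smul_apply, Module.End.one_apply, map_sub, map_smul, hbdU,
      h1, h2]
    simp only [step, map_sub, map_mul, aeval_C, aeval_X, LinearMap.sub_apply,
      Module.End.mul_apply, Algebra.algebraMap_eq_smul_one, LinearMap.smul_apply,
      Module.End.one_apply]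
    abel

include ad bd T U qq in
lemma track_iter (hadU : ∀ y, ad (U y) = qq • bd y) (hbdU : ∀ y, bd (U y) = T (bd y) - ad y)
    (c : 𝒪) {y : B} {z : A} {p : 𝒪[X] × 𝒪[X]}
    (h1 : ad y = aeval T p.1 z) (h2 : bd y = aeval T p.2 z) (m : ℕ) :
    ad (((U - c • (1 : Module.End 𝒪 B)) ^ m) y) = aeval T (_root_.Fermat.Agent.NEB.OLD.H38.iter c qq m p).1 z ∧
      bd (((U - c • (1 : Module.End 𝒪 B)) ^ m) y) = aeval T (_root_.Fermat.Agent.NEB.OLD.H38.iter c qq m p).2 z := by
  induction m with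
  | zero => exact ⟨by simpa [_root_.Fermat.Agent.NEB.OLD.H38.iter] using h1, by simpa [_root_.Fermat.Agent.NEB.OLD.H38.iter] using h2⟩
  | succ m ih =>
    rw [pow_succ', Module.End.mul_apply]
    exact track_step ad bd T U qq hadU hbdU c ih.1 ih.2

end Track

/-! ### The theorem -/

section Main

variable {𝒪 : Type*} [CommRing 𝒪] {A B : Type*} [AddCommGroup A] [Module 𝒪 A]
  [AddCommGroup B] [Module 𝒪 B]

/-- `IsUnit` of the class of a constant which is a unit. -/
lemma isUnit_mk_C (s e : 𝒪) {u : 𝒪} (hu : IsUnit u) :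
    IsUnit (Ideal.Quotient.mk (idealI s e) (C u)) :=
  (hu.map C).map _

/-- **OLDNEW-ABS** (helper14's leaf OLD-ABS), universe polymorphic form. -/
theorem oldNewAbs
    (as bs : A →ₗ[𝒪] B) (ad bd : B →ₗ[𝒪] A) (T : Module.End 𝒪 A) (U W : Module.End 𝒪 B)
    (q : ℕ) (a a' : 𝒪)
    (h1 : ∀ x, ad (as x) = (q + 1) • x) (h2 : ∀ x, bd (bs x) = (q + 1) • x)
    (h3 : ∀ x, ad (bs x) = T x) (h4 : ∀ x, bd (as x) = T x)
    (h5 : ∀ y, U y = as (bd y) - W y)
    (h6 : ∀ x, W (as x) = bs x) (h7 : ∀ x, W (bs x) = as x) (h8 : ∀ y, W (W y) = y)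
    (h9 : ∀ y, ad (W y) = bd y) (h10 : ∀ y, bd (W y) = ad y)
    (ud : IsUnit (a - a')) (ua : IsUnit (a * a - 1)) (ua' : IsUnit (a' * a' - 1))
    (uq : IsUnit (q : 𝒪))
    (nT : ∀ x : A, ∃ n : ℕ, ((T - (a + a') • (1 : Module.End 𝒪 A)) ^ n) x = 0)
    (nA : ∀ x : A, ∃ n : ℕ, ((q : 𝒪) - a * a') ^ n • x = 0) :
    (∀ x : A, ∃ v : B, (∃ n : ℕ, ((U - a • (1 : Module.End 𝒪 B)) ^ n) v = 0) ∧ ad v = x) ∧
    (∀ v : B, (∃ n : ℕ, ((U - a • (1 : Module.End 𝒪 B)) ^ n) v = 0) → ad v = 0 → v = 0) ∧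
    (∀ v : B, (∃ n : ℕ, ((U - a • (1 : Module.End 𝒪 B)) ^ n) v = 0) →
      ∃ x y : A, v = as x + bs y) := by
  -- notation
  set qq : 𝒪 := (q : 𝒪) with hqq
  set s : 𝒪 := a + a' with hs
  set e : 𝒪 := qq - a * a' with he
  have hsmul : ∀ x : A, (q + 1) • x = (qq + 1) • x := by
    intro x
    rw [hqq, ← Nat.cast_smul_eq_nsmul 𝒪 (q + 1) x]
    push_cast
    rfl
  have hX : Ideal.Quotient.mk (idealI s e) X =
      Ideal.Quotient.mk (idealI s e) (C a) + Ideal.Quotient.mk (idealI s e) (C a') :=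
    mk_X a a' qq
  have hq : Ideal.Quotient.mk (idealI s e) (C qq) =
      Ideal.Quotient.mk (idealI s e) (C a) * Ideal.Quotient.mk (idealI s e) (C a') :=
    mk_C_q a a' qq
  -- consequences of the relations
  have hadU : ∀ y, ad (U y) = qq • bd y := by
    intro y
    rw [h5, map_sub, h1, h9, hsmul, add_smul, one_smul, add_sub_cancel_right]
  have hbdU : ∀ y, bd (U y) = T (bd y) - ad y := by
    intro y
    rw [h5, map_sub, h4, h10]
  have hUas : ∀ x, U (as x) = as (T x) - bs x := by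
    intro x
    rw [h5, h4, h6]
  have hUbs : ∀ x, U (bs x) = qq • as x := by
    intro x
    rw [h5, h2, h7, hsmul, map_smul, add_smul, one_smul, add_sub_cancel_right]
  -- the key lemma, specialised
  have key : ∀ p : 𝒪[X], IsUnit (Ideal.Quotient.mk (idealI s e) p) →
      Function.Bijective (aeval T p : A → A) :=
    fun p hp => bijective_aeval_of_isUnit T nT nA hp
  have uCa : IsUnit (Ideal.Quotient.mk (idealI s e) (C a)) := by
    have h : IsUnit (Ideal.Quotient.mk (idealI s e) (C a) *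
        Ideal.Quotient.mk (idealI s e) (C a')) := by
      rw [← hq]
      exact isUnit_mk_C s e uq
    exact isUnit_of_mul_isUnit_left h
  have uCa' : IsUnit (Ideal.Quotient.mk (idealI s e) (C a')) := by
    have h : IsUnit (Ideal.Quotient.mk (idealI s e) (C a) *
        Ideal.Quotient.mk (idealI s e) (C a')) := by
      rw [← hq]
      exact isUnit_mk_C s e uq
    exact isUnit_of_mul_isUnit_right h
  -- `new ∩ gk (U - a) = 0`
  have hnew : ∀ (n : ℕ) (v : B), ad v = 0 → bd v = 0 →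
      ((U - a • (1 : Module.End 𝒪 B)) ^ n) v = 0 → v = 0 := by
    have hU : ∀ v : B, ad v = 0 → bd v = 0 → U v = -W v := by
      intro v hv1 hv2
      rw [h5, hv2, map_zero, zero_sub]
    intro n
    induction n with
    | zero => intro v _ _ hv; simpa using hv
    | succ n ih =>
      intro v hv1 hv2 hv
      have hWv1 : ad (W v) = 0 := by rw [h9, hv2]
      have hWv2 : bd (W v) = 0 := by rw [h10, hv1]
      have hUv : U v = -W v := hU v hv1 hv2
      have hUUv : U (U v) = v := by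
        rw [hUv, map_neg, hU (W v) hWv1 hWv2, h8, neg_neg]
      set v' : B := (U - a • (1 : Module.End 𝒪 B)) v with hv'
      have hv'1 : ad v' = 0 := by
        rw [hv', LinearMap.sub_apply, LinearMap.smul_apply, Module.End.one_apply, map_sub,
          map_smul, hv1, hUv, map_neg, hWv1]
        simp
      have hv'2 : bd v' = 0 := by
        rw [hv', LinearMap.sub_apply, LinearMap.smul_apply, Module.End.one_apply, map_sub,
          map_smul, hv2, hUv, map_neg, hWv2]
        simp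
      have hv'0 : v' = 0 := by
        apply ih v' hv'1 hv'2
        rw [hv', ← Module.End.mul_apply, ← pow_succ]
        exact hv
      -- `(U + a) v' = (1 - a²) v`
      have h3' : (U + a • (1 : Module.End 𝒪 B)) v' = (1 - a * a) • v := by
        rw [hv', LinearMap.add_apply, LinearMap.smul_apply, Module.End.one_apply,
          LinearMap.sub_apply, LinearMap.smul_apply, Module.End.one_apply, map_sub, map_smul,
          hUUv, sub_smul, one_smul, mul_smul, smul_sub]
        abel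
      rw [hv'0, map_zero] at h3'
      have hu : IsUnit (1 - a * a) := by
        have : 1 - a * a = -(a * a - 1) := by ring
        rw [this]
        exact ua.neg
      obtain ⟨u, hu⟩ := hu
      have := congrArg (fun t => (↑u⁻¹ : 𝒪) • t) h3'
      simp only [smul_zero, ← hu, ← mul_smul, Units.inv_mul, one_smul] at this
      exact this.symm
  -- `Δ = (q + 1)² - T²` is bijective
  have hΔ : Function.Bijective (aeval T ((C qq + 1) ^ 2 - X ^ 2) : A → A) := by
    apply key
    have e1 : Ideal.Quotient.mk (idealI s e) ((C qq + 1) ^ 2 - X ^ 2) =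
        Ideal.Quotient.mk (idealI s e) (C (a * a - 1)) *
          Ideal.Quotient.mk (idealI s e) (C (a' * a' - 1)) := by
      simp only [map_sub, map_pow, map_add, map_one, hX, hq, map_mul]
      ring
    rw [e1]
    exact (isUnit_mk_C s e ua).mul (isUnit_mk_C s e ua')
  have hΔapp : ∀ x : A, aeval T ((C qq + 1) ^ 2 - X ^ 2) x =
      (qq + 1) • (qq + 1) • x - T (T x) := by
    intro x
    have e0 : aeval T ((C qq + 1) ^ 2 - X ^ 2) =
        ((qq + 1) • (1 : Module.End 𝒪 A)) * ((qq + 1) • (1 : Module.End 𝒪 A)) - T * T := by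
      rw [map_sub, map_pow, map_pow, map_add, map_one, aeval_C, aeval_X,
        Algebra.algebraMap_eq_smul_one, sq, sq, add_smul, one_smul]
    rw [e0, LinearMap.sub_apply, Module.End.mul_apply, Module.End.mul_apply,
      LinearMap.smul_apply, LinearMap.smul_apply, Module.End.one_apply, Module.End.one_apply]
  -- the matrix `[[q+1, T],[T, q+1]]` is bijective on `A²`
  have hMinj : ∀ x y : A, (qq + 1) • x + T y = 0 → T x + (qq + 1) • y = 0 → x = 0 ∧ y = 0 := by
    intro x y e1 e2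
    constructor
    · apply hΔ.1
      rw [map_zero, hΔapp]
      have : (qq + 1) • (qq + 1) • x - T (T x) =
          (qq + 1) • ((qq + 1) • x + T y) - T (T x + (qq + 1) • y) := by
        rw [smul_add, map_add, map_smul]; abel
      rw [this, e1, e2, smul_zero, map_zero, sub_zero]
    · apply hΔ.1
      rw [map_zero, hΔapp]
      have : (qq + 1) • (qq + 1) • y - T (T y) =
          (qq + 1) • (T x + (qq + 1) • y) - T ((qq + 1) • x + T y) := by
        rw [smul_add, map_add, map_smul]; abel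
      rw [this, e1, e2, smul_zero, map_zero, sub_zero]
  have hMsurj : ∀ c c' : A, ∃ x y : A, (qq + 1) • x + T y = c ∧ T x + (qq + 1) • y = c' := by
    intro c c'
    obtain ⟨x₀, hx₀⟩ := hΔ.2 c
    obtain ⟨y₀, hy₀⟩ := hΔ.2 c'
    rw [hΔapp] at hx₀ hy₀
    refine ⟨(qq + 1) • x₀ - T y₀, (qq + 1) • y₀ - T x₀, ?_, ?_⟩
    · rw [← hx₀, smul_sub, map_sub, map_smul]; abel
    · rw [← hy₀, smul_sub, map_sub, map_smul]; abel
  have hadold : ∀ x y : A, ad (as x + bs y) = (qq + 1) • x + T y := by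
    intro x y
    rw [map_add, h1, h3, hsmul]
  have hbdold : ∀ x y : A, bd (as x + bs y) = T x + (qq + 1) • y := by
    intro x y
    rw [map_add, h4, h2, hsmul]
  -- stability of `old` and `new` under `U - a`
  have hold : ∀ (n : ℕ) (x y : A), ∃ x' y' : A,
      ((U - a • (1 : Module.End 𝒪 B)) ^ n) (as x + bs y) = as x' + bs y' := by
    intro n
    induction n with
    | zero => intro x y; exact ⟨x, y, by simp⟩
    | succ n ih =>
      intro x y
      obtain ⟨x', y', h⟩ := ih x y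
      refine ⟨T x' + qq • y' - a • x', -x' - a • y', ?_⟩
      rw [pow_succ', Module.End.mul_apply, h, LinearMap.sub_apply, LinearMap.smul_apply,
        Module.End.one_apply, map_add, hUas, hUbs]
      simp only [map_add, map_sub, map_smul, map_neg, smul_add]
      abel
  have hnewst : ∀ (n : ℕ) (v : B), ad v = 0 → bd v = 0 →
      ad (((U - a • (1 : Module.End 𝒪 B)) ^ n) v) = 0 ∧
        bd (((U - a • (1 : Module.End 𝒪 B)) ^ n) v) = 0 := by
    intro n
    induction n with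
    | zero => intro v hv1 hv2; exact ⟨by simpa using hv1, by simpa using hv2⟩
    | succ n ih =>
      intro v hv1 hv2
      obtain ⟨i1, i2⟩ := ih v hv1 hv2
      rw [pow_succ', Module.End.mul_apply, LinearMap.sub_apply, LinearMap.smul_apply,
        Module.End.one_apply, map_sub, map_sub, map_smul, map_smul, hadU, hbdU, i1, i2]
      simp
  -- (3)
  have part3 : ∀ v : B, (∃ n : ℕ, ((U - a • (1 : Module.End 𝒪 B)) ^ n) v = 0) →
      ∃ x y : A, v = as x + bs y := by
    rintro v ⟨n, hn⟩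
    obtain ⟨x, y, hx, hy⟩ := hMsurj (ad v) (bd v)
    refine ⟨x, y, ?_⟩
    set vn : B := v - (as x + bs y) with hvn
    have hvn1 : ad vn = 0 := by rw [hvn, map_sub, hadold, hx, sub_self]
    have hvn2 : bd vn = 0 := by rw [hvn, map_sub, hbdold, hy, sub_self]
    obtain ⟨x', y', h'⟩ := hold n x y
    have hsum : ((U - a • (1 : Module.End 𝒪 B)) ^ n) vn = -(as x' + bs y') := by
      rw [hvn, map_sub, hn, h', zero_sub]
    obtain ⟨k1, k2⟩ := hnewst n vn hvn1 hvn2
    rw [hsum, map_neg, neg_eq_zero] at k1 k2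
    rw [hadold] at k1
    rw [hbdold] at k2
    obtain ⟨rfl, rfl⟩ := hMinj x' y' k1 k2
    have hvn0 : vn = 0 := by
      apply hnew n vn hvn1 hvn2
      rw [hsum]; simp
    exact sub_eq_zero.1 hvn0
  -- (2)
  have part2 : ∀ v : B, (∃ n : ℕ, ((U - a • (1 : Module.End 𝒪 B)) ^ n) v = 0) → ad v = 0 →
      v = 0 := by
    rintro v ⟨n, hn⟩ hv
    rcases n with _ | m
    · simpa using hn
    have hbd : bd v = 0 := by
      have ht := (track_iter ad bd T U qq hadU hbdU a (y := v) (z := bd v) (p := (0, 1))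
        (by simpa using hv) (by simp) (m + 1)).1
      rw [hn, map_zero] at ht
      -- the polynomial is a unit modulo `I`
      have hI : idealI (a' + a) (qq - a' * a) = idealI s e := by
        rw [hs, he, add_comm a' a, mul_comm a' a]
      have hc := (iter_congr a' a qq 0 1 m).1
      rw [hI] at hc
      have hunit : IsUnit (Ideal.Quotient.mk (idealI s e) (_root_.Fermat.Agent.NEB.OLD.H38.iter a qq (m + 1) (0, 1)).1) := by
        rw [hc]
        have e2 : C a * C (a' - a) ^ m * (C a' * 1 - 0) = C a * C (a' - a) ^ m * C a' := by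
          ring
        rw [e2, map_mul, map_mul, map_pow]
        have hd' : IsUnit (a' - a) := by
          have : a' - a = -(a - a') := by ring
          rw [this]; exact ud.neg
        exact (uCa.mul ((isUnit_mk_C s e hd').pow m)).mul uCa'
      apply (key _ hunit).1
      rw [map_zero, ← ht]
    exact hnew (m + 1) v hv hbd hn
  refine ⟨?_, part2, part3⟩
  -- (1)
  intro x
  obtain ⟨n₁, hn₁⟩ := nT x
  obtain ⟨n₂, hn₂⟩ := nA x
  set m : ℕ := n₁ + n₂ with hm
  set G : 𝒪[X] := (_root_.Fermat.Agent.NEB.OLD.H38.iter a' qq (m + 1) (C qq + 1, X)).1 with hG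
  have hGunit : IsUnit (Ideal.Quotient.mk (idealI s e) G) := by
    rw [hG, (iter_congr a a' qq (C qq + 1) X m).1]
    have e1 : Ideal.Quotient.mk (idealI s e) (C a' * C (a - a') ^ m * (C a * X - (C qq + 1))) =
        Ideal.Quotient.mk (idealI s e) (C a') * Ideal.Quotient.mk (idealI s e) (C (a - a')) ^ m *
          Ideal.Quotient.mk (idealI s e) (C (a * a - 1)) := by
      simp only [map_sub, map_pow, map_add, map_one, hX, hq, map_mul]
      ring
    rw [e1]
    exact (uCa'.mul ((isUnit_mk_C s e ud).pow m)).mul (isUnit_mk_C s e ua)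
  have hGb := key G hGunit
  obtain ⟨z, hz⟩ := hGb.2 x
  -- nilpotency orders of `z`
  have hz₁ : ((T - s • (1 : Module.End 𝒪 A)) ^ n₁) z = 0 := by
    apply hGb.1
    rw [map_zero]
    have hc : Commute (aeval T G) ((T - s • (1 : Module.End 𝒪 A)) ^ n₁) := by
      have : (T - s • (1 : Module.End 𝒪 A)) ^ n₁ = aeval T ((X - C s) ^ n₁) := by
        rw [map_pow, map_sub, aeval_X, aeval_C, Algebra.algebraMap_eq_smul_one]
      rw [this]
      exact aeval_commute T _ _
    rw [← Module.End.mul_apply, hc.eq, Module.End.mul_apply, hz, hn₁]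
  have hz₂ : e ^ n₂ • z = 0 := by
    apply hGb.1
    rw [map_zero, map_smul, hz, hn₂]
  refine ⟨((U - a' • (1 : Module.End 𝒪 B)) ^ (m + 1)) (as z), ⟨m + 1, ?_⟩, ?_⟩
  · -- `(U - a)^(m+1) (U - a')^(m+1) (as z) = 0`
    set χ : Module.End 𝒪 B := U * U - s • U + qq • (1 : Module.End 𝒪 B) with hχ
    have hprod : (U - a • (1 : Module.End 𝒪 B)) * (U - a' • (1 : Module.End 𝒪 B)) =
        χ + (-e) • (1 : Module.End 𝒪 B) := by
      ext y
      simp only [hχ, hs, he, Module.End.mul_apply, LinearMap.add_apply, LinearMap.sub_apply,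
        LinearMap.smul_apply, Module.End.one_apply, map_sub, map_smul]
      module
    have haev : ∀ c : 𝒪, aeval U (X - C c) = U - c • (1 : Module.End 𝒪 B) := by
      intro c
      rw [map_sub, aeval_X, aeval_C, Algebra.algebraMap_eq_smul_one]
    have hcomm : Commute (U - a • (1 : Module.End 𝒪 B)) (U - a' • (1 : Module.End 𝒪 B)) := by
      rw [← haev a, ← haev a']
      exact aeval_commute U _ _
    rw [← Module.End.mul_apply, ← hcomm.mul_pow, hprod]
    -- `χ^n (as z') = U^n (as ((T - s)^n z'))`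
    have hχas : ∀ z' : A, χ (as z') = U (as ((T - s • (1 : Module.End 𝒪 A)) z')) := by
      intro z'
      rw [hχ]
      simp only [LinearMap.add_apply, LinearMap.sub_apply, LinearMap.smul_apply,
        Module.End.mul_apply, Module.End.one_apply, map_sub, map_smul]
      rw [hUas z', map_sub, hUbs]
      abel
    have hχU : Commute χ U := by
      rw [hχ]
      apply Commute.add_left
      · apply Commute.sub_left
        · exact (Commute.refl U).mul_left (Commute.refl U)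
        · show s • U * U = U * (s • U)
          simp
      · show qq • (1 : Module.End 𝒪 B) * U = U * (qq • (1 : Module.End 𝒪 B))
        simp
    have hχpow : ∀ (n : ℕ) (z' : A),
        (χ ^ n) (as z') = (U ^ n) (as (((T - s • (1 : Module.End 𝒪 A)) ^ n) z')) := by
      intro n
      induction n with
      | zero => intro z'; simp
      | succ n ih =>
        intro z'
        rw [pow_succ, Module.End.mul_apply, hχas, ← Module.End.mul_apply,
          ((hχU.pow_left n)).eq, Module.End.mul_apply, ih, ← Module.End.mul_apply, ← pow_succ',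
          ← Module.End.mul_apply, ← pow_succ]
    have k1 : (χ ^ n₁) (as z) = 0 := by
      rw [hχpow, hz₁, map_zero, map_zero]
    have k2 : (((-e) • (1 : Module.End 𝒪 B)) ^ n₂) (as z) = 0 := by
      rw [_root_.smul_pow, one_pow, LinearMap.smul_apply, Module.End.one_apply, neg_pow,
        mul_smul, ← map_smul, hz₂, map_zero, smul_zero]
    have hcc : Commute χ ((-e) • (1 : Module.End 𝒪 B)) := by
      show χ * ((-e) • (1 : Module.End 𝒪 B)) = (-e) • (1 : Module.End 𝒪 B) * χ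
      simp
    have k3 : ((χ + (-e) • (1 : Module.End 𝒪 B)) ^ m) (as z) = 0 :=
      add_pow_apply_eq_zero hcc k1 k2
    rw [pow_succ', Module.End.mul_apply, k3, map_zero]
  · -- `ad v = G(T) z = x`
    have ht := (track_iter ad bd T U qq hadU hbdU a' (y := as z) (z := z) (p := (C qq + 1, X))
      (by
        rw [h1, hsmul]
        simp [Algebra.algebraMap_eq_smul_one, add_smul])
      (by rw [h4]; simp) (m + 1)).1
    rw [ht, ← hG, hz]

end Main

end Fermat.Agent.NEB.OLD.H38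

end
-- ==== END Fermat.Agent.NEB.OLD.H38_OldAbsCore
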