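-- GENERATED (merged mirror, NOTES/tools/trim/merge3_helper67.py): 20 modules of the originals, bodies verbatim.
import Fermat.Statements.S31
import Fermat.Statements.S32
import Mathlib
import Fermat.Agent.Zm.S36_L01_000
import Fermat.Agent.Zm.S35_L02_001
import Fermat.Agent.Zm.S35_L01_001
import Fermat.Agent.R.H91_Lucas
import Fermat.Agent.Zm.S35_L21_000
import Fermat.Agent.Zm.S33_L04_001
import Fermat.Agent.Zm.S33_L12_000
import Fermat.Agent.Zm.S35_L08_000
import Fermat.Agent.Zm.S33_L02_003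
import Fermat.Agent.Zm.S33_L03_003
import Fermat.Agent.Zm.S35_L18_000
import Fermat.Agent.Zm.S35_L02_000
import Fermat.Agent.Zm.S35_L06_002
import Fermat.Agent.Zm.S35_L03_005
import Fermat.Agent.Zm.S35_L24_000
import Fermat.Agent.Zm.S36_L18_000
import Fermat.Agent.Zm.S36_L04_002
import Fermat.Agent.Zm.S48_L02_001
import Fermat.Agent.Zm.S44_L07_000
import Fermat.Agent.Zm.S33_L02_000
import Fermat.Agent.Zm.S15_L02_000
import Fermat.Agent.Zm.S35_L11_000
import Fermat.Agent.Zm.S12_L02_000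
import Fermat.Agent.Zm.S36_L02_002
import Fermat.Agent.Lib.TorsionGen.Count
import Fermat.Agent.Zm.S35_L01_003
import Fermat.Agent.Zm.S35_L16_001
import Fermat.Agent.Zm.S56_L05_000

-- ==== BEGIN Fermat.Agent.NEB.OLD.H66_SquareW
section

/-!
# NEB OLDNEW, leaf OLD-SQW (helper66): the non-Galois square with an involution

`stmt_SquareW : Stmt_SquareW`: in a commutative square `β' ∘ α = α' ∘ β` with
`[F' : βF] = [F'' : β'F'] + 1`, `[F'' : β'F'] ≥ 2`, `F'' = α'(F')·β'(F')` and `w ∘ β = α`,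
`α (Norm_β x) = Norm_{β'} (α' x) · w x`.

Proof: `τ = (α', w) : F' → F'' × F'` maps a basis of `F'` over `βF` to a basis of the
`F'`-algebra `F'' × F'` (structure map `(β', id)`), and the norm of a product algebra is the
product of the norms.
-/

set_option autoImplicit false
set_option linter.style.haveILetI false
set_option linter.unusedSectionVars false

noncomputable section

namespace Fermat.Agent.NEB.OLD.H66

open AlgebraicCurve Fermat.Agent.NEB.H14

/-- A commutative square which maps a basis to a basis commutes with the norms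
(the target is any commutative ring). -/
theorem norm_map_of_basis_ring {K K' M Z : Type*} [Field K] [Field K'] [Field M] [CommRing Z]
    [Algebra K K'] [Algebra M Z] (σ : K →+* M) (τ : K' →+* Z)
    (hsq : ∀ a : K, τ (algebraMap K K' a) = algebraMap M Z (σ a))
    {ι : Type*} [Fintype ι] [DecidableEq ι] (b : Module.Basis ι K K') (b' : Module.Basis ι M Z)
    (hb : ∀ i, τ (b i) = b' i) (x : K') :
    σ (Algebra.norm K x) = Algebra.norm M (τ x) := by
  rw [Algebra.norm_eq_matrix_det b, Algebra.norm_eq_matrix_det b', RingHom.map_det]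
  congr 1
  ext i j
  rw [RingHom.mapMatrix_apply, Matrix.map_apply, Algebra.leftMulMatrix_eq_repr_mul,
    Algebra.leftMulMatrix_eq_repr_mul]
  have h1 : x * b j = ∑ k, b.repr (x * b j) k • b k := (b.sum_repr (x * b j)).symm
  have h2 : τ x * b' j = ∑ k, σ (b.repr (x * b j) k) • b' k := by
    rw [← hb j, ← map_mul, h1, map_sum]
    refine Finset.sum_congr rfl fun k _ => ?_
    rw [Algebra.smul_def, map_mul, hsq, hb, ← h1, Algebra.smul_def]
  rw [h2, map_sum, Finset.sum_apply']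
  simp only [map_smul, Module.Basis.repr_self, Finsupp.smul_apply, Finsupp.single_apply,
    smul_eq_mul, mul_ite, mul_one, mul_zero]
  rw [Finset.sum_ite_eq' Finset.univ i]
  simp

/-- The norm of a product algebra is the product of the norms. -/
theorem norm_prod_apply {R S T : Type*} [CommRing R] [CommRing S] [CommRing T]
    [Algebra R S] [Algebra R T]
    [Module.Free R S] [Module.Free R T] [Module.Finite R S] [Module.Finite R T]
    (x : S × T) : Algebra.norm R x = Algebra.norm R x.1 * Algebra.norm R x.2 := by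
  have h : (Algebra.lmul R (S × T)) x
      = LinearMap.prodMap (Algebra.lmul R S x.1) (Algebra.lmul R T x.2) := by
    apply LinearMap.ext
    intro y
    rfl
  rw [Algebra.norm_apply, h, LinearMap.det_prodMap]
  rfl

/-- **SQUARE-W, abstract form**: `B / A` and `C / B` finite field extensions with
`[B : A] = [C : B] + 1`, `[C : B] ≥ 2`; `σ : A → B`, `α' : B → C`, `w : B → B` ring homomorphisms
with `algebraMap B C ∘ σ = α' ∘ algebraMap A B`, `w ∘ algebraMap A B = σ` and
`C = α'(B) · B`.  Then `σ (N_{B/A} x) = N_{C/B} (α' x) · w x`. -/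
theorem squareW_abs {A B C : Type*} [Field A] [Field B] [Field C] [Algebra A B] [Algebra B C]
    [Module.Finite A B] [Module.Finite B C]
    (σ : A →+* B) (α' : B →+* C) (w : B →+* B)
    (h1 : ∀ a, algebraMap B C (σ a) = α' (algebraMap A B a))
    (h2 : ∀ a, w (algebraMap A B a) = σ a)
    (hdeg : Module.finrank A B = Module.finrank B C + 1)
    (hn : 2 ≤ Module.finrank B C)
    (hgen : Subfield.closure (Set.range α' ∪ Set.range (algebraMap B C)) = ⊤)
    (x : B) : σ (Algebra.norm A x) = Algebra.norm B (α' x) * w x := by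
  classical
  let τ : B →+* C × B := α'.prod w
  have hτ : ∀ a, τ (algebraMap A B a) = algebraMap B (C × B) (σ a) := by
    intro a
    refine Prod.ext ?_ ?_
    · show α' (algebraMap A B a) = algebraMap B C (σ a)
      exact (h1 a).symm
    · show w (algebraMap A B a) = σ a
      exact h2 a
  let S : Subalgebra B (C × B) := Algebra.adjoin B (Set.range τ)
  have hτS : ∀ y, τ y ∈ S := fun y => Algebra.subset_adjoin ⟨y, rfl⟩
  -- Step 1: the first projection of `S` is onto
  have hfst : ∀ c : C, ∃ s ∈ S, (s : C × B).1 = c := by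
    let T : Subalgebra B C := S.map (AlgHom.fst B C B)
    have hTinv : ∀ c ∈ T, c⁻¹ ∈ T := by
      intro c hc
      exact T.inv_mem_of_algebraic (x := ⟨c, hc⟩) (Algebra.IsAlgebraic.isAlgebraic c)
    let Tf : Subfield C := { T.toSubring with inv_mem' := hTinv }
    have hle : Subfield.closure (Set.range α' ∪ Set.range (algebraMap B C)) ≤ Tf := by
      rw [Subfield.closure_le]
      rintro c (⟨y, rfl⟩ | ⟨y, rfl⟩)
      · exact ⟨τ y, hτS y, rfl⟩
      · exact T.algebraMap_mem y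
    intro c
    have hc : c ∈ Tf := hle (hgen ▸ Subfield.mem_top c)
    obtain ⟨s, hs, hsc⟩ := hc
    exact ⟨s, hs, hsc⟩
  -- Step 2: some `α' x₀` is not `algebraMap B C (w x₀)`
  have hx₀ : ∃ x₀ : B, α' x₀ ≠ algebraMap B C (w x₀) := by
    by_contra hcon0
    have hcon : ∀ y, α' y = algebraMap B C (w y) := fun y =>
      by_contra fun h => hcon0 ⟨y, h⟩
    have hsurj : Function.Surjective (algebraMap B C) := by
      have hle : Subfield.closure (Set.range α' ∪ Set.range (algebraMap B C))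
          ≤ (algebraMap B C).fieldRange := by
        rw [Subfield.closure_le]
        rintro c (⟨y, rfl⟩ | ⟨y, rfl⟩)
        · exact ⟨w y, (hcon y).symm⟩
        · exact ⟨y, rfl⟩
      intro c
      have hc : c ∈ (algebraMap B C).fieldRange := hle (hgen ▸ Subfield.mem_top c)
      exact hc
    have h1' : Module.finrank B C = 1 := by
      refine finrank_eq_one (1 : C) one_ne_zero fun c => ?_
      obtain ⟨y, hy⟩ := hsurj c
      exact ⟨y, by rw [Algebra.smul_def, mul_one, hy]⟩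
    omega
  obtain ⟨x₀, hx₀⟩ := hx₀
  -- Step 3: `(1, 0) ∈ S`
  have he : ((1 : C), (0 : B)) ∈ S := by
    have ha0 : α' x₀ - algebraMap B C (w x₀) ≠ 0 := sub_ne_zero.mpr hx₀
    have hs0 : ((α' x₀ - algebraMap B C (w x₀), 0) : C × B) ∈ S := by
      have : ((α' x₀ - algebraMap B C (w x₀), 0) : C × B)
          = τ x₀ - algebraMap B (C × B) (w x₀) := by
        refine Prod.ext ?_ ?_
        · rfl
        · show (0 : B) = w x₀ - w x₀
          simp
      rw [this]
      exact S.sub_mem (hτS x₀) (S.algebraMap_mem _)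
    obtain ⟨s₁, hs₁, hs₁a⟩ := hfst (α' x₀ - algebraMap B C (w x₀))⁻¹
    have : ((1 : C), (0 : B)) = s₁ * (α' x₀ - algebraMap B C (w x₀), 0) := by
      refine Prod.ext ?_ ?_
      · show (1 : C) = s₁.1 * (α' x₀ - algebraMap B C (w x₀))
        rw [hs₁a, inv_mul_cancel₀ ha0]
      · show (0 : B) = s₁.2 * 0
        simp
    rw [this]
    exact S.mul_mem hs₁ hs0
  -- Step 4: `S = ⊤`
  have hS : ∀ z : C × B, z ∈ S := by
    intro z
    obtain ⟨s, hs, hsc⟩ := hfst z.1
    have : z = s * ((1 : C), (0 : B))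
        + algebraMap B (C × B) z.2 * (1 - ((1 : C), (0 : B))) := by
      refine Prod.ext ?_ ?_
      · show z.1 = s.1 * 1 + algebraMap B C z.2 * (1 - 1)
        simp [hsc]
      · show z.2 = s.2 * 0 + z.2 * (1 - 0)
        simp
    rw [this]
    exact S.add_mem (S.mul_mem hs he) (S.mul_mem (S.algebraMap_mem _) (S.sub_mem S.one_mem he))
  -- Step 5: the images of a basis span
  let b := Module.finBasis A B
  have hspan : ⊤ ≤ Submodule.span B (Set.range (fun i => τ (b i))) := by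
    intro z _
    have hz : z ∈ Subalgebra.toSubmodule (Algebra.adjoin B (Set.range τ)) := hS z
    rw [Algebra.adjoin_eq_span] at hz
    refine Submodule.span_le.mpr ?_ hz
    intro y hy
    have hy' : y ∈ Set.range τ := by
      have hcl : Submonoid.closure (Set.range τ) ≤ MonoidHom.mrange (τ : B →* C × B) := by
        rw [Submonoid.closure_le]
        rintro _ ⟨u, rfl⟩
        exact ⟨u, rfl⟩
      obtain ⟨u, hu⟩ := hcl hy
      exact ⟨u, hu⟩
    obtain ⟨u, rfl⟩ := hy'
    have hu : u = ∑ i, b.repr u i • b i := (b.sum_repr u).symm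
    have hτu : τ u = ∑ i, σ (b.repr u i) • τ (b i) := by
      conv_lhs => rw [hu]
      rw [map_sum]
      refine Finset.sum_congr rfl fun i _ => ?_
      rw [Algebra.smul_def, map_mul, hτ, Algebra.smul_def]
    rw [SetLike.mem_coe, hτu]
    exact Submodule.sum_mem _ fun i _ => Submodule.smul_mem _ _ (Submodule.subset_span ⟨i, rfl⟩)
  have hcard : Fintype.card (Fin (Module.finrank A B)) = Module.finrank B (C × B) := by
    rw [Fintype.card_fin, Module.finrank_prod, Module.finrank_self, hdeg]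
  let b' : Module.Basis (Fin (Module.finrank A B)) B (C × B) :=
    basisOfTopLeSpanOfCardEqFinrank (fun i => τ (b i)) hspan hcard
  have hb' : ∀ i, τ (b i) = b' i := by
    intro i
    simp only [b', coe_basisOfTopLeSpanOfCardEqFinrank]
  have key := norm_map_of_basis_ring σ τ hτ b b' hb' x
  rw [key, norm_prod_apply]
  show Algebra.norm B (α' x) * Algebra.norm B (w x) = Algebra.norm B (α' x) * w x
  rw [Algebra.norm_self]
  rfl

/-- **OLD-SQW** (helper66). -/
theorem stmt_SquareW : Stmt_SquareW := by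
  intro K F F' F'' _ _ _ _ _ _ _ α β α' β' w hsq hw hfin hfin' hdeg hn hgen x
  letI : Algebra F F' := algebraAlong β
  letI : Algebra F' F'' := algebraAlong β'
  haveI : Module.Finite F F' := hfin
  haveI : Module.Finite F' F'' := hfin'
  have h1 : ∀ a, algebraMap F' F'' ((α : F →+* F') a) = (α' : F' →+* F'') (algebraMap F F' a) :=
    fun a => DFunLike.congr_fun hsq a
  have h2 : ∀ a, (w : F' →+* F') (algebraMap F F' a) = (α : F →+* F') a := fun a => hw a
  exact squareW_abs (α : F →+* F') (α' : F' →+* F'') (w : F' →+* F') h1 h2 hdeg hn hgen x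

end Fermat.Agent.NEB.OLD.H66

end
end
-- ==== END Fermat.Agent.NEB.OLD.H66_SquareW

-- ==== BEGIN Fermat.Agent.R.H25_Carayol
section

/-!
# Cluster R, leaf L7: Carayol's theorem in dimension 2 (helper25)

Two representations `ρ₁ ρ₂ : G → GL_2(A)` over a local ring `A` with the same trace, one of
which is residually absolutely irreducible, are conjugate.

* `exists_conj_of_trace_eq` : matrix form, for an arbitrary monoid `G` and a local ring `A`:
  if four of the matrices `M₁ (g p)` form a basis of `M_2(A)` and `tr M₁ = tr M₂` then there is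
  an invertible `P` with `M₂ σ * P = P * M₁ σ` for all `σ`.
* `isUnit_det_flat_of_trace_eq` : the Gram determinant argument (any commutative ring): if
  four matrices `X₁ p` form a basis and `tr (X₁ p * X₁ q) = tr (X₂ p * X₂ q)`, the `X₂ p` form
  a basis, too.
* `isEquiv_of_trace_eq` : `GaloisRepAdic` form.

The proof is elementary linear algebra: the kernels of the two linear extensions
`A[G] → M_2(A)` coincide (both are the radical of `(x, y) ↦ tr (x y)`), so the images
`e i j` under the second one of lifts of the matrix units satisfy the relations of matrix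
units; `P = e 0 0 * E_{j 0} + e 1 0 * E_{j 1}` intertwines and
`(E_{0 j'} * e 0 0 + E_{1 j'} * e 0 1) * P = (e 0 0) j' j • 1`; finally some entry of `e 0 0`
is a unit since `A` is local and `1 = e 0 0 + e 1 0 * e 0 0 * e 0 1`.
-/

set_option autoImplicit false

namespace Fermat.Agent.R.H25

open Matrix Fermat.Agent.S53.Schur

section Abstract

variable {A : Type*} [CommRing A]

/-- The trace pairing on `M_2(A)` is nondegenerate. -/
theorem eq_zero_of_forall_trace_mul (Z : Matrix (Fin 2) (Fin 2) A)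
    (h : ∀ Y : Matrix (Fin 2) (Fin 2) A, (Z * Y).trace = 0) : Z = 0 := by
  ext i j
  have := h (Matrix.single j i (1 : A))
  rw [Matrix.trace_mul_single] at this
  simpa using this

/-- If all entries of `Y` lie in an ideal, so do those of `X * Y * Z`. -/
theorem mul_mul_apply_mem (I : Ideal A) (X Y Z : Matrix (Fin 2) (Fin 2) A)
    (hY : ∀ i j, Y i j ∈ I) (i j : Fin 2) : (X * Y * Z) i j ∈ I := by
  simp only [Matrix.mul_apply]
  exact Ideal.sum_mem _ fun k _ => Ideal.mul_mem_right _ _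
    (Ideal.sum_mem _ fun l _ => Ideal.mul_mem_left _ _ (hY l k))

variable {G : Type*} [Monoid G]

/-- The linear extension `A[G] → M_2(A)` of a matrix representation. -/
noncomputable def linExt (M : G →* Matrix (Fin 2) (Fin 2) A) :
    MonoidAlgebra A G →ₐ[A] Matrix (Fin 2) (Fin 2) A :=
  MonoidAlgebra.lift A (Matrix (Fin 2) (Fin 2) A) G M

theorem linExt_single (M : G →* Matrix (Fin 2) (Fin 2) A) (g : G) (a : A) :
    linExt M (MonoidAlgebra.single g a) = a • M g :=
  MonoidAlgebra.lift_single M g a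

theorem trace_linExt_eq (M₁ M₂ : G →* Matrix (Fin 2) (Fin 2) A)
    (htr : ∀ σ, (M₁ σ).trace = (M₂ σ).trace) (x : MonoidAlgebra A G) :
    (linExt M₁ x).trace = (linExt M₂ x).trace := by
  induction x using MonoidAlgebra.induction_linear with
  | zero => rw [map_zero, map_zero]
  | add x y hx hy => rw [map_add, map_add, Matrix.trace_add, Matrix.trace_add, hx, hy]
  | single g a => rw [linExt_single, linExt_single, Matrix.trace_smul, Matrix.trace_smul, htr]

theorem linExt_surjective (M : G →* Matrix (Fin 2) (Fin 2) A) (g : Fin 2 × Fin 2 → G)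
    (hg : IsUnit (flat fun p => M (g p)).det) : Function.Surjective (linExt M) := by
  intro Y
  obtain ⟨c, rfl⟩ := exists_eq_sum_of_isUnit_det (fun p => M (g p)) hg Y
  refine ⟨∑ p, MonoidAlgebra.single (g p) (c p), ?_⟩
  rw [map_sum]
  exact Finset.sum_congr rfl fun p _ => linExt_single M (g p) (c p)

/-- The kernel of the linear extension is determined by the trace. -/
theorem linExt_eq_zero (M₁ M₂ : G →* Matrix (Fin 2) (Fin 2) A)
    (htr : ∀ σ, (M₁ σ).trace = (M₂ σ).trace) (hs : Function.Surjective (linExt M₂))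
    (x : MonoidAlgebra A G) (hx : linExt M₁ x = 0) : linExt M₂ x = 0 := by
  apply eq_zero_of_forall_trace_mul
  intro Y
  obtain ⟨y, rfl⟩ := hs Y
  rw [← map_mul, ← trace_linExt_eq M₁ M₂ htr, map_mul, hx, zero_mul, Matrix.trace_zero]

theorem single_add_single_eq_one :
    (Matrix.single (0 : Fin 2) (0 : Fin 2) (1 : A)) + Matrix.single (1 : Fin 2) (1 : Fin 2) (1 : A)
      = 1 := by
  ext i j
  fin_cases i <;> fin_cases j <;> simp

/-- **Carayol's theorem, matrix form.** -/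
theorem exists_conj_of_surjective [IsLocalRing A] (M₁ M₂ : G →* Matrix (Fin 2) (Fin 2) A)
    (htr : ∀ σ, (M₁ σ).trace = (M₂ σ).trace)
    (hs₁ : Function.Surjective (linExt M₁)) (hs₂ : Function.Surjective (linExt M₂)) :
    ∃ P : Matrix (Fin 2) (Fin 2) A, IsUnit P.det ∧ ∀ σ, M₂ σ * P = P * M₁ σ := by
  classical
  choose x hx using fun (i j : Fin 2) => hs₁ (Matrix.single i j (1 : A))
  have key := linExt_eq_zero M₁ M₂ htr hs₂
  set e : Fin 2 → Fin 2 → Matrix (Fin 2) (Fin 2) A := fun i j => linExt M₂ (x i j) with he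
  -- the relations of matrix units
  have hmul : ∀ i j k l, e i j * e k l = if j = k then e i l else 0 := by
    intro i j k l
    have h := key (x i j * x k l - if j = k then x i l else 0) (by
      rw [map_sub, map_mul, hx, hx]
      split_ifs with h
      · subst h
        rw [hx, Matrix.single_mul_single_same, mul_one, sub_self]
      · rw [map_zero, sub_zero, Matrix.single_mul_single_of_ne (c := (1 : A)) i j k h (1 : A)])
    rw [map_sub, map_mul, sub_eq_zero] at h
    simp only [he]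
    rw [h]
    split_ifs
    · rfl
    · rw [map_zero]
  have hone : e 0 0 + e 1 1 = 1 := by
    have h := key (x 0 0 + x 1 1 - 1) (by
      rw [map_sub, map_add, hx, hx, map_one, single_add_single_eq_one, sub_self])
    rw [map_sub, map_add, map_one, sub_eq_zero] at h
    exact h
  have hdecomp : ∀ y, linExt M₂ y = ∑ i, ∑ j, (linExt M₁ y) i j • e i j := by
    intro y
    have h := key (y - ∑ i, ∑ j, (linExt M₁ y) i j • x i j) (by
      rw [map_sub, sub_eq_zero, map_sum]
      conv_lhs => rw [Matrix.matrix_eq_sum_single (linExt M₁ y)]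
      refine Finset.sum_congr rfl fun i _ => ?_
      rw [map_sum]
      refine Finset.sum_congr rfl fun j _ => ?_
      rw [map_smul, hx, Matrix.smul_single, smul_eq_mul, mul_one])
    rw [map_sub, sub_eq_zero, map_sum] at h
    rw [h]
    refine Finset.sum_congr rfl fun i _ => ?_
    rw [map_sum]
    refine Finset.sum_congr rfl fun j _ => ?_
    rw [map_smul]
  -- some entry of `e 0 0` is a unit
  have hunit : ∃ j' j, IsUnit (e 0 0 j' j) := by
    by_contra hcon
    push Not at hcon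
    have hm : ∀ j' j, e 0 0 j' j ∈ IsLocalRing.maximalIdeal A := fun j' j =>
      (IsLocalRing.mem_maximalIdeal _).2 (hcon j' j)
    have h11 : e 1 1 = e 1 0 * e 0 0 * e 0 1 := by
      rw [hmul, if_pos rfl, hmul, if_pos rfl]
    have h1 : (1 : Matrix (Fin 2) (Fin 2) A) 0 0 ∈ IsLocalRing.maximalIdeal A := by
      rw [← hone, h11, Matrix.add_apply]
      exact Ideal.add_mem _ (hm 0 0) (mul_mul_apply_mem _ _ _ _ hm 0 0)
    rw [Matrix.one_apply_eq] at h1
    exact (IsLocalRing.maximalIdeal.isMaximal A).ne_top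
      ((Ideal.eq_top_iff_one _).2 h1)
  obtain ⟨j', j, hu⟩ := hunit
  set P : Matrix (Fin 2) (Fin 2) A :=
    e 0 0 * Matrix.single j 0 1 + e 1 0 * Matrix.single j 1 1 with hP
  set Q : Matrix (Fin 2) (Fin 2) A :=
    Matrix.single 0 j' 1 * e 0 0 + Matrix.single 1 j' 1 * e 0 1 with hQ
  have hQP : Q * P = (e 0 0 j' j) • (1 : Matrix (Fin 2) (Fin 2) A) := by
    have e1 : Matrix.single (0 : Fin 2) j' (1 : A) * e 0 0 * (e 0 0 * Matrix.single j 0 1)
        = Matrix.single 0 0 (e 0 0 j' j) := by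
      rw [← mul_assoc, mul_assoc (Matrix.single (0 : Fin 2) j' (1 : A)), hmul, if_pos rfl,
        Matrix.single_mul_mul_single, one_mul, mul_one]
    have e2 : Matrix.single (0 : Fin 2) j' (1 : A) * e 0 0 * (e 1 0 * Matrix.single j 1 1)
        = 0 := by
      rw [← mul_assoc, mul_assoc (Matrix.single (0 : Fin 2) j' (1 : A)), hmul,
        if_neg (by decide), mul_zero, zero_mul]
    have e3 : Matrix.single (1 : Fin 2) j' (1 : A) * e 0 1 * (e 0 0 * Matrix.single j 0 1)
        = 0 := by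
      rw [← mul_assoc, mul_assoc (Matrix.single (1 : Fin 2) j' (1 : A)), hmul,
        if_neg (by decide), mul_zero, zero_mul]
    have e4 : Matrix.single (1 : Fin 2) j' (1 : A) * e 0 1 * (e 1 0 * Matrix.single j 1 1)
        = Matrix.single 1 1 (e 0 0 j' j) := by
      rw [← mul_assoc, mul_assoc (Matrix.single (1 : Fin 2) j' (1 : A)), hmul, if_pos rfl,
        Matrix.single_mul_mul_single, one_mul, mul_one]
    rw [hQ, hP, add_mul, mul_add, mul_add, e1, e2, e3, e4, add_zero, zero_add,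
      ← single_add_single_eq_one, smul_add, Matrix.smul_single, Matrix.smul_single,
      smul_eq_mul, mul_one]
  have hPdet : IsUnit P.det := by
    have h := congrArg Matrix.det hQP
    rw [Matrix.det_mul, Matrix.det_smul, Matrix.det_one, mul_one, Fintype.card_fin] at h
    exact isUnit_of_mul_isUnit_right (h ▸ hu.pow 2)
  have hint : ∀ k l, e k l * P = P * Matrix.single k l 1 := by
    intro k l
    have lhs : e k l * P = e k 0 * Matrix.single j l 1 := by
      rw [hP, mul_add, ← mul_assoc, ← mul_assoc, hmul, hmul]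
      fin_cases l
      · simp
      · simp
    have rhs : P * Matrix.single k l 1 = e k 0 * Matrix.single j l 1 := by
      rw [hP, add_mul, mul_assoc, mul_assoc]
      fin_cases k
      · simp
      · simp
    rw [lhs, rhs]
  refine ⟨P, hPdet, fun σ => ?_⟩
  have h1 : M₂ σ = linExt M₂ (MonoidAlgebra.single σ 1) := by
    rw [linExt_single, one_smul]
  have h2 : M₁ σ = linExt M₁ (MonoidAlgebra.single σ 1) := by
    rw [linExt_single, one_smul]
  rw [h1, hdecomp, ← h2, Finset.sum_mul]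
  conv_rhs => rw [Matrix.matrix_eq_sum_single (M₁ σ), Finset.mul_sum]
  refine Finset.sum_congr rfl fun i _ => ?_
  rw [Finset.sum_mul, Finset.mul_sum]
  refine Finset.sum_congr rfl fun k _ => ?_
  rw [Matrix.smul_mul, hint, ← Matrix.mul_smul, Matrix.smul_single, smul_eq_mul, mul_one]

/-- The Gram matrix of the trace form, as a product of flattened matrices. -/
theorem flat_mul_flat_swap (X Y : Fin 2 × Fin 2 → Matrix (Fin 2) (Fin 2) A) :
    flat X * ((flat Y).submatrix id (Equiv.prodComm (Fin 2) (Fin 2)))ᵀ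
      = Matrix.of fun p q => (X p * Y q).trace := by
  ext p q
  simp only [Matrix.mul_apply, Matrix.transpose_apply, Matrix.submatrix_apply, flat_apply,
    Matrix.trace, Matrix.diag, Matrix.of_apply, id, Fintype.sum_prod_type,
    Equiv.prodComm_apply, Prod.swap]

/-- **Gram determinant argument.**  If the `X₁ p` form a basis of `M_2(A)` and the trace forms
of the two families agree, the `X₂ p` form a basis, too. -/
theorem isUnit_det_flat_of_trace_eq (X₁ X₂ : Fin 2 × Fin 2 → Matrix (Fin 2) (Fin 2) A)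
    (h : ∀ p q, (X₁ p * X₁ q).trace = (X₂ p * X₂ q).trace) (h₁ : IsUnit (flat X₁).det) :
    IsUnit (flat X₂).det := by
  have e : flat X₁ * ((flat X₁).submatrix id (Equiv.prodComm (Fin 2) (Fin 2)))ᵀ
      = flat X₂ * ((flat X₂).submatrix id (Equiv.prodComm (Fin 2) (Fin 2)))ᵀ := by
    rw [flat_mul_flat_swap, flat_mul_flat_swap]
    ext p q
    exact h p q
  have hd := congrArg Matrix.det e
  rw [Matrix.det_mul, Matrix.det_mul, Matrix.det_transpose, Matrix.det_transpose,
    Matrix.det_permute', Matrix.det_permute'] at hd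
  have hsign : IsUnit (((Equiv.Perm.sign (Equiv.prodComm (Fin 2) (Fin 2)) : ℤˣ) : ℤ) : A) :=
    ((Equiv.Perm.sign (Equiv.prodComm (Fin 2) (Fin 2))).isUnit.map (Int.castRingHom A))
  exact isUnit_of_mul_isUnit_left (hd ▸ (h₁.mul (hsign.mul h₁)))

/-- **Carayol's theorem, matrix form, one-sided hypothesis.**  If four of the matrices
`M₁ (g p)` form a basis of `M_2(A)` and `tr M₁ = tr M₂`, then `M₁` and `M₂` are conjugate. -/
theorem exists_conj_of_trace_eq [IsLocalRing A] (M₁ M₂ : G →* Matrix (Fin 2) (Fin 2) A)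
    (g : Fin 2 × Fin 2 → G) (hg : IsUnit (flat fun p => M₁ (g p)).det)
    (htr : ∀ σ, (M₁ σ).trace = (M₂ σ).trace) :
    ∃ P : Matrix (Fin 2) (Fin 2) A, IsUnit P.det ∧ ∀ σ, M₂ σ * P = P * M₁ σ := by
  have hg₂ : IsUnit (flat fun p => M₂ (g p)).det :=
    isUnit_det_flat_of_trace_eq _ _ (fun p q => by
      rw [← map_mul, ← map_mul]
      exact htr _) hg
  exact exists_conj_of_surjective M₁ M₂ htr (linExt_surjective M₁ g hg)
    (linExt_surjective M₂ g hg₂)

end Abstract

section Galois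

open IsLocalRing
open scoped TensorProduct

variable {A : Type} [CommRing A] [IsLocalRing A]

/-- For a residually absolutely irreducible representation over a local ring there are four
elements of the Galois group whose matrices form a basis of `M_2(A)` (determinant form). -/
theorem exists_isUnit_det_flat (ρ : GaloisRepAdic A)
    (hirr : ρ.residual.IsAbsolutelyIrreducible) (b : Module.Basis (Fin 2) A ρ.V) :
    ∃ g : Fin 2 × Fin 2 → (AlgebraicClosure ℚ ≃ₐ[ℚ] AlgebraicClosure ℚ),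
      IsUnit (flat fun p => LinearMap.toMatrix b b (ρ.ρ (g p))).det := by
  classical
  let bbar : Module.Basis (Fin 2) (ResidueField A) ρ.residual.V :=
    Algebra.TensorProduct.basis (ResidueField A) b
  obtain ⟨g, hg⟩ := exists_det_ne_zero ρ.residual hirr bbar
  refine ⟨g, ?_⟩
  have hmat : ∀ σ, LinearMap.toMatrix bbar bbar (ρ.residual.ρ σ)
      = (LinearMap.toMatrix b b (ρ.ρ σ)).map (algebraMap A (ResidueField A)) := fun σ =>
    LinearMap.toMatrix_baseChange (ResidueField A) (ρ.ρ σ) b b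
  have hres : residue A (flat fun p => LinearMap.toMatrix b b (ρ.ρ (g p))).det ≠ 0 := by
    rw [← det_flat_map]
    have : (fun p => (LinearMap.toMatrix b b (ρ.ρ (g p))).map (residue A))
        = fun p => LinearMap.toMatrix bbar bbar (ρ.residual.ρ (g p)) := by
      funext p
      rw [hmat]
      rfl
    rw [this]
    exact hg
  by_contra hnu
  exact hres ((residue_eq_zero_iff _).2 ((mem_maximalIdeal _).2 hnu))

/-- **Carayol's theorem** (dimension 2).  Two representations over a local ring with the same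
trace, one of which is residually absolutely irreducible, are equivalent. -/
theorem isEquiv_of_trace_eq (ρ₁ ρ₂ : GaloisRepAdic A)
    (hirr : ρ₁.residual.IsAbsolutelyIrreducible)
    (htr : ∀ σ, ρ₁.trace σ = ρ₂.trace σ) : ρ₁.IsEquiv ρ₂ := by
  classical
  let b₁ : Module.Basis (Fin 2) A ρ₁.V := Module.finBasisOfFinrankEq A ρ₁.V ρ₁.finrank_eq
  let b₂ : Module.Basis (Fin 2) A ρ₂.V := Module.finBasisOfFinrankEq A ρ₂.V ρ₂.finrank_eq
  let M₁ : (AlgebraicClosure ℚ ≃ₐ[ℚ] AlgebraicClosure ℚ) →* Matrix (Fin 2) (Fin 2) A :=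
    { toFun := fun σ => LinearMap.toMatrix b₁ b₁ (ρ₁.ρ σ)
      map_one' := by rw [map_one]; exact LinearMap.toMatrix_one b₁
      map_mul' := fun σ τ => by rw [map_mul]; exact LinearMap.toMatrix_mul b₁ _ _ }
  let M₂ : (AlgebraicClosure ℚ ≃ₐ[ℚ] AlgebraicClosure ℚ) →* Matrix (Fin 2) (Fin 2) A :=
    { toFun := fun σ => LinearMap.toMatrix b₂ b₂ (ρ₂.ρ σ)
      map_one' := by rw [map_one]; exact LinearMap.toMatrix_one b₂
      map_mul' := fun σ τ => by rw [map_mul]; exact LinearMap.toMatrix_mul b₂ _ _ }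
  obtain ⟨g, hg⟩ := exists_isUnit_det_flat ρ₁ hirr b₁
  have htr' : ∀ σ, (M₁ σ).trace = (M₂ σ).trace := by
    intro σ
    have h := htr σ
    unfold GaloisRepAdic.trace at h
    rw [LinearMap.trace_eq_matrix_trace A b₁, LinearMap.trace_eq_matrix_trace A b₂] at h
    exact h
  obtain ⟨P, hP, hint⟩ := exists_conj_of_trace_eq M₁ M₂ g hg htr'
  have hdet : IsUnit (LinearMap.toMatrix b₁ b₂ (Matrix.toLin b₁ b₂ P)).det := by
    rw [LinearMap.toMatrix_toLin]
    exact hP
  refine ⟨⟨LinearEquiv.ofIsUnitDet hdet, fun σ x => ?_⟩⟩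
  have hcomp : (Matrix.toLin b₁ b₂ P) ∘ₗ (ρ₁.ρ σ) = (ρ₂.ρ σ) ∘ₗ (Matrix.toLin b₁ b₂ P) := by
    apply (LinearMap.toMatrix b₁ b₂).injective
    rw [LinearMap.toMatrix_comp b₁ b₁ b₂, LinearMap.toMatrix_comp b₁ b₂ b₂,
      LinearMap.toMatrix_toLin]
    exact (hint σ).symm
  exact congrArg (fun f => f x) hcomp

end Galois

end Fermat.Agent.R.H25

end
-- ==== END Fermat.Agent.R.H25_Carayol

-- ==== BEGIN Fermat.Agent.R.H91_Rigidity
section

/-!
# Cluster R, package P2 (helper91): Frobenius characteristic polynomials determine all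
characteristic polynomials

`Fermat.Agent.R.Stmt_FD` (in `R/Defs.lean`) is the Frobenius density theorem (division form,
item 61) in the language of valuation subrings of `AlgebraicClosure ℚ`.

Main result `charpoly_eq_of_frobenius`: two adic Galois representations over a local ring `T`
with `⨅ n, 𝔪 ^ n = ⊥` whose Frobenius lifts have the same characteristic polynomial at all
primes outside a finite set have the same characteristic polynomial at EVERY element of
`Gal(ℚ̄/ℚ)`.  Consequences: `IsUnipotentOnInertiaAt` transfers (`isUnipotentOnInertiaAt_of_frobenius`),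
trace and determinant agree.

No hypothesis on the residual representation is needed here.
-/

set_option autoImplicit false

open Polynomial IsLocalRing
open scoped TensorProduct

namespace Fermat.Agent.R.H91

/-- The absolute Galois group of `ℚ`. -/
abbrev GQ : Type := AlgebraicClosure ℚ ≃ₐ[ℚ] AlgebraicClosure ℚ

section BaseChange

variable {T : Type*} [CommRing T] {V : Type*} [AddCommGroup V] [Module T V]

/-- An endomorphism with values in `I • ⊤` dies after base change to `T ⧸ I`. -/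
theorem baseChange_eq_zero_of_forall_mem (I : Ideal T) (f : Module.End T V)
    (hf : ∀ v, f v ∈ I • (⊤ : Submodule T V)) : f.baseChange (T ⧸ I) = 0 := by
  have hkill : ∀ x ∈ I • (⊤ : Submodule T V), ∀ c : T ⧸ I, c ⊗ₜ[T] x = 0 := by
    intro x hx c
    refine Submodule.smul_induction_on (p := fun x => c ⊗ₜ[T] x = (0 : (T ⧸ I) ⊗[T] V)) hx ?_ ?_
    · intro a ha w _
      rw [TensorProduct.tmul_smul, TensorProduct.smul_tmul', Algebra.smul_def,
        Ideal.Quotient.algebraMap_eq, Ideal.Quotient.eq_zero_iff_mem.mpr ha, zero_mul,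
        TensorProduct.zero_tmul]
    · intro x y hx hy
      rw [TensorProduct.tmul_add, hx, hy, add_zero]
  refine LinearMap.ext fun w => ?_
  induction w using TensorProduct.induction_on with
  | zero => rw [map_zero, map_zero]
  | tmul c v => rw [LinearMap.baseChange_tmul, LinearMap.zero_apply]; exact hkill _ (hf v) c
  | add x y hx hy => rw [map_add, map_add, hx, hy]

theorem baseChange_eq_of_forall_sub_mem (I : Ideal T) (f g : Module.End T V)
    (hfg : ∀ v, f v - g v ∈ I • (⊤ : Submodule T V)) :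
    f.baseChange (T ⧸ I) = g.baseChange (T ⧸ I) := by
  have h := baseChange_eq_zero_of_forall_mem I (f - g) (fun v => by simpa using hfg v)
  rw [LinearMap.baseChange_sub] at h
  exact sub_eq_zero.mp h

variable [Module.Free T V] [Module.Finite T V]

/-- Congruent endomorphisms have congruent characteristic polynomials. -/
theorem charpoly_map_eq_of_forall_sub_mem (I : Ideal T) (f g : Module.End T V)
    (hfg : ∀ v, f v - g v ∈ I • (⊤ : Submodule T V)) :
    f.charpoly.map (Ideal.Quotient.mk I) = g.charpoly.map (Ideal.Quotient.mk I) := by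
  have h := baseChange_eq_of_forall_sub_mem I f g hfg
  have hf := LinearMap.charpoly_baseChange (A := T ⧸ I) f
  have hg := LinearMap.charpoly_baseChange (A := T ⧸ I) g
  rw [Ideal.Quotient.algebraMap_eq] at hf hg
  rw [← hf, ← hg, h]

end BaseChange

section Rigidity

variable {T : Type} [CommRing T] [IsLocalRing T]

/-- If `τ` fixes the level-`n` field of `ρ`, then `ρ (g * τ)` is congruent to `ρ g`
modulo `𝔪 ^ n`. -/
theorem GaloisRepAdic_sub_mem (ρ : GaloisRepAdic T) (n : ℕ) (g τ : GQ)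
    (hτ : ∀ v : ρ.V, ρ.ρ τ v - v ∈ (maximalIdeal T ^ n) • (⊤ : Submodule T ρ.V)) (v : ρ.V) :
    ρ.ρ (g * τ) v - ρ.ρ g v ∈ (maximalIdeal T ^ n) • (⊤ : Submodule T ρ.V) := by
  have h1 : ρ.ρ (g * τ) v - ρ.ρ g v = ρ.ρ g (ρ.ρ τ v - v) := by
    rw [map_mul, Module.End.mul_apply, map_sub]
  rw [h1]
  have hmap : Submodule.map (ρ.ρ g) ((maximalIdeal T ^ n) • (⊤ : Submodule T ρ.V)) ≤
      (maximalIdeal T ^ n) • (⊤ : Submodule T ρ.V) := by
    rw [Submodule.map_smul'']
    exact Submodule.smul_mono le_rfl le_top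
  exact hmap (Submodule.mem_map_of_mem (hτ v))

/-- **P2 (rigidity of characteristic polynomials).** -/
theorem charpoly_eq_of_frobenius (hFD : Fermat.Agent.R.Stmt_FD)
    (hT : ∀ x : T, (∀ n : ℕ, x ∈ maximalIdeal T ^ n) → x = 0)
    (ρ₁ ρ₂ : GaloisRepAdic T) (S : Finset ℕ)
    (h : ∀ ℓ : ℕ, ℓ.Prime → ℓ ∉ S → ∀ A : ValuationSubring (AlgebraicClosure ℚ),
      A.LiesOverPrime ℓ → ∀ φ : GQ, A.IsFrobeniusAt φ ℓ →
        LinearMap.charpoly (ρ₁.ρ φ) = LinearMap.charpoly (ρ₂.ρ φ))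
    (g : GQ) : LinearMap.charpoly (ρ₁.ρ g) = LinearMap.charpoly (ρ₂.ρ g) := by
  -- it suffices to prove the congruence modulo every power of the maximal ideal
  have key : ∀ n : ℕ, (LinearMap.charpoly (ρ₁.ρ g)).map (Ideal.Quotient.mk (maximalIdeal T ^ n)) =
      (LinearMap.charpoly (ρ₂.ρ g)).map (Ideal.Quotient.mk (maximalIdeal T ^ n)) := by
    intro n
    obtain ⟨L₁, hL₁, h₁⟩ := ρ₁.isAdicContinuous n
    obtain ⟨L₂, hL₂, h₂⟩ := ρ₂.isAdicContinuous n
    have := hL₁; have := hL₂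
    have hL : FiniteDimensional ℚ ↥(L₁ ⊔ L₂) := IntermediateField.finiteDimensional_sup L₁ L₂
    obtain ⟨ℓ, A, φ, j, hℓ, hℓS, hA, hφ, hj⟩ := hFD S (L₁ ⊔ L₂) hL g
    -- τ := g⁻¹ φ^j fixes L₁ ⊔ L₂
    set τ : GQ := g⁻¹ * φ ^ j with hτdef
    have hτ : ∀ x ∈ L₁ ⊔ L₂, τ x = x := by
      intro x hx
      rw [hτdef, AlgEquiv.mul_apply, hj x hx]
      exact (AlgEquiv.symm_apply_apply g x)
    have hgτ : g * τ = φ ^ j := by rw [hτdef, mul_inv_cancel_left]
    have hτ₁ : ∀ x ∈ L₁, τ x = x := fun x hx => hτ x ((le_sup_left : L₁ ≤ L₁ ⊔ L₂) hx)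
    have hτ₂ : ∀ x ∈ L₂, τ x = x := fun x hx => hτ x ((le_sup_right : L₂ ≤ L₁ ⊔ L₂) hx)
    have e₁ := charpoly_map_eq_of_forall_sub_mem (maximalIdeal T ^ n) (ρ₁.ρ (g * τ)) (ρ₁.ρ g)
      (GaloisRepAdic_sub_mem ρ₁ n g τ (h₁ τ hτ₁))
    have e₂ := charpoly_map_eq_of_forall_sub_mem (maximalIdeal T ^ n) (ρ₂.ρ (g * τ)) (ρ₂.ρ g)
      (GaloisRepAdic_sub_mem ρ₂ n g τ (h₂ τ hτ₂))
    have e₃ : LinearMap.charpoly (ρ₁.ρ (g * τ)) = LinearMap.charpoly (ρ₂.ρ (g * τ)) := by
      rw [hgτ, map_pow, map_pow]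
      exact charpoly_pow_eq_of_charpoly_eq ρ₁.finrank_eq ρ₂.finrank_eq _ _ (h ℓ hℓ hℓS A hA φ hφ) j
    rw [← e₁, ← e₂, e₃]
  ext i
  have hsub : (LinearMap.charpoly (ρ₁.ρ g)).coeff i - (LinearMap.charpoly (ρ₂.ρ g)).coeff i = 0 := by
    apply hT
    intro n
    have := congrArg (fun q : (T ⧸ maximalIdeal T ^ n)[X] => q.coeff i) (key n)
    simp only [coeff_map] at this
    rw [← Ideal.Quotient.eq_zero_iff_mem, map_sub, this, sub_self]
  exact sub_eq_zero.mp hsub

/-- Unipotency on inertia is determined by the Frobenius characteristic polynomials. -/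
theorem isUnipotentOnInertiaAt_of_frobenius (hFD : Fermat.Agent.R.Stmt_FD)
    (hT : ∀ x : T, (∀ n : ℕ, x ∈ maximalIdeal T ^ n) → x = 0)
    (ρ₁ ρ₂ : GaloisRepAdic T) (S : Finset ℕ)
    (h : ∀ ℓ : ℕ, ℓ.Prime → ℓ ∉ S → ∀ A : ValuationSubring (AlgebraicClosure ℚ),
      A.LiesOverPrime ℓ → ∀ φ : GQ, A.IsFrobeniusAt φ ℓ →
        LinearMap.charpoly (ρ₁.ρ φ) = LinearMap.charpoly (ρ₂.ρ φ))
    (q : ℕ) (h₂ : ρ₂.IsUnipotentOnInertiaAt q) : ρ₁.IsUnipotentOnInertiaAt q := by
  intro P hP σ hσ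
  rw [charpoly_eq_of_frobenius hFD hT ρ₁ ρ₂ S h σ]
  exact h₂ P hP σ hσ

end Rigidity

end Fermat.Agent.R.H91

end
-- ==== END Fermat.Agent.R.H91_Rigidity

-- ==== BEGIN Fermat.Agent.S31
section

set_option autoImplicit false
variable {p : ℕ} {N : ℕ} [NeZero N] {S : Finset ℕ}
  {𝒪 : Type} [CommRing 𝒪] [IsDomain 𝒪] [IsDiscreteValuationRing 𝒪]
  [IsAdicComplete (IsLocalRing.maximalIdeal 𝒪) 𝒪]
  {θ : CuspForm.heckeAlgebra N 2 (↑S : Set ℕ) →+* IsLocalRing.ResidueField 𝒪}
  {T : Type} [CommRing T] [IsLocalRing T] [IsNoetherianRing T]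
  [IsAdicComplete (IsLocalRing.maximalIdeal T) T] [Algebra 𝒪 T] [IsLocalHom (algebraMap 𝒪 T)]
  [Module.Finite 𝒪 T] [Module.Free 𝒪 T]
open CuspForm CuspForm.HeckeGaloisRepDatum

namespace Fermat.Agent.S31

theorem result (hp : p.Prime)
    (hp𝒪 : (p : 𝒪) ∈ IsLocalRing.maximalIdeal 𝒪) (hpS : p ∈ S)
    (hNS : ∀ q : ℕ, q.Prime → q ∣ N → q ∈ S)
    (H : CuspForm.HeckeGaloisRepDatum N (↑S : Set ℕ) 𝒪 θ T)
    (q : ℕ) (hq : q.Prime) (hqS : q ∉ S) :
    H.ρ.IsUnramifiedAt q :=
  Fermat.Agent.S31.of_S30 Fermat.Agent.R.H33.stmt_S30 hp hp𝒪 hpS hNS H q hq hqS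

end Fermat.Agent.S31

end
-- ==== END Fermat.Agent.S31

-- ==== BEGIN Fermat.Agent.S32
section

set_option autoImplicit false
variable {p : ℕ} {N : ℕ} [NeZero N] {S : Finset ℕ}
  {𝒪 : Type} [CommRing 𝒪] [IsDomain 𝒪] [IsDiscreteValuationRing 𝒪]
  [IsAdicComplete (IsLocalRing.maximalIdeal 𝒪) 𝒪]
  {θ : CuspForm.heckeAlgebra N 2 (↑S : Set ℕ) →+* IsLocalRing.ResidueField 𝒪}
  {T : Type} [CommRing T] [IsLocalRing T] [IsNoetherianRing T]
  [IsAdicComplete (IsLocalRing.maximalIdeal T) T] [Algebra 𝒪 T] [IsLocalHom (algebraMap 𝒪 T)]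
  [Module.Finite 𝒪 T] [Module.Free 𝒪 T]
open CuspForm CuspForm.HeckeGaloisRepDatum

namespace Fermat.Agent.S32

theorem result
    [Finite (IsLocalRing.ResidueField 𝒪)] [CharZero 𝒪]
    (hp : p.Prime) (hp2 : p ≠ 2) (hp𝒪 : (p : 𝒪) ∈ IsLocalRing.maximalIdeal 𝒪) (hpN : ¬ p ∣ N)
    (hpS : p ∈ S) (hNS : ∀ q : ℕ, q.Prime → q ∣ N → q ∈ S)
    (H : CuspForm.HeckeGaloisRepDatum N (↑S : Set ℕ) 𝒪 θ T) :
    H.ρ.IsFlatAt p :=
  Fermat.Agent.S32.H86.of_S19
    (fun N _ ℓ _ hℓN k => Fermat.Agent.S19.result N ℓ hℓN k) hp hp2 hp𝒪 hpN hpS hNS H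

end Fermat.Agent.S32

end
-- ==== END Fermat.Agent.S32

-- ==== BEGIN Fermat.Agent.S33.New.H36_Frob2Abs
section

/-!
# S33 / S59, package STRICT (helper36): the abstract core of (FROB2)

Setting: a function field `F / K` with two valuation rings `B₁`, `B₂` with the SAME residue
function field `E / k` (modular: `F = F_{Mp} ℚ̄`, `E` = the function field of `X₀(M)` over
`k = 𝔽̄_p`, `red₂ = red₁ ∘ w_p`), the two laws of TOTAL conservation for the degeneracy maps
(`ρ`, `ρ'` = reduction of the image of a point under `α`, `β`) and a semilinear automorphism `τ`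
of `F` which preserves `B₁` and acts on the reduction by `φ̄²` (`φ̄` = coefficientwise Frobenius).

If `f` is `new` (`ρ_* div f = n div h_α`, `ρ'_* div f = n div h_β`), then a constant multiple of
`τ f / f` is, up to an `n`-th power, a function of `B₁` with reduction `1`:

  `ψ₁ · φ̄ψ₂ = b₁ h_αⁿ`,  `ψ₂ · φ̄ψ₁ = b₂ h_βⁿ`  ⟹  `φ̄²ψ₁ / ψ₁ = (d₁ φ̄h_β / h_α)ⁿ`.

This is the first half of `S35.H89.st_abs` (helper89); no hypothesis on `n` (in particular `n`
may be a power of the residue characteristic), no genus, no nodes, no GLUE.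
-/

set_option autoImplicit false
set_option linter.style.haveILetI false
set_option maxHeartbeats 1000000

noncomputable section

open AlgebraicCurve

attribute [local instance] Classical.propDecidable

namespace Fermat.Agent.S33.New.H36

open Fermat.Agent.RED.H17 Fermat.Agent.RED Fermat.Agent.BAD Fermat.Agent.BAD.H79

section OneField

variable {k E : Type*} [Field k] [Field E] [Algebra k E]

/-- A function all of whose orders vanish is a non-zero constant. -/
theorem const_of_ord_zero (HE : FFHyp k E) {w : E} (hw : w ≠ 0)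
    (h : ∀ z : Place k E, z.ord w = 0) : ∃ a : k, a ≠ 0 ∧ w = algebraMap k E a := by
  obtain ⟨a, ha⟩ := HE.const_of_regular (f := w) (fun z => le_of_eq (h z).symm)
  refine ⟨a, ?_, ha⟩
  rintro rfl
  rw [map_zero] at ha
  exact hw ha

theorem semi_smul_ne_zero (σ : SemilinearAut k E) {ψ : E} (hψ : ψ ≠ 0) : σ • ψ ≠ 0 := by
  intro h0
  apply hψ
  have := congrArg (fun z => σ⁻¹ • z) h0
  simpa using this

end OneField

section Core

variable {K F k E : Type} [Field K] [Field F] [Algebra K F] [Field k] [Field E] [Algebra k E]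

/-- **The relation of a new function**: `φ̄² ψ₁ = θⁿ ψ₁` for the first reduction `ψ₁` of a
function `f` whose divisor has push-forwards `n div h_α`, `n div h_β` on the reduction. -/
theorem new_rel [IsAlgClosed k]
    (B₁ B₂ : VRed K F k E) (H : FFHyp K F) (HE : FFHyp k E)
    (n : ℕ) (hn : 0 < n) (φb : SemilinearAut k E)
    (ρ ρ' : Place K F → Place k E) (β : Place k E → Place k E)
    (htot : ∀ (u₁ : B₁.V) (u₂ : B₂.V), B₁.red u₁ ≠ 0 → B₂.red u₂ ≠ 0 →
      (∃ a : K, (u₂ : F) = algebraMap K F a * (u₁ : F)) →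
      ∀ D : Divisor K F, (∀ P, D P = P.ord (u₁ : F)) → ∀ z : Place k E,
        Finsupp.mapDomain ρ D z = z.ord (B₁.red u₁) + (β z).ord (B₂.red u₂))
    (htot' : ∀ (u₁ : B₁.V) (u₂ : B₂.V), B₁.red u₁ ≠ 0 → B₂.red u₂ ≠ 0 →
      (∃ a : K, (u₂ : F) = algebraMap K F a * (u₁ : F)) →
      ∀ D : Divisor K F, (∀ P, D P = P.ord (u₁ : F)) → ∀ z : Place k E,
        Finsupp.mapDomain ρ' D z = z.ord (B₂.red u₂) + (β z).ord (B₁.red u₁))
    (hβ : ∀ (z : Place k E) (ψ : E), (β z).ord ψ = z.ord (φb • ψ))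
    (f : F) (hf : f ≠ 0)
    (hnewα : ∃ hα : E, hα ≠ 0 ∧ ∀ D : Divisor K F, (∀ P, D P = P.ord f) →
      ∀ z : Place k E, Finsupp.mapDomain ρ D z = n * z.ord hα)
    (hnewβ : ∃ hβ : E, hβ ≠ 0 ∧ ∀ D : Divisor K F, (∀ P, D P = P.ord f) →
      ∀ z : Place k E, Finsupp.mapDomain ρ' D z = n * z.ord hβ)
    (a₁ : K) (ha₁ : a₁ ≠ 0) (hm₁ : algebraMap K F a₁ * f ∈ B₁.V)
    (hψ₁ : B₁.red ⟨_, hm₁⟩ ≠ 0) :
    ∃ θ : E, θ ≠ 0 ∧ φb • (φb • (B₁.red ⟨_, hm₁⟩)) = θ ^ n * B₁.red ⟨_, hm₁⟩ := by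
  obtain ⟨a₂, ha₂, hm₂, hψ₂⟩ := B₂.exists_scale f hf
  set ψ₁ : E := B₁.red ⟨_, hm₁⟩ with hψ₁def
  set ψ₂ : E := B₂.red ⟨_, hm₂⟩ with hψ₂def
  have hA₁ : algebraMap K F a₁ ≠ 0 := fun h0 => ha₁ ((map_eq_zero (algebraMap K F)).mp h0)
  have hA₂ : algebraMap K F a₂ ≠ 0 := fun h0 => ha₂ ((map_eq_zero (algebraMap K F)).mp h0)
  have hrel : ∃ a : K, algebraMap K F a₂ * f = algebraMap K F a * (algebraMap K F a₁ * f) := by
    refine ⟨a₂ / a₁, ?_⟩
    rw [map_div₀]
    field_simp
  have hordu : ∀ P : Place K F, P.ord (algebraMap K F a₁ * f) = P.ord f := by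
    intro P
    rw [P.ord_mul hA₁ hf, ord_algebraMap, zero_add]
  obtain ⟨hα, hα0, hαD⟩ := hnewα
  obtain ⟨hβ', hβ0, hβD⟩ := hnewβ
  have hφψ₁ : φb • ψ₁ ≠ 0 := semi_smul_ne_zero φb hψ₁
  have hφψ₂ : φb • ψ₂ ≠ 0 := semi_smul_ne_zero φb hψ₂
  -- the two norm relations
  have hN₁ : ∀ z : Place k E, z.ord (ψ₁ * (φb • ψ₂) / hα ^ n) = 0 := by
    intro z
    have h1 := htot ⟨_, hm₁⟩ ⟨_, hm₂⟩ hψ₁ hψ₂ hrel (dv H.principal f)
      (fun P => by rw [dv_apply]; exact (hordu P).symm) z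
    have h2 := hαD (dv H.principal f) (fun P => dv_apply H.principal f P) z
    rw [h2, hβ] at h1
    rw [ord_div z (mul_ne_zero hψ₁ hφψ₂) (pow_ne_zero _ hα0),
      z.ord_mul hψ₁ hφψ₂, ord_pow]
    change (n : ℤ) * z.ord hα = z.ord ψ₁ + z.ord (φb • ψ₂) at h1
    omega
  have hN₂ : ∀ z : Place k E, z.ord (ψ₂ * (φb • ψ₁) / hβ' ^ n) = 0 := by
    intro z
    have h1 := htot' ⟨_, hm₁⟩ ⟨_, hm₂⟩ hψ₁ hψ₂ hrel (dv H.principal f)
      (fun P => by rw [dv_apply]; exact (hordu P).symm) z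
    have h2 := hβD (dv H.principal f) (fun P => dv_apply H.principal f P) z
    rw [h2, hβ] at h1
    rw [ord_div z (mul_ne_zero hψ₂ hφψ₁) (pow_ne_zero _ hβ0),
      z.ord_mul hψ₂ hφψ₁, ord_pow]
    change (n : ℤ) * z.ord hβ' = z.ord ψ₂ + z.ord (φb • ψ₁) at h1
    omega
  obtain ⟨b₁, hb₁0, hb₁⟩ := const_of_ord_zero HE
    (div_ne_zero (mul_ne_zero hψ₁ hφψ₂) (pow_ne_zero _ hα0)) hN₁
  obtain ⟨b₂, hb₂0, hb₂⟩ := const_of_ord_zero HE
    (div_ne_zero (mul_ne_zero hψ₂ hφψ₁) (pow_ne_zero _ hβ0)) hN₂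
  -- `ψ₁ φ̄ψ₂ = b₁ hαⁿ`, `ψ₂ φ̄ψ₁ = b₂ hβⁿ`
  have e₁ : ψ₁ * (φb • ψ₂) = algebraMap k E b₁ * hα ^ n := by
    rw [← hb₁]
    field_simp
  have e₂ : ψ₂ * (φb • ψ₁) = algebraMap k E b₂ * hβ' ^ n := by
    rw [← hb₂]
    field_simp
  -- apply `φ̄`
  have e₂' : (φb • ψ₂) * (φb • (φb • ψ₁)) =
      algebraMap k E (SemilinearAut.baseAut φb b₂) * (φb • hβ') ^ n := by
    have := congrArg (fun w => φb • w) e₂
    simp only [smul_mul', smul_pow', SemilinearAut.smul_algebraMap] at this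
    exact this
  have hB₁ : algebraMap k E b₁ ≠ 0 := fun h0 => hb₁0 ((map_eq_zero (algebraMap k E)).mp h0)
  have hφβ0 : φb • hβ' ≠ 0 := semi_smul_ne_zero φb hβ0
  -- `n`-th root of the constant
  obtain ⟨d₁, hd₁⟩ := IsAlgClosed.exists_pow_nat_eq (SemilinearAut.baseAut φb b₂ / b₁) hn
  have hD₁ : algebraMap k E d₁ ^ n =
      algebraMap k E (SemilinearAut.baseAut φb b₂) / algebraMap k E b₁ := by
    rw [← map_pow, hd₁, map_div₀]
  have hn0 : n ≠ 0 := Nat.pos_iff_ne_zero.mp hn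
  have hd₁0 : d₁ ≠ 0 := by
    rintro rfl
    rw [zero_pow hn0] at hd₁
    exact div_ne_zero ((map_ne_zero _).mpr hb₂0) hb₁0 hd₁.symm
  refine ⟨algebraMap k E d₁ * (φb • hβ') / hα,
    div_ne_zero (mul_ne_zero (fun h0 => hd₁0 ((map_eq_zero (algebraMap k E)).mp h0)) hφβ0) hα0,
    ?_⟩
  rw [div_pow, mul_pow, hD₁]
  have hx : (φb • (φb • ψ₁)) * (φb • ψ₂) * (algebraMap k E b₁ * hα ^ n) =
      (algebraMap k E (SemilinearAut.baseAut φb b₂) * (φb • hβ') ^ n) *
        (ψ₁ * (φb • ψ₂)) := by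
    rw [← e₂', ← e₁]
    ring
  have hαn : hα ^ n ≠ 0 := pow_ne_zero _ hα0
  have hx' := mul_right_cancel₀ hφψ₂ (by
    linear_combination (exp := 1) hx :
      (φb • (φb • ψ₁)) * (algebraMap k E b₁ * hα ^ n) * (φb • ψ₂) =
        (algebraMap k E (SemilinearAut.baseAut φb b₂) * (φb • hβ') ^ n) * ψ₁ * (φb • ψ₂))
  field_simp
  linear_combination hx'

/-- Iteration of the relation `φ̄² ψ = θⁿ ψ`. -/
theorem iter_rel (φb : SemilinearAut k E) (n : ℕ) {ψ θ : E} (hθ : θ ≠ 0)
    (h : φb • (φb • ψ) = θ ^ n * ψ) (m : ℕ) :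
    ∃ Θ : E, Θ ≠ 0 ∧ (fun y : E => φb • (φb • y))^[m] ψ = Θ ^ n * ψ := by
  induction m with
  | zero => exact ⟨1, one_ne_zero, by simp⟩
  | succ m ih =>
    obtain ⟨Θ, hΘ, hm⟩ := ih
    refine ⟨(φb • (φb • Θ)) * θ,
      mul_ne_zero (semi_smul_ne_zero φb (semi_smul_ne_zero φb hΘ)) hθ, ?_⟩
    rw [Function.iterate_succ_apply', hm]
    simp only [smul_mul', smul_pow']
    rw [h]
    ring

/-- If the reduction of `τ u` is `Θⁿ` times the reduction of the unit `u`, then a constant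
multiple of `τ f / f` (`u = a f`) is, up to an `n`-th power, a function with reduction `1`. -/
theorem k1_of_rel (B₁ : VRed K F k E) (n : ℕ) (τ : SemilinearAut K F)
    (f : F) (a₁ : K) (ha₁ : a₁ ≠ 0) (hm₁ : algebraMap K F a₁ * f ∈ B₁.V)
    (hψ₁ : B₁.red ⟨_, hm₁⟩ ≠ 0) (hτm : τ • (algebraMap K F a₁ * f) ∈ B₁.V)
    {Θ : E} (hΘ : Θ ≠ 0) (hτr : B₁.red ⟨_, hτm⟩ = Θ ^ n * B₁.red ⟨_, hm₁⟩) :
    ∃ (c : K) (t : F), c ≠ 0 ∧ t ≠ 0 ∧
      ∃ h : algebraMap K F c * ((τ • f) / f) * t ^ n ∈ B₁.V, B₁.red ⟨_, h⟩ = 1 := by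
  have hf : f ≠ 0 := by
    rintro rfl
    apply hψ₁
    have e : (⟨algebraMap K F a₁ * 0, hm₁⟩ : B₁.V) = 0 := Subtype.ext (mul_zero _)
    rw [e, map_zero]
  set ψ₁ : E := B₁.red ⟨_, hm₁⟩ with hψ₁def
  -- `u₁ = a₁ f` is a unit of the valuation ring
  have hu₁ : IsUnit (⟨_, hm₁⟩ : B₁.V) := by
    by_contra h
    exact hψ₁ ((B₁.red_eq_zero_iff _).mpr ((IsLocalRing.mem_maximalIdeal _).mpr h))
  obtain ⟨U, hU⟩ := hu₁
  have hUred : B₁.red (U : B₁.V) = ψ₁ := by rw [hU]
  have hUinv : B₁.red ((U⁻¹ : (B₁.V)ˣ) : B₁.V) = ψ₁⁻¹ := by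
    have h1 : B₁.red ((U⁻¹ : (B₁.V)ˣ) : B₁.V) * B₁.red (U : B₁.V) = 1 := by
      rw [← map_mul, Units.inv_mul, map_one]
    rw [hUred] at h1
    exact eq_inv_of_mul_eq_one_left h1
  have hUcoe : (((U⁻¹ : (B₁.V)ˣ) : B₁.V) : F) = (algebraMap K F a₁ * f)⁻¹ := by
    have h1 : (((U⁻¹ : (B₁.V)ˣ) : B₁.V) : F) * (((U : B₁.V)) : F) = 1 := by
      have h2 : ((U⁻¹ : (B₁.V)ˣ) : B₁.V) * (U : B₁.V) = 1 := Units.inv_mul U
      have h3 := congrArg (fun x : B₁.V => (x : F)) h2
      exact h3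
    rw [hU] at h1
    exact eq_inv_of_mul_eq_one_left h1
  -- a lift of `Θ⁻¹`
  obtain ⟨t₀, ht₀⟩ := B₁.red_surj Θ⁻¹
  have ht₀0 : (t₀ : F) ≠ 0 := by
    intro h0
    have : B₁.red t₀ = 0 := by
      have e : t₀ = 0 := Subtype.ext h0
      rw [e, map_zero]
    rw [ht₀] at this
    exact inv_ne_zero hΘ this
  have hc0 : SemilinearAut.baseAut τ a₁ / a₁ ≠ 0 :=
    div_ne_zero ((map_ne_zero _).mpr ha₁) ha₁
  set w : B₁.V := ⟨_, hτm⟩ * ((U⁻¹ : (B₁.V)ˣ) : B₁.V) * t₀ ^ n with hw
  have hwred : B₁.red w = 1 := by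
    rw [hw, map_mul, map_mul, map_pow, hτr, hUinv, ht₀, inv_pow]
    field_simp
  have hwcoe : (w : F) =
      algebraMap K F (SemilinearAut.baseAut τ a₁ / a₁) * ((τ • f) / f) * (t₀ : F) ^ n := by
    have h1 : (w : F) = (τ • (algebraMap K F a₁ * f)) * (algebraMap K F a₁ * f)⁻¹
        * (t₀ : F) ^ n := by
      rw [hw]
      push_cast
      rw [hUcoe]
    have hA₁ : algebraMap K F a₁ ≠ 0 := fun h0 => ha₁ ((map_eq_zero (algebraMap K F)).mp h0)
    rw [h1, smul_mul', SemilinearAut.smul_algebraMap, map_div₀]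
    field_simp
  refine ⟨SemilinearAut.baseAut τ a₁ / a₁, (t₀ : F), hc0, ht₀0, hwcoe ▸ w.2, ?_⟩
  have e : (⟨algebraMap K F (SemilinearAut.baseAut τ a₁ / a₁) * ((τ • f) / f) * (t₀ : F) ^ n,
      hwcoe ▸ w.2⟩ : B₁.V) = w := Subtype.ext hwcoe.symm
  rw [e]
  exact hwred

/-- **(FROB2), abstract core.**  `τ` acts on the first reduction by a power of `φ̄²`. -/
theorem frob2_abs [IsAlgClosed k]
    (B₁ B₂ : VRed K F k E) (H : FFHyp K F) (HE : FFHyp k E)
    (n : ℕ) (hn : 0 < n)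
    (τ : SemilinearAut K F) (φb : SemilinearAut k E)
    (hτmem : ∀ f : F, f ∈ B₁.V → τ • f ∈ B₁.V)
    (hτred : ∀ (f : F) (h : f ∈ B₁.V) (h' : τ • f ∈ B₁.V), ∃ m : ℕ,
      B₁.red ⟨_, h'⟩ = (fun y : E => φb • (φb • y))^[m] (B₁.red ⟨f, h⟩))
    (ρ ρ' : Place K F → Place k E) (β : Place k E → Place k E)
    (htot : ∀ (u₁ : B₁.V) (u₂ : B₂.V), B₁.red u₁ ≠ 0 → B₂.red u₂ ≠ 0 →
      (∃ a : K, (u₂ : F) = algebraMap K F a * (u₁ : F)) →
      ∀ D : Divisor K F, (∀ P, D P = P.ord (u₁ : F)) → ∀ z : Place k E,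
        Finsupp.mapDomain ρ D z = z.ord (B₁.red u₁) + (β z).ord (B₂.red u₂))
    (htot' : ∀ (u₁ : B₁.V) (u₂ : B₂.V), B₁.red u₁ ≠ 0 → B₂.red u₂ ≠ 0 →
      (∃ a : K, (u₂ : F) = algebraMap K F a * (u₁ : F)) →
      ∀ D : Divisor K F, (∀ P, D P = P.ord (u₁ : F)) → ∀ z : Place k E,
        Finsupp.mapDomain ρ' D z = z.ord (B₂.red u₂) + (β z).ord (B₁.red u₁))
    (hβ : ∀ (z : Place k E) (ψ : E), (β z).ord ψ = z.ord (φb • ψ))
    (f : F) (hf : f ≠ 0)
    (hnewα : ∃ hα : E, hα ≠ 0 ∧ ∀ D : Divisor K F, (∀ P, D P = P.ord f) →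
      ∀ z : Place k E, Finsupp.mapDomain ρ D z = n * z.ord hα)
    (hnewβ : ∃ hβ : E, hβ ≠ 0 ∧ ∀ D : Divisor K F, (∀ P, D P = P.ord f) →
      ∀ z : Place k E, Finsupp.mapDomain ρ' D z = n * z.ord hβ) :
    ∃ (c : K) (t : F), c ≠ 0 ∧ t ≠ 0 ∧
      ∃ h : algebraMap K F c * ((τ • f) / f) * t ^ n ∈ B₁.V, B₁.red ⟨_, h⟩ = 1 := by
  obtain ⟨a₁, ha₁, hm₁, hψ₁⟩ := B₁.exists_scale f hf
  obtain ⟨θ, hθ, hrel⟩ := new_rel B₁ B₂ H HE n hn φb ρ ρ' β htot htot' hβ f hf hnewα hnewβ
    a₁ ha₁ hm₁ hψ₁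
  have hτm := hτmem _ hm₁
  obtain ⟨m, hm⟩ := hτred _ hm₁ hτm
  obtain ⟨Θ, hΘ, hiter⟩ := iter_rel φb n hθ hrel m
  exact k1_of_rel B₁ n τ f a₁ ha₁ hm₁ hψ₁ hτm hΘ (hm.trans hiter)

end Core

end Fermat.Agent.S33.New.H36

end
end
-- ==== END Fermat.Agent.S33.New.H36_Frob2Abs

-- ==== BEGIN Fermat.Agent.S33.New.H36_Frob2Defs
section

/-!
# S33 / S59, package STRICT (helper36): the Kummer form of (FROB2), interface statements

Level `N = M p`, `p ∤ M`, `A` a valuation ring of `ℚ̄` over `p`, `g ∈ G_ℚ` (in the application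
`g = σ²`, `σ` in the decomposition group of `A`).

* `Frob2Core A M p g` : **(FROB2), Kummer form**: if `f ≠ 0` has divisor divisible by `n = p^k`
  and its norms along the two degeneracy maps are `n`-th powers up to constants, then a constant
  multiple of `g f / f` is, up to an `n`-th power, a function of the Gauss valuation ring with
  reduction `1`.
* `Stmt_Frob2Tame` : (FROB2) at the tame `(M, p)`, for `g = σ²`, `σ` in the decomposition group
  (first half of `S35.H89.st_abs`; file `H36_Frob2Mod.lean`).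
* `Stmt_Frob2Desc3` : descent of the Kummer form from level `2 M · 3` to level `M · 3`.
  [hypotheses lift by base change of the norm (`S35.H44.norm_alpha_up`, `norm_beta_up`); the
  conclusion descends because the residue field extension `k(X₀(2M)) / k(X₀(M))` is separable:
  `h ∈ F~_{6M}`, `h ^ (3^k) ∈ F~_{3M}` implies `h ∈ F~_{3M}`.]
* `k1Test_of_core` (file `H36_Frob2Mod.lean`) : `Frob2Core A M p g → H54.K1Test A M p g`.

Definitions only.
-/

set_option autoImplicit false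

noncomputable section

open AlgebraicCurve ModularCurve Fermat.Agent.S28.H73 Fermat.Agent.RED.H73

namespace Fermat.Agent.S33.New.H36

open Fermat.Agent.BAD Fermat.Agent.S33.New.H86

local notation "Kb" => AlgebraicClosure ℚ

/-- **(FROB2), Kummer form**, at level `M p` for `g ∈ G_ℚ`. -/
def Frob2Core (A : ValuationSubring Kb) (M p : ℕ) [NeZero M] [NeZero p] (g : GalQ) : Prop :=
  ∀ (k : ℕ) (f : ↥(FNbar (M * p))), f ≠ 0 →
    (∀ P : Place Kb ↥(FNbar (M * p)), ((p ^ k : ℕ) : ℤ) ∣ P.ord f) →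
    IsNormPow (heckeAlphaBar Kb M p) (p ^ k) f →
    IsNormPow (heckeBetaBar Kb M p) (p ^ k) f →
    ∃ (c : Kb) (t : ↥(FNbar (M * p))), c ≠ 0 ∧ t ≠ 0 ∧
      ∃ h : algebraMap Kb ↥(FNbar (M * p)) c * ((galF (M * p) g • f) / f) * t ^ (p ^ k)
          ∈ gaussV A (M * p),
        gaussRes A (M * p) ⟨_, h⟩ = 1

/-- **(FROB2) at the tame levels**: `g = σ²` for `σ` in the decomposition group. -/
def Stmt_Frob2Tame : Prop :=
  ∀ (M p : ℕ) [NeZero M] [NeZero p], p.Prime → ¬ p ∣ M → H91.TameAt M p →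
    ∀ A : ValuationSubring Kb, A.LiesOverPrime p →
      ∀ σ ∈ A.decompositionSubgroup ℚ, Frob2Core A M p (σ * σ)

/-- **Descent of (FROB2)** from level `2 M · 3` to level `M · 3`. -/
def Stmt_Frob2Desc3 : Prop :=
  ∀ (M : ℕ) [NeZero M] [NeZero (2 * M)], ¬ 2 ∣ M → ¬ 3 ∣ M →
    ∀ A : ValuationSubring Kb, A.LiesOverPrime 3 →
      ∀ g : GalQ, Frob2Core A (2 * M) 3 g → Frob2Core A M 3 g

end Fermat.Agent.S33.New.H36

end
end
-- ==== END Fermat.Agent.S33.New.H36_Frob2Defs

-- ==== BEGIN Fermat.Agent.S33.New.H36_FrobFin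
section

/-!
# S33 / S59, package STRICT (helper36): the decomposition group acts on the reductions through
powers of the coefficientwise Frobenius

`k` a field of characteristic `q`, algebraic over the prime field (`∀ c, ∃ f > 0, c^(q^f) = c`).

* `fixF q f` : the finite subfield `{c | c ^ (q ^ f) = c}` of `k`;
* `exists_pow_of_ringHom` : a ring endomorphism `s` of `k` acts on `fixF q f` as a power of the
  Frobenius (`Gal(𝔽_{q^f} / 𝔽_q)` is generated by Frobenius);
* `CoeffFix q f x` : all coefficients of the Laurent series `x` lie in `fixF q f`;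
* `exists_coeffFix_of_mem_adjoin` : every element of a field generated over `k` by series with
  coefficients in the prime field has its coefficients in some `fixF q f`;
* `exists_coeffMap_eq_pow` : for such a series `x` and a ring endomorphism `s` of `k`,
  `coeffMap s x` is obtained by raising the coefficients of `x` to the power `q ^ m`.
-/

set_option autoImplicit false
set_option linter.style.haveILetI false

noncomputable section

open ModularCurve AlgebraicCurve

namespace Fermat.Agent.S33.New.H36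

section Fin

variable {k : Type*} [Field k] (q : ℕ) [hq : Fact q.Prime] [CharP k q]

/-- The finite subfield `{c | c ^ (q ^ f) = c}`. -/
def fixF (f : ℕ) : Subfield k := (iterateFrobenius k q f).eqLocusField (RingHom.id k)

theorem mem_fixF {f : ℕ} {c : k} : c ∈ fixF (k := k) q f ↔ c ^ (q ^ f) = c := by
  unfold fixF
  rw [RingHom.mem_eqLocusField, iterateFrobenius_def, RingHom.id_apply]

theorem finite_fixF {f : ℕ} (hf : 0 < f) : Finite (fixF (k := k) q f) := by
  classical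
  have hne : (Polynomial.X ^ q ^ f - Polynomial.X : Polynomial k) ≠ 0 :=
    FiniteField.X_pow_card_pow_sub_X_ne_zero k hf.ne' hq.out.one_lt
  have hsub : (fixF (k := k) q f : Set k) ⊆
      ((Polynomial.X ^ q ^ f - Polynomial.X : Polynomial k).roots.toFinset : Set k) := by
    intro c hc
    have hc' : c ^ (q ^ f) = c := (mem_fixF q).mp hc
    simp only [Finset.mem_coe, Multiset.mem_toFinset, Polynomial.mem_roots hne,
      Polynomial.IsRoot, Polynomial.eval_sub, Polynomial.eval_pow, Polynomial.eval_X]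
    rw [hc', sub_self]
  exact Set.Finite.subset (Finset.finite_toSet _) hsub

/-- A ring endomorphism of a field of characteristic `q` acts on the finite subfield
`{c | c ^ (q ^ f) = c}` as a power of the Frobenius. -/
theorem exists_pow_of_ringHom (s : k →+* k) {f : ℕ} (hf : 0 < f) :
    ∃ m : ℕ, ∀ c : k, c ^ (q ^ f) = c → s c = c ^ (q ^ m) := by
  classical
  let L : Subfield k := fixF (k := k) q f
  haveI : Finite L := finite_fixF q hf
  haveI : CharP L q := by
    refine (RingHom.charP_iff (L.subtype) L.subtype_injective q).mpr ?_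
    infer_instance
  letI : Algebra (ZMod q) L := ZMod.algebra L q
  have hmem : ∀ c : L, s (c : k) ∈ L := by
    intro c
    show s (c : k) ∈ fixF (k := k) q f
    rw [mem_fixF, ← map_pow, (mem_fixF q).mp c.2]
  let s' : L →+* L := (s.comp L.subtype).codRestrict L hmem
  let sA : L →ₐ[ZMod q] L :=
    { s' with
      commutes' := fun z => by
        have h : s'.comp (algebraMap (ZMod q) L) = algebraMap (ZMod q) L :=
          Subsingleton.elim _ _
        exact congrArg (fun g : ZMod q →+* L => g z) h }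
  obtain ⟨n, hn⟩ := (FiniteField.bijective_frobeniusAlgHom_pow (ZMod q) L).2 sA
  refine ⟨n.1, fun c hc => ?_⟩
  have hcL : c ∈ L := (mem_fixF q).mpr hc
  have h1 : sA ⟨c, hcL⟩ = (FiniteField.frobeniusAlgHom (ZMod q) L ^ n.1) ⟨c, hcL⟩ := by
    rw [← hn]
  have h2 : ((sA ⟨c, hcL⟩ : L) : k) = s c := rfl
  rw [← h2, h1, AlgHom.coe_pow, FiniteField.coe_frobeniusAlgHom, pow_iterate, ZMod.card]
  rfl

/-- `c ^ (q ^ f) = c` implies `c ^ (q ^ (f * g)) = c`. -/
theorem pow_fix_mul {c : k} {f : ℕ} (h : c ^ (q ^ f) = c) (g : ℕ) : c ^ (q ^ (f * g)) = c := by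
  induction g with
  | zero => simp
  | succ g ih =>
    rw [Nat.mul_succ, pow_add, pow_mul, ih, h]

/-- All coefficients of `x` lie in the finite field `fixF q f`. -/
def CoeffFix (f : ℕ) (x : LaurentSeries k) : Prop := ∀ n : ℤ, x.coeff n ^ (q ^ f) = x.coeff n

theorem coeffFix_iff (f : ℕ) (x : LaurentSeries k) :
    CoeffFix q f x ↔ coeffMap (iterateFrobenius k q f) x = x := by
  constructor
  · intro h
    ext n
    rw [coeffMap_coeff, iterateFrobenius_def]
    exact h n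
  · intro h n
    have := congrArg (fun y : LaurentSeries k => y.coeff n) h
    simp only [coeffMap_coeff, iterateFrobenius_def] at this
    exact this

theorem CoeffFix.mono {f : ℕ} {x : LaurentSeries k} (h : CoeffFix q f x) (g : ℕ) :
    CoeffFix q (f * g) x := fun n => pow_fix_mul q (h n) g

theorem CoeffFix.add {f : ℕ} {x y : LaurentSeries k} (hx : CoeffFix q f x)
    (hy : CoeffFix q f y) : CoeffFix q f (x + y) := by
  rw [coeffFix_iff] at hx hy ⊢
  rw [map_add, hx, hy]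

theorem CoeffFix.mul {f : ℕ} {x y : LaurentSeries k} (hx : CoeffFix q f x)
    (hy : CoeffFix q f y) : CoeffFix q f (x * y) := by
  rw [coeffFix_iff] at hx hy ⊢
  rw [map_mul, hx, hy]

theorem CoeffFix.inv {f : ℕ} {x : LaurentSeries k} (hx : CoeffFix q f x) :
    CoeffFix q f x⁻¹ := by
  rw [coeffFix_iff] at hx ⊢
  rw [map_inv₀, hx]

theorem coeffFix_algebraMap {f : ℕ} {c : k} (h : c ^ (q ^ f) = c) (hf : 0 < f) :
    CoeffFix q f (algebraMap k (LaurentSeries k) c) := by
  rw [coeffFix_iff, Fermat.Agent.BAD.H73.algebraMap_eq_single, coeffMap_single,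
    iterateFrobenius_def, h]

/-- Every element of a field generated over `k` (algebraic over the prime field) by series with
coefficients fixed by Frobenius has its coefficients in a finite field. -/
theorem exists_coeffFix_of_mem_adjoin (hk : ∀ c : k, ∃ f : ℕ, 0 < f ∧ c ^ (q ^ f) = c)
    (S : Set (LaurentSeries k)) (hS : ∀ s ∈ S, CoeffFix q 1 s) {x : LaurentSeries k}
    (hx : x ∈ IntermediateField.adjoin k S) : ∃ f : ℕ, 0 < f ∧ CoeffFix q f x := by
  induction hx using IntermediateField.adjoin_induction with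
  | mem x hx => exact ⟨1, Nat.one_pos, hS x hx⟩
  | algebraMap c =>
    obtain ⟨f, hf, hc⟩ := hk c
    exact ⟨f, hf, coeffFix_algebraMap q hc hf⟩
  | add x y _ _ hx hy =>
    obtain ⟨f, hf, hx⟩ := hx
    obtain ⟨g, hg, hy⟩ := hy
    refine ⟨f * g, Nat.mul_pos hf hg, (hx.mono q g).add q ?_⟩
    rw [mul_comm]
    exact hy.mono q f
  | inv x _ hx =>
    obtain ⟨f, hf, hx⟩ := hx
    exact ⟨f, hf, hx.inv q⟩
  | mul x y _ _ hx hy =>
    obtain ⟨f, hf, hx⟩ := hx
    obtain ⟨g, hg, hy⟩ := hy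
    refine ⟨f * g, Nat.mul_pos hf hg, (hx.mono q g).mul q ?_⟩
    rw [mul_comm]
    exact hy.mono q f

/-- For a series with coefficients in a finite field, a coefficientwise ring endomorphism is a
coefficientwise power of Frobenius. -/
theorem exists_coeffMap_eq_pow (s : k →+* k) {f : ℕ} (hf : 0 < f) :
    ∃ m : ℕ, ∀ x : LaurentSeries k, CoeffFix q f x →
      coeffMap s x = coeffMap (iterateFrobenius k q m) x := by
  obtain ⟨m, hm⟩ := exists_pow_of_ringHom q s hf
  refine ⟨m, fun x hx => ?_⟩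
  ext n
  rw [coeffMap_coeff, coeffMap_coeff, iterateFrobenius_def]
  exact hm _ (hx n)

/-- `CoeffFix` is preserved by coefficientwise ring endomorphisms. -/
theorem CoeffFix.coeffMap {f : ℕ} {x : LaurentSeries k} (hx : CoeffFix q f x) (s : k →+* k) :
    CoeffFix q f (ModularCurve.coeffMap s x) := by
  intro n
  rw [coeffMap_coeff, ← map_pow, hx n]

end Fin

end Fermat.Agent.S33.New.H36

end
end
-- ==== END Fermat.Agent.S33.New.H36_FrobFin

-- ==== BEGIN Fermat.Agent.S33.New.H86_Frob2Gen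
section
attribute [local instance 10000] SubalgebraClass.toAlgebra
attribute [local instance 10000] HahnSeries.powerSeriesAlgebra

/-!
# S33 / S59, package STRICT, leaf FROB2-DESC3, part 2: the generic descent (helper86)

`C` a field, `O` a valuation ring of `C`, `F ≤ F'` two fields of Laurent series over `C` with the
scaling property.  If `n`-th roots exist in the residue field of `O` and the residue field of `F`
is `n`-th-root closed in `k((t))`, then the Kummer form

  `c · G · t' ^ n ≡ 1` in the Gauss ring of `F'`  (`G ∈ F`, `t' ∈ F'`)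

descends to `F`:  `c₁ · G · w ^ n ≡ 1` in the Gauss ring of `F` for some `w ∈ F`.
-/

set_option autoImplicit false
set_option linter.style.haveILetI false
set_option linter.unusedSectionVars false

noncomputable section

open ModularCurve Fermat.Agent.S28 Fermat.Agent.S28.H73 Fermat.Agent.RED.H73

namespace Fermat.Agent.S33.New.H86

section Generic

variable {C : Type} [Field C] (O : ValuationSubring C)
variable {F F' : IntermediateField C (LaurentSeries C)}

/-- An element of the Gauss ring with nonzero reduction has an inverse in the Gauss ring. -/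
theorem exists_inv_gaussResF (h : HasScale O F) (x : ↥(gaussValSub O F h))
    (hx : gaussResF O h x ≠ 0) :
    ∃ v : ↥(gaussValSub O F h), x * v = 1 ∧ gaussResF O h x * gaussResF O h v = 1 := by
  have hu : IsUnit x := (isUnit_iff_gaussResF_ne_zero O h x).2 hx
  obtain ⟨v, hv⟩ := hu.exists_right_inv
  exact ⟨v, hv, by rw [← map_mul, hv, map_one]⟩

/-- The Gauss ring and the reduction are compatible with an inclusion of fields of series. -/
theorem gaussResF_inclusion (hle : F ≤ F') (h : HasScale O F) (h' : HasScale O F')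
    (x : ↥(gaussValSub O F h)) :
    ∃ hm : IntermediateField.inclusion hle (x : ↥F) ∈ gaussValSub O F' h',
      gaussResF O h' ⟨_, hm⟩ = gaussResF O h x := by
  have hm : IntermediateField.inclusion hle (x : ↥F) ∈ gaussValSub O F' h' := by
    rw [mem_gaussValSub_iff, IntermediateField.coe_inclusion]
    exact x.2
  refine ⟨hm, ?_⟩
  rw [gaussResF_apply, gaussResF_apply]
  congr 1

/-- The constant of the descent. -/
theorem key_const_inv {K E : Type*} [Field K] [Field E] [Algebra K E] (c c₀ e₀ : K)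
    (X T v : E) (n : ℕ)
    (h : algebraMap K E c * (algebraMap K E c₀ * X) * (algebraMap K E e₀ * T) ^ n * v = 1) :
    X * T ^ n * v = algebraMap K E (c * c₀ * e₀ ^ n)⁻¹ := by
  have h1 : algebraMap K E (c * c₀ * e₀ ^ n) * (X * T ^ n * v) = 1 := by
    rw [← h, map_mul, map_mul, map_pow]
    ring
  rw [map_inv₀]
  exact eq_inv_of_mul_eq_one_right h1

/-- **The generic descent of the Kummer form.** -/
theorem descent_generic (hle : F ≤ F') (h : HasScale O F) (h' : HasScale O F')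
    (n : ℕ) (hn : 0 < n)
    (hroot : ∀ x : kV O, ∃ l : kV O, l ^ n = x)
    (hsep : ∀ y : LaurentSeries (kV O), y ^ n ∈ redField O F h → y ∈ redField O F h)
    (G : ↥F) (hG0 : G ≠ 0) (c : C) (t' : ↥F') (ht' : t' ≠ 0)
    (hu : algebraMap C ↥F' c * IntermediateField.inclusion hle G * t' ^ n
      ∈ gaussValSub O F' h')
    (hru : gaussResF O h' ⟨_, hu⟩ = 1) :
    ∃ (c₁ : C) (w : ↥F), c₁ ≠ 0 ∧ w ≠ 0 ∧
      ∃ hm : algebraMap C ↥F c₁ * G * w ^ n ∈ gaussValSub O F h,
        gaussResF O h ⟨_, hm⟩ = 1 := by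
  -- scalings
  obtain ⟨c₀, u, hc₀, hGu⟩ := exists_unit_scale O h G hG0
  obtain ⟨e₀, u', he₀, htu⟩ := exists_unit_scale O h' t' ht'
  have hψ0 : gaussResF O h (u : ↥(gaussValSub O F h)) ≠ 0 :=
    (isUnit_iff_gaussResF_ne_zero O h _).1 u.isUnit
  have hτ0 : gaussResF O h' (u' : ↥(gaussValSub O F' h')) ≠ 0 :=
    (isUnit_iff_gaussResF_ne_zero O h' _).1 u'.isUnit
  obtain ⟨hmX, hrX⟩ := gaussResF_inclusion O hle h h' (u : ↥(gaussValSub O F h))
  -- the inverse of the given unit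
  obtain ⟨v, hv, hvr⟩ := exists_inv_gaussResF O h' ⟨_, hu⟩ (by rw [hru]; exact one_ne_zero)
  rw [hru, one_mul] at hvr
  -- the constant
  have hval : algebraMap C ↥F' c * (algebraMap C ↥F' c₀
        * IntermediateField.inclusion hle ((u : ↥(gaussValSub O F h)) : ↥F))
      * (algebraMap C ↥F' e₀ * ((u' : ↥(gaussValSub O F' h')) : ↥F')) ^ n
      * (v : ↥F') = 1 := by
    have h0 : (algebraMap C ↥F' c * IntermediateField.inclusion hle G * t' ^ n)
        * (v : ↥F') = 1 := congrArg Subtype.val hv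
    have e1 : IntermediateField.inclusion hle G = algebraMap C ↥F' c₀
        * IntermediateField.inclusion hle ((u : ↥(gaussValSub O F h)) : ↥F) := by
      conv_lhs => rw [hGu]
      rw [map_mul, AlgHom.commutes]
    rw [← e1, ← htu]
    exact h0
  have hK := key_const_inv c c₀ e₀ _ _ _ n hval
  set κ : C := (c * c₀ * e₀ ^ n)⁻¹ with hκ
  have hKV : algebraMap C ↥F' κ ∈ gaussValSub O F' h' := by
    rw [← hK]
    exact (gaussValSub O F' h').mul_mem _ _
      ((gaussValSub O F' h').mul_mem _ _ hmX (pow_mem (u' : ↥(gaussValSub O F' h')).2 n)) v.2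
  have hκO : κ ∈ O := (algebraMap_mem_gaussValSub_iff O h' κ).1 hKV
  have hres : (HahnSeries.C (resV O ⟨κ, hκO⟩) : LaurentSeries (kV O))
      = gaussResF O h (u : ↥(gaussValSub O F h))
        * gaussResF O h' (u' : ↥(gaussValSub O F' h')) ^ n := by
    rw [← gaussResF_algebraMap O h' ⟨κ, hκO⟩ hKV]
    have e2 : (⟨algebraMap C ↥F' κ, hKV⟩ : ↥(gaussValSub O F' h'))
        = (⟨_, hmX⟩ : ↥(gaussValSub O F' h')) * (u' : ↥(gaussValSub O F' h')) ^ n * v :=
      Subtype.ext hK.symm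
    rw [e2, map_mul, map_mul, map_pow, hvr, mul_one, hrX]
  -- the root
  obtain ⟨lam, hlam⟩ := hroot (resV O ⟨κ, hκO⟩)
  have hyn : ((HahnSeries.C lam : LaurentSeries (kV O))
      * (gaussResF O h' (u' : ↥(gaussValSub O F' h')))⁻¹) ^ n
      = gaussResF O h (u : ↥(gaussValSub O F h)) := by
    rw [mul_pow, ← map_pow, hlam, hres, inv_pow, mul_assoc,
      mul_inv_cancel₀ (pow_ne_zero _ hτ0), mul_one]
  have hy0 : (HahnSeries.C lam : LaurentSeries (kV O))
      * (gaussResF O h' (u' : ↥(gaussValSub O F' h')))⁻¹ ≠ 0 := by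
    intro h0
    rw [h0, zero_pow hn.ne'] at hyn
    exact hψ0 hyn.symm
  have hyE := hsep _ (by rw [hyn]; exact gaussResF_mem_redField O h _)
  obtain ⟨t₀, ht₀⟩ := (mem_redField_iff O h _).1 hyE
  obtain ⟨w, hw, hwr⟩ := exists_inv_gaussResF O h t₀ (by rw [ht₀]; exact hy0)
  have hw0 : (w : ↥F) ≠ 0 := by
    intro h0
    have h1 : (t₀ : ↥F) * (w : ↥F) = 1 := congrArg Subtype.val hw
    rw [h0, mul_zero] at h1
    exact zero_ne_one h1
  have heq : algebraMap C ↥F c₀⁻¹ * G * (w : ↥F) ^ n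
      = (((u : ↥(gaussValSub O F h)) * w ^ n : ↥(gaussValSub O F h)) : ↥F) := by
    have e3 : algebraMap C ↥F c₀⁻¹ * G = ((u : ↥(gaussValSub O F h)) : ↥F) := by
      rw [hGu, ← mul_assoc, ← map_mul, inv_mul_cancel₀ hc₀, map_one, one_mul]
    rw [e3]
    rfl
  have hm : algebraMap C ↥F c₀⁻¹ * G * (w : ↥F) ^ n ∈ gaussValSub O F h := by
    rw [heq]
    exact ((u : ↥(gaussValSub O F h)) * w ^ n).2
  refine ⟨c₀⁻¹, (w : ↥F), inv_ne_zero hc₀, hw0, hm, ?_⟩
  have e4 : (⟨_, hm⟩ : ↥(gaussValSub O F h)) = (u : ↥(gaussValSub O F h)) * w ^ n :=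
    Subtype.ext heq
  rw [e4, map_mul, map_pow, ← hyn, ← mul_pow, ← ht₀, hwr, one_pow]

end Generic

end Fermat.Agent.S33.New.H86

end
end
-- ==== END Fermat.Agent.S33.New.H86_Frob2Gen

-- ==== BEGIN Fermat.Agent.S33.New.H86_Sep
section

/-!
# S33 / S59, package STRICT, leaf FROB2-DESC3, part 1: separability on the residue side (helper86)

`F₁ = F1 A q M ⊂ k((t))` the residue field of the Gauss valuation of level `M q` (`q ∤ M`,
`A` over `q`).

* `sep_step` : a Laurent series `z ∈ k((t))` with `z ^ q ∈ F₁` lies in `F₁`.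
* `sep_pow`  : the same with `z ^ (q ^ n) ∈ F₁`.

Proof: `F₁` has degree `q` (prime) over `Fr (F₁)` (`H23.finrank_alg2`), and `j~ ∈ F₁` is not a
series in `t ^ q`; so an element `a ∈ F₁` which is a series in `t ^ q` is in `Fr (F₁)` (else
`F₁ = Fr (F₁) (a)` would consist of series in `t ^ q`).  For `a = z ^ q = Fr (φ z)` this gives
`φ z ∈ F₁`, and `F₁` is stable under the coefficientwise Frobenius `φ`.
-/

set_option autoImplicit false
set_option linter.style.haveILetI false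
set_option linter.unusedSectionVars false
set_option synthInstance.maxHeartbeats 400000
set_option maxHeartbeats 1000000

noncomputable section

open AlgebraicCurve ModularCurve
open Fermat.Agent.S28.H73 Fermat.Agent.RED.H73 Fermat.Agent.RED Fermat.Agent.S24
open Fermat.Agent.BAD.H88

namespace Fermat.Agent.S33.New.H86

open Fermat.Agent.BAD

section Sep

variable (A : ValuationSubring Kbar) (q M : ℕ) (a b : ℤ) (hab : a * q + b * M = 1)
  (hq : q.Prime) [NeZero M] [NeZero (M * q)] (hA : A.LiesOverPrime q) (hqM : ¬ q ∣ M)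

include hab hA hqM in
/-- An element of `F₁` which is a series in `t ^ q` is in the image of `Fr`. -/
theorem mem_range_alg2_of_qExpand
    (hD : redField A (modularFunctionFieldBar (M * q)) (hSc A q M)
      = modularFunctionFieldFullC (kV A) M)
    (x : F1 A q M) (w : LaurentSeries (kV A))
    (hx : (x : LaurentSeries (kV A)) = (haveI : NeZero q := ⟨hq.ne_zero⟩; qExpand (kV A) q w)) :
    ∃ y : ↥(H91.redM A M),
      H73.FrF1 A q M hq hA M hD (H23.eRed A q M a b hab hq hA y) = x := by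
  haveI : NeZero q := ⟨hq.ne_zero⟩
  letI := H23.alg2 A q M a b hab hq hA hD
  haveI : Module.Finite ↥(H91.redM A M) (F1 A q M) := H23.finite_alg2 A q M a b hab hq hA hD hqM
  have hfin : Module.finrank ↥(H91.redM A M) (F1 A q M) = q :=
    H23.finrank_alg2 A q M a b hab hq hA hD hqM
  haveI : IsSimpleOrder (IntermediateField ↥(H91.redM A M) (F1 A q M)) :=
    IntermediateField.isSimpleOrder_of_finrank_prime _ _ (by rw [hfin]; exact hq)
  rcases eq_bot_or_eq_top (IntermediateField.adjoin ↥(H91.redM A M) ({x} : Set (F1 A q M)))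
    with hbot | htop
  · have hxm : x ∈ IntermediateField.adjoin ↥(H91.redM A M) ({x} : Set (F1 A q M)) :=
      IntermediateField.mem_adjoin_simple_self _ x
    rw [hbot, IntermediateField.mem_bot] at hxm
    obtain ⟨y, hy⟩ := hxm
    exact ⟨y, hy⟩
  · exfalso
    -- every element of `F₁` is a series in `t ^ q`
    have hall : ∀ y ∈ IntermediateField.adjoin ↥(H91.redM A M) ({x} : Set (F1 A q M)),
        ∃ w' : LaurentSeries (kV A), (y : LaurentSeries (kV A)) = qExpand (kV A) q w' := by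
      intro y hy
      induction hy using IntermediateField.adjoin_induction with
      | mem y hy =>
        rw [Set.mem_singleton_iff] at hy
        exact ⟨w, hy ▸ hx⟩
      | algebraMap y =>
        exact ⟨((H23.eRed A q M a b hab hq hA y : F1 A q M) : LaurentSeries (kV A)),
          H73.coe_FrF1 A q M hq hA M hD _⟩
      | add y₁ y₂ _ _ h₁ h₂ =>
        obtain ⟨w₁, hw₁⟩ := h₁
        obtain ⟨w₂, hw₂⟩ := h₂
        refine ⟨w₁ + w₂, ?_⟩
        rw [map_add, ← hw₁, ← hw₂]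
        rfl
      | inv y _ h₁ =>
        obtain ⟨w₁, hw₁⟩ := h₁
        refine ⟨w₁⁻¹, ?_⟩
        rw [map_inv₀, ← hw₁]
        rfl
      | mul y₁ y₂ _ _ h₁ h₂ =>
        obtain ⟨w₁, hw₁⟩ := h₁
        obtain ⟨w₂, hw₂⟩ := h₂
        refine ⟨w₁ * w₂, ?_⟩
        rw [map_mul, ← hw₁, ← hw₂]
        rfl
    have hj : (⟨jqModC (kV A), H73.jqModC_mem_F1 A q M M hD⟩ : F1 A q M)
        ∈ IntermediateField.adjoin ↥(H91.redM A M) ({x} : Set (F1 A q M)) := by
      rw [htop]
      exact IntermediateField.mem_top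
    obtain ⟨w', hw'⟩ := hall _ hj
    have h1 : (jqModC (kV A)).coeff (-1 : ℤ) = 0 := by
      have h2 : jqModC (kV A) = qExpand (kV A) q w' := hw'
      rw [h2]
      refine qExpand_coeff_of_not_dvd q w' ?_
      intro hd
      have h3 : ((q : ℕ) : ℤ) ∣ 1 := (dvd_neg (a := (q : ℤ)) (b := 1)).mp hd
      have h4 : q ∣ 1 := by exact_mod_cast h3
      exact hq.one_lt.ne' (Nat.dvd_one.mp h4)
    rw [coeff_jqModC_neg_one] at h1
    exact one_ne_zero h1

include hab hq hA hqM in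
/-- **SEP**, one step: `z ^ q ∈ F₁ ⇒ z ∈ F₁`. -/
theorem sep_step (z : LaurentSeries (kV A))
    (hz : z ^ q ∈ redField A (modularFunctionFieldBar (M * q)) (hSc A q M)) :
    z ∈ redField A (modularFunctionFieldBar (M * q)) (hSc A q M) := by
  haveI : NeZero q := ⟨hq.ne_zero⟩
  haveI : Fact q.Prime := ⟨hq⟩
  haveI : CharP (kV A) q := H82.charP_kV A hq hA
  haveI : IsAlgClosed (kV A) := isAlgClosed_kV A
  haveI : PerfectRing (kV A) q := H73.perfectRing_kV A q
  have hD := H82.redField_eq_fullC q M a b hab hq A hA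
  have hstab : H73.FrobStable q (redField A (modularFunctionFieldBar (M * q)) (hSc A q M)) :=
    H73.frobStable_F1 A q M hq hA M hD
  obtain ⟨y, hy⟩ := mem_range_alg2_of_qExpand A q M a b hab hq hA hqM hD ⟨z ^ q, hz⟩
    (H73.frobL (kV A) q z) (H73.pow_eq_qExpand_frobL q z)
  have h1 := congrArg (Subtype.val : F1 A q M → LaurentSeries (kV A)) hy
  rw [H73.coe_FrF1] at h1
  have h2 : qExpand (kV A) q ((H23.eRed A q M a b hab hq hA y : F1 A q M) : LaurentSeries (kV A))
      = qExpand (kV A) q (H73.frobL (kV A) q z) := by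
    rw [h1]
    exact H73.pow_eq_qExpand_frobL q z
  have h3 := qExpand_injective q h2
  have h4 : H73.frobL (kV A) q z ∈ redField A (modularFunctionFieldBar (M * q)) (hSc A q M) := by
    rw [← h3]
    exact (H23.eRed A q M a b hab hq hA y).2
  exact (hstab z).1 h4

include hab hq hA hqM in
/-- **SEP**: `z ^ (q ^ n) ∈ F₁ ⇒ z ∈ F₁`. -/
theorem sep_pow (n : ℕ) (z : LaurentSeries (kV A))
    (hz : z ^ (q ^ n) ∈ redField A (modularFunctionFieldBar (M * q)) (hSc A q M)) :
    z ∈ redField A (modularFunctionFieldBar (M * q)) (hSc A q M) := by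
  induction n generalizing z with
  | zero =>
    rw [pow_zero, pow_one] at hz
    exact hz
  | succ n ih =>
    apply ih
    apply sep_step A q M a b hab hq hA hqM
    rw [← pow_mul, ← pow_succ]
    exact hz

end Sep

end Fermat.Agent.S33.New.H86

end
end
-- ==== END Fermat.Agent.S33.New.H86_Sep

-- ==== BEGIN Fermat.Agent.S34.Wiring
section

/-!
# S34 wiring (helper86, cluster R)

`Fermat.Agent.S34.wiring`: the frozen statement S34 (inertia at `q ∥ N`, `q ≠ p`, has
characteristic polynomial `(X - 1) ^ 2` on a Hecke–Galois datum) from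

* `Stmt_S30U`   : S30 together with the same property for the representations attached to
                  the `p`-adic points of the Hecke algebra (geometry: toric reduction of
                  `J₀(N)` at `q ∥ N`),
* `Stmt_FD`     : Frobenius density, division form (item 61),
* `Stmt_SepAll` : `p`-adic separation of the anemic Hecke algebras (leaf L3c).

The statement only involves the characteristic polynomial of `ρ τ`, so it is an instance of
the transfer principle with `g₁ = τ`, `g₂ = 1`; the residual representation plays no role.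
-/

set_option autoImplicit false

open Polynomial IsLocalRing

namespace Fermat.Agent.S34

open Fermat.Agent.R

/-- S34 from S30U, Frobenius density and separation of the Hecke algebra. -/
theorem wiring (hS30U : Stmt_S30U) (hFD : Stmt_FD) (hSep : Stmt_SepAll)
    {𝒪 : Type} [CommRing 𝒪] [IsDomain 𝒪] [IsDiscreteValuationRing 𝒪]
    [IsAdicComplete (maximalIdeal 𝒪) 𝒪] [Finite (ResidueField 𝒪)] [CharZero 𝒪]
    {p : ℕ} (hp : p.Prime) (hp𝒪 : (p : 𝒪) ∈ maximalIdeal 𝒪)
    {N : ℕ} [NeZero N] {S : Finset ℕ} (hpS : p ∈ S) (hNS : ∀ q : ℕ, q.Prime → q ∣ N → q ∈ S)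
    {θ : CuspForm.heckeAlgebra N 2 (↑S : Set ℕ) →+* ResidueField 𝒪}
    {T : Type} [CommRing T] [IsLocalRing T] [IsNoetherianRing T]
    [IsAdicComplete (maximalIdeal T) T] [Algebra 𝒪 T] [IsLocalHom (algebraMap 𝒪 T)]
    [Module.Finite 𝒪 T] [Module.Free 𝒪 T]
    (H : CuspForm.HeckeGaloisRepDatum N (↑S : Set ℕ) 𝒪 θ T)
    (q : ℕ) (hq : q.Prime) (hqp : q ≠ p) (hqN : q ∣ N) (hq2 : ¬ q ^ 2 ∣ N) :
    H.ρ.IsUnipotentOnInertiaAt q := by
  intro P hP τ hτ
  have : Fact p.Prime := ⟨hp⟩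
  have hcp : (H.ρ.ρ τ).charpoly = (H.ρ.ρ 1).charpoly := by
    refine transfer_charpoly hp.ne_zero hFD (hSep N S p hp hpS hNS) hNS
      (natCast_mem_maximalIdeal_of_algebra hp𝒪) H.π H.ρ (hasFrobCharpoly_datum H) τ 1 ?_
    intro P'
    obtain ⟨𝒪'', i1, i2, i3, i4, i5, i6, i7, i8, i9, hinj, ρ', hcp', -, huni⟩ :=
      hS30U p N S hpS hNS P'.R P'.hp P'.χ
    refine ⟨𝒪'', i1, i2, i3, i6, algebraMap P'.R 𝒪'', hinj, i9, ρ', ?_, ?_⟩
    · intro ℓ hℓ hℓN hℓS B hB σ hσ
      exact hcp' ℓ hℓ hℓN hℓS B hB σ hσ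
    · rw [huni q hq hqN hq2 hqp P hP τ hτ, map_one, LinearMap.charpoly_one, ρ'.finrank_eq]
  rw [hcp, map_one, LinearMap.charpoly_one, H.ρ.finrank_eq]

end Fermat.Agent.S34

end
-- ==== END Fermat.Agent.S34.Wiring

-- ==== BEGIN Fermat.Agent.S35.H44_TotFrobMod
section
attribute [local instance 10000] SubalgebraClass.toAlgebra
attribute [local instance 10000] HahnSeries.powerSeriesAlgebra

/-!
# S35, SIGMA package (helper44): the square of a Frobenius element is Frobenius-like for the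
modular total conservation datum  (E1 of the assembly of `Stmt_ModSt`)

`q ∤ M` tame, `A` over `q`, `σ` a Frobenius element at `A`, `T = modTot`, `φ̄ = phiSemiMod`.

* `tauBMod` : `τb = φ̄²` as a ring endomorphism of `F₁`;
* `totFrob_mod` : `TotFrob T (galF (σ σ)) τb (q²)`, from (F-d) `stmt_FrobRed`, (F-b)
  `H52.stmt_FrobRho` and (Σ-fix) `H30.sigmaFix_of`, by helper89's `totFrob_of`;
* `phiSemiMod_algebraMap`, `betaMod_ord`, `rhoF1_galF_inv` : the inputs, separately.
-/

set_option autoImplicit false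
set_option linter.style.haveILetI false
set_option synthInstance.maxHeartbeats 400000
set_option maxHeartbeats 400000
set_option linter.unusedSectionVars false

noncomputable section

open HahnSeries IntermediateField AlgebraicCurve ModularCurve
open Fermat.Agent.S28.H73 Fermat.Agent.RED.H73 Fermat.Agent.RED Fermat.Agent.S24
open Fermat.Agent.BAD.H88 Fermat.Agent.BAD Fermat.Agent.S35.H89

namespace Fermat.Agent.S35.H44

section TotFrobMod

variable (A : ValuationSubring Kbar) (q M : ℕ) (a b : ℤ) (hab : a * q + b * M = 1)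
  (hq : q.Prime) [NeZero M] [NeZero (M * q)] (hA : A.LiesOverPrime q)

/-- `τb = φ̄²`, the square of the coefficientwise Frobenius of `F₁`. -/
def tauBMod : F1 A q M →+* F1 A q M :=
  (phiMod A q M a b hab hq hA).toRingHom.comp (phiMod A q M a b hab hq hA).toRingHom

theorem tauBMod_apply (ψ : F1 A q M) :
    tauBMod A q M a b hab hq hA ψ
      = phiSemiMod A q M a b hab hq hA • (phiSemiMod A q M a b hab hq hA • ψ) := rfl

/-- `φ̄` on the constants. -/
theorem phiSemiMod_algebraMap (c : kV A) :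
    phiSemiMod A q M a b hab hq hA • algebraMap (kV A) (F1 A q M) c
      = algebraMap (kV A) (F1 A q M) (c ^ q) := by
  haveI : Fact q.Prime := ⟨hq⟩
  haveI := BAD.H82.charP_kV A hq hA
  haveI := BAD.H73.perfectRing_kV (A := A) (q := q)
  rw [phiSemiMod_smul]
  exact BAD.H73.frobE_algebraMap
    (BAD.H73.frobStable_F1 A q M hq hA M (H82.redField_eq_fullC q M a b hab hq A hA)) c

/-- `ord_{β z} ψ = ord_z (φ̄ ψ)`. -/
theorem betaMod_ord (z : Place (kV A) (F1 A q M)) (ψ : F1 A q M) :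
    (betaMod A q M a b hab hq hA z).ord ψ = z.ord (phiSemiMod A q M a b hab hq hA • ψ) := by
  haveI : Fact q.Prime := ⟨hq⟩
  haveI := BAD.H82.charP_kV A hq hA
  haveI := BAD.H73.perfectRing_kV (A := A) (q := q)
  exact BAD.H73.beta_ord
    (BAD.H73.frobStable_F1 A q M hq hA M (H82.redField_eq_fullC q M a b hab hq A hA)) z ψ

variable (hqM : ¬ q ∣ M) (ht : H91.TameAt M q)

/-- (F-b) for the inverse: `ρ (σ⁻¹ P) = β (ρ P)`. -/
theorem rhoF1_galF_inv {σ : GalQ} (hσ : A.IsFrobeniusAt σ q) (P : Place Kbar (FN (M * q))) :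
    H91.rhoF1 a b hab hq hA hqM ht ((galF (M * q) σ)⁻¹ • P)
      = betaMod A q M a b hab hq hA (H91.rhoF1 a b hab hq hA hqM ht P) := by
  have h := H52.stmt_FrobRho A q M a b hab hq hA hqM ht σ hσ ((galF (M * q) σ)⁻¹ • P)
  rw [smul_inv_smul] at h
  rw [h, Equiv.apply_symm_apply]

/-- **E1**: the square of a Frobenius element is Frobenius-like of exponent `q²` for the modular
total conservation datum, with `τ₁ = τ₂ = φ̄²`. -/
theorem totFrob_mod [NeZero q] {σ : GalQ} (hσ : A.IsFrobeniusAt σ q) :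
    TotFrob (modTot A q M a b hab hq hA hqM ht) (galF (M * q) (σ * σ))
      (tauBMod A q M a b hab hq hA) (q ^ 2) := by
  obtain ⟨m1, m2, r1, r2⟩ := stmt_FrobRed A q M a b hab hq hA σ hσ
  have hmul : galF (M * q) (σ * σ) = galF (M * q) σ * galF (M * q) σ :=
    map_mul (arithmeticGalois (modularFunctionFieldFull (M * q))) σ σ
  have hsm : ∀ f : FN (M * q),
      galF (M * q) (σ * σ) • f = galF (M * q) σ • (galF (M * q) σ • f) := by
    intro f
    rw [hmul, mul_smul]
  refine totFrob_of (phiSemiMod A q M a b hab hq hA) (tauBMod_apply A q M a b hab hq hA)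
    (phiSemiMod_algebraMap A q M a b hab hq hA) (betaMod_ord A q M a b hab hq hA)
    (H30.sigmaFix_of H52.stmt_FrobRho A q M a b hab hq hA hqM ht σ hσ) ?_ ?_ ?_ ?_ ?_
  · intro P
    have e : (galF (M * q) (σ * σ))⁻¹ • P
        = (galF (M * q) σ)⁻¹ • ((galF (M * q) σ)⁻¹ • P) := by
      rw [hmul, mul_inv_rev, mul_smul]
    show H91.rhoF1 a b hab hq hA hqM ht ((galF (M * q) (σ * σ))⁻¹ • P)
      = betaMod A q M a b hab hq hA
          (betaMod A q M a b hab hq hA (H91.rhoF1 a b hab hq hA hqM ht P))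
    rw [e, rhoF1_galF_inv A q M a b hab hq hA hqM ht hσ,
      rhoF1_galF_inv A q M a b hab hq hA hqM ht hσ]
  · intro f hf
    rw [hsm]
    exact m1 _ (m1 f hf)
  · intro f hf
    rw [hsm]
    exact m2 _ (m2 f hf)
  · intro f h h'
    have h1 : galF (M * q) σ • f ∈ V1 A q M := m1 f h
    have h2 : galF (M * q) σ • (galF (M * q) σ • f) ∈ V1 A q M := m1 _ h1
    have key : red1 A q M ⟨galF (M * q) (σ * σ) • f, h'⟩ = red1 A q M ⟨_, h2⟩ :=
      congrArg (red1 A q M) (Subtype.ext (hsm f))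
    show red1 A q M ⟨galF (M * q) (σ * σ) • f, h'⟩
      = tauBMod A q M a b hab hq hA (red1 A q M ⟨f, h⟩)
    rw [key, r1 _ h1 h2, r1 f h h1]
    rfl
  · intro f h h'
    have h1 : galF (M * q) σ • f ∈ V2 A q M a b hab hq := m2 f h
    have h2 : galF (M * q) σ • (galF (M * q) σ • f) ∈ V2 A q M a b hab hq := m2 _ h1
    have key : red2 A q M a b hab hq ⟨galF (M * q) (σ * σ) • f, h'⟩
        = red2 A q M a b hab hq ⟨_, h2⟩ :=
      congrArg (red2 A q M a b hab hq) (Subtype.ext (hsm f))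
    show red2 A q M a b hab hq ⟨galF (M * q) (σ * σ) • f, h'⟩
      = tauBMod A q M a b hab hq hA (red2 A q M a b hab hq ⟨f, h⟩)
    rw [key, r2 _ h1 h2, r2 f h h1]
    rfl

end TotFrobMod

end Fermat.Agent.S35.H44

end
end
-- ==== END Fermat.Agent.S35.H44_TotFrobMod

-- ==== BEGIN Fermat.Agent.S36.NU.H10_Out
section

/-!
# S36 / NU-B, OUT (helper10): the unconditional outputs of NU-B for the consumers

* `torsNU M q p : S35.H89.Stmt_TorsNU M q p` (PIVOT / PV-GEOM, S59 LL, S45);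
* `tatePieceNU : S35.Stmt_TatePieceNU` (S36, S58).
-/

set_option autoImplicit false

namespace Fermat.Agent.S36.NU.H10

/-- **TORS-NU**, unconditionally, at every level. -/
theorem torsNU (M q p : ℕ) [NeZero M] [NeZero q] : Fermat.Agent.S35.H89.Stmt_TorsNU M q p :=
  Fermat.Agent.S36.NU.H81.torsNU_final nuCoreTame M q p

/-- **The Tate piece of NU**, unconditionally. -/
theorem tatePieceNU : Fermat.Agent.S35.Stmt_TatePieceNU :=
  Fermat.Agent.S36.NU.H81.tatePieceNU_of_core nuCoreTame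

end Fermat.Agent.S36.NU.H10

end
-- ==== END Fermat.Agent.S36.NU.H10_Out

-- ==== BEGIN Fermat.Agent.S41.H77_CorComp
section

/-!
# S41 / L-LIFT: more transfer calculus

* `corAlong_comp` : transitivity of the corestriction, `cor_{ι ∘ κ} = cor_ι ∘ cor_κ`.
* `corAlong_map`  : the corestriction commutes with a change of coefficients.
* `resAlong_map`  : the restriction commutes with a change of coefficients.
* `corAlong_congr`: `corAlong` only depends on the homomorphism.
-/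

set_option autoImplicit false

namespace Fermat.Agent.S41.H77

open Fermat.Agent.S41 Fermat.Agent.S41.H19

section

variable {P H G : Type*} [Group P] [Group H] [Group G] {A : Type*} [AddCommGroup A]

/-- Products of representatives are representatives for the composite. -/
theorem isReps_comp (κ : P →* H) (ι : H →* G) (hι : Function.Injective ι)
    {I J : Type*} {t : I → G} {s : J → H} (ht : IsReps ι t) (hs : IsReps κ s) :
    IsReps (ι.comp κ) (fun ij : I × J => t ij.1 * ι (s ij.2)) := by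
  constructor
  · rintro ⟨i, j⟩ ⟨i', j'⟩ ⟨p, hp⟩
    simp only [MonoidHom.comp_apply] at hp
    have hi : i = i' := by
      apply ht.inj
      refine ⟨s j * κ p * (s j')⁻¹, ?_⟩
      rw [map_mul, map_mul, hp, map_inv]
      group
    subst hi
    have hj : j = j' := by
      apply hs.inj
      refine ⟨p, ?_⟩
      apply hι
      rw [hp, map_mul, map_inv]
      group
    rw [hj]
  · intro g
    obtain ⟨i, h, hh⟩ := ht.surj g
    obtain ⟨j, p, hp⟩ := hs.surj h
    refine ⟨(i, j), p, ?_⟩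
    simp only [MonoidHom.comp_apply]
    rw [hp, map_mul, map_inv, hh]
    group

/-- Transitivity of the corestriction. -/
theorem corAlong_comp (κ : P →* H) (ι : H →* G) (hκ : Function.Injective κ)
    (hι : Function.Injective ι) [hfκ : κ.range.FiniteIndex] [hfι : ι.range.FiniteIndex]
    (φ : Additive P →+ A) :
    corAlong A (ι.comp κ) φ = corAlong A ι (corAlong A κ φ) := by
  classical
  let _ : Fintype (G ⧸ ι.range) := ι.range.fintypeQuotientOfFiniteIndex
  let _ : Fintype (H ⧸ κ.range) := κ.range.fintypeQuotientOfFiniteIndex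
  have ht := isReps_out ι
  have hs := isReps_out κ
  have hts := isReps_comp κ ι hι ht hs
  apply AddMonoidHom.ext
  intro x
  obtain ⟨σ, h, hh⟩ := ht.exists_sol (Additive.toMul x)
  have hex : ∀ i, ∃ (τ : (H ⧸ κ.range) → (H ⧸ κ.range)) (p : (H ⧸ κ.range) → P),
      ∀ j, h i * j.out = (τ j).out * κ (p j) := fun i => hs.exists_sol (h i)
  choose τ p hp using hex
  change corAlong A (ι.comp κ) φ (Additive.ofMul (Additive.toMul x))
    = corAlong A ι (corAlong A κ φ) (Additive.ofMul (Additive.toMul x))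
  rw [corAlong_eq_sum ι hι _ ht _ _ σ h hh,
    corAlong_eq_sum (ι.comp κ) (hι.comp hκ) _ hts _ _ (fun ij => (σ ij.1, τ ij.1 ij.2))
      (fun ij => p ij.1 ij.2) (fun ij => by
        simp only [MonoidHom.comp_apply]
        rw [← mul_assoc, hh ij.1, mul_assoc, ← map_mul, hp ij.1 ij.2, map_mul, mul_assoc]),
    Fintype.sum_prod_type]
  refine Finset.sum_congr rfl fun i _ => ?_
  rw [corAlong_eq_sum κ hκ _ hs _ _ (τ i) (p i) (hp i)]

end

section Coeff

variable {H G : Type*} [Group H] [Group G] {A B : Type*} [AddCommGroup A] [AddCommGroup B]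

/-- The corestriction commutes with a change of coefficients. -/
theorem corAlong_map (ι : H →* G) (f : A →+ B) (φ : Additive H →+ A) :
    corAlong B ι (f.comp φ) = f.comp (corAlong A ι φ) := by
  classical
  by_cases h : Function.Injective ι ∧ ι.range.FiniteIndex
  · obtain ⟨hι, hfin⟩ := h
    let _ : Fintype (G ⧸ ι.range) := ι.range.fintypeQuotientOfFiniteIndex
    apply AddMonoidHom.ext
    intro g
    obtain ⟨σ, k, hk⟩ := (isReps_out ι).exists_sol (Additive.toMul g)
    change corAlong B ι (f.comp φ) (Additive.ofMul (Additive.toMul g)) =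
      f (corAlong A ι φ (Additive.ofMul (Additive.toMul g)))
    rw [corAlong_eq_sum ι hι _ (isReps_out ι) _ _ σ k hk,
      corAlong_eq_sum ι hι _ (isReps_out ι) _ _ σ k hk, map_sum]
    rfl
  · rw [corAlong_of_not h, corAlong_of_not h]
    ext x
    simp

/-- The restriction commutes with a change of coefficients. -/
theorem resAlong_map (ι : H →* G) (f : A →+ B) (φ : Additive G →+ A) :
    resAlong B ι (f.comp φ) = f.comp (resAlong A ι φ) := rfl

end Coeff

end Fermat.Agent.S41.H77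

end
-- ==== END Fermat.Agent.S41.H77_CorComp

-- ==== BEGIN Fermat.Agent.S43.CompEis.H60_Defs
section
attribute [local instance 10000] SubalgebraClass.toAlgebra
attribute [local instance 10000] HahnSeries.powerSeriesAlgebra

set_option autoImplicit false
set_option synthInstance.maxHeartbeats 400000
set_option maxHeartbeats 1000000

noncomputable section

open AlgebraicCurve ModularCurve

namespace Fermat.Agent.S43.CompEis.H60

open Fermat.Agent.BAD Fermat.Agent.S44 Fermat.Agent.S28.H73 Fermat.Agent.RED.H73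
open Fermat.Agent.S43.BadQ

/-- `φ` is a unit of the Gauss valuation ring of level `N`. -/
def IsGaussUnit (A : ValuationSubring (AlgebraicClosure ℚ)) (N : ℕ) (φ : ↥(FNbar N)) : Prop :=
  φ ≠ 0 ∧ φ ∈ gaussV A N ∧ φ⁻¹ ∈ gaussV A N

section Level

variable (A : ValuationSubring (AlgebraicClosure ℚ))
variable (q M : ℕ) (a b : ℤ) (hab : a * q + b * M = 1) (hq : q.Prime) [NeZero (M * q)]

/-- `φ` has slope `k`: `c₁ φ` is a unit for the Gauss valuation, `c₂ φ` is a unit for the second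
valuation `V₁ ∘ w_q`, and `|c₁| = |c₂| |q| ^ k`. -/
def HasSlope (φ : ↥(FNbar (M * q))) (k : ℤ) : Prop :=
  ∃ c₁ c₂ : AlgebraicClosure ℚ,
    IsGaussUnit A (M * q) (algebraMap (AlgebraicClosure ℚ) ↥(FNbar (M * q)) c₁ * φ) ∧
    IsGaussUnit A (M * q) (algebraMap (AlgebraicClosure ℚ) ↥(FNbar (M * q)) c₂ *
      (wS q M a b hab hq • φ)) ∧
    A.valuation c₁ = A.valuation c₂ * A.valuation (q : AlgebraicClosure ℚ) ^ k

end Level

/-- **COORD, modular form** at level `M q`, for the prime `p`: the semistable Deuring datum of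
`X₀(M q)` at `q` with inertia-fixed annulus coordinates of thickness `q ^ e`, `p ∤ e`, at all
nodes.  (To be proved at the THIN levels: `6 ∣ M` for `q ≥ 5`, where `e = 1` at every node.) -/
def Stmt_CE_Coord (p q M : ℕ) (a b : ℤ) (hab : a * q + b * M = 1) (hq : q.Prime)
    [NeZero (M * q)] : Prop :=
  ∀ A : ValuationSubring (AlgebraicClosure ℚ), A.LiesOverPrime q →
    ∃ (F₂ : Type) (_ : Field F₂) (_ : Algebra (kV A) F₂)
      (S : SSD (AlgebraicClosure ℚ) ↥(FNbar (M * q)) (kV A)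
        ↥(redField A (FNbar (M * q)) (hasScale_laurentBaseChange A (M * q))) F₂),
      (∀ f : ↥(FNbar (M * q)), f ∈ S.c₁.V ↔ f ∈ gaussV A (M * q)) ∧
      (∀ (f : ↥(gaussV A (M * q))) (hf : (f : ↥(FNbar (M * q))) ∈ S.c₁.V),
        S.c₁.red ⟨(f : ↥(FNbar (M * q))), hf⟩ = gaussRes A (M * q) f) ∧
      (∀ f : ↥(FNbar (M * q)), f ∈ S.c₂.V ↔ wS q M a b hab hq • f ∈ gaussV A (M * q)) ∧
      (∀ σ ∈ A.inertiaSubgroupIn ℚ, S.IsInertial (galF (M * q) σ)) ∧
      ∀ s ∈ S.nodes, ∃ (e : ℕ) (t : ↥(FNbar (M * q))), ¬ p ∣ e ∧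
        S.IsAnnCoord s t ((q : AlgebraicClosure ℚ) ^ e) ∧
        ∀ σ ∈ A.inertiaSubgroupIn ℚ, galF (M * q) σ • t = t

/-- **NORM-VAL, modular form** at level `M q`: the Hecke operator `T_ℓ`, `ℓ ∤ M q`, on Kummer
pairs.  If `n D = div f` then `T_ℓ [D] = [D']` with `n D' = div f'` (`f' = N_α (β f)`), where
`D'` is fixed by the Galois automorphisms fixing `D`, and `c ^ (ℓ + 1) f'` is a unit of the Gauss
valuation ring `V₁` (of `V₂ = V₁ ∘ w_q`) whenever `c f` is. -/
def Stmt_CE_NormVal (q M : ℕ) (a b : ℤ) (hab : a * q + b * M = 1) (hq : q.Prime)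
    [NeZero (M * q)] : Prop :=
  ∀ A : ValuationSubring (AlgebraicClosure ℚ), A.LiesOverPrime q →
    ∀ ℓ : Nat.Primes, ¬ (ℓ : ℕ) ∣ M * q →
    ∀ (n : ℕ) (D : Divisor.degZero (K := AlgebraicClosure ℚ) (F := ↥(FNbar (M * q))))
      (f : ↥(FNbar (M * q))), f ≠ 0 →
      (∀ P : Place (AlgebraicClosure ℚ) ↥(FNbar (M * q)),
        (n : ℤ) * (D : Divisor (AlgebraicClosure ℚ) ↥(FNbar (M * q))) P = P.ord f) →
      ∃ (D' : Divisor.degZero (K := AlgebraicClosure ℚ) (F := ↥(FNbar (M * q))))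
        (f' : ↥(FNbar (M * q))), f' ≠ 0 ∧
        heckeOperatorBar (M * q) ℓ (Pic0.mk D) = Pic0.mk D' ∧
        (∀ P : Place (AlgebraicClosure ℚ) ↥(FNbar (M * q)),
          (n : ℤ) * (D' : Divisor (AlgebraicClosure ℚ) ↥(FNbar (M * q))) P = P.ord f') ∧
        (∀ σ : GalQ, galF (M * q) σ • (D : Divisor (AlgebraicClosure ℚ) ↥(FNbar (M * q))) = D →
          galF (M * q) σ • (D' : Divisor (AlgebraicClosure ℚ) ↥(FNbar (M * q))) = D') ∧
        (∀ c : AlgebraicClosure ℚ,
          IsGaussUnit A (M * q) (algebraMap (AlgebraicClosure ℚ) ↥(FNbar (M * q)) c * f) →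
          IsGaussUnit A (M * q)
            (algebraMap (AlgebraicClosure ℚ) ↥(FNbar (M * q)) (c ^ ((ℓ : ℕ) + 1)) * f')) ∧
        (∀ c : AlgebraicClosure ℚ,
          IsGaussUnit A (M * q) (algebraMap (AlgebraicClosure ℚ) ↥(FNbar (M * q)) c *
            (wS q M a b hab hq • f)) →
          IsGaussUnit A (M * q)
            (algebraMap (AlgebraicClosure ℚ) ↥(FNbar (M * q)) (c ^ ((ℓ : ℕ) + 1)) *
              (wS q M a b hab hq • f')))

/-- **W-UP**: the Atkin-Lehner involution `w_q` of level `M R q` extends the one of level `M q`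
(both act on `q`-expansions; compare helper88's `wUp_comp_alpha`). -/
def Stmt_CE_WUp : Prop :=
  ∀ (q M R : ℕ) (a b : ℤ) (hab : a * q + b * M = 1) (a' b' : ℤ)
    (hab' : a' * q + b' * ((M * R : ℕ) : ℤ) = 1) (hq : q.Prime) [NeZero (M * q)]
    [NeZero (M * R * q)] (x : ↥(FNbar (M * q))) (y : ↥(FNbar (M * R * q))),
    (y : LaurentSeries (AlgebraicClosure ℚ)) = (x : LaurentSeries (AlgebraicClosure ℚ)) →
    ((wS q (M * R) a' b' hab' hq • y : ↥(FNbar (M * R * q))) :
        LaurentSeries (AlgebraicClosure ℚ)) =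
      ((wS q M a b hab hq • x : ↥(FNbar (M * q))) : LaurentSeries (AlgebraicClosure ℚ))

/-- **DESC**: descent of the divisibility of the orders of a reduced function from level
`N' = 2 N` or `3 N` to level `N`, at a place `A` of residue characteristic `q ≠ N' / N`
(`ord_{Q'} = e(Q' | Q) ord_Q`, `e ≤ 4 < p`; every place `Q` of the reduced field of level `N`
has a place `Q'` of the reduced field of level `N'` above it). -/
def Stmt_CE_Desc : Prop :=
  ∀ (p : ℕ), p.Prime → 5 ≤ p → ∀ (q : ℕ), q.Prime →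
    ∀ (N N' r : ℕ) [NeZero N] [NeZero N'], (r = 2 ∨ r = 3) → r ≠ q → N' = r * N →
    ∀ A : ValuationSubring (AlgebraicClosure ℚ), A.LiesOverPrime q →
    ∀ (f : ↥(gaussV A N)) (f' : ↥(gaussV A N')),
      (((f' : ↥(gaussV A N')) : ↥(FNbar N')) : LaurentSeries (AlgebraicClosure ℚ)) =
        (((f : ↥(gaussV A N)) : ↥(FNbar N)) : LaurentSeries (AlgebraicClosure ℚ)) →
      (∀ Q' : Place (kV A) ↥(redField A (FNbar N') (hasScale_laurentBaseChange A N')),
        (p : ℤ) ∣ Q'.ord (gaussRes A N' f')) →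
      ∀ Q : Place (kV A) ↥(redField A (FNbar N) (hasScale_laurentBaseChange A N)),
        (p : ℤ) ∣ Q.ord (gaussRes A N f)

/-- The thin levels: the levels `M q` at which every supersingular point of `X₀(M)` in
characteristic `q` has no extra automorphism (all nodes of `X₀(M q)` have thickness `1`). -/
def Thin (M q : ℕ) : Prop := (5 ≤ q ∧ 6 ∣ M) ∨ (q = 3 ∧ 4 ∣ M) ∨ (q = 2 ∧ 9 ∣ M)

end Fermat.Agent.S43.CompEis.H60

end
end
-- ==== END Fermat.Agent.S43.CompEis.H60_Defs

-- ==== BEGIN Fermat.Agent.S43.FrobToric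
section

set_option autoImplicit false
set_option synthInstance.maxHeartbeats 400000
set_option maxHeartbeats 1000000

noncomputable section

open AlgebraicCurve ModularCurve

namespace Fermat.Agent.S43.BadQ

open Fermat.Agent.BAD Fermat.Agent.S44 Fermat.Agent.S28.H73 Fermat.Agent.RED.H73

/-- **The modular side of FROB-T at `(q, M, A)`**: a semistable Deuring datum for
`F_{M q} · ℚ̄` at `A` for which every Frobenius element at `A` and `w_q` form a Frobenius-swap
pair of exponent `q`. -/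
def ModSSDWAt (q M : ℕ) (a b : ℤ) (hab : a * q + b * M = 1) (hq : q.Prime) [NeZero (M * q)]
    (A : ValuationSubring (AlgebraicClosure ℚ)) : Prop :=
  ∃ (F₁ F₂ : Type) (_ : Field F₁) (_ : Algebra (kV A) F₁) (_ : Field F₂)
    (_ : Algebra (kV A) F₂)
    (S : SSD (AlgebraicClosure ℚ) ↥(FNbar (M * q)) (kV A) F₁ F₂)
    (_ : RED.H17.FFHyp (AlgebraicClosure ℚ) ↥(FNbar (M * q))) (_ : RED.H17.FFHyp (kV A) F₁)
    (_ : RED.H17.FFHyp (kV A) F₂) (g g₁ g₂ : ℕ) (c c₁ c₂ : ℤ),
    RED.H17.IsGenus (AlgebraicClosure ℚ) ↥(FNbar (M * q)) g c ∧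
    RED.H17.IsGenus (kV A) F₁ g₁ c₁ ∧ RED.H17.IsGenus (kV A) F₂ g₂ c₂ ∧
    g + 1 ≤ g₁ + g₂ + S.nodes.card ∧
    (∀ f : ↥(FNbar (M * q)), f ∈ gaussV A (M * q) → f ∈ S.c₁.V) ∧
    (∀ (f : ↥(gaussV A (M * q))) (hf : (f : ↥(FNbar (M * q))) ∈ S.c₁.V),
      gaussRes A (M * q) f = 1 → S.c₁.red ⟨(f : ↥(FNbar (M * q))), hf⟩ = 1) ∧
    ∀ σ : GQ, A.IsFrobeniusAt σ q →
      ∃ (τ₁ : F₁ →+* F₁) (τ₂ : F₂ →+* F₂) (ι : F₁ →+* F₂) (ι' : F₂ →+* F₁),
        S.IsFrobSwap (galF (M * q) σ) (wS q M a b hab hq) τ₁ τ₂ ι ι' q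

/-- **The modular side of FROB-T** (all levels). -/
def Stmt_ModSSDW : Prop :=
  ∀ (q M : ℕ) (a b : ℤ) (hab : a * q + b * M = 1) (hq : q.Prime) [NeZero (M * q)]
    (A : ValuationSubring (AlgebraicClosure ℚ)), A.LiesOverPrime q →
    ModSSDWAt q M a b hab hq A

/-- **The modular side of FROB-T at the tame levels** (where helper91's datum `modT` exists). -/
def Stmt_ModSSDW_tame : Prop :=
  ∀ (q M : ℕ) (a b : ℤ) (hab : a * q + b * M = 1) (hq : q.Prime) [NeZero (M * q)],
    ¬ q ∣ M → (5 ≤ q ∨ (q = 3 ∧ 2 ∣ M) ∨ (q = 2 ∧ 3 ∣ M)) →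
    ∀ A : ValuationSubring (AlgebraicClosure ℚ), A.LiesOverPrime q →
    ModSSDWAt q M a b hab hq A

/-- **FROB-T at `(p, q, M, A)`** with the sign `ε`. -/
def FrobToricAt (ε : ℤ) (p q M : ℕ) (a b : ℤ) (hab : a * q + b * M = 1) (hq : q.Prime)
    [NeZero (M * q)] (A : ValuationSubring (AlgebraicClosure ℚ)) : Prop :=
  ∀ σ : GQ, A.IsFrobeniusAt σ q → ∀ x : JZero (M * q), (p : ℤ) • x = 0 →
    InK1 A (M * q) p x → InK1 A (M * q) p (wS q M a b hab hq • x) →
    σ • x = (ε * (q : ℤ)) • (wS q M a b hab hq • x)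

/-- **FROB-T at the tame levels.** -/
def Stmt_FrobToric_tame : Prop :=
  ∀ (p : ℕ), p.Prime → 5 ≤ p →
    ∀ (q M : ℕ) (a b : ℤ) (hab : a * q + b * M = 1) (hq : q.Prime) [NeZero (M * q)], q ≠ p →
    ¬ q ∣ M → (5 ≤ q ∨ (q = 3 ∧ 2 ∣ M) ∨ (q = 2 ∧ 3 ∣ M)) →
    ∀ A : ValuationSubring (AlgebraicClosure ℚ), A.LiesOverPrime q →
      FrobToricAt (-1) p q M a b hab hq A

/-- `Stmt_FrobToric` is FROB-T at all levels, with one sign. -/
theorem stmt_FrobToric_iff : Stmt_FrobToric ↔ ∃ ε : ℤ, (ε = 1 ∨ ε = -1) ∧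
    ∀ (p : ℕ), p.Prime → 5 ≤ p →
    ∀ (q M : ℕ) (a b : ℤ) (hab : a * q + b * M = 1) (hq : q.Prime) [NeZero (M * q)], q ≠ p →
    ∀ A : ValuationSubring (AlgebraicClosure ℚ), A.LiesOverPrime q →
      FrobToricAt ε p q M a b hab hq A := Iff.rfl

section Aux

variable {K F : Type*} [Field K] [Field F] [Algebra K F]

/-- the order of `g f` at `P` is the order of `f` at `g⁻¹ P`. -/
theorem ord_smul_eq (g : SemilinearAut K F) (P : Place K F) (f : F) :
    P.ord (g • f) = (g⁻¹ • P).ord f := by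
  have h := SemilinearAut.ord_smul g (g⁻¹ • P) f
  rwa [smul_inv_smul] at h

theorem smul_ne_zero' (g : SemilinearAut K F) {f : F} (hf : f ≠ 0) : g • f ≠ 0 := by
  intro h0
  apply hf
  have h1 := congrArg (fun z => g⁻¹ • z) h0
  simp only [inv_smul_smul, smul_zero] at h1
  exact h1

theorem ord_pow_nat (P : Place K F) (f : F) (n : ℕ) : P.ord (f ^ n) = (n : ℤ) * P.ord f := by
  have := Place.ord_zpow P f (n : ℤ)
  rwa [zpow_natCast] at this

end Aux

/-- **FROB-T from the modular datum, at one level**: every Frobenius at `A` acts on the toric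
part as `- q w_q`. -/
theorem frobToricAt_of {p : ℕ} (hp : p.Prime) (q M : ℕ) (a b : ℤ) (hab : a * q + b * M = 1)
    (hq : q.Prime) [NeZero (M * q)] (hqp : q ≠ p)
    (A : ValuationSubring (AlgebraicClosure ℚ)) (hA : A.LiesOverPrime q)
    (h : ModSSDWAt q M a b hab hq A) : FrobToricAt (-1) p q M a b hab hq A := by
  intro σ hσ x hx0 hK hK'
  obtain ⟨F₁, F₂, _, _, _, _, S, H, H₁, H₂, g, g₁, g₂, c, c₁, c₂, hR, hR₁, hR₂, hnum, hV, hred,
    hfs⟩ := h
  obtain ⟨τ₁, τ₂, ι, ι', hτ⟩ := hfs σ hσ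
  obtain ⟨D, f, rfl, hf1, hD⟩ := hK
  obtain ⟨D', f', hx', hf'1, hD'⟩ := hK'
  have : IsAlgClosed (kV A) := isAlgClosed_kV A
  have hpk : ((p : ℕ) : kV A) ≠ 0 :=
    H91.natCast_kV_ne_zero A hq hA (fun hd => hqp ((Nat.prime_dvd_prime_iff_eq hq hp).1 hd))
  have hp0 : (p : ℤ) ≠ 0 := by exact_mod_cast hp.ne_zero
  set W : SemilinearAut (AlgebraicClosure ℚ) ↥(FNbar (M * q)) := wS q M a b hab hq with hWdef
  have hWW : W * W = 1 := wS_mul_self q M a b hab hq
  have hWinv : W⁻¹ = W := inv_eq_of_mul_eq_one_left hWW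
  have hf0 : ((f : ↥(gaussV A (M * q))) : ↥(FNbar (M * q))) ≠ 0 := ne_zero_of_gaussRes_eq_one hf1
  have hf'0 : ((f' : ↥(gaussV A (M * q))) : ↥(FNbar (M * q))) ≠ 0 :=
    ne_zero_of_gaussRes_eq_one hf'1
  -- `D - W D'` is principal
  have h1 : (Pic0.mk D : JZero (M * q)) = W • (Pic0.mk D' : JZero (M * q)) := by
    rw [← hx', ← mul_smul, hWW, one_smul]
  have h2 : (Pic0.mk (D - SemilinearAut.degZeroSMulHom W D') : JZero (M * q)) = 0 := by
    have : (Pic0.mk (D - SemilinearAut.degZeroSMulHom W D') : JZero (M * q)) =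
        Pic0.mk D - W • (Pic0.mk D' : JZero (M * q)) := by
      rw [SemilinearAut.pic0_smul_mk]; rfl
    rw [this, h1, sub_self]
  have h3 := (QuotientAddGroup.eq_zero_iff _).1 h2
  rw [AddSubgroup.mem_addSubgroupOf] at h3
  obtain ⟨θ, hθ0, hθ⟩ := h3
  have hθP : ∀ P : Place (AlgebraicClosure ℚ) ↥(FNbar (M * q)),
      P.ord θ = (D : Divisor (AlgebraicClosure ℚ) ↥(FNbar (M * q))) P -
        (D' : Divisor (AlgebraicClosure ℚ) ↥(FNbar (M * q))) (W⁻¹ • P) := by
    intro P
    rw [← hθ P, AddSubgroup.coe_sub, SemilinearAut.coe_degZeroSMulHom, Finsupp.sub_apply,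
      SemilinearAut.divisor_smul_apply]
  have hWf'0 : W • ((f' : ↥(gaussV A (M * q))) : ↥(FNbar (M * q))) ≠ 0 := smul_ne_zero' W hf'0
  -- the constant
  set G : ↥(FNbar (M * q)) := (f : ↥(FNbar (M * q))) *
    (θ ^ p * (W • ((f' : ↥(gaussV A (M * q))) : ↥(FNbar (M * q)))))⁻¹ with hG
  have hden0 : θ ^ p * (W • ((f' : ↥(gaussV A (M * q))) : ↥(FNbar (M * q)))) ≠ 0 :=
    mul_ne_zero (pow_ne_zero _ hθ0) hWf'0
  have hGord : ∀ P : Place (AlgebraicClosure ℚ) ↥(FNbar (M * q)), P.ord G = 0 := by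
    intro P
    rw [hG, Place.ord_mul _ hf0 (inv_ne_zero hden0), Place.ord_inv,
      Place.ord_mul _ (pow_ne_zero _ hθ0) hWf'0, ord_pow_nat, ord_smul_eq, ← hD P,
      ← hD' (W⁻¹ • P), hθP P]
    ring
  obtain ⟨c₀, hc₀⟩ := H.const_of_regular (fun P => (hGord P).ge)
  have hG0 : G ≠ 0 := mul_ne_zero hf0 (inv_ne_zero hden0)
  have hc₀0 : c₀ ≠ 0 := by
    rintro rfl
    rw [map_zero] at hc₀
    exact hG0 hc₀
  have hrel : (f : ↥(FNbar (M * q))) = algebraMap (AlgebraicClosure ℚ) ↥(FNbar (M * q)) c₀ *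
      θ ^ p * (W • ((f' : ↥(gaussV A (M * q))) : ↥(FNbar (M * q)))) := by
    rw [← hc₀, hG, mul_assoc, inv_mul_cancel_right₀ hden0]
  -- membership and reductions
  have hfm : (f : ↥(FNbar (M * q))) ∈ S.c₁.V := hV _ f.2
  have hf'm : (f' : ↥(FNbar (M * q))) ∈ S.c₁.V := hV _ f'.2
  have hfr : S.c₁.rd (f : ↥(FNbar (M * q))) = 1 := by
    rw [S.c₁.rd_of_mem hfm]; exact hred f hfm hf1
  have hf'r : S.c₁.rd (f' : ↥(FNbar (M * q))) = 1 := by
    rw [S.c₁.rd_of_mem hf'm]; exact hred f' hf'm hf'1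
  obtain ⟨t, ht⟩ := H28.glueFrobW_two S H H₁ H₂ g g₁ g₂ c c₁ c₂ hR hR₁ hR₂ hnum p hpk
    (galF (M * q) σ) W τ₁ τ₂ ι ι' q hτ (f : ↥(FNbar (M * q))) (f' : ↥(FNbar (M * q))) θ c₀ hc₀0
    hθ0 hfm hfr hf'm hf'r hrel (fun P => ⟨_, (hD P).symm⟩)
  -- the divisor `σ D + q W D` is `div t`
  have hσf0 : galF (M * q) σ • (f : ↥(FNbar (M * q))) ≠ 0 := smul_ne_zero' _ hf0
  have hWf0 : W • (f : ↥(FNbar (M * q))) ≠ 0 := smul_ne_zero' W hf0
  have ht0 : t ≠ 0 := by
    rintro rfl
    rw [zero_pow hp.ne_zero] at ht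
    exact (mul_ne_zero hσf0 (pow_ne_zero _ hWf0)) ht.symm
  set E : Divisor.degZero (K := AlgebraicClosure ℚ) (F := ↥(FNbar (M * q))) :=
    SemilinearAut.degZeroSMulHom (galF (M * q) σ) D + q • SemilinearAut.degZeroSMulHom W D with hE
  have hprin : ((E : Divisor.degZero (K := AlgebraicClosure ℚ) (F := ↥(FNbar (M * q)))) :
      Divisor (AlgebraicClosure ℚ) ↥(FNbar (M * q))) ∈
      Divisor.principal (K := AlgebraicClosure ℚ) (F := ↥(FNbar (M * q))) := by
    refine ⟨t, ht0, fun P => ?_⟩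
    have e : ((E : Divisor.degZero (K := AlgebraicClosure ℚ) (F := ↥(FNbar (M * q)))) :
        Divisor (AlgebraicClosure ℚ) ↥(FNbar (M * q))) P
        = (D : Divisor (AlgebraicClosure ℚ) ↥(FNbar (M * q))) ((galF (M * q) σ)⁻¹ • P)
          + (q : ℤ) * (D : Divisor (AlgebraicClosure ℚ) ↥(FNbar (M * q))) (W⁻¹ • P) := by
      rw [hE, AddSubgroup.coe_add, AddSubgroup.coe_nsmul, SemilinearAut.coe_degZeroSMulHom,
        SemilinearAut.coe_degZeroSMulHom, Finsupp.add_apply, Finsupp.smul_apply,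
        SemilinearAut.divisor_smul_apply, SemilinearAut.divisor_smul_apply, nsmul_eq_mul]
    rw [e]
    apply mul_left_cancel₀ hp0
    rw [← ord_pow_nat, ht, Place.ord_mul _ hσf0 (pow_ne_zero _ hWf0), ord_pow_nat, ord_smul_eq,
      ord_smul_eq, ← hD, ← hD]
    ring
  have hzero : (Pic0.mk E : JZero (M * q)) = 0 :=
    (QuotientAddGroup.eq_zero_iff _).2 (AddSubgroup.mem_addSubgroupOf.2 hprin)
  have hsum : σ • (Pic0.mk D : JZero (M * q)) + (q : ℤ) • (W • (Pic0.mk D : JZero (M * q))) = 0 := by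
    have e1 : σ • (Pic0.mk D : JZero (M * q)) =
        Pic0.mk (SemilinearAut.degZeroSMulHom (galF (M * q) σ) D) := rfl
    have e2 : W • (Pic0.mk D : JZero (M * q)) = Pic0.mk (SemilinearAut.degZeroSMulHom W D) := rfl
    rw [e1, e2, ← hzero, hE]
    rw [Pic0.mk_add]
    congr 1
  have hfin : σ • (Pic0.mk D : JZero (M * q)) = -((q : ℤ) • (W • (Pic0.mk D : JZero (M * q)))) :=
    eq_neg_of_add_eq_zero_left hsum
  rw [hfin, neg_one_mul, neg_smul]

/-- **FROB-T from the modular datum** (all levels). -/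
theorem frobToric_of (h : Stmt_ModSSDW) : Stmt_FrobToric :=
  ⟨-1, Or.inr rfl, fun _ hp _ q M a b hab hq _ hqp A hA =>
    frobToricAt_of hp q M a b hab hq hqp A hA (h q M a b hab hq A hA)⟩

/-- **FROB-T at the tame levels from the modular datum at the tame levels.** -/
theorem frobToric_tame_of (h : Stmt_ModSSDW_tame) : Stmt_FrobToric_tame :=
  fun _ hp _ q M a b hab hq _ hqp hqM ht A hA =>
    frobToricAt_of hp q M a b hab hq hqp A hA (h q M a b hab hq hqM ht A hA)

/-- **FROB-T from FROB-T at all levels** (the descent from the tame levels is helper91's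
`BAD/H91_DescW.lean`). -/
theorem frobToric_of_at
    (h : ∀ (p : ℕ), p.Prime → 5 ≤ p →
      ∀ (q M : ℕ) (a b : ℤ) (hab : a * q + b * M = 1) (hq : q.Prime) [NeZero (M * q)], q ≠ p →
      ∀ A : ValuationSubring (AlgebraicClosure ℚ), A.LiesOverPrime q →
        FrobToricAt (-1) p q M a b hab hq A) : Stmt_FrobToric :=
  ⟨-1, Or.inr rfl, h⟩

end Fermat.Agent.S43.BadQ

end
end
-- ==== END Fermat.Agent.S43.FrobToric

-- ==== BEGIN Fermat.Agent.S43.H37_Ram2
section

set_option autoImplicit false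

open Polynomial WeierstrassCurve

namespace Fermat.Agent.S43.H37

/-- An auxiliary elliptic sequence with `c = d = 0` vanishes from the index `3` on. -/
theorem preNormEDS'_zero_zero {R : Type*} [CommRing R] (b : R) (n : ℕ) (hn : 3 ≤ n) :
    preNormEDS' b 0 0 n = 0 := by
  induction n using Nat.strong_induction_on with
  | _ n ih =>
    rcases Nat.lt_or_ge n 5 with h5 | h5
    · have : n = 3 ∨ n = 4 := by omega
      rcases this with rfl | rfl
      · exact preNormEDS'_three ..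
      · exact preNormEDS'_four ..
    · rcases Nat.even_or_odd' n with ⟨k, rfl | rfl⟩
      · obtain ⟨m, rfl⟩ : ∃ m, k = m + 3 := ⟨k - 3, by omega⟩
        rw [preNormEDS'_even, ih (m + 3) (by omega) (by omega)]
        ring
      · obtain ⟨m, rfl⟩ : ∃ m, k = m + 2 := ⟨k - 2, by omega⟩
        rw [preNormEDS'_odd, ih (m + 4) (by omega) (by omega), ih (m + 3) (by omega) (by omega)]
        ring

/-- At a singular point `(0, 0)` (`a₃ = a₄ = a₆ = 0`) the division polynomials `preΨ' n`,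
`n ≥ 3`, vanish. -/
theorem eval_preΨ'_node {R : Type*} [CommRing R] (W : WeierstrassCurve R) (h₃ : W.a₃ = 0)
    (h₄ : W.a₄ = 0) (h₆ : W.a₆ = 0) (n : ℕ) (hn : 3 ≤ n) : (W.preΨ' n).eval 0 = 0 := by
  have h := map_preNormEDS' (evalRingHom (0 : R)) (W.Ψ₂Sq ^ 2) W.Ψ₃ W.preΨ₄ n
  rw [WeierstrassCurve.preΨ']
  rw [coe_evalRingHom] at h
  rw [h]
  have hc : W.Ψ₃.eval 0 = 0 := by
    simp [WeierstrassCurve.Ψ₃, WeierstrassCurve.b₈, h₃, h₄, h₆]
  have hd : W.preΨ₄.eval 0 = 0 := by
    simp [WeierstrassCurve.preΨ₄, WeierstrassCurve.b₈, WeierstrassCurve.b₆, WeierstrassCurve.b₄,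
      h₃, h₄, h₆]
  rw [hc, hd]
  exact preNormEDS'_zero_zero _ n hn

section Val

variable {L : Type*} [Field L] (A : ValuationSubring L)

/-- For a model with coefficients in `A`, `a₃ = a₆ = 0` and `|a₄| < 1`, the constant term of
`preΨ' n`, `n ≥ 3`, has valuation `< 1`. -/
theorem valuation_eval_preΨ'_lt_one (W : WeierstrassCurve L) (h₁ : W.a₁ ∈ A) (h₂ : W.a₂ ∈ A)
    (h₃ : W.a₃ = 0) (h₄ : A.valuation W.a₄ < 1) (h₆ : W.a₆ = 0) (n : ℕ) (hn : 3 ≤ n) :
    A.valuation ((W.preΨ' n).eval 0) < 1 := by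
  have h₄' : W.a₄ ∈ A := (A.valuation_le_one_iff _).1 h₄.le
  set WA : WeierstrassCurve A := ⟨⟨W.a₁, h₁⟩, ⟨W.a₂, h₂⟩, 0, ⟨W.a₄, h₄'⟩, 0⟩ with hWA
  have hmap : WA.map A.subtype = W := by
    ext <;> simp [hWA, WeierstrassCurve.map, h₃, h₆]
  have hev : (W.preΨ' n).eval 0 = A.subtype ((WA.preΨ' n).eval 0) := by
    rw [← hmap, WeierstrassCurve.map_preΨ']
    rw [Polynomial.eval_map, Polynomial.eval₂_at_zero, Polynomial.coeff_zero_eq_eval_zero]
  rw [hev]
  show A.valuation (((WA.preΨ' n).eval 0 : A) : L) < 1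
  rw [← A.valuation_lt_one_iff]
  -- reduce to the residue field
  rw [← Ideal.Quotient.eq_zero_iff_mem]
  have h4res : (Ideal.Quotient.mk (IsLocalRing.maximalIdeal A)) (⟨W.a₄, h₄'⟩ : A) = 0 := by
    rw [Ideal.Quotient.eq_zero_iff_mem, A.valuation_lt_one_iff]
    exact h₄
  have hk := eval_preΨ'_node (WA.map (Ideal.Quotient.mk (IsLocalRing.maximalIdeal A)))
    (by simp [hWA, WeierstrassCurve.map]) (by simpa [hWA, WeierstrassCurve.map] using h4res)
    (by simp [hWA, WeierstrassCurve.map]) n hn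
  rw [WeierstrassCurve.map_preΨ', Polynomial.eval_map, Polynomial.eval₂_at_zero,
    Polynomial.coeff_zero_eq_eval_zero] at hk
  exact hk

variable [IsAlgClosed L]

/-- A polynomial over an algebraically closed field whose leading coefficient is a unit of `A`
and whose constant term is in the maximal ideal has a root of valuation `< 1`. -/
theorem exists_root_valuation_lt_one (f : L[X]) (hlead : A.valuation f.leadingCoeff = 1)
    (h0 : A.valuation (f.eval 0) < 1) : ∃ x : L, f.IsRoot x ∧ A.valuation x < 1 := by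
  classical
  have hf0 : f ≠ 0 := by
    rintro rfl
    simp at hlead
  have hsplit := IsAlgClosed.splits f
  have hprod := hsplit.eq_prod_roots
  by_contra hcon
  push Not at hcon
  have hall : ∀ r ∈ f.roots, 1 ≤ A.valuation r := by
    intro r hr
    exact hcon r ((mem_roots hf0).1 hr)
  have heval : f.eval 0 = f.leadingCoeff * (f.roots.map (fun r => -r)).prod := by
    conv_lhs => rw [hprod]
    rw [eval_mul, eval_C, eval_multiset_prod, Multiset.map_map]
    congr 2
    apply Multiset.map_congr rfl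
    intro r _
    simp
  have hval : A.valuation (f.eval 0) = ((f.roots.map (fun r => A.valuation r)).prod) := by
    rw [heval, map_mul, hlead, one_mul, map_multiset_prod, Multiset.map_map]
    congr 1
    apply Multiset.map_congr rfl
    intro r _
    simp
  have hge : 1 ≤ (f.roots.map (fun r => A.valuation r)).prod := by
    apply Multiset.one_le_prod
    intro v hv
    obtain ⟨r, hr, rfl⟩ := Multiset.mem_map.1 hv
    exact hall r hr
  rw [hval] at h0
  exact absurd h0 (not_lt.2 hge)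

/-- **A point of order `p` outside `E₀`.**  Model `a₃ = a₆ = 0`, `a₁, a₂ ∈ A`, `|a₄| < 1`,
`Δ ≠ 0`; `p` an odd prime which is a unit of `A`.  Then there is a point `(x, y)` killed by `p`
with `|x| < 1`. -/
theorem exists_torsion_valuation_lt_one [DecidableEq L] (W : Affine L) (hΔ : W.Δ ≠ 0)
    (h₁ : W.a₁ ∈ A) (h₂ : W.a₂ ∈ A)
    (h₃ : W.a₃ = 0) (h₄ : A.valuation W.a₄ < 1) (h₆ : W.a₆ = 0) {p : ℕ} (hp : p.Prime)
    (hp2 : p ≠ 2) (hpA : A.valuation ((p : ℕ) : L) = 1) :
    ∃ (x y : L) (h : W.Nonsingular x y),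
      p • Affine.Point.some x y h = 0 ∧ A.valuation x < 1 := by
  have hodd : ¬ Even p := fun he => hp2 ((Nat.Prime.even_iff hp).mp he)
  have hp3 : 3 ≤ p := by have := hp.two_le; omega
  have hpL : ((p : ℕ) : L) ≠ 0 := by
    intro h0
    rw [h0, map_zero] at hpA
    exact zero_ne_one hpA
  have hlead : A.valuation (W.preΨ' p).leadingCoeff = 1 := by
    rw [WeierstrassCurve.leadingCoeff_preΨ' W hpL, if_neg hodd]
    exact hpA
  obtain ⟨x, hx, hx1⟩ := exists_root_valuation_lt_one A (W.preΨ' p) hlead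
    (valuation_eval_preΨ'_lt_one A W h₁ h₂ h₃ h₄ h₆ p hp3)
  obtain ⟨y, h, -⟩ := Fermat.Agent.Lib.Torsion35.exists_point_of_x W hΔ x
  exact ⟨x, y, h, (Fermat.Agent.Lib.TorsionGen.nsmul_eq_zero_iff_eval_preΨ' h hodd).mpr hx, hx1⟩

end Val

section Frey

open Fermat.Agent.S13 Fermat.Agent.S13.WP3
open WeierstrassCurve.Affine WeierstrassCurve.Affine.Point

/-- **RAM2**: the mod `p` representation of a Frey curve is ramified at `2`. -/
theorem ram2 (P : FreyPackage) : ¬ P.GaloisRepUnramifiedAt 2 := by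
  classical
  intro hunr
  obtain ⟨A, hA⟩ := Fermat.Agent.Lib.FrobExists.exists_liesOverPrime 2 Nat.prime_two
  obtain ⟨hyp, hp1, m, hm, hcop, hb⟩ := H15.arith2 P A hA
  have hp2 : P.p ≠ 2 := by have := P.hp5; omega
  have hΔ : (P.freyCurve⁄Qbar).Δ ≠ 0 := by
    have h1 : P.freyCurve.Δ ≠ 0 := by
      rw [← Fermat.Agent.S04.H59.freyCurveInt_map P, WeierstrassCurve.map_Δ]
      simpa using Fermat.Agent.S04.H59.freyCurveInt_Δ_ne_zero P
    change (P.freyCurve.map (algebraMap ℚ Qbar)).Δ ≠ 0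
    rw [WeierstrassCurve.map_Δ]
    exact (map_ne_zero_iff _ (algebraMap ℚ Qbar).injective).mpr h1
  obtain ⟨lam, hlam⟩ : ∃ lam : Qbar, lam ^ 2 + lam = (P.freyCurve⁄Qbar).a₂ := by
    obtain ⟨z, hz⟩ := IsAlgClosed.exists_root
      (Polynomial.X ^ 2 + Polynomial.X - Polynomial.C ((P.freyCurve⁄Qbar).a₂) :
        Polynomial Qbar) (by
        have : (Polynomial.X ^ 2 + Polynomial.X - Polynomial.C ((P.freyCurve⁄Qbar).a₂) :
            Polynomial Qbar).degree = 2 := by
          compute_degree!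
        rw [this]; norm_num)
    refine ⟨z, ?_⟩
    simp only [Polynomial.IsRoot.def, Polynomial.eval_sub, Polynomial.eval_add,
      Polynomial.eval_pow, Polynomial.eval_X, Polynomial.eval_C] at hz
    linear_combination hz
  obtain ⟨x, y, h, hQ, hx1⟩ := exists_torsion_valuation_lt_one A (P.freyCurve⁄Qbar) hΔ
    (by rw [hyp.a₁]; exact A.one_mem) ((A.valuation_le_one_iff _).1 hyp.a_le) hyp.a₃ hyp.b_lt
    hyp.a₆ P.pp hp2 hp1
  have hQt : (P.p : ℤ) • (Point.some x y h : (P.freyCurve⁄Qbar).Point) = 0 := by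
    rw [natCast_zsmul]
    exact hQ
  have hfix : ∀ σ ∈ A.inertiaSubgroupIn ℚ, σ x = x := by
    intro σ hσ
    have h1 := hunr A hA σ hσ ⟨Point.some x y h, by
      rw [Submodule.mem_torsionBy_iff]; exact hQt⟩
    have h2 : σ • (Point.some x y h : (P.freyCurve⁄Qbar).Point) = Point.some x y h :=
      congrArg Subtype.val h1
    rw [algEquiv_smul_def, Point.map_some] at h2
    injection h2 with h3 h4
  have hE0 : InE0 A (Point.some x y h : (P.freyCurve⁄Qbar).Point) := by
    refine H15.torsion_in_E0 stmt2_M1 M1.annulus A _ hyp lam hlam P.p m hm hcop hb _ hQt ?_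
    intro u v h' hQ' hu0
    have hux : x = u := by
      injection hQ' with h3 h4
    subst hux
    obtain ⟨k, hk⟩ := Fermat.Agent.S36.NU.H41.valuation_eq_zpow_of_fixed A 2 Nat.prime_two hA x
      hfix hu0
    exact ⟨k, by rw [hk]; norm_num⟩
  have : 1 ≤ A.valuation x := hE0
  exact absurd hx1 (not_lt.2 this)

end Frey

end Fermat.Agent.S43.H37

end
-- ==== END Fermat.Agent.S43.H37_Ram2

-- ==== BEGIN Fermat.Agent.S43.H37_TotSwap
section

set_option autoImplicit false
set_option linter.style.haveILetI false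

noncomputable section

open AlgebraicCurve

attribute [local instance] Classical.propDecidable

namespace Fermat.Agent.S43.H37

open Fermat.Agent.RED.H17 Fermat.Agent.RED Fermat.Agent.BAD Fermat.Agent.BAD.H79

variable {K L k E : Type*} [Field K] [Field L] [Algebra K L] [Field k] [Field E]
  [Algebra k E]

/-- `(τ, W)` is a Frobenius-swap pair of exponent `Q` for the total conservation datum `T`. -/
structure TotSwap (T : TotData K L k E E) (τ W : SemilinearAut K L) (τb : E →+* E) (Q : ℕ) :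
    Prop where
  mem₁ : ∀ f : L, f ∈ T.b₁.V → τ • f ∈ T.b₁.V
  mem₂ : ∀ f : L, f ∈ T.b₂.V → τ • f ∈ T.b₂.V
  red₁ : ∀ (f : L) (h : f ∈ T.b₁.V) (h' : τ • f ∈ T.b₁.V),
    T.b₁.red ⟨_, h'⟩ = τb (T.b₁.red ⟨f, h⟩)
  red₂ : ∀ (f : L) (h : f ∈ T.b₂.V) (h' : τ • f ∈ T.b₂.V),
    T.b₂.red ⟨_, h'⟩ = τb (T.b₂.red ⟨f, h⟩)
  wmem₁ : ∀ f : L, f ∈ T.b₁.V → W • f ∈ T.b₂.V
  wmem₂ : ∀ f : L, f ∈ T.b₂.V → W • f ∈ T.b₁.V
  wred₁ : ∀ (f : L) (h : f ∈ T.b₁.V) (h' : W • f ∈ T.b₂.V),
    T.b₂.red ⟨_, h'⟩ = T.b₁.red ⟨f, h⟩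
  wred₂ : ∀ (f : L) (h : f ∈ T.b₂.V) (h' : W • f ∈ T.b₁.V),
    T.b₁.red ⟨_, h'⟩ = T.b₂.red ⟨f, h⟩
  node_τ : ∀ P : Place K L, T.IsNode (T.ρ P) → T.IsNode (T.ρ (τ⁻¹ • P))
  node_W : ∀ P : Place K L, T.IsNode (T.ρ P) → T.IsNode (T.ρ (W⁻¹ • P))
  node_β : ∀ z : Place k E, T.IsNode z → T.IsNode (T.β z)
  fix : ∀ z : Place k E, T.IsNode z → T.β (T.β z) = z
  val₁ : ∀ z : Place k E, T.IsNode z → ∀ (ψ : E) (a : k), VanAt z (ψ - algebraMap k E a) →
    VanAt (T.β z) (τb ψ - algebraMap k E (a ^ Q))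
  val₂ : ∀ z : Place k E, T.IsNode z → ∀ (ψ : E) (a : k),
    VanAt (T.β z) (ψ - algebraMap k E a) → VanAt z (τb ψ - algebraMap k E (a ^ Q))

/-- Over the fibre of a node, `IsNodeP` for `T.toSSD` is `IsNode (ρ P)`. -/
theorem isNodeP_toSSD_iff [Infinite k] [IsAlgClosed K] {T : TotData K L k E E}
    (hP : HasPrincipalDivisors K L) (hd : ∀ v : Place K L, v.deg = 1)
    (hP₁ : HasPrincipalDivisors k E) (hd₁ : ∀ v : Place k E, v.deg = 1)
    (hne : ∃ z, T.IsNode z) (P : Place K L) :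
    (T.toSSD hP hd hP₁ hd₁ hd₁ hne).IsNodeP P ↔ T.IsNode (T.ρ P) := by
  constructor
  · rintro ⟨s, hs, hr⟩
    rw [TotData.toSSD_nodes, TotData.mem_nodes] at hs
    rw [TotData.toSSD_c₁_r, TotData.r₁_eq_some_iff] at hr
    rw [hr.1]
    exact hs.1
  · intro hz
    refine ⟨(T.ρ P, T.β (T.ρ P)), ?_, ?_⟩
    · rw [TotData.toSSD_nodes, TotData.mem_nodes]
      exact ⟨hz, rfl⟩
    · rw [TotData.toSSD_c₁_r, TotData.r₁_eq_some_iff]
      exact ⟨rfl, TotData.IsNode.onSide₁ hP hz⟩

/-- **A Frobenius-swap pair of the total conservation datum is a Frobenius-swap pair for the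
semistable Deuring datum** (with `ι = ι' = id`). -/
theorem TotSwap.isFrobSwap [Infinite k] [IsAlgClosed K] {T : TotData K L k E E}
    {τ W : SemilinearAut K L} {τb : E →+* E} {Q : ℕ} (h : TotSwap T τ W τb Q)
    (hP : HasPrincipalDivisors K L) (hd : ∀ v : Place K L, v.deg = 1)
    (hP₁ : HasPrincipalDivisors k E) (hd₁ : ∀ v : Place k E, v.deg = 1)
    (hne : ∃ z, T.IsNode z) :
    (T.toSSD hP hd hP₁ hd₁ hd₁ hne).IsFrobSwap τ W τb τb (RingHom.id E) (RingHom.id E) Q where
  mem₁ := h.mem₁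
  mem₂ := h.mem₂
  red₁ := h.red₁
  red₂ := h.red₂
  node := fun P hPn =>
    (isNodeP_toSSD_iff hP hd hP₁ hd₁ hne _).2
      (h.node_τ P ((isNodeP_toSSD_iff hP hd hP₁ hd₁ hne P).1 hPn))
  wmem₁ := h.wmem₁
  wmem₂ := h.wmem₂
  wred₁ := h.wred₁
  wred₂ := h.wred₂
  wnode := fun P hPn =>
    (isNodeP_toSSD_iff hP hd hP₁ hd₁ hne _).2
      (h.node_W P ((isNodeP_toSSD_iff hP hd hP₁ hd₁ hne P).1 hPn))
  val := by
    intro s' hs'
    rw [TotData.toSSD_nodes, TotData.mem_nodes] at hs'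
    obtain ⟨hz', hs'2⟩ := hs'
    -- the node `s = (β z', z')`
    have hz : T.IsNode (T.β s'.1) := h.node_β _ hz'
    have hfix : T.β (T.β s'.1) = s'.1 := h.fix _ hz'
    refine ⟨(T.β s'.1, s'.1), ?_, ?_, ?_, ?_, ?_⟩
    · rw [TotData.toSSD_nodes, TotData.mem_nodes]
      exact ⟨hz, hfix.symm⟩
    · intro ψ a hv
      have := h.val₁ (T.β s'.1) hz ψ a hv
      rwa [hfix] at this
    · intro ψ a hv
      have hv' : VanAt (T.β (T.β s'.1)) (ψ - algebraMap k E a) := by
        rw [hfix]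
        exact hv
      have := h.val₂ (T.β s'.1) hz ψ a hv'
      rw [hs'2]
      exact this
    · intro ψ a hv
      rw [hs'2]
      exact hv
    · intro ψ a hv
      exact hv

section Of

variable (φb : SemilinearAut k E)

/-- The set of nodes is stable under `β` if there is a Frobenius-like automorphism `τ` with
`ρ (τ⁻¹ P) = β (ρ P)`. -/
theorem isNode_β_of {T : TotData K L k E E} {τ : SemilinearAut K L} {q : ℕ}
    (hbase : ∀ a : k, φb • algebraMap k E a = algebraMap k E (a ^ q))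
    (hβ : ∀ (z : Place k E) (ψ : E), (T.β z).ord ψ = z.ord (φb • ψ))
    (hρ : ∀ P : Place K L, T.ρ (τ⁻¹ • P) = T.β (T.ρ P))
    (mem₁ : ∀ f : L, f ∈ T.b₁.V → τ • f ∈ T.b₁.V)
    (mem₂ : ∀ f : L, f ∈ T.b₂.V → τ • f ∈ T.b₂.V)
    (rd₁ : ∀ f : L, f ∈ T.b₁.V → T.p₁.rd (τ • f) = φb • T.p₁.rd f)
    (rd₂ : ∀ f : L, f ∈ T.b₂.V → T.p₂.rd (τ • f) = φb • T.p₂.rd f)
    {z : Place k E} (hz : T.IsNode z) : T.IsNode (T.β z) := by
  intro f hf a
  -- `τ f ∈ R_z`
  have hτf : T.InR z (τ • f) := by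
    refine ⟨mem₁ f hf.1, mem₂ f hf.2.1, fun P hPz => ?_⟩
    have h1 : RegAt (τ⁻¹ • P) f := hf.2.2 _ (by rw [hρ, hPz])
    have := (regAt_smul_iff τ (τ⁻¹ • P) f).mpr h1
    rwa [smul_inv_smul] at this
  have key := hz (τ • f) hτf (a ^ q)
  rw [rd₁ f hf.1, rd₂ f hf.2.1, ← hbase, ← smul_sub, ← smul_sub,
    Fermat.Agent.S35.H89.vanAt_smul_of_ord φb (fun z => T.β z) hβ,
    Fermat.Agent.S35.H89.vanAt_smul_of_ord φb (fun z => T.β z) hβ] at key
  exact key

/-- **The conditions at the nodes** from (Σ-fix) and the equivariance of `ρ`. -/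
theorem totSwap_of {T : TotData K L k E E} {τ W : SemilinearAut K L} {τb : E →+* E}
    (hτb : ∀ ψ : E, τb ψ = φb • ψ) {q : ℕ}
    (hbase : ∀ a : k, φb • algebraMap k E a = algebraMap k E (a ^ q))
    (hβ : ∀ (z : Place k E) (ψ : E), (T.β z).ord ψ = z.ord (φb • ψ))
    (hfix : ∀ z : Place k E, T.IsNode z → T.β (T.β z) = z)
    (hρ : ∀ P : Place K L, T.ρ (τ⁻¹ • P) = T.β (T.ρ P))
    (mem₁ : ∀ f : L, f ∈ T.b₁.V → τ • f ∈ T.b₁.V)
    (mem₂ : ∀ f : L, f ∈ T.b₂.V → τ • f ∈ T.b₂.V)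
    (red₁ : ∀ (f : L) (h : f ∈ T.b₁.V) (h' : τ • f ∈ T.b₁.V),
      T.b₁.red ⟨_, h'⟩ = τb (T.b₁.red ⟨f, h⟩))
    (red₂ : ∀ (f : L) (h : f ∈ T.b₂.V) (h' : τ • f ∈ T.b₂.V),
      T.b₂.red ⟨_, h'⟩ = τb (T.b₂.red ⟨f, h⟩))
    (wmem₁ : ∀ f : L, f ∈ T.b₁.V → W • f ∈ T.b₂.V)
    (wmem₂ : ∀ f : L, f ∈ T.b₂.V → W • f ∈ T.b₁.V)
    (wred₁ : ∀ (f : L) (h : f ∈ T.b₁.V) (h' : W • f ∈ T.b₂.V),
      T.b₂.red ⟨_, h'⟩ = T.b₁.red ⟨f, h⟩)
    (wred₂ : ∀ (f : L) (h : f ∈ T.b₂.V) (h' : W • f ∈ T.b₁.V),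
      T.b₁.red ⟨_, h'⟩ = T.b₂.red ⟨f, h⟩)
    (node_W : ∀ P : Place K L, T.IsNode (T.ρ P) → T.IsNode (T.ρ (W⁻¹ • P))) :
    TotSwap T τ W τb q := by
  have rd₁ : ∀ f : L, f ∈ T.b₁.V → T.p₁.rd (τ • f) = φb • T.p₁.rd f := by
    intro f hf
    rw [T.p₁.rd_of_mem (mem₁ f hf), T.p₁.rd_of_mem hf, ← hτb]
    exact red₁ f hf (mem₁ f hf)
  have rd₂ : ∀ f : L, f ∈ T.b₂.V → T.p₂.rd (τ • f) = φb • T.p₂.rd f := by
    intro f hf
    rw [T.p₂.rd_of_mem (mem₂ f hf), T.p₂.rd_of_mem hf, ← hτb]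
    exact red₂ f hf (mem₂ f hf)
  have hnode : ∀ z : Place k E, T.IsNode z → T.IsNode (T.β z) := fun z hz =>
    isNode_β_of φb hbase hβ hρ mem₁ mem₂ rd₁ rd₂ hz
  have e : ∀ (ψ : E) (a : k), τb ψ - algebraMap k E (a ^ q) = φb • (ψ - algebraMap k E a) := by
    intro ψ a
    rw [hτb, smul_sub, hbase]
  refine ⟨mem₁, mem₂, red₁, red₂, wmem₁, wmem₂, wred₁, wred₂, fun P hP => ?_, node_W, hnode,
    hfix, fun z hz ψ a hv => ?_, fun z hz ψ a hv => ?_⟩
  · rw [hρ]
    exact hnode _ hP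
  · rw [e, Fermat.Agent.S35.H89.vanAt_smul_of_ord φb (fun z => T.β z) hβ, hfix z hz]
    exact hv
  · rw [e, Fermat.Agent.S35.H89.vanAt_smul_of_ord φb (fun z => T.β z) hβ]
    exact hv

end Of

end Fermat.Agent.S43.H37

end
end
-- ==== END Fermat.Agent.S43.H37_TotSwap

-- ==== BEGIN Fermat.Agent.S52.H97_CC
section

/-!
# S52, package E-CC: a complex conjugation in `Gal(ℚ̄/ℚ)` (helper97)

`exists_complexConj`: there is `c ∈ Gal(ℚ̄/ℚ)` with `c * c = 1` and `c z = z⁻¹` for every root of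
unity `z`.  Construction: restrict the complex conjugation of `ℂ` along an embedding `ℚ̄ → ℂ`.
-/

set_option autoImplicit false

noncomputable section

namespace Fermat.Agent.S52.H97

/-- A complex conjugation: an involution of `ℚ̄` inverting every root of unity. -/
theorem exists_complexConj :
    ∃ c : AlgebraicClosure ℚ ≃ₐ[ℚ] AlgebraicClosure ℚ, c * c = 1 ∧
      ∀ (z : AlgebraicClosure ℚ) (n : ℕ), 0 < n → z ^ n = 1 → c z = z⁻¹ := by
  classical
  have halg : Algebra.IsAlgebraic ℚ (AlgebraicClosure ℚ) := AlgebraicClosure.isAlgebraic ℚ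
  have hcl : IsAlgClosure ℚ (AlgebraicClosure ℚ) := ⟨inferInstance, inferInstance⟩
  have hgal : IsGalois ℚ (AlgebraicClosure ℚ) := inferInstance
  have hnorm : Normal ℚ (AlgebraicClosure ℚ) := IsGalois.to_normal
  let ι : AlgebraicClosure ℚ →ₐ[ℚ] ℂ := IsAlgClosed.lift
  let _ : Algebra (AlgebraicClosure ℚ) ℂ := ι.toRingHom.toAlgebra
  have : IsScalarTower ℚ (AlgebraicClosure ℚ) ℂ :=
    IsScalarTower.of_algebraMap_eq (fun x => (ι.commutes x).symm)
  let conj : ℂ ≃ₐ[ℚ] ℂ := Complex.conjAe.restrictScalars ℚ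
  let c : AlgebraicClosure ℚ ≃ₐ[ℚ] AlgebraicClosure ℚ := conj.restrictNormal (AlgebraicClosure ℚ)
  have hc : ∀ x : AlgebraicClosure ℚ, ι (c x) = (starRingEnd ℂ) (ι x) := fun x =>
    conj.restrictNormal_commutes (AlgebraicClosure ℚ) x
  have hinj : Function.Injective ι := ι.toRingHom.injective
  refine ⟨c, ?_, ?_⟩
  · ext x
    apply hinj
    rw [AlgEquiv.mul_apply, hc, hc, Complex.conj_conj, AlgEquiv.one_apply]
  · intro z n hn hz
    apply hinj
    rw [hc, map_inv₀]
    have h1 : (ι z) ^ n = 1 := by rw [← map_pow, hz, map_one]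
    have h2 : ‖ι z‖ = 1 := Complex.norm_eq_one_of_pow_eq_one h1 hn.ne'
    exact (Complex.inv_eq_conj h2).symm

end Fermat.Agent.S52.H97

end
end
-- ==== END Fermat.Agent.S52.H97_CC

-- ==== BEGIN Fermat.Agent.S53.Level
section

set_option autoImplicit false
set_option linter.unusedSectionVars false
set_option linter.style.haveILetI false

/-!
# S53: pairs of maximal cardinality at a given level are universal.
-/

namespace Fermat.Agent.S53

open IsLocalRing

section MaxPair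

variable {𝒪 : Type} [CommRing 𝒪] [IsDomain 𝒪] [IsDiscreteValuationRing 𝒪]
  [Finite (ResidueField 𝒪)]
variable {ρbar : ResidualGaloisRep (ResidueField 𝒪)}
variable {𝒟 : ∀ ⦃A : Type⦄ [CommRing A] [IsLocalRing A] [Algebra 𝒪 A], GaloisRepAdic A → Prop}

/-- A pair is maximal at level `j`. -/
def NPair.IsMax {N : NormData 𝒪 ρbar} (p : NPair 𝒪 𝒟 N) (j : ℕ) : Prop :=
  p.Level j ∧ ∀ q : NPair 𝒪 𝒟 N, q.Level j → Nat.card q.A ≤ Nat.card p.A

theorem exists_maxPair (h𝒟 : GaloisRep.IsDeformationCondition 𝒪 𝒟)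
    (hbar : 𝒟 (GaloisRepAdic.ofResidualGaloisRep ρbar))
    (hfin : GaloisRep.TangentFinite 𝒪 ρbar 𝒟) (N : NormData 𝒪 ρbar) (j : ℕ) :
    ∃ p : NPair 𝒪 𝒟 N, p.IsMax j := by
  classical
  obtain ⟨Nb, hNb⟩ := exists_card_hom_bound h𝒟 hfin N
  obtain ⟨B, hB⟩ := exists_card_bound 𝒪 Nb j
  have hbound : ∀ q : NPair 𝒪 𝒟 N, q.Level j → Nat.card q.A ≤ B := fun q hq =>
    hB q.A q.res_surj hq (hNb q)
  let P : ℕ → Prop := fun n => ∃ p : NPair 𝒪 𝒟 N, p.Level j ∧ Nat.card p.A = n
  have h0 : P (Nat.card (basePair N hbar).A) := ⟨basePair N hbar, basePair_level N hbar j, rfl⟩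
  have h1 := Nat.findGreatest_spec (P := P) (hbound _ (basePair_level N hbar j)) h0
  obtain ⟨p, hp, hcard⟩ := h1
  refine ⟨p, hp, fun q hq => ?_⟩
  rw [hcard]
  exact Nat.le_findGreatest (P := P) (hbound q hq) ⟨q, hq, rfl⟩

end MaxPair

section ProdPair

variable {𝒪 : Type} [CommRing 𝒪] [IsLocalRing 𝒪] [Finite (ResidueField 𝒪)]
variable {ρbar : ResidualGaloisRep (ResidueField 𝒪)}
variable {𝒟 : ∀ ⦃A : Type⦄ [CommRing A] [IsLocalRing A] [Algebra 𝒪 A], GaloisRepAdic A → Prop}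

theorem entries_restrictHom {P : Type} [CommRing P] [Algebra 𝒪 P] (S : Subalgebra 𝒪 P)
    (t : GQ →* M2 P) (h : ∀ σ i j, t σ i j ∈ S) :
    entries (restrictHom S t h) = (Subtype.val : S → P) ⁻¹' entries t := by
  ext x
  constructor
  · rintro ⟨σ, i, j, rfl⟩
    exact ⟨σ, i, j, rfl⟩
  · rintro ⟨σ, i, j, hx⟩
    exact ⟨σ, i, j, Subtype.ext hx⟩

/-- Given a pair `p` and a normalized lift `r` of type `𝒟` to a test algebra `A`, the
subalgebra of `p.A × A` generated by the entries of `(p.r, r)` is a pair dominating both. -/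
theorem exists_pair_of_prod (h𝒟 : GaloisRep.IsDeformationCondition 𝒪 𝒟) {N : NormData 𝒪 ρbar}
    (p : NPair 𝒪 𝒟 N) {A : Type} [CommRing A] [IsLocalRing A] [Algebra 𝒪 A]
    [IsLocalHom (algebraMap 𝒪 A)] [Finite A]
    (hres : Function.Surjective (residue A ∘ algebraMap 𝒪 A))
    (r : GQ →* M2 A) (hr : IsNorm N r) (hD : DMat 𝒪 𝒟 r) :
    ∃ (q : NPair 𝒪 𝒟 N) (f : q.A →ₐ[𝒪] p.A) (g : q.A →ₐ[𝒪] A),
      (∀ σ, (q.r σ).map f = p.r σ) ∧ (∀ σ, (q.r σ).map g = r σ) ∧
      Function.Injective (fun x => (f x, g x)) ∧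
      ∀ j : ℕ, p.Level j → maximalIdeal A ^ (j + 1) = ⊥ → q.Level j := by
  -- the product lift
  set t : GQ →* M2 (p.A × A) := prodHom p.r r with ht
  set F : Subalgebra 𝒪 (p.A × A) := fibre 𝒪 p.A A with hF
  set E : Subalgebra 𝒪 (p.A × A) := Algebra.adjoin 𝒪 (entries t) with hE
  have htF : ∀ σ i j, t σ i j ∈ F := by
    intro σ i j
    obtain ⟨c, hc⟩ := residue_surjective (N.rbar σ i j)
    exact ⟨c, (isLift_iff N.rbar _).mp p.norm.1 σ i j c hc,
      (isLift_iff N.rbar _).mp hr.1 σ i j c hc⟩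
  have hEF : E ≤ F := Algebra.adjoin_le (by rintro x ⟨σ, i, j, rfl⟩; exact htF σ i j)
  have htE : ∀ σ i j, t σ i j ∈ E := fun σ i j => Algebra.subset_adjoin ⟨σ, i, j, rfl⟩
  -- the maps
  let fE : E →ₐ[𝒪] p.A := (AlgHom.fst 𝒪 p.A A).comp E.val
  let gE : E →ₐ[𝒪] A := (AlgHom.snd 𝒪 p.A A).comp E.val
  let fF : F →ₐ[𝒪] p.A := (AlgHom.fst 𝒪 p.A A).comp F.val
  let gF : F →ₐ[𝒪] A := (AlgHom.snd 𝒪 p.A A).comp F.val
  have hfE : IsLocalHom (fE : E →+* p.A) := isLocalHom_fst_of_le_fibre E hEF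
  have hgE : IsLocalHom (gE : E →+* A) := isLocalHom_snd_of_le_fibre E hEF
  have hfF : IsLocalHom (fF : F →+* p.A) := isLocalHom_fst_of_le_fibre F le_rfl
  have hgF : IsLocalHom (gF : F →+* A) := isLocalHom_snd_of_le_fibre F le_rfl
  haveI : IsLocalRing E := RingHom.domain_isLocalRing (fE : E →+* p.A)
  haveI : IsLocalRing F := RingHom.domain_isLocalRing (fF : F →+* p.A)
  haveI : IsLocalHom (algebraMap 𝒪 E) := isLocalHom_algebraMap_of_isLocalHom fE
  haveI : IsLocalHom (algebraMap 𝒪 F) := isLocalHom_algebraMap_of_isLocalHom fF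
  have hresE : Function.Surjective (residue E ∘ algebraMap 𝒪 E) :=
    res_surj_of_isLocalHom fE hfE p.res_surj
  have hresF : Function.Surjective (residue F ∘ algebraMap 𝒪 F) :=
    res_surj_of_isLocalHom fF hfF p.res_surj
  have hE' : GaloisRep.IsArtinianTestAlgebra 𝒪 E := isArtinianTestAlgebra_of_finite hresE
  have hF' : GaloisRep.IsArtinianTestAlgebra 𝒪 F := isArtinianTestAlgebra_of_finite hresF
  have hA' : GaloisRep.IsArtinianTestAlgebra 𝒪 A := isArtinianTestAlgebra_of_finite hres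
  haveI := isLocalHom_algebraMap_residueField 𝒪
  have hk : GaloisRep.IsArtinianTestAlgebra 𝒪 (ResidueField 𝒪) :=
    isArtinianTestAlgebra_of_finite (res_surj_residueField 𝒪)
  -- the lifts
  set tE : GQ →* M2 E := restrictHom E t htE with htE'
  set tF : GQ →* M2 F := restrictHom F t htF with htF'
  have hinjF : Function.Injective (fun x : F => (fF x, gF x)) := by
    intro x y hxy
    exact Subtype.ext hxy
  have hinjE : Function.Injective (fun x : E => (fE x, gE x)) := by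
    intro x y hxy
    exact Subtype.ext hxy
  have htFD : DMat 𝒪 𝒟 tF := by
    refine DMat.of_fibreProduct h𝒟 hF' p.test hA' hk fF gF hfF hgF hinjF ?_ tF ?_ ?_
    · intro a b c ha hb
      exact ⟨⟨(a, b), ⟨c, ha, hb⟩⟩, rfl, rfl⟩
    · exact p.type
    · exact hD
  have htED : DMat 𝒪 𝒟 tE := by
    refine DMat.of_map_injective h𝒟 hE' hF' (Subalgebra.inclusion hEF)
      (isLocalHom_of_finite _) (Subalgebra.inclusion_injective hEF) tE ?_
    exact htFD
  have hnormE : IsNorm N tE := by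
    refine ⟨IsLift.of_map fE (r := tE) p.norm.1, fun i => ?_, ?_⟩
    · apply Subtype.ext
      apply Prod.ext
      · show p.r N.g1 i 0 = _
        rw [p.norm.2.1 i]
        split_ifs <;> rfl
      · show r N.g1 i 0 = _
        rw [hr.2.1 i]
        split_ifs <;> rfl
    · apply Subtype.ext
      apply Prod.ext
      · show p.r N.g2 N.i0 N.j0 = _
        rw [p.norm.2.2]
        rfl
      · show r N.g2 N.i0 N.j0 = _
        rw [hr.2.2]
        rfl
  refine ⟨{ A := E, res_surj := hresE, r := tE, norm := hnormE, type := htED, gen := ?_ },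
    fE, gE, fun σ => rfl, fun σ => rfl, hinjE, fun j hp hA => ?_⟩
  · rw [entries_restrictHom]
    exact Algebra.adjoin_adjoin_coe_preimage
  · exact pow_eq_bot_of_injective_prod fE gE hfE hgE hinjE (j + 1) hp hA

/-- A pair of maximal cardinality at level `j` is universal at level `j`. -/
theorem NPair.exists_map (h𝒟 : GaloisRep.IsDeformationCondition 𝒪 𝒟) {N : NormData 𝒪 ρbar}
    (p : NPair 𝒪 𝒟 N) (j : ℕ)
    (hmax : ∀ q : NPair 𝒪 𝒟 N, q.Level j → Nat.card q.A ≤ Nat.card p.A) (hp : p.Level j)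
    {A : Type} [CommRing A] [IsLocalRing A] [Algebra 𝒪 A]
    [IsLocalHom (algebraMap 𝒪 A)] [Finite A]
    (hres : Function.Surjective (residue A ∘ algebraMap 𝒪 A))
    (hA : maximalIdeal A ^ (j + 1) = ⊥)
    (r : GQ →* M2 A) (hr : IsNorm N r) (hD : DMat 𝒪 𝒟 r) :
    ∃ φ : p.A →ₐ[𝒪] A, ∀ σ, (p.r σ).map φ = r σ := by
  obtain ⟨q, f, g, hf, hg, -, hlev⟩ := exists_pair_of_prod h𝒟 p hres r hr hD
  have hsurj : Function.Surjective f := p.surjective_of_map f q.r hf
  have hbij : Function.Bijective f :=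
    hsurj.bijective_of_nat_card_le (hmax q (hlev j hp hA))
  let e : q.A ≃ₐ[𝒪] p.A := AlgEquiv.ofBijective f hbij
  refine ⟨g.comp (e.symm : p.A →ₐ[𝒪] q.A), fun σ => ?_⟩
  rw [← hg σ]
  ext i k
  show g (e.symm (p.r σ i k)) = g (q.r σ i k)
  congr 1
  rw [AlgEquiv.symm_apply_eq]
  exact (congrArg (fun M : M2 p.A => M i k) (hf σ)).symm

/-- The truncation of a pair at level `j`. -/
theorem NPair.exists_trunc (h𝒟 : GaloisRep.IsDeformationCondition 𝒪 𝒟) {N : NormData 𝒪 ρbar}
    (p : NPair 𝒪 𝒟 N) (j : ℕ) :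
    ∃ (q : NPair 𝒪 𝒟 N) (π : p.A →ₐ[𝒪] q.A), q.Level j ∧ Function.Surjective π ∧
      RingHom.ker (π : p.A →+* q.A) = maximalIdeal p.A ^ (j + 1) ∧
      ∀ σ, (p.r σ).map π = q.r σ := by
  let I : Ideal p.A := maximalIdeal p.A ^ (j + 1)
  haveI : Finite (p.A ⧸ I) := Finite.of_surjective _ Ideal.Quotient.mk_surjective
  haveI : IsLocalHom (algebraMap 𝒪 (p.A ⧸ I)) := isLocalHom_algebraMap_quot_pow j
  have hresQ : Function.Surjective (residue (p.A ⧸ I) ∘ algebraMap 𝒪 (p.A ⧸ I)) :=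
    res_surj_quot_pow p.res_surj j
  let π : p.A →ₐ[𝒪] p.A ⧸ I := Ideal.Quotient.mkₐ 𝒪 I
  have hπ : IsLocalHom (π : p.A →+* p.A ⧸ I) := isLocalHom_of_finite π
  have hQ : GaloisRep.IsArtinianTestAlgebra 𝒪 (p.A ⧸ I) := isArtinianTestAlgebra_of_finite hresQ
  refine ⟨{ A := p.A ⧸ I, res_surj := hresQ, r := mapHom (π : p.A →+* p.A ⧸ I) p.r,
            norm := p.norm.map π hπ, type := p.type.map h𝒟 p.test hQ π hπ, gen := ?_ },
    π, maximalIdeal_quot_pow_pow j, Ideal.Quotient.mk_surjective, ?_, fun σ => rfl⟩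
  · have h1 : entries (mapHom (π : p.A →+* p.A ⧸ I) p.r) = π '' entries p.r := by
      ext x
      constructor
      · rintro ⟨σ, i, k, rfl⟩
        exact ⟨p.r σ i k, ⟨σ, i, k, rfl⟩, rfl⟩
      · rintro ⟨y, ⟨σ, i, k, rfl⟩, rfl⟩
        exact ⟨σ, i, k, rfl⟩
    rw [h1, ← AlgHom.map_adjoin, p.gen, Algebra.map_top, AlgHom.range_eq_top]
    exact Ideal.Quotient.mk_surjective
  · exact Ideal.mk_ker

/-- The transition map between maximal pairs of consecutive levels has kernel `m ^ (j+1)`. -/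
theorem NPair.ker_eq_of_max (h𝒟 : GaloisRep.IsDeformationCondition 𝒪 𝒟) {N : NormData 𝒪 ρbar}
    (p p' : NPair 𝒪 𝒟 N) (j : ℕ) (hp : p.Level j)
    (hmax : ∀ q : NPair 𝒪 𝒟 N, q.Level j → Nat.card q.A ≤ Nat.card p.A)
    (u : p'.A →ₐ[𝒪] p.A) (hu : ∀ σ, (p'.r σ).map u = p.r σ) :
    RingHom.ker (u : p'.A →+* p.A) = maximalIdeal p'.A ^ (j + 1) := by
  have hloc : IsLocalHom (u : p'.A →+* p.A) := isLocalHom_of_finite u
  have hle : maximalIdeal p'.A ^ (j + 1) ≤ RingHom.ker (u : p'.A →+* p.A) := by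
    have h1 : Ideal.map (u : p'.A →+* p.A) (maximalIdeal p'.A ^ (j + 1)) ≤ ⊥ := by
      rw [Ideal.map_pow, ← hp]
      exact Ideal.pow_right_mono (IsLocalRing.map_maximalIdeal_le (u : p'.A →+* p.A)) _
    intro a ha
    have h2 := h1 (Ideal.mem_map_of_mem (u : p'.A →+* p.A) ha)
    rwa [Ideal.mem_bot] at h2
  refine le_antisymm ?_ hle
  obtain ⟨q, π, hq, hπs, hπk, hπr⟩ := p'.exists_trunc h𝒟 j
  -- `u` factors through `π`
  have hfac : ∀ a : p'.A, π a = 0 → u a = 0 := by
    intro a ha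
    have : a ∈ RingHom.ker (π : p'.A →+* q.A) := ha
    rw [hπk] at this
    exact hle this
  have hwd : ∀ a b : p'.A, π a = π b → u a = u b := by
    intro a b hab
    have := hfac (a - b) (by rw [map_sub, hab, sub_self])
    rw [map_sub, sub_eq_zero] at this
    exact this
  -- the induced map `q.A → p.A` as a function
  let v : q.A → p.A := fun x => u (Classical.choose (hπs x))
  have hv : ∀ a : p'.A, v (π a) = u a := fun a =>
    hwd _ _ (Classical.choose_spec (hπs (π a)))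
  have hvsurj : Function.Surjective v := by
    intro y
    obtain ⟨a, rfl⟩ := p.surjective_of_map u p'.r hu y
    exact ⟨π a, hv a⟩
  have hvbij : Function.Bijective v := hvsurj.bijective_of_nat_card_le (hmax q hq)
  intro a ha
  rw [← hπk]
  show π a = 0
  apply hvbij.1
  rw [hv a]
  have h0 : v 0 = 0 := by
    have := hv 0
    rw [map_zero, map_zero] at this
    exact this
  rw [h0]
  exact ha

end ProdPair

end Fermat.Agent.S53

end
-- ==== END Fermat.Agent.S53.Level
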