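-- GENERATED (merged mirror, NOTES/tools/trim/merge3_helper67.py): 20 modules of the originals, bodies verbatim.
import Fermat.Statements.S54
import Mathlib
import Fermat.Prelude.Def_Algebra_PatchingDatum
import Fermat.Prelude.Def_CuspForm_HeckeAlgebra
import Fermat.Prelude.Def_GaloisRep_Adic
import Fermat.Prelude.Def_GaloisRep_Residual
import Fermat.Prelude.Def_FLTPrelim_ModularRep
import Fermat.Prelude.Def_WeierstrassCurve_PeuRamifiee
import Fermat.Agent.Zm.S44_L01_001
import Fermat.Agent.Zm.S35_L01_005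
import Fermat.Agent.Zm.S48_L01_000
import Fermat.Agent.Zm.S33_L02_003
import Fermat.Agent.Zm.S33_L02_001
import Fermat.Agent.Zm.S35_L02_002
import Fermat.Agent.Zm.S35_L03_002
import Fermat.Agent.Zm.S56_L07_005
import Fermat.Agent.Zm.S56_L08_004
import Fermat.Agent.Zm.S33_L01_002
import Fermat.Agent.Zm.S35_L01_001
import Fermat.Agent.Zm.S35_L07_001
import Fermat.Agent.Zm.S48_L02_003

-- ==== BEGIN Fermat.Agent.S54.Core
section

/-!
# S54 (R ↠ T), reduced to the existence of Frobenius elements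

`Fermat.Agent.S54.surjective_of_frobExists` proves the frozen statement S54 under the single
hypothesis that for every prime `ℓ` there are a valuation subring `A` of `AlgebraicClosure ℚ`
lying over `ℓ` and a Frobenius element `σ` at `A`.
-/

set_option autoImplicit false
open GaloisRep GaloisRep.DeformationRingData Polynomial

namespace Fermat.Agent.S54

/-- Frobenius elements exist at every prime. -/
def FrobExists : Prop := ∀ (ℓ : ℕ), ℓ.Prime →
  ∃ (A : ValuationSubring (AlgebraicClosure ℚ)) (σ : AlgebraicClosure ℚ ≃ₐ[ℚ] AlgebraicClosure ℚ),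
    A.LiesOverPrime ℓ ∧ A.IsFrobeniusAt σ ℓ

/-- Characteristic polynomials are compatible with base change and equivalence. -/
theorem charpoly_eq_map_of_equiv {R T : Type} [CommRing R] [IsLocalRing R] [CommRing T]
    [IsLocalRing T] (φ : R →+* T) (hφ : IsLocalHom φ) (ρ : GaloisRepAdic R) (ρ' : GaloisRepAdic T)
    (e : GaloisRepAdic.Equiv (ρ.baseChangeAlong φ hφ) ρ')
    (σ : AlgebraicClosure ℚ ≃ₐ[ℚ] AlgebraicClosure ℚ) :
    LinearMap.charpoly (ρ'.ρ σ) = (LinearMap.charpoly (ρ.ρ σ)).map φ := by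
  let _ : Algebra R T := φ.toAlgebra
  have h1 : ρ'.ρ σ = e.toLinearEquiv.conj ((ρ.baseChangeAlong φ hφ).ρ σ) := by
    ext x
    rw [LinearEquiv.conj_apply_apply, e.map_apply, LinearEquiv.apply_symm_apply]
  rw [h1, LinearEquiv.charpoly_conj]
  exact LinearMap.charpoly_baseChange (A := T) (ρ.ρ σ)

theorem surjective_of_frobExists (hF : FrobExists) {𝒪 : Type} [CommRing 𝒪] [IsDomain 𝒪] [IsDiscreteValuationRing 𝒪] [IsAdicComplete (IsLocalRing.maximalIdeal 𝒪) 𝒪] {ρbar : ResidualGaloisRep (IsLocalRing.ResidueField 𝒪)} {𝒟 : ∀ ⦃A : Type⦄ [CommRing A] [IsLocalRing A] [Algebra 𝒪 A], GaloisRepAdic A → Prop} (D : GaloisRep.DeformationRingData 𝒪 ρbar 𝒟) {N : ℕ} [NeZero N] {S : Set ℕ} {θ : CuspForm.heckeAlgebra N 2 S →+* IsLocalRing.ResidueField 𝒪} {T : Type} [CommRing T] [IsLocalRing T] [IsNoetherianRing T] [IsAdicComplete (IsLocalRing.maximalIdeal T) T] [Algebra 𝒪 T] [IsLocalHom (algebraMap 𝒪 T)] [Module.Finite 𝒪 T] [Module.Free 𝒪 T] (H : CuspForm.HeckeGaloisRepDatum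 N S 𝒪 θ T) (hS : ∀ q : ℕ, q.Prime → q ∣ N → q ∈ S) (h𝒟 : 𝒟 H.ρ) (hres : H.ρ.residual.IsEquiv (ρbar.baseChangeAlong (IsLocalRing.ResidueField.map (algebraMap 𝒪 T)))) : ∃ φ : D.R →ₐ[𝒪] T, Function.Surjective φ ∧ ∃ hφ : IsLocalHom (φ : D.R →+* T), (D.ρ.baseChangeAlong (φ : D.R →+* T) hφ).IsEquiv H.ρ := by
  obtain ⟨φ, ⟨hφ, ⟨e⟩⟩, -⟩ := D.universal T H.residue_surjective H.ρ h𝒟 hres
  refine ⟨φ, ?_, hφ, ⟨e⟩⟩
  -- the range of `φ` contains every `π (T_ℓ)`
  have hT : ∀ (ℓ : ℕ) (hℓ : ℓ.Prime) (hℓN : ¬ ℓ ∣ N) (hℓS : ℓ ∉ S),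
      H.π (CuspForm.heckeAlgebra.T hℓ hℓN hℓS) ∈ φ.range := by
    intro ℓ hℓ hℓN hℓS
    obtain ⟨A, σ, hA, hσ⟩ := hF ℓ hℓ
    have h1 := H.charpoly_frob ℓ hℓ hℓN hℓS A hA σ hσ
    rw [charpoly_eq_map_of_equiv (φ : D.R →+* T) hφ D.ρ H.ρ e σ] at h1
    have h3 := congrArg (fun p => p.coeff 1) h1
    simp only [coeff_map, coeff_add, coeff_sub, coeff_X_pow, coeff_C_mul, coeff_X_one,
      coeff_C] at h3
    norm_num at h3
    refine ⟨-(LinearMap.charpoly (D.ρ.ρ σ)).coeff 1, ?_⟩
    rw [map_neg]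
    exact (neg_eq_iff_eq_neg.mpr h3)
  -- hence the range of `π` is contained in the range of `φ`
  have hπ : Set.range H.π ⊆ (φ.range : Set T) := by
    rintro _ ⟨⟨t, ht⟩, rfl⟩
    induction ht using Algebra.adjoin_induction with
    | mem x hx =>
      rcases hx with ⟨ℓ, hℓ, hℓN, hℓS, rfl⟩ | ⟨q, hqN, hq, hqS, rfl⟩
      · exact hT ℓ hℓ hℓN hℓS
      · exact absurd (hS q hq hqN) hqS
    | algebraMap r =>
      have : (⟨algebraMap ℤ _ r, Subalgebra.algebraMap_mem _ r⟩ : CuspForm.heckeAlgebra N 2 S) =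
          algebraMap ℤ (CuspForm.heckeAlgebra N 2 S) r := rfl
      rw [this]
      simp only [eq_intCast, map_intCast]
      exact intCast_mem _ r
    | add x y hx hy hx' hy' =>
      have : (⟨x + y, Subalgebra.add_mem _ hx hy⟩ : CuspForm.heckeAlgebra N 2 S) =
          ⟨x, hx⟩ + ⟨y, hy⟩ := rfl
      rw [this, map_add]
      exact add_mem hx' hy'
    | mul x y hx hy hx' hy' =>
      have : (⟨x * y, Subalgebra.mul_mem _ hx hy⟩ : CuspForm.heckeAlgebra N 2 S) =
          ⟨x, hx⟩ * ⟨y, hy⟩ := rfl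
      rw [this, map_mul]
      exact mul_mem hx' hy'
  have htop : (⊤ : Subalgebra 𝒪 T) ≤ φ.range := by
    rw [← H.adjoin_range_π]
    exact Algebra.adjoin_le hπ
  intro t
  exact htop (Algebra.mem_top : t ∈ (⊤ : Subalgebra 𝒪 T))

end Fermat.Agent.S54

end
-- ==== END Fermat.Agent.S54.Core

-- ==== BEGIN Fermat.Agent.S57.H93_Concrete
section

/-!
# S57, concrete part (helper93)

For a patching level `L` with trivial relation ideal `J = ⊥`:
* `L.N` is a finite nontrivial module over `Λ = MvPowerSeries (Fin r) 𝒪`;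
* `L.φ` maps the maximal ideal of `Λ` into itself;
* regular sequences on `Λ` are transported by `L.φ` to regular sequences on `L.N`;
* if `L.N` is free over `Λ`, then the three conclusions of S57 hold.
-/

set_option autoImplicit false

namespace Fermat.Agent.S57.H93

open MvPowerSeries RingTheory.Sequence

variable {𝒪 : Type} [CommRing 𝒪] {r : ℕ} {R : Type} [CommRing R] [Algebra 𝒪 R]
  {M : Type} [AddCommGroup M] [Module R M]

/-- The `φ`-semilinear parametrisation `Λ^d → N`, `c ↦ ∑ φ (c i) • b i`. -/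
noncomputable def param (L : Algebra.PatchingLevel 𝒪 r R M ⊥) :
    (Fin L.d → MvPowerSeries (Fin r) 𝒪) →+ L.N where
  toFun c := ∑ i, L.φ (c i) • L.b i
  map_zero' := by simp
  map_add' c c' := by
    simp [add_smul, Finset.sum_add_distrib]

lemma param_apply (L : Algebra.PatchingLevel 𝒪 r R M ⊥)
    (c : Fin L.d → MvPowerSeries (Fin r) 𝒪) :
    param L c = ∑ i, L.φ (c i) • L.b i := rfl

lemma param_smul (L : Algebra.PatchingLevel 𝒪 r R M ⊥) (s : MvPowerSeries (Fin r) 𝒪)
    (c : Fin L.d → MvPowerSeries (Fin r) 𝒪) :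
    param L (s • c) = L.φ s • param L c := by
  simp [param_apply, Finset.smul_sum, mul_smul]

lemma param_injective (L : Algebra.PatchingLevel 𝒪 r R M ⊥) :
    Function.Injective (param L) := by
  rw [injective_iff_map_eq_zero]
  intro c hc
  have := (L.b_rel c).mp hc
  funext i
  simpa using this i

lemma param_surjective (L : Algebra.PatchingLevel 𝒪 r R M ⊥) :
    Function.Surjective (param L) := by
  intro x
  obtain ⟨c, hc⟩ := L.b_span x
  exact ⟨c, hc.symm⟩

/-- The additive equivalence `Λ^d ≃+ N`. -/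
noncomputable def paramEquiv (L : Algebra.PatchingLevel 𝒪 r R M ⊥) :
    (Fin L.d → MvPowerSeries (Fin r) 𝒪) ≃+ L.N :=
  AddEquiv.ofBijective (param L) ⟨param_injective L, param_surjective L⟩

lemma paramEquiv_smul (L : Algebra.PatchingLevel 𝒪 r R M ⊥) (s : MvPowerSeries (Fin r) 𝒪)
    (c : Fin L.d → MvPowerSeries (Fin r) 𝒪) :
    paramEquiv L (s • c) = L.φ s • paramEquiv L c :=
  param_smul L s c

/-- `N` is a finite `Λ`-module (generated by the `b i`). -/
theorem finite_N (L : Algebra.PatchingLevel 𝒪 r R M ⊥) :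
    Module.Finite (MvPowerSeries (Fin r) 𝒪) L.N := by
  refine Module.Finite.of_surjective
    (Fintype.linearCombination (MvPowerSeries (Fin r) 𝒪) L.b) ?_
  intro x
  obtain ⟨c, hc⟩ := L.b_span x
  refine ⟨fun i => L.φ (c i), ?_⟩
  rw [hc, Fintype.linearCombination_apply]

/-- `N` is nontrivial as soon as `M` is. -/
theorem nontrivial_N [Nontrivial M] (L : Algebra.PatchingLevel 𝒪 r R M ⊥) :
    Nontrivial L.N := by
  obtain ⟨m, hm⟩ := exists_ne (0 : M)
  obtain ⟨x, hx⟩ := L.π_surjective m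
  refine ⟨⟨x, 0, ?_⟩⟩
  rintro rfl
  exact hm (by rw [← hx, map_zero])

/-- Any `𝒪`-algebra endomorphism of `Λ = 𝒪⟦X₁,…,X_r⟧` (over a local ring `𝒪`) is local:
it maps the maximal ideal into itself.  No continuity is needed. -/
theorem algHom_mem_maximalIdeal [IsLocalRing 𝒪]
    (φ : MvPowerSeries (Fin r) 𝒪 →ₐ[𝒪] MvPowerSeries (Fin r) 𝒪)
    {f : MvPowerSeries (Fin r) 𝒪} (hf : f ∈ IsLocalRing.maximalIdeal (MvPowerSeries (Fin r) 𝒪)) :
    φ f ∈ IsLocalRing.maximalIdeal (MvPowerSeries (Fin r) 𝒪) := by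
  rw [IsLocalRing.mem_maximalIdeal, mem_nonunits_iff] at hf ⊢
  intro hu
  have hu' : IsUnit (constantCoeff (φ f)) := MvPowerSeries.isUnit_iff_constantCoeff.mp hu
  obtain ⟨u, hu''⟩ := hu'
  -- `c = a⁻¹` where `a` is the constant coefficient of `φ f`
  set c : 𝒪 := ((u⁻¹ : 𝒪ˣ) : 𝒪) with hc
  have hf0 : ¬ IsUnit (constantCoeff f) := fun h =>
    hf (MvPowerSeries.isUnit_iff_constantCoeff.mpr h)
  have hcf0 : c * constantCoeff f ∈ nonunits 𝒪 := by
    rw [mem_nonunits_iff]
    intro h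
    exact hf0 (isUnit_of_mul_isUnit_right h)
  have hunit : IsUnit (1 - C c * f : MvPowerSeries (Fin r) 𝒪) := by
    rw [MvPowerSeries.isUnit_iff_constantCoeff]
    simpa using IsLocalRing.isUnit_one_sub_self_of_mem_nonunits _ hcf0
  have hφC : φ (C c) = C c := by
    have h1 : (algebraMap 𝒪 (MvPowerSeries (Fin r) 𝒪)) c = C c := by
      rw [MvPowerSeries.algebraMap_apply]; rfl
    rw [← h1, φ.commutes]
  have hunit' : IsUnit (φ (1 - C c * f)) := hunit.map φ
  rw [map_sub, map_one, map_mul, hφC, MvPowerSeries.isUnit_iff_constantCoeff] at hunit'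
  have h0 : constantCoeff (1 - C c * φ f : MvPowerSeries (Fin r) 𝒪) = 0 := by
    simp only [map_sub, map_one, map_mul, constantCoeff_C, ← hu'', hc]
    simp
  rw [h0] at hunit'
  exact not_isUnit_zero hunit'

/-- A weakly regular sequence on `Λ` is transported by `φ` to a weakly regular sequence on `N`. -/
theorem isWeaklyRegular_map_phi (L : Algebra.PatchingLevel 𝒪 r R M ⊥)
    {x : List (MvPowerSeries (Fin r) 𝒪)}
    (hx : IsWeaklyRegular (MvPowerSeries (Fin r) 𝒪) x) :
    IsWeaklyRegular L.N (x.map L.φ) := by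
  have h1 : IsWeaklyRegular (TensorProduct (MvPowerSeries (Fin r) 𝒪) (MvPowerSeries (Fin r) 𝒪)
      (Fin L.d → MvPowerSeries (Fin r) 𝒪)) x :=
    hx.isWeaklyRegular_rTensor
  have h2 : IsWeaklyRegular (Fin L.d → MvPowerSeries (Fin r) 𝒪) x :=
    ((TensorProduct.lid (MvPowerSeries (Fin r) 𝒪)
      (Fin L.d → MvPowerSeries (Fin r) 𝒪)).isWeaklyRegular_congr x).mp h1
  refine ((paramEquiv L).isWeaklyRegular_congr ?_).mp h2
  exact List.forall₂_map_right_iff.mpr
    (List.forall₂_same.mpr fun s _ c => paramEquiv_smul L s c)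

lemma repr_mem_of_mem_smul_top {A N ι : Type*} [CommRing A] [AddCommGroup N] [Module A N]
    (B : Module.Basis ι A N) (I : Ideal A) {x : N} (hx : x ∈ I • (⊤ : Submodule A N)) (j : ι) :
    B.repr x j ∈ I := by
  refine Submodule.smul_induction_on hx ?_ ?_
  · intro a ha n _
    simp only [map_smul, Finsupp.smul_apply, smul_eq_mul]
    exact I.mul_mem_right _ ha
  · intro x y hx hy
    simp only [map_add, Finsupp.add_apply]
    exact I.add_mem hx hy

lemma pi_finsupp_sum (L : Algebra.PatchingLevel 𝒪 r R M ⊥) {ι : Type*}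
    (B : ι → L.N) (c : ι →₀ MvPowerSeries (Fin r) 𝒪) :
    L.π (c.sum fun j a => a • B j) = c.sum fun j a => L.ψ a • L.π (B j) := by
  simp only [Finsupp.sum, map_sum, L.π_smul]

/-- **Assembly**: if `N` is free over `Λ`, the three conclusions of S57 hold. -/
theorem result_of_free [Nontrivial M] (L : Algebra.PatchingLevel 𝒪 r R M ⊥)
    (hfree : Module.Free (MvPowerSeries (Fin r) 𝒪) L.N) :
    Module.Free R M ∧ Module.annihilator R M = ⊥ ∧
      RingHom.ker L.ψ = Ideal.span (Set.range fun i : Fin r => L.φ (MvPowerSeries.X i)) := by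
  classical
  set I : Ideal (MvPowerSeries (Fin r) 𝒪) :=
    Ideal.span (Set.range fun i : Fin r => L.φ (MvPowerSeries.X i)) with hI
  have hIker : I ≤ RingHom.ker L.ψ := by
    rw [hI, Ideal.span_le]
    rintro _ ⟨i, rfl⟩
    exact L.ψ_φ_X i
  let B := Module.Free.chooseBasis (MvPowerSeries (Fin r) 𝒪) L.N
  have hπ0 : ∀ x, L.π x = 0 → ∀ j, B.repr x j ∈ I := fun x hx j =>
    repr_mem_of_mem_smul_top B I ((L.ker_π x).mp hx) j
  -- linear independence of the images of the basis vectors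
  have hli : LinearIndependent R (fun j => L.π (B j)) := by
    rw [linearIndependent_iff]
    intro l hl
    -- lift the coefficients along `ψ`
    let g : R → MvPowerSeries (Fin r) 𝒪 := fun a => if a = 0 then 0 else Function.surjInv L.ψ_surjective a
    have hg0 : g 0 = 0 := by simp [g]
    have hg : ∀ a, L.ψ (g a) = a := by
      intro a
      by_cases ha : a = 0
      · simp [g, ha]
      · simp only [g, ha, if_false]
        exact Function.surjInv_eq L.ψ_surjective a
    let c : _ →₀ MvPowerSeries (Fin r) 𝒪 := l.mapRange g hg0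
    have hsum : L.π (c.sum fun j a => a • B j) = 0 := by
      rw [pi_finsupp_sum, ← hl, Finsupp.linearCombination_apply]
      rw [Finsupp.sum_mapRange_index (by intro j; simp)]
      simp only [hg]
    have hrepr : B.repr (c.sum fun j a => a • B j) = c := by
      rw [← Finsupp.linearCombination_apply, B.repr_linearCombination]
    ext j
    have hj := hπ0 _ hsum j
    rw [hrepr] at hj
    have : L.ψ (c j) = 0 := hIker hj
    simpa [c, hg] using this
  have hsp : ⊤ ≤ Submodule.span R (Set.range fun j => L.π (B j)) := by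
    rintro m -
    obtain ⟨x, rfl⟩ := L.π_surjective m
    rw [← B.linearCombination_repr x, Finsupp.linearCombination_apply, pi_finsupp_sum]
    refine Submodule.sum_mem _ fun j _ => Submodule.smul_mem _ _ (Submodule.subset_span ⟨j, rfl⟩)
  have hfreeM : Module.Free R M := Module.Free.of_basis (Module.Basis.mk hli hsp)
  refine ⟨hfreeM, Module.annihilator_eq_bot.mpr inferInstance, le_antisymm ?_ hIker⟩
  intro f hf
  have := nontrivial_N L
  obtain ⟨j₀⟩ : Nonempty (Module.Free.ChooseBasisIndex (MvPowerSeries (Fin r) 𝒪) L.N) :=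
    B.index_nonempty
  have h0 : L.π (f • B j₀) = 0 := by
    rw [L.π_smul, RingHom.mem_ker.mp hf, zero_smul]
  have := hπ0 _ h0 j₀
  simpa using this

end Fermat.Agent.S57.H93

end
-- ==== END Fermat.Agent.S57.H93_Concrete

-- ==== BEGIN Fermat.Agent.S59.Asm.H41_Rest
section

/-!
# S59, package ASM, leaf REST (helper41): restriction of Hecke operators to a lower level

`CuspForm.heckeAlgebra N' k S'` is generated by `T_ℓ` (`ℓ ∤ N'`, `ℓ ∉ S'`) and `U_q` (`q ∣ N'`,
`q ∉ S'`).  If `N ∣ N'`, `S ⊆ S'` and every prime `q ∣ N'` with `q ∤ N` lies in `S'`, then all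
generators preserve the image of the level inclusion `S_k(Γ₀(N)) ↪ S_k(Γ₀(N'))` and restrict to
the corresponding generators of level `N`; this gives the ring homomorphism `rest`.

(Without the hypothesis on the new primes the statement is false: `N = 11`, `N' = 22`,
`S = S' = ∅`, where `U_2` of level `22` satisfies `X² + 2X + 2 = 0`.)

Complete proofs, standard axioms only.
-/

set_option autoImplicit false

open CuspForm

namespace Fermat.Agent.S59.Asm.H41

theorem Gamma0_le_of_dvd {N N' : ℕ} (h : N ∣ N') :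
    CongruenceSubgroup.Gamma0 N' ≤ CongruenceSubgroup.Gamma0 N := by
  intro g hg
  rw [CongruenceSubgroup.Gamma0_mem] at hg ⊢
  obtain ⟨c, rfl⟩ := h
  have := congrArg (ZMod.castHom (dvd_mul_right N c) (ZMod N)) hg
  simpa using this

theorem Gamma0GL_le_of_dvd {N N' : ℕ} (h : N ∣ N') :
    ((CongruenceSubgroup.Gamma0 N' : Subgroup (Matrix.SpecialLinearGroup (Fin 2) ℤ)) :
      Subgroup (GL (Fin 2) ℝ)) ≤
    ((CongruenceSubgroup.Gamma0 N : Subgroup (Matrix.SpecialLinearGroup (Fin 2) ℤ)) :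
      Subgroup (GL (Fin 2) ℝ)) :=
  Subgroup.map_mono (Gamma0_le_of_dvd h)

/-- The level inclusion `S_k(Γ₀(N)) → S_k(Γ₀(N'))` for `N ∣ N'`. -/
noncomputable def levelIncl {N N' : ℕ} (h : N ∣ N') (k : ℤ) :
    CuspForm (CongruenceSubgroup.Gamma0 N) k →ₗ[ℂ] CuspForm (CongruenceSubgroup.Gamma0 N') k where
  toFun f :=
    { toFun := ⇑f
      slash_action_eq' := fun γ hγ =>
        SlashInvariantFormClass.slash_action_eq f γ (Gamma0GL_le_of_dvd h hγ)
      holo' := CuspFormClass.holo f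
      zero_at_cusps' := fun hc => CuspFormClass.zero_at_cusps f
        (IsCusp.mono (Gamma0GL_le_of_dvd h) hc) }
  map_add' _ _ := DFunLike.coe_injective rfl
  map_smul' _ _ := DFunLike.coe_injective rfl

@[simp] theorem coe_levelIncl {N N' : ℕ} (h : N ∣ N') (k : ℤ)
    (f : CuspForm (CongruenceSubgroup.Gamma0 N) k) : ⇑(levelIncl h k f) = ⇑f := rfl

theorem levelIncl_injective {N N' : ℕ} (h : N ∣ N') (k : ℤ) :
    Function.Injective (levelIncl h k) := by
  intro f g hfg
  apply DFunLike.coe_injective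
  have := congrArg (fun F : CuspForm (CongruenceSubgroup.Gamma0 N') k => (⇑F : UpperHalfPlane → ℂ)) hfg
  simpa using this

theorem heckeTLin_levelIncl {N N' : ℕ} (h : N ∣ N') (k : ℤ) {ℓ : ℕ} (hℓ : ℓ.Prime)
    (hℓN' : ¬ ℓ ∣ N') (hℓN : ¬ ℓ ∣ N) (f : CuspForm (CongruenceSubgroup.Gamma0 N) k) :
    heckeTLin k hℓ hℓN' (levelIncl h k f) = levelIncl h k (heckeTLin k hℓ hℓN f) :=
  DFunLike.coe_injective rfl

theorem heckeULin_levelIncl {N N' : ℕ} [NeZero N] [NeZero N'] (h : N ∣ N') (k : ℤ) {q : ℕ}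
    (hqN' : q ∣ N') (hqN : q ∣ N) (f : CuspForm (CongruenceSubgroup.Gamma0 N) k) :
    heckeULin k hqN' (levelIncl h k f) = levelIncl h k (heckeULin k hqN f) :=
  DFunLike.coe_injective rfl


/-- The operator `T` of level `N'` restricts to the operator `T₀` of level `N`. -/
def RestrictsTo {N N' : ℕ} (h : N ∣ N') (k : ℤ)
    (T : Module.End ℂ (CuspForm (CongruenceSubgroup.Gamma0 N') k))
    (T₀ : Module.End ℂ (CuspForm (CongruenceSubgroup.Gamma0 N) k)) : Prop :=
  ∀ f, T (levelIncl h k f) = levelIncl h k (T₀ f)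

theorem RestrictsTo.unique {N N' : ℕ} {h : N ∣ N'} {k : ℤ}
    {T : Module.End ℂ (CuspForm (CongruenceSubgroup.Gamma0 N') k)}
    {T₀ T₁ : Module.End ℂ (CuspForm (CongruenceSubgroup.Gamma0 N) k)}
    (h₀ : RestrictsTo h k T T₀) (h₁ : RestrictsTo h k T T₁) : T₀ = T₁ := by
  apply LinearMap.ext
  intro f
  exact levelIncl_injective h k ((h₀ f).symm.trans (h₁ f))

theorem RestrictsTo.one {N N' : ℕ} (h : N ∣ N') (k : ℤ) : RestrictsTo h k 1 1 := fun _ => rfl

theorem RestrictsTo.zero {N N' : ℕ} (h : N ∣ N') (k : ℤ) : RestrictsTo h k 0 0 := fun f => by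
  simp

theorem RestrictsTo.mul {N N' : ℕ} {h : N ∣ N'} {k : ℤ}
    {T T' : Module.End ℂ (CuspForm (CongruenceSubgroup.Gamma0 N') k)}
    {T₀ T₀' : Module.End ℂ (CuspForm (CongruenceSubgroup.Gamma0 N) k)}
    (h₀ : RestrictsTo h k T T₀) (h₁ : RestrictsTo h k T' T₀') :
    RestrictsTo h k (T * T') (T₀ * T₀') := fun f => by
  rw [Module.End.mul_apply, Module.End.mul_apply, h₁ f, h₀]

theorem RestrictsTo.add {N N' : ℕ} {h : N ∣ N'} {k : ℤ}
    {T T' : Module.End ℂ (CuspForm (CongruenceSubgroup.Gamma0 N') k)}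
    {T₀ T₀' : Module.End ℂ (CuspForm (CongruenceSubgroup.Gamma0 N) k)}
    (h₀ : RestrictsTo h k T T₀) (h₁ : RestrictsTo h k T' T₀') :
    RestrictsTo h k (T + T') (T₀ + T₀') := fun f => by
  rw [LinearMap.add_apply, LinearMap.add_apply, h₀ f, h₁ f, map_add]

theorem RestrictsTo.algebraMap {N N' : ℕ} (h : N ∣ N') (k : ℤ) (n : ℤ) :
    RestrictsTo h k (_root_.Algebra.algebraMap ℤ _ n) (_root_.Algebra.algebraMap ℤ _ n) := fun f => by
  rw [Algebra.algebraMap_eq_smul_one, Algebra.algebraMap_eq_smul_one, LinearMap.smul_apply,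
    LinearMap.smul_apply, Module.End.one_apply, Module.End.one_apply, map_zsmul]

/-- Every element of the Hecke algebra of level `N'` restricts to an element of the Hecke algebra
of level `N`. -/
theorem exists_restrictsTo {N N' : ℕ} [NeZero N] [NeZero N'] (h : N ∣ N') (k : ℤ)
    {S S' : Set ℕ} (hS : S ⊆ S') (hnew : ∀ q : ℕ, q.Prime → q ∣ N' → ¬ q ∣ N → q ∈ S')
    (T : Module.End ℂ (CuspForm (CongruenceSubgroup.Gamma0 N') k))
    (hT : T ∈ heckeAlgebra N' k S') :
    ∃ T₀ ∈ heckeAlgebra N k S, RestrictsTo h k T T₀ := by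
  induction hT using Algebra.adjoin_induction with
  | mem T hT =>
    rcases hT with ⟨ℓ, hℓ, hℓN', hℓS', rfl⟩ | ⟨q, hqN', hq, hqS', rfl⟩
    · have hℓN : ¬ ℓ ∣ N := fun hd => hℓN' (hd.trans h)
      exact ⟨heckeTLin k hℓ hℓN, heckeTLin_mem_heckeAlgebra hℓ hℓN (fun hs => hℓS' (hS hs)),
        fun f => heckeTLin_levelIncl h k hℓ hℓN' hℓN f⟩
    · have hqN : q ∣ N := by
        by_contra hn
        exact hqS' (hnew q hq hqN' hn)
      exact ⟨heckeULin k hqN, heckeULin_mem_heckeAlgebra hq hqN (fun hs => hqS' (hS hs)),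
        fun f => heckeULin_levelIncl h k hqN' hqN f⟩
  | algebraMap n =>
    exact ⟨algebraMap ℤ _ n, Subalgebra.algebraMap_mem _ n, RestrictsTo.algebraMap h k n⟩
  | add T T' _ _ ih ih' =>
    obtain ⟨T₀, hT₀, h₀⟩ := ih
    obtain ⟨T₀', hT₀', h₀'⟩ := ih'
    exact ⟨T₀ + T₀', Subalgebra.add_mem _ hT₀ hT₀', h₀.add h₀'⟩
  | mul T T' _ _ ih ih' =>
    obtain ⟨T₀, hT₀, h₀⟩ := ih
    obtain ⟨T₀', hT₀', h₀'⟩ := ih'
    exact ⟨T₀ * T₀', Subalgebra.mul_mem _ hT₀ hT₀', h₀.mul h₀'⟩

/-- The restriction map, as a function. -/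
noncomputable def restFun {N N' : ℕ} [NeZero N] [NeZero N'] (h : N ∣ N') (k : ℤ)
    {S S' : Set ℕ} (hS : S ⊆ S') (hnew : ∀ q : ℕ, q.Prime → q ∣ N' → ¬ q ∣ N → q ∈ S')
    (T : heckeAlgebra N' k S') : heckeAlgebra N k S :=
  ⟨(exists_restrictsTo h k hS hnew T.1 T.2).choose,
    (exists_restrictsTo h k hS hnew T.1 T.2).choose_spec.1⟩

theorem restFun_spec {N N' : ℕ} [NeZero N] [NeZero N'] (h : N ∣ N') (k : ℤ)
    {S S' : Set ℕ} (hS : S ⊆ S') (hnew : ∀ q : ℕ, q.Prime → q ∣ N' → ¬ q ∣ N → q ∈ S')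
    (T : heckeAlgebra N' k S') :
    RestrictsTo h k T.1 (restFun h k hS hnew T).1 :=
  (exists_restrictsTo h k hS hnew T.1 T.2).choose_spec.2

theorem restFun_eq {N N' : ℕ} [NeZero N] [NeZero N'] (h : N ∣ N') (k : ℤ)
    {S S' : Set ℕ} (hS : S ⊆ S') (hnew : ∀ q : ℕ, q.Prime → q ∣ N' → ¬ q ∣ N → q ∈ S')
    (T : heckeAlgebra N' k S') (T₀ : heckeAlgebra N k S) (hT : RestrictsTo h k T.1 T₀.1) :
    restFun h k hS hnew T = T₀ :=
  Subtype.ext ((restFun_spec h k hS hnew T).unique hT)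

/-- The restriction of Hecke operators from level `N'` to level `N`, as a ring homomorphism. -/
noncomputable def rest {N N' : ℕ} [NeZero N] [NeZero N'] (h : N ∣ N') (k : ℤ)
    {S S' : Set ℕ} (hS : S ⊆ S') (hnew : ∀ q : ℕ, q.Prime → q ∣ N' → ¬ q ∣ N → q ∈ S') :
    heckeAlgebra N' k S' →+* heckeAlgebra N k S where
  toFun := restFun h k hS hnew
  map_one' := restFun_eq h k hS hnew 1 1 (RestrictsTo.one h k)
  map_zero' := restFun_eq h k hS hnew 0 0 (RestrictsTo.zero h k)
  map_mul' T T' := restFun_eq h k hS hnew (T * T') _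
    ((restFun_spec h k hS hnew T).mul (restFun_spec h k hS hnew T'))
  map_add' T T' := restFun_eq h k hS hnew (T + T') _
    ((restFun_spec h k hS hnew T).add (restFun_spec h k hS hnew T'))

theorem rest_spec {N N' : ℕ} [NeZero N] [NeZero N'] (h : N ∣ N') (k : ℤ)
    {S S' : Set ℕ} (hS : S ⊆ S') (hnew : ∀ q : ℕ, q.Prime → q ∣ N' → ¬ q ∣ N → q ∈ S')
    (T : heckeAlgebra N' k S') (f : CuspForm (CongruenceSubgroup.Gamma0 N) k) :
    T.1 (levelIncl h k f) = levelIncl h k ((rest h k hS hnew T).1 f) :=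
  restFun_spec h k hS hnew T f

theorem rest_T {N N' : ℕ} [NeZero N] [NeZero N'] (h : N ∣ N') (k : ℤ)
    {S S' : Set ℕ} (hS : S ⊆ S') (hnew : ∀ q : ℕ, q.Prime → q ∣ N' → ¬ q ∣ N → q ∈ S')
    {ℓ : ℕ} (hℓ : ℓ.Prime) (hℓN' : ¬ ℓ ∣ N') (hℓS' : ℓ ∉ S') (hℓN : ¬ ℓ ∣ N) (hℓS : ℓ ∉ S) :
    rest h k hS hnew (heckeAlgebra.T hℓ hℓN' hℓS') = heckeAlgebra.T hℓ hℓN hℓS :=
  restFun_eq h k hS hnew _ _ fun f => heckeTLin_levelIncl h k hℓ hℓN' hℓN f

theorem rest_U {N N' : ℕ} [NeZero N] [NeZero N'] (h : N ∣ N') (k : ℤ)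
    {S S' : Set ℕ} (hS : S ⊆ S') (hnew : ∀ q : ℕ, q.Prime → q ∣ N' → ¬ q ∣ N → q ∈ S')
    {q : ℕ} (hq : q.Prime) (hqN' : q ∣ N') (hqS' : q ∉ S') (hqN : q ∣ N) (hqS : q ∉ S) :
    rest h k hS hnew (heckeAlgebra.U hq hqN' hqS') = heckeAlgebra.U hq hqN hqS :=
  restFun_eq h k hS hnew _ _ fun f => heckeULin_levelIncl h k hqN' hqN f

/-- **REST**, corrected form: restriction of the Hecke algebra of level `N'` to the forms of
level `N ∣ N'`, provided the new primes of the level lie in `S'`. -/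
def Stmt_REST' : Prop :=
  ∀ (N N' : ℕ) [NeZero N] [NeZero N'] (S S' : Set ℕ), N ∣ N' → S ⊆ S' →
    (∀ q : ℕ, q.Prime → q ∣ N' → ¬ q ∣ N → q ∈ S') →
    ∃ rest : CuspForm.heckeAlgebra N' 2 S' →+* CuspForm.heckeAlgebra N 2 S,
      ∀ (ℓ : ℕ) (hℓ : ℓ.Prime) (hℓN' : ¬ ℓ ∣ N') (hℓS' : ℓ ∉ S') (hℓN : ¬ ℓ ∣ N) (hℓS : ℓ ∉ S),
        rest (CuspForm.heckeAlgebra.T hℓ hℓN' hℓS') = CuspForm.heckeAlgebra.T hℓ hℓN hℓS

theorem stmt_REST' : Stmt_REST' := fun _ _ _ _ _ _ h hS hnew =>
  ⟨rest h 2 hS hnew, fun _ hℓ hℓN' hℓS' hℓN hℓS => rest_T h 2 hS hnew hℓ hℓN' hℓS' hℓN hℓS⟩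

end Fermat.Agent.S59.Asm.H41

end
-- ==== END Fermat.Agent.S59.Asm.H41_Rest

-- ==== BEGIN Fermat.Agent.S59.Asm.H77_BridgeA
section

/-!
# S59, package ASM, leaf BRIDGE (helper77), part A: unit + nilpotent is injective

`𝒪` a Noetherian local ring, `V` a finite `𝒪`-module.

* `krull_inj`: if `M ^ m` maps `V` into `𝔪 V` and `v + M v = 0` then `v = 0` (Krull).
* `inj_on`: `V = Vα ⊕ Vβ`, `B`, `S` commuting endomorphisms preserving `Vα`, `B ^ m` maps `Vα`
  into `𝔪 V`; then `w + S (B w) = 0`, `w ∈ Vα`, implies `w = 0`.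
-/

set_option autoImplicit false

open IsLocalRing

namespace Fermat.Agent.S59.Asm.H77

variable {𝒪 : Type*} [CommRing 𝒪]
variable {V : Type*} [AddCommGroup V] [Module 𝒪 V]

/-- Linear maps preserve `I V`. -/
theorem map_mem_smul_top (I : Ideal 𝒪) (f : Module.End 𝒪 V) {x : V}
    (hx : x ∈ (I • ⊤ : Submodule 𝒪 V)) : f x ∈ (I • ⊤ : Submodule 𝒪 V) := by
  refine Submodule.smul_induction_on hx ?_ ?_
  · intro c hc y _
    rw [map_smul]
    exact Submodule.smul_mem_smul hc Submodule.mem_top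
  · intro y z hy hz
    rw [map_add]
    exact Submodule.add_mem _ hy hz

/-- A linear map sends `I (J V)` into `I (f (J V))`. -/
theorem map_mem_smul_smul (I J : Ideal 𝒪) (f : Module.End 𝒪 V)
    (hf : ∀ v, f v ∈ (I • ⊤ : Submodule 𝒪 V)) {x : V}
    (hx : x ∈ (J • ⊤ : Submodule 𝒪 V)) : f x ∈ ((J * I) • ⊤ : Submodule 𝒪 V) := by
  refine Submodule.smul_induction_on hx ?_ ?_
  · intro c hc y _
    rw [map_smul, mul_smul]
    exact Submodule.smul_mem_smul hc (hf y)
  · intro y z hy hz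
    rw [map_add]
    exact Submodule.add_mem _ hy hz

theorem pow_mem_pow_smul_top (I : Ideal 𝒪) (f : Module.End 𝒪 V)
    (hf : ∀ v, f v ∈ (I • ⊤ : Submodule 𝒪 V)) (k : ℕ) (v : V) :
    (f ^ k) v ∈ (I ^ k • ⊤ : Submodule 𝒪 V) := by
  induction k generalizing v with
  | zero =>
    rw [pow_zero, Ideal.one_eq_top, Submodule.top_smul]
    exact Submodule.mem_top
  | succ k ih =>
    have h1 : (f ^ (k + 1)) v = f ((f ^ k) v) := by rw [pow_succ', Module.End.mul_apply]
    rw [h1, pow_succ]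
    exact map_mem_smul_smul I (I ^ k) f hf (ih v)

/-- **Krull**: `1 + M` is injective if a power of `M` maps `V` into `𝔪 V`. -/
theorem krull_inj [IsLocalRing 𝒪] [IsNoetherianRing 𝒪] [Module.Finite 𝒪 V] (M : Module.End 𝒪 V) (m : ℕ)
    (hM : ∀ v, (M ^ m) v ∈ (maximalIdeal 𝒪 • ⊤ : Submodule 𝒪 V)) {v : V}
    (hv : v + M v = 0) : v = 0 := by
  have hMv : M v = -v := eq_neg_of_add_eq_zero_right hv
  have hpow : ∀ j : ℕ, (M ^ j) v = (-1 : 𝒪) ^ j • v := by
    intro j
    induction j with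
    | zero => simp
    | succ j ih =>
      rw [pow_succ, Module.End.mul_apply, hMv, map_neg, ih, pow_succ, mul_smul, neg_smul,
        one_smul, smul_neg]
  have hmem : ∀ k : ℕ, v ∈ (maximalIdeal 𝒪 ^ k • ⊤ : Submodule 𝒪 V) := by
    intro k
    have h1 := pow_mem_pow_smul_top (maximalIdeal 𝒪) (M ^ m) hM k v
    rw [← pow_mul, hpow] at h1
    have h2 := Submodule.smul_mem _ ((-1 : 𝒪) ^ (m * k)) h1
    rw [smul_smul, ← mul_pow] at h2
    simpa using h2
  have hbot := Ideal.iInf_pow_smul_eq_bot_of_isLocalRing (R := 𝒪) (M := V) (maximalIdeal 𝒪)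
    (Ideal.IsMaximal.ne_top inferInstance)
  have : v ∈ (⨅ i : ℕ, maximalIdeal 𝒪 ^ i • ⊤ : Submodule 𝒪 V) := by
    rw [Submodule.mem_iInf]
    exact hmem
  rw [hbot] at this
  exact (Submodule.mem_bot 𝒪).1 this

/-- `V = Vα ⊕ Vβ`, `B`, `S` commuting endomorphisms preserving `Vα`, `B ^ m` maps `Vα` into
`𝔪 V`: then `1 + S B` is injective on `Vα`. -/
theorem inj_on [IsLocalRing 𝒪] [IsNoetherianRing 𝒪] [Module.Finite 𝒪 V] {Vα Vβ : Submodule 𝒪 V}
    (hc : IsCompl Vα Vβ) (B S : Module.End 𝒪 V) (hBS : Commute S B)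
    (hB : ∀ v ∈ Vα, B v ∈ Vα) (hS : ∀ v ∈ Vα, S v ∈ Vα) (m : ℕ)
    (hnil : ∀ v ∈ Vα, (B ^ m) v ∈ (maximalIdeal 𝒪 • ⊤ : Submodule 𝒪 V))
    {w : V} (hw : w ∈ Vα) (h : w + S (B w) = 0) : w = 0 := by
  set P : Module.End 𝒪 V := Vα.subtype ∘ₗ Submodule.projectionOnto Vα Vβ hc with hP
  have hPmem : ∀ v, P v ∈ Vα := fun v => (Submodule.projectionOnto Vα Vβ hc v).2
  have hPid : ∀ v ∈ Vα, P v = v := by
    intro v hv
    have := Submodule.projectionOnto_apply_left hc ⟨v, hv⟩
    rw [hP, LinearMap.comp_apply, Submodule.subtype_apply]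
    exact congrArg Subtype.val this
  set M : Module.End 𝒪 V := S * B * P with hMdef
  have hSBmem : ∀ v ∈ Vα, (S * B) v ∈ Vα := fun v hv => hS _ (hB v hv)
  have hMα : ∀ v ∈ Vα, M v = (S * B) v := by
    intro v hv
    rw [hMdef, Module.End.mul_apply, hPid v hv]
  have hpowα : ∀ j : ℕ, ∀ v ∈ Vα, (M ^ j) v = ((S * B) ^ j) v ∧ ((S * B) ^ j) v ∈ Vα := by
    intro j
    induction j with
    | zero =>
      intro v hv
      simp only [pow_zero, Module.End.one_apply]
      exact ⟨trivial, hv⟩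
    | succ j ih =>
      intro v hv
      rw [pow_succ, Module.End.mul_apply, hMα v hv, pow_succ, Module.End.mul_apply]
      exact ih _ (hSBmem v hv)
  have hMnil : ∀ v, (M ^ (m + 1)) v ∈ (maximalIdeal 𝒪 • ⊤ : Submodule 𝒪 V) := by
    intro v
    have hMv : M v ∈ Vα := by
      rw [hMdef, Module.End.mul_apply]
      exact hSBmem _ (hPmem v)
    rw [pow_succ, Module.End.mul_apply, (hpowα m _ hMv).1, hBS.mul_pow, Module.End.mul_apply]
    exact map_mem_smul_top _ _ (hnil _ hMv)
  refine krull_inj M (m + 1) hMnil ?_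
  rw [hMα w hw, Module.End.mul_apply]
  exact h

end Fermat.Agent.S59.Asm.H77

end
-- ==== END Fermat.Agent.S59.Asm.H77_BridgeA

-- ==== BEGIN Fermat.Agent.S59.Asm.H77_BridgeB
section

/-!
# S59, package ASM, leaf BRIDGE (helper77), part B: the Boston–Lenstra–Ribet step

`T` a local ring with residue field of characteristic `≠ 2`, `ρ` a residually absolutely
irreducible representation over `T`, `W` a finite `T`-module with an action of the Galois group
satisfying the Cayley–Hamilton relations of `ρ`.  If `ρ φ` has an eigenvector `b 0` (part of a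
basis) with eigenvalue `x` and `π φ - c` is nilpotent on `W / 𝔪 W` with `x - c` a unit, then
`W = 0`.
-/

set_option autoImplicit false

open IsLocalRing
open scoped TensorProduct

namespace Fermat.Agent.S59.Asm.H77

/-- The absolute Galois group of `ℚ`. -/
local notation "GQ" => AlgebraicClosure ℚ ≃ₐ[ℚ] AlgebraicClosure ℚ

/-- Burnside form of absolute irreducibility. -/
theorem span_range_residual {k : Type} [Field k] (ρbar : ResidualGaloisRep k)
    (habs : ρbar.IsAbsolutelyIrreducible) :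
    Submodule.span k (Set.range ρbar.ρ) = ⊤ := by
  classical
  let b : Module.Basis (Fin 2) k ρbar.V := Module.finBasisOfFinrankEq k ρbar.V ρbar.finrank_eq
  obtain ⟨g, hg⟩ := Fermat.Agent.S53.Schur.exists_det_ne_zero ρbar habs b
  rw [eq_top_iff]
  rintro f -
  obtain ⟨c, hc⟩ := Fermat.Agent.S53.Schur.exists_eq_sum_of_isUnit_det
    (fun p => LinearMap.toMatrix b b (ρbar.ρ (g p))) (Ne.isUnit hg) (LinearMap.toMatrix b b f)
  have hf : f = ∑ p, c p • ρbar.ρ (g p) := by
    apply (LinearMap.toMatrix b b).injective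
    rw [hc, map_sum]
    refine Finset.sum_congr rfl fun p _ => ?_
    rw [map_smul]
  rw [hf]
  refine Submodule.sum_mem _ fun p _ => Submodule.smul_mem _ _ (Submodule.subset_span ⟨g p, rfl⟩)

variable {T : Type} [CommRing T] [IsLocalRing T]

/-- A linear map with values in `𝔪 W` vanishes after base change to the residue field. -/
theorem baseChange_eq_zero_of_mem {W : Type} [AddCommGroup W] [Module T W]
    (Lm : Module.End T W)
    (hL : ∀ w, Lm w ∈ (maximalIdeal T • ⊤ : Submodule T W)) :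
    Lm.baseChange (ResidueField T) = 0 := by
  have hkill : ∀ x ∈ (maximalIdeal T • ⊤ : Submodule T W),
      ∀ c : ResidueField T, c ⊗ₜ[T] x = 0 := by
    intro x hx c
    refine Submodule.smul_induction_on
      (p := fun x => c ⊗ₜ[T] x = (0 : ResidueField T ⊗[T] W)) hx ?_ ?_
    · intro a ha w _
      rw [TensorProduct.tmul_smul, TensorProduct.smul_tmul', Algebra.smul_def,
        IsLocalRing.ResidueField.algebraMap_eq, (IsLocalRing.residue_eq_zero_iff a).mpr ha,
        zero_mul, TensorProduct.zero_tmul]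
    · intro x y hx hy
      rw [TensorProduct.tmul_add, hx, hy, add_zero]
  refine LinearMap.ext fun w => ?_
  induction w using TensorProduct.induction_on with
  | zero => rw [map_zero, map_zero]
  | tmul c v =>
    rw [LinearMap.baseChange_tmul, LinearMap.zero_apply]
    exact hkill _ (hL v) c
  | add x y hx hy => rw [map_add, map_add, hx, hy]

theorem residual_trace (ρ : GaloisRepAdic T) (σ : GQ) :
    LinearMap.trace (ResidueField T) ρ.residual.V (ρ.residual.ρ σ) = residue T (ρ.trace σ) :=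
  LinearMap.trace_baseChange (ρ.ρ σ) (ResidueField T)

theorem residual_det (ρ : GaloisRepAdic T) (σ : GQ) :
    LinearMap.det (ρ.residual.ρ σ) = residue T (LinearMap.det (ρ.ρ σ)) :=
  LinearMap.det_baseChange (A := ResidueField T) (ρ.ρ σ)

theorem residual_apply_tmul (ρ : GaloisRepAdic T) (σ : GQ) (c : ResidueField T) (v : ρ.V) :
    ρ.residual.ρ σ (c ⊗ₜ[T] v : ResidueField T ⊗[T] ρ.V)
      = (c ⊗ₜ[T] ρ.ρ σ v : ResidueField T ⊗[T] ρ.V) :=
  LinearMap.baseChange_tmul (ρ.ρ σ) c v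

theorem residual_smul_tmul (ρ : GaloisRepAdic T) (x : T) (v : ρ.V) :
    ((1 : ResidueField T) ⊗ₜ[T] (x • v) : ρ.residual.V)
      = residue T x • ((1 : ResidueField T) ⊗ₜ[T] v : ρ.residual.V) := by
  show ((1 : ResidueField T) ⊗ₜ[T] (x • v) : ResidueField T ⊗[T] ρ.V)
      = residue T x • ((1 : ResidueField T) ⊗ₜ[T] v : ResidueField T ⊗[T] ρ.V)
  rw [TensorProduct.tmul_smul, TensorProduct.smul_tmul', TensorProduct.smul_tmul',
    Algebra.smul_def, smul_eq_mul]
  rfl

theorem residual_tmul_ne_zero (ρ : GaloisRepAdic T) (b : Module.Basis (Fin 2) T ρ.V) (i : Fin 2) :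
    ((1 : ResidueField T) ⊗ₜ[T] b i : ρ.residual.V) ≠ 0 := by
  have h1 := (b.baseChange (ResidueField T)).ne_zero i
  rw [Module.Basis.baseChange_apply] at h1
  exact h1

/-- **The BLR step.** -/
theorem subsingleton_of_CH (h2 : (2 : ResidueField T) ≠ 0)
    (ρ : GaloisRepAdic T) (hirr : ρ.residual.IsAbsolutelyIrreducible)
    (W : Type) [AddCommGroup W] [Module T W] [Module.Finite T W]
    (π : GQ →* Module.End T W)
    (hCH : ∀ g, π g * π g - ρ.trace g • π g
      + LinearMap.det (ρ.ρ g) • (1 : Module.End T W) = 0)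
    (b : Module.Basis (Fin 2) T ρ.V) (φ : GQ) (x c : T) (hx : ρ.ρ φ (b 0) = x • b 0)
    (hxc : IsUnit (x - c)) (m : ℕ)
    (hnil : ∀ w : W, ((π φ - c • (1 : Module.End T W)) ^ m) w ∈
      (maximalIdeal T • ⊤ : Submodule T W)) :
    Subsingleton W := by
  by_contra hns
  rw [not_subsingleton_iff_nontrivial] at hns
  have hX : Nontrivial (ResidueField T ⊗[T] W) := by
    rw [← not_subsingleton_iff_nontrivial, IsLocalRing.subsingleton_tensorProduct,
      not_subsingleton_iff_nontrivial]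
    exact hns
  -- the representation on `X = k ⊗ W`
  let πX : GQ →* Module.End (ResidueField T) (ResidueField T ⊗[T] W) :=
    { toFun := fun σ => (π σ).baseChange (ResidueField T)
      map_one' := by rw [map_one, LinearMap.baseChange_one]
      map_mul' := fun σ τ => by rw [map_mul, LinearMap.baseChange_mul] }
  have hπX : ∀ σ, πX σ = (π σ).baseChange (ResidueField T) := fun σ => rfl
  have hCH' : ∀ g : GQ, Fermat.Agent.L.CHRel (ρ.residual.ρ) πX g := by
    intro g
    unfold Fermat.Agent.L.CHRel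
    have h := congrArg (fun F : Module.End T W => F.baseChange (ResidueField T)) (hCH g)
    simp only [LinearMap.baseChange_add, LinearMap.baseChange_sub, LinearMap.baseChange_mul,
      LinearMap.baseChange_smul, LinearMap.baseChange_one, LinearMap.baseChange_zero] at h
    rw [residual_trace, residual_det, hπX]
    rw [← algebraMap_smul (ResidueField T) (ρ.trace g) ((π g).baseChange (ResidueField T)),
      ← algebraMap_smul (ResidueField T) (LinearMap.det (ρ.ρ g))
        (1 : Module.End (ResidueField T) (ResidueField T ⊗[T] W))] at h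
    exact h
  obtain ⟨f, hfinj, hf⟩ := Fermat.Agent.L.H19.stmt_BLR (ResidueField T) h2 GQ ρ.residual.V
    ρ.residual.ρ ρ.residual.finrank_eq (span_range_residual ρ.residual hirr)
    (ResidueField T ⊗[T] W) πX hCH'
  -- the eigenvector
  set e₀ : ρ.residual.V := (1 : ResidueField T) ⊗ₜ[T] b 0 with he₀
  have he₀ne : e₀ ≠ 0 := residual_tmul_ne_zero ρ b 0
  have heig : ρ.residual.ρ φ e₀ = residue T x • e₀ := by
    rw [he₀]
    refine (residual_apply_tmul ρ φ 1 (b 0)).trans ?_
    rw [hx]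
    exact residual_smul_tmul ρ x (b 0)
  set y := f e₀ with hy
  have hyne : y ≠ 0 := fun h0 => he₀ne (hfinj (by rw [← hy, h0, map_zero]))
  have hyeig : πX φ y = residue T x • y := by
    rw [hy, ← hf, heig, map_smul]
  have hzero : ((π φ - c • (1 : Module.End T W)) ^ m).baseChange (ResidueField T) = 0 :=
    baseChange_eq_zero_of_mem _ hnil
  have hbc : ((π φ - c • (1 : Module.End T W)) ^ m).baseChange (ResidueField T)
      = (πX φ - residue T c • (1 : Module.End (ResidueField T) (ResidueField T ⊗[T] W))) ^ m := by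
    rw [LinearMap.baseChange_pow, LinearMap.baseChange_sub, LinearMap.baseChange_smul,
      LinearMap.baseChange_one, ← algebraMap_smul (ResidueField T) c
        (1 : Module.End (ResidueField T) (ResidueField T ⊗[T] W))]
    rfl
  have hpow : ∀ j : ℕ, ((πX φ - residue T c •
      (1 : Module.End (ResidueField T) (ResidueField T ⊗[T] W))) ^ j) y
      = (residue T x - residue T c) ^ j • y := by
    intro j
    induction j with
    | zero => simp
    | succ j ih =>
      rw [pow_succ', Module.End.mul_apply, ih, map_smul, LinearMap.sub_apply, hyeig,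
        LinearMap.smul_apply, Module.End.one_apply]
      have h5 : residue T x • y - residue T c • y = (residue T x - residue T c) • y :=
        (sub_smul _ _ _).symm
      rw [h5, smul_smul, pow_succ]
  have h3 := hpow m
  rw [← hbc, hzero, LinearMap.zero_apply] at h3
  have h4 : (residue T x - residue T c) ^ m ≠ 0 := by
    apply pow_ne_zero
    rw [← map_sub]
    intro h0
    exact (IsLocalRing.residue_eq_zero_iff _).1 h0 hxc
  exact hyne ((smul_eq_zero.1 h3.symm).resolve_left h4)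

end Fermat.Agent.S59.Asm.H77

end
-- ==== END Fermat.Agent.S59.Asm.H77_BridgeB

-- ==== BEGIN Fermat.Agent.S59.Asm.Leaves3
section

/-!
# S59, package ASM (helper53): leaves, third round — `UnrCond` at Taylor–Wiles families

`Stmt_UNRCOND`: for Taylor–Wiles primes `q_j ≡ 1 mod p^(n+1)` and a subgroup `H` of
`(ℤ/c)ˣ`, `c = ∏ q_j`, containing all `p^n`-th powers, the covering `X_H(M) → X₀(M)` is
unramified (`NEB.UnrCond`), for EVERY odd prime `p` — also for `p = 3`, without an auxiliary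
prime: an element of order `3` of the cyclic group `(ℤ/q)ˣ`, `3^(n+1) ∣ q - 1`, is a `3^n`-th
power.
-/

set_option autoImplicit false

namespace Fermat.Agent.S59.Asm

/-- **UNRCOND**.
[`γ ∈ Γ₀(M)` of finite order: `γ ^ 12 = 1` (trace `t ∈ {0, ±1}`: `γ² - tγ + 1 = 0`; trace `±2`:
`γ = ±1`), so `a := a_γ mod c` satisfies `a ^ 12 = 1`.  `p ≥ 5`: `a = (a ^ e) ^ (p ^ n)` with
`e p^n ≡ 1 mod 12`.  `p = 3`: `a = a₂ a₃`, `a₂ ^ 4 = 1`, `a₃ ^ 3 = 1`; `a₂` is a `3^n`-th power as
before and `a₃` is one in every factor `(ℤ/q_j)ˣ` (cyclic of order divisible by `3^(n+1)`), hence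
in `(ℤ/c)ˣ` (Chinese remainder theorem).  `γ` parabolic (`(a + d)² = 4`): `a d ≡ 1`, so
`(a - d)² ≡ 0 mod c`, `c` squarefree and odd, hence `a ≡ d ≡ ±1 mod c`.] -/
def Stmt_UNRCOND : Prop :=
  ∀ (p n : ℕ), p.Prime → p ≠ 2 →
  ∀ (r : ℕ) (qv : Fin r → ℕ), Function.Injective qv →
    (∀ j, (qv j).Prime ∧ p ^ (n + 1) ∣ qv j - 1) →
  ∀ (M : ℕ), (∏ j, qv j) ∣ M →
  ∀ H : Subgroup (ZMod (∏ j, qv j))ˣ, (∀ x : (ZMod (∏ j, qv j))ˣ, x ^ (p ^ n) ∈ H) →
    Fermat.Agent.NEB.UnrCond M (∏ j, qv j) H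

end Fermat.Agent.S59.Asm

end
-- ==== END Fermat.Agent.S59.Asm.Leaves3

-- ==== BEGIN Fermat.Agent.S59.Datum.Defs2
section

set_option autoImplicit false

open Polynomial IsLocalRing CuspForm

namespace Fermat.Agent.S59.Datum

/-- The representation on `T²` given by a matrix-valued homomorphism. -/
noncomputable def matRep {T : Type} [CommRing T] (R : GalQ →* Matrix (Fin 2) (Fin 2) T) :
    GalQ →* Module.End T (Fin 2 → T) where
  toFun σ := Matrix.toLin' (R σ)
  map_one' := by rw [map_one, Matrix.toLin'_one]; rfl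
  map_mul' σ τ := by rw [map_mul, Matrix.toLin'_mul]; rfl

@[simp] theorem matRep_apply {T : Type} [CommRing T] (R : GalQ →* Matrix (Fin 2) (Fin 2) T)
    (σ : GalQ) : matRep R σ = Matrix.toLin' (R σ) := rfl

/-- **ODD**: there is an involution `c` of `ℚ̄` such that every representation with cyclotomic
determinant over a noetherian local ring has `det ρ(c) = -1`.
[`c` from `S52.H97.exists_complexConj` (or prelude `complexConjugation`): `c μ = μ⁻¹ = μ ^ (p^n - 1)`
on the `p^n`-th roots of unity; so `det ρ(c) + 1 ∈ (p^n) ⊆ 𝔪^n` for all `n`; Krull intersection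
`Ideal.iInf_pow_eq_bot_of_isLocalRing`.] -/
def Stmt_Odd : Prop :=
  ∃ c : GalQ, c * c = 1 ∧
    ∀ (A : Type) [CommRing A] [IsLocalRing A] [IsNoetherianRing A] (p : ℕ) [Fact p.Prime]
      (ρ : GaloisRepAdic A), ρ.DetIsCyclotomic p → LinearMap.det (ρ.ρ c) = -1

/-- **UNIT**: if the residual representation is absolutely irreducible, then in any basis some
`(0,1)` entry and some `(1,0)` entry are units.
[Absolutely irreducible ⇒ irreducible.  If all `(0,1)` entries lie in `𝔪`, the line spanned by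
`1 ⊗ b 1` in `k ⊗ V` is stable (`toMatrix b b f i j = b.repr (f (b j)) i`); similarly `(1,0)` and
`1 ⊗ b 0`.] -/
def Stmt_Unit : Prop :=
  ∀ (O : Type) [CommRing O] [IsLocalRing O] (ρ : GaloisRepAdic O),
    ρ.residual.IsAbsolutelyIrreducible →
    ∀ b : Module.Basis (Fin 2) O ρ.V,
      ∃ g h : GalQ, IsUnit (LinearMap.toMatrix b b (ρ.ρ g) 0 1) ∧
        IsUnit (LinearMap.toMatrix b b (ρ.ρ h) 1 0)

/-- **RESIRR**: a residual representation over `k'` whose Frobenius characteristic polynomials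
(outside a finite set of primes) are the images under `φ : k → k'` of those of an absolutely
irreducible `ρbar` over `k` is absolutely irreducible and equivalent to the base change of `ρbar`.
[Base change of an absolutely irreducible representation along a field homomorphism is absolutely
irreducible (`R/H86_Point.lean`: `residual_absIrr_baseChangeAlong`, `absIrr_of_det_ne_zero`);
`LinearMap.charpoly_baseChange`; then `H57.stmt_ResEq`; absolute irreducibility is invariant
under `IsEquiv`.] -/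
def Stmt_ResIrr : Prop :=
  ∀ (k k' : Type) [Field k] [Field k'] (φ : k →+* k') (ρbar : ResidualGaloisRep k)
    (ρ' : ResidualGaloisRep k') (S : Finset ℕ),
    ρbar.IsAbsolutelyIrreducible →
    (∀ ℓ : ℕ, ℓ.Prime → ℓ ∉ S → ∀ B : ValuationSubring (AlgebraicClosure ℚ),
      B.LiesOverPrime ℓ → ∀ σ : GalQ, B.IsFrobeniusAt σ ℓ →
        LinearMap.charpoly (ρ'.ρ σ) = (LinearMap.charpoly (ρbar.ρ σ)).map φ) →
    ρ'.IsAbsolutelyIrreducible ∧ ρ'.IsEquiv (ρbar.baseChangeAlong φ)

/-- **CONT**: let `x i : T → O i` be finitely many ring homomorphisms which separate `T`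
adically, `ρ i` (adically continuous) representations over `O i` with bases `b i`, and
`R : G_ℚ → M₂(T)` a homomorphism whose image under every `x i` is the matrix of `ρ i` conjugated
by `diag(1, s i⁻¹)`.  Then the representation `matRep R` on `T²` is adically continuous.
[Given `n` take `m` from the separation, `L i` from the continuity of `ρ i` at `m`, and the
compositum `L = ⨆ i, L i` (`IntermediateField.finiteDimensional_iSup_of_finite`).  For `σ` fixing
`L` all entries of `M i σ - 1` lie in `𝔪^m` (`R.repr_mem_of_mem_smul_top` in `R/Transfer.lean`),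
hence so do the entries of `(R σ - 1).map (x i)`, hence the entries of `R σ - 1` lie in `𝔪_T^n`.] -/
def Stmt_Cont : Prop :=
  ∀ (T : Type) [CommRing T] [IsLocalRing T] (r : ℕ) (O : Fin r → Type)
    [∀ i, CommRing (O i)] [∀ i, IsLocalRing (O i)]
    (x : ∀ i, T →+* O i) (ρ : ∀ i, GaloisRepAdic (O i))
    (b : ∀ i, Module.Basis (Fin 2) (O i) (ρ i).V)
    (M : ∀ i, GalQ →* Matrix (Fin 2) (Fin 2) (O i)) (s : ∀ i, (O i)ˣ)
    (R : GalQ →* Matrix (Fin 2) (Fin 2) T),
    (∀ n : ℕ, ∃ m : ℕ, ∀ t : T, (∀ i, x i t ∈ maximalIdeal (O i) ^ m) → t ∈ maximalIdeal T ^ n) →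
    (∀ i σ, M i σ = LinearMap.toMatrix (b i) (b i) ((ρ i).ρ σ)) →
    (∀ i σ, (R σ).map (x i) =
        Matrix.of ![![M i σ 0 0, M i σ 0 1 * (s i : O i)],
          ![M i σ 1 0 * ((s i)⁻¹ : (O i)ˣ), M i σ 1 1]]) →
    GaloisActionIsAdicContinuous T (matRep R)

end Fermat.Agent.S59.Datum

end
-- ==== END Fermat.Agent.S59.Datum.Defs2

-- ==== BEGIN Fermat.Agent.S59.Datum.H7_Points
section

set_option autoImplicit false
set_option linter.style.haveILetI false
set_option linter.unusedSectionVars false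

open Polynomial IsLocalRing CuspForm

namespace Fermat.Agent.S59.Datum.H7

open Fermat.Agent.R

/-- A point of `T` (a local homomorphism to a complete discrete valuation ring of characteristic
`0` which is a finite `𝒪`-algebra) together with a Galois representation over it. -/
structure PtRep (𝒪 : Type) [CommRing 𝒪] (T : Type) [CommRing T] [IsLocalRing T] [Algebra 𝒪 T] :
    Type 1 where
  /-- the coefficient ring -/
  O : Type
  [instCommRing : CommRing O]
  [instIsDomain : IsDomain O]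
  [instDVR : IsDiscreteValuationRing O]
  [instComplete : IsAdicComplete (IsLocalRing.maximalIdeal O) O]
  [instFiniteResidue : Finite (IsLocalRing.ResidueField O)]
  [instCharZero : CharZero O]
  [instAlgebra : Algebra 𝒪 O]
  [instFinite : Module.Finite 𝒪 O]
  /-- the point -/
  x : T →+* O
  isLocalHom : IsLocalHom x
  hxO : ∀ a : 𝒪, x (algebraMap 𝒪 T a) = algebraMap 𝒪 O a
  /-- the representation -/
  ρ : GaloisRepAdic O

attribute [instance] PtRep.instCommRing PtRep.instIsDomain PtRep.instDVR PtRep.instComplete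
  PtRep.instFiniteResidue PtRep.instCharZero PtRep.instAlgebra PtRep.instFinite

section

variable (𝒪 : Type) [CommRing 𝒪] [IsDomain 𝒪] [IsDiscreteValuationRing 𝒪]
  [IsAdicComplete (maximalIdeal 𝒪) 𝒪] [Finite (ResidueField 𝒪)] [CharZero 𝒪]
  (p : ℕ) [Fact p.Prime]
  (N : ℕ) [NeZero N] (S : Finset ℕ)
  (T : Type) [CommRing T] [IsLocalRing T] [Algebra 𝒪 T] [IsLocalHom (algebraMap 𝒪 T)]
  [Module.Finite 𝒪 T] [Module.Free 𝒪 T]

/-- `p` is not a unit of `T`. -/
theorem natCast_mem_maximalIdeal_of_algebra (hp𝒪 : (p : 𝒪) ∈ maximalIdeal 𝒪) :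
    (p : T) ∈ maximalIdeal T := by
  rw [IsLocalRing.mem_maximalIdeal, mem_nonunits_iff]
  intro hu
  have h1 : IsUnit (algebraMap 𝒪 T (p : 𝒪)) := by rwa [map_natCast]
  exact (IsLocalRing.mem_maximalIdeal _).1 hp𝒪 (isUnit_of_map_unit (algebraMap 𝒪 T) _ h1)

/-- One point with its representation for every minimal prime of `T`. -/
theorem exists_ptRep (hS30 : Stmt_S30) (hp𝒪 : (p : 𝒪) ∈ maximalIdeal 𝒪) (hpS : p ∈ S)
    (hNS : ∀ q : ℕ, q.Prime → q ∣ N → q ∈ S)
    (π : CuspForm.heckeAlgebra N 2 (↑S : Set ℕ) →+* T)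
    (𝔮 : Ideal T) (h𝔮 : 𝔮 ∈ minimalPrimes T) :
    ∃ P : PtRep 𝒪 T, (∀ t : T, P.x t = 0 → t ∈ 𝔮) ∧ HasFrobCharpoly (P.x.comp π) P.ρ := by
  obtain ⟨D⟩ := H2.nonempty_algTPoint 𝒪 T 𝔮 h𝔮
  have hpT := _root_.Fermat.Agent.S59.Datum.H7.natCast_mem_maximalIdeal_of_algebra 𝒪 p T hp𝒪
  have hpR : (p : D.R) ∈ maximalIdeal D.R := by
    rw [IsLocalRing.mem_maximalIdeal, mem_nonunits_iff]
    intro hu
    have h1 : IsUnit (D.ψ (p : T)) := by rwa [map_natCast]
    haveI := D.isLocalHom
    exact (IsLocalRing.mem_maximalIdeal _).1 hpT (isUnit_of_map_unit D.ψ _ h1)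
  obtain ⟨𝒪'', i1, i2, i3, i4, i5, i6, i7, i8, i9, hinj, ρ, hfrob, -⟩ :=
    hS30 p N S hpS hNS D.R hpR (D.ψ.comp π)
  letI : Algebra 𝒪 𝒪'' := ((algebraMap D.R 𝒪'').comp (algebraMap 𝒪 D.R)).toAlgebra
  haveI : IsScalarTower 𝒪 D.R 𝒪'' := IsScalarTower.of_algebraMap_eq (fun _ => rfl)
  haveI : Module.Finite 𝒪 𝒪'' := Module.Finite.trans D.R 𝒪''
  refine ⟨{ O := 𝒪'', x := (algebraMap D.R 𝒪'').comp D.ψ, isLocalHom := ?_, hxO := ?_, ρ := ρ },
    ?_, ?_⟩
  · haveI := D.isLocalHom
    exact RingHom.isLocalHom_comp _ _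
  · intro a
    rw [RingHom.comp_apply, D.hψO]
    rfl
  · intro t ht
    apply D.hker
    rw [RingHom.comp_apply] at ht
    exact hinj (ht.trans (map_zero _).symm)
  · intro ℓ hℓ hℓN hℓS B hB σ hσ
    exact hfrob ℓ hℓ hℓN hℓS B hB σ hσ

variable [IsReduced T]

/-- **POINTS**, abstract form. -/
theorem exists_points_aux (hS30 : Stmt_S30) (hp𝒪 : (p : 𝒪) ∈ maximalIdeal 𝒪) (hpS : p ∈ S)
    (hNS : ∀ q : ℕ, q.Prime → q ∣ N → q ∈ S)
    (π : CuspForm.heckeAlgebra N 2 (↑S : Set ℕ) →+* T) :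
    ∃ (r : ℕ) (P : Fin r → PtRep 𝒪 T) (c : ℕ),
      (∀ t : T, (∀ i, (P i).x t = 0) → t = 0) ∧
      (∀ (n : ℕ) (t : T), (∀ i, (P i).x t ∈ Ideal.span {((p : (P i).O)) ^ (n + c)}) →
          t ∈ Ideal.span {((p : T)) ^ n}) ∧
      ∀ i, HasFrobCharpoly ((P i).x.comp π) (P i).ρ := by
  classical
  haveI : IsNoetherianRing T := IsNoetherianRing.of_finite 𝒪 T
  have hfin : (minimalPrimes T).Finite := minimalPrimes.finite_of_isNoetherianRing _
  haveI : Finite ↥(minimalPrimes T) := hfin.to_subtype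
  obtain ⟨r, ⟨e⟩⟩ := Finite.exists_equiv_fin ↥(minimalPrimes T)
  have hex : ∀ i : Fin r, ∃ P : PtRep 𝒪 T,
      (∀ t : T, P.x t = 0 → t ∈ ((e.symm i : ↥(minimalPrimes T)) : Ideal T)) ∧
        HasFrobCharpoly (P.x.comp π) P.ρ :=
    fun i => exists_ptRep 𝒪 p N S T hS30 hp𝒪 hpS hNS π _ (e.symm i).2
  choose P hP1 hP2 using hex
  have hinj : ∀ t : T, (∀ i, (P i).x t = 0) → t = 0 := by
    intro t ht
    have hmem : ∀ 𝔮 ∈ minimalPrimes T, t ∈ 𝔮 := by
      intro 𝔮 h𝔮
      have h3 := hP1 (e ⟨𝔮, h𝔮⟩) t (ht _)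
      rw [Equiv.symm_apply_apply] at h3
      exact h3
    have h4 : t ∈ sInf (minimalPrimes T) := by
      rw [Submodule.mem_sInf]
      exact hmem
    have h5 : sInf (minimalPrimes T) = nilradical T := by
      rw [minimalPrimes, Ideal.sInf_minimalPrimes]; rfl
    rw [h5, nilradical_eq_zero] at h4
    exact h4
  let F (i : Fin r) : T →ₗ[𝒪] (P i).O :=
    { toFun := (P i).x
      map_add' := map_add _
      map_smul' := fun a t => by
        rw [Algebra.smul_def, map_mul, (P i).hxO, RingHom.id_apply, Algebra.smul_def] }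
  let Χ : T →ₗ[𝒪] (∀ i : Fin r, (P i).O) := LinearMap.pi F
  have hΧ : Function.Injective Χ := by
    rw [injective_iff_map_eq_zero]
    intro t ht
    exact hinj t (fun i => congrFun ht i)
  haveI : IsNoetherian 𝒪 (∀ i : Fin r, (P i).O) :=
    isNoetherian_of_isNoetherianRing_of_finite 𝒪 _
  obtain ⟨c, hc⟩ := H2.exists_pow_smul_bound (p : 𝒪) Χ hΧ
  refine ⟨r, P, c, hinj, fun n t hy => ?_, hP2⟩
  choose w hw using fun i => Ideal.mem_span_singleton'.mp (hy i)
  have hX : Χ t = (p : 𝒪) ^ (n + c) • w := by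
    funext i
    show (P i).x t = ((p : 𝒪) ^ (n + c) • w) i
    rw [Pi.smul_apply, Algebra.smul_def, map_pow, map_natCast, ← hw i, mul_comm]
  obtain ⟨t', ht'⟩ := hc n t ⟨w, hX⟩
  rw [Ideal.mem_span_singleton']
  refine ⟨t', ?_⟩
  rw [ht', Algebra.smul_def, map_pow, map_natCast, mul_comm]

end

end Fermat.Agent.S59.Datum.H7

end
-- ==== END Fermat.Agent.S59.Datum.H7_Points

-- ==== BEGIN Fermat.Agent.S59.Datum.H85_Ring
section

set_option autoImplicit false
set_option linter.unusedSectionVars false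
set_option linter.style.haveILetI false

/-!
# S59, package DATUM (helper85): the leaf RING

`stmt_Ring : Stmt_Ring` : the ring-theoretic fields of a Hecke–Galois datum for the full local
Hecke ring `T = heckeLocal N S 𝒪 θ`, `π = heckeLocal.π`.

`T` is the localisation of `B = 𝒪 ⊗ 𝕋` (`heckeBaseAlgebra`, identified with `𝒪 ⊗ heckeAlgebra` by
`latticeBaseChange`) at the maximal ideal `P` = kernel of the residual character; `B → T` is
surjective because `B` is finite over the complete local ring `𝒪`.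
-/

noncomputable section

open scoped TensorProduct
open IsLocalRing CuspForm

namespace Fermat.Agent.S59.Datum.H85

set_option synthInstance.maxHeartbeats 400000
set_option maxHeartbeats 1000000

variable (𝒪 : Type) [CommRing 𝒪] [IsDomain 𝒪] [IsDiscreteValuationRing 𝒪]
  [IsAdicComplete (maximalIdeal 𝒪) 𝒪]
  (N : ℕ) [NeZero N] [Fact (CuspForm.HasIntegralStructure N 2)] (S : Set ℕ)
  (θ : CuspForm.heckeAlgebra N 2 S →+* ResidueField 𝒪)

/-- `B → T` is surjective. -/
theorem algebraMap_base_surjective :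
    Function.Surjective
      (algebraMap (heckeBaseAlgebra N S 𝒪) (heckeLocal N S 𝒪 θ)) := by
  classical
  haveI : Module.Finite 𝒪 (heckeBaseAlgebra N S 𝒪) :=
    inferInstanceAs (Module.Finite 𝒪 (𝒪 ⊗[ℤ] ↥(heckeLatticeAlgebra N S)))
  haveI hPmax : (heckeLocalIdeal N S 𝒪 θ).IsMaximal := inferInstance
  obtain ⟨-, hbij, -, -⟩ :=
    Algebra.finite_maximalSpectrum_and_bijective_localization_of_module_finite (𝒪 := 𝒪)
      (heckeBaseAlgebra N S 𝒪)
  have hsurj : Function.Surjective (algebraMap (heckeBaseAlgebra N S 𝒪)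
      (Localization.AtPrime (heckeLocalIdeal N S 𝒪 θ))) := by
    intro z
    obtain ⟨b, hb⟩ := hbij.2 (Function.update 0
      (⟨heckeLocalIdeal N S 𝒪 θ, hPmax⟩ : MaximalSpectrum (heckeBaseAlgebra N S 𝒪)) z)
    refine ⟨b, ?_⟩
    have h := congrFun hb ⟨heckeLocalIdeal N S 𝒪 θ, hPmax⟩
    simp only [Function.update_self] at h
    exact h
  let e := IsLocalization.algEquiv (heckeLocalIdeal N S 𝒪 θ).primeCompl
    (Localization.AtPrime (heckeLocalIdeal N S 𝒪 θ)) (heckeLocal N S 𝒪 θ)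
  intro z
  obtain ⟨b, hb⟩ := hsurj (e.symm z)
  refine ⟨b, ?_⟩
  have h := congrArg e hb
  rw [e.apply_symm_apply] at h
  rw [← h]
  exact (e.commutes b).symm

/-- The composite `𝒪 ⊗ 𝕋 → B → T`. -/
def toLocal : (𝒪 ⊗[ℤ] ↥(heckeAlgebra N 2 S)) →+* heckeLocal N S 𝒪 θ :=
  (algebraMap (heckeBaseAlgebra N S 𝒪) (heckeLocal N S 𝒪 θ)).comp (latticeBaseChange N S 𝒪)

theorem toLocal_surjective : Function.Surjective (toLocal 𝒪 N S θ) :=
  (algebraMap_base_surjective 𝒪 N S θ).comp (latticeBaseChange_surjective N S 𝒪)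

theorem toLocal_algebraMap (a : 𝒪) :
    toLocal 𝒪 N S θ (algebraMap 𝒪 _ a) = algebraMap 𝒪 (heckeLocal N S 𝒪 θ) a := by
  unfold toLocal
  rw [RingHom.comp_apply, latticeBaseChange_algebraMap,
    ← IsScalarTower.algebraMap_apply 𝒪 (heckeBaseAlgebra N S 𝒪) (heckeLocal N S 𝒪 θ)]

theorem toLocal_includeRight (t : ↥(heckeAlgebra N 2 S)) :
    toLocal 𝒪 N S θ ((1 : 𝒪) ⊗ₜ[ℤ] t) = heckeLocal.π N S 𝒪 θ t := rfl

theorem toLocal_mem_maximalIdeal {x : 𝒪 ⊗[ℤ] ↥(heckeAlgebra N 2 S)}
    (hx : residualCharacter N S 𝒪 θ x = 0) :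
    toLocal 𝒪 N S θ x ∈ maximalIdeal (heckeLocal N S 𝒪 θ) := by
  unfold toLocal
  rw [RingHom.comp_apply,
    IsLocalization.AtPrime.to_map_mem_maximal_iff (heckeLocal N S 𝒪 θ) (heckeLocalIdeal N S 𝒪 θ)]
  exact Ideal.mem_map_of_mem _ ((mem_heckeCharKernel_iff N S 𝒪 θ x).mpr hx)

/-- The residue of `toLocal x` is the residual character. -/
theorem residue_toLocal (x : 𝒪 ⊗[ℤ] ↥(heckeAlgebra N 2 S)) (a : 𝒪)
    (hxa : residualCharacter N S 𝒪 θ x = residue 𝒪 a) :
    residue (heckeLocal N S 𝒪 θ) (toLocal 𝒪 N S θ x)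
      = residue (heckeLocal N S 𝒪 θ) (algebraMap 𝒪 (heckeLocal N S 𝒪 θ) a) := by
  rw [← sub_eq_zero, ← map_sub, residue_eq_zero_iff, ← toLocal_algebraMap, ← map_sub]
  apply toLocal_mem_maximalIdeal
  rw [map_sub, hxa, residualCharacter_algebraMap, sub_self]

/-- **RING.** -/
theorem stmt_Ring : Stmt_Ring := by
  intro 𝒪 _ _ _ _ N _ _ S θ
  refine ⟨?_, ?_, ?_, ?_⟩
  · -- residue of `π`
    intro t
    obtain ⟨a, ha⟩ := residue_surjective (θ t)
    rw [← ha, ResidueField.map_residue, ← toLocal_includeRight]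
    apply residue_toLocal
    rw [residualCharacter_tmul, map_one, one_mul, ha]
  · -- generation
    rw [eq_top_iff]
    have key : ∀ x : 𝒪 ⊗[ℤ] ↥(heckeAlgebra N 2 S),
        toLocal 𝒪 N S θ x ∈ Algebra.adjoin 𝒪 (Set.range (heckeLocal.π N S 𝒪 θ)) := by
      intro x
      induction x using TensorProduct.induction_on with
      | zero => rw [map_zero]; exact Subalgebra.zero_mem _
      | tmul a t =>
        have h1 : (a ⊗ₜ[ℤ] t : 𝒪 ⊗[ℤ] ↥(heckeAlgebra N 2 S))
            = algebraMap 𝒪 _ a * ((1 : 𝒪) ⊗ₜ[ℤ] t) := by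
          rw [Algebra.TensorProduct.algebraMap_apply, Algebra.algebraMap_self, RingHom.id_apply,
            Algebra.TensorProduct.tmul_mul_tmul, mul_one, one_mul]
        rw [h1, map_mul, toLocal_algebraMap, toLocal_includeRight]
        exact Subalgebra.mul_mem _ (Subalgebra.algebraMap_mem _ a)
          (Algebra.subset_adjoin ⟨t, rfl⟩)
      | add x y hx hy => rw [map_add]; exact Subalgebra.add_mem _ hx hy
    intro z _
    obtain ⟨x, rfl⟩ := toLocal_surjective 𝒪 N S θ z
    exact key x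
  · -- points
    intro χ hχ
    let Φ : (𝒪 ⊗[ℤ] ↥(heckeAlgebra N 2 S)) →ₐ[ℤ] 𝒪 :=
      Algebra.TensorProduct.productMap (AlgHom.id ℤ 𝒪) χ.toIntAlgHom
    have hΦ : ∀ (a : 𝒪) (t : ↥(heckeAlgebra N 2 S)), Φ (a ⊗ₜ[ℤ] t) = a * χ t := fun a t => rfl
    have hres : ∀ x : 𝒪 ⊗[ℤ] ↥(heckeAlgebra N 2 S),
        residue 𝒪 (Φ x) = residualCharacter N S 𝒪 θ x := by
      intro x
      induction x using TensorProduct.induction_on with
      | zero => rw [map_zero, map_zero, map_zero]
      | tmul a t => rw [hΦ, map_mul, hχ, residualCharacter_tmul]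
      | add x y hx hy => rw [map_add, map_add, map_add, hx, hy]
    let e : (𝒪 ⊗[ℤ] ↥(heckeAlgebra N 2 S)) ≃+* heckeBaseAlgebra N S 𝒪 :=
      RingEquiv.ofBijective (latticeBaseChange N S 𝒪)
        ⟨latticeBaseChange_injective N S 𝒪 Fact.out, latticeBaseChange_surjective N S 𝒪⟩
    have he : ∀ x, e x = latticeBaseChange N S 𝒪 x := fun x => rfl
    let ΦB : heckeBaseAlgebra N S 𝒪 →+* 𝒪 := Φ.toRingHom.comp e.symm.toRingHom
    have hΦB : ∀ x, ΦB (latticeBaseChange N S 𝒪 x) = Φ x := by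
      intro x
      show Φ (e.symm (latticeBaseChange N S 𝒪 x)) = Φ x
      rw [← he, e.symm_apply_apply]
    have hunit : ∀ y : heckeLocalSubmonoid N S 𝒪 θ, IsUnit (ΦB y) := by
      rintro ⟨y, x, hx, rfl⟩
      show IsUnit (ΦB (latticeBaseChange N S 𝒪 x))
      rw [hΦB]
      have hx' : residualCharacter N S 𝒪 θ x ≠ 0 := fun h =>
        (Ideal.mem_primeCompl_iff.mp hx) ((mem_heckeCharKernel_iff N S 𝒪 θ x).mpr h)
      rw [← hres] at hx'
      by_contra hnu
      exact hx' ((residue_eq_zero_iff _).mpr ((mem_maximalIdeal _).mpr hnu))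
    let ψ₀ : heckeLocal N S 𝒪 θ →+* 𝒪 := IsLocalization.lift hunit
    have hψ₀ : ∀ x, ψ₀ (toLocal 𝒪 N S θ x) = Φ x := by
      intro x
      unfold toLocal
      rw [RingHom.comp_apply]
      show (IsLocalization.lift hunit) (algebraMap _ _ (latticeBaseChange N S 𝒪 x)) = Φ x
      rw [IsLocalization.lift_eq, hΦB]
    refine ⟨{ ψ₀ with commutes' := fun a => ?_ }, fun t => ?_⟩
    · show ψ₀ (algebraMap 𝒪 (heckeLocal N S 𝒪 θ) a) = a
      rw [← toLocal_algebraMap, hψ₀, Algebra.TensorProduct.algebraMap_apply,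
        Algebra.algebraMap_self, RingHom.id_apply, hΦ, map_one, mul_one]
    · show ψ₀ (heckeLocal.π N S 𝒪 θ t) = χ t
      rw [← toLocal_includeRight, hψ₀, hΦ, one_mul]
  · -- residue field
    intro y
    obtain ⟨z, rfl⟩ := residue_surjective y
    obtain ⟨x, rfl⟩ := toLocal_surjective 𝒪 N S θ z
    obtain ⟨a, ha⟩ := residue_surjective (residualCharacter N S 𝒪 θ x)
    exact ⟨a, (residue_toLocal 𝒪 N S θ x a ha.symm).symm⟩

end Fermat.Agent.S59.Datum.H85

end

end
-- ==== END Fermat.Agent.S59.Datum.H85_Ring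

-- ==== BEGIN Fermat.Agent.S59.Datum.H8_Adapt
section

/-!
# S59 package DATUM, leaf ADAPT (helper8)

`stmt_Adapt : Stmt_Adapt`: an involution `f` of determinant `-1` of a free module `V` of rank two
over a principal ideal domain in which `2` is a unit has matrix `diag(1, -1)` in a suitable basis.

Proof: `V = V⁺ ⊕ V⁻` with `V^± = ker (f ∓ 1)`; both are free (submodules of a free module over a
principal ideal domain); if one of them were zero, `f = ± 1` would have determinant `1`; hence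
both have rank one, and generators of `V⁺`, `V⁻` form the basis.
-/

set_option autoImplicit false

open Module

namespace Fermat.Agent.S59.Datum.H8

section Eig

variable {O : Type} [CommRing O] {V : Type} [AddCommGroup V] [Module O V]

/-- The `ε`-eigenspace of `f`. -/
def eig (f : Module.End O V) (ε : O) : Submodule O V :=
  LinearMap.ker (f - ε • (1 : Module.End O V))

theorem mem_eig (f : Module.End O V) (ε : O) (x : V) : x ∈ eig f ε ↔ f x = ε • x := by
  unfold eig
  rw [LinearMap.mem_ker, LinearMap.sub_apply, LinearMap.smul_apply, Module.End.one_apply,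
    sub_eq_zero]

theorem isCompl_eig (h2 : IsUnit (2 : O)) (f : Module.End O V) (hf : f * f = 1) :
    IsCompl (eig f 1) (eig f (-1)) := by
  obtain ⟨u, hu⟩ := h2
  have hff : ∀ x : V, f (f x) = x := fun x => by
    have := congrArg (fun g : Module.End O V => g x) hf
    simpa using this
  constructor
  · rw [Submodule.disjoint_def]
    intro x h1 h2
    rw [mem_eig] at h1 h2
    rw [one_smul] at h1
    rw [neg_one_smul, h1] at h2
    have h3 : (2 : O) • x = 0 := by
      rw [two_smul]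
      nth_rewrite 1 [h2]
      exact neg_add_cancel x
    rw [← hu] at h3
    have := congrArg (fun y => (↑u⁻¹ : O) • y) h3
    simpa [smul_smul] using this
  · rw [codisjoint_iff, eq_top_iff]
    intro x _
    rw [Submodule.mem_sup]
    refine ⟨(↑u⁻¹ : O) • (x + f x), ?_, (↑u⁻¹ : O) • (x - f x), ?_, ?_⟩
    · rw [mem_eig, one_smul, map_smul, map_add, hff, add_comm]
    · rw [mem_eig, neg_one_smul, map_smul, map_sub, hff, ← smul_neg, neg_sub]
    · rw [← smul_add, show x + f x + (x - f x) = (2 : O) • x by rw [two_smul]; abel, ← hu,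
        smul_smul, Units.inv_mul, one_smul]

end Eig

/-- The bijection `Fin 2 ≃ Fin 1 ⊕ Fin 1`. -/
def finTwoSum : Fin 2 ≃ Fin 1 ⊕ Fin 1 where
  toFun i := if i = 0 then Sum.inl 0 else Sum.inr 0
  invFun := Sum.elim (fun _ => 0) (fun _ => 1)
  left_inv i := by fin_cases i <;> rfl
  right_inv s := by
    rcases s with i | i
    · have : i = 0 := Subsingleton.elim _ _
      subst this
      rfl
    · have : i = 0 := Subsingleton.elim _ _
      subst this
      rfl

/-- **ADAPT**. -/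
theorem stmt_Adapt : Stmt_Adapt := by
  intro O _ _ _ h2 V _ _ _ _ hrank f hf hdet
  have hc := isCompl_eig h2 f hf
  have h20 : (2 : O) ≠ 0 := h2.ne_zero
  have hne : (-1 : O) ≠ 1 := by
    intro h
    apply h20
    have : (1 : O) + 1 = 0 := by
      nth_rewrite 1 [← h]
      exact neg_add_cancel 1
    rw [← this]
    norm_num
  let e := Submodule.prodEquivOfIsCompl _ _ hc
  have hsum : finrank O (eig f 1) + finrank O (eig f (-1)) = 2 := by
    rw [← Module.finrank_prod, e.finrank_eq, hrank]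
  -- `V⁻ ≠ 0`
  have hm : finrank O (eig f (-1)) ≠ 0 := by
    intro h0
    have hbot : eig f (-1) = ⊥ := Submodule.finrank_eq_zero.mp h0
    have htop : eig f 1 = ⊤ := by
      have := hc.sup_eq_top
      rwa [hbot, sup_bot_eq] at this
    have hf1 : f = 1 := by
      ext x
      have hx : x ∈ eig f 1 := by rw [htop]; trivial
      rw [mem_eig, one_smul] at hx
      rw [hx, Module.End.one_apply]
    rw [hf1, map_one] at hdet
    exact hne hdet.symm
  -- `V⁺ ≠ 0`
  have hp : finrank O (eig f 1) ≠ 0 := by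
    intro h0
    have hbot : eig f 1 = ⊥ := Submodule.finrank_eq_zero.mp h0
    have htop : eig f (-1) = ⊤ := by
      have := hc.sup_eq_top
      rwa [hbot, bot_sup_eq] at this
    have hf1 : f = (-1 : O) • (1 : Module.End O V) := by
      ext x
      have hx : x ∈ eig f (-1) := by rw [htop]; trivial
      rw [mem_eig] at hx
      rw [hx, LinearMap.smul_apply, Module.End.one_apply]
    rw [hf1, LinearMap.det_smul, map_one, hrank] at hdet
    apply hne
    rw [← hdet]
    ring
  have r1 : finrank O (eig f 1) = 1 := by omega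
  have r2 : finrank O (eig f (-1)) = 1 := by omega
  let b1 := Module.finBasisOfFinrankEq O (eig f 1) r1
  let b2 := Module.finBasisOfFinrankEq O (eig f (-1)) r2
  let b : Module.Basis (Fin 2) O V := ((b1.prod b2).map e).reindex finTwoSum.symm
  have hb0 : b 0 = ((b1 0 : eig f 1) : V) := by
    show ((b1.prod b2).map e).reindex finTwoSum.symm 0 = _
    rw [Module.Basis.reindex_apply, Equiv.symm_symm, Module.Basis.map_apply]
    show e ((b1.prod b2) (Sum.inl 0)) = _
    rw [Submodule.coe_prodEquivOfIsCompl', Module.Basis.prod_apply_inl_fst,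
      Module.Basis.prod_apply_inl_snd, Submodule.coe_zero, add_zero]
  have hb1 : b 1 = ((b2 0 : eig f (-1)) : V) := by
    show ((b1.prod b2).map e).reindex finTwoSum.symm 1 = _
    rw [Module.Basis.reindex_apply, Equiv.symm_symm, Module.Basis.map_apply]
    show e ((b1.prod b2) (Sum.inr 0)) = _
    rw [Submodule.coe_prodEquivOfIsCompl', Module.Basis.prod_apply_inr_fst,
      Module.Basis.prod_apply_inr_snd, Submodule.coe_zero, zero_add]
  have hf0 : f (b 0) = b 0 := by
    have := (mem_eig f 1 _).1 (b1 0).2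
    rw [one_smul] at this
    rw [hb0]
    exact this
  have hf1 : f (b 1) = -b 1 := by
    have := (mem_eig f (-1) _).1 (b2 0).2
    rw [neg_one_smul] at this
    rw [hb1]
    exact this
  refine ⟨b, ⟨?_, ?_, ?_, ?_⟩⟩
  · rw [LinearMap.toMatrix_apply, hf0, Module.Basis.repr_self, Finsupp.single_eq_same]
  · rw [LinearMap.toMatrix_apply, hf1, map_neg, Module.Basis.repr_self, Finsupp.neg_apply,
      Finsupp.single_eq_of_ne (by decide), neg_zero]
  · rw [LinearMap.toMatrix_apply, hf0, Module.Basis.repr_self,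
      Finsupp.single_eq_of_ne (by decide)]
  · rw [LinearMap.toMatrix_apply, hf1, map_neg, Module.Basis.repr_self, Finsupp.neg_apply,
      Finsupp.single_eq_same]

end Fermat.Agent.S59.Datum.H8

end
-- ==== END Fermat.Agent.S59.Datum.H8_Adapt

-- ==== BEGIN Fermat.Agent.S59.H99_DefCyc
section

/-!
# S59, leaf DEF, part 1 (helper99): the cyclotomic relation `x = ε(σ) z`

The prelude expresses "`x = ε(σ) · z`" (`ε` the `p`-adic cyclotomic character) as
`∀ n a, (σ acts on μ_{p^n} by the a-th power) → x - a z ∈ (p^n)`.  This file isolates this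
relation (`CycRel`) and proves that it descends along injective maps into rings in which `p` is
nilpotent and along the projective system of the quotients `A ⧸ 𝔪 ^ (m+1)` of a noetherian local
ring.
-/

set_option autoImplicit false
set_option linter.unusedSectionVars false

open IsLocalRing

namespace Fermat.Agent.S59.H99

/-- `σ` acts on the `p ^ n`-th roots of unity by the `a`-th power. -/
def ActsPow (p : ℕ) (σ : AlgebraicClosure ℚ ≃ₐ[ℚ] AlgebraicClosure ℚ) (n a : ℕ) : Prop :=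
  ∀ μ : AlgebraicClosure ℚ, μ ^ p ^ n = 1 → σ μ = μ ^ a

section

variable (p : ℕ) [Fact p.Prime] (σ : AlgebraicClosure ℚ ≃ₐ[ℚ] AlgebraicClosure ℚ)

theorem exists_actsPow (n : ℕ) : ∃ a : ℕ, ActsPow p σ n a := by
  refine ⟨(PadicInt.toZModPow n ((Fermat.Agent.R.H89.h89Chi p σ : ℤ_[p]ˣ) : ℤ_[p])).val, ?_⟩
  intro μ hμ
  exact cyclotomicCharacter.spec (L := AlgebraicClosure ℚ) p
    (MulSemiringAction.toRingAut (AlgebraicClosure ℚ ≃ₐ[ℚ] AlgebraicClosure ℚ)
      (AlgebraicClosure ℚ) σ) μ hμ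

variable {p σ}

theorem ActsPow.mono {n N a : ℕ} (h : n ≤ N) (ha : ActsPow p σ N a) : ActsPow p σ n a := by
  intro μ hμ
  apply ha
  obtain ⟨d, rfl⟩ := Nat.exists_eq_add_of_le h
  rw [pow_add, pow_mul, hμ, one_pow]

theorem ActsPow.natCast_eq {n a b : ℕ} (ha : ActsPow p σ n a) (hb : ActsPow p σ n b) :
    (a : ZMod (p ^ n)) = (b : ZMod (p ^ n)) := by
  rw [← Fermat.Agent.R.H89.h89Chi_toZModPow_eq p σ n a ha,
    ← Fermat.Agent.R.H89.h89Chi_toZModPow_eq p σ n b hb]

theorem ActsPow.sub_mem_span {A : Type} [CommRing A] {n a b : ℕ} (ha : ActsPow p σ n a)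
    (hb : ActsPow p σ n b) : ((a : A) - (b : A)) ∈ Ideal.span {((p ^ n : ℕ) : A)} := by
  have h := ha.natCast_eq hb
  have h2 : ((a : ℤ) : ZMod (p ^ n)) = ((b : ℤ) : ZMod (p ^ n)) := by
    rw [Int.cast_natCast, Int.cast_natCast]
    exact h
  rw [ZMod.intCast_eq_intCast_iff_dvd_sub] at h2
  obtain ⟨c, hc⟩ := h2
  rw [Ideal.mem_span_singleton']
  refine ⟨-(c : A), ?_⟩
  have h3 : ((b : ℤ) : A) - ((a : ℤ) : A) = (((p ^ n : ℕ) : ℤ) : A) * (c : A) := by
    rw [← Int.cast_sub, hc, Int.cast_mul]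
  simp only [Int.cast_natCast] at h3
  linear_combination h3

end

/-- The relation `x = ε(σ) · z`, in the prelude's form. -/
def CycRel {A : Type} [CommRing A] (p : ℕ) (σ : AlgebraicClosure ℚ ≃ₐ[ℚ] AlgebraicClosure ℚ)
    (x z : A) : Prop :=
  ∀ n a : ℕ, ActsPow p σ n a → x - (a : A) * z ∈ Ideal.span {((p ^ n : ℕ) : A)}

section

variable {A B : Type} [CommRing A] [CommRing B] {p : ℕ}
  {σ : AlgebraicClosure ℚ ≃ₐ[ℚ] AlgebraicClosure ℚ}

theorem CycRel.map (φ : A →+* B) {x z : A} (h : CycRel p σ x z) : CycRel p σ (φ x) (φ z) := by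
  intro n a ha
  obtain ⟨c, hc⟩ := Ideal.mem_span_singleton'.1 (h n a ha)
  have h1 : φ x - (a : B) * φ z = φ (x - (a : A) * z) := by
    rw [map_sub, map_mul, map_natCast]
  rw [h1, ← hc, map_mul, map_natCast]
  exact Ideal.mem_span_singleton'.2 ⟨φ c, rfl⟩

/-- If `p ^ M = 0` in `A`, the relation is an equality. -/
theorem CycRel.eq_of_pow_eq_zero {x z : A} (h : CycRel p σ x z) {M : ℕ}
    (hM : ((p ^ M : ℕ) : A) = 0) {b : ℕ} (hb : ActsPow p σ M b) : x = (b : A) * z := by
  have := h M b hb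
  rw [hM, Ideal.span_singleton_eq_bot.mpr rfl, Ideal.mem_bot, sub_eq_zero] at this
  exact this

/-- The relation follows from the equalities at all large levels. -/
theorem cycRel_of_forall_eq [Fact p.Prime] {x z : A} (M : ℕ)
    (h : ∀ N : ℕ, M ≤ N → ∀ b : ℕ, ActsPow p σ N b → x = (b : A) * z) : CycRel p σ x z := by
  intro n a ha
  obtain ⟨b, hb⟩ := exists_actsPow p σ (max n M)
  have hx := h (max n M) (le_max_right _ _) b hb
  have hab := (hb.mono (le_max_left n M)).sub_mem_span (A := A) ha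
  have : x - (a : A) * z = ((b : A) - (a : A)) * z := by rw [hx]; ring
  rw [this]
  exact Ideal.mul_mem_right _ _ hab

/-- Descent of the relation along a jointly injective family of homomorphisms into rings in
which `p ^ M = 0`. -/
theorem cycRel_of_family [Fact p.Prime] {ι : Type} {C : ι → Type} [∀ i, CommRing (C i)]
    (φ : ∀ i, A →+* C i) (hinj : ∀ a : A, (∀ i, φ i a = 0) → a = 0) (M : ℕ)
    (hM : ∀ i, ((p ^ M : ℕ) : C i) = 0) {x z : A}
    (h : ∀ i, CycRel p σ (φ i x) (φ i z)) : CycRel p σ x z := by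
  refine cycRel_of_forall_eq M fun N hN b hb => ?_
  rw [← sub_eq_zero]
  apply hinj
  intro i
  have h1 := (h i).eq_of_pow_eq_zero (hM i) (hb.mono hN)
  rw [map_sub, map_mul, map_natCast, h1, sub_self]

end

section Krull

variable {A : Type} [CommRing A] [IsLocalRing A] [IsNoetherianRing A] {p : ℕ}
  {σ : AlgebraicClosure ℚ ≃ₐ[ℚ] AlgebraicClosure ℚ}

/-- Ideals of a noetherian local ring are closed. -/
theorem mem_of_forall_mem_sup_pow (J : Ideal A) (x : A)
    (h : ∀ m : ℕ, x ∈ J ⊔ maximalIdeal A ^ m) : x ∈ J := by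
  have hkrull := Ideal.iInf_pow_smul_eq_bot_of_isLocalRing (R := A) (M := A ⧸ J)
    (maximalIdeal A) (Ideal.IsPrime.ne_top inferInstance)
  have hx : (Ideal.Quotient.mk J x : A ⧸ J) ∈
      (⨅ i : ℕ, maximalIdeal A ^ i • ⊤ : Submodule A (A ⧸ J)) := by
    rw [Submodule.mem_iInf]
    intro m
    obtain ⟨y, hy, w, hw, hyw⟩ := Submodule.mem_sup.mp (h m)
    have h1 : (Ideal.Quotient.mk J x : A ⧸ J) = w • (Ideal.Quotient.mk J 1 : A ⧸ J) := by
      rw [← hyw, map_add, Ideal.Quotient.eq_zero_iff_mem.mpr hy, zero_add]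
      rw [Algebra.smul_def, map_one, mul_one]
      rfl
    rw [h1]
    exact Submodule.smul_mem_smul hw Submodule.mem_top
  rw [hkrull, Submodule.mem_bot] at hx
  exact Ideal.Quotient.eq_zero_iff_mem.mp hx

theorem natCast_pow_mem_maximalIdeal_pow (hp : (p : A) ∈ maximalIdeal A) (m : ℕ) :
    ((p ^ m : ℕ) : A) ∈ maximalIdeal A ^ m := by
  rw [Nat.cast_pow]
  exact Ideal.pow_mem_pow hp m

/-- Descent of the relation from the quotients `A ⧸ 𝔪 ^ (m + 1)`. -/
theorem cycRel_of_quot [Fact p.Prime] (hp : (p : A) ∈ maximalIdeal A) {x z : A}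
    (h : ∀ m : ℕ, CycRel p σ (Ideal.Quotient.mk (maximalIdeal A ^ (m + 1)) x)
      (Ideal.Quotient.mk (maximalIdeal A ^ (m + 1)) z)) : CycRel p σ x z := by
  intro n a ha
  apply mem_of_forall_mem_sup_pow
  intro m
  obtain ⟨b, hb⟩ := exists_actsPow p σ (max n (m + 1))
  have hM : ((p ^ (m + 1) : ℕ) : A ⧸ maximalIdeal A ^ (m + 1)) = 0 := by
    have := natCast_pow_mem_maximalIdeal_pow hp (m + 1)
    rw [← Ideal.Quotient.eq_zero_iff_mem, map_natCast] at this
    exact this
  have h1 := (h m).eq_of_pow_eq_zero hM (hb.mono (le_max_right n (m + 1)))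
  rw [← sub_eq_zero, ← map_natCast (Ideal.Quotient.mk (maximalIdeal A ^ (m + 1))),
    ← map_mul, ← map_sub, Ideal.Quotient.eq_zero_iff_mem] at h1
  have hab := (hb.mono (le_max_left n (m + 1))).sub_mem_span (A := A) ha
  have e : x - (a : A) * z = ((b : A) - (a : A)) * z + (x - (b : A) * z) := by ring
  rw [e]
  refine Submodule.add_mem_sup (Ideal.mul_mem_right _ _ hab) ?_
  exact Ideal.pow_le_pow_right (Nat.le_succ m) h1

end Krull

end Fermat.Agent.S59.H99

end
-- ==== END Fermat.Agent.S59.H99_DefCyc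

-- ==== BEGIN Fermat.Agent.S59.H99_DefIdem
section

/-!
# S59, leaf DEF, part 3 (helper99): rank one idempotents on a free module of rank two over a
local ring

* `trace_of_range_le_line` : an endomorphism with image in the line `A b₀` acting on `b₀` by
  the scalar `c` has trace `c`.
* `exists_basis_range_of_idempotent` : an idempotent endomorphism of trace `1` has as image a
  line `A b₀` spanned by the first vector of a basis.
-/

set_option autoImplicit false
set_option linter.unusedSectionVars false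

namespace Fermat.Agent.S59.H99

section Trace

variable {A : Type} [CommRing A] {V : Type} [AddCommGroup V] [Module A V]

theorem repr_one_eq_zero_of_mem_span (b : Module.Basis (Fin 2) A V) {v : V}
    (hv : v ∈ Submodule.span A {b 0}) : b.repr v 1 = 0 := by
  obtain ⟨r, rfl⟩ := Submodule.mem_span_singleton.mp hv
  rw [map_smul, Finsupp.smul_apply, Module.Basis.repr_self, Finsupp.single_apply,
    if_neg (by decide), smul_zero]

theorem trace_of_range_le_line (b : Module.Basis (Fin 2) A V) (H : V →ₗ[A] V) (c : A)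
    (h1 : ∀ v, H v ∈ Submodule.span A {b 0}) (h2 : H (b 0) = c • b 0) :
    LinearMap.trace A V H = c := by
  rw [LinearMap.trace_eq_matrix_trace A b, Matrix.trace, Fin.sum_univ_two]
  simp only [Matrix.diag_apply, LinearMap.toMatrix_apply]
  rw [h2, repr_one_eq_zero_of_mem_span b (h1 (b 1)), add_zero, map_smul, Finsupp.smul_apply,
    Module.Basis.repr_self, Finsupp.single_eq_same, smul_eq_mul, mul_one]

end Trace

section Idem

variable {A : Type} [CommRing A] [IsLocalRing A] {V : Type} [AddCommGroup V] [Module A V]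

theorem exists_basis_of_det (c : Module.Basis (Fin 2) A V) (v₀ v₁ : V)
    (hdet : IsUnit (c.repr v₀ 0 * c.repr v₁ 1 - c.repr v₁ 0 * c.repr v₀ 1)) :
    ∃ b : Module.Basis (Fin 2) A V, b 0 = v₀ ∧ b 1 = v₁ := by
  have h : IsUnit (c.det ![v₀, v₁]) := by
    rw [Module.Basis.det_apply, Matrix.det_fin_two]
    simp only [Module.Basis.toMatrix_apply, Matrix.cons_val_zero, Matrix.cons_val_one]
    exact hdet
  obtain ⟨hli, hsp⟩ := (Module.Basis.is_basis_iff_det c).mpr h
  refine ⟨Module.Basis.mk hli hsp.ge, ?_, ?_⟩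
  · rw [Module.Basis.mk_apply]; rfl
  · rw [Module.Basis.mk_apply]; rfl

theorem exists_basis_range_of_idempotent (c : Module.Basis (Fin 2) A V) (e : V →ₗ[A] V)
    (he : ∀ v, e (e v) = e v) (htr : LinearMap.trace A V e = 1) :
    ∃ b : Module.Basis (Fin 2) A V, LinearMap.range e = Submodule.span A {b 0} := by
  set α := c.repr (e (c 0)) 0 with hα
  set γ := c.repr (e (c 0)) 1 with hγ
  set β := c.repr (e (c 1)) 0 with hβ
  set δ := c.repr (e (c 1)) 1 with hδ
  have htr' : α + δ = 1 := by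
    rw [← htr, LinearMap.trace_eq_matrix_trace A c, Matrix.trace, Fin.sum_univ_two]
    simp only [Matrix.diag_apply, LinearMap.toMatrix_apply]
    rfl
  have e0 : e (c 0) = α • c 0 + γ • c 1 := by
    conv_lhs => rw [← c.sum_repr (e (c 0)), Fin.sum_univ_two]
  have e1 : e (c 1) = β • c 0 + δ • c 1 := by
    conv_lhs => rw [← c.sum_repr (e (c 1)), Fin.sum_univ_two]
  have hee0 : e (e (c 0)) = α • e (c 0) + γ • e (c 1) := by
    conv_lhs => rw [e0, map_add, map_smul, map_smul]
  have hee1 : e (e (c 1)) = β • e (c 0) + δ • e (c 1) := by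
    conv_lhs => rw [e1, map_add, map_smul, map_smul]
  have q0 : α * α + γ * β = α := by
    have := congrArg (fun w => c.repr w 0) ((he (c 0)).symm.trans hee0)
    simp only [map_add, map_smul, Finsupp.add_apply, Finsupp.smul_apply, smul_eq_mul] at this
    exact this.symm
  have q1 : β * γ + δ * δ = δ := by
    have := congrArg (fun w => c.repr w 1) ((he (c 1)).symm.trans hee1)
    simp only [map_add, map_smul, Finsupp.add_apply, Finsupp.smul_apply, smul_eq_mul] at this
    exact this.symm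
  have key : ∀ (b : Module.Basis (Fin 2) A V) (u : V), b 0 = e u → e (b 1) = 0 →
      LinearMap.range e = Submodule.span A {b 0} := by
    intro b u hb0 hb1
    apply le_antisymm
    · rintro _ ⟨w, rfl⟩
      have hw : w = b.repr w 0 • b 0 + b.repr w 1 • b 1 := by
        conv_lhs => rw [← b.sum_repr w, Fin.sum_univ_two]
      rw [hw, map_add, map_smul, map_smul, hb1, smul_zero, add_zero, hb0, he, ← hb0]
      exact Submodule.smul_mem _ _ (Submodule.mem_span_singleton_self _)
    · rw [Submodule.span_singleton_le_iff_mem, hb0]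
      exact ⟨u, rfl⟩
  rcases IsLocalRing.isUnit_or_isUnit_of_add_one htr' with hu | hu
  · -- `α` is a unit
    have hdet : IsUnit (c.repr (e (c 0)) 0 * c.repr (c 1 - e (c 1)) 1 -
        c.repr (c 1 - e (c 1)) 0 * c.repr (e (c 0)) 1) := by
      have : c.repr (e (c 0)) 0 * c.repr (c 1 - e (c 1)) 1 -
          c.repr (c 1 - e (c 1)) 0 * c.repr (e (c 0)) 1 = α := by
        simp only [map_sub, Finsupp.sub_apply, Module.Basis.repr_self, Finsupp.single_apply]
        simp only [← hα, ← hβ, ← hγ, ← hδ]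
        norm_num
        linear_combination (-α) * htr' + q0
      rw [this]
      exact hu
    obtain ⟨b, hb0, hb1⟩ := exists_basis_of_det c _ _ hdet
    refine ⟨b, key b (c 0) hb0 ?_⟩
    rw [hb1, map_sub, he, sub_self]
  · -- `δ` is a unit
    have hdet : IsUnit (c.repr (e (c 1)) 0 * c.repr (c 0 - e (c 0)) 1 -
        c.repr (c 0 - e (c 0)) 0 * c.repr (e (c 1)) 1) := by
      have : c.repr (e (c 1)) 0 * c.repr (c 0 - e (c 0)) 1 -
          c.repr (c 0 - e (c 0)) 0 * c.repr (e (c 1)) 1 = -δ := by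
        simp only [map_sub, Finsupp.sub_apply, Module.Basis.repr_self, Finsupp.single_apply]
        simp only [← hα, ← hβ, ← hγ, ← hδ]
        norm_num
        linear_combination (δ) * htr' - q1
      rw [this]
      exact hu.neg
    obtain ⟨b, hb0, hb1⟩ := exists_basis_of_det c _ _ hdet
    refine ⟨b, key b (c 1) hb0 ?_⟩
    rw [hb1, map_sub, he, sub_self]

end Idem

end Fermat.Agent.S59.H99

end
-- ==== END Fermat.Agent.S59.H99_DefIdem

-- ==== BEGIN Fermat.Agent.S59.H99_SplitFlat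
section

/-!
# S59, leaf SPLIT, part 1 (helper99): flatness passes to finite free local extensions

`isFlatAt_baseChangeAlong_of_finite_free`: if `φ : A → B` is a local homomorphism making `B` a
finite free `A`-module and `ρ` is flat at `p`, then `ρ.baseChangeAlong φ` is flat at `p`.

For an ideal `I'` of `B` of finite index and `I = φ⁻¹ I'`, the Galois module
`(B ⊗ V) / I' (B ⊗ V)` is an equivariant quotient of `(V / I V)^r` (`r` the rank of `B`) via
`(v_i) ↦ ∑ b_i ⊗ v_i`; flat Galois modules are closed under finite products and quotients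
(helper54's FLAT-CLOSURE).
-/

set_option autoImplicit false

open IsLocalRing TensorProduct

namespace Fermat.Agent.S59.H99

open Fermat.Agent.R Fermat.Agent.S56.H92

section

variable {A B : Type} [CommRing A] [CommRing B] [Algebra A B]
variable {V : Type} [AddCommGroup V] [Module A V]

/-- The additive map `(v_i) ↦ ∑ [b_i ⊗ v_i]` from `(V / I V)^r` to `(B ⊗ V) / I' (B ⊗ V)`. -/
noncomputable def sumTheta {r : ℕ} (b : Fin r → B) (I : Ideal A) (I' : Ideal B)
    (hI : ∀ a ∈ I, algebraMap A B a ∈ I') :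
    (Fin r → V ⧸ I • (⊤ : Submodule A V)) →+
      (B ⊗[A] V) ⧸ (I' • (⊤ : Submodule B (B ⊗[A] V))) :=
  ∑ i, ((Submodule.liftQ _ (thetaX (R := A) (V := V) I' (b i))
    (smul_top_le_ker_thetaX I' (b i) I (fun a ha => I'.mul_mem_right _ (hI a ha)))).toAddMonoidHom).comp
      (Pi.evalAddMonoidHom (fun _ : Fin r => V ⧸ I • (⊤ : Submodule A V)) i)

theorem sumTheta_apply {r : ℕ} (b : Fin r → B) (I : Ideal A) (I' : Ideal B)
    (hI : ∀ a ∈ I, algebraMap A B a ∈ I') (x : Fin r → V ⧸ I • (⊤ : Submodule A V)) :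
    sumTheta b I I' hI x = ∑ i, Submodule.liftQ _ (thetaX (R := A) (V := V) I' (b i))
      (smul_top_le_ker_thetaX I' (b i) I (fun a ha => I'.mul_mem_right _ (hI a ha))) (x i) := by
  simp only [sumTheta, AddMonoidHom.finsetSum_apply, AddMonoidHom.comp_apply,
    Pi.evalAddMonoidHom_apply, LinearMap.toAddMonoidHom_coe]

theorem sumTheta_surjective {r : ℕ} (b : Module.Basis (Fin r) A B) (I : Ideal A) (I' : Ideal B)
    (hI : ∀ a ∈ I, algebraMap A B a ∈ I') :
    Function.Surjective (sumTheta (V := V) b I I' hI) := by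
  intro q
  obtain ⟨w, rfl⟩ := Submodule.Quotient.mk_surjective _ q
  induction w using TensorProduct.induction_on with
  | zero => exact ⟨0, by rw [map_zero]; rfl⟩
  | tmul x v =>
    refine ⟨fun i => Submodule.Quotient.mk (b.repr x i • v), ?_⟩
    rw [sumTheta_apply]
    simp only [Submodule.liftQ_apply, thetaX_apply]
    have e : x ⊗ₜ[A] v = ∑ i, (b i) ⊗ₜ[A] (b.repr x i • v) := by
      conv_lhs => rw [← b.sum_repr x, TensorProduct.sum_tmul]
      refine Finset.sum_congr rfl fun i _ => ?_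
      rw [TensorProduct.tmul_smul, TensorProduct.smul_tmul']
    rw [e]
    exact (map_sum (Submodule.mkQ (I' • (⊤ : Submodule B (B ⊗[A] V)))) _ _).symm
  | add x y hx hy =>
    obtain ⟨a, ha⟩ := hx
    obtain ⟨c, hc⟩ := hy
    exact ⟨a + c, by rw [map_add, ha, hc]; rfl⟩

theorem sumTheta_equivariant {r : ℕ} (b : Fin r → B) (I : Ideal A) (I' : Ideal B)
    (hI : ∀ a ∈ I, algebraMap A B a ∈ I') (f : V →ₗ[A] V)
    (h1 : I • (⊤ : Submodule A V) ≤ (I • (⊤ : Submodule A V)).comap f)
    (h2 : I' • (⊤ : Submodule B (B ⊗[A] V)) ≤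
      (I' • (⊤ : Submodule B (B ⊗[A] V))).comap (f.baseChange B))
    (x : Fin r → V ⧸ I • (⊤ : Submodule A V)) :
    sumTheta b I I' hI (fun i => Submodule.mapQ _ _ f h1 (x i)) =
      Submodule.mapQ _ _ (f.baseChange B) h2 (sumTheta b I I' hI x) := by
  rw [sumTheta_apply, sumTheta_apply, map_sum]
  refine Finset.sum_congr rfl fun i _ => ?_
  exact liftQ_thetaX_mapQ I' (b i) I _ f h1 h2 (x i)

end

/-- **Flatness passes to finite free local extensions.** -/
theorem isFlatAt_baseChangeAlong_of_finite_free {A B : Type} [CommRing A] [IsLocalRing A]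
    [CommRing B] [IsLocalRing B] (φ : A →+* B) (hφ : IsLocalHom φ)
    (hfree : letI := φ.toAlgebra; Module.Free A B)
    (hfin : letI := φ.toAlgebra; Module.Finite A B)
    (hres : Finite (ResidueField B))
    (ρ : GaloisRepAdic A) (p : ℕ) (hp : p.Prime) (h : ρ.IsFlatAt p) :
    (ρ.baseChangeAlong φ hφ).IsFlatAt p := by
  let _ : Algebra A B := φ.toAlgebra
  rw [isFlatAt_iff] at h ⊢
  refine ⟨hres, fun I' hI' => ?_⟩
  set I : Ideal A := I'.comap φ with hIdef
  have hIfin : Finite (A ⧸ I) := by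
    have hinj : Function.Injective (Ideal.quotientMap I' φ (le_refl I)) :=
      Ideal.quotientMap_injective
    exact Finite.of_injective _ hinj
  have h₀ := h.2 I hIfin
  let r := Module.finrank A B
  let b : Module.Basis (Fin r) A B := Module.finBasis A B
  have hI : ∀ a ∈ I, algebraMap A B a ∈ I' := fun a ha => ha
  have hpi := Fermat.Agent.R.H54.stmt_FlatPi p hp r
    (fun _ => ρ.V ⧸ I • (⊤ : Submodule A ρ.V)) (fun _ σ => ρ.levelAction I σ) (fun _ => h₀)
  refine Fermat.Agent.R.H54.stmt_FlatQuot p hp _ _ _ _ (sumTheta (V := ρ.V) b I I' hI)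
    (sumTheta_surjective b I I' hI) ?_ hpi
  intro σ x
  exact sumTheta_equivariant (V := ρ.V) b I I' hI (ρ.ρ σ) _ _ x

end Fermat.Agent.S59.H99

end
-- ==== END Fermat.Agent.S59.H99_SplitFlat

-- ==== BEGIN Fermat.Agent.S59.H99_SplitRing
section

/-!
# S59, leaf SPLIT, part 3 (helper99): a finite extension of the coefficient ring over whose
residue field all quadratic polynomials of the old residue field split

`exists_split_ext`: for a complete discrete valuation ring `𝒪` (characteristic `0`, finite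
residue field `k`) there is a complete discrete valuation ring `𝒪'`, finite free over `𝒪` with
local structure map, such that every monic quadratic polynomial over `k` is a product of two
linear factors over the residue field of `𝒪'`.

Construction: `𝒪'` = integral closure of `𝒪` in the splitting field of the product of the lifts
`X² + s(b) X + s(c)`, `(b, c) ∈ k × k`.
-/

set_option autoImplicit false

open Polynomial IsLocalRing

namespace Fermat.Agent.S59.H99

/-- A monic polynomial of degree `2` in terms of its coefficients. -/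
theorem monic_quadratic_eq {R : Type*} [CommRing R] {g : R[X]} (hm : g.Monic)
    (hd : g.natDegree = 2) : g = X ^ 2 + (C (g.coeff 1) * X + C (g.coeff 0)) := by
  conv_lhs => rw [hm.as_sum, hd]
  rw [Finset.sum_range_succ, Finset.sum_range_one, pow_zero, mul_one, pow_one]
  ring

theorem quadratic_monic {R : Type*} [CommRing R] [Nontrivial R] (b c : R) :
    (X ^ 2 + (C b * X + C c) : R[X]).Monic :=
  monic_X_pow_add (lt_of_le_of_lt degree_linear_le (by norm_num))

theorem quadratic_natDegree {R : Type*} [CommRing R] [Nontrivial R] (b c : R) :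
    (X ^ 2 + (C b * X + C c) : R[X]).natDegree = 2 := by
  have hlt : (C b * X + C c : R[X]).degree < (X ^ 2 : R[X]).degree := by
    rw [degree_X_pow]
    exact lt_of_le_of_lt degree_linear_le (by norm_num)
  have h : (X ^ 2 + (C b * X + C c) : R[X]).degree = ((2 : ℕ) : WithBot ℕ) := by
    rw [degree_add_eq_left_of_degree_lt hlt, degree_X_pow]
  exact natDegree_eq_of_degree_eq_some h

/-- A split monic polynomial of degree `2` over a field is a product of two linear factors. -/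
theorem exists_roots_of_splits {E : Type*} [Field E] {f : E[X]} (hf : f.Splits) (hm : f.Monic)
    (hd : f.natDegree = 2) : ∃ r₁ r₂ : E, f = (X - C r₁) * (X - C r₂) := by
  have hcard : f.roots.card = 2 := by rw [← hf.natDegree_eq_card_roots, hd]
  obtain ⟨r₁, r₂, hr⟩ := Multiset.card_eq_two.mp hcard
  refine ⟨r₁, r₂, ?_⟩
  conv_lhs => rw [hf.eq_prod_roots_of_monic hm, hr]
  simp

/-- **The coefficient ring for SPLIT.** -/
theorem exists_split_ext (𝒪 : Type) [CommRing 𝒪] [IsDomain 𝒪] [IsDiscreteValuationRing 𝒪]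
    [IsAdicComplete (maximalIdeal 𝒪) 𝒪] [Finite (ResidueField 𝒪)] [CharZero 𝒪] :
    ∃ (𝒪' : Type) (_ : CommRing 𝒪') (_ : IsDomain 𝒪') (_ : IsDiscreteValuationRing 𝒪')
      (_ : IsAdicComplete (maximalIdeal 𝒪') 𝒪') (_ : Finite (ResidueField 𝒪'))
      (_ : CharZero 𝒪') (_ : Algebra 𝒪 𝒪') (_ : Module.Finite 𝒪 𝒪') (_ : Module.Free 𝒪 𝒪')
      (_ : IsLocalHom (algebraMap 𝒪 𝒪')),
      ∀ g : (ResidueField 𝒪)[X], g.Monic → g.natDegree = 2 →
        ∃ α β : ResidueField 𝒪',
          g.map (ResidueField.map (algebraMap 𝒪 𝒪')) = (X - C α) * (X - C β) := by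
  classical
  have hfk : Fintype (ResidueField 𝒪) := Fintype.ofFinite _
  let s : ResidueField 𝒪 → 𝒪 := Function.surjInv (residue_surjective (R := 𝒪))
  have hs : ∀ x, residue 𝒪 (s x) = x := Function.surjInv_eq _
  let q : ResidueField 𝒪 × ResidueField 𝒪 → 𝒪[X] :=
    fun bc => X ^ 2 + (C (s bc.1) * X + C (s bc.2))
  have hqm : ∀ bc, (q bc).Monic := fun bc => quadratic_monic _ _
  have hqd : ∀ bc, (q bc).natDegree = 2 := fun bc => quadratic_natDegree _ _
  let G : 𝒪[X] := ∏ bc, q bc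
  have hGm : G.Monic := monic_prod_of_monic _ _ (fun bc _ => hqm bc)
  obtain ⟨𝒪', i1, i2, i3, i4, i5, i6, i7, i8, i9, i10, i11, i12, hinj, hint⟩ :=
    Fermat.Agent.R.H2.exists_finiteExtDVR 𝒪 (FractionRing 𝒪)
      ((G.map (algebraMap 𝒪 (FractionRing 𝒪))).SplittingField)
  have htf : Module.IsTorsionFree 𝒪 𝒪' := Module.isTorsionFree_iff_algebraMap_injective.mpr hinj
  have hfree : Module.Free 𝒪 𝒪' := Module.free_of_finite_type_torsion_free'
  refine ⟨𝒪', i1, i2, i3, i4, i5, i6, i7, i8, hfree, i9, ?_⟩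
  intro g hgm hgd
  set E := (G.map (algebraMap 𝒪 (FractionRing 𝒪))).SplittingField with hE
  set bc : ResidueField 𝒪 × ResidueField 𝒪 := (g.coeff 1, g.coeff 0) with hbc
  -- `q bc` reduces to `g`
  have hred : (q bc).map (residue 𝒪) = g := by
    conv_rhs => rw [monic_quadratic_eq hgm hgd]
    simp only [q, Polynomial.map_add, Polynomial.map_mul, Polynomial.map_pow, Polynomial.map_X,
      Polynomial.map_C, hs, hbc]
  -- `q bc` splits in `E`
  have hGE : (G.map (algebraMap 𝒪 E)).Splits := by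
    have h1 : G.map (algebraMap 𝒪 E) =
        (G.map (algebraMap 𝒪 (FractionRing 𝒪))).map (algebraMap (FractionRing 𝒪) E) := by
      rw [Polynomial.map_map, ← IsScalarTower.algebraMap_eq]
    rw [h1]
    exact SplittingField.splits _
  have hdvd : (q bc).map (algebraMap 𝒪 E) ∣ G.map (algebraMap 𝒪 E) :=
    Polynomial.map_dvd _ (Finset.dvd_prod_of_mem q (Finset.mem_univ bc))
  have hqE : ((q bc).map (algebraMap 𝒪 E)).Splits :=
    hGE.of_dvd (hGm.map _).ne_zero hdvd
  obtain ⟨r₁, r₂, hr⟩ := exists_roots_of_splits hqE ((hqm bc).map _)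
    (by rw [(hqm bc).natDegree_map, hqd])
  -- the roots are integral
  have hroot : ∀ r : E, ((q bc).map (algebraMap 𝒪 E)).IsRoot r → IsIntegral 𝒪 r := by
    intro r hr0
    refine ⟨q bc, hqm bc, ?_⟩
    rwa [IsRoot.def, eval_map] at hr0
  have hr₁ : IsIntegral 𝒪 r₁ := hroot r₁ (by rw [hr]; simp)
  have hr₂ : IsIntegral 𝒪 r₂ := hroot r₂ (by rw [hr]; simp)
  obtain ⟨y₁, hy₁⟩ := hint r₁ hr₁
  obtain ⟨y₂, hy₂⟩ := hint r₂ hr₂
  subst hy₁ hy₂
  -- the factorisation over `𝒪'`
  have hfac : (q bc).map (algebraMap 𝒪 𝒪') = (X - C y₁) * (X - C y₂) := by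
    apply Polynomial.map_injective (algebraMap 𝒪' E) (IsFractionRing.injective 𝒪' E)
    rw [Polynomial.map_map, ← IsScalarTower.algebraMap_eq, hr]
    simp only [Polynomial.map_mul, Polynomial.map_sub, Polynomial.map_X, Polynomial.map_C]
    rfl
  refine ⟨residue 𝒪' y₁, residue 𝒪' y₂, ?_⟩
  have hcomp : (ResidueField.map (algebraMap 𝒪 𝒪')).comp (residue 𝒪) =
      (residue 𝒪').comp (algebraMap 𝒪 𝒪') := by
    ext x
    exact ResidueField.map_residue _ x
  rw [← hred, Polynomial.map_map, hcomp, ← Polynomial.map_map, hfac]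
  simp only [Polynomial.map_mul, Polynomial.map_sub, Polynomial.map_X, Polynomial.map_C]

end Fermat.Agent.S59.H99

end
-- ==== END Fermat.Agent.S59.H99_SplitRing

-- ==== BEGIN Fermat.Agent.S59.H99_Theta
section

/-!
# S59, leaf THETA (helper99): the residual eigen-character

Let `f₀` be a normalised eigenform of level `N`, `𝔪` a maximal ideal of the ring of algebraic
integers over `p`, `S` a set of primes containing the primes dividing `N`, and `a : ℕ → ℤ` with
`a_ℓ(f₀) ≡ a ℓ mod 𝔪` for all primes `ℓ ∤ N`, `ℓ ∉ S`.  Then there is a ring homomorphism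
`θ : heckeAlgebra N 2 S → ZMod p` with `θ (T_ℓ) = a ℓ`, and it is the reduction modulo `𝔪` of the
eigen-character of `f₀`.

* `eigenCharMod`        : `heckeAlgebra N 2 S →+* (integralClosure ℤ ℂ ⧸ 𝔪)`.
* `exists_theta`        : `θ` with values in `ZMod p`.
* `exists_theta_residue`: `θ` with values in the residue field of a local ring `𝒪` of residue
  characteristic `p`.
-/

set_option autoImplicit false

open CuspForm CongruenceSubgroup ModularFormClass IsLocalRing

namespace Fermat.Agent.S59.H99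

open Fermat.Agent.R.H99

variable {N : ℕ} [NeZero N]

/-- The eigen-character of a normalised eigenform modulo an ideal of the algebraic integers. -/
noncomputable def eigenCharMod (S : Set ℕ) {g : CuspForm (Gamma0 N) 2}
    (hg : g.IsNormalizedEigenform) (𝔪 : Ideal (integralClosure ℤ ℂ)) :
    heckeAlgebra N 2 S →+* (integralClosure ℤ ℂ ⧸ 𝔪) :=
  (Ideal.Quotient.mk 𝔪).comp (eigenChar S hg)

theorem eigenCharMod_T (S : Set ℕ) {g : CuspForm (Gamma0 N) 2}
    (hg : g.IsNormalizedEigenform) (𝔪 : Ideal (integralClosure ℤ ℂ)) (a : ℤ)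
    {ℓ : ℕ} (hℓ : ℓ.Prime) (hℓN : ¬ ℓ ∣ N) (hℓS : ℓ ∉ S)
    (h : ∃ b : integralClosure ℤ ℂ, (b : ℂ) = qCoeff g ℓ ∧
      b - (a : integralClosure ℤ ℂ) ∈ 𝔪) :
    eigenCharMod S hg 𝔪 (heckeAlgebra.T hℓ hℓN hℓS) = ((a : ℤ) : integralClosure ℤ ℂ ⧸ 𝔪) := by
  obtain ⟨b, hb, hba⟩ := h
  have hb' : eigenChar S hg (heckeAlgebra.T hℓ hℓN hℓS) = b := by
    apply Subtype.ext
    rw [coe_eigenChar, eigenCharC_T, hb]
  rw [eigenCharMod, RingHom.comp_apply, hb', ← map_intCast (Ideal.Quotient.mk 𝔪)]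
  exact (Ideal.Quotient.eq).mpr hba

/-- The quotient of the algebraic integers by an ideal containing `p` has characteristic `p`
(if the ideal is proper). -/
theorem charP_quotient (p : ℕ) [hpF : Fact p.Prime] (𝔪 : Ideal (integralClosure ℤ ℂ))
    (h𝔪 : 𝔪 ≠ ⊤) (hp : (p : integralClosure ℤ ℂ) ∈ 𝔪) :
    CharP (integralClosure ℤ ℂ ⧸ 𝔪) p := by
  have : Nontrivial (integralClosure ℤ ℂ ⧸ 𝔪) := Ideal.Quotient.nontrivial_iff.mpr h𝔪
  refine (CharP.charP_iff_prime_eq_zero hpF.out).mpr ?_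
  have : Ideal.Quotient.mk 𝔪 (p : integralClosure ℤ ℂ) = 0 :=
    Ideal.Quotient.eq_zero_iff_mem.mpr hp
  rwa [map_natCast] at this

/-- **THETA.**  The residual eigen-character with values in `ZMod p`. -/
theorem exists_theta (p : ℕ) [hpF : Fact p.Prime] (S : Set ℕ)
    (hS : ∀ q : ℕ, q.Prime → q ∣ N → q ∈ S)
    {f₀ : CuspForm (Gamma0 N) 2} (hf₀ : f₀.IsNormalizedEigenform)
    (𝔪 : Ideal (integralClosure ℤ ℂ)) (h𝔪 : 𝔪.IsMaximal)
    (hp : (p : integralClosure ℤ ℂ) ∈ 𝔪) (a : ℕ → ℤ)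
    (hcong : ∀ ℓ : ℕ, ℓ.Prime → ¬ ℓ ∣ N → ℓ ∉ S →
      ∃ b : integralClosure ℤ ℂ, (b : ℂ) = qCoeff f₀ ℓ ∧
        b - ((a ℓ : ℤ) : integralClosure ℤ ℂ) ∈ 𝔪) :
    haveI := charP_quotient p 𝔪 h𝔪.ne_top hp
    ∃ θ : heckeAlgebra N 2 S →+* ZMod p,
      (∀ (ℓ : ℕ) (hℓ : ℓ.Prime) (hℓN : ¬ ℓ ∣ N) (hℓS : ℓ ∉ S),
        θ (heckeAlgebra.T hℓ hℓN hℓS) = ((a ℓ : ℤ) : ZMod p)) ∧
      ∀ T : heckeAlgebra N 2 S,
        ZMod.castHom (dvd_refl p) (integralClosure ℤ ℂ ⧸ 𝔪) (θ T) = eigenCharMod S hf₀ 𝔪 T := by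
  have hchar := charP_quotient p 𝔪 h𝔪.ne_top hp
  let _ : Field (integralClosure ℤ ℂ ⧸ 𝔪) := Ideal.Quotient.field 𝔪
  set ι : ZMod p →+* (integralClosure ℤ ℂ ⧸ 𝔪) :=
    ZMod.castHom (dvd_refl p) (integralClosure ℤ ℂ ⧸ 𝔪) with hι
  have hιinj : Function.Injective ι := ι.injective
  set ψ : heckeAlgebra N 2 S →+* (integralClosure ℤ ℂ ⧸ 𝔪) := eigenCharMod S hf₀ 𝔪 with hψ
  -- the values of `ψ` lie in the prime field
  have hrange : ∀ T : heckeAlgebra N 2 S, ψ T ∈ ι.range := by
    rintro ⟨T, hT⟩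
    induction hT using Algebra.adjoin_induction with
    | mem x hx =>
      rcases hx with ⟨ℓ, hℓ, hℓN, hℓS, rfl⟩ | ⟨q, hqN, hq, hqS, rfl⟩
      · refine ⟨((a ℓ : ℤ) : ZMod p), ?_⟩
        rw [map_intCast]
        exact (eigenCharMod_T S hf₀ 𝔪 (a ℓ) hℓ hℓN hℓS (hcong ℓ hℓ hℓN hℓS)).symm
      · exact absurd (hS q hq hqN) hqS
    | algebraMap r =>
      refine ⟨(r : ZMod p), ?_⟩
      rw [map_intCast]
      have : (⟨algebraMap ℤ _ r, Subalgebra.algebraMap_mem _ r⟩ : heckeAlgebra N 2 S) =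
          ((r : ℤ) : heckeAlgebra N 2 S) := by
        apply Subtype.ext
        simp
      rw [this, map_intCast]
    | add x y hx hy ihx ihy =>
      have : (⟨x + y, Subalgebra.add_mem _ hx hy⟩ : heckeAlgebra N 2 S) =
          (⟨x, hx⟩ : heckeAlgebra N 2 S) + ⟨y, hy⟩ := rfl
      rw [this, map_add]
      exact ι.range.add_mem ihx ihy
    | mul x y hx hy ihx ihy =>
      have : (⟨x * y, Subalgebra.mul_mem _ hx hy⟩ : heckeAlgebra N 2 S) =
          (⟨x, hx⟩ : heckeAlgebra N 2 S) * ⟨y, hy⟩ := rfl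
      rw [this, map_mul]
      exact ι.range.mul_mem ihx ihy
  let e : ZMod p ≃+* ι.range := RingEquiv.ofBijective ι.rangeRestrict
    ⟨fun x y hxy => hιinj (congrArg Subtype.val hxy), ι.rangeRestrict_surjective⟩
  let θ : heckeAlgebra N 2 S →+* ZMod p :=
    (e.symm : ι.range →+* ZMod p).comp (ψ.codRestrict ι.range hrange)
  have hθ : ∀ T, ι (θ T) = ψ T := by
    intro T
    have h1 : e (θ T) = ψ.codRestrict ι.range hrange T := by
      simp only [θ, RingHom.comp_apply, RingHom.coe_coe, RingEquiv.apply_symm_apply]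
    exact congrArg Subtype.val h1
  refine ⟨θ, ?_, hθ⟩
  intro ℓ hℓ hℓN hℓS
  apply hιinj
  rw [hθ, map_intCast]
  exact eigenCharMod_T S hf₀ 𝔪 (a ℓ) hℓ hℓN hℓS (hcong ℓ hℓ hℓN hℓS)

/-- **THETA**, with values in the residue field of a local ring of residue characteristic `p`. -/
theorem exists_theta_residue (p : ℕ) [hpF : Fact p.Prime] (S : Set ℕ)
    (hS : ∀ q : ℕ, q.Prime → q ∣ N → q ∈ S)
    {f₀ : CuspForm (Gamma0 N) 2} (hf₀ : f₀.IsNormalizedEigenform)
    (𝔪 : Ideal (integralClosure ℤ ℂ)) (h𝔪 : 𝔪.IsMaximal)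
    (hp : (p : integralClosure ℤ ℂ) ∈ 𝔪) (a : ℕ → ℤ)
    (hcong : ∀ ℓ : ℕ, ℓ.Prime → ¬ ℓ ∣ N → ℓ ∉ S →
      ∃ b : integralClosure ℤ ℂ, (b : ℂ) = qCoeff f₀ ℓ ∧
        b - ((a ℓ : ℤ) : integralClosure ℤ ℂ) ∈ 𝔪)
    (𝒪 : Type*) [CommRing 𝒪] [IsLocalRing 𝒪] (hp𝒪 : (p : 𝒪) ∈ maximalIdeal 𝒪) :
    ∃ θ : heckeAlgebra N 2 S →+* ResidueField 𝒪,
      ∀ (ℓ : ℕ) (hℓ : ℓ.Prime) (hℓN : ¬ ℓ ∣ N) (hℓS : ℓ ∉ S),
        θ (heckeAlgebra.T hℓ hℓN hℓS) = residue 𝒪 ((a ℓ : ℤ) : 𝒪) := by
  obtain ⟨θ, hθ, -⟩ := exists_theta p S hS hf₀ 𝔪 h𝔪 hp a hcong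
  have hchar : CharP (ResidueField 𝒪) p := by
    refine (CharP.charP_iff_prime_eq_zero hpF.out).mpr ?_
    have : residue 𝒪 (p : 𝒪) = 0 := (residue_eq_zero_iff _).mpr hp𝒪
    rwa [map_natCast] at this
  refine ⟨(ZMod.castHom (dvd_refl p) (ResidueField 𝒪)).comp θ, ?_⟩
  intro ℓ hℓ hℓN hℓS
  rw [RingHom.comp_apply, hθ, map_intCast, map_intCast]

/-- **Stmt_Theta** (shape of helper53, 23:38Z, with the additional hypothesis `hS` that `S`
contains the primes dividing `N`: without it the Hecke algebra contains the operators `U_q`,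
whose eigenvalues modulo `𝔪` need not lie in the residue field of `𝒪`). -/
def Stmt_Theta : Prop :=
  ∀ (p : ℕ) [Fact p.Prime] (𝒪 : Type) [CommRing 𝒪] [IsLocalRing 𝒪],
    (p : 𝒪) ∈ maximalIdeal 𝒪 →
    ∀ (N : ℕ) [NeZero N] (S : Set ℕ), (∀ q : ℕ, q.Prime → q ∣ N → q ∈ S) →
    ∀ (a : ℕ → ℤ) (f₀ : CuspForm (Gamma0 N) 2) (𝔪 : Ideal (integralClosure ℤ ℂ)),
      f₀.IsNormalizedEigenform → 𝔪.IsMaximal → (p : integralClosure ℤ ℂ) ∈ 𝔪 →
      (∀ ℓ : ℕ, ℓ.Prime → ℓ ∉ S → ¬ ℓ ∣ N →
        ∃ b : integralClosure ℤ ℂ, (b : ℂ) = qCoeff f₀ ℓ ∧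
          b - ((a ℓ : ℤ) : integralClosure ℤ ℂ) ∈ 𝔪) →
      ∃ θ : heckeAlgebra N 2 S →+* ResidueField 𝒪,
        ∀ (ℓ : ℕ) (hℓ : ℓ.Prime) (hℓN : ¬ ℓ ∣ N) (hℓS : ℓ ∉ S),
          θ (heckeAlgebra.T hℓ hℓN hℓS) = ((a ℓ : ℤ) : ResidueField 𝒪)

theorem stmt_Theta : Stmt_Theta := by
  intro p _ 𝒪 _ _ hp𝒪 N _ S hS a f₀ 𝔪 hf₀ h𝔪 hp hcong
  obtain ⟨θ, hθ⟩ := exists_theta_residue p S hS hf₀ 𝔪 h𝔪 hp a
    (fun ℓ hℓ hℓN hℓS => hcong ℓ hℓ hℓS hℓN) 𝒪 hp𝒪
  refine ⟨θ, fun ℓ hℓ hℓN hℓS => ?_⟩
  rw [hθ ℓ hℓ hℓN hℓS, map_intCast]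

end Fermat.Agent.S59.H99

end
-- ==== END Fermat.Agent.S59.H99_Theta

-- ==== BEGIN Fermat.Agent.S59.LL.Defs
section

/-!
# S59, package LL (helper40): level optimisation, elliptic-curve form

Plan: `NOTES/plan/S59_LL.md`.  Everything here is hypothesis-parametric (no unfinished statement
is imported).

* `Stmt_S38` : the frozen type of S38 (remove a prime `q ≠ p`, `q ∥ M`, `M` squarefree, at which
  `E[p]` is unramified).
* `Stmt_S39` : the frozen type of S39 (remove `p ∥ M` when `p ∣ v_p(Δ)`).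
* `Stmt_SQ`  : SQUARE removal: `q² ∥ M`, `q ≠ p`  ⟹  level `M / q`.  (NEW package, no exceptional
  case; see the plan.)
* `Stmt_LLec` : a semistable curve with irreducible `E[p]` which is residually modular of a level
  `M₀` (`p² ∤ M₀`, cube-free away from `p`) is residually modular of a squarefree level `N ∣ M₀`
  such that `E[p]` is ramified at every prime `q ≠ p` dividing `N`, and `p ∤ v_p(Δ)` if `p ∣ N`.
* `llec_of : Stmt_SQ → Stmt_S38 → Stmt_S39 → Stmt_LLec` (bookkeeping, proved here).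
-/

set_option autoImplicit false

open WeierstrassCurve WeierstrassCurve.Affine WeierstrassCurve.Affine.Point

namespace Fermat.Agent.S59.LL

/-- The frozen type of S38. -/
def Stmt_S38 : Prop :=
  ∀ (p : ℕ) [Fact p.Prime] (_hp2 : p ≠ 2) (W : WeierstrassCurve ℤ) (_hΔ : W.Δ ≠ 0)
    (_hW : W.IsSemistableModel)
    (hcard₁ : Nat.card (Submodule.torsionBy ℤ
      ((W.map (Int.castRingHom ℚ))⁄(AlgebraicClosure ℚ)).Point p) = p ^ 2)
    (hker : GaloisFactorsThroughFiniteLevel
      (WeierstrassCurve.Affine.Point.galoisRepModuleEnd (K := AlgebraicClosure ℚ) ℚ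
        (W.map (Int.castRingHom ℚ)) p))
    (_hirr : W.ModRepIsIrreducible p) (M q : ℕ) (_hq : q.Prime) (_hqp : q ≠ p)
    (_hqM : q ∣ M) (_hq2 : ¬ q ^ 2 ∣ M) (_hM : Squarefree M)
    (_hunr : ((W.map (Int.castRingHom ℚ)).residualGaloisRepOf p hcard₁ hker).IsUnramifiedAt q)
    (_hres : W.IsResiduallyModularOfLevel p M),
    W.IsResiduallyModularOfLevel p (M / q)

/-- The frozen type of S39. -/
def Stmt_S39 : Prop :=
  ∀ (W : WeierstrassCurve ℤ) (_hΔ : W.Δ ≠ 0)
    {p : ℕ} (_hp : p.Prime) (_hp2 : p ≠ 2)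
    (_hsemi : (p : ℤ) ∣ W.Δ → ¬ (p : ℤ) ∣ W.c₄)
    (_hirr : W.ModRepIsIrreducible p)
    (_hfin : (W.map (Int.castRingHom ℚ)).IsPeuRamifieeAt p p)
    {M : ℕ} (_hM : 0 < M) (_hpM : p ∣ M) (_hp2M : ¬ p ^ 2 ∣ M)
    (_hmod : W.IsResiduallyModularOfLevel p M),
    W.IsResiduallyModularOfLevel p (M / p)

/-- **SQUARE removal.**  `q² ∥ M`, `q ≠ p`: the level can be divided by `q`.  (For a semistable
curve the inertia group at `q` acts unipotently on `E[p]`, so `E[p]` has a nonzero inertia-fixed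
vector; this is all that is used.) -/
def Stmt_SQ : Prop :=
  ∀ (p : ℕ) [Fact p.Prime] (_hp2 : p ≠ 2) (W : WeierstrassCurve ℤ) (_hΔ : W.Δ ≠ 0)
    (_hW : W.IsSemistableModel) (_hirr : W.ModRepIsIrreducible p) (M q : ℕ) (_hq : q.Prime)
    (_hqp : q ≠ p) (_hq2 : q ^ 2 ∣ M) (_hq3 : ¬ q ^ 3 ∣ M)
    (_hres : W.IsResiduallyModularOfLevel p M),
    W.IsResiduallyModularOfLevel p (M / q)

/-- **LL, elliptic-curve form.** -/
def Stmt_LLec : Prop :=
  ∀ (p : ℕ) [Fact p.Prime] (_hp2 : p ≠ 2) (W : WeierstrassCurve ℤ) (_hΔ : W.Δ ≠ 0)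
    (_hW : W.IsSemistableModel)
    (hcard₁ : Nat.card (Submodule.torsionBy ℤ
      ((W.map (Int.castRingHom ℚ))⁄(AlgebraicClosure ℚ)).Point p) = p ^ 2)
    (hker : GaloisFactorsThroughFiniteLevel
      (WeierstrassCurve.Affine.Point.galoisRepModuleEnd (K := AlgebraicClosure ℚ) ℚ
        (W.map (Int.castRingHom ℚ)) p))
    (_hirr : W.ModRepIsIrreducible p) (M₀ : ℕ) (_hM₀ : M₀ ≠ 0) (_hpM₀ : ¬ p ^ 2 ∣ M₀)
    (_hcube : ∀ q : ℕ, q.Prime → q ≠ p → ¬ q ^ 3 ∣ M₀)
    (_hres : W.IsResiduallyModularOfLevel p M₀),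
    ∃ N : ℕ, N ∣ M₀ ∧ Squarefree N ∧ W.IsResiduallyModularOfLevel p N ∧
      (∀ q : ℕ, q.Prime → q ≠ p → q ∣ N →
        ¬ ((W.map (Int.castRingHom ℚ)).residualGaloisRepOf p hcard₁ hker).IsUnramifiedAt q) ∧
      (p ∣ N → ¬ (W.map (Int.castRingHom ℚ)).IsPeuRamifieeAt p p)

/-- Bookkeeping: SQUARE removal, S38 and S39 give LL. -/
theorem llec_of (hSQ : Stmt_SQ) (h38 : Stmt_S38) (h39 : Stmt_S39) : Stmt_LLec := by
  classical
  intro p hpF hp2 W hΔ hW hcard₁ hker hirr
  have hp : p.Prime := hpF.out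
  -- strong induction on the level
  suffices H : ∀ n : ℕ, ∀ M : ℕ, M ≤ n → M ≠ 0 → ¬ p ^ 2 ∣ M →
      (∀ q : ℕ, q.Prime → q ≠ p → ¬ q ^ 3 ∣ M) → W.IsResiduallyModularOfLevel p M →
      ∃ N : ℕ, N ∣ M ∧ Squarefree N ∧ W.IsResiduallyModularOfLevel p N ∧
        (∀ q : ℕ, q.Prime → q ≠ p → q ∣ N →
          ¬ ((W.map (Int.castRingHom ℚ)).residualGaloisRepOf p hcard₁ hker).IsUnramifiedAt q) ∧
        (p ∣ N → ¬ (W.map (Int.castRingHom ℚ)).IsPeuRamifieeAt p p) by
    intro M₀ hM₀ hpM₀ hcube hres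
    exact H M₀ M₀ le_rfl hM₀ hpM₀ hcube hres
  intro n
  induction n with
  | zero =>
    intro M hM hM0
    exact absurd (Nat.le_zero.mp hM) hM0
  | succ n ih =>
    intro M hMn hM0 hpM hcube hres
    -- a helper: passing to a proper divisor `M / q`
    have step : ∀ q : ℕ, q.Prime → q ∣ M → W.IsResiduallyModularOfLevel p (M / q) →
        ∃ N : ℕ, N ∣ M ∧ Squarefree N ∧ W.IsResiduallyModularOfLevel p N ∧
          (∀ q : ℕ, q.Prime → q ≠ p → q ∣ N →
            ¬ ((W.map (Int.castRingHom ℚ)).residualGaloisRepOf p hcard₁ hker).IsUnramifiedAt q) ∧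
          (p ∣ N → ¬ (W.map (Int.castRingHom ℚ)).IsPeuRamifieeAt p p) := by
      intro q hq hqM hres'
      have hdvd : M / q ∣ M := Nat.div_dvd_of_dvd hqM
      have hlt : M / q < M := Nat.div_lt_self (Nat.pos_of_ne_zero hM0) hq.one_lt
      have hne : M / q ≠ 0 := by
        intro h0
        have hqle : q ≤ M := Nat.le_of_dvd (Nat.pos_of_ne_zero hM0) hqM
        have := (Nat.div_eq_zero_iff).mp h0
        rcases this with h | h
        · exact hq.ne_zero h
        · omega
      obtain ⟨N, hNM, hsq, hresN, hram, hpN⟩ := ih (M / q) (by omega) hne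
        (fun h => hpM (h.trans hdvd))
        (fun r hr hrp h => hcube r hr hrp (h.trans hdvd)) hres'
      exact ⟨N, hNM.trans hdvd, hsq, hresN, hram, hpN⟩
    by_cases hsqr : ∃ q : ℕ, q.Prime ∧ q ≠ p ∧ q ^ 2 ∣ M
    · obtain ⟨q, hq, hqp, hq2⟩ := hsqr
      exact step q hq ((dvd_pow_self q two_ne_zero).trans hq2)
        (hSQ p hp2 W hΔ hW hirr M q hq hqp hq2 (hcube q hq hqp) hres)
    · push Not at hsqr
      have hMsq : Squarefree M := by
        rw [Nat.squarefree_iff_prime_squarefree]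
        intro r hr hrr
        by_cases hrp : r = p
        · subst hrp
          exact hpM (by rwa [pow_two])
        · exact hsqr r hr hrp (by rwa [pow_two])
      by_cases hunr : ∃ q : ℕ, q.Prime ∧ q ≠ p ∧ q ∣ M ∧
          ((W.map (Int.castRingHom ℚ)).residualGaloisRepOf p hcard₁ hker).IsUnramifiedAt q
      · obtain ⟨q, hq, hqp, hqM, hu⟩ := hunr
        have hq2 : ¬ q ^ 2 ∣ M := fun h => hsqr q hq hqp h
        exact step q hq hqM (h38 p hp2 W hΔ hW hcard₁ hker hirr M q hq hqp hqM hq2 hMsq hu hres)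
      · push Not at hunr
        by_cases hpp : p ∣ M ∧ (W.map (Int.castRingHom ℚ)).IsPeuRamifieeAt p p
        · obtain ⟨hpdvd, hfin⟩ := hpp
          exact step p hp hpdvd
            (h39 W hΔ hp hp2 (hW p hp) hirr hfin (Nat.pos_of_ne_zero hM0) hpdvd hpM hres)
        · refine ⟨M, dvd_rfl, hMsq, hres, fun q hq hqp hqM => hunr q hq hqp hqM, fun hpdvd hfin =>
            hpp ⟨hpdvd, hfin⟩⟩

end Fermat.Agent.S59.LL

end
-- ==== END Fermat.Agent.S59.LL.Defs

-- ==== BEGIN Fermat.Agent.S59.Lim.H2_Dec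
section

/-!
# S59, package LIM, leaf LIM-DEC (helper2), torsion form

`F` an endomorphism of an `R`-module `W`, `a a' : R` with `a - a'` a unit, and
`(F - a)(F - a')` locally nilpotent on `W`.  Then `W` is the direct sum of the generalised
eigenspaces `W^α = F.maxGenEigenspace a` and `W^β = F.maxGenEigenspace a'`; they are stable
under everything commuting with `F`.  No finiteness, no Hensel.

* `exists_bezout_pow`, `isCompl_maxGenEigenspace`, `locNil_of_torsion`,
  `pow_apply_eq_zero_of_mem_maxGenEigenspace`.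
* `tate_dec` : the decomposition `T_ϖ W = T_ϖ W^α ⊕ T_ϖ W^β` with all the clauses asked by
  `S59.Asm.TWGeom` (`isCompl`, stability, `Vα_nil`, `Vβ_nil`).

This file contains no `sorry`.
-/

set_option autoImplicit false
set_option linter.style.haveILetI false
set_option linter.unusedSectionVars false
set_option linter.unusedVariables false

noncomputable section

open IsLocalRing Polynomial Module

namespace Fermat.Agent.S59.Lim.H2

section Dec

variable {R : Type*} [CommRing R] {W : Type*} [AddCommGroup W] [Module R W]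

/-- Powers of `X - a` and `X - a'` are comaximal if `a - a'` is a unit. -/
theorem exists_bezout_pow (a a' : R) (hu : IsUnit (a - a')) (m n : ℕ) :
    ∃ A B : R[X], A * (X - C a) ^ m + B * (X - C a') ^ n = 1 := by
  have h : IsCoprime (X - C a : R[X]) (X - C a') := by
    obtain ⟨u, hu⟩ := hu
    refine ⟨-C ((u⁻¹ : Rˣ) : R), C ((u⁻¹ : Rˣ) : R), ?_⟩
    have h1 : (C ((u⁻¹ : Rˣ) : R) : R[X]) * C (a - a') = 1 := by
      rw [← C_mul, ← hu, Units.inv_mul, C_1]
    rw [C_sub] at h1
    linear_combination h1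
  exact h.pow

theorem aeval_X_sub_C (F : End R W) (a : R) :
    aeval F (X - C a : R[X]) = F - a • (1 : End R W) := by
  rw [map_sub, aeval_X, aeval_C, Algebra.algebraMap_eq_smul_one]

theorem disjoint_maxGenEigenspace (F : End R W) (a a' : R) (hu : IsUnit (a - a')) :
    Disjoint (F.maxGenEigenspace a) (F.maxGenEigenspace a') := by
  rw [Submodule.disjoint_def]
  intro w hw hw'
  obtain ⟨m, hm⟩ := (End.mem_maxGenEigenspace F a w).mp hw
  obtain ⟨n, hn⟩ := (End.mem_maxGenEigenspace F a' w).mp hw'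
  obtain ⟨A, B, hAB⟩ := exists_bezout_pow a a' hu m n
  have h1 := congrArg (fun p => aeval F p w) hAB
  simp only [map_add, map_mul, map_pow, aeval_X_sub_C, map_one, LinearMap.add_apply,
    Module.End.mul_apply, hm, hn, _root_.map_zero, add_zero, Module.End.one_apply] at h1
  exact h1.symm

theorem codisjoint_maxGenEigenspace (F : End R W) (a a' : R) (hu : IsUnit (a - a'))
    (hnil : ∀ w : W, ∃ m : ℕ, (((F - a • (1 : End R W)) * (F - a' • (1 : End R W))) ^ m) w = 0) :
    Codisjoint (F.maxGenEigenspace a) (F.maxGenEigenspace a') := by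
  rw [codisjoint_iff, eq_top_iff]
  rintro w -
  obtain ⟨m, hm⟩ := hnil w
  obtain ⟨A, B, hAB⟩ := exists_bezout_pow a a' hu m m
  have hm' : aeval F (((X - C a) * (X - C a')) ^ m : R[X]) w = 0 := by
    rw [map_pow, map_mul, aeval_X_sub_C, aeval_X_sub_C]
    exact hm
  have h1 : w = aeval F (B * (X - C a') ^ m) w + aeval F (A * (X - C a) ^ m) w := by
    have := congrArg (fun p => aeval F p w) hAB
    simp only [map_add, LinearMap.add_apply, map_one, Module.End.one_apply] at this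
    rw [add_comm]
    exact this.symm
  rw [h1]
  refine Submodule.add_mem_sup ?_ ?_
  · rw [End.mem_maxGenEigenspace]
    refine ⟨m, ?_⟩
    have h2 : ((F - a • (1 : End R W)) ^ m) (aeval F (B * (X - C a') ^ m) w)
        = aeval F B (aeval F (((X - C a) * (X - C a')) ^ m : R[X]) w) := by
      rw [← aeval_X_sub_C, ← map_pow, ← Module.End.mul_apply, ← map_mul,
        ← Module.End.mul_apply, ← map_mul]
      congr 2
      rw [mul_pow]
      ring
    rw [h2, hm', _root_.map_zero]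
  · rw [End.mem_maxGenEigenspace]
    refine ⟨m, ?_⟩
    have h2 : ((F - a' • (1 : End R W)) ^ m) (aeval F (A * (X - C a) ^ m) w)
        = aeval F A (aeval F (((X - C a) * (X - C a')) ^ m : R[X]) w) := by
      rw [← aeval_X_sub_C, ← map_pow, ← Module.End.mul_apply, ← map_mul,
        ← Module.End.mul_apply, ← map_mul]
      congr 2
      rw [mul_pow]
      ring
    rw [h2, hm', _root_.map_zero]

/-- **LIM-DEC**, torsion form. -/
theorem isCompl_maxGenEigenspace (F : End R W) (a a' : R) (hu : IsUnit (a - a'))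
    (hnil : ∀ w : W, ∃ m : ℕ, (((F - a • (1 : End R W)) * (F - a' • (1 : End R W))) ^ m) w = 0) :
    IsCompl (F.maxGenEigenspace a) (F.maxGenEigenspace a') :=
  ⟨disjoint_maxGenEigenspace F a a' hu, codisjoint_maxGenEigenspace F a a' hu hnil⟩

/-- An operator which is nilpotent on `W[ϖ]` is locally nilpotent on a `ϖ`-power torsion
module. -/
theorem pow_mul_apply_eq_zero (ϖ : R) (B : End R W) (N : ℕ)
    (hB : ∀ w : W, ϖ • w = 0 → (B ^ N) w = 0) (k : ℕ) (w : W) (hw : ϖ ^ k • w = 0) :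
    (B ^ (N * k)) w = 0 := by
  induction k generalizing w with
  | zero => simpa using hw
  | succ k ih =>
    rw [pow_succ, mul_smul] at hw
    have h1 : ϖ • (B ^ (N * k)) w = 0 := by
      rw [← map_smul]
      have := ih (ϖ • w) hw
      exact this
    have h2 := hB _ h1
    rw [← Module.End.mul_apply, ← pow_add] at h2
    rw [Nat.mul_succ, add_comm]
    exact h2

theorem locNil_of_torsion (ϖ : R) (htors : ∀ w : W, ∃ k : ℕ, ϖ ^ k • w = 0) (B : End R W)
    (N : ℕ) (hB : ∀ w : W, ϖ • w = 0 → (B ^ N) w = 0) (w : W) : ∃ m : ℕ, (B ^ m) w = 0 := by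
  obtain ⟨k, hk⟩ := htors w
  exact ⟨N * k, pow_mul_apply_eq_zero ϖ B N hB k w hk⟩

/-- On the generalised `a`-eigenspace, `((F - a)(F - a'))^N w = 0` forces `(F - a)^N w = 0`. -/
theorem pow_apply_eq_zero_of_mem_maxGenEigenspace (F : End R W) (a a' : R)
    (hu : IsUnit (a - a')) (N : ℕ) (w : W) (hw : w ∈ F.maxGenEigenspace a)
    (h : (((F - a • (1 : End R W)) * (F - a' • (1 : End R W))) ^ N) w = 0) :
    ((F - a • (1 : End R W)) ^ N) w = 0 := by
  have hc : Commute (F - a • (1 : End R W)) (F - a' • (1 : End R W)) := by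
    have h1 : Commute F (a • (1 : End R W)) := by
      rw [← Algebra.algebraMap_eq_smul_one]
      exact (Algebra.commutes a F).symm
    have h2 : Commute F (a' • (1 : End R W)) := by
      rw [← Algebra.algebraMap_eq_smul_one]
      exact (Algebra.commutes a' F).symm
    exact ((Commute.refl F).sub_right h2).sub_left (h1.symm.sub_right
      (by
        rw [← Algebra.algebraMap_eq_smul_one, ← Algebra.algebraMap_eq_smul_one]
        exact Algebra.commutes a _))
  set v := ((F - a • (1 : End R W)) ^ N) w with hv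
  have hvα : v ∈ F.maxGenEigenspace a := by
    obtain ⟨m, hm⟩ := (End.mem_maxGenEigenspace F a w).mp hw
    rw [End.mem_maxGenEigenspace]
    refine ⟨m, ?_⟩
    rw [hv, ← Module.End.mul_apply, ← pow_add, add_comm, pow_add, Module.End.mul_apply, hm,
      _root_.map_zero]
  have hvβ : v ∈ F.maxGenEigenspace a' := by
    rw [End.mem_maxGenEigenspace]
    refine ⟨N, ?_⟩
    rw [hv, ← Module.End.mul_apply, ← (hc.pow_pow N N).eq, ← hc.mul_pow]
    exact h
  have := (Submodule.disjoint_def.mp (disjoint_maxGenEigenspace F a a' hu)) v hvα hvβ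
  exact this

theorem pow_apply_eq_zero_of_mem_maxGenEigenspace' (F : End R W) (a a' : R)
    (hu : IsUnit (a - a')) (N : ℕ) (w : W) (hw : w ∈ F.maxGenEigenspace a')
    (h : (((F - a • (1 : End R W)) * (F - a' • (1 : End R W))) ^ N) w = 0) :
    ((F - a' • (1 : End R W)) ^ N) w = 0 := by
  have hu' : IsUnit (a' - a) := by
    have : a' - a = -(a - a') := by ring
    rw [this]
    exact hu.neg
  have hc : (F - a • (1 : End R W)) * (F - a' • (1 : End R W))
      = (F - a' • (1 : End R W)) * (F - a • (1 : End R W)) := by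
    simp only [mul_sub, sub_mul, smul_mul_assoc, mul_smul_comm, one_mul, mul_one, smul_sub]
    rw [smul_comm a a']
    abel
  rw [hc] at h
  exact pow_apply_eq_zero_of_mem_maxGenEigenspace F a' a hu' N w hw h

end Dec

section TateDec

variable {𝒪 : Type*} [CommRing 𝒪] [IsLocalRing 𝒪] {ϖ : 𝒪}
  {W : Type*} [AddCommGroup W] [Module 𝒪 W]

theorem isUnit_sub_of_residue_ne {a a' : 𝒪} (h : residue 𝒪 a ≠ residue 𝒪 a') :
    IsUnit (a - a') := by
  by_contra hcon
  apply h
  have : a - a' ∈ maximalIdeal 𝒪 := (IsLocalRing.mem_maximalIdeal _).mpr hcon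
  have h2 := (residue_eq_zero_iff (a - a')).mpr this
  rw [map_sub] at h2
  exact sub_eq_zero.mp h2

theorem mapEnd_sub_smul_pow (F : End 𝒪 W) (a : 𝒪) (N : ℕ) :
    (mapEnd ϖ W F - a • (1 : End 𝒪 (tate ϖ W))) ^ N
      = mapEnd ϖ W ((F - a • (1 : End 𝒪 W)) ^ N) := by
  rw [map_pow, map_sub, map_smul, map_one]

/-- **LIM-DEC** at the Tate level: `T_ϖ W = T_ϖ W^α ⊕ T_ϖ W^β`, with the clauses of
`S59.Asm.TWGeom`. -/
theorem tate_dec (hϖ : ϖ ∈ maximalIdeal 𝒪) (htors : ∀ w : W, ∃ k : ℕ, ϖ ^ k • w = 0)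
    (F : End 𝒪 W) (a a' : 𝒪) (hu : IsUnit (a - a')) (N : ℕ)
    (hN : ∀ w : W, ϖ • w = 0 →
      (((F - a • (1 : End 𝒪 W)) * (F - a' • (1 : End 𝒪 W))) ^ N) w = 0) :
    IsCompl (tateSub ϖ (F.maxGenEigenspace a)) (tateSub ϖ (F.maxGenEigenspace a')) ∧
    (∀ G : End 𝒪 W, Commute F G → ∀ v ∈ tateSub ϖ (F.maxGenEigenspace a),
      mapEnd ϖ W G v ∈ tateSub ϖ (F.maxGenEigenspace a)) ∧
    (∀ G : End 𝒪 W, Commute F G → ∀ v ∈ tateSub ϖ (F.maxGenEigenspace a'),
      mapEnd ϖ W G v ∈ tateSub ϖ (F.maxGenEigenspace a')) ∧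
    (∀ v ∈ tateSub ϖ (F.maxGenEigenspace a),
      ((mapEnd ϖ W F - a • (1 : End 𝒪 (tate ϖ W))) ^ N) v ∈
        (maximalIdeal 𝒪 • ⊤ : Submodule 𝒪 (tate ϖ W))) ∧
    (∀ v ∈ tateSub ϖ (F.maxGenEigenspace a'),
      ((mapEnd ϖ W F - a' • (1 : End 𝒪 (tate ϖ W))) ^ N) v ∈
        (maximalIdeal 𝒪 • ⊤ : Submodule 𝒪 (tate ϖ W))) := by
  have hnil := locNil_of_torsion ϖ htors _ N hN
  have hϖ1 : ∀ v : tate ϖ W, ϖ • ev ϖ W 1 v = 0 := by
    intro v
    have := pow_smul_ev 1 v
    rwa [pow_one] at this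
  refine ⟨isCompl_tateSub (isCompl_maxGenEigenspace F a a' hu hnil), ?_, ?_, ?_, ?_⟩
  · intro G hG v hv
    exact map_mem_tateSub G (fun w hw => End.mapsTo_maxGenEigenspace_of_comm hG a hw) hv
  · intro G hG v hv
    exact map_mem_tateSub G (fun w hw => End.mapsTo_maxGenEigenspace_of_comm hG a' hw) hv
  · intro v hv
    rw [mapEnd_sub_smul_pow]
    apply map_mem_maximalIdeal_smul_of_ev_one hϖ
    exact pow_apply_eq_zero_of_mem_maxGenEigenspace F a a' hu N _ (mem_tateSub.mp hv 1)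
      (hN _ (hϖ1 v))
  · intro v hv
    rw [mapEnd_sub_smul_pow]
    apply map_mem_maximalIdeal_smul_of_ev_one hϖ
    exact pow_apply_eq_zero_of_mem_maxGenEigenspace' F a a' hu N _ (mem_tateSub.mp hv 1)
      (hN _ (hϖ1 v))

end TateDec

end Fermat.Agent.S59.Lim.H2

end
end
-- ==== END Fermat.Agent.S59.Lim.H2_Dec

-- ==== BEGIN Fermat.Agent.S59.Lim.H2_TateGal
section

/-!
# S59, package LIM, leaf LIM-TATE (helper2), part 3: the Galois action on the Tate module

* `tateGal ϖ gal : G →* End 𝒪 (tate ϖ W)` for `gal : G →* End 𝒪 W`.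
* `adicContinuous_tateGal` : if every `W[ϖ^n]` is fixed pointwise by the Galois group of a
  number field, then the action on `T_ϖ W` is adically continuous (prelude
  `GaloisActionIsAdicContinuous`).

This file contains no `sorry`.
-/

set_option autoImplicit false
set_option linter.style.haveILetI false
set_option linter.unusedSectionVars false
set_option linter.unusedVariables false

noncomputable section

open IsLocalRing Module

namespace Fermat.Agent.S59.Lim.H2

section Gal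

variable {𝒪 : Type*} [CommRing 𝒪] (ϖ : 𝒪) {W : Type*} [AddCommGroup W] [Module 𝒪 W]
  {G : Type*} [Monoid G]

/-- The induced action on the Tate module. -/
def tateGal (gal : G →* End 𝒪 W) : G →* End 𝒪 (tate ϖ W) :=
  ((mapEnd ϖ W : End 𝒪 W →ₐ[𝒪] End 𝒪 (tate ϖ W)) : End 𝒪 W →* End 𝒪 (tate ϖ W)).comp gal

variable {ϖ}

@[simp] theorem tateGal_apply (gal : G →* End 𝒪 W) (g : G) :
    tateGal ϖ gal g = map ϖ (gal g) := rfl

@[simp] theorem ev_tateGal (gal : G →* End 𝒪 W) (g : G) (k : ℕ) (x : tate ϖ W) :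
    ev ϖ W k (tateGal ϖ gal g x) = gal g (ev ϖ W k x) := rfl

theorem commute_map {f g : End 𝒪 W} (h : Commute f g) :
    Commute (map ϖ f) (map ϖ g) := by
  have := h.map (mapEnd ϖ W)
  exact this

end Gal

section Cont

variable {𝒪 : Type} [CommRing 𝒪] [IsDomain 𝒪] [IsDiscreteValuationRing 𝒪] {ϖ : 𝒪}
  {W : Type} [AddCommGroup W] [Module 𝒪 W]

/-- Adic continuity of the Galois action on the Tate module. -/
theorem adicContinuous_tateGal (hϖ : Irreducible ϖ)
    (gal : (AlgebraicClosure ℚ ≃ₐ[ℚ] AlgebraicClosure ℚ) →* End 𝒪 W)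
    (h : ∀ n : ℕ, ∃ L : IntermediateField ℚ (AlgebraicClosure ℚ), FiniteDimensional ℚ L ∧
      ∀ σ : AlgebraicClosure ℚ ≃ₐ[ℚ] AlgebraicClosure ℚ, (∀ x ∈ L, σ x = x) →
        ∀ w : W, ϖ ^ n • w = 0 → gal σ w = w) :
    GaloisActionIsAdicContinuous 𝒪 (tateGal ϖ gal) := by
  intro n
  obtain ⟨L, hL, hfix⟩ := h n
  refine ⟨L, hL, fun σ hσ v => ?_⟩
  rw [← ker_ev_eq_maximalIdeal_pow hϖ n, LinearMap.mem_ker, _root_.map_sub, ev_tateGal,
    hfix σ hσ _ (pow_smul_ev n v), sub_self]

end Cont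

end Fermat.Agent.S59.Lim.H2

end
end
-- ==== END Fermat.Agent.S59.Lim.H2_TateGal

-- ==== BEGIN Fermat.Agent.S59.NumCrit.Defs
section

/-!
# S59 NUMCRIT: shared definitions

`linPart n 𝒪` : the linear part `𝒪⟦X_1..X_n⟧ → 𝒪^n` of a power series;
`eta π` : the congruence ideal `π (Ann (ker π))` of an augmentation `π : A → 𝒪`.
-/

set_option autoImplicit false

namespace Fermat.Agent.S59.NumCrit

/-- the linear part of a power series: the coefficients of `X_1, …, X_n`. -/
noncomputable def linPart (n : ℕ) (𝒪 : Type*) [CommRing 𝒪] :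
    MvPowerSeries (Fin n) 𝒪 →ₗ[𝒪] (Fin n → 𝒪) :=
  LinearMap.pi fun i => MvPowerSeries.coeff (R := 𝒪) (Finsupp.single i 1)

theorem linPart_apply (n : ℕ) (𝒪 : Type*) [CommRing 𝒪] (f : MvPowerSeries (Fin n) 𝒪) (i : Fin n) :
    linPart n 𝒪 f i = MvPowerSeries.coeff (Finsupp.single i 1) f := rfl

/-- the congruence ideal `η = π (Ann (ker π))` of an augmentation `π : A → 𝒪`. -/
def eta {𝒪 A : Type*} [CommRing 𝒪] [CommRing A] [Algebra 𝒪 A] (π : A →ₐ[𝒪] 𝒪) : Ideal 𝒪 :=
  Ideal.map π (RingHom.ker π).annihilator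

end Fermat.Agent.S59.NumCrit

end
-- ==== END Fermat.Agent.S59.NumCrit.Defs

-- ==== BEGIN Fermat.Agent.S59.NumCrit.H90_Mono
section

/-!
# S59 NUMCRIT, part (S-a): the determinant of a transition matrix is not in the ideal

`R` a nontrivial commutative ring, `P = R⟦X_i, i ∈ σ⟧`.  If `y = M X` and all `X i ^ N` lie in the
ideal `(y)`, then `det M ∉ (y)`  (`det_notMem_span`).  Ingredients: monomial ideals
`(X i ^ N, i ∈ S)` are described by coefficients, `X r ^ N` is a non-zero-divisor modulo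
`(X i ^ N, i ≠ r)`, and the adjugate identity
`∑ i, det (G.updateRow i s) * (G X) i = det G * (s ⬝ X)`.
-/

set_option autoImplicit false

namespace Fermat.Agent.S59.NumCrit.H90

open MvPowerSeries

section mono

variable {σ : Type*} {R : Type*} [CommRing R]

/-- the ideal generated by the `N`-th powers of the variables in `S`. -/
noncomputable def powIdeal (N : ℕ) (S : Set σ) : Ideal (MvPowerSeries σ R) :=
  Ideal.span ((fun i : σ => (X i : MvPowerSeries σ R) ^ N) '' S)

theorem powIdeal_mono (N : ℕ) {S S' : Set σ} (h : S ⊆ S') :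
    (powIdeal N S : Ideal (MvPowerSeries σ R)) ≤ powIdeal N S' :=
  Ideal.span_mono (Set.image_mono h)

theorem X_pow_mem_powIdeal (N : ℕ) {S : Set σ} {i : σ} (hi : i ∈ S) :
    (X i : MvPowerSeries σ R) ^ N ∈ powIdeal N S :=
  Ideal.subset_span ⟨i, hi, rfl⟩

theorem coeff_eq_zero_of_mem_powIdeal (N : ℕ) (S : Set σ) {f : MvPowerSeries σ R}
    (hf : f ∈ powIdeal N S) (m : σ →₀ ℕ) (hm : ∀ i ∈ S, m i < N) : coeff m f = 0 := by
  classical
  induction hf using Submodule.span_induction generalizing m with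
  | mem x hx =>
    obtain ⟨i, hi, rfl⟩ := hx
    rw [coeff_X_pow, if_neg]
    intro h
    have := hm i hi
    rw [h] at this
    simp at this
  | zero => simp
  | add x y _ _ hx hy => rw [map_add, hx m hm, hy m hm, add_zero]
  | smul a x _ hx =>
    rw [smul_eq_mul, coeff_mul]
    refine Finset.sum_eq_zero fun p hp => ?_
    have hp' : p.1 + p.2 = m := Finset.HasAntidiagonal.mem_antidiagonal.mp hp
    have : ∀ i ∈ S, p.2 i < N := by
      intro i hi
      have h1 := hm i hi
      rw [← hp'] at h1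
      simp only [Finsupp.coe_add, Pi.add_apply] at h1
      omega
    rw [hx p.2 this, mul_zero]

theorem mem_powIdeal_of_coeff (N : ℕ) (S : Finset σ) (f : MvPowerSeries σ R)
    (h : ∀ m : σ →₀ ℕ, (∀ i ∈ S, m i < N) → coeff m f = 0) :
    f ∈ powIdeal N (S : Set σ) := by
  classical
  induction S using Finset.induction_on generalizing f with
  | empty =>
    have : f = 0 := by
      ext m
      simpa using h m (by simp)
    rw [this]
    exact Ideal.zero_mem _
  | insert a S ha ih =>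
    let f₂ : MvPowerSeries σ R := fun m => if m a < N then coeff m f else 0
    let hq : MvPowerSeries σ R := fun m => coeff (m + Finsupp.single a N) f
    have hf₂ : ∀ m, coeff m f₂ = if m a < N then coeff m f else 0 := fun m => rfl
    have hhq : ∀ m, coeff m hq = coeff (m + Finsupp.single a N) f := fun m => rfl
    have hdecomp : f = X a ^ N * hq + f₂ := by
      ext m
      rw [map_add, X_pow_eq, coeff_monomial_mul, hf₂, hhq]
      by_cases hma : N ≤ m a
      · have hle : Finsupp.single a N ≤ m := by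
          rw [Finsupp.single_le_iff]
          exact hma
        rw [if_pos hle, one_mul, if_neg (not_lt.mpr hma), add_zero, tsub_add_cancel_of_le hle]
      · have hnle : ¬ Finsupp.single a N ≤ m := by
          intro hle
          have := hle a
          simp only [Finsupp.single_eq_same] at this
          exact hma this
        rw [if_neg hnle, zero_add, if_pos (not_le.mp hma)]
    rw [hdecomp]
    apply Ideal.add_mem
    · apply Ideal.mul_mem_right
      exact X_pow_mem_powIdeal N (by simp)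
    · apply powIdeal_mono N (S := (S : Set σ)) (by simp)
      apply ih
      intro m hm
      rw [hf₂]
      split_ifs with h1
      · apply h
        intro i hi
        rcases Finset.mem_insert.mp hi with rfl | hi
        · exact h1
        · exact hm i hi
      · rfl

/-- `X r ^ N` is a non-zero-divisor modulo `(X i ^ N, i ∈ S)` if `r ∉ S`. -/
theorem mem_powIdeal_of_X_pow_mul_mem (N : ℕ) (S : Finset σ) (r : σ) (hr : r ∉ S)
    (f : MvPowerSeries σ R)
    (h : (X r : MvPowerSeries σ R) ^ N * f ∈ (powIdeal N (S : Set σ) : Ideal (MvPowerSeries σ R))) :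
    f ∈ (powIdeal N (S : Set σ) : Ideal (MvPowerSeries σ R)) := by
  classical
  refine mem_powIdeal_of_coeff N S f ?_
  intro m hm
  have hm' : ∀ i ∈ (S : Set σ), (m + Finsupp.single r N) i < N := by
    intro i hi
    have hne : r ≠ i := fun e => hr (e ▸ hi)
    rw [Finsupp.add_apply, Finsupp.single_eq_of_ne' hne, add_zero]
    exact hm i hi
  have h1 := coeff_eq_zero_of_mem_powIdeal N _ h (m + Finsupp.single r N) hm'
  have hle : Finsupp.single r N ≤ m + Finsupp.single r N := le_add_self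
  rw [X_pow_eq, coeff_monomial_mul, if_pos hle, one_mul, add_tsub_cancel_right] at h1
  exact h1

theorem prod_monomial_one (s : Finset σ) (e : σ → σ →₀ ℕ) :
    ∏ i ∈ s, (monomial (e i) (1 : R) : MvPowerSeries σ R) = monomial (∑ i ∈ s, e i) 1 := by
  classical
  induction s using Finset.induction_on with
  | empty => simp
  | insert a s ha ih =>
    rw [Finset.prod_insert ha, Finset.sum_insert ha, ih, monomial_mul_monomial, one_mul]

/-- the socle monomial `∏ X i ^ (N - 1)` is not in `(X i ^ N)`. -/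
theorem prod_X_pow_notMem [Nontrivial R] [Fintype σ] (N : ℕ) (hN : 0 < N) :
    (∏ i : σ, (X i : MvPowerSeries σ R) ^ (N - 1)) ∉ powIdeal N (Set.univ : Set σ) := by
  classical
  intro h
  have h1 := coeff_eq_zero_of_mem_powIdeal N _ h (∑ i : σ, Finsupp.single i (N - 1)) (fun i _ => by
    rw [Finsupp.finsetSum_apply]
    simp only [Finsupp.single_apply, Finset.sum_ite_eq', Finset.mem_univ, if_true]
    omega)
  have h2 : (∏ i : σ, (X i : MvPowerSeries σ R) ^ (N - 1))
      = monomial (∑ i : σ, Finsupp.single i (N - 1)) 1 := by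
    rw [← prod_monomial_one]
    refine Finset.prod_congr rfl fun i _ => ?_
    rw [X_pow_eq]
  rw [h2, coeff_monomial_same] at h1
  exact one_ne_zero h1

end mono

section matrix

open Matrix

variable {σ : Type*} [Fintype σ] [DecidableEq σ]

/-- the adjugate identity behind (S-a). -/
theorem sum_det_updateRow_mul {P : Type*} [CommRing P]
    (G : Matrix σ σ P) (s x : σ → P) :
    ∑ i, (G.updateRow i s).det * (G.mulVec x) i = G.det * (s ⬝ᵥ x) := by
  have h1 : ∀ i, (G.updateRow i s).det = (G.adjugate.transpose.mulVec s) i := by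
    intro i
    rw [← Matrix.cramer_transpose_apply, Matrix.cramer_eq_adjugate_mulVec,
      Matrix.adjugate_transpose]
  simp_rw [h1]
  change (G.adjugate.transpose.mulVec s) ⬝ᵥ (G.mulVec x) = _
  rw [Matrix.mulVec_transpose, Matrix.dotProduct_mulVec, Matrix.vecMul_vecMul,
    Matrix.adjugate_mul, Matrix.vecMul_smul, Matrix.vecMul_one, smul_dotProduct, smul_eq_mul]

/-- Cramer: `det A * y j` lies in the ideal generated by the entries of `A y`. -/
theorem det_mul_mem_span {P : Type*} [CommRing P] (A : Matrix σ σ P) (y : σ → P) (j : σ)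
    (I : Ideal P) (h : ∀ i, (A.mulVec y) i ∈ I) : A.det * y j ∈ I := by
  have h1 : A.adjugate.mulVec (A.mulVec y) = A.det • y := by
    rw [Matrix.mulVec_mulVec, Matrix.adjugate_mul, Matrix.smul_mulVec, Matrix.one_mulVec]
  have h2 : A.det * y j = (A.adjugate.mulVec (A.mulVec y)) j := by
    rw [h1]; rfl
  rw [h2]
  exact Ideal.sum_mem _ fun i _ => Ideal.mul_mem_left _ _ (h i)

variable {R : Type*} [CommRing R]

/-- key step: replacing a row of `G` (with `G X = X^(N)`) by a syzygy of `X` gives a determinant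
in `(X i ^ N)`. -/
theorem det_updateRow_mem_powIdeal (N : ℕ) (G : Matrix σ σ (MvPowerSeries σ R))
    (hG : ∀ i, (G.mulVec (fun j => (X j : MvPowerSeries σ R))) i = X i ^ N)
    (s : σ → MvPowerSeries σ R) (hs : s ⬝ᵥ (fun j => (X j : MvPowerSeries σ R)) = 0) (r : σ) :
    (G.updateRow r s).det ∈ (powIdeal N (Set.univ : Set σ) : Ideal (MvPowerSeries σ R)) := by
  have h0 := sum_det_updateRow_mul G s (fun j => (X j : MvPowerSeries σ R))
  rw [hs, mul_zero] at h0
  simp_rw [hG] at h0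
  rw [← Finset.add_sum_erase _ _ (Finset.mem_univ r)] at h0
  have h1 : (X r : MvPowerSeries σ R) ^ N * (G.updateRow r s).det
      ∈ (powIdeal N ((Finset.univ.erase r : Finset σ) : Set σ) : Ideal (MvPowerSeries σ R)) := by
    have : (X r : MvPowerSeries σ R) ^ N * (G.updateRow r s).det
        = - ∑ i ∈ Finset.univ.erase r, (G.updateRow i s).det * X i ^ N := by
      rw [eq_neg_iff_add_eq_zero, mul_comm]
      exact h0
    rw [this]
    refine Ideal.neg_mem_iff _ |>.mpr (Ideal.sum_mem _ fun i hi => Ideal.mul_mem_left _ _ ?_)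
    exact X_pow_mem_powIdeal N (by exact_mod_cast hi)
  have h2 := mem_powIdeal_of_X_pow_mul_mem N (Finset.univ.erase r) r (by simp) _ h1
  exact powIdeal_mono N (Set.subset_univ _) h2

/-- row-by-row comparison of two matrices with the same value on `X`. -/
theorem det_sub_det_mem_powIdeal (N : ℕ) (E D : Matrix σ σ (MvPowerSeries σ R))
    (hE : ∀ i, (E.mulVec (fun j => (X j : MvPowerSeries σ R))) i = X i ^ N)
    (hD : ∀ i, (D.mulVec (fun j => (X j : MvPowerSeries σ R))) i = X i ^ N) :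
    E.det - D.det ∈ (powIdeal N (Set.univ : Set σ) : Ideal (MvPowerSeries σ R)) := by
  have key : ∀ J : Finset σ,
      (Matrix.of fun i => if i ∈ J then E i else D i).det - D.det
        ∈ (powIdeal N (Set.univ : Set σ) : Ideal (MvPowerSeries σ R)) := by
    intro J
    induction J using Finset.induction_on with
    | empty =>
      have : (Matrix.of fun i => if i ∈ (∅ : Finset σ) then E i else D i) = D := by
        ext i j; simp
      rw [this, sub_self]
      exact Ideal.zero_mem _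
    | insert a J ha ih =>
      set G : Matrix σ σ (MvPowerSeries σ R) := Matrix.of fun i => if i ∈ J then E i else D i
        with hGdef
      have hGX : ∀ i, (G.mulVec (fun j => (X j : MvPowerSeries σ R))) i = X i ^ N := by
        intro i
        by_cases hi : i ∈ J
        · have : G i = E i := by
            show (if i ∈ J then E i else D i) = E i
            rw [if_pos hi]
          rw [← hE i]
          simp only [Matrix.mulVec, this]
        · have : G i = D i := by
            show (if i ∈ J then E i else D i) = D i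
            rw [if_neg hi]
          rw [← hD i]
          simp only [Matrix.mulVec, this]
      have e1 : (Matrix.of fun i => if i ∈ insert a J then E i else D i)
          = G.updateRow a (D a + (E a - D a)) := by
        ext i j
        by_cases hia : i = a
        · subst hia
          simp
        · simp [hGdef, Finset.mem_insert, hia]
      have e2 : G.updateRow a (D a) = G := by
        ext i j
        by_cases hia : i = a
        · subst hia
          simp [hGdef, ha]
        · simp [Matrix.updateRow_ne hia]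
      rw [e1, Matrix.det_updateRow_add, e2]
      have hs : (E a - D a) ⬝ᵥ (fun j => (X j : MvPowerSeries σ R)) = 0 := by
        rw [sub_dotProduct]
        have hEa := hE a
        have hDa := hD a
        simp only [Matrix.mulVec] at hEa hDa
        rw [hEa, hDa, sub_self]
      have h3 := det_updateRow_mem_powIdeal N G hGX (E a - D a) hs a
      have : G.det + (G.updateRow a (E a - D a)).det - D.det
          = (G.det - D.det) + (G.updateRow a (E a - D a)).det := by ring
      rw [this]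
      exact Ideal.add_mem _ ih h3
  have := key Finset.univ
  have e : (Matrix.of fun i => if i ∈ (Finset.univ : Finset σ) then E i else D i) = E := by
    ext i j; simp
  rwa [e] at this

/-- **(S-a)**: if `y = M X` and all `X i ^ N` lie in `(y)`, then `det M ∉ (y)`. -/
theorem det_notMem_span [Nontrivial R] (N : ℕ) (M : Matrix σ σ (MvPowerSeries σ R))
    (h : ∀ i, (X i : MvPowerSeries σ R) ^ N
      ∈ Ideal.span (Set.range (M.mulVec (fun j => (X j : MvPowerSeries σ R))))) :
    M.det ∉ Ideal.span (Set.range (M.mulVec (fun j => (X j : MvPowerSeries σ R)))) := by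
  -- may assume `0 < N`
  wlog hN : 0 < N generalizing N
  · refine this (N + 1) (fun i => ?_) (Nat.succ_pos _)
    rw [pow_succ]
    exact Ideal.mul_mem_right _ _ (h i)
  set y := M.mulVec (fun j => (X j : MvPowerSeries σ R)) with hy
  have hA : ∀ i, ∃ c : σ → MvPowerSeries σ R, ∑ j, c j * y j = X i ^ N := fun i =>
    (Ideal.mem_span_range_iff_exists_fun (R := MvPowerSeries σ R)).mp (h i)
  choose A hA using hA
  let A' : Matrix σ σ (MvPowerSeries σ R) := Matrix.of A
  have hAy : ∀ i, (A'.mulVec y) i = X i ^ N := fun i => hA i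
  set D : Matrix σ σ (MvPowerSeries σ R) :=
    Matrix.diagonal fun i => (X i : MvPowerSeries σ R) ^ (N - 1) with hD
  have hDX : ∀ i, (D.mulVec (fun j => (X j : MvPowerSeries σ R))) i = X i ^ N := by
    intro i
    rw [hD, Matrix.mulVec_diagonal, ← pow_succ, Nat.sub_add_cancel hN]
  have hEX : ∀ i, ((A' * M).mulVec (fun j => (X j : MvPowerSeries σ R))) i = X i ^ N := by
    intro i
    rw [← Matrix.mulVec_mulVec]
    exact hAy i
  have h1 := det_sub_det_mem_powIdeal N (A' * M) D hEX hDX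
  intro hM
  have h2 : (A' * M).det ∈ (powIdeal N (Set.univ : Set σ) : Ideal (MvPowerSeries σ R)) := by
    rw [Matrix.det_mul]
    obtain ⟨c, hc⟩ := (Ideal.mem_span_range_iff_exists_fun (R := MvPowerSeries σ R)).mp hM
    rw [← hc, Finset.mul_sum]
    refine Ideal.sum_mem _ fun j _ => ?_
    have : A'.det * (c j * y j) = c j * (A'.det * y j) := by ring
    rw [this]
    refine Ideal.mul_mem_left _ _ (det_mul_mem_span A' y j _ fun i => ?_)
    rw [hAy i]
    exact X_pow_mem_powIdeal N (Set.mem_univ i)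
  have h3 : D.det ∈ (powIdeal N (Set.univ : Set σ) : Ideal (MvPowerSeries σ R)) := by
    have := Ideal.sub_mem _ h2 h1
    rwa [sub_sub_cancel] at this
  rw [hD, Matrix.det_diagonal] at h3
  exact prod_X_pow_notMem N hN h3

end matrix

end Fermat.Agent.S59.NumCrit.H90

end
-- ==== END Fermat.Agent.S59.NumCrit.H90_Mono
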