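-- GENERATED (merged mirror, NOTES/tools/trim/merge3_helper67.py): 14 modules of the originals, bodies verbatim.
import Mathlib
import Fermat.Agent.Zm.S43_L01_000
import Fermat.Agent.Zm.S44_L01_000
import Fermat.Agent.Zm.S44_L05_001
import Fermat.Agent.Zm.S35_L21_000
import Fermat.Agent.Zm.S44_L02_003
import Fermat.Agent.Zm.S35_L05_000
import Fermat.Agent.Zm.S35_L12_000
import Fermat.Agent.Zm.S43_L01_004
import Fermat.Agent.Zm.S48_L13_000
import Fermat.Agent.Zm.S48_L15_000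
import Fermat.Agent.Zm.S35_L05_001
import Fermat.Agent.Zm.S43_L01_003
import Fermat.Agent.Zm.S43_L01_001
import Fermat.Agent.Zm.S35_L10_001
import Fermat.Agent.Zm.S43_L01_002
import Fermat.Agent.Zm.S35_L16_001
import Fermat.Agent.Zm.S35_L14_000

-- ==== BEGIN Fermat.Agent.BADP.H21_CoordK0
section

/-!
# S44 / S43 / S15, package COORD (helper21): the final form

* `totModAt`, `cuspHyp` : the law of total conservation (helper23) and CUSP (helper69) for the
  modular datum of level `M q`;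
* `theS A q M a b hab hq hA hqM ht` : **the** modular semistable Deuring datum (`H21.modS` with
  helper23's law; definitionally equal to helper33's `BADP.H33.modS` when `ht = Or.inl h5`);
* `coord_theS` : **COORD** from helper93's `IsK0Lift` (ARITH-0, consumer form): at every node of
  `theS` there are an inertia-fixed function `t` and `n ≥ 1`, `n ∣ 12`, with
  `IsAnnCoord s t (q ^ n)`.
-/

set_option autoImplicit false
set_option linter.style.haveILetI false
set_option linter.unusedSectionVars false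
set_option synthInstance.maxHeartbeats 400000
set_option maxHeartbeats 1000000

noncomputable section

open HahnSeries IntermediateField AlgebraicCurve ModularCurve
open Fermat.Agent.S28.H73 Fermat.Agent.RED.H73 Fermat.Agent.RED Fermat.Agent.S24
open Fermat.Agent.BAD.H88

namespace Fermat.Agent.BADP.H21

open Fermat.Agent.BAD Fermat.Agent.BAD.H91 Fermat.Agent.S15.Desc.H67

attribute [local instance 5000] SubalgebraClass.toAlgebra
attribute [local instance 10000] SubalgebraClass.toAlgebra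
attribute [local instance 10000] HahnSeries.powerSeriesAlgebra

section Final

variable (A : ValuationSubring Kbar) (q M : ℕ) (a b : ℤ) (hab : a * q + b * M = 1)
  (hq : q.Prime) [NeZero M] [NeZero (M * q)] [NeZero q] (hA : A.LiesOverPrime q)
  (hqM : ¬ q ∣ M) (ht : TameAt M q)

/-- The law of total conservation (helper23's `tot_mod`). -/
theorem totModAt : ∀ (u₁ : ↥(V1 A q M)) (u₂ : ↥(V2 A q M a b hab hq)), red1 A q M u₁ ≠ 0 →
    red2 A q M a b hab hq u₂ ≠ 0 →
    (∃ c : Kbar, (u₂ : FN (M * q)) = algebraMap Kbar (FN (M * q)) c * (u₁ : FN (M * q))) →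
    ∀ D : Divisor Kbar (FN (M * q)), (∀ P, D P = P.ord (u₁ : FN (M * q))) →
      ∀ z : Place (kV A) (F1 A q M),
        Finsupp.mapDomain (rhoF1 a b hab hq hA hqM ht) D z
          = z.ord (red1 A q M u₁)
            + (H73.betaF1 A q M hq hA M (H82.redField_eq_fullC q M a b hab hq A hA) z).ord
                (red2 A q M a b hab hq u₂) :=
  Fermat.Agent.BAD.H23.tot_mod A q M a b hab hq hA hqM ht
    (Fermat.Agent.BAD.H82.redField_eq_fullC q M a b hab hq A hA)

/-- **CUSP** (helper69's `coordCusp_gen`). -/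
theorem cuspHyp : CuspHyp A q M a b hab hq hA hqM ht (totModAt A q M a b hab hq hA hqM ht) :=
  fun z₀ hz₀ => Fermat.Agent.S15.Desc.H69C.coordCusp_gen a b hab hq hA hqM ht
    (totModAt A q M a b hab hq hA hqM ht) z₀ hz₀

/-- **The modular semistable Deuring datum** of level `M q` at `A`. -/
def theS : SSD Kbar (FN (M * q)) (kV A) (F1 A q M) (F1 A q M) :=
  modS A q M a b hab hq hA hqM ht (totModAt A q M a b hab hq hA hqM ht)

/-- The set of the automorphisms of the inertia group (helper93's `BADP.inertiaAuts`). -/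
def inertiaSet (N : ℕ) : Set (SemilinearAut Kbar (FN N)) :=
  {τ | ∃ σ ∈ A.inertiaSubgroupIn ℚ, τ = galF N σ}

/-- (K0) at every node from helper93's `IsK0Lift`. -/
theorem k0At_of_isK0Lift
    (hK0 : IsK0Lift (theS A q M a b hab hq hA hqM ht) (inertiaSet A (M * q)))
    (s : Place (kV A) (F1 A q M) × Place (kV A) (F1 A q M)) :
    K0At A q M a b hab hq hA hqM ht (totModAt A q M a b hab hq hA hqM ht) s := by
  intro u hu1 hu2 hpf
  obtain ⟨u0, hfix, h01, h02, hr1, hr2, hpole⟩ := hK0 u hu1 hu2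
  refine ⟨u0, fun σ hσ => hfix _ ⟨σ, hσ, rfl⟩, h01, h02, hr1, hr2, ?_⟩
  intro P hP
  by_contra hneg
  obtain ⟨P', hP'1, -, hP'⟩ := hpole P (not_le.mp hneg)
  have h3 := hpf P' (hP'1.trans hP)
  omega

/-- **COORD**: at every node of the modular datum there is an inertia-fixed annulus coordinate
of thickness `q ^ n`, `n ∣ 12`. -/
theorem coord_theS
    (hK0 : IsK0Lift (theS A q M a b hab hq hA hqM ht) (inertiaSet A (M * q)))
    {s : Place (kV A) (F1 A q M) × Place (kV A) (F1 A q M)}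
    (hs : s ∈ (theS A q M a b hab hq hA hqM ht).nodes) :
    ∃ (n : ℕ) (t : FN (M * q)), 0 < n ∧ n ∣ 12 ∧
      (theS A q M a b hab hq hA hqM ht).IsAnnCoord s t ((q : Kbar) ^ n) ∧
      ∀ σ ∈ A.inertiaSubgroupIn ℚ, galF (M * q) σ • t = t := by
  obtain ⟨t, htF, n, hn, hn12, hcoord⟩ :=
    coord_modS_core A q M a b hab hq hA hqM ht (totModAt A q M a b hab hq hA hqM ht)
      (cuspHyp A q M a b hab hq hA hqM ht) hs (k0At_of_isK0Lift A q M a b hab hq hA hqM ht hK0 s)
  exact ⟨n, t, hn, hn12, hcoord, fun σ hσ => htF σ hσ⟩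

end Final

end Fermat.Agent.BADP.H21

end
end
-- ==== END Fermat.Agent.BADP.H21_CoordK0

-- ==== BEGIN Fermat.Agent.L.Pivot.Geom.H24_B2BetaProd
section

/-!
# PIVOT, PV-GEOM, leaf PVG-B2 (helper24), part 6b: the product over the cosets of `conjG`

For a family `t : I → Γ₀(M)` of representatives of the left cosets of `δ Γ₀(M q) δ⁻¹`
(`δ = diag(q, 1)`, the range of `conjG M q`) in `Γ₀(M)` put

  `conjProd k q t R = ∏ i, R ∣[k] ([1,0;0,q] * (t i)⁻¹)`.

* `isTwistedForm_conjProd` : if `R` is a twisted form of weight `k` on `Γ₀(M q)` with multiplier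
  `ζ^φ` then `conjProd k q t R` is a twisted form on `Γ₀(M)` with multiplier `ζ^(cor2 φ)`;
* `isReps_tRep` : for `q ∣ M` the translations `[1,-j;0,1]`, `j ∈ ℤ/q`, are representatives;
* `conjProd_tRep` : for them `conjProd k q t R = ∏_{j<q} R ∣[k] [1,j;0,q]`.
-/

set_option autoImplicit false
set_option linter.style.haveILetI false
set_option linter.unusedSectionVars false

open UpperHalfPlane ModularForm CongruenceSubgroup Matrix.SpecialLinearGroup
open scoped MatrixGroups ModularForm Manifold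
open P2MW.S_ModularForm_heckeT_slash_eq_self_of_mem_Gamma0.ModularForm.HeckeSlashInvariance

noncomputable section

namespace Fermat.Agent.L.Pivot.Geom.H24

open Fermat.Agent.GTor Fermat.Agent.S41 Fermat.Agent.S41.H19

/-! ### Matrix identities -/

theorem conjMat_real (q : ℕ) (hq : q ≠ 0) (A : Matrix (Fin 2) (Fin 2) ℤ) (hA : (q : ℤ) ∣ A 1 0) :
    (!![(1 : ℝ), ((0 : ℕ) : ℝ); 0, (q : ℝ)] : Matrix (Fin 2) (Fin 2) ℝ)
        * (algebraMap ℤ ℝ).mapMatrix (conjMat q A)
      = (algebraMap ℤ ℝ).mapMatrix A * !![(1 : ℝ), ((0 : ℕ) : ℝ); 0, (q : ℝ)] := by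
  have hq' : (q : ℤ) ≠ 0 := by exact_mod_cast hq
  obtain ⟨c, hc⟩ := hA
  ext i j
  fin_cases i <;> fin_cases j <;>
    simp [conjMat, Matrix.mul_apply, Fin.sum_univ_two, hc, Int.mul_ediv_cancel_left _ hq'] <;> ring

/-- `[1,0;0,q] * conjG h = h * [1,0;0,q]`. -/
theorem heckeMatrix_zero_mul_conjG (M q : ℕ) [NeZero q] (h : Gamma0 (M * q)) :
    heckeMatrix q 0 * mapGL ℝ ((conjG M q h : Gamma0 M) : SL(2, ℤ))
      = mapGL ℝ ((h : Gamma0 (M * q)) : SL(2, ℤ)) * heckeMatrix q 0 := by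
  have hq : q ≠ 0 := NeZero.ne q
  apply Matrix.GeneralLinearGroup.ext
  intro i k
  simp only [Matrix.GeneralLinearGroup.coe_mul, val_heckeMatrix hq,
    Matrix.SpecialLinearGroup.mapGL_coe_matrix, Matrix.SpecialLinearGroup.map_apply_coe]
  exact congrFun (congrFun (conjMat_real q hq (mat h) (q_dvd_of_mem_gamma0_mul h.2)) i) k

/-- The translation `[1,j;0,1]` in `Γ₀(M)`. -/
def uRep (M : ℕ) (j : ℤ) : Gamma0 M := mkG0 M 1 j 0 1 (by ring) (dvd_zero _)

@[simp] theorem mat_uRep (M : ℕ) (j : ℤ) : mat (uRep M j) = !![1, j; 0, 1] := rfl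

/-- `[1,0;0,q] * [1,j;0,1] = [1,j;0,q]`. -/
theorem heckeMatrix_zero_mul_uRep (M q : ℕ) [NeZero q] (j : ℕ) :
    heckeMatrix q 0 * mapGL ℝ ((uRep M (j : ℤ) : Gamma0 M) : SL(2, ℤ)) = heckeMatrix q j := by
  have hq : q ≠ 0 := NeZero.ne q
  apply Matrix.GeneralLinearGroup.ext
  intro i k
  simp only [Matrix.GeneralLinearGroup.coe_mul, val_heckeMatrix hq,
    Matrix.SpecialLinearGroup.mapGL_coe_matrix, Matrix.SpecialLinearGroup.map_apply_coe]
  have h : ((uRep M (j : ℤ) : Gamma0 M) : SL(2, ℤ)).1 = !![1, (j : ℤ); 0, 1] := rfl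
  rw [h]
  fin_cases i <;> fin_cases k <;> simp [Matrix.mul_apply, Fin.sum_univ_two]

/-! ### The product -/

section ConjProd

variable {I : Type} [Fintype I]

/-- The product of the slashes of `R` by the matrices `[1,0;0,q] * (t i)⁻¹`. -/
def conjProd (k : ℤ) (q : ℕ) (t : I → SL(2, ℤ)) (R : ℍ → ℂ) : ℍ → ℂ :=
  ∏ i, R ∣[k] (heckeMatrix q 0 * mapGL ℝ (t i)⁻¹)

theorem conjProd_slash (k : ℤ) (q : ℕ) (t : I → SL(2, ℤ)) (R : ℍ → ℂ) (γ : SL(2, ℤ)) :
    (conjProd k q t R) ∣[k * (Fintype.card I : ℤ)] γ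
      = ∏ i, R ∣[k] (heckeMatrix q 0 * mapGL ℝ ((t i)⁻¹ * γ)) := by
  rw [conjProd, ← H76.slash_mapGL, ← Finset.card_univ, H76.prod_slash_mapGL]
  refine Finset.prod_congr rfl fun i _ => ?_
  rw [← SlashAction.slash_mul, mul_assoc, ← map_mul]

theorem mdifferentiable_conjProd (k : ℤ) (q : ℕ) (t : I → SL(2, ℤ)) {R : ℍ → ℂ}
    (hR : MDifferentiable 𝓘(ℂ) 𝓘(ℂ) R) : MDifferentiable 𝓘(ℂ) 𝓘(ℂ) (conjProd k q t R) := by
  rw [conjProd]
  exact MDifferentiable.prod fun j _ => hR.slash k _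

theorem conjProd_eq_zero_iff [Nonempty I] (k : ℤ) (q : ℕ) (t : I → SL(2, ℤ)) {F : ℍ → ℂ}
    (hF : MDifferentiable 𝓘(ℂ) 𝓘(ℂ) F) : conjProd k q t F = 0 ↔ F = 0 := by
  rw [conjProd, UpperHalfPlane.prod_eq_zero_iff
    (f := fun i => F ∣[k] (heckeMatrix q 0 * mapGL ℝ (t i)⁻¹))
    (s := Finset.univ) (fun j _ => hF.slash k _)]
  constructor
  · rintro ⟨i, -, h⟩
    exact (H76.slash_eq_zero_iff k _ F).mp h
  · intro h
    obtain ⟨i⟩ := (inferInstance : Nonempty I)
    exact ⟨i, Finset.mem_univ _, (H76.slash_eq_zero_iff k _ F).mpr h⟩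

end ConjProd

section Twisted

variable {I : Type} [Fintype I] {M q n : ℕ} {k : ℤ}
  {φ : Additive (Gamma0 (M * q)) →+ ZMod n} {R : ℍ → ℂ}

/-- `R ∣ ([1,0;0,q] s)` is bounded at `∞` for every `s ∈ SL₂(ℤ)`. -/
theorem bdd_slash_heckeMatrix_zero (hq : q.Prime) (h : IsTwistedForm (M * q) n k φ R)
    (s : SL(2, ℤ)) : IsBoundedAtImInfty (R ∣[k] (heckeMatrix q 0 * mapGL ℝ s)) := by
  haveI : Fact q.Prime := ⟨hq⟩
  have h0 : heckeMatrix q 0 = heckeRep q (((0 : ZMod q)) : OnePoint (ZMod q)) := by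
    rw [heckeRep_coe, ZMod.val_zero]
  obtain ⟨g', -, hg'⟩ := heckeRep_mul (N := 1) (p := q) hq.not_dvd_one s (by simp)
    (((0 : ZMod q)) : OnePoint (ZMod q))
  rw [h0, hg', SlashAction.slash_mul, H76.slash_mapGL]
  exact (h.bdd g').slash k (H76.heckeRep_apply_one_zero q _)

/-- **The product over the cosets of `conjG` is a twisted form with multiplier the transfer.** -/
theorem isTwistedForm_conjProd [NeZero q] (hq : q.Prime) (t : I → Gamma0 M)
    (ht : IsReps (conjG M q) t) (h : IsTwistedForm (M * q) n k φ R) :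
    IsTwistedForm M n (k * (Fintype.card I : ℤ)) (cor2 M q (ZMod n) φ)
      (conjProd k q (coeT t) R) := by
  refine ⟨mdifferentiable_conjProd k q _ h.mdiff, fun γ => ?_, fun σ => ?_⟩
  · obtain ⟨σ, κ, hκ⟩ := ht.exists_sol γ
    have hσ : Function.Bijective σ := ht.sol_bijective hκ
    have hcor : cor2 M q (ZMod n) φ (Additive.ofMul γ) = ∑ i, φ (Additive.ofMul (κ i)) :=
      corAlong_eq_sum (conjG M q) (conjG_injective M q (NeZero.ne q)) t ht φ γ σ κ hκ
    rw [conjProd_slash, hcor, H76.zetaPow_sum]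
    have hterm : ∀ i : I, R ∣[k] (heckeMatrix q 0 * mapGL ℝ ((coeT t (σ i))⁻¹ * (γ : SL(2, ℤ))))
        = zetaPow n (φ (Additive.ofMul (κ i)))
          • (R ∣[k] (heckeMatrix q 0 * mapGL ℝ (coeT t i)⁻¹)) := by
      intro i
      have h1 : (coeT t (σ i))⁻¹ * (γ : SL(2, ℤ))
          = ((conjG M q (κ i) : Gamma0 M) : SL(2, ℤ)) * (coeT t i)⁻¹ := by
        have h2 := congrArg (fun g : Gamma0 M => (g : SL(2, ℤ))) (hκ i)
        simp only [Subgroup.coe_mul] at h2
        unfold coeT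
        rw [inv_mul_eq_iff_eq_mul, ← mul_assoc, eq_mul_inv_iff_mul_eq]
        exact h2
      rw [h1, map_mul, ← mul_assoc, heckeMatrix_zero_mul_conjG, mul_assoc,
        SlashAction.slash_mul, H76.slash_mapGL, h.slash (κ i), ModularForm.smul_slash]
      congr 1
      have hdet : (0 : ℝ) < ((heckeMatrix q 0 * mapGL ℝ (coeT t i)⁻¹ : GL (Fin 2) ℝ).det : ℝ) := by
        rw [map_mul, Units.val_mul, det_heckeMatrix (NeZero.ne q)]
        have h1 : ((mapGL ℝ (coeT t i)⁻¹ : GL (Fin 2) ℝ).det : ℝ) = 1 := by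
          rw [Matrix.GeneralLinearGroup.val_det_apply,
            Matrix.SpecialLinearGroup.mapGL_coe_matrix]
          exact (Matrix.SpecialLinearGroup.map (algebraMap ℤ ℝ) _).det_coe
        rw [h1, mul_one]
        exact_mod_cast Nat.pos_of_ne_zero (NeZero.ne q)
      rw [UpperHalfPlane.σ, if_pos hdet]
      rfl
    have hre : ∏ i, R ∣[k] (heckeMatrix q 0 * mapGL ℝ ((coeT t i)⁻¹ * (γ : SL(2, ℤ))))
        = ∏ i, R ∣[k] (heckeMatrix q 0 * mapGL ℝ ((coeT t (σ i))⁻¹ * (γ : SL(2, ℤ)))) :=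
      (Equiv.prod_comp (Equiv.ofBijective σ hσ)
        (fun i => R ∣[k] (heckeMatrix q 0 * mapGL ℝ ((coeT t i)⁻¹ * (γ : SL(2, ℤ)))))).symm
    rw [hre, Finset.prod_congr rfl fun i _ => hterm i, H76.prod_smul_fun]
    rfl
  · rw [conjProd_slash, IsBoundedAtImInfty]
    exact Filter.BoundedAtFilter.prod _ fun i _ => bdd_slash_heckeMatrix_zero hq h _

end Twisted

end Fermat.Agent.L.Pivot.Geom.H24

end
end
-- ==== END Fermat.Agent.L.Pivot.Geom.H24_B2BetaProd

-- ==== BEGIN Fermat.Agent.L.Pivot.Geom.H24_B2Ratio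
section

/-!
# PIVOT, PV-GEOM, leaf PVG-B2 (helper24), part 3: the character of the norm along `α` (over `ℂ`)

* `hasChar_normAlpha` : if `f' ∈ F_ℂ(M q)` has character `φ` then `N_α f' ∈ F_ℂ(M)` has character
  `cor1 φ` (the transfer of `φ` from `Γ₀(M q)` to `Γ₀(M)`).

Proof: `phi f' = a / b` in the closure, `a B = b A` on `ℍ` (`Clo.H96.ratio_core`), slash by the
coset representatives and multiply (`phi_norm_alpha`), compare expansions at `∞`.
-/

set_option autoImplicit false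
set_option linter.style.haveILetI false
set_option linter.unusedSectionVars false

open UpperHalfPlane ModularForm CongruenceSubgroup ModularCurve AlgebraicCurve
open scoped MatrixGroups ModularForm Manifold

noncomputable section

namespace Fermat.Agent.L.Pivot.Geom.H24

open Fermat.Agent.GTor Fermat.Agent.GTor.Clo Fermat.Agent.GTor.Clo.H96 Fermat.Agent.S24
  Fermat.Agent.S41 Fermat.Agent.S41.H19

/-- The range of `inclG` has finite index. -/
theorem finiteIndex_inclG_h24 (M q : ℕ) [NeZero M] [NeZero q] :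
    (inclG M q).range.FiniteIndex := by
  have h1 : (inclG M q).range = (Gamma0 (M * q)).subgroupOf (Gamma0 M) :=
    Subgroup.inclusion_range (gamma0_mul_le M q)
  rw [h1]
  infer_instance

/-- A modular form on `Γ₀(M)` has an expansion in `u = exp (2 π i τ / N)` for every `N`. -/
theorem hasUExp_modularForm_level (M N : ℕ) [NeZero M] [NeZero N] {k : ℤ}
    (A : ModularForm (Gamma0 M) k) :
    HasUExp N (A : ℍ → ℂ) (qExpand ℂ N (qLaurent A)) := by
  apply hasUExp_qExpand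
  have hX : Fermat.Agent.GTor.H96.IsCuspRegular ((1 : ℕ) : ℝ) ((A : ℍ → ℂ)) := by
    rw [Nat.cast_one]
    exact ⟨SlashInvariantFormClass.periodic_comp_ofComplex A
      (CongruenceSubgroup.one_mem_strictPeriods_Gamma0 M), A.holo',
      ModularFormClass.bdd_at_infty A⟩
  have h := hasUExp_of_isCuspRegular 1 hX
  rw [Nat.cast_one] at h
  exact h

/-- The value of a product in `AT N`. -/
theorem valAT_prod_apply (N : ℕ) {I : Type} [Fintype I] (a : I → _root_.Fermat.Agent.GTor.Clo.AT N) (τ : ℍ) :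
    ((_root_.Fermat.Agent.GTor.Clo.valAT N (∏ i, a i) : Hol) : ℍ → ℂ) τ = ∏ i, ((_root_.Fermat.Agent.GTor.Clo.valAT N (a i) : Hol) : ℍ → ℂ) τ := by
  let ev : Hol →+* ℂ :=
    { toFun := fun f => (f : ℍ → ℂ) τ
      map_one' := rfl
      map_mul' := fun _ _ => rfl
      map_zero' := rfl
      map_add' := fun _ _ => rfl }
  have h := map_prod (ev.comp (_root_.Fermat.Agent.GTor.Clo.valAT N)) a Finset.univ
  exact h

variable (M q n : ℕ) [NeZero M] [NeZero q]

/-- The expansion of an element of `α F_M` from its numerator and denominator in the closure. -/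
theorem series_of_phi_alpha (x : Clo.FN M) (a' b' : _root_.Fermat.Agent.GTor.Clo.AT (M * q))
    (h : _root_.Fermat.Agent.GTor.Clo.phi (M * q) (alphaC M q x) * algebraMap (_root_.Fermat.Agent.GTor.Clo.AT (M * q)) (_root_.Fermat.Agent.GTor.Clo.LN (M * q)) b'
      = algebraMap (_root_.Fermat.Agent.GTor.Clo.AT (M * q)) (_root_.Fermat.Agent.GTor.Clo.LN (M * q)) a') :
    qExpand ℂ (M * q) ((toFNLc M x : FNL ℂ M) : LaurentSeries ℂ) * uExpC (M * q) b'
      = uExpC (M * q) a' := by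
  have h1 := congrArg (_root_.Fermat.Agent.GTor.Clo.UL (M * q)) h
  rw [map_mul, _root_.Fermat.Agent.GTor.Clo.UL_phi, _root_.Fermat.Agent.GTor.Clo.UL_algebraMap, _root_.Fermat.Agent.GTor.Clo.UL_algebraMap, _root_.Fermat.Agent.GTor.Clo.qN_apply, coe_alphaC] at h1
  exact h1

/-- Numerator and denominator of a product of conjugates. -/
theorem phi_mul_prod {I : Type} [Fintype I] (t : I → SL(2, ℤ)) (f' : Clo.FN (M * q))
    (g : Clo.FN M) (a b : _root_.Fermat.Agent.GTor.Clo.AT (M * q))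
    (hab : _root_.Fermat.Agent.GTor.Clo.phi (M * q) f' * algebraMap (_root_.Fermat.Agent.GTor.Clo.AT (M * q)) (_root_.Fermat.Agent.GTor.Clo.LN (M * q)) b
      = algebraMap (_root_.Fermat.Agent.GTor.Clo.AT (M * q)) (_root_.Fermat.Agent.GTor.Clo.LN (M * q)) a)
    (hnorm : _root_.Fermat.Agent.GTor.Clo.phi (M * q) (alphaC M q g) = ∏ i, _root_.Fermat.Agent.GTor.Clo.piN (M * q) (t i) (_root_.Fermat.Agent.GTor.Clo.phi (M * q) f')) :
    _root_.Fermat.Agent.GTor.Clo.phi (M * q) (alphaC M q g) * algebraMap (_root_.Fermat.Agent.GTor.Clo.AT (M * q)) (_root_.Fermat.Agent.GTor.Clo.LN (M * q)) (∏ i, t i • b)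
      = algebraMap (_root_.Fermat.Agent.GTor.Clo.AT (M * q)) (_root_.Fermat.Agent.GTor.Clo.LN (M * q)) (∏ i, t i • a) := by
  rw [hnorm, map_prod, map_prod, ← Finset.prod_mul_distrib]
  refine Finset.prod_congr rfl fun i _ => ?_
  rw [← _root_.Fermat.Agent.GTor.Clo.piN_algebraMap, ← _root_.Fermat.Agent.GTor.Clo.piN_algebraMap, ← map_mul, hab]

/-- The identity `a B = b A` on `ℍ`, slashed and multiplied over a family of matrices. -/
theorem prod_slash_identity {I : Type} [Fintype I] (t : I → SL(2, ℤ)) (N : ℕ) (k : ℤ)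
    (a b : _root_.Fermat.Agent.GTor.Clo.AT N) (A B : ℍ → ℂ)
    (hcore : ∀ τ : ℍ, ((_root_.Fermat.Agent.GTor.Clo.valAT N a : Hol) : ℍ → ℂ) τ * B τ = ((_root_.Fermat.Agent.GTor.Clo.valAT N b : Hol) : ℍ → ℂ) τ * A τ)
    (τ : ℍ) :
    ((_root_.Fermat.Agent.GTor.Clo.valAT N (∏ i, t i • a) : Hol) : ℍ → ℂ) τ * cosetProd k t B τ
      = ((_root_.Fermat.Agent.GTor.Clo.valAT N (∏ i, t i • b) : Hol) : ℍ → ℂ) τ * cosetProd k t A τ := by
  rw [cosetProd_apply, cosetProd_apply, valAT_prod_apply, valAT_prod_apply,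
    ← Finset.prod_mul_distrib, ← Finset.prod_mul_distrib]
  refine Finset.prod_congr rfl fun i _ => ?_
  rw [_root_.Fermat.Agent.GTor.Clo.valAT_smul, _root_.Fermat.Agent.GTor.Clo.valAT_smul, Hol.smul_apply, Hol.smul_apply, ModularForm.SL_slash_apply,
    ModularForm.SL_slash_apply, ← mul_assoc, ← mul_assoc, hcore]

theorem smul_AT_ne_zero (N : ℕ) (γ : SL(2, ℤ)) {b : _root_.Fermat.Agent.GTor.Clo.AT N} (hb : b ≠ 0) : γ • b ≠ 0 := by
  intro h0
  apply hb
  have h1 : γ⁻¹ • (γ • b) = γ⁻¹ • (0 : _root_.Fermat.Agent.GTor.Clo.AT N) := by rw [h0]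
  rwa [inv_smul_smul, smul_zero] at h1

/-- **The character of a function whose image in the closure is the product of the conjugates
of `f'`.** -/
theorem hasChar_of_phi_prod {I : Type} [Fintype I] [Nonempty I] (t : I → Gamma0 M)
    (ht : IsReps (inclG M q) t) (f' : Clo.FN (M * q))
    (φ : Additive (Gamma0 (M * q)) →+ ZMod n)
    (h : HasChar (M * q) n (toFNLc (M * q) f') φ) (g : Clo.FN M)
    (hnorm : _root_.Fermat.Agent.GTor.Clo.phi (M * q) (alphaC M q g) = ∏ i, _root_.Fermat.Agent.GTor.Clo.piN (M * q) (coeT t i) (_root_.Fermat.Agent.GTor.Clo.phi (M * q) f')) :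
    HasChar M n (toFNLc M g) (cor1 M q (ZMod n) φ) := by
  obtain ⟨k, R, B, hR, hB, hq⟩ := h
  -- the modular forms `Rⁿ`, `Bⁿ`
  have hBt : IsTwistedForm (M * q) n k 0 (B : ℍ → ℂ) := H56.isTwistedForm_of_modularForm n B
  obtain ⟨A₁, hA₁⟩ : ∃ A₁ : ModularForm (Gamma0 (M * q)) ((n : ℤ) * k),
      (A₁ : ℍ → ℂ) = fun z => R z ^ n := ⟨H56.toModularForm hR.pow, rfl⟩
  obtain ⟨B₁, hB₁⟩ : ∃ B₁ : ModularForm (Gamma0 (M * q)) ((n : ℤ) * k),
      (B₁ : ℍ → ℂ) = fun z => (B : ℍ → ℂ) z ^ n := ⟨H56.toModularForm hBt.pow, rfl⟩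
  have hq' : qLaurent A₁ = ((toFNLc (M * q) f' : FNL ℂ (M * q)) : LaurentSeries ℂ) * qLaurent B₁ := by
    rw [hA₁, hB₁]
    exact hq
  -- numerator and denominator in the closure
  obtain ⟨a, b, hb, hab⟩ := IsFractionRing.div_surjective (A := _root_.Fermat.Agent.GTor.Clo.AT (M * q)) (_root_.Fermat.Agent.GTor.Clo.phi (M * q) f')
  have hb0 : b ≠ 0 := nonZeroDivisors.ne_zero hb
  have hbL : algebraMap (_root_.Fermat.Agent.GTor.Clo.AT (M * q)) (_root_.Fermat.Agent.GTor.Clo.LN (M * q)) b ≠ 0 :=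
    IsFractionRing.to_map_ne_zero_of_mem_nonZeroDivisors hb
  have hab' : _root_.Fermat.Agent.GTor.Clo.phi (M * q) f' * algebraMap (_root_.Fermat.Agent.GTor.Clo.AT (M * q)) (_root_.Fermat.Agent.GTor.Clo.LN (M * q)) b
      = algebraMap (_root_.Fermat.Agent.GTor.Clo.AT (M * q)) (_root_.Fermat.Agent.GTor.Clo.LN (M * q)) a := by
    rw [← hab, div_mul_cancel₀ _ hbL]
  have hcore := ratio_core (M * q) f' A₁ B₁ hq' a b hab'
  rw [hA₁, hB₁] at hcore
  -- the products
  have hb'0 : (∏ i, coeT t i • b) ≠ 0 :=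
    Finset.prod_ne_zero_iff.mpr fun i _ => smul_AT_ne_zero (M * q) _ hb0
  have hab'' := phi_mul_prod M q (coeT t) f' g a b hab' hnorm
  have hser1 := series_of_phi_alpha M q g _ _ hab''
  have hprod : ∀ τ : ℍ, ((_root_.Fermat.Agent.GTor.Clo.valAT (M * q) (∏ i, coeT t i • a) : Hol) : ℍ → ℂ) τ
        * (fun z => cosetProd k (coeT t) (B : ℍ → ℂ) z ^ n) τ
      = ((_root_.Fermat.Agent.GTor.Clo.valAT (M * q) (∏ i, coeT t i • b) : Hol) : ℍ → ℂ) τ
        * (fun z => cosetProd k (coeT t) R z ^ n) τ := by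
    intro τ
    rw [← cosetProd_pow, ← cosetProd_pow]
    exact prod_slash_identity (coeT t) (M * q) ((n : ℤ) * k) a b _ _ hcore τ
  -- modular forms of level `M`
  have hR' := isTwistedForm_cosetProd t ht hR
  have hB' := isTwistedForm_cosetProd_zero n t ht B
  obtain ⟨A₂, hA₂⟩ : ∃ A₂ : ModularForm (Gamma0 M)
      ((n : ℤ) * (k * (Fintype.card I : ℤ))),
      (A₂ : ℍ → ℂ) = fun z => cosetProd k (coeT t) R z ^ n := ⟨H56.toModularForm hR'.pow, rfl⟩
  obtain ⟨B₂, hB₂⟩ : ∃ B₂ : ModularForm (Gamma0 M)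
      ((n : ℤ) * (k * (Fintype.card I : ℤ))),
      (B₂ : ℍ → ℂ) = fun z => cosetProd k (coeT t) (B : ℍ → ℂ) z ^ n :=
    ⟨H56.toModularForm hB'.pow, rfl⟩
  have e1 := (hasUExp_valAT (M * q) (∏ i, coeT t i • a)).mul
    (hasUExp_modularForm_level M (M * q) B₂)
  have e2 := (hasUExp_valAT (M * q) (∏ i, coeT t i • b)).mul
    (hasUExp_modularForm_level M (M * q) A₂)
  rw [hB₂] at e1
  rw [hA₂] at e2
  have hser2 := (e1.congr hprod).unique e2
  rw [← hser1] at hser2
  -- cancel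
  have hub : uExpC (M * q) (∏ i, coeT t i • b) ≠ 0 := by
    intro h0
    exact hb'0 (_root_.Fermat.Agent.GTor.Clo.uExpT_injective (M * q) (by rw [map_zero]; exact h0))
  have hser3 : qExpand ℂ (M * q)
      (((toFNLc M g : FNL ℂ M) : LaurentSeries ℂ)
        * qLaurent (fun z => cosetProd k (coeT t) (B : ℍ → ℂ) z ^ n))
      = qExpand ℂ (M * q) (qLaurent (fun z => cosetProd k (coeT t) R z ^ n)) := by
    apply mul_left_cancel₀ hub
    rw [map_mul]
    linear_combination hser2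
  have hfin := ModularCurve.qExpand_injective (R := ℂ) (N := M * q) hser3
  exact hasChar_cosetProd t ht hR hB _ hfin.symm

/-- **The character of the norm along `α`.** -/
theorem hasChar_normAlpha (f' : Clo.FN (M * q)) (φ : Additive (Gamma0 (M * q)) →+ ZMod n)
    (h : HasChar (M * q) n (toFNLc (M * q) f') φ) :
    HasChar M n (toFNLc M (normAlphaC M q f')) (cor1 M q (ZMod n) φ) := by
  classical
  haveI hfi : (inclG M q).range.FiniteIndex := finiteIndex_inclG_h24 M q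
  letI : Fintype (Gamma0 M ⧸ (inclG M q).range) := (inclG M q).range.fintypeQuotientOfFiniteIndex
  haveI : Nonempty (Gamma0 M ⧸ (inclG M q).range) := ⟨((1 : Gamma0 M) : Gamma0 M ⧸ _)⟩
  exact hasChar_of_phi_prod M q n (fun x : Gamma0 M ⧸ (inclG M q).range => x.out)
    (isReps_out (inclG M q)) f' φ h _ (phi_norm_alpha M q _ (isReps_out (inclG M q)) f')

end Fermat.Agent.L.Pivot.Geom.H24

end
end
-- ==== END Fermat.Agent.L.Pivot.Geom.H24_B2Ratio

-- ==== BEGIN Fermat.Agent.L.Pivot.Geom.H24_B2TowerC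
section
attribute [local instance 10000] SubalgebraClass.toAlgebra

/-!
# PIVOT, PV-GEOM, leaf PVG-B2 (helper24), part 4a: the tower `F_M ⊂ F_{Mq}` over `ℂ`

Port to the closure over `ℂ` (`GTor/Clo`) of helper2's package D (`Lib/HeckeComm/H2_Deg.lean`) and
helper44's package G (`Lib/HeckeComm/H44_GenJ.lean`):

* `finrank_alphaC_mul` : `[F_{Mq} : α F_M] * ψ(M) = ψ(M q)`;
* `finite_alphaC` : `F_{Mq} / α F_M` is finite;
* `adjoin_alphaC_jdF` : `F_{Mq} = (α F_M) (j (q ^ (M q)))`.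
-/

set_option autoImplicit false
set_option linter.style.haveILetI false
set_option linter.unusedSectionVars false

open ModularCurve AlgebraicCurve IntermediateField
open scoped MatrixGroups

noncomputable section

namespace Fermat.Agent.L.Pivot.Geom.H24

open Fermat.Agent.GTor.Clo

/-! ### Degrees -/

/-- `ℂ(j)` inside the Laurent series. -/
def E0C : IntermediateField Kbar (LaurentSeries Kbar) := IntermediateField.adjoin Kbar {jBar}

theorem E0C_le (X : ℕ) [NeZero X] : E0C ≤ GTor.Clo.modularFunctionFieldBar X := by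
  rw [E0C, adjoin_le_iff]
  rintro _ rfl
  exact jBar_mem X

theorem map_adjoin_jFC (X : ℕ) [NeZero X] :
    (Kbar⟮jF X⟯).map (GTor.Clo.modularFunctionFieldBar X).val = E0C := by
  rw [adjoin_map, Set.image_singleton]
  rfl

theorem comap_E0C (X : ℕ) [NeZero X] :
    E0C.comap (GTor.Clo.modularFunctionFieldBar X).val = Kbar⟮jF X⟯ := by
  ext x
  show (GTor.Clo.modularFunctionFieldBar X).val x ∈ E0C ↔ _
  constructor
  · intro hx
    rw [← map_adjoin_jFC X] at hx
    obtain ⟨y, hy, hyx⟩ := hx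
    have : y = x := Subtype.ext hyx
    rwa [← this]
  · intro hx
    rw [← map_adjoin_jFC X]
    exact ⟨x, hx, rfl⟩

theorem relfinrank_E0C (X : ℕ) [NeZero X] :
    relfinrank E0C (GTor.Clo.modularFunctionFieldBar X) = dedekindPsi X := by
  have h := finrank_comap E0C (GTor.Clo.modularFunctionFieldBar X).val
  rw [fieldRange_val, comap_E0C] at h
  rw [← h]
  exact asm_finrank (modClosure X)

variable (M q : ℕ) [NeZero M] [NeZero q]

theorem modularFunctionFieldBar_le_mul :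
    GTor.Clo.modularFunctionFieldBar M ≤ GTor.Clo.modularFunctionFieldBar (M * q) := by
  show laurentBaseChange Kbar (modularFunctionFieldFull M)
    ≤ laurentBaseChange Kbar (modularFunctionFieldFull (M * q))
  rw [laurentBaseChange, IntermediateField.adjoin_le_iff]
  rintro _ ⟨y, hy, rfl⟩
  exact coeffEmb_mem_laurentBaseChange _ (full_degeneracy_le (dvd_mul_right M q) hy)

theorem relfinrank_alphaC :
    relfinrank (GTor.Clo.modularFunctionFieldBar M) (GTor.Clo.modularFunctionFieldBar (M * q))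
      = (letI := (alphaC M q).toRingHom.toAlgebra; Module.finrank (FN M) (FN (M * q))) := by
  letI := (alphaC M q).toRingHom.toAlgebra
  rw [relfinrank_eq_finrank_of_le (modularFunctionFieldBar_le_mul M q)]
  let e : FN (M * q) ≃ₗ[FN M] ↥(extendScalars (modularFunctionFieldBar_le_mul M q)) :=
    { toFun := fun y => ⟨y.1, y.2⟩
      invFun := fun y => ⟨y.1, y.2⟩
      map_add' := fun _ _ => rfl
      map_smul' := fun a y => Subtype.ext rfl
      left_inv := fun _ => rfl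
      right_inv := fun _ => rfl }
  exact e.finrank_eq.symm

theorem dedekindPsi_pos_h24 (N : ℕ) [NeZero N] : 0 < dedekindPsi N := by
  rw [← Fermat.Agent.S20.H19.G1]
  exact Nat.pos_of_ne_zero Subgroup.FiniteIndex.index_ne_zero

/-- **Package D over `ℂ`**: `[F_{Mq} : α F_M] * ψ(M) = ψ(M q)`. -/
theorem finrank_alphaC_mul :
    (letI := (alphaC M q).toRingHom.toAlgebra; Module.finrank (FN M) (FN (M * q)))
      * dedekindPsi M = dedekindPsi (M * q) := by
  rw [← relfinrank_alphaC M q, ← relfinrank_E0C M, ← relfinrank_E0C (M * q), mul_comm]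
  exact relfinrank_mul_relfinrank (E0C_le M) (modularFunctionFieldBar_le_mul M q)

theorem finrank_alphaC_pos :
    0 < (letI := (alphaC M q).toRingHom.toAlgebra; Module.finrank (FN M) (FN (M * q))) := by
  have h1 := finrank_alphaC_mul M q
  have h2 := dedekindPsi_pos_h24 (M * q)
  rw [← h1] at h2
  exact Nat.pos_of_mul_pos_right h2

/-- Finiteness of `F_{Mq} / α F_M` over `ℂ`. -/
theorem finite_alphaC :
    letI := (alphaC M q).toRingHom.toAlgebra
    Module.Finite (FN M) (FN (M * q)) := by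
  letI := (alphaC M q).toRingHom.toAlgebra
  exact Module.finite_of_finrank_pos (finrank_alphaC_pos M q)

/-! ### Generation by `j_N` -/

section Gen

variable (N : ℕ) [NeZero N]

/-- An automorphism of the closure fixing `j_N` fixes `F_N`. -/
theorem fixingSubgroup_adjoin_le_C :
    (IntermediateField.adjoin EN {phi N (jdF N N dvd_rfl)} :
        IntermediateField EN (LN N)).fixingSubgroup
      ≤ (IsScalarTower.toAlgHom EN (FN N) (LN N)).fieldRange.fixingSubgroup := by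
  intro σ hσ
  obtain ⟨γ, rfl⟩ := piN_surjective N σ
  rw [IntermediateField.mem_fixingSubgroup_iff] at hσ ⊢
  have h1 := hσ (phi N (jdF N N dvd_rfl))
    (IntermediateField.subset_adjoin _ _ (Set.mem_singleton _))
  rw [piN_phi_jdF, phi_jdF] at h1
  have h2 := IsFractionRing.injective (AT N) (LN N) h1
  have h3 := (toAT N).injective h2
  have hγ := mem_Gamma0_of_smul_jdA N γ h3
  rintro _ ⟨y, rfl⟩
  exact piN_phi_of_mem_Gamma0 N γ hγ y

/-- The image of `F_N` in the closure is `EN (j_N)`. -/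
theorem fieldRange_eq_adjoin_C :
    (IsScalarTower.toAlgHom EN (FN N) (LN N)).fieldRange
      = IntermediateField.adjoin EN {phi N (jdF N N dvd_rfl)} := by
  apply le_antisymm
  · rw [← IsGalois.fixedField_fixingSubgroup
      (IntermediateField.adjoin EN {phi N (jdF N N dvd_rfl)} : IntermediateField EN (LN N)),
      IntermediateField.le_iff_le]
    exact fixingSubgroup_adjoin_le_C N
  · rw [IntermediateField.adjoin_le_iff]
    rintro _ rfl
    exact ⟨jdF N N dvd_rfl, rfl⟩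

/-- `F_N` is generated by `j_N` over `EN = ℂ(j)`. -/
theorem adjoin_EN_jdF_C :
    (IntermediateField.adjoin EN {jdF N N dvd_rfl} : IntermediateField EN (FN N)) = ⊤ := by
  apply IntermediateField.map_injective (IsScalarTower.toAlgHom EN (FN N) (LN N))
  rw [IntermediateField.adjoin_map, Set.image_singleton, ← AlgHom.fieldRange_eq_map,
    fieldRange_eq_adjoin_C]
  rfl

end Gen

/-- **Package G over `ℂ`**: `F_{Mq}` is generated over `α F_M` by `j (q ^ (M q))`. -/
theorem adjoin_alphaC_jdF :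
    letI := (alphaC M q).toRingHom.toAlgebra
    (IntermediateField.adjoin (FN M) {jdF (M * q) (M * q) dvd_rfl} :
      IntermediateField (FN M) (FN (M * q))) = ⊤ := by
  letI := (alphaC M q).toRingHom.toAlgebra
  let D : IntermediateField EN (FN (M * q)) :=
    { (IntermediateField.adjoin (FN M) {jdF (M * q) (M * q) dvd_rfl} :
        IntermediateField (FN M) (FN (M * q))).toSubfield with
      algebraMap_mem' := fun c => by
        have hc : algebraMap EN (FN (M * q)) c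
            = algebraMap (FN M) (FN (M * q)) (algebraMap EN (FN M) c) :=
          algebraMap_EN_alpha M q c
        rw [hc]
        exact (IntermediateField.adjoin (FN M) {jdF (M * q) (M * q) dvd_rfl} :
          IntermediateField (FN M) (FN (M * q))).algebraMap_mem _ }
  have hD : D = ⊤ := by
    rw [eq_top_iff, ← adjoin_EN_jdF_C (M * q), IntermediateField.adjoin_le_iff]
    rintro _ rfl
    exact IntermediateField.subset_adjoin (FN M) _ (Set.mem_singleton _)
  rw [eq_top_iff]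
  intro x _
  have hx : x ∈ D := by rw [hD]; exact IntermediateField.mem_top
  exact hx

end Fermat.Agent.L.Pivot.Geom.H24

end
end
-- ==== END Fermat.Agent.L.Pivot.Geom.H24_B2TowerC

-- ==== BEGIN Fermat.Agent.L.Pivot.Geom.H25_ChiLow
section

/-!
# P-NEW, sub-lemma CHI-LOW (helper25)

`N'' ∣ N'`, `S` contains the primes dividing `N'`.  Then the restriction
`rest : 𝕋_S(N') → 𝕋_S(N'')` (helper41) is surjective, every character `χ'` of `𝕋_S(N'')`
agreeing with a character `χ` of `𝕋_S(N')` on the `T_ℓ` equals `χ` after restriction, and a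
character `χ''` of `𝕋_S(N')` with the same kernel as `χ` descends to `𝕋_S(N'')`.

* `restSame` : the restriction map for equal sets `S`;
* `restSame_surjective`;
* `comp_restSame_eq` : `χ'.comp rest = χ`;
* `exists_chiLow` : the statement asked for by helper81.

Complete proofs, standard axioms only.
-/

set_option autoImplicit false

open CuspForm Fermat.Agent.S59.Asm

namespace Fermat.Agent.L.Pivot.Geom.H25

section

variable {N' N'' : ℕ} [NeZero N'] [NeZero N'']

/-- Induction principle for `heckeAlgebra N 2 S` when `S` contains the primes dividing `N`. -/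
theorem hecke_ind25 {N : ℕ} [NeZero N] {S : Set ℕ} (hS : ∀ q : ℕ, q.Prime → q ∣ N → q ∈ S)
    {P : CuspForm.heckeAlgebra N 2 S → Prop}
    (hT : ∀ (ℓ : ℕ) (hℓ : ℓ.Prime) (hℓN : ¬ ℓ ∣ N) (hℓS : ℓ ∉ S),
      P (CuspForm.heckeAlgebra.T hℓ hℓN hℓS))
    (hint : ∀ n : ℤ, P (n : CuspForm.heckeAlgebra N 2 S))
    (hadd : ∀ x y, P x → P y → P (x + y)) (hmul : ∀ x y, P x → P y → P (x * y)) :
    ∀ x, P x := by
  rintro ⟨x, hx⟩
  induction hx using Algebra.adjoin_induction with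
  | mem x hx =>
    rcases hx with ⟨ℓ, hℓ, hℓN, hℓS, rfl⟩ | ⟨q, hqN, hq, hqS, rfl⟩
    · exact hT ℓ hℓ hℓN hℓS
    · exact absurd (hS q hq hqN) hqS
  | algebraMap n =>
    have : (⟨algebraMap ℤ _ n, Subalgebra.algebraMap_mem _ n⟩ : CuspForm.heckeAlgebra N 2 S)
        = (n : CuspForm.heckeAlgebra N 2 S) := by
      apply Subtype.ext
      simp
    rw [this]
    exact hint n
  | add x y hx hy ihx ihy =>
    have : (⟨x + y, Subalgebra.add_mem _ hx hy⟩ : CuspForm.heckeAlgebra N 2 S)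
        = ⟨x, hx⟩ + ⟨y, hy⟩ := rfl
    rw [this]
    exact hadd _ _ ihx ihy
  | mul x y hx hy ihx ihy =>
    have : (⟨x * y, Subalgebra.mul_mem _ hx hy⟩ : CuspForm.heckeAlgebra N 2 S)
        = ⟨x, hx⟩ * ⟨y, hy⟩ := rfl
    rw [this]
    exact hmul _ _ ihx ihy

/-- The restriction `𝕋_S(N') → 𝕋_S(N'')` for `N'' ∣ N'`, `S ⊇ {q ∣ N'}`. -/
noncomputable def restSame (hd : N'' ∣ N') (S : Set ℕ)
    (hS : ∀ q : ℕ, q.Prime → q ∣ N' → q ∈ S) :
    CuspForm.heckeAlgebra N' 2 S →+* CuspForm.heckeAlgebra N'' 2 S :=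
  H41.rest hd 2 (subset_refl S) (fun q hq hqN' _ => hS q hq hqN')

theorem restSame_T (hd : N'' ∣ N') (S : Set ℕ) (hS : ∀ q : ℕ, q.Prime → q ∣ N' → q ∈ S)
    {ℓ : ℕ} (hℓ : ℓ.Prime) (hℓN' : ¬ ℓ ∣ N') (hℓS : ℓ ∉ S) (hℓN : ¬ ℓ ∣ N'') :
    restSame hd S hS (CuspForm.heckeAlgebra.T hℓ hℓN' hℓS) =
      CuspForm.heckeAlgebra.T hℓ hℓN hℓS :=
  H41.rest_T hd 2 (subset_refl S) (fun q hq hqN' _ => hS q hq hqN') hℓ hℓN' hℓS hℓN hℓS

/-- The restriction is surjective: both algebras are generated by the `T_ℓ`, `ℓ ∉ S`. -/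
theorem restSame_surjective (hd : N'' ∣ N') (S : Set ℕ)
    (hS : ∀ q : ℕ, q.Prime → q ∣ N' → q ∈ S) :
    Function.Surjective (restSame hd S hS) := by
  have hS'' : ∀ q : ℕ, q.Prime → q ∣ N'' → q ∈ S := fun q hq hqN => hS q hq (hqN.trans hd)
  refine hecke_ind25 hS'' (fun ℓ hℓ hℓN hℓS => ?_) (fun n => ?_) (fun x y hx hy => ?_)
    (fun x y hx hy => ?_)
  · have hℓN' : ¬ ℓ ∣ N' := fun h => hℓS (hS ℓ hℓ h)
    exact ⟨CuspForm.heckeAlgebra.T hℓ hℓN' hℓS, restSame_T hd S hS hℓ hℓN' hℓS hℓN⟩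
  · exact ⟨(n : CuspForm.heckeAlgebra N' 2 S), map_intCast _ n⟩
  · obtain ⟨s, hs⟩ := hx
    obtain ⟨t, ht⟩ := hy
    exact ⟨s + t, by rw [map_add, hs, ht]⟩
  · obtain ⟨s, hs⟩ := hx
    obtain ⟨t, ht⟩ := hy
    exact ⟨s * t, by rw [map_mul, hs, ht]⟩

/-- Two ring homomorphisms out of `𝕋_S(N)` (with `S ⊇ {q ∣ N}`) agreeing on the `T_ℓ` are
equal. -/
theorem ringHom_ext25 {N : ℕ} [NeZero N] {S : Set ℕ} (hS : ∀ q : ℕ, q.Prime → q ∣ N → q ∈ S)
    {E : Type*} [Ring E] (f g : CuspForm.heckeAlgebra N 2 S →+* E)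
    (h : ∀ (ℓ : ℕ) (hℓ : ℓ.Prime) (hℓN : ¬ ℓ ∣ N) (hℓS : ℓ ∉ S),
      f (CuspForm.heckeAlgebra.T hℓ hℓN hℓS) = g (CuspForm.heckeAlgebra.T hℓ hℓN hℓS)) :
    f = g := by
  refine RingHom.ext ?_
  refine hecke_ind25 hS h (fun n => ?_) (fun x y hx hy => ?_) (fun x y hx hy => ?_)
  · rw [map_intCast, map_intCast]
  · rw [map_add, map_add, hx, hy]
  · rw [map_mul, map_mul, hx, hy]

/-- A character of level `N''` agreeing with a character `χ` of level `N'` on the `T_ℓ` is `χ`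
after restriction. -/
theorem comp_restSame_eq (hd : N'' ∣ N') (S : Set ℕ) (hS : ∀ q : ℕ, q.Prime → q ∣ N' → q ∈ S)
    {E : Type*} [Ring E]
    (χ : CuspForm.heckeAlgebra N' 2 S →+* E) (χ' : CuspForm.heckeAlgebra N'' 2 S →+* E)
    (hχ' : ∀ (ℓ : ℕ) (hℓ : ℓ.Prime) (hℓN' : ¬ ℓ ∣ N') (hℓS : ℓ ∉ S) (hℓN : ¬ ℓ ∣ N''),
      χ' (CuspForm.heckeAlgebra.T hℓ hℓN hℓS) = χ (CuspForm.heckeAlgebra.T hℓ hℓN' hℓS)) :
    χ'.comp (restSame hd S hS) = χ := by
  refine ringHom_ext25 hS _ _ (fun ℓ hℓ hℓN' hℓS => ?_)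
  have hℓN : ¬ ℓ ∣ N'' := fun h => hℓN' (h.trans hd)
  rw [RingHom.comp_apply, restSame_T hd S hS hℓ hℓN' hℓS hℓN]
  exact hχ' ℓ hℓ hℓN' hℓS hℓN

/-- The kernel of the restriction lies in the kernel of every character of level `N'` which
comes from level `N''`. -/
theorem ker_restSame_le (hd : N'' ∣ N') (S : Set ℕ) (hS : ∀ q : ℕ, q.Prime → q ∣ N' → q ∈ S)
    {E : Type*} [Ring E]
    (χ : CuspForm.heckeAlgebra N' 2 S →+* E) (χ' : CuspForm.heckeAlgebra N'' 2 S →+* E)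
    (hχ' : ∀ (ℓ : ℕ) (hℓ : ℓ.Prime) (hℓN' : ¬ ℓ ∣ N') (hℓS : ℓ ∉ S) (hℓN : ¬ ℓ ∣ N''),
      χ' (CuspForm.heckeAlgebra.T hℓ hℓN hℓS) = χ (CuspForm.heckeAlgebra.T hℓ hℓN' hℓS)) :
    RingHom.ker (restSame hd S hS) ≤ RingHom.ker χ := by
  intro x hx
  rw [RingHom.mem_ker] at hx ⊢
  rw [← comp_restSame_eq hd S hS χ χ' hχ', RingHom.comp_apply, hx, map_zero]

/-- **CHI-LOW.**  `χ` a character of `𝕋_S(N')` coming from a character `χ'` of `𝕋_S(N'')`
(`N'' ∣ N'`, `S ⊇ {q ∣ N'}`), and `χ''` a character of `𝕋_S(N')` with `ker χ'' = ker χ`: then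
`χ''` comes from a character of `𝕋_S(N'')` as well. -/
theorem exists_chiLow {N' N'' : ℕ} [NeZero N'] [NeZero N''] (hd : N'' ∣ N') (S : Set ℕ)
    (hS : ∀ q : ℕ, q.Prime → q ∣ N' → q ∈ S)
    {E L : Type} [CommRing E] [CommRing L]
    (χ : CuspForm.heckeAlgebra N' 2 S →+* E) (χ' : CuspForm.heckeAlgebra N'' 2 S →+* E)
    (hχ' : ∀ (ℓ : ℕ) (hℓ : ℓ.Prime) (hℓN' : ¬ ℓ ∣ N') (hℓS : ℓ ∉ S) (hℓN : ¬ ℓ ∣ N''),
      χ' (CuspForm.heckeAlgebra.T hℓ hℓN hℓS) = χ (CuspForm.heckeAlgebra.T hℓ hℓN' hℓS))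
    (χ'' : CuspForm.heckeAlgebra N' 2 S →+* L) (hker : RingHom.ker χ'' = RingHom.ker χ) :
    ∃ χlow : CuspForm.heckeAlgebra N'' 2 S →+* L,
      ∀ (ℓ : ℕ) (hℓ : ℓ.Prime) (hℓN : ¬ ℓ ∣ N'') (hℓS : ℓ ∉ S) (hℓN' : ¬ ℓ ∣ N'),
        χlow (CuspForm.heckeAlgebra.T hℓ hℓN hℓS) = χ'' (CuspForm.heckeAlgebra.T hℓ hℓN' hℓS) := by
  have hle : RingHom.ker (restSame hd S hS) ≤ RingHom.ker χ'' := by
    rw [hker]
    exact ker_restSame_le hd S hS χ χ' hχ'
  have hsurj := restSame_surjective hd S hS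
  refine ⟨RingHom.liftOfSurjective (restSame hd S hS) hsurj ⟨χ'', hle⟩, ?_⟩
  intro ℓ hℓ hℓN hℓS hℓN'
  rw [← restSame_T hd S hS hℓ hℓN' hℓS hℓN]
  exact RingHom.liftOfRightInverse_comp_apply _ _ _ _ _

/-- Variant with the full factorisation property. -/
theorem exists_chiLow_comp {N' N'' : ℕ} [NeZero N'] [NeZero N''] (hd : N'' ∣ N') (S : Set ℕ)
    (hS : ∀ q : ℕ, q.Prime → q ∣ N' → q ∈ S)
    {E L : Type*} [CommRing E] [CommRing L]
    (χ : CuspForm.heckeAlgebra N' 2 S →+* E) (χ' : CuspForm.heckeAlgebra N'' 2 S →+* E)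
    (hχ' : ∀ (ℓ : ℕ) (hℓ : ℓ.Prime) (hℓN' : ¬ ℓ ∣ N') (hℓS : ℓ ∉ S) (hℓN : ¬ ℓ ∣ N''),
      χ' (CuspForm.heckeAlgebra.T hℓ hℓN hℓS) = χ (CuspForm.heckeAlgebra.T hℓ hℓN' hℓS))
    (χ'' : CuspForm.heckeAlgebra N' 2 S →+* L) (hker : RingHom.ker χ'' = RingHom.ker χ) :
    ∃ χlow : CuspForm.heckeAlgebra N'' 2 S →+* L,
      χlow.comp (restSame hd S hS) = χ'' := by
  have hle : RingHom.ker (restSame hd S hS) ≤ RingHom.ker χ'' := by
    rw [hker]
    exact ker_restSame_le hd S hS χ χ' hχ'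
  have hsurj := restSame_surjective hd S hS
  exact ⟨RingHom.liftOfSurjective (restSame hd S hS) hsurj ⟨χ'', hle⟩,
    RingHom.liftOfRightInverse_comp _ _ _ _⟩

end

end Fermat.Agent.L.Pivot.Geom.H25

end
-- ==== END Fermat.Agent.L.Pivot.Geom.H25_ChiLow

-- ==== BEGIN Fermat.Agent.L.Pivot.Geom.H4_B1Alpha
section

/-!
# PIVOT / PV-GEOM, leaf PVG-B1 (helper4): the twisted class is killed by the transfer along the
inclusion `Γ₀(q m q) ⊂ Γ₀(q m)`

Setting of `NEB.EIG.H39` (Betti twisting, one step at the prime `q`, `c₁ = 1`):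
`K₁ = Gam1 (q m) q ⊇ Γ' = Gam1 (q m q) q ⊆ K₂ = Gam1 (q m q) 1`, `S φ = cor (Tw_χ (res φ))`.

* `alpha_nu_eq`  : `α_U ν_W = δ α_{U'} ν_{W'}` with `δ ∈ Γ₀(q m)`, `δ₀₀ = 1 + m U (W - W')`, whenever
  `q ∣ U - U' (1 + m U (W - W'))`;
* `fInt_rel`     : `φ (α_U ν_W g ν_W⁻¹ α_U⁻¹) = χ(1 + m U (W - W'))² φ (α_{U'} ν_{W'} g …)`;
* `isReps_repAlpha` : the `ν(q m v)⁻¹`, `v mod q`, represent `Γ₀(q m) / Γ₀(q m q)`;
* `cor1_stepMap` : `S41.cor1 (S φ) = 0` for `χ ≠ 1`.
-/

set_option autoImplicit false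

namespace Fermat.Agent.L.Pivot.Geom.H4

open CongruenceSubgroup Matrix.SpecialLinearGroup ModularForm Finset
open scoped MatrixGroups
open Fermat.Agent.NEB.EIG.H39 Fermat.Agent.S41 Fermat.Agent.S41.H19 Fermat.Agent.Betti

/-- The element `δ` with `α_U ν_W = δ α_{U'} ν_{W'}`. -/
def deltaSL (q m : ℕ) (U U' W W' e : ℤ)
    (he : U - U' * (1 + m * U * (W - W')) = q * e) : SL(2, ℤ) :=
  _root_.Fermat.Agent.NEB.EIG.H39.mkSL (1 + m * U * (W - W')) e (q * m * (W - W')) (1 - m * (W - W') * U')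
    (by linear_combination ((m : ℤ) * (W - W')) * he)

theorem alpha_nu_eq {q : ℕ} (m : ℕ) (hq0 : q ≠ 0) (U U' W W' e : ℤ)
    (he : U - U' * (1 + m * U * (W - W')) = q * e) :
    alphaGL q U * mapGL ℝ (nuSL (q * m * W))
      = mapGL ℝ (deltaSL q m U U' W W' e he) * alphaGL q U' * mapGL ℝ (nuSL (q * m * W')) := by
  have hq' : (q : ℝ) ≠ 0 := by exact_mod_cast hq0
  have he' : (U : ℝ) - U' * (1 + m * U * (W - W')) = q * e := by exact_mod_cast he
  have hdiv : (U : ℝ) / q = (1 + m * U * (W - W')) * (U' / q) + e := by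
    field_simp
    linear_combination he'
  apply Units.ext
  ext i j
  fin_cases i <;> fin_cases j
  · simp [deltaSL, nuSL, Matrix.mul_apply, Fin.sum_univ_two]
    rw [← hdiv]
    field_simp
    ring
  · simp [deltaSL, nuSL, Matrix.mul_apply, Fin.sum_univ_two]
    exact hdiv
  · simp [deltaSL, nuSL, Matrix.mul_apply, Fin.sum_univ_two]
    field_simp
    ring
  · simp [deltaSL, nuSL, Matrix.mul_apply, Fin.sum_univ_two]
    field_simp
    ring

theorem deltaSL_dvd (q m : ℕ) (U U' W W' e : ℤ)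
    (he : U - U' * (1 + m * U * (W - W')) = q * e) :
    ((q * m : ℕ) : ℤ) ∣ (deltaSL q m U U' W W' e he) 1 0 := by
  show ((q * m : ℕ) : ℤ) ∣ (q : ℤ) * m * (W - W')
  push_cast
  exact Dvd.intro _ rfl

theorem deltaSL_mem {q m c₁ : ℕ} (hc₁ : c₁ ∣ m) (U U' W W' e : ℤ)
    (he : U - U' * (1 + m * U * (W - W')) = q * e) :
    deltaSL q m U U' W W' e he ∈ Gam1 (q * m) c₁ := by
  obtain ⟨m', rfl⟩ := hc₁
  refine ⟨deltaSL_dvd q _ U U' W W' e he, ?_, ?_⟩
  · show (c₁ : ℤ) ∣ (q : ℤ) * ((c₁ * m' : ℕ) : ℤ) * (W - W')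
    push_cast
    exact ⟨q * m' * (W - W'), by ring⟩
  · show (c₁ : ℤ) ∣ 1 + ((c₁ * m' : ℕ) : ℤ) * U * (W - W') - 1
    push_cast
    exact ⟨m' * U * (W - W'), by ring⟩

section Step

variable {q m c₁ : ℕ} {L : Type*} [Field L]
variable (hq : q.Prime) (hc₁ : c₁ ∣ m)

/-- The conjugate `ν_W g ν_W⁻¹` of `g ∈ Γ(q m q)`, as an element of `Γ' = Gam1 (q m q) (q c₁)`. -/
def xNu (g : SL(2, ℤ)) (hg : g ∈ Gamma (q * m * q)) (W : ℤ) : Gam1 (q * m * q) (q * c₁) :=
  ⟨nuSL (q * m * W) * g * (nuSL (q * m * W))⁻¹,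
    step_hN hc₁ ((Gamma_normal (q * m * q)).conj_mem g hg _)⟩

/-- The value `φ (α_U ν_W g ν_W⁻¹ α_U⁻¹)`. -/
noncomputable def fInt (φ : Additive (Gam1 (q * m) (q * c₁)) →+ L) (g : SL(2, ℤ))
    (hg : g ∈ Gamma (q * m * q)) (U W : ℤ) : L :=
  Aop hq.ne_zero (dvd_mul_right q c₁) (step_hcq hc₁) U (resK (step_hle1 q m c₁) φ)
    (Additive.ofMul (xNu hc₁ g hg W))

theorem fInt_rel (χ : MulChar (ZMod q) L) (ω : SL(2, ℤ) → L)
    (hω : ∀ g ∈ Gam1 (q * m) c₁, ω g = 1)
    {φ : Additive (Gam1 (q * m) (q * c₁)) →+ L}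
    (hφ : IsEig (q * m) (q * c₁) (step_hcK1 hc₁)
      (fun g => χ ((g 0 0 : ℤ) : ZMod q) ^ 2 * ω g) φ)
    (g : SL(2, ℤ)) (hg : g ∈ Gamma (q * m * q)) (U U' W W' e : ℤ)
    (he : U - U' * (1 + m * U * (W - W')) = q * e) :
    fInt hq hc₁ φ g hg U W
      = χ (((1 + m * U * (W - W') : ℤ)) : ZMod q) ^ 2 * fInt hq hc₁ φ g hg U' W' := by
  have hδ := deltaSL_dvd q m U U' W W' e he
  have h1 := hφ (deltaSL q m U U' W W' e he) hδ
  have h2 := congrArg (fun ψ : Additive (Gam1 (q * m) (q * c₁)) →+ L =>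
    ψ (Additive.ofMul (Subgroup.inclusion (step_hle1 q m c₁)
      (conjEnd (inc_injective _) ⟨alphaGL q U', alphaGL_mem_Nrm hq.ne_zero (dvd_mul_right q c₁)
        (step_hcq hc₁) U'⟩ (xNu hc₁ g hg W'))))) h1
  simp only [AddMonoidHom.smul_apply, Dop_apply, tw_apply] at h2
  rw [hω _ (deltaSL_mem hc₁ U U' W W' e he), mul_one] at h2
  have h00 : (deltaSL q m U U' W W' e he) 0 0 = 1 + m * U * (W - W') := rfl
  rw [h00] at h2
  unfold fInt
  rw [Aop_apply, Aop_apply, tw_apply, tw_apply, resK_apply, resK_apply, smul_eq_mul] at *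
  rw [← h2]
  congr 2
  apply inc_injective
  rw [e_conjEnd]
  simp only [inc_apply, Subgroup.coe_inclusion]
  have e1 := e_conjEnd (inc_injective (Gam1 (q * m * q) (q * c₁)))
    ⟨alphaGL q U, alphaGL_mem_Nrm hq.ne_zero (dvd_mul_right q c₁) (step_hcq hc₁) U⟩
    (xNu hc₁ g hg W)
  have e2 := e_conjEnd (inc_injective (Gam1 (q * m * q) (q * c₁)))
    ⟨alphaGL q U', alphaGL_mem_Nrm hq.ne_zero (dvd_mul_right q c₁) (step_hcq hc₁) U'⟩
    (xNu hc₁ g hg W')
  simp only [inc_apply] at e1 e2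
  rw [e1, e2]
  have hM := alpha_nu_eq m hq.ne_zero U U' W W' e he
  simp only [xNu, map_mul, map_inv]
  have hM' : alphaGL q U = mapGL ℝ (deltaSL q m U U' W W' e he) * alphaGL q U'
      * mapGL ℝ (nuSL (q * m * W')) * (mapGL ℝ (nuSL (q * m * W)))⁻¹ := by
    rw [← hM]; group
  rw [hM']
  group

end Step

section Reps

variable {q m : ℕ}

theorem nuSL_mem_Gamma0 (N : ℕ) (y : ℤ) (h : (N : ℤ) ∣ y) : nuSL y ∈ Gamma0 N :=
  mem_Gamma0_of_dvd (by simpa [nuSL] using h)

/-- The representatives `ν(q m v)⁻¹`, `v mod q`, of `Γ₀(q m) / Γ₀(q m q)`. -/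
def repAlpha (q m : ℕ) (v : ZMod q) : Gamma0 (q * m) :=
  ⟨(nuSL (q * m * (v.val : ℤ)))⁻¹, Subgroup.inv_mem _ (nuSL_mem_Gamma0 _ _ (by
    push_cast; exact Dvd.intro _ rfl))⟩

theorem isReps_repAlpha (hq : q.Prime) (hqm : ¬ q ∣ m) :
    IsReps (inclG (q * m) q) (repAlpha q m) := by
  haveI : NeZero q := ⟨hq.ne_zero⟩
  have hm0 : (m : ℤ) ≠ 0 := by
    intro h
    have : m = 0 := by exact_mod_cast h
    exact hqm (this ▸ dvd_zero q)
  have hq0 : (q : ℤ) ≠ 0 := by exact_mod_cast hq.ne_zero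
  constructor
  · rintro i j ⟨x, hx⟩
    have h1 : ((repAlpha q m i)⁻¹ * repAlpha q m j : Gamma0 (q * m)).1 ∈ Gamma0 (q * m * q) := by
      rw [← hx]
      exact x.2
    have h2 := dvd_of_mem_Gamma0 h1
    have h3 : ((repAlpha q m i)⁻¹ * repAlpha q m j : Gamma0 (q * m)).1 1 0
        = (q : ℤ) * m * ((i.val : ℤ) - j.val) := by
      show (((nuSL (q * m * (i.val : ℤ)))⁻¹)⁻¹ * (nuSL (q * m * (j.val : ℤ)))⁻¹) 1 0 = _
      rw [inv_inv, sl_mul_10, sl_inv_00, sl_inv_10]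
      simp [nuSL]
      ring
    rw [h3] at h2
    push_cast at h2
    have h4 : (q : ℤ) ∣ (i.val : ℤ) - j.val := by
      obtain ⟨k, hk⟩ := h2
      refine ⟨k, ?_⟩
      have : (q : ℤ) * m * ((i.val : ℤ) - j.val) = (q : ℤ) * m * (q * k) := by rw [hk]; ring
      exact mul_left_cancel₀ (mul_ne_zero hq0 hm0) this
    have h5 := (ZMod.intCast_zmod_eq_zero_iff_dvd _ _).mpr h4
    push_cast at h5
    rw [ZMod.natCast_zmod_val, ZMod.natCast_zmod_val] at h5
    exact sub_eq_zero.mp h5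
  · rintro ⟨g, hg⟩
    obtain ⟨C, hC⟩ := dvd_of_mem_Gamma0 hg
    have hdet := sl_det g
    have hunit : ((g 0 0 : ℤ) : ZMod q) * ((g 1 1 : ℤ) : ZMod q) = 1 := by
      have : ((g 0 0 * g 1 1 - g 0 1 * g 1 0 : ℤ) : ZMod q) = 1 := by rw [hdet]; simp
      rw [hC] at this
      push_cast at this
      simpa using this
    refine ⟨-(C : ZMod q) * ((g 1 1 : ℤ) : ZMod q), ?_⟩
    set v : ZMod q := -(C : ZMod q) * ((g 1 1 : ℤ) : ZMod q) with hv
    have hmem : (nuSL (q * m * (v.val : ℤ)) * g) ∈ Gamma0 (q * m * q) := by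
      apply mem_Gamma0_of_dvd
      rw [sl_mul_10]
      simp only [nuSL, mkSL_10, mkSL_11, one_mul]
      rw [hC]
      have h6 : (q : ℤ) ∣ (v.val : ℤ) * g 0 0 + C := by
        rw [← ZMod.intCast_zmod_eq_zero_iff_dvd]
        push_cast
        rw [ZMod.natCast_zmod_val, hv]
        have : -(C : ZMod q) * ((g 1 1 : ℤ) : ZMod q) * ((g 0 0 : ℤ) : ZMod q) + (C : ZMod q)
            = (C : ZMod q) * (1 - ((g 0 0 : ℤ) : ZMod q) * ((g 1 1 : ℤ) : ZMod q)) := by ring
        rw [this, hunit, sub_self, mul_zero]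
      obtain ⟨k, hk⟩ := h6
      refine ⟨k, ?_⟩
      push_cast
      linear_combination ((q : ℤ) * m) * hk
    refine ⟨⟨_, hmem⟩, ?_⟩
    apply Subtype.ext
    show nuSL (q * m * (v.val : ℤ)) * g = ((nuSL (q * m * (v.val : ℤ)))⁻¹)⁻¹ * g
    rw [inv_inv]

end Reps

section AlphaMain

variable {q m : ℕ} {L : Type*} [Field L] [CharZero L]
variable (hq : q.Prime) (hqm : ¬ q ∣ m)

omit [CharZero L] in
include hqm in
/-- The value of `S φ` at `ν_W g ν_W⁻¹`, `g ∈ Γ(q m q)`. -/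
theorem stepMap_apply_xNu (χ : MulChar (ZMod q) L) (hχ : χ ≠ 1) (ω : SL(2, ℤ) → L)
    (hω : ∀ g ∈ Gam1 (q * m * q) 1, ω g = 1)
    {φ : Additive (Gam1 (q * m) (q * 1)) →+ L}
    (hφ : IsEig (q * m) (q * 1) (step_hcK1 (one_dvd m))
      (fun g => χ ((g 0 0 : ℤ) : ZMod q) ^ 2 * ω g) φ)
    (g : SL(2, ℤ)) (hg : g ∈ Gamma (q * m * q)) (W : ℤ) :
    haveI : Fact q.Prime := ⟨hq⟩
    stepMap hq (one_dvd m) χ φ
        (Additive.ofMul (Subgroup.inclusion (step_hle2 q m 1) (xNu (one_dvd m) g hg W)))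
      = stepIdx q m 1 • ∑ u : ZMod q, χ⁻¹ u * fInt hq (one_dvd m) φ g hg (u.val : ℤ) W := by
  haveI : Fact q.Prime := ⟨hq⟩
  have h1 := resK_stepMap hq hqm (one_dvd m) χ ω hω hφ
  have h2 := congrArg (fun ψ : Additive (Gam1 (q * m * q) (q * 1)) →+ L =>
    ψ (Additive.ofMul (xNu (one_dvd m) g hg W))) h1
  simp only [resK_apply, AddMonoidHom.smul_apply] at h2
  rw [h2]
  congr 1
  unfold stepW
  rw [tqOp_ne hq (one_dvd m) hχ, twOp_apply, AddMonoidHom.finsetSum_apply]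
  refine Finset.sum_congr rfl fun u _ => ?_
  rw [AddMonoidHom.smul_apply, smul_eq_mul]
  rfl

include hqm in
/-- **PVG-B1, the transfer along the inclusion**: `cor_α (S φ) = 0` for `χ ≠ 1`. -/
theorem cor1_stepMap (χ : MulChar (ZMod q) L) (hχ : χ ≠ 1) (ω : SL(2, ℤ) → L)
    (hω : ∀ g ∈ Gam1 (q * m) 1, ω g = 1)
    {φ : Additive (Gam1 (q * m) (q * 1)) →+ L}
    (hφ : IsEig (q * m) (q * 1) (step_hcK1 (one_dvd m))
      (fun g => χ ((g 0 0 : ℤ) : ZMod q) ^ 2 * ω g) φ) :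
    cor1 (q * m) q L (resK (Gamma0_le_Gam1_one (q * m * q)) (stepMap hq (one_dvd m) χ φ)) = 0 := by
  haveI : Fact q.Prime := ⟨hq⟩
  haveI := step_neZero hq hqm
  have hω₂ : ∀ g ∈ Gam1 (q * m * q) 1, ω g = 1 := fun g hg =>
    hω g (Gam1_mono (dvd_mul_right _ _) dvd_rfl hg)
  have hle : Gamma (q * m * q) ≤ Gamma0 (q * m) :=
    (Gamma_le_Gamma0' (q * m * q)).trans (gamma0_mul_le (q * m) q)
  have hz : resK hle (0 : Additive (Gamma0 (q * m)) →+ L) = 0 := AddMonoidHom.zero_comp _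
  apply resK_inj hle (le_refl _)
  rw [hz]
  refine AddMonoidHom.ext fun x => ?_
  obtain ⟨⟨g, hg⟩, rfl⟩ : ∃ g' : Gamma (q * m * q), Additive.ofMul g' = x :=
    ⟨Additive.toMul x, rfl⟩
  rw [resK_apply, AddMonoidHom.zero_apply]
  unfold cor1
  have hmemK : ∀ v : ZMod q, nuSL (q * m * (v.val : ℤ)) * g * (nuSL (q * m * (v.val : ℤ)))⁻¹
      ∈ Gamma0 (q * m * q) := fun v =>
    Gamma_le_Gamma0' (q * m * q) ((Gamma_normal (q * m * q)).conj_mem g hg _)
  rw [corAlong_eq_sum (inclG (q * m) q) (Subgroup.inclusion_injective _) (repAlpha q m)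
    (isReps_repAlpha hq hqm) _ _ id (fun v => ⟨_, hmemK v⟩) (fun v => by
      apply Subtype.ext
      show g * (nuSL (q * m * (v.val : ℤ)))⁻¹ = (nuSL (q * m * (v.val : ℤ)))⁻¹ *
        (nuSL (q * m * (v.val : ℤ)) * g * (nuSL (q * m * (v.val : ℤ)))⁻¹)
      group)]
  have hterm : ∀ v : ZMod q,
      (resK (Gamma0_le_Gam1_one (q * m * q)) (stepMap hq (one_dvd m) χ φ))
        (Additive.ofMul (⟨_, hmemK v⟩ : Gamma0 (q * m * q)))
      = stepIdx q m 1 • ∑ u : ZMod q, χ⁻¹ u * fInt hq (one_dvd m) φ g hg (u.val : ℤ) (v.val : ℤ) := by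
    intro v
    rw [← stepMap_apply_xNu hq hqm χ hχ ω hω₂ hφ g hg (v.val : ℤ)]
    rfl
  rw [Finset.sum_congr rfl (fun v _ => hterm v), ← Finset.smul_sum, Finset.sum_comm]
  have hm : ((m : ℕ) : ZMod q) ≠ 0 := by
    intro h
    exact hqm ((ZMod.natCast_eq_zero_iff m q).mp h)
  rw [sum_alpha_eq_zero χ hχ (m : ZMod q) hm
    (fun u w => fInt hq (one_dvd m) φ g hg (u.val : ℤ) (w.val : ℤ)) ?_, smul_zero]
  intro u u' w w' hu huu'
  have hdvd : (q : ℤ) ∣ (u.val : ℤ) - (u'.val : ℤ) *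
      (1 + m * (u.val : ℤ) * ((w.val : ℤ) - (w'.val : ℤ))) := by
    rw [← ZMod.intCast_zmod_eq_zero_iff_dvd]
    push_cast
    simp only [ZMod.natCast_zmod_val]
    rw [sub_eq_zero]
    exact huu'
  obtain ⟨e, he⟩ := hdvd
  rw [fInt_rel hq (one_dvd m) χ ω hω hφ g hg _ _ _ _ e he]
  congr 2
  push_cast
  simp only [ZMod.natCast_zmod_val]

end AlphaMain

end Fermat.Agent.L.Pivot.Geom.H4

end
-- ==== END Fermat.Agent.L.Pivot.Geom.H4_B1Alpha

-- ==== BEGIN Fermat.Agent.L.Pivot.Geom.H4_EigPart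
section

/-!
# PIVOT / PV-GEOM, leaf P-EIGPART (helper4), part 2: the `L`-level statement

Setting of `NEB.EIG.H39.stmt_OP` for the list `qsP ++ qsQ` (pivot primes, Taylor–Wiles primes),
`c = cP cQ`, `N' = N c²`: the Hecke algebra of level `N'` acts on `V` through `eta`,
`eta (T_ℓ) = TV ℓ * dia ⟨ℓ⟩ ^ j`.

`eigPart_V` : if `rest : 𝕋(N') → 𝕋(N'')`, `N'' = N cP cQ²`, maps `T_ℓ` to `T_ℓ`, then the kernel of
`rest` kills the vectors which are fixed by the diamond operators `d ≡ 1 mod cQ` (the diamond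
operators at the pivot primes).  More precisely (`eigPart_V_factor`) there is a ring homomorphism
`eta₁ : 𝕋(N'') → End V₁` on the invariants `V₁` with `eta t v = eta₁ (rest t) v`.

Proof: `μ₁ = cor ∘ μ` (`H4_EigPartCore.lean`) and `stmt_OP` at `(N cP, qsQ)`; `hecke_induction`.
Complete proofs, standard axioms only.
-/

set_option autoImplicit false

namespace Fermat.Agent.L.Pivot.Geom.H4

open CongruenceSubgroup Matrix.SpecialLinearGroup ModularForm Finset
open scoped MatrixGroups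
open Fermat.Agent.NEB.EIG.H39 Fermat.Agent.Betti ModularCurve.Period

section Aux

variable {L : Type*} [Field L] {V : Type*} [AddCommGroup V] [Module L V] {c cQ : ℕ}

theorem coe_diaR_pow (hcQc : cQ ∣ c) (dia : (ZMod c)ˣ →* Module.End L V) (d : (ZMod c)ˣ)
    (n : ℕ) (v : ↥(pivInv hcQc dia)) :
    (((diaR hcQc dia d ^ n) v : ↥(pivInv hcQc dia)) : V) = (dia d ^ n) v := by
  rw [← map_pow, ← map_pow, coe_diaR]

theorem unitsMap_unitOf (hcQc : cQ ∣ c) {ℓ : ℕ} (hcop : Nat.Coprime ℓ c) :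
    ZMod.unitsMap hcQc (unitOf c ℓ) = unitOf cQ ℓ := by
  have hcopQ : Nat.Coprime ℓ cQ := Nat.Coprime.coprime_dvd_right hcQc hcop
  apply Units.ext
  rw [ZMod.unitsMap_def, Units.coe_map, unitOf_coe hcop, unitOf_coe hcopQ, MonoidHom.coe_coe,
    map_natCast]

theorem not_dvd_of_nodup {qsP qsQ : List ℕ} (hnd : (qsP ++ qsQ).Nodup)
    (hpr : ∀ q ∈ qsP ++ qsQ, q.Prime) {q : ℕ} (hq : q ∈ qsQ) : ¬ q ∣ qsP.prod := by
  intro h
  have hqp : q.Prime := hpr q (List.mem_append_right _ hq)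
  obtain ⟨a, ha, hqa⟩ := (Prime.dvd_prod_iff (Nat.Prime.prime hqp)).mp h
  have hap : a.Prime := hpr a (List.mem_append_left _ ha)
  have hqa' : q = a := (Nat.prime_dvd_prime_iff_eq hqp hap).mp hqa
  exact (List.nodup_append.mp hnd).2.2 a ha q hq hqa'.symm

end Aux

section Main

variable {L : Type} [Field L] [CharZero L] {V : Type*} [AddCommGroup V] [Module L V]

/-- **P-EIGPART, `L`-level, factorisation form.**  On the invariants `V₁` of the pivot diamonds
the action of the Hecke algebra of level `N' = N c²` factors through `rest` and an action `eta₁` of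
the Hecke algebra of level `N'' = N cP cQ²`. -/
theorem eigPart_V_factor (N : ℕ) (hN : N ≠ 0) (qsP qsQ : List ℕ) (hnd : (qsP ++ qsQ).Nodup)
    (hpr : ∀ q ∈ qsP ++ qsQ, q.Prime) (hqN : ∀ q ∈ qsP ++ qsQ, ¬ q ∣ N)
    (c cP cQ N' N'' : ℕ) (hcP : cP = qsP.prod) (hcQ : cQ = qsQ.prod) (hc : c = cP * cQ)
    (hN' : N' = N * c * c) (hN'' : N'' = N * cP * cQ * cQ) [NeZero N'] [NeZero N'']
    (S : Set ℕ) (hS : ∀ q : ℕ, q.Prime → q ∣ N' → q ∈ S)
    [HasEnoughRootsOfUnity L (Monoid.exponent (ZMod cQ)ˣ)]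
    (μ : V →ₗ[L] (Additive (Gam1 (N * c) c) →+ L)) (hμ : Function.Injective μ)
    (hμpar : ∀ v, IsParabolicHom (Gam1 (N * c) c) (μ v))
    (TV : ℕ → Module.End L V)
    (hTV : ∀ (ℓ : ℕ) (hℓ : ℓ.Prime) (hℓM : ¬ ℓ ∣ N * c) (v : V),
      μ (TV ℓ v) = TD (N * c) c (dvd_mul_left _ _) hℓ hℓM (μ v))
    (dia : (ZMod c)ˣ →* Module.End L V)
    (hdia : ∀ (g : SL(2, ℤ)) (hg : ((N * c : ℕ) : ℤ) ∣ g 1 0) (d : (ZMod c)ˣ),
      (d : ZMod c) = ((g 0 0 : ℤ) : ZMod c) →
      ∀ v, μ (dia d v) = Dop (dvd_mul_left _ _) g hg (μ v))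
    (hcomm : ∀ ℓ d, Commute (TV ℓ) (dia d))
    (j : ℕ) (hdn : ∀ d, dia d ^ (2 * j + 1) = 1)
    (eta : CuspForm.heckeAlgebra N' 2 S →+* Module.End L V)
    (heta : ∀ (ℓ : ℕ) (hℓ : ℓ.Prime) (hℓN : ¬ ℓ ∣ N') (hℓS : ℓ ∉ S),
        eta (CuspForm.heckeAlgebra.T hℓ hℓN hℓS) = TV ℓ * dia (unitOf c ℓ) ^ j)
    (rest : CuspForm.heckeAlgebra N' 2 S →+* CuspForm.heckeAlgebra N'' 2 S)
    (hrest : ∀ (ℓ : ℕ) (hℓ : ℓ.Prime) (hℓN' : ¬ ℓ ∣ N') (hℓS : ℓ ∉ S) (hℓN'' : ¬ ℓ ∣ N''),
      rest (CuspForm.heckeAlgebra.T hℓ hℓN' hℓS) = CuspForm.heckeAlgebra.T hℓ hℓN'' hℓS)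
    (hcQc : cQ ∣ c) :
    ∃ eta₁ : CuspForm.heckeAlgebra N'' 2 S →+* Module.End L ↥(pivInv hcQc dia),
      ∀ (t : CuspForm.heckeAlgebra N' 2 S) (v : ↥(pivInv hcQc dia)),
        eta t (v : V) = ((eta₁ (rest t) v : ↥(pivInv hcQc dia)) : V) := by
  classical
  subst hcQ
  have hprQ : ∀ q ∈ qsQ, q.Prime := fun q hq => hpr q (List.mem_append_right _ hq)
  have hprP : ∀ q ∈ qsP, q.Prime := fun q hq => hpr q (List.mem_append_left _ hq)
  have hndQ : qsQ.Nodup := (List.nodup_append.mp hnd).2.1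
  have hcQ0 : qsQ.prod ≠ 0 := prod_primes_ne_zero hprQ
  have hcP0 : cP ≠ 0 := by
    rw [hcP]
    exact prod_primes_ne_zero hprP
  have hc0 : c ≠ 0 := by
    rw [hc]
    exact Nat.mul_ne_zero hcP0 hcQ0
  haveI : NeZero c := ⟨hc0⟩
  haveI : NeZero (N * c) := ⟨Nat.mul_ne_zero hN hc0⟩
  have hMM : N * cP * qsQ.prod ∣ N * c := by rw [hc, mul_assoc]
  have hM'M : N * c ∣ N * cP * qsQ.prod := by rw [hc, mul_assoc]
  have hcM : c ∣ N * c := dvd_mul_left _ _
  have hcQ' : qsQ.prod ∣ N * cP * qsQ.prod := dvd_mul_left _ _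
  have hN''N' : N'' ∣ N' := by
    rw [hN', hN'', hc]
    exact ⟨cP, by ring⟩
  have hMN' : N * c ∣ N' := by
    rw [hN']
    exact dvd_mul_right _ _
  have hS'' : ∀ q : ℕ, q.Prime → q ∣ N'' → q ∈ S := fun q hq h => hS q hq (h.trans hN''N')
  have hqN₀ : ∀ q ∈ qsQ, ¬ q ∣ N * cP := by
    intro q hq h
    have hqp := hprQ q hq
    rcases (Nat.Prime.dvd_mul hqp).mp h with h1 | h1
    · exact hqN q (List.mem_append_right _ hq) h1
    · rw [hcP] at h1
      exact not_dvd_of_nodup hnd hpr hq h1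
  -- the operators on the invariants
  let TV₁ : ℕ → Module.End L ↥(pivInv hcQc dia) := fun ℓ =>
    (TV ℓ).restrict (fun _ hv => pivInv_of_comm hcQc dia (TV ℓ) (hcomm ℓ) hv)
  have hcomm₁ : ∀ ℓ d₁, Commute (TV₁ ℓ) (dia1 hcQc dia d₁) := by
    intro ℓ d₁
    obtain ⟨d, rfl⟩ := ZMod.unitsMap_surjective hcQc d₁
    rw [dia1_unitsMap]
    apply LinearMap.ext
    intro v
    apply Subtype.ext
    rw [Module.End.mul_apply, Module.End.mul_apply, LinearMap.coe_restrict_apply, coe_diaR,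
      coe_diaR, LinearMap.coe_restrict_apply]
    have := congrArg (fun F : Module.End L V => F (v : V)) (hcomm ℓ d).eq
    simp only [Module.End.mul_apply] at this
    exact this
  obtain ⟨eta₁, heta₁⟩ := stmt_OP (L := L) (V := ↥(pivInv hcQc dia)) (N * cP)
    (Nat.mul_ne_zero hN hcP0) qsQ hndQ hprQ hqN₀ qsQ.prod N'' rfl hN'' S hS''
    (mu1 hMM hcQc μ dia) (mu1_inj hMM hM'M hcM hcQc μ hμ dia hdia)
    (mu1_par hMM hM'M hcM hcQc μ hμpar dia hdia) TV₁
    (fun ℓ hℓ hℓM' v => mu1_TV hMM hM'M hcM hcQ' hcQc μ dia hdia (TV ℓ) (hcomm ℓ) hℓ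
      (fun h => hℓM' (h.trans hM'M)) hℓM' (fun w => hTV ℓ hℓ _ w) v)
    (dia1 hcQc dia)
    (fun g hg d hd v => mu1_dia1 hMM hM'M hcM hcQ' hcQc μ dia hdia g hg d hd v)
    hcomm₁ j (dia1_pow hcQc dia _ hdn)
  refine ⟨eta₁, ?_⟩
  refine hecke_induction hS (fun ℓ hℓ hℓN hℓS v => ?_) (fun n v => ?_)
    (fun x y hx hy v => ?_) (fun x y hx hy v => ?_)
  · have hℓN'' : ¬ ℓ ∣ N'' := fun h => hℓN (h.trans hN''N')
    have hℓM : ¬ ℓ ∣ N * c := fun h => hℓN (h.trans hMN')
    have hℓc : ¬ ℓ ∣ c := fun h => hℓM (h.trans (dvd_mul_left _ _))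
    have hcop : Nat.Coprime ℓ c := (Nat.Prime.coprime_iff_not_dvd hℓ).mpr hℓc
    rw [heta ℓ hℓ hℓN hℓS, hrest ℓ hℓ hℓN hℓS hℓN'', heta₁ ℓ hℓ hℓN'' hℓS,
      Module.End.mul_apply, Module.End.mul_apply, ← unitsMap_unitOf hcQc hcop, dia1_unitsMap,
      LinearMap.coe_restrict_apply, coe_diaR_pow]
  · rw [map_intCast, map_intCast, map_intCast, Module.End.intCast_apply,
      Module.End.intCast_apply]
    rfl
  · rw [map_add, map_add, map_add, LinearMap.add_apply, LinearMap.add_apply, hx v, hy v]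
    rfl
  · rw [map_mul, map_mul, map_mul, Module.End.mul_apply, Module.End.mul_apply, hy v, hx]

/-- **P-EIGPART, `L`-level.**  The kernel of `rest : 𝕋(N c²) → 𝕋(N cP cQ²)` kills the vectors
which are invariant under the diamond operators at the pivot primes. -/
theorem eigPart_V (N : ℕ) (hN : N ≠ 0) (qsP qsQ : List ℕ) (hnd : (qsP ++ qsQ).Nodup)
    (hpr : ∀ q ∈ qsP ++ qsQ, q.Prime) (hqN : ∀ q ∈ qsP ++ qsQ, ¬ q ∣ N)
    (c cP cQ N' N'' : ℕ) (hcP : cP = qsP.prod) (hcQ : cQ = qsQ.prod) (hc : c = cP * cQ)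
    (hN' : N' = N * c * c) (hN'' : N'' = N * cP * cQ * cQ) [NeZero N'] [NeZero N'']
    (S : Set ℕ) (hS : ∀ q : ℕ, q.Prime → q ∣ N' → q ∈ S)
    [HasEnoughRootsOfUnity L (Monoid.exponent (ZMod cQ)ˣ)]
    (μ : V →ₗ[L] (Additive (Gam1 (N * c) c) →+ L)) (hμ : Function.Injective μ)
    (hμpar : ∀ v, IsParabolicHom (Gam1 (N * c) c) (μ v))
    (TV : ℕ → Module.End L V)
    (hTV : ∀ (ℓ : ℕ) (hℓ : ℓ.Prime) (hℓM : ¬ ℓ ∣ N * c) (v : V),
      μ (TV ℓ v) = TD (N * c) c (dvd_mul_left _ _) hℓ hℓM (μ v))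
    (dia : (ZMod c)ˣ →* Module.End L V)
    (hdia : ∀ (g : SL(2, ℤ)) (hg : ((N * c : ℕ) : ℤ) ∣ g 1 0) (d : (ZMod c)ˣ),
      (d : ZMod c) = ((g 0 0 : ℤ) : ZMod c) →
      ∀ v, μ (dia d v) = Dop (dvd_mul_left _ _) g hg (μ v))
    (hcomm : ∀ ℓ d, Commute (TV ℓ) (dia d))
    (j : ℕ) (hdn : ∀ d, dia d ^ (2 * j + 1) = 1)
    (eta : CuspForm.heckeAlgebra N' 2 S →+* Module.End L V)
    (heta : ∀ (ℓ : ℕ) (hℓ : ℓ.Prime) (hℓN : ¬ ℓ ∣ N') (hℓS : ℓ ∉ S),
        eta (CuspForm.heckeAlgebra.T hℓ hℓN hℓS) = TV ℓ * dia (unitOf c ℓ) ^ j)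
    (rest : CuspForm.heckeAlgebra N' 2 S →+* CuspForm.heckeAlgebra N'' 2 S)
    (hrest : ∀ (ℓ : ℕ) (hℓ : ℓ.Prime) (hℓN' : ¬ ℓ ∣ N') (hℓS : ℓ ∉ S) (hℓN'' : ¬ ℓ ∣ N''),
      rest (CuspForm.heckeAlgebra.T hℓ hℓN' hℓS) = CuspForm.heckeAlgebra.T hℓ hℓN'' hℓS)
    (hcQc : cQ ∣ c) (t : CuspForm.heckeAlgebra N' 2 S) (ht : rest t = 0)
    (v : V) (hv : ∀ d : (ZMod c)ˣ, ZMod.unitsMap hcQc d = 1 → dia d v = v) :
    eta t v = 0 := by
  obtain ⟨eta₁, h⟩ := eigPart_V_factor N hN qsP qsQ hnd hpr hqN c cP cQ N' N'' hcP hcQ hc hN' hN''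
    S hS μ hμ hμpar TV hTV dia hdia hcomm j hdn eta heta rest hrest hcQc
  have := h t ⟨v, hv⟩
  rw [ht, map_zero] at this
  exact this

end Main

end Fermat.Agent.L.Pivot.Geom.H4

end
-- ==== END Fermat.Agent.L.Pivot.Geom.H4_EigPart

-- ==== BEGIN Fermat.Agent.L.Pivot.Geom.H50_CoordR
section

/-!
# PIVOT, PV-GEOM part II, leaf PVG-N2 (helper50): coordinates of parabolic homomorphisms with
coefficients in a commutative ring

`b` a universal parabolic basis of `Hom_par(Γ₀(N), ℤ)` (`Betti.IsParBasis`), `R` a commutative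
ring.

* `coordR b R a` : the homomorphism `γ ↦ ∑ i, a i * b i γ`; for `R = ZMod m` this is
  `GTor.H81.coordFun b m a` (`coordR_zmod`);
* `TB_coordR` : the Betti Hecke operator in coordinates;
* `corAlong_coordR` : a transfer in coordinates (in particular `S41.cor1`, `S41.cor2`);
* `exists_coordR`, `coordR_eq_zero` : existence and uniqueness of the coordinates over a torsion
  free ring.
-/

set_option autoImplicit false
set_option linter.unusedSectionVars false
set_option linter.style.haveILetI false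

noncomputable section

namespace Fermat.Agent.L.Pivot.Geom.H50

open ModularCurve Fermat.Agent.GTor Fermat.Agent.Betti Fermat.Agent.GTor.H81 Fermat.Agent.S41
  Fermat.Agent.S41.H19 Fermat.Agent.S41.H77
open CongruenceSubgroup
open scoped MatrixGroups

section CoordR

variable {N : ℕ} {r : ℕ} (b : Fin r → (Additive (Gamma0 N) →+ ℤ)) (R : Type*) [CommRing R]

/-- `z ↦ a * z`, `ℤ → R`. -/
def scalHom (a : R) : ℤ →+ R := (AddMonoidHom.mulLeft a).comp (Int.castAddHom R)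

@[simp] theorem scalHom_apply (a : R) (z : ℤ) : scalHom R a z = a * (z : R) := rfl

/-- the homomorphism with coordinates `a` in the basis `b`, with coefficients in `R`. -/
def coordR (a : Fin r → R) : Additive (Gamma0 N) →+ R := ∑ j, (scalHom R (a j)).comp (b j)

theorem coordR_apply (a : Fin r → R) (γ : Additive (Gamma0 N)) :
    coordR b R a γ = ∑ i, a i * ((b i γ : ℤ) : R) := by
  unfold coordR
  rw [AddMonoidHom.finsetSum_apply]
  rfl

theorem coordR_zmod (m : ℕ) (a : Fin r → ZMod m) : coordR b (ZMod m) a = coordFun b m a := by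
  refine AddMonoidHom.ext fun γ => ?_
  rw [coordR_apply, coordFun_apply]

theorem coordR_zero : coordR b R (0 : Fin r → R) = 0 := by
  refine AddMonoidHom.ext fun γ => ?_
  rw [coordR_apply]
  simp

theorem coordR_smul (c : R) (a : Fin r → R) : coordR b R (c • a) = c • coordR b R a := by
  refine AddMonoidHom.ext fun γ => ?_
  rw [AddMonoidHom.smul_apply, coordR_apply, coordR_apply, Finset.smul_sum]
  refine Finset.sum_congr rfl fun i _ => ?_
  rw [Pi.smul_apply, smul_eq_mul, smul_eq_mul, mul_assoc]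

theorem coordR_sub (a a' : Fin r → R) :
    coordR b R (a - a') = coordR b R a - coordR b R a' := by
  refine AddMonoidHom.ext fun γ => ?_
  rw [AddMonoidHom.sub_apply, coordR_apply, coordR_apply, coordR_apply,
    ← Finset.sum_sub_distrib]
  refine Finset.sum_congr rfl fun i _ => ?_
  rw [Pi.sub_apply, sub_mul]

/-- the coordinates of an integral combination. -/
theorem scalHom_comp_sum {r' : ℕ} (b' : Fin r' → (Additive (Gamma0 N) →+ ℤ)) (c : R)
    (z : Fin r' → ℤ) (γ : Additive (Gamma0 N)) :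
    (scalHom R c).comp (∑ i, z i • b' i) γ = ∑ i, (c * (z i : R)) * ((b' i γ : ℤ) : R) := by
  rw [AddMonoidHom.comp_apply, AddMonoidHom.finsetSum_apply, scalHom_apply, Int.cast_sum,
    Finset.mul_sum]
  refine Finset.sum_congr rfl fun i _ => ?_
  have e : (z i • b' i) γ = z i * b' i γ := rfl
  rw [e, Int.cast_mul, mul_assoc]

variable {b}

/-- **the Betti Hecke operator in coordinates.** -/
theorem TB_coordR {ℓ : ℕ} (hℓ : ℓ.Prime) (hℓN : ¬ ℓ ∣ N) (Mat : Matrix (Fin r) (Fin r) ℤ)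
    (hMat : ∀ j, TB N ℤ hℓ hℓN (b j) = ∑ i, Mat i j • b i) (a : Fin r → R) :
    TB N R hℓ hℓN (coordR b R a) =
      coordR b R ((Mat.map (Int.cast : ℤ → R)).mulVec a) := by
  unfold coordR
  rw [map_sum]
  refine AddMonoidHom.ext fun γ => ?_
  rw [AddMonoidHom.finsetSum_apply]
  have h2 : ∀ j, TB N R hℓ hℓN ((scalHom R (a j)).comp (b j)) γ =
      ∑ i, (a j * (Mat i j : R)) * ((b i γ : ℤ) : R) := by
    intro j
    have hc : TB N R hℓ hℓN ((scalHom R (a j)).comp (b j)) =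
        (scalHom R (a j)).comp (TB N ℤ hℓ hℓN (b j)) := by
      haveI : Fact ℓ.Prime := ⟨hℓ⟩
      exact (isHeckeFamily_T N hℓN).heckeOp_comp (incl_injective N) (scalHom R (a j)) (b j)
    rw [hc, hMat j]
    exact scalHom_comp_sum R b (a j) (fun i => Mat i j) γ
  simp only [h2]
  rw [Finset.sum_comm, AddMonoidHom.finsetSum_apply]
  refine Finset.sum_congr rfl fun i _ => ?_
  rw [AddMonoidHom.comp_apply, scalHom_apply, Matrix.mulVec, dotProduct, Finset.sum_mul]
  refine Finset.sum_congr rfl fun j _ => ?_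
  rw [Matrix.map_apply]
  ring

end CoordR

/-! ## transfers -/

section Cor

variable {H G : Type*} [Group H] [Group G] {A : Type*} [AddCommGroup A]

theorem corAlong_zero_h50 (ι : H →* G) : corAlong A ι (0 : Additive H →+ A) = 0 := by
  have := corAlong_add (A := A) ι 0 0
  rw [add_zero] at this
  exact left_eq_add.mp this

theorem corAlong_sum_h50 {J : Type*} (ι : H →* G) (s : Finset J) (φ : J → (Additive H →+ A)) :
    corAlong A ι (∑ j ∈ s, φ j) = ∑ j ∈ s, corAlong A ι (φ j) := by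
  classical
  induction s using Finset.induction_on with
  | empty => simp [corAlong_zero_h50]
  | insert j s hj ih =>
    rw [Finset.sum_insert hj, Finset.sum_insert hj, corAlong_add, ih]

end Cor

section CorCoord

variable {N N' : ℕ} {r r' : ℕ} {b : Fin r → (Additive (Gamma0 N') →+ ℤ)}
  {b' : Fin r' → (Additive (Gamma0 N) →+ ℤ)} (R : Type*) [CommRing R]

/-- **a transfer in coordinates.** -/
theorem corAlong_coordR (ι : Gamma0 N' →* Gamma0 N) (Amat : Matrix (Fin r') (Fin r) ℤ)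
    (h : ∀ j, corAlong ℤ ι (b j) = ∑ i, Amat i j • b' i) (a : Fin r → R) :
    corAlong R ι (coordR b R a) = coordR b' R ((Amat.map (Int.cast : ℤ → R)).mulVec a) := by
  unfold coordR
  rw [corAlong_sum_h50]
  refine AddMonoidHom.ext fun γ => ?_
  rw [AddMonoidHom.finsetSum_apply]
  have h2 : ∀ j, corAlong R ι ((scalHom R (a j)).comp (b j)) γ =
      ∑ i, (a j * (Amat i j : R)) * ((b' i γ : ℤ) : R) := by
    intro j
    rw [corAlong_map, h j]
    exact scalHom_comp_sum R b' (a j) (fun i => Amat i j) γ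
  simp only [h2]
  rw [Finset.sum_comm, AddMonoidHom.finsetSum_apply]
  refine Finset.sum_congr rfl fun i _ => ?_
  rw [AddMonoidHom.comp_apply, scalHom_apply, Matrix.mulVec, dotProduct, Finset.sum_mul]
  refine Finset.sum_congr rfl fun j _ => ?_
  rw [Matrix.map_apply]
  ring

end CorCoord

/-! ## existence and uniqueness over a torsion free ring -/

section Unique

variable {N : ℕ} {r : ℕ} {b : Fin r → (Additive (Gamma0 N) →+ ℤ)} {R : Type} [CommRing R]
  [IsAddTorsionFree R]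

theorem coordR_apply' (a : Fin r → R) (γ : Additive (Gamma0 N)) :
    coordR b R a γ = ∑ i, b i γ • a i := by
  rw [coordR_apply]
  refine Finset.sum_congr rfl fun i _ => ?_
  rw [zsmul_eq_mul, mul_comm]

theorem exists_coordR (hb : IsParBasis N b) (Φ : Additive (Gamma0 N) →+ R)
    (hΦ : Period.IsParabolicHom (Gamma0 N) Φ) : ∃ v : Fin r → R, Φ = coordR b R v := by
  obtain ⟨v, hv, -⟩ := hb.2 R Φ hΦ
  exact ⟨v, AddMonoidHom.ext fun γ => by rw [hv γ, coordR_apply']⟩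

theorem coordR_isParabolic (hb : IsParBasis N b) (a : Fin r → R) :
    Period.IsParabolicHom (Gamma0 N) (coordR b R a) := by
  intro γ hγ
  rw [coordR_apply]
  refine Finset.sum_eq_zero fun i _ => ?_
  rw [hb.1 i γ hγ, Int.cast_zero, mul_zero]

theorem coordR_eq_zero (hb : IsParBasis N b) {a : Fin r → R} (h : coordR b R a = 0) : a = 0 := by
  obtain ⟨v, -, huniq⟩ := hb.2 R (0 : Additive (Gamma0 N) →+ R) (fun _ _ => rfl)
  have h1 : a = v := huniq a fun γ => by
    rw [← coordR_apply', h]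
  have h2 : (0 : Fin r → R) = v := huniq 0 fun γ => by
    rw [← coordR_apply', coordR_zero]
  rw [h1, ← h2]

theorem coordR_injective (hb : IsParBasis N b) {a a' : Fin r → R}
    (h : coordR b R a = coordR b R a') : a = a' := by
  have h1 : coordR b R (a - a') = 0 := by rw [coordR_sub, h, sub_self]
  exact sub_eq_zero.1 (coordR_eq_zero hb h1)

end Unique

end Fermat.Agent.L.Pivot.Geom.H50

end
end
-- ==== END Fermat.Agent.L.Pivot.Geom.H50_CoordR

-- ==== BEGIN Fermat.Agent.L.Pivot.Geom.H50_PushLim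
section

/-!
# PIVOT, PV-GEOM part II, leaf PVG-N2 (helper50): the push-forwards intertwine the Galois matrices

`C`, `C'` coordinatised Tate systems of `J₀(M q)`, `J₀(M)`; `X` an integer matrix representing a
Galois equivariant homomorphism `f : J₀(M q) → J₀(M)` in the coordinates (e.g. `α_*`, `β_*`).

* `intertwine_level` : `X ρ_k(σ) = ρ'_k(σ) X` modulo `p ^ k`;
* `intertwine_limit` : `X ρ(σ) = ρ'(σ) X` over `𝒪`.
-/

set_option autoImplicit false
set_option linter.unusedSectionVars false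

open IsLocalRing

noncomputable section

namespace Fermat.Agent.L.Pivot.Geom.H50

open AlgebraicCurve ModularCurve Fermat.Agent.GTor Fermat.Agent.GTor.H58T1
  Fermat.Agent.GTor.H81

section Level

variable {N N' p : ℕ} [NeZero N] [NeZero N'] {S : Set ℕ}
  {C : TateCoords N' p S} {C' : TateCoords N p S}

/-- the image of a torsion point under an additive map is a torsion point. -/
def pushTor (f : JZero N' →+ JZero N) (k : ℕ) (x : Jtor N' (p ^ k)) : Jtor N (p ^ k) :=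
  ⟨f (x : JZero N'), by
    show p ^ k • f (x : JZero N') = 0
    rw [← map_nsmul]
    have h : p ^ k • (x : JZero N') = 0 := x.2
    rw [h, map_zero]⟩

@[simp] theorem coe_pushTor (f : JZero N' →+ JZero N) (k : ℕ) (x : Jtor N' (p ^ k)) :
    ((pushTor f k x : Jtor N (p ^ k)) : JZero N) = f (x : JZero N') := rfl

/-- **the intertwining relation modulo `p ^ k`.** -/
theorem intertwine_level (f : JZero N' →+ JZero N)
    (hf : ∀ (σ : GQ) (x : JZero N'), f (σ • x) = σ • f x)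
    (X : Matrix (Fin C'.r) (Fin C.r) ℤ)
    (hX : ∀ (k : ℕ) (x : Jtor N' (p ^ k)) (y : Jtor N (p ^ k)),
      (y : JZero N) = f (x : JZero N') →
        C'.θ k y = (X.map (Int.cast : ℤ → ZMod (p ^ k))).mulVec (C.θ k x))
    (σ : GQ) (k : ℕ) :
    X.map (Int.cast : ℤ → ZMod (p ^ k)) * C.ρ k σ
      = C'.ρ k σ * X.map (Int.cast : ℤ → ZMod (p ^ k)) := by
  apply Matrix.mulVec_injective
  funext u
  obtain ⟨x, rfl⟩ := (C.θ k).surjective u
  rw [← Matrix.mulVec_mulVec, ← Matrix.mulVec_mulVec, ← C.gal k σ x,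
    ← hX k x (pushTor f k x) rfl, ← C'.gal k σ (pushTor f k x)]
  refine (hX k _ _ ?_).symm
  show σ • f (x : JZero N') = f (σ • (x : JZero N'))
  rw [hf]

end Level

section Limit

variable {N N' p : ℕ} [NeZero N] [NeZero N'] [Fact p.Prime] {S : Set ℕ}
  {C : TateCoords N' p S} {C' : TateCoords N p S}
variable {𝒪 : Type} [CommRing 𝒪] [IsLocalRing 𝒪]
  [IsAdicComplete (maximalIdeal 𝒪) 𝒪]
  {hp : (p : 𝒪) ∈ maximalIdeal 𝒪} (Lm : TateLimit C 𝒪 hp) (Lm' : TateLimit C' 𝒪 hp)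

theorem map_intCast_piK {m n : ℕ} (X : Matrix (Fin m) (Fin n) ℤ) (k : ℕ) :
    (X.map (Int.cast : ℤ → 𝒪)).map (piK (maximalIdeal 𝒪) k)
      = (X.map (Int.cast : ℤ → ZMod (p ^ k))).map (cK (maximalIdeal 𝒪) p hp k) := by
  ext i j
  simp only [Matrix.map_apply, map_intCast]

/-- **the intertwining relation in the limit.** -/
theorem intertwine_limit (X : Matrix (Fin C'.r) (Fin C.r) ℤ)
    (h : ∀ (σ : GQ) (k : ℕ), X.map (Int.cast : ℤ → ZMod (p ^ k)) * C.ρ k σ
      = C'.ρ k σ * X.map (Int.cast : ℤ → ZMod (p ^ k)))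
    (σ : GQ) :
    X.map (Int.cast : ℤ → 𝒪) * Lm.ρL σ = Lm'.ρL σ * X.map (Int.cast : ℤ → 𝒪) := by
  ext i j
  apply eq_of_forall_piK (maximalIdeal 𝒪)
  intro k
  have h1 : (X.map (Int.cast : ℤ → 𝒪) * Lm.ρL σ).map (piK (maximalIdeal 𝒪) k)
      = (Lm'.ρL σ * X.map (Int.cast : ℤ → 𝒪)).map (piK (maximalIdeal 𝒪) k) := by
    have e1 : (Lm.ρL σ).map (piK (maximalIdeal 𝒪) k)
        = (C.ρ k σ).map (cK (maximalIdeal 𝒪) p hp k) := Lm.spec σ k
    have e2 : (Lm'.ρL σ).map (piK (maximalIdeal 𝒪) k)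
        = (C'.ρ k σ).map (cK (maximalIdeal 𝒪) p hp k) := Lm'.spec σ k
    rw [Matrix.map_mul, Matrix.map_mul, e1, e2, map_intCast_piK (hp := hp),
      ← Matrix.map_mul, ← Matrix.map_mul, h σ k]
  have h2 := congrFun (congrFun h1 i) j
  simpa only [Matrix.map_apply] using h2

end Limit

end Fermat.Agent.L.Pivot.Geom.H50

end
end
-- ==== END Fermat.Agent.L.Pivot.Geom.H50_PushLim

-- ==== BEGIN Fermat.Agent.L.Pivot.Geom.H50_UnipTransfer
section

/-!
# PIVOT, PV-GEOM part II, leaf PVG-N2 (helper50): transfer of unipotence  (N3, abstract)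

* `lucas_mem` : if `(A + B, A' + B') ∈ scalSub`, `A B = B A = d`, `A' B' = B' A' = d`, then
  `(A ^ j + B ^ j, A' ^ j + B' ^ j) ∈ scalSub`;
* `unip_transfer` : if `g` is approximated by elements `h = g t` with
  `(ρ h + d ρ h⁻¹, ρ' h + d ρ' h⁻¹) ∈ scalSub`, `d → 1`, and `(ρ' g - 1)² = 0`, then
  `(ρ g - 1)² = 0` on `E` (`E` stable under `ρ g`).
-/

set_option autoImplicit false

open IsLocalRing

namespace Fermat.Agent.L.Pivot.Geom.H50

section Lucas

variable {𝒪 L : Type*} [CommRing 𝒪] [Field L] [Algebra 𝒪 L] {r r' : ℕ}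
  {E : Set (Fin r → L)} {w : Fin r' → L}

theorem pow_add_pow_succ_succ {R : Type*} [Ring R] {A B : R} {D : R} (hAB : A * B = D)
    (hBA : B * A = D) (j : ℕ) :
    A ^ (j + 2) + B ^ (j + 2) = (A + B) * (A ^ (j + 1) + B ^ (j + 1)) - D * (A ^ j + B ^ j) := by
  have e1 : B * A ^ (j + 1) = D * A ^ j := by
    rw [pow_succ', ← mul_assoc, hBA]
  have e2 : A * B ^ (j + 1) = D * B ^ j := by
    rw [pow_succ', ← mul_assoc, hAB]
  rw [add_mul, mul_add, mul_add, mul_add, e1, e2, ← pow_succ', ← pow_succ']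
  abel

/-- the Lucas sequence of a pair stays in `scalSub`. -/
theorem lucas_mem {A B : Matrix (Fin r) (Fin r) 𝒪} {A' B' : Matrix (Fin r') (Fin r') 𝒪} (d : 𝒪)
    (hAB : A * B = d • 1) (hBA : B * A = d • 1) (hAB' : A' * B' = d • 1)
    (hBA' : B' * A' = d • 1) (hT : (A + B, A' + B') ∈ scalSub E w) (j : ℕ) :
    (A ^ j + B ^ j, A' ^ j + B' ^ j) ∈ scalSub E w := by
  induction j using Nat.strong_induction_on with
  | _ j ih =>
    match j with
    | 0 =>
      have h := (scalSub (𝒪 := 𝒪) E w).add_mem (scalSub_one (E := E) (w := w))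
        (scalSub_one (E := E) (w := w))
      rw [Prod.mk_add_mk] at h
      rw [pow_zero, pow_zero, pow_zero, pow_zero]
      exact h
    | 1 =>
      rw [pow_one, pow_one, pow_one, pow_one]
      exact hT
    | (j + 2) =>
      have h1 := ih (j + 1) (by omega)
      have h0 := ih j (by omega)
      rw [pow_add_pow_succ_succ hAB hBA j, pow_add_pow_succ_succ hAB' hBA' j]
      have hm := scalSub_mul hT h1
      have hs := scalSub_mul (scalSub_scalar (E := E) (w := w) d) h0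
      have := (scalSub (𝒪 := 𝒪) E w).sub_mem hm hs
      rw [Prod.mk_sub_mk] at this
      exact this

end Lucas

section Transfer

variable {𝒪 L : Type*} [CommRing 𝒪] [IsLocalRing 𝒪] [IsNoetherianRing 𝒪] [Field L]
  [Algebra 𝒪 L] {r r' : ℕ} {G : Type*} [Group G]
  (ρ : G →* Matrix (Fin r) (Fin r) 𝒪) (ρ' : G →* Matrix (Fin r') (Fin r') 𝒪)

omit [IsLocalRing 𝒪] [IsNoetherianRing 𝒪] in
theorem rep_mul_inv_h50 {k : ℕ} (σ : G →* Matrix (Fin k) (Fin k) 𝒪) (g : G) :
    σ g * σ g⁻¹ = 1 := by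
  rw [← map_mul, mul_inv_cancel, map_one]

omit [IsLocalRing 𝒪] [IsNoetherianRing 𝒪] in
theorem rep_inv_mul_h50 {k : ℕ} (σ : G →* Matrix (Fin k) (Fin k) 𝒪) (g : G) :
    σ g⁻¹ * σ g = 1 := by
  rw [← map_mul, inv_mul_cancel, map_one]

omit [IsLocalRing 𝒪] [IsNoetherianRing 𝒪] in
/-- the difference `(σ g + σ g⁻¹) - (σ (g t) + d σ (g t)⁻¹)` is small when `σ t - 1` and
`d - 1` are. -/
theorem small_diff {k : ℕ} (σ : G →* Matrix (Fin k) (Fin k) 𝒪) (I : Ideal 𝒪) (g t : G) (d : 𝒪)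
    (ht : IsSmallMat I (σ t - 1)) (hd : d - 1 ∈ I) :
    IsSmallMat I ((σ g + σ g⁻¹) - (σ (g * t) + d • σ (g * t)⁻¹)) := by
  have e : (σ g + σ g⁻¹) - (σ (g * t) + d • σ (g * t)⁻¹)
      = -(σ g * (σ t - 1)) + σ t⁻¹ * (σ t - 1) * σ g⁻¹ - (d - 1) • σ (g * t)⁻¹ := by
    have h1 : σ (g * t) = σ g * σ t := map_mul σ g t
    have h2 : σ (g * t)⁻¹ = σ t⁻¹ * σ g⁻¹ := by rw [mul_inv_rev, map_mul]
    have h3 : σ t⁻¹ * (σ t - 1) = 1 - σ t⁻¹ := by
      rw [mul_sub, rep_inv_mul_h50, mul_one]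
    rw [h3, h1, h2, sub_smul, one_smul, mul_sub, mul_one, sub_mul, one_mul]
    abel
  rw [e]
  exact (((ht.mul_left _).neg).add ((ht.mul_left _).mul_right _)).sub
    (IsSmallMat.smul_of_mem _ hd)

/-- **(N3), abstract form**: transfer of unipotence from `ρ'` to `ρ` on `E`. -/
theorem unip_transfer {E : Set (Fin r → L)} {w : Fin r' → L} (hw : w ≠ 0) (g : G)
    (hE : ∀ v ∈ E, actL (ρ g) v ∈ E)
    (hunip' : (ρ' g - 1) * (ρ' g - 1) = 0)
    (happrox : ∀ n : ℕ, ∃ (t : G) (d : 𝒪), IsSmallMat (maximalIdeal 𝒪 ^ n) (ρ t - 1) ∧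
      IsSmallMat (maximalIdeal 𝒪 ^ n) (ρ' t - 1) ∧ d - 1 ∈ maximalIdeal 𝒪 ^ n ∧
      (ρ (g * t) + d • ρ (g * t)⁻¹, ρ' (g * t) + d • ρ' (g * t)⁻¹) ∈ scalSub E w) :
    ∀ v ∈ E, actL (ρ g) (actL (ρ g) v) - actL (ρ g) v - actL (ρ g) v + v = 0 := by
  -- Step 1: the limit is in `scalSub`
  have hx : (ρ g + ρ g⁻¹, ρ' g + ρ' g⁻¹) ∈ scalSub E w := by
    refine mem_of_approx (𝒪 := 𝒪)
      (Λ := Matrix (Fin r) (Fin r) 𝒪 × Matrix (Fin r') (Fin r') 𝒪) (scalSub (𝒪 := 𝒪) E w) _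
      fun n => ?_
    obtain ⟨t, d, ht, ht', hd, hmem⟩ := happrox n
    refine ⟨_, hmem, ?_⟩
    rw [Prod.mk_sub_mk]
    exact pair_mem_smul_top (small_diff ρ _ g t d ht hd) (small_diff ρ' _ g t d ht' hd)
  obtain ⟨c, hc, hc'⟩ := hx
  -- Step 2: `c = 2`
  have hinv' : ρ' g⁻¹ = 1 + 1 - ρ' g := by
    have h1 : ρ' g * (1 + 1 - ρ' g) = 1 := by
      have e : ρ' g * (1 + 1 - ρ' g) = 1 - (ρ' g - 1) * (ρ' g - 1) := by noncomm_ring
      rw [e, hunip', sub_zero]
    calc ρ' g⁻¹ = ρ' g⁻¹ * (ρ' g * (1 + 1 - ρ' g)) := by rw [h1, mul_one]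
      _ = (ρ' g⁻¹ * ρ' g) * (1 + 1 - ρ' g) := by rw [mul_assoc]
      _ = 1 + 1 - ρ' g := by rw [rep_inv_mul_h50, one_mul]
  have hc2 : c = 1 + 1 := by
    have h1 : actL (ρ' g + ρ' g⁻¹) w = c • w := hc'
    have e : ρ' g + ρ' g⁻¹ = 1 + 1 := by rw [hinv']; abel
    rw [e, actL_add, actL_one] at h1
    have h2 : ((1 : L) + 1 - c) • w = 0 := by
      rw [sub_smul, add_smul, one_smul, h1, sub_self]
    rcases smul_eq_zero.1 h2 with h3 | h3
    · exact (sub_eq_zero.1 h3).symm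
    · exact absurd h3 hw
  -- Step 3: the relation on `E`
  intro v hv
  have h1 : actL (ρ g + ρ g⁻¹) (actL (ρ g) v) = c • actL (ρ g) v := hc _ (hE v hv)
  rw [actL_add, ← actL_mul (ρ g⁻¹), rep_inv_mul_h50, actL_one, hc2, add_smul, one_smul] at h1
  have e : actL (ρ g) (actL (ρ g) v) - actL (ρ g) v - actL (ρ g) v + v
      = (actL (ρ g) (actL (ρ g) v) + v) - (actL (ρ g) v + actL (ρ g) v) := by abel
  rw [e, h1, sub_self]

end Transfer

end Fermat.Agent.L.Pivot.Geom.H50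

end
-- ==== END Fermat.Agent.L.Pivot.Geom.H50_UnipTransfer

-- ==== BEGIN Fermat.Agent.L.Pivot.Geom.H70_GroupMix
section

/-!
# PIVOT, package PV-GEOM, leaf P-HSTEP: group theory with MIXED exponents (helper70)

Pure group theory (Mathlib + `H29_TwGroup`).  `G` a commutative group with homomorphisms
`φ j : G →* C j` (`j : Fin R`) to finite cyclic groups, exponents `P j ∣ |C j|`, and
`mixSub φ P = {x | ∀ j, φ j x ∈ (C j)^(P j)}`;  elements `δ j` with `φ i (δ j) = 1` for `i ≠ j`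
and `φ j (δ j) ^ e ∈ (C j)^(P j) → P j ∣ e`.
(`G = (ℤ/c)ˣ`, `c = ∏ q_j`, `φ j` = reduction mod `q_j`, `P j = p ^ e j`.)

* `IsGenFamM.chain_top`     : the top of the chain `mixSub ⊔ ⟨δ_i : i < R⟩` is everything;
* `IsGenFamM.orderOf_chain` : `δ_j` has order `P j` modulo the `j`-th step of the chain;
* `IsGenFamM.monomial_injective`, `IsGenFamM.monomial_surjective` : the monomials
  `∏ δ_j ^ x_j`, `x_j < P j`, represent `G / mixSub` exactly once.
-/

set_option autoImplicit false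
set_option linter.unusedVariables false

namespace Fermat.Agent.L.Pivot.Geom.H70

open Fermat.Agent.NEB.Geom.H29

section mix

variable {G : Type*} [CommGroup G] {R : ℕ} {C : Fin R → Type*} [∀ j, CommGroup (C j)]
  (φ : ∀ j, G →* C j) (P : Fin R → ℕ)

/-- The subgroup of the elements whose `j`-th component is a `P j`-th power. -/
def compPowM (j : Fin R) : Subgroup G :=
  ((powMonoidHom (P j) : C j →* C j).range).comap (φ j)

theorem mem_compPowM {j : Fin R} {x : G} :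
    x ∈ compPowM φ P j ↔ φ j x ∈ (powMonoidHom (P j) : C j →* C j).range := Iff.rfl

/-- The subgroup of the elements all of whose components are `P j`-th powers. -/
def mixSub : Subgroup G := ⨅ j, compPowM φ P j

theorem mem_mixSub {x : G} :
    x ∈ mixSub φ P ↔ ∀ j, φ j x ∈ (powMonoidHom (P j) : C j →* C j).range := by
  rw [mixSub, Subgroup.mem_iInf]
  rfl

theorem mixSub_le_compPowM (j : Fin R) : mixSub φ P ≤ compPowM φ P j :=
  iInf_le _ j

variable (δ : Fin R → G)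

/-- The hypotheses on the generators `δ_j` (mixed exponents). -/
structure IsGenFamM : Prop where
  triv : ∀ i j, i ≠ j → φ i (δ j) = 1
  ord : ∀ j (e : ℕ), φ j (δ j) ^ e ∈ (powMonoidHom (P j) : C j →* C j).range → P j ∣ e

variable {φ P δ}

theorem IsGenFamM.delta_mem_compPowM (h : IsGenFamM φ P δ) {i j : Fin R} (hij : i ≠ j) :
    δ i ∈ compPowM φ P j := by
  rw [mem_compPowM, h.triv j i hij.symm]
  exact one_mem _

theorem IsGenFamM.dvd_of_pow_mem (h : IsGenFamM φ P δ) {j : Fin R} {e : ℕ}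
    (he : δ j ^ e ∈ compPowM φ P j) : P j ∣ e := by
  apply h.ord j
  rw [mem_compPowM, map_pow] at he
  exact he

/-- The `P j`-th power of `δ j` lies in `mixSub`. -/
theorem IsGenFamM.pow_mem_mixSub (h : IsGenFamM φ P δ) (j : Fin R) :
    δ j ^ P j ∈ mixSub φ P := by
  rw [mem_mixSub]
  intro i
  by_cases hij : i = j
  · subst hij
    exact ⟨φ i (δ i), by rw [powMonoidHom_apply, map_pow]⟩
  · rw [map_pow, h.triv i j hij, one_pow]
    exact one_mem _

/-- The components of a monomial. -/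
theorem IsGenFamM.monomial_apply (h : IsGenFamM φ P δ) (s : Fin R → ℕ) (j : Fin R) :
    φ j (∏ i, δ i ^ s i) = φ j (δ j) ^ s j := by
  rw [map_prod, Finset.prod_eq_single j]
  · rw [map_pow]
  · intro i _ hij
    rw [map_pow, h.triv j i hij.symm, one_pow]
  · intro hj
    exact absurd (Finset.mem_univ j) hj

/-- **Decomposition**: every element is an element of `mixSub` times a monomial in the `δ_j`. -/
theorem IsGenFamM.exists_decomp [∀ j, Finite (C j)] [∀ j, IsCyclic (C j)]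
    (h : IsGenFamM φ P δ) (hP : ∀ j, P j ∣ Nat.card (C j)) (x : G) :
    ∃ (s : Fin R → ℕ) (y : G), y ∈ mixSub φ P ∧ x = y * ∏ j, δ j ^ s j := by
  have key : ∀ j, ∃ (s : ℕ) (y : C j), φ j x = φ j (δ j) ^ s * y ^ P j := by
    intro j
    exact cyc_gen (P j) (hP j) (φ j (δ j)) (fun e he => h.ord j e he) (φ j x)
  choose s y hy using key
  refine ⟨s, x * (∏ j, δ j ^ s j)⁻¹, ?_, by rw [inv_mul_cancel_right]⟩
  rw [mem_mixSub]
  intro j
  rw [map_mul, map_inv, h.monomial_apply, hy j, mul_comm (φ j (δ j) ^ s j), mul_assoc,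
    mul_inv_cancel, mul_one]
  exact ⟨y j, rfl⟩

/-- The chain below `k` lies in `compPowM k`. -/
theorem IsGenFamM.chain_le_compPowM (h : IsGenFamM φ P δ) (k : Fin R) :
    ∀ j : ℕ, j ≤ (k : ℕ) → chain (mixSub φ P) δ j ≤ compPowM φ P k := by
  intro j
  induction j with
  | zero => intro _; exact mixSub_le_compPowM φ P k
  | succ j ih =>
    intro hj
    rw [chain_succ]
    refine sup_le (ih (Nat.le_of_succ_le hj)) ?_
    rw [Subgroup.zpowers_le]
    have hjr : j < R := lt_of_lt_of_le (Nat.lt_of_succ_le hj) (Nat.le_of_lt k.2)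
    rw [deltaExt_of_lt δ hjr]
    apply h.delta_mem_compPowM
    intro hjk
    have : j = (k : ℕ) := by rw [← hjk]
    omega

/-- The top of the chain is everything. -/
theorem IsGenFamM.chain_top [∀ j, Finite (C j)] [∀ j, IsCyclic (C j)]
    (h : IsGenFamM φ P δ) (hP : ∀ j, P j ∣ Nat.card (C j)) (x : G) :
    x ∈ chain (mixSub φ P) δ R := by
  obtain ⟨s, y, hy, rfl⟩ := h.exists_decomp hP x
  refine Subgroup.mul_mem _ (le_chain _ δ R hy) (Subgroup.prod_mem _ fun j _ => ?_)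
  refine Subgroup.pow_mem _ ?_ _
  have := delta_mem_chain (mixSub φ P) δ j.2
  rwa [deltaExt_val] at this

/-- The order of `δ_j` modulo the `j`-th step of the chain is `P j`. -/
theorem IsGenFamM.orderOf_chain (h : IsGenFamM φ P δ) {A : Type*} [Group A] (ρ : G →* A)
    (j : ℕ) (hj : j < R)
    (hker : ∀ d, ρ d = 1 ↔ d ∈ chain (mixSub φ P) δ j) :
    orderOf (ρ (deltaExt δ j)) = P ⟨j, hj⟩ := by
  apply Nat.dvd_antisymm
  · apply orderOf_dvd_of_pow_eq_one
    rw [← map_pow, hker, deltaExt_of_lt δ hj]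
    exact le_chain _ δ j (h.pow_mem_mixSub ⟨j, hj⟩)
  · have key : ∀ m : ℕ, ρ (deltaExt δ j) ^ m = 1 → P ⟨j, hj⟩ ∣ m := by
      intro m h1
      rw [← map_pow, hker] at h1
      have h2 := h.chain_le_compPowM ⟨j, hj⟩ j le_rfl h1
      rw [deltaExt_of_lt δ hj] at h2
      exact h.dvd_of_pow_mem h2
    exact key _ (pow_orderOf_eq_one _)

/-! ### Monomials -/

/-- `x ↦ ρ (∏ δ_j ^ x_j)` is injective on the box `∏ Fin (P j)` if `ker ρ ⊆ mixSub`. -/
theorem IsGenFamM.monomial_injective (h : IsGenFamM φ P δ) {A : Type*} [Group A] (ρ : G →* A)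
    (hker : ∀ d, ρ d = 1 → d ∈ mixSub φ P) :
    Function.Injective fun x : (∀ j, Fin (P j)) => ρ (∏ j, δ j ^ (x j : ℕ)) := by
  intro x y hxy
  have hxy' : ρ (∏ j, δ j ^ (x j : ℕ)) = ρ (∏ j, δ j ^ (y j : ℕ)) := hxy
  have key : ∀ (x y : ∀ j, Fin (P j)),
      ρ (∏ j, δ j ^ (x j : ℕ)) = ρ (∏ j, δ j ^ (y j : ℕ)) →
      ∀ k, (y k : ℕ) ≤ (x k : ℕ) → x k = y k := by
    intro x y hxy k hle
    have h1 : ρ ((∏ j, δ j ^ (x j : ℕ)) * (∏ j, δ j ^ (y j : ℕ))⁻¹) = 1 := by
      rw [map_mul, map_inv, hxy, mul_inv_cancel]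
    have h2 := mixSub_le_compPowM φ P k (hker _ h1)
    rw [mem_compPowM, map_mul, map_inv, h.monomial_apply, h.monomial_apply] at h2
    have h3 : φ k (δ k) ^ ((x k : ℕ) - (y k : ℕ)) ∈
        (powMonoidHom (P k) : C k →* C k).range := by
      rw [pow_sub _ hle]
      exact h2
    have h4 : P k ∣ (x k : ℕ) - (y k : ℕ) := h.ord k _ h3
    have h5 : (x k : ℕ) - (y k : ℕ) = 0 :=
      Nat.eq_zero_of_dvd_of_lt h4 (lt_of_le_of_lt (Nat.sub_le _ _) (x k).2)
    apply Fin.ext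
    omega
  funext k
  rcases le_total (y k : ℕ) (x k : ℕ) with hle | hle
  · exact key x y hxy' k hle
  · exact (key y x hxy'.symm k hle).symm

/-- **Decomposition**, with exponents in the box `∏ Fin (P j)`. -/
theorem IsGenFamM.exists_decomp_box [∀ j, Finite (C j)] [∀ j, IsCyclic (C j)]
    (h : IsGenFamM φ P δ) (hP0 : ∀ j, P j ≠ 0) (hP : ∀ j, P j ∣ Nat.card (C j)) (d : G) :
    ∃ (x : ∀ j, Fin (P j)) (y : G), y ∈ mixSub φ P ∧ d = y * ∏ j, δ j ^ (x j : ℕ) := by
  obtain ⟨s, y, hy, rfl⟩ := h.exists_decomp hP d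
  refine ⟨fun j => ⟨s j % P j, Nat.mod_lt _ (Nat.pos_of_ne_zero (hP0 j))⟩,
    y * ∏ j, (δ j ^ P j) ^ (s j / P j), ?_, ?_⟩
  · refine Subgroup.mul_mem _ hy (Subgroup.prod_mem _ fun j _ => ?_)
    exact Subgroup.pow_mem _ (h.pow_mem_mixSub j) _
  · rw [mul_assoc, ← Finset.prod_mul_distrib]
    congr 1
    refine Finset.prod_congr rfl fun j _ => ?_
    show δ j ^ s j = (δ j ^ P j) ^ (s j / P j) * δ j ^ (s j % P j)
    rw [← pow_mul, ← pow_add, Nat.div_add_mod (s j) (P j)]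

/-- `x ↦ ρ (∏ δ_j ^ x_j)` maps the box onto the range of `ρ` if `mixSub ⊆ ker ρ`. -/
theorem IsGenFamM.monomial_surjective [∀ j, Finite (C j)] [∀ j, IsCyclic (C j)]
    (h : IsGenFamM φ P δ) (hP0 : ∀ j, P j ≠ 0) (hP : ∀ j, P j ∣ Nat.card (C j))
    {A : Type*} [Group A] (ρ : G →* A)
    (hker : ∀ d, d ∈ mixSub φ P → ρ d = 1) (d : G) :
    ∃ x : (∀ j, Fin (P j)), ρ (∏ j, δ j ^ (x j : ℕ)) = ρ d := by
  obtain ⟨x, y, hy, rfl⟩ := h.exists_decomp_box hP0 hP d
  refine ⟨x, ?_⟩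
  rw [map_mul, hker y hy, one_mul]

end mix

end Fermat.Agent.L.Pivot.Geom.H70

end
-- ==== END Fermat.Agent.L.Pivot.Geom.H70_GroupMix

-- ==== BEGIN Fermat.Agent.L.Pivot.Geom.H81_NewAsmAlg
section

/-!
# PIVOT, PV-GEOM, leaf PVG-NEW-ASM (helper81), part 1: pure algebra

* `exists_eigen_of_ker_le`: a commutative ring `P` acting on a finite-dimensional space `V` over an
  algebraically closed field `L` through `ρ`, with `P ⧸ ker ρ` integral over `ℤ`, and a ring
  homomorphism `π : P → D` to a domain of characteristic `0` with `ker ρ ≤ ker π`: there are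
  `χ : P → L` with `ker χ = ker π` and a simultaneous eigenvector of `ρ` with eigenvalues `χ`.
* `isIntegral_quot_mvPolynomial`: for `P = ℤ[X_i]`, `P ⧸ ker ρ` is integral over `ℤ` as soon as
  the `ρ (X_i)` are integral over `ℤ`.
* `exists_factor_of_ker_le`: a ring homomorphism whose kernel contains the kernel of a surjective
  ring homomorphism factors through it.
-/

set_option autoImplicit false

open Polynomial

namespace Fermat.Agent.L.Pivot.Geom.H81

section EigenKer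

variable {L : Type*} [Field L] {V : Type*} [AddCommGroup V] [Module L V]
  {P : Type*} [CommRing P]

/-- Integrality in the quotient by the kernel from integrality of the operator. -/
theorem isIntegral_mk_of_isIntegral (ρ : P →+* Module.End L V) (f : P)
    (h : IsIntegral ℤ (ρ f)) : IsIntegral ℤ (Ideal.Quotient.mk (RingHom.ker ρ) f) := by
  obtain ⟨g, hm, hg⟩ := h
  refine ⟨g, hm, ?_⟩
  have hinj : Function.Injective (RingHom.kerLift ρ) := RingHom.kerLift_injective ρ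
  apply hinj
  rw [map_zero, ← hg]
  have h1 : (RingHom.kerLift ρ) (Ideal.Quotient.mk (RingHom.ker ρ) f) = ρ f :=
    RingHom.kerLift_mk ρ f
  rw [← h1, ← Polynomial.aeval_def, ← Polynomial.aeval_def]
  exact (Polynomial.aeval_algHom_apply (RingHom.kerLift ρ).toIntAlgHom _ g).symm

/-- For a polynomial ring over `ℤ`: the quotient by the kernel of an action is integral over `ℤ`
as soon as the generators act through integral operators. -/
theorem isIntegral_quot_mvPolynomial {σ : Type*} (ρ : MvPolynomial σ ℤ →+* Module.End L V)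
    (h : ∀ i, IsIntegral ℤ (ρ (MvPolynomial.X i))) :
    Algebra.IsIntegral ℤ (MvPolynomial σ ℤ ⧸ RingHom.ker ρ) := by
  refine ⟨fun x => ?_⟩
  obtain ⟨f, rfl⟩ := Ideal.Quotient.mk_surjective x
  induction f using MvPolynomial.induction_on with
  | C a =>
    have : (Ideal.Quotient.mk (RingHom.ker ρ)) (MvPolynomial.C a)
        = algebraMap ℤ (MvPolynomial σ ℤ ⧸ RingHom.ker ρ) a := by
      rw [eq_intCast (algebraMap ℤ (MvPolynomial σ ℤ ⧸ RingHom.ker ρ)) a,
        show (MvPolynomial.C a : MvPolynomial σ ℤ) = ((a : ℤ) : MvPolynomial σ ℤ) from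
          eq_intCast (MvPolynomial.C : ℤ →+* MvPolynomial σ ℤ) a, map_intCast]
    rw [this]
    exact isIntegral_algebraMap
  | add f g hf hg =>
    rw [map_add]
    exact hf.add hg
  | mul_X f i hf =>
    rw [map_mul]
    exact hf.mul (isIntegral_mk_of_isIntegral ρ _ (h i))

/-- **Eigen-characters from kernels.**  `P` commutative acting on the finite-dimensional `V` over
the algebraically closed field `L`, `P ⧸ ker ρ` integral over `ℤ`; `π : P → D` a ring homomorphism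
to a domain of characteristic `0` with `ker ρ ≤ ker π`.  Then there are a character `χ : P → L`
with the SAME kernel as `π` and a simultaneous eigenvector with eigenvalues `χ`. -/
theorem exists_eigen_of_ker_le [IsAlgClosed L] [FiniteDimensional L V]
    (ρ : P →+* Module.End L V) [Algebra.IsIntegral ℤ (P ⧸ RingHom.ker ρ)]
    {D : Type*} [CommRing D] [IsDomain D] [CharZero D] (π : P →+* D)
    (hle : RingHom.ker ρ ≤ RingHom.ker π) :
    ∃ χ : P →+* L, RingHom.ker χ = RingHom.ker π ∧ ∃ v : V, v ≠ 0 ∧ ∀ t, ρ t v = χ t • v := by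
  let ρ' : P ⧸ RingHom.ker ρ →+* Module.End L V := RingHom.kerLift ρ
  let π' : P ⧸ RingHom.ker ρ →+* D :=
    Ideal.Quotient.lift (RingHom.ker ρ) π (fun a ha => hle ha)
  have hker : RingHom.ker ρ' = ⊥ :=
    (RingHom.injective_iff_ker_eq_bot ρ').mp (RingHom.kerLift_injective ρ)
  have : (RingHom.ker π').IsPrime := RingHom.ker_isPrime π'
  have hint' : @Algebra.IsIntegral ℤ (P ⧸ RingHom.ker ρ) _ _ (Ring.toIntAlgebra _) :=
    ‹Algebra.IsIntegral ℤ (P ⧸ RingHom.ker ρ)›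
  have hmin : RingHom.ker π' ∈ (RingHom.ker ρ').minimalPrimes := by
    apply @H3.mem_minimalPrimes_of_integral _ _ hint'
    · rw [hker]
      exact bot_le
    · intro n hn
      rw [RingHom.mem_ker, map_intCast] at hn
      exact_mod_cast hn
  obtain ⟨χ, hχ, v, hv0, hv⟩ := H3.exists_eigen_of_minimalPrime ρ' _ hmin
  refine ⟨χ.comp (Ideal.Quotient.mk _), ?_, v, hv0, fun t => ?_⟩
  · ext t
    rw [RingHom.mem_ker, RingHom.comp_apply, ← RingHom.mem_ker, hχ, RingHom.mem_ker,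
      RingHom.mem_ker]
    rfl
  · exact hv (Ideal.Quotient.mk _ t)

end EigenKer

section Factor

/-- A ring homomorphism whose kernel contains the kernel of a surjective ring homomorphism factors
through it. -/
theorem exists_factor_of_ker_le {R T B : Type*} [CommRing R] [CommRing T] [CommRing B]
    (π : R →+* T) (hπ : Function.Surjective π) (g : R →+* B)
    (h : RingHom.ker π ≤ RingHom.ker g) : ∃ g' : T →+* B, ∀ x, g' (π x) = g x :=
  ⟨RingHom.liftOfSurjective π hπ ⟨g, h⟩, fun x => RingHom.liftOfRightInverse_comp_apply _ _ _ _ x⟩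

end Factor

end Fermat.Agent.L.Pivot.Geom.H81

end
-- ==== END Fermat.Agent.L.Pivot.Geom.H81_NewAsmAlg

-- ==== BEGIN Fermat.Agent.L.Pivot.H3_Cyc
section

/-!
# PIVOT, leaf CYC (helper3): a coefficient ring with roots of unity

`exists_split_cyc_ext`: for a complete discrete valuation ring `𝒪` (characteristic `0`, finite
residue field `k`) and `n > 0` there is a complete discrete valuation ring `𝒪'`, finite free over
`𝒪` with local structure map, such that
* every monic quadratic polynomial over `k` is a product of two linear factors over the residue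
  field of `𝒪'` (as in `S59.H99.exists_split_ext`), and
* `𝒪'` contains a primitive `m`-th root of unity for every `m ∣ n`.

Construction: `𝒪'` = integral closure of `𝒪` in the splitting field of `G · (Xⁿ − 1)`, `G` the
product of the lifts of the quadratics.
-/

set_option autoImplicit false

open Polynomial IsLocalRing

namespace Fermat.Agent.L.Pivot.H3

open Fermat.Agent.S59.H99

/-- A field of characteristic `0` over which `Xⁿ − 1` splits has a primitive `n`-th root of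
unity. -/
theorem exists_primitiveRoot_of_splits {E : Type*} [Field E] [CharZero E] (n : ℕ) (hn : 0 < n)
    (h : (X ^ n - 1 : E[X]).Splits) : ∃ ζ : E, IsPrimitiveRoot ζ n := by
  have : NeZero n := ⟨hn.ne'⟩
  have : NeZero (n : E) := ⟨Nat.cast_ne_zero.mpr hn.ne'⟩
  have hc : (cyclotomic n E).Splits := by
    refine h.of_dvd (monic_X_pow_sub_C (1 : E) hn.ne').ne_zero ?_
    simpa using cyclotomic.dvd_X_pow_sub_one n E
  have hdeg : (cyclotomic n E).degree ≠ 0 := by
    rw [degree_cyclotomic]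
    exact_mod_cast (Nat.totient_pos.mpr hn).ne'
  obtain ⟨ζ, hζ⟩ := hc.exists_eval_eq_zero hdeg
  exact ⟨ζ, (isRoot_cyclotomic_iff).mp hζ⟩

/-- **The coefficient ring for PIVOT.** -/
theorem exists_split_cyc_ext (𝒪 : Type) [CommRing 𝒪] [IsDomain 𝒪] [IsDiscreteValuationRing 𝒪]
    [IsAdicComplete (maximalIdeal 𝒪) 𝒪] [Finite (ResidueField 𝒪)] [CharZero 𝒪]
    (n : ℕ) (hn : 0 < n) :
    ∃ (𝒪' : Type) (_ : CommRing 𝒪') (_ : IsDomain 𝒪') (_ : IsDiscreteValuationRing 𝒪')
      (_ : IsAdicComplete (maximalIdeal 𝒪') 𝒪') (_ : Finite (ResidueField 𝒪'))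
      (_ : CharZero 𝒪') (_ : Algebra 𝒪 𝒪') (_ : Module.Finite 𝒪 𝒪') (_ : Module.Free 𝒪 𝒪')
      (_ : IsLocalHom (algebraMap 𝒪 𝒪')),
      (∀ g : (ResidueField 𝒪)[X], g.Monic → g.natDegree = 2 →
        ∃ α β : ResidueField 𝒪',
          g.map (ResidueField.map (algebraMap 𝒪 𝒪')) = (X - C α) * (X - C β)) ∧
      ∀ m : ℕ, m ∣ n → ∃ ζ : 𝒪', IsPrimitiveRoot ζ m := by
  classical
  have hfk : Fintype (ResidueField 𝒪) := Fintype.ofFinite _
  let s : ResidueField 𝒪 → 𝒪 := Function.surjInv (residue_surjective (R := 𝒪))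
  have hs : ∀ x, residue 𝒪 (s x) = x := Function.surjInv_eq _
  let q : ResidueField 𝒪 × ResidueField 𝒪 → 𝒪[X] :=
    fun bc => X ^ 2 + (C (s bc.1) * X + C (s bc.2))
  have hqm : ∀ bc, (q bc).Monic := fun bc => quadratic_monic _ _
  have hqd : ∀ bc, (q bc).natDegree = 2 := fun bc => quadratic_natDegree _ _
  let G0 : 𝒪[X] := ∏ bc, q bc
  have hG0m : G0.Monic := monic_prod_of_monic _ _ (fun bc _ => hqm bc)
  have hXm : (X ^ n - 1 : 𝒪[X]).Monic := monic_X_pow_sub_C 1 hn.ne'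
  let G : 𝒪[X] := G0 * (X ^ n - 1)
  have hGm : G.Monic := hG0m.mul hXm
  obtain ⟨𝒪', i1, i2, i3, i4, i5, i6, i7, i8, i9, i10, i11, i12, hinj, hint⟩ :=
    Fermat.Agent.R.H2.exists_finiteExtDVR 𝒪 (FractionRing 𝒪)
      ((G.map (algebraMap 𝒪 (FractionRing 𝒪))).SplittingField)
  have htf : Module.IsTorsionFree 𝒪 𝒪' := Module.isTorsionFree_iff_algebraMap_injective.mpr hinj
  have hfree : Module.Free 𝒪 𝒪' := Module.free_of_finite_type_torsion_free'
  set E := (G.map (algebraMap 𝒪 (FractionRing 𝒪))).SplittingField with hE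
  have hGE : (G.map (algebraMap 𝒪 E)).Splits := by
    have h1 : G.map (algebraMap 𝒪 E) =
        (G.map (algebraMap 𝒪 (FractionRing 𝒪))).map (algebraMap (FractionRing 𝒪) E) := by
      rw [Polynomial.map_map, ← IsScalarTower.algebraMap_eq]
    rw [h1]
    exact SplittingField.splits _
  refine ⟨𝒪', i1, i2, i3, i4, i5, i6, i7, i8, hfree, i9, ?_, ?_⟩
  · intro g hgm hgd
    set bc : ResidueField 𝒪 × ResidueField 𝒪 := (g.coeff 1, g.coeff 0) with hbc
    -- `q bc` reduces to `g`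
    have hred : (q bc).map (residue 𝒪) = g := by
      conv_rhs => rw [monic_quadratic_eq hgm hgd]
      simp only [q, Polynomial.map_add, Polynomial.map_mul, Polynomial.map_pow, Polynomial.map_X,
        Polynomial.map_C, hs, hbc]
    have hdvd : (q bc).map (algebraMap 𝒪 E) ∣ G.map (algebraMap 𝒪 E) :=
      Polynomial.map_dvd _ (Dvd.dvd.mul_right (Finset.dvd_prod_of_mem q (Finset.mem_univ bc)) _)
    have hqE : ((q bc).map (algebraMap 𝒪 E)).Splits :=
      hGE.of_dvd (hGm.map _).ne_zero hdvd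
    obtain ⟨r₁, r₂, hr⟩ := exists_roots_of_splits hqE ((hqm bc).map _)
      (by rw [(hqm bc).natDegree_map, hqd])
    -- the roots are integral
    have hroot : ∀ r : E, ((q bc).map (algebraMap 𝒪 E)).IsRoot r → IsIntegral 𝒪 r := by
      intro r hr0
      refine ⟨q bc, hqm bc, ?_⟩
      rwa [IsRoot.def, eval_map] at hr0
    have hr₁ : IsIntegral 𝒪 r₁ := hroot r₁ (by rw [hr]; simp)
    have hr₂ : IsIntegral 𝒪 r₂ := hroot r₂ (by rw [hr]; simp)
    obtain ⟨y₁, hy₁⟩ := hint r₁ hr₁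
    obtain ⟨y₂, hy₂⟩ := hint r₂ hr₂
    subst hy₁ hy₂
    -- the factorisation over `𝒪'`
    have hfac : (q bc).map (algebraMap 𝒪 𝒪') = (X - C y₁) * (X - C y₂) := by
      apply Polynomial.map_injective (algebraMap 𝒪' E) (IsFractionRing.injective 𝒪' E)
      rw [Polynomial.map_map, ← IsScalarTower.algebraMap_eq, hr]
      simp only [Polynomial.map_mul, Polynomial.map_sub, Polynomial.map_X, Polynomial.map_C]
      rfl
    refine ⟨residue 𝒪' y₁, residue 𝒪' y₂, ?_⟩
    have hcomp : (ResidueField.map (algebraMap 𝒪 𝒪')).comp (residue 𝒪) =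
        (residue 𝒪').comp (algebraMap 𝒪 𝒪') := by
      ext x
      exact ResidueField.map_residue _ x
    rw [← hred, Polynomial.map_map, hcomp, ← Polynomial.map_map, hfac]
    simp only [Polynomial.map_mul, Polynomial.map_sub, Polynomial.map_X, Polynomial.map_C]
  · intro m hm
    have hinjE : Function.Injective (algebraMap 𝒪' E) := IsFractionRing.injective 𝒪' E
    have : CharZero E := charZero_of_injective_algebraMap hinjE
    have hXE : (X ^ n - 1 : E[X]).Splits := by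
      have hdvd : (X ^ n - 1 : 𝒪[X]).map (algebraMap 𝒪 E) ∣ G.map (algebraMap 𝒪 E) :=
        Polynomial.map_dvd _ (Dvd.intro_left _ rfl)
      have h2 := hGE.of_dvd (hGm.map _).ne_zero hdvd
      simpa using h2
    obtain ⟨ζ, hζ⟩ := exists_primitiveRoot_of_splits n hn hXE
    -- `ζ` is integral
    have hint' : IsIntegral 𝒪 ζ := by
      refine ⟨X ^ n - 1, hXm, ?_⟩
      simp [hζ.pow_eq_one]
    obtain ⟨y, hy⟩ := hint ζ hint'
    have hyn : IsPrimitiveRoot y n := by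
      have : IsPrimitiveRoot (algebraMap 𝒪' E y) n := hy ▸ hζ
      exact IsPrimitiveRoot.of_map_of_injective (f := algebraMap 𝒪' E) this hinjE
    obtain ⟨d, hd⟩ := hm
    refine ⟨y ^ d, ?_⟩
    have := hyn.pow hn (show n = d * m by rw [hd, mul_comm])
    exact this

end Fermat.Agent.L.Pivot.H3

end
-- ==== END Fermat.Agent.L.Pivot.H3_Cyc

-- ==== BEGIN Fermat.Agent.NEB.OLD.H52_CompatAd
section
attribute [local instance 10000] SubalgebraClass.toAlgebra
attribute [local instance 10000] HahnSeries.powerSeriesAlgebra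

/-!
# NEB, package OLDNEW, leaf OLD-CAD (helper52): `α_{q*} ∘ U_{q'} = U_{q'} ∘ α_{q*}`

`q ≠ q'` primes, `q ∤ M`.  With `α_q : F₀(M) → F₀(Mq)`, `α', β' : F₀(Mq) → F₀(Mqq')` and
`ι : F₀(Mq') ⊂ F₀(Mqq')`:

* `α_{q*} β'_* = β_{q'*} ι_*`        (`pushP_comp`, `β' ∘ α_q = ι ∘ β_{q'}`);
* `ι_* α'^* = α_{q'}^* α_{q*}`        (base change of the norm in the all-inclusion square,
  `NEB.H14.square_of_norm_pic`).  The primitive element of `F₀(Mq) / F₀(M)` is `j(Mqτ)`
  (`stmt_GenJ`); it stays primitive for `F₀(Mqq') / F₀(Mq')` by the CRUX of helper44 at level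
  `Mq'` (`j(Mτ)` generates `F₀(Mq'q)` over `β_q F₀(Mq')`) transported by the Atkin–Lehner
  involution `w_q` (`w ∘ β = α`, `w j(Mτ) = j(Mqτ)`).

No hypothesis on `q'` versus `M` is needed.
-/

set_option autoImplicit false
set_option linter.unusedSectionVars false
set_option linter.style.haveILetI false
set_option linter.dupNamespace false

noncomputable section

namespace Fermat.Agent.NEB.OLD.H52

open AlgebraicCurve ModularCurve Fermat.Agent.S24 Fermat.Agent.Lib.HeckeComm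
open Fermat.Agent.NEB.H14 Fermat.Agent.NEB.JH Fermat.Agent.RED Fermat.Agent.S36.H44

local notation "Kb" => AlgebraicClosure ℚ

section Generic

variable {K F₁ F₂ : Type*} [Field K] [Field F₁] [Field F₂] [Algebra K F₁] [Algebra K F₂]

/-- A surjective homomorphism maps a generating set into `A` only if `A = ⊤`. -/
theorem eq_top_of_surjective_gens (ψ : F₁ →ₐ[K] F₂) (hψ : Function.Surjective ψ)
    (T : Set F₁) (hT : IntermediateField.adjoin K T = ⊤) (A : IntermediateField K F₂)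
    (h : ∀ t ∈ T, ψ t ∈ A) : A = ⊤ := by
  rw [eq_top_iff]
  intro y _
  obtain ⟨x, rfl⟩ := hψ y
  exact range_subset_of_gens ψ T hT A h x

end Generic

section Square

variable (M q q' : ℕ) [NeZero M] [NeZero q] [NeZero q']

theorem dvd_swap : M * q' * q ∣ M * q * q' := ⟨1, by ring⟩

theorem dvd_swap' : M * q * q' ∣ M * q' * q := ⟨1, by ring⟩

/-- The identification `F₀(Mq'q) = F₀(Mqq')`. -/
def swapFN : FN (M * q' * q) →ₐ[Kb] FN (M * q * q') :=
  inclFN (M * q' * q) (M * q * q') (dvd_swap M q q')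

theorem coe_swapFN (x : FN (M * q' * q)) :
    (swapFN M q q' x : LaurentSeries Kb) = (x : LaurentSeries Kb) :=
  coe_inclFN _ _ _ x

theorem swapFN_surjective : Function.Surjective (swapFN M q q') := by
  intro y
  refine ⟨inclFN (M * q * q') (M * q' * q) (dvd_swap' M q q') y, Subtype.ext ?_⟩
  rw [coe_swapFN, coe_inclFN]

theorem swapFN_bijective : Function.Bijective (swapFN M q q') :=
  ⟨(swapFN M q q').toRingHom.injective, swapFN_surjective M q q'⟩

/-- `ι = swap ∘ α_q` at level `Mq'`. -/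
theorem alphaLift_eq :
    alphaLift M q q' = (swapFN M q q').comp (heckeAlphaBar Kb (M * q') q) := by
  refine AlgHom.ext fun x => Subtype.ext ?_
  rw [coe_alphaLift, AlgHom.comp_apply, coe_swapFN, coe_heckeAlphaBar]

/-- `β' ∘ α_q = ι ∘ β_{q'}`. -/
theorem beta_comp_alpha_eq :
    (heckeBetaBar Kb (M * q) q').comp (heckeAlphaBar Kb M q)
      = (alphaLift M q q').comp (heckeBetaBar Kb M q') := by
  refine AlgHom.ext fun x => Subtype.ext ?_
  simp only [AlgHom.comp_apply, coe_heckeBetaBar, coe_heckeAlphaBar, coe_alphaLift]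

/-- The degree of `ι : F₀(Mq') ⊂ F₀(Mqq')` is `q + 1`. -/
theorem finrankHom_alphaLift (hq : q.Prime) (hqM : ¬ q ∣ M * q') :
    finrankHom (alphaLift M q q').toRingHom = q + 1 := by
  have h1 : (alphaLift M q q').toRingHom
      = (swapFN M q q').toRingHom.comp (heckeAlphaBar Kb (M * q') q).toRingHom := by
    rw [alphaLift_eq]
    rfl
  rw [h1, finrank_comp_h44]
  have h2 : finrankHom (swapFN M q q').toRingHom = 1 :=
    finrank_toAlgebra_of_bijective (swapFN M q q').toRingHom (swapFN_bijective M q q')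
  rw [h2, mul_one]
  exact (finrankHom_eq_finrankAlong _).trans (Fermat.Agent.RED.H95.finrankAlong_alpha hq hqM)

/-- **`j(Mqτ)` generates `F₀(Mqq')` over `F₀(Mq')`**: the CRUX at level `Mq'`, transported by
the Atkin–Lehner involution `w_q`. -/
theorem adjoin_alphaLift (hq : q.Prime) (hqM : ¬ q ∣ M * q') :
    letI := (alphaLift M q q').toRingHom.toAlgebra
    IntermediateField.adjoin (FN (M * q'))
      {(heckeAlphaBar Kb (M * q) q').toRingHom (jdF (M * q) (M * q) dvd_rfl)} = ⊤ := by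
  obtain ⟨a, b, hab⟩ := Fermat.Agent.RED.H95.exists_bezout hq hqM
  apply adjoin_eq_top_of_range_union
  have hM : M ∣ M * q' := dvd_mul_right M q'
  have hcrux := adjoin_range_union_eq_top (heckeBetaBar Kb (M * q') q)
    {jdF (M * q' * q) M (dvd_mul_of_dvd_left hM q)}
    (adjoin_beta_jdF (N := M * q') hq hqM M hM)
  set w := Fermat.Agent.BAD.H88.wq q (M * q') a b hab hq with hw
  refine eq_top_of_surjective_gens ((swapFN M q q').comp (w : FN (M * q' * q) →ₐ[Kb] _))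
    ?_ _ hcrux _ ?_
  · intro y
    obtain ⟨x, rfl⟩ := swapFN_surjective M q q' y
    exact ⟨w.symm x, by simp⟩
  · rintro t (⟨x, rfl⟩ | ht)
    · -- the image of `β_q` goes to the image of `ι`
      refine IntermediateField.subset_adjoin Kb _ (Or.inl ⟨x, ?_⟩)
      rw [AlgHom.comp_apply]
      have e : (w : FN (M * q' * q) →ₐ[Kb] _) (heckeBetaBar Kb (M * q') q x)
          = heckeAlphaBar Kb (M * q') q x :=
        Fermat.Agent.BAD.H88.wq_beta q (M * q') a b hab hq x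
      rw [e, alphaLift_eq, AlgHom.comp_apply]
    · -- `j(Mτ)` goes to `j(Mqτ)`
      rw [Set.mem_singleton_iff] at ht
      refine IntermediateField.subset_adjoin Kb _ (Or.inr ?_)
      rw [Set.mem_singleton_iff, ht, AlgHom.comp_apply]
      have e : (w : FN (M * q' * q) →ₐ[Kb] _) (jdF (M * q' * q) M (dvd_mul_of_dvd_left hM q))
          = jdF (M * q' * q) (M * q) (Nat.mul_dvd_mul_right hM q) :=
        Fermat.Agent.BAD.H88.wqHom_jdF q (M * q') a b hab hq M hM
      rw [e]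
      apply Subtype.ext
      rw [coe_swapFN, Fermat.Agent.RED.H95.coe_jdF]
      show _ = ((heckeAlphaBar Kb (M * q) q' (jdF (M * q) (M * q) dvd_rfl) : FN (M * q * q')) :
        LaurentSeries Kb)
      rw [coe_heckeAlphaBar, Fermat.Agent.RED.H95.coe_jdF]

/-- **Base change of the norm** in the all-inclusion square:
`α_{q'} (N_{α_q} x) = N_ι (α' x)`. -/
theorem norm_square (hq : q.Prime) (hqM : ¬ q ∣ M) (hqq' : ¬ q ∣ M * q')
    (x : FN (M * q)) :
    heckeAlphaBar Kb M q' (normFn (heckeAlphaBar Kb M q) x)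
      = normFn (alphaLift M q q') (heckeAlphaBar Kb (M * q) q' x) := by
  refine normAlongHom_baseChange (heckeAlphaBar Kb M q).toRingHom (alphaLift M q q').toRingHom
    (heckeAlphaBar Kb M q').toRingHom (heckeAlphaBar Kb (M * q) q').toRingHom
    (fun y => ?_) (alpha_finite M q) (alphaLift_finite M q q')
    (jdF (M * q) (M * q) dvd_rfl) (stmt_GenJ M (M * q) (dvd_mul_right M q))
    (adjoin_alphaLift M q q' hq hqq') ?_ x
  · exact congrArg (fun f : FN M →+* FN (M * q * q') => f y) (alpha_square M q q')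
  · have h1 : finrankHom (heckeAlphaBar Kb M q).toRingHom = q + 1 :=
      (finrankHom_eq_finrankAlong _).trans (Fermat.Agent.RED.H95.finrankAlong_alpha hq hqM)
    exact h1.trans (finrankHom_alphaLift M q q' hq hqq').symm

end Square

/-- **OLD-CAD**: `α_{q*} ∘ U_{q'} = U_{q'} ∘ α_{q*}`. -/
theorem stmt_CompatAd : Stmt_CompatAd := by
  intro M q q' _ _ _ hq hq' hne hqM _ y
  have hqq' : ¬ q ∣ M * q' := by
    intro h
    rcases (Nat.Prime.dvd_mul hq).mp h with h1 | h1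
    · exact hqM h1
    · exact hne ((Nat.prime_dvd_prime_iff_eq hq hq').mp h1)
  have hsq := square_of_norm_pic (isFF_FN M) (isFF_FN (M * q')) (isFF_FN (M * q))
    (isFF_FN (M * q * q')) (heckeAlphaBar Kb M q) (heckeAlphaBar Kb M q')
    (alphaLift M q q') (heckeAlphaBar Kb (M * q) q')
    (fun x _ => norm_square M q q' hq hqM hqq' x)
  have h1 := pushP_comp (isFF_FN M) (isFF_FN (M * q)) (isFF_FN (M * q * q'))
    (heckeAlphaBar Kb M q) (heckeBetaBar Kb (M * q) q')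
  have h2 := pushP_comp (isFF_FN M) (isFF_FN (M * q')) (isFF_FN (M * q * q'))
    (heckeBetaBar Kb M q') (alphaLift M q q')
  rw [beta_comp_alpha_eq] at h1
  have h3 : (pushP (heckeAlphaBar Kb M q)).comp (pushP (heckeBetaBar Kb (M * q) q'))
      = (pushP (heckeBetaBar Kb M q')).comp (pushP (alphaLift M q q')) := h1.symm.trans h2
  show pushP (heckeAlphaBar Kb M q)
      (pushP (heckeBetaBar Kb (M * q) q') (pullP (heckeAlphaBar Kb (M * q) q') y))
    = pushP (heckeBetaBar Kb M q') (pullP (heckeAlphaBar Kb M q')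
        (pushP (heckeAlphaBar Kb M q) y))
  have e1 := DFunLike.congr_fun h3 (pullP (heckeAlphaBar Kb (M * q) q') y)
  have e2 := DFunLike.congr_fun hsq y
  simp only [AddMonoidHom.comp_apply] at e1 e2
  rw [e1, ← e2]

end Fermat.Agent.NEB.OLD.H52

end
end
-- ==== END Fermat.Agent.NEB.OLD.H52_CompatAd
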