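-- GENERATED (merged mirror, NOTES/tools/trim/merge3_helper67.py): 8 modules of the originals, bodies verbatim.
import Mathlib
import Fermat.Prelude.Def_FLTPrelim_Modularity
import Mathlib.RingTheory.RootsOfUnity.AlgebraicallyClosed
import Fermat.Prelude.Def_ModularForm_HeckeOperatorForms
import Fermat.Prelude.Thm_ModularFormClass_qCoeff_heckeU
import Fermat.Prelude.Thm_CongruenceSubgroup_one_mem_strictPeriods_Gamma0
import Mathlib.RingTheory.Filtration
import Mathlib.LinearAlgebra.Matrix.Charpoly.Basic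
import Mathlib.LinearAlgebra.Charpoly.ToMatrix
import Mathlib.FieldTheory.IntermediateField.Adjoin.Basic
import Fermat.Agent.Zm.S35_L02_001
import Fermat.Agent.Zm.S35_L03_001
import Fermat.Agent.Zm.S35_L01_005
import Fermat.Agent.Zm.S35_L05_005
import Fermat.Agent.Lib.EllFinite.Main
import Fermat.Agent.Zm.S33_L01_005
import Fermat.Agent.Zm.S33_L02_004
import Fermat.Agent.Tate.H46_T1Alg
import Fermat.Agent.Lib.TorsionGen.Count

-- ==== BEGIN Fermat.Agent.S58.H99_Bound
section

/-!
# S58: the trivial bound `|a_q| ≤ q` (helper99)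

A Weierstrass curve over `ZMod q` has at most `2 q + 1` points (at most two values of `y` for
every `x`, and the point at infinity) and at least one, so `a_q = q + 1 - #E(F_q)` satisfies
`-q ≤ a_q ≤ q`.
-/

set_option autoImplicit false
set_option linter.unusedSectionVars false

open WeierstrassCurve

namespace Fermat.Agent.S58.H99

section Count

variable {F : Type} [Field F] [Fintype F] [DecidableEq F] (W : WeierstrassCurve F)

open Classical in
/-- A chosen solution `y` of the Weierstrass equation at `x` (if there is one). -/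
noncomputable def chosenY (x : F) : F :=
  if h : ∃ y, W.toAffine.Equation x y then h.choose else 0

theorem chosenY_spec {x y : F} (h : W.toAffine.Equation x y) :
    W.toAffine.Equation x (chosenY W x) := by
  have hex : ∃ y, W.toAffine.Equation x y := ⟨y, h⟩
  rw [chosenY, dif_pos hex]
  exact hex.choose_spec

/-- Two solutions at the same `x`, both different from a third one, are equal. -/
theorem eq_of_equation {x y y' y₀ : F} (h : W.toAffine.Equation x y)
    (h' : W.toAffine.Equation x y') (h₀ : W.toAffine.Equation x y₀) (hy : y ≠ y₀)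
    (hy' : y' ≠ y₀) : y = y' := by
  rw [WeierstrassCurve.Affine.equation_iff] at h h' h₀
  have e1 : (y - y₀) * (y + y₀ + W.a₁ * x + W.a₃) = 0 := by linear_combination h - h₀
  have e2 : (y' - y₀) * (y' + y₀ + W.a₁ * x + W.a₃) = 0 := by linear_combination h' - h₀
  have f1 := (mul_eq_zero.mp e1).resolve_left (sub_ne_zero.mpr hy)
  have f2 := (mul_eq_zero.mp e2).resolve_left (sub_ne_zero.mpr hy')
  linear_combination f1 - f2

/-- The code of a point. -/
noncomputable def pointCode : W.toAffine.Point → Option (F × Bool)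
  | .zero => none
  | .some x y _ => some (x, decide (y = chosenY W x))

theorem pointCode_injective : Function.Injective (pointCode W) := by
  rintro (_ | ⟨x, y, h⟩) (_ | ⟨x', y', h'⟩) hc
  · rfl
  · simp [pointCode] at hc
  · simp [pointCode] at hc
  · simp only [pointCode, Option.some.injEq, Prod.mk.injEq] at hc
    obtain ⟨rfl, hb⟩ := hc
    have hy : y = y' := by
      by_cases h1 : y = chosenY W x
      · have h2 : y' = chosenY W x := by
          have : decide (y' = chosenY W x) = true := by rw [← hb]; simpa using h1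
          simpa using this
        rw [h1, h2]
      · have h2 : y' ≠ chosenY W x := by
          intro h2
          have : decide (y = chosenY W x) = true := by rw [hb]; simpa using h2
          exact h1 (by simpa using this)
        exact eq_of_equation W h.1 h'.1 (chosenY_spec W h.1) h1 h2
    subst hy
    rfl

theorem card_point_le : Nat.card W.toAffine.Point ≤ 2 * Fintype.card F + 1 := by
  have h := Nat.card_le_card_of_injective (pointCode W) (pointCode_injective W)
  have e : Nat.card (Option (F × Bool)) = 2 * Fintype.card F + 1 := by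
    rw [Nat.card_eq_fintype_card, Fintype.card_option, Fintype.card_prod, Fintype.card_bool]
    ring
  rwa [e] at h

theorem card_point_pos : 0 < Nat.card W.toAffine.Point := by
  have : Finite W.toAffine.Point := inferInstance
  exact Nat.card_pos

end Count

/-- The trivial bound for `a_q`. -/
theorem apOfModel_bounds (W : WeierstrassCurve ℤ) (q : ℕ) [Fact q.Prime] :
    -(q : ℤ) ≤ W.apOfModel q ∧ W.apOfModel q ≤ q := by
  classical
  have h1 := card_point_le (W.reductionMod q)
  have h2 := card_point_pos (W.reductionMod q)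
  rw [ZMod.card] at h1
  unfold WeierstrassCurve.apOfModel WeierstrassCurve.traceOfFrobenius WeierstrassCurve.card
  rw [Nat.card_zmod]
  constructor <;> omega

end Fermat.Agent.S58.H99

end
-- ==== END Fermat.Agent.S58.H99_Bound

-- ==== BEGIN Fermat.Agent.S58.H99_FrobRoot
section

/-!
# S58: Frobenius elements and roots of unity (helper99)

A Frobenius element at a place over `ℓ` raises every root of unity of prime order `p ≠ ℓ` to
its `ℓ`-th power.
-/

set_option autoImplicit false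

namespace Fermat.Agent.S58.H99

open Fermat.Agent.Lib.FrobExists

/-- A `p`-th root of unity congruent to `1` at a place of residue characteristic `ℓ ≠ p` is
`1`. -/
theorem root_eq_one_of_valuation_lt {L : Type*} [Field L] (P : ValuationSubring L) {ℓ p : ℕ}
    (hℓ : ℓ.Prime) (hp : p.Prime) (hpℓ : p ≠ ℓ) (hP : P.valuation (ℓ : L) < 1)
    (ξ : L) (hξ : ξ ^ p = 1) (hv : P.valuation (ξ - 1) < 1) : ξ = 1 := by
  by_contra hne
  have hvξ : P.valuation ξ ≤ 1 := by
    have h1 : ξ = (ξ - 1) + 1 := by ring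
    rw [h1]
    refine le_trans (P.valuation.map_add _ _) (max_le hv.le ?_)
    rw [map_one]
  have hsum : ∑ i ∈ Finset.range p, ξ ^ i = 0 := by
    have h := mul_geom_sum ξ p
    rw [hξ, sub_self] at h
    exact (mul_eq_zero.mp h).resolve_left (sub_ne_zero.mpr hne)
  have hp_eq : (p : L) = ∑ i ∈ Finset.range p, (1 - ξ ^ i) := by
    rw [Finset.sum_sub_distrib, hsum, sub_zero]
    simp
  have hterm : ∀ i ∈ Finset.range p, P.valuation (1 - ξ ^ i) < 1 := by
    intro i _
    have h := mul_geom_sum ξ i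
    have h2 : 1 - ξ ^ i = -((ξ - 1) * ∑ k ∈ Finset.range i, ξ ^ k) := by rw [h]; ring
    rw [h2, Valuation.map_neg, map_mul]
    refine mul_lt_one_of_lt_of_le hv ?_
    refine Valuation.map_sum_le _ fun k _ => ?_
    rw [map_pow]
    exact pow_le_one₀ zero_le hvξ
  have hvp : P.valuation (p : L) < 1 := by
    rw [hp_eq]
    exact Valuation.map_sum_lt _ one_ne_zero hterm
  -- `p` and `ℓ` are coprime
  have hcop : IsCoprime (p : ℤ) (ℓ : ℤ) := by
    rw [Int.isCoprime_iff_gcd_eq_one, Int.gcd_natCast_natCast]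
    exact (Nat.coprime_primes hp hℓ).mpr hpℓ
  obtain ⟨u, w, huw⟩ := hcop
  have h1 : (1 : L) = (u : L) * (p : L) + (w : L) * (ℓ : L) := by
    have := congrArg (Int.cast : ℤ → L) huw
    push_cast at this
    exact this.symm
  have hlt : P.valuation (1 : L) < 1 := by
    rw [h1]
    refine lt_of_le_of_lt (P.valuation.map_add _ _) (max_lt ?_ ?_)
    · rw [map_mul, mul_comm]
      exact mul_lt_one_of_lt_of_le hvp (valuation_intCast_le_one P u)
    · rw [map_mul, mul_comm]
      exact mul_lt_one_of_lt_of_le hP (valuation_intCast_le_one P w)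
  rw [map_one] at hlt
  exact lt_irrefl _ hlt

/-- A Frobenius element at `ℓ` raises the `p`-th roots of unity, `p ≠ ℓ`, to the `ℓ`-th
power. -/
theorem frobenius_root (P : ValuationSubring (AlgebraicClosure ℚ))
    (φ : AlgebraicClosure ℚ ≃ₐ[ℚ] AlgebraicClosure ℚ) {ℓ p : ℕ} (hℓ : ℓ.Prime) (hp : p.Prime)
    (hpℓ : p ≠ ℓ) (hP : P.LiesOverPrime ℓ) (hφ : P.IsFrobeniusAt φ ℓ)
    (ζ : AlgebraicClosure ℚ) (hζ : ζ ^ p = 1) : φ ζ = ζ ^ ℓ := by
  have hζint : IsIntegral ℤ ζ := IsIntegral.of_pow hp.pos (by rw [hζ]; exact isIntegral_one)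
  have hζP : ζ ∈ P := (P.valuation_le_one_iff ζ).mp (valuation_le_one_of_isIntegral P ζ hζint)
  have hv := Fermat.Agent.Lib.FrobDensity.H97.valuation_frob_sub_pow_lt_one P φ ℓ hφ ζ hζP
  have hvℓ : P.valuation ((ℓ : ℕ) : AlgebraicClosure ℚ) < 1 := by
    have h := hP
    unfold ValuationSubring.LiesOverPrime at h
    rw [P.mem_nonunits_iff] at h
    exact h
  -- `β = ζ ^ ℓ` has valuation `≤ 1`
  set α := φ ζ with hα
  set β := ζ ^ ℓ with hβ
  have hαp : α ^ p = 1 := by rw [hα, ← map_pow, hζ, map_one]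
  have hβp : β ^ p = 1 := by rw [hβ, ← pow_mul, mul_comm, pow_mul, hζ, one_pow]
  have hβint : IsIntegral ℤ β := IsIntegral.of_pow hp.pos (by rw [hβp]; exact isIntegral_one)
  have hvβ : P.valuation β ≤ 1 := valuation_le_one_of_isIntegral P β hβint
  have hβ1 : β * β ^ (p - 1) = 1 := by
    rw [← pow_succ', Nat.sub_add_cancel hp.pos, hβp]
  have hξ : (α * β ^ (p - 1)) ^ p = 1 := by
    rw [mul_pow, hαp, one_mul, ← pow_mul, mul_comm, pow_mul, hβp, one_pow]
  have hsub : α * β ^ (p - 1) - 1 = (α - β) * β ^ (p - 1) := by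
    rw [sub_mul, hβ1]
  have hvξ : P.valuation (α * β ^ (p - 1) - 1) < 1 := by
    rw [hsub, map_mul, map_pow]
    exact mul_lt_one_of_lt_of_le hv (pow_le_one₀ zero_le hvβ)
  have h1 := root_eq_one_of_valuation_lt P hℓ hp hpℓ hvℓ _ hξ hvξ
  have hβ0 : β ^ (p - 1) ≠ 0 := by
    intro h0
    rw [h0, mul_zero] at hβ1
    exact zero_ne_one hβ1
  exact mul_right_cancel₀ hβ0 (h1.trans hβ1.symm)

/-- Powers of a Frobenius element on roots of unity. -/
theorem frobenius_pow_root (P : ValuationSubring (AlgebraicClosure ℚ))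
    (φ : AlgebraicClosure ℚ ≃ₐ[ℚ] AlgebraicClosure ℚ) {ℓ p : ℕ} (hℓ : ℓ.Prime) (hp : p.Prime)
    (hpℓ : p ≠ ℓ) (hP : P.LiesOverPrime ℓ) (hφ : P.IsFrobeniusAt φ ℓ)
    (ζ : AlgebraicClosure ℚ) (hζ : ζ ^ p = 1) (j : ℕ) : (φ ^ j) ζ = ζ ^ (ℓ ^ j) := by
  induction j with
  | zero => simp
  | succ j ih =>
    rw [pow_succ', AlgEquiv.mul_apply, ih, map_pow, frobenius_root P φ hℓ hp hpℓ hP hφ ζ hζ,
      ← pow_mul, pow_succ']

/-- A nontrivial `p`-th root of unity in `ℚ̄`. -/
theorem exists_root_ne_one {p : ℕ} (hp : p.Prime) :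
    ∃ ζ : AlgebraicClosure ℚ, ζ ^ p = 1 ∧ ζ ≠ 1 := by
  have : NeZero (p : ℚ) := ⟨by exact_mod_cast hp.ne_zero⟩
  obtain ⟨ζ, hζ⟩ := HasEnoughRootsOfUnity.exists_primitiveRoot (AlgebraicClosure ℚ) p
  exact ⟨ζ, hζ.pow_eq_one, hζ.ne_one hp.one_lt⟩

end Fermat.Agent.S58.H99

end
-- ==== END Fermat.Agent.S58.H99_FrobRoot

-- ==== BEGIN Fermat.Agent.S58.H99_Gram
section

/-!
# S58: the Gram criterion for absolute irreducibility in dimension 2 (helper99)

For `2 × 2` matrices `X_p` (`p ∈ Fin 2 × Fin 2`) the Gram matrix `tr (X_p X_q)` of the trace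
form is `F S Fᵀ`, `F` the `4 × 4` matrix of the flattened `X_p` and `S` the permutation matrix
of the transposition; so its determinant is `± det F ^ 2`.

* `exists_gram_ne_zero_of_span`: if the `r g` span `End V` there are four group elements with
  invertible Gram matrix `tr r (g_p g_q)`.
* `isAbsolutelyIrreducible_of_gram`: a residual representation with four elements with
  invertible Gram matrix is absolutely irreducible.
-/

set_option autoImplicit false

open Matrix

namespace Fermat.Agent.S58.H99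

open Fermat.Agent.S53.Schur

section Matrices

variable {R : Type*} [CommRing R]

/-- The matrix of the transposition on flattened `2 × 2` matrices. -/
def swapMat (R : Type*) [CommRing R] : Matrix (Fin 2 × Fin 2) (Fin 2 × Fin 2) R :=
  Matrix.of fun a b => if a.1 = b.2 ∧ a.2 = b.1 then 1 else 0

/-- The Gram matrix of the trace form. -/
def gramMat (X : Fin 2 × Fin 2 → Matrix (Fin 2) (Fin 2) R) :
    Matrix (Fin 2 × Fin 2) (Fin 2 × Fin 2) R :=
  Matrix.of fun p q => (X p * X q).trace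

theorem swapMat_mul_self : swapMat R * swapMat R = 1 := by
  ext ⟨a1, a2⟩ ⟨b1, b2⟩
  simp only [swapMat, Matrix.mul_apply, Matrix.of_apply, Fintype.sum_prod_type,
    Fin.sum_univ_two, Matrix.one_apply, Prod.mk.injEq]
  fin_cases a1 <;> fin_cases a2 <;> fin_cases b1 <;> fin_cases b2 <;> simp

theorem isUnit_det_swapMat : IsUnit (swapMat R).det := by
  have h := congrArg Matrix.det (swapMat_mul_self (R := R))
  rw [Matrix.det_mul, Matrix.det_one] at h
  exact IsUnit.of_mul_eq_one _ h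

theorem gramMat_eq (X : Fin 2 × Fin 2 → Matrix (Fin 2) (Fin 2) R) :
    gramMat X = flat X * swapMat R * (flat X)ᵀ := by
  ext p q
  simp only [gramMat, swapMat, flat, Matrix.mul_apply, Matrix.of_apply, Matrix.trace,
    Matrix.diag_apply, Matrix.transpose_apply, Fintype.sum_prod_type, Fin.sum_univ_two]
  simp
  ring

theorem det_gramMat (X : Fin 2 × Fin 2 → Matrix (Fin 2) (Fin 2) R) :
    (gramMat X).det = (flat X).det ^ 2 * (swapMat R).det := by
  rw [gramMat_eq, Matrix.det_mul, Matrix.det_mul, Matrix.det_transpose]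
  ring

theorem det_gramMat_ne_zero [IsDomain R] (X : Fin 2 × Fin 2 → Matrix (Fin 2) (Fin 2) R)
    (h : (flat X).det ≠ 0) : (gramMat X).det ≠ 0 := by
  rw [det_gramMat]
  exact mul_ne_zero (pow_ne_zero 2 h) isUnit_det_swapMat.ne_zero

theorem det_flat_eq_zero_of_gram (X : Fin 2 × Fin 2 → Matrix (Fin 2) (Fin 2) R)
    (h : (flat X).det = 0) : (gramMat X).det = 0 := by
  rw [det_gramMat, h]
  ring

theorem gramMat_map {S : Type*} [CommRing S] (f : R →+* S)
    (X : Fin 2 × Fin 2 → Matrix (Fin 2) (Fin 2) R) :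
    gramMat (fun p => (X p).map f) = (gramMat X).map f := by
  ext p q
  simp only [gramMat, Matrix.of_apply, Matrix.map_apply]
  rw [← Matrix.map_mul, Matrix.trace, Matrix.trace, map_sum]
  rfl

end Matrices

section Span

variable {F : Type*} [Field F] {V : Type*} [AddCommGroup V] [Module F V]

/-- If the `r g` span `End V` (`V` of dimension 2), four of them are linearly independent. -/
theorem exists_flat_det_ne_zero_of_span {G : Type*} [Monoid G] (r : G →* Module.End F V)
    (hspan : Submodule.span F (Set.range r) = ⊤) (b : Module.Basis (Fin 2) F V) :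
    ∃ g : Fin 2 × Fin 2 → G, (flat fun p => LinearMap.toMatrix b b (r (g p))).det ≠ 0 := by
  classical
  let e : Module.End F V ≃ₗ[F] Matrix (Fin 2) (Fin 2) F := LinearMap.toMatrix b b
  let m : G → Matrix (Fin 2) (Fin 2) F := fun σ => LinearMap.toMatrix b b (r σ)
  have hspan' : Submodule.span F (Set.range m) = ⊤ := by
    have := congrArg (Submodule.map (e : Module.End F V →ₗ[F] Matrix (Fin 2) (Fin 2) F)) hspan
    rw [Submodule.map_span, Submodule.map_top, LinearMap.range_eq_top.2 e.surjective] at this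
    rw [← this]
    congr 1
    ext X
    constructor
    · rintro ⟨σ, rfl⟩
      exact ⟨r σ, ⟨σ, rfl⟩, rfl⟩
    · rintro ⟨_, ⟨σ, rfl⟩, rfl⟩
      exact ⟨σ, rfl⟩
  obtain ⟨f, hf, -, hli⟩ := Submodule.exists_fun_fin_finrank_span_eq F (Set.range m)
  have hrank : Module.finrank F (Submodule.span F (Set.range m)) = 2 * 2 := by
    rw [hspan', finrank_top, Module.finrank_matrix]
    simp
  let eq : Fin 2 × Fin 2 ≃ Fin (Module.finrank F (Submodule.span F (Set.range m))) :=
    finProdFinEquiv.trans (finCongr hrank.symm)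
  choose g hg using fun p => hf (eq p)
  refine ⟨g, ?_⟩
  have hli' : LinearIndependent F (fun p => flatten F (m (g p))) := by
    have h1 : LinearIndependent F (fun p => f (eq p)) := hli.comp _ eq.injective
    have h2 := h1.map' (flatten F) (LinearMap.ker_eq_bot.2 (flatten_injective F))
    have h3 : (fun p => flatten F (m (g p))) = (flatten F) ∘ fun p => f (eq p) := by
      funext p
      simp only [Function.comp_apply, hg p]
    rw [h3]
    exact h2
  have hunit : IsUnit (flat fun p => m (g p)) :=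
    Matrix.linearIndependent_rows_iff_isUnit.1 hli'
  exact ((Matrix.isUnit_iff_isUnit_det _).1 hunit).ne_zero

/-- The Gram matrix of traces in terms of matrices. -/
theorem gram_trace_eq {G : Type*} [Monoid G] (r : G →* Module.End F V)
    (b : Module.Basis (Fin 2) F V) (g : Fin 2 × Fin 2 → G) :
    (Matrix.of fun p q => LinearMap.trace F V (r (g p * g q))) =
      gramMat fun p => LinearMap.toMatrix b b (r (g p)) := by
  ext p q
  simp only [gramMat, Matrix.of_apply]
  rw [map_mul, LinearMap.trace_eq_matrix_trace F b, Module.End.mul_eq_comp,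
    LinearMap.toMatrix_comp b b b]

/-- If the `r g` span `End V`, four group elements have an invertible Gram matrix. -/
theorem exists_gram_ne_zero_of_span (hV : Module.finrank F V = 2) {G : Type*} [Monoid G]
    (r : G →* Module.End F V) (hspan : Submodule.span F (Set.range r) = ⊤) :
    ∃ g : Fin 2 × Fin 2 → G,
      (Matrix.of fun p q => LinearMap.trace F V (r (g p * g q))).det ≠ 0 := by
  have : Module.Finite F V := Module.finite_of_finrank_eq_succ hV
  let b : Module.Basis (Fin 2) F V := Module.finBasisOfFinrankEq F V hV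
  obtain ⟨g, hg⟩ := exists_flat_det_ne_zero_of_span r hspan b
  refine ⟨g, ?_⟩
  rw [gram_trace_eq r b g]
  exact det_gramMat_ne_zero _ hg

/-- If all `r g` preserve a proper nonzero subspace, every Gram matrix is singular. -/
theorem gram_det_eq_zero_of_stable (hV : Module.finrank F V = 2) {G : Type*} [Monoid G]
    (r : G →* Module.End F V) (W : Submodule F V) (hW : ∀ σ, ∀ x ∈ W, r σ x ∈ W)
    (h0 : W ≠ ⊥) (h1 : W ≠ ⊤) (g : Fin 2 × Fin 2 → G) :
    (Matrix.of fun p q => LinearMap.trace F V (r (g p * g q))).det = 0 := by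
  classical
  have : Module.Finite F V := Module.finite_of_finrank_eq_succ hV
  obtain ⟨w, hwW, hw0⟩ := Submodule.exists_mem_ne_zero_of_ne_bot h0
  obtain ⟨v, hvW⟩ : ∃ v : V, v ∉ W := by
    by_contra hcon
    push Not at hcon
    exact h1 (eq_top_iff.mpr fun x _ => hcon x)
  -- `w, v` is a basis
  have hli : LinearIndependent F ![w, v] := by
    rw [LinearIndependent.pair_iff]
    intro s t hst
    have ht : t = 0 := by
      by_contra ht
      apply hvW
      have : v = (-(t⁻¹ * s)) • w := by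
        have h2 : t • v = -(s • w) := eq_neg_of_add_eq_zero_right hst
        calc v = t⁻¹ • (t • v) := by rw [smul_smul, inv_mul_cancel₀ ht, one_smul]
          _ = (-(t⁻¹ * s)) • w := by rw [h2, smul_neg, smul_smul, neg_smul]
      rw [this]
      exact W.smul_mem _ hwW
    refine ⟨?_, ht⟩
    rw [ht, zero_smul, add_zero] at hst
    exact (smul_eq_zero.mp hst).resolve_right hw0
  let b : Module.Basis (Fin 2) F V :=
    basisOfLinearIndependentOfCardEqFinrank hli (by rw [hV]; simp)
  have hb0 : b 0 = w := by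
    simp [b, coe_basisOfLinearIndependentOfCardEqFinrank]
  have hb1 : b 1 = v := by
    simp [b, coe_basisOfLinearIndependentOfCardEqFinrank]
  -- the lower left entries vanish
  have hentry : ∀ σ, LinearMap.toMatrix b b (r σ) 1 0 = 0 := by
    intro σ
    rw [LinearMap.toMatrix_apply, hb0]
    by_contra hne
    apply hvW
    have hmem := hW σ w hwW
    have hsum := b.sum_repr (r σ w)
    rw [Fin.sum_univ_two, hb0, hb1] at hsum
    set a := b.repr (r σ w) 0
    set c := b.repr (r σ w) 1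
    have : v = c⁻¹ • (r σ w - a • w) := by
      rw [← hsum, add_sub_cancel_left, smul_smul, inv_mul_cancel₀ hne, one_smul]
    rw [this]
    exact W.smul_mem _ (W.sub_mem hmem (W.smul_mem _ hwW))
  rw [gram_trace_eq r b g]
  apply det_flat_eq_zero_of_gram
  apply Matrix.det_eq_zero_of_column_eq_zero ((1 : Fin 2), (0 : Fin 2))
  intro p
  rw [flat_apply]
  exact hentry (g p)

end Span

section Residual

/-- **Gram criterion.**  A residual representation with four elements whose Gram matrix of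
traces is invertible is absolutely irreducible. -/
theorem isAbsolutelyIrreducible_of_gram {k : Type} [Field k] (ρbar : ResidualGaloisRep k)
    (g : Fin 2 × Fin 2 → (AlgebraicClosure ℚ ≃ₐ[ℚ] AlgebraicClosure ℚ))
    (h : (Matrix.of fun p q => LinearMap.trace k ρbar.V (ρbar.ρ (g p * g q))).det ≠ 0) :
    ρbar.IsAbsolutelyIrreducible := by
  classical
  intro W hW
  by_contra hcon
  rw [not_or] at hcon
  apply h
  have hfin : Module.finrank (AlgebraicClosure k) (ρbar.baseChange (AlgebraicClosure k)).V = 2 :=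
    (ρbar.baseChange (AlgebraicClosure k)).finrank_eq
  have hz := gram_det_eq_zero_of_stable hfin (ρbar.baseChange (AlgebraicClosure k)).ρ W hW
    hcon.1 hcon.2 g
  have hmap : (Matrix.of fun p q => LinearMap.trace (AlgebraicClosure k)
      (ρbar.baseChange (AlgebraicClosure k)).V
        ((ρbar.baseChange (AlgebraicClosure k)).ρ (g p * g q))) =
      (Matrix.of fun p q => LinearMap.trace k ρbar.V (ρbar.ρ (g p * g q))).map
        (algebraMap k (AlgebraicClosure k)) := by
    ext p q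
    simp only [Matrix.of_apply, Matrix.map_apply]
    exact LinearMap.trace_baseChange (ρbar.ρ (g p * g q)) (AlgebraicClosure k)
  rw [hmap, ← RingHom.mapMatrix_apply, ← RingHom.map_det] at hz
  exact (map_eq_zero (algebraMap k (AlgebraicClosure k))).mp hz

end Residual

end Fermat.Agent.S58.H99

end
-- ==== END Fermat.Agent.S58.H99_Gram

-- ==== BEGIN Fermat.Agent.S58.H99_Inv
section

/-!
# S58: an involution of an algebraically closed field of characteristic `0` inverts the roots
of unity of odd order (helper99)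

Elementary part of the Artin–Schreier theorem.  Let `c ≠ 1` be an involution of the
algebraically closed field `K`, `F` its fixed field.
1. There is `j` with `j ^ 2 = -1` and `c j = -j`.
2. A sum of two squares of `F` is a square of `F` (norm of a square root of `x + j y`).
3. Hence a sum of squares of `F` is a square of `F`, and `-1` is not a sum of squares of `F`.
4. A root of unity `ζ ≠ 1` of odd order `m` in `F` would give `0 = ∑_{i<m} (η ^ i) ^ 2` with
   `η = ζ ^ ((m+1)/2) ∈ F`, so `-1` would be a sum of squares.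
5. For any root of unity `ζ` of odd order, `ζ * c ζ` is fixed by `c`, hence equal to `1`.
-/

set_option autoImplicit false

namespace Fermat.Agent.S58.H99

section Involution

variable {K : Type*} [Field K] [IsAlgClosed K] [CharZero K] (c : K →+* K)

/-- Step 1: a square root of `-1` which is negated by `c`. -/
theorem exists_sqrt_neg_one (hcc : ∀ x, c (c x) = x) (hc1 : ∃ z, c z ≠ z) :
    ∃ j : K, j * j = -1 ∧ c j = -j := by
  obtain ⟨z, hz⟩ := hc1
  set d := z - c z with hd
  have hd0 : d ≠ 0 := sub_ne_zero.mpr (Ne.symm hz)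
  have hcd : c d = -d := by rw [hd, map_sub, hcc]; ring
  obtain ⟨w, hw⟩ := IsAlgClosed.exists_pow_nat_eq d (n := 2) (by norm_num)
  have hw0 : w ≠ 0 := by
    rintro rfl
    apply hd0
    rw [← hw]; ring
  have hcw0 : c w ≠ 0 := (map_ne_zero c).mpr hw0
  have hcw : c w * c w = -(w * w) := by
    have h1 : c w * c w = c (w ^ 2) := by rw [pow_two, map_mul]
    rw [h1, hw, hcd, ← hw, pow_two]
  refine ⟨c w * w⁻¹, ?_, ?_⟩
  · calc c w * w⁻¹ * (c w * w⁻¹) = (c w * c w) * (w⁻¹ * w⁻¹) := by ring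
      _ = -((w * w⁻¹) * (w * w⁻¹)) := by rw [hcw]; ring
      _ = -1 := by rw [mul_inv_cancel₀ hw0]; ring
  · rw [map_mul, hcc, map_inv₀]
    have h2 : w * (c w)⁻¹ + c w * w⁻¹ = (w * w + c w * c w) * ((c w)⁻¹ * w⁻¹) := by
      field_simp
    have h3 : w * (c w)⁻¹ + c w * w⁻¹ = 0 := by
      rw [h2, hcw]; ring
    exact eq_neg_of_add_eq_zero_left h3

/-- Step 2: a sum of two squares of fixed elements is the square of a fixed element. -/
theorem exists_sq_eq_add_sq (hcc : ∀ x, c (c x) = x) {j : K} (hj : j * j = -1)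
    (hcj : c j = -j) (x y : K) (hx : c x = x) (hy : c y = y) :
    ∃ z : K, c z = z ∧ z * z = x * x + y * y := by
  obtain ⟨u, hu⟩ := IsAlgClosed.exists_pow_nat_eq (x + j * y) (n := 2) (by norm_num)
  refine ⟨u * c u, ?_, ?_⟩
  · rw [map_mul, hcc, mul_comm]
  · have h1 : c u * c u = x - j * y := by
      rw [← map_mul, ← pow_two, hu, map_add, map_mul, hx, hy, hcj]; ring
    have h2 : u * u = x + j * y := by rw [← pow_two, hu]
    calc u * c u * (u * c u) = (u * u) * (c u * c u) := by ring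
      _ = (x + j * y) * (x - j * y) := by rw [h1, h2]
      _ = x * x - (j * j) * (y * y) := by ring
      _ = x * x + y * y := by rw [hj]; ring

/-- Step 3: a finite sum of squares of fixed elements is the square of a fixed element. -/
theorem exists_sq_eq_sum_sq (hcc : ∀ x, c (c x) = x) {j : K} (hj : j * j = -1)
    (hcj : c j = -j) (f : ℕ → K) (hf : ∀ i, c (f i) = f i) (n : ℕ) :
    ∃ z : K, c z = z ∧ z * z = ∑ i ∈ Finset.range n, f i * f i := by
  induction n with
  | zero => exact ⟨0, map_zero c, by simp⟩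
  | succ n ih =>
    obtain ⟨z₀, hz₀, hz₀'⟩ := ih
    obtain ⟨z, hz, hz'⟩ := exists_sq_eq_add_sq c hcc hj hcj z₀ (f n) hz₀ (hf n)
    exact ⟨z, hz, by rw [Finset.sum_range_succ, ← hz₀', hz']⟩

/-- Step 4: the only root of unity of odd order fixed by `c` is `1`. -/
theorem eq_one_of_fixed (hcc : ∀ x, c (c x) = x) (hc1 : ∃ z, c z ≠ z) {m : ℕ} (hm : Odd m)
    (ζ : K) (hζ : ζ ^ m = 1) (hfix : c ζ = ζ) : ζ = 1 := by
  by_contra hne
  obtain ⟨j, hj, hcj⟩ := exists_sqrt_neg_one c hcc hc1
  obtain ⟨k, rfl⟩ := hm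
  set η := ζ ^ (k + 1) with hη
  have hηη : η * η = ζ := by
    rw [hη, ← pow_add]
    have : k + 1 + (k + 1) = (2 * k + 1) + 1 := by ring
    rw [this, pow_succ, hζ, one_mul]
  have hcη : c η = η := by rw [hη, map_pow, hfix]
  have hsum : ∑ i ∈ Finset.range (2 * k + 1), ζ ^ i = 0 := by
    have h := mul_geom_sum ζ (2 * k + 1)
    rw [hζ, sub_self] at h
    exact (mul_eq_zero.mp h).resolve_left (sub_ne_zero.mpr hne)
  rw [Finset.sum_range_succ'] at hsum
  obtain ⟨z, hz, hz'⟩ := exists_sq_eq_sum_sq c hcc hj hcj (fun i => η ^ (i + 1))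
    (fun i => by rw [map_pow, hcη]) (2 * k)
  have hzz : z * z = -1 := by
    rw [hz']
    have : ∑ i ∈ Finset.range (2 * k), η ^ (i + 1) * η ^ (i + 1)
        = ∑ i ∈ Finset.range (2 * k), ζ ^ (i + 1) := by
      refine Finset.sum_congr rfl fun i _ => ?_
      rw [← mul_pow, hηη]
    rw [this]
    rw [pow_zero] at hsum
    linear_combination hsum
  -- `z = ± j`, but `c z = z` and `c j = -j`
  have h1 : (z - j) * (z + j) = 0 := by
    have : (z - j) * (z + j) = z * z - j * j := by ring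
    rw [this, hzz, hj, sub_self]
  have hz0 : z = 0 := by
    rcases mul_eq_zero.mp h1 with h | h
    · have hzj : z = j := sub_eq_zero.mp h
      have : z = -z := by
        conv_lhs => rw [← hz, hzj, hcj, ← hzj]
      have h2 : (2 : K) * z = 0 := by linear_combination this
      exact (mul_eq_zero.mp h2).resolve_left two_ne_zero
    · have hzj : z = -j := eq_neg_of_add_eq_zero_left h
      have : z = -z := by
        conv_lhs => rw [← hz, hzj, map_neg, hcj, ← hzj]
      have h2 : (2 : K) * z = 0 := by linear_combination this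
      exact (mul_eq_zero.mp h2).resolve_left two_ne_zero
  rw [hz0, mul_zero] at hzz
  exact one_ne_zero (neg_eq_zero.mp hzz.symm)

/-- Step 5: `c` inverts the roots of unity of odd order. -/
theorem mul_map_eq_one (hcc : ∀ x, c (c x) = x) (hc1 : ∃ z, c z ≠ z) {m : ℕ} (hm : Odd m)
    (ζ : K) (hζ : ζ ^ m = 1) : ζ * c ζ = 1 := by
  apply eq_one_of_fixed c hcc hc1 hm
  · rw [mul_pow, ← map_pow, hζ, map_one, mul_one]
  · rw [map_mul, hcc, mul_comm]

end Involution

/-- An involution `c ≠ 1` in the absolute Galois group of `ℚ` inverts the roots of unity of odd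
order. -/
theorem involution_mul_root (c : AlgebraicClosure ℚ ≃ₐ[ℚ] AlgebraicClosure ℚ) (hc : c * c = 1)
    (hc1 : c ≠ 1) {m : ℕ} (hm : Odd m) (ζ : AlgebraicClosure ℚ) (hζ : ζ ^ m = 1) :
    ζ * c ζ = 1 := by
  have hcc : ∀ x, (c : AlgebraicClosure ℚ →+* AlgebraicClosure ℚ) ((c : AlgebraicClosure ℚ →+*
      AlgebraicClosure ℚ) x) = x := by
    intro x
    have := congrArg (fun f : AlgebraicClosure ℚ ≃ₐ[ℚ] AlgebraicClosure ℚ => f x) hc
    simpa using this
  have hne : ∃ z, (c : AlgebraicClosure ℚ →+* AlgebraicClosure ℚ) z ≠ z := by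
    by_contra hcon
    push Not at hcon
    apply hc1
    ext x
    simpa using hcon x
  exact mul_map_eq_one (c : AlgebraicClosure ℚ →+* AlgebraicClosure ℚ) hcc hne hm ζ hζ

end Fermat.Agent.S58.H99

end
-- ==== END Fermat.Agent.S58.H99_Inv

-- ==== BEGIN Fermat.Agent.S58.H99_Tors
section

/-!
# S58: the mod `p` representation `W[p]` as a representation with integral Frobenius
characteristic polynomials (helper99)

From item 62 (`Fermat.Agent.Lib.EllFinite.stmt_main`): `W[p](Q̄)` has rank `2` over `ZMod p`,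
factors through a finite extension of `ℚ`, and a Frobenius element at a good prime `ℓ ≠ p` has
characteristic polynomial `X² - a_ℓ X + ℓ`.

Consequence `stmt_ResFrob` (P3 of `NOTES/plan/S58.md`).
-/

set_option autoImplicit false

open Polynomial IsLocalRing WeierstrassCurve WeierstrassCurve.Affine

namespace Fermat.Agent.S58.H99

open Fermat.Agent.S58

/-- `W[p](Q̄)`. -/
abbrev TorsW (W : WeierstrassCurve ℤ) (p : ℕ) : Type :=
  Submodule.torsionBy ℤ ((W.map (Int.castRingHom ℚ)).toAffine⁄(AlgebraicClosure ℚ)).Point p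

/-- The Galois action on `W[p](Q̄)`. -/
noncomputable abbrev torsRho (W : WeierstrassCurve ℤ) (p : ℕ) :
    GQ →* Module.End (ZMod p) (TorsW W p) :=
  Point.galoisRepModuleEnd (K := AlgebraicClosure ℚ) ℚ (W.map (Int.castRingHom ℚ)).toAffine p

/-- There are a good prime `ℓ ≠ p`, a place over it and a Frobenius element. -/
theorem exists_good_frobenius (W : WeierstrassCurve ℤ) (hΔ : W.Δ ≠ 0) (p : ℕ) :
    ∃ (ℓ : ℕ) (A : ValuationSubring (AlgebraicClosure ℚ)) (σ : GQ),
      ℓ.Prime ∧ p ≠ ℓ ∧ W.IsGoodPrimeFor ℓ ∧ A.LiesOverPrime ℓ ∧ A.IsFrobeniusAt σ ℓ := by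
  obtain ⟨ℓ, hℓ, hℓp⟩ := Nat.exists_infinite_primes (max p W.Δ.natAbs + 1)
  obtain ⟨A, σ, hA, hσ⟩ := Fermat.Agent.Lib.FrobExists.exists_place_and_frobenius ℓ hℓp
  refine ⟨ℓ, A, σ, hℓp, ?_, ?_, hA, hσ⟩
  · have := le_max_left p W.Δ.natAbs
    omega
  · intro hdvd
    have h1 : ℓ ∣ W.Δ.natAbs := Int.natCast_dvd.mp hdvd
    have h2 : ℓ ≤ W.Δ.natAbs := Nat.le_of_dvd (Nat.pos_of_ne_zero (Int.natAbs_ne_zero.mpr hΔ)) h1
    have := le_max_right p W.Δ.natAbs
    omega

theorem finrank_torsW (W : WeierstrassCurve ℤ) (hΔ : W.Δ ≠ 0) (p : ℕ) [Fact p.Prime] :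
    Module.finrank (ZMod p) (TorsW W p) = 2 := by
  obtain ⟨ℓ, A, σ, hℓ, hpℓ, hgood, hA, hσ⟩ := exists_good_frobenius W hΔ p
  exact (Fermat.Agent.Lib.EllFinite.stmt_main W p ℓ hℓ hpℓ hgood A hA σ hσ).1

/-- The coordinates of a point. -/
noncomputable def coords {L : Type*} [Field L] [DecidableEq L] {W' : Affine L} :
    W'.Point → Finset L
  | .zero => ∅
  | .some x y _ => {x, y}

theorem smul_eq_of_fix_coords (W : WeierstrassCurve ℤ) (p : ℕ) (σ : GQ) (v : TorsW W p)
    (h : ∀ x ∈ coords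
      (v : ((W.map (Int.castRingHom ℚ)).toAffine⁄(AlgebraicClosure ℚ)).Point), σ x = x) :
    σ • v = v := by
  apply Subtype.ext
  change σ • (v : ((W.map (Int.castRingHom ℚ)).toAffine⁄(AlgebraicClosure ℚ)).Point) = v
  rcases hv : (v : ((W.map (Int.castRingHom ℚ)).toAffine⁄(AlgebraicClosure ℚ)).Point)
    with _ | ⟨x, y, hxy⟩
  · rfl
  · rw [hv] at h
    have hx : σ x = x := h x (by simp [coords])
    have hy : σ y = y := h y (by simp [coords])
    rw [Point.algEquiv_smul_def]
    simp only [Point.map_some]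
    congr 1

theorem torsW_finiteLevel (W : WeierstrassCurve ℤ) (hΔ : W.Δ ≠ 0) (p : ℕ) [Fact p.Prime] :
    GaloisFactorsThroughFiniteLevel (torsRho W p) := by
  classical
  have hfr := finrank_torsW W hΔ p
  have : Module.Finite (ZMod p) (TorsW W p) := Module.finite_of_finrank_eq_succ hfr
  have : Finite (TorsW W p) := Module.finite_of_finite (ZMod p)
  let _ : Fintype (TorsW W p) := Fintype.ofFinite _
  let S : Finset (AlgebraicClosure ℚ) := Finset.univ.biUnion fun v : TorsW W p =>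
    coords (v : ((W.map (Int.castRingHom ℚ)).toAffine⁄(AlgebraicClosure ℚ)).Point)
  have halg : Algebra.IsAlgebraic ℚ (AlgebraicClosure ℚ) := AlgebraicClosure.isAlgebraic ℚ
  refine ⟨IntermediateField.adjoin ℚ (S : Set (AlgebraicClosure ℚ)),
    IntermediateField.finiteDimensional_adjoin
      (fun x _ => (Algebra.IsAlgebraic.isAlgebraic x).isIntegral), fun σ hσ => ?_⟩
  refine LinearMap.ext fun v => ?_
  rw [Point.galoisRepModuleEnd_apply, Module.End.one_apply]
  refine smul_eq_of_fix_coords W p σ v fun x hx => hσ x ?_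
  exact IntermediateField.subset_adjoin ℚ _
    (Finset.mem_coe.mpr (Finset.mem_biUnion.mpr ⟨v, Finset.mem_univ _, hx⟩))

/-- `W[p]` as a residual representation. -/
noncomputable def torsRes (W : WeierstrassCurve ℤ) (hΔ : W.Δ ≠ 0) (p : ℕ) [Fact p.Prime] :
    ResidualGaloisRep (ZMod p) :=
  { V := TorsW W p
    finrank_eq := finrank_torsW W hΔ p
    ρ := torsRho W p
    factorsThroughFiniteLevel := torsW_finiteLevel W hΔ p }

/-- `W[p]` as an adic representation over the field `ZMod p`. -/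
noncomputable def torsAdic (W : WeierstrassCurve ℤ) (hΔ : W.Δ ≠ 0) (p : ℕ) [Fact p.Prime] :
    GaloisRepAdic (ZMod p) :=
  GaloisRepAdic.ofResidualGaloisRep (torsRes W hΔ p)

/-- The set of primes which are bad for `W` or equal to `p`. -/
noncomputable def badSet (W : WeierstrassCurve ℤ) (p : ℕ) : Finset ℕ :=
  insert p W.Δ.natAbs.primeFactors

theorem not_mem_badSet {W : WeierstrassCurve ℤ} (hΔ : W.Δ ≠ 0) {p ℓ : ℕ} (hℓ : ℓ.Prime)
    (h : ℓ ∉ badSet W p) : ℓ ≠ p ∧ W.IsGoodPrimeFor ℓ := by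
  refine ⟨fun e => h (e ▸ Finset.mem_insert_self _ _), fun hdvd => h ?_⟩
  refine Finset.mem_insert_of_mem ?_
  rw [Nat.mem_primeFactors]
  exact ⟨hℓ, Int.natCast_dvd.mp hdvd, Int.natAbs_ne_zero.mpr hΔ⟩

theorem torsAdic_charpoly (W : WeierstrassCurve ℤ) (hΔ : W.Δ ≠ 0) (p : ℕ) [Fact p.Prime]
    (ℓ : ℕ) (hℓ : ℓ.Prime) (hℓp : ℓ ≠ p) (hgood : W.IsGoodPrimeFor ℓ)
    (P : ValuationSubring (AlgebraicClosure ℚ)) (hP : P.LiesOverPrime ℓ) (σ : GQ)
    (hσ : P.IsFrobeniusAt σ ℓ) :
    LinearMap.charpoly ((torsAdic W hΔ p).ρ σ) =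
      X ^ 2 - C (((W.apOfModel ℓ : ℤ) : ZMod p)) * X + C ((ℓ : ZMod p)) := by
  obtain ⟨-, htr, hdet⟩ :=
    Fermat.Agent.Lib.EllFinite.stmt_main W p ℓ hℓ (Ne.symm hℓp) hgood P hP σ hσ
  rw [Fermat.Agent.R.H91.charpoly_eq_of_finrank_two (torsAdic W hΔ p).finrank_eq]
  have e1 : LinearMap.trace (ZMod p) (torsAdic W hΔ p).V ((torsAdic W hΔ p).ρ σ)
      = ((W.apOfModel ℓ : ℤ) : ZMod p) := htr
  have e2 : LinearMap.det ((torsAdic W hΔ p).ρ σ) = (ℓ : ZMod p) := hdet
  rw [e1, e2]

theorem torsAdic_hasIntFrob (W : WeierstrassCurve ℤ) (hΔ : W.Δ ≠ 0) (p : ℕ) [Fact p.Prime] :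
    HasIntFrob (torsAdic W hΔ p) (fun ℓ => W.apOfModel ℓ) (badSet W p) := by
  intro ℓ hℓ hℓS P hP σ hσ
  obtain ⟨hℓp, hgood⟩ := not_mem_badSet hΔ hℓ hℓS
  exact torsAdic_charpoly W hΔ p ℓ hℓ hℓp hgood P hP σ hσ

/-- Comparison of an adic representation with the Frobenius characteristic polynomials of `W`
with `W[p]`: trace and determinant of every element are congruent to integers which give the
trace and determinant on `W[p]`. -/
theorem exists_int_tors {O : Type} [CommRing O] [IsLocalRing O] (W : WeierstrassCurve ℤ)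
    (hΔ : W.Δ ≠ 0) (p : ℕ) [Fact p.Prime] (ρ : GaloisRepAdic O) (S : Finset ℕ)
    (hρ : HasFrobOf W ρ S) (g : GQ) :
    ∃ t d : ℤ,
      LinearMap.trace O ρ.V (ρ.ρ g) - (t : O) ∈ maximalIdeal O ∧
      LinearMap.det (ρ.ρ g) - (d : O) ∈ maximalIdeal O ∧
      LinearMap.trace (ZMod p) (TorsW W p) (torsRho W p g) = (t : ZMod p) ∧
      LinearMap.det (torsRho W p g) = (d : ZMod p) := by
  obtain ⟨t, d, h1, h2, h3, h4⟩ := exists_int_approx ρ (torsAdic W hΔ p)
    (fun ℓ => W.apOfModel ℓ) S (badSet W p) hρ (torsAdic_hasIntFrob W hΔ p) 1 1 g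
  rw [pow_one] at h1 h2
  rw [pow_one, IsLocalRing.maximalIdeal_eq_bot, Ideal.mem_bot, sub_eq_zero] at h3 h4
  exact ⟨t, d, h1, h2, h3, h4⟩

/-- Integers congruent modulo `p` are congruent modulo the maximal ideal of a local ring of
residue characteristic `p`. -/
theorem intCast_sub_mem_of_zmod_eq {O : Type*} [CommRing O] [IsLocalRing O] {p : ℕ}
    (hpO : (p : O) ∈ maximalIdeal O) {s t : ℤ} (h : (s : ZMod p) = (t : ZMod p)) :
    (s : O) - (t : O) ∈ maximalIdeal O := by
  have hdvd : (p : ℤ) ∣ s - t := by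
    rw [← ZMod.intCast_zmod_eq_zero_iff_dvd]
    push_cast
    rw [h, sub_self]
  obtain ⟨w, hw⟩ := hdvd
  have : (s : O) - (t : O) = (p : O) * (w : O) := by
    have := congrArg (Int.cast : ℤ → O) hw
    push_cast at this
    exact this
  rw [this]
  exact Ideal.mul_mem_right _ _ hpO

/-- **P3.** -/
theorem stmt_ResFrob : Stmt_ResFrob := by
  intro lam _ W hΔ O _ _ _ _ _ _ hlamO ρ S hρ ℓ hℓ hℓlam hgood P hP σ hσ
  obtain ⟨t, d, h1, -, h3, -⟩ := exists_int_tors W hΔ lam ρ S hρ σ
  obtain ⟨-, htr, -⟩ :=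
    Fermat.Agent.Lib.EllFinite.stmt_main W lam ℓ hℓ (Ne.symm hℓlam) hgood P hP σ hσ
  have e : (t : ZMod lam) = ((W.apOfModel ℓ : ℤ) : ZMod lam) := by
    rw [← h3]
    exact htr
  have h4 := intCast_sub_mem_of_zmod_eq hlamO e
  have := Ideal.add_mem _ h1 h4
  have e2 : LinearMap.trace O ρ.V (ρ.ρ σ) - (t : O) + ((t : O) - ((W.apOfModel ℓ : ℤ) : O))
      = LinearMap.trace O ρ.V (ρ.ρ σ) - ((W.apOfModel ℓ : ℤ) : O) := by ring
  rwa [e2] at this

end Fermat.Agent.S58.H99

end
-- ==== END Fermat.Agent.S58.H99_Tors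

-- ==== BEGIN Fermat.Agent.S59.H61_Stab
section

/-!
# S59, package `Stmt_Stab` (helper61): stabilisation of a normalised eigenform

For a normalised eigenform `f` of level `N` and a prime `q ∤ N` let `α, β` be the roots of
`X² - a_q X + q`.  Then `g = α⁻¹ (U_q f - β f)` (`= f - β f(q z)`) is a normalised eigenform of
level `N q` with `a_n(g) = a_n(f) - β a_{n/q}(f)`; in particular `a_ℓ(g) = a_ℓ(f)` for primes
`ℓ ≠ q`.
-/

set_option autoImplicit false

namespace Fermat.Agent.S59.H61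

open UpperHalfPlane ModularFormClass CongruenceSubgroup
open scoped MatrixGroups

/-- Restriction of a cusp form to a smaller group. -/
noncomputable def restrictCusp {Γ Γ' : Subgroup (GL (Fin 2) ℝ)} {k : ℤ} (h : Γ' ≤ Γ)
    (f : CuspForm Γ k) : CuspForm Γ' k where
  toFun := f
  slash_action_eq' γ hγ := f.slash_action_eq' γ (h hγ)
  holo' := f.holo'
  zero_at_cusps' hc := f.zero_at_cusps' (hc.mono h)

@[simp] theorem coe_restrictCusp {Γ Γ' : Subgroup (GL (Fin 2) ℝ)} {k : ℤ} (h : Γ' ≤ Γ)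
    (f : CuspForm Γ k) : ⇑(restrictCusp h f) = ⇑f := rfl

theorem Gamma0_mul_le (N q : ℕ) : Gamma0 (N * q) ≤ Gamma0 N := by
  intro A hA
  rw [Gamma0_mem] at hA ⊢
  rw [ZMod.intCast_zmod_eq_zero_iff_dvd] at hA ⊢
  exact dvd_trans (by push_cast; exact dvd_mul_right _ _) hA

theorem Gamma0_mul_le_GL (N q : ℕ) :
    ((Gamma0 (N * q) : Subgroup SL(2, ℤ)) : Subgroup (GL (Fin 2) ℝ)) ≤
      ((Gamma0 N : Subgroup SL(2, ℤ)) : Subgroup (GL (Fin 2) ℝ)) :=
  Subgroup.map_mono (Gamma0_mul_le N q)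

theorem hper (N : ℕ) :
    (1 : ℝ) ∈ (Subgroup.map (Matrix.SpecialLinearGroup.mapGL ℝ) (Gamma0 N)).strictPeriods :=
  CongruenceSubgroup.one_mem_strictPeriods_Gamma0 N

theorem qCoeff_cusp_sub {N : ℕ} {k : ℤ} (f g : CuspForm (Gamma0 N) k) (n : ℕ) :
    qCoeff ⇑(f - g) n = qCoeff ⇑f n - qCoeff ⇑g n := by
  simp only [qCoeff, FunLike.coe_sub]
  rw [ModularForm.qExpansion_sub one_pos (hper N) f g, map_sub]

theorem qCoeff_cusp_smul {N : ℕ} {k : ℤ} (c : ℂ) (f : CuspForm (Gamma0 N) k) (n : ℕ) :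
    qCoeff ⇑(c • f) n = c * qCoeff ⇑f n := by
  have h1 : ⇑(c • f) = c • ⇑f := by
    ext z
    simp
  simp only [qCoeff, h1]
  rw [ModularForm.qExpansion_smul one_pos (hper N) c f]
  simp

/-- The roots of `X² - a X + q`. -/
theorem exists_roots (a : ℂ) (q : ℕ) (hq : q ≠ 0) :
    ∃ α β : ℂ, α + β = a ∧ α * β = q ∧ α ≠ 0 := by
  obtain ⟨s, hs⟩ := IsAlgClosed.exists_pow_nat_eq (a ^ 2 - 4 * (q : ℂ)) (n := 2) (by norm_num)
  refine ⟨(a + s) / 2, (a - s) / 2, by ring, ?_, ?_⟩
  · have : (a + s) / 2 * ((a - s) / 2) = (a ^ 2 - s ^ 2) / 4 := by ring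
    rw [this, hs]; ring
  · intro h
    have h2 : (a + s) / 2 * ((a - s) / 2) = (q : ℂ) := by
      have : (a + s) / 2 * ((a - s) / 2) = (a ^ 2 - s ^ 2) / 4 := by ring
      rw [this, hs]; ring
    rw [h, zero_mul] at h2
    exact hq (by exact_mod_cast h2.symm)

/-- The stabilised form `α⁻¹ (U_q f - β f)` of level `N q`. -/
noncomputable def stab (N q : ℕ) [NeZero (N * q)] (f : CuspForm (Gamma0 N) 2) (α β : ℂ) :
    CuspForm (Gamma0 (N * q)) 2 :=
  α⁻¹ • (CuspForm.heckeULin (N := N * q) (p := q) 2 (dvd_mul_left q N)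
      (restrictCusp (Gamma0_mul_le_GL N q) f)
    - β • restrictCusp (Gamma0_mul_le_GL N q) f)

theorem qCoeff_stab (N q : ℕ) [NeZero (N * q)] (hq : q ≠ 0) (f : CuspForm (Gamma0 N) 2)
    (α β : ℂ) (n : ℕ) :
    qCoeff ⇑(stab N q f α β) n = α⁻¹ * (qCoeff ⇑f (n * q) - β * qCoeff ⇑f n) := by
  rw [stab, qCoeff_cusp_smul, qCoeff_cusp_sub, qCoeff_cusp_smul, coe_restrictCusp]
  congr 2
  rw [CuspForm.coe_heckeULin_apply]
  have := ModularFormClass.qCoeff_heckeU (k := 2)
    (restrictCusp (Gamma0_mul_le_GL N q) f) (hper (N * q)) hq n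
  rw [this, ModularForm.coeffHeckeU_apply, coe_restrictCusp]

/-! ### Consequences of the eigenform relations -/

section Relations

variable {N : ℕ} {f : CuspForm (Gamma0 N) 2}

theorem coeff_pow_succ_succ (hf : f.IsNormalizedEigenform) {q : ℕ} (hq : q.Prime)
    (hqN : ¬ q ∣ N) (r : ℕ) :
    qCoeff ⇑f (q ^ (r + 2)) = qCoeff ⇑f q * qCoeff ⇑f (q ^ (r + 1)) - q * qCoeff ⇑f (q ^ r) :=
  hf.qCoeff_prime_pow_of_not_dvd q r hq hqN

/-- `a_{n q} = a_n a_q` for `q ∤ n`. -/
theorem coeff_mul_prime_of_not_dvd (hf : f.IsNormalizedEigenform) {q : ℕ} (hq : q.Prime)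
    {n : ℕ} (hn : ¬ q ∣ n) : qCoeff ⇑f (n * q) = qCoeff ⇑f n * qCoeff ⇑f q :=
  hf.qCoeff_mul_of_coprime n q ((Nat.Prime.coprime_iff_not_dvd hq).2 hn).symm

/-- The Hecke relation at `q ∤ N` for all `n ≠ 0`. -/
theorem hecke_rel (hf : f.IsNormalizedEigenform) {q : ℕ} (hq : q.Prime) (hqN : ¬ q ∣ N)
    {n : ℕ} (hn : n ≠ 0) :
    qCoeff ⇑f (n * q * q) = qCoeff ⇑f q * qCoeff ⇑f (n * q) - q * qCoeff ⇑f n := by
  obtain ⟨r, m, hm, rfl⟩ := Nat.exists_eq_pow_mul_and_not_dvd hn q hq.ne_one
  have hcop : ∀ j : ℕ, (q ^ j).Coprime m := fun j =>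
    Nat.Coprime.pow_left j ((Nat.Prime.coprime_iff_not_dvd hq).2 hm)
  have e2 : q ^ r * m * q * q = q ^ (r + 2) * m := by ring
  have e1 : q ^ r * m * q = q ^ (r + 1) * m := by ring
  rw [e2, e1, hf.qCoeff_mul_of_coprime _ _ (hcop (r + 2)),
    hf.qCoeff_mul_of_coprime _ _ (hcop (r + 1)), hf.qCoeff_mul_of_coprime _ _ (hcop r),
    coeff_pow_succ_succ hf hq hqN r]
  ring

end Relations

/-! ### Coefficients of the stabilised form -/

section Coeffs

variable {N q : ℕ} [NeZero (N * q)] {f : CuspForm (Gamma0 N) 2} {α β : ℂ}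

theorem stab_coeff_of_not_dvd (hf : f.IsNormalizedEigenform) (hq : q.Prime)
    (hsum : α + β = qCoeff ⇑f q) (hα : α ≠ 0) {n : ℕ} (hn : ¬ q ∣ n) :
    qCoeff ⇑(stab N q f α β) n = qCoeff ⇑f n := by
  rw [qCoeff_stab N q hq.ne_zero, coeff_mul_prime_of_not_dvd hf hq hn, ← hsum]
  field_simp
  ring

theorem stab_coeff_mul (hf : f.IsNormalizedEigenform) (hq : q.Prime) (hqN : ¬ q ∣ N)
    (hsum : α + β = qCoeff ⇑f q) (hprod : α * β = q) (hα : α ≠ 0) {n : ℕ} (hn : n ≠ 0) :
    qCoeff ⇑(stab N q f α β) (n * q) = qCoeff ⇑f (n * q) - β * qCoeff ⇑f n := by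
  rw [qCoeff_stab N q hq.ne_zero, hecke_rel hf hq hqN hn, ← hsum, ← hprod]
  field_simp
  ring

theorem stab_isNormalizedEigenform (hf : f.IsNormalizedEigenform) (hq : q.Prime) (hqN : ¬ q ∣ N)
    (hsum : α + β = qCoeff ⇑f q) (hprod : α * β = q) (hα : α ≠ 0) :
    (stab N q f α β).IsNormalizedEigenform := by
  have hnd : ∀ {n : ℕ}, ¬ q ∣ n → qCoeff ⇑(stab N q f α β) n = qCoeff ⇑f n :=
    fun hn => stab_coeff_of_not_dvd hf hq hsum hα hn
  have hmul : ∀ {n : ℕ}, n ≠ 0 →
      qCoeff ⇑(stab N q f α β) (n * q) = qCoeff ⇑f (n * q) - β * qCoeff ⇑f n :=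
    fun hn => stab_coeff_mul hf hq hqN hsum hprod hα hn
  have hq1 : ¬ q ∣ 1 := hq.one_lt.ne' ∘ Nat.dvd_one.1
  have hb1 : qCoeff ⇑(stab N q f α β) 1 = 1 := by rw [hnd hq1, hf.qCoeff_one]
  have hbq : qCoeff ⇑(stab N q f α β) q = α := by
    have := hmul (n := 1) one_ne_zero
    rw [one_mul, hf.qCoeff_one, mul_one, ← hsum] at this
    rw [this]; ring
  have hpow : ∀ {p : ℕ}, p.Prime → p ≠ q → ∀ j : ℕ, ¬ q ∣ p ^ j := by
    intro p hp hpq j h
    exact hpq ((Nat.prime_dvd_prime_iff_eq hq hp).1 (hq.dvd_of_dvd_pow h)).symm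
  -- the case `q ∣ m`, `q ∤ n` of multiplicativity
  have key : ∀ m n : ℕ, m ≠ 0 → n ≠ 0 → m.Coprime n → q ∣ m →
      qCoeff ⇑(stab N q f α β) (m * n) =
        qCoeff ⇑(stab N q f α β) m * qCoeff ⇑(stab N q f α β) n := by
    intro m n hm hn hmn hqm
    obtain ⟨m', rfl⟩ := hqm
    have hm' : m' ≠ 0 := fun h => hm (by rw [h, mul_zero])
    have hqn : ¬ q ∣ n :=
      (Nat.Prime.coprime_iff_not_dvd hq).1 (Nat.Coprime.coprime_dvd_left (dvd_mul_right q m') hmn)
    have hm'n : m'.Coprime n := Nat.Coprime.coprime_dvd_left (dvd_mul_left m' q) hmn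
    have e1 : q * m' * n = m' * n * q := by ring
    have e2 : q * m' = m' * q := mul_comm _ _
    have hmn' : (m' * q).Coprime n := by rwa [e2] at hmn
    rw [e1, e2, hmul (mul_ne_zero hm' hn), hmul hm', hnd hqn]
    have e3 : m' * n * q = m' * q * n := by ring
    rw [e3, hf.qCoeff_mul_of_coprime _ _ hmn', hf.qCoeff_mul_of_coprime _ _ hm'n]
    ring
  refine ⟨hb1, ?_, ?_, ?_⟩
  · intro m n hmn
    rcases eq_or_ne m 0 with rfl | hm
    · have : n = 1 := by simpa using hmn
      subst this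
      rw [hb1, mul_one, mul_one]
    rcases eq_or_ne n 0 with rfl | hn
    · have : m = 1 := by simpa using hmn
      subst this
      rw [hb1, one_mul, one_mul]
    by_cases hqm : q ∣ m
    · exact key m n hm hn hmn hqm
    by_cases hqn : q ∣ n
    · rw [mul_comm m n, key n m hn hm hmn.symm hqn, mul_comm]
    · have hqmn : ¬ q ∣ m * n := fun h => (hq.dvd_mul.1 h).elim hqm hqn
      rw [hnd hqmn, hnd hqm, hnd hqn, hf.qCoeff_mul_of_coprime m n hmn]
  · intro p r hp hpNq
    have hpq : p ≠ q := fun h => hpNq (h ▸ dvd_mul_left p N)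
    have hpN : ¬ p ∣ N := fun h => hpNq (dvd_mul_of_dvd_left h q)
    rw [hnd (hpow hp hpq (r + 2)), hnd (hpow hp hpq (r + 1)), hnd (hpow hp hpq r),
      hnd (fun h => hpow hp hpq 1 (by rwa [pow_one])),
      hf.qCoeff_prime_pow_of_not_dvd p r hp hpN]
  · intro p r hp hpNq
    by_cases hpq : p = q
    · subst hpq
      have h2 : qCoeff ⇑(stab N p f α β) (p ^ (r + 2)) =
          qCoeff ⇑f (p ^ (r + 2)) - β * qCoeff ⇑f (p ^ (r + 1)) := by
        have := hmul (n := p ^ (r + 1)) (pow_ne_zero _ hq.ne_zero)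
        rwa [← pow_succ] at this
      have h1 : qCoeff ⇑(stab N p f α β) (p ^ (r + 1)) =
          qCoeff ⇑f (p ^ (r + 1)) - β * qCoeff ⇑f (p ^ r) := by
        have := hmul (n := p ^ r) (pow_ne_zero _ hq.ne_zero)
        rwa [← pow_succ] at this
      rw [h2, h1, hbq, coeff_pow_succ_succ hf hq hqN r, ← hsum, ← hprod]
      ring
    · have hpN : p ∣ N := by
        rcases (Nat.Prime.dvd_mul hp).1 hpNq with h | h
        · exact h
        · exact absurd ((Nat.prime_dvd_prime_iff_eq hp hq).1 h) hpq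
      rw [hnd (hpow hp hpq (r + 2)), hnd (hpow hp hpq (r + 1)),
        hnd (fun h => hpow hp hpq 1 (by rwa [pow_one])),
        hf.qCoeff_prime_pow_of_dvd p r hp hpN]

end Coeffs

/-- **Stmt_Stab**: stabilisation of a normalised eigenform at a prime not dividing the level. -/
theorem stmt_Stab : Stmt_Stab := by
  intro N q hq hqN f hf
  have hN : N ≠ 0 := fun h => hqN (h ▸ dvd_zero q)
  have : NeZero (N * q) := ⟨mul_ne_zero hN hq.ne_zero⟩
  obtain ⟨α, β, hsum, hprod, hα⟩ := exists_roots (qCoeff ⇑f q) q hq.ne_zero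
  refine ⟨stab N q f α β, stab_isNormalizedEigenform hf hq hqN hsum hprod hα, ?_⟩
  intro ℓ hℓ hℓq
  exact stab_coeff_of_not_dvd hf hq hsum hα
    (fun h => hℓq ((Nat.prime_dvd_prime_iff_eq hq hℓ).1 h).symm)

end Fermat.Agent.S59.H61

end
-- ==== END Fermat.Agent.S59.H61_Stab

-- ==== BEGIN Fermat.Agent.Tate.Bridge
section

set_option autoImplicit false

open WeierstrassCurve WeierstrassCurve.Affine Polynomial

namespace Fermat.Agent.Tate

variable {W : WeierstrassCurve ℤ} {p : ℕ} [Fact p.Prime] (D : TateData W p)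

namespace TateData

/-- `lev k` kills `p^k V`. -/
theorem lev_pow_smul (k : ℕ) (w : D.ρ.V) : D.lev k (((p : ℤ_[p]) ^ k) • w) = 0 := by
  have h : ((p : ℤ_[p]) ^ k) • w = (p ^ k) • w := by
    rw [← Nat.cast_pow, Nat.cast_smul_eq_nsmul]
  rw [h, map_nsmul, D.lev_tors]

/-- `lev k v = 0 ↔ v ∈ p^k V`. -/
theorem lev_eq_zero_iff (k : ℕ) (v : D.ρ.V) :
    D.lev k v = 0 ↔ ∃ w, v = ((p : ℤ_[p]) ^ k) • w := by
  constructor
  · exact D.lev_ker k v
  · rintro ⟨w, rfl⟩
    exact D.lev_pow_smul k w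

/-- An element of `V` which vanishes at all levels is zero. -/
theorem eq_zero_of_lev (v : D.ρ.V) (h : ∀ k, D.lev k v = 0) : v = 0 := by
  have hmem : v ∈ (⨅ i : ℕ, (IsLocalRing.maximalIdeal ℤ_[p]) ^ i • (⊤ : Submodule ℤ_[p] D.ρ.V)) := by
    rw [Submodule.mem_iInf]
    intro k
    obtain ⟨w, rfl⟩ := D.lev_ker k v (h k)
    apply Submodule.smul_mem_smul _ Submodule.mem_top
    apply Ideal.pow_mem_pow
    rw [PadicInt.maximalIdeal_eq_span_p]
    exact Ideal.subset_span rfl
  rw [Ideal.iInf_pow_smul_eq_bot_of_isLocalRing _ (Ideal.IsMaximal.ne_top inferInstance)] at hmem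
  exact (Submodule.mem_bot _).mp hmem

/-- Two elements of `V` with the same image at all levels are equal. -/
theorem eq_of_lev (v w : D.ρ.V) (h : ∀ k, D.lev k v = D.lev k w) : v = w := by
  rw [← sub_eq_zero]
  apply D.eq_zero_of_lev
  intro k
  rw [map_sub, h k, sub_self]

/-- Endomorphisms of `V` agreeing at all levels are equal. -/
theorem end_ext (f g : Module.End ℤ_[p] D.ρ.V) (h : ∀ k v, D.lev k (f v) = D.lev k (g v)) :
    f = g :=
  LinearMap.ext fun v => D.eq_of_lev _ _ fun k => h k v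

/-- `lev k` is semilinear along `ℤ_[p] → ℤ/p^k`. -/
theorem lev_smul (k : ℕ) (z : ℤ_[p]) (v : D.ρ.V) :
    D.lev k (z • v) = (PadicInt.toZModPow k z).val • D.lev k v := by
  have hz : z - ((PadicInt.toZModPow k z).val : ℤ_[p]) ∈ Ideal.span {((p : ℤ_[p]) ^ k)} := by
    rw [← PadicInt.ker_toZModPow, RingHom.mem_ker, map_sub, map_natCast, ZMod.natCast_val,
      ZMod.cast_id', id, sub_self]
  obtain ⟨u, hu⟩ := Ideal.mem_span_singleton'.mp hz
  have hz' : z = ((PadicInt.toZModPow k z).val : ℤ_[p]) + u * (p : ℤ_[p]) ^ k := by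
    rw [hu]; ring
  conv_lhs => rw [hz']
  rw [add_smul, map_add, mul_comm, mul_smul, D.lev_pow_smul, add_zero, Nat.cast_smul_eq_nsmul,
    map_nsmul]

/-- The Galois action at level `k`. -/
theorem lev_rho (k : ℕ) (σ : GQ) (v : D.ρ.V) : D.lev k (D.ρ.ρ σ v) = σ • D.lev k v :=
  D.lev_equiv k σ v

/-- Unramified from the torsion levels. -/
theorem rho_eq_one_of_tors (σ : GQ)
    (h : ∀ (k : ℕ) (x : EQbar W), (p ^ k) • x = 0 → σ • x = x) : D.ρ.ρ σ = 1 := by
  apply D.end_ext
  intro k v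
  rw [D.lev_equiv, Module.End.one_apply]
  exact h k _ (D.lev_tors k v)

end TateData

end Fermat.Agent.Tate

end
-- ==== END Fermat.Agent.Tate.Bridge

-- ==== BEGIN Fermat.Agent.Tate.H46_T1
section

set_option autoImplicit false

namespace Fermat.Agent.Tate.H46

open WeierstrassCurve WeierstrassCurve.Affine

/-- the coordinates of a point -/
noncomputable def coordsF {W : WeierstrassCurve ℤ} : EQbar W → Finset (AlgebraicClosure ℚ)
  | .zero => ∅
  | .some x y _ => {x, y}

lemma smul_eq_self_of_fix {W : WeierstrassCurve ℤ} (Q : EQbar W) (σ : GQ)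
    (h : ∀ x ∈ coordsF Q, σ x = x) : σ • Q = Q := by
  rcases Q with _ | ⟨x, y, hxy⟩
  · rfl
  · have hx : σ x = x := h x (by simp [coordsF])
    have hy : σ y = y := h y (by simp [coordsF])
    rw [Point.algEquiv_smul_def, Point.map_some]
    simp only [Point.some.injEq]
    exact ⟨hx, hy⟩

lemma exists_field_fixing {W : WeierstrassCurve ℤ} {d : ℕ} (Q : Fin d → EQbar W) :
    ∃ L : IntermediateField ℚ (AlgebraicClosure ℚ), FiniteDimensional ℚ L ∧
      ∀ σ : GQ, (∀ x ∈ L, σ x = x) → ∀ i, σ • Q i = Q i := by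
  let S : Finset (AlgebraicClosure ℚ) := Finset.univ.biUnion (fun i => coordsF (Q i))
  refine ⟨IntermediateField.adjoin ℚ (S : Set (AlgebraicClosure ℚ)), ?_, ?_⟩
  · apply IntermediateField.finiteDimensional_adjoin
    intro x _
    exact ((AlgebraicClosure.isAlgebraic ℚ).isAlgebraic x).isIntegral
  · intro σ hσ i
    apply smul_eq_self_of_fix
    intro x hx
    apply hσ
    apply IntermediateField.subset_adjoin
    simp only [S, Finset.coe_biUnion, Finset.coe_univ, Set.mem_univ, Set.iUnion_true,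
      Set.mem_iUnion, Finset.mem_coe]
    exact ⟨i, hx⟩

lemma torsCard_EQbar (W : WeierstrassCurve ℤ) (hΔ : W.Δ ≠ 0) (p : ℕ) [Fact p.Prime] :
    TorsCard (EQbar W) p 2 := by
  intro k
  have hΔ' : ((W.map (Int.castRingHom ℚ)).toAffine⁄(AlgebraicClosure ℚ)).Δ ≠ 0 := by
    show ((W.map (Int.castRingHom ℚ)).map (algebraMap ℚ (AlgebraicClosure ℚ))).Δ ≠ 0
    rw [WeierstrassCurve.map_Δ, WeierstrassCurve.map_Δ]
    simpa using hΔ
  have hp : ((p ^ k : ℕ) : AlgebraicClosure ℚ) ≠ 0 := by
    exact_mod_cast pow_ne_zero k (Fact.out : p.Prime).ne_zero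
  rw [Fermat.Agent.Lib.TorsionGen.card_nsmul_eq_zero hΔ' hp, ← pow_mul, mul_comm]

/-- **T1**: the Tate module exists. -/
theorem stmt_T1 : Stmt_T1 := by
  intro W hΔ p _
  have hcard := torsCard_EQbar W hΔ p
  obtain ⟨S⟩ := nonempty_sys hcard
  exact ⟨{
    ρ := {
      V := Fin 2 → ℤ_[p]
      finrank_eq := by simp
      ρ := S.rho hcard
      isAdicContinuous := by
        intro n
        obtain ⟨L, hL, hfix⟩ := exists_field_fixing (S.P n)
        refine ⟨L, hL, fun σ hσ v => ?_⟩
        obtain ⟨w, hw⟩ := S.rho_sub_mem hcard n σ (hfix σ hσ) v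
        rw [hw]
        apply Submodule.smul_mem_smul _ Submodule.mem_top
        apply Ideal.pow_mem_pow
        rw [PadicInt.maximalIdeal_eq_span_p]
        exact Ideal.mem_span_singleton_self _ }
    lev := S.lev
    lev_tors := S.lev_tors
    lev_surj := S.lev_surj hcard
    lev_ker := S.lev_ker
    lev_equiv := fun k σ v => S.lev_rho hcard σ k v
    lev_succ := S.lev_succ }⟩

end Fermat.Agent.Tate.H46

end
-- ==== END Fermat.Agent.Tate.H46_T1
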