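-- GENERATED (merged mirror, NOTES/tools/trim/merge3_helper67.py): 6 modules of the originals, bodies verbatim.
import Fermat.Prelude.Def_GaloisRep_ComplexConjugation
import Mathlib.LinearAlgebra.Eigenspace.Zero
import Fermat.Agent.Zm.S58_L01_000
import Fermat.Agent.Zm.S44_L01_001
import Fermat.Agent.Zm.S44_L10_000
import Fermat.Agent.Tate.H7_TorsFrob
import Fermat.Agent.Zm.S35_L01_005
import Fermat.Agent.Zm.S35_L05_005
import Fermat.Agent.Zm.S35_L08_004
import Fermat.Agent.Zm.S35_L09_001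
import Fermat.Agent.Zm.S35_L02_001
import Fermat.Agent.S35
import Fermat.Agent.Zm.S36_L05_000

-- ==== BEGIN Fermat.Agent.S58.H99_Odd
section

/-!
# S58, package P2 (helper99): residual absolute irreducibility and oddness

* `det_tors_involution`: every involution `c ≠ 1` of `Gal(Q̄/ℚ)` has determinant `-1` on `W[p]`,
  `p` odd (Frobenius density, item 62, action of Frobenius elements and of involutions on the
  `p`-th roots of unity).
* `stmt_ResIrr : Stmt_ResIrr` (P2 of `NOTES/plan/S58.md`).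
-/

set_option autoImplicit false

open Polynomial IsLocalRing WeierstrassCurve WeierstrassCurve.Affine

namespace Fermat.Agent.S58.H99

open Fermat.Agent.S58

theorem complexConjugation_ne_one' : complexConjugation ≠ 1 := by
  intro h
  obtain ⟨i, hi⟩ := IsAlgClosed.exists_pow_nat_eq (-1 : AlgebraicClosure ℚ) (n := 2)
    (by norm_num)
  have h1 := complexEmbedding_complexConjugation i
  rw [h, AlgEquiv.one_apply] at h1
  set z := complexEmbedding i with hz
  have hz2 : z ^ 2 = -1 := by rw [hz, ← map_pow, hi, map_neg, map_one]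
  -- `z` is real, so `z ^ 2 ≥ 0`
  have hreal : z.im = 0 := by
    have := congrArg Complex.im h1
    rw [Complex.conj_im] at this
    linarith
  have h2 := congrArg Complex.re hz2
  rw [pow_two, Complex.mul_re, hreal] at h2
  simp at h2
  nlinarith [mul_self_nonneg z.re]

/-- Every involution `c ≠ 1` has determinant `-1` on `W[p]`, `p` odd. -/
theorem det_tors_involution (W : WeierstrassCurve ℤ) (hΔ : W.Δ ≠ 0) (p : ℕ) [hpF : Fact p.Prime]
    (hp2 : p ≠ 2) (c : GQ) (hc : c * c = 1) (hc1 : c ≠ 1) :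
    LinearMap.det (torsRho W p c) = -1 := by
  classical
  have hp : p.Prime := hpF.out
  obtain ⟨ζ, hζ, hζ1⟩ := exists_root_ne_one hp
  obtain ⟨L₁, hL₁, h1⟩ := torsW_finiteLevel W hΔ p
  have hζint : IsIntegral ℚ ζ := IsIntegral.of_pow hp.pos (by rw [hζ]; exact isIntegral_one)
  have hL₂ : FiniteDimensional ℚ ↥(IntermediateField.adjoin ℚ {ζ}) :=
    IntermediateField.adjoin.finiteDimensional hζint
  have := hL₁
  have hL : FiniteDimensional ℚ ↥(L₁ ⊔ IntermediateField.adjoin ℚ {ζ}) :=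
    IntermediateField.finiteDimensional_sup L₁ _
  obtain ⟨ℓ, P, φ, j, hℓ, hℓS, hP, hφ, hj⟩ :=
    Fermat.Agent.Lib.FrobDensity.stmt_FD (badSet W p) (L₁ ⊔ IntermediateField.adjoin ℚ {ζ}) hL c
  obtain ⟨hℓp, hgood⟩ := not_mem_badSet hΔ hℓ hℓS
  -- `c` and `φ ^ j` act in the same way on `W[p]`
  have hτ : torsRho W p (c⁻¹ * φ ^ j) = 1 := by
    apply h1
    intro x hx
    rw [AlgEquiv.mul_apply, hj x ((le_sup_left : L₁ ≤ _) hx)]
    exact c.symm_apply_apply x
  have hcφ : torsRho W p c = torsRho W p (φ ^ j) := by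
    have : φ ^ j = c * (c⁻¹ * φ ^ j) := by rw [mul_inv_cancel_left]
    rw [this, map_mul, hτ, mul_one]
  obtain ⟨-, -, hdet⟩ :=
    Fermat.Agent.Lib.EllFinite.stmt_main W p ℓ hℓ (Ne.symm hℓp) hgood P hP φ hφ
  have hdetφ : LinearMap.det (torsRho W p φ) = (ℓ : ZMod p) := hdet
  rw [hcφ, map_pow, map_pow, hdetφ]
  -- the action on `ζ`
  have hζL : ζ ∈ L₁ ⊔ IntermediateField.adjoin ℚ {ζ} :=
    (le_sup_right : IntermediateField.adjoin ℚ {ζ} ≤ _)
      (IntermediateField.mem_adjoin_simple_self ℚ ζ)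
  have e1 : (φ ^ j) ζ = ζ ^ (ℓ ^ j) :=
    frobenius_pow_root P φ hℓ hp (Ne.symm hℓp) hP hφ ζ hζ j
  have e2 : ζ * c ζ = 1 := involution_mul_root c hc hc1 (hp.odd_of_ne_two hp2) ζ hζ
  rw [← hj ζ hζL, e1, ← pow_succ'] at e2
  have hord : orderOf ζ = p := orderOf_eq_prime hζ hζ1
  have hdvd : p ∣ ℓ ^ j + 1 := by
    rw [← hord]
    exact orderOf_dvd_of_pow_eq_one e2
  have h0 : ((ℓ ^ j + 1 : ℕ) : ZMod p) = 0 := (ZMod.natCast_eq_zero_iff _ _).mpr hdvd
  push_cast at h0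
  exact eq_neg_of_add_eq_zero_left h0

/-- `W[p]` is spanned by the image of Galois if it is irreducible and `p` is odd. -/
theorem span_torsRho (W : WeierstrassCurve ℤ) (hΔ : W.Δ ≠ 0) (p : ℕ) [hpF : Fact p.Prime]
    (hp2 : p ≠ 2) (hirr : W.ModRepIsIrreducible p) :
    Submodule.span (ZMod p) (Set.range (torsRho W p)) = ⊤ := by
  have hp : p.Prime := hpF.out
  have h2 : (2 : ZMod p) ≠ 0 := by
    intro h
    have h' : ((2 : ℕ) : ZMod p) = 0 := by exact_mod_cast h
    rw [ZMod.natCast_eq_zero_iff] at h'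
    exact hp2 ((Nat.prime_dvd_prime_iff_eq hp Nat.prime_two).mp h')
  refine Fermat.Agent.L.H19.stmt_ODD (ZMod p) h2 GQ (TorsW W p) (torsRho W p)
    (finrank_torsW W hΔ p) complexConjugation complexConjugation_mul_self
    (det_tors_involution W hΔ p hp2 complexConjugation complexConjugation_mul_self
      complexConjugation_ne_one') ?_
  intro N hN
  exact hirr.2 N (fun σ x hx => hN σ x hx)

/-- The residue field of a local ring with `p` in the maximal ideal has characteristic `p`. -/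
theorem charP_residueField {O : Type*} [CommRing O] [IsLocalRing O] {p : ℕ} (hp : p.Prime)
    (hpO : (p : O) ∈ maximalIdeal O) : CharP (ResidueField O) p := by
  refine (CharP.charP_iff_prime_eq_zero hp).mpr ?_
  have : residue O (p : O) = 0 := (residue_eq_zero_iff _).mpr hpO
  rwa [map_natCast] at this

/-- Traces and determinants of the residual representation in terms of `W[p]`. -/
theorem residual_trace_det {O : Type} [CommRing O] [IsLocalRing O] (W : WeierstrassCurve ℤ)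
    (hΔ : W.Δ ≠ 0) (p : ℕ) [hpF : Fact p.Prime] (hpO : (p : O) ∈ maximalIdeal O)
    (ρ : GaloisRepAdic O) (S : Finset ℕ) (hρ : HasFrobOf W ρ S) (g : GQ) :
    haveI := charP_residueField hpF.out hpO
    LinearMap.trace (ResidueField O) ρ.residual.V (ρ.residual.ρ g) =
        ZMod.castHom (dvd_refl p) (ResidueField O)
          (LinearMap.trace (ZMod p) (TorsW W p) (torsRho W p g)) ∧
      LinearMap.det (ρ.residual.ρ g) =
        ZMod.castHom (dvd_refl p) (ResidueField O) (LinearMap.det (torsRho W p g)) := by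
  have := charP_residueField hpF.out hpO
  obtain ⟨t, d, h1, h2, h3, h4⟩ := exists_int_tors W hΔ p ρ S hρ g
  have e1 : LinearMap.trace (ResidueField O) ρ.residual.V (ρ.residual.ρ g) =
      residue O (LinearMap.trace O ρ.V (ρ.ρ g)) :=
    LinearMap.trace_baseChange (ρ.ρ g) (ResidueField O)
  have e2 : LinearMap.det (ρ.residual.ρ g) = residue O (LinearMap.det (ρ.ρ g)) :=
    LinearMap.det_baseChange (ρ.ρ g)
  have r1 : residue O (LinearMap.trace O ρ.V (ρ.ρ g)) = residue O (t : O) := by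
    rw [← sub_eq_zero, ← map_sub]
    exact (residue_eq_zero_iff _).mpr h1
  have r2 : residue O (LinearMap.det (ρ.ρ g)) = residue O (d : O) := by
    rw [← sub_eq_zero, ← map_sub]
    exact (residue_eq_zero_iff _).mpr h2
  constructor
  · rw [e1, r1, h3, map_intCast, map_intCast]
  · rw [e2, r2, h4, map_intCast, map_intCast]

/-- **P2.** -/
theorem stmt_ResIrr : Stmt_ResIrr := by
  intro p hpF hp2 W hΔ hirr O _ _ _ _ _ _ hpO ρ S hρ
  classical
  have hp : p.Prime := hpF.out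
  have := charP_residueField hp hpO
  constructor
  · obtain ⟨g, hg⟩ := exists_gram_ne_zero_of_span (finrank_torsW W hΔ p) (torsRho W p)
      (span_torsRho W hΔ p hp2 hirr)
    apply isAbsolutelyIrreducible_of_gram ρ.residual g
    have hmap : (Matrix.of fun a b =>
          LinearMap.trace (ResidueField O) ρ.residual.V (ρ.residual.ρ (g a * g b))) =
        (Matrix.of fun a b =>
          LinearMap.trace (ZMod p) (TorsW W p) (torsRho W p (g a * g b))).map
          (ZMod.castHom (dvd_refl p) (ResidueField O)) := by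
      ext a b
      simp only [Matrix.of_apply, Matrix.map_apply]
      exact (residual_trace_det W hΔ p hpO ρ S hρ (g a * g b)).1
    rw [hmap, ← RingHom.mapMatrix_apply, ← RingHom.map_det]
    exact fun h0 => hg ((map_eq_zero _).mp h0)
  · intro c hc hc1
    rw [(residual_trace_det W hΔ p hpO ρ S hρ c).2, det_tors_involution W hΔ p hp2 c hc hc1,
      map_neg, map_one]

end Fermat.Agent.S58.H99

end
-- ==== END Fermat.Agent.S58.H99_Odd

-- ==== BEGIN Fermat.Agent.Tate.H5_T4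
section

set_option autoImplicit false

open WeierstrassCurve WeierstrassCurve.Affine Polynomial

namespace Fermat.Agent.Tate.H5

/-- An endomorphism `f` of a finite free module over a domain with `(f - 1)² = 0` has
characteristic polynomial `(X - 1) ^ rank`. -/
theorem charpoly_of_sub_one_sq {R M : Type*} [CommRing R] [IsDomain R] [AddCommGroup M]
    [Module R M] [Module.Finite R M] [Module.Free R M] (f : Module.End R M)
    (h : ∀ v, (f - 1) ((f - 1) v) = 0) :
    f.charpoly = (X - 1) ^ Module.finrank R M := by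
  have hnil : IsNilpotent (f - 1) := by
    refine ⟨2, ?_⟩
    ext v
    rw [pow_two, Module.End.mul_apply, h, LinearMap.zero_apply]
  have h1 := hnil.charpoly_eq_X_pow_finrank
  have h2 := LinearMap.charpoly_sub_smul f (1 : R)
  rw [one_smul, h1] at h2
  have h3 := congrArg (fun g : R[X] => g.comp (X - C 1)) h2
  simp only [comp_assoc, add_comp, X_comp, C_comp, sub_add_cancel, comp_X, pow_comp] at h3
  rw [← h3]
  simp

/-- **T4**: unipotent inertia at all `q ≠ p`. -/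
theorem stmt_T4 : Stmt_T4 := by
  intro W hΔ hss p _ D q hq hqp A hA σ hσ
  have hp : p.Prime := Fact.out
  have hnd : ∀ k : ℕ, ¬ q ∣ p ^ k := fun k h =>
    hqp ((Nat.prime_dvd_prime_iff_eq hq hp).mp (hq.dvd_of_dvd_pow h))
  have hN : ∀ v, (D.ρ.ρ σ - 1) ((D.ρ.ρ σ - 1) v) = 0 := by
    intro v
    apply D.eq_zero_of_lev
    intro k
    have hx : ((p ^ k : ℕ) : ℤ) • D.lev k v = 0 := by
      rw [natCast_zsmul]; exact D.lev_tors k v
    have key := Fermat.Agent.S52.H5.unip W q (p ^ k) A hΔ (hss q hq) hq (hnd k) hA σ hσ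
      (D.lev k v) hx
    simp only [LinearMap.sub_apply, Module.End.one_apply, map_sub, D.lev_equiv]
    rw [sub_eq_zero]
    rw [smul_sub] at key
    exact key
  have h := charpoly_of_sub_one_sq (D.ρ.ρ σ) hN
  rw [D.ρ.finrank_eq] at h
  exact h

end Fermat.Agent.Tate.H5

end
-- ==== END Fermat.Agent.Tate.H5_T4

-- ==== BEGIN Fermat.Agent.Tate.H7_Charpoly
section

set_option autoImplicit false

open WeierstrassCurve WeierstrassCurve.Affine Polynomial

namespace Fermat.Agent.Tate.H7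

section Algebra

variable {R : Type*} [CommRing R]

/-- Cayley–Hamilton for `2 × 2` matrices. -/
theorem cayley_two (M : Matrix (Fin 2) (Fin 2) R) :
    M * M - M.trace • M + M.det • (1 : Matrix (Fin 2) (Fin 2) R) = 0 := by
  ext i j
  fin_cases i <;> fin_cases j <;>
    simp [Matrix.mul_apply, Fin.sum_univ_two, Matrix.trace, Matrix.det_fin_two] <;> ring

/-- The arithmetic core of the scalar case. -/
theorem dvd_disc_of_scalar (q t l c : ℤ) (h1 : q ^ 2 ∣ c ^ 2 - t * c + l)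
    (h2 : q ^ 2 ∣ (c + q) ^ 2 - t * (c + q) + l) (hq : q ≠ 0) : q ^ 2 ∣ 4 * l - t ^ 2 := by
  have h3 : q ^ 2 ∣ q * (2 * c + q - t) := by
    have := dvd_sub h2 h1
    have e : (c + q) ^ 2 - t * (c + q) + l - (c ^ 2 - t * c + l) = q * (2 * c + q - t) := by ring
    rwa [e] at this
  have h4 : q ∣ 2 * c + q - t := by
    rw [pow_two] at h3
    exact (mul_dvd_mul_iff_left hq).mp h3
  have h5 : q ∣ 2 * c - t := by
    have e : 2 * c - t = (2 * c + q - t) - q := by ring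
    rw [e]
    exact dvd_sub h4 (dvd_refl q)
  have h6 : q ^ 2 ∣ (2 * c - t) ^ 2 := pow_dvd_pow_of_dvd h5 2
  have e : 4 * l - t ^ 2 = 4 * (c ^ 2 - t * c + l) - (2 * c - t) ^ 2 := by ring
  rw [e]
  exact dvd_sub (Dvd.dvd.mul_left h1 4) h6

end Algebra

/-- **T3c**. -/
theorem stmt_T3c : Stmt_T3c := by
  intro W hΔ p _ D ℓ hℓ hℓp hgood A hA σ hσ
  have hp : p.Prime := Fact.out
  obtain ⟨hrel, hsc, hhasse⟩ := tors_frob W ℓ hℓ hgood A hA σ hσ
  have hnd : ∀ k : ℕ, ¬ ℓ ∣ p ^ k := fun k h =>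
    hℓp ((Nat.prime_dvd_prime_iff_eq hℓ hp).mp (hℓ.dvd_of_dvd_pow h))
  set t : ℤ := W.apOfModel ℓ with ht
  set f : Module.End ℤ_[p] D.ρ.V := D.ρ.ρ σ with hf
  -- the quadratic relation on `V`
  have hquad : ∀ v : D.ρ.V, f (f v) - t • f v + (ℓ : ℤ) • v = 0 := by
    intro v
    apply D.eq_zero_of_lev
    intro k
    rw [map_add, map_sub, map_zsmul, map_zsmul, hf, D.lev_equiv, D.lev_equiv]
    exact hrel (p ^ k) (hnd k) _ (D.lev_tors k v)
  -- matrix
  let b : Module.Basis (Fin 2) ℤ_[p] D.ρ.V := Module.finBasisOfFinrankEq ℤ_[p] D.ρ.V D.ρ.finrank_eq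
  set M := LinearMap.toMatrix b b f with hM
  have hMquad : M * M - (t : ℤ_[p]) • M + ((ℓ : ℤ) : ℤ_[p]) • (1 : Matrix (Fin 2) (Fin 2) ℤ_[p]) = 0 := by
    have h1 : f * f - (t : ℤ_[p]) • f + ((ℓ : ℤ) : ℤ_[p]) • (1 : Module.End ℤ_[p] D.ρ.V) = 0 := by
      ext v
      simp only [LinearMap.sub_apply, LinearMap.add_apply, Module.End.mul_apply,
        LinearMap.smul_apply, Module.End.one_apply, LinearMap.zero_apply]
      rw [Int.cast_smul_eq_zsmul, Int.cast_smul_eq_zsmul]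
      exact hquad v
    have := congrArg (LinearMap.toMatrix b b) h1
    simpa [LinearMap.toMatrix_mul, hM, Module.End.mul_eq_comp, LinearMap.toMatrix_comp b b b,
      Module.End.one_eq_id, LinearMap.toMatrix_id] using this
  have hCH := cayley_two M
  have hlin : (M.trace - (t : ℤ_[p])) • M
      = (M.det - ((ℓ : ℤ) : ℤ_[p])) • (1 : Matrix (Fin 2) (Fin 2) ℤ_[p]) := by
    have e : (M.trace - (t : ℤ_[p])) • M - (M.det - ((ℓ : ℤ) : ℤ_[p])) • (1 : Matrix (Fin 2) (Fin 2) ℤ_[p])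
        = (M * M - (t : ℤ_[p]) • M + ((ℓ : ℤ) : ℤ_[p]) • (1 : Matrix (Fin 2) (Fin 2) ℤ_[p]))
          - (M * M - M.trace • M + M.det • (1 : Matrix (Fin 2) (Fin 2) ℤ_[p])) := by
      simp only [sub_smul]
      abel
    rw [← sub_eq_zero, e, hMquad, hCH, sub_zero]
  have htr : M.trace = (t : ℤ_[p]) := by
    by_contra hne
    have hne' : M.trace - (t : ℤ_[p]) ≠ 0 := sub_ne_zero.mpr hne
    have h01 : M 0 1 = 0 := by
      have := congrFun (congrFun hlin 0) 1
      simp only [Matrix.smul_apply, smul_eq_mul, Matrix.one_apply_ne (show (0 : Fin 2) ≠ 1 by decide),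
        mul_zero] at this
      exact (mul_eq_zero.mp this).resolve_left hne'
    have h10 : M 1 0 = 0 := by
      have := congrFun (congrFun hlin 1) 0
      simp only [Matrix.smul_apply, smul_eq_mul, Matrix.one_apply_ne (show (1 : Fin 2) ≠ 0 by decide),
        mul_zero] at this
      exact (mul_eq_zero.mp this).resolve_left hne'
    have h00 : M 0 0 = M 1 1 := by
      have e0 := congrFun (congrFun hlin 0) 0
      have e1 := congrFun (congrFun hlin 1) 1
      simp only [Matrix.smul_apply, smul_eq_mul, Matrix.one_apply_eq, mul_one] at e0 e1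
      have : (M.trace - (t : ℤ_[p])) * (M 0 0 - M 1 1) = 0 := by rw [mul_sub, e0, e1, sub_self]
      exact sub_eq_zero.mp ((mul_eq_zero.mp this).resolve_left hne')
    set c : ℤ_[p] := M 0 0 with hc
    have hMc : M = c • (1 : Matrix (Fin 2) (Fin 2) ℤ_[p]) := by
      ext i j
      fin_cases i <;> fin_cases j <;> simp [h01, h10, ← h00, hc]
    have hfc : ∀ v, f v = c • v := by
      intro v
      have h1 : f = c • (1 : Module.End ℤ_[p] D.ρ.V) := by
        apply (LinearMap.toMatrix b b).injective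
        rw [← hM, hMc]
        simp [Module.End.one_eq_id]
      rw [h1]; rfl
    -- the action at level `k`
    have hact : ∀ (k : ℕ) (x : EQbar W), (p ^ k) • x = 0 →
        σ • x = ((PadicInt.toZModPow k c).val : ℤ) • x := by
      intro k x hx
      obtain ⟨v, rfl⟩ := D.lev_surj k x hx
      rw [← D.lev_equiv, ← hf, hfc, D.lev_smul, natCast_zsmul]
    have hdvd : ∀ k : ℕ, ((p ^ k : ℕ) : ℤ) ^ 2 ∣ 4 * (ℓ : ℤ) - t ^ 2 := by
      intro k
      have h1 := hsc (p ^ k) (hnd k) ((PadicInt.toZModPow k c).val : ℤ) (hact k)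
      have h2 := hsc (p ^ k) (hnd k) (((PadicInt.toZModPow k c).val : ℤ) + ((p ^ k : ℕ) : ℤ))
        (fun x hx => by
          rw [hact k x hx, add_zsmul, natCast_zsmul x (p ^ k), hx, add_zero])
      exact dvd_disc_of_scalar _ _ _ _ h1 h2 (by exact_mod_cast (pow_pos hp.pos k).ne')
    -- contradiction for large `k`
    have hpos : 0 < 4 * (ℓ : ℤ) - t ^ 2 := by linarith
    obtain ⟨m, hm⟩ : ∃ m : ℕ, 4 * (ℓ : ℤ) - t ^ 2 = m :=
      ⟨(4 * (ℓ : ℤ) - t ^ 2).toNat, (Int.toNat_of_nonneg hpos.le).symm⟩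
    have h3 := hdvd m
    rw [hm] at h3 hpos
    have h4 : (p ^ m) ^ 2 ∣ m := by exact_mod_cast h3
    have h5 : (p ^ m) ^ 2 ≤ m := Nat.le_of_dvd (by exact_mod_cast hpos) h4
    have h6 : m < 2 ^ m := Nat.lt_two_pow_self
    have h7 : 2 ^ m ≤ p ^ m := Nat.pow_le_pow_left hp.two_le m
    have h8 : p ^ m ≤ (p ^ m) ^ 2 := by
      rw [pow_two]
      exact Nat.le_mul_of_pos_left _ (pow_pos hp.pos m)
    omega
  have hdet : M.det = ((ℓ : ℤ) : ℤ_[p]) := by
    have := congrFun (congrFun hlin 0) 0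
    simp only [Matrix.smul_apply, smul_eq_mul, Matrix.one_apply_eq, mul_one, htr, sub_self,
      zero_mul] at this
    exact (sub_eq_zero.mp this.symm)
  rw [← LinearMap.charpoly_toMatrix f b, ← hM, Matrix.charpoly_fin_two, htr, hdet]
  simp

end Fermat.Agent.Tate.H7

end
-- ==== END Fermat.Agent.Tate.H7_Charpoly

-- ==== BEGIN Fermat.Agent.S58.Wiring
section

/-!
# S58 (conductor-level matching): the wiring (helper99)

`wiring : Stmt_S35 → Stmt_S36 → Stmt_TateUnip → Stmt_S58` (`Stmt_S58` is the frozen type of S58).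

Plan and route: `NOTES/plan/S58.md`.
-/

set_option autoImplicit false

open Polynomial IsLocalRing CuspForm ModularFormClass

namespace Fermat.Agent.S58

open Fermat.Agent.S58.H99 Fermat.Agent.R.H99

theorem mem_maximalIdeal_of_map_mem {O' O'' : Type*} [CommRing O'] [IsLocalRing O']
    [CommRing O''] [IsLocalRing O''] (φ : O' →+* O'') [IsLocalHom φ] {x : O'}
    (h : φ x ∈ maximalIdeal O'') : x ∈ maximalIdeal O' := by
  rw [mem_maximalIdeal, mem_nonunits_iff] at h ⊢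
  exact fun hu => h (hu.map φ)

theorem map_mem_maximalIdeal {O' O'' : Type*} [CommRing O'] [IsLocalRing O']
    [CommRing O''] [IsLocalRing O''] (φ : O' →+* O'') [IsLocalHom φ] {x : O'}
    (h : x ∈ maximalIdeal O') : φ x ∈ maximalIdeal O'' := by
  rw [mem_maximalIdeal, mem_nonunits_iff] at h ⊢
  exact fun hu => h (isUnit_of_map_unit φ x hu)

section Apply

variable {N₀ : ℕ} [NeZero N₀] {f₀ : CuspForm (CongruenceSubgroup.Gamma0 N₀) 2}

/-- Consequences of S35 for a newform with the eigenvalues of `W` outside a finite set `T`. -/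
theorem s35_consequences (h35 : Stmt_S35) (hf₀ : f₀.IsNewform) (W : WeierstrassCurve ℤ)
    (hΔ : W.Δ ≠ 0) (T : Finset ℕ)
    (hfW : ∀ ℓ : ℕ, ℓ.Prime → ℓ ∉ T → ¬ ℓ ∣ N₀ → qCoeff f₀ ℓ = (W.apOfModel ℓ : ℂ))
    (lam : ℕ) [hlamF : Fact lam.Prime] :
    (∀ ℓ : ℕ, ℓ.Prime → ¬ ℓ ∣ N₀ → ℓ ≠ lam → W.IsGoodPrimeFor ℓ →
      ∃ (R : Subring ℂ) (P : Ideal R) (hx : qCoeff f₀ ℓ - (W.apOfModel ℓ : ℂ) ∈ R),
        P ≠ ⊤ ∧ (lam : R) ∈ P ∧ (⟨_, hx⟩ : R) ∈ P) ∧
    (∀ q : ℕ, q.Prime → q ≠ lam → q ∣ N₀ → ¬ q ^ 2 ∣ N₀ → W.IsGoodPrimeFor q →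
      (lam : ℤ) ∣ ((q : ℤ) + 1 - W.apOfModel q) ∨
        (lam : ℤ) ∣ (-((q : ℤ) + 1) - W.apOfModel q)) := by
  classical
  have hlam : lam.Prime := hlamF.out
  set S : Finset ℕ := insert lam N₀.primeFactors with hS
  have hlamS : lam ∈ S := Finset.mem_insert_self _ _
  have hMS : ∀ q : ℕ, q.Prime → q ∣ N₀ → q ∈ S := fun q hq hqN =>
    Finset.mem_insert_of_mem (Nat.mem_primeFactors.mpr ⟨hq, hqN, NeZero.ne N₀⟩)
  have hnotS : ∀ ℓ : ℕ, ¬ ℓ ∣ N₀ → ℓ ≠ lam → ℓ ∉ (↑S : Set ℕ) := by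
    intro ℓ hℓN hℓlam hmem
    rw [Finset.mem_coe, hS, Finset.mem_insert] at hmem
    rcases hmem with h | h
    · exact hℓlam h
    · exact hℓN (Nat.dvd_of_mem_primeFactors h)
  set chig : heckeAlgebra N₀ 2 (↑S : Set ℕ) →+* ℂ := eigenCharC (↑S : Set ℕ) hf₀.1 with hchig_def
  have hchig : ∀ (ℓ : ℕ) (hℓ : ℓ.Prime) (hℓM : ¬ ℓ ∣ N₀) (hℓS : ℓ ∉ (↑S : Set ℕ)),
      chig (heckeAlgebra.T hℓ hℓM hℓS) = qCoeff f₀ ℓ :=
    fun ℓ hℓ hℓM hℓS => eigenCharC_T _ hf₀.1 hℓ hℓM hℓS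
  obtain ⟨P, O', i1, i2, i3, i4, i5, i6, iota, hPmax, hlamP, -, hcomap, hlamO'⟩ :=
    exists_padic_embedding chig hlam
  obtain ⟨O'', j1, j2, j3, j4, j5, j6, j7, j8, j9, -, ρ, hfrob, hst⟩ :=
    h35 hf₀ lam S O' hlamO' chig hchig iota hlamS hMS
  have hlamO'' : (lam : O'') ∈ maximalIdeal O'' := by
    have := map_mem_maximalIdeal (algebraMap O' O'') hlamO'
    rwa [map_natCast] at this
  -- `ρ` has the Frobenius characteristic polynomials of `W` outside `S ∪ T`
  have hHas : HasFrobOf W ρ (S ∪ T) := by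
    intro ℓ hℓ hℓST Q hQ σ hσ
    have hℓS : ℓ ∉ S := fun h => hℓST (Finset.mem_union_left _ h)
    have hℓT : ℓ ∉ T := fun h => hℓST (Finset.mem_union_right _ h)
    have hℓN₀ : ¬ ℓ ∣ N₀ := fun h => hℓS (hMS ℓ hℓ h)
    have hℓS' : ℓ ∉ (↑S : Set ℕ) := by simpa using hℓS
    rw [hfrob ℓ hℓ hℓN₀ hℓS' Q hQ σ hσ]
    have e : (iota.comp chig.rangeRestrict) (heckeAlgebra.T hℓ hℓN₀ hℓS') =
        ((W.apOfModel ℓ : ℤ) : O') := by
      rw [RingHom.comp_apply, rangeRestrict_eq_intCast chig _ (W.apOfModel ℓ)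
        (by rw [hchig, hfW ℓ hℓ hℓT hℓN₀]), map_intCast]
    rw [e, map_intCast]
  have hP3 := H99.stmt_ResFrob lam W hΔ O'' hlamO'' ρ (S ∪ T) hHas
  constructor
  · intro ℓ hℓ hℓN₀ hℓlam hgood
    have hℓS' := hnotS ℓ hℓN₀ hℓlam
    obtain ⟨Q, σ, hQ, hσ⟩ := Fermat.Agent.Lib.FrobExists.exists_place_and_frobenius ℓ hℓ
    have h1 := hP3 ℓ hℓ hℓlam hgood Q hQ σ hσ
    have h2 := (trace_det_of_charpoly_two ρ.finrank_eq _ (hfrob ℓ hℓ hℓN₀ hℓS' Q hQ σ hσ)).1
    rw [h2] at h1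
    have h3 : algebraMap O' O'' (iota (chig.rangeRestrict (heckeAlgebra.T hℓ hℓN₀ hℓS') -
        ((W.apOfModel ℓ : ℤ) : chig.range))) ∈ maximalIdeal O'' := by
      rw [map_sub, map_sub, map_intCast, map_intCast]
      exact h1
    have h4 := mem_maximalIdeal_of_map_mem (algebraMap O' O'') h3
    have h5 : chig.rangeRestrict (heckeAlgebra.T hℓ hℓN₀ hℓS') -
        ((W.apOfModel ℓ : ℤ) : chig.range) ∈ P := by
      rw [← hcomap]
      exact h4
    have hval : ((chig.rangeRestrict (heckeAlgebra.T hℓ hℓN₀ hℓS') -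
        ((W.apOfModel ℓ : ℤ) : chig.range) : chig.range) : ℂ) =
        qCoeff f₀ ℓ - (W.apOfModel ℓ : ℂ) := by
      rw [AddSubgroupClass.coe_sub, RingHom.coe_rangeRestrict, hchig]
      simp
    refine ⟨chig.range, P, hval ▸ Subtype.coe_prop _, hPmax.ne_top, hlamP, ?_⟩
    have e : (⟨qCoeff f₀ ℓ - (W.apOfModel ℓ : ℂ), hval ▸ Subtype.coe_prop _⟩ : chig.range) =
        chig.rangeRestrict (heckeAlgebra.T hℓ hℓN₀ hℓS') -
          ((W.apOfModel ℓ : ℤ) : chig.range) := Subtype.ext hval.symm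
    rw [e]
    exact h5
  · intro q hq hqlam hqN₀ hq2 hgood
    obtain ⟨Q, σ, hQ, hσ⟩ := Fermat.Agent.Lib.FrobExists.exists_place_and_frobenius q hq
    have h1 := hP3 q hq hqlam hgood Q hQ σ hσ
    rcases hst q hq hqlam hqN₀ hq2 Q hQ σ hσ with h | h
    · left
      have h2 := (trace_det_of_charpoly_two ρ.finrank_eq _ h).1
      rw [h2] at h1
      apply int_dvd_of_mem_maximalIdeal hlam hlamO''
      push_cast
      exact h1
    · right
      have h' : LinearMap.charpoly (ρ.ρ σ) =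
          X ^ 2 - C (-((q : O'') + 1)) * X + C ((q : O'')) := by
        rw [h, map_neg]
        ring
      have h2 := (trace_det_of_charpoly_two ρ.finrank_eq _ h').1
      rw [h2] at h1
      apply int_dvd_of_mem_maximalIdeal hlam hlamO''
      push_cast
      exact h1

/-- Consequence of S36 (Carayol) for a newform with the eigenvalues of a semistable curve `W`
with irreducible `W[p]`: no prime `q ≠ p` divides the level exactly twice. -/
theorem s36_consequence (h36 : Stmt_S36) (hU : Stmt_AdicUnip) (hf₀ : f₀.IsNewform)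
    (W : WeierstrassCurve ℤ) (hΔ : W.Δ ≠ 0) (hss : W.IsSemistableModel)
    (p : ℕ) [hpF : Fact p.Prime] (hp2 : p ≠ 2) (hirr : W.ModRepIsIrreducible p) (T : Finset ℕ)
    (hfW : ∀ ℓ : ℕ, ℓ.Prime → ℓ ∉ T → ¬ ℓ ∣ N₀ → qCoeff f₀ ℓ = (W.apOfModel ℓ : ℂ)) :
    ∀ q : ℕ, q.Prime → q ≠ p → N₀.factorization q ≠ 2 := by
  classical
  intro q hq hqp hfact
  have hp : p.Prime := hpF.out
  set S : Finset ℕ := insert p (N₀.primeFactors ∪ T) with hS
  have hpS : p ∈ S := Finset.mem_insert_self _ _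
  have hMS : ∀ q : ℕ, q.Prime → q ∣ N₀ → q ∈ S := fun q hq hqN =>
    Finset.mem_insert_of_mem (Finset.mem_union_left _
      (Nat.mem_primeFactors.mpr ⟨hq, hqN, NeZero.ne N₀⟩))
  have hST : ∀ ℓ : ℕ, ℓ ∉ (↑S : Set ℕ) → ℓ ∉ T := fun ℓ hℓS hℓT =>
    hℓS (Finset.mem_coe.mpr (Finset.mem_insert_of_mem (Finset.mem_union_right _ hℓT)))
  set chig : heckeAlgebra N₀ 2 (↑S : Set ℕ) →+* ℂ := eigenCharC (↑S : Set ℕ) hf₀.1 with hchig_def
  have hchig : ∀ (ℓ : ℕ) (hℓ : ℓ.Prime) (hℓM : ¬ ℓ ∣ N₀) (hℓS : ℓ ∉ (↑S : Set ℕ)),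
      chig (heckeAlgebra.T hℓ hℓM hℓS) = qCoeff f₀ ℓ :=
    fun ℓ hℓ hℓM hℓS => eigenCharC_T _ hf₀.1 hℓ hℓM hℓS
  obtain ⟨P, O', i1, i2, i3, i4, i5, i6, iota, -, -, -, -, hpO'⟩ :=
    exists_padic_embedding chig hp
  have hcoef : ∀ (ℓ : ℕ) (hℓ : ℓ.Prime) (hℓM : ¬ ℓ ∣ N₀) (hℓS : ℓ ∉ (↑S : Set ℕ)),
      (iota.comp chig.rangeRestrict) (heckeAlgebra.T hℓ hℓM hℓS) =
        ((W.apOfModel ℓ : ℤ) : O') := by
    intro ℓ hℓ hℓM hℓS
    rw [RingHom.comp_apply, rangeRestrict_eq_intCast chig _ (W.apOfModel ℓ)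
      (by rw [hchig, hfW ℓ hℓ (hST ℓ hℓS) hℓM]), map_intCast]
  -- the hypothesis `hres` of S36
  have hres : ∀ (O'' : Type) [CommRing O''] [IsDomain O''] [IsDiscreteValuationRing O'']
      [IsAdicComplete (IsLocalRing.maximalIdeal O'') O''] [Finite (IsLocalRing.ResidueField O'')]
      [CharZero O''] [Algebra O' O''] [Module.Finite O' O''] [IsLocalHom (algebraMap O' O'')],
      Function.Injective (algebraMap O' O'') → ∀ (ρ : GaloisRepAdic O''),
      (∀ (ℓ : ℕ) (hℓ : ℓ.Prime) (_hℓlam : ℓ ≠ p) (hℓM : ¬ ℓ ∣ N₀) (hℓS : ℓ ∉ (↑S : Set ℕ)),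
        ∀ A : ValuationSubring (AlgebraicClosure ℚ), A.LiesOverPrime ℓ →
          ∀ σ : AlgebraicClosure ℚ ≃ₐ[ℚ] AlgebraicClosure ℚ, A.IsFrobeniusAt σ ℓ →
            LinearMap.charpoly (ρ.ρ σ) =
              X ^ 2 - C (algebraMap O' O''
                ((iota.comp chig.rangeRestrict) (CuspForm.heckeAlgebra.T hℓ hℓM hℓS))) * X
                + C ((ℓ : O'')))
      → ρ.residual.IsAbsolutelyIrreducible ∧ ρ.residual.IsOdd := by
    intro O'' _ _ _ _ _ _ _ _ _ _ ρ hρ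
    have hpO'' : (p : O'') ∈ maximalIdeal O'' := by
      have := map_mem_maximalIdeal (algebraMap O' O'') hpO'
      rwa [map_natCast] at this
    have hHas : HasFrobOf W ρ S := by
      intro ℓ hℓ hℓS Q hQ σ hσ
      have hℓp : ℓ ≠ p := fun h => hℓS (h ▸ hpS)
      have hℓN₀ : ¬ ℓ ∣ N₀ := fun h => hℓS (hMS ℓ hℓ h)
      have hℓS' : ℓ ∉ (↑S : Set ℕ) := by simpa using hℓS
      rw [hρ ℓ hℓ hℓp hℓN₀ hℓS' Q hQ σ hσ, hcoef ℓ hℓ hℓN₀ hℓS', map_intCast]
    exact H99.stmt_ResIrr p hp2 W hΔ hirr O'' hpO'' ρ S hHas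
  obtain ⟨O'', j1, j2, j3, j4, j5, j6, j7, j8, j9, -, ρ, hfrob, hnu⟩ :=
    h36 hf₀ p S O' hpO' hp2 chig hchig iota hpS hMS hres
  have hpO'' : (p : O'') ∈ maximalIdeal O'' := by
    have := map_mem_maximalIdeal (algebraMap O' O'') hpO'
    rwa [map_natCast] at this
  have hHas : HasFrobOf W ρ S := by
    intro ℓ hℓ hℓS Q hQ σ hσ
    have hℓN₀ : ¬ ℓ ∣ N₀ := fun h => hℓS (hMS ℓ hℓ h)
    have hℓS' : ℓ ∉ (↑S : Set ℕ) := by simpa using hℓS
    rw [hfrob ℓ hℓ hℓN₀ hℓS' Q hQ σ hσ, hcoef ℓ hℓ hℓN₀ hℓS', map_intCast]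
  exact hnu q hq hqp hfact (hU p W hΔ hss O'' hpO'' ρ S hHas q hq hqp)

end Apply

/-- **S58 from S35, S36 and the Tate module.** -/
theorem wiring_of_adicUnip (h35 : Stmt_S35) (h36 : Stmt_S36) (hU : Stmt_AdicUnip) : Stmt_S58 := by
  classical
  intro W hss N p hpF hp2 hirr hp2N hN hbad hN3
  have hp : p.Prime := hpF.out
  -- `N ≠ 0`, `Δ ≠ 0`
  have hN0 : N ≠ 0 := by
    rintro rfl
    exact hN3 2 Nat.prime_two (dvd_zero _)
  have hΔ : W.Δ ≠ 0 := by
    intro h0
    obtain ⟨ℓ, hℓ1, hℓ2⟩ := Nat.exists_infinite_primes (N + 1)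
    have h1 : ℓ ∣ N := hbad ℓ hℓ2 (by rw [h0]; exact dvd_zero _)
    have h2 : ℓ ≤ N := Nat.le_of_dvd (Nat.pos_of_ne_zero hN0) h1
    omega
  have : NeZero N := ⟨hN0⟩
  obtain ⟨f, hf, hfW⟩ := hN
  obtain ⟨N₀, hN₀N, f₀, hf₀, hf₀f⟩ := exists_isNewform hf
  have hN₀0 : N₀ ≠ 0 := fun h => hN0 (by rw [h] at hN₀N; exact Nat.eq_zero_of_zero_dvd hN₀N)
  have : NeZero N₀ := ⟨hN₀0⟩
  set T : Finset ℕ := N.primeFactors with hT
  have hnotT : ∀ ℓ : ℕ, ℓ.Prime → ℓ ∉ T → ¬ ℓ ∣ N := fun ℓ hℓ hℓT hdvd =>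
    hℓT (Nat.mem_primeFactors.mpr ⟨hℓ, hdvd, hN0⟩)
  have hf₀W : ∀ ℓ : ℕ, ℓ.Prime → ℓ ∉ T → ¬ ℓ ∣ N₀ → qCoeff f₀ ℓ = (W.apOfModel ℓ : ℂ) := by
    intro ℓ hℓ hℓT _
    have hℓN := hnotT ℓ hℓ hℓT
    rw [hf₀f ℓ hℓ hℓN]
    exact hfW ℓ hℓ (fun hdvd => hℓN (hbad ℓ hℓ hdvd)) hℓN
  -- (A2) the level `N₀` is squarefree
  have hsq : ∀ q : ℕ, q.Prime → ¬ q ^ 2 ∣ N₀ := by
    intro q hq hdvd
    have hle2 : N₀.factorization q ≤ 2 := by
      by_contra hcon
      push Not at hcon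
      exact hN3 q hq (((hq.pow_dvd_iff_le_factorization hN₀0).mpr hcon).trans hN₀N)
    have hge2 : 2 ≤ N₀.factorization q := (hq.pow_dvd_iff_le_factorization hN₀0).mp hdvd
    by_cases hqp : q = p
    · subst hqp
      exact hp2N (hdvd.trans hN₀N)
    · exact s36_consequence h36 hU hf₀ W hΔ hss p hp2 hirr T hf₀W q hq hqp
        (le_antisymm hle2 hge2)
  -- (A1) every prime divisor of `N₀` is bad
  have hbadN₀ : ∀ q : ℕ, q.Prime → q ∣ N₀ → (q : ℤ) ∣ W.Δ := by
    intro q hq hqN₀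
    by_contra hgood
    obtain ⟨lam, hlam1, hlam2⟩ := Nat.exists_infinite_primes (2 * q + 3)
    have : Fact lam.Prime := ⟨hlam2⟩
    have : Fact q.Prime := ⟨hq⟩
    have hqlam : q ≠ lam := by omega
    obtain ⟨hlo, hhi⟩ := apOfModel_bounds W q
    rcases (s35_consequences h35 hf₀ W hΔ T hf₀W lam).2 q hq hqlam hqN₀ (hsq q hq) hgood
      with h | h
    · have h1 : (0 : ℤ) < (q : ℤ) + 1 - W.apOfModel q := by omega
      have h2 := Int.le_of_dvd h1 h
      omega
    · have h' : (lam : ℤ) ∣ ((q : ℤ) + 1 + W.apOfModel q) := by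
        have := (dvd_neg (α := ℤ)).mpr h
        have e : -(-((q : ℤ) + 1) - W.apOfModel q) = (q : ℤ) + 1 + W.apOfModel q := by ring
        rwa [e] at this
      have h1 : (0 : ℤ) < (q : ℤ) + 1 + W.apOfModel q := by omega
      have h2 := Int.le_of_dvd h1 h'
      omega
  -- `N₀` divides the conductor
  have hC0 : W.conductorLevel ≠ 0 := W.conductorLevel_pos.ne'
  have hN₀C : N₀ ∣ W.conductorLevel := by
    rw [← Nat.factorization_le_iff_dvd hN₀0 hC0, Finsupp.le_def]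
    intro q
    by_cases hq : q.Prime
    · by_cases hqN₀ : q ∣ N₀
      · have h1 : N₀.factorization q ≤ 1 := by
          by_contra hcon
          push Not at hcon
          exact hsq q hq ((hq.pow_dvd_iff_le_factorization hN₀0).mpr hcon)
        have h2 : q ∣ W.conductorLevel :=
          (W.prime_dvd_conductorLevel_iff hΔ hq).mpr (hbadN₀ q hq hqN₀)
        have h3 : 1 ≤ W.conductorLevel.factorization q :=
          (hq.dvd_iff_one_le_factorization hC0).mp h2
        omega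
      · rw [Nat.factorization_eq_zero_of_not_dvd hqN₀]
        exact Nat.zero_le _
    · rw [Nat.factorization_eq_zero_of_not_prime _ hq]
      exact Nat.zero_le _
  -- the eigenvalues at ALL good primes
  have hall : ∀ ℓ : ℕ, ℓ.Prime → W.IsGoodPrimeFor ℓ → qCoeff f₀ ℓ = (W.apOfModel ℓ : ℂ) := by
    intro ℓ hℓ hgood
    have hℓN₀ : ¬ ℓ ∣ N₀ := fun h => hgood (hbadN₀ ℓ hℓ h)
    have hint : IsIntegral ℤ (qCoeff f₀ ℓ - (W.apOfModel ℓ : ℂ)) := by
      have h1 : IsIntegral ℤ (qCoeff f₀ ℓ) := by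
        have hℓS : ℓ ∉ (∅ : Set ℕ) := Set.notMem_empty ℓ
        have := isIntegral_apply (eigenCharC (∅ : Set ℕ) hf₀.1) (heckeAlgebra.T hℓ hℓN₀ hℓS)
        rwa [eigenCharC_T] at this
      have h2 : IsIntegral ℤ ((W.apOfModel ℓ : ℤ) : ℂ) := isIntegral_algebraMap
      exact h1.sub h2
    have h0 := eq_zero_of_forall_prime_mem _ hint ℓ (fun lam hlam hB => by
      have : Fact lam.Prime := ⟨hlam⟩
      exact (s35_consequences h35 hf₀ W hΔ T hf₀W lam).1 ℓ hℓ hℓN₀ (by omega) hgood)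
    exact sub_eq_zero.mp h0
  -- raise the level to the conductor
  have hCsq : Squarefree W.conductorLevel := W.squarefree_conductorLevel
  set D : ℕ := W.conductorLevel / N₀ with hD
  have hND : N₀ * D = W.conductorLevel := Nat.mul_div_cancel' hN₀C
  have hDsq : Squarefree D := hCsq.squarefree_of_dvd (Nat.div_dvd_of_dvd hN₀C)
  have hprod : ∏ q ∈ D.primeFactors, q = D := Nat.prod_primeFactors_of_squarefree hDsq
  have hs : ∀ q ∈ D.primeFactors, q.Prime ∧ ¬ q ∣ N₀ := by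
    intro q hq
    have hqp : q.Prime := Nat.prime_of_mem_primeFactors hq
    refine ⟨hqp, fun hqN₀ => ?_⟩
    have hqD : q ∣ D := Nat.dvd_of_mem_primeFactors hq
    have h1 : q * q ∣ W.conductorLevel := by
      rw [← hND]
      exact mul_dvd_mul hqN₀ hqD
    exact hqp.one_lt.ne' (Nat.isUnit_iff.mp (hCsq q h1))
  obtain ⟨g, hg, hgf⟩ := Fermat.Agent.S59.stab_finset Fermat.Agent.S59.H61.stmt_Stab
    D.primeFactors N₀ f₀ hf₀.1 hs
  have e : N₀ * ∏ q ∈ D.primeFactors, q = W.conductorLevel := by rw [hprod, hND]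
  have hmod : W.IsModularModelOfLevel (N₀ * ∏ q ∈ D.primeFactors, q) := by
    refine ⟨g, hg, fun ℓ hℓ hgood _ => ?_⟩
    have hℓD : ℓ ∉ D.primeFactors := by
      intro hmem
      have h1 : ℓ ∣ D := Nat.dvd_of_mem_primeFactors hmem
      have h2 : ℓ ∣ W.conductorLevel := h1.trans (Nat.div_dvd_of_dvd hN₀C)
      exact hgood ((W.prime_dvd_conductorLevel_iff hΔ hℓ).mp h2)
    rw [hgf ℓ hℓ hℓD, hall ℓ hℓ hgood]
  rw [e] at hmod
  exact hmod

/-- **S58 from S35, S36 and the Tate module** (`Stmt_TateUnip`: Frobenius characteristic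
polynomials and unipotent inertia of the `p`-adic Tate module of a semistable curve). -/
theorem wiring (h35 : Stmt_S35) (h36 : Stmt_S36) (hT : Stmt_TateUnip) : Stmt_S58 :=
  wiring_of_adicUnip h35 h36 (H99.stmt_AdicUnip_of_tate hT)

end Fermat.Agent.S58

end
-- ==== END Fermat.Agent.S58.Wiring

-- ==== BEGIN Fermat.Agent.S58.H99_TateBridge
section

/-!
# S58: the Tate module input is available (helper99)

`stmt_TateUnip : Stmt_TateUnip` from the parts T1 (helper46), T3c (helper7), T4 (helper5) of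
`Fermat/Agent/Tate/`, hence

`result_of_S35_S36 : Stmt_S35 → Stmt_S36 → Stmt_S58`.
-/

set_option autoImplicit false

open IsLocalRing

namespace Fermat.Agent.S58

theorem natCast_mem_maximalIdeal_padicInt (p : ℕ) [hp : Fact p.Prime] :
    (p : ℤ_[p]) ∈ maximalIdeal ℤ_[p] := by
  rw [mem_maximalIdeal, mem_nonunits_iff]
  exact PadicInt.p_nonunit

/-- The Tate module input of the S58 wiring. -/
theorem stmt_TateUnip : Stmt_TateUnip := by
  intro p _ W hΔ hss
  obtain ⟨D⟩ := Fermat.Agent.Tate.H46.stmt_T1 W hΔ p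
  exact ⟨ℤ_[p], inferInstance, inferInstance, inferInstance, inferInstance, inferInstance,
    inferInstance, natCast_mem_maximalIdeal_padicInt p, D.ρ,
    Fermat.Agent.Tate.H5.stmt_T4 W hΔ hss p D, Fermat.Agent.Tate.H7.stmt_T3c W hΔ p D⟩

/-- **S58 from S35 and S36.** -/
theorem result_of_S35_S36 (h35 : Stmt_S35) (h36 : Stmt_S36) : Stmt_S58 :=
  wiring h35 h36 stmt_TateUnip

end Fermat.Agent.S58

end
-- ==== END Fermat.Agent.S58.H99_TateBridge

-- ==== BEGIN Fermat.Agent.S58.H81_Chain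
section

/-!
# S58 (helper81): the chain from the Kummer core of S36 to the frozen statement

`s58_of_nuCoreTame : S36.NU.H81.Stmt_NUCoreTame → S58.Stmt_S58`, through the landed
`Fermat.Agent.S35.result` and helper99's `S58.result_of_S35_S36`.
-/

set_option autoImplicit false

namespace Fermat.Agent.S58.H81

/-- The frozen statement S35, in the form used by the wiring of S58. -/
theorem stmt_S35 : Fermat.Agent.S58.Stmt_S35 :=
  fun hg lam _ S O' _ _ _ _ _ _ hlamO' chig hchig iota hlamS hMS =>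
    Fermat.Agent.S35.result hg lam S O' hlamO' chig hchig iota hlamS hMS

/-- S36 in the form used by the wiring of S58, from the Kummer core. -/
theorem stmt_S36_of_nuCoreTame (h : Fermat.Agent.S36.NU.H81.Stmt_NUCoreTame) :
    Fermat.Agent.S58.Stmt_S36 :=
  fun hg lam _ S O' _ _ _ _ _ _ hlamO' hlam2 chig hchig iota hlamS hMS hres =>
    Fermat.Agent.S36.H81.s36_of_nuCoreTame h hg lam S O' hlamO' hlam2 chig hchig iota hlamS hMS
      hres

/-- **S58 from the Kummer core of S36.** -/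
theorem s58_of_nuCoreTame (h : Fermat.Agent.S36.NU.H81.Stmt_NUCoreTame) :
    Fermat.Agent.S58.Stmt_S58 :=
  Fermat.Agent.S58.result_of_S35_S36 stmt_S35 (stmt_S36_of_nuCoreTame h)

end Fermat.Agent.S58.H81

end
-- ==== END Fermat.Agent.S58.H81_Chain
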