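-- GENERATED (merged mirror, NOTES/tools/trim/merge3_helper67.py): 16 modules of the originals, bodies verbatim.
import Mathlib
import Mathlib.RingTheory.Filtration
import Fermat.Agent.Zm.S56_L01_006
import Fermat.Agent.Zm.S33_L03_003
import Fermat.Agent.Zm.S58_L02_000
import Fermat.Agent.Zm.S33_L02_004
import Fermat.Agent.Lib.EllFinite.H46_RedTorsStmt
import Fermat.Agent.Tate.T5.H46_LawDefs
import Fermat.Agent.Zm.S44_L12_000
import Fermat.Agent.Zm.S44_L01_005
import Fermat.Agent.Zm.S58_L01_000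
import Fermat.Agent.Zm.S44_L10_000

-- ==== BEGIN Fermat.Agent.S59.Patch.ULim
section

/-!
# S59 / PATCH (helper53): ultrafilter limits in adically complete modules with finite quotients

For a module `M` over `R`, adically complete for an ideal `I`, with all `M ⧸ I ^ m • ⊤` finite
(a profinite module), every sequence `u : ℕ → M` has a unique limit along an ultrafilter `𝔘`:
`ulim I 𝔘 u`, characterised by `∀ m, ∀ᶠ n in 𝔘, u n - ulim I 𝔘 u ∈ I ^ m • ⊤`.
-/

set_option autoImplicit false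
set_option linter.style.haveILetI false

namespace Fermat.Agent.S59.Patch

open Filter

variable {R : Type*} [CommRing R] (I : Ideal R) (M : Type*) [AddCommGroup M] [Module R M]

/-- All quotients `M ⧸ I ^ m • ⊤` are finite. -/
class FinQuot : Prop where
  fin : ∀ m : ℕ, Finite (M ⧸ (I ^ m • ⊤ : Submodule R M))

variable {M}

theorem exists_ulim [IsPrecomplete I M] [FinQuot I M] (𝔘 : Ultrafilter ℕ) (u : ℕ → M) :
    ∃ L : M, ∀ m : ℕ, ∀ᶠ n in (𝔘 : Filter ℕ), u n - L ∈ (I ^ m • ⊤ : Submodule R M) := by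
  have h1 : ∀ m : ℕ, ∃ a : M, ∀ᶠ n in (𝔘 : Filter ℕ),
      u n - a ∈ (I ^ m • ⊤ : Submodule R M) := by
    intro m
    have : Finite (M ⧸ (I ^ m • ⊤ : Submodule R M)) := FinQuot.fin m
    obtain ⟨c, hc⟩ := Ultrafilter.eq_pure_of_finite
      (𝔘.map (fun n => (Submodule.Quotient.mk (u n) : M ⧸ (I ^ m • ⊤ : Submodule R M))))
    obtain ⟨a, rfl⟩ := Submodule.Quotient.mk_surjective _ c
    refine ⟨a, ?_⟩
    have h2 : ({Submodule.Quotient.mk a} : Set (M ⧸ (I ^ m • ⊤ : Submodule R M))) ∈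
        (𝔘.map (fun n => (Submodule.Quotient.mk (u n) : M ⧸ (I ^ m • ⊤ : Submodule R M)))) := by
      rw [hc]
      exact Ultrafilter.mem_pure.mpr rfl
    rw [Ultrafilter.mem_map] at h2
    refine Filter.mem_of_superset h2 ?_
    intro n hn
    simp only [Set.mem_preimage, Set.mem_singleton_iff] at hn
    exact (Submodule.Quotient.eq _).mp hn
  choose a ha using h1
  have hcauchy : ∀ {m n : ℕ}, m ≤ n → a m ≡ a n [SMOD (I ^ m • ⊤ : Submodule R M)] := by
    intro m n hmn
    obtain ⟨k, hk1, hk2⟩ := ((ha m).and (ha n)).exists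
    have hk2' : u k - a n ∈ (I ^ m • ⊤ : Submodule R M) :=
      Submodule.smul_mono_left (Ideal.pow_le_pow_right hmn) hk2
    rw [SModEq.sub_mem]
    have : a m - a n = (u k - a n) - (u k - a m) := by abel
    rw [this]
    exact Submodule.sub_mem _ hk2' hk1
  obtain ⟨L, hL⟩ := IsPrecomplete.prec ‹IsPrecomplete I M› hcauchy
  refine ⟨L, fun m => ?_⟩
  filter_upwards [ha m] with n hn
  have h3 : a m - L ∈ (I ^ m • ⊤ : Submodule R M) := SModEq.sub_mem.mp (hL m)
  have : u n - L = (u n - a m) + (a m - L) := by abel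
  rw [this]
  exact Submodule.add_mem _ hn h3

/-- The limit of `u` along the ultrafilter `𝔘`. -/
noncomputable def ulim [IsPrecomplete I M] [FinQuot I M] (𝔘 : Ultrafilter ℕ) (u : ℕ → M) : M :=
  Classical.choose (exists_ulim I 𝔘 u)

theorem ulim_spec [IsPrecomplete I M] [FinQuot I M] (𝔘 : Ultrafilter ℕ) (u : ℕ → M) (m : ℕ) :
    ∀ᶠ n in (𝔘 : Filter ℕ), u n - ulim I 𝔘 u ∈ (I ^ m • ⊤ : Submodule R M) :=
  Classical.choose_spec (exists_ulim I 𝔘 u) m

theorem eq_of_forall_mem [IsHausdorff I M] {x y : M}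
    (h : ∀ m : ℕ, x - y ∈ (I ^ m • ⊤ : Submodule R M)) : x = y := by
  have := IsHausdorff.haus ‹IsHausdorff I M› (x - y) (fun n => by
    rw [SModEq.sub_mem, sub_zero]; exact h n)
  exact sub_eq_zero.mp this

/-- Uniqueness of ultrafilter limits (frequently suffices). -/
theorem ulim_eq_of_frequently [IsAdicComplete I M] [FinQuot I M] (𝔘 : Ultrafilter ℕ)
    (u : ℕ → M) (L : M)
    (h : ∀ m : ℕ, ∃ᶠ n in (𝔘 : Filter ℕ), u n - L ∈ (I ^ m • ⊤ : Submodule R M)) :
    ulim I 𝔘 u = L := by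
  apply eq_of_forall_mem I
  intro m
  obtain ⟨n, hn1, hn2⟩ := ((h m).and_eventually (ulim_spec I 𝔘 u m)).exists
  have : ulim I 𝔘 u - L = (u n - L) - (u n - ulim I 𝔘 u) := by abel
  rw [this]
  exact Submodule.sub_mem _ hn1 hn2

theorem ulim_eq [IsAdicComplete I M] [FinQuot I M] (𝔘 : Ultrafilter ℕ)
    (u : ℕ → M) (L : M)
    (h : ∀ m : ℕ, ∀ᶠ n in (𝔘 : Filter ℕ), u n - L ∈ (I ^ m • ⊤ : Submodule R M)) :
    ulim I 𝔘 u = L :=
  ulim_eq_of_frequently I 𝔘 u L (fun m => (h m).frequently)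

theorem ulim_const [IsAdicComplete I M] [FinQuot I M] (𝔘 : Ultrafilter ℕ) (c : M) :
    ulim I 𝔘 (fun _ => c) = c :=
  ulim_eq I 𝔘 _ c (fun m => Filter.Eventually.of_forall fun _ => by
    rw [sub_self]; exact Submodule.zero_mem _)

theorem ulim_add [IsAdicComplete I M] [FinQuot I M] (𝔘 : Ultrafilter ℕ) (u v : ℕ → M) :
    ulim I 𝔘 (fun n => u n + v n) = ulim I 𝔘 u + ulim I 𝔘 v := by
  refine ulim_eq I 𝔘 _ _ (fun m => ?_)
  filter_upwards [ulim_spec I 𝔘 u m, ulim_spec I 𝔘 v m] with n h1 h2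
  have : u n + v n - (ulim I 𝔘 u + ulim I 𝔘 v) = (u n - ulim I 𝔘 u) + (v n - ulim I 𝔘 v) := by
    abel
  rw [this]
  exact Submodule.add_mem _ h1 h2

theorem ulim_sub [IsAdicComplete I M] [FinQuot I M] (𝔘 : Ultrafilter ℕ) (u v : ℕ → M) :
    ulim I 𝔘 (fun n => u n - v n) = ulim I 𝔘 u - ulim I 𝔘 v := by
  refine ulim_eq I 𝔘 _ _ (fun m => ?_)
  filter_upwards [ulim_spec I 𝔘 u m, ulim_spec I 𝔘 v m] with n h1 h2
  have : u n - v n - (ulim I 𝔘 u - ulim I 𝔘 v) = (u n - ulim I 𝔘 u) - (v n - ulim I 𝔘 v) := by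
    abel
  rw [this]
  exact Submodule.sub_mem _ h1 h2

/-- Sequences which are eventually close have the same limit. -/
theorem ulim_congr_close [IsAdicComplete I M] [FinQuot I M] (𝔘 : Ultrafilter ℕ) (u v : ℕ → M)
    (h : ∀ m : ℕ, ∀ᶠ n in (𝔘 : Filter ℕ), u n - v n ∈ (I ^ m • ⊤ : Submodule R M)) :
    ulim I 𝔘 u = ulim I 𝔘 v := by
  refine ulim_eq I 𝔘 _ _ (fun m => ?_)
  filter_upwards [h m, ulim_spec I 𝔘 v m] with n h1 h2
  have : u n - ulim I 𝔘 v = (u n - v n) + (v n - ulim I 𝔘 v) := by abel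
  rw [this]
  exact Submodule.add_mem _ h1 h2

/-- Closed submodules `I ^ m • ⊤` contain the limits of their sequences. -/
theorem ulim_mem [IsAdicComplete I M] [FinQuot I M] (𝔘 : Ultrafilter ℕ) (u : ℕ → M) (m : ℕ)
    (h : ∃ᶠ n in (𝔘 : Filter ℕ), u n ∈ (I ^ m • ⊤ : Submodule R M)) :
    ulim I 𝔘 u ∈ (I ^ m • ⊤ : Submodule R M) := by
  obtain ⟨n, hn1, hn2⟩ := (h.and_eventually (ulim_spec I 𝔘 u m)).exists
  have : ulim I 𝔘 u = u n - (u n - ulim I 𝔘 u) := by abel
  rw [this]
  exact Submodule.sub_mem _ hn1 hn2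

/-- The limit is zero if the sequence tends to zero. -/
theorem ulim_eq_zero [IsAdicComplete I M] [FinQuot I M] (𝔘 : Ultrafilter ℕ) (u : ℕ → M)
    (h : ∀ m : ℕ, ∃ᶠ n in (𝔘 : Filter ℕ), u n ∈ (I ^ m • ⊤ : Submodule R M)) :
    ulim I 𝔘 u = 0 :=
  ulim_eq_of_frequently I 𝔘 u 0 (fun m => by simpa using h m)

theorem mem_pow_smul_top_iff {m : ℕ} {x : R} :
    x ∈ (I ^ m • ⊤ : Submodule R R) ↔ x ∈ I ^ m := by
  rw [Ideal.smul_top_eq_map, Algebra.algebraMap_self, Ideal.map_id]
  rfl

theorem ulim_smul [IsAdicComplete I R] [FinQuot I R] [IsAdicComplete I M] [FinQuot I M]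
    (𝔘 : Ultrafilter ℕ) (a : ℕ → R) (u : ℕ → M) :
    ulim I 𝔘 (fun n => a n • u n) = ulim I 𝔘 a • ulim I 𝔘 u := by
  refine ulim_eq I 𝔘 _ _ (fun m => ?_)
  filter_upwards [ulim_spec I 𝔘 a m, ulim_spec I 𝔘 u m] with n h1 h2
  have : a n • u n - ulim I 𝔘 a • ulim I 𝔘 u =
      (a n - ulim I 𝔘 a) • u n + ulim I 𝔘 a • (u n - ulim I 𝔘 u) := by
    rw [sub_smul, smul_sub]; abel
  rw [this]
  refine Submodule.add_mem _ ?_ (Submodule.smul_mem _ _ h2)
  exact Submodule.smul_mem_smul ((mem_pow_smul_top_iff I).mp h1) Submodule.mem_top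

theorem ulim_mul [IsAdicComplete I R] [FinQuot I R] (𝔘 : Ultrafilter ℕ) (a b : ℕ → R) :
    ulim I 𝔘 (fun n => a n * b n) = ulim I 𝔘 a * ulim I 𝔘 b := by
  have := ulim_smul I 𝔘 a b
  simpa only [smul_eq_mul] using this

theorem ulim_spec' [IsPrecomplete I R] [FinQuot I R] (𝔘 : Ultrafilter ℕ) (a : ℕ → R) (m : ℕ) :
    ∀ᶠ n in (𝔘 : Filter ℕ), a n - ulim I 𝔘 a ∈ I ^ m := by
  filter_upwards [ulim_spec I 𝔘 a m] with n hn
  exact (mem_pow_smul_top_iff I).mp hn

theorem ulim_eq' [IsAdicComplete I R] [FinQuot I R] (𝔘 : Ultrafilter ℕ)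
    (a : ℕ → R) (L : R)
    (h : ∀ m : ℕ, ∃ᶠ n in (𝔘 : Filter ℕ), a n - L ∈ I ^ m) :
    ulim I 𝔘 a = L :=
  ulim_eq_of_frequently I 𝔘 a L (fun m => (h m).mono fun _ hn => (mem_pow_smul_top_iff I).mpr hn)

/-- A local noetherian ring with finite residue field has finite quotients by the powers of its
maximal ideal. -/
theorem finQuot_of_isLocalRing (A : Type*) [CommRing A] [IsLocalRing A] [IsNoetherianRing A]
    [Finite (IsLocalRing.ResidueField A)] : FinQuot (IsLocalRing.maximalIdeal A) A where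
  fin m := by
    have h : Finite (A ⧸ (IsLocalRing.maximalIdeal A) ^ m) :=
      IsLocalRing.finite_quotient_iff.mpr ⟨m, le_rfl⟩
    have e : (IsLocalRing.maximalIdeal A ^ m • ⊤ : Submodule A A) =
        (IsLocalRing.maximalIdeal A) ^ m := by
      ext x
      exact mem_pow_smul_top_iff _
    rw [e]
    exact h

/-- A finite module over a ring with finite quotients has finite quotients. -/
theorem finQuot_of_finite [FinQuot I R] [Module.Finite R M] : FinQuot I M where
  fin m := by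
    have hR : Finite (R ⧸ I ^ m) := by
      have h := FinQuot.fin (I := I) (M := R) m
      have e : (I ^ m • ⊤ : Submodule R R) = I ^ m := by
        ext x
        exact mem_pow_smul_top_iff _
      rw [e] at h
      exact h
    -- `M ⧸ I ^ m • ⊤` is a finite module over the finite ring `R ⧸ I ^ m`
    letI : Module (R ⧸ I ^ m) (M ⧸ (I ^ m • ⊤ : Submodule R M)) :=
      Module.instQuotientIdealSubmoduleHSMulTop M (I ^ m)
    have : Module.Finite (R ⧸ I ^ m) (M ⧸ (I ^ m • ⊤ : Submodule R M)) := by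
      have h1 : Module.Finite R (M ⧸ (I ^ m • ⊤ : Submodule R M)) := inferInstance
      exact Module.Finite.of_restrictScalars_finite R _ _
    exact Module.finite_of_finite (R ⧸ I ^ m)

end Fermat.Agent.S59.Patch

end
-- ==== END Fermat.Agent.S59.Patch.ULim

-- ==== BEGIN Fermat.Agent.S59.TWGal.Defs2
section

set_option autoImplicit false

open Polynomial IsLocalRing

namespace Fermat.Agent.S59.TWGal

section defs

variable {A : Type} [CommRing A] [IsLocalRing A]

/-- The decomposition group at `P` acts diagonally in the basis `b`. -/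
def DiagOn (ρ : GaloisRepAdic A) (P : ValuationSubring Qb) (b : Module.Basis (Fin 2) A ρ.V) :
    Prop :=
  ∀ g ∈ P.decompositionSubgroup ℚ, ∃ x y : A, ρ.ρ g (b 0) = x • b 0 ∧ ρ.ρ g (b 1) = y • b 1

/-- The diagonal entries of `ρ(g)` in the basis `b` (the two characters when `DiagOn`). -/
noncomputable def chi (ρ : GaloisRepAdic A) (b : Module.Basis (Fin 2) A ρ.V) (i : Fin 2)
    (g : GQ) : A :=
  b.repr (ρ.ρ g (b i)) i

/-- Inertia at `P` acts trivially modulo the maximal ideal. -/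
def InertiaTrivMod (ρ : GaloisRepAdic A) (P : ValuationSubring Qb) : Prop :=
  ∀ σ ∈ P.inertiaSubgroupIn ℚ, ∀ v : ρ.V,
    ρ.ρ σ v - v ∈ maximalIdeal A • (⊤ : Submodule A ρ.V)

end defs

/-- **RES**: the hypotheses of `Stmt_G1` from the residual representation. -/
def Stmt_RES : Prop :=
  ∀ (A : Type) [CommRing A] [IsLocalRing A] (ρ : GaloisRepAdic A),
    (∀ (σ : GQ), ρ.residual.ρ σ = 1 →
      ∀ v : ρ.V, ρ.ρ σ v - v ∈ maximalIdeal A • (⊤ : Submodule A ρ.V)) ∧
    (∀ (σ : GQ), LinearMap.charpoly (ρ.residual.ρ σ) =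
      (LinearMap.charpoly (ρ.ρ σ)).map (residue A))

/-- **G2a**: the two characters have order dividing `q - 1` on inertia. -/
def Stmt_G2a : Prop :=
  ∀ (A : Type) [CommRing A] [IsLocalRing A] [IsNoetherianRing A]
    (p : ℕ), p.Prime → (p : A) ∈ maximalIdeal A →
  ∀ (ρ : GaloisRepAdic A) (q : ℕ), q.Prime → q ≠ p →
  ∀ (P : ValuationSubring Qb), P.LiesOverPrime q → InertiaTrivMod ρ P →
  ∀ (φ : GQ), P.IsFrobeniusAt φ q →
  ∀ (b : Module.Basis (Fin 2) A ρ.V), DiagOn ρ P b →
    ∀ σ ∈ P.inertiaSubgroupIn ℚ, ∀ i : Fin 2, chi ρ b i σ ^ (q - 1) = 1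

/-- **G2b**: the image of inertia under the pair of characters is cyclic: one element `σ₀` of the
inertia group generates it. -/
def Stmt_G2b : Prop :=
  ∀ (A : Type) [CommRing A] [IsLocalRing A] [IsNoetherianRing A]
    (p : ℕ), p.Prime → (p : A) ∈ maximalIdeal A →
  ∀ (ρ : GaloisRepAdic A) (q : ℕ), q.Prime → q ≠ p →
  ∀ (P : ValuationSubring Qb), P.LiesOverPrime q → InertiaTrivMod ρ P →
  ∀ (φ : GQ), P.IsFrobeniusAt φ q →
  ∀ (b : Module.Basis (Fin 2) A ρ.V), DiagOn ρ P b →
    ∃ σ₀ ∈ P.inertiaSubgroupIn ℚ, ∀ σ ∈ P.inertiaSubgroupIn ℚ, ∃ j : ℕ,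
      ∀ i : Fin 2, chi ρ b i σ = chi ρ b i σ₀ ^ j

/-- **G3**: a base change along a local homomorphism is unramified at `P` iff the homomorphism
kills `χ_i(σ₀) - 1`, `σ₀` a generator as in G2b. -/
def Stmt_G3 : Prop :=
  ∀ (A : Type) [CommRing A] [IsLocalRing A] (ρ : GaloisRepAdic A)
    (P : ValuationSubring Qb) (b : Module.Basis (Fin 2) A ρ.V), DiagOn ρ P b →
  ∀ σ₀ ∈ P.inertiaSubgroupIn ℚ,
    (∀ σ ∈ P.inertiaSubgroupIn ℚ, ∃ j : ℕ, ∀ i : Fin 2, chi ρ b i σ = chi ρ b i σ₀ ^ j) →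
  ∀ (B : Type) [CommRing B] [IsLocalRing B] (π : A →+* B) (hπ : IsLocalHom π),
    (∀ σ ∈ P.inertiaSubgroupIn ℚ, (ρ.baseChangeAlong π hπ).ρ σ = 1) ↔
      (π (chi ρ b 0 σ₀) = 1 ∧ π (chi ρ b 1 σ₀) = 1)

end Fermat.Agent.S59.TWGal

end
-- ==== END Fermat.Agent.S59.TWGal.Defs2

-- ==== BEGIN Fermat.Agent.S59.TWGal.G1
section

set_option autoImplicit false

open Polynomial IsLocalRing

namespace Fermat.Agent.S59.TWGal

/-! ### Matrices of endomorphisms modulo an ideal -/

section mat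

variable {A : Type} [CommRing A] {V : Type} [AddCommGroup V] [Module A V]
  (b : Module.Basis (Fin 2) A V)

/-- The coordinates of an element of `J • ⊤` lie in `J`. -/
lemma repr_mem_of_mem_smul_top (J : Ideal A) {x : V} (hx : x ∈ J • (⊤ : Submodule A V))
    (i : Fin 2) : b.repr x i ∈ J := by
  refine Submodule.smul_induction_on hx ?_ ?_
  · intro a ha v _
    rw [map_smul, Finsupp.smul_apply, smul_eq_mul]
    exact J.mul_mem_right _ ha
  · intro x y hx hy
    rw [map_add, Finsupp.add_apply]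
    exact J.add_mem hx hy

/-- The matrix of an endomorphism. -/
noncomputable abbrev mat (f : Module.End A V) : Matrix (Fin 2) (Fin 2) A :=
  LinearMap.toMatrixAlgEquiv b f

lemma mat_apply (f : Module.End A V) (i j : Fin 2) : mat b f i j = b.repr (f (b j)) i :=
  LinearMap.toMatrixAlgEquiv_apply b f i j

lemma mat_sub_one_mem (J : Ideal A) (f : Module.End A V)
    (h : ∀ v, f v - v ∈ J • (⊤ : Submodule A V)) (i j : Fin 2) : (mat b f - 1) i j ∈ J := by
  have e : mat b f - 1 = mat b (f - 1) := by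
    rw [mat, mat, map_sub, map_one]
  rw [e, mat_apply]
  exact repr_mem_of_mem_smul_top b J (h (b j)) i

lemma apply_eq_of_mat (f : Module.End A V) (j : Fin 2) :
    f (b j) = mat b f 0 j • b 0 + mat b f 1 j • b 1 := by
  conv_lhs => rw [← b.sum_repr (f (b j))]
  rw [Fin.sum_univ_two, mat_apply, mat_apply]

/-- Reduction of matrices modulo an ideal. -/
noncomputable abbrev red (J : Ideal A) :
    Matrix (Fin 2) (Fin 2) A →+* Matrix (Fin 2) (Fin 2) (A ⧸ J) :=
  (Ideal.Quotient.mk J).mapMatrix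

lemma red_eq_one_iff (J : Ideal A) (Y : Matrix (Fin 2) (Fin 2) A) :
    red J Y = 1 ↔ ∀ i j, (Y - 1) i j ∈ J := by
  constructor
  · intro h i j
    have h1 : red J (Y - 1) = 0 := by rw [map_sub, h, map_one, sub_self]
    have h2 := congrFun (congrFun h1 i) j
    rw [RingHom.mapMatrix_apply, Matrix.map_apply, Matrix.zero_apply,
      Ideal.Quotient.eq_zero_iff_mem] at h2
    exact h2
  · intro h
    have h1 : red J (Y - 1) = 0 := by
      ext i j
      rw [RingHom.mapMatrix_apply, Matrix.map_apply, Matrix.zero_apply,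
        Ideal.Quotient.eq_zero_iff_mem]
      exact h i j
    rw [map_sub, map_one, sub_eq_zero] at h1
    exact h1

lemma red_apply_eq_zero_iff (J : Ideal A) (Y : Matrix (Fin 2) (Fin 2) A) (i j : Fin 2) :
    red J Y i j = 0 ↔ Y i j ∈ J := by
  rw [RingHom.mapMatrix_apply, Matrix.map_apply, Ideal.Quotient.eq_zero_iff_mem]

/-- Diagonal `2 × 2` matrices. -/
def IsDiag {R : Type} [CommRing R] (X : Matrix (Fin 2) (Fin 2) R) : Prop :=
  X 0 1 = 0 ∧ X 1 0 = 0

lemma IsDiag.one {R : Type} [CommRing R] : IsDiag (1 : Matrix (Fin 2) (Fin 2) R) := by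
  constructor <;> simp

lemma IsDiag.mul {R : Type} [CommRing R] {X Y : Matrix (Fin 2) (Fin 2) R} (hX : IsDiag X)
    (hY : IsDiag Y) : IsDiag (X * Y) := by
  constructor
  · rw [Matrix.mul_apply, Fin.sum_univ_two, hX.1, hY.1]; simp
  · rw [Matrix.mul_apply, Fin.sum_univ_two, hX.2, hY.2]; simp

lemma IsDiag.pow {R : Type} [CommRing R] {X : Matrix (Fin 2) (Fin 2) R} (hX : IsDiag X)
    (n : ℕ) : IsDiag (X ^ n) := by
  induction n with
  | zero => rw [pow_zero]; exact IsDiag.one
  | succ n ih => rw [pow_succ]; exact ih.mul hX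

lemma IsDiag.diagonal {R : Type} [CommRing R] (a c : R) :
    IsDiag (Matrix.diagonal ![a, c]) := by
  constructor <;> simp

end mat

/-! ### The assembly -/

/-- **G1** from the leaves. -/
theorem stmt_G1_of (hMU : Stmt_MatUnip) (hMD : Stmt_MatDiag) (hEIG : Stmt_EIG)
    (hTAME : Stmt_TAME) : Stmt_G1 := by
  intro A _ _ _ _ p hp hpA ρ q hq hqA P hP hI φ hφ α β hαβ hchar
  -- `q ≠ p`
  have hqp : q ≠ p := by
    rintro rfl
    have h1 : (q : A) - ((q : A) - 1) ∈ maximalIdeal A := (maximalIdeal A).sub_mem hpA hqA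
    rw [sub_sub_cancel] at h1
    exact (Ideal.ne_top_iff_one _).1 (maximalIdeal.isMaximal A).ne_top h1
  have hcop : ∀ e : ℕ, (q ^ e).Coprime p :=
    fun e => Nat.Coprime.pow_left e ((Nat.coprime_primes hq hp).2 hqp)
  -- the eigenbasis
  have : HenselianLocalRing A :=
    ⟨fun f hf a₀ h₁ h₂ => HenselianRing.is_henselian f hf a₀ h₁ (h₂.map _)⟩
  obtain ⟨b, a₁, a₂, ha₁, ha₂, hb0, hb1⟩ := hEIG A ρ.V ρ.finrank_eq (ρ.ρ φ) α β hαβ hchar
  have hqres : residue A (q : A) = 1 := by
    have : residue A ((q : A) - 1) = 0 := (residue_eq_zero_iff _).2 hqA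
    rw [map_sub, map_one, sub_eq_zero] at this
    exact this
  have hu₁ : IsUnit (a₁ - (q : A) * a₂) := by
    rw [← isUnit_map_iff (residue A), map_sub, map_mul, hqres, one_mul, ha₁, ha₂]
    exact (sub_ne_zero.2 hαβ).isUnit
  have hu₂ : IsUnit (a₂ - (q : A) * a₁) := by
    rw [← isUnit_map_iff (residue A), map_sub, map_mul, hqres, one_mul, ha₁, ha₂]
    exact (sub_ne_zero.2 hαβ.symm).isUnit
  -- the matrix representation
  let μ : GQ →* Matrix (Fin 2) (Fin 2) A :=
    ((LinearMap.toMatrixAlgEquiv b : Module.End A ρ.V ≃ₐ[A] _) : Module.End A ρ.V →* _).comp ρ.ρ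
  have hμ : ∀ g, μ g = mat b (ρ.ρ g) := fun _ => rfl
  have hμφ : μ φ = Matrix.diagonal ![a₁, a₂] := by
    ext i j
    rw [hμ, mat_apply]
    fin_cases j
    · show b.repr (ρ.ρ φ (b 0)) i = _
      rw [hb0, map_smul, Module.Basis.repr_self]
      fin_cases i <;> simp
    · show b.repr (ρ.ρ φ (b 1)) i = _
      rw [hb1, map_smul, Module.Basis.repr_self]
      fin_cases i <;> simp
  -- the key claim: `μ g` is diagonal modulo `𝔪 ^ N` for `g ∈ D_P`
  have key : ∀ N : ℕ, ∀ g ∈ P.decompositionSubgroup ℚ,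
      IsDiag (red (maximalIdeal A ^ N) (μ g)) := by
    intro N g hg
    obtain ⟨L, hL, hcont⟩ := ρ.isAdicContinuous N
    -- elements fixing `L` are trivial modulo `𝔪 ^ N`
    have hfix : ∀ u ∈ L.fixingSubgroup, red (maximalIdeal A ^ N) (μ u) = 1 := by
      intro u hu
      rw [red_eq_one_iff]
      exact mat_sub_one_mem b _ _
        (hcont u (fun x hx => (IntermediateField.mem_fixingSubgroup_iff L u).1 hu x hx))
    obtain ⟨τ₀, hτ₀, hcyc, ⟨e₀, hconj⟩, hdec⟩ := hTAME q hq P hP φ hφ L hL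
    -- inertia elements of `q`-power order modulo `G_L` are trivial modulo `𝔪 ^ N`
    have hwild : ∀ w ∈ P.inertiaSubgroupIn ℚ, ∀ e : ℕ, w ^ (q ^ e) ∈ L.fixingSubgroup →
        red (maximalIdeal A ^ N) (μ w) = 1 := by
      intro w hw e hwe
      rw [red_eq_one_iff]
      refine hMU A (maximalIdeal A) p (q ^ e) N hpA (hcop e) (μ w) ?_ ?_
      · exact mat_sub_one_mem b _ _ (hI w hw)
      · rw [← map_pow, ← red_eq_one_iff]
        exact hfix _ hwe
    have hφD : φ ∈ P.decompositionSubgroup ℚ := hφ.mem_decompositionSubgroup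
    have hnormal : ∀ {τ σ : GQ}, τ ∈ P.decompositionSubgroup ℚ → σ ∈ P.inertiaSubgroupIn ℚ →
        τ * σ * τ⁻¹ ∈ P.inertiaSubgroupIn ℚ := by
      intro τ σ hτ hσ
      obtain ⟨s, hs, rfl⟩ := hσ
      refine ⟨⟨τ, hτ⟩ * s * ⟨τ, hτ⟩⁻¹, ?_, rfl⟩
      have hn : (P.inertiaSubgroup ℚ).Normal := by
        unfold ValuationSubring.inertiaSubgroup
        infer_instance
      exact hn.conj_mem s hs ⟨τ, hτ⟩
    -- the tame relation modulo `𝔪 ^ N`
    have hw₀ : (τ₀ ^ q)⁻¹ * (φ * τ₀ * φ⁻¹) ∈ P.inertiaSubgroupIn ℚ :=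
      mul_mem (inv_mem (pow_mem hτ₀ q)) (hnormal hφD hτ₀)
    have hrel : red (maximalIdeal A ^ N) (μ φ) * red (maximalIdeal A ^ N) (μ τ₀) =
        red (maximalIdeal A ^ N) (μ τ₀) ^ q * red (maximalIdeal A ^ N) (μ φ) := by
      have h1 := hwild _ hw₀ e₀ hconj
      have h2 : φ * τ₀ = τ₀ ^ q * ((τ₀ ^ q)⁻¹ * (φ * τ₀ * φ⁻¹)) * φ := by group
      calc red (maximalIdeal A ^ N) (μ φ) * red (maximalIdeal A ^ N) (μ τ₀)
          = red (maximalIdeal A ^ N) (μ (φ * τ₀)) := by rw [map_mul, map_mul]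
        _ = red (maximalIdeal A ^ N) (μ (τ₀ ^ q * ((τ₀ ^ q)⁻¹ * (φ * τ₀ * φ⁻¹)) * φ)) := by
            rw [← h2]
        _ = red (maximalIdeal A ^ N) (μ τ₀) ^ q * red (maximalIdeal A ^ N) (μ φ) := by
            rw [map_mul, map_mul, map_mul, map_mul, h1, mul_one, map_pow, map_pow]
    -- `μ τ₀` is diagonal modulo `𝔪 ^ N`
    have hτdiag : IsDiag (red (maximalIdeal A ^ N) (μ τ₀)) := by
      have h1 := hMD A (maximalIdeal A) N q a₁ a₂ hu₁ hu₂ (μ τ₀)
        (mat_sub_one_mem b _ _ (hI τ₀ hτ₀)) (by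
          intro i j
          rw [← hμφ, ← red_apply_eq_zero_iff, map_sub, map_mul, map_mul, map_pow, hrel, sub_self,
            Matrix.zero_apply])
      exact ⟨(red_apply_eq_zero_iff _ _ _ _).2 h1.1, (red_apply_eq_zero_iff _ _ _ _).2 h1.2⟩
    have hφdiag : IsDiag (red (maximalIdeal A ^ N) (μ φ)) := by
      rw [hμφ]
      constructor
      · rw [red_apply_eq_zero_iff]; simp
      · rw [red_apply_eq_zero_iff]; simp
    -- inertia
    have hIdiag : ∀ σ ∈ P.inertiaSubgroupIn ℚ, IsDiag (red (maximalIdeal A ^ N) (μ σ)) := by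
      intro σ hσ
      obtain ⟨j, e, hje⟩ := hcyc σ hσ
      have h1 := hwild _ (mul_mem (inv_mem (pow_mem hτ₀ j)) hσ) e hje
      have h2 : σ = τ₀ ^ j * ((τ₀ ^ j)⁻¹ * σ) := by group
      rw [h2, map_mul, map_mul, h1, mul_one, map_pow, map_pow]
      exact hτdiag.pow j
    -- decomposition group
    obtain ⟨n, σ, hσ, hu⟩ := hdec g hg
    have h2 : g = φ ^ n * σ * ((φ ^ n * σ)⁻¹ * g) := by group
    rw [h2, map_mul, map_mul, map_mul, map_mul, hfix _ hu, mul_one, map_pow, map_pow]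
    exact (hφdiag.pow n).mul (hIdiag σ hσ)
  -- Krull
  have hkrull : ∀ x : A, (∀ N : ℕ, x ∈ maximalIdeal A ^ N) → x = 0 := by
    intro x hx
    have h := Ideal.iInf_pow_eq_bot_of_isLocalRing (maximalIdeal A)
      (maximalIdeal.isMaximal A).ne_top
    have hmem : x ∈ ⨅ i : ℕ, maximalIdeal A ^ i := by
      rw [Ideal.mem_iInf]; exact hx
    rw [h] at hmem
    exact (Submodule.mem_bot A).1 hmem
  refine ⟨b, a₁, a₂, ha₁, ha₂, hb0, hb1, fun g hg => ?_⟩
  have h01 : μ g 0 1 = 0 :=
    hkrull _ fun N => (red_apply_eq_zero_iff _ _ _ _).1 (key N g hg).1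
  have h10 : μ g 1 0 = 0 :=
    hkrull _ fun N => (red_apply_eq_zero_iff _ _ _ _).1 (key N g hg).2
  refine ⟨μ g 0 0, μ g 1 1, ?_, ?_⟩
  · rw [apply_eq_of_mat b (ρ.ρ g) 0, ← hμ, h10, zero_smul, add_zero]
  · rw [apply_eq_of_mat b (ρ.ρ g) 1, ← hμ, h01, zero_smul, zero_add]

end Fermat.Agent.S59.TWGal

end
-- ==== END Fermat.Agent.S59.TWGal.G1

-- ==== BEGIN Fermat.Agent.S59.TWGal.H01_MatUnip
section

/-!
# S59, package TW-GAL, leaf MAT-U (helper1): `Stmt_MatUnip`

`1 + M₂(I)` has no prime-to-`p` torsion modulo `I ^ N` (`p ∈ I`): if `Y ≡ 1 mod I` and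
`Y ^ m ≡ 1 mod I ^ N` with `m` prime to `p`, then `Y ≡ 1 mod I ^ N`.

Proof: induction on `k ≤ N`; if `X = Y - 1` has entries in `I ^ k`, `k ≥ 1`, then
`Y ^ m - 1 - m X` has entries in `I ^ (2 k) ⊆ I ^ (k + 1)`, hence `m X` has entries in
`I ^ (k + 1)`; so does `p X`, and `u m + v p = 1`.

Reusable: `EntriesIn J M` (all entries of `M` in the ideal `J`) with its calculus, and
`entriesIn_pow_sub` (`Y ^ m - 1 - m (Y - 1)` has entries in `J * J`).
-/

set_option autoImplicit false
set_option linter.unusedSectionVars false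

namespace Fermat.Agent.S59.TWGal.H01

variable {A : Type*} [CommRing A] {n : Type*} [Fintype n] [DecidableEq n]

/-- All entries of the matrix `M` lie in the ideal `J`. -/
def EntriesIn (J : Ideal A) (M : Matrix n n A) : Prop := ∀ i j, M i j ∈ J

theorem entriesIn_zero (J : Ideal A) : EntriesIn J (0 : Matrix n n A) := fun _ _ => J.zero_mem

theorem EntriesIn.add {J : Ideal A} {M M' : Matrix n n A} (h : EntriesIn J M)
    (h' : EntriesIn J M') : EntriesIn J (M + M') := fun i j => by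
  rw [Matrix.add_apply]
  exact J.add_mem (h i j) (h' i j)

theorem EntriesIn.sub {J : Ideal A} {M M' : Matrix n n A} (h : EntriesIn J M)
    (h' : EntriesIn J M') : EntriesIn J (M - M') := fun i j => by
  rw [Matrix.sub_apply]
  exact J.sub_mem (h i j) (h' i j)

theorem EntriesIn.mono {J J' : Ideal A} (hle : J ≤ J') {M : Matrix n n A} (h : EntriesIn J M) :
    EntriesIn J' M := fun i j => hle (h i j)

theorem EntriesIn.mul_right {J : Ideal A} {M : Matrix n n A} (h : EntriesIn J M)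
    (B : Matrix n n A) : EntriesIn J (M * B) := fun i j => by
  rw [Matrix.mul_apply]
  exact J.sum_mem fun k _ => J.mul_mem_right _ (h i k)

theorem EntriesIn.mul_left {J : Ideal A} {M : Matrix n n A} (h : EntriesIn J M)
    (B : Matrix n n A) : EntriesIn J (B * M) := fun i j => by
  rw [Matrix.mul_apply]
  exact J.sum_mem fun k _ => J.mul_mem_left _ (h k j)

theorem EntriesIn.mul {J J' : Ideal A} {M M' : Matrix n n A} (h : EntriesIn J M)
    (h' : EntriesIn J' M') : EntriesIn (J * J') (M * M') := fun i j => by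
  rw [Matrix.mul_apply]
  exact (J * J').sum_mem fun k _ => Ideal.mul_mem_mul (h i k) (h' k j)

theorem EntriesIn.nsmul {J : Ideal A} {M : Matrix n n A} (h : EntriesIn J M) (m : ℕ) :
    EntriesIn J (m • M) := fun i j => by
  rw [Matrix.smul_apply, nsmul_eq_mul]
  exact J.mul_mem_left _ (h i j)

/-- If `Y ≡ 1 mod J`, then `Y ^ m ≡ 1 mod J`. -/
theorem entriesIn_pow_sub_one {J : Ideal A} {Y : Matrix n n A} (h : EntriesIn J (Y - 1))
    (m : ℕ) : EntriesIn J (Y ^ m - 1) := by
  induction m with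
  | zero =>
    rw [pow_zero, sub_self]
    exact entriesIn_zero J
  | succ m ih =>
    have e : Y ^ (m + 1) - 1 = (Y ^ m - 1) * Y + (Y - 1) := by
      rw [pow_succ]
      noncomm_ring
    rw [e]
    exact (ih.mul_right Y).add h

/-- If `Y ≡ 1 mod J`, then `Y ^ m ≡ 1 + m (Y - 1) mod J ^ 2`. -/
theorem entriesIn_pow_sub {J : Ideal A} {Y : Matrix n n A} (h : EntriesIn J (Y - 1)) (m : ℕ) :
    EntriesIn (J * J) (Y ^ m - 1 - m • (Y - 1)) := by
  induction m with
  | zero =>
    rw [pow_zero, sub_self, zero_smul, sub_zero]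
    exact entriesIn_zero _
  | succ m ih =>
    have e : Y ^ (m + 1) - 1 - (m + 1) • (Y - 1)
        = (Y ^ m - 1 - m • (Y - 1)) * Y + (m • (Y - 1)) * (Y - 1) := by
      rw [pow_succ, succ_nsmul, smul_mul_assoc]
      have e1 : (m • (Y - 1)) * Y = m • ((Y - 1) * Y) := smul_mul_assoc _ _ _
      rw [sub_mul, sub_mul, e1, one_mul]
      have e2 : (Y - 1) * Y = (Y - 1) * (Y - 1) + (Y - 1) := by noncomm_ring
      rw [e2, smul_add]
      abel
    rw [e]
    exact (ih.mul_right Y).add ((h.nsmul m).mul h)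

/-- **MAT-U.** -/
theorem stmt_MatUnip : Stmt_MatUnip := by
  intro A _ I p m N hp hmp Y hY hYm
  have hY' : EntriesIn I (Y - 1) := hY
  have hYm' : EntriesIn (I ^ N) (Y ^ m - 1) := hYm
  obtain ⟨u, v, huv⟩ := (Nat.isCoprime_iff_coprime.mpr hmp)
  have key : ∀ k : ℕ, k ≤ N → EntriesIn (I ^ k) (Y - 1) := by
    intro k
    induction k with
    | zero =>
      intro _ i j
      rw [pow_zero, Ideal.one_eq_top]
      exact Submodule.mem_top
    | succ k ih =>
      intro hk
      have hX := ih (by omega)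
      rcases Nat.eq_zero_or_pos k with rfl | hkpos
      · rw [zero_add, pow_one]
        exact hY'
      -- `m X` has entries in `I ^ (k + 1)`
      have h1 : EntriesIn (I ^ (k + 1)) (Y ^ m - 1 - m • (Y - 1)) := by
        refine (entriesIn_pow_sub hX m).mono ?_
        rw [← pow_add]
        exact Ideal.pow_le_pow_right (by omega)
      have h2 : EntriesIn (I ^ (k + 1)) (Y ^ m - 1) := hYm'.mono (Ideal.pow_le_pow_right hk)
      have h3 : EntriesIn (I ^ (k + 1)) (m • (Y - 1)) := by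
        have := h2.sub h1
        rwa [sub_sub_cancel] at this
      intro i j
      have h4 : (m : A) * (Y - 1) i j ∈ I ^ (k + 1) := by
        have := h3 i j
        rwa [Matrix.smul_apply, nsmul_eq_mul] at this
      have h5 : (p : A) * (Y - 1) i j ∈ I ^ (k + 1) := by
        rw [pow_succ']
        exact Ideal.mul_mem_mul hp (hX i j)
      have h6 : (Y - 1) i j = (u : A) * ((m : A) * (Y - 1) i j) + (v : A) * ((p : A) * (Y - 1) i j) := by
        have := congrArg (Int.cast : ℤ → A) huv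
        push_cast at this
        linear_combination (-(Y - 1) i j) * this
      rw [h6]
      exact (I ^ (k + 1)).add_mem ((I ^ (k + 1)).mul_mem_left _ h4)
        ((I ^ (k + 1)).mul_mem_left _ h5)
  exact key N le_rfl

end Fermat.Agent.S59.TWGal.H01

end
-- ==== END Fermat.Agent.S59.TWGal.H01_MatUnip

-- ==== BEGIN Fermat.Agent.S59.TWGal.H60_Eig
section

/-!
# S59, package TW-GAL, leaf EIG (helper60): `Stmt_EIG`

An endomorphism of a free module of rank `2` over a henselian local ring whose characteristic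
polynomial is `(X - α)(X - β)` modulo `𝔪` with `α ≠ β` has an eigenbasis.

Proof: Hensel gives roots `a₁`, `a₂` of the characteristic polynomial lifting `α`, `β`;
`a₁ + a₂ = tr`, `a₁ a₂ = det`; in a basis, the columns of `M - a₂` are eigenvectors for `a₁` and
the columns of `M - a₁` are eigenvectors for `a₂`; as `(p - a₂) + (s - a₂) = a₁ - a₂` is a unit,
one of the diagonal entries of `M - a₂` is a unit, and the determinant of the corresponding pair
of columns is a unit.
-/

set_option autoImplicit false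

open Polynomial IsLocalRing

namespace Fermat.Agent.S59.TWGal.H60

section Hensel

variable {A : Type*} [CommRing A] [HenselianLocalRing A]

/-- Hensel: a simple root of the reduction lifts. -/
theorem exists_root_lift (P : A[X]) (hP : P.Monic) (α β : ResidueField A) (hαβ : α ≠ β)
    (hcp : P.map (residue A) = (X - C α) * (X - C β)) :
    ∃ a : A, P.IsRoot a ∧ residue A a = α := by
  obtain ⟨a₀, ha₀⟩ := residue_surjective α
  have h1 : P.eval a₀ ∈ maximalIdeal A := by
    rw [← residue_eq_zero_iff, ← eval_map_apply, hcp, ha₀]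
    simp
  have h2 : IsUnit (P.derivative.eval a₀) := by
    rw [← residue_ne_zero_iff_isUnit, ← eval_map_apply, ← derivative_map, hcp, ha₀]
    have hd : (derivative ((X - C α) * (X - C β))).eval α = α - β := by
      simp
    rw [hd]
    exact sub_ne_zero.mpr hαβ
  obtain ⟨a, ha, haa⟩ := HenselianLocalRing.is_henselian P hP a₀ h1 h2
  refine ⟨a, ha, ?_⟩
  rw [← ha₀, ← sub_eq_zero, ← map_sub, residue_eq_zero_iff]
  exact haa

end Hensel

section Basis

variable {A : Type*} [CommRing A] {V : Type*} [AddCommGroup V] [Module A V]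

/-- Two vectors with unit determinant form a basis. -/
theorem exists_basis_of_isUnit (e : Module.Basis (Fin 2) A V) (x₁ y₁ x₂ y₂ : A)
    (hdet : IsUnit (x₁ * y₂ - x₂ * y₁)) :
    ∃ b : Module.Basis (Fin 2) A V, b 0 = x₁ • e 0 + y₁ • e 1 ∧ b 1 = x₂ • e 0 + y₂ • e 1 := by
  set v : Fin 2 → V := ![x₁ • e 0 + y₁ • e 1, x₂ • e 0 + y₂ • e 1] with hv
  have hdv : e.det v = x₁ * y₂ - x₂ * y₁ := by
    rw [Module.Basis.det_apply, Matrix.det_fin_two]
    simp only [Module.Basis.toMatrix_apply, hv, Matrix.cons_val_zero, Matrix.cons_val_one,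
      map_add, map_smul, Module.Basis.repr_self, Finsupp.smul_single, smul_eq_mul, mul_one,
      Finsupp.add_apply, Finsupp.single_apply]
    simp
  have h := (Module.Basis.is_basis_iff_det e (v := v)).mpr (by rw [hdv]; exact hdet)
  refine ⟨Module.Basis.mk h.1 h.2.ge, ?_, ?_⟩
  · rw [Module.Basis.mk_apply]; rfl
  · rw [Module.Basis.mk_apply]; rfl

end Basis

/-- **EIG**: eigenbasis from distinct residual eigenvalues. -/
theorem stmt_EIG : Stmt_EIG := by
  intro A _ _ _ V _ _ _ _ hrk f α β hαβ hcp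
  -- a basis and the matrix
  let e : Module.Basis (Fin 2) A V := Module.finBasisOfFinrankEq A V hrk
  set M : Matrix (Fin 2) (Fin 2) A := LinearMap.toMatrix e e f with hM
  have hcpM : M.charpoly = f.charpoly := LinearMap.charpoly_toMatrix f e
  set p : A := M 0 0 with hp
  set q : A := M 0 1 with hq
  set r : A := M 1 0 with hr
  set s : A := M 1 1 with hs
  have hP : f.charpoly = X ^ 2 - C (p + s) * X + C (p * s - q * r) := by
    rw [← hcpM, Matrix.charpoly_fin_two, Matrix.trace_fin_two, Matrix.det_fin_two]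
  have hfe0 : f (e 0) = p • e 0 + r • e 1 := by
    have := e.sum_repr (f (e 0))
    rw [Fin.sum_univ_two] at this
    rw [← this, hp, hr, hM, LinearMap.toMatrix_apply, LinearMap.toMatrix_apply]
  have hfe1 : f (e 1) = q • e 0 + s • e 1 := by
    have := e.sum_repr (f (e 1))
    rw [Fin.sum_univ_two] at this
    rw [← this, hq, hs, hM, LinearMap.toMatrix_apply, LinearMap.toMatrix_apply]
  -- Hensel
  have hmonic : f.charpoly.Monic := LinearMap.charpoly_monic f
  obtain ⟨a₁, hr₁, ha₁⟩ := exists_root_lift f.charpoly hmonic α β hαβ hcp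
  obtain ⟨a₂, hr₂, ha₂⟩ := exists_root_lift f.charpoly hmonic β α (Ne.symm hαβ)
    (by rw [hcp, mul_comm])
  have hu : IsUnit (a₁ - a₂) := by
    rw [← residue_ne_zero_iff_isUnit, map_sub, ha₁, ha₂]
    exact sub_ne_zero.mpr hαβ
  have he₁ : a₁ ^ 2 - (p + s) * a₁ + (p * s - q * r) = 0 := by
    have := hr₁
    rw [IsRoot, hP] at this
    simpa using this
  have he₂ : a₂ ^ 2 - (p + s) * a₂ + (p * s - q * r) = 0 := by
    have := hr₂
    rw [IsRoot, hP] at this
    simpa using this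
  have hsum : a₁ + a₂ = p + s := by
    have h1 : (a₁ - a₂) * (a₁ + a₂ - (p + s)) = 0 := by
      linear_combination he₁ - he₂
    have h2 := (hu.mul_right_eq_zero).mp h1
    linear_combination h2
  have hprod : a₁ * a₂ = p * s - q * r := by
    linear_combination (-1 : A) * he₁ + a₁ * hsum
  -- eigenvectors
  have heig₁a : f ((p - a₂) • e 0 + r • e 1) = a₁ • ((p - a₂) • e 0 + r • e 1) := by
    rw [map_add, map_smul, map_smul, hfe0, hfe1]
    have c0 : (p - a₂) * p + r * q = a₁ * (p - a₂) := by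
      linear_combination hprod - p * hsum
    have c1 : (p - a₂) * r + r * s = a₁ * r := by
      linear_combination (-r) * hsum
    calc (p - a₂) • (p • e 0 + r • e 1) + r • (q • e 0 + s • e 1)
        = ((p - a₂) * p + r * q) • e 0 + ((p - a₂) * r + r * s) • e 1 := by module
      _ = (a₁ * (p - a₂)) • e 0 + (a₁ * r) • e 1 := by rw [c0, c1]
      _ = a₁ • ((p - a₂) • e 0 + r • e 1) := by module
  have heig₁b : f (q • e 0 + (s - a₂) • e 1) = a₁ • (q • e 0 + (s - a₂) • e 1) := by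
    rw [map_add, map_smul, map_smul, hfe0, hfe1]
    have c0 : q * p + (s - a₂) * q = a₁ * q := by
      linear_combination (-q) * hsum
    have c1 : q * r + (s - a₂) * s = a₁ * (s - a₂) := by
      linear_combination hprod - s * hsum
    calc q • (p • e 0 + r • e 1) + (s - a₂) • (q • e 0 + s • e 1)
        = (q * p + (s - a₂) * q) • e 0 + (q * r + (s - a₂) * s) • e 1 := by module
      _ = (a₁ * q) • e 0 + (a₁ * (s - a₂)) • e 1 := by rw [c0, c1]
      _ = a₁ • (q • e 0 + (s - a₂) • e 1) := by module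
  have heig₂a : f ((p - a₁) • e 0 + r • e 1) = a₂ • ((p - a₁) • e 0 + r • e 1) := by
    rw [map_add, map_smul, map_smul, hfe0, hfe1]
    have c0 : (p - a₁) * p + r * q = a₂ * (p - a₁) := by
      linear_combination hprod - p * hsum
    have c1 : (p - a₁) * r + r * s = a₂ * r := by
      linear_combination (-r) * hsum
    calc (p - a₁) • (p • e 0 + r • e 1) + r • (q • e 0 + s • e 1)
        = ((p - a₁) * p + r * q) • e 0 + ((p - a₁) * r + r * s) • e 1 := by module
      _ = (a₂ * (p - a₁)) • e 0 + (a₂ * r) • e 1 := by rw [c0, c1]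
      _ = a₂ • ((p - a₁) • e 0 + r • e 1) := by module
  have heig₂b : f (q • e 0 + (s - a₁) • e 1) = a₂ • (q • e 0 + (s - a₁) • e 1) := by
    rw [map_add, map_smul, map_smul, hfe0, hfe1]
    have c0 : q * p + (s - a₁) * q = a₂ * q := by
      linear_combination (-q) * hsum
    have c1 : q * r + (s - a₁) * s = a₂ * (s - a₁) := by
      linear_combination hprod - s * hsum
    calc q • (p • e 0 + r • e 1) + (s - a₁) • (q • e 0 + s • e 1)
        = (q * p + (s - a₁) * q) • e 0 + (q * r + (s - a₁) * s) • e 1 := by module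
      _ = (a₂ * q) • e 0 + (a₂ * (s - a₁)) • e 1 := by rw [c0, c1]
      _ = a₂ • (q • e 0 + (s - a₁) • e 1) := by module
  -- one of the diagonal entries of `M - a₂` is a unit
  have hu' : IsUnit ((p - a₂) + (s - a₂)) := by
    have : (p - a₂) + (s - a₂) = a₁ - a₂ := by linear_combination (-1 : A) * hsum
    rw [this]; exact hu
  rcases isUnit_or_isUnit_of_isUnit_add hu' with hA | hB
  · -- first column of `M - a₂`, second column of `M - a₁`
    have hdet : IsUnit ((p - a₂) * (s - a₁) - q * r) := by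
      have : (p - a₂) * (s - a₁) - q * r = (p - a₂) * (a₂ - a₁) := by
        linear_combination (-1 : A) * hprod + a₂ * hsum
      rw [this]
      have hu2 : IsUnit (a₂ - a₁) := by
        have : a₂ - a₁ = -(a₁ - a₂) := by ring
        rw [this]; exact hu.neg
      exact hA.mul hu2
    obtain ⟨b, hb0, hb1⟩ := exists_basis_of_isUnit e (p - a₂) r q (s - a₁) hdet
    exact ⟨b, a₁, a₂, ha₁, ha₂, by rw [hb0]; exact heig₁a, by rw [hb1]; exact heig₂b⟩
  · -- second column of `M - a₂`, first column of `M - a₁`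
    have hdet : IsUnit (q * r - (p - a₁) * (s - a₂)) := by
      have : q * r - (p - a₁) * (s - a₂) = (s - a₂) * (a₁ - a₂) := by
        linear_combination hprod - a₂ * hsum
      rw [this]
      exact hB.mul hu
    obtain ⟨b, hb0, hb1⟩ := exists_basis_of_isUnit e q (s - a₂) (p - a₁) r hdet
    exact ⟨b, a₁, a₂, ha₁, ha₂, by rw [hb0]; exact heig₁b, by rw [hb1]; exact heig₂a⟩

end Fermat.Agent.S59.TWGal.H60

end
-- ==== END Fermat.Agent.S59.TWGal.H60_Eig

-- ==== BEGIN Fermat.Agent.S59.TWH.AbsLG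
section

/-!
# S59, package TW-HECKE: the abstract fixed-point lemmas (ABS-FP of `NOTES/plan/S59_TWH.md`)

`Δ` is a `p`-group acting on a finite abelian `p`-group `V` (in the application
`V = J_H[p^k]_𝔪`, `Δ = Gal(X_H / X₀(NQ))`).

* `eq_bot_of_fixedPoints` : a `Δ`-stable subgroup of `V` without nonzero `Δ`-fixed element is `0`.
* `eq_zero_of_range_le` : consequences for operators whose image lies in such a subgroup
  (torsion injectivity, unramifiedness and the Eichler–Shimura relation at good primes).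
* `absLG` : local–global compatibility at a Taylor–Wiles prime `q`, in abstract form: inertia acts
  trivially on the generalised eigenspace `φ = U_q` of a Frobenius lift `φ`.

No `sorry`; only Mathlib is used.
-/

set_option autoImplicit false

namespace Fermat.Agent.S59.TWH

open MulAction

/-- **Fixed-point lemma.** A subgroup of a finite abelian `p`-group, stable under a `p`-group `Δ`
and without nonzero `Δ`-fixed element, is zero. -/
theorem eq_bot_of_fixedPoints
    {p : ℕ} [Fact p.Prime] {Δ : Type*} [Group Δ] (hΔ : IsPGroup p Δ)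
    {V : Type*} [AddCommGroup V] [Finite V] [DistribMulAction Δ V]
    (hV : ∀ v : V, ∃ n : ℕ, (p ^ n) • v = 0)
    (Z : AddSubgroup V) (hZ : ∀ (δ : Δ) (z : V), z ∈ Z → δ • z ∈ Z)
    (h0 : ∀ z ∈ Z, (∀ δ : Δ, δ • z = z) → z = 0) : Z = ⊥ := by
  classical
  by_contra hne
  -- the action of `Δ` on `Z`
  letI : MulAction Δ Z :=
    { smul := fun δ z => ⟨δ • (z : V), hZ δ z z.2⟩
      one_smul := fun z => Subtype.ext (one_smul Δ (z : V))
      mul_smul := fun a b z => Subtype.ext (mul_smul a b (z : V)) }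
  have hsmul : ∀ (δ : Δ) (z : Z), ((δ • z : Z) : V) = δ • (z : V) := fun _ _ => rfl
  -- `Z` is a nontrivial `p`-group, so `p` divides its order
  have hZp : IsPGroup p (Multiplicative Z) := by
    intro z
    obtain ⟨n, hn⟩ := hV ((Multiplicative.toAdd z : Z) : V)
    refine ⟨n, ?_⟩
    apply Multiplicative.toAdd.injective
    rw [toAdd_pow, toAdd_one]
    exact Subtype.ext (by simpa using hn)
  have hnt : Nontrivial Z := by
    rw [AddSubgroup.nontrivial_iff_ne_bot]
    exact hne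
  haveI : Nontrivial (Multiplicative Z) := hnt
  haveI : Finite (Multiplicative Z) := inferInstanceAs (Finite Z)
  obtain ⟨n, hn0, hn⟩ := hZp.nontrivial_iff_card.mp inferInstance
  have hcard : Nat.card Z = p ^ n := by
    rw [← hn]; exact Nat.card_congr Multiplicative.ofAdd
  have hdvd : p ∣ Nat.card Z := hcard ▸ dvd_pow_self p (ne_of_gt hn0)
  have hfix0 : (0 : Z) ∈ fixedPoints Δ Z := by
    intro δ
    apply Subtype.ext
    rw [hsmul]
    simp
  obtain ⟨b, hb, hb0⟩ := hΔ.exists_fixed_point_of_prime_dvd_card_of_fixed_point Z hdvd hfix0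
  apply hb0
  apply Subtype.ext
  have := h0 (b : V) b.2 (fun δ => by
    have := hb δ
    rw [← hsmul, this])
  simpa using this.symm

/-- If the image of an additive endomorphism `E` commuting with `Δ` lies in a `Δ`-stable subgroup
`Z` without nonzero fixed element, then `E = 0`.  (Good primes: `Z` = kernel of the reduction map,
`E = σ - 1` for `σ` in inertia, or `E = φ² - T_ℓ φ + ℓ⟨ℓ⟩`.) -/
theorem eq_zero_of_range_le
    {p : ℕ} [Fact p.Prime] {Δ : Type*} [Group Δ] (hΔ : IsPGroup p Δ)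
    {V : Type*} [AddCommGroup V] [Finite V] [DistribMulAction Δ V]
    (hV : ∀ v : V, ∃ n : ℕ, (p ^ n) • v = 0)
    (Z : AddSubgroup V) (hZ : ∀ (δ : Δ) (z : V), z ∈ Z → δ • z ∈ Z)
    (h0 : ∀ z ∈ Z, (∀ δ : Δ, δ • z = z) → z = 0)
    (E : V →+ V) (hE : ∀ v : V, E v ∈ Z) (v : V) : E v = 0 := by
  have h := eq_bot_of_fixedPoints hΔ hV Z hZ h0
  have := hE v
  rw [h] at this
  exact (AddSubgroup.mem_bot).mp this

section absLG

variable {R : Type*} [CommRing R] {V : Type*} [AddCommGroup V] [Module R V]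

/-- The submodule of the elements killed by `𝔪 ^ i`. -/
def killedBy (𝔪 : Ideal R) (V : Type*) [AddCommGroup V] [Module R V] (i : ℕ) : Submodule R V where
  carrier := {v | ∀ r ∈ 𝔪 ^ i, r • v = 0}
  add_mem' := by
    intro a b ha hb r hr
    rw [smul_add, ha r hr, hb r hr, add_zero]
  zero_mem' := by intro r _; exact smul_zero r
  smul_mem' := by
    intro c x hx r hr
    rw [smul_comm, hx r hr, smul_zero]

theorem mem_killedBy {𝔪 : Ideal R} {i : ℕ} {v : V} :
    v ∈ killedBy 𝔪 V i ↔ ∀ r ∈ 𝔪 ^ i, r • v = 0 := Iff.rfl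

theorem killedBy_zero (𝔪 : Ideal R) : killedBy 𝔪 V 0 = ⊥ := by
  rw [eq_bot_iff]
  intro v hv
  have := hv 1 (by simp)
  simpa using this

theorem map_mem_killedBy {𝔪 : Ideal R} {i : ℕ} (f : V →ₗ[R] V) {v : V}
    (hv : v ∈ killedBy 𝔪 V i) : f v ∈ killedBy 𝔪 V i := by
  intro r hr
  rw [← map_smul, hv r hr, map_zero]

/-- `σ - 1` lowers the filtration if `σ` is trivial on the elements killed by `𝔪`. -/
theorem sub_mem_killedBy {𝔪 : Ideal R} (σ : V →ₗ[R] V)
    (h6b : ∀ v : V, (∀ r ∈ 𝔪, r • v = 0) → σ v = v) {i : ℕ} {v : V}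
    (hv : v ∈ killedBy 𝔪 V (i + 1)) : σ v - v ∈ killedBy 𝔪 V i := by
  intro r hr
  rw [smul_sub, ← map_smul, sub_eq_zero]
  apply h6b
  intro s hs
  rw [smul_smul]
  apply hv
  rw [pow_succ']
  exact Ideal.mul_mem_mul hs hr

/-- multiplication by an element of `𝔪` lowers the filtration. -/
theorem smul_mem_killedBy {𝔪 : Ideal R} {a : R} (ha : a ∈ 𝔪) {i : ℕ} {v : V}
    (hv : v ∈ killedBy 𝔪 V (i + 1)) : a • v ∈ killedBy 𝔪 V i := by
  intro r hr
  rw [smul_smul]
  apply hv
  rw [pow_succ]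
  exact Ideal.mul_mem_mul hr ha

/-- `σ^j w - w ≡ j (σ w - w)` modulo `F i` if `σ w - w ∈ F (i+1)`. -/
theorem pow_sub_mem_killedBy {𝔪 : Ideal R} (σ : V →ₗ[R] V)
    (h6b : ∀ v : V, (∀ r ∈ 𝔪, r • v = 0) → σ v = v) {i : ℕ} {w : V}
    (hw : σ w - w ∈ killedBy 𝔪 V (i + 1)) (j : ℕ) :
    (σ ^ j) w - w - (j : R) • (σ w - w) ∈ killedBy 𝔪 V i := by
  induction j with
  | zero => simp
  | succ j ih =>
    have h1 := map_mem_killedBy σ ih
    have h2 := sub_mem_killedBy σ h6b hw
    have h3 := (killedBy 𝔪 V i).smul_mem (j : R) h2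
    have h4 := (killedBy 𝔪 V i).add_mem h1 h3
    have e : (σ ^ (j + 1)) w - w - ((j + 1 : ℕ) : R) • (σ w - w)
        = σ ((σ ^ j) w - w - (j : R) • (σ w - w)) + (j : R) • (σ (σ w - w) - (σ w - w)) := by
      rw [pow_succ', Module.End.mul_apply]
      simp only [map_sub, map_smul, Nat.cast_succ, add_smul, one_smul, smul_sub]
      abel
    rw [e]
    exact h4

/-- `σ^q w - σ w ∈ F i` if `σ w - w ∈ F (i+1)` and `q ≡ 1` mod `𝔪`. -/
theorem pow_sub_self_mem_killedBy {𝔪 : Ideal R} (σ : V →ₗ[R] V)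
    (h6b : ∀ v : V, (∀ r ∈ 𝔪, r • v = 0) → σ v = v) {q : ℕ} (h6a : (q : R) - 1 ∈ 𝔪)
    {i : ℕ} {w : V} (hw : σ w - w ∈ killedBy 𝔪 V (i + 1)) :
    (σ ^ q) w - σ w ∈ killedBy 𝔪 V i := by
  have h1 := pow_sub_mem_killedBy σ h6b hw q
  have h2 := smul_mem_killedBy h6a hw
  have e : (σ ^ q) w - σ w
      = ((σ ^ q) w - w - (q : R) • (σ w - w)) + ((q : R) - 1) • (σ w - w) := by
    simp only [sub_smul, one_smul, smul_sub]
    abel
  rw [e]
  exact (killedBy 𝔪 V i).add_mem h1 h2


/-- `B = φ - u` commutes with `Δ`, and so do its powers. -/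
theorem pow_smul_comm {Δ : Type*} [Group Δ] [DistribMulAction Δ V]
    (B : V →ₗ[R] V) (hB : ∀ (δ : Δ) (v : V), B (δ • v) = δ • B v) (N : ℕ) (δ : Δ) (v : V) :
    (B ^ N) (δ • v) = δ • (B ^ N) v := by
  induction N generalizing v with
  | zero => simp
  | succ N ih =>
    rw [pow_succ, Module.End.mul_apply, Module.End.mul_apply, hB, ih]

/-- if `z = a • B z` then `z = a ^ N • B ^ N z`. -/
theorem eq_pow_smul_pow (B : V →ₗ[R] V) (a : R) (z : V) (hz : z = a • B z) (N : ℕ) :
    z = a ^ N • (B ^ N) z := by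
  induction N with
  | zero => simp
  | succ N ih =>
    have h1 : (B ^ (N + 1)) z = (B ^ N) (B z) := by
      rw [pow_succ, Module.End.mul_apply]
    calc z = a ^ N • (B ^ N) z := ih
      _ = a ^ N • (B ^ N) (a • B z) := by rw [← hz]
      _ = a ^ (N + 1) • (B ^ (N + 1)) z := by
        rw [h1, pow_succ, mul_smul, map_smul]

/-- **Abstract local–global compatibility at a Taylor–Wiles prime.**

`V` is a finite module over the (Hecke) ring `R`, a `p`-group, with an action of the `p`-group `Δ`;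
`φ` is a Frobenius lift at `q`, `σ` an element of inertia at `q`, `u = U_q`, `K ⊆ V` the kernel of
the reduction map, `𝔪` the maximal ideal.  Hypotheses:

* `h1`  : `(σ - 1) V ⊆ K` (the reduction map is inertia-invariant);
* `h4`  : `U_q φ = q` on the `Δ`-fixed part of `K` (computed at level `Γ₀(NQ)`, on the old part);
* `h5`  : `u² - q` is a unit (`α ≠ β`, `αβ = q`);
* `h6a` : `q ≡ 1` modulo `𝔪`;  `h6b` : `σ` is trivial on `V[𝔪]` (`ρ̄` is unramified at `q`);
* `h7`  : the tame relation `φ σ = σ^q φ`.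

Conclusion: on the generalised eigenspace `φ = U_q` of `V`, inertia acts trivially, and this
eigenspace meets `K` trivially. -/
theorem absLG
    {p : ℕ} [Fact p.Prime] {Δ : Type*} [Group Δ] (hΔ : IsPGroup p Δ)
    [Finite V] [DistribMulAction Δ V]
    (hV : ∀ v : V, ∃ n : ℕ, (p ^ n) • v = 0)
    (φ σ : V →ₗ[R] V) (u : R) (q : ℕ) (𝔪 : Ideal R) (n : ℕ)
    (h𝔪 : ∀ r ∈ 𝔪 ^ n, ∀ v : V, r • v = 0)
    (K : Submodule R V)
    (hKΔ : ∀ (δ : Δ) (x : V), x ∈ K → δ • x ∈ K)
    (hKφ : ∀ x ∈ K, φ x ∈ K)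
    (hφΔ : ∀ (δ : Δ) (v : V), φ (δ • v) = δ • φ v)
    (huΔ : ∀ (δ : Δ) (v : V), δ • (u • v) = u • (δ • v))
    (h1 : ∀ v, σ v - v ∈ K)
    (h4 : ∀ x ∈ K, (∀ δ : Δ, δ • x = x) → u • φ x = (q : R) • x)
    (h5 : IsUnit (u ^ 2 - (q : R)))
    (h6a : (q : R) - 1 ∈ 𝔪)
    (h6b : ∀ v : V, (∀ r ∈ 𝔪, r • v = 0) → σ v = v)
    (h7 : ∀ v, φ (σ v) = (σ ^ q) (φ v))
    (v : V) (N : ℕ) (hv : ((φ - u • LinearMap.id : V →ₗ[R] V) ^ N) v = 0) :
    σ v = v ∧ (v ∈ K → v = 0) := by
  classical
  set B : V →ₗ[R] V := φ - u • LinearMap.id with hBdef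
  have hBapp : ∀ x, B x = φ x - u • x := fun x => by
    simp [hBdef]
  have hBΔ : ∀ (δ : Δ) (x : V), B (δ • x) = δ • B x := by
    intro δ x
    rw [hBapp, hBapp, hφΔ, smul_sub, huΔ]
  have hBK : ∀ x ∈ K, B x ∈ K := by
    intro x hx
    rw [hBapp]
    exact K.sub_mem (hKφ x hx) (K.smul_mem u hx)
  -- Step A: `K ∩ ker B^M = 0`
  have hA : ∀ (M : ℕ) (x : V), x ∈ K → (B ^ M) x = 0 → x = 0 := by
    intro M
    have hbot : (K ⊓ LinearMap.ker (B ^ M)).toAddSubgroup = ⊥ := by
      apply eq_bot_of_fixedPoints hΔ hV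
      · intro δ z hz
        have hz' : z ∈ K ⊓ LinearMap.ker (B ^ M) := hz
        rw [Submodule.mem_inf, LinearMap.mem_ker] at hz'
        show δ • z ∈ K ⊓ LinearMap.ker (B ^ M)
        rw [Submodule.mem_inf, LinearMap.mem_ker]
        refine ⟨hKΔ δ z hz'.1, ?_⟩
        rw [pow_smul_comm B hBΔ, hz'.2, smul_zero]
      · intro z hz hfix
        have hz' : z ∈ K ⊓ LinearMap.ker (B ^ M) := hz
        rw [Submodule.mem_inf, LinearMap.mem_ker] at hz'
        obtain ⟨c, hc⟩ := h5
        have h := h4 z hz'.1 hfix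
        have hcz : (c : R) • z = -(u • B z) := by
          rw [hc, hBapp, smul_sub, h, sub_smul, smul_smul, pow_two]
          abel
        have hz2 : z = (-(((c⁻¹ : Rˣ) : R) * u)) • B z := by
          calc z = ((c⁻¹ : Rˣ) : R) • ((c : R) • z) := by
                rw [smul_smul, Units.inv_mul, one_smul]
            _ = (-(((c⁻¹ : Rˣ) : R) * u)) • B z := by
                rw [hcz, smul_neg, neg_smul, mul_smul]
        have := eq_pow_smul_pow B _ z hz2 M
        rw [hz'.2, smul_zero] at this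
        exact this
    intro x hxK hx
    have : x ∈ (K ⊓ LinearMap.ker (B ^ M)).toAddSubgroup := by
      show x ∈ K ⊓ LinearMap.ker (B ^ M)
      rw [Submodule.mem_inf, LinearMap.mem_ker]
      exact ⟨hxK, hx⟩
    rw [hbot] at this
    exact (AddSubgroup.mem_bot).mp this
  refine ⟨?_, fun hvK => hA N v hvK hv⟩
  -- Step B: `x ∈ K`, `B x ∈ F i` imply `x ∈ F i`
  have hB : ∀ (i : ℕ) (x : V), x ∈ K → B x ∈ killedBy 𝔪 V i → x ∈ killedBy 𝔪 V i := by
    intro i x hxK hBx
    have hstab : ∀ y ∈ K ⊓ killedBy 𝔪 V i, B y ∈ K ⊓ killedBy 𝔪 V i := by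
      intro y hy
      rw [Submodule.mem_inf] at hy ⊢
      exact ⟨hBK y hy.1, map_mem_killedBy B hy.2⟩
    have hinj : Function.Injective (B.restrict hstab) := by
      rw [injective_iff_map_eq_zero]
      intro y hy
      have hy' : B (y : V) = 0 := by
        have := congrArg Subtype.val hy
        simpa using this
      apply Subtype.ext
      have hyK : (y : V) ∈ K := (Submodule.mem_inf.mp y.2).1
      have := hA 1 (y : V) hyK (by simpa using hy')
      simpa using this
    have hsurj : Function.Surjective (B.restrict hstab) :=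
      Finite.injective_iff_surjective.mp hinj
    obtain ⟨w, hw⟩ := hsurj ⟨B x, Submodule.mem_inf.mpr ⟨hBK x hxK, hBx⟩⟩
    have hw' : B (w : V) = B x := by
      have := congrArg Subtype.val hw
      simpa using this
    have hwK : (w : V) ∈ K := (Submodule.mem_inf.mp w.2).1
    have hwx : (w : V) - x = 0 := by
      apply hA 1 _ (K.sub_mem hwK hxK)
      simp [hw']
    have : x = (w : V) := (sub_eq_zero.mp hwx).symm
    rw [this]
    exact (Submodule.mem_inf.mp w.2).2
  -- Step D: the key identity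
  have hkey : ∀ x : V, B (σ x - x) = (σ (B x) - B x) + ((σ ^ q) (φ x) - σ (φ x)) := by
    intro x
    rw [hBapp, hBapp, map_sub, h7]
    simp only [map_sub, map_smul, smul_sub]
    abel
  have hφB : ∀ (M : ℕ) (x : V), (B ^ M) x = 0 → (B ^ M) (φ x) = 0 := by
    intro M x hx
    have hcomm : Commute φ B := by
      rw [hBdef]
      apply Commute.sub_right (Commute.refl φ)
      apply Commute.smul_right
      exact Commute.one_right φ
    have := (hcomm.pow_right M).eq
    have h2 : (B ^ M) (φ x) = φ ((B ^ M) x) := by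
      have := congrArg (fun f : Module.End R V => f x) this
      simpa [Module.End.mul_apply] using this.symm
    rw [h2, hx, map_zero]
  -- descending induction
  have hclaim : ∀ (j : ℕ), j ≤ n → ∀ (M : ℕ) (x : V), (B ^ M) x = 0 →
      σ x - x ∈ killedBy 𝔪 V (n - j) := by
    intro j
    induction j with
    | zero =>
      intro _ M x _ r hr
      exact h𝔪 r hr _
    | succ j ih =>
      intro hj M
      have hij : n - j = (n - (j + 1)) + 1 := by omega
      have ih' := ih (by omega)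
      rw [hij] at ih'
      induction M with
      | zero =>
        intro x hx
        have : x = 0 := by simpa using hx
        rw [this]
        simp
      | succ M ihM =>
        intro x hx
        apply hB _ _ (h1 x)
        rw [hkey]
        apply Submodule.add_mem
        · apply ihM
          rw [← Module.End.mul_apply, ← pow_succ]
          exact hx
        · apply pow_sub_self_mem_killedBy σ h6b h6a
          exact ih' (M + 1) (φ x) (hφB _ _ hx)
  have := hclaim n le_rfl N v hv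
  rw [Nat.sub_self, killedBy_zero] at this
  exact sub_eq_zero.mp ((Submodule.mem_bot R).mp this)

end absLG

end Fermat.Agent.S59.TWH

end
-- ==== END Fermat.Agent.S59.TWH.AbsLG

-- ==== BEGIN Fermat.Agent.S59.TWH.H14_OLift
section

/-!
# S59 TW-HECKE leaf O-LIFT (helper14)

Lifting a basis from the residue field: for a local ring `𝒪` and a finite flat (e.g. finite free)
`𝒪`-module `M`, a finite family `v : X → M` whose reduction is a `k`-basis of `M / 𝔪 M`
is an `𝒪`-basis of `M`.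

* `olift_of_mod` : hypotheses stated elementwise modulo `𝔪 • ⊤`.
* `olift` : hypotheses stated through a reduction map `red : M →ₗ[𝒪] V` to a module `V` over a
  field `k` with `𝒪 ↠ k` and `ker red ≤ 𝔪 • ⊤` (`red` need not be surjective).
* `olift_smul` : the same for a module over an `𝒪`-algebra `A`, in the shape
  `∑ x, (algebraMap 𝒪 A (f x) * u x) • b x`.
All conclusions have the shape `Function.Bijective (fun f : X → 𝒪 => ∑ x, f x • v x)`.
-/

set_option autoImplicit false

open IsLocalRing TensorProduct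

namespace Fermat.Agent.S59.TWH.H14

variable {𝒪 : Type*} [CommRing 𝒪] [IsLocalRing 𝒪]
  {M : Type*} [AddCommGroup M] [Module 𝒪 M] [Module.Finite 𝒪 M] [Module.Flat 𝒪 M]
  {X : Type*} [Fintype X]

omit [Module.Finite 𝒪 M] in
theorem linearIndependent_of_mod (v : X → M)
    (hind : ∀ f : X → 𝒪, ∑ x, f x • v x ∈ (maximalIdeal 𝒪 • ⊤ : Submodule 𝒪 M) →
      ∀ x, f x ∈ maximalIdeal 𝒪) : LinearIndependent 𝒪 v := by
  classical
  apply Module.IsLocalRing.linearIndependent_of_flat
  rw [Fintype.linearIndependent_iff]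
  intro g hg x
  have h1 : ∀ x, ∃ a : 𝒪, residue 𝒪 a = g x := fun x => residue_surjective (g x)
  choose f hf using h1
  have h2 : ∑ x, g x • (TensorProduct.mk 𝒪 (ResidueField 𝒪) M 1 ∘ v) x
      = TensorProduct.mk 𝒪 (ResidueField 𝒪) M 1 (∑ x, f x • v x) := by
    rw [map_sum]
    refine Finset.sum_congr rfl fun x _ => ?_
    rw [Function.comp_apply, TensorProduct.mk_apply, TensorProduct.mk_apply,
      TensorProduct.smul_tmul', ← hf x, TensorProduct.tmul_smul, TensorProduct.smul_tmul',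
      smul_eq_mul, mul_one, Algebra.smul_def, mul_one]
    rfl
  rw [h2] at hg
  have h3 : ∑ x, f x • v x ∈ LinearMap.ker (TensorProduct.mk 𝒪 (𝒪 ⧸ maximalIdeal 𝒪) M 1) := hg
  rw [LinearMap.ker_tensorProductMk] at h3
  have h4 := hind f h3 x
  rw [← hf x]
  exact (residue_eq_zero_iff _).mpr h4

omit [Module.Flat 𝒪 M] in
theorem span_eq_top_of_mod (v : X → M)
    (hspan : ∀ m : M, ∃ f : X → 𝒪, m - ∑ x, f x • v x ∈ (maximalIdeal 𝒪 • ⊤ : Submodule 𝒪 M)) :
    Submodule.span 𝒪 (Set.range v) = ⊤ := by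
  rw [← IsLocalRing.map_mkQ_eq_top, eq_top_iff]
  rintro y -
  obtain ⟨m, rfl⟩ := Submodule.mkQ_surjective _ y
  obtain ⟨f, hf⟩ := hspan m
  refine ⟨∑ x, f x • v x, ?_, ?_⟩
  · exact Submodule.sum_mem _ fun x _ =>
      Submodule.smul_mem _ _ (Submodule.subset_span ⟨x, rfl⟩)
  · rw [Submodule.mkQ_apply, Submodule.mkQ_apply, eq_comm, Submodule.Quotient.eq]
    exact hf

/-- **O-LIFT**, elementwise form. -/
theorem olift_of_mod (v : X → M)
    (hspan : ∀ m : M, ∃ f : X → 𝒪, m - ∑ x, f x • v x ∈ (maximalIdeal 𝒪 • ⊤ : Submodule 𝒪 M))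
    (hind : ∀ f : X → 𝒪, ∑ x, f x • v x ∈ (maximalIdeal 𝒪 • ⊤ : Submodule 𝒪 M) →
      ∀ x, f x ∈ maximalIdeal 𝒪) :
    Function.Bijective (fun f : X → 𝒪 => ∑ x, f x • v x) := by
  classical
  constructor
  · have h := linearIndependent_of_mod v hind
    rw [Fintype.linearIndependent_iff] at h
    intro f g hfg
    have h1 : ∑ x, (f - g) x • v x = 0 := by
      simp only [Pi.sub_apply, sub_smul, Finset.sum_sub_distrib]
      exact sub_eq_zero.mpr hfg
    funext x
    exact sub_eq_zero.mp (h (f - g) h1 x)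
  · intro m
    have h := span_eq_top_of_mod v hspan
    have hm : m ∈ Submodule.span 𝒪 (Set.range v) := h ▸ Submodule.mem_top
    obtain ⟨f, hf⟩ := (Submodule.mem_span_range_iff_exists_fun 𝒪).mp hm
    exact ⟨f, hf⟩

/-- **O-LIFT**, through a reduction map `red : M → V` with `V` a vector space over the residue
field `k` (any field with `𝒪 ↠ k`), `ker red ≤ 𝔪 • ⊤`. -/
theorem olift {k : Type*} [Field k] [Algebra 𝒪 k] (hk : Function.Surjective (algebraMap 𝒪 k))
    {V : Type*} [AddCommGroup V] [Module 𝒪 V] [Module k V] [IsScalarTower 𝒪 k V]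
    (red : M →ₗ[𝒪] V)
    (hker : ∀ m, red m = 0 → m ∈ (maximalIdeal 𝒪 • ⊤ : Submodule 𝒪 M))
    (v : X → M)
    (h : Function.Bijective (fun f : X → k => ∑ x, f x • red (v x))) :
    Function.Bijective (fun f : X → 𝒪 => ∑ x, f x • v x) := by
  classical
  have hm0 : ∀ a ∈ maximalIdeal 𝒪, algebraMap 𝒪 k a = 0 := by
    intro a ha
    by_contra hne
    obtain ⟨b, hb⟩ := hk (algebraMap 𝒪 k a)⁻¹
    have h1 : algebraMap 𝒪 k (a * b - 1) = 0 := by
      rw [map_sub, map_mul, hb, map_one, mul_inv_cancel₀ hne, sub_self]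
    have h2 : a * b ∈ maximalIdeal 𝒪 := Ideal.mul_mem_right _ _ ha
    have h3 : IsUnit (a * b - 1) := by
      have : IsUnit (1 - a * b) := by
        rcases IsLocalRing.isUnit_or_isUnit_one_sub_self (a * b) with hu | hu
        · exact absurd hu ((IsLocalRing.mem_maximalIdeal _).mp h2)
        · exact hu
      have h4 : a * b - 1 = -(1 - a * b) := by ring
      rw [h4]
      exact this.neg
    have h5 := h3.map (algebraMap 𝒪 k)
    rw [h1] at h5
    exact not_isUnit_zero h5
  have hred_smul : ∀ (f : X → 𝒪), red (∑ x, f x • v x) =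
      ∑ x, (algebraMap 𝒪 k (f x)) • red (v x) := by
    intro f
    rw [map_sum]
    refine Finset.sum_congr rfl fun x _ => ?_
    rw [map_smul, algebraMap_smul]
  have hred_mem : ∀ m ∈ (maximalIdeal 𝒪 • ⊤ : Submodule 𝒪 M), red m = 0 := by
    intro m hm
    induction hm using Submodule.smul_induction_on' with
    | smul a ha n _ => rw [map_smul, ← algebraMap_smul k a (red n), hm0 a ha, zero_smul]
    | add x _ y _ hx hy => rw [map_add, hx, hy, add_zero]
  apply olift_of_mod v
  · intro m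
    obtain ⟨g, hg⟩ := h.2 (red m)
    have h1 : ∀ x, ∃ a : 𝒪, algebraMap 𝒪 k a = g x := fun x => hk (g x)
    choose f hf using h1
    refine ⟨f, hker _ ?_⟩
    rw [map_sub, hred_smul, ← hg]
    simp only [hf, sub_self]
  · intro f hf x
    have h1 := hred_mem _ hf
    rw [hred_smul] at h1
    have h2 : (fun x => algebraMap 𝒪 k (f x)) = 0 := by
      apply h.1
      simp only [Pi.zero_apply, zero_smul, Finset.sum_const_zero]
      exact h1
    have h3 : algebraMap 𝒪 k (f x) = 0 := congrFun h2 x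
    by_contra hx
    have h4 : IsUnit (f x) := by
      by_contra hu
      exact hx ((IsLocalRing.mem_maximalIdeal _).mpr hu)
    have h5 := h4.map (algebraMap 𝒪 k)
    rw [h3] at h5
    exact not_isUnit_zero h5

/-- **O-LIFT** for a module `N` over an `𝒪`-algebra `A`, in the shape of `TWLevel.b_basis`. -/
theorem olift_smul {k : Type*} [Field k] [Algebra 𝒪 k]
    (hk : Function.Surjective (algebraMap 𝒪 k))
    {A : Type*} [CommRing A] [Algebra 𝒪 A]
    {N : Type*} [AddCommGroup N] [Module A N] [Module 𝒪 N] [IsScalarTower 𝒪 A N]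
    [Module.Finite 𝒪 N] [Module.Flat 𝒪 N]
    {V : Type*} [AddCommGroup V] [Module 𝒪 V] [Module k V] [IsScalarTower 𝒪 k V]
    (red : N →ₗ[𝒪] V)
    (hker : ∀ m, red m = 0 → m ∈ (maximalIdeal 𝒪 • ⊤ : Submodule 𝒪 N))
    (u : X → A) (b : X → N)
    (h : Function.Bijective (fun f : X → k => ∑ x, f x • red (u x • b x))) :
    Function.Bijective (fun f : X → 𝒪 => ∑ x, (algebraMap 𝒪 A (f x) * u x) • b x) := by
  have h1 := olift hk red hker (fun x => u x • b x) h
  have h2 : (fun f : X → 𝒪 => ∑ x, (algebraMap 𝒪 A (f x) * u x) • b x) =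
      (fun f : X → 𝒪 => ∑ x, f x • (u x • b x)) := by
    funext f
    refine Finset.sum_congr rfl fun x _ => ?_
    rw [mul_smul, algebraMap_smul]
  rw [h2]
  exact h1

end Fermat.Agent.S59.TWH.H14

end
-- ==== END Fermat.Agent.S59.TWH.H14_OLift

-- ==== BEGIN Fermat.Agent.Tate.H4_T2
section

set_option autoImplicit false

namespace Fermat.Agent.Tate.H4

/-- **T2**: the determinant of the Tate module is the cyclotomic character. -/
theorem stmt_T2 : Stmt_T2 :=
  stmt_T2_of_T3c Fermat.Agent.Tate.H7.stmt_T3c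

end Fermat.Agent.Tate.H4

end
-- ==== END Fermat.Agent.Tate.H4_T2

-- ==== BEGIN Fermat.Agent.Tate.H4_Unram
section

set_option autoImplicit false

namespace Fermat.Agent.Tate.H4

open WeierstrassCurve WeierstrassCurve.Affine IsLocalRing
open Fermat.Agent.Lib.EllFinite Fermat.Agent.Lib.EllFinite.H4 Fermat.Agent.Lib.EllFinite.H46

/-- Elements of the inertia group lie in the decomposition group and act trivially modulo the
maximal ideal. -/
theorem of_mem_inertiaSubgroupIn {K L : Type*} [Field K] [Field L] [Algebra K L]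
    (A : ValuationSubring L) {σ : L ≃ₐ[K] L} (hσ : σ ∈ A.inertiaSubgroupIn K) :
    σ ∈ A.decompositionSubgroup K ∧ ∀ a : A, residue A
      ((⟨σ, by obtain ⟨g, _, rfl⟩ := hσ; exact g.2⟩ : A.decompositionSubgroup K) • a)
        = residue A a := by
  obtain ⟨g, hg, rfl⟩ := hσ
  refine ⟨g.2, fun a => ?_⟩
  have h2 := congrArg (fun e : RingAut (ResidueField A) => e (residue A a))
    (MonoidHom.mem_ker.mp hg)
  rw [ResidueField.residue_smul]
  exact h2

section Inertia

variable (W : WeierstrassCurve ℤ) (A : ValuationSubring QbarE) [DecidableEq (ResidueField A)]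

/-- Reduction on `E(Q̄)` at a valuation subring `A` of `Q̄`. -/
noncomputable def redQ (hΔ : (Ek A (WA W A)).Δ ≠ 0) : EQbar W →+ (Ek A (WA W A)).Point :=
  (red A (WA W A) hΔ).comp (pointCongr (EF_WA_eq W A).symm).toAddMonoidHom

variable {W A}

lemma redQ_apply (hΔ : (Ek A (WA W A)).Δ ≠ 0) (P : EQbar W) :
    redQ W A hΔ P = red A (WA W A) hΔ (pointCongr (EF_WA_eq W A).symm P) := rfl

/-- **Inertia acts trivially after reduction.** -/
theorem redQ_inertia (hΔ : (Ek A (WA W A)).Δ ≠ 0) {σ : QbarE ≃ₐ[ℚ] QbarE}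
    (hσ : σ ∈ A.inertiaSubgroupIn ℚ) (P : EQbar W) :
    redQ W A hΔ (σ • P) = redQ W A hΔ P := by
  obtain ⟨hσ', hres⟩ := of_mem_inertiaSubgroupIn A hσ
  rcases P with _ | ⟨x, y, h⟩
  · rfl
  · rw [Point.algEquiv_smul_def, Point.map_some, redQ_apply, redQ_apply, pointCongr_some,
      pointCongr_some]
    by_cases hx : A.valuation x ≤ 1
    · obtain ⟨a, b, rfl, rfl⟩ := exists_coe_of_le (W := WA W A) ((EF_WA_eq W A).symm ▸ h) hx
      set g : A.decompositionSubgroup ℚ := ⟨σ, hσ'⟩ with hg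
      have h1 : ∀ hh, red A (WA W A) hΔ
          (Point.some (σ.toAlgHom (a : QbarE)) (σ.toAlgHom (b : QbarE)) hh)
          = .some (residue A (g • a)) (residue A (g • b))
              (nonsingular_res hΔ (a := g • a) (b := g • b) hh.1) :=
        fun hh => red_some_coe hΔ (g • a) (g • b) hh
      rw [h1, red_some_coe]
      exact some_eq_some _ _ (hres a) (hres b)
    · have hx1 : 1 < A.valuation x := not_le.1 hx
      have hx2 : 1 < A.valuation (σ x) :=
        not_le.1 (fun h' => hx ((val_le_one_iff_of_mem_decomp hσ').1 h'))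
      have h1 : ∀ hh, red A (WA W A) hΔ (Point.some (σ.toAlgHom x) (σ.toAlgHom y) hh) = 0 :=
        fun hh => red_some_of_lt hΔ hh hx2
      rw [red_some_of_lt hΔ _ hx1, h1]

/-- **Inertia at a good prime fixes the torsion points of order prime to the residue
characteristic.** -/
theorem inertia_smul_eq_of_torsion (hΔ : (Ek A (WA W A)).Δ ≠ 0) {σ : QbarE ≃ₐ[ℚ] QbarE}
    (hσ : σ ∈ A.inertiaSubgroupIn ℚ) {n : ℕ} (hn : (n : ResidueField A) ≠ 0)
    (P : EQbar W) (hP : n • P = 0) : σ • P = P := by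
  have h1 : redQ W A hΔ (σ • P - P) = 0 := by
    rw [map_sub, redQ_inertia hΔ hσ, sub_self]
  have h2 : n • (σ • P - P) = 0 := by
    have : n • (σ • P) = σ • (n • P) := by
      rw [← natCast_zsmul, ← natCast_zsmul, Point.algEquiv_smul_zsmul]
    rw [nsmul_sub, this, hP, sub_zero]
    rfl
  have h3 : pointCongr (EF_WA_eq W A).symm (σ • P - P) = 0 := by
    refine eq_zero_of_red_eq_zero hΔ hn ?_ h1
    rw [← map_nsmul, h2, map_zero]
  have h4 : σ • P - P = 0 := by
    have := congrArg (pointCongr (EF_WA_eq W A).symm).symm h3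
    simpa using this
  exact sub_eq_zero.1 h4

end Inertia

section Bridge

variable {W : WeierstrassCurve ℤ} {p : ℕ} [Fact p.Prime]

/-- A vector of the Tate module which dies at every level is zero. -/
theorem eq_zero_of_lev_eq_zero (D : TateData W p) {v : D.ρ.V} (h : ∀ k, D.lev k v = 0) :
    v = 0 := by
  have hI : (Ideal.span {(p : ℤ_[p])}) ≠ ⊤ := by
    rw [Ne, Ideal.span_singleton_eq_top]
    exact PadicInt.prime_p.not_isUnit
  have hbot := Ideal.iInf_pow_smul_eq_bot_of_isLocalRing (R := ℤ_[p]) (M := D.ρ.V)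
    (Ideal.span {(p : ℤ_[p])}) hI
  have hv : v ∈ (⨅ i : ℕ, (Ideal.span {(p : ℤ_[p])}) ^ i • ⊤ : Submodule ℤ_[p] D.ρ.V) := by
    rw [Submodule.mem_iInf]
    intro k
    obtain ⟨w, rfl⟩ := D.lev_ker k v (h k)
    refine Submodule.smul_mem_smul ?_ Submodule.mem_top
    rw [Ideal.span_singleton_pow]
    exact Ideal.mem_span_singleton_self _
  rw [hbot] at hv
  exact (Submodule.mem_bot _).1 hv

end Bridge

/-- **T3u**: the Tate module is unramified at the good primes `q ≠ p`. -/
theorem stmt_T3u : Stmt_T3u := by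
  classical
  intro W _ p _ D q hq hqp hgood A hA σ hσ
  have hp : p.Prime := Fact.out
  have hΔ : (Ek A (WA W A)).Δ ≠ 0 := Ek_WA_Δ_ne_zero W A hq hA hgood
  have hchar : CharP (ResidueField A) q := charP_residueField A hq hA
  have hpk : ∀ k : ℕ, ((p ^ k : ℕ) : ResidueField A) ≠ 0 := by
    intro k
    rw [Nat.cast_pow]
    exact pow_ne_zero _ (natCast_residue_ne_zero hq hp (Ne.symm hqp) hA)
  refine LinearMap.ext fun v => ?_
  rw [Module.End.one_apply]
  have key : ∀ k, D.lev k (D.ρ.ρ σ v - v) = 0 := by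
    intro k
    rw [map_sub, D.lev_equiv, sub_eq_zero]
    exact inertia_smul_eq_of_torsion hΔ hσ (hpk k) (D.lev k v) (D.lev_tors k v)
  exact sub_eq_zero.1 (eq_zero_of_lev_eq_zero D key)

end Fermat.Agent.Tate.H4

end
-- ==== END Fermat.Agent.Tate.H4_Unram

-- ==== BEGIN Fermat.Agent.Tate.T5.H4_AsmDefs
section

set_option autoImplicit false

namespace Fermat.Agent.Tate.T5.H4

open WeierstrassCurve WeierstrassCurve.Affine
open Fermat.Agent.Tate Fermat.Agent.Tate.T5.H46

/-- The curve over `Q̄`. -/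
noncomputable abbrev WQbar (W : WeierstrassCurve ℤ) : Affine (AlgebraicClosure ℚ) :=
  (W.map (Int.castRingHom ℚ)).toAffine⁄(AlgebraicClosure ℚ)

/-- The denominator of the complete addition law at a pair of points of `E(Q̄)`. -/
noncomputable def denom (W : WeierstrassCurve ℤ) (P Q : EQbar W) : AlgebraicClosure ℚ :=
  lawD (WQbar W).b₂ (WQbar W).b₄ (WQbar W).b₆ (zc P) (wc P) (zc Q) (wc Q)

/-- **C** (valuations): integrality of the chart on the `p^k`-torsion and of the inverse of the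
denominator of the addition law, at a valuation subring over a good odd prime `p`. -/
def Stmt_C : Prop :=
  ∀ (W : WeierstrassCurve ℤ), W.Δ ≠ 0 → ∀ (p : ℕ), p.Prime → p ≠ 2 → W.IsGoodPrimeFor p →
    ∀ (A : ValuationSubring (AlgebraicClosure ℚ)), A.LiesOverPrime p →
      ∀ (k : ℕ) (P Q : EQbar W), (p ^ k) • P = 0 → (p ^ k) • Q = 0 →
        zc P ∈ A ∧ wc P ∈ A ∧ (denom W P Q)⁻¹ ∈ A

/-- **T5** for odd `p`: flat at `p` if `p` is good. -/
def Stmt_T5odd : Prop :=
  ∀ (W : WeierstrassCurve ℤ), W.Δ ≠ 0 → ∀ (p : ℕ) [Fact p.Prime], p ≠ 2 → ∀ (D : TateData W p),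
    W.IsGoodPrimeFor p → D.ρ.IsFlatAt p

end Fermat.Agent.Tate.T5.H4

end
-- ==== END Fermat.Agent.Tate.T5.H4_AsmDefs

-- ==== BEGIN Fermat.Agent.Tate.T6.Comp
section

set_option autoImplicit false

open WeierstrassCurve WeierstrassCurve.Affine

namespace Fermat.Agent.Tate.T6

open Fermat.Agent.S05 Fermat.Agent.S52.H5

section branch

variable {L : Type*} [Field L] {A : ValuationSubring L}

/-- The branch `|y - γ x| < |x|` goes to the branch of `γ' ≡ σ γ` under a shifted valuation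
preserving map. -/
lemma branch_shift_gen {σ : L →+* L} (hσv : ∀ x, A.valuation (σ x) = A.valuation x)
    {x y x' y' γ γ' : L} {r : A.ValueGroup} (hx : A.valuation (x' - σ x) ≤ r)
    (hy : A.valuation (y' - σ y) ≤ r) (hr : r < A.valuation x) (hγ' : A.valuation γ' ≤ 1)
    (hγγ' : A.valuation (σ γ - γ') < 1) (hbr : A.valuation (y - γ * x) < A.valuation x) :
    A.valuation (y' - γ' * x') < A.valuation x' := by
  rw [val_shift_eq hσv hx hr]
  have hxpos : 0 < A.valuation x := lt_of_le_of_lt zero_le hr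
  have e : y' - γ' * x' = σ (y - γ * x) + (σ γ - γ') * σ x + (y' - σ y) - γ' * (x' - σ x) := by
    rw [map_sub, map_mul]; ring
  rw [e]
  refine Valuation.map_sub_lt _ (Valuation.map_add_lt _ (Valuation.map_add_lt _ ?_ ?_) ?_) ?_
  · rw [hσv]; exact hbr
  · rw [map_mul, hσv]
    calc A.valuation (σ γ - γ') * A.valuation x < 1 * A.valuation x :=
          mul_lt_mul_of_pos_right hγγ' hxpos
      _ = A.valuation x := one_mul _
  · exact lt_of_le_of_lt hy hr
  · rw [map_mul]
    calc A.valuation γ' * A.valuation (x' - σ x) ≤ 1 * A.valuation (x' - σ x) := by gcongr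
      _ = A.valuation (x' - σ x) := one_mul _
      _ ≤ r := hx
      _ < A.valuation x := hr

end branch

section comp

variable {L : Type*} [Field L] [DecidableEq L]

/-- `σ β ≡ β`: the component map is invariant. -/
theorem compMap_shiftVal_pos (A : ValuationSubring L) (W : Affine L) (hyp : ModelHyp A W)
    (hb : A.valuation W.a₄ < 1) (β : L) (hβ : β ^ 2 = W.a₂)
    (σ : L →+* L) (s : W.Point →+ W.Point) (hs : ShiftedVal A W σ s)
    (hσβ : A.valuation (σ β - β) < 1) (P : W.Point) :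
    M1.compMap hyp β (s P) = M1.compMap hyp β P := by
  rcases P with _ | ⟨x, y, h⟩
  · show M1.compMap hyp β (s 0) = M1.compMap hyp β 0
    rw [map_zero]
  obtain ⟨x', y', h', hsP, hxs, hys⟩ := hs.map_some x y h
  rw [hsP]
  have hβ1 : A.valuation β = 1 := M1.val_β hyp hb hβ
  by_cases hx1 : 1 ≤ A.valuation x
  · have hx1' : 1 ≤ A.valuation x' := by
      rw [val_shift_eq hs.val_eq hxs (lt_of_lt_of_le hb hx1)]; exact hx1
    rw [M1.compMap_of_one_le hyp β h hx1, M1.compMap_of_one_le hyp β h' hx1']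
  push Not at hx1
  by_cases hxb : A.valuation x ≤ A.valuation W.a₄
  · rw [M1.compMap_of_le_b hyp β hb h hxb,
      M1.compMap_of_le_b hyp β hb h' (val_shift_le hs.val_eq hxs hxb)]
  push Not at hxb
  have hvx' : A.valuation x' = A.valuation x := val_shift_eq hs.val_eq hxs hxb
  have hx0 : x ≠ 0 := by
    rintro rfl
    rw [map_zero] at hxb
    exact not_lt_zero hxb
  have hx0' : x' ≠ 0 := by
    intro h0
    rw [h0, map_zero] at hvx'
    rw [← hvx'] at hxb
    exact not_lt_zero hxb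
  have hvu : valUnit A x' hx0' = valUnit A x hx0 := by
    apply Units.ext
    simp [valUnit, hvx']
  have hxb' : A.valuation W.a₄ < A.valuation x' := by rw [hvx']; exact hxb
  have hx1' : A.valuation x' < 1 := by rw [hvx']; exact hx1
  by_cases ht : A.valuation (y - β * x) < A.valuation x
  · have ht' : A.valuation (y' - β * x') < A.valuation x' :=
      branch_shift_gen hs.val_eq hxs hys hxb hβ1.le hσβ ht
    rw [M1.compMap_of_Cp hyp β h hx0 hxb hx1 ht, M1.compMap_of_Cp hyp β h' hx0' hxb' hx1' ht', hvu]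
  · have hm : A.valuation (y + β * x) < A.valuation x := by
      rcases M1.mid_or hyp hb hβ h hxb hx1 with h1 | h1
      · exact absurd h1 ht
      · exact h1
    have hm' : A.valuation (y' + β * x') < A.valuation x' := by
      have hm2 : A.valuation (y - (-β) * x) < A.valuation x := by
        have : y - (-β) * x = y + β * x := by ring
        rw [this]; exact hm
      have hσ' : A.valuation (σ (-β) - (-β)) < 1 := by
        have : σ (-β) - (-β) = -(σ β - β) := by rw [map_neg]; ring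
        rw [this, Valuation.map_neg]; exact hσβ
      have := branch_shift_gen hs.val_eq hxs hys hxb
        (by rw [Valuation.map_neg]; exact hβ1.le) hσ' hm2
      have e : y' - (-β) * x' = y' + β * x' := by ring
      rwa [e] at this
    have ht' : ¬ A.valuation (y' - β * x') < A.valuation x' :=
      fun hcon => M1.mid_not_both hyp hb hβ hx0' hcon hm'
    rw [M1.compMap_of_not_Cp hyp β h hx0 hxb hx1 ht,
      M1.compMap_of_not_Cp hyp β h' hx0' hxb' hx1' ht', hvu]

/-- `σ β ≡ -β`: the component map is negated. -/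
theorem compMap_shiftVal_neg (A : ValuationSubring L) (W : Affine L) (hyp : ModelHyp A W)
    (hb : A.valuation W.a₄ < 1) (β : L) (hβ : β ^ 2 = W.a₂)
    (σ : L →+* L) (s : W.Point →+ W.Point) (hs : ShiftedVal A W σ s)
    (hσβ : A.valuation (σ β + β) < 1) (P : W.Point) :
    M1.compMap hyp β (s P) = - M1.compMap hyp β P := by
  rcases P with _ | ⟨x, y, h⟩
  · show M1.compMap hyp β (s 0) = - M1.compMap hyp β 0
    rw [map_zero, M1.compMap_zero, neg_zero]
  obtain ⟨x', y', h', hsP, hxs, hys⟩ := hs.map_some x y h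
  rw [hsP]
  have hβ1 : A.valuation β = 1 := M1.val_β hyp hb hβ
  by_cases hx1 : 1 ≤ A.valuation x
  · have hx1' : 1 ≤ A.valuation x' := by
      rw [val_shift_eq hs.val_eq hxs (lt_of_lt_of_le hb hx1)]; exact hx1
    rw [M1.compMap_of_one_le hyp β h hx1, M1.compMap_of_one_le hyp β h' hx1', neg_zero]
  push Not at hx1
  by_cases hxb : A.valuation x ≤ A.valuation W.a₄
  · rw [M1.compMap_of_le_b hyp β hb h hxb,
      M1.compMap_of_le_b hyp β hb h' (val_shift_le hs.val_eq hxs hxb), M1.neg_cls_b]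
  push Not at hxb
  have hvx' : A.valuation x' = A.valuation x := val_shift_eq hs.val_eq hxs hxb
  have hx0 : x ≠ 0 := by
    rintro rfl
    rw [map_zero] at hxb
    exact not_lt_zero hxb
  have hx0' : x' ≠ 0 := by
    intro h0
    rw [h0, map_zero] at hvx'
    rw [← hvx'] at hxb
    exact not_lt_zero hxb
  have hvu : valUnit A x' hx0' = valUnit A x hx0 := by
    apply Units.ext
    simp [valUnit, hvx']
  have hxb' : A.valuation W.a₄ < A.valuation x' := by rw [hvx']; exact hxb
  have hx1' : A.valuation x' < 1 := by rw [hvx']; exact hx1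
  by_cases ht : A.valuation (y - β * x) < A.valuation x
  · -- `C₊ → C₋`
    have hm' : A.valuation (y' + β * x') < A.valuation x' := by
      have hσ' : A.valuation (σ β - (-β)) < 1 := by
        have : σ β - (-β) = σ β + β := by ring
        rw [this]; exact hσβ
      have := branch_shift_gen hs.val_eq hxs hys hxb
        (by rw [Valuation.map_neg]; exact hβ1.le) hσ' ht
      have e : y' - (-β) * x' = y' + β * x' := by ring
      rwa [e] at this
    have ht' : ¬ A.valuation (y' - β * x') < A.valuation x' :=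
      fun hcon => M1.mid_not_both hyp hb hβ hx0' hcon hm'
    rw [M1.compMap_of_Cp hyp β h hx0 hxb hx1 ht,
      M1.compMap_of_not_Cp hyp β h' hx0' hxb' hx1' ht', hvu]
  · -- `C₋ → C₊`
    have hm : A.valuation (y + β * x) < A.valuation x := by
      rcases M1.mid_or hyp hb hβ h hxb hx1 with h1 | h1
      · exact absurd h1 ht
      · exact h1
    have ht' : A.valuation (y' - β * x') < A.valuation x' := by
      have hm2 : A.valuation (y - (-β) * x) < A.valuation x := by
        have : y - (-β) * x = y + β * x := by ring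
        rw [this]; exact hm
      have hσ' : A.valuation (σ (-β) - β) < 1 := by
        have : σ (-β) - β = -(σ β + β) := by rw [map_neg]; ring
        rw [this, Valuation.map_neg]; exact hσβ
      exact branch_shift_gen hs.val_eq hxs hys hxb hβ1.le hσ' hm2
    rw [M1.compMap_of_not_Cp hyp β h hx0 hxb hx1 ht,
      M1.compMap_of_Cp hyp β h' hx0' hxb' hx1' ht', hvu, neg_neg]

/-- If `σ` moves `a = W.a₂` by less than `1`, a shifted valuation preserving map acts on the
component map by a sign. -/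
theorem compMap_shiftVal_sign (A : ValuationSubring L) (W : Affine L) (hyp : ModelHyp A W)
    (hb : A.valuation W.a₄ < 1) (β : L) (hβ : β ^ 2 = W.a₂)
    (σ : L →+* L) (s : W.Point →+ W.Point) (hs : ShiftedVal A W σ s)
    (hσa : A.valuation (σ W.a₂ - W.a₂) < 1) :
    (∀ P, M1.compMap hyp β (s P) = M1.compMap hyp β P) ∨
      (∀ P, M1.compMap hyp β (s P) = - M1.compMap hyp β P) := by
  have key : (σ β - β) * (σ β + β) = σ W.a₂ - W.a₂ := by
    rw [← hβ, map_pow]; ring
  have hprod : A.valuation (σ β - β) * A.valuation (σ β + β) < 1 := by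
    rw [← map_mul, key]; exact hσa
  by_cases h1 : A.valuation (σ β - β) < 1
  · exact Or.inl (compMap_shiftVal_pos A W hyp hb β hβ σ s hs h1)
  · by_cases h2 : A.valuation (σ β + β) < 1
    · exact Or.inr (compMap_shiftVal_neg A W hyp hb β hβ σ s hs h2)
    · exfalso
      push Not at h1 h2
      exact absurd hprod (not_lt.2 (one_le_mul_of_one_le_of_one_le h1 h2))

end comp

end Fermat.Agent.Tate.T6

end
-- ==== END Fermat.Agent.Tate.T6.Comp

-- ==== BEGIN Fermat.Agent.Tate.T6.H01_Asm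
section

set_option autoImplicit false

/-!
# Tate T6, assembly (helper1)

`Stmt_LOC → Stmt_LIN → Stmt_T2 → Stmt_T6`: the Tate module of a semistable curve is strictly
ordinary at an odd prime `p` of bad reduction.

For a place `P` over `p`, `Stmt_LOC` gives the component homomorphism `c` on `E(Q̄)`, `Stmt_LIN`
the line `L = {v | ∀ k, c (lev k v) = 0} = ℤ_p b₀`.  `σ ∈ D_P` acts on `c` by a sign `z`, so `L` is
stable, `(ρ σ - z) V ⊆ L`, `ρ σ = x` on `L`, `det ρ σ = x z`; `Stmt_T2` gives `x z ≡ a`, hence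
`x - a z = z (x z - a)`.
-/

open WeierstrassCurve WeierstrassCurve.Affine Polynomial

namespace Fermat.Agent.Tate.T6.H01

open Fermat.Agent.Tate Fermat.Agent.S52.H5
open Fermat.Agent.Lib.EllFinite.H4 (IntCoeff)

section Det

variable {R : Type*} [CommRing R] {V : Type*} [AddCommGroup V] [Module R V]

/-- Determinant of an endomorphism which is upper triangular in a basis of a rank two module. -/
theorem det_of_triangular (b : Module.Basis (Fin 2) R V) (f : Module.End R V) (x z t : R)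
    (h0 : f (b 0) = x • b 0) (h1 : f (b 1) = z • b 1 + t • b 0) : LinearMap.det f = x * z := by
  rw [← LinearMap.det_toMatrix b, Matrix.det_fin_two]
  simp only [LinearMap.toMatrix_apply, h0, h1, map_add, map_smul, Module.Basis.repr_self,
    Finsupp.coe_add, Finsupp.coe_smul, Pi.add_apply, Pi.smul_apply, smul_eq_mul,
    Finsupp.single_eq_same]
  rw [Finsupp.single_eq_of_ne (a := (0 : Fin 2)) (a' := 1) (by decide),
    Finsupp.single_eq_of_ne (a := (1 : Fin 2)) (a' := 0) (by decide)]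
  ring

end Det

/-- Decomposition group elements are decomposition-like on `E(Q̄)`. -/
theorem decompOn_galAdd (W : WeierstrassCurve ℤ) (A : ValuationSubring Qb) (σ : Qb ≃ₐ[ℚ] Qb)
    (hσ : σ ∈ A.decompositionSubgroup ℚ) :
    DecompOn A (EQ W) (σ : Qb →+* Qb) (galAdd W σ) where
  val_eq := (valOn_galAdd W A σ hσ).val_eq
  fix₁ := by rw [EQ_a₁]; exact map_intCast _ _
  fix₂ := by rw [EQ_a₂]; exact map_intCast _ _
  fix₃ := by rw [EQ_a₃]; exact map_intCast _ _
  fix₄ := by rw [EQ_a₄]; exact map_intCast _ _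
  fix₆ := by rw [EQ_a₆]; exact map_intCast _ _
  map_some := (valOn_galAdd W A σ hσ).map_some

theorem decompOn_galAdd_of_inertia (W : WeierstrassCurve ℤ) (A : ValuationSubring Qb)
    (σ : Qb ≃ₐ[ℚ] Qb) (hσ : σ ∈ A.inertiaSubgroupIn ℚ) :
    DecompOn A (EQ W) (σ : Qb →+* Qb) (galAdd W σ) where
  val_eq := (inertiaOn_galAdd W A σ hσ).val_eq
  fix₁ := by rw [EQ_a₁]; exact map_intCast _ _
  fix₂ := by rw [EQ_a₂]; exact map_intCast _ _
  fix₃ := by rw [EQ_a₃]; exact map_intCast _ _
  fix₄ := by rw [EQ_a₄]; exact map_intCast _ _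
  fix₆ := by rw [EQ_a₆]; exact map_intCast _ _
  map_some := (inertiaOn_galAdd W A σ hσ).map_some

/-- **T6-ASM.** -/
theorem stmt_T6_of (hLOC : Stmt_LOC) (hLIN : Stmt_LIN) (hT2 : Fermat.Agent.Tate.Stmt_T2) :
    Fermat.Agent.Tate.Stmt_T6 := by
  intro W hΔ hss p _ hp2 D hbad
  have hp : p.Prime := Fact.out
  have hdvd : (p : ℤ) ∣ W.Δ := by
    by_contra h
    exact hbad h
  have hc4 : ¬ (p : ℤ) ∣ W.c₄ := hss p hp hdvd
  have hdet := hT2 W hΔ p D
  refine ⟨hdet.1, fun P hP => ?_⟩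
  -- the local theorem at `P`
  have hpv : P.valuation ((p : ℕ) : Qb) < 1 := (P.mem_nonunits_iff).1 hP
  have hΔ0 : (EQ W).Δ ≠ 0 := by
    rw [EQ_Δ]; exact_mod_cast hΔ
  have hΔv : P.valuation (EQ W).Δ < 1 := by
    rw [EQ_Δ]; exact Fermat.Agent.S05.H15.valuation_intCast_lt_one_of_dvd hP hdvd
  have hc₄v : P.valuation (EQ W).c₄ = 1 := by
    rw [EQ_c₄]; exact Fermat.Agent.S05.H15.valuation_intCast_eq_one_of_not_dvd hp hP hc4
  obtain ⟨G, instG, c, ha, hb, hc, hd⟩ :=
    hLOC Qb P p hp hp2 hpv (EQ W) (EQ_intCoeff W P) hΔ0 hΔv hc₄v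
  -- the line
  obtain ⟨b, hL⟩ := hLIN p D.ρ.V D.ρ.finrank_eq (EQbar W) D.lev D.lev_tors D.lev_surj D.lev_ker
    D.lev_succ G c ha hb
  -- the action of `σ` on `c ∘ lev k`
  have hact : ∀ (σ : GQ) (k : ℕ) (v : D.ρ.V),
      c (D.lev k (D.ρ.ρ σ v)) = c (galAdd W σ (D.lev k v)) := by
    intro σ k v
    rw [D.lev_equiv, galAdd_apply]
  -- `-v`
  have hneg : ∀ (k : ℕ) (v : D.ρ.V), c (D.lev k (-v)) = - c (D.lev k v) := by
    intro k v
    rw [map_neg, map_neg]
  refine ⟨Submodule.span ℤ_[p] {b 0}, ⟨b, rfl⟩, ?_, ?_, ?_⟩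
  · -- stability under the decomposition group
    intro σ hσ v hv
    rw [← hL] at hv ⊢
    intro k
    rw [hact]
    rcases hc _ _ (decompOn_galAdd W P σ hσ) with h | h
    · rw [h, hv k]
    · rw [h, hv k, neg_zero]
  · -- inertia
    intro σ hσ v
    rw [← hL]
    intro k
    rw [map_sub, map_sub, hact,
      hd _ _ (decompOn_galAdd_of_inertia W P σ hσ) (inertiaOn_galAdd W P σ hσ).res, sub_self]
  · -- the characters
    intro σ hσ
    -- the sign
    obtain ⟨z, hz2, hz⟩ : ∃ z : ℤ_[p], z * z = 1 ∧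
        ∀ (k : ℕ) (v : D.ρ.V), c (D.lev k (D.ρ.ρ σ v - z • v)) = 0 := by
      rcases hc _ _ (decompOn_galAdd W P σ hσ) with h | h
      · refine ⟨1, one_mul 1, fun k v => ?_⟩
        rw [one_smul, map_sub, map_sub, hact, h, sub_self]
      · refine ⟨-1, by ring, fun k v => ?_⟩
        rw [neg_one_smul, sub_neg_eq_add, map_add, map_add, hact, h, neg_add_cancel]
    have hzL : ∀ v : D.ρ.V, D.ρ.ρ σ v - z • v ∈ Submodule.span ℤ_[p] {b 0} := by
      intro v
      rw [← hL]
      exact fun k => hz k v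
    -- the eigenvalue on the line
    have hb0 : D.ρ.ρ σ (b 0) ∈ Submodule.span ℤ_[p] {b 0} := by
      rw [← hL]
      intro k
      rw [hact]
      have h0 : ∀ k, c (D.lev k (b 0)) = 0 :=
        (hL (b 0)).2 (Submodule.mem_span_singleton_self _)
      rcases hc _ _ (decompOn_galAdd W P σ hσ) with h | h
      · rw [h, h0 k]
      · rw [h, h0 k, neg_zero]
    obtain ⟨x, hx⟩ := Submodule.mem_span_singleton.1 hb0
    obtain ⟨t, ht⟩ := Submodule.mem_span_singleton.1 (hzL (b 1))
    refine ⟨x, z, ?_, hzL, ?_⟩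
    · intro w hw
      obtain ⟨s, rfl⟩ := Submodule.mem_span_singleton.1 hw
      rw [map_smul, ← hx, smul_comm]
    · intro n a hμ
      have h1 : D.ρ.ρ σ (b 1) = z • b 1 + t • b 0 := by
        rw [ht]; abel
      have hdetσ : LinearMap.det (D.ρ.ρ σ) = x * z :=
        det_of_triangular b (D.ρ.ρ σ) x z t hx.symm h1
      have h2 := hdet.2 n σ a hμ
      rw [hdetσ] at h2
      have e : x - (a : ℤ_[p]) * z = z * (x * z - (a : ℤ_[p])) := by
        have : x * (z * z) = x := by rw [hz2, mul_one]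
        linear_combination -this
      rw [e]
      exact Ideal.mul_mem_left _ _ h2

end Fermat.Agent.Tate.T6.H01

end
-- ==== END Fermat.Agent.Tate.T6.H01_Asm

-- ==== BEGIN Fermat.Agent.Tate.T6.H01_CG
section

set_option autoImplicit false

/-!
# Tate T6, package CG (helper1)

`Γ` torsion free commutative group, `β ∈ Γ`: the `p`-power torsion of `Γ / ⟨β⟩` is locally
cyclic.
-/

namespace Fermat.Agent.Tate.T6.H01

/-- In a torsion-free commutative group: if `g₁ ^ P = β ^ n₁`, `g₂ ^ P = β ^ n₂` and `n₁` is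
coprime to `P`, then `g₂ ∈ g₁ ^ j * ⟨β⟩` for some natural `j`. -/
theorem exists_pow_mul_zpow {Γ : Type*} [CommGroup Γ]
    (htf : ∀ (g : Γ) (n : ℕ), 0 < n → g ^ n = 1 → g = 1)
    (β g₁ g₂ : Γ) (P : ℕ) (hP : 0 < P) (n₁ n₂ : ℤ) (h₁ : g₁ ^ P = β ^ n₁) (h₂ : g₂ ^ P = β ^ n₂)
    (hcop : IsCoprime n₁ (P : ℤ)) : ∃ (j : ℕ) (t : ℤ), g₂ = g₁ ^ j * β ^ t := by
  obtain ⟨a, b, hab⟩ := hcop
  -- `j₀ = a n₂` works over `ℤ`; make it natural
  set j₀ : ℤ := a * n₂ with hj₀
  set j : ℤ := j₀ % (P : ℤ) with hj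
  have hPz : (P : ℤ) ≠ 0 := by exact_mod_cast hP.ne'
  have hjnn : 0 ≤ j := Int.emod_nonneg _ hPz
  have hjeq : j = j₀ - (P : ℤ) * (j₀ / (P : ℤ)) := by
    rw [hj, Int.emod_def]
  -- `j n₁ = n₂ + P t`
  set t : ℤ := -(b * n₂) - (j₀ / (P : ℤ)) * n₁ with ht
  have hkey : j * n₁ = n₂ + (P : ℤ) * t := by
    rw [hjeq, ht, hj₀]
    linear_combination n₂ * hab
  refine ⟨j.toNat, -t, ?_⟩
  have hjz : ((j.toNat : ℕ) : ℤ) = j := Int.toNat_of_nonneg hjnn
  have h₁z : g₁ ^ (P : ℤ) = β ^ n₁ := by rw [zpow_natCast]; exact h₁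
  have h₂z : g₂ ^ (P : ℤ) = β ^ n₂ := by rw [zpow_natCast]; exact h₂
  have hone : (g₂ * (g₁ ^ j)⁻¹ * β ^ t) ^ P = 1 := by
    rw [← zpow_natCast, mul_zpow, mul_zpow, inv_zpow, ← zpow_mul, ← zpow_mul, mul_comm j,
      zpow_mul, h₁z, h₂z, ← zpow_mul, ← zpow_neg, ← zpow_add, ← zpow_add]
    have : n₂ + -(n₁ * j) + t * (P : ℤ) = 0 := by
      linear_combination -hkey
    rw [this, zpow_zero]
  have h1 := htf _ P hP hone
  have h3 : g₂ * (g₁ ^ j)⁻¹ * β ^ t * (g₁ ^ j * (β ^ t)⁻¹) = g₂ := by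
    rw [mul_assoc g₂, mul_assoc g₂]
    have : (g₁ ^ j)⁻¹ * β ^ t * (g₁ ^ j * (β ^ t)⁻¹) = 1 := by
      rw [mul_comm (g₁ ^ j), mul_assoc, ← mul_assoc (β ^ t), mul_inv_cancel, one_mul,
        inv_mul_cancel]
    rw [this, mul_one]
  rw [h1, one_mul] at h3
  rw [← zpow_natCast g₁, hjz, zpow_neg]
  exact h3.symm

/-- **CG.** -/
theorem stmt_CG : Stmt_CG := by
  intro Γ _ htf β p hp k x₁ x₂ h1 h2 hne
  obtain ⟨g₁, rfl⟩ := QuotientGroup.mk_surjective x₁
  obtain ⟨g₂, rfl⟩ := QuotientGroup.mk_surjective x₂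
  rw [← QuotientGroup.mk_pow, QuotientGroup.eq_one_iff] at h1 h2
  obtain ⟨n₁, hn₁⟩ := h1
  obtain ⟨n₂, hn₂⟩ := h2
  have hn₁' : g₁ ^ p ^ (k + 1) = β ^ n₁ := hn₁.symm
  have hn₂' : g₂ ^ p ^ (k + 1) = β ^ n₂ := hn₂.symm
  have hPpos : 0 < p ^ (k + 1) := pow_pos hp.pos _
  -- `p ∤ n₁`
  have hndvd : ¬ (p : ℤ) ∣ n₁ := by
    rintro ⟨m, hm⟩
    apply hne
    rw [← QuotientGroup.mk_pow, QuotientGroup.eq_one_iff]
    refine ⟨m, ?_⟩
    have hone : (g₁ ^ p ^ k * (β ^ m)⁻¹) ^ p = 1 := by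
      rw [mul_pow, ← pow_mul, ← pow_succ, hn₁', inv_pow, ← zpow_natCast (β ^ m), ← zpow_mul,
        hm, mul_comm m, mul_inv_cancel]
    have := htf _ p hp.pos hone
    exact (mul_inv_eq_one.1 this).symm
  have hcop : IsCoprime n₁ ((p ^ (k + 1) : ℕ) : ℤ) := by
    rw [Nat.cast_pow]
    refine IsCoprime.pow_right ?_
    rw [isCoprime_comm]
    exact (Nat.prime_iff_prime_int.1 hp).coprime_iff_not_dvd.2 hndvd
  obtain ⟨j, t, hjt⟩ := exists_pow_mul_zpow htf β g₁ g₂ (p ^ (k + 1)) hPpos n₁ n₂ hn₁' hn₂' hcop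
  refine ⟨j, ?_⟩
  rw [← QuotientGroup.mk_pow, hjt, QuotientGroup.mk_mul]
  have : ((β ^ t : Γ) : Γ ⧸ Subgroup.zpowers β) = 1 :=
    (QuotientGroup.eq_one_iff _).2 ⟨t, rfl⟩
  rw [this, mul_one]

end Fermat.Agent.Tate.T6.H01

end
-- ==== END Fermat.Agent.Tate.T6.H01_CG

-- ==== BEGIN Fermat.Agent.Tate.T6.H01_LIN
section

set_option autoImplicit false

/-!
# Tate T6, package LIN (helper1)

Pure algebra: in an abstract Tate system `(V, lev)` with a "component homomorphism" `c` (a
`p`-torsion point outside its kernel, locally cyclic `p`-power torsion in the image) the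
submodule `{v | ∀ k, c (lev k v) = 0}` is spanned by the first vector of a basis of `V`.

Route: `g k := c (lev k v₁)` has order exactly `p ^ k`; `c (lev k (e i)) = j i k • g k` with
compatible `j i k`, limit `a i ∈ ℤ_[p]`; `φ v = a 0 * y 0 + a 1 * y 1` (coordinates `y`) satisfies
`c (lev k v) = 0 ↔ p ^ k ∣ φ v`, `φ v₁ = 1`; the basis is `(a 1 e 0 - a 0 e 1, v₁)`.
-/

namespace Fermat.Agent.Tate.T6.H01

open IsLocalRing

section Padic

variable {p : ℕ} [Fact p.Prime]

/-- A sequence of naturals which is compatible modulo `p ^ k` has a limit in `ℤ_[p]`. -/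
theorem exists_padic_limit (f : ℕ → ℕ)
    (hf : ∀ k, ((p : ℤ) ^ k) ∣ (f (k + 1) : ℤ) - f k) :
    ∃ a : ℤ_[p], ∀ k, ((p : ℤ_[p]) ^ k) ∣ a - (f k : ℤ_[p]) := by
  have hmn : ∀ m n, m ≤ n → ((p : ℤ) ^ m) ∣ (f n : ℤ) - f m := by
    intro m n hmn
    induction n, hmn using Nat.le_induction with
    | base => simp
    | succ n hmn ih =>
      have h1 : ((p : ℤ) ^ m) ∣ (f (n + 1) : ℤ) - f n :=
        (pow_dvd_pow (p : ℤ) hmn).trans (hf n)
      have : (f (n + 1) : ℤ) - f m = ((f (n + 1) : ℤ) - f n) + ((f n : ℤ) - f m) := by ring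
      rw [this]
      exact dvd_add h1 ih
  have hprec := IsPrecomplete.prec' (I := maximalIdeal ℤ_[p]) (M := ℤ_[p])
    (fun k => (f k : ℤ_[p])) (by
      intro m n hmn'
      rw [SModEq.sub_mem, smul_eq_mul, Ideal.mul_top, PadicInt.maximalIdeal_eq_span_p,
        Ideal.span_singleton_pow, Ideal.mem_span_singleton]
      obtain ⟨t, ht⟩ := hmn m n hmn'
      refine ⟨-(t : ℤ_[p]), ?_⟩
      have : ((f n : ℤ) : ℤ_[p]) - ((f m : ℤ) : ℤ_[p]) = ((p : ℤ_[p]) ^ m) * (t : ℤ_[p]) := by
        have := congrArg (Int.cast : ℤ → ℤ_[p]) ht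
        push_cast at this
        exact this
      push_cast at this
      linear_combination -this)
  obtain ⟨a, ha⟩ := hprec
  refine ⟨a, fun k => ?_⟩
  have := ha k
  rw [SModEq.sub_mem, smul_eq_mul, Ideal.mul_top, PadicInt.maximalIdeal_eq_span_p,
    Ideal.span_singleton_pow, Ideal.mem_span_singleton] at this
  obtain ⟨t, ht⟩ := this
  exact ⟨-t, by linear_combination -ht⟩

/-- An element of `ℤ_[p]` divisible by all powers of `p` is zero. -/
theorem eq_zero_of_forall_pow_dvd (a : ℤ_[p]) (h : ∀ k, ((p : ℤ_[p]) ^ k) ∣ a) : a = 0 := by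
  rw [← PadicInt.ext_of_toZModPow]
  intro k
  rw [map_zero, ← RingHom.mem_ker, PadicInt.ker_toZModPow, Ideal.mem_span_singleton]
  exact h k

theorem dvd_sub_appr (a : ℤ_[p]) (k : ℕ) : ((p : ℤ_[p]) ^ k) ∣ a - (a.appr k : ℤ_[p]) :=
  Ideal.mem_span_singleton.1 (PadicInt.appr_spec k a)

end Padic

section System

variable {p : ℕ} [Fact p.Prime] {V : Type} [AddCommGroup V] [Module ℤ_[p] V]
  {X : Type} [AddCommGroup X] (lev : ℕ → V →+ X)

/-- `lev k` kills `p ^ k V`. -/
theorem lev_pow_smul (h1 : ∀ k v, (p ^ k) • lev k v = 0) (k : ℕ) (w : V) :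
    lev k (((p : ℤ_[p]) ^ k) • w) = 0 := by
  have : ((p : ℤ_[p]) ^ k) • w = (p ^ k : ℕ) • w := by
    rw [← Nat.cast_pow, Nat.cast_smul_eq_nsmul]
  rw [this, map_nsmul]
  exact h1 k w

/-- `lev k (y • w) = (y mod p ^ k) • lev k w`. -/
theorem lev_smul (h1 : ∀ k v, (p ^ k) • lev k v = 0) (k : ℕ) (y : ℤ_[p]) (w : V) :
    lev k (y • w) = (y.appr k) • lev k w := by
  obtain ⟨z, hz⟩ := dvd_sub_appr y k
  have hy : y = (y.appr k : ℤ_[p]) + (p : ℤ_[p]) ^ k * z := by linear_combination hz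
  have : y • w = (y.appr k) • w + ((p : ℤ_[p]) ^ k) • (z • w) := by
    conv_lhs => rw [hy]
    rw [add_smul, mul_smul, Nat.cast_smul_eq_nsmul]
  rw [this, map_add, lev_pow_smul lev h1, add_zero, map_nsmul]

/-- Compatibility over several levels. -/
theorem pow_smul_lev (h4 : ∀ k v, p • lev (k + 1) v = lev k v) (k j : ℕ) (v : V) :
    (p ^ j) • lev (k + j) v = lev k v := by
  induction j with
  | zero => simp
  | succ j ih =>
    rw [pow_succ, mul_smul, ← add_assoc, h4, ih]

variable {G : Type} [AddCommGroup G] (c : X →+ G)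

/-- The order of `c (lev k v₁)` is `p ^ k` when `c (lev 1 v₁) ≠ 0`. -/
theorem addOrderOf_gen (h1 : ∀ k v, (p ^ k) • lev k v = 0)
    (h4 : ∀ k v, p • lev (k + 1) v = lev k v) (v₁ : V) (hv₁ : c (lev 1 v₁) ≠ 0) (k : ℕ) :
    addOrderOf (c (lev k v₁)) = p ^ k := by
  cases k with
  | zero =>
    have : lev 0 v₁ = 0 := by simpa using h1 0 v₁
    rw [this, map_zero, addOrderOf_zero, pow_zero]
  | succ k =>
    refine addOrderOf_eq_prime_pow ?_ ?_
    · rw [← map_nsmul]
      have := pow_smul_lev lev h4 1 k v₁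
      rw [add_comm 1 k] at this
      rw [this]
      exact hv₁
    · rw [← map_nsmul, h1, map_zero]

theorem zsmul_gen_eq_zero_iff (h1 : ∀ k v, (p ^ k) • lev k v = 0)
    (h4 : ∀ k v, p • lev (k + 1) v = lev k v) (v₁ : V) (hv₁ : c (lev 1 v₁) ≠ 0) (k : ℕ)
    (z : ℤ) : z • c (lev k v₁) = 0 ↔ ((p : ℤ) ^ k) ∣ z := by
  rw [← addOrderOf_dvd_iff_zsmul_eq_zero, addOrderOf_gen lev c h1 h4 v₁ hv₁ k, Nat.cast_pow]

end System

section Basis

variable {R : Type*} [CommRing R] {V : Type*} [AddCommGroup V] [Module R V]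

/-- A unimodular change of basis in rank two: if `a 0 * x 0 + a 1 * x 1 = 1` then
`(a 1 e 0 - a 0 e 1, x 0 e 0 + x 1 e 1)` is a basis, and the second coordinate in it is
`a 0 * y 0 + a 1 * y 1`. -/
noncomputable def unimodEquiv (e : Module.Basis (Fin 2) R V) (a x : Fin 2 → R)
    (h : a 0 * x 0 + a 1 * x 1 = 1) : V ≃ₗ[R] (Fin 2 → R) where
  toFun v := ![x 1 * e.repr v 0 - x 0 * e.repr v 1, a 0 * e.repr v 0 + a 1 * e.repr v 1]
  map_add' v w := by
    ext i
    fin_cases i
    · simp only [map_add, Finsupp.coe_add, Pi.add_apply, Fin.zero_eta, Matrix.cons_val_zero]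
      ring
    · simp only [map_add, Finsupp.coe_add, Pi.add_apply, Fin.mk_one, Matrix.cons_val_one,
        Matrix.cons_val_zero]
      ring
  map_smul' r v := by
    ext i
    fin_cases i
    · simp only [map_smul, Finsupp.coe_smul, Pi.smul_apply, smul_eq_mul, Fin.zero_eta,
        Matrix.cons_val_zero, RingHom.id_apply]
      ring
    · simp only [map_smul, Finsupp.coe_smul, Pi.smul_apply, smul_eq_mul, Fin.mk_one,
        Matrix.cons_val_one, Matrix.cons_val_zero, RingHom.id_apply]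
      ring
  invFun s := s 0 • (a 1 • e 0 - a 0 • e 1) + s 1 • (x 0 • e 0 + x 1 • e 1)
  left_inv v := by
    apply e.repr.injective
    ext i
    fin_cases i
    · simp only [Matrix.cons_val_zero, Matrix.cons_val_one, map_add, map_smul, map_sub,
        Module.Basis.repr_self, Finsupp.coe_add, Finsupp.coe_smul, Finsupp.coe_sub, Pi.add_apply,
        Pi.smul_apply, Pi.sub_apply, smul_eq_mul, Fin.zero_eta, Finsupp.single_eq_same]
      rw [Finsupp.single_eq_of_ne (by decide)]
      linear_combination (e.repr v 0) * h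
    · simp only [Matrix.cons_val_zero, Matrix.cons_val_one, map_add, map_smul, map_sub,
        Module.Basis.repr_self, Finsupp.coe_add, Finsupp.coe_smul, Finsupp.coe_sub, Pi.add_apply,
        Pi.smul_apply, Pi.sub_apply, smul_eq_mul, Fin.mk_one, Finsupp.single_eq_same]
      rw [Finsupp.single_eq_of_ne (by decide)]
      linear_combination (e.repr v 1) * h
  right_inv s := by
    ext i
    fin_cases i
    · simp only [map_add, map_smul, map_sub, Module.Basis.repr_self, Finsupp.coe_add,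
        Finsupp.coe_smul, Finsupp.coe_sub, Pi.add_apply, Pi.smul_apply, Pi.sub_apply,
        smul_eq_mul, Fin.zero_eta, Matrix.cons_val_zero, Finsupp.single_eq_same]
      rw [Finsupp.single_eq_of_ne (a := (1 : Fin 2)) (a' := 0) (by decide),
        Finsupp.single_eq_of_ne (a := (0 : Fin 2)) (a' := 1) (by decide)]
      linear_combination (s 0) * h
    · simp only [map_add, map_smul, map_sub, Module.Basis.repr_self, Finsupp.coe_add,
        Finsupp.coe_smul, Finsupp.coe_sub, Pi.add_apply, Pi.smul_apply, Pi.sub_apply,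
        smul_eq_mul, Fin.mk_one, Matrix.cons_val_one, Matrix.cons_val_zero,
        Finsupp.single_eq_same]
      rw [Finsupp.single_eq_of_ne (a := (1 : Fin 2)) (a' := 0) (by decide),
        Finsupp.single_eq_of_ne (a := (0 : Fin 2)) (a' := 1) (by decide)]
      linear_combination (s 1) * h

end Basis

/-- **LIN.** -/
theorem stmt_LIN : Stmt_LIN := by
  intro p _ V _ _ _ _ hrank X _ lev h1 h2 h3 h4 G _ c hP hcyc
  classical
  obtain ⟨P, hpP, hcP⟩ := hP
  obtain ⟨v₁, hv₁⟩ := h2 1 P (by rw [pow_one]; exact hpP)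
  have hv₁c : c (lev 1 v₁) ≠ 0 := by rw [hv₁]; exact hcP
  -- every `c (lev k w)` is a multiple of `g k = c (lev k v₁)`
  have hmult : ∀ k (w : V), ∃ j : ℕ, c (lev k w) = j • c (lev k v₁) := by
    intro k w
    cases k with
    | zero =>
      refine ⟨0, ?_⟩
      have : lev 0 w = 0 := by simpa using h1 0 w
      rw [this, map_zero, zero_smul]
    | succ k =>
      refine hcyc k (lev (k + 1) v₁) (lev (k + 1) w) (h1 _ _) (h1 _ _) ?_
      rw [← map_nsmul]
      have := pow_smul_lev lev h4 1 k v₁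
      rw [add_comm 1 k] at this
      rw [this]
      exact hv₁c
  let e : Module.Basis (Fin 2) ℤ_[p] V := Module.finBasisOfFinrankEq ℤ_[p] V hrank
  choose j hj using fun (i : Fin 2) (k : ℕ) => hmult k (e i)
  have hg : ∀ k, c (lev k v₁) = p • c (lev (k + 1) v₁) := by
    intro k
    rw [← map_nsmul, h4]
  have hcompat : ∀ i k, ((p : ℤ) ^ k) ∣ (j i (k + 1) : ℤ) - j i k := by
    intro i k
    rw [← zsmul_gen_eq_zero_iff lev c h1 h4 v₁ hv₁c k, sub_smul, natCast_zsmul, natCast_zsmul,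
      sub_eq_zero, ← hj i k]
    conv_lhs => rw [hg k]
    rw [smul_comm, ← hj i (k + 1), ← map_nsmul, h4]
  choose a ha using fun i => exists_padic_limit (p := p) (j i) (hcompat i)
  -- coordinates
  have hkey : ∀ (v : V) (k : ℕ), c (lev k v) =
      ((e.repr v 0).appr k * j 0 k + (e.repr v 1).appr k * j 1 k) • c (lev k v₁) := by
    intro v k
    conv_lhs => rw [← e.sum_repr v]
    rw [Fin.sum_univ_two, map_add, map_add, lev_smul lev h1, lev_smul lev h1, map_nsmul,
      map_nsmul, hj 0 k, hj 1 k, smul_smul, smul_smul, ← add_smul]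
  have hdiff : ∀ (v : V) (k : ℕ), ((p : ℤ_[p]) ^ k) ∣
      (a 0 * e.repr v 0 + a 1 * e.repr v 1) -
        ((((e.repr v 0).appr k * j 0 k + (e.repr v 1).appr k * j 1 k : ℕ) : ℤ) : ℤ_[p]) := by
    intro v k
    obtain ⟨t0, ht0⟩ := dvd_sub_appr (e.repr v 0) k
    obtain ⟨t1, ht1⟩ := dvd_sub_appr (e.repr v 1) k
    obtain ⟨s0, hs0⟩ := ha 0 k
    obtain ⟨s1, hs1⟩ := ha 1 k
    refine ⟨s0 * e.repr v 0 + (j 0 k : ℤ_[p]) * t0 + (s1 * e.repr v 1 + (j 1 k : ℤ_[p]) * t1), ?_⟩
    push_cast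
    linear_combination (e.repr v 0) * hs0 + (j 0 k : ℤ_[p]) * ht0 + (e.repr v 1) * hs1 +
      (j 1 k : ℤ_[p]) * ht1
  have hφ : ∀ (v : V) (k : ℕ), c (lev k v) = 0 ↔
      ((p : ℤ_[p]) ^ k) ∣ (a 0 * e.repr v 0 + a 1 * e.repr v 1) := by
    intro v k
    rw [hkey, ← natCast_zsmul, zsmul_gen_eq_zero_iff lev c h1 h4 v₁ hv₁c k,
      ← PadicInt.pow_p_dvd_int_iff]
    constructor
    · intro h
      have := dvd_add h (hdiff v k)
      rwa [add_sub_cancel] at this
    · intro h
      have := dvd_sub h (hdiff v k)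
      rwa [sub_sub_cancel] at this
  -- `φ v₁ = 1`
  have hone : a 0 * e.repr v₁ 0 + a 1 * e.repr v₁ 1 = 1 := by
    rw [← sub_eq_zero]
    apply eq_zero_of_forall_pow_dvd
    intro k
    have h5 := hkey v₁ k
    have h6 : ((((e.repr v₁ 0).appr k * j 0 k + (e.repr v₁ 1).appr k * j 1 k : ℕ) : ℤ) - 1) •
        c (lev k v₁) = 0 := by
      rw [sub_smul, natCast_zsmul, one_smul, ← h5, sub_self]
    rw [zsmul_gen_eq_zero_iff lev c h1 h4 v₁ hv₁c k, ← PadicInt.pow_p_dvd_int_iff] at h6
    have := dvd_add h6 (hdiff v₁ k)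
    push_cast at this ⊢
    have e2 : (a 0 * e.repr v₁ 0 + a 1 * e.repr v₁ 1 - 1 : ℤ_[p]) =
        (((e.repr v₁ 0).appr k : ℤ_[p]) * (j 0 k : ℤ_[p]) +
          ((e.repr v₁ 1).appr k : ℤ_[p]) * (j 1 k : ℤ_[p]) - 1) +
        (a 0 * e.repr v₁ 0 + a 1 * e.repr v₁ 1 -
          (((e.repr v₁ 0).appr k : ℤ_[p]) * (j 0 k : ℤ_[p]) +
            ((e.repr v₁ 1).appr k : ℤ_[p]) * (j 1 k : ℤ_[p]))) := by ring
    rw [e2]
    exact this
  -- the basis
  let Θ := unimodEquiv e a (fun i => e.repr v₁ i) hone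
  refine ⟨Module.Basis.ofEquivFun Θ, fun v => ?_⟩
  have hb0 : Module.Basis.ofEquivFun Θ 0 = a 1 • e 0 - a 0 • e 1 := by
    rw [Module.Basis.coe_ofEquivFun]
    show (Pi.single (0 : Fin 2) (1 : ℤ_[p]) : Fin 2 → ℤ_[p]) 0 • (a 1 • e 0 - a 0 • e 1) +
      (Pi.single (0 : Fin 2) (1 : ℤ_[p]) : Fin 2 → ℤ_[p]) 1 •
        (e.repr v₁ 0 • e 0 + e.repr v₁ 1 • e 1) = _
    rw [Pi.single_eq_same, Pi.single_eq_of_ne (by decide), one_smul, zero_smul, add_zero]
  have hΘ1 : ∀ w : V, Θ w 1 = a 0 * e.repr w 0 + a 1 * e.repr w 1 := fun w => rfl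
  have hzero : (∀ k, c (lev k v) = 0) ↔ Θ v 1 = 0 := by
    rw [hΘ1]
    constructor
    · intro h
      exact eq_zero_of_forall_pow_dvd _ fun k => (hφ v k).1 (h k)
    · intro h k
      rw [hφ v k, h]
      exact dvd_zero _
  rw [hzero, hb0, Submodule.mem_span_singleton]
  constructor
  · intro h
    refine ⟨Θ v 0, ?_⟩
    have h7 : Θ.symm (Θ v) = v := Θ.symm_apply_apply v
    have h8 : Θ.symm (Θ v) = (Θ v) 0 • (a 1 • e 0 - a 0 • e 1) +
        (Θ v) 1 • (e.repr v₁ 0 • e 0 + e.repr v₁ 1 • e 1) := rfl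
    rw [h8, h, zero_smul, add_zero] at h7
    exact h7
  · rintro ⟨s, rfl⟩
    rw [map_smul, Pi.smul_apply, hΘ1]
    simp only [map_sub, map_smul, Module.Basis.repr_self, Finsupp.coe_sub, Finsupp.coe_smul,
      Pi.sub_apply, Pi.smul_apply, smul_eq_mul, Finsupp.single_eq_same]
    rw [Finsupp.single_eq_of_ne (a := (1 : Fin 2)) (a' := 0) (by decide),
      Finsupp.single_eq_of_ne (a := (0 : Fin 2)) (a' := 1) (by decide)]
    ring

end Fermat.Agent.Tate.T6.H01

end
-- ==== END Fermat.Agent.Tate.T6.H01_LIN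

-- ==== BEGIN Fermat.Agent.Tate.T7.Defs
section

set_option autoImplicit false

open WeierstrassCurve WeierstrassCurve.Affine Polynomial

namespace Fermat.Agent.Tate.T7

open Fermat.Agent.S58.H99 (TorsW torsRho)

/-- `Q̄`. -/
abbrev Qb : Type := AlgebraicClosure ℚ

/-! ### The two halves of T7 -/

/-- **T7a** residual absolute irreducibility. -/
def Stmt_T7a : Prop :=
  ∀ (W : WeierstrassCurve ℤ), W.Δ ≠ 0 → W.IsSemistableModel →
    ∀ (p : ℕ) [Fact p.Prime], p ≠ 2 → ∀ (D : TateData W p),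
      W.ModRepIsIrreducible p → D.ρ.residual.IsAbsolutelyIrreducible

/-- **T7b** the Taylor–Wiles condition. -/
def Stmt_T7b : Prop :=
  ∀ (W : WeierstrassCurve ℤ), W.Δ ≠ 0 → W.IsSemistableModel →
    ∀ (p : ℕ) [Fact p.Prime], p ≠ 2 → ∀ (D : TateData W p),
      W.ModRepIsIrreducible p → Fermat.Agent.S59.TWCond D.ρ.residual

theorem stmt_T7_of (ha : Stmt_T7a) (hb : Stmt_T7b) : Stmt_T7 :=
  fun W hΔ hss p _ hp2 D hirr => ⟨ha W hΔ hss p hp2 D hirr, hb W hΔ hss p hp2 D hirr⟩

/-- **TWT** (torsion form of the Taylor–Wiles condition): for a semistable curve with irreducible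
`E[p]`, `p` odd, the image of every subgroup of index `2` of `Gal(Q̄/ℚ)` spans `End (E[p])`. -/
def Stmt_TWT : Prop :=
  ∀ (W : WeierstrassCurve ℤ), W.Δ ≠ 0 → W.IsSemistableModel →
    ∀ (p : ℕ) [Fact p.Prime], p ≠ 2 → W.ModRepIsIrreducible p →
      ∀ H : Subgroup GQ, H.index = 2 →
        Submodule.span (ZMod p) ((torsRho W p) '' (H : Set GQ)) = ⊤

/-- **XFER**: the torsion form gives the Taylor–Wiles condition of the residual representation of
any Tate datum (traces of `D.ρ.residual` are the traces on `E[p]`: `S58.H99.residual_trace_det`;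
Gram criterion `S58.H99.gram_det_eq_zero_of_stable`). -/
def Stmt_XFER : Prop := Stmt_TWT → Stmt_T7b

/-! ### Local types at `p` -/

/-- *Ordinary type* at `A`: a homomorphism on `E(Q̄)`, invariant under inertia, which does not
kill `E[p]`  (good ordinary reduction: the reduction map; multiplicative reduction: the
component homomorphism). -/
def OrdAt (W : WeierstrassCurve ℤ) (p : ℕ) (A : ValuationSubring Qb) : Prop :=
  ∃ (G : Type) (_ : AddCommGroup G) (c : EQbar W →+ G),
    (∃ P : EQbar W, p • P = 0 ∧ c P ≠ 0) ∧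
    ∀ σ ∈ A.inertiaSubgroupIn ℚ, ∀ P : EQbar W, c (σ • P) = c P

/-- *Supersingular type* at `A`: inertia acts on `E[p]` through a group which is commutative up to
sign, and the square of some element of inertia is not a scalar. -/
def SsAt (W : WeierstrassCurve ℤ) (p : ℕ) (A : ValuationSubring Qb) : Prop :=
  (∀ σ ∈ A.inertiaSubgroupIn ℚ, ∀ τ ∈ A.inertiaSubgroupIn ℚ, ∀ P : EQbar W, p • P = 0 →
      σ • τ • P = τ • σ • P ∨ σ • τ • P = -(τ • σ • P)) ∧
  ∃ τ ∈ A.inertiaSubgroupIn ℚ, ∀ n : ℕ, ∃ P : EQbar W, p • P = 0 ∧ τ • τ • P ≠ n • P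

/-- All nonzero `p`-torsion points have a non-integral `x`-coordinate at `A`
(they lie in the kernel of reduction). -/
def AllInKer (W : WeierstrassCurve ℤ) (p : ℕ) (A : ValuationSubring Qb) : Prop :=
  ∀ (x y : Qb) (h : ((W.map (Int.castRingHom ℚ)).toAffine⁄Qb).Nonsingular x y),
    p • (Point.some x y h : EQbar W) = 0 → x ∉ A

/-- **LOCbad**: multiplicative reduction at `p` is of ordinary type (from `T6.Stmt_LOC`). -/
def Stmt_LOCbad : Prop :=
  ∀ (W : WeierstrassCurve ℤ), W.Δ ≠ 0 → W.IsSemistableModel →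
    ∀ (p : ℕ), p.Prime → p ≠ 2 → ¬ W.IsGoodPrimeFor p →
      ∀ A : ValuationSubring Qb, A.LiesOverPrime p → OrdAt W p A

/-- **LOCgood**: good reduction at `p` with a `p`-torsion point outside the kernel of reduction
is of ordinary type (reduction map `Tate.H4.redQ`, `redQ_inertia`). -/
def Stmt_LOCgood : Prop :=
  ∀ (W : WeierstrassCurve ℤ), W.Δ ≠ 0 →
    ∀ (p : ℕ), p.Prime → p ≠ 2 → W.IsGoodPrimeFor p →
      ∀ A : ValuationSubring Qb, A.LiesOverPrime p → ¬ AllInKer W p A → OrdAt W p A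

/-- **LOCss**: if all of `E[p]` lies in the kernel of reduction, the curve is of supersingular
type at `A`. -/
def Stmt_LOCss : Prop :=
  ∀ (W : WeierstrassCurve ℤ), W.Δ ≠ 0 →
    ∀ (p : ℕ), p.Prime → p ≠ 2 →
      ∀ A : ValuationSubring Qb, A.LiesOverPrime p → AllInKer W p A → SsAt W p A

/-! ### The pieces of `Stmt_LOCss` -/

/-- **SSval** (Eisenstein): under `AllInKer`, `x(P)^((p²-1)/2) · p` is a unit of `A` for every
nonzero `P ∈ E[p]`.  [`preΨ'_p ∈ ℤ[X]` has leading coefficient `p`, degree `(p²-1)/2`, and its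
roots are the `x(P)` (`Lib/TorsionGen.prime_nsmul_eq_zero_iff_eval`); all roots are non-integral,
so the constant term is a unit at `p`, the middle coefficients are divisible by `p`, and the
reversed polynomial is Eisenstein.] -/
def Stmt_SSval : Prop :=
  ∀ (W : WeierstrassCurve ℤ), W.Δ ≠ 0 →
    ∀ (p : ℕ), p.Prime → p ≠ 2 →
      ∀ A : ValuationSubring Qb, A.LiesOverPrime p → AllInKer W p A →
        ∀ (x y : Qb) (h : ((W.map (Int.castRingHom ℚ)).toAffine⁄Qb).Nonsingular x y),
          p • (Point.some x y h : EQbar W) = 0 →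
            A.valuation (x ^ ((p ^ 2 - 1) / 2) * (p : Qb)) = 1

/-- **SSsep** (tame discriminant): under `AllInKer`, two `x`-coordinates of nonzero `p`-torsion
points which are congruent (`|x - x'| < |x|`) are equal.  [`f'(η) = c₀ ∏ (η - η')` for the
reversed polynomial `f`, and `|f'(η)| = |η|^(n-1)` since `p ∤ n = (p²-1)/2`.] -/
def Stmt_SSsep : Prop :=
  ∀ (W : WeierstrassCurve ℤ), W.Δ ≠ 0 →
    ∀ (p : ℕ), p.Prime → p ≠ 2 →
      ∀ A : ValuationSubring Qb, A.LiesOverPrime p → AllInKer W p A →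
        ∀ (x y : Qb) (h : ((W.map (Int.castRingHom ℚ)).toAffine⁄Qb).Nonsingular x y)
          (x' y' : Qb) (h' : ((W.map (Int.castRingHom ℚ)).toAffine⁄Qb).Nonsingular x' y'),
          p • (Point.some x y h : EQbar W) = 0 → p • (Point.some x' y' h' : EQbar W) = 0 →
            A.valuation (x - x') < A.valuation x → x = x'

/-- **SSmul** (multiplication formula): under `AllInKer`, `x(nP) · n² ≡ x(P)` for `0 < n < p`
and `P ∈ E[p]` nonzero.  [`Lib/TorsionGen/MulFormula.xc_nsmul_mul_eval_ΨSq`: `Φ_n` is monic of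
degree `n²`, `ΨSq_n` has leading coefficient `n²` and degree `n² - 1`, integral coefficients.] -/
def Stmt_SSmul : Prop :=
  ∀ (W : WeierstrassCurve ℤ), W.Δ ≠ 0 →
    ∀ (p : ℕ), p.Prime → p ≠ 2 →
      ∀ A : ValuationSubring Qb, A.LiesOverPrime p → AllInKer W p A →
        ∀ (x y : Qb) (h : ((W.map (Int.castRingHom ℚ)).toAffine⁄Qb).Nonsingular x y),
          p • (Point.some x y h : EQbar W) = 0 →
          ∀ (n : ℕ), 0 < n → n < p →
          ∀ (x' y' : Qb) (h' : ((W.map (Int.castRingHom ℚ)).toAffine⁄Qb).Nonsingular x' y'),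
            n • (Point.some x y h : EQbar W) = Point.some x' y' h' →
              A.valuation (x' * (n : Qb) ^ 2 - x) < A.valuation x

/-- **RAD** (tame ramification of radicals): if `|z|^e = |p|⁻¹` with `e ≥ 2` prime to `p`, some
element of the inertia group at `A` moves `z` modulo `z · 𝔪_A`.
[Otherwise inertia fixes `y` with `y^e = p` and `μ_e`, so `ℚ(y, μ_e)` is unramified at
`primeBelow A` (`Lib/MinkowskiCore.inertia_primeBelow_eq_bot`), but `p = y^e ∈ 𝔓^2`.] -/
def Stmt_RAD : Prop :=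
  ∀ (p : ℕ), p.Prime → ∀ A : ValuationSubring Qb, A.LiesOverPrime p →
    ∀ (z : Qb) (e : ℕ), 2 ≤ e → ¬ p ∣ e → A.valuation (z ^ e * (p : Qb)) = 1 →
      ∃ σ ∈ A.inertiaSubgroupIn ℚ, ¬ A.valuation (σ z - z) < A.valuation z

/-- **CYC**: the inertia group at `A ∣ p` surjects onto `Gal(ℚ(μ_p)/ℚ)`.
[Minkowski `Lib/Minkowski.hom_eq_one_of_unramified_everywhere` for the cyclotomic character
modulo the image of inertia; inertia at `q ≠ p` fixes `μ_p`.] -/
def Stmt_CYC : Prop :=
  ∀ (p : ℕ), p.Prime → ∀ A : ValuationSubring Qb, A.LiesOverPrime p →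
    ∀ a : ℕ, ¬ p ∣ a → ∃ σ ∈ A.inertiaSubgroupIn ℚ, ∀ μ : Qb, μ ^ p = 1 → σ μ = μ ^ a

end Fermat.Agent.Tate.T7

end
-- ==== END Fermat.Agent.Tate.T7.Defs

-- ==== BEGIN Fermat.Agent.Tate.T7.H7_Alg
section

set_option autoImplicit false

open TensorProduct

namespace Fermat.Agent.Tate.T7.H7

/-! ### `2 × 2` matrices -/

section Mat

variable {K : Type*} [Field K]

/-- A diagonal or antidiagonal invertible matrix `X` with `(X - a)² = 0` is the scalar `a`. -/
theorem mat_eq_scalar_of_sq (h2 : (2 : K) ≠ 0) (X : Matrix (Fin 2) (Fin 2) K) (a : K)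
    (hX : (X 0 1 = 0 ∧ X 1 0 = 0) ∨ (X 0 0 = 0 ∧ X 1 1 = 0)) (hdet : X.det ≠ 0)
    (hsq : (X - a • (1 : Matrix (Fin 2) (Fin 2) K)) * (X - a • 1) = 0) : X = a • 1 := by
  have e00 := congrFun (congrFun hsq 0) 0
  have e01 := congrFun (congrFun hsq 0) 1
  have e11 := congrFun (congrFun hsq 1) 1
  simp only [Matrix.mul_apply, Fin.sum_univ_two, Matrix.sub_apply, Matrix.smul_apply,
    Matrix.one_apply_eq, Matrix.one_apply_ne, ne_eq, zero_ne_one, one_ne_zero, not_false_eq_true,
    smul_eq_mul, mul_one, mul_zero, sub_zero, Matrix.zero_apply] at e00 e01 e11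
  rw [Matrix.det_fin_two] at hdet
  rcases hX with ⟨h01, h10⟩ | ⟨h00, h11⟩
  · rw [h01, h10] at e00 e11
    have a0 : X 0 0 = a := by
      have : (X 0 0 - a) * (X 0 0 - a) = 0 := by linear_combination e00
      exact sub_eq_zero.mp (mul_self_eq_zero.mp this)
    have a1 : X 1 1 = a := by
      have : (X 1 1 - a) * (X 1 1 - a) = 0 := by linear_combination e11
      exact sub_eq_zero.mp (mul_self_eq_zero.mp this)
    ext i j
    fin_cases i <;> fin_cases j <;> simp [a0, a1, h01, h10]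
  · exfalso
    rw [h00, h11] at e01 hdet
    have hc : X 0 1 ≠ 0 := fun h => hdet (by rw [h]; ring)
    have ha : a = 0 := by
      have : (2 * a) * X 0 1 = 0 := by linear_combination -e01
      rcases mul_eq_zero.mp this with h | h
      · exact (mul_eq_zero.mp h).resolve_left h2
      · exact absurd h hc
    rw [h00, ha] at e00
    apply hdet
    linear_combination -e00

/-- An antidiagonal matrix squares to a scalar. -/
theorem mat_anti_sq (X : Matrix (Fin 2) (Fin 2) K) (h00 : X 0 0 = 0) (h11 : X 1 1 = 0) :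
    X * X = (-X.det) • (1 : Matrix (Fin 2) (Fin 2) K) := by
  ext i j
  fin_cases i <;> fin_cases j <;>
    simp [Matrix.mul_apply, Fin.sum_univ_two, Matrix.det_fin_two, h00, h11]
  all_goals ring

/-- If an invertible antidiagonal `X` and a diagonal `Y` commute up to a nilpotent, or
anticommute, then `Y²` is a scalar. -/
theorem mat_diag_sq_scalar (X Y : Matrix (Fin 2) (Fin 2) K) (h00 : X 0 0 = 0) (h11 : X 1 1 = 0)
    (hdet : X.det ≠ 0) (k01 : Y 0 1 = 0) (k10 : Y 1 0 = 0)
    (h : (X * Y - Y * X).det = 0 ∨ X * Y = -(Y * X)) :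
    Y * Y = (Y 0 0 * Y 0 0) • (1 : Matrix (Fin 2) (Fin 2) K) := by
  rw [Matrix.det_fin_two, h00, h11] at hdet
  have hc : X 0 1 ≠ 0 := fun h => hdet (by rw [h]; ring)
  have hd : X 1 0 ≠ 0 := fun h => hdet (by rw [h]; ring)
  have key : Y 1 1 * Y 1 1 = Y 0 0 * Y 0 0 := by
    rcases h with h | h
    · rw [Matrix.det_fin_two] at h
      simp only [Matrix.mul_apply, Fin.sum_univ_two, Matrix.sub_apply, h00, h11, k01, k10,
        mul_zero, zero_mul, add_zero, zero_add, sub_self] at h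
      have h' : X 0 1 * X 1 0 * ((Y 1 1 - Y 0 0) * (Y 1 1 - Y 0 0)) = 0 := by
        linear_combination h
      have h'' : Y 1 1 - Y 0 0 = 0 :=
        mul_self_eq_zero.mp ((mul_eq_zero.mp h').resolve_left (mul_ne_zero hc hd))
      rw [sub_eq_zero.mp h'']
    · have e := congrFun (congrFun h 0) 1
      simp only [Matrix.mul_apply, Fin.sum_univ_two, Matrix.neg_apply, h00, k01,
        mul_zero, zero_mul, add_zero, zero_add] at e
      have h' : X 0 1 * (Y 1 1 + Y 0 0) = 0 := by linear_combination e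
      have h'' : Y 1 1 = -Y 0 0 :=
        eq_neg_of_add_eq_zero_left ((mul_eq_zero.mp h').resolve_left hc)
      rw [h'']; ring
  ext i j
  fin_cases i <;> fin_cases j <;>
    simp [Matrix.mul_apply, Fin.sum_univ_two, k01, k10, key]

end Mat

/-! ### The dihedral model -/

section Model

variable {F : Type*} [Field F] {V : Type*} [AddCommGroup V] [Module F V]
  {G : Type*} [Group G]

/-- **The dihedral model.**  `r` irreducible over `K`, `H` of index two with a stable line over
`K`: there is an injective algebra homomorphism `φ : End V → M₂(K)`, compatible with traces and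
determinants, such that `φ (r h)` is diagonal for `h ∈ H` and antidiagonal for `h ∉ H`. -/
theorem exists_model (K : Type*) [Field K] [Algebra F K] (hV : Module.finrank F V = 2)
    (r : G →* Module.End F V) (H : Subgroup G) (hH : H.index = 2)
    (V' : Submodule K (K ⊗[F] V)) (h0 : V' ≠ ⊥) (h1 : V' ≠ ⊤)
    (hstab : ∀ h ∈ H, ∀ x ∈ V', (r h).baseChange K x ∈ V')
    (hirr : ∀ W' : Submodule K (K ⊗[F] V),
      (∀ g, ∀ x ∈ W', (r g).baseChange K x ∈ W') → W' = ⊥ ∨ W' = ⊤) :
    ∃ φ : Module.End F V →ₐ[F] Matrix (Fin 2) (Fin 2) K,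
      Function.Injective φ ∧
      (∀ x, (φ x).trace = algebraMap F K (LinearMap.trace F V x)) ∧
      (∀ x, (φ x).det = algebraMap F K (LinearMap.det x)) ∧
      (∀ h ∈ H, φ (r h) 0 1 = 0 ∧ φ (r h) 1 0 = 0) ∧
      (∀ g, g ∉ H → φ (r g) 0 0 = 0 ∧ φ (r g) 1 1 = 0) := by
  classical
  have hfin : Module.Finite F V := Module.finite_of_finrank_eq_succ hV
  have hVK : Module.finrank K (K ⊗[F] V) = 2 := by rw [Module.finrank_baseChange, hV]
  have hHn : H.Normal := Subgroup.normal_of_index_eq_two hH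
  -- the group action over `K`
  let ρ : G →* Module.End K (K ⊗[F] V) :=
    { toFun := fun g => (r g).baseChange K
      map_one' := by rw [map_one, LinearMap.baseChange_one]
      map_mul' := fun a b => by rw [map_mul, LinearMap.baseChange_mul] }
  have hρ : ∀ g x, ρ g x = (r g).baseChange K x := fun _ _ => rfl
  have hρmul : ∀ a b x, ρ (a * b) x = ρ a (ρ b x) := fun a b x => by
    rw [map_mul]; rfl
  obtain ⟨e, heV, he0⟩ := Submodule.exists_mem_ne_zero_of_ne_bot h0
  obtain ⟨g₀, hg₀, -⟩ := Subgroup.index_eq_two_iff_exists_notMem_and.mp hH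
  -- `V'` is the line through `e`
  have hline : V' = Submodule.span K {e} := by
    symm
    apply Submodule.eq_of_le_of_finrank_le
    · rw [Submodule.span_singleton_le_iff_mem]; exact heV
    · rw [finrank_span_singleton he0]
      have := Submodule.finrank_lt h1
      rw [hVK] at this
      omega
  have hmem : ∀ x ∈ V', ∃ c : K, x = c • e := by
    intro x hx
    rw [hline, Submodule.mem_span_singleton] at hx
    obtain ⟨c, rfl⟩ := hx
    exact ⟨c, rfl⟩
  have hHe : ∀ h ∈ H, ∃ c : K, ρ h e = c • e := fun h hh => hmem _ (hstab h hh e heV)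
  -- elements outside `H`
  have hout : ∀ g, g ∉ H → g₀⁻¹ * g ∈ H := by
    intro g hg
    rw [Subgroup.mul_mem_iff_of_index_two hH]
    constructor
    · intro h; exact absurd (H.inv_mem_iff.mp h) hg₀
    · intro h; exact absurd h hg
  have hout' : ∀ g, g ∉ H → g * g₀ ∈ H := by
    intro g hg
    rw [Subgroup.mul_mem_iff_of_index_two hH]
    constructor
    · intro h; exact absurd h hg
    · intro h; exact absurd h hg₀
  set e' : K ⊗[F] V := ρ g₀ e with he'
  have hGe : ∀ g, g ∉ H → ∃ c : K, ρ g e = c • e' := by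
    intro g hg
    obtain ⟨c, hc⟩ := hHe _ (hout g hg)
    refine ⟨c, ?_⟩
    have : g = g₀ * (g₀⁻¹ * g) := by group
    rw [this, hρmul, hc, map_smul]
  have hHe' : ∀ h ∈ H, ∃ c : K, ρ h e' = c • e' := by
    intro h hh
    have hh' : g₀⁻¹ * h * g₀ ∈ H := by
      have := hHn.conj_mem h hh g₀⁻¹
      simpa using this
    obtain ⟨c, hc⟩ := hHe _ hh'
    refine ⟨c, ?_⟩
    have : h * g₀ = g₀ * (g₀⁻¹ * h * g₀) := by group
    rw [he', ← hρmul, this, hρmul, hc, map_smul]
  have hGe' : ∀ g, g ∉ H → ∃ c : K, ρ g e' = c • e := by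
    intro g hg
    obtain ⟨c, hc⟩ := hHe _ (hout' g hg)
    exact ⟨c, by rw [he', ← hρmul, hc]⟩
  -- `e, e'` are linearly independent
  have hli : LinearIndependent K ![e, e'] := by
    rw [LinearIndependent.pair_iff]
    intro s t hst
    have ht : t = 0 := by
      by_contra ht
      have he'V : e' ∈ V' := by
        have : e' = (-(t⁻¹ * s)) • e := by
          have h2 : t • e' = -(s • e) := eq_neg_of_add_eq_zero_right hst
          calc e' = t⁻¹ • (t • e') := by rw [smul_smul, inv_mul_cancel₀ ht, one_smul]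
            _ = (-(t⁻¹ * s)) • e := by rw [h2, smul_neg, smul_smul, ← neg_smul]
        rw [this]
        exact V'.smul_mem _ heV
      have hg₀V : ∀ x ∈ V', ρ g₀ x ∈ V' := by
        intro x hx
        obtain ⟨c, rfl⟩ := hmem x hx
        rw [map_smul]
        exact V'.smul_mem _ he'V
      have hall : ∀ g, ∀ x ∈ V', (r g).baseChange K x ∈ V' := by
        intro g x hx
        by_cases hg : g ∈ H
        · exact hstab g hg x hx
        · have : g = g₀ * (g₀⁻¹ * g) := by group
          rw [← hρ, this, hρmul]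
          exact hg₀V _ (hstab _ (hout g hg) x hx)
      rcases hirr V' hall with h | h
      · exact h0 h
      · exact h1 h
    refine ⟨?_, ht⟩
    rw [ht, zero_smul, add_zero] at hst
    exact (smul_eq_zero.mp hst).resolve_right he0
  let b : Module.Basis (Fin 2) K (K ⊗[F] V) :=
    basisOfLinearIndependentOfCardEqFinrank hli (by rw [hVK]; simp)
  have hb0 : b 0 = e := by
    simp [b, coe_basisOfLinearIndependentOfCardEqFinrank]
  have hb1 : b 1 = e' := by
    simp [b, coe_basisOfLinearIndependentOfCardEqFinrank]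
  -- the algebra homomorphism
  let φ : Module.End F V →ₐ[F] Matrix (Fin 2) (Fin 2) K :=
    ((LinearMap.toMatrixAlgEquiv b).toAlgHom.restrictScalars F).comp
      (Module.End.baseChangeHom F K V)
  have hφ : ∀ x, φ x = LinearMap.toMatrix b b (x.baseChange K) := fun _ => rfl
  have hentry : ∀ (x : Module.End F V) (i j : Fin 2),
      φ x i j = b.repr (x.baseChange K (b j)) i := by
    intro x i j
    rw [hφ, LinearMap.toMatrix_apply]
  have r00 : b.repr e 0 = 1 := by rw [← hb0, b.repr_self]; simp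
  have r01 : b.repr e 1 = 0 := by rw [← hb0, b.repr_self]; simp
  have r10 : b.repr e' 0 = 0 := by rw [← hb1, b.repr_self]; simp
  have r11 : b.repr e' 1 = 1 := by rw [← hb1, b.repr_self]; simp
  refine ⟨φ, ?_, ?_, ?_, ?_, ?_⟩
  · intro x y hxy
    have h1 : (Module.End.baseChangeHom F K V) x = (Module.End.baseChangeHom F K V) y :=
      (LinearMap.toMatrixAlgEquiv b).injective hxy
    exact LinearMap.baseChangeHom_injective F V K h1
  · intro x
    rw [hφ, ← LinearMap.trace_eq_matrix_trace K b, LinearMap.trace_baseChange]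
  · intro x
    rw [hφ, LinearMap.det_toMatrix, LinearMap.det_baseChange]
  · intro h hh
    obtain ⟨c, hc⟩ := hHe h hh
    obtain ⟨c', hc'⟩ := hHe' h hh
    rw [hρ] at hc hc'
    constructor
    · rw [hentry, hb1, hc', map_smul, Finsupp.smul_apply, r10, smul_zero]
    · rw [hentry, hb0, hc, map_smul, Finsupp.smul_apply, r01, smul_zero]
  · intro g hg
    obtain ⟨c, hc⟩ := hGe g hg
    obtain ⟨c', hc'⟩ := hGe' g hg
    rw [hρ] at hc hc'
    constructor
    · rw [hentry, hb0, hc, map_smul, Finsupp.smul_apply, r10, smul_zero]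
    · rw [hentry, hb1, hc', map_smul, Finsupp.smul_apply, r01, smul_zero]

/-- **KL1–KL3.**  In the situation of `exists_model` (characteristic `≠ 2`):
* elements outside `H` have trace `0`;
* an element `r g` with `(r g - a)² = 0` is the scalar `a`;
* if `σ ∉ H` and `r σ`, `r τ` commute up to a nilpotent, or anticommute, then `(r τ)²` is a
  scalar. -/
theorem kl (K : Type*) [Field K] [Algebra F K] (h2 : (2 : F) ≠ 0)
    (hV : Module.finrank F V = 2)
    (r : G →* Module.End F V) (H : Subgroup G) (hH : H.index = 2)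
    (V' : Submodule K (K ⊗[F] V)) (h0 : V' ≠ ⊥) (h1 : V' ≠ ⊤)
    (hstab : ∀ h ∈ H, ∀ x ∈ V', (r h).baseChange K x ∈ V')
    (hirr : ∀ W' : Submodule K (K ⊗[F] V),
      (∀ g, ∀ x ∈ W', (r g).baseChange K x ∈ W') → W' = ⊥ ∨ W' = ⊤) :
    (∀ g, g ∉ H → LinearMap.trace F V (r g) = 0) ∧
    (∀ g (a : F), (r g - a • 1) * (r g - a • 1) = 0 → r g = a • 1) ∧
    (∀ σ, σ ∉ H → ∀ τ,
      (LinearMap.det (r σ * r τ - r τ * r σ) = 0 ∨ r σ * r τ = -(r τ * r σ)) →
        ∃ a : F, r τ * r τ = a • 1) := by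
  classical
  obtain ⟨φ, hinj, htr, hdet, hdiag, hanti⟩ := exists_model K hV r H hH V' h0 h1 hstab hirr
  have hamK : Function.Injective (algebraMap F K) := (algebraMap F K).injective
  have h2K : (2 : K) ≠ 0 := by
    intro h
    apply h2
    apply hamK
    rw [map_ofNat, map_zero]
    exact h
  have hsc : ∀ a : F, φ (a • (1 : Module.End F V)) =
      (algebraMap F K a) • (1 : Matrix (Fin 2) (Fin 2) K) := by
    intro a
    rw [map_smul, map_one, algebraMap_smul]
  have hdetne : ∀ g, (φ (r g)).det ≠ 0 := by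
    intro g
    have h : (φ (r g)).det * (φ (r g⁻¹)).det = 1 := by
      rw [← Matrix.det_mul, ← map_mul, ← map_mul, mul_inv_cancel, map_one, map_one,
        Matrix.det_one]
    exact left_ne_zero_of_mul_eq_one h
  have hshape : ∀ g, (φ (r g) 0 1 = 0 ∧ φ (r g) 1 0 = 0) ∨ (φ (r g) 0 0 = 0 ∧ φ (r g) 1 1 = 0) := by
    intro g
    by_cases hg : g ∈ H
    · exact Or.inl (hdiag g hg)
    · exact Or.inr (hanti g hg)
  refine ⟨?_, ?_, ?_⟩
  · intro g hg
    apply hamK
    rw [← htr, map_zero, Matrix.trace_fin_two, (hanti g hg).1, (hanti g hg).2, add_zero]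
  · intro g a hsq
    apply hinj
    rw [hsc]
    apply mat_eq_scalar_of_sq h2K _ _ (hshape g) (hdetne g)
    have := congrArg φ hsq
    rw [map_mul, map_sub, hsc, map_zero] at this
    exact this
  · intro σ hσ τ hcomm
    have hX := hanti σ hσ
    by_cases hτ : τ ∈ H
    · have hY := hdiag τ hτ
      have hcomm' : (φ (r σ) * φ (r τ) - φ (r τ) * φ (r σ)).det = 0 ∨
          φ (r σ) * φ (r τ) = -(φ (r τ) * φ (r σ)) := by
        rcases hcomm with h | h
        · left
          have e1 : φ (r σ * r τ - r τ * r σ) = φ (r σ) * φ (r τ) - φ (r τ) * φ (r σ) := by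
            rw [map_sub, map_mul, map_mul]
          rw [← e1, hdet, h, map_zero]
        · right
          have e1 := congrArg φ h
          rw [map_neg, map_mul, map_mul] at e1
          exact e1
      have key := mat_diag_sq_scalar (φ (r σ)) (φ (r τ)) hX.1 hX.2 (hdetne σ) hY.1 hY.2 hcomm'
      -- the scalar is half the trace
      have htr2 : (φ (r τ * r τ)).trace = 2 * (φ (r τ) 0 0 * φ (r τ) 0 0) := by
        rw [map_mul, key, Matrix.trace_smul, Matrix.trace_one]
        simp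
        ring
      refine ⟨LinearMap.trace F V (r τ * r τ) / 2, ?_⟩
      apply hinj
      rw [hsc, map_mul, key]
      congr 1
      rw [map_div₀, ← htr, htr2, map_ofNat]
      field_simp
    · have hY := hanti τ hτ
      refine ⟨-LinearMap.det (r τ), ?_⟩
      apply hinj
      rw [hsc, map_mul, mat_anti_sq _ hY.1 hY.2, map_neg, hdet]

end Model

end Fermat.Agent.Tate.T7.H7

end
-- ==== END Fermat.Agent.Tate.T7.H7_Alg
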