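-- GENERATED (merged mirror, NOTES/tools/trim/merge3_helper67.py): 15 modules of the originals, bodies verbatim.
import Mathlib
import Fermat.Agent.Zm.S43_L01_001
import Fermat.Agent.Zm.S15_L02_002
import Fermat.Agent.Zm.S43_L01_000
import Fermat.Agent.Zm.S43_L01_005
import Fermat.Agent.Zm.S48_L08_000
import Fermat.Agent.Zm.S43_L01_002
import Fermat.Agent.Zm.S48_L13_000
import Fermat.Agent.Zm.S35_L02_000
import Fermat.Agent.Zm.S48_L04_000
import Fermat.Agent.Zm.S43_L01_003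
import Fermat.Agent.Zm.S33_L04_001

-- ==== BEGIN Fermat.Agent.L.Pivot.H3_End2
section

set_option autoImplicit false

namespace Fermat.Agent.L.Pivot.H3

open Ideal

section main2

variable {S P : Type*} [CommRing S] [CommRing P] [Algebra S P]

/-- Core of the endgame: as `pivot_endgame`, but assuming directly that `𝔮` lies in the support
of `Mχ`. -/
theorem pivot_endgame_core
    {Mχ M₁ : Type*} [AddCommGroup Mχ] [Module S Mχ] [Module P Mχ] [IsScalarTower S P Mχ]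
    [Module.Finite S Mχ]
    [AddCommGroup M₁] [Module S M₁] [Module P M₁] [IsScalarTower S P M₁] [Module.Finite S M₁]
    (htf₁ : ∀ (s : S) (m : M₁), s • m = 0 → s = 0 ∨ m = 0)
    (π : S) (𝔰 : Ideal S) [𝔰.IsPrime]
    (d : ℕ) (hd : (d : WithBot ℕ∞) ≤ ringKrullDim S)
    (hcomp : Module.annihilator P (M₁ ⧸ (Ideal.span {algebraMap S P π} • ⊤ : Submodule P M₁))
      ≤ Module.annihilator P (Mχ ⧸ (Ideal.span {algebraMap S P π} • ⊤ : Submodule P Mχ)))
    (𝔮 𝔵 : Ideal P) [𝔮.IsPrime] [𝔵.IsPrime]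
    (hχ𝔮 : Module.annihilator P Mχ ≤ 𝔮) (hπ𝔮 : algebraMap S P π ∈ 𝔮)
    (h𝔵dim : ringKrullDim (P ⧸ 𝔵) ≤ d)
    (hdich : ∀ 𝔭 : Ideal P, 𝔭.IsPrime → Module.annihilator P M₁ ≤ 𝔭 → 𝔭 ≤ 𝔮 → 𝔵 ≤ 𝔭) :
    ∃ 𝔯 : Ideal P, 𝔯.IsPrime ∧ Module.annihilator P M₁ ≤ 𝔯 ∧ 𝔵 ≤ 𝔯 ∧
      𝔯.comap (algebraMap S P) = 𝔰 := by
  have hfinχ : Module.Finite P Mχ := Module.Finite.of_restrictScalars_finite S P Mχ
  have hq1 : (⟨𝔮, inferInstance⟩ : PrimeSpectrum P) ∈ Module.support P Mχ := by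
    rw [Module.support_eq_zeroLocus, PrimeSpectrum.mem_zeroLocus]
    exact hχ𝔮
  have hq2 : (⟨𝔮, inferInstance⟩ : PrimeSpectrum P) ∈
      PrimeSpectrum.zeroLocus (Ideal.span {algebraMap S P π} : Set P) := by
    rw [PrimeSpectrum.mem_zeroLocus]
    intro x hx
    exact (Ideal.span_singleton_le_iff_mem (I := 𝔮)).2 hπ𝔮 hx
  have hq3 : (⟨𝔮, inferInstance⟩ : PrimeSpectrum P) ∈
      Module.support P (Mχ ⧸ (Ideal.span {algebraMap S P π} • ⊤ : Submodule P Mχ)) := by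
    rw [Module.support_quotient]
    exact ⟨hq1, hq2⟩
  have hq4 : Module.annihilator P (Mχ ⧸ (Ideal.span {algebraMap S P π} • ⊤ : Submodule P Mχ))
      ≤ 𝔮 := by
    rw [Module.support_eq_zeroLocus, PrimeSpectrum.mem_zeroLocus] at hq3
    exact hq3
  have hA₁𝔮 : Module.annihilator P M₁ ≤ 𝔮 :=
    ((LinearMap.annihilator_le_of_surjective _ (Submodule.mkQ_surjective
      (Ideal.span {algebraMap S P π} • ⊤ : Submodule P M₁))).trans hcomp).trans hq4
  obtain ⟨𝔭, h𝔭min, h𝔭𝔮⟩ := Ideal.exists_minimalPrimes_le hA₁𝔮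
  have h𝔭prime : 𝔭.IsPrime := h𝔭min.1.1
  have hA₁𝔭 : Module.annihilator P M₁ ≤ 𝔭 := h𝔭min.1.2
  have h𝔵𝔭 : 𝔵 ≤ 𝔭 := hdich 𝔭 h𝔭prime hA₁𝔭 h𝔭𝔮
  have h𝔭bot : 𝔭.comap (algebraMap S P) = ⊥ := comap_eq_bot_of_mem_minimalPrimes htf₁ h𝔭min
  have hinj𝔭 : Function.Injective (algebraMap S (P ⧸ 𝔭)) := by
    rw [injective_iff_map_eq_zero]
    intro s hs
    rw [IsScalarTower.algebraMap_apply S P (P ⧸ 𝔭), Ideal.Quotient.algebraMap_eq,
      Ideal.Quotient.eq_zero_iff_mem] at hs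
    have : s ∈ 𝔭.comap (algebraMap S P) := hs
    rwa [h𝔭bot, Ideal.mem_bot] at this
  have hint𝔭 : Algebra.IsIntegral S (P ⧸ 𝔭) :=
    isIntegral_quotient_annihilator (S := S) (M := M₁) 𝔭 hA₁𝔭
  have hdim𝔭 : ringKrullDim S ≤ ringKrullDim (P ⧸ 𝔭) :=
    ringKrullDim_le_of_isIntegral_of_injective hinj𝔭
  have h𝔭𝔵 : 𝔭 ≤ 𝔵 := by
    by_contra hne
    obtain ⟨x, hx𝔭, hx𝔵⟩ := SetLike.not_le_iff_exists.1 hne
    have h2 : ringKrullDim (P ⧸ 𝔭) + 1 ≤ ringKrullDim (P ⧸ 𝔵) := by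
      refine ringKrullDim_succ_le_of_surjective (Ideal.Quotient.factor h𝔵𝔭)
        (Ideal.Quotient.factor_surjective h𝔵𝔭) (r := Ideal.Quotient.mk 𝔵 x) ?_ ?_
      · apply mem_nonZeroDivisors_of_ne_zero
        rwa [Ne, Ideal.Quotient.eq_zero_iff_mem]
      · rw [Ideal.Quotient.factor_mk]
        exact Ideal.Quotient.eq_zero_iff_mem.2 hx𝔭
    exact dim_absurd (hd.trans hdim𝔭) h2 h𝔵dim
  have h𝔭eq : 𝔭 = 𝔵 := le_antisymm h𝔭𝔵 h𝔵𝔭
  subst h𝔭eq
  have hker : (⊥ : Ideal (P ⧸ 𝔭)).comap (algebraMap S (P ⧸ 𝔭)) ≤ 𝔰 := by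
    have : (⊥ : Ideal (P ⧸ 𝔭)).comap (algebraMap S (P ⧸ 𝔭)) = ⊥ := by
      rw [← RingHom.ker_eq_comap_bot]
      exact (RingHom.injective_iff_ker_eq_bot _).1 hinj𝔭
    rw [this]; exact bot_le
  obtain ⟨Q, -, hQ, hQ𝔰⟩ := Ideal.exists_ideal_over_prime_of_isIntegral 𝔰 ⊥ hker
  refine ⟨Q.comap (Ideal.Quotient.mk 𝔭), Ideal.comap_isPrime _ _, ?_, ?_, ?_⟩
  · refine hA₁𝔭.trans ?_
    intro x hx
    rw [Ideal.mem_comap, Ideal.Quotient.eq_zero_iff_mem.2 hx]
    exact Q.zero_mem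
  · intro x hx
    rw [Ideal.mem_comap, Ideal.Quotient.eq_zero_iff_mem.2 hx]
    exact Q.zero_mem
  · rw [← hQ𝔰, Ideal.comap_comap]
    rfl

/-- **Support of the ramified-type module.**  A nonzero torsion-free finite `S`-module `M` with
a compatible action of `P`, killed by the intersection of finitely many primes `𝔞 i` with
`dim P/𝔞 i ≤ d ≤ dim S`: some `𝔞 i` contains the annihilator of `M`
(i.e. `V(𝔞 i)` lies in the support). -/
theorem exists_annihilator_le_of_inf {M : Type*} [AddCommGroup M] [Module S M] [Module P M]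
    [IsScalarTower S P M] [Module.Finite S M] [Nontrivial M]
    (htf : ∀ (s : S) (m : M), s • m = 0 → s = 0 ∨ m = 0)
    (d : ℕ) (hd : (d : WithBot ℕ∞) ≤ ringKrullDim S)
    {ι : Type*} (t : Finset ι) (𝔞 : ι → Ideal P) (h𝔞prime : ∀ i ∈ t, (𝔞 i).IsPrime)
    (h𝔞 : t.inf 𝔞 ≤ Module.annihilator P M)
    (hdim : ∀ i ∈ t, ringKrullDim (P ⧸ 𝔞 i) ≤ d) :
    ∃ i ∈ t, Module.annihilator P M ≤ 𝔞 i := by
  have hne : Module.annihilator P M ≠ ⊤ := by
    intro h
    obtain ⟨m, hm⟩ := exists_ne (0 : M)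
    have h1 : (1 : P) ∈ Module.annihilator P M := by rw [h]; trivial
    have := Module.mem_annihilator.1 h1 m
    rw [one_smul] at this
    exact hm this
  obtain ⟨𝔪, h𝔪max, h𝔪⟩ := Ideal.exists_le_maximal _ hne
  have : 𝔪.IsPrime := h𝔪max.isPrime
  obtain ⟨𝔭, h𝔭min, -⟩ := Ideal.exists_minimalPrimes_le h𝔪
  have h𝔭prime : 𝔭.IsPrime := h𝔭min.1.1
  have hA𝔭 : Module.annihilator P M ≤ 𝔭 := h𝔭min.1.2
  obtain ⟨i, hi, hi𝔭⟩ := (Ideal.IsPrime.inf_le' h𝔭prime).1 (h𝔞.trans hA𝔭)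
  refine ⟨i, hi, ?_⟩
  have hprime_i : (𝔞 i).IsPrime := h𝔞prime i hi
  have h𝔭bot : 𝔭.comap (algebraMap S P) = ⊥ := comap_eq_bot_of_mem_minimalPrimes htf h𝔭min
  have hinj𝔭 : Function.Injective (algebraMap S (P ⧸ 𝔭)) := by
    rw [injective_iff_map_eq_zero]
    intro s hs
    rw [IsScalarTower.algebraMap_apply S P (P ⧸ 𝔭), Ideal.Quotient.algebraMap_eq,
      Ideal.Quotient.eq_zero_iff_mem] at hs
    have : s ∈ 𝔭.comap (algebraMap S P) := hs
    rwa [h𝔭bot, Ideal.mem_bot] at this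
  have hint𝔭 : Algebra.IsIntegral S (P ⧸ 𝔭) :=
    isIntegral_quotient_annihilator (S := S) (M := M) 𝔭 hA𝔭
  have hdim𝔭 : ringKrullDim S ≤ ringKrullDim (P ⧸ 𝔭) :=
    ringKrullDim_le_of_isIntegral_of_injective hinj𝔭
  have h𝔭le : 𝔭 ≤ 𝔞 i := by
    by_contra hne'
    obtain ⟨x, hx𝔭, hx𝔞⟩ := SetLike.not_le_iff_exists.1 hne'
    have h2 : ringKrullDim (P ⧸ 𝔭) + 1 ≤ ringKrullDim (P ⧸ 𝔞 i) := by
      refine ringKrullDim_succ_le_of_surjective (Ideal.Quotient.factor hi𝔭)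
        (Ideal.Quotient.factor_surjective hi𝔭) (r := Ideal.Quotient.mk (𝔞 i) x) ?_ ?_
      · apply mem_nonZeroDivisors_of_ne_zero
        rwa [Ne, Ideal.Quotient.eq_zero_iff_mem]
      · rw [Ideal.Quotient.factor_mk]
        exact Ideal.Quotient.eq_zero_iff_mem.2 hx𝔭
    exact dim_absurd (hd.trans hdim𝔭) h2 (hdim i hi)
  exact hA𝔭.trans h𝔭le

/-- **PV-END, several types.**  As `pivot_endgame`, with the single prime `𝔞` replaced by a
finite family of primes `𝔞 i` (one for each inertial type different from the unipotent one),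
each of dimension `≤ d` and each contained in `𝔮`, whose intersection kills `Mχ`. -/
theorem pivot_endgame_multi
    {Mχ M₁ : Type*} [AddCommGroup Mχ] [Module S Mχ] [Module P Mχ] [IsScalarTower S P Mχ]
    [Module.Finite S Mχ] [Nontrivial Mχ]
    [AddCommGroup M₁] [Module S M₁] [Module P M₁] [IsScalarTower S P M₁] [Module.Finite S M₁]
    (htfχ : ∀ (s : S) (m : Mχ), s • m = 0 → s = 0 ∨ m = 0)
    (htf₁ : ∀ (s : S) (m : M₁), s • m = 0 → s = 0 ∨ m = 0)
    (π : S) (𝔰 : Ideal S) [𝔰.IsPrime]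
    (d : ℕ) (hd : (d : WithBot ℕ∞) ≤ ringKrullDim S)
    {ι : Type*} (t : Finset ι) (𝔞 : ι → Ideal P) (h𝔞prime : ∀ i ∈ t, (𝔞 i).IsPrime)
    (h𝔞 : t.inf 𝔞 ≤ Module.annihilator P Mχ)
    (h𝔞dim : ∀ i ∈ t, ringKrullDim (P ⧸ 𝔞 i) ≤ d)
    (hcomp : Module.annihilator P (M₁ ⧸ (Ideal.span {algebraMap S P π} • ⊤ : Submodule P M₁))
      ≤ Module.annihilator P (Mχ ⧸ (Ideal.span {algebraMap S P π} • ⊤ : Submodule P Mχ)))
    (𝔮 𝔵 : Ideal P) [𝔮.IsPrime] [𝔵.IsPrime] (h𝔞𝔮 : ∀ i ∈ t, 𝔞 i ≤ 𝔮)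
    (hπ𝔮 : algebraMap S P π ∈ 𝔮)
    (h𝔵dim : ringKrullDim (P ⧸ 𝔵) ≤ d)
    (hdich : ∀ 𝔭 : Ideal P, 𝔭.IsPrime → Module.annihilator P M₁ ≤ 𝔭 → 𝔭 ≤ 𝔮 → 𝔵 ≤ 𝔭) :
    ∃ 𝔯 : Ideal P, 𝔯.IsPrime ∧ Module.annihilator P M₁ ≤ 𝔯 ∧ 𝔵 ≤ 𝔯 ∧
      𝔯.comap (algebraMap S P) = 𝔰 := by
  obtain ⟨i, hi, hAi⟩ := exists_annihilator_le_of_inf htfχ d hd t 𝔞 h𝔞prime h𝔞 h𝔞dim
  exact pivot_endgame_core htf₁ π 𝔰 d hd hcomp 𝔮 𝔵 (hAi.trans (h𝔞𝔮 i hi)) hπ𝔮 h𝔵dim hdich

end main2

end Fermat.Agent.L.Pivot.H3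

end
-- ==== END Fermat.Agent.L.Pivot.H3_End2

-- ==== BEGIN Fermat.Agent.L.Pivot.H50_StISlope
section

/-!
# PIVOT, PV-OLD (helper50): inertia-fixed Kummer functions have bounded slopes

`S : SSD K F k F₁ F₂` a semistable Deuring datum, `I` a set of inertial automorphisms, `π ∈ K` a
uniformiser of the fixed field of `I`, at every node an `I`-fixed annulus coordinate of thickness
`π ^ e`, `e ≠ 0`.

* `dvd_sum_slopes` : for a Gauss unit `u` with `n ∣ div u` the sum of the slopes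
  `ord_{s.1} (rd₁ u)` over the nodes is divisible by `n` (the degree of `div (rd₁ u)` is `0`).
* `exists_slope_bound` : there is `c` such that for every `I`-fixed `f` with `p ^ k ∣ div f` all
  slopes of `f ^ (p ^ c)` are divisible by `p ^ k`
  (helper63's `slope_congr` = helper28's NODE-RAD, and `slopes_arith`).
* `dvd_ord_rd₂_of_slopes` : the mirror of helper28's `SSD.dvd_ord_rd₁` on the second component.
-/

set_option autoImplicit false
set_option linter.style.haveILetI false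

noncomputable section

open AlgebraicCurve

attribute [local instance] Classical.propDecidable

namespace Fermat.Agent.L.Pivot.H50

open Fermat.Agent.BAD Fermat.Agent.RED.H17 Fermat.Agent.RED

section Abs

variable {K F k F₁ F₂ : Type*} [Field K] [Field F] [Algebra K F] [Field k] [Field F₁]
  [Algebra k F₁] [Field F₂] [Algebra k F₂] (S : SSD K F k F₁ F₂)

/-- **Sum-zero**: the sum of the slopes of a Gauss unit `u` with `n ∣ div u` is divisible by
`n`. -/
theorem dvd_sum_slopes (hP : HasPrincipalDivisors K F) (H₁ : FFHyp k F₁) {n : ℕ} {u : F}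
    (hu : S.c₁.IsGU u) (hdiv : ∀ P : Place K F, (n : ℤ) ∣ P.ord u) :
    (n : ℤ) ∣ ∑ s ∈ S.nodes, s.1.ord (S.c₁.rd u) := by
  set D : Divisor k F₁ := dv H₁.principal (S.c₁.rd u) with hD
  have hDv : ∀ Q : Place k F₁, D Q = Q.ord (S.c₁.rd u) := fun Q => dv_apply _ _ Q
  set B : Finset (Place k F₁) := S.nodes.image Prod.fst with hB
  -- the sum over the nodes is the sum over the branches
  have h1 : ∑ s ∈ S.nodes, s.1.ord (S.c₁.rd u) = ∑ Q ∈ B, D Q := by
    rw [hB, Finset.sum_image]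
    · exact Finset.sum_congr rfl fun s _ => (hDv s.1).symm
    · intro s hs s' hs' h
      exact S.inj₁ s hs s' hs' h
  -- the degree is zero
  have hdeg0 := degree_dv H₁.principal (S.c₁.rd u)
  rw [degree_eq_sum H₁.deg_one, Finsupp.sum] at hdeg0
  have h2 : ∑ Q ∈ D.support ∪ B, D Q = 0 := by
    rw [← hdeg0]
    symm
    refine Finset.sum_subset Finset.subset_union_left fun Q _ hQ => ?_
    exact Finsupp.notMem_support_iff.mp hQ
  have h3 : ∑ Q ∈ D.support ∪ B, D Q = ∑ Q ∈ B, D Q + ∑ Q ∈ (D.support ∪ B) \ B, D Q := by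
    rw [add_comm]
    exact (Finset.sum_sdiff Finset.subset_union_right).symm
  have h4 : (n : ℤ) ∣ ∑ Q ∈ (D.support ∪ B) \ B, D Q := by
    refine Finset.dvd_sum fun Q hQ => ?_
    have hQB : Q ∉ B := (Finset.mem_sdiff.mp hQ).2
    have hQg : Q ∈ S.c₁.good := by
      rw [S.good₁]
      intro s hs hsQ
      exact hQB (Finset.mem_image.mpr ⟨s, hs, hsQ⟩)
    rw [hDv, S.c₁.ord_rd_eq_sum hP hu Q hQg]
    refine Finset.dvd_sum fun P _ => ?_
    split_ifs
    · exact hdiv P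
    · exact dvd_zero _
  rw [h1]
  have h5 : ∑ Q ∈ B, D Q = - ∑ Q ∈ (D.support ∪ B) \ B, D Q := by
    rw [h3] at h2
    linarith
  rw [h5]
  exact (dvd_neg).mpr h4

/-- **Bounded slopes of inertia-fixed Kummer functions.** -/
theorem exists_slope_bound (hP : HasPrincipalDivisors K F) (hdeg : ∀ v : Place K F, v.deg = 1)
    (H₁ : FFHyp k F₁)
    (I : Set (SemilinearAut K F)) (hI : ∀ σ ∈ I, S.IsInertial σ)
    (π : K) (hπ0 : π ≠ 0) (hπI : ∀ σ ∈ I, SemilinearAut.baseAut σ π = π)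
    (hπ : ∀ m : ℤ, S.IsCU (π ^ m) → m = 0)
    (hunr : ∀ Y : K, Y ≠ 0 → (∀ σ ∈ I, SemilinearAut.baseAut σ Y = Y) →
      ∃ m : ℤ, S.IsCU (Y / π ^ m))
    (p : ℕ) (hp : p.Prime)
    (hcoord : ∀ s ∈ S.nodes, ∃ (e : ℕ) (t : F), e ≠ 0 ∧ S.IsAnnCoord s t (π ^ e) ∧
      ∀ σ ∈ I, σ • t = t) :
    ∃ c : ℕ, ∀ (j : ℕ) (f : F) (c₁ c₂ : K), S.c₁.IsGU (algebraMap K F c₁ * f) →
      S.c₂.IsGU (algebraMap K F c₂ * f) → (∀ σ ∈ I, σ • f = f) →
      (∀ P : Place K F, ((p ^ j : ℕ) : ℤ) ∣ P.ord f) →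
      ∀ s ∈ S.nodes, ((p ^ j : ℕ) : ℤ) ∣
        ((p ^ c : ℕ) : ℤ) * s.1.ord (S.c₁.rd (algebraMap K F c₁ * f)) := by
  choose! e t he using hcoord
  obtain ⟨c, hc⟩ := slopes_arith S.nodes e p hp (fun s hs => (he s hs).1) S.nodes_nonempty
  refine ⟨c, fun j f c₁ c₂ h₁ h₂ hfI hdiv => ?_⟩
  have hc₁ : c₁ ≠ 0 := by
    rintro rfl
    exact h₁.ne_zero (by rw [map_zero, zero_mul])
  refine hc j (fun s => s.1.ord (S.c₁.rd (algebraMap K F c₁ * f))) ?_ ?_
  · intro s hs s' hs'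
    exact Fermat.Agent.S15.Desc.H63.slope_congr S hP hdeg I hI π hπ0 hπI hπ hunr (p ^ j) hs hs'
      (he s hs).2.1 (he s' hs').2.1 (he s hs).2.2 (he s' hs').2.2 h₁ h₂ hfI hdiv
  · refine dvd_sum_slopes S hP H₁ h₁ fun P => ?_
    rw [ord_algebraMap_mul P hc₁]
    exact hdiv P

/-- The mirror of `SSD.dvd_ord_rd₁` on the second component: all orders of `rd₂ u₂` are divisible
by `n` if `n ∣ div u₁` and the slopes of `u₁` are divisible by `n`. -/
theorem dvd_ord_rd₂_of_slopes (hP : HasPrincipalDivisors K F) {n : ℕ} {u₁ u₂ : F}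
    (h₁ : S.c₁.IsGU u₁) (h₂ : S.c₂.IsGU u₂) (hc : ∃ c : K, u₂ = algebraMap K F c * u₁)
    (hdiv : ∀ P : Place K F, (n : ℤ) ∣ P.ord u₁)
    (hslope : ∀ s ∈ S.nodes, (n : ℤ) ∣ s.1.ord (S.c₁.rd u₁)) (Q : Place k F₂) :
    (n : ℤ) ∣ Q.ord (S.c₂.rd u₂) := by
  have hdiv₂ : ∀ P : Place K F, (n : ℤ) ∣ P.ord u₂ := by
    intro P
    obtain ⟨c, rfl⟩ := hc
    have hc0 : c ≠ 0 := by
      rintro rfl
      exact h₂.ne_zero (by rw [map_zero, zero_mul])
    rw [ord_algebraMap_mul P hc0]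
    exact hdiv P
  by_cases hQ : Q ∈ S.c₂.good
  · rw [S.c₂.ord_rd_eq_sum hP h₂ Q hQ]
    refine Finset.dvd_sum fun P _ => ?_
    split_ifs
    · exact hdiv₂ P
    · exact dvd_zero _
  · rw [S.good₂] at hQ
    push Not at hQ
    obtain ⟨s, hs, rfl⟩ := hQ
    have hsum := S.sum_node hP hs h₁ h₂ hc
    have h3 : (n : ℤ) ∣ ∑ P ∈ (dv hP u₁).support,
        if S.c₁.r P = some s.1 then P.ord u₁ else 0 := by
      refine Finset.dvd_sum fun P _ => ?_
      split_ifs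
      · exact hdiv P
      · exact dvd_zero _
    rw [← hsum] at h3
    exact (dvd_add_right (hslope s hs)).mp h3

end Abs

end Fermat.Agent.L.Pivot.H50

end
end
-- ==== END Fermat.Agent.L.Pivot.H50_StISlope

-- ==== BEGIN Fermat.Agent.L.Pivot.H52_LocDimS
section

set_option autoImplicit false

namespace Fermat.Agent.L.Pivot.H52

/-- `dim R⟦X₁, …, X_r⟧ ≥ dim R + r` for any commutative ring `R`. -/
theorem ringKrullDim_add_le_mvPowerSeries (R : Type*) [CommRing R] (r : ℕ) :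
    ringKrullDim R + (r : WithBot ℕ∞) ≤ ringKrullDim (MvPowerSeries (Fin r) R) := by
  induction r with
  | zero =>
    rw [Nat.cast_zero, add_zero]
    exact (ringKrullDim_eq_of_ringEquiv
      (MvPowerSeries.isEmptyEquiv (σ := Fin 0) (R := R)).toRingEquiv).ge
  | succ n ih =>
    rw [ringKrullDim_eq_of_ringEquiv (MvPowerSeries.finSuccEquiv R n).toRingEquiv]
    refine le_trans ?_ ringKrullDim_succ_le_ringKrullDim_powerseries
    rw [Nat.cast_add, Nat.cast_one, ← add_assoc]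
    gcongr

/-- **PV-LOC-DIM.** -/
theorem stmt_PVLoc_dimS : Stmt_PVLoc_dimS := by
  intro 𝒪 _ _ _ r
  have h := ringKrullDim_add_le_mvPowerSeries 𝒪 r
  rw [IsDiscreteValuationRing.ringKrullDim_eq_one] at h
  refine le_trans ?_ h
  rw [add_comm]
  norm_cast

end Fermat.Agent.L.Pivot.H52

end
-- ==== END Fermat.Agent.L.Pivot.H52_LocDimS

-- ==== BEGIN Fermat.Agent.L.Pivot.H52_LocMat
section

set_option autoImplicit false

namespace Fermat.Agent.L.Pivot.H52

open Matrix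

section identity

variable {R : Type*} [CommRing R]

/-- The eigenvector identity: with `H = Φ X - q X Φ`, the matrix `(q - 1) det Φ · e · X` is an
explicit combination of `H`. -/
theorem eigen_identity (X Φ : Matrix (Fin 2) (Fin 2) R) (q : R) :
    ((q - 1) * Φ.det * (q * Φ.trace ^ 2 - (q + 1) ^ 2 * Φ.det)) • X =
      ((1 + q) * Φ.det - q * Φ.trace ^ 2) •
          (Φ.adjugate * (Φ * X - q • (X * Φ)) - q • ((Φ * X - q • (X * Φ)) * Φ)) +
        (q * Φ.trace) •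
          ((Φ.adjugate * (Φ * X - q • (X * Φ)) - q • ((Φ * X - q • (X * Φ)) * Φ)) * Φ) := by
  ext i j
  fin_cases i <;> fin_cases j <;>
  · simp only [Matrix.mul_apply, Fin.sum_univ_two, Matrix.det_fin_two, Matrix.trace_fin_two,
      Matrix.adjugate_fin_two, Matrix.smul_apply, Matrix.add_apply, Matrix.sub_apply, smul_eq_mul,
      Matrix.of_apply, Matrix.cons_val', Matrix.cons_val_zero, Matrix.cons_val_one, Fin.zero_eta,
      Fin.mk_one, Matrix.cons_val_fin_one]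
    ring

/-- If `Φ X = q X Φ` then `(q - 1) det Φ · e · X = 0`. -/
theorem eigen_smul_eq_zero (X Φ : Matrix (Fin 2) (Fin 2) R) (q : R)
    (h : Φ * X = q • (X * Φ)) :
    ((q - 1) * Φ.det * (q * Φ.trace ^ 2 - (q + 1) ^ 2 * Φ.det)) • X = 0 := by
  rw [eigen_identity, h, sub_self, mul_zero, zero_mul, smul_zero, sub_self, zero_mul, smul_zero,
    smul_zero, add_zero]

/-- `e · y² = 0` for `X = (a y; z -a)`, `a² + y z = 0`, `Φ X = q X Φ` (entries `(0,1)`, `(1,1)`). -/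
theorem e_mul_sq_left (a y z f11 f12 f21 f22 q : R)
    (hN : a ^ 2 + y * z = 0)
    (h12 : (f11 * y + f12 * (-a)) - q * (a * f12 + y * f22) = 0)
    (h22 : (f21 * y + f22 * (-a)) - q * (z * f12 + (-a) * f22) = 0) :
    (q * (f11 + f22) ^ 2 - (q + 1) ^ 2 * (f11 * f22 - f12 * f21)) * y ^ 2 = 0 := by
  linear_combination
    (q * (2 * (q + 1) * (a * f12 + y * f22) + ((f11 * y + f12 * (-a)) - q * (a * f12 + y * f22)))
      - (q + 1) ^ 2 * f22 * y) * h12
    + ((q + 1) ^ 2 * f12 * y) * h22 + ((q + 1) ^ 2 * q * f12 ^ 2) * hN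

/-- `e · z² = 0` for `X = (a y; z -a)`, `a² + y z = 0`, `Φ X = q X Φ` (entries `(1,0)`, `(0,0)`). -/
theorem e_mul_sq_right (a y z f11 f12 f21 f22 q : R)
    (hN : a ^ 2 + y * z = 0)
    (h21 : (f21 * a + f22 * z) - q * (z * f11 + (-a) * f21) = 0)
    (h11 : (f11 * a + f12 * z) - q * (a * f11 + y * f21) = 0) :
    (q * (f11 + f22) ^ 2 - (q + 1) ^ 2 * (f11 * f22 - f12 * f21)) * z ^ 2 = 0 := by
  linear_combination
    (q * (2 * (q + 1) * (-a * f21 + z * f11) + ((f21 * a + f22 * z) - q * (z * f11 + (-a) * f21)))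
      - (q + 1) ^ 2 * f11 * z) * h21
    + ((q + 1) ^ 2 * f21 * z) * h11 + ((q + 1) ^ 2 * q * f21 ^ 2) * hN

end identity

/-- **PV-LOC-MAT.** -/
theorem stmt_PVLoc_mat : Stmt_PVLoc_mat := by
  intro D _ _ q Sg Ph hsq htr hcomm
  set X : Matrix (Fin 2) (Fin 2) D := Sg - 1 with hX
  -- `X` is traceless
  have htrX : X 0 0 + X 1 1 = 0 := by
    have h1 : X.trace = 0 := by
      rw [hX, Matrix.trace_sub, htr, Matrix.trace_one, Fintype.card_fin]
      norm_num
    rwa [Matrix.trace_fin_two] at h1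
  have h11' : X 1 1 = -X 0 0 := by linear_combination htrX
  -- the entries of the relations
  have hN : X 0 0 ^ 2 + X 0 1 * X 1 0 = 0 := by
    have h := congrFun (congrFun hsq 0) 0
    rw [Matrix.mul_apply, Fin.sum_univ_two, Matrix.zero_apply] at h
    linear_combination h
  have hent : ∀ i j, Ph i 0 * X 0 j + Ph i 1 * X 1 j - q * (X i 0 * Ph 0 j + X i 1 * Ph 1 j) = 0 := by
    intro i j
    have h := congrFun (congrFun hcomm i) j
    rw [Matrix.mul_apply, Fin.sum_univ_two, Matrix.smul_apply, Matrix.mul_apply,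
      Fin.sum_univ_two, smul_eq_mul] at h
    linear_combination h
  have he : q * Ph.trace ^ 2 - (q + 1) ^ 2 * Ph.det =
      q * (Ph 0 0 + Ph 1 1) ^ 2 - (q + 1) ^ 2 * (Ph 0 0 * Ph 1 1 - Ph 0 1 * Ph 1 0) := by
    rw [Matrix.trace_fin_two, Matrix.det_fin_two]
  rw [he]
  set e : D := q * (Ph 0 0 + Ph 1 1) ^ 2 - (q + 1) ^ 2 * (Ph 0 0 * Ph 1 1 - Ph 0 1 * Ph 1 0)
    with hedef
  have hy : e * X 0 1 ^ 2 = 0 := by
    refine e_mul_sq_left (X 0 0) (X 0 1) (X 1 0) (Ph 0 0) (Ph 0 1) (Ph 1 0) (Ph 1 1) q hN ?_ ?_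
    · have h := hent 0 1
      rw [h11'] at h
      linear_combination h
    · have h := hent 1 1
      rw [h11'] at h
      linear_combination h
  have hz : e * X 1 0 ^ 2 = 0 := by
    refine e_mul_sq_right (X 0 0) (X 0 1) (X 1 0) (Ph 0 0) (Ph 0 1) (Ph 1 0) (Ph 1 1) q hN ?_ ?_
    · have h := hent 1 0
      rw [h11'] at h
      linear_combination h
    · have h := hent 0 0
      linear_combination h
  by_cases he0 : e = 0
  · rw [he0, zero_smul]
  · have hy0 : X 0 1 = 0 := by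
      rcases mul_eq_zero.1 hy with h | h
      · exact absurd h he0
      · exact pow_eq_zero_iff (two_ne_zero) |>.1 h
    have hz0 : X 1 0 = 0 := by
      rcases mul_eq_zero.1 hz with h | h
      · exact absurd h he0
      · exact pow_eq_zero_iff (two_ne_zero) |>.1 h
    have ha0 : X 0 0 = 0 := by
      rw [hy0, zero_mul, add_zero] at hN
      exact pow_eq_zero_iff (two_ne_zero) |>.1 hN
    have hX0 : X = 0 := by
      ext i j
      fin_cases i <;> fin_cases j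
      · exact ha0
      · exact hy0
      · exact hz0
      · show X 1 1 = 0
        rw [h11', ha0, neg_zero]
    rw [hX0, smul_zero]

end Fermat.Agent.L.Pivot.H52

end
-- ==== END Fermat.Agent.L.Pivot.H52_LocMat

-- ==== BEGIN Fermat.Agent.L.Pivot.H52_LocUnr
section

set_option autoImplicit false

namespace Fermat.Agent.L.Pivot.H52

open MvPowerSeries IsLocalRing Finsupp

variable {𝒪 : Type} [CommRing 𝒪] (k g : ℕ)

/-- The indices of the coordinates `y_j, z_j, m_j` of `Σ_j - 1`. -/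
noncomputable def sigmaIdx : Finset (Fin (6 * k + g)) :=
  Finset.univ.image fun x : Fin k × Fin 3 => cIdx k g x.1 (Fin.castLE (by norm_num) x.2)

theorem mem_sigmaIdx {n : Fin (6 * k + g)} :
    n ∈ sigmaIdx k g ↔ ∃ x : Fin k × Fin 3, cIdx k g x.1 (Fin.castLE (by norm_num) x.2) = n := by
  rw [sigmaIdx, Finset.mem_image]
  simp

theorem cIdx_val (j : Fin k) (i : Fin 6) : (cIdx k g j i).1 = 6 * j.1 + i.1 := rfl

theorem cIdx_injective : Function.Injective fun x : Fin k × Fin 6 => cIdx k g x.1 x.2 := by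
  rintro ⟨j, i⟩ ⟨j', i'⟩ h
  have h1 : 6 * j.1 + i.1 = 6 * j'.1 + i'.1 := congrArg Fin.val h
  have hi := i.2
  have hi' := i'.2
  have hj : j.1 = j'.1 := by omega
  have hii : i.1 = i'.1 := by omega
  exact Prod.ext (Fin.ext hj) (Fin.ext hii)

theorem cIdx_notMem_sigmaIdx (j : Fin k) (i : Fin 6) (hi : 3 ≤ i.1) :
    cIdx k g j i ∉ sigmaIdx k g := by
  rw [mem_sigmaIdx]
  rintro ⟨⟨j', i'⟩, h⟩
  have h1 : 6 * j'.1 + i'.1 = 6 * j.1 + i.1 := congrArg Fin.val h
  have := i'.2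
  have := i.2
  omega

theorem idealX_eq :
    idealX 𝒪 k g =
      Ideal.span ((fun s => (X s : MvPowerSeries (Fin (6 * k + g)) 𝒪)) '' (sigmaIdx k g : Set _)) := by
  rw [idealX]
  congr 1
  ext F
  constructor
  · rintro ⟨x, rfl⟩
    exact ⟨_, (mem_sigmaIdx k g).2 ⟨x, rfl⟩, rfl⟩
  · rintro ⟨s, hs, rfl⟩
    obtain ⟨x, rfl⟩ := (mem_sigmaIdx k g).1 hs
    exact ⟨x, rfl⟩

theorem idealQ_eq (ϖ : 𝒪) :
    idealQ k g ϖ = coeffIdeal (sigmaIdx k g : Set (Fin (6 * k + g))) (Ideal.span {ϖ}) := by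
  classical
  rw [coeffIdeal_span_singleton, idealQ, idealX_eq]

/-- **PV-LOC-UNR.** -/
theorem stmt_PVLoc_unr : Stmt_PVLoc_unr := by
  classical
  intro 𝒪 _ _ _ _ k g ϖ q₀ _ hϖ hq₀
  have hprime : (Ideal.span {ϖ} : Ideal 𝒪).IsPrime := by
    rw [← hϖ]
    exact (maximalIdeal.isMaximal 𝒪).isPrime
  refine ⟨?_, fun j => ?_⟩
  · rw [idealQ_eq]
    exact coeffIdeal_isPrime _ _
  · rw [idealQ_eq, mem_coeffIdeal]
    intro h
    -- the coefficient of `s_j ^ 2`
    have h5 : cIdx k g j 5 ∉ sigmaIdx k g := cIdx_notMem_sigmaIdx k g j 5 (by decide)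
    have hμ : ∀ s ∈ (sigmaIdx k g : Set (Fin (6 * k + g))),
        (Finsupp.single (cIdx k g j 5) 2 : Fin (6 * k + g) →₀ ℕ) s = 0 := by
      intro s hs
      rw [Finsupp.single_apply, if_neg]
      rintro rfl
      exact h5 hs
    have h1 := h _ hμ
    have hne34 : cIdx k g j 3 ≠ cIdx k g j 5 := by
      intro h'
      have := congrArg Fin.val h'
      simp [cIdx_val] at this
    have hcoeff : coeff (Finsupp.single (cIdx k g j 5) 2) (eElt g q₀ j) = q₀ j := by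
      rw [eElt, coeff_C_mul, map_sub, Q2, map_add, cs, cv, cw, coeff_X_pow, if_pos rfl,
        coeff_C, if_neg, sub_zero]
      · have h2 : coeff (Finsupp.single (cIdx k g j 5) 2)
            (4 * (X (cIdx k g j 3) : MvPowerSeries (Fin (6 * k + g)) 𝒪) * X (cIdx k g j 4)) = 0 := by
          have h3 : (X (cIdx k g j 3) : MvPowerSeries (Fin (6 * k + g)) 𝒪) ∣
              4 * X (cIdx k g j 3) * X (cIdx k g j 4) :=
            ⟨4 * X (cIdx k g j 4), by ring⟩
          refine X_dvd_iff.1 h3 _ ?_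
          rw [Finsupp.single_apply, if_neg hne34.symm]
        rw [h2, add_zero, mul_one]
      · intro h'
        have := congrArg (fun f : Fin (6 * k + g) →₀ ℕ => f (cIdx k g j 5)) h'
        simp at this
    rw [hcoeff, ← hϖ] at h1
    -- `q₀ j` is a unit
    have h2 : (1 : 𝒪) ∈ maximalIdeal 𝒪 := by
      have := (maximalIdeal 𝒪).sub_mem h1 (hq₀ j)
      rwa [sub_sub_cancel] at this
    exact (Ideal.ne_top_iff_one _).1 (maximalIdeal.isMaximal 𝒪).ne_top h2

end Fermat.Agent.L.Pivot.H52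

end
-- ==== END Fermat.Agent.L.Pivot.H52_LocUnr

-- ==== BEGIN Fermat.Agent.L.Pivot.H52_TPUniq
section

set_option autoImplicit false

namespace Fermat.Agent.L.Pivot.H52

open MvPowerSeries

section Uniq

variable {σ : Type*} [Finite σ] {𝒪 : Type*} [CommRing 𝒪] {E : Type*} [CommRing E] [Algebra 𝒪 E]

/-- `f - C (constantCoeff f)` lies in the ideal generated by the variables. -/
theorem sub_C_constantCoeff_mem_span_X (f : MvPowerSeries σ 𝒪) :
    f - C (constantCoeff f) ∈ Ideal.span (Set.range fun s => (X s : MvPowerSeries σ 𝒪)) := by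
  classical
  have := Fintype.ofFinite σ
  have h := mem_span_X_of_coeff_eq_zero (Finset.univ : Finset σ) (f - C (constantCoeff f))
    (fun μ hμ => by
      have h0 : μ = 0 := by
        ext s
        simpa using hμ s (Finset.mem_univ s)
      subst h0
      simp)
  simpa using h

/-- Key estimate for `(U)`. -/
theorem algHom_sub_mem_pow (J : Ideal E) (φ ψ : MvPowerSeries σ 𝒪 →ₐ[𝒪] E)
    (hX : ∀ i, φ (X i) = ψ (X i)) (hm : ∀ i, ψ (X i) ∈ J) (N : ℕ) (f : MvPowerSeries σ 𝒪) :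
    φ f - ψ f ∈ J ^ N := by
  induction N generalizing f with
  | zero => simp
  | succ N ih =>
    have hC : ∀ c : 𝒪, φ (C c) = ψ (C c) := by
      intro c
      have h1 : (C c : MvPowerSeries σ 𝒪) = algebraMap 𝒪 _ c := rfl
      rw [h1, AlgHom.commutes, AlgHom.commutes]
    have key : ∀ h ∈ Ideal.span (Set.range fun s => (X s : MvPowerSeries σ 𝒪)),
        φ h - ψ h ∈ J ^ (N + 1) ∧ ψ h ∈ J := by
      intro h hh
      induction hh using Submodule.span_induction with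
      | mem x hx =>
        obtain ⟨i, rfl⟩ := hx
        refine ⟨?_, hm i⟩
        simp only [hX i, sub_self]
        exact Ideal.zero_mem _
      | zero => simp
      | add x y _ _ hx hy =>
        refine ⟨?_, ?_⟩
        · have : φ (x + y) - ψ (x + y) = (φ x - ψ x) + (φ y - ψ y) := by
            simp only [map_add]; ring
          rw [this]
          exact Ideal.add_mem _ hx.1 hy.1
        · rw [map_add]
          exact Ideal.add_mem _ hx.2 hy.2
      | smul a x _ hx =>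
        refine ⟨?_, ?_⟩
        · have : φ (a • x) - ψ (a • x) = φ a * (φ x - ψ x) + (φ a - ψ a) * ψ x := by
            simp only [smul_eq_mul, map_mul]; ring
          rw [this]
          refine Ideal.add_mem _ (Ideal.mul_mem_left _ _ hx.1) ?_
          rw [pow_succ]
          exact Ideal.mul_mem_mul (ih a) hx.2
        · rw [smul_eq_mul, map_mul]
          exact Ideal.mul_mem_left _ _ hx.2
    have h1 := (key _ (sub_C_constantCoeff_mem_span_X f)).1
    have h2 : φ (f - C (constantCoeff f)) - ψ (f - C (constantCoeff f)) = φ f - ψ f := by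
      simp only [map_sub, hC]; ring
    rwa [h2] at h1

/-- **(U)**: algebra homs out of a power series ring in finitely many variables into a ring
separated for `J` are determined by the images of the variables (if these lie in `J`). -/
theorem algHom_ext_of_X (J : Ideal E) (hJ : ∀ x : E, (∀ n, x ∈ J ^ n) → x = 0)
    (φ ψ : MvPowerSeries σ 𝒪 →ₐ[𝒪] E)
    (hX : ∀ i, φ (X i) = ψ (X i)) (hm : ∀ i, ψ (X i) ∈ J) : φ = ψ := by
  ext f
  have := hJ (φ f - ψ f) (fun n => algHom_sub_mem_pow J φ ψ hX hm n f)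
  exact sub_eq_zero.1 this

/-- `(U)` for rings that are `J`-adically Hausdorff. -/
theorem algHom_ext_of_X' (J : Ideal E) [IsHausdorff J E]
    (φ ψ : MvPowerSeries σ 𝒪 →ₐ[𝒪] E)
    (hX : ∀ i, φ (X i) = ψ (X i)) (hm : ∀ i, ψ (X i) ∈ J) : φ = ψ := by
  refine algHom_ext_of_X J (fun x hx => ?_) φ ψ hX hm
  refine IsHausdorff.haus ‹_› x fun n => ?_
  rw [SModEq.zero]
  simpa using hx n

end Uniq

end Fermat.Agent.L.Pivot.H52

end
-- ==== END Fermat.Agent.L.Pivot.H52_TPUniq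

-- ==== BEGIN Fermat.Agent.L.Pivot.H59_TameAdic
section

/-!
# PIVOT, package PV-TAME (helper59), part T1: the adic form of the tame relation

`A` noetherian local with `p ∈ 𝔪`, `ρ : GaloisRepAdic A` with `ρ(I_P) ≡ 1 mod 𝔪`, `q ≠ p`, and
`τ₀ ∈ I_P` a uniform tame generator (`exists_uniform_tame_generator`).  Then
* `ρ(φ) ρ(τ₀) = ρ(τ₀) ^ q ρ(φ)` (exactly), and
* for EVERY ideal `J` of `A`: `ρ(τ₀) ≡ 1 mod J` implies `ρ(σ) ≡ 1 mod J` for all `σ ∈ I_P`.
-/

set_option autoImplicit false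
set_option linter.style.haveILetI false

namespace Fermat.Agent.L.Pivot.H59

open Fermat.Agent.S59.TWGal IsLocalRing

/-- Krull: an ideal of a noetherian local ring is closed. -/
theorem mem_of_forall_mem_sup_pow {A : Type} [CommRing A] [IsLocalRing A] [IsNoetherianRing A]
    (J : Ideal A) (x : A) (h : ∀ N : ℕ, x ∈ J ⊔ maximalIdeal A ^ N) : x ∈ J := by
  have hkr := Ideal.iInf_pow_smul_eq_bot_of_isLocalRing (M := A ⧸ J) (maximalIdeal A)
    (maximalIdeal.isMaximal A).ne_top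
  have hx : (Ideal.Quotient.mk J x : A ⧸ J) ∈
      (⨅ i : ℕ, maximalIdeal A ^ i • ⊤ : Submodule A (A ⧸ J)) := by
    rw [Submodule.mem_iInf]
    intro N
    obtain ⟨a, ha, b, hb, rfl⟩ := Submodule.mem_sup.1 (h N)
    have e : Ideal.Quotient.mk J (a + b) = b • (1 : A ⧸ J) := by
      rw [map_add, Ideal.Quotient.eq_zero_iff_mem.2 ha, zero_add, Algebra.smul_def, mul_one]
      rfl
    rw [e]
    exact Submodule.smul_mem_smul hb Submodule.mem_top
  rw [hkr, Submodule.mem_bot] at hx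
  exact Ideal.Quotient.eq_zero_iff_mem.1 hx

section mat

variable {A : Type} [CommRing A] {V : Type} [AddCommGroup V] [Module A V]
  (b : Module.Basis (Fin 2) A V)

/-- If the matrix of `f - 1` has entries in `J` then `f v - v ∈ J • ⊤` for all `v`. -/
theorem sub_mem_smul_top_of_mat (J : Ideal A) (f : Module.End A V)
    (h : ∀ i j, (mat b f - 1) i j ∈ J) (v : V) : f v - v ∈ J • (⊤ : Submodule A V) := by
  have hb : ∀ j, f (b j) - b j ∈ J • (⊤ : Submodule A V) := by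
    intro j
    have e : mat b f - 1 = mat b (f - 1) := by rw [mat, mat, map_sub, map_one]
    have h1 : f (b j) - b j = (f - 1) (b j) := rfl
    rw [h1, apply_eq_of_mat b (f - 1) j, ← e]
    exact add_mem (Submodule.smul_mem_smul (h 0 j) Submodule.mem_top)
      (Submodule.smul_mem_smul (h 1 j) Submodule.mem_top)
  have h2 : f v - v = ∑ j, b.repr v j • (f (b j) - b j) := by
    conv_lhs => rw [← b.sum_repr v]
    rw [map_sum, ← Finset.sum_sub_distrib]
    refine Finset.sum_congr rfl fun j _ => ?_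
    rw [map_smul, smul_sub]
  rw [h2]
  exact Submodule.sum_mem _ fun j _ => Submodule.smul_mem _ _ (hb j)

/-- Entries of `X ^ j - 1` lie in `J` if those of `X - 1` do. -/
theorem pow_sub_one_mem (J : Ideal A) (X : Matrix (Fin 2) (Fin 2) A)
    (h : ∀ i j, (X - 1) i j ∈ J) (n : ℕ) : ∀ i j, (X ^ n - 1) i j ∈ J := by
  have h1 : red J X = 1 := (red_eq_one_iff J X).2 h
  rw [← red_eq_one_iff, map_pow, h1, one_pow]

end mat

/-- **T1 (adic form of the tame relation).** -/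
theorem tame_adic (A : Type) [CommRing A] [IsLocalRing A] [IsNoetherianRing A]
    (p : ℕ) (hp : p.Prime) (hpA : (p : A) ∈ maximalIdeal A) (ρ : GaloisRepAdic A)
    (q : ℕ) (hq : q.Prime) (hqp : q ≠ p) (P : ValuationSubring Qb)
    (hI : ∀ σ ∈ P.inertiaSubgroupIn ℚ, ∀ v : ρ.V,
      ρ.ρ σ v - v ∈ maximalIdeal A • (⊤ : Submodule A ρ.V))
    (φ : GQ) (hφD : φ ∈ P.decompositionSubgroup ℚ)
    (τ₀ : GQ) (hτ₀ : τ₀ ∈ P.inertiaSubgroupIn ℚ)
    (hτ : ∀ F : IntermediateField ℚ Qb, FiniteDimensional ℚ F → TameAt P φ q F τ₀) :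
    ρ.ρ φ * ρ.ρ τ₀ = ρ.ρ τ₀ ^ q * ρ.ρ φ ∧
    ∀ J : Ideal A, (∀ v : ρ.V, ρ.ρ τ₀ v - v ∈ J • (⊤ : Submodule A ρ.V)) →
      ∀ σ ∈ P.inertiaSubgroupIn ℚ, ∀ v : ρ.V, ρ.ρ σ v - v ∈ J • (⊤ : Submodule A ρ.V) := by
  classical
  have hMU := H01.stmt_MatUnip
  have hcop : ∀ e : ℕ, (q ^ e).Coprime p :=
    fun e => Nat.Coprime.pow_left e ((Nat.coprime_primes hq hp).2 hqp)
  let b : Module.Basis (Fin 2) A ρ.V := Module.finBasisOfFinrankEq A ρ.V ρ.finrank_eq
  let μ : GQ →* Matrix (Fin 2) (Fin 2) A :=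
    ((LinearMap.toMatrixAlgEquiv b : Module.End A ρ.V ≃ₐ[A] _) : Module.End A ρ.V →* _).comp ρ.ρ
  have hμ : ∀ g, μ g = mat b (ρ.ρ g) := fun _ => rfl
  have hnormal : ∀ {τ σ : GQ}, τ ∈ P.decompositionSubgroup ℚ → σ ∈ P.inertiaSubgroupIn ℚ →
      τ * σ * τ⁻¹ ∈ P.inertiaSubgroupIn ℚ := by
    intro τ σ hτ hσ
    obtain ⟨s, hs, rfl⟩ := hσ
    refine ⟨⟨τ, hτ⟩ * s * ⟨τ, hτ⟩⁻¹, ?_, rfl⟩
    have hn : (P.inertiaSubgroup ℚ).Normal := by
      unfold ValuationSubring.inertiaSubgroup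
      infer_instance
    exact hn.conj_mem s hs ⟨τ, hτ⟩
  -- the finite levels
  have hlevel : ∀ N : ℕ, ∃ L : IntermediateField ℚ Qb, FiniteDimensional ℚ L ∧
      (∀ u ∈ L.fixingSubgroup, red (maximalIdeal A ^ N) (μ u) = 1) := by
    intro N
    obtain ⟨L, hL, hcont⟩ := ρ.isAdicContinuous N
    refine ⟨L, hL, fun u hu => ?_⟩
    rw [red_eq_one_iff]
    exact mat_sub_one_mem b _ _
      (hcont u (fun x hx => (IntermediateField.mem_fixingSubgroup_iff L u).1 hu x hx))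
  have hwild : ∀ (N : ℕ) (L : IntermediateField ℚ Qb),
      (∀ u ∈ L.fixingSubgroup, red (maximalIdeal A ^ N) (μ u) = 1) →
      ∀ w ∈ P.inertiaSubgroupIn ℚ, ∀ e : ℕ, w ^ (q ^ e) ∈ L.fixingSubgroup →
        red (maximalIdeal A ^ N) (μ w) = 1 := by
    intro N L hfix w hw e hwe
    rw [red_eq_one_iff]
    refine hMU A (maximalIdeal A) p (q ^ e) N hpA (hcop e) (μ w) ?_ ?_
    · exact mat_sub_one_mem b _ _ (hI w hw)
    · rw [← map_pow, ← red_eq_one_iff]
      exact hfix _ hwe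
  have hkrull : ∀ x : A, (∀ N : ℕ, x ∈ maximalIdeal A ^ N) → x = 0 := by
    intro x hx
    have h := Ideal.iInf_pow_eq_bot_of_isLocalRing (maximalIdeal A)
      (maximalIdeal.isMaximal A).ne_top
    have hmem : x ∈ ⨅ i : ℕ, maximalIdeal A ^ i := by
      rw [Ideal.mem_iInf]; exact hx
    rw [h] at hmem
    exact (Submodule.mem_bot A).1 hmem
  refine ⟨?_, ?_⟩
  · -- the relation
    have hw₀ : (τ₀ ^ q)⁻¹ * (φ * τ₀ * φ⁻¹) ∈ P.inertiaSubgroupIn ℚ :=
      mul_mem (inv_mem (pow_mem hτ₀ q)) (hnormal hφD hτ₀)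
    have hrel : ∀ N : ℕ, red (maximalIdeal A ^ N) (μ φ * μ τ₀ - μ τ₀ ^ q * μ φ) = 0 := by
      intro N
      obtain ⟨L, hL, hfix⟩ := hlevel N
      obtain ⟨e₀, hconj⟩ := (hτ L hL).2
      have h1 := hwild N L hfix _ hw₀ e₀ hconj
      have key : ∀ W : GQ, red (maximalIdeal A ^ N) (μ W) = 1 → φ * τ₀ = τ₀ ^ q * W * φ →
          red (maximalIdeal A ^ N) (μ φ * μ τ₀ - μ τ₀ ^ q * μ φ) = 0 := by
        intro W hW h2
        have h3 : μ φ * μ τ₀ = μ τ₀ ^ q * μ W * μ φ := by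
          rw [← map_mul, h2, map_mul, map_mul, map_pow]
        rw [h3, map_sub, map_mul, map_mul, map_mul, hW, mul_one, sub_self]
      exact key _ h1 (by group)
    have hmat : μ φ * μ τ₀ = μ τ₀ ^ q * μ φ := by
      rw [← sub_eq_zero]
      ext i j
      rw [Matrix.zero_apply]
      refine hkrull _ fun N => ?_
      rw [← red_apply_eq_zero_iff, hrel N, Matrix.zero_apply]
    have hinj : Function.Injective (LinearMap.toMatrixAlgEquiv b : Module.End A ρ.V ≃ₐ[A] _) :=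
      (LinearMap.toMatrixAlgEquiv b).injective
    apply hinj
    rw [map_mul, map_mul, map_pow]
    exact hmat
  · -- inertia is generated by `τ₀`
    intro J hJ σ hσ v
    have hτJ : ∀ i j, (μ τ₀ - 1) i j ∈ J := mat_sub_one_mem b J _ hJ
    refine sub_mem_smul_top_of_mat b J (ρ.ρ σ) (fun i j => ?_) v
    refine mem_of_forall_mem_sup_pow J _ fun N => ?_
    obtain ⟨L, hL, hfix⟩ := hlevel N
    obtain ⟨j', e, hje⟩ := (hτ L hL).1 σ hσ
    have h1 := hwild N L hfix _ (mul_mem (inv_mem (pow_mem hτ₀ j')) hσ) e hje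
    have key : ∀ W : GQ, red (maximalIdeal A ^ N) (μ W) = 1 → σ = τ₀ ^ j' * W →
        red (maximalIdeal A ^ N) (μ σ - μ τ₀ ^ j') = 0 := by
      intro W hW h2
      have h3 : μ σ = μ τ₀ ^ j' * μ W := by rw [h2, map_mul, map_pow]
      rw [h3, map_sub, map_mul, hW, mul_one, sub_self]
    have h3 : red (maximalIdeal A ^ N) (μ σ - μ τ₀ ^ j') = 0 := key _ h1 (by group)
    have h4 : (μ σ - μ τ₀ ^ j') i j ∈ maximalIdeal A ^ N := by
      rw [← red_apply_eq_zero_iff, h3, Matrix.zero_apply]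
    have h5 : (μ τ₀ ^ j' - 1) i j ∈ J := pow_sub_one_mem J _ hτJ j' i j
    have h6 : (mat b (ρ.ρ σ) - 1) i j = (μ τ₀ ^ j' - 1) i j + (μ σ - μ τ₀ ^ j') i j := by
      rw [← hμ, Matrix.sub_apply, Matrix.sub_apply, Matrix.sub_apply]
      ring
    rw [h6]
    exact Submodule.add_mem_sup h5 h4

end Fermat.Agent.L.Pivot.H59

end
-- ==== END Fermat.Agent.L.Pivot.H59_TameAdic

-- ==== BEGIN Fermat.Agent.L.Pivot.H59_TameMat
section

/-!
# PIVOT, package PV-TAME (helper59), part T2: the matrix form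

`D` a noetherian local domain with `p ∈ 𝔪` (`p` odd), `q = 1 + p ^ n * m'` with `p ∤ m'`,
`n ≥ 1`, `ζ₀ ∈ D` a primitive `p ^ n`-th root of unity, `Σ, Φ ∈ M₂(D)` with `det Σ = 1`,
`Σ ≡ 1 mod 𝔪`, `Φ` invertible and `Φ Σ = Σ ^ q Φ`.  Then `tr Σ = ζ + ζ⁻¹` for some `ζ = ζ₀ ^ i`;
if `ζ ≠ 1` then `Σ` and `Φ` commute; if `ζ = 1` then `(Σ - 1)² = 0` and
`Φ (Σ - 1) = q (Σ - 1) Φ`.
-/

set_option autoImplicit false
set_option linter.style.haveILetI false

namespace Fermat.Agent.L.Pivot.H59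

open Matrix IsLocalRing Fermat.Agent.S59.TWGal

section CH

variable {R : Type*} [CommRing R]

/-- Cayley–Hamilton for `2 × 2` matrices of determinant `1`. -/
theorem mul_self_of_det_one (Y : Matrix (Fin 2) (Fin 2) R) (h : Y.det = 1) :
    Y * Y = Y.trace • Y - 1 := by
  rw [Matrix.det_fin_two] at h
  ext i j
  fin_cases i <;> fin_cases j <;>
    simp only [Matrix.mul_apply, Fin.sum_univ_two, Matrix.trace_fin_two, Matrix.sub_apply,
      Matrix.smul_apply, smul_eq_mul, Matrix.one_apply_eq, Fin.zero_eta, Fin.mk_one,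
      Fin.isValue, ne_eq, zero_ne_one, one_ne_zero, not_false_eq_true, Matrix.one_apply_ne,
      sub_zero]
  · linear_combination (-1 : R) * h
  · ring
  · ring
  · linear_combination (-1 : R) * h

theorem det_pow_of_det_one (Y : Matrix (Fin 2) (Fin 2) R) (h : Y.det = 1) (m : ℕ) :
    (Y ^ m).det = 1 := by
  rw [Matrix.det_pow, h, one_pow]

/-- The powers of a `2 × 2` matrix of determinant `1` in terms of "eigenvalues" `z, z'`
(`z + z' = tr Y`, `z z' = 1`). -/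
theorem smul_pow_of_roots (Y : Matrix (Fin 2) (Fin 2) R) (h : Y.det = 1) (z z' : R)
    (hz : z + z' = Y.trace) (hzz : z * z' = 1) (m : ℕ) :
    (z - z') • Y ^ m = (z ^ m - z' ^ m) • Y - (z ^ m * z' - z' ^ m * z) • (1 : Matrix _ _ R) := by
  induction m with
  | zero =>
    rw [pow_zero, pow_zero, pow_zero, sub_self, zero_smul, zero_sub, one_mul, one_mul,
      ← neg_smul, neg_sub]
  | succ m ih =>
    have hCH := mul_self_of_det_one Y h
    have e1 : (z - z') • Y ^ (m + 1) = ((z - z') • Y ^ m) * Y := by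
      rw [pow_succ, Matrix.smul_mul]
    rw [e1, ih, Matrix.sub_mul, Matrix.smul_mul, Matrix.smul_mul, Matrix.one_mul, hCH, ← hz]
    have e2 : z ^ (m + 1) * z' = z ^ m := by rw [pow_succ, mul_assoc, hzz, mul_one]
    have e3 : z' ^ (m + 1) * z = z' ^ m := by
      rw [pow_succ, mul_assoc, mul_comm z' z, hzz, mul_one]
    rw [e2, e3]
    ext i j
    simp only [Matrix.sub_apply, Matrix.smul_apply, smul_eq_mul, Matrix.one_apply]
    split_ifs <;> ring

/-- The traces of the powers of a `2 × 2` matrix of determinant `1`. -/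
theorem trace_pow_of_roots (Y : Matrix (Fin 2) (Fin 2) R) (h : Y.det = 1) (z z' : R)
    (hz : z + z' = Y.trace) (hzz : z * z' = 1) (m : ℕ) :
    (Y ^ m).trace = z ^ m + z' ^ m := by
  have hCH := mul_self_of_det_one Y h
  have key : ∀ m : ℕ, (Y ^ m).trace = z ^ m + z' ^ m ∧
      (Y ^ (m + 1)).trace = z ^ (m + 1) + z' ^ (m + 1) := by
    intro m
    induction m with
    | zero =>
      refine ⟨?_, ?_⟩
      · rw [pow_zero, pow_zero, pow_zero, Matrix.trace_one, Fintype.card_fin]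
        norm_num
      · rw [zero_add, pow_one, pow_one, pow_one, hz]
    | succ m ih =>
      refine ⟨ih.2, ?_⟩
      have e1 : Y ^ (m + 1 + 1) = Y.trace • Y ^ (m + 1) - Y ^ m := by
        rw [pow_succ, pow_succ, mul_assoc, hCH, Matrix.mul_sub, Matrix.mul_smul, Matrix.mul_one,
          ← pow_succ]
      rw [e1, Matrix.trace_sub, Matrix.trace_smul, ih.1, ih.2, smul_eq_mul, ← hz]
      have e2 : z ^ (m + 1) * z' = z ^ m := by rw [pow_succ, mul_assoc, hzz, mul_one]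
      have e3 : z' ^ (m + 1) * z = z' ^ m := by
        rw [pow_succ, mul_assoc, mul_comm z' z, hzz, mul_one]
      linear_combination e2 + e3
  exact (key m).1

/-- Unipotent case: `Y ^ m = 1 + m (Y - 1)` if `(Y - 1)² = 0`. -/
theorem pow_of_sq_zero (Y : Matrix (Fin 2) (Fin 2) R) (h : (Y - 1) * (Y - 1) = 0) (m : ℕ) :
    Y ^ m = 1 + (m : R) • (Y - 1) := by
  obtain ⟨N, hN⟩ : ∃ N, N = Y - 1 := ⟨_, rfl⟩
  have hY : Y = 1 + N := by rw [hN, add_sub_cancel]
  rw [← hN] at h ⊢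
  rw [hY]
  clear hN hY
  induction m with
  | zero => rw [pow_zero, Nat.cast_zero, zero_smul, add_zero]
  | succ m ih =>
    rw [pow_succ, ih]
    simp only [add_mul, mul_add, one_mul, mul_one, smul_mul_assoc, h, smul_zero, add_zero]
    rw [Nat.cast_succ, add_smul, one_smul]
    abel

/-- Entries of `X ^ n - 1` lie in `J` if those of `X - 1` do. -/
theorem pow_sub_one_mem_ideal (J : Ideal R) (X : Matrix (Fin 2) (Fin 2) R)
    (h : ∀ i j, (X - 1) i j ∈ J) (n : ℕ) : ∀ i j, (X ^ n - 1) i j ∈ J := by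
  induction n with
  | zero =>
    intro i j
    rw [pow_zero, sub_self, Matrix.zero_apply]
    exact J.zero_mem
  | succ n ih =>
    intro i j
    have e : X ^ (n + 1) - 1 = X ^ n * (X - 1) + (X ^ n - 1) := by
      rw [pow_succ, Matrix.mul_sub, Matrix.mul_one]
      abel
    rw [e, Matrix.add_apply, Matrix.mul_apply]
    exact J.add_mem (J.sum_mem fun k _ => J.mul_mem_left _ (h k j)) (ih i j)

end CH

section main

variable {D : Type} [CommRing D] [IsLocalRing D] [IsNoetherianRing D]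

/-- `1 + M₂(𝔪)` has no prime-to-`p` torsion. -/
theorem eq_one_of_pow_eq_one (p : ℕ) (hpD : (p : D) ∈ maximalIdeal D) (M : ℕ)
    (hM : M.Coprime p) (Y : Matrix (Fin 2) (Fin 2) D)
    (hY : ∀ i j, (Y - 1) i j ∈ maximalIdeal D) (hYM : Y ^ M = 1) : Y = 1 := by
  have hMU := H01.stmt_MatUnip
  have hkrull : ∀ x : D, (∀ N : ℕ, x ∈ maximalIdeal D ^ N) → x = 0 := by
    intro x hx
    have h := Ideal.iInf_pow_eq_bot_of_isLocalRing (maximalIdeal D)
      (maximalIdeal.isMaximal D).ne_top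
    have hmem : x ∈ ⨅ i : ℕ, maximalIdeal D ^ i := by
      rw [Ideal.mem_iInf]; exact hx
    rw [h] at hmem
    exact (Submodule.mem_bot D).1 hmem
  rw [← sub_eq_zero]
  ext i j
  rw [Matrix.zero_apply]
  refine hkrull _ fun N => hMU D (maximalIdeal D) p M N hpD hM Y hY (fun i j => ?_) i j
  rw [hYM, sub_self, Matrix.zero_apply]
  exact zero_mem _

variable [IsDomain D]

/-- **T2 (matrix form of the types at a pivot prime).** -/
theorem tame_types (p q n m' : ℕ) (hp : p.Prime) (hp2 : p ≠ 2)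
    (hpD : (p : D) ∈ maximalIdeal D) (hn : n ≠ 0) (hq : q = 1 + p ^ n * m') (hm' : ¬ p ∣ m')
    (ζ₀ : D) (hζ₀ : IsPrimitiveRoot ζ₀ (p ^ n))
    (Sg Ph Ph' : Matrix (Fin 2) (Fin 2) D) (hdet : Sg.det = 1)
    (hSg : ∀ i j, (Sg - 1) i j ∈ maximalIdeal D)
    (hPh : Ph * Ph' = 1) (hrel : Ph * Sg = Sg ^ q * Ph) :
    ∃ i < p ^ n, Sg.trace = ζ₀ ^ i + ζ₀ ^ (p ^ n - i) ∧
      (i ≠ 0 → Sg * Ph = Ph * Sg) ∧
      (i = 0 → (Sg - 1) * (Sg - 1) = 0 ∧ Ph * (Sg - 1) = (q : D) • ((Sg - 1) * Ph)) := by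
  classical
  haveI : NeZero (p ^ n) := ⟨pow_ne_zero n hp.ne_zero⟩
  have hPh' : Ph' * Ph = 1 := mul_eq_one_comm.1 hPh
  have hCH := mul_self_of_det_one Sg hdet
  -- the algebraic closure
  let K := FractionRing D
  let Ω := AlgebraicClosure K
  let ι : D →+* Ω := (algebraMap K Ω).comp (algebraMap D K)
  have hι : Function.Injective ι :=
    (algebraMap K Ω).injective.comp (IsFractionRing.injective D K)
  -- an eigenvalue
  obtain ⟨l, hl⟩ : ∃ l : Ω, l ^ 2 - ι Sg.trace * l + 1 = 0 := by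
    have hdeg : (Polynomial.C (1 : Ω) * Polynomial.X ^ 2 + Polynomial.C (-ι Sg.trace) *
        Polynomial.X + Polynomial.C 1).degree ≠ 0 := by
      rw [Polynomial.degree_quadratic one_ne_zero]
      norm_num
    obtain ⟨l, hl⟩ := IsAlgClosed.exists_root _ hdeg
    refine ⟨l, ?_⟩
    simp only [Polynomial.IsRoot, Polynomial.eval_add, Polynomial.eval_mul, Polynomial.eval_C,
      Polynomial.eval_pow, Polynomial.eval_X] at hl
    linear_combination hl
  obtain ⟨l', hl'⟩ : ∃ l' : Ω, l' = ι Sg.trace - l := ⟨_, rfl⟩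
  have hsum : l + l' = ι Sg.trace := by rw [hl']; ring
  have hprod : l * l' = 1 := by rw [hl']; linear_combination -hl
  have hl0 : l ≠ 0 := left_ne_zero_of_mul_eq_one hprod
  -- the matrix over `Ω`
  have hdetΩ : ∀ m : ℕ, ((ι.mapMatrix Sg) ^ m).det = 1 := by
    intro m
    rw [Matrix.det_pow, ← RingHom.map_det, hdet, map_one, one_pow]
  have htrΩ : ∀ Z : Matrix (Fin 2) (Fin 2) D, (ι.mapMatrix Z).trace = ι Z.trace := by
    intro Z
    rw [RingHom.mapMatrix_apply, ← AddMonoidHom.map_trace]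
  have hpowtr : ∀ m : ℕ, ι (Sg ^ m).trace = l ^ m + l' ^ m := by
    intro m
    have h1 := trace_pow_of_roots (ι.mapMatrix Sg) (by simpa using hdetΩ 1) l l'
      (by rw [hsum, htrΩ]) hprod m
    rw [← map_pow, htrΩ] at h1
    exact h1
  -- `tr Σ^q = tr Σ`
  have htrq : (Sg ^ q).trace = Sg.trace := by
    have e : Sg ^ q = Ph * Sg * Ph' := by
      rw [hrel, Matrix.mul_assoc, hPh, Matrix.mul_one]
    rw [e, Matrix.trace_mul_cycle, hPh', Matrix.one_mul]
  have heq : l ^ q + l' ^ q = l + l' := by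
    rw [← hpowtr q, htrq, hsum]
  -- `l ^ (q - 1) = 1` or `l ^ (q + 1) = 1`
  obtain ⟨a, ha⟩ : ∃ a : Ω, a = l ^ (p ^ n * m') := ⟨_, rfl⟩
  obtain ⟨a', ha'⟩ : ∃ a' : Ω, a' = l' ^ (p ^ n * m') := ⟨_, rfl⟩
  have haa : a * a' = 1 := by rw [ha, ha', ← mul_pow, hprod, one_pow]
  have hlq : l ^ q = l * a := by rw [hq, pow_add, pow_one, ha]
  have hlq' : l' ^ q = l' * a' := by rw [hq, pow_add, pow_one, ha']
  have hfac : (a - 1) * (l * a - l') = 0 := by
    rw [hlq, hlq'] at heq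
    linear_combination a * heq - l' * haa
  -- `μ ^ M = 1` with `M` prime to `p`
  obtain ⟨μ, hμ⟩ : ∃ μ : Ω, μ = l ^ (p ^ n) := ⟨_, rfl⟩
  obtain ⟨μ', hμ'⟩ : ∃ μ' : Ω, μ' = l' ^ (p ^ n) := ⟨_, rfl⟩
  have hμμ : μ * μ' = 1 := by rw [hμ, hμ', ← mul_pow, hprod, one_pow]
  have hpn : p ∣ p ^ n := dvd_pow_self p hn
  obtain ⟨M, hMp, hμM⟩ : ∃ M : ℕ, M.Coprime p ∧ μ ^ M = 1 := by
    rcases mul_eq_zero.1 hfac with h | h
    · refine ⟨m', ((Nat.Prime.coprime_iff_not_dvd hp).2 hm').symm, ?_⟩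
      rw [hμ, ← pow_mul, ← ha]
      exact sub_eq_zero.1 h
    · refine ⟨p ^ n * m' + 2, ?_, ?_⟩
      · refine ((Nat.Prime.coprime_iff_not_dvd hp).2 fun hdvd => ?_).symm
        have h2 : p ∣ 2 := (Nat.dvd_add_right (Dvd.dvd.mul_right hpn m')).1 hdvd
        exact hp2 ((Nat.prime_dvd_prime_iff_eq hp Nat.prime_two).1 h2)
      · have h1 : l ^ (p ^ n * m' + 2) = 1 := by
          rw [pow_add, ← ha, pow_two]
          linear_combination l * h + hprod
        rw [hμ, ← pow_mul, mul_comm, pow_mul, h1, one_pow]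
  -- `Y = Σ ^ (p ^ n)`
  have hYdet : (Sg ^ (p ^ n)).det = 1 := det_pow_of_det_one Sg hdet _
  have hY : ∀ i j, (Sg ^ (p ^ n) - 1) i j ∈ maximalIdeal D :=
    pow_sub_one_mem_ideal _ Sg hSg _
  have hYtr : ι (Sg ^ (p ^ n)).trace = μ + μ' := by rw [hpowtr, hμ, hμ']
  have hone : (1 : D) ∉ maximalIdeal D := fun h =>
    (maximalIdeal.isMaximal D).ne_top ((Ideal.eq_top_iff_one _).2 h)
  -- `μ = 1`
  have hμ1 : μ = 1 := by
    by_cases hμe : μ = μ'
    · have h1 : (μ - 1) * (μ + 1) = 0 := by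
        rw [← hμe] at hμμ
        linear_combination hμμ
      rcases mul_eq_zero.1 h1 with h | h
      · exact sub_eq_zero.1 h
      · exfalso
        have h2 : μ = -1 := eq_neg_of_add_eq_zero_left h
        have h3 : ι ((Sg ^ (p ^ n)).trace + 2) = 0 := by
          rw [map_add, hYtr, ← hμe, h2]
          simp only [map_ofNat]
          norm_num
        have h4 : (Sg ^ (p ^ n)).trace + 2 = 0 := hι (by rw [h3, map_zero])
        have h5 : (Sg ^ (p ^ n)).trace - 2 ∈ maximalIdeal D := by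
          have e : (Sg ^ (p ^ n)).trace - 2 =
              (Sg ^ (p ^ n) - 1) 0 0 + (Sg ^ (p ^ n) - 1) 1 1 := by
            rw [Matrix.trace_fin_two, Matrix.sub_apply, Matrix.sub_apply, Matrix.one_apply_eq,
              Matrix.one_apply_eq]
            ring
          rw [e]
          exact add_mem (hY 0 0) (hY 1 1)
        have h6 : (4 : D) ∈ maximalIdeal D := by
          have e : (4 : D) = ((Sg ^ (p ^ n)).trace + 2) - ((Sg ^ (p ^ n)).trace - 2) := by ring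
          rw [e, h4, zero_sub]
          exact neg_mem h5
        have hcop : Nat.Coprime 4 p := by
          have h22 : Nat.Coprime 2 p :=
            (Nat.coprime_primes Nat.prime_two hp).2 (Ne.symm hp2)
          exact Nat.Coprime.pow_left 2 h22
        have hbez : ((4 : ℤ) : D) * ((Nat.gcdA 4 p : ℤ) : D) +
            ((p : ℤ) : D) * ((Nat.gcdB 4 p : ℤ) : D) = 1 := by
          have := Nat.gcd_eq_gcd_ab 4 p
          rw [hcop.gcd_eq_one] at this
          have h7 := congrArg (fun z : ℤ => (z : D)) this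
          simp only [Int.cast_add, Int.cast_mul, Nat.cast_one, Int.cast_one, Int.cast_natCast,
            Nat.cast_ofNat, Int.cast_ofNat] at h7
          simp only [Int.cast_ofNat, Int.cast_natCast]
          exact h7.symm
        apply hone
        rw [← hbez]
        refine add_mem (Ideal.mul_mem_right _ _ ?_) (Ideal.mul_mem_right _ _ ?_)
        · simpa using h6
        · simpa using hpD
    · -- distinct eigenvalues: `Y ^ M = 1`
      have h1 := smul_pow_of_roots (ι.mapMatrix (Sg ^ (p ^ n)))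
        (by rw [← RingHom.map_det, hYdet, map_one]) μ μ' (by rw [htrΩ, hYtr]) hμμ M
      have hμ'M : μ' ^ M = 1 := by
        have : μ ^ M * μ' ^ M = 1 := by rw [← mul_pow, hμμ, one_pow]
        rw [hμM, one_mul] at this
        exact this
      rw [hμM, hμ'M, sub_self, zero_smul, zero_sub, one_mul, one_mul, ← neg_smul, neg_sub] at h1
      have h2 : (ι.mapMatrix (Sg ^ (p ^ n))) ^ M = 1 := by
        ext i j
        have h3 := congrFun (congrFun h1 i) j
        rw [Matrix.smul_apply, Matrix.smul_apply, smul_eq_mul, smul_eq_mul] at h3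
        exact mul_left_cancel₀ (sub_ne_zero.2 hμe) h3
      have h3 : (Sg ^ (p ^ n)) ^ M = 1 := by
        have hinj : Function.Injective (ι.mapMatrix : Matrix (Fin 2) (Fin 2) D →+* _) := by
          intro X Y hXY
          ext i j
          have := congrFun (congrFun hXY i) j
          rw [RingHom.mapMatrix_apply, RingHom.mapMatrix_apply, Matrix.map_apply,
            Matrix.map_apply] at this
          exact hι this
        apply hinj
        rw [map_pow, h2, map_one]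
      have h4 : Sg ^ (p ^ n) = 1 := eq_one_of_pow_eq_one p hpD M hMp _ hY h3
      have h5 : μ + μ' = 2 := by
        rw [← hYtr, h4, Matrix.trace_one, Fintype.card_fin]
        simp only [Nat.cast_ofNat, map_ofNat]
      have h6 : (μ - 1) * (μ - 1) = 0 := by linear_combination (-1 : Ω) * hμμ + μ * h5
      exact sub_eq_zero.1 (mul_self_eq_zero.1 h6)
  -- `l` is a power of `ζ₀`
  have hζΩ : IsPrimitiveRoot (ι ζ₀) (p ^ n) := hζ₀.map_of_injective hι
  obtain ⟨i, hi, hli⟩ := hζΩ.eq_pow_of_pow_eq_one (by rw [← hμ, hμ1] : l ^ (p ^ n) = 1)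
  have hl'i : l' = ι ζ₀ ^ (p ^ n - i) := by
    have h1 : l * ι ζ₀ ^ (p ^ n - i) = 1 := by
      rw [← hli, ← pow_add, Nat.add_sub_cancel' hi.le, hζΩ.pow_eq_one]
    exact mul_left_cancel₀ hl0 (by rw [hprod, h1])
  have htr : Sg.trace = ζ₀ ^ i + ζ₀ ^ (p ^ n - i) := by
    apply hι
    rw [← hsum, ← hli, hl'i, map_add, map_pow, map_pow]
  obtain ⟨z, hz⟩ : ∃ z : D, z = ζ₀ ^ i := ⟨_, rfl⟩
  obtain ⟨z', hz'⟩ : ∃ z' : D, z' = ζ₀ ^ (p ^ n - i) := ⟨_, rfl⟩
  have hzz : z * z' = 1 := by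
    rw [hz, hz', ← pow_add, Nat.add_sub_cancel' hi.le, hζ₀.pow_eq_one]
  have hzsum : z + z' = Sg.trace := by rw [htr, hz, hz']
  refine ⟨i, hi, htr, fun hi0 => ?_, fun hi0 => ?_⟩
  · -- the ramified types
    have hz1 : z ≠ 1 := by rw [hz]; exact hζ₀.pow_ne_one_of_pos_of_lt hi0 hi
    have hzpn : z ^ (p ^ n) = 1 := by rw [hz, ← pow_mul, mul_comm, pow_mul, hζ₀.pow_eq_one, one_pow]
    have hz'pn : z' ^ (p ^ n) = 1 := by
      rw [hz', ← pow_mul, mul_comm, pow_mul, hζ₀.pow_eq_one, one_pow]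
    have hne : z ≠ z' := by
      intro h
      have h2 : z ^ 2 = 1 := by rw [pow_two]; nth_rewrite 2 [h]; exact hzz
      have hg : z ^ (Nat.gcd 2 (p ^ n)) = 1 := pow_gcd_eq_one.2 ⟨h2, hzpn⟩
      have hcop : Nat.Coprime 2 (p ^ n) :=
        Nat.Coprime.pow_right n ((Nat.coprime_primes Nat.prime_two hp).2 (Ne.symm hp2))
      rw [hcop.gcd_eq_one, pow_one] at hg
      exact hz1 hg
    have hzq : z ^ q = z := by rw [hq, pow_add, pow_one, pow_mul, hzpn, one_pow, mul_one]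
    have hz'q : z' ^ q = z' := by rw [hq, pow_add, pow_one, pow_mul, hz'pn, one_pow, mul_one]
    have h1 := smul_pow_of_roots Sg hdet z z' hzsum hzz q
    rw [hzq, hz'q, mul_comm z' z, sub_self, zero_smul, sub_zero] at h1
    have h2 : Sg ^ q = Sg := by
      ext a b
      have h3 := congrFun (congrFun h1 a) b
      rw [Matrix.smul_apply, Matrix.smul_apply, smul_eq_mul, smul_eq_mul] at h3
      exact mul_left_cancel₀ (sub_ne_zero.2 hne) h3
    rw [hrel, h2]
  · -- the unipotent type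
    have ht2 : Sg.trace = 2 := by
      rw [htr, hi0, pow_zero, Nat.sub_zero, hζ₀.pow_eq_one]
      norm_num
    have hsq : (Sg - 1) * (Sg - 1) = 0 := by
      rw [Matrix.sub_mul, Matrix.mul_sub, Matrix.mul_sub, Matrix.mul_one, Matrix.one_mul,
        Matrix.one_mul, hCH, ht2, two_smul]
      abel
    refine ⟨hsq, ?_⟩
    have h1 := pow_of_sq_zero Sg hsq q
    rw [Matrix.mul_sub, Matrix.mul_one, hrel, h1, Matrix.add_mul, Matrix.one_mul,
      Matrix.smul_mul, add_sub_cancel_left]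

end main

end Fermat.Agent.L.Pivot.H59

end
-- ==== END Fermat.Agent.L.Pivot.H59_TameMat

-- ==== BEGIN Fermat.Agent.L.Pivot.H76_Frey2
section

set_option autoImplicit false

open WeierstrassCurve WeierstrassCurve.Affine WeierstrassCurve.Affine.Point
open scoped WeierstrassCurve.Affine

namespace Fermat.Agent.L.Pivot.H76

open Fermat.Agent.S44 Fermat.Agent.L.Pivot

/-- The prime `q` is exceptional for the Frey package: `q ≡ 1 mod p` and all Frobenius elements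
at some place over `q` act on `E[p]` through one scalar. -/
def IsExc2 (P : FreyPackage) (q : ℕ) : Prop :=
  P.p ∣ q - 1 ∧ ∃ A : ValuationSubring (AlgebraicClosure ℚ), A.LiesOverPrime q ∧ IsExcAt P q A

/-- **PIVOT, Frey form** (every unramified prime of the level is exceptional, `q ≡ 1 mod p`
included). -/
def Stmt_PivotFrey2 : Prop :=
  ∀ (P : FreyPackage) (N q : ℕ), P.IsConductorLevel N → ¬ P.p ∣ N → q.Prime → q ≠ P.p → q ∣ N →
    GaloisRepIsIrreducible (K := AlgebraicClosure ℚ) ℚ P.freyCurve P.p →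
    P.ModularRepOfLevel N → P.GaloisRepUnramifiedAt q →
    (∀ q' : ℕ, q'.Prime → q' ∣ N → P.GaloisRepUnramifiedAt q' → IsExc2 P q') →
    ∃ M : ℕ, M ∣ N ∧ ¬ q ∣ M ∧ P.ModularRepOfLevel M

/-- **Mazur's principle at a prime which is not exceptional, Frey form.** -/
def Stmt_NonExcFrey2 : Prop :=
  ∀ (P : FreyPackage) (N q : ℕ), P.IsConductorLevel N → q.Prime → q ≠ P.p → q ∣ N →
    GaloisRepIsIrreducible (K := AlgebraicClosure ℚ) ℚ P.freyCurve P.p →
    P.ModularRepOfLevel N → P.GaloisRepUnramifiedAt q → ¬ IsExc2 P q →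
    ∃ M : ℕ, M ∣ N ∧ ¬ q ∣ M ∧ P.ModularRepOfLevel M

/-- `Stmt_NonExcFrey2` is stronger than `Stmt_NonExcFrey`. -/
theorem nonExcFrey_of_nonExcFrey2 (h : Stmt_NonExcFrey2) : Stmt_NonExcFrey :=
  fun P N q hc hq hqp hqN hirr hm hu hne =>
    h P N q hc hq hqp hqN hirr hm hu (fun hexc => by
      obtain ⟨-, A, hA, hexcA⟩ := hexc
      exact hne A hA hexcA)

/-- `Stmt_PivotFrey` is stronger than `Stmt_PivotFrey2`. -/
theorem pivotFrey2_of_pivotFrey (h : Stmt_PivotFrey) : Stmt_PivotFrey2 :=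
  fun P N q hc hpN hq hqp hqN hirr hm hu hall =>
    h P N q hc hpN hq hqp hqN hirr hm hu (fun q' hq' hq'N hu' => (hall q' hq' hq'N hu').2)

/-- **S43 from S44, Mazur's principle and PIVOT (Frey form, second version).** -/
theorem s43_of2 (h44 : Stmt_S44T) (hNE : Stmt_NonExcFrey2) (hPF : Stmt_PivotFrey2)
    (P : FreyPackage) {N q : ℕ} (hcond : P.IsConductorLevel N) (hq : q.Prime) (_hq2 : q ≠ 2)
    (hqp : q ≠ P.p) (_hqN : q ∣ N)
    (hirr : GaloisRepIsIrreducible (K := AlgebraicClosure ℚ) ℚ P.freyCurve P.p)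
    (hmod : P.ModularRepOfLevel N) (_hunr : P.GaloisRepUnramifiedAt q) :
    ∃ M : ℕ, M ∣ N ∧ ¬ q ∣ M ∧ P.ModularRepOfLevel M := by
  -- strong induction on the level
  have key : ∀ n : ℕ, ∀ N : ℕ, N ≤ n → P.IsConductorLevel N → P.ModularRepOfLevel N →
      P.GaloisRepUnramifiedAt q → ∃ M : ℕ, M ∣ N ∧ ¬ q ∣ M ∧ P.ModularRepOfLevel M := by
    intro n
    induction n with
    | zero =>
      intro N hN hc _ _
      exact absurd hc.pos (by omega)
    | succ n ih =>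
      intro N hN hc hm hu
      by_cases hqN : q ∣ N
      swap
      · exact ⟨N, dvd_rfl, hqN, hm⟩
      -- a smaller level suffices
      have step : ∀ M : ℕ, M ∣ N → M < N → P.ModularRepOfLevel M →
          ∃ M' : ℕ, M' ∣ N ∧ ¬ q ∣ M' ∧ P.ModularRepOfLevel M' := by
        intro M hMN hlt hM
        have hM0 : 0 < M := Nat.pos_of_dvd_of_pos hMN hc.pos
        obtain ⟨M', hM'M, hqM', hM'⟩ := ih M (by omega) (hc.of_dvd hMN hM0) hM hu
        exact ⟨M', hM'M.trans hMN, hqM', hM'⟩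
      by_cases hpN : P.p ∣ N
      · obtain ⟨M, hMN, hpM, hM⟩ := h44 P hc hpN hirr hm
        exact step M hMN (lt_of_dvd_of_not_dvd hc.pos hMN hpN hpM) hM
      · by_cases hall : ∀ q' : ℕ, q'.Prime → q' ∣ N → P.GaloisRepUnramifiedAt q' → IsExc2 P q'
        · exact hPF P N q hc hpN hq hqp hqN hirr hm hu hall
        · push Not at hall
          obtain ⟨q', hq', hq'N, hu', hne⟩ := hall
          have hq'p : q' ≠ P.p := fun h => hpN (h ▸ hq'N)
          obtain ⟨M, hMN, hq'M, hM⟩ := hNE P N q' hc hq' hq'p hq'N hirr hm hu' hne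
          exact step M hMN (lt_of_dvd_of_not_dvd hc.pos hMN hq'N hq'M) hM
  exact key N N le_rfl hcond hmod _hunr

end Fermat.Agent.L.Pivot.H76

end
-- ==== END Fermat.Agent.L.Pivot.H76_Frey2

-- ==== BEGIN Fermat.Agent.L.Pivot.LocDefs
section

set_option autoImplicit false

namespace Fermat.Agent.L.Pivot

open MvPowerSeries IsLocalRing

section Defs

variable (𝒪 : Type) [CommRing 𝒪] (k g : ℕ)

/-- The ring `P' = 𝒪⟦(y, z, m, β)_j, x⟧`. -/
abbrev PRing' : Type := MvPowerSeries (Fin (4 * k + g)) 𝒪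

/-- The index of the `i`-th coordinate (`i < 4`: `y, z, m, β`) at the `j`-th pivot prime. -/
def cIdx' (j : Fin k) (i : Fin 4) : Fin (4 * k + g) :=
  ⟨4 * j.1 + i.1, by have := j.2; have := i.2; omega⟩

/-- The index of the `a`-th extra variable of `P'`. -/
def xIdx' (a : Fin g) : Fin (4 * k + g) := ⟨4 * k + a.1, by have := a.2; omega⟩

variable {k}

/-- `y_j` in `P'`. -/
noncomputable def py (j : Fin k) : PRing' 𝒪 k g := X (cIdx' k g j 0)
/-- `z_j` in `P'`. -/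
noncomputable def pz (j : Fin k) : PRing' 𝒪 k g := X (cIdx' k g j 1)
/-- `m_j` in `P'`. -/
noncomputable def pm (j : Fin k) : PRing' 𝒪 k g := X (cIdx' k g j 2)
/-- `β_j` in `P'`. -/
noncomputable def pβ (j : Fin k) : PRing' 𝒪 k g := X (cIdx' k g j 3)
/-- `x_a` in `P'`. -/
noncomputable def px (a : Fin g) : PRing' 𝒪 k g := X (xIdx' k g a)

variable (k)

/-- The images of the variables of `P` under `Sub`. -/
noncomputable def subFun (i : Fin (6 * k + g)) : PRing' 𝒪 k g :=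
  if h : i.1 < 6 * k then
    (if i.1 % 6 = 0 then py 𝒪 g ⟨i.1 / 6, by omega⟩
    else if i.1 % 6 = 1 then pz 𝒪 g ⟨i.1 / 6, by omega⟩
    else if i.1 % 6 = 2 then pm 𝒪 g ⟨i.1 / 6, by omega⟩
    else if i.1 % 6 = 3 then pβ 𝒪 g ⟨i.1 / 6, by omega⟩ * py 𝒪 g ⟨i.1 / 6, by omega⟩
    else if i.1 % 6 = 4 then pβ 𝒪 g ⟨i.1 / 6, by omega⟩ * pz 𝒪 g ⟨i.1 / 6, by omega⟩
    else pβ 𝒪 g ⟨i.1 / 6, by omega⟩ * pm 𝒪 g ⟨i.1 / 6, by omega⟩)
  else px 𝒪 g ⟨i.1 - 6 * k, by have := i.2; omega⟩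

theorem constantCoeff_subFun (i : Fin (6 * k + g)) : constantCoeff (subFun 𝒪 k g i) = 0 := by
  unfold subFun py pz pm pβ px
  split_ifs <;> simp

theorem hasSubst_subFun : HasSubst (subFun 𝒪 k g) :=
  hasSubst_of_constantCoeff_zero (constantCoeff_subFun 𝒪 k g)

/-- The substitution `Sub : P → P'`. -/
noncomputable def Sub : PRing 𝒪 k g →ₐ[𝒪] PRing' 𝒪 k g :=
  substAlgHom (hasSubst_subFun 𝒪 k g)

variable {𝒪 k g}

theorem Sub_X (i : Fin (6 * k + g)) : Sub 𝒪 k g (X i) = subFun 𝒪 k g i :=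
  substAlgHom_X _ i

theorem subFun_cIdx (j : Fin k) (i : Fin 6) :
    subFun 𝒪 k g (cIdx k g j i) =
      if i.1 = 0 then py 𝒪 g j
      else if i.1 = 1 then pz 𝒪 g j
      else if i.1 = 2 then pm 𝒪 g j
      else if i.1 = 3 then pβ 𝒪 g j * py 𝒪 g j
      else if i.1 = 4 then pβ 𝒪 g j * pz 𝒪 g j
      else pβ 𝒪 g j * pm 𝒪 g j := by
  have hj := j.2
  have hi := i.2
  have h1 : (cIdx k g j i).1 = 6 * j.1 + i.1 := rfl
  have h2 : (6 * j.1 + i.1) / 6 = j.1 := by omega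
  have h3 : (6 * j.1 + i.1) % 6 = i.1 := by omega
  have h4 : 6 * j.1 + i.1 < 6 * k := by omega
  have hj' : (⟨(cIdx k g j i).1 / 6, by rw [h1, h2]; exact hj⟩ : Fin k) = j := by
    apply Fin.ext
    simp only [h1, h2]
  unfold subFun
  rw [dif_pos (by rw [h1]; exact h4)]
  simp only [h1, h3, h2]

@[simp] theorem Sub_cy (j : Fin k) : Sub 𝒪 k g (cy 𝒪 g j) = py 𝒪 g j := by
  rw [cy, Sub_X, subFun_cIdx]; simp
@[simp] theorem Sub_cz (j : Fin k) : Sub 𝒪 k g (cz 𝒪 g j) = pz 𝒪 g j := by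
  rw [cz, Sub_X, subFun_cIdx]; simp
@[simp] theorem Sub_cm (j : Fin k) : Sub 𝒪 k g (cm 𝒪 g j) = pm 𝒪 g j := by
  rw [cm, Sub_X, subFun_cIdx]; simp
@[simp] theorem Sub_cv (j : Fin k) : Sub 𝒪 k g (cv 𝒪 g j) = pβ 𝒪 g j * py 𝒪 g j := by
  rw [cv, Sub_X, subFun_cIdx]; simp
@[simp] theorem Sub_cw (j : Fin k) : Sub 𝒪 k g (cw 𝒪 g j) = pβ 𝒪 g j * pz 𝒪 g j := by
  rw [cw, Sub_X, subFun_cIdx]; simp
@[simp] theorem Sub_cs (j : Fin k) : Sub 𝒪 k g (cs 𝒪 g j) = pβ 𝒪 g j * pm 𝒪 g j := by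
  rw [cs, Sub_X, subFun_cIdx]; simp

theorem Sub_xIdx (a : Fin g) : Sub 𝒪 k g (X (xIdx k g a)) = px 𝒪 g a := by
  rw [Sub_X]
  have ha := a.2
  have h1 : (xIdx k g a).1 = 6 * k + a.1 := rfl
  unfold subFun
  rw [dif_neg (by rw [h1]; omega)]
  congr 1
  apply Fin.ext
  simp only [h1]
  omega

/-- `F_j = m_j² + 4 y_j z_j − δ_j²`. -/
noncomputable def typeF (δ : Fin k → 𝒪) (j : Fin k) : PRing' 𝒪 k g :=
  pm 𝒪 g j ^ 2 + 4 * py 𝒪 g j * pz 𝒪 g j - C (δ j ^ 2)

/-- The ideal `(F_1, …, F_k)` of `P'`. -/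
noncomputable def typeIdeal' (g : ℕ) (δ : Fin k → 𝒪) : Ideal (PRing' 𝒪 k g) :=
  Ideal.span (Set.range (typeF (g := g) δ))

/-- **The ideal of type `δ`.** -/
noncomputable def typeIdeal (g : ℕ) (δ : Fin k → 𝒪) : Ideal (PRing 𝒪 k g) :=
  Ideal.comap (Sub 𝒪 k g) (typeIdeal' g δ)

theorem Sub_Q1 (j : Fin k) :
    Sub 𝒪 k g (Q1 𝒪 g j) = pm 𝒪 g j ^ 2 + 4 * py 𝒪 g j * pz 𝒪 g j := by
  have h4 : Sub 𝒪 k g (4 : PRing 𝒪 k g) = 4 := map_ofNat _ 4
  simp only [Q1, map_add, map_mul, map_pow, Sub_cy, Sub_cz, Sub_cm, h4]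

theorem Q1_sub_mem_typeIdeal (δ : Fin k → 𝒪) (j : Fin k) :
    Q1 𝒪 g j - C (δ j ^ 2) ∈ typeIdeal g δ := by
  rw [typeIdeal, Ideal.mem_comap, map_sub, Sub_Q1]
  have h1 : Sub 𝒪 k g (C (δ j ^ 2)) = C (δ j ^ 2) := by
    have h2 : (C (δ j ^ 2) : PRing 𝒪 k g) = algebraMap 𝒪 _ (δ j ^ 2) := rfl
    rw [h2, AlgHom.commutes]
    rfl
  rw [h1]
  exact Ideal.subset_span ⟨j, rfl⟩

theorem minor1_mem_typeIdeal (δ : Fin k → 𝒪) (j : Fin k) : minor1 𝒪 g j ∈ typeIdeal g δ := by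
  rw [typeIdeal, Ideal.mem_comap]
  have : Sub 𝒪 k g (minor1 𝒪 g j) = 0 := by simp [minor1]; ring
  rw [this]; exact Ideal.zero_mem _

theorem minor2_mem_typeIdeal (δ : Fin k → 𝒪) (j : Fin k) : minor2 𝒪 g j ∈ typeIdeal g δ := by
  rw [typeIdeal, Ideal.mem_comap]
  have : Sub 𝒪 k g (minor2 𝒪 g j) = 0 := by simp [minor2]; ring
  rw [this]; exact Ideal.zero_mem _

theorem minor3_mem_typeIdeal (δ : Fin k → 𝒪) (j : Fin k) : minor3 𝒪 g j ∈ typeIdeal g δ := by
  rw [typeIdeal, Ideal.mem_comap]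
  have : Sub 𝒪 k g (minor3 𝒪 g j) = 0 := by simp [minor3]; ring
  rw [this]; exact Ideal.zero_mem _

end Defs

/-! ### The four leaves of PV-LOC-TYPE -/

/-- **TYPE-PRIME** (QUADRIC + induction): `(F_1, …, F_k)` is a prime ideal of `P'`. -/
def Stmt_TypePrime : Prop :=
  ∀ (𝒪 : Type) [CommRing 𝒪] [IsDomain 𝒪] [IsDiscreteValuationRing 𝒪]
    [IsAdicComplete (maximalIdeal 𝒪) 𝒪] (k g : ℕ) (δ : Fin k → 𝒪),
    IsUnit (2 : 𝒪) → (∀ j, δ j ≠ 0) → (∀ j, δ j ∈ maximalIdeal 𝒪) →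
    (typeIdeal' g δ).IsPrime

/-- **TYPE-DIM**: `dim P / typeIdeal ≤ 1 + 3k + g`. -/
def Stmt_TypeDim : Prop :=
  ∀ (𝒪 : Type) [CommRing 𝒪] [IsDomain 𝒪] [IsDiscreteValuationRing 𝒪]
    [IsAdicComplete (maximalIdeal 𝒪) 𝒪] (k g : ℕ) (ϖ : 𝒪) (δ : Fin k → 𝒪),
    IsUnit (2 : 𝒪) → maximalIdeal 𝒪 = Ideal.span {ϖ} → (∀ j, δ j ∈ maximalIdeal 𝒪) →
    typeIdeal g δ ≠ ⊤ →
    ringKrullDim (PRing 𝒪 k g ⧸ typeIdeal g δ) ≤ ((1 + 3 * k + g : ℕ) : WithBot ℕ∞)

/-- **TYPE-KILL**: every point of type `δ` kills `typeIdeal δ`. -/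
def Stmt_TypeKill : Prop :=
  ∀ (𝒪 : Type) [CommRing 𝒪] [IsDomain 𝒪] (k g : ℕ) (δ : Fin k → 𝒪),
    (∀ j, δ j ≠ 0) → KilledByType g δ (typeIdeal g δ)

/-- **TYPE-LEQ**: `typeIdeal δ ≤ (ϖ, y_j, z_j, m_j)`. -/
def Stmt_TypeLeQ : Prop :=
  ∀ (𝒪 : Type) [CommRing 𝒪] [IsDomain 𝒪] [IsDiscreteValuationRing 𝒪]
    [IsAdicComplete (maximalIdeal 𝒪) 𝒪] (k g : ℕ) (ϖ : 𝒪) (δ : Fin k → 𝒪),
    IsUnit (2 : 𝒪) → maximalIdeal 𝒪 = Ideal.span {ϖ} →
    (∀ j, δ j ≠ 0) → (∀ j, δ j ∈ maximalIdeal 𝒪) →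
    typeIdeal g δ ≤ idealQ k g ϖ

/-- `Stmt_PVLoc_type` from the four leaves. -/
theorem stmt_PVLoc_type_of (h1 : Stmt_TypePrime) (h2 : Stmt_TypeDim) (h3 : Stmt_TypeKill)
    (h4 : Stmt_TypeLeQ) : Stmt_PVLoc_type := by
  intro 𝒪 _ _ _ _ k g ϖ δ hu hϖ hδ0 hδm
  have hp : (typeIdeal' g δ).IsPrime := h1 𝒪 k g δ hu hδ0 hδm
  have hprime : (typeIdeal g δ).IsPrime := Ideal.comap_isPrime _ _
  exact ⟨typeIdeal g δ, hprime, h2 𝒪 k g ϖ δ hu hϖ hδm hprime.ne_top, h4 𝒪 k g ϖ δ hu hϖ hδ0 hδm,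
    h3 𝒪 k g δ hδ0⟩

end Fermat.Agent.L.Pivot

end
-- ==== END Fermat.Agent.L.Pivot.LocDefs

-- ==== BEGIN Fermat.Agent.NEB.Geom.H29_ZFin
section

/-!
# NEB-GEOM, leaf Z-FIN (helper29): `J_H[p ^ k]` is finite

* `finite_torsion_of_mono` : if `p ∤ |H'|`, EIG-MONO (`H98.Stmt_MonoH M c H' p ι`) embeds
  `J_{H'}[p ^ k]` into `Hom(Γ₀(M) ∩ Γ₁(c), ℤ/p^k)`, a finite group;
* `stmt_ZFIN` : for `H' ≤ H` with `p ∤ |H'|`: `J_H[p ^ k]` is finite (the kernel of
  `π^* : J_H[p ^ k] → J_{H'}[p ^ k]` is finite by Kummer theory, `finite_ker_pullP`);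
* `stmt_ZFIN'` : the same with `H'` the subgroup of the `p ^ e`-th powers of `H`.
-/

set_option autoImplicit false
set_option linter.style.haveILetI false

noncomputable section

namespace Fermat.Agent.NEB.Geom.H29

open AlgebraicCurve ModularCurve CongruenceSubgroup
open Fermat.Agent.NEB Fermat.Agent.NEB.H14 Fermat.Agent.NEB.JH Fermat.Agent.RED
open Fermat.Agent.NEB.EIG.H39 Fermat.Agent.NEB.EIG.H98
open scoped MatrixGroups

section FG

/-- `Γ₀(M) ∩ Γ₁(c)` contains the principal congruence subgroup of level `M c`. -/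
theorem gamma_le_gam1 (M c : ℕ) : Gamma (M * c) ≤ Gam1 M c := by
  intro γ hγ
  rw [Gamma_mem] at hγ
  obtain ⟨h00, -, h10, -⟩ := hγ
  have h10' : ((M * c : ℕ) : ℤ) ∣ γ 1 0 := by
    rw [← ZMod.intCast_zmod_eq_zero_iff_dvd]
    exact h10
  have h00' : ((M * c : ℕ) : ℤ) ∣ γ 0 0 - 1 := by
    rw [← ZMod.intCast_zmod_eq_zero_iff_dvd, Int.cast_sub, Int.cast_one, h00, sub_self]
  have hM : (M : ℤ) ∣ ((M * c : ℕ) : ℤ) := ⟨c, by push_cast; ring⟩
  have hc : (c : ℤ) ∣ ((M * c : ℕ) : ℤ) := ⟨M, by push_cast; ring⟩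
  exact ⟨hM.trans h10', hc.trans h10', hc.trans h00'⟩

/-- `Γ₀(M) ∩ Γ₁(c)` is finitely generated. -/
theorem groupFG_gam1 (M c : ℕ) [NeZero M] [NeZero c] : Group.FG ↥(Gam1 M c) := by
  haveI := Fermat.Agent.GTor.H56.groupFG_SL2Z'
  haveI : NeZero (M * c) := ⟨mul_ne_zero (NeZero.ne M) (NeZero.ne c)⟩
  haveI : (Gam1 M c).FiniteIndex := Subgroup.finiteIndex_of_le (gamma_le_gam1 M c)
  exact Subgroup.fg_of_index_ne_zero (Gam1 M c)

end FG

section Mono

variable {M c : ℕ} [NeZero M] [NeZero c]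

/-- **Finiteness from EIG-MONO** when `p ∤ |H'|`. -/
theorem finite_torsion_of_mono (H' : Subgroup (ZMod c)ˣ) (p : ℕ) [Fact p.Prime]
    (hcop : (Nat.card H').Coprime p) (ι : Kbar →+* ℂ) (hmono : Stmt_MonoH M c H' p ι) (k : ℕ) :
    {y : JH M c H' | ((p ^ k : ℕ) : ℤ) • y = 0}.Finite := by
  obtain ⟨mono, -, hker, -⟩ := hmono
  haveI := groupFG_gam1 M c
  haveI : NeZero (p ^ k) := ⟨pow_ne_zero k (Fact.out : p.Prime).ne_zero⟩
  haveI : Finite (Additive ↥(Gam1 M c) →+ ZMod (p ^ k)) :=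
    Fermat.Agent.GTor.H56.finite_addMonoidHom_of_fg _ _
  have hinj : Function.Injective (mono k) := by
    rw [injective_iff_map_eq_zero]
    intro x hx
    have h1 := hker k x hx
    have h2 : ((p ^ k : ℕ) : ℤ) • (x : JH M c H') = 0 := Pic0.mem_torsion.mp x.2
    rw [natCast_zsmul] at h2
    have hco : (Nat.card H').Coprime (p ^ k) := hcop.pow_right k
    apply Subtype.ext
    show (x : JH M c H') = 0
    have h3 := (Nat.Coprime.isCoprime hco)
    obtain ⟨a, b, hab⟩ := h3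
    have h4 : ((a * (Nat.card H' : ℤ) + b * ((p ^ k : ℕ) : ℤ)) : ℤ) • (x : JH M c H') = 0 := by
      rw [add_zsmul, mul_zsmul, mul_zsmul, natCast_zsmul, natCast_zsmul,
        h1, h2, smul_zero, smul_zero, add_zero]
    rw [hab, one_smul] at h4
    exact h4
  haveI : Finite (Pic0.torsion Kbar ↥(FHbar M c H') (p ^ k)) := Finite.of_injective _ hinj
  have h5 : (Set.range (Subtype.val : Pic0.torsion Kbar ↥(FHbar M c H') (p ^ k) → JH M c H')).Finite :=
    Set.finite_range _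
  refine h5.subset fun y hy => ?_
  exact ⟨⟨y, Pic0.mem_torsion.mpr hy⟩, rfl⟩

/-- **Z-FIN**: `J_H[p ^ k]` is finite, given EIG-MONO for a subgroup `H' ≤ H` of order prime to
`p`. -/
theorem stmt_ZFIN {H H' : Subgroup (ZMod c)ˣ} (hH : H' ≤ H) (h2 : 2 ≤ c) (hc : c ∣ M)
    (p : ℕ) [Fact p.Prime] (hcop : (Nat.card H').Coprime p) (ι : Kbar →+* ℂ)
    (hmono : Stmt_MonoH M c H' p ι) (k : ℕ) :
    {y : JH M c H | ((p ^ k : ℕ) : ℤ) • y = 0}.Finite := by
  haveI := finite_units_zmod c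
  have dd := diamondData M c H h2 hc
  have dd' := diamondData M c H' h2 hc
  refine finite_torsion_of_cover (isFF_JH M c H h2 hc) (isFF_JH M c H' h2 hc) (inclRel M hH)
    (dd'.ρ.comp H.subtype) (fun d x => rho_inclRel_of_mem hH dd' dd d.2 x)
    (fun x hx => relFixed hH dd' dd x (fun d hd => hx ⟨d, hd⟩)) (p ^ k)
    (pow_ne_zero k (Fact.out : p.Prime).ne_zero) (finite_torsion_of_mono H' p hcop ι hmono k)

end Mono

section PrimePart

/-- The subgroup of the `p ^ e`-th powers, `p ^ e ‖ |H|`: the prime-to-`p` part of a finite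
commutative group. -/
def primePart {G : Type*} [CommGroup G] (H : Subgroup G) (p : ℕ) : Subgroup G :=
  H.map (powMonoidHom (p ^ (Nat.card H).factorization p))

theorem primePart_le {G : Type*} [CommGroup G] (H : Subgroup G) (p : ℕ) : primePart H p ≤ H := by
  rintro y ⟨x, hx, rfl⟩
  exact H.pow_mem hx _

theorem card_primePart_coprime {G : Type*} [CommGroup G] [Finite G] (H : Subgroup G) (p : ℕ)
    [hp : Fact p.Prime] : (Nat.card (primePart H p)).Coprime p := by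
  have hH0 : Nat.card H ≠ 0 := Nat.card_pos.ne'
  have hm : p.Coprime (ordCompl[p] (Nat.card H)) := Nat.coprime_ordCompl hp.out hH0
  have hkill : ∀ y : primePart H p, y ^ (ordCompl[p] (Nat.card H)) = 1 := by
    rintro ⟨y, x, hx, rfl⟩
    apply Subtype.ext
    show (powMonoidHom (p ^ (Nat.card H).factorization p) x) ^ (ordCompl[p] (Nat.card H)) = 1
    rw [powMonoidHom_apply, ← pow_mul, Nat.ordProj_mul_ordCompl_eq_self]
    have h1 : (⟨x, hx⟩ : H) ^ Nat.card H = 1 := pow_card_eq_one'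
    exact congrArg Subtype.val h1
  apply Nat.Coprime.symm
  rw [Nat.Prime.coprime_iff_not_dvd hp.out]
  intro hdvd
  obtain ⟨y, hy⟩ := exists_prime_orderOf_dvd_card' p hdvd
  have h2 : orderOf y ∣ ordCompl[p] (Nat.card H) := orderOf_dvd_of_pow_eq_one (hkill y)
  rw [hy] at h2
  exact (Nat.Prime.coprime_iff_not_dvd hp.out).mp hm h2

/-- **Z-FIN**, with the prime-to-`p` part of `H`. -/
theorem stmt_ZFIN' {M c : ℕ} [NeZero M] [NeZero c] (H : Subgroup (ZMod c)ˣ) (h2 : 2 ≤ c)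
    (hc : c ∣ M) (p : ℕ) [Fact p.Prime] (ι : Kbar →+* ℂ)
    (hmono : Stmt_MonoH M c (primePart H p) p ι) (k : ℕ) :
    {y : JH M c H | ((p ^ k : ℕ) : ℤ) • y = 0}.Finite := by
  haveI := finite_units_zmod c
  exact stmt_ZFIN (primePart_le H p) h2 hc p (card_primePart_coprime H p) ι hmono k

end PrimePart

end Fermat.Agent.NEB.Geom.H29

end
end
-- ==== END Fermat.Agent.NEB.Geom.H29_ZFin

-- ==== BEGIN Fermat.Agent.NEB.Geom.H46_WLGAbs
section

/-!
# NEB-GEOM, leaf W-LG (helper46): abstract lemmas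

* `eq_one_of_unip` : a unipotent element `g` of a ring with `g ^ Q = 1`, `Q` cancellable, is `1`;
* `isNilpotent_sub_one_of_pow` : in a commutative ring with `p` nilpotent, `d ^ (p ^ n) = 1`
  implies `d - 1` nilpotent;
* `pow_sub_apply_eq_zero` : generalised eigenvectors and commuting nilpotent perturbations;
* `pow_sub_one_apply_eq_zero` : an operator trivial on `V[𝔪]` is unipotent if `𝔪 ^ n V = 0`.

Only Mathlib (and `S59/TWH/AbsLG.lean`) is used.
-/

set_option autoImplicit false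

namespace Fermat.Agent.NEB.Geom.H46

open Fermat.Agent.S59.TWH

/-- If `E` is nilpotent and `(1 + E) ^ Q = 1` with `Q` cancellable, then `E = 0`. -/
theorem eq_zero_of_unip {S : Type*} [Ring S] (E : S) (n Q : ℕ) (hE : E ^ n = 0)
    (hQ : (1 + E) ^ Q = 1) (hcancel : ∀ f : S, (Q : S) * f = 0 → f = 0) : E = 0 := by
  have key : ∀ i : ℕ, E ^ (i + 2) = 0 → E ^ (i + 1) = 0 := by
    intro i hi
    have h1 : (1 + E) * E ^ (i + 1) = E ^ (i + 1) := by
      rw [add_mul, one_mul, ← pow_succ', hi, add_zero]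
    have h2 : ∀ j : ℕ, (1 + E) ^ j * E ^ (i + 1) = E ^ (i + 1) := by
      intro j
      induction j with
      | zero => rw [pow_zero, one_mul]
      | succ j ih => rw [pow_succ, mul_assoc, h1, ih]
    have h3 : (∑ j ∈ Finset.range Q, (1 + E) ^ j) * E ^ (i + 1) = (Q : S) * E ^ (i + 1) := by
      rw [Finset.sum_mul, Finset.sum_congr rfl (fun j _ => h2 j), Finset.sum_const,
        Finset.card_range, nsmul_eq_mul]
    have h4 : (∑ j ∈ Finset.range Q, (1 + E) ^ j) * E ^ (i + 1) = 0 := by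
      have e : E = (1 + E) - 1 := by abel
      have h5 := geom_sum_mul (1 + E) Q
      rw [← e, hQ, sub_self] at h5
      rw [pow_succ', ← mul_assoc, h5, zero_mul]
    apply hcancel
    rw [← h3, h4]
  have all : ∀ k i : ℕ, n ≤ i + 1 + k → E ^ (i + 1) = 0 := by
    intro k
    induction k with
    | zero =>
      intro i hi
      exact pow_eq_zero_of_le hi hE
    | succ k ih =>
      intro i hi
      apply key
      exact ih (i + 1) (by omega)
  have h := all n 0 (by omega)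
  rw [zero_add, pow_one] at h
  exact h

/-- A unipotent element `g` with `g ^ Q = 1`, `Q` cancellable, is `1`. -/
theorem eq_one_of_unip {S : Type*} [Ring S] (g : S) (n Q : ℕ) (hE : (g - 1) ^ n = 0)
    (hQ : g ^ Q = 1) (hcancel : ∀ f : S, (Q : S) * f = 0 → f = 0) : g = 1 := by
  have e : 1 + (g - 1) = g := by abel
  have h := eq_zero_of_unip (g - 1) n Q hE (by rw [e]; exact hQ) hcancel
  exact sub_eq_zero.mp h

/-- In a commutative ring in which `p` is nilpotent, `d ^ (p ^ n) = 1` implies that `d - 1` is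
nilpotent. -/
theorem isNilpotent_sub_one_of_pow {R : Type*} [CommRing R] {p : ℕ} (hp : p.Prime) (n : ℕ)
    (d : R) (hpn : IsNilpotent (p : R)) (hd : d ^ (p ^ n) = 1) : IsNilpotent (d - 1) := by
  obtain ⟨r, hr⟩ := exists_add_pow_prime_pow_eq hp (d - 1) 1 n
  rw [sub_add_cancel, hd, one_pow] at hr
  have h1 : (d - 1) ^ (p ^ n) = (p : R) * (-((d - 1) * r)) := by linear_combination -hr
  have h2 : IsNilpotent ((d - 1) ^ (p ^ n)) := by
    rw [h1]
    exact (Commute.all _ _).isNilpotent_mul_right hpn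
  exact h2.of_pow

section Gen

variable {R : Type*} [CommRing R] {V : Type*} [AddCommGroup V] [Module R V]

/-- If `E ^ N v = 0` and `ν` is nilpotent and commutes with `E` then `(E - ν) ^ (N + M) v = 0`. -/
theorem pow_sub_apply_eq_zero (E ν : Module.End R V) (hc : Commute E ν) {N M : ℕ}
    (hν : ν ^ M = 0) {v : V} (hv : (E ^ N) v = 0) : ((E - ν) ^ (N + M)) v = 0 := by
  have hc' : Commute E (-ν) := hc.neg_right
  rw [sub_eq_add_neg, hc'.add_pow']
  rw [LinearMap.sum_apply]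
  refine Finset.sum_eq_zero fun ij hij => ?_
  rw [Finset.HasAntidiagonal.mem_antidiagonal] at hij
  rw [LinearMap.smul_apply]
  by_cases hj : M ≤ ij.2
  · have : (-ν) ^ ij.2 = 0 := by
      rw [neg_pow, pow_eq_zero_of_le hj hν, mul_zero]
    rw [this, mul_zero, LinearMap.zero_apply, smul_zero]
  · have hi : N ≤ ij.1 := by omega
    have hcp : Commute (E ^ ij.1) ((-ν) ^ ij.2) := (hc'.pow_pow _ _)
    rw [hcp.eq, Module.End.mul_apply]
    have : (E ^ ij.1) v = 0 := by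
      obtain ⟨k, hk⟩ := Nat.exists_eq_add_of_le hi
      rw [hk, add_comm, pow_add, Module.End.mul_apply, hv, map_zero]
    rw [this, map_zero, smul_zero]

/-- An operator which is trivial on `V[𝔪]` is unipotent on `V`, if `𝔪 ^ n` kills `V`. -/
theorem pow_sub_one_apply_eq_zero {𝔪 : Ideal R} (σ : V →ₗ[R] V)
    (h6b : ∀ v : V, (∀ r ∈ 𝔪, r • v = 0) → σ v = v) (n : ℕ)
    (h𝔪 : ∀ r ∈ 𝔪 ^ n, ∀ v : V, r • v = 0) (v : V) :
    (((σ : Module.End R V) - 1) ^ n) v = 0 := by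
  have key : ∀ (i : ℕ) (w : V), w ∈ killedBy 𝔪 V i → (((σ : Module.End R V) - 1) ^ i) w = 0 := by
    intro i
    induction i with
    | zero =>
      intro w hw
      rw [killedBy_zero] at hw
      rw [pow_zero, Module.End.one_apply]
      exact (Submodule.mem_bot R).mp hw
    | succ i ih =>
      intro w hw
      rw [pow_succ, Module.End.mul_apply]
      apply ih
      have := sub_mem_killedBy σ h6b hw
      simpa using this
  apply key
  intro r hr
  exact h𝔪 r hr v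

end Gen

end Fermat.Agent.NEB.Geom.H46

end
-- ==== END Fermat.Agent.NEB.Geom.H46_WLGAbs

-- ==== BEGIN Fermat.Agent.NEB.Geom.H70_ClRes
section
attribute [local instance 10000] SubalgebraClass.toAlgebra
attribute [local instance 10000] HahnSeries.powerSeriesAlgebra

/-!
# Item 72 (LG-NEB), package NEB-GEOM, leaf CL-RES (helper70)

`cl_RES`: class form of `H84.stmt_RES`.  For `p` prime, `2 ≤ c ∣ M`, `F_H / F₀` unramified
(every place of `F_H` has a uniformiser in `F₀`; true under `UnrCond M c H`), `(ℤ/c)ˣ/±H` of exponent `p^n`, `P` over a prime `r ≠ p`: a `p`-power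
torsion class `x₀ ∈ J₀(M)` whose pull-back to `J_H` lies in the kernel of reduction is `y + z`
with `y` in the kernel of reduction of `J₀(M)` and `π^* z = 0`.
-/

set_option autoImplicit false

noncomputable section

open ModularCurve AlgebraicCurve

namespace Fermat.Agent.NEB.Geom.H70

open Fermat.Agent.NEB Fermat.Agent.NEB.JH Fermat.Agent.NEB.H14 Fermat.Agent.GTor
open Fermat.Agent.S28.H73 Fermat.Agent.RED.H73

section Gen

variable {K F : Type} [Field K] [Field F] [Algebra K F]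

/-- Change of representative, multiplicative form. -/
theorem KumRep.change_mul [HasPrincipalDivisors K F] {n : ℕ} {x : Pic0 K F} {f : F}
    (hx : KumRep (n : ℤ) x f) {w : F} (hw : w ≠ 0) : KumRep (n : ℤ) x (f * w ^ n) := by
  have h1 := (kumRep_principal (K := K) hw).level n
  rw [one_mul] at h1
  have := hx.add h1
  rwa [add_zero] at this

/-- A class whose Kummer function is an `n`-th power is trivial. -/
theorem KumRep.eq_zero_of_pow {n : ℕ} (hn : n ≠ 0) {x : Pic0 K F} {g : F}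
    (hx : KumRep (n : ℤ) x (g ^ n)) : x = 0 := by
  obtain ⟨hgn, D, rfl, hD⟩ := hx
  have hg : g ≠ 0 := fun h0 => hgn (by rw [h0, zero_pow hn])
  refine (QuotientAddGroup.eq_zero_iff _).2 ?_
  refine ⟨g, hg, fun v => ?_⟩
  have h1 : v.ord (g ^ n) = (n : ℤ) * v.ord g := by rw [← zpow_natCast, v.ord_zpow]
  have h2 := hD v
  rw [h1] at h2
  exact mul_left_cancel₀ (by exact_mod_cast hn : (n : ℤ) ≠ 0) h2

/-- A function all of whose orders are divisible by `n` is the Kummer function of a class. -/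
theorem exists_kumRep_of_dvd [HasPrincipalDivisors K F] {n : ℕ} (hn : n ≠ 0) {u : F}
    (hu : u ≠ 0) (hdiv : ∀ v : Place K F, (n : ℤ) ∣ v.ord u) :
    ∃ z : Pic0 K F, KumRep (n : ℤ) z u := by
  let fe : unrSubgroup K F n := ⟨Units.mk0 u hu, hdiv⟩
  exact ⟨Pic0.mk (H33.divQuot hn fe), hu, H33.divQuot hn fe, rfl, H33.divQuot_apply hn fe⟩

end Gen

section Res

variable (M c : ℕ) (H : Subgroup (ZMod c)ˣ) (p : ℕ)

/-- The exponent condition propagates to multiples. -/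
theorem exp_mul {c : ℕ} {H : Subgroup (ZMod c)ˣ} {a : ℕ}
    (h : ∀ d : (ZMod c)ˣ, d ^ a ∈ H ∨ -(d ^ a) ∈ H) (b : ℕ) :
    ∀ d : (ZMod c)ˣ, d ^ (a * b) ∈ H ∨ -(d ^ (a * b)) ∈ H := by
  intro d
  rw [pow_mul]
  rcases h d with h1 | h1
  · exact Or.inl (H.pow_mem h1 b)
  · have h2 : (-(d ^ a)) ^ b ∈ H := H.pow_mem h1 b
    rcases Nat.even_or_odd b with hb | hb
    · rw [hb.neg_pow] at h2
      exact Or.inl h2
    · rw [hb.neg_pow] at h2
      exact Or.inr h2

/-- **CL-RES**. -/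
theorem cl_RES (hp : p.Prime) (hc2 : 2 ≤ c) (hc : c ∣ M) (hM : M ≠ 0)
    (hunr : ∀ w : Place Kbar ↥(FHbar M c H),
      ∃ x : ↥(modularFunctionFieldBar M), w.ord (inclBar M c H x) = 1)
    (n : ℕ) (hexp : ∀ d : (ZMod c)ˣ, d ^ (p ^ n) ∈ H ∨ -(d ^ (p ^ n)) ∈ H)
    (P : ValuationSubring Kbar) (r : ℕ) (hr : r.Prime) (hrp : r ≠ p) (hP : P.LiesOverPrime r)
    (x₀ : JZero M) (hx₀ : IsPTors p x₀)
    (hK : InK1 P p (FHbar M c H) (piUp M c H x₀)) :
    ∃ y z : JZero M, x₀ = y + z ∧ InK1 P p (modularFunctionFieldBar M) y ∧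
      piUp M c H z = 0 := by
  have hMne : NeZero M := ⟨hM⟩
  have hFF : Fermat.Agent.RED.IsFF Kbar ↥(FHbar M c H) := isFF_JH M c H hc2 hc
  have hF0 : Fermat.Agent.RED.IsFF Kbar ↥(modularFunctionFieldBar M) := isFF0 M
  have hPD : HasPrincipalDivisors Kbar ↥(modularFunctionFieldBar M) := hasPD hF0
  -- Kummer representation of `x₀` at level `N = p^(n+k)`
  obtain ⟨k, f₁, hf₁⟩ := exists_kumRep_of_isPTors₀ hx₀
  set N : ℕ := p ^ (n + k) with hN
  have hf : KumRep (N : ℤ) x₀ (f₁ ^ (p ^ n)) := by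
    have := hf₁.level (p ^ n)
    have e : ((p : ℤ) ^ k) * ((p ^ n : ℕ) : ℤ) = (N : ℤ) := by
      rw [hN]; push_cast; rw [pow_add, mul_comm]
    rwa [e] at this
  set f : ↥(modularFunctionFieldBar M) := f₁ ^ (p ^ n) with hfdef
  have hup : KumRep (N : ℤ) (piUp M c H x₀) (inclBar M c H f) :=
    hf.picMap (isCorr_pullD hF0 hFF (inclBar M c H))
  obtain ⟨k', D', h, hh0, hxD', hD', hred⟩ := hK
  set N' : ℕ := p ^ k' with hN'
  have hup' : KumRep (N' : ℤ) (piUp M c H x₀) h := by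
    refine ⟨hh0, D', hxD', fun v => ?_⟩
    rw [← hD' v, hN']
    push_cast
    rfl
  obtain ⟨w, c₀, hw, hc₀, hE⟩ := KumRep.compare hFF hup hup'
  set m : ℕ := N * N' with hm
  have hm0 : m ≠ 0 :=
    Nat.mul_ne_zero (pow_ne_zero _ hp.ne_zero) (pow_ne_zero _ hp.ne_zero)
  have hrm : ¬ r ∣ m := by
    intro hdvd
    have h1 : r ∣ p := by
      rcases (Nat.Prime.dvd_mul hr).1 hdvd with h2 | h2
      · exact hr.dvd_of_dvd_pow h2
      · exact hr.dvd_of_dvd_pow h2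
    exact hrp ((Nat.prime_dvd_prime_iff_eq hr hp).1 h1)
  have hexpm : ∀ d : (ZMod c)ˣ, d ^ m ∈ H ∨ -(d ^ m) ∈ H := by
    have e : m = p ^ n * (p ^ k * N') := by rw [hm, hN, pow_add, mul_assoc]
    rw [e]
    exact exp_mul hexp _
  -- the series identity
  have E : ((f : LaurentSeries Kbar)) ^ N'
      = HahnSeries.C c₀ * (h : LaurentSeries Kbar) ^ N * (w : LaurentSeries Kbar) ^ m := by
    have h1 := congrArg (fun z : ↥(FHbar M c H) => (z : LaurentSeries Kbar)) hE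
    simp only [IntermediateField.coe_mul, IntermediateField.coe_pow, coe_inclBar,
      coe_algebraMap_F] at h1
    exact h1
  have hwc : (w : LaurentSeries Kbar) ≠ 0 := fun h0 => hw (Subtype.ext h0)
  have hredFg : Fermat.Agent.NEB.H70.IsRedOneC P
      (((f ^ N' : ↥(modularFunctionFieldBar M)) : LaurentSeries Kbar)
        * ((w⁻¹ : ↥(FHbar M c H)) : LaurentSeries Kbar) ^ m) := by
    have e : ((f ^ N' : ↥(modularFunctionFieldBar M)) : LaurentSeries Kbar)
        * ((w⁻¹ : ↥(FHbar M c H)) : LaurentSeries Kbar) ^ m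
        = HahnSeries.C c₀ * (h : LaurentSeries Kbar) ^ N := by
      rw [IntermediateField.coe_pow, IntermediateField.coe_inv, E, inv_pow]
      have : (w : LaurentSeries Kbar) ^ m ≠ 0 := pow_ne_zero _ hwc
      field_simp
    rw [e]
    exact (hred.pow N).C_mul hc₀
  obtain ⟨y', u, g0, hy', hg0, hyu, hredu⟩ :=
    Fermat.Agent.NEB.H84.stmt_RES M c H hc2 hc hM P r hr hP m hm0 hrm hexpm (f ^ N') w⁻¹
      (inv_ne_zero hw) hredFg
  have hu0 : u ≠ 0 := by
    rintro rfl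
    rw [map_zero] at hyu
    exact pow_ne_zero m hy' hyu
  -- `m ∣ div u` on `F₀`
  have hdivH : ∀ w' : Place Kbar ↥(FHbar M c H), (m : ℤ) ∣ w'.ord (inclBar M c H u) := by
    intro w'
    rw [← hyu, ← zpow_natCast, w'.ord_zpow]
    exact dvd_mul_right _ _
  have hdiv : ∀ v : Place Kbar ↥(modularFunctionFieldBar M), (m : ℤ) ∣ v.ord u :=
    Fermat.Agent.NEB.H29.dvd_ord_of_uniformiser hF0 hFF (inclBar M c H) hunr m u hdivH
  obtain ⟨z, hz⟩ := exists_kumRep_of_dvd hm0 hu0 hdiv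
  -- `π^* z = 0`
  have hzup : piUp M c H z = 0 := by
    have h1 : KumRep (m : ℤ) (piUp M c H z) (inclBar M c H u) :=
      hz.picMap (isCorr_pullD hF0 hFF (inclBar M c H))
    rw [← hyu] at h1
    exact h1.eq_zero_of_pow hm0
  -- `y = x₀ - z`
  have hxm : KumRep (m : ℤ) x₀ (f ^ N') := by
    have := hf.level N'
    have e : (N : ℤ) * (N' : ℤ) = (m : ℤ) := by rw [hm]; push_cast; rfl
    rwa [e] at this
  have hy := ((hxm.sub hz).change_mul hg0)
  obtain ⟨hne, D, hxD, hD⟩ := hy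
  have ecoe : ((f ^ N' * u⁻¹ * g0 ^ m : ↥(modularFunctionFieldBar M)) : LaurentSeries Kbar)
      = ((f ^ N' : ↥(modularFunctionFieldBar M)) : LaurentSeries Kbar)
        * ((u : LaurentSeries Kbar))⁻¹ * (g0 : LaurentSeries Kbar) ^ m := by
    simp only [IntermediateField.coe_mul, IntermediateField.coe_pow, IntermediateField.coe_inv]
  refine ⟨x₀ - z, z, by abel, ⟨n + k + k', D, _, hne, hxD, fun v => ?_, ?_⟩, hzup⟩
  · rw [← hD v, hm, hN, hN']
    push_cast
    rw [pow_add (p : ℤ) (n + k) k']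
  · rw [ecoe]
    exact hredu

end Res

end Fermat.Agent.NEB.Geom.H70

end
end
-- ==== END Fermat.Agent.NEB.Geom.H70_ClRes

-- ==== BEGIN Fermat.Agent.NEB.H14_JHRelRules
section

/-!
# NEB, package JH-REL (helper14): the relative cover `X_H → X_{H'}` (`H ≤ H'`), rules on `Pic⁰`

`piUpRel M hH : J_{H'}(M) → J_H(M)` (`π^*`), `piDownRel M hH : J_H(M) → J_{H'}(M)` (`π_*`).

* transitivity: `piUpRel_piUp`, `piDown_piDownRel`, `piUpRel_trans`, `piDownRel_trans`;
* `piDownRel_piUpRel` : `π_* π^* = [F_H : F_{H'}]`, `finrank_inclRel` : `= |ρ_H(H')|`;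
* `piUpRel_piDownRel` : `π^* π_* = ∑_{g ∈ ρ_H(H')} g`;
* diamonds: `diamond_piUpRel`, `piDownRel_diamond` (equivariance), `diamond_piUpRel_of_mem`,
  `piDownRel_diamond_of_mem` (`d ∈ H'`);
* Hecke: `piUpRel_TH`, `piDownRel_TH`, `piUpRel_UH`, `piDownRel_UH`;
* Galois: `piUpRel_galois`, `piDownRel_galois`;
* Kummer forms: `piUpRel_kummer`, `piDownRel_kummer`.
-/

set_option autoImplicit false
set_option linter.unusedSectionVars false
set_option linter.style.haveILetI false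
set_option linter.dupNamespace false

noncomputable section

namespace Fermat.Agent.NEB.JH

open AlgebraicCurve AlgebraicCurve.SemilinearAut ModularCurve IntermediateField HahnSeries
open Fermat.Agent.NEB Fermat.Agent.NEB.H14 Fermat.Agent.RED

/-- `π^* : J_{H'}(M) → J_H(M)` for `H ≤ H'`. -/
def piUpRel (M : ℕ) {c : ℕ} [NeZero c] {H H' : Subgroup (ZMod c)ˣ} (hH : H ≤ H') :
    JH M c H' →+ JH M c H := pullP (inclRel M hH)

/-- `π_* : J_H(M) → J_{H'}(M)` for `H ≤ H'`. -/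
def piDownRel (M : ℕ) {c : ℕ} [NeZero c] {H H' : Subgroup (ZMod c)ˣ} (hH : H ≤ H') :
    JH M c H →+ JH M c H' := pushP (inclRel M hH)

section Pi

variable {M c : ℕ} [NeZero M] [NeZero c] {H H' : Subgroup (ZMod c)ˣ}

/-- `π_{H/H'}^* ∘ π_{H'}^* = π_H^*`. -/
theorem piUpRel_piUp (hH : H ≤ H') (hFF : IsFF Kbar ↥(FHbar M c H))
    (hFF' : IsFF Kbar ↥(FHbar M c H')) (x : JZero M) :
    piUpRel M hH (piUp M c H' x) = piUp M c H x := by
  have h := DFunLike.congr_fun (pullP_comp (isFF0 M) hFF' hFF (inclBar M c H') (inclRel M hH)) x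
  rw [inclRel_comp_inclBar hH] at h
  exact h.symm

/-- `π_{H',*} ∘ π_{H/H',*} = π_{H,*}`. -/
theorem piDown_piDownRel (hH : H ≤ H') (hFF : IsFF Kbar ↥(FHbar M c H))
    (hFF' : IsFF Kbar ↥(FHbar M c H')) (y : JH M c H) :
    piDown M c H' (piDownRel M hH y) = piDown M c H y := by
  have h := DFunLike.congr_fun (pushP_comp (isFF0 M) hFF' hFF (inclBar M c H') (inclRel M hH)) y
  rw [inclRel_comp_inclBar hH] at h
  exact h.symm

theorem piUpRel_trans {H'' : Subgroup (ZMod c)ˣ} (hH : H ≤ H') (hH' : H' ≤ H'')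
    (hFF : IsFF Kbar ↥(FHbar M c H)) (hFF' : IsFF Kbar ↥(FHbar M c H'))
    (hFF'' : IsFF Kbar ↥(FHbar M c H'')) (x : JH M c H'') :
    piUpRel M hH (piUpRel M hH' x) = piUpRel M (hH.trans hH') x := by
  have h := DFunLike.congr_fun (pullP_comp hFF'' hFF' hFF (inclRel M hH') (inclRel M hH)) x
  rw [inclRel_trans hH hH'] at h
  exact h.symm

theorem piDownRel_trans {H'' : Subgroup (ZMod c)ˣ} (hH : H ≤ H') (hH' : H' ≤ H'')
    (hFF : IsFF Kbar ↥(FHbar M c H)) (hFF' : IsFF Kbar ↥(FHbar M c H'))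
    (hFF'' : IsFF Kbar ↥(FHbar M c H'')) (y : JH M c H) :
    piDownRel M hH' (piDownRel M hH y) = piDownRel M (hH.trans hH') y := by
  have h := DFunLike.congr_fun (pushP_comp hFF'' hFF' hFF (inclRel M hH') (inclRel M hH)) y
  rw [inclRel_trans hH hH'] at h
  exact h.symm

/-- `π_* π^* = [F_H : F_{H'}]`. -/
theorem piDownRel_piUpRel (hH : H ≤ H') (hFF : IsFF Kbar ↥(FHbar M c H))
    (hFF' : IsFF Kbar ↥(FHbar M c H')) (x : JH M c H') :
    piDownRel M hH (piUpRel M hH x) = finrankAlong Kbar (inclRel M hH) • x :=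
  pushP_pullP hFF' hFF _ x

/-- `[F_H : F_{H'}] = |ρ_H(H')|`. -/
theorem finrank_inclRel (hH : H ≤ H') (dd : DiamondData M c H) (dd' : DiamondData M c H')
    (G : Subgroup (↥(FHbar M c H) ≃ₐ[Kbar] ↥(FHbar M c H))) [Fintype G]
    (hG : G = relGal dd H') : finrankAlong Kbar (inclRel M hH) = Fintype.card G :=
  (galNorm_inclRel hH dd dd' G hG).2.1

/-- `π^* π_* = ∑_{g ∈ ρ_H(H')} g`. -/
theorem piUpRel_piDownRel (hH : H ≤ H') (hFF : IsFF Kbar ↥(FHbar M c H))
    (hFF' : IsFF Kbar ↥(FHbar M c H'))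
    (dd : DiamondData M c H) (dd' : DiamondData M c H')
    (G : Subgroup (↥(FHbar M c H) ≃ₐ[Kbar] ↥(FHbar M c H))) [Fintype G]
    (hG : G = relGal dd H') (y : JH M c H) :
    piUpRel M hH (piDownRel M hH y)
      = ∑ g : G, (g : ↥(FHbar M c H) ≃ₐ[Kbar] ↥(FHbar M c H)) • y := by
  have hn := (galNorm_inclRel hH dd dd' G hG).2.2
  have h := pullP_pushP_of_norm hFF' hFF (inclRel M hH)
    (fun g : G => (g : ↥(FHbar M c H) ≃ₐ[Kbar] ↥(FHbar M c H))) (fun x _ => hn x) y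
  rw [piUpRel, piDownRel]
  exact h

/-- `π^*` is equivariant for the diamond operators. -/
theorem diamond_piUpRel (hH : H ≤ H') (hFF : IsFF Kbar ↥(FHbar M c H))
    (hFF' : IsFF Kbar ↥(FHbar M c H'))
    (dd : DiamondData M c H) (dd' : DiamondData M c H')
    (d : (ZMod c)ˣ) (x : JH M c H') :
    piUpRel M hH (dd'.ρ d • x) = dd.ρ d • piUpRel M hH x :=
  pullP_algEquiv hFF' hFF (inclRel M hH) (dd'.ρ d) (dd.ρ d)
    (fun x => (rho_inclRel hH dd dd' d x).symm) x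

/-- `π_*` is equivariant for the diamond operators. -/
theorem piDownRel_diamond (hH : H ≤ H') (hFF : IsFF Kbar ↥(FHbar M c H))
    (hFF' : IsFF Kbar ↥(FHbar M c H'))
    (dd : DiamondData M c H) (dd' : DiamondData M c H')
    (d : (ZMod c)ˣ) (y : JH M c H) :
    piDownRel M hH (dd.ρ d • y) = dd'.ρ d • piDownRel M hH y :=
  pushP_algEquiv hFF' hFF (inclRel M hH) (dd'.ρ d) (dd.ρ d)
    (fun x => (rho_inclRel hH dd dd' d x).symm) y

/-- Classes coming from `J_{H'}` are fixed by `⟨d⟩`, `d ∈ H'`. -/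
theorem diamond_piUpRel_of_mem (hH : H ≤ H') (hFF : IsFF Kbar ↥(FHbar M c H))
    (hFF' : IsFF Kbar ↥(FHbar M c H'))
    (dd : DiamondData M c H) (dd' : DiamondData M c H')
    {d : (ZMod c)ˣ} (hd : d ∈ H') (x : JH M c H') :
    dd.ρ d • piUpRel M hH x = piUpRel M hH x := by
  rw [← diamond_piUpRel hH hFF hFF' dd dd', (dd'.ker d).mpr (Or.inl hd), one_smul]

/-- `π_*` kills `⟨d⟩`, `d ∈ H'`. -/
theorem piDownRel_diamond_of_mem (hH : H ≤ H') (hFF : IsFF Kbar ↥(FHbar M c H))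
    (hFF' : IsFF Kbar ↥(FHbar M c H'))
    (dd : DiamondData M c H) (dd' : DiamondData M c H')
    {d : (ZMod c)ˣ} (hd : d ∈ H') (y : JH M c H) :
    piDownRel M hH (dd.ρ d • y) = piDownRel M hH y := by
  rw [piDownRel_diamond hH hFF hFF' dd dd', (dd'.ker d).mpr (Or.inl hd), one_smul]

end Pi

section Hecke

variable {M c ℓ : ℕ} [NeZero M] [NeZero c] [NeZero ℓ] {H H' : Subgroup (ZMod c)ˣ}

/-- The Galois square of a degeneracy map `a ∈ {α, β}` for the relative cover. -/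
theorem galSquare_rel (hH : H ≤ H') (hd : HeckeData M c ℓ H) (hd' : HeckeData M c ℓ H')
    (a : ↥(FHbar M c H) →ₐ[Kbar] ↥(FHbar (M * ℓ) c H))
    (a₀ : ↥(FHbar M c H') →ₐ[Kbar] ↥(FHbar (M * ℓ) c H'))
    (hsq : (inclRel (M * ℓ) hH).comp a₀ = a.comp (inclRel M hH))
    (haGal : ∀ d x, hd.dd'.ρ d (a x) = a (hd.dd.ρ d x)) :
    (∀ x : ↥(FHbar (M * ℓ) c H'),
      inclRel M hH (normFn a₀ x) = normFn a (inclRel (M * ℓ) hH x)) ∧
    (∀ y : ↥(FHbar M c H),
      a₀ (normFn (inclRel M hH) y) = normFn (inclRel (M * ℓ) hH) (a y)) := by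
  haveI := finite_relGal hd.dd' H'
  haveI : Fintype (relGal hd.dd' H') := Fintype.ofFinite _
  have h := Fermat.Agent.NEB.H2.stmt_GalSquare Kbar _ _ _ _ a₀ (inclRel M hH) a
    (inclRel (M * ℓ) hH) hsq.symm
    (finiteAlong_hom hd'.isFF hd'.isFF' _) (relGal hd.dd' H') ?_ ?_ ?_ ?_ ?_
  · exact ⟨h.2.2.1, h.2.2.2⟩
  · intro x hx
    obtain ⟨x₀, hx₀⟩ := relFixed hH hd.dd' hd'.dd' x (fun d hd => hx _ ⟨d, hd, rfl⟩)
    exact ⟨x₀, hx₀⟩
  · rintro g y ⟨d, hdH, rfl⟩
    exact rho_inclRel_of_mem hH hd.dd' hd'.dd' hdH y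
  · rintro g y ⟨d, -, rfl⟩
    exact ⟨hd.dd.ρ d y, (haGal d y).symm⟩
  · rintro g ⟨d, -, rfl⟩ hg
    have h1 : hd.dd.ρ d = 1 := by
      refine AlgEquiv.ext fun y => ?_
      have h2 := hg y
      rw [haGal d y] at h2
      exact a.toRingHom.injective h2
    exact (hd.dd'.ker d).mpr ((hd.dd.ker d).mp h1)
  · intro y hy
    obtain ⟨x₀, hx₀⟩ := relFixed hH hd.dd hd'.dd y (fun d hdH => by
      have h2 := hy _ ⟨d, hdH, rfl⟩
      rw [haGal d y] at h2
      exact a.toRingHom.injective h2)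
    exact ⟨x₀, hx₀⟩

theorem galSquare_rel_alpha (hH : H ≤ H') (hd : HeckeData M c ℓ H)
    (hd' : HeckeData M c ℓ H') :
    (∀ x : ↥(FHbar (M * ℓ) c H'),
      inclRel M hH (normFn (alphaH M c ℓ H') x)
        = normFn (alphaH M c ℓ H) (inclRel (M * ℓ) hH x)) ∧
    (∀ y : ↥(FHbar M c H),
      alphaH M c ℓ H' (normFn (inclRel M hH) y)
        = normFn (inclRel (M * ℓ) hH) (alphaH M c ℓ H y)) :=
  galSquare_rel hH hd hd' _ _ (inclRel_comp_alphaH hH) hd.alphaGal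

theorem galSquare_rel_beta (hH : H ≤ H') (hd : HeckeData M c ℓ H)
    (hd' : HeckeData M c ℓ H') :
    (∀ x : ↥(FHbar (M * ℓ) c H'),
      inclRel M hH (normFn (betaBar hd'.hβ) x)
        = normFn (betaBar hd.hβ) (inclRel (M * ℓ) hH x)) ∧
    (∀ y : ↥(FHbar M c H),
      betaBar hd'.hβ (normFn (inclRel M hH) y)
        = normFn (inclRel (M * ℓ) hH) (betaBar hd.hβ y)) :=
  galSquare_rel hH hd hd' _ _ (inclRel_comp_betaBar hH hd.hβ hd'.hβ) hd.betaGal

/-- `π^* T^{H'} = T^H π^*`. -/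
theorem piUpRel_TH (hH : H ≤ H') (hd : HeckeData M c ℓ H) (hd' : HeckeData M c ℓ H')
    (x : JH M c H') :
    piUpRel M hH (TH hd'.hβ x) = TH hd.hβ (piUpRel M hH x) := by
  have hsq := square_of_norm_pic hd'.isFF hd.isFF hd'.isFF' hd.isFF' (alphaH M c ℓ H')
    (inclRel M hH) (alphaH M c ℓ H) (inclRel (M * ℓ) hH)
    (fun x _ => (galSquare_rel_alpha hH hd hd').1 x)
  have h1 := DFunLike.congr_fun hsq (pullP (betaBar hd'.hβ) x)
  simp only [AddMonoidHom.comp_apply] at h1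
  have h2 := DFunLike.congr_fun (pullP_comp hd'.isFF hd'.isFF' hd.isFF' (betaBar hd'.hβ)
    (inclRel (M * ℓ) hH)) x
  have h3 := DFunLike.congr_fun (pullP_comp hd'.isFF hd.isFF hd.isFF' (inclRel M hH)
    (betaBar hd.hβ)) x
  rw [inclRel_comp_betaBar hH hd.hβ hd'.hβ] at h2
  simp only [AddMonoidHom.comp_apply] at h2 h3
  rw [piUpRel, TH, TH, AddMonoidHom.comp_apply, AddMonoidHom.comp_apply, h1, ← h2, h3]

/-- `π_* T^H = T^{H'} π_*`. -/
theorem piDownRel_TH (hH : H ≤ H') (hd : HeckeData M c ℓ H) (hd' : HeckeData M c ℓ H')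
    (y : JH M c H) :
    piDownRel M hH (TH hd.hβ y) = TH hd'.hβ (piDownRel M hH y) := by
  have hsq := square_of_norm_pic hd'.isFF hd'.isFF' hd.isFF hd.isFF' (inclRel M hH)
    (betaBar hd'.hβ) (inclRel (M * ℓ) hH) (betaBar hd.hβ)
    (fun y _ => (galSquare_rel_beta hH hd hd').2 y)
  have h1 := DFunLike.congr_fun hsq y
  simp only [AddMonoidHom.comp_apply] at h1
  have h2 := DFunLike.congr_fun (pushP_comp hd'.isFF hd'.isFF' hd.isFF' (alphaH M c ℓ H')
    (inclRel (M * ℓ) hH)) (pullP (betaBar hd.hβ) y)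
  have h3 := DFunLike.congr_fun (pushP_comp hd'.isFF hd.isFF hd.isFF' (inclRel M hH)
    (alphaH M c ℓ H)) (pullP (betaBar hd.hβ) y)
  rw [inclRel_comp_alphaH hH] at h2
  simp only [AddMonoidHom.comp_apply] at h2 h3
  rw [piDownRel, TH, TH, AddMonoidHom.comp_apply, AddMonoidHom.comp_apply, h1, ← h2, h3]

/-- `π^* U^{H'} = U^H π^*`. -/
theorem piUpRel_UH (hH : H ≤ H') (hd : HeckeData M c ℓ H) (hd' : HeckeData M c ℓ H')
    (x : JH M c H') :
    piUpRel M hH (UH hd'.hβ x) = UH hd.hβ (piUpRel M hH x) := by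
  have hsq := square_of_norm_pic hd'.isFF hd.isFF hd'.isFF' hd.isFF' (betaBar hd'.hβ)
    (inclRel M hH) (betaBar hd.hβ) (inclRel (M * ℓ) hH)
    (fun x _ => (galSquare_rel_beta hH hd hd').1 x)
  have h1 := DFunLike.congr_fun hsq (pullP (alphaH M c ℓ H') x)
  simp only [AddMonoidHom.comp_apply] at h1
  have h2 := DFunLike.congr_fun (pullP_comp hd'.isFF hd'.isFF' hd.isFF' (alphaH M c ℓ H')
    (inclRel (M * ℓ) hH)) x
  have h3 := DFunLike.congr_fun (pullP_comp hd'.isFF hd.isFF hd.isFF' (inclRel M hH)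
    (alphaH M c ℓ H)) x
  rw [inclRel_comp_alphaH hH] at h2
  simp only [AddMonoidHom.comp_apply] at h2 h3
  rw [piUpRel, UH, UH, AddMonoidHom.comp_apply, AddMonoidHom.comp_apply, h1, ← h2, h3]

/-- `π_* U^H = U^{H'} π_*`. -/
theorem piDownRel_UH (hH : H ≤ H') (hd : HeckeData M c ℓ H) (hd' : HeckeData M c ℓ H')
    (y : JH M c H) :
    piDownRel M hH (UH hd.hβ y) = UH hd'.hβ (piDownRel M hH y) := by
  have hsq := square_of_norm_pic hd'.isFF hd'.isFF' hd.isFF hd.isFF' (inclRel M hH)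
    (alphaH M c ℓ H') (inclRel (M * ℓ) hH) (alphaH M c ℓ H)
    (fun y _ => (galSquare_rel_alpha hH hd hd').2 y)
  have h1 := DFunLike.congr_fun hsq y
  simp only [AddMonoidHom.comp_apply] at h1
  have h2 := DFunLike.congr_fun (pushP_comp hd'.isFF hd'.isFF' hd.isFF' (betaBar hd'.hβ)
    (inclRel (M * ℓ) hH)) (pullP (alphaH M c ℓ H) y)
  have h3 := DFunLike.congr_fun (pushP_comp hd'.isFF hd.isFF hd.isFF' (inclRel M hH)
    (betaBar hd.hβ)) (pullP (alphaH M c ℓ H) y)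
  rw [inclRel_comp_betaBar hH hd.hβ hd'.hβ] at h2
  simp only [AddMonoidHom.comp_apply] at h2 h3
  rw [piDownRel, UH, UH, AddMonoidHom.comp_apply, AddMonoidHom.comp_apply, h1, ← h2, h3]

end Hecke

section Galois

variable {M c : ℕ} [NeZero M] [NeZero c] {H H' : Subgroup (ZMod c)ˣ}

theorem intertwines_inclRel (hH : H ≤ H') (σ : Kbar ≃ₐ[ℚ] Kbar) :
    IntertwinesAlong ((inclRel M hH : _ →ₐ[Kbar] _) : _ →+* _)
      (arithmeticGalois (FHQ M c H') σ) (arithmeticGalois (FHQ M c H) σ) := by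
  intro x
  apply Subtype.ext
  rw [coe_arithmeticGalois_smul]
  show coeffMap (σ : Kbar →+* Kbar) ((inclRel M hH x : _) : LaurentSeries Kbar) =
    ((inclRel M hH (arithmeticGalois (FHQ M c H') σ • x) : _) : LaurentSeries Kbar)
  rw [coe_inclRel, coe_inclRel, coe_arithmeticGalois_smul]

/-- `π^*` commutes with the Galois action. -/
theorem piUpRel_galois (hH : H ≤ H') (hFF : IsFF Kbar ↥(FHbar M c H))
    (hFF' : IsFF Kbar ↥(FHbar M c H')) (σ : Kbar ≃ₐ[ℚ] Kbar) (x : JH M c H') :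
    piUpRel M hH (σ • x) = σ • piUpRel M hH x := by
  rw [galois_smul_pic0_def, galois_smul_pic0_def]
  exact pullP_semilinear hFF' hFF _ _ _ (intertwines_inclRel hH σ) x

/-- `π_*` commutes with the Galois action. -/
theorem piDownRel_galois (hH : H ≤ H') (hFF : IsFF Kbar ↥(FHbar M c H))
    (hFF' : IsFF Kbar ↥(FHbar M c H')) (σ : Kbar ≃ₐ[ℚ] Kbar) (y : JH M c H) :
    piDownRel M hH (σ • y) = σ • piDownRel M hH y := by
  rw [galois_smul_pic0_def, galois_smul_pic0_def]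
  exact pushP_semilinear hFF' hFF _ _ _ (intertwines_inclRel hH σ) y

end Galois

section Kummer

variable {M c : ℕ} [NeZero M] [NeZero c] {H H' : Subgroup (ZMod c)ˣ}

/-- **Kummer form of `π^*`** (relative). -/
theorem piUpRel_kummer (hH : H ≤ H') (hFF : IsFF Kbar ↥(FHbar M c H))
    (hFF' : IsFF Kbar ↥(FHbar M c H')) (n : ℤ)
    (D : Divisor.degZero (K := Kbar) (F := ↥(FHbar M c H')))
    {f : ↥(FHbar M c H')} (hf : f ≠ 0)
    (hD : ∀ v, n * (D : Divisor Kbar ↥(FHbar M c H')) v = v.ord f) :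
    ∃ E : Divisor.degZero (K := Kbar) (F := ↥(FHbar M c H)),
      piUpRel M hH (Pic0.mk D) = Pic0.mk E ∧ inclRel M hH f ≠ 0 ∧
      ∀ w, n * (E : Divisor Kbar ↥(FHbar M c H)) w = w.ord (inclRel M hH f) := by
  have hc := isCorr_pullD hFF' hFF (inclRel M hH)
  refine ⟨degZeroMap _ hc.isGood D, ?_, (hc.hasFn f hf).1, fun v => ?_⟩
  · rw [piUpRel, pullP, picMap_mk hc.isGood]
  · exact hc.hasFn.kummer n _ hf hD v

/-- **Kummer form of `π_*`** (relative). -/
theorem piDownRel_kummer (hH : H ≤ H') (hFF : IsFF Kbar ↥(FHbar M c H))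
    (hFF' : IsFF Kbar ↥(FHbar M c H')) (n : ℤ)
    (D : Divisor.degZero (K := Kbar) (F := ↥(FHbar M c H)))
    {f : ↥(FHbar M c H)} (hf : f ≠ 0)
    (hD : ∀ w, n * (D : Divisor Kbar ↥(FHbar M c H)) w = w.ord f) :
    ∃ E : Divisor.degZero (K := Kbar) (F := ↥(FHbar M c H')),
      piDownRel M hH (Pic0.mk D) = Pic0.mk E ∧ normFn (inclRel M hH) f ≠ 0 ∧
      ∀ v, n * (E : Divisor Kbar ↥(FHbar M c H')) v
        = v.ord (normFn (inclRel M hH) f) := by
  have hc := isCorr_pushD hFF' hFF (inclRel M hH)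
  refine ⟨degZeroMap _ hc.isGood D, ?_, (hc.hasFn f hf).1, fun v => ?_⟩
  · rw [piDownRel, pushP, picMap_mk hc.isGood]
  · exact hc.hasFn.kummer n _ hf hD v

end Kummer

end Fermat.Agent.NEB.JH

end
end
-- ==== END Fermat.Agent.NEB.H14_JHRelRules

-- ==== BEGIN Fermat.Agent.S33.New.H86_Frob2Desc3
section
attribute [local instance 10000] SubalgebraClass.toAlgebra
attribute [local instance 10000] HahnSeries.powerSeriesAlgebra

/-!
# S33 / S59, package STRICT, leaf FROB2-DESC3 (helper86)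

`stmt_Frob2Desc3 : H36.Stmt_Frob2Desc3` : the Kummer form of (FROB2) descends from level
`2 M · 3` to level `M · 3`.

The hypotheses lift as in `H51.stmt_Desc3` (base change of the norm).  The conclusion descends by
separability on the residue side (`sep_pow`), through the generic descent `descent_generic`:
if `c (g f / f) t' ^ n ≡ 1` at level `6 M`, then the reduction `ψ` of a scaling of `g f / f` at
level `3 M` is `y ^ n` with `y ∈ k((t))` (the inverse of the reduction of a scaling of `t'`, times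
a constant), hence `y` is in the residue field of level `3 M`; lift it.
-/

set_option autoImplicit false
set_option linter.style.haveILetI false
set_option linter.unusedSectionVars false
set_option synthInstance.maxHeartbeats 400000
set_option maxHeartbeats 1000000

noncomputable section

open HahnSeries IntermediateField AlgebraicCurve ModularCurve
open Fermat.Agent.S28.H73 Fermat.Agent.RED.H73 Fermat.Agent.RED Fermat.Agent.S24
open Fermat.Agent.BAD.H88

namespace Fermat.Agent.S33.New.H86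

open Fermat.Agent.BAD Fermat.Agent.S36.H44 Fermat.Agent.BAD.H91

local notation "Kb" => AlgebraicClosure ℚ

/-- Replacing the middle factor by an equal one. -/
theorem transport_gaussRes (A : ValuationSubring Kb) (N : ℕ) (x y : ↥(FNbar N))
    (hxy : x = y) (c : Kb) (t : ↥(FNbar N)) (n : ℕ)
    (hu : algebraMap Kb ↥(FNbar N) c * x * t ^ n ∈ gaussV A N)
    (hr : gaussRes A N ⟨_, hu⟩ = 1) :
    ∃ hu' : algebraMap Kb ↥(FNbar N) c * y * t ^ n ∈ gaussV A N,
      gaussResF A (hasScale_laurentBaseChange A N) ⟨_, hu'⟩ = 1 := by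
  subst hxy
  exact ⟨hu, congrArg Subtype.val hr⟩

/-- The hypotheses of (FROB2) lift from level `M · 3` to level `2 M · 3`. -/
theorem frob2_lift_hyps (M : ℕ) [NeZero M] [NeZero (2 * M)] (h2M : ¬ 2 ∣ M) (h3M : ¬ 3 ∣ M)
    (hle : modularFunctionFieldBar (M * 3) ≤ modularFunctionFieldBar (2 * M * 3))
    (k : ℕ) (f : ↥(FNbar (M * 3)))
    (hdiv : ∀ P : Place Kb ↥(FNbar (M * 3)), ((3 ^ k : ℕ) : ℤ) ∣ P.ord f)
    (hNα : IsNormPow (heckeAlphaBar Kb M 3) (3 ^ k) f)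
    (hNβ : IsNormPow (heckeBetaBar Kb M 3) (3 ^ k) f) :
    (∀ P' : Place Kb ↥(FNbar (2 * M * 3)),
      ((3 ^ k : ℕ) : ℤ) ∣ P'.ord (IntermediateField.inclusion hle f)) ∧
    IsNormPow (heckeAlphaBar Kb (2 * M) 3) (3 ^ k) (IntermediateField.inclusion hle f) ∧
    IsNormPow (heckeBetaBar Kb (2 * M) 3) (3 ^ k) (IntermediateField.inclusion hle f) := by
  have h3M2 : ¬ 3 ∣ 2 * M := by
    intro h
    rcases (Nat.Prime.dvd_mul Nat.prime_three).1 h with h' | h'
    · omega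
    · exact h3M h'
  have hle0 : modularFunctionFieldBar M ≤ modularFunctionFieldBar (2 * M) :=
    S18.modularFunctionFieldBar_mono (Dvd.intro_left 2 rfl)
  have hint : (IntermediateField.inclusion hle).toRingHom.IsIntegral :=
    (H51.stmt_FFB_finite _ _ _ (H95.stmt_HKA_isFF (M * 3)) (H95.stmt_HKA_isFF (2 * M * 3)) _).1
  set φ : ↥(FNbar (M * 3)) →ₐ[AlgebraicClosure ℚ] ↥(FNbar (2 * M * 3)) :=
    IntermediateField.inclusion hle with hφdef
  set ι : ↥(FNbar M) →ₐ[AlgebraicClosure ℚ] ↥(FNbar (2 * M)) :=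
    IntermediateField.inclusion hle0 with hιdef
  refine ⟨?_, ?_, ?_⟩
  · intro P'
    letI := algebraAlong φ
    haveI := isScalarTower_along φ
    haveI := isIntegral_along φ hint
    have h1 := P'.ord_restrict (F := ↥(FNbar (M * 3))) f
    have h2 : φ f = algebraMap ↥(FNbar (M * 3)) ↥(FNbar (2 * M * 3)) f := rfl
    rw [h2, h1]
    exact Dvd.dvd.mul_left (hdiv _) _
  · refine Fermat.Agent.S33.New.H51.isNormPow_bc (heckeAlphaBar Kb M 3)
      (heckeAlphaBar Kb (2 * M) 3) ι φ ?_ 4 3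
      (by norm_num) (by norm_num) (by norm_num) ?_ ?_ ?_ (3 ^ k) _ hNα
    · exact Fermat.Agent.S33.New.H51.incl_comm_alpha M hle hle0
    · exact Fermat.Agent.RED.H95.finrankAlong_alpha Nat.prime_three h3M
    · exact Fermat.Agent.S33.New.H51.finrankAlong_incl_two M h2M hle0
    · exact Fermat.Agent.RED.H95.finrankAlong_alpha Nat.prime_three h3M2
  · refine Fermat.Agent.S33.New.H51.isNormPow_bc (heckeBetaBar Kb M 3)
      (heckeBetaBar Kb (2 * M) 3) ι φ ?_ 4 3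
      (by norm_num) (by norm_num) (by norm_num) ?_ ?_ ?_ (3 ^ k) _ hNβ
    · exact Fermat.Agent.S33.New.H51.incl_comm_beta M hle hle0
    · exact Fermat.Agent.RED.H95.finrankAlong_beta Nat.prime_three h3M
    · exact Fermat.Agent.S33.New.H51.finrankAlong_incl_two M h2M hle0
    · exact Fermat.Agent.RED.H95.finrankAlong_beta Nat.prime_three h3M2

/-- The Galois quotient `g f / f` commutes with the inclusion of levels. -/
theorem galF_quot_inclusion (M : ℕ)
    (hle : modularFunctionFieldBar (M * 3) ≤ modularFunctionFieldBar (2 * M * 3))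
    (g : GalQ) (f : ↥(FNbar (M * 3))) :
    (galF (2 * M * 3) g • IntermediateField.inclusion hle f) / IntermediateField.inclusion hle f
      = IntermediateField.inclusion hle ((galF (M * 3) g • f) / f) := by
  have hcoe : ∀ x : ↥(FNbar (M * 3)),
      ((IntermediateField.inclusion hle x : ↥(FNbar (2 * M * 3))) :
        LaurentSeries (AlgebraicClosure ℚ)) = (x : LaurentSeries (AlgebraicClosure ℚ)) :=
    fun x => IntermediateField.coe_inclusion hle x
  have e1 : galF (2 * M * 3) g • IntermediateField.inclusion hle f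
      = IntermediateField.inclusion hle (galF (M * 3) g • f) := by
    apply Subtype.ext
    rw [coe_arithmeticGalois_smul, hcoe, hcoe, coe_arithmeticGalois_smul]
  rw [e1, map_div₀]

/-- **FROB2-DESC3.** -/
theorem stmt_Frob2Desc3 : Fermat.Agent.S33.New.H36.Stmt_Frob2Desc3 := by
  intro M _ _ h2M h3M A hA g hbig k f hf0 hdiv hNα hNβ
  haveI : IsAlgClosed (kV A) := isAlgClosed_kV A
  have hn0 : 0 < 3 ^ k := pow_pos (by norm_num) k
  have hle : modularFunctionFieldBar (M * 3) ≤ modularFunctionFieldBar (2 * M * 3) :=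
    S18.modularFunctionFieldBar_mono ⟨2, by ring⟩
  obtain ⟨hdiv', hNα', hNβ'⟩ := frob2_lift_hyps M h2M h3M hle k f hdiv hNα hNβ
  have hf'0 : IntermediateField.inclusion hle f ≠ 0 :=
    (map_ne_zero_iff _ (IntermediateField.inclusion hle).toRingHom.injective).2 hf0
  obtain ⟨c, t', hc, ht', hu', hru'⟩ :=
    hbig k (IntermediateField.inclusion hle f) hf'0 hdiv' hNα' hNβ'
  obtain ⟨hu'', hru''⟩ := transport_gaussRes A (2 * M * 3) _ _
    (galF_quot_inclusion M hle g f) c t' (3 ^ k) hu' hru'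
  -- the function `G = g f / f` of level `3 M`
  have hσf0 : galF (M * 3) g • f ≠ 0 := by
    intro h0
    apply hf0
    have h1 := congrArg (fun z => (galF (M * 3) g)⁻¹ • z) h0
    simp only [inv_smul_smul, smul_zero] at h1
    exact h1
  have hG0 : (galF (M * 3) g • f) / f ≠ 0 := div_ne_zero hσf0 hf0
  -- SEP
  obtain ⟨a₀, b₀, hab⟩ : ∃ a b : ℤ, a * (3 : ℕ) + b * M = 1 := by
    have hcop : Nat.Coprime 3 M := (Nat.Prime.coprime_iff_not_dvd Nat.prime_three).2 h3M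
    obtain ⟨a, b, h⟩ := Nat.isCoprime_iff_coprime.2 hcop
    exact ⟨a, b, h⟩
  obtain ⟨c₁, w, hc₁, hw0, hm, hr⟩ := descent_generic A hle
    (hasScale_laurentBaseChange A (M * 3)) (hasScale_laurentBaseChange A (2 * M * 3))
    (3 ^ k) hn0 (fun x => IsAlgClosed.exists_pow_nat_eq x hn0)
    (fun y hy => sep_pow A 3 M a₀ b₀ hab Nat.prime_three hA h3M k y hy)
    ((galF (M * 3) g • f) / f) hG0 c t' ht' hu'' hru''
  exact ⟨c₁, w, hc₁, hw0, hm, Subtype.ext hr⟩

end Fermat.Agent.S33.New.H86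

end
end
-- ==== END Fermat.Agent.S33.New.H86_Frob2Desc3
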