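-- GENERATED (merged mirror, NOTES/tools/trim/merge3_helper67.py): 12 modules of the originals, bodies verbatim.
import Mathlib
import Fermat.Agent.Zm.S43_L01_002
import Fermat.Agent.Zm.S35_L10_005
import Fermat.Agent.NEB.H61_Dim
import Fermat.Agent.Zm.S48_L04_000
import Fermat.Agent.Zm.S44_L08_000
import Fermat.Agent.Zm.S43_L01_003
import Fermat.Agent.Zm.S35_L24_000
import Fermat.Agent.Zm.S33_L01_001
import Fermat.Agent.Zm.S35_L09_003
import Fermat.Agent.Zm.S35_L15_001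
import Fermat.Agent.Zm.S36_L01_004

-- ==== BEGIN Fermat.Agent.NEB.H29_Tsen
section

/-!
# LG-NEB, package PI-ONTO: Tsen's theorem for norms (helper29)

`K` algebraically closed, `E` a function field of one variable over `K`, `F / E` finite.
Then the norm `F → E` is surjective (`E` is a `C₁`-field).

Proof: `Norm(∑ xᵢ ωᵢ) = a yⁿ` with unknowns `xᵢ, y ∈ L(s P)` is a system of at most
`n s + C` polynomial equations over `K` in `(n + 1) l(s P) ≥ (n + 1)(s + 1 - g)` unknowns;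
by `Stmt_DIM` it has a non-trivial solution for `s ≫ 0`, and `y ≠ 0`.
-/

set_option autoImplicit false
set_option linter.style.haveILetI false
set_option linter.unusedSectionVars false

noncomputable section

namespace Fermat.Agent.NEB.H29

open AlgebraicCurve MvPolynomial Fermat.Agent.RED Fermat.Agent.NEB.H14 Fermat.Agent.RED.H42

local notation "L" => riemannRochSpace

section Norm

variable {K E : Type} [Field K] [IsAlgClosed K] [Field E] [Algebra K E]
  {F : Type} [Field F] [Algebra E F] [Module.Finite E F]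

/-- The matrix of multiplication by `∑ xᵢ bᵢ`. -/
theorem leftMulMatrix_sum_smul {n : ℕ} (b : Module.Basis (Fin n) E F) (x : Fin n → E)
    (k l : Fin n) :
    Algebra.leftMulMatrix b (∑ i, x i • b i) k l
      = ∑ i, x i * Algebra.leftMulMatrix b (b i) k l := by
  rw [map_sum, Matrix.sum_apply]
  refine Finset.sum_congr rfl fun i _ => ?_
  rw [map_smul, Matrix.smul_apply, smul_eq_mul]

theorem exists_norm_eq (hDIM : Stmt_DIM) (hE : IsFF K E) (a : E) :
    ∃ x : F, Algebra.norm E x = a := by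
  classical
  by_cases ha : a = 0
  · exact ⟨0, by rw [ha]; exact Algebra.norm_zero⟩
  have H := H17.ffHyp_of_isFF K E hE
  haveI := H.principal
  obtain ⟨g, c, hg⟩ := H17.exists_isGenus K E hE
  haveI : Infinite K := IsAlgClosed.instInfinite
  haveI := H.infinite_place
  obtain ⟨P₀⟩ : Nonempty (Place K E) := inferInstance
  set n := Module.finrank E F with hn
  have hn0 : 0 < n := Module.finrank_pos
  let b : Module.Basis (Fin n) E F := Module.finBasis E F
  let M : Fin n → Matrix (Fin n) (Fin n) E := fun i => Algebra.leftMulMatrix b (b i)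
  -- an effective divisor bounding the structure constants and `a`
  obtain ⟨A, hA, hAmem⟩ := exists_effective_forall_mem_L (K := K)
    (Finset.univ : Finset (Option (Fin n × Fin n × Fin n)))
    (fun o => match o with
      | none => a
      | some (i, k, l) => M i k l)
  have hAa : a ∈ L A := hAmem none (Finset.mem_univ _)
  have hAM : ∀ i k l, M i k l ∈ L A := fun i k l => hAmem (some (i, k, l)) (Finset.mem_univ _)
  set α : ℕ := (Divisor.degree A).toNat with hαdef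
  have hα : Divisor.degree A = α := (Int.toNat_of_nonneg (degree_nonneg hA)).symm
  set s : ℕ := (n + 1) * (α + g) + 2 with hs
  set Ds : Divisor K E := s • Finsupp.single P₀ 1 with hDs
  have hP₀ : (0 : Divisor K E) ≤ Finsupp.single P₀ 1 := by
    rw [Finsupp.le_def]
    intro v
    by_cases hv : v = P₀
    · subst hv; simp
    · rw [Finsupp.single_apply, if_neg (Ne.symm hv)]; simp
  have hDs0 : (0 : Divisor K E) ≤ Ds := nsmul_nonneg hP₀ s
  have hdegP : Divisor.degree (Finsupp.single P₀ (1 : ℤ)) = 1 := by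
    rw [Divisor.degree_single, H.deg_one]; simp
  have hdegDs : Divisor.degree Ds = s := by
    rw [hDs, map_nsmul, hdegP]; simp
  haveI : Module.Finite K (L Ds) := H.finite Ds
  set r := Module.finrank K (L Ds) with hr
  have hrge : (s : ℤ) + 1 - g ≤ r := by
    have := (hg Ds).1
    rw [hdegDs] at this
    exact this
  let eR : Module.Basis (Fin r) K (L Ds) := Module.finBasis K (L Ds)
  set DW : Divisor K E := (n + 1) • A + (n * s) • Finsupp.single P₀ 1 with hDW
  have hdegDW : Divisor.degree DW = (n + 1) * α + n * s := by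
    rw [hDW, map_add, map_nsmul, map_nsmul, hdegP, hα]
    simp
  haveI : Module.Finite K (L DW) := H.finite DW
  have hWle : (Module.finrank K (L DW) : ℤ) ≤ (n + 1) * α + n * s + 1 := by
    have := H.le DW (by rw [hdegDW]; positivity)
    rw [hdegDW] at this
    exact this
  have hcard : Fintype.card ((Fin n × Fin r) ⊕ Fin r) = (n + 1) * r := by
    rw [Fintype.card_sum, Fintype.card_prod, Fintype.card_fin, Fintype.card_fin]
    ring
  have hW : Module.finrank K (L DW) < Fintype.card ((Fin n × Fin r) ⊕ Fin r) := by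
    rw [hcard]
    have h1 : ((n + 1 : ℕ) : ℤ) * ((s : ℤ) + 1 - g) ≤ ((n + 1 : ℕ) : ℤ) * r :=
      mul_le_mul_of_nonneg_left hrge (by positivity)
    have h2 : (s : ℤ) = (n + 1) * (α + g) + 2 := by rw [hs]; push_cast; ring
    have h3 : ((Module.finrank K (L DW) : ℕ) : ℤ) < (((n + 1) * r : ℕ) : ℤ) := by
      push_cast
      push_cast at h1
      nlinarith
    exact_mod_cast h3
  -- the polynomial
  let Xm : Matrix (Fin n) (Fin n) (MvPolynomial ((Fin n × Fin r) ⊕ Fin r) E) := fun k l =>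
    ∑ i, ∑ j, X (Sum.inl (i, j)) * C (((eR j : L Ds) : E) * M i k l)
  let Y : MvPolynomial ((Fin n × Fin r) ⊕ Fin r) E := ∑ j, X (Sum.inr j) * C ((eR j : L Ds) : E)
  let P : MvPolynomial ((Fin n × Fin r) ⊕ Fin r) E := Xm.det - C a * Y ^ n
  -- the unknowns as elements of `L(s P₀)`
  let xx : ((Fin n × Fin r) ⊕ Fin r → K) → Fin n → L Ds := fun t i =>
    ∑ j, t (Sum.inl (i, j)) • eR j
  let yy : ((Fin n × Fin r) ⊕ Fin r → K) → L Ds := fun t => ∑ j, t (Sum.inr j) • eR j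
  have hevX : ∀ (t : (Fin n × Fin r) ⊕ Fin r → K) (k l : Fin n),
      eval (fun i => algebraMap K E (t i)) (Xm k l)
        = ∑ i, ((xx t i : L Ds) : E) * M i k l := by
    intro t k l
    simp only [Xm, xx, map_sum, map_mul, eval_X, eval_C, Submodule.coe_sum, Submodule.coe_smul,
      Finset.sum_mul]
    refine Finset.sum_congr rfl fun i _ => Finset.sum_congr rfl fun j _ => ?_
    rw [Algebra.smul_def, mul_assoc]
  have hevY : ∀ t : (Fin n × Fin r) ⊕ Fin r → K,
      eval (fun i => algebraMap K E (t i)) Y = ((yy t : L Ds) : E) := by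
    intro t
    simp only [Y, yy, map_sum, map_mul, eval_X, eval_C, Submodule.coe_sum, Submodule.coe_smul]
    refine Finset.sum_congr rfl fun j _ => ?_
    rw [Algebra.smul_def]
  have hev : ∀ t : (Fin n × Fin r) ⊕ Fin r → K,
      eval (fun i => algebraMap K E (t i)) P
        = Algebra.norm E (∑ i, ((xx t i : L Ds) : E) • b i) - a * ((yy t : L Ds) : E) ^ n := by
    intro t
    simp only [P, map_sub, map_mul, map_pow, eval_C, hevY]
    congr 1
    rw [RingHom.map_det, Algebra.norm_eq_matrix_det b]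
    congr 1
    ext k l
    rw [RingHom.mapMatrix_apply, Matrix.map_apply, hevX, leftMulMatrix_sum_smul]
  -- the values lie in `L(DW)`
  have hnDs : n • Ds = (n * s) • Finsupp.single P₀ (1 : ℤ) := by
    rw [hDs, mul_smul]
  have hval : ∀ t : (Fin n × Fin r) ⊕ Fin r → K,
      eval (fun i => algebraMap K E (t i)) P ∈ L DW := by
    intro t
    rw [hev]
    refine sub_mem ?_ ?_
    · rw [Algebra.norm_eq_matrix_det b]
      have hent : ∀ k l,
          Algebra.leftMulMatrix b (∑ i, ((xx t i : L Ds) : E) • b i) k l ∈ L (Ds + A) := by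
        intro k l
        rw [leftMulMatrix_sum_smul]
        exact Submodule.sum_mem _ fun i _ => mul_mem_L_add (xx t i).2 (hAM i k l)
      refine L_mono ?_ (det_mem_L _ (Ds + A) hent)
      rw [smul_add, hnDs, hDW, add_comm]
      exact add_le_add (nsmul_le_nsmul_of_nonneg hA (Nat.le_succ n)) le_rfl
    · refine L_mono ?_ (mul_mem_L_add hAa (pow_mem_L (yy t).2 n))
      rw [hnDs, hDW]
      have h1 : (1 : ℕ) • A ≤ (n + 1) • A :=
        nsmul_le_nsmul_of_nonneg hA (Nat.succ_le_succ (Nat.zero_le n))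
      rw [one_smul] at h1
      exact add_le_add h1 le_rfl
  have hzero : (fun i => algebraMap K E ((0 : (Fin n × Fin r) ⊕ Fin r → K) i))
      = (0 : (Fin n × Fin r) ⊕ Fin r → E) := by
    funext i
    simp
  have h0 : eval (0 : (Fin n × Fin r) ⊕ Fin r → E) P = 0 := by
    have h1 := hev 0
    rw [hzero] at h1
    rw [h1]
    have hx0 : ∀ i, xx 0 i = 0 := by
      intro i
      simp [xx]
    have hy0 : yy 0 = 0 := by
      simp [yy]
    simp only [hx0, hy0, Submodule.coe_zero, zero_smul, Finset.sum_const_zero]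
    rw [Algebra.norm_zero, zero_pow hn0.ne', mul_zero, sub_zero]
  obtain ⟨t, ht0, ht⟩ := exists_zero_of_values hDIM P (L DW) hW hval h0
  rw [hev, sub_eq_zero] at ht
  -- `y ≠ 0`
  have hy : ((yy t : L Ds) : E) ≠ 0 := by
    intro hy
    apply ht0
    rw [hy, zero_pow hn0.ne', mul_zero, Algebra.norm_eq_zero_iff] at ht
    have hx : ∀ i, xx t i = 0 := by
      intro i
      have := Fintype.linearIndependent_iff.mp b.linearIndependent
        (fun i => ((xx t i : L Ds) : E)) ht i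
      exact Subtype.ext this
    have hyy : yy t = 0 := Subtype.ext hy
    funext u
    rcases u with ⟨i, j⟩ | j
    · exact Fintype.linearIndependent_iff.mp eR.linearIndependent
        (fun j => t (Sum.inl (i, j))) (hx i) j
    · exact Fintype.linearIndependent_iff.mp eR.linearIndependent
        (fun j => t (Sum.inr j)) hyy j
  refine ⟨algebraMap E F (((yy t : L Ds) : E)⁻¹) * ∑ i, ((xx t i : L Ds) : E) • b i, ?_⟩
  rw [map_mul, Algebra.norm_algebraMap, ht, ← hn, inv_pow]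
  field_simp

end Norm

/-- **DIM** (helper61). -/
theorem stmt_DIM : Stmt_DIM := by
  intro K _ _ N m g hmN h0
  exact Fermat.Agent.NEB.H61.exists_ne_zero_common_zero g h0
    (by rw [Fintype.card_fin, Fintype.card_fin]; exact hmN)

/-- **TSEN**: the norm along a homomorphism of function fields over an algebraically closed
field is onto. -/
theorem stmt_TSEN : Stmt_TSEN := by
  intro K E F _ _ _ _ _ _ hE hF φ a
  letI := algebraAlong φ
  haveI : Module.Finite E F := finiteAlong_hom hE hF φ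
  exact exists_norm_eq stmt_DIM hE a

end Fermat.Agent.NEB.H29

end
end
-- ==== END Fermat.Agent.NEB.H29_Tsen

-- ==== BEGIN Fermat.Agent.NEB.H4_F1
section

set_option autoImplicit false

noncomputable section

namespace Fermat.Agent.NEB.H4

open AlgebraicCurve

variable {K F : Type} [Field K] [Field F] [Algebra K F]

/-- `B ↦ σ • B - B`. -/
def sigSub (σ : F ≃ₐ[K] F) : Divisor K F →+ Divisor K F :=
  DistribSMul.toAddMonoidHom (Divisor K F) σ - AddMonoidHom.id _

lemma sigSub_apply (σ : F ≃ₐ[K] F) (B : Divisor K F) : sigSub σ B = σ • B - B := rfl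

/-- The orbit relation of `⟨σ⟩` on the places. -/
def orbSetoid (σ : F ≃ₐ[K] F) : Setoid (Place K F) :=
  MulAction.orbitRel (Subgroup.zpowers σ) (Place K F)

/-- The orbit space. -/
abbrev Orb (σ : F ≃ₐ[K] F) : Type := Quotient (orbSetoid σ)

/-- The orbit map. -/
def orbMk (σ : F ≃ₐ[K] F) (v : Place K F) : Orb σ := Quotient.mk (orbSetoid σ) v

lemma orbMk_smul (σ : F ≃ₐ[K] F) (g : F ≃ₐ[K] F) (hg : g ∈ Subgroup.zpowers σ) (v : Place K F) :
    orbMk σ (g • v) = orbMk σ v := by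
  apply Quotient.sound
  show g • v ∈ MulAction.orbit (Subgroup.zpowers σ) v
  exact ⟨⟨g, hg⟩, rfl⟩

lemma exists_smul_of_orbMk_eq (σ : F ≃ₐ[K] F) {v w : Place K F} (h : orbMk σ v = orbMk σ w) :
    ∃ g ∈ Subgroup.zpowers σ, g • w = v := by
  have h1 : v ∈ MulAction.orbit (Subgroup.zpowers σ) w := Quotient.exact h
  obtain ⟨⟨g, hg⟩, hgv⟩ := h1
  exact ⟨g, hg, hgv⟩

/-- Push-forward of divisors to the orbit space. -/
def qMap (σ : F ≃ₐ[K] F) : Divisor K F →+ (Orb σ →₀ ℤ) :=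
  Finsupp.mapDomain.addMonoidHom (orbMk σ)

/-- Push-forward along a section of the orbit map. -/
def sMap (σ : F ≃ₐ[K] F) : (Orb σ →₀ ℤ) →+ Divisor K F :=
  Finsupp.mapDomain.addMonoidHom (fun c : Orb σ => Quotient.out c)

lemma qMap_single (σ : F ≃ₐ[K] F) (v : Place K F) (c : ℤ) :
    qMap σ (Finsupp.single v c) = Finsupp.single (orbMk σ v) c :=
  Finsupp.mapDomain_single

lemma sMap_single (σ : F ≃ₐ[K] F) (o : Orb σ) (c : ℤ) :
    sMap σ (Finsupp.single o c) = Finsupp.single (Quotient.out o) c :=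
  Finsupp.mapDomain_single

lemma qMap_smul (σ : F ≃ₐ[K] F) (g : F ≃ₐ[K] F) (hg : g ∈ Subgroup.zpowers σ)
    (D : Divisor K F) : qMap σ (g • D) = qMap σ D := by
  induction D using Finsupp.induction_linear with
  | zero => simp
  | add D₁ D₂ h₁ h₂ => rw [smul_add, map_add, map_add, h₁, h₂]
  | single v c => rw [Divisor.smul_single, qMap_single, qMap_single, orbMk_smul σ g hg]

/-- The elements `g` with `[g • v] - [v] ∈ (σ - 1) Div` for all `v`. -/
def goodSub (σ : F ≃ₐ[K] F) : Subgroup (F ≃ₐ[K] F) where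
  carrier := {g | ∀ v : Place K F,
    (Finsupp.single (g • v) (1 : ℤ) - Finsupp.single v 1 : Divisor K F) ∈ (sigSub σ).range}
  one_mem' := by
    intro v
    rw [one_smul, sub_self]
    exact zero_mem _
  mul_mem' := by
    intro g h ihg ihh v
    have h1 := ihg (h • v)
    have h2 := ihh v
    have h3 := add_mem h1 h2
    rw [mul_smul]
    convert h3 using 1
    abel
  inv_mem' := by
    intro g ih v
    have h1 := neg_mem (ih (g⁻¹ • v))
    rw [smul_inv_smul] at h1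
    convert h1 using 1
    abel

lemma self_mem_goodSub (σ : F ≃ₐ[K] F) : σ ∈ goodSub σ := by
  intro v
  exact ⟨Finsupp.single v 1, by rw [sigSub_apply, Divisor.smul_single]⟩

/-- `[g • v] - [v] ∈ (σ - 1) Div` for `g ∈ ⟨σ⟩`. -/
lemma single_smul_sub_mem (σ : F ≃ₐ[K] F) (g : F ≃ₐ[K] F) (hg : g ∈ Subgroup.zpowers σ)
    (v : Place K F) : (Finsupp.single (g • v) (1 : ℤ) - Finsupp.single v 1 : Divisor K F)
      ∈ (sigSub σ).range :=
  (Subgroup.zpowers_le.2 (self_mem_goodSub σ)) hg v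

/-- `D - s (q D) ∈ (σ - 1) Div`. -/
lemma sub_sMap_qMap_mem (σ : F ≃ₐ[K] F) (D : Divisor K F) :
    D - sMap σ (qMap σ D) ∈ (sigSub σ).range := by
  induction D using Finsupp.induction_linear with
  | zero => simp
  | add D₁ D₂ h₁ h₂ =>
    have h3 := add_mem h₁ h₂
    rw [map_add, map_add]
    convert h3 using 1
    abel
  | single v c =>
    rw [qMap_single, sMap_single]
    obtain ⟨g, hg, hgv⟩ := exists_smul_of_orbMk_eq σ
      (v := v) (w := Quotient.out (orbMk σ v)) (Quotient.out_eq _).symm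
    have h1 := single_smul_sub_mem σ g hg (Quotient.out (orbMk σ v))
    rw [hgv] at h1
    have h2 := zsmul_mem h1 c
    convert h2 using 1
    rw [smul_sub, Finsupp.smul_single, Finsupp.smul_single, smul_eq_mul, mul_one]

/-- **F1**. -/
theorem stmt_F1 : H29.Stmt_F1 := by
  intro K F _ _ _ σ n hn _ D hD
  have h1 : qMap σ (∑ i ∈ Finset.range n, (σ ^ i) • D) = n • qMap σ D := by
    rw [map_sum, Finset.sum_congr rfl (fun i _ => qMap_smul σ (σ ^ i)
      (Subgroup.pow_mem _ (Subgroup.mem_zpowers σ) i) D), Finset.sum_const, Finset.card_range]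
  rw [hD, map_zero] at h1
  have h2 : qMap σ D = 0 := by
    rcases (smul_eq_zero (r := n) (m := qMap σ D)).1 h1.symm with h | h
    · exact absurd h hn.ne'
    · exact h
  have h3 := sub_sMap_qMap_mem σ D
  rw [h2, map_zero, sub_zero] at h3
  obtain ⟨B, hB⟩ := h3
  exact ⟨B, hB.symm⟩

end Fermat.Agent.NEB.H4

end
end
-- ==== END Fermat.Agent.NEB.H4_F1

-- ==== BEGIN Fermat.Agent.NEB.H58_E3
section

/-!
# LG-NEB, package PI-ONTO, leaf E3 (helper58)

`π_* : Pic⁰(F) → Pic⁰(E)` is onto for every homomorphism `φ : E →ₐ[K] F` of function fields over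
an algebraically closed field: every place of `E` lies under a place of `F`
(`H29.exists_place_above`), of residue degree one, so already `π_*` is onto on divisors, and it
preserves the degree.
-/

set_option autoImplicit false
set_option linter.unusedSectionVars false

noncomputable section

namespace Fermat.Agent.NEB.H58

open AlgebraicCurve Fermat.Agent.RED Fermat.Agent.NEB.H14 Fermat.Agent.NEB.H29

section E3

variable {K E F : Type} [Field K] [Field E] [Field F] [Algebra K E] [Algebra K F] [IsAlgClosed K]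

/-- Over an algebraically closed field all residue degrees are one. -/
theorem e3_inertiaDegAlong_eq_one (hF : IsFF K F) (φ : E →ₐ[K] F)
    (hφ : φ.toRingHom.IsIntegral) (w : Place K F) : w.inertiaDegAlong φ hφ = 1 := by
  have h1 : w.deg = 1 := Fermat.Agent.RED.H51.stmt_FFB_deg K F hF w
  let _ := algebraAlong φ
  have _i1 := isScalarTower_along φ
  have _i2 := isIntegral_along φ hφ
  have h := w.deg_restrict_mul_inertiaDeg (F := E)
  rw [h1] at h
  exact Nat.eq_one_of_mul_eq_one_left h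

/-- The push-forward of the divisor of a place is the divisor of the place below. -/
theorem e3_pushD_single (hE : IsFF K E) (hF : IsFF K F) (φ : E →ₐ[K] F) (w : Place K F) (n : ℤ) :
    pushD φ (Finsupp.single w n) =
      Finsupp.single (w.restrictAlong φ (isIntegral_hom hE hF φ)) n := by
  rw [pushD_eq hE hF, Divisor.pushforwardAlong_single,
    e3_inertiaDegAlong_eq_one hF φ (isIntegral_hom hE hF φ) w, Nat.cast_one, mul_one]

/-- The push-forward is onto on divisors. -/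
theorem e3_pushD_surjective (hE : IsFF K E) (hF : IsFF K F) (φ : E →ₐ[K] F) :
    Function.Surjective (pushD φ) := by
  classical
  intro D
  induction D using Finsupp.induction with
  | zero => exact ⟨0, map_zero _⟩
  | single_add v n D _ _ ih =>
    obtain ⟨D', hD'⟩ := ih
    obtain ⟨w, hw⟩ := exists_place_above hE hF φ v
    refine ⟨Finsupp.single w n + D', ?_⟩
    rw [map_add, e3_pushD_single hE hF, hw, hD']

/-- **E3**: the push-forward `Pic⁰(F) → Pic⁰(E)` is onto. -/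
theorem stmt_E3 : Stmt_E3 := by
  intro K E F _ _ _ _ _ _ hE hF φ y
  obtain ⟨D, rfl⟩ := Pic0.mk_surjective y
  obtain ⟨D', hD'⟩ := e3_pushD_surjective hE hF φ (D : Divisor K E)
  have hcorr := isCorr_pushD hE hF φ
  have hdeg : D' ∈ Divisor.degZero (K := K) (F := F) := by
    rw [Divisor.mem_degZero]
    have h1 := hcorr.degMul D'
    rw [one_mul, hD'] at h1
    rw [← h1]
    exact Divisor.mem_degZero.mp D.2
  refine ⟨Pic0.mk ⟨D', hdeg⟩, ?_⟩
  exact picMap_mk_eq hcorr.isGood ⟨D', hdeg⟩ D hD'.symm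

end E3

end Fermat.Agent.NEB.H58

end
end
-- ==== END Fermat.Agent.NEB.H58_E3

-- ==== BEGIN Fermat.Agent.NEB.OLD.H14_WComm
section

/-!
# NEB, package OLDNEW (helper14): `w_q` commutes with the operators at the other primes

* `W_U0` : `W U_{q'} = U_{q'} W` on `J₀(Mq)` for `q' ≠ q` (helper88's lift `wUp` of `w_q` to the
  level `M q q'`, compatible with both degeneracy maps);
* `compatBs_of_compatAs : Stmt_CompatAs → Stmt_CompatBs`  (`b^* = W a^*`);
* `compatAd_of_compatBd : Stmt_CompatBd → Stmt_CompatAd`  (`a_* = b_* W`).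
-/

set_option autoImplicit false
set_option linter.unusedSectionVars false
set_option linter.style.haveILetI false

noncomputable section

namespace Fermat.Agent.NEB.OLD

open AlgebraicCurve ModularCurve Fermat.Agent.S24
open Fermat.Agent.NEB.H14 Fermat.Agent.NEB.JH Fermat.Agent.RED

local notation "Kb" => AlgebraicClosure ℚ

section WComm

variable (M q q' : ℕ) [NeZero M] [NeZero q] [NeZero q'] (a b : ℤ) (hab : a * q + b * M = 1)
  (hq : q.Prime)

/-- **`W U_{q'} = U_{q'} W`** on `J₀(Mq)`. -/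
theorem W_U0 (a' b' : ℤ) (hab' : a' * q + b' * ((M * q' : ℕ) : ℤ) = 1) (y : JZero (M * q)) :
    Fermat.Agent.BAD.H88.wq q M a b hab hq • U0 (M * q) q' y
      = U0 (M * q) q' (Fermat.Agent.BAD.H88.wq q M a b hab hq • y) := by
  have hF' := isFF0 (M * q)
  have hF'' := isFF0 (M * q * q')
  have hα : ∀ x, heckeAlphaBar Kb (M * q) q' (Fermat.Agent.BAD.H88.wq q M a b hab hq x)
      = Fermat.Agent.S43.H88.wUp q M q' a' b' hab' (heckeAlphaBar Kb (M * q) q' x) := fun x =>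
    (DFunLike.congr_fun (Fermat.Agent.S43.H88.wUp_comp_alpha q M a b hab hq q' a' b' hab') x).symm
  have hβ : ∀ x, heckeBetaBar Kb (M * q) q' (Fermat.Agent.BAD.H88.wq q M a b hab hq x)
      = Fermat.Agent.S43.H88.wUp q M q' a' b' hab' (heckeBetaBar Kb (M * q) q' x) := fun x =>
    (DFunLike.congr_fun (Fermat.Agent.S43.H88.wUp_comp_beta q M a b hab hq q' a' b' hab') x).symm
  show Fermat.Agent.BAD.H88.wq q M a b hab hq •
      pushP (heckeBetaBar Kb (M * q) q') (pullP (heckeAlphaBar Kb (M * q) q') y)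
    = pushP (heckeBetaBar Kb (M * q) q') (pullP (heckeAlphaBar Kb (M * q) q')
        (Fermat.Agent.BAD.H88.wq q M a b hab hq • y))
  rw [pullP_algEquiv hF' hF'' (heckeAlphaBar Kb (M * q) q') _ _ hα y,
    pushP_algEquiv hF' hF'' (heckeBetaBar Kb (M * q) q') _ _ hβ]

end WComm

section Derive

theorem exists_bezout_of_not_dvd {q M : ℕ} (hq : q.Prime) (hqM : ¬ q ∣ M) :
    ∃ a b : ℤ, a * q + b * M = 1 := by
  have hcop : Nat.Coprime q M := (Nat.Prime.coprime_iff_not_dvd hq).mpr hqM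
  obtain ⟨u, v, huv⟩ := Nat.isCoprime_iff_coprime.mpr hcop
  exact ⟨u, v, huv⟩

theorem exists_bezout_mul {q q' M : ℕ} (hq : q.Prime) (hq' : q'.Prime) (hne : q ≠ q')
    (hqM : ¬ q ∣ M) : ∃ a b : ℤ, a * q + b * ((M * q' : ℕ) : ℤ) = 1 := by
  have hcop : Nat.Coprime q (M * q') := by
    apply Nat.Coprime.mul_right
    · exact (Nat.Prime.coprime_iff_not_dvd hq).mpr hqM
    · exact (Nat.coprime_primes hq hq').mpr hne
  obtain ⟨u, v, huv⟩ := Nat.isCoprime_iff_coprime.mpr hcop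
  exact ⟨u, v, huv⟩

/-- `β^* U = U β^*` from `α^* U = U α^*` and `W`. -/
theorem compatBs_of_compatAs (h : Stmt_CompatAs) : Stmt_CompatBs := by
  intro M q q' _ _ _ hq hq' hne hqM hq'M x
  obtain ⟨a, b, hab⟩ := exists_bezout_of_not_dvd hq hqM
  obtain ⟨a', b', hab'⟩ := exists_bezout_mul hq hq' hne hqM
  rw [← W_as M q a b hab hq, ← W_as M q a b hab hq, h M q q' hq hq' hne hqM hq'M x,
    W_U0 M q q' a b hab hq a' b' hab']

/-- `α_* U = U α_*` from `β_* U = U β_*` and `W`. -/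
theorem compatAd_of_compatBd (h : Stmt_CompatBd) : Stmt_CompatAd := by
  intro M q q' _ _ _ hq hq' hne hqM hq'M y
  obtain ⟨a, b, hab⟩ := exists_bezout_of_not_dvd hq hqM
  obtain ⟨a', b', hab'⟩ := exists_bezout_mul hq hq' hne hqM
  rw [← bd_W M q a b hab hq, ← bd_W M q a b hab hq, W_U0 M q q' a b hab hq a' b' hab',
    h M q q' hq hq' hne hqM hq'M]

end Derive

end Fermat.Agent.NEB.OLD

end
end
-- ==== END Fermat.Agent.NEB.OLD.H14_WComm

-- ==== BEGIN Fermat.Agent.NEB.OLD.H38_OldStepCore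
section

set_option autoImplicit false

namespace Fermat.Agent.NEB.OLD.H38

/-! ### Intertwining and powers -/

section StepAux

variable {𝒪 : Type*} [CommRing 𝒪] {A B : Type*} [AddCommGroup A] [Module 𝒪 A]
  [AddCommGroup B] [Module 𝒪 B]

/-- Intertwining passes to powers. -/
lemma intertwine_pow (Ψ : B →ₗ[𝒪] A) (f : Module.End 𝒪 B) (g : Module.End 𝒪 A)
    (h : ∀ v, Ψ (f v) = g (Ψ v)) (n : ℕ) (v : B) : Ψ ((f ^ n) v) = (g ^ n) (Ψ v) := by
  induction n generalizing v with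
  | zero => simp
  | succ n ih => rw [pow_succ, Module.End.mul_apply, ih, h, pow_succ, Module.End.mul_apply]

/-- Intertwining passes to powers of `f - μ`. -/
lemma intertwine_sub_smul_pow (Ψ : B →ₗ[𝒪] A) (f : Module.End 𝒪 B) (g : Module.End 𝒪 A)
    (h : ∀ v, Ψ (f v) = g (Ψ v)) (μ : 𝒪) (n : ℕ) (v : B) :
    Ψ (((f - μ • (1 : Module.End 𝒪 B)) ^ n) v) = ((g - μ • (1 : Module.End 𝒪 A)) ^ n) (Ψ v) := by
  refine intertwine_pow Ψ _ _ (fun w => ?_) n v
  rw [LinearMap.sub_apply, LinearMap.smul_apply, Module.End.one_apply, map_sub, map_smul, h,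
    LinearMap.sub_apply, LinearMap.smul_apply, Module.End.one_apply]

/-- Powers of a scalar operator. -/
lemma smul_one_pow_apply (μ : 𝒪) (n : ℕ) (x : A) :
    (((μ • (1 : Module.End 𝒪 A)) ^ n) x) = μ ^ n • x := by
  rw [_root_.smul_pow, one_pow, LinearMap.smul_apply, Module.End.one_apply]

/-- A scalar operator commutes with everything. -/
lemma commute_smul_one (f : Module.End 𝒪 A) (μ : 𝒪) :
    Commute f (μ • (1 : Module.End 𝒪 A)) := by
  show f * (μ • (1 : Module.End 𝒪 A)) = (μ • (1 : Module.End 𝒪 A)) * f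
  rw [mul_smul_comm, smul_mul_assoc, mul_one, one_mul]

/-- Local nilpotency is monotone in the exponent. -/
lemma pow_apply_eq_zero_of_le (f : Module.End 𝒪 A) {x : A} {n m : ℕ} (hnm : n ≤ m)
    (h : (f ^ n) x = 0) : (f ^ m) x = 0 := by
  obtain ⟨k, rfl⟩ := Nat.exists_eq_add_of_le hnm
  rw [add_comm, pow_add, Module.End.mul_apply, h, map_zero]

end StepAux

/-! ### The operator `𝕄` on `A × A` -/

section BigM

variable {𝒪 : Type*} [CommRing 𝒪] {A B : Type*} [AddCommGroup A] [Module 𝒪 A]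
  [AddCommGroup B] [Module 𝒪 B]

/-- The operator `𝕄 (x, y) = (q y, T y - x)` on `A × A`. -/
noncomputable def bigM (T : Module.End 𝒪 A) (qq : 𝒪) : Module.End 𝒪 (A × A) :=
  LinearMap.prod (qq • LinearMap.snd 𝒪 A A) (T ∘ₗ LinearMap.snd 𝒪 A A - LinearMap.fst 𝒪 A A)

lemma bigM_apply (T : Module.End 𝒪 A) (qq : 𝒪) (x : A × A) :
    bigM T qq x = (qq • x.2, T x.2 - x.1) := rfl

/-- The diagonal operator `(x, y) ↦ (f x, f y)`. -/
noncomputable def diagEnd (f : Module.End 𝒪 A) : Module.End 𝒪 (A × A) := LinearMap.prodMap f f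

lemma diagEnd_apply (f : Module.End 𝒪 A) (x : A × A) : diagEnd f x = (f x.1, f x.2) := rfl

lemma diagEnd_pow_apply (f : Module.End 𝒪 A) (n : ℕ) (x : A × A) :
    ((diagEnd f) ^ n) x = ((f ^ n) x.1, (f ^ n) x.2) := by
  refine Prod.ext ?_ ?_
  · exact intertwine_pow (LinearMap.fst 𝒪 A A) (diagEnd f) f (fun _ => rfl) n x
  · exact intertwine_pow (LinearMap.snd 𝒪 A A) (diagEnd f) f (fun _ => rfl) n x

lemma bigM_injective (T : Module.End 𝒪 A) {qq : 𝒪} (uq : IsUnit qq) :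
    Function.Injective (bigM T qq) := by
  rw [injective_iff_map_eq_zero]
  intro x hx
  rw [bigM_apply, Prod.mk_eq_zero] at hx
  obtain ⟨h1, h2⟩ := hx
  have hx2 : x.2 = 0 := by
    obtain ⟨u, rfl⟩ := uq
    have := congrArg (fun t => (↑u⁻¹ : 𝒪) • t) h1
    simpa [smul_smul] using this
  have hx1 : x.1 = 0 := by
    rw [hx2, map_zero, zero_sub, neg_eq_zero] at h2
    exact h2
  exact Prod.ext hx1 hx2

lemma bigM_pow_injective (T : Module.End 𝒪 A) {qq : 𝒪} (uq : IsUnit qq) (n : ℕ) :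
    Function.Injective ((bigM T qq) ^ n) := by
  rw [Module.End.coe_pow]
  exact (bigM_injective T uq).iterate n

/-- `𝕄 ∘ (a T - (a² + q)) = (a 𝕄 - q) ∘ (𝕄 - a)`. -/
lemma bigM_mul_diag (T : Module.End 𝒪 A) (qq a : 𝒪) :
    bigM T qq * diagEnd (a • T - (a * a + qq) • (1 : Module.End 𝒪 A)) =
      (a • bigM T qq - qq • (1 : Module.End 𝒪 (A × A))) *
        (bigM T qq - a • (1 : Module.End 𝒪 (A × A))) := by
  refine LinearMap.ext fun x => ?_
  obtain ⟨x₁, x₂⟩ := x
  simp only [Module.End.mul_apply, LinearMap.sub_apply, LinearMap.smul_apply,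
    Module.End.one_apply, bigM_apply, diagEnd_apply, map_sub, map_smul, Prod.smul_mk,
    Prod.mk_sub_mk, Prod.mk.injEq]
  constructor <;> module

lemma commute_bigM_diag (T : Module.End 𝒪 A) (qq a : 𝒪) :
    Commute (bigM T qq) (diagEnd (a • T - (a * a + qq) • (1 : Module.End 𝒪 A))) := by
  refine LinearMap.ext fun x => ?_
  obtain ⟨x₁, x₂⟩ := x
  simp only [Module.End.mul_apply, LinearMap.sub_apply, LinearMap.smul_apply,
    Module.End.one_apply, bigM_apply, diagEnd_apply, map_sub, map_smul]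

/-- **Step (i)**: `a T - (a² + q)` is nilpotent on `ad v` and `bd v` when `(U - a)^n v = 0`. -/
lemma locNil_ad_bd (ad bd : B →ₗ[𝒪] A) (T : Module.End 𝒪 A) (U : Module.End 𝒪 B) (qq a : 𝒪)
    (hadU : ∀ y, ad (U y) = qq • bd y) (hbdU : ∀ y, bd (U y) = T (bd y) - ad y)
    (uq : IsUnit qq) {v : B} {n : ℕ} (hv : ((U - a • (1 : Module.End 𝒪 B)) ^ n) v = 0) :
    ((a • T - (a * a + qq) • (1 : Module.End 𝒪 A)) ^ n) (ad v) = 0 ∧
      ((a • T - (a * a + qq) • (1 : Module.End 𝒪 A)) ^ n) (bd v) = 0 := by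
  set Ψ : B →ₗ[𝒪] A × A := LinearMap.prod ad bd with hΨ
  have hΨU : ∀ y, Ψ (U y) = bigM T qq (Ψ y) := fun y => by
    rw [bigM_apply]
    exact Prod.ext (hadU y) (hbdU y)
  have h0 : ((bigM T qq - a • (1 : Module.End 𝒪 (A × A))) ^ n) (Ψ v) = 0 := by
    rw [← intertwine_sub_smul_pow Ψ U (bigM T qq) hΨU a n v, hv, map_zero]
  set M := bigM T qq with hM
  set N := diagEnd (a • T - (a * a + qq) • (1 : Module.End 𝒪 A)) with hN
  have hc1 : Commute M N := commute_bigM_diag T qq a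
  have hMS : Commute M (M - a • (1 : Module.End 𝒪 (A × A))) :=
    (Commute.refl M).sub_right (commute_smul_one M a)
  have h1S : Commute (qq • (1 : Module.End 𝒪 (A × A))) (M - a • (1 : Module.End 𝒪 (A × A))) :=
    (commute_smul_one _ qq).symm
  have hc2 : Commute (a • M - qq • (1 : Module.End 𝒪 (A × A)))
      (M - a • (1 : Module.End 𝒪 (A × A))) :=
    (hMS.smul_left a).sub_left h1S
  have hkey : M ^ n * N ^ n = (a • M - qq • (1 : Module.End 𝒪 (A × A))) ^ n *
      (M - a • (1 : Module.End 𝒪 (A × A))) ^ n := by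
    rw [← hc1.mul_pow, ← hc2.mul_pow, hM, hN, bigM_mul_diag]
  have h2 : (M ^ n) ((N ^ n) (Ψ v)) = 0 := by
    rw [← Module.End.mul_apply, hkey, Module.End.mul_apply, h0, map_zero]
  have h3 : (N ^ n) (Ψ v) = 0 := by
    apply bigM_pow_injective T uq n
    rw [map_zero]
    exact h2
  rw [hN, diagEnd_pow_apply, Prod.mk_eq_zero] at h3
  exact h3

end BigM

/-! ### From `a T - (a² + q)` to `T - s` -/

section Shift

variable {𝒪 : Type*} [CommRing 𝒪] {A : Type*} [AddCommGroup A] [Module 𝒪 A]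

/-- If `a T - (a² + q)` is nilpotent at `x`, and the scalars `q - a a'`, `s - (a + a')` are
nilpotent at `x`, then `T - s` is nilpotent at `x` (`a` a unit). -/
lemma locNil_T_sub_s (T : Module.End 𝒪 A) (qq a a' s : 𝒪) (ua0 : IsUnit a) {x : A} {n : ℕ}
    (hx : ((a • T - (a * a + qq) • (1 : Module.End 𝒪 A)) ^ n) x = 0)
    (nA : ∃ n : ℕ, (qq - a * a') ^ n • x = 0) (ns : ∃ n : ℕ, (s - (a + a')) ^ n • x = 0) :
    ∃ m : ℕ, ((T - s • (1 : Module.End 𝒪 A)) ^ m) x = 0 := by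
  obtain ⟨u, rfl⟩ := ua0
  obtain ⟨n₁, hn₁⟩ := nA
  obtain ⟨n₂, hn₂⟩ := ns
  have hai : (↑u⁻¹ : 𝒪) * ↑u = 1 := Units.inv_mul u
  have e1 : (↑u⁻¹ : 𝒪) • ((↑u : 𝒪) • T - ((↑u : 𝒪) * ↑u + qq) • (1 : Module.End 𝒪 A)) =
      T - ((↑u⁻¹ : 𝒪) * ((↑u : 𝒪) * ↑u + qq)) • (1 : Module.End 𝒪 A) := by
    rw [smul_sub, smul_smul, hai, one_smul, smul_smul]
  have hsc : s = (↑u⁻¹ : 𝒪) * ((↑u : 𝒪) * ↑u + qq) - (↑u⁻¹ : 𝒪) * (qq - ↑u * a')
      - (-(s - (↑u + a'))) := by
    linear_combination (-((↑u : 𝒪) + a')) * hai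
  have hdecomp : T - s • (1 : Module.End 𝒪 A) =
      ((↑u⁻¹ : 𝒪) • ((↑u : 𝒪) • T - ((↑u : 𝒪) * ↑u + qq) • (1 : Module.End 𝒪 A)) +
        ((↑u⁻¹ : 𝒪) * (qq - ↑u * a')) • (1 : Module.End 𝒪 A)) +
        (-(s - (↑u + a'))) • (1 : Module.End 𝒪 A) := by
    rw [e1]
    conv_lhs => rw [hsc]
    rw [sub_smul, sub_smul]
    abel
  have h1 : (((↑u⁻¹ : 𝒪) • ((↑u : 𝒪) • T - ((↑u : 𝒪) * ↑u + qq) • (1 : Module.End 𝒪 A))) ^ n) x
      = 0 := by
    rw [_root_.smul_pow, LinearMap.smul_apply, hx, smul_zero]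
  have h2 : ((((↑u⁻¹ : 𝒪) * (qq - ↑u * a')) • (1 : Module.End 𝒪 A)) ^ n₁) x = 0 := by
    rw [smul_one_pow_apply, mul_pow, mul_smul, hn₁, smul_zero]
  have h3 : (((-(s - (↑u + a'))) • (1 : Module.End 𝒪 A)) ^ n₂) x = 0 := by
    rw [smul_one_pow_apply, neg_pow, mul_smul, hn₂, smul_zero]
  refine ⟨n + n₁ + n₂, ?_⟩
  rw [hdecomp]
  exact add_pow_apply_eq_zero (commute_smul_one _ _)
    (add_pow_apply_eq_zero (commute_smul_one _ _) h1 h2) h3

end Shift

/-! ### The theorem -/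

section StepMain

variable {𝒪 : Type*} [CommRing 𝒪] {A B : Type*} [AddCommGroup A] [Module 𝒪 A]
  [AddCommGroup B] [Module 𝒪 B]

/-- The submodule `Aθ = ⋂ gk(t i - c i) ∩ gk(T - s)`. -/
def thetaSub {ι : Type*} (t : ι → Module.End 𝒪 A) (c : ι → 𝒪) (T : Module.End 𝒪 A) (s : 𝒪) :
    Submodule 𝒪 A :=
  (⨅ i, (t i).maxGenEigenspace (c i)) ⊓ T.maxGenEigenspace s

lemma mem_thetaSub {ι : Type*} (t : ι → Module.End 𝒪 A) (c : ι → 𝒪) (T : Module.End 𝒪 A)
    (s : 𝒪) (x : A) :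
    x ∈ thetaSub t c T s ↔
      (∀ i, ∃ n : ℕ, ((t i - c i • (1 : Module.End 𝒪 A)) ^ n) x = 0) ∧
        ∃ n : ℕ, ((T - s • (1 : Module.End 𝒪 A)) ^ n) x = 0 := by
  simp only [thetaSub, Submodule.mem_inf, Submodule.mem_iInf, Module.End.mem_maxGenEigenspace]

/-- **OLD-STEP** (helper14's leaf), universe polymorphic form. -/
theorem oldNewStep
    (as bs : A →ₗ[𝒪] B) (ad bd : B →ₗ[𝒪] A) (T : Module.End 𝒪 A) (U W : Module.End 𝒪 B)
    (q : ℕ) (a a' s : 𝒪)
    {ι : Type*} (t : ι → Module.End 𝒪 A) (t' : ι → Module.End 𝒪 B) (c : ι → 𝒪)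
    (h1 : ∀ x, ad (as x) = (q + 1) • x) (h2 : ∀ x, bd (bs x) = (q + 1) • x)
    (h3 : ∀ x, ad (bs x) = T x) (h4 : ∀ x, bd (as x) = T x)
    (h5 : ∀ y, U y = as (bd y) - W y)
    (h6 : ∀ x, W (as x) = bs x) (h7 : ∀ x, W (bs x) = as x) (h8 : ∀ y, W (W y) = y)
    (h9 : ∀ y, ad (W y) = bd y) (h10 : ∀ y, bd (W y) = ad y)
    (cas : ∀ i x, as (t i x) = t' i (as x)) (cbs : ∀ i x, bs (t i x) = t' i (bs x))
    (cad : ∀ i y, ad (t' i y) = t i (ad y)) (cbd : ∀ i y, bd (t' i y) = t i (bd y))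
    (ud : IsUnit (a - a')) (ua : IsUnit (a * a - 1)) (ua' : IsUnit (a' * a' - 1))
    (uq : IsUnit (q : 𝒪)) (ua0 : IsUnit a)
    (nA : ∀ x : A, ∃ n : ℕ, ((q : 𝒪) - a * a') ^ n • x = 0)
    (ns : ∀ x : A, ∃ n : ℕ, (s - (a + a')) ^ n • x = 0) :
    (∀ v : B, (∀ i, ∃ n : ℕ, ((t' i - c i • (1 : Module.End 𝒪 B)) ^ n) v = 0) →
        (∃ n : ℕ, ((U - a • (1 : Module.End 𝒪 B)) ^ n) v = 0) →
        (∀ i, ∃ n : ℕ, ((t i - c i • (1 : Module.End 𝒪 A)) ^ n) (ad v) = 0) ∧
          ∃ n : ℕ, ((T - s • (1 : Module.End 𝒪 A)) ^ n) (ad v) = 0) ∧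
    (∀ x : A, (∀ i, ∃ n : ℕ, ((t i - c i • (1 : Module.End 𝒪 A)) ^ n) x = 0) →
        (∃ n : ℕ, ((T - s • (1 : Module.End 𝒪 A)) ^ n) x = 0) →
        ∃ v : B, (∀ i, ∃ n : ℕ, ((t' i - c i • (1 : Module.End 𝒪 B)) ^ n) v = 0) ∧
          (∃ n : ℕ, ((U - a • (1 : Module.End 𝒪 B)) ^ n) v = 0) ∧ ad v = x) ∧
    (∀ v : B, (∀ i, ∃ n : ℕ, ((t' i - c i • (1 : Module.End 𝒪 B)) ^ n) v = 0) →
        (∃ n : ℕ, ((U - a • (1 : Module.End 𝒪 B)) ^ n) v = 0) → ad v = 0 → v = 0) := by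
  have hsmul : ∀ x : A, (q + 1) • x = ((q : 𝒪) + 1) • x := by
    intro x
    rw [← Nat.cast_smul_eq_nsmul 𝒪 (q + 1) x]
    push_cast
    rfl
  have hadU : ∀ y, ad (U y) = (q : 𝒪) • bd y := by
    intro y
    rw [h5, map_sub, h1, h9, hsmul, add_smul, one_smul, add_sub_cancel_right]
  have hbdU : ∀ y, bd (U y) = T (bd y) - ad y := by
    intro y
    rw [h5, map_sub, h4, h10]
  have hTt : ∀ i x, T (t i x) = t i (T x) := by
    intro i x
    rw [← h3, cbs, cad, h3]
  -- step (i)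
  have hi : ∀ v : B, (∃ n : ℕ, ((U - a • (1 : Module.End 𝒪 B)) ^ n) v = 0) →
      (∃ n : ℕ, ((T - s • (1 : Module.End 𝒪 A)) ^ n) (ad v) = 0) ∧
        ∃ n : ℕ, ((T - s • (1 : Module.End 𝒪 A)) ^ n) (bd v) = 0 := by
    rintro v ⟨n, hn⟩
    obtain ⟨k1, k2⟩ := locNil_ad_bd ad bd T U (q : 𝒪) a hadU hbdU uq hn
    exact ⟨locNil_T_sub_s T (q : 𝒪) a a' s ua0 k1 (nA _) (ns _),
      locNil_T_sub_s T (q : 𝒪) a a' s ua0 k2 (nA _) (ns _)⟩
  -- the submodules
  set Aθ : Submodule 𝒪 A := thetaSub t c T s with hAθ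
  have memA : ∀ x : A, x ∈ Aθ ↔
      (∀ i, ∃ n : ℕ, ((t i - c i • (1 : Module.End 𝒪 A)) ^ n) x = 0) ∧
        ∃ n : ℕ, ((T - s • (1 : Module.End 𝒪 A)) ^ n) x = 0 := mem_thetaSub t c T s
  set B₀ : Submodule 𝒪 B := Aθ.comap ad ⊓ Aθ.comap bd with hB₀
  have memB : ∀ y : B, y ∈ B₀ ↔ ad y ∈ Aθ ∧ bd y ∈ Aθ := fun y => Iff.rfl
  have hT_A : ∀ x ∈ Aθ, T x ∈ Aθ := by
    intro x hx
    rw [memA] at hx ⊢
    refine ⟨fun i => ?_, ?_⟩
    · obtain ⟨n, hn⟩ := hx.1 i
      refine ⟨n, ?_⟩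
      rw [← intertwine_sub_smul_pow T (t i) (t i) (hTt i) (c i) n x, hn, map_zero]
    · obtain ⟨n, hn⟩ := hx.2
      refine ⟨n, ?_⟩
      rw [← intertwine_sub_smul_pow T T T (fun _ => rfl) s n x, hn, map_zero]
  have has : ∀ x ∈ Aθ, as x ∈ B₀ := by
    intro x hx
    rw [memB, h1, h4]
    exact ⟨nsmul_mem hx _, hT_A x hx⟩
  have hbs : ∀ x ∈ Aθ, bs x ∈ B₀ := by
    intro x hx
    rw [memB, h2, h3]
    exact ⟨hT_A x hx, nsmul_mem hx _⟩
  have had : ∀ y ∈ B₀, ad y ∈ Aθ := fun y hy => ((memB y).1 hy).1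
  have hbd : ∀ y ∈ B₀, bd y ∈ Aθ := fun y hy => ((memB y).1 hy).2
  have hW : ∀ y ∈ B₀, W y ∈ B₀ := by
    intro y hy
    rw [memB, h9, h10]
    exact ⟨hbd y hy, had y hy⟩
  have hU : ∀ y ∈ B₀, U y ∈ B₀ := by
    intro y hy
    rw [h5]
    exact B₀.sub_mem (has _ (hbd y hy)) (hW y hy)
  -- `Bθ ⊆ B₀`
  have hBθ : ∀ v : B, (∀ i, ∃ n : ℕ, ((t' i - c i • (1 : Module.End 𝒪 B)) ^ n) v = 0) →
      (∃ n : ℕ, ((U - a • (1 : Module.End 𝒪 B)) ^ n) v = 0) → v ∈ B₀ := by
    intro v hvt hvU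
    rw [memB, memA, memA]
    refine ⟨⟨fun i => ?_, (hi v hvU).1⟩, ⟨fun i => ?_, (hi v hvU).2⟩⟩
    · obtain ⟨n, hn⟩ := hvt i
      exact ⟨n, by rw [← intertwine_sub_smul_pow ad (t' i) (t i) (cad i) (c i) n v, hn, map_zero]⟩
    · obtain ⟨n, hn⟩ := hvt i
      exact ⟨n, by rw [← intertwine_sub_smul_pow bd (t' i) (t i) (cbd i) (c i) n v, hn, map_zero]⟩
  -- transfer of powers between `B₀` and `B`, `Aθ` and `A`
  have hcoeU : ∀ (n : ℕ) (v : B₀),
      ((((U.restrict hU) - a • (1 : Module.End 𝒪 B₀)) ^ n) v : B) =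
        ((U - a • (1 : Module.End 𝒪 B)) ^ n) (v : B) := fun n v =>
    intertwine_sub_smul_pow B₀.subtype (U.restrict hU) U (fun _ => rfl) a n v
  have hcoeT : ∀ (n : ℕ) (x : Aθ),
      ((((T.restrict hT_A) - (a + a') • (1 : Module.End 𝒪 Aθ)) ^ n) x : A) =
        ((T - (a + a') • (1 : Module.End 𝒪 A)) ^ n) (x : A) := fun n x =>
    intertwine_sub_smul_pow Aθ.subtype (T.restrict hT_A) T (fun _ => rfl) (a + a') n x
  -- step (ii): OLD-ABS on the submodules
  obtain ⟨ha, hb, hc⟩ := oldNewAbs (as.restrict has) (bs.restrict hbs) (ad.restrict had)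
    (bd.restrict hbd) (T.restrict hT_A) (U.restrict hU) (W.restrict hW) q a a'
    (fun x => Subtype.ext (h1 x)) (fun x => Subtype.ext (h2 x))
    (fun x => Subtype.ext (h3 x)) (fun x => Subtype.ext (h4 x))
    (fun y => Subtype.ext (h5 y))
    (fun x => Subtype.ext (h6 x)) (fun x => Subtype.ext (h7 x)) (fun y => Subtype.ext (h8 y))
    (fun y => Subtype.ext (h9 y)) (fun y => Subtype.ext (h10 y))
    ud ua ua' uq
    (by
      intro x
      obtain ⟨n₁, hn₁⟩ := ((memA x).1 x.2).2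
      obtain ⟨n₂, hn₂⟩ := ns x
      refine ⟨n₁ + n₂, Subtype.ext ?_⟩
      rw [hcoeT]
      have hd : T - (a + a') • (1 : Module.End 𝒪 A) =
          (T - s • (1 : Module.End 𝒪 A)) + (s - (a + a')) • (1 : Module.End 𝒪 A) := by
        rw [sub_smul]
        abel
      rw [hd]
      refine add_pow_apply_eq_zero (commute_smul_one _ _) hn₁ ?_
      rw [smul_one_pow_apply, hn₂])
    (by
      intro x
      obtain ⟨n, hn⟩ := nA x
      exact ⟨n, Subtype.ext hn⟩)
  refine ⟨?_, ?_, ?_⟩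
  · -- (C1)
    intro v hvt hvU
    exact (memA _).1 (had v (hBθ v hvt hvU))
  · -- (C2)
    intro x hxt hxT
    have hx : x ∈ Aθ := (memA x).2 ⟨hxt, hxT⟩
    obtain ⟨v', ⟨n, hn⟩, hv'⟩ := ha ⟨x, hx⟩
    have hnU : ((U - a • (1 : Module.End 𝒪 B)) ^ n) (v' : B) = 0 := by
      rw [← hcoeU, hn]
      rfl
    obtain ⟨x₁, y₁, hxy⟩ := hc v' ⟨n, hn⟩
    have hv : (v' : B) = as x₁ + bs y₁ := by
      rw [hxy]
      rfl
    refine ⟨v', fun i => ?_, ⟨n, hnU⟩, congrArg Subtype.val hv'⟩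
    obtain ⟨n₁, hn₁⟩ := ((memA x₁).1 x₁.2).1 i
    obtain ⟨n₂, hn₂⟩ := ((memA y₁).1 y₁.2).1 i
    refine ⟨max n₁ n₂, ?_⟩
    rw [hv, map_add, ← intertwine_sub_smul_pow as (t i) (t' i) (cas i) (c i),
      ← intertwine_sub_smul_pow bs (t i) (t' i) (cbs i) (c i),
      pow_apply_eq_zero_of_le _ (le_max_left n₁ n₂) hn₁,
      pow_apply_eq_zero_of_le _ (le_max_right n₁ n₂) hn₂, map_zero, map_zero, add_zero]
  · -- (C3)
    intro v hvt hvU hv0
    have hvB : v ∈ B₀ := hBθ v hvt hvU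
    obtain ⟨n, hn⟩ := hvU
    have h' : ((((U.restrict hU) - a • (1 : Module.End 𝒪 B₀)) ^ n) ⟨v, hvB⟩) = 0 :=
      Subtype.ext (by rw [hcoeU]; exact hn)
    have := hb ⟨v, hvB⟩ ⟨n, h'⟩ (Subtype.ext hv0)
    exact congrArg Subtype.val this

end StepMain

end Fermat.Agent.NEB.OLD.H38

end
-- ==== END Fermat.Agent.NEB.OLD.H38_OldStepCore

-- ==== BEGIN Fermat.Agent.S33.New.H36_Frob2Mod
section
attribute [local instance 10000] SubalgebraClass.toAlgebra
attribute [local instance 10000] HahnSeries.powerSeriesAlgebra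

/-!
# S33 / S59, package STRICT (helper36): (FROB2) at the tame levels

`q ∤ M` tame, `A` over `q`, `σ` in the decomposition group of `A`.

* `kV_pow_fix` : the residue field of `A` is a union of finite fields;
* `coeffFix_F1` : every function of `F₁` has its coefficients in a finite field;
* `red1_galF_sq_dec` : `red₁ (σ² f) = (φ̄²)^m (red₁ f)` for some `m` (depending on `f`);
* `isPrincipal_of_isNormPow`, `new_of_cons` : from the Kummer form of newness to the reduced form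
  (via helper89's `cons_alpha`, `cons_beta`);
* `stmt_Frob2Tame : Stmt_Frob2Tame` : instance of the abstract core `frob2_abs` at the modular
  total conservation datum `S35.H89.modTot`.
-/

set_option autoImplicit false
set_option linter.style.haveILetI false
set_option linter.unusedSectionVars false
set_option synthInstance.maxHeartbeats 400000
set_option maxHeartbeats 1000000

noncomputable section

open HahnSeries IntermediateField AlgebraicCurve ModularCurve
open Fermat.Agent.S28.H73 Fermat.Agent.RED.H73 Fermat.Agent.RED Fermat.Agent.S24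
open Fermat.Agent.BAD.H88 Fermat.Agent.BAD Fermat.Agent.S35.H89

namespace Fermat.Agent.S33.New.H36

section Dec

variable (A : ValuationSubring Kbar) (q M : ℕ) (a b : ℤ) (hab : a * q + b * M = 1)
  (hq : q.Prime) [NeZero M] [NeZero (M * q)] (hA : A.LiesOverPrime q)

include hq hA in
/-- The residue field of `A` is a union of finite fields. -/
theorem kV_pow_fix (c : kV A) : ∃ f : ℕ, 0 < f ∧ c ^ (q ^ f) = c := by
  classical
  haveI : Fact q.Prime := ⟨hq⟩
  haveI := Fermat.Agent.FL.H38.charP_residue A hq hA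
  letI : Algebra (ZMod q) (IsLocalRing.ResidueField A) := ZMod.algebra _ q
  obtain ⟨x, rfl⟩ := IsLocalRing.residue_surjective c
  have halg : IsAlgebraic (ZMod q) (IsLocalRing.residue A x) := by
    obtain ⟨R, hR0, hR⟩ := Fermat.Agent.FL.H38.isAlgebraic_residue A (ℓ := q) x
    exact ⟨R, hR0, hR⟩
  have hint : IsIntegral (ZMod q) (IsLocalRing.residue A x) := halg.isIntegral
  haveI : FiniteDimensional (ZMod q) (ZMod q)⟮IsLocalRing.residue A x⟯ :=
    IntermediateField.adjoin.finiteDimensional hint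
  haveI : Finite (ZMod q)⟮IsLocalRing.residue A x⟯ := Module.finite_of_finite (ZMod q)
  letI : Fintype (ZMod q)⟮IsLocalRing.residue A x⟯ := Fintype.ofFinite _
  set y : (ZMod q)⟮IsLocalRing.residue A x⟯ :=
    ⟨IsLocalRing.residue A x, IntermediateField.mem_adjoin_simple_self _ _⟩ with hy
  obtain ⟨n, -, hn⟩ := FiniteField.card (ZMod q)⟮IsLocalRing.residue A x⟯ q
  have h1 := FiniteField.pow_card y
  rw [hn] at h1
  refine ⟨n, n.pos, ?_⟩
  have h2 := congrArg Subtype.val h1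
  simpa using h2

include hab hq hA in
/-- Every function of `F₁` has its coefficients in a finite field. -/
theorem coeffFix_F1 (ψ : F1 A q M) :
    ∃ f : ℕ, 0 < f ∧ ∀ n : ℤ, (ψ : LaurentSeries (kV A)).coeff n ^ (q ^ f)
      = (ψ : LaurentSeries (kV A)).coeff n := by
  haveI : Fact q.Prime := ⟨hq⟩
  haveI := BAD.H82.charP_kV A hq hA
  have hmem : (ψ : LaurentSeries (kV A)) ∈ modularFunctionFieldFullC (kV A) M := by
    rw [← H82.redField_eq_fullC q M a b hab hq A hA]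
    exact ψ.2
  obtain ⟨f, hf, hfix⟩ := exists_coeffFix_of_mem_adjoin q (kV_pow_fix A q hq hA) _ (by
    rintro s ⟨d, hd, -, rfl⟩
    rw [coeffFix_iff, iterateFrobenius_one, coeffMap_qExpand, coeffMap_jqModC]) hmem
  exact ⟨f, hf, hfix⟩

/-- The coefficients of the iterates of `φ̄²`. -/
theorem coe_iter_phi_coeff (m : ℕ) (ψ : F1 A q M) (n : ℤ) :
    ((((fun y : F1 A q M => phiSemiMod A q M a b hab hq hA •
        (phiSemiMod A q M a b hab hq hA • y))^[m] ψ : F1 A q M)) : LaurentSeries (kV A)).coeff n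
      = (ψ : LaurentSeries (kV A)).coeff n ^ (q ^ (2 * m)) := by
  induction m generalizing ψ with
  | zero => simp
  | succ m ih =>
    rw [Function.iterate_succ_apply, ih, phiSemiMod_smul, phiSemiMod_smul,
      BAD.H73.coe_phiF1_coeff, BAD.H73.coe_phiF1_coeff, ← pow_mul, ← pow_mul]
    congr 1
    ring

/-- **The decomposition group acts on the first reduction by powers of `φ̄²`** (squares of its
elements). -/
theorem red1_galF_sq_dec {σ : GalQ} (hσ : σ ∈ A.decompositionSubgroup ℚ) (f : FN (M * q))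
    (h : f ∈ V1 A q M) (h' : galF (M * q) (σ * σ) • f ∈ V1 A q M) :
    ∃ m : ℕ, red1 A q M ⟨_, h'⟩
      = (fun y : F1 A q M => phiSemiMod A q M a b hab hq hA •
          (phiSemiMod A q M a b hab hq hA • y))^[m] (red1 A q M ⟨f, h⟩) := by
  haveI : Fact q.Prime := ⟨hq⟩
  haveI := BAD.H82.charP_kV A hq hA
  have h1 : galF (M * q) σ • f ∈ V1 A q M := S35.H44.galF_mem_V1 A q M hσ h
  have h2 : galF (M * q) σ • (galF (M * q) σ • f) ∈ V1 A q M :=
    S35.H44.galF_mem_V1 A q M hσ h1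
  have e := galF_sq_smul q M σ f
  have e' : (⟨galF (M * q) (σ * σ) • f, h'⟩ : ↥(V1 A q M))
      = ⟨galF (M * q) σ • (galF (M * q) σ • f), h2⟩ := Subtype.ext e
  obtain ⟨f₀, hf₀, hfix⟩ := coeffFix_F1 A q M a b hab hq hA (red1 A q M ⟨f, h⟩)
  obtain ⟨m, hm⟩ := exists_coeffMap_eq_pow q
    (H33.autkHom A σ.toRingEquiv (H33.mem_iff_of_mem_decompositionSubgroup A hσ)) hf₀
  have hfix' : CoeffFix q f₀ ((red1 A q M ⟨f, h⟩ : F1 A q M) : LaurentSeries (kV A)) := hfix
  refine ⟨m, ?_⟩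
  apply Subtype.ext
  rw [e', S35.H44.coe_red1_galF A q M hσ _ h1 h2, S35.H44.coe_red1_galF A q M hσ f h h1,
    hm _ hfix', hm _ (hfix'.coeffMap q _)]
  ext n
  rw [coe_iter_phi_coeff, coeffMap_coeff, coeffMap_coeff, iterateFrobenius_def,
    iterateFrobenius_def, ← pow_mul, ← _root_.pow_add]
  congr 2
  ring

end Dec

section Generic

variable {K F F' : Type} [Field K] [Field F] [Field F'] [Algebra K F] [Algebra K F']

/-- If `n D = div f` and the norm of `f` is a constant times an `n`-th power, the push-forward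
of `D` is principal. -/
theorem isPrincipal_of_isNormPow (φ : F →ₐ[K] F')
    (hφ : φ.toRingHom.IsIntegral) (hfin : FiniteAlong K φ) (hN : NormFormulaAlong K φ hfin)
    (n : ℕ) (hn : 0 < n) (D : Divisor K F') (f : F') (hf : f ≠ 0)
    (hD : ∀ P : Place K F', (n : ℤ) * D P = P.ord f)
    (hnorm : S33.New.H86.IsNormPow φ n f) :
    (Divisor.pushforwardAlong φ hφ D).IsPrincipal := by
  obtain ⟨t, c, htc⟩ := hnorm
  letI := algebraAlong φ
  haveI := isScalarTower_along φ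
  haveI := isIntegral_along φ hφ
  haveI : Module.Finite F F' := hfin
  have hN' : Divisor.PushforwardNormFormula K F F' := hN
  have htc' : Algebra.norm F f = algebraMap K F c * t ^ n := htc
  have hn0 : Algebra.norm F f ≠ 0 := by
    rw [Ne, Algebra.norm_eq_zero_iff]
    exact hf
  have hc0 : c ≠ 0 := by
    rintro rfl
    rw [map_zero, zero_mul] at htc'
    exact hn0 htc'
  have ht0 : t ≠ 0 := by
    rintro rfl
    rw [zero_pow hn.ne', mul_zero] at htc'
    exact hn0 htc'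
  have h1 : ∀ v : Place K F, Divisor.pushforward F (n • D) v = v.ord (Algebra.norm F f) :=
    hN' f hf (n • D) (fun w => by
      rw [Finsupp.smul_apply, ← hD w]
      simp)
  refine ⟨t, ht0, fun v => ?_⟩
  have h2 := h1 v
  rw [map_nsmul, Finsupp.smul_apply, htc', Fermat.Agent.RED.H17.ord_algebraMap_mul v hc0] at h2
  have h3 := Place.ord_zpow v t (n : ℤ)
  rw [zpow_natCast] at h3
  rw [h3, nsmul_eq_mul] at h2
  have hnZ : (n : ℤ) ≠ 0 := by exact_mod_cast hn.ne'
  exact mul_left_cancel₀ hnZ h2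

variable {k E : Type} [Field k] [Field E] [Algebra k E]

/-- From conservation for a divisor `D` with `n D = div f` to the reduced form of newness. -/
theorem new_of_cons (H : Fermat.Agent.RED.H17.FFHyp K F') (n : ℕ) (hn : 0 < n) (f : F')
    (hdiv : ∀ P : Place K F', (n : ℤ) ∣ P.ord f)
    (r : Place K F' → Place k E)
    (hcons : ∀ D : Divisor K F', (∀ P : Place K F', (n : ℤ) * D P = P.ord f) →
      ∃ h : E, h ≠ 0 ∧ ∀ z : Place k E, Finsupp.mapDomain r D z = z.ord h) :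
    ∃ h : E, h ≠ 0 ∧ ∀ D : Divisor K F', (∀ P, D P = P.ord f) →
      ∀ z : Place k E, Finsupp.mapDomain r D z = n * z.ord h := by
  have hnZ : (n : ℤ) ≠ 0 := by exact_mod_cast hn.ne'
  set D₀ : Divisor K F' := Fermat.Agent.RED.H17.dv H.principal f with hD₀
  set D₁ : Divisor K F' := D₀.mapRange (fun x => x / (n : ℤ)) (by simp) with hD₁
  have hD₁' : ∀ P : Place K F', (n : ℤ) * D₁ P = P.ord f := by
    intro P
    rw [hD₁, Finsupp.mapRange_apply, hD₀, Fermat.Agent.RED.H17.dv_apply]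
    exact Int.mul_ediv_cancel' (hdiv P)
  obtain ⟨h, hh0, hh⟩ := hcons D₁ hD₁'
  refine ⟨h, hh0, fun D hD z => ?_⟩
  have e : D = (n : ℤ) • D₁ := by
    ext P
    rw [hD P, Finsupp.smul_apply, smul_eq_mul, hD₁' P]
  rw [e, Finsupp.mapDomain_smul, Finsupp.smul_apply, hh z, smul_eq_mul]

end Generic

/-- **(FROB2) at the tame levels.** -/
theorem stmt_Frob2Tame : Stmt_Frob2Tame := by
  intro M p _ _ hp hpM ht A hA σ hσ k f hf hdiv hNα hNβ
  haveI : NeZero (M * p) := ⟨Nat.mul_ne_zero (NeZero.ne M) hp.ne_zero⟩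
  haveI : IsAlgClosed (kV A) := isAlgClosed_kV A
  obtain ⟨a₀, b₀, hab⟩ : ∃ a b : ℤ, a * p + b * M = 1 := by
    have hcop : Nat.Coprime p M := (Nat.Prime.coprime_iff_not_dvd hp).2 hpM
    obtain ⟨a, b, h⟩ := Nat.isCoprime_iff_coprime.2 hcop
    exact ⟨a, b, h⟩
  have H : Fermat.Agent.RED.H17.FFHyp Kbar (FN (M * p)) := S33.New.H86.ffHyp_FNbar (M * p)
  have HE : Fermat.Agent.RED.H17.FFHyp (kV A) (F1 A p M) :=
    Fermat.Agent.RED.H17.ffHyp_of_isFF _ _ (H91.isFF_F1 a₀ b₀ hab hp hA hpM ht)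
  have hn : 0 < p ^ k := pow_pos hp.pos k
  have hτmem : ∀ g : FN (M * p), g ∈ (modTot A p M a₀ b₀ hab hp hA hpM ht).b₁.V →
      galF (M * p) (σ * σ) • g ∈ (modTot A p M a₀ b₀ hab hp hA hpM ht).b₁.V := by
    intro g hg
    rw [galF_sq_smul p M σ g]
    exact S35.H44.galF_mem_V1 A p M hσ (S35.H44.galF_mem_V1 A p M hσ hg)
  have hnewα := new_of_cons (k := kV A) (E := F1 A p M) H (p ^ k) hn f hdiv
    (H91.rhoF1 a₀ b₀ hab hp hA hpM ht) (fun D hD =>
      cons_alpha A p M a₀ b₀ hab hp hA hpM ht (S36.H44.alpha_integral M p) D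
        (isPrincipal_of_isNormPow (heckeAlphaBar Kbar M p) (S36.H44.alpha_integral M p)
          (S36.H44.alpha_finite M p) (S36.H44.alpha_norm M p) (p ^ k) hn D f hf hD hNα))
  have hnewβ := new_of_cons (k := kV A) (E := F1 A p M) H (p ^ k) hn f hdiv
    (fun P => H91.rhoF1 a₀ b₀ hab hp hA hpM ht (wq p M a₀ b₀ hab hp • P)) (fun D hD =>
      cons_beta A p M a₀ b₀ hab hp hA hpM ht (S36.H44.beta_integral M p) D
        (isPrincipal_of_isNormPow (heckeBetaBar Kbar M p) (S36.H44.beta_integral M p)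
          (S36.H44.beta_finite M p) (S36.H44.beta_norm M p) (p ^ k) hn D f hf hD hNβ))
  exact frob2_abs (modTot A p M a₀ b₀ hab hp hA hpM ht).b₁
    (modTot A p M a₀ b₀ hab hp hA hpM ht).b₂ H HE (p ^ k) hn (galF (M * p) (σ * σ))
    (phiSemiMod A p M a₀ b₀ hab hp hA) hτmem
    (fun g h h' => red1_galF_sq_dec A p M a₀ b₀ hab hp hA hσ g h h')
    (H91.rhoF1 a₀ b₀ hab hp hA hpM ht)
    (fun P => H91.rhoF1 a₀ b₀ hab hp hA hpM ht (wq p M a₀ b₀ hab hp • P))
    (betaMod A p M a₀ b₀ hab hp hA)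
    (modTot A p M a₀ b₀ hab hp hA hpM ht).tot
    ((modTot A p M a₀ b₀ hab hp hA hpM ht).mirror_smul (wq p M a₀ b₀ hab hp)
      (wq_wq p M a₀ b₀ hab hp) (fun x => mem_V2_iff A p M a₀ b₀ hab hp x)
      (fun x h₂ h₁ => red2_mk A p M a₀ b₀ hab hp x h₂))
    (S35.H44.betaMod_ord A p M a₀ b₀ hab hp hA) f hf hnewα hnewβ

end Fermat.Agent.S33.New.H36

end
end
-- ==== END Fermat.Agent.S33.New.H36_Frob2Mod

-- ==== BEGIN Fermat.Agent.S34.Final
section

/-!
# S34 from `Stmt_S30U` alone (helper86, cluster R)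

All algebraic leaves of the wiring are proved.  What is left is `Stmt_S30U`: the frozen
statement S30 together with "inertia at `q ∥ N`, `q ≠ p`, has characteristic polynomial
`(X - 1) ^ 2`" for the constructed representation (package BAD_q, item 65).
-/

set_option autoImplicit false

open Polynomial IsLocalRing

namespace Fermat.Agent.S34

open Fermat.Agent.R

/-- S34 from S30U. -/
theorem of_S30U (hS30U : Stmt_S30U)
    {𝒪 : Type} [CommRing 𝒪] [IsDomain 𝒪] [IsDiscreteValuationRing 𝒪]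
    [IsAdicComplete (maximalIdeal 𝒪) 𝒪] [Finite (ResidueField 𝒪)] [CharZero 𝒪]
    {p : ℕ} (hp : p.Prime) (hp𝒪 : (p : 𝒪) ∈ maximalIdeal 𝒪)
    {N : ℕ} [NeZero N] {S : Finset ℕ} (hpS : p ∈ S) (hNS : ∀ q : ℕ, q.Prime → q ∣ N → q ∈ S)
    {θ : CuspForm.heckeAlgebra N 2 (↑S : Set ℕ) →+* ResidueField 𝒪}
    {T : Type} [CommRing T] [IsLocalRing T] [IsNoetherianRing T]
    [IsAdicComplete (maximalIdeal T) T] [Algebra 𝒪 T] [IsLocalHom (algebraMap 𝒪 T)]
    [Module.Finite 𝒪 T] [Module.Free 𝒪 T]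
    (H : CuspForm.HeckeGaloisRepDatum N (↑S : Set ℕ) 𝒪 θ T)
    (q : ℕ) (hq : q.Prime) (hqp : q ≠ p) (hqN : q ∣ N) (hq2 : ¬ q ^ 2 ∣ N) :
    H.ρ.IsUnipotentOnInertiaAt q :=
  wiring hS30U Fermat.Agent.Lib.FrobDensity.stmt_FD stmt_SepAll hp hp𝒪 hpS hNS H q hq hqp hqN hq2

end Fermat.Agent.S34

end
-- ==== END Fermat.Agent.S34.Final

-- ==== BEGIN Fermat.Agent.S43.BadQAt
section

set_option autoImplicit false
set_option synthInstance.maxHeartbeats 400000
set_option maxHeartbeats 1000000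

noncomputable section

open AlgebraicCurve ModularCurve

namespace Fermat.Agent.S43.BadQ

open Fermat.Agent.BAD Fermat.Agent.S44 Fermat.Agent.L

/-- **COMP-EIS at `(p, N, A)`.** -/
def CompEisAt (p N : ℕ) [NeZero N] (A : ValuationSubring (AlgebraicClosure ℚ)) : Prop :=
  ∀ (S : Finset ℕ) (t : ℕ → ℤ) (x : (jzModule N p).J),
    (∀ σ ∈ A.inertiaSubgroupIn ℚ, (jzModule N p).gal σ x = x) →
    (∀ ℓ : ℕ, ℓ.Prime → ℓ ∉ S → ¬ ℓ ∣ N → ℓ ≠ p →
      (jzModule N p).T ℓ x = ((t ℓ : ℤ) : ZMod p) • x) →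
    (∃ ℓ : ℕ, ℓ.Prime ∧ ℓ ∉ S ∧ ¬ ℓ ∣ N ∧ ℓ ≠ p ∧ ((t ℓ : ℤ) : ZMod p) ≠ 1 + (ℓ : ZMod p)) →
    Fin1 A N p (jzModule.pt N p x)

/-- **OLD at `(p, N, q, A)`.** -/
def OldAt (p N q : ℕ) [NeZero N] (A : ValuationSubring (AlgebraicClosure ℚ)) : Prop :=
  ∀ (S : Finset ℕ) (t : ℕ → ℤ) (x : (jzModule N p).J),
    Fin1 A N p (jzModule.pt N p x) → ¬ InK1 A N p (jzModule.pt N p x) →
    (∀ ℓ : ℕ, ℓ.Prime → ℓ ∉ S → ¬ ℓ ∣ N → ℓ ≠ p →
      (jzModule N p).T ℓ x = ((t ℓ : ℤ) : ZMod p) • x) →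
    ∃ (g : CuspForm (CongruenceSubgroup.Gamma0 (N / q)) 2) (𝔪 : Ideal ZBar),
      g.IsNormalizedEigenform ∧ 𝔪.IsMaximal ∧ (p : ZBar) ∈ 𝔪 ∧
      ∀ ℓ : ℕ, ℓ.Prime → ℓ ∉ S → ¬ ℓ ∣ N → ℓ ≠ p →
        ∃ a : ZBar, (a : ℂ) = ModularFormClass.qCoeff g ℓ ∧ a - ((t ℓ : ℤ) : ZBar) ∈ 𝔪

theorem stmt_CompEis_iff : Stmt_CompEis ↔
    ∀ (p : ℕ), p.Prime → 5 ≤ p → ∀ (N : ℕ) [NeZero N] (q : ℕ), q.Prime → q ≠ p →
      q ∣ N → ¬ q ^ 2 ∣ N →
      ∀ A : ValuationSubring (AlgebraicClosure ℚ), A.LiesOverPrime q → CompEisAt p N A :=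
  Iff.rfl

theorem stmt_Old_iff : Stmt_Old ↔
    ∀ (p : ℕ), p.Prime → 5 ≤ p → ∀ (N : ℕ) [NeZero N] (q : ℕ), q.Prime → q ≠ p →
      q ∣ N → ¬ q ^ 2 ∣ N →
      ∀ A : ValuationSubring (AlgebraicClosure ℚ), A.LiesOverPrime q → OldAt p N q A :=
  Iff.rfl

section Wiring

variable (q M : ℕ) (a b : ℤ) (hab : a * q + b * M = 1) (hq : q.Prime) [NeZero (M * q)] (p : ℕ)
  (A : ValuationSubring (AlgebraicClosure ℚ))

include hab hq in
/-- **The wiring at level `M q`, per-level form.** -/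
theorem hasToricAt_of (hW : Stmt_WHecke) {ε : ℤ} (hε : ε = 1 ∨ ε = -1)
    (hF : FrobToricAt ε p q M a b hab hq A) (hC : CompEisAt p (M * q) A)
    (hO : OldAt p (M * q) q A) :
    (jzModule (M * q) p).HasToricPartAt (M * q) q A := by
  have hε2 : (((ε : ℤ) : ZMod p)) * ((ε : ℤ) : ZMod p) = 1 := by
    rcases hε with rfl | rfl <;> simp
  set w : Module.End (ZMod p) (JTors (M * q) p) := wTors q M a b hab hq p with hw
  refine ⟨toric q M a b hab hq p A, ((ε : ℤ) : ZMod p) • w, ?_, ?_, ?_, ?_⟩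
  · intro σ
    show (((ε : ℤ) : ZMod p) • w) * JZero.torsionGaloisRep (M * q) p σ =
      JZero.torsionGaloisRep (M * q) p σ * (((ε : ℤ) : ZMod p) • w)
    rw [smul_mul_assoc, mul_smul_comm, hw, wTors_comm_gal]
  · intro (x : JTors (M * q) p) hx
    have hx' := (mem_toric_iff q M a b hab hq p A x).1 hx
    have hwx : w x ∈ toric q M a b hab hq p A := by
      refine (mem_toric_iff q M a b hab hq p A (w x)).2 ⟨hx'.2, ?_⟩
      have h1 : wS q M a b hab hq • ((w x : JTors (M * q) p) : JZero (M * q)) =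
          ((w (w x) : JTors (M * q) p) : JZero (M * q)) := rfl
      rw [h1, hw, wTors_wTors]
      exact hx'.1
    constructor
    · exact (toric q M a b hab hq p A).smul_mem _ hwx
    · show ((ε : ℤ) : ZMod p) • w (((ε : ℤ) : ZMod p) • w x) = x
      rw [map_smul, smul_smul, hε2, one_smul, hw, wTors_wTors]
  · intro σ hσ (x : JTors (M * q) p) hx
    have hx' := (mem_toric_iff q M a b hab hq p A x).1 hx
    have hx0 : (p : ℤ) • ((x : JTors (M * q) p) : JZero (M * q)) = 0 :=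
      Pic0.mem_torsion.mp x.property
    have h := hF σ hσ _ hx0 hx'.1 hx'.2
    show JZero.torsionGaloisRep (M * q) p σ x = (q : ZMod p) • (((ε : ℤ) : ZMod p) • w x)
    apply Subtype.ext
    rw [JZero.coe_torsionGaloisRep_apply, h, smul_smul]
    have h2 : (q : ZMod p) * ((ε : ℤ) : ZMod p) = (((ε * (q : ℤ) : ℤ)) : ZMod p) := by
      push_cast
      ring
    rw [h2, coe_intCast_smul]
    rfl
  · intro S t x hxT hI hT hNE
    have hFx := hC S t x hI hT hNE
    by_cases h1 : InK1 A (M * q) p (jzModule.pt (M * q) p x)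
    · -- then `w x ∉ K1`
      have h2 : ¬ InK1 A (M * q) p (jzModule.pt (M * q) p (w x)) := by
        intro h2
        exact hxT ((mem_toric_iff q M a b hab hq p A x).2 ⟨h1, h2⟩)
      have hI' : ∀ σ ∈ A.inertiaSubgroupIn ℚ, (jzModule (M * q) p).gal σ (w x) = w x := by
        intro σ hσ
        rw [hw, wTors_gal, hI σ hσ]
      have hT' : ∀ ℓ : ℕ, ℓ.Prime → ℓ ∉ S → ¬ ℓ ∣ M * q → ℓ ≠ p →
          (jzModule (M * q) p).T ℓ (w x) = ((t ℓ : ℤ) : ZMod p) • w x := by
        intro ℓ hℓ hℓS hℓN hℓp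
        rw [hw, wTors_T q M a b hab hq p hW hℓ hℓN, hT ℓ hℓ hℓS hℓN hℓp]
        exact map_smul (wTors q M a b hab hq p) _ _
      have hFw := hC S t (w x) hI' hT' hNE
      exact hO S t (w x) hFw h2 hT'
    · exact hO S t x hFx h1 hT

end Wiring

/-- **Package BAD_q for S43**: `p ≥ 5`, `q` odd, `N` squarefree. -/
def Stmt_BadQ5odd : Prop :=
  ∀ (p : ℕ), p.Prime → 5 ≤ p → ∀ (N : ℕ) [NeZero N] (q : ℕ), q.Prime → q ≠ 2 → q ≠ p →
    q ∣ N → Squarefree N →
    ∀ A : ValuationSubring (AlgebraicClosure ℚ), A.LiesOverPrime q →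
      (jzModule N p).HasToricPartAt N q A

/-- The three leaves in the form needed by S43. -/
def Stmt_FrobToricOdd : Prop :=
  ∀ (p : ℕ), p.Prime → 5 ≤ p →
    ∀ (q M : ℕ) (a b : ℤ) (hab : a * q + b * M = 1) (hq : q.Prime) [NeZero (M * q)],
    q ≠ 2 → q ≠ p → Squarefree (M * q) →
    ∀ A : ValuationSubring (AlgebraicClosure ℚ), A.LiesOverPrime q →
      FrobToricAt (-1) p q M a b hab hq A

def Stmt_CompEisOdd : Prop :=
  ∀ (p : ℕ), p.Prime → 5 ≤ p → ∀ (N : ℕ) [NeZero N] (q : ℕ), q.Prime → q ≠ 2 → q ≠ p →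
    q ∣ N → Squarefree N →
    ∀ A : ValuationSubring (AlgebraicClosure ℚ), A.LiesOverPrime q → CompEisAt p N A

def Stmt_OldOdd : Prop :=
  ∀ (p : ℕ), p.Prime → 5 ≤ p → ∀ (N : ℕ) [NeZero N] (q : ℕ), q.Prime → q ≠ 2 → q ≠ p →
    q ∣ N → Squarefree N →
    ∀ A : ValuationSubring (AlgebraicClosure ℚ), A.LiesOverPrime q → OldAt p N q A

/-- The tame case of `Stmt_FrobToricOdd` is `Stmt_FrobToric_tame`; the remaining case
`q = 3`, `M` odd is the descent from level `2 M q` (helper91, `BAD/H91_DescW.lean`). -/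
theorem frobToricOdd_of_tame (h : Stmt_FrobToric_tame)
    (hdesc : ∀ (p : ℕ), p.Prime → 5 ≤ p →
      ∀ (M : ℕ) (a b : ℤ) (hab : a * 3 + b * M = 1) (hq : Nat.Prime 3) [NeZero (M * 3)],
      3 ≠ p → ¬ 2 ∣ M → Squarefree (M * 3) →
      ∀ A : ValuationSubring (AlgebraicClosure ℚ), A.LiesOverPrime 3 →
        FrobToricAt (-1) p 3 M a b hab hq A) : Stmt_FrobToricOdd := by
  intro p hp hp5 q M a b hab hq _ hq2 hqp hsq A hA
  have hqM : ¬ q ∣ M := by
    rintro ⟨k, rfl⟩
    exact hq.not_isUnit (hsq q ⟨k, by ring⟩)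
  by_cases h5 : 5 ≤ q
  · exact h p hp hp5 q M a b hab hq hqp hqM (Or.inl h5) A hA
  have hq3 : q = 3 := by
    have h2 := hq.two_le
    have h4 : q ≠ 4 := by
      rintro rfl
      exact absurd hq (by decide)
    omega
  subst hq3
  by_cases h2M : 2 ∣ M
  · exact h p hp hp5 3 M a b hab hq hqp hqM (Or.inr (Or.inl ⟨rfl, h2M⟩)) A hA
  · exact hdesc p hp hp5 M a b hab hq hqp h2M hsq A hA

/-- **FROB-DESC** (descent of FROB-T to the only non-tame case of S43): FROB-T at the level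
`3 M`, `M` odd, from FROB-T at the tame levels (in fact from the level `3 (2 M)`).

Proof (Kummer form, as `BAD.H91.b1core_descend`): `x = [D]`, `p D = div f`, `w x = [D']`,
`p D' = div f'`, `f, f'` Gauss units with residue `1` in `F_{3M} ⊆ F_{6M}`.  The same functions
define classes `x₂, w x₂ ∈ K1` at level `6 M` (orders are multiplied by the ramification indices;
the Gauss valuation and `w_3` of level `6 M` restrict to those of level `3 M`).  FROB-T at level
`6 M` gives `t₂ ∈ F_{6M}` with `t₂ ^ p = c (σ f) (w f) ^ 3`; Kummer descent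
(`RED.KD.H22.stmt_KD`, `6 M ∣ 36 · 3 M`) gives `t ∈ F_{3M}`, i.e. `σ x + 3 w x = 0`. -/
def Stmt_FrobDesc : Prop :=
  Stmt_FrobToric_tame →
    ∀ (p : ℕ), p.Prime → 5 ≤ p →
      ∀ (M : ℕ) (a b : ℤ) (hab : a * 3 + b * M = 1) (hq : Nat.Prime 3) [NeZero (M * 3)],
      3 ≠ p → ¬ 2 ∣ M → Squarefree (M * 3) →
      ∀ A : ValuationSubring (AlgebraicClosure ℚ), A.LiesOverPrime 3 →
        FrobToricAt (-1) p 3 M a b hab hq A

/-- FROB-T in the form needed by S43 from the tame levels and the descent. -/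
theorem frobToricOdd_of_tame_desc (h : Stmt_FrobToric_tame) (hd : Stmt_FrobDesc) :
    Stmt_FrobToricOdd :=
  frobToricOdd_of_tame h (hd h)

/-- **S43 from the modular datum at the tame levels, the descent, COMP-EIS, OLD and PIVOT.** -/
theorem frobToricOdd_of_modSSDW_tame (h : Stmt_ModSSDW_tame) (hd : Stmt_FrobDesc) :
    Stmt_FrobToricOdd :=
  frobToricOdd_of_tame_desc (frobToric_tame_of h) hd

theorem compEisOdd_of (h : Stmt_CompEis) : Stmt_CompEisOdd :=
  fun p hp hp5 N _ q hq _ hqp hqN hsq A hA =>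
    h p hp hp5 N q hq hqp hqN
      (fun h2 => hq.not_isUnit ((hsq q) (by rwa [pow_two] at h2))) A hA

theorem oldOdd_of (h : Stmt_Old) : Stmt_OldOdd :=
  fun p hp hp5 N _ q hq _ hqp hqN hsq A hA =>
    h p hp hp5 N q hq hqp hqN
      (fun h2 => hq.not_isUnit ((hsq q) (by rwa [pow_two] at h2))) A hA

/-- **`Stmt_BadQ5odd` from the three leaves.** -/
theorem badQ5odd_of_at (hF : Stmt_FrobToricOdd) (hC : Stmt_CompEisOdd) (hO : Stmt_OldOdd) :
    Stmt_BadQ5odd := by
  intro p hp hp5 N _ q hq hq2 hqp hqN hsq A hA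
  obtain ⟨M, rfl⟩ : ∃ M, N = M * q := ⟨N / q, (Nat.div_mul_cancel hqN).symm⟩
  have hqM : ¬ q ∣ M := by
    rintro ⟨k, rfl⟩
    exact hq.not_isUnit (hsq q ⟨k, by ring⟩)
  have hcop : IsCoprime (q : ℤ) (M : ℤ) :=
    Nat.isCoprime_iff_coprime.2 ((Nat.Prime.coprime_iff_not_dvd hq).2 hqM)
  obtain ⟨a, b, hab⟩ := hcop
  exact hasToricAt_of q M a b hab hq p A Fermat.Agent.S43.H88.stmt_WHecke (Or.inr rfl)
    (hF p hp hp5 q M a b hab hq hq2 hqp hsq A hA) (hC p hp hp5 (M * q) q hq hq2 hqp hqN hsq A hA)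
    (hO p hp hp5 (M * q) q hq hq2 hqp hqN hsq A hA)

section S43

open WeierstrassCurve WeierstrassCurve.Affine WeierstrassCurve.Affine.Point
open scoped WeierstrassCurve.Affine

/-- The core of S43 from the packages (odd `q`, squarefree level). -/
theorem lowerConcl_of5odd (h1 : Stmt_TateModP) (h2 : Stmt_BadQ5odd) (h3 : _root_.Fermat.Agent.S43.Stmt_Pivot)
    (P : FreyPackage) {N q : ℕ} (hcond : P.IsConductorLevel N) (hq : q.Prime) (hq2 : q ≠ 2)
    (hqp : q ≠ P.p) (hqN : q ∣ N)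
    (hirr : GaloisRepIsIrreducible (K := AlgebraicClosure ℚ) ℚ P.freyCurve P.p)
    (hunr : P.GaloisRepUnramifiedAt q)
    (f : CuspForm (CongruenceSubgroup.Gamma0 N) 2) (W : WeierstrassCurve ℤ)
    (𝔪 : Ideal (integralClosure ℤ ℂ)) (hf : f.IsNormalizedEigenform)
    (hW : W.IsIntegralModelOf P.freyCurve)
    (h𝔪 : 𝔪.IsMaximal) (hp𝔪 : (P.p : integralClosure ℤ ℂ) ∈ 𝔪)
    (hcong : ∀ ℓ : ℕ, ℓ.Prime → W.IsGoodPrimeFor ℓ → ¬ ℓ ∣ N → ℓ ≠ P.p →
      ∃ a : integralClosure ℤ ℂ, (a : ℂ) = ModularFormClass.qCoeff f ℓ ∧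
        a - ((W.apOfModel ℓ : ℤ) : integralClosure ℤ ℂ) ∈ 𝔪) :
    LowerConcl P.p N q W := by
  have hp : P.p.Prime := P.pp
  have hp5 : 5 ≤ P.p := P.hp5
  have hp2 : P.p ≠ 2 := by omega
  have hΔ : W.Δ ≠ 0 := integralModel_Δ_ne_zero P hW
  have : NeZero N := ⟨hcond.pos.ne'⟩
  obtain ⟨A, hAq⟩ := stmt_PlaceOver q hq
  by_cases hexc : ∃ c : ZMod P.p, ∀ σ : GQ, A.IsFrobeniusAt σ q → ∀ v : Tors P.freyCurve P.p,
      galoisRepModuleEnd (S := ℚ) (K := AlgebraicClosure ℚ) P.freyCurve.toAffine P.p σ v = c • v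
  · exact h3 P N q hcond hq hq2 hqp hqN hirr hunr f W 𝔪 hf hW h𝔪 hp𝔪 hcong A hAq hexc
  · obtain ⟨hcont, hES, hsupp⟩ := h1 P.p hp hp2 N
    set S : Finset ℕ := W.Δ.natAbs.primeFactors with hS
    have hgood : ∀ ℓ : ℕ, ℓ.Prime → ℓ ∉ S → W.IsGoodPrimeFor ℓ := fun ℓ hℓ h =>
      prime_not_mem_of_good hℓ hΔ h
    obtain ⟨x, hx0, hx⟩ := hsupp f 𝔪 S (fun ℓ => W.apOfModel ℓ) hf h𝔪 hp𝔪
      (fun ℓ hℓ hℓS hℓN hℓp => hcong ℓ hℓ (hgood ℓ hℓ hℓS) hℓN hℓp)
    obtain ⟨ι, hinj, hequiv, hT⟩ := Fermat.Agent.L.H52.recovery P.p hp hp2 N hcond.pos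
      (jzModule N P.p) hcont hES P.freyCurve W hW hirr S hgood x hx0 hx
    have hNE : ∃ ℓ : ℕ, ℓ.Prime ∧ ℓ ∉ S ∧ ¬ ℓ ∣ N ∧ ℓ ≠ P.p ∧
        ((W.apOfModel ℓ : ℤ) : ZMod P.p) ≠ 1 + (ℓ : ZMod P.p) := by
      obtain ⟨ℓ, hℓ, hℓW, hℓN, hℓp, hne⟩ := stmt_NonEis P W hW N hcond.pos hirr
      refine ⟨ℓ, hℓ, ?_, hℓN, hℓp, hne⟩
      intro hmem
      rw [hS, Nat.mem_primeFactors] at hmem
      exact hℓW (Int.natCast_dvd.mpr hmem.2.1)
    have hrem := removesQ_of_toric hp hp2 (jzModule N P.p) N q A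
      (h2 P.p hp hp5 N q hq hq2 hqp hqN hcond.squarefree A hAq)
    obtain ⟨g, 𝔪', hg, h𝔪', hp𝔪', hgc⟩ := hrem (Tors P.freyCurve P.p)
      (galoisRepModuleEnd (S := ℚ) (K := AlgebraicClosure ℚ) P.freyCurve.toAffine P.p)
      ι S (fun ℓ => W.apOfModel ℓ)
      (fun W' hW' => hirr.2 W' (fun σ x hx => hW' σ x hx))
      (fun σ hσ v => hunr A hAq σ hσ v)
      hexc hinj (fun σ v => hequiv σ v) hT hNE
    exact ⟨g, 𝔪', S, hg, h𝔪', hp𝔪', fun ℓ hℓ hℓS hℓN hℓp _ => hgc ℓ hℓ hℓS hℓN hℓp⟩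

/-- **S43 from the three leaves in per-level form and PIVOT.**  The conclusion is the frozen
statement S43. -/
theorem result_of_at (hF : Stmt_FrobToricOdd) (hC : Stmt_CompEisOdd) (hO : Stmt_OldOdd)
    (h3 : _root_.Fermat.Agent.S43.Stmt_Pivot)
    (P : FreyPackage) {N q : ℕ}
    (hcond : P.IsConductorLevel N) (hq : q.Prime) (hq2 : q ≠ 2) (hqp : q ≠ P.p) (hqN : q ∣ N)
    (hirr : GaloisRepIsIrreducible (K := AlgebraicClosure ℚ) ℚ P.freyCurve P.p)
    (hmod : P.ModularRepOfLevel N) (hunr : P.GaloisRepUnramifiedAt q) :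
    ∃ M : ℕ, M ∣ N ∧ ¬ q ∣ M ∧ P.ModularRepOfLevel M := by
  obtain ⟨f, W, 𝔪, hf, hW, h𝔪, hp𝔪, hcong⟩ := hmod
  exact result_of_lowerConcl P hcond hq hqN W hW
    (lowerConcl_of5odd stmt_TateModP (badQ5odd_of_at hF hC hO) h3 P hcond hq hq2 hqp hqN hirr
      hunr f W 𝔪 hf hW h𝔪 hp𝔪 hcong)

end S43

end Fermat.Agent.S43.BadQ

end
end
-- ==== END Fermat.Agent.S43.BadQAt

-- ==== BEGIN Fermat.Agent.S43.CompEis.H57_Desc
section
attribute [local instance 10000] HahnSeries.powerSeriesAlgebra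

/-!
# S43, leaf COMP-EIS / DESC (helper57)

Descent of the divisibility of the orders of a reduced function from level `N' = r N`
(`r = 2, 3`) to level `N`, at a place `A` of residue characteristic `q ≠ r`.

* `ramificationIndexAlong_le` : `e(w | v) ≤ [L : E]` for function fields over an algebraically
  closed field;
* `dvd_ord_of_dvd_above` : if `p > [L : E]` is prime and `p ∣ ord_w (φ g)` for all places `w` of
  `L`, then `p ∣ ord_v g` for all places `v` of `E`;
* `dvd_ord_intermediate` : the same for two intermediate fields `K₁ ≤ K₂`.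
-/

set_option autoImplicit false
set_option linter.style.haveILetI false
set_option linter.unusedSectionVars false
set_option synthInstance.maxHeartbeats 400000
set_option maxHeartbeats 1000000

noncomputable section

open AlgebraicCurve ModularCurve

namespace Fermat.Agent.S43.CompEis.H57

open Fermat.Agent.RED Fermat.Agent.NEB.H14 Fermat.Agent.NEB.H29

section Abs

variable {k E L : Type} [Field k] [Field E] [Field L] [Algebra k E] [Algebra k L] [IsAlgClosed k]

/-- `e(w | v) ≤ [L : E]`. -/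
theorem ramificationIndexAlong_le (hE : IsFF k E) (hL : IsFF k L) (φ : E →ₐ[k] L)
    (w : Place k L) :
    Place.ramificationIndexAlong φ w
      ≤ @Module.finrank E L _ _ (algebraAlong φ).toModule := by
  classical
  haveI : HasPrincipalDivisors k L := hasPD hL
  have hFI := Fermat.Agent.RED.H51.stmt_FFB_fundamental k E L hE hL φ (isIntegral_hom hE hL φ)
    inferInstance
  have hdegE := Fermat.Agent.RED.H51.stmt_FFB_deg k E hE
  have hdegL := Fermat.Agent.RED.H51.stmt_FFB_deg k L hL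
  letI := algebraAlong φ
  haveI := isScalarTower_along φ
  haveI := isIntegral_along φ (isIntegral_hom hE hL φ)
  haveI : FundamentalIdentity k E L := hFI
  have h1 := FundamentalIdentity.sum_ramificationIndex_mul_deg (K := k) (F := E) (F' := L)
    (w.restrict E)
  rw [hdegE, Nat.cast_one, mul_one] at h1
  have h2 : ((w.ramificationIndex E : ℕ) : ℤ) * (w.deg : ℤ)
      ≤ ∑ w' ∈ (w.restrict E).fiber L, ((w'.ramificationIndex E : ℕ) : ℤ) * (w'.deg : ℤ) :=
    Finset.single_le_sum (f := fun w' : Place k L => ((w'.ramificationIndex E : ℕ) : ℤ) * (w'.deg : ℤ))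
      (fun w' _ => mul_nonneg (Int.natCast_nonneg _) (Int.natCast_nonneg _))
      (Place.restrict_mem_fiber w)
  rw [h1, hdegL, Nat.cast_one, mul_one] at h2
  have h3 : (w.ramificationIndex E : ℕ) ≤ Module.finrank E L := by exact_mod_cast h2
  exact h3

/-- Divisibility of all orders by a prime `p > [L : E]` descends from `L` to `E`. -/
theorem dvd_ord_of_dvd_above (hE : IsFF k E) (hL : IsFF k L) (φ : E →ₐ[k] L)
    (p : ℕ) (hp : p.Prime)
    (hdeg : @Module.finrank E L _ _ (algebraAlong φ).toModule < p)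
    (g : E) (h : ∀ w : Place k L, (p : ℤ) ∣ w.ord (φ g)) (v : Place k E) :
    (p : ℤ) ∣ v.ord g := by
  obtain ⟨w, rfl⟩ := exists_place_above hE hL φ v
  have h1 := Place.ord_restrictAlong φ (isIntegral_hom hE hL φ) w g
  have h2 := h w
  rw [h1] at h2
  have he := ramificationIndexAlong_le hE hL φ w
  have hpos : 0 < Place.ramificationIndexAlong φ w := by
    letI := algebraAlong φ
    haveI := isScalarTower_along φ
    haveI := isIntegral_along φ (isIntegral_hom hE hL φ)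
    exact w.ramificationIndex_pos (F := E)
  have hpZ : Prime (p : ℤ) := Nat.prime_iff_prime_int.mp hp
  rcases hpZ.dvd_or_dvd h2 with h3 | h3
  · exfalso
    have h4 : p ∣ Place.ramificationIndexAlong φ w := by exact_mod_cast h3
    have h5 := Nat.le_of_dvd hpos h4
    omega
  · exact h3

end Abs

section Inter

variable {k 𝕃 : Type} [Field k] [Field 𝕃] [Algebra k 𝕃] [IsAlgClosed k]

/-- Descent of divisibility of orders for two intermediate fields `K₁ ≤ K₂`. -/
theorem dvd_ord_intermediate {K₁ K₂ : IntermediateField k 𝕃} (hle : K₁ ≤ K₂)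
    (h₁ : IsFF k ↥K₁) (h₂ : IsFF k ↥K₂) (p : ℕ) (hp : p.Prime)
    (hdeg : K₁.relfinrank K₂ < p) (g₁ : ↥K₁) (g₂ : ↥K₂) (hg : (g₂ : 𝕃) = (g₁ : 𝕃))
    (h : ∀ Q' : Place k ↥K₂, (p : ℤ) ∣ Q'.ord g₂) (Q : Place k ↥K₁) :
    (p : ℤ) ∣ Q.ord g₁ := by
  have e : IntermediateField.inclusion hle g₁ = g₂ := Subtype.ext hg.symm
  refine dvd_ord_of_dvd_above h₁ h₂ (IntermediateField.inclusion hle) p hp ?_ g₁ ?_ Q
  · rw [Fermat.Agent.RED.H51.finrank_along_inclusion hle]
    exact hdeg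
  · intro w
    rw [e]
    exact h w

end Inter

/-! ## The modular part -/

section Modular

open Fermat.Agent.BAD Fermat.Agent.S28.H73 Fermat.Agent.RED.H73

variable (A : ValuationSubring (AlgebraicClosure ℚ))

/-- The reduced function field of level `N`. -/
abbrev redN (N : ℕ) : IntermediateField (kV A) (LaurentSeries (kV A)) :=
  redField A (FNbar N) (hasScale_laurentBaseChange A N)

variable {A}

/-- The reduced fields of levels `M q` and `M` coincide (`q ∤ M`). -/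
theorem redN_mul_eq {q M : ℕ} (hq : q.Prime) (hqM : ¬ q ∣ M) [NeZero (M * q)]
    (hA : A.LiesOverPrime q) : redN A (M * q) = redN A M := by
  have hcop : IsCoprime (q : ℤ) (M : ℤ) :=
    Nat.isCoprime_iff_coprime.mpr ((Nat.Prime.coprime_iff_not_dvd hq).mpr hqM)
  obtain ⟨a, b, hab⟩ := hcop
  exact Fermat.Agent.BAD.H82.redField_eq_redField q M a b hab hq A hA

/-- The reduced field of a level prime to `q` is a function field. -/
theorem isFF_redN_of_not_dvd {q N : ℕ} [NeZero N] (hq : q.Prime) (hqN : ¬ q ∣ N)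
    (hA : A.LiesOverPrime q) : IsFF (kV A) ↥(redN A N) :=
  isFF_redField_bar N q hq hqN A hA

/-- Degree bound at levels prime to `q`. -/
theorem relfinrank_redN_le {q M r : ℕ} [NeZero M] [NeZero (M * r)] (hq : q.Prime)
    (hr : r.Prime) (hrq : r ≠ q) (hqM : ¬ q ∣ M) (hA : A.LiesOverPrime q) :
    (redN A M).relfinrank (redN A (M * r)) ≤ r + 1 := by
  have hqMr : ¬ q ∣ M * r := by
    intro h
    rcases (Nat.Prime.dvd_mul hq).mp h with h | h
    · exact hqM h
    · exact hrq ((Nat.prime_dvd_prime_iff_eq hq hr).mp h).symm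
  have h1 := Fermat.Agent.RED.H36.relfinrank_level_eq (N := M) (M := M * r) (Dvd.intro r rfl) hq
    hqMr A hA
  show (redField A (modularFunctionFieldBar M) (hasScale_laurentBaseChange A M)).relfinrank
    (redField A (modularFunctionFieldBar (M * r)) (hasScale_laurentBaseChange A (M * r))) ≤ r + 1
  rw [← h1]
  by_cases hrM : r ∣ M
  · rw [Fermat.Agent.S36.NU.H82.relfinrank_FM_FN_of_dvd r M hr hrM]
    exact Nat.le_succ r
  · rw [Fermat.Agent.BAD.H82.relfinrank_FM_FN r M hr hrM]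

/-- **DESC**, for levels `N` with `q ^ 2 ∤ N`: the statement `Stmt_CE_Desc` of helper60 with the
extra hypothesis `¬ q ^ 2 ∣ N` (no tameness hypothesis). -/
def Stmt_CE_Desc' : Prop :=
  ∀ (p : ℕ), p.Prime → 5 ≤ p → ∀ (q : ℕ), q.Prime →
    ∀ (N N' r : ℕ) [NeZero N] [NeZero N'], (r = 2 ∨ r = 3) → r ≠ q → N' = r * N →
    ¬ q ^ 2 ∣ N →
    ∀ A : ValuationSubring (AlgebraicClosure ℚ), A.LiesOverPrime q →
    ∀ (f : ↥(gaussV A N)) (f' : ↥(gaussV A N')),
      (((f' : ↥(gaussV A N')) : ↥(FNbar N')) : LaurentSeries (AlgebraicClosure ℚ)) =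
        (((f : ↥(gaussV A N)) : ↥(FNbar N)) : LaurentSeries (AlgebraicClosure ℚ)) →
      (∀ Q' : Place (kV A) ↥(redField A (FNbar N') (hasScale_laurentBaseChange A N')),
        (p : ℤ) ∣ Q'.ord (gaussRes A N' f')) →
      ∀ Q : Place (kV A) ↥(redField A (FNbar N) (hasScale_laurentBaseChange A N)),
        (p : ℤ) ∣ Q.ord (gaussRes A N f)

theorem not_dvd_mul_of_ne {q M r : ℕ} (hq : q.Prime) (hr : r.Prime) (hrq : r ≠ q)
    (hqM : ¬ q ∣ M) : ¬ q ∣ M * r := by
  intro h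
  rcases (Nat.Prime.dvd_mul hq).mp h with h | h
  · exact hqM h
  · exact hrq ((Nat.prime_dvd_prime_iff_eq hq hr).mp h).symm

/-- **DESC**. -/
theorem stmt_CE_Desc' : Stmt_CE_Desc' := by
  intro p hp hp5 q hq N N' r _ _ hr hrq hN' hq2 A hA f f' hff' h Q
  haveI : IsAlgClosed (kV A) := isAlgClosed_kV A
  have hrP : r.Prime := by rcases hr with rfl | rfl <;> norm_num
  have hr3 : r ≤ 3 := by rcases hr with rfl | rfl <;> norm_num
  have hr0 : r ≠ 0 := hrP.ne_zero
  have hNN' : N ∣ N' := ⟨r, by rw [hN', mul_comm]⟩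
  have hle : redN A N ≤ redN A N' :=
    Fermat.Agent.RED.H51.redField_mono A (S18.modularFunctionFieldBar_mono hNN') _ _
  have hg : ((gaussRes A N' f' : ↥(redN A N')) : LaurentSeries (kV A))
      = ((gaussRes A N f : ↥(redN A N)) : LaurentSeries (kV A)) := by
    show gaussResF A (hasScale_laurentBaseChange A N') f'
      = gaussResF A (hasScale_laurentBaseChange A N) f
    rw [gaussResF_apply, gaussResF_apply]
    congr 1
    exact Subtype.ext hff'
  obtain ⟨h₁, h₂, hdeg⟩ : IsFF (kV A) ↥(redN A N) ∧ IsFF (kV A) ↥(redN A N') ∧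
      (redN A N).relfinrank (redN A N') ≤ r + 1 := by
    by_cases hqN : q ∣ N
    · obtain ⟨M, hM⟩ := hqN
      have hNM : N = M * q := by rw [hM, mul_comm]
      have hN'M : N' = M * r * q := by rw [hN', hNM]; ring
      subst hNM
      subst hN'M
      have hqM : ¬ q ∣ M := by
        intro hd
        apply hq2
        rw [pow_two]
        exact Nat.mul_dvd_mul hd (dvd_refl q)
      have hM0 : NeZero M := ⟨fun h0 => NeZero.ne (M * q) (by rw [h0, zero_mul])⟩
      have hMr0 : NeZero (M * r) := ⟨Nat.mul_ne_zero (NeZero.ne M) hr0⟩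
      have hqMr : ¬ q ∣ M * r := not_dvd_mul_of_ne hq hrP hrq hqM
      rw [redN_mul_eq hq hqM hA, redN_mul_eq hq hqMr hA]
      exact ⟨isFF_redN_of_not_dvd hq hqM hA, isFF_redN_of_not_dvd hq hqMr hA,
        relfinrank_redN_le hq hrP hrq hqM hA⟩
    · have hN'' : N' = N * r := by rw [hN', mul_comm]
      subst hN''
      have hqNr : ¬ q ∣ N * r := not_dvd_mul_of_ne hq hrP hrq hqN
      exact ⟨isFF_redN_of_not_dvd hq hqN hA, isFF_redN_of_not_dvd hq hqNr hA,
        relfinrank_redN_le hq hrP hrq hqN hA⟩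
  exact dvd_ord_intermediate hle h₁ h₂ p hp (by omega) (gaussRes A N f) (gaussRes A N' f') hg h Q

end Modular

end Fermat.Agent.S43.CompEis.H57

end
end
-- ==== END Fermat.Agent.S43.CompEis.H57_Desc

-- ==== BEGIN Fermat.Agent.S43.CompEis.H60_Defs2
section

set_option autoImplicit false
set_option synthInstance.maxHeartbeats 400000
set_option maxHeartbeats 1000000

noncomputable section

open AlgebraicCurve ModularCurve

namespace Fermat.Agent.S43.CompEis.H60

open Fermat.Agent.BAD Fermat.Agent.S44 Fermat.Agent.S28.H73 Fermat.Agent.RED.H73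
open Fermat.Agent.S43.BadQ

/-- **HECKE**: the eigenvector condition on Kummer functions. -/
def Stmt_CE_Hecke (q M : ℕ) (a b : ℤ) (hab : a * q + b * M = 1) (hq : q.Prime)
    [NeZero (M * q)] : Prop :=
  ∀ A : ValuationSubring (AlgebraicClosure ℚ), A.LiesOverPrime q →
    ∀ (p : ℕ), p.Prime → ∀ ℓ : Nat.Primes, ¬ (ℓ : ℕ) ∣ M * q →
    ∀ (t : ℤ) (x : JZero (M * q)), (p : ℤ) • x = 0 →
      (∀ σ ∈ A.inertiaSubgroupIn ℚ, σ • x = x) →
      heckeOperatorBar (M * q) ℓ x = t • x →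
      ∃ (D : Divisor.degZero (K := AlgebraicClosure ℚ) (F := ↥(FNbar (M * q))))
        (f g : ↥(FNbar (M * q))) (c : AlgebraicClosure ℚ) (t₀ : ℕ),
        f ≠ 0 ∧ g ≠ 0 ∧ c ≠ 0 ∧ x = Pic0.mk D ∧
        (∀ P : Place (AlgebraicClosure ℚ) ↥(FNbar (M * q)),
          (p : ℤ) * (D : Divisor (AlgebraicClosure ℚ) ↥(FNbar (M * q))) P = P.ord f) ∧
        (∀ σ ∈ A.inertiaSubgroupIn ℚ, galF (M * q) σ • f = f) ∧
        (∀ σ ∈ A.inertiaSubgroupIn ℚ, galF (M * q) σ • g = g) ∧
        ((t₀ : ℤ) : ZMod p) = (t : ZMod p) ∧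
        ∀ k : ℤ, HasSlope A q M a b hab hq f k →
          HasSlope A q M a b hab hq
            (algebraMap (AlgebraicClosure ℚ) ↥(FNbar (M * q)) c * f ^ t₀ * g ^ p)
            (((ℓ : ℕ) + 1 : ℤ) * k)

end Fermat.Agent.S43.CompEis.H60

end
end
-- ==== END Fermat.Agent.S43.CompEis.H60_Defs2

-- ==== BEGIN Fermat.Agent.S43.CompEis.H60_Slope
section

set_option autoImplicit false
set_option synthInstance.maxHeartbeats 400000
set_option maxHeartbeats 1000000

noncomputable section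

open AlgebraicCurve ModularCurve

namespace Fermat.Agent.S43.CompEis.H60

open Fermat.Agent.BAD Fermat.Agent.S44 Fermat.Agent.S28.H73 Fermat.Agent.RED.H73
open Fermat.Agent.S43.BadQ

section GU

variable {A : ValuationSubring (AlgebraicClosure ℚ)} {N : ℕ}

theorem IsGaussUnit.ne_zero {φ : ↥(FNbar N)} (h : IsGaussUnit A N φ) : φ ≠ 0 := h.1

theorem IsGaussUnit.mem {φ : ↥(FNbar N)} (h : IsGaussUnit A N φ) : φ ∈ gaussV A N := h.2.1

theorem IsGaussUnit.inv_mem {φ : ↥(FNbar N)} (h : IsGaussUnit A N φ) : φ⁻¹ ∈ gaussV A N :=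
  h.2.2

theorem isGaussUnit_one : IsGaussUnit A N (1 : ↥(FNbar N)) :=
  ⟨one_ne_zero, (gaussV A N).one_mem, by rw [inv_one]; exact (gaussV A N).one_mem⟩

theorem IsGaussUnit.mul {φ ψ : ↥(FNbar N)} (h₁ : IsGaussUnit A N φ) (h₂ : IsGaussUnit A N ψ) :
    IsGaussUnit A N (φ * ψ) :=
  ⟨mul_ne_zero h₁.1 h₂.1, (gaussV A N).mul_mem _ _ h₁.2.1 h₂.2.1, by
    rw [mul_inv]; exact (gaussV A N).mul_mem _ _ h₁.2.2 h₂.2.2⟩

theorem IsGaussUnit.inv {φ : ↥(FNbar N)} (h : IsGaussUnit A N φ) : IsGaussUnit A N φ⁻¹ :=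
  ⟨inv_ne_zero h.1, h.2.2, by rw [inv_inv]; exact h.2.1⟩

theorem IsGaussUnit.div {φ ψ : ↥(FNbar N)} (h₁ : IsGaussUnit A N φ) (h₂ : IsGaussUnit A N ψ) :
    IsGaussUnit A N (φ / ψ) := by
  rw [div_eq_mul_inv]; exact h₁.mul h₂.inv

theorem IsGaussUnit.pow {φ : ↥(FNbar N)} (h : IsGaussUnit A N φ) (n : ℕ) :
    IsGaussUnit A N (φ ^ n) := by
  induction n with
  | zero => rw [pow_zero]; exact isGaussUnit_one
  | succ n ih => rw [pow_succ]; exact ih.mul h

/-- A constant is a Gauss unit iff its valuation is `1`. -/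
theorem isGaussUnit_const_iff (c : AlgebraicClosure ℚ) :
    IsGaussUnit A N (algebraMap (AlgebraicClosure ℚ) ↥(FNbar N) c) ↔ A.valuation c = 1 := by
  constructor
  · rintro ⟨h0, h1, h2⟩
    have hc0 : c ≠ 0 := by
      rintro rfl
      exact h0 (map_zero _)
    have hc : c ∈ A :=
      (algebraMap_mem_gaussValSub_iff A (hasScale_laurentBaseChange A N) c).mp h1
    rw [← map_inv₀] at h2
    have hc' : c⁻¹ ∈ A :=
      (algebraMap_mem_gaussValSub_iff A (hasScale_laurentBaseChange A N) c⁻¹).mp h2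
    have e1 : A.valuation c ≤ 1 := (A.valuation_le_one_iff c).mpr hc
    have e2 : A.valuation c⁻¹ ≤ 1 := (A.valuation_le_one_iff c⁻¹).mpr hc'
    rw [map_inv₀] at e2
    have hv0 : A.valuation c ≠ 0 := (Valuation.ne_zero_iff _).mpr hc0
    have e3 : 1 ≤ A.valuation c := by
      have := (inv_le_one₀ (zero_lt_iff.mpr hv0)).mp e2
      exact this
    exact le_antisymm e1 e3
  · intro hv
    have hc0 : c ≠ 0 := by
      rintro rfl
      rw [map_zero] at hv
      exact zero_ne_one hv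
    have hc : c ∈ A := (A.valuation_le_one_iff c).mp hv.le
    have hc' : c⁻¹ ∈ A := by
      apply (A.valuation_le_one_iff c⁻¹).mp
      rw [map_inv₀, hv, inv_one]
    refine ⟨(map_ne_zero _).mpr hc0, ?_, ?_⟩
    · exact (algebraMap_mem_gaussValSub_iff A (hasScale_laurentBaseChange A N) c).mpr hc
    · rw [← map_inv₀]
      exact (algebraMap_mem_gaussValSub_iff A (hasScale_laurentBaseChange A N) c⁻¹).mpr hc'

/-- Two scalings of the same function have the same valuation. -/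
theorem IsGaussUnit.valuation_eq {φ : ↥(FNbar N)} {c d : AlgebraicClosure ℚ}
    (h₁ : IsGaussUnit A N (algebraMap (AlgebraicClosure ℚ) ↥(FNbar N) c * φ))
    (h₂ : IsGaussUnit A N (algebraMap (AlgebraicClosure ℚ) ↥(FNbar N) d * φ)) :
    A.valuation c = A.valuation d := by
  have hφ : φ ≠ 0 := right_ne_zero_of_mul h₁.1
  have hd0 : d ≠ 0 := by
    rintro rfl
    exact h₂.1 (by rw [map_zero, zero_mul])
  have hdF : algebraMap (AlgebraicClosure ℚ) ↥(FNbar N) d ≠ 0 := (map_ne_zero _).mpr hd0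
  have h3 := h₁.div h₂
  have e : algebraMap (AlgebraicClosure ℚ) ↥(FNbar N) c * φ /
      (algebraMap (AlgebraicClosure ℚ) ↥(FNbar N) d * φ)
      = algebraMap (AlgebraicClosure ℚ) ↥(FNbar N) (c / d) := by
    rw [map_div₀]
    field_simp
  rw [e] at h3
  have h4 := (isGaussUnit_const_iff (A := A) (N := N) (c / d)).mp h3
  rw [map_div₀] at h4
  have hv0 : A.valuation d ≠ 0 := (Valuation.ne_zero_iff _).mpr hd0
  exact (div_eq_one_iff_eq hv0).mp h4

end GU

section Slope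

variable {A : ValuationSubring (AlgebraicClosure ℚ)}
variable {q M : ℕ} {a b : ℤ} {hab : a * q + b * M = 1} {hq : q.Prime} [NeZero (M * q)]

theorem wS_smul_algebraMap (c : AlgebraicClosure ℚ) :
    wS q M a b hab hq • algebraMap (AlgebraicClosure ℚ) ↥(FNbar (M * q)) c
      = algebraMap (AlgebraicClosure ℚ) ↥(FNbar (M * q)) c := by
  rw [SemilinearAut.smul_algebraMap]
  rfl

theorem wS_smul_ne_zero {φ : ↥(FNbar (M * q))} (h : φ ≠ 0) : wS q M a b hab hq • φ ≠ 0 := by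
  intro h0
  apply h
  have h1 := congrArg (fun z => (wS q M a b hab hq)⁻¹ • z) h0
  simp only [inv_smul_smul, smul_zero] at h1
  exact h1

theorem valuation_q_lt_one (hA : A.LiesOverPrime q) :
    A.valuation (q : AlgebraicClosure ℚ) < 1 :=
  (A.mem_nonunits_iff).mp hA

theorem valuation_q_ne_zero (hq : q.Prime) : A.valuation (q : AlgebraicClosure ℚ) ≠ 0 :=
  (Valuation.ne_zero_iff _).mpr (Nat.cast_ne_zero.mpr hq.ne_zero)

theorem HasSlope.ne_zero {φ : ↥(FNbar (M * q))} {k : ℤ} (h : HasSlope A q M a b hab hq φ k) :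
    φ ≠ 0 := by
  obtain ⟨c₁, c₂, h₁, -, -⟩ := h
  exact right_ne_zero_of_mul h₁.1

/-- The slope is unique. -/
theorem HasSlope.unique (hA : A.LiesOverPrime q) {φ : ↥(FNbar (M * q))} {k k' : ℤ}
    (h : HasSlope A q M a b hab hq φ k) (h' : HasSlope A q M a b hab hq φ k') : k = k' := by
  obtain ⟨c₁, c₂, h₁, h₂, hv⟩ := h
  obtain ⟨d₁, d₂, g₁, g₂, hw⟩ := h'
  have e₁ := h₁.valuation_eq g₁
  have e₂ := h₂.valuation_eq g₂
  rw [e₁, e₂, hw] at hv
  have hd0 : d₂ ≠ 0 := by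
    rintro rfl
    exact g₂.1 (by rw [map_zero, zero_mul])
  have hv0 : A.valuation d₂ ≠ 0 := (Valuation.ne_zero_iff _).mpr hd0
  have h3 := mul_left_cancel₀ hv0 hv
  have hq0 := valuation_q_ne_zero (A := A) hq
  exact (zpow_right_injective₀ (zero_lt_iff.mpr hq0) (valuation_q_lt_one hA).ne h3).symm

/-- Constants have slope `0`. -/
theorem hasSlope_const {c : AlgebraicClosure ℚ} (hc : c ≠ 0) :
    HasSlope A q M a b hab hq (algebraMap (AlgebraicClosure ℚ) ↥(FNbar (M * q)) c) 0 := by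
  have h1 : IsGaussUnit A (M * q)
      (algebraMap (AlgebraicClosure ℚ) ↥(FNbar (M * q)) c⁻¹ *
        algebraMap (AlgebraicClosure ℚ) ↥(FNbar (M * q)) c) := by
    rw [← map_mul, inv_mul_cancel₀ hc, map_one]
    exact isGaussUnit_one
  refine ⟨c⁻¹, c⁻¹, h1, ?_, ?_⟩
  · rw [wS_smul_algebraMap]
    exact h1
  · rw [zpow_zero, mul_one]

/-- Slopes add. -/
theorem HasSlope.mul {φ ψ : ↥(FNbar (M * q))} {k j : ℤ}
    (h : HasSlope A q M a b hab hq φ k) (h' : HasSlope A q M a b hab hq ψ j) :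
    HasSlope A q M a b hab hq (φ * ψ) (k + j) := by
  obtain ⟨c₁, c₂, h₁, h₂, hv⟩ := h
  obtain ⟨d₁, d₂, g₁, g₂, hw⟩ := h'
  refine ⟨c₁ * d₁, c₂ * d₂, ?_, ?_, ?_⟩
  · have := h₁.mul g₁
    rw [map_mul]
    convert this using 1
    ring
  · have := h₂.mul g₂
    rw [map_mul, smul_mul']
    convert this using 1
    ring
  · rw [map_mul, map_mul, hv, hw, zpow_add₀ (valuation_q_ne_zero (A := A) hq)]
    exact mul_mul_mul_comm _ _ _ _

/-- Slopes of powers. -/
theorem HasSlope.pow {φ : ↥(FNbar (M * q))} {k : ℤ}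
    (h : HasSlope A q M a b hab hq φ k) (n : ℕ) :
    HasSlope A q M a b hab hq (φ ^ n) (n * k) := by
  induction n with
  | zero =>
    rw [pow_zero, Nat.cast_zero, zero_mul]
    have := hasSlope_const (A := A) (q := q) (M := M) (a := a) (b := b) (hab := hab) (hq := hq)
      (one_ne_zero (α := AlgebraicClosure ℚ))
    rwa [map_one] at this
  | succ n ih =>
    rw [pow_succ]
    have := ih.mul h
    convert this using 1
    push_cast
    ring

end Slope

end Fermat.Agent.S43.CompEis.H60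

end
end
-- ==== END Fermat.Agent.S43.CompEis.H60_Slope

-- ==== BEGIN Fermat.Agent.S43.CompEis.H80_WUp
section

set_option autoImplicit false
set_option synthInstance.maxHeartbeats 400000
set_option maxHeartbeats 1000000
set_option linter.unusedSectionVars false

noncomputable section

open AlgebraicCurve ModularCurve

namespace Fermat.Agent.S43.CompEis.H80

open Fermat.Agent.BAD Fermat.Agent.S24 Fermat.Agent.BAD.H88 Fermat.Agent.S43.BadQ

theorem wup_neZero_R (q M R : ℕ) [NeZero (M * R * q)] : NeZero R :=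
  ⟨fun h => NeZero.ne (M * R * q) (by rw [h, mul_zero, zero_mul])⟩

section

variable (q M R : ℕ) [NeZero (M * q)] [NeZero (M * R * q)]

theorem wup_le : FNbar (M * q) ≤ FNbar (M * R * q) := by
  have : NeZero R := wup_neZero_R q M R
  have h1 : M * R * q = M * q * R := by ring
  rw [h1]
  intro x hx
  have h2 := (heckeAlphaBar Kbar (M * q) R ⟨x, hx⟩).2
  rw [coe_heckeAlphaBar] at h2
  exact h2

/-- The inclusion `F_{M q} → F_{M R q}`. -/
def wupIncl : FN (M * q) →ₐ[Kbar] FN (M * R * q) :=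
  IntermediateField.inclusion (wup_le q M R)

theorem coe_wupIncl (x : FN (M * q)) :
    ((wupIncl q M R x : FN (M * R * q)) : LaurentSeries Kbar) = (x : LaurentSeries Kbar) :=
  IntermediateField.coe_inclusion (wup_le q M R) x

theorem wupIncl_jdF (D : ℕ) [NeZero D] (hD : D ∣ M * q) (hD' : D ∣ M * R * q) :
    wupIncl q M R (jdF (M * q) D hD) = jdF (M * R * q) D hD' :=
  Subtype.ext (coe_wupIncl q M R _)

variable (a b : ℤ) (hab : a * q + b * M = 1) (a' b' : ℤ)
  (hab' : a' * q + b' * ((M * R : ℕ) : ℤ) = 1) (hq : q.Prime)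

include hab hab' hq in
theorem wup_comp :
    (wq q (M * R) a' b' hab' hq).toAlgHom.comp (wupIncl q M R) =
      (wupIncl q M R).comp (wq q M a b hab hq).toAlgHom := by
  have hR : NeZero R := wup_neZero_R q M R
  apply algHom_ext_of_adjoin _ (adjoin_jdF (M * q))
  rintro x ⟨D, hD0, hD, rfl⟩
  rw [AlgHom.comp_apply, AlgHom.comp_apply]
  rcases dvd_cases q M a b hab hq D hD with ⟨e, he⟩ | ⟨d, e, rfl, he⟩
  · have : NeZero (D * q) := ⟨(Nat.mul_pos (Nat.pos_of_ne_zero (NeZero.ne D)) hq.pos).ne'⟩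
    have hDM : D ∣ M := ⟨e, he⟩
    have hDMR : D ∣ M * R := Dvd.dvd.mul_right hDM R
    have h1 : (wq q M a b hab hq).toAlgHom (jdF (M * q) D hD)
        = jdF (M * q) (D * q) (Nat.mul_dvd_mul_right hDM q) :=
      wqHom_jdF q M a b hab hq D hDM
    have h2 : (wq q (M * R) a' b' hab' hq).toAlgHom
        (jdF (M * R * q) D (Dvd.dvd.mul_right hDMR q))
        = jdF (M * R * q) (D * q) (Nat.mul_dvd_mul_right hDMR q) :=
      wqHom_jdF q (M * R) a' b' hab' hq D hDMR
    rw [h1, wupIncl_jdF q M R D hD (Dvd.dvd.mul_right hDMR q), h2,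
      wupIncl_jdF q M R (D * q) _ (Nat.mul_dvd_mul_right hDMR q)]
  · have hdpos : 0 < d := by
      rcases Nat.eq_zero_or_pos d with h | h
      · exfalso; apply NeZero.ne (d * q); rw [h, zero_mul]
      · exact h
    have : NeZero d := ⟨hdpos.ne'⟩
    have hdM : d ∣ M := ⟨e, he⟩
    have hdMR : d ∣ M * R := Dvd.dvd.mul_right hdM R
    have h1 : (wq q M a b hab hq).toAlgHom (jdF (M * q) (d * q) hD)
        = jdF (M * q) d (Dvd.dvd.mul_right hdM q) :=
      wqHom_jdF_mul q M a b hab hq d hdM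
    have h2 : (wq q (M * R) a' b' hab' hq).toAlgHom
        (jdF (M * R * q) (d * q) (Nat.mul_dvd_mul_right hdMR q))
        = jdF (M * R * q) d (Dvd.dvd.mul_right hdMR q) :=
      wqHom_jdF_mul q (M * R) a' b' hab' hq d hdMR
    rw [h1, wupIncl_jdF q M R (d * q) hD (Nat.mul_dvd_mul_right hdMR q), h2,
      wupIncl_jdF q M R d _ (Dvd.dvd.mul_right hdMR q)]

end

/-- **W-UP**. -/
theorem stmt_CE_WUp : H60.Stmt_CE_WUp := by
  intro q M R a b hab a' b' hab' hq _ _ x y hxy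
  have hy : y = wupIncl q M R x := Subtype.ext (hxy.trans (coe_wupIncl q M R x).symm)
  rw [hy]
  have h := congrArg (fun f : FN (M * q) →ₐ[Kbar] FN (M * R * q) => f x)
    (wup_comp q M R a b hab a' b' hab' hq)
  have h2 := congrArg (fun z : FN (M * R * q) => (z : LaurentSeries Kbar)) h
  simp only [AlgHom.comp_apply] at h2
  rw [coe_wupIncl] at h2
  exact h2

end Fermat.Agent.S43.CompEis.H80

end
end
-- ==== END Fermat.Agent.S43.CompEis.H80_WUp
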