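-- GENERATED (merged mirror, NOTES/tools/trim/merge3_helper67.py): 16 modules of the originals, bodies verbatim.
import Fermat.Statements.S54
import Fermat.Statements.S57
import Fermat.Prelude.Def_GaloisRep_Flat
import Fermat.Prelude.Def_GaloisRep_ResidualEquiv
import Fermat.Agent.Zm.S43_L01_003
import Fermat.Agent.Zm.S35_L11_001
import Fermat.Agent.Zm.S44_L08_000
import Fermat.Agent.Zm.S35_L05_001
import Fermat.Agent.Zm.S35_L12_001
import Fermat.Agent.Zm.S35_L15_001
import Fermat.Agent.Zm.S35_L02_002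
import Fermat.Agent.Zm.S35_L15_000
import Fermat.Agent.Zm.S35_L08_000
import Fermat.Agent.Zm.S36_L02_001
import Fermat.Agent.Zm.S35_L24_000
import Fermat.Agent.Zm.S56_L02_001
import Fermat.Agent.Zm.S43_L01_004
import Fermat.Agent.Zm.S35_L02_001
import Fermat.Agent.S57.H51_FreeOfRegular
import Fermat.Agent.S57.H90_PowerSeriesRegular
import Fermat.Agent.Zm.S33_L02_003
import Fermat.Agent.R.H91_Lucas
import Fermat.Agent.Zm.S35_L04_002
import Fermat.Agent.Zm.S33_L01_002
import Fermat.Agent.Zm.S56_L08_004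

-- ==== BEGIN Fermat.Agent.S33.New.H86_K1Core
section
attribute [local instance 10000] SubalgebraClass.toAlgebra
attribute [local instance 10000] HahnSeries.powerSeriesAlgebra

/-!
# S33 / S59, package STRICT: the `K1`-test from the Kummer form of (FROB2)  (helper86)

* `k1Test_of_core : H36.Frob2Core A M p g → H54.K1Test A M p g`.

For a `p`-new class `x = [D₁]` killed by `n = p^k`, write `n D₁ = div f₀`; the norms of `f₀` along
the two degeneracy maps are `n`-th powers up to constants, so (FROB2) gives `c`, `t` with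
`f = c (g f₀ / f₀) t^n` in the Gauss valuation ring with reduction `1`.  Then
`D = g D₁ - D₁ + div t` represents `g x - x` and `n D = div f`.
-/

set_option autoImplicit false
set_option linter.style.haveILetI false
set_option linter.unusedSectionVars false

noncomputable section

open AlgebraicCurve ModularCurve Fermat.Agent.S28.H73 Fermat.Agent.RED.H73

namespace Fermat.Agent.S33.New.H86

open Fermat.Agent.BAD Fermat.Agent.S36.H44

local notation "Kb" => AlgebraicClosure ℚ

/-- **The `K1`-test from (FROB2), Kummer form.** -/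
theorem k1Test_of_core (A : ValuationSubring Kb) (M p : ℕ) [NeZero M] [NeZero p] (g : GalQ)
    (h : H36.Frob2Core A M p g) : H54.K1Test A M p g := by
  intro k x hx hnew
  obtain ⟨D₁, rfl⟩ := Pic0.mk_surjective x
  obtain ⟨f₀, hf0, hfD⟩ := H91.exists_kummer_of_nsmul_eq_zero (M * p) (p ^ k) D₁ hx
  obtain ⟨h1, h2⟩ := (isQNew_iff M p _).1 hnew
  have hα := (pic0Push_mk_eq_zero_iff (heckeAlphaBar Kb M p) (alpha_integral M p)
    (alpha_finite M p) (alpha_norm M p) D₁).1 h1
  have hβ := (pic0Push_mk_eq_zero_iff (heckeBetaBar Kb M p) (beta_integral M p)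
    (beta_finite M p) (beta_norm M p) D₁).1 h2
  have hNα := isNormPow_of_isPrincipal (ffHyp_FNbar M) (heckeAlphaBar Kb M p)
    (alpha_integral M p) (alpha_finite M p) (alpha_norm M p) (p ^ k) _ _ hf0 hfD hα
  have hNβ := isNormPow_of_isPrincipal (ffHyp_FNbar M) (heckeBetaBar Kb M p)
    (beta_integral M p) (beta_finite M p) (beta_norm M p) (p ^ k) _ _ hf0 hfD hβ
  obtain ⟨c, t, hc, ht, hmem, hres⟩ := h k f₀ hf0 (fun P => ⟨_, (hfD P).symm⟩) hNα hNβ
  haveI := Fermat.Agent.GTor.H33.hasPrincipalDivisors_FN (M * p)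
  obtain ⟨E, hE, hdeg⟩ := HasPrincipalDivisors.exists_divisor (K := Kb)
    (F := ↥(FNbar (M * p))) t ht
  let E' : Divisor.degZero (K := Kb) (F := ↥(FNbar (M * p))) := ⟨E, Divisor.mem_degZero.2 hdeg⟩
  have hE0 : (Pic0.mk E' : JZero (M * p)) = 0 :=
    (QuotientAddGroup.eq_zero_iff _).2 (AddSubgroup.mem_addSubgroupOf.2 ⟨t, ht, hE⟩)
  have hσf0 : galF (M * p) g • f₀ ≠ 0 := by
    intro h0
    apply hf0
    have h1 := congrArg (fun z => (galF (M * p) g)⁻¹ • z) h0
    simp only [inv_smul_smul, smul_zero] at h1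
    exact h1
  refine ⟨SemilinearAut.degZeroSMulHom (galF (M * p) g) D₁ - D₁ + E', ⟨_, hmem⟩, ?_, hres,
    fun P => ?_⟩
  · show galF (M * p) g • (Pic0.mk D₁) - Pic0.mk D₁ = _
    rw [SemilinearAut.pic0_smul_mk, Pic0.mk_add, hE0, add_zero]
    rfl
  · have e : ((SemilinearAut.degZeroSMulHom (galF (M * p) g) D₁ - D₁ + E' :
        Divisor.degZero (K := Kb) (F := ↥(FNbar (M * p)))) : Divisor Kb ↥(FNbar (M * p))) P
        = (D₁ : Divisor Kb ↥(FNbar (M * p))) ((galF (M * p) g)⁻¹ • P)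
          - (D₁ : Divisor Kb ↥(FNbar (M * p))) P + P.ord t := by
      rw [AddSubgroup.coe_add, AddSubgroup.coe_sub, SemilinearAut.coe_degZeroSMulHom,
        Finsupp.add_apply, Finsupp.sub_apply, SemilinearAut.divisor_smul_apply]
      congr 1
      exact hE P
    have h3 : P.ord (t ^ (p ^ k)) = ((p ^ k : ℕ) : ℤ) * P.ord t := by
      have := Place.ord_zpow P t ((p ^ k : ℕ) : ℤ)
      rw [zpow_natCast] at this
      exact this
    have hc0 : algebraMap Kb ↥(FNbar (M * p)) c ≠ 0 := (map_ne_zero _).2 hc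
    have hq0 : (galF (M * p) g • f₀) / f₀ ≠ 0 := div_ne_zero hσf0 hf0
    show ((p ^ k : ℕ) : ℤ) * _ = P.ord (algebraMap Kb ↥(FNbar (M * p)) c *
      ((galF (M * p) g • f₀) / f₀) * t ^ (p ^ k))
    rw [e, Place.ord_mul _ (mul_ne_zero hc0 hq0) (pow_ne_zero _ ht), Place.ord_mul _ hc0 hq0,
      H91.ord_algebraMap_zero, zero_add, div_eq_mul_inv,
      Place.ord_mul _ hσf0 (inv_ne_zero hf0), Place.ord_inv, H91.ord_galF_smul, h3,
      ← hfD, ← hfD]
    ring

end Fermat.Agent.S33.New.H86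

end
end
-- ==== END Fermat.Agent.S33.New.H86_K1Core

-- ==== BEGIN Fermat.Agent.S43.CompEis.H9_NormVal
section
attribute [local instance 10000] SubalgebraClass.toAlgebra
attribute [local instance 10000] HahnSeries.powerSeriesAlgebra

/-!
# S43, COMP-EIS, leaf NORM-VAL (helper9): `Stmt_CE_NormVal`

`N = M q`, `q ∤ M`, `A` over `q`, `ℓ ∤ N` a prime.  For a Kummer pair `(D, f)` (`n D = div f`) the
pair `(D', f') = (α_* β^* D, N_α (β f))` is a Kummer pair of `T_ℓ [D]` (helper2's
`heckeNormFn`, `correspondence_ord`), `D'` is fixed by the Galois automorphisms fixing `D`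
(`divisor_correspondence_smul`), and

* `gaussUnit_heckeNormFn` : `c f` Gauss unit of level `N`  ⇒  `c ^ (ℓ + 1) f'` Gauss unit;
* `wq_heckeNormFn`        : `w_q (N_α (β f)) = N_α (β (w_q f))`.

The Gauss valuation of level `N ℓ` is the only extension of the Gauss valuation of level `N`:
both residue fields are `k(j(t^d))` for `d ∣ M`, resp. `d ∣ M ℓ` (helper82's (D1)), of relative
degree `ℓ + 1 = [F_{N ℓ} : F_N]`, so the norm maps the Gauss ring to the Gauss ring (helper10's
`stmt_NormRedAbs`).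

This file contains no `sorry`.
-/

set_option autoImplicit false
set_option synthInstance.maxHeartbeats 400000
set_option maxHeartbeats 1000000
set_option linter.unusedSectionVars false
set_option linter.style.haveILetI false

noncomputable section

open AlgebraicCurve ModularCurve IntermediateField

namespace Fermat.Agent.S43.CompEis.H9

open Fermat.Agent.BAD Fermat.Agent.S28.H73 Fermat.Agent.RED.H73 Fermat.Agent.RED
open Fermat.Agent.S43.BadQ Fermat.Agent.S43.CompEis.H60 Fermat.Agent.S24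

/-! ## Abstract part: the norm maps the Gauss ring to the Gauss ring -/

section Abs

variable {C : Type} [Field C] (O : ValuationSubring C)
variable {F F' : IntermediateField C (LaurentSeries C)} (hle : F ≤ F')
variable (h : HasScale O F) (h' : HasScale O F')

/-- If `[F' : F] = [F~' : F~]` the norm maps the Gauss ring of `F'` into the Gauss ring of `F`. -/
theorem norm_mem_gaussValSub
    (hfin : FiniteAlong C (IntermediateField.inclusion hle))
    (hdeg : F.relfinrank F' = (redField O F h).relfinrank (redField O F' h'))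
    (y : ↥F') (hy : y ∈ gaussValSub O F' h') :
    (letI := algebraAlong (IntermediateField.inclusion hle); Algebra.norm ↥F y)
      ∈ gaussValSub O F h := by
  letI := algebraAlong (IntermediateField.inclusion hle)
  letI := algebraAlong (IntermediateField.inclusion (H51.redField_mono O hle h h'))
  haveI : Module.Finite ↥F ↥F' := hfin
  obtain ⟨hN, -⟩ := H10.stmt_NormRedAbs ↥F ↥F' ↥(redField O F h) ↥(redField O F' h')
    (gaussValSub O F h) (gaussValSub O F' h') (gaussResF' O h) (gaussResF' O h')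
    (fun a => Iff.rfl) (gaussResF'_surjective O h')
    (fun a => by
      rw [isUnit_iff_gaussResF_ne_zero O h', not_not]
      constructor
      · intro h0
        exact congrArg Subtype.val h0
      · intro h0
        exact Subtype.ext h0)
    (fun a ha => Subtype.ext rfl)
    (by
      rw [H51.finrank_along_inclusion hle,
        H51.finrank_along_inclusion (H51.redField_mono O hle h h'), hdeg])
    ⟨y, hy⟩
  exact hN

/-- Units of the Gauss ring, in the form of `H60.IsGaussUnit`. -/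
def IsGU (x : ↥F) : Prop := x ≠ 0 ∧ x ∈ gaussValSub O F h ∧ x⁻¹ ∈ gaussValSub O F h

/-- If `[F' : F] = [F~' : F~]` the norm maps Gauss units to Gauss units. -/
theorem norm_isGU
    (hfin : FiniteAlong C (IntermediateField.inclusion hle))
    (hdeg : F.relfinrank F' = (redField O F h).relfinrank (redField O F' h'))
    (y : ↥F') (hy : IsGU O h' y) :
    IsGU O h (letI := algebraAlong (IntermediateField.inclusion hle); Algebra.norm ↥F y) := by
  obtain ⟨hy0, hy1, hy2⟩ := hy
  have h1 := norm_mem_gaussValSub O hle h h' hfin hdeg y hy1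
  have h2 := norm_mem_gaussValSub O hle h h' hfin hdeg y⁻¹ hy2
  letI := algebraAlong (IntermediateField.inclusion hle)
  haveI : Module.Finite ↥F ↥F' := hfin
  have hn0 : Algebra.norm ↥F y ≠ 0 := Algebra.norm_ne_zero_iff.mpr hy0
  refine ⟨hn0, h1, ?_⟩
  have e : (Algebra.norm ↥F y)⁻¹ = Algebra.norm ↥F y⁻¹ := by
    have h3 : Algebra.norm ↥F y * Algebra.norm ↥F y⁻¹ = 1 := by
      rw [← map_mul, mul_inv_cancel₀ hy0, map_one]
    exact (eq_inv_of_mul_eq_one_right h3).symm
  rw [e]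
  exact h2

end Abs

/-! ## The degrees -/

section Deg

variable (q M : ℕ) (a b : ℤ) (hab : a * q + b * M = 1) (hq : q.Prime) [NeZero (M * q)]
variable (ℓ : ℕ) (hℓ : ℓ.Prime) (hℓN : ¬ ℓ ∣ M * q)

theorem redField_congr (A : ValuationSubring Kbar)
    {F F' : IntermediateField Kbar (LaurentSeries Kbar)} (e : F = F')
    (h : HasScale A F) (h' : HasScale A F') : redField A F h = redField A F' h' := by
  subst e
  rfl

include hℓ hℓN in
/-- `[F_{N ℓ} : F_N] = ℓ + 1`. -/
theorem relfinrank_alpha [NeZero (M * q * ℓ)] :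
    (FNbar (M * q)).relfinrank (FNbar (M * q * ℓ)) = ℓ + 1 :=
  H82.relfinrank_FM_FN ℓ (M * q) hℓ hℓN

include hab hq hℓ hℓN in
/-- The residue degree of the Gauss valuations of levels `N ℓ ∣ N` at a prime over `q ‖ N` is the
degree. -/
theorem relfinrank_hecke_eq [NeZero (M * q * ℓ)]
    (A : ValuationSubring Kbar) (hA : A.LiesOverPrime q) :
    (FNbar (M * q)).relfinrank (FNbar (M * q * ℓ))
      = (redField A (FNbar (M * q)) (hasScale_laurentBaseChange A (M * q))).relfinrank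
          (redField A (FNbar (M * q * ℓ)) (hasScale_laurentBaseChange A (M * q * ℓ))) := by
  have hM0 : M ≠ 0 := fun h0 => NeZero.ne (M * q) (by rw [h0, zero_mul])
  haveI : NeZero M := ⟨hM0⟩
  haveI : NeZero (M * ℓ) := ⟨Nat.mul_ne_zero hM0 hℓ.ne_zero⟩
  haveI : NeZero (M * ℓ * q) := ⟨Nat.mul_ne_zero (Nat.mul_ne_zero hM0 hℓ.ne_zero) hq.ne_zero⟩
  have hqM : ¬ q ∣ M := H88.q_not_dvd_M q M a b hab hq
  have hqℓ : q ≠ ℓ := by
    rintro rfl
    exact hℓN (Dvd.intro_left M rfl)
  have hℓM : ¬ ℓ ∣ M := fun hd => hℓN (Dvd.dvd.mul_right hd q)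
  have hqMℓ : ¬ q ∣ M * ℓ := by
    intro hd
    rcases (Nat.Prime.dvd_mul hq).mp hd with hd | hd
    · exact hqM hd
    · exact hqℓ ((Nat.prime_dvd_prime_iff_eq hq hℓ).mp hd)
  have hcop : Nat.Coprime q (M * ℓ) := (Nat.Prime.coprime_iff_not_dvd hq).mpr hqMℓ
  obtain ⟨a', b', hab'⟩ : ∃ a' b' : ℤ, a' * q + b' * ((M * ℓ : ℕ) : ℤ) = 1 := by
    obtain ⟨u, v, huv⟩ := Nat.isCoprime_iff_coprime.mpr hcop
    exact ⟨u, v, huv⟩
  have e1 : redField A (FNbar (M * q)) (hasScale_laurentBaseChange A (M * q))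
      = redField A (FNbar M) (hasScale_laurentBaseChange A M) :=
    H82.redField_eq_redField q M a b hab hq A hA
  have e2 : redField A (FNbar (M * ℓ * q)) (hasScale_laurentBaseChange A (M * ℓ * q))
      = redField A (FNbar (M * ℓ)) (hasScale_laurentBaseChange A (M * ℓ)) :=
    H82.redField_eq_redField q (M * ℓ) a' b' hab' hq A hA
  have e3 : redField A (FNbar (M * q * ℓ)) (hasScale_laurentBaseChange A (M * q * ℓ))
      = redField A (FNbar (M * ℓ * q)) (hasScale_laurentBaseChange A (M * ℓ * q)) :=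
    _root_.Fermat.Agent.S43.CompEis.H9.redField_congr A (by rw [show M * q * ℓ = M * ℓ * q by ring]) _ _
  rw [relfinrank_alpha q M ℓ hℓ hℓN, e1, e3, e2,
    ← H36.relfinrank_level_eq (N := M) (M := M * ℓ) (Dvd.intro ℓ rfl) hq hqMℓ A hA]
  exact (H82.relfinrank_FM_FN ℓ M hℓ hℓM).symm

end Deg

/-! ## The norm of a Gauss unit -/

section Unit

variable (q M : ℕ) (a b : ℤ) (hab : a * q + b * M = 1) (hq : q.Prime) [NeZero (M * q)]
variable (ℓ : ℕ) [NeZero ℓ] (hℓ : ℓ.Prime) (hℓN : ¬ ℓ ∣ M * q)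
variable (A : ValuationSubring Kbar) (hA : A.LiesOverPrime q)

theorem neZero_level : NeZero (M * q * ℓ) :=
  ⟨Nat.mul_ne_zero (NeZero.ne (M * q)) (NeZero.ne ℓ)⟩

/-- `β` maps Gauss units to Gauss units. -/
theorem isGaussUnit_beta (N : ℕ) [NeZero N] (x : ↥(FNbar N)) (hx : IsGaussUnit A N x) :
    IsGaussUnit A (N * ℓ) (heckeBetaBar Kbar N ℓ x) := by
  obtain ⟨hx0, hx1, hx2⟩ := hx
  refine ⟨?_, ?_, ?_⟩
  · intro h0
    exact hx0 ((heckeBetaBar Kbar N ℓ).toRingHom.injective (by simpa using h0))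
  · show ((heckeBetaBar Kbar N ℓ x : _) : LaurentSeries Kbar) ∈ gaussRingV A
    rw [coe_heckeBetaBar]
    exact H82.Fr_mem_gaussRingV A ℓ hx1
  · rw [← map_inv₀]
    show ((heckeBetaBar Kbar N ℓ x⁻¹ : _) : LaurentSeries Kbar) ∈ gaussRingV A
    rw [coe_heckeBetaBar]
    exact H82.Fr_mem_gaussRingV A ℓ hx2

include hab hq hℓ hℓN hA in
/-- The norm along `α` maps Gauss units of level `N ℓ` to Gauss units of level `N`. -/
theorem isGaussUnit_norm (y : ↥(FNbar (M * q * ℓ)))
    (hfin : FiniteAlong Kbar (heckeAlphaBar Kbar (M * q) ℓ))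
    (hy : IsGaussUnit A (M * q * ℓ) y) :
    IsGaussUnit A (M * q)
      (letI := algebraAlong (heckeAlphaBar Kbar (M * q) ℓ); Algebra.norm ↥(FNbar (M * q)) y) := by
  haveI := neZero_level q M ℓ
  exact norm_isGU A (Fermat.Agent.S18.modularFunctionFieldBar_mono (Dvd.intro ℓ rfl))
    (hasScale_laurentBaseChange A (M * q)) (hasScale_laurentBaseChange A (M * q * ℓ)) hfin
    (relfinrank_hecke_eq q M a b hab hq ℓ hℓ hℓN A hA) y hy

include hℓ hℓN in
/-- `[F_{N ℓ} : F_N] = ℓ + 1` along `α`. -/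
theorem finrank_alpha :
    @Module.finrank ↥(FNbar (M * q)) ↥(FNbar (M * q * ℓ)) _ _
      (algebraAlong (heckeAlphaBar Kbar (M * q) ℓ)).toModule = ℓ + 1 := by
  haveI := neZero_level q M ℓ
  rw [← relfinrank_alpha q M ℓ hℓ hℓN]
  exact H51.finrank_along_inclusion
    (Fermat.Agent.S18.modularFunctionFieldBar_mono (Dvd.intro ℓ rfl))

include hab hq hℓ hℓN hA in
/-- **The Gauss-unit clause of NORM-VAL.** -/
theorem gaussUnit_heckeNormFn (hfin : FiniteAlong Kbar (heckeAlphaBar Kbar (M * q) ℓ))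
    (f : ↥(FNbar (M * q))) (c : Kbar)
    (hc : IsGaussUnit A (M * q) (algebraMap Kbar ↥(FNbar (M * q)) c * f)) :
    IsGaussUnit A (M * q)
      (algebraMap Kbar ↥(FNbar (M * q)) (c ^ (ℓ + 1))
        * Fermat.Agent.GTor.H2.heckeNormFn Kbar (M * q) ℓ f) := by
  have h1 := isGaussUnit_beta ℓ A (M * q) _ hc
  have h2 := isGaussUnit_norm q M a b hab hq ℓ hℓ hℓN A hA _ hfin h1
  have e : (letI := algebraAlong (heckeAlphaBar Kbar (M * q) ℓ);
      Algebra.norm ↥(FNbar (M * q))
        (heckeBetaBar Kbar (M * q) ℓ (algebraMap Kbar ↥(FNbar (M * q)) c * f)))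
      = algebraMap Kbar ↥(FNbar (M * q)) (c ^ (ℓ + 1))
        * Fermat.Agent.GTor.H2.heckeNormFn Kbar (M * q) ℓ f := by
    letI := algebraAlong (heckeAlphaBar Kbar (M * q) ℓ)
    haveI := isScalarTower_along (heckeAlphaBar Kbar (M * q) ℓ)
    haveI : Module.Finite ↥(FNbar (M * q)) ↥(FNbar (M * q * ℓ)) := hfin
    rw [map_mul, AlgHom.commutes, map_mul,
      IsScalarTower.algebraMap_apply Kbar ↥(FNbar (M * q)) ↥(FNbar (M * q * ℓ)),
      Algebra.norm_algebraMap, finrank_alpha q M ℓ hℓ hℓN, ← map_pow]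
    rfl
  rw [← e]
  exact h2

end Unit

/-! ## `w_q` commutes with `N_α ∘ β` -/

section W

variable (q M : ℕ) (a b : ℤ) (hab : a * q + b * M = 1) (hq : q.Prime) [NeZero (M * q)]
variable (ℓ : ℕ) [NeZero ℓ] (a' b' : ℤ) (hab' : a' * q + b' * ((M * ℓ : ℕ) : ℤ) = 1)

include hab' in
/-- `w_q (N_α (β f)) = N_α (β (w_q f))`. -/
theorem wq_heckeNormFn (f : ↥(FNbar (M * q))) :
    H88.wq q M a b hab hq (Fermat.Agent.GTor.H2.heckeNormFn Kbar (M * q) ℓ f)
      = Fermat.Agent.GTor.H2.heckeNormFn Kbar (M * q) ℓ (H88.wq q M a b hab hq f) := by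
  letI := algebraAlong (heckeAlphaBar Kbar (M * q) ℓ)
  have hα := Fermat.Agent.S43.H88.wUp_comp_alpha q M a b hab hq ℓ a' b' hab'
  have hβ := Fermat.Agent.S43.H88.wUp_comp_beta q M a b hab hq ℓ a' b' hab'
  have key := Algebra.norm_eq_of_equiv_equiv
    ((H88.wq q M a b hab hq : ↥(FNbar (M * q)) ≃ₐ[Kbar] ↥(FNbar (M * q))) :
      ↥(FNbar (M * q)) ≃+* ↥(FNbar (M * q)))
    ((Fermat.Agent.S43.H88.wUp q M ℓ a' b' hab' :
        ↥(FNbar (M * q * ℓ)) ≃ₐ[Kbar] ↥(FNbar (M * q * ℓ))) :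
      ↥(FNbar (M * q * ℓ)) ≃+* ↥(FNbar (M * q * ℓ)))
    (RingHom.ext fun x =>
      (congrArg (fun g : ↥(FNbar (M * q)) →ₐ[Kbar] ↥(FNbar (M * q * ℓ)) => g x) hα).symm)
    (heckeBetaBar Kbar (M * q) ℓ f)
  have h2 : Fermat.Agent.S43.H88.wUp q M ℓ a' b' hab' (heckeBetaBar Kbar (M * q) ℓ f)
      = heckeBetaBar Kbar (M * q) ℓ (H88.wq q M a b hab hq f) :=
    congrArg (fun g : ↥(FNbar (M * q)) →ₐ[Kbar] ↥(FNbar (M * q * ℓ)) => g f) hβ
  show H88.wq q M a b hab hq (Algebra.norm ↥(FNbar (M * q)) (heckeBetaBar Kbar (M * q) ℓ f))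
    = Algebra.norm ↥(FNbar (M * q)) (heckeBetaBar Kbar (M * q) ℓ (H88.wq q M a b hab hq f))
  rw [← h2, key]
  exact RingEquiv.apply_symm_apply (H88.wq q M a b hab hq).toRingEquiv _

end W

/-! ## NORM-VAL -/

/-- **NORM-VAL.** -/
theorem stmt_CE_NormVal (q M : ℕ) (a b : ℤ) (hab : a * q + b * M = 1) (hq : q.Prime)
    [NeZero (M * q)] : Stmt_CE_NormVal q M a b hab hq := by
  intro A hA ℓ hℓN n D f hf hD
  haveI : NeZero (ℓ : ℕ) := ⟨ℓ.2.ne_zero⟩
  obtain ⟨hα, hβ, hP, hfin, hFI, hN⟩ := H51.stmt_HKA (M * q) (ℓ : ℕ)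
  -- Bezout at level `M ℓ`
  have hqℓ : (q : ℕ) ≠ ℓ := by
    rintro h
    exact hℓN (h ▸ Dvd.intro_left M rfl)
  have hcop : Nat.Coprime q (M * ℓ) := by
    apply Nat.Coprime.mul_right
    · exact (Nat.Prime.coprime_iff_not_dvd hq).mpr (H88.q_not_dvd_M q M a b hab hq)
    · exact (Nat.coprime_primes hq ℓ.2).mpr hqℓ
  obtain ⟨a', b', hab'⟩ : ∃ a' b' : ℤ, a' * q + b' * ((M * ℓ : ℕ) : ℤ) = 1 := by
    obtain ⟨u, v, huv⟩ := Nat.isCoprime_iff_coprime.mpr hcop
    exact ⟨u, v, huv⟩
  have hw : ∀ g : ↥(FNbar (M * q)),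
      wS q M a b hab hq • Fermat.Agent.GTor.H2.heckeNormFn Kbar (M * q) ℓ g
        = Fermat.Agent.GTor.H2.heckeNormFn Kbar (M * q) ℓ (wS q M a b hab hq • g) := fun g =>
    wq_heckeNormFn q M a b hab hq ℓ a' b' hab' g
  refine ⟨Pic0.degZeroCorrespondence (heckeBetaBar _ (M * q) ℓ) (heckeAlphaBar _ (M * q) ℓ)
      hβ hα hFI D, Fermat.Agent.GTor.H2.heckeNormFn Kbar (M * q) ℓ f,
    Fermat.Agent.GTor.H2.heckeNormFn_ne_zero Kbar (M * q) ℓ hfin hf, ?_, ?_, ?_, ?_, ?_⟩
  · rw [heckeOperatorBar_apply, heckeOperatorAlong_eq hα hβ hFI hfin hN]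
    rfl
  · intro P
    exact Fermat.Agent.GTor.H2.correspondence_ord Kbar (M * q) ℓ hα hβ hfin hN (n : ℤ) _ hf hD P
  · intro σ hσ
    have h1 := Fermat.Agent.GTor.H2.divisor_correspondence_smul (galF (M * q) σ)
      (galF (M * q * ℓ) σ) (heckeBetaBar Kbar (M * q) ℓ) (heckeAlphaBar Kbar (M * q) ℓ) hβ hα
      (Fermat.Agent.GTor.H2.intertwines_heckeBetaBar (M * q) ℓ σ)
      (Fermat.Agent.GTor.H2.intertwines_heckeAlphaBar (M * q) ℓ σ)
      (D : Divisor (AlgebraicClosure ℚ) ↥(FNbar (M * q)))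
    rw [hσ] at h1
    exact h1.symm
  · intro c hc
    exact gaussUnit_heckeNormFn q M a b hab hq ℓ ℓ.2 hℓN A hA hfin f c hc
  · intro c hc
    rw [hw]
    exact gaussUnit_heckeNormFn q M a b hab hq ℓ ℓ.2 hℓN A hA hfin _ c hc

end Fermat.Agent.S43.CompEis.H9

end
end
-- ==== END Fermat.Agent.S43.CompEis.H9_NormVal

-- ==== BEGIN Fermat.Agent.S43.H91_ModSSDW
section

/-!
# S43, package BAD_q, leaf FROB-T / MOD-W at the tame levels (helper91)

`stmt_ModSSDW_tame : Stmt_ModSSDW_tame` : for `q ∤ M` tame and `A` over `q`, the semistable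
Deuring datum of `F_{M q} · ℚ̄` at `A` (from the modular total conservation datum `modTot`), with
every Frobenius element at `A` and `w_q` forming a Frobenius-swap pair of exponent `q`.

Inputs: helper44's (F-d), helper52's (F-b), helper30's (Σ-fix), helper37's `totSwap_of`,
helper91's `rhoW_eq_beta_mod` (`ρ (w_q⁻¹ P) = β (ρ P)` over a node), and the numerical data of
`H91.modSSD_body`.
-/

set_option autoImplicit false
set_option linter.style.haveILetI false
set_option synthInstance.maxHeartbeats 400000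
set_option maxHeartbeats 400000
set_option linter.unusedSectionVars false

noncomputable section

open HahnSeries IntermediateField AlgebraicCurve ModularCurve
open Fermat.Agent.S28.H73 Fermat.Agent.RED.H73 Fermat.Agent.RED Fermat.Agent.S24
open Fermat.Agent.BAD.H88 Fermat.Agent.BAD

namespace Fermat.Agent.S43.H91

open Fermat.Agent.S35.H89 Fermat.Agent.BAD.H91

/- speed: the algebra structure of `F1` over `kV A` is `SubalgebraClass.toAlgebra` over
`HahnSeries.powerSeriesAlgebra`; try these first (the same instance term is found, 5 s faster per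
query). -/
attribute [local instance 10000] SubalgebraClass.toAlgebra
attribute [local instance 10000] HahnSeries.powerSeriesAlgebra

section Mod

variable (A : ValuationSubring Kbar) (q M : ℕ) (a b : ℤ) (hab : a * q + b * M = 1)
  (hq : q.Prime) [NeZero M] [NeZero (M * q)] [NeZero q] (hA : A.LiesOverPrime q)
  (hqM : ¬ q ∣ M) (ht : TameAt M q)

/-- `j~` in `F₁` is fixed by the coefficientwise Frobenius. -/
theorem phiMod_jRed :
    phiMod A q M a b hab hq hA (H23.eRed A q M a b hab hq hA (jRed A M))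
      = H23.eRed A q M a b hab hq hA (jRed A M) := by
  refine BAD.H73.phiF1_of_int A q M hq hA M
    (H82.redField_eq_fullC q M a b hab hq A hA) _ (jqModC ℤ) ?_
  rw [H23.coe_eRed]
  exact (RED.H73.red_jF A M).trans (coeffMap_jqModC _).symm

/-- `β` preserves the order of `j~`. -/
theorem betaMod_ord_jRed (z : Place (kV A) (F1 A q M)) :
    (betaMod A q M a b hab hq hA z).ord (H23.eRed A q M a b hab hq hA (jRed A M))
      = z.ord (H23.eRed A q M a b hab hq hA (jRed A M)) :=
  BAD.H73.betaF1_ord_of_fixed A q M hq hA M (H82.redField_eq_fullC q M a b hab hq A hA) z _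
    (phiMod_jRed A q M a b hab hq hA)

/-- `τb = φ` on `F₁`. -/
theorem hτb_mod (ψ : F1 A q M) :
    (phiMod A q M a b hab hq hA : F1 A q M →+* F1 A q M) ψ
      = phiSemiMod A q M a b hab hq hA • ψ :=
  (phiSemiMod_smul A q M a b hab hq hA ψ).symm

theorem hbase_mod (c : kV A) :
    phiSemiMod A q M a b hab hq hA • algebraMap (kV A) (F1 A q M) c
      = algebraMap (kV A) (F1 A q M) (c ^ q) := by
  rw [phiSemiMod_smul]
  exact BAD.H73.phiF1_algebraMap A q M hq hA M (H82.redField_eq_fullC q M a b hab hq A hA) c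

theorem modTot_β (z : Place (kV A) (F1 A q M)) :
    (modTot A q M a b hab hq hA hqM ht).β z = betaMod A q M a b hab hq hA z := rfl

theorem modTot_ρ (P : Place Kbar (FN (M * q))) :
    (modTot A q M a b hab hq hA hqM ht).ρ P = rhoF1 a b hab hq hA hqM ht P := rfl

theorem modTot_V₁ : (modTot A q M a b hab hq hA hqM ht).b₁.V = V1 A q M := rfl

theorem modTot_V₂ : (modTot A q M a b hab hq hA hqM ht).b₂.V = V2 A q M a b hab hq := rfl

theorem modTot_red₁ (f : FN (M * q)) (h : f ∈ (modTot A q M a b hab hq hA hqM ht).b₁.V) :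
    (modTot A q M a b hab hq hA hqM ht).b₁.red ⟨f, h⟩ = red1 A q M ⟨f, h⟩ := rfl

theorem modTot_red₂ (f : FN (M * q)) (h : f ∈ (modTot A q M a b hab hq hA hqM ht).b₂.V) :
    (modTot A q M a b hab hq hA hqM ht).b₂.red ⟨f, h⟩ = red2 A q M a b hab hq ⟨f, h⟩ := rfl

theorem hβ_mod (z : Place (kV A) (F1 A q M)) (ψ : F1 A q M) :
    ((modTot A q M a b hab hq hA hqM ht).β z).ord ψ
      = z.ord (phiSemiMod A q M a b hab hq hA • ψ) := by
  rw [modTot_β, phiSemiMod_smul]
  exact BAD.H73.betaF1_ord A q M hq hA M (H82.redField_eq_fullC q M a b hab hq A hA) z ψ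

section Frob

variable (σ : GalQ) (hσ : A.IsFrobeniusAt σ q)

include hσ in
theorem hρ_mod (P : Place Kbar (FN (M * q))) :
    (modTot A q M a b hab hq hA hqM ht).ρ ((galF (M * q) σ)⁻¹ • P)
      = (modTot A q M a b hab hq hA hqM ht).β ((modTot A q M a b hab hq hA hqM ht).ρ P) := by
  have h := S35.H52.stmt_FrobRho A q M a b hab hq hA hqM ht σ hσ ((galF (M * q) σ)⁻¹ • P)
  rw [smul_inv_smul] at h
  rw [modTot_β, modTot_ρ, modTot_ρ, h, Equiv.apply_symm_apply]

include hσ in
theorem hfix_mod (z : Place (kV A) (F1 A q M))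
    (hz : (modTot A q M a b hab hq hA hqM ht).IsNode z) :
    (modTot A q M a b hab hq hA hqM ht).β ((modTot A q M a b hab hq hA hqM ht).β z) = z := by
  rw [modTot_β, modTot_β]
  exact S35.H30.sigmaFix_of S35.H52.stmt_FrobRho A q M a b hab hq hA hqM ht σ hσ z hz

include hσ in
theorem mem₁_mod (f : FN (M * q)) (hf : f ∈ (modTot A q M a b hab hq hA hqM ht).b₁.V) :
    galF (M * q) σ • f ∈ (modTot A q M a b hab hq hA hqM ht).b₁.V :=
  (S35.H44.stmt_FrobRed A q M a b hab hq hA σ hσ).1 f hf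

include hσ in
theorem mem₂_mod (f : FN (M * q)) (hf : f ∈ (modTot A q M a b hab hq hA hqM ht).b₂.V) :
    galF (M * q) σ • f ∈ (modTot A q M a b hab hq hA hqM ht).b₂.V :=
  (S35.H44.stmt_FrobRed A q M a b hab hq hA σ hσ).2.1 f hf

include hσ in
theorem red₁_mod (f : FN (M * q)) (h : f ∈ (modTot A q M a b hab hq hA hqM ht).b₁.V)
    (h' : galF (M * q) σ • f ∈ (modTot A q M a b hab hq hA hqM ht).b₁.V) :
    (modTot A q M a b hab hq hA hqM ht).b₁.red ⟨_, h'⟩
      = (phiMod A q M a b hab hq hA : F1 A q M →+* F1 A q M)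
        ((modTot A q M a b hab hq hA hqM ht).b₁.red ⟨f, h⟩) :=
  (S35.H44.stmt_FrobRed A q M a b hab hq hA σ hσ).2.2.1 f h h'

include hσ in
theorem red₂_mod (f : FN (M * q)) (h : f ∈ (modTot A q M a b hab hq hA hqM ht).b₂.V)
    (h' : galF (M * q) σ • f ∈ (modTot A q M a b hab hq hA hqM ht).b₂.V) :
    (modTot A q M a b hab hq hA hqM ht).b₂.red ⟨_, h'⟩
      = (phiMod A q M a b hab hq hA : F1 A q M →+* F1 A q M)
        ((modTot A q M a b hab hq hA hqM ht).b₂.red ⟨f, h⟩) :=
  (S35.H44.stmt_FrobRed A q M a b hab hq hA σ hσ).2.2.2 f h h'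

end Frob


section W

theorem wAux1 (f : FN (M * q)) (_h : f ∈ V1 A q M)
    (h' : wq q M a b hab hq f ∈ V2 A q M a b hab hq) :
    wq q M a b hab hq (wq q M a b hab hq f) ∈ V1 A q M :=
  (mem_V2_iff A q M a b hab hq _).1 h'

theorem wAux2 (f : FN (M * q)) (h : f ∈ V1 A q M)
    (h' : wq q M a b hab hq f ∈ V2 A q M a b hab hq) :
    red2 A q M a b hab hq ⟨wq q M a b hab hq f, h'⟩ = red1 A q M ⟨wq q M a b hab hq (wq q M a b hab hq f), wAux1 A q M a b hab hq f h h'⟩ :=
  red2_mk A q M a b hab hq (wq q M a b hab hq f) h'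

theorem wAux3 (f g : FN (M * q)) (h : f ∈ V1 A q M) (h' : g ∈ V1 A q M) (e : g = f) :
    red1 A q M ⟨g, h'⟩ = red1 A q M ⟨f, h⟩ := by
  subst e
  rfl

theorem wAux4 (f : FN (M * q)) (h : f ∈ V1 A q M)
    (h' : wq q M a b hab hq f ∈ V2 A q M a b hab hq) :
    red2 A q M a b hab hq ⟨wq q M a b hab hq f, h'⟩ = red1 A q M ⟨f, h⟩ :=
  (wAux2 A q M a b hab hq f h h').trans (wAux3 A q M _ _ h _ (wq_wq q M a b hab hq f))

theorem wS_smul_eq (f : FN (M * q)) : S43.BadQ.wS q M a b hab hq • f = wq q M a b hab hq f := rfl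

theorem wmem₁_mod (f : FN (M * q)) (hf : f ∈ (modTot A q M a b hab hq hA hqM ht).b₁.V) :
    S43.BadQ.wS q M a b hab hq • f ∈ (modTot A q M a b hab hq hA hqM ht).b₂.V := by
  rw [modTot_V₂, wS_smul_eq]
  rw [modTot_V₁] at hf
  exact (wq_mem_V2_iff A q M a b hab hq f).2 hf

theorem wmem₂_mod (f : FN (M * q)) (hf : f ∈ (modTot A q M a b hab hq hA hqM ht).b₂.V) :
    S43.BadQ.wS q M a b hab hq • f ∈ (modTot A q M a b hab hq hA hqM ht).b₁.V := by
  rw [modTot_V₁, wS_smul_eq]
  rw [modTot_V₂] at hf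
  exact (mem_V2_iff A q M a b hab hq f).1 hf

theorem wAux5 (f : FN (M * q)) (h : f ∈ (modTot A q M a b hab hq hA hqM ht).b₁.V)
    (h' : S43.BadQ.wS q M a b hab hq • f ∈ (modTot A q M a b hab hq hA hqM ht).b₂.V)
    (h₂ : wq q M a b hab hq f ∈ V2 A q M a b hab hq) :
    (modTot A q M a b hab hq hA hqM ht).b₂.red ⟨_, h'⟩
      = red2 A q M a b hab hq ⟨wq q M a b hab hq f, h₂⟩ := rfl

theorem wAux6 (f : FN (M * q)) (h : f ∈ (modTot A q M a b hab hq hA hqM ht).b₁.V)
    (h₁ : f ∈ V1 A q M) :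
    (modTot A q M a b hab hq hA hqM ht).b₁.red ⟨f, h⟩ = red1 A q M ⟨f, h₁⟩ := rfl

theorem wred₁_mod (f : FN (M * q)) (h : f ∈ (modTot A q M a b hab hq hA hqM ht).b₁.V)
    (h' : S43.BadQ.wS q M a b hab hq • f ∈ (modTot A q M a b hab hq hA hqM ht).b₂.V) :
    (modTot A q M a b hab hq hA hqM ht).b₂.red ⟨_, h'⟩
      = (modTot A q M a b hab hq hA hqM ht).b₁.red ⟨f, h⟩ := by
  have h₁ : f ∈ V1 A q M := by
    rw [modTot_V₁] at h
    exact h
  have h₂ : wq q M a b hab hq f ∈ V2 A q M a b hab hq :=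
    (wq_mem_V2_iff A q M a b hab hq f).2 h₁
  rw [wAux5 A q M a b hab hq hA hqM ht f h h' h₂, wAux6 A q M a b hab hq hA hqM ht f h h₁]
  exact wAux4 A q M a b hab hq f h₁ h₂

theorem wAux7 (f : FN (M * q)) (h : f ∈ (modTot A q M a b hab hq hA hqM ht).b₂.V)
    (h' : S43.BadQ.wS q M a b hab hq • f ∈ (modTot A q M a b hab hq hA hqM ht).b₁.V)
    (h₁ : wq q M a b hab hq f ∈ V1 A q M) :
    (modTot A q M a b hab hq hA hqM ht).b₁.red ⟨_, h'⟩
      = red1 A q M ⟨wq q M a b hab hq f, h₁⟩ := rfl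

theorem wAux8 (f : FN (M * q)) (h : f ∈ (modTot A q M a b hab hq hA hqM ht).b₂.V)
    (h₂ : f ∈ V2 A q M a b hab hq) :
    (modTot A q M a b hab hq hA hqM ht).b₂.red ⟨f, h⟩ = red2 A q M a b hab hq ⟨f, h₂⟩ := rfl

theorem wAux9 (f : FN (M * q)) (h₂ : f ∈ V2 A q M a b hab hq)
    (h₁ : wq q M a b hab hq f ∈ V1 A q M) :
    red2 A q M a b hab hq ⟨f, h₂⟩ = red1 A q M ⟨wq q M a b hab hq f, h₁⟩ :=
  red2_mk A q M a b hab hq f h₂

theorem wred₂_mod (f : FN (M * q)) (h : f ∈ (modTot A q M a b hab hq hA hqM ht).b₂.V)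
    (h' : S43.BadQ.wS q M a b hab hq • f ∈ (modTot A q M a b hab hq hA hqM ht).b₁.V) :
    (modTot A q M a b hab hq hA hqM ht).b₁.red ⟨_, h'⟩
      = (modTot A q M a b hab hq hA hqM ht).b₂.red ⟨f, h⟩ := by
  have h₂ : f ∈ V2 A q M a b hab hq := by
    rw [modTot_V₂] at h
    exact h
  have h₁ : wq q M a b hab hq f ∈ V1 A q M := (mem_V2_iff A q M a b hab hq f).1 h₂
  rw [wAux7 A q M a b hab hq hA hqM ht f h h' h₁, wAux8 A q M a b hab hq hA hqM ht f h h₂]
  exact (wAux9 A q M a b hab hq f h₂ h₁).symm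

theorem wS_eq_wSemi : S43.BadQ.wS q M a b hab hq = wSemi a b hab hq := rfl

end W

section Swap

variable (σ : GalQ) (hσ : A.IsFrobeniusAt σ q)

include hσ in
theorem rd₁_mod (f : FN (M * q)) (hf : f ∈ (modTot A q M a b hab hq hA hqM ht).b₁.V) :
    (modTot A q M a b hab hq hA hqM ht).p₁.rd (galF (M * q) σ • f)
      = phiSemiMod A q M a b hab hq hA • (modTot A q M a b hab hq hA hqM ht).p₁.rd f := by
  rw [(modTot A q M a b hab hq hA hqM ht).p₁.rd_of_mem
      (mem₁_mod A q M a b hab hq hA hqM ht σ hσ f hf),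
    (modTot A q M a b hab hq hA hqM ht).p₁.rd_of_mem hf]
  exact (red₁_mod A q M a b hab hq hA hqM ht σ hσ f hf _).trans
    (hτb_mod A q M a b hab hq hA _)

include hσ in
theorem rd₂_mod (f : FN (M * q)) (hf : f ∈ (modTot A q M a b hab hq hA hqM ht).b₂.V) :
    (modTot A q M a b hab hq hA hqM ht).p₂.rd (galF (M * q) σ • f)
      = phiSemiMod A q M a b hab hq hA • (modTot A q M a b hab hq hA hqM ht).p₂.rd f := by
  rw [(modTot A q M a b hab hq hA hqM ht).p₂.rd_of_mem
      (mem₂_mod A q M a b hab hq hA hqM ht σ hσ f hf),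
    (modTot A q M a b hab hq hA hqM ht).p₂.rd_of_mem hf]
  exact (red₂_mod A q M a b hab hq hA hqM ht σ hσ f hf _).trans
    (hτb_mod A q M a b hab hq hA _)

include hσ in
/-- The set of nodes is stable under `β`. -/
theorem isNode_β_mod {z : Place (kV A) (F1 A q M)}
    (hz : (modTot A q M a b hab hq hA hqM ht).IsNode z) :
    (modTot A q M a b hab hq hA hqM ht).IsNode ((modTot A q M a b hab hq hA hqM ht).β z) :=
  S43.H37.isNode_β_of (phiSemiMod A q M a b hab hq hA) (hbase_mod A q M a b hab hq hA)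
    (hβ_mod A q M a b hab hq hA hqM ht) (hρ_mod A q M a b hab hq hA hqM ht σ hσ)
    (mem₁_mod A q M a b hab hq hA hqM ht σ hσ) (mem₂_mod A q M a b hab hq hA hqM ht σ hσ)
    (rd₁_mod A q M a b hab hq hA hqM ht σ hσ) (rd₂_mod A q M a b hab hq hA hqM ht σ hσ) hz

/-- **Over a node, `ρ (w_q⁻¹ P) = β (ρ P)`** (for `modTot`). -/
theorem rhoW_modTot (P : Place Kbar (FN (M * q)))
    (hP : (modTot A q M a b hab hq hA hqM ht).IsNode
      ((modTot A q M a b hab hq hA hqM ht).ρ P)) :
    (modTot A q M a b hab hq hA hqM ht).ρ ((S43.BadQ.wS q M a b hab hq)⁻¹ • P)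
      = (modTot A q M a b hab hq hA hqM ht).β ((modTot A q M a b hab hq hA hqM ht).ρ P) := by
  rw [modTot_ρ, modTot_ρ, modTot_β, wS_eq_wSemi]
  exact rhoW_eq_beta_mod a b hab hq hA hqM ht (betaMod A q M a b hab hq hA)
    (BAD.H23.tot_mod A q M a b hab hq hA hqM ht (H82.redField_eq_fullC q M a b hab hq A hA))
    (betaMod_ord_jRed A q M a b hab hq hA) hP

include hσ in
/-- The set of nodes is stable under `w_q`. -/
theorem node_W_mod (P : Place Kbar (FN (M * q)))
    (hP : (modTot A q M a b hab hq hA hqM ht).IsNode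
      ((modTot A q M a b hab hq hA hqM ht).ρ P)) :
    (modTot A q M a b hab hq hA hqM ht).IsNode
      ((modTot A q M a b hab hq hA hqM ht).ρ ((S43.BadQ.wS q M a b hab hq)⁻¹ • P)) := by
  rw [rhoW_modTot A q M a b hab hq hA hqM ht P hP]
  exact isNode_β_mod A q M a b hab hq hA hqM ht σ hσ hP

include hσ in
/-- **`(σ, w_q)` is a Frobenius-swap pair for the modular total conservation datum.** -/
theorem totSwap_mod :
    S43.H37.TotSwap (modTot A q M a b hab hq hA hqM ht) (galF (M * q) σ)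
      (S43.BadQ.wS q M a b hab hq) (phiMod A q M a b hab hq hA : F1 A q M →+* F1 A q M) q :=
  S43.H37.totSwap_of (phiSemiMod A q M a b hab hq hA) (hτb_mod A q M a b hab hq hA)
    (hbase_mod A q M a b hab hq hA) (hβ_mod A q M a b hab hq hA hqM ht)
    (hfix_mod A q M a b hab hq hA hqM ht σ hσ) (hρ_mod A q M a b hab hq hA hqM ht σ hσ)
    (mem₁_mod A q M a b hab hq hA hqM ht σ hσ) (mem₂_mod A q M a b hab hq hA hqM ht σ hσ)
    (red₁_mod A q M a b hab hq hA hqM ht σ hσ) (red₂_mod A q M a b hab hq hA hqM ht σ hσ)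
    (wmem₁_mod A q M a b hab hq hA hqM ht) (wmem₂_mod A q M a b hab hq hA hqM ht)
    (wred₁_mod A q M a b hab hq hA hqM ht) (wred₂_mod A q M a b hab hq hA hqM ht)
    (node_W_mod A q M a b hab hq hA hqM ht σ hσ)

end Swap

section Final

omit [NeZero M] [NeZero q] in
theorem ffHyp_FN : RED.H17.FFHyp Kbar (FN (M * q)) :=
  RED.H17.ffHyp_of_isFF _ _ (H95.stmt_HKA_isFF (M * q))

include hab hq hA hqM ht in
theorem ffHyp_F1 : RED.H17.FFHyp (kV A) (F1 A q M) := by
  haveI : IsAlgClosed (kV A) := isAlgClosed_kV A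
  exact RED.H17.ffHyp_of_isFF _ _ (isFF_F1 a b hab hq hA hqM ht)

/-- **The nodes of the modular datum and the numerical inequality.** -/
theorem exists_nodes_modTot :
    ∃ Z : Finset (Place (kV A) (F1 A q M)), Z.Nonempty ∧
      (∀ z ∈ Z, (modTot A q M a b hab hq hA hqM ht).IsNode z) ∧
      ∀ (g g₁ : ℕ) (c c₁ : ℤ), RED.H17.IsGenus Kbar (FN (M * q)) g c →
        RED.H17.IsGenus (kV A) (F1 A q M) g₁ c₁ → g + 1 ≤ g₁ + g₁ + Z.card := by
  haveI : IsAlgClosed (kV A) := isAlgClosed_kV A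
  obtain ⟨Z, hZne, hZc, hZo, hnum⟩ :=
    Fermat.Agent.BAD.H30.num_final_tame M q hq ht hqM A hA (Dvd.intro_left M rfl)
  refine ⟨Z.map (kappa A q M a b hab hq hA).symm.toEmbedding, hZne.map, ?_, ?_⟩
  · intro z hz
    obtain ⟨z₀, hz₀, rfl⟩ := Finset.mem_map.mp hz
    exact isNode_modT a b hab hq hA hqM ht _ _ _ z₀ (hZc z₀ hz₀) (hZo z₀ hz₀)
  · intro g g₁ c c₁ hg hg₁
    have hg₁' : RED.H17.IsGenus (kV A) ↥(H91.redM A M) g₁ c₁ :=
      isGenus_congr (H82.redField_eq_redField q M a b hab hq A hA) hg₁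
    rw [Finset.card_map]
    exact Fermat.Agent.BAD.H17.genus_ineq hq hqM ht hA hg hg₁' Z.card hnum

theorem exists_node_modTot : ∃ z, (modTot A q M a b hab hq hA hqM ht).IsNode z := by
  obtain ⟨Z, ⟨z, hz⟩, hZ, -⟩ := exists_nodes_modTot A q M a b hab hq hA hqM ht
  exact ⟨z, hZ z hz⟩

/-- **The explicit modular semistable Deuring datum** of `F_{M q} · ℚ̄` at `A` (`q ∤ M` tame). -/
def modSSD : SSD Kbar (FN (M * q)) (kV A) (F1 A q M) (F1 A q M) :=
  haveI : IsAlgClosed (kV A) := isAlgClosed_kV A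
  haveI : Infinite (kV A) := IsAlgClosed.instInfinite
  (modTot A q M a b hab hq hA hqM ht).toSSD (ffHyp_FN q M).principal (ffHyp_FN q M).deg_one
    (ffHyp_F1 A q M a b hab hq hA hqM ht).principal (ffHyp_F1 A q M a b hab hq hA hqM ht).deg_one
    (ffHyp_F1 A q M a b hab hq hA hqM ht).deg_one (exists_node_modTot A q M a b hab hq hA hqM ht)

theorem modSSD_c₁_V : (modSSD A q M a b hab hq hA hqM ht).c₁.V = V1 A q M := rfl

theorem modSSD_c₂_V : (modSSD A q M a b hab hq hA hqM ht).c₂.V = V2 A q M a b hab hq := rfl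

theorem modSSD_card_ge {g g₁ : ℕ} {c c₁ : ℤ} (hg : RED.H17.IsGenus Kbar (FN (M * q)) g c)
    (hg₁ : RED.H17.IsGenus (kV A) (F1 A q M) g₁ c₁) :
    g + 1 ≤ g₁ + g₁ + (modSSD A q M a b hab hq hA hqM ht).nodes.card := by
  haveI : IsAlgClosed (kV A) := isAlgClosed_kV A
  haveI : Infinite (kV A) := IsAlgClosed.instInfinite
  obtain ⟨Z, -, hZ, hnum⟩ := exists_nodes_modTot A q M a b hab hq hA hqM ht
  have h1 := (modTot A q M a b hab hq hA hqM ht).card_le_toSSD_nodes (ffHyp_FN q M).principal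
    (ffHyp_FN q M).deg_one (ffHyp_F1 A q M a b hab hq hA hqM ht).principal
    (ffHyp_F1 A q M a b hab hq hA hqM ht).deg_one (ffHyp_F1 A q M a b hab hq hA hqM ht).deg_one
    (exists_node_modTot A q M a b hab hq hA hqM ht) Z hZ
  have h2 := hnum g g₁ c c₁ hg hg₁
  have h3 : Z.card ≤ (modSSD A q M a b hab hq hA hqM ht).nodes.card := h1
  omega

/-- **Every Frobenius element at `A` and `w_q` form a Frobenius-swap pair of exponent `q` for
the explicit modular datum.** -/
theorem modSSD_isFrobSwap (σ : GalQ) (hσ : A.IsFrobeniusAt σ q) :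
    (modSSD A q M a b hab hq hA hqM ht).IsFrobSwap (galF (M * q) σ)
      (S43.BadQ.wS q M a b hab hq) (phiMod A q M a b hab hq hA : F1 A q M →+* F1 A q M)
      (phiMod A q M a b hab hq hA : F1 A q M →+* F1 A q M) (RingHom.id (F1 A q M))
      (RingHom.id (F1 A q M)) q := by
  haveI : IsAlgClosed (kV A) := isAlgClosed_kV A
  haveI : Infinite (kV A) := IsAlgClosed.instInfinite
  exact (totSwap_mod A q M a b hab hq hA hqM ht σ hσ).isFrobSwap (ffHyp_FN q M).principal
    (ffHyp_FN q M).deg_one (ffHyp_F1 A q M a b hab hq hA hqM ht).principal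
    (ffHyp_F1 A q M a b hab hq hA hqM ht).deg_one (exists_node_modTot A q M a b hab hq hA hqM ht)

include hA hqM ht in
/-- **The modular side of FROB-T at a tame level.** -/
theorem modSSDWAt_tame : S43.BadQ.ModSSDWAt q M a b hab hq A := by
  haveI : IsAlgClosed (kV A) := isAlgClosed_kV A
  obtain ⟨g, c, hg⟩ := RED.H17.exists_isGenus _ _ (H95.stmt_HKA_isFF (M * q))
  obtain ⟨g₁, c₁, hg₁⟩ := RED.H17.exists_isGenus _ _ (isFF_F1 a b hab hq hA hqM ht)
  refine ⟨F1 A q M, F1 A q M, inferInstance, inferInstance, inferInstance, inferInstance,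
    modSSD A q M a b hab hq hA hqM ht, ffHyp_FN q M, ffHyp_F1 A q M a b hab hq hA hqM ht,
    ffHyp_F1 A q M a b hab hq hA hqM ht, g, g₁, g₁, c, c₁, c₁, hg, hg₁, hg₁,
    modSSD_card_ge A q M a b hab hq hA hqM ht hg hg₁, ?_, ?_, ?_⟩
  · intro f hf
    exact hf
  · intro f hf h1
    exact h1
  · intro σ hσ
    exact ⟨_, _, _, _, modSSD_isFrobSwap A q M a b hab hq hA hqM ht σ hσ⟩

end Final

end Mod

/-- **The modular side of FROB-T at the tame levels.** -/
theorem stmt_ModSSDW_tame : S43.BadQ.Stmt_ModSSDW_tame := by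
  intro q M a b hab hq _ hqM ht A hA
  haveI : NeZero M := ⟨fun h0 => NeZero.ne (M * q) (by rw [h0, zero_mul])⟩
  haveI : NeZero q := ⟨hq.ne_zero⟩
  exact modSSDWAt_tame A q M a b hab hq hA hqM ht

end Fermat.Agent.S43.H91

end
end
-- ==== END Fermat.Agent.S43.H91_ModSSDW

-- ==== BEGIN Fermat.Agent.S53.ExistsTower
section

set_option autoImplicit false
set_option linter.unusedSectionVars false
set_option linter.style.haveILetI false

/-!
# S53: existence of the tower of level-wise universal normalized pairs.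
-/

namespace Fermat.Agent.S53

open IsLocalRing

variable {𝒪 : Type} [CommRing 𝒪] [IsDomain 𝒪] [IsDiscreteValuationRing 𝒪]
  [Finite (ResidueField 𝒪)]
variable {ρbar : ResidualGaloisRep (ResidueField 𝒪)}
variable {𝒟 : ∀ ⦃A : Type⦄ [CommRing A] [IsLocalRing A] [Algebra 𝒪 A], GaloisRepAdic A → Prop}

theorem exists_univTower (h𝒟 : GaloisRep.IsDeformationCondition 𝒪 𝒟)
    (hbar : 𝒟 (GaloisRepAdic.ofResidualGaloisRep ρbar))
    (hfin : GaloisRep.TangentFinite 𝒪 ρbar 𝒟) (N : NormData 𝒪 ρbar) :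
    Nonempty (UnivTower 𝒪 𝒟 N) := by
  choose P hP using exists_maxPair h𝒟 hbar hfin N
  have hlev' : ∀ j, maximalIdeal (P j).A ^ (j + 1 + 1) = ⊥ := by
    intro j
    have h : maximalIdeal (P j).A ^ (j + 1) = ⊥ := (hP j).1
    rw [pow_succ, h, Ideal.bot_mul]
  have hu : ∀ j, ∃ u : (P (j + 1)).A →ₐ[𝒪] (P j).A,
      ∀ σ, ((P (j + 1)).r σ).map u = (P j).r σ := fun j =>
    (P (j + 1)).exists_map h𝒟 (j + 1) (hP (j + 1)).2 (hP (j + 1)).1 (P j).res_surj (hlev' j)
      (P j).r (P j).norm (P j).type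
  choose u hu using hu
  exact ⟨{
    D := fun j => (P j).A
    res_surj := fun j => (P j).res_surj
    lev := fun j => (hP j).1
    u := u
    u_surj := fun j => (P j).surjective_of_map (u j) _ (hu j)
    ker_u := fun j => NPair.ker_eq_of_max h𝒟 (P j) (P (j + 1)) j (hP j).1 (hP j).2 (u j) (hu j)
    s := fun j => (P j).r
    s_compat := hu
    s_norm := fun j => (P j).norm
    s_type := fun j => (P j).type
    s_gen := fun j => (P j).gen
    exists_map := fun j A _ _ _ _ hA hlev r hr hD => by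
      haveI := finite_of_isArtinianTestAlgebra hA
      exact (P j).exists_map h𝒟 j (hP j).2 (hP j).1 hA.residue_surjective hlev r hr hD }⟩

end Fermat.Agent.S53

end
-- ==== END Fermat.Agent.S53.ExistsTower

-- ==== BEGIN Fermat.Agent.S54
section

set_option autoImplicit false
open GaloisRep GaloisRep.DeformationRingData

namespace Fermat.Agent.S54

theorem frobExists : FrobExists := fun ℓ hℓ =>
  Fermat.Agent.Lib.FrobExists.exists_place_and_frobenius ℓ hℓ

theorem result {𝒪 : Type} [CommRing 𝒪] [IsDomain 𝒪] [IsDiscreteValuationRing 𝒪] [IsAdicComplete (IsLocalRing.maximalIdeal 𝒪) 𝒪] {ρbar : ResidualGaloisRep (IsLocalRing.ResidueField 𝒪)} {𝒟 : ∀ ⦃A : Type⦄ [CommRing A] [IsLocalRing A] [Algebra 𝒪 A], GaloisRepAdic A → Prop} (D : GaloisRep.DeformationRingData 𝒪 ρbar 𝒟) {N : ℕ} [NeZero N] {S : Set ℕ} {θ : CuspForm.heckeAlgebra N 2 S →+* IsLocalRing.ResidueField 𝒪} {T : Type} [CommRing T] [IsLocalRing T] [IsNoetherianRing T] [IsAdicComplete (IsLocalRing.maximalIdeal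 T) T] [Algebra 𝒪 T] [IsLocalHom (algebraMap 𝒪 T)] [Module.Finite 𝒪 T] [Module.Free 𝒪 T] (H : CuspForm.HeckeGaloisRepDatum N S 𝒪 θ T) (hS : ∀ q : ℕ, q.Prime → q ∣ N → q ∈ S) (h𝒟 : 𝒟 H.ρ) (hres : H.ρ.residual.IsEquiv (ρbar.baseChangeAlong (IsLocalRing.ResidueField.map (algebraMap 𝒪 T)))) : ∃ φ : D.R →ₐ[𝒪] T, Function.Surjective φ ∧ ∃ hφ : IsLocalHom (φ : D.R →+* T), (D.ρ.baseChangeAlong (φ : D.R →+* T) hφ).IsEquiv H.ρ := by
  exact surjective_of_frobExists frobExists D H hS h𝒟 hres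

end Fermat.Agent.S54

end
-- ==== END Fermat.Agent.S54

-- ==== BEGIN Fermat.Agent.S57
section

set_option autoImplicit false
open Algebra Algebra.PatchingLevel

namespace Fermat.Agent.S57

theorem result
    {𝒪 : Type} [CommRing 𝒪] [IsDomain 𝒪] [IsDiscreteValuationRing 𝒪]
    {r : ℕ} {R : Type} [CommRing R] [Algebra 𝒪 R]
    {M : Type} [AddCommGroup M] [Module R M] [Nontrivial M]
    (L : Algebra.PatchingLevel 𝒪 r R M ⊥) :
    Module.Free R M ∧ Module.annihilator R M = ⊥ ∧
      RingHom.ker L.ψ = Ideal.span (Set.range fun i : Fin r => L.φ (MvPowerSeries.X i)) := by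
  classical
  obtain ⟨ϖ, hϖ⟩ := IsDiscreteValuationRing.exists_irreducible 𝒪
  have hmax : IsLocalRing.maximalIdeal 𝒪 = Ideal.span {ϖ} := hϖ.maximalIdeal_eq
  have hϖ0 : ϖ ≠ 0 := hϖ.ne_zero
  -- the regular sequence on the power series ring, transported to `N` along `φ`
  have hx : RingTheory.Sequence.IsWeaklyRegular (MvPowerSeries (Fin r) 𝒪) (H90.xList 𝒪 r ϖ) :=
    H90.isWeaklyRegular_xList hϖ0
  have hy : RingTheory.Sequence.IsWeaklyRegular L.N ((H90.xList 𝒪 r ϖ).map L.φ) :=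
    H93.isWeaklyRegular_map_phi L hx
  have hymem : ∀ a ∈ (H90.xList 𝒪 r ϖ).map L.φ,
      a ∈ IsLocalRing.maximalIdeal (MvPowerSeries (Fin r) 𝒪) := by
    intro a ha
    obtain ⟨b, hb, rfl⟩ := List.mem_map.mp ha
    exact H93.algHom_mem_maximalIdeal L.φ (H90.mem_maximalIdeal_of_mem_xList hmax b hb)
  have hfin : Module.Finite (MvPowerSeries (Fin r) 𝒪) L.N := H93.finite_N L
  -- generators of the maximal ideal
  have hS : Ideal.span (((H90.xList 𝒪 r ϖ).toFinset : Finset (MvPowerSeries (Fin r) 𝒪)) : Set _) =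
      IsLocalRing.maximalIdeal (MvPowerSeries (Fin r) 𝒪) := by
    rw [← H90.ofList_xList_eq_maximalIdeal hmax]
    congr 1
    ext a
    simp
  have hcard : (H90.xList 𝒪 r ϖ).toFinset.card ≤ ((H90.xList 𝒪 r ϖ).map L.φ).length := by
    rw [List.length_map]
    exact List.toFinset_card_le _
  have hfree : Module.Free (MvPowerSeries (Fin r) 𝒪) L.N :=
    H51.free_of_isWeaklyRegular _ hS _ hymem hy hcard
  exact H93.result_of_free L hfree

end Fermat.Agent.S57

end
-- ==== END Fermat.Agent.S57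

-- ==== BEGIN Fermat.Agent.S59.Asm.H57_UnrCond
section

/-!
# S59, package ASM, leaf UNRCOND (helper57)

For Taylor–Wiles primes `q_j ≡ 1 mod p^(n+1)` (`p` odd) and a subgroup `H` of `(ℤ/c)ˣ`,
`c = ∏ q_j`, containing all `p^n`-th powers, every elliptic and every parabolic element of
`Γ₀(M)` (`c ∣ M`) has its upper left entry in `± H`.

* `pow_eq_lin` : `γ ^ (k+1) = x γ - y` with `|y| < |x|` for `γ ∈ SL₂(ℤ)` of trace `|t| ≥ 2`.
* `trace_of_finOrder` : an element of finite order of `SL₂(ℤ)` has trace `t` with `t² = 4`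
  or `|t| ≤ 1`.
* `exists_root_field` : in `𝔽_q`, `p^(n+1) ∣ q - 1`, every `v` with `v^12 = 1` is a `p^n`-th power.
* `stmt_UNRCOND : Stmt_UNRCOND`.
-/

set_option autoImplicit false

open Matrix
open scoped MatrixGroups

namespace Fermat.Agent.S59.Asm.H57

section SL2

theorem fin_two_cases (i : Fin 2) : i = 0 ∨ i = 1 := by
  fin_cases i
  · exact Or.inl rfl
  · exact Or.inr rfl

/-- Powers of a matrix of determinant one and trace `|t| ≥ 2` are `x A - y` with `|y| < |x|`
(entrywise form). -/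
theorem pow_eq_lin (A : Matrix (Fin 2) (Fin 2) ℤ) (hdet : A.det = 1)
    (ht : 2 ≤ |A 0 0 + A 1 1|) (k : ℕ) :
    ∃ x y : ℤ, (∀ i j, (A ^ (k + 1)) i j = x * A i j - y * (1 : Matrix (Fin 2) (Fin 2) ℤ) i j) ∧
      |y| < |x| := by
  rw [Matrix.det_fin_two] at hdet
  induction k with
  | zero =>
    refine ⟨1, 0, fun i j => ?_, by norm_num⟩
    rw [zero_add, pow_one, one_mul, zero_mul, sub_zero]
  | succ k ih =>
    obtain ⟨x, y, hxy, hlt⟩ := ih
    set t : ℤ := A 0 0 + A 1 1 with htdef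
    refine ⟨t * x - y, x, fun i j => ?_, ?_⟩
    · rw [pow_succ, Matrix.mul_apply, Fin.sum_univ_two, hxy i 0, hxy i 1, htdef]
      have h01 : (1 : Matrix (Fin 2) (Fin 2) ℤ) 0 1 = 0 := Matrix.one_apply_ne (by decide)
      have h10 : (1 : Matrix (Fin 2) (Fin 2) ℤ) 1 0 = 0 := Matrix.one_apply_ne (by decide)
      have h00 : (1 : Matrix (Fin 2) (Fin 2) ℤ) 0 0 = 1 := Matrix.one_apply_eq 0
      have h11 : (1 : Matrix (Fin 2) (Fin 2) ℤ) 1 1 = 1 := Matrix.one_apply_eq 1
      rcases fin_two_cases i with rfl | rfl <;> rcases fin_two_cases j with rfl | rfl <;>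
        simp only [h00, h01, h10, h11] <;>
        first | ring1 | linear_combination (-x) * hdet
    · have h1 : |t * x| = |t| * |x| := abs_mul t x
      have h2 : |t * x| - |y| ≤ |t * x - y| := abs_sub_abs_le_abs_sub _ _
      have h3 : 0 ≤ |x| := abs_nonneg x
      nlinarith

/-- An element of finite order of `SL₂(ℤ)` has trace `t` with `t² = 4` or `|t| ≤ 1`. -/
theorem trace_of_finOrder (γ : SL(2, ℤ)) (h : IsOfFinOrder γ) :
    ((γ : Matrix (Fin 2) (Fin 2) ℤ) 0 0 + (γ : Matrix (Fin 2) (Fin 2) ℤ) 1 1) ^ 2 = 4 ∨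
      |(γ : Matrix (Fin 2) (Fin 2) ℤ) 0 0 + (γ : Matrix (Fin 2) (Fin 2) ℤ) 1 1| ≤ 1 := by
  set A : Matrix (Fin 2) (Fin 2) ℤ := (γ : Matrix (Fin 2) (Fin 2) ℤ) with hA
  have hdet : A.det = 1 := γ.2
  by_cases ht : 2 ≤ |A 0 0 + A 1 1|
  · left
    obtain ⟨k, hk, hγ⟩ := (isOfFinOrder_iff_pow_eq_one).mp h
    obtain ⟨k, rfl⟩ : ∃ k', k = k' + 1 := ⟨k - 1, by omega⟩
    have hAk : A ^ (k + 1) = 1 := by
      have := congrArg (fun g : SL(2, ℤ) => (g : Matrix (Fin 2) (Fin 2) ℤ)) hγ
      simpa using this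
    obtain ⟨x, y, hxy, hlt⟩ := pow_eq_lin A hdet ht k
    rw [hAk] at hxy
    have hx : x ≠ 0 := by
      rintro rfl
      rw [abs_zero] at hlt
      exact absurd hlt (not_lt.mpr (abs_nonneg y))
    have e01 := hxy 0 1
    have e00 := hxy 0 0
    have e11 := hxy 1 1
    rw [Matrix.one_apply_ne (by decide), mul_zero, sub_zero] at e01
    rw [Matrix.one_apply_eq, mul_one] at e00 e11
    have hb : A 0 1 = 0 := by
      rcases mul_eq_zero.mp e01.symm with h0 | h0
      · exact absurd h0 hx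
      · exact h0
    have had : A 0 0 = A 1 1 := by
      have : x * A 0 0 = x * A 1 1 := by linarith
      exact mul_left_cancel₀ hx this
    rw [Matrix.det_fin_two, hb, zero_mul, sub_zero, ← had] at hdet
    rw [← had]
    nlinarith
  · right
    omega

end SL2

section Field

/-- In `𝔽_q` with `p^(n+1) ∣ q - 1`, `p` odd: every `v` with `v^12 = 1` is a `p^n`-th power. -/
theorem exists_root_field {p n q : ℕ} (hp : p.Prime) (hp2 : p ≠ 2) (hq : q.Prime)
    (hdvd : p ^ (n + 1) ∣ q - 1) (v : ZMod q) (hv : v ^ 12 = 1) :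
    ∃ y : ZMod q, y ^ (p ^ n) = v := by
  have : Fact q.Prime := ⟨hq⟩
  have hv0 : v ≠ 0 := by
    rintro rfl
    rw [zero_pow (by norm_num)] at hv
    exact zero_ne_one hv
  set v' : (ZMod q)ˣ := Units.mk0 v hv0 with hv'
  have hv'12 : v' ^ 12 = 1 := by
    apply Units.ext
    rw [Units.val_pow_eq_pow_val, Units.val_one]
    exact hv
  obtain ⟨g, hg⟩ := IsCyclic.exists_generator (α := (ZMod q)ˣ)
  have hord : orderOf g = q - 1 := by
    rw [orderOf_eq_card_of_forall_mem_zpowers hg, Nat.card_eq_fintype_card, ZMod.card_units]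
  obtain ⟨i, hi⟩ : ∃ i : ℕ, g ^ i = v' := by
    have := hg v'
    rw [← mem_powers_iff_mem_zpowers] at this
    exact this
  have h12 : q - 1 ∣ 12 * i := by
    rw [← hord]
    apply orderOf_dvd_of_pow_eq_one
    rw [mul_comm, pow_mul, hi, hv'12]
  have h1 : p ^ (n + 1) ∣ 12 * i := hdvd.trans h12
  have hpn : p ^ n ∣ i := by
    have hcop4 : Nat.Coprime (p ^ (n + 1)) 4 := by
      apply Nat.Coprime.pow_left
      have : Nat.Coprime p 2 := (Nat.coprime_primes hp Nat.prime_two).mpr hp2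
      exact Nat.Coprime.pow_right 2 this
    have h2 : p ^ (n + 1) ∣ 3 * i := by
      have : p ^ (n + 1) ∣ 4 * (3 * i) := by
        have e : 4 * (3 * i) = 12 * i := by ring
        rw [e]; exact h1
      exact hcop4.dvd_of_dvd_mul_left this
    by_cases h3 : p = 3
    · subst h3
      rw [pow_succ, mul_comm] at h2
      exact Nat.dvd_of_mul_dvd_mul_left (by norm_num) h2
    · have hcop3 : Nat.Coprime (p ^ (n + 1)) 3 := by
        apply Nat.Coprime.pow_left
        exact (Nat.coprime_primes hp Nat.prime_three).mpr h3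
      exact (Dvd.intro _ (pow_succ p n).symm).trans (hcop3.dvd_of_dvd_mul_left h2)
  obtain ⟨i', rfl⟩ := hpn
  refine ⟨((g ^ i' : (ZMod q)ˣ) : ZMod q), ?_⟩
  rw [← Units.val_pow_eq_pow_val, ← pow_mul, mul_comm i', hi]
  rfl

/-- A root of `X² - tX + 1`, `|t| ≤ 1`, is a twelfth root of unity. -/
theorem pow_twelve_eq_one {R : Type*} [CommRing R] (v : R) (t : ℤ) (ht : |t| ≤ 1)
    (h : v ^ 2 - (t : R) * v + 1 = 0) : v ^ 12 = 1 := by
  have ht' : t = -1 ∨ t = 0 ∨ t = 1 := by
    rw [abs_le] at ht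
    omega
  rcases ht' with rfl | rfl | rfl
  · have h2 : v ^ 2 = -v - 1 := by
      have : v ^ 2 - ((-1 : ℤ) : R) * v + 1 = 0 := h
      push_cast at this
      linear_combination this
    have h3 : v ^ 3 = 1 := by
      have : v ^ 3 = v * v ^ 2 := by ring
      rw [this, h2]
      linear_combination (-1 : R) * h2
    calc v ^ 12 = (v ^ 3) ^ 4 := by ring
      _ = 1 := by rw [h3, one_pow]
  · have h2 : v ^ 2 = -1 := by
      have : v ^ 2 - ((0 : ℤ) : R) * v + 1 = 0 := h
      push_cast at this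
      linear_combination this
    calc v ^ 12 = (v ^ 2) ^ 6 := by ring
      _ = 1 := by rw [h2]; norm_num
  · have h2 : v ^ 2 = v - 1 := by
      have : v ^ 2 - ((1 : ℤ) : R) * v + 1 = 0 := h
      push_cast at this
      linear_combination this
    have h3 : v ^ 3 = -1 := by
      have : v ^ 3 = v * v ^ 2 := by ring
      rw [this, h2]
      linear_combination h2
    calc v ^ 12 = (v ^ 3) ^ 4 := by ring
      _ = 1 := by rw [h3]; norm_num

end Field

/-- **UNRCOND.** -/
theorem stmt_UNRCOND : Stmt_UNRCOND := by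
  intro p n hp hp2 r qv hinj hqv M hcM H hH γ hγ
  classical
  set A : Matrix (Fin 2) (Fin 2) ℤ := (((γ : SL(2, ℤ)) : Matrix (Fin 2) (Fin 2) ℤ)) with hA
  show ((A 0 0 : ℤ) : ZMod (∏ j, qv j)) ∈ Fermat.Agent.NEB.cosetSet (∏ j, qv j) H 1
  have hdet : A 0 0 * A 1 1 - A 0 1 * A 1 0 = 1 := by
    have h := (γ : SL(2, ℤ)).2
    rwa [Matrix.det_fin_two] at h
  have hM : (M : ℤ) ∣ A 1 0 := by
    have h := γ.2
    rw [CongruenceSubgroup.Gamma0_mem] at h
    exact (ZMod.intCast_zmod_eq_zero_iff_dvd _ _).mp h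
  have hcM' : ((∏ j, qv j : ℕ) : ℤ) ∣ A 1 0 := (Int.natCast_dvd_natCast.mpr hcM).trans hM
  have hqdvd : ∀ j, ((qv j : ℕ) : ℤ) ∣ A 1 0 := fun j =>
    (Int.natCast_dvd_natCast.mpr (Finset.dvd_prod_of_mem qv (Finset.mem_univ j))).trans hcM'
  have hcop : Pairwise (Function.onFun Nat.Coprime qv) := fun i j hij =>
    (Nat.coprime_primes (hqv i).1 (hqv j).1).mpr (fun h => hij (hinj h))
  set e := ZMod.prodEquivPi qv hcop with he
  -- the relations in every residue field
  have hrel : ∀ j, ((A 0 0 : ℤ) : ZMod (qv j)) * ((A 1 1 : ℤ) : ZMod (qv j)) = 1 := by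
    intro j
    have h0 : ((A 1 0 : ℤ) : ZMod (qv j)) = 0 :=
      (ZMod.intCast_zmod_eq_zero_iff_dvd _ _).mpr (hqdvd j)
    have h1 := congrArg (fun z : ℤ => (z : ZMod (qv j))) hdet
    simp only [Int.cast_sub, Int.cast_mul, Int.cast_one, h0, mul_zero, sub_zero] at h1
    exact h1
  have hrelc : ((A 0 0 : ℤ) : ZMod (∏ j, qv j)) * ((A 1 1 : ℤ) : ZMod (∏ j, qv j)) = 1 := by
    have h0 : ((A 1 0 : ℤ) : ZMod (∏ j, qv j)) = 0 :=
      (ZMod.intCast_zmod_eq_zero_iff_dvd _ _).mpr hcM'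
    have h1 := congrArg (fun z : ℤ => (z : ZMod (∏ j, qv j))) hdet
    simp only [Int.cast_sub, Int.cast_mul, Int.cast_one, h0, mul_zero, sub_zero] at h1
    exact h1
  have heA : ∀ (z : ℤ) (j : Fin r), e (z : ZMod (∏ j, qv j)) j = (z : ZMod (qv j)) := by
    intro z j
    rw [map_intCast]
    rfl
  -- the trace
  have htr : (A 0 0 + A 1 1) ^ 2 = 4 ∨ |A 0 0 + A 1 1| ≤ 1 := by
    rcases hγ with h | h
    · refine trace_of_finOrder (γ : SL(2, ℤ)) ?_
      obtain ⟨k, hk, hγk⟩ := (isOfFinOrder_iff_pow_eq_one).mp h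
      refine (isOfFinOrder_iff_pow_eq_one).mpr ⟨k, hk, ?_⟩
      have := congrArg Subtype.val hγk
      simpa using this
    · exact Or.inl h
  rcases htr with h4 | h1
  · -- parabolic or central: `a ≡ ±1`
    have hs : A 0 0 + A 1 1 = 2 ∨ A 0 0 + A 1 1 = -2 := by
      have : (A 0 0 + A 1 1 - 2) * (A 0 0 + A 1 1 + 2) = 0 := by linear_combination h4
      rcases mul_eq_zero.mp this with h | h
      · left; linarith
      · right; linarith
    have key : ∀ s : ℤ, s ^ 2 = 1 → A 0 0 + A 1 1 = 2 * s →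
        ((A 0 0 : ℤ) : ZMod (∏ j, qv j)) = ((s : ℤ) : ZMod (∏ j, qv j)) := by
      intro s hs2 hsum
      apply e.injective
      funext j
      rw [heA, heA]
      have : Fact (qv j).Prime := ⟨(hqv j).1⟩
      have hsum' : ((A 0 0 : ℤ) : ZMod (qv j)) + ((A 1 1 : ℤ) : ZMod (qv j))
          = 2 * ((s : ℤ) : ZMod (qv j)) := by
        have := congrArg (fun z : ℤ => (z : ZMod (qv j))) hsum
        simpa using this
      have hs2' : ((s : ℤ) : ZMod (qv j)) ^ 2 = 1 := by
        have := congrArg (fun z : ℤ => (z : ZMod (qv j))) hs2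
        simpa using this
      have hsq : (((A 0 0 : ℤ) : ZMod (qv j)) - ((s : ℤ) : ZMod (qv j))) ^ 2 = 0 := by
        linear_combination (-1 : ZMod (qv j)) * hrel j
          + ((A 0 0 : ℤ) : ZMod (qv j)) * hsum' + hs2'
      exact sub_eq_zero.mp (pow_eq_zero_iff (two_ne_zero)|>.mp hsq)
    rcases hs with h | h
    · have h1 := key 1 (by norm_num) (by rw [h]; norm_num)
      refine ⟨1, H.one_mem, Or.inl ?_⟩
      rw [h1, mul_one, Units.val_one, Int.cast_one]
    · have h1 := key (-1) (by norm_num) (by rw [h]; norm_num)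
      refine ⟨1, H.one_mem, Or.inr ?_⟩
      rw [h1, mul_one, Units.val_one, Int.cast_neg, Int.cast_one]
  · -- elliptic: `a ^ 12 ≡ 1`
    have hroot : ∀ j, ∃ y : ZMod (qv j), y ^ (p ^ n) = ((A 0 0 : ℤ) : ZMod (qv j)) := by
      intro j
      refine exists_root_field hp hp2 (hqv j).1 (hqv j).2 _ ?_
      refine pow_twelve_eq_one _ (A 0 0 + A 1 1) h1 ?_
      push_cast
      linear_combination (-1 : ZMod (qv j)) * hrel j
    choose y hy using hroot
    set Y : ZMod (∏ j, qv j) := e.symm y with hY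
    have hYpow : Y ^ (p ^ n) = ((A 0 0 : ℤ) : ZMod (∏ j, qv j)) := by
      apply e.injective
      rw [map_pow, hY, e.apply_symm_apply]
      funext j
      rw [Pi.pow_apply, hy j, heA]
    have hunitA : IsUnit ((A 0 0 : ℤ) : ZMod (∏ j, qv j)) :=
      IsUnit.of_mul_eq_one _ hrelc
    have hunitY : IsUnit Y := by
      rw [← hYpow] at hunitA
      exact (isUnit_pow_iff (pow_ne_zero n hp.ne_zero)).mp hunitA
    obtain ⟨u, hu⟩ := hunitY
    refine ⟨u ^ (p ^ n), hH u, Or.inl ?_⟩
    rw [one_mul, Units.val_pow_eq_pow_val, hu, hYpow]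

end Fermat.Agent.S59.Asm.H57

end
-- ==== END Fermat.Agent.S59.Asm.H57_UnrCond

-- ==== BEGIN Fermat.Agent.S59.Asm.H77_BridgeC
section

/-!
# S59, package ASM, leaf BRIDGE (helper77), part C: an endomorphism killing `Vα` vanishes

`V` a module over `𝒪` and `T` (`𝒪 → T` local), finite over `𝒪`, with a `T`-linear action of the
Galois group satisfying the Cayley–Hamilton relations of a residually absolutely irreducible `ρ`;
`V = Vα ⊕ Vβ` over `𝒪`; `E` a `T`-linear endomorphism commuting with the Galois action and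
killing `Vα`; `gal φ - c` nilpotent on `Vβ` modulo `𝔪_𝒪` where `ρ φ` has the eigenvalue `x` on
`b 0` and `x - c` is a unit.  Then `E = 0`.
-/

set_option autoImplicit false

open IsLocalRing
open scoped TensorProduct

namespace Fermat.Agent.S59.Asm.H77

/-- The absolute Galois group of `ℚ`. -/
local notation "GQ" => AlgebraicClosure ℚ ≃ₐ[ℚ] AlgebraicClosure ℚ

variable {𝒪 T : Type} [CommRing 𝒪] [IsLocalRing 𝒪] [IsNoetherianRing 𝒪]
  [CommRing T] [IsLocalRing T] [Algebra 𝒪 T] [IsLocalHom (algebraMap 𝒪 T)]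

theorem step2 (h2 : (2 : ResidueField T) ≠ 0)
    (ρ : GaloisRepAdic T) (hirr : ρ.residual.IsAbsolutelyIrreducible)
    (V : Type) [AddCommGroup V] [Module 𝒪 V] [Module T V] [IsScalarTower 𝒪 T V]
    [Module.Finite 𝒪 V]
    (gal : GQ →* Module.End T V)
    (hCH : ∀ g, gal g * gal g - ρ.trace g • gal g
      + LinearMap.det (ρ.ρ g) • (1 : Module.End T V) = 0)
    (b : Module.Basis (Fin 2) T ρ.V) (φ : GQ) (x c : T) (hx : ρ.ρ φ (b 0) = x • b 0)
    (hxc : IsUnit (x - c))
    (E : Module.End T V) (hE : ∀ g, Commute E (gal g))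
    (Vα Vβ : Submodule 𝒪 V) (hc : Vα ⊔ Vβ = ⊤) (hEα : ∀ v ∈ Vα, E v = 0) (m : ℕ)
    (hnil : ∀ v ∈ Vβ, ((gal φ - c • (1 : Module.End T V)) ^ m) v ∈
      (maximalIdeal 𝒪 • ⊤ : Submodule 𝒪 V)) :
    E = 0 := by
  have hnoe : IsNoetherian T V := isNoetherian_of_tower 𝒪 inferInstance
  -- the module `W = E V`
  let W : Submodule T V := LinearMap.range E
  let E' : V →ₗ[T] W := E.rangeRestrict
  have hE' : ∀ v, (E' v : V) = E v := fun v => rfl
  have hWstab : ∀ (g : GQ), ∀ w ∈ W, gal g w ∈ W := by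
    rintro g _ ⟨v, rfl⟩
    refine ⟨gal g v, ?_⟩
    have := congrArg (fun F : Module.End T V => F v) (hE g).eq
    exact this
  let πW : GQ →* Module.End T W :=
    { toFun := fun g => (gal g).restrict (hWstab g)
      map_one' := by
        ext w
        simp
      map_mul' := fun g h => by
        ext w
        simp [map_mul] }
  have hπW : ∀ g (w : W), ((πW g w : W) : V) = gal g (w : V) := fun g w => rfl
  have hCHW : ∀ g, πW g * πW g - ρ.trace g • πW g
      + LinearMap.det (ρ.ρ g) • (1 : Module.End T W) = 0 := by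
    intro g
    ext w
    have := congrArg (fun F : Module.End T V => F (w : V)) (hCH g)
    simp only [LinearMap.add_apply, LinearMap.sub_apply, Module.End.mul_apply,
      LinearMap.smul_apply, Module.End.one_apply, LinearMap.zero_apply] at this
    simp only [LinearMap.add_apply, LinearMap.sub_apply, Module.End.mul_apply,
      LinearMap.smul_apply, Module.End.one_apply, LinearMap.zero_apply, Submodule.coe_add,
      Submodule.coe_sub, Submodule.coe_smul, Submodule.coe_zero, hπW]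
    exact this
  have hpowW : ∀ (j : ℕ) (w : W), ((((πW φ - c • (1 : Module.End T W)) ^ j) w : W) : V)
      = ((gal φ - c • (1 : Module.End T V)) ^ j) (w : V) := by
    intro j
    induction j with
    | zero => intro w; simp
    | succ j ih =>
      intro w
      rw [pow_succ, Module.End.mul_apply, ih, pow_succ, Module.End.mul_apply]
      congr 1
  have hcomm : ∀ (j : ℕ) (v : V), ((gal φ - c • (1 : Module.End T V)) ^ j) (E v)
      = E (((gal φ - c • (1 : Module.End T V)) ^ j) v) := by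
    intro j v
    have h1 : Commute E (gal φ - c • (1 : Module.End T V)) :=
      (hE φ).sub_right ((Commute.one_right E).smul_right c)
    have h2 := congrArg (fun F : Module.End T V => F v) (h1.pow_right j).eq
    exact h2.symm
  have hmapm : ∀ y ∈ (maximalIdeal 𝒪 • ⊤ : Submodule 𝒪 V),
      E' y ∈ (maximalIdeal T • ⊤ : Submodule T W) := by
    intro y hy
    refine Submodule.smul_induction_on hy ?_ ?_
    · intro a ha z _
      have h1 : a • z = (algebraMap 𝒪 T a) • z := (algebraMap_smul T a z).symm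
      rw [h1, map_smul]
      refine Submodule.smul_mem_smul ?_ Submodule.mem_top
      exact map_nonunit (algebraMap 𝒪 T) a ha
    · intro y z hy hz
      rw [map_add]
      exact Submodule.add_mem _ hy hz
  have hnilW : ∀ w : W, ((πW φ - c • (1 : Module.End T W)) ^ m) w ∈
      (maximalIdeal T • ⊤ : Submodule T W) := by
    rintro ⟨_, v, rfl⟩
    have hv : v ∈ Vα ⊔ Vβ := by rw [hc]; exact Submodule.mem_top
    obtain ⟨vα, hvα, vβ, hvβ, rfl⟩ := Submodule.mem_sup.1 hv
    have h1 : E (vα + vβ) = E vβ := by rw [map_add, hEα vα hvα, zero_add]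
    have h2 : ((πW φ - c • (1 : Module.End T W)) ^ m) ⟨E (vα + vβ), ⟨vα + vβ, rfl⟩⟩
        = E' (((gal φ - c • (1 : Module.End T V)) ^ m) vβ) := by
      apply Subtype.ext
      rw [hpowW, hE', ← hcomm]
      show ((gal φ - c • (1 : Module.End T V)) ^ m) (E (vα + vβ)) = _
      rw [h1]
    rw [h2]
    exact hmapm _ (hnil vβ hvβ)
  have hsub := subsingleton_of_CH h2 ρ hirr W πW hCHW b φ x c hx hxc m hnilW
  ext v
  have h3 : E' v = 0 := Subsingleton.elim _ _
  have h4 := congrArg (Subtype.val) h3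
  rw [hE'] at h4
  exact h4

end Fermat.Agent.S59.Asm.H77

end
-- ==== END Fermat.Agent.S59.Asm.H77_BridgeC

-- ==== BEGIN Fermat.Agent.S59.Asm.H85_LocLift
section

set_option autoImplicit false
set_option linter.unusedSectionVars false
set_option linter.style.haveILetI false

/-!
# S59, package ASM (helper85): lifting ring homomorphisms to the local Hecke ring

`T = heckeLocal N S 𝒪 θ` is a quotient of `𝒪 ⊗ 𝕋` (`Datum.H85.toLocal_surjective`), the kernel
being killed by elements outside the maximal ideal `ker (residualCharacter)`.  Hence a ring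
homomorphism `g : 𝒪 ⊗ 𝕋 → C` (`C` any ring) which sends the elements outside the maximal ideal
to units factors through `T` (`exists_lift`).
-/

noncomputable section

open scoped TensorProduct
open IsLocalRing CuspForm

namespace Fermat.Agent.S59.Asm.H85

open Fermat.Agent.S59.Datum.H85

set_option synthInstance.maxHeartbeats 400000
set_option maxHeartbeats 1000000

variable (𝒪 : Type) [CommRing 𝒪] [IsDomain 𝒪] [IsDiscreteValuationRing 𝒪]
  [IsAdicComplete (maximalIdeal 𝒪) 𝒪]
  (N : ℕ) [NeZero N] [Fact (CuspForm.HasIntegralStructure N 2)] (S : Set ℕ)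
  (θ : CuspForm.heckeAlgebra N 2 S →+* ResidueField 𝒪)

/-- The kernel of `𝒪 ⊗ 𝕋 → T` is killed by elements outside the maximal ideal. -/
theorem exists_mul_eq_zero_of_toLocal_eq_zero {x : 𝒪 ⊗[ℤ] ↥(heckeAlgebra N 2 S)}
    (hx : toLocal 𝒪 N S θ x = 0) :
    ∃ s : 𝒪 ⊗[ℤ] ↥(heckeAlgebra N 2 S), residualCharacter N S 𝒪 θ s ≠ 0 ∧ s * x = 0 := by
  unfold toLocal at hx
  rw [RingHom.comp_apply,
    IsLocalization.map_eq_zero_iff (heckeLocalSubmonoid N S 𝒪 θ) (heckeLocal N S 𝒪 θ)] at hx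
  obtain ⟨⟨m, s, hs, rfl⟩, hm⟩ := hx
  refine ⟨s, fun h => (Ideal.mem_primeCompl_iff.mp hs)
    ((mem_heckeCharKernel_iff N S 𝒪 θ s).mpr h), ?_⟩
  apply latticeBaseChange_injective N S 𝒪 Fact.out
  rw [map_mul, map_zero]
  exact hm

/-- **Lifting to the local Hecke ring.** -/
theorem exists_lift {C : Type*} [Ring C] (g : (𝒪 ⊗[ℤ] ↥(heckeAlgebra N 2 S)) →+* C)
    (hg : ∀ s, residualCharacter N S 𝒪 θ s ≠ 0 → IsUnit (g s)) :
    ∃ ghat : heckeLocal N S 𝒪 θ →+* C, ∀ x, ghat (toLocal 𝒪 N S θ x) = g x := by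
  have hker : RingHom.ker (toLocal 𝒪 N S θ) ≤ RingHom.ker g := by
    intro x hx
    rw [RingHom.mem_ker] at hx ⊢
    obtain ⟨s, hs, hsx⟩ := exists_mul_eq_zero_of_toLocal_eq_zero 𝒪 N S θ hx
    have h1 : g s * g x = 0 := by rw [← map_mul, hsx, map_zero]
    exact (hg s hs).mul_right_eq_zero.mp h1
  refine ⟨RingHom.liftOfSurjective (toLocal 𝒪 N S θ) (toLocal_surjective 𝒪 N S θ) ⟨g, hker⟩,
    fun x => ?_⟩
  exact RingHom.liftOfRightInverse_comp_apply _ _ _ ⟨g, hker⟩ x

/-- Elements outside the maximal ideal become units in `T`. -/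
theorem isUnit_toLocal {s : 𝒪 ⊗[ℤ] ↥(heckeAlgebra N 2 S)}
    (hs : residualCharacter N S 𝒪 θ s ≠ 0) : IsUnit (toLocal 𝒪 N S θ s) := by
  unfold toLocal
  rw [RingHom.comp_apply]
  exact IsLocalization.map_units (heckeLocal N S 𝒪 θ)
    (⟨latticeBaseChange N S 𝒪 s, s, Ideal.mem_primeCompl_iff.mpr fun h =>
      hs ((mem_heckeCharKernel_iff N S 𝒪 θ s).mp h), rfl⟩ : heckeLocalSubmonoid N S 𝒪 θ)

end Fermat.Agent.S59.Asm.H85

end

end
-- ==== END Fermat.Agent.S59.Asm.H85_LocLift

-- ==== BEGIN Fermat.Agent.S59.Datum.Defs3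
section

set_option autoImplicit false

open Polynomial IsLocalRing CuspForm

namespace Fermat.Agent.S59.Datum

/-- **FLATDESC**: flatness passes to the residual representation and descends along an extension
of the (finite) residue field.
[`ρ.IsFlatAt p` at `I = 𝔪_A` (`A ⧸ 𝔪` is finite): `V ⧸ 𝔪 V` is a flat Galois module
(`R.isFlatAt_iff`, `R.IsFlatGaloisModule`).  `V ⧸ 𝔪 V ≃ k_A ⊗ V = ρ.residual.V ≃ k_A ⊗[k] ρbar.V`
(the given equivalence), and `ρbar.V → k_A ⊗[k] ρbar.V`, `v ↦ 1 ⊗ v`, is injective (field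
extension) and equivariant: `R.H54.stmt_FlatSub` gives flatness of the Galois module `ρbar.V`.
Finally `(ofResidualGaloisRep ρbar).IsFlatAt p`: for every ideal `I` of `k` the quotient
`V ⧸ I V` is a Galois-equivariant quotient of `V`: `R.H54.stmt_FlatQuot`
(cf. `S59.H99.isFlatAt_of_isEquiv`, `isFlatGaloisModule_of_le` in S59/H99_DefFl.lean).] -/
def Stmt_FlatDesc : Prop :=
  ∀ (p : ℕ), p.Prime →
    ∀ (k : Type) [Field k] [Finite k] (ρbar : ResidualGaloisRep k)
      (A : Type) [CommRing A] [IsLocalRing A] [Finite (ResidueField A)]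
      (φ : k →+* ResidueField A) (ρ : GaloisRepAdic A),
      ρ.residual.IsEquiv (ρbar.baseChangeAlong φ) → ρ.IsFlatAt p →
      (GaloisRepAdic.ofResidualGaloisRep ρbar).IsFlatAt p

end Fermat.Agent.S59.Datum

end
-- ==== END Fermat.Agent.S59.Datum.Defs3

-- ==== BEGIN Fermat.Agent.S59.Datum.H41_Odd
section

/-!
# S59 package DATUM, leaf ODD (helper41)

`stmt_Odd : Stmt_Odd`: a complex conjugation `c` (an involution of `ℚ̄` inverting every root of
unity) has `det ρ(c) = -1` for every representation `ρ` with cyclotomic determinant over a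
noetherian local ring.  (`c μ = μ ^ (p^n - 1)` on `μ_{p^n}`, so `det ρ(c) + 1 ∈ (p^n) ⊆ 𝔪^n` for
all `n`; Krull's intersection theorem.)
-/

set_option autoImplicit false

namespace Fermat.Agent.S59.Datum.H41

open Polynomial IsLocalRing Fermat.Agent.S59.Datum

/-- An automorphism inverting the `p`-power roots of unity has determinant `-1` in every
representation with cyclotomic determinant over a noetherian local ring. -/
theorem det_eq_neg_one_of_inv {A : Type} [CommRing A] [IsLocalRing A] [IsNoetherianRing A]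
    (p : ℕ) [Fact p.Prime] (ρ : GaloisRepAdic A) (hρ : ρ.DetIsCyclotomic p)
    (c : AlgebraicClosure ℚ ≃ₐ[ℚ] AlgebraicClosure ℚ)
    (hc : ∀ (z : AlgebraicClosure ℚ) (n : ℕ), 0 < n → z ^ n = 1 → c z = z⁻¹) :
    LinearMap.det (ρ.ρ c) = -1 := by
  have hp : p.Prime := Fact.out
  obtain ⟨hpA, hcyc⟩ := hρ
  have hmem : ∀ n : ℕ, LinearMap.det (ρ.ρ c) + 1 ∈ maximalIdeal A ^ n := by
    intro n
    have hpn : 0 < p ^ n := pow_pos hp.pos n
    have h1 : ∀ μ : AlgebraicClosure ℚ, μ ^ p ^ n = 1 → c μ = μ ^ (p ^ n - 1) := by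
      intro μ hμ
      rw [hc μ (p ^ n) hpn hμ]
      have hμ0 : μ ≠ 0 := by
        rintro rfl
        rw [zero_pow hpn.ne'] at hμ
        exact zero_ne_one hμ
      rw [eq_comm, ← mul_eq_one_iff_eq_inv₀ hμ0, ← pow_succ, Nat.sub_add_cancel hpn, hμ]
    have h2 := hcyc n c (p ^ n - 1) h1
    have h3 : ((p ^ n - 1 : ℕ) : A) = ((p ^ n : ℕ) : A) - 1 := by
      rw [Nat.cast_sub hpn, Nat.cast_one]
    have h4 : LinearMap.det (ρ.ρ c) + 1 ∈ Ideal.span {((p ^ n : ℕ) : A)} := by
      have h5 : LinearMap.det (ρ.ρ c) + 1 =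
          (LinearMap.det (ρ.ρ c) - ((p ^ n - 1 : ℕ) : A)) + ((p ^ n : ℕ) : A) := by
        rw [h3]; ring
      rw [h5]
      exact Ideal.add_mem _ h2 (Ideal.subset_span (Set.mem_singleton _))
    have h6 : Ideal.span {((p ^ n : ℕ) : A)} ≤ maximalIdeal A ^ n := by
      rw [Ideal.span_singleton_le_iff_mem, Nat.cast_pow]
      exact Ideal.pow_mem_pow hpA n
    exact h6 h4
  have hbot : (⨅ n : ℕ, maximalIdeal A ^ n) = ⊥ :=
    Ideal.iInf_pow_eq_bot_of_isLocalRing _ (maximalIdeal.isMaximal A).ne_top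
  have h7 : LinearMap.det (ρ.ρ c) + 1 ∈ (⨅ n : ℕ, maximalIdeal A ^ n) := by
    rw [Ideal.mem_iInf]
    exact hmem
  rw [hbot, Ideal.mem_bot] at h7
  exact eq_neg_of_add_eq_zero_left h7

/-- **ODD**. -/
theorem stmt_Odd : Stmt_Odd := by
  obtain ⟨c, hc2, hc⟩ := Fermat.Agent.S52.H97.exists_complexConj
  exact ⟨c, hc2, fun A _ _ _ p _ ρ hρ => det_eq_neg_one_of_inv p ρ hρ c hc⟩

end Fermat.Agent.S59.Datum.H41

end
-- ==== END Fermat.Agent.S59.Datum.H41_Odd

-- ==== BEGIN Fermat.Agent.S59.Datum.H57_ResEq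
section

/-!
# S59 package DATUM, leaf RESEQ (helper57)

Two residual representations with the same characteristic polynomials at the Frobenius elements
outside a finite set of primes, one of them absolutely irreducible, are equivalent.

* `charpoly_eq_of_frob` : Frobenius density (existence form, `Lib.FrobDensity.stmt_FD`) and the
  Lucas lemma (`R.H91.charpoly_pow_eq_of_charpoly_eq`) give equal characteristic polynomials at
  every element of the Galois group (both representations factor through a finite level).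
* `isEquiv_of_charpoly_eq` : Carayol's theorem over the field `k`
  (`R.H25.exists_conj_of_trace_eq`, `S53.Schur.exists_det_ne_zero`).
* `stmt_ResEq : Stmt_ResEq`.
-/

set_option autoImplicit false

open Polynomial

namespace Fermat.Agent.S59.Datum.H57

open Fermat.Agent.S53.Schur

variable {k : Type} [Field k]

/-- Equal Frobenius characteristic polynomials outside a finite set of primes give equal
characteristic polynomials everywhere. -/
theorem charpoly_eq_of_frob (ρ₁ ρ₂ : ResidualGaloisRep k) (S : Finset ℕ)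
    (h : ∀ ℓ : ℕ, ℓ.Prime → ℓ ∉ S → ∀ B : ValuationSubring (AlgebraicClosure ℚ),
      B.LiesOverPrime ℓ → ∀ σ : GalQ, B.IsFrobeniusAt σ ℓ →
        LinearMap.charpoly (ρ₁.ρ σ) = LinearMap.charpoly (ρ₂.ρ σ))
    (g : GalQ) : LinearMap.charpoly (ρ₁.ρ g) = LinearMap.charpoly (ρ₂.ρ g) := by
  obtain ⟨L₁, hL₁, h₁⟩ := ρ₁.factorsThroughFiniteLevel
  obtain ⟨L₂, hL₂, h₂⟩ := ρ₂.factorsThroughFiniteLevel
  have := hL₁; have := hL₂
  have hL : FiniteDimensional ℚ ↥(L₁ ⊔ L₂) := IntermediateField.finiteDimensional_sup L₁ L₂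
  obtain ⟨ℓ, A, φ, j, hℓ, hℓS, hA, hφ, hj⟩ :=
    Fermat.Agent.Lib.FrobDensity.stmt_FD S (L₁ ⊔ L₂) hL g
  set τ : GalQ := g⁻¹ * φ ^ j with hτdef
  have hτ : ∀ x ∈ L₁ ⊔ L₂, τ x = x := by
    intro x hx
    rw [hτdef, AlgEquiv.mul_apply, hj x hx]
    exact (AlgEquiv.symm_apply_apply g x)
  have hgτ : g * τ = φ ^ j := by rw [hτdef, mul_inv_cancel_left]
  have hτ₁ : ∀ x ∈ L₁, τ x = x := fun x hx => hτ x ((le_sup_left : L₁ ≤ L₁ ⊔ L₂) hx)
  have hτ₂ : ∀ x ∈ L₂, τ x = x := fun x hx => hτ x ((le_sup_right : L₂ ≤ L₁ ⊔ L₂) hx)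
  have e₁ : ρ₁.ρ (φ ^ j) = ρ₁.ρ g := by rw [← hgτ, map_mul, h₁ τ hτ₁, mul_one]
  have e₂ : ρ₂.ρ (φ ^ j) = ρ₂.ρ g := by rw [← hgτ, map_mul, h₂ τ hτ₂, mul_one]
  rw [← e₁, ← e₂, map_pow, map_pow]
  exact Fermat.Agent.R.H91.charpoly_pow_eq_of_charpoly_eq ρ₁.finrank_eq ρ₂.finrank_eq _ _
    (h ℓ hℓ hℓS A hA φ hφ) j

/-- **Carayol's theorem over a field** (dimension 2): two residual representations with the same
characteristic polynomials, the second one absolutely irreducible, are equivalent. -/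
theorem isEquiv_of_charpoly_eq (ρ₁ ρ₂ : ResidualGaloisRep k)
    (hirr : ρ₂.IsAbsolutelyIrreducible)
    (hcp : ∀ σ : GalQ, LinearMap.charpoly (ρ₁.ρ σ) = LinearMap.charpoly (ρ₂.ρ σ)) :
    ρ₁.IsEquiv ρ₂ := by
  classical
  let b₁ : Module.Basis (Fin 2) k ρ₁.V := Module.finBasisOfFinrankEq k ρ₁.V ρ₁.finrank_eq
  let b₂ : Module.Basis (Fin 2) k ρ₂.V := Module.finBasisOfFinrankEq k ρ₂.V ρ₂.finrank_eq
  let M₁ : GalQ →* Matrix (Fin 2) (Fin 2) k :=
    { toFun := fun σ => LinearMap.toMatrix b₁ b₁ (ρ₁.ρ σ)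
      map_one' := by rw [map_one]; exact LinearMap.toMatrix_one b₁
      map_mul' := fun σ τ => by rw [map_mul]; exact LinearMap.toMatrix_mul b₁ _ _ }
  let M₂ : GalQ →* Matrix (Fin 2) (Fin 2) k :=
    { toFun := fun σ => LinearMap.toMatrix b₂ b₂ (ρ₂.ρ σ)
      map_one' := by rw [map_one]; exact LinearMap.toMatrix_one b₂
      map_mul' := fun σ τ => by rw [map_mul]; exact LinearMap.toMatrix_mul b₂ _ _ }
  obtain ⟨g, hg⟩ := exists_det_ne_zero ρ₂ hirr b₂
  have hg' : IsUnit (flat fun p => M₂ (g p)).det := isUnit_iff_ne_zero.mpr hg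
  have htr : ∀ σ, (M₂ σ).trace = (M₁ σ).trace := by
    intro σ
    have h1 : (M₁ σ).charpoly = (M₂ σ).charpoly := by
      show (LinearMap.toMatrix b₁ b₁ (ρ₁.ρ σ)).charpoly
        = (LinearMap.toMatrix b₂ b₂ (ρ₂.ρ σ)).charpoly
      rw [LinearMap.charpoly_toMatrix, LinearMap.charpoly_toMatrix]
      exact hcp σ
    rw [Matrix.trace_eq_neg_charpoly_coeff, Matrix.trace_eq_neg_charpoly_coeff, h1]
  obtain ⟨P, hP, hint⟩ := Fermat.Agent.R.H25.exists_conj_of_trace_eq M₂ M₁ g hg' htr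
  -- `hint σ : M₁ σ * P = P * M₂ σ`, `P` is the matrix of a map `ρ₂.V → ρ₁.V`
  have hdet : IsUnit (LinearMap.toMatrix b₂ b₁ (Matrix.toLin b₂ b₁ P)).det := by
    rw [LinearMap.toMatrix_toLin]
    exact hP
  have hcomp : ∀ σ, (Matrix.toLin b₂ b₁ P) ∘ₗ (ρ₂.ρ σ) = (ρ₁.ρ σ) ∘ₗ (Matrix.toLin b₂ b₁ P) := by
    intro σ
    apply (LinearMap.toMatrix b₂ b₁).injective
    rw [LinearMap.toMatrix_comp b₂ b₂ b₁, LinearMap.toMatrix_comp b₂ b₁ b₁,
      LinearMap.toMatrix_toLin]
    exact (hint σ).symm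
  have e : ResidualGaloisRep.Equiv ρ₂ ρ₁ :=
    ⟨LinearEquiv.ofIsUnitDet hdet, fun σ x => congrArg (fun f => f x) (hcomp σ)⟩
  exact ⟨e.symm⟩

/-- **RESEQ.** -/
theorem stmt_ResEq : Stmt_ResEq := by
  intro k _ ρ₁ ρ₂ S hirr h
  exact isEquiv_of_charpoly_eq ρ₁ ρ₂ hirr (charpoly_eq_of_frob ρ₁ ρ₂ S h)

end Fermat.Agent.S59.Datum.H57

end
-- ==== END Fermat.Agent.S59.Datum.H57_ResEq

-- ==== BEGIN Fermat.Agent.S59.Datum.H7_Trace
section

set_option autoImplicit false
set_option linter.style.haveILetI false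
set_option linter.unusedSectionVars false

open Polynomial IsLocalRing CuspForm

namespace Fermat.Agent.S59.Datum.H7

open Fermat.Agent.R

section Limit

variable {𝒪 : Type} [CommRing 𝒪] {T : Type} [CommRing T] [IsLocalRing T] [Algebra 𝒪 T]
  [IsAdicComplete (maximalIdeal T) T]

/-- `p ^ k` lies in the `k`-th power of the maximal ideal. -/
theorem span_pow_le_maximalIdeal_pow {A : Type*} [CommRing A] [IsLocalRing A] {p : ℕ}
    (hp : (p : A) ∈ maximalIdeal A) (k : ℕ) :
    Ideal.span {((p : A)) ^ k} ≤ maximalIdeal A ^ k := by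
  rw [Ideal.span_le, Set.singleton_subset_iff]
  exact Ideal.pow_mem_pow hp k

/-- A local homomorphism maps the powers of the maximal ideal into the powers of the maximal
ideal. -/
theorem map_mem_maximalIdeal_pow {A B : Type*} [CommRing A] [IsLocalRing A] [CommRing B]
    [IsLocalRing B] (x : A →+* B) [IsLocalHom x] (k : ℕ) {t : A} (ht : t ∈ maximalIdeal A ^ k) :
    x t ∈ maximalIdeal B ^ k := by
  have h1 : (maximalIdeal A ^ k).map x ≤ maximalIdeal B ^ k := by
    rw [Ideal.map_pow]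
    exact Ideal.pow_right_mono (Ideal.map_le_iff_le_comap.mpr fun a ha =>
      Ideal.mem_comap.mpr (map_nonunit x a ha)) k
  exact h1 (Ideal.mem_map_of_mem x ht)

/-- A tuple which is approximated `p`-adically by images of elements of `T` is the image of an
element of `T`. -/
theorem exists_of_approx {p : ℕ} (hpT : (p : T) ∈ maximalIdeal T) {r : ℕ}
    (P : Fin r → PtRep 𝒪 T) (c : ℕ)
    (hsep : ∀ (n : ℕ) (t : T), (∀ i, (P i).x t ∈ Ideal.span {((p : (P i).O)) ^ (n + c)}) →
      t ∈ Ideal.span {((p : T)) ^ n})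
    (y : ∀ i, (P i).O)
    (happ : ∀ k : ℕ, ∃ u : T, ∀ i, (P i).x u - y i ∈ Ideal.span {((p : (P i).O)) ^ k}) :
    ∃ t : T, ∀ i, (P i).x t = y i := by
  classical
  have hpO : ∀ i, (p : (P i).O) ∈ maximalIdeal (P i).O := by
    intro i
    rw [IsLocalRing.mem_maximalIdeal, mem_nonunits_iff]
    intro hu
    have h1 : IsUnit ((P i).x (p : T)) := by rwa [map_natCast]
    haveI := (P i).isLocalHom
    exact (IsLocalRing.mem_maximalIdeal _).1 hpT (isUnit_of_map_unit (P i).x _ h1)
  choose u hu using fun k => happ (k + c)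
  -- the sequence `u` is Cauchy
  have hmono : ∀ {a b : ℕ}, a ≤ b → ∀ i,
      Ideal.span {((p : (P i).O)) ^ b} ≤ Ideal.span {((p : (P i).O)) ^ a} := by
    intro a b hab i
    rw [Ideal.span_singleton_le_span_singleton]
    exact pow_dvd_pow _ hab
  have hcauchy : ∀ {m n : ℕ}, m ≤ n → u m - u n ∈ maximalIdeal T ^ m := by
    intro m n hmn
    apply span_pow_le_maximalIdeal_pow hpT m
    apply hsep m
    intro i
    have h1 := hu m i
    have h2 := hmono (Nat.add_le_add_right hmn c) i (hu n i)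
    have e : (P i).x (u m - u n) = ((P i).x (u m) - y i) - ((P i).x (u n) - y i) := by
      rw [map_sub]; ring
    rw [e]
    exact Ideal.sub_mem _ h1 h2
  have hprec : ∃ t : T, ∀ n, u n - t ∈ maximalIdeal T ^ n := by
    obtain ⟨t, ht⟩ := IsPrecomplete.prec (I := maximalIdeal T) (M := T) inferInstance
      (f := u) (fun {m n} hmn => by
        rw [SModEq.sub_mem, smul_eq_mul, Ideal.mul_top]
        exact hcauchy hmn)
    refine ⟨t, fun n => ?_⟩
    have := ht n
    rwa [SModEq.sub_mem, smul_eq_mul, Ideal.mul_top] at this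
  obtain ⟨t, ht⟩ := hprec
  refine ⟨t, fun i => ?_⟩
  haveI := (P i).isLocalHom
  have hz : ∀ k, (P i).x t - y i ∈ maximalIdeal (P i).O ^ k := by
    intro k
    have h1 : (P i).x (u k - t) ∈ maximalIdeal (P i).O ^ k :=
      map_mem_maximalIdeal_pow (P i).x k (ht k)
    have h2 : (P i).x (u k) - y i ∈ maximalIdeal (P i).O ^ k :=
      span_pow_le_maximalIdeal_pow (hpO i) k (hmono (Nat.le_add_right k c) i (hu k i))
    have e : (P i).x t - y i = ((P i).x (u k) - y i) - (P i).x (u k - t) := by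
      rw [map_sub]; ring
    rw [e]
    exact Ideal.sub_mem _ h2 h1
  have hH : IsHausdorff (maximalIdeal (P i).O) (P i).O := inferInstance
  have := hH.haus' ((P i).x t - y i) (fun k => by
    rw [SModEq.sub_mem, sub_zero, smul_eq_mul, Ideal.mul_top]
    exact hz k)
  exact sub_eq_zero.mp this

end Limit

section Trace

variable {𝒪 : Type} [CommRing 𝒪] {T : Type} [CommRing T] [IsLocalRing T] [Algebra 𝒪 T]
  [IsAdicComplete (maximalIdeal T) T]
  {N : ℕ} [NeZero N] {S : Finset ℕ}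

/-- **TRACE**: the traces of the representations at the points come from `T`. -/
theorem exists_trace {p : ℕ} (hp0 : p ≠ 0) (hpT : (p : T) ∈ maximalIdeal T)
    (hNS : ∀ q : ℕ, q.Prime → q ∣ N → q ∈ S)
    (π : CuspForm.heckeAlgebra N 2 (↑S : Set ℕ) →+* T) {r : ℕ}
    (P : Fin r → PtRep 𝒪 T) (c : ℕ)
    (hsep : ∀ (n : ℕ) (t : T), (∀ i, (P i).x t ∈ Ideal.span {((p : (P i).O)) ^ (n + c)}) →
      t ∈ Ideal.span {((p : T)) ^ n})
    (hfrob : ∀ i, HasFrobCharpoly ((P i).x.comp π) (P i).ρ) (g : GalQ) :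
    ∃ t : T, ∀ i, (P i).x t = LinearMap.trace (P i).O (P i).ρ.V ((P i).ρ.ρ g) := by
  classical
  refine exists_of_approx hpT P c hsep _ fun k => ?_
  -- for every `i` a level and a field
  have hlev : ∀ i, ∃ M : ℕ, maximalIdeal (P i).O ^ M ≤ Ideal.span {((p : (P i).O)) ^ k} :=
    fun i => exists_pow_le_span (pow_ne_zero k (Nat.cast_ne_zero.mpr hp0))
  choose M hM using hlev
  have hfield := fun i => exists_field_approx ((P i).x.comp π) (P i).ρ (hfrob i) (M i)
  choose L hLfin hL using hfield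
  haveI : ∀ i, FiniteDimensional ℚ (L i) := hLfin
  obtain ⟨D⟩ := FrobData.nonempty (N := N) (S := S) Fermat.Agent.Lib.FrobDensity.stmt_FD hNS
    (⨆ i, L i) inferInstance g
  refine ⟨π D.tr, fun i => ?_⟩
  have h1 := (hL i g (D.restrict (le_iSup L i))).1
  have h2 : (P i).x (π D.tr) - LinearMap.trace (P i).O (P i).ρ.V ((P i).ρ.ρ g) =
      -(LinearMap.trace (P i).O (P i).ρ.V ((P i).ρ.ρ g) - ((P i).x.comp π) D.tr) := by
    rw [RingHom.comp_apply]; ring
  rw [h2]
  exact Ideal.neg_mem_iff _ |>.mpr (hM i h1)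

end Trace

end Fermat.Agent.S59.Datum.H7

end
-- ==== END Fermat.Agent.S59.Datum.H7_Trace

-- ==== BEGIN Fermat.Agent.S59.Datum.H85_Cont
section

set_option autoImplicit false
set_option linter.unusedSectionVars false

/-!
# S59, package DATUM (helper85): the leaf CONT

`stmt_Cont : Stmt_Cont` : the matrix representation obtained by descent from finitely many
adically continuous representations at (adically) separating points is adically continuous.
-/

noncomputable section

open IsLocalRing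

namespace Fermat.Agent.S59.Datum.H85

/-- Coordinates of an element of `I • ⊤` lie in `I`. -/
theorem cont_repr_mem {A : Type*} [CommRing A] {V : Type*} [AddCommGroup V] [Module A V]
    {ι : Type*} (b : Module.Basis ι A V) (I : Ideal A) {v : V}
    (hv : v ∈ (I • ⊤ : Submodule A V)) (i : ι) : b.repr v i ∈ I := by
  induction hv using Submodule.smul_induction_on' with
  | smul a ha w _ =>
    rw [map_smul, Finsupp.smul_apply, smul_eq_mul]
    exact I.mul_mem_right _ ha
  | add x _ y _ hx hy =>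
    rw [map_add, Finsupp.add_apply]
    exact I.add_mem hx hy

/-- A vector with coordinates in `I` lies in `I • ⊤`. -/
theorem cont_mem_smul_top {A : Type*} [CommRing A] (I : Ideal A) (w : Fin 2 → A)
    (hw : ∀ j, w j ∈ I) : w ∈ (I • ⊤ : Submodule A (Fin 2 → A)) := by
  have h : w = ∑ j, w j • (Pi.single j (1 : A) : Fin 2 → A) := by
    funext k
    rw [Finset.sum_apply, Fin.sum_univ_two]
    fin_cases k <;> simp
  rw [h]
  exact Submodule.sum_mem _ fun j _ => Submodule.smul_mem_smul (hw j) Submodule.mem_top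

/-- **CONT.** -/
theorem stmt_Cont : Stmt_Cont := by
  intro T _ _ r O _ _ x ρ b M s R hsep hM hR n
  obtain ⟨m, hm⟩ := hsep n
  choose L hLfin hL using fun i => (ρ i).isAdicContinuous m
  have : ∀ i, FiniteDimensional ℚ (L i) := hLfin
  refine ⟨⨆ i, L i, IntermediateField.finiteDimensional_iSup_of_finite, fun σ hσ v => ?_⟩
  -- entries of `M i σ - 1`
  have hent : ∀ i (j k : Fin 2), (M i σ - 1) j k ∈ maximalIdeal (O i) ^ m := by
    intro i j k
    have h1 : ∀ y ∈ L i, σ y = y := fun y hy => hσ y ((le_iSup L i) hy)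
    have h2 := cont_repr_mem (b i) _ (hL i σ h1 (b i k)) j
    have h3 : (M i σ - 1) j k = (b i).repr ((ρ i).ρ σ (b i k) - b i k) j := by
      rw [Matrix.sub_apply, hM, LinearMap.toMatrix_apply, map_sub, Finsupp.sub_apply,
        Matrix.one_apply, Module.Basis.repr_self, Finsupp.single_apply]
      congr 1
      by_cases hjk : j = k
      · rw [if_pos hjk, if_pos hjk.symm]
      · rw [if_neg hjk, if_neg (Ne.symm hjk)]
    rw [h3]
    exact h2
  -- entries of `R σ - 1`
  have hR1 : ∀ (j k : Fin 2), (R σ - 1) j k ∈ maximalIdeal T ^ n := by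
    intro j k
    apply hm
    intro i
    have h4 : x i ((R σ - 1) j k) = ((R σ).map (x i)) j k - (1 : Matrix (Fin 2) (Fin 2) (O i)) j k := by
      rw [Matrix.sub_apply, map_sub, Matrix.map_apply, Matrix.one_apply, Matrix.one_apply]
      congr 1
      split_ifs
      · exact map_one _
      · exact map_zero _
    rw [h4, hR]
    have e00 := hent i 0 0
    have e01 := hent i 0 1
    have e10 := hent i 1 0
    have e11 := hent i 1 1
    rw [Matrix.sub_apply, Matrix.one_apply] at e00 e01 e10 e11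
    fin_cases j <;> fin_cases k
    · simpa using e00
    · have : M i σ 0 1 ∈ maximalIdeal (O i) ^ m := by simpa using e01
      simpa using this
    · have : M i σ 1 0 ∈ maximalIdeal (O i) ^ m := by simpa using e10
      simpa using this
    · simpa using e11
  -- conclusion
  apply cont_mem_smul_top
  intro j
  have h5 : (matRep R σ v - v) j = ∑ k, (R σ - 1) j k * v k := by
    rw [matRep_apply, Pi.sub_apply, Matrix.toLin'_apply, Matrix.mulVec, dotProduct,
      Fin.sum_univ_two, Fin.sum_univ_two]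
    simp only [Matrix.sub_apply, Matrix.one_apply]
    fin_cases j <;> simp <;> ring
  rw [h5]
  exact Ideal.sum_mem _ fun k _ => Ideal.mul_mem_right _ _ (hR1 j k)

end Fermat.Agent.S59.Datum.H85

end

end
-- ==== END Fermat.Agent.S59.Datum.H85_Cont

-- ==== BEGIN Fermat.Agent.S59.Datum.H8_Unit
section

set_option autoImplicit false

open Polynomial IsLocalRing CuspForm
open scoped TensorProduct

namespace Fermat.Agent.S59.Datum.H8

open Fermat.Agent.S53.Schur in
/-- Abstract core: in a two-dimensional residually absolutely irreducible representation, for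
every basis `b` and all indices `i`, `j`, some entry `(i, j)` is a unit. -/
theorem exists_isUnit_entry (O : Type) [CommRing O] [IsLocalRing O] (ρ : GaloisRepAdic O)
    (hirr : ρ.residual.IsAbsolutelyIrreducible) (b : Module.Basis (Fin 2) O ρ.V)
    (i j : Fin 2) :
    ∃ g : GalQ, IsUnit (LinearMap.toMatrix b b (ρ.ρ g) i j) := by
  classical
  by_contra hcon
  push Not at hcon
  obtain ⟨g, hg⟩ := (Fermat.Agent.R.H86.residual_absIrr_iff ρ b).1 hirr
  have hres : residue O (flat fun p => LinearMap.toMatrix b b (ρ.ρ (g p))).det = 0 := by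
    rw [← det_flat_map]
    refine Matrix.det_eq_zero_of_column_eq_zero (i, j) fun p => ?_
    rw [flat_apply, Matrix.map_apply]
    exact (residue_eq_zero_iff _).2 ((mem_maximalIdeal _).2 (hcon (g p)))
  exact ((mem_maximalIdeal _).1 ((residue_eq_zero_iff _).1 hres)) hg

/-- **UNIT** (leaf of DATUM batch 2). -/
theorem stmt_Unit : Stmt_Unit := by
  intro O _ _ ρ hirr b
  obtain ⟨g, hg⟩ := exists_isUnit_entry O ρ hirr b 0 1
  obtain ⟨h, hh⟩ := exists_isUnit_entry O ρ hirr b 1 0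
  exact ⟨g, h, hg, hh⟩

end Fermat.Agent.S59.Datum.H8

end
-- ==== END Fermat.Agent.S59.Datum.H8_Unit

-- ==== BEGIN Fermat.Agent.S59.H99_DefFam
section

/-!
# S59, leaf DEF, part 2 (helper99): descent along jointly injective families

`JFam A p`: a nonempty family of local homomorphisms `φ i : A → B i` of local rings which is
jointly injective and along which the cyclotomic relation `CycRel p` descends.  The three
descent clauses of `GaloisRep.IsDeformationCondition` (injective base change, fibre products,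
the limit over the artinian quotients) are descent along such families.

This file: the families (`JFam.ofNilp`, `JFam.ofQuot`) and descent of `DetIsCyclotomic`,
`IsUnramifiedAt`, `IsUnipotentOnInertiaAt`.
-/

set_option autoImplicit false
set_option linter.unusedSectionVars false
set_option linter.style.haveILetI false

open IsLocalRing TensorProduct

namespace Fermat.Agent.S59.H99

/-- A jointly injective family of local homomorphisms out of `A`, along which the cyclotomic
relation descends. -/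
structure JFam (A : Type) [CommRing A] [IsLocalRing A] (p : ℕ) : Type 1 where
  /-- the index type -/
  ι : Type
  /-- the family is not empty -/
  ne : Nonempty ι
  /-- the targets -/
  B : ι → Type
  /-- the targets are commutative rings -/
  cr : ∀ i, CommRing (B i)
  /-- the targets are local -/
  lr : ∀ i, IsLocalRing (B i)
  /-- the homomorphisms -/
  φ : ∀ i, A →+* B i
  /-- the homomorphisms are local -/
  hφ : ∀ i, IsLocalHom (φ i)
  /-- joint injectivity -/
  inj : ∀ a : A, (∀ i, φ i a = 0) → a = 0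
  /-- descent of the cyclotomic relation -/
  cyc : ∀ (σ : AlgebraicClosure ℚ ≃ₐ[ℚ] AlgebraicClosure ℚ) (x z : A),
    (∀ i, CycRel p σ (φ i x) (φ i z)) → CycRel p σ x z

attribute [instance] JFam.cr JFam.lr

section Constructions

variable {A : Type} [CommRing A] [IsLocalRing A] (p : ℕ) [Fact p.Prime]

/-- A jointly injective family into rings in which `p ^ M = 0`. -/
def JFam.ofNilp {ι : Type} (hne : Nonempty ι) (B : ι → Type) [∀ i, CommRing (B i)]
    [∀ i, IsLocalRing (B i)] (φ : ∀ i, A →+* B i) (hφ : ∀ i, IsLocalHom (φ i))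
    (hinj : ∀ a : A, (∀ i, φ i a = 0) → a = 0) (M : ℕ)
    (hM : ∀ i, ((p ^ M : ℕ) : B i) = 0) : JFam A p where
  ι := ι
  ne := hne
  B := B
  cr := inferInstance
  lr := inferInstance
  φ := φ
  hφ := hφ
  inj := hinj
  cyc := fun _ _ _ h => cycRel_of_family φ hinj M hM h

theorem nontrivial_quot_pow' (m : ℕ) : Nontrivial (A ⧸ maximalIdeal A ^ (m + 1)) := by
  rw [Ideal.Quotient.nontrivial_iff]
  intro h
  have h1 : maximalIdeal A ^ (m + 1) ≤ maximalIdeal A := Ideal.pow_le_self (Nat.succ_ne_zero m)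
  rw [h] at h1
  exact (maximalIdeal.isMaximal A).ne_top (top_le_iff.mp h1)

theorem isLocalRing_quot_pow (m : ℕ) : IsLocalRing (A ⧸ maximalIdeal A ^ (m + 1)) :=
  haveI := nontrivial_quot_pow' (A := A) m
  IsLocalRing.of_surjective' (Ideal.Quotient.mk _) Ideal.Quotient.mk_surjective

/-- The family of the quotients `A ⧸ 𝔪 ^ (m + 1)` of a noetherian local ring. -/
def JFam.ofQuot [IsNoetherianRing A] (hp : (p : A) ∈ maximalIdeal A) : JFam A p where
  ι := ℕ
  ne := ⟨0⟩
  B := fun m => A ⧸ maximalIdeal A ^ (m + 1)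
  cr := inferInstance
  lr := fun m => isLocalRing_quot_pow m
  φ := fun m => Ideal.Quotient.mk (maximalIdeal A ^ (m + 1))
  hφ := fun m =>
    haveI := isLocalRing_quot_pow (A := A) m
    IsLocalHom.of_surjective _ Ideal.Quotient.mk_surjective
  inj := by
    intro a ha
    have hk := Ideal.iInf_pow_eq_bot_of_isLocalRing (maximalIdeal A)
      (Ideal.IsPrime.ne_top inferInstance)
    have : a ∈ (⨅ i : ℕ, maximalIdeal A ^ i) := by
      rw [Ideal.mem_iInf]
      intro i
      have := Ideal.Quotient.eq_zero_iff_mem.mp (ha i)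
      exact Ideal.pow_le_pow_right (Nat.le_succ i) this
    rw [hk] at this
    exact this
  cyc := fun _ _ _ h => cycRel_of_quot hp h

end Constructions

section Generic

variable {A B : Type} [CommRing A] [CommRing B] [Algebra A B]
variable {V : Type} [AddCommGroup V] [Module A V]

/-- Coordinates of `(f ⊗ B) (1 ⊗ v)`. -/
theorem repr_baseChange_one_tmul {n : ℕ} (b : Module.Basis (Fin n) A V) (f : V →ₗ[A] V) (v : V)
    (k : Fin n) :
    (b.baseChange B).repr ((f.baseChange B) ((1 : B) ⊗ₜ[A] v)) k =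
      algebraMap A B (b.repr (f v) k) := by
  rw [LinearMap.baseChange_tmul, Module.Basis.baseChange_repr_tmul, Algebra.smul_def, mul_one]

end Generic

section Descent

variable {A : Type} [CommRing A] [IsLocalRing A] {p : ℕ} (F : JFam A p)

/-- Joint injectivity on endomorphisms of a finite free module. -/
theorem JFam.end_eq_zero {V : Type} [AddCommGroup V] [Module A V] [Module.Free A V]
    [Module.Finite A V] (f : V →ₗ[A] V)
    (h : ∀ i, letI := (F.φ i).toAlgebra; f.baseChange (F.B i) = 0) : f = 0 := by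
  let b := Module.finBasis A V
  apply b.ext
  intro j
  rw [LinearMap.zero_apply]
  apply b.repr.injective
  ext k
  rw [map_zero, Finsupp.zero_apply]
  apply F.inj
  intro i
  letI := (F.φ i).toAlgebra
  have h1 := repr_baseChange_one_tmul (B := F.B i) b f (b j) k
  rw [h i, LinearMap.zero_apply, map_zero, Finsupp.zero_apply] at h1
  exact h1.symm

/-- Joint injectivity on endomorphisms: equality form. -/
theorem JFam.end_eq {V : Type} [AddCommGroup V] [Module A V] [Module.Free A V]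
    [Module.Finite A V] (f g : V →ₗ[A] V)
    (h : ∀ i, letI := (F.φ i).toAlgebra; f.baseChange (F.B i) = g.baseChange (F.B i)) :
    f = g := by
  rw [← sub_eq_zero]
  apply F.end_eq_zero
  intro i
  letI := (F.φ i).toAlgebra
  rw [LinearMap.baseChange_sub]
  exact sub_eq_zero.mpr (h i)

/-- Units descend. -/
theorem JFam.isUnit {a : A} (h : ∀ i, IsUnit (F.φ i a)) : IsUnit a := by
  obtain ⟨i⟩ := F.ne
  haveI := F.hφ i
  exact isUnit_of_map_unit (F.φ i) a (h i)

theorem JFam.mem_maximalIdeal {a : A} (i : F.ι) (h : F.φ i a ∈ maximalIdeal (F.B i)) :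
    a ∈ maximalIdeal A := by
  rw [IsLocalRing.mem_maximalIdeal, mem_nonunits_iff] at h ⊢
  intro ha
  exact h (ha.map _)

/-- Polynomials: joint injectivity. -/
theorem JFam.poly_eq (f g : Polynomial A)
    (h : ∀ i, f.map (F.φ i) = g.map (F.φ i)) : f = g := by
  ext n
  rw [← sub_eq_zero]
  apply F.inj
  intro i
  rw [map_sub, ← Polynomial.coeff_map, ← Polynomial.coeff_map, h i, sub_self]

variable (ρ : GaloisRepAdic A)

theorem JFam.detIsCyclotomic
    (h : ∀ i, (ρ.baseChangeAlong (F.φ i) (F.hφ i)).DetIsCyclotomic p) :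
    ρ.DetIsCyclotomic p := by
  refine ⟨?_, ?_⟩
  · obtain ⟨i⟩ := F.ne
    apply F.mem_maximalIdeal i
    rw [map_natCast]
    exact (h i).1
  · intro n σ a ha
    have key : CycRel p σ (LinearMap.det (ρ.ρ σ)) 1 := by
      apply F.cyc
      intro i m c hc
      letI := (F.φ i).toAlgebra
      have h1 := (h i).2 m σ c hc
      have h2 : LinearMap.det ((ρ.baseChangeAlong (F.φ i) (F.hφ i)).ρ σ) =
          F.φ i (LinearMap.det (ρ.ρ σ)) := LinearMap.det_baseChange (A := F.B i) (ρ.ρ σ)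
      rw [h2] at h1
      rw [map_one, mul_one]
      exact h1
    have := key n a ha
    rwa [mul_one] at this

theorem JFam.isUnramifiedAt (q : ℕ)
    (h : ∀ i, (ρ.baseChangeAlong (F.φ i) (F.hφ i)).IsUnramifiedAt q) :
    ρ.IsUnramifiedAt q := by
  intro P hP σ hσ
  apply F.end_eq
  intro i
  letI := (F.φ i).toAlgebra
  have h1 := h i P hP σ hσ
  rw [Fermat.Agent.S56.H92.baseChangeAlong_ρ_apply] at h1
  rw [h1]
  exact (LinearMap.baseChange_one (R := A) (A := F.B i) (M := ρ.V)).symm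

theorem JFam.isUnipotentOnInertiaAt (q : ℕ)
    (h : ∀ i, (ρ.baseChangeAlong (F.φ i) (F.hφ i)).IsUnipotentOnInertiaAt q) :
    ρ.IsUnipotentOnInertiaAt q := by
  intro P hP σ hσ
  apply F.poly_eq
  intro i
  letI := (F.φ i).toAlgebra
  have h1 := h i P hP σ hσ
  rw [Fermat.Agent.S56.H92.baseChangeAlong_ρ_apply] at h1
  have h2 : LinearMap.charpoly ((ρ.ρ σ).baseChange (F.B i)) =
      (LinearMap.charpoly (ρ.ρ σ)).map (F.φ i) :=
    LinearMap.charpoly_baseChange (A := F.B i) (ρ.ρ σ)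
  rw [← h2]
  exact h1.trans (by simp)

end Descent

end Fermat.Agent.S59.H99

end
-- ==== END Fermat.Agent.S59.H99_DefFam
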