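-- GENERATED (merged mirror, NOTES/tools/trim/merge3_helper67.py): 10 modules of the originals, bodies verbatim.
import Mathlib
import Fermat.Prelude.Def_Algebra_PatchingDatum
import Fermat.Prelude.Def_CuspForm_HeckeGaloisRepDatum
import Fermat.Prelude.Def_GaloisRep_DeformationRingData
import Fermat.Agent.Zm.S43_L01_004
import Fermat.Agent.Zm.S56_L06_000
import Fermat.Agent.Zm.S56_L07_000
import Fermat.Agent.S57.H90_PowerSeriesRegular
import Fermat.Agent.Zm.S35_L02_001
import Fermat.Agent.Zm.S35_L10_003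
import Fermat.Agent.Zm.S43_L01_005

-- ==== BEGIN Fermat.Agent.S59.H99_DefFl
section

/-!
# S59, leaf DEF, part 5 (helper99): the flat condition under base change and descent

* `isFlatAt_baseChangeAlong` : flatness passes to `ρ ⊗_A B` for EVERY local homomorphism
  `A → B` with `B` of finite residue field.
* `isFlatAt_of_isEquiv`.
* `isFlatAt_of_pair` : descent along a jointly injective pair `A → B₁`, `A → B₂` of finite rings.
* `isFlatAt_of_quot` : descent from the finite quotients `A ⧸ I`.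
-/

set_option autoImplicit false
set_option linter.unusedSectionVars false
set_option linter.style.haveILetI false

open IsLocalRing TensorProduct

namespace Fermat.Agent.S59.H99

open Fermat.Agent.R Fermat.Agent.S56.H92

section Reps

variable {A B : Type} [CommRing A] [CommRing B] [Algebra A B]
variable {V : Type} [AddCommGroup V] [Module A V]

theorem mk_tmul_eq_of_sub_mem (I' : Ideal B) {x y : B} (h : x - y ∈ I') (v : V) :
    (Submodule.Quotient.mk (x ⊗ₜ[A] v) : (B ⊗[A] V) ⧸ (I' • (⊤ : Submodule B (B ⊗[A] V)))) =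
      Submodule.Quotient.mk (y ⊗ₜ[A] v) := by
  rw [← sub_eq_zero, ← Submodule.Quotient.mk_sub, Submodule.Quotient.mk_eq_zero,
    ← TensorProduct.sub_tmul]
  have : (x - y) ⊗ₜ[A] v = (x - y) • ((1 : B) ⊗ₜ[A] v) := by
    rw [TensorProduct.smul_tmul', smul_eq_mul, mul_one]
  rw [this]
  exact Submodule.smul_mem_smul h Submodule.mem_top

theorem sumTheta_surjective_of_reps {r : ℕ} (b : Fin r → B) (I : Ideal A) (I' : Ideal B)
    (hI : ∀ a ∈ I, algebraMap A B a ∈ I') (hb : ∀ x : B, ∃ i, x - b i ∈ I') :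
    Function.Surjective (sumTheta (V := V) b I I' hI) := by
  classical
  intro q
  obtain ⟨w, rfl⟩ := Submodule.Quotient.mk_surjective _ q
  induction w using TensorProduct.induction_on with
  | zero => exact ⟨0, by rw [map_zero]; rfl⟩
  | tmul x v =>
    obtain ⟨i, hi⟩ := hb x
    refine ⟨Pi.single i (Submodule.Quotient.mk v), ?_⟩
    rw [sumTheta_apply, Finset.sum_eq_single i]
    · rw [Pi.single_eq_same, Submodule.liftQ_apply, thetaX_apply]
      exact (mk_tmul_eq_of_sub_mem I' hi v).symm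
    · intro j _ hj
      rw [Pi.single_eq_of_ne hj, map_zero]
    · intro h
      exact absurd (Finset.mem_univ i) h
  | add x y hx hy =>
    obtain ⟨a, ha⟩ := hx
    obtain ⟨c, hc⟩ := hy
    exact ⟨a + c, by rw [map_add, ha, hc]; rfl⟩

end Reps

/-- **Flatness passes to every base change** (to a local ring with finite residue field). -/
theorem isFlatAt_baseChangeAlong {A B : Type} [CommRing A] [IsLocalRing A]
    [CommRing B] [IsLocalRing B] (φ : A →+* B) (hφ : IsLocalHom φ)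
    (hres : Finite (ResidueField B))
    (ρ : GaloisRepAdic A) (p : ℕ) (hp : p.Prime) (h : ρ.IsFlatAt p) :
    (ρ.baseChangeAlong φ hφ).IsFlatAt p := by
  let _ : Algebra A B := φ.toAlgebra
  rw [isFlatAt_iff] at h ⊢
  refine ⟨hres, fun I' hI' => ?_⟩
  set I : Ideal A := I'.comap φ with hIdef
  have hIfin : Finite (A ⧸ I) := by
    have hinj : Function.Injective (Ideal.quotientMap I' φ (le_refl I)) :=
      Ideal.quotientMap_injective
    exact Finite.of_injective _ hinj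
  have h₀ := h.2 I hIfin
  obtain ⟨r, ⟨e⟩⟩ := Finite.exists_equiv_fin (B ⧸ I')
  let b : Fin r → B := fun i => Quotient.out (e.symm i)
  have hb : ∀ x : B, ∃ i, x - b i ∈ I' := by
    intro x
    refine ⟨e (Ideal.Quotient.mk I' x), ?_⟩
    rw [← Ideal.Quotient.eq]
    have : Ideal.Quotient.mk I' (b (e (Ideal.Quotient.mk I' x))) =
        e.symm (e (Ideal.Quotient.mk I' x)) := Quotient.out_eq _
    rw [this, Equiv.symm_apply_apply]
  have hI : ∀ a ∈ I, algebraMap A B a ∈ I' := fun a ha => ha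
  have hpi := Fermat.Agent.R.H54.stmt_FlatPi p hp r
    (fun _ => ρ.V ⧸ I • (⊤ : Submodule A ρ.V)) (fun _ σ => ρ.levelAction I σ) (fun _ => h₀)
  refine Fermat.Agent.R.H54.stmt_FlatQuot p hp _ _ _ _ (sumTheta (V := ρ.V) b I I' hI)
    (sumTheta_surjective_of_reps b I I' hI hb) ?_ hpi
  intro σ x
  exact sumTheta_equivariant (V := ρ.V) b I I' hI (ρ.ρ σ) _ _ x

section Equiv

variable {A : Type} [CommRing A] [IsLocalRing A]

theorem smul_top_le_comap {V W : Type} [AddCommGroup V] [Module A V] [AddCommGroup W]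
    [Module A W] (I : Ideal A) (f : V →ₗ[A] W) :
    I • (⊤ : Submodule A V) ≤ (I • (⊤ : Submodule A W)).comap f := by
  rw [Submodule.smul_le]
  intro r hr v _
  rw [Submodule.mem_comap, map_smul]
  exact Submodule.smul_mem_smul hr Submodule.mem_top

theorem isFlatAt_of_isEquiv {ρ ρ' : GaloisRepAdic A} (he : ρ.IsEquiv ρ') (p : ℕ) (hp : p.Prime)
    (h : ρ.IsFlatAt p) : ρ'.IsFlatAt p := by
  obtain ⟨e⟩ := he
  rw [isFlatAt_iff] at h ⊢
  refine ⟨h.1, fun I hI => ?_⟩
  have h₀ := h.2 I hI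
  let π : (ρ.V ⧸ I • (⊤ : Submodule A ρ.V)) →ₗ[A] (ρ'.V ⧸ I • (⊤ : Submodule A ρ'.V)) :=
    Submodule.mapQ _ _ (e.toLinearEquiv : ρ.V →ₗ[A] ρ'.V) (smul_top_le_comap I _)
  refine Fermat.Agent.R.H54.stmt_FlatQuot p hp _ _ _ _ π.toAddMonoidHom ?_ ?_ h₀
  · intro y
    obtain ⟨w, rfl⟩ := Submodule.Quotient.mk_surjective _ y
    obtain ⟨v, rfl⟩ := e.toLinearEquiv.surjective w
    exact ⟨Submodule.Quotient.mk v, rfl⟩
  · intro σ x
    obtain ⟨v, rfl⟩ := Submodule.Quotient.mk_surjective _ x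
    change π (Submodule.Quotient.mk (ρ.ρ σ v)) = Submodule.Quotient.mk (ρ'.ρ σ (e.toLinearEquiv v))
    rw [← e.map_apply]
    rfl

end Equiv

section Descent

/-- Flatness of `V ⧸ I V` passes to `V ⧸ J V` for `I ≤ J`. -/
theorem isFlatGaloisModule_of_le {A : Type} [CommRing A] [IsLocalRing A] (ρ : GaloisRepAdic A)
    (p : ℕ) (hp : p.Prime) {I J : Ideal A} (hIJ : I ≤ J)
    (h : IsFlatGaloisModule p (ρ.V ⧸ I • (⊤ : Submodule A ρ.V)) (fun σ => ρ.levelAction I σ)) :
    IsFlatGaloisModule p (ρ.V ⧸ J • (⊤ : Submodule A ρ.V)) (fun σ => ρ.levelAction J σ) := by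
  let π : (ρ.V ⧸ I • (⊤ : Submodule A ρ.V)) →ₗ[A] (ρ.V ⧸ J • (⊤ : Submodule A ρ.V)) :=
    Submodule.mapQ _ _ LinearMap.id (by
      rw [Submodule.comap_id]
      exact Submodule.smul_mono hIJ le_rfl)
  refine Fermat.Agent.R.H54.stmt_FlatQuot p hp _ _ _ _ π.toAddMonoidHom ?_ ?_ h
  · intro y
    obtain ⟨w, rfl⟩ := Submodule.Quotient.mk_surjective _ y
    exact ⟨Submodule.Quotient.mk w, rfl⟩
  · intro σ x
    obtain ⟨v, rfl⟩ := Submodule.Quotient.mk_surjective _ x
    rfl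

/-- Descent of flatness along a pair of local homomorphisms. -/
theorem isFlatGaloisModule_of_pair {P A B : Type} [CommRing P] [IsLocalRing P]
    [CommRing A] [IsLocalRing A] [CommRing B] [IsLocalRing B]
    (pA : P →+* A) (hpA : IsLocalHom pA) (pB : P →+* B) (hpB : IsLocalHom pB)
    (ρ : GaloisRepAdic P) (p : ℕ) (hp : p.Prime)
    (IA : Ideal A) (IB : Ideal B) (hIA : Finite (A ⧸ IA)) (hIB : Finite (B ⧸ IB))
    (hA : (ρ.baseChangeAlong pA hpA).IsFlatAt p) (hB : (ρ.baseChangeAlong pB hpB).IsFlatAt p) :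
    IsFlatGaloisModule p (ρ.V ⧸ (IA.comap pA ⊓ IB.comap pB) • (⊤ : Submodule P ρ.V))
      (fun σ => ρ.levelAction (IA.comap pA ⊓ IB.comap pB) σ) := by
  rw [isFlatAt_iff] at hA hB
  have hA0 := hA.2 IA hIA
  have hB0 := hB.2 IB hIB
  have hprod := Fermat.Agent.R.H54.stmt_FlatProd p hp _ _ _ _ hA0 hB0
  have b : Module.Basis (Fin 2) P ρ.V := Module.finBasisOfFinrankEq P ρ.V ρ.finrank_eq
  letI algA : Algebra P A := pA.toAlgebra
  letI algB : Algebra P B := pB.toAlgebra
  set I : Ideal P := IA.comap pA ⊓ IB.comap pB with hI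
  have hkA : I • (⊤ : Submodule P ρ.V) ≤
      LinearMap.ker (thetaX (R := P) (V := ρ.V) IA (1 : A)) :=
    smul_top_le_ker_thetaX IA 1 I (fun r hr => by rw [mul_one]; exact hr.1)
  have hkB : I • (⊤ : Submodule P ρ.V) ≤
      LinearMap.ker (thetaX (R := P) (V := ρ.V) IB (1 : B)) :=
    smul_top_le_ker_thetaX IB 1 I (fun r hr => by rw [mul_one]; exact hr.2)
  let ιA : (ρ.V ⧸ I • (⊤ : Submodule P ρ.V)) →+
      (A ⊗[P] ρ.V) ⧸ (IA • (⊤ : Submodule A (A ⊗[P] ρ.V))) :=
    (Submodule.liftQ _ (thetaX (R := P) (V := ρ.V) IA (1 : A)) hkA).toAddMonoidHom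
  let ιB : (ρ.V ⧸ I • (⊤ : Submodule P ρ.V)) →+
      (B ⊗[P] ρ.V) ⧸ (IB • (⊤ : Submodule B (B ⊗[P] ρ.V))) :=
    (Submodule.liftQ _ (thetaX (R := P) (V := ρ.V) IB (1 : B)) hkB).toAddMonoidHom
  refine Fermat.Agent.R.H54.stmt_FlatSub p hp _ _ _ _ (ιA.prod ιB) ?_ ?_ hprod
  · rw [injective_iff_map_eq_zero]
    intro x hx
    obtain ⟨v, rfl⟩ := Submodule.Quotient.mk_surjective _ x
    have h1 : thetaX (R := P) (V := ρ.V) IA (1 : A) v = 0 := congrArg Prod.fst hx
    have h2 : thetaX (R := P) (V := ρ.V) IB (1 : B) v = 0 := congrArg Prod.snd hx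
    have m1 := mem_of_thetaX_one_eq_zero IA b h1
    have m2 := mem_of_thetaX_one_eq_zero IB b h2
    rw [Submodule.Quotient.mk_eq_zero]
    refine Fermat.Agent.S56.H92.mem_smul_top_of_repr_mem b _ fun i => ?_
    exact ⟨Fermat.Agent.S56.H92.repr_mem_of_mem_smul_top b _ m1 i,
      Fermat.Agent.S56.H92.repr_mem_of_mem_smul_top b _ m2 i⟩
  · intro σ x
    refine Prod.ext ?_ ?_
    · exact liftQ_thetaX_mapQ IA (1 : A) I hkA (ρ.ρ σ) _ _ x
    · exact liftQ_thetaX_mapQ IB (1 : B) I hkB (ρ.ρ σ) _ _ x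

/-- Descent of flatness along one local homomorphism. -/
theorem isFlatGaloisModule_of_baseChange {A B : Type} [CommRing A] [IsLocalRing A]
    [CommRing B] [IsLocalRing B] (φ : A →+* B) (hφ : IsLocalHom φ)
    (ρ : GaloisRepAdic A) (p : ℕ) (hp : p.Prime) (I' : Ideal B) (hI' : Finite (B ⧸ I'))
    (h : (ρ.baseChangeAlong φ hφ).IsFlatAt p) :
    IsFlatGaloisModule p (ρ.V ⧸ (I'.comap φ) • (⊤ : Submodule A ρ.V))
      (fun σ => ρ.levelAction (I'.comap φ) σ) :=
  isFlatGaloisModule_of_le ρ p hp inf_le_left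
    (isFlatGaloisModule_of_pair φ hφ φ hφ ρ p hp I' I' hI' hI' h h)

/-- **Descent of flatness along a jointly injective pair of maps to finite rings.** -/
theorem isFlatAt_of_pair {P A B : Type} [CommRing P] [IsLocalRing P]
    [CommRing A] [IsLocalRing A] [CommRing B] [IsLocalRing B] [Finite A] [Finite B]
    (pA : P →+* A) (hpA : IsLocalHom pA) (pB : P →+* B) (hpB : IsLocalHom pB)
    (hinj : ∀ x, pA x = 0 → pB x = 0 → x = 0) (hres : Finite (ResidueField P))
    (ρ : GaloisRepAdic P) (p : ℕ) (hp : p.Prime)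
    (hA : (ρ.baseChangeAlong pA hpA).IsFlatAt p) (hB : (ρ.baseChangeAlong pB hpB).IsFlatAt p) :
    ρ.IsFlatAt p := by
  rw [isFlatAt_iff]
  refine ⟨hres, fun J _ => ?_⟩
  have hAf : Finite (A ⧸ (⊥ : Ideal A)) :=
    Finite.of_surjective (Ideal.Quotient.mk ⊥) Ideal.Quotient.mk_surjective
  have hBf : Finite (B ⧸ (⊥ : Ideal B)) :=
    Finite.of_surjective (Ideal.Quotient.mk ⊥) Ideal.Quotient.mk_surjective
  refine isFlatGaloisModule_of_le ρ p hp ?_
    (isFlatGaloisModule_of_pair pA hpA pB hpB ρ p hp ⊥ ⊥ hAf hBf hA hB)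
  intro x hx
  have := hinj x hx.1 hx.2
  rw [this]
  exact J.zero_mem

/-- **Descent of flatness from the finite quotients.** -/
theorem isFlatAt_of_quot {A : Type} [CommRing A] [IsLocalRing A]
    (hres : Finite (ResidueField A)) (ρ : GaloisRepAdic A) (p : ℕ) (hp : p.Prime)
    (h : ∀ J : Ideal A, J ≠ ⊤ → Finite (A ⧸ J) →
      ∃ (B : Type) (_ : CommRing B) (_ : IsLocalRing B) (φ : A →+* B) (hφ : IsLocalHom φ),
        Finite B ∧ RingHom.ker φ ≤ J ∧ (ρ.baseChangeAlong φ hφ).IsFlatAt p) :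
    ρ.IsFlatAt p := by
  rw [isFlatAt_iff]
  have key : ∀ J : Ideal A, J ≠ ⊤ → Finite (A ⧸ J) →
      IsFlatGaloisModule p (ρ.V ⧸ J • (⊤ : Submodule A ρ.V)) (fun σ => ρ.levelAction J σ) := by
    intro J hJ hJf
    obtain ⟨B, _, _, φ, hφ, hBf, hker, hfl⟩ := h J hJ hJf
    have hBf' : Finite (B ⧸ (⊥ : Ideal B)) :=
      Finite.of_surjective (Ideal.Quotient.mk ⊥) Ideal.Quotient.mk_surjective
    exact isFlatGaloisModule_of_le ρ p hp hker
      (isFlatGaloisModule_of_baseChange φ hφ ρ p hp ⊥ hBf' hfl)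
  refine ⟨hres, fun J hJf => ?_⟩
  by_cases hJ : J = ⊤
  · have hm : Finite (A ⧸ maximalIdeal A) := hres
    subst hJ
    exact isFlatGaloisModule_of_le ρ p hp le_top
      (key (maximalIdeal A) (maximalIdeal.isMaximal A).ne_top hm)
  · exact key J hJ hJf

end Descent

end Fermat.Agent.S59.H99

end
-- ==== END Fermat.Agent.S59.H99_DefFl

-- ==== BEGIN Fermat.Agent.S59.NumCrit.H90_Lin
section

/-!
# S59 NUMCRIT, leaf LIN: the cotangent space of an augmented quotient of a power series ring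

`cotangent_linearEquiv`: for `ψ : 𝒪⟦X_1..X_n⟧ ↠ A`, `π : A → 𝒪` with `π (ψ X_i) = 0`,
`Φ_A = (ker π)/(ker π)² ≃ 𝒪^n / ℓ(ker ψ)` where `ℓ = linPart` is the linear part.
Also: `pi_psi_eq_constantCoeff`, `linPart_mul`, `linPart_mulVec`, `exists_matrix_mulVec`.
-/

set_option autoImplicit false

namespace Fermat.Agent.S59.NumCrit.H90

open MvPowerSeries

section lin

variable {σ : Type*} [Fintype σ] {R : Type*} [CommRing R]

/-- a power series without constant term is a combination of the variables. -/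
theorem exists_eq_sum_mul_X (f : MvPowerSeries σ R) (hf : constantCoeff f = 0) :
    ∃ c : σ → MvPowerSeries σ R, f = ∑ i, c i * X i := by
  classical
  have h1 : f ∈ (powIdeal 1 ((Finset.univ : Finset σ) : Set σ) : Ideal (MvPowerSeries σ R)) := by
    refine mem_powIdeal_of_coeff 1 Finset.univ f fun m hm => ?_
    have : m = 0 := by
      ext i
      have := hm i (Finset.mem_univ i)
      simp only [Finsupp.coe_zero, Pi.zero_apply]
      omega
    rw [this]
    exact hf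
  have h2 : (powIdeal 1 ((Finset.univ : Finset σ) : Set σ) : Ideal (MvPowerSeries σ R))
      = Ideal.span (Set.range fun i : σ => (X i : MvPowerSeries σ R)) := by
    unfold powIdeal
    congr 1
    ext x
    simp
  rw [h2] at h1
  obtain ⟨c, hc⟩ := (Ideal.mem_span_range_iff_exists_fun (R := MvPowerSeries σ R)).mp h1
  exact ⟨c, hc.symm⟩

omit [Fintype σ] in
theorem coeff_single_mul_X [DecidableEq σ] (c : MvPowerSeries σ R) (i j : σ) :
    coeff (Finsupp.single j 1) (c * X i) = if i = j then constantCoeff c else 0 := by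
  rw [X_def, coeff_mul_monomial, mul_one]
  by_cases h : i = j
  · subst h
    rw [if_pos le_rfl, if_pos rfl, tsub_self]
    rfl
  · rw [if_neg h, if_neg]
    intro hle
    have := hle i
    simp [Finsupp.single_eq_of_ne h] at this

theorem coeff_single_sum_mul_X (c : σ → MvPowerSeries σ R) (j : σ) :
    coeff (Finsupp.single j 1) (∑ i, c i * X i) = constantCoeff (c j) := by
  classical
  rw [map_sum]
  simp_rw [coeff_single_mul_X]
  rw [Finset.sum_ite_eq' Finset.univ j]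
  simp

omit [Fintype σ] in
theorem constantCoeff_sum_mul_X (s : Finset σ) (c : σ → MvPowerSeries σ R) :
    constantCoeff (∑ i ∈ s, c i * X i) = 0 := by
  rw [map_sum]
  refine Finset.sum_eq_zero fun i _ => ?_
  rw [map_mul, constantCoeff_X, mul_zero]

end lin

section linPart

variable {𝒪 : Type*} [CommRing 𝒪] {n : ℕ}

theorem linPart_sum_mul_X (c : Fin n → MvPowerSeries (Fin n) 𝒪) :
    linPart n 𝒪 (∑ i, c i * X i) = fun j => constantCoeff (c j) := by
  funext j
  rw [linPart_apply, coeff_single_sum_mul_X]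

/-- the linear part of `M X` is the matrix of constant terms of `M`. -/
theorem linPart_mulVec (M : Matrix (Fin n) (Fin n) (MvPowerSeries (Fin n) 𝒪)) (i j : Fin n) :
    linPart n 𝒪 (M.mulVec (fun k => (X k : MvPowerSeries (Fin n) 𝒪)) i) j
      = constantCoeff (M i j) := by
  have : M.mulVec (fun k => (X k : MvPowerSeries (Fin n) 𝒪)) i = ∑ k, M i k * X k := rfl
  rw [this, linPart_sum_mul_X]

theorem constantCoeff_mulVec (M : Matrix (Fin n) (Fin n) (MvPowerSeries (Fin n) 𝒪)) (i : Fin n) :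
    constantCoeff (M.mulVec (fun k => (X k : MvPowerSeries (Fin n) 𝒪)) i) = 0 :=
  constantCoeff_sum_mul_X Finset.univ _

theorem linPart_mul (h f : MvPowerSeries (Fin n) 𝒪) (hf : constantCoeff f = 0) :
    linPart n 𝒪 (h * f) = constantCoeff h • linPart n 𝒪 f := by
  obtain ⟨c, rfl⟩ := exists_eq_sum_mul_X f hf
  have : h * ∑ i, c i * X i = ∑ i, (h * c i) * X i := by
    rw [Finset.mul_sum]
    exact Finset.sum_congr rfl fun i _ => (mul_assoc _ _ _).symm
  rw [this, linPart_sum_mul_X, linPart_sum_mul_X]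
  funext j
  simp

/-- a family without constant terms is `M X` for some matrix `M`. -/
theorem exists_matrix_mulVec (g : Fin n → MvPowerSeries (Fin n) 𝒪)
    (hg : ∀ i, constantCoeff (g i) = 0) :
    ∃ M : Matrix (Fin n) (Fin n) (MvPowerSeries (Fin n) 𝒪),
      M.mulVec (fun k => (X k : MvPowerSeries (Fin n) 𝒪)) = g := by
  choose c hc using fun i => exists_eq_sum_mul_X (g i) (hg i)
  refine ⟨Matrix.of c, ?_⟩
  funext i
  rw [hc i]
  rfl

end linPart

section aug

variable {𝒪 A : Type*} [CommRing 𝒪] [CommRing A] [Algebra 𝒪 A] {n : ℕ}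
  (ψ : MvPowerSeries (Fin n) 𝒪 →ₐ[𝒪] A) (π : A →ₐ[𝒪] 𝒪)

theorem pi_psi_C (a : 𝒪) : π (ψ (C a)) = a := by
  have h : (C a : MvPowerSeries (Fin n) 𝒪) = algebraMap 𝒪 (MvPowerSeries (Fin n) 𝒪) a := by
    rw [MvPowerSeries.algebraMap_apply]
    rfl
  rw [h, ψ.commutes, π.commutes]
  rfl

variable {ψ π}

theorem pi_psi_eq_constantCoeff (hπ : ∀ i, π (ψ (X i)) = 0) (f : MvPowerSeries (Fin n) 𝒪) :
    π (ψ f) = constantCoeff f := by
  have h0 : constantCoeff (f - C (constantCoeff f)) = 0 := by simp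
  obtain ⟨c, hc⟩ := exists_eq_sum_mul_X _ h0
  have hf : f = C (constantCoeff f) + ∑ i, c i * X i := by rw [← hc]; ring
  have h1 : π (ψ (∑ i, c i * X i)) = 0 := by
    rw [map_sum, map_sum]
    refine Finset.sum_eq_zero fun i _ => ?_
    rw [map_mul, map_mul, hπ i, mul_zero]
  calc π (ψ f) = π (ψ (C (constantCoeff f) + ∑ i, c i * X i)) := by rw [← hf]
    _ = constantCoeff f := by rw [map_add, map_add, pi_psi_C, h1, add_zero]

theorem ker_psi_le (hπ : ∀ i, π (ψ (X i)) = 0) {f : MvPowerSeries (Fin n) 𝒪}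
    (hf : f ∈ RingHom.ker ψ) : constantCoeff f = 0 := by
  rw [← pi_psi_eq_constantCoeff hπ f, (RingHom.mem_ker).mp hf, map_zero]

theorem psi_mem_ker_pi (hπ : ∀ i, π (ψ (X i)) = 0) {f : MvPowerSeries (Fin n) 𝒪}
    (hf : constantCoeff f = 0) : ψ f ∈ RingHom.ker π := by
  rw [RingHom.mem_ker, pi_psi_eq_constantCoeff hπ f, hf]

/-- no constant and no linear terms: the image lies in `(ker π)²`. -/
theorem psi_mem_ker_pi_sq (hπ : ∀ i, π (ψ (X i)) = 0) {f : MvPowerSeries (Fin n) 𝒪}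
    (hf : constantCoeff f = 0) (hl : linPart n 𝒪 f = 0) : ψ f ∈ (RingHom.ker π) ^ 2 := by
  obtain ⟨c, rfl⟩ := exists_eq_sum_mul_X f hf
  rw [linPart_sum_mul_X] at hl
  rw [map_sum]
  refine Ideal.sum_mem _ fun i _ => ?_
  rw [map_mul, pow_two]
  refine Ideal.mul_mem_mul (psi_mem_ker_pi hπ (congrFun hl i)) (psi_mem_ker_pi hπ ?_)
  exact constantCoeff_X i

/-- conversely the linear part of a preimage of an element of `(ker π)²` is the linear part of an
element of `ker ψ`. -/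
theorem linPart_mem_of_psi_mem_sq (hψ : Function.Surjective ψ) (hπ : ∀ i, π (ψ (X i)) = 0)
    {f : MvPowerSeries (Fin n) 𝒪} (hf : ψ f ∈ (RingHom.ker π) ^ 2) :
    linPart n 𝒪 f ∈ Submodule.map (linPart n 𝒪) ((RingHom.ker ψ).restrictScalars 𝒪) := by
  -- `ψ f = ψ q` with `q` in the square of the augmentation ideal
  have key : ∀ a ∈ (RingHom.ker π) ^ 2, ∃ q : MvPowerSeries (Fin n) 𝒪,
      ψ q = a ∧ linPart n 𝒪 q = 0 := by
    intro a ha
    rw [pow_two] at ha
    refine Submodule.mul_induction_on ha ?_ ?_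
    · intro x hx y hy
      obtain ⟨u, rfl⟩ := hψ x
      obtain ⟨v, rfl⟩ := hψ y
      have hu : constantCoeff u = 0 := by
        rw [← pi_psi_eq_constantCoeff hπ u]; exact hx
      have hv : constantCoeff v = 0 := by
        rw [← pi_psi_eq_constantCoeff hπ v]; exact hy
      refine ⟨u * v, map_mul _ _ _, ?_⟩
      rw [linPart_mul u v hv, hu, zero_smul]
    · intro x y hx hy
      obtain ⟨q₁, h1, h1'⟩ := hx
      obtain ⟨q₂, h2, h2'⟩ := hy
      exact ⟨q₁ + q₂, by rw [map_add, h1, h2], by rw [map_add, h1', h2', add_zero]⟩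
  obtain ⟨q, hq, hq'⟩ := key _ hf
  refine ⟨f - q, ?_, ?_⟩
  · show f - q ∈ RingHom.ker ψ
    rw [RingHom.mem_ker, map_sub, hq, sub_self]
  · rw [map_sub, hq', sub_zero]

end aug

section cot

variable {𝒪 A : Type*} [CommRing 𝒪] [CommRing A] [Algebra 𝒪 A] {n : ℕ}
  {ψ : MvPowerSeries (Fin n) 𝒪 →ₐ[𝒪] A} {π : A →ₐ[𝒪] 𝒪}

/-- the generic linear form `∑ c_i X_i`. -/
noncomputable def linForm (n : ℕ) (𝒪 : Type*) [CommRing 𝒪] :
    (Fin n → 𝒪) →ₗ[𝒪] MvPowerSeries (Fin n) 𝒪 :=
  Fintype.linearCombination 𝒪 (fun i => (X i : MvPowerSeries (Fin n) 𝒪))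

theorem linForm_apply (c : Fin n → 𝒪) :
    linForm n 𝒪 c = ∑ i, C (c i) * X i := by
  unfold linForm
  rw [Fintype.linearCombination_apply]
  refine Finset.sum_congr rfl fun i _ => ?_
  rw [MvPowerSeries.smul_eq_C_mul]

theorem constantCoeff_linForm (c : Fin n → 𝒪) : constantCoeff (linForm n 𝒪 c) = 0 := by
  rw [linForm_apply]
  exact constantCoeff_sum_mul_X Finset.univ _

theorem linPart_linForm (c : Fin n → 𝒪) : linPart n 𝒪 (linForm n 𝒪 c) = c := by
  rw [linForm_apply, linPart_sum_mul_X]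
  funext j
  simp

/-- `f - linForm (linPart f)` has neither constant nor linear terms when `f` has no constant
term. -/
theorem psi_sub_linForm_mem_sq (hπ : ∀ i, π (ψ (X i)) = 0) {f : MvPowerSeries (Fin n) 𝒪}
    (hf : constantCoeff f = 0) :
    ψ (f - linForm n 𝒪 (linPart n 𝒪 f)) ∈ (RingHom.ker π) ^ 2 := by
  apply psi_mem_ker_pi_sq hπ
  · rw [map_sub, hf, constantCoeff_linForm, sub_zero]
  · rw [map_sub, linPart_linForm, sub_self]

/-- the map `𝒪^n → Φ_A`, `c ↦ class of ψ (∑ c_i X_i)`. -/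
noncomputable def kappa (hπ : ∀ i, π (ψ (X i)) = 0) :
    (Fin n → 𝒪) →ₗ[𝒪] (RingHom.ker π).Cotangent where
  toFun c := (RingHom.ker π).toCotangent
    ⟨ψ (linForm n 𝒪 c), psi_mem_ker_pi hπ (constantCoeff_linForm c)⟩
  map_add' c c' := by
    rw [← map_add]
    congr 1
    apply Subtype.ext
    simp only [map_add, Submodule.coe_add]
  map_smul' a c := by
    rw [RingHom.id_apply, ← LinearMap.map_smul_of_tower]
    congr 1
    apply Subtype.ext
    simp only [map_smul, Submodule.coe_smul_of_tower]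

theorem kappa_apply (hπ : ∀ i, π (ψ (X i)) = 0) (c : Fin n → 𝒪) :
    kappa hπ c = (RingHom.ker π).toCotangent
      ⟨ψ (linForm n 𝒪 c), psi_mem_ker_pi hπ (constantCoeff_linForm c)⟩ := rfl

theorem kappa_surjective (hψ : Function.Surjective ψ) (hπ : ∀ i, π (ψ (X i)) = 0) :
    Function.Surjective (kappa hπ) := by
  intro x
  obtain ⟨⟨a, ha⟩, rfl⟩ := Ideal.toCotangent_surjective _ x
  obtain ⟨f, rfl⟩ := hψ a
  have hf : constantCoeff f = 0 := by
    rw [← pi_psi_eq_constantCoeff hπ f]; exact ha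
  refine ⟨linPart n 𝒪 f, ?_⟩
  rw [kappa_apply, Ideal.toCotangent_eq]
  have := psi_sub_linForm_mem_sq hπ hf
  rw [map_sub] at this
  have h2 := Ideal.neg_mem_iff _ |>.mpr this
  rwa [neg_sub] at h2

theorem ker_kappa (hψ : Function.Surjective ψ) (hπ : ∀ i, π (ψ (X i)) = 0) :
    LinearMap.ker (kappa hπ)
      = Submodule.map (linPart n 𝒪) ((RingHom.ker ψ).restrictScalars 𝒪) := by
  ext c
  rw [LinearMap.mem_ker, kappa_apply, Ideal.toCotangent_eq_zero]
  constructor
  · intro h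
    have := linPart_mem_of_psi_mem_sq hψ hπ h
    rwa [linPart_linForm] at this
  · rintro ⟨u, hu, rfl⟩
    have hu' : ψ u = 0 := (RingHom.mem_ker).mp hu
    have hu0 : constantCoeff u = 0 := ker_psi_le hπ hu
    have := psi_sub_linForm_mem_sq hπ hu0
    rw [map_sub, hu', zero_sub] at this
    exact (Ideal.neg_mem_iff _).mp this

/-- **LIN**: `Φ_A = 𝒪^n / ℓ(ker ψ)`. -/
theorem cotangent_linearEquiv (n : ℕ)
    (ψ : MvPowerSeries (Fin n) 𝒪 →ₐ[𝒪] A) (hψ : Function.Surjective ψ) (π : A →ₐ[𝒪] 𝒪)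
    (hπ : ∀ i, π (ψ (X i)) = 0) :
    Nonempty ((RingHom.ker π).Cotangent ≃ₗ[𝒪]
      ((Fin n → 𝒪) ⧸ Submodule.map (linPart n 𝒪) ((RingHom.ker ψ).restrictScalars 𝒪))) := by
  refine ⟨LinearEquiv.symm ?_⟩
  exact (Submodule.quotEquivOfEq _ _ (ker_kappa hψ hπ).symm).trans
    ((kappa hπ).quotKerEquivOfSurjective (kappa_surjective hψ hπ))

end cot

end Fermat.Agent.S59.NumCrit.H90

end
-- ==== END Fermat.Agent.S59.NumCrit.H90_Lin

-- ==== BEGIN Fermat.Agent.S59.Patch.Level
section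

/-!
# S59 / PATCH (helper53): facts about a single patching level

`LevelD … d` is a patching level of the prelude with the rank `d` as a parameter.
For such a level `L` (with `Λ = 𝒪⟦X₁,…,X_r⟧`, `R` local):
* `L.φ` and `L.ψ` are local;
* `gen L : Λ^d → L.N`, `v ↦ ∑ v i • b i` is `Λ`-linear and surjective;
* `phiSub L 𝔞 = {∑ φ (c i) • b i | c i ∈ 𝔞}` is a submodule, of index at most `#(Λ/𝔞)^d`;
* `𝔪 ^ K • ⊤ ≤ phiSub L 𝔞` for `K ≥ #(Λ/𝔞)^d` (uniform in the level);
* `L.π` maps `𝔪 ^ m • ⊤` onto `𝔪_R ^ m • ⊤`;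
* `M` is free of rank `d` over `𝒪`.
-/

set_option autoImplicit false
set_option linter.style.haveILetI false
set_option linter.unusedSectionVars false

namespace Fermat.Agent.S59.Patch

open IsLocalRing MvPowerSeries

/-- A patching level of the prelude, with the rank `d` as a parameter. -/
structure LevelD (𝒪 : Type) [CommRing 𝒪] (r : ℕ) (R : Type) [CommRing R]
    [Algebra 𝒪 R] (M : Type) [AddCommGroup M] [Module R M]
    (J : Ideal (MvPowerSeries (Fin r) 𝒪)) (d : ℕ) : Type 1 where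
  N : Type
  [instAddCommGroup : AddCommGroup N]
  [instModule : Module (MvPowerSeries (Fin r) 𝒪) N]
  φ : MvPowerSeries (Fin r) 𝒪 →ₐ[𝒪] MvPowerSeries (Fin r) 𝒪
  ψ : MvPowerSeries (Fin r) 𝒪 →ₐ[𝒪] R
  ψ_surjective : Function.Surjective ψ
  ψ_φ_X : ∀ i : Fin r, ψ (φ (MvPowerSeries.X i)) = 0
  π : N →+ M
  π_smul : ∀ (f : MvPowerSeries (Fin r) 𝒪) (x : N), π (f • x) = ψ f • π x
  π_surjective : Function.Surjective π
  ker_π : ∀ x : N, π x = 0 ↔
    x ∈ (Ideal.span (Set.range fun i : Fin r => φ (MvPowerSeries.X i))) •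
      (⊤ : Submodule (MvPowerSeries (Fin r) 𝒪) N)
  b : Fin d → N
  b_span : ∀ x : N, ∃ c : Fin d → MvPowerSeries (Fin r) 𝒪, x = ∑ i, φ (c i) • b i
  b_rel : ∀ c : Fin d → MvPowerSeries (Fin r) 𝒪, ∑ i, φ (c i) • b i = 0 ↔ ∀ i, c i ∈ J

attribute [instance] LevelD.instAddCommGroup LevelD.instModule

section Defs

variable {𝒪 : Type} [CommRing 𝒪] {r : ℕ} {R : Type} [CommRing R] [Algebra 𝒪 R]
  {M : Type} [AddCommGroup M] [Module R M] {J : Ideal (MvPowerSeries (Fin r) 𝒪)}

/-- A patching level of the prelude as a `LevelD`. -/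
def LevelD.ofLevel (L : Algebra.PatchingLevel 𝒪 r R M J) {d : ℕ} (h : L.d = d) :
    LevelD 𝒪 r R M J d where
  N := L.N
  φ := L.φ
  ψ := L.ψ
  ψ_surjective := L.ψ_surjective
  ψ_φ_X := L.ψ_φ_X
  π := L.π
  π_smul := L.π_smul
  π_surjective := L.π_surjective
  ker_π := L.ker_π
  b := fun i => L.b (Fin.cast h.symm i)
  b_span := by
    subst h
    exact L.b_span
  b_rel := by
    subst h
    exact L.b_rel

/-- A `LevelD` as a patching level of the prelude. -/
def LevelD.toLevel {d : ℕ} (L : LevelD 𝒪 r R M J d) : Algebra.PatchingLevel 𝒪 r R M J where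
  N := L.N
  φ := L.φ
  ψ := L.ψ
  ψ_surjective := L.ψ_surjective
  ψ_φ_X := L.ψ_φ_X
  π := L.π
  π_smul := L.π_smul
  π_surjective := L.π_surjective
  ker_π := L.ker_π
  d := d
  b := L.b
  b_span := L.b_span
  b_rel := L.b_rel

variable {d : ℕ} (L : LevelD 𝒪 r R M J d)

/-- The generating map `Λ^d → N`, `v ↦ ∑ v i • b i`. -/
noncomputable def gen : (Fin d → MvPowerSeries (Fin r) 𝒪) →ₗ[MvPowerSeries (Fin r) 𝒪] L.N :=
  Fintype.linearCombination (MvPowerSeries (Fin r) 𝒪) L.b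

theorem gen_apply (v : Fin d → MvPowerSeries (Fin r) 𝒪) : gen L v = ∑ i, v i • L.b i := by
  rw [gen, Fintype.linearCombination_apply]

theorem gen_surjective : Function.Surjective (gen L) := by
  intro x
  obtain ⟨c, hc⟩ := L.b_span x
  exact ⟨fun i => L.φ (c i), by rw [gen_apply, hc]⟩

/-- `gen (φ ∘ c) = ∑ φ (c i) • b i`. -/
theorem gen_phi (c : Fin d → MvPowerSeries (Fin r) 𝒪) :
    gen L (fun i => L.φ (c i)) = ∑ i, L.φ (c i) • L.b i := gen_apply L _

/-- The `φ`-multiples of an ideal `𝔞` of `Λ`: `{∑ φ (c i) • b i | c i ∈ 𝔞}`. -/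
def phiSub (𝔞 : Ideal (MvPowerSeries (Fin r) 𝒪)) : Submodule (MvPowerSeries (Fin r) 𝒪) L.N where
  carrier := {x | ∃ c : Fin d → MvPowerSeries (Fin r) 𝒪, (∀ i, c i ∈ 𝔞) ∧
    x = ∑ i, L.φ (c i) • L.b i}
  zero_mem' := ⟨fun _ => 0, fun _ => 𝔞.zero_mem, by simp⟩
  add_mem' := by
    rintro x y ⟨c, hc, rfl⟩ ⟨c', hc', rfl⟩
    refine ⟨fun i => c i + c' i, fun i => 𝔞.add_mem (hc i) (hc' i), ?_⟩
    simp [add_smul, Finset.sum_add_distrib]
  smul_mem' := by
    rintro y x ⟨c, hc, rfl⟩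
    -- write `y • b i = ∑ j, φ (e i j) • b j`
    have h1 : ∀ i, ∃ e : Fin d → MvPowerSeries (Fin r) 𝒪,
        y • L.b i = ∑ j, L.φ (e j) • L.b j := fun i => L.b_span _
    choose e he using h1
    refine ⟨fun j => ∑ i, c i * e i j, fun j => 𝔞.sum_mem fun i _ => 𝔞.mul_mem_right _ (hc i), ?_⟩
    rw [Finset.smul_sum]
    have h2 : ∀ i, y • L.φ (c i) • L.b i = ∑ j, L.φ (c i * e i j) • L.b j := by
      intro i
      rw [smul_comm, he i, Finset.smul_sum]
      refine Finset.sum_congr rfl fun j _ => ?_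
      rw [smul_smul, map_mul]
    simp only [h2]
    rw [Finset.sum_comm]
    refine Finset.sum_congr rfl fun j _ => ?_
    rw [map_sum, Finset.sum_smul]

theorem mem_phiSub {𝔞 : Ideal (MvPowerSeries (Fin r) 𝒪)} {x : L.N} :
    x ∈ phiSub L 𝔞 ↔ ∃ c : Fin d → MvPowerSeries (Fin r) 𝒪, (∀ i, c i ∈ 𝔞) ∧
      x = ∑ i, L.φ (c i) • L.b i := Iff.rfl

/-- `(F5)`: the coefficients of an element of `phiSub L 𝔞` lie in `𝔞` if `J ≤ 𝔞`. -/
theorem mem_of_sum_mem_phiSub {𝔞 : Ideal (MvPowerSeries (Fin r) 𝒪)} (hJ : J ≤ 𝔞)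
    (c : Fin d → MvPowerSeries (Fin r) 𝒪) (h : ∑ i, L.φ (c i) • L.b i ∈ phiSub L 𝔞) (i : Fin d) :
    c i ∈ 𝔞 := by
  obtain ⟨a, ha, hx⟩ := h
  have h0 : ∑ i, L.φ (c i - a i) • L.b i = 0 := by
    simp only [map_sub, sub_smul, Finset.sum_sub_distrib]
    rw [hx, sub_self]
  have h1 := (L.b_rel _).mp h0 i
  have : c i = (c i - a i) + a i := by ring
  rw [this]
  exact 𝔞.add_mem (hJ h1) (ha i)

/-- `φ`-multiples: `φ a • x ∈ phiSub L 𝔞` for `a ∈ 𝔞`. -/
theorem phi_smul_mem_phiSub {𝔞 : Ideal (MvPowerSeries (Fin r) 𝒪)}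
    {a : MvPowerSeries (Fin r) 𝒪} (ha : a ∈ 𝔞) (x : L.N) : L.φ a • x ∈ phiSub L 𝔞 := by
  obtain ⟨c, rfl⟩ := L.b_span x
  refine ⟨fun i => a * c i, fun i => 𝔞.mul_mem_right _ ha, ?_⟩
  rw [Finset.smul_sum]
  refine Finset.sum_congr rfl fun i _ => ?_
  rw [smul_smul, map_mul]

/-- The index of `phiSub L 𝔞` is at most `#(Λ/𝔞)^d`. -/
theorem finite_quot_phiSub (𝔞 : Ideal (MvPowerSeries (Fin r) 𝒪))
    [Finite (MvPowerSeries (Fin r) 𝒪 ⧸ 𝔞)] :
    Finite (L.N ⧸ phiSub L 𝔞) ∧
      Nat.card (L.N ⧸ phiSub L 𝔞) ≤ Nat.card (Fin d → MvPowerSeries (Fin r) 𝒪 ⧸ 𝔞) := by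
  -- a surjection `(Λ/𝔞)^d → N / phiSub`
  let F : (Fin d → MvPowerSeries (Fin r) 𝒪 ⧸ 𝔞) → L.N ⧸ phiSub L 𝔞 := fun c =>
    Submodule.Quotient.mk (∑ i, L.φ (Quotient.out (c i)) • L.b i)
  have hF : Function.Surjective F := by
    intro y
    obtain ⟨x, rfl⟩ := Submodule.Quotient.mk_surjective _ y
    obtain ⟨c, rfl⟩ := L.b_span x
    refine ⟨fun i => Ideal.Quotient.mk 𝔞 (c i), ?_⟩
    refine (Submodule.Quotient.eq _).mpr ?_
    refine ⟨fun i => Quotient.out (Ideal.Quotient.mk 𝔞 (c i)) - c i, fun i => ?_, ?_⟩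
    · rw [← Ideal.Quotient.eq]
      exact Quotient.out_eq _
    · simp only [map_sub, sub_smul, Finset.sum_sub_distrib]
  have hfin : Finite (L.N ⧸ phiSub L 𝔞) := Finite.of_surjective F hF
  exact ⟨hfin, Nat.card_le_card_of_surjective F hF⟩

end Defs

section Kill

variable {A : Type*} [CommRing A] [IsLocalRing A] {Q : Type*} [AddCommGroup Q] [Module A Q]

/-- A finite module over a local ring is killed by `𝔪 ^ #Q`. -/
theorem pow_card_smul_top_eq_bot [Finite Q] :
    (maximalIdeal A ^ Nat.card Q) • (⊤ : Submodule A Q) = ⊥ := by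
  have hnoeth : IsNoetherian A Q := isNoetherian_of_finite A Q
  set F : ℕ → Submodule A Q := fun i => (maximalIdeal A ^ i) • (⊤ : Submodule A Q) with hF
  have hsucc : ∀ i, F (i + 1) = maximalIdeal A • F i := by
    intro i
    simp only [hF]
    rw [pow_succ', Submodule.mul_smul]
  have key : ∀ i, F i = ⊥ ∨ (F i : Set Q).ncard + i ≤ Nat.card Q := by
    intro i
    induction i with
    | zero =>
      right
      simp only [hF, pow_zero, Ideal.one_eq_top, Submodule.top_smul, Submodule.top_coe,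
        add_zero]
      rw [Set.ncard_univ]
    | succ i ih =>
      rcases ih with h | h
      · left
        rw [hsucc, h, Submodule.smul_bot]
      · by_cases hbot : F i = ⊥
        · left
          rw [hsucc, hbot, Submodule.smul_bot]
        · right
          have hle : F (i + 1) ≤ F i := by
            rw [hsucc]
            exact Submodule.smul_le_right
          have hne : F (i + 1) ≠ F i := by
            intro heq
            apply hbot
            refine Submodule.eq_bot_of_le_smul_of_le_jacobson_bot (maximalIdeal A) (F i)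
              (IsNoetherian.noetherian _) ?_ ?_
            · rw [← hsucc, heq]
            · rw [IsLocalRing.jacobson_eq_maximalIdeal ⊥ bot_ne_top]
          have hlt : (F (i + 1) : Set Q) ⊂ (F i : Set Q) :=
            (SetLike.coe_ssubset_coe).mpr (lt_of_le_of_ne hle hne)
          have := Set.ncard_lt_ncard hlt (Set.toFinite _)
          omega
  rcases key (Nat.card Q) with h | h
  · exact h
  · exfalso
    have h0 : (F (Nat.card Q) : Set Q).ncard = 0 := by omega
    rw [Set.ncard_eq_zero (Set.toFinite _)] at h0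
    have : (0 : Q) ∈ (F (Nat.card Q) : Set Q) := (F (Nat.card Q)).zero_mem
    rw [h0] at this
    exact this

/-- If `N ⧸ S` is finite of cardinality at most `K`, then `𝔪 ^ K • ⊤ ≤ S`. -/
theorem pow_smul_top_le_of_card_le {N : Type*} [AddCommGroup N] [Module A N]
    (S : Submodule A N) [Finite (N ⧸ S)] {K : ℕ} (hK : Nat.card (N ⧸ S) ≤ K) :
    (maximalIdeal A ^ K) • (⊤ : Submodule A N) ≤ S := by
  have h1 : (maximalIdeal A ^ K) • (⊤ : Submodule A N) ≤
      (maximalIdeal A ^ Nat.card (N ⧸ S)) • (⊤ : Submodule A N) :=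
    Submodule.smul_mono_left (Ideal.pow_le_pow_right hK)
  refine h1.trans ?_
  intro x hx
  have h2 : S.mkQ x ∈ (maximalIdeal A ^ Nat.card (N ⧸ S)) • (⊤ : Submodule A (N ⧸ S)) := by
    have h3 : S.mkQ x ∈ Submodule.map S.mkQ
        ((maximalIdeal A ^ Nat.card (N ⧸ S)) • (⊤ : Submodule A N)) :=
      Submodule.mem_map_of_mem hx
    rw [Submodule.map_smul''] at h3
    exact Submodule.smul_mono le_rfl le_top h3
  rw [pow_card_smul_top_eq_bot, Submodule.mem_bot] at h2
  exact (Submodule.Quotient.mk_eq_zero S).mp h2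

end Kill

section Local

variable {𝒪 : Type} [CommRing 𝒪] [IsLocalRing 𝒪] {r : ℕ} {R : Type} [CommRing R] [IsLocalRing R]
  [Algebra 𝒪 R] {M : Type} [AddCommGroup M] [Module R M] {J : Ideal (MvPowerSeries (Fin r) 𝒪)}
  {d : ℕ} (L : LevelD 𝒪 r R M J d)

theorem mem_span_range_X_iff (f : MvPowerSeries (Fin r) 𝒪) :
    f ∈ Ideal.span (Set.range fun i : Fin r => (X i : MvPowerSeries (Fin r) 𝒪)) ↔
      constantCoeff f = 0 := by
  classical
  have h := Fermat.Agent.S57.H90.mem_span_X_image_iff (Finset.univ : Finset (Fin r)) f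
  have e : (fun j : Fin r => (X j : MvPowerSeries (Fin r) 𝒪)) '' ((Finset.univ : Finset (Fin r)) :
      Set (Fin r)) = Set.range fun i : Fin r => (X i : MvPowerSeries (Fin r) 𝒪) := by
    rw [Finset.coe_univ, Set.image_univ]
  rw [e] at h
  rw [h]
  constructor
  · intro h'
    rw [← coeff_zero_eq_constantCoeff_apply]
    exact h' 0 (by simp)
  · intro h' m hm
    have : m = 0 := by
      ext j
      simpa using hm j (Finset.mem_univ j)
    rw [this, coeff_zero_eq_constantCoeff_apply, h']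

/-- `(F1)`: `φ` maps `𝔪 ^ m` into `𝔪 ^ m`. -/
theorem phi_mem_pow {m : ℕ} {f : MvPowerSeries (Fin r) 𝒪}
    (hf : f ∈ maximalIdeal (MvPowerSeries (Fin r) 𝒪) ^ m) :
    L.φ f ∈ maximalIdeal (MvPowerSeries (Fin r) 𝒪) ^ m := by
  have h1 : maximalIdeal (MvPowerSeries (Fin r) 𝒪) ≤
      (maximalIdeal (MvPowerSeries (Fin r) 𝒪)).comap
        (L.φ : MvPowerSeries (Fin r) 𝒪 →+* MvPowerSeries (Fin r) 𝒪) := fun g hg =>
    Fermat.Agent.S57.H93.algHom_mem_maximalIdeal L.φ hg
  have h2 := Ideal.pow_right_mono h1 m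
  exact Ideal.le_comap_pow _ m (h2 hf)

theorem psi_isLocalHom : IsLocalHom (L.ψ : MvPowerSeries (Fin r) 𝒪 →+* R) :=
  IsLocalHom.of_surjective _ L.ψ_surjective

theorem psi_mem {f : MvPowerSeries (Fin r) 𝒪}
    (hf : f ∈ maximalIdeal (MvPowerSeries (Fin r) 𝒪)) : L.ψ f ∈ maximalIdeal R := by
  have := psi_isLocalHom L
  rw [mem_maximalIdeal, mem_nonunits_iff] at hf ⊢
  intro h
  exact hf (this.map_nonunit f h)

/-- `(F2)`: `ψ` maps `𝔪 ^ m` into `𝔪_R ^ m`. -/
theorem psi_mem_pow {m : ℕ} {f : MvPowerSeries (Fin r) 𝒪}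
    (hf : f ∈ maximalIdeal (MvPowerSeries (Fin r) 𝒪) ^ m) : L.ψ f ∈ maximalIdeal R ^ m := by
  have h1 : maximalIdeal (MvPowerSeries (Fin r) 𝒪) ≤
      (maximalIdeal R).comap (L.ψ : MvPowerSeries (Fin r) 𝒪 →+* R) := fun g hg => psi_mem L hg
  have h2 := Ideal.pow_right_mono h1 m
  exact Ideal.le_comap_pow _ m (h2 hf)

/-- `(F2')`: `ψ` maps `𝔪 ^ m` onto `𝔪_R ^ m`. -/
theorem exists_psi_eq_of_mem_pow {m : ℕ} {a : R} (ha : a ∈ maximalIdeal R ^ m) :
    ∃ f ∈ maximalIdeal (MvPowerSeries (Fin r) 𝒪) ^ m, L.ψ f = a := by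
  have h1 : maximalIdeal R ≤ (maximalIdeal (MvPowerSeries (Fin r) 𝒪)).map
      (L.ψ : MvPowerSeries (Fin r) 𝒪 →+* R) := by
    intro x hx
    obtain ⟨f, rfl⟩ := L.ψ_surjective x
    refine Ideal.mem_map_of_mem _ ?_
    rw [mem_maximalIdeal, mem_nonunits_iff] at hx ⊢
    intro h
    exact hx (h.map L.ψ)
  have h2 : a ∈ (maximalIdeal (MvPowerSeries (Fin r) 𝒪) ^ m).map
      (L.ψ : MvPowerSeries (Fin r) 𝒪 →+* R) := by
    rw [Ideal.map_pow]
    exact Ideal.pow_right_mono h1 m ha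
  obtain ⟨f, hf, hfa⟩ := (Ideal.mem_map_iff_of_surjective
    (L.ψ : MvPowerSeries (Fin r) 𝒪 →+* R) L.ψ_surjective).mp h2
  exact ⟨f, hf, hfa⟩

/-- `(F6a)`: `π` maps `𝔪 ^ m • ⊤` into `𝔪_R ^ m • ⊤`. -/
theorem pi_mem {m : ℕ} {x : L.N}
    (hx : x ∈ (maximalIdeal (MvPowerSeries (Fin r) 𝒪) ^ m) •
      (⊤ : Submodule (MvPowerSeries (Fin r) 𝒪) L.N)) :
    L.π x ∈ (maximalIdeal R ^ m) • (⊤ : Submodule R M) := by
  refine Submodule.smul_induction_on hx ?_ ?_
  · intro f hf y _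
    rw [L.π_smul]
    exact Submodule.smul_mem_smul (psi_mem_pow L hf) Submodule.mem_top
  · intro x y hx hy
    rw [map_add]
    exact Submodule.add_mem _ hx hy

/-- `(F6b)`: `π` maps `𝔪 ^ m • ⊤` onto `𝔪_R ^ m • ⊤`. -/
theorem exists_pi_eq_of_mem {m : ℕ} {y : M}
    (hy : y ∈ (maximalIdeal R ^ m) • (⊤ : Submodule R M)) :
    ∃ x ∈ (maximalIdeal (MvPowerSeries (Fin r) 𝒪) ^ m) •
      (⊤ : Submodule (MvPowerSeries (Fin r) 𝒪) L.N), L.π x = y := by
  refine Submodule.smul_induction_on hy ?_ ?_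
  · intro a ha z _
    obtain ⟨f, hf, rfl⟩ := exists_psi_eq_of_mem_pow L ha
    obtain ⟨w, rfl⟩ := L.π_surjective z
    exact ⟨f • w, Submodule.smul_mem_smul hf Submodule.mem_top, L.π_smul f w⟩
  · rintro y z ⟨x, hx, rfl⟩ ⟨x', hx', rfl⟩
    exact ⟨x + x', Submodule.add_mem _ hx hx', map_add _ _ _⟩

/-- `(F3)`: `gen` maps `I • ⊤` into `I • ⊤`. -/
theorem gen_mem {I : Ideal (MvPowerSeries (Fin r) 𝒪)} {v : Fin d → MvPowerSeries (Fin r) 𝒪}
    (hv : v ∈ I • (⊤ : Submodule (MvPowerSeries (Fin r) 𝒪) (Fin d → MvPowerSeries (Fin r) 𝒪))) :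
    gen L v ∈ I • (⊤ : Submodule (MvPowerSeries (Fin r) 𝒪) L.N) := by
  have h3 : gen L v ∈ Submodule.map (gen L)
      (I • (⊤ : Submodule (MvPowerSeries (Fin r) 𝒪) (Fin d → MvPowerSeries (Fin r) 𝒪))) :=
    Submodule.mem_map_of_mem hv
  rw [Submodule.map_smul''] at h3
  exact Submodule.smul_mono le_rfl le_top h3

/-- The kernel of `π` consists of `φ`-multiples of the ideal of the variables. -/
theorem ker_pi_le_phiSub {x : L.N} (hx : L.π x = 0) :
    x ∈ phiSub L (Ideal.span (Set.range fun i : Fin r => (X i : MvPowerSeries (Fin r) 𝒪))) := by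
  have h1 := (L.ker_π x).mp hx
  have h2 : ∀ a ∈ Ideal.span (Set.range fun i : Fin r => L.φ (MvPowerSeries.X i)),
      ∀ y : L.N, a • y ∈
        phiSub L (Ideal.span (Set.range fun i : Fin r => (X i : MvPowerSeries (Fin r) 𝒪))) := by
    intro a ha
    induction ha using Submodule.span_induction with
    | mem a ha =>
      obtain ⟨j, rfl⟩ := ha
      intro y
      exact phi_smul_mem_phiSub L (Ideal.subset_span (Set.mem_range_self j)) y
    | zero => intro y; rw [zero_smul]; exact Submodule.zero_mem _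
    | add a b _ _ ha hb => intro y; rw [add_smul]; exact Submodule.add_mem _ (ha y) (hb y)
    | smul s a _ ha =>
      intro y
      rw [smul_eq_mul, mul_smul]
      exact Submodule.smul_mem _ _ (ha y)
  exact Submodule.smul_le.mpr (fun a ha y _ => h2 a ha y) h1

/-- `ψ ∘ φ` is the constant coefficient. -/
theorem psi_phi (f : MvPowerSeries (Fin r) 𝒪) :
    L.ψ (L.φ f) = algebraMap 𝒪 R (constantCoeff f) := by
  have h1 : f - C (constantCoeff f) ∈
      Ideal.span (Set.range fun i : Fin r => (X i : MvPowerSeries (Fin r) 𝒪)) := by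
    rw [mem_span_range_X_iff, map_sub, constantCoeff_C, sub_self]
  have h2 : Ideal.span (Set.range fun i : Fin r => (X i : MvPowerSeries (Fin r) 𝒪)) ≤
      RingHom.ker ((L.ψ : MvPowerSeries (Fin r) 𝒪 →+* R).comp
        (L.φ : MvPowerSeries (Fin r) 𝒪 →+* MvPowerSeries (Fin r) 𝒪)) := by
    rw [Ideal.span_le]
    rintro _ ⟨j, rfl⟩
    exact L.ψ_φ_X j
  have h3 := h2 h1
  rw [RingHom.mem_ker, RingHom.comp_apply] at h3
  simp only [AlgHom.coe_toRingHom, map_sub] at h3
  have h4 : (C (constantCoeff f) : MvPowerSeries (Fin r) 𝒪) =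
      algebraMap 𝒪 (MvPowerSeries (Fin r) 𝒪) (constantCoeff f) := by
    rw [MvPowerSeries.algebraMap_apply, Algebra.algebraMap_self, RingHom.id_apply]
  rw [h4, L.φ.commutes, L.ψ.commutes, sub_eq_zero] at h3
  exact h3

/-- `(F7)`: `M` is free of rank `d` over `𝒪`. -/
theorem finrank_eq [Module 𝒪 M] [IsScalarTower 𝒪 R M] (L : LevelD 𝒪 r R M J d)
    (hJ : J ≤ Ideal.span (Set.range fun i : Fin r => (X i : MvPowerSeries (Fin r) 𝒪))) :
    Module.finrank 𝒪 M = d := by
  let E : (Fin d → 𝒪) →ₗ[𝒪] M := Fintype.linearCombination 𝒪 (fun i => L.π (L.b i))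
  have hE : ∀ c : Fin d → 𝒪, E c = L.π (∑ i, L.φ (C (c i)) • L.b i) := by
    intro c
    rw [Fintype.linearCombination_apply, map_sum]
    refine Finset.sum_congr rfl fun i _ => ?_
    rw [L.π_smul, psi_phi, constantCoeff_C, algebraMap_smul]
  have hinj : Function.Injective E := by
    rw [injective_iff_map_eq_zero]
    intro c hc
    rw [hE] at hc
    have h1 := ker_pi_le_phiSub L hc
    funext i
    have h2 := mem_of_sum_mem_phiSub L hJ (fun i => C (c i)) h1 i
    rw [mem_span_range_X_iff, constantCoeff_C] at h2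
    exact h2
  have hsurj : Function.Surjective E := by
    intro y
    obtain ⟨x, rfl⟩ := L.π_surjective y
    obtain ⟨c, rfl⟩ := L.b_span x
    refine ⟨fun i => constantCoeff (c i), ?_⟩
    rw [Fintype.linearCombination_apply, map_sum]
    refine Finset.sum_congr rfl fun i _ => ?_
    rw [L.π_smul, psi_phi, algebraMap_smul]
  have e : (Fin d → 𝒪) ≃ₗ[𝒪] M := LinearEquiv.ofBijective E ⟨hinj, hsurj⟩
  rw [← e.finrank_eq, Module.finrank_fin_fun]

/-- `M` is a finite `R`-module. -/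
theorem moduleFinite (L : LevelD 𝒪 r R M J d) : Module.Finite R M := by
  let E : (Fin d → R) →ₗ[R] M := Fintype.linearCombination R (fun i => L.π (L.b i))
  have hsurj : Function.Surjective E := by
    intro y
    obtain ⟨x, rfl⟩ := L.π_surjective y
    obtain ⟨c, rfl⟩ := L.b_span x
    refine ⟨fun i => L.ψ (L.φ (c i)), ?_⟩
    rw [Fintype.linearCombination_apply, map_sum]
    refine Finset.sum_congr rfl fun i _ => ?_
    rw [L.π_smul]
  exact Module.Finite.of_surjective E hsurj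

end Local

section J

variable {𝒪 : Type} [CommRing 𝒪] [IsLocalRing 𝒪] (r : ℕ)

/-- the relation ideals of a patching datum. -/
noncomputable def relIdeal (p n : ℕ) : Ideal (MvPowerSeries (Fin r) 𝒪) :=
  Ideal.span (Set.range fun j : Fin r =>
    ((1 + MvPowerSeries.X j) ^ (p ^ n) - 1 : MvPowerSeries (Fin r) 𝒪))

theorem relIdeal_le_span_X (p n : ℕ) :
    relIdeal (𝒪 := 𝒪) r p n ≤
      Ideal.span (Set.range fun i : Fin r => (X i : MvPowerSeries (Fin r) 𝒪)) := by
  rw [relIdeal, Ideal.span_le]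
  rintro _ ⟨j, rfl⟩
  rw [SetLike.mem_coe, mem_span_range_X_iff]
  simp

theorem one_add_pow_sub_one_mem {A : Type*} [CommRing A] (I : Ideal A) {p : ℕ}
    (hp : (p : A) ∈ I) {a : A} (ha : a ∈ I) (n : ℕ) : (1 + a) ^ (p ^ n) - 1 ∈ I ^ (n + 1) := by
  induction n with
  | zero => simpa using ha
  | succ n ih =>
    have hpn : p ^ (n + 1) = p ^ n * p := pow_succ p n
    rw [hpn, pow_mul]
    set y := (1 + a) ^ p ^ n with hy
    -- `y ^ p - 1 = (y - 1) * ∑ i < p, y ^ i`
    have h1 : y ^ p - 1 = (y - 1) * ∑ i ∈ Finset.range p, y ^ i := by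
      rw [mul_comm]
      exact (geom_sum_mul y p).symm
    have h2 : ∑ i ∈ Finset.range p, y ^ i ∈ I := by
      have h3 : ∀ i : ℕ, y ^ i - 1 ∈ I := by
        intro i
        have hy1 : y - 1 ∈ I := by
          have := Ideal.pow_le_self (Nat.succ_ne_zero n) ih
          exact this
        have : y ^ i - 1 = (y - 1) * ∑ k ∈ Finset.range i, y ^ k := by
          rw [mul_comm]
          exact (geom_sum_mul y i).symm
        rw [this]
        exact I.mul_mem_right _ hy1
      have h4 : ∑ i ∈ Finset.range p, y ^ i =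
          ∑ i ∈ Finset.range p, (y ^ i - 1) + (p : A) := by
        rw [Finset.sum_sub_distrib]
        simp
      rw [h4]
      exact I.add_mem (I.sum_mem fun i _ => h3 i) hp
    rw [h1, pow_succ (n := n + 1)]
    exact Ideal.mul_mem_mul ih h2

/-- `[J]`: the `n`-th relation ideal lies in `𝔪 ^ (n + 1)`. -/
theorem relIdeal_le_pow {p : ℕ} (hp : (p : 𝒪) ∈ maximalIdeal 𝒪) (n : ℕ) :
    relIdeal (𝒪 := 𝒪) r p n ≤ maximalIdeal (MvPowerSeries (Fin r) 𝒪) ^ (n + 1) := by
  rw [relIdeal, Ideal.span_le]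
  rintro _ ⟨j, rfl⟩
  refine one_add_pow_sub_one_mem _ ?_ ?_ n
  · have h1 : ((p : ℕ) : MvPowerSeries (Fin r) 𝒪) = C ((p : ℕ) : 𝒪) := by
      rw [map_natCast]
    rw [h1, mem_maximalIdeal, mem_nonunits_iff, MvPowerSeries.isUnit_iff_constantCoeff,
      constantCoeff_C]
    exact (mem_maximalIdeal _).mp hp
  · rw [mem_maximalIdeal, mem_nonunits_iff, MvPowerSeries.isUnit_iff_constantCoeff,
      constantCoeff_X]
    exact not_isUnit_zero

end J

end Fermat.Agent.S59.Patch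

end
-- ==== END Fermat.Agent.S59.Patch.Level

-- ==== BEGIN Fermat.Agent.S59.RT
section

/-!
# S59 wiring (helper53), layer 2a: from `R = T` to an eigenform

`eigenform_of_RT_points`: let `D` be a universal deformation ring for `(ρbar, 𝒟)`, `H` a
Hecke–Galois datum of level `N` away from `S` with coefficient ring `T`, and `φ : D.R → T` the
surjection of S54.  If every `𝒪`-point of `D.R` factors through `φ` (for instance if `φ` is
injective: `R = T`), then every representation `ρ` over `𝒪` of type `𝒟` lifting `ρbar`, with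
integral Frobenius traces `a ℓ`, comes from a normalised eigenform of level `N`.

Everything is formal: universal property, `LinearMap.charpoly_baseChange`, existence of
Frobenius elements (`Lib/FrobExists`), and `exists_normalizedEigenform_of_point`.
-/

set_option autoImplicit false

open Polynomial CuspForm CongruenceSubgroup ModularFormClass

namespace Fermat.Agent.S59

/-- `R = T`, points form: a point of the deformation ring which factors through the Hecke ring
gives a normalised eigenform. -/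
theorem eigenform_of_RT_points
    {𝒪 : Type} [CommRing 𝒪] [IsDomain 𝒪] [IsDiscreteValuationRing 𝒪]
    [IsAdicComplete (IsLocalRing.maximalIdeal 𝒪) 𝒪] [CharZero 𝒪]
    {ρbar : ResidualGaloisRep (IsLocalRing.ResidueField 𝒪)}
    {𝒟 : ∀ ⦃A : Type⦄ [CommRing A] [IsLocalRing A] [Algebra 𝒪 A], GaloisRepAdic A → Prop}
    (D : GaloisRep.DeformationRingData 𝒪 ρbar 𝒟)
    {N : ℕ} [NeZero N] {S : Set ℕ}
    {θ : CuspForm.heckeAlgebra N 2 S →+* IsLocalRing.ResidueField 𝒪}
    {T : Type} [CommRing T] [IsLocalRing T] [IsNoetherianRing T]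
    [IsAdicComplete (IsLocalRing.maximalIdeal T) T] [Algebra 𝒪 T] [IsLocalHom (algebraMap 𝒪 T)]
    [Module.Finite 𝒪 T] [Module.Free 𝒪 T]
    (H : CuspForm.HeckeGaloisRepDatum N S 𝒪 θ T)
    (φ : D.R →ₐ[𝒪] T) (hφs : Function.Surjective φ) (hφ : IsLocalHom (φ : D.R →+* T))
    (e : (D.ρ.baseChangeAlong (φ : D.R →+* T) hφ).IsEquiv H.ρ)
    (hpts : ∀ x : D.R →ₐ[𝒪] 𝒪, RingHom.ker (φ : D.R →+* T) ≤ RingHom.ker (x : D.R →+* 𝒪))
    (ρ : GaloisRepAdic 𝒪) (hρ : 𝒟 ρ)
    (hres : ρ.residual.IsEquiv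
      (ρbar.baseChangeAlong (IsLocalRing.ResidueField.map (algebraMap 𝒪 𝒪))))
    (a : ℕ → ℤ)
    (hfrob : ∀ ℓ : ℕ, ℓ.Prime → ¬ ℓ ∣ N → ℓ ∉ S →
      ∀ A : ValuationSubring (AlgebraicClosure ℚ), A.LiesOverPrime ℓ →
        ∀ σ : AlgebraicClosure ℚ ≃ₐ[ℚ] AlgebraicClosure ℚ, A.IsFrobeniusAt σ ℓ →
          LinearMap.charpoly (ρ.ρ σ) = X ^ 2 - C (((a ℓ : ℤ) : 𝒪)) * X + C ((ℓ : 𝒪))) :
    ∃ g : CuspForm (Gamma0 N) 2, g.IsNormalizedEigenform ∧
      ∀ ℓ : ℕ, ℓ.Prime → ¬ ℓ ∣ N → ℓ ∉ S → qCoeff ⇑g ℓ = (a ℓ : ℂ) := by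
  -- the point of `D.R` given by `ρ`
  have hsurj : Function.Surjective (IsLocalRing.residue 𝒪 ∘ algebraMap 𝒪 𝒪) := by
    intro y
    obtain ⟨x, rfl⟩ := IsLocalRing.residue_surjective y
    exact ⟨x, rfl⟩
  obtain ⟨x, ⟨hx, ⟨ex⟩⟩, -⟩ := D.universal 𝒪 hsurj ρ hρ hres
  obtain ⟨eφ⟩ := e
  -- it factors through `T`
  let ψ : T →ₐ[𝒪] 𝒪 := AlgHom.liftOfSurjective φ hφs x (hpts x)
  have hψ : ∀ r : D.R, ψ (φ r) = x r := fun r => AlgHom.liftOfSurjective_apply φ hφs x (hpts x) r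
  -- the corresponding point of the Hecke algebra
  let χ : CuspForm.heckeAlgebra N 2 S →+* 𝒪 := (ψ : T →+* 𝒪).comp H.π
  refine exists_normalizedEigenform_of_point S χ a ?_
  intro ℓ hℓ hℓN hℓS
  obtain ⟨A, σ, hA, hσ⟩ := Fermat.Agent.Lib.FrobExists.exists_place_and_frobenius ℓ hℓ
  have h1 := hfrob ℓ hℓ hℓN hℓS A hA σ hσ
  have h2 := H.charpoly_frob ℓ hℓ hℓN hℓS A hA σ hσ
  rw [Fermat.Agent.S54.charpoly_eq_map_of_equiv (φ : D.R →+* T) hφ D.ρ H.ρ eφ σ] at h2
  rw [Fermat.Agent.S54.charpoly_eq_map_of_equiv (x : D.R →+* 𝒪) hx D.ρ ρ ex σ] at h1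
  -- compare the coefficients of `X`
  have h3 := congrArg (fun p => p.coeff 1) h1
  have h4 := congrArg (fun p => p.coeff 1) h2
  simp only [coeff_map, coeff_add, coeff_sub, coeff_X_pow, coeff_C_mul, coeff_X_one,
    coeff_C] at h3 h4
  norm_num at h3 h4
  -- `h3 : x c = - a ℓ`, `h4 : φ c = - π T_ℓ`
  have h5 : ψ (φ ((LinearMap.charpoly (D.ρ.ρ σ)).coeff 1)) =
      x ((LinearMap.charpoly (D.ρ.ρ σ)).coeff 1) := hψ _
  have h6 : χ (CuspForm.heckeAlgebra.T hℓ hℓN hℓS) =
      ψ (H.π (CuspForm.heckeAlgebra.T hℓ hℓN hℓS)) := rfl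
  have h4' : H.π (CuspForm.heckeAlgebra.T hℓ hℓN hℓS) =
      - φ ((LinearMap.charpoly (D.ρ.ρ σ)).coeff 1) := by
    have := h4
    rw [this, neg_neg]
  have h3' : x ((LinearMap.charpoly (D.ρ.ρ σ)).coeff 1) = - ((a ℓ : ℤ) : 𝒪) := by
    exact h3
  rw [h6, h4', map_neg, h5, h3', neg_neg]

/-- `R = T` (injective form) gives an eigenform. -/
theorem eigenform_of_RT
    {𝒪 : Type} [CommRing 𝒪] [IsDomain 𝒪] [IsDiscreteValuationRing 𝒪]
    [IsAdicComplete (IsLocalRing.maximalIdeal 𝒪) 𝒪] [CharZero 𝒪]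
    {ρbar : ResidualGaloisRep (IsLocalRing.ResidueField 𝒪)}
    {𝒟 : ∀ ⦃A : Type⦄ [CommRing A] [IsLocalRing A] [Algebra 𝒪 A], GaloisRepAdic A → Prop}
    (D : GaloisRep.DeformationRingData 𝒪 ρbar 𝒟)
    {N : ℕ} [NeZero N] {S : Set ℕ}
    {θ : CuspForm.heckeAlgebra N 2 S →+* IsLocalRing.ResidueField 𝒪}
    {T : Type} [CommRing T] [IsLocalRing T] [IsNoetherianRing T]
    [IsAdicComplete (IsLocalRing.maximalIdeal T) T] [Algebra 𝒪 T] [IsLocalHom (algebraMap 𝒪 T)]
    [Module.Finite 𝒪 T] [Module.Free 𝒪 T]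
    (H : CuspForm.HeckeGaloisRepDatum N S 𝒪 θ T)
    (φ : D.R →ₐ[𝒪] T) (hφs : Function.Surjective φ) (hφi : Function.Injective φ)
    (hφ : IsLocalHom (φ : D.R →+* T))
    (e : (D.ρ.baseChangeAlong (φ : D.R →+* T) hφ).IsEquiv H.ρ)
    (ρ : GaloisRepAdic 𝒪) (hρ : 𝒟 ρ)
    (hres : ρ.residual.IsEquiv
      (ρbar.baseChangeAlong (IsLocalRing.ResidueField.map (algebraMap 𝒪 𝒪))))
    (a : ℕ → ℤ)
    (hfrob : ∀ ℓ : ℕ, ℓ.Prime → ¬ ℓ ∣ N → ℓ ∉ S →
      ∀ A : ValuationSubring (AlgebraicClosure ℚ), A.LiesOverPrime ℓ →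
        ∀ σ : AlgebraicClosure ℚ ≃ₐ[ℚ] AlgebraicClosure ℚ, A.IsFrobeniusAt σ ℓ →
          LinearMap.charpoly (ρ.ρ σ) = X ^ 2 - C (((a ℓ : ℤ) : 𝒪)) * X + C ((ℓ : 𝒪))) :
    ∃ g : CuspForm (Gamma0 N) 2, g.IsNormalizedEigenform ∧
      ∀ ℓ : ℕ, ℓ.Prime → ¬ ℓ ∣ N → ℓ ∉ S → qCoeff ⇑g ℓ = (a ℓ : ℂ) := by
  refine eigenform_of_RT_points D H φ hφs hφ e ?_ ρ hρ hres a hfrob
  intro x r hr
  have : r = 0 := hφi (by simpa using hr)
  rw [this]
  exact Submodule.zero_mem _

end Fermat.Agent.S59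

end
-- ==== END Fermat.Agent.S59.RT

-- ==== BEGIN Fermat.Agent.S59.TWGal.Defs3
section

set_option autoImplicit false

open Polynomial IsLocalRing

namespace Fermat.Agent.S59.TWGal

/-- **CYCq** (= `Tate.T7.Stmt_CYC`, repeated here to keep the imports small): the inertia group at
`P ∣ q` surjects onto `Gal(ℚ(μ_q)/ℚ)`. -/
def Stmt_CYCq : Prop :=
  ∀ (q : ℕ), q.Prime → ∀ P : ValuationSubring Qb, P.LiesOverPrime q →
    ∀ a : ℕ, ¬ q ∣ a → ∃ σ ∈ P.inertiaSubgroupIn ℚ, ∀ μ : Qb, μ ^ q = 1 → σ μ = μ ^ a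

/-- **G2c**: an element of the inertia group at `P ∣ q` which fixes the `q`-th roots of unity
has `χ_i = 1`: the characters `χ_i` on `I_P` factor through the mod `q` cyclotomic character.
[At level `N` take `F ∋ ζ_q` containing the field of level `N`; `TAME` gives `τ₀` with
`σ ≡ τ₀ ^ j` modulo elements of `q`-power order (which fix `ζ_q`); by `CYCq` the exponent `a₀`
of `τ₀` on `μ_q` is a primitive root modulo `q`; `σ ζ = ζ` gives `q - 1 ∣ j`, and
`χ_i(τ₀) ^ (q - 1) ≡ 1`.] -/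
def Stmt_G2c : Prop :=
  ∀ (A : Type) [CommRing A] [IsLocalRing A] [IsNoetherianRing A]
    (p : ℕ), p.Prime → (p : A) ∈ maximalIdeal A →
  ∀ (ρ : GaloisRepAdic A) (q : ℕ), q.Prime → q ≠ p →
  ∀ (P : ValuationSubring Qb), P.LiesOverPrime q → InertiaTrivMod ρ P →
  ∀ (φ : GQ), P.IsFrobeniusAt φ q →
  ∀ (b : Module.Basis (Fin 2) A ρ.V), DiagOn ρ P b →
    ∀ σ ∈ P.inertiaSubgroupIn ℚ, (∀ ζ : Qb, ζ ^ q = 1 → σ ζ = ζ) →
      ∀ i : Fin 2, chi ρ b i σ = 1

end Fermat.Agent.S59.TWGal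

end
-- ==== END Fermat.Agent.S59.TWGal.Defs3

-- ==== BEGIN Fermat.Agent.S59.TWGal.H01_MatDiag
section

/-!
# S59, package TW-GAL, leaf MAT-D (helper1): `Stmt_MatDiag`

The tame relation `F Y = Y ^ q F` modulo `I ^ N`, `F = diag(a, b)`, `Y ≡ 1 mod I`, with
`a - q b` and `b - q a` units, forces the off-diagonal entries of `Y` into `I ^ N`.

Proof: induction on `k ≤ N`.  If `Y i j ∈ I ^ k` (`i ≠ j`) then `(Y ^ m) i j ≡ m Y i j` modulo
`I ^ (k + 1)` (`pow_offdiag`, induction on `m`), and the `(i, j)` entry of the relation gives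
`(d i - q d j) Y i j ∈ I ^ (k + 1)`.
-/

set_option autoImplicit false

namespace Fermat.Agent.S59.TWGal.H01

variable {A : Type*} [CommRing A]

/-- The `(i, j)` entry of a product of `2 × 2` matrices, `i ≠ j`. -/
theorem mul_apply_offdiag (M M' : Matrix (Fin 2) (Fin 2) A) {i j : Fin 2} (hij : i ≠ j) :
    (M * M') i j = M i i * M' i j + M i j * M' j j := by
  rw [Matrix.mul_apply, Fin.sum_univ_two]
  fin_cases i <;> fin_cases j
  · exact absurd rfl hij
  · rfl
  · exact add_comm _ _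
  · exact absurd rfl hij

/-- If `Y ≡ 1 mod I` and `Y i j ∈ I ^ k`, `i ≠ j`, then `(Y ^ m) i j ≡ m Y i j` modulo
`I ^ (k + 1)`. -/
theorem pow_offdiag {I : Ideal A} {Y : Matrix (Fin 2) (Fin 2) A} (hY : EntriesIn I (Y - 1))
    {k : ℕ} {i j : Fin 2} (hij : i ≠ j) (h : Y i j ∈ I ^ k) (m : ℕ) :
    (Y ^ m) i j - (m : A) * Y i j ∈ I ^ (k + 1) := by
  induction m with
  | zero =>
    rw [pow_zero, Matrix.one_apply_ne hij, Nat.cast_zero, zero_mul, sub_zero]
    exact (I ^ (k + 1)).zero_mem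
  | succ m ih =>
    have h1 : (Y ^ m) i i - 1 ∈ I := by
      have := entriesIn_pow_sub_one hY m i i
      rwa [Matrix.sub_apply, Matrix.one_apply_eq] at this
    have h2 : Y j j - 1 ∈ I := by
      have := hY j j
      rwa [Matrix.sub_apply, Matrix.one_apply_eq] at this
    have e : (Y ^ (m + 1)) i j - ((m + 1 : ℕ) : A) * Y i j
        = ((Y ^ m) i i - 1) * Y i j + ((Y ^ m) i j - (m : A) * Y i j) * Y j j
          + (m : A) * (Y i j * (Y j j - 1)) := by
      rw [pow_succ, mul_apply_offdiag _ _ hij]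
      push_cast
      ring
    rw [e]
    refine (I ^ (k + 1)).add_mem ((I ^ (k + 1)).add_mem ?_ ?_) ?_
    · rw [pow_succ']
      exact Ideal.mul_mem_mul h1 h
    · exact (I ^ (k + 1)).mul_mem_right _ ih
    · refine (I ^ (k + 1)).mul_mem_left _ ?_
      rw [pow_succ]
      exact Ideal.mul_mem_mul h h2

/-- The off-diagonal entry `(i, j)`, for a general diagonal matrix. -/
theorem offdiag_mem {I : Ideal A} {N q : ℕ} {d : Fin 2 → A}
    {Y : Matrix (Fin 2) (Fin 2) A} (hY : EntriesIn I (Y - 1))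
    (hrel : EntriesIn (I ^ N) (Matrix.diagonal d * Y - Y ^ q * Matrix.diagonal d))
    {i j : Fin 2} (hij : i ≠ j) (hu : IsUnit (d i - (q : A) * d j)) : Y i j ∈ I ^ N := by
  have key : ∀ k : ℕ, k ≤ N → Y i j ∈ I ^ k := by
    intro k
    induction k with
    | zero =>
      intro _
      rw [pow_zero, Ideal.one_eq_top]
      exact Submodule.mem_top
    | succ k ih =>
      intro hk
      have hX := ih (by omega)
      have h1 : d i * Y i j - (Y ^ q) i j * d j ∈ I ^ (k + 1) := by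
        have := Ideal.pow_le_pow_right hk (hrel i j)
        rwa [Matrix.sub_apply, Matrix.diagonal_mul, Matrix.mul_diagonal] at this
      have h2 := pow_offdiag hY hij hX q
      have h3 : (d i - (q : A) * d j) * Y i j ∈ I ^ (k + 1) := by
        have e : (d i - (q : A) * d j) * Y i j
            = (d i * Y i j - (Y ^ q) i j * d j) + d j * ((Y ^ q) i j - (q : A) * Y i j) := by
          ring
        rw [e]
        exact (I ^ (k + 1)).add_mem h1 ((I ^ (k + 1)).mul_mem_left _ h2)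
      obtain ⟨w, hw⟩ := hu
      have e : Y i j = (↑w⁻¹ : A) * ((d i - (q : A) * d j) * Y i j) := by
        rw [← hw, ← mul_assoc, Units.inv_mul, one_mul]
      rw [e]
      exact (I ^ (k + 1)).mul_mem_left _ h3
  exact key N le_rfl

/-- **MAT-D.** -/
theorem stmt_MatDiag : Stmt_MatDiag := by
  intro A _ I N q a b hab hba Y hY hrel
  have hY' : EntriesIn I (Y - 1) := hY
  have hrel' : EntriesIn (I ^ N) (Matrix.diagonal ![a, b] * Y - Y ^ q * Matrix.diagonal ![a, b]) :=
    hrel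
  constructor
  · exact offdiag_mem hY' hrel' (i := 0) (j := 1) (by decide) (by simpa using hab)
  · exact offdiag_mem hY' hrel' (i := 1) (j := 0) (by decide) (by simpa using hba)

end Fermat.Agent.S59.TWGal.H01

end
-- ==== END Fermat.Agent.S59.TWGal.H01_MatDiag

-- ==== BEGIN Fermat.Agent.S59.TWGal.H41_G2
section

set_option autoImplicit false

open Polynomial IsLocalRing

namespace Fermat.Agent.S59.TWGal.H41

/-! ### Diagonal matrices -/

section diag

variable {R : Type} [CommRing R]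

lemma isDiag_comm {X Y : Matrix (Fin 2) (Fin 2) R} (hX : IsDiag X) (hY : IsDiag Y) :
    X * Y = Y * X := by
  ext i j
  fin_cases i <;> fin_cases j <;>
    simp [Matrix.mul_apply, Fin.sum_univ_two, hX.1, hX.2, hY.1, hY.2, mul_comm]

lemma isDiag_pow_apply {X : Matrix (Fin 2) (Fin 2) R} (hX : IsDiag X) (n : ℕ) (i : Fin 2) :
    (X ^ n) i i = (X i i) ^ n := by
  induction n with
  | zero => simp
  | succ n ih =>
    rw [pow_succ, pow_succ, ← ih]
    fin_cases i
    · simp [Matrix.mul_apply, Fin.sum_univ_two, hX.2]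
    · simp [Matrix.mul_apply, Fin.sum_univ_two, hX.1]

lemma isDiag_map {S : Type} [CommRing S] (f : R →+* S) {X : Matrix (Fin 2) (Fin 2) R}
    (hX : IsDiag X) : IsDiag (f.mapMatrix X) := by
  constructor
  · rw [RingHom.mapMatrix_apply, Matrix.map_apply, hX.1, map_zero]
  · rw [RingHom.mapMatrix_apply, Matrix.map_apply, hX.2, map_zero]

end diag

/-! ### The matrix representation -/

section rep

variable {A : Type} [CommRing A] [IsLocalRing A]

/-- The matrix representation attached to a basis. -/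
noncomputable def muHom (ρ : GaloisRepAdic A) (b : Module.Basis (Fin 2) A ρ.V) :
    GQ →* Matrix (Fin 2) (Fin 2) A :=
  ((LinearMap.toMatrixAlgEquiv b : Module.End A ρ.V ≃ₐ[A] _) : Module.End A ρ.V →* _).comp ρ.ρ

lemma muHom_eq (ρ : GaloisRepAdic A) (b : Module.Basis (Fin 2) A ρ.V) (g : GQ) :
    muHom ρ b g = mat b (ρ.ρ g) := rfl

lemma muHom_apply (ρ : GaloisRepAdic A) (b : Module.Basis (Fin 2) A ρ.V) (g : GQ)
    (i j : Fin 2) : muHom ρ b g i j = b.repr (ρ.ρ g (b j)) i := by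
  rw [muHom_eq, mat_apply]

lemma chi_eq_muHom (ρ : GaloisRepAdic A) (b : Module.Basis (Fin 2) A ρ.V) (i : Fin 2) (g : GQ) :
    chi ρ b i g = muHom ρ b g i i := by
  rw [muHom_apply]; rfl

lemma isDiag_muHom {ρ : GaloisRepAdic A} {P : ValuationSubring Qb}
    {b : Module.Basis (Fin 2) A ρ.V} (hD : DiagOn ρ P b) {g : GQ}
    (hg : g ∈ P.decompositionSubgroup ℚ) : IsDiag (muHom ρ b g) := by
  obtain ⟨x, y, hx, hy⟩ := hD g hg
  constructor
  · rw [muHom_apply, hy, map_smul, Module.Basis.repr_self]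
    simp
  · rw [muHom_apply, hx, map_smul, Module.Basis.repr_self]
    simp

lemma chi_mul {ρ : GaloisRepAdic A} {P : ValuationSubring Qb}
    {b : Module.Basis (Fin 2) A ρ.V} (hD : DiagOn ρ P b) {g h : GQ}
    (hg : g ∈ P.decompositionSubgroup ℚ) (hh : h ∈ P.decompositionSubgroup ℚ) (i : Fin 2) :
    chi ρ b i (g * h) = chi ρ b i g * chi ρ b i h := by
  rw [chi_eq_muHom, chi_eq_muHom, chi_eq_muHom, map_mul]
  have h1 := isDiag_muHom hD hg
  have h2 := isDiag_muHom hD hh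
  fin_cases i
  · simp [Matrix.mul_apply, Fin.sum_univ_two, h1.1]
  · simp [Matrix.mul_apply, Fin.sum_univ_two, h1.2]

lemma chi_pow {ρ : GaloisRepAdic A} {P : ValuationSubring Qb}
    {b : Module.Basis (Fin 2) A ρ.V} (hD : DiagOn ρ P b) {g : GQ}
    (hg : g ∈ P.decompositionSubgroup ℚ) (i : Fin 2) (n : ℕ) :
    chi ρ b i (g ^ n) = chi ρ b i g ^ n := by
  rw [chi_eq_muHom, chi_eq_muHom, map_pow, isDiag_pow_apply (isDiag_muHom hD hg)]

end rep

/-! ### Inertia modulo `𝔪 ^ N` -/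

section level

variable {A : Type} [CommRing A] [IsLocalRing A]

/-- Krull's intersection theorem for the maximal ideal. -/
lemma eq_zero_of_forall_mem_pow [IsNoetherianRing A] (x : A)
    (hx : ∀ N : ℕ, x ∈ maximalIdeal A ^ N) : x = 0 := by
  have h := Ideal.iInf_pow_eq_bot_of_isLocalRing (maximalIdeal A)
    (maximalIdeal.isMaximal A).ne_top
  have hmem : x ∈ ⨅ i : ℕ, maximalIdeal A ^ i := by
    rw [Ideal.mem_iInf]; exact hx
  rw [h] at hmem
  exact (Submodule.mem_bot A).1 hmem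

/-- At every level `N` the image of inertia is generated by one element `τ₀`, which satisfies
the tame relation `φ τ₀ = τ₀ ^ q φ`. -/
lemma exists_generator_mod (hTAME : Stmt_TAME) (hMU : Stmt_MatUnip) {p : ℕ} (hp : p.Prime)
    (hpA : (p : A) ∈ maximalIdeal A) (ρ : GaloisRepAdic A) {q : ℕ} (hq : q.Prime) (hqp : q ≠ p)
    {P : ValuationSubring Qb} (hP : P.LiesOverPrime q) (hI : InertiaTrivMod ρ P) {φ : GQ}
    (hφ : P.IsFrobeniusAt φ q) (b : Module.Basis (Fin 2) A ρ.V) (N : ℕ) :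
    ∃ τ₀ ∈ P.inertiaSubgroupIn ℚ,
      (∀ σ ∈ P.inertiaSubgroupIn ℚ, ∃ j : ℕ,
        red (maximalIdeal A ^ N) (muHom ρ b σ) = red (maximalIdeal A ^ N) (muHom ρ b τ₀) ^ j) ∧
      red (maximalIdeal A ^ N) (muHom ρ b φ) * red (maximalIdeal A ^ N) (muHom ρ b τ₀) =
        red (maximalIdeal A ^ N) (muHom ρ b τ₀) ^ q * red (maximalIdeal A ^ N) (muHom ρ b φ) := by
  have hcop : ∀ e : ℕ, (q ^ e).Coprime p :=
    fun e => Nat.Coprime.pow_left e ((Nat.coprime_primes hq hp).2 hqp)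
  obtain ⟨L, hL, hcont⟩ := ρ.isAdicContinuous N
  -- elements fixing `L` are trivial modulo `𝔪 ^ N`
  have hfix : ∀ u ∈ L.fixingSubgroup, red (maximalIdeal A ^ N) (muHom ρ b u) = 1 := by
    intro u hu
    rw [red_eq_one_iff]
    exact mat_sub_one_mem b _ _
      (hcont u (fun x hx => (IntermediateField.mem_fixingSubgroup_iff L u).1 hu x hx))
  obtain ⟨τ₀, hτ₀, hcyc, ⟨e₀, hconj⟩, -⟩ := hTAME q hq P hP φ hφ L hL
  -- inertia elements of `q`-power order modulo `G_L` are trivial modulo `𝔪 ^ N`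
  have hwild : ∀ w ∈ P.inertiaSubgroupIn ℚ, ∀ e : ℕ, w ^ (q ^ e) ∈ L.fixingSubgroup →
      red (maximalIdeal A ^ N) (muHom ρ b w) = 1 := by
    intro w hw e hwe
    rw [red_eq_one_iff]
    refine hMU A (maximalIdeal A) p (q ^ e) N hpA (hcop e) (muHom ρ b w) ?_ ?_
    · exact mat_sub_one_mem b _ _ (hI w hw)
    · rw [← map_pow, ← red_eq_one_iff]
      exact hfix _ hwe
  have hφD : φ ∈ P.decompositionSubgroup ℚ := hφ.mem_decompositionSubgroup
  have hnormal : ∀ {τ σ : GQ}, τ ∈ P.decompositionSubgroup ℚ → σ ∈ P.inertiaSubgroupIn ℚ →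
      τ * σ * τ⁻¹ ∈ P.inertiaSubgroupIn ℚ := by
    intro τ σ hτ hσ
    obtain ⟨s, hs, rfl⟩ := hσ
    refine ⟨⟨τ, hτ⟩ * s * ⟨τ, hτ⟩⁻¹, ?_, rfl⟩
    have hn : (P.inertiaSubgroup ℚ).Normal := by
      unfold ValuationSubring.inertiaSubgroup
      infer_instance
    exact hn.conj_mem s hs ⟨τ, hτ⟩
  have hw₀ : (τ₀ ^ q)⁻¹ * (φ * τ₀ * φ⁻¹) ∈ P.inertiaSubgroupIn ℚ :=
    mul_mem (inv_mem (pow_mem hτ₀ q)) (hnormal hφD hτ₀)
  refine ⟨τ₀, hτ₀, ?_, ?_⟩
  · intro σ hσ
    obtain ⟨j, e, hje⟩ := hcyc σ hσ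
    have h1 := hwild _ (mul_mem (inv_mem (pow_mem hτ₀ j)) hσ) e hje
    have h2 : σ = τ₀ ^ j * ((τ₀ ^ j)⁻¹ * σ) := by group
    refine ⟨j, ?_⟩
    conv_lhs => rw [h2]
    rw [map_mul, map_mul, h1, mul_one, map_pow, map_pow]
  · have h1 := hwild _ hw₀ e₀ hconj
    have h2 : φ * τ₀ = τ₀ ^ q * ((τ₀ ^ q)⁻¹ * (φ * τ₀ * φ⁻¹)) * φ := by group
    calc red (maximalIdeal A ^ N) (muHom ρ b φ) * red (maximalIdeal A ^ N) (muHom ρ b τ₀)
        = red (maximalIdeal A ^ N) (muHom ρ b (φ * τ₀)) := by rw [map_mul, map_mul]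
      _ = red (maximalIdeal A ^ N)
            (muHom ρ b (τ₀ ^ q * ((τ₀ ^ q)⁻¹ * (φ * τ₀ * φ⁻¹)) * φ)) := by rw [← h2]
      _ = red (maximalIdeal A ^ N) (muHom ρ b τ₀) ^ q *
            red (maximalIdeal A ^ N) (muHom ρ b φ) := by
          rw [map_mul, map_mul, map_mul, map_mul, h1, mul_one, map_pow, map_pow]

/-- The generator of level `N` has order dividing `q - 1` modulo `𝔪 ^ N` when the decomposition
group acts diagonally. -/
lemma exists_generator_mod_diag (hTAME : Stmt_TAME) (hMU : Stmt_MatUnip) {p : ℕ} (hp : p.Prime)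
    (hpA : (p : A) ∈ maximalIdeal A) (ρ : GaloisRepAdic A) {q : ℕ} (hq : q.Prime) (hqp : q ≠ p)
    {P : ValuationSubring Qb} (hP : P.LiesOverPrime q) (hI : InertiaTrivMod ρ P) {φ : GQ}
    (hφ : P.IsFrobeniusAt φ q) (b : Module.Basis (Fin 2) A ρ.V) (hD : DiagOn ρ P b) (N : ℕ) :
    ∃ τ₀ ∈ P.inertiaSubgroupIn ℚ,
      (∀ σ ∈ P.inertiaSubgroupIn ℚ, ∃ j : ℕ,
        red (maximalIdeal A ^ N) (muHom ρ b σ) = red (maximalIdeal A ^ N) (muHom ρ b τ₀) ^ j) ∧
      red (maximalIdeal A ^ N) (muHom ρ b τ₀) ^ (q - 1) = 1 := by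
  obtain ⟨τ₀, hτ₀, hcyc, hrel⟩ := exists_generator_mod hTAME hMU hp hpA ρ hq hqp hP hI hφ b N
  refine ⟨τ₀, hτ₀, hcyc, ?_⟩
  have hφD : φ ∈ P.decompositionSubgroup ℚ := hφ.mem_decompositionSubgroup
  have hτD : τ₀ ∈ P.decompositionSubgroup ℚ := by
    obtain ⟨s, -, rfl⟩ := hτ₀
    exact s.2
  set F := red (maximalIdeal A ^ N) (muHom ρ b φ) with hF
  set T := red (maximalIdeal A ^ N) (muHom ρ b τ₀) with hT
  set F' := red (maximalIdeal A ^ N) (muHom ρ b φ⁻¹) with hF'
  set T' := red (maximalIdeal A ^ N) (muHom ρ b τ₀⁻¹) with hT'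
  have hFF' : F * F' = 1 := by
    rw [hF, hF', ← map_mul, ← map_mul, mul_inv_cancel, map_one, map_one]
  have hTT' : T * T' = 1 := by
    rw [hT, hT', ← map_mul, ← map_mul, mul_inv_cancel, map_one, map_one]
  have hcomm : F * T = T * F :=
    isDiag_comm (isDiag_map _ (isDiag_muHom hD hφD)) (isDiag_map _ (isDiag_muHom hD hτD))
  have h1 : T = T ^ q := by
    calc T = T * (F * F') := by rw [hFF', mul_one]
      _ = (F * T) * F' := by rw [← mul_assoc, hcomm]
      _ = (T ^ q * F) * F' := by rw [hrel]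
      _ = T ^ q := by rw [mul_assoc, hFF', mul_one]
  have hq1 : q = (q - 1) + 1 := (Nat.sub_add_cancel hq.one_le).symm
  calc T ^ (q - 1) = T ^ (q - 1) * (T * T') := by rw [hTT', mul_one]
    _ = T ^ q * T' := by rw [← mul_assoc, ← pow_succ, ← hq1]
    _ = T * T' := by rw [← h1]
    _ = 1 := hTT'

end level

/-! ### G2a -/

/-- **G2a**: the two characters have order dividing `q - 1` on inertia. -/
theorem stmt_G2a (hTAME : Stmt_TAME) (hMU : Stmt_MatUnip) : Stmt_G2a := by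
  intro A _ _ _ p hp hpA ρ q hq hqp P hP hI φ hφ b hD σ hσ i
  have hσD : σ ∈ P.decompositionSubgroup ℚ := by
    obtain ⟨s, -, rfl⟩ := hσ
    exact s.2
  have hmat : ∀ N : ℕ, red (maximalIdeal A ^ N) (muHom ρ b σ ^ (q - 1)) = 1 := by
    intro N
    obtain ⟨τ₀, hτ₀, hcyc, hord⟩ :=
      exists_generator_mod_diag hTAME hMU hp hpA ρ hq hqp hP hI hφ b hD N
    obtain ⟨j, hj⟩ := hcyc σ hσ
    rw [map_pow, hj, ← pow_mul, mul_comm, pow_mul, hord, one_pow]
  have h1 : (muHom ρ b σ ^ (q - 1) - 1) i i = 0 :=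
    eq_zero_of_forall_mem_pow _ fun N => (red_eq_one_iff _ _).1 (hmat N) i i
  rw [Matrix.sub_apply, Matrix.one_apply_eq, sub_eq_zero,
    isDiag_pow_apply (isDiag_muHom hD hσD)] at h1
  rw [chi_eq_muHom]
  exact h1

/-! ### G2b -/

section sep

variable {A : Type} [CommRing A] [IsLocalRing A] [IsNoetherianRing A]

/-- A finite set of pairs is separated modulo a power of the maximal ideal. -/
lemma exists_separating (t : Finset (Fin 2 → A)) :
    ∃ N : ℕ, ∀ x ∈ t, ∀ y ∈ t, (∀ i, x i - y i ∈ maximalIdeal A ^ N) → x = y := by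
  classical
  have hsep : ∀ z : (Fin 2 → A) × (Fin 2 → A), ∃ N : ℕ,
      (∀ i, z.1 i - z.2 i ∈ maximalIdeal A ^ N) → z.1 = z.2 := by
    intro z
    by_cases h : z.1 = z.2
    · exact ⟨0, fun _ => h⟩
    · have h1 : ∃ i, z.1 i ≠ z.2 i := by
        by_contra hne
        push Not at hne
        exact h (funext hne)
      obtain ⟨i, hi⟩ := h1
      have h2 : ∃ N, z.1 i - z.2 i ∉ maximalIdeal A ^ N := by
        by_contra hall
        push Not at hall
        exact hi (sub_eq_zero.1 (eq_zero_of_forall_mem_pow _ hall))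
      obtain ⟨N, hN⟩ := h2
      exact ⟨N, fun hh => absurd (hh i) hN⟩
  choose f hf using hsep
  refine ⟨(t ×ˢ t).sup f, fun x hx y hy hxy => ?_⟩
  have hle : f (x, y) ≤ (t ×ˢ t).sup f :=
    Finset.le_sup (f := f) (Finset.mem_product.2 ⟨hx, hy⟩)
  exact hf (x, y) fun i => Ideal.pow_le_pow_right hle (hxy i)

end sep

/-- **G2b**: the image of inertia under the pair of characters is cyclic. -/
theorem stmt_G2b (hTAME : Stmt_TAME) (hMU : Stmt_MatUnip) : Stmt_G2b := by
  classical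
  intro A _ _ _ p hp hpA ρ q hq hqp P hP hI φ hφ b hD
  have hq2 : 2 ≤ q := hq.two_le
  have hID : ∀ σ ∈ P.inertiaSubgroupIn ℚ, σ ∈ P.decompositionSubgroup ℚ := by
    rintro _ ⟨s, -, rfl⟩
    exact s.2
  -- the pair of characters
  let X : GQ → (Fin 2 → A) := fun σ i => chi ρ b i σ
  have hX : ∀ σ i, X σ i = chi ρ b i σ := fun _ _ => rfl
  -- cyclicity at level `N`
  have hlevel : ∀ N : ℕ, ∃ τ₀ ∈ P.inertiaSubgroupIn ℚ, ∀ σ ∈ P.inertiaSubgroupIn ℚ,
      ∃ j : ℕ, j < q - 1 ∧ ∀ i, X σ i - X τ₀ i ^ j ∈ maximalIdeal A ^ N := by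
    intro N
    obtain ⟨τ₀, hτ₀, hcyc, hord⟩ :=
      exists_generator_mod_diag hTAME hMU hp hpA ρ hq hqp hP hI hφ b hD N
    refine ⟨τ₀, hτ₀, fun σ hσ => ?_⟩
    obtain ⟨j, hj⟩ := hcyc σ hσ
    refine ⟨j % (q - 1), Nat.mod_lt _ (by omega), fun i => ?_⟩
    have hjmod : red (maximalIdeal A ^ N) (muHom ρ b τ₀) ^ j =
        red (maximalIdeal A ^ N) (muHom ρ b τ₀) ^ (j % (q - 1)) := by
      conv_lhs => rw [← Nat.div_add_mod j (q - 1), pow_add, pow_mul, hord, one_pow, one_mul]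
    have h3 : red (maximalIdeal A ^ N) (muHom ρ b σ - muHom ρ b τ₀ ^ (j % (q - 1))) = 0 := by
      rw [map_sub, hj, hjmod, map_pow, sub_self]
    have h4 : (muHom ρ b σ - muHom ρ b τ₀ ^ (j % (q - 1))) i i ∈ maximalIdeal A ^ N := by
      rw [← red_apply_eq_zero_iff, h3, Matrix.zero_apply]
    rw [Matrix.sub_apply, isDiag_pow_apply (isDiag_muHom hD (hID τ₀ hτ₀))] at h4
    rw [hX, hX, chi_eq_muHom, chi_eq_muHom]
    exact h4
  -- the image is finite
  have hfin : (X '' (P.inertiaSubgroupIn ℚ : Set GQ)).Finite := by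
    by_contra hinf
    obtain ⟨t, htH, htc⟩ := (Set.not_finite.1 hinf : Set.Infinite _).exists_subset_card_eq q
    obtain ⟨N, hN⟩ := exists_separating t
    obtain ⟨τ₀, hτ₀, hτ⟩ := hlevel N
    have hj : ∀ x ∈ t, ∃ j, j < q - 1 ∧ ∀ i, x i - X τ₀ i ^ j ∈ maximalIdeal A ^ N := by
      intro x hx
      obtain ⟨σ, hσ, rfl⟩ := htH hx
      exact hτ σ hσ
    choose! J hJ1 hJ2 using hj
    have hcard : t.card ≤ (Finset.range (q - 1)).card := by
      refine Finset.card_le_card_of_injOn J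
        (fun x hx => Finset.mem_range.2 (hJ1 x hx)) ?_
      intro x hx y hy hxy
      refine hN x hx y hy fun i => ?_
      have h1 := hJ2 x hx i
      have h2 := hJ2 y hy i
      rw [hxy] at h1
      have h3 := (maximalIdeal A ^ N).sub_mem h1 h2
      rwa [sub_sub_sub_cancel_right] at h3
    rw [Finset.card_range, htc] at hcard
    omega
  -- a separating level
  obtain ⟨N, hN⟩ := exists_separating hfin.toFinset
  obtain ⟨τ₀, hτ₀, hτ⟩ := hlevel N
  refine ⟨τ₀, hτ₀, fun σ hσ => ?_⟩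
  obtain ⟨j, -, hj⟩ := hτ σ hσ
  refine ⟨j, fun i => ?_⟩
  have hmem1 : X σ ∈ hfin.toFinset := (Set.Finite.mem_toFinset _).2 ⟨σ, hσ, rfl⟩
  have hmem2 : X (τ₀ ^ j) ∈ hfin.toFinset :=
    (Set.Finite.mem_toFinset _).2 ⟨τ₀ ^ j, pow_mem hτ₀ j, rfl⟩
  have h5 := hN _ hmem1 _ hmem2 (fun i => by
    rw [hX, hX, chi_pow hD (hID τ₀ hτ₀), ← hX, ← hX]
    exact hj i)
  have h6 := congrFun h5 i
  rw [hX, hX, chi_pow hD (hID τ₀ hτ₀)] at h6
  exact h6

end Fermat.Agent.S59.TWGal.H41

end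
-- ==== END Fermat.Agent.S59.TWGal.H41_G2

-- ==== BEGIN Fermat.Agent.S59.TWGal.H4_G3
section

set_option autoImplicit false

open Polynomial IsLocalRing TensorProduct

namespace Fermat.Agent.S59.TWGal.H4

open Fermat.Agent.S59.TWGal

section

variable {A : Type} [CommRing A] [IsLocalRing A]

lemma mem_decomp_of_mem_inertia {P : ValuationSubring Qb} {σ : GQ}
    (hσ : σ ∈ P.inertiaSubgroupIn ℚ) : σ ∈ P.decompositionSubgroup ℚ := by
  obtain ⟨g, _, rfl⟩ := hσ
  exact g.2

/-- On the decomposition group, `ρ(g)` multiplies `b i` by `χ_i(g)`. -/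
lemma rho_apply_basis {ρ : GaloisRepAdic A} {P : ValuationSubring Qb}
    {b : Module.Basis (Fin 2) A ρ.V} (hb : DiagOn ρ P b) {g : GQ}
    (hg : g ∈ P.decompositionSubgroup ℚ) (i : Fin 2) :
    ρ.ρ g (b i) = chi ρ b i g • b i := by
  obtain ⟨x, y, hx, hy⟩ := hb g hg
  fin_cases i
  · show ρ.ρ g (b 0) = chi ρ b 0 g • b 0
    have : chi ρ b 0 g = x := by
      unfold chi
      rw [hx]
      simp
    rw [this, hx]
  · show ρ.ρ g (b 1) = chi ρ b 1 g • b 1
    have : chi ρ b 1 g = y := by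
      unfold chi
      rw [hy]
      simp
    rw [this, hy]

end

/-- **G3**. -/
theorem stmt_G3 : Stmt_G3 := by
  intro A _ _ ρ P b hb σ₀ hσ₀ hgen B _ _ π hπ
  let _ : Algebra A B := π.toAlgebra
  have hact : ∀ σ ∈ P.inertiaSubgroupIn ℚ, ∀ i : Fin 2,
      (ρ.ρ σ).baseChange B ((1 : B) ⊗ₜ[A] b i) = π (chi ρ b i σ) • ((1 : B) ⊗ₜ[A] b i) := by
    intro σ hσ i
    rw [LinearMap.baseChange_tmul, rho_apply_basis hb (mem_decomp_of_mem_inertia hσ) i,
      TensorProduct.tmul_smul, TensorProduct.smul_tmul', Algebra.smul_def, mul_one,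
      TensorProduct.smul_tmul', smul_eq_mul, mul_one]
    rfl
  constructor
  · intro h
    have key : ∀ i : Fin 2, π (chi ρ b i σ₀) = 1 := by
      intro i
      have h1 := hact σ₀ hσ₀ i
      have h0 : (ρ.ρ σ₀).baseChange B = (1 : Module.End B (B ⊗[A] ρ.V)) := h σ₀ hσ₀
      rw [h0, Module.End.one_apply] at h1
      have h2 : (b.baseChange B) i = π (chi ρ b i σ₀) • (b.baseChange B) i := by
        rw [Module.Basis.baseChange_apply]
        exact h1
      have h3 := congrArg (fun v => (b.baseChange B).repr v i) h2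
      simp only [Module.Basis.repr_self, map_smul, Finsupp.smul_apply, Finsupp.single_eq_same,
        smul_eq_mul, mul_one] at h3
      exact h3.symm
    exact ⟨key 0, key 1⟩
  · rintro ⟨h0, h1⟩ σ hσ
    show (ρ.ρ σ).baseChange B = (1 : Module.End B (B ⊗[A] ρ.V))
    obtain ⟨j, hj⟩ := hgen σ hσ
    have key : ∀ i : Fin 2, π (chi ρ b i σ) = 1 := by
      intro i
      rw [hj i, map_pow]
      fin_cases i
      · show π (chi ρ b 0 σ₀) ^ j = 1
        rw [h0, one_pow]
      · show π (chi ρ b 1 σ₀) ^ j = 1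
        rw [h1, one_pow]
    refine (b.baseChange B).ext fun i => ?_
    rw [Module.Basis.baseChange_apply, hact σ hσ i, key i, one_smul, Module.End.one_apply]

end Fermat.Agent.S59.TWGal.H4

end
-- ==== END Fermat.Agent.S59.TWGal.H4_G3

-- ==== BEGIN Fermat.Agent.S59.TWGal.H4_Res
section

set_option autoImplicit false

open Polynomial IsLocalRing TensorProduct

namespace Fermat.Agent.S59.TWGal.H4

open Fermat.Agent.S59.TWGal

/-- An element of `M` dying in `(R ⧸ I) ⊗ M` lies in `I M`. -/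
lemma mem_smul_top_of_tmul_eq_zero {R M : Type*} [CommRing R] [AddCommGroup M] [Module R M]
    (I : Ideal R) (x : M) (h : (1 : R ⧸ I) ⊗ₜ[R] x = 0) : x ∈ I • (⊤ : Submodule R M) := by
  have := congrArg (TensorProduct.quotTensorEquivQuotSMul M I) h
  rw [map_zero, ← map_one (Ideal.Quotient.mk I), TensorProduct.quotTensorEquivQuotSMul_mk_tmul,
    one_smul, Submodule.Quotient.mk_eq_zero] at this
  exact this

/-- **RES**. -/
theorem stmt_RES : Stmt_RES := by
  intro A _ _ ρ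
  refine ⟨fun σ hσ v => ?_, fun σ => ?_⟩
  · apply mem_smul_top_of_tmul_eq_zero
    have h1 : (ρ.ρ σ).baseChange (ResidueField A) = 1 := hσ
    have h2 := congrArg (fun f => f ((1 : ResidueField A) ⊗ₜ[A] v)) h1
    simp only [LinearMap.baseChange_tmul, Module.End.one_apply] at h2
    rw [TensorProduct.tmul_sub, sub_eq_zero]
    exact h2
  · show LinearMap.charpoly ((ρ.ρ σ).baseChange (ResidueField A)) = _
    rw [LinearMap.charpoly_baseChange]
    rfl

end Fermat.Agent.S59.TWGal.H4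

end
-- ==== END Fermat.Agent.S59.TWGal.H4_Res

-- ==== BEGIN Fermat.Agent.S59.TWH.AbsFree
section

/-!
# S59, package TW-HECKE: the abstract freeness criterion (ABS-FREE of `NOTES/plan/S59_TWH.md`)

* `eq_bot_of_fixed_cyclic` : fixed-point lemma for one automorphism of `p`-power order.
* `exists_pow_sub_one_eq_zero` : `c - 1` is nilpotent on a finite `p`-group.
* `sumMap_bijective`, `cyclic_basis` : the cyclic step of the freeness criterion
  (Hilbert 90 / invariants = pull-backs, norm surjective  ⟹  free over the group ring).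
  Iterating over a tower of cyclic covers gives freeness over `A[Δ]` for `Δ` a product of cyclic
  `p`-groups (the index type `ι` of the basis of `V₀` is arbitrary for this purpose).

All proofs are complete; only Mathlib and `AbsLG` are used.
-/

set_option autoImplicit false

namespace Fermat.Agent.S59.TWH

open MulAction

/-- Fixed-point lemma for a single automorphism of `p`-power order. -/
theorem eq_bot_of_fixed_cyclic
    {p : ℕ} [Fact p.Prime] {V : Type*} [AddCommGroup V] [Finite V]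
    (hV : ∀ v : V, ∃ n : ℕ, (p ^ n) • v = 0)
    (c₀ : V →+ V) (a : ℕ) (hc₀ : ∀ v, (⇑c₀)^[p ^ a] v = v)
    (Z : AddSubgroup V) (hZ : ∀ z ∈ Z, c₀ z ∈ Z) (h0 : ∀ z ∈ Z, c₀ z = z → z = 0) : Z = ⊥ := by
  classical
  have hpos : 0 < p ^ a := pow_pos (Fact.out : p.Prime).pos a
  obtain ⟨c, hcc⟩ : ∃ c : AddMonoid.End V, c = c₀ := ⟨c₀, rfl⟩
  have hc : c ^ (p ^ a) = 1 := by
    ext v
    rw [AddMonoid.End.coe_pow, hcc]
    exact hc₀ v
  subst hcc
  -- `c` as a unit
  let u : (AddMonoid.End V)ˣ :=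
    { val := c
      inv := c ^ (p ^ a - 1)
      val_inv := by rw [← pow_succ', Nat.sub_add_cancel hpos, hc]
      inv_val := by rw [← pow_succ, Nat.sub_add_cancel hpos, hc] }
  have hu1 : u ^ (p ^ a) = 1 := by
    apply Units.ext
    rw [Units.val_pow_eq_pow_val]
    exact hc
  let Δ := Subgroup.zpowers u
  have hΔ : IsPGroup p Δ := by
    intro g
    refine ⟨a, ?_⟩
    obtain ⟨k, hk⟩ := Subgroup.mem_zpowers_iff.mp g.2
    apply Subtype.ext
    show (g : (AddMonoid.End V)ˣ) ^ (p ^ a) = 1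
    rw [← hk, ← zpow_natCast, ← zpow_mul, mul_comm, zpow_mul, zpow_natCast, hu1, one_zpow]
  -- every element of `Δ` is a natural power of `u`
  have hnat : ∀ g : Δ, ∃ m : ℕ, (g : (AddMonoid.End V)ˣ) = u ^ m := by
    intro g
    obtain ⟨k, hk⟩ := Subgroup.mem_zpowers_iff.mp g.2
    refine ⟨(k % (p ^ a : ℕ)).toNat, ?_⟩
    rw [← hk]
    have hk2 : k = (k % (p ^ a : ℕ)) + (p ^ a : ℕ) * (k / (p ^ a : ℕ)) :=
      (Int.emod_add_mul_ediv k _).symm
    have hnn : 0 ≤ k % ((p ^ a : ℕ) : ℤ) := Int.emod_nonneg _ (by exact_mod_cast hpos.ne')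
    conv_lhs => rw [hk2]
    rw [zpow_add, zpow_mul, zpow_natCast, hu1, one_zpow, mul_one]
    conv_lhs => rw [← Int.toNat_of_nonneg hnn]
    rw [zpow_natCast]
  have hsm : ∀ (g : Δ) (v : V), g • v = (g : (AddMonoid.End V)ˣ).1 v := fun _ _ => rfl
  apply eq_bot_of_fixedPoints (Δ := Δ) hΔ hV Z
  · intro δ z hz
    obtain ⟨m, hm⟩ := hnat δ
    rw [hsm, hm, Units.val_pow_eq_pow_val]
    show (c ^ m) z ∈ Z
    clear hm
    induction m with
    | zero => simpa using hz
    | succ m ih =>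
      rw [pow_succ']
      exact hZ _ ih
  · intro z hz hfix
    apply h0 z hz
    have := hfix ⟨u, Subgroup.mem_zpowers u⟩
    rw [hsm] at this
    exact this


section cyclic


variable {A : Type*} [CommRing A] {V : Type*} [AddCommGroup V] [Module A V]

/-- card of kernel times card of range. -/
theorem card_ker_mul_card_range [Finite V] (f : V →ₗ[A] V) :
    Nat.card (LinearMap.ker f) * Nat.card (LinearMap.range f) = Nat.card V := by
  rw [Submodule.card_eq_card_quotient_mul_card (LinearMap.ker f)]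
  congr 1
  exact (Nat.card_congr (f.quotKerEquivRange).toEquiv).symm

/-- If `ker D = range N` and `N ∘ D = 0` on a finite module then `ker N = range D`. -/
theorem ker_eq_range_of_ker_eq_range [Finite V] (D N : V →ₗ[A] V)
    (h : LinearMap.ker D = LinearMap.range N) (hND : ∀ v, N (D v) = 0) :
    LinearMap.ker N = LinearMap.range D := by
  have h1 := card_ker_mul_card_range D
  have h2 := card_ker_mul_card_range N
  have hle : LinearMap.range D ≤ LinearMap.ker N := by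
    rintro _ ⟨v, rfl⟩
    exact LinearMap.mem_ker.mpr (hND v)
  have hcard : Nat.card (LinearMap.ker N) = Nat.card (LinearMap.range D) := by
    have hpos : 0 < Nat.card (LinearMap.range N) := Nat.card_pos
    rw [h] at h1
    have : Nat.card (LinearMap.range N) * Nat.card (LinearMap.range D)
        = Nat.card (LinearMap.range N) * Nat.card (LinearMap.ker N) := by
      rw [h1, mul_comm, h2]
    exact (Nat.eq_of_mul_eq_mul_left hpos this).symm
  symm
  apply SetLike.coe_injective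
  apply Set.eq_of_subset_of_ncard_le hle
  · show (LinearMap.ker N : Set V).ncard ≤ (LinearMap.range D : Set V).ncard
    rw [← Nat.card_coe_set_eq, ← Nat.card_coe_set_eq]
    exact hcard.le


/-- `c - 1` is nilpotent on a finite `p`-group if `c` has `p`-power order. -/
theorem exists_pow_sub_one_eq_zero {p : ℕ} [Fact p.Prime] [Finite V]
    (hV : ∀ v : V, ∃ n : ℕ, (p ^ n) • v = 0)
    (c : V →ₗ[A] V) (a : ℕ) (hc : c ^ (p ^ a) = 1) :
    ∃ m : ℕ, (c - 1) ^ m = 0 := by
  set D : Module.End A V := c - 1 with hD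
  have hcD : Commute c D := by
    rw [hD]; exact (Commute.refl c).sub_right (Commute.one_right c)
  obtain ⟨m, hm, hm1⟩ := ((D.eventually_isCompl_ker_pow_range_pow).and
    (Filter.eventually_ge_atTop 1)).exists
  refine ⟨m, ?_⟩
  have hcadd : ∀ v, (⇑c.toAddMonoidHom)^[p ^ a] v = v := by
    intro v
    have := congrArg (fun f : Module.End A V => f v) hc
    rw [Module.End.pow_apply] at this
    exact this
  have hU : (LinearMap.range (D ^ m)).toAddSubgroup = ⊥ := by
    apply eq_bot_of_fixed_cyclic hV c.toAddMonoidHom a hcadd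
    · rintro _ ⟨v, rfl⟩
      refine ⟨c v, ?_⟩
      have := (hcD.pow_right m).eq
      have := congrArg (fun f : Module.End A V => f v) this
      exact this.symm
    · intro z hz hfix
      have hz' : z ∈ LinearMap.range (D ^ m) := hz
      have hDz : D z = 0 := by
        rw [hD]
        show c z - z = 0
        rw [sub_eq_zero]
        exact hfix
      have hk : z ∈ LinearMap.ker (D ^ m) := by
        rw [LinearMap.mem_ker]
        obtain ⟨k, rfl⟩ : ∃ k, m = k + 1 := ⟨m - 1, by omega⟩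
        rw [pow_succ, Module.End.mul_apply, hDz, map_zero]
      have := hm.disjoint.le_bot (Submodule.mem_inf.mpr ⟨hk, hz'⟩)
      exact (Submodule.mem_bot A).mp this
  ext v
  have : (D ^ m) v ∈ (LinearMap.range (D ^ m)).toAddSubgroup := ⟨v, rfl⟩
  rw [hU] at this
  simpa using this


theorem sum_zmod_val {M : Type*} [AddCommMonoid M] (n : ℕ) [NeZero n] (g : ℕ → M) :
    ∑ x : ZMod n, g x.val = ∑ j ∈ Finset.range n, g j := by
  refine Finset.sum_bij (fun x _ => x.val) ?_ ?_ ?_ ?_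
  · intro x _; exact Finset.mem_range.mpr (ZMod.val_lt x)
  · intro x _ y _ h; exact ZMod.val_injective n h
  · intro j hj
    exact ⟨(j : ZMod n), Finset.mem_univ _, ZMod.val_natCast_of_lt (Finset.mem_range.mp hj)⟩
  · intro x _; rfl

/-- `c ^ (x + 1).val = c * c ^ x.val` if `c ^ n = 1`. -/
theorem pow_val_add_one {n : ℕ} [NeZero n] (c : V →ₗ[A] V) (hc : c ^ n = 1) (x : ZMod n) :
    c ^ (x + 1).val = c * c ^ x.val := by
  rw [ZMod.val_add, ← pow_eq_pow_mod _ hc, pow_add, ZMod.val_one_eq_one_mod,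
    ← pow_eq_pow_mod _ hc, pow_one]
  exact ((Commute.refl c).pow_left _).eq

/-- the shift on coefficient functions -/
def shiftZ (ι : Type*) (n : ℕ) (A : Type*) [CommRing A] :
    (ι × ZMod n → A) →+ (ι × ZMod n → A) where
  toFun f := fun x => f (x.1, x.2 - 1)
  map_zero' := rfl
  map_add' _ _ := rfl

theorem shiftZ_iterate (ι : Type*) (n : ℕ) (m : ℕ) (f : ι × ZMod n → A) (x : ι × ZMod n) :
    ((⇑(shiftZ ι n A))^[m] f) x = f (x.1, x.2 - m) := by
  induction m generalizing f with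
  | zero => simp
  | succ m ih =>
    rw [Function.iterate_succ_apply, ih]
    show f (x.1, x.2 - m - 1) = _
    congr 2
    push_cast
    ring

/-- the sum map -/
def sumMap {ι : Type*} [Fintype ι] (n : ℕ) [NeZero n] (c : V →ₗ[A] V) (w : ι → V) :
    (ι × ZMod n → A) →ₗ[A] V where
  toFun f := ∑ x : ι × ZMod n, f x • (c ^ x.2.val) (w x.1)
  map_add' f g := by simp [add_smul, Finset.sum_add_distrib]
  map_smul' r f := by simp [Finset.smul_sum, mul_smul]

theorem sumMap_apply {ι : Type*} [Fintype ι] (n : ℕ) [NeZero n] (c : V →ₗ[A] V) (w : ι → V)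
    (f : ι × ZMod n → A) : sumMap n c w f = ∑ x : ι × ZMod n, f x • (c ^ x.2.val) (w x.1) := rfl

theorem sumMap_shift {ι : Type*} [Fintype ι] (n : ℕ) [NeZero n] (c : V →ₗ[A] V) (hc : c ^ n = 1)
    (w : ι → V) (f : ι × ZMod n → A) :
    sumMap n c w (shiftZ ι n A f) = c (sumMap n c w f) := by
  rw [sumMap_apply, sumMap_apply, map_sum]
  refine Fintype.sum_equiv (Equiv.prodCongr (Equiv.refl ι) (Equiv.subRight (1 : ZMod n))) _ _ ?_
  intro x
  show f (x.1, x.2 - 1) • (c ^ x.2.val) (w x.1) = c (f (x.1, x.2 - 1) • (c ^ (x.2 - 1).val) (w x.1))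
  rw [map_smul]
  congr 1
  have := pow_val_add_one c hc (x.2 - 1)
  rw [sub_add_cancel] at this
  rw [this]
  rfl


/-- **Freeness criterion, cyclic step.**  `V` a finite `p`-group and `A`-module with an
automorphism `c` of order dividing `p ^ a` (a generator of `Gal(X' / X)`), `V₀` a free `A`-module
with basis `e`, `πd : V → V₀` (norm) surjective, `πu : V₀ → V` (pull-back) injective with image
the `c`-fixed elements, `πu ∘ πd = 1 + c + … + c ^ (p ^ a - 1)`.  Then for any lifts `w i` of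
the `e i` the elements `c ^ j (w i)` form an `A`-basis of `V`: `V` is free over `A[⟨c⟩]`. -/
theorem sumMap_bijective
    {p : ℕ} [Fact p.Prime] {V₀ : Type*} [AddCommGroup V₀] [Module A V₀] [Finite V]
    (hV : ∀ v : V, ∃ k : ℕ, (p ^ k) • v = 0)
    (c : V →ₗ[A] V) (a : ℕ) [NeZero (p ^ a)] (hc : c ^ (p ^ a) = 1)
    (πd : V →ₗ[A] V₀) (πu : V₀ →ₗ[A] V)
    (h1 : ∀ v, πu (πd v) = ∑ j ∈ Finset.range (p ^ a), (c ^ j) v)
    (h2 : Function.Injective πu) (h3 : Function.Surjective πd)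
    (h4 : ∀ v, c v = v → ∃ x, πu x = v)
    {ι : Type*} [Fintype ι] (e : Module.Basis ι A V₀) (w : ι → V) (hw : ∀ i, πd (w i) = e i) :
    Function.Bijective (sumMap (p ^ a) c w) := by
  classical
  set n := p ^ a with hn
  set N : Module.End A V := ∑ j ∈ Finset.range n, c ^ j with hNdef
  set D : Module.End A V := c - 1 with hDdef
  have hN : ∀ v, πu (πd v) = N v := by
    intro v
    rw [h1, hNdef, LinearMap.sum_apply]
  have hDN : D * N = 0 := by
    rw [hDdef, hNdef, mul_geom_sum, hc, sub_self]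
  have hND : N * D = 0 := by
    rw [hDdef, hNdef, geom_sum_mul, hc, sub_self]
  have hDapp : ∀ v, D v = c v - v := fun v => rfl
  have hF3 : LinearMap.ker D = LinearMap.range N := by
    apply le_antisymm
    · intro v hv
      rw [LinearMap.mem_ker, hDapp, sub_eq_zero] at hv
      obtain ⟨x, rfl⟩ := h4 v hv
      obtain ⟨v', rfl⟩ := h3 x
      exact ⟨v', (hN v').symm⟩
    · rintro _ ⟨v, rfl⟩
      rw [LinearMap.mem_ker]
      have := congrArg (fun f : Module.End A V => f v) hDN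
      exact this
  have hF4 : LinearMap.ker N = LinearMap.range D :=
    ker_eq_range_of_ker_eq_range D N hF3 (fun v => by
      have := congrArg (fun f : Module.End A V => f v) hND
      exact this)
  have hshift := sumMap_shift n c hc w
  constructor
  · -- injectivity
    rcases isEmpty_or_nonempty ι with hι | ⟨⟨i₀⟩⟩
    · have : Subsingleton (ι × ZMod n → A) := inferInstance
      exact Function.injective_of_subsingleton _
    have : Finite V₀ := Finite.of_surjective πd h3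
    have hrepr : ∀ b : A, e.repr (b • e i₀) i₀ = b := by
      intro b
      simp
    have : Finite A := Finite.of_injective (fun b : A => b • e i₀) (fun b b' h => by
      have := congrArg (fun v => e.repr v i₀) h
      simpa using this)
    obtain ⟨k, hk⟩ : ∃ k : ℕ, ((p ^ k : ℕ) : A) = 0 := by
      obtain ⟨v, hv⟩ := h3 (e i₀)
      obtain ⟨k, hk⟩ := hV v
      refine ⟨k, ?_⟩
      have h5 : (p ^ k) • e i₀ = 0 := by
        rw [← hv, ← map_nsmul, hk, map_zero]
      rw [← Nat.cast_smul_eq_nsmul A] at h5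
      have := hrepr ((p ^ k : ℕ) : A)
      rw [h5] at this
      simpa using this.symm
    have hFp : ∀ f : ι × ZMod n → A, ∃ k : ℕ, (p ^ k) • f = 0 := by
      intro f
      refine ⟨k, ?_⟩
      funext x
      show (p ^ k) • f x = 0
      rw [← Nat.cast_smul_eq_nsmul A, hk, zero_smul]
    have hbot : (LinearMap.ker (sumMap n c w)).toAddSubgroup = ⊥ := by
      apply eq_bot_of_fixed_cyclic hFp (shiftZ ι n A) a
      · intro f
        funext x
        rw [shiftZ_iterate]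
        congr 2
        rw [← hn, ZMod.natCast_self, sub_zero]
      · intro f hf
        have hf' : sumMap n c w f = 0 := hf
        show sumMap n c w (shiftZ ι n A f) = 0
        rw [hshift, hf', map_zero]
      · intro f hf hfix
        have hf' : sumMap n c w f = 0 := hf
        have hconst : ∀ (i : ι) (x : ZMod n), f (i, x) = f (i, 0) := by
          intro i x
          have hit : (⇑(shiftZ ι n A))^[x.val] f = f := Function.iterate_fixed hfix _
          have := congrFun hit (i, x)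
          rw [shiftZ_iterate] at this
          rw [← this]
          congr 2
          show x - (x.val : ZMod n) = 0
          rw [ZMod.natCast_zmod_val, sub_self]
        have hsum : sumMap n c w f = πu (∑ i, f (i, 0) • e i) := by
          rw [sumMap_apply, Fintype.sum_prod_type, map_sum]
          refine Finset.sum_congr rfl fun i _ => ?_
          rw [map_smul, ← hw i, hN, hNdef, LinearMap.sum_apply, Finset.smul_sum,
            ← sum_zmod_val n (fun j => f (i, 0) • (c ^ j) (w i))]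
          refine Finset.sum_congr rfl fun x _ => ?_
          rw [hconst i x]
        rw [hsum] at hf'
        have h6 : ∑ i, f (i, 0) • e i = 0 := h2 (by rw [hf', map_zero])
        have h7 := Fintype.linearIndependent_iff.mp e.linearIndependent (fun i => f (i, 0)) h6
        funext x
        rw [show x = (x.1, x.2) from rfl, hconst, h7]
        rfl
    rw [← LinearMap.ker_eq_bot]
    apply Submodule.toAddSubgroup_injective
    rw [hbot]
    rfl
  · -- surjectivity
    rw [← LinearMap.range_eq_top]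
    set W := LinearMap.range (sumMap n c w) with hW
    have hWc : ∀ v ∈ W, c v ∈ W := by
      rintro _ ⟨f, rfl⟩
      exact ⟨shiftZ ι n A f, hshift f⟩
    have hWD : ∀ v ∈ W, D v ∈ W := by
      intro v hv
      rw [hDapp]
      exact W.sub_mem (hWc v hv) hv
    have hwW : ∀ i, w i ∈ W := by
      intro i
      refine ⟨Pi.single (i, 0) 1, ?_⟩
      rw [sumMap_apply, Finset.sum_eq_single (i, 0)]
      · simp
      · intro x _ hx
        rw [Pi.single_eq_of_ne hx, zero_smul]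
      · intro h
        exact absurd (Finset.mem_univ _) h
    have hdec : ∀ v, ∃ w' ∈ W, ∃ u, v - w' = D u := by
      intro v
      refine ⟨∑ i, e.repr (πd v) i • w i, ?_, ?_⟩
      · exact W.sum_mem fun i _ => W.smul_mem _ (hwW i)
      · have h8 : πd (v - ∑ i, e.repr (πd v) i • w i) = 0 := by
          rw [map_sub, map_sum]
          simp only [map_smul, hw]
          rw [e.sum_repr, sub_self]
        have h9 : v - ∑ i, e.repr (πd v) i • w i ∈ LinearMap.ker N := by
          rw [LinearMap.mem_ker, ← hN, h8, map_zero]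
        rw [hF4] at h9
        obtain ⟨u, hu⟩ := h9
        exact ⟨u, hu.symm⟩
    obtain ⟨m, hm⟩ := exists_pow_sub_one_eq_zero hV c a hc
    have hind : ∀ (j : ℕ) (v : V), ∃ w' ∈ W, ∃ u, v - w' = (D ^ j) u := by
      intro j
      induction j with
      | zero =>
        intro v
        exact ⟨0, W.zero_mem, v, by simp⟩
      | succ j ih =>
        intro v
        obtain ⟨w₁, hw₁, u, hu⟩ := ih v
        obtain ⟨w₂, hw₂, u', hu'⟩ := hdec u
        have hDj : ∀ (j : ℕ), ∀ x ∈ W, (D ^ j) x ∈ W := by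
          intro j
          induction j with
          | zero => intro x hx; simpa using hx
          | succ j ihj =>
            intro x hx
            rw [pow_succ', Module.End.mul_apply]
            exact hWD _ (ihj x hx)
        refine ⟨w₁ + (D ^ j) w₂, W.add_mem hw₁ (hDj j w₂ hw₂), u', ?_⟩
        have : u = w₂ + D u' := by rw [← hu']; abel
        rw [pow_succ, Module.End.mul_apply, ← sub_sub, hu, this, map_add]
        abel
    rw [eq_top_iff]
    intro v _
    obtain ⟨w', hw', u, hu⟩ := hind m v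
    have hD0 : (D ^ m) u = 0 := by
      rw [hDdef, hm]; rfl
    rw [hD0, sub_eq_zero] at hu
    rw [hu]
    exact hw'


/-- The cyclic step in a form without `ZMod`: the `c ^ j (w i)`, `j < p ^ a`, span `V` and are
linearly independent over `A`. -/
theorem cyclic_basis
    {p : ℕ} [Fact p.Prime] {V₀ : Type*} [AddCommGroup V₀] [Module A V₀] [Finite V]
    (hV : ∀ v : V, ∃ k : ℕ, (p ^ k) • v = 0)
    (c : V →ₗ[A] V) (a : ℕ) (hc : c ^ (p ^ a) = 1)
    (πd : V →ₗ[A] V₀) (πu : V₀ →ₗ[A] V)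
    (h1 : ∀ v, πu (πd v) = ∑ j ∈ Finset.range (p ^ a), (c ^ j) v)
    (h2 : Function.Injective πu) (h3 : Function.Surjective πd)
    (h4 : ∀ v, c v = v → ∃ x, πu x = v)
    {ι : Type*} [Fintype ι] (e : Module.Basis ι A V₀) (w : ι → V) (hw : ∀ i, πd (w i) = e i) :
    (∀ v : V, ∃ f : ι → ℕ → A,
      v = ∑ i, ∑ j ∈ Finset.range (p ^ a), f i j • (c ^ j) (w i)) ∧
    (∀ f : ι → ℕ → A, ∑ i, ∑ j ∈ Finset.range (p ^ a), f i j • (c ^ j) (w i) = 0 →
      ∀ i, ∀ j < p ^ a, f i j = 0) := by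
  have hne : NeZero (p ^ a) := ⟨(pow_pos (Fact.out : p.Prime).pos a).ne'⟩
  have hb := sumMap_bijective hV c a hc πd πu h1 h2 h3 h4 e w hw
  constructor
  · intro v
    obtain ⟨f', rfl⟩ := hb.2 v
    refine ⟨fun i j => f' (i, (j : ZMod (p ^ a))), ?_⟩
    rw [sumMap_apply, Fintype.sum_prod_type]
    refine Finset.sum_congr rfl fun i _ => ?_
    rw [← sum_zmod_val (p ^ a) (fun j => f' (i, (j : ZMod (p ^ a))) • (c ^ j) (w i))]
    refine Finset.sum_congr rfl fun x _ => ?_
    rw [ZMod.natCast_zmod_val]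
  · intro f hf i j hj
    have h0 : sumMap (p ^ a) c w (fun x => f x.1 x.2.val) = 0 := by
      rw [sumMap_apply, Fintype.sum_prod_type, ← hf]
      refine Finset.sum_congr rfl fun i _ => ?_
      exact sum_zmod_val (p ^ a) (fun j => f i j • (c ^ j) (w i))
    have h3' : (fun x : ι × ZMod (p ^ a) => f x.1 x.2.val) = 0 :=
      hb.1 (by rw [h0, map_zero])
    have := congrFun h3' (i, (j : ZMod (p ^ a)))
    simp only [Pi.zero_apply] at this
    rw [ZMod.val_natCast_of_lt hj] at this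
    exact this

end cyclic

end Fermat.Agent.S59.TWH

end
-- ==== END Fermat.Agent.S59.TWH.AbsFree
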