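-- GENERATED (merged mirror, NOTES/tools/trim/merge3_helper67.py): 10 modules of the originals, bodies verbatim.
import Fermat.Agent.Zm.S43_L01_005
import Fermat.Agent.Tate.T5.H46_Law
import Fermat.Agent.Zm.S58_L01_000
import Fermat.Agent.Zm.S33_L02_001
import Fermat.Agent.Zm.S35_L02_001
import Fermat.Agent.Tate.T5.H5_ValQ
import Fermat.Agent.Zm.S44_L12_000
import Fermat.Agent.Tate.T7.H46_SSAlg
import Fermat.Agent.Lib.TorsionGen.Count
import Fermat.Agent.Zm.S56_L02_000
import Fermat.Agent.Tate.T7.H52_Cong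
import Fermat.Agent.S05.H37_Inertia
import Fermat.Agent.Zm.S44_L02_002
import Fermat.Agent.Zm.S48_L01_002
import Fermat.Agent.Zm.S58_L02_000

-- ==== BEGIN Fermat.Agent.Tate.T5.H4_Asm
section

set_option autoImplicit false

namespace Fermat.Agent.Tate.T5.H4

open WeierstrassCurve WeierstrassCurve.Affine
open Fermat.Agent.Tate Fermat.Agent.Tate.T5.H46

section chart

variable {F : Type*} [Field F] [DecidableEq F] {W : Affine F}

/-- A point killed by an odd number is not of exact order `2`. -/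
lemma not_two_of_odd {G : Type*} [AddCommGroup G] {n : ℕ} (hn : Odd n) {P : G} (hP : n • P = 0)
    (h2 : 2 • P = 0) : P = 0 := by
  obtain ⟨m, rfl⟩ := hn
  have : (2 * m + 1) • P = m • (2 • P) + P := by
    rw [add_smul, one_smul, mul_comm, mul_smul]
  rw [this, h2, smul_zero, zero_add] at hP
  exact hP

/-- The chart `(z, w)` is injective on the points which are not of exact order `2`. -/
lemma eq_of_chart_eq (h2 : (2 : F) ≠ 0) {P Q : W.Point} (hP : 2 • P = 0 → P = 0)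
    (hQ : 2 • Q = 0 → Q = 0) (hz : zc P = zc Q) (hw : wc P = wc Q) : P = Q := by
  rcases P with _ | ⟨x₁, y₁, h₁⟩
  · rcases Q with _ | ⟨x₂, y₂, h₂⟩
    · rfl
    · exfalso
      have hψ := psi_ne_zero hQ
      have : wc (Point.some x₂ y₂ h₂) = 0 := hw.symm
      rw [wc_some] at this
      exact one_div_ne_zero hψ this
  · rcases Q with _ | ⟨x₂, y₂, h₂⟩
    · exfalso
      have hψ := psi_ne_zero hP
      have : wc (Point.some x₁ y₁ h₁) = 0 := hw
      rw [wc_some] at this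
      exact one_div_ne_zero hψ this
    · have hψ₁ := psi_ne_zero hP
      have hψ₂ := psi_ne_zero hQ
      rw [wc_some, wc_some] at hw
      rw [zc_some, zc_some] at hz
      have e1 : psi W x₁ y₁ = psi W x₂ y₂ := by
        have := congrArg (fun t => t⁻¹) hw
        simpa using this
      have e2 : x₁ = x₂ := by
        rw [e1] at hz
        field_simp at hz
        exact hz
      subst e2
      have e3 : y₁ = y₂ := by
        unfold psi at e1
        have : 2 * y₁ = 2 * y₂ := by linear_combination e1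
        exact mul_left_cancel₀ h2 this
      subst e3
      rfl

end chart

section galois

variable (W : WeierstrassCurve ℤ)

lemma psi_smul (σ : GQ) (x y : AlgebraicClosure ℚ) :
    psi (WQbar W) (σ x) (σ y) = σ (psi (WQbar W) x y) := by
  unfold psi
  simp only [map_add, map_mul, map_ofNat]
  congr 2
  · simp [WeierstrassCurve.map, WeierstrassCurve.baseChange]
  · simp [WeierstrassCurve.map, WeierstrassCurve.baseChange]

lemma zc_smul (σ : GQ) (P : EQbar W) : zc (σ • P) = σ (zc P) := by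
  rcases P with _ | ⟨x, y, h⟩
  · show zc (0 : EQbar W) = σ (zc (0 : EQbar W))
    rw [zc_zero, map_zero]
  · rw [Point.algEquiv_smul_def, Point.map_some, zc_some, zc_some]
    show σ x / psi (WQbar W) (σ x) (σ y) = σ (x / psi (WQbar W) x y)
    rw [psi_smul, map_div₀]

lemma wc_smul (σ : GQ) (P : EQbar W) : wc (σ • P) = σ (wc P) := by
  rcases P with _ | ⟨x, y, h⟩
  · show wc (0 : EQbar W) = σ (wc (0 : EQbar W))
    rw [wc_zero, map_zero]
  · rw [Point.algEquiv_smul_def, Point.map_some, wc_some, wc_some]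
    show 1 / psi (WQbar W) (σ x) (σ y) = σ (1 / psi (WQbar W) x y)
    rw [psi_smul, map_div₀, map_one]

end galois

section pair

variable {K : Type*} [Field K] {X : Type*}

lemma lawD_fun (b₂ b₄ b₆ : K) (z₁ w₁ z₂ w₂ : X → K) :
    lawD (fun _ : X => b₂) (fun _ => b₄) (fun _ => b₆) z₁ w₁ z₂ w₂
      = fun x => lawD b₂ b₄ b₆ (z₁ x) (w₁ x) (z₂ x) (w₂ x) := by
  funext x
  exact map_lawD (Pi.evalRingHom (fun _ : X => K) x) _ _ _ _ _ _ _

lemma lawNz_fun (b₂ b₄ b₆ : K) (z₁ w₁ z₂ w₂ : X → K) :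
    lawNz (fun _ : X => b₂) (fun _ => b₄) (fun _ => b₆) z₁ w₁ z₂ w₂
      = fun x => lawNz b₂ b₄ b₆ (z₁ x) (w₁ x) (z₂ x) (w₂ x) := by
  funext x
  exact map_lawNz (Pi.evalRingHom (fun _ : X => K) x) _ _ _ _ _ _ _

lemma lawNw_fun (b₂ b₄ b₆ : K) (z₁ w₁ z₂ w₂ : X → K) :
    lawNw (fun _ : X => b₂) (fun _ => b₄) (fun _ => b₆) z₁ w₁ z₂ w₂
      = fun x => lawNw b₂ b₄ b₆ (z₁ x) (w₁ x) (z₂ x) (w₂ x) := by
  funext x
  exact map_lawNw (Pi.evalRingHom (fun _ : X => K) x) _ _ _ _ _ _ _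

variable (Λ : Subring (X → K)) {b₂ b₄ b₆ : K} {z₁ w₁ z₂ w₂ : X → K}

lemma lawD_mem (hb₂ : (fun _ : X => b₂) ∈ Λ) (hb₄ : (fun _ : X => b₄) ∈ Λ)
    (hb₆ : (fun _ : X => b₆) ∈ Λ) (hz₁ : z₁ ∈ Λ) (hw₁ : w₁ ∈ Λ) (hz₂ : z₂ ∈ Λ) (hw₂ : w₂ ∈ Λ) :
    (fun x => lawD b₂ b₄ b₆ (z₁ x) (w₁ x) (z₂ x) (w₂ x)) ∈ Λ := by
  rw [← lawD_fun]
  have := (lawD (⟨_, hb₂⟩ : Λ) ⟨_, hb₄⟩ ⟨_, hb₆⟩ ⟨_, hz₁⟩ ⟨_, hw₁⟩ ⟨_, hz₂⟩ ⟨_, hw₂⟩).2
  rwa [← Subring.coe_subtype, map_lawD] at this

lemma lawNz_mem (hb₂ : (fun _ : X => b₂) ∈ Λ) (hb₄ : (fun _ : X => b₄) ∈ Λ)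
    (hb₆ : (fun _ : X => b₆) ∈ Λ) (hz₁ : z₁ ∈ Λ) (hw₁ : w₁ ∈ Λ) (hz₂ : z₂ ∈ Λ) (hw₂ : w₂ ∈ Λ) :
    (fun x => lawNz b₂ b₄ b₆ (z₁ x) (w₁ x) (z₂ x) (w₂ x)) ∈ Λ := by
  rw [← lawNz_fun]
  have := (lawNz (⟨_, hb₂⟩ : Λ) ⟨_, hb₄⟩ ⟨_, hb₆⟩ ⟨_, hz₁⟩ ⟨_, hw₁⟩ ⟨_, hz₂⟩ ⟨_, hw₂⟩).2
  rwa [← Subring.coe_subtype, map_lawNz] at this

lemma lawNw_mem (hb₂ : (fun _ : X => b₂) ∈ Λ) (hb₄ : (fun _ : X => b₄) ∈ Λ)
    (hb₆ : (fun _ : X => b₆) ∈ Λ) (hz₁ : z₁ ∈ Λ) (hw₁ : w₁ ∈ Λ) (hz₂ : z₂ ∈ Λ) (hw₂ : w₂ ∈ Λ) :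
    (fun x => lawNw b₂ b₄ b₆ (z₁ x) (w₁ x) (z₂ x) (w₂ x)) ∈ Λ := by
  rw [← lawNw_fun]
  have := (lawNw (⟨_, hb₂⟩ : Λ) ⟨_, hb₄⟩ ⟨_, hb₆⟩ ⟨_, hz₁⟩ ⟨_, hw₁⟩ ⟨_, hz₂⟩ ⟨_, hw₂⟩).2
  rwa [← Subring.coe_subtype, map_lawNw] at this

end pair

section coeffs

variable (W : WeierstrassCurve ℤ)

/-- The coefficients `b₂, b₄, b₆` of the curve over `Q̄` are integers. -/
lemma b₂_eq : (WQbar W).b₂ = ((W.b₂ : ℤ) : AlgebraicClosure ℚ) := by
  show ((W.map (Int.castRingHom ℚ)).map (algebraMap ℚ (AlgebraicClosure ℚ))).b₂ = _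
  rw [WeierstrassCurve.map_b₂, WeierstrassCurve.map_b₂]
  simp

lemma b₄_eq : (WQbar W).b₄ = ((W.b₄ : ℤ) : AlgebraicClosure ℚ) := by
  show ((W.map (Int.castRingHom ℚ)).map (algebraMap ℚ (AlgebraicClosure ℚ))).b₄ = _
  rw [WeierstrassCurve.map_b₄, WeierstrassCurve.map_b₄]
  simp

lemma b₆_eq : (WQbar W).b₆ = ((W.b₆ : ℤ) : AlgebraicClosure ℚ) := by
  show ((W.map (Int.castRingHom ℚ)).map (algebraMap ℚ (AlgebraicClosure ℚ))).b₆ = _
  rw [WeierstrassCurve.map_b₆, WeierstrassCurve.map_b₆]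
  simp

lemma b₂_mem (A : ValuationSubring (AlgebraicClosure ℚ)) : (WQbar W).b₂ ∈ A := by
  rw [b₂_eq]; exact intCast_mem A _

lemma b₄_mem (A : ValuationSubring (AlgebraicClosure ℚ)) : (WQbar W).b₄ ∈ A := by
  rw [b₄_eq]; exact intCast_mem A _

lemma b₆_mem (A : ValuationSubring (AlgebraicClosure ℚ)) : (WQbar W).b₆ ∈ A := by
  rw [b₆_eq]; exact intCast_mem A _

end coeffs


section bridge

variable {W : WeierstrassCurve ℤ} {p : ℕ} [Fact p.Prime] (D : TateData W p)

/-- The ideals of finite index of `ℤ_p` are the `(p^k)`. -/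
lemma exists_pow_of_finite (I : Ideal ℤ_[p]) (hI : Finite (ℤ_[p] ⧸ I)) :
    ∃ k : ℕ, I = Ideal.span {(p : ℤ_[p]) ^ k} := by
  have hI' : I ≠ ⊥ := by
    rintro rfl
    have : Infinite (ℤ_[p] ⧸ (⊥ : Ideal ℤ_[p])) :=
      (RingEquiv.quotientBot ℤ_[p]).toEquiv.infinite_iff.2 inferInstance
    exact not_finite (ℤ_[p] ⧸ (⊥ : Ideal ℤ_[p]))
  exact PadicInt.ideal_eq_span_pow_p hI'

/-- The residue field of `ℤ_p` is finite. -/
lemma finite_residueField : Finite (IsLocalRing.ResidueField ℤ_[p]) :=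
  Finite.of_equiv _ (PadicInt.residueField (p := p)).symm.toEquiv

/-- `p^k V`. -/
noncomputable abbrev pkV (k : ℕ) : Submodule ℤ_[p] D.ρ.V :=
  Ideal.span {(p : ℤ_[p]) ^ k} • (⊤ : Submodule ℤ_[p] D.ρ.V)

lemma mem_pkV_iff (k : ℕ) (v : D.ρ.V) : v ∈ pkV D k ↔ ∃ w, v = ((p : ℤ_[p]) ^ k) • w := by
  rw [pkV, Submodule.ideal_span_singleton_smul]
  constructor
  · rintro ⟨w, -, rfl⟩
    exact ⟨w, rfl⟩
  · rintro ⟨w, rfl⟩
    exact ⟨w, Submodule.mem_top, rfl⟩

/-- `lev k` on `V / p^k V`. -/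
noncomputable def levBar (k : ℕ) : (D.ρ.V ⧸ pkV D k) →+ EQbar W :=
  QuotientAddGroup.lift (pkV D k).toAddSubgroup (D.lev k) (by
    intro v hv
    obtain ⟨w, rfl⟩ := (mem_pkV_iff D k v).1 hv
    exact D.lev_pow_smul k w)

@[simp] lemma levBar_mk (k : ℕ) (v : D.ρ.V) :
    levBar D k (Submodule.Quotient.mk v) = D.lev k v := rfl

lemma levBar_injective (k : ℕ) : Function.Injective (levBar D k) := by
  rw [injective_iff_map_eq_zero]
  intro x hx
  obtain ⟨v, rfl⟩ := Submodule.Quotient.mk_surjective _ x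
  rw [levBar_mk] at hx
  rw [Submodule.Quotient.mk_eq_zero, mem_pkV_iff]
  exact D.lev_ker k v hx

lemma levBar_tors (k : ℕ) (x : D.ρ.V ⧸ pkV D k) : (p ^ k) • levBar D k x = 0 := by
  obtain ⟨v, rfl⟩ := Submodule.Quotient.mk_surjective _ x
  rw [levBar_mk]
  exact D.lev_tors k v

lemma levBar_equiv (k : ℕ) (σ : GQ) (x : D.ρ.V ⧸ pkV D k) :
    levBar D k (D.ρ.levelAction (Ideal.span {(p : ℤ_[p]) ^ k}) σ x) = σ • levBar D k x := by
  obtain ⟨v, rfl⟩ := Submodule.Quotient.mk_surjective _ x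
  rw [levBar_mk, ← D.lev_equiv]
  rfl

end bridge


section main

open Fermat.Agent.Lib.HopfOrder

variable {W : WeierstrassCurve ℤ} {p : ℕ} [Fact p.Prime] (D : TateData W p)

lemma finite_quot (k : ℕ) (hI : Finite (ℤ_[p] ⧸ Ideal.span {(p : ℤ_[p]) ^ k})) :
    Finite (D.ρ.V ⧸ pkV D k) :=
  Submodule.finite_quotient_smul _ (Module.Finite.fg_top)

/-- The generators: the chart coordinates of `lev k`. -/
noncomputable def gen (k : ℕ) : Fin 2 → (D.ρ.V ⧸ pkV D k) → AlgebraicClosure ℚ :=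
  ![fun x => zc (levBar D k x), fun x => wc (levBar D k x)]

/-- **T5 (p odd) from the valuation input C.** -/
theorem stmt_T5odd_of (hC : Stmt_C) : Stmt_T5odd := by
  classical
  intro W hΔ p _ hp2 D hgood
  have hp : p.Prime := Fact.out
  refine ⟨finite_residueField, fun I hI => ?_⟩
  obtain ⟨k, rfl⟩ := exists_pow_of_finite I hI
  obtain ⟨A, hA⟩ := Fermat.Agent.Lib.FrobExists.exists_liesOverPrime p hp
  have hfin := finite_quot D k hI
  have h2 : (2 : AlgebraicClosure ℚ) ≠ 0 := two_ne_zero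
  have hodd : Odd (p ^ k) := (hp.odd_of_ne_two hp2).pow
  have hno2 : ∀ x : D.ρ.V ⧸ pkV D k, 2 • levBar D k x = 0 → levBar D k x = 0 :=
    fun x h => not_two_of_odd hodd (levBar_tors D k x) h
  have htors : ∀ P Q : EQbar W, (p ^ k) • P = 0 → (p ^ k) • Q = 0 →
      (2 • (P + Q) = 0 → P + Q = 0) ∧ (2 • (P - Q) = 0 → P - Q = 0) := by
    intro P Q hP hQ
    refine ⟨not_two_of_odd hodd ?_, not_two_of_odd hodd ?_⟩
    · rw [nsmul_add, hP, hQ, add_zero]
    · rw [nsmul_sub, hP, hQ, sub_zero]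
  have hint : ∀ j x, _root_.Fermat.Agent.Tate.T5.H4.gen D k j x ∈ A := by
    intro j x
    obtain ⟨h1, h2, -⟩ := hC W hΔ p hp hp2 hgood A hA k _ _ (levBar_tors D k x)
      (levBar_tors D k x)
    fin_cases j
    · exact h1
    · exact h2
  refine flat_of_generators p hp A hA (fun σ x => D.ρ.levelAction _ σ x) (_root_.Fermat.Agent.Tate.T5.H4.gen D k)
    (fun σ x y => map_add _ x y) ?_ ?_ hint ?_ ?_
  · -- act_inj
    intro σ x y hxy
    apply levBar_injective D k
    have := congrArg (levBar D k) hxy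
    rw [levBar_equiv, levBar_equiv] at this
    exact MulAction.injective σ this
  · -- equivariant
    intro j σ x
    fin_cases j
    · show zc (levBar D k (D.ρ.levelAction _ σ x)) = σ (zc (levBar D k x))
      rw [levBar_equiv, zc_smul]
    · show wc (levBar D k (D.ρ.levelAction _ σ x)) = σ (wc (levBar D k x))
      rw [levBar_equiv, wc_smul]
  · -- separates
    intro x y hxy
    by_contra hcon
    push Not at hcon
    apply hxy
    apply levBar_injective D k
    exact eq_of_chart_eq h2 (hno2 x) (hno2 y) (hcon 0) (hcon 1)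
  · -- comul
    have hb₂ := const_mem_pairRing A.toSubring (_root_.Fermat.Agent.Tate.T5.H4.gen D k) (b₂_mem W A)
    have hb₄ := const_mem_pairRing A.toSubring (_root_.Fermat.Agent.Tate.T5.H4.gen D k) (b₄_mem W A)
    have hb₆ := const_mem_pairRing A.toSubring (_root_.Fermat.Agent.Tate.T5.H4.gen D k) (b₆_mem W A)
    have hz₁ := fst_mem_pairRing A.toSubring (_root_.Fermat.Agent.Tate.T5.H4.gen D k) 0
    have hw₁ := fst_mem_pairRing A.toSubring (_root_.Fermat.Agent.Tate.T5.H4.gen D k) 1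
    have hz₂ := snd_mem_pairRing A.toSubring (_root_.Fermat.Agent.Tate.T5.H4.gen D k) 0
    have hw₂ := snd_mem_pairRing A.toSubring (_root_.Fermat.Agent.Tate.T5.H4.gen D k) 1
    have hDmem := lawD_mem (pairRing A.toSubring (_root_.Fermat.Agent.Tate.T5.H4.gen D k)) hb₂ hb₄ hb₆ hz₁ hw₁ hz₂ hw₂
    have hDu : ∀ q : (D.ρ.V ⧸ pkV D k) × (D.ρ.V ⧸ pkV D k),
        lawD (WQbar W).b₂ (WQbar W).b₄ (WQbar W).b₆ (_root_.Fermat.Agent.Tate.T5.H4.gen D k 0 q.1) (_root_.Fermat.Agent.Tate.T5.H4.gen D k 1 q.1)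
          (_root_.Fermat.Agent.Tate.T5.H4.gen D k 0 q.2) (_root_.Fermat.Agent.Tate.T5.H4.gen D k 1 q.2) ≠ 0 ∧
        (lawD (WQbar W).b₂ (WQbar W).b₄ (WQbar W).b₆ (_root_.Fermat.Agent.Tate.T5.H4.gen D k 0 q.1) (_root_.Fermat.Agent.Tate.T5.H4.gen D k 1 q.1)
          (_root_.Fermat.Agent.Tate.T5.H4.gen D k 0 q.2) (_root_.Fermat.Agent.Tate.T5.H4.gen D k 1 q.2))⁻¹ ∈ A.toSubring := by
      intro q
      obtain ⟨h3, h4⟩ := htors _ _ (levBar_tors D k q.1) (levBar_tors D k q.2)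
      refine ⟨lawD_ne_zero h2 _ _ (hno2 q.1) (hno2 q.2) h3 h4, ?_⟩
      exact (hC W hΔ p hp hp2 hgood A hA k _ _ (levBar_tors D k q.1)
        (levBar_tors D k q.2)).2.2
    have hlaw : ∀ q : (D.ρ.V ⧸ pkV D k) × (D.ρ.V ⧸ pkV D k), _ :=
      fun q => law_add h2 (levBar D k q.1) (levBar D k q.2) (hno2 q.1) (hno2 q.2)
        (by rw [← map_add]; exact hno2 _)
    intro j
    fin_cases j
    · refine div_mem_pairRing A.toSubring (_root_.Fermat.Agent.Tate.T5.H4.gen D k) hint _ _ _ hDmem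
        (lawNz_mem (pairRing A.toSubring (_root_.Fermat.Agent.Tate.T5.H4.gen D k)) hb₂ hb₄ hb₆ hz₁ hw₁ hz₂ hw₂) hDu ?_
      intro q
      show _ * zc (levBar D k (q.1 + q.2)) = _
      rw [map_add]
      exact (hlaw q).1
    · refine div_mem_pairRing A.toSubring (_root_.Fermat.Agent.Tate.T5.H4.gen D k) hint _ _ _ hDmem
        (lawNw_mem (pairRing A.toSubring (_root_.Fermat.Agent.Tate.T5.H4.gen D k)) hb₂ hb₄ hb₆ hz₁ hw₁ hz₂ hw₂) hDu ?_
      intro q
      show _ * wc (levBar D k (q.1 + q.2)) = _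
      rw [map_add]
      exact (hlaw q).2

end main

/-- `Stmt_Tate` of the S59 wiring from the parts, with T5 only for odd `p`. -/
theorem stmt_Tate_of_odd (h1 : Stmt_T1) (h2 : Stmt_T2) (h3u : Stmt_T3u) (h3c : Stmt_T3c)
    (h4 : Stmt_T4) (h5 : Stmt_T5odd) (h6 : Stmt_T6) (h7 : Stmt_T7) :
    Fermat.Agent.S59.Stmt_Tate := by
  intro p _ hp2 W hΔ hss
  obtain ⟨D⟩ := h1 W hΔ p
  exact ⟨ℤ_[p], inferInstance, inferInstance, inferInstance, inferInstance, inferInstance,
    inferInstance, D.ρ, h2 W hΔ p D, h3u W hΔ p D, h4 W hΔ hss p D, h5 W hΔ p hp2 D,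
    h6 W hΔ hss p hp2 D, h3c W hΔ p D, h7 W hΔ hss p hp2 D⟩

end Fermat.Agent.Tate.T5.H4

end
-- ==== END Fermat.Agent.Tate.T5.H4_Asm

-- ==== BEGIN Fermat.Agent.Tate.T5.H5_StmtC
section

set_option autoImplicit false

namespace Fermat.Agent.Tate.T5.H5

open WeierstrassCurve WeierstrassCurve.Affine
open Fermat.Agent.Tate Fermat.Agent.Tate.T5

/-- **Package C.** -/
theorem stmt_C : H4.Stmt_C := by
  intro W _ p hp hp2 hgood A hA k P Q hP hQ
  have hn : Odd (p ^ k) := (hp.odd_of_ne_two hp2).pow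
  have hP' : (p ^ k) • (P : (ET W).Point) = 0 := hP
  have hQ' : (p ^ k) • (Q : (ET W).Point) = 0 := hQ
  refine ⟨?_, ?_, ?_⟩
  · exact (A.valuation_le_one_iff _).1 (val_zc_le_one hp hp2 hgood hA hn hP')
  · exact (A.valuation_le_one_iff _).1 (val_wc_le_one hp hp2 hgood hA hn hP')
  · have h1 := val_lawD_eq_one_Q hp hp2 hgood hA hn hP' hQ'
    rw [← A.valuation_le_one_iff, map_inv₀]
    have : A.valuation (H4.denom W P Q) = 1 := h1
    rw [this, inv_one]

end Fermat.Agent.Tate.T5.H5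

end
-- ==== END Fermat.Agent.Tate.T5.H5_StmtC

-- ==== BEGIN Fermat.Agent.Tate.T6.Loc
section

set_option autoImplicit false

open WeierstrassCurve WeierstrassCurve.Affine

namespace Fermat.Agent.Tate.T6

open Fermat.Agent.S05 Fermat.Agent.S52.H5 Fermat.Agent.Lib.PointVariableChange
open Fermat.Agent.Lib.EllFinite.H4 (IntCoeff)

section aux

variable {L : Type*} [Field L] {A : ValuationSubring L}

lemma val_natCast_le_one (m : ℕ) : A.valuation (m : L) ≤ 1 :=
  (A.valuation_le_one_iff _).2 (natCast_mem A m)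

/-- Odd residue characteristic: `2` is a unit. -/
lemma val_two_eq_one_of_odd {p : ℕ} (hp : p.Prime) (hp2 : p ≠ 2)
    (hpv : A.valuation (p : L) < 1) : A.valuation (2 : L) = 1 := by
  have h2le : A.valuation (2 : L) ≤ 1 := by
    have := val_natCast_le_one (A := A) (L := L) 2
    exact_mod_cast this
  rcases h2le.lt_or_eq with hlt | heq
  · exfalso
    obtain ⟨m, hm⟩ := hp.odd_of_ne_two hp2
    have e : (1 : L) = (p : L) - 2 * (m : L) := by rw [hm]; push_cast; ring
    have h1 : A.valuation (1 : L) < 1 := by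
      rw [e]
      apply Valuation.map_sub_lt _ hpv
      rw [map_mul]
      calc A.valuation (2 : L) * A.valuation (m : L) ≤ A.valuation (2 : L) * 1 := by
            gcongr; exact val_natCast_le_one m
        _ = A.valuation (2 : L) := mul_one _
        _ < 1 := hlt
    rw [map_one] at h1
    exact lt_irrefl _ h1
  · exact heq

lemma val_three_le_one : A.valuation (3 : L) ≤ 1 := by
  have := val_natCast_le_one (A := A) (L := L) 3
  exact_mod_cast this

end aux

/-- The units of the value group are torsion free. -/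
lemma valueGroup_units_torsionFree {L : Type*} [Field L] (A : ValuationSubring L)
    (g : (A.ValueGroup)ˣ) (n : ℕ) (hn : 0 < n) (h : g ^ n = 1) : g = 1 := by
  have h' : ((g : A.ValueGroup)) ^ n = 1 := by
    rw [← Units.val_pow_eq_pow_val, h, Units.val_one]
  have : (g : A.ValueGroup) = 1 := (pow_eq_one_iff_of_nonneg zero_le hn.ne').1 h'
  exact Units.ext this

/-- **LOC** from CG and ROOT. -/
theorem stmt_LOC_of (hCG : Stmt_CG) (hROOT : Stmt_ROOT) : Stmt_LOC := by
  intro L _ _ _ _ A p hp hp2 hpv E hE hΔ0 hΔ hc₄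
  have h2 : A.valuation (2 : L) = 1 := val_two_eq_one_of_odd hp hp2 hpv
  have h20 : (2 : L) ≠ 0 := two_ne_zero_of_val h2
  have h4 : A.valuation (4 : L) = 1 := val_four_of_two h2
  obtain ⟨e, he, hev, hyp, hb, hV, hI⟩ := exists_model_odd_val hE h2 hΔ0 hΔ hc₄
  obtain ⟨β, hβ⟩ : ∃ β : L, β ^ 2 = (vcOdd E e • E).toAffine.a₂ :=
    IsAlgClosed.exists_pow_nat_eq _ (by norm_num)
  have htr : A.valuation (trB4 E e) < 1 := by
    have h := hb
    rw [show (vcOdd E e • E).toAffine.a₄ = trB4 E e / 2 from vcOdd_a₄ E e h20, map_div₀, h2,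
      div_one] at h
    exact h
  let φ : (vcOdd E e • E).toAffine.Point →+ Additive (CompGroup hyp) :=
    AddMonoidHom.mk' (M1.compMap hyp β) (M1.compMap_add hyp H6.M1_E0E0 H6.M1_E0Cp hb hβ)
  have hφ : ∀ Q, φ Q = M1.compMap hyp β Q := fun _ => rfl
  let c : E.Point →+ Additive (CompGroup hyp) :=
    φ.comp (equiv E (vcOdd E e)).symm.toAddMonoidHom
  have hc : ∀ P, c P = M1.compMap hyp β ((equiv E (vcOdd E e)).symm P) := fun _ => rfl
  have hconj : ∀ (sE : E.Point →+ E.Point) (P : E.Point),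
      (equiv E (vcOdd E e)).symm (sE P) =
        conjVC E (vcOdd E e) sE ((equiv E (vcOdd E e)).symm P) := by
    intro sE P
    simp [conjVC]
  refine ⟨Additive (CompGroup hyp), inferInstance, c, ?_, ?_, ?_, ?_⟩
  · -- (a) a point of order `p` outside the kernel
    have hΔW : (vcOdd E e • E).toAffine.Δ ≠ 0 := by
      rw [show (vcOdd E e • E).toAffine.Δ = ((vcOdd E e).u⁻¹ : Lˣ) ^ 12 * E.Δ from
        variableChange_Δ E (vcOdd E e)]
      simpa [vcOdd] using hΔ0
    obtain ⟨x, y, h, hp0, hx⟩ := hROOT L A p hp hp2 hpv (vcOdd E e • E).toAffine hyp hb hΔW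
    refine ⟨equiv E (vcOdd E e) (.some x y h), ?_, ?_⟩
    · rw [← map_nsmul, hp0, map_zero]
    · rw [hc, AddEquiv.symm_apply_apply]
      intro h0
      have h1 : InE0 A (Point.some x y h) := (M1.compMap_eq_zero_iff hyp hb _).1 h0
      exact absurd hx (not_lt.2 h1)
  · -- (b) local cyclicity
    intro k Q₁ Q₂ h1 h2' hne
    have e1 : p ^ (k + 1) • c Q₁ = 0 := by rw [← map_nsmul, h1, map_zero]
    have e2 : p ^ (k + 1) • c Q₂ = 0 := by rw [← map_nsmul, h2', map_zero]
    obtain ⟨j, hj⟩ := hCG ((A.ValueGroup)ˣ) (valueGroup_units_torsionFree A) (bUnit hyp ^ 2) p hp k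
      (Additive.toMul (c Q₁)) (Additive.toMul (c Q₂))
      (by rw [← toMul_nsmul, e1]; rfl) (by rw [← toMul_nsmul, e2]; rfl)
      (fun h => hne (by
        apply Additive.toMul.injective
        rw [toMul_nsmul, h]; rfl))
    refine ⟨j, ?_⟩
    apply Additive.toMul.injective
    rw [toMul_nsmul]
    exact hj
  · -- (c) decomposition-like maps act by a sign
    intro σ sE hD
    have hVal : ValOn A E σ sE := ⟨hD.val_eq, hD.map_some⟩
    have hS := hV σ sE hVal hD.fix₁ hD.fix₂ hD.fix₃ hD.fix₄ hD.fix₆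
    have hshift : A.valuation (σ e - e) ≤ A.valuation (trB4 E e) :=
      val_shift_root_odd_of_val h2 hc₄ he htr σ hD.val_eq hD.fix₁ hD.fix₂ hD.fix₃ hD.fix₄ hD.fix₆
    have hσa : A.valuation (σ (vcOdd E e • E).toAffine.a₂ - (vcOdd E e • E).toAffine.a₂) < 1 := by
      rw [show (vcOdd E e • E).toAffine.a₂ = trB2 E e / 4 from vcOdd_a₂ E e h20]
      have e3 : σ (trB2 E e / 4) - trB2 E e / 4 = 3 * (σ e - e) := by
        have h40 : (4 : L) ≠ 0 := four_ne_zero_of_two h20
        simp only [trB2, b₂, map_div₀, map_add, map_mul, map_pow, hD.fix₁, hD.fix₂, map_ofNat]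
        field_simp
        ring
      rw [e3, map_mul]
      calc A.valuation (3 : L) * A.valuation (σ e - e) ≤ 1 * A.valuation (σ e - e) := by
            gcongr; exact val_three_le_one
        _ = A.valuation (σ e - e) := one_mul _
        _ ≤ A.valuation (trB4 E e) := hshift
        _ < 1 := htr
    rcases compMap_shiftVal_sign A _ hyp hb β hβ σ _ hS hσa with h | h
    · left
      intro P
      rw [hc, hc, hconj, h]
    · right
      intro P
      rw [hc, hc, hconj, h]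
  · -- (d) inertia-like maps act trivially
    intro σ sE hD hres P
    have hIn : InertiaOn A E σ sE := ⟨hD.val_eq, hres, hD.map_some⟩
    have hS := hI σ sE hIn hD.fix₁ hD.fix₂ hD.fix₃ hD.fix₄ hD.fix₆
    rw [hc, hc, hconj, compMap_shift A _ hyp hb β hβ σ _ hS]

/-- **LOC** (unconditional). -/
theorem stmt_LOC : Stmt_LOC := stmt_LOC_of H01.stmt_CG H97.stmt_ROOT

end Fermat.Agent.Tate.T6

end
-- ==== END Fermat.Agent.Tate.T6.Loc

-- ==== BEGIN Fermat.Agent.Tate.T7.H46_SS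
section

set_option autoImplicit false

namespace Fermat.Agent.Tate.T7.H46

open WeierstrassCurve WeierstrassCurve.Affine Polynomial
open Fermat.Agent.Lib.TorsionGen

variable (W : WeierstrassCurve ℤ)

/-- The curve over `Q̄` is the image of the integral model. -/
lemma curveQb_eq :
    ((W.map (Int.castRingHom ℚ)).toAffine⁄Qb) = W.map (Int.castRingHom Qb) := by
  change (W.map (Int.castRingHom ℚ)).map (algebraMap ℚ Qb) = _
  rw [WeierstrassCurve.map_map]
  congr 1

lemma curveQb_Δ_ne_zero (hΔ : W.Δ ≠ 0) :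
    ((W.map (Int.castRingHom ℚ)).toAffine⁄Qb).Δ ≠ 0 := by
  rw [curveQb_eq, WeierstrassCurve.map_Δ]
  simpa using hΔ

lemma curveQb_preΨ' (p : ℕ) :
    ((W.map (Int.castRingHom ℚ)).toAffine⁄Qb).preΨ' p = (W.preΨ' p).map (Int.castRingHom Qb) := by
  rw [curveQb_eq, WeierstrassCurve.map_preΨ']

lemma curveQb_ΨSq (n : ℤ) :
    ((W.map (Int.castRingHom ℚ)).toAffine⁄Qb).ΨSq n = (W.ΨSq n).map (Int.castRingHom Qb) := by
  rw [curveQb_eq, WeierstrassCurve.map_ΨSq]

lemma curveQb_Φ (n : ℤ) :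
    ((W.map (Int.castRingHom ℚ)).toAffine⁄Qb).Φ n = (W.Φ n).map (Int.castRingHom Qb) := by
  rw [curveQb_eq, WeierstrassCurve.map_Φ]

section

variable {W} {p : ℕ} (hp : p.Prime) (hp2 : p ≠ 2)

include hp hp2 in
lemma not_even_of_prime : ¬ Even p := fun he => hp2 ((Nat.Prime.even_iff hp).mp he)

include hp hp2 in
lemma half_pos : 1 ≤ (p ^ 2 - 1) / 2 := by
  have : 3 ≤ p := by have := hp.two_le; omega
  have h9 : 9 ≤ p ^ 2 := by nlinarith
  omega

include hp hp2 in
lemma not_dvd_half : ¬ p ∣ (p ^ 2 - 1) / 2 := by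
  intro h
  have h3 : 3 ≤ p := by have := hp.two_le; omega
  have hodd : ¬ Even p := not_even_of_prime hp hp2
  have hmod : p % 2 = 1 := Nat.odd_iff.mp (Nat.not_even_iff_odd.mp hodd)
  have h2 : 2 ∣ p ^ 2 - 1 := by
    have : (p ^ 2) % 2 = 1 := by rw [Nat.pow_mod, hmod]
    omega
  have h1 : p ∣ p ^ 2 - 1 := by
    obtain ⟨c, hc⟩ := h2
    have : (p ^ 2 - 1) / 2 = c := by omega
    rw [this] at h
    rw [hc]
    exact Dvd.dvd.mul_left h 2
  have h4 : p ∣ p ^ 2 := Dvd.intro_left (p ^ 1) (by ring)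
  have h5 : p ∣ 1 := by
    have := (Nat.dvd_sub h4 h1)
    have e : p ^ 2 - (p ^ 2 - 1) = 1 := by
      have : 1 ≤ p ^ 2 := Nat.one_le_pow _ _ (by omega)
      omega
    rwa [e] at this
  have := Nat.le_of_dvd one_pos h5
  omega

include hp hp2 in
lemma natDegree_preΨ'_prime : (W.preΨ' p).natDegree = (p ^ 2 - 1) / 2 := by
  have h0 : ((p : ℕ) : ℤ) ≠ 0 := by exact_mod_cast hp.ne_zero
  rw [W.natDegree_preΨ' h0, if_neg (not_even_of_prime hp hp2)]

include hp hp2 in
lemma leadingCoeff_preΨ'_prime : (W.preΨ' p).leadingCoeff = (p : ℤ) := by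
  have h0 : ((p : ℕ) : ℤ) ≠ 0 := by exact_mod_cast hp.ne_zero
  rw [W.leadingCoeff_preΨ' h0, if_neg (not_even_of_prime hp hp2)]

end

variable {W}

/-- Under `AllInKer` every root of `preΨ'_p` in `Q̄` is outside `A`. -/
lemma root_not_mem (hΔ : W.Δ ≠ 0) {p : ℕ} (hp : p.Prime) (hp2 : p ≠ 2)
    {A : ValuationSubring Qb} (hall : AllInKer W p A) (x : Qb)
    (hx : ((W.preΨ' p).map (Int.castRingHom Qb)).eval x = 0) : x ∉ A := by
  classical
  obtain ⟨y, h, -⟩ := Fermat.Agent.Lib.Torsion35.exists_point_of_x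
    ((W.map (Int.castRingHom ℚ)).toAffine⁄Qb) (curveQb_Δ_ne_zero W hΔ) x
  refine hall x y h ?_
  rw [nsmul_eq_zero_iff_eval_preΨ' h (not_even_of_prime hp hp2), curveQb_preΨ']
  exact hx

/-- The `x`-coordinate of a nonzero `p`-torsion point is a root of `preΨ'_p`. -/
lemma eval_of_torsion {p : ℕ} (hp : p.Prime) (hp2 : p ≠ 2) {x y : Qb}
    (h : ((W.map (Int.castRingHom ℚ)).toAffine⁄Qb).Nonsingular x y)
    (hP : p • (Point.some x y h : EQbar W) = 0) :
    ((W.preΨ' p).map (Int.castRingHom Qb)).eval x = 0 := by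
  classical
  rw [← curveQb_preΨ']
  exact (nsmul_eq_zero_iff_eval_preΨ' h (not_even_of_prime hp hp2)).mp hP

lemma natCast_Qb_ne_zero {p : ℕ} (hp : p.Prime) : (p : Qb) ≠ 0 := by
  exact_mod_cast hp.ne_zero

/-- **SSval**. -/
theorem stmt_SSval : Stmt_SSval := by
  intro W hΔ p hp hp2 A hA hall x y h hP
  exact Eis.val_root hp hA (natCast_Qb_ne_zero hp) (half_pos hp hp2)
    (natDegree_preΨ'_prime hp hp2) (leadingCoeff_preΨ'_prime hp hp2)
    (IsAlgClosed.splits _) (root_not_mem hΔ hp hp2 hall) (eval_of_torsion hp hp2 h hP)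

/-- **SSsep**. -/
theorem stmt_SSsep : Stmt_SSsep := by
  classical
  intro W hΔ p hp hp2 A hA hall x y h x' y' h' hP hP' hlt
  exact Eis.root_sep hp hA (natCast_Qb_ne_zero hp) (half_pos hp hp2)
    (natDegree_preΨ'_prime hp hp2) (leadingCoeff_preΨ'_prime hp hp2)
    (IsAlgClosed.splits _) (root_not_mem hΔ hp hp2 hall) (not_dvd_half hp hp2)
    (eval_of_torsion hp hp2 h hP) (eval_of_torsion hp hp2 h' hP') hlt

/-- **SSmul**. -/
theorem stmt_SSmul : Stmt_SSmul := by
  classical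
  intro W hΔ p hp hp2 A hA hall x y h hP n hn0 hnp x' y' h' hnP
  have hxA : x ∉ A := hall x y h hP
  have hx1 : 1 < A.valuation x := not_le.mp (fun hle => hxA ((A.valuation_le_one_iff x).mp hle))
  have hxpos : (0 : A.ValueGroup) < A.valuation x := lt_trans zero_lt_one hx1
  -- the multiplication formula
  have hL : ∀ k, 1 ≤ k → k ≤ n → k • (Point.some x y h : EQbar W) ≠ 0 := fun k hk1 hkn =>
    nsmul_ne_zero_of_prime (Point.some_ne_zero h) hp hP hk1 (lt_of_le_of_lt hkn hnp)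
  have hmul := xc_nsmul_mul_eval_ΨSq h hn0 hL
  rw [hnP, Fermat.Agent.Lib.Torsion.H11.xc_some, curveQb_ΨSq, curveQb_Φ] at hmul
  set Ψ := ((W.ΨSq (n : ℤ)).map (Int.castRingHom Qb)) with hΨ
  set Φ := ((W.Φ (n : ℤ)).map (Int.castRingHom Qb)) with hΦ
  have hn1 : 1 ≤ n ^ 2 := Nat.one_le_pow _ _ hn0
  -- leading terms
  have hΦtop := eval_sub_top_lt A hx1 (one_ne_zero) Φ (n ^ 2)
    ((natDegree_map_le).trans (by
      have := W.natDegree_Φ_le (n : ℤ)
      rwa [Int.natAbs_natCast] at this))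
    (fun k _ => by rw [hΦ, coeff_map]; exact val_intCast_le_one A _)
  have hΦc : Φ.coeff (n ^ 2) = 1 := by
    rw [hΦ, coeff_map]
    have := W.coeff_Φ (n : ℤ)
    rw [Int.natAbs_natCast] at this
    rw [this]; simp
  rw [hΦc, one_mul, one_mul] at hΦtop
  have hΨtop := eval_sub_top_lt A hx1 (one_ne_zero) Ψ (n ^ 2 - 1)
    ((natDegree_map_le).trans (by
      have := W.natDegree_ΨSq_le (n : ℤ)
      rwa [Int.natAbs_natCast] at this))
    (fun k _ => by rw [hΨ, coeff_map]; exact val_intCast_le_one A _)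
  have hΨc : Ψ.coeff (n ^ 2 - 1) = (n : Qb) ^ 2 := by
    rw [hΨ, coeff_map]
    have := W.coeff_ΨSq (n : ℤ)
    rw [Int.natAbs_natCast] at this
    rw [this]; simp
  rw [hΨc, one_mul] at hΨtop
  have hvn : A.valuation (n : Qb) = 1 :=
    val_natCast_eq_one_of_not_dvd hp hA (fun hd => by
      have := Nat.le_of_dvd hn0 hd
      omega)
  have hvn2 : A.valuation ((n : Qb) ^ 2 * x ^ (n ^ 2 - 1)) = A.valuation x ^ (n ^ 2 - 1) := by
    rw [map_mul, map_pow, map_pow, hvn, one_pow, one_mul]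
  have hΨv : A.valuation (Ψ.eval x) = A.valuation x ^ (n ^ 2 - 1) := by
    rw [← hvn2]
    apply Valuation.map_eq_of_sub_lt
    rw [hvn2]
    exact hΨtop
  have hΨpos : (0 : A.ValueGroup) < A.valuation (Ψ.eval x) := by
    rw [hΨv]; exact pow_pos hxpos _
  -- the key identity
  have hxx : x * x ^ (n ^ 2 - 1) = x ^ (n ^ 2) := by
    rw [← pow_succ']
    congr 1
    omega
  have key : (x' * (n : Qb) ^ 2 - x) * Ψ.eval x =
      (n : Qb) ^ 2 * (Φ.eval x - x ^ (n ^ 2)) - x * (Ψ.eval x - (n : Qb) ^ 2 * x ^ (n ^ 2 - 1)) := by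
    linear_combination ((n : Qb) ^ 2) * hmul - ((n : Qb) ^ 2) * hxx
  have hlt : A.valuation ((x' * (n : Qb) ^ 2 - x) * Ψ.eval x) < A.valuation x ^ (n ^ 2) := by
    rw [key]
    apply Valuation.map_sub_lt
    · rw [map_mul, map_pow, hvn, one_pow, one_mul]
      exact hΦtop
    · rw [map_mul]
      calc A.valuation x * A.valuation (Ψ.eval x - (n : Qb) ^ 2 * x ^ (n ^ 2 - 1))
          < A.valuation x * A.valuation x ^ (n ^ 2 - 1) := mul_lt_mul_of_pos_left hΨtop hxpos
        _ = A.valuation x ^ (n ^ 2) := by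
            rw [← pow_succ']
            congr 1
            omega
  rw [map_mul, hΨv] at hlt
  have e : A.valuation x ^ (n ^ 2) = A.valuation x * A.valuation x ^ (n ^ 2 - 1) := by
    rw [← pow_succ']
    congr 1
    omega
  rw [e] at hlt
  exact lt_of_mul_lt_mul_right hlt zero_le

end Fermat.Agent.Tate.T7.H46

end
-- ==== END Fermat.Agent.Tate.T7.H46_SS

-- ==== BEGIN Fermat.Agent.Tate.T7.H52_Cyc
section

set_option autoImplicit false
set_option linter.style.haveILetI false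

namespace Fermat.Agent.Tate.T7.H52

open Fermat.Agent.R.H89 Fermat.Agent.R.H2

/-- For `p ∤ a` some element of `Gal(Q̄/ℚ)` acts on the `p`-th roots of unity by `μ ↦ μ ^ a`. -/
theorem exists_algEquiv_pow (p : ℕ) (hp : p.Prime) (a : ℕ) (ha : ¬ p ∣ a) :
    ∃ σ₀ : Qb ≃ₐ[ℚ] Qb, ∀ μ : Qb, μ ^ p = 1 → σ₀ μ = μ ^ a := by
  have hcop : a.Coprime p := ((Nat.Prime.coprime_iff_not_dvd hp).2 ha).symm
  obtain ⟨ℓ, hℓgt, hℓ, hmod⟩ := Nat.forall_exists_prime_gt_and_modEq p hp.ne_zero hcop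
  obtain ⟨A, σ, hA, hσ⟩ := Fermat.Agent.Lib.FrobExists.exists_place_and_frobenius ℓ hℓ
  have hpℓ : p.Coprime ℓ := (Nat.coprime_primes hp hℓ).2 (ne_of_lt hℓgt)
  refine ⟨σ, fun μ hμ => ?_⟩
  rw [Fermat.Agent.R.H2.stmt_FrobCyc ℓ hℓ A hA σ hσ p hpℓ μ hμ]
  have hfo : IsOfFinOrder μ := isOfFinOrder_iff_pow_eq_one.2 ⟨p, hp.pos, hμ⟩
  exact hfo.pow_eq_pow_iff_modEq.2 (Nat.ModEq.of_dvd (orderOf_dvd_of_pow_eq_one hμ) hmod)

/-- Every element of `Gal(Q̄/ℚ)` agrees on the `p`-th roots of unity with an element of the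
inertia group of any valuation subring over `p`. -/
theorem exists_inertia_eqOn_cyclotomic (p : ℕ) (hp : p.Prime) (P : ValuationSubring Qb)
    (hP : P.LiesOverPrime p) (σ₀ : Qb ≃ₐ[ℚ] Qb) :
    ∃ σ ∈ P.inertiaSubgroupIn ℚ, ∀ μ : Qb, μ ^ p = 1 → σ μ = σ₀ μ := by
  haveI : Fact p.Prime := ⟨hp⟩
  haveI : NeZero p := ⟨hp.ne_zero⟩
  haveI : Algebra.IsAlgebraic ℚ (AlgebraicClosure ℚ) := AlgebraicClosure.isAlgebraic ℚ
  haveI : Algebra.IsIntegral ℚ (AlgebraicClosure ℚ) := inferInstance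
  obtain ⟨ζ, hζ⟩ := HasEnoughRootsOfUnity.exists_primitiveRoot (AlgebraicClosure ℚ) p
  have hpP : (p : AlgebraicClosure ℚ) ∈ P.nonunits := hP
  have hζp : ζ ^ p = 1 := hζ.pow_eq_one
  have hζA : ζ ∈ P := by
    rw [← P.valuation_le_one_iff, h89_valuation_eq_one_of_pow_eq_one P hp.ne_zero hζp]
  have hσζp : (σ₀ ζ) ^ p = 1 := by rw [← map_pow, hζp, map_one]
  have hσζ : σ₀ ζ - ζ ∈ P.nonunits := by
    have h1 := sub_one_mem_nonunits_of_pow_eq_one P p hpP hσζp
    have h2 := sub_one_mem_nonunits_of_pow_eq_one P p hpP hζp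
    have h3 : σ₀ ζ - ζ = (σ₀ ζ - 1) + -(ζ - 1) := by ring
    rw [h3, P.mem_nonunits_iff]
    refine Valuation.map_add_lt _ (P.mem_nonunits_iff.1 h1) ?_
    rw [Valuation.map_neg]
    exact P.mem_nonunits_iff.1 h2
  -- the cyclotomic field
  let F : IntermediateField ℚ (AlgebraicClosure ℚ) := IntermediateField.adjoin ℚ {ζ}
  haveI hcyc : IsCyclotomicExtension {p} ℚ F :=
    hζ.intermediateField_adjoin_isCyclotomicExtension ℚ
  haveI : IsGalois ℚ F := IsCyclotomicExtension.isGalois {p} ℚ F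
  haveI : Normal ℚ F := inferInstance
  let ζ' : F := ⟨ζ, IntermediateField.mem_adjoin_simple_self ℚ ζ⟩
  have hζ' : IsPrimitiveRoot ζ' p :=
    IsPrimitiveRoot.of_map_of_injective (f := algebraMap F (AlgebraicClosure ℚ))
      hζ (algebraMap F (AlgebraicClosure ℚ)).injective
  haveI hic : IsIntegralClosure (Algebra.adjoin ℤ ({ζ'} : Set F)) ℤ F :=
    IsCyclotomicExtension.Rat.isIntegralClosure_adjoin_singleton_of_prime hζ'
  have hint : ∀ x : AlgebraicClosure ℚ, x ∈ F → IsIntegral ℤ x →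
      σ₀ x - x ∈ P.nonunits := by
    intro x hxF hxi
    have hxi' : IsIntegral ℤ (⟨x, hxF⟩ : F) := by
      have h1 : IsIntegral ℤ (algebraMap F (AlgebraicClosure ℚ) ⟨x, hxF⟩) := hxi
      exact (isIntegral_algebraMap_iff (algebraMap F (AlgebraicClosure ℚ)).injective).1 h1
    obtain ⟨y, hy⟩ := (IsIntegralClosure.isIntegral_iff
      (A := Algebra.adjoin ℤ ({ζ'} : Set F))).1 hxi'
    have hmem' : (⟨x, hxF⟩ : F) ∈ Algebra.adjoin ℤ ({ζ'} : Set F) := by
      rw [← hy]; exact y.2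
    have hmem : x ∈ Algebra.adjoin ℤ ({ζ} : Set (AlgebraicClosure ℚ)) := by
      have h1 : (F.val.restrictScalars ℤ) ⟨x, hxF⟩ ∈
          (Algebra.adjoin ℤ ({ζ'} : Set F)).map (F.val.restrictScalars ℤ) :=
        ⟨_, hmem', rfl⟩
      rw [AlgHom.map_adjoin, Set.image_singleton] at h1
      exact h1
    exact (sub_mem_nonunits_of_mem_adjoin P (σ₀ : AlgebraicClosure ℚ →+* AlgebraicClosure ℚ)
      hζA hσζ hmem).2
  obtain ⟨σ, hσI, hσF⟩ :=
    Fermat.Agent.Lib.InertiaLift.exists_mem_inertiaSubgroupIn_eqOn p hp P hP F σ₀ hint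
  refine ⟨σ, hσI, fun μ hμ => ?_⟩
  obtain ⟨k, -, rfl⟩ := hζ.eq_pow_of_pow_eq_one hμ
  exact hσF _ (pow_mem (IntermediateField.mem_adjoin_simple_self ℚ ζ) k)

/-- **T7-CYC**: the inertia group at `A ∣ p` surjects onto `Gal(ℚ(μ_p)/ℚ)`. -/
theorem stmt_CYC : Stmt_CYC := by
  intro p hp A hA a ha
  obtain ⟨σ₀, hσ₀⟩ := exists_algEquiv_pow p hp a ha
  obtain ⟨σ, hσI, hσ⟩ := exists_inertia_eqOn_cyclotomic p hp A hA σ₀
  exact ⟨σ, hσI, fun μ hμ => (hσ μ hμ).trans (hσ₀ μ hμ)⟩

end Fermat.Agent.Tate.T7.H52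

end
-- ==== END Fermat.Agent.Tate.T7.H52_Cyc

-- ==== BEGIN Fermat.Agent.Tate.T7.H52_LOCss
section

set_option autoImplicit false
set_option linter.style.haveILetI false

open WeierstrassCurve WeierstrassCurve.Affine

namespace Fermat.Agent.Tate.T7.H52

open Fermat.Agent.S58.H99 (TorsW finrank_torsW)

/-- The Galois action commutes with multiplication by `n`. -/
theorem galois_nsmul (W : WeierstrassCurve ℤ) (σ : GQ) (n : ℕ) (P : EQbar W) :
    σ • (n • P) = n • (σ • P) :=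
  map_nsmul (DistribSMul.toAddMonoidHom (EQbar W) σ) n P

/-- There is a nonzero `p`-torsion point. -/
theorem exists_torsion_point (W : WeierstrassCurve ℤ) (hΔ : W.Δ ≠ 0) (p : ℕ) [Fact p.Prime] :
    ∃ (x y : Qb) (h : ((W.map (Int.castRingHom ℚ)).toAffine⁄Qb).Nonsingular x y),
      p • (Point.some x y h : EQbar W) = 0 := by
  have hfr := finrank_torsW W hΔ p
  haveI : Nontrivial (TorsW W p) := by
    apply Module.nontrivial_of_finrank_pos (R := ZMod p)
    rw [hfr]
    norm_num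
  obtain ⟨⟨P, hP⟩, hne⟩ := exists_ne (0 : TorsW W p)
  have hP0 : P ≠ 0 := fun h => hne (Subtype.ext h)
  have hPp : p • P = 0 := by
    have := (Submodule.mem_torsionBy_iff _ _).1 hP
    rwa [natCast_zsmul] at this
  rcases P with _ | ⟨x, y, h⟩
  · exact absurd rfl hP0
  · exact ⟨x, y, h, hPp⟩

/-- `(p - 1) * ((p + 1) / 2) = (p ^ 2 - 1) / 2` for odd `p`. -/
theorem exp_identity {p : ℕ} (hodd : Odd p) : (p - 1) * ((p + 1) / 2) = (p ^ 2 - 1) / 2 := by
  obtain ⟨k, rfl⟩ := hodd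
  have h1 : (2 * k + 1 + 1) / 2 = k + 1 := by omega
  have h2 : 2 * k + 1 - 1 = 2 * k := by omega
  have h3 : (2 * k + 1) ^ 2 - 1 = 2 * (2 * k * (k + 1)) := by
    have : (2 * k + 1) ^ 2 = 2 * (2 * k * (k + 1)) + 1 := by ring
    omega
  rw [h1, h2, h3, Nat.mul_div_cancel_left _ (by norm_num : 0 < 2)]

/-- A natural number `0 < m < p` satisfies `m ^ (p - 1) ≡ 1` at a valuation subring over `p`. -/
theorem cong_pow_pred_one {L : Type*} [Field L] (A : ValuationSubring L) {p : ℕ} (hp : p.Prime)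
    (hA : A.valuation (p : L) < 1) {m : ℕ} (hm0 : 0 < m) (hmp : m < p) :
    Cong A.valuation ((m : L) ^ (p - 1)) 1 := by
  haveI : Fact p.Prime := ⟨hp⟩
  unfold Cong
  rw [map_one]
  have hmz : (m : ZMod p) ≠ 0 := by
    rw [Ne, ZMod.natCast_eq_zero_iff]
    exact fun hdvd => absurd (Nat.le_of_dvd hm0 hdvd) (not_le.2 hmp)
  have hflt : ((m : ZMod p)) ^ (p - 1) = 1 := ZMod.pow_card_sub_one_eq_one hmz
  have hdvd : (p : ℤ) ∣ (m : ℤ) ^ (p - 1) - 1 := by
    rw [← ZMod.intCast_zmod_eq_zero_iff_dvd]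
    push_cast
    rw [hflt, sub_self]
  obtain ⟨t, ht⟩ := hdvd
  have e : (m : L) ^ (p - 1) - 1 = (p : L) * (t : L) := by
    have := congrArg (fun z : ℤ => (z : L)) ht
    simpa using this
  have ht1 : A.valuation (t : L) ≤ 1 := by
    rw [A.valuation_le_one_iff]
    exact intCast_mem A t
  rw [e, map_mul]
  calc A.valuation (p : L) * A.valuation (t : L) ≤ A.valuation (p : L) * 1 := by
        gcongr
    _ < 1 := by rw [mul_one]; exact hA

/-- **T7-LOCss** (assembly). -/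
theorem stmt_LOCss_of (hRAD : Stmt_RAD) (hSSval : Stmt_SSval) (hSSsep : Stmt_SSsep)
    (hSSmul : Stmt_SSmul) : Stmt_LOCss := by
  intro W hΔ p hp hp2 A hA hker
  haveI : Fact p.Prime := ⟨hp⟩
  haveI : Algebra.IsAlgebraic ℚ Qb := AlgebraicClosure.isAlgebraic ℚ
  have hI : ∀ σ ∈ A.inertiaSubgroupIn ℚ,
      (∀ x : Qb, A.valuation (σ x) = A.valuation x) ∧
        ∀ x : Qb, A.valuation x ≤ 1 → A.valuation (σ x - x) < 1 :=
    fun σ hσ => Fermat.Agent.S05.H37.inertia_facts A hσ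
  -- nonvanishing of `x`-coordinates
  have hx0 : ∀ (x y : Qb) (h : ((W.map (Int.castRingHom ℚ)).toAffine⁄Qb).Nonsingular x y),
      p • (Point.some x y h : EQbar W) = 0 → x ≠ 0 := by
    intro x y h hP hx
    have h1 := hSSval W hΔ p hp hp2 A hA hker x y h hP
    have hN : (p ^ 2 - 1) / 2 ≠ 0 := by
      rw [← exp_identity (hp.odd_of_ne_two hp2)]
      have h2 : 2 < p := lt_of_le_of_ne hp.two_le (Ne.symm hp2)
      have h3 : 1 ≤ (p + 1) / 2 := by omega
      have h4 : 1 ≤ p - 1 := by omega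
      exact Nat.mul_ne_zero (by omega) (by omega)
    rw [hx, zero_pow hN, zero_mul, map_zero] at h1
    exact zero_ne_one h1
  refine ⟨?_, ?_⟩
  · -- commutation up to sign
    intro σ hσ τ hτ P hP
    rcases P with _ | ⟨x, y, h⟩
    · left; rfl
    obtain ⟨hσval, hσin⟩ := hI σ hσ
    obtain ⟨hτval, hτin⟩ := hI τ hτ
    have hx := hx0 x y h hP
    -- the four points
    obtain ⟨h₁, e₁⟩ : ∃ h' : ((W.map (Int.castRingHom ℚ)).toAffine⁄Qb).Nonsingular
        (σ (τ x)) (σ (τ y)),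
        σ • τ • (Point.some x y h : EQbar W) = Point.some (σ (τ x)) (σ (τ y)) h' := ⟨_, rfl⟩
    obtain ⟨h₂, e₂⟩ : ∃ h' : ((W.map (Int.castRingHom ℚ)).toAffine⁄Qb).Nonsingular
        (τ (σ x)) (τ (σ y)),
        τ • σ • (Point.some x y h : EQbar W) = Point.some (τ (σ x)) (τ (σ y)) h' := ⟨_, rfl⟩
    have t₁ : p • (Point.some (σ (τ x)) (σ (τ y)) h₁ : EQbar W) = 0 := by
      rw [← e₁, ← galois_nsmul, ← galois_nsmul, hP]
      rfl
    have t₂ : p • (Point.some (τ (σ x)) (τ (σ y)) h₂ : EQbar W) = 0 := by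
      rw [← e₂, ← galois_nsmul, ← galois_nsmul, hP]
      rfl
    have c1 : Cong A.valuation (σ (τ x) * x) (τ x * σ x) :=
      cong_inertial A σ hσin hx (hτval x)
    have c2 : Cong A.valuation (τ (σ x) * x) (σ x * τ x) :=
      cong_inertial A τ hτin hx (hσval x)
    have c3 : Cong A.valuation (σ (τ x) * x) (τ (σ x) * x) := by
      refine c1.trans ?_
      rw [mul_comm (τ x) (σ x)]
      exact c2.symm
    have c4 : Cong A.valuation (σ (τ x)) (τ (σ x)) := c3.of_mul_right hx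
    have c5 : A.valuation (σ (τ x) - τ (σ x)) < A.valuation (σ (τ x)) := by
      rw [c4.val_eq]
      exact c4
    have hxx : σ (τ x) = τ (σ x) :=
      hSSsep W hΔ p hp hp2 A hA hker _ _ h₁ _ _ h₂ t₁ t₂ c5
    rw [e₁, e₂]
    rcases Y_eq_of_X_eq h₁.1 h₂.1 hxx with hy | hy
    · left
      simp only [hxx, hy]
    · right
      rw [Point.neg_some]
      simp only [hxx, hy]
  · -- a non-scalar square
    by_contra hcon
    push Not at hcon
    obtain ⟨x₀, y₀, h₀, hP₀⟩ := exists_torsion_point W hΔ p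
    have hx := hx0 x₀ y₀ h₀ hP₀
    have hodd : Odd p := hp.odd_of_ne_two hp2
    have h2p : 2 < p := lt_of_le_of_ne hp.two_le (Ne.symm hp2)
    have hz : A.valuation ((x₀ ^ (p - 1)) ^ ((p + 1) / 2) * (p : Qb)) = 1 := by
      rw [← pow_mul, exp_identity hodd]
      exact hSSval W hΔ p hp hp2 A hA hker x₀ y₀ h₀ hP₀
    have he2 : 2 ≤ (p + 1) / 2 := by omega
    have hpe : ¬ p ∣ (p + 1) / 2 := by
      intro hdvd
      have := Nat.le_of_dvd (by omega) hdvd
      omega
    obtain ⟨τ, hτ, hmove⟩ := hRAD p hp A hA (x₀ ^ (p - 1)) ((p + 1) / 2) he2 hpe hz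
    apply hmove
    obtain ⟨hτval, hτin⟩ := hI τ hτ
    obtain ⟨n, hn⟩ := hcon τ hτ
    have hn₀ := hn (Point.some x₀ y₀ h₀) hP₀
    obtain ⟨h₁, e₁⟩ : ∃ h' : ((W.map (Int.castRingHom ℚ)).toAffine⁄Qb).Nonsingular
        (τ (τ x₀)) (τ (τ y₀)),
        τ • τ • (Point.some x₀ y₀ h₀ : EQbar W) = Point.some (τ (τ x₀)) (τ (τ y₀)) h' := ⟨_, rfl⟩
    -- reduce `n` modulo `p`
    have hmod : (n % p) • (Point.some x₀ y₀ h₀ : EQbar W) = n • Point.some x₀ y₀ h₀ := by
      conv_rhs => rw [← Nat.mod_add_div n p]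
      rw [add_nsmul, mul_nsmul, hP₀, nsmul_zero, add_zero]
    have hm : (n % p) • (Point.some x₀ y₀ h₀ : EQbar W) = Point.some (τ (τ x₀)) (τ (τ y₀)) h₁ := by
      rw [hmod, ← hn₀, e₁]
    have hm0 : 0 < n % p := by
      rcases Nat.eq_zero_or_pos (n % p) with h0 | h0
      · rw [h0, zero_nsmul] at hm
        exact absurd hm.symm (Point.some_ne_zero h₁)
      · exact h0
    have hmp : n % p < p := Nat.mod_lt _ hp.pos
    set m := n % p with hmdef
    have hmL : (m : Qb) ≠ 0 := by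
      exact_mod_cast hm0.ne'
    have cmul : Cong A.valuation (τ (τ x₀) * (m : Qb) ^ 2) x₀ :=
      hSSmul W hΔ p hp hp2 A hA hker x₀ y₀ h₀ hP₀ m hm0 hmp _ _ h₁ hm
    have cin : Cong A.valuation (τ (τ x₀) * x₀) (τ x₀ * τ x₀) :=
      cong_inertial A τ hτin hx (hτval x₀)
    -- `(τ x₀)² m² ≡ x₀²`
    have c1 : Cong A.valuation (τ x₀ ^ 2 * (m : Qb) ^ 2) (x₀ ^ 2) := by
      have a1 : Cong A.valuation (τ x₀ * τ x₀ * (m : Qb) ^ 2) (τ (τ x₀) * x₀ * (m : Qb) ^ 2) :=
        cin.symm.mul (Cong.refl (pow_ne_zero 2 hmL))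
      have a2 : Cong A.valuation (τ (τ x₀) * (m : Qb) ^ 2 * x₀) (x₀ * x₀) :=
        cmul.mul (Cong.refl hx)
      have e1 : τ x₀ ^ 2 * (m : Qb) ^ 2 = τ x₀ * τ x₀ * (m : Qb) ^ 2 := by ring
      have e2 : τ (τ x₀) * x₀ * (m : Qb) ^ 2 = τ (τ x₀) * (m : Qb) ^ 2 * x₀ := by ring
      have e3 : x₀ ^ 2 = x₀ * x₀ := by ring
      rw [e1, e3]
      rw [e2] at a1
      exact a1.trans a2
    obtain ⟨k, hk⟩ := hodd
    have hk2 : p - 1 = 2 * k := by omega
    have c2 := c1.pow k
    have e4 : (τ x₀ ^ 2 * (m : Qb) ^ 2) ^ k = τ (x₀ ^ (p - 1)) * (m : Qb) ^ (p - 1) := by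
      rw [map_pow, hk2, mul_pow, ← pow_mul, ← pow_mul]
    have e5 : (x₀ ^ 2) ^ k = x₀ ^ (p - 1) := by
      rw [hk2, ← pow_mul]
    rw [e4, e5] at c2
    have hτz : τ (x₀ ^ (p - 1)) ≠ 0 := by
      rw [map_pow]
      exact pow_ne_zero _ (fun h => hx (by simpa using h))
    have c3 : Cong A.valuation (τ (x₀ ^ (p - 1)) * (m : Qb) ^ (p - 1)) (τ (x₀ ^ (p - 1)) * 1) :=
      (Cong.refl hτz).mul (cong_pow_pred_one A hp (A.mem_nonunits_iff.mp hA) hm0 hmp)
    rw [mul_one] at c3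
    exact c3.symm.trans c2

end Fermat.Agent.Tate.T7.H52

end
-- ==== END Fermat.Agent.Tate.T7.H52_LOCss

-- ==== BEGIN Fermat.Agent.Tate.T7.H7_Alg2
section

set_option autoImplicit false

namespace Fermat.Agent.Tate.T7.H7

/-! ### Endomorphisms of a plane -/

section Lin

variable {F : Type*} [Field F] {V : Type*} [AddCommGroup V] [Module F V]

theorem mat_det_sub_one (M : Matrix (Fin 2) (Fin 2) F) :
    (M - 1).det = 1 - M.trace + M.det := by
  simp [Matrix.det_fin_two, Matrix.trace_fin_two]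
  ring

theorem mat_cayley (M : Matrix (Fin 2) (Fin 2) F) :
    M * M = M.trace • M - M.det • (1 : Matrix (Fin 2) (Fin 2) F) := by
  ext i j
  fin_cases i <;> fin_cases j <;>
    simp [Matrix.mul_apply, Fin.sum_univ_two, Matrix.trace_fin_two, Matrix.det_fin_two]
  all_goals ring

/-- Cayley–Hamilton in rank two. -/
theorem end_cayley (hV : Module.finrank F V = 2) (x : Module.End F V) :
    x * x = LinearMap.trace F V x • x - LinearMap.det x • (1 : Module.End F V) := by
  have : Module.Finite F V := Module.finite_of_finrank_eq_succ hV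
  let b := Module.finBasisOfFinrankEq F V hV
  apply (LinearMap.toMatrixAlgEquiv b).injective
  rw [map_mul, map_sub, map_smul, map_smul, map_one, LinearMap.trace_eq_matrix_trace F b,
    ← LinearMap.det_toMatrix b]
  exact mat_cayley _

/-- `det (x - 1) = 1 - tr x + det x` in rank two. -/
theorem end_det_sub_one (hV : Module.finrank F V = 2) (x : Module.End F V) :
    LinearMap.det (x - 1) = 1 - LinearMap.trace F V x + LinearMap.det x := by
  have : Module.Finite F V := Module.finite_of_finrank_eq_succ hV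
  let b := Module.finBasisOfFinrankEq F V hV
  rw [← LinearMap.det_toMatrix b, ← LinearMap.det_toMatrix b x,
    LinearMap.trace_eq_matrix_trace F b, map_sub]
  have : LinearMap.toMatrix b b (1 : Module.End F V) = 1 := LinearMap.toMatrix_one b
  rw [this]
  exact mat_det_sub_one _

/-- An endomorphism whose image lies in a proper subspace has determinant zero. -/
theorem end_det_eq_zero_of_range (hV : Module.finrank F V = 2) (x : Module.End F V)
    (T : Submodule F V) (hT : T ≠ ⊤) (h : ∀ v, x v ∈ T) : LinearMap.det x = 0 := by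
  have : Module.Finite F V := Module.finite_of_finrank_eq_succ hV
  by_contra hne
  have hu : IsUnit x := (LinearMap.isUnit_iff_isUnit_det x).mpr (isUnit_iff_ne_zero.mpr hne)
  obtain ⟨y, hy⟩ := hu.exists_right_inv
  apply hT
  rw [eq_top_iff]
  intro v _
  have : v = x (y v) := by
    have := congrArg (fun f : Module.End F V => f v) hy
    simpa using this.symm
  rw [this]
  exact h _

/-- An endomorphism with determinant zero kills a nonzero vector. -/
theorem end_exists_ker (hV : Module.finrank F V = 2) (x : Module.End F V)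
    (h : LinearMap.det x = 0) : ∃ v : V, v ≠ 0 ∧ x v = 0 := by
  have : Module.Finite F V := Module.finite_of_finrank_eq_succ hV
  have := LinearMap.bot_lt_ker_of_det_eq_zero h
  obtain ⟨v, hv, hv0⟩ := Submodule.exists_mem_ne_zero_of_ne_bot (bot_lt_iff_ne_bot.mp this)
  exact ⟨v, hv0, hv⟩

/-- An endomorphism mapping every vector to itself or its negative is `1` or `-1`. -/
theorem end_pm_one (h2 : (2 : F) ≠ 0) (x : Module.End F V)
    (h : ∀ v, x v = v ∨ x v = -v) : x = 1 ∨ x = -1 := by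
  by_cases hp : ∀ v, x v = v
  · left; ext v; exact hp v
  · right
    push Not at hp
    obtain ⟨w, hw⟩ := hp
    have hw' : x w = -w := (h w).resolve_left hw
    have hw0 : w ≠ 0 := by
      rintro rfl
      exact hw (by rw [map_zero])
    have h2w : ∀ u : V, (2 : F) • u = 0 → u = 0 := fun u hu =>
      (smul_eq_zero.mp hu).resolve_left h2
    ext v
    rcases h v with hv | hv
    · -- then `v = 0`
      have hvw : x (v + w) = v - w := by rw [map_add, hv, hw', sub_eq_add_neg]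
      have hv0 : v = 0 := by
        rcases h (v + w) with h1 | h1
        · exfalso
          apply hw0
          apply h2w
          have : v - w = v + w := by rw [← hvw, h1]
          rw [two_smul]
          have e : w + w = (v + w) - (v - w) := by abel
          rw [e, this, sub_self]
        · apply h2w
          have : v - w = -(v + w) := by rw [← hvw, h1]
          rw [two_smul]
          have e : v + v = (v - w) + (v + w) := by abel
          rw [e, this, neg_add_cancel]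
      rw [hv0, map_zero, map_zero]
    · rw [hv]; rfl

end Lin

/-! ### The dihedral properties and their consequences -/

section Main

variable {F : Type*} [Field F] {V : Type*} [AddCommGroup V] [Module F V]
  {G : Type*} [Group G]

/-- The dihedral properties `KL1–KL3` of `(r, H)`. -/
structure Dih (r : G →* Module.End F V) (H : Subgroup G) : Prop where
  tr0 : ∀ g, g ∉ H → LinearMap.trace F V (r g) = 0
  sc : ∀ g (a : F), (r g - a • 1) * (r g - a • 1) = 0 → r g = a • 1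
  sq : ∀ σ, σ ∉ H → ∀ τ,
    (LinearMap.det (r σ * r τ - r τ * r σ) = 0 ∨ r σ * r τ = -(r τ * r σ)) →
      ∃ a : F, r τ * r τ = a • 1

variable {r : G →* Module.End F V} {H : Subgroup G}

theorem Dih.ker_mem (hD : Dih r H) (h2 : (2 : F) ≠ 0) (hV : Module.finrank F V = 2) {g : G}
    (hg : r g = 1) : g ∈ H := by
  have hfin : Module.Finite F V := Module.finite_of_finrank_eq_succ hV
  by_contra h
  have := hD.tr0 g h
  rw [hg, LinearMap.trace_one, hV] at this
  exact h2 (by exact_mod_cast this)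

theorem r_mul_inv (r : G →* Module.End F V) (g : G) : r g * r g⁻¹ = 1 := by
  rw [← map_mul, mul_inv_cancel, map_one]

theorem r_inv_mul (r : G →* Module.End F V) (g : G) : r g⁻¹ * r g = 1 := by
  rw [← map_mul, inv_mul_cancel, map_one]

theorem det_r_ne_zero (r : G →* Module.End F V) (g : G) : LinearMap.det (r g) ≠ 0 := by
  have h : LinearMap.det (r g) * LinearMap.det (r g⁻¹) = 1 := by
    rw [← map_mul, r_mul_inv, map_one]
  exact left_ne_zero_of_mul_eq_one h

/-- Supersingular type: `I ≤ H`. -/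
theorem Dih.le_of_ss (hD : Dih r H) (h2 : (2 : F) ≠ 0) (hV : Module.finrank F V = 2)
    (I : Subgroup G)
    (hcomm : ∀ σ ∈ I, ∀ τ ∈ I, ∀ v, r σ (r τ v) = r τ (r σ v) ∨ r σ (r τ v) = -(r τ (r σ v)))
    (hns : ∃ τ ∈ I, ∀ a : F, r τ * r τ ≠ a • 1) : I ≤ H := by
  intro σ hσ
  by_contra hσH
  obtain ⟨τ, hτ, hτns⟩ := hns
  -- `x = (r τ r σ)⁻¹ r σ r τ` is `± 1`
  let x : Module.End F V := r (σ⁻¹ * τ⁻¹) * (r σ * r τ)
  have hx : ∀ v, x v = v ∨ x v = -v := by
    intro v
    have e1 : r (σ⁻¹ * τ⁻¹) (r τ (r σ v)) = v := by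
      have : r (σ⁻¹ * τ⁻¹) * (r τ * r σ) = 1 := by
        rw [← map_mul, ← map_mul]
        have : σ⁻¹ * τ⁻¹ * (τ * σ) = 1 := by group
        rw [this, map_one]
      exact congrArg (fun f : Module.End F V => f v) this
    rcases hcomm σ hσ τ hτ v with h | h
    · left
      show r (σ⁻¹ * τ⁻¹) (r σ (r τ v)) = v
      rw [h, e1]
    · right
      show r (σ⁻¹ * τ⁻¹) (r σ (r τ v)) = -v
      rw [h, map_neg, e1]
  have hinv : r (τ * σ) * x = r σ * r τ := by
    show r (τ * σ) * (r (σ⁻¹ * τ⁻¹) * (r σ * r τ)) = r σ * r τ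
    rw [← mul_assoc, ← map_mul]
    have : τ * σ * (σ⁻¹ * τ⁻¹) = 1 := by group
    rw [this, map_one, one_mul]
  have hc : r σ * r τ = r τ * r σ ∨ r σ * r τ = -(r τ * r σ) := by
    rcases end_pm_one h2 x hx with h | h
    · left; rw [← hinv, h, mul_one, map_mul]
    · right; rw [← hinv, h, mul_neg, mul_one, map_mul]
  have hc' : LinearMap.det (r σ * r τ - r τ * r σ) = 0 ∨ r σ * r τ = -(r τ * r σ) := by
    rcases hc with h | h
    · left
      rw [h, sub_self]
      exact end_det_eq_zero_of_range hV 0 ⊥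
        (by
          intro h
          have : Module.finrank F (⊥ : Submodule F V) = 2 := by rw [h, finrank_top, hV]
          simp at this)
        (fun v => by simp)
    · right; exact h
  obtain ⟨a, ha⟩ := hD.sq σ hσH τ hc'
  exact hτns a ha

/-- Ordinary type, with an element of `I` whose determinant is not `± 1`: `I ≤ H`. -/
theorem Dih.le_of_ord (hD : Dih r H) (hV : Module.finrank F V = 2)
    (I : Subgroup G) (T : Submodule F V) (hT : T ≠ ⊤) (hI : ∀ σ ∈ I, ∀ v, r σ v - v ∈ T)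
    (hτ : ∃ τ ∈ I, LinearMap.det (r τ) * LinearMap.det (r τ) ≠ 1) : I ≤ H := by
  intro σ hσ
  by_contra hσH
  obtain ⟨τ, hτI, hτd⟩ := hτ
  -- the commutator has its image in `T`
  have hz : LinearMap.det (r σ * r τ - r τ * r σ) = 0 := by
    apply end_det_eq_zero_of_range hV _ T hT
    intro v
    have e : (r σ * r τ - r τ * r σ) v =
        (r σ (r τ v) - r τ v) + (r τ v - v) - (r τ (r σ v) - r σ v) - (r σ v - v) := by
      simp only [LinearMap.sub_apply, Module.End.mul_apply]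
      abel
    rw [e]
    exact T.sub_mem (T.sub_mem (T.add_mem (hI σ hσ _) (hI τ hτI _)) (hI τ hτI _)) (hI σ hσ _)
  obtain ⟨a, ha⟩ := hD.sq σ hσH τ (Or.inl hz)
  -- `r τ` fixes a nonzero vector
  have hd1 : LinearMap.det (r τ - 1) = 0 :=
    end_det_eq_zero_of_range hV _ T hT (fun v => by
      simpa [LinearMap.sub_apply] using hI τ hτI v)
  obtain ⟨v, hv0, hv⟩ := end_exists_ker hV _ hd1
  have hv' : r τ v = v := by
    rw [LinearMap.sub_apply, Module.End.one_apply, sub_eq_zero] at hv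
    exact hv
  have ha1 : a = 1 := by
    have h1 := congrArg (fun f : Module.End F V => f v) ha
    simp only [Module.End.mul_apply, hv', LinearMap.smul_apply, Module.End.one_apply] at h1
    have h2' : (a - 1) • v = 0 := by rw [sub_smul, one_smul, ← h1, sub_self]
    exact sub_eq_zero.mp ((smul_eq_zero.mp h2').resolve_right hv0)
  apply hτd
  rw [← map_mul, ha, ha1, one_smul, map_one]

/-- Ordinary type when the only units of `F` are `± 1` (`F = 𝔽₃`): `I ≤ H`, by two further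
applications of "Minkowski" (`hMink`). -/
theorem Dih.le_of_ord_units (hD : Dih r H) (h2 : (2 : F) ≠ 0) (hV : Module.finrank F V = 2)
    (hH : H.index = 2)
    (hirr : ∀ W : Submodule F V, (∀ g, ∀ x ∈ W, r g x ∈ W) → W = ⊥ ∨ W = ⊤)
    (hunits : ∀ a : F, a ≠ 0 → a = 1 ∨ a = -1)
    (I : Subgroup G)
    (hMink : ∀ N : Subgroup G, N.Normal → (∀ g, r g = 1 → g ∈ N) → I ≤ N → N = ⊤)
    (T : Submodule F V) (hT : T ≠ ⊤) (hI : ∀ σ ∈ I, ∀ v, r σ v - v ∈ T) : I ≤ H := by
  intro σ₀ hσ₀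
  by_contra hσ₀H
  have hHn : H.Normal := Subgroup.normal_of_index_eq_two hH
  have hneg1 : (-1 : F) ≠ 1 := by
    intro h; apply h2; linear_combination -h
  have h3 : (3 : F) = 0 := by
    rcases hunits 2 h2 with h | h
    · exfalso
      have : (1 : F) = 0 := by linear_combination h
      exact one_ne_zero this
    · linear_combination h
  have hdet : ∀ g, LinearMap.det (r g) = 1 ∨ LinearMap.det (r g) = -1 :=
    fun g => hunits _ (det_r_ne_zero r g)
  have hdetinv : ∀ g, LinearMap.det (r g⁻¹) = LinearMap.det (r g) := by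
    intro g
    have h : LinearMap.det (r g) * LinearMap.det (r g⁻¹) = 1 := by
      rw [← map_mul, r_mul_inv, map_one]
    rcases hdet g with h1 | h1
    · rw [h1, one_mul] at h; rw [h, h1]
    · rw [h1] at h; rw [h1]; linear_combination -h
  -- general consequences of Cayley–Hamilton
  have hsq_of_anti : ∀ x : Module.End F V, LinearMap.trace F V x = 0 → LinearMap.det x = -1 →
      x * x = 1 := by
    intro x ht hd
    rw [end_cayley hV x, ht, hd, zero_smul, neg_smul, one_smul, zero_sub, neg_neg]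
  -- (1) elements of `I`
  have hIdet : ∀ σ ∈ I, LinearMap.det (r σ - 1) = 0 := fun σ hσ =>
    end_det_eq_zero_of_range hV _ T hT (fun v => by
      simpa [LinearMap.sub_apply] using hI σ hσ v)
  have hI1 : ∀ σ ∈ I, LinearMap.det (r σ) = 1 → r σ = 1 := by
    intro σ hσ hd
    have ht : LinearMap.trace F V (r σ) = 2 := by
      have := end_det_sub_one hV (r σ)
      rw [hIdet σ hσ, hd] at this
      linear_combination this
    have hC := end_cayley hV (r σ)
    rw [ht, hd, one_smul] at hC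
    have := hD.sc σ 1 (by
      rw [one_smul]
      have e : (r σ - 1) * (r σ - 1) = r σ * r σ - (2 : F) • r σ + 1 := by
        rw [sub_mul, mul_sub, mul_sub, mul_one, one_mul, one_mul, two_smul]; abel
      rw [e, hC]; abel)
    rw [this, one_smul]
  have hIm : ∀ σ ∈ I, LinearMap.det (r σ) = -1 →
      LinearMap.trace F V (r σ) = 0 := by
    intro σ hσ hd
    have := end_det_sub_one hV (r σ)
    rw [hIdet σ hσ, hd] at this
    linear_combination this
  -- (2) `s`
  have hs_det : LinearMap.det (r σ₀) = -1 := by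
    rcases hdet σ₀ with h | h
    · exact absurd (hD.ker_mem h2 hV (hI1 σ₀ hσ₀ h)) hσ₀H
    · exact h
  have hs_sq : r σ₀ * r σ₀ = 1 := hsq_of_anti _ (hIm σ₀ hσ₀ hs_det) hs_det
  -- (3) the image of `I`
  have hI2 : ∀ σ ∈ I, r σ = 1 ∨ r σ = r σ₀ := by
    intro σ hσ
    rcases hdet σ with h | h
    · exact Or.inl (hI1 σ hσ h)
    · right
      have hmem : σ * σ₀⁻¹ ∈ I := I.mul_mem hσ (I.inv_mem hσ₀)
      have hd : LinearMap.det (r (σ * σ₀⁻¹)) = 1 := by
        rw [map_mul, map_mul, hdetinv, h, hs_det]; ring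
      have h1 := hI1 _ hmem hd
      calc r σ = r (σ * σ₀⁻¹) * r σ₀ := by
            rw [← map_mul]; congr 1; group
        _ = r σ₀ := by rw [h1, one_mul]
  have hI_notin : ∀ σ ∈ I, r σ = r σ₀ → σ ∉ H := by
    intro σ hσ h hσH
    have h1 : r (σ * σ₀⁻¹) = 1 := by rw [map_mul, h, r_mul_inv]
    have h2' : σ * σ₀⁻¹ ∈ H := hD.ker_mem h2 hV h1
    have : σ₀⁻¹ ∈ H := (Subgroup.mul_mem_cancel_left H hσH).mp h2'
    exact hσ₀H (H.inv_mem_iff.mp this)
  -- (4) `H` is the kernel of the determinant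
  let N₁ : Subgroup G :=
    { carrier := {g | g ∈ H ↔ LinearMap.det (r g) = 1}
      one_mem' := by
        show (1 : G) ∈ H ↔ LinearMap.det (r 1) = 1
        rw [map_one, map_one]
        exact ⟨fun _ => rfl, fun _ => H.one_mem⟩
      mul_mem' := by
        intro a b ha hb
        show a * b ∈ H ↔ LinearMap.det (r (a * b)) = 1
        have ha' : a ∈ H ↔ LinearMap.det (r a) = 1 := ha
        have hb' : b ∈ H ↔ LinearMap.det (r b) = 1 := hb
        rw [Subgroup.mul_mem_iff_of_index_two hH, map_mul, map_mul, ha', hb']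
        rcases hdet a with h1 | h1 <;> rcases hdet b with h1' | h1' <;> rw [h1, h1']
        · simp
        · simp [hneg1]
        · simp [hneg1]
        · simp [hneg1]
      inv_mem' := by
        intro a ha
        show a⁻¹ ∈ H ↔ LinearMap.det (r a⁻¹) = 1
        have ha' : a ∈ H ↔ LinearMap.det (r a) = 1 := ha
        rw [H.inv_mem_iff, hdetinv, ha'] }
  have hN₁mem : ∀ g, g ∈ N₁ ↔ (g ∈ H ↔ LinearMap.det (r g) = 1) := fun _ => Iff.rfl
  have hN₁n : N₁.Normal := by
    constructor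
    intro n hn g
    rw [hN₁mem] at hn ⊢
    have e1 : g * n * g⁻¹ ∈ H ↔ n ∈ H := by
      constructor
      · intro h
        have := hHn.conj_mem _ h g⁻¹
        simpa [mul_assoc] using this
      · intro h; exact hHn.conj_mem n h g
    have e2 : LinearMap.det (r (g * n * g⁻¹)) = LinearMap.det (r n) := by
      rw [map_mul, map_mul, map_mul, map_mul, hdetinv]
      rcases hdet g with h | h <;> rw [h] <;> ring
    rw [e1, e2]
    exact hn
  have hN₁top : N₁ = ⊤ := by
    apply hMink N₁ hN₁n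
    · intro g hg
      rw [hN₁mem, hg, map_one]
      exact ⟨fun _ => rfl, fun _ => hD.ker_mem h2 hV hg⟩
    · intro σ hσ
      rw [hN₁mem]
      rcases hI2 σ hσ with h | h
      · rw [h, map_one]
        exact ⟨fun _ => rfl, fun _ => hD.ker_mem h2 hV h⟩
      · rw [h, hs_det]
        exact ⟨fun hh => absurd hh (hI_notin σ hσ h), fun hh => absurd hh hneg1⟩
  have hHdet : ∀ g, g ∈ H ↔ LinearMap.det (r g) = 1 := by
    intro g
    rw [← hN₁mem, hN₁top]
    exact Subgroup.mem_top g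
  have hout_sq : ∀ g, g ∉ H → r g * r g = 1 := by
    intro g hg
    apply hsq_of_anti _ (hD.tr0 g hg)
    rcases hdet g with h | h
    · exact absurd ((hHdet g).mpr h) hg
    · exact h
  -- (5) elements of `H`
  have hH_sq : ∀ h ∈ H, r h * r h = 1 ∨ r h * r h = -1 := by
    intro h hh
    have hd : LinearMap.det (r h) = 1 := (hHdet h).mp hh
    have hC := end_cayley hV (r h)
    rw [hd, one_smul] at hC
    by_cases ht0 : LinearMap.trace F V (r h) = 0
    · right
      rw [hC, ht0, zero_smul, zero_sub]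
    · left
      rcases hunits _ ht0 with ht | ht
      · -- trace `1`: `r h = -1`
        rw [ht, one_smul] at hC
        have := hD.sc h (-1) (by
          have e : (r h - (-1 : F) • (1 : Module.End F V)) * (r h - (-1 : F) • 1) =
              r h * r h + (2 : F) • r h + 1 := by
            rw [neg_smul, one_smul, sub_neg_eq_add, add_mul, mul_add, mul_add, mul_one, one_mul,
              one_mul, two_smul]; abel
          rw [e, hC]
          have e3 : r h - 1 + (2 : F) • r h + 1 = (3 : F) • r h := by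
            have : (3 : F) = 2 + 1 := by norm_num
            rw [this, add_smul, one_smul]; abel
          rw [e3, h3, zero_smul])
        rw [this, neg_smul, one_smul, neg_mul_neg, one_mul]
      · -- trace `-1`: `r h = 1`
        rw [ht, neg_smul, one_smul] at hC
        have := hD.sc h 1 (by
          have e : (r h - (1 : F) • (1 : Module.End F V)) * (r h - (1 : F) • 1) =
              r h * r h - (2 : F) • r h + 1 := by
            rw [one_smul, sub_mul, mul_sub, mul_sub, mul_one, one_mul, one_mul, two_smul]; abel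
          rw [e, hC]
          have e3 : -r h - 1 - (2 : F) • r h + 1 = -((3 : F) • r h) := by
            have : (3 : F) = 2 + 1 := by norm_num
            rw [this, add_smul, one_smul]; abel
          rw [e3, h3, zero_smul, neg_zero])
        rw [this, one_smul, one_mul]
  -- conjugates of `s` are `± s`
  have hconjH : ∀ h ∈ H, r h⁻¹ * r σ₀ * r h = r σ₀ ∨ r h⁻¹ * r σ₀ * r h = -r σ₀ := by
    intro h hh
    have hsh : σ₀ * h ∉ H := by
      rw [Subgroup.mul_mem_iff_of_index_two hH]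
      intro hiff
      exact hσ₀H (hiff.mpr hh)
    have h1 : r σ₀ * r h * (r σ₀ * r h) = 1 := by
      have := hout_sq _ hsh
      rwa [map_mul] at this
    -- `r h⁻¹ = s (r h) s`
    have h2' : r h⁻¹ = r σ₀ * r h * r σ₀ := by
      calc r h⁻¹ = (r σ₀ * r h * (r σ₀ * r h)) * r h⁻¹ := by rw [h1, one_mul]
        _ = r σ₀ * r h * r σ₀ * (r h * r h⁻¹) := by simp only [mul_assoc]
        _ = r σ₀ * r h * r σ₀ := by rw [r_mul_inv, mul_one]
    have h3' : r h⁻¹ * r σ₀ * r h = r σ₀ * (r h * r h) := by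
      rw [h2']
      calc r σ₀ * r h * r σ₀ * r σ₀ * r h = r σ₀ * r h * (r σ₀ * r σ₀) * r h := by
            simp only [mul_assoc]
        _ = r σ₀ * (r h * r h) := by rw [hs_sq, mul_one, mul_assoc]
    rcases hH_sq h hh with h4 | h4
    · left; rw [h3', h4, mul_one]
    · right; rw [h3', h4, mul_neg, mul_one]
  have hconj : ∀ g, r g⁻¹ * r σ₀ * r g = r σ₀ ∨ r g⁻¹ * r σ₀ * r g = -r σ₀ := by
    intro g
    by_cases hg : g ∈ H
    · exact hconjH g hg
    · have hh : σ₀⁻¹ * g ∈ H := by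
        rw [Subgroup.mul_mem_iff_of_index_two hH]
        constructor
        · intro h; exact absurd (H.inv_mem_iff.mp h) hσ₀H
        · intro h; exact absurd h hg
      have e : r g⁻¹ * r σ₀ * r g =
          r (σ₀⁻¹ * g)⁻¹ * r σ₀ * r (σ₀⁻¹ * g) := by
        have e1 : r g = r σ₀ * r (σ₀⁻¹ * g) := by
          rw [← map_mul]; congr 1; group
        have e2 : r g⁻¹ = r (σ₀⁻¹ * g)⁻¹ * r σ₀⁻¹ := by
          rw [← map_mul]; congr 1; group
        rw [e2, e1]
        calc r (σ₀⁻¹ * g)⁻¹ * r σ₀⁻¹ * r σ₀ * (r σ₀ * r (σ₀⁻¹ * g))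
            = r (σ₀⁻¹ * g)⁻¹ * (r σ₀⁻¹ * r σ₀) * r σ₀ * r (σ₀⁻¹ * g) := by
              simp only [mul_assoc]
          _ = r (σ₀⁻¹ * g)⁻¹ * r σ₀ * r (σ₀⁻¹ * g) := by rw [r_inv_mul, mul_one]
      rw [e]
      exact hconjH _ hh
  -- (6) the centraliser of `s`
  let N₂ : Subgroup G :=
    { carrier := {g | r g * r σ₀ = r σ₀ * r g}
      one_mem' := by
        show r 1 * r σ₀ = r σ₀ * r 1
        rw [map_one, one_mul, mul_one]
      mul_mem' := by
        intro a b ha hb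
        show r (a * b) * r σ₀ = r σ₀ * r (a * b)
        have ha' : r a * r σ₀ = r σ₀ * r a := ha
        have hb' : r b * r σ₀ = r σ₀ * r b := hb
        rw [map_mul, mul_assoc, hb', ← mul_assoc, ha', mul_assoc]
      inv_mem' := by
        intro a ha
        show r a⁻¹ * r σ₀ = r σ₀ * r a⁻¹
        have ha' : r a * r σ₀ = r σ₀ * r a := ha
        calc r a⁻¹ * r σ₀ = r a⁻¹ * r σ₀ * (r a * r a⁻¹) := by rw [r_mul_inv, mul_one]
          _ = r a⁻¹ * (r σ₀ * r a) * r a⁻¹ := by simp only [mul_assoc]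
          _ = r a⁻¹ * (r a * r σ₀) * r a⁻¹ := by rw [ha']
          _ = (r a⁻¹ * r a) * r σ₀ * r a⁻¹ := by simp only [mul_assoc]
          _ = r σ₀ * r a⁻¹ := by rw [r_inv_mul, one_mul] }
  have hN₂mem : ∀ g, g ∈ N₂ ↔ r g * r σ₀ = r σ₀ * r g := fun _ => Iff.rfl
  have hN₂n : N₂.Normal := by
    constructor
    intro n hn g
    rw [hN₂mem] at hn ⊢
    -- `S Y = ε Y S` for `Y = r g`
    have hSY : r σ₀ * r g = r g * r σ₀ ∨ r σ₀ * r g = -(r g * r σ₀) := by
      rcases hconj g with h | h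
      · left
        calc r σ₀ * r g = (r g * r g⁻¹) * r σ₀ * r g := by rw [r_mul_inv, one_mul]
          _ = r g * (r g⁻¹ * r σ₀ * r g) := by simp only [mul_assoc]
          _ = r g * r σ₀ := by rw [h]
      · right
        calc r σ₀ * r g = (r g * r g⁻¹) * r σ₀ * r g := by rw [r_mul_inv, one_mul]
          _ = r g * (r g⁻¹ * r σ₀ * r g) := by simp only [mul_assoc]
          _ = -(r g * r σ₀) := by rw [h, mul_neg]
    have hSY' : r σ₀ * r g⁻¹ = r g⁻¹ * r σ₀ ∨ r σ₀ * r g⁻¹ = -(r g⁻¹ * r σ₀) := by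
      rcases hconj g with h | h
      · left
        calc r σ₀ * r g⁻¹ = (r g⁻¹ * r σ₀ * r g) * r g⁻¹ := by rw [h]
          _ = r g⁻¹ * r σ₀ * (r g * r g⁻¹) := by simp only [mul_assoc]
          _ = r g⁻¹ * r σ₀ := by rw [r_mul_inv, mul_one]
      · right
        calc r σ₀ * r g⁻¹ = -(-(r σ₀)) * r g⁻¹ := by rw [neg_neg]
          _ = -(r g⁻¹ * r σ₀ * r g) * r g⁻¹ := by rw [h]
          _ = -(r g⁻¹ * r σ₀ * (r g * r g⁻¹)) := by simp only [mul_assoc, neg_mul]
          _ = -(r g⁻¹ * r σ₀) := by rw [r_mul_inv, mul_one]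
    rw [map_mul, map_mul]
    rcases hconj g with h | h
    · have e1 : r σ₀ * r g = r g * r σ₀ := by
        calc r σ₀ * r g = (r g * r g⁻¹) * r σ₀ * r g := by rw [r_mul_inv, one_mul]
          _ = r g * (r g⁻¹ * r σ₀ * r g) := by simp only [mul_assoc]
          _ = r g * r σ₀ := by rw [h]
      have e2 : r g⁻¹ * r σ₀ = r σ₀ * r g⁻¹ := by
        calc r g⁻¹ * r σ₀ = r g⁻¹ * r σ₀ * (r g * r g⁻¹) := by rw [r_mul_inv, mul_one]
          _ = (r g⁻¹ * r σ₀ * r g) * r g⁻¹ := by simp only [mul_assoc]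
          _ = r σ₀ * r g⁻¹ := by rw [h]
      calc r g * r n * r g⁻¹ * r σ₀ = r g * r n * (r g⁻¹ * r σ₀) := by simp only [mul_assoc]
        _ = r g * (r n * r σ₀) * r g⁻¹ := by rw [e2]; simp only [mul_assoc]
        _ = (r g * r σ₀) * r n * r g⁻¹ := by rw [hn]; simp only [mul_assoc]
        _ = r σ₀ * (r g * r n * r g⁻¹) := by rw [← e1]; simp only [mul_assoc]
    · have e1 : r σ₀ * r g = -(r g * r σ₀) := by
        calc r σ₀ * r g = (r g * r g⁻¹) * r σ₀ * r g := by rw [r_mul_inv, one_mul]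
          _ = r g * (r g⁻¹ * r σ₀ * r g) := by simp only [mul_assoc]
          _ = -(r g * r σ₀) := by rw [h, mul_neg]
      have e2 : r g⁻¹ * r σ₀ = -(r σ₀ * r g⁻¹) := by
        calc r g⁻¹ * r σ₀ = r g⁻¹ * r σ₀ * (r g * r g⁻¹) := by rw [r_mul_inv, mul_one]
          _ = (r g⁻¹ * r σ₀ * r g) * r g⁻¹ := by simp only [mul_assoc]
          _ = -(r σ₀ * r g⁻¹) := by rw [h, neg_mul]
      calc r g * r n * r g⁻¹ * r σ₀ = r g * r n * (r g⁻¹ * r σ₀) := by simp only [mul_assoc]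
        _ = -(r g * (r n * r σ₀) * r g⁻¹) := by rw [e2]; simp only [mul_assoc, mul_neg]
        _ = -((r g * r σ₀) * r n * r g⁻¹) := by rw [hn]; simp only [mul_assoc]
        _ = r σ₀ * (r g * r n * r g⁻¹) := by
            have : r g * r σ₀ = -(r σ₀ * r g) := by rw [e1, neg_neg]
            rw [this]; simp only [mul_assoc, neg_mul, neg_neg]
  have hN₂top : N₂ = ⊤ := by
    apply hMink N₂ hN₂n
    · intro g hg
      rw [hN₂mem, hg, one_mul, mul_one]
    · intro σ hσ
      rw [hN₂mem]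
      rcases hI2 σ hσ with h | h
      · rw [h, one_mul, mul_one]
      · rw [h]
  have hcentral : ∀ g, r g * r σ₀ = r σ₀ * r g := by
    intro g
    rw [← hN₂mem, hN₂top]
    exact Subgroup.mem_top g
  -- (7) the eigenspace of `s` is stable
  let E : Submodule F V := LinearMap.ker (r σ₀ - 1)
  have hE : ∀ g, ∀ x ∈ E, r g x ∈ E := by
    intro g x hx
    have hx' : r σ₀ x = x := by
      have : (r σ₀ - 1) x = 0 := hx
      rwa [LinearMap.sub_apply, Module.End.one_apply, sub_eq_zero] at this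
    show (r σ₀ - 1) (r g x) = 0
    rw [LinearMap.sub_apply, Module.End.one_apply, sub_eq_zero]
    have := congrArg (fun f : Module.End F V => f x) (hcentral g)
    simp only [Module.End.mul_apply] at this
    rw [← this, hx']
  rcases hirr E hE with h | h
  · obtain ⟨v, hv0, hv⟩ := end_exists_ker hV _ (hIdet σ₀ hσ₀)
    have : v ∈ E := hv
    rw [h] at this
    exact hv0 ((Submodule.mem_bot F).mp this)
  · have h1 : r σ₀ = 1 := by
      ext v
      have : v ∈ E := by rw [h]; exact Submodule.mem_top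
      have : (r σ₀ - 1) v = 0 := this
      rwa [LinearMap.sub_apply, Module.End.one_apply, sub_eq_zero] at this
    exact hσ₀H (hD.ker_mem h2 hV h1)

end Main

end Fermat.Agent.Tate.T7.H7

end
-- ==== END Fermat.Agent.Tate.T7.H7_Alg2

-- ==== BEGIN Fermat.Agent.Tate.T7.H7_LOCgood
section

set_option autoImplicit false

namespace Fermat.Agent.Tate.T7.H7

open WeierstrassCurve WeierstrassCurve.Affine IsLocalRing
open Fermat.Agent.Lib.EllFinite Fermat.Agent.Lib.EllFinite.H4 Fermat.Agent.Lib.EllFinite.H46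
open Fermat.Agent.Tate.H4

/-- **LOCgood**. -/
theorem stmt_LOCgood : Stmt_LOCgood := by
  classical
  intro W hΔ p hp _ hgood A hA hnot
  have hΔ' : (Ek A (WA W A)).Δ ≠ 0 := Ek_WA_Δ_ne_zero W A hp hA hgood
  refine ⟨_, inferInstance, redQ W A hΔ', ?_, fun σ hσ P => redQ_inertia hΔ' hσ P⟩
  unfold AllInKer at hnot
  push Not at hnot
  obtain ⟨x, y, h, hP, hx⟩ := hnot
  refine ⟨.some x y h, hP, ?_⟩
  intro h0
  rw [redQ_apply, pointCongr_some, red_eq_zero_iff] at h0
  rcases h0 with h0 | ⟨x', y', h', e, hx'⟩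
  · exact Point.some_ne_zero _ h0
  · obtain ⟨rfl, rfl⟩ := Point.some.inj e
    exact absurd ((A.valuation_le_one_iff x).mpr hx) (not_le.mpr hx')

end Fermat.Agent.Tate.T7.H7

end
-- ==== END Fermat.Agent.Tate.T7.H7_LOCgood

-- ==== BEGIN Fermat.Agent.Tate.T7.H97_Rad
section

set_option autoImplicit false

namespace Fermat.Agent.Tate.T7.H97

open Fermat.Agent.S15.Desc.H97 (valuation_ratCast_eq_zpow zpow_valuation_injective)

/-- **Kummer valuation**, general exponent: if inertia at `ℓ` fixes an `e`-th root `γ` of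
`a ∈ ℚˣ`, `e` prime to `ℓ`, then `e ∣ v_ℓ(a)`. -/
theorem kummer_val_coprime (A : ValuationSubring Qb) {ℓ : ℕ} (hℓ : ℓ.Prime)
    (hA : A.LiesOverPrime ℓ) {e : ℕ} (he : e.Coprime ℓ) (he0 : e ≠ 0) (a : ℚ) (ha : a ≠ 0)
    (γ : Qb) (hγ : γ ^ e = algebraMap ℚ Qb a)
    (hfix : ∀ σ ∈ A.inertiaSubgroupIn ℚ, σ γ = γ) : (e : ℤ) ∣ padicValRat ℓ a := by
  have hγ0 : γ ≠ 0 := by
    rintro rfl
    rw [zero_pow he0] at hγ
    exact ha ((map_eq_zero (algebraMap ℚ Qb)).1 hγ.symm)
  set S : Set Qb := {x | x ^ e = algebraMap ℚ Qb a} with hS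
  have hSfin : S.Finite := by
    have hne : (Polynomial.X ^ e - Polynomial.C (algebraMap ℚ Qb a) : Polynomial Qb) ≠ 0 :=
      Polynomial.X_pow_sub_C_ne_zero (Nat.pos_of_ne_zero he0) _
    refine Set.Finite.subset (Polynomial.finite_setOfPred_isRoot hne) ?_
    intro x hx
    have hx' : x ^ e = algebraMap ℚ Qb a := hx
    show Polynomial.IsRoot _ x
    simp [hx']
  have hstab : ∀ σ : GQ, ∀ x ∈ S, σ x ∈ S := by
    intro σ x hx
    have hx' : x ^ e = algebraMap ℚ Qb a := hx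
    show (σ x) ^ e = algebraMap ℚ Qb a
    rw [← map_pow, hx', AlgEquiv.commutes]
  have hfixS : ∀ σ ∈ A.inertiaSubgroupIn ℚ, ∀ x ∈ S, σ x = x := by
    intro σ hσ x hx
    have hx' : x ^ e = algebraMap ℚ Qb a := hx
    have hζ : (x / γ) ^ e = 1 := by
      rw [div_pow, hx', hγ]
      exact div_self ((map_ne_zero (algebraMap ℚ Qb)).2 ha)
    have h1 : σ (x / γ) = x / γ :=
      Fermat.Agent.S52.H97.inertia_fixes_root A hA hℓ.ne_one σ hσ he hζ
    have h2 : x = (x / γ) * γ := by field_simp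
    rw [h2, map_mul, h1, hfix σ hσ]
  obtain ⟨k, hk⟩ := Fermat.Agent.Lib.UnramVal.valuation_eq_zpow_of_finite ℓ hℓ A hA S hSfin
    hstab hfixS γ hγ hγ0
  have h3 : A.valuation (algebraMap ℚ Qb a) = A.valuation (ℓ : Qb) ^ (k * e) := by
    rw [← hγ, map_pow, hk, zpow_mul, zpow_natCast]
  rw [valuation_ratCast_eq_zpow A hℓ hA a ha] at h3
  have h4 := zpow_valuation_injective A hℓ hA h3
  exact ⟨k, by rw [h4]; ring⟩

/-- **T7-RAD**. -/
theorem stmt_RAD : Stmt_RAD := by
  intro p hp A hA z e he2 hpe hz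
  by_contra hcon
  have hall : ∀ σ ∈ A.inertiaSubgroupIn ℚ, A.valuation (σ z - z) < A.valuation z := by
    intro σ hσ
    by_contra h
    exact hcon ⟨σ, hσ, h⟩
  have he0 : e ≠ 0 := by omega
  have hp0 : (p : Qb) ≠ 0 := by exact_mod_cast hp.ne_zero
  have hz0 : z ≠ 0 := by
    rintro rfl
    rw [zero_pow he0, zero_mul, map_zero] at hz
    exact zero_ne_one hz
  obtain ⟨y, hy⟩ := IsAlgClosed.exists_pow_nat_eq (p : Qb) (n := e) (by omega)
  have hy0 : y ≠ 0 := by
    rintro rfl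
    rw [zero_pow he0] at hy
    exact hp0 hy.symm
  have hvz : 0 < A.valuation z := lt_of_le_of_ne zero_le (Ne.symm ((Valuation.ne_zero_iff _).2 hz0))
  have hvy : 0 < A.valuation y := lt_of_le_of_ne zero_le (Ne.symm ((Valuation.ne_zero_iff _).2 hy0))
  have hw : A.valuation (z * y) = 1 := by
    have h1 : A.valuation (z * y) ^ e = 1 := by
      rw [← map_pow, mul_pow, hy]
      exact hz
    exact (pow_eq_one_iff.1 h1).resolve_right he0
  have hcop : e.Coprime p := (Nat.Coprime.symm ((Nat.Prime.coprime_iff_not_dvd hp).2 hpe))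
  have heA : (e : Qb) ∉ A.nonunits :=
    Fermat.Agent.R.H2.natCast_not_mem_nonunits_of_coprime A hcop hA
  have key : ∀ σ ∈ A.inertiaSubgroupIn ℚ, σ y = y := by
    intro σ hσ
    obtain ⟨hval, hres⟩ := Fermat.Agent.S05.inertia A σ hσ
    have h1 : A.valuation (σ (z * y) - z * y) < 1 := hres _ hw.le
    have h2 := hall σ hσ
    have e1 : z * (σ y - y) = (σ (z * y) - z * y) - (σ z - z) * σ y := by
      rw [map_mul]; ring
    have h3 : A.valuation (z * (σ y - y)) < A.valuation z * A.valuation y := by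
      rw [e1]
      refine lt_of_le_of_lt (Valuation.map_sub _ _ _) (max_lt ?_ ?_)
      · rw [← map_mul, hw]; exact h1
      · rw [map_mul, hval y]
        exact mul_lt_mul_of_pos_right h2 hvy
    rw [map_mul] at h3
    have h4 : A.valuation (σ y - y) < A.valuation y := lt_of_mul_lt_mul_left h3 zero_le
    have hζ : (σ y / y) ^ e = 1 := by
      rw [div_pow, ← map_pow, hy, map_natCast]
      exact div_self hp0
    have h5 : σ y / y - 1 ∈ A.nonunits := by
      rw [A.mem_nonunits_iff]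
      have e2 : σ y / y - 1 = (σ y - y) / y := by field_simp
      rw [e2, map_div₀]
      exact (div_lt_one₀ hvy).2 h4
    have h6 := Fermat.Agent.R.H89.h89_eq_of_sub_mem' A e heA hζ (one_pow e) h5
    have h7 : σ y = (σ y / y) * y := by field_simp
    rw [h7, h6, one_mul]
  have hdvd := kummer_val_coprime A hp hA hcop he0 (p : ℚ) (by exact_mod_cast hp.ne_zero) y
    (by rw [hy]; simp) key
  rw [padicValRat.self hp.one_lt] at hdvd
  have h8 : (e : ℤ) ∣ ((1 : ℕ) : ℤ) := by simpa using hdvd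
  have h9 : e ∣ 1 := Int.natCast_dvd_natCast.1 h8
  have := Nat.le_of_dvd one_pos h9
  omega

end Fermat.Agent.Tate.T7.H97

end
-- ==== END Fermat.Agent.Tate.T7.H97_Rad

-- ==== BEGIN Fermat.Agent.Tate.T7.H99_T7a
section

/-!
# Tate T7a: residual absolute irreducibility (helper99)

`stmt_T7a : Stmt_T7a`, from `S58.H99.stmt_ResIrr` and T3c (`Tate.H7.stmt_T3c`).
Also `hasFrobOf_tateData`: every Tate datum has the Frobenius characteristic polynomials of `W`
outside `badSet W p`, and `residual_isOdd_tateData`.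
-/

set_option autoImplicit false

open IsLocalRing

namespace Fermat.Agent.Tate.T7.H99

open Fermat.Agent.S58 Fermat.Agent.S58.H99

/-- A Tate datum has the Frobenius characteristic polynomials of `W` outside `badSet W p`. -/
theorem hasFrobOf_tateData (W : WeierstrassCurve ℤ) (hΔ : W.Δ ≠ 0) (p : ℕ) [Fact p.Prime]
    (D : TateData W p) : HasFrobOf W D.ρ (badSet W p) := by
  intro ℓ hℓ hℓS P hP σ hσ
  obtain ⟨hℓp, hgood⟩ := not_mem_badSet hΔ hℓ hℓS
  exact Fermat.Agent.Tate.H7.stmt_T3c W hΔ p D ℓ hℓ hℓp hgood P hP σ hσ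

/-- The residual representation of a Tate datum of a curve with irreducible `E[p]`, `p` odd, is
absolutely irreducible and odd. -/
theorem residual_irr_odd_tateData (W : WeierstrassCurve ℤ) (hΔ : W.Δ ≠ 0) (p : ℕ)
    [Fact p.Prime] (hp2 : p ≠ 2) (D : TateData W p) (hirr : W.ModRepIsIrreducible p) :
    D.ρ.residual.IsAbsolutelyIrreducible ∧ D.ρ.residual.IsOdd :=
  stmt_ResIrr p hp2 W hΔ hirr ℤ_[p] (natCast_mem_maximalIdeal_padicInt p) D.ρ (badSet W p)
    (hasFrobOf_tateData W hΔ p D)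

/-- **T7a.** -/
theorem stmt_T7a : Stmt_T7a := fun W hΔ _ p _ hp2 D hirr =>
  (residual_irr_odd_tateData W hΔ p hp2 D hirr).1

end Fermat.Agent.Tate.T7.H99

end
-- ==== END Fermat.Agent.Tate.T7.H99_T7a
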