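-- GENERATED (merged mirror, NOTES/tools/trim/merge3_helper67.py): 6 modules of the originals, bodies verbatim.
import Mathlib
import Fermat.Agent.Zm.S43_L02_000
import Fermat.Agent.Zm.S35_L11_001
import Fermat.Agent.Zm.S35_L04_002
import Fermat.Agent.Zm.S48_L01_002
import Fermat.Agent.Zm.S43_L02_001
import Fermat.Agent.Zm.S43_L01_001
import Fermat.Agent.Zm.S35_L16_001
import Fermat.Agent.Zm.S44_L01_003
import Fermat.Agent.Zm.S56_L07_005
import Fermat.Agent.Zm.S43_L01_000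
import Fermat.Agent.Zm.S43_L01_005
import Fermat.Agent.Zm.S43_L02_004
import Fermat.Agent.Zm.S44_L06_001
import Fermat.Agent.Zm.S44_L06_000
import Fermat.Agent.Zm.S35_L02_001

-- ==== BEGIN Fermat.Agent.L.Pivot.Geom.H50_UnipNew
section

/-!
# PIVOT, PV-GEOM part II, leaf PVG-N2 (helper50): unipotent inertia on a common eigenspace  (N3)

`C`, `C'` coordinatised Tate systems of `J₀(M q)` and `J₀(M)`, `Lm`, `Lm'` their limits over a
complete Noetherian local ring `𝒪` (`p ∈ 𝔪`), `L` a field over `𝒪`.  `E ⊆ L ^ r` is a set of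
eigenvectors for the Hecke matrices of level `M q` with eigenvalues `a ℓ`, `w ≠ 0` an eigenvector
of level `M` with the same eigenvalues.  If `g` lies in an inertia group at `q ≠ p`, `E` is stable
under `g` and `(ρ'(g) - 1)² = 0` at level `M`, then `(ρ(g) - 1)² = 0` on `E`.

Inputs: the Eichler–Shimura relation at both levels (`Stmt_TorsES`), the Frobenius density theorem
(`Lib.FrobDensity.stmt_FD`), the action of Frobenius and inertia on roots of unity.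
-/

set_option autoImplicit false
set_option linter.unusedSectionVars false
set_option linter.unusedVariables false
set_option linter.style.haveILetI false

open IsLocalRing

noncomputable section

namespace Fermat.Agent.L.Pivot.Geom.H50

open AlgebraicCurve ModularCurve Fermat.Agent.GTor Fermat.Agent.GTor.H58T1
  Fermat.Agent.GTor.H81

local notation "Kb" => AlgebraicClosure ℚ

/-! ## roots of unity -/

/-- a power of a Frobenius at `ℓ` acts on the roots of unity of order prime to `ℓ` as the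
`ℓ ^ j`-th power. -/
theorem frob_pow_root {ℓ : ℕ} (hℓ : ℓ.Prime) (A : ValuationSubring Kb) (hA : A.LiesOverPrime ℓ)
    (φ : GQ) (hφ : A.IsFrobeniusAt φ ℓ) {n : ℕ} (hn : n.Coprime ℓ) (ζ : Kb) (hζ : ζ ^ n = 1)
    (j : ℕ) : (φ ^ j) ζ = ζ ^ (ℓ ^ j) := by
  induction j with
  | zero => simp
  | succ j ih =>
    have h1 : (φ ^ (j + 1)) ζ = φ ((φ ^ j) ζ) := by
      rw [pow_succ']
      rfl
    have h2 : (ζ ^ (ℓ ^ j)) ^ n = 1 := by
      rw [← pow_mul, mul_comm, pow_mul, hζ, one_pow]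
    rw [h1, ih, Fermat.Agent.R.H89.stmt_FrobCyc ℓ hℓ A hA φ hφ n hn _ h2, ← pow_mul, ← pow_succ]

/-- if a power of a Frobenius at `ℓ ≠ p` agrees on a primitive `p ^ n`-th root of unity with an
element of an inertia group at `q ≠ p`, then `ℓ ^ j ≡ 1` modulo `p ^ n`. -/
theorem frob_pow_modEq {p q ℓ : ℕ} (hp : p.Prime) (hq : q.Prime) (hℓ : ℓ.Prime) (hqp : q ≠ p)
    (hℓp : ℓ ≠ p) (P : ValuationSubring Kb) (hP : P.LiesOverPrime q) (g : GQ)
    (hg : g ∈ P.inertiaSubgroupIn ℚ) (A : ValuationSubring Kb) (hA : A.LiesOverPrime ℓ)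
    (φ : GQ) (hφ : A.IsFrobeniusAt φ ℓ) (n j : ℕ) (ζ : Kb) (hζ : IsPrimitiveRoot ζ (p ^ n))
    (hj : (φ ^ j) ζ = g ζ) : p ^ n ∣ ℓ ^ j - 1 := by
  have hcℓ : (p ^ n).Coprime ℓ :=
    Nat.Coprime.pow_left n ((Nat.coprime_primes hp hℓ).2 (Ne.symm hℓp))
  have hcq : (p ^ n).Coprime q :=
    Nat.Coprime.pow_left n ((Nat.coprime_primes hp hq).2 (Ne.symm hqp))
  have h1 := frob_pow_root hℓ A hA φ hφ hcℓ ζ hζ.pow_eq_one j
  have h2 := Fermat.Agent.R.H89.inertia_fixes_rootsOfUnity q P hP g hg (p ^ n) hcq ζ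
    hζ.pow_eq_one
  rw [hj, h2] at h1
  have hpos : 1 ≤ ℓ ^ j := Nat.one_le_pow _ _ hℓ.pos
  have hζ0 : ζ ≠ 0 := hζ.ne_zero (pow_ne_zero n hp.ne_zero)
  have h3 : ζ ^ (ℓ ^ j - 1) = 1 := by
    have e : ζ ^ (ℓ ^ j) = ζ ^ (ℓ ^ j - 1) * ζ := by
      rw [← pow_succ, Nat.sub_add_cancel hpos]
    rw [e] at h1
    have h4 : ζ ^ (ℓ ^ j - 1) * ζ = 1 * ζ := by rw [one_mul]; exact h1.symm
    exact mul_right_cancel₀ hζ0 h4
  exact (hζ.pow_eq_one_iff_dvd _).1 h3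

/-! ## the main statement -/

section Main

variable {M q p : ℕ} [NeZero M] [NeZero q] [Fact p.Prime] {S : Finset ℕ}
  {C : TateCoords (M * q) p (↑S : Set ℕ)} {C' : TateCoords M p (↑S : Set ℕ)}
variable {𝒪 : Type} [CommRing 𝒪] [IsLocalRing 𝒪] [IsNoetherianRing 𝒪]
  [IsAdicComplete (maximalIdeal 𝒪) 𝒪]
  {hp : (p : 𝒪) ∈ maximalIdeal 𝒪} (Lm : TateLimit C 𝒪 hp) (Lm' : TateLimit C' 𝒪 hp)
variable {L : Type*} [Field L] [Algebra 𝒪 L]

/-- the relation `ρ(φ) + ℓ ρ(φ⁻¹) = T_ℓ` from Eichler–Shimura. -/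
theorem es_sum {N : ℕ} [NeZero N] {C₀ : TateCoords N p (↑S : Set ℕ)} (L₀ : TateLimit C₀ 𝒪 hp)
    (hES : Stmt_TorsES N p) {ℓ : ℕ} (hℓ : ℓ.Prime) (hℓN : ¬ ℓ ∣ N) (hℓp : ℓ ≠ p)
    (hℓS : ℓ ∉ (↑S : Set ℕ)) (A : ValuationSubring Kb) (hA : A.LiesOverPrime ℓ) (φ : GQ)
    (hφ : A.IsFrobeniusAt φ ℓ) :
    L₀.ρL φ + (ℓ : 𝒪) • L₀.ρL φ⁻¹ = Mc 𝒪 C₀.M (CuspForm.heckeAlgebra.T hℓ hℓN hℓS) := by
  have h := limit_ES L₀ hES hℓ hℓN hℓp hℓS A hA φ hφ
  have h1 : L₀.ρL φ * L₀.ρL φ⁻¹ = 1 := rep_mul_inv_h50 L₀.ρL φ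
  have h2 := congrArg (fun X => X * L₀.ρL φ⁻¹) h
  simp only [add_mul, sub_mul, zero_mul, mul_assoc, h1, mul_one] at h2
  have h3 : ((ℓ : ℕ) : Matrix (Fin C₀.r) (Fin C₀.r) 𝒪) * L₀.ρL φ⁻¹ = (ℓ : 𝒪) • L₀.ρL φ⁻¹ := by
    rw [← natCast_smul_one, Matrix.smul_mul, one_mul]
  rw [h3] at h2
  rw [← sub_eq_zero, ← h2]
  abel

/-- **(N3)**: unipotence of inertia at `q` on the common eigenspace. -/
theorem unip_of_es (hNS : ∀ l : ℕ, l.Prime → l ∣ M * q → l ∈ S)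
    (hES : Stmt_TorsES (M * q) p) (hES' : Stmt_TorsES M p) (hq : q.Prime) (hqp : q ≠ p)
    (P : ValuationSubring Kb) (hP : P.LiesOverPrime q) (a : ℕ → L)
    (E : Set (Fin C.r → L)) (w : Fin C'.r → L) (hw : w ≠ 0)
    (hEig : ∀ (ℓ : ℕ) (hℓ : ℓ.Prime) (hℓN : ¬ ℓ ∣ M * q) (hℓS : ℓ ∉ (↑S : Set ℕ)),
      ∀ v ∈ E, actL (Mc 𝒪 C.M (CuspForm.heckeAlgebra.T hℓ hℓN hℓS)) v = a ℓ • v)
    (hEig' : ∀ (ℓ : ℕ) (hℓ : ℓ.Prime) (hℓN : ¬ ℓ ∣ M) (hℓNq : ¬ ℓ ∣ M * q)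
      (hℓS : ℓ ∉ (↑S : Set ℕ)),
      actL (Mc 𝒪 C'.M (CuspForm.heckeAlgebra.T hℓ hℓN hℓS)) w = a ℓ • w)
    (g : GQ) (hg : g ∈ P.inertiaSubgroupIn ℚ)
    (hE : ∀ v ∈ E, actL (Lm.ρL g) v ∈ E)
    (hunip' : (Lm'.ρL g - 1) * (Lm'.ρL g - 1) = 0) :
    ∀ v ∈ E, actL (Lm.ρL g) (actL (Lm.ρL g) v) - actL (Lm.ρL g) v - actL (Lm.ρL g) v + v = 0 := by
  have hpp : p.Prime := Fact.out
  refine unip_transfer Lm.ρL Lm'.ρL hw g hE hunip' fun n => ?_
  -- the fields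
  obtain ⟨K₁, hK₁, h₁⟩ := Lm.cont n
  obtain ⟨K₂, hK₂, h₂⟩ := Lm'.cont n
  haveI : NeZero ((p ^ n : ℕ) : Kb) := ⟨by
    rw [Nat.cast_ne_zero]
    exact pow_ne_zero n hpp.ne_zero⟩
  obtain ⟨ζ, hζ⟩ := HasEnoughRootsOfUnity.exists_primitiveRoot Kb (p ^ n)
  let K₃ : IntermediateField ℚ Kb := IntermediateField.adjoin ℚ {ζ}
  have hζint : IsIntegral ℚ ζ := (AlgebraicClosure.isAlgebraic ℚ).isIntegral.isIntegral ζ
  have hK₃ : FiniteDimensional ℚ K₃ := IntermediateField.adjoin.finiteDimensional hζint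
  have := hK₁; have := hK₂
  have hK₁₂ : FiniteDimensional ℚ ↥(K₁ ⊔ K₂) := IntermediateField.finiteDimensional_sup K₁ K₂
  have hK : FiniteDimensional ℚ ↥(K₁ ⊔ K₂ ⊔ K₃) :=
    IntermediateField.finiteDimensional_sup (K₁ ⊔ K₂) K₃
  -- the Frobenius
  obtain ⟨ℓ, A, φ, j, hℓ, hℓS, hA, hφ, hj⟩ :=
    Fermat.Agent.Lib.FrobDensity.stmt_FD (insert p S) (K₁ ⊔ K₂ ⊔ K₃) hK g
  have hℓp : ℓ ≠ p := fun h => hℓS (by rw [h]; exact Finset.mem_insert_self p S)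
  have hℓS' : ℓ ∉ (↑S : Set ℕ) := fun h => hℓS (Finset.mem_insert_of_mem (Finset.mem_coe.1 h))
  have hℓNq : ¬ ℓ ∣ M * q := fun h => hℓS' (Finset.mem_coe.2 (hNS ℓ hℓ h))
  have hℓN : ¬ ℓ ∣ M := fun h => hℓNq (Dvd.dvd.mul_right h q)
  set t : GQ := g⁻¹ * φ ^ j with htdef
  have ht : ∀ x ∈ K₁ ⊔ K₂ ⊔ K₃, t x = x := by
    intro x hx
    rw [htdef, AlgEquiv.mul_apply, hj x hx]
    exact AlgEquiv.symm_apply_apply g x
  have hgt : g * t = φ ^ j := by rw [htdef, mul_inv_cancel_left]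
  have ht₁ : ∀ x ∈ K₁, t x = x := fun x hx =>
    ht x ((le_sup_left : K₁ ⊔ K₂ ≤ K₁ ⊔ K₂ ⊔ K₃) ((le_sup_left : K₁ ≤ K₁ ⊔ K₂) hx))
  have ht₂ : ∀ x ∈ K₂, t x = x := fun x hx =>
    ht x ((le_sup_left : K₁ ⊔ K₂ ≤ K₁ ⊔ K₂ ⊔ K₃) ((le_sup_right : K₂ ≤ K₁ ⊔ K₂) hx))
  have hζK : ζ ∈ K₁ ⊔ K₂ ⊔ K₃ :=
    (le_sup_right : K₃ ≤ K₁ ⊔ K₂ ⊔ K₃) (IntermediateField.mem_adjoin_simple_self ℚ ζ)
  -- the cyclotomic congruence
  have hdvd : p ^ n ∣ ℓ ^ j - 1 :=
    frob_pow_modEq hpp hq hℓ hqp hℓp P hP g hg A hA φ hφ n j ζ hζ (hj ζ hζK)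
  have hpos : 1 ≤ ℓ ^ j := Nat.one_le_pow _ _ hℓ.pos
  have hd : ((ℓ : 𝒪) ^ j) - 1 ∈ maximalIdeal 𝒪 ^ n := by
    obtain ⟨k, hk⟩ := hdvd
    have e : ((ℓ : 𝒪) ^ j) - 1 = ((ℓ ^ j - 1 : ℕ) : 𝒪) := by
      rw [Nat.cast_sub hpos, Nat.cast_pow, Nat.cast_one]
    rw [e, hk, Nat.cast_mul, Nat.cast_pow]
    exact Ideal.mul_mem_right _ _ (Ideal.pow_mem_pow hp n)
  refine ⟨t, (ℓ : 𝒪) ^ j, fun i k => h₁ t ht₁ i k, fun i k => h₂ t ht₂ i k, hd, ?_⟩
  -- membership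
  rw [hgt]
  have hsum := es_sum Lm hES hℓ hℓNq hℓp hℓS' A hA φ hφ
  have hsum' := es_sum Lm' hES' hℓ hℓN hℓp hℓS' A hA φ hφ
  have hT : (Lm.ρL φ + (ℓ : 𝒪) • Lm.ρL φ⁻¹, Lm'.ρL φ + (ℓ : 𝒪) • Lm'.ρL φ⁻¹)
      ∈ scalSub E w := by
    rw [hsum, hsum']
    exact ⟨a ℓ, fun v hv => hEig ℓ hℓ hℓNq hℓS' v hv, hEig' ℓ hℓ hℓN hℓNq hℓS'⟩
  have hl := lucas_mem (E := E) (w := w) (A := Lm.ρL φ) (B := (ℓ : 𝒪) • Lm.ρL φ⁻¹)
    (A' := Lm'.ρL φ) (B' := (ℓ : 𝒪) • Lm'.ρL φ⁻¹) (ℓ : 𝒪)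
    (by rw [Matrix.mul_smul, rep_mul_inv_h50]) (by rw [Matrix.smul_mul, rep_inv_mul_h50])
    (by rw [Matrix.mul_smul, rep_mul_inv_h50]) (by rw [Matrix.smul_mul, rep_inv_mul_h50]) hT j
  have e1 : Lm.ρL (φ ^ j) + (ℓ : 𝒪) ^ j • Lm.ρL (φ ^ j)⁻¹
      = Lm.ρL φ ^ j + ((ℓ : 𝒪) • Lm.ρL φ⁻¹) ^ j := by
    rw [map_pow, ← inv_pow, map_pow, smul_pow]
  have e2 : Lm'.ρL (φ ^ j) + (ℓ : 𝒪) ^ j • Lm'.ρL (φ ^ j)⁻¹
      = Lm'.ρL φ ^ j + ((ℓ : 𝒪) • Lm'.ρL φ⁻¹) ^ j := by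
    rw [map_pow, ← inv_pow, map_pow, smul_pow]
  rw [e1, e2]
  exact hl

end Main

end Fermat.Agent.L.Pivot.Geom.H50

end
end
-- ==== END Fermat.Agent.L.Pivot.Geom.H50_UnipNew

-- ==== BEGIN Fermat.Agent.L.Pivot.H50_StIAbs
section

/-!
# PIVOT, PV-OLD (helper50): the abstract relation `τ = Q` on inertia-fixed `q`-new classes

Setting of helper89's `st_abs` (`S : SSD K F k E E`, `τ` Frobenius-like of exponent `Q`, total conservation for the two degeneracy maps), and in addition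

* `I` a set of inertial automorphisms, `π` a uniformiser of the fixed field of `I`, an `I`-fixed
  annulus coordinate of thickness `π ^ e`, `e ≠ 0`, at every node;
* `φb` acts on `k` by `a ↦ a ^ q₀`, `q₀ > 1`, and fixes a non-constant function (FROB-FIN).

`stI_abs`: there is `c` such that for every `I`-fixed `q`-new function `f` with `p ^ m ∣ div f`

  `(τ f / f ^ Q) ^ (p ^ c)` is a `p ^ m`-th power.

Proof: the slopes of `f ^ (p ^ c₁)` vanish mod `p ^ m` (`exists_slope_bound`), so the two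
reductions define classes of `Pic⁰(E)[p ^ m]`, which are fixed by `φb²` by `q`-newness, hence
killed by `p ^ e` (FROB-FIN); so the reductions of `f ^ (p ^ (c₁ + e))` are `p ^ m`-th powers and
GLUE applies.
-/

set_option autoImplicit false
set_option linter.style.haveILetI false
set_option maxHeartbeats 1000000

noncomputable section

open AlgebraicCurve

attribute [local instance] Classical.propDecidable

namespace Fermat.Agent.L.Pivot.H50

open Fermat.Agent.RED.H17 Fermat.Agent.RED Fermat.Agent.BAD Fermat.Agent.S35.H89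

/-- **The abstract relation `τ = Q` on the inertia-fixed `q`-new classes.** -/
theorem stI_abs (hG : Stmt_GlueFrobGen) (hFF : Stmt_FrobFinExp)
    {K F k E : Type} [Field K] [Field F] [Algebra K F] [Field k] [Field E] [Algebra k E]
    [IsAlgClosed K] [IsAlgClosed k]
    (S : SSD K F k E E) (H : FFHyp K F) (HE : FFHyp k E)
    (g g₁ : ℕ) (c c₁ : ℤ) (hR : IsGenus K F g c) (hRE : IsGenus k E g₁ c₁)
    (hnum : g + 1 ≤ g₁ + g₁ + S.nodes.card)
    (τ : SemilinearAut K F) (φb : SemilinearAut k E) (τb : E →+* E)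
    (Q : ℕ) (hτ : S.IsFrobLike τ τb τb Q)
    (q₀ : ℕ) (hq₀ : 1 < q₀) (hφk : ∀ a : k, SemilinearAut.baseAut φb a = a ^ q₀)
    (hφx : ∃ x : E, x ∉ Set.range (algebraMap k E) ∧ φb • x = x)
    (ρ ρ' : Place K F → Place k E) (β : Place k E → Place k E)
    (htot : ∀ (u₁ : S.c₁.V) (u₂ : S.c₂.V), S.c₁.red u₁ ≠ 0 → S.c₂.red u₂ ≠ 0 →
      (∃ a : K, (u₂ : F) = algebraMap K F a * (u₁ : F)) →
      ∀ D : Divisor K F, (∀ P, D P = P.ord (u₁ : F)) → ∀ z : Place k E,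
        Finsupp.mapDomain ρ D z = z.ord (S.c₁.red u₁) + (β z).ord (S.c₂.red u₂))
    (htot' : ∀ (u₁ : S.c₁.V) (u₂ : S.c₂.V), S.c₁.red u₁ ≠ 0 → S.c₂.red u₂ ≠ 0 →
      (∃ a : K, (u₂ : F) = algebraMap K F a * (u₁ : F)) →
      ∀ D : Divisor K F, (∀ P, D P = P.ord (u₁ : F)) → ∀ z : Place k E,
        Finsupp.mapDomain ρ' D z = z.ord (S.c₂.red u₂) + (β z).ord (S.c₁.red u₁))
    (hβ : ∀ (z : Place k E) (ψ : E), (β z).ord ψ = z.ord (φb • ψ))
    (I : Set (SemilinearAut K F)) (hI : ∀ σ ∈ I, S.IsInertial σ)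
    (π : K) (hπ0 : π ≠ 0) (hπI : ∀ σ ∈ I, SemilinearAut.baseAut σ π = π)
    (hπ : ∀ m : ℤ, S.IsCU (π ^ m) → m = 0)
    (hunr : ∀ Y : K, Y ≠ 0 → (∀ σ ∈ I, SemilinearAut.baseAut σ Y = Y) →
      ∃ m : ℤ, S.IsCU (Y / π ^ m))
    (p : ℕ) (hp : p.Prime) (hpk : (p : k) ≠ 0)
    (hcoord : ∀ s ∈ S.nodes, ∃ (e : ℕ) (t : F), e ≠ 0 ∧ S.IsAnnCoord s t (π ^ e) ∧
      ∀ σ ∈ I, σ • t = t) :
    ∃ c' : ℕ, ∀ (m : ℕ) (f : F), f ≠ 0 →
      (∀ P : Place K F, ((p ^ m : ℕ) : ℤ) ∣ P.ord f) → (∀ σ ∈ I, σ • f = f) →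
      (∃ hα : E, hα ≠ 0 ∧ ∀ D : Divisor K F, (∀ P, D P = P.ord f) →
        ∀ z : Place k E, Finsupp.mapDomain ρ D z = ((p ^ m : ℕ) : ℤ) * z.ord hα) →
      (∃ hβ' : E, hβ' ≠ 0 ∧ ∀ D : Divisor K F, (∀ P, D P = P.ord f) →
        ∀ z : Place k E, Finsupp.mapDomain ρ' D z = ((p ^ m : ℕ) : ℤ) * z.ord hβ') →
      ∃ t : F, t ^ (p ^ m) = ((τ • f) / f ^ Q) ^ (p ^ c') := by
  -- the bound for the slopes
  obtain ⟨c₀, hc₀⟩ := exists_slope_bound S H.principal H.deg_one HE I hI π hπ0 hπI hπ hunr p hp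
    hcoord
  -- the FROB-FIN exponent
  have hΦk : ∀ a : k, SemilinearAut.baseAut (φb * φb) a = a ^ (q₀ * q₀) := by
    intro a
    rw [SemilinearAut.baseAut_mul, RingAut.mul_apply, hφk, hφk, ← pow_mul]
  have hΦx : ∃ x : E, x ∉ Set.range (algebraMap k E) ∧ (φb * φb) • x = x := by
    obtain ⟨x, hx, hfix⟩ := hφx
    exact ⟨x, hx, by rw [mul_smul, hfix, hfix]⟩
  have hQ1 : 1 < q₀ * q₀ := by nlinarith
  obtain ⟨e, he⟩ := hFF k E HE g₁ c₁ hRE (φb * φb) (q₀ * q₀) hQ1 hΦk hΦx p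
  refine ⟨c₀ + e, fun m f hf hdiv hfI hnewα hnewβ => ?_⟩
  set n : ℕ := p ^ m with hn
  have hn0 : n ≠ 0 := pow_ne_zero _ hp.ne_zero
  have hnk : (n : k) ≠ 0 := by
    rw [hn, Nat.cast_pow]
    exact pow_ne_zero _ hpk
  have hnZ : (n : ℤ) ≠ 0 := by exact_mod_cast hn0
  -- scaling of `f` for the two valuations
  obtain ⟨a₁, ha₁, hm₁, hψ₁⟩ := S.c₁.exists_scale f hf
  obtain ⟨a₂, ha₂, hm₂, hψ₂⟩ := S.c₂.exists_scale f hf
  set ψ₁ : E := S.c₁.red ⟨_, hm₁⟩ with hψ₁def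
  set ψ₂ : E := S.c₂.red ⟨_, hm₂⟩ with hψ₂def
  have hA₁ : algebraMap K F a₁ ≠ 0 := fun h0 => ha₁ ((map_eq_zero (algebraMap K F)).mp h0)
  have hA₂ : algebraMap K F a₂ ≠ 0 := fun h0 => ha₂ ((map_eq_zero (algebraMap K F)).mp h0)
  have hGU₁ : S.c₁.IsGU (algebraMap K F a₁ * f) := ⟨hm₁, by rw [S.c₁.rd_of_mem hm₁]; exact hψ₁⟩
  have hGU₂ : S.c₂.IsGU (algebraMap K F a₂ * f) := ⟨hm₂, by rw [S.c₂.rd_of_mem hm₂]; exact hψ₂⟩
  have hrd₁ : S.c₁.rd (algebraMap K F a₁ * f) = ψ₁ := S.c₁.rd_of_mem hm₁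
  have hrd₂ : S.c₂.rd (algebraMap K F a₂ * f) = ψ₂ := S.c₂.rd_of_mem hm₂
  have hrel : ∃ a : K, algebraMap K F a₂ * f = algebraMap K F a * (algebraMap K F a₁ * f) := by
    refine ⟨a₂ / a₁, ?_⟩
    rw [map_div₀]
    field_simp
  have hordu : ∀ P : Place K F, P.ord (algebraMap K F a₁ * f) = P.ord f := by
    intro P
    rw [P.ord_mul hA₁ hf, ord_algebraMap, zero_add]
  -- the slopes of `f ^ (p ^ c₀)`
  have hslope := hc₀ m f a₁ a₂ hGU₁ hGU₂ hfI hdiv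
  set N₀ : ℕ := p ^ c₀ with hN₀
  have hGU₁' : S.c₁.IsGU ((algebraMap K F a₁ * f) ^ N₀) := hGU₁.pow N₀
  have hGU₂' : S.c₂.IsGU ((algebraMap K F a₂ * f) ^ N₀) := hGU₂.pow N₀
  have hrd₁' : S.c₁.rd ((algebraMap K F a₁ * f) ^ N₀) = ψ₁ ^ N₀ := by
    rw [S.c₁.rd_pow hm₁, hrd₁]
  have hrd₂' : S.c₂.rd ((algebraMap K F a₂ * f) ^ N₀) = ψ₂ ^ N₀ := by
    rw [S.c₂.rd_pow hm₂, hrd₂]
  have hdiv' : ∀ P : Place K F, (n : ℤ) ∣ P.ord ((algebraMap K F a₁ * f) ^ N₀) := by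
    intro P
    rw [ord_pow, hordu]
    exact Dvd.dvd.mul_left (hdiv P) _
  have hslope' : ∀ s ∈ S.nodes, (n : ℤ) ∣ s.1.ord (S.c₁.rd ((algebraMap K F a₁ * f) ^ N₀)) := by
    intro s hs
    rw [hrd₁', ord_pow, ← hrd₁]
    exact hslope s hs
  have hrel' : ∃ a : K, (algebraMap K F a₂ * f) ^ N₀
      = algebraMap K F a * (algebraMap K F a₁ * f) ^ N₀ := by
    obtain ⟨a, ha⟩ := hrel
    exact ⟨a ^ N₀, by rw [ha, mul_pow, map_pow]⟩
  have hd₁ : ∀ z : Place k E, (n : ℤ) ∣ z.ord (ψ₁ ^ N₀) := by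
    intro z
    rw [← hrd₁']
    exact S.dvd_ord_rd₁ H.principal hGU₁' hdiv' hslope' z
  have hd₂ : ∀ z : Place k E, (n : ℤ) ∣ z.ord (ψ₂ ^ N₀) := by
    intro z
    rw [← hrd₂']
    exact dvd_ord_rd₂_of_slopes S H.principal hGU₁' hGU₂' hrel' hdiv' hslope' z
  -- the two norm relations (as in `st_abs`)
  obtain ⟨hα, hα0, hαD⟩ := hnewα
  obtain ⟨hβ', hβ0, hβD⟩ := hnewβ
  have hφψ₁ : φb • ψ₁ ≠ 0 := smul_ne_zero_of_ne_zero φb hψ₁
  have hφψ₂ : φb • ψ₂ ≠ 0 := smul_ne_zero_of_ne_zero φb hψ₂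
  have hN₁ : ∀ z : Place k E, z.ord (ψ₁ * (φb • ψ₂) / hα ^ n) = 0 := by
    intro z
    have h1 := htot ⟨_, hm₁⟩ ⟨_, hm₂⟩ hψ₁ hψ₂ hrel (dv H.principal f)
      (fun P => by rw [dv_apply]; exact (hordu P).symm) z
    have h2 := hαD (dv H.principal f) (fun P => dv_apply H.principal f P) z
    rw [h2, hβ] at h1
    rw [ord_div z (mul_ne_zero hψ₁ hφψ₂) (pow_ne_zero _ hα0), z.ord_mul hψ₁ hφψ₂, ord_pow]
    change (n : ℤ) * z.ord hα = z.ord ψ₁ + z.ord (φb • ψ₂) at h1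
    omega
  have hN₂ : ∀ z : Place k E, z.ord (ψ₂ * (φb • ψ₁) / hβ' ^ n) = 0 := by
    intro z
    have h1 := htot' ⟨_, hm₁⟩ ⟨_, hm₂⟩ hψ₁ hψ₂ hrel (dv H.principal f)
      (fun P => by rw [dv_apply]; exact (hordu P).symm) z
    have h2 := hβD (dv H.principal f) (fun P => dv_apply H.principal f P) z
    rw [h2, hβ] at h1
    rw [ord_div z (mul_ne_zero hψ₂ hφψ₁) (pow_ne_zero _ hβ0), z.ord_mul hψ₂ hφψ₁, ord_pow]
    change (n : ℤ) * z.ord hβ' = z.ord ψ₂ + z.ord (φb • ψ₁) at h1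
    omega
  obtain ⟨b₁, hb₁0, hb₁⟩ := const_of_ord_eq_zero HE
    (div_ne_zero (mul_ne_zero hψ₁ hφψ₂) (pow_ne_zero _ hα0)) hN₁
  obtain ⟨b₂, hb₂0, hb₂⟩ := const_of_ord_eq_zero HE
    (div_ne_zero (mul_ne_zero hψ₂ hφψ₁) (pow_ne_zero _ hβ0)) hN₂
  have e₁ : ψ₁ * (φb • ψ₂) = algebraMap k E b₁ * hα ^ n := by
    rw [← hb₁]
    field_simp
  have e₂ : ψ₂ * (φb • ψ₁) = algebraMap k E b₂ * hβ' ^ n := by
    rw [← hb₂]
    field_simp
  -- the relations for the `N₀`-th powers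
  have e₁' : ψ₁ ^ N₀ * (φb • ψ₂ ^ N₀) = algebraMap k E (b₁ ^ N₀) * (hα ^ N₀) ^ n := by
    rw [smul_pow', ← mul_pow, e₁, mul_pow, map_pow, ← pow_mul, ← pow_mul, mul_comm n N₀]
  have e₂' : ψ₂ ^ N₀ * (φb • ψ₁ ^ N₀) = algebraMap k E (b₂ ^ N₀) * (hβ' ^ N₀) ^ n := by
    rw [smul_pow', ← mul_pow, e₂, mul_pow, map_pow, ← pow_mul, ← pow_mul, mul_comm n N₀]
  -- FROB-FIN
  obtain ⟨⟨w₁, hw₁0, hw₁⟩, ⟨w₂, hw₂0, hw₂⟩⟩ := pow_eq_pow_of_frob HE φb p e he m hn0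
    (pow_ne_zero N₀ hψ₁) (pow_ne_zero N₀ hψ₂) (pow_ne_zero N₀ hα0) (pow_ne_zero N₀ hβ0)
    (pow_ne_zero N₀ hb₁0) (pow_ne_zero N₀ hb₂0) hd₁ hd₂ e₁' e₂'
  -- GLUE for `f ^ (p ^ (c₀ + e))`
  set N : ℕ := p ^ (c₀ + e) with hN
  have hNeq : N = N₀ * p ^ e := by rw [hN, hN₀, pow_add]
  have hmem₁ : algebraMap K F (a₁ ^ N) * f ^ N ∈ S.c₁.V := by
    rw [map_pow, ← mul_pow]
    exact S.c₁.V.pow_mem hm₁ N
  have hmem₂ : algebraMap K F (a₂ ^ N) * f ^ N ∈ S.c₂.V := by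
    rw [map_pow, ← mul_pow]
    exact S.c₂.V.pow_mem hm₂ N
  have hr₁ : S.c₁.rd (algebraMap K F (a₁ ^ N) * f ^ N) = w₁ ^ n := by
    rw [map_pow, ← mul_pow, S.c₁.rd_pow hm₁, hrd₁, hNeq, pow_mul, hw₁]
  have hr₂ : S.c₂.rd (algebraMap K F (a₂ ^ N) * f ^ N) = w₂ ^ n := by
    rw [map_pow, ← mul_pow, S.c₂.rd_pow hm₂, hrd₂, hNeq, pow_mul, hw₂]
  have hdivN : ∀ P : Place K F, (n : ℤ) ∣ P.ord (f ^ N) := by
    intro P
    rw [ord_pow]
    exact Dvd.dvd.mul_left (hdiv P) _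
  obtain ⟨t, ht⟩ := hG K F k E E S H HE HE g g₁ g₁ c c₁ c₁ hR hRE hRE hnum n hnk τ τb τb Q hτ
    (f ^ N) (a₁ ^ N) (a₂ ^ N) w₁ w₂ hw₁0 hw₂0 hmem₁ hr₁ hmem₂ hr₂ hdivN
  refine ⟨t, ?_⟩
  rw [ht, smul_pow', div_pow, ← pow_mul, ← pow_mul, mul_comm Q N]

end Fermat.Agent.L.Pivot.H50

end
end
-- ==== END Fermat.Agent.L.Pivot.H50_StIAbs

-- ==== BEGIN Fermat.Agent.L.Pivot.H52_TPAniso
section

set_option autoImplicit false
set_option linter.style.haveILetI false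
set_option linter.unusedSectionVars false

namespace Fermat.Agent.L.Pivot.H52

open IsLocalRing

/-! ### Evaluation and translation in one variable -/

section Transl

variable {B : Type} [CommRing B]

/-- Evaluation of one-variable power series at an element of the maximal ideal of a complete
local ring. -/
theorem exists_eval_ps {R : Type} [CommRing R] [IsLocalRing R] [Algebra B R]
    [IsAdicComplete (maximalIdeal R) R] (x : R) (hx : x ∈ maximalIdeal R) :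
    ∃ γ : PowerSeries B →ₐ[B] R, γ PowerSeries.X = x := by
  obtain ⟨γ, hγ⟩ := Fermat.Agent.S56.H50.exists_eval (𝒪 := B) (R := R) 1 (fun _ => x)
    (fun _ => hx)
  let e : Unit ≃ Fin 1 := Equiv.ofUnique Unit (Fin 1)
  refine ⟨γ.comp (MvPowerSeries.rename (R := B) (⇑e)), ?_⟩
  have h1 : (PowerSeries.X : PowerSeries B) = MvPowerSeries.X () := rfl
  rw [h1, AlgHom.comp_apply, MvPowerSeries.rename_X]
  exact hγ _

variable [IsLocalRing B] [IsNoetherianRing B] [IsAdicComplete (maximalIdeal B) B]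

theorem X_add_C_mem_maximalIdeal {c : B} (hc : c ∈ maximalIdeal B) :
    (PowerSeries.X + PowerSeries.C c : PowerSeries B) ∈ maximalIdeal (PowerSeries B) := by
  rw [mem_maximalIdeal, mem_nonunits_iff, PowerSeries.isUnit_iff_constantCoeff]
  simpa using hc

/-- The translation `X ↦ X + c` (`c ∈ 𝔪`) of `B⟦X⟧` is an injective `B`-algebra endomorphism. -/
theorem exists_transl {c : B} (hc : c ∈ maximalIdeal B) :
    ∃ T : PowerSeries B →+* PowerSeries B,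
      T PowerSeries.X = PowerSeries.X + PowerSeries.C c ∧ (∀ b : B, T (PowerSeries.C b) =
        PowerSeries.C b) ∧ Function.Injective T := by
  haveI : IsAdicComplete (maximalIdeal (PowerSeries B)) (PowerSeries B) :=
    Fermat.Agent.S53.Limit.isAdicComplete_powerSeries B
  obtain ⟨T, hT⟩ := exists_eval_ps (B := B) (R := PowerSeries B) _ (X_add_C_mem_maximalIdeal hc)
  have hc' : -c ∈ maximalIdeal B := neg_mem hc
  obtain ⟨T', hT'⟩ := exists_eval_ps (B := B) (R := PowerSeries B) _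
    (X_add_C_mem_maximalIdeal hc')
  have hC : ∀ b : B, T' (PowerSeries.C b) = PowerSeries.C b := by
    intro b
    have h1 : (PowerSeries.C b : PowerSeries B) = algebraMap B _ b := rfl
    rw [h1, AlgHom.commutes]
  have hC0 : ∀ b : B, T (PowerSeries.C b) = PowerSeries.C b := by
    intro b
    have h1 : (PowerSeries.C b : PowerSeries B) = algebraMap B _ b := rfl
    rw [h1, AlgHom.commutes]
  refine ⟨T.toRingHom, hT, hC0, ?_⟩
  have hX0 : (PowerSeries.X : PowerSeries B) ∈ maximalIdeal (PowerSeries B) := by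
    have := X_add_C_mem_maximalIdeal (B := B) (c := 0) (Ideal.zero_mem _)
    simpa using this
  have hcomp : T'.comp T = AlgHom.id B (PowerSeries B) := by
    refine algHom_ext_of_X' (σ := Unit) (𝒪 := B) (E := PowerSeries B)
      (maximalIdeal (PowerSeries B)) (T'.comp T) (AlgHom.id B (PowerSeries B)) ?_ ?_
    · intro i
      have h1 : (MvPowerSeries.X i : MvPowerSeries Unit B) = (PowerSeries.X : PowerSeries B) := rfl
      rw [h1]
      simp only [AlgHom.comp_apply, hT, map_add, hT', hC, AlgHom.id_apply, map_neg]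
      ring
    · intro i
      exact hX0
  intro a b hab
  have hab' : T a = T b := hab
  have := congrArg T' hab'
  have h2 : ∀ x, T' (T x) = x := fun x => by
    have := congrArg (fun φ : PowerSeries B →ₐ[B] PowerSeries B => φ x) hcomp
    simpa using this
  rwa [h2, h2] at this

end Transl

/-! ### Anisotropic elements -/

section Aniso

/-- `u` is *anisotropic*: it is not a square in the fraction field. -/
def Aniso {B : Type*} [CommRing B] (u : B) : Prop := ∀ p q : B, p ^ 2 = q ^ 2 * u → q = 0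

theorem Aniso.ne_zero {B : Type*} [CommRing B] [Nontrivial B] {u : B} (h : Aniso u) : u ≠ 0 := by
  rintro rfl
  exact one_ne_zero (h 0 1 (by simp))

theorem Aniso.of_injective {B B' : Type*} [CommRing B] [CommRing B'] (T : B →+* B')
    (hT : Function.Injective T) {u : B} (h : Aniso (T u)) : Aniso u := by
  intro p q hpq
  have := h (T p) (T q) (by rw [← map_pow, ← map_pow, ← map_mul, hpq])
  exact hT (by rw [this, map_zero])

variable {B : Type*} [CommRing B] [IsDomain B]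

theorem aniso_C_mul_X {c : B} (hc : c ≠ 0) :
    Aniso (PowerSeries.C c * PowerSeries.X : PowerSeries B) := by
  intro p q hpq
  by_contra hq
  have hu : (PowerSeries.C c * PowerSeries.X : PowerSeries B) ≠ 0 := by
    intro h
    have := congrArg (PowerSeries.coeff 1) h
    simp at this
    exact hc this
  have hp : p ≠ 0 := by
    rintro rfl
    have : q ^ 2 * (PowerSeries.C c * PowerSeries.X : PowerSeries B) = 0 := by
      rw [← hpq]; simp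
    rcases mul_eq_zero.1 this with h | h
    · exact hq (pow_eq_zero_iff (two_ne_zero) |>.1 h)
    · exact hu h
  have h1 := congrArg PowerSeries.order hpq
  rw [PowerSeries.order_mul, PowerSeries.order_pow, PowerSeries.order_pow, PowerSeries.order_mul,
    PowerSeries.order_X] at h1
  have hCc : (PowerSeries.C c : PowerSeries B).order = 0 := by
    rw [← PowerSeries.monomial_zero_eq_C_apply, PowerSeries.order_monomial_of_ne_zero _ _ hc]
    rfl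
  rw [hCc, zero_add] at h1
  rw [← PowerSeries.coe_toNat_order hp, ← PowerSeries.coe_toNat_order hq] at h1
  have h2 : (2 * p.order.toNat : ℕ) = 2 * q.order.toNat + 1 := by
    have : ((2 * p.order.toNat : ℕ) : ℕ∞) = ((2 * q.order.toNat + 1 : ℕ) : ℕ∞) := by
      push_cast
      simpa [two_nsmul, two_mul] using h1
    exact_mod_cast this
  omega

theorem aniso_of_constantCoeff {u : PowerSeries B} (h : Aniso (PowerSeries.constantCoeff u)) :
    Aniso u := by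
  intro p q hpq
  have h0 : PowerSeries.constantCoeff u ≠ 0 := h.ne_zero
  have hord : u.order = 0 := by
    have := PowerSeries.order_le (φ := u) 0 (by simpa using h0)
    simpa using this
  have h1 := congrArg PowerSeries.divXPowOrder hpq
  rw [PowerSeries.divXPowOrder_mul, PowerSeries.divXPowOrder_pow,
    PowerSeries.divXPowOrder_pow] at h1
  have h2 := congrArg PowerSeries.constantCoeff h1
  rw [map_mul, map_pow, map_pow] at h2
  have h3 : PowerSeries.constantCoeff (PowerSeries.divXPowOrder u) =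
      PowerSeries.constantCoeff u := by
    rw [PowerSeries.constantCoeff_divXPowOrder, hord]
    simp
  rw [h3] at h2
  have h4 := h _ _ h2
  exact PowerSeries.constantCoeff_divXPowOrder_eq_zero_iff.1 h4

end Aniso

/-! ### The discriminant `δ² − 4yz` -/

section Disc

variable {A : Type} [CommRing A] [IsDomain A] [IsLocalRing A] [IsNoetherianRing A]
  [IsAdicComplete (maximalIdeal A) A]

/-- **ANISO**: for `δ ∈ 𝔪_A ∖ 0` and `2` a unit, `δ² − 4yz` is anisotropic in `A⟦y⟧⟦z⟧`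
(`y = C X` the inner variable, `z = X` the outer one). -/
theorem aniso_disc (hu : IsUnit (2 : A)) {δ : A} (hδ0 : δ ≠ 0) (hδm : δ ∈ maximalIdeal A) :
    Aniso (PowerSeries.C (PowerSeries.C (δ ^ 2)) -
      4 * PowerSeries.C (PowerSeries.X : PowerSeries A) * PowerSeries.X :
      PowerSeries (PowerSeries A)) := by
  obtain ⟨h2, hh2⟩ := hu.exists_right_inv
  -- `ε = δ / 2`
  set ε : A := δ * h2 with hε
  have hε2 : 2 * ε = δ := by rw [hε]; linear_combination δ * hh2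
  have hεm : ε ∈ maximalIdeal A := Ideal.mul_mem_right _ _ hδm
  haveI : IsAdicComplete (maximalIdeal (PowerSeries A)) (PowerSeries A) :=
    Fermat.Agent.S53.Limit.isAdicComplete_powerSeries A
  have hεm' : (PowerSeries.C ε : PowerSeries A) ∈ maximalIdeal (PowerSeries A) := by
    rw [mem_maximalIdeal, mem_nonunits_iff, PowerSeries.isUnit_iff_constantCoeff]
    simpa using hεm
  obtain ⟨Tz, hTz, hTzC, hTzi⟩ := exists_transl (B := PowerSeries A) hεm'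
  obtain ⟨Ty, hTy, hTyC, hTyi⟩ := exists_transl (B := A) hεm
  refine Aniso.of_injective Tz hTzi ?_
  apply aniso_of_constantCoeff
  have h4 : Tz (4 : PowerSeries (PowerSeries A)) = 4 := map_ofNat _ 4
  have hcc : PowerSeries.constantCoeff (Tz (PowerSeries.C (PowerSeries.C (δ ^ 2)) -
      4 * PowerSeries.C (PowerSeries.X : PowerSeries A) * PowerSeries.X)) =
      PowerSeries.C (δ ^ 2) - 4 * PowerSeries.X * PowerSeries.C ε := by
    simp only [map_sub, map_mul, hTzC, hTz, h4, map_add,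
      PowerSeries.constantCoeff_C, PowerSeries.constantCoeff_X, zero_add]
    have : PowerSeries.constantCoeff (4 : PowerSeries (PowerSeries A)) = 4 := map_ofNat _ 4
    rw [this]
  rw [hcc]
  refine Aniso.of_injective Ty hTyi ?_
  have h4' : Ty (4 : PowerSeries A) = 4 := map_ofNat _ 4
  have hval : Ty (PowerSeries.C (δ ^ 2) - 4 * PowerSeries.X * PowerSeries.C ε) =
      PowerSeries.C (-(2 * δ)) * PowerSeries.X := by
    simp only [map_sub, map_mul, hTyC, hTy, h4']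
    have e1 : (PowerSeries.C (δ ^ 2) : PowerSeries A) =
        4 * PowerSeries.C ε * PowerSeries.C ε := by
      have : δ ^ 2 = 4 * ε * ε := by rw [← hε2]; ring
      rw [this, map_mul, map_mul]
      congr 2
    have e2 : (PowerSeries.C (-(2 * δ)) : PowerSeries A) = -(4 * PowerSeries.C ε) := by
      have : -(2 * δ) = -(4 * ε) := by rw [← hε2]; ring
      rw [this, map_neg, map_mul]
      congr 2
    rw [e1, e2]
    ring
  rw [hval]
  apply aniso_C_mul_X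
  intro h
  have h5 : 2 * δ = 0 := by simpa using h
  rcases mul_eq_zero.1 h5 with h6 | h6
  · exact hu.ne_zero h6
  · exact hδ0 h6

end Disc

end Fermat.Agent.L.Pivot.H52

end
-- ==== END Fermat.Agent.L.Pivot.H52_TPAniso

-- ==== BEGIN Fermat.Agent.L.Pivot.H59_TameDict
section

/-!
# PIVOT, package PV-TAME (helper59), part T3: the dictionary matrices ↔ points of `P`

A point `θ : P → D` has COORDINATES `(Σ_j, Φ_j)` (with signs `ε_j`) if it sends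
`y, z, m` to the traceless part of `Σ_j` and `v, w, s` to `ε_j` times the traceless part of `Φ_j`.
Then
* `θ Q1 = (tr Σ)² − 4 det Σ`, `θ Q2 = (tr Φ)² − 4 det Φ`, and the minors are the entries of the
  commutator: `isTypePoint_of_coord`;
* unipotent points kill `idealUnip`: `idealUnip_le_ker_of_coord`;
* with `tame_types`: `exists_type_of_tame`.
-/

set_option autoImplicit false
set_option linter.style.haveILetI false

namespace Fermat.Agent.L.Pivot.H59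

open MvPowerSeries IsLocalRing Matrix

variable {𝒪 : Type} [CommRing 𝒪] {k : ℕ} {g : ℕ} {D : Type} [CommRing D] [Algebra 𝒪 D]

/-- The point `θ` of `P` has the coordinates `(Σ, Φ)` at the `j`-th pivot prime (sign `ε`). -/
structure IsCoordOf (θ : PRing 𝒪 k g →ₐ[𝒪] D) (j : Fin k) (ε : D)
    (Sg Ph : Matrix (Fin 2) (Fin 2) D) : Prop where
  hy : θ (cy 𝒪 g j) = Sg 0 1
  hz : θ (cz 𝒪 g j) = Sg 1 0
  hm : θ (cm 𝒪 g j) = Sg 0 0 - Sg 1 1
  hv : θ (cv 𝒪 g j) = ε * Ph 0 1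
  hw : θ (cw 𝒪 g j) = ε * Ph 1 0
  hs : θ (cs 𝒪 g j) = ε * (Ph 0 0 - Ph 1 1)

namespace IsCoordOf

variable {θ : PRing 𝒪 k g →ₐ[𝒪] D} {j : Fin k} {ε : D} {Sg Ph : Matrix (Fin 2) (Fin 2) D}

theorem map_Q1 (h : IsCoordOf θ j ε Sg Ph) :
    θ (Q1 𝒪 g j) = Sg.trace ^ 2 - 4 * Sg.det := by
  have h4 : θ (4 : PRing 𝒪 k g) = 4 := map_ofNat _ 4
  rw [Q1, map_add, map_mul, map_mul, map_pow, h4, h.hy, h.hz, h.hm, Matrix.trace_fin_two,
    Matrix.det_fin_two]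
  ring

theorem map_Q2 (h : IsCoordOf θ j ε Sg Ph) (hε : ε ^ 2 = 1) :
    θ (Q2 𝒪 g j) = Ph.trace ^ 2 - 4 * Ph.det := by
  have h4 : θ (4 : PRing 𝒪 k g) = 4 := map_ofNat _ 4
  rw [Q2, map_add, map_mul, map_mul, map_pow, h4, h.hv, h.hw, h.hs, Matrix.trace_fin_two,
    Matrix.det_fin_two]
  linear_combination ((Ph 0 0 - Ph 1 1) ^ 2 + 4 * Ph 0 1 * Ph 1 0) * hε

theorem map_minor1 (h : IsCoordOf θ j ε Sg Ph) (hc : Sg * Ph = Ph * Sg) :
    θ (minor1 𝒪 g j) = 0 := by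
  have h00 := congrFun (congrFun hc 0) 0
  rw [Matrix.mul_apply, Matrix.mul_apply, Fin.sum_univ_two, Fin.sum_univ_two] at h00
  rw [minor1, map_sub, map_mul, map_mul, h.hy, h.hz, h.hv, h.hw]
  linear_combination ε * h00

theorem map_minor2 (h : IsCoordOf θ j ε Sg Ph) (hc : Sg * Ph = Ph * Sg) :
    θ (minor2 𝒪 g j) = 0 := by
  have h01 := congrFun (congrFun hc 0) 1
  rw [Matrix.mul_apply, Matrix.mul_apply, Fin.sum_univ_two, Fin.sum_univ_two] at h01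
  rw [minor2, map_sub, map_mul, map_mul, h.hy, h.hm, h.hv, h.hs]
  linear_combination (-ε) * h01

theorem map_minor3 (h : IsCoordOf θ j ε Sg Ph) (hc : Sg * Ph = Ph * Sg) :
    θ (minor3 𝒪 g j) = 0 := by
  have h10 := congrFun (congrFun hc 1) 0
  rw [Matrix.mul_apply, Matrix.mul_apply, Fin.sum_univ_two, Fin.sum_univ_two] at h10
  rw [minor3, map_sub, map_mul, map_mul, h.hz, h.hm, h.hw, h.hs]
  linear_combination ε * h10

theorem map_sigmaCoord_eq_zero (h : IsCoordOf θ j ε Sg Ph) (e : D)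
    (he : e • (Sg - 1) = 0) (c : Fin 3) :
    e * θ (sigmaCoord 𝒪 g (j, c)) = 0 := by
  have h00 := congrFun (congrFun he 0) 0
  have h01 := congrFun (congrFun he 0) 1
  have h10 := congrFun (congrFun he 1) 0
  have h11 := congrFun (congrFun he 1) 1
  simp only [Matrix.smul_apply, Matrix.sub_apply, smul_eq_mul, Matrix.zero_apply,
    Matrix.one_apply_eq, Matrix.one_apply_ne, ne_eq, zero_ne_one, one_ne_zero,
    not_false_eq_true, sub_zero, Fin.isValue] at h00 h01 h10 h11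
  fin_cases c
  · have e1 : sigmaCoord 𝒪 g (j, (0 : Fin 3)) = cy 𝒪 g j := rfl
    show e * θ (sigmaCoord 𝒪 g (j, (0 : Fin 3))) = 0
    rw [e1, h.hy]
    exact h01
  · have e1 : sigmaCoord 𝒪 g (j, (1 : Fin 3)) = cz 𝒪 g j := rfl
    show e * θ (sigmaCoord 𝒪 g (j, (1 : Fin 3))) = 0
    rw [e1, h.hz]
    exact h10
  · have e1 : sigmaCoord 𝒪 g (j, (2 : Fin 3)) = cm 𝒪 g j := rfl
    show e * θ (sigmaCoord 𝒪 g (j, (2 : Fin 3))) = 0
    rw [e1, h.hm]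
    linear_combination h00 - h11

end IsCoordOf

/-- **Dictionary, ramified types.**  A point whose coordinates `(Σ_j, Φ_j)` commute, with
`det Σ_j = 1` and `(tr Σ_j)² − 4 = δ_j²`, is a point of type `δ`. -/
theorem isTypePoint_of_coord (δ : Fin k → 𝒪) (θ : PRing 𝒪 k g →ₐ[𝒪] D) (ε : Fin k → D)
    (Sg Ph : Fin k → Matrix (Fin 2) (Fin 2) D)
    (hc : ∀ j, IsCoordOf θ j (ε j) (Sg j) (Ph j)) (hdet : ∀ j, (Sg j).det = 1)
    (htr : ∀ j, (Sg j).trace ^ 2 - 4 = algebraMap 𝒪 D (δ j ^ 2))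
    (hcomm : ∀ j, Sg j * Ph j = Ph j * Sg j) : IsTypePoint g δ θ := by
  intro j
  refine ⟨?_, (hc j).map_minor1 (hcomm j), (hc j).map_minor2 (hcomm j),
    (hc j).map_minor3 (hcomm j)⟩
  rw [(hc j).map_Q1, hdet j, mul_one, htr j]

/-- **Dictionary, unipotent type.**  A point whose coordinates are of unipotent type
(`(Σ − 1)² = 0`, `tr Σ = 2`, `Φ (Σ − 1) = q (Σ − 1) Φ`, `det Φ = q`) kills `idealUnip`. -/
theorem idealUnip_le_ker_of_coord [IsDomain D] (q₀ : Fin k → 𝒪) (θ : PRing 𝒪 k g →ₐ[𝒪] D)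
    (ε : Fin k → D) (Sg Ph : Fin k → Matrix (Fin 2) (Fin 2) D)
    (hc : ∀ j, IsCoordOf θ j (ε j) (Sg j) (Ph j)) (hε : ∀ j, ε j ^ 2 = 1)
    (hdetPh : ∀ j, (Ph j).det = algebraMap 𝒪 D (q₀ j))
    (hsq : ∀ j, (Sg j - 1) * (Sg j - 1) = 0) (htr : ∀ j, (Sg j).trace = 2)
    (hrel : ∀ j, Ph j * (Sg j - 1) = algebraMap 𝒪 D (q₀ j) • ((Sg j - 1) * Ph j)) :
    idealUnip g q₀ ≤ RingHom.ker (θ : PRing 𝒪 k g →+* D) := by
  rw [idealUnip, Ideal.span_le]
  rintro _ ⟨x, rfl⟩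
  obtain ⟨j, c⟩ := x
  rw [SetLike.mem_coe, RingHom.mem_ker]
  show θ (eElt g q₀ j * sigmaCoord 𝒪 g (j, c)) = 0
  rw [map_mul]
  have hmat := H52.stmt_PVLoc_mat D (algebraMap 𝒪 D (q₀ j)) (Sg j) (Ph j) (hsq j) (htr j)
    (hrel j)
  have hC : ∀ a : 𝒪, θ (C a : PRing 𝒪 k g) = algebraMap 𝒪 D a := by
    intro a
    have h2 : (C a : PRing 𝒪 k g) = algebraMap 𝒪 _ a := rfl
    rw [h2, AlgHom.commutes]
  have he : θ (eElt g q₀ j) = algebraMap 𝒪 D (q₀ j) * (Ph j).trace ^ 2 -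
      (algebraMap 𝒪 D (q₀ j) + 1) ^ 2 * (Ph j).det := by
    rw [eElt, map_mul, map_sub, hC, hC, (hc j).map_Q2 (hε j), hdetPh j, map_pow, map_sub,
      map_one]
    ring
  rw [he]
  exact (hc j).map_sigmaCoord_eq_zero _ hmat c

/-- **PV-TAME, final form.**  `D` a noetherian local domain over `𝒪` with `p ∈ 𝔪_D`; at every
pivot prime `q_j = 1 + p ^ n_j m'_j` (`p ∤ m'_j`, `n_j ≥ 1`) let `ζ₀_j ∈ 𝒪` be a primitive
`p ^ n_j`-th root of unity.  If the point `θ` of `P` has coordinates `(Σ_j, Φ_j)` with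
`det Σ_j = 1`, `Σ_j ≡ 1 mod 𝔪_D`, `Φ_j` invertible, `Φ_j Σ_j = Σ_j ^ q_j Φ_j`, then there are
exponents `i_j < p ^ n_j` with `tr Σ_j = ζ_j + ζ_j⁻¹`, `ζ_j = ζ₀_j ^ i_j`; if all `i_j ≠ 0` then
`θ` is a point of type `δ_j = ζ_j − ζ_j⁻¹`; if `i_j = 0` then `Σ_j` is unipotent with
`Φ_j (Σ_j − 1) = q_j (Σ_j − 1) Φ_j`. -/
theorem exists_type_of_tame [IsDomain D] [IsLocalRing D] [IsNoetherianRing D]
    (hinj : Function.Injective (algebraMap 𝒪 D))
    (p : ℕ) (hp : p.Prime) (hp2 : p ≠ 2) (hpD : (p : D) ∈ maximalIdeal D)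
    (q n m' : Fin k → ℕ) (hn : ∀ j, n j ≠ 0) (hq : ∀ j, q j = 1 + p ^ n j * m' j)
    (hm' : ∀ j, ¬ p ∣ m' j) (ζ₀ : Fin k → 𝒪) (hζ₀ : ∀ j, IsPrimitiveRoot (ζ₀ j) (p ^ n j))
    (θ : PRing 𝒪 k g →ₐ[𝒪] D) (ε : Fin k → D)
    (Sg Ph Ph' : Fin k → Matrix (Fin 2) (Fin 2) D)
    (hc : ∀ j, IsCoordOf θ j (ε j) (Sg j) (Ph j)) (hdet : ∀ j, (Sg j).det = 1)
    (hSg : ∀ j, ∀ a b, (Sg j - 1) a b ∈ maximalIdeal D)
    (hPh : ∀ j, Ph j * Ph' j = 1) (hrel : ∀ j, Ph j * Sg j = Sg j ^ q j * Ph j) :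
    ∃ i : Fin k → ℕ, (∀ j, i j < p ^ n j) ∧
      (∀ j, (Sg j).trace = algebraMap 𝒪 D (ζ₀ j ^ i j + ζ₀ j ^ (p ^ n j - i j))) ∧
      ((∀ j, i j ≠ 0) →
        IsTypePoint g (fun j => ζ₀ j ^ i j - ζ₀ j ^ (p ^ n j - i j)) θ) ∧
      (∀ j, i j = 0 → (Sg j - 1) * (Sg j - 1) = 0 ∧ (Sg j).trace = 2 ∧
        Ph j * (Sg j - 1) = (q j : D) • ((Sg j - 1) * Ph j)) := by
  classical
  have key : ∀ j, ∃ i < p ^ n j,
      (Sg j).trace = algebraMap 𝒪 D (ζ₀ j) ^ i + algebraMap 𝒪 D (ζ₀ j) ^ (p ^ n j - i) ∧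
      (i ≠ 0 → Sg j * Ph j = Ph j * Sg j) ∧
      (i = 0 → (Sg j - 1) * (Sg j - 1) = 0 ∧
        Ph j * (Sg j - 1) = (q j : D) • ((Sg j - 1) * Ph j)) := fun j =>
    tame_types p (q j) (n j) (m' j) hp hp2 hpD (hn j) (hq j) (hm' j) (algebraMap 𝒪 D (ζ₀ j))
      ((hζ₀ j).map_of_injective hinj) (Sg j) (Ph j) (Ph' j) (hdet j) (hSg j) (hPh j) (hrel j)
  choose i hi htr hram hunip using key
  have htr' : ∀ j, (Sg j).trace = algebraMap 𝒪 D (ζ₀ j ^ i j + ζ₀ j ^ (p ^ n j - i j)) := by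
    intro j
    rw [htr j, map_add, map_pow, map_pow]
  refine ⟨i, hi, htr', fun hi0 => ?_, fun j hj => ?_⟩
  · refine isTypePoint_of_coord _ θ ε Sg Ph hc hdet (fun j => ?_) (fun j => hram j (hi0 j))
    have hzz : algebraMap 𝒪 D (ζ₀ j) ^ i j * algebraMap 𝒪 D (ζ₀ j) ^ (p ^ n j - i j) = 1 := by
      rw [← pow_add, Nat.add_sub_cancel' (hi j).le, ← map_pow, (hζ₀ j).pow_eq_one, map_one]
    rw [htr j, map_pow, map_sub, map_pow, map_pow]
    linear_combination (4 : D) * hzz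
  · obtain ⟨h1, h2⟩ := hunip j hj
    refine ⟨h1, ?_, h2⟩
    rw [htr j, hj, pow_zero, Nat.sub_zero, ← map_pow, (hζ₀ j).pow_eq_one, map_one]
    norm_num

end Fermat.Agent.L.Pivot.H59

end
-- ==== END Fermat.Agent.L.Pivot.H59_TameDict

-- ==== BEGIN Fermat.Agent.L.Pivot.H76_PatchLevel
section

/-!
# PIVOT / PV-PATCH (helper76): facts about a single level

`S = 𝒪⟦s₁..s_r⟧`, `P = 𝒪⟦X₁..X_h⟧`, `φ : S → P`.
A `Frame φ J d` is a `P`-module `N` with `d` generators `b` which is free over `S/J` through `φ`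
(both modules `N1`, `Nχ` of a `PivotLevel` are frames over the same `φ`).
For a frame `F`:
* `φ` is local (`algHom_mem_max`, `phi_mem_pow`);
* `gen F : P^d → N`, `v ↦ ∑ v i • b i` is `P`-linear and surjective;
* `phiSub F 𝔞 = {∑ φ (c i) • b i | c i ∈ 𝔞}` is a `P`-submodule, of index at most `#(S/𝔞)^d`.
-/

set_option autoImplicit false
set_option linter.style.haveILetI false
set_option linter.unusedSectionVars false

namespace Fermat.Agent.L.Pivot.H76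

open IsLocalRing MvPowerSeries

section LocalHom

variable {𝒪 : Type} [CommRing 𝒪] [IsLocalRing 𝒪] {r h : ℕ}

/-- Any `𝒪`-algebra homomorphism `𝒪⟦s₁..s_r⟧ → 𝒪⟦X₁..X_h⟧` (over a local ring `𝒪`) is local. -/
theorem algHom_mem_max
    (φ : MvPowerSeries (Fin r) 𝒪 →ₐ[𝒪] MvPowerSeries (Fin h) 𝒪)
    {f : MvPowerSeries (Fin r) 𝒪} (hf : f ∈ maximalIdeal (MvPowerSeries (Fin r) 𝒪)) :
    φ f ∈ maximalIdeal (MvPowerSeries (Fin h) 𝒪) := by
  rw [IsLocalRing.mem_maximalIdeal, mem_nonunits_iff] at hf ⊢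
  intro hu
  have hu' : IsUnit (constantCoeff (φ f)) := MvPowerSeries.isUnit_iff_constantCoeff.mp hu
  obtain ⟨u, hu''⟩ := hu'
  set c : 𝒪 := ((u⁻¹ : 𝒪ˣ) : 𝒪) with hc
  have hf0 : ¬ IsUnit (constantCoeff f) := fun h =>
    hf (MvPowerSeries.isUnit_iff_constantCoeff.mpr h)
  have hcf0 : c * constantCoeff f ∈ nonunits 𝒪 := by
    rw [mem_nonunits_iff]
    intro h
    exact hf0 (isUnit_of_mul_isUnit_right h)
  have hunit : IsUnit (1 - C c * f : MvPowerSeries (Fin r) 𝒪) := by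
    rw [MvPowerSeries.isUnit_iff_constantCoeff]
    simpa using IsLocalRing.isUnit_one_sub_self_of_mem_nonunits _ hcf0
  have hφC : φ (C c) = C c := by
    have h1 : (algebraMap 𝒪 (MvPowerSeries (Fin r) 𝒪)) c = C c := by
      rw [MvPowerSeries.algebraMap_apply]; rfl
    have h2 : (algebraMap 𝒪 (MvPowerSeries (Fin h) 𝒪)) c = C c := by
      rw [MvPowerSeries.algebraMap_apply]; rfl
    rw [← h1, φ.commutes, h2]
  have hunit' : IsUnit (φ (1 - C c * f)) := hunit.map φ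
  rw [map_sub, map_one, map_mul, hφC, MvPowerSeries.isUnit_iff_constantCoeff] at hunit'
  have h0 : constantCoeff (1 - C c * φ f : MvPowerSeries (Fin h) 𝒪) = 0 := by
    simp only [map_sub, map_one, map_mul, constantCoeff_C, ← hu'', hc]
    simp
  rw [h0] at hunit'
  exact not_isUnit_zero hunit'

/-- `(F1)`: `φ` maps `𝔪 ^ m` into `𝔪 ^ m`. -/
theorem phi_mem_pow (φ : MvPowerSeries (Fin r) 𝒪 →ₐ[𝒪] MvPowerSeries (Fin h) 𝒪)
    {m : ℕ} {f : MvPowerSeries (Fin r) 𝒪}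
    (hf : f ∈ maximalIdeal (MvPowerSeries (Fin r) 𝒪) ^ m) :
    φ f ∈ maximalIdeal (MvPowerSeries (Fin h) 𝒪) ^ m := by
  have h1 : maximalIdeal (MvPowerSeries (Fin r) 𝒪) ≤
      (maximalIdeal (MvPowerSeries (Fin h) 𝒪)).comap
        (φ : MvPowerSeries (Fin r) 𝒪 →+* MvPowerSeries (Fin h) 𝒪) := fun g hg =>
    algHom_mem_max φ hg
  have h2 := Ideal.pow_right_mono h1 m
  exact Ideal.le_comap_pow _ m (h2 hf)

variable {T : Type} [CommRing T] [IsLocalRing T] [Algebra 𝒪 T]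
  (ψ : MvPowerSeries (Fin h) 𝒪 →ₐ[𝒪] T)

theorem psi_mem (hψ : Function.Surjective ψ) {f : MvPowerSeries (Fin h) 𝒪}
    (hf : f ∈ maximalIdeal (MvPowerSeries (Fin h) 𝒪)) : ψ f ∈ maximalIdeal T := by
  have : IsLocalHom (ψ : MvPowerSeries (Fin h) 𝒪 →+* T) := IsLocalHom.of_surjective _ hψ
  rw [mem_maximalIdeal, mem_nonunits_iff] at hf ⊢
  intro h
  exact hf (this.map_nonunit f h)

/-- `(F2)`: `ψ` maps `𝔪 ^ m` into `𝔪_T ^ m`. -/
theorem psi_mem_pow (hψ : Function.Surjective ψ) {m : ℕ} {f : MvPowerSeries (Fin h) 𝒪}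
    (hf : f ∈ maximalIdeal (MvPowerSeries (Fin h) 𝒪) ^ m) : ψ f ∈ maximalIdeal T ^ m := by
  have h1 : maximalIdeal (MvPowerSeries (Fin h) 𝒪) ≤
      (maximalIdeal T).comap (ψ : MvPowerSeries (Fin h) 𝒪 →+* T) := fun g hg =>
    psi_mem ψ hψ hg
  have h2 := Ideal.pow_right_mono h1 m
  exact Ideal.le_comap_pow _ m (h2 hf)

/-- `(F2')`: `ψ` maps `𝔪 ^ m` onto `𝔪_T ^ m`. -/
theorem exists_psi_eq_of_mem_pow (hψ : Function.Surjective ψ) {m : ℕ} {a : T}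
    (ha : a ∈ maximalIdeal T ^ m) :
    ∃ f ∈ maximalIdeal (MvPowerSeries (Fin h) 𝒪) ^ m, ψ f = a := by
  have h1 : maximalIdeal T ≤ (maximalIdeal (MvPowerSeries (Fin h) 𝒪)).map
      (ψ : MvPowerSeries (Fin h) 𝒪 →+* T) := by
    intro x hx
    obtain ⟨f, rfl⟩ := hψ x
    refine Ideal.mem_map_of_mem _ ?_
    rw [mem_maximalIdeal, mem_nonunits_iff] at hx ⊢
    intro h
    exact hx (h.map ψ)
  have h2 : a ∈ (maximalIdeal (MvPowerSeries (Fin h) 𝒪) ^ m).map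
      (ψ : MvPowerSeries (Fin h) 𝒪 →+* T) := by
    rw [Ideal.map_pow]
    exact Ideal.pow_right_mono h1 m ha
  obtain ⟨f, hf, hfa⟩ := (Ideal.mem_map_iff_of_surjective
    (ψ : MvPowerSeries (Fin h) 𝒪 →+* T) hψ).mp h2
  exact ⟨f, hf, hfa⟩

end LocalHom

section Frame

variable {𝒪 : Type} [CommRing 𝒪] {r h : ℕ}

/-- A `P`-module with `d` generators, free over `S/J` through `φ`. -/
structure Frame (φ : MvPowerSeries (Fin r) 𝒪 →ₐ[𝒪] MvPowerSeries (Fin h) 𝒪)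
    (J : Ideal (MvPowerSeries (Fin r) 𝒪)) (d : ℕ) : Type 1 where
  /-- the module -/
  N : Type
  [instAddCommGroup : AddCommGroup N]
  [instModule : Module (MvPowerSeries (Fin h) 𝒪) N]
  /-- the generators -/
  b : Fin d → N
  b_span : ∀ x : N, ∃ c : Fin d → MvPowerSeries (Fin r) 𝒪, x = ∑ i, φ (c i) • b i
  b_rel : ∀ c : Fin d → MvPowerSeries (Fin r) 𝒪, ∑ i, φ (c i) • b i = 0 ↔ ∀ i, c i ∈ J

attribute [instance] Frame.instAddCommGroup Frame.instModule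

variable {φ : MvPowerSeries (Fin r) 𝒪 →ₐ[𝒪] MvPowerSeries (Fin h) 𝒪}
  {J : Ideal (MvPowerSeries (Fin r) 𝒪)} {d : ℕ} (F : Frame φ J d)

/-- The generating map `P^d → N`, `v ↦ ∑ v i • b i`. -/
noncomputable def gen : (Fin d → MvPowerSeries (Fin h) 𝒪) →ₗ[MvPowerSeries (Fin h) 𝒪] F.N :=
  Fintype.linearCombination (MvPowerSeries (Fin h) 𝒪) F.b

theorem gen_apply (v : Fin d → MvPowerSeries (Fin h) 𝒪) : gen F v = ∑ i, v i • F.b i := by
  rw [gen, Fintype.linearCombination_apply]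

theorem gen_surjective : Function.Surjective (gen F) := by
  intro x
  obtain ⟨c, hc⟩ := F.b_span x
  exact ⟨fun i => φ (c i), by rw [gen_apply, hc]⟩

/-- `gen (φ ∘ c) = ∑ φ (c i) • b i`. -/
theorem gen_phi (c : Fin d → MvPowerSeries (Fin r) 𝒪) :
    gen F (fun i => φ (c i)) = ∑ i, φ (c i) • F.b i := gen_apply F _

/-- The `φ`-multiples of an ideal `𝔞` of `S`: `{∑ φ (c i) • b i | c i ∈ 𝔞}`. -/
def phiSub (𝔞 : Ideal (MvPowerSeries (Fin r) 𝒪)) : Submodule (MvPowerSeries (Fin h) 𝒪) F.N where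
  carrier := {x | ∃ c : Fin d → MvPowerSeries (Fin r) 𝒪, (∀ i, c i ∈ 𝔞) ∧
    x = ∑ i, φ (c i) • F.b i}
  zero_mem' := ⟨fun _ => 0, fun _ => 𝔞.zero_mem, by simp⟩
  add_mem' := by
    rintro x y ⟨c, hc, rfl⟩ ⟨c', hc', rfl⟩
    refine ⟨fun i => c i + c' i, fun i => 𝔞.add_mem (hc i) (hc' i), ?_⟩
    simp [add_smul, Finset.sum_add_distrib]
  smul_mem' := by
    rintro y x ⟨c, hc, rfl⟩
    have h1 : ∀ i, ∃ e : Fin d → MvPowerSeries (Fin r) 𝒪,
        y • F.b i = ∑ j, φ (e j) • F.b j := fun i => F.b_span _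
    choose e he using h1
    refine ⟨fun j => ∑ i, c i * e i j, fun j => 𝔞.sum_mem fun i _ => 𝔞.mul_mem_right _ (hc i), ?_⟩
    rw [Finset.smul_sum]
    have h2 : ∀ i, y • φ (c i) • F.b i = ∑ j, φ (c i * e i j) • F.b j := by
      intro i
      rw [smul_comm, he i, Finset.smul_sum]
      refine Finset.sum_congr rfl fun j _ => ?_
      rw [smul_smul, map_mul]
    simp only [h2]
    rw [Finset.sum_comm]
    refine Finset.sum_congr rfl fun j _ => ?_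
    rw [map_sum, Finset.sum_smul]

theorem mem_phiSub {𝔞 : Ideal (MvPowerSeries (Fin r) 𝒪)} {x : F.N} :
    x ∈ phiSub F 𝔞 ↔ ∃ c : Fin d → MvPowerSeries (Fin r) 𝒪, (∀ i, c i ∈ 𝔞) ∧
      x = ∑ i, φ (c i) • F.b i := Iff.rfl

/-- `(F5)`: the coefficients of an element of `phiSub F 𝔞` lie in `𝔞` if `J ≤ 𝔞`. -/
theorem mem_of_sum_mem_phiSub {𝔞 : Ideal (MvPowerSeries (Fin r) 𝒪)} (hJ : J ≤ 𝔞)
    (c : Fin d → MvPowerSeries (Fin r) 𝒪) (h : ∑ i, φ (c i) • F.b i ∈ phiSub F 𝔞) (i : Fin d) :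
    c i ∈ 𝔞 := by
  obtain ⟨a, ha, hx⟩ := h
  have h0 : ∑ i, φ (c i - a i) • F.b i = 0 := by
    simp only [map_sub, sub_smul, Finset.sum_sub_distrib]
    rw [hx, sub_self]
  have h1 := (F.b_rel _).mp h0 i
  have : c i = (c i - a i) + a i := by ring
  rw [this]
  exact 𝔞.add_mem (hJ h1) (ha i)

/-- The index of `phiSub F 𝔞` is at most `#(S/𝔞)^d`. -/
theorem finite_quot_phiSub (𝔞 : Ideal (MvPowerSeries (Fin r) 𝒪))
    [Finite (MvPowerSeries (Fin r) 𝒪 ⧸ 𝔞)] :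
    Finite (F.N ⧸ phiSub F 𝔞) ∧
      Nat.card (F.N ⧸ phiSub F 𝔞) ≤ Nat.card (Fin d → MvPowerSeries (Fin r) 𝒪 ⧸ 𝔞) := by
  let E : (Fin d → MvPowerSeries (Fin r) 𝒪 ⧸ 𝔞) → F.N ⧸ phiSub F 𝔞 := fun c =>
    Submodule.Quotient.mk (∑ i, φ (Quotient.out (c i)) • F.b i)
  have hE : Function.Surjective E := by
    intro y
    obtain ⟨x, rfl⟩ := Submodule.Quotient.mk_surjective _ y
    obtain ⟨c, rfl⟩ := F.b_span x
    refine ⟨fun i => Ideal.Quotient.mk 𝔞 (c i), ?_⟩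
    refine (Submodule.Quotient.eq _).mpr ?_
    refine ⟨fun i => Quotient.out (Ideal.Quotient.mk 𝔞 (c i)) - c i, fun i => ?_, ?_⟩
    · rw [← Ideal.Quotient.eq]
      exact Quotient.out_eq _
    · simp only [map_sub, sub_smul, Finset.sum_sub_distrib]
  have hfin : Finite (F.N ⧸ phiSub F 𝔞) := Finite.of_surjective E hE
  exact ⟨hfin, Nat.card_le_card_of_surjective E hE⟩

/-- `(F3)`: `gen` maps `I • ⊤` into `I • ⊤`. -/
theorem gen_mem {I : Ideal (MvPowerSeries (Fin h) 𝒪)} {v : Fin d → MvPowerSeries (Fin h) 𝒪}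
    (hv : v ∈ I • (⊤ : Submodule (MvPowerSeries (Fin h) 𝒪) (Fin d → MvPowerSeries (Fin h) 𝒪))) :
    gen F v ∈ I • (⊤ : Submodule (MvPowerSeries (Fin h) 𝒪) F.N) := by
  have h3 : gen F v ∈ Submodule.map (gen F)
      (I • (⊤ : Submodule (MvPowerSeries (Fin h) 𝒪) (Fin d → MvPowerSeries (Fin h) 𝒪))) :=
    Submodule.mem_map_of_mem hv
  rw [Submodule.map_smul''] at h3
  exact Submodule.smul_mono le_rfl le_top h3

/-- `(F3')`: `gen` maps `I • ⊤` onto `I • ⊤`. -/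
theorem exists_gen_eq_of_mem {I : Ideal (MvPowerSeries (Fin h) 𝒪)} {x : F.N}
    (hx : x ∈ I • (⊤ : Submodule (MvPowerSeries (Fin h) 𝒪) F.N)) :
    ∃ v ∈ I • (⊤ : Submodule (MvPowerSeries (Fin h) 𝒪) (Fin d → MvPowerSeries (Fin h) 𝒪)),
      gen F v = x := by
  refine Submodule.smul_induction_on hx ?_ ?_
  · intro a ha y _
    obtain ⟨w, rfl⟩ := gen_surjective F y
    exact ⟨a • w, Submodule.smul_mem_smul ha Submodule.mem_top, map_smul _ _ _⟩
  · rintro y z ⟨v, hv, rfl⟩ ⟨w, hw, rfl⟩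
    exact ⟨v + w, Submodule.add_mem _ hv hw, map_add _ _ _⟩

end Frame

section Proj

variable {𝒪 : Type} [CommRing 𝒪] [IsLocalRing 𝒪] {r h : ℕ}
  {T : Type} [CommRing T] [IsLocalRing T] [Algebra 𝒪 T]
  {M : Type} [AddCommGroup M] [Module T M]
  {N : Type} [AddCommGroup N] [Module (MvPowerSeries (Fin h) 𝒪) N]
  (ψ : MvPowerSeries (Fin h) 𝒪 →ₐ[𝒪] T) (π : N →+ M)

/-- `(F6a)`: `π` maps `𝔪 ^ m • ⊤` into `𝔪_T ^ m • ⊤`. -/
theorem pi_mem (hψ : Function.Surjective ψ)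
    (hπ : ∀ (f : MvPowerSeries (Fin h) 𝒪) (x : N), π (f • x) = ψ f • π x) {m : ℕ} {x : N}
    (hx : x ∈ (maximalIdeal (MvPowerSeries (Fin h) 𝒪) ^ m) •
      (⊤ : Submodule (MvPowerSeries (Fin h) 𝒪) N)) :
    π x ∈ (maximalIdeal T ^ m) • (⊤ : Submodule T M) := by
  refine Submodule.smul_induction_on hx ?_ ?_
  · intro f hf y _
    rw [hπ]
    exact Submodule.smul_mem_smul (psi_mem_pow ψ hψ hf) Submodule.mem_top
  · intro x y hx hy
    rw [map_add]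
    exact Submodule.add_mem _ hx hy

/-- `(F6b)`: `π` maps `𝔪 ^ m • ⊤` onto `𝔪_T ^ m • ⊤`. -/
theorem exists_pi_eq_of_mem (hψ : Function.Surjective ψ)
    (hπ : ∀ (f : MvPowerSeries (Fin h) 𝒪) (x : N), π (f • x) = ψ f • π x)
    (hπs : Function.Surjective π) {m : ℕ} {y : M}
    (hy : y ∈ (maximalIdeal T ^ m) • (⊤ : Submodule T M)) :
    ∃ x ∈ (maximalIdeal (MvPowerSeries (Fin h) 𝒪) ^ m) •
      (⊤ : Submodule (MvPowerSeries (Fin h) 𝒪) N), π x = y := by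
  refine Submodule.smul_induction_on hy ?_ ?_
  · intro a ha z _
    obtain ⟨f, hf, rfl⟩ := exists_psi_eq_of_mem_pow ψ hψ ha
    obtain ⟨w, rfl⟩ := hπs z
    exact ⟨f • w, Submodule.smul_mem_smul hf Submodule.mem_top, hπ f w⟩
  · rintro y z ⟨x, hx, rfl⟩ ⟨x', hx', rfl⟩
    exact ⟨x + x', Submodule.add_mem _ hx hx', map_add _ _ _⟩

end Proj

section Pivot

variable {𝒪 : Type} [CommRing 𝒪] {r h : ℕ} {T : Type} [CommRing T] [Algebra 𝒪 T]
  {M : Type} [AddCommGroup M] [Module T M] {ϖ : 𝒪}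
  {I1 Iχ 𝔵 : Ideal (MvPowerSeries (Fin h) 𝒪)} {Ξ : Ideal T}
  {J : Ideal (MvPowerSeries (Fin r) 𝒪)} {d : ℕ}

/-- The frame of the module of unipotent type. -/
def frame1 (L : PivotLevel 𝒪 r h T M ϖ I1 Iχ 𝔵 Ξ J d) : Frame L.φ J d where
  N := L.N1
  b := L.b1
  b_span := L.b1_span
  b_rel := L.b1_rel

/-- The frame of the module of the ramified types. -/
def frameχ (L : PivotLevel 𝒪 r h T M ϖ I1 Iχ 𝔵 Ξ J d) : Frame L.φ J d where
  N := L.Nχ
  b := L.bχ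
  b_span := L.bχ_span
  b_rel := L.bχ_rel

/-- `M` is a finite `T`-module. -/
theorem moduleFinite_of_level (L : PivotLevel 𝒪 r h T M ϖ I1 Iχ 𝔵 Ξ J d) :
    Module.Finite T M := by
  let E : (Fin d → T) →ₗ[T] M := Fintype.linearCombination T (fun i => L.π (L.b1 i))
  have hsurj : Function.Surjective E := by
    intro y
    obtain ⟨x, rfl⟩ := L.π_surjective y
    obtain ⟨c, rfl⟩ := L.b1_span x
    refine ⟨fun i => L.ψ (L.φ (c i)), ?_⟩
    rw [Fintype.linearCombination_apply, map_sum]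
    refine Finset.sum_congr rfl fun i _ => ?_
    rw [L.π_smul]
  exact Module.Finite.of_surjective E hsurj

end Pivot

end Fermat.Agent.L.Pivot.H76

end
-- ==== END Fermat.Agent.L.Pivot.H76_PatchLevel

-- ==== BEGIN Fermat.Agent.L.Pivot.H76_RemovesQ2
section

set_option autoImplicit false

open WeierstrassCurve WeierstrassCurve.Affine WeierstrassCurve.Affine.Point
open scoped WeierstrassCurve.Affine

namespace Fermat.Agent.L.Pivot.H76

open Fermat.Agent.S44 Fermat.Agent.S43 Fermat.Agent.L.Pivot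

/-- **Mazur's principle at `q`, module form, second version.** -/
def _root_.Fermat.Agent.S44.HeckeGaloisModule.RemovesQ2 {p : ℕ} (H : HeckeGaloisModule p)
    (N q : ℕ) (A : ValuationSubring (AlgebraicClosure ℚ)) : Prop :=
  ∀ (V : Type) [AddCommGroup V] [Module (ZMod p) V] (ρ : GQ →* Module.End (ZMod p) V)
    (ι : V →ₗ[ZMod p] H.J) (S : Finset ℕ) (t : ℕ → ℤ),
    (∀ W : Submodule (ZMod p) V, (∀ σ : GQ, ∀ x ∈ W, ρ σ x ∈ W) → W = ⊥ ∨ W = ⊤) →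
    (∀ σ ∈ A.inertiaSubgroupIn ℚ, ∀ v : V, ρ σ v = v) →
    (¬ ∃ ε : ZMod p, ε * ε = 1 ∧ ∀ σ : GQ, A.IsFrobeniusAt σ q → ∀ v : V,
      ρ σ v = ((q : ZMod p) * ε) • v) →
    Function.Injective ι →
    (∀ (σ : GQ) (v : V), ι (ρ σ v) = H.gal σ (ι v)) →
    (∀ ℓ : ℕ, ℓ.Prime → ℓ ∉ S → ¬ ℓ ∣ N → ℓ ≠ p →
      ∀ v : V, H.T ℓ (ι v) = ((t ℓ : ℤ) : ZMod p) • ι v) →
    (∃ ℓ : ℕ, ℓ.Prime ∧ ℓ ∉ S ∧ ¬ ℓ ∣ N ∧ ℓ ≠ p ∧ ((t ℓ : ℤ) : ZMod p) ≠ 1 + (ℓ : ZMod p)) →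
    ∃ (g : CuspForm (CongruenceSubgroup.Gamma0 (N / q)) 2) (𝔪 : Ideal ZBar),
      g.IsNormalizedEigenform ∧ 𝔪.IsMaximal ∧ (p : ZBar) ∈ 𝔪 ∧
      ∀ ℓ : ℕ, ℓ.Prime → ℓ ∉ S → ¬ ℓ ∣ N → ℓ ≠ p →
        ∃ a : ZBar, (a : ℂ) = ModularFormClass.qCoeff g ℓ ∧ a - ((t ℓ : ℤ) : ZBar) ∈ 𝔪

/-- `RemovesQ2` is stronger than `RemovesQ`. -/
theorem removesQ_of_removesQ2 {p : ℕ} (H : HeckeGaloisModule p)
    (N q : ℕ) (A : ValuationSubring (AlgebraicClosure ℚ)) (h : H.RemovesQ2 N q A) :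
    H.RemovesQ N q A := by
  intro V _ _ ρ ι S t hirr hunr hnexc hinj hequiv hT hNE
  exact h V ρ ι S t hirr hunr (fun ⟨ε, _, hε⟩ => hnexc ⟨(q : ZMod p) * ε, hε⟩) hinj hequiv hT hNE

/-- **Mazur's principle at `q`** (second version) from the abstract structure. -/
theorem removesQ2_of_toric {p : ℕ} (hp : p.Prime) (hp2 : p ≠ 2) (H : HeckeGaloisModule p)
    (N q : ℕ) (A : ValuationSubring (AlgebraicClosure ℚ))
    (hbad : H.HasToricPartAt N q A) : H.RemovesQ2 N q A := by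
  have : Fact p.Prime := ⟨hp⟩
  intro V _ _ ρ ι S t hirr hunr hnexc hinj hequiv hT hNE
  obtain ⟨T, U, hUgal, hUT, hFrob, hlow⟩ := hbad
  by_cases hcase : ∃ v : V, ι v ∉ T
  · obtain ⟨v, hv⟩ := hcase
    refine hlow S t (ι v) hv (fun σ hσ => ?_) (fun ℓ hℓ hℓS hℓN hℓp => hT ℓ hℓ hℓS hℓN hℓp v) hNE
    rw [← hequiv, hunr σ hσ v]
  · exfalso
    push Not at hcase
    have h2 : (2 : ZMod p) ≠ 0 := by
      intro h
      have h' : ((2 : ℕ) : ZMod p) = 0 := by exact_mod_cast h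
      rw [ZMod.natCast_eq_zero_iff] at h'
      exact hp2 ((Nat.prime_dvd_prime_iff_eq hp Nat.prime_two).mp h')
    -- the two eigen-components of `ι` for `U`
    have key : ∀ ε : ZMod p, ε * ε = 1 → (∃ v, ι v + ε • U (ι v) ≠ 0) →
        ∀ σ : GQ, A.IsFrobeniusAt σ q → ∀ v : V, ρ σ v = ((q : ZMod p) * ε) • v := by
      intro ε hε hne σ hσ v
      set κ : V →ₗ[ZMod p] H.J := ι + ε • (U ∘ₗ ι) with hκ
      have hκv : ∀ w, κ w = ι w + ε • U (ι w) := fun w => rfl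
      have hκeq : ∀ (τ : GQ) (w : V), κ (ρ τ w) = H.gal τ (κ w) := by
        intro τ w
        rw [hκv, hκv, hequiv, map_add, map_smul]
        congr 2
        have := congrArg (fun f : Module.End (ZMod p) H.J => f (ι w)) (hUgal τ)
        simpa using this
      have hκinj : Function.Injective κ := injective_of_irreducible ρ H.gal hirr κ hκeq hne
      have hκT : ∀ w, κ w ∈ T := fun w => by
        rw [hκv]
        exact T.add_mem (hcase w) (T.smul_mem _ (hUT _ (hcase w)).1)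
      have hUκ : ∀ w, U (κ w) = ε • κ w := by
        intro w
        rw [hκv, map_add, map_smul, (hUT _ (hcase w)).2, smul_add, smul_smul, hε, one_smul, add_comm]
      apply hκinj
      rw [hκeq, hFrob σ hσ _ (hκT v), hUκ, smul_smul, map_smul]
    apply hnexc
    by_cases hplus : ∃ v, ι v + (1 : ZMod p) • U (ι v) ≠ 0
    · exact ⟨1, by ring, key 1 (by ring) hplus⟩
    · push Not at hplus
      have hminus : ∃ v, ι v + (-1 : ZMod p) • U (ι v) ≠ 0 := by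
        by_contra hcon
        push Not at hcon
        -- then `2 ι = 0`, so `V = 0`, and `⊥ = ⊤`
        have hι0 : ∀ v, ι v = 0 := by
          intro v
          have h1 := hplus v
          have h3 := hcon v
          have h4 : (2 : ZMod p) • ι v = 0 := by
            have : (2 : ZMod p) • ι v
                = (ι v + (1 : ZMod p) • U (ι v)) + (ι v + (-1 : ZMod p) • U (ι v)) := by
              rw [two_smul]; module
            rw [this, h1, h3, add_zero]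
          rcases smul_eq_zero.mp h4 with h | h
          · exact absurd h h2
          · exact h
        have hV0 : ∀ v : V, v = 0 := fun v => hinj (by rw [hι0 v, _root_.map_zero])
        -- every scalar works on the zero module
        exact hnexc ⟨1, by ring, fun σ _ v => by rw [hV0 v]; simp⟩
      exact ⟨-1, by ring, key (-1) (by ring) hminus⟩

/-- On `E[p]` a scalar Frobenius `q ε` (`ε² = 1`) at a place over `q ≠ p` forces
`q ≡ 1 mod p`. -/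
theorem dvd_sub_one_of_scalar {E : WeierstrassCurve ℚ} {W : WeierstrassCurve ℤ}
    (hW : W.IsIntegralModelOf E) (hΔ : W.Δ ≠ 0) {p : ℕ} [Fact p.Prime] {q : ℕ} (hq : q.Prime)
    (hqp : q ≠ p) (A : ValuationSubring (AlgebraicClosure ℚ)) (hA : A.LiesOverPrime q)
    (ε : ZMod p) (hε : ε * ε = 1)
    (h : ∀ σ : GQ, A.IsFrobeniusAt σ q → ∀ v : Tors E p,
      galoisRepModuleEnd (S := ℚ) (K := AlgebraicClosure ℚ) E.toAffine p σ v
        = ((q : ZMod p) * ε) • v) :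
    p ∣ q - 1 := by
  have hp : p.Prime := Fact.out
  obtain ⟨σ, hσ⟩ := Fermat.Agent.Lib.FrobExists.exists_isFrobeniusAt q hq A hA
  have hdet := Fermat.Agent.L.H52.det_eq_natCast hW hΔ σ q
    (fun ζ hζ => Fermat.Agent.L.H52.frob_root A hq hp hqp hA hσ hζ)
  have hfin : Module.finrank (ZMod p) (Tors E p) = 2 := by
    obtain ⟨C, hC⟩ := hW
    have h1 := Fermat.Agent.L.H19.finrank_tors_eq (K := AlgebraicClosure ℚ) hC p
    have h2 := Fermat.Agent.L.H52.finrank_tors (W := W) (p := p)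
      Fermat.Agent.Lib.FrobDensity.stmt_FD Fermat.Agent.Lib.EllFinite.stmt_main hΔ
    rw [← h1]
    exact h2
  have hsc : galoisRepModuleEnd (S := ℚ) (K := AlgebraicClosure ℚ) E.toAffine p σ
      = ((q : ZMod p) * ε) • (1 : Module.End (ZMod p) (Tors E p)) :=
    LinearMap.ext fun v => by
      rw [h σ hσ v, LinearMap.smul_apply, Module.End.one_apply]
  rw [hsc, LinearMap.det_smul, hfin] at hdet
  have hd1 : LinearMap.det (1 : Module.End (ZMod p) (Tors E p)) = 1 := LinearMap.det_id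
  rw [hd1, mul_one] at hdet
  -- `q² = q` in `ZMod p`
  have hq2 : (q : ZMod p) * (q : ZMod p) = (q : ZMod p) := by
    have : ((q : ZMod p) * ε) ^ 2 = (q : ZMod p) * (q : ZMod p) * (ε * ε) := by ring
    rw [this, hε, mul_one] at hdet
    exact hdet
  have hq0 : (q : ZMod p) ≠ 0 := by
    intro h0
    rw [ZMod.natCast_eq_zero_iff] at h0
    exact hqp ((Nat.prime_dvd_prime_iff_eq hp hq).mp h0).symm
  have hq1 : (q : ZMod p) = 1 := by
    have h3 : (q : ZMod p) * ((q : ZMod p) - 1) = 0 := by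
      rw [mul_sub, hq2, mul_one, sub_self]
    rcases mul_eq_zero.mp h3 with h4 | h4
    · exact absurd h4 hq0
    · exact sub_eq_zero.mp h4
  have hq1' : 1 ≤ q := hq.one_le
  have h5 : ((q - 1 : ℕ) : ZMod p) = 0 := by
    rw [Nat.cast_sub hq1', hq1, Nat.cast_one, sub_self]
  exact (ZMod.natCast_eq_zero_iff _ _).mp h5

/-- For the Frey curve: a prime `q ≠ p` which is not exceptional satisfies the hypothesis of
`RemovesQ2` at every place over `q`. -/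
theorem not_scalar_of_not_exc2 (P : FreyPackage) {q : ℕ} (hq : q.Prime) (hqp : q ≠ P.p)
    (hne : ¬ IsExc2 P q) (A : ValuationSubring (AlgebraicClosure ℚ)) (hA : A.LiesOverPrime q) :
    ¬ ∃ ε : ZMod P.p, ε * ε = 1 ∧ ∀ σ : GQ, A.IsFrobeniusAt σ q → ∀ v : Tors P.freyCurve P.p,
      galoisRepModuleEnd (S := ℚ) (K := AlgebraicClosure ℚ) P.freyCurve.toAffine P.p σ v
        = ((q : ZMod P.p) * ε) • v := by
  rintro ⟨ε, hε, h⟩
  have : Fact P.p.Prime := ⟨P.pp⟩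
  refine hne ⟨?_, A, hA, (q : ZMod P.p) * ε, h⟩
  exact dvd_sub_one_of_scalar (Fermat.Agent.L.H52.freyCurveInt_isIntegralModelOf P)
    (Fermat.Agent.S04.H59.freyCurveInt_Δ_ne_zero P) hq hqp A hA ε hε h

end Fermat.Agent.L.Pivot.H76

end
-- ==== END Fermat.Agent.L.Pivot.H76_RemovesQ2
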