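-- GENERATED (merged mirror, NOTES/tools/trim/merge3_helper67.py): 9 modules of the originals, bodies verbatim.
import Mathlib
import Fermat.Statements.S53
import Fermat.Prelude.Def_GaloisRep_StrictOrdinary
import Fermat.Prelude.Def_GaloisRep_LocalConditions
import Fermat.Agent.Zm.S43_L02_000
import Fermat.Agent.Zm.S43_L02_002
import Fermat.Agent.Zm.S43_L02_003
import Fermat.Agent.Zm.S44_L01_003
import Fermat.Agent.Zm.S35_L14_001
import Fermat.Agent.Zm.S35_L11_001
import Fermat.Agent.S43.H13_FrobDescAbs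
import Fermat.Agent.Zm.S35_L16_000
import Fermat.Agent.Zm.S35_L12_001
import Fermat.Agent.Zm.S35_L11_000
import Fermat.Agent.Zm.S35_L10_005
import Fermat.Agent.Zm.S56_L01_001
import Fermat.Agent.Zm.S56_L03_001
import Fermat.Agent.Zm.S43_L01_004
import Fermat.Agent.Zm.S33_L01_002
import Fermat.Agent.Zm.S56_L06_000
import Fermat.Agent.Zm.S35_L07_001
import Fermat.Agent.Zm.S35_L06_001
import Fermat.Agent.Zm.S43_L02_004

-- ==== BEGIN Fermat.Agent.NEB.OLD.H52_CompatBd
section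

/-!
# NEB, package OLDNEW, leaf OLD-CBD (helper52): `β_{q*} ∘ U_{q'} = U_{q'} ∘ β_{q*}`

`q ≠ q'` primes, `q ∤ M`.  With `β_q : F₀(M) → F₀(Mq)`, `α', β' : F₀(Mq) → F₀(Mqq')` and
`β'' = betaLift : F₀(Mq') → F₀(Mqq')`, `g(τ) ↦ g(qτ)`:

* `β_{q*} β'_* = β_{q'*} β''_*`       (`pushP_comp`, `β' ∘ β_q = β'' ∘ β_{q'}`);
* `β''_* α'^* = α_{q'}^* β_{q*}`       (base change of the norm in the square
  `(β_q, α_{q'}, β'', α')`, primitive element `j` on both sides, degrees `q + 1`).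
-/

set_option autoImplicit false
set_option linter.unusedSectionVars false
set_option linter.style.haveILetI false
set_option linter.dupNamespace false

noncomputable section

namespace Fermat.Agent.NEB.OLD.H52

open AlgebraicCurve ModularCurve Fermat.Agent.S24 Fermat.Agent.Lib.HeckeComm
open Fermat.Agent.NEB.H14 Fermat.Agent.NEB.JH Fermat.Agent.RED Fermat.Agent.S36.H44

local notation "Kb" => AlgebraicClosure ℚ

section Square

variable (M q q' : ℕ) [NeZero M] [NeZero q] [NeZero q']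

/-- `β'' = swap ∘ β_q` at level `Mq'`. -/
theorem betaLift_eq :
    betaLift M q q' = (swapFN M q q').comp (heckeBetaBar Kb (M * q') q) := rfl

/-- `β' ∘ β_q = β'' ∘ β_{q'}`. -/
theorem beta_comp_beta_eq :
    (heckeBetaBar Kb (M * q) q').comp (heckeBetaBar Kb M q)
      = (betaLift M q q').comp (heckeBetaBar Kb M q') :=
  AlgHom.ext fun x => beta_square_beta M q q' x

/-- The degree of `β'' : F₀(Mq') → F₀(Mqq')` is `q + 1`. -/
theorem finrankHom_betaLift (hq : q.Prime) (hqM : ¬ q ∣ M * q') :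
    finrankHom (betaLift M q q').toRingHom = q + 1 := by
  have h1 : (betaLift M q q').toRingHom
      = (swapFN M q q').toRingHom.comp (heckeBetaBar Kb (M * q') q).toRingHom := rfl
  rw [h1, finrank_comp_h44]
  have h2 : finrankHom (swapFN M q q').toRingHom = 1 :=
    finrank_toAlgebra_of_bijective (swapFN M q q').toRingHom (swapFN_bijective M q q')
  rw [h2, mul_one]
  exact (finrankHom_eq_finrankAlong _).trans (Fermat.Agent.RED.H95.finrankAlong_beta hq hqM)

/-- **`j` generates `F₀(Mqq')` over `β'' F₀(Mq')`.** -/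
theorem adjoin_betaLift_jF :
    letI := (betaLift M q q').toRingHom.toAlgebra
    IntermediateField.adjoin (FN (M * q'))
      {(heckeAlphaBar Kb (M * q) q').toRingHom (jF (M * q))} = ⊤ := by
  apply adjoin_eq_top_of_range_union
  have hgen := adjoin_range_union_eq_top (heckeBetaBar Kb (M * q') q) {jF (M * q' * q)}
    (adjoin_beta_jF (M * q') q)
  refine eq_top_of_surjective_gens (swapFN M q q') (swapFN_surjective M q q') _ hgen _ ?_
  rintro t (⟨x, rfl⟩ | ht)
  · exact IntermediateField.subset_adjoin Kb _ (Or.inl ⟨x, rfl⟩)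
  · rw [Set.mem_singleton_iff] at ht
    refine IntermediateField.subset_adjoin Kb _ (Or.inr ?_)
    rw [Set.mem_singleton_iff, ht]
    apply Subtype.ext
    rw [coe_swapFN]
    rfl

/-- **Base change of the norm** in the square `(β_q, α_{q'}, β'', α')`:
`α_{q'} (N_{β_q} x) = N_{β''} (α' x)`. -/
theorem norm_square_beta (hq : q.Prime) (hqM : ¬ q ∣ M) (hqq' : ¬ q ∣ M * q')
    (x : FN (M * q)) :
    heckeAlphaBar Kb M q' (normFn (heckeBetaBar Kb M q) x)
      = normFn (betaLift M q q') (heckeAlphaBar Kb (M * q) q' x) := by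
  refine normAlongHom_baseChange (heckeBetaBar Kb M q).toRingHom (betaLift M q q').toRingHom
    (heckeAlphaBar Kb M q').toRingHom (heckeAlphaBar Kb (M * q) q').toRingHom
    (fun y => ?_) (beta_finite M q) (betaLift_finite M q q')
    (jF (M * q)) (adjoin_beta_jF M q) (adjoin_betaLift_jF M q q') ?_ x
  · exact congrArg (fun f : FN M →+* FN (M * q * q') => f y) (beta_square M q q')
  · have h1 : finrankHom (heckeBetaBar Kb M q).toRingHom = q + 1 :=
      (finrankHom_eq_finrankAlong _).trans (Fermat.Agent.RED.H95.finrankAlong_beta hq hqM)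
    exact h1.trans (finrankHom_betaLift M q q' hq hqq').symm

end Square

/-- **OLD-CBD**: `β_{q*} ∘ U_{q'} = U_{q'} ∘ β_{q*}`. -/
theorem stmt_CompatBd : Stmt_CompatBd := by
  intro M q q' _ _ _ hq hq' hne hqM _ y
  have hqq' : ¬ q ∣ M * q' := by
    intro h
    rcases (Nat.Prime.dvd_mul hq).mp h with h1 | h1
    · exact hqM h1
    · exact hne ((Nat.prime_dvd_prime_iff_eq hq hq').mp h1)
  have hsq := square_of_norm_pic (isFF_FN M) (isFF_FN (M * q')) (isFF_FN (M * q))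
    (isFF_FN (M * q * q')) (heckeBetaBar Kb M q) (heckeAlphaBar Kb M q')
    (betaLift M q q') (heckeAlphaBar Kb (M * q) q')
    (fun x _ => norm_square_beta M q q' hq hqM hqq' x)
  have h1 := pushP_comp (isFF_FN M) (isFF_FN (M * q)) (isFF_FN (M * q * q'))
    (heckeBetaBar Kb M q) (heckeBetaBar Kb (M * q) q')
  have h2 := pushP_comp (isFF_FN M) (isFF_FN (M * q')) (isFF_FN (M * q * q'))
    (heckeBetaBar Kb M q') (betaLift M q q')
  rw [beta_comp_beta_eq] at h1
  have h3 : (pushP (heckeBetaBar Kb M q)).comp (pushP (heckeBetaBar Kb (M * q) q'))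
      = (pushP (heckeBetaBar Kb M q')).comp (pushP (betaLift M q q')) := h1.symm.trans h2
  show pushP (heckeBetaBar Kb M q)
      (pushP (heckeBetaBar Kb (M * q) q') (pullP (heckeAlphaBar Kb (M * q) q') y))
    = pushP (heckeBetaBar Kb M q') (pullP (heckeAlphaBar Kb M q')
        (pushP (heckeBetaBar Kb M q) y))
  have e1 := DFunLike.congr_fun h3 (pullP (heckeAlphaBar Kb (M * q) q') y)
  have e2 := DFunLike.congr_fun hsq y
  simp only [AddMonoidHom.comp_apply] at e1 e2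
  rw [e1, ← e2]

end Fermat.Agent.NEB.OLD.H52

end
end
-- ==== END Fermat.Agent.NEB.OLD.H52_CompatBd

-- ==== BEGIN Fermat.Agent.S43.CompEis.H60_Transfer
section

set_option autoImplicit false
set_option synthInstance.maxHeartbeats 400000
set_option maxHeartbeats 400000
set_option linter.style.haveILetI false
set_option linter.unusedSectionVars false

noncomputable section

open AlgebraicCurve ModularCurve

namespace Fermat.Agent.S43.CompEis.H60

open Fermat.Agent.BAD Fermat.Agent.S44 Fermat.Agent.S28.H73 Fermat.Agent.RED.H73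
open Fermat.Agent.S43.BadQ Fermat.Agent.RED

section Transfer

variable {A : ValuationSubring (AlgebraicClosure ℚ)} {N N' : ℕ}
variable {x : ↥(FNbar N)} {y : ↥(FNbar N')}

theorem mem_gaussV_iff_coe (z : ↥(FNbar N)) :
    z ∈ gaussV A N ↔ (z : LaurentSeries (AlgebraicClosure ℚ)) ∈ gaussRingV A :=
  mem_gaussValSub_iff A (hasScale_laurentBaseChange A N) z

theorem mem_gaussV_transfer
    (hxy : (y : LaurentSeries (AlgebraicClosure ℚ)) = (x : LaurentSeries (AlgebraicClosure ℚ))) :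
    y ∈ gaussV A N' ↔ x ∈ gaussV A N := by
  rw [mem_gaussV_iff_coe, mem_gaussV_iff_coe, hxy]

theorem ne_zero_transfer
    (hxy : (y : LaurentSeries (AlgebraicClosure ℚ)) = (x : LaurentSeries (AlgebraicClosure ℚ))) :
    y ≠ 0 ↔ x ≠ 0 := by
  have hy : y = 0 ↔ (y : LaurentSeries (AlgebraicClosure ℚ)) = 0 :=
    (ZeroMemClass.coe_eq_zero (x := y)).symm
  have hx : x = 0 ↔ (x : LaurentSeries (AlgebraicClosure ℚ)) = 0 :=
    (ZeroMemClass.coe_eq_zero (x := x)).symm
  rw [Ne, Ne, hy, hx, hxy]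

theorem isGaussUnit_transfer
    (hxy : (y : LaurentSeries (AlgebraicClosure ℚ)) = (x : LaurentSeries (AlgebraicClosure ℚ))) :
    IsGaussUnit A N' y ↔ IsGaussUnit A N x := by
  have hinv : ((y⁻¹ : ↥(FNbar N')) : LaurentSeries (AlgebraicClosure ℚ))
      = ((x⁻¹ : ↥(FNbar N)) : LaurentSeries (AlgebraicClosure ℚ)) := by
    rw [IntermediateField.coe_inv, IntermediateField.coe_inv, hxy]
  unfold IsGaussUnit
  rw [ne_zero_transfer hxy, mem_gaussV_transfer hxy, mem_gaussV_transfer hinv]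

theorem galF_fixed_transfer
    (hxy : (y : LaurentSeries (AlgebraicClosure ℚ)) = (x : LaurentSeries (AlgebraicClosure ℚ)))
    (σ : GalQ) (h : galF N σ • x = x) : galF N' σ • y = y := by
  apply Subtype.ext
  have h1 := congrArg (Subtype.val : ↥(FNbar N) → LaurentSeries (AlgebraicClosure ℚ)) h
  rw [coe_arithmeticGalois_smul] at h1 ⊢
  rw [hxy]
  exact h1

theorem const_mul_transfer
    (hxy : (y : LaurentSeries (AlgebraicClosure ℚ)) = (x : LaurentSeries (AlgebraicClosure ℚ)))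
    (c : AlgebraicClosure ℚ) :
    ((algebraMap (AlgebraicClosure ℚ) ↥(FNbar N') c * y : ↥(FNbar N')) :
        LaurentSeries (AlgebraicClosure ℚ))
      = ((algebraMap (AlgebraicClosure ℚ) ↥(FNbar N) c * x : ↥(FNbar N)) :
        LaurentSeries (AlgebraicClosure ℚ)) := by
  rw [MulMemClass.coe_mul, MulMemClass.coe_mul, hxy, IntermediateField.coe_algebraMap_apply,
    IntermediateField.coe_algebraMap_apply]

theorem fullMono (h : N ∣ N') : modularFunctionFieldFull N ≤ modularFunctionFieldFull N' := by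
  apply IntermediateField.adjoin.mono
  rintro x ⟨d, hd0, hd, hx⟩
  exact ⟨d, hd0, hd.trans h, hx⟩

theorem barMono (h : N ∣ N') : FNbar N ≤ FNbar N' := by
  apply IntermediateField.adjoin.mono
  rintro _ ⟨x, hx, rfl⟩
  exact ⟨x, fullMono h hx, rfl⟩

/-- The function of level `N'` with the same `q`-expansion. -/
def lift (h : N ∣ N') : ↥(FNbar N) →ₐ[AlgebraicClosure ℚ] ↥(FNbar N') :=
  IntermediateField.inclusion (barMono h)

theorem coe_lift (h : N ∣ N') (z : ↥(FNbar N)) :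
    ((lift h z : ↥(FNbar N')) : LaurentSeries (AlgebraicClosure ℚ))
      = (z : LaurentSeries (AlgebraicClosure ℚ)) :=
  IntermediateField.coe_inclusion _ z

theorem lift_eq_of_coe (h : N ∣ N')
    (hxy : (y : LaurentSeries (AlgebraicClosure ℚ)) = (x : LaurentSeries (AlgebraicClosure ℚ))) :
    y = lift h x := by
  apply Subtype.ext
  rw [coe_lift, hxy]

end Transfer

section Res

variable {A : ValuationSubring (AlgebraicClosure ℚ)} {N : ℕ}

/-- The reduction of a Gauss unit is not zero. -/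
theorem IsGaussUnit.gaussRes_ne_zero {φ : ↥(FNbar N)} (h : IsGaussUnit A N φ) :
    gaussRes A N ⟨φ, h.mem⟩ ≠ 0 := by
  intro h0
  have h1 : gaussRes A N (⟨φ, h.mem⟩ * ⟨φ⁻¹, h.inv_mem⟩) = 1 := by
    have : (⟨φ, h.mem⟩ * ⟨φ⁻¹, h.inv_mem⟩ : ↥(gaussV A N)) = 1 := by
      apply Subtype.ext
      show φ * φ⁻¹ = 1
      exact mul_inv_cancel₀ h.1
    rw [this, map_one]
  rw [map_mul, h0, zero_mul] at h1
  exact zero_ne_one h1

end Res

end Fermat.Agent.S43.CompEis.H60

end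
end
-- ==== END Fermat.Agent.S43.CompEis.H60_Transfer

-- ==== BEGIN Fermat.Agent.S43.CompEis.H9_Hecke
section
attribute [local instance 10000] SubalgebraClass.toAlgebra
attribute [local instance 10000] HahnSeries.powerSeriesAlgebra

/-!
# S43, COMP-EIS, leaf HECKE (helper9): `Stmt_CE_Hecke`

`x ∈ J₀(M q)[p]` inertia-fixed with `T_ℓ x = t x`.  Then

1. (`S36.H61.stmt_NUB0`) `x = [D]`, `D` inertia-stable, `p D = div f`, `f` inertia-fixed;
2. (`H9.stmt_CE_NormVal`) `T_ℓ x = [D']`, `p D' = div f'`, `D'` inertia-stable, and `f'` has slope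
   `(ℓ + 1) k` if `f` has slope `k` (`hasSlope_of_units`);
3. `[D'] = t₀ [D]`, `t₀ ≡ t mod p`, so `D' - t₀ D = div g` with `g` inertia-fixed
   (`S36.H61.exists_fixed_function`, `n = 1`), and `f' = c⁻¹ f ^ t₀ g ^ p` for a constant `c`.

This file contains no `sorry`.
-/

set_option autoImplicit false
set_option synthInstance.maxHeartbeats 400000
set_option maxHeartbeats 1000000
set_option linter.unusedSectionVars false
set_option linter.style.haveILetI false

noncomputable section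

open AlgebraicCurve ModularCurve

namespace Fermat.Agent.S43.CompEis.H9H

open Fermat.Agent.BAD Fermat.Agent.S28.H73 Fermat.Agent.RED.H73 Fermat.Agent.RED
open Fermat.Agent.S43.BadQ Fermat.Agent.S43.CompEis.H60

section Slope

variable (A : ValuationSubring (AlgebraicClosure ℚ))
variable (q M : ℕ) (a b : ℤ) (hab : a * q + b * M = 1) (hq : q.Prime) [NeZero (M * q)]

/-- The slope of a function `f'` whose unit scalings are the `n`-th powers of those of `f`. -/
theorem hasSlope_of_units (n : ℕ) (f f' : ↥(FNbar (M * q)))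
    (h1 : ∀ c : AlgebraicClosure ℚ,
      IsGaussUnit A (M * q) (algebraMap (AlgebraicClosure ℚ) ↥(FNbar (M * q)) c * f) →
      IsGaussUnit A (M * q) (algebraMap (AlgebraicClosure ℚ) ↥(FNbar (M * q)) (c ^ n) * f'))
    (h2 : ∀ c : AlgebraicClosure ℚ,
      IsGaussUnit A (M * q) (algebraMap (AlgebraicClosure ℚ) ↥(FNbar (M * q)) c *
        (wS q M a b hab hq • f)) →
      IsGaussUnit A (M * q) (algebraMap (AlgebraicClosure ℚ) ↥(FNbar (M * q)) (c ^ n) *
        (wS q M a b hab hq • f')))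
    (k : ℤ) (hk : HasSlope A q M a b hab hq f k) :
    HasSlope A q M a b hab hq f' ((n : ℤ) * k) := by
  obtain ⟨c₁, c₂, g₁, g₂, hv⟩ := hk
  refine ⟨c₁ ^ n, c₂ ^ n, h1 c₁ g₁, h2 c₂ g₂, ?_⟩
  rw [map_pow, map_pow, hv, mul_pow, mul_comm (n : ℤ) k, zpow_mul, zpow_natCast]

end Slope

/-- **HECKE.** -/
theorem stmt_CE_Hecke (q M : ℕ) (a b : ℤ) (hab : a * q + b * M = 1) (hq : q.Prime)
    [NeZero (M * q)] : Stmt_CE_Hecke q M a b hab hq := by
  intro A hA p hp ℓ hℓN t x hpx hfix hT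
  have hpx' : p • x = 0 := by
    rw [← natCast_zsmul]
    exact hpx
  -- step 1: Hilbert 90
  obtain ⟨D, f, hf0, hxD, hDf, hDfix, hffix, -, -⟩ :=
    Fermat.Agent.S36.H61.stmt_NUB0 (M * q) (A.inertiaSubgroupIn ℚ) p x hpx' hfix
  -- step 2: the Hecke operator on Kummer pairs
  obtain ⟨D', f', hf'0, hTD, hD'f', hD'fix, hU1, hU2⟩ :=
    Fermat.Agent.S43.CompEis.H9.stmt_CE_NormVal q M a b hab hq A hA ℓ hℓN p D f hf0 hDf
  -- the residue `t₀` of `t`
  have hp0 : (p : ℤ) ≠ 0 := by exact_mod_cast hp.ne_zero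
  obtain ⟨t₀, ht₀⟩ : ∃ t₀ : ℕ, (t₀ : ℤ) = t % p :=
    ⟨(t % p).toNat, Int.toNat_of_nonneg (Int.emod_nonneg _ hp0)⟩
  have htmod : ((t₀ : ℤ) : ZMod p) = (t : ZMod p) := by
    rw [ht₀]
    exact ZMod.intCast_mod t p
  have hdecomp : t = (t₀ : ℤ) + (t / p) * p := by
    rw [ht₀, mul_comm]
    exact (Int.emod_add_mul_ediv t p).symm
  have hcls : (Pic0.mk D' : JZero (M * q)) = t₀ • (Pic0.mk D : JZero (M * q)) := by
    rw [← hTD, ← hxD, hT]
    conv_lhs => rw [hdecomp]
    rw [add_zsmul, mul_zsmul, hpx, smul_zero, add_zero, natCast_zsmul]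
  -- step 3: the difference `D' - t₀ D` is principal and inertia-stable
  have hE0 : (Pic0.mk (D' - t₀ • D) : JZero (M * q)) = 0 := by
    have h1 : (Pic0.mk (D' - t₀ • D) : JZero (M * q))
        = Pic0.mk D' - t₀ • (Pic0.mk D : JZero (M * q)) := rfl
    rw [h1, hcls, sub_self]
  have hEfix : ∀ σ : ↥(A.inertiaSubgroupIn ℚ),
      Fermat.Agent.S36.H61.rhoH (M * q) (A.inertiaSubgroupIn ℚ) σ •
        ((D' - t₀ • D : Divisor.degZero (K := AlgebraicClosure ℚ) (F := ↥(FNbar (M * q)))) :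
          Divisor (AlgebraicClosure ℚ) ↥(FNbar (M * q)))
        = ((D' - t₀ • D : Divisor.degZero (K := AlgebraicClosure ℚ)
            (F := ↥(FNbar (M * q)))) : Divisor (AlgebraicClosure ℚ) ↥(FNbar (M * q))) := by
    intro σ
    have h1 := hDfix σ.1 σ.2
    have h2 := hD'fix σ.1 h1
    show galF (M * q) (σ : GalQ) •
      ((D' : Divisor (AlgebraicClosure ℚ) ↥(FNbar (M * q)))
        - t₀ • (D : Divisor (AlgebraicClosure ℚ) ↥(FNbar (M * q))))
      = (D' : Divisor (AlgebraicClosure ℚ) ↥(FNbar (M * q)))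
        - t₀ • (D : Divisor (AlgebraicClosure ℚ) ↥(FNbar (M * q)))
    rw [smul_sub, smul_comm, h1, h2]
  obtain ⟨g, hg0, hEg, hgfix, -⟩ :=
    Fermat.Agent.S36.H61.exists_fixed_function (M * q) (A.inertiaSubgroupIn ℚ) 1
      (D' - t₀ • D) hEfix (by rw [one_smul]; exact hE0)
  -- the quotient `f ^ t₀ g ^ p / f'` is a constant
  have hord : ∀ P : Place (AlgebraicClosure ℚ) ↥(FNbar (M * q)),
      P.ord (f ^ t₀ * g ^ p / f') = 0 := by
    intro P
    have e1 := hEg P
    have e2 : ((D' - t₀ • D : Divisor.degZero (K := AlgebraicClosure ℚ)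
        (F := ↥(FNbar (M * q)))) : Divisor (AlgebraicClosure ℚ) ↥(FNbar (M * q))) P
        = (D' : Divisor (AlgebraicClosure ℚ) ↥(FNbar (M * q))) P
          - t₀ * (D : Divisor (AlgebraicClosure ℚ) ↥(FNbar (M * q))) P := by
      show ((D' : Divisor (AlgebraicClosure ℚ) ↥(FNbar (M * q)))
        - t₀ • (D : Divisor (AlgebraicClosure ℚ) ↥(FNbar (M * q)))) P = _
      rw [Finsupp.sub_apply, Finsupp.smul_apply, nsmul_eq_mul]
    rw [e2] at e1
    rw [div_eq_mul_inv, P.ord_mul (mul_ne_zero (pow_ne_zero _ hf0) (pow_ne_zero _ hg0))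
        (inv_ne_zero hf'0), P.ord_mul (pow_ne_zero _ hf0) (pow_ne_zero _ hg0), P.ord_inv,
      H17.ord_pow, H17.ord_pow, ← hDf P, ← hD'f' P, ← e1]
    push_cast
    ring
  have hquot0 : f ^ t₀ * g ^ p / f' ≠ 0 :=
    div_ne_zero (mul_ne_zero (pow_ne_zero _ hf0) (pow_ne_zero _ hg0)) hf'0
  obtain ⟨c, hc⟩ := H36.const_of_ord_eq_zero (H95.stmt_HKA_isFF (M * q)) _ hquot0 hord
  have hc0 : c ≠ 0 := by
    rintro rfl
    rw [map_zero] at hc
    exact hquot0 hc
  have hcF : algebraMap (AlgebraicClosure ℚ) ↥(FNbar (M * q)) c ≠ 0 := (map_ne_zero _).mpr hc0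
  have hf' : algebraMap (AlgebraicClosure ℚ) ↥(FNbar (M * q)) c⁻¹ * f ^ t₀ * g ^ p = f' := by
    have h1 : f ^ t₀ * g ^ p = algebraMap (AlgebraicClosure ℚ) ↥(FNbar (M * q)) c * f' := by
      rw [← hc, div_mul_cancel₀ _ hf'0]
    rw [mul_assoc, h1, map_inv₀, ← mul_assoc, inv_mul_cancel₀ hcF, one_mul]
  refine ⟨D, f, g, c⁻¹, t₀, hf0, hg0, inv_ne_zero hc0, hxD, hDf, hffix, ?_, htmod, ?_⟩
  · intro σ hσ
    exact hgfix ⟨σ, hσ⟩
  · intro k hk
    rw [hf']
    have h := hasSlope_of_units A q M a b hab hq ((ℓ : ℕ) + 1) f f' hU1 hU2 k hk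
    rw [Nat.cast_add, Nat.cast_one] at h
    exact h

end Fermat.Agent.S43.CompEis.H9H

end
end
-- ==== END Fermat.Agent.S43.CompEis.H9_Hecke

-- ==== BEGIN Fermat.Agent.S43.H13_FrobDesc
section
attribute [local instance 10000] SubalgebraClass.toAlgebra
attribute [local instance 10000] HahnSeries.powerSeriesAlgebra

/-!
# S43, leaf FROB-DESC (helper13): descent of FROB-T from the level `3 (2 M)` to the level `3 M`

* `wq_inclusion` : the Atkin-Lehner involutions `w_q` of the levels `M q` and `M₂ q`, `M ∣ M₂`,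
  are compatible with the inclusion `F_{M q} ⊆ F_{M₂ q}`;
* `inK1_pb` : the pullback of a class of `K1` is in `K1`;
* `stmt_FrobDesc : Stmt_FrobDesc`.
-/

set_option autoImplicit false
set_option linter.style.haveILetI false
set_option linter.unusedSectionVars false
set_option synthInstance.maxHeartbeats 400000
set_option maxHeartbeats 1000000

noncomputable section

open HahnSeries IntermediateField AlgebraicCurve ModularCurve

namespace Fermat.Agent.S43.H13

open Fermat.Agent.BAD Fermat.Agent.S44 Fermat.Agent.S28.H73 Fermat.Agent.RED.H73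
open Fermat.Agent.S24 Fermat.Agent.S43.BadQ Fermat.Agent.RED

/-! ## The Atkin-Lehner involution and the inclusion of levels -/

section W

variable (q M M₂ : ℕ) (a b a₂ b₂ : ℤ) (hab : a * q + b * M = 1) (hab₂ : a₂ * q + b₂ * M₂ = 1)
  (hq : q.Prime) [NeZero (M * q)] [NeZero (M₂ * q)] (hMM : M ∣ M₂)

theorem inclusion_jdF {N N₂ : ℕ} [NeZero N] [NeZero N₂]
    (hle : modularFunctionFieldBar N ≤ modularFunctionFieldBar N₂) (d : ℕ) [NeZero d]
    (hd : d ∣ N) (hd₂ : d ∣ N₂) :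
    IntermediateField.inclusion hle (jdF N d hd) = jdF N₂ d hd₂ := by
  apply Subtype.ext
  rw [IntermediateField.coe_inclusion, H82.coe_jdF, H82.coe_jdF]

include hMM in
/-- `w_q` of the level `M₂ q` restricts to `w_q` of the level `M q`, `M ∣ M₂`. -/
theorem wqHom_inclusion (hle : modularFunctionFieldBar (M * q) ≤ modularFunctionFieldBar (M₂ * q)) :
    (H88.wqHom q M₂ a₂ b₂ hab₂ hq).comp (IntermediateField.inclusion hle)
      = (IntermediateField.inclusion hle).comp (H88.wqHom q M a b hab hq) := by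
  apply H88.algHom_ext_of_adjoin _ (adjoin_jdF (M * q))
  rintro x ⟨D, hD0, hD, rfl⟩
  rw [AlgHom.comp_apply, AlgHom.comp_apply]
  rcases H88.dvd_cases q M a b hab hq D hD with ⟨e, he⟩ | ⟨d, e, rfl, he⟩
  · haveI : NeZero (D * q) := ⟨(Nat.mul_pos (Nat.pos_of_ne_zero (NeZero.ne D)) hq.pos).ne'⟩
    have hDM : D ∣ M := ⟨e, he⟩
    have hDM₂ : D ∣ M₂ := hDM.trans hMM
    rw [H88.wqHom_jdF q M a b hab hq D hDM,
      inclusion_jdF hle D hD (Dvd.dvd.mul_right hDM₂ q),
      inclusion_jdF hle (D * q) (Nat.mul_dvd_mul_right hDM q) (Nat.mul_dvd_mul_right hDM₂ q),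
      H88.wqHom_jdF q M₂ a₂ b₂ hab₂ hq D hDM₂]
  · have hdpos : 0 < d := by
      rcases Nat.eq_zero_or_pos d with h | h
      · exfalso; apply NeZero.ne (d * q); rw [h, zero_mul]
      · exact h
    haveI : NeZero d := ⟨hdpos.ne'⟩
    have hdM : d ∣ M := ⟨e, he⟩
    have hdM₂ : d ∣ M₂ := hdM.trans hMM
    rw [H88.wqHom_jdF_mul q M a b hab hq d hdM,
      inclusion_jdF hle (d * q) hD (Nat.mul_dvd_mul_right hdM₂ q),
      inclusion_jdF hle d (Dvd.dvd.mul_right hdM q) (Dvd.dvd.mul_right hdM₂ q),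
      H88.wqHom_jdF_mul q M₂ a₂ b₂ hab₂ hq d hdM₂]

include hMM in
/-- `w_q` of the levels `M q` and `M₂ q` are intertwined by the inclusion. -/
theorem wS_intertwines (hle : modularFunctionFieldBar (M * q) ≤ modularFunctionFieldBar (M₂ * q)) :
    SemilinearAut.IntertwinesAlong
      ((IntermediateField.inclusion hle : ↥(FNbar (M * q)) →ₐ[AlgebraicClosure ℚ] ↥(FNbar (M₂ * q))) :
        ↥(FNbar (M * q)) →+* ↥(FNbar (M₂ * q)))
      (wS q M a b hab hq) (wS q M₂ a₂ b₂ hab₂ hq) := by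
  intro x
  have h := congrArg (fun g : ↥(FNbar (M * q)) →ₐ[AlgebraicClosure ℚ] ↥(FNbar (M₂ * q)) => g x)
    (wqHom_inclusion q M M₂ a b a₂ b₂ hab hab₂ hq hMM hle)
  exact h

end W

/-! ## The Galois action and the inclusion of levels -/

theorem galF_intertwines {N N₂ : ℕ}
    (hle : modularFunctionFieldBar N ≤ modularFunctionFieldBar N₂) (σ : GalQ) :
    SemilinearAut.IntertwinesAlong
      ((IntermediateField.inclusion hle : ↥(FNbar N) →ₐ[AlgebraicClosure ℚ] ↥(FNbar N₂)) :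
        ↥(FNbar N) →+* ↥(FNbar N₂))
      (galF N σ) (galF N₂ σ) := by
  intro x
  apply Subtype.ext
  show ((galF N₂ σ • (IntermediateField.inclusion hle x) : ↥(FNbar N₂)) :
      LaurentSeries (AlgebraicClosure ℚ))
    = ((IntermediateField.inclusion hle (galF N σ • x) : ↥(FNbar N₂)) :
      LaurentSeries (AlgebraicClosure ℚ))
  rw [IntermediateField.coe_inclusion, coe_arithmeticGalois_smul, coe_arithmeticGalois_smul,
    IntermediateField.coe_inclusion]

/-! ## The Gauss valuation and the inclusion of levels -/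

/-- A Gauss unit of residue `1` of the level `N` is a Gauss unit of residue `1` of the level
`N₂`. -/
theorem gauss_pb {N N₂ : ℕ}
    (hle : modularFunctionFieldBar N ≤ modularFunctionFieldBar N₂)
    (A : ValuationSubring (AlgebraicClosure ℚ)) (f : ↥(gaussV A N)) (hres : gaussRes A N f = 1) :
    ∃ hf' : (IntermediateField.inclusion hle (f : ↥(FNbar N)) : ↥(FNbar N₂)) ∈ gaussV A N₂,
      gaussRes A N₂ ⟨_, hf'⟩ = 1 := by
  set f' : ↥(FNbar N₂) := IntermediateField.inclusion hle (f : ↥(FNbar N)) with hf'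
  have hcoe : ((f' : ↥(FNbar N₂)) : LaurentSeries (AlgebraicClosure ℚ))
      = ((f : ↥(FNbar N)) : LaurentSeries (AlgebraicClosure ℚ)) :=
    IntermediateField.coe_inclusion hle (f : ↥(FNbar N))
  have hfV : ((f : ↥(FNbar N)) : LaurentSeries (AlgebraicClosure ℚ)) ∈ gaussRingV A :=
    (mem_gaussValSub_iff A (hasScale_laurentBaseChange A N) _).mp f.2
  have hf'V : f' ∈ gaussV A N₂ := by
    show ((f' : ↥(FNbar N₂)) : LaurentSeries (AlgebraicClosure ℚ)) ∈ gaussRingV A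
    rw [hcoe]
    exact hfV
  refine ⟨hf'V, ?_⟩
  apply Subtype.ext
  have e1 : gaussResF A (hasScale_laurentBaseChange A N) f = 1 := congrArg Subtype.val hres
  rw [gaussResF_apply] at e1
  show gaussResF A (hasScale_laurentBaseChange A N₂) ⟨f', hf'V⟩ = 1
  rw [gaussResF_apply, ← e1]
  congr 1

/-! ## FROB-DESC -/

/-- **Descent of FROB-T** from the level `(r M) q` to the level `M q`, `r ∣ 36`
(every prime `p`, every prime `q ∤ r M`). -/
theorem frobToricAt_descend {p : ℕ} (hp : p.Prime) (q r M : ℕ) (a b a₂ b₂ : ℤ)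
    (hab : a * q + b * M = 1) (hab₂ : a₂ * (q : ℤ) + b₂ * ((r * M : ℕ) : ℤ) = 1) (hq : q.Prime)
    [NeZero (M * q)] [NeZero (r * M * q)] (hr36 : r ∣ 36)
    (A : ValuationSubring (AlgebraicClosure ℚ))
    (hT : FrobToricAt (-1) p q (r * M) a₂ b₂ hab₂ hq A) :
    FrobToricAt (-1) p q M a b hab hq A := by
  intro σ hσ x hx0 hK hK'
  have hNN : M * q ∣ r * M * q := ⟨r, by ring⟩
  have hN36 : r * M * q ∣ 36 * (M * q) := by
    obtain ⟨k, hk⟩ := hr36
    exact ⟨k, by rw [hk]; ring⟩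
  have hle : modularFunctionFieldBar (M * q) ≤ modularFunctionFieldBar (r * M * q) :=
    S18.modularFunctionFieldBar_mono hNN
  have hFFN := H95.stmt_HKA_isFF (M * q)
  have hFFN₂ := H95.stmt_HKA_isFF (r * M * q)
  set φ : ↥(FNbar (M * q)) →ₐ[AlgebraicClosure ℚ] ↥(FNbar (r * M * q)) :=
    IntermediateField.inclusion hle with hφdef
  have hint : φ.toRingHom.IsIntegral := (H51.stmt_FFB_finite _ _ _ hFFN hFFN₂ φ).1
  haveI hPD : HasPrincipalDivisors (AlgebraicClosure ℚ) ↥(FNbar (r * M * q)) :=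
    H51.stmt_FFB_principal _ _ hFFN₂
  have hFI : FundamentalIdentityAlong (AlgebraicClosure ℚ) φ hint :=
    H51.stmt_FFB_fundamental _ _ _ hFFN hFFN₂ φ hint hPD
  have H₂ : RED.H17.FFHyp (AlgebraicClosure ℚ) ↥(FNbar (r * M * q)) :=
    RED.H17.ffHyp_of_isFF _ _ hFFN₂
  set W : SemilinearAut (AlgebraicClosure ℚ) ↥(FNbar (M * q)) := wS q M a b hab hq with hWdef
  set W₂ : SemilinearAut (AlgebraicClosure ℚ) ↥(FNbar (r * M * q)) :=
    wS q (r * M) a₂ b₂ hab₂ hq with hW₂def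
  have hWint : SemilinearAut.IntertwinesAlong (φ : ↥(FNbar (M * q)) →+* ↥(FNbar (r * M * q)))
      W W₂ := wS_intertwines q M (r * M) a b a₂ b₂ hab hab₂ hq ⟨r, by ring⟩ hle
  have hσint : SemilinearAut.IntertwinesAlong
      (φ : ↥(FNbar (M * q)) →+* ↥(FNbar (r * M * q))) (galF (M * q) σ) (galF (r * M * q) σ) :=
    galF_intertwines hle σ
  obtain ⟨D, f, rfl, hf1, hD⟩ := hK
  obtain ⟨D', f', hx', hf'1, hD'⟩ := hK'
  have hf0 : ((f : ↥(gaussV A (M * q))) : ↥(FNbar (M * q))) ≠ 0 := ne_zero_of_gaussRes_eq_one hf1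
  -- the classes at the upper level
  obtain ⟨hfV, hfres⟩ := gauss_pb hle A f hf1
  obtain ⟨hf'V, hf'res⟩ := gauss_pb hle A f' hf'1
  set x₂ : JZero (r * M * q) := Pic0.mk (pbDZ φ hint hFI D) with hx₂
  have hx₂pb : x₂ = pbPic φ hint hFI (Pic0.mk D) := rfl
  have hx₂0 : (p : ℤ) • x₂ = 0 := by
    rw [hx₂pb, ← map_zsmul, hx0, map_zero]
  have hK₂ : InK1 A (r * M * q) p x₂ :=
    ⟨pbDZ φ hint hFI D, ⟨_, hfV⟩, rfl, hfres, fun P' => pbDZ_ord φ hint hFI hD P'⟩
  have hWx₂ : W₂ • x₂ = Pic0.mk (pbDZ φ hint hFI D') := by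
    rw [hx₂pb, ← pbPic_smul φ hint hFI W W₂ hWint, hx']
    rfl
  have hK₂' : InK1 A (r * M * q) p (W₂ • x₂) :=
    ⟨pbDZ φ hint hFI D', ⟨_, hf'V⟩, hWx₂, hf'res, fun P' => pbDZ_ord φ hint hFI hD' P'⟩
  -- FROB-T at the level `(r M) q`
  have hT' := hT σ hσ x₂ hx₂0 hK₂ hK₂'
  have hcls : galF (r * M * q) σ • (Pic0.mk (pbDZ φ hint hFI D) : Pic0 (AlgebraicClosure ℚ)
        ↥(FNbar (r * M * q)))
      + (q : ℤ) • (W₂ • (Pic0.mk (pbDZ φ hint hFI D) : Pic0 (AlgebraicClosure ℚ)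
        ↥(FNbar (r * M * q)))) = 0 := by
    have e1 : galF (r * M * q) σ • (Pic0.mk (pbDZ φ hint hFI D) : Pic0 (AlgebraicClosure ℚ)
        ↥(FNbar (r * M * q))) = σ • x₂ := rfl
    rw [e1, hT', neg_one_mul, neg_smul]
    exact neg_add_cancel _
  -- the descent
  have hroot : ∀ c : AlgebraicClosure ℚ, ∃ d : AlgebraicClosure ℚ, d ^ p = c :=
    fun c => IsAlgClosed.exists_pow_nat_eq c hp.pos
  have hconst' : ∀ g : ↥(FNbar (r * M * q)), g ≠ 0 →
      (∀ P : Place (AlgebraicClosure ℚ) ↥(FNbar (r * M * q)), P.ord g = 0) →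
      ∃ c : AlgebraicClosure ℚ, g = algebraMap (AlgebraicClosure ℚ) ↥(FNbar (r * M * q)) c :=
    fun g _ hg => H₂.const_of_regular (fun P => (hg P).ge)
  have hKD : ∀ g : ↥(FNbar (M * q)),
      (∀ P : Place (AlgebraicClosure ℚ) ↥(FNbar (M * q)), (p : ℤ) ∣ P.ord g) →
      (∃ t' : ↥(FNbar (r * M * q)), t' ^ p = φ g) → ∃ t : ↥(FNbar (M * q)), t ^ p = g := by
    rintro g hdiv ⟨t', ht'⟩
    refine Fermat.Agent.RED.KD.H22.stmt_KD (M * q) (r * M * q) p hNN hN36 hp.pos g hdiv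
      ⟨(t' : LaurentSeries (AlgebraicClosure ℚ)), t'.2, ?_⟩
    have h3 := congrArg (Subtype.val : ↥(FNbar (r * M * q)) → LaurentSeries (AlgebraicClosure ℚ)) ht'
    have h4 : ((t' ^ p : ↥(FNbar (r * M * q))) : LaurentSeries (AlgebraicClosure ℚ))
        = ((φ g : ↥(FNbar (r * M * q))) : LaurentSeries (AlgebraicClosure ℚ)) := h3
    rw [IntermediateField.coe_pow, hφdef, IntermediateField.coe_inclusion] at h4
    exact h4
  have hsum := frobDesc_abs φ hint hFI hconst' p hp.ne_zero hroot q (galF (M * q) σ) W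
    (galF (r * M * q) σ) W₂ hσint hWint hKD D (f : ↥(FNbar (M * q))) hf0 hD hcls
  have hfin : σ • (Pic0.mk D : JZero (M * q))
      = -((q : ℤ) • (W • (Pic0.mk D : JZero (M * q)))) :=
    eq_neg_of_add_eq_zero_left hsum
  rw [hfin, neg_one_mul, neg_smul]

/-- The data of the upper level `(r M) q`. -/
theorem exists_upper (q r M : ℕ) (hq : q.Prime) [NeZero (M * q)] (hr0 : r ≠ 0)
    (hqrM : ¬ q ∣ r * M) :
    NeZero (r * M * q) ∧ ∃ a₂ b₂ : ℤ, a₂ * (q : ℤ) + b₂ * ((r * M : ℕ) : ℤ) = 1 := by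
  have hN0 : M * q ≠ 0 := NeZero.ne (M * q)
  have hM0 : M ≠ 0 := fun h => hN0 (by rw [h, zero_mul])
  refine ⟨⟨Nat.mul_ne_zero (Nat.mul_ne_zero hr0 hM0) hq.pos.ne'⟩, ?_⟩
  have hcop : IsCoprime ((q : ℕ) : ℤ) (((r * M : ℕ)) : ℤ) :=
    Nat.isCoprime_iff_coprime.2 ((Nat.Prime.coprime_iff_not_dvd hq).2 hqrM)
  obtain ⟨a₂, b₂, hab₂⟩ := hcop
  exact ⟨a₂, b₂, hab₂⟩

/-- **FROB-DESC**: FROB-T at the level `3 M`, `M` odd, from FROB-T at the tame levels. -/
theorem stmt_FrobDesc : Fermat.Agent.S43.BadQ.Stmt_FrobDesc := by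
  intro hT p hp hp5 M a b hab hq _ h3p h2M hsq A hA
  have h3M : ¬ 3 ∣ M := H88.q_not_dvd_M 3 M a b hab hq
  have h3M₂ : ¬ 3 ∣ 2 * M := by omega
  obtain ⟨hne, a₂, b₂, hab₂⟩ := exists_upper 3 2 M hq (by norm_num) h3M₂
  haveI := hne
  exact frobToricAt_descend hp 3 2 M a b a₂ b₂ hab hab₂ hq (by norm_num) A
    (hT p hp hp5 3 (2 * M) a₂ b₂ hab₂ hq h3p h3M₂ (Or.inr (Or.inl ⟨rfl, ⟨M, rfl⟩⟩)) A hA)

end Fermat.Agent.S43.H13

end
end
-- ==== END Fermat.Agent.S43.H13_FrobDesc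

-- ==== BEGIN Fermat.Agent.S53
section

set_option autoImplicit false
set_option autoImplicit false
open GaloisRep

namespace Fermat.Agent.S53

theorem result
    (𝒪 : Type) [CommRing 𝒪] [IsDomain 𝒪] [IsDiscreteValuationRing 𝒪]
    [IsAdicComplete (IsLocalRing.maximalIdeal 𝒪) 𝒪] [Finite (IsLocalRing.ResidueField 𝒪)]
    (ρbar : ResidualGaloisRep (IsLocalRing.ResidueField 𝒪))
    (𝒟 : ∀ ⦃A : Type⦄ [CommRing A] [IsLocalRing A] [Algebra 𝒪 A], GaloisRepAdic A → Prop)
    (habs : ρbar.IsAbsolutelyIrreducible)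
    (h𝒟 : GaloisRep.IsDeformationCondition 𝒪 𝒟)
    (hbar : 𝒟 (GaloisRepAdic.ofResidualGaloisRep ρbar))
    (hfin : GaloisRep.TangentFinite 𝒪 ρbar 𝒟) :
    Nonempty (GaloisRep.DeformationRingData 𝒪 ρbar 𝒟) := by
  obtain ⟨N⟩ := exists_normData (𝒪 := 𝒪) habs
  obtain ⟨T⟩ := exists_univTower h𝒟 hbar hfin N
  obtain ⟨R, _, _, _, _, _, _, π, hres, hπs, -, hπk, hπl⟩ :=
    Limit.exists_limit 𝒪 T.D (fun j => inferInstance) T.res_surj T.u T.u_surj T.ker_u T.lev
  exact Univ.nonempty_of_limit 𝒪 ρbar 𝒟 h𝒟 habs N T R π hres hπs hπk hπl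

end Fermat.Agent.S53

end
-- ==== END Fermat.Agent.S53

-- ==== BEGIN Fermat.Agent.S59.Datum.H57_ResIrr
section

/-!
# S59 package DATUM, leaf RESIRR (helper57)

A residual representation over `k'` whose Frobenius characteristic polynomials are the images
under `φ : k → k'` of those of an absolutely irreducible `ρbar` over `k` is absolutely
irreducible and equivalent to the base change of `ρbar`.

* `absIrr_baseChangeAlong` : base change along a field homomorphism preserves absolute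
  irreducibility.
* `absIrr_of_isEquiv` : absolute irreducibility is invariant under equivalence.
* `charpoly_baseChangeAlong` : the characteristic polynomials of a base change.
* `stmt_ResIrr : Stmt_ResIrr`.
-/

set_option autoImplicit false
set_option linter.style.haveILetI false

open Polynomial
open scoped TensorProduct

namespace Fermat.Agent.S59.Datum.H57

open Fermat.Agent.S53.Schur

variable {k k' : Type} [Field k] [Field k']

/-- Base change along a field homomorphism preserves absolute irreducibility. -/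
theorem absIrr_baseChangeAlong (φ : k →+* k') (ρbar : ResidualGaloisRep k)
    (h : ρbar.IsAbsolutelyIrreducible) : (ρbar.baseChangeAlong φ).IsAbsolutelyIrreducible := by
  classical
  letI : Algebra k k' := φ.toAlgebra
  let b : Module.Basis (Fin 2) k ρbar.V := Module.finBasisOfFinrankEq k ρbar.V ρbar.finrank_eq
  let b' : Module.Basis (Fin 2) k' (ρbar.baseChangeAlong φ).V := Algebra.TensorProduct.basis k' b
  obtain ⟨g, hg⟩ := exists_det_ne_zero ρbar h b
  refine Fermat.Agent.R.H86.absIrr_of_det_ne_zero _ b' g ?_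
  have hmat : ∀ σ, LinearMap.toMatrix b' b' ((ρbar.baseChangeAlong φ).ρ σ)
      = (LinearMap.toMatrix b b (ρbar.ρ σ)).map φ := fun σ =>
    LinearMap.toMatrix_baseChange k' (ρbar.ρ σ) b b
  have : (fun p => LinearMap.toMatrix b' b' ((ρbar.baseChangeAlong φ).ρ (g p)))
      = fun p => (LinearMap.toMatrix b b (ρbar.ρ (g p))).map φ := by
    funext p
    rw [hmat]
  rw [this, det_flat_map]
  exact fun h0 => hg ((map_eq_zero_iff _ φ.injective).1 h0)

/-- Absolute irreducibility is invariant under equivalence. -/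
theorem absIrr_of_isEquiv {ρ₁ ρ₂ : ResidualGaloisRep k} (e : ρ₁.IsEquiv ρ₂)
    (h : ρ₂.IsAbsolutelyIrreducible) : ρ₁.IsAbsolutelyIrreducible := by
  classical
  obtain ⟨e⟩ := e
  let b₂ : Module.Basis (Fin 2) k ρ₂.V := Module.finBasisOfFinrankEq k ρ₂.V ρ₂.finrank_eq
  let b₁ : Module.Basis (Fin 2) k ρ₁.V := b₂.map e.toLinearEquiv.symm
  obtain ⟨g, hg⟩ := exists_det_ne_zero ρ₂ h b₂
  refine Fermat.Agent.R.H86.absIrr_of_det_ne_zero ρ₁ b₁ g ?_
  have hmat : ∀ σ, LinearMap.toMatrix b₁ b₁ (ρ₁.ρ σ) = LinearMap.toMatrix b₂ b₂ (ρ₂.ρ σ) := by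
    intro σ
    ext i j
    rw [LinearMap.toMatrix_apply, LinearMap.toMatrix_apply]
    show (b₂.map e.toLinearEquiv.symm).repr (ρ₁.ρ σ ((b₂.map e.toLinearEquiv.symm) j)) i = _
    rw [Module.Basis.map_repr, LinearEquiv.trans_apply, LinearEquiv.symm_symm,
      e.map_apply, Module.Basis.map_apply, LinearEquiv.apply_symm_apply]
  have : (fun p => LinearMap.toMatrix b₁ b₁ (ρ₁.ρ (g p)))
      = fun p => LinearMap.toMatrix b₂ b₂ (ρ₂.ρ (g p)) := by
    funext p
    rw [hmat]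
  rw [this]
  exact hg

/-- The characteristic polynomials of a base change. -/
theorem charpoly_baseChangeAlong (φ : k →+* k') (ρbar : ResidualGaloisRep k) (σ : GalQ) :
    LinearMap.charpoly ((ρbar.baseChangeAlong φ).ρ σ) = (LinearMap.charpoly (ρbar.ρ σ)).map φ := by
  letI : Algebra k k' := φ.toAlgebra
  exact LinearMap.charpoly_baseChange (A := k') (ρbar.ρ σ)

/-- **RESIRR.** -/
theorem stmt_ResIrr : Stmt_ResIrr := by
  intro k k' _ _ φ ρbar ρ' S hirr h
  have hirr' := absIrr_baseChangeAlong φ ρbar hirr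
  have he : ρ'.IsEquiv (ρbar.baseChangeAlong φ) := by
    refine stmt_ResEq k' ρ' (ρbar.baseChangeAlong φ) S hirr' ?_
    intro ℓ hℓ hℓS B hB σ hσ
    rw [h ℓ hℓ hℓS B hB σ hσ, charpoly_baseChangeAlong]
  exact ⟨absIrr_of_isEquiv he hirr', he⟩

end Fermat.Agent.S59.Datum.H57

end
-- ==== END Fermat.Agent.S59.Datum.H57_ResIrr

-- ==== BEGIN Fermat.Agent.S59.Datum.H78_FlatDesc
section

set_option autoImplicit false
set_option linter.unusedSectionVars false
set_option linter.unusedVariables false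
set_option linter.style.haveILetI false

open IsLocalRing TensorProduct

noncomputable section

namespace Fermat.Agent.S59.Datum.H78

open Fermat.Agent.R

local notation "Γℚ" => (AlgebraicClosure ℚ ≃ₐ[ℚ] AlgebraicClosure ℚ)

section quot

variable {A : Type} [CommRing A] [IsLocalRing A] (ρ : GaloisRepAdic A)

/-- `k_A ⊗[A] V ≃ V ⧸ 𝔪 V`. -/
def resQuot : (ResidueField A ⊗[A] ρ.V) ≃ₗ[A]
    (ρ.V ⧸ (maximalIdeal A • (⊤ : Submodule A ρ.V))) :=
  TensorProduct.quotTensorEquivQuotSMul ρ.V (maximalIdeal A)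

theorem resQuot_tmul (r : A) (v : ρ.V) :
    resQuot ρ (residue A r ⊗ₜ[A] v) = Submodule.Quotient.mk (r • v) :=
  TensorProduct.quotTensorEquivQuotSMul_mk_tmul (maximalIdeal A) r v

theorem resQuot_equivariant (σ : Γℚ) (x : ResidueField A ⊗[A] ρ.V) :
    resQuot ρ ((ρ.ρ σ).baseChange (ResidueField A) x) =
      ρ.levelAction (maximalIdeal A) σ (resQuot ρ x) := by
  induction x using TensorProduct.induction_on with
  | zero => rw [map_zero, map_zero, map_zero]
  | tmul c v =>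
    obtain ⟨r, rfl⟩ := residue_surjective c
    rw [LinearMap.baseChange_tmul, resQuot_tmul, resQuot_tmul]
    show _ = Submodule.Quotient.mk (ρ.ρ σ (r • v))
    rw [map_smul]
  | add x y hx hy => rw [map_add, map_add, map_add, map_add, hx, hy]

/-- The inverse of `resQuot`, as an additive map. -/
def quotRes : (ρ.V ⧸ (maximalIdeal A • (⊤ : Submodule A ρ.V))) →+ (ResidueField A ⊗[A] ρ.V) :=
  ((resQuot ρ).symm : _ →ₗ[A] _).toAddMonoidHom

theorem quotRes_apply (x : ρ.V ⧸ (maximalIdeal A • (⊤ : Submodule A ρ.V))) :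
    quotRes ρ x = (resQuot ρ).symm x := rfl

end quot

/-- The residual representation of a flat representation is a flat Galois module. -/
theorem isFlatGaloisModule_residual {A : Type} [CommRing A] [IsLocalRing A]
    (ρ : GaloisRepAdic A) (p : ℕ) (hp : p.Prime) (h : ρ.IsFlatAt p) :
    IsFlatGaloisModule p (ResidueField A ⊗[A] ρ.V)
      (fun σ => (ρ.ρ σ).baseChange (ResidueField A)) := by
  rw [isFlatAt_iff] at h
  haveI := h.1
  have hfin : Finite (A ⧸ maximalIdeal A) := h.1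
  have h₀ := h.2 (maximalIdeal A) hfin
  refine H54.stmt_FlatQuot p hp _ _ _ _ (quotRes ρ) ?_ ?_ h₀
  · exact (resQuot ρ).symm.surjective
  · intro σ x
    rw [quotRes_apply, quotRes_apply]
    apply (resQuot ρ).injective
    rw [LinearEquiv.apply_symm_apply, resQuot_equivariant, LinearEquiv.apply_symm_apply]

/-- A flat Galois module structure on `ρbar.V` gives flatness of `ρbar`. -/
theorem isFlatAt_of_isFlatGaloisModule {k : Type} [Field k] [Finite k]
    (ρbar : ResidualGaloisRep k) (p : ℕ) (hp : p.Prime)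
    (h : IsFlatGaloisModule p ρbar.V (fun σ => ρbar.ρ σ)) :
    (GaloisRepAdic.ofResidualGaloisRep ρbar).IsFlatAt p := by
  rw [isFlatAt_iff]
  refine ⟨Finite.of_surjective (residue k) residue_surjective, fun I hI => ?_⟩
  have hmod : IsFlatGaloisModule p (GaloisRepAdic.ofResidualGaloisRep ρbar).V
      (fun σ => (GaloisRepAdic.ofResidualGaloisRep ρbar).ρ σ) := h
  refine H54.stmt_FlatQuot p hp _ _ _ _
    (Submodule.mkQ (I • (⊤ : Submodule k (GaloisRepAdic.ofResidualGaloisRep ρbar).V))).toAddMonoidHom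
    ?_ ?_ hmod
  · exact Submodule.mkQ_surjective _
  · intro σ x
    rfl

section main

variable {k : Type} [Field k] (ρbar : ResidualGaloisRep k) {kA : Type} [Field kA] [Algebra k kA]

/-- `v ↦ 1 ⊗ v`. -/
def incl : ρbar.V →+ (kA ⊗[k] ρbar.V) :=
  (TensorProduct.mk k kA ρbar.V 1).toAddMonoidHom

theorem incl_apply (v : ρbar.V) : incl ρbar (kA := kA) v = (1 : kA) ⊗ₜ[k] v := rfl

theorem incl_injective : Function.Injective (incl ρbar (kA := kA)) :=
  Module.FaithfullyFlat.tensorProduct_mk_injective (A := k) (B := kA) ρbar.V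

theorem incl_equivariant (σ : Γℚ) (v : ρbar.V) :
    incl ρbar (kA := kA) (ρbar.ρ σ v) = (ρbar.ρ σ).baseChange kA (incl ρbar (kA := kA) v) := by
  rw [incl_apply, incl_apply, LinearMap.baseChange_tmul]

end main

/-- **COND-FLATDESC**. -/
theorem stmt_FlatDesc : Stmt_FlatDesc := by
  intro p hp k _ _ ρbar A _ _ _ φ ρ hequiv hflat
  obtain ⟨e⟩ := hequiv
  have h1 := isFlatGaloisModule_residual ρ p hp hflat
  apply isFlatAt_of_isFlatGaloisModule ρbar p hp
  letI : Algebra k (ResidueField A) := φ.toAlgebra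
  -- the equivalence, with explicit types
  let e' : (ResidueField A ⊗[A] ρ.V) ≃ₗ[ResidueField A] (ResidueField A ⊗[k] ρbar.V) :=
    e.toLinearEquiv
  have he' : ∀ (σ : Γℚ) (x : ResidueField A ⊗[A] ρ.V),
      e' ((ρ.ρ σ).baseChange (ResidueField A) x) =
        (ρbar.ρ σ).baseChange (ResidueField A) (e' x) := fun σ x => e.map_apply σ x
  let ι : ρbar.V →+ (ResidueField A ⊗[A] ρ.V) :=
    (e'.symm : _ →ₗ[ResidueField A] _).toAddMonoidHom.comp (incl ρbar (kA := ResidueField A))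
  have hι : ∀ v, ι v = e'.symm (incl ρbar (kA := ResidueField A) v) := fun v => rfl
  refine H54.stmt_FlatSub p hp _ ρbar.V _ _ ι ?_ ?_ h1
  · intro x y hxy
    rw [hι, hι] at hxy
    exact incl_injective ρbar (e'.symm.injective hxy)
  · intro σ x
    show ι (ρbar.ρ σ x) = (ρ.ρ σ).baseChange (ResidueField A) (ι x)
    rw [hι, hι]
    apply e'.injective
    rw [LinearEquiv.apply_symm_apply, he', LinearEquiv.apply_symm_apply, incl_equivariant]

end Fermat.Agent.S59.Datum.H78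

end
end
-- ==== END Fermat.Agent.S59.Datum.H78_FlatDesc

-- ==== BEGIN Fermat.Agent.S59.Datum.H7_Asm
section

set_option autoImplicit false
set_option linter.style.haveILetI false
set_option linter.unusedSectionVars false

open Polynomial IsLocalRing CuspForm

namespace Fermat.Agent.S59.Datum.H7

open Fermat.Agent.R

section Aux

/-- Trace and determinant of a `2 × 2` matrix from its characteristic polynomial. -/
theorem trace_det_of_charpoly {A : Type*} [CommRing A] [Nontrivial A]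
    (M : Matrix (Fin 2) (Fin 2) A) (t d : A)
    (h : M.charpoly = X ^ 2 - C t * X + C d) : M.trace = t ∧ M.det = d := by
  rw [Matrix.charpoly_fin_two] at h
  have h1 := congrArg (fun q => q.coeff 1) h
  have h0 := congrArg (fun q => q.coeff 0) h
  simp only [coeff_add, coeff_sub, coeff_X_pow, coeff_C_mul, coeff_X, coeff_C] at h1 h0
  norm_num at h1 h0
  exact ⟨h1, h0⟩

/-- In a local ring with an odd prime in the maximal ideal, `2` is a unit. -/
theorem isUnit_two_of_odd {A : Type*} [CommRing A] [IsLocalRing A] {p : ℕ} (hp : p.Prime)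
    (hp2 : p ≠ 2) (hpA : (p : A) ∈ maximalIdeal A) : IsUnit (2 : A) := by
  by_contra h2
  have h2m : (2 : A) ∈ maximalIdeal A := (IsLocalRing.mem_maximalIdeal _).2 h2
  obtain ⟨k, hk⟩ := hp.eq_two_or_odd'.resolve_left hp2
  have h1 : (1 : A) = (p : A) - 2 * (k : A) := by
    rw [hk]; push_cast; ring
  have : (1 : A) ∈ maximalIdeal A := by
    rw [h1]
    exact Ideal.sub_mem _ hpA (Ideal.mul_mem_right _ _ h2m)
  exact (Ideal.ne_top_iff_one _).1 (IsLocalRing.maximalIdeal.isMaximal A).ne_top this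

/-- Trace and determinant of the conjugate by `diag(1, s⁻¹)`. -/
theorem trace_det_conj {A : Type*} [CommRing A] (M : Matrix (Fin 2) (Fin 2) A) (s : Aˣ) :
    (Matrix.of ![![M 0 0, M 0 1 * (s : A)], ![M 1 0 * ((s⁻¹ : Aˣ) : A), M 1 1]]).trace =
        M.trace ∧
      (Matrix.of ![![M 0 0, M 0 1 * (s : A)], ![M 1 0 * ((s⁻¹ : Aˣ) : A), M 1 1]]).det =
        M.det := by
  constructor
  · simp [Matrix.trace_fin_two]
  · simp only [Matrix.det_fin_two, Matrix.of_apply, Matrix.cons_val_zero, Matrix.cons_val_one,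
      Matrix.cons_val']
    have hs : (s : A) * ((s⁻¹ : Aˣ) : A) = 1 := s.mul_inv
    linear_combination (- M 0 1 * M 1 0) * hs

end Aux

section Rep

variable (𝒪 : Type) [CommRing 𝒪] [IsDomain 𝒪] [IsDiscreteValuationRing 𝒪]
  [IsAdicComplete (maximalIdeal 𝒪) 𝒪] [Finite (ResidueField 𝒪)] [CharZero 𝒪]
  (p : ℕ) [Fact p.Prime]
  (N : ℕ) [NeZero N] (S : Finset ℕ)
  (T : Type) [CommRing T] [IsLocalRing T] [Algebra 𝒪 T] [IsLocalHom (algebraMap 𝒪 T)]
  [Module.Finite 𝒪 T] [Module.Free 𝒪 T] [IsAdicComplete (maximalIdeal T) T]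

/-- `p` lies in the maximal ideal at every point. -/
theorem PtRep.natCast_mem (hpT : (p : T) ∈ maximalIdeal T) (P : PtRep 𝒪 T) :
    (p : P.O) ∈ maximalIdeal P.O := by
  rw [IsLocalRing.mem_maximalIdeal, mem_nonunits_iff]
  intro hu
  have h1 : IsUnit (P.x (p : T)) := by rwa [map_natCast]
  haveI := P.isLocalHom
  exact (IsLocalRing.mem_maximalIdeal _).1 hpT (isUnit_of_map_unit P.x _ h1)

/-- Uniform separation in terms of the powers of the maximal ideals. -/
theorem exists_level (hp0 : p ≠ 0) {r : ℕ} (P : Fin r → PtRep 𝒪 T) (c : ℕ)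
    (hsep : ∀ (n : ℕ) (t : T), (∀ i, (P i).x t ∈ Ideal.span {((p : (P i).O)) ^ (n + c)}) →
      t ∈ Ideal.span {((p : T)) ^ n}) (n : ℕ) :
    ∃ m : ℕ, ∀ t : T, (∀ i, (P i).x t ∈ maximalIdeal (P i).O ^ m) →
      t ∈ Ideal.span {((p : T)) ^ n} := by
  classical
  have hlev : ∀ i, ∃ M : ℕ, maximalIdeal (P i).O ^ M ≤ Ideal.span {((p : (P i).O)) ^ (n + c)} :=
    fun i => exists_pow_le_span (pow_ne_zero _ (Nat.cast_ne_zero.mpr hp0))
  choose M hM using hlev
  refine ⟨Finset.univ.sup M, fun t ht => hsep n t fun i => hM i ?_⟩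
  exact Ideal.pow_le_pow_right (Finset.le_sup (Finset.mem_univ i)) (ht i)

/-- The Frobenius characteristic polynomials of the residual representation. -/
theorem residual_charpoly {A : Type} [CommRing A] [IsLocalRing A] [Algebra 𝒪 A]
    [IsLocalHom (algebraMap 𝒪 A)]
    (ψ : CuspForm.heckeAlgebra N 2 (↑S : Set ℕ) →+* A)
    (θ : CuspForm.heckeAlgebra N 2 (↑S : Set ℕ) →+* ResidueField 𝒪)
    (hψ : ∀ t : CuspForm.heckeAlgebra N 2 (↑S : Set ℕ),
      residue A (ψ t) = ResidueField.map (algebraMap 𝒪 A) (θ t))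
    (ρ : GaloisRepAdic A) (hρ : HasFrobCharpoly ψ ρ)
    (ρbar : ResidualGaloisRep (ResidueField 𝒪)) (hθ : FrobHyp ρbar N S θ)
    (hNS : ∀ q : ℕ, q.Prime → q ∣ N → q ∈ S)
    (ℓ : ℕ) (hℓ : ℓ.Prime) (hℓS : ℓ ∉ S) (B : ValuationSubring (AlgebraicClosure ℚ))
    (hB : B.LiesOverPrime ℓ) (σ : GalQ) (hσ : B.IsFrobeniusAt σ ℓ) :
    LinearMap.charpoly (ρ.residual.ρ σ) =
      (LinearMap.charpoly (ρbar.ρ σ)).map (ResidueField.map (algebraMap 𝒪 A)) := by
  have hℓN : ¬ ℓ ∣ N := fun h => hℓS (hNS ℓ hℓ h)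
  have hℓS' : ℓ ∉ (↑S : Set ℕ) := by simpa using hℓS
  have h1 : LinearMap.charpoly (ρ.residual.ρ σ) =
      (LinearMap.charpoly (ρ.ρ σ)).map (algebraMap A (ResidueField A)) :=
    LinearMap.charpoly_baseChange (ρ.ρ σ) (ResidueField A)
  rw [h1, hρ ℓ hℓ hℓN hℓS' B hB σ hσ, hθ ℓ hℓ hℓN hℓS' B hB σ hσ,
    IsLocalRing.ResidueField.algebraMap_eq]
  simp only [Polynomial.map_add, Polynomial.map_sub, Polynomial.map_mul, Polynomial.map_pow,
    Polynomial.map_X, Polynomial.map_C, map_natCast, hψ, Polynomial.map_natCast]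

/-- **Carayol descent**: the representation over `T`. -/
theorem exists_rep (hS30 : Stmt_S30) (hAdapt : Stmt_Adapt) (hDetCyc : Stmt_DetCyc)
    (hResIrr : Stmt_ResIrr) (hCont : Stmt_Cont) (hOdd : Stmt_Odd) (hUnit : Stmt_Unit)
    [IsReduced T] (hp2 : p ≠ 2) (hp𝒪 : (p : 𝒪) ∈ maximalIdeal 𝒪) (hpS : p ∈ S)
    (hNS : ∀ q : ℕ, q.Prime → q ∣ N → q ∈ S)
    (π : CuspForm.heckeAlgebra N 2 (↑S : Set ℕ) →+* T)
    (θ : CuspForm.heckeAlgebra N 2 (↑S : Set ℕ) →+* ResidueField 𝒪)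
    (hπ : ∀ t : CuspForm.heckeAlgebra N 2 (↑S : Set ℕ),
      residue T (π t) = ResidueField.map (algebraMap 𝒪 T) (θ t))
    (ρbar : ResidualGaloisRep (ResidueField 𝒪)) (habs : ρbar.IsAbsolutelyIrreducible)
    (hθ : FrobHyp ρbar N S θ) :
    ∃ ρ : GaloisRepAdic T, HasFrobCharpoly π ρ ∧ ρ.residual.IsAbsolutelyIrreducible ∧
      ρ.DetIsCyclotomic p ∧
      ρ.residual.IsEquiv (ρbar.baseChangeAlong (ResidueField.map (algebraMap 𝒪 T))) := by
  classical
  have hp : p.Prime := Fact.out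
  have hpT := _root_.Fermat.Agent.S59.Datum.H7.natCast_mem_maximalIdeal_of_algebra 𝒪 p T hp𝒪
  obtain ⟨r, P, c, hinj, hsep, hfrob⟩ := exists_points_aux 𝒪 p N S T hS30 hp𝒪 hpS hNS π
  have hpO : ∀ i, (p : (P i).O) ∈ maximalIdeal (P i).O :=
    fun i => PtRep.natCast_mem 𝒪 p T hpT (P i)
  haveI hloc : ∀ i, IsLocalHom (P i).x := fun i => (P i).isLocalHom
  -- determinants at Frobenius elements
  have hℓN : ∀ ℓ : ℕ, ℓ.Prime → ℓ ∉ S → ¬ ℓ ∣ N := fun ℓ hℓ hℓS h => hℓS (hNS ℓ hℓ h)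
  have hdetF : ∀ i, ∀ ℓ : ℕ, ℓ.Prime → ℓ ∉ S → ∀ B : ValuationSubring (AlgebraicClosure ℚ),
      B.LiesOverPrime ℓ → ∀ σ : GalQ, B.IsFrobeniusAt σ ℓ →
        LinearMap.det ((P i).ρ.ρ σ) = (ℓ : (P i).O) := by
    intro i ℓ hℓ hℓS B hB σ hσ
    rw [LinearMap.det_eq_sign_charpoly_coeff, (P i).ρ.finrank_eq,
      hfrob i ℓ hℓ (hℓN ℓ hℓ hℓS) (by simpa using hℓS) B hB σ hσ]
    simp [coeff_X]
  have hlev : ∀ i, ∀ n : ℕ, ∃ m : ℕ,
      maximalIdeal (P i).O ^ m ≤ Ideal.span {((p ^ n : ℕ) : (P i).O)} := fun i n =>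
    exists_pow_le_span (Nat.cast_ne_zero.mpr (pow_ne_zero n hp.ne_zero))
  have hcyc : ∀ i, (P i).ρ.DetIsCyclotomic p := fun i =>
    hDetCyc (P i).O p (hpO i) (hlev i) (P i).ρ S (hdetF i)
  obtain ⟨cc, hcc, hodd⟩ := hOdd
  have hdetc : ∀ i, LinearMap.det ((P i).ρ.ρ cc) = -1 := fun i => hodd (P i).O p (P i).ρ (hcyc i)
  -- adapted bases
  have hb : ∀ i, ∃ b : Module.Basis (Fin 2) (P i).O (P i).ρ.V,
      IsSign (LinearMap.toMatrix b b ((P i).ρ.ρ cc)) := fun i =>
    hAdapt (P i).O (isUnit_two_of_odd hp hp2 (hpO i)) (P i).ρ.V (P i).ρ.finrank_eq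
      ((P i).ρ.ρ cc) (by rw [← map_mul, hcc, map_one]) (hdetc i)
  choose b hbs using hb
  -- the matrices
  let M : ∀ i, GalQ →* Matrix (Fin 2) (Fin 2) (P i).O := fun i =>
    ((LinearMap.toMatrixAlgEquiv (b i) :
      Module.End (P i).O (P i).ρ.V →* Matrix (Fin 2) (Fin 2) (P i).O)).comp (P i).ρ.ρ
  have hM : ∀ i σ, M i σ = LinearMap.toMatrix (b i) (b i) ((P i).ρ.ρ σ) := fun i σ => rfl
  -- the trace function
  have htr' : ∀ g : GalQ, ∃ t : T, ∀ i,
      (P i).x t = LinearMap.trace (P i).O (P i).ρ.V ((P i).ρ.ρ g) :=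
    fun g => exists_trace hp.ne_zero hpT hNS π P c hsep hfrob g
  choose tr htr using htr'
  have htrM : ∀ i g, (M i g).trace = (P i).x (tr g) := by
    intro i g
    rw [hM, htr, LinearMap.trace_eq_matrix_trace (P i).O (b i)]
  -- there is a point
  have hr : 0 < r := by
    rcases Nat.eq_zero_or_pos r with h0 | h0
    · subst h0
      exact absurd (hinj 1 fun i => i.elim0) one_ne_zero
    · exact h0
  let i₀ : Fin r := ⟨0, hr⟩
  -- the algebra maps to the points are local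
  have hlocO : ∀ i, IsLocalHom (algebraMap 𝒪 (P i).O) := by
    intro i
    have h1 : algebraMap 𝒪 (P i).O = ((P i).x).comp (algebraMap 𝒪 T) :=
      RingHom.ext fun a => ((P i).hxO a).symm
    rw [h1]
    exact RingHom.isLocalHom_comp _ _
  haveI := hlocO i₀
  -- residual irreducibility at the point `i₀`
  have hψ₀ : ∀ t : CuspForm.heckeAlgebra N 2 (↑S : Set ℕ),
      residue (P i₀).O (((P i₀).x.comp π) t) =
        ResidueField.map (algebraMap 𝒪 (P i₀).O) (θ t) := by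
    intro t
    obtain ⟨a, ha⟩ := IsLocalRing.residue_surjective (θ t)
    have h1 : residue (P i₀).O ((P i₀).x (π t)) =
        ResidueField.map (P i₀).x (residue T (π t)) := (ResidueField.map_residue _ _).symm
    rw [RingHom.comp_apply, h1, hπ, ← ha, ResidueField.map_residue, ResidueField.map_residue,
      ResidueField.map_residue, (P i₀).hxO]
  have hirr₀ : (P i₀).ρ.residual.IsAbsolutelyIrreducible :=
    (hResIrr _ _ (ResidueField.map (algebraMap 𝒪 (P i₀).O)) ρbar (P i₀).ρ.residual S habs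
      (fun ℓ hℓ hℓS B hB σ hσ => residual_charpoly 𝒪 N S ((P i₀).x.comp π) θ hψ₀ (P i₀).ρ
        (hfrob i₀) ρbar hθ hNS ℓ hℓ hℓS B hB σ hσ)).1
  obtain ⟨g, h, hg, hh⟩ := hUnit (P i₀).O (P i₀).ρ hirr₀ (b i₀)
  -- the unit `u`
  have h2T : IsUnit (2 : T) := isUnit_two_of_odd hp hp2 hpT
  obtain ⟨w2, hw2⟩ := h2T.exists_right_inv
  let u : T := w2 * w2 * (tr (g * h) - tr (g * cc * h) + tr (cc * g * h) - tr (cc * g * cc * h))
  have hu : ∀ i, M i g 0 1 * M i h 1 0 = (P i).x u := by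
    intro i
    have h1 := entry01_mul_entry10_eq (M i cc) (M i g) (M i h) (hbs i)
    have h2 : ((P i).x w2) * 2 = 1 := by
      have := congrArg (P i).x hw2
      rw [map_mul, map_ofNat, map_one] at this
      rw [mul_comm]; exact this
    simp only [u, map_mul, map_sub, map_add, ← htrM, map_mul (M i)]
    rw [h1]
    linear_combination (-(M i g 0 1 * M i h 1 0) * ((P i).x w2 * 2 + 1)) * h2
  have huu : IsUnit u := by
    have h1 : IsUnit ((P i₀).x u) := by
      rw [← hu i₀]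
      exact (hg.mul hh)
    exact isUnit_of_map_unit (P i₀).x u h1
  obtain ⟨R, s, hRtr, hRx⟩ := exists_descent (fun i => (P i).x) hinj h2T M tr htrM cc
    (fun i => hbs i) g h u huu hu
  -- separation
  have hkey : ∀ n : ℕ, ∃ m : ℕ, ∀ t : T, (∀ i, (P i).x t ∈ maximalIdeal (P i).O ^ m) →
      t ∈ Ideal.span {((p : T)) ^ n} := exists_level 𝒪 p T hp.ne_zero P c hsep
  have hsepT : ∀ n : ℕ, ∃ m : ℕ, ∀ t : T, (∀ i, (P i).x t ∈ maximalIdeal (P i).O ^ m) →
      t ∈ maximalIdeal T ^ n := by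
    intro n
    obtain ⟨m, hm⟩ := hkey n
    exact ⟨m, fun t ht => span_pow_le_maximalIdeal_pow hpT n (hm t ht)⟩
  -- the representation
  have hcont : GaloisActionIsAdicContinuous T (matRep R) :=
    hCont T r (fun i => (P i).O) (fun i => (P i).x) (fun i => (P i).ρ) b M s R hsepT hM hRx
  let ρT : GaloisRepAdic T :=
    { V := Fin 2 → T
      finrank_eq := by rw [Module.finrank_fin_fun]
      ρ := matRep R
      isAdicContinuous := hcont }
  -- Frobenius characteristic polynomials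
  have hfrobT : HasFrobCharpoly π ρT := by
    intro ℓ hℓ hℓN hℓS B hB σ hσ
    have h1 : LinearMap.charpoly (ρT.ρ σ) = (R σ).charpoly := Matrix.charpoly_toLin' (R σ)
    have hMi : ∀ i, (M i σ).trace = (P i).x (π (heckeAlgebra.T hℓ hℓN hℓS)) ∧
        (M i σ).det = (ℓ : (P i).O) := by
      intro i
      have h2 := hfrob i ℓ hℓ hℓN hℓS B hB σ hσ
      rw [← LinearMap.charpoly_toMatrix ((P i).ρ.ρ σ) (b i)] at h2
      exact trace_det_of_charpoly _ _ _ h2
    have htrace : (R σ).trace = π (heckeAlgebra.T hℓ hℓN hℓS) := by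
      rw [← sub_eq_zero]
      refine hinj _ fun i => ?_
      rw [map_sub, hRtr, ← htrM, sub_eq_zero]
      exact (hMi i).1
    have hdet : (R σ).det = (ℓ : T) := by
      rw [← sub_eq_zero]
      refine hinj _ fun i => ?_
      rw [map_sub, RingHom.map_det, RingHom.mapMatrix_apply, hRx i σ,
        (trace_det_conj (M i σ) (s i)).2, (hMi i).2, map_natCast, sub_self]
    rw [h1, Matrix.charpoly_fin_two, htrace, hdet]
  -- the residual representation
  obtain ⟨hirrT, heqT⟩ := hResIrr _ _ (ResidueField.map (algebraMap 𝒪 T)) ρbar ρT.residual S habs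
    (fun ℓ hℓ hℓS B hB σ hσ => residual_charpoly 𝒪 N S π θ hπ ρT hfrobT ρbar hθ hNS
      ℓ hℓ hℓS B hB σ hσ)
  -- the determinant
  have hadicT : ∀ n : ℕ, ∃ m : ℕ, maximalIdeal T ^ m ≤ Ideal.span {((p ^ n : ℕ) : T)} := by
    intro n
    obtain ⟨m, hm⟩ := hkey n
    refine ⟨m, fun t ht => ?_⟩
    rw [Nat.cast_pow]
    exact hm t fun i => map_mem_maximalIdeal_pow (P i).x m ht
  have hdetT : ∀ ℓ : ℕ, ℓ.Prime → ℓ ∉ S → ∀ B : ValuationSubring (AlgebraicClosure ℚ),
      B.LiesOverPrime ℓ → ∀ σ : GalQ, B.IsFrobeniusAt σ ℓ →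
        LinearMap.det (ρT.ρ σ) = (ℓ : T) := by
    intro ℓ hℓ hℓS B hB σ hσ
    rw [LinearMap.det_eq_sign_charpoly_coeff, ρT.finrank_eq,
      hfrobT ℓ hℓ (hℓN ℓ hℓ hℓS) (by simpa using hℓS) B hB σ hσ]
    simp [coeff_X]
  exact ⟨ρT, hfrobT, hirrT, hDetCyc T p hpT hadicT ρT S hdetT, heqT⟩

end Rep

/-- **DATUM** from S30 and the leaves. -/
theorem stmt_DATUM_of (hS30 : Stmt_S30) (hRing : Stmt_Ring) (hAdapt : Stmt_Adapt)
    (hDetCyc : Stmt_DetCyc) (hResIrr : Stmt_ResIrr) (hCont : Stmt_Cont) (hOdd : Stmt_Odd)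
    (hUnit : Stmt_Unit) : Stmt_DATUM := by
  intro 𝒪 _ _ _ _ _ _ p _ hp2 hp𝒪 N _ _ S hpS hNS ρbar habs θ hθ
  obtain ⟨h1, h2, h3, h4⟩ := hRing 𝒪 N (↑S : Set ℕ) θ
  haveI : Module.Finite ℤ (CuspForm.heckeAlgebra N 2 (↑S : Set ℕ)) :=
    Fermat.Agent.S22.result N 2 (↑S : Set ℕ)
  haveI : IsReduced (CuspForm.heckeAlgebra N 2 (↑S : Set ℕ)) :=
    H58.stmt_HeckeReduced N (↑S : Set ℕ) hNS
  haveI : IsReduced (CuspForm.heckeLocal N (↑S : Set ℕ) 𝒪 θ) :=
    H2.isReduced_of_flat_of_adjoin_eq_top (CuspForm.heckeAlgebra N 2 (↑S : Set ℕ)) 𝒪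
      (CuspForm.heckeLocal N (↑S : Set ℕ) 𝒪 θ) (CuspForm.heckeLocal.π N (↑S : Set ℕ) 𝒪 θ) h2
  obtain ⟨ρ, hfrob, hirr, hcyc, heq⟩ := exists_rep 𝒪 p N S (CuspForm.heckeLocal N (↑S : Set ℕ) 𝒪 θ)
    hS30 hAdapt hDetCyc hResIrr hCont hOdd hUnit hp2 hp𝒪 hpS hNS
    (CuspForm.heckeLocal.π N (↑S : Set ℕ) 𝒪 θ) θ h1 ρbar habs hθ
  exact ⟨{ π := CuspForm.heckeLocal.π N (↑S : Set ℕ) 𝒪 θ
           residue_π := h1
           adjoin_range_π := h2
           exists_point := h3
           residue_surjective := h4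
           ρ := ρ
           charpoly_frob := hfrob
           residual_absIrr := hirr }, rfl, hcyc, heq⟩

end Fermat.Agent.S59.Datum.H7


end
-- ==== END Fermat.Agent.S59.Datum.H7_Asm

-- ==== BEGIN Fermat.Agent.S59.H99_DefEquiv
section

/-!
# S59, leaf DEF, part 6 (helper99): the local conditions are invariant under equivalence
-/

set_option autoImplicit false
set_option linter.unusedSectionVars false
set_option linter.style.haveILetI false

open IsLocalRing

namespace Fermat.Agent.S59.H99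

variable {A : Type} [CommRing A] [IsLocalRing A] {ρ ρ' : GaloisRepAdic A}

theorem equiv_rho_eq (e : ρ.Equiv ρ') (σ : AlgebraicClosure ℚ ≃ₐ[ℚ] AlgebraicClosure ℚ) :
    ρ'.ρ σ = e.toLinearEquiv.conj (ρ.ρ σ) := by
  ext x
  rw [LinearEquiv.conj_apply_apply, e.map_apply, LinearEquiv.apply_symm_apply]

theorem detIsCyclotomic_of_isEquiv (he : ρ.IsEquiv ρ') (p : ℕ) (h : ρ.DetIsCyclotomic p) :
    ρ'.DetIsCyclotomic p := by
  obtain ⟨e⟩ := he
  refine ⟨h.1, fun n σ a ha => ?_⟩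
  have hd : LinearMap.det (ρ'.ρ σ) = LinearMap.det (ρ.ρ σ) := by
    rw [equiv_rho_eq e σ]
    exact LinearMap.det_conj (ρ.ρ σ) e.toLinearEquiv
  rw [hd]
  exact h.2 n σ a ha

theorem isUnramifiedAt_of_isEquiv (he : ρ.IsEquiv ρ') (q : ℕ) (h : ρ.IsUnramifiedAt q) :
    ρ'.IsUnramifiedAt q := by
  obtain ⟨e⟩ := he
  intro P hP σ hσ
  rw [equiv_rho_eq e σ, h P hP σ hσ]
  ext x
  rw [LinearEquiv.conj_apply_apply]
  simp

theorem isUnipotentOnInertiaAt_of_isEquiv (he : ρ.IsEquiv ρ') (q : ℕ)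
    (h : ρ.IsUnipotentOnInertiaAt q) : ρ'.IsUnipotentOnInertiaAt q := by
  obtain ⟨e⟩ := he
  intro P hP σ hσ
  rw [equiv_rho_eq e σ, LinearEquiv.charpoly_conj]
  exact h P hP σ hσ

theorem isStrictOrdinaryAt_of_isEquiv (he : ρ.IsEquiv ρ') (p : ℕ)
    (h : ρ.IsStrictOrdinaryAt p) : ρ'.IsStrictOrdinaryAt p := by
  obtain ⟨e⟩ := he
  refine ⟨h.1, fun P hP => ?_⟩
  obtain ⟨L, ⟨b, hb⟩, hD, hI, hX⟩ := h.2 P hP
  refine ⟨L.map (e.toLinearEquiv : ρ.V →ₗ[A] ρ'.V), ⟨b.map e.toLinearEquiv, ?_⟩, ?_, ?_, ?_⟩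
  · rw [hb, Submodule.map_span, Set.image_singleton]
    rfl
  · intro σ hσ v hv
    obtain ⟨w, hw, rfl⟩ := hv
    refine ⟨ρ.ρ σ w, hD σ hσ w hw, ?_⟩
    exact e.map_apply σ w
  · intro σ hσ v
    obtain ⟨w, rfl⟩ := e.toLinearEquiv.surjective v
    refine ⟨ρ.ρ σ w - w, hI σ hσ w, ?_⟩
    change e.toLinearEquiv (ρ.ρ σ w - w) = _
    rw [map_sub, e.map_apply]
  · intro σ hσ
    obtain ⟨x, z, h1, h2, h3⟩ := hX σ hσ
    refine ⟨x, z, ?_, ?_, h3⟩
    · intro w hw
      obtain ⟨u, hu, rfl⟩ := hw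
      change ρ'.ρ σ (e.toLinearEquiv u) = x • e.toLinearEquiv u
      rw [← e.map_apply, h1 u hu, map_smul]
    · intro v
      obtain ⟨w, rfl⟩ := e.toLinearEquiv.surjective v
      refine ⟨ρ.ρ σ w - z • w, h2 w, ?_⟩
      change e.toLinearEquiv (ρ.ρ σ w - z • w) = _
      rw [map_sub, e.map_apply, map_smul]

end Fermat.Agent.S59.H99

end
-- ==== END Fermat.Agent.S59.H99_DefEquiv
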