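-- GENERATED (merged mirror, NOTES/tools/trim/merge3_helper67.py): 5 modules of the originals, bodies verbatim.
import Mathlib
import Fermat.Prelude.Def_Algebra_PatchingDatum
import Fermat.Agent.Zm.S43_L02_000
import Fermat.Agent.Zm.S43_L02_003
import Fermat.Agent.Zm.S43_L01_004
import Fermat.Agent.Zm.S56_L02_000
import Fermat.Agent.Zm.S43_L02_004
import Fermat.Agent.Zm.S43_L01_005
import Fermat.Agent.Zm.S56_L03_005

-- ==== BEGIN Fermat.Agent.NEB.OLD.H57_CompatAs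
section

/-!
# NEB, package OLDNEW, leaf OLD-CAS (helper57): `α_q^* ∘ U_{q'} = U_{q'} ∘ α_q^*`

`q ≠ q'` primes, `q ∤ M`.  With `α_q : F₀(M) → F₀(Mq)`, `α_{q'}, β_{q'} : F₀(M) → F₀(Mq')`,
`α', β' : F₀(Mq) → F₀(Mqq')` and `ι : F₀(Mq') ⊂ F₀(Mqq')`:

* `α_q^* β_{q'*} = β'_* ι^*`     (base change of the norm in the square `(β_{q'}, α_q, β', ι)`,
  primitive element `j` on both sides, degrees by the square and `deg α_q = deg ι = q + 1`);
* `ι^* α_{q'}^* = α'^* α_q^*`     (`pullP_comp`, `ι ∘ α_{q'} = α' ∘ α_q`).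

No hypothesis on `q'` versus `M` is needed.
-/

set_option autoImplicit false
set_option linter.unusedSectionVars false
set_option linter.style.haveILetI false
set_option linter.dupNamespace false

noncomputable section

namespace Fermat.Agent.NEB.OLD.H57

open AlgebraicCurve ModularCurve Fermat.Agent.S24 Fermat.Agent.Lib.HeckeComm
open Fermat.Agent.NEB.H14 Fermat.Agent.NEB.JH Fermat.Agent.RED Fermat.Agent.S36.H44
open Fermat.Agent.NEB.OLD.H52

local notation "Kb" => AlgebraicClosure ℚ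

section Square

variable (M q q' : ℕ) [NeZero M] [NeZero q] [NeZero q']

/-- `ι ∘ β_{q'} = β' ∘ α_q`, as ring homomorphisms. -/
theorem alphaLift_comp_beta :
    (alphaLift M q q').toRingHom.comp (heckeBetaBar Kb M q').toRingHom
      = (heckeBetaBar Kb (M * q) q').toRingHom.comp (heckeAlphaBar Kb M q).toRingHom :=
  RingHom.ext fun y => (alpha_square_beta M q q' y).symm

/-- `ι ∘ α_{q'} = α' ∘ α_q`. -/
theorem alphaLift_comp_alpha :
    (alphaLift M q q').comp (heckeAlphaBar Kb M q')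
      = (heckeAlphaBar Kb (M * q) q').comp (heckeAlphaBar Kb M q) := by
  refine AlgHom.ext fun x => Subtype.ext ?_
  simp only [AlgHom.comp_apply, coe_heckeAlphaBar, coe_alphaLift]

/-- `ι j = j` generates `F₀(Mqq')` over `β' F₀(Mq)`. -/
theorem adjoin_beta_alphaLift_jF :
    letI := (heckeBetaBar Kb (M * q) q').toRingHom.toAlgebra
    IntermediateField.adjoin (FN (M * q)) {(alphaLift M q q').toRingHom (jF (M * q'))} = ⊤ := by
  have e : (alphaLift M q q').toRingHom (jF (M * q')) = jF (M * q * q') := Subtype.ext rfl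
  rw [e]
  exact adjoin_beta_jF (M * q) q'

/-- The degrees of `β_{q'}` at the levels `M` and `Mq` agree. -/
theorem finrankHom_beta_eq (hq : q.Prime) (hqM : ¬ q ∣ M) (hqq' : ¬ q ∣ M * q') :
    finrankHom (heckeBetaBar Kb M q').toRingHom
      = finrankHom (heckeBetaBar Kb (M * q) q').toRingHom :=
  finrank_eq_of_square (heckeBetaBar Kb M q').toRingHom (heckeAlphaBar Kb M q).toRingHom
    (alphaLift M q q').toRingHom (heckeBetaBar Kb (M * q) q').toRingHom
    (alphaLift_comp_beta M q q') (q + 1) (Nat.succ_ne_zero q)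
    ((finrankHom_eq_finrankAlong _).trans (Fermat.Agent.RED.H95.finrankAlong_alpha hq hqM))
    (finrankHom_alphaLift M q q' hq hqq')

/-- **Base change of the norm** in the square `(β_{q'}, α_q, β', ι)`:
`α_q (N_{β_{q'}} x) = N_{β'} (ι x)`. -/
theorem norm_square_as (hq : q.Prime) (hqM : ¬ q ∣ M) (hqq' : ¬ q ∣ M * q')
    (x : FN (M * q')) :
    heckeAlphaBar Kb M q (normFn (heckeBetaBar Kb M q') x)
      = normFn (heckeBetaBar Kb (M * q) q') (alphaLift M q q' x) := by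
  refine normAlongHom_baseChange (heckeBetaBar Kb M q').toRingHom
    (heckeBetaBar Kb (M * q) q').toRingHom
    (heckeAlphaBar Kb M q).toRingHom (alphaLift M q q').toRingHom
    (fun y => ?_) (beta_finite M q') (beta_finite (M * q) q')
    (jF (M * q')) (adjoin_beta_jF M q') (adjoin_beta_alphaLift_jF M q q') ?_ x
  · exact (alpha_square_beta M q q' y).symm
  · exact finrankHom_beta_eq M q q' hq hqM hqq'

end Square

/-- **OLD-CAS**: `α_q^* ∘ U_{q'} = U_{q'} ∘ α_q^*`. -/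
theorem stmt_CompatAs : Stmt_CompatAs := by
  intro M q q' _ _ _ hq hq' hne hqM _ x
  have hqq' : ¬ q ∣ M * q' := by
    intro h
    rcases (Nat.Prime.dvd_mul hq).mp h with h1 | h1
    · exact hqM h1
    · exact hne ((Nat.prime_dvd_prime_iff_eq hq hq').mp h1)
  have hsq := square_of_norm_pic (isFF_FN M) (isFF_FN (M * q)) (isFF_FN (M * q'))
    (isFF_FN (M * q * q')) (heckeBetaBar Kb M q') (heckeAlphaBar Kb M q)
    (heckeBetaBar Kb (M * q) q') (alphaLift M q q')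
    (fun x _ => norm_square_as M q q' hq hqM hqq' x)
  have h1 := pullP_comp (isFF_FN M) (isFF_FN (M * q')) (isFF_FN (M * q * q'))
    (heckeAlphaBar Kb M q') (alphaLift M q q')
  have h2 := pullP_comp (isFF_FN M) (isFF_FN (M * q)) (isFF_FN (M * q * q'))
    (heckeAlphaBar Kb M q) (heckeAlphaBar Kb (M * q) q')
  rw [alphaLift_comp_alpha] at h1
  have h3 : (pullP (alphaLift M q q')).comp (pullP (heckeAlphaBar Kb M q'))
      = (pullP (heckeAlphaBar Kb (M * q) q')).comp (pullP (heckeAlphaBar Kb M q)) :=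
    h1.symm.trans h2
  show pullP (heckeAlphaBar Kb M q)
      (pushP (heckeBetaBar Kb M q') (pullP (heckeAlphaBar Kb M q') x))
    = pushP (heckeBetaBar Kb (M * q) q') (pullP (heckeAlphaBar Kb (M * q) q')
        (pullP (heckeAlphaBar Kb M q) x))
  have e1 := DFunLike.congr_fun hsq (pullP (heckeAlphaBar Kb M q') x)
  have e2 := DFunLike.congr_fun h3 x
  simp only [AddMonoidHom.comp_apply] at e1 e2
  rw [e1, e2]

end Fermat.Agent.NEB.OLD.H57

end
end
-- ==== END Fermat.Agent.NEB.OLD.H57_CompatAs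

-- ==== BEGIN Fermat.Agent.S59.H99_DefSO
section

/-!
# S59, leaf DEF, part 4 (helper99): the strict-ordinary line is intrinsic

For an odd prime `p` there is `σ₀` in the inertia group of `P` whose cyclotomic exponent is not
`1` modulo `p`.  If `L` is a strict-ordinary line of `ρ` at `P` then `L` is the image of
`F = ρ(σ₀) - 1`, `t = tr F` is a unit, `F ∘ F = t F`, and all the conditions on `L` are
polynomial identities in `F`, `t` and the `ρ(σ)` (`SOInt`).  Conversely `SOInt` produces the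
line.  Polynomial identities descend along jointly injective families (`JFam.soInt`).
-/

set_option autoImplicit false
set_option linter.unusedSectionVars false
set_option linter.style.haveILetI false

open IsLocalRing TensorProduct

namespace Fermat.Agent.S59.H99

variable {A : Type} [CommRing A] [IsLocalRing A]

/-- The prelude's condition on a line `L` at the place `P`. -/
def IsSOLineAt (ρ : GaloisRepAdic A) (p : ℕ) (P : ValuationSubring (AlgebraicClosure ℚ))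
    (L : Submodule A ρ.V) : Prop :=
  (∃ b : Module.Basis (Fin 2) A ρ.V, L = Submodule.span A {b 0}) ∧
  (∀ σ ∈ P.decompositionSubgroup ℚ, ∀ v ∈ L, ρ.ρ σ v ∈ L) ∧
  (∀ σ ∈ P.inertiaSubgroupIn ℚ, ∀ v : ρ.V, ρ.ρ σ v - v ∈ L) ∧
  (∀ σ ∈ P.decompositionSubgroup ℚ, ∃ x z : A,
    (∀ w ∈ L, ρ.ρ σ w = x • w) ∧ (∀ v : ρ.V, ρ.ρ σ v - z • v ∈ L) ∧
    ∀ (n a : ℕ), (∀ μ : AlgebraicClosure ℚ, μ ^ p ^ n = 1 → σ μ = μ ^ a) →
      x - (a : A) * z ∈ Ideal.span {((p ^ n : ℕ) : A)})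

theorem isStrictOrdinaryAt_iff (ρ : GaloisRepAdic A) (p : ℕ) :
    ρ.IsStrictOrdinaryAt p ↔ (p : A) ∈ maximalIdeal A ∧
      ∀ P : ValuationSubring (AlgebraicClosure ℚ), P.LiesOverPrime p →
        ∃ L : Submodule A ρ.V, IsSOLineAt ρ p P L := Iff.rfl

/-- `F = ρ(σ₀) - 1`. -/
noncomputable def soF (ρ : GaloisRepAdic A) (σ₀ : AlgebraicClosure ℚ ≃ₐ[ℚ] AlgebraicClosure ℚ) :
    Module.End A ρ.V := ρ.ρ σ₀ - 1

/-- `t = tr F`. -/
noncomputable def soT (ρ : GaloisRepAdic A) (σ₀ : AlgebraicClosure ℚ ≃ₐ[ℚ] AlgebraicClosure ℚ) :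
    A := LinearMap.trace A ρ.V (soF ρ σ₀)

/-- `X = tr (ρ(σ) F)`  (`= t x`). -/
noncomputable def soX (ρ : GaloisRepAdic A)
    (σ₀ σ : AlgebraicClosure ℚ ≃ₐ[ℚ] AlgebraicClosure ℚ) : A :=
  LinearMap.trace A ρ.V (ρ.ρ σ * soF ρ σ₀)

/-- `Z = t tr ρ(σ) - X`  (`= t z`). -/
noncomputable def soZ (ρ : GaloisRepAdic A)
    (σ₀ σ : AlgebraicClosure ℚ ≃ₐ[ℚ] AlgebraicClosure ℚ) : A :=
  soT ρ σ₀ * LinearMap.trace A ρ.V (ρ.ρ σ) - soX ρ σ₀ σ

/-- The intrinsic form of the strict-ordinary condition at `P`. -/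
structure SOInt (ρ : GaloisRepAdic A) (p : ℕ) (P : ValuationSubring (AlgebraicClosure ℚ))
    (σ₀ : AlgebraicClosure ℚ ≃ₐ[ℚ] AlgebraicClosure ℚ) : Prop where
  unit : IsUnit (soT ρ σ₀)
  sq : soF ρ σ₀ * soF ρ σ₀ = soT ρ σ₀ • soF ρ σ₀
  stab : ∀ σ ∈ P.decompositionSubgroup ℚ,
    soT ρ σ₀ • (ρ.ρ σ * soF ρ σ₀) = soF ρ σ₀ * (ρ.ρ σ * soF ρ σ₀)
  inert : ∀ σ ∈ P.inertiaSubgroupIn ℚ, soT ρ σ₀ • (ρ.ρ σ - 1) = soF ρ σ₀ * (ρ.ρ σ - 1)
  eig1 : ∀ σ ∈ P.decompositionSubgroup ℚ,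
    soT ρ σ₀ • (ρ.ρ σ * soF ρ σ₀) = soX ρ σ₀ σ • soF ρ σ₀
  eig2 : ∀ σ ∈ P.decompositionSubgroup ℚ,
    soT ρ σ₀ • (soT ρ σ₀ • ρ.ρ σ - soZ ρ σ₀ σ • 1) =
      soF ρ σ₀ * (soT ρ σ₀ • ρ.ρ σ - soZ ρ σ₀ σ • 1)
  cyc : ∀ σ ∈ P.decompositionSubgroup ℚ, CycRel p σ (soX ρ σ₀ σ) (soZ ρ σ₀ σ)

/-! ### From the intrinsic form to the line -/

section ToLine

variable {ρ : GaloisRepAdic A} {p : ℕ} {P : ValuationSubring (AlgebraicClosure ℚ)}
  {σ₀ : AlgebraicClosure ℚ ≃ₐ[ℚ] AlgebraicClosure ℚ}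

/-- `t u = F w` implies `u ∈ range F`. -/
theorem mem_range_of_smul_eq (h : SOInt ρ p P σ₀) {u w : ρ.V}
    (huw : soT ρ σ₀ • u = soF ρ σ₀ w) : u ∈ LinearMap.range (soF ρ σ₀) := by
  obtain ⟨s, hs⟩ := h.unit
  refine ⟨((s⁻¹ : Aˣ) : A) • w, ?_⟩
  rw [map_smul, ← huw, smul_smul, ← hs, Units.inv_mul, one_smul]

theorem isSOLineAt_of_soInt (h : SOInt ρ p P σ₀) :
    IsSOLineAt ρ p P (LinearMap.range (soF ρ σ₀)) := by
  obtain ⟨s, hs⟩ := h.unit
  have hsq : ∀ v, soF ρ σ₀ (soF ρ σ₀ v) = soT ρ σ₀ • soF ρ σ₀ v := fun v =>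
    LinearMap.congr_fun h.sq v
  refine ⟨?_, ?_, ?_, ?_⟩
  · -- the basis
    let e : ρ.V →ₗ[A] ρ.V := ((s⁻¹ : Aˣ) : A) • soF ρ σ₀
    have he : ∀ v, e (e v) = e v := by
      intro v
      simp only [e, LinearMap.smul_apply, map_smul]
      rw [hsq, smul_smul, smul_smul, ← hs, mul_assoc, Units.inv_mul, mul_one]
    have htr : LinearMap.trace A ρ.V e = 1 := by
      simp only [e, map_smul, smul_eq_mul]
      change ((s⁻¹ : Aˣ) : A) * soT ρ σ₀ = 1
      rw [← hs, Units.inv_mul]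
    obtain ⟨b, hb⟩ := exists_basis_range_of_idempotent
      (Module.finBasisOfFinrankEq A ρ.V ρ.finrank_eq) e he htr
    refine ⟨b, ?_⟩
    rw [← hb]
    apply le_antisymm
    · rintro _ ⟨v, rfl⟩
      refine ⟨(s : A) • v, ?_⟩
      simp only [e, LinearMap.smul_apply, map_smul]
      rw [smul_smul, Units.mul_inv, one_smul]
    · rintro _ ⟨v, rfl⟩
      exact ⟨((s⁻¹ : Aˣ) : A) • v, by simp only [e, LinearMap.smul_apply, map_smul]⟩
  · -- stability
    rintro σ hσ _ ⟨v, rfl⟩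
    apply mem_range_of_smul_eq h (w := ρ.ρ σ (soF ρ σ₀ v))
    exact LinearMap.congr_fun (h.stab σ hσ) v
  · -- inertia
    intro σ hσ v
    apply mem_range_of_smul_eq h (w := ρ.ρ σ v - v)
    exact LinearMap.congr_fun (h.inert σ hσ) v
  · -- eigenvalues
    intro σ hσ
    refine ⟨((s⁻¹ : Aˣ) : A) * soX ρ σ₀ σ, ((s⁻¹ : Aˣ) : A) * soZ ρ σ₀ σ, ?_, ?_, ?_⟩
    · rintro _ ⟨v, rfl⟩
      have h1 : soT ρ σ₀ • ρ.ρ σ (soF ρ σ₀ v) = soX ρ σ₀ σ • soF ρ σ₀ v :=
        LinearMap.congr_fun (h.eig1 σ hσ) v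
      rw [mul_smul, ← h1, smul_smul, ← hs, Units.inv_mul, one_smul]
    · intro v
      have h1 : soT ρ σ₀ • (soT ρ σ₀ • ρ.ρ σ v - soZ ρ σ₀ σ • v) =
          soF ρ σ₀ (soT ρ σ₀ • ρ.ρ σ v - soZ ρ σ₀ σ • v) :=
        LinearMap.congr_fun (h.eig2 σ hσ) v
      have h2 := mem_range_of_smul_eq h h1
      have h3 : ρ.ρ σ v - (((s⁻¹ : Aˣ) : A) * soZ ρ σ₀ σ) • v =
          ((s⁻¹ : Aˣ) : A) • (soT ρ σ₀ • ρ.ρ σ v - soZ ρ σ₀ σ • v) := by
        rw [smul_sub, smul_smul, smul_smul, ← hs, Units.inv_mul, one_smul]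
      rw [h3]
      exact Submodule.smul_mem _ _ h2
    · intro n a ha
      have h1 := h.cyc σ hσ n a ha
      have h2 : ((s⁻¹ : Aˣ) : A) * soX ρ σ₀ σ - (a : A) * (((s⁻¹ : Aˣ) : A) * soZ ρ σ₀ σ) =
          (soX ρ σ₀ σ - (a : A) * soZ ρ σ₀ σ) * ((s⁻¹ : Aˣ) : A) := by ring
      rw [h2]
      exact Ideal.mul_mem_right _ _ h1

end ToLine

/-! ### From the line to the intrinsic form -/

section OfLine

theorem isUnit_of_isUnit_add_mem {R : Type} [CommRing R] [IsLocalRing R] {u m : R}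
    (hu : IsUnit u) (hm : m ∈ maximalIdeal R) : IsUnit (u + m) := by
  by_contra hcon
  have h1 : u + m ∈ maximalIdeal R := (IsLocalRing.mem_maximalIdeal _).mpr hcon
  have h2 : u ∈ maximalIdeal R := by
    have := Ideal.sub_mem _ h1 hm
    rwa [add_sub_cancel_right] at this
  exact (IsLocalRing.mem_maximalIdeal _).mp h2 hu

/-- The trace of an endomorphism which is `x` on the line `A b₀` and `z` modulo the line. -/
theorem trace_of_line_quot {V : Type} [AddCommGroup V] [Module A V]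
    (b : Module.Basis (Fin 2) A V) (H : V →ₗ[A] V) (x z : A)
    (h1 : H (b 0) = x • b 0) (h2 : H (b 1) - z • b 1 ∈ Submodule.span A {b 0}) :
    LinearMap.trace A V H = x + z := by
  rw [LinearMap.trace_eq_matrix_trace A b, Matrix.trace, Fin.sum_univ_two]
  simp only [Matrix.diag_apply, LinearMap.toMatrix_apply]
  have h3 := repr_one_eq_zero_of_mem_span b h2
  rw [map_sub, Finsupp.sub_apply, map_smul, Finsupp.smul_apply, Module.Basis.repr_self,
    Finsupp.single_eq_same, smul_eq_mul, mul_one, sub_eq_zero] at h3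
  rw [h1, h3, map_smul, Finsupp.smul_apply, Module.Basis.repr_self, Finsupp.single_eq_same,
    smul_eq_mul, mul_one]

variable {ρ : GaloisRepAdic A} {p : ℕ} {P : ValuationSubring (AlgebraicClosure ℚ)}
  {σ₀ : AlgebraicClosure ℚ ≃ₐ[ℚ] AlgebraicClosure ℚ}

theorem mem_decomposition_of_mem_inertia' (P : ValuationSubring (AlgebraicClosure ℚ))
    (σ : AlgebraicClosure ℚ ≃ₐ[ℚ] AlgebraicClosure ℚ)
    (hσ : σ ∈ P.inertiaSubgroupIn ℚ) : σ ∈ P.decompositionSubgroup ℚ := by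
  obtain ⟨τ, -, rfl⟩ := Subgroup.mem_map.1 hσ
  exact τ.2

theorem soInt_of_isSOLineAt (hp : (p : A) ∈ maximalIdeal A)
    (hσ₀ : σ₀ ∈ P.inertiaSubgroupIn ℚ) (a₀ : ℕ) (ha₀ : ActsPow p σ₀ 1 a₀)
    (hu : IsUnit ((a₀ : A) - 1)) {L : Submodule A ρ.V} (hL : IsSOLineAt ρ p P L) :
    SOInt ρ p P σ₀ := by
  obtain ⟨⟨b, rfl⟩, hstab, hin, heig⟩ := hL
  have hσ₀D := mem_decomposition_of_mem_inertia' P σ₀ hσ₀
  obtain ⟨x₀, z₀, hx₀, hz₀, hc₀⟩ := heig σ₀ hσ₀D
  have hb0 : b 0 ∈ Submodule.span A {b 0} := Submodule.mem_span_singleton_self _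
  -- `z₀ = 1`
  have hz : z₀ = 1 := by
    have h1 : (z₀ - 1) • b 1 ∈ Submodule.span A {b 0} := by
      have := Submodule.sub_mem _ (hin σ₀ hσ₀ (b 1)) (hz₀ (b 1))
      have e : ρ.ρ σ₀ (b 1) - b 1 - (ρ.ρ σ₀ (b 1) - z₀ • b 1) = (z₀ - 1) • b 1 := by
        rw [sub_smul, one_smul]; abel
      rwa [e] at this
    have h2 := repr_one_eq_zero_of_mem_span b h1
    rw [map_smul, Finsupp.smul_apply, Module.Basis.repr_self, Finsupp.single_eq_same,
      smul_eq_mul, mul_one, sub_eq_zero] at h2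
    exact h2
  -- `t₀ = x₀ - 1` is a unit
  have hxa : x₀ - (a₀ : A) ∈ maximalIdeal A := by
    have h1 := hc₀ 1 a₀ ha₀
    rw [hz, mul_one] at h1
    have h2 : Ideal.span {((p ^ 1 : ℕ) : A)} ≤ maximalIdeal A := by
      rw [Ideal.span_singleton_le_iff_mem, pow_one]
      exact hp
    exact h2 h1
  have ht₀ : IsUnit (x₀ - 1) := by
    have := isUnit_of_isUnit_add_mem hu hxa
    have e : (a₀ : A) - 1 + (x₀ - (a₀ : A)) = x₀ - 1 := by ring
    rwa [e] at this
  have hFL : ∀ v, soF ρ σ₀ v ∈ Submodule.span A {b 0} := fun v => hin σ₀ hσ₀ v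
  have hFw : ∀ w ∈ Submodule.span A {b 0}, soF ρ σ₀ w = (x₀ - 1) • w := by
    intro w hw
    change ρ.ρ σ₀ w - w = _
    rw [hx₀ w hw, sub_smul, one_smul]
  have hT : soT ρ σ₀ = x₀ - 1 :=
    trace_of_range_le_line b (soF ρ σ₀) (x₀ - 1) hFL (hFw _ hb0)
  have key : ∀ σ ∈ P.decompositionSubgroup ℚ, ∀ x z : A,
      (∀ w ∈ Submodule.span A {b 0}, ρ.ρ σ w = x • w) →
      (∀ v : ρ.V, ρ.ρ σ v - z • v ∈ Submodule.span A {b 0}) →
      soX ρ σ₀ σ = (x₀ - 1) * x ∧ soZ ρ σ₀ σ = (x₀ - 1) * z := by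
    intro σ hσ x z hx hz
    have hX : soX ρ σ₀ σ = (x₀ - 1) * x := by
      apply trace_of_range_le_line b
      · intro v
        exact hstab σ hσ _ (hFL v)
      · change ρ.ρ σ (soF ρ σ₀ (b 0)) = _
        rw [hFw _ hb0, map_smul, hx _ hb0, smul_smul]
    refine ⟨hX, ?_⟩
    have htr : LinearMap.trace A ρ.V (ρ.ρ σ) = x + z :=
      trace_of_line_quot b (ρ.ρ σ) x z (hx _ hb0) (hz (b 1))
    rw [soZ, hX, hT, htr]
    ring
  refine ⟨?_, ?_, ?_, ?_, ?_, ?_, ?_⟩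
  · rw [hT]; exact ht₀
  · ext v
    change soF ρ σ₀ (soF ρ σ₀ v) = soT ρ σ₀ • soF ρ σ₀ v
    rw [hFw _ (hFL v), hT]
  · intro σ hσ
    ext v
    change soT ρ σ₀ • ρ.ρ σ (soF ρ σ₀ v) = soF ρ σ₀ (ρ.ρ σ (soF ρ σ₀ v))
    rw [hFw _ (hstab σ hσ _ (hFL v)), hT]
  · intro σ hσ
    ext v
    change soT ρ σ₀ • (ρ.ρ σ v - v) = soF ρ σ₀ (ρ.ρ σ v - v)
    rw [hFw _ (hin σ hσ v), hT]
  · intro σ hσ
    obtain ⟨x, z, hx, hz', -⟩ := heig σ hσ
    obtain ⟨hX, -⟩ := key σ hσ x z hx hz'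
    ext v
    change soT ρ σ₀ • ρ.ρ σ (soF ρ σ₀ v) = soX ρ σ₀ σ • soF ρ σ₀ v
    rw [hX, hT, hx _ (hFL v), smul_smul]
  · intro σ hσ
    obtain ⟨x, z, hx, hz', -⟩ := heig σ hσ
    obtain ⟨-, hZ⟩ := key σ hσ x z hx hz'
    ext v
    change soT ρ σ₀ • (soT ρ σ₀ • ρ.ρ σ v - soZ ρ σ₀ σ • v) =
      soF ρ σ₀ (soT ρ σ₀ • ρ.ρ σ v - soZ ρ σ₀ σ • v)
    have hmem : soT ρ σ₀ • ρ.ρ σ v - soZ ρ σ₀ σ • v ∈ Submodule.span A {b 0} := by
      have e : soT ρ σ₀ • ρ.ρ σ v - soZ ρ σ₀ σ • v = (x₀ - 1) • (ρ.ρ σ v - z • v) := by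
        rw [hZ, hT, smul_sub, smul_smul]
      rw [e]
      exact Submodule.smul_mem _ _ (hz' v)
    rw [hFw _ hmem, hT]
  · intro σ hσ
    obtain ⟨x, z, hx, hz', hc⟩ := heig σ hσ
    obtain ⟨hX, hZ⟩ := key σ hσ x z hx hz'
    intro n a ha
    have h1 := hc n a ha
    have e : soX ρ σ₀ σ - (a : A) * soZ ρ σ₀ σ = (x - (a : A) * z) * (x₀ - 1) := by
      rw [hX, hZ]; ring
    rw [e]
    exact Ideal.mul_mem_right _ _ h1

end OfLine

/-! ### Base change of the intrinsic data -/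

section BaseChange

variable {B : Type} [CommRing B] [IsLocalRing B] (φ : A →+* B) (hφ : IsLocalHom φ)
  (ρ : GaloisRepAdic A) (σ₀ σ : AlgebraicClosure ℚ ≃ₐ[ℚ] AlgebraicClosure ℚ)

theorem soF_baseChangeAlong :
    letI := φ.toAlgebra
    soF (ρ.baseChangeAlong φ hφ) σ₀ = (soF ρ σ₀).baseChange B := by
  letI := φ.toAlgebra
  change (ρ.ρ σ₀).baseChange B - 1 = (ρ.ρ σ₀ - 1).baseChange B
  rw [LinearMap.baseChange_sub, LinearMap.baseChange_one]

theorem soT_baseChangeAlong : soT (ρ.baseChangeAlong φ hφ) σ₀ = φ (soT ρ σ₀) := by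
  letI := φ.toAlgebra
  have h := LinearMap.trace_baseChange (soF ρ σ₀) B
  rw [← soF_baseChangeAlong φ hφ ρ σ₀] at h
  exact h

theorem trace_baseChangeAlong :
    LinearMap.trace B (ρ.baseChangeAlong φ hφ).V ((ρ.baseChangeAlong φ hφ).ρ σ) =
      φ (LinearMap.trace A ρ.V (ρ.ρ σ)) := by
  letI := φ.toAlgebra
  exact LinearMap.trace_baseChange (ρ.ρ σ) B

theorem soX_baseChangeAlong : soX (ρ.baseChangeAlong φ hφ) σ₀ σ = φ (soX ρ σ₀ σ) := by
  letI := φ.toAlgebra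
  have h := LinearMap.trace_baseChange (ρ.ρ σ * soF ρ σ₀) B
  rw [LinearMap.baseChange_mul, ← soF_baseChangeAlong φ hφ ρ σ₀] at h
  exact h

theorem soZ_baseChangeAlong : soZ (ρ.baseChangeAlong φ hφ) σ₀ σ = φ (soZ ρ σ₀ σ) := by
  unfold soZ
  rw [soT_baseChangeAlong, soX_baseChangeAlong, trace_baseChangeAlong, map_sub, map_mul]

theorem smul_baseChange_eq {C : Type} [CommRing C] [Algebra A C] {V : Type} [AddCommGroup V]
    [Module A V] (t : A) (f : V →ₗ[A] V) :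
    (t • f).baseChange C = (algebraMap A C t) • f.baseChange C := by
  rw [LinearMap.baseChange_smul]
  ext v
  simp only [TensorProduct.AlgebraTensorModule.curry_apply, LinearMap.restrictScalars_apply,
    TensorProduct.curry_apply, LinearMap.smul_apply, LinearMap.baseChange_tmul]
  rw [algebraMap_smul]

end BaseChange

/-! ### Descent of the intrinsic form -/

section Descent

variable {p : ℕ} (F : JFam A p) (ρ : GaloisRepAdic A)
  (P : ValuationSubring (AlgebraicClosure ℚ))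
  (σ₀ : AlgebraicClosure ℚ ≃ₐ[ℚ] AlgebraicClosure ℚ)

theorem JFam.soInt (h : ∀ i, SOInt (ρ.baseChangeAlong (F.φ i) (F.hφ i)) p P σ₀) :
    SOInt ρ p P σ₀ := by
  refine ⟨?_, ?_, ?_, ?_, ?_, ?_, ?_⟩
  · apply F.isUnit
    intro i
    have := (h i).unit
    rwa [soT_baseChangeAlong] at this
  · apply F.end_eq
    intro i
    letI := (F.φ i).toAlgebra
    have hi := (h i).sq
    rw [soT_baseChangeAlong, soF_baseChangeAlong] at hi
    rw [LinearMap.baseChange_mul, smul_baseChange_eq]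
    exact hi
  · intro σ hσ
    apply F.end_eq
    intro i
    letI := (F.φ i).toAlgebra
    have hi := (h i).stab σ hσ
    rw [soT_baseChangeAlong, soF_baseChangeAlong] at hi
    rw [LinearMap.baseChange_mul, smul_baseChange_eq, LinearMap.baseChange_mul]
    exact hi
  · intro σ hσ
    apply F.end_eq
    intro i
    letI := (F.φ i).toAlgebra
    have hi := (h i).inert σ hσ
    rw [soT_baseChangeAlong, soF_baseChangeAlong] at hi
    rw [LinearMap.baseChange_mul, smul_baseChange_eq, LinearMap.baseChange_sub,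
      LinearMap.baseChange_one]
    exact hi
  · intro σ hσ
    apply F.end_eq
    intro i
    letI := (F.φ i).toAlgebra
    have hi := (h i).eig1 σ hσ
    rw [soT_baseChangeAlong, soX_baseChangeAlong, soF_baseChangeAlong] at hi
    rw [smul_baseChange_eq, smul_baseChange_eq, LinearMap.baseChange_mul]
    exact hi
  · intro σ hσ
    apply F.end_eq
    intro i
    letI := (F.φ i).toAlgebra
    have hi := (h i).eig2 σ hσ
    rw [soT_baseChangeAlong, soZ_baseChangeAlong, soF_baseChangeAlong] at hi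
    rw [LinearMap.baseChange_mul, smul_baseChange_eq, LinearMap.baseChange_sub,
      smul_baseChange_eq, smul_baseChange_eq, LinearMap.baseChange_one]
    exact hi
  · intro σ hσ
    apply F.cyc
    intro i
    have hi := (h i).cyc σ hσ
    rwa [soX_baseChangeAlong, soZ_baseChangeAlong] at hi

end Descent

/-! ### The strict-ordinary condition descends -/

section Final

theorem not_modEq_one_of_ne {p : ℕ} {σ₀ : AlgebraicClosure ℚ ≃ₐ[ℚ] AlgebraicClosure ℚ} {a₀ : ℕ}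
    (ha₀ : ActsPow p σ₀ 1 a₀) {ζ : AlgebraicClosure ℚ} (hζ : ζ ^ p = 1) (hne : σ₀ ζ ≠ ζ) :
    ¬ (a₀ ≡ 1 [MOD p]) := by
  intro hmod
  apply hne
  rw [ha₀ ζ (by rw [pow_one]; exact hζ)]
  have h1 : a₀ % p = 1 % p := hmod
  have h2 : a₀ = p * (a₀ / p) + 1 % p := by
    have := Nat.div_add_mod a₀ p
    omega
  by_cases hp1 : p = 1
  · subst hp1
    rw [pow_one] at hζ
    rw [hζ, one_pow]
  · have hp0 : ζ ^ (1 % p) = ζ := by
      rcases Nat.lt_or_ge 1 p with hlt | hge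
      · rw [Nat.mod_eq_of_lt hlt, pow_one]
      · have : p = 0 := by omega
        subst this
        simp
    rw [h2, pow_add, pow_mul, hζ, one_pow, one_mul, hp0]

theorem isUnit_natCast_sub_one {B : Type} [CommRing B] [IsLocalRing B] {p a₀ : ℕ}
    (hp : p.Prime) (hpB : (p : B) ∈ maximalIdeal B) (h : ¬ a₀ ≡ 1 [MOD p]) :
    IsUnit ((a₀ : B) - 1) := by
  have hndvd : ¬ (p : ℤ) ∣ ((a₀ : ℤ) - 1) := by
    intro hd
    apply h
    have := (Int.modEq_iff_dvd (n := (p : ℤ)) (a := 1) (b := (a₀ : ℤ))).mpr hd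
    have h2 : (a₀ : ℤ) ≡ ((1 : ℕ) : ℤ) [ZMOD (p : ℤ)] := by
      rw [Nat.cast_one]; exact this.symm
    exact (Int.natCast_modEq_iff).mp h2
  have hcop : IsCoprime (p : ℤ) ((a₀ : ℤ) - 1) :=
    (Prime.coprime_iff_not_dvd (Nat.prime_iff_prime_int.mp hp)).mpr hndvd
  obtain ⟨u, v, huv⟩ := hcop
  have h1 : (v : B) * ((a₀ : B) - 1) = 1 - (u : B) * (p : B) := by
    have := congrArg (Int.cast : ℤ → B) huv
    push_cast at this
    linear_combination this
  have h2 : IsUnit ((v : B) * ((a₀ : B) - 1)) := by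
    rw [h1]
    have hm : (u : B) * (p : B) ∈ maximalIdeal B := Ideal.mul_mem_left _ _ hpB
    have := isUnit_of_isUnit_add_mem (R := B) isUnit_one (neg_mem hm)
    rwa [← sub_eq_add_neg] at this
  exact isUnit_of_mul_isUnit_right h2

variable {p : ℕ} [Fact p.Prime] (F : JFam A p) (ρ : GaloisRepAdic A)

theorem JFam.isStrictOrdinaryAt (hp2 : p ≠ 2)
    (h : ∀ i, (ρ.baseChangeAlong (F.φ i) (F.hφ i)).IsStrictOrdinaryAt p) :
    ρ.IsStrictOrdinaryAt p := by
  have hpp : p.Prime := Fact.out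
  have hpA : (p : A) ∈ maximalIdeal A := by
    obtain ⟨i⟩ := F.ne
    apply F.mem_maximalIdeal i
    rw [map_natCast]
    exact (h i).1
  refine ⟨hpA, fun P hP => ?_⟩
  obtain ⟨σ₀, hσ₀, ζ, hζ, hne⟩ := Fermat.Agent.R.H2.stmt_CycInertia p hpp hp2 P hP
  obtain ⟨a₀, ha₀⟩ := exists_actsPow p σ₀ 1
  have hmod := not_modEq_one_of_ne ha₀ hζ hne
  have hint : SOInt ρ p P σ₀ := by
    apply F.soInt
    intro i
    obtain ⟨L, hL⟩ := (h i).2 P hP
    exact soInt_of_isSOLineAt (h i).1 hσ₀ a₀ ha₀ (isUnit_natCast_sub_one hpp (h i).1 hmod) hL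
  exact ⟨_, isSOLineAt_of_soInt hint⟩

end Final

end Fermat.Agent.S59.H99

end
-- ==== END Fermat.Agent.S59.H99_DefSO

-- ==== BEGIN Fermat.Agent.S59.NumCrit.H90_Fit
section

/-!
# S59 NUMCRIT, (L1) and (UNI)

* `psi_det_mem_annihilator`, `det_linPart_mem_eta`: for `g_i ∈ ker ψ`, `g = M X`, the element
  `ψ (det M)` annihilates `ker π` and `π (ψ (det M)) = det (ℓ(g_i))`; so `det (ℓ(g_i)) ∈ η`.
* `mem_span_of_linPart_eq`: if `g'_i ∈ (g)` and `ℓ(g'_i) = ℓ(g_i)` with `det ℓ(g) ≠ 0`,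
  then `g_i ∈ (g')`.
-/

set_option autoImplicit false

namespace Fermat.Agent.S59.NumCrit.H90

open MvPowerSeries

section fit

variable {𝒪 A : Type*} [CommRing 𝒪] [CommRing A] [Algebra 𝒪 A] {n : ℕ}
  {ψ : MvPowerSeries (Fin n) 𝒪 →ₐ[𝒪] A} {π : A →ₐ[𝒪] 𝒪}

/-- Cramer: `ψ (det M)` kills the augmentation ideal when `M X ⊂ ker ψ`. -/
theorem psi_det_mem_annihilator (hψ : Function.Surjective ψ) (hπ : ∀ i, π (ψ (X i)) = 0)
    (M : Matrix (Fin n) (Fin n) (MvPowerSeries (Fin n) 𝒪))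
    (hM : ∀ i, M.mulVec (fun k => (X k : MvPowerSeries (Fin n) 𝒪)) i ∈ RingHom.ker ψ) :
    ψ M.det ∈ (RingHom.ker π).annihilator := by
  rw [Submodule.mem_annihilator]
  intro a ha
  obtain ⟨f, rfl⟩ := hψ a
  have hf : constantCoeff f = 0 := by
    rw [← pi_psi_eq_constantCoeff hπ f]; exact ha
  obtain ⟨c, rfl⟩ := exists_eq_sum_mul_X f hf
  rw [smul_eq_mul, ← map_mul, ← RingHom.mem_ker, Finset.mul_sum]
  refine Ideal.sum_mem _ fun j _ => ?_
  have : M.det * (c j * X j) = c j * (M.det * X j) := by ring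
  rw [this]
  exact Ideal.mul_mem_left _ _ (det_mul_mem_span M _ j _ hM)

theorem pi_psi_det (hπ : ∀ i, π (ψ (X i)) = 0)
    (M : Matrix (Fin n) (Fin n) (MvPowerSeries (Fin n) 𝒪)) :
    π (ψ M.det) = (Matrix.of fun i =>
      linPart n 𝒪 (M.mulVec (fun k => (X k : MvPowerSeries (Fin n) 𝒪)) i)).det := by
  rw [pi_psi_eq_constantCoeff hπ, RingHom.map_det]
  congr 1
  ext i j
  rw [Matrix.of_apply, linPart_mulVec]
  rfl

theorem mem_eta_iff {a : 𝒪} :
    a ∈ eta π ↔ ∃ t ∈ (RingHom.ker π).annihilator, π t = a := by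
  unfold eta
  have hsurj : Function.Surjective π := fun a => ⟨algebraMap 𝒪 A a, by rw [π.commutes]; rfl⟩
  rw [Ideal.mem_map_iff_of_surjective π hsurj]

/-- (L1): the determinant of the linear parts of `n` relations lies in `η`. -/
theorem det_linPart_mem_eta (hψ : Function.Surjective ψ) (hπ : ∀ i, π (ψ (X i)) = 0)
    (g : Fin n → MvPowerSeries (Fin n) 𝒪) (hg : ∀ i, g i ∈ RingHom.ker ψ) :
    (Matrix.of fun i => linPart n 𝒪 (g i)).det ∈ eta π := by
  obtain ⟨M, hM⟩ := exists_matrix_mulVec g fun i => ker_psi_le hπ (hg i)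
  rw [mem_eta_iff]
  refine ⟨ψ M.det, psi_det_mem_annihilator hψ hπ M (fun i => by rw [hM]; exact hg i), ?_⟩
  rw [pi_psi_det hπ, hM]

end fit

section uni

variable {𝒪 : Type*} [CommRing 𝒪] [IsDomain 𝒪] {n : ℕ}

/-- (UNI): relations with the same (independent) linear parts generate the same ideal. -/
theorem mem_span_of_linPart_eq (g g' : Fin n → MvPowerSeries (Fin n) 𝒪)
    (hg : ∀ i, constantCoeff (g i) = 0)
    (hdet : (Matrix.of fun i => linPart n 𝒪 (g i)).det ≠ 0)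
    (hmem : ∀ i, g' i ∈ Ideal.span (Set.range g))
    (hlin : ∀ i, linPart n 𝒪 (g' i) = linPart n 𝒪 (g i)) (j : Fin n) :
    g j ∈ Ideal.span (Set.range g') := by
  classical
  have hU : ∀ i, ∃ c : Fin n → MvPowerSeries (Fin n) 𝒪, ∑ k, c k * g k = g' i := fun i =>
    (Ideal.mem_span_range_iff_exists_fun (R := MvPowerSeries (Fin n) 𝒪)).mp (hmem i)
  choose U hU using hU
  let U' : Matrix (Fin n) (Fin n) (MvPowerSeries (Fin n) 𝒪) := Matrix.of U
  let B : Matrix (Fin n) (Fin n) 𝒪 := Matrix.of fun i => linPart n 𝒪 (g i)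
  let U₀ : Matrix (Fin n) (Fin n) 𝒪 := U'.map constantCoeff
  -- `U₀ B = B`
  have h1 : U₀ * B = B := by
    ext i j
    have := congrFun (hlin i) j
    rw [← hU i, map_sum] at this
    simp_rw [linPart_mul _ _ (hg _)] at this
    rw [Matrix.mul_apply]
    simpa [U₀, U', B] using this
  have h2 : U₀ = 1 := by
    have h3 : (U₀ - 1) * B = 0 := by rw [sub_mul, h1, one_mul, sub_self]
    have h4 : (U₀ - 1) * (B * B.adjugate) = 0 := by rw [← mul_assoc, h3, zero_mul]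
    rw [Matrix.mul_adjugate, Matrix.mul_smul, mul_one] at h4
    have h5 : U₀ - 1 = 0 := by
      ext i j
      have := congrFun (congrFun h4 i) j
      simp only [Matrix.smul_apply, Matrix.zero_apply, smul_eq_mul] at this
      rcases mul_eq_zero.mp this with h | h
      · exact absurd h hdet
      · simpa using h
    exact sub_eq_zero.mp h5
  have h6 : IsUnit U'.det := by
    rw [MvPowerSeries.isUnit_iff_constantCoeff, RingHom.map_det]
    have : (constantCoeff (σ := Fin n) (R := 𝒪)).mapMatrix U' = U₀ := rfl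
    rw [this, h2, Matrix.det_one]
    exact isUnit_one
  have h7 : U'.det * g j ∈ Ideal.span (Set.range g') := by
    refine det_mul_mem_span U' g j _ fun i => ?_
    have : U'.mulVec g i = g' i := hU i
    rw [this]
    exact Ideal.subset_span ⟨i, rfl⟩
  exact (Ideal.unit_mul_mem_iff_mem _ h6).mp h7

end uni

end Fermat.Agent.S59.NumCrit.H90

end
-- ==== END Fermat.Agent.S59.NumCrit.H90_Fit

-- ==== BEGIN Fermat.Agent.S59.Patch.Limit
section

/-!
# S59 / PATCH (helper53): the limit of a sequence of patching levels along an ultrafilter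

Given patching levels `L n` (all of rank `d`) with relation ideals `J n ≤ 𝔪 ^ (n + 1)`, and a
non-principal ultrafilter `𝔘` on `ℕ`, we construct a patching level with relation ideal `⊥`:
* `φ∞ w = lim_𝔘 φ_n w`, `ψ∞ w = lim_𝔘 ψ_n w` (pointwise limits in the profinite rings `Λ`, `R`);
* `N∞ = Λ^d ⧸ K∞`, `K∞ = {v | ∀ m, ∀ᶠ n in 𝔘, gen_n v ∈ 𝔪 ^ m • N_n}`;
* `π∞ [v] = lim_𝔘 π_n (gen_n v)`.
-/

set_option autoImplicit false
set_option linter.style.haveILetI false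
set_option linter.unusedSectionVars false

namespace Fermat.Agent.S59.Patch

open IsLocalRing MvPowerSeries Filter

section Limit

variable {𝒪 : Type} [CommRing 𝒪] [IsLocalRing 𝒪]
  {r : ℕ} {R : Type} [CommRing R] [IsLocalRing R] [Algebra 𝒪 R]
  {M : Type} [AddCommGroup M] [Module R M] {d : ℕ}
  [IsAdicComplete (maximalIdeal (MvPowerSeries (Fin r) 𝒪)) (MvPowerSeries (Fin r) 𝒪)]
  [FinQuot (maximalIdeal (MvPowerSeries (Fin r) 𝒪)) (MvPowerSeries (Fin r) 𝒪)]
  [IsAdicComplete (maximalIdeal (MvPowerSeries (Fin r) 𝒪)) (Fin d → MvPowerSeries (Fin r) 𝒪)]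
  [FinQuot (maximalIdeal (MvPowerSeries (Fin r) 𝒪)) (Fin d → MvPowerSeries (Fin r) 𝒪)]
  [IsAdicComplete (maximalIdeal R) R] [FinQuot (maximalIdeal R) R]
  [IsAdicComplete (maximalIdeal R) M] [FinQuot (maximalIdeal R) M]
  {J : ℕ → Ideal (MvPowerSeries (Fin r) 𝒪)} (L : ∀ n, LevelD 𝒪 r R M (J n) d)
  (𝔘 : Ultrafilter ℕ)

/-- `φ∞`, as a function. -/
noncomputable def phiLim (w : MvPowerSeries (Fin r) 𝒪) : MvPowerSeries (Fin r) 𝒪 :=
  ulim (maximalIdeal (MvPowerSeries (Fin r) 𝒪)) 𝔘 (fun n => (L n).φ w)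

/-- `ψ∞`, as a function. -/
noncomputable def psiLim (w : MvPowerSeries (Fin r) 𝒪) : R :=
  ulim (maximalIdeal R) 𝔘 (fun n => (L n).ψ w)

/-- `φ∞`. -/
noncomputable def phiInf : MvPowerSeries (Fin r) 𝒪 →ₐ[𝒪] MvPowerSeries (Fin r) 𝒪 where
  toFun := phiLim L 𝔘
  map_one' := by
    simp only [phiLim, map_one]
    exact ulim_const _ 𝔘 1
  map_mul' a b := by
    simp only [phiLim, map_mul]
    exact ulim_mul _ 𝔘 _ _
  map_zero' := by
    simp only [phiLim, map_zero]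
    exact ulim_const _ 𝔘 0
  map_add' a b := by
    simp only [phiLim, map_add]
    exact ulim_add _ 𝔘 _ _
  commutes' c := by
    simp only [phiLim, AlgHom.commutes]
    exact ulim_const _ 𝔘 _

/-- `ψ∞`. -/
noncomputable def psiInf : MvPowerSeries (Fin r) 𝒪 →ₐ[𝒪] R where
  toFun := psiLim L 𝔘
  map_one' := by
    simp only [psiLim, map_one]
    exact ulim_const _ 𝔘 1
  map_mul' a b := by
    simp only [psiLim, map_mul]
    exact ulim_mul _ 𝔘 _ _
  map_zero' := by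
    simp only [psiLim, map_zero]
    exact ulim_const _ 𝔘 0
  map_add' a b := by
    simp only [psiLim, map_add]
    exact ulim_add _ 𝔘 _ _
  commutes' c := by
    simp only [psiLim, AlgHom.commutes]
    exact ulim_const _ 𝔘 _

theorem phiInf_apply (w : MvPowerSeries (Fin r) 𝒪) :
    phiInf L 𝔘 w = ulim (maximalIdeal (MvPowerSeries (Fin r) 𝒪)) 𝔘 (fun n => (L n).φ w) := rfl

theorem psiInf_apply (w : MvPowerSeries (Fin r) 𝒪) :
    psiInf L 𝔘 w = ulim (maximalIdeal R) 𝔘 (fun n => (L n).ψ w) := rfl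

/-- `(I1)` -/
theorem phi_close (w : MvPowerSeries (Fin r) 𝒪) (m : ℕ) :
    ∀ᶠ n in (𝔘 : Filter ℕ), (L n).φ w - phiInf L 𝔘 w ∈
      maximalIdeal (MvPowerSeries (Fin r) 𝒪) ^ m :=
  ulim_spec' _ 𝔘 _ m

/-- `(I2)` -/
theorem psi_close (w : MvPowerSeries (Fin r) 𝒪) (m : ℕ) :
    ∀ᶠ n in (𝔘 : Filter ℕ), (L n).ψ w - psiInf L 𝔘 w ∈ maximalIdeal R ^ m :=
  ulim_spec' _ 𝔘 _ m

/-- `(V1)`: `ψ∞` is surjective. -/
theorem psiInf_surjective : Function.Surjective (psiInf L 𝔘) := by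
  intro y
  have h1 : ∀ n, ∃ w, (L n).ψ w = y := fun n => (L n).ψ_surjective y
  choose w hw using h1
  refine ⟨ulim (maximalIdeal (MvPowerSeries (Fin r) 𝒪)) 𝔘 w, ?_⟩
  rw [psiInf_apply]
  refine ulim_eq' _ 𝔘 _ _ (fun m => Eventually.frequently ?_)
  filter_upwards [ulim_spec' (maximalIdeal (MvPowerSeries (Fin r) 𝒪)) 𝔘 w m] with n hn
  have h2 : (L n).ψ (ulim (maximalIdeal (MvPowerSeries (Fin r) 𝒪)) 𝔘 w) - y =
      - (L n).ψ (w n - ulim (maximalIdeal (MvPowerSeries (Fin r) 𝒪)) 𝔘 w) := by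
    rw [map_sub, hw n]; ring
  rw [h2]
  exact neg_mem (psi_mem_pow (L n) hn)

/-- `(V2)`: `ψ∞ (φ∞ X_i) = 0`. -/
theorem psiInf_phiInf_X (i : Fin r) : psiInf L 𝔘 (phiInf L 𝔘 (X i)) = 0 := by
  rw [psiInf_apply]
  refine ulim_eq' _ 𝔘 _ _ (fun m => Eventually.frequently ?_)
  filter_upwards [phi_close L 𝔘 (X i) m] with n hn
  rw [sub_zero]
  have h2 : (L n).ψ (phiInf L 𝔘 (X i)) = - (L n).ψ ((L n).φ (X i) - phiInf L 𝔘 (X i)) := by
    rw [map_sub, (L n).ψ_φ_X i]; ring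
  rw [h2]
  exact neg_mem (psi_mem_pow (L n) hn)

/-- `K∞`. -/
def Kinf : Submodule (MvPowerSeries (Fin r) 𝒪) (Fin d → MvPowerSeries (Fin r) 𝒪) where
  carrier := {v | ∀ m : ℕ, ∀ᶠ n in (𝔘 : Filter ℕ), gen (L n) v ∈
    (maximalIdeal (MvPowerSeries (Fin r) 𝒪) ^ m) •
      (⊤ : Submodule (MvPowerSeries (Fin r) 𝒪) (L n).N)}
  zero_mem' := fun m => Eventually.of_forall fun n => by
    rw [map_zero]; exact Submodule.zero_mem _
  add_mem' := by
    intro v w hv hw m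
    filter_upwards [hv m, hw m] with n h1 h2
    rw [map_add]
    exact Submodule.add_mem _ h1 h2
  smul_mem' := by
    intro c v hv m
    filter_upwards [hv m] with n h1
    rw [map_smul]
    exact Submodule.smul_mem _ _ h1

theorem mem_Kinf {v : Fin d → MvPowerSeries (Fin r) 𝒪} :
    v ∈ Kinf L 𝔘 ↔ ∀ m : ℕ, ∀ᶠ n in (𝔘 : Filter ℕ), gen (L n) v ∈
      (maximalIdeal (MvPowerSeries (Fin r) 𝒪) ^ m) •
        (⊤ : Submodule (MvPowerSeries (Fin r) 𝒪) (L n).N) := Iff.rfl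

/-- elements of `𝔪 ^ m • ⊤` for all `m`, up to `K∞`-many `n`, are in `K∞` -/
theorem mem_Kinf_of_close {v : Fin d → MvPowerSeries (Fin r) 𝒪}
    (w : ℕ → (Fin d → MvPowerSeries (Fin r) 𝒪))
    (h1 : ∀ m : ℕ, ∀ᶠ n in (𝔘 : Filter ℕ), v - w n ∈
      (maximalIdeal (MvPowerSeries (Fin r) 𝒪) ^ m) •
        (⊤ : Submodule (MvPowerSeries (Fin r) 𝒪) (Fin d → MvPowerSeries (Fin r) 𝒪)))
    (h2 : ∀ m : ℕ, ∀ᶠ n in (𝔘 : Filter ℕ), gen (L n) (w n) ∈
      (maximalIdeal (MvPowerSeries (Fin r) 𝒪) ^ m) •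
        (⊤ : Submodule (MvPowerSeries (Fin r) 𝒪) (L n).N)) :
    v ∈ Kinf L 𝔘 := by
  intro m
  filter_upwards [h1 m, h2 m] with n h3 h4
  have : gen (L n) v = gen (L n) (v - w n) + gen (L n) (w n) := by
    rw [← map_add, sub_add_cancel]
  rw [this]
  exact Submodule.add_mem _ (gen_mem (L n) h3) h4

/-- `π̃ : Λ^d → M`. -/
noncomputable def piLim : (Fin d → MvPowerSeries (Fin r) 𝒪) →+ M where
  toFun v := ulim (maximalIdeal R) 𝔘 (fun n => (L n).π (gen (L n) v))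
  map_zero' := by
    simp only [map_zero]
    exact ulim_const _ 𝔘 0
  map_add' v w := by
    simp only [map_add]
    exact ulim_add _ 𝔘 _ _

theorem piLim_apply (v : Fin d → MvPowerSeries (Fin r) 𝒪) :
    piLim L 𝔘 v = ulim (maximalIdeal R) 𝔘 (fun n => (L n).π (gen (L n) v)) := rfl

theorem piLim_smul (f : MvPowerSeries (Fin r) 𝒪) (v : Fin d → MvPowerSeries (Fin r) 𝒪) :
    piLim L 𝔘 (f • v) = psiInf L 𝔘 f • piLim L 𝔘 v := by
  rw [piLim_apply, piLim_apply, psiInf_apply, ← ulim_smul]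
  congr 1
  funext n
  rw [map_smul, (L n).π_smul]

theorem piLim_eq_zero_of_mem {v : Fin d → MvPowerSeries (Fin r) 𝒪} (hv : v ∈ Kinf L 𝔘) :
    piLim L 𝔘 v = 0 := by
  rw [piLim_apply]
  refine ulim_eq_zero _ 𝔘 _ (fun m => Eventually.frequently ?_)
  filter_upwards [hv m] with n hn
  exact pi_mem (L n) hn

/-- `N∞`. -/
abbrev Ninf : Type := (Fin d → MvPowerSeries (Fin r) 𝒪) ⧸ Kinf L 𝔘

/-- `π∞ : N∞ → M`. -/
noncomputable def piInf : Ninf L 𝔘 →+ M :=
  QuotientAddGroup.lift (Kinf L 𝔘).toAddSubgroup (piLim L 𝔘)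
    (fun _ hv => piLim_eq_zero_of_mem L 𝔘 hv)

theorem piInf_mk (v : Fin d → MvPowerSeries (Fin r) 𝒪) :
    piInf L 𝔘 (Submodule.Quotient.mk v) = piLim L 𝔘 v := rfl

/-- `(V3)` -/
theorem piInf_smul (f : MvPowerSeries (Fin r) 𝒪) (x : Ninf L 𝔘) :
    piInf L 𝔘 (f • x) = psiInf L 𝔘 f • piInf L 𝔘 x := by
  obtain ⟨v, rfl⟩ := Submodule.Quotient.mk_surjective _ x
  rw [← Submodule.Quotient.mk_smul, piInf_mk, piInf_mk, piLim_smul]

/-- `(V4)` -/
theorem piInf_surjective : Function.Surjective (piInf L 𝔘) := by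
  intro y
  have h1 : ∀ n, ∃ v, (L n).π (gen (L n) v) = y := fun n => by
    obtain ⟨x, hx⟩ := (L n).π_surjective y
    obtain ⟨v, rfl⟩ := gen_surjective (L n) x
    exact ⟨v, hx⟩
  choose v hv using h1
  refine ⟨Submodule.Quotient.mk
    (ulim (maximalIdeal (MvPowerSeries (Fin r) 𝒪)) 𝔘 v), ?_⟩
  rw [piInf_mk, piLim_apply]
  refine ulim_eq _ 𝔘 _ _ (fun m => ?_)
  filter_upwards [ulim_spec (maximalIdeal (MvPowerSeries (Fin r) 𝒪)) 𝔘 v m] with n hn
  have h2 : (L n).π (gen (L n) (ulim (maximalIdeal (MvPowerSeries (Fin r) 𝒪)) 𝔘 v)) - y =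
      - (L n).π (gen (L n) (v n - ulim (maximalIdeal (MvPowerSeries (Fin r) 𝒪)) 𝔘 v)) := by
    rw [map_sub, map_sub, hv n]; abel
  rw [h2]
  exact neg_mem (pi_mem (L n) (gen_mem (L n) hn))

/-- `(H1)`: membership in `I • ⊤` of a finite power is componentwise. -/
theorem mem_smul_top_pi_iff {A : Type*} [CommRing A] (I : Ideal A) {ι : Type*} [Fintype ι]
    [DecidableEq ι] (v : ι → A) :
    v ∈ I • (⊤ : Submodule A (ι → A)) ↔ ∀ i, v i ∈ I := by
  constructor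
  · intro hv
    refine Submodule.smul_induction_on hv ?_ ?_
    · intro a ha w _ i
      rw [Pi.smul_apply, smul_eq_mul]
      exact I.mul_mem_right _ ha
    · intro x y hx hy i
      rw [Pi.add_apply]
      exact I.add_mem (hx i) (hy i)
  · intro hv
    rw [pi_eq_sum_univ v]
    refine Submodule.sum_mem _ fun i _ => ?_
    exact Submodule.smul_mem_smul (hv i) Submodule.mem_top

/-- `(H3)`: elements of `span (range s) • ⊤` are combinations of the `s j`. -/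
theorem exists_sum_of_mem_span_smul_top {A : Type*} [CommRing A] {N : Type*} [AddCommGroup N]
    [Module A N] {ι : Type*} [Fintype ι] (s : ι → A) {x : N}
    (hx : x ∈ (Ideal.span (Set.range s)) • (⊤ : Submodule A N)) :
    ∃ y : ι → N, x = ∑ j, s j • y j := by
  refine Submodule.smul_induction_on hx ?_ ?_
  · intro a ha z _
    obtain ⟨c, rfl⟩ := (Ideal.mem_span_range_iff_exists_fun).mp ha
    refine ⟨fun j => c j • z, ?_⟩
    rw [Finset.sum_smul]
    refine Finset.sum_congr rfl fun j _ => ?_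
    rw [smul_smul, mul_comm]
  · rintro x y ⟨a, rfl⟩ ⟨b, rfl⟩
    refine ⟨fun j => a j + b j, ?_⟩
    simp [smul_add, Finset.sum_add_distrib]

/-- `(H2)` -/
theorem phi_comp_close (c : ℕ → (Fin d → MvPowerSeries (Fin r) 𝒪)) (m : ℕ) :
    ∀ᶠ n in (𝔘 : Filter ℕ),
      ((fun i => (L n).φ (c n i)) - fun i => phiInf L 𝔘
          (ulim (maximalIdeal (MvPowerSeries (Fin r) 𝒪)) 𝔘 c i)) ∈
        (maximalIdeal (MvPowerSeries (Fin r) 𝒪) ^ m) •
          (⊤ : Submodule (MvPowerSeries (Fin r) 𝒪) (Fin d → MvPowerSeries (Fin r) 𝒪)) := by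
  classical
  have h1 : ∀ᶠ n in (𝔘 : Filter ℕ), ∀ i : Fin d,
      (L n).φ (ulim (maximalIdeal (MvPowerSeries (Fin r) 𝒪)) 𝔘 c i) -
        phiInf L 𝔘 (ulim (maximalIdeal (MvPowerSeries (Fin r) 𝒪)) 𝔘 c i) ∈
          maximalIdeal (MvPowerSeries (Fin r) 𝒪) ^ m :=
    Filter.eventually_all.mpr fun i => phi_close L 𝔘 _ m
  filter_upwards [h1, ulim_spec (maximalIdeal (MvPowerSeries (Fin r) 𝒪)) 𝔘 c m] with n h2 h3
  rw [mem_smul_top_pi_iff] at h3 ⊢
  intro i
  have h4 := h3 i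
  rw [Pi.sub_apply] at h4 ⊢
  have h5 : (L n).φ (c n i) - phiInf L 𝔘 (ulim (maximalIdeal (MvPowerSeries (Fin r) 𝒪)) 𝔘 c i) =
      (L n).φ (c n i - ulim (maximalIdeal (MvPowerSeries (Fin r) 𝒪)) 𝔘 c i) +
        ((L n).φ (ulim (maximalIdeal (MvPowerSeries (Fin r) 𝒪)) 𝔘 c i) -
          phiInf L 𝔘 (ulim (maximalIdeal (MvPowerSeries (Fin r) 𝒪)) 𝔘 c i)) := by
    rw [map_sub]; ring
  rw [h5]
  exact Ideal.add_mem _ (phi_mem_pow (L n) h4) (h2 i)

/-- the class of `fun i => a i` is `∑ a i • b∞ i` -/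
theorem mk_eq_sum (a : Fin d → MvPowerSeries (Fin r) 𝒪) :
    (Submodule.Quotient.mk a : Ninf L 𝔘) =
      ∑ i, a i • (Submodule.Quotient.mk (Pi.single i 1) : Ninf L 𝔘) := by
  classical
  conv_lhs => rw [pi_eq_sum_univ a]
  have h : ∀ i : Fin d, (fun j => if i = j then (1 : MvPowerSeries (Fin r) 𝒪) else 0) =
      Pi.single i 1 := by
    intro i
    funext j
    rw [Pi.single_apply]
    by_cases hij : i = j
    · rw [if_pos hij, if_pos hij.symm]
    · rw [if_neg hij, if_neg (fun h => hij h.symm)]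
  simp only [h]
  rw [← Submodule.mkQ_apply, map_sum]
  refine Finset.sum_congr rfl fun i _ => ?_
  rw [map_smul, Submodule.mkQ_apply]

/-- `(V6)` -/
theorem b_span_inf (x : Ninf L 𝔘) :
    ∃ c : Fin d → MvPowerSeries (Fin r) 𝒪,
      x = ∑ i, phiInf L 𝔘 (c i) • (Submodule.Quotient.mk (Pi.single i 1) : Ninf L 𝔘) := by
  obtain ⟨v, rfl⟩ := Submodule.Quotient.mk_surjective _ x
  have h1 : ∀ n, ∃ c : Fin d → MvPowerSeries (Fin r) 𝒪,
      gen (L n) v = gen (L n) (fun i => (L n).φ (c i)) := fun n => by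
    obtain ⟨c, hc⟩ := (L n).b_span (gen (L n) v)
    exact ⟨c, by rw [gen_phi, hc]⟩
  choose c hc using h1
  refine ⟨ulim (maximalIdeal (MvPowerSeries (Fin r) 𝒪)) 𝔘 c, ?_⟩
  rw [← mk_eq_sum L 𝔘 (fun i => phiInf L 𝔘
    (ulim (maximalIdeal (MvPowerSeries (Fin r) 𝒪)) 𝔘 c i))]
  refine (Submodule.Quotient.eq _).mpr ?_
  refine mem_Kinf_of_close L 𝔘 (fun n => v - fun i => (L n).φ (c n i)) ?_ ?_
  · intro m
    filter_upwards [phi_comp_close L 𝔘 c m] with n hn
    have : (v - fun i => phiInf L 𝔘 (ulim (maximalIdeal (MvPowerSeries (Fin r) 𝒪)) 𝔘 c i)) -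
        (v - fun i => (L n).φ (c n i)) =
        (fun i => (L n).φ (c n i)) - fun i => phiInf L 𝔘
          (ulim (maximalIdeal (MvPowerSeries (Fin r) 𝒪)) 𝔘 c i) := by abel
    rw [this]
    exact hn
  · intro m
    refine Eventually.of_forall fun n => ?_
    rw [map_sub, hc n, sub_self]
    exact Submodule.zero_mem _

/-- `(V7)` -/
theorem b_rel_inf (h𝔘 : (𝔘 : Filter ℕ) ≤ atTop)
    (hJ : ∀ n, J n ≤ maximalIdeal (MvPowerSeries (Fin r) 𝒪) ^ (n + 1))
    (c : Fin d → MvPowerSeries (Fin r) 𝒪) :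
    ∑ i, phiInf L 𝔘 (c i) • (Submodule.Quotient.mk (Pi.single i 1) : Ninf L 𝔘) = 0 ↔
      ∀ i, c i ∈ (⊥ : Ideal (MvPowerSeries (Fin r) 𝒪)) := by
  classical
  constructor
  · intro h i₀
    rw [← mk_eq_sum L 𝔘 (fun i => phiInf L 𝔘 (c i)), Submodule.Quotient.mk_eq_zero] at h
    rw [Ideal.mem_bot]
    apply eq_of_forall_mem (maximalIdeal (MvPowerSeries (Fin r) 𝒪))
    intro m
    rw [sub_zero, mem_pow_smul_top_iff]
    -- finiteness of `Λ ⧸ 𝔪 ^ m`
    have hfin : Finite (MvPowerSeries (Fin r) 𝒪 ⧸ maximalIdeal (MvPowerSeries (Fin r) 𝒪) ^ m) := by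
      have h0 := FinQuot.fin (I := maximalIdeal (MvPowerSeries (Fin r) 𝒪))
        (M := MvPowerSeries (Fin r) 𝒪) m
      have e : (maximalIdeal (MvPowerSeries (Fin r) 𝒪) ^ m • ⊤ :
          Submodule (MvPowerSeries (Fin r) 𝒪) (MvPowerSeries (Fin r) 𝒪)) =
          maximalIdeal (MvPowerSeries (Fin r) 𝒪) ^ m := by
        ext x
        exact mem_pow_smul_top_iff _
      rw [e] at h0
      exact h0
    set K : ℕ := Nat.card (Fin d → MvPowerSeries (Fin r) 𝒪 ⧸
      maximalIdeal (MvPowerSeries (Fin r) 𝒪) ^ m) with hK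
    have h1 : ∀ᶠ n in (𝔘 : Filter ℕ), ∀ i : Fin d,
        (L n).φ (c i) - phiInf L 𝔘 (c i) ∈ maximalIdeal (MvPowerSeries (Fin r) 𝒪) ^ K :=
      Filter.eventually_all.mpr fun i => phi_close L 𝔘 _ K
    have h2 : ∀ᶠ n in (𝔘 : Filter ℕ), m ≤ n := h𝔘 (eventually_ge_atTop m)
    obtain ⟨n, hn1, hn2, hn3⟩ := (h1.and (h2.and (h K))).exists
    -- `gen (φ_n ∘ c) ∈ 𝔪 ^ K • ⊤ ≤ phiSub`
    have h3 : gen (L n) (fun i => (L n).φ (c i)) ∈
        (maximalIdeal (MvPowerSeries (Fin r) 𝒪) ^ K) •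
          (⊤ : Submodule (MvPowerSeries (Fin r) 𝒪) (L n).N) := by
      have h4 : (fun i => (L n).φ (c i)) =
          ((fun i => (L n).φ (c i)) - fun i => phiInf L 𝔘 (c i)) +
            fun i => phiInf L 𝔘 (c i) := by
        rw [sub_add_cancel]
      rw [h4, map_add]
      refine Submodule.add_mem _ (gen_mem (L n) ?_) hn3
      rw [mem_smul_top_pi_iff]
      exact hn1
    obtain ⟨hfin', hcard⟩ := finite_quot_phiSub (L n)
      (maximalIdeal (MvPowerSeries (Fin r) 𝒪) ^ m)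
    have h5 := pow_smul_top_le_of_card_le (phiSub (L n)
      (maximalIdeal (MvPowerSeries (Fin r) 𝒪) ^ m)) hcard h3
    rw [gen_phi] at h5
    have hJ' : J n ≤ maximalIdeal (MvPowerSeries (Fin r) 𝒪) ^ m :=
      (hJ n).trans (Ideal.pow_le_pow_right (by omega))
    exact mem_of_sum_mem_phiSub (L n) hJ' c h5 i₀
  · intro h
    have : ∀ i, c i = 0 := fun i => (Ideal.mem_bot).mp (h i)
    simp [this]

theorem span_le_ker_psiInf :
    Ideal.span (Set.range fun i : Fin r => phiInf L 𝔘 (MvPowerSeries.X i)) ≤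
      RingHom.ker (psiInf L 𝔘 : MvPowerSeries (Fin r) 𝒪 →+* R) := by
  rw [Ideal.span_le]
  rintro _ ⟨j, rfl⟩
  exact psiInf_phiInf_X L 𝔘 j

/-- `(V5)` -/
theorem ker_piInf (h𝔘 : (𝔘 : Filter ℕ) ≤ atTop) (x : Ninf L 𝔘) :
    piInf L 𝔘 x = 0 ↔
      x ∈ (Ideal.span (Set.range fun i : Fin r => phiInf L 𝔘 (MvPowerSeries.X i))) •
        (⊤ : Submodule (MvPowerSeries (Fin r) 𝒪) (Ninf L 𝔘)) := by
  classical
  constructor
  · intro hx
    obtain ⟨v, rfl⟩ := Submodule.Quotient.mk_surjective _ x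
    rw [piInf_mk, piLim_apply] at hx
    -- the predicate `P n m`
    set P : ℕ → ℕ → Prop := fun n m => (L n).π (gen (L n) v) ∈
      (maximalIdeal R ^ m) • (⊤ : Submodule R M) with hP
    have hP0 : ∀ n, P n 0 := fun n => by
      simp only [hP, pow_zero, Ideal.one_eq_top, Submodule.top_smul, Submodule.mem_top]
    set μ : ℕ → ℕ := fun n => Nat.findGreatest (P n) n with hμ
    have hPμ : ∀ n, P n (μ n) := fun n => Nat.findGreatest_spec (Nat.zero_le n) (hP0 n)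
    -- decompose `gen v`
    have h1 : ∀ n, ∃ u : Fin r → (Fin d → MvPowerSeries (Fin r) 𝒪),
        gen (L n) (v - ∑ j, (L n).φ (X j) • u j) ∈
          (maximalIdeal (MvPowerSeries (Fin r) 𝒪) ^ μ n) •
            (⊤ : Submodule (MvPowerSeries (Fin r) 𝒪) (L n).N) := by
      intro n
      obtain ⟨xn, hxn, hxn'⟩ := exists_pi_eq_of_mem (L n) (hPμ n)
      have h2 : (L n).π (gen (L n) v - xn) = 0 := by rw [map_sub, hxn', sub_self]
      obtain ⟨y, hy⟩ := exists_sum_of_mem_span_smul_top _ (((L n).ker_π _).mp h2)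
      have h3 : ∀ j, ∃ u, gen (L n) u = y j := fun j => gen_surjective (L n) (y j)
      choose u hu using h3
      refine ⟨u, ?_⟩
      have h4 : gen (L n) (v - ∑ j, (L n).φ (X j) • u j) = xn := by
        rw [map_sub, map_sum]
        simp only [map_smul, hu]
        rw [← hy]
        abel
      rw [h4]
      exact hxn
    choose u hu using h1
    -- the limits of the `u n j`
    set U : Fin r → (Fin d → MvPowerSeries (Fin r) 𝒪) := fun j =>
      ulim (maximalIdeal (MvPowerSeries (Fin r) 𝒪)) 𝔘 (fun n => u n j) with hU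
    have hmem : v - ∑ j, phiInf L 𝔘 (X j) • U j ∈ Kinf L 𝔘 := by
      refine mem_Kinf_of_close L 𝔘 (fun n => v - ∑ j, (L n).φ (X j) • u n j) ?_ ?_
      · intro m
        have h5 : ∀ᶠ n in (𝔘 : Filter ℕ), ∀ j : Fin r,
            (L n).φ (X j) - phiInf L 𝔘 (X j) ∈ maximalIdeal (MvPowerSeries (Fin r) 𝒪) ^ m :=
          Filter.eventually_all.mpr fun j => phi_close L 𝔘 _ m
        have h6 : ∀ᶠ n in (𝔘 : Filter ℕ), ∀ j : Fin r, u n j - U j ∈
            (maximalIdeal (MvPowerSeries (Fin r) 𝒪) ^ m) •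
              (⊤ : Submodule (MvPowerSeries (Fin r) 𝒪) (Fin d → MvPowerSeries (Fin r) 𝒪)) :=
          Filter.eventually_all.mpr fun j =>
            ulim_spec (maximalIdeal (MvPowerSeries (Fin r) 𝒪)) 𝔘 (fun n => u n j) m
        filter_upwards [h5, h6] with n h7 h8
        have h9 : (v - ∑ j, phiInf L 𝔘 (X j) • U j) - (v - ∑ j, (L n).φ (X j) • u n j) =
            ∑ j, ((L n).φ (X j) • (u n j - U j) +
              ((L n).φ (X j) - phiInf L 𝔘 (X j)) • U j) := by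
          simp only [smul_sub, sub_smul, Finset.sum_add_distrib, Finset.sum_sub_distrib]
          abel
        rw [h9]
        refine Submodule.sum_mem _ fun j _ => Submodule.add_mem _ ?_ ?_
        · exact Submodule.smul_mem _ _ (h8 j)
        · exact Submodule.smul_mem_smul (h7 j) Submodule.mem_top
      · intro m
        have h10 : ∀ᶠ n in (𝔘 : Filter ℕ), m ≤ n := h𝔘 (eventually_ge_atTop m)
        have h11 : ∀ᶠ n in (𝔘 : Filter ℕ), P n m := by
          have := ulim_spec (maximalIdeal R) 𝔘 (fun n => (L n).π (gen (L n) v)) m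
          rw [hx] at this
          filter_upwards [this] with n hn
          simpa [hP] using hn
        filter_upwards [h10, h11] with n h12 h13
        have h14 : m ≤ μ n := Nat.le_findGreatest h12 h13
        exact Submodule.smul_mono_left (Ideal.pow_le_pow_right h14) (hu n)
    have hx' : (Submodule.Quotient.mk v : Ninf L 𝔘) =
        ∑ j, phiInf L 𝔘 (X j) • (Submodule.Quotient.mk (U j) : Ninf L 𝔘) := by
      have := (Submodule.Quotient.eq (Kinf L 𝔘)).mpr hmem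
      rw [this, ← Submodule.mkQ_apply, map_sum]
      refine Finset.sum_congr rfl fun j _ => ?_
      rw [map_smul, Submodule.mkQ_apply]
    rw [hx']
    refine Submodule.sum_mem _ fun j _ => ?_
    exact Submodule.smul_mem_smul (Ideal.subset_span (Set.mem_range_self j)) Submodule.mem_top
  · intro hx
    refine Submodule.smul_induction_on hx ?_ ?_
    · intro a ha y _
      rw [piInf_smul]
      have := span_le_ker_psiInf L 𝔘 ha
      rw [RingHom.mem_ker] at this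
      have h2 : psiInf L 𝔘 a = 0 := this
      rw [h2, zero_smul]
    · intro y z hy hz
      rw [map_add, hy, hz, add_zero]

end Limit

end Fermat.Agent.S59.Patch

end
-- ==== END Fermat.Agent.S59.Patch.Limit

-- ==== BEGIN Fermat.Agent.S59.TWGal.G1Final
section

set_option autoImplicit false

namespace Fermat.Agent.S59.TWGal

/-- **G1**: splitting of a deformation at a Taylor–Wiles prime. -/
theorem stmt_G1 : Stmt_G1 :=
  stmt_G1_of H01.stmt_MatUnip H01.stmt_MatDiag H60.stmt_EIG H59.stmt_TAME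

end Fermat.Agent.S59.TWGal

end
-- ==== END Fermat.Agent.S59.TWGal.G1Final
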