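-- GENERATED (merged mirror, NOTES/tools/trim/merge3_helper67.py): 8 modules of the originals, bodies verbatim.
import Fermat.Agent.Zm.S43_L02_001
import Fermat.Agent.Zm.S43_L02_003
import Fermat.Agent.Zm.S43_L02_004
import Fermat.Agent.Zm.S43_L01_005
import Fermat.Agent.Zm.S56_L03_005
import Fermat.Agent.Zm.S43_L02_005
import Fermat.Agent.Zm.S58_L02_000
import Fermat.Agent.Zm.S35_L01_005
import Fermat.Agent.Zm.S56_L02_000
import Fermat.Agent.Zm.S35_L02_001
import Fermat.Agent.Zm.S44_L10_000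
import Fermat.Agent.Zm.S58_L01_000

-- ==== BEGIN Fermat.Agent.S33.New.H86_Frob2All
section

/-!
# S33 / S59, package STRICT: (FROB2) and the `K1`-test for `σ²` at all levels  (helper86)

* `frob2_all_of : Stmt_Frob2Tame → Stmt_Frob2Desc3 → Frob2Core A M p (σ σ)` for every odd prime
  `p ∤ M`, `A` over `p`, `σ` in the decomposition group of `A` (tame levels directly; at `p = 3`,
  `2 ∤ M` by descent from level `2 M`).
* `frob2_all : Stmt_Frob2Tame → Frob2Core A M p (σ σ)` (with the descent `stmt_Frob2Desc3`).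
* `k1Test_sq_all : Stmt_Frob2Tame → H54.K1Test A M p (σ σ)`.
-/

set_option autoImplicit false
set_option linter.style.haveILetI false
set_option linter.unusedSectionVars false

noncomputable section

open AlgebraicCurve ModularCurve Fermat.Agent.S28.H73 Fermat.Agent.RED.H73

namespace Fermat.Agent.S33.New.H86

open Fermat.Agent.BAD

local notation "Kb" => AlgebraicClosure ℚ

/-- **(FROB2) at all levels**, from the tame levels and the descent at `p = 3`. -/
theorem frob2_all_of (hT : H36.Stmt_Frob2Tame) (hD : H36.Stmt_Frob2Desc3)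
    (M p : ℕ) [NeZero M] [NeZero p] (hp : p.Prime) (hp2 : p ≠ 2) (hpM : ¬ p ∣ M)
    (A : ValuationSubring Kb) (hA : A.LiesOverPrime p) (σ : GalQ)
    (hσ : σ ∈ A.decompositionSubgroup ℚ) : H36.Frob2Core A M p (σ * σ) := by
  by_cases h5 : 5 ≤ p
  · exact hT M p hp hpM (Or.inl h5) A hA σ hσ
  have hp3 : p = 3 := by
    have h2 := hp.two_le
    have h4 : p ≠ 4 := by
      rintro rfl
      exact absurd hp (by decide)
    omega
  subst hp3
  by_cases h2 : 2 ∣ M
  · exact hT M 3 hp hpM (Or.inr (Or.inl ⟨rfl, h2⟩)) A hA σ hσ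
  · haveI : NeZero (2 * M) := ⟨Nat.mul_ne_zero (by norm_num) (NeZero.ne M)⟩
    have h32M : ¬ 3 ∣ 2 * M := by
      intro hd
      rcases (Nat.Prime.dvd_mul hp).1 hd with h | h
      · exact absurd h (by decide)
      · exact hpM h
    exact hD M h2 hpM A hA (σ * σ)
      (hT (2 * M) 3 hp h32M (Or.inr (Or.inl ⟨rfl, Dvd.intro M rfl⟩)) A hA σ hσ)

/-- **(FROB2) at all levels**, from the tame levels. -/
theorem frob2_all (hT : H36.Stmt_Frob2Tame)
    (M p : ℕ) [NeZero M] [NeZero p] (hp : p.Prime) (hp2 : p ≠ 2) (hpM : ¬ p ∣ M)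
    (A : ValuationSubring Kb) (hA : A.LiesOverPrime p) (σ : GalQ)
    (hσ : σ ∈ A.decompositionSubgroup ℚ) : H36.Frob2Core A M p (σ * σ) :=
  frob2_all_of hT stmt_Frob2Desc3 M p hp hp2 hpM A hA σ hσ

/-- **The `K1`-test for `σ²`**, `σ` in the decomposition group, at all levels. -/
theorem k1Test_sq_all (hT : H36.Stmt_Frob2Tame)
    (M p : ℕ) [NeZero M] [NeZero p] (hp : p.Prime) (hp2 : p ≠ 2) (hpM : ¬ p ∣ M)
    (A : ValuationSubring Kb) (hA : A.LiesOverPrime p) (σ : GalQ)
    (hσ : σ ∈ A.decompositionSubgroup ℚ) : H54.K1Test A M p (σ * σ) :=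
  k1Test_of_core A M p (σ * σ) (frob2_all hT M p hp hp2 hpM A hA σ hσ)

end Fermat.Agent.S33.New.H86

end
end
-- ==== END Fermat.Agent.S33.New.H86_Frob2All

-- ==== BEGIN Fermat.Agent.S59.TWGal.G2c
section

set_option autoImplicit false
set_option linter.style.haveILetI false

open Polynomial IsLocalRing

namespace Fermat.Agent.S59.TWGal

/-! ### Diagonal matrices -/

section diag

variable {R : Type} [CommRing R]

lemma IsDiag.mul_apply_diag {X Y : Matrix (Fin 2) (Fin 2) R} (hX : IsDiag X) (_hY : IsDiag Y)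
    (i : Fin 2) : (X * Y) i i = X i i * Y i i := by
  rw [Matrix.mul_apply, Fin.sum_univ_two]
  fin_cases i
  · show X 0 0 * Y 0 0 + X 0 1 * Y 1 0 = X 0 0 * Y 0 0
    rw [hX.1, zero_mul, add_zero]
  · show X 1 0 * Y 0 1 + X 1 1 * Y 1 1 = X 1 1 * Y 1 1
    rw [hX.2, zero_mul, zero_add]

lemma IsDiag.pow_apply_diag {X : Matrix (Fin 2) (Fin 2) R} (hX : IsDiag X) (n : ℕ) (i : Fin 2) :
    (X ^ n) i i = X i i ^ n := by
  induction n with
  | zero => rw [pow_zero, pow_zero, Matrix.one_apply_eq]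
  | succ n ih => rw [pow_succ, (hX.pow n).mul_apply_diag hX, ih, pow_succ]

end diag

section chi

variable {A : Type} [CommRing A] [IsLocalRing A]

lemma chi_eq_mat (ρ : GaloisRepAdic A) (b : Module.Basis (Fin 2) A ρ.V) (i : Fin 2) (g : GQ) :
    chi ρ b i g = mat b (ρ.ρ g) i i := (mat_apply b (ρ.ρ g) i i).symm

lemma isDiag_of_diagOn {ρ : GaloisRepAdic A} {P : ValuationSubring Qb}
    {b : Module.Basis (Fin 2) A ρ.V} (hD : DiagOn ρ P b) {g : GQ}
    (hg : g ∈ P.decompositionSubgroup ℚ) : IsDiag (mat b (ρ.ρ g)) := by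
  obtain ⟨x, y, hx, hy⟩ := hD g hg
  constructor
  · rw [mat_apply, hy, map_smul, Module.Basis.repr_self, Finsupp.smul_apply,
      Finsupp.single_eq_of_ne (by decide), smul_zero]
  · rw [mat_apply, hx, map_smul, Module.Basis.repr_self, Finsupp.smul_apply,
      Finsupp.single_eq_of_ne (by decide), smul_zero]

end chi

/-! ### Action on the `q`-th roots of unity -/

section roots

variable {q : ℕ} {ζ₀ : Qb}

/-- If `g ζ₀ = ζ₀ ^ k` then `g ^ n` acts by `k ^ n`. -/
lemma pow_apply_root (g : GQ) (k : ℕ) (h : g ζ₀ = ζ₀ ^ k) (n : ℕ) :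
    (g ^ n) ζ₀ = ζ₀ ^ (k ^ n) := by
  induction n with
  | zero => simp
  | succ n ih =>
    rw [pow_succ, AlgEquiv.mul_apply, h, map_pow, ih, ← pow_mul, pow_succ]

/-- An element of `q`-power order on `ζ₀` fixes `ζ₀`. -/
lemma fix_root_of_pow (hq : q.Prime) (hζ₀ : IsPrimitiveRoot ζ₀ q) (w : GQ) (e : ℕ)
    (h : (w ^ (q ^ e)) ζ₀ = ζ₀) : w ζ₀ = ζ₀ := by
  haveI : Fact q.Prime := ⟨hq⟩
  have hw : (w ζ₀) ^ q = 1 := by rw [← map_pow, hζ₀.pow_eq_one, map_one]
  obtain ⟨k, -, hk⟩ := hζ₀.eq_pow_of_pow_eq_one hw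
  have h1 := pow_apply_root w k hk.symm (q ^ e)
  rw [h] at h1
  have hord : orderOf ζ₀ = q := hζ₀.eq_orderOf.symm
  have hfo : IsOfFinOrder ζ₀ := isOfFinOrder_iff_pow_eq_one.2 ⟨q, hq.pos, hζ₀.pow_eq_one⟩
  have h2 : ζ₀ ^ 1 = ζ₀ ^ (k ^ (q ^ e)) := by rw [pow_one]; exact h1
  have h3 : 1 ≡ k ^ (q ^ e) [MOD q] := by
    have := hfo.pow_eq_pow_iff_modEq.1 h2
    rwa [hord] at this
  have h4 : ((k : ZMod q)) = 1 := by
    have h5 := (ZMod.natCast_eq_natCast_iff _ _ _).2 h3
    rw [Nat.cast_pow, ZMod.pow_card_pow, Nat.cast_one] at h5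
    exact h5.symm
  have h6 : k ≡ 1 [MOD q] := by
    rw [← ZMod.natCast_eq_natCast_iff, h4, Nat.cast_one]
  rw [← hk]
  have : ζ₀ ^ k = ζ₀ ^ 1 := hfo.pow_eq_pow_iff_modEq.2 (by rw [hord]; exact h6)
  rw [this, pow_one]

end roots

/-- **G2c** from the leaves. -/
theorem stmt_G2c_of (hTAME : Stmt_TAME) (hMU : Stmt_MatUnip) (hCYC : Stmt_CYCq)
    (hG2a : Stmt_G2a) : Stmt_G2c := by
  intro A _ _ _ p hp hpA ρ q hq hqp P hP hI φ hφ b hD σ hσ hσζ i
  haveI : Fact q.Prime := ⟨hq⟩
  haveI : NeZero q := ⟨hq.ne_zero⟩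
  have hcop : ∀ e : ℕ, (q ^ e).Coprime p :=
    fun e => Nat.Coprime.pow_left e ((Nat.coprime_primes hq hp).2 hqp)
  -- Krull
  have hkrull : ∀ x : A, (∀ N : ℕ, x ∈ maximalIdeal A ^ N) → x = 0 := by
    intro x hx
    have h := Ideal.iInf_pow_eq_bot_of_isLocalRing (maximalIdeal A)
      (maximalIdeal.isMaximal A).ne_top
    have hmem : x ∈ ⨅ i : ℕ, maximalIdeal A ^ i := by
      rw [Ideal.mem_iInf]; exact hx
    rw [h] at hmem
    exact (Submodule.mem_bot A).1 hmem
  rw [← sub_eq_zero]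
  refine hkrull _ fun N => ?_
  -- level `N`
  obtain ⟨L, hL, hcont⟩ := ρ.isAdicContinuous N
  obtain ⟨ζ₀, hζ₀⟩ := HasEnoughRootsOfUnity.exists_primitiveRoot Qb q
  have hζint : IsIntegral ℚ ζ₀ := (AlgebraicClosure.isAlgebraic ℚ).isIntegral.isIntegral ζ₀
  haveI : FiniteDimensional ℚ L := hL
  haveI : FiniteDimensional ℚ (IntermediateField.adjoin ℚ {ζ₀}) :=
    IntermediateField.adjoin.finiteDimensional hζint
  let F : IntermediateField ℚ Qb := L ⊔ IntermediateField.adjoin ℚ {ζ₀}
  have hF : FiniteDimensional ℚ F := IntermediateField.finiteDimensional_sup _ _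
  have hLF : L ≤ F := le_sup_left
  have hζF : ζ₀ ∈ F :=
    (le_sup_right : IntermediateField.adjoin ℚ {ζ₀} ≤ F)
      (IntermediateField.mem_adjoin_simple_self ℚ ζ₀)
  obtain ⟨τ₀, hτ₀, hcyc, -, -⟩ := hTAME q hq P hP φ hφ F hF
  have hIle : ∀ {g : GQ}, g ∈ P.inertiaSubgroupIn ℚ → g ∈ P.decompositionSubgroup ℚ := by
    rintro g ⟨s, -, rfl⟩
    exact s.2
  -- elements fixing `F` are trivial modulo `𝔪 ^ N`
  have hfix : ∀ u ∈ F.fixingSubgroup, red (maximalIdeal A ^ N) (mat b (ρ.ρ u)) = 1 := by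
    intro u hu
    rw [red_eq_one_iff]
    exact mat_sub_one_mem b _ _
      (hcont u (fun x hx => (IntermediateField.mem_fixingSubgroup_iff F u).1 hu x (hLF hx)))
  have hwild : ∀ w ∈ P.inertiaSubgroupIn ℚ, ∀ e : ℕ, w ^ (q ^ e) ∈ F.fixingSubgroup →
      red (maximalIdeal A ^ N) (mat b (ρ.ρ w)) = 1 := by
    intro w hw e hwe
    rw [red_eq_one_iff]
    refine hMU A (maximalIdeal A) p (q ^ e) N hpA (hcop e) (mat b (ρ.ρ w)) ?_ ?_
    · exact mat_sub_one_mem b _ _ (hI w hw)
    · have e1 : mat b (ρ.ρ w) ^ (q ^ e) = mat b (ρ.ρ (w ^ (q ^ e))) := by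
        rw [mat, mat, map_pow ρ.ρ, map_pow]
      rw [e1, ← red_eq_one_iff]
      exact hfix _ hwe
  have hwildζ : ∀ w : GQ, ∀ e : ℕ, w ^ (q ^ e) ∈ F.fixingSubgroup → w ζ₀ = ζ₀ := by
    intro w e hwe
    exact fix_root_of_pow hq hζ₀ w e ((IntermediateField.mem_fixingSubgroup_iff F _).1 hwe ζ₀ hζF)
  -- the exponent of `τ₀`
  have hτζ : (τ₀ ζ₀) ^ q = 1 := by rw [← map_pow, hζ₀.pow_eq_one, map_one]
  obtain ⟨a₀, -, ha₀⟩ := hζ₀.eq_pow_of_pow_eq_one hτζ
  have hord : orderOf ζ₀ = q := hζ₀.eq_orderOf.symm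
  have hfo : IsOfFinOrder ζ₀ := isOfFinOrder_iff_pow_eq_one.2 ⟨q, hq.pos, hζ₀.pow_eq_one⟩
  -- every element of the inertia group acts on `ζ₀` as a power of `τ₀`
  have hact : ∀ σ' ∈ P.inertiaSubgroupIn ℚ, ∃ j : ℕ, σ' ζ₀ = ζ₀ ^ (a₀ ^ j) ∧
      red (maximalIdeal A ^ N) (mat b (ρ.ρ σ')) =
        red (maximalIdeal A ^ N) (mat b (ρ.ρ τ₀)) ^ j := by
    intro σ' hσ'
    obtain ⟨j, e, hje⟩ := hcyc σ' hσ'
    refine ⟨j, ?_, ?_⟩
    · have h1 := hwildζ _ e hje
      have h2 : σ' = τ₀ ^ j * ((τ₀ ^ j)⁻¹ * σ') := by group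
      rw [h2, AlgEquiv.mul_apply, h1]
      exact pow_apply_root τ₀ a₀ ha₀.symm j
    · have h1 := hwild _ (mul_mem (inv_mem (pow_mem hτ₀ j)) hσ') e hje
      have h2 : σ' = τ₀ ^ j * ((τ₀ ^ j)⁻¹ * σ') := by group
      have e1 : mat b (ρ.ρ σ') = mat b (ρ.ρ τ₀) ^ j * mat b (ρ.ρ ((τ₀ ^ j)⁻¹ * σ')) := by
        conv_lhs => rw [h2]
        rw [mat, mat, mat, map_mul ρ.ρ, map_pow ρ.ρ, map_mul, map_pow]
      rw [e1, map_mul, h1, mul_one, map_pow]
  -- `a₀` generates the units modulo `q`
  have ha₀unit : ∀ u : (ZMod q)ˣ, ∃ j : ℕ, (u : ZMod q) = (a₀ : ZMod q) ^ j := by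
    intro u
    have hu0 : (u : ZMod q) ≠ 0 := u.ne_zero
    have hnd : ¬ q ∣ (u : ZMod q).val := by
      intro hdvd
      apply hu0
      have := (ZMod.natCast_eq_zero_iff _ q).2 hdvd
      rwa [ZMod.natCast_zmod_val] at this
    obtain ⟨σ', hσ', hσ'ζ⟩ := hCYC q hq P hP _ hnd
    obtain ⟨j, hj, -⟩ := hact σ' hσ'
    refine ⟨j, ?_⟩
    have h1 : ζ₀ ^ (u : ZMod q).val = ζ₀ ^ (a₀ ^ j) := by
      rw [← hσ'ζ ζ₀ hζ₀.pow_eq_one, hj]
    have h2 : (u : ZMod q).val ≡ a₀ ^ j [MOD q] := by
      have := hfo.pow_eq_pow_iff_modEq.1 h1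
      rwa [hord] at this
    have h3 := (ZMod.natCast_eq_natCast_iff _ _ _).2 h2
    rw [ZMod.natCast_zmod_val, Nat.cast_pow] at h3
    exact h3
  -- the exponent `j` of `σ` is divisible by `q - 1`
  obtain ⟨j, hj, hred⟩ := hact σ hσ
  have hj1 : (a₀ : ZMod q) ^ j = 1 := by
    have h1 : ζ₀ ^ 1 = ζ₀ ^ (a₀ ^ j) := by
      rw [pow_one, ← hj, hσζ ζ₀ hζ₀.pow_eq_one]
    have h2 : 1 ≡ a₀ ^ j [MOD q] := by
      have := hfo.pow_eq_pow_iff_modEq.1 h1
      rwa [hord] at this
    have h3 := (ZMod.natCast_eq_natCast_iff _ _ _).2 h2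
    rw [Nat.cast_one, Nat.cast_pow] at h3
    exact h3.symm
  have hdvd : (q - 1) ∣ j := by
    -- `a₀` is a unit generating `(ZMod q)ˣ`
    have ha₀ne : (a₀ : ZMod q) ≠ 0 := by
      intro h0
      obtain ⟨j', hj'⟩ := ha₀unit 1
      rw [Units.val_one, h0] at hj'
      rcases Nat.eq_zero_or_pos j' with hz | hpos
      · -- then use `j`: `0 ^ j = 1` forces `j = 0`
        rw [h0] at hj1
        rcases Nat.eq_zero_or_pos j with hz' | hpos'
        · -- all units are `1`: `q = 2`, nothing to prove... handled below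
          exact absurd hj1 (by
            -- `j = 0` gives no contradiction; use another unit
            intro _
            -- every unit is a power of `0`, hence `1` or `0`
            have hall : ∀ u : (ZMod q)ˣ, u = 1 := by
              intro u
              obtain ⟨i', hi'⟩ := ha₀unit u
              rw [h0] at hi'
              rcases Nat.eq_zero_or_pos i' with hz'' | hpos''
              · rw [hz'', pow_zero] at hi'
                exact Units.ext hi'
              · rw [zero_pow hpos''.ne'] at hi'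
                exact absurd hi' u.ne_zero
            -- but `τ₀ ζ₀ = ζ₀ ^ a₀ = 1` is impossible
            have h1 : ζ₀ ^ a₀ = 1 := by
              have hq_dvd : q ∣ a₀ := (ZMod.natCast_eq_zero_iff _ q).1 h0
              obtain ⟨c, rfl⟩ := hq_dvd
              rw [pow_mul, hζ₀.pow_eq_one, one_pow]
            have h2 : τ₀ ζ₀ = 1 := by rw [← ha₀, h1]
            have h3 : ζ₀ = 1 := by
              have := congrArg τ₀.symm h2
              rwa [AlgEquiv.symm_apply_apply, map_one] at this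
            exact hζ₀.ne_one hq.one_lt h3)
        · rw [zero_pow hpos'.ne'] at hj1
          exact absurd hj1 zero_ne_one
      · rw [zero_pow hpos.ne'] at hj'
        exact absurd hj' one_ne_zero
    let x : (ZMod q)ˣ := Units.mk0 (a₀ : ZMod q) ha₀ne
    have hxgen : ∀ u : (ZMod q)ˣ, u ∈ Subgroup.zpowers x := by
      intro u
      obtain ⟨j', hj'⟩ := ha₀unit u
      refine ⟨(j' : ℤ), ?_⟩
      apply Units.ext
      show ((x ^ (j' : ℤ) : (ZMod q)ˣ) : ZMod q) = u
      rw [zpow_natCast, Units.val_pow_eq_pow_val]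
      exact hj'.symm
    have hordx : orderOf x = q - 1 := by
      rw [orderOf_eq_card_of_forall_mem_zpowers hxgen, Nat.card_eq_fintype_card, ZMod.card_units]
    have hxj : x ^ j = 1 := by
      apply Units.ext
      rw [Units.val_pow_eq_pow_val, Units.val_one]
      exact hj1
    rw [← hordx]
    exact orderOf_dvd_of_pow_eq_one hxj
  obtain ⟨j', rfl⟩ := hdvd
  -- conclusion
  have hτdiag : IsDiag (mat b (ρ.ρ τ₀)) := isDiag_of_diagOn hD (hIle hτ₀)
  have hτpow : chi ρ b i τ₀ ^ (q - 1) = 1 :=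
    hG2a A p hp hpA ρ q hq hqp P hP hI φ hφ b hD τ₀ hτ₀ i
  have h1 : red (maximalIdeal A ^ N) (mat b (ρ.ρ σ) - mat b (ρ.ρ τ₀) ^ ((q - 1) * j')) = 0 := by
    rw [map_sub, map_pow, hred, sub_self]
  have h2 := (red_apply_eq_zero_iff (maximalIdeal A ^ N) _ i i).1
    (by rw [h1, Matrix.zero_apply])
  rw [Matrix.sub_apply, hτdiag.pow_apply_diag, ← chi_eq_mat, ← chi_eq_mat, pow_mul, hτpow,
    one_pow] at h2
  exact h2

end Fermat.Agent.S59.TWGal

end
-- ==== END Fermat.Agent.S59.TWGal.G2c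

-- ==== BEGIN Fermat.Agent.S59.TWGal.H41_G2Final
section

set_option autoImplicit false

namespace Fermat.Agent.S59.TWGal.H41

/-- **G2a**, unconditional. -/
theorem stmt_G2a_final : Stmt_G2a := stmt_G2a H59.stmt_TAME H01.stmt_MatUnip

/-- **G2b**, unconditional. -/
theorem stmt_G2b_final : Stmt_G2b := stmt_G2b H59.stmt_TAME H01.stmt_MatUnip

end Fermat.Agent.S59.TWGal.H41

end
-- ==== END Fermat.Agent.S59.TWGal.H41_G2Final

-- ==== BEGIN Fermat.Agent.S59.TWH.H90_Tower
section

/-!
# S59, package TW-HECKE: the freeness criterion over a tower (leaf TOWER of ABS-FREE)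

`V` a finite `A`-module and `p`-group with commuting automorphisms `c 0, …, c (r-1)` of order
dividing `p ^ n`.  If for every layer `j` the norm `1 + c j + … + (c j) ^ (p ^ n - 1)` maps the
common fixed points of `c 0, …, c (j-1)` ONTO the common fixed points of `c 0, …, c j`, and the
totally fixed elements are free over `A`, then `V` is free over `A[Δ]`, `Δ = (ℤ/p^n)^r`: the
elements `c^x (b i)` form an `A`-basis of `V`.

Only Mathlib and the cyclic step `sumMap_bijective` of `AbsFree` are used.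
-/

set_option autoImplicit false

namespace Fermat.Agent.S59.TWH.H90

open Fermat.Agent.S59.TWH

universe u

section defs

variable {A : Type*} [CommRing A] {V : Type*} [AddCommGroup V] [Module A V]

/-- `1 + c + … + c ^ (m - 1)`. -/
def nm (m : ℕ) (c : Module.End A V) : Module.End A V := ∑ j ∈ Finset.range m, c ^ j

/-- the monomial `c 0 ^ x 0 * c 1 ^ x 1 * …`. -/
def mon {r : ℕ} (c : Fin r → Module.End A V) (x : Fin r → ℕ) : Module.End A V :=
  (List.ofFn fun j => c j ^ x j).prod

/-- the total norm `nm (c 0) * nm (c 1) * …`. -/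
def nmTot (m : ℕ) {r : ℕ} (c : Fin r → Module.End A V) : Module.End A V :=
  (List.ofFn fun j => nm m (c j)).prod

theorem nm_apply (m : ℕ) (c : Module.End A V) (v : V) :
    nm m c v = ∑ j ∈ Finset.range m, (c ^ j) v := by
  rw [nm, LinearMap.sum_apply]

theorem mon_zero (c : Fin 0 → Module.End A V) (x : Fin 0 → ℕ) : mon c x = 1 := by
  simp [mon]

theorem nmTot_zero (m : ℕ) (c : Fin 0 → Module.End A V) : nmTot m c = 1 := by
  simp [nmTot]

theorem mon_succ {r : ℕ} (c : Fin (r + 1) → Module.End A V) (x : Fin (r + 1) → ℕ) :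
    mon c x = c 0 ^ x 0 * mon (fun j => c j.succ) (fun j => x j.succ) := by
  simp [mon, List.ofFn_succ]

theorem nmTot_succ (m : ℕ) {r : ℕ} (c : Fin (r + 1) → Module.End A V) :
    nmTot m c = nm m (c 0) * nmTot m (fun j => c j.succ) := by
  simp [nmTot, List.ofFn_succ]

theorem commute_nm (m : ℕ) {c d : Module.End A V} (h : Commute c d) : Commute (nm m c) d := by
  rw [nm]
  exact Commute.sum_left _ _ _ fun j _ => h.pow_left j

theorem commute_mon {r : ℕ} (c : Fin r → Module.End A V) (x : Fin r → ℕ) {d : Module.End A V}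
    (h : ∀ j, Commute d (c j)) : Commute d (mon c x) := by
  rw [mon]
  apply Commute.list_prod_right
  intro y hy
  obtain ⟨j, rfl⟩ := (List.mem_ofFn' _ _).mp hy
  exact (h j).pow_right _

theorem commute_nmTot (m : ℕ) {r : ℕ} (c : Fin r → Module.End A V) {d : Module.End A V}
    (h : ∀ j, Commute d (c j)) : Commute d (nmTot m c) := by
  rw [nmTot]
  apply Commute.list_prod_right
  intro y hy
  obtain ⟨j, rfl⟩ := (List.mem_ofFn' _ _).mp hy
  exact (commute_nm m (h j).symm).symm

/-- `(c - 1) * nm m c = c ^ m - 1`. -/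
theorem sub_one_mul_nm (m : ℕ) (c : Module.End A V) : (c - 1) * nm m c = c ^ m - 1 := by
  rw [nm, mul_geom_sum]

theorem nm_fixed {m : ℕ} {c : Module.End A V} (hc : c ^ m = 1) (v : V) :
    c (nm m c v) = nm m c v := by
  have h := congrArg (fun f : Module.End A V => f v) (sub_one_mul_nm m c)
  simp only [hc, sub_self, Module.End.mul_apply, LinearMap.sub_apply, Module.End.one_apply,
    LinearMap.zero_apply] at h
  exact sub_eq_zero.mp h

end defs

section rest

variable {A : Type*} [CommRing A] {V : Type*} [AddCommGroup V] [Module A V]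

/-- the fixed points of `c`. -/
abbrev fx (c : Module.End A V) : Submodule A V := LinearMap.ker (c - 1)

theorem mem_fx {c : Module.End A V} {v : V} : v ∈ fx c ↔ c v = v := by
  rw [fx, LinearMap.mem_ker, LinearMap.sub_apply, Module.End.one_apply, sub_eq_zero]

theorem map_mem_fx {c d : Module.End A V} (h : Commute c d) {v : V} (hv : v ∈ fx c) :
    d v ∈ fx c := by
  rw [mem_fx] at hv ⊢
  have := congrArg (fun f : Module.End A V => f v) h.eq
  simp only [Module.End.mul_apply] at this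
  rw [this, hv]

/-- restriction of `d` to the fixed points of `c`. -/
def rs (c d : Module.End A V) (h : Commute c d) : Module.End A (fx c) :=
  d.restrict (fun _ hv => map_mem_fx h hv)

theorem coe_rs (c d : Module.End A V) (h : Commute c d) (v : fx c) :
    ((rs c d h v : fx c) : V) = d v := rfl

theorem coe_rs_pow (c d : Module.End A V) (h : Commute c d) (k : ℕ) (v : fx c) :
    ((((rs c d h) ^ k) v : fx c) : V) = (d ^ k) v := by
  induction k generalizing v with
  | zero => simp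
  | succ k ih =>
    rw [pow_succ, pow_succ, Module.End.mul_apply, Module.End.mul_apply, ih, coe_rs]

theorem coe_nm_rs (m : ℕ) (c d : Module.End A V) (h : Commute c d) (v : fx c) :
    ((nm m (rs c d h) v : fx c) : V) = nm m d v := by
  rw [nm_apply, nm_apply, Submodule.coe_sum]
  exact Finset.sum_congr rfl fun j _ => coe_rs_pow c d h j v

theorem coe_list_prod {r : ℕ} (c : Module.End A V) (f : Fin r → Module.End A V)
    (f' : Fin r → Module.End A (fx c)) (h : ∀ j (v : fx c), ((f' j v : fx c) : V) = f j v)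
    (v : fx c) : (((List.ofFn f').prod v : fx c) : V) = (List.ofFn f).prod v := by
  induction r generalizing v with
  | zero => simp
  | succ r ih =>
    rw [List.ofFn_succ, List.ofFn_succ, List.prod_cons, List.prod_cons, Module.End.mul_apply,
      Module.End.mul_apply, h,
      ih (fun j => f j.succ) (fun j => f' j.succ) (fun j => h j.succ)]

variable {r : ℕ} (c : Fin (r + 1) → Module.End A V) (hcomm : ∀ i j, Commute (c i) (c j))

/-- the restrictions of `c 1, …, c r` to the fixed points of `c 0`. -/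
def rst : Fin r → Module.End A (fx (c 0)) := fun j => rs (c 0) (c j.succ) (hcomm 0 j.succ)

theorem coe_rst (j : Fin r) (v : fx (c 0)) : ((rst c hcomm j v : fx (c 0)) : V) = c j.succ v :=
  rfl

theorem coe_mon_rst (x : Fin r → ℕ) (v : fx (c 0)) :
    ((mon (rst c hcomm) x v : fx (c 0)) : V) = mon (fun j => c j.succ) x v :=
  coe_list_prod (c 0) _ _ (fun j v => coe_rs_pow (c 0) (c j.succ) (hcomm 0 j.succ) (x j) v) v

theorem coe_nmTot_rst (m : ℕ) (v : fx (c 0)) :
    ((nmTot m (rst c hcomm) v : fx (c 0)) : V) = nmTot m (fun j => c j.succ) v :=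
  coe_list_prod (c 0) _ _ (fun j v => coe_nm_rs m (c 0) (c j.succ) (hcomm 0 j.succ) v) v

theorem rst_commute (i j : Fin r) : Commute (rst c hcomm i) (rst c hcomm j) := by
  apply LinearMap.ext
  intro v
  apply Subtype.ext
  rw [Module.End.mul_apply, Module.End.mul_apply, coe_rst, coe_rst, coe_rst, coe_rst]
  exact congrArg (fun f : Module.End A V => f (v : V)) (hcomm i.succ j.succ).eq

theorem rst_pow {m : ℕ} (hc : ∀ j, c j ^ m = 1) (j : Fin r) : rst c hcomm j ^ m = 1 := by
  apply LinearMap.ext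
  intro v
  apply Subtype.ext
  rw [rst, coe_rs_pow, hc j.succ]
  rfl

theorem rst_step {m : ℕ}
    (hstep : ∀ (j : Fin (r + 1)) (v : V), (∀ i, i ≤ j → c i v = v) →
        ∃ w, (∀ i, i < j → c i w = w) ∧ nm m (c j) w = v)
    (j : Fin r) (v : fx (c 0)) (hv : ∀ i, i ≤ j → rst c hcomm i v = v) :
    ∃ w, (∀ i, i < j → rst c hcomm i w = w) ∧ nm m (rst c hcomm j) w = v := by
  obtain ⟨w, hw1, hw2⟩ := hstep j.succ (v : V) (by
    intro i hi
    refine Fin.cases ?_ (fun i' => ?_) i hi
    · intro _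
      exact mem_fx.mp v.2
    · intro hi'
      have := hv i' (Fin.succ_le_succ_iff.mp hi')
      exact congrArg Subtype.val this)
  have hw0 : w ∈ fx (c 0) := mem_fx.mpr (hw1 0 (Fin.succ_pos j))
  refine ⟨⟨w, hw0⟩, ?_, ?_⟩
  · intro i hi
    apply Subtype.ext
    rw [coe_rst]
    exact hw1 i.succ (Fin.succ_lt_succ_iff.mpr hi)
  · apply Subtype.ext
    rw [rst, coe_nm_rs]
    exact hw2

end rest

section main

variable {A : Type*} [CommRing A] {ι : Type*} [Fintype ι]

/-- the family `c ^ x (b i)`, `x ∈ (Fin m) ^ r`. -/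
def fam {V : Type*} [AddCommGroup V] [Module A V] {r : ℕ} (m : ℕ)
    (c : Fin r → Module.End A V) (b : ι → V) : ι × (Fin r → Fin m) → V :=
  fun x => mon c (fun j => (x.2 j : ℕ)) (b x.1)

theorem tower_aux {p : ℕ} [Fact p.Prime] (n : ℕ) :
    ∀ (r : ℕ) (V : Type u) [AddCommGroup V] [Module A V] [Finite V]
      (_ : ∀ v : V, ∃ k : ℕ, (p ^ k) • v = 0)
      (c : Fin r → Module.End A V) (_ : ∀ i j, Commute (c i) (c j))
      (_ : ∀ j, c j ^ (p ^ n) = 1)
      (_ : ∀ (j : Fin r) (v : V), (∀ i, i ≤ j → c i v = v) →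
        ∃ w, (∀ i, i < j → c i w = w) ∧ nm (p ^ n) (c j) w = v)
      (b : ι → V)
      (_ : LinearIndependent A (fun i => nmTot (p ^ n) c (b i)))
      (_ : ∀ v, (∀ j, c j v = v) →
        v ∈ Submodule.span A (Set.range fun i => nmTot (p ^ n) c (b i))),
      LinearIndependent A (fam (p ^ n) c b) ∧
        Submodule.span A (Set.range (fam (p ^ n) c b)) = ⊤ := by
  intro r
  induction r with
  | zero =>
    intro V _ _ _ hV c hcomm hc hstep b hli hspan
    have hfam : fam (p ^ n) c b = (fun i => nmTot (p ^ n) c (b i)) ∘ Prod.fst := by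
      funext x
      simp [fam, mon_zero, nmTot_zero]
    constructor
    · rw [hfam]
      exact hli.comp _ (fun x y h => Prod.ext h (Subsingleton.elim _ _))
    · have hs : Function.Surjective (Prod.fst : ι × (Fin 0 → Fin (p ^ n)) → ι) :=
        fun i => ⟨(i, fun j => j.elim0), rfl⟩
      rw [hfam, Set.range_comp, hs.range_eq, Set.image_univ, eq_top_iff]
      intro v _
      exact hspan v (fun j => j.elim0)
  | succ r ih =>
    intro V _ _ _ hV c hcomm hc hstep b hli hspan
    classical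
    have hne : NeZero (p ^ n) := ⟨(pow_pos (Fact.out : p.Prime).pos n).ne'⟩
    have hN₀cs : ∀ j : Fin r, Commute (nm (p ^ n) (c 0)) (c j.succ) :=
      fun j => commute_nm _ (hcomm 0 j.succ)
    have hN₀mem : ∀ v, nm (p ^ n) (c 0) v ∈ fx (c 0) := fun v => mem_fx.mpr (nm_fixed (hc 0) v)
    let b' : ι → fx (c 0) := fun i => ⟨nm (p ^ n) (c 0) (b i), hN₀mem (b i)⟩
    -- total norm relation
    have htot : ∀ i, ((nmTot (p ^ n) (rst c hcomm) (b' i) : fx (c 0)) : V)
        = nmTot (p ^ n) c (b i) := by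
      intro i
      rw [coe_nmTot_rst, nmTot_succ, Module.End.mul_apply]
      have := (commute_nmTot (p ^ n) (fun j : Fin r => c j.succ) hN₀cs).eq
      exact (congrArg (fun f : Module.End A V => f (b i)) this).symm
    have hli' : LinearIndependent A (fun i => nmTot (p ^ n) (rst c hcomm) (b' i)) := by
      apply LinearIndependent.of_comp (fx (c 0)).subtype
      have : (fx (c 0)).subtype ∘ (fun i => nmTot (p ^ n) (rst c hcomm) (b' i))
          = fun i => nmTot (p ^ n) c (b i) := by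
        funext i
        exact htot i
      rw [this]
      exact hli
    have hspan' : ∀ v : fx (c 0), (∀ j, rst c hcomm j v = v) →
        v ∈ Submodule.span A (Set.range fun i => nmTot (p ^ n) (rst c hcomm) (b' i)) := by
      intro v hv
      have h1 : (v : V) ∈ Submodule.span A (Set.range fun i => nmTot (p ^ n) c (b i)) := by
        apply hspan
        intro j
        refine Fin.cases ?_ (fun j' => ?_) j
        · exact mem_fx.mp v.2
        · exact congrArg Subtype.val (hv j')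
      have h2 : (Set.range fun i => nmTot (p ^ n) c (b i))
          = (fx (c 0)).subtype '' (Set.range fun i => nmTot (p ^ n) (rst c hcomm) (b' i)) := by
        rw [← Set.range_comp]
        congr 1
        funext i
        exact (htot i).symm
      rw [h2, ← Submodule.map_span] at h1
      obtain ⟨y, hy, hyv⟩ := h1
      have : y = v := Subtype.ext hyv
      rw [← this]
      exact hy
    have hV' : ∀ v : fx (c 0), ∃ k : ℕ, (p ^ k) • v = 0 := by
      intro v
      obtain ⟨k, hk⟩ := hV (v : V)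
      exact ⟨k, Subtype.ext (by simpa using hk)⟩
    obtain ⟨hLI, hSP⟩ := ih (fx (c 0)) hV' (rst c hcomm) (rst_commute c hcomm)
      (rst_pow c hcomm hc) (rst_step c hcomm hstep) b' hli' hspan'
    let e' : Module.Basis (ι × (Fin r → Fin (p ^ n))) A (fx (c 0)) := Module.Basis.mk hLI hSP.ge
    have he' : ∀ x, e' x = fam (p ^ n) (rst c hcomm) b' x := fun x => by
      simp [e']
    let πd : V →ₗ[A] fx (c 0) := (nm (p ^ n) (c 0)).codRestrict (fx (c 0)) hN₀mem
    let w : ι × (Fin r → Fin (p ^ n)) → V := fam (p ^ n) (fun j : Fin r => c j.succ) b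
    have hbij := sumMap_bijective hV (c 0) n (hc 0) πd (fx (c 0)).subtype
      (fun v => by
        show nm (p ^ n) (c 0) v = _
        rw [nm_apply])
      (Submodule.injective_subtype _)
      (fun y => by
        obtain ⟨w, -, hw⟩ := hstep 0 (y : V) (fun i hi => by
          have : i = 0 := Fin.le_zero_iff.mp hi
          rw [this]
          exact mem_fx.mp y.2)
        exact ⟨w, Subtype.ext hw⟩)
      (fun v hv => ⟨⟨v, mem_fx.mpr hv⟩, rfl⟩)
      e' w (fun x => by
        apply Subtype.ext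
        rw [he']
        show nm (p ^ n) (c 0) (fam (p ^ n) (fun j : Fin r => c j.succ) b x) = _
        rw [fam, fam, coe_mon_rst]
        have := (commute_mon (fun j : Fin r => c j.succ) (fun j => (x.2 j : ℕ)) hN₀cs).eq
        exact congrArg (fun f : Module.End A V => f (b x.1)) this)
    let G : (ι × (Fin r → Fin (p ^ n))) × ZMod (p ^ n) → V := fun x => (c 0 ^ x.2.val) (w x.1)
    have hGli : LinearIndependent A G := by
      rw [Fintype.linearIndependent_iff]
      intro g hg i
      have : sumMap (p ^ n) (c 0) w g = sumMap (p ^ n) (c 0) w 0 := by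
        rw [sumMap_apply, map_zero]
        exact hg
      exact congrFun (hbij.1 this) i
    have hGsp : Submodule.span A (Set.range G) = ⊤ := by
      rw [eq_top_iff]
      intro v _
      obtain ⟨f, rfl⟩ := hbij.2 v
      rw [sumMap_apply]
      exact Submodule.sum_mem _ fun x _ =>
        Submodule.smul_mem _ _ (Submodule.subset_span ⟨x, rfl⟩)
    let φ : ι × (Fin (r + 1) → Fin (p ^ n)) → (ι × (Fin r → Fin (p ^ n))) × ZMod (p ^ n) :=
      fun x => ((x.1, fun j => x.2 j.succ), ((x.2 0 : ℕ) : ZMod (p ^ n)))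
    have hφinj : Function.Injective φ := by
      rintro ⟨i, y⟩ ⟨i', y'⟩ h
      simp only [φ, Prod.mk.injEq] at h
      obtain ⟨⟨h1, h2⟩, h3⟩ := h
      have h4 : ((y 0 : ℕ) : ZMod (p ^ n)).val = ((y' 0 : ℕ) : ZMod (p ^ n)).val := by rw [h3]
      rw [ZMod.val_natCast_of_lt (y 0).2, ZMod.val_natCast_of_lt (y' 0).2] at h4
      refine Prod.ext h1 ?_
      funext j
      refine Fin.cases ?_ (fun j' => ?_) j
      · exact Fin.ext h4
      · exact congrFun h2 j'
    have hφsurj : Function.Surjective φ := by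
      rintro ⟨⟨i, x⟩, z⟩
      refine ⟨(i, Fin.cons ⟨z.val, ZMod.val_lt z⟩ x), ?_⟩
      simp only [φ, Fin.cons_succ, Fin.cons_zero, ZMod.natCast_zmod_val]
    have hfam : fam (p ^ n) c b = G ∘ φ := by
      funext x
      show mon c _ (b x.1) = (c 0 ^ ((x.2 0 : ℕ) : ZMod (p ^ n)).val)
        (mon (fun j : Fin r => c j.succ) _ (b x.1))
      rw [mon_succ, Module.End.mul_apply, ZMod.val_natCast_of_lt (x.2 0).2]
    constructor
    · rw [hfam]
      exact hGli.comp φ hφinj
    · rw [hfam, Set.range_comp, hφsurj.range_eq, Set.image_univ]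
      exact hGsp

/-- the total norm is onto the totally fixed elements. -/
theorem exists_nmTot_eq (m : ℕ) :
    ∀ (r : ℕ) (V : Type u) [AddCommGroup V] [Module A V]
      (c : Fin r → Module.End A V) (_ : ∀ i j, Commute (c i) (c j))
      (_ : ∀ (j : Fin r) (v : V), (∀ i, i ≤ j → c i v = v) →
        ∃ w, (∀ i, i < j → c i w = w) ∧ nm m (c j) w = v)
      (v : V) (_ : ∀ j, c j v = v), ∃ w, nmTot m c w = v := by
  intro r
  induction r with
  | zero =>
    intro V _ _ c _ _ v _
    exact ⟨v, by rw [nmTot_zero]; rfl⟩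
  | succ r ih =>
    intro V _ _ c hcomm hstep v hv
    have hv0 : v ∈ fx (c 0) := mem_fx.mpr (hv 0)
    obtain ⟨w', hw'⟩ := ih (fx (c 0)) (rst c hcomm) (rst_commute c hcomm)
      (rst_step c hcomm hstep) ⟨v, hv0⟩ (fun j => Subtype.ext (hv j.succ))
    obtain ⟨w, -, hw⟩ := hstep 0 (w' : V) (fun i hi => by
      have : i = 0 := Fin.le_zero_iff.mp hi
      rw [this]
      exact mem_fx.mp w'.2)
    refine ⟨w, ?_⟩
    have h1 := congrArg Subtype.val hw'
    rw [coe_nmTot_rst] at h1
    rw [nmTot_succ, Module.End.mul_apply]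
    have h2 := (commute_nmTot m (fun j : Fin r => c j.succ)
      (fun j => commute_nm m (hcomm 0 j.succ))).eq
    have h3 := congrArg (fun f : Module.End A V => f w) h2
    simp only [Module.End.mul_apply] at h3
    rw [h3, hw]
    exact h1

/-- linear independence and spanning of a finite family, as bijectivity of the sum map. -/
theorem bijective_sum_of_li_span {V : Type*} [AddCommGroup V] [Module A V] {κ : Type*}
    [Fintype κ] (F : κ → V) (hli : LinearIndependent A F)
    (hsp : Submodule.span A (Set.range F) = ⊤) :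
    Function.Bijective (fun f : κ → A => ∑ x, f x • F x) := by
  constructor
  · intro f g hfg
    have h0 : ∑ x, (f - g) x • F x = 0 := by
      simp only [Pi.sub_apply, sub_smul, Finset.sum_sub_distrib]
      exact sub_eq_zero.mpr hfg
    have := Fintype.linearIndependent_iff.mp hli (f - g) h0
    funext x
    exact sub_eq_zero.mp (this x)
  · intro v
    have hv : v ∈ Submodule.span A (Set.range F) := by rw [hsp]; trivial
    obtain ⟨f, hf⟩ := (Submodule.mem_span_range_iff_exists_fun A).mp hv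
    exact ⟨f, hf⟩

/-- **TOWER, End-format, for given lifts.**  If `b i` has total norm `e i`, then the
`c ^ x (b i)` form an `A`-basis of `V`. -/
theorem tower_basis_of_lift {p : ℕ} [Fact p.Prime] (n r : ℕ)
    {V : Type u} [AddCommGroup V] [Module A V] [Finite V]
    (hV : ∀ v : V, ∃ k : ℕ, (p ^ k) • v = 0)
    (c : Fin r → Module.End A V) (hcomm : ∀ i j, Commute (c i) (c j))
    (hc : ∀ j, c j ^ (p ^ n) = 1)
    (hstep : ∀ (j : Fin r) (v : V), (∀ i, i ≤ j → c i v = v) →
        ∃ w, (∀ i, i < j → c i w = w) ∧ nm (p ^ n) (c j) w = v)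
    (e : ι → V) (he_li : LinearIndependent A e)
    (he_span : ∀ v, (∀ j, c j v = v) → v ∈ Submodule.span A (Set.range e))
    (b : ι → V) (hb : ∀ i, nmTot (p ^ n) c (b i) = e i) :
    LinearIndependent A (fam (p ^ n) c b) ∧
      Submodule.span A (Set.range (fam (p ^ n) c b)) = ⊤ ∧
      Function.Bijective
        (fun f : ι × (Fin r → Fin (p ^ n)) → A => ∑ x, f x • fam (p ^ n) c b x) := by
  have he : (fun i => nmTot (p ^ n) c (b i)) = e := funext hb
  obtain ⟨h1, h2⟩ := tower_aux n r V hV c hcomm hc hstep b (by rw [he]; exact he_li)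
    (by rw [he]; exact he_span)
  exact ⟨h1, h2, bijective_sum_of_li_span _ h1 h2⟩

/-- **TOWER, End-format.** -/
theorem tower_basis {p : ℕ} [Fact p.Prime] (n r : ℕ)
    {V : Type u} [AddCommGroup V] [Module A V] [Finite V]
    (hV : ∀ v : V, ∃ k : ℕ, (p ^ k) • v = 0)
    (c : Fin r → Module.End A V) (hcomm : ∀ i j, Commute (c i) (c j))
    (hc : ∀ j, c j ^ (p ^ n) = 1)
    (hstep : ∀ (j : Fin r) (v : V), (∀ i, i ≤ j → c i v = v) →
        ∃ w, (∀ i, i < j → c i w = w) ∧ nm (p ^ n) (c j) w = v)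
    (e : ι → V) (he_fix : ∀ i j, c j (e i) = e i) (he_li : LinearIndependent A e)
    (he_span : ∀ v, (∀ j, c j v = v) → v ∈ Submodule.span A (Set.range e)) :
    ∃ b : ι → V, (∀ i, nmTot (p ^ n) c (b i) = e i) ∧
      LinearIndependent A (fam (p ^ n) c b) ∧
      Submodule.span A (Set.range (fam (p ^ n) c b)) = ⊤ ∧
      Function.Bijective
        (fun f : ι × (Fin r → Fin (p ^ n)) → A => ∑ x, f x • fam (p ^ n) c b x) := by
  have hex : ∀ i, ∃ w, nmTot (p ^ n) c w = e i := fun i =>
    exists_nmTot_eq (p ^ n) r V c hcomm hstep (e i) (he_fix i)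
  choose b hb using hex
  exact ⟨b, hb, tower_basis_of_lift n r hV c hcomm hc hstep e he_li he_span b hb⟩

end main

section group

variable {A : Type*} [CommRing A] {ι : Type*} [Fintype ι]

/-- the total norm as a sum over the box `(Fin m) ^ r`. -/
theorem nmTot_apply_eq_sum (m : ℕ) {V : Type*} [AddCommGroup V] [Module A V] :
    ∀ (r : ℕ) (c : Fin r → Module.End A V) (v : V),
      nmTot m c v = ∑ x : Fin r → Fin m, mon c (fun j => (x j : ℕ)) v := by
  intro r
  induction r with
  | zero =>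
    intro c v
    rw [nmTot_zero]
    simp [mon_zero]
  | succ r ih =>
    intro c v
    rw [nmTot_succ, Module.End.mul_apply, ih, nm_apply,
      ← (Fin.consEquiv fun _ : Fin (r + 1) => Fin m).sum_comp, Fintype.sum_prod_type,
      ← Fin.sum_univ_eq_sum_range (fun k => (c 0 ^ k)
        (∑ x : Fin r → Fin m, mon (fun j => c j.succ) (fun j => (x j : ℕ)) v)) m]
    refine Finset.sum_congr rfl fun k _ => ?_
    rw [map_sum]
    refine Finset.sum_congr rfl fun x _ => ?_
    rw [mon_succ, Module.End.mul_apply]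
    rfl

variable {V : Type u} [AddCommGroup V] [Module A V]
  {Δ : Type*} [CommMonoid Δ] [DistribMulAction Δ V] [SMulCommClass Δ A V]

theorem toModuleEnd_apply' (d : Δ) (v : V) : DistribMulAction.toModuleEnd A V d v = d • v := rfl

theorem mon_toModuleEnd {r : ℕ} (g : Fin r → Δ) (x : Fin r → ℕ) :
    mon (fun j => DistribMulAction.toModuleEnd A V (g j)) x
      = DistribMulAction.toModuleEnd A V (∏ j, g j ^ x j) := by
  rw [mon, ← List.prod_ofFn, map_list_prod, List.map_ofFn]
  congr 1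
  congr 1
  funext j
  exact (map_pow _ _ _).symm

theorem nm_toModuleEnd (m : ℕ) (d : Δ) (v : V) :
    nm m (DistribMulAction.toModuleEnd A V d) v = ∑ k ∈ Finset.range m, d ^ k • v := by
  rw [nm_apply]
  refine Finset.sum_congr rfl fun k _ => ?_
  rw [← map_pow]
  rfl

/-- **TOWER, group-format.**  `Δ` a commutative monoid (group) acting `A`-linearly on the finite
`p`-group `V`, `g 0, …, g (r-1) ∈ Δ` with `g j ^ (p ^ n)` acting trivially.  If every layer norm
`∑_{k < p^n} g j ^ k` maps the common fixed points of `g 0, …, g (j-1)` onto those of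
`g 0, …, g j`, and the totally fixed elements are free over `A` with basis `e`, then there are
`b i` with total norm `e i` such that the `g ^ x • b i` (`x ∈ (Fin (p^n))^r`) form an `A`-basis
of `V`. -/
theorem tower_basis_group {p : ℕ} [Fact p.Prime] (n r : ℕ) [Finite V]
    (hV : ∀ v : V, ∃ k : ℕ, (p ^ k) • v = 0)
    (g : Fin r → Δ) (hg : ∀ j (v : V), g j ^ (p ^ n) • v = v)
    (hstep : ∀ (j : Fin r) (v : V), (∀ i, i ≤ j → g i • v = v) →
        ∃ w, (∀ i, i < j → g i • w = w) ∧ ∑ k ∈ Finset.range (p ^ n), g j ^ k • w = v)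
    (e : ι → V) (he_fix : ∀ i j, g j • e i = e i) (he_li : LinearIndependent A e)
    (he_span : ∀ v, (∀ j, g j • v = v) → v ∈ Submodule.span A (Set.range e)) :
    ∃ b : ι → V,
      (∀ i, ∑ x : Fin r → Fin (p ^ n), (∏ j, g j ^ (x j : ℕ)) • b i = e i) ∧
      LinearIndependent A
        (fun x : ι × (Fin r → Fin (p ^ n)) => (∏ j, g j ^ (x.2 j : ℕ)) • b x.1) ∧
      Submodule.span A (Set.range
        (fun x : ι × (Fin r → Fin (p ^ n)) => (∏ j, g j ^ (x.2 j : ℕ)) • b x.1)) = ⊤ ∧
      Function.Bijective (fun f : ι × (Fin r → Fin (p ^ n)) → A =>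
        ∑ x, f x • (∏ j, g j ^ (x.2 j : ℕ)) • b x.1) := by
  set c : Fin r → Module.End A V := fun j => DistribMulAction.toModuleEnd A V (g j) with hc
  have hcomm : ∀ i j, Commute (c i) (c j) := fun i j =>
    (Commute.all (g i) (g j)).map (DistribMulAction.toModuleEnd A V)
  have hcp : ∀ j, c j ^ (p ^ n) = 1 := by
    intro j
    apply LinearMap.ext
    intro v
    rw [hc, ← map_pow]
    exact hg j v
  have hstep' : ∀ (j : Fin r) (v : V), (∀ i, i ≤ j → c i v = v) →
      ∃ w, (∀ i, i < j → c i w = w) ∧ nm (p ^ n) (c j) w = v := by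
    intro j v hv
    obtain ⟨w, hw1, hw2⟩ := hstep j v hv
    exact ⟨w, hw1, by rw [hc, nm_toModuleEnd]; exact hw2⟩
  obtain ⟨b, hb, h1, h2, h3⟩ := tower_basis n r hV c hcomm hcp hstep' e he_fix he_li he_span
  have hfam : fam (p ^ n) c b
      = fun x : ι × (Fin r → Fin (p ^ n)) => (∏ j, g j ^ (x.2 j : ℕ)) • b x.1 := by
    funext x
    rw [fam, hc, mon_toModuleEnd]
    rfl
  refine ⟨b, ?_, ?_, ?_, ?_⟩
  · intro i
    rw [← hb i, nmTot_apply_eq_sum]
    refine Finset.sum_congr rfl fun x _ => ?_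
    rw [hc, mon_toModuleEnd]
    rfl
  · rw [← hfam]
    exact h1
  · rw [← hfam]
    exact h2
  · have : (fun f : ι × (Fin r → Fin (p ^ n)) → A =>
        ∑ x, f x • (∏ j, g j ^ (x.2 j : ℕ)) • b x.1)
        = fun f : ι × (Fin r → Fin (p ^ n)) → A => ∑ x, f x • fam (p ^ n) c b x := by
      rw [hfam]
    rw [this]
    exact h3

end group

end Fermat.Agent.S59.TWH.H90

end
-- ==== END Fermat.Agent.S59.TWH.H90_Tower

-- ==== BEGIN Fermat.Agent.Tate.T5.H4_T5
section

set_option autoImplicit false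

namespace Fermat.Agent.Tate.T5.H4

/-- **T5** for odd `p`: the Tate module of `W` is flat at a good prime `p ≠ 2`. -/
theorem stmt_T5odd : Stmt_T5odd := stmt_T5odd_of Fermat.Agent.Tate.T5.H5.stmt_C

end Fermat.Agent.Tate.T5.H4

end
-- ==== END Fermat.Agent.Tate.T5.H4_T5

-- ==== BEGIN Fermat.Agent.Tate.T6.Final
section

set_option autoImplicit false

namespace Fermat.Agent.Tate.T6

/-- **T6 from T2.** -/
theorem stmt_T6_of_T2 (hT2 : Fermat.Agent.Tate.Stmt_T2) : Fermat.Agent.Tate.Stmt_T6 :=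
  H01.stmt_T6_of stmt_LOC H01.stmt_LIN hT2

end Fermat.Agent.Tate.T6

end
-- ==== END Fermat.Agent.Tate.T6.Final

-- ==== BEGIN Fermat.Agent.Tate.T7.H14_LOCbad
section

set_option autoImplicit false

open WeierstrassCurve WeierstrassCurve.Affine

namespace Fermat.Agent.Tate.T7.H14

open Fermat.Agent.Tate Fermat.Agent.S52.H5

/-- **T7-LOCbad.** -/
theorem stmt_LOCbad : Stmt_LOCbad := by
  intro W hΔ hss p hp hp2 hbad A hA
  have hdvd : (p : ℤ) ∣ W.Δ := by
    by_contra h
    exact hbad h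
  have hc4 : ¬ (p : ℤ) ∣ W.c₄ := hss p hp hdvd
  have hpv : A.valuation ((p : ℕ) : _root_.Fermat.Agent.Tate.T7.Qb) < 1 := (A.mem_nonunits_iff).1 hA
  have hΔ0 : (EQ W).Δ ≠ 0 := by
    rw [EQ_Δ]; exact_mod_cast hΔ
  have hΔv : A.valuation (EQ W).Δ < 1 := by
    rw [EQ_Δ]; exact Fermat.Agent.S05.H15.valuation_intCast_lt_one_of_dvd hA hdvd
  have hc₄v : A.valuation (EQ W).c₄ = 1 := by
    rw [EQ_c₄]; exact Fermat.Agent.S05.H15.valuation_intCast_eq_one_of_not_dvd hp hA hc4
  obtain ⟨G, instG, c, ha, -, -, hd⟩ :=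
    Fermat.Agent.Tate.T6.stmt_LOC _root_.Fermat.Agent.Tate.T7.Qb A p hp hp2 hpv (EQ W) (EQ_intCoeff W A) hΔ0 hΔv hc₄v
  refine ⟨G, instG, c, ha, fun σ hσ P => ?_⟩
  exact hd _ _ (Fermat.Agent.Tate.T6.H01.decompOn_galAdd_of_inertia W A σ hσ)
    (inertiaOn_galAdd W A σ hσ).res P

end Fermat.Agent.Tate.T7.H14

end
-- ==== END Fermat.Agent.Tate.T7.H14_LOCbad

-- ==== BEGIN Fermat.Agent.Tate.T7.H7_TWT
section

set_option autoImplicit false

open WeierstrassCurve WeierstrassCurve.Affine TensorProduct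

namespace Fermat.Agent.Tate.T7.H7

open Fermat.Agent.S58 Fermat.Agent.S58.H99

/-! ### Gram determinants and spans -/

section Gram

variable {F : Type*} [Field F] {V : Type*} [AddCommGroup V] [Module F V]
  {G : Type*} [Group G]

/-- Four elements of a set `S` with invertible Gram matrix: the image of `S` spans `End V`. -/
theorem span_eq_top_of_gram (hV : Module.finrank F V = 2) (r : G →* Module.End F V)
    (S : Set G) (g : Fin 2 × Fin 2 → G) (hg : ∀ a, g a ∈ S)
    (hdet : (Matrix.of fun a b => LinearMap.trace F V (r (g a * g b))).det ≠ 0) :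
    Submodule.span F (r '' S) = ⊤ := by
  classical
  have hfin : Module.Finite F V := Module.finite_of_finrank_eq_succ hV
  let b : Module.Basis (Fin 2) F V := Module.finBasisOfFinrankEq F V hV
  rw [gram_trace_eq r b g] at hdet
  have hflat : (Fermat.Agent.S53.Schur.flat fun a => LinearMap.toMatrix b b (r (g a))).det ≠ 0 :=
    fun h => hdet (det_flat_eq_zero_of_gram _ h)
  rw [eq_top_iff]
  intro y _
  obtain ⟨c, hc⟩ := Fermat.Agent.S53.Schur.exists_eq_sum_of_isUnit_det
    (fun a => LinearMap.toMatrix b b (r (g a))) (isUnit_iff_ne_zero.mpr hflat)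
    (LinearMap.toMatrix b b y)
  have hy : y = ∑ a, c a • r (g a) := by
    apply (LinearMap.toMatrix b b).injective
    rw [hc, map_sum]
    refine Finset.sum_congr rfl fun a _ => ?_
    rw [map_smul]
  rw [hy]
  refine Submodule.sum_mem _ fun a _ => Submodule.smul_mem _ _ ?_
  exact Submodule.subset_span ⟨g a, hg a, rfl⟩

/-- Base change of a representation, as a monoid homomorphism. -/
noncomputable def baseChangeRep (K : Type*) [Field K] [Algebra F K] (r : G →* Module.End F V) :
    G →* Module.End K (K ⊗[F] V) where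
  toFun := fun g => (r g).baseChange K
  map_one' := by rw [map_one, LinearMap.baseChange_one]
  map_mul' := fun a b => by rw [map_mul, LinearMap.baseChange_mul]

theorem baseChangeRep_apply (K : Type*) [Field K] [Algebra F K] (r : G →* Module.End F V)
    (g : G) : baseChangeRep K r g = (r g).baseChange K := rfl

/-- Gram matrices commute with base change. -/
theorem gram_baseChange (K : Type*) [Field K] [Algebra F K] (hV : Module.finrank F V = 2)
    (r : G →* Module.End F V) (g : Fin 2 × Fin 2 → G) :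
    (Matrix.of fun a b => LinearMap.trace K (K ⊗[F] V) (baseChangeRep K r (g a * g b))).det =
      algebraMap F K (Matrix.of fun a b => LinearMap.trace F V (r (g a * g b))).det := by
  have hfin : Module.Finite F V := Module.finite_of_finrank_eq_succ hV
  have hmap : (Matrix.of fun a b =>
        LinearMap.trace K (K ⊗[F] V) (baseChangeRep K r (g a * g b))) =
      (Matrix.of fun a b => LinearMap.trace F V (r (g a * g b))).map (algebraMap F K) := by
    ext a b
    simp only [Matrix.of_apply, Matrix.map_apply]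
    exact LinearMap.trace_baseChange (r (g a * g b)) K
  rw [hmap, ← RingHom.mapMatrix_apply, ← RingHom.map_det]

/-- A representation whose image spans `End V` is irreducible over every extension field. -/
theorem irr_baseChange_of_span (K : Type*) [Field K] [Algebra F K]
    (hV : Module.finrank F V = 2) (r : G →* Module.End F V)
    (hspan : Submodule.span F (Set.range r) = ⊤)
    (W' : Submodule K (K ⊗[F] V))
    (hW' : ∀ g, ∀ x ∈ W', (r g).baseChange K x ∈ W') : W' = ⊥ ∨ W' = ⊤ := by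
  classical
  by_contra hcon
  rw [not_or] at hcon
  obtain ⟨g, hg⟩ := exists_gram_ne_zero_of_span hV r hspan
  have hVK : Module.finrank K (K ⊗[F] V) = 2 := by rw [Module.finrank_baseChange, hV]
  have hz := gram_det_eq_zero_of_stable hVK (baseChangeRep K r) W' hW' hcon.1 hcon.2 g
  rw [gram_baseChange K hV r g] at hz
  exact hg ((map_eq_zero (algebraMap F K)).mp hz)

/-- If the image of a subgroup `H` does not span `End V`, there is an `H`-stable line over the
algebraic closure (Burnside). -/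
theorem exists_stable_of_not_span (K : Type*) [Field K] [Algebra F K] [IsAlgClosed K]
    (hV : Module.finrank F V = 2) (r : G →* Module.End F V) (H : Subgroup G)
    (hns : Submodule.span F (r '' (H : Set G)) ≠ ⊤) :
    ∃ V' : Submodule K (K ⊗[F] V), V' ≠ ⊥ ∧ V' ≠ ⊤ ∧
      ∀ h ∈ H, ∀ x ∈ V', (r h).baseChange K x ∈ V' := by
  classical
  by_contra hno
  push Not at hno
  apply hns
  have hVK : Module.finrank K (K ⊗[F] V) = 2 := by rw [Module.finrank_baseChange, hV]
  have hfinK : Module.Finite K (K ⊗[F] V) := Module.finite_of_finrank_eq_succ hVK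
  have hnt : Nontrivial (K ⊗[F] V) := Module.nontrivial_of_finrank_eq_succ hVK
  let ρH : H →* Module.End K (K ⊗[F] V) := (baseChangeRep K r).comp H.subtype
  have hirr : ∀ W' : Submodule K (K ⊗[F] V), (∀ g, ∀ x ∈ W', ρH g x ∈ W') → W' = ⊥ ∨ W' = ⊤ := by
    intro W' hW'
    by_contra hcon
    rw [not_or] at hcon
    obtain ⟨h, hh, x, hx, hxn⟩ := hno W' hcon.1 hcon.2
    exact hxn (hW' ⟨h, hh⟩ x hx)
  have hspan := Fermat.Agent.S53.Schur.span_range_eq_top_of_irreducible ρH hirr
  obtain ⟨g, hg⟩ := exists_gram_ne_zero_of_span hVK ρH hspan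
  have hg' : (Matrix.of fun a b =>
      LinearMap.trace F V (r ((g a : G) * (g b : G)))).det ≠ 0 := by
    intro h0
    apply hg
    have := gram_baseChange K hV r (fun a => (g a : G))
    rw [h0, map_zero] at this
    exact this
  exact span_eq_top_of_gram hV r (H : Set G) (fun a => (g a : G)) (fun a => (g a).2) hg'

end Gram

/-! ### The dihedral properties from a counterexample -/

section Tors

variable (W : WeierstrassCurve ℤ) (p : ℕ) [hpF : Fact p.Prime]

theorem two_ne_zero_zmod (hp2 : p ≠ 2) : (2 : ZMod p) ≠ 0 := by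
  intro h
  have h' : ((2 : ℕ) : ZMod p) = 0 := by exact_mod_cast h
  rw [ZMod.natCast_eq_zero_iff] at h'
  exact hp2 ((Nat.prime_dvd_prime_iff_eq hpF.out Nat.prime_two).mp h')

/-- `E[p]` is irreducible over `ZMod p`, in terms of `torsRho`. -/
theorem irr_tors (hirr : W.ModRepIsIrreducible p) (N : Submodule (ZMod p) (TorsW W p))
    (hN : ∀ g, ∀ x ∈ N, torsRho W p g x ∈ N) : N = ⊥ ∨ N = ⊤ :=
  hirr.2 N (fun σ x hx => hN σ x hx)

/-- **The dihedral properties** for a subgroup of index two whose image does not span. -/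
theorem dih_of_not_span (hΔ : W.Δ ≠ 0) (hp2 : p ≠ 2) (hirr : W.ModRepIsIrreducible p)
    (H : Subgroup _root_.Fermat.Agent.Tate.GQ) (hH : H.index = 2)
    (hns : Submodule.span (ZMod p) ((torsRho W p) '' (H : Set _root_.Fermat.Agent.Tate.GQ)) ≠ ⊤) :
    Dih (torsRho W p) H := by
  have hV := finrank_torsW W hΔ p
  obtain ⟨V', h0, h1, hstab⟩ :=
    exists_stable_of_not_span (AlgebraicClosure (ZMod p)) hV (torsRho W p) H hns
  obtain ⟨k1, k2, k3⟩ := kl (AlgebraicClosure (ZMod p)) (two_ne_zero_zmod p hp2) hV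
    (torsRho W p) H hH V' h0 h1 hstab
    (irr_baseChange_of_span _ hV (torsRho W p) (span_torsRho W hΔ p hp2 hirr))
  exact ⟨k1, k2, k3⟩

/-- The kernel of `torsRho` contains the pointwise stabiliser of a finite set. -/
theorem exists_finset_ker (hΔ : W.Δ ≠ 0) :
    ∃ S : Finset (AlgebraicClosure ℚ), ∀ σ : _root_.Fermat.Agent.Tate.GQ, (∀ x ∈ S, σ x = x) → torsRho W p σ = 1 := by
  classical
  have hfr := finrank_torsW W hΔ p
  have : Module.Finite (ZMod p) (TorsW W p) := Module.finite_of_finrank_eq_succ hfr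
  have : Finite (TorsW W p) := Module.finite_of_finite (ZMod p)
  let _ : Fintype (TorsW W p) := Fintype.ofFinite _
  refine ⟨Finset.univ.biUnion fun v : TorsW W p =>
    coords (v : ((W.map (Int.castRingHom ℚ)).toAffine⁄(AlgebraicClosure ℚ)).Point), ?_⟩
  intro σ hσ
  refine LinearMap.ext fun v => ?_
  rw [Point.galoisRepModuleEnd_apply, Module.End.one_apply]
  refine smul_eq_of_fix_coords W p σ v fun x hx => hσ x ?_
  exact Finset.mem_biUnion.mpr ⟨v, Finset.mem_univ _, hx⟩

/-- Inertia at `q ≠ p` acts unipotently on `E[p]` (semistable case). -/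
theorem unip_tors (hΔ : W.Δ ≠ 0) (hss : W.IsSemistableModel) (q : ℕ) (hq : q.Prime)
    (hqp : q ≠ p) (A : ValuationSubring (AlgebraicClosure ℚ)) (hA : A.LiesOverPrime q)
    (σ : _root_.Fermat.Agent.Tate.GQ) (hσ : σ ∈ A.inertiaSubgroupIn ℚ) :
    (torsRho W p σ - (1 : ZMod p) • 1) * (torsRho W p σ - (1 : ZMod p) • 1) = 0 := by
  have hnd : ¬ q ∣ p := fun h => hqp ((Nat.prime_dvd_prime_iff_eq hq hpF.out).mp h)
  refine LinearMap.ext fun v => ?_
  have key := Fermat.Agent.S52.H5.unip_torsionBy W q p A hΔ (hss q hq) hq hnd hA σ hσ v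
  simp only [one_smul, Module.End.mul_apply, LinearMap.sub_apply, Module.End.one_apply,
    Point.galoisRepModuleEnd_apply, LinearMap.zero_apply, map_sub]
  rw [sub_eq_zero]
  rw [_root_.smul_sub] at key
  exact key

/-- The determinant on `E[p]` is the mod `p` cyclotomic character (from T1, T2, T3c). -/
theorem det_torsRho_of_cyc (hΔ : W.Δ ≠ 0) (σ : _root_.Fermat.Agent.Tate.GQ) (a : ℕ)
    (hσ : ∀ μ : AlgebraicClosure ℚ, μ ^ p = 1 → σ μ = μ ^ a) :
    LinearMap.det (torsRho W p σ) = (a : ZMod p) := by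
  obtain ⟨D⟩ := Fermat.Agent.Tate.H46.stmt_T1 W hΔ p
  have hpO := natCast_mem_maximalIdeal_padicInt p
  have hchar := charP_residueField hpF.out hpO
  have h2 := (Fermat.Agent.Tate.H4.stmt_T2 W hΔ p D).2 1 σ a
    (by intro μ hμ; rw [pow_one] at hμ; exact hσ μ hμ)
  have hmem : LinearMap.det (D.ρ.ρ σ) - (a : ℤ_[p]) ∈ IsLocalRing.maximalIdeal ℤ_[p] := by
    rw [pow_one] at h2
    exact (Ideal.span_singleton_le_iff_mem (IsLocalRing.maximalIdeal ℤ_[p])).mpr hpO h2
  have hres := (residual_trace_det W hΔ p hpO D.ρ (badSet W p)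
    (Fermat.Agent.Tate.T7.H99.hasFrobOf_tateData W hΔ p D) σ).2
  have e2 : LinearMap.det (D.ρ.residual.ρ σ) =
      IsLocalRing.residue ℤ_[p] (LinearMap.det (D.ρ.ρ σ)) :=
    LinearMap.det_baseChange (D.ρ.ρ σ)
  have e3 : IsLocalRing.residue ℤ_[p] (LinearMap.det (D.ρ.ρ σ)) =
      IsLocalRing.residue ℤ_[p] (a : ℤ_[p]) := by
    rw [← sub_eq_zero, ← map_sub]
    exact (IsLocalRing.residue_eq_zero_iff _).mpr hmem
  have key : ZMod.castHom (dvd_refl p) (IsLocalRing.ResidueField ℤ_[p])
        (LinearMap.det (torsRho W p σ)) =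
      ZMod.castHom (dvd_refl p) (IsLocalRing.ResidueField ℤ_[p]) (a : ZMod p) := by
    rw [← hres, e2, e3, map_natCast, map_natCast]
  exact (ZMod.castHom (dvd_refl p) (IsLocalRing.ResidueField ℤ_[p])).injective key

/-- Minkowski in the dihedral situation: a normal subgroup containing the kernel of `torsRho` and
the inertia group of one `A ∣ p` is everything (inertia at `q ≠ p` is unipotent, hence trivial). -/
theorem mink_tors (hΔ : W.Δ ≠ 0) (hss : W.IsSemistableModel) (H : Subgroup _root_.Fermat.Agent.Tate.GQ)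
    (hD : Dih (torsRho W p) H) (A : ValuationSubring (AlgebraicClosure ℚ))
    (hA : A.LiesOverPrime p) (N : Subgroup _root_.Fermat.Agent.Tate.GQ) (hN : N.Normal)
    (hker : ∀ g, torsRho W p g = 1 → g ∈ N) (hI : A.inertiaSubgroupIn ℚ ≤ N) : N = ⊤ := by
  apply Fermat.Agent.Lib.Minkowski.minkowski N hN
  · obtain ⟨S, hS⟩ := exists_finset_ker W p hΔ
    exact ⟨S, fun σ hσ => hker σ (hS σ hσ)⟩
  · intro ℓ hℓ
    by_cases hℓp : ℓ = p
    · exact ⟨A, hℓp.symm ▸ hA, hI⟩
    · obtain ⟨A', hA'⟩ := Fermat.Agent.Lib.FrobExists.exists_liesOverPrime ℓ hℓ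
      refine ⟨A', hA', fun σ hσ => hker σ ?_⟩
      have := hD.sc σ 1 (unip_tors W p hΔ hss ℓ hℓ hℓp A' hA' σ hσ)
      rw [this, one_smul]

omit hpF in
theorem mem_torsW {P : EQbar W} (hP : p • P = 0) :
    P ∈ Submodule.torsionBy ℤ
      ((W.map (Int.castRingHom ℚ)).toAffine⁄(AlgebraicClosure ℚ)).Point p := by
  rw [Submodule.mem_torsionBy_iff, natCast_zsmul]
  exact hP

omit hpF in
theorem torsW_nsmul (v : TorsW W p) : p • (v : EQbar W) = 0 := by
  have := v.2
  rw [Submodule.mem_torsionBy_iff, natCast_zsmul] at this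
  exact this

/-- Supersingular type at `A`: the inertia group lies in `H`. -/
theorem le_of_ssAt (hΔ : W.Δ ≠ 0) (hp2 : p ≠ 2) (H : Subgroup _root_.Fermat.Agent.Tate.GQ)
    (hD : Dih (torsRho W p) H) (A : ValuationSubring (AlgebraicClosure ℚ))
    (hssA : SsAt W p A) : A.inertiaSubgroupIn ℚ ≤ H := by
  obtain ⟨hcomm, τ, hτ, hτn⟩ := hssA
  apply hD.le_of_ss (two_ne_zero_zmod p hp2) (finrank_torsW W hΔ p)
  · intro σ hσ τ' hτ' v
    rcases hcomm σ hσ τ' hτ' (v : EQbar W) (torsW_nsmul W p v) with h | h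
    · left; exact Subtype.ext h
    · right; exact Subtype.ext h
  · refine ⟨τ, hτ, fun a ha => ?_⟩
    obtain ⟨P, hP, hne⟩ := hτn a.val
    apply hne
    have h1 := congrArg (fun f : Module.End (ZMod p) (TorsW W p) => f ⟨P, mem_torsW W p hP⟩) ha
    simp only [Module.End.mul_apply, LinearMap.smul_apply, Module.End.one_apply,
      Point.galoisRepModuleEnd_apply] at h1
    have h2 : (a : ZMod p) • (⟨P, mem_torsW W p hP⟩ : TorsW W p) =
        a.val • (⟨P, mem_torsW W p hP⟩ : TorsW W p) := by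
      conv_lhs => rw [← ZMod.natCast_zmod_val a]
      rw [Nat.cast_smul_eq_nsmul]
    rw [h2] at h1
    exact congrArg Subtype.val h1

omit hpF in
theorem zmod_three_units : ∀ a : ZMod 3, a ≠ 0 → a = 1 ∨ a = -1 := by decide

/-- Ordinary type at `A`: the inertia group lies in `H`. -/
theorem le_of_ordAt (hΔ : W.Δ ≠ 0) (hss : W.IsSemistableModel) (hp2 : p ≠ 2)
    (hirr : W.ModRepIsIrreducible p) (hcyc : Stmt_CYC)
    (H : Subgroup _root_.Fermat.Agent.Tate.GQ) (hH : H.index = 2) (hD : Dih (torsRho W p) H)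
    (A : ValuationSubring (AlgebraicClosure ℚ)) (hA : A.LiesOverPrime p)
    (hord : OrdAt W p A) : A.inertiaSubgroupIn ℚ ≤ H := by
  obtain ⟨G', instG', c, ⟨P₀, hP₀, hcP₀⟩, hinv⟩ := hord
  have hV := finrank_torsW W hΔ p
  let cT : TorsW W p →+ G' :=
    c.comp (Submodule.torsionBy ℤ (EQbar W) (p : ℤ)).toAddSubgroup.subtype
  have hcT : ∀ v : TorsW W p, cT v = c (v : EQbar W) := fun _ => rfl
  let T : Submodule (ZMod p) (TorsW W p) := AddSubgroup.toZModSubmodule p cT.ker
  have hmemT : ∀ v : TorsW W p, v ∈ T ↔ c (v : EQbar W) = 0 := by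
    intro v
    rw [AddSubgroup.mem_toZModSubmodule, AddMonoidHom.mem_ker, hcT]
  have hT : T ≠ ⊤ := by
    intro h
    have : (⟨P₀, mem_torsW W p hP₀⟩ : TorsW W p) ∈ T := by rw [h]; trivial
    rw [hmemT] at this
    exact hcP₀ this
  have hI : ∀ σ ∈ A.inertiaSubgroupIn ℚ, ∀ v, torsRho W p σ v - v ∈ T := by
    intro σ hσ v
    rw [hmemT, Point.galoisRepModuleEnd_apply]
    have e : (((σ • v - v : TorsW W p)) : EQbar W) = σ • (v : EQbar W) - (v : EQbar W) := rfl
    rw [e, map_sub, hinv σ hσ, sub_self]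
  by_cases h3 : p = 3
  · subst h3
    exact hD.le_of_ord_units (two_ne_zero_zmod 3 hp2) hV hH (irr_tors W 3 hirr)
      zmod_three_units (A.inertiaSubgroupIn ℚ)
      (fun N hN hk hIN => mink_tors W 3 hΔ hss H hD A hA N hN hk hIN) T hT hI
  · have hnd : ¬ p ∣ 2 := fun h =>
      hp2 ((Nat.prime_dvd_prime_iff_eq hpF.out Nat.prime_two).mp h)
    obtain ⟨τ, hτ, hτμ⟩ := hcyc p hpF.out A hA 2 hnd
    have hdet := det_torsRho_of_cyc W p hΔ τ 2 hτμ
    refine hD.le_of_ord hV (A.inertiaSubgroupIn ℚ) T hT hI ⟨τ, hτ, ?_⟩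
    rw [hdet]
    intro h
    have h' : ((3 : ℕ) : ZMod p) = 0 := by
      have : ((2 : ℕ) : ZMod p) * ((2 : ℕ) : ZMod p) - 1 = 0 := by rw [h, sub_self]
      push_cast at this ⊢
      linear_combination this
    rw [ZMod.natCast_eq_zero_iff] at h'
    exact h3 ((Nat.prime_dvd_prime_iff_eq hpF.out Nat.prime_three).mp h')

/-- **TWT** from the local packages. -/
theorem stmt_TWT_of (hbad : Stmt_LOCbad) (hgood : Stmt_LOCgood) (hlss : Stmt_LOCss)
    (hcyc : Stmt_CYC) : Stmt_TWT := by
  intro W hΔ hss p hpF hp2 hirr H hH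
  by_contra hns
  have hD := dih_of_not_span W p hΔ hp2 hirr H hH hns
  have hV := finrank_torsW W hΔ p
  obtain ⟨A, hA⟩ := Fermat.Agent.Lib.FrobExists.exists_liesOverPrime p hpF.out
  have hIH : A.inertiaSubgroupIn ℚ ≤ H := by
    by_cases hgd : W.IsGoodPrimeFor p
    · by_cases hk : AllInKer W p A
      · exact le_of_ssAt W p hΔ hp2 H hD A (hlss W hΔ p hpF.out hp2 A hA hk)
      · exact le_of_ordAt W p hΔ hss hp2 hirr hcyc H hH hD A hA
          (hgood W hΔ p hpF.out hp2 hgd A hA hk)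
    · exact le_of_ordAt W p hΔ hss hp2 hirr hcyc H hH hD A hA
        (hbad W hΔ hss p hpF.out hp2 hgd A hA)
  have htop := mink_tors W p hΔ hss H hD A hA H (Subgroup.normal_of_index_eq_two hH)
    (fun g hg => hD.ker_mem (two_ne_zero_zmod p hp2) hV hg) hIH
  rw [htop, Subgroup.index_top] at hH
  exact absurd hH (by decide)

end Tors

end Fermat.Agent.Tate.T7.H7

end
-- ==== END Fermat.Agent.Tate.T7.H7_TWT
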