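-- GENERATED (merged mirror, NOTES/tools/trim/merge3_helper67.py): 10 modules of the originals, bodies verbatim.
import Mathlib
import Fermat.Prelude.Def_CuspForm_HeckeLocal
import Fermat.Prelude.Def_GaloisRep_Adic
import Fermat.Prelude.Def_Algebra_PatchingDatum
import Fermat.Prelude.Thm_IsAdicComplete_of_module_finite
import Fermat.Agent.Zm.S43_L01_000
import Fermat.Agent.Zm.S43_L03_001
import Fermat.Agent.Zm.S43_L02_000
import Fermat.Agent.Zm.S35_L21_000
import Fermat.Agent.Zm.S35_L07_000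
import Fermat.Agent.Zm.S43_L02_002
import Fermat.Agent.Zm.S43_L01_003
import Fermat.Agent.Zm.S43_L03_005
import Fermat.Agent.Zm.S43_L03_003
import Fermat.Agent.Zm.S43_L01_004
import Fermat.Agent.Zm.S33_L04_002
import Fermat.Agent.Zm.S43_L02_003
import Fermat.Agent.Zm.S43_L03_004
import Fermat.Agent.Zm.S56_L02_001
import Fermat.Agent.Zm.S56_L01_001
import Fermat.Agent.Zm.S56_L01_003
import Fermat.Agent.Zm.S43_L03_006
import Fermat.Agent.Zm.S35_L01_005
import Fermat.Agent.Zm.S43_L01_005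
import Fermat.Agent.Zm.S43_L02_004
import Fermat.Agent.Zm.S56_L07_005
import Fermat.Agent.Zm.S43_L02_005

-- ==== BEGIN Fermat.Agent.L.Pivot.Geom.H50_NewCore
section

/-!
# PIVOT, PV-GEOM part II, leaf PVG-N2 (helper50): the core in coordinates

`C`, `C'` coordinatised Tate systems of `J₀(M q)`, `J₀(M)` (`q ∥ M`, `q ≠ p`), `Aα`, `Aβ` the
integer matrices of the two degeneracy push-forwards in the coordinates, `𝒪` a complete discrete
valuation ring with `0 ≠ p ∈ 𝔪`, `L` a field containing `𝒪`, `a : ℕ → L`.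

* `newSub`  : the subspace `E_new ⊆ L ^ r` of the vectors `u` with `T_ℓ u = a ℓ u` for all good
  `ℓ`, `Aα u = 0 = Aβ u`; it is stable under the Galois group (`newSub_stable`);
* `newJ0_core` : **NOT BOTH** `E_new ≠ 0` and an eigenvector `w ≠ 0` with the same eigenvalues at
  the level `M`.  Inputs: (NU) on the `q`-new torsion of `J₀(M q)` (`S35.H89.Stmt_TorsNU`), (UNIP)
  at the level `M` (`BAD.Stmt_TorsUnip`), Eichler–Shimura at both levels, Frobenius density.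
-/

set_option autoImplicit false
set_option linter.unusedSectionVars false
set_option linter.unusedVariables false
set_option linter.style.haveILetI false

open IsLocalRing

noncomputable section

namespace Fermat.Agent.L.Pivot.Geom.H50

open AlgebraicCurve ModularCurve Fermat.Agent.GTor Fermat.Agent.GTor.H58T1
  Fermat.Agent.GTor.H81 Fermat.Agent.S36.H44 Fermat.Agent.S35.H89

local notation "Kb" => AlgebraicClosure ℚ

section Aux

variable {𝒪 L : Type*} [CommRing 𝒪] [Field L] [Algebra 𝒪 L]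

theorem map_intCast_algebraMap {m n : ℕ} (X : Matrix (Fin m) (Fin n) ℤ) :
    (X.map (Int.cast : ℤ → 𝒪)).map (algebraMap 𝒪 L) = X.map (Int.cast : ℤ → L) := by
  ext i j
  simp only [Matrix.map_apply, map_intCast]

theorem actL_intCast {r : ℕ} (X : Matrix (Fin r) (Fin r) ℤ) (u : Fin r → L) :
    actL (X.map (Int.cast : ℤ → 𝒪)) u = (X.map (Int.cast : ℤ → L)).mulVec u := by
  unfold actL
  rw [map_intCast_algebraMap]

end Aux

section NewSub

variable {N p : ℕ} [NeZero N] {S : Set ℕ} (C : TateCoords N p S) {r' : ℕ}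
  (Aα Aβ : Matrix (Fin r') (Fin C.r) ℤ) {L : Type*} [Field L] (a : ℕ → L)

/-- the new eigenspace in coordinates. -/
def newSub : Submodule L (Fin C.r → L) where
  carrier := {u | (∀ (ℓ : ℕ) (hℓ : ℓ.Prime) (hℓN : ¬ ℓ ∣ N) (hℓS : ℓ ∉ S),
      ((C.M (CuspForm.heckeAlgebra.T hℓ hℓN hℓS)).map (Int.cast : ℤ → L)).mulVec u = a ℓ • u) ∧
    (Aα.map (Int.cast : ℤ → L)).mulVec u = 0 ∧ (Aβ.map (Int.cast : ℤ → L)).mulVec u = 0}
  zero_mem' := ⟨fun ℓ hℓ hℓN hℓS => by rw [Matrix.mulVec_zero, smul_zero],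
    Matrix.mulVec_zero _, Matrix.mulVec_zero _⟩
  add_mem' := by
    rintro u u' ⟨h1, h2, h3⟩ ⟨h1', h2', h3'⟩
    refine ⟨fun ℓ hℓ hℓN hℓS => ?_, ?_, ?_⟩
    · rw [Matrix.mulVec_add, h1, h1', smul_add]
    · rw [Matrix.mulVec_add, h2, h2', add_zero]
    · rw [Matrix.mulVec_add, h3, h3', add_zero]
  smul_mem' := by
    rintro c u ⟨h1, h2, h3⟩
    refine ⟨fun ℓ hℓ hℓN hℓS => ?_, ?_, ?_⟩
    · rw [Matrix.mulVec_smul, h1, smul_comm]
    · rw [Matrix.mulVec_smul, h2, smul_zero]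
    · rw [Matrix.mulVec_smul, h3, smul_zero]

theorem mem_newSub {u : Fin C.r → L} : u ∈ newSub C Aα Aβ a ↔
    (∀ (ℓ : ℕ) (hℓ : ℓ.Prime) (hℓN : ¬ ℓ ∣ N) (hℓS : ℓ ∉ S),
      ((C.M (CuspForm.heckeAlgebra.T hℓ hℓN hℓS)).map (Int.cast : ℤ → L)).mulVec u = a ℓ • u) ∧
    (Aα.map (Int.cast : ℤ → L)).mulVec u = 0 ∧ (Aβ.map (Int.cast : ℤ → L)).mulVec u = 0 :=
  Iff.rfl

end NewSub

section Stable

variable {N N' p : ℕ} [NeZero N] [NeZero N'] [Fact p.Prime] {S : Set ℕ}
  {C : TateCoords N' p S} {C' : TateCoords N p S}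
variable {𝒪 : Type} [CommRing 𝒪] [IsLocalRing 𝒪]
  [IsAdicComplete (maximalIdeal 𝒪) 𝒪]
  {hp : (p : 𝒪) ∈ maximalIdeal 𝒪} (Lm : TateLimit C 𝒪 hp) (Lm' : TateLimit C' 𝒪 hp)
variable {L : Type*} [Field L] [Algebra 𝒪 L] (a : ℕ → L)

/-- a matrix intertwined with the Galois matrices: its kernel over `L` is stable. -/
theorem ker_stable (X : Matrix (Fin C'.r) (Fin C.r) ℤ) (σ : GQ)
    (h : X.map (Int.cast : ℤ → 𝒪) * Lm.ρL σ = Lm'.ρL σ * X.map (Int.cast : ℤ → 𝒪))
    {u : Fin C.r → L} (hu : (X.map (Int.cast : ℤ → L)).mulVec u = 0) :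
    (X.map (Int.cast : ℤ → L)).mulVec (actL (Lm.ρL σ) u) = 0 := by
  unfold actL
  rw [← map_intCast_algebraMap (𝒪 := 𝒪) X, Matrix.mulVec_mulVec, ← Matrix.map_mul, h,
    Matrix.map_mul, ← Matrix.mulVec_mulVec, map_intCast_algebraMap, hu, Matrix.mulVec_zero]

/-- **the new eigenspace is stable under the Galois group.** -/
theorem newSub_stable (Aα Aβ : Matrix (Fin C'.r) (Fin C.r) ℤ) (σ : GQ)
    (hα : Aα.map (Int.cast : ℤ → 𝒪) * Lm.ρL σ = Lm'.ρL σ * Aα.map (Int.cast : ℤ → 𝒪))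
    (hβ : Aβ.map (Int.cast : ℤ → 𝒪) * Lm.ρL σ = Lm'.ρL σ * Aβ.map (Int.cast : ℤ → 𝒪))
    {u : Fin C.r → L} (hu : u ∈ newSub C Aα Aβ a) :
    actL (Lm.ρL σ) u ∈ newSub C Aα Aβ a := by
  obtain ⟨h1, h2, h3⟩ := hu
  refine ⟨fun ℓ hℓ hℓN hℓS => ?_, ker_stable Lm Lm' Aα σ hα h2, ker_stable Lm Lm' Aβ σ hβ h3⟩
  have hc := Lm.comm σ (CuspForm.heckeAlgebra.T hℓ hℓN hℓS)
  rw [← actL_intCast (𝒪 := 𝒪), ← actL_mul]
  have e : Mc 𝒪 C.M (CuspForm.heckeAlgebra.T hℓ hℓN hℓS)
      = (C.M (CuspForm.heckeAlgebra.T hℓ hℓN hℓS)).map (Int.cast : ℤ → 𝒪) := rfl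
  rw [← e, ← hc, actL_mul, e, actL_intCast, h1, actL_vec_smul]

end Stable

/-! ## the representation over `L` -/

section RepL

variable {𝒪 L : Type*} [CommRing 𝒪] [Field L] [Algebra 𝒪 L] {r : ℕ} {G : Type*} [Group G]

/-- a matrix representation over `𝒪` as a representation on `L ^ r`. -/
def repEnd (ρ : G →* Matrix (Fin r) (Fin r) 𝒪) : G →* Module.End L (Fin r → L) where
  toFun g := Matrix.toLin' ((ρ g).map (algebraMap 𝒪 L))
  map_one' := by
    rw [map_one, Matrix.map_one (algebraMap 𝒪 L) (map_zero _) (map_one _), Matrix.toLin'_one]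
    rfl
  map_mul' g h := by
    rw [map_mul, Matrix.map_mul, Matrix.toLin'_mul]
    rfl

theorem repEnd_apply (ρ : G →* Matrix (Fin r) (Fin r) 𝒪) (g : G) (u : Fin r → L) :
    repEnd (L := L) ρ g u = actL (ρ g) u := by
  show Matrix.toLin' ((ρ g).map (algebraMap 𝒪 L)) u = _
  rw [Matrix.toLin'_apply]
  rfl

end RepL

/-! ## the core -/

section Core

variable {M q p : ℕ} [NeZero M] [NeZero q] [Fact p.Prime] {S : Finset ℕ}
  {C : TateCoords (M * q) p (↑S : Set ℕ)} {C' : TateCoords M p (↑S : Set ℕ)}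

/-- **PVG-N2 in coordinates.** -/
theorem newJ0_core (hNS : ∀ l : ℕ, l.Prime → l ∣ M * q → l ∈ S)
    (hq : q.Prime) (hqM : q ∣ M) (hq2 : ¬ q ^ 2 ∣ M) (hqp : q ≠ p)
    (hNU : Stmt_TorsNU M q p) (hU : Fermat.Agent.BAD.Stmt_TorsUnip M p)
    (Aα Aβ : Matrix (Fin C'.r) (Fin C.r) ℤ)
    (hpα : ∀ (k : ℕ) (x : Jtor (M * q) (p ^ k)) (y : Jtor M (p ^ k)),
      (y : JZero M) = alphaPush M q (x : JZero (M * q)) →
        C'.θ k y = (Aα.map (Int.cast : ℤ → ZMod (p ^ k))).mulVec (C.θ k x))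
    (hpβ : ∀ (k : ℕ) (x : Jtor (M * q) (p ^ k)) (y : Jtor M (p ^ k)),
      (y : JZero M) = betaPush M q (x : JZero (M * q)) →
        C'.θ k y = (Aβ.map (Int.cast : ℤ → ZMod (p ^ k))).mulVec (C.θ k x))
    (hkα : ∀ (k : ℕ) (x : Jtor (M * q) (p ^ k)),
      (Aα.map (Int.cast : ℤ → ZMod (p ^ k))).mulVec (C.θ k x) = 0 →
        alphaPush M q (x : JZero (M * q)) = 0)
    (hkβ : ∀ (k : ℕ) (x : Jtor (M * q) (p ^ k)),
      (Aβ.map (Int.cast : ℤ → ZMod (p ^ k))).mulVec (C.θ k x) = 0 →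
        betaPush M q (x : JZero (M * q)) = 0)
    {𝒪 : Type} [CommRing 𝒪] [IsDomain 𝒪] [IsDiscreteValuationRing 𝒪]
    [IsAdicComplete (maximalIdeal 𝒪) 𝒪] (hp : (p : 𝒪) ∈ maximalIdeal 𝒪) (hp0 : (p : 𝒪) ≠ 0)
    {L : Type} [Field L] [Algebra 𝒪 L] (hinj : Function.Injective (algebraMap 𝒪 L))
    (a : ℕ → L) (hE : newSub C Aα Aβ a ≠ ⊥)
    (w : Fin C'.r → L) (hw : w ≠ 0)
    (hweig : ∀ (ℓ : ℕ) (hℓ : ℓ.Prime) (hℓN : ¬ ℓ ∣ M) (hℓNq : ¬ ℓ ∣ M * q)
      (hℓS : ℓ ∉ (↑S : Set ℕ)),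
      ((C'.M (CuspForm.heckeAlgebra.T hℓ hℓN hℓS)).map (Int.cast : ℤ → L)).mulVec w = a ℓ • w) :
    False := by
  have hpp : p.Prime := Fact.out
  obtain ⟨A, hA, c, hc⟩ := hNU hq hqM hq2 hpp hqp
  obtain ⟨Lm⟩ := exists_tateLimit C 𝒪 hp
  obtain ⟨Lm'⟩ := exists_tateLimit C' 𝒪 hp
  have hES : Stmt_TorsES (M * q) p := torsES_of_red hpp (Fermat.Agent.R.H33.allRed (M * q) p)
  have hES' : Stmt_TorsES M p := torsES_of_red hpp (Fermat.Agent.R.H33.allRed M p)
  -- the intertwining relations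
  have hiα : ∀ σ : GQ, Aα.map (Int.cast : ℤ → 𝒪) * Lm.ρL σ
      = Lm'.ρL σ * Aα.map (Int.cast : ℤ → 𝒪) := fun σ =>
    intertwine_limit Lm Lm' Aα (fun σ k => intertwine_level (alphaPush M q)
      (fun σ x => alphaPush_smul M q σ x) Aα hpα σ k) σ
  have hiβ : ∀ σ : GQ, Aβ.map (Int.cast : ℤ → 𝒪) * Lm.ρL σ
      = Lm'.ρL σ * Aβ.map (Int.cast : ℤ → 𝒪) := fun σ =>
    intertwine_limit Lm Lm' Aβ (fun σ k => intertwine_level (betaPush M q)
      (fun σ x => betaPush_smul M q σ x) Aβ hpβ σ k) σ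
  -- stability
  have hstab : ∀ σ : GQ, ∀ u ∈ newSub C Aα Aβ a, actL (Lm.ρL σ) u ∈ newSub C Aα Aβ a :=
    fun σ u hu => newSub_stable Lm Lm' a Aα Aβ σ (hiα σ) (hiβ σ) hu
  -- unipotence on the new eigenspace
  have hunip : ∀ g ∈ A.inertiaSubgroupIn ℚ, ∀ u ∈ newSub C Aα Aβ a,
      actL (Lm.ρL g) (actL (Lm.ρL g) u) - actL (Lm.ρL g) u - actL (Lm.ρL g) u + u = 0 := by
    intro g hg
    refine unip_of_es Lm Lm' hNS hES hES' hq hqp A hA a
      (↑(newSub C Aα Aβ a) : Set (Fin C.r → L)) w hw ?_ ?_ g hg (fun v hv => hstab g v hv) ?_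
    · intro ℓ hℓ hℓN hℓS v hv
      have e : Mc 𝒪 C.M (CuspForm.heckeAlgebra.T hℓ hℓN hℓS)
          = (C.M (CuspForm.heckeAlgebra.T hℓ hℓN hℓS)).map (Int.cast : ℤ → 𝒪) := rfl
      rw [e, actL_intCast]
      exact hv.1 ℓ hℓ hℓN hℓS
    · intro ℓ hℓ hℓN hℓNq hℓS
      have e : Mc 𝒪 C'.M (CuspForm.heckeAlgebra.T hℓ hℓN hℓS)
          = (C'.M (CuspForm.heckeAlgebra.T hℓ hℓN hℓS)).map (Int.cast : ℤ → 𝒪) := rfl
      rw [e, actL_intCast]
      exact hweig ℓ hℓ hℓN hℓNq hℓS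
    · exact limit_unip Lm' (fun x hx => hU q hq hqM hq2 hqp A hA g hg g hg x hx)
  -- the common fixed vector
  let ρE : ↥(A.inertiaSubgroupIn ℚ) →* Module.End L (Fin C.r → L) :=
    (repEnd (L := L) Lm.ρL).comp (A.inertiaSubgroupIn ℚ).subtype
  have hρE : ∀ (g : ↥(A.inertiaSubgroupIn ℚ)) (u : Fin C.r → L),
      ρE g u = actL (Lm.ρL (g : GQ)) u := fun g u => repEnd_apply Lm.ρL (g : GQ) u
  obtain ⟨v₀, hv₀, hv₀0, hfix⟩ := exists_fixed_of_unip ρE (newSub C Aα Aβ a) hE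
    (fun g u hu => by rw [hρE]; exact hstab (g : GQ) u hu)
    (fun g u hu => by rw [hρE, hρE]; exact hunip (g : GQ) g.2 u hu)
  -- descent to `𝒪`
  apply hv₀0
  let PC : PushCoords C := ⟨C'.r, Aα, Aβ, hkα, hkβ⟩
  let R : Set (Fin C.r → 𝒪) := {z |
    (∃ g ∈ A.inertiaSubgroupIn ℚ, ∃ i, z = fun k => (Lm.ρL g - 1) i k) ∨
    (∃ i, z = fun k => (Aα.map (Int.cast : ℤ → 𝒪)) i k) ∨
    (∃ i, z = fun k => (Aβ.map (Int.cast : ℤ → 𝒪)) i k)}
  refine descend_zero hinj R ?_ v₀ ?_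
  · intro u hu
    refine limit_NU_new Lm hp0 PC hc u ?_ ?_ ?_
    · intro σ hσ
      have h1 : (Lm.ρL σ - 1).mulVec u = 0 := by
        funext i
        exact hu _ (Or.inl ⟨σ, hσ, i, rfl⟩)
      rw [Matrix.sub_mulVec, Matrix.one_mulVec, sub_eq_zero] at h1
      exact h1
    · funext i
      exact hu _ (Or.inr (Or.inl ⟨i, rfl⟩))
    · funext i
      exact hu _ (Or.inr (Or.inr ⟨i, rfl⟩))
  · rintro z (⟨g, hg, i, rfl⟩ | ⟨i, rfl⟩ | ⟨i, rfl⟩)
    · have h1 : actL (Lm.ρL g - 1) v₀ = 0 := by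
        rw [actL_sub, actL_one, ← hρE ⟨g, hg⟩, hfix, sub_self]
      exact congrFun h1 i
    · have h1 := congrFun hv₀.2.1 i
      rw [← map_intCast_algebraMap (𝒪 := 𝒪)] at h1
      exact h1
    · have h1 := congrFun hv₀.2.2 i
      rw [← map_intCast_algebraMap (𝒪 := 𝒪)] at h1
      exact h1

end Core

end Fermat.Agent.L.Pivot.Geom.H50

end
end
-- ==== END Fermat.Agent.L.Pivot.Geom.H50_NewCore

-- ==== BEGIN Fermat.Agent.S43.NonExc2
section

set_option autoImplicit false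
set_option synthInstance.maxHeartbeats 400000
set_option maxHeartbeats 1000000

noncomputable section

open AlgebraicCurve ModularCurve
open WeierstrassCurve WeierstrassCurve.Affine WeierstrassCurve.Affine.Point
open scoped WeierstrassCurve.Affine

namespace Fermat.Agent.S43.BadQ

open Fermat.Agent.BAD Fermat.Agent.S44 Fermat.Agent.L Fermat.Agent.L.Pivot
open Fermat.Agent.L.Pivot.H76

/-- **Mazur's principle at an odd prime which is not exceptional** (Frey curve, `p ≥ 5`). -/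
theorem lowerConcl_nonExc2 (h2 : Stmt_BadQ5odd)
    (P : FreyPackage) {N q : ℕ} (hcond : P.IsConductorLevel N) (hq : q.Prime) (hq2 : q ≠ 2)
    (hqp : q ≠ P.p) (hqN : q ∣ N)
    (hirr : GaloisRepIsIrreducible (K := AlgebraicClosure ℚ) ℚ P.freyCurve P.p)
    (hunr : P.GaloisRepUnramifiedAt q)
    (f : CuspForm (CongruenceSubgroup.Gamma0 N) 2) (W : WeierstrassCurve ℤ)
    (𝔪 : Ideal (integralClosure ℤ ℂ)) (hf : f.IsNormalizedEigenform)
    (hW : W.IsIntegralModelOf P.freyCurve)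
    (h𝔪 : 𝔪.IsMaximal) (hp𝔪 : (P.p : integralClosure ℤ ℂ) ∈ 𝔪)
    (hcong : ∀ ℓ : ℕ, ℓ.Prime → W.IsGoodPrimeFor ℓ → ¬ ℓ ∣ N → ℓ ≠ P.p →
      ∃ a : integralClosure ℤ ℂ, (a : ℂ) = ModularFormClass.qCoeff f ℓ ∧
        a - ((W.apOfModel ℓ : ℤ) : integralClosure ℤ ℂ) ∈ 𝔪)
    (hexc : ¬ IsExc2 P q) :
    LowerConcl P.p N q W := by
  have hp : P.p.Prime := P.pp
  have hp5 : 5 ≤ P.p := P.hp5
  have hp2 : P.p ≠ 2 := by omega
  have hΔ : W.Δ ≠ 0 := integralModel_Δ_ne_zero P hW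
  have : NeZero N := ⟨hcond.pos.ne'⟩
  obtain ⟨A, hAq⟩ := stmt_PlaceOver q hq
  obtain ⟨hcont, hES, hsupp⟩ := stmt_TateModP P.p hp hp2 N
  set S : Finset ℕ := W.Δ.natAbs.primeFactors with hS
  have hgood : ∀ ℓ : ℕ, ℓ.Prime → ℓ ∉ S → W.IsGoodPrimeFor ℓ := fun ℓ hℓ h =>
    prime_not_mem_of_good hℓ hΔ h
  obtain ⟨x, hx0, hx⟩ := hsupp f 𝔪 S (fun ℓ => W.apOfModel ℓ) hf h𝔪 hp𝔪
    (fun ℓ hℓ hℓS hℓN hℓp => hcong ℓ hℓ (hgood ℓ hℓ hℓS) hℓN hℓp)
  obtain ⟨ι, hinj, hequiv, hT⟩ := Fermat.Agent.L.H52.recovery P.p hp hp2 N hcond.pos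
    (jzModule N P.p) hcont hES P.freyCurve W hW hirr S hgood x hx0 hx
  have hNE : ∃ ℓ : ℕ, ℓ.Prime ∧ ℓ ∉ S ∧ ¬ ℓ ∣ N ∧ ℓ ≠ P.p ∧
      ((W.apOfModel ℓ : ℤ) : ZMod P.p) ≠ 1 + (ℓ : ZMod P.p) := by
    obtain ⟨ℓ, hℓ, hℓW, hℓN, hℓp, hne⟩ := stmt_NonEis P W hW N hcond.pos hirr
    refine ⟨ℓ, hℓ, ?_, hℓN, hℓp, hne⟩
    intro hmem
    rw [hS, Nat.mem_primeFactors] at hmem
    exact hℓW (Int.natCast_dvd.mpr hmem.2.1)
  have hrem := removesQ2_of_toric hp hp2 (jzModule N P.p) N q A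
    (h2 P.p hp hp5 N q hq hq2 hqp hqN hcond.squarefree A hAq)
  obtain ⟨g, 𝔪', hg, h𝔪', hp𝔪', hgc⟩ := hrem (Tors P.freyCurve P.p)
    (galoisRepModuleEnd (S := ℚ) (K := AlgebraicClosure ℚ) P.freyCurve.toAffine P.p)
    ι S (fun ℓ => W.apOfModel ℓ)
    (fun W' hW' => hirr.2 W' (fun σ x hx => hW' σ x hx))
    (fun σ hσ v => hunr A hAq σ hσ v)
    (not_scalar_of_not_exc2 P hq hqp hexc A hAq) hinj (fun σ v => hequiv σ v) hT hNE
  exact ⟨g, 𝔪', S, hg, h𝔪', hp𝔪', fun ℓ hℓ hℓS hℓN hℓp _ => hgc ℓ hℓ hℓS hℓN hℓp⟩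

/-- **`Stmt_NonExcFrey2`** (helper76's interface) from BAD_q at odd primes (RAM2 is proved). -/
theorem nonExcFrey2_of (h2 : Stmt_BadQ5odd) : Stmt_NonExcFrey2 := by
  intro P N q hcond hq hqp hqN hirr hmod hunr hne
  have hq2 : q ≠ 2 := by
    rintro rfl
    exact Fermat.Agent.S43.H37.ram2 P hunr
  obtain ⟨f, W, 𝔪, hf, hW, h𝔪, hp𝔪, hcong⟩ := hmod
  exact result_of_lowerConcl P hcond hq hqN W hW
    (lowerConcl_nonExc2 h2 P hcond hq hq2 hqp hqN hirr hunr f W 𝔪 hf hW h𝔪 hp𝔪 hcong hne)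

/-- **S43 from S44, the leaves of BAD_q and PIVOT (Frey form 2).**  The conclusion is the frozen
statement S43. -/
theorem result_of_s44' (h44 : Stmt_S44T) (hF : Stmt_FrobToricOdd) (hC : Stmt_CompEisOdd)
    (hO : Stmt_OldOdd) (hPF : Stmt_PivotFrey2)
    (P : FreyPackage) {N q : ℕ}
    (hcond : P.IsConductorLevel N) (hq : q.Prime) (hq2 : q ≠ 2) (hqp : q ≠ P.p) (hqN : q ∣ N)
    (hirr : GaloisRepIsIrreducible (K := AlgebraicClosure ℚ) ℚ P.freyCurve P.p)
    (hmod : P.ModularRepOfLevel N) (hunr : P.GaloisRepUnramifiedAt q) :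
    ∃ M : ℕ, M ∣ N ∧ ¬ q ∣ M ∧ P.ModularRepOfLevel M :=
  s43_of2 h44 (nonExcFrey2_of (badQ5odd_of_at hF hC hO)) hPF P hcond hq hq2 hqp hqN hirr
    hmod hunr

end Fermat.Agent.S43.BadQ

end
end
-- ==== END Fermat.Agent.S43.NonExc2

-- ==== BEGIN Fermat.Agent.S59.Asm.Defs
section

/-!
# S59, package ASM (helper53): the interface between the geometry of `X_H` (item 72, LG-NEB) and
the Taylor–Wiles assembly

Everything the assembly needs from the geometric side, as ABSTRACT data over the coefficient ring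
`𝒪` (limit over the torsion levels already taken, localisation at the maximal ideal already done,
Galois action already twisted to determinant `ε`):

* `HMod 𝒪 N S θ` : a finite free `𝒪`-module with an action of the Hecke algebra
  `heckeAlgebra N 2 S`, local at `θ`  (at the minimal level: `Ta_p J₀(N)_𝔪 ⊗ 𝒪`).
* `TWGeom …`     : the module at a Taylor–Wiles family `q_1, …, q_r` (level `n`):
  a `HMod` at the `Γ₀`-level `N · ∏ q_j²` (package EIG), the twisted Galois action with the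
  Eichler–Shimura relation (RED-q §2), the diamond operators `d_j` of order `p^n`, freeness over
  `𝒪[Δ]` (INV + TOWER + O-LIFT), the projection to the minimal level with kernel
  `∑ (d_j - 1) V` (INV, `π_*` onto), and local–global compatibility at `q_j` in GEOMETRIC form:
  `V = V^α ⊕ V^β` under a Frobenius, and an inertia element `σ_j` acting on `V^α` as `d_j`
  (fixed-point trick, `absLG`).

No `sorry`; definitions only.
-/

set_option autoImplicit false

open Polynomial CuspForm IsLocalRing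

namespace Fermat.Agent.S59.Asm

/-- `Gal(ℚ̄/ℚ)`. -/
abbrev GalQ : Type := AlgebraicClosure ℚ ≃ₐ[ℚ] AlgebraicClosure ℚ

/-- The `Γ₀`-level at a Taylor–Wiles family: `N · ∏ q_j²`. -/
def twLevel (N : ℕ) {r : ℕ} (qv : Fin r → ℕ) : ℕ := N * ∏ j, qv j ^ 2

/-- The set of bad primes at a Taylor–Wiles family. -/
def twSet (S : Finset ℕ) {r : ℕ} (qv : Fin r → ℕ) : Finset ℕ := S ∪ Finset.univ.image qv

/-- A finite free `𝒪`-module with an action of the Hecke algebra of level `N` (away from `S`)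
which is local at the character `θ`: for every `t` and every lift `a` of `θ t` the operator
`t - a` is nilpotent modulo the maximal ideal of `𝒪`. -/
structure HMod (𝒪 : Type) [CommRing 𝒪] [IsLocalRing 𝒪] (N : ℕ) [NeZero N] (S : Set ℕ)
    (θ : CuspForm.heckeAlgebra N 2 S →+* ResidueField 𝒪) : Type 1 where
  /-- the module -/
  V : Type
  [instAddCommGroup : AddCommGroup V]
  [instModule : Module 𝒪 V]
  [instFinite : Module.Finite 𝒪 V]
  [instFree : Module.Free 𝒪 V]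
  /-- the Hecke action -/
  η : CuspForm.heckeAlgebra N 2 S →+* Module.End 𝒪 V
  η_local : ∀ (t : CuspForm.heckeAlgebra N 2 S) (a : 𝒪), residue 𝒪 a = θ t →
    ∃ m : ℕ, ∀ v : V, ((η t - a • (1 : Module.End 𝒪 V)) ^ m) v ∈
      (maximalIdeal 𝒪 • ⊤ : Submodule 𝒪 V)

attribute [instance] HMod.instAddCommGroup HMod.instModule HMod.instFinite HMod.instFree

/-- The geometric data at a Taylor–Wiles family `qv` of level `n` over the minimal-level module
`M`.  The Galois action `gal` is the TWISTED one (determinant `ε`):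
`gal g = (geometric action of g) ∘ ∏_j ⟨χ_{q_j}(g)⟩^(-1/2)`, and `W.η (T_ℓ) = T_ℓ^H ⟨ℓ⟩^(-1/2)`. -/
structure TWGeom (𝒪 : Type) [CommRing 𝒪] [IsLocalRing 𝒪] (p : ℕ)
    (ρbar : ResidualGaloisRep (ResidueField 𝒪))
    (N : ℕ) [NeZero N] (S : Finset ℕ)
    (θ : CuspForm.heckeAlgebra N 2 (↑S : Set ℕ) →+* ResidueField 𝒪)
    (M : HMod 𝒪 N (↑S : Set ℕ) θ) {r : ℕ} (n : ℕ) (qv : Fin r → ℕ)
    [NeZero (twLevel N qv)] : Type 1 where
  /-- restriction of Hecke operators to the forms of level `N` (package REST) -/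
  rest : CuspForm.heckeAlgebra (twLevel N qv) 2 (↑(twSet S qv) : Set ℕ) →+*
    CuspForm.heckeAlgebra N 2 (↑S : Set ℕ)
  rest_T : ∀ (ℓ : ℕ) (hℓ : ℓ.Prime) (hℓN' : ¬ ℓ ∣ twLevel N qv)
    (hℓS' : ℓ ∉ (↑(twSet S qv) : Set ℕ)) (hℓN : ¬ ℓ ∣ N) (hℓS : ℓ ∉ (↑S : Set ℕ)),
    rest (CuspForm.heckeAlgebra.T hℓ hℓN' hℓS') = CuspForm.heckeAlgebra.T hℓ hℓN hℓS
  /-- the Hecke module at the level `N · ∏ q_j²` (package EIG) -/
  W : HMod 𝒪 (twLevel N qv) (↑(twSet S qv) : Set ℕ) (θ.comp rest)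
  /-- the twisted Galois action -/
  gal : GalQ →* Module.End 𝒪 W.V
  gal_cont : GaloisActionIsAdicContinuous 𝒪 gal
  gal_η : ∀ (g : GalQ) (t : CuspForm.heckeAlgebra (twLevel N qv) 2 (↑(twSet S qv) : Set ℕ)),
    Commute (gal g) (W.η t)
  /-- Eichler–Shimura -/
  es : ∀ (ℓ : ℕ) (hℓ : ℓ.Prime) (hℓN : ¬ ℓ ∣ twLevel N qv)
    (hℓS : ℓ ∉ (↑(twSet S qv) : Set ℕ)),
    ∀ A : ValuationSubring (AlgebraicClosure ℚ), A.LiesOverPrime ℓ →
      ∀ σ : GalQ, A.IsFrobeniusAt σ ℓ →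
        gal σ * gal σ - W.η (CuspForm.heckeAlgebra.T hℓ hℓN hℓS) * gal σ
          + (ℓ : 𝒪) • (1 : Module.End 𝒪 W.V) = 0
  /-- the diamond operators (generators of `Δ = (ℤ/p^n)^r`) -/
  d : Fin r → Module.End 𝒪 W.V
  d_pow : ∀ j, d j ^ (p ^ n) = 1
  d_comm : ∀ i j, Commute (d i) (d j)
  d_η : ∀ (j : Fin r) (t : CuspForm.heckeAlgebra (twLevel N qv) 2 (↑(twSet S qv) : Set ℕ)),
    Commute (d j) (W.η t)
  d_gal : ∀ (j : Fin r) (g : GalQ), Commute (d j) (gal g)
  /-- freeness over `𝒪[Δ]` -/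
  rk : ℕ
  b : Fin rk → W.V
  b_basis : Function.Bijective (fun f : Fin rk × (Fin r → Fin (p ^ n)) → 𝒪 =>
    ∑ x : Fin rk × (Fin r → Fin (p ^ n)),
      f x • Fermat.Agent.S59.TWH.H90.mon d (fun j => (x.2 j : ℕ)) (b x.1))
  /-- the projection to the minimal level -/
  π : W.V →ₗ[𝒪] M.V
  π_surjective : Function.Surjective π
  ker_π : LinearMap.ker π = ⨆ j, LinearMap.range (d j - 1)
  π_η : ∀ (t : CuspForm.heckeAlgebra (twLevel N qv) 2 (↑(twSet S qv) : Set ℕ)) (v : W.V),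
    π (W.η t v) = M.η (rest t) (π v)
  /-- local–global compatibility at `q_j`, geometric form -/
  P : Fin r → ValuationSubring (AlgebraicClosure ℚ)
  P_over : ∀ j, (P j).LiesOverPrime (qv j)
  frob : Fin r → GalQ
  frob_spec : ∀ j, (P j).IsFrobeniusAt (frob j) (qv j)
  σ : Fin r → GalQ
  σ_mem : ∀ j, σ j ∈ (P j).inertiaSubgroupIn ℚ
  a : Fin r → 𝒪
  a' : Fin r → 𝒪
  a_ne : ∀ j, residue 𝒪 (a j) ≠ residue 𝒪 (a' j)
  charpoly_frob : ∀ j, LinearMap.charpoly (ρbar.ρ (frob j)) =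
    (X - C (residue 𝒪 (a j))) * (X - C (residue 𝒪 (a' j)))
  Vα : Fin r → Submodule 𝒪 W.V
  Vβ : Fin r → Submodule 𝒪 W.V
  isCompl : ∀ j, IsCompl (Vα j) (Vβ j)
  Vα_η : ∀ (j : Fin r) (t : CuspForm.heckeAlgebra (twLevel N qv) 2 (↑(twSet S qv) : Set ℕ)),
    ∀ v ∈ Vα j, W.η t v ∈ Vα j
  Vα_d : ∀ (j i : Fin r), ∀ v ∈ Vα j, d i v ∈ Vα j
  Vα_frob : ∀ j, ∀ v ∈ Vα j, gal (frob j) v ∈ Vα j
  Vβ_frob : ∀ j, ∀ v ∈ Vβ j, gal (frob j) v ∈ Vβ j
  Vα_nil : ∀ j, ∃ m : ℕ, ∀ v ∈ Vα j,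
    ((gal (frob j) - a j • (1 : Module.End 𝒪 W.V)) ^ m) v ∈
      (maximalIdeal 𝒪 • ⊤ : Submodule 𝒪 W.V)
  Vβ_nil : ∀ j, ∃ m : ℕ, ∀ v ∈ Vβ j,
    ((gal (frob j) - a' j • (1 : Module.End 𝒪 W.V)) ^ m) v ∈
      (maximalIdeal 𝒪 • ⊤ : Submodule 𝒪 W.V)
  /-- the inertia element `σ_j` acts on `V^α` as the diamond operator `d_j` -/
  lg : ∀ j, ∀ v ∈ Vα j, gal (σ j) v = d j v

end Fermat.Agent.S59.Asm

end
-- ==== END Fermat.Agent.S59.Asm.Defs

-- ==== BEGIN Fermat.Agent.S59.Datum.Main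
section

set_option autoImplicit false

namespace Fermat.Agent.S59.Datum

/-- **DATUM** from S30 alone. -/
theorem stmt_DATUM_of_S30 (hS30 : Fermat.Agent.R.Stmt_S30) : Stmt_DATUM :=
  H7.stmt_DATUM_of hS30 H85.stmt_Ring H8.stmt_Adapt H41.stmt_DetCyc H57.stmt_ResIrr
    H85.stmt_Cont H41.stmt_Odd H8.stmt_Unit

end Fermat.Agent.S59.Datum

end
-- ==== END Fermat.Agent.S59.Datum.Main

-- ==== BEGIN Fermat.Agent.S59.H99_DefCond
section

/-!
# S59, leaf DEF, part 7 (helper99): `condB` is a deformation condition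

`condB 𝒪 p fl Smin T ρ` : determinant cyclotomic, unramified outside `Smin ∪ T`, unipotent on
inertia at `Smin ∖ {p}`, and flat (`fl = true`) or strictly ordinary (`fl = false`) at `p`.
It is (propositionally) the condition `Fermat.Agent.S59.cond` of the wiring.

`isDeformationCondition_condB : GaloisRep.IsDeformationCondition 𝒪 (condB 𝒪 p fl Smin T)`.
-/

set_option autoImplicit false
set_option linter.unusedSectionVars false
set_option linter.style.haveILetI false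

open IsLocalRing TensorProduct

namespace Fermat.Agent.S59.H99

open Fermat.Agent.S56.H92

section Cond

/-- The local condition at `p`: flat or strictly ordinary. -/
def locP (fl : Bool) (p : ℕ) {A : Type} [CommRing A] [IsLocalRing A] (ρ : GaloisRepAdic A) :
    Prop :=
  match fl with
  | true => ρ.IsFlatAt p
  | false => ρ.IsStrictOrdinaryAt p

/-- The part of the condition away from the local type at `p`. -/
def condJ (p : ℕ) (Smin T : Finset ℕ) {A : Type} [CommRing A] [IsLocalRing A]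
    (ρ : GaloisRepAdic A) : Prop :=
  ρ.DetIsCyclotomic p ∧ (∀ q : ℕ, q.Prime → q ∉ Smin ∪ T → ρ.IsUnramifiedAt q) ∧
    ∀ q ∈ Smin, q.Prime → q ≠ p → ρ.IsUnipotentOnInertiaAt q

/-- The deformation condition. -/
def condB (𝒪 : Type) [CommRing 𝒪] (p : ℕ) (fl : Bool) (Smin T : Finset ℕ) :
    ∀ ⦃A : Type⦄ [CommRing A] [IsLocalRing A] [Algebra 𝒪 A], GaloisRepAdic A → Prop :=
  fun _A _ _ _ ρ => condJ p Smin T ρ ∧ locP fl p ρ

variable {A : Type} [CommRing A] [IsLocalRing A]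

theorem condJ_of_isEquiv {ρ ρ' : GaloisRepAdic A} (he : ρ.IsEquiv ρ') (p : ℕ)
    (Smin T : Finset ℕ) (h : condJ p Smin T ρ) : condJ p Smin T ρ' :=
  ⟨detIsCyclotomic_of_isEquiv he p h.1,
    fun q hq hqS => isUnramifiedAt_of_isEquiv he q (h.2.1 q hq hqS),
    fun q hq hqp hne => isUnipotentOnInertiaAt_of_isEquiv he q (h.2.2 q hq hqp hne)⟩

theorem locP_of_isEquiv {ρ ρ' : GaloisRepAdic A} (he : ρ.IsEquiv ρ') (fl : Bool) (p : ℕ)
    (hp : p.Prime) (h : locP fl p ρ) : locP fl p ρ' := by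
  cases fl
  · exact isStrictOrdinaryAt_of_isEquiv he p h
  · exact isFlatAt_of_isEquiv he p hp h

theorem condJ_baseChangeAlong {B : Type} [CommRing B] [IsLocalRing B] (φ : A →+* B)
    (hφ : IsLocalHom φ) (ρ : GaloisRepAdic A) (p : ℕ) (Smin T : Finset ℕ)
    (h : condJ p Smin T ρ) : condJ p Smin T (ρ.baseChangeAlong φ hφ) :=
  ⟨detIsCyclotomic_baseChangeAlong φ hφ ρ p h.1,
    fun q hq hqS => isUnramifiedAt_baseChangeAlong φ hφ ρ q (h.2.1 q hq hqS),
    fun q hq hqp hne => isUnipotentOnInertiaAt_baseChangeAlong φ hφ ρ q (h.2.2 q hq hqp hne)⟩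

theorem locP_baseChangeAlong {B : Type} [CommRing B] [IsLocalRing B] (φ : A →+* B)
    (hφ : IsLocalHom φ) (hres : Finite (ResidueField B)) (ρ : GaloisRepAdic A) (fl : Bool)
    (p : ℕ) (hp : p.Prime) (h : locP fl p ρ) : locP fl p (ρ.baseChangeAlong φ hφ) := by
  cases fl
  · exact isStrictOrdinaryAt_baseChangeAlong φ hφ ρ p h
  · exact isFlatAt_baseChangeAlong φ hφ hres ρ p hp h

theorem JFam.condJ {p : ℕ} (F : JFam A p) (ρ : GaloisRepAdic A) (Smin T : Finset ℕ)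
    (h : ∀ i, Fermat.Agent.S59.H99.condJ p Smin T (ρ.baseChangeAlong (F.φ i) (F.hφ i))) :
    Fermat.Agent.S59.H99.condJ p Smin T ρ :=
  ⟨F.detIsCyclotomic ρ fun i => (h i).1,
    fun q hq hqS => F.isUnramifiedAt ρ q fun i => (h i).2.1 q hq hqS,
    fun q hq hqp hne => F.isUnipotentOnInertiaAt ρ q fun i => (h i).2.2 q hq hqp hne⟩

end Cond

section Pair

/-- The two targets of a pair. -/
def pairB (A B : Type) : Bool → Type
  | true => A
  | false => B

instance pairB_commRing (A B : Type) [CommRing A] [CommRing B] : ∀ b, CommRing (pairB A B b)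
  | true => inferInstanceAs (CommRing A)
  | false => inferInstanceAs (CommRing B)

instance pairB_isLocalRing (A B : Type) [CommRing A] [CommRing B] [IsLocalRing A]
    [IsLocalRing B] : ∀ b, IsLocalRing (pairB A B b)
  | true => inferInstanceAs (IsLocalRing A)
  | false => inferInstanceAs (IsLocalRing B)

variable {P A B : Type} [CommRing P] [IsLocalRing P] [CommRing A] [IsLocalRing A]
  [CommRing B] [IsLocalRing B]

/-- The two maps of a pair. -/
def pairφ (pA : P →+* A) (pB : P →+* B) : ∀ b, P →+* pairB A B b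
  | true => pA
  | false => pB

theorem pairφ_isLocalHom (pA : P →+* A) (hpA : IsLocalHom pA) (pB : P →+* B)
    (hpB : IsLocalHom pB) : ∀ b, IsLocalHom (pairφ pA pB b)
  | true => hpA
  | false => hpB

/-- The family of a jointly injective pair. -/
def pairFam (p : ℕ) [Fact p.Prime] (pA : P →+* A) (hpA : IsLocalHom pA) (pB : P →+* B)
    (hpB : IsLocalHom pB) (hinj : ∀ x, pA x = 0 → pB x = 0 → x = 0) (M : ℕ)
    (hMA : ((p ^ M : ℕ) : A) = 0) (hMB : ((p ^ M : ℕ) : B) = 0) : JFam P p :=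
  JFam.ofNilp p ⟨true⟩ (pairB A B) (pairφ pA pB) (pairφ_isLocalHom pA hpA pB hpB)
    (fun x hx => hinj x (hx true) (hx false)) M
    (fun b => match b with
      | true => hMA
      | false => hMB)

theorem exists_pow_eq_zero_of_finite (p : ℕ) [Finite A] (h : (p : A) ∈ maximalIdeal A) :
    ∃ M : ℕ, ∀ M' : ℕ, M ≤ M' → ((p ^ M' : ℕ) : A) = 0 := by
  obtain ⟨n, hn⟩ := Fermat.Agent.S53.exists_pow_maximalIdeal_eq_bot (A := A)
  refine ⟨n, fun M' hM' => ?_⟩
  have h1 : (p : A) ^ M' ∈ maximalIdeal A ^ n :=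
    Ideal.pow_le_pow_right hM' (Ideal.pow_mem_pow h M')
  rw [hn] at h1
  rw [Nat.cast_pow]
  exact (Submodule.mem_bot A).mp h1

theorem condJ_of_pair (p : ℕ) [Fact p.Prime] [Finite A] [Finite B]
    (pA : P →+* A) (hpA : IsLocalHom pA) (pB : P →+* B) (hpB : IsLocalHom pB)
    (hinj : ∀ x, pA x = 0 → pB x = 0 → x = 0) (ρ : GaloisRepAdic P) (Smin T : Finset ℕ)
    (hA : condJ p Smin T (ρ.baseChangeAlong pA hpA))
    (hB : condJ p Smin T (ρ.baseChangeAlong pB hpB)) : condJ p Smin T ρ := by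
  obtain ⟨MA, hMA⟩ := exists_pow_eq_zero_of_finite p hA.1.1
  obtain ⟨MB, hMB⟩ := exists_pow_eq_zero_of_finite p hB.1.1
  let F := pairFam p pA hpA pB hpB hinj (MA + MB) (hMA _ (Nat.le_add_right _ _))
    (hMB _ (Nat.le_add_left _ _))
  refine F.condJ ρ Smin T fun i => ?_
  cases i
  · exact hB
  · exact hA

theorem locP_of_pair (p : ℕ) [Fact p.Prime] (hp2 : p ≠ 2) [Finite A] [Finite B]
    (pA : P →+* A) (hpA : IsLocalHom pA) (pB : P →+* B) (hpB : IsLocalHom pB)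
    (hinj : ∀ x, pA x = 0 → pB x = 0 → x = 0) (hres : Finite (ResidueField P))
    (ρ : GaloisRepAdic P) (fl : Bool)
    (hA : locP fl p (ρ.baseChangeAlong pA hpA))
    (hB : locP fl p (ρ.baseChangeAlong pB hpB)) : locP fl p ρ := by
  cases fl
  · have hA' : (ρ.baseChangeAlong pA hpA).IsStrictOrdinaryAt p := hA
    have hB' : (ρ.baseChangeAlong pB hpB).IsStrictOrdinaryAt p := hB
    obtain ⟨MA, hMA⟩ := exists_pow_eq_zero_of_finite p hA'.1
    obtain ⟨MB, hMB⟩ := exists_pow_eq_zero_of_finite p hB'.1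
    let F := pairFam p pA hpA pB hpB hinj (MA + MB) (hMA _ (Nat.le_add_right _ _))
      (hMB _ (Nat.le_add_left _ _))
    refine F.isStrictOrdinaryAt ρ hp2 fun i => ?_
    cases i
    · exact hB'
    · exact hA'
  · exact isFlatAt_of_pair pA hpA pB hpB hinj hres ρ p Fact.out hA hB

end Pair

section Quot

variable {A : Type} [CommRing A] [IsLocalRing A]

theorem nontrivial_quot_of_ne_top {J : Ideal A} (hJ : J ≠ ⊤) : Nontrivial (A ⧸ J) :=
  Ideal.Quotient.nontrivial_iff.mpr hJ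

theorem isLocalRing_quot_of_ne_top {J : Ideal A} (hJ : J ≠ ⊤) : IsLocalRing (A ⧸ J) :=
  haveI := nontrivial_quot_of_ne_top hJ
  IsLocalRing.of_surjective' (Ideal.Quotient.mk J) Ideal.Quotient.mk_surjective

theorem pow_succ_ne_top (m : ℕ) : maximalIdeal A ^ (m + 1) ≠ ⊤ := by
  intro h
  have h1 : maximalIdeal A ^ (m + 1) ≤ maximalIdeal A := Ideal.pow_le_self (Nat.succ_ne_zero m)
  rw [h] at h1
  exact (maximalIdeal.isMaximal A).ne_top (top_le_iff.mp h1)

theorem natCast_mem_of_map_mem {B : Type} [CommRing B] [IsLocalRing B] (φ : A →+* B) (p : ℕ)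
    (h : (p : B) ∈ maximalIdeal B) : (p : A) ∈ maximalIdeal A := by
  rw [IsLocalRing.mem_maximalIdeal, mem_nonunits_iff] at h ⊢
  intro hu
  apply h
  have := hu.map φ
  rwa [map_natCast] at this

/-- Descent of `condJ` and `locP` from the finite quotients of a noetherian local ring. -/
theorem cond_of_quot [IsNoetherianRing A] (hres : Finite (ResidueField A))
    (p : ℕ) [Fact p.Prime] (hp2 : p ≠ 2) (fl : Bool) (Smin T : Finset ℕ) (ρ : GaloisRepAdic A)
    (h : ∀ (J : Ideal A) (hJ : J ≠ ⊤), Finite (A ⧸ J) →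
      letI := isLocalRing_quot_of_ne_top hJ
      ∀ hq : IsLocalHom (Ideal.Quotient.mk J),
        condJ p Smin T (ρ.baseChangeAlong (Ideal.Quotient.mk J) hq) ∧
          locP fl p (ρ.baseChangeAlong (Ideal.Quotient.mk J) hq)) :
    condJ p Smin T ρ ∧ locP fl p ρ := by
  have hfin : ∀ m : ℕ, Finite (A ⧸ maximalIdeal A ^ (m + 1)) := fun m => by
    have : Finite (A ⧸ maximalIdeal A) := hres
    exact Ideal.finite_quotient_pow (IsNoetherian.noetherian (maximalIdeal A)) (m + 1)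
  have hpA : (p : A) ∈ maximalIdeal A := by
    letI := isLocalRing_quot_of_ne_top (pow_succ_ne_top (A := A) 0)
    have hq : IsLocalHom (Ideal.Quotient.mk (maximalIdeal A ^ (0 + 1))) :=
      IsLocalHom.of_surjective _ Ideal.Quotient.mk_surjective
    have := (h _ (pow_succ_ne_top (A := A) 0) (hfin 0) hq).1.1.1
    exact natCast_mem_of_map_mem (Ideal.Quotient.mk (maximalIdeal A ^ (0 + 1))) p this
  let F : JFam A p := JFam.ofQuot p hpA
  have hF : ∀ i, condJ p Smin T (ρ.baseChangeAlong (F.φ i) (F.hφ i)) ∧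
      locP fl p (ρ.baseChangeAlong (F.φ i) (F.hφ i)) := fun i =>
    h _ (pow_succ_ne_top (A := A) i) (hfin i) (F.hφ i)
  refine ⟨F.condJ ρ Smin T fun i => (hF i).1, ?_⟩
  cases fl
  · exact F.isStrictOrdinaryAt ρ hp2 fun i => (hF i).2
  · refine isFlatAt_of_quot hres ρ p Fact.out fun J hJ hJf => ?_
    letI := isLocalRing_quot_of_ne_top hJ
    have hq : IsLocalHom (Ideal.Quotient.mk J) :=
      IsLocalHom.of_surjective _ Ideal.Quotient.mk_surjective
    refine ⟨A ⧸ J, inferInstance, inferInstance, Ideal.Quotient.mk J, hq, hJf, ?_,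
      (h J hJ hJf hq).2⟩
    rw [Ideal.mk_ker]

end Quot

section Main

variable (𝒪 : Type) [CommRing 𝒪] [IsLocalRing 𝒪] [Finite (ResidueField 𝒪)]

theorem finite_residueField_of_finite (B : Type) [CommRing B] [IsLocalRing B] [Finite B] :
    Finite (ResidueField B) :=
  Finite.of_surjective (IsLocalRing.residue B) IsLocalRing.residue_surjective

/-- **`condB` is a deformation condition.** -/
theorem isDeformationCondition_condB (p : ℕ) [Fact p.Prime] (hp2 : p ≠ 2) (fl : Bool)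
    (Smin T : Finset ℕ) : GaloisRep.IsDeformationCondition 𝒪 (condB 𝒪 p fl Smin T) where
  of_isEquiv := by
    intro A _ _ _ _ ρ ρ' he h
    exact ⟨condJ_of_isEquiv he p Smin T h.1, locP_of_isEquiv he fl p Fact.out h.2⟩
  baseChangeAlong := by
    intro A B _ _ _ _ _ _ _ hB φ hφ ρ h
    have : Finite B := Fermat.Agent.S53.finite_of_isArtinianTestAlgebra hB
    exact ⟨condJ_baseChangeAlong _ hφ ρ p Smin T h.1,
      locP_baseChangeAlong _ hφ (finite_residueField_of_finite B) ρ fl p Fact.out h.2⟩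
  of_baseChangeAlong_injective := by
    intro A B _ _ _ _ _ _ hA hB φ hφ hinj ρ h
    have : Finite A := Fermat.Agent.S53.finite_of_isArtinianTestAlgebra hA
    have : Finite B := Fermat.Agent.S53.finite_of_isArtinianTestAlgebra hB
    have hinj' : ∀ x, (φ : A →+* B) x = 0 → (φ : A →+* B) x = 0 → x = 0 := fun x hx _ =>
      hinj (by rw [map_zero]; exact hx)
    exact ⟨condJ_of_pair p _ hφ _ hφ hinj' ρ Smin T h.1 h.1,
      locP_of_pair p hp2 _ hφ _ hφ hinj' (finite_residueField_of_finite A) ρ fl h.2 h.2⟩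
  of_fibreProduct := by
    intro A B C P _ _ _ _ _ _ _ _ _ _ _ _ hA hB _ hP f g pA pB hpA hpB _ hinj _ ρ h1 h2
    have : Finite A := Fermat.Agent.S53.finite_of_isArtinianTestAlgebra hA
    have : Finite B := Fermat.Agent.S53.finite_of_isArtinianTestAlgebra hB
    have : Finite P := Fermat.Agent.S53.finite_of_isArtinianTestAlgebra hP
    have hinj' : ∀ x, (pA : P →+* A) x = 0 → (pB : P →+* B) x = 0 → x = 0 := fun x hx hy =>
      hinj (by
        change (pA x, pB x) = (pA 0, pB 0)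
        rw [map_zero, map_zero]
        exact Prod.ext hx hy)
    exact ⟨condJ_of_pair p _ hpA _ hpB hinj' ρ Smin T h1.1 h2.1,
      locP_of_pair p hp2 _ hpA _ hpB hinj' (finite_residueField_of_finite P) ρ fl h1.2 h2.2⟩
  iff_forall_surjective := by
    intro A _ _ _ _ _ hloc hres ρ
    have hresA : Finite (ResidueField A) :=
      haveI := hloc
      Fermat.Agent.S53.H50.finite_residueField_of_surjective 𝒪 A hres
    constructor
    · intro h B _ _ _ hB q hq _
      have : Finite B := Fermat.Agent.S53.finite_of_isArtinianTestAlgebra hB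
      exact ⟨condJ_baseChangeAlong _ hq ρ p Smin T h.1,
        locP_baseChangeAlong _ hq (finite_residueField_of_finite B) ρ fl p Fact.out h.2⟩
    · intro h
      refine cond_of_quot hresA p hp2 fl Smin T ρ fun J hJ hJf => ?_
      letI := isLocalRing_quot_of_ne_top hJ
      intro hq
      have hlocJ : IsLocalHom (algebraMap 𝒪 (A ⧸ J)) := by
        refine ⟨fun a ha => ?_⟩
        have h1 : IsUnit (algebraMap 𝒪 A a) := by
          haveI := hq
          exact isUnit_of_map_unit (Ideal.Quotient.mk J) _ ha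
        haveI := hloc
        exact isUnit_of_map_unit (algebraMap 𝒪 A) a h1
      have hresJ : Function.Surjective (IsLocalRing.residue (A ⧸ J) ∘ algebraMap 𝒪 (A ⧸ J)) := by
        intro x
        obtain ⟨y, rfl⟩ := IsLocalRing.residue_surjective x
        obtain ⟨a, rfl⟩ := Ideal.Quotient.mk_surjective y
        obtain ⟨c, hc⟩ := Fermat.Agent.S53.exists_sub_mem_maximalIdeal hres a
        refine ⟨c, ?_⟩
        simp only [Function.comp_apply]
        rw [eq_comm, ← sub_eq_zero, ← map_sub, IsLocalRing.residue_eq_zero_iff]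
        have h2 : Ideal.Quotient.mk J a - algebraMap 𝒪 (A ⧸ J) c =
            Ideal.Quotient.mk J (a - algebraMap 𝒪 A c) := by
          rw [map_sub]
          rfl
        rw [h2]
        haveI := hq
        exact map_nonunit (Ideal.Quotient.mk J) _ hc
      have hT : GaloisRep.IsArtinianTestAlgebra 𝒪 (A ⧸ J) :=
        ⟨hlocJ, hresJ, isArtinian_of_finite⟩
      exact h hT (Ideal.Quotient.mkₐ 𝒪 J) hq Ideal.Quotient.mk_surjective

end Main

end Fermat.Agent.S59.H99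

end
-- ==== END Fermat.Agent.S59.H99_DefCond

-- ==== BEGIN Fermat.Agent.S59.H99_SplitTW
section

/-!
# S59, leaf SPLIT, part 2 (helper99): the Taylor–Wiles condition and base change

* `exists_gram_of_twCond` : the Taylor–Wiles condition `TWCond ρbar` gives, for every subgroup
  `H` of index `2`, four pairs of elements of `H` with non-vanishing Gram determinant
  `det (tr ρbar (g_a g_b))`  (Burnside over the algebraic closure).
* `twCond_iff_gram` : the converse (`Tate.T7.H99.twCond_of_gram`), as an equivalence.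
* `twCond_baseChangeAlong` : `TWCond` of the residual representation is preserved by base change
  along a local homomorphism.
-/

set_option autoImplicit false

open IsLocalRing TensorProduct

namespace Fermat.Agent.S59.H99

open Fermat.Agent.S58.H99 Fermat.Agent.Tate.T7.H99

/-- The Taylor–Wiles condition gives a non-vanishing Gram determinant on every subgroup of
index `2`. -/
theorem exists_gram_of_twCond {k : Type} [Field k] (ρbar : ResidualGaloisRep k)
    (h : Fermat.Agent.S59.TWCond ρbar)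
    (H : Subgroup (AlgebraicClosure ℚ ≃ₐ[ℚ] AlgebraicClosure ℚ)) (hH : H.index = 2) :
    ∃ g : Fin 2 × Fin 2 → H,
      (Matrix.of fun a b => LinearMap.trace k ρbar.V
        (ρbar.ρ ((g a : AlgebraicClosure ℚ ≃ₐ[ℚ] AlgebraicClosure ℚ) *
          (g b : AlgebraicClosure ℚ ≃ₐ[ℚ] AlgebraicClosure ℚ)))).det ≠ 0 := by
  classical
  set K := AlgebraicClosure k
  have hfin : Module.finrank K (ρbar.baseChange K).V = 2 := (ρbar.baseChange K).finrank_eq
  have hnt : Nontrivial (ρbar.baseChange K).V :=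
    Module.nontrivial_of_finrank_pos (R := K) (by rw [hfin]; norm_num)
  let r : H →* Module.End K (ρbar.baseChange K).V := ((ρbar.baseChange K).ρ).comp H.subtype
  have hspan : Submodule.span K (Set.range r) = ⊤ :=
    Fermat.Agent.S53.Schur.span_range_eq_top_of_irreducible r
      (fun W hW => h K H hH W (fun σ hσ x hx => hW ⟨σ, hσ⟩ x hx))
  obtain ⟨g, hg⟩ := exists_gram_ne_zero_of_span hfin r hspan
  refine ⟨g, fun h0 => hg ?_⟩
  have hmap : (Matrix.of fun a b => LinearMap.trace K (ρbar.baseChange K).V (r (g a * g b))) =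
      (Matrix.of fun a b => LinearMap.trace k ρbar.V
        (ρbar.ρ ((g a : AlgebraicClosure ℚ ≃ₐ[ℚ] AlgebraicClosure ℚ) *
          (g b : AlgebraicClosure ℚ ≃ₐ[ℚ] AlgebraicClosure ℚ)))).map (algebraMap k K) := by
    ext a b
    simp only [Matrix.of_apply, Matrix.map_apply]
    exact LinearMap.trace_baseChange (ρbar.ρ ((g a : AlgebraicClosure ℚ ≃ₐ[ℚ] AlgebraicClosure ℚ) *
      (g b : AlgebraicClosure ℚ ≃ₐ[ℚ] AlgebraicClosure ℚ))) K
  rw [hmap, ← RingHom.mapMatrix_apply, ← RingHom.map_det, h0, map_zero]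

/-- The Taylor–Wiles condition in terms of Gram determinants. -/
theorem twCond_iff_gram {k : Type} [Field k] (ρbar : ResidualGaloisRep k) :
    Fermat.Agent.S59.TWCond ρbar ↔
      ∀ H : Subgroup (AlgebraicClosure ℚ ≃ₐ[ℚ] AlgebraicClosure ℚ), H.index = 2 →
        ∃ g : Fin 2 × Fin 2 → H,
          (Matrix.of fun a b => LinearMap.trace k ρbar.V
            (ρbar.ρ ((g a : AlgebraicClosure ℚ ≃ₐ[ℚ] AlgebraicClosure ℚ) *
              (g b : AlgebraicClosure ℚ ≃ₐ[ℚ] AlgebraicClosure ℚ)))).det ≠ 0 := by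
  constructor
  · intro h H hH
    exact exists_gram_of_twCond ρbar h H hH
  · intro h K _ _ H hH V hV
    obtain ⟨g, hg⟩ := h H hH
    exact twCond_of_gram ρbar K H g hg V hV

/-- Traces of the residual representation of a base change. -/
theorem trace_residual_baseChangeAlong {A B : Type} [CommRing A] [IsLocalRing A]
    [CommRing B] [IsLocalRing B] (φ : A →+* B) (hφ : IsLocalHom φ) (ρ : GaloisRepAdic A)
    (σ : AlgebraicClosure ℚ ≃ₐ[ℚ] AlgebraicClosure ℚ) :
    haveI := hφ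
    LinearMap.trace (ResidueField B) (ρ.baseChangeAlong φ hφ).residual.V
        ((ρ.baseChangeAlong φ hφ).residual.ρ σ) =
      ResidueField.map φ (LinearMap.trace (ResidueField A) ρ.residual.V (ρ.residual.ρ σ)) := by
  have := hφ
  let _ : Algebra A B := φ.toAlgebra
  have e1 : LinearMap.trace (ResidueField A) ρ.residual.V (ρ.residual.ρ σ) =
      residue A (LinearMap.trace A ρ.V (ρ.ρ σ)) :=
    LinearMap.trace_baseChange (ρ.ρ σ) (ResidueField A)
  have e2 : LinearMap.trace (ResidueField B) (ρ.baseChangeAlong φ hφ).residual.V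
      ((ρ.baseChangeAlong φ hφ).residual.ρ σ) =
      residue B (LinearMap.trace B (ρ.baseChangeAlong φ hφ).V ((ρ.baseChangeAlong φ hφ).ρ σ)) :=
    LinearMap.trace_baseChange ((ρ.baseChangeAlong φ hφ).ρ σ) (ResidueField B)
  have e3 : LinearMap.trace B (ρ.baseChangeAlong φ hφ).V ((ρ.baseChangeAlong φ hφ).ρ σ) =
      φ (LinearMap.trace A ρ.V (ρ.ρ σ)) :=
    LinearMap.trace_baseChange (ρ.ρ σ) B
  rw [e1, e2, e3]
  rfl

/-- **The Taylor–Wiles condition is preserved by base change along a local homomorphism.** -/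
theorem twCond_baseChangeAlong {A B : Type} [CommRing A] [IsLocalRing A]
    [CommRing B] [IsLocalRing B] (φ : A →+* B) (hφ : IsLocalHom φ) (ρ : GaloisRepAdic A)
    (h : Fermat.Agent.S59.TWCond ρ.residual) :
    Fermat.Agent.S59.TWCond (ρ.baseChangeAlong φ hφ).residual := by
  have := hφ
  rw [twCond_iff_gram] at h ⊢
  intro H hH
  obtain ⟨g, hg⟩ := h H hH
  refine ⟨g, ?_⟩
  have hmap : (Matrix.of fun a b => LinearMap.trace (ResidueField B)
        (ρ.baseChangeAlong φ hφ).residual.V ((ρ.baseChangeAlong φ hφ).residual.ρ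
          ((g a : AlgebraicClosure ℚ ≃ₐ[ℚ] AlgebraicClosure ℚ) *
            (g b : AlgebraicClosure ℚ ≃ₐ[ℚ] AlgebraicClosure ℚ)))) =
      (Matrix.of fun a b => LinearMap.trace (ResidueField A) ρ.residual.V
        (ρ.residual.ρ ((g a : AlgebraicClosure ℚ ≃ₐ[ℚ] AlgebraicClosure ℚ) *
          (g b : AlgebraicClosure ℚ ≃ₐ[ℚ] AlgebraicClosure ℚ)))).map (ResidueField.map φ) := by
    ext a b
    simp only [Matrix.of_apply, Matrix.map_apply]
    exact trace_residual_baseChangeAlong φ hφ ρ _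
  rw [hmap, ← RingHom.mapMatrix_apply, ← RingHom.map_det]
  exact fun h0 => hg ((map_eq_zero _).mp h0)

end Fermat.Agent.S59.H99

end
-- ==== END Fermat.Agent.S59.H99_SplitTW

-- ==== BEGIN Fermat.Agent.S59.NumCrit.H90_OmegaFree
section

/-!
# S59 NUMCRIT: Diamond's congruence module of a free module

`Ω(M) = M / (M[𝔭] + M[I])`, `𝔭 = ker π`, `I = Ann 𝔭`.  If `M ≃ T^d` and `η = π(I) ≠ 0` then
`#Ω(M) = #(𝒪/η)^d` (`card_omega_of_free`).
-/

set_option autoImplicit false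

namespace Fermat.Agent.S59.NumCrit.H90

section omega

variable {𝒪 : Type*} [CommRing 𝒪] {T : Type*} [CommRing T] [Algebra 𝒪 T] (π : T →ₐ[𝒪] 𝒪)

/-- the submodule `M[𝔭] + M[I]` defining Diamond's congruence module. -/
def omegaSub (M : Type*) [AddCommGroup M] [Module T M] : Submodule T M :=
  Submodule.torsionBySet T M (RingHom.ker π : Set T)
    ⊔ Submodule.torsionBySet T M ((RingHom.ker π).annihilator : Set T)

theorem omegaSub_def (M : Type*) [AddCommGroup M] [Module T M] :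
    omegaSub π M = Submodule.torsionBySet T M (RingHom.ker π : Set T)
      ⊔ Submodule.torsionBySet T M ((RingHom.ker π).annihilator : Set T) := rfl

variable {π}

theorem torsionBySet_map_equiv {M M' : Type*} [AddCommGroup M] [Module T M] [AddCommGroup M']
    [Module T M'] (e : M ≃ₗ[T] M') (s : Set T) :
    (Submodule.torsionBySet T M s).map (e : M →ₗ[T] M') = Submodule.torsionBySet T M' s := by
  ext x
  constructor
  · rintro ⟨m, hm, rfl⟩
    have hm' : m ∈ Submodule.torsionBySet T M s := hm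
    rw [Submodule.mem_torsionBySet_iff] at hm' ⊢
    intro a
    show a.1 • e m = 0
    rw [← map_smul, hm' a, map_zero]
  · intro hx
    refine ⟨e.symm x, ?_, e.apply_symm_apply x⟩
    show e.symm x ∈ Submodule.torsionBySet T M s
    rw [Submodule.mem_torsionBySet_iff] at hx ⊢
    intro a
    rw [← map_smul, hx a, map_zero]

theorem omegaSub_map_equiv {M M' : Type*} [AddCommGroup M] [Module T M] [AddCommGroup M']
    [Module T M'] (e : M ≃ₗ[T] M') :
    (omegaSub π M).map (e : M →ₗ[T] M') = omegaSub π M' := by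
  rw [omegaSub_def, omegaSub_def, Submodule.map_sup, torsionBySet_map_equiv, torsionBySet_map_equiv]

/-- `T[𝔭] = Ann 𝔭`. -/
theorem torsionBySet_ker_self :
    Submodule.torsionBySet T T (RingHom.ker π : Set T) = (RingHom.ker π).annihilator := by
  ext t
  rw [Submodule.mem_torsionBySet_iff, Submodule.mem_annihilator]
  constructor
  · intro h a ha
    have := h ⟨a, ha⟩
    rw [smul_eq_mul] at this ⊢
    rw [mul_comm]; exact this
  · rintro h ⟨a, ha⟩
    have := h a ha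
    rw [smul_eq_mul] at this ⊢
    rw [mul_comm]; exact this

/-- `T[I] = 𝔭` when `η ≠ 0`. -/
theorem torsionBySet_annihilator_self [IsDomain 𝒪] (hη : eta π ≠ ⊥) :
    Submodule.torsionBySet T T ((RingHom.ker π).annihilator : Set T) = RingHom.ker π := by
  obtain ⟨e, he, he0⟩ := Submodule.exists_mem_ne_zero_of_ne_bot hη
  obtain ⟨i, hi, rfl⟩ := mem_eta_iff.mp he
  ext t
  rw [Submodule.mem_torsionBySet_iff]
  constructor
  · intro h
    have h1 := h ⟨i, hi⟩
    have h2 : π i * π t = 0 := by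
      rw [← map_mul]
      have : i * t = 0 := h1
      rw [this, map_zero]
    rcases mul_eq_zero.mp h2 with h3 | h3
    · exact absurd h3 he0
    · exact h3
  · rintro h ⟨a, ha⟩
    exact (Submodule.mem_annihilator.mp ha) t h

/-- `T / (I + 𝔭) ≃ 𝒪 / η`. -/
theorem nonempty_quotient_equiv_eta :
    Nonempty ((T ⧸ ((RingHom.ker π).annihilator ⊔ RingHom.ker π)) ≃ (𝒪 ⧸ eta π)) := by
  have hsurj : Function.Surjective π := fun a => ⟨algebraMap 𝒪 T a, by rw [π.commutes]; rfl⟩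
  -- the composite `T → 𝒪 → 𝒪/η` is onto with kernel `I + 𝔭`
  let f : T →+* 𝒪 ⧸ eta π := (Ideal.Quotient.mk (eta π)).comp (π : T →+* 𝒪)
  have hf : Function.Surjective f := Ideal.Quotient.mk_surjective.comp hsurj
  have hker : RingHom.ker f = (RingHom.ker π).annihilator ⊔ RingHom.ker π := by
    ext t
    rw [RingHom.mem_ker]
    show Ideal.Quotient.mk (eta π) (π t) = 0 ↔ _
    rw [Ideal.Quotient.eq_zero_iff_mem, mem_eta_iff]
    constructor
    · rintro ⟨i, hi, hit⟩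
      have : t = i + (t - i) := by ring
      rw [this]
      refine Submodule.add_mem_sup hi ?_
      rw [RingHom.mem_ker, map_sub, hit, sub_self]
    · intro ht
      obtain ⟨i, hi, u, hu, rfl⟩ := Submodule.mem_sup.mp ht
      refine ⟨i, hi, ?_⟩
      rw [map_add, (RingHom.mem_ker).mp hu, add_zero]
  exact ⟨((Ideal.quotEquivOfEq hker.symm).trans
    (RingHom.quotientKerEquivOfSurjective hf)).toEquiv⟩

theorem omegaSub_pi [IsDomain 𝒪] (hη : eta π ≠ ⊥) (d : ℕ) :
    omegaSub π (Fin d → T)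
      = Submodule.pi Set.univ fun _ : Fin d =>
          (((RingHom.ker π).annihilator ⊔ RingHom.ker π : Ideal T) : Submodule T T) := by
  ext f
  rw [omegaSub_def, Submodule.mem_pi]
  constructor
  · intro hf j _
    obtain ⟨u, hu, v, hv, rfl⟩ := Submodule.mem_sup.mp hf
    rw [Submodule.mem_torsionBySet_iff] at hu hv
    refine Submodule.add_mem_sup ?_ ?_
    · rw [← torsionBySet_ker_self, Submodule.mem_torsionBySet_iff]
      intro a
      exact congrFun (hu a) j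
    · rw [← torsionBySet_annihilator_self hη, Submodule.mem_torsionBySet_iff]
      intro a
      exact congrFun (hv a) j
  · intro hf
    have h1 : ∀ j, ∃ u ∈ (RingHom.ker π).annihilator, ∃ v ∈ RingHom.ker π, u + v = f j := fun j =>
      Submodule.mem_sup.mp (hf j (Set.mem_univ j))
    choose u hu v hv huv using h1
    have : f = u + v := by
      funext j
      exact (huv j).symm
    rw [this]
    refine Submodule.add_mem_sup ?_ ?_
    · rw [Submodule.mem_torsionBySet_iff]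
      intro a
      funext j
      have := hu j
      rw [← torsionBySet_ker_self, Submodule.mem_torsionBySet_iff] at this
      exact this a
    · rw [Submodule.mem_torsionBySet_iff]
      intro a
      funext j
      have := hv j
      rw [← torsionBySet_annihilator_self hη, Submodule.mem_torsionBySet_iff] at this
      exact this a

/-- **OMEGA-FREE**. -/
theorem card_omega_of_free [IsDomain 𝒪]
    {M : Type*} [AddCommGroup M] [Module T M] (d : ℕ) (e : M ≃ₗ[T] (Fin d → T))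
    (hη : eta π ≠ ⊥) :
    Nat.card (M ⧸ (Submodule.torsionBySet T M (RingHom.ker π : Set T)
        ⊔ Submodule.torsionBySet T M ((RingHom.ker π).annihilator : Set T)))
      = Nat.card (𝒪 ⧸ eta π) ^ d := by
  classical
  have e1 : (M ⧸ omegaSub π M) ≃ₗ[T] ((Fin d → T) ⧸ omegaSub π (Fin d → T)) :=
    Submodule.Quotient.equiv _ _ e (omegaSub_map_equiv e)
  have e2 : ((Fin d → T) ⧸ omegaSub π (Fin d → T)) ≃ₗ[T]
      ((Fin d → T) ⧸ Submodule.pi Set.univ fun _ : Fin d =>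
          (((RingHom.ker π).annihilator ⊔ RingHom.ker π : Ideal T) : Submodule T T)) :=
    Submodule.quotEquivOfEq _ _ (omegaSub_pi hη d)
  have e3 := Submodule.quotientPi (R := T) (fun _ : Fin d =>
          (((RingHom.ker π).annihilator ⊔ RingHom.ker π : Ideal T) : Submodule T T))
  obtain ⟨e4⟩ := nonempty_quotient_equiv_eta (π := π)
  show Nat.card (M ⧸ omegaSub π M) = _
  rw [Nat.card_congr e1.toEquiv, Nat.card_congr e2.toEquiv, Nat.card_congr e3.toEquiv,
    Nat.card_pi, Finset.prod_const, Finset.card_univ, Fintype.card_fin]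
  congr 1
  exact Nat.card_congr e4

end omega

end Fermat.Agent.S59.NumCrit.H90

end
-- ==== END Fermat.Agent.S59.NumCrit.H90_OmegaFree

-- ==== BEGIN Fermat.Agent.S59.Patch.Main
section

/-!
# S59 / PATCH (helper53): patching

`Fermat.Agent.S59.Patch.patch`: a patching datum (a patching level with relation ideal
`((1 + X_j) ^ (p ^ n) - 1)_j` for every `n`) over a complete discrete valuation ring `𝒪` with
finite residue field of characteristic `p`, for a complete noetherian local `𝒪`-algebra `R`,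
gives a patching level with relation ideal `⊥` (to which S57 applies).

The proof takes limits along a non-principal ultrafilter on `ℕ` (`Limit.lean`).
-/

set_option autoImplicit false
set_option linter.style.haveILetI false
set_option linter.unusedSectionVars false

namespace Fermat.Agent.S59.Patch

open IsLocalRing MvPowerSeries Filter

section Assemble

variable {𝒪 : Type} [CommRing 𝒪] [IsLocalRing 𝒪]
  {r : ℕ} {R : Type} [CommRing R] [IsLocalRing R] [Algebra 𝒪 R]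
  {M : Type} [AddCommGroup M] [Module R M] {d : ℕ}
  [IsAdicComplete (maximalIdeal (MvPowerSeries (Fin r) 𝒪)) (MvPowerSeries (Fin r) 𝒪)]
  [FinQuot (maximalIdeal (MvPowerSeries (Fin r) 𝒪)) (MvPowerSeries (Fin r) 𝒪)]
  [IsAdicComplete (maximalIdeal (MvPowerSeries (Fin r) 𝒪)) (Fin d → MvPowerSeries (Fin r) 𝒪)]
  [FinQuot (maximalIdeal (MvPowerSeries (Fin r) 𝒪)) (Fin d → MvPowerSeries (Fin r) 𝒪)]
  [IsAdicComplete (maximalIdeal R) R] [FinQuot (maximalIdeal R) R]
  [IsAdicComplete (maximalIdeal R) M] [FinQuot (maximalIdeal R) M]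
  {J : ℕ → Ideal (MvPowerSeries (Fin r) 𝒪)} (L : ∀ n, LevelD 𝒪 r R M (J n) d)
  (𝔘 : Ultrafilter ℕ)

/-- The limit level. -/
noncomputable def limLevel (h𝔘 : (𝔘 : Filter ℕ) ≤ atTop)
    (hJ : ∀ n, J n ≤ maximalIdeal (MvPowerSeries (Fin r) 𝒪) ^ (n + 1)) :
    LevelD 𝒪 r R M ⊥ d where
  N := Ninf L 𝔘
  φ := phiInf L 𝔘
  ψ := psiInf L 𝔘
  ψ_surjective := psiInf_surjective L 𝔘
  ψ_φ_X := psiInf_phiInf_X L 𝔘
  π := piInf L 𝔘
  π_smul := piInf_smul L 𝔘
  π_surjective := piInf_surjective L 𝔘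
  ker_π := ker_piInf L 𝔘 h𝔘
  b := fun i => Submodule.Quotient.mk (Pi.single i 1)
  b_span := b_span_inf L 𝔘
  b_rel := b_rel_inf L 𝔘 h𝔘 hJ

end Assemble

/-- **PATCH**: a patching datum gives a patching level with trivial relation ideal. -/
theorem patch {𝒪 : Type} [CommRing 𝒪] [IsDomain 𝒪] [IsDiscreteValuationRing 𝒪]
    [IsAdicComplete (maximalIdeal 𝒪) 𝒪] [Finite (ResidueField 𝒪)]
    {p : ℕ} (hp : (p : 𝒪) ∈ maximalIdeal 𝒪)
    {r : ℕ} {R : Type} [CommRing R] [IsLocalRing R] [IsNoetherianRing R]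
    [IsAdicComplete (maximalIdeal R) R] [Algebra 𝒪 R] [IsLocalHom (algebraMap 𝒪 R)]
    (hres : Function.Surjective (residue R ∘ algebraMap 𝒪 R))
    {M : Type} [AddCommGroup M] [Module R M]
    (D : Algebra.PatchingDatum 𝒪 p r R M) :
    Nonempty (Algebra.PatchingLevel 𝒪 r R M ⊥) := by
  -- the rank
  letI : Module 𝒪 M := Module.compHom M (algebraMap 𝒪 R)
  haveI : IsScalarTower 𝒪 R M := ⟨fun a b x => by
    change (a • b) • x = algebraMap 𝒪 R a • (b • x)
    rw [Algebra.smul_def, mul_smul]⟩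
  have hd : ∀ n, (D.level n).d = (D.level 0).d := by
    intro n
    have h1 := finrank_eq (LevelD.ofLevel (D.level n) rfl) (relIdeal_le_span_X r p n)
    have h2 := finrank_eq (LevelD.ofLevel (D.level 0) rfl) (relIdeal_le_span_X r p 0)
    rw [← h1, ← h2]
  set d := (D.level 0).d with hd0
  let L : ∀ n, LevelD 𝒪 r R M (relIdeal r p n) d := fun n => LevelD.ofLevel (D.level n) (hd n)
  -- the profinite structures
  haveI : IsAdicComplete (maximalIdeal (MvPowerSeries (Fin r) 𝒪)) (MvPowerSeries (Fin r) 𝒪) :=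
    Fermat.Agent.S53.Limit.isAdicComplete_mvPowerSeries_fin 𝒪 r
  haveI : IsLocalHom (algebraMap 𝒪 (MvPowerSeries (Fin r) 𝒪)) :=
    Fermat.Agent.S53.Limit.isLocalHom_algebraMap_mvPowerSeries 𝒪 (Fin r)
  haveI : Finite (ResidueField (MvPowerSeries (Fin r) 𝒪)) :=
    Fermat.Agent.S53.H50.finite_residueField_of_surjective 𝒪 (MvPowerSeries (Fin r) 𝒪)
      (Fermat.Agent.S53.Limit.residue_surjective_mvPowerSeries 𝒪 (Fin r))
  haveI : FinQuot (maximalIdeal (MvPowerSeries (Fin r) 𝒪)) (MvPowerSeries (Fin r) 𝒪) :=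
    finQuot_of_isLocalRing _
  haveI : IsAdicComplete (maximalIdeal (MvPowerSeries (Fin r) 𝒪))
      (Fin d → MvPowerSeries (Fin r) 𝒪) :=
    IsAdicComplete.of_module_finite _ _
  haveI : FinQuot (maximalIdeal (MvPowerSeries (Fin r) 𝒪)) (Fin d → MvPowerSeries (Fin r) 𝒪) :=
    finQuot_of_finite _
  haveI : Finite (ResidueField R) :=
    Fermat.Agent.S53.H50.finite_residueField_of_surjective 𝒪 R hres
  haveI : FinQuot (maximalIdeal R) R := finQuot_of_isLocalRing _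
  haveI : Module.Finite R M := moduleFinite (L 0)
  haveI : IsAdicComplete (maximalIdeal R) M := IsAdicComplete.of_module_finite _ _
  haveI : FinQuot (maximalIdeal R) M := finQuot_of_finite _
  -- a non-principal ultrafilter
  have h𝔘 : ((hyperfilter ℕ : Ultrafilter ℕ) : Filter ℕ) ≤ atTop := by
    rw [← Nat.cofinite_eq_atTop]
    exact hyperfilter_le_cofinite
  exact ⟨(limLevel L (hyperfilter ℕ) h𝔘 (fun n => relIdeal_le_pow r hp n)).toLevel⟩

end Fermat.Agent.S59.Patch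

end
-- ==== END Fermat.Agent.S59.Patch.Main

-- ==== BEGIN Fermat.Agent.S59.TWDatum
section

/-!
# S59 wiring (helper53): package TW-DATUM

The interface between the three inputs of the Taylor–Wiles argument
(S56: `γ : 𝒪⟦x₁,…,x_r⟧ ↠ R_Q`; TW-GAL: the elements `δ_j = χ₁(σ_{q_j}) ∈ R_Q` and `τ : R_Q ↠ R`;
TW-HECKE: the `R_Q`-module `N` free over `𝒪[Δ_Q / p^n]`) and the prelude structure
`Algebra.PatchingDatum`.

* `TWLevel 𝒪 p r R M n` : the data at level `n`, in ring-theoretic form.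
* `Stmt_DIV` : division by the ideal `J_n = ((1 + X_j)^(p^n) - 1)_j` in `𝒪⟦X₁,…,X_r⟧`.
* `TWLevel.toPatchingLevel`, `patchingDatum_of_twLevels` : the assembly.
-/

set_option autoImplicit false
set_option linter.style.haveILetI false
set_option linter.unusedSectionVars false

open IsLocalRing MvPowerSeries

namespace Fermat.Agent.S59

/-- The monomial `∏_j (1 + X_j)^(e_j)` in `𝒪⟦X₁,…,X_r⟧`. -/
noncomputable def onePlusXPow (𝒪 : Type) [CommRing 𝒪] {r : ℕ} {m : ℕ} (e : Fin r → Fin m) :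
    MvPowerSeries (Fin r) 𝒪 :=
  ∏ j, (1 + X j) ^ (e j : ℕ)

/-- The relation ideal `J_n` of `Algebra.PatchingDatum.level`. -/
noncomputable def twIdeal (𝒪 : Type) [CommRing 𝒪] (p r n : ℕ) : Ideal (MvPowerSeries (Fin r) 𝒪) :=
  Ideal.span (Set.range fun j : Fin r =>
    ((1 + MvPowerSeries.X j) ^ (p ^ n) - 1 : MvPowerSeries (Fin r) 𝒪))

/-- **DIV**: every power series is congruent modulo `J_n` to an `𝒪`-combination of the
`∏_j (1 + X_j)^(e_j)`, `e_j < p^n`. -/
def Stmt_DIV (𝒪 : Type) [CommRing 𝒪] (p r n : ℕ) : Prop :=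
  ∀ c : MvPowerSeries (Fin r) 𝒪, ∃ a : (Fin r → Fin (p ^ n)) → 𝒪,
    c - ∑ e, C (a e) * onePlusXPow 𝒪 e ∈ twIdeal 𝒪 p r n

/-- The data of the Taylor–Wiles argument at level `n`. -/
structure TWLevel (𝒪 : Type) [CommRing 𝒪] [IsLocalRing 𝒪] (p r : ℕ) (R : Type) [CommRing R]
    [Algebra 𝒪 R]
    (M : Type) [AddCommGroup M] [Module R M] (n : ℕ) : Type 1 where
  /-- the deformation ring `R_Q` -/
  RQ : Type
  [instCommRing : CommRing RQ]
  [instAlgebra : Algebra 𝒪 RQ]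
  /-- S56 -/
  γ : MvPowerSeries (Fin r) 𝒪 →ₐ[𝒪] RQ
  γ_surjective : Function.Surjective γ
  /-- forgetting the ramification at `Q` -/
  τ : RQ →ₐ[𝒪] R
  τ_surjective : Function.Surjective τ
  /-- the images of the generators of `Δ_Q` (TW-GAL) -/
  δ : Fin r → RQ
  δ_sub_one : ∀ j, ∃ y ∈ maximalIdeal (MvPowerSeries (Fin r) 𝒪), γ y = δ j - 1
  τ_δ : ∀ j, τ (δ j) = 1
  /-- the Hecke module (TW-HECKE) -/
  N : Type
  [instAddCommGroup : AddCommGroup N]
  [instModule : Module RQ N]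
  δ_pow : ∀ (j : Fin r) (x : N), (δ j ^ (p ^ n)) • x = x
  π : N →+ M
  π_smul : ∀ (a : RQ) (x : N), π (a • x) = τ a • π x
  π_surjective : Function.Surjective π
  ker_π : ∀ x : N, π x = 0 ↔
    x ∈ (Ideal.span (Set.range fun j : Fin r => δ j - 1)) • (⊤ : Submodule RQ N)
  d : ℕ
  b : Fin d → N
  b_basis : Function.Bijective (fun f : Fin d × (Fin r → Fin (p ^ n)) → 𝒪 =>
    ∑ x : Fin d × (Fin r → Fin (p ^ n)),
      (algebraMap 𝒪 RQ (f x) * ∏ j, δ j ^ (x.2 j : ℕ)) • b x.1)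

attribute [instance] TWLevel.instCommRing TWLevel.instAlgebra TWLevel.instAddCommGroup
  TWLevel.instModule

namespace TWLevel

variable {𝒪 : Type} [CommRing 𝒪] [IsLocalRing 𝒪] [IsNoetherianRing 𝒪]
  [IsAdicComplete (maximalIdeal 𝒪) 𝒪]
  {p r : ℕ} {R : Type} [CommRing R] [Algebra 𝒪 R]
  {M : Type} [AddCommGroup M] [Module R M] {n : ℕ}

/-- the chosen preimages of `δ_j - 1` -/
noncomputable def y (L : TWLevel 𝒪 p r R M n) (j : Fin r) : MvPowerSeries (Fin r) 𝒪 :=
  (L.δ_sub_one j).choose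

theorem y_mem (L : TWLevel 𝒪 p r R M n) (j : Fin r) :
    L.y j ∈ maximalIdeal (MvPowerSeries (Fin r) 𝒪) :=
  (L.δ_sub_one j).choose_spec.1

theorem γ_y (L : TWLevel 𝒪 p r R M n) (j : Fin r) : L.γ (L.y j) = L.δ j - 1 :=
  (L.δ_sub_one j).choose_spec.2

theorem exists_φ (L : TWLevel 𝒪 p r R M n) :
    ∃ φ : MvPowerSeries (Fin r) 𝒪 →ₐ[𝒪] MvPowerSeries (Fin r) 𝒪,
      ∀ j, φ (X j) = L.y j := by
  haveI : IsAdicComplete (maximalIdeal (MvPowerSeries (Fin r) 𝒪)) (MvPowerSeries (Fin r) 𝒪) :=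
    Fermat.Agent.S53.Limit.isAdicComplete_mvPowerSeries_fin 𝒪 r
  exact Fermat.Agent.S56.H50.exists_eval r (fun j => L.y j) (fun j => L.y_mem j)

/-- the substitution `X_j ↦ y_j` -/
noncomputable def φ (L : TWLevel 𝒪 p r R M n) :
    MvPowerSeries (Fin r) 𝒪 →ₐ[𝒪] MvPowerSeries (Fin r) 𝒪 :=
  L.exists_φ.choose

theorem φ_X (L : TWLevel 𝒪 p r R M n) (j : Fin r) : L.φ (X j) = L.y j :=
  L.exists_φ.choose_spec j

theorem γ_φ_X (L : TWLevel 𝒪 p r R M n) (j : Fin r) : L.γ (L.φ (X j)) = L.δ j - 1 := by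
  rw [L.φ_X, L.γ_y]

theorem γ_φ_onePlusXPow (L : TWLevel 𝒪 p r R M n) {m : ℕ} (e : Fin r → Fin m) :
    L.γ (L.φ (onePlusXPow 𝒪 e)) = ∏ j, L.δ j ^ (e j : ℕ) := by
  rw [onePlusXPow, map_prod, map_prod]
  refine Finset.prod_congr rfl fun j _ => ?_
  rw [map_pow, map_pow, map_add, map_add, map_one, map_one, L.γ_φ_X]
  congr 1
  ring

theorem γ_φ_C (L : TWLevel 𝒪 p r R M n) (a : 𝒪) :
    L.γ (L.φ (C a)) = algebraMap 𝒪 L.RQ a := by
  have h1 : (C a : MvPowerSeries (Fin r) 𝒪) = algebraMap 𝒪 (MvPowerSeries (Fin r) 𝒪) a := rfl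
  rw [h1, AlgHom.commutes, AlgHom.commutes]

/-- elements of `γ (φ J_n)` kill `N` -/
theorem γ_φ_smul_eq_zero (L : TWLevel 𝒪 p r R M n) {c : MvPowerSeries (Fin r) 𝒪}
    (hc : c ∈ twIdeal 𝒪 p r n) (x : L.N) : L.γ (L.φ c) • x = 0 := by
  rw [twIdeal] at hc
  obtain ⟨h, rfl⟩ := (Ideal.mem_span_range_iff_exists_fun).mp hc
  rw [map_sum, map_sum, Finset.sum_smul]
  refine Finset.sum_eq_zero fun j _ => ?_
  rw [map_mul, map_mul, map_sub, map_sub, map_pow, map_pow, map_add, map_add, map_one, map_one,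
    L.γ_φ_X, mul_smul]
  have : (1 + (L.δ j - 1)) ^ (p ^ n) = L.δ j ^ (p ^ n) := by congr 1; ring
  rw [this, sub_smul, L.δ_pow, one_smul, sub_self, smul_zero]

/-- The patching level attached to a Taylor–Wiles level. -/
noncomputable def toPatchingLevel (L : TWLevel 𝒪 p r R M n) (hDIV : Stmt_DIV 𝒪 p r n) :
    Algebra.PatchingLevel 𝒪 r R M (twIdeal 𝒪 p r n) :=
  letI : Module (MvPowerSeries (Fin r) 𝒪) L.N :=
    Module.compHom L.N (L.γ : MvPowerSeries (Fin r) 𝒪 →+* L.RQ)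
  have hsm : ∀ (f : MvPowerSeries (Fin r) 𝒪) (x : L.N), f • x = L.γ f • x := fun _ _ => rfl
  { N := L.N
    φ := L.φ
    ψ := L.τ.comp L.γ
    ψ_surjective := L.τ_surjective.comp L.γ_surjective
    ψ_φ_X := fun j => by
      show L.τ (L.γ (L.φ (X j))) = 0
      rw [L.γ_φ_X, map_sub, L.τ_δ, map_one, sub_self]
    π := L.π
    π_smul := fun f x => by
      rw [hsm, L.π_smul]
      rfl
    π_surjective := L.π_surjective
    ker_π := fun x => by
      rw [L.ker_π]
      constructor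
      · intro hx
        obtain ⟨z, rfl⟩ := Fermat.Agent.S59.Patch.exists_sum_of_mem_span_smul_top _ hx
        refine Submodule.sum_mem _ fun j _ => ?_
        have : (L.δ j - 1) • z j = L.φ (X j) • z j := by
          rw [hsm, L.γ_φ_X]
        rw [this]
        exact Submodule.smul_mem_smul (Ideal.subset_span ⟨j, rfl⟩) Submodule.mem_top
      · intro hx
        obtain ⟨z, rfl⟩ := Fermat.Agent.S59.Patch.exists_sum_of_mem_span_smul_top _ hx
        refine Submodule.sum_mem _ fun j _ => ?_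
        have : L.φ (X j) • z j = (L.δ j - 1) • z j := by
          rw [hsm, L.γ_φ_X]
        rw [this]
        exact Submodule.smul_mem_smul (Ideal.subset_span ⟨j, rfl⟩) Submodule.mem_top
    d := L.d
    b := L.b
    b_span := fun x => by
      obtain ⟨f, hf⟩ := L.b_basis.2 x
      refine ⟨fun i => ∑ e, C (f (i, e)) * onePlusXPow 𝒪 e, ?_⟩
      rw [← hf]
      show ∑ x : Fin L.d × (Fin r → Fin (p ^ n)),
          (algebraMap 𝒪 L.RQ (f x) * ∏ j, L.δ j ^ (x.2 j : ℕ)) • L.b x.1 = _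
      rw [Fintype.sum_prod_type]
      refine Finset.sum_congr rfl fun i _ => ?_
      rw [hsm, map_sum, map_sum, Finset.sum_smul]
      refine Finset.sum_congr rfl fun e _ => ?_
      rw [map_mul, map_mul, L.γ_φ_C, L.γ_φ_onePlusXPow]
    b_rel := fun c => by
      constructor
      · intro h i
        choose a ha using fun i => hDIV (c i)
        have h1 : ∀ i, L.φ (c i) • L.b i =
            ∑ e, (algebraMap 𝒪 L.RQ (a i e) * ∏ j, L.δ j ^ (e j : ℕ)) • L.b i := by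
          intro i
          have h2 : c i = (c i - ∑ e, C (a i e) * onePlusXPow 𝒪 e) +
              ∑ e, C (a i e) * onePlusXPow 𝒪 e := by ring
          rw [hsm]
          conv_lhs => rw [h2]
          rw [map_add, map_add, add_smul, L.γ_φ_smul_eq_zero (ha i), zero_add, map_sum, map_sum,
            Finset.sum_smul]
          refine Finset.sum_congr rfl fun e _ => ?_
          rw [map_mul, map_mul, L.γ_φ_C, L.γ_φ_onePlusXPow]
        have h3 : (fun f : Fin L.d × (Fin r → Fin (p ^ n)) → 𝒪 =>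
            ∑ x : Fin L.d × (Fin r → Fin (p ^ n)),
              (algebraMap 𝒪 L.RQ (f x) * ∏ j, L.δ j ^ (x.2 j : ℕ)) • L.b x.1)
            (fun x => a x.1 x.2) = 0 := by
          show ∑ x : Fin L.d × (Fin r → Fin (p ^ n)),
              (algebraMap 𝒪 L.RQ (a x.1 x.2) * ∏ j, L.δ j ^ (x.2 j : ℕ)) • L.b x.1 = 0
          rw [Fintype.sum_prod_type, ← h]
          exact Finset.sum_congr rfl fun i _ => (h1 i).symm
        have h4 : (fun f : Fin L.d × (Fin r → Fin (p ^ n)) → 𝒪 =>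
            ∑ x : Fin L.d × (Fin r → Fin (p ^ n)),
              (algebraMap 𝒪 L.RQ (f x) * ∏ j, L.δ j ^ (x.2 j : ℕ)) • L.b x.1) 0 = 0 := by
          show ∑ x : Fin L.d × (Fin r → Fin (p ^ n)),
              (algebraMap 𝒪 L.RQ ((0 : Fin L.d × (Fin r → Fin (p ^ n)) → 𝒪) x) *
                ∏ j, L.δ j ^ (x.2 j : ℕ)) • L.b x.1 = 0
          simp
        have h5 := L.b_basis.1 (h3.trans h4.symm)
        have h6 : ∀ e, a i e = 0 := fun e => congrFun h5 (i, e)
        have h7 := ha i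
        simp only [h6, map_zero, zero_mul, Finset.sum_const_zero, sub_zero] at h7
        exact h7
      · intro h
        refine Finset.sum_eq_zero fun i _ => ?_
        rw [hsm]
        exact L.γ_φ_smul_eq_zero (h i) _ }

end TWLevel

/-- **TW-DATUM**: Taylor–Wiles levels for all `n` give a patching datum. -/
theorem patchingDatum_of_twLevels
    {𝒪 : Type} [CommRing 𝒪] [IsLocalRing 𝒪] [IsNoetherianRing 𝒪]
    [IsAdicComplete (maximalIdeal 𝒪) 𝒪]
    {p r : ℕ} {R : Type} [CommRing R] [Algebra 𝒪 R]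
    {M : Type} [AddCommGroup M] [Module R M]
    (hDIV : ∀ n, Stmt_DIV 𝒪 p r n)
    (L : ∀ n, Nonempty (TWLevel 𝒪 p r R M n)) :
    Nonempty (Algebra.PatchingDatum 𝒪 p r R M) :=
  ⟨⟨fun n => (L n).some.toPatchingLevel (hDIV n)⟩⟩

end Fermat.Agent.S59

end
-- ==== END Fermat.Agent.S59.TWDatum

-- ==== BEGIN Fermat.Agent.S59.TWGal.Final
section

set_option autoImplicit false

open Polynomial IsLocalRing

namespace Fermat.Agent.S59.TWGal

/-- **CYCq** (helper52's `Tate.T7.H52.stmt_CYC`). -/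
theorem stmt_CYCq : Stmt_CYCq := fun q hq P hP a ha =>
  Fermat.Agent.Tate.T7.H52.stmt_CYC q hq P hP a ha

/-- **G2c**, unconditional. -/
theorem stmt_G2c : Stmt_G2c :=
  stmt_G2c_of H59.stmt_TAME H01.stmt_MatUnip stmt_CYCq H41.stmt_G2a_final

/-- **TW-GAL, main theorem.** -/
theorem twgal_main (A : Type) [CommRing A] [IsLocalRing A] [IsNoetherianRing A]
    [IsAdicComplete (maximalIdeal A) A] (p : ℕ) (hp : p.Prime) (hpA : (p : A) ∈ maximalIdeal A)
    (ρ : GaloisRepAdic A) (q : ℕ) (hq : q.Prime) (hqA : (q : A) - 1 ∈ maximalIdeal A)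
    (P : ValuationSubring Qb) (hP : P.LiesOverPrime q)
    (hur : ∀ σ ∈ P.inertiaSubgroupIn ℚ, ρ.residual.ρ σ = 1)
    (φ : GQ) (hφ : P.IsFrobeniusAt φ q) (α β : ResidueField A) (hαβ : α ≠ β)
    (hchar : LinearMap.charpoly (ρ.residual.ρ φ) = (X - C α) * (X - C β)) :
    ∃ (b : Module.Basis (Fin 2) A ρ.V) (σ₀ : GQ), σ₀ ∈ P.inertiaSubgroupIn ℚ ∧
      DiagOn ρ P b ∧
      residue A (chi ρ b 0 φ) = α ∧ residue A (chi ρ b 1 φ) = β ∧
      (∀ σ ∈ P.inertiaSubgroupIn ℚ, ∃ j : ℕ, ∀ i : Fin 2, chi ρ b i σ = chi ρ b i σ₀ ^ j) ∧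
      (∀ σ ∈ P.inertiaSubgroupIn ℚ, ∀ i : Fin 2, chi ρ b i σ ^ (q - 1) = 1) ∧
      (∀ σ ∈ P.inertiaSubgroupIn ℚ, ∀ i : Fin 2, chi ρ b i σ - 1 ∈ maximalIdeal A) ∧
      (∀ σ ∈ P.inertiaSubgroupIn ℚ, (∀ ζ : Qb, ζ ^ q = 1 → σ ζ = ζ) →
        ∀ i : Fin 2, chi ρ b i σ = 1) ∧
      (∀ (B : Type) [CommRing B] [IsLocalRing B] (π : A →+* B) (hπ : IsLocalHom π),
        (∀ σ ∈ P.inertiaSubgroupIn ℚ, (ρ.baseChangeAlong π hπ).ρ σ = 1) ↔
          (π (chi ρ b 0 σ₀) = 1 ∧ π (chi ρ b 1 σ₀) = 1)) := by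
  obtain ⟨hres1, hres2⟩ := H4.stmt_RES A ρ
  have hI : InertiaTrivMod ρ P := fun σ hσ => hres1 σ (hur σ hσ)
  have hchar' : (LinearMap.charpoly (ρ.ρ φ)).map (residue A) = (X - C α) * (X - C β) := by
    rw [← hres2]; exact hchar
  have hqp : q ≠ p := by
    rintro rfl
    have h1 : (q : A) - ((q : A) - 1) ∈ maximalIdeal A := (maximalIdeal A).sub_mem hpA hqA
    rw [sub_sub_cancel] at h1
    exact (Ideal.ne_top_iff_one _).1 (maximalIdeal.isMaximal A).ne_top h1
  obtain ⟨b, a₁, a₂, ha₁, ha₂, hb0, hb1, hD⟩ :=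
    stmt_G1 A p hp hpA ρ q hq hqA P hP hI φ hφ α β hαβ hchar'
  have hD' : DiagOn ρ P b := hD
  obtain ⟨σ₀, hσ₀, hgen⟩ := H41.stmt_G2b_final A p hp hpA ρ q hq hqp P hP hI φ hφ b hD'
  refine ⟨b, σ₀, hσ₀, hD', ?_, ?_, hgen, ?_, ?_, ?_, ?_⟩
  · rw [chi, hb0, map_smul, Module.Basis.repr_self, Finsupp.smul_apply, Finsupp.single_eq_same,
      smul_eq_mul, mul_one]
    exact ha₁
  · rw [chi, hb1, map_smul, Module.Basis.repr_self, Finsupp.smul_apply, Finsupp.single_eq_same,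
      smul_eq_mul, mul_one]
    exact ha₂
  · exact fun σ hσ i => H41.stmt_G2a_final A p hp hpA ρ q hq hqp P hP hI φ hφ b hD' σ hσ i
  · intro σ hσ i
    have h := mat_sub_one_mem b (maximalIdeal A) (ρ.ρ σ) (hI σ hσ) i i
    rw [Matrix.sub_apply, Matrix.one_apply_eq, ← chi_eq_mat] at h
    exact h
  · exact fun σ hσ hζ i => stmt_G2c A p hp hpA ρ q hq hqp P hP hI φ hφ b hD' σ hσ hζ i
  · intro B _ _ π hπ
    exact H4.stmt_G3 A ρ P b hD' σ₀ hσ₀ hgen B π hπ

end Fermat.Agent.S59.TWGal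

end
-- ==== END Fermat.Agent.S59.TWGal.Final
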