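-- GENERATED (merged mirror, NOTES/tools/trim/merge3_helper67.py): 8 modules of the originals, bodies verbatim.
import Fermat.Agent.Zm.S43_L02_000
import Fermat.Agent.Zm.S35_L01_001
import Fermat.Agent.Zm.S35_L11_001
import Fermat.Agent.Zm.S35_L10_001
import Fermat.Agent.Zm.S35_L02_001
import Fermat.Agent.Zm.S44_L02_003
import Fermat.Agent.Zm.S43_L01_001
import Fermat.Agent.Zm.S43_L02_003
import Fermat.Agent.Zm.S43_L02_001
import Fermat.Agent.S57.H90_PowerSeriesRegular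

-- ==== BEGIN Fermat.Agent.L.Pivot.Geom.H24_B2BC
section
attribute [local instance 10000] SubalgebraClass.toAlgebra
attribute [local instance 10000] HahnSeries.powerSeriesAlgebra

/-!
# PIVOT, PV-GEOM, leaf PVG-B2 (helper24), part 4b: base change `ℚ̄ → ℂ` of the norm along `α`

`bcC ι N : F_{ℚ̄,N} → F_{ℂ,N}` is the coefficientwise base change.  Main result:

* `bcC_normAlpha` : `bcC ι M (Norm_α f) = Norm_α (bcC ι (M q) f)`.
-/

set_option autoImplicit false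
set_option linter.style.haveILetI false
set_option linter.unusedSectionVars false

open ModularCurve AlgebraicCurve IntermediateField
open scoped MatrixGroups

noncomputable section

namespace Fermat.Agent.L.Pivot.Geom.H24

open Fermat.Agent.GTor.Clo

local notation "Kb" => AlgebraicClosure ℚ

/-- The coefficientwise base change `F_{ℚ̄,N} → F_{ℂ,N}` along `ι`. -/
def bcC (ι : Kb →+* ℂ) (N : ℕ) : Fermat.Agent.S24.FN N →+* GTor.Clo.FN N :=
  Fermat.Agent.GTor.H75.bcHom (L₁ := Kb) (L₂ := Kbar) ι (modularFunctionFieldFull N)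

theorem coe_bcC (ι : Kb →+* ℂ) (N : ℕ) (x : Fermat.Agent.S24.FN N) :
    ((bcC ι N x : GTor.Clo.FN N) : LaurentSeries Kbar) = coeffMap ι (x : LaurentSeries Kb) := rfl

theorem bcC_jdF (ι : Kb →+* ℂ) (N : ℕ) [NeZero N] (d : ℕ) [NeZero d] (hd : d ∣ N) :
    bcC ι N (Fermat.Agent.S24.jdF N d hd) = GTor.Clo.jdF N d hd :=
  Subtype.ext (Fermat.Agent.GTor.H75.coeffMap_coeffEmb' (L₁ := Kb) (L₂ := Kbar) ι _)

variable (M q : ℕ) [NeZero M] [NeZero q]

theorem coe_alphaQ (a : Fermat.Agent.S24.FN M) :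
    ((heckeAlphaBar Kb M q a : Fermat.Agent.S24.FN (M * q)) : LaurentSeries Kb) = a :=
  Fermat.Agent.Lib.HeckeComm.coe_inclFN M (M * q) (dvd_mul_right M q) a

theorem bcC_alpha (ι : Kb →+* ℂ) (a : Fermat.Agent.S24.FN M) :
    bcC ι (M * q) ((heckeAlphaBar Kb M q).toRingHom a)
      = (alphaC M q).toRingHom (bcC ι M a) := by
  apply Subtype.ext
  show ((bcC ι (M * q) (heckeAlphaBar Kb M q a) : GTor.Clo.FN (M * q)) : LaurentSeries Kbar)
    = ((alphaC M q (bcC ι M a) : GTor.Clo.FN (M * q)) : LaurentSeries Kbar)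
  rw [coe_alphaC, coe_bcC, coe_bcC, coe_alphaQ]

theorem finrank_alpha_eq :
    (letI := (heckeAlphaBar Kb M q).toRingHom.toAlgebra;
      Module.finrank (Fermat.Agent.S24.FN M) (Fermat.Agent.S24.FN (M * q)))
      = (letI := (alphaC M q).toRingHom.toAlgebra; Module.finrank (GTor.Clo.FN M) (GTor.Clo.FN (M * q))) := by
  have h1 := Fermat.Agent.Lib.HeckeComm.stmt_Deg M (M * q) (dvd_mul_right M q)
  unfold Fermat.Agent.Lib.HeckeComm.Stmt_Deg at h1
  have h2 := finrank_alphaC_mul M q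
  have h3 := dedekindPsi_pos_h24 M
  exact Nat.eq_of_mul_eq_mul_right h3 (h1.trans h2.symm)

/-- **Base change of the norm along `α`**. -/
theorem bcC_normAlpha (ι : Kb →+* ℂ) (f : Fermat.Agent.S24.FN (M * q)) :
    bcC ι M (Fermat.Agent.Lib.HeckeComm.normAlongHom (heckeAlphaBar Kb M q).toRingHom f)
      = normAlphaC M q (bcC ι (M * q) f) := by
  refine Fermat.Agent.Lib.HeckeComm.normAlongHom_baseChange
    (heckeAlphaBar Kb M q).toRingHom (alphaC M q).toRingHom (bcC ι M) (bcC ι (M * q))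
    (bcC_alpha M q ι)
    (Fermat.Agent.Lib.HeckeComm.stmt_Fin M (M * q) (dvd_mul_right M q))
    (finite_alphaC M q)
    (Fermat.Agent.S24.jdF (M * q) (M * q) dvd_rfl)
    (Fermat.Agent.Lib.HeckeComm.stmt_GenJ M (M * q) (dvd_mul_right M q))
    ?_ (finrank_alpha_eq M q) f
  rw [bcC_jdF]
  exact adjoin_alphaC_jdF M q

end Fermat.Agent.L.Pivot.Geom.H24

end
end
-- ==== END Fermat.Agent.L.Pivot.Geom.H24_B2BC

-- ==== BEGIN Fermat.Agent.L.Pivot.Geom.H24_B2BetaReps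
section

/-!
# PIVOT, PV-GEOM, leaf PVG-B2 (helper24), part 6c: explicit representatives for `conjG`, `q ∣ M`

* `isReps_tRep` : for `q ∣ M` the translations `tRep j = [1,j;0,1]⁻¹`, `j ∈ ℤ/q`, are
  representatives of the left cosets of the range of `conjG M q` in `Γ₀(M)`;
* `conjProd_tRep` : for them `conjProd k q t R = ∏_{j<q} R ∣[k] [1,j;0,q] = uProd k q R`;
* `isTwistedForm_uProd`, `uProdForm`.
-/

set_option autoImplicit false
set_option linter.style.haveILetI false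
set_option linter.unusedSectionVars false

open UpperHalfPlane ModularForm CongruenceSubgroup Matrix.SpecialLinearGroup
open scoped MatrixGroups ModularForm Manifold

noncomputable section

namespace Fermat.Agent.L.Pivot.Geom.H24

open Fermat.Agent.GTor Fermat.Agent.S41 Fermat.Agent.S41.H19

variable (M q : ℕ) [NeZero q]

/-- The representatives `[1,j;0,1]⁻¹`, `j ∈ ℤ/q`. -/
def tRep (j : ZMod q) : Gamma0 M := (uRep M ((j.val : ℕ) : ℤ))⁻¹

theorem tRep_inv (j : ZMod q) : (_root_.Fermat.Agent.L.Pivot.Geom.H24.tRep M q j)⁻¹ = uRep M ((j.val : ℕ) : ℤ) := inv_inv _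

theorem isReps_tRep (hqM : q ∣ M) : IsReps (conjG M q) (_root_.Fermat.Agent.L.Pivot.Geom.H24.tRep M q) := by
  have hq : q ≠ 0 := NeZero.ne q
  constructor
  · intro i j hij
    rw [tRep_inv] at hij
    obtain ⟨h, hh⟩ := hij
    have h1 : conjG M q h * uRep M ((j.val : ℕ) : ℤ) = uRep M ((i.val : ℕ) : ℤ) := by
      rw [hh, _root_.Fermat.Agent.L.Pivot.Geom.H24.tRep, inv_mul_cancel_right]
    have h2 := congrArg mat h1
    rw [mat_mul, mat_conjG, mat_uRep, mat_uRep] at h2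
    obtain ⟨a, ha⟩ : ∃ a : ℤ, a = (mat h) 0 0 := ⟨_, rfl⟩
    obtain ⟨b, hb⟩ : ∃ b : ℤ, b = (mat h) 0 1 := ⟨_, rfl⟩
    have e00 : a = 1 := by
      have := congrFun (congrFun h2 0) 0
      simp only [conjMat, Matrix.mul_apply, Fin.sum_univ_two, Matrix.of_apply, Matrix.cons_val',
        Matrix.cons_val_zero, Matrix.cons_val_one, Matrix.empty_val', Matrix.cons_val_fin_one,
        mul_one, mul_zero, add_zero] at this
      rw [ha]
      exact this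
    have e01 : a * ((j.val : ℕ) : ℤ) + (q : ℤ) * b = ((i.val : ℕ) : ℤ) := by
      have := congrFun (congrFun h2 0) 1
      simp only [conjMat, Matrix.mul_apply, Fin.sum_univ_two, Matrix.of_apply, Matrix.cons_val',
        Matrix.cons_val_zero, Matrix.cons_val_one, Matrix.empty_val', Matrix.cons_val_fin_one,
        mul_one] at this
      rw [ha, hb]
      exact this
    rw [e00, one_mul] at e01
    have h3 := congrArg (Int.cast : ℤ → ZMod q) e01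
    push_cast at h3
    rw [ZMod.natCast_self, zero_mul, add_zero, ZMod.natCast_zmod_val, ZMod.natCast_zmod_val] at h3
    exact h3.symm
  · intro g
    obtain ⟨c, hc⟩ := mat_dvd g
    obtain ⟨c', hc'⟩ := hqM
    have hdet := mat_det' g
    obtain ⟨a, ha⟩ : ∃ a : ℤ, a = (mat g) 0 0 := ⟨_, rfl⟩
    obtain ⟨b, hb⟩ : ∃ b : ℤ, b = (mat g) 0 1 := ⟨_, rfl⟩
    obtain ⟨d, hd⟩ : ∃ d : ℤ, d = (mat g) 1 1 := ⟨_, rfl⟩
    rw [← ha, ← hb, ← hd, hc, hc'] at hdet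
    -- `a d ≡ 1 mod q`
    have had : (a : ZMod q) * (d : ZMod q) = 1 := by
      have h1 := congrArg (Int.cast : ℤ → ZMod q) hdet
      push_cast at h1
      rw [ZMod.natCast_self, zero_mul, zero_mul, mul_zero, sub_zero] at h1
      exact h1
    refine ⟨-(b : ZMod q) * (a : ZMod q), ?_⟩
    rw [tRep_inv]
    apply exists_conjG_eq hq
    rw [mat_mul, mat_uRep]
    have e : (!![(1 : ℤ), (((-(b : ZMod q) * (a : ZMod q)).val : ℕ) : ℤ); 0, 1] * mat g) 0 1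
        = b + (((-(b : ZMod q) * (a : ZMod q)).val : ℕ) : ℤ) * d := by
      simp only [Matrix.mul_apply, Fin.sum_univ_two, Matrix.of_apply, Matrix.cons_val',
        Matrix.cons_val_zero, Matrix.cons_val_one, Matrix.empty_val', Matrix.cons_val_fin_one,
        one_mul]
      rw [hb, hd]
    rw [e, ← ZMod.intCast_zmod_eq_zero_iff_dvd]
    push_cast
    rw [ZMod.natCast_zmod_val]
    linear_combination (-(b : ZMod q)) * had

/-! ### The product `∏_{j<q} R ∣[k] [1,j;0,q]` -/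

/-- `uProd k q R = ∏_{j<q} R ∣[k] [1,j;0,q]`. -/
def uProd (k : ℤ) (q : ℕ) (R : ℍ → ℂ) : ℍ → ℂ := ∏ j ∈ Finset.range q, R ∣[k] heckeMatrix q j

theorem conjProd_tRep (k : ℤ) (R : ℍ → ℂ) :
    conjProd k q (coeT (_root_.Fermat.Agent.L.Pivot.Geom.H24.tRep M q)) R = uProd k q R := by
  rw [conjProd, uProd, H76.prod_range_eq_prod_zmod]
  refine Finset.prod_congr rfl fun j _ => ?_
  have h1 : (coeT (_root_.Fermat.Agent.L.Pivot.Geom.H24.tRep M q) j)⁻¹ = ((uRep M ((j.val : ℕ) : ℤ) : Gamma0 M) : SL(2, ℤ)) := by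
    unfold coeT
    rw [← Subgroup.coe_inv, tRep_inv]
  rw [h1, heckeMatrix_zero_mul_uRep]

theorem uProd_apply (k : ℤ) (R : ℍ → ℂ) (τ : ℍ) :
    uProd k q R τ = ∏ j ∈ Finset.range q, ((q : ℂ)⁻¹ * R (heckeMatrix q j • τ)) := by
  simp only [uProd, Finset.prod_apply, slash_heckeMatrix_apply k (NeZero.ne q)]

variable {M q} {n : ℕ} {k : ℤ}

theorem isTwistedForm_uProd (hq : q.Prime) (hqM : q ∣ M)
    {φ : Additive (Gamma0 (M * q)) →+ ZMod n} {R : ℍ → ℂ}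
    (h : IsTwistedForm (M * q) n k φ R) :
    IsTwistedForm M n (k * (q : ℤ)) (cor2 M q (ZMod n) φ) (uProd k q R) := by
  have h1 := isTwistedForm_conjProd hq (_root_.Fermat.Agent.L.Pivot.Geom.H24.tRep M q) (_root_.Fermat.Agent.L.Pivot.Geom.H24.isReps_tRep M q hqM) h
  rw [conjProd_tRep, ZMod.card] at h1
  exact h1

theorem cor2_zero_h24 (M q n : ℕ) :
    cor2 M q (ZMod n) (0 : Additive (Gamma0 (M * q)) →+ ZMod n) = 0 := by
  have := corAlong_add (A := ZMod n) (conjG M q) (0 : Additive (Gamma0 (M * q)) →+ ZMod n) 0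
  rw [add_zero] at this
  exact add_eq_left.mp this.symm

theorem isTwistedForm_uProd_zero [NeZero M] [NeZero (M * q)] (n : ℕ) (hq : q.Prime)
    (hqM : q ∣ M) (B : ModularForm (Gamma0 (M * q)) k) :
    IsTwistedForm M n (k * (q : ℤ)) 0 (uProd k q B) := by
  have h := isTwistedForm_uProd hq hqM (H56.isTwistedForm_of_modularForm n B)
  rwa [cor2_zero_h24] at h

/-- The modular form `uProd k q B`. -/
def uProdForm [NeZero M] [NeZero (M * q)] (hq : q.Prime) (hqM : q ∣ M)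
    (B : ModularForm (Gamma0 (M * q)) k) : ModularForm (Gamma0 M) (k * (q : ℤ)) :=
  H56.toModularForm (isTwistedForm_uProd_zero 1 hq hqM B)

@[simp] theorem coe_uProdForm [NeZero M] [NeZero (M * q)] (hq : q.Prime) (hqM : q ∣ M)
    (B : ModularForm (Gamma0 (M * q)) k) :
    (uProdForm hq hqM B : ℍ → ℂ) = uProd k q B := rfl

theorem uProd_eq_zero_iff (k : ℤ) {F : ℍ → ℂ} (hF : MDifferentiable 𝓘(ℂ) 𝓘(ℂ) F) :
    uProd k q F = 0 ↔ F = 0 := by
  rw [← conjProd_tRep 1 q k F]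
  exact conjProd_eq_zero_iff k q _ hF

theorem uProdForm_ne_zero [NeZero M] [NeZero (M * q)] (hq : q.Prime) (hqM : q ∣ M)
    {B : ModularForm (Gamma0 (M * q)) k} (hB : B ≠ 0) : uProdForm hq hqM B ≠ 0 := by
  intro h
  apply hB
  have h1 : uProd k q (B : ℍ → ℂ) = 0 := by
    rw [← coe_uProdForm hq hqM B, h]
    rfl
  exact DFunLike.coe_injective ((uProd_eq_zero_iff k B.holo').mp h1)

/-- Packaging for `HasChar`. -/
theorem hasChar_uProd [NeZero M] [NeZero (M * q)] (hq : q.Prime) (hqM : q ∣ M)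
    {φ : Additive (Gamma0 (M * q)) →+ ZMod n} {R : ℍ → ℂ}
    (hR : IsTwistedForm (M * q) n k φ R) {B : ModularForm (Gamma0 (M * q)) k} (hB : B ≠ 0)
    (g' : FNL ℂ M)
    (hqe : qLaurent (fun z => uProd k q R z ^ n)
      = (g' : LaurentSeries ℂ) * qLaurent (fun z => uProd k q (B : ℍ → ℂ) z ^ n)) :
    HasChar M n g' (cor2 M q (ZMod n) φ) :=
  ⟨k * (q : ℤ), uProd k q R, uProdForm hq hqM B,
    isTwistedForm_uProd hq hqM hR, uProdForm_ne_zero hq hqM hB, hqe⟩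

end Fermat.Agent.L.Pivot.Geom.H24

end
end
-- ==== END Fermat.Agent.L.Pivot.Geom.H24_B2BetaReps

-- ==== BEGIN Fermat.Agent.L.Pivot.Geom.H4_B1Beta
section

/-!
# PIVOT / PV-GEOM, leaf PVG-B1 (helper4): the twisted class is killed by the transfer along
conjugation by `diag(q, 1)`

* `hE n` : the element `E_n⁻¹ g E_n`, `E_n = [[q, n], [0, 1]]`, for `g ∈ Γ(q m q)`;
  `conjG_hE` : `conjG (hE n) = τ_n⁻¹ g τ_n`;  `alpha_hE` : `α_U (hE B) = hE (B - U) α_U`;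
* `isReps_repBeta` : the `τ_b`, `b mod q`, represent `Γ₀(q m) / conjG (Γ₀(q m q))`;
* `cor2_stepMap` : `S41.cor2 (S φ) = 0` for `χ ≠ 1`  (`U_q` kills twists: `∑_u χ⁻¹(u) = 0`).
-/

set_option autoImplicit false

namespace Fermat.Agent.L.Pivot.Geom.H4

open CongruenceSubgroup Matrix.SpecialLinearGroup ModularForm Finset
open scoped MatrixGroups
open Fermat.Agent.NEB.EIG.H39 Fermat.Agent.S41 Fermat.Agent.Betti

section Entries

theorem Gamma_entries {N : ℕ} {g : SL(2, ℤ)} (hg : g ∈ Gamma N) :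
    (N : ℤ) ∣ g 0 0 - 1 ∧ (N : ℤ) ∣ g 0 1 ∧ (N : ℤ) ∣ g 1 0 ∧ (N : ℤ) ∣ g 1 1 - 1 := by
  rw [Gamma_mem] at hg
  obtain ⟨h00, h01, h10, h11⟩ := hg
  refine ⟨?_, (ZMod.intCast_zmod_eq_zero_iff_dvd _ _).mp h01,
    (ZMod.intCast_zmod_eq_zero_iff_dvd _ _).mp h10, ?_⟩
  · rw [← ZMod.intCast_zmod_eq_zero_iff_dvd]
    push_cast
    rw [h00, sub_self]
  · rw [← ZMod.intCast_zmod_eq_zero_iff_dvd]
    push_cast
    rw [h11, sub_self]

end Entries

section HE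

variable (q : ℕ) (g : SL(2, ℤ)) (b' e' c' : ℤ)
  (hb : g 0 1 = q * b') (he : g 0 0 - g 1 1 = q * e') (hc : g 1 0 = q * c')

/-- The element `E_n⁻¹ g E_n`, `E_n = [[q, n], [0, 1]]`, for `g ∈ Γ(q ·)`. -/
def hE (n : ℤ) : SL(2, ℤ) :=
  mkSL (g 0 0 - n * g 1 0) (b' + n * e' - n ^ 2 * c') (q * g 1 0) (g 1 1 + n * g 1 0)
    (by linear_combination sl_det g + g 1 0 * hb + n * g 1 0 * he - n ^ 2 * g 1 0 * hc)

theorem hE_mem {m : ℕ} (hg : g ∈ Gamma (q * m * q)) (n : ℤ) :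
    hE q g b' e' c' hb he hc n ∈ Gam1 (q * m * q) (q * 1) := by
  obtain ⟨h00, -, h10, -⟩ := Gamma_entries hg
  have hq1 : ((q * 1 : ℕ) : ℤ) ∣ ((q * m * q : ℕ) : ℤ) :=
    Int.natCast_dvd_natCast.mpr ⟨m * q, by ring⟩
  refine ⟨?_, ?_, ?_⟩
  · show ((q * m * q : ℕ) : ℤ) ∣ (q : ℤ) * g 1 0
    exact Dvd.dvd.mul_left h10 _
  · show ((q * 1 : ℕ) : ℤ) ∣ (q : ℤ) * g 1 0
    exact Dvd.dvd.mul_left (hq1.trans h10) _
  · show ((q * 1 : ℕ) : ℤ) ∣ g 0 0 - n * g 1 0 - 1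
    have : g 0 0 - n * g 1 0 - 1 = (g 0 0 - 1) - n * g 1 0 := by ring
    rw [this]
    exact dvd_sub (hq1.trans h00) (Dvd.dvd.mul_left (hq1.trans h10) _)

theorem hE_mem_Gamma0 {m : ℕ} (hg : g ∈ Gamma (q * m * q)) (n : ℤ) :
    hE q g b' e' c' hb he hc n ∈ Gamma0 (q * m * q) :=
  Gam1_le_Gamma0 _ _ (hE_mem q g b' e' c' hb he hc hg n)

theorem tau_conj_mem {m : ℕ} (hg : g ∈ Gamma (q * m * q)) (n : ℤ) :
    (tauSL n)⁻¹ * g * tauSL n ∈ Gamma0 (q * m) := by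
  have h1 : (tauSL n)⁻¹ * g * ((tauSL n)⁻¹)⁻¹ ∈ Gamma (q * m * q) :=
    (Gamma_normal (q * m * q)).conj_mem g hg _
  rw [inv_inv] at h1
  exact (gamma0_mul_le (q * m) q) (Gamma_le_Gamma0' (q * m * q) h1)

/-- (E2) `conjG (E_n⁻¹ g E_n) = τ_n⁻¹ g τ_n`. -/
theorem conjG_hE {m : ℕ} (hq0 : q ≠ 0) (hg : g ∈ Gamma (q * m * q)) (n : ℤ) :
    conjG (q * m) q ⟨hE q g b' e' c' hb he hc n, hE_mem_Gamma0 q g b' e' c' hb he hc hg n⟩
      = ⟨(tauSL n)⁻¹ * g * tauSL n, tau_conj_mem q g hg n⟩ := by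
  have hq' : (q : ℤ) ≠ 0 := by exact_mod_cast hq0
  apply Subtype.ext
  apply sl_ext
  · show (conjMat q _) 0 0 = _
    rw [sl_mul_00, sl_mul_00, sl_mul_01, sl_inv_00, sl_inv_01]
    simp [conjMat, hE, tauSL]
    ring
  · show (conjMat q _) 0 1 = _
    rw [sl_mul_01, sl_mul_00, sl_mul_01, sl_inv_00, sl_inv_01]
    simp [conjMat, hE, tauSL]
    linear_combination (-1 : ℤ) * hb - n * he + n ^ 2 * hc
  · show (conjMat q _) 1 0 = _
    rw [sl_mul_10, sl_mul_10, sl_mul_11, sl_inv_10, sl_inv_11]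
    simp [conjMat, hE, tauSL, Int.mul_ediv_cancel_left _ hq']
  · show (conjMat q _) 1 1 = _
    rw [sl_mul_11, sl_mul_10, sl_mul_11, sl_inv_10, sl_inv_11]
    simp [conjMat, hE, tauSL]
    ring

/-- (E3) `α_U (E_B⁻¹ g E_B) = (E_{B-U}⁻¹ g E_{B-U}) α_U`. -/
theorem alpha_hE (hq0 : q ≠ 0) (U B : ℤ) :
    alphaGL q U * mapGL ℝ (hE q g b' e' c' hb he hc B)
      = mapGL ℝ (hE q g b' e' c' hb he hc (B - U)) * alphaGL q U := by
  have hq' : (q : ℝ) ≠ 0 := by exact_mod_cast hq0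
  have hb' : ((g 0 1 : ℤ) : ℝ) = q * b' := by exact_mod_cast hb
  have he' : ((g 0 0 : ℤ) : ℝ) - (g 1 1 : ℤ) = q * e' := by exact_mod_cast he
  have hc' : ((g 1 0 : ℤ) : ℝ) = q * c' := by exact_mod_cast hc
  apply Units.ext
  ext i j
  fin_cases i <;> fin_cases j
  · simp [hE, Matrix.mul_apply, Fin.sum_univ_two]
    field_simp
    ring
  · simp [hE, Matrix.mul_apply, Fin.sum_univ_two]
    field_simp
    linear_combination (-(U : ℝ)) * he' + ((2 * B * U - U ^ 2 : ℝ)) * hc'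
  · simp [hE, Matrix.mul_apply, Fin.sum_univ_two]
  · simp [hE, Matrix.mul_apply, Fin.sum_univ_two]
    field_simp
    ring

end HE

section RepsBeta

variable {q m : ℕ}

theorem tauSL_mem_Gamma0 (N : ℕ) (k : ℤ) : tauSL k ∈ Gamma0 N :=
  mem_Gamma0_of_dvd (by simp [tauSL])

/-- The representatives `τ_b`, `b mod q`, of `Γ₀(q m) / conjG (Γ₀(q m q))`. -/
def repBeta (q m : ℕ) (b : ZMod q) : Gamma0 (q * m) :=
  ⟨tauSL (b.val : ℤ), tauSL_mem_Gamma0 _ _⟩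

theorem isReps_repBeta (hq : q.Prime) :
    H19.IsReps (conjG (q * m) q) (repBeta q m) := by
  haveI : NeZero q := ⟨hq.ne_zero⟩
  have hq0 : (q : ℤ) ≠ 0 := by exact_mod_cast hq.ne_zero
  constructor
  · rintro i j ⟨x, hx⟩
    have h1 := congrArg (fun y : Gamma0 (q * m) => (y : SL(2, ℤ)) 0 1) hx
    have h2 : ((conjG (q * m) q x : Gamma0 (q * m)) : SL(2, ℤ)) 0 1
        = (q : ℤ) * (x : SL(2, ℤ)) 0 1 := by
      show (conjMat q _) 0 1 = _
      simp [conjMat]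
    have h3 : (((repBeta q m i)⁻¹ * repBeta q m j : Gamma0 (q * m)) : SL(2, ℤ)) 0 1
        = (j.val : ℤ) - i.val := by
      show ((tauSL (i.val : ℤ))⁻¹ * tauSL (j.val : ℤ)) 0 1 = _
      rw [sl_mul_01, sl_inv_00, sl_inv_01]
      simp only [tauSL, mkSL_11, mkSL_01, one_mul]
      ring
    simp only [h2, h3] at h1
    have h4 : (q : ℤ) ∣ (j.val : ℤ) - i.val := ⟨_, h1.symm⟩
    have h5 := (ZMod.intCast_zmod_eq_zero_iff_dvd _ _).mpr h4
    push_cast at h5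
    rw [ZMod.natCast_zmod_val, ZMod.natCast_zmod_val] at h5
    exact (sub_eq_zero.mp h5).symm
  · rintro ⟨g, hg⟩
    obtain ⟨C, hC⟩ := dvd_of_mem_Gamma0 hg
    have hdet := sl_det g
    have hunit : ((g 0 0 : ℤ) : ZMod q) * ((g 1 1 : ℤ) : ZMod q) = 1 := by
      have : ((g 0 0 * g 1 1 - g 0 1 * g 1 0 : ℤ) : ZMod q) = 1 := by rw [hdet]; simp
      rw [hC] at this
      push_cast at this
      simpa using this
    set i : ZMod q := ((g 0 1 : ℤ) : ZMod q) * ((g 0 0 : ℤ) : ZMod q) with hi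
    refine ⟨i, ?_⟩
    obtain ⟨h', hh'⟩ := H19.exists_conjG_eq hq.ne_zero ((repBeta q m i)⁻¹ * ⟨g, hg⟩) (by
      show (q : ℤ) ∣ ((tauSL (i.val : ℤ))⁻¹ * g) 0 1
      rw [sl_mul_01, sl_inv_00, sl_inv_01]
      simp only [tauSL, mkSL_11, mkSL_01, one_mul]
      rw [← ZMod.intCast_zmod_eq_zero_iff_dvd]
      push_cast
      rw [ZMod.natCast_zmod_val, hi]
      have : ((g 0 1 : ℤ) : ZMod q) + -(((g 0 1 : ℤ) : ZMod q) * ((g 0 0 : ℤ) : ZMod q))
            * ((g 1 1 : ℤ) : ZMod q)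
          = ((g 0 1 : ℤ) : ZMod q) * (1 - ((g 0 0 : ℤ) : ZMod q) * ((g 1 1 : ℤ) : ZMod q)) := by
        ring
      rw [this, hunit, sub_self, mul_zero])
    exact ⟨h', hh'⟩

end RepsBeta

section BetaMain

variable {q m : ℕ} {L : Type*} [Field L]
variable (hq : q.Prime) (hqm : ¬ q ∣ m)

include hqm in
/-- The value of `S φ` at an element of `Γ' = Gam1 (q m q) q`. -/
theorem stepMap_apply_Gp (χ : MulChar (ZMod q) L) (hχ : χ ≠ 1) (ω : SL(2, ℤ) → L)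
    (hω : ∀ g ∈ Gam1 (q * m * q) 1, ω g = 1)
    {φ : Additive (Gam1 (q * m) (q * 1)) →+ L}
    (hφ : IsEig (q * m) (q * 1) (step_hcK1 (one_dvd m))
      (fun g => χ ((g 0 0 : ℤ) : ZMod q) ^ 2 * ω g) φ)
    (x : Gam1 (q * m * q) (q * 1)) :
    haveI : Fact q.Prime := ⟨hq⟩
    stepMap hq (one_dvd m) χ φ (Additive.ofMul (Subgroup.inclusion (step_hle2 q m 1) x))
      = stepIdx q m 1 • ∑ u : ZMod q, χ⁻¹ u *
          Bop hq.ne_zero (dvd_mul_right q 1) (step_hcq (one_dvd m)) u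
            (resK (step_hle1 q m 1) φ) (Additive.ofMul x) := by
  haveI : Fact q.Prime := ⟨hq⟩
  have h1 := resK_stepMap hq hqm (one_dvd m) χ ω hω hφ
  have h2 := congrArg (fun ψ : Additive (Gam1 (q * m * q) (q * 1)) →+ L =>
    ψ (Additive.ofMul x)) h1
  simp only [resK_apply, AddMonoidHom.smul_apply] at h2
  rw [h2]
  congr 1
  unfold stepW
  rw [tqOp_ne hq (one_dvd m) hχ, twOp_apply, AddMonoidHom.finsetSum_apply]
  refine Finset.sum_congr rfl fun u _ => ?_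
  rw [AddMonoidHom.smul_apply, smul_eq_mul]

/-- `A_U ψ (E_B⁻¹ g E_B) = ψ (E_{B-U}⁻¹ g E_{B-U})`. -/
theorem Aop_apply_hE (g : SL(2, ℤ)) (hg : g ∈ Gamma (q * m * q)) (b' e' c' : ℤ)
    (hb : g 0 1 = q * b') (he : g 0 0 - g 1 1 = q * e') (hc : g 1 0 = q * c')
    (ψ : Additive (Gam1 (q * m * q) (q * 1)) →+ L) (U B : ℤ) :
    Aop hq.ne_zero (dvd_mul_right q 1) (step_hcq (one_dvd m)) U ψ
        (Additive.ofMul ⟨hE q g b' e' c' hb he hc B, hE_mem q g b' e' c' hb he hc hg B⟩)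
      = ψ (Additive.ofMul
          ⟨hE q g b' e' c' hb he hc (B - U), hE_mem q g b' e' c' hb he hc hg (B - U)⟩) := by
  rw [Aop_apply, tw_apply]
  congr 2
  apply inc_injective
  rw [e_conjEnd]
  simp only [inc_apply]
  have h := alpha_hE q g b' e' c' hb he hc hq.ne_zero U B
  rw [h]
  group

include hqm in
/-- **PVG-B1, the transfer along conjugation by `diag(q, 1)`**: `cor_β (S φ) = 0` for `χ ≠ 1`. -/
theorem cor2_stepMap [CharZero L] (χ : MulChar (ZMod q) L) (hχ : χ ≠ 1) (ω : SL(2, ℤ) → L)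
    (hω : ∀ g ∈ Gam1 (q * m * q) 1, ω g = 1)
    {φ : Additive (Gam1 (q * m) (q * 1)) →+ L}
    (hφ : IsEig (q * m) (q * 1) (step_hcK1 (one_dvd m))
      (fun g => χ ((g 0 0 : ℤ) : ZMod q) ^ 2 * ω g) φ) :
    cor2 (q * m) q L (resK (Gamma0_le_Gam1_one (q * m * q)) (stepMap hq (one_dvd m) χ φ)) = 0 := by
  haveI : Fact q.Prime := ⟨hq⟩
  haveI := step_neZero hq hqm
  have hle : Gamma (q * m * q) ≤ Gamma0 (q * m) :=
    (Gamma_le_Gamma0' (q * m * q)).trans (gamma0_mul_le (q * m) q)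
  have hz : resK hle (0 : Additive (Gamma0 (q * m)) →+ L) = 0 := AddMonoidHom.zero_comp _
  apply resK_inj hle (le_refl _)
  rw [hz]
  refine AddMonoidHom.ext fun x => ?_
  obtain ⟨⟨g, hg⟩, rfl⟩ : ∃ g' : Gamma (q * m * q), Additive.ofMul g' = x :=
    ⟨Additive.toMul x, rfl⟩
  rw [resK_apply, AddMonoidHom.zero_apply]
  obtain ⟨h00, h01, h10, h11⟩ := Gamma_entries hg
  have hqN : (q : ℤ) ∣ ((q * m * q : ℕ) : ℤ) := Int.natCast_dvd_natCast.mpr (dvd_mul_left _ _)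
  obtain ⟨b', hb⟩ := hqN.trans h01
  obtain ⟨c', hc⟩ := hqN.trans h10
  obtain ⟨e', he⟩ : (q : ℤ) ∣ g 0 0 - g 1 1 := by
    have : g 0 0 - g 1 1 = (g 0 0 - 1) - (g 1 1 - 1) := by ring
    rw [this]
    exact dvd_sub (hqN.trans h00) (hqN.trans h11)
  unfold cor2
  rw [H19.corAlong_eq_sum (conjG (q * m) q) (H19.conjG_injective (q * m) q hq.ne_zero)
    (repBeta q m) (isReps_repBeta hq) _ _ id
    (fun b => ⟨hE q g b' e' c' hb he hc (b.val : ℤ),
      hE_mem_Gamma0 q g b' e' c' hb he hc hg (b.val : ℤ)⟩) (fun b => by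
      rw [conjG_hE q g b' e' c' hb he hc hq.ne_zero hg]
      apply Subtype.ext
      show g * tauSL (b.val : ℤ) = tauSL (b.val : ℤ) *
        ((tauSL (b.val : ℤ))⁻¹ * g * tauSL (b.val : ℤ))
      group)]
  set ψ := resK (step_hle1 q m 1) φ with hψ
  set F : ZMod q → L := fun z =>
    Bop hq.ne_zero (dvd_mul_right q 1) (step_hcq (one_dvd m)) (-z) ψ
      (Additive.ofMul ⟨hE q g b' e' c' hb he hc 0, hE_mem q g b' e' c' hb he hc hg 0⟩) with hF
  have hterm : ∀ b : ZMod q,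
      (resK (Gamma0_le_Gam1_one (q * m * q)) (stepMap hq (one_dvd m) χ φ))
        (Additive.ofMul (⟨hE q g b' e' c' hb he hc (b.val : ℤ),
          hE_mem_Gamma0 q g b' e' c' hb he hc hg (b.val : ℤ)⟩ : Gamma0 (q * m * q)))
      = stepIdx q m 1 • ∑ u : ZMod q, χ⁻¹ u * F (b - u) := by
    intro b
    have h1 := stepMap_apply_Gp hq hqm χ hχ ω hω hφ
      ⟨hE q g b' e' c' hb he hc (b.val : ℤ), hE_mem q g b' e' c' hb he hc hg (b.val : ℤ)⟩
    have h2 : (resK (Gamma0_le_Gam1_one (q * m * q)) (stepMap hq (one_dvd m) χ φ))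
        (Additive.ofMul (⟨hE q g b' e' c' hb he hc (b.val : ℤ),
          hE_mem_Gamma0 q g b' e' c' hb he hc hg (b.val : ℤ)⟩ : Gamma0 (q * m * q)))
        = stepMap hq (one_dvd m) χ φ (Additive.ofMul (Subgroup.inclusion (step_hle2 q m 1)
          ⟨hE q g b' e' c' hb he hc (b.val : ℤ),
            hE_mem q g b' e' c' hb he hc hg (b.val : ℤ)⟩)) := rfl
    rw [h2, h1]
    congr 1
    refine Finset.sum_congr rfl fun u _ => ?_
    congr 1
    rw [hF]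
    simp only
    have e1 : Bop hq.ne_zero (dvd_mul_right q 1) (step_hcq (one_dvd m)) u ψ
        = Aop hq.ne_zero (dvd_mul_right q 1) (step_hcq (one_dvd m)) (u.val : ℤ) ψ := rfl
    have e2 : Bop hq.ne_zero (dvd_mul_right q 1) (step_hcq (one_dvd m)) (-(b - u)) ψ
        = Aop hq.ne_zero (dvd_mul_right q 1) (step_hcq (one_dvd m))
            ((u.val : ℤ) - (b.val : ℤ)) ψ := by
      have : (-(b - u) : ZMod q) = (((u.val : ℤ) - (b.val : ℤ) : ℤ) : ZMod q) := by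
        push_cast
        rw [ZMod.natCast_zmod_val, ZMod.natCast_zmod_val]
        ring
      rw [this, Bop_intCast]
    rw [e1, e2, Aop_apply_hE hq g hg b' e' c' hb he hc ψ,
      Aop_apply_hE hq g hg b' e' c' hb he hc ψ]
    have e3 : (b.val : ℤ) - (u.val : ℤ) = 0 - ((u.val : ℤ) - (b.val : ℤ)) := by ring
    simp only [e3]
  rw [Finset.sum_congr rfl (fun b _ => hterm b), ← Finset.smul_sum,
    sum_beta_eq_zero χ hχ F, smul_zero]

end BetaMain

end Fermat.Agent.L.Pivot.Geom.H4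

end
-- ==== END Fermat.Agent.L.Pivot.Geom.H4_B1Beta

-- ==== BEGIN Fermat.Agent.L.Pivot.Geom.H4_EigPartZ
section

/-!
# PIVOT / PV-GEOM, leaf P-EIGPART (helper4), part 3: the `ℤ`-level statement on `A = J_H[p^∞]`

Setting of `NEB.EIG.H39.stmt_EIG_A` for the list `qsP ++ qsQ` (pivot primes, Taylor–Wiles primes),
`c = cP cQ`, `N' = N c²`, and ANY ring homomorphism `eta : 𝕋(N') → End_ℤ A` with
`eta (T_ℓ) = TA ℓ * diaA ⟨ℓ⟩ ^ j`; `rest : 𝕋(N') → 𝕋(N'')`, `N'' = N cP cQ²`, with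
`rest (T_ℓ) = T_ℓ` (`= H4.restPV`).

`stmt_EigPart` : `rest t = 0 → eta t * e = 0` for every endomorphism `e` of `A` with values in the
invariants of the pivot diamonds (`diaA d * e = e` for `d ≡ 1 mod cQ`), e.g. `e = ∑_{d ≡ 1 (cQ)} ⟨d⟩`
(the norm of `Δ_Σ`).  So the kernel of `rest` kills the RANGE of the norm of the pivot diamonds.

(For the invariants themselves the statement is not formal: an invariant element of `A` need not
lift to an invariant element of the Tate module.)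

Proof: `T_p A ↪ V = Vsp` (`gen`), `eigPart_V` on `V`, `End A ↪ End (T_p A)`.
Complete proofs, standard axioms only.
-/

set_option autoImplicit false

namespace Fermat.Agent.L.Pivot.Geom.H4

open CongruenceSubgroup Matrix.SpecialLinearGroup ModularForm Finset
open scoped MatrixGroups
open Fermat.Agent.NEB.EIG.H39 Fermat.Agent.Betti ModularCurve.Period
open Fermat.Agent.S59.Lim

section Aux

/-- Two actions of the Hecke algebra which correspond on the generators `T_ℓ` under an additive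
map `g` correspond everywhere. -/
theorem hecke_corr_h4 {N : ℕ} [NeZero N] {S : Set ℕ} (hS : ∀ q : ℕ, q.Prime → q ∣ N → q ∈ S)
    {L : Type*} [Field L] {V : Type*} [AddCommGroup V] [Module L V]
    {W : Type*} [AddCommGroup W]
    (etaV : CuspForm.heckeAlgebra N 2 S →+* Module.End L V)
    (etaW : CuspForm.heckeAlgebra N 2 S →+* Module.End ℤ W) (g : W →+ V)
    (h : ∀ (ℓ : ℕ) (hℓ : ℓ.Prime) (hℓN : ¬ ℓ ∣ N) (hℓS : ℓ ∉ S) (ξ : W),
      etaV (CuspForm.heckeAlgebra.T hℓ hℓN hℓS) (g ξ)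
        = g (etaW (CuspForm.heckeAlgebra.T hℓ hℓN hℓS) ξ)) :
    ∀ (x : CuspForm.heckeAlgebra N 2 S) (ξ : W), etaV x (g ξ) = g (etaW x ξ) := by
  refine hecke_induction hS (fun ℓ hℓ hℓN hℓS ξ => h ℓ hℓ hℓN hℓS ξ) (fun n ξ => ?_)
    (fun x y hx hy ξ => ?_) (fun x y hx hy ξ => ?_)
  · rw [map_intCast, map_intCast, Module.End.intCast_apply, Module.End.intCast_apply, map_zsmul]
  · rw [map_add, map_add, LinearMap.add_apply, LinearMap.add_apply, hx ξ, hy ξ, map_add]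
  · rw [map_mul, map_mul, Module.End.mul_apply, Module.End.mul_apply, hy ξ, hx]

end Aux

/-- **P-EIGPART** (`ℤ`-level).  The kernel of `rest : 𝕋(N c²) → 𝕋(N cP cQ²)` kills the range of
every endomorphism of `A` with values in the invariants of the diamond operators at the pivot
primes. -/
theorem stmt_EigPart (p : ℕ) [Fact p.Prime] (N : ℕ) (hN : N ≠ 0) (qsP qsQ : List ℕ)
    (hnd : (qsP ++ qsQ).Nodup)
    (hpr : ∀ q ∈ qsP ++ qsQ, q.Prime) (hqN : ∀ q ∈ qsP ++ qsQ, ¬ q ∣ N)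
    (c cP cQ N' N'' : ℕ) (hcP : cP = qsP.prod) (hcQ : cQ = qsQ.prod) (hc : c = cP * cQ)
    (hN' : N' = N * c * c) (hN'' : N'' = N * cP * cQ * cQ) [NeZero N'] [NeZero N'']
    (S : Set ℕ) (hS : ∀ q : ℕ, q.Prime → q ∣ N' → q ∈ S)
    (A : Type) [AddCommGroup A] (hdiv : ∀ x : A, ∃ y : A, p • y = x)
    (htors : ∀ x : A, ∃ k : ℕ, p ^ k • x = 0)
    (ms : MonoSys p (N * c) c A)
    (TA : ℕ → Module.End ℤ A)
    (hTA : ∀ (ℓ : ℕ) (hℓ : ℓ.Prime) (hℓM : ¬ ℓ ∣ N * c) (k : ℕ) (x : A), p ^ k • x = 0 →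
      ms.m k (TA ℓ x) = TDg (N * c) c (dvd_mul_left _ _) hℓ hℓM (ms.m k x))
    (diaA : (ZMod c)ˣ →* Module.End ℤ A)
    (hdiaA : ∀ (g : SL(2, ℤ)) (hg : ((N * c : ℕ) : ℤ) ∣ g 1 0) (d : (ZMod c)ˣ),
      (d : ZMod c) = ((g 0 0 : ℤ) : ZMod c) → ∀ (k : ℕ) (x : A), p ^ k • x = 0 →
      ms.m k (diaA d x) = Dg (dvd_mul_left _ _) g hg (ms.m k x))
    (hcomm : ∀ (ℓ : ℕ), ℓ.Prime → ¬ ℓ ∣ N * c → ∀ d, Commute (TA ℓ) (diaA d))
    (j : ℕ) (hdn : ∀ d, diaA d ^ (2 * j + 1) = 1)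
    (eta : CuspForm.heckeAlgebra N' 2 S →+* Module.End ℤ A)
    (heta : ∀ (ℓ : ℕ) (hℓ : ℓ.Prime) (hℓN : ¬ ℓ ∣ N') (hℓS : ℓ ∉ S),
        eta (CuspForm.heckeAlgebra.T hℓ hℓN hℓS) = TA ℓ * diaA (unitOf c ℓ) ^ j)
    (rest : CuspForm.heckeAlgebra N' 2 S →+* CuspForm.heckeAlgebra N'' 2 S)
    (hrest : ∀ (ℓ : ℕ) (hℓ : ℓ.Prime) (hℓN' : ¬ ℓ ∣ N') (hℓS : ℓ ∉ S) (hℓN'' : ¬ ℓ ∣ N''),
      rest (CuspForm.heckeAlgebra.T hℓ hℓN' hℓS) = CuspForm.heckeAlgebra.T hℓ hℓN'' hℓS)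
    (hcQc : cQ ∣ c) (t : CuspForm.heckeAlgebra N' 2 S) (ht : rest t = 0)
    (e : Module.End ℤ A)
    (he : ∀ d : (ZMod c)ˣ, ZMod.unitsMap hcQc d = 1 → diaA d * e = e) :
    eta t * e = 0 := by
  classical
  have hprQ : ∀ q ∈ qsQ, q.Prime := fun q hq => hpr q (List.mem_append_right _ hq)
  have hprP : ∀ q ∈ qsP, q.Prime := fun q hq => hpr q (List.mem_append_left _ hq)
  have hcQ0 : cQ ≠ 0 := by
    rw [hcQ]
    exact prod_primes_ne_zero hprQ
  have hcP0 : cP ≠ 0 := by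
    rw [hcP]
    exact prod_primes_ne_zero hprP
  have hc0 : c ≠ 0 := by
    rw [hc]
    exact Nat.mul_ne_zero hcP0 hcQ0
  have hcqs : c = (qsP ++ qsQ).prod := by
    rw [List.prod_append, ← hcP, ← hcQ, hc]
  have hM : N * c ≠ 0 := mul_ne_zero hN hc0
  have : NeZero c := ⟨hc0⟩
  have hcM : c ∣ N * c := dvd_mul_left _ _
  have hdiv' : ∀ w : A, ∃ v : A, (p : ℤ) • v = w := fun w => by
    obtain ⟨v, hv⟩ := hdiv w
    exact ⟨v, by rw [natCast_zsmul, hv]⟩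
  have htors' : ∀ w : A, ∃ k : ℕ, (p : ℤ) ^ k • w = 0 := fun w => by
    obtain ⟨k, hk⟩ := htors w
    exact ⟨k, by rw [← Nat.cast_pow, natCast_zsmul, hk]⟩
  -- the field
  let ι : ℤ_[p] →+* AlgebraicClosure ℚ_[p] :=
    (algebraMap ℚ_[p] (AlgebraicClosure ℚ_[p])).comp PadicInt.Coe.ringHom
  have hι : Function.Injective ι :=
    (algebraMap ℚ_[p] (AlgebraicClosure ℚ_[p])).injective.comp Subtype.coe_injective
  have := hasEnough_of_algClosed (AlgebraicClosure ℚ_[p]) c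
  have : NeZero cQ := ⟨hcQ0⟩
  have := hasEnough_of_algClosed (AlgebraicClosure ℚ_[p]) cQ
  have hcommV : ∀ ℓ d, Commute (TVop ι ms hcM TA hTA ℓ) (diaV ι ms hcM hM diaA hdiaA d) := by
    intro ℓ d
    by_cases h : ℓ.Prime ∧ ¬ ℓ ∣ N * c
    · show TVop ι ms hcM TA hTA ℓ * diaV ι ms hcM hM diaA hdiaA d
        = diaV ι ms hcM hM diaA hdiaA d * TVop ι ms hcM TA hTA ℓ
      apply Vsp_ext ι ms
      intro ξ
      rw [Module.End.mul_apply, Module.End.mul_apply, diaV_gen,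
        TVop_gen ι ms hcM TA hTA h.1 h.2, TVop_gen ι ms hcM TA hTA h.1 h.2, diaV_gen,
        ← Module.End.mul_apply, ← Module.End.mul_apply, ← map_mul, ← map_mul,
        (hcomm ℓ h.1 h.2 d).eq]
    · rw [TVop, dif_neg h]
      exact Commute.zero_left _
  have hdnV : ∀ d, diaV ι ms hcM hM diaA hdiaA d ^ (2 * j + 1) = 1 := by
    intro d
    apply Vsp_ext ι ms
    intro ξ
    rw [diaV_pow_gen, hdn d, map_one, Module.End.one_apply, Module.End.one_apply]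
  -- EIG-OP on the span
  obtain ⟨etaV, hetaV⟩ := stmt_OP (L := AlgebraicClosure ℚ_[p]) (V := ↥(Vsp ι ms))
    N hN (qsP ++ qsQ) hnd hpr hqN c N' hcqs hN' S hS
    (Vsp ι ms).subtype (Submodule.injective_subtype _) (Vsp_par ι ms)
    (TVop ι ms hcM TA hTA) (fun ℓ hℓ hℓM v => coe_TVop ι ms hcM TA hTA hℓ hℓM v)
    (diaV ι ms hcM hM diaA hdiaA)
    (fun g hg d hd v => coe_diaV ι ms hcM hM diaA hdiaA g hg d hd v)
    hcommV j hdnV
  -- `etaV` and `eta` correspond under `gen`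
  have hcorr : ∀ (x : CuspForm.heckeAlgebra N' 2 S) (ξ : Ta p A),
      etaV x (gen ι ms ξ) = gen ι ms (H2.mapEnd (p : ℤ) A (eta x) ξ) := by
    refine hecke_corr_h4 (L := AlgebraicClosure ℚ_[p]) (V := ↥(Vsp ι ms)) (W := Ta p A) hS etaV
      ((H2.mapEnd (p : ℤ) A).toRingHom.comp eta)
      (gen ι ms).toAddMonoidHom (fun ℓ hℓ hℓN hℓS ξ => ?_)
    show etaV (CuspForm.heckeAlgebra.T hℓ hℓN hℓS) (gen ι ms ξ)
      = gen ι ms (H2.mapEnd (p : ℤ) A (eta (CuspForm.heckeAlgebra.T hℓ hℓN hℓS)) ξ)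
    have hℓM : ¬ ℓ ∣ N * c := fun h => hℓN (by rw [hN']; exact Dvd.dvd.mul_right h c)
    rw [hetaV ℓ hℓ hℓN hℓS, heta ℓ hℓ hℓN hℓS, Module.End.mul_apply,
      diaV_pow_gen, TVop_gen ι ms hcM TA hTA hℓ hℓM, map_mul, Module.End.mul_apply]
  -- the values of `e` are invariant
  have hinv : ∀ ξ : Ta p A, ∀ d : (ZMod c)ˣ, ZMod.unitsMap hcQc d = 1 →
      diaV ι ms hcM hM diaA hdiaA d (gen ι ms (H2.mapEnd (p : ℤ) A e ξ))
        = gen ι ms (H2.mapEnd (p : ℤ) A e ξ) := by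
    intro ξ d hd
    rw [diaV_gen, ← Module.End.mul_apply, ← map_mul, he d hd]
  have hkill : ∀ ξ : Ta p A, etaV t (gen ι ms (H2.mapEnd (p : ℤ) A e ξ)) = 0 := fun ξ =>
    eigPart_V (L := AlgebraicClosure ℚ_[p]) (V := ↥(Vsp ι ms)) N hN qsP qsQ hnd hpr hqN
      c cP cQ N' N'' hcP hcQ hc hN' hN'' S hS
      (Vsp ι ms).subtype (Submodule.injective_subtype _) (Vsp_par ι ms)
      (TVop ι ms hcM TA hTA) (fun ℓ hℓ hℓM v => coe_TVop ι ms hcM TA hTA hℓ hℓM v)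
      (diaV ι ms hcM hM diaA hdiaA)
      (fun g hg d hd v => coe_diaV ι ms hcM hM diaA hdiaA g hg d hd v)
      hcommV j hdnV etaV hetaV rest hrest hcQc t ht _ (hinv ξ)
  apply H2.mapEnd_injective hdiv' htors'
  rw [map_zero]
  apply LinearMap.ext
  intro ξ
  rw [map_mul, Module.End.mul_apply, LinearMap.zero_apply]
  apply gen_injective ι ms hι
  rw [← hcorr, hkill ξ, map_zero]

end Fermat.Agent.L.Pivot.Geom.H4

end
-- ==== END Fermat.Agent.L.Pivot.Geom.H4_EigPartZ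

-- ==== BEGIN Fermat.Agent.L.Pivot.Geom.H70_UnrFive
section

/-!
# PIVOT, package PV-GEOM, leaf P-HSTEP: the unramifiedness condition for `p ≥ 5` (helper70)

For a prime `p ≥ 5`, a squarefree `c ∣ M` and a subgroup `H` of `(ℤ/c)ˣ` containing all
`p^E`-th powers, every elliptic and every parabolic element of `Γ₀(M)` has its upper left entry
in `± H`:  `unrCond_of_five_le`.  (No congruence condition on the primes dividing `c`; for
`p = 3` the statement is false in general at primes `q` with `3^E ∥ q - 1`.)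
-/

set_option autoImplicit false

open Matrix
open scoped MatrixGroups

namespace Fermat.Agent.L.Pivot.Geom.H70

/-- A twelfth root of unity in a group is a `P`-th power, `P` prime to `12`. -/
theorem exists_pow_eq_of_pow_twelve {G : Type*} [Group G] (u : G) (hu : u ^ 12 = 1) (P : ℕ)
    (hP : Nat.Coprime P 12) : ∃ e : ℕ, (u ^ e) ^ P = u := by
  obtain ⟨e, he⟩ := Nat.exists_mul_mod_eq_one_of_coprime hP (by norm_num : 1 < 12)
  refine ⟨e, ?_⟩
  have h1 : e * P = 12 * (e * P / 12) + 1 := by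
    have := Nat.div_add_mod (e * P) 12
    rw [mul_comm P e] at he
    omega
  rw [← pow_mul, h1, pow_succ, pow_mul, hu, one_pow, one_mul]

/-- **UNRCOND for `p ≥ 5`**, with arbitrary exponents. -/
theorem unrCond_of_five_le (p E : ℕ) (hp : p.Prime) (h5 : 5 ≤ p) (c M : ℕ) (hsq : Squarefree c)
    (hcM : c ∣ M) (H : Subgroup (ZMod c)ˣ) (hH : ∀ x : (ZMod c)ˣ, x ^ (p ^ E) ∈ H) :
    Fermat.Agent.NEB.UnrCond M c H := by
  intro γ hγ
  classical
  haveI : IsReduced (ZMod c) := isReduced_zmod.2 (Or.inl hsq)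
  set A : Matrix (Fin 2) (Fin 2) ℤ := (((γ : SL(2, ℤ)) : Matrix (Fin 2) (Fin 2) ℤ)) with hA
  show ((A 0 0 : ℤ) : ZMod c) ∈ Fermat.Agent.NEB.cosetSet c H 1
  have hdet : A 0 0 * A 1 1 - A 0 1 * A 1 0 = 1 := by
    have h := (γ : SL(2, ℤ)).2
    rwa [Matrix.det_fin_two] at h
  have hM : (M : ℤ) ∣ A 1 0 := by
    have h := γ.2
    rw [CongruenceSubgroup.Gamma0_mem] at h
    exact (ZMod.intCast_zmod_eq_zero_iff_dvd _ _).mp h
  have hcM' : ((c : ℕ) : ℤ) ∣ A 1 0 := (Int.natCast_dvd_natCast.mpr hcM).trans hM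
  have hrelc : ((A 0 0 : ℤ) : ZMod c) * ((A 1 1 : ℤ) : ZMod c) = 1 := by
    have h0 : ((A 1 0 : ℤ) : ZMod c) = 0 :=
      (ZMod.intCast_zmod_eq_zero_iff_dvd _ _).mpr hcM'
    have h1 := congrArg (fun z : ℤ => (z : ZMod c)) hdet
    simp only [Int.cast_sub, Int.cast_mul, Int.cast_one, h0, mul_zero, sub_zero] at h1
    exact h1
  -- the trace
  have htr : (A 0 0 + A 1 1) ^ 2 = 4 ∨ |A 0 0 + A 1 1| ≤ 1 := by
    rcases hγ with h | h
    · refine Fermat.Agent.S59.Asm.H57.trace_of_finOrder (γ : SL(2, ℤ)) ?_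
      obtain ⟨k, hk, hγk⟩ := (isOfFinOrder_iff_pow_eq_one).mp h
      refine (isOfFinOrder_iff_pow_eq_one).mpr ⟨k, hk, ?_⟩
      have := congrArg Subtype.val hγk
      simpa using this
    · exact Or.inl h
  rcases htr with h4 | h1
  · -- parabolic or central: `a ≡ ±1`
    have hs : A 0 0 + A 1 1 = 2 ∨ A 0 0 + A 1 1 = -2 := by
      have : (A 0 0 + A 1 1 - 2) * (A 0 0 + A 1 1 + 2) = 0 := by linear_combination h4
      rcases mul_eq_zero.mp this with h | h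
      · left; linarith
      · right; linarith
    have key : ∀ s : ℤ, s ^ 2 = 1 → A 0 0 + A 1 1 = 2 * s →
        ((A 0 0 : ℤ) : ZMod c) = ((s : ℤ) : ZMod c) := by
      intro s hs2 hsum
      have hsum' : ((A 0 0 : ℤ) : ZMod c) + ((A 1 1 : ℤ) : ZMod c)
          = 2 * ((s : ℤ) : ZMod c) := by
        have := congrArg (fun z : ℤ => (z : ZMod c)) hsum
        simpa using this
      have hs2' : ((s : ℤ) : ZMod c) ^ 2 = 1 := by
        have := congrArg (fun z : ℤ => (z : ZMod c)) hs2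
        simpa using this
      have hsq' : (((A 0 0 : ℤ) : ZMod c) - ((s : ℤ) : ZMod c)) ^ 2 = 0 := by
        linear_combination (-1 : ZMod c) * hrelc
          + ((A 0 0 : ℤ) : ZMod c) * hsum' + hs2'
      exact sub_eq_zero.mp (pow_eq_zero_iff (two_ne_zero)|>.mp hsq')
    rcases hs with h | h
    · have h1 := key 1 (by norm_num) (by rw [h]; norm_num)
      refine ⟨1, H.one_mem, Or.inl ?_⟩
      rw [h1, mul_one, Units.val_one, Int.cast_one]
    · have h1 := key (-1) (by norm_num) (by rw [h]; norm_num)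
      refine ⟨1, H.one_mem, Or.inr ?_⟩
      rw [h1, mul_one, Units.val_one, Int.cast_neg, Int.cast_one]
  · -- elliptic: `a ^ 12 ≡ 1`
    have h12 : ((A 0 0 : ℤ) : ZMod c) ^ 12 = 1 := by
      refine Fermat.Agent.S59.Asm.H57.pow_twelve_eq_one _ (A 0 0 + A 1 1) h1 ?_
      push_cast
      linear_combination (-1 : ZMod c) * hrelc
    have hunitA : IsUnit ((A 0 0 : ℤ) : ZMod c) := IsUnit.of_mul_eq_one _ hrelc
    obtain ⟨u, hu⟩ := hunitA
    have hu12 : u ^ 12 = 1 := by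
      apply Units.ext
      rw [Units.val_pow_eq_pow_val, hu, h12, Units.val_one]
    have hcop : Nat.Coprime (p ^ E) 12 := by
      apply Nat.Coprime.pow_left
      have h2 : Nat.Coprime p 2 :=
        (Nat.coprime_primes hp Nat.prime_two).mpr (by omega)
      have h3 : Nat.Coprime p 3 :=
        (Nat.coprime_primes hp Nat.prime_three).mpr (by omega)
      have e12 : (12 : ℕ) = 2 * 2 * 3 := by norm_num
      rw [e12]
      exact (h2.mul_right h2).mul_right h3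
    obtain ⟨e, he⟩ := exists_pow_eq_of_pow_twelve u hu12 (p ^ E) hcop
    refine ⟨u, ?_, Or.inl ?_⟩
    · rw [← he]
      exact hH (u ^ e)
    · rw [one_mul, hu]

end Fermat.Agent.L.Pivot.Geom.H70

end
-- ==== END Fermat.Agent.L.Pivot.Geom.H70_UnrFive

-- ==== BEGIN Fermat.Agent.L.Pivot.H01_TypeDim
section

set_option autoImplicit false

namespace Fermat.Agent.L.Pivot.H01

open MvPowerSeries IsLocalRing

/-! ### Dimension zero from nilpotent variables -/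

/-- Every element of the maximal ideal of `𝒪⟦X₁..X_n⟧` (`𝒪` local with maximal ideal `(ϖ)`)
lies in any ideal containing `ϖ` and the variables. -/
theorem mem_of_mem_maximalIdeal {𝒪 : Type} [CommRing 𝒪] [IsLocalRing 𝒪] {n : ℕ} (ϖ : 𝒪)
    (hϖ : maximalIdeal 𝒪 = Ideal.span {ϖ}) (J : Ideal (MvPowerSeries (Fin n) 𝒪))
    (h0 : (C ϖ : MvPowerSeries (Fin n) 𝒪) ∈ J)
    (hX : ∀ i, (X i : MvPowerSeries (Fin n) 𝒪) ∈ J)
    {f : MvPowerSeries (Fin n) 𝒪} (hf : f ∈ maximalIdeal (MvPowerSeries (Fin n) 𝒪)) : f ∈ J := by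
  classical
  have hc : constantCoeff f ∈ maximalIdeal 𝒪 := by
    rw [mem_maximalIdeal, mem_nonunits_iff] at hf ⊢
    intro hu
    exact hf (MvPowerSeries.isUnit_iff_constantCoeff.2 hu)
  rw [hϖ, Ideal.mem_span_singleton] at hc
  obtain ⟨c, hc⟩ := hc
  have hspan : Ideal.span ((fun j : Fin n => (X j : MvPowerSeries (Fin n) 𝒪)) ''
      ((Finset.univ : Finset (Fin n)) : Set (Fin n))) ≤ J := by
    rw [Ideal.span_le]
    rintro _ ⟨j, -, rfl⟩
    exact hX j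
  have h1 : f - C ϖ * C c ∈ Ideal.span ((fun j : Fin n => (X j : MvPowerSeries (Fin n) 𝒪)) ''
      ((Finset.univ : Finset (Fin n)) : Set (Fin n))) := by
    rw [Fermat.Agent.S57.H90.mem_span_X_image_iff]
    intro m hm
    have hm0 : m = 0 := by
      ext j
      exact hm j (Finset.mem_univ j)
    subst hm0
    rw [coeff_zero_eq_constantCoeff_apply, map_sub, map_mul, constantCoeff_C, constantCoeff_C,
      hc, sub_self]
  have h2 : f = (f - C ϖ * C c) + C ϖ * C c := by ring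
  rw [h2]
  exact J.add_mem (hspan h1) (J.mul_mem_right _ h0)

/-- A quotient of `𝒪⟦X₁..X_n⟧` in which `ϖ` and all the variables are nilpotent has dimension
`≤ 0`. -/
theorem ringKrullDim_le_zero_of_nilpotent {𝒪 : Type} [CommRing 𝒪] [IsLocalRing 𝒪] {n : ℕ}
    {Q : Type} [CommRing Q] (π : MvPowerSeries (Fin n) 𝒪 →+* Q) (hπ : Function.Surjective π)
    (ϖ : 𝒪) (hϖ : maximalIdeal 𝒪 = Ideal.span {ϖ})
    (h0 : IsNilpotent (π (C ϖ))) (hX : ∀ i, IsNilpotent (π (X i))) :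
    ringKrullDim Q ≤ 0 := by
  have hK : Ring.KrullDimLE 0 Q := by
    refine Ring.KrullDimLE.mk₀ fun 𝔭 h𝔭 => ?_
    have hcp : (Ideal.comap π 𝔭).IsPrime := Ideal.comap_isPrime π 𝔭
    have hle : maximalIdeal (MvPowerSeries (Fin n) 𝒪) ≤ Ideal.comap π 𝔭 := by
      intro f hf
      refine mem_of_mem_maximalIdeal ϖ hϖ _ ?_ ?_ hf
      · rw [Ideal.mem_comap]
        obtain ⟨N, hN⟩ := h0
        exact h𝔭.mem_of_pow_mem N (by rw [hN]; exact 𝔭.zero_mem)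
      · intro i
        rw [Ideal.mem_comap]
        obtain ⟨N, hN⟩ := hX i
        exact h𝔭.mem_of_pow_mem N (by rw [hN]; exact 𝔭.zero_mem)
    have heq : maximalIdeal (MvPowerSeries (Fin n) 𝒪) = Ideal.comap π 𝔭 :=
      (maximalIdeal.isMaximal _).eq_of_le hcp.ne_top hle
    have hmap : Ideal.map π (Ideal.comap π 𝔭) = 𝔭 := Ideal.map_comap_of_surjective π hπ 𝔭
    rcases Ideal.map_eq_top_or_isMaximal_of_surjective π hπ
      (maximalIdeal.isMaximal (MvPowerSeries (Fin n) 𝒪)) with h | h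
    · rw [heq, hmap] at h
      exact absurd h h𝔭.ne_top
    · rwa [heq, hmap] at h
  have := Ring.krullDimLE_iff.1 hK
  simpa using this

/-! ### The nilpotency computation -/

/-- In a ring where `4` is a unit: `m² + 4yz = 0`, vanishing minors, `s = 0`, `v = -z`, `w = -y`
imply `m³ = y³ = z³ = 0`. -/
theorem cube_eq_zero {Q : Type} [CommRing Q] (h4 : IsUnit (4 : Q)) {Y Z M V W S : Q}
    (hQ : M ^ 2 + 4 * Y * Z = 0) (h1 : Y * W - Z * V = 0) (h2 : Y * S - M * V = 0)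
    (h3 : Z * S - M * W = 0) (hS : S = 0) (hV : V + Z = 0) (hW : W + Y = 0) :
    M ^ 3 = 0 ∧ Y ^ 3 = 0 ∧ Z ^ 3 = 0 := by
  have hMY : M * Y = 0 := by linear_combination h3 - Z * hS + M * hW
  have hMZ : M * Z = 0 := by linear_combination h2 - Y * hS + M * hV
  have hZY : Z ^ 2 - Y ^ 2 = 0 := by linear_combination h1 - Y * hW + Z * hV
  refine ⟨by linear_combination M * hQ - 4 * Z * hMY, ?_, ?_⟩
  · have h : 4 * Y ^ 3 = 0 := by linear_combination (-4 * Y) * hZY + Z * hQ - M * hMZ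
    exact (h4.mul_right_eq_zero).1 h
  · have h : 4 * Z ^ 3 = 0 := by linear_combination (4 * Z) * hZY + Y * hQ - M * hMY
    exact (h4.mul_right_eq_zero).1 h

/-! ### The cutting elements -/

section Main

variable {𝒪 : Type} [CommRing 𝒪] {k g : ℕ}

/-- The index type of the `1 + 3k + g` cutting elements. -/
abbrev Idx (k g : ℕ) : Type := Unit ⊕ ((Fin k × Fin 3) ⊕ Fin g)

/-- The `1 + 3k + g` elements `ϖ, s_j, v_j + z_j, w_j + y_j, x_a`. -/
noncomputable def cutElt (ϖ : 𝒪) : Idx k g → PRing 𝒪 k g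
  | Sum.inl _ => C ϖ
  | Sum.inr (Sum.inl (j, i)) =>
      if i = 0 then cs 𝒪 g j else if i = 1 then cv 𝒪 g j + cz 𝒪 g j else cw 𝒪 g j + cy 𝒪 g j
  | Sum.inr (Sum.inr a) => X (xIdx k g a)

theorem mem_maximalIdeal_iff_constantCoeff [IsLocalRing 𝒪] {n : ℕ}
    (f : MvPowerSeries (Fin n) 𝒪) :
    f ∈ maximalIdeal (MvPowerSeries (Fin n) 𝒪) ↔ constantCoeff f ∈ maximalIdeal 𝒪 := by
  rw [mem_maximalIdeal, mem_nonunits_iff, mem_maximalIdeal, mem_nonunits_iff,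
    MvPowerSeries.isUnit_iff_constantCoeff]

theorem cutElt_mem_maximalIdeal [IsLocalRing 𝒪] (ϖ : 𝒪) (hϖ : ϖ ∈ maximalIdeal 𝒪)
    (i : Idx k g) : cutElt ϖ i ∈ maximalIdeal (PRing 𝒪 k g) := by
  rw [mem_maximalIdeal_iff_constantCoeff]
  rcases i with _ | ⟨j, i⟩ | a
  · simpa [cutElt] using hϖ
  · simp only [cutElt, cs, cv, cz, cw, cy]
    split_ifs <;> simp
  · simp [cutElt]

theorem card_Idx (k g : ℕ) : Fintype.card (Idx k g) = 1 + 3 * k + g := by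
  simp [Idx]
  ring

/-- Every index of `Fin (6k+g)` is a `cIdx` or an `xIdx`. -/
theorem idx_cases (i : Fin (6 * k + g)) :
    (∃ (j : Fin k) (t : Fin 6), i = cIdx k g j t) ∨ ∃ a : Fin g, i = xIdx k g a := by
  by_cases h : i.1 < 6 * k
  · left
    refine ⟨⟨i.1 / 6, by omega⟩, ⟨i.1 % 6, Nat.mod_lt _ (by norm_num)⟩, ?_⟩
    apply Fin.ext
    show i.1 = 6 * (i.1 / 6) + i.1 % 6
    omega
  · right
    refine ⟨⟨i.1 - 6 * k, by have := i.2; omega⟩, ?_⟩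
    apply Fin.ext
    show i.1 = 6 * k + (i.1 - 6 * k)
    omega

/-- Modulo `typeIdeal δ` and the cutting elements every variable is nilpotent. -/
theorem isNilpotent_X_of [IsLocalRing 𝒪] {Q : Type} [CommRing Q] (π : PRing 𝒪 k g →+* Q)
    (ϖ : 𝒪) (δ : Fin k → 𝒪) (h2 : IsUnit (2 : 𝒪)) (hδ : ∀ j, δ j ∈ Ideal.span {ϖ})
    (hπ0 : ∀ i : Idx k g, π (cutElt ϖ i) = 0) (hπI : ∀ f ∈ typeIdeal g δ, π f = 0)
    (i : Fin (6 * k + g)) : IsNilpotent (π (X i)) := by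
  have hπϖ : π (C ϖ) = 0 := hπ0 (Sum.inl ())
  have h4 : IsUnit (4 : Q) := by
    have h := h2.map (π.comp (C : 𝒪 →+* PRing 𝒪 k g))
    rw [map_ofNat] at h
    have h' := h.mul h
    have e : (2 : Q) * 2 = 4 := by norm_num
    rwa [e] at h'
  have hcoord : ∀ j : Fin k, π (cm 𝒪 g j) ^ 3 = 0 ∧ π (cy 𝒪 g j) ^ 3 = 0 ∧
      π (cz 𝒪 g j) ^ 3 = 0 ∧ π (cs 𝒪 g j) = 0 ∧ π (cv 𝒪 g j) + π (cz 𝒪 g j) = 0 ∧
      π (cw 𝒪 g j) + π (cy 𝒪 g j) = 0 := by
    intro j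
    have hS : π (cs 𝒪 g j) = 0 := by
      have := hπ0 (Sum.inr (Sum.inl (j, 0)))
      simpa [cutElt] using this
    have hV : π (cv 𝒪 g j) + π (cz 𝒪 g j) = 0 := by
      have := hπ0 (Sum.inr (Sum.inl (j, 1)))
      simpa [cutElt] using this
    have hW : π (cw 𝒪 g j) + π (cy 𝒪 g j) = 0 := by
      have := hπ0 (Sum.inr (Sum.inl (j, 2)))
      simpa [cutElt] using this
    have hδ0 : π (C (δ j ^ 2)) = 0 := by
      have hd := hδ j
      rw [Ideal.mem_span_singleton] at hd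
      obtain ⟨c, hc⟩ := hd
      have : (C (δ j ^ 2) : PRing 𝒪 k g) = C ϖ * C (ϖ * c ^ 2) := by
        rw [← map_mul, hc]; congr 1; ring
      rw [this, map_mul, hπϖ]
      exact zero_mul _
    have hQ : π (cm 𝒪 g j) ^ 2 + 4 * π (cy 𝒪 g j) * π (cz 𝒪 g j) = 0 := by
      have h := hπI _ (Q1_sub_mem_typeIdeal (g := g) δ j)
      rw [map_sub, hδ0, sub_zero, Q1] at h
      simpa only [map_add, map_mul, map_pow, map_ofNat] using h
    have h1 : π (cy 𝒪 g j) * π (cw 𝒪 g j) - π (cz 𝒪 g j) * π (cv 𝒪 g j) = 0 := by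
      have h := hπI _ (minor1_mem_typeIdeal (g := g) δ j)
      simpa only [minor1, map_sub, map_mul] using h
    have h2' : π (cy 𝒪 g j) * π (cs 𝒪 g j) - π (cm 𝒪 g j) * π (cv 𝒪 g j) = 0 := by
      have h := hπI _ (minor2_mem_typeIdeal (g := g) δ j)
      simpa only [minor2, map_sub, map_mul] using h
    have h3 : π (cz 𝒪 g j) * π (cs 𝒪 g j) - π (cm 𝒪 g j) * π (cw 𝒪 g j) = 0 := by
      have h := hπI _ (minor3_mem_typeIdeal (g := g) δ j)
      simpa only [minor3, map_sub, map_mul] using h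
    obtain ⟨a, b, c⟩ := cube_eq_zero h4 hQ h1 h2' h3 hS hV hW
    exact ⟨a, b, c, hS, hV, hW⟩
  rcases idx_cases i with ⟨j, t, rfl⟩ | ⟨a, rfl⟩
  · obtain ⟨hm, hy, hz, hS, hV, hW⟩ := hcoord j
    fin_cases t
    · exact ⟨3, hy⟩
    · exact ⟨3, hz⟩
    · exact ⟨3, hm⟩
    · have e : π (cv 𝒪 g j) = - π (cz 𝒪 g j) := eq_neg_of_add_eq_zero_left hV
      have : IsNilpotent (π (cv 𝒪 g j)) := by
        rw [e]; exact (IsNilpotent.neg (x := π (cz 𝒪 g j)) ⟨3, hz⟩)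
      exact this
    · have e : π (cw 𝒪 g j) = - π (cy 𝒪 g j) := eq_neg_of_add_eq_zero_left hW
      have : IsNilpotent (π (cw 𝒪 g j)) := by
        rw [e]; exact (IsNilpotent.neg (x := π (cy 𝒪 g j)) ⟨3, hy⟩)
      exact this
    · have : IsNilpotent (π (cs 𝒪 g j)) := by rw [hS]; exact IsNilpotent.zero
      exact this
  · have := hπ0 (Sum.inr (Sum.inr a))
    have h' : π (X (xIdx k g a)) = 0 := by simpa [cutElt] using this
    rw [h']
    exact IsNilpotent.zero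

/-- The dimension bound for any local noetherian quotient of `P` killing `typeIdeal δ`. -/
theorem ringKrullDim_le_of_surjective [IsLocalRing 𝒪] {R : Type} [CommRing R]
    [IsNoetherianRing R] [IsLocalRing R] (φ : PRing 𝒪 k g →+* R) (hφ : Function.Surjective φ)
    (ϖ : 𝒪) (δ : Fin k → 𝒪) (h2 : IsUnit (2 : 𝒪)) (hϖ : maximalIdeal 𝒪 = Ideal.span {ϖ})
    (hδ : ∀ j, δ j ∈ maximalIdeal 𝒪) (hφI : ∀ f ∈ typeIdeal g δ, φ f = 0) :
    ringKrullDim R ≤ ((1 + 3 * k + g : ℕ) : WithBot ℕ∞) := by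
  classical
  have hϖm : ϖ ∈ maximalIdeal 𝒪 := by
    rw [hϖ]; exact Ideal.mem_span_singleton_self ϖ
  let s : Set R := Set.range (fun i : Idx k g => φ (cutElt ϖ i))
  have hcomap : Ideal.comap φ (maximalIdeal R) = maximalIdeal (PRing 𝒪 k g) := by
    have : (Ideal.comap φ (maximalIdeal R)).IsMaximal :=
      Ideal.comap_isMaximal_of_surjective _ hφ
    exact IsLocalRing.eq_maximalIdeal this
  have hs : s ⊆ Ring.jacobson R := by
    rw [IsLocalRing.ringJacobson_eq_maximalIdeal]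
    rintro _ ⟨i, rfl⟩
    have h := cutElt_mem_maximalIdeal (k := k) (g := g) ϖ hϖm i
    rw [← hcomap, Ideal.mem_comap] at h
    exact h
  have hmain := ringKrullDim_le_ringKrullDim_quotient_add_encard s hs
  have hcard : s.encard ≤ ((1 + 3 * k + g : ℕ) : ℕ∞) := by
    show (Set.range (fun i : Idx k g => φ (cutElt ϖ i))).encard ≤ _
    rw [← Set.image_univ]
    refine (Set.encard_image_le _ _).trans ?_
    rw [Set.encard_univ, ENat.card_eq_coe_fintype_card, card_Idx]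
  have hπs : Function.Surjective ((Ideal.Quotient.mk (Ideal.span s)).comp φ) :=
    Ideal.Quotient.mk_surjective.comp hφ
  have hπ0 : ∀ i : Idx k g, ((Ideal.Quotient.mk (Ideal.span s)).comp φ) (cutElt ϖ i) = 0 := by
    intro i
    rw [RingHom.comp_apply, Ideal.Quotient.eq_zero_iff_mem]
    exact Ideal.subset_span ⟨i, rfl⟩
  have hπI : ∀ f ∈ typeIdeal g δ, ((Ideal.Quotient.mk (Ideal.span s)).comp φ) f = 0 := by
    intro f hf
    rw [RingHom.comp_apply, hφI f hf, map_zero]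
  have hnil := isNilpotent_X_of ((Ideal.Quotient.mk (Ideal.span s)).comp φ) ϖ δ h2
    (fun j => hϖ ▸ hδ j) hπ0 hπI
  have hQ0 : ringKrullDim (R ⧸ Ideal.span s) ≤ 0 :=
    ringKrullDim_le_zero_of_nilpotent _ hπs ϖ hϖ
      (by have h : ((Ideal.Quotient.mk (Ideal.span s)).comp φ) (C ϖ) = 0 := hπ0 (Sum.inl ())
          rw [h]; exact IsNilpotent.zero) hnil
  calc ringKrullDim R
      ≤ ringKrullDim (R ⧸ Ideal.span s) + s.encard := hmain
    _ ≤ 0 + ((1 + 3 * k + g : ℕ) : WithBot ℕ∞) :=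
        add_le_add hQ0 (WithBot.coe_le_coe.2 hcard)
    _ = ((1 + 3 * k + g : ℕ) : WithBot ℕ∞) := zero_add _

/-- **TYPE-DIM.** -/
theorem stmt_TypeDim : Stmt_TypeDim := by
  intro 𝒪 _ _ _ _ k g ϖ δ h2 hϖ hδ hI
  have : Nontrivial (PRing 𝒪 k g ⧸ typeIdeal g δ) := Ideal.Quotient.nontrivial_iff.2 hI
  have : IsLocalRing (PRing 𝒪 k g ⧸ typeIdeal g δ) :=
    IsLocalRing.of_surjective' (Ideal.Quotient.mk (typeIdeal g δ)) Ideal.Quotient.mk_surjective
  exact ringKrullDim_le_of_surjective (Ideal.Quotient.mk (typeIdeal g δ))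
    Ideal.Quotient.mk_surjective ϖ δ h2 hϖ hδ
    (fun f hf => (Ideal.Quotient.eq_zero_iff_mem).2 hf)

end Main

end Fermat.Agent.L.Pivot.H01

end
-- ==== END Fermat.Agent.L.Pivot.H01_TypeDim

-- ==== BEGIN Fermat.Agent.L.Pivot.H3_CycH76
section

/-!
# PIVOT, leaf CYC (helper3): `H76.Stmt_CYC`

The statement `Fermat.Agent.L.Pivot.H76.Stmt_CYC` (L/Pivot/H76_Wire2WDefs.lean) is
`exists_split_cyc_ext` (L/Pivot/H3_Cyc.lean) for `n = p ^ e`.
-/

set_option autoImplicit false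

open Polynomial IsLocalRing

namespace Fermat.Agent.L.Pivot.H3

/-- **CYC.** -/
theorem stmt_CYC : Fermat.Agent.L.Pivot.H76.Stmt_CYC := by
  intro 𝒪 _ _ _ _ _ _ p e hp
  obtain ⟨𝒪', i1, i2, i3, i4, i5, i6, i7, i8, i9, i10, hquad, hζ⟩ :=
    exists_split_cyc_ext 𝒪 (p ^ e) (pow_pos hp.pos e)
  exact ⟨𝒪', i1, i2, i3, i4, i5, i6, i7, i8, i9, i10, hquad, hζ _ dvd_rfl⟩

end Fermat.Agent.L.Pivot.H3

end
-- ==== END Fermat.Agent.L.Pivot.H3_CycH76

-- ==== BEGIN Fermat.Agent.L.Pivot.H3_End3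
section

set_option autoImplicit false

namespace Fermat.Agent.L.Pivot.H3

open Ideal

section main3

variable {S P : Type*} [CommRing S] [CommRing P] [Algebra S P]

/-- Core of the endgame, final form: `𝔮` a prime in the support of `Mχ` containing `π`; near `𝔮`
the support of `M₁` lies in `V(𝔵)` (`𝔵` any ideal).  Then there is a prime in the support of `M₁`,
containing `𝔵`, over any given prime `𝔰` of `S`. -/
theorem pivot_endgame_core'
    {Mχ M₁ : Type*} [AddCommGroup Mχ] [Module S Mχ] [Module P Mχ] [IsScalarTower S P Mχ]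
    [Module.Finite S Mχ]
    [AddCommGroup M₁] [Module S M₁] [Module P M₁] [IsScalarTower S P M₁] [Module.Finite S M₁]
    (htf₁ : ∀ (s : S) (m : M₁), s • m = 0 → s = 0 ∨ m = 0)
    (π : S) (𝔰 : Ideal S) [𝔰.IsPrime]
    (hcomp : Module.annihilator P (M₁ ⧸ (Ideal.span {algebraMap S P π} • ⊤ : Submodule P M₁))
      ≤ Module.annihilator P (Mχ ⧸ (Ideal.span {algebraMap S P π} • ⊤ : Submodule P Mχ)))
    (𝔮 𝔵 : Ideal P) [𝔮.IsPrime]
    (hχ𝔮 : Module.annihilator P Mχ ≤ 𝔮) (hπ𝔮 : algebraMap S P π ∈ 𝔮)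
    (hdich : ∀ 𝔭 : Ideal P, 𝔭.IsPrime → Module.annihilator P M₁ ≤ 𝔭 → 𝔭 ≤ 𝔮 → 𝔵 ≤ 𝔭) :
    ∃ 𝔯 : Ideal P, 𝔯.IsPrime ∧ Module.annihilator P M₁ ≤ 𝔯 ∧ 𝔵 ≤ 𝔯 ∧
      𝔯.comap (algebraMap S P) = 𝔰 := by
  have hfinχ : Module.Finite P Mχ := Module.Finite.of_restrictScalars_finite S P Mχ
  have hq1 : (⟨𝔮, inferInstance⟩ : PrimeSpectrum P) ∈ Module.support P Mχ := by
    rw [Module.support_eq_zeroLocus, PrimeSpectrum.mem_zeroLocus]
    exact hχ𝔮
  have hq2 : (⟨𝔮, inferInstance⟩ : PrimeSpectrum P) ∈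
      PrimeSpectrum.zeroLocus (Ideal.span {algebraMap S P π} : Set P) := by
    rw [PrimeSpectrum.mem_zeroLocus]
    intro x hx
    exact (Ideal.span_singleton_le_iff_mem (I := 𝔮)).2 hπ𝔮 hx
  have hq3 : (⟨𝔮, inferInstance⟩ : PrimeSpectrum P) ∈
      Module.support P (Mχ ⧸ (Ideal.span {algebraMap S P π} • ⊤ : Submodule P Mχ)) := by
    rw [Module.support_quotient]
    exact ⟨hq1, hq2⟩
  have hq4 : Module.annihilator P (Mχ ⧸ (Ideal.span {algebraMap S P π} • ⊤ : Submodule P Mχ))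
      ≤ 𝔮 := by
    rw [Module.support_eq_zeroLocus, PrimeSpectrum.mem_zeroLocus] at hq3
    exact hq3
  have hA₁𝔮 : Module.annihilator P M₁ ≤ 𝔮 :=
    ((LinearMap.annihilator_le_of_surjective _ (Submodule.mkQ_surjective
      (Ideal.span {algebraMap S P π} • ⊤ : Submodule P M₁))).trans hcomp).trans hq4
  obtain ⟨𝔭, h𝔭min, h𝔭𝔮⟩ := Ideal.exists_minimalPrimes_le hA₁𝔮
  have h𝔭prime : 𝔭.IsPrime := h𝔭min.1.1
  have hA₁𝔭 : Module.annihilator P M₁ ≤ 𝔭 := h𝔭min.1.2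
  have h𝔵𝔭 : 𝔵 ≤ 𝔭 := hdich 𝔭 h𝔭prime hA₁𝔭 h𝔭𝔮
  have h𝔭bot : 𝔭.comap (algebraMap S P) = ⊥ := comap_eq_bot_of_mem_minimalPrimes htf₁ h𝔭min
  have hinj𝔭 : Function.Injective (algebraMap S (P ⧸ 𝔭)) := by
    rw [injective_iff_map_eq_zero]
    intro s hs
    rw [IsScalarTower.algebraMap_apply S P (P ⧸ 𝔭), Ideal.Quotient.algebraMap_eq,
      Ideal.Quotient.eq_zero_iff_mem] at hs
    have : s ∈ 𝔭.comap (algebraMap S P) := hs
    rwa [h𝔭bot, Ideal.mem_bot] at this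
  have hint𝔭 : Algebra.IsIntegral S (P ⧸ 𝔭) :=
    isIntegral_quotient_annihilator (S := S) (M := M₁) 𝔭 hA₁𝔭
  have hker : (⊥ : Ideal (P ⧸ 𝔭)).comap (algebraMap S (P ⧸ 𝔭)) ≤ 𝔰 := by
    have : (⊥ : Ideal (P ⧸ 𝔭)).comap (algebraMap S (P ⧸ 𝔭)) = ⊥ := by
      rw [← RingHom.ker_eq_comap_bot]
      exact (RingHom.injective_iff_ker_eq_bot _).1 hinj𝔭
    rw [this]; exact bot_le
  obtain ⟨Q, -, hQ, hQ𝔰⟩ := Ideal.exists_ideal_over_prime_of_isIntegral 𝔰 ⊥ hker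
  have h𝔭Q : 𝔭 ≤ Q.comap (Ideal.Quotient.mk 𝔭) := by
    intro x hx
    rw [Ideal.mem_comap, Ideal.Quotient.eq_zero_iff_mem.2 hx]
    exact Q.zero_mem
  refine ⟨Q.comap (Ideal.Quotient.mk 𝔭), Ideal.comap_isPrime _ _, hA₁𝔭.trans h𝔭Q,
    h𝔵𝔭.trans h𝔭Q, ?_⟩
  rw [← hQ𝔰, Ideal.comap_comap]
  rfl

/-- **PV-END, final form**: several ramified types `𝔞 i`, no hypothesis on `𝔵`. -/
theorem pivot_endgame_multi'
    {Mχ M₁ : Type*} [AddCommGroup Mχ] [Module S Mχ] [Module P Mχ] [IsScalarTower S P Mχ]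
    [Module.Finite S Mχ] [Nontrivial Mχ]
    [AddCommGroup M₁] [Module S M₁] [Module P M₁] [IsScalarTower S P M₁] [Module.Finite S M₁]
    (htfχ : ∀ (s : S) (m : Mχ), s • m = 0 → s = 0 ∨ m = 0)
    (htf₁ : ∀ (s : S) (m : M₁), s • m = 0 → s = 0 ∨ m = 0)
    (π : S) (𝔰 : Ideal S) [𝔰.IsPrime]
    (d : ℕ) (hd : (d : WithBot ℕ∞) ≤ ringKrullDim S)
    {ι : Type*} (t : Finset ι) (𝔞 : ι → Ideal P) (h𝔞prime : ∀ i ∈ t, (𝔞 i).IsPrime)
    (h𝔞 : t.inf 𝔞 ≤ Module.annihilator P Mχ)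
    (h𝔞dim : ∀ i ∈ t, ringKrullDim (P ⧸ 𝔞 i) ≤ d)
    (hcomp : Module.annihilator P (M₁ ⧸ (Ideal.span {algebraMap S P π} • ⊤ : Submodule P M₁))
      ≤ Module.annihilator P (Mχ ⧸ (Ideal.span {algebraMap S P π} • ⊤ : Submodule P Mχ)))
    (𝔮 𝔵 : Ideal P) [𝔮.IsPrime] (h𝔞𝔮 : ∀ i ∈ t, 𝔞 i ≤ 𝔮)
    (hπ𝔮 : algebraMap S P π ∈ 𝔮)
    (hdich : ∀ 𝔭 : Ideal P, 𝔭.IsPrime → Module.annihilator P M₁ ≤ 𝔭 → 𝔭 ≤ 𝔮 → 𝔵 ≤ 𝔭) :
    ∃ 𝔯 : Ideal P, 𝔯.IsPrime ∧ Module.annihilator P M₁ ≤ 𝔯 ∧ 𝔵 ≤ 𝔯 ∧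
      𝔯.comap (algebraMap S P) = 𝔰 := by
  obtain ⟨i, hi, hAi⟩ := exists_annihilator_le_of_inf htfχ d hd t 𝔞 h𝔞prime h𝔞 h𝔞dim
  exact pivot_endgame_core' htf₁ π 𝔰 hcomp 𝔮 𝔵 (hAi.trans (h𝔞𝔮 i hi)) hπ𝔮 hdich

/-- The dichotomy from relations `e • x = 0`, `e ∉ 𝔮`. -/
theorem dich_of_rel {I1 𝔮 𝔵 : Ideal P} {κ : Type*} (e x : κ → P)
    (h𝔵 : 𝔵 ≤ Ideal.span (Set.range x)) (hI1 : ∀ a, e a * x a ∈ I1) (he : ∀ a, e a ∉ 𝔮)
    (𝔭 : Ideal P) (h𝔭 : 𝔭.IsPrime) (hI : I1 ≤ 𝔭) (hle : 𝔭 ≤ 𝔮) : 𝔵 ≤ 𝔭 := by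
  refine h𝔵.trans ?_
  rw [Ideal.span_le]
  rintro _ ⟨a, rfl⟩
  rcases h𝔭.mem_or_mem (hI (hI1 a)) with h | h
  · exact absurd (hle h) (he a)
  · exact h

end main3

end Fermat.Agent.L.Pivot.H3

end
-- ==== END Fermat.Agent.L.Pivot.H3_End3
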