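-- GENERATED (merged mirror, NOTES/tools/trim/merge3_helper67.py): 9 modules of the originals, bodies verbatim.
import Mathlib
import Fermat.Agent.Zm.S43_L01_000
import Fermat.Agent.Zm.S43_L03_000
import Fermat.Agent.RED.ES.H95_NormEmb
import Fermat.Agent.Zm.S35_L02_000
import Fermat.Agent.Zm.S35_L13_002
import Fermat.Agent.Zm.S43_L01_005
import Fermat.Agent.Zm.S43_L02_004
import Fermat.Agent.Zm.S43_L03_004
import Fermat.Agent.Zm.S43_L03_001
import Fermat.Agent.Zm.S43_L03_002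
import Fermat.Agent.Zm.S56_L01_001
import Fermat.Agent.Zm.S48_L07_000
import Fermat.Agent.Zm.S43_L01_002
import Fermat.Agent.Zm.S36_L03_000
import Fermat.Agent.Zm.S43_L01_003
import Fermat.Agent.Zm.S36_L02_001
import Fermat.Agent.Zm.S35_L05_002
import Fermat.Agent.Zm.S35_L05_001
import Fermat.Agent.Zm.S43_L02_001
import Fermat.Agent.Zm.S48_L13_000
import Fermat.Agent.Zm.S35_L13_001
import Fermat.Agent.Zm.S43_L02_002
import Fermat.Agent.Zm.S35_L15_001
import Fermat.Agent.Zm.S44_L01_001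
import Fermat.Agent.Zm.S35_L16_001
import Fermat.Agent.Zm.S35_L12_001
import Fermat.Agent.Zm.S35_L16_000
import Fermat.Agent.Zm.S35_L18_000
import Fermat.Agent.Zm.S43_L03_003
import Fermat.Agent.Zm.S35_L03_002

-- ==== BEGIN Fermat.Agent.L.Pivot.Geom.H24_B2BetaNorm
section

/-!
# PIVOT, PV-GEOM, leaf PVG-B2 (helper24), part 6d: the `q`-expansion of the norm along `β`

For a prime `q ∣ M`, `f ∈ F_{ℚ̄}(M q)` and `ι : ℚ̄ → ℂ`:

  `(ι (Norm_β f)) (q^q) = ∏_{j<q} (ι f) (ζ^j q)`,   `ζ = exp(2πi/q)`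

(`qExpand_bc_normBeta`).  The `q` conjugates of `F(Mq)` over `β F(M)` are the twists
`f ↦ f (ζ^j q)`; the degree is `q` (`finrank_beta_of_dvd`).
-/

set_option autoImplicit false
set_option linter.style.haveILetI false
set_option linter.unusedSectionVars false

open ModularCurve AlgebraicCurve
open scoped MatrixGroups

noncomputable section

namespace Fermat.Agent.L.Pivot.Geom.H24

open Fermat.Agent.GTor Fermat.Agent.GTor.H44 Fermat.Agent.Lib.HeckeComm

local notation "Kb" => AlgebraicClosure ℚ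

theorem twistBy_qExpand_h24 {K : Type} [Field K] (ℓ : ℕ) [NeZero ℓ] {ζ : Kˣ} (hζ : ζ ^ ℓ = 1)
    (x : LaurentSeries K) : twistBy ζ (qExpand K ℓ x) = qExpand K ℓ x := by
  ext m
  rw [twistBy_coeff]
  by_cases hm : (ℓ : ℤ) ∣ m
  · obtain ⟨k, rfl⟩ := hm
    have : ζ ^ ((ℓ : ℤ) * k) = 1 := by
      rw [zpow_mul, zpow_natCast, hζ, one_zpow]
    rw [this, Units.val_one, one_mul]
  · rw [qExpand_coeff_of_not_dvd ℓ _ hm, mul_zero]

variable (M q : ℕ) [NeZero M] [NeZero q]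

/-- The embedding `F_{ℚ̄}(N) → ℂ((q))` given by `ι` on the coefficients. -/
def embC (ι : Kb →+* ℂ) (N : ℕ) : Fermat.Agent.S24.FN N →+* LaurentSeries ℂ :=
  (coeffMap ι).comp (algebraMap (Fermat.Agent.S24.FN N) (LaurentSeries Kb))

theorem embC_apply (ι : Kb →+* ℂ) (N : ℕ) (x : Fermat.Agent.S24.FN N) :
    embC ι N x = coeffMap ι (x : LaurentSeries Kb) := rfl

/-- The conjugate `f ↦ (ι f) (ζ^j q)`. -/
def sigB (ι : Kb →+* ℂ) (j : ℕ) : Fermat.Agent.S24.FN (M * q) →+* LaurentSeries ℂ :=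
  (twistBy (zetaUnit q ^ j)).comp (embC ι (M * q))

theorem sigB_apply (ι : Kb →+* ℂ) (j : ℕ) (x : Fermat.Agent.S24.FN (M * q)) :
    sigB M q ι j x = twistBy (zetaUnit q ^ j) (coeffMap ι (x : LaurentSeries Kb)) := rfl

/-- The base embedding `f ↦ (ι f) (q^q)`. -/
def psiB (ι : Kb →+* ℂ) : Fermat.Agent.S24.FN M →+* LaurentSeries ℂ :=
  (qExpand ℂ q).comp (embC ι M)

theorem psiB_apply (ι : Kb →+* ℂ) (x : Fermat.Agent.S24.FN M) :
    psiB M q ι x = qExpand ℂ q (coeffMap ι (x : LaurentSeries Kb)) := rfl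

theorem zetaUnit_pow_pow (j : ℕ) : (zetaUnit q ^ j) ^ q = 1 := by
  rw [← pow_mul, mul_comm, pow_mul, (isPrimitiveRoot_zetaUnit q).pow_eq_one, one_pow]

theorem sigB_beta (ι : Kb →+* ℂ) (j : ℕ) (x : Fermat.Agent.S24.FN M) :
    sigB M q ι j (heckeBetaBar Kb M q x) = psiB M q ι x := by
  rw [sigB_apply, psiB_apply, coe_heckeBetaBar, ModularCurve.coeffMap_qExpand,
    twistBy_qExpand_h24 q (zetaUnit_pow_pow q j)]

theorem sigB_jF_coeff (ι : Kb →+* ℂ) (j : ℕ) :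
    (sigB M q ι j (Fermat.Agent.S24.jF (M * q))).coeff (-1 : ℤ)
      = (((zetaUnit q ^ j) ^ (-1 : ℤ) : ℂˣ) : ℂ) := by
  rw [sigB_apply, twistBy_coeff]
  have h1 : ((Fermat.Agent.S24.jF (M * q) : Fermat.Agent.S24.FN (M * q)) : LaurentSeries Kb)
      = coeffEmb Kb jq := rfl
  rw [h1, Fermat.Agent.GTor.H75.coeffMap_coeffEmb' (L₁ := Kb) (L₂ := ℂ) ι jq, coeffEmb_coeff,
    coeff_jq_neg_one, map_one, mul_one]

theorem sigB_injOn (ι : Kb →+* ℂ) {a b : ℕ} (ha : a < q) (hb : b < q)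
    (h : sigB M q ι a = sigB M q ι b) : a = b := by
  have hval := congrArg (fun σ : Fermat.Agent.S24.FN (M * q) →+* LaurentSeries ℂ =>
    (σ (Fermat.Agent.S24.jF (M * q))).coeff (-1 : ℤ)) h
  beta_reduce at hval
  rw [sigB_jF_coeff, sigB_jF_coeff] at hval
  have h1 : (zetaUnit q ^ a) ^ (-1 : ℤ) = (zetaUnit q ^ b) ^ (-1 : ℤ) := Units.ext hval
  rw [zpow_neg_one, zpow_neg_one, inv_inj] at h1
  exact (isPrimitiveRoot_zetaUnit q).pow_inj ha hb h1

/-- **The `q`-expansion of the norm along `β`**, `q ∣ M` prime. -/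
theorem qExpand_bc_normBeta (hq : q.Prime) (hqM : q ∣ M) (ι : Kb →+* ℂ)
    (f : Fermat.Agent.S24.FN (M * q)) :
    qExpand ℂ q (coeffMap ι
        ((normAlongHom (heckeBetaBar Kb M q).toRingHom f : Fermat.Agent.S24.FN M) :
          LaurentSeries Kb))
      = ∏ j ∈ Finset.range q, twistBy (zetaUnit q ^ j) (coeffMap ι (f : LaurentSeries Kb)) := by
  letI := (heckeBetaBar Kb M q).toRingHom.toAlgebra
  letI : Algebra (Fermat.Agent.S24.FN M) (LaurentSeries ℂ) := (psiB M q ι).toAlgebra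
  haveI : FiniteDimensional (Fermat.Agent.S24.FN M) (Fermat.Agent.S24.FN (M * q)) :=
    Fermat.Agent.S36.H44.beta_finite M q
  let σ' : Fin q → (Fermat.Agent.S24.FN (M * q) →ₐ[Fermat.Agent.S24.FN M] LaurentSeries ℂ) :=
    fun i => { sigB M q ι (i : ℕ) with commutes' := fun x => sigB_beta M q ι (i : ℕ) x }
  have hinj' : Function.Injective σ' := by
    intro i j h
    apply Fin.ext
    apply sigB_injOn M q ι i.2 j.2
    refine RingHom.ext fun z => ?_
    exact congrArg (fun g : Fermat.Agent.S24.FN (M * q) →ₐ[Fermat.Agent.S24.FN M]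
      LaurentSeries ℂ => g z) h
  have hcard : Fintype.card (Fin q)
      = Module.finrank (Fermat.Agent.S24.FN M) (Fermat.Agent.S24.FN (M * q)) := by
    rw [Fintype.card_fin]
    exact (finrank_beta_of_dvd M q hq hqM).symm
  have key := Fermat.Agent.RED.H95.norm_eq_prod_of_injective σ' hinj' hcard f
  rw [← Fin.prod_univ_eq_prod_range]
  exact key

end Fermat.Agent.L.Pivot.Geom.H24

end
end
-- ==== END Fermat.Agent.L.Pivot.Geom.H24_B2BetaNorm

-- ==== BEGIN Fermat.Agent.L.Pivot.H76_PatchLimit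
section

/-!
# PIVOT / PV-PATCH (helper76): limits of frames along an ultrafilter

`S = 𝒪⟦s₁..s_r⟧`, `P = 𝒪⟦X₁..X_h⟧`.  Given `φ n : S → P` and frames `F n` over `φ n` with relation
ideals `J n ≤ 𝔪 ^ (n + 1)`, and a non-principal ultrafilter `𝔘` on `ℕ`:
* `φ∞ w = lim_𝔘 φ_n w`;
* `N∞ = P^d ⧸ K∞`, `K∞ = {v | ∀ m, ∀ᶠ n in 𝔘, gen_n v ∈ 𝔪 ^ m • N_n}` is a frame over `φ∞`
  with relation ideal `⊥`;
* relations `f • N_n = 0` pass to the limit, and so do comparisons modulo an element `a`.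
-/

set_option autoImplicit false
set_option linter.style.haveILetI false
set_option linter.unusedSectionVars false

namespace Fermat.Agent.L.Pivot.H76

open IsLocalRing MvPowerSeries Filter
open Fermat.Agent.S59.Patch (FinQuot ulim ulim_spec ulim_spec' ulim_eq ulim_eq' ulim_const
  ulim_add ulim_mul ulim_smul ulim_eq_zero eq_of_forall_mem mem_pow_smul_top_iff
  mem_smul_top_pi_iff exists_sum_of_mem_span_smul_top pow_smul_top_le_of_card_le)

section Limit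

variable {𝒪 : Type} [CommRing 𝒪] [IsLocalRing 𝒪] {r h d : ℕ}
  [IsAdicComplete (maximalIdeal (MvPowerSeries (Fin r) 𝒪)) (MvPowerSeries (Fin r) 𝒪)]
  [FinQuot (maximalIdeal (MvPowerSeries (Fin r) 𝒪)) (MvPowerSeries (Fin r) 𝒪)]
  [IsAdicComplete (maximalIdeal (MvPowerSeries (Fin r) 𝒪)) (Fin d → MvPowerSeries (Fin r) 𝒪)]
  [FinQuot (maximalIdeal (MvPowerSeries (Fin r) 𝒪)) (Fin d → MvPowerSeries (Fin r) 𝒪)]
  [IsAdicComplete (maximalIdeal (MvPowerSeries (Fin h) 𝒪)) (MvPowerSeries (Fin h) 𝒪)]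
  [FinQuot (maximalIdeal (MvPowerSeries (Fin h) 𝒪)) (MvPowerSeries (Fin h) 𝒪)]
  [IsAdicComplete (maximalIdeal (MvPowerSeries (Fin h) 𝒪)) (Fin d → MvPowerSeries (Fin h) 𝒪)]
  [FinQuot (maximalIdeal (MvPowerSeries (Fin h) 𝒪)) (Fin d → MvPowerSeries (Fin h) 𝒪)]
  (φ : ℕ → MvPowerSeries (Fin r) 𝒪 →ₐ[𝒪] MvPowerSeries (Fin h) 𝒪)
  (𝔘 : Ultrafilter ℕ)

/-- `φ∞`. -/
noncomputable def phiInf : MvPowerSeries (Fin r) 𝒪 →ₐ[𝒪] MvPowerSeries (Fin h) 𝒪 where
  toFun w := ulim (maximalIdeal (MvPowerSeries (Fin h) 𝒪)) 𝔘 (fun n => φ n w)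
  map_one' := by
    simp only [map_one]
    exact ulim_const _ 𝔘 1
  map_mul' a b := by
    simp only [map_mul]
    exact ulim_mul _ 𝔘 _ _
  map_zero' := by
    simp only [map_zero]
    exact ulim_const _ 𝔘 0
  map_add' a b := by
    simp only [map_add]
    exact ulim_add _ 𝔘 _ _
  commutes' c := by
    simp only [AlgHom.commutes]
    exact ulim_const _ 𝔘 _

theorem phiInf_apply (w : MvPowerSeries (Fin r) 𝒪) :
    _root_.Fermat.Agent.L.Pivot.H76.phiInf φ 𝔘 w = ulim (maximalIdeal (MvPowerSeries (Fin h) 𝒪)) 𝔘 (fun n => φ n w) := rfl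

/-- `(I1)` -/
theorem phi_close (w : MvPowerSeries (Fin r) 𝒪) (m : ℕ) :
    ∀ᶠ n in (𝔘 : Filter ℕ), φ n w - _root_.Fermat.Agent.L.Pivot.H76.phiInf φ 𝔘 w ∈
      maximalIdeal (MvPowerSeries (Fin h) 𝒪) ^ m :=
  ulim_spec' _ 𝔘 _ m

variable {φ}
variable {J : ℕ → Ideal (MvPowerSeries (Fin r) 𝒪)} (F : ∀ n, Frame (φ n) (J n) d)

/-- `K∞`. -/
def Kinf : Submodule (MvPowerSeries (Fin h) 𝒪) (Fin d → MvPowerSeries (Fin h) 𝒪) where
  carrier := {v | ∀ m : ℕ, ∀ᶠ n in (𝔘 : Filter ℕ), _root_.Fermat.Agent.L.Pivot.H76.gen (F n) v ∈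
    (maximalIdeal (MvPowerSeries (Fin h) 𝒪) ^ m) •
      (⊤ : Submodule (MvPowerSeries (Fin h) 𝒪) (F n).N)}
  zero_mem' := fun m => Eventually.of_forall fun n => by
    rw [map_zero]; exact Submodule.zero_mem _
  add_mem' := by
    intro v w hv hw m
    filter_upwards [hv m, hw m] with n h1 h2
    rw [map_add]
    exact Submodule.add_mem _ h1 h2
  smul_mem' := by
    intro c v hv m
    filter_upwards [hv m] with n h1
    rw [map_smul]
    exact Submodule.smul_mem _ _ h1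

theorem mem_Kinf {v : Fin d → MvPowerSeries (Fin h) 𝒪} :
    v ∈ _root_.Fermat.Agent.L.Pivot.H76.Kinf 𝔘 F ↔ ∀ m : ℕ, ∀ᶠ n in (𝔘 : Filter ℕ), _root_.Fermat.Agent.L.Pivot.H76.gen (F n) v ∈
      (maximalIdeal (MvPowerSeries (Fin h) 𝒪) ^ m) •
        (⊤ : Submodule (MvPowerSeries (Fin h) 𝒪) (F n).N) := Iff.rfl

/-- elements which are close to elements with small image, are in `K∞` -/
theorem mem_Kinf_of_close {v : Fin d → MvPowerSeries (Fin h) 𝒪}
    (w : ℕ → (Fin d → MvPowerSeries (Fin h) 𝒪))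
    (h1 : ∀ m : ℕ, ∀ᶠ n in (𝔘 : Filter ℕ), v - w n ∈
      (maximalIdeal (MvPowerSeries (Fin h) 𝒪) ^ m) •
        (⊤ : Submodule (MvPowerSeries (Fin h) 𝒪) (Fin d → MvPowerSeries (Fin h) 𝒪)))
    (h2 : ∀ m : ℕ, ∀ᶠ n in (𝔘 : Filter ℕ), _root_.Fermat.Agent.L.Pivot.H76.gen (F n) (w n) ∈
      (maximalIdeal (MvPowerSeries (Fin h) 𝒪) ^ m) •
        (⊤ : Submodule (MvPowerSeries (Fin h) 𝒪) (F n).N)) :
    v ∈ _root_.Fermat.Agent.L.Pivot.H76.Kinf 𝔘 F := by
  intro m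
  filter_upwards [h1 m, h2 m] with n h3 h4
  have : _root_.Fermat.Agent.L.Pivot.H76.gen (F n) v = _root_.Fermat.Agent.L.Pivot.H76.gen (F n) (v - w n) + _root_.Fermat.Agent.L.Pivot.H76.gen (F n) (w n) := by
    rw [← map_add, sub_add_cancel]
  rw [this]
  exact Submodule.add_mem _ (_root_.Fermat.Agent.L.Pivot.H76.gen_mem (F n) h3) h4

/-- `N∞`. -/
abbrev Ninf : Type := (Fin d → MvPowerSeries (Fin h) 𝒪) ⧸ _root_.Fermat.Agent.L.Pivot.H76.Kinf 𝔘 F

/-- the class of `fun i => a i` is `∑ a i • b∞ i` -/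
theorem mk_eq_sum (a : Fin d → MvPowerSeries (Fin h) 𝒪) :
    (Submodule.Quotient.mk a : _root_.Fermat.Agent.L.Pivot.H76.Ninf 𝔘 F) =
      ∑ i, a i • (Submodule.Quotient.mk (Pi.single i 1) : _root_.Fermat.Agent.L.Pivot.H76.Ninf 𝔘 F) := by
  classical
  conv_lhs => rw [pi_eq_sum_univ a]
  have hsingle : ∀ i : Fin d,
      (fun j => if i = j then (1 : MvPowerSeries (Fin h) 𝒪) else 0) = Pi.single i 1 := by
    intro i
    funext j
    rw [Pi.single_apply]
    by_cases hij : i = j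
    · rw [if_pos hij, if_pos hij.symm]
    · rw [if_neg hij, if_neg (fun h' => hij h'.symm)]
  simp only [hsingle]
  rw [← Submodule.mkQ_apply, map_sum]
  refine Finset.sum_congr rfl fun i _ => ?_
  rw [map_smul, Submodule.mkQ_apply]

/-- `(H2)` -/
theorem phi_comp_close (φ : ℕ → MvPowerSeries (Fin r) 𝒪 →ₐ[𝒪] MvPowerSeries (Fin h) 𝒪)
    (c : ℕ → (Fin d → MvPowerSeries (Fin r) 𝒪)) (m : ℕ) :
    ∀ᶠ n in (𝔘 : Filter ℕ),
      ((fun i => φ n (c n i)) - fun i => _root_.Fermat.Agent.L.Pivot.H76.phiInf φ 𝔘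
          (ulim (maximalIdeal (MvPowerSeries (Fin r) 𝒪)) 𝔘 c i)) ∈
        (maximalIdeal (MvPowerSeries (Fin h) 𝒪) ^ m) •
          (⊤ : Submodule (MvPowerSeries (Fin h) 𝒪) (Fin d → MvPowerSeries (Fin h) 𝒪)) := by
  classical
  have h1 : ∀ᶠ n in (𝔘 : Filter ℕ), ∀ i : Fin d,
      φ n (ulim (maximalIdeal (MvPowerSeries (Fin r) 𝒪)) 𝔘 c i) -
        _root_.Fermat.Agent.L.Pivot.H76.phiInf φ 𝔘 (ulim (maximalIdeal (MvPowerSeries (Fin r) 𝒪)) 𝔘 c i) ∈
          maximalIdeal (MvPowerSeries (Fin h) 𝒪) ^ m :=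
    Filter.eventually_all.mpr fun i => _root_.Fermat.Agent.L.Pivot.H76.phi_close φ 𝔘 _ m
  filter_upwards [h1, ulim_spec (maximalIdeal (MvPowerSeries (Fin r) 𝒪)) 𝔘 c m] with n h2 h3
  rw [mem_smul_top_pi_iff] at h3 ⊢
  intro i
  have h4 := h3 i
  rw [Pi.sub_apply] at h4 ⊢
  have h5 : φ n (c n i) - _root_.Fermat.Agent.L.Pivot.H76.phiInf φ 𝔘 (ulim (maximalIdeal (MvPowerSeries (Fin r) 𝒪)) 𝔘 c i) =
      φ n (c n i - ulim (maximalIdeal (MvPowerSeries (Fin r) 𝒪)) 𝔘 c i) +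
        (φ n (ulim (maximalIdeal (MvPowerSeries (Fin r) 𝒪)) 𝔘 c i) -
          _root_.Fermat.Agent.L.Pivot.H76.phiInf φ 𝔘 (ulim (maximalIdeal (MvPowerSeries (Fin r) 𝒪)) 𝔘 c i)) := by
    rw [map_sub]; ring
  rw [h5]
  exact Ideal.add_mem _ (_root_.Fermat.Agent.L.Pivot.H76.phi_mem_pow (φ n) h4) (h2 i)

/-- `(V6)` -/
theorem b_span_inf (x : _root_.Fermat.Agent.L.Pivot.H76.Ninf 𝔘 F) :
    ∃ c : Fin d → MvPowerSeries (Fin r) 𝒪,
      x = ∑ i, _root_.Fermat.Agent.L.Pivot.H76.phiInf φ 𝔘 (c i) • (Submodule.Quotient.mk (Pi.single i 1) : _root_.Fermat.Agent.L.Pivot.H76.Ninf 𝔘 F) := by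
  obtain ⟨v, rfl⟩ := Submodule.Quotient.mk_surjective _ x
  have h1 : ∀ n, ∃ c : Fin d → MvPowerSeries (Fin r) 𝒪,
      _root_.Fermat.Agent.L.Pivot.H76.gen (F n) v = _root_.Fermat.Agent.L.Pivot.H76.gen (F n) (fun i => φ n (c i)) := fun n => by
    obtain ⟨c, hc⟩ := (F n).b_span (_root_.Fermat.Agent.L.Pivot.H76.gen (F n) v)
    exact ⟨c, by rw [_root_.Fermat.Agent.L.Pivot.H76.gen_phi, hc]⟩
  choose c hc using h1
  refine ⟨ulim (maximalIdeal (MvPowerSeries (Fin r) 𝒪)) 𝔘 c, ?_⟩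
  rw [← _root_.Fermat.Agent.L.Pivot.H76.mk_eq_sum 𝔘 F (fun i => _root_.Fermat.Agent.L.Pivot.H76.phiInf φ 𝔘
    (ulim (maximalIdeal (MvPowerSeries (Fin r) 𝒪)) 𝔘 c i))]
  refine (Submodule.Quotient.eq _).mpr ?_
  refine _root_.Fermat.Agent.L.Pivot.H76.mem_Kinf_of_close 𝔘 F (fun n => v - fun i => φ n (c n i)) ?_ ?_
  · intro m
    filter_upwards [_root_.Fermat.Agent.L.Pivot.H76.phi_comp_close 𝔘 φ c m] with n hn
    have : (v - fun i => _root_.Fermat.Agent.L.Pivot.H76.phiInf φ 𝔘 (ulim (maximalIdeal (MvPowerSeries (Fin r) 𝒪)) 𝔘 c i)) -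
        (v - fun i => φ n (c n i)) =
        (fun i => φ n (c n i)) - fun i => _root_.Fermat.Agent.L.Pivot.H76.phiInf φ 𝔘
          (ulim (maximalIdeal (MvPowerSeries (Fin r) 𝒪)) 𝔘 c i) := by abel
    rw [this]
    exact hn
  · intro m
    refine Eventually.of_forall fun n => ?_
    rw [map_sub, hc n, sub_self]
    exact Submodule.zero_mem _

/-- `(V7)` -/
theorem b_rel_inf (h𝔘 : (𝔘 : Filter ℕ) ≤ atTop)
    (hJ : ∀ n, J n ≤ maximalIdeal (MvPowerSeries (Fin r) 𝒪) ^ (n + 1))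
    (c : Fin d → MvPowerSeries (Fin r) 𝒪) :
    ∑ i, _root_.Fermat.Agent.L.Pivot.H76.phiInf φ 𝔘 (c i) • (Submodule.Quotient.mk (Pi.single i 1) : _root_.Fermat.Agent.L.Pivot.H76.Ninf 𝔘 F) = 0 ↔
      ∀ i, c i ∈ (⊥ : Ideal (MvPowerSeries (Fin r) 𝒪)) := by
  classical
  constructor
  · intro hz i₀
    rw [← _root_.Fermat.Agent.L.Pivot.H76.mk_eq_sum 𝔘 F (fun i => _root_.Fermat.Agent.L.Pivot.H76.phiInf φ 𝔘 (c i)), Submodule.Quotient.mk_eq_zero] at hz
    rw [Ideal.mem_bot]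
    apply eq_of_forall_mem (maximalIdeal (MvPowerSeries (Fin r) 𝒪))
    intro m
    rw [sub_zero, mem_pow_smul_top_iff]
    have hfin : Finite (MvPowerSeries (Fin r) 𝒪 ⧸ maximalIdeal (MvPowerSeries (Fin r) 𝒪) ^ m) := by
      have h0 := FinQuot.fin (I := maximalIdeal (MvPowerSeries (Fin r) 𝒪))
        (M := MvPowerSeries (Fin r) 𝒪) m
      have e : (maximalIdeal (MvPowerSeries (Fin r) 𝒪) ^ m • ⊤ :
          Submodule (MvPowerSeries (Fin r) 𝒪) (MvPowerSeries (Fin r) 𝒪)) =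
          maximalIdeal (MvPowerSeries (Fin r) 𝒪) ^ m := by
        ext x
        exact mem_pow_smul_top_iff _
      rw [e] at h0
      exact h0
    set K : ℕ := Nat.card (Fin d → MvPowerSeries (Fin r) 𝒪 ⧸
      maximalIdeal (MvPowerSeries (Fin r) 𝒪) ^ m) with hK
    have h1 : ∀ᶠ n in (𝔘 : Filter ℕ), ∀ i : Fin d,
        φ n (c i) - _root_.Fermat.Agent.L.Pivot.H76.phiInf φ 𝔘 (c i) ∈ maximalIdeal (MvPowerSeries (Fin h) 𝒪) ^ K :=
      Filter.eventually_all.mpr fun i => _root_.Fermat.Agent.L.Pivot.H76.phi_close φ 𝔘 _ K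
    have h2 : ∀ᶠ n in (𝔘 : Filter ℕ), m ≤ n := h𝔘 (eventually_ge_atTop m)
    obtain ⟨n, hn1, hn2, hn3⟩ := (h1.and (h2.and (hz K))).exists
    have h3 : _root_.Fermat.Agent.L.Pivot.H76.gen (F n) (fun i => φ n (c i)) ∈
        (maximalIdeal (MvPowerSeries (Fin h) 𝒪) ^ K) •
          (⊤ : Submodule (MvPowerSeries (Fin h) 𝒪) (F n).N) := by
      have h4 : (fun i => φ n (c i)) =
          ((fun i => φ n (c i)) - fun i => _root_.Fermat.Agent.L.Pivot.H76.phiInf φ 𝔘 (c i)) +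
            fun i => _root_.Fermat.Agent.L.Pivot.H76.phiInf φ 𝔘 (c i) := by
        rw [sub_add_cancel]
      rw [h4, map_add]
      refine Submodule.add_mem _ (_root_.Fermat.Agent.L.Pivot.H76.gen_mem (F n) ?_) hn3
      rw [mem_smul_top_pi_iff]
      exact hn1
    obtain ⟨hfin', hcard⟩ := _root_.Fermat.Agent.L.Pivot.H76.finite_quot_phiSub (F n)
      (maximalIdeal (MvPowerSeries (Fin r) 𝒪) ^ m)
    have h5 := pow_smul_top_le_of_card_le (_root_.Fermat.Agent.L.Pivot.H76.phiSub (F n)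
      (maximalIdeal (MvPowerSeries (Fin r) 𝒪) ^ m)) hcard h3
    rw [_root_.Fermat.Agent.L.Pivot.H76.gen_phi] at h5
    have hJ' : J n ≤ maximalIdeal (MvPowerSeries (Fin r) 𝒪) ^ m :=
      (hJ n).trans (Ideal.pow_le_pow_right (by omega))
    exact _root_.Fermat.Agent.L.Pivot.H76.mem_of_sum_mem_phiSub (F n) hJ' c h5 i₀
  · intro hz
    have : ∀ i, c i = 0 := fun i => (Ideal.mem_bot).mp (hz i)
    simp [this]

/-- The limit frame. -/
noncomputable def frameInf (h𝔘 : (𝔘 : Filter ℕ) ≤ atTop)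
    (hJ : ∀ n, J n ≤ maximalIdeal (MvPowerSeries (Fin r) 𝒪) ^ (n + 1)) :
    Frame (_root_.Fermat.Agent.L.Pivot.H76.phiInf φ 𝔘) (⊥ : Ideal (MvPowerSeries (Fin r) 𝒪)) d where
  N := _root_.Fermat.Agent.L.Pivot.H76.Ninf 𝔘 F
  b := fun i => Submodule.Quotient.mk (Pi.single i 1)
  b_span := _root_.Fermat.Agent.L.Pivot.H76.b_span_inf 𝔘 F
  b_rel := _root_.Fermat.Agent.L.Pivot.H76.b_rel_inf 𝔘 F h𝔘 hJ

/-- Relations pass to the limit. -/
theorem rel_inf (f : MvPowerSeries (Fin h) 𝒪) (hf : ∀ n, ∀ x : (F n).N, f • x = 0)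
    (x : _root_.Fermat.Agent.L.Pivot.H76.Ninf 𝔘 F) : f • x = 0 := by
  obtain ⟨v, rfl⟩ := Submodule.Quotient.mk_surjective _ x
  rw [← Submodule.Quotient.mk_smul, Submodule.Quotient.mk_eq_zero]
  intro m
  refine Eventually.of_forall fun n => ?_
  rw [map_smul, hf n]
  exact Submodule.zero_mem _

/-- Membership in `a • N∞`. -/
theorem mem_span_singleton_smul_top_iff {A : Type*} [CommRing A] {N : Type*} [AddCommGroup N]
    [Module A N] (a : A) (x : N) :
    x ∈ (Ideal.span {a}) • (⊤ : Submodule A N) ↔ ∃ y : N, x = a • y := by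
  constructor
  · intro hx
    refine Submodule.smul_induction_on hx ?_ ?_
    · intro b hb z _
      obtain ⟨c, rfl⟩ := Ideal.mem_span_singleton'.mp hb
      exact ⟨c • z, by rw [smul_smul, mul_comm]⟩
    · rintro y z ⟨y', rfl⟩ ⟨z', rfl⟩
      exact ⟨y' + z', by rw [smul_add]⟩
  · rintro ⟨y, rfl⟩
    exact Submodule.smul_mem_smul (Ideal.subset_span rfl) Submodule.mem_top

/-- Comparison modulo `a` passes to the limit (one direction). -/
theorem cmp_inf_aux {J' : ℕ → Ideal (MvPowerSeries (Fin r) 𝒪)}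
    (G : ∀ n, Frame (φ n) (J' n) d) (h𝔘 : (𝔘 : Filter ℕ) ≤ atTop)
    (a : MvPowerSeries (Fin h) 𝒪)
    (hFG : ∀ n (v : Fin d → MvPowerSeries (Fin h) 𝒪),
      _root_.Fermat.Agent.L.Pivot.H76.gen (F n) v ∈ (Ideal.span {a}) • (⊤ : Submodule (MvPowerSeries (Fin h) 𝒪) (F n).N) →
      _root_.Fermat.Agent.L.Pivot.H76.gen (G n) v ∈ (Ideal.span {a}) • (⊤ : Submodule (MvPowerSeries (Fin h) 𝒪) (G n).N))
    (v : Fin d → MvPowerSeries (Fin h) 𝒪)
    (hv : (Submodule.Quotient.mk v : _root_.Fermat.Agent.L.Pivot.H76.Ninf 𝔘 F) ∈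
      (Ideal.span {a}) • (⊤ : Submodule (MvPowerSeries (Fin h) 𝒪) (_root_.Fermat.Agent.L.Pivot.H76.Ninf 𝔘 F))) :
    (Submodule.Quotient.mk v : _root_.Fermat.Agent.L.Pivot.H76.Ninf 𝔘 G) ∈
      (Ideal.span {a}) • (⊤ : Submodule (MvPowerSeries (Fin h) 𝒪) (_root_.Fermat.Agent.L.Pivot.H76.Ninf 𝔘 G)) := by
  classical
  obtain ⟨y, hy⟩ := (mem_span_singleton_smul_top_iff a _).mp hv
  obtain ⟨w, rfl⟩ := Submodule.Quotient.mk_surjective _ y
  rw [← Submodule.Quotient.mk_smul, Submodule.Quotient.eq] at hy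
  -- `hy : v - a • w ∈ K∞(F)`
  set Pr : ℕ → ℕ → Prop := fun n m => _root_.Fermat.Agent.L.Pivot.H76.gen (F n) (v - a • w) ∈
    (maximalIdeal (MvPowerSeries (Fin h) 𝒪) ^ m) •
      (⊤ : Submodule (MvPowerSeries (Fin h) 𝒪) (F n).N) with hPr
  have hP0 : ∀ n, Pr n 0 := fun n => by
    simp only [hPr, pow_zero, Ideal.one_eq_top, Submodule.top_smul, Submodule.mem_top]
  set μ : ℕ → ℕ := fun n => Nat.findGreatest (Pr n) n with hμ
  have hPμ : ∀ n, Pr n (μ n) := fun n => Nat.findGreatest_spec (Nat.zero_le n) (hP0 n)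
  have h1 : ∀ n, ∃ w' : Fin d → MvPowerSeries (Fin h) 𝒪,
      _root_.Fermat.Agent.L.Pivot.H76.gen (G n) (v - a • w') ∈ (maximalIdeal (MvPowerSeries (Fin h) 𝒪) ^ μ n) •
        (⊤ : Submodule (MvPowerSeries (Fin h) 𝒪) (G n).N) := by
    intro n
    obtain ⟨t, ht, hgt⟩ := exists_gen_eq_of_mem (F n) (hPμ n)
    have h2 : _root_.Fermat.Agent.L.Pivot.H76.gen (F n) (v - t) ∈
        (Ideal.span {a}) • (⊤ : Submodule (MvPowerSeries (Fin h) 𝒪) (F n).N) := by
      rw [mem_span_singleton_smul_top_iff]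
      refine ⟨_root_.Fermat.Agent.L.Pivot.H76.gen (F n) w, ?_⟩
      rw [map_sub, hgt, map_sub, map_smul]
      abel
    obtain ⟨z, hz⟩ := (mem_span_singleton_smul_top_iff a _).mp (hFG n _ h2)
    obtain ⟨w', rfl⟩ := _root_.Fermat.Agent.L.Pivot.H76.gen_surjective (G n) z
    refine ⟨w', ?_⟩
    have h3 : _root_.Fermat.Agent.L.Pivot.H76.gen (G n) (v - a • w') = _root_.Fermat.Agent.L.Pivot.H76.gen (G n) t := by
      have : v - a • w' = (v - t) - a • w' + t := by abel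
      rw [this, map_add, map_sub, hz, map_smul, sub_self, zero_add]
    rw [h3]
    exact _root_.Fermat.Agent.L.Pivot.H76.gen_mem (G n) ht
  choose w' hw' using h1
  set W : Fin d → MvPowerSeries (Fin h) 𝒪 :=
    ulim (maximalIdeal (MvPowerSeries (Fin h) 𝒪)) 𝔘 w' with hW
  have hmem : v - a • W ∈ _root_.Fermat.Agent.L.Pivot.H76.Kinf 𝔘 G := by
    refine _root_.Fermat.Agent.L.Pivot.H76.mem_Kinf_of_close 𝔘 G (fun n => v - a • w' n) ?_ ?_
    · intro m
      filter_upwards [ulim_spec (maximalIdeal (MvPowerSeries (Fin h) 𝒪)) 𝔘 w' m] with n hn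
      have : (v - a • W) - (v - a • w' n) = a • (w' n - W) := by
        rw [smul_sub]; abel
      rw [this]
      exact Submodule.smul_mem _ _ hn
    · intro m
      have h10 : ∀ᶠ n in (𝔘 : Filter ℕ), m ≤ n := h𝔘 (eventually_ge_atTop m)
      filter_upwards [h10, hy m] with n h12 h13
      have h14 : m ≤ μ n := Nat.le_findGreatest h12 h13
      exact Submodule.smul_mono_left (Ideal.pow_le_pow_right h14) (hw' n)
  rw [mem_span_singleton_smul_top_iff]
  refine ⟨Submodule.Quotient.mk W, ?_⟩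
  rw [← Submodule.Quotient.mk_smul, Submodule.Quotient.eq]
  exact hmem

end Limit

end Fermat.Agent.L.Pivot.H76

end
-- ==== END Fermat.Agent.L.Pivot.H76_PatchLimit

-- ==== BEGIN Fermat.Agent.L.Pivot.H76_TypeKillA
section

set_option autoImplicit false

namespace Fermat.Agent.L.Pivot.H76

open MvPowerSeries IsLocalRing

section Tw

variable (A : Type*) [CommRing A] (k g : ℕ)

/-- The weight variable of a coordinate of `P`: `t_j` for `(v, w, s)_j`, `1` otherwise. -/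
noncomputable def tw (i : Fin (6 * k + g)) : MvPolynomial (Fin k) A :=
  mk6 k g (fun j i' => if 3 ≤ i'.1 then MvPolynomial.X j else 1) (fun _ => 1) i

variable {k g}

theorem tw_cIdx_lt (j : Fin k) (i' : Fin 6) (h : i'.1 < 3) : tw A k g (cIdx k g j i') = 1 := by
  rw [tw, mk6_cIdx, if_neg (by omega)]

theorem tw_cIdx_ge (j : Fin k) (i' : Fin 6) (h : 3 ≤ i'.1) :
    tw A k g (cIdx k g j i') = MvPolynomial.X j := by
  rw [tw, mk6_cIdx, if_pos h]

theorem tw_xIdx (a : Fin g) : tw A k g (xIdx k g a) = 1 := by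
  rw [tw, mk6_xIdx]

variable {A}

theorem map_tw {B : Type*} [CommRing B] (q : A →+* B) (i : Fin (6 * k + g)) :
    MvPolynomial.map q (tw A k g i) = tw B k g i := by
  rcases idx_cases i with ⟨j, i', rfl⟩ | ⟨a, rfl⟩
  · by_cases h : 3 ≤ i'.1
    · rw [tw_cIdx_ge _ _ _ h, tw_cIdx_ge _ _ _ h, MvPolynomial.map_X]
    · rw [tw_cIdx_lt _ _ _ (by omega), tw_cIdx_lt _ _ _ (by omega), map_one]
  · rw [tw_xIdx, tw_xIdx, map_one]

theorem aeval_one_tw (i : Fin (6 * k + g)) :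
    MvPolynomial.aeval (fun _ : Fin k => (1 : A)) (tw A k g i) = 1 := by
  rcases idx_cases i with ⟨j, i', rfl⟩ | ⟨a, rfl⟩
  · by_cases h : 3 ≤ i'.1
    · rw [tw_cIdx_ge _ _ _ h, MvPolynomial.aeval_X]
    · rw [tw_cIdx_lt _ _ _ (by omega), map_one]
  · rw [tw_xIdx, map_one]

theorem coe_map_poly {σ : Type*} {B : Type*} [CommRing B] (q : A →+* B) (p : MvPolynomial σ A) :
    ((MvPolynomial.map q p : MvPolynomial σ B) : MvPowerSeries σ B) =
      MvPowerSeries.map q (p : MvPowerSeries σ A) := by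
  ext d
  rw [MvPolynomial.coeff_coe, MvPolynomial.coeff_map, MvPowerSeries.coeff_map,
    MvPolynomial.coeff_coe]

end Tw

section Step2

variable {𝒪 : Type} [CommRing 𝒪] {k g : ℕ}
variable {D : Type} [CommRing D] [Algebra 𝒪 D]

/-- The truncated statement: for a quotient `q : D → B` through which the `M`-th power of an
ideal `𝔪` containing the `θ X_i` dies, `Θ f = 0` implies `q (θ f) = 0`. -/
theorem q_theta_eq_zero_of_Theta {B : Type} [CommRing B] [Algebra 𝒪 B] (q : D →ₐ[𝒪] B)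
    (𝔪 : Ideal D) (M : ℕ) (hqM : Ideal.map (q : D →+* B) 𝔪 ^ M = ⊥)
    (θ : PRing 𝒪 k g →ₐ[𝒪] D) (hmem : ∀ i, θ (X i) ∈ 𝔪)
    (Θ : PRing 𝒪 k g →ₐ[𝒪] MvPowerSeries (Fin k) D)
    (hΘ : ∀ i, Θ (X i) = C (θ (X i)) * (tw D k g i : MvPowerSeries (Fin k) D))
    (f : PRing 𝒪 k g) (hf : Θ f = 0) : q (θ f) = 0 := by
  let x : Fin (6 * k + g) → MvPolynomial (Fin k) B :=
    fun i => MvPolynomial.C (q (θ (X i))) * tw B k g i
  have hqmem : ∀ i, q (θ (X i)) ∈ Ideal.map (q : D →+* B) 𝔪 := fun i =>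
    Ideal.mem_map_of_mem (q : D →+* B) (hmem i)
  -- the nilpotent ideal of the polynomial ring
  have hI : (Ideal.map (MvPolynomial.C : B →+* MvPolynomial (Fin k) B)
      (Ideal.map (q : D →+* B) 𝔪)) ^ M = ⊥ := by
    rw [← Ideal.map_pow, hqM, Ideal.map_bot]
  have hxI : ∀ i, x i ∈ Ideal.map (MvPolynomial.C : B →+* MvPolynomial (Fin k) B)
      (Ideal.map (q : D →+* B) 𝔪) := fun i =>
    Ideal.mul_mem_right _ _ (Ideal.mem_map_of_mem _ (hqmem i))
  have hnil : ∀ p ∈ MvPolynomial.idealOfVars (Fin (6 * k + g)) 𝒪 ^ M,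
      MvPolynomial.aeval (R := 𝒪) x p = 0 := by
    intro p hp
    have h1 : MvPolynomial.idealOfVars (Fin (6 * k + g)) 𝒪 ≤
        Ideal.comap (MvPolynomial.aeval (R := 𝒪) x) (Ideal.map
          (MvPolynomial.C : B →+* MvPolynomial (Fin k) B)
          (Ideal.map (q : D →+* B) 𝔪)) := by
      rw [MvPolynomial.idealOfVars, Ideal.span_le]
      rintro _ ⟨i, rfl⟩
      rw [SetLike.mem_coe, Ideal.mem_comap, MvPolynomial.aeval_X]
      exact hxI i
    have h2 := (Ideal.pow_right_mono h1 M).trans (Ideal.le_comap_pow _ M) hp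
    rw [Ideal.mem_comap, hI, Ideal.mem_bot] at h2
    exact h2
  let ΘM : PRing 𝒪 k g →ₐ[𝒪] MvPolynomial (Fin k) B := Fermat.Agent.S53.Limit.evL x M hnil
  have hΘM : ∀ i, ΘM (X i) = x i := fun i => Fermat.Agent.S53.Limit.evL_X x M hnil i
  -- claim 1: modulo `𝔪 ^ M`, `Θ` is the polynomial evaluation
  have h1 : ∀ f, ((ΘM f : MvPolynomial (Fin k) B) : MvPowerSeries (Fin k) B) =
      MvPowerSeries.map (q : D →+* B) (Θ f) := by
    intro f
    have hJ : (Ideal.map (MvPowerSeries.C : B →+* MvPowerSeries (Fin k) B)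
        (Ideal.map (q : D →+* B) 𝔪)) ^ M = ⊥ := by
      rw [← Ideal.map_pow, hqM, Ideal.map_bot]
    refine ringHom_eq_of_pow_eq_bot _ M hJ
      ((MvPolynomial.coeToMvPowerSeries.ringHom :
          MvPolynomial (Fin k) B →+* MvPowerSeries (Fin k) B).comp
        (ΘM : PRing 𝒪 k g →+* MvPolynomial (Fin k) B))
      ((MvPowerSeries.map (q : D →+* B)).comp
        (Θ : PRing 𝒪 k g →+* MvPowerSeries (Fin k) D)) ?_ ?_ ?_ f
    · intro c
      have hc : (C c : PRing 𝒪 k g) = algebraMap 𝒪 _ c := rfl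
      simp only [RingHom.comp_apply, RingHom.coe_coe, hc, AlgHom.commutes]
      rw [MvPolynomial.algebraMap_apply, MvPowerSeries.algebraMap_apply,
        MvPolynomial.coeToMvPowerSeries.ringHom_apply, MvPolynomial.coe_C, MvPowerSeries.map_C]
      simp only [RingHom.coe_coe, AlgHom.commutes]
    · intro i
      simp only [RingHom.comp_apply, RingHom.coe_coe]
      rw [hΘM, hΘ, MvPolynomial.coeToMvPowerSeries.ringHom_apply, MvPolynomial.coe_mul,
        MvPolynomial.coe_C, map_mul (MvPowerSeries.map (q : D →+* B)), MvPowerSeries.map_C,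
        ← coe_map_poly, map_tw]
      rfl
    · intro i
      simp only [RingHom.comp_apply, RingHom.coe_coe]
      rw [hΘ, map_mul (MvPowerSeries.map (q : D →+* B)), MvPowerSeries.map_C]
      exact Ideal.mul_mem_right _ _ (Ideal.mem_map_of_mem _ (hqmem i))
  -- claim 2: putting `t = 1` gives `θ` modulo `𝔪 ^ M`
  have h2 : ∀ f, MvPolynomial.aeval (fun _ : Fin k => (1 : B)) (ΘM f) = q (θ f) := by
    intro f
    refine ringHom_eq_of_pow_eq_bot _ M hqM
      (((MvPolynomial.aeval (fun _ : Fin k => (1 : B)) : MvPolynomial (Fin k) B →ₐ[B] B) :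
          MvPolynomial (Fin k) B →+* B).comp
        (ΘM : PRing 𝒪 k g →+* MvPolynomial (Fin k) B))
      ((q : D →+* B).comp (θ : PRing 𝒪 k g →+* D)) ?_ ?_ ?_ f
    · intro c
      have hc : (C c : PRing 𝒪 k g) = algebraMap 𝒪 _ c := rfl
      simp only [RingHom.comp_apply, RingHom.coe_coe, hc, AlgHom.commutes]
      rw [MvPolynomial.algebraMap_apply, MvPolynomial.aeval_C]
      rfl
    · intro i
      simp only [RingHom.comp_apply, RingHom.coe_coe]
      rw [hΘM, map_mul, MvPolynomial.aeval_C, aeval_one_tw, mul_one]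
      rfl
    · intro i
      simp only [RingHom.comp_apply, RingHom.coe_coe]
      exact hqmem i
  have h3 : ΘM f = 0 := by
    apply MvPolynomial.coe_injective
    rw [h1, hf, map_zero, MvPolynomial.coe_zero]
  have h4 := h2 f
  rw [h3, map_zero] at h4
  exact h4.symm

/-- **Setting `t = 1`.**  If `Θ f = 0` then `θ f = 0`. -/
theorem theta_eq_zero_of_Theta [IsLocalRing D] [IsNoetherianRing D] (θ : PRing 𝒪 k g →ₐ[𝒪] D)
    (hmem : ∀ i, θ (X i) ∈ maximalIdeal D)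
    (Θ : PRing 𝒪 k g →ₐ[𝒪] MvPowerSeries (Fin k) D)
    (hΘ : ∀ i, Θ (X i) = C (θ (X i)) * (tw D k g i : MvPowerSeries (Fin k) D))
    (f : PRing 𝒪 k g) (hf : Θ f = 0) : θ f = 0 := by
  have h1 : θ f ∈ ⨅ i, maximalIdeal D ^ i := by
    rw [Ideal.mem_iInf]
    intro M
    have hqM : Ideal.map ((Ideal.Quotient.mkₐ 𝒪 (maximalIdeal D ^ M) :
        D →ₐ[𝒪] D ⧸ maximalIdeal D ^ M) : D →+* D ⧸ maximalIdeal D ^ M)
        (maximalIdeal D) ^ M = ⊥ := by
      rw [← Ideal.map_pow]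
      exact Ideal.map_quotient_self _
    have h2 := q_theta_eq_zero_of_Theta (Ideal.Quotient.mkₐ 𝒪 (maximalIdeal D ^ M))
      (maximalIdeal D) M hqM θ hmem Θ hΘ f hf
    exact Ideal.Quotient.eq_zero_iff_mem.1 h2
  rw [Ideal.iInf_pow_eq_bot_of_isLocalRing _ (maximalIdeal.isMaximal D).ne_top] at h1
  exact h1

end Step2

end Fermat.Agent.L.Pivot.H76

end
-- ==== END Fermat.Agent.L.Pivot.H76_TypeKillA

-- ==== BEGIN Fermat.Agent.L.Pivot3.H9_UnrAux
section

set_option autoImplicit false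
set_option linter.style.haveILetI false

open Matrix
open scoped MatrixGroups

namespace Fermat.Agent.L.Pivot3.H9

/-- An element killed by `m` in a group is a `P`-th power, `P` prime to `m`. -/
theorem exists_pow_eq_of_coprime {G : Type*} [Group G] (u : G) (m : ℕ) (hm : 1 < m)
    (hu : u ^ m = 1) (P : ℕ) (hP : Nat.Coprime P m) : ∃ e : ℕ, (u ^ e) ^ P = u := by
  obtain ⟨e, -, he⟩ := Nat.exists_mul_mod_eq_one_of_coprime hP hm
  refine ⟨e, ?_⟩
  have h1 : e * P = m * (e * P / m) + 1 := by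
    have h := Nat.div_add_mod (e * P) m
    rw [mul_comm P e] at he
    rw [he] at h
    exact h.symm
  rw [← pow_mul, h1, pow_succ, pow_mul, hu, one_pow, one_mul]

/-- `x² + x + 1` has no root modulo a prime `r ≡ 2 mod 3`. -/
theorem no_root_of_mod_three {r : ℕ} (hr : r.Prime) (h2 : r % 3 = 2) (x : ZMod r) :
    x ^ 2 + x + 1 ≠ 0 := by
  haveI : Fact r.Prime := ⟨hr⟩
  intro h
  have h3 : x ^ 3 = 1 := by linear_combination (x - 1) * h
  have hx1 : x ≠ 1 := by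
    rintro rfl
    have h30 : ((3 : ℕ) : ZMod r) = 0 := by
      push_cast
      linear_combination h
    rw [ZMod.natCast_eq_zero_iff] at h30
    have := (Nat.prime_dvd_prime_iff_eq hr Nat.prime_three).1 h30
    omega
  have hx0 : x ≠ 0 := by
    rintro rfl
    rw [zero_pow (by norm_num : (3 : ℕ) ≠ 0)] at h3
    exact zero_ne_one h3
  have hu3 : (Units.mk0 x hx0) ^ 3 = 1 := by
    apply Units.ext
    rw [Units.val_pow_eq_pow_val, Units.val_mk0, h3, Units.val_one]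
  have hu1 : Units.mk0 x hx0 ≠ 1 := by
    intro h'
    apply hx1
    have := congrArg Units.val h'
    rwa [Units.val_mk0, Units.val_one] at this
  have hord : orderOf (Units.mk0 x hx0) = 3 := by
    haveI : Fact (Nat.Prime 3) := ⟨Nat.prime_three⟩
    exact orderOf_eq_prime hu3 hu1
  have hdvd : 3 ∣ r - 1 := by
    have h := orderOf_dvd_card (x := Units.mk0 x hx0)
    rw [ZMod.card_units_eq_totient, Nat.totient_prime hr, hord] at h
    exact h
  have := hr.two_le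
  omega

/-- **UNRCOND with an auxiliary prime**, for every odd `p` and arbitrary exponents. -/
theorem unrCond_of_aux (p E : ℕ) (hp : p.Prime) (hp2 : p ≠ 2) (c M r : ℕ) (hsq : Squarefree c)
    (hcM : c ∣ M) (hrM : r ∣ M) (hr : ∀ x : ZMod r, x ^ 2 + x + 1 ≠ 0)
    (H : Subgroup (ZMod c)ˣ) (hH : ∀ x : (ZMod c)ˣ, x ^ (p ^ E) ∈ H) :
    Fermat.Agent.NEB.UnrCond M c H := by
  intro γ hγ
  classical
  haveI : IsReduced (ZMod c) := isReduced_zmod.2 (Or.inl hsq)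
  set A : Matrix (Fin 2) (Fin 2) ℤ := (((γ : SL(2, ℤ)) : Matrix (Fin 2) (Fin 2) ℤ)) with hA
  show ((A 0 0 : ℤ) : ZMod c) ∈ Fermat.Agent.NEB.cosetSet c H 1
  have hdet : A 0 0 * A 1 1 - A 0 1 * A 1 0 = 1 := by
    have h := (γ : SL(2, ℤ)).2
    rwa [Matrix.det_fin_two] at h
  have hM : (M : ℤ) ∣ A 1 0 := by
    have h := γ.2
    rw [CongruenceSubgroup.Gamma0_mem] at h
    exact (ZMod.intCast_zmod_eq_zero_iff_dvd _ _).mp h
  have hcM' : ((c : ℕ) : ℤ) ∣ A 1 0 := (Int.natCast_dvd_natCast.mpr hcM).trans hM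
  have hrM' : ((r : ℕ) : ℤ) ∣ A 1 0 := (Int.natCast_dvd_natCast.mpr hrM).trans hM
  have hrelc : ((A 0 0 : ℤ) : ZMod c) * ((A 1 1 : ℤ) : ZMod c) = 1 := by
    have h0 : ((A 1 0 : ℤ) : ZMod c) = 0 :=
      (ZMod.intCast_zmod_eq_zero_iff_dvd _ _).mpr hcM'
    have h1 := congrArg (fun z : ℤ => (z : ZMod c)) hdet
    simp only [Int.cast_sub, Int.cast_mul, Int.cast_one, h0, mul_zero, sub_zero] at h1
    exact h1
  have hrelr : ((A 0 0 : ℤ) : ZMod r) * ((A 1 1 : ℤ) : ZMod r) = 1 := by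
    have h0 : ((A 1 0 : ℤ) : ZMod r) = 0 :=
      (ZMod.intCast_zmod_eq_zero_iff_dvd _ _).mpr hrM'
    have h1 := congrArg (fun z : ℤ => (z : ZMod r)) hdet
    simp only [Int.cast_sub, Int.cast_mul, Int.cast_one, h0, mul_zero, sub_zero] at h1
    exact h1
  -- the trace
  have htr : (A 0 0 + A 1 1) ^ 2 = 4 ∨ |A 0 0 + A 1 1| ≤ 1 := by
    rcases hγ with h | h
    · refine Fermat.Agent.S59.Asm.H57.trace_of_finOrder (γ : SL(2, ℤ)) ?_
      obtain ⟨k, hk, hγk⟩ := (isOfFinOrder_iff_pow_eq_one).mp h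
      refine (isOfFinOrder_iff_pow_eq_one).mpr ⟨k, hk, ?_⟩
      have := congrArg Subtype.val hγk
      simpa using this
    · exact Or.inl h
  rcases htr with h4 | h1
  · -- parabolic or central: `a ≡ ±1`
    have hs : A 0 0 + A 1 1 = 2 ∨ A 0 0 + A 1 1 = -2 := by
      have : (A 0 0 + A 1 1 - 2) * (A 0 0 + A 1 1 + 2) = 0 := by linear_combination h4
      rcases mul_eq_zero.mp this with h | h
      · left; linarith
      · right; linarith
    have key : ∀ s : ℤ, s ^ 2 = 1 → A 0 0 + A 1 1 = 2 * s →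
        ((A 0 0 : ℤ) : ZMod c) = ((s : ℤ) : ZMod c) := by
      intro s hs2 hsum
      have hsum' : ((A 0 0 : ℤ) : ZMod c) + ((A 1 1 : ℤ) : ZMod c)
          = 2 * ((s : ℤ) : ZMod c) := by
        have := congrArg (fun z : ℤ => (z : ZMod c)) hsum
        simpa using this
      have hs2' : ((s : ℤ) : ZMod c) ^ 2 = 1 := by
        have := congrArg (fun z : ℤ => (z : ZMod c)) hs2
        simpa using this
      have hsq' : (((A 0 0 : ℤ) : ZMod c) - ((s : ℤ) : ZMod c)) ^ 2 = 0 := by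
        linear_combination (-1 : ZMod c) * hrelc
          + ((A 0 0 : ℤ) : ZMod c) * hsum' + hs2'
      exact sub_eq_zero.mp (pow_eq_zero_iff (two_ne_zero)|>.mp hsq')
    rcases hs with h | h
    · have h1 := key 1 (by norm_num) (by rw [h]; norm_num)
      refine ⟨1, H.one_mem, Or.inl ?_⟩
      rw [h1, mul_one, Units.val_one, Int.cast_one]
    · have h1 := key (-1) (by norm_num) (by rw [h]; norm_num)
      refine ⟨1, H.one_mem, Or.inr ?_⟩
      rw [h1, mul_one, Units.val_one, Int.cast_neg, Int.cast_one]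
  · -- elliptic: the trace is `0` (trace `±1` is excluded by the auxiliary prime)
    have ht' : A 0 0 + A 1 1 = -1 ∨ A 0 0 + A 1 1 = 0 ∨ A 0 0 + A 1 1 = 1 := by
      rw [abs_le] at h1
      omega
    have ht0 : A 0 0 + A 1 1 = 0 := by
      rcases ht' with h | h | h
      · exfalso
        have hsum : ((A 0 0 : ℤ) : ZMod r) + ((A 1 1 : ℤ) : ZMod r) = -1 := by
          have := congrArg (fun z : ℤ => (z : ZMod r)) h
          simpa using this
        refine hr ((A 0 0 : ℤ) : ZMod r) ?_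
        linear_combination ((A 0 0 : ℤ) : ZMod r) * hsum - hrelr
      · exact h
      · exfalso
        have hsum : ((A 0 0 : ℤ) : ZMod r) + ((A 1 1 : ℤ) : ZMod r) = 1 := by
          have := congrArg (fun z : ℤ => (z : ZMod r)) h
          simpa using this
        refine hr (-((A 0 0 : ℤ) : ZMod r)) ?_
        linear_combination ((A 0 0 : ℤ) : ZMod r) * hsum - hrelr
    have hsum0 : ((A 0 0 : ℤ) : ZMod c) + ((A 1 1 : ℤ) : ZMod c) = 0 := by
      have := congrArg (fun z : ℤ => (z : ZMod c)) ht0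
      simpa using this
    have h4 : ((A 0 0 : ℤ) : ZMod c) ^ 4 = 1 := by
      have h2 : ((A 0 0 : ℤ) : ZMod c) ^ 2 = -1 := by
        linear_combination (-1 : ZMod c) * hrelc + ((A 0 0 : ℤ) : ZMod c) * hsum0
      have : ((A 0 0 : ℤ) : ZMod c) ^ 4 = (((A 0 0 : ℤ) : ZMod c) ^ 2) ^ 2 := by ring
      rw [this, h2]
      ring
    have hunitA : IsUnit ((A 0 0 : ℤ) : ZMod c) := IsUnit.of_mul_eq_one _ hrelc
    obtain ⟨u, hu⟩ := hunitA
    have hu4 : u ^ 4 = 1 := by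
      apply Units.ext
      rw [Units.val_pow_eq_pow_val, hu, h4, Units.val_one]
    have hcop : Nat.Coprime (p ^ E) 4 := by
      apply Nat.Coprime.pow_left
      have h2 : Nat.Coprime p 2 := (Nat.coprime_primes hp Nat.prime_two).mpr hp2
      have e4 : (4 : ℕ) = 2 * 2 := by norm_num
      rw [e4]
      exact h2.mul_right h2
    obtain ⟨e, he⟩ := exists_pow_eq_of_coprime u 4 (by norm_num) hu4 (p ^ E) hcop
    refine ⟨u, ?_, Or.inl ?_⟩
    · rw [← he]
      exact hH (u ^ e)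
    · rw [one_mul, hu]

open ModularCurve AlgebraicCurve in
/-- **FH-UNR with an auxiliary prime**: `F_H(M) / F₀(M)` is unramified, for every odd `p`. -/
theorem fh_unr_of_aux (p E : ℕ) (hp : p.Prime) (hp2 : p ≠ 2) (c M r : ℕ) (hc2 : 2 ≤ c)
    (hM : M ≠ 0) (hsq : Squarefree c) (hcM : c ∣ M) (hrM : r ∣ M)
    (hr : ∀ x : ZMod r, x ^ 2 + x + 1 ≠ 0)
    (H : Subgroup (ZMod c)ˣ) (hH : ∀ x : (ZMod c)ˣ, x ^ (p ^ E) ∈ H) :
    ∀ w : Place Fermat.Agent.NEB.Kbar ↥(Fermat.Agent.NEB.FHbar M c H),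
      ∃ x : ↥(modularFunctionFieldBar M), w.ord (Fermat.Agent.NEB.inclBar M c H x) = 1 :=
  Fermat.Agent.NEB.H34.fh_unr c M H hc2 hcM hM
    (unrCond_of_aux p E hp hp2 c M r hsq hcM hrM hr H hH)

end Fermat.Agent.L.Pivot3.H9

end
-- ==== END Fermat.Agent.L.Pivot3.H9_UnrAux

-- ==== BEGIN Fermat.Agent.NEB.Geom.H70_KeyqZ
section
attribute [local instance 10000] SubalgebraClass.toAlgebra
attribute [local instance 10000] HahnSeries.powerSeriesAlgebra

/-!
# Item 72 (LG-NEB), package NEB-GEOM, leaf W-KEYq (helper70): the identity on `J_H`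

Level `L = M q`, `q ∤ M` prime, `P ∣ q` a place of `ℚ̄` with Frobenius `φ`, `p ≠ q` prime.

* `inK1_U0`   : the kernel of reduction of `J₀(L)` is stable under `U_q` (`q ∣ L`);
* `keyq_zero` : for `y` in the kernel of reduction of `J₀(M q)`:
  `(U_q φ - q) (U_q² - 1) y = 0`;
* `keyq_JH`   : for a `Δ`-fixed `p`-power torsion class `x ∈ K_A ⊆ J_H(L)`:
  `(U_q^H φ - q) (U_q^H ² - 1) (T_ℓ^H - (ℓ + 1)) x = 0`.

Proof of `keyq_zero`: `(U² - 1) y = a^* u + b^* v` is old (OLDNEW-GEO, helper14) and lies in the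
kernel of reduction; by OLD-RED and CL-TI at level `M`, `φ u + q v = 0`; by Eichler–Shimura at
level `M`, `(φ² - T_q φ + q) u = 0`; conclude by `keyq_abs`.
Proof of `keyq_JH`: INV' (helper29) and CL-RES reduce to `keyq_zero`.
-/

set_option autoImplicit false
set_option linter.style.haveILetI false

noncomputable section

open ModularCurve AlgebraicCurve

namespace Fermat.Agent.NEB.Geom.H70

open Fermat.Agent.NEB Fermat.Agent.NEB.JH Fermat.Agent.NEB.H14 Fermat.Agent.NEB.OLD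
open Fermat.Agent.RED

/-! ## 0. Torsion -/

theorem exists_bezout_h70 {q M : ℕ} (hq : q.Prime) (hqM : ¬ q ∣ M) :
    ∃ a b : ℤ, a * q + b * M = 1 := by
  have hcop : Nat.Coprime q M := (Nat.Prime.coprime_iff_not_dvd hq).mpr hqM
  obtain ⟨u, v, huv⟩ := Nat.isCoprime_iff_coprime.mpr hcop
  exact ⟨u, v, huv⟩

section Tors

variable {K F : Type} [Field K] [Field F] [Algebra K F]

/-- A class with a Kummer representation of level `n` is killed by `n`. -/
theorem KumRep.zsmul_eq_zero {n : ℤ} {x : Pic0 K F} {f : F} (hx : KumRep n x f) :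
    n • x = 0 := by
  obtain ⟨hf, D, rfl, hD⟩ := hx
  show (Pic0.mk (n • D) : Pic0 K F) = 0
  refine (QuotientAddGroup.eq_zero_iff _).2 ?_
  refine ⟨f, hf, fun v => ?_⟩
  rw [← hD v]
  show (n • (D : Divisor K F)) v = _
  rw [Finsupp.smul_apply, smul_eq_mul]

end Tors

/-- The kernel of reduction is `p`-power torsion. -/
theorem isPTors_of_inK1 {P : ValuationSubring Kbar} {p : ℕ}
    {F : IntermediateField Kbar (LaurentSeries Kbar)} {x : Pic0 Kbar ↥F}
    (hx : InK1 P p F x) : IsPTors p x := by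
  obtain ⟨k, D, f, hf, hxD, hD, -⟩ := hx
  have h : KumRep ((p : ℤ) ^ k) x f := ⟨hf, D, hxD, hD⟩
  refine ⟨k, ?_⟩
  have h2 := h.zsmul_eq_zero
  have e : ((p : ℤ) ^ k) = ((p ^ k : ℕ) : ℤ) := by push_cast; rfl
  rw [e, natCast_zsmul] at h2
  exact h2

theorem isPTors_hom {p : ℕ} {X Y : Type*} [AddCommGroup X] [AddCommGroup Y] (f : X →+ Y)
    {x : X} (hx : IsPTors p x) : IsPTors p (f x) := by
  obtain ⟨k, hk⟩ := hx
  exact ⟨k, by rw [← map_nsmul, hk, map_zero]⟩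

theorem isPTors_sub' {p : ℕ} {X : Type*} [AddCommGroup X] {x y : X} (hx : IsPTors p x)
    (hy : IsPTors p y) : IsPTors p (x - y) := by
  obtain ⟨k, hk⟩ := hx
  obtain ⟨k', hk'⟩ := hy
  refine ⟨k + k', ?_⟩
  have h1 : (p ^ (k + k') : ℕ) • x = 0 := by
    rw [pow_add, mul_comm, mul_smul, hk, smul_zero]
  have h2 : (p ^ (k + k') : ℕ) • y = 0 := by
    rw [pow_add, mul_smul, hk', smul_zero]
  rw [smul_sub, h1, h2, sub_zero]

theorem isPTors_neg' {p : ℕ} {X : Type*} [AddCommGroup X] {x : X} (hx : IsPTors p x) :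
    IsPTors p (-x) := by
  obtain ⟨k, hk⟩ := hx
  exact ⟨k, by rw [smul_neg, hk, neg_zero]⟩

/-! ## 1. The kernel of reduction of `J₀(L)` is stable under `U_q`, `q ∣ L` -/

section U0

variable {L c q : ℕ} [NeZero L] [NeZero q] {H : Subgroup (ZMod c)ˣ}

/-- The `q`-expansion of the Kummer function of `U_q` on `J₀(L)`, `q ∣ L`. -/
theorem coe_U0fn_of_dvd (hd : HeckeData L c q H) (hq : q.Prime) (hqL : q ∣ L)
    (f : ↥(modularFunctionFieldBar L)) :
    ((normFn (heckeBetaBar Kbar L q) (heckeAlphaBar Kbar L q f) :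
        ↥(modularFunctionFieldBar L)) : LaurentSeries Kbar)
      = Fermat.Agent.NEB.H70.uSeries q (f : LaurentSeries Kbar) := by
  have h1 := (galSquare_beta hd).1 (heckeAlphaBar Kbar L q f)
  have h2 : inclBar (L * q) c H (heckeAlphaBar Kbar L q f) = alphaH L c q H (inclBar L c H f) :=
    DFunLike.congr_fun (inclBar_comp_alpha (M := L) (ℓ := q) (c := c) (H := H)) f
  rw [h2] at h1
  have h3 := coe_UHfn_of_dvd hd hq hqL (inclBar L c H f)
  rw [coe_inclBar] at h3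
  rw [← h3, ← coe_inclBar L c H, h1]
  rfl

/-- **CL-U at level `Γ₀`**: the kernel of reduction of `J₀(L)` is stable under `U_q`, `q ∣ L`. -/
theorem inK1_U0 (hd : HeckeData L c q H) (hq : q.Prime) (hqL : q ∣ L)
    {P : ValuationSubring Kbar} {p : ℕ} {y : JZero L}
    (hy : InK1 P p (modularFunctionFieldBar L) y) :
    InK1 P p (modularFunctionFieldBar L) (U0 L q y) := by
  haveI := neZero_mul L q
  obtain ⟨k, D, f, hf, hyD, hD, hred⟩ := hy
  have hK : KumRep ((p : ℤ) ^ k) y f := ⟨hf, D, hyD, hD⟩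
  have h1 := hK.picMap (isCorr_pullD (isFF0 L) (isFF0 (L * q)) (heckeAlphaBar Kbar L q))
  have h2 := h1.picMap (isCorr_pushD (isFF0 L) (isFF0 (L * q)) (heckeBetaBar Kbar L q))
  obtain ⟨hg, E, hE, hEd⟩ := h2
  obtain ⟨ζ, hζ⟩ := exists_primRoot_Kbar q
  refine ⟨k, E, _, hg, hE, hEd, ?_⟩
  rw [coe_U0fn_of_dvd hd hq hqL]
  exact Fermat.Agent.NEB.H70.IsRedOneC.uSeries hζ hred

end U0

/-! ## 2. Level `Γ₀(M q)` -/

section Zero

variable (M q : ℕ) [NeZero M] [NeZero q] (p : ℕ)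

/-- The Galois action as an additive map. -/
def galAdd (N : ℕ) [NeZero N] (σ : GalQ) : JZero N →+ JZero N :=
  DistribSMul.toAddMonoidHom (JZero N) σ

@[simp] theorem galAdd_apply (N : ℕ) [NeZero N] (σ : GalQ) (x : JZero N) :
    galAdd N σ x = σ • x := rfl

/-- `(U_q² - 1) y` is old. -/
theorem keyq_zero_old (hq : q.Prime) (hqM : ¬ q ∣ M) (y : JZero (M * q)) :
    U0 (M * q) q (U0 (M * q) q y) - y
      = pullP (heckeAlphaBar Kbar M q)
          (T0 M q (pushP (heckeBetaBar Kbar M q) y) - pushP (heckeAlphaBar Kbar M q) y)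
        + pullP (heckeBetaBar Kbar M q) (-pushP (heckeBetaBar Kbar M q) y) := by
  obtain ⟨a, b, hab⟩ := exists_bezout_h70 hq hqM
  exact keyq_old (pullP (heckeAlphaBar Kbar M q)) (pullP (heckeBetaBar Kbar M q))
    (pushP (heckeAlphaBar Kbar M q)) (pushP (heckeBetaBar Kbar M q)) (T0 M q) (U0 (M * q) q)
    (DistribSMul.toAddMonoidHom (JZero (M * q)) (Fermat.Agent.BAD.H88.wq q M a b hab hq))
    (fun x => bd_as M q a b hab hq x)
    (fun z => U_eq M q a b hab hq H66.stmt_SquareW H6.stmt_DegBeta z)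
    (fun x => W_as M q a b hab hq x) (fun z => W_W M q a b hab hq z)
    (fun z => bd_W M q a b hab hq z) y

theorem galAdd_pullP_alpha (φ : GalQ) (x : JZero M) :
    galAdd (M * q) φ (pullP (heckeAlphaBar Kbar M q) x)
      = pullP (heckeAlphaBar Kbar M q) (galAdd M φ x) := by
  show φ • pullP (heckeAlphaBar Kbar M q) x = pullP (heckeAlphaBar Kbar M q) (φ • x)
  rw [galois_smul_pic0_def, galois_smul_pic0_def]
  exact (pullP_semilinear (isFF0 M) (isFF0 (M * q)) _ _ _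
    (Fermat.Agent.GTor.H2.intertwines_heckeAlphaBar M q φ) x).symm

theorem galAdd_pullP_beta (φ : GalQ) (x : JZero M) :
    galAdd (M * q) φ (pullP (heckeBetaBar Kbar M q) x)
      = pullP (heckeBetaBar Kbar M q) (galAdd M φ x) := by
  show φ • pullP (heckeBetaBar Kbar M q) x = pullP (heckeBetaBar Kbar M q) (φ • x)
  rw [galois_smul_pic0_def, galois_smul_pic0_def]
  exact (pullP_semilinear (isFF0 M) (isFF0 (M * q)) _ _ _
    (Fermat.Agent.GTor.H2.intertwines_heckeBetaBar M q φ) x).symm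

/-- The key computation on old classes of `J₀(M q)`. -/
theorem keyq_zero_kill (hq : q.Prime) (hqM : ¬ q ∣ M) (φ : GalQ) (u v : JZero M)
    (h0 : galAdd M φ u + q • v = 0)
    (hES : galAdd M φ (galAdd M φ u) - T0 M q (galAdd M φ u) + q • u = 0) :
    U0 (M * q) q (galAdd (M * q) φ
        (pullP (heckeAlphaBar Kbar M q) u + pullP (heckeBetaBar Kbar M q) v))
      - q • (pullP (heckeAlphaBar Kbar M q) u + pullP (heckeBetaBar Kbar M q) v) = 0 := by
  obtain ⟨a, b, hab⟩ := exists_bezout_h70 hq hqM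
  exact keyq_abs (pullP (heckeAlphaBar Kbar M q)) (pullP (heckeBetaBar Kbar M q))
    (pushP (heckeBetaBar Kbar M q)) (T0 M q) (U0 (M * q) q)
    (DistribSMul.toAddMonoidHom (JZero (M * q)) (Fermat.Agent.BAD.H88.wq q M a b hab hq)) q
    (galAdd M φ) (galAdd (M * q) φ)
    (fun x => bd_as M q a b hab hq x) (fun x => bd_bs M q a b hab hq x)
    (fun z => U_eq M q a b hab hq H66.stmt_SquareW H6.stmt_DegBeta z)
    (fun x => W_as M q a b hab hq x) (fun x => W_bs M q a b hab hq x)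
    (galAdd_pullP_alpha M q φ) (galAdd_pullP_beta M q φ) u v h0 hES

/-- Eichler–Shimura on the `p`-power torsion of `J₀(M)`, in terms of `T0`. -/
theorem torsES_T0 (hp : p.Prime) (hq : q.Prime) (hqM : ¬ q ∣ M) (hqp : q ≠ p)
    (P : ValuationSubring Kbar) (hP : P.LiesOverPrime q) (φ : GalQ)
    (hφ : P.IsFrobeniusAt φ q) (u : JZero M) (hu : IsPTors p u) :
    galAdd M φ (galAdd M φ u) - T0 M q (galAdd M φ u) + q • u = 0 := by
  have hES0 := Fermat.Agent.GTor.H81.torsES_of_red hp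
    (fun ℓ hℓ hNp A hA =>
      haveI : NeZero ℓ := ⟨hℓ.ne_zero⟩
      Fermat.Agent.RED.H36.allRed M p ℓ hℓ hNp A hA) q hq hqM hqp P hP φ hφ u
      (by obtain ⟨k, hk⟩ := hu; exact ⟨k, hk⟩)
  have hT : heckeOperatorBar M (⟨q, hq⟩ : Nat.Primes) (φ • u) = T0 M q (φ • u) := by
    have h1 : heckeOperatorBar M (⟨q, hq⟩ : Nat.Primes) (φ • u)
        = heckeOperatorAlong Kbar M q (φ • u) := rfl
    rw [h1, T0_eq]
  rw [hT] at hES0
  exact hES0

/-- **KEYq at level `Γ₀(M q)`**: `(U_q φ - q)(U_q² - 1)` kills the kernel of reduction. -/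
theorem keyq_zero (hp : p.Prime) (hq : q.Prime) (hqM : ¬ q ∣ M) (hqp : q ≠ p)
    (P : ValuationSubring Kbar) (hP : P.LiesOverPrime q) (φ : GalQ)
    (hφ : P.IsFrobeniusAt φ q)
    (hU : ∀ y : JZero (M * q), InK1 P p (modularFunctionFieldBar (M * q)) y →
      InK1 P p (modularFunctionFieldBar (M * q)) (U0 (M * q) q y))
    (y : JZero (M * q)) (hy : InK1 P p (modularFunctionFieldBar (M * q)) y) :
    U0 (M * q) q (φ • (U0 (M * q) q (U0 (M * q) q y) - y))
      - q • (U0 (M * q) q (U0 (M * q) q y) - y) = 0 := by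
  have hold := keyq_zero_old M q hq hqM y
  have hyt : IsPTors p y := isPTors_of_inK1 hy
  have hut : IsPTors p
      (T0 M q (pushP (heckeBetaBar Kbar M q) y) - pushP (heckeAlphaBar Kbar M q) y) :=
    isPTors_sub' (isPTors_hom _ (isPTors_hom _ hyt)) (isPTors_hom _ hyt)
  have hvt : IsPTors p (-pushP (heckeBetaBar Kbar M q) y) :=
    isPTors_neg' (isPTors_hom _ hyt)
  -- `(U² - 1) y` lies in the kernel of reduction
  have hK : InK1 P p (modularFunctionFieldBar (M * q))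
      (U0 (M * q) q (U0 (M * q) q y) - y) :=
    Fermat.Agent.NEB.Geom.H6.inK1_sub (hU _ (hU _ hy)) hy
  rw [hold] at hK ⊢
  -- OLD-RED and CL-TI
  have hred := stmt_OLD_RED M p q hq hqM hqp P hP φ hφ _ _ hut hvt hK
  have h0 := cl_TI M p hp q hq hqM hqp P hP _ hred
  exact keyq_zero_kill M q hq hqM φ _ _ h0 (torsES_T0 M q p hp hq hqM hqp P hP φ hφ _ hut)

end Zero

/-! ## 3. Level `J_H` -/

section JHlevel

variable (M q c : ℕ) [NeZero M] [NeZero q] (H : Subgroup (ZMod c)ˣ) (p : ℕ)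

/-- **KEYq on `J_H(L)`**, `L = M q`, `q ∤ M`: for a `Δ`-fixed `p`-power torsion class `x` in the
uniform kernel of reduction at `P ∣ q`,
`(U_q^H φ - q) (U_q^H ² - 1) (T_ℓ^H - (ℓ + 1)) x = 0`. -/
theorem keyq_JH (L : ℕ) [NeZero L] (hL : L = M * q) (hp : p.Prime) (hc2 : 2 ≤ c) (hc : c ∣ L)
    (hq : q.Prime) (hqM : ¬ q ∣ M) (hqp : q ≠ p) (n : ℕ)
    (hexp : ∀ d : (ZMod c)ˣ, d ^ (p ^ n) ∈ H ∨ -(d ^ (p ^ n)) ∈ H)
    (hunr : ∀ w : Place Kbar ↥(FHbar L c H),
      ∃ x : ↥(modularFunctionFieldBar L), w.ord (inclBar L c H x) = 1)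
    (ℓ : ℕ) [NeZero ℓ] (hℓ : ℓ.Prime) (hℓL : ¬ ℓ ∣ L)
    (P : ValuationSubring Kbar) (hP : P.LiesOverPrime q) (φ : GalQ)
    (hφ : P.IsFrobeniusAt φ q)
    (hβℓ : BetaOK L c ℓ H) (hβq : BetaOK L c q H)
    (x : JH L c H) (hx : IsPTors p x)
    (hfix : ∀ d, (diamondData L c H hc2 hc).ρ d • x = x)
    (hK : InKU P p (diamondData L c H hc2 hc) x) :
    UH hβq (φ • (UH hβq (UH hβq (TH hβℓ x - (ℓ + 1) • x)) - (TH hβℓ x - (ℓ + 1) • x)))
      - q • (UH hβq (UH hβq (TH hβℓ x - (ℓ + 1) • x)) - (TH hβℓ x - (ℓ + 1) • x)) = 0 := by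
  subst hL
  have hL0 : M * q ≠ 0 := NeZero.ne (M * q)
  set hdℓ : HeckeData (M * q) c ℓ H := heckeData (M * q) c ℓ H hc2 hc with hdℓ_def
  set hdq : HeckeData (M * q) c q H := heckeData (M * q) c q H hc2 hc with hdq_def
  -- `t x` lies in the kernel of reduction
  have hKt : InKU P p (diamondData (M * q) c H hc2 hc) (TH hβℓ x - (ℓ + 1) • x) :=
    (InKU.TH hdℓ hc2 hc hℓ hℓL hK).sub (hK.nsmul (ℓ + 1))
  -- INV'
  obtain ⟨k, hk⟩ := hx
  have hm0 : p ^ k ≠ 0 := pow_ne_zero k hp.ne_zero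
  have hxm : ((p ^ k : ℕ) : ℤ) • x = 0 := by
    rw [natCast_zsmul]
    exact hk
  obtain ⟨y₀, hy₀, hup⟩ :=
    Fermat.Agent.NEB.H29.stmt_INV_JH' hdℓ hℓ hℓL hunr (p ^ k) hm0 x hxm hfix
  have hy₀t : IsPTors p y₀ := ⟨k, by
    rw [natCast_zsmul] at hy₀
    exact hy₀⟩
  have hup' : piUp (M * q) c H y₀ = TH hβℓ x - (ℓ + 1) • x := hup
  rw [← hup'] at hKt ⊢
  -- CL-RES
  obtain ⟨y₁, z, hyz, hy₁, hz⟩ :=
    cl_RES (M * q) c H p hp hc2 hc hL0 hunr n hexp P q hq hqp hP y₀ hy₀t hKt.inK1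
  have hpi : piUp (M * q) c H y₀ = piUp (M * q) c H y₁ := by
    rw [hyz, map_add, hz, add_zero]
  rw [hpi]
  -- level `Γ₀`
  have hqL : q ∣ M * q := dvd_mul_left q M
  have key := keyq_zero M q p hp hq hqM hqp P hP φ hφ
    (fun y hy => inK1_U0 hdq hq hqL hy) y₁ hy₁
  have hFF := isFF_JH (M * q) c H hc2 hc
  have hUup : ∀ w, UH hβq (piUp (M * q) c H w) = piUp (M * q) c H (U0 (M * q) q w) :=
    fun w => (piUp_U0 hdq w).symm
  rw [hUup, hUup, ← map_sub, ← piUp_galois hFF, hUup, ← map_nsmul, ← map_sub, key, map_zero]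

end JHlevel

end Fermat.Agent.NEB.Geom.H70

end
end
-- ==== END Fermat.Agent.NEB.Geom.H70_KeyqZ

-- ==== BEGIN Fermat.Agent.NEB.H29_PiOntoJH
section

/-!
# LG-NEB, package PI-ONTO at the level of `J_H` (helper29)

Instantiation of `stmt_PIONTO_FF` at helper14's relative interface (`NEB/H14_JHRel.lean`,
`H14_JHRelRules.lean`): `H ≤ H'` with `F_H / F_{H'}` cyclic of degree `p ^ a`, generated by the
diamond operator `⟨δ⟩`; `t = T^H_ℓ - (ℓ + 1)`, `ℓ ∤ M` prime.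

* `finrankAlong_betaH` : `[F_H(Mℓ) : β F_H(M)] = ℓ + 1`;
* `stmt_PIONTO_JH`    : twisted divisibility of `J_{H'}` ⟹ twisted divisibility of `J_H` and
  `π_* : J_H[p ^ k] → J_{H'}[p ^ k]` onto up to a power of `t`.
-/

set_option autoImplicit false
set_option linter.style.haveILetI false

noncomputable section

namespace Fermat.Agent.NEB.H29

open AlgebraicCurve ModularCurve
open Fermat.Agent.NEB Fermat.Agent.NEB.H14 Fermat.Agent.NEB.JH Fermat.Agent.RED

section Cyc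

/-- A product over a finite cyclic subgroup, as a product over the exponents. -/
theorem prod_subgroup_eq_prod_fin {G₀ : Type*} [Group G₀] {X : Type*} [CommMonoid X] (c : G₀)
    (G : Subgroup G₀) [Fintype G] (hG : G = Subgroup.zpowers c) (n : ℕ) (hn : orderOf c = n)
    (hn0 : 0 < n) (f : G₀ → X) :
    ∏ g : G, f (g : G₀) = ∏ i : Fin n, f (c ^ (i : ℕ)) := by
  subst hG
  subst hn
  have hfin : IsOfFinOrder c := orderOf_pos_iff.mp hn0
  exact (Fintype.prod_equiv (finEquivZPowers hfin) (fun i : Fin (orderOf c) => f (c ^ (i : ℕ)))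
    (fun g : Subgroup.zpowers c => f (g : G₀))
    (fun i => by rw [finEquivZPowers_apply])).symm

/-- The same for sums. -/
theorem sum_subgroup_eq_sum_fin {G₀ : Type*} [Group G₀] {X : Type*} [AddCommMonoid X] (c : G₀)
    (G : Subgroup G₀) [Fintype G] (hG : G = Subgroup.zpowers c) (n : ℕ) (hn : orderOf c = n)
    (hn0 : 0 < n) (f : G₀ → X) :
    ∑ g : G, f (g : G₀) = ∑ i : Fin n, f (c ^ (i : ℕ)) := by
  subst hG
  subst hn
  have hfin : IsOfFinOrder c := orderOf_pos_iff.mp hn0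
  exact (Fintype.sum_equiv (finEquivZPowers hfin) (fun i : Fin (orderOf c) => f (c ^ (i : ℕ)))
    (fun g : Subgroup.zpowers c => f (g : G₀))
    (fun i => by rw [finEquivZPowers_apply])).symm

end Cyc

section JH

variable {M c ℓ : ℕ} [NeZero M] [NeZero ℓ] {H : Subgroup (ZMod c)ˣ}

/-- `[F_H(Mℓ) : β F_H(M)] = [F₀(Mℓ) : β F₀(M)]` (Galois square). -/
theorem finrankAlong_betaH_eq (hd : HeckeData M c ℓ H) :
    finrankAlong Kbar (betaBar hd.hβ) = finrankAlong Kbar (heckeBetaBar Kbar M ℓ) := by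
  haveI := neZero_mul M ℓ
  haveI := finite_range_rho hd.dd'
  haveI : Fintype hd.dd'.ρ.range := Fintype.ofFinite _
  have h := Fermat.Agent.NEB.H2.stmt_GalSquare Kbar _ _ _ _ (heckeBetaBar Kbar M ℓ)
    (inclBar M c H) (betaBar hd.hβ)
    (inclBar (M * ℓ) c H) (inclBar_comp_beta hd.hβ).symm
    (finiteAlong_hom (isFF0 M) (isFF0 (M * ℓ)) _) hd.dd'.ρ.range ?_ ?_ ?_ ?_ ?_
  · exact h.2.1
  · intro x hx
    obtain ⟨x₀, hx₀⟩ := hd.dd'.fixed x (fun d => hx _ ⟨d, rfl⟩)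
    exact ⟨x₀, hx₀⟩
  · rintro g y ⟨d, rfl⟩
    exact hd.dd'.fix d y
  · rintro g y ⟨d, rfl⟩
    exact ⟨hd.dd.ρ d y, (hd.betaGal d y).symm⟩
  · rintro g ⟨d, rfl⟩ hg
    have h1 : hd.dd.ρ d = 1 := by
      refine AlgEquiv.ext fun y => ?_
      have h2 := hg y
      rw [hd.betaGal d y] at h2
      exact (betaBar hd.hβ).toRingHom.injective h2
    exact (hd.dd'.ker d).mpr ((hd.dd.ker d).mp h1)
  · intro y hy
    obtain ⟨x₀, hx₀⟩ := hd.dd.fixed y (fun d => by
      have h2 := hy _ ⟨d, rfl⟩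
      rw [hd.betaGal d y] at h2
      exact (betaBar hd.hβ).toRingHom.injective h2)
    exact ⟨x₀, hx₀⟩

/-- `[F_H(Mℓ) : β F_H(M)] = ℓ + 1` for a prime `ℓ ∤ M`. -/
theorem finrankAlong_betaH (hd : HeckeData M c ℓ H) (hℓ : ℓ.Prime) (hM : ¬ ℓ ∣ M) :
    finrankAlong Kbar (betaBar hd.hβ) = ℓ + 1 := by
  rw [finrankAlong_betaH_eq hd]
  exact Fermat.Agent.RED.H95.finrankAlong_beta hℓ hM

/-- `T^H_ℓ` is a correspondence of degree `ℓ + 1`. -/
theorem isCorr_THdiv' (hd : HeckeData M c ℓ H) (hℓ : ℓ.Prime) (hM : ¬ ℓ ∣ M) :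
    IsCorr (THdiv hd.hβ) (THfn hd.hβ) ((ℓ + 1 : ℕ) : ℤ) := by
  have h := isCorr_THdiv hd.isFF hd.isFF' hd.hβ
  rwa [one_mul, finrankAlong_betaH hd hℓ hM] at h

end JH

section Rel

variable {M c ℓ : ℕ} [NeZero M] [NeZero c] [NeZero ℓ] {H H' : Subgroup (ZMod c)ˣ}

/-- **PI-ONTO for a cyclic layer `F_H / F_{H'}`** of degree `p ^ a`. -/
theorem stmt_PIONTO_JH (hH : H ≤ H') (hd : HeckeData M c ℓ H) (hd' : HeckeData M c ℓ H')
    (hℓ : ℓ.Prime) (hM : ¬ ℓ ∣ M)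
    (δ : (ZMod c)ˣ) (hgen : relGal hd.dd H' = Subgroup.zpowers (hd.dd.ρ δ))
    (p : ℕ) [Fact p.Prime] (a : ℕ) (hord : orderOf (hd.dd.ρ δ) = p ^ a)
    (N₀ : ℕ)
    (hdiv₀ : ∀ x₀ : JH M c H', ∃ y₀ : JH M c H',
      (tEnd (TH hd'.hβ) ((ℓ + 1 : ℕ) : ℤ) ^ N₀) x₀ = p • y₀) :
    (∀ x : JH M c H, ∃ y : JH M c H,
      (tEnd (TH hd.hβ) ((ℓ + 1 : ℕ) : ℤ) ^ ((N₀ + 1) * p ^ a)) x = p • y) ∧
    ∀ (k : ℕ) (y₀ : JH M c H'), p ^ k • y₀ = 0 →
      ∃ y : JH M c H, p ^ k • y = 0 ∧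
        piDownRel M hH y
          = (tEnd (TH hd'.hβ) ((ℓ + 1 : ℕ) : ℤ) ^ ((N₀ + 1) * p ^ a * k + 1)) y₀ := by
  have hp : 0 < p ^ a := pow_pos (Fact.out : p.Prime).pos a
  haveI := finite_relGal hd.dd H'
  haveI : Fintype (relGal hd.dd H') := Fintype.ofFinite _
  have hnormG := (galNorm_inclRel hH hd.dd hd'.dd (relGal hd.dd H') rfl).2.2
  have hc : hd.dd.ρ δ ^ (p ^ a) = 1 := by
    rw [← hord]
    exact pow_orderOf_eq_one _
  have hmem : hd.dd.ρ δ ∈ relGal hd.dd H' := by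
    rw [hgen]
    exact Subgroup.mem_zpowers _
  obtain ⟨δ', hδ', hδρ⟩ := hmem
  rw [TH_eq_picMap hd.isFF hd.isFF' hd.hβ]
  refine stmt_PIONTO_FF hd'.isFF hd.isFF (inclRel M hH) (hd.dd.ρ δ) p a hc ?_ ?_
    (isCorr_THdiv' hd hℓ hM) ?_ (TH hd'.hβ) ?_ N₀ hdiv₀
  · intro x
    rw [← hδρ]
    exact rho_inclRel_of_mem hH hd.dd hd'.dd hδ' x
  · intro x _
    rw [hnormG x]
    exact prod_subgroup_eq_prod_fin (hd.dd.ρ δ) (relGal hd.dd H') hgen (p ^ a) hord hp
      (fun g => g x)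
  · intro f _
    exact ((opHyp_THfn hd 1).equiv δ f).symm
  · intro x
    rw [← TH_eq_picMap hd.isFF hd.isFF' hd.hβ]
    exact piDownRel_TH hH hd hd' x

end Rel

end Fermat.Agent.NEB.H29

end
end
-- ==== END Fermat.Agent.NEB.H29_PiOntoJH

-- ==== BEGIN Fermat.Agent.NEB.OLD.H57_CompatBs
section

/-!
# NEB, package OLDNEW, leaf OLD-CBS (helper57): `β_q^* ∘ U_{q'} = U_{q'} ∘ β_q^*`

From OLD-CAS (`H57.stmt_CompatAs`) and the W-shortcut of helper14 (`compatBs_of_compatAs`).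
-/

set_option autoImplicit false

noncomputable section

namespace Fermat.Agent.NEB.OLD.H57

/-- **OLD-CBS**: `β_q^* ∘ U_{q'} = U_{q'} ∘ β_q^*`. -/
theorem stmt_CompatBs : Stmt_CompatBs :=
  compatBs_of_compatAs stmt_CompatAs

end Fermat.Agent.NEB.OLD.H57

end
end
-- ==== END Fermat.Agent.NEB.OLD.H57_CompatBs

-- ==== BEGIN Fermat.Agent.S34.H91_Chain2
section

/-!
# S34: the chain from the single open geometric input  (helper91)

* `allRed` : the reduction packages of G-RED at all levels, unconditional (the five packages of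
  G-RED are proved: `stmt_DR2`, `stmt_NDESC`, `stmt_KD`, `stmt_EQ`, `stmt_ES3`);
* `s34_of_modSSD` : the frozen statement S34 from the modular semistable Deuring datum
  `BAD.Stmt_ModSSD M q` at the tame `(M, q)`, `q ‖ M`.
-/

set_option autoImplicit false

open Polynomial IsLocalRing

namespace Fermat.Agent.S34.H91

/-- The reduction packages of G-RED, unconditional. -/
theorem allRed (N : ℕ) [NeZero N] (p : ℕ) (_hp : p.Prime) : Fermat.Agent.GTor.H81.AllRed N p :=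
  fun ℓ hℓ hNp A hA =>
    haveI : NeZero ℓ := ⟨hℓ.ne_zero⟩
    Fermat.Agent.RED.H36.allRed_of Fermat.Agent.RED.H76.stmt_DR2
      Fermat.Agent.RED.H51.stmt_NDESC Fermat.Agent.RED.KD.H22.stmt_KD
      Fermat.Agent.RED.H36.stmt_EQ Fermat.Agent.RED.H95.stmt_ES3 N p ℓ hℓ hNp A hA

/-- **S34 from the modular semistable Deuring datum.** -/
theorem s34_of_modSSD
    (hS : ∀ (M q : ℕ) [NeZero M], q.Prime → q ∣ M → ¬ q ^ 2 ∣ M →
      Fermat.Agent.BAD.H91.Tame M q → Fermat.Agent.BAD.Stmt_ModSSD M q)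
    {𝒪 : Type} [CommRing 𝒪] [IsDomain 𝒪] [IsDiscreteValuationRing 𝒪]
    [IsAdicComplete (maximalIdeal 𝒪) 𝒪] [Finite (ResidueField 𝒪)] [CharZero 𝒪]
    {p : ℕ} (hp : p.Prime) (hp𝒪 : (p : 𝒪) ∈ maximalIdeal 𝒪)
    {N : ℕ} [NeZero N] {S : Finset ℕ} (hpS : p ∈ S) (hNS : ∀ q : ℕ, q.Prime → q ∣ N → q ∈ S)
    {θ : CuspForm.heckeAlgebra N 2 (↑S : Set ℕ) →+* ResidueField 𝒪}
    {T : Type} [CommRing T] [IsLocalRing T] [IsNoetherianRing T]
    [IsAdicComplete (maximalIdeal T) T] [Algebra 𝒪 T] [IsLocalHom (algebraMap 𝒪 T)]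
    [Module.Finite 𝒪 T] [Module.Free 𝒪 T]
    (H : CuspForm.HeckeGaloisRepDatum N (↑S : Set ℕ) 𝒪 θ T)
    (q : ℕ) (hq : q.Prime) (hqp : q ≠ p) (hqN : q ∣ N) (hq2 : ¬ q ^ 2 ∣ N) :
    H.ρ.IsUnipotentOnInertiaAt q :=
  s34_of_leaves hS (fun N _ p hp => allRed N p hp) hp hp𝒪 hpS hNS H q hq hqp hqN hq2

end Fermat.Agent.S34.H91

end
-- ==== END Fermat.Agent.S34.H91_Chain2

-- ==== BEGIN Fermat.Agent.S43.CompEis.H60_Main
section
attribute [local instance 10000] SubalgebraClass.toAlgebra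
attribute [local instance 10000] HahnSeries.powerSeriesAlgebra

set_option autoImplicit false
set_option synthInstance.maxHeartbeats 400000
set_option maxHeartbeats 1000000
set_option linter.style.haveILetI false
set_option linter.unusedSectionVars false

noncomputable section

open AlgebraicCurve ModularCurve

namespace Fermat.Agent.S43.CompEis.H60

open Fermat.Agent.BAD Fermat.Agent.S44 Fermat.Agent.S28.H73 Fermat.Agent.RED.H73
open Fermat.Agent.S43.BadQ Fermat.Agent.RED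

section Orders

variable {N N' : ℕ} [NeZero N] [NeZero N']

/-- Divisibility of the orders of a function does not depend on the level. -/
theorem dvd_ord_lift (h : N ∣ N') (n : ℤ) {x : ↥(FNbar N)}
    (hx : ∀ P : Place (AlgebraicClosure ℚ) ↥(FNbar N), n ∣ P.ord x)
    (P' : Place (AlgebraicClosure ℚ) ↥(FNbar N')) : n ∣ P'.ord (lift h x) := by
  have hint : (lift (N := N) (N' := N') h).toRingHom.IsIntegral :=
    (H51.stmt_FFB_finite _ _ _ (H95.stmt_HKA_isFF N) (H95.stmt_HKA_isFF N') _).1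
  letI := algebraAlong (lift (N := N) (N' := N') h)
  haveI := isScalarTower_along (lift (N := N) (N' := N') h)
  haveI := isIntegral_along (lift (N := N) (N' := N') h) hint
  have h1 := P'.ord_restrict (F := ↥(FNbar N)) x
  have h2 : lift h x = algebraMap ↥(FNbar N) ↥(FNbar N') x := rfl
  rw [h2, h1]
  exact Dvd.dvd.mul_left (hx _) _

end Orders

section Core

variable {A : ValuationSubring (AlgebraicClosure ℚ)}
variable {q M : ℕ} {a b : ℤ} {hab : a * q + b * M = 1} {hq : q.Prime} [NeZero (M * q)]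
variable {M' : ℕ} {a' b' : ℤ} {hab' : a' * q + b' * M' = 1} [NeZero (M' * q)]

/-- **COMP-EIS at the level `M q`** from HECKE at level `M q` and COORD at a level `M' q`,
`M q ∣ M' q`. -/
theorem compEisAt_core (p : ℕ) (hp : p.Prime) (hA : A.LiesOverPrime q)
    (hle : M * q ∣ M' * q)
    (hH : Stmt_CE_Hecke q M a b hab hq)
    (hC : Stmt_CE_Coord p q M' a' b' hab' hq)
    (hT : ∀ (x : ↥(FNbar (M * q))) (k : ℤ),
      HasSlope A q M' a' b' hab' hq (lift hle x) k → HasSlope A q M a b hab hq x k)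
    (hD : ∀ (f : ↥(gaussV A (M * q))) (f' : ↥(gaussV A (M' * q))),
      (((f' : ↥(gaussV A (M' * q))) : ↥(FNbar (M' * q))) : LaurentSeries (AlgebraicClosure ℚ)) =
        (((f : ↥(gaussV A (M * q))) : ↥(FNbar (M * q))) : LaurentSeries (AlgebraicClosure ℚ)) →
      (∀ Q' : Place (kV A)
          ↥(redField A (FNbar (M' * q)) (hasScale_laurentBaseChange A (M' * q))),
        (p : ℤ) ∣ Q'.ord (gaussRes A (M' * q) f')) →
      ∀ Q : Place (kV A) ↥(redField A (FNbar (M * q)) (hasScale_laurentBaseChange A (M * q))),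
        (p : ℤ) ∣ Q.ord (gaussRes A (M * q) f)) :
    CompEisAt p (M * q) A := by
  intro S t x hfix heig hne
  obtain ⟨ℓ, hℓ, hℓS, hℓN, hℓp, hneis⟩ := hne
  haveI : Fact p.Prime := ⟨hp⟩
  -- the point
  have hX0 : (p : ℤ) • jzModule.pt (M * q) p x = 0 := jzModule.pt_torsion (M * q) p x
  have hXfix : ∀ σ ∈ A.inertiaSubgroupIn ℚ,
      σ • jzModule.pt (M * q) p x = jzModule.pt (M * q) p x := by
    intro σ hσ
    rw [← jzModule.pt_gal, hfix σ hσ]
  have hXT : heckeOperatorBar (M * q) ⟨ℓ, hℓ⟩ (jzModule.pt (M * q) p x)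
      = t ℓ • jzModule.pt (M * q) p x := by
    rw [← jzModule.pt_T (M * q) p hℓ hℓN, heig ℓ hℓ hℓS hℓN hℓp]
    exact coe_intCast_smul p (M * q) (t ℓ) x
  obtain ⟨D, f, g, c, t₀, hf, hg, hc, hxD, hDf, hffix, hgfix, ht₀, hslope⟩ :=
    hH A hA p hp ⟨ℓ, hℓ⟩ hℓN (t ℓ) _ hX0 hXfix hXT
  -- slopes at the level `M' q`
  have hf' : lift hle f ≠ 0 := (map_ne_zero _).mpr hf
  have hg' : lift hle g ≠ 0 := (map_ne_zero _).mpr hg
  have hf'fix : ∀ σ ∈ A.inertiaSubgroupIn ℚ, galF (M' * q) σ • lift hle f = lift hle f :=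
    fun σ hσ => galF_fixed_transfer (coe_lift hle f) σ (hffix σ hσ)
  have hg'fix : ∀ σ ∈ A.inertiaSubgroupIn ℚ, galF (M' * q) σ • lift hle g = lift hle g :=
    fun σ hσ => galF_fixed_transfer (coe_lift hle g) σ (hgfix σ hσ)
  obtain ⟨kf, hkf'⟩ := exists_hasSlope_of_coord p hA hC hf' hf'fix
  obtain ⟨kg, hkg'⟩ := exists_hasSlope_of_coord p hA hC hg' hg'fix
  have hkf := hT f kf hkf'
  have hkg := hT g kg hkg'
  -- the eigenvector equation on slopes
  have h1 := hslope kf hkf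
  have h2 : HasSlope A q M a b hab hq
      (algebraMap (AlgebraicClosure ℚ) ↥(FNbar (M * q)) c * f ^ t₀ * g ^ p)
      (0 + t₀ * kf + p * kg) := ((hasSlope_const hc).mul (hkf.pow t₀)).mul (hkg.pow p)
  have h3 := h1.unique hA h2
  -- `p ∣ kf`
  have hpp : Prime (p : ℤ) := Nat.prime_iff_prime_int.mp hp
  have h4 : (p : ℤ) ∣ (((ℓ : ℕ) : ℤ) + 1 - t₀) * kf := by
    have : (((ℓ : ℕ) : ℤ) + 1 - t₀) * kf = p * kg := by linear_combination h3
    rw [this]
    exact dvd_mul_right _ _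
  have h5 : ¬ (p : ℤ) ∣ (((ℓ : ℕ) : ℤ) + 1 - t₀) := by
    intro hd
    have h6 := (ZMod.intCast_zmod_eq_zero_iff_dvd _ p).mpr hd
    push_cast at h6
    apply hneis
    have h7 : ((t ℓ : ℤ) : ZMod p) = ((t₀ : ℕ) : ZMod p) := by
      rw [← ht₀]; push_cast; rfl
    rw [h7]
    linear_combination -h6
  have hpk : (p : ℤ) ∣ kf := (hpp.dvd_or_dvd h4).resolve_left h5
  -- the orders of the reduction at the level `M' q`
  have hdiv : ∀ P : Place (AlgebraicClosure ℚ) ↥(FNbar (M * q)), (p : ℤ) ∣ P.ord f :=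
    fun P => ⟨_, (hDf P).symm⟩
  have hdiv' := dvd_ord_lift hle (p : ℤ) hdiv
  obtain ⟨c₁, hu', hc₁, hQ'⟩ := fin_of_coord p hp hA hC hf'fix hdiv' hkf' hpk
  -- back to the level `M q`
  have hcoe := const_mul_transfer (N := M * q) (N' := M' * q) (coe_lift hle f) c₁
  have hu : IsGaussUnit A (M * q)
      (algebraMap (AlgebraicClosure ℚ) ↥(FNbar (M * q)) c₁ * f) :=
    (isGaussUnit_transfer hcoe).mp hu'
  have hQ := hD ⟨_, hu.mem⟩ ⟨_, hu'.mem⟩ hcoe hQ'
  refine ⟨D, ⟨_, hu.mem⟩, hxD, hu.gaussRes_ne_zero, fun P => ?_, hQ⟩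
  rw [hDf P]
  exact (Fermat.Agent.RED.H17.ord_algebraMap_mul P hc₁ f).symm

end Core

end Fermat.Agent.S43.CompEis.H60

end
end
-- ==== END Fermat.Agent.S43.CompEis.H60_Main
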