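-- GENERATED (merged mirror, NOTES/tools/trim/merge3_helper67.py): 6 modules of the originals, bodies verbatim.
import Fermat.Agent.Zm.S44_L06_000
import Fermat.Agent.Zm.S44_L12_000
import Fermat.Agent.Zm.S44_L01_000
import Fermat.Agent.Zm.S44_L01_002
import Fermat.Agent.Zm.S35_L21_000
import Fermat.Agent.BADP.H74_HDropAbs
import Fermat.Agent.Zm.S44_L02_000
import Fermat.Agent.Zm.S44_L02_004
import Fermat.Agent.Zm.S35_L11_001
import Fermat.Agent.Zm.S44_L06_001
import Fermat.Agent.Zm.S44_L01_004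
import Fermat.Agent.Zm.S33_L01_004
import Fermat.Agent.Lib.EllFinite.H46_Finrank

-- ==== BEGIN Fermat.Agent.BADP.H11_Arith0Mod
section
attribute [local instance 10000] SubalgebraClass.toAlgebra
attribute [local instance 10000] HahnSeries.powerSeriesAlgebra

/-!
# S44 BADP, leaf ARITH-0 (helper11): the `K0`-rational parts, for the modular datum at `p`

`N = M p`, `A` a valuation subring of `ℚ̄` over `p`, `I` its inertia group, `S` a modular
semistable Deuring datum (`IsModDatum`: `V₁` the Gauss valuation ring, `V₂ = V₁ ∘ w_p`).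

* `stmt_Arith0` : **ARITH-0** in the form of `NOTES/plan/L_S44.md` §12.2: every `g` has an
  `I`-fixed part `g0` such that, for every constant `c` fixed by `I`, `c g ∈ V_i` implies
  `c g0 ∈ V_i` with the same reduction (`i = 1, 2`), and every pole of `g0` is conjugate under `I`
  to a pole of `g`.
* `exists_k0Part` : for a modular datum `S`: every `u ∈ V₁ ∩ V₂` has an `I`-fixed part with the
  same two reductions whose poles lie in the fibres of the poles of `u`.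
* `isK0Lift_mod` : `IsK0Lift S 𝓘` for every set `𝓘` of automorphisms `galF N σ`, `σ ∈ I`.
* `k0_coord` : the hypothesis (K0) of `H21.exists_isAnnCoord_of_goodLift`.
-/

set_option autoImplicit false
set_option linter.style.haveILetI false
set_option linter.unusedSectionVars false
set_option synthInstance.maxHeartbeats 400000
set_option maxHeartbeats 1000000

noncomputable section

namespace Fermat.Agent.BADP.H11

open AlgebraicCurve ModularCurve Fermat.Agent.BAD Fermat.Agent.S28 Fermat.Agent.S28.H73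
  Fermat.Agent.RED.H73 Fermat.Agent.S43.BadQ Fermat.Agent.BADP

open scoped Classical

local notation "Qbar" => AlgebraicClosure ℚ

section Mod

variable (A : ValuationSubring Qbar) (p M : ℕ) (a b : ℤ) (hab : a * p + b * M = 1)
  (hp : p.Prime) [NeZero (M * p)]

theorem wS_smul_eq (x : ↥(FNbar (M * p))) :
    wS p M a b hab hp • x = H88.wq p M a b hab hp x := rfl

theorem wq_traceOp {ι : Type} [Fintype ι] (σ : ι → GalQ) (d : Qbar) (g : ↥(FNbar (M * p))) :
    H88.wq p M a b hab hp (traceOp (M * p) σ d g)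
      = traceOp (M * p) σ d (H88.wq p M a b hab hp g) :=
  traceOp_comm (M * p) σ d (H88.wq p M a b hab hp)
    (fun i x => H88.wq_arith p M a b hab hp (σ i) x) g

/-- **ARITH-0** (helper93's form).  Every modular function `g` of level `M p` has an `I`-fixed
part `g0`: for every constant `c` fixed by `I`, if `c g` is in the Gauss valuation ring `V₁` then
so is `c g0`, with the same reduction; the same for `V₂ = V₁ ∘ w_p`; and every pole of `g0` is
conjugate under `I` to a pole of `g`. -/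
theorem stmt_Arith0 (hA : A.LiesOverPrime p) (g : ↥(FNbar (M * p))) :
    ∃ g0 : ↥(FNbar (M * p)),
      (∀ τ ∈ A.inertiaSubgroupIn ℚ, galF (M * p) τ • g0 = g0) ∧
      (∀ c : Qbar, (∀ τ ∈ A.inertiaSubgroupIn ℚ, τ c = c) →
        (∀ h : algebraMap Qbar ↥(FNbar (M * p)) c * g ∈ gaussV A (M * p),
          ∃ h0 : algebraMap Qbar ↥(FNbar (M * p)) c * g0 ∈ gaussV A (M * p),
            gaussRes A (M * p) ⟨_, h0⟩ = gaussRes A (M * p) ⟨_, h⟩) ∧
        (∀ h : wS p M a b hab hp • (algebraMap Qbar ↥(FNbar (M * p)) c * g) ∈ gaussV A (M * p),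
          ∃ h0 : wS p M a b hab hp • (algebraMap Qbar ↥(FNbar (M * p)) c * g0)
              ∈ gaussV A (M * p),
            gaussRes A (M * p) ⟨_, h0⟩ = gaussRes A (M * p) ⟨_, h⟩)) ∧
      ∀ P : Place Qbar ↥(FNbar (M * p)), P.ord g0 < 0 →
        ∃ τ ∈ A.inertiaSubgroupIn ℚ, (galF (M * p) τ • P).ord g < 0 := by
  obtain ⟨ι, hι, σ, d, hσ, hT⟩ :=
    exists_traceOp (M * p) A hp hA {g, H88.wq p M a b hab hp g}
  have hg := hT g (by simp)
  have hwg := hT (H88.wq p M a b hab hp g) (by simp)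
  refine ⟨traceOp (M * p) σ d g, hg.1, fun c hc => ⟨fun h => hg.2 c hc h, fun h => ?_⟩,
    fun P hP => ?_⟩
  · have e : ∀ x : ↥(FNbar (M * p)),
        wS p M a b hab hp • (algebraMap Qbar ↥(FNbar (M * p)) c * x)
          = algebraMap Qbar ↥(FNbar (M * p)) c * H88.wq p M a b hab hp x := by
      intro x
      rw [wS_smul_eq, map_mul, AlgEquiv.commutes]
    have h' : algebraMap Qbar ↥(FNbar (M * p)) c * H88.wq p M a b hab hp g
        ∈ gaussV A (M * p) := by
      rw [← e]; exact h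
    obtain ⟨h0, hr⟩ := hwg.2 c hc h'
    have e0 : wS p M a b hab hp • (algebraMap Qbar ↥(FNbar (M * p)) c * traceOp (M * p) σ d g)
        = algebraMap Qbar ↥(FNbar (M * p)) c
          * traceOp (M * p) σ d (H88.wq p M a b hab hp g) := by
      rw [e, wq_traceOp]
    have h0' : wS p M a b hab hp • (algebraMap Qbar ↥(FNbar (M * p)) c
        * traceOp (M * p) σ d g) ∈ gaussV A (M * p) := by
      rw [e0]; exact h0
    refine ⟨h0', ?_⟩
    have g1 : (⟨_, h0'⟩ : ↥(gaussV A (M * p))) = ⟨_, h0⟩ := Subtype.ext e0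
    have g2 : (⟨_, h⟩ : ↥(gaussV A (M * p))) = ⟨_, h'⟩ := Subtype.ext (e g)
    rw [g1, g2]
    exact hr
  · obtain ⟨i, hi⟩ := exists_pole_of_traceOp (M * p) σ d g P hP
    refine ⟨(σ i)⁻¹, inv_mem (hσ i), ?_⟩
    have e : galF (M * p) (σ i)⁻¹ = (galF (M * p) (σ i))⁻¹ :=
      map_inv (arithmeticGalois (modularFunctionFieldFull (M * p))) (σ i)
    rw [e]
    exact hi

variable {A p M a b hab hp}

/-- For a modular datum: every function integral for both valuations has an `I`-fixed part with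
the same reductions, whose poles lie in the fibres of the poles of the function. -/
theorem exists_k0Part (hA : A.LiesOverPrime p)
    {S : SSD Qbar ↥(FNbar (M * p)) (kV A) (RedF A (M * p)) (RedF A (M * p))}
    (hS : IsModDatum A p M a b hab hp S) (u : ↥(FNbar (M * p)))
    (hu₁ : u ∈ S.c₁.V) (hu₂ : u ∈ S.c₂.V) :
    ∃ u0 : ↥(FNbar (M * p)),
      (∀ τ ∈ A.inertiaSubgroupIn ℚ, galF (M * p) τ • u0 = u0) ∧ u0 ∈ S.c₁.V ∧ u0 ∈ S.c₂.V ∧
      S.c₁.rd u0 = S.c₁.rd u ∧ S.c₂.rd u0 = S.c₂.rd u ∧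
      ∀ P : Place Qbar ↥(FNbar (M * p)), P.ord u0 < 0 →
        ∃ P' : Place Qbar ↥(FNbar (M * p)),
          S.c₁.r P' = S.c₁.r P ∧ S.c₂.r P' = S.c₂.r P ∧ P'.ord u < 0 := by
  obtain ⟨u0, hfix, hc, hpole⟩ := stmt_Arith0 A p M a b hab hp hA u
  obtain ⟨h1, h2⟩ := hc 1 (fun τ _ => map_one τ)
  have e1 : ∀ x : ↥(FNbar (M * p)), algebraMap Qbar ↥(FNbar (M * p)) 1 * x = x := by
    intro x
    rw [map_one, one_mul]
  -- first valuation
  have hg1 : algebraMap Qbar ↥(FNbar (M * p)) 1 * u ∈ gaussV A (M * p) := by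
    rw [e1]; exact (hS.mem₁ u).mp hu₁
  obtain ⟨h01, hr1⟩ := h1 hg1
  have hu0g : u0 ∈ gaussV A (M * p) := by
    rw [e1] at h01; exact h01
  have hug : u ∈ gaussV A (M * p) := (hS.mem₁ u).mp hu₁
  have hu0₁ : u0 ∈ S.c₁.V := (hS.mem₁ u0).mpr hu0g
  have hr1' : gaussRes A (M * p) ⟨u0, hu0g⟩ = gaussRes A (M * p) ⟨u, hug⟩ := by
    have g1 : (⟨_, h01⟩ : ↥(gaussV A (M * p))) = ⟨u0, hu0g⟩ := Subtype.ext (e1 u0)
    have g2 : (⟨_, hg1⟩ : ↥(gaussV A (M * p))) = ⟨u, hug⟩ := Subtype.ext (e1 u)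
    rw [← g1, ← g2]
    exact hr1
  -- second valuation
  have hwug : wS p M a b hab hp • u ∈ gaussV A (M * p) := (hS.mem₂ u).mp hu₂
  have hg2 : wS p M a b hab hp • (algebraMap Qbar ↥(FNbar (M * p)) 1 * u)
      ∈ gaussV A (M * p) := by
    rw [e1]; exact hwug
  obtain ⟨h02, hr2⟩ := h2 hg2
  have hwu0g : wS p M a b hab hp • u0 ∈ gaussV A (M * p) := by
    rw [e1] at h02; exact h02
  have hu0₂ : u0 ∈ S.c₂.V := (hS.mem₂ u0).mpr hwu0g
  have hr2' : gaussRes A (M * p) ⟨_, hwu0g⟩ = gaussRes A (M * p) ⟨_, hwug⟩ := by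
    have g1 : (⟨_, h02⟩ : ↥(gaussV A (M * p))) = ⟨_, hwu0g⟩ :=
      Subtype.ext (congrArg (fun x => wS p M a b hab hp • x) (e1 u0))
    have g2 : (⟨_, hg2⟩ : ↥(gaussV A (M * p))) = ⟨_, hwug⟩ :=
      Subtype.ext (congrArg (fun x => wS p M a b hab hp • x) (e1 u))
    rw [← g1, ← g2]
    exact hr2
  refine ⟨u0, hfix, hu0₁, hu0₂, ?_, ?_, fun P hP => ?_⟩
  · rw [PRed.rd_of_mem _ hu0₁, PRed.rd_of_mem _ hu₁,
      hS.red₁ ⟨u0, hu0g⟩ hu0₁, hS.red₁ ⟨u, hug⟩ hu₁]
    exact hr1'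
  · rw [PRed.rd_of_mem _ hu0₂, PRed.rd_of_mem _ hu₂,
      hS.red₂ u0 hu0₂ hwu0g, hS.red₂ u hu₂ hwug]
    exact hr2'
  · obtain ⟨τ, hτ, hord⟩ := hpole P hP
    have hin := hS.inertial τ hτ
    exact ⟨galF (M * p) τ • P, hin.r₁ P, hin.r₂ P, hord⟩

/-- **(K0)** for the modular datum at `p`: `IsK0Lift S 𝓘` for every set `𝓘` of automorphisms
induced by the inertia group. -/
theorem isK0Lift_mod (hA : A.LiesOverPrime p)
    {S : SSD Qbar ↥(FNbar (M * p)) (kV A) (RedF A (M * p)) (RedF A (M * p))}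
    (hS : IsModDatum A p M a b hab hp S)
    (𝓘 : Set (SemilinearAut Qbar ↥(FNbar (M * p))))
    (h𝓘 : ∀ τ ∈ 𝓘, ∃ σ ∈ A.inertiaSubgroupIn ℚ, τ = galF (M * p) σ) :
    IsK0Lift S 𝓘 := by
  intro u hu₁ hu₂
  obtain ⟨u0, hfix, h1, h2, h3, h4, h5⟩ := exists_k0Part hA hS u hu₁ hu₂
  refine ⟨u0, fun τ hτ => ?_, h1, h2, h3, h4, h5⟩
  obtain ⟨σ, hσ, rfl⟩ := h𝓘 τ hτ
  exact hfix σ hσ

/-- The hypothesis (K0) of helper21's `H21.exists_isAnnCoord_of_goodLift`, for the modular datum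
at `p` and every subfield `F0` containing the functions fixed by the inertia group. -/
theorem k0_coord (hA : A.LiesOverPrime p)
    {S : SSD Qbar ↥(FNbar (M * p)) (kV A) (RedF A (M * p)) (RedF A (M * p))}
    (hS : IsModDatum A p M a b hab hp S)
    (F0 : Subfield ↥(FNbar (M * p)))
    (hF0 : ∀ x : ↥(FNbar (M * p)),
      (∀ τ ∈ A.inertiaSubgroupIn ℚ, galF (M * p) τ • x = x) → x ∈ F0)
    (s : Place (kV A) (RedF A (M * p)) × Place (kV A) (RedF A (M * p)))
    (u : ↥(FNbar (M * p))) (hu₁ : u ∈ S.c₁.V) (hu₂ : u ∈ S.c₂.V)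
    (hpf : Fermat.Agent.S15.Desc.H67.PoleFree S s u) :
    ∃ u0 ∈ F0, u0 ∈ S.c₁.V ∧ u0 ∈ S.c₂.V ∧ S.c₁.rd u0 = S.c₁.rd u ∧
      S.c₂.rd u0 = S.c₂.rd u ∧ Fermat.Agent.S15.Desc.H67.PoleFree S s u0 := by
  obtain ⟨u0, hfix, h1, h2, h3, h4, h5⟩ := exists_k0Part hA hS u hu₁ hu₂
  refine ⟨u0, hF0 u0 hfix, h1, h2, h3, h4, fun P hP => ?_⟩
  by_contra hneg
  obtain ⟨P', hP'1, -, hP'⟩ := h5 P (not_le.mp hneg)
  have := hpf P' (by rw [hP'1]; exact hP)
  exact absurd hP' (not_lt.mpr this)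

end Mod

end Fermat.Agent.BADP.H11

end
end
-- ==== END Fermat.Agent.BADP.H11_Arith0Mod

-- ==== BEGIN Fermat.Agent.BADP.H33_ModP
section
attribute [local instance 10000] SubalgebraClass.toAlgebra
attribute [local instance 10000] HahnSeries.powerSeriesAlgebra

set_option autoImplicit false
set_option linter.style.haveILetI false
set_option synthInstance.maxHeartbeats 400000
set_option maxHeartbeats 1000000

noncomputable section

open HahnSeries IntermediateField AlgebraicCurve ModularCurve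
open Fermat.Agent.S28.H73 Fermat.Agent.RED.H73 Fermat.Agent.RED Fermat.Agent.S24
open Fermat.Agent.BAD.H88

namespace Fermat.Agent.BADP.H33

open Fermat.Agent.BAD Fermat.Agent.BAD.H91 Fermat.Agent.S43.BadQ

/-- The law of total conservation for the modular datum (helper23's `tot_mod`). -/
theorem totMod : Fermat.Agent.BAD.H91.Stmt_TotMod :=
  fun A q M a b hab hq _ _ hA hqM ht =>
    Fermat.Agent.BAD.H23.tot_mod A q M a b hab hq hA hqM ht
      (Fermat.Agent.BAD.H82.redField_eq_fullC q M a b hab hq A hA)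

/-- `p ∤ M` from a Bezout relation. -/
theorem not_dvd_of_bezout {p M : ℕ} {a b : ℤ} (hab : a * p + b * M = 1) (hp : p.Prime) :
    ¬ p ∣ M := by
  intro h
  have h1 : (p : ℤ) ∣ a * p + b * M :=
    dvd_add (Dvd.intro_left a rfl) (Dvd.dvd.mul_left (Int.natCast_dvd_natCast.2 h) b)
  rw [hab] at h1
  have h2 : (p : ℤ) ≤ 1 := Int.le_of_dvd one_pos h1
  have := hp.two_le
  omega

theorem neZero_left (M p : ℕ) [NeZero (M * p)] : NeZero M :=
  ⟨fun h0 => NeZero.ne (M * p) (by rw [h0, zero_mul])⟩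

section Datum

variable (A : ValuationSubring (AlgebraicClosure ℚ)) (p M : ℕ) (a b : ℤ)
  (hab : a * p + b * M = 1) (hp : p.Prime) [NeZero (M * p)] (h5 : 5 ≤ p)
  (hA : A.LiesOverPrime p)

/-- The bijection `β` between the places of the two components (helper73's `betaF1`). -/
def modBeta : Place (kV A) (F1 A p M) ≃ Place (kV A) (F1 A p M) :=
  H73.betaF1 A p M hp hA M (H82.redField_eq_fullC p M a b hab hp A hA)

include h5 in
/-- The modular total conservation datum at `p ≥ 5`, `p ∤ M`. -/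
def modTot : H79.TotData Kbar (FN (M * p)) (kV A) (F1 A p M) (F1 A p M) :=
  haveI : NeZero M := neZero_left M p
  haveI : NeZero p := ⟨hp.ne_zero⟩
  modT a b hab hp hA (not_dvd_of_bezout hab hp) (Or.inl h5) (modBeta A p M a b hab hp hA)
    (totMod A p M a b hab hp hA (not_dvd_of_bezout hab hp) (Or.inl h5))

/-- `F_N ℚ̄` is a function field: the basic hypotheses. -/
theorem ffHyp : RED.H17.FFHyp Kbar ↥(FNbar (M * p)) :=
  RED.H17.ffHyp_of_isFF _ _ (H95.stmt_HKA_isFF (M * p))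

include hab hp hA h5 in
/-- The reduced field is a function field. -/
theorem isFF_red : IsFF (kV A) (F1 A p M) :=
  haveI : NeZero M := neZero_left M p
  isFF_F1 a b hab hp hA (not_dvd_of_bezout hab hp) (Or.inl h5)

include hab hp hA h5 in
/-- The reduced field is a function field: the basic hypotheses. -/
theorem ffHyp₁ : RED.H17.FFHyp (kV A) (F1 A p M) :=
  haveI : IsAlgClosed (kV A) := isAlgClosed_kV A
  RED.H17.ffHyp_of_isFF _ _ (isFF_red A p M a b hab hp h5 hA)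

/-- The genera, the nodes coming from NUM and the numerical inequality. -/
theorem exists_nodes_genus :
    ∃ (Z : Finset (Place (kV A) (F1 A p M))) (g g₁ : ℕ) (c c₁ : ℤ), Z.Nonempty ∧
      (∀ z ∈ Z, (modTot A p M a b hab hp h5 hA).IsNode z) ∧
      RED.H17.IsGenus Kbar ↥(FNbar (M * p)) g c ∧
      RED.H17.IsGenus (kV A) (F1 A p M) g₁ c₁ ∧ g + 1 ≤ g₁ + g₁ + Z.card := by
  have hqM : ¬ p ∣ M := not_dvd_of_bezout hab hp
  haveI : NeZero M := neZero_left M p
  haveI : NeZero p := ⟨hp.ne_zero⟩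
  have ht : TameAt M p := Or.inl h5
  haveI : IsAlgClosed (kV A) := isAlgClosed_kV A
  have hFFL : IsFF Kbar ↥(FNbar (M * p)) := H95.stmt_HKA_isFF (M * p)
  have hFF1 : IsFF (kV A) (F1 A p M) := isFF_F1 a b hab hp hA hqM ht
  obtain ⟨g, c, hg⟩ := RED.H17.exists_isGenus _ _ hFFL
  obtain ⟨g₁, c₁, hg₁⟩ := RED.H17.exists_isGenus _ _ hFF1
  have hg₁' : RED.H17.IsGenus (kV A) ↥(Fermat.Agent.BAD.H91.redM A M) g₁ c₁ :=
    isGenus_congr (H82.redField_eq_redField p M a b hab hp A hA) hg₁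
  obtain ⟨Z, hZne, hZc, hZo, hnum⟩ :=
    Fermat.Agent.BAD.H30.num_final_tame M p hp ht hqM A hA (Dvd.intro_left M rfl)
  refine ⟨Z.map (kappa A p M a b hab hp hA).symm.toEmbedding, g, g₁, c, c₁, hZne.map, ?_,
    hg, hg₁, ?_⟩
  · intro z hz
    obtain ⟨z₀, hz₀, rfl⟩ := Finset.mem_map.mp hz
    exact isNode_modT a b hab hp hA hqM ht _ _ _ z₀ (hZc z₀ hz₀) (hZo z₀ hz₀)
  · rw [Finset.card_map]
    exact Fermat.Agent.BAD.H17.genus_ineq hp hqM ht hA hg hg₁' Z.card hnum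

/-- The modular datum has a node. -/
theorem exists_node : ∃ z, (modTot A p M a b hab hp h5 hA).IsNode z := by
  obtain ⟨Z, -, -, -, -, ⟨z, hz⟩, hZ, -⟩ := exists_nodes_genus A p M a b hab hp h5 hA
  exact ⟨z, hZ z hz⟩

/-- **The modular semistable Deuring datum at `p ≥ 5`, `p ∤ M`.** -/
def modS : SSD (AlgebraicClosure ℚ) ↥(FNbar (M * p)) (kV A) (RedF A (M * p)) (RedF A (M * p)) :=
  haveI : IsAlgClosed (kV A) := isAlgClosed_kV A
  (modTot A p M a b hab hp h5 hA).toSSD (ffHyp p M).principal (ffHyp p M).deg_one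
    (ffHyp₁ A p M a b hab hp h5 hA).principal (ffHyp₁ A p M a b hab hp h5 hA).deg_one
    (ffHyp₁ A p M a b hab hp h5 hA).deg_one (exists_node A p M a b hab hp h5 hA)

/-! ### The fields of `modS` -/

theorem modS_c₁_V : (modS A p M a b hab hp h5 hA).c₁.V = gaussV A (M * p) := rfl

theorem modS_c₂_V : (modS A p M a b hab hp h5 hA).c₂.V = V2 A p M a b hab hp := rfl

theorem modS_c₁_red : (modS A p M a b hab hp h5 hA).c₁.red = red1 A p M := rfl

theorem modS_c₂_red : (modS A p M a b hab hp h5 hA).c₂.red = red2 A p M a b hab hp := rfl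

theorem modS_c₁_r : (modS A p M a b hab hp h5 hA).c₁.r = (modTot A p M a b hab hp h5 hA).r₁ :=
  rfl

theorem modS_c₂_r : (modS A p M a b hab hp h5 hA).c₂.r = (modTot A p M a b hab hp h5 hA).r₂ :=
  rfl

theorem modS_nodes : (modS A p M a b hab hp h5 hA).nodes =
    haveI : IsAlgClosed (kV A) := isAlgClosed_kV A
    (modTot A p M a b hab hp h5 hA).nodes (ffHyp p M).principal
      (ffHyp₁ A p M a b hab hp h5 hA).principal := rfl

theorem modTot_ρ : (modTot A p M a b hab hp h5 hA).ρ =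
    haveI : NeZero M := neZero_left M p
    rhoF1 a b hab hp hA (not_dvd_of_bezout hab hp) (Or.inl h5) := rfl

theorem modTot_β : (modTot A p M a b hab hp h5 hA).β = modBeta A p M a b hab hp hA := rfl

/-- **The modular datum is a modular datum.** -/
theorem isModDatum_modS : IsModDatum A p M a b hab hp (modS A p M a b hab hp h5 hA) := by
  have hqM : ¬ p ∣ M := not_dvd_of_bezout hab hp
  haveI : NeZero M := neZero_left M p
  haveI : NeZero p := ⟨hp.ne_zero⟩
  have ht : TameAt M p := Or.inl h5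
  haveI : IsAlgClosed (kV A) := isAlgClosed_kV A
  obtain ⟨Z, g, g₁, c, c₁, -, hZ, hg, hg₁, hnum⟩ := exists_nodes_genus A p M a b hab hp h5 hA
  have hcard := (modTot A p M a b hab hp h5 hA).card_le_toSSD_nodes (ffHyp p M).principal
    (ffHyp p M).deg_one (ffHyp₁ A p M a b hab hp h5 hA).principal
    (ffHyp₁ A p M a b hab hp h5 hA).deg_one (ffHyp₁ A p M a b hab hp h5 hA).deg_one
    (exists_node A p M a b hab hp h5 hA) Z hZ
  refine
    { mem₁ := fun f => Iff.rfl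
      red₁ := fun f hf => rfl
      mem₂ := fun f => Iff.rfl
      red₂ := fun f hf hf' => rfl
      ff := ffHyp p M
      ff₁ := ffHyp₁ A p M a b hab hp h5 hA
      genus := ⟨g, g₁, c, c₁, hg, hg₁, ?_⟩
      inertial := ?_ }
  · have h : Z.card ≤ (modS A p M a b hab hp h5 hA).nodes.card := hcard
    omega
  · intro s hs
    exact (inert_totDataOf A p M a b hab hp hA (modBeta A p M a b hab hp hA)
      (rhoF1 a b hab hp hA hqM ht) (totMod A p M a b hab hp hA hqM ht)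
      (hunif_mod a b hab hp hA hqM ht) hs
      (fun P => rhoF1_inertia a b hab hp hA hqM ht hs P)).isInertial
        (ffHyp p M).principal (ffHyp p M).deg_one (ffHyp₁ A p M a b hab hp h5 hA).principal
        (ffHyp₁ A p M a b hab hp h5 hA).deg_one (ffHyp₁ A p M a b hab hp h5 hA).deg_one
        (exists_node A p M a b hab hp h5 hA)

end Datum

/-- **(MOD-P)**: the modular semistable Deuring datum at `p ≥ 5`, `p ∤ M`, exists. -/
theorem stmt_ModP : Stmt_ModP := fun p h5 M a b hab hp _ A hA =>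
  ⟨modS A p M a b hab hp h5 hA, isModDatum_modS A p M a b hab hp h5 hA⟩

end Fermat.Agent.BADP.H33

end
end
-- ==== END Fermat.Agent.BADP.H33_ModP

-- ==== BEGIN Fermat.Agent.BADP.H74_HDropCore
section
attribute [local instance 10000] SubalgebraClass.toAlgebra
attribute [local instance 10000] HahnSeries.powerSeriesAlgebra

set_option autoImplicit false
set_option linter.style.haveILetI false
set_option linter.unusedSectionVars false
set_option synthInstance.maxHeartbeats 400000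
set_option maxHeartbeats 1000000

noncomputable section

open AlgebraicCurve ModularCurve Fermat.Agent.S28.H73 Fermat.Agent.RED.H73 Fermat.Agent.RED
open Fermat.Agent.BAD Fermat.Agent.S43.Old.H35

namespace Fermat.Agent.BADP.H74

section Ram

variable {K F F' : Type*} [Field K] [Field F] [Field F'] [Algebra K F] [Algebra K F']

theorem ramIdxAlong_pos (φ : F →ₐ[K] F') (hφ : φ.toRingHom.IsIntegral) (w : Place K F') :
    0 < Place.ramificationIndexAlong φ w := by
  letI := algebraAlong φ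
  haveI := isScalarTower_along φ
  haveI := isIntegral_along φ hφ
  exact w.ramificationIndex_pos (F := F)

theorem ord_along_nonneg_iff (φ : F →ₐ[K] F') (hφ : φ.toRingHom.IsIntegral) (w : Place K F')
    (x : F) : 0 ≤ w.ord (φ x) ↔ 0 ≤ (w.restrictAlong φ hφ).ord x := by
  rw [Place.ord_restrictAlong φ hφ w x]
  have h := ramIdxAlong_pos φ hφ w
  have h' : (0 : ℤ) < (Place.ramificationIndexAlong φ w : ℤ) := by exact_mod_cast h
  constructor
  · intro h1
    by_contra h2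
    rw [not_le] at h2
    have := mul_neg_of_pos_of_neg h' h2
    omega
  · intro h1
    exact mul_nonneg h'.le h1

end Ram

section Tower

variable (A : ValuationSubring (AlgebraicClosure ℚ)) (M ℓ : ℕ) [NeZero M] [NeZero ℓ]

/-- **Cusps go to cusps**: if `j~` is regular at a place of the upper field, so is `j~(q^ℓ)`. -/
theorem ord_betaT_nonneg {p : ℕ} (hp : p.Prime) (hpℓ : ¬ p ∣ ℓ) (hA : A.LiesOverPrime p)
    (x : ↥(Ft A M)) (hx : (x : LaurentSeries (kV A)) = jqModC (kV A))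
    (Q : Place (kV A) ↥(Ft A (M * ℓ))) (h : 0 ≤ Q.ord (alphaT A M ℓ x)) :
    0 ≤ Q.ord (betaT A M ℓ x) := by
  have hmem : alphaT A M ℓ x ∈ Q.toValuationSubring :=
    Fermat.Agent.S24.H85.mem_of_ord_nonneg Q h
  have hint : IsIntegral ↥(Algebra.adjoin (kV A)
      ({(Ft A (M * ℓ)).val (alphaT A M ℓ x)} : Set (LaurentSeries (kV A))))
      ((Ft A (M * ℓ)).val (betaT A M ℓ x)) := by
    have e1 : (Ft A (M * ℓ)).val (alphaT A M ℓ x) = jqModC (kV A) := by
      show ((alphaT A M ℓ x : ↥(Ft A (M * ℓ))) : LaurentSeries (kV A)) = _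
      rw [coe_alphaT, hx]
    have e2 : (Ft A (M * ℓ)).val (betaT A M ℓ x) = qExpand (kV A) ℓ (jqModC (kV A)) := by
      show ((betaT A M ℓ x : ↥(Ft A (M * ℓ))) : LaurentSeries (kV A)) = _
      rw [coe_betaT, hx]
    rw [e1, e2]
    exact isIntegral_jTwo A ℓ hp hpℓ hA
  exact Fermat.Agent.S24.H85.ord_nonneg_of_mem Q
    (mem_place_of_isIntegral_map (Ft A (M * ℓ)).val (Ft A (M * ℓ)).val.injective Q hmem hint)

/-- **The unit off the cusps**: `β~ U` and `α~ U` have the same order at the places where `j~`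
is regular, for `U = (Δ~ ^ n)⁻¹`. -/
theorem ord_betaT_unit {p : ℕ} (hp : p.Prime) (hpℓ : ¬ p ∣ ℓ) (hA : A.LiesOverPrime p)
    (x : ↥(Ft A M)) (hx : (x : LaurentSeries (kV A)) = jqModC (kV A))
    (U : ↥(Ft A M)) (n : ℕ)
    (hU : (U : LaurentSeries (kV A)) = (Fermat.Agent.BAD.H30.deltaR (kV A) ^ n)⁻¹)
    (Q : Place (kV A) ↥(Ft A (M * ℓ))) (h : 0 ≤ Q.ord (alphaT A M ℓ x)) :
    Q.ord (betaT A M ℓ U) = Q.ord (alphaT A M ℓ U) := by
  have hd0 := Fermat.Agent.BAD.H30.deltaR_ne_zero (kV A)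
  have hqd0 := Fermat.Agent.BAD.H30.qExpand_deltaR_ne_zero (kV A) ℓ
  have hU0 : U ≠ 0 := by
    intro h0
    rw [h0] at hU
    exact inv_ne_zero (pow_ne_zero n hd0) hU.symm
  have ha0 : alphaT A M ℓ U ≠ 0 := fun h0 =>
    hU0 ((alphaT A M ℓ).toRingHom.injective (by simpa using h0))
  have hb0 : betaT A M ℓ U ≠ 0 := fun h0 =>
    hU0 ((betaT A M ℓ).toRingHom.injective (by simpa using h0))
  have e1 : (Ft A (M * ℓ)).val (alphaT A M ℓ x) = jqModC (kV A) := by
    show ((alphaT A M ℓ x : ↥(Ft A (M * ℓ))) : LaurentSeries (kV A)) = _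
    rw [coe_alphaT, hx]
  have eW : (Ft A (M * ℓ)).val (alphaT A M ℓ U * (betaT A M ℓ U)⁻¹)
      = ((Fermat.Agent.BAD.H30.deltaR (kV A) *
          (qExpand (kV A) ℓ (Fermat.Agent.BAD.H30.deltaR (kV A)))⁻¹)⁻¹) ^ n := by
    rw [map_mul, map_inv₀]
    show ((alphaT A M ℓ U : ↥(Ft A (M * ℓ))) : LaurentSeries (kV A)) *
      (((betaT A M ℓ U : ↥(Ft A (M * ℓ))) : LaurentSeries (kV A)))⁻¹ = _
    rw [coe_alphaT, coe_betaT, hU, map_inv₀, map_pow, inv_inv, mul_inv, inv_inv, mul_pow,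
      inv_pow]
  have h1 : IsIntegral ↥(Algebra.adjoin (kV A)
      ({(Ft A (M * ℓ)).val (alphaT A M ℓ x)} : Set (LaurentSeries (kV A))))
      ((Ft A (M * ℓ)).val (alphaT A M ℓ U * (betaT A M ℓ U)⁻¹)) := by
    rw [e1, eW]
    exact (isIntegral_unitG_inv A ℓ hp hpℓ hA).pow n
  have h2 : IsIntegral ↥(Algebra.adjoin (kV A)
      ({(Ft A (M * ℓ)).val (alphaT A M ℓ x)} : Set (LaurentSeries (kV A))))
      ((Ft A (M * ℓ)).val (alphaT A M ℓ U * (betaT A M ℓ U)⁻¹))⁻¹ := by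
    rw [e1, eW, ← inv_pow, inv_inv]
    exact (isIntegral_unitG A ℓ hp hpℓ hA).pow n
  have h3 := ord_eq_zero_of_isIntegral_map (Ft A (M * ℓ)).val (Ft A (M * ℓ)).val.injective Q h
    h1 h2
  rw [Place.ord_mul Q ha0 (inv_ne_zero hb0), Place.ord_inv] at h3
  omega

end Tower

section Core

variable (A : ValuationSubring (AlgebraicClosure ℚ)) (M p ℓ : ℕ) [NeZero M] [NeZero (M * p)]
  [NeZero ℓ] [NeZero p]

/-- The reduction of `j` with values in `E`. -/
def jTo (E : IntermediateField (kV A) (LaurentSeries (kV A))) (hle : Ft A (M * p) ≤ E) : ↥E :=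
  resTo A (M * p) E hle ⟨Fermat.Agent.RED.H73.jF (L := AlgebraicClosure ℚ) (M * p),
    jF_mem A (M * p)⟩

/-- The reduction of the modular unit with values in `E`. -/
def unitTo (hd : p ∣ M * p) (E : IntermediateField (kV A) (LaurentSeries (kV A)))
    (hle : Ft A (M * p) ≤ E) : ↥E :=
  resTo A (M * p) E hle ⟨Fermat.Agent.BAD.H30.unitF (M * p) p hd,
    Fermat.Agent.BAD.H30.unitF_mem_gaussV A (M * p) p hd⟩

theorem coe_jTo (E : IntermediateField (kV A) (LaurentSeries (kV A)))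
    (hle : Ft A (M * p) ≤ E) :
    ((jTo A M p E hle : ↥E) : LaurentSeries (kV A)) = jqModC (kV A) :=
  red_jF A (M * p)

theorem coe_unitTo (hp : p.Prime) (hA : A.LiesOverPrime p) (hd : p ∣ M * p)
    (E : IntermediateField (kV A) (LaurentSeries (kV A))) (hle : Ft A (M * p) ≤ E) :
    ((unitTo A M p hd E hle : ↥E) : LaurentSeries (kV A))
      = (Fermat.Agent.BAD.H30.deltaR (kV A) ^ (p - 1))⁻¹ := by
  haveI : Fact p.Prime := ⟨hp⟩
  exact Fermat.Agent.BAD.H30.gaussRes_unitF_char A (M * p) p hA hd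

/-- **H-DROP with values in `Ft A M`.** -/
theorem hdrop_core (hp : p.Prime) (hpM : ¬ p ∣ M) (hℓ : ℓ.Prime) (hℓN : ¬ ℓ ∣ M * p)
    (hA : A.LiesOverPrime p) (hle : Ft A (M * p) ≤ Ft A M)
    (t : ℤ) (ht : ¬ (p : ℤ) ∣ t - ((ℓ : ℤ) + 1))
    (D : Divisor.degZero (K := AlgebraicClosure ℚ) (F := ↥(FNbar (M * p))))
    (f : ↥(gaussV A (M * p)))
    (hf : resTo A (M * p) (Ft A M) hle f ≠ 0)
    (hD : ∀ P : Place (AlgebraicClosure ℚ) ↥(FNbar (M * p)),
      (p : ℤ) * (D : Divisor (AlgebraicClosure ℚ) ↥(FNbar (M * p))) P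
        = P.ord ((f : ↥(FNbar (M * p)))))
    (hT : heckeOperatorBar (M * p) ⟨ℓ, hℓ⟩ (Pic0.mk D) = t • Pic0.mk D)
    (hd : p ∣ M * p) (c : ℤ)
    (hE : ∀ Q : Place (kV A) ↥(Ft A M),
      (0 ≤ Q.ord (jTo A M p (Ft A M) hle) →
        (p : ℤ) ∣ Q.ord (resTo A (M * p) (Ft A M) hle f)
          - c * Q.ord (unitTo A M p hd (Ft A M) hle)) ∧
      (Q.ord (jTo A M p (Ft A M) hle) < 0 →
        (p : ℤ) ∣ Q.ord (resTo A (M * p) (Ft A M) hle f))) :
    ∀ Q : Place (kV A) ↥(Ft A M), (p : ℤ) ∣ Q.ord (resTo A (M * p) (Ft A M) hle f) := by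
  have hℓp : ℓ ≠ p := fun h => hℓN (h ▸ dvd_mul_left ℓ M)
  have hℓM : ¬ ℓ ∣ M := fun h => hℓN (h.mul_right p)
  have hpℓ : ¬ p ∣ ℓ := fun h => hℓp ((Nat.prime_dvd_prime_iff_eq hp hℓ).1 h).symm
  have hpMℓ : ¬ p ∣ M * ℓ := by
    intro h
    rcases (Nat.Prime.dvd_mul hp).1 h with h1 | h1
    · exact hpM h1
    · exact hpℓ h1
  obtain ⟨hα, hβ, hP, hfin, hFI, hNF⟩ := RED.H51.stmt_HKA (M * p) ℓ
  haveI := hP
  have hTI := towerInputs (A := A) (M := M) (ℓ := ℓ) hp hA hpMℓ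
  haveI := hTI.hP
  have hdeg := finrank_alphaT A M ℓ p hℓ hℓM hp hpMℓ hA
  have heig := heig_of_eigen (M * p) ℓ hℓ hα hβ hfin hFI hNF D t hT
  have hjc := coe_jTo A M p (Ft A M) hle
  have hUc := coe_unitTo A M p hp hA hd (Ft A M) hle
  have hU0 : unitTo A M p hd (Ft A M) hle ≠ 0 := by
    intro h0
    rw [h0] at hUc
    exact inv_ne_zero (pow_ne_zero _ (Fermat.Agent.BAD.H30.deltaR_ne_zero (kV A))) hUc.symm
  have htd : ¬ (p : ℤ) ∣ t - (finrankAlong (kV A) (alphaT A M ℓ) : ℤ) := by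
    rw [hdeg]
    push_cast
    exact ht
  refine hdrop_abs
    (fun g hg h => by
      obtain ⟨c', hc'⟩ := Fermat.Agent.GTor.H33.exists_algebraMap_eq_FN (M * p) g hg h
      exact ⟨c', hc'.symm⟩)
    (heckeAlphaBar (AlgebraicClosure ℚ) (M * p) ℓ) (heckeBetaBar (AlgebraicClosure ℚ) (M * p) ℓ)
    hα hβ hfin hNF (alphaT A M ℓ) (betaT A M ℓ) hTI.hα hTI.hβ hTI.hfin hTI.hNF
    (gaussV A (M * p)) (resTo A (M * p) (Ft A M) hle)
    (fun u => resTo_eq_zero_iff A (M * p) (Ft A M) hle u)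
    (fun g hg => resTo_scale A (M * p) (Ft A M) hle g hg)
    (fun c' h => resTo_const A (M * p) (Ft A M) hle c' h)
    (fun g => hnorm_levelN A p M ℓ hp hpM hℓ hℓN hA hle g)
    p hp t htd (D : Divisor (AlgebraicClosure ℚ) ↥(FNbar (M * p))) f hf hD heig
    (unitTo A M p hd (Ft A M) hle) hU0 c
    {Q | Q.ord (jTo A M p (Ft A M) hle) < 0} ?_ ?_ ?_ ?_
  · intro Q hQ
    exact (hE Q).1 (not_lt.mp hQ)
  · intro Q hQ
    exact (hE Q).2 hQ
  · intro Q hQ
    have h1 : 0 ≤ (Q.restrictAlong (alphaT A M ℓ) hTI.hα).ord (jTo A M p (Ft A M) hle) :=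
      not_lt.mp hQ
    have h2 := (ord_along_nonneg_iff (alphaT A M ℓ) hTI.hα Q _).2 h1
    have h3 := ord_betaT_nonneg A M ℓ hp hpℓ hA _ hjc Q h2
    have h4 := (ord_along_nonneg_iff (betaT A M ℓ) hTI.hβ Q _).1 h3
    exact not_lt.mpr h4
  · intro Q hQ
    have h1 : 0 ≤ (Q.restrictAlong (alphaT A M ℓ) hTI.hα).ord (jTo A M p (Ft A M) hle) :=
      not_lt.mp hQ
    have h2 := (ord_along_nonneg_iff (alphaT A M ℓ) hTI.hα Q _).2 h1
    exact ord_betaT_unit A M ℓ hp hpℓ hA _ hjc _ (p - 1) hUc Q h2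

/-- **H-DROP with values in an intermediate field `E = Ft A M`.** -/
theorem hdrop_E (hp : p.Prime) (hpM : ¬ p ∣ M) (hℓ : ℓ.Prime) (hℓN : ¬ ℓ ∣ M * p)
    (hA : A.LiesOverPrime p)
    (E : IntermediateField (kV A) (LaurentSeries (kV A))) (hME : Ft A M = E)
    (hle : Ft A (M * p) ≤ E)
    (t : ℤ) (ht : ¬ (p : ℤ) ∣ t - ((ℓ : ℤ) + 1))
    (D : Divisor.degZero (K := AlgebraicClosure ℚ) (F := ↥(FNbar (M * p))))
    (f : ↥(gaussV A (M * p)))
    (hf : resTo A (M * p) E hle f ≠ 0)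
    (hD : ∀ P : Place (AlgebraicClosure ℚ) ↥(FNbar (M * p)),
      (p : ℤ) * (D : Divisor (AlgebraicClosure ℚ) ↥(FNbar (M * p))) P
        = P.ord ((f : ↥(FNbar (M * p)))))
    (hT : heckeOperatorBar (M * p) ⟨ℓ, hℓ⟩ (Pic0.mk D) = t • Pic0.mk D)
    (hd : p ∣ M * p) (c : ℤ)
    (hE : ∀ Q : Place (kV A) ↥E,
      (0 ≤ Q.ord (jTo A M p E hle) →
        (p : ℤ) ∣ Q.ord (resTo A (M * p) E hle f) - c * Q.ord (unitTo A M p hd E hle)) ∧
      (Q.ord (jTo A M p E hle) < 0 → (p : ℤ) ∣ Q.ord (resTo A (M * p) E hle f))) :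
    ∀ Q : Place (kV A) ↥E, (p : ℤ) ∣ Q.ord (resTo A (M * p) E hle f) := by
  subst hME
  exact hdrop_core A M p ℓ hp hpM hℓ hℓN hA hle t ht D f hf hD hT hd c hE

end Core

end Fermat.Agent.BADP.H74

end
end
-- ==== END Fermat.Agent.BADP.H74_HDropCore

-- ==== BEGIN Fermat.Agent.BADP.ModStmts
section
attribute [local instance 10000] SubalgebraClass.toAlgebra
attribute [local instance 10000] HahnSeries.powerSeriesAlgebra

set_option autoImplicit false
set_option synthInstance.maxHeartbeats 400000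
set_option maxHeartbeats 1000000

noncomputable section

open AlgebraicCurve ModularCurve

namespace Fermat.Agent.BADP

open Fermat.Agent.BAD Fermat.Agent.S44 Fermat.Agent.S43.BadQ Fermat.Agent.S28.H73
  Fermat.Agent.RED.H73

/-- The inertia group at `A`, acting on the function field of level `N`. -/
def inertiaAuts (A : ValuationSubring (AlgebraicClosure ℚ)) (N : ℕ) :
    Set (SemilinearAut (AlgebraicClosure ℚ) ↥(FNbar N)) :=
  {τ | ∃ σ ∈ A.inertiaSubgroupIn ℚ, τ = galF N σ}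

/-- The stabiliser of `T ⊆ ℚ̄` in the inertia group at `A`, acting on the function field of level
`N`. -/
def stabAuts (A : ValuationSubring (AlgebraicClosure ℚ)) (N : ℕ)
    (T : Set (AlgebraicClosure ℚ)) : Set (SemilinearAut (AlgebraicClosure ℚ) ↥(FNbar N)) :=
  {τ | ∃ σ ∈ A.inertiaSubgroupIn ℚ, (∀ t ∈ T, σ t = t) ∧ τ = galF N σ}

/-- **(ARITH-0), consumer form**: every modular datum has `𝓘`-fixed parts. -/
def Stmt_K0LiftP : Prop :=
  ∀ (p : ℕ), 5 ≤ p → ∀ (M : ℕ) (a b : ℤ) (hab : a * p + b * M = 1) (hp : p.Prime)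
    [NeZero (M * p)],
    ∀ A : ValuationSubring (AlgebraicClosure ℚ), A.LiesOverPrime p →
    ∀ S : SSD (AlgebraicClosure ℚ) ↥(FNbar (M * p)) (kV A) (RedF A (M * p)) (RedF A (M * p)),
      IsModDatum A p M a b hab hp S → IsK0Lift S (inertiaAuts A (M * p))

/-- **(KUM-CMP)**: two Kummer pairs of the same class. -/
def Stmt_KumCmp : Prop :=
  ∀ (N : ℕ) [NeZero N] (n : ℕ)
    (D D' : Divisor.degZero (K := AlgebraicClosure ℚ) (F := ↥(FNbar N)))
    (f f' : ↥(FNbar N)), f ≠ 0 → f' ≠ 0 →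
    (∀ P : Place (AlgebraicClosure ℚ) ↥(FNbar N),
      (n : ℤ) * (D : Divisor (AlgebraicClosure ℚ) ↥(FNbar N)) P = P.ord f) →
    (∀ P : Place (AlgebraicClosure ℚ) ↥(FNbar N),
      (n : ℤ) * (D' : Divisor (AlgebraicClosure ℚ) ↥(FNbar N)) P = P.ord f') →
    (Pic0.mk D : JZero N) = Pic0.mk D' →
    ∃ (e : AlgebraicClosure ℚ) (T : ↥(FNbar N)),
      f = algebraMap (AlgebraicClosure ℚ) ↥(FNbar N) e * f' * T ^ n

/-- **(KUM-FIX)**: a Kummer function of a class fixed by `σ`. -/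
def Stmt_KumFix : Prop :=
  ∀ (N : ℕ) [NeZero N] (n : ℕ) (x : JZero N)
    (D : Divisor.degZero (K := AlgebraicClosure ℚ) (F := ↥(FNbar N)))
    (f : ↥(FNbar N)), f ≠ 0 → x = Pic0.mk D →
    (∀ P : Place (AlgebraicClosure ℚ) ↥(FNbar N),
      (n : ℤ) * (D : Divisor (AlgebraicClosure ℚ) ↥(FNbar N)) P = P.ord f) →
    ∀ σ : GalQ, σ • x = x →
      ∃ (e : AlgebraicClosure ℚ) (T : ↥(FNbar N)),
        galF N σ • f = algebraMap (AlgebraicClosure ℚ) ↥(FNbar N) e * f * T ^ n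

/-- **(KUM-W)**: the Kummer functions of a class of `K1 ∩ w K1`. -/
def Stmt_KumW : Prop :=
  ∀ (p M : ℕ) (a b : ℤ) (hab : a * p + b * M = 1) (hp : p.Prime) [NeZero (M * p)] (n : ℕ),
    ∀ (A : ValuationSubring (AlgebraicClosure ℚ)) (x : JZero (M * p)),
      InK1 A (M * p) n x → InK1 A (M * p) n (wS p M a b hab hp • x) →
      ∃ (D : Divisor.degZero (K := AlgebraicClosure ℚ) (F := ↥(FNbar (M * p))))
        (f f' h₀ : ↥(FNbar (M * p))) (c : AlgebraicClosure ℚ)
        (hf : f ∈ gaussV A (M * p)) (hf' : wS p M a b hab hp • f' ∈ gaussV A (M * p)),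
        x = Pic0.mk D ∧
        (∀ P : Place (AlgebraicClosure ℚ) ↥(FNbar (M * p)),
          (n : ℤ) * (D : Divisor (AlgebraicClosure ℚ) ↥(FNbar (M * p))) P = P.ord f) ∧
        gaussRes A (M * p) ⟨f, hf⟩ = 1 ∧
        gaussRes A (M * p) ⟨wS p M a b hab hp • f', hf'⟩ = 1 ∧
        f = algebraMap (AlgebraicClosure ℚ) ↥(FNbar (M * p)) c * f' * h₀ ^ n

/-- **(RAY-MOD)**: the corrected (RAY-K3) from the modular datum and (K0).
Proof: `H51.stmt_RayAbs` (wild case) and `H51.stmt_RayAbsTame` (tame case) applied to the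
modular datum, `𝓘 = inertiaAuts A N`, `𝓘3 = stabAuts A N {ω}`; the dichotomy
`H97.karith_dichotomy`; in the wild case `KData` for the root `ω / t`, the constants by
`H97.keyP_pi_isCM`, `keyP_varpi_isCM`, `keyP_pi`, `keyP_varpi`, `keyP_A3`, (A2) by
`H97.stmt_A2_k3` with `H97.kdata_fn`, `H15.stmt_A1`, `H15.stmt_A1_two`,
`H15.mem_adjoin_singleton_of_fixed`; in the tame case a good root lies in `K₀`, the class is fixed
by `I`, and `a ^ p = p a ε` with `ε = a ^ (p - 1) / p` (`H97.val_le_p_of_lt_one`).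
Kummer functions by (KUM-W), (KUM-FIX). -/
def Stmt_RayMod : Prop :=
  Stmt_ModP → Stmt_K0LiftP → Stmt_KumFix → Stmt_KumW → Stmt_RayK3x

end Fermat.Agent.BADP

end
end
-- ==== END Fermat.Agent.BADP.ModStmts

-- ==== BEGIN Fermat.Agent.S43.Old.H75_DivAll
section

/-!
# `J₀(N)(ℚ̄)` is a divisible group (helper75)

`divisible_all N n hn x : ∃ y : JZero N, n • y = x` for `n ≠ 0` and EVERY `x : JZero N`
(`S17.Stmt_divisible` is the same statement for the Galois-fixed points only; the proof does not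
use the hypothesis).
-/

set_option autoImplicit false
set_option linter.style.haveILetI false
set_option linter.unusedSectionVars false

noncomputable section

namespace Fermat.Agent.S43.Old.H75

open AlgebraicCurve IntermediateField ModularCurve Fermat.Agent.GTor Fermat.Agent.S17.W2 Fermat.Agent.S17.W2.H75

/-- **`J₀(N)(ℚ̄)` is divisible.** -/
theorem divisible_all (N n : ℕ) [NeZero N] (hn : n ≠ 0) (x : JZero N) :
    ∃ y : JZero N, n • y = x := by
  have : Algebra.IsAlgebraic ℚ (AlgebraicClosure ℚ) := AlgebraicClosure.isAlgebraic ℚ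
  letI inst : Algebra (AlgebraicClosure ℚ) ℂ :=
    (IsAlgClosed.lift : AlgebraicClosure ℚ →ₐ[ℚ] ℂ).toRingHom.toAlgebra
  obtain ⟨S, hj, hstab, htrans⟩ := stmt_GEO ℂ N
  have hcore := stmt_Core_of S n (H56.stmt_FT1 _ _) (H41.stmt_FT4 _ _) (H41.stmt_FT5 _ _)
    (H41.stmt_FT6 _ _)
    (isFF_complex N) hj big_complex hstab htrans (torsion_finite_complex N n hn)
  exact Fermat.Agent.S17.W2.H75.stmt_A N n hn hcore x

end Fermat.Agent.S43.Old.H75

end
end
-- ==== END Fermat.Agent.S43.Old.H75_DivAll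

-- ==== BEGIN Fermat.Agent.S44.C.H33_Final
section

set_option autoImplicit false

namespace Fermat.Agent.S44.C.H33

open WeierstrassCurve WeierstrassCurve.Affine WeierstrassCurve.Affine.Point
open Fermat.Agent.S05 (ModelHyp modelOf)
open Fermat.Agent.S13 (Qbar Gal Vp)

/-- `|n| ≤ |q|²` for an integer `n` divisible by `q²`. -/
lemma val_intCast_le_sq (A : ValuationSubring Qbar) (q : ℕ) {n : ℤ} (h : (q : ℤ) ^ 2 ∣ n) :
    A.valuation ((n : ℤ) : Qbar) ≤ A.valuation ((q : ℕ) : Qbar) ^ 2 := by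
  obtain ⟨k, rfl⟩ := h
  push_cast
  rw [map_mul, map_pow]
  exact mul_le_of_le_one_right' (Fermat.Agent.S05.H15.valuation_intCast_le_one A k)

/-- `q² ∣ x ^ n * y` if `q ∣ x` and `2 ≤ n`. -/
lemma sq_dvd_pow_mul {q x y : ℤ} {n : ℕ} (hn : 2 ≤ n) (h : q ∣ x) : q ^ 2 ∣ x ^ n * y :=
  Dvd.dvd.mul_right ((pow_dvd_pow_of_dvd h 2).trans (pow_dvd_pow x hn)) y

open Fermat.Agent.S05.H15 in
/-- Arithmetic of the Frey package at the prime `p`, `p ∣ abc`: the S05 model has
`|b| ≤ |p|²` and `|c₀| ^ p = |b|²`. -/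
theorem arith_pp (P : FreyPackage) (hdvd : (P.p : ℤ) ∣ P.a * P.b * P.c)
    (A : ValuationSubring Qbar) (hA : A.LiesOverPrime P.p) :
    ∃ e c : ℚ, e ^ 3 + (4 * P.freyCurve.a₂ + 1) * e ^ 2 + 16 * P.freyCurve.a₄ * e = 0 ∧
      ModelHyp A ((modelOf P.freyCurve e)⁄Qbar) ∧
      A.valuation (algebraMap ℚ Qbar e) ≤ 1 ∧
      A.valuation (algebraMap ℚ Qbar c) ^ P.p =
        A.valuation (algebraMap ℚ Qbar (modelOf P.freyCurve e).a₄) ^ 2 ∧
      A.valuation (algebraMap ℚ Qbar (modelOf P.freyCurve e).a₄) ≤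
        A.valuation ((P.p : ℕ) : Qbar) ^ 2 := by
  have hq := P.pp
  have hq2 : P.p ≠ 2 := by have := P.hp5; omega
  have hn2 : 2 ≤ P.p := by have := P.hp5; omega
  have hqK : ((P.p : ℕ) : Qbar) ∈ A.nonunits := hA
  have hpZ : Prime (P.p : ℤ) := Nat.prime_iff_prime_int.mp hq
  have h4 : 4 * P.freyCurve.a₂ + 1 = ((P.b ^ P.p - P.a ^ P.p : ℤ) : ℚ) := by
    simp only [FreyPackage.freyCurve]
    push_cast
    ring
  have h16 : 16 * P.freyCurve.a₄ = ((-(P.a ^ P.p * P.b ^ P.p) : ℤ) : ℚ) := by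
    simp only [FreyPackage.freyCurve]
    push_cast
    ring
  have hval2 : A.valuation (2 : Qbar) = 1 := by
    have := valuation_natCast_eq_one_of_ne (A := A) hq hqK Nat.prime_two (Ne.symm hq2)
    simpa using this
  have hcast : ∀ n : ℤ, algebraMap ℚ Qbar ((n : ℤ) : ℚ) = ((n : ℤ) : Qbar) := fun n => by simp
  by_cases hc : (P.p : ℤ) ∣ P.c
  · -- case `p ∣ c`: `e = a^p`, `c₀ = (a c)^2`
    have hqb : ¬ (P.p : ℤ) ∣ P.b := fun h =>
      Fermat.Agent.S05.H15.not_dvd_of_gcd_eq_one hq P.hgcdbc h hc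
    have ha4 : (modelOf P.freyCurve ((P.a ^ P.p : ℤ) : ℚ)).a₄ =
        ((P.a ^ P.p * P.c ^ P.p : ℤ) : ℚ) := by
      simp only [modelOf]; rw [h4, h16, ← P.hFLT]; push_cast; ring
    refine ⟨((P.a ^ P.p : ℤ) : ℚ), (((P.a * P.c) ^ 2 : ℤ) : ℚ), ?_, ?_, ?_, ?_, ?_⟩
    · rw [h4, h16]; push_cast; ring
    · have ha2 : (modelOf P.freyCurve ((P.a ^ P.p : ℤ) : ℚ)).a₂ =
          ((P.b ^ P.p + 2 * P.a ^ P.p : ℤ) : ℚ) := by
        simp only [modelOf]; rw [h4]; push_cast; ring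
      refine ⟨by simp [modelOf], by simp [modelOf], by simp [modelOf], ?_, ?_, ?_, hval2, ?_⟩
      · show A.valuation (algebraMap ℚ Qbar _) ≤ 1
        rw [ha2, hcast]; exact valuation_intCast_le_one A _
      · show A.valuation (algebraMap ℚ Qbar _) ≤ 1
        rw [ha4, hcast]; exact valuation_intCast_le_one A _
      · show algebraMap ℚ Qbar _ ≠ 0
        rw [ha4, hcast]
        have : (P.a ^ P.p * P.c ^ P.p : ℤ) ≠ 0 :=
          mul_ne_zero (pow_ne_zero _ P.ha0) (pow_ne_zero _ P.hc0)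
        exact_mod_cast this
      · show A.valuation ((algebraMap ℚ Qbar _) ^ 2 - 4 * (algebraMap ℚ Qbar _)) = 1
        rw [ha2, ha4, hcast, hcast]
        have : (((P.b ^ P.p + 2 * P.a ^ P.p : ℤ) : Qbar)) ^ 2
            - 4 * ((P.a ^ P.p * P.c ^ P.p : ℤ) : Qbar) = (((P.b ^ P.p) ^ 2 : ℤ) : Qbar) := by
          rw [← P.hFLT]; push_cast; ring
        rw [this]
        exact valuation_intCast_eq_one_of_not_dvd hq hqK
          (Fermat.Agent.S05.H15.not_dvd_pow hq (Fermat.Agent.S05.H15.not_dvd_pow hq hqb _) _)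
    · rw [hcast]; exact valuation_intCast_le_one A _
    · rw [ha4, hcast, hcast, ← map_pow, ← map_pow]
      congr 1
      push_cast
      ring
    · rw [ha4, hcast]
      apply val_intCast_le_sq A P.p
      rw [mul_comm]
      exact sq_dvd_pow_mul hn2 hc
  · -- case `p ∤ c`: `e = 0`, `c₀ = (a b)^2`
    have hab : (P.p : ℤ) ∣ P.a * P.b := by
      rcases hpZ.dvd_or_dvd hdvd with h | h
      · exact h
      · exact absurd h hc
    have ha4 : (modelOf P.freyCurve 0).a₄ = ((-(P.a ^ P.p * P.b ^ P.p) : ℤ) : ℚ) := by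
      simp only [modelOf]; rw [h16]; push_cast; ring
    refine ⟨0, (((P.a * P.b) ^ 2 : ℤ) : ℚ), ?_, ?_, ?_, ?_, ?_⟩
    · have hp0 : P.p ≠ 0 := P.hp0
      simp
    · have ha2 : (modelOf P.freyCurve 0).a₂ = ((P.b ^ P.p - P.a ^ P.p : ℤ) : ℚ) := by
        simp only [modelOf]; rw [h4]; push_cast; ring
      refine ⟨by simp [modelOf], by simp [modelOf], by simp [modelOf], ?_, ?_, ?_, hval2, ?_⟩
      · show A.valuation (algebraMap ℚ Qbar _) ≤ 1
        rw [ha2, hcast]; exact valuation_intCast_le_one A _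
      · show A.valuation (algebraMap ℚ Qbar _) ≤ 1
        rw [ha4, hcast]; exact valuation_intCast_le_one A _
      · show algebraMap ℚ Qbar _ ≠ 0
        rw [ha4, hcast]
        have : (-(P.a ^ P.p * P.b ^ P.p) : ℤ) ≠ 0 :=
          neg_ne_zero.2 (mul_ne_zero (pow_ne_zero _ P.ha0) (pow_ne_zero _ P.hb0))
        exact_mod_cast this
      · show A.valuation ((algebraMap ℚ Qbar _) ^ 2 - 4 * (algebraMap ℚ Qbar _)) = 1
        rw [ha2, ha4, hcast, hcast]
        have : (((P.b ^ P.p - P.a ^ P.p : ℤ) : Qbar)) ^ 2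
            - 4 * ((-(P.a ^ P.p * P.b ^ P.p) : ℤ) : Qbar) = (((P.c ^ P.p) ^ 2 : ℤ) : Qbar) := by
          rw [← P.hFLT]; push_cast; ring
        rw [this]
        exact valuation_intCast_eq_one_of_not_dvd hq hqK
          (Fermat.Agent.S05.H15.not_dvd_pow hq (Fermat.Agent.S05.H15.not_dvd_pow hq hc _) _)
    · rw [_root_.map_zero, _root_.map_zero]; exact zero_le_one
    · rw [ha4, hcast, hcast, ← map_pow, ← map_pow]
      congr 1
      push_cast
      ring
    · rw [ha4, hcast]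
      apply val_intCast_le_sq A P.p
      rw [dvd_neg]
      rcases hpZ.dvd_or_dvd hab with h | h
      · exact sq_dvd_pow_mul hn2 h
      · rw [mul_comm]; exact sq_dvd_pow_mul hn2 h

/-- **Package C from the leaves.** -/
theorem stmt_FreyFiniteAtP_of (hV1 : Stmt_V1) (hV3 : Stmt_V3) (hF1 : _root_.Fermat.Agent.S44.C.Stmt_F1) (hF2 : _root_.Fermat.Agent.S44.C.Stmt_F2)
    (hF3 : Stmt_F3) (hF4 : Stmt_F4) (hM : Stmt_M) (hL4 : Stmt_L4) :
    Fermat.Agent.S44.Stmt_FreyFiniteAtP := by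
  intro P hdvd A hA
  haveI : Fact P.p.Prime := ⟨P.pp⟩
  have hp2 : P.p ≠ 2 := by have := P.hp5; omega
  have hpA : A.valuation ((P.p : ℕ) : Qbar) < 1 :=
    Fermat.Agent.S05.H15.valuation_lt_one_of_mem_nonunits hA
  have hΔ : P.freyCurve.Δ ≠ 0 := by
    rw [← Fermat.Agent.S04.H59.freyCurveInt_map P, WeierstrassCurve.map_Δ]
    simpa using Fermat.Agent.S04.H59.freyCurveInt_Δ_ne_zero P
  have hdim : Module.finrank (ZMod P.p) (Vp P) = 2 :=
    Fermat.Agent.Lib.EllFinite.H46.finrank_torsionBy_rat P.freyCurve hΔ P.p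
  refine ⟨hdim, ?_⟩
  obtain ⟨e, c, he, hyp, heA, hc, hb2⟩ := arith_pp P hdvd A hA
  have hvc := Fermat.Agent.S05.H14.isVarChange_modelOf (L := Qbar) P.freyCurve rfl rfl rfl e he
  -- equivariance of the variable change
  have hΦσ : ∀ (σ : Gal) (Q : (P.freyCurve⁄Qbar).Point),
      hvc.addEquiv (σ • Q) = σ • hvc.addEquiv Q := by
    intro σ Q
    rcases Q with _ | ⟨X, Y, hXY⟩
    · rfl
    · rw [WeierstrassCurve.Affine.Point.algEquiv_smul_def, Affine.Point.map_some,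
        hvc.addEquiv_some, hvc.addEquiv_some,
        WeierstrassCurve.Affine.Point.algEquiv_smul_def, Affine.Point.map_some]
      apply Fermat.Agent.S05.H14.IsVarChange.some_congr
      · simp only [Fermat.Agent.S05.H14.fx, map_add, map_mul, map_pow, map_ofNat,
          AlgEquiv.coe_toAlgHom, AlgEquiv.commutes]
      · simp only [Fermat.Agent.S05.H14.fy, map_add, map_mul, map_pow, map_ofNat,
          _root_.map_zero, map_one, AlgEquiv.coe_toAlgHom]
  -- comparison of the two kernels of reduction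
  have hr : A.valuation (algebraMap ℚ Qbar (-e)) ≤ 1 := by
    rw [map_neg, Valuation.map_neg]; exact heA
  have hcmp : ∀ Q : (P.freyCurve⁄Qbar).Point,
      Fermat.Agent.S05.InE1 A (hvc.addEquiv Q) ↔ Fermat.Agent.S13.InE1 A Q := by
    intro Q
    rcases Q with _ | ⟨X, Y, hXY⟩
    · exact Iff.rfl
    · rw [hvc.addEquiv_some]
      exact Fermat.Agent.S13.H87.one_lt_val_fx_iff hyp.two hr
  obtain ⟨T, hT, hTσ⟩ := Fermat.Agent.S13.H87.p_kernel P A hA
  have hvp2 : A.valuation ((P.p : ℕ) : Qbar) ^ 2 < 1 := pow_lt_one₀ zero_le hpA two_ne_zero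
  have hb1 : A.valuation ((modelOf P.freyCurve e)⁄Qbar).a₄ < 1 := lt_of_le_of_lt hb2 hvp2
  -- `T ≠ ⊤`
  have hTne : T ≠ ⊤ := by
    intro htop
    obtain ⟨x, y, h, hpt, hx⟩ := Fermat.Agent.Tate.T6.H97.stmt_ROOT Qbar A P.p P.pp hp2 hpA
      ((modelOf P.freyCurve e)⁄Qbar) hyp hb1 hyp.Δ_ne_zero
    obtain ⟨Q, hQdef⟩ : ∃ Q, Q = hvc.addEquiv.symm (Point.some x y h) := ⟨_, rfl⟩
    have hΦQ : hvc.addEquiv Q = Point.some x y h := by
      rw [hQdef, AddEquiv.apply_symm_apply]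
    have hQ : (P.p : ℤ) • Q = 0 := by
      apply hvc.addEquiv.injective
      rw [map_zsmul, hΦQ, natCast_zsmul, hpt, _root_.map_zero]
    have hQmem : Q ∈ Submodule.torsionBy ℤ (P.freyCurve⁄Qbar).Point P.p :=
      (Submodule.mem_torsionBy_iff _ _).2 hQ
    have hmem : (⟨Q, hQmem⟩ : Vp P) ∈ T := by rw [htop]; trivial
    rw [hT] at hmem
    have h2 := (hcmp Q).2 hmem
    rw [hΦQ] at h2
    exact lt_asymm hx h2
  refine ⟨T, hTne, ?_, ?_, ?_⟩
  · -- clause (1): the cyclotomic character on `T`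
    intro σ hσ n hn x hx
    have hdet := Fermat.Agent.L.H52.frey_det_eq_natCast P σ n hn
    have h := apply_eq_det_smul hdim T hTne
      (galoisRepModuleEnd (S := ℚ) (K := AlgebraicClosure ℚ) P.freyCurve.toAffine P.p σ)
      (fun v => by rw [galoisRepModuleEnd_apply]; exact hTσ σ hσ v) hx
    rw [h, hdet]
  · -- clause (2)
    intro σ hσ x
    rw [galoisRepModuleEnd_apply]
    exact hTσ σ hσ x
  · -- clause (3): peu ramifié with `u = 1 + p`
    refine ⟨1 + (P.p : ℤ), ?_, ?_⟩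
    · intro h
      have h1 : (P.p : ℤ) ∣ 1 := (dvd_add_left (dvd_refl (P.p : ℤ))).1 h
      have h2 : P.p ∣ 1 := by exact_mod_cast h1
      exact P.pp.one_lt.ne' (Nat.dvd_one.1 h2)
    · intro σ hσ hζ hω x
      rw [galoisRepModuleEnd_apply]
      apply Subtype.ext
      show σ • (x : (P.freyCurve⁄Qbar).Point) = x
      apply hvc.addEquiv.injective
      rw [hΦσ]
      obtain ⟨hval, hres⟩ := Fermat.Agent.S05.inertia A σ hσ
      have hx : (P.p : ℤ) • (x : (P.freyCurve⁄Qbar).Point) = 0 := by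
        have := x.2
        rwa [Submodule.mem_torsionBy_iff] at this
      have hΦx : P.p • hvc.addEquiv (x : (P.freyCurve⁄Qbar).Point) = 0 := by
        rw [← natCast_zsmul, ← map_zsmul, hx, _root_.map_zero]
      exact core_peu hV1 hV3 hF1 hF2 hF3 hF4 hM hL4 (AlgebraicClosure.isAlgebraic ℚ) A (modelOf P.freyCurve e) hyp
        P.p P.pp hp2 hpA hb2 c hc σ hval hres hζ
        (fun z hz => hω z (by rw [hz]; push_cast; ring)) _ hΦx

end Fermat.Agent.S44.C.H33

end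
-- ==== END Fermat.Agent.S44.C.H33_Final
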