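-- GENERATED (merged mirror, NOTES/tools/trim/merge3_helper67.py): 7 modules of the originals, bodies verbatim.
import Fermat.Agent.Zm.S44_L14_000
import Fermat.Agent.Zm.S44_L06_000
import Fermat.Agent.Zm.S33_L09_000
import Fermat.Agent.Zm.S44_L03_000
import Fermat.Agent.Zm.S44_L01_000
import Fermat.Agent.Zm.S44_L12_000
import Fermat.Agent.Zm.S44_L01_004
import Fermat.Agent.S43.Old.H75_StarAbs
import Fermat.Agent.Zm.S44_L01_001
import Fermat.Agent.Zm.S35_L10_005
import Fermat.Agent.Zm.S35_L13_002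
import Fermat.Agent.Zm.S44_L02_001
import Fermat.Agent.Zm.S35_L02_001
import Fermat.Agent.Zm.S33_L01_003
import Fermat.Agent.Zm.S44_L02_004
import Fermat.Agent.Zm.S44_L05_001

-- ==== BEGIN Fermat.Agent.BADP.EisMod
section
attribute [local instance 10000] SubalgebraClass.toAlgebra
attribute [local instance 10000] HahnSeries.powerSeriesAlgebra

set_option autoImplicit false
set_option synthInstance.maxHeartbeats 400000
set_option maxHeartbeats 1000000

noncomputable section

open AlgebraicCurve ModularCurve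

namespace Fermat.Agent.BADP

open Fermat.Agent.BAD Fermat.Agent.S44 Fermat.Agent.S43.BadQ Fermat.Agent.S28.H73
  Fermat.Agent.RED.H73

section Datum

variable (A : ValuationSubring (AlgebraicClosure ℚ)) (p M : ℕ) (a b : ℤ)
  (hab : a * p + b * M = 1) (hp : p.Prime) [NeZero (M * p)] [NeZero p]

/-- **The modular datum with the cusps and the modular unit.** -/
structure IsModDatumU
    (S : SSD (AlgebraicClosure ℚ) ↥(FNbar (M * p)) (kV A) (RedF A (M * p)) (RedF A (M * p))) :
    Prop where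
  datum : IsModDatum A p M a b hab hp S
  /-- the cusps of the reduction are good places of the first component -/
  cusp_good : ∀ Q : Place (kV A) (RedF A (M * p)),
    Q.ord (Fermat.Agent.BAD.H91.jRed A (M * p)) < 0 → Q ∈ S.c₁.good
  /-- the modular unit has neither zero nor pole on the fibres of the non-cuspidal places of the
  first component (in particular on the fibres of the nodes) -/
  unit_ord : ∀ (P : Place (AlgebraicClosure ℚ) ↥(FNbar (M * p)))
    (Q : Place (kV A) (RedF A (M * p))), S.c₁.r P = some Q →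
    0 ≤ Q.ord (Fermat.Agent.BAD.H91.jRed A (M * p)) →
    P.ord (Fermat.Agent.BAD.H30.unitF (M * p) p (Dvd.intro_left M rfl)) = 0
  /-- `U / p ^ 12` is a unit for the second valuation (`w_p U = p ^ 12 / U`) -/
  unit_two : S.c₂.IsGU (Fermat.Agent.BAD.H30.unitF (M * p) p (Dvd.intro_left M rfl) /
    algebraMap (AlgebraicClosure ℚ) ↥(FNbar (M * p)) ((p : AlgebraicClosure ℚ) ^ 12))
  /-- the modular unit is fixed by the inertia group -/
  unit_fixed : ∀ σ ∈ A.inertiaSubgroupIn ℚ,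
    galF (M * p) σ • Fermat.Agent.BAD.H30.unitF (M * p) p (Dvd.intro_left M rfl) =
      Fermat.Agent.BAD.H30.unitF (M * p) p (Dvd.intro_left M rfl)

end Datum

/-- **(MOD-P+)**: the modular datum with the cusps and the modular unit exists. -/
def Stmt_ModPlusP : Prop :=
  ∀ (p : ℕ) [NeZero p], 5 ≤ p → ∀ (M : ℕ) (a b : ℤ) (hab : a * p + b * M = 1) (hp : p.Prime)
    [NeZero (M * p)],
    ∀ A : ValuationSubring (AlgebraicClosure ℚ), A.LiesOverPrime p →
      ∃ S : SSD (AlgebraicClosure ℚ) ↥(FNbar (M * p)) (kV A) (RedF A (M * p)) (RedF A (M * p)),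
        IsModDatumU A p M a b hab hp S

/-- **(EIS-MOD)**: the slope vector is Eisenstein, from the abstract assemblies and the modular
leaves.
Proof (plan §12.2): dichotomy `H97.karith_dichotomy`.
Wild case: `I₂ = {τ ∈ I | τ ζ = ζ, τ ω = ω}`; `S36.H61.stmt_NUB0` with `H = I₂` gives a Kummer
pair `(D, h)` of `x` with `h` fixed by `I₂`; `H15.stmt_A1_gen` scales `h` to a `V₁`-unit `f`;
`y₀ = σ x - x ∈ Y ⊆ K1 ∩ w K1` (`S44.isCycOn_le`) has Kummer functions `f₀`, `f₀'` (KUM-W), its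
class is fixed by `I₁` (`IsCycOn`), `σ f = e f f₀ T ^ p` (KUM-CMP); `Stmt_EisAbs` with
`𝓘 = inertiaAuts`, `𝓘1 = stabAuts {ζ}`, `𝓘2 = stabAuts {ζ, ω}`, `KData` by `H97.kdata_fn`,
`H15.stmt_A1`, `H15.stmt_A1_two`, descent by `H15.mem_adjoin_pair_of_fixed`,
`H15.mem_adjoin_singleton_of_fixed`, `U = unitF`, `w = 12`.
Tame case: `x` is fixed by `I₁`; `Stmt_EisAbsTame`.
Then `IsEisPair` with the pair `(D, f)`: at the branches of the nodes by the abstract statement,
at the good places by the divisor identity `S.c₁.DI` and `unit_ord`, `cusp_good`. -/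
def Stmt_EisMod : Prop :=
  Stmt_ModPlusP → Stmt_K0LiftP → Stmt_KumCmp → Stmt_KumW → Stmt_EisAbs → Stmt_EisAbsTame →
    Stmt_EisSlopeP

end Fermat.Agent.BADP

end
end
-- ==== END Fermat.Agent.BADP.EisMod

-- ==== BEGIN Fermat.Agent.BADP.H11_K0LiftP
section

/-!
# S44 BADP, leaf ARITH-0 (helper11): the consumer form `Stmt_K0LiftP`

`stmt_K0LiftP : Stmt_K0LiftP` : every modular datum at `p` has `K0`-rational parts
(`IsK0Lift S (inertiaAuts A (M p))`).  Unconditional.
-/

set_option autoImplicit false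

namespace Fermat.Agent.BADP.H11

open Fermat.Agent.BADP

/-- **(ARITH-0), consumer form**, unconditional. -/
theorem stmt_K0LiftP : Stmt_K0LiftP := by
  intro p _ M a b hab hp _ A hA S hS
  exact isK0Lift_mod hA hS _ (fun τ hτ => hτ)

end Fermat.Agent.BADP.H11

end
-- ==== END Fermat.Agent.BADP.H11_K0LiftP

-- ==== BEGIN Fermat.Agent.BADP.H15_RayMod
section
attribute [local instance 10000] SubalgebraClass.toAlgebra
attribute [local instance 10000] HahnSeries.powerSeriesAlgebra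

/-!
# S44 BADP, (e) RAY: **RAY-MOD** (helper15)

`stmt_RayMod : Stmt_RayMod`, i.e.
`Stmt_ModP → Stmt_K0LiftP → Stmt_KumFix → Stmt_KumW → S44.Stmt_RayK3x`:
the abstract assemblies `H51.stmt_RayAbs` (wild case) and `H51.stmt_RayAbsTame` (tame case)
applied to the modular datum, with the arithmetic hypotheses from `H97_Bridge`
(`kdata_fn`, `stmt_A2_k3`, `keyP_*`) and `H15_DescAdj` (`stmt_A1`, `stmt_A1_two`,
`mem_adjoin_singleton_of_fixed`).
-/

set_option autoImplicit false
set_option linter.style.haveILetI false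
set_option linter.unusedSectionVars false
set_option synthInstance.maxHeartbeats 400000
set_option maxHeartbeats 1000000

noncomputable section

open AlgebraicCurve ModularCurve

namespace Fermat.Agent.BADP.H15

open Fermat.Agent.BAD Fermat.Agent.S44 Fermat.Agent.S43.BadQ Fermat.Agent.S28.H73
  Fermat.Agent.RED.H73 Fermat.Agent.BADP.H97 Fermat.Agent.S24

/-! ## The constants of a modular datum -/

section Datum

variable {A : ValuationSubring (AlgebraicClosure ℚ)} {p M : ℕ} {a b : ℤ}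
  {hab : a * p + b * M = 1} {hp : p.Prime} [NeZero (M * p)]
  {S : SSD (AlgebraicClosure ℚ) ↥(FNbar (M * p)) (kV A) (RedF A (M * p)) (RedF A (M * p))}

theorem wS_smul_const (p M : ℕ) (a b : ℤ) (hab : a * p + b * M = 1) (hp : p.Prime)
    [NeZero (M * p)] (c : AlgebraicClosure ℚ) :
    wS p M a b hab hp • algebraMap (AlgebraicClosure ℚ) ↥(FNbar (M * p)) c
      = algebraMap (AlgebraicClosure ℚ) ↥(FNbar (M * p)) c :=
  (H88.wq p M a b hab hp).commutes c

theorem modDatum_const₁ (hS : IsModDatum A p M a b hab hp S) (c : AlgebraicClosure ℚ) :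
    algebraMap (AlgebraicClosure ℚ) ↥(FNbar (M * p)) c ∈ S.c₁.V ↔ c ∈ A := by
  rw [hS.mem₁]
  exact algebraMap_mem_gaussValSub_iff A _ c

theorem modDatum_const₂ (hS : IsModDatum A p M a b hab hp S) (c : AlgebraicClosure ℚ) :
    algebraMap (AlgebraicClosure ℚ) ↥(FNbar (M * p)) c ∈ S.c₂.V ↔ c ∈ A := by
  rw [hS.mem₂, wS_smul_const]
  exact algebraMap_mem_gaussValSub_iff A _ c

/-- A constant of the maximal ideal of a modular datum lies in the maximal ideal of `A`. -/
theorem val_lt_one_of_isCM (hS : IsModDatum A p M a b hab hp S) {c : AlgebraicClosure ℚ}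
    (hc : S.IsCM c) : A.valuation c < 1 :=
  (val_const_lt_one_iff (modDatum_const₁ hS) c).1 (val_lt_of_rd_eq_zero hc.1 hc.2)

end Datum

/-! ## Kummer pairs -/

section Kummer

variable {N : ℕ} [NeZero N]

/-- A Kummer pair `(D, f)` with `f = e h ^ n` has trivial class. -/
theorem mk_eq_zero_of_pow {n : ℕ} (hn : n ≠ 0)
    (D : Divisor.degZero (K := AlgebraicClosure ℚ) (F := ↥(FNbar N)))
    {f : ↥(FNbar N)} (hf0 : f ≠ 0)
    (hdiv : ∀ P : Place (AlgebraicClosure ℚ) ↥(FNbar N),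
      (n : ℤ) * (D : Divisor (AlgebraicClosure ℚ) ↥(FNbar N)) P = P.ord f)
    {e : AlgebraicClosure ℚ} {h : ↥(FNbar N)}
    (hfe : f = algebraMap (AlgebraicClosure ℚ) ↥(FNbar N) e * h ^ n) :
    (Pic0.mk D : JZero N) = 0 := by
  have he0 : e ≠ 0 := by
    rintro rfl
    rw [map_zero, zero_mul] at hfe
    exact hf0 hfe
  have hh0 : h ≠ 0 := by
    rintro rfl
    rw [zero_pow hn, mul_zero] at hfe
    exact hf0 hfe
  rw [Fermat.Agent.GTor.H33.mk_eq_zero_iff]
  refine ⟨h, hh0, fun P => ?_⟩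
  have h1 := hdiv P
  rw [hfe, Fermat.Agent.RED.H17.ord_algebraMap_mul P he0, ← zpow_natCast, Place.ord_zpow] at h1
  have hn' : (n : ℤ) ≠ 0 := Int.natCast_ne_zero.mpr hn
  exact mul_left_cancel₀ hn' h1

end Kummer

/-! ## Roots -/

section Roots

variable {p : ℕ}

/-- A `p`-th root of unity different from `1` is primitive. -/
theorem isPrimitiveRoot_of_ne_one (hp : p.Prime) {ζ : AlgebraicClosure ℚ} (hζ : ζ ^ p = 1)
    (h1 : ζ ≠ 1) : IsPrimitiveRoot ζ p := by
  have hd : orderOf ζ ∣ p := orderOf_dvd_of_pow_eq_one hζ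
  rcases (Nat.dvd_prime hp).1 hd with h | h
  · exact absurd (orderOf_eq_one_iff.1 h) h1
  · rw [← h]
    exact IsPrimitiveRoot.orderOf ζ

end Roots

/-! ## The assembly -/

/-- **(RAY-MOD)**. -/
theorem stmt_RayMod : Stmt_RayMod := by
  intro hMod hK0 hKumFix hKumW p hp5 M a b hab hp _ A hA x u ω hx hwx hu hgood hfix
  have hp2 : p ≠ 2 := by omega
  haveI : IsAlgClosed (kV A) := isAlgClosed_kV A
  have hchar : CharP (kV A) p := Fermat.Agent.BAD.H82.charP_kV A hp hA
  have hpK : (p : AlgebraicClosure ℚ) ≠ 0 := Nat.cast_ne_zero.2 hp.ne_zero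
  obtain ⟨S, hS⟩ := hMod p hp5 M a b hab hp A hA
  have hK0S := hK0 p hp5 M a b hab hp A hA S hS
  obtain ⟨g, g₁, c, c₁, hg, hg₁, hnum⟩ := hS.genus
  obtain ⟨D, f, f', h₀, c₀, hf, hf', hxD, hdiv, hrf, hrf', hff'⟩ :=
    hKumW p M a b hab hp p A (jzModule.pt (M * p) p x) hx hwx
  -- the Kummer function
  have hf₁ : f ∈ S.c₁.V := (hS.mem₁ f).2 hf
  have hrd₁ : S.c₁.rd f = 1 := by
    rw [S.c₁.rd_of_mem hf₁, hS.red₁ ⟨f, hf⟩ hf₁, hrf]
  have hf0 : f ≠ 0 := by
    rintro rfl
    rw [S.c₁.rd_zero] at hrd₁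
    exact zero_ne_one hrd₁
  have hf'₂ : f' ∈ S.c₂.V := (hS.mem₂ f').2 hf'
  have hrd₂ : S.c₂.rd f' = 1 := by
    rw [S.c₂.rd_of_mem hf'₂, hS.red₂ f' hf'₂ hf', hrf']
  have hdivp : ∀ P : Place (AlgebraicClosure ℚ) ↥(FNbar (M * p)), (p : ℤ) ∣ P.ord f :=
    fun P => ⟨_, (hdiv P).symm⟩
  have h𝓘 : ∀ τ ∈ inertiaAuts A (M * p), S.IsInertial τ := by
    rintro τ ⟨σ, hσ, rfl⟩
    exact hS.inertial σ hσ
  -- it is enough to show that `f` is a constant times a `p`-th power
  suffices hmain : ∃ (e : AlgebraicClosure ℚ) (h : ↥(FNbar (M * p))),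
      f = algebraMap (AlgebraicClosure ℚ) ↥(FNbar (M * p)) e * h ^ p by
    obtain ⟨e, h, hfe⟩ := hmain
    have h0 := mk_eq_zero_of_pow hp.ne_zero D hf0 hdiv hfe
    rw [← hxD] at h0
    apply jzModule.pt_injective (M * p) p
    rw [h0]
    rfl
  -- the Kummer functions of the conjugates
  have hcls : ∀ σ ∈ A.inertiaSubgroupIn ℚ, σ ω = ω →
      ∃ (e : AlgebraicClosure ℚ) (T : ↥(FNbar (M * p))),
        galF (M * p) σ • f = algebraMap (AlgebraicClosure ℚ) ↥(FNbar (M * p)) e * f * T ^ p := by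
    intro σ hσ hσω
    refine hKumFix (M * p) p (jzModule.pt (M * p) p x) D f hf0 hxD hdiv σ ?_
    rw [← jzModule.pt_gal, hfix σ hσ hσω]
  obtain ⟨hω, τ₀, hτ₀, hτ₀ω, ζ, hζp, hτ₀ζ⟩ := hgood
  have hζ1 : ζ ≠ 1 := by
    rintro rfl
    exact hτ₀ζ (map_one τ₀)
  have hζ : IsPrimitiveRoot ζ p := isPrimitiveRoot_of_ne_one hp hζp hζ1
  have hu0 : (u : AlgebraicClosure ℚ) ≠ 0 := by
    intro h0
    have : u = 0 := by exact_mod_cast h0
    exact hu (this ▸ dvd_zero _)
  have hω0 : ω ≠ 0 := by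
    rintro rfl
    rw [zero_pow hp.ne_zero] at hω
    exact hu0 hω.symm
  rcases karith_dichotomy hp hp2 hA u hu hζ with ⟨z, hzK, hz⟩ | ⟨t, ω', σ', htK, ht, htω, hσ', hKD⟩
  · -- the tame case: the good root lies in `K₀`
    have hz0 : z ≠ 0 := by
      rintro rfl
      rw [zero_pow hp.ne_zero] at hz
      exact hu0 hz.symm
    have hξ : (ω / z) ^ p = 1 := by
      rw [div_pow, hω, hz, div_self hu0]
    have hτξ : τ₀ (ω / z) = ω / z := by
      rw [map_div₀, hτ₀ω, mem_K0.1 hzK τ₀ hτ₀]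
    have hξ1 : ω / z = 1 := by
      by_contra hne
      have hprim := isPrimitiveRoot_of_ne_one hp hξ hne
      haveI : NeZero p := ⟨hp.ne_zero⟩
      obtain ⟨i, -, hi⟩ := hprim.eq_pow_of_pow_eq_one hζp
      apply hτ₀ζ
      rw [← hi, map_pow, hτξ]
    have hωz : ω = z := by
      field_simp at hξ1
      exact hξ1
    have hωK : ω ∈ K0 A := hωz ▸ hzK
    refine Fermat.Agent.BADP.H51.stmt_RayAbsTame (AlgebraicClosure ℚ) ↥(FNbar (M * p)) (kV A)
      (RedF A (M * p)) (RedF A (M * p)) S hS.ff hS.ff₁ hS.ff₁ g g₁ g₁ c c₁ c₁ hg hg₁ hg₁ hnum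
      p hp hp2 hchar hpK (inertiaAuts A (M * p)) h𝓘 hK0S ?_ f hf₁ hrd₁ hdivp f' h₀ c₀ hf'₂
      hrd₂ hff' ?_
    · -- the linear regime
      intro a₀ ha₀ haCM
      have haK : a₀ ∈ K0 A := mem_K0.2 fun σ hσ => ha₀ (galF (M * p) σ) ⟨σ, hσ, rfl⟩
      have hav : A.valuation a₀ < 1 := val_lt_one_of_isCM hS haCM
      have hav' := val_le_p_of_lt_one hp hA haK hav
      have hvp0 : A.valuation (p : AlgebraicClosure ℚ) ≠ 0 := val_p_ne hp
      refine ⟨a₀ ^ (p - 1) / (p : AlgebraicClosure ℚ), ?_, ?_⟩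
      · refine rd_const_eq_zero (modDatum_const₁ hS) ?_
        rw [map_div₀, map_pow]
        have h2 : p - 1 = (p - 2) + 1 := by omega
        rw [h2, pow_succ]
        have h3 : A.valuation a₀ ^ (p - 2) < 1 :=
          pow_lt_one₀ zero_le hav (by omega)
        calc A.valuation a₀ ^ (p - 2) * A.valuation a₀ / A.valuation (p : AlgebraicClosure ℚ)
            ≤ A.valuation a₀ ^ (p - 2) * A.valuation (p : AlgebraicClosure ℚ)
                / A.valuation (p : AlgebraicClosure ℚ) := by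
              gcongr
              exact zero_le
          _ = A.valuation a₀ ^ (p - 2) := by
              rw [mul_div_assoc, div_self hvp0, mul_one]
          _ < 1 := h3
      · have h2 : p = (p - 1) + 1 := by omega
        conv_lhs => rw [h2, pow_succ]
        field_simp
    · rintro τ ⟨σ, hσ, rfl⟩
      exact hcls σ hσ (mem_K0.1 hωK σ hσ)
  · -- the wild case
    have hp1 : p - 1 ≠ 0 := Nat.sub_ne_zero_of_lt hp.one_lt
    have ht0 : t ≠ 0 := by
      rintro rfl
      rw [zero_pow hp1] at ht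
      exact zero_ne_one ht
    obtain ⟨u1, hu1K, hu1v, hω'⟩ := hKD.pow
    have hω'0 : ω' ≠ 0 := by
      rintro rfl
      rw [mul_zero, zero_pow hp.ne_zero] at htω
      exact hu0 htω.symm
    -- the root `ω₁ = ω / t` of `1 + p u₁`
    set ω₁ : AlgebraicClosure ℚ := ω / t with hω₁def
    have hω₁p : ω₁ ^ p = ω' ^ p := by
      rw [hω₁def, div_pow, hω, ← htω, mul_pow]
      field_simp
    have hω₁ : ω₁ ^ p = 1 + (p : AlgebraicClosure ℚ) * u1 := by rw [hω₁p, hω']
    have hξ : (ω₁ / ω') ^ p = 1 := by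
      rw [div_pow, hω₁p, div_self (pow_ne_zero _ hω'0)]
    haveI : NeZero p := ⟨hp.ne_zero⟩
    obtain ⟨i, -, hi⟩ := hζ.eq_pow_of_pow_eq_one hξ
    have hσ'ω₁ : σ' ω₁ = ζ * ω₁ := by
      have e1 : ω₁ = ζ ^ i * ω' := by
        rw [hi]
        field_simp
      have hσζ : σ' ζ = ζ := hKD.σζ
      have hσω' : σ' ω' = ζ * ω' := hKD.σω
      rw [e1, map_mul, map_pow, hσζ, hσω']
      ring
    have hKD₁ : KData A.valuation (K0 A) p ζ ω₁
        (σ' : AlgebraicClosure ℚ →+* AlgebraicClosure ℚ) :=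
      kdata_qbar hp hA hζ hu1K hu1v hω₁ hσ' hKD.σζ hσ'ω₁
    -- the stabilisers of `ω` and `ω₁` coincide
    have hstab : ∀ σ ∈ A.inertiaSubgroupIn ℚ, σ ω₁ = ω₁ → σ ω = ω := by
      intro σ hσ h1
      have e1 : ω = t * ω₁ := by
        rw [hω₁def]
        field_simp
      rw [e1, map_mul, mem_K0.1 htK σ hσ, h1]
    -- the transferred data
    have hK₁ := kdata_fn (T := S.c₁) (modDatum_const₁ hS) hA hKD₁ hσ' (galF (M * p) σ')
      (fun _ => rfl) (hS.inertial σ' hσ').mem₁ (fixF (M * p) (inertiaSet A))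
      (fun c hc => const_mem_F0 (M * p) A hc) (fun g hg => galF_F0 (M * p) A hσ' hg)
      (stmt_A1 (M * p) A S.c₁ (fun f hf => (hS.mem₁ f).2 hf))
    have hK₂ := kdata_fn (T := S.c₂) (modDatum_const₂ hS) hA hKD₁ hσ' (galF (M * p) σ')
      (fun _ => rfl) (hS.inertial σ' hσ').mem₂ (fixF (M * p) (inertiaSet A))
      (fun c hc => const_mem_F0 (M * p) A hc) (fun g hg => galF_F0 (M * p) A hσ' hg)
      (stmt_A1_two A p M a b hab hp S.c₂ (fun f hf => (hS.mem₂ f).2 hf))
    have hadj : ∀ y : ↥(FNbar (M * p)),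
        (∀ τ ∈ stabAuts A (M * p) {ω₁}, τ • y = y) →
        y ∈ IntermediateField.adjoin (fixF (M * p) (inertiaSet A))
          ({algebraMap (AlgebraicClosure ℚ) ↥(FNbar (M * p)) ω₁} : Set ↥(FNbar (M * p))) := by
      intro y hy
      refine mem_adjoin_singleton_of_fixed (M * p) A hp hA ω₁ fun σ hσ hσω => ?_
      exact hy (galF (M * p) σ) ⟨σ, hσ, fun t ht => by rw [Set.mem_singleton_iff.1 ht, hσω], rfl⟩
    refine Fermat.Agent.BADP.H51.stmt_RayAbs (AlgebraicClosure ℚ) ↥(FNbar (M * p)) (kV A)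
      (RedF A (M * p)) (RedF A (M * p)) S hS.ff hS.ff₁ hS.ff₁ g g₁ g₁ c c₁ c₁ hg hg₁ hg₁ hnum
      p hp hp2 hchar hpK (inertiaAuts A (M * p)) (stabAuts A (M * p) {ω₁}) h𝓘 ?_ hK0S
      (ζ - 1) (ω₁ - 1) (keyP_pi_isCM (T := S.c₁) (modDatum_const₁ hS) hKD₁ hp2)
      (sub_ne_zero.2 hζ1) (keyP_pi (T := S.c₁) (modDatum_const₁ hS) hKD₁ hp2)
      (keyP_varpi_isCM (T := S.c₁) (modDatum_const₁ hS) hKD₁)
      (keyP_varpi (T := S.c₁) (modDatum_const₁ hS) hKD₁)
      (galF (M * p) σ') ⟨σ', hσ', rfl⟩ ?_ ?_ ?_ f hf₁ hrd₁ hdivp f' h₀ c₀ hf'₂ hrd₂ hff' ?_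
    · rintro τ ⟨σ, hσ, -, rfl⟩
      exact ⟨σ, hσ, rfl⟩
    · intro y hy hyV
      exact stmt_A2_k3 hK₁ (hadj y hy) hyV
    · intro y hy hyV
      exact stmt_A2_k3 hK₂ (hadj y hy) hyV
    · intro a₀ ha₀ haCM
      have haA : a₀ ∈ A.nonunits := A.mem_nonunits_iff.2 (val_lt_one_of_isCM hS haCM)
      have ha' : ∀ τ ∈ A.inertiaSubgroupIn ℚ, τ ω₁ = ω₁ → τ a₀ = a₀ := fun τ hτ hτω =>
        ha₀ (galF (M * p) τ)
          ⟨τ, hτ, fun t ht => by rw [Set.mem_singleton_iff.1 ht, hτω], rfl⟩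
      have h3 := keyP_A3 (T := S.c₁) (modDatum_const₁ hS) hA hKD₁ haA ha'
      rw [mul_one] at h3
      exact h3
    · rintro τ ⟨σ, hσ, hσω, rfl⟩
      exact hcls σ hσ (hstab σ hσ (hσω ω₁ rfl))

end Fermat.Agent.BADP.H15

end
end
-- ==== END Fermat.Agent.BADP.H15_RayMod

-- ==== BEGIN Fermat.Agent.BADP.H57_Kum
section

/-!
# S44, package BAD_p, leaf KUM (helper57): `Stmt_KumCmp`, `Stmt_KumFix`, `Stmt_KumW`

* KUM-CMP: `[D] = [D']` gives `D - D' = div T`, so `f / (f' T ^ n)` has no zeros and poles and is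
  constant.
* KUM-FIX: `(σ D, σ f)` and `(D, f)` are Kummer pairs of the same class.
* KUM-W: if `(D₂, g)` is a Kummer pair of `w x` with `g ≡ 1`, then `(w⁻¹ D₂, w⁻¹ g)` is a Kummer
  pair of `x`; compare with the Kummer pair `(D, f)`, `f ≡ 1`, of `x`.
-/

set_option autoImplicit false
set_option linter.style.haveILetI false
set_option linter.unusedSectionVars false
set_option synthInstance.maxHeartbeats 400000
set_option maxHeartbeats 1000000

noncomputable section

open AlgebraicCurve ModularCurve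

namespace Fermat.Agent.BADP.H57

open Fermat.Agent.BAD Fermat.Agent.S44 Fermat.Agent.S43.BadQ Fermat.Agent.S28.H73
  Fermat.Agent.RED.H73 Fermat.Agent.BADP

theorem isFF_level (N : ℕ) [NeZero N] :
    Fermat.Agent.RED.IsFF (AlgebraicClosure ℚ) ↥(FNbar N) :=
  Fermat.Agent.RED.H95.stmt_HKA_isFF N

/-- **KUM-CMP.** -/
theorem stmt_KumCmp : Stmt_KumCmp := by
  intro N _ n D D' f f' hf hf' hD hD' h
  exact kum_cmp_abs (isFF_level N) n D D' f f' hf hf' hD hD' h

/-- **KUM-FIX.** -/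
theorem stmt_KumFix : Stmt_KumFix := by
  intro N _ n x D f hf hx hD σ hσ
  subst hx
  exact kum_fix_abs (isFF_level N) n (galF N σ) D f hf hD hσ

/-- **KUM-W.** -/
theorem stmt_KumW : Stmt_KumW := by
  intro p M a b hab hp _ n A x h1 h2
  obtain ⟨D, f, hx, hres, hD⟩ := h1
  obtain ⟨D₂, g, hx₂, hres₂, hD₂⟩ := h2
  have hf0 : ((f : ↥(gaussV A (M * p))) : ↥(FNbar (M * p))) ≠ 0 :=
    ne_zero_of_gaussRes_eq_one hres
  have hg0 : ((g : ↥(gaussV A (M * p))) : ↥(FNbar (M * p))) ≠ 0 :=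
    ne_zero_of_gaussRes_eq_one hres₂
  have hwf' : wS p M a b hab hp • ((wS p M a b hab hp)⁻¹ •
      ((g : ↥(gaussV A (M * p))) : ↥(FNbar (M * p))))
      = ((g : ↥(gaussV A (M * p))) : ↥(FNbar (M * p))) := smul_inv_smul _ _
  have hf'0 : (wS p M a b hab hp)⁻¹ • ((g : ↥(gaussV A (M * p))) : ↥(FNbar (M * p))) ≠ 0 :=
    smul_ne_zero_h57 _ hg0
  have hD' := kum_smul_abs n (wS p M a b hab hp)⁻¹ D₂
    ((g : ↥(gaussV A (M * p))) : ↥(FNbar (M * p))) hD₂
  have hmk : (Pic0.mk D : JZero (M * p))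
      = Pic0.mk (SemilinearAut.degZeroSMulHom (wS p M a b hab hp)⁻¹ D₂) := by
    rw [← SemilinearAut.pic0_smul_mk, ← hx₂, ← hx, inv_smul_smul]
  obtain ⟨c, h₀, hc⟩ := kum_cmp_abs (isFF_level (M * p)) n D _
    ((f : ↥(gaussV A (M * p))) : ↥(FNbar (M * p))) _ hf0 hf'0 hD hD' hmk
  have hmem : wS p M a b hab hp • ((wS p M a b hab hp)⁻¹ •
      ((g : ↥(gaussV A (M * p))) : ↥(FNbar (M * p)))) ∈ gaussV A (M * p) := by
    rw [hwf']
    exact g.2
  refine ⟨D, ((f : ↥(gaussV A (M * p))) : ↥(FNbar (M * p))),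
    (wS p M a b hab hp)⁻¹ • ((g : ↥(gaussV A (M * p))) : ↥(FNbar (M * p))), h₀, c, f.2, hmem,
    hx, hD, hres, ?_, hc⟩
  have e : (⟨_, hmem⟩ : ↥(gaussV A (M * p))) = g := Subtype.ext hwf'
  rw [e]
  exact hres₂

end Fermat.Agent.BADP.H57

end
end
-- ==== END Fermat.Agent.BADP.H57_Kum

-- ==== BEGIN Fermat.Agent.BADP.H74_HDrop
section

set_option autoImplicit false
set_option linter.style.haveILetI false
set_option linter.unusedSectionVars false
set_option synthInstance.maxHeartbeats 400000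
set_option maxHeartbeats 1000000

noncomputable section

open AlgebraicCurve ModularCurve Fermat.Agent.S28.H73 Fermat.Agent.RED.H73 Fermat.Agent.RED
open Fermat.Agent.BAD Fermat.Agent.S43.Old.H35 Fermat.Agent.S44 Fermat.Agent.S43.BadQ

namespace Fermat.Agent.BADP.H74

theorem resTo_self (A : ValuationSubring (AlgebraicClosure ℚ)) (N : ℕ)
    (f : ↥(gaussV A N)) : resTo A N (Ft A N) le_rfl f = gaussRes A N f := rfl

/-- **(d6) = H-DROP.** -/
theorem stmt_HDropP : Fermat.Agent.BADP.Stmt_HDropP := by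
  intro p _ hp hp5 N _ hd hp2 A hA S t x hEig hNE D f c hpair
  obtain ⟨ℓ, hℓ, hℓS, hℓN, hℓp, hne⟩ := hNE
  haveI : NeZero ℓ := ⟨hℓ.ne_zero⟩
  obtain ⟨M, hM⟩ : ∃ M, N = M * p := by
    obtain ⟨M, hM⟩ := hd
    exact ⟨M, by rw [hM, mul_comm]⟩
  subst hM
  haveI hM0 : NeZero M := ⟨fun h0 => NeZero.ne (M * p) (by rw [h0, zero_mul])⟩
  have hpM : ¬ p ∣ M := by
    rintro ⟨k, hk⟩
    apply hp2
    refine ⟨k, ?_⟩
    rw [hk]
    ring
  obtain ⟨hx, hfne, hD, hQ⟩ := hpair
  -- the eigen-equation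
  have hT : heckeOperatorBar (M * p) ⟨ℓ, hℓ⟩ (Pic0.mk D) = t ℓ • Pic0.mk D := by
    have h1 := hEig ℓ hℓ hℓS hℓN hℓp
    have h2 := congrArg (jzModule.pt (M * p) p) h1
    rw [jzModule.pt_T (M * p) p hℓ hℓN] at h2
    rw [← hx]
    exact h2.trans (coe_intCast_smul p (M * p) (t ℓ) x)
  -- the system is not Eisenstein at `ℓ`
  have ht : ¬ (p : ℤ) ∣ t ℓ - ((ℓ : ℤ) + 1) := by
    intro h
    apply hne
    have h1 := (ZMod.intCast_eq_intCast_iff_dvd_sub ((ℓ : ℤ) + 1) (t ℓ) p).2 h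
    rw [← h1]
    push_cast
    ring
  have key := hdrop_E A M p ℓ hp hpM hℓ hℓN hA (Ft A (M * p)) (ft_mul_eq A p M hp hpM hA).symm
    le_rfl (t ℓ) ht D f hfne hD hT hd c hQ
  exact ⟨D, f, hx, hfne, hD, fun Q => key Q⟩

end Fermat.Agent.BADP.H74

end
end
-- ==== END Fermat.Agent.BADP.H74_HDrop

-- ==== BEGIN Fermat.Agent.S43.Old.H75_Star
section
attribute [local instance 10000] SubalgebraClass.toAlgebra
attribute [local instance 10000] HahnSeries.powerSeriesAlgebra

/-!
# S43, leaf OLD, package STAR (helper75)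

`stmt_Star : Stmt_Star`: an additive endomorphism `T` of `J₀(M)(ℚ̄)` which commutes with `G_ℚ`
and kills the torsion satisfies `redM ∘ T = 0`, `redM` the reduction modulo a place over `q ∤ M`.

Proof (`star_abs`): `x` is fixed by an open subgroup `G_L` (W4); a power `σ = σ₀ⁿ` of a Frobenius
element at `A` lies in `G_L`; the reduction map is equivariant for `σ` and the coefficientwise
`qⁿ`-Frobenius `gt` of the reduced field (`stmt_EQ`); the `gt`-fixed classes of `Pic⁰` form a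
finite group (`L.H28.stmt_FrobFin`), of exponent `h`; `J₀(M)(ℚ̄)` is divisible (S17-W2).
-/

set_option autoImplicit false
set_option linter.style.haveILetI false
set_option linter.unusedSectionVars false
set_option synthInstance.maxHeartbeats 400000
set_option maxHeartbeats 1600000

noncomputable section

open AlgebraicCurve ModularCurve Fermat.Agent.S28.H73 Fermat.Agent.RED.H73
open Fermat.Agent.RED

namespace Fermat.Agent.S43.Old.H75

section Abs

variable {C : Type} [Field C] (O : ValuationSubring C)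
variable {F : IntermediateField C (LaurentSeries C)} (h : HasScale O F)
variable {r : Place C ↥F → Place (kV O) ↥(redField O F h)}

/-- If `r` is equivariant for `(g, gt)` and the `gt`-fixed classes of `Pic⁰` of the reduced field
are killed by `n`, then the reduction of every `g`-fixed class is killed by `n`. -/
theorem redPic_nsmul_eq_zero_of_fixed (hr : IsRed O h r)
    (hdeg : ∀ v : Place C ↥F, v.deg = 1)
    (hdeg' : ∀ v : Place (kV O) ↥(redField O F h), v.deg = 1)
    (g : SemilinearAut C ↥F) (gt : SemilinearAut (kV O) ↥(redField O F h))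
    (hgr : ∀ P : Place C ↥F, r (g • P) = gt • r P)
    (n : ℕ) (hn : ∀ y : Pic0 (kV O) ↥(redField O F h), gt • y = y → n • y = 0)
    (z : Pic0 C ↥F) (hz : g • z = z) : n • H36.redPic O h hr z = 0 := by
  obtain ⟨D, rfl⟩ := Pic0.mk_surjective z
  have hD0 : Divisor.degree (D : Divisor C ↥F) = 0 := Divisor.mem_degZero.mp D.2
  have hD' : Finsupp.mapDomain r (D : Divisor C ↥F)
      ∈ Divisor.degZero (K := kV O) (F := ↥(redField O F h)) := by
    rw [Divisor.mem_degZero, H17.degree_mapDomain hdeg hdeg', hD0]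
  -- `g D - D` is principal
  have h1 : -(g • (D : Divisor C ↥F)) + (D : Divisor C ↥F)
      ∈ Divisor.principal (K := C) (F := ↥F) := by
    rw [SemilinearAut.pic0_smul_mk] at hz
    have h2 := (QuotientAddGroup.eq (s := (Divisor.principal (K := C) (F := ↥F)).addSubgroupOf
      (Divisor.degZero (K := C) (F := ↥F)))).mp hz
    rw [AddSubgroup.mem_addSubgroupOf] at h2
    exact h2
  have h3 := H36.mapDomain_mem_principal O h hr h1
  have e1 : Finsupp.mapDomain r (-(g • (D : Divisor C ↥F)))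
      = -(Finsupp.mapDomain r (g • (D : Divisor C ↥F))) :=
    map_neg (Finsupp.mapDomain.addMonoidHom r) _
  have e2 : Finsupp.mapDomain r (g • (D : Divisor C ↥F))
      = gt • Finsupp.mapDomain r (D : Divisor C ↥F) := by
    rw [SemilinearAut.divisor_smul_def, SemilinearAut.divisor_smul_def,
      ← Finsupp.mapDomain_comp, ← Finsupp.mapDomain_comp]
    congr 1
    funext P
    exact hgr P
  rw [Finsupp.mapDomain_add, e1, e2] at h3
  -- the class of `r_* D` is fixed by `gt`
  have hy : gt • Pic0.mk (⟨Finsupp.mapDomain r (D : Divisor C ↥F), hD'⟩ :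
      Divisor.degZero (K := kV O) (F := ↥(redField O F h)))
      = Pic0.mk ⟨Finsupp.mapDomain r (D : Divisor C ↥F), hD'⟩ := by
    rw [SemilinearAut.pic0_smul_mk]
    refine (QuotientAddGroup.eq (s := (Divisor.principal (K := kV O)
      (F := ↥(redField O F h))).addSubgroupOf
      (Divisor.degZero (K := kV O) (F := ↥(redField O F h))))).mpr ?_
    rw [AddSubgroup.mem_addSubgroupOf]
    exact h3
  have h4 := hn _ hy
  have h5 : n • (⟨Finsupp.mapDomain r (D : Divisor C ↥F), hD'⟩ :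
      Divisor.degZero (K := kV O) (F := ↥(redField O F h)))
      ∈ (Divisor.principal (K := kV O) (F := ↥(redField O F h))).addSubgroupOf
        (Divisor.degZero (K := kV O) (F := ↥(redField O F h))) :=
    (QuotientAddGroup.eq_zero_iff _).mp h4
  rw [AddSubgroup.mem_addSubgroupOf] at h5
  rw [H36.redPic_mk]
  exact (QuotientAddGroup.eq_zero_iff _).mpr h5

end Abs

section Frob

/-- The residual action of a power of a Frobenius element. -/
theorem frob_pow_smul (A : ValuationSubring (AlgebraicClosure ℚ))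
    {σ₀ : AlgebraicClosure ℚ ≃ₐ[ℚ] AlgebraicClosure ℚ} {q : ℕ}
    (hσ₀ : A.IsFrobeniusAt σ₀ q) (n : ℕ) (hn : σ₀ ^ n ∈ A.decompositionSubgroup ℚ) (a : kV A) :
    (⟨σ₀ ^ n, hn⟩ : A.decompositionSubgroup ℚ) • a = a ^ (q ^ n) := by
  induction n generalizing a with
  | zero =>
    have h1 : (⟨σ₀ ^ 0, hn⟩ : A.decompositionSubgroup ℚ) = 1 := Subtype.ext (pow_zero σ₀)
    rw [h1, one_smul, pow_zero, pow_one]
  | succ n ih =>
    have hn' : σ₀ ^ n ∈ A.decompositionSubgroup ℚ :=
      Subgroup.pow_mem _ hσ₀.mem_decompositionSubgroup n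
    have h1 : (⟨σ₀ ^ (n + 1), hn⟩ : A.decompositionSubgroup ℚ)
        = ⟨σ₀ ^ n, hn'⟩ * ⟨σ₀, hσ₀.mem_decompositionSubgroup⟩ := Subtype.ext (pow_succ σ₀ n)
    rw [h1, mul_smul, hσ₀.smul_residue_eq, ih hn', ← pow_mul, pow_succ, mul_comm]

end Frob

/-- **STAR.** -/
theorem stmt_Star : Stmt_Star := by
  intro M q _ hq hqM A hA r hr T hcomm htors x
  haveI : IsAlgClosed (kV A) := isAlgClosed_kV A
  have hFF := H95.stmt_HKA_isFF M
  have hFt := isFF_redField_bar M q hq hqM A hA
  have H := H17.ffHyp_of_isFF _ _ hFF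
  have Ht := H17.ffHyp_of_isFF _ _ hFt
  obtain ⟨g, c, hg⟩ := H17.exists_isGenus _ _ hFt
  obtain ⟨σ₀, hσ₀⟩ := Fermat.Agent.Lib.FrobExists.exists_isFrobeniusAt q hq A hA
  refine star_abs (G := AlgebraicClosure ℚ ≃ₐ[ℚ] AlgebraicClosure ℚ)
    (H36.redPic A (hasScale_laurentBaseChange A M) hr) T
    (fun n hn y => divisible_all M n hn y) htors hcomm ?_ x
  intro x
  obtain ⟨L, hL, hLx⟩ := Fermat.Agent.S17.H8.stmt_open_stab M x
  have halg : Algebra.IsAlgebraic ℚ (AlgebraicClosure ℚ) := AlgebraicClosure.isAlgebraic ℚ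
  have halc : IsAlgClosure ℚ (AlgebraicClosure ℚ) := ⟨inferInstance, inferInstance⟩
  have hgal : IsGalois ℚ (AlgebraicClosure ℚ) := inferInstance
  have hfi : L.fixingSubgroup.FiniteIndex := by
    rw [Subgroup.finiteIndex_iff, ← IntermediateField.finrank_eq_fixingSubgroup_index]
    exact Module.finrank_pos.ne'
  obtain ⟨n, hn0, hn⟩ := exists_pow_mem L.fixingSubgroup σ₀
  have hσD : σ₀ ^ n ∈ A.decompositionSubgroup ℚ :=
    Subgroup.pow_mem _ hσ₀.mem_decompositionSubgroup n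
  obtain ⟨gt, hcoeff, hgr⟩ := H36.stmt_EQ M q hq hqM A hA r hr (σ₀ ^ n) hσD
  have hQ : 1 < q ^ n := Nat.one_lt_pow hn0.ne' hq.one_lt
  have hbase : ∀ a : kV A, SemilinearAut.baseAut gt a = a ^ (q ^ n) := by
    intro a
    have h1 := SemilinearAut.smul_algebraMap gt a
    have h2 : ((gt • algebraMap (kV A) ↥(redField A (modularFunctionFieldBar M)
        (hasScale_laurentBaseChange A M)) a : ↥(redField A (modularFunctionFieldBar M)
        (hasScale_laurentBaseChange A M))) : LaurentSeries (kV A)).coeff 0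
        = ((algebraMap (kV A) ↥(redField A (modularFunctionFieldBar M)
        (hasScale_laurentBaseChange A M)) (SemilinearAut.baseAut gt a) :
        ↥(redField A (modularFunctionFieldBar M)
        (hasScale_laurentBaseChange A M))) : LaurentSeries (kV A)).coeff 0 := by
      rw [h1]
    rw [hcoeff] at h2
    have h3 : ∀ b : kV A, ((algebraMap (kV A) ↥(redField A (modularFunctionFieldBar M)
        (hasScale_laurentBaseChange A M)) b : ↥(redField A (modularFunctionFieldBar M)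
        (hasScale_laurentBaseChange A M))) : LaurentSeries (kV A)).coeff 0 = b := by
      intro b
      show (algebraMap (kV A) (LaurentSeries (kV A)) b).coeff 0 = b
      rw [algebraMap_kV]
      simp
    rw [h3, h3, frob_pow_smul A hσ₀ n hσD] at h2
    exact h2.symm
  have hxfix : ∃ y : ↥(redField A (modularFunctionFieldBar M) (hasScale_laurentBaseChange A M)),
      y ∉ Set.range (algebraMap (kV A) ↥(redField A (modularFunctionFieldBar M)
        (hasScale_laurentBaseChange A M))) ∧ gt • y = y := by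
    have hmem : jqModC (kV A) ∈ redField A (modularFunctionFieldBar M)
        (hasScale_laurentBaseChange A M) := by
      rw [stmt_GA M q hq hqM A hA]
      exact jqModC_mem_full (kV A) M
    refine ⟨⟨jqModC (kV A), hmem⟩, ?_, ?_⟩
    · rintro ⟨b, hb⟩
      have h1 : ((algebraMap (kV A) ↥(redField A (modularFunctionFieldBar M)
          (hasScale_laurentBaseChange A M)) b : ↥(redField A (modularFunctionFieldBar M)
          (hasScale_laurentBaseChange A M))) : LaurentSeries (kV A)).coeff (-1)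
          = (jqModC (kV A)).coeff (-1) := by
        rw [hb]
      have h2 : ((algebraMap (kV A) ↥(redField A (modularFunctionFieldBar M)
          (hasScale_laurentBaseChange A M)) b : ↥(redField A (modularFunctionFieldBar M)
          (hasScale_laurentBaseChange A M))) : LaurentSeries (kV A)).coeff (-1) = 0 := by
        show (algebraMap (kV A) (LaurentSeries (kV A)) b).coeff (-1) = 0
        rw [algebraMap_kV]
        simp
      rw [h2, coeff_jqModC_neg_one] at h1
      exact zero_ne_one h1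
    · apply Subtype.ext
      ext m
      rw [hcoeff]
      show (⟨σ₀ ^ n, hσD⟩ : A.decompositionSubgroup ℚ) • (jqModC (kV A)).coeff m
        = (jqModC (kV A)).coeff m
      rw [coeff_jqModC_eq_intCast]
      exact map_intCast (MulSemiringAction.toRingHom (A.decompositionSubgroup ℚ) (kV A)
        ⟨σ₀ ^ n, hσD⟩) _
  have hfin := Fermat.Agent.L.H28.stmt_FrobFin (kV A) _ Ht g c hg gt (q ^ n) hQ hbase hxfix
  obtain ⟨h, hh0, hh⟩ := exists_exponent_of_finite_fixed
    (DistribSMul.toAddMonoidHom (Pic0 (kV A) ↥(redField A (modularFunctionFieldBar M)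
      (hasScale_laurentBaseChange A M))) gt) hfin
  refine ⟨σ₀ ^ n, h, hh0, hLx _ hn, fun z hz => ?_⟩
  exact redPic_nsmul_eq_zero_of_fixed A (hasScale_laurentBaseChange A M) hr H.deg_one Ht.deg_one
    (arithmeticGalois (modularFunctionFieldFull M) (σ₀ ^ n)) gt hgr h (fun y hy => hh y hy) z hz

end Fermat.Agent.S43.Old.H75

end
end
-- ==== END Fermat.Agent.S43.Old.H75_Star

-- ==== BEGIN Fermat.Agent.S44.C.H33_Main
section

set_option autoImplicit false

namespace Fermat.Agent.S44.C.H33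

/-- **Package C**: for a Frey package with `p ∣ abc`, the `p`-torsion of the Frey curve is
two-dimensional and finite (peu ramifiée) at `p`. -/
theorem stmt_FreyFiniteAtP : Fermat.Agent.S44.Stmt_FreyFiniteAtP :=
  stmt_FreyFiniteAtP_of H01.stmt_V1 H01.stmt_V3 H19.stmt_F1 H19.stmt_F2 H19.stmt_F3 H19.stmt_F4
    H38.stmt_M H38.stmt_L4

end Fermat.Agent.S44.C.H33

end
-- ==== END Fermat.Agent.S44.C.H33_Main
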